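/-
Programme R (S59), node [MP′], work package WP-X [AUX] (helper7 #3285 §3; helper2, prefix `s59b_`):
**pull-back and push-forward between the levels `N ∣ N'`** in the vocabulary of `Lib/S44/Iface`.

(a) `s59b_pull_hecke`, `s59b_eig_pull` : `π^*` commutes with `T_ℓ` on `p`-torsion points (`ℓ ∤ N' p`),
    hence `s44i_Eig N p a B x → s44i_Eig N' p a B' (s36p_pull h x)`;
(b) `s59b_incl_al`, `s59b_pull_al`     : `π^* ∘ w_q = w_q ∘ π^*` (levels `M q ∣ M' q`, `M ∣ M'`, `q ∤ M'`);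
(c) `s59b_eig_alphaPush/_betaPush`     : `α_*, β_* : J₀(M r) → J₀(M)` preserve `s44i_Eig`;
    `s59b_isKumGen_alphaPush`          : `Nm_α g` is a Kummer generator (ANY exponent `m`) of `α_* y`;
    `s59b_alphaPush_pull`              : `α_* (π^* x) = (r + 1) • x`;
(d) `s59b_finrank_incl`, `s59b_pull_inj_torsion` : `π^*` is injective on `p`-torsion when `N' = r N`,
    `r ∤ N` prime, `p ∤ r + 1`; `s59b_frob_descend` : the relation `σ x = − q · w_q x` descends.
-/
import Mathlib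
import Fermat.Agent.Lib.S36.PSquare
import Fermat.Agent.Lib.S33.LInj
import Fermat.Agent.Lib.S33.TPPush
import Fermat.Agent.Lib.S44.Iface
import Fermat.Agent.Lib.S37.WAtkin

set_option autoImplicit false
set_option linter.unusedSectionVars false
set_option linter.style.haveILetI false

namespace Fermat.Agent.Lib.S59

open ModularCurve AlgebraicCurve
open Fermat.Agent.Lib.FF Fermat.Agent.Lib.S18 Fermat.Agent.Lib.S28 Fermat.Agent.Lib.S29
  Fermat.Agent.Lib.S33 Fermat.Agent.Lib.S35 Fermat.Agent.Lib.S36 Fermat.Agent.Lib.S37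
  Fermat.Agent.Lib.S44

noncomputable section

local notation "Kb" => AlgebraicClosure ℚ
local notation "Γℚ" => (AlgebraicClosure ℚ ≃ₐ[ℚ] AlgebraicClosure ℚ)

/-! ### (a) the pull-back and the Hecke operators -/

section Pull

variable {N N' : ℕ} [NeZero N] [NeZero N'] (h : N ∣ N')

/-- **`π^* ∘ T_ℓ = T_ℓ ∘ π^*`** on `p`-torsion points, `ℓ ∤ N' p`. -/
theorem s59b_pull_hecke (p : ℕ) (ℓ : Nat.Primes) (hℓ : ¬ (ℓ : ℕ) ∣ N' * p) (x : JZero N)
    (hx : p • x = 0) :
    s36p_pull h (heckeOperatorBar N ℓ x) = heckeOperatorBar N' ℓ (s36p_pull h x) :=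
  s33l_hecke_pt p (s36p_pull h) (fun σ x => s36p_pull_smul h σ x) ℓ
    (fun hd => hℓ (hd.trans (Nat.mul_dvd_mul_right h p))) hℓ x hx

/-- **the pull-back of an eigen-point is an eigen-point.** -/
theorem s59b_eig_pull (p : ℕ) (a : ℕ → ℤ) (B B' : Finset ℕ) (hBB' : B ⊆ B')
    (hB' : ∀ r : ℕ, r.Prime → r ∣ N' * p → r ∈ B') (x : JZero N) (hx : s44i_Eig N p a B x) :
    s44i_Eig N' p a B' (s36p_pull h x) := by
  refine ⟨by rw [← map_nsmul, hx.1, map_zero], fun ℓ hℓB' => ?_⟩
  have hℓ : ¬ (ℓ : ℕ) ∣ N' * p := fun hd => hℓB' (hB' ℓ ℓ.2 hd)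
  rw [← s59b_pull_hecke h p ℓ hℓ x hx.1, hx.2 ℓ (fun hm => hℓB' (hBB' hm)), map_zsmul]

end Pull

/-! ### (b) the pull-back and the Atkin–Lehner involution -/

section AL

variable (M M' q : ℕ) [NeZero M] [NeZero M'] [NeZero q] (h : M ∣ M') (hq : q.Prime)
  (hqM' : ¬ q ∣ M')

include h hqM' in
/-- `q ∤ M` from `q ∤ M'`. -/
theorem s59b_not_dvd_of_dvd : ¬ q ∣ M := fun hd => hqM' (hd.trans h)

/-- **the level inclusion commutes with `w_q`** on the function fields. -/
theorem s59b_incl_al (x : ffi_F (M * q)) :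
    s37l_incl (M * q) (M' * q) (s36p_dvd_top M M' q h)
        (s37w_al M q hq (s59b_not_dvd_of_dvd M M' q h hqM') x) =
      s37w_al M' q hq hqM' (s37l_incl (M * q) (M' * q) (s36p_dvd_top M M' q h) x) := by
  have hqM : ¬ q ∣ M := s59b_not_dvd_of_dvd M M' q h hqM'
  have key : (s37l_incl (M * q) (M' * q) (s36p_dvd_top M M' q h)).comp
      (s37w_al M q hq hqM : ffi_F (M * q) →ₐ[Kb] ffi_F (M * q)) =
      (s37w_al M' q hq hqM' : ffi_F (M' * q) →ₐ[Kb] ffi_F (M' * q)).comp
        (s37l_incl (M * q) (M' * q) (s36p_dvd_top M M' q h)) := by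
    refine s37w_algHom_ext (M * q) _ _ fun d y hy => ?_
    apply Subtype.ext
    let D' : s28w_Idx (M' * q) := ⟨d.1, d.2.trans (s36p_dvd_top M M' q h)⟩
    have h1 : ((s37l_incl (M * q) (M' * q) (s36p_dvd_top M M' q h) y : ffi_F (M' * q)) :
        LaurentSeries Kb) = s37w_gen (M' * q) D' := by
      rw [s37l_coe_incl, hy]; rfl
    rw [AlgHom.comp_apply, AlgHom.comp_apply]
    show ((s37l_incl (M * q) (M' * q) (s36p_dvd_top M M' q h) (s37w_al M q hq hqM y) :
        ffi_F (M' * q)) : LaurentSeries Kb) =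
      ((s37w_al M' q hq hqM' (s37l_incl (M * q) (M' * q) (s36p_dvd_top M M' q h) y) :
        ffi_F (M' * q)) : LaurentSeries Kb)
    rw [s37l_coe_incl, s37w_al_gen M q hq hqM d y hy, s37w_al_gen M' q hq hqM' D' _ h1,
      s37w_gen, s37w_gen]
    have h2 : (s37w_alCo M q hq d).1 = (s37w_alCo M' q hq D').1 := by
      by_cases hd : q ∣ d.1
      · rw [s37w_alCo_of_dvd M q hq d hd, s37w_alCo_of_dvd M' q hq D' hd]
      · rw [s37w_alCo_of_not_dvd M q hq d hd, s37w_alCo_of_not_dvd M' q hq D' hd]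
    exact congrArg _ (qExpand_congr h2 jq)
  exact AlgHom.congr_fun key x

/-- **`π^* ∘ w_q = w_q ∘ π^*`** on divisor classes (`w_q` = the action of `s37w_al`, i.e. `s59m_wq` of
`Lib/S59/MIface`). -/
theorem s59b_pull_al (x : JZero (M * q)) :
    s36p_pull (s36p_dvd_top M M' q h)
        (SemilinearAut.ofAlgAut (s37w_al M q hq (s59b_not_dvd_of_dvd M M' q h hqM')) • x) =
      SemilinearAut.ofAlgAut (s37w_al M' q hq hqM') • s36p_pull (s36p_dvd_top M M' q h) x := by
  refine s37l_pic0Pullback_smul _ _ _ _ _ (fun y => ?_) x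
  show s37w_al M' q hq hqM' (s37l_incl (M * q) (M' * q) (s36p_dvd_top M M' q h) y) =
    s37l_incl (M * q) (M' * q) (s36p_dvd_top M M' q h)
      (s37w_al M q hq (s59b_not_dvd_of_dvd M M' q h hqM') y)
  exact (s59b_incl_al M M' q h hq hqM' y).symm

end AL

/-! ### (c) the push-forwards `α_*`, `β_*` along `M ∣ M r` -/

section Push

variable (M r : ℕ) [NeZero M] [NeZero r] (hr : r.Prime) (hrM : ¬ r ∣ M)

/-- `α_*` preserves eigen-points. -/
theorem s59b_eig_alphaPush (p : ℕ) (a : ℕ → ℤ) (B : Finset ℕ)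
    (hB : ∀ s : ℕ, s.Prime → s ∣ M * r * p → s ∈ B) (y : JZero (M * r))
    (hy : s44i_Eig (M * r) p a B y) : s44i_Eig M p a B (s35c_alphaPush M r hr hrM y) := by
  refine ⟨by rw [← map_nsmul, hy.1, map_zero], fun ℓ hℓB => ?_⟩
  have hℓ : ¬ (ℓ : ℕ) ∣ M * r * p := fun hd => hℓB (hB ℓ ℓ.2 hd)
  have hℓ' : ¬ (ℓ : ℕ) ∣ M * p := fun hd =>
    hℓ (hd.trans (Nat.mul_dvd_mul_right (dvd_mul_right M r) p))
  rw [← s33l_hecke_pt p (s35c_alphaPush M r hr hrM)
    (fun σ x => s35c_alphaPush_smul M r hr hrM σ x) ℓ hℓ hℓ' y hy.1, hy.2 ℓ hℓB, map_zsmul]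

/-- `β_*` preserves eigen-points. -/
theorem s59b_eig_betaPush (p : ℕ) (a : ℕ → ℤ) (B : Finset ℕ)
    (hB : ∀ s : ℕ, s.Prime → s ∣ M * r * p → s ∈ B) (y : JZero (M * r))
    (hy : s44i_Eig (M * r) p a B y) : s44i_Eig M p a B (s35c_betaPush M r hr hrM y) := by
  refine ⟨by rw [← map_nsmul, hy.1, map_zero], fun ℓ hℓB => ?_⟩
  have hℓ : ¬ (ℓ : ℕ) ∣ M * r * p := fun hd => hℓB (hB ℓ ℓ.2 hd)
  have hℓ' : ¬ (ℓ : ℕ) ∣ M * p := fun hd =>
    hℓ (hd.trans (Nat.mul_dvd_mul_right (dvd_mul_right M r) p))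
  rw [← s33l_hecke_pt p (s35c_betaPush M r hr hrM)
    (fun σ x => s35c_betaPush_smul M r hr hrM σ x) ℓ hℓ hℓ' y hy.1, hy.2 ℓ hℓB, map_zsmul]

/-- **`Nm_α g` is a Kummer generator of `α_* y`**, any exponent `m`. -/
theorem s59b_isKumGen_alphaPush (m : ℕ) (y : JZero (M * r)) (g : ffi_F (M * r))
    (hg : s33d_IsKumGen m y g) :
    s33d_IsKumGen m (s35c_alphaPush M r hr hrM y) (s37e_normAlpha M r g) := by
  obtain ⟨hg0, D, rfl, hD⟩ := hg
  refine ⟨?_, s35c_degZeroPush (heckeAlphaBar Kb M r) (s35c_alphaIntegral M r hr hrM) D,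
    (s35c_alphaPush_mk M r hr hrM D).symm, fun v => ?_⟩
  · unfold s37e_normAlpha
    letI := algebraAlong (heckeAlphaBar Kb M r)
    haveI : Module.Finite ↥(laurentBaseChange Kb (modularFunctionFieldFull M))
        ↥(laurentBaseChange Kb (modularFunctionFieldFull (M * r))) :=
      s37w_finite_alpha M r hr hrM
    haveI : Module.Free ↥(laurentBaseChange Kb (modularFunctionFieldFull M))
        ↥(laurentBaseChange Kb (modularFunctionFieldFull (M * r))) :=
      Module.Free.of_divisionRing _ _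
    exact Algebra.norm_ne_zero_iff.mpr hg0
  · rw [s35c_coe_degZeroPush]
    exact (s33t_kumGen_push _ _ (s37w_finite_alpha M r hr hrM)
      (s37h_normFormulaAlong _ (s37w_finite_alpha M r hr hrM)) m _ g hg0
      (fun w => (hD w).symm) v).symm

/-- **`Nm_β g` is a Kummer generator of `β_* y`**, any exponent `m`. -/
theorem s59b_isKumGen_betaPush (m : ℕ) (y : JZero (M * r)) (g : ffi_F (M * r))
    (hg : s33d_IsKumGen m y g) :
    s33d_IsKumGen m (s35c_betaPush M r hr hrM y)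
      (letI := algebraAlong (heckeBetaBar Kb M r); Algebra.norm (ffi_F M) g) := by
  obtain ⟨hg0, D, rfl, hD⟩ := hg
  refine ⟨?_, s35c_degZeroPush (heckeBetaBar Kb M r) (s35c_betaIntegral M r hr hrM) D,
    (s35c_betaPush_mk M r hr hrM D).symm, fun v => ?_⟩
  · letI := algebraAlong (heckeBetaBar Kb M r)
    haveI : Module.Finite ↥(laurentBaseChange Kb (modularFunctionFieldFull M))
        ↥(laurentBaseChange Kb (modularFunctionFieldFull (M * r))) :=
      s37w_finite_beta M r hr hrM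
    haveI : Module.Free ↥(laurentBaseChange Kb (modularFunctionFieldFull M))
        ↥(laurentBaseChange Kb (modularFunctionFieldFull (M * r))) :=
      Module.Free.of_divisionRing _ _
    exact Algebra.norm_ne_zero_iff.mpr hg0
  · rw [s35c_coe_degZeroPush]
    exact (s33t_kumGen_push _ _ (s37w_finite_beta M r hr hrM)
      (s37h_normFormulaAlong _ (s37w_finite_beta M r hr hrM)) m _ g hg0
      (fun w => (hD w).symm) v).symm

/-- the level inclusion `F̄(M) → F̄(M r)` is `α`. -/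
theorem s59b_incl_eq_alpha :
    s37l_incl M (M * r) (dvd_mul_right M r) = heckeAlphaBar Kb M r := by
  apply AlgHom.ext
  intro x
  apply Subtype.ext
  rw [s37l_coe_incl, coe_heckeAlphaBar]

/-- **`α_* (π^* x) = (r + 1) • x`.** -/
theorem s59b_alphaPush_pull (x : JZero M) :
    s35c_alphaPush M r hr hrM (s36p_pull (dvd_mul_right M r) x) = (r + 1) • x := by
  obtain ⟨D, rfl⟩ := Pic0.mk_surjective x
  rw [s36p_pull_mk, s35c_alphaPush_mk]
  have e : (s35c_degZeroPush (heckeAlphaBar Kb M r) (s35c_alphaIntegral M r hr hrM)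
      (s37l_degZeroPullback (s37l_incl M (M * r) (dvd_mul_right M r))
        (s36p_incl_integral (dvd_mul_right M r)) (s36p_incl_FI (dvd_mul_right M r)) D)) =
      (r + 1) • D := by
    apply Subtype.ext
    rw [s35c_coe_degZeroPush, s37l_coe_degZeroPullback,
      s37l_pullbackAlong_congr (s59b_incl_eq_alpha M r) _ (s35c_alphaIntegral M r hr hrM),
      s37l_pushforward_pullback (heckeAlphaBar Kb M r) (s35c_alphaIntegral M r hr hrM)
        ((r + 1 : ℕ) : ℤ) (fun v => by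
          have hdeg : finrankAlong Kb (heckeAlphaBar Kb M r) = r + 1 :=
            s37w_finrank_alpha M r hr hrM
          rw [s37l_sum_e_f _ _ (s37w_finite_alpha M r hr hrM) v, hdeg])]
    rw [AddSubgroup.coe_nsmul, natCast_zsmul]
  rw [e]
  rfl

end Push

/-! ### (d) injectivity of `π^*` on `p`-torsion; descent of the Frobenius relation -/

section Descent

/-- the degree of `F̄(N') / F̄(N)` for `N' = r N`, `r ∤ N` prime. -/
theorem s59b_finrank_incl {N N' : ℕ} [NeZero N] [NeZero N'] (h : N ∣ N') (r : ℕ) (hr : r.Prime)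
    (hrN : ¬ r ∣ N) (hN' : N' = r * N) : finrankAlong Kb (s37l_incl N N' h) = r + 1 := by
  subst hN'
  exact s37l_finrank_incl N r hr hrN

/-- **`π^*` is injective on `p`-torsion** when `N' = r N`, `r ∤ N` prime and `p` is prime to `r + 1`. -/
theorem s59b_pull_inj_torsion {N N' : ℕ} [NeZero N] [NeZero N'] (h : N ∣ N') (r : ℕ)
    (hr : r.Prime) (hrN : ¬ r ∣ N) (hN' : N' = r * N) (p : ℕ) (hp : Nat.Coprime p (r + 1))
    (x : JZero N) (hpx : p • x = 0) (hx : s36p_pull h x = 0) : x = 0 := by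
  have h1 := s36p_pull_eq_zero h x hx
  rw [s59b_finrank_incl h r hr hrN hN'] at h1
  have hd1 := addOrderOf_dvd_of_nsmul_eq_zero hpx
  have hd2 := addOrderOf_dvd_of_nsmul_eq_zero h1
  have hg : addOrderOf x ∣ Nat.gcd p (r + 1) := Nat.dvd_gcd hd1 hd2
  rw [hp, Nat.dvd_one] at hg
  exact AddMonoid.addOrderOf_eq_one_iff.mp hg

variable (M r q : ℕ) [NeZero M] [NeZero r] [NeZero q] (hq : q.Prime) (hr : r.Prime)
  (hrMq : ¬ r ∣ M * q) (hqMr : ¬ q ∣ M * r)

include hr hrMq in
/-- **descent of the relation `σ x = − q · w_q x`** from the level `(M r) q` to the level `M q`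
(`r ∤ M q` prime, `p ∤ r + 1`), for `p`-torsion points. -/
theorem s59b_frob_descend (p : ℕ) (hp : Nat.Coprime p (r + 1)) (σ : Γℚ) (x : JZero (M * q))
    (hpx : p • x = 0)
    (hx' : σ • s36p_pull (s36p_dvd_top M (M * r) q (dvd_mul_right M r)) x =
      (-(q : ℤ)) • (SemilinearAut.ofAlgAut (s37w_al (M * r) q hq hqMr) •
        s36p_pull (s36p_dvd_top M (M * r) q (dvd_mul_right M r)) x)) :
    σ • x = (-(q : ℤ)) • (SemilinearAut.ofAlgAut
      (s37w_al M q hq (s59b_not_dvd_of_dvd M (M * r) q (dvd_mul_right M r) hqMr)) • x) := by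
  set w := SemilinearAut.ofAlgAut
    (s37w_al M q hq (s59b_not_dvd_of_dvd M (M * r) q (dvd_mul_right M r) hqMr)) with hw
  set π := s36p_pull (s36p_dvd_top M (M * r) q (dvd_mul_right M r)) with hπ
  have h1 : π (σ • x - (-(q : ℤ)) • (w • x)) = 0 := by
    rw [map_sub, map_zsmul, hπ, s36p_pull_smul, hw,
      s59b_pull_al M (M * r) q (dvd_mul_right M r) hq hqMr x, ← hπ, hx', sub_self]
  have h2 : p • (σ • x - (-(q : ℤ)) • (w • x)) = 0 := by
    have e1 : p • (σ • x) = 0 := by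
      have := map_nsmul (DistribSMul.toAddMonoidHom (JZero (M * q)) σ) p x
      rw [hpx, map_zero] at this
      exact this.symm
    have e2 : p • (w • x) = 0 := by
      have := map_nsmul (DistribSMul.toAddMonoidHom (JZero (M * q)) w) p x
      rw [hpx, map_zero] at this
      exact this.symm
    have e3 : p • ((-(q : ℤ)) • (w • x)) = (-(q : ℤ)) • (p • (w • x)) := smul_comm _ _ _
    rw [nsmul_sub, e1, e3, e2, smul_zero, sub_zero]
  have hN' : M * r * q = r * (M * q) := by ring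
  have h3 := s59b_pull_inj_torsion (s36p_dvd_top M (M * r) q (dvd_mul_right M r)) r hr hrMq hN' p hp
    _ h2 h1
  exact sub_eq_zero.mp h3

end Descent

end

end Fermat.Agent.Lib.S59
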