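/-
Programme R (S59), node [MP32] (helper2, prefix `s59b_`), step (A2) "descent from a good auxiliary level":
**THE LEVEL CAST `n = N ℓ`** (the auxiliary level is written `M ℓ q`, the Hecke correspondence lives at `(M q) ℓ`).

For `α' β' : F̄(N) → F̄(n)` (`n = N ℓ`) with `α' y = y`, `β' y = y(T^ℓ)` on `q`-expansions:

* `s59b_kumGen_hecke_cast` : a Kummer generator `g` of `β'^* x` has norm `Nm_{α'} g` a Kummer generator of `T_ℓ x`;
* `s59b_iota_norm_cast`    : the norm along the inclusion `a` over `K₀ ∋ ζ_ℓ` commutes with the base change to `ℚ̄`.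
-/
import Fermat.Agent.Lib.S59.BAux
import Fermat.Agent.Lib.S35.NormRed
import Fermat.Agent.Lib.S37.HUnfold

set_option autoImplicit false
set_option linter.unusedSectionVars false
set_option linter.unusedVariables false
set_option linter.style.haveILetI false
set_option synthInstance.maxHeartbeats 400000

noncomputable section

namespace Fermat.Agent.Lib.S59

open ModularCurve AlgebraicCurve HahnSeries Fermat.Agent.Lib.FF Fermat.Agent.Lib.S18
  Fermat.Agent.Lib.S28 Fermat.Agent.Lib.S29 Fermat.Agent.Lib.S37 Fermat.Agent.Lib.S34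
  Fermat.Agent.Lib.S35 Fermat.Agent.Lib.S36 Fermat.Agent.Lib.S33 Fermat.Agent.Lib.S44

local notation "Kb" => AlgebraicClosure ℚ

section Hecke

variable (N ℓ : ℕ) [NeZero N] [NeZero ℓ] (hℓ : ℓ.Prime) (hℓN : ¬ ℓ ∣ N)

/-- `α_* β^* = T_ℓ`. -/
theorem s59b_alphaPush_betaPull (hβ : (heckeBetaBar Kb N ℓ).toRingHom.IsIntegral)
    (hFI : FundamentalIdentityAlong Kb (heckeBetaBar Kb N ℓ) hβ) (x : JZero N) :
    s35c_alphaPush N ℓ hℓ hℓN (s37l_pic0Pullback (heckeBetaBar Kb N ℓ) hβ hFI x) =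
      heckeOperatorBar N ⟨ℓ, hℓ⟩ x := by
  obtain ⟨D, rfl⟩ := Pic0.mk_surjective x
  rw [s37l_pic0Pullback_mk, s35c_alphaPush_mk, s37h_heckeOperatorBar_mk N ℓ hℓ hℓN D]
  rfl

include hℓN in
/-- a Kummer generator `g` of `β^* x` has norm `Nm_α g` a Kummer generator of `T_ℓ x`. -/
theorem s59b_kumGen_hecke (hβ : (heckeBetaBar Kb N ℓ).toRingHom.IsIntegral)
    (hFI : FundamentalIdentityAlong Kb (heckeBetaBar Kb N ℓ) hβ) (p : ℕ) (x : JZero N)
    (g : ffi_F (N * ℓ))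
    (hg : s33d_IsKumGen p (s37l_pic0Pullback (heckeBetaBar Kb N ℓ) hβ hFI x) g) :
    s33d_IsKumGen p (heckeOperatorBar N ⟨ℓ, hℓ⟩ x)
      (@Algebra.norm (ffi_F N) (ffi_F (N * ℓ)) _ _ (algebraAlong (heckeAlphaBar Kb N ℓ)) g) := by
  rw [← s59b_alphaPush_betaPull N ℓ hℓ hℓN hβ hFI x]
  exact s59b_isKumGen_alphaPush N ℓ hℓ hℓN p _ g hg

end Hecke

section Cast

/-- **[T-CAST]**: the same at a level `n = N ℓ`. -/
theorem s59b_kumGen_hecke_cast (N ℓ n : ℕ) [NeZero N] [NeZero ℓ] [NeZero n] (hn : n = N * ℓ)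
    (hℓ : ℓ.Prime) (hℓN : ¬ ℓ ∣ N) (α' β' : ffi_F N →ₐ[Kb] ffi_F n)
    (hα' : ∀ y, ((α' y : ffi_F n) : LaurentSeries Kb) = (y : LaurentSeries Kb))
    (hβ' : ∀ y, ((β' y : ffi_F n) : LaurentSeries Kb) = qExpand Kb ℓ (y : LaurentSeries Kb))
    (hβint : β'.toRingHom.IsIntegral) (hβFI : FundamentalIdentityAlong Kb β' hβint)
    (p : ℕ) (x : JZero N) (g : ffi_F n)
    (hg : s33d_IsKumGen p (s37l_pic0Pullback β' hβint hβFI x) g) :
    s33d_IsKumGen p (heckeOperatorBar N ⟨ℓ, hℓ⟩ x)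
      (@Algebra.norm (ffi_F N) (ffi_F n) _ _ (algebraAlong α') g) := by
  subst hn
  have e1 : α' = heckeAlphaBar Kb N ℓ :=
    AlgHom.ext fun y => Subtype.ext (by rw [hα', coe_heckeAlphaBar])
  have e2 : β' = heckeBetaBar Kb N ℓ :=
    AlgHom.ext fun y => Subtype.ext (by rw [hβ', coe_heckeBetaBar])
  subst e1
  subst e2
  exact s59b_kumGen_hecke N ℓ hℓ hℓN hβint hβFI p x g hg

/-- **[IOTA-NORM]**: the norm along the inclusion over `K₀ ∋ ζ_ℓ` commutes with the base change. -/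
theorem s59b_iota_norm_cast {K₀ : Type*} [Field K₀] [Algebra ℚ K₀] (φ : K₀ →+* Kb)
    (N ℓ n : ℕ) [NeZero N] [NeZero ℓ] [NeZero n] (hn : n = N * ℓ)
    (hℓ : ℓ.Prime) (hℓN : ¬ ℓ ∣ N)
    (a : s34m_F K₀ N →ₐ[K₀] s34m_F K₀ n)
    (ha : ∀ y, ((a y : s34m_F K₀ n) : LaurentSeries K₀) = (y : LaurentSeries K₀))
    (α' : ffi_F N →ₐ[Kb] ffi_F n)
    (hα' : ∀ y, ((α' y : ffi_F n) : LaurentSeries Kb) = (y : LaurentSeries Kb))
    (ζ : K₀ˣ) (hζ : IsPrimitiveRoot (ζ : K₀) ℓ) (f : s34m_F K₀ n) :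
    s34m_iota φ N (@Algebra.norm (s34m_F K₀ N) (s34m_F K₀ n) _ _ (algebraAlong a) f) =
      @Algebra.norm (ffi_F N) (ffi_F n) _ _ (algebraAlong α') (s34m_iota φ n f) := by
  subst hn
  have e1 : a = heckeAlphaBar K₀ N ℓ :=
    AlgHom.ext fun y => Subtype.ext (by rw [ha, coe_heckeAlphaBar])
  have e2 : α' = heckeAlphaBar Kb N ℓ :=
    AlgHom.ext fun y => Subtype.ext (by rw [hα', coe_heckeAlphaBar])
  subst e1
  subst e2
  exact s35nm_iota_normAlpha φ N ℓ hℓ hℓN ζ hζ f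

end Cast

end Fermat.Agent.Lib.S59
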