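/-
Programme (R2), node **[CAR]**, route R-DS′, helper9's request (B) of #3674 (helper3, prefix `s59u_`):
**[T-NODE], the commutative-algebra core** (going-down for an integral extension of a normal domain,
`Mathlib/RingTheory/IntegralClosure/GoingDown.lean`).

* `s59u_tnode_down` : `B ⊆ B'` integral, `B` integrally closed, `B'` a domain; `P₁, P₂` incomparable primes of `B` containing
  `ϖ`, `P_i' ⊆ B'` with `P_i' ∩ B = P_i`, every prime of `B'` containing `ϖ` contains `P₁'` or `P₂'`; `𝔫 ⊇ P₁ + P₂` a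
  prime of `B` (a NODE), `𝔫'` a prime of `B'` over `𝔫`.  Then `𝔫' ⊇ P₁' + P₂'` (`𝔫'` is a node).
* `s59u_tnode_up` : the easy converse along any ring homomorphism `γ : B → B'` with `γ(P_i) ⊆ P_i'`.
-/
import Mathlib

set_option autoImplicit false
set_option linter.unusedSectionVars false
set_option linter.unusedVariables false
set_option linter.style.haveILetI false

namespace Fermat.Agent.Lib.S59

/-- **[T-NODE], going down**: a prime over a node is a node. -/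
theorem s59u_tnode_down {B B' : Type*} [CommRing B] [CommRing B'] [Algebra B B'] [IsDomain B']
    [FaithfulSMul B B'] [Algebra.IsIntegral B B'] [IsIntegrallyClosed B]
    (ϖ : B) (P₁ P₂ : Ideal B) [P₁.IsPrime] [P₂.IsPrime] (P₁' P₂' : Ideal B')
    (h1 : P₁'.comap (algebraMap B B') = P₁) (h2 : P₂'.comap (algebraMap B B') = P₂)
    (h12 : ¬ P₁ ≤ P₂) (h21 : ¬ P₂ ≤ P₁) (hϖ1 : ϖ ∈ P₁) (hϖ2 : ϖ ∈ P₂)
    (hcov : ∀ Q : Ideal B', Q.IsPrime → algebraMap B B' ϖ ∈ Q → P₁' ≤ Q ∨ P₂' ≤ Q)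
    (𝔫 : Ideal B) [𝔫.IsPrime] (h𝔫 : P₁ ⊔ P₂ ≤ 𝔫) (𝔫' : Ideal B') [𝔫'.IsPrime]
    (h𝔫' : 𝔫'.comap (algebraMap B B') = 𝔫) : P₁' ⊔ P₂' ≤ 𝔫' := by
  haveI : 𝔫'.LiesOver 𝔫 := ⟨h𝔫'.symm⟩
  refine sup_le ?_ ?_
  · obtain ⟨Q, hQ𝔫, hQp, hQo⟩ := Ideal.exists_ideal_le_liesOver_of_le (p := P₁) (q := 𝔫) 𝔫'
      (le_sup_left.trans h𝔫)
    have hQc : Q.comap (algebraMap B B') = P₁ := hQo.over.symm
    have hϖQ : algebraMap B B' ϖ ∈ Q := by
      have : ϖ ∈ Q.comap (algebraMap B B') := by rw [hQc]; exact hϖ1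
      exact this
    rcases hcov Q hQp hϖQ with h | h
    · exact h.trans hQ𝔫
    · exfalso
      apply h21
      rw [← h2, ← hQc]
      exact Ideal.comap_mono h
  · obtain ⟨Q, hQ𝔫, hQp, hQo⟩ := Ideal.exists_ideal_le_liesOver_of_le (p := P₂) (q := 𝔫) 𝔫'
      (le_sup_right.trans h𝔫)
    have hQc : Q.comap (algebraMap B B') = P₂ := hQo.over.symm
    have hϖQ : algebraMap B B' ϖ ∈ Q := by
      have : ϖ ∈ Q.comap (algebraMap B B') := by rw [hQc]; exact hϖ2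
      exact this
    rcases hcov Q hQp hϖQ with h | h
    · exfalso
      apply h12
      rw [← h1, ← hQc]
      exact Ideal.comap_mono h
    · exact h.trans hQ𝔫

/-- **[T-NODE], the easy direction**: the contraction of a node along a ring homomorphism respecting the two
components is a node. -/
theorem s59u_tnode_up {B B' : Type*} [CommRing B] [CommRing B'] (γ : B →+* B')
    (P₁ P₂ : Ideal B) (P₁' P₂' : Ideal B') (hγ1 : P₁ ≤ P₁'.comap γ) (hγ2 : P₂ ≤ P₂'.comap γ)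
    (𝔫' : Ideal B') (h𝔫' : P₁' ⊔ P₂' ≤ 𝔫') : P₁ ⊔ P₂ ≤ 𝔫'.comap γ :=
  sup_le (hγ1.trans (Ideal.comap_mono (le_sup_left.trans h𝔫')))
    (hγ2.trans (Ideal.comap_mono (le_sup_right.trans h𝔫')))

end Fermat.Agent.Lib.S59
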