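/-
Programme (R2), node **[CAR]**, leaf [L-c]/**[T-NODE]** (helper3, prefix `s59u_`), part 1:
THE ABSTRACT NODE CORRESPONDENCE.

Two two-component charts `B = s34x_ring (⨅ O) S ⊆ 𝓕`, `B' = s34x_ring (⨅ O') S' ⊆ 𝓕'` (S34 X″ vocabulary,
`O, O' : Bool → ValuationSubring`), two ring homomorphisms `a b : 𝓕 → 𝓕'` (the two degeneracy maps) with

* `a y ∈ O' i ↔ y ∈ O i`, `y ∈ O i → b y ∈ O' i`, `a π = b π = π'`, `a B ⊆ B'`, `b B ⊆ B'`,
* `B'` integral over `a B` and over `b B`, `B` integrally closed,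
* the two component ideals `P_i = B ∩ π O i` are prime and incomparable.

Then (`s59u_corr_abs`): if a place `Q'` of the chart `S'` is such that its `a`-restriction passes through a NODE of `B`
(a maximal ideal containing both `P_i`), then so does its `b`-restriction.  Proof: going-up along `a` to a prime `𝔫'`
of `B'` containing the centre of `Q'`, going-down (`s59u_tnode_down`) to see that `𝔫'` is a node of `B'`, and
contraction along `b` (`s59u_tnode_up`).
-/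
import Mathlib
import Fermat.Agent.Lib.S33.SSPlace
import Fermat.Agent.Lib.S59.UCarTNode

set_option autoImplicit false
set_option linter.unusedSectionVars false
set_option linter.unusedVariables false
set_option linter.style.haveILetI false

noncomputable section

namespace Fermat.Agent.Lib.S59

open AlgebraicCurve Fermat.Agent.Lib.FF Fermat.Agent.Lib.S18 Fermat.Agent.Lib.S34
  Fermat.Agent.Lib.S33

section Abs

variable {L₀ 𝓕 𝓕' : Type*} [Field L₀] [Field 𝓕] [Field 𝓕'] [Algebra L₀ 𝓕] [Algebra L₀ 𝓕']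

/-- the centre on the chart ring of a place of the chart. -/
def s59u_centre (O : Subring 𝓕) (S : Set (Place L₀ 𝓕)) (Q : Place L₀ 𝓕) (hQ : Q ∈ S) :
    Ideal (s34x_ring O S) where
  carrier := {x | (x : 𝓕) = 0 ∨ 0 < Q.ord (x : 𝓕)}
  zero_mem' := Or.inl rfl
  add_mem' := by
    rintro x y hx hy
    by_cases hxy : ((x + y : s34x_ring O S) : 𝓕) = 0
    · exact Or.inl hxy
    rcases hx with hx | hx
    · have e : x + y = y := by
        apply Subtype.ext
        push_cast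
        rw [hx, zero_add]
      rw [e]
      exact hy
    rcases hy with hy | hy
    · have e : x + y = x := by
        apply Subtype.ext
        push_cast
        rw [hy, add_zero]
      rw [e]
      exact Or.inr hx
    refine Or.inr ?_
    have hx0 : (x : 𝓕) ≠ 0 := by
      intro h0
      rw [h0, Place.ord_zero] at hx
      exact lt_irrefl _ hx
    have hy0 : (y : 𝓕) ≠ 0 := by
      intro h0
      rw [h0, Place.ord_zero] at hy
      exact lt_irrefl _ hy
    have hxy' : (x : 𝓕) + (y : 𝓕) ≠ 0 := by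
      intro h0
      apply hxy
      push_cast
      exact h0
    have h := ff_ord_add_ge Q hx0 hy0 hxy'
    show 0 < Q.ord ((x : 𝓕) + (y : 𝓕))
    exact lt_of_lt_of_le (lt_min hx hy) h
  smul_mem' := by
    rintro c x hx
    rcases hx with hx | hx
    · left
      rw [smul_eq_mul]
      push_cast
      rw [hx, mul_zero]
    by_cases hc : (c : 𝓕) = 0
    · left
      rw [smul_eq_mul]
      push_cast
      rw [hc, zero_mul]
    right
    have hx0 : (x : 𝓕) ≠ 0 := by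
      intro h0
      rw [h0, Place.ord_zero] at hx
      exact lt_irrefl _ hx
    have hc1 : 0 ≤ Q.ord (c : 𝓕) := s34x_ord_nonneg_of_mem_ring O S c Q hQ
    rw [smul_eq_mul]
    show 0 < Q.ord ((c : 𝓕) * (x : 𝓕))
    rw [Q.ord_mul hc hx0]
    omega

theorem s59u_mem_centre (O : Subring 𝓕) (S : Set (Place L₀ 𝓕)) (Q : Place L₀ 𝓕) (hQ : Q ∈ S)
    (x : s34x_ring O S) :
    x ∈ s59u_centre O S Q hQ ↔ (x : 𝓕) = 0 ∨ 0 < Q.ord (x : 𝓕) := Iff.rfl

/-- the centre is a prime ideal. -/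
theorem s59u_centre_isPrime (O : Subring 𝓕) (S : Set (Place L₀ 𝓕)) (Q : Place L₀ 𝓕)
    (hQ : Q ∈ S) : (s59u_centre O S Q hQ).IsPrime := by
  refine ⟨?_, ?_⟩
  · intro htop
    have h1 : (1 : s34x_ring O S) ∈ s59u_centre O S Q hQ := by
      rw [htop]
      exact Submodule.mem_top
    rcases h1 with h1 | h1
    · exact one_ne_zero h1
    · have : Q.ord ((1 : s34x_ring O S) : 𝓕) = 0 := Q.ord_one
      rw [this] at h1
      exact lt_irrefl _ h1
  · intro x y hxy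
    rcases hxy with hxy | hxy
    · have : (x : 𝓕) * (y : 𝓕) = 0 := hxy
      rcases mul_eq_zero.mp this with h | h
      · exact Or.inl (Or.inl h)
      · exact Or.inr (Or.inl h)
    · by_cases hx0 : (x : 𝓕) = 0
      · exact Or.inl (Or.inl hx0)
      by_cases hy0 : (y : 𝓕) = 0
      · exact Or.inr (Or.inl hy0)
      have h : 0 < Q.ord ((x : 𝓕) * (y : 𝓕)) := hxy
      rw [Q.ord_mul hx0 hy0] at h
      have hx1 : 0 ≤ Q.ord (x : 𝓕) := s34x_ord_nonneg_of_mem_ring O S x Q hQ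
      have hy1 : 0 ≤ Q.ord (y : 𝓕) := s34x_ord_nonneg_of_mem_ring O S y Q hQ
      by_cases hx : 0 < Q.ord (x : 𝓕)
      · exact Or.inl (Or.inr hx)
      · exact Or.inr (Or.inr (by omega))

/-- `through` in terms of the centre. -/
theorem s59u_through_iff (O : Subring 𝓕) (S : Set (Place L₀ 𝓕)) (Q : Place L₀ 𝓕) (hQ : Q ∈ S)
    (𝔫 : Ideal (s34x_ring O S)) :
    s34f_through O S 𝔫 Q ↔ s59u_centre O S Q hQ ≤ 𝔫 := by
  constructor
  · intro h x hx
    rcases hx with hx | hx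
    · have : x = 0 := Subtype.ext hx
      rw [this]
      exact 𝔫.zero_mem
    · have hx0 : (x : 𝓕) ≠ 0 := by
        intro h0
        rw [h0, Place.ord_zero] at hx
        exact lt_irrefl _ hx
      exact h x hx0 hx
  · intro h b hb0 hb
    exact h (Or.inr hb)


/-! ### The induced map of chart rings -/

variable (O : Bool → ValuationSubring 𝓕) (O' : Bool → ValuationSubring 𝓕')
  (S : Set (Place L₀ 𝓕)) (S' : Set (Place L₀ 𝓕'))

/-- the map of chart rings induced by `f : 𝓕 → 𝓕'` with `f B ⊆ B'`. -/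
def s59u_chartHom (f : 𝓕 →+* 𝓕')
    (hf : ∀ y ∈ s34x_ring (s34x_infRing O) S, f y ∈ s34x_ring (s34x_infRing O') S') :
    s34x_ring (s34x_infRing O) S →+* s34x_ring (s34x_infRing O') S' :=
  (f.comp (s34x_ring (s34x_infRing O) S).subtype).codRestrict (s34x_ring (s34x_infRing O') S')
    (fun y => hf y y.2)

@[simp]
theorem s59u_chartHom_coe (f : 𝓕 →+* 𝓕')
    (hf : ∀ y ∈ s34x_ring (s34x_infRing O) S, f y ∈ s34x_ring (s34x_infRing O') S')
    (y : s34x_ring (s34x_infRing O) S) :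
    ((s59u_chartHom O O' S S' f hf y : s34x_ring (s34x_infRing O') S') : 𝓕') = f (y : 𝓕) := rfl

theorem s59u_chartHom_injective (f : 𝓕 →+* 𝓕')
    (hf : ∀ y ∈ s34x_ring (s34x_infRing O) S, f y ∈ s34x_ring (s34x_infRing O') S') :
    Function.Injective (s59u_chartHom O O' S S' f hf) := by
  intro x y hxy
  apply Subtype.ext
  apply f.injective
  have := congrArg (fun z : s34x_ring (s34x_infRing O') S' => (z : 𝓕')) hxy
  exact this

/-- **`hcov`**: every prime of `B'` containing `π'` contains one of the two component ideals. -/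
theorem s59u_corr_cov (π' : 𝓕') (hπ0 : π' ≠ 0)
    (hπS : ∀ Q ∈ S', π'⁻¹ ∈ Q.toValuationSubring)
    (hπB : π' ∈ s34x_ring (s34x_infRing O') S')
    (𝔮 : Ideal (s34x_ring (s34x_infRing O') S')) (h𝔮 : 𝔮.IsPrime)
    (hπ𝔮 : (⟨π', hπB⟩ : s34x_ring (s34x_infRing O') S') ∈ 𝔮) :
    s33s_comp O' π' S' true ≤ 𝔮 ∨ s33s_comp O' π' S' false ≤ 𝔮 := by
  by_contra hcon
  rw [not_or] at hcon
  obtain ⟨x, hx, hx𝔮⟩ := SetLike.not_le_iff_exists.mp hcon.1
  obtain ⟨y, hy, hy𝔮⟩ := SetLike.not_le_iff_exists.mp hcon.2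
  obtain ⟨z₁, hz₁, ex⟩ := (s33s_mem_comp O' π' S' true x).mp hx
  obtain ⟨z₂, hz₂, ey⟩ := (s33s_mem_comp O' π' S' false y).mp hy
  -- `t = x y / π'`
  have et : z₁ * (y : 𝓕') = (x : 𝓕') * z₂ := by
    apply mul_left_cancel₀ hπ0
    rw [← mul_assoc, ← ex, ey]
    ring
  have htB : z₁ * (y : 𝓕') ∈ s34x_ring (s34x_infRing O') S' := by
    refine ⟨(s34x_mem_infRing O' _).mpr fun i => ?_, fun Q hQ => ?_⟩
    · cases i
      · rw [et]
        exact (O' false).mul_mem _ _ ((s34x_mem_infRing O' _).1 x.2.1 false) hz₂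
      · exact (O' true).mul_mem _ _ hz₁ ((s34x_mem_infRing O' _).1 y.2.1 true)
    · have e : z₁ * (y : 𝓕') = π'⁻¹ * ((x : 𝓕') * (y : 𝓕')) := by
        rw [ex]
        field_simp
      rw [e]
      exact Q.toValuationSubring.mul_mem _ _ (hπS Q hQ)
        (Q.toValuationSubring.mul_mem _ _ (x.2.2 Q hQ) (y.2.2 Q hQ))
  have hxy : x * y = (⟨π', hπB⟩ : s34x_ring (s34x_infRing O') S') * ⟨_, htB⟩ := by
    apply Subtype.ext
    push_cast
    rw [ex]
    ring
  have hmem : x * y ∈ 𝔮 := by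
    rw [hxy]
    exact 𝔮.mul_mem_right _ hπ𝔮
  rcases h𝔮.mem_or_mem hmem with h | h
  · exact hx𝔮 h
  · exact hy𝔮 h

/-- `a⁻¹ P'_i = P_i`. -/
theorem s59u_corr_comap_a (a : 𝓕 →+* 𝓕') (π : 𝓕) (π' : 𝓕') (hπ0 : π ≠ 0) (haπ : a π = π')
    (haO : ∀ i y, a y ∈ O' i ↔ y ∈ O i)
    (haB : ∀ y ∈ s34x_ring (s34x_infRing O) S, a y ∈ s34x_ring (s34x_infRing O') S') (i : Bool) :
    (s33s_comp O' π' S' i).comap (s59u_chartHom O O' S S' a haB) = s33s_comp O π S i := by
  ext y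
  rw [Ideal.mem_comap, s33s_mem_comp, s33s_mem_comp]
  constructor
  · rintro ⟨z', hz', e⟩
    rw [s59u_chartHom_coe] at e
    refine ⟨π⁻¹ * (y : 𝓕), ?_, ?_⟩
    · rw [← haO i, map_mul, map_inv₀, haπ, e]
      have hπ'0 : π' ≠ 0 := by
        rw [← haπ]
        exact (map_ne_zero a).mpr hπ0
      have : π'⁻¹ * (π' * z') = z' := by field_simp
      rw [this]
      exact hz'
    · field_simp
  · rintro ⟨z, hz, e⟩
    refine ⟨a z, (haO i z).mpr hz, ?_⟩
    rw [s59u_chartHom_coe, e, map_mul, haπ]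

/-- `P_i ⊆ b⁻¹ P'_i`. -/
theorem s59u_corr_le_comap_b (b : 𝓕 →+* 𝓕') (π : 𝓕) (π' : 𝓕') (hbπ : b π = π')
    (hbO : ∀ i y, y ∈ O i → b y ∈ O' i)
    (hbB : ∀ y ∈ s34x_ring (s34x_infRing O) S, b y ∈ s34x_ring (s34x_infRing O') S') (i : Bool) :
    s33s_comp O π S i ≤ (s33s_comp O' π' S' i).comap (s59u_chartHom O O' S S' b hbB) := by
  intro y hy
  obtain ⟨z, hz, e⟩ := (s33s_mem_comp O π S i y).mp hy
  rw [Ideal.mem_comap, s33s_mem_comp]
  refine ⟨b z, hbO i z hz, ?_⟩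
  rw [s59u_chartHom_coe, e, map_mul, hbπ]


/-- **The abstract node correspondence.** -/
theorem s59u_corr_abs (a b : 𝓕 →+* 𝓕') (π : 𝓕) (π' : 𝓕') (hπ0 : π ≠ 0)
    (haπ : a π = π') (hbπ : b π = π')
    (hπS : ∀ Q ∈ S', π'⁻¹ ∈ Q.toValuationSubring)
    (hπB : π ∈ s34x_ring (s34x_infRing O) S)
    (haO : ∀ i y, a y ∈ O' i ↔ y ∈ O i) (hbO : ∀ i y, y ∈ O i → b y ∈ O' i)
    (haB : ∀ y ∈ s34x_ring (s34x_infRing O) S, a y ∈ s34x_ring (s34x_infRing O') S')
    (hbB : ∀ y ∈ s34x_ring (s34x_infRing O) S, b y ∈ s34x_ring (s34x_infRing O') S')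
    (hinta : (s59u_chartHom O O' S S' a haB).IsIntegral)
    (hintb : (s59u_chartHom O O' S S' b hbB).IsIntegral)
    (hIC : IsIntegrallyClosed (s34x_ring (s34x_infRing O) S))
    (hP : ∀ i, (s33s_comp O π S i).IsPrime)
    (hinc₁ : ¬ s33s_comp O π S true ≤ s33s_comp O π S false)
    (hinc₂ : ¬ s33s_comp O π S false ≤ s33s_comp O π S true)
    (Q' : Place L₀ 𝓕') (hQ' : Q' ∈ S')
    (𝔫 : Ideal (s34x_ring (s34x_infRing O) S)) (h𝔫 : s33s_IsNode O π S 𝔫)
    (hth : ∀ y : s34x_ring (s34x_infRing O) S, (y : 𝓕) ≠ 0 → 0 < Q'.ord (a (y : 𝓕)) → y ∈ 𝔫) :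
    ∃ 𝔫₂ : Ideal (s34x_ring (s34x_infRing O) S), s33s_IsNode O π S 𝔫₂ ∧
      ∀ y : s34x_ring (s34x_infRing O) S, (y : 𝓕) ≠ 0 → 0 < Q'.ord (b (y : 𝓕)) → y ∈ 𝔫₂ := by
  classical
  have hπ'0 : π' ≠ 0 := by
    rw [← haπ]
    exact (map_ne_zero a).mpr hπ0
  have hπB' : π' ∈ s34x_ring (s34x_infRing O') S' := by
    rw [← haπ]
    exact haB π hπB
  letI alg : Algebra (s34x_ring (s34x_infRing O) S) (s34x_ring (s34x_infRing O') S') :=
    (s59u_chartHom O O' S S' a haB).toAlgebra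
  have halg : algebraMap (s34x_ring (s34x_infRing O) S) (s34x_ring (s34x_infRing O') S') =
      s59u_chartHom O O' S S' a haB := rfl
  haveI : FaithfulSMul (s34x_ring (s34x_infRing O) S) (s34x_ring (s34x_infRing O') S') :=
    (faithfulSMul_iff_algebraMap_injective _ _).mpr (s59u_chartHom_injective O O' S S' a haB)
  haveI : Algebra.IsIntegral (s34x_ring (s34x_infRing O) S) (s34x_ring (s34x_infRing O') S') :=
    ⟨hinta⟩
  haveI := hIC
  haveI h𝔫max : 𝔫.IsMaximal := h𝔫.1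
  haveI h𝔫p : 𝔫.IsPrime := h𝔫.1.isPrime
  haveI hP₁ : (s33s_comp O π S true).IsPrime := hP true
  haveI hP₂ : (s33s_comp O π S false).IsPrime := hP false
  -- the centre of `Q'` contracts into `𝔫`
  have hle : (s59u_centre (s34x_infRing O') S' Q' hQ').comap
      (algebraMap (s34x_ring (s34x_infRing O) S) (s34x_ring (s34x_infRing O') S')) ≤ 𝔫 := by
    intro y hy
    rw [Ideal.mem_comap, halg, s59u_mem_centre, s59u_chartHom_coe] at hy
    by_cases hy0 : (y : 𝓕) = 0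
    · have : y = 0 := Subtype.ext hy0
      rw [this]
      exact 𝔫.zero_mem
    rcases hy with hy | hy
    · exact absurd ((map_eq_zero a).mp hy) hy0
    · exact hth y hy0 hy
  obtain ⟨𝔫', h𝔫'ge, h𝔫'p, h𝔫'c⟩ := Ideal.exists_ideal_over_prime_of_isIntegral 𝔫
    (s59u_centre (s34x_infRing O') S' Q' hQ') hle
  haveI := h𝔫'p
  have h𝔫'max : 𝔫'.IsMaximal :=
    Ideal.isMaximal_of_isIntegral_of_isMaximal_comap 𝔫' (by rw [h𝔫'c]; exact h𝔫max)
  -- `𝔫'` is a node of `B'`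
  have hπ𝔫 : (⟨π, hπB⟩ : s34x_ring (s34x_infRing O) S) ∈ s33s_comp O π S true :=
    (s33s_mem_comp O π S true _).mpr ⟨1, (O true).one_mem, by rw [mul_one]⟩
  have hπ𝔫₂ : (⟨π, hπB⟩ : s34x_ring (s34x_infRing O) S) ∈ s33s_comp O π S false :=
    (s33s_mem_comp O π S false _).mpr ⟨1, (O false).one_mem, by rw [mul_one]⟩
  have hnode' : s33s_comp O' π' S' true ⊔ s33s_comp O' π' S' false ≤ 𝔫' := by
    refine s59u_tnode_down (⟨π, hπB⟩ : s34x_ring (s34x_infRing O) S)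
      (s33s_comp O π S true) (s33s_comp O π S false)
      (s33s_comp O' π' S' true) (s33s_comp O' π' S' false)
      (s59u_corr_comap_a O O' S S' a π π' hπ0 haπ haO haB true)
      (s59u_corr_comap_a O O' S S' a π π' hπ0 haπ haO haB false)
      hinc₁ hinc₂ hπ𝔫 hπ𝔫₂ ?_ 𝔫 (sup_le h𝔫.2.1 h𝔫.2.2) 𝔫' h𝔫'c
    intro 𝔮 h𝔮 hπ𝔮
    refine s59u_corr_cov O' S' π' hπ'0 hπS hπB' 𝔮 h𝔮 ?_
    have e : (⟨π', hπB'⟩ : s34x_ring (s34x_infRing O') S') =
        algebraMap (s34x_ring (s34x_infRing O) S) (s34x_ring (s34x_infRing O') S') ⟨π, hπB⟩ := by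
      apply Subtype.ext
      rw [halg, s59u_chartHom_coe]
      exact haπ.symm
    rw [e]
    exact hπ𝔮
  -- contract along `b`
  haveI := h𝔫'max
  refine ⟨𝔫'.comap (s59u_chartHom O O' S S' b hbB), ⟨?_, ?_, ?_⟩, ?_⟩
  · exact Ideal.isMaximal_comap_of_isIntegral_of_isMaximal' _ hintb 𝔫'
  · exact (s59u_corr_le_comap_b O O' S S' b π π' hbπ hbO hbB true).trans
      (Ideal.comap_mono (le_sup_left.trans hnode'))
  · exact (s59u_corr_le_comap_b O O' S S' b π π' hbπ hbO hbB false).trans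
      (Ideal.comap_mono (le_sup_right.trans hnode'))
  · intro y hy0 hy
    rw [Ideal.mem_comap]
    apply h𝔫'ge
    rw [s59u_mem_centre, s59u_chartHom_coe]
    exact Or.inr hy

end Abs

end Fermat.Agent.Lib.S59
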