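/-
Programme (R2), node **[CAR]**, leaf [L-c]/**[T-NODE]** (helper3, prefix `s59u_`), part 2:
GENERIC TOOLS for the concrete node correspondence.

* `s59u_algHom_mem_place`      : pull-back of a chart condition along ANY `K`-embedding of function fields (no
  algebraicity hypothesis: if the contracted valuation ring is trivial there is nothing to prove);
* `s59u_isIntegrallyClosed_of_closedIn` : a subring of a field which is integrally closed in the field is an integrally
  closed domain;
* `s59u_isIntegral_of_ev`      : integrality over `A[w]` (S18's `s18b_ev`) implies integrality over any ring over which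
  the constants `A` and `w` are integral;
* `s59u_isIntegral_of_intOver` : the same for S28's explicit `s28d_IntOver`;
* `s59u_isIntegralElem_codRestrict` : integrality for a corestricted ring homomorphism.
-/
import Mathlib
import Fermat.Agent.Lib.S18.LPlace
import Fermat.Agent.Lib.S18.BSpan
import Fermat.Agent.Lib.S28.DInt

set_option autoImplicit false
set_option linter.unusedSectionVars false
set_option linter.unusedVariables false
set_option linter.style.haveILetI false

noncomputable section

namespace Fermat.Agent.Lib.S59

open AlgebraicCurve Polynomial Fermat.Agent.Lib.FF Fermat.Agent.Lib.S18 Fermat.Agent.Lib.S28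

section Place

variable {K F F' : Type*} [Field K] [Field F] [Field F'] [Algebra K F] [Algebra K F']

/-- **Pull-back of a chart condition** along a `K`-embedding `θ : F → F'`: if `g` is regular wherever `t` is, then
`θ g` is regular wherever `θ t` is. -/
theorem s59u_algHom_mem_place (θ : F →ₐ[K] F') {t g : F}
    (hg : ∀ P : Place K F, t ∈ P.toValuationSubring → g ∈ P.toValuationSubring)
    (Q : Place K F') (hQ : θ t ∈ Q.toValuationSubring) : θ g ∈ Q.toValuationSubring := by
  letI := θ.toRingHom.toAlgebra
  haveI : IsScalarTower K F F' := IsScalarTower.of_algebraMap_eq (fun a => (θ.commutes a).symm)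
  by_cases htop : s18l_comap (F := F) Q = ⊤
  · have : g ∈ s18l_comap (F := F) Q := by
      rw [htop]
      exact ValuationSubring.mem_top g
    exact this
  · let P : Place K F :=
      { toValuationSubring := s18l_comap (F := F) Q
        algebraMap_mem' := fun a => by
          rw [s18l_mem_comap, ← IsScalarTower.algebraMap_apply]
          exact Q.algebraMap_mem' a
        ne_top' := htop
        isPrincipalIdealRing' := s18l_isPrincipalIdealRing_comap Q }
    exact hg P hQ

end Place

section Closed

/-- a subring of a field which is integrally closed in the field is an integrally closed domain. -/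
theorem s59u_isIntegrallyClosed_of_closedIn {F : Type*} [Field F] (R : Subring F)
    (h : ∀ x : F, IsIntegral R x → x ∈ R) : IsIntegrallyClosed R := by
  rw [isIntegrallyClosed_iff (FractionRing R)]
  intro x hx
  have hinj : Function.Injective (algebraMap R F) := Subtype.val_injective
  let ι : FractionRing R →+* F := IsFractionRing.lift hinj
  have hι : ∀ r : R, ι (algebraMap R (FractionRing R) r) = (r : F) := fun r =>
    IsFractionRing.lift_algebraMap hinj r
  have hx' : IsIntegral R (ι x) := by
    refine hx.map_of_comp_eq (RingHom.id R) ι ?_
    ext r
    exact (hι r).symm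
  refine ⟨⟨ι x, h _ hx'⟩, ?_⟩
  apply ι.injective
  rw [hι]

end Closed

section Integral

variable {K : Type*} [Field K] {κ : Type*} [Field κ] (G : s18g_GaussData K κ)
variable (𝓕 : IntermediateField K (LaurentSeries K)) (w : 𝓕)

/-- integrality over `A[w]` implies integrality over any ring over which `A` and `w` are integral. -/
theorem s59u_isIntegral_of_ev {R : Type*} [CommRing R] [Algebra R 𝓕]
    (hA : ∀ a : G.A, IsIntegral R (algebraMap K 𝓕 (a : K))) (hw : IsIntegral R w)
    (z : 𝓕) (hz : (s18b_ev G 𝓕 w).IsIntegralElem z) : IsIntegral R z := by
  have hmem : ∀ p : G.A[X], s18b_ev G 𝓕 w p ∈ integralClosure R 𝓕 := by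
    intro p
    induction p using Polynomial.induction_on with
    | C a =>
      rw [s18b_evA_C]
      exact hA a
    | add p q hp hq =>
      rw [map_add]
      exact (integralClosure R 𝓕).add_mem hp hq
    | monomial n a h =>
      rw [pow_succ, ← mul_assoc, map_mul, s18b_evA_X]
      exact (integralClosure R 𝓕).mul_mem h hw
  obtain ⟨p, hp, h0⟩ := hz
  let ψ : G.A[X] →+* integralClosure R 𝓕 :=
    (s18b_ev G 𝓕 w).codRestrict (integralClosure R 𝓕).toSubring hmem
  have hC : IsIntegral (integralClosure R 𝓕) z := by
    refine ⟨p.map ψ, hp.map ψ, ?_⟩
    rw [Polynomial.eval₂_map]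
    have : (algebraMap (integralClosure R 𝓕) 𝓕).comp ψ = s18b_ev G 𝓕 w := RingHom.ext fun _ => rfl
    rw [this]
    exact h0
  exact isIntegral_trans (A := integralClosure R 𝓕) z hC

end Integral

section IntOver

variable {E : Type*} [CommRing E]

/-- `v` integral over `ℤ[u]` and `u` integral over `R` imply `v` integral over `R`. -/
theorem s59u_isIntegral_of_intOver {R : Type*} [CommRing R] [Algebra R E] {u v : E}
    (h : s28d_IntOver u v) (hu : IsIntegral R u) : IsIntegral R v := by
  rw [s28d_intOver_iff] at h
  let Cl := integralClosure R E
  have hle : Algebra.adjoin ℤ {u} ≤ Cl.restrictScalars ℤ :=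
    Algebra.adjoin_le (Set.singleton_subset_iff.mpr hu)
  have hv : IsIntegral Cl v := by
    refine h.map_of_comp_eq (Subalgebra.inclusion hle).toRingHom (RingHom.id E) ?_
    ext x
    rfl
  exact isIntegral_trans (A := Cl) v hv

end IntOver

section CodRestrict

variable {R S : Type*} [CommRing R] [CommRing S]

/-- integrality for a corestricted ring homomorphism. -/
theorem s59u_isIntegralElem_codRestrict (B' : Subring S) (f : R →+* B') (z : B')
    (h : ((B'.subtype).comp f).IsIntegralElem (z : S)) : f.IsIntegralElem z := by
  obtain ⟨p, hp, h0⟩ := h
  refine ⟨p, hp, ?_⟩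
  apply Subtype.ext
  have h1 := Polynomial.hom_eval₂ p f B'.subtype z
  exact h1.trans h0

end CodRestrict

end Fermat.Agent.Lib.S59
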