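/-
Programme (R2), node **[CAR]**, leaf [L-c]/**[T-NODE]** (helper3, prefix `s59u_`), part 3:
THE CONCRETE NODE CORRESPONDENCE between the levels `M q` and `M ℓ q` (`ℓ` a prime, `ℓ ∤ M q`).

`a b : 𝓕_{K₀}(M q) → 𝓕_{K₀}(M ℓ q)` are `K₀`-embeddings with `a y = y`, `b y = y(T^ℓ)` on Laurent coefficients
(= `α_ℓ`, `β_ℓ` up to the identification of the levels `M q ℓ = M ℓ q`).  All the hypotheses of the abstract
correspondence `s59u_corr_abs` are checked for the two-component charts `{j regular}` of the two levels.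
-/
import Fermat.Agent.Lib.S59.UCarCorrAbs
import Fermat.Agent.Lib.S59.UCarCorrGen
import Fermat.Agent.Lib.S36.XCrossMax
import Fermat.Agent.Lib.S34.FFive
import Fermat.Agent.Lib.S34.DChart
import Fermat.Agent.Lib.S34.DStarInst
import Fermat.Agent.Lib.S44.HComm
import Fermat.Agent.Lib.S33.SSModel

set_option autoImplicit false
set_option linter.unusedSectionVars false
set_option linter.unusedVariables false
set_option linter.style.haveILetI false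

noncomputable section

namespace Fermat.Agent.Lib.S59

open Polynomial ModularCurve AlgebraicCurve HahnSeries Fermat.Agent.Lib.FF Fermat.Agent.Lib.S18
  Fermat.Agent.Lib.S28 Fermat.Agent.Lib.S37 Fermat.Agent.Lib.S34 Fermat.Agent.Lib.S35
  Fermat.Agent.Lib.S36 Fermat.Agent.Lib.S33 Fermat.Agent.Lib.S44

local notation "Kb" => AlgebraicClosure ℚ

variable {K₀ : Type} [Field K₀] [Algebra ℚ K₀] [CharZero K₀] {κ : Type} [Field κ]
  (G : s18g_GaussData K₀ κ) [IsDiscreteValuationRing G.A]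
  (φ : K₀ →+* Kb) (M q ℓ : ℕ) [NeZero M] [NeZero q] [NeZero ℓ] (hq : q.Prime) (hqM : ¬ q ∣ M)
  (hqMℓ : ¬ q ∣ M * ℓ)
  (a b : s34m_F K₀ (M * q) →ₐ[K₀] s34m_F K₀ (M * ℓ * q))
  (ha : ∀ y, ((a y : s34m_F K₀ (M * ℓ * q)) : LaurentSeries K₀) = (y : LaurentSeries K₀))
  (hb : ∀ y, ((b y : s34m_F K₀ (M * ℓ * q)) : LaurentSeries K₀) =
    qExpand K₀ ℓ (y : LaurentSeries K₀))

/-! ### The Atkin–Lehner involutions of the two levels -/

include ha in
/-- `w' ∘ a = a ∘ w`. -/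
theorem s59u_al_a (y : s34m_F K₀ (M * q)) :
    s34m_al φ (M * ℓ) q hq hqMℓ (a y) = a (s34m_al φ M q hq hqM y) := by
  apply s34m_iota_injective φ (M * ℓ * q)
  rw [s34m_iota_al]
  have e : ∀ z : s34m_F K₀ (M * q), s34m_iota φ (M * ℓ * q) (a z) =
      s44h_castF (Nat.mul_right_comm M q ℓ)
        (heckeAlphaBar Kb (M * q) ℓ (s34m_iota φ (M * q) z)) := by
    intro z
    apply Subtype.ext
    rw [s18q_map_coe, ha, s44h_castF_coe, coe_heckeAlphaBar, s18q_map_coe]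
  rw [e, e, s34m_iota_al, ← s44h_alUp_alpha M q ℓ hq hqM hqMℓ]
  unfold s44h_alUp
  rw [AlgEquiv.trans_apply, AlgEquiv.trans_apply, AlgEquiv.apply_symm_apply]

include hb in
/-- `w' ∘ b = b ∘ w`. -/
theorem s59u_al_b (y : s34m_F K₀ (M * q)) :
    s34m_al φ (M * ℓ) q hq hqMℓ (b y) = b (s34m_al φ M q hq hqM y) := by
  apply s34m_iota_injective φ (M * ℓ * q)
  rw [s34m_iota_al]
  have e : ∀ z : s34m_F K₀ (M * q), s34m_iota φ (M * ℓ * q) (b z) =
      s44h_castF (Nat.mul_right_comm M q ℓ)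
        (heckeBetaBar Kb (M * q) ℓ (s34m_iota φ (M * q) z)) := by
    intro z
    apply Subtype.ext
    rw [s18q_map_coe, hb, s44h_castF_coe, coe_heckeBetaBar, s18q_map_coe]
    exact ffb_coeffMap_qExpand (d := ℓ) φ _
  rw [e, e, s34m_iota_al, ← s44h_alUp_beta M q ℓ hq hqM hqMℓ]
  unfold s44h_alUp
  rw [AlgEquiv.trans_apply, AlgEquiv.trans_apply, AlgEquiv.apply_symm_apply]

/-! ### The valuation rings -/

include ha in
/-- `a y ∈ V'_i ↔ y ∈ V_i`. -/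
theorem s59u_a_mem_VV (i : Bool) (y : s34m_F K₀ (M * q)) :
    a y ∈ s34m_VV G φ (M * ℓ) q hq hqMℓ i ↔ y ∈ s34m_VV G φ M q hq hqM i := by
  cases i
  · show a y ∈ s34m_Vzero G φ (M * ℓ) q hq hqMℓ ↔ y ∈ s34m_Vzero G φ M q hq hqM
    rw [s34m_mem_Vzero, s34m_mem_Vzero, s59u_al_a φ M q ℓ hq hqM hqMℓ a ha, s34m_mem_Vinf,
      s34m_mem_Vinf, ha]
  · show a y ∈ s34m_Vinf G (M * ℓ * q) ↔ y ∈ s34m_Vinf G (M * q)
    rw [s34m_mem_Vinf, s34m_mem_Vinf, ha]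

include hb in
/-- `y ∈ V_i → b y ∈ V'_i`. -/
theorem s59u_b_mem_VV (i : Bool) (y : s34m_F K₀ (M * q))
    (hy : y ∈ s34m_VV G φ M q hq hqM i) : b y ∈ s34m_VV G φ (M * ℓ) q hq hqMℓ i := by
  cases i
  · have hy' : y ∈ s34m_Vzero G φ M q hq hqM := hy
    show b y ∈ s34m_Vzero G φ (M * ℓ) q hq hqMℓ
    rw [s34m_mem_Vzero] at hy' ⊢
    rw [s59u_al_b φ M q ℓ hq hqM hqMℓ b hb, s34m_mem_Vinf, hb]
    exact s34m_qExpand_mem_O G ℓ hy'
  · have hy' : y ∈ s34m_Vinf G (M * q) := hy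
    show b y ∈ s34m_Vinf G (M * ℓ * q)
    rw [s34m_mem_Vinf, hb]
    exact s34m_qExpand_mem_O G ℓ hy'

/-! ### The function `j` -/

include ha in
theorem s59u_a_jF : a (s18g_jF (K := K₀) (M * q)) = s18g_jF (K := K₀) (M * ℓ * q) := by
  apply Subtype.ext
  rw [ha, s18g_coe_jF, s18g_coe_jF]

include hb in
theorem s59u_coe_b_jF :
    ((b (s18g_jF (K := K₀) (M * q)) : s34m_F K₀ (M * ℓ * q)) : LaurentSeries K₀) =
      qExpand K₀ ℓ (jqModC K₀) := by
  rw [hb, s18g_coe_jF]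

include hb in
/-- `b j = j(T^ℓ)` is integral over `ℤ[j']`. -/
theorem s59u_intOver_b_jF :
    s28d_IntOver (s18g_jF (K := K₀) (M * ℓ * q)) (b (s18g_jF (K := K₀) (M * q))) := by
  refine s28d_intOver_of_map
    ((laurentBaseChange K₀ (modularFunctionFieldFull (M * ℓ * q))).val : _ →+* LaurentSeries K₀)
    Subtype.val_injective ?_
  show s28d_IntOver ((s18g_jF (K := K₀) (M * ℓ * q) : s34m_F K₀ (M * ℓ * q)) : LaurentSeries K₀)
    ((b (s18g_jF (K := K₀) (M * q)) : s34m_F K₀ (M * ℓ * q)) : LaurentSeries K₀)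
  rw [s18g_coe_jF, s59u_coe_b_jF M q ℓ b hb]
  exact s18g_intOver_jqN ℓ

include hb φ in
/-- `j'` is integral over `ℤ[b j]`. -/
theorem s59u_intOver_jF_b (hℓ : ℓ.Prime) (hℓN : ¬ ℓ ∣ M * q) :
    s28d_IntOver (b (s18g_jF (K := K₀) (M * q))) (s18g_jF (K := K₀) (M * ℓ * q)) := by
  refine s28d_intOver_of_map
    ((laurentBaseChange K₀ (modularFunctionFieldFull (M * ℓ * q))).val : _ →+* LaurentSeries K₀)
    Subtype.val_injective ?_
  show s28d_IntOver ((b (s18g_jF (K := K₀) (M * q)) : s34m_F K₀ (M * ℓ * q)) : LaurentSeries K₀)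
    ((s18g_jF (K := K₀) (M * ℓ * q) : s34m_F K₀ (M * ℓ * q)) : LaurentSeries K₀)
  rw [s18g_coe_jF, s59u_coe_b_jF M q ℓ b hb]
  have h := s28d_intOver_map
    ((laurentBaseChange K₀ (modularFunctionFieldFull (M * q * ℓ))).val :
      s34m_F K₀ (M * q * ℓ) →+* LaurentSeries K₀)
    (s34d2_intOver_j (K₀ := K₀) φ (M * q) ℓ hℓ hℓN)
  have e1 : ((laurentBaseChange K₀ (modularFunctionFieldFull (M * q * ℓ))).val :
      s34m_F K₀ (M * q * ℓ) →+* LaurentSeries K₀) (s34d2_u (M * q) ℓ) =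
      qExpand K₀ ℓ (jqModC K₀) :=
    s34d2_coe_u (K₀ := K₀) (M * q) ℓ
  have e2 : ((laurentBaseChange K₀ (modularFunctionFieldFull (M * q * ℓ))).val :
      s34m_F K₀ (M * q * ℓ) →+* LaurentSeries K₀) (s18g_jF (K := K₀) (M * q * ℓ)) =
      jqModC K₀ := s18g_coe_jF (M * q * ℓ)
  rw [e1, e2] at h
  exact h

/-! ### The chart rings -/

include ha in
/-- `a B ⊆ B'`. -/
theorem s59u_a_mem_ring (y : s34m_F K₀ (M * q))
    (hy : y ∈ s34x_ring (L₀ := K₀) (s34x_infRing (s34m_VV G φ M q hq hqM))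
      (s18_chart1 (L₀ := K₀) (s18g_jF (K := K₀) (M * q)))) :
    a y ∈ s34x_ring (L₀ := K₀) (s34x_infRing (s34m_VV G φ (M * ℓ) q hq hqMℓ))
      (s18_chart1 (L₀ := K₀) (s18g_jF (K := K₀) (M * ℓ * q))) := by
  refine ⟨(s34x_mem_infRing _ _).mpr fun i =>
    (s59u_a_mem_VV G φ M q ℓ hq hqM hqMℓ a ha i y).mpr ((s34x_mem_infRing _ _).mp hy.1 i),
    fun Q hQ => ?_⟩
  refine s59u_algHom_mem_place a (t := s18g_jF (K := K₀) (M * q)) (fun P hP => hy.2 P hP) Q ?_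
  rw [s59u_a_jF M q ℓ a ha]
  exact hQ

include hb in
/-- `b B ⊆ B'`. -/
theorem s59u_b_mem_ring (y : s34m_F K₀ (M * q))
    (hy : y ∈ s34x_ring (L₀ := K₀) (s34x_infRing (s34m_VV G φ M q hq hqM))
      (s18_chart1 (L₀ := K₀) (s18g_jF (K := K₀) (M * q)))) :
    b y ∈ s34x_ring (L₀ := K₀) (s34x_infRing (s34m_VV G φ (M * ℓ) q hq hqMℓ))
      (s18_chart1 (L₀ := K₀) (s18g_jF (K := K₀) (M * ℓ * q))) := by
  refine ⟨(s34x_mem_infRing _ _).mpr fun i =>
    s59u_b_mem_VV G φ M q ℓ hq hqM hqMℓ b hb i y ((s34x_mem_infRing _ _).mp hy.1 i),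
    fun Q hQ => ?_⟩
  refine s59u_algHom_mem_place b (t := s18g_jF (K := K₀) (M * q)) (fun P hP => hy.2 P hP) Q ?_
  exact s34d_mem_of_intOver Q.toValuationSubring (s59u_intOver_b_jF M q ℓ b hb) hQ

/-! ### Elements of the chart ring of level `M q` -/

include φ in
/-- `𝓕(N)` is finite over `K₀(j)`. -/
theorem s59u_ffGen (N : ℕ) [NeZero N] : FFGen K₀ (s18g_jF (K := K₀) N) :=
  s18b_ffGen_jF N (fun n b hb hn => s18g_exists_relation N φ hn b hb)

/-- constants of `A` lie in the chart ring. -/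
theorem s59u_const_mem_ring (c : G.A) :
    algebraMap K₀ (s34m_F K₀ (M * q)) (c : K₀) ∈
      s34x_ring (L₀ := K₀) (s34x_infRing (s34m_VV G φ M q hq hqM))
        (s18_chart1 (L₀ := K₀) (s18g_jF (K := K₀) (M * q))) :=
  ⟨(s34x_mem_infRing _ _).mpr fun i => s34c_const_mem_VV G φ M q hq hqM i c,
    fun Q _ => Q.algebraMap_mem' _⟩

/-- `j` lies in the chart ring. -/
theorem s59u_jF_mem_ring :
    s18g_jF (K := K₀) (M * q) ∈
      s34x_ring (L₀ := K₀) (s34x_infRing (s34m_VV G φ M q hq hqM))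
        (s18_chart1 (L₀ := K₀) (s18g_jF (K := K₀) (M * q))) :=
  ⟨(s34x_mem_infRing _ _).mpr fun i => s34c_jF_mem_VV G φ M q hq hqM i, fun Q hQ => hQ⟩

/-- `ϖ` lies in the chart ring. -/
theorem s59u_unif_mem_ring :
    s34m_unif G (M * q) ∈
      s34x_ring (L₀ := K₀) (s34x_infRing (s34m_VV G φ M q hq hqM))
        (s18_chart1 (L₀ := K₀) (s18g_jF (K := K₀) (M * q))) :=
  s59u_const_mem_ring G φ M q hq hqM G.ϖ

variable [CharP κ q]

/-- the chart ring is the set of elements integral over `A[j]`. -/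
theorem s59u_mem_ring_iff (y : s34m_F K₀ (M * q)) :
    y ∈ s34x_ring (L₀ := K₀) (s34x_infRing (s34m_VV G φ M q hq hqM))
        (s18_chart1 (L₀ := K₀) (s18g_jF (K := K₀) (M * q))) ↔
      (s18b_ev G (laurentBaseChange K₀ (modularFunctionFieldFull (M * q)))
        (s18g_jF (K := K₀) (M * q))).IsIntegralElem y :=
  haveI := s59u_ffGen (K₀ := K₀) φ (M * q)
  s34x_mem_ring_iff G (laurentBaseChange K₀ (modularFunctionFieldFull (M * q)))
    (s18g_jF (K := K₀) (M * q)) (s34m_VV G φ M q hq hqM) (s34c_const_mem_VV G φ M q hq hqM)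
    (s34c_jF_mem_VV G φ M q hq hqM) (s34f_alpha_j G φ M q hq hqM) y

/-! ### Integrality of `B'` over `a B` and `b B` -/

/-- `B'` is integral over `f B` as soon as `j'` is. -/
theorem s59u_chartHom_isIntegral (f : s34m_F K₀ (M * q) →ₐ[K₀] s34m_F K₀ (M * ℓ * q))
    (hfB : ∀ y ∈ s34x_ring (L₀ := K₀) (s34x_infRing (s34m_VV G φ M q hq hqM))
        (s18_chart1 (L₀ := K₀) (s18g_jF (K := K₀) (M * q))),
      (f : s34m_F K₀ (M * q) →+* s34m_F K₀ (M * ℓ * q)) y ∈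
        s34x_ring (L₀ := K₀) (s34x_infRing (s34m_VV G φ (M * ℓ) q hq hqMℓ))
          (s18_chart1 (L₀ := K₀) (s18g_jF (K := K₀) (M * ℓ * q))))
    (hj : ((f : s34m_F K₀ (M * q) →+* s34m_F K₀ (M * ℓ * q)).comp
      (s34x_ring (L₀ := K₀) (s34x_infRing (s34m_VV G φ M q hq hqM))
        (s18_chart1 (L₀ := K₀) (s18g_jF (K := K₀) (M * q)))).subtype).IsIntegralElem
      (s18g_jF (K := K₀) (M * ℓ * q))) :
    (s59u_chartHom (s34m_VV G φ M q hq hqM) (s34m_VV G φ (M * ℓ) q hq hqMℓ)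
      (s18_chart1 (L₀ := K₀) (s18g_jF (K := K₀) (M * q)))
      (s18_chart1 (L₀ := K₀) (s18g_jF (K := K₀) (M * ℓ * q)))
      (f : s34m_F K₀ (M * q) →+* s34m_F K₀ (M * ℓ * q)) hfB).IsIntegral := by
  intro z
  haveI := s59u_ffGen (K₀ := K₀) φ (M * ℓ * q)
  have hz : (s18b_ev G (laurentBaseChange K₀ (modularFunctionFieldFull (M * ℓ * q)))
      (s18g_jF (K := K₀) (M * ℓ * q))).IsIntegralElem (z : s34m_F K₀ (M * ℓ * q)) :=
    s34x_isIntegralElem_of_mem_ring G (laurentBaseChange K₀ (modularFunctionFieldFull (M * ℓ * q)))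
      (s18g_jF (K := K₀) (M * ℓ * q)) (s34m_VV G φ (M * ℓ) q hq hqMℓ)
      (s34f_alpha_j G φ (M * ℓ) q hq hqMℓ) z z.2
  refine s59u_isIntegralElem_codRestrict _ _ z ?_
  letI alg : Algebra (s34x_ring (L₀ := K₀) (s34x_infRing (s34m_VV G φ M q hq hqM))
      (s18_chart1 (L₀ := K₀) (s18g_jF (K := K₀) (M * q)))) (s34m_F K₀ (M * ℓ * q)) :=
    ((f : s34m_F K₀ (M * q) →+* s34m_F K₀ (M * ℓ * q)).comp
      (s34x_ring (L₀ := K₀) (s34x_infRing (s34m_VV G φ M q hq hqM))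
        (s18_chart1 (L₀ := K₀) (s18g_jF (K := K₀) (M * q)))).subtype).toAlgebra
  have key : IsIntegral (s34x_ring (L₀ := K₀) (s34x_infRing (s34m_VV G φ M q hq hqM))
      (s18_chart1 (L₀ := K₀) (s18g_jF (K := K₀) (M * q)))) (z : s34m_F K₀ (M * ℓ * q)) := by
    refine s59u_isIntegral_of_ev G (laurentBaseChange K₀ (modularFunctionFieldFull (M * ℓ * q)))
      (s18g_jF (K := K₀) (M * ℓ * q)) ?_ hj _ hz
    intro c
    have e : algebraMap K₀ (s34m_F K₀ (M * ℓ * q)) (c : K₀) =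
        algebraMap (s34x_ring (L₀ := K₀) (s34x_infRing (s34m_VV G φ M q hq hqM))
          (s18_chart1 (L₀ := K₀) (s18g_jF (K := K₀) (M * q)))) (s34m_F K₀ (M * ℓ * q))
          ⟨_, s59u_const_mem_ring G φ M q hq hqM c⟩ := (f.commutes (c : K₀)).symm
    rw [e]
    exact isIntegral_algebraMap
  exact key

include ha in
/-- **`B'` is integral over `a B`.** -/
theorem s59u_a_isIntegral :
    (s59u_chartHom (s34m_VV G φ M q hq hqM) (s34m_VV G φ (M * ℓ) q hq hqMℓ)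
      (s18_chart1 (L₀ := K₀) (s18g_jF (K := K₀) (M * q)))
      (s18_chart1 (L₀ := K₀) (s18g_jF (K := K₀) (M * ℓ * q)))
      (a : s34m_F K₀ (M * q) →+* s34m_F K₀ (M * ℓ * q))
      (s59u_a_mem_ring G φ M q ℓ hq hqM hqMℓ a ha)).IsIntegral := by
  refine s59u_chartHom_isIntegral G φ M q ℓ hq hqM hqMℓ a _ ?_
  have e : s18g_jF (K := K₀) (M * ℓ * q) =
      ((a : s34m_F K₀ (M * q) →+* s34m_F K₀ (M * ℓ * q)).comp
        (s34x_ring (L₀ := K₀) (s34x_infRing (s34m_VV G φ M q hq hqM))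
          (s18_chart1 (L₀ := K₀) (s18g_jF (K := K₀) (M * q)))).subtype)
        ⟨_, s59u_jF_mem_ring G φ M q hq hqM⟩ := (s59u_a_jF M q ℓ a ha).symm
  rw [e]
  exact RingHom.isIntegralElem_map _

include hb in
/-- **`B'` is integral over `b B`.** -/
theorem s59u_b_isIntegral (hℓ : ℓ.Prime) (hℓN : ¬ ℓ ∣ M * q) :
    (s59u_chartHom (s34m_VV G φ M q hq hqM) (s34m_VV G φ (M * ℓ) q hq hqMℓ)
      (s18_chart1 (L₀ := K₀) (s18g_jF (K := K₀) (M * q)))
      (s18_chart1 (L₀ := K₀) (s18g_jF (K := K₀) (M * ℓ * q)))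
      (b : s34m_F K₀ (M * q) →+* s34m_F K₀ (M * ℓ * q))
      (s59u_b_mem_ring G φ M q ℓ hq hqM hqMℓ b hb)).IsIntegral := by
  refine s59u_chartHom_isIntegral G φ M q ℓ hq hqM hqMℓ b _ ?_
  letI alg : Algebra (s34x_ring (L₀ := K₀) (s34x_infRing (s34m_VV G φ M q hq hqM))
      (s18_chart1 (L₀ := K₀) (s18g_jF (K := K₀) (M * q)))) (s34m_F K₀ (M * ℓ * q)) :=
    ((b : s34m_F K₀ (M * q) →+* s34m_F K₀ (M * ℓ * q)).comp
      (s34x_ring (L₀ := K₀) (s34x_infRing (s34m_VV G φ M q hq hqM))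
        (s18_chart1 (L₀ := K₀) (s18g_jF (K := K₀) (M * q)))).subtype).toAlgebra
  have key : IsIntegral (s34x_ring (L₀ := K₀) (s34x_infRing (s34m_VV G φ M q hq hqM))
      (s18_chart1 (L₀ := K₀) (s18g_jF (K := K₀) (M * q)))) (s18g_jF (K := K₀) (M * ℓ * q)) := by
    refine s59u_isIntegral_of_intOver (s59u_intOver_jF_b φ M q ℓ b hb hℓ hℓN) ?_
    have e : b (s18g_jF (K := K₀) (M * q)) =
        algebraMap (s34x_ring (L₀ := K₀) (s34x_infRing (s34m_VV G φ M q hq hqM))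
          (s18_chart1 (L₀ := K₀) (s18g_jF (K := K₀) (M * q)))) (s34m_F K₀ (M * ℓ * q))
          ⟨_, s59u_jF_mem_ring G φ M q hq hqM⟩ := rfl
    rw [e]
    exact isIntegral_algebraMap
  exact key

/-! ### The chart ring of level `M q` is integrally closed -/

/-- **`B` is integrally closed.** -/
theorem s59u_ring_isIntegrallyClosed :
    IsIntegrallyClosed (s34x_ring (L₀ := K₀) (s34x_infRing (s34m_VV G φ M q hq hqM))
      (s18_chart1 (L₀ := K₀) (s18g_jF (K := K₀) (M * q)))) := by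
  refine s59u_isIntegrallyClosed_of_closedIn _ fun x hx => ?_
  rw [s59u_mem_ring_iff G φ M q hq hqM]
  letI alg : Algebra G.A[X] (s34m_F K₀ (M * q)) :=
    (s18b_ev G (laurentBaseChange K₀ (modularFunctionFieldFull (M * q)))
      (s18g_jF (K := K₀) (M * q))).toAlgebra
  show IsIntegral G.A[X] x
  have hle : ∀ y : s34x_ring (L₀ := K₀) (s34x_infRing (s34m_VV G φ M q hq hqM))
      (s18_chart1 (L₀ := K₀) (s18g_jF (K := K₀) (M * q))),
      (y : s34m_F K₀ (M * q)) ∈ integralClosure G.A[X] (s34m_F K₀ (M * q)) := fun y =>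
    (s59u_mem_ring_iff G φ M q hq hqM _).mp y.2
  let ψ : s34x_ring (L₀ := K₀) (s34x_infRing (s34m_VV G φ M q hq hqM))
      (s18_chart1 (L₀ := K₀) (s18g_jF (K := K₀) (M * q))) →+*
      integralClosure G.A[X] (s34m_F K₀ (M * q)) :=
    (Subring.subtype _).codRestrict (integralClosure G.A[X] (s34m_F K₀ (M * q))).toSubring hle
  have hC : IsIntegral (integralClosure G.A[X] (s34m_F K₀ (M * q))) x := by
    refine hx.map_of_comp_eq ψ (RingHom.id _) ?_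
    ext y
    rfl
  exact isIntegral_trans (A := integralClosure G.A[X] (s34m_F K₀ (M * q))) x hC

/-! ### The two component ideals are prime and incomparable -/

/-- **the component ideals are prime.** -/
theorem s59u_comp_isPrime (i : Bool) :
    (s33s_comp (s34m_VV G φ M q hq hqM) (s34m_unif G (M * q))
      (s18_chart1 (L₀ := K₀) (s18g_jF (K := K₀) (M * q))) i).IsPrime := by
  refine ⟨?_, ?_⟩
  · intro htop
    have h1 : (1 : s34x_ring (L₀ := K₀) (s34x_infRing (s34m_VV G φ M q hq hqM))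
        (s18_chart1 (L₀ := K₀) (s18g_jF (K := K₀) (M * q)))) ∈
        s33s_comp (s34m_VV G φ M q hq hqM) (s34m_unif G (M * q))
          (s18_chart1 (L₀ := K₀) (s18g_jF (K := K₀) (M * q))) i := by
      rw [htop]
      exact Submodule.mem_top
    obtain ⟨z, hz, e⟩ := (s33s_mem_comp _ _ _ i _).mp h1
    have h2 := s36qf_mul_mem_nonunits _ (s36e_unif_mem_nonunits_VV G φ M q hq hqM i) hz
    rw [← e] at h2
    have h3 : ((1 : s34x_ring (L₀ := K₀) (s34x_infRing (s34m_VV G φ M q hq hqM))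
        (s18_chart1 (L₀ := K₀) (s18g_jF (K := K₀) (M * q)))) : s34m_F K₀ (M * q)) = 1 := rfl
    rw [h3, ValuationSubring.mem_nonunits_iff, map_one] at h2
    exact lt_irrefl _ h2
  · intro x y hxy
    by_contra hcon
    rw [not_or] at hcon
    obtain ⟨z, hz, e⟩ := (s33s_mem_comp _ _ _ i _).mp hxy
    have hx0 : (x : s34m_F K₀ (M * q)) ≠ 0 := by
      intro h0
      apply hcon.1
      have : x = 0 := Subtype.ext h0
      rw [this]
      exact Ideal.zero_mem _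
    have hxinv : (x : s34m_F K₀ (M * q))⁻¹ ∈ s34m_VV G φ M q hq hqM i :=
      s33s_inv_mem_of_not_dvd (s34m_VV G φ M q hq hqM i) (s34m_unif G (M * q))
        (s34m_unif_ne_zero G (M * q)) (s34m_unif_mem_VV G φ M q hq hqM i)
        (fun U hU => s34m_exists_zpow_VV G φ M q hq hqM i U hU) _ hx0
        (fun h => hcon.1 ((s33s_mem_comp _ _ _ i _).mpr h))
    apply hcon.2
    rw [s33s_mem_comp]
    refine ⟨(x : s34m_F K₀ (M * q))⁻¹ * z, (s34m_VV G φ M q hq hqM i).mul_mem _ _ hxinv hz, ?_⟩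
    have e' : (x : s34m_F K₀ (M * q)) * (y : s34m_F K₀ (M * q)) = s34m_unif G (M * q) * z := e
    calc (y : s34m_F K₀ (M * q))
        = (x : s34m_F K₀ (M * q))⁻¹ * ((x : s34m_F K₀ (M * q)) * (y : s34m_F K₀ (M * q))) := by
          field_simp
      _ = s34m_unif G (M * q) * ((x : s34m_F K₀ (M * q))⁻¹ * z) := by
          rw [e']
          ring

/-- **Independence of the two components**: an element of the chart ring in `P_i` and not in
`P_{!i}`. -/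
theorem s59u_comp_indep (i : Bool) :
    ¬ s33s_comp (s34m_VV G φ M q hq hqM) (s34m_unif G (M * q))
        (s18_chart1 (L₀ := K₀) (s18g_jF (K := K₀) (M * q))) i ≤
      s33s_comp (s34m_VV G φ M q hq hqM) (s34m_unif G (M * q))
        (s18_chart1 (L₀ := K₀) (s18g_jF (K := K₀) (M * q))) (!i) := by
  classical
  intro hle
  obtain ⟨y, hy⟩ := s36g_approx_fintype (s34m_VV G φ M q hq hqM)
    (s36e_arch_VV G φ M q hq hqM)
    (fun k => ⟨_, s36e_unif_mem_nonunits_VV G φ M q hq hqM k, s34m_unif_ne_zero G (M * q)⟩)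
    (s36qf_VV_ne G φ M q hq hqM) (fun k => if k = i then 0 else 1)
    (fun k => by
      by_cases hk : k = i
      · simp only [hk, if_true]
        exact (s34m_VV G φ M q hq hqM i).zero_mem
      · simp only [hk, if_false]
        exact (s34m_VV G φ M q hq hqM k).one_mem)
  have hni : (!i) ≠ i := by cases i <;> simp
  have hyI : y ∈ (s34m_VV G φ M q hq hqM i).nonunits := by
    have := hy i
    simpa using this
  have hyN : y - 1 ∈ (s34m_VV G φ M q hq hqM (!i)).nonunits := by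
    have := hy (!i)
    simpa [hni] using this
  have hyNm : y ∈ s34m_VV G φ M q hq hqM (!i) := by
    have h1 : y - 1 ∈ s34m_VV G φ M q hq hqM (!i) :=
      (s34m_VV G φ M q hq hqM (!i)).nonunits_le hyN
    have : y = (y - 1) + 1 := by ring
    rw [this]
    exact (s34m_VV G φ M q hq hqM (!i)).add_mem _ _ h1 (s34m_VV G φ M q hq hqM (!i)).one_mem
  have hyO : y ∈ s34x_infRing (s34m_VV G φ M q hq hqM) := (s34x_mem_infRing _ _).mpr fun k => by
    by_cases hk : k = i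
    · rw [hk]
      exact (s34m_VV G φ M q hq hqM i).nonunits_le hyI
    · have : k = !i := by cases k <;> cases i <;> simp_all
      rw [this]
      exact hyNm
  have hyNu : y ∉ (s34m_VV G φ M q hq hqM (!i)).nonunits := by
    intro h
    have h1 : (1 : s34m_F K₀ (M * q)) ∈ (s34m_VV G φ M q hq hqM (!i)).nonunits := by
      have e : (1 : s34m_F K₀ (M * q)) = y + -(y - 1) := by ring
      rw [e]
      refine s36qf_add_mem_nonunits _ h ?_
      rw [ValuationSubring.mem_nonunits_iff, Valuation.map_neg]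
      exact (ValuationSubring.mem_nonunits_iff (A := s34m_VV G φ M q hq hqM (!i))).mp hyN
    rw [ValuationSubring.mem_nonunits_iff, map_one] at h1
    exact lt_irrefl _ h1
  obtain ⟨s, hs, hsy⟩ := s34f_alpha_j G φ M q hq hqM y hyO
  set c := s18b_ev G (laurentBaseChange K₀ (modularFunctionFieldFull (M * q)))
    (s18g_jF (K := K₀) (M * q)) s with hc
  have hcB : c ∈ s34x_ring (L₀ := K₀) (s34x_infRing (s34m_VV G φ M q hq hqM))
      (s18_chart1 (L₀ := K₀) (s18g_jF (K := K₀) (M * q))) :=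
    (s59u_mem_ring_iff G φ M q hq hqM _).mpr (RingHom.isIntegralElem_map _)
  have hcV : ∀ k, c ∈ s34m_VV G φ M q hq hqM k := (s34x_mem_infRing _ _).mp hcB.1
  have htr : Transcendental κ (s34m_redInf G M ⟨s18g_jF (K := K₀) M, s34m_jF_mem_Vinf G M⟩) := by
    rw [s34m_redInf_jF]
    exact s28v_transcendental_jqModC κ
  have hcu : ∀ k, c ∉ (s34m_VV G φ M q hq hqM k).nonunits := by
    intro k
    cases k
    · have h := s36qf_unit_zero G φ M q hq hqM (s18g_jF (K := K₀) M) (s34m_jF_mem_Vinf G M) htr s hs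
      rw [s34m_alpha_jF] at h
      exact h
    · have h := s36qf_unit_inf G φ M q hq hqM (s18g_jF (K := K₀) M) (s34m_jF_mem_Vinf G M) htr s hs
      rw [s34m_alpha_jF] at h
      exact h
  have hcyB : c * y ∈ s34x_ring (L₀ := K₀) (s34x_infRing (s34m_VV G φ M q hq hqM))
      (s18_chart1 (L₀ := K₀) (s18g_jF (K := K₀) (M * q))) :=
    (s59u_mem_ring_iff G φ M q hq hqM _).mpr hsy
  have hmemI : (⟨c * y, hcyB⟩ : s34x_ring (L₀ := K₀) (s34x_infRing (s34m_VV G φ M q hq hqM))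
      (s18_chart1 (L₀ := K₀) (s18g_jF (K := K₀) (M * q)))) ∈
      s33s_comp (s34m_VV G φ M q hq hqM) (s34m_unif G (M * q))
        (s18_chart1 (L₀ := K₀) (s18g_jF (K := K₀) (M * q))) i := by
    rw [s33s_mem_comp]
    obtain ⟨z, hz, e⟩ := s36q_fi_gen G φ M q hq hqM i y hyI
    refine ⟨c * z, (s34m_VV G φ M q hq hqM i).mul_mem _ _ (hcV i) hz, ?_⟩
    show c * y = s34m_unif G (M * q) * (c * z)
    rw [e]
    ring
  obtain ⟨z', hz', e'⟩ := (s33s_mem_comp _ _ _ (!i) _).mp (hle hmemI)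
  have e'' : c * y = s34m_unif G (M * q) * z' := e'
  have h1 : c * y ∈ (s34m_VV G φ M q hq hqM (!i)).nonunits := by
    rw [e'']
    exact s36qf_mul_mem_nonunits _ (s36e_unif_mem_nonunits_VV G φ M q hq hqM (!i)) hz'
  rw [ValuationSubring.mem_nonunits_iff, map_mul] at h1
  have v1 : (s34m_VV G φ M q hq hqM (!i)).valuation c = 1 :=
    le_antisymm (((s34m_VV G φ M q hq hqM (!i)).valuation_le_one_iff _).mpr (hcV (!i)))
      (not_lt.mp fun h => hcu (!i) ((ValuationSubring.mem_nonunits_iff _).mpr h))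
  have v2 : (s34m_VV G φ M q hq hqM (!i)).valuation y = 1 :=
    le_antisymm (((s34m_VV G φ M q hq hqM (!i)).valuation_le_one_iff _).mpr hyNm)
      (not_lt.mp fun h => hyNu ((ValuationSubring.mem_nonunits_iff _).mpr h))
  rw [v1, v2, mul_one] at h1
  exact lt_irrefl _ h1

/-! ### The node correspondence between the levels `M q` and `M ℓ q` -/

include ha hb hqMℓ in
/-- **The node correspondence**, level `M ℓ q`. -/
theorem s59u_corr_level (hℓ : ℓ.Prime) (hℓN : ¬ ℓ ∣ M * q)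
    (Q' : Place K₀ (s34m_F K₀ (M * ℓ * q)))
    (hQ' : s18g_jF (K := K₀) (M * ℓ * q) ∈ Q'.toValuationSubring)
    (𝔫 : Ideal (s34x_ring (L₀ := K₀) (s34x_infRing (s34m_VV G φ M q hq hqM))
      (s18_chart1 (L₀ := K₀) (s18g_jF (K := K₀) (M * q)))))
    (h𝔫 : s33s_IsNode (s34m_VV G φ M q hq hqM) (s34m_unif G (M * q))
      (s18_chart1 (L₀ := K₀) (s18g_jF (K := K₀) (M * q))) 𝔫)
    (hth : ∀ y : s34x_ring (L₀ := K₀) (s34x_infRing (s34m_VV G φ M q hq hqM))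
        (s18_chart1 (L₀ := K₀) (s18g_jF (K := K₀) (M * q))),
      (y : s34m_F K₀ (M * q)) ≠ 0 → 0 < Q'.ord (a (y : s34m_F K₀ (M * q))) → y ∈ 𝔫) :
    ∃ 𝔫₂ : Ideal (s34x_ring (L₀ := K₀) (s34x_infRing (s34m_VV G φ M q hq hqM))
        (s18_chart1 (L₀ := K₀) (s18g_jF (K := K₀) (M * q)))),
      s33s_IsNode (s34m_VV G φ M q hq hqM) (s34m_unif G (M * q))
        (s18_chart1 (L₀ := K₀) (s18g_jF (K := K₀) (M * q))) 𝔫₂ ∧
      ∀ y : s34x_ring (L₀ := K₀) (s34x_infRing (s34m_VV G φ M q hq hqM))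
        (s18_chart1 (L₀ := K₀) (s18g_jF (K := K₀) (M * q))),
      (y : s34m_F K₀ (M * q)) ≠ 0 → 0 < Q'.ord (b (y : s34m_F K₀ (M * q))) → y ∈ 𝔫₂ := by
  refine s59u_corr_abs (s34m_VV G φ M q hq hqM) (s34m_VV G φ (M * ℓ) q hq hqMℓ)
    (s18_chart1 (L₀ := K₀) (s18g_jF (K := K₀) (M * q)))
    (s18_chart1 (L₀ := K₀) (s18g_jF (K := K₀) (M * ℓ * q)))
    (a : s34m_F K₀ (M * q) →+* s34m_F K₀ (M * ℓ * q))
    (b : s34m_F K₀ (M * q) →+* s34m_F K₀ (M * ℓ * q))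
    (s34m_unif G (M * q)) (s34m_unif G (M * ℓ * q)) (s34m_unif_ne_zero G (M * q))
    (a.commutes _) (b.commutes _) ?_ (s59u_unif_mem_ring G φ M q hq hqM)
    (s59u_a_mem_VV G φ M q ℓ hq hqM hqMℓ a ha)
    (s59u_b_mem_VV G φ M q ℓ hq hqM hqMℓ b hb)
    (s59u_a_mem_ring G φ M q ℓ hq hqM hqMℓ a ha)
    (s59u_b_mem_ring G φ M q ℓ hq hqM hqMℓ b hb)
    (s59u_a_isIntegral G φ M q ℓ hq hqM hqMℓ a ha)
    (s59u_b_isIntegral G φ M q ℓ hq hqM hqMℓ b hb hℓ hℓN)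
    (s59u_ring_isIntegrallyClosed G φ M q hq hqM)
    (s59u_comp_isPrime G φ M q hq hqM)
    (s59u_comp_indep G φ M q hq hqM true) (s59u_comp_indep G φ M q hq hqM false)
    Q' hQ' 𝔫 h𝔫 hth
  intro Q _
  have e : (s34m_unif G (M * ℓ * q))⁻¹ =
      algebraMap K₀ (s34m_F K₀ (M * ℓ * q)) (((G.ϖ : G.A) : K₀)⁻¹) := by
    rw [map_inv₀]
    rfl
  rw [e]
  exact Q.algebraMap_mem' _

/-- the same at a level `n = M ℓ q`. -/
theorem s59u_corr_level' (hℓ : ℓ.Prime) (hℓN : ¬ ℓ ∣ M * q) (n : ℕ) [NeZero n]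
    (hn : n = M * ℓ * q)
    (a b : s34m_F K₀ (M * q) →ₐ[K₀] s34m_F K₀ n)
    (ha : ∀ y, ((a y : s34m_F K₀ n) : LaurentSeries K₀) = (y : LaurentSeries K₀))
    (hb : ∀ y, ((b y : s34m_F K₀ n) : LaurentSeries K₀) = qExpand K₀ ℓ (y : LaurentSeries K₀))
    (Q' : Place K₀ (s34m_F K₀ n))
    (hQ' : s18g_jF (K := K₀) n ∈ Q'.toValuationSubring)
    (𝔫 : Ideal (s34x_ring (L₀ := K₀) (s34x_infRing (s34m_VV G φ M q hq hqM))
      (s18_chart1 (L₀ := K₀) (s18g_jF (K := K₀) (M * q)))))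
    (h𝔫 : s33s_IsNode (s34m_VV G φ M q hq hqM) (s34m_unif G (M * q))
      (s18_chart1 (L₀ := K₀) (s18g_jF (K := K₀) (M * q))) 𝔫)
    (hth : ∀ y : s34x_ring (L₀ := K₀) (s34x_infRing (s34m_VV G φ M q hq hqM))
        (s18_chart1 (L₀ := K₀) (s18g_jF (K := K₀) (M * q))),
      (y : s34m_F K₀ (M * q)) ≠ 0 → 0 < Q'.ord (a (y : s34m_F K₀ (M * q))) → y ∈ 𝔫) :
    ∃ 𝔫₂ : Ideal (s34x_ring (L₀ := K₀) (s34x_infRing (s34m_VV G φ M q hq hqM))
        (s18_chart1 (L₀ := K₀) (s18g_jF (K := K₀) (M * q)))),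
      s33s_IsNode (s34m_VV G φ M q hq hqM) (s34m_unif G (M * q))
        (s18_chart1 (L₀ := K₀) (s18g_jF (K := K₀) (M * q))) 𝔫₂ ∧
      ∀ y : s34x_ring (L₀ := K₀) (s34x_infRing (s34m_VV G φ M q hq hqM))
        (s18_chart1 (L₀ := K₀) (s18g_jF (K := K₀) (M * q))),
      (y : s34m_F K₀ (M * q)) ≠ 0 → 0 < Q'.ord (b (y : s34m_F K₀ (M * q))) → y ∈ 𝔫₂ := by
  subst hn
  have hqMℓ : ¬ q ∣ M * ℓ := by
    intro h
    rcases (Nat.Prime.dvd_mul hq).mp h with h1 | h1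
    · exact hqM h1
    · have : q = ℓ := (Nat.prime_dvd_prime_iff_eq hq hℓ).mp h1
      exact hℓN (this ▸ dvd_mul_left q M)
  exact s59u_corr_level G φ M q ℓ hq hqM hqMℓ a b ha hb hℓ hℓN Q' hQ' 𝔫 h𝔫 hth

/-- **The node correspondence for `α_ℓ, β_ℓ : 𝓕(M q) → 𝓕(M q ℓ)`**, ideal form. -/
theorem s59u_corr_hecke (hℓ : ℓ.Prime) (hℓN : ¬ ℓ ∣ M * q)
    (Q' : Place K₀ (s34m_F K₀ (M * q * ℓ)))
    (hQ' : s18g_jF (K := K₀) (M * q * ℓ) ∈ Q'.toValuationSubring)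
    (𝔫 : Ideal (s34x_ring (L₀ := K₀) (s34x_infRing (s34m_VV G φ M q hq hqM))
      (s18_chart1 (L₀ := K₀) (s18g_jF (K := K₀) (M * q)))))
    (h𝔫 : s33s_IsNode (s34m_VV G φ M q hq hqM) (s34m_unif G (M * q))
      (s18_chart1 (L₀ := K₀) (s18g_jF (K := K₀) (M * q))) 𝔫)
    (hth : ∀ y : s34x_ring (L₀ := K₀) (s34x_infRing (s34m_VV G φ M q hq hqM))
        (s18_chart1 (L₀ := K₀) (s18g_jF (K := K₀) (M * q))),
      (y : s34m_F K₀ (M * q)) ≠ 0 →
        0 < Q'.ord (heckeAlphaBar K₀ (M * q) ℓ (y : s34m_F K₀ (M * q))) → y ∈ 𝔫) :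
    ∃ 𝔫₂ : Ideal (s34x_ring (L₀ := K₀) (s34x_infRing (s34m_VV G φ M q hq hqM))
        (s18_chart1 (L₀ := K₀) (s18g_jF (K := K₀) (M * q)))),
      s33s_IsNode (s34m_VV G φ M q hq hqM) (s34m_unif G (M * q))
        (s18_chart1 (L₀ := K₀) (s18g_jF (K := K₀) (M * q))) 𝔫₂ ∧
      ∀ y : s34x_ring (L₀ := K₀) (s34x_infRing (s34m_VV G φ M q hq hqM))
        (s18_chart1 (L₀ := K₀) (s18g_jF (K := K₀) (M * q))),
      (y : s34m_F K₀ (M * q)) ≠ 0 →
        0 < Q'.ord (heckeBetaBar K₀ (M * q) ℓ (y : s34m_F K₀ (M * q))) → y ∈ 𝔫₂ :=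
  s59u_corr_level' G φ M q ℓ hq hqM hℓ hℓN (M * q * ℓ) (Nat.mul_right_comm M q ℓ)
    (heckeAlphaBar K₀ (M * q) ℓ) (heckeBetaBar K₀ (M * q) ℓ)
    (fun y => coe_heckeAlphaBar (M * q) ℓ y) (fun y => coe_heckeBetaBar (M * q) ℓ y)
    Q' hQ' 𝔫 h𝔫 hth

/-! ### Place form -/

theorem s59u_ord_pos_iff {K F : Type*} [Field K] [Field F] [Algebra K F] (Q : Place K F) {y : F}
    (hy : y ≠ 0) : 0 < Q.ord y ↔ y⁻¹ ∉ Q.toValuationSubring := by
  rw [ff_mem_iff_ord_nonneg Q (inv_ne_zero hy), Q.ord_inv]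
  omega

/-- **[NODE-CORR]**: if the `α_ℓ`-restriction `Qa` of a place `Q'` of `𝓕(M q ℓ)` passes through a node of
the chart `{j regular}` of level `M q`, so does its `β_ℓ`-restriction `Qb`. -/
theorem s59u_nodeCorr (hℓ : ℓ.Prime) (hℓN : ¬ ℓ ∣ M * q)
    (Q' : Place K₀ (s34m_F K₀ (M * q * ℓ))) (Qa Qb : Place K₀ (s34m_F K₀ (M * q)))
    (hQa : ∀ y, y ∈ Qa.toValuationSubring ↔ heckeAlphaBar K₀ (M * q) ℓ y ∈ Q'.toValuationSubring)
    (hQb : ∀ y, y ∈ Qb.toValuationSubring ↔ heckeBetaBar K₀ (M * q) ℓ y ∈ Q'.toValuationSubring)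
    (h : Qa ∈ s33s_nodePlaces (s34m_VV G φ M q hq hqM) (s34m_unif G (M * q))
      (s18_chart1 (L₀ := K₀) (s18g_jF (K := K₀) (M * q)))) :
    Qb ∈ s33s_nodePlaces (s34m_VV G φ M q hq hqM) (s34m_unif G (M * q))
      (s18_chart1 (L₀ := K₀) (s18g_jF (K := K₀) (M * q))) := by
  obtain ⟨hS, 𝔫, h𝔫, hth⟩ := h
  have hQ' : s18g_jF (K := K₀) (M * q * ℓ) ∈ Q'.toValuationSubring := by
    have h1 : heckeAlphaBar K₀ (M * q) ℓ (s18g_jF (K := K₀) (M * q)) ∈ Q'.toValuationSubring :=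
      (hQa _).mp hS
    rw [s34m_alpha_jF] at h1
    exact h1
  obtain ⟨𝔫₂, h𝔫₂, hth₂⟩ := s59u_corr_hecke G φ M q ℓ hq hqM hℓ hℓN Q' hQ' 𝔫 h𝔫 (by
    intro y hy0 hy
    refine hth y hy0 ?_
    rw [s59u_ord_pos_iff Qa hy0, hQa, map_inv₀,
      ← s59u_ord_pos_iff Q' ((map_ne_zero (heckeAlphaBar K₀ (M * q) ℓ)).mpr hy0)]
    exact hy)
  refine ⟨?_, 𝔫₂, h𝔫₂, ?_⟩
  · show s18g_jF (K := K₀) (M * q) ∈ Qb.toValuationSubring
    rw [hQb]
    exact s34d_beta_jF_mem (M * q) ℓ Q' hQ'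
  · intro y hy0 hy
    refine hth₂ y hy0 ?_
    rw [s59u_ord_pos_iff Q' ((map_ne_zero (heckeBetaBar K₀ (M * q) ℓ)).mpr hy0), ← map_inv₀,
      ← hQb, ← s59u_ord_pos_iff Qb hy0]
    exact hy

end Fermat.Agent.Lib.S59
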