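/-
Programme (R2) (helper3, prefix `s59u_`), for helper2's [MP32]/(A2) and any other level-raising of a node frame:
**[NODE-UP], abstract form** — the first half of `s59u_corr_abs`, exposed.

Two two-component charts `B ⊆ 𝓕`, `B' ⊆ 𝓕'`, `a : 𝓕 → 𝓕'` with `a⁻¹ O'_i = O_i`, `a π = π'`, `a B ⊆ B'`, `B'` integral over
`a B`, `B` integrally closed, the component ideals `P_i` of `B` prime and incomparable.  If the `a`-restriction of a place
`Q' ∈ S'` passes through a node `𝔫` of `B`, then `Q'` passes through a node `𝔫'` of `B'` lying over `𝔫`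
(`s59u_nodeUp_abs`); place form `s59u_nodeUp_places`.
-/
import Fermat.Agent.Lib.S59.UCarCorrAbs

set_option autoImplicit false
set_option linter.unusedSectionVars false
set_option linter.unusedVariables false
set_option linter.style.haveILetI false

noncomputable section

namespace Fermat.Agent.Lib.S59

open AlgebraicCurve Fermat.Agent.Lib.FF Fermat.Agent.Lib.S18 Fermat.Agent.Lib.S34
  Fermat.Agent.Lib.S33

variable {L₀ 𝓕 𝓕' : Type*} [Field L₀] [Field 𝓕] [Field 𝓕'] [Algebra L₀ 𝓕] [Algebra L₀ 𝓕']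
  (O : Bool → ValuationSubring 𝓕) (O' : Bool → ValuationSubring 𝓕')
  (S : Set (Place L₀ 𝓕)) (S' : Set (Place L₀ 𝓕'))

/-- **[NODE-UP], abstract**: a place whose restriction passes through a node passes through a node. -/
theorem s59u_nodeUp_abs (a : 𝓕 →+* 𝓕') (π : 𝓕) (π' : 𝓕') (hπ0 : π ≠ 0) (haπ : a π = π')
    (hπS : ∀ Q ∈ S', π'⁻¹ ∈ Q.toValuationSubring)
    (hπB : π ∈ s34x_ring (s34x_infRing O) S)
    (haO : ∀ i y, a y ∈ O' i ↔ y ∈ O i)
    (haB : ∀ y ∈ s34x_ring (s34x_infRing O) S, a y ∈ s34x_ring (s34x_infRing O') S')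
    (hinta : (s59u_chartHom O O' S S' a haB).IsIntegral)
    (hIC : IsIntegrallyClosed (s34x_ring (s34x_infRing O) S))
    (hP : ∀ i, (s33s_comp O π S i).IsPrime)
    (hinc₁ : ¬ s33s_comp O π S true ≤ s33s_comp O π S false)
    (hinc₂ : ¬ s33s_comp O π S false ≤ s33s_comp O π S true)
    (Q' : Place L₀ 𝓕') (hQ' : Q' ∈ S')
    (𝔫 : Ideal (s34x_ring (s34x_infRing O) S)) (h𝔫 : s33s_IsNode O π S 𝔫)
    (hth : ∀ y : s34x_ring (s34x_infRing O) S, (y : 𝓕) ≠ 0 → 0 < Q'.ord (a (y : 𝓕)) → y ∈ 𝔫) :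
    ∃ 𝔫' : Ideal (s34x_ring (s34x_infRing O') S'), s33s_IsNode O' π' S' 𝔫' ∧
      s34f_through (s34x_infRing O') S' 𝔫' Q' ∧
      𝔫'.comap (s59u_chartHom O O' S S' a haB) = 𝔫 := by
  classical
  have hπ'0 : π' ≠ 0 := by
    rw [← haπ]
    exact (map_ne_zero a).mpr hπ0
  have hπB' : π' ∈ s34x_ring (s34x_infRing O') S' := by
    rw [← haπ]
    exact haB π hπB
  letI alg : Algebra (s34x_ring (s34x_infRing O) S) (s34x_ring (s34x_infRing O') S') :=
    (s59u_chartHom O O' S S' a haB).toAlgebra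
  have halg : algebraMap (s34x_ring (s34x_infRing O) S) (s34x_ring (s34x_infRing O') S') =
      s59u_chartHom O O' S S' a haB := rfl
  haveI : FaithfulSMul (s34x_ring (s34x_infRing O) S) (s34x_ring (s34x_infRing O') S') :=
    (faithfulSMul_iff_algebraMap_injective _ _).mpr (s59u_chartHom_injective O O' S S' a haB)
  haveI : Algebra.IsIntegral (s34x_ring (s34x_infRing O) S) (s34x_ring (s34x_infRing O') S') :=
    ⟨hinta⟩
  haveI := hIC
  haveI h𝔫max : 𝔫.IsMaximal := h𝔫.1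
  haveI h𝔫p : 𝔫.IsPrime := h𝔫.1.isPrime
  haveI hP₁ : (s33s_comp O π S true).IsPrime := hP true
  haveI hP₂ : (s33s_comp O π S false).IsPrime := hP false
  have hle : (s59u_centre (s34x_infRing O') S' Q' hQ').comap
      (algebraMap (s34x_ring (s34x_infRing O) S) (s34x_ring (s34x_infRing O') S')) ≤ 𝔫 := by
    intro y hy
    rw [Ideal.mem_comap, halg, s59u_mem_centre, s59u_chartHom_coe] at hy
    by_cases hy0 : (y : 𝓕) = 0
    · have : y = 0 := Subtype.ext hy0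
      rw [this]
      exact 𝔫.zero_mem
    rcases hy with hy | hy
    · exact absurd ((map_eq_zero a).mp hy) hy0
    · exact hth y hy0 hy
  obtain ⟨𝔫', h𝔫'ge, h𝔫'p, h𝔫'c⟩ := Ideal.exists_ideal_over_prime_of_isIntegral 𝔫
    (s59u_centre (s34x_infRing O') S' Q' hQ') hle
  haveI := h𝔫'p
  have h𝔫'max : 𝔫'.IsMaximal :=
    Ideal.isMaximal_of_isIntegral_of_isMaximal_comap 𝔫' (by rw [h𝔫'c]; exact h𝔫max)
  have hπ𝔫 : (⟨π, hπB⟩ : s34x_ring (s34x_infRing O) S) ∈ s33s_comp O π S true :=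
    (s33s_mem_comp O π S true _).mpr ⟨1, (O true).one_mem, by rw [mul_one]⟩
  have hπ𝔫₂ : (⟨π, hπB⟩ : s34x_ring (s34x_infRing O) S) ∈ s33s_comp O π S false :=
    (s33s_mem_comp O π S false _).mpr ⟨1, (O false).one_mem, by rw [mul_one]⟩
  have hnode' : s33s_comp O' π' S' true ⊔ s33s_comp O' π' S' false ≤ 𝔫' := by
    refine s59u_tnode_down (⟨π, hπB⟩ : s34x_ring (s34x_infRing O) S)
      (s33s_comp O π S true) (s33s_comp O π S false)
      (s33s_comp O' π' S' true) (s33s_comp O' π' S' false)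
      (s59u_corr_comap_a O O' S S' a π π' hπ0 haπ haO haB true)
      (s59u_corr_comap_a O O' S S' a π π' hπ0 haπ haO haB false)
      hinc₁ hinc₂ hπ𝔫 hπ𝔫₂ ?_ 𝔫 (sup_le h𝔫.2.1 h𝔫.2.2) 𝔫' h𝔫'c
    intro 𝔮 h𝔮 hπ𝔮
    refine s59u_corr_cov O' S' π' hπ'0 hπS hπB' 𝔮 h𝔮 ?_
    have e : (⟨π', hπB'⟩ : s34x_ring (s34x_infRing O') S') =
        algebraMap (s34x_ring (s34x_infRing O) S) (s34x_ring (s34x_infRing O') S') ⟨π, hπB⟩ := by
      apply Subtype.ext
      rw [halg, s59u_chartHom_coe]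
      exact haπ.symm
    rw [e]
    exact hπ𝔮
  exact ⟨𝔫', ⟨h𝔫'max, le_sup_left.trans hnode', le_sup_right.trans hnode'⟩,
    (s59u_through_iff (s34x_infRing O') S' Q' hQ' 𝔫').mpr h𝔫'ge, h𝔫'c⟩

/-- **[NODE-UP], place form**: `Qa` the `a`-restriction of `Q' ∈ S'`; `Qa` a node place ⇒ `Q'` a node place. -/
theorem s59u_nodeUp_places (a : 𝓕 →+* 𝓕') (π : 𝓕) (π' : 𝓕') (hπ0 : π ≠ 0) (haπ : a π = π')
    (hπS : ∀ Q ∈ S', π'⁻¹ ∈ Q.toValuationSubring)
    (hπB : π ∈ s34x_ring (s34x_infRing O) S)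
    (haO : ∀ i y, a y ∈ O' i ↔ y ∈ O i)
    (haB : ∀ y ∈ s34x_ring (s34x_infRing O) S, a y ∈ s34x_ring (s34x_infRing O') S')
    (hinta : (s59u_chartHom O O' S S' a haB).IsIntegral)
    (hIC : IsIntegrallyClosed (s34x_ring (s34x_infRing O) S))
    (hP : ∀ i, (s33s_comp O π S i).IsPrime)
    (hinc₁ : ¬ s33s_comp O π S true ≤ s33s_comp O π S false)
    (hinc₂ : ¬ s33s_comp O π S false ≤ s33s_comp O π S true)
    (Q' : Place L₀ 𝓕') (hQ' : Q' ∈ S') (Qa : Place L₀ 𝓕)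
    (hQa : ∀ y, y ∈ Qa.toValuationSubring ↔ a y ∈ Q'.toValuationSubring)
    (h : Qa ∈ s33s_nodePlaces O π S) : Q' ∈ s33s_nodePlaces O' π' S' := by
  obtain ⟨hS, 𝔫, h𝔫, hth⟩ := h
  obtain ⟨𝔫', h𝔫', hth', -⟩ := s59u_nodeUp_abs O O' S S' a π π' hπ0 haπ hπS hπB haO haB hinta hIC hP
    hinc₁ hinc₂ Q' hQ' 𝔫 h𝔫 (by
      intro y hy0 hy
      refine hth y hy0 ?_
      have hay0 : a (y : 𝓕) ≠ 0 := (map_ne_zero a).mpr hy0
      have h1 : (a (y : 𝓕))⁻¹ ∉ Q'.toValuationSubring := by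
        intro hmem
        have := (ff_mem_iff_ord_nonneg Q' (inv_ne_zero hay0)).mp hmem
        rw [Q'.ord_inv] at this
        omega
      have h2 : (y : 𝓕)⁻¹ ∉ Qa.toValuationSubring := by
        rw [hQa, map_inv₀]
        exact h1
      by_contra hcon
      apply h2
      rw [ff_mem_iff_ord_nonneg Qa (inv_ne_zero hy0), Qa.ord_inv]
      omega)
  exact ⟨hQ', 𝔫', h𝔫', hth'⟩

end Fermat.Agent.Lib.S59
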