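/-
Programme (R2) (helper3, prefix `s59u_`): **THE NODE CORRESPONDENCE AND [NODE-UP] FOR A GENERAL COORDINATE** `t` of level
`M q` (`q` ANY prime, `q ∤ M`) and `t'` of level `M ℓ q` — the chart-generic version of `UCarCorrInst.lean` (which is the case
`t = j`), for the `t₂`/`t₃`-charts at `q = 3, 2` (helper2's [MP32], helper7's chains).

`a b : 𝓕_{K₀}(M q) → 𝓕_{K₀}(M ℓ q)` with `a y = y`, `b y = y(T^ℓ)` on `q`-expansions.  Inputs on the coordinate:
`FFGen`, `t ∈ V_∞ ⊓ V_0` (both levels), (α) w.r.t. `t` resp. `t'` (both levels), `a t = t'`, `s(t)` is a unit of `V_∞`, `V_0`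
for `s mod ϖ ≠ 0`; for the `b`-side also `b t` integral over `ℤ[t']` and `t'` integral over `ℤ[b t]`.

* `s59u_t_nodeUp_level` : **[NODE-UP]** (a place of the chart `{t' regular}` whose `a`-restriction is a node place is a
  node place);
* `s59u_t_corr_level`   : the node correspondence `a`-restriction ⇝ `b`-restriction.
-/
import Fermat.Agent.Lib.S59.UCarCorrInst
import Fermat.Agent.Lib.S59.UCarNodeUp

set_option autoImplicit false
set_option linter.unusedSectionVars false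
set_option linter.unusedVariables false
set_option linter.style.haveILetI false

noncomputable section

namespace Fermat.Agent.Lib.S59

open Polynomial ModularCurve AlgebraicCurve HahnSeries Fermat.Agent.Lib.FF Fermat.Agent.Lib.S18
  Fermat.Agent.Lib.S28 Fermat.Agent.Lib.S37 Fermat.Agent.Lib.S34 Fermat.Agent.Lib.S35
  Fermat.Agent.Lib.S36 Fermat.Agent.Lib.S33 Fermat.Agent.Lib.S44

local notation "Kb" => AlgebraicClosure ℚ

variable {K₀ : Type} [Field K₀] [Algebra ℚ K₀] [CharZero K₀] {κ : Type} [Field κ]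
  (G : s18g_GaussData K₀ κ) [IsDiscreteValuationRing G.A]
  (φ : K₀ →+* Kb) (M q ℓ : ℕ) [NeZero M] [NeZero q] [NeZero ℓ] (hq : q.Prime) (hqM : ¬ q ∣ M)
  (hqMℓ : ¬ q ∣ M * ℓ)
  (a b : s34m_F K₀ (M * q) →ₐ[K₀] s34m_F K₀ (M * ℓ * q))
  (ha : ∀ y, ((a y : s34m_F K₀ (M * ℓ * q)) : LaurentSeries K₀) = (y : LaurentSeries K₀))
  (hb : ∀ y, ((b y : s34m_F K₀ (M * ℓ * q)) : LaurentSeries K₀) =
    qExpand K₀ ℓ (y : LaurentSeries K₀))
  (t : s34m_F K₀ (M * q)) (t' : s34m_F K₀ (M * ℓ * q))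
  [hgen : FFGen K₀ t] [hgen' : FFGen K₀ t']
  (htO : ∀ i, t ∈ s34m_VV G φ M q hq hqM i)
  (htO' : ∀ i, t' ∈ s34m_VV G φ (M * ℓ) q hq hqMℓ i)
  (hα : ∀ y ∈ s34x_infRing (s34m_VV G φ M q hq hqM), ∃ s : G.A[X], s.map G.π ≠ 0 ∧
    (s18b_ev G (laurentBaseChange K₀ (modularFunctionFieldFull (M * q))) t).IsIntegralElem
      (s18b_ev G (laurentBaseChange K₀ (modularFunctionFieldFull (M * q))) t s * y))
  (hα' : ∀ y ∈ s34x_infRing (s34m_VV G φ (M * ℓ) q hq hqMℓ), ∃ s : G.A[X], s.map G.π ≠ 0 ∧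
    (s18b_ev G (laurentBaseChange K₀ (modularFunctionFieldFull (M * ℓ * q))) t').IsIntegralElem
      (s18b_ev G (laurentBaseChange K₀ (modularFunctionFieldFull (M * ℓ * q))) t' s * y))
  (hat : a t = t')
  (hunit : ∀ (i : Bool) (s : G.A[X]), s.map G.π ≠ 0 →
    s18b_ev G (laurentBaseChange K₀ (modularFunctionFieldFull (M * q))) t s ∉
      (s34m_VV G φ M q hq hqM i).nonunits)

/-! ### The chart rings -/

include ha hat in
/-- `a B ⊆ B'`. -/
theorem s59u_t_a_mem_ring (y : s34m_F K₀ (M * q))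
    (hy : y ∈ s34x_ring (L₀ := K₀) (s34x_infRing (s34m_VV G φ M q hq hqM))
      (s18_chart1 (L₀ := K₀) t)) :
    a y ∈ s34x_ring (L₀ := K₀) (s34x_infRing (s34m_VV G φ (M * ℓ) q hq hqMℓ))
      (s18_chart1 (L₀ := K₀) t') := by
  refine ⟨(s34x_mem_infRing _ _).mpr fun i =>
    (s59u_a_mem_VV G φ M q ℓ hq hqM hqMℓ a ha i y).mpr ((s34x_mem_infRing _ _).mp hy.1 i),
    fun Q hQ => ?_⟩
  refine s59u_algHom_mem_place a (t := t) (fun P hP => hy.2 P hP) Q ?_
  rw [hat]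
  exact hQ

include hb in
/-- `b B ⊆ B'` (if `b t` is integral over `ℤ[t']`). -/
theorem s59u_t_b_mem_ring (hbt : s28d_IntOver t' (b t)) (y : s34m_F K₀ (M * q))
    (hy : y ∈ s34x_ring (L₀ := K₀) (s34x_infRing (s34m_VV G φ M q hq hqM))
      (s18_chart1 (L₀ := K₀) t)) :
    b y ∈ s34x_ring (L₀ := K₀) (s34x_infRing (s34m_VV G φ (M * ℓ) q hq hqMℓ))
      (s18_chart1 (L₀ := K₀) t') := by
  refine ⟨(s34x_mem_infRing _ _).mpr fun i =>
    s59u_b_mem_VV G φ M q ℓ hq hqM hqMℓ b hb i y ((s34x_mem_infRing _ _).mp hy.1 i),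
    fun Q hQ => ?_⟩
  refine s59u_algHom_mem_place b (t := t) (fun P hP => hy.2 P hP) Q ?_
  exact s34d_mem_of_intOver Q.toValuationSubring hbt hQ

/-- constants of `A` lie in the chart ring. -/
theorem s59u_t_const_mem_ring (S : Set (Place K₀ (s34m_F K₀ (M * q)))) (c : G.A) :
    algebraMap K₀ (s34m_F K₀ (M * q)) (c : K₀) ∈
      s34x_ring (L₀ := K₀) (s34x_infRing (s34m_VV G φ M q hq hqM)) S :=
  ⟨(s34x_mem_infRing _ _).mpr fun i => s34c_const_mem_VV G φ M q hq hqM i c,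
    fun Q _ => Q.algebraMap_mem' _⟩

include htO in
/-- `t` lies in the chart ring. -/
theorem s59u_t_mem_ring :
    t ∈ s34x_ring (L₀ := K₀) (s34x_infRing (s34m_VV G φ M q hq hqM)) (s18_chart1 (L₀ := K₀) t) :=
  ⟨(s34x_mem_infRing _ _).mpr fun i => htO i, fun Q hQ => hQ⟩

include htO hα in
/-- the chart ring is the set of elements integral over `A[t]`. -/
theorem s59u_t_mem_ring_iff (y : s34m_F K₀ (M * q)) :
    y ∈ s34x_ring (L₀ := K₀) (s34x_infRing (s34m_VV G φ M q hq hqM)) (s18_chart1 (L₀ := K₀) t) ↔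
      (s18b_ev G (laurentBaseChange K₀ (modularFunctionFieldFull (M * q))) t).IsIntegralElem y :=
  s34x_mem_ring_iff G (laurentBaseChange K₀ (modularFunctionFieldFull (M * q))) t
    (s34m_VV G φ M q hq hqM) (s34c_const_mem_VV G φ M q hq hqM) htO hα y

/-! ### Integrality -/

include hα' in
/-- `B'` is integral over `f B` as soon as `t'` is. -/
theorem s59u_t_chartHom_isIntegral (f : s34m_F K₀ (M * q) →ₐ[K₀] s34m_F K₀ (M * ℓ * q))
    (hfB : ∀ y ∈ s34x_ring (L₀ := K₀) (s34x_infRing (s34m_VV G φ M q hq hqM))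
        (s18_chart1 (L₀ := K₀) t),
      (f : s34m_F K₀ (M * q) →+* s34m_F K₀ (M * ℓ * q)) y ∈
        s34x_ring (L₀ := K₀) (s34x_infRing (s34m_VV G φ (M * ℓ) q hq hqMℓ))
          (s18_chart1 (L₀ := K₀) t'))
    (hj : ((f : s34m_F K₀ (M * q) →+* s34m_F K₀ (M * ℓ * q)).comp
      (s34x_ring (L₀ := K₀) (s34x_infRing (s34m_VV G φ M q hq hqM))
        (s18_chart1 (L₀ := K₀) t)).subtype).IsIntegralElem t') :
    (s59u_chartHom (s34m_VV G φ M q hq hqM) (s34m_VV G φ (M * ℓ) q hq hqMℓ)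
      (s18_chart1 (L₀ := K₀) t) (s18_chart1 (L₀ := K₀) t')
      (f : s34m_F K₀ (M * q) →+* s34m_F K₀ (M * ℓ * q)) hfB).IsIntegral := by
  intro z
  have hz : (s18b_ev G (laurentBaseChange K₀ (modularFunctionFieldFull (M * ℓ * q)))
      t').IsIntegralElem (z : s34m_F K₀ (M * ℓ * q)) :=
    s34x_isIntegralElem_of_mem_ring G (laurentBaseChange K₀ (modularFunctionFieldFull (M * ℓ * q)))
      t' (s34m_VV G φ (M * ℓ) q hq hqMℓ) hα' z z.2
  refine s59u_isIntegralElem_codRestrict _ _ z ?_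
  letI alg : Algebra (s34x_ring (L₀ := K₀) (s34x_infRing (s34m_VV G φ M q hq hqM))
      (s18_chart1 (L₀ := K₀) t)) (s34m_F K₀ (M * ℓ * q)) :=
    ((f : s34m_F K₀ (M * q) →+* s34m_F K₀ (M * ℓ * q)).comp
      (s34x_ring (L₀ := K₀) (s34x_infRing (s34m_VV G φ M q hq hqM))
        (s18_chart1 (L₀ := K₀) t)).subtype).toAlgebra
  have key : IsIntegral (s34x_ring (L₀ := K₀) (s34x_infRing (s34m_VV G φ M q hq hqM))
      (s18_chart1 (L₀ := K₀) t)) (z : s34m_F K₀ (M * ℓ * q)) := by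
    refine s59u_isIntegral_of_ev G (laurentBaseChange K₀ (modularFunctionFieldFull (M * ℓ * q)))
      t' ?_ hj _ hz
    intro c
    have e : algebraMap K₀ (s34m_F K₀ (M * ℓ * q)) (c : K₀) =
        algebraMap (s34x_ring (L₀ := K₀) (s34x_infRing (s34m_VV G φ M q hq hqM))
          (s18_chart1 (L₀ := K₀) t)) (s34m_F K₀ (M * ℓ * q))
          ⟨_, s59u_t_const_mem_ring G φ M q hq hqM _ c⟩ := (f.commutes (c : K₀)).symm
    rw [e]
    exact isIntegral_algebraMap
  exact key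

include ha hat htO hα' in
/-- **`B'` is integral over `a B`.** -/
theorem s59u_t_a_isIntegral :
    (s59u_chartHom (s34m_VV G φ M q hq hqM) (s34m_VV G φ (M * ℓ) q hq hqMℓ)
      (s18_chart1 (L₀ := K₀) t) (s18_chart1 (L₀ := K₀) t')
      (a : s34m_F K₀ (M * q) →+* s34m_F K₀ (M * ℓ * q))
      (s59u_t_a_mem_ring G φ M q ℓ hq hqM hqMℓ a ha t t' hat)).IsIntegral := by
  refine s59u_t_chartHom_isIntegral G φ M q ℓ hq hqM hqMℓ t t' hα' a _ ?_
  have e : t' =
      ((a : s34m_F K₀ (M * q) →+* s34m_F K₀ (M * ℓ * q)).comp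
        (s34x_ring (L₀ := K₀) (s34x_infRing (s34m_VV G φ M q hq hqM))
          (s18_chart1 (L₀ := K₀) t)).subtype)
        ⟨_, s59u_t_mem_ring G φ M q hq hqM t htO⟩ := hat.symm
  rw [e]
  exact RingHom.isIntegralElem_map _

include hb htO hα' in
/-- **`B'` is integral over `b B`** (if `b t` is integral over `ℤ[t']` and `t'` over `ℤ[b t]`). -/
theorem s59u_t_b_isIntegral (hbt : s28d_IntOver t' (b t)) (htb : s28d_IntOver (b t) t') :
    (s59u_chartHom (s34m_VV G φ M q hq hqM) (s34m_VV G φ (M * ℓ) q hq hqMℓ)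
      (s18_chart1 (L₀ := K₀) t) (s18_chart1 (L₀ := K₀) t')
      (b : s34m_F K₀ (M * q) →+* s34m_F K₀ (M * ℓ * q))
      (s59u_t_b_mem_ring G φ M q ℓ hq hqM hqMℓ b hb t t' hbt)).IsIntegral := by
  refine s59u_t_chartHom_isIntegral G φ M q ℓ hq hqM hqMℓ t t' hα' b _ ?_
  letI alg : Algebra (s34x_ring (L₀ := K₀) (s34x_infRing (s34m_VV G φ M q hq hqM))
      (s18_chart1 (L₀ := K₀) t)) (s34m_F K₀ (M * ℓ * q)) :=
    ((b : s34m_F K₀ (M * q) →+* s34m_F K₀ (M * ℓ * q)).comp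
      (s34x_ring (L₀ := K₀) (s34x_infRing (s34m_VV G φ M q hq hqM))
        (s18_chart1 (L₀ := K₀) t)).subtype).toAlgebra
  have key : IsIntegral (s34x_ring (L₀ := K₀) (s34x_infRing (s34m_VV G φ M q hq hqM))
      (s18_chart1 (L₀ := K₀) t)) t' := by
    refine s59u_isIntegral_of_intOver htb ?_
    have e : b t =
        algebraMap (s34x_ring (L₀ := K₀) (s34x_infRing (s34m_VV G φ M q hq hqM))
          (s18_chart1 (L₀ := K₀) t)) (s34m_F K₀ (M * ℓ * q))
          ⟨_, s59u_t_mem_ring G φ M q hq hqM t htO⟩ := rfl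
    rw [e]
    exact isIntegral_algebraMap
  exact key

/-! ### `B` is integrally closed; the components are prime and incomparable -/

include htO hα in
/-- **`B` is integrally closed.** -/
theorem s59u_t_ring_isIntegrallyClosed :
    IsIntegrallyClosed (s34x_ring (L₀ := K₀) (s34x_infRing (s34m_VV G φ M q hq hqM))
      (s18_chart1 (L₀ := K₀) t)) := by
  refine s59u_isIntegrallyClosed_of_closedIn _ fun x hx => ?_
  rw [s59u_t_mem_ring_iff G φ M q hq hqM t htO hα]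
  letI alg : Algebra G.A[X] (s34m_F K₀ (M * q)) :=
    (s18b_ev G (laurentBaseChange K₀ (modularFunctionFieldFull (M * q))) t).toAlgebra
  show IsIntegral G.A[X] x
  have hle : ∀ y : s34x_ring (L₀ := K₀) (s34x_infRing (s34m_VV G φ M q hq hqM))
      (s18_chart1 (L₀ := K₀) t),
      (y : s34m_F K₀ (M * q)) ∈ integralClosure G.A[X] (s34m_F K₀ (M * q)) := fun y =>
    (s59u_t_mem_ring_iff G φ M q hq hqM t htO hα _).mp y.2
  let ψ : s34x_ring (L₀ := K₀) (s34x_infRing (s34m_VV G φ M q hq hqM))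
      (s18_chart1 (L₀ := K₀) t) →+*
      integralClosure G.A[X] (s34m_F K₀ (M * q)) :=
    (Subring.subtype _).codRestrict (integralClosure G.A[X] (s34m_F K₀ (M * q))).toSubring hle
  have hC : IsIntegral (integralClosure G.A[X] (s34m_F K₀ (M * q))) x := by
    refine hx.map_of_comp_eq ψ (RingHom.id _) ?_
    ext y
    rfl
  exact isIntegral_trans (A := integralClosure G.A[X] (s34m_F K₀ (M * q))) x hC

variable [CharP κ q]

/-- **the component ideals are prime** (any chart). -/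
theorem s59u_t_comp_isPrime (S : Set (Place K₀ (s34m_F K₀ (M * q)))) (i : Bool) :
    (s33s_comp (s34m_VV G φ M q hq hqM) (s34m_unif G (M * q)) S i).IsPrime := by
  refine ⟨?_, ?_⟩
  · intro htop
    have h1 : (1 : s34x_ring (L₀ := K₀) (s34x_infRing (s34m_VV G φ M q hq hqM)) S) ∈
        s33s_comp (s34m_VV G φ M q hq hqM) (s34m_unif G (M * q)) S i := by
      rw [htop]
      exact Submodule.mem_top
    obtain ⟨z, hz, e⟩ := (s33s_mem_comp _ _ _ i _).mp h1
    have h2 := s36qf_mul_mem_nonunits _ (s36e_unif_mem_nonunits_VV G φ M q hq hqM i) hz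
    rw [← e] at h2
    have h3 : ((1 : s34x_ring (L₀ := K₀) (s34x_infRing (s34m_VV G φ M q hq hqM)) S) :
        s34m_F K₀ (M * q)) = 1 := rfl
    rw [h3, ValuationSubring.mem_nonunits_iff, map_one] at h2
    exact lt_irrefl _ h2
  · intro x y hxy
    by_contra hcon
    rw [not_or] at hcon
    obtain ⟨z, hz, e⟩ := (s33s_mem_comp _ _ _ i _).mp hxy
    have hx0 : (x : s34m_F K₀ (M * q)) ≠ 0 := by
      intro h0
      apply hcon.1
      have : x = 0 := Subtype.ext h0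
      rw [this]
      exact Ideal.zero_mem _
    have hxinv : (x : s34m_F K₀ (M * q))⁻¹ ∈ s34m_VV G φ M q hq hqM i :=
      s33s_inv_mem_of_not_dvd (s34m_VV G φ M q hq hqM i) (s34m_unif G (M * q))
        (s34m_unif_ne_zero G (M * q)) (s34m_unif_mem_VV G φ M q hq hqM i)
        (fun U hU => s34m_exists_zpow_VV G φ M q hq hqM i U hU) _ hx0
        (fun h => hcon.1 ((s33s_mem_comp _ _ _ i _).mpr h))
    apply hcon.2
    rw [s33s_mem_comp]
    refine ⟨(x : s34m_F K₀ (M * q))⁻¹ * z, (s34m_VV G φ M q hq hqM i).mul_mem _ _ hxinv hz, ?_⟩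
    have e' : (x : s34m_F K₀ (M * q)) * (y : s34m_F K₀ (M * q)) = s34m_unif G (M * q) * z := e
    calc (y : s34m_F K₀ (M * q))
        = (x : s34m_F K₀ (M * q))⁻¹ * ((x : s34m_F K₀ (M * q)) * (y : s34m_F K₀ (M * q))) := by
          field_simp
      _ = s34m_unif G (M * q) * ((x : s34m_F K₀ (M * q))⁻¹ * z) := by
          rw [e']
          ring

include htO hα hunit in
/-- **Independence of the two components.** -/
theorem s59u_t_comp_indep (i : Bool) :
    ¬ s33s_comp (s34m_VV G φ M q hq hqM) (s34m_unif G (M * q)) (s18_chart1 (L₀ := K₀) t) i ≤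
      s33s_comp (s34m_VV G φ M q hq hqM) (s34m_unif G (M * q)) (s18_chart1 (L₀ := K₀) t) (!i) := by
  classical
  intro hle
  obtain ⟨y, hy⟩ := s36g_approx_fintype (s34m_VV G φ M q hq hqM)
    (s36e_arch_VV G φ M q hq hqM)
    (fun k => ⟨_, s36e_unif_mem_nonunits_VV G φ M q hq hqM k, s34m_unif_ne_zero G (M * q)⟩)
    (s36qf_VV_ne G φ M q hq hqM) (fun k => if k = i then 0 else 1)
    (fun k => by
      by_cases hk : k = i
      · simp only [hk, if_true]
        exact (s34m_VV G φ M q hq hqM i).zero_mem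
      · simp only [hk, if_false]
        exact (s34m_VV G φ M q hq hqM k).one_mem)
  have hni : (!i) ≠ i := by cases i <;> simp
  have hyI : y ∈ (s34m_VV G φ M q hq hqM i).nonunits := by
    have := hy i
    simpa using this
  have hyN : y - 1 ∈ (s34m_VV G φ M q hq hqM (!i)).nonunits := by
    have := hy (!i)
    simpa [hni] using this
  have hyNm : y ∈ s34m_VV G φ M q hq hqM (!i) := by
    have h1 : y - 1 ∈ s34m_VV G φ M q hq hqM (!i) :=
      (s34m_VV G φ M q hq hqM (!i)).nonunits_le hyN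
    have : y = (y - 1) + 1 := by ring
    rw [this]
    exact (s34m_VV G φ M q hq hqM (!i)).add_mem _ _ h1 (s34m_VV G φ M q hq hqM (!i)).one_mem
  have hyO : y ∈ s34x_infRing (s34m_VV G φ M q hq hqM) := (s34x_mem_infRing _ _).mpr fun k => by
    by_cases hk : k = i
    · rw [hk]
      exact (s34m_VV G φ M q hq hqM i).nonunits_le hyI
    · have : k = !i := by cases k <;> cases i <;> simp_all
      rw [this]
      exact hyNm
  have hyNu : y ∉ (s34m_VV G φ M q hq hqM (!i)).nonunits := by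
    intro h
    have h1 : (1 : s34m_F K₀ (M * q)) ∈ (s34m_VV G φ M q hq hqM (!i)).nonunits := by
      have e : (1 : s34m_F K₀ (M * q)) = y + -(y - 1) := by ring
      rw [e]
      refine s36qf_add_mem_nonunits _ h ?_
      rw [ValuationSubring.mem_nonunits_iff, Valuation.map_neg]
      exact (ValuationSubring.mem_nonunits_iff (A := s34m_VV G φ M q hq hqM (!i))).mp hyN
    rw [ValuationSubring.mem_nonunits_iff, map_one] at h1
    exact lt_irrefl _ h1
  obtain ⟨s, hs, hsy⟩ := hα y hyO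
  set c := s18b_ev G (laurentBaseChange K₀ (modularFunctionFieldFull (M * q))) t s with hc
  have hcB : c ∈ s34x_ring (L₀ := K₀) (s34x_infRing (s34m_VV G φ M q hq hqM))
      (s18_chart1 (L₀ := K₀) t) :=
    (s59u_t_mem_ring_iff G φ M q hq hqM t htO hα _).mpr (RingHom.isIntegralElem_map _)
  have hcV : ∀ k, c ∈ s34m_VV G φ M q hq hqM k := (s34x_mem_infRing _ _).mp hcB.1
  have hcu : ∀ k, c ∉ (s34m_VV G φ M q hq hqM k).nonunits := fun k => hunit k s hs
  have hcyB : c * y ∈ s34x_ring (L₀ := K₀) (s34x_infRing (s34m_VV G φ M q hq hqM))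
      (s18_chart1 (L₀ := K₀) t) :=
    (s59u_t_mem_ring_iff G φ M q hq hqM t htO hα _).mpr hsy
  have hmemI : (⟨c * y, hcyB⟩ : s34x_ring (L₀ := K₀) (s34x_infRing (s34m_VV G φ M q hq hqM))
      (s18_chart1 (L₀ := K₀) t)) ∈
      s33s_comp (s34m_VV G φ M q hq hqM) (s34m_unif G (M * q)) (s18_chart1 (L₀ := K₀) t) i := by
    rw [s33s_mem_comp]
    obtain ⟨z, hz, e⟩ := s36q_fi_gen G φ M q hq hqM i y hyI
    refine ⟨c * z, (s34m_VV G φ M q hq hqM i).mul_mem _ _ (hcV i) hz, ?_⟩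
    show c * y = s34m_unif G (M * q) * (c * z)
    rw [e]
    ring
  obtain ⟨z', hz', e'⟩ := (s33s_mem_comp _ _ _ (!i) _).mp (hle hmemI)
  have e'' : c * y = s34m_unif G (M * q) * z' := e'
  have h1 : c * y ∈ (s34m_VV G φ M q hq hqM (!i)).nonunits := by
    rw [e'']
    exact s36qf_mul_mem_nonunits _ (s36e_unif_mem_nonunits_VV G φ M q hq hqM (!i)) hz'
  rw [ValuationSubring.mem_nonunits_iff, map_mul] at h1
  have v1 : (s34m_VV G φ M q hq hqM (!i)).valuation c = 1 :=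
    le_antisymm (((s34m_VV G φ M q hq hqM (!i)).valuation_le_one_iff _).mpr (hcV (!i)))
      (not_lt.mp fun h => hcu (!i) ((ValuationSubring.mem_nonunits_iff _).mpr h))
  have v2 : (s34m_VV G φ M q hq hqM (!i)).valuation y = 1 :=
    le_antisymm (((s34m_VV G φ M q hq hqM (!i)).valuation_le_one_iff _).mpr hyNm)
      (not_lt.mp fun h => hyNu ((ValuationSubring.mem_nonunits_iff _).mpr h))
  rw [v1, v2, mul_one] at h1
  exact lt_irrefl _ h1

/-! ### [NODE-UP] and the node correspondence for the coordinate `t` -/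

theorem s59u_t_unif_inv_mem (Q : Place K₀ (s34m_F K₀ (M * ℓ * q))) :
    (s34m_unif G (M * ℓ * q))⁻¹ ∈ Q.toValuationSubring := by
  have e : (s34m_unif G (M * ℓ * q))⁻¹ =
      algebraMap K₀ (s34m_F K₀ (M * ℓ * q)) (((G.ϖ : G.A) : K₀)⁻¹) := by
    rw [map_inv₀]
    rfl
  rw [e]
  exact Q.algebraMap_mem' _

include ha hat htO hα hα' hunit in
/-- **[NODE-UP]** for the coordinate `t`: a place of the chart `{t' regular}` of level `M ℓ q` whose `a`-restriction is a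
node place of the chart `{t regular}` of level `M q` is a node place. -/
theorem s59u_t_nodeUp_level
    (Q' : Place K₀ (s34m_F K₀ (M * ℓ * q))) (hQ' : t' ∈ Q'.toValuationSubring)
    (Qa : Place K₀ (s34m_F K₀ (M * q)))
    (hQa : ∀ y, y ∈ Qa.toValuationSubring ↔ a y ∈ Q'.toValuationSubring)
    (h : Qa ∈ s33s_nodePlaces (s34m_VV G φ M q hq hqM) (s34m_unif G (M * q))
      (s18_chart1 (L₀ := K₀) t)) :
    Q' ∈ s33s_nodePlaces (s34m_VV G φ (M * ℓ) q hq hqMℓ) (s34m_unif G (M * ℓ * q))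
      (s18_chart1 (L₀ := K₀) t') :=
  s59u_nodeUp_places (s34m_VV G φ M q hq hqM) (s34m_VV G φ (M * ℓ) q hq hqMℓ)
    (s18_chart1 (L₀ := K₀) t) (s18_chart1 (L₀ := K₀) t')
    (a : s34m_F K₀ (M * q) →+* s34m_F K₀ (M * ℓ * q))
    (s34m_unif G (M * q)) (s34m_unif G (M * ℓ * q)) (s34m_unif_ne_zero G (M * q))
    (a.commutes _) (fun Q _ => s59u_t_unif_inv_mem G M q ℓ Q)
    (s59u_t_const_mem_ring G φ M q hq hqM _ G.ϖ)
    (s59u_a_mem_VV G φ M q ℓ hq hqM hqMℓ a ha)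
    (s59u_t_a_mem_ring G φ M q ℓ hq hqM hqMℓ a ha t t' hat)
    (s59u_t_a_isIntegral G φ M q ℓ hq hqM hqMℓ a ha t t' htO hα' hat)
    (s59u_t_ring_isIntegrallyClosed G φ M q hq hqM t htO hα)
    (s59u_t_comp_isPrime G φ M q hq hqM _)
    (s59u_t_comp_indep G φ M q hq hqM t htO hα hunit true)
    (s59u_t_comp_indep G φ M q hq hqM t htO hα hunit false)
    Q' hQ' Qa hQa h

include ha hb hat htO hα hα' hunit in
/-- **The node correspondence** for the coordinate `t`, ideal form. -/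
theorem s59u_t_corr_level (hbt : s28d_IntOver t' (b t)) (htb : s28d_IntOver (b t) t')
    (Q' : Place K₀ (s34m_F K₀ (M * ℓ * q))) (hQ' : t' ∈ Q'.toValuationSubring)
    (𝔫 : Ideal (s34x_ring (L₀ := K₀) (s34x_infRing (s34m_VV G φ M q hq hqM))
      (s18_chart1 (L₀ := K₀) t)))
    (h𝔫 : s33s_IsNode (s34m_VV G φ M q hq hqM) (s34m_unif G (M * q)) (s18_chart1 (L₀ := K₀) t) 𝔫)
    (hth : ∀ y : s34x_ring (L₀ := K₀) (s34x_infRing (s34m_VV G φ M q hq hqM))
        (s18_chart1 (L₀ := K₀) t),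
      (y : s34m_F K₀ (M * q)) ≠ 0 → 0 < Q'.ord (a (y : s34m_F K₀ (M * q))) → y ∈ 𝔫) :
    ∃ 𝔫₂ : Ideal (s34x_ring (L₀ := K₀) (s34x_infRing (s34m_VV G φ M q hq hqM))
        (s18_chart1 (L₀ := K₀) t)),
      s33s_IsNode (s34m_VV G φ M q hq hqM) (s34m_unif G (M * q)) (s18_chart1 (L₀ := K₀) t) 𝔫₂ ∧
      ∀ y : s34x_ring (L₀ := K₀) (s34x_infRing (s34m_VV G φ M q hq hqM))
        (s18_chart1 (L₀ := K₀) t),
      (y : s34m_F K₀ (M * q)) ≠ 0 → 0 < Q'.ord (b (y : s34m_F K₀ (M * q))) → y ∈ 𝔫₂ :=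
  s59u_corr_abs (s34m_VV G φ M q hq hqM) (s34m_VV G φ (M * ℓ) q hq hqMℓ)
    (s18_chart1 (L₀ := K₀) t) (s18_chart1 (L₀ := K₀) t')
    (a : s34m_F K₀ (M * q) →+* s34m_F K₀ (M * ℓ * q))
    (b : s34m_F K₀ (M * q) →+* s34m_F K₀ (M * ℓ * q))
    (s34m_unif G (M * q)) (s34m_unif G (M * ℓ * q)) (s34m_unif_ne_zero G (M * q))
    (a.commutes _) (b.commutes _) (fun Q _ => s59u_t_unif_inv_mem G M q ℓ Q)
    (s59u_t_const_mem_ring G φ M q hq hqM _ G.ϖ)
    (s59u_a_mem_VV G φ M q ℓ hq hqM hqMℓ a ha)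
    (s59u_b_mem_VV G φ M q ℓ hq hqM hqMℓ b hb)
    (s59u_t_a_mem_ring G φ M q ℓ hq hqM hqMℓ a ha t t' hat)
    (s59u_t_b_mem_ring G φ M q ℓ hq hqM hqMℓ b hb t t' hbt)
    (s59u_t_a_isIntegral G φ M q ℓ hq hqM hqMℓ a ha t t' htO hα' hat)
    (s59u_t_b_isIntegral G φ M q ℓ hq hqM hqMℓ b hb t t' htO hα' hbt htb)
    (s59u_t_ring_isIntegrallyClosed G φ M q hq hqM t htO hα)
    (s59u_t_comp_isPrime G φ M q hq hqM _)
    (s59u_t_comp_indep G φ M q hq hqM t htO hα hunit true)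
    (s59u_t_comp_indep G φ M q hq hqM t htO hα hunit false)
    Q' hQ' 𝔫 h𝔫 hth

end Fermat.Agent.Lib.S59
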