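/-
Programme R (S59), node [MP32] (helper2, prefix `s59b_`), step (A2) "descent from a good auxiliary level":
**THE NORM ALONG THE LEVEL INCLUSION AVOIDS THE NODES.**

* `s59b_ord_norm_eq_zero`  : over `ℚ̄`, for ANY embedding `φ : F̄(N) → F̄(n)`: `ord_v (Nm_φ z) = 0` as soon as `ord_w z = 0` for
  every place `w` above `v` (Prelude norm formula);
* `s59b_norm_node_level`   : levels `M q → M ℓ q` over `L₀`, general coordinate `t` (helper3's frame `UCarCorrT.lean`):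
  if `h'` has no zero or pole at the node places of the chart `{t' regular}` of level `M ℓ q`, then `Nm_a h'` has no zero
  or pole at the node places of the chart `{t regular}` of level `M q` (helper3's [NODE-UP] `s59u_t_nodeUp_level`).
-/
import Fermat.Agent.Lib.S59.UCarCorrT
import Fermat.Agent.Lib.S36.WFinite
import Fermat.Agent.Lib.S37.HInputs

set_option autoImplicit false
set_option linter.unusedSectionVars false
set_option linter.unusedVariables false
set_option linter.style.haveILetI false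
set_option synthInstance.maxHeartbeats 400000

noncomputable section

namespace Fermat.Agent.Lib.S59

open Polynomial ModularCurve AlgebraicCurve HahnSeries Fermat.Agent.Lib.FF Fermat.Agent.Lib.S18
  Fermat.Agent.Lib.S28 Fermat.Agent.Lib.S37 Fermat.Agent.Lib.S34 Fermat.Agent.Lib.S35
  Fermat.Agent.Lib.S36 Fermat.Agent.Lib.S33 Fermat.Agent.Lib.S44

local notation "Kb" => AlgebraicClosure ℚ

/-- membership in the restriction of a place along an embedding (general form, cheap for the kernel). -/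
theorem s59b_mem_restrictAlong {K F F' : Type*} [Field K] [Field F] [Field F'] [Algebra K F]
    [Algebra K F'] (φ : F →ₐ[K] F') (hφ : φ.toRingHom.IsIntegral) (w : Place K F') (z : F) :
    z ∈ (w.restrictAlong φ hφ).toValuationSubring ↔ φ z ∈ w.toValuationSubring := Iff.rfl

section Bar

variable {N n : ℕ} [NeZero N] [NeZero n]

/-- `ord_v (Nm_φ z) = 0` as soon as `z` is a unit at every place above `v` along `φ`. -/
theorem s59b_ord_norm_eq_zero (φ : ffi_F N →ₐ[Kb] ffi_F n) (hφ : φ.toRingHom.IsIntegral)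
    (z : ffi_F n) (hz : z ≠ 0) (v : Place Kb (ffi_F N))
    (h : ∀ w : Place Kb (ffi_F n), w.restrictAlong φ hφ = v → w.ord z = 0) :
    v.ord (@Algebra.norm (ffi_F N) (ffi_F n) _ _ (algebraAlong φ) z) = 0 := by
  classical
  obtain ⟨D, hD, -⟩ := HasPrincipalDivisors.exists_divisor (K := Kb) z hz
  have hfin : FiniteAlong Kb φ := s36w_finiteAlong φ
  have h1 := s37h_normFormulaAlong φ hfin
  letI := algebraAlong φ
  haveI := isScalarTower_along φ
  haveI := isIntegral_along φ hφ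
  haveI : Module.Finite (ffi_F N) (ffi_F n) := hfin
  have h2 := h1 z hz D hD v
  show v.ord (Algebra.norm (ffi_F N) z) = 0
  rw [← h2, Divisor.pushforward_apply]
  refine Finset.sum_eq_zero fun w _ => ?_
  split_ifs with hw
  · rw [hD w, h w hw, zero_mul]
  · rfl

end Bar

section Level

variable (M q ℓ : ℕ) [NeZero M] [NeZero q] [NeZero ℓ] (hq : q.Prime) (hqM : ¬ q ∣ M)
  (hqMℓ : ¬ q ∣ M * ℓ)
  (L₀ : IntermediateField ℚ Kb) {κ : Type} [Field κ] (G : s18g_GaussData ↥L₀ κ)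
  [IsDiscreteValuationRing G.A] [CharP κ q]
  (a : s34m_F ↥L₀ (M * q) →ₐ[↥L₀] s34m_F ↥L₀ (M * ℓ * q))
  (ha : ∀ y, ((a y : s34m_F ↥L₀ (M * ℓ * q)) : LaurentSeries ↥L₀) = (y : LaurentSeries ↥L₀))
  (α' : ffi_F (M * q) →ₐ[Kb] ffi_F (M * ℓ * q))
  (hα'c : ∀ y, ((α' y : ffi_F (M * ℓ * q)) : LaurentSeries Kb) = (y : LaurentSeries Kb))
  (t : s34m_F ↥L₀ (M * q)) (t' : s34m_F ↥L₀ (M * ℓ * q))
  [hgen : FFGen ↥L₀ t] [hgen' : FFGen ↥L₀ t']
  (htO : ∀ i, t ∈ s34m_VV G (algebraMap ↥L₀ Kb) M q hq hqM i)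
  (hα : ∀ y ∈ s34x_infRing (s34m_VV G (algebraMap ↥L₀ Kb) M q hq hqM), ∃ s : G.A[X],
    s.map G.π ≠ 0 ∧
    (s18b_ev G (laurentBaseChange ↥L₀ (modularFunctionFieldFull (M * q))) t).IsIntegralElem
      (s18b_ev G (laurentBaseChange ↥L₀ (modularFunctionFieldFull (M * q))) t s * y))
  (hα' : ∀ y ∈ s34x_infRing (s34m_VV G (algebraMap ↥L₀ Kb) (M * ℓ) q hq hqMℓ), ∃ s : G.A[X],
    s.map G.π ≠ 0 ∧
    (s18b_ev G (laurentBaseChange ↥L₀ (modularFunctionFieldFull (M * ℓ * q))) t').IsIntegralElem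
      (s18b_ev G (laurentBaseChange ↥L₀ (modularFunctionFieldFull (M * ℓ * q))) t' s * y))
  (hat : a t = t')
  (hunit : ∀ (i : Bool) (s : G.A[X]), s.map G.π ≠ 0 →
    s18b_ev G (laurentBaseChange ↥L₀ (modularFunctionFieldFull (M * q))) t s ∉
      (s34m_VV G (algebraMap ↥L₀ Kb) M q hq hqM i).nonunits)

include ha hα'c in
/-- the base change to `ℚ̄` commutes with the level inclusions. -/
theorem s59b_incl_a (y : s34m_F ↥L₀ (M * q)) :
    s18q_incl (M * ℓ * q) L₀ (a y) = α' (s18q_incl (M * q) L₀ y) := by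
  apply Subtype.ext
  rw [hα'c]
  show coeffMap (algebraMap ↥L₀ Kb) ((a y : s34m_F ↥L₀ (M * ℓ * q)) : LaurentSeries ↥L₀) =
    coeffMap (algebraMap ↥L₀ Kb) (y : LaurentSeries ↥L₀)
  rw [ha]

include ha hα'c hat htO hα hα' hunit in
set_option maxHeartbeats 1600000 in
/-- **the norm along the level inclusion avoids the nodes.** -/
theorem s59b_norm_node_level
    (hnorm : ∀ f : s34m_F ↥L₀ (M * ℓ * q),
      s18q_incl (M * q) L₀
        (@Algebra.norm (s34m_F ↥L₀ (M * q)) (s34m_F ↥L₀ (M * ℓ * q)) _ _ (algebraAlong a) f) =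
      @Algebra.norm (ffi_F (M * q)) (ffi_F (M * ℓ * q)) _ _ (algebraAlong α')
        (s18q_incl (M * ℓ * q) L₀ f))
    (h' : s34m_F ↥L₀ (M * ℓ * q)) (hh0 : h' ≠ 0)
    (hnf : ∀ Q' ∈ s33s_nodePlaces (s34m_VV G (algebraMap ↥L₀ Kb) (M * ℓ) q hq hqMℓ)
      (s34m_unif G (M * ℓ * q)) (s18_chart1 (L₀ := ↥L₀) t'), Q'.ord h' = 0)
    (Q : Place ↥L₀ (s34m_F ↥L₀ (M * q)))
    (hQ : Q ∈ s33s_nodePlaces (s34m_VV G (algebraMap ↥L₀ Kb) M q hq hqM) (s34m_unif G (M * q))
      (s18_chart1 (L₀ := ↥L₀) t)) :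
    Q.ord (@Algebra.norm (s34m_F ↥L₀ (M * q)) (s34m_F ↥L₀ (M * ℓ * q)) _ _ (algebraAlong a) h') =
      0 := by
  obtain ⟨Pb, rfl⟩ := s18q_restrict_surjective (M * q) L₀ Q
  rw [← s18q_ord_restrict, hnorm]
  have hα'int : α'.toRingHom.IsIntegral := s37h_isIntegral_of_finiteAlong _ (s36w_finiteAlong α')
  have hz0 : s18q_incl (M * ℓ * q) L₀ h' ≠ 0 := (_root_.map_ne_zero _).mpr hh0
  refine s59b_ord_norm_eq_zero α' hα'int _ hz0 Pb fun w hw => ?_
  rw [s18q_ord_restrict (M * ℓ * q) L₀]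
  apply hnf
  have hQa : ∀ y, y ∈ (s18q_restrict (M * q) L₀ Pb).toValuationSubring ↔
      a y ∈ (s18q_restrict (M * ℓ * q) L₀ w).toValuationSubring := by
    intro y
    rw [s18q_mem_restrict, s18q_mem_restrict, s59b_incl_a M q ℓ L₀ a ha α' hα'c, ← hw]
    exact s59b_mem_restrictAlong α' hα'int w (s18q_incl (M * q) L₀ y)
  refine s59u_t_nodeUp_level G (algebraMap ↥L₀ Kb) M q ℓ hq hqM hqMℓ a ha t t' htO hα hα' hat hunit
    (s18q_restrict (M * ℓ * q) L₀ w) ?_ (s18q_restrict (M * q) L₀ Pb) hQa hQ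
  rw [← hat, ← hQa]
  exact hQ.1

end Level

end Fermat.Agent.Lib.S59
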