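/-
Programme R (S59), node [MP32] (helper2, prefix `s59b_`), step (A2) "descent from a good auxiliary level":
**ABSTRACT VALUATION THEORY** (Mathlib only).

* `s59b_val_two`      : a valuation subring containing `V₁ ∩ V₂` contains `V₁` or `V₂`;
* `s59b_max_of_unif`  : a valuation subring with a uniformiser (every non-zero element is `ϖ ^ n * unit`) is maximal
  among the proper valuation subrings;
* `s59b_norm_mem`     : **[NORM-INT]** `F'/F` any field extension, `V ⊂ F` a maximal valuation subring, `y ∈ F'` lying in every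
  valuation subring of `F'` above `V`: then `N_{F'/F}(y) ∈ V`.
-/
import Mathlib

set_option autoImplicit false
set_option linter.unusedSectionVars false
set_option linter.unusedVariables false
set_option linter.style.haveILetI false

noncomputable section

namespace Fermat.Agent.Lib.S59

section TwoVal

variable {K : Type*} [Field K]

/-- a valuation subring containing `V₁ ∩ V₂` contains `V₁` or `V₂`. -/
theorem s59b_val_two (V₁ V₂ W : ValuationSubring K)
    (h : ∀ x, x ∈ V₁ → x ∈ V₂ → x ∈ W) : V₁ ≤ W ∨ V₂ ≤ W := by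
  by_contra hcon
  rw [not_or] at hcon
  obtain ⟨a, ha1, haW⟩ := SetLike.not_le_iff_exists.mp hcon.1
  obtain ⟨b, hb2, hbW⟩ := SetLike.not_le_iff_exists.mp hcon.2
  have ha2 : a ∉ V₂ := fun h2 => haW (h a ha1 h2)
  have hb1 : b ∉ V₁ := fun h1 => hbW (h b h1 hb2)
  have ha0 : a ≠ 0 := fun h0 => haW (h0 ▸ W.zero_mem)
  have hb0 : b ≠ 0 := fun h0 => hbW (h0 ▸ W.zero_mem)
  have key : ∀ (V : ValuationSubring K) (x y : K), x ≠ 0 → y ≠ 0 → x ∈ V → y ∉ V →
      (x⁻¹ + y⁻¹)⁻¹ ∈ V := by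
    intro V x y hx0 hy0 hx hy
    have vx : V.valuation x ≤ 1 := (V.valuation_le_one_iff x).mpr hx
    have vy : 1 < V.valuation y := by
      rw [← not_le, V.valuation_le_one_iff]; exact hy
    have vx0 : V.valuation x ≠ 0 := (Valuation.ne_zero_iff _).mpr hx0
    have vy0 : V.valuation y ≠ 0 := (Valuation.ne_zero_iff _).mpr hy0
    have h1 : V.valuation y⁻¹ < 1 := by
      rw [map_inv₀]
      exact inv_lt_one_of_one_lt₀ vy
    have h2 : 1 ≤ V.valuation x⁻¹ := by
      rw [map_inv₀]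
      exact (one_le_inv₀ (zero_lt_iff.mpr vx0)).mpr vx
    have h3 : V.valuation (x⁻¹ + y⁻¹) = V.valuation x⁻¹ :=
      Valuation.map_add_eq_of_lt_left _ (lt_of_lt_of_le h1 h2)
    rw [← V.valuation_le_one_iff, map_inv₀, h3]
    have h4 : V.valuation x⁻¹ ≠ 0 := by
      rw [map_inv₀]; exact inv_ne_zero vx0
    exact inv_le_one_of_one_le₀ h2
  have hz1 : (a⁻¹ + b⁻¹)⁻¹ ∈ V₁ := key V₁ a b ha0 hb0 ha1 hb1
  have hz2 : (a⁻¹ + b⁻¹)⁻¹ ∈ V₂ := by
    have := key V₂ b a hb0 ha0 hb2 ha2
    rwa [add_comm] at this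
  have hzW : (a⁻¹ + b⁻¹)⁻¹ ∈ W := h _ hz1 hz2
  -- but `a⁻¹ + b⁻¹` is a non-unit of `W`
  have wa : W.valuation a⁻¹ < 1 := by
    rw [map_inv₀]
    apply inv_lt_one_of_one_lt₀
    rw [← not_le, W.valuation_le_one_iff]; exact haW
  have wb : W.valuation b⁻¹ < 1 := by
    rw [map_inv₀]
    apply inv_lt_one_of_one_lt₀
    rw [← not_le, W.valuation_le_one_iff]; exact hbW
  have wz : W.valuation (a⁻¹ + b⁻¹) < 1 :=
    lt_of_le_of_lt (W.valuation.map_add _ _) (max_lt wa wb)
  have wz' : W.valuation (a⁻¹ + b⁻¹)⁻¹ ≤ 1 := (W.valuation_le_one_iff _).mpr hzW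
  rw [map_inv₀] at wz'
  by_cases hz0 : W.valuation (a⁻¹ + b⁻¹) = 0
  · -- then `a⁻¹ + b⁻¹ = 0`, impossible in `V₁`
    have hzero : a⁻¹ + b⁻¹ = 0 := (Valuation.zero_iff _).mp hz0
    have vb : 1 < V₁.valuation b := by
      rw [← not_le, V₁.valuation_le_one_iff]; exact hb1
    have va : V₁.valuation a ≤ 1 := (V₁.valuation_le_one_iff a).mpr ha1
    have e : a = -b := by
      have h5 : a⁻¹ = -b⁻¹ := eq_neg_of_add_eq_zero_left hzero
      have h6 : a⁻¹ = (-b)⁻¹ := by rw [h5, inv_neg]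
      exact inv_injective h6
    rw [e, Valuation.map_neg] at va
    exact absurd va (not_le.mpr vb)
  · have h7 : 1 ≤ W.valuation (a⁻¹ + b⁻¹) := by
      have := (inv_le_one₀ (zero_lt_iff.mpr hz0)).mp wz'
      exact this
    exact absurd wz (not_lt.mpr h7)

end TwoVal

section Max

variable {K : Type*} [Field K]

/-- a valuation subring with a uniformiser is maximal among the proper valuation subrings. -/
theorem s59b_max_of_unif (O : ValuationSubring K) (ϖ : K) (hϖ : ϖ ∈ O) (hϖ0 : ϖ ≠ 0)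
    (hU : ∀ x : K, x ≠ 0 → ∃ (n : ℤ) (u : K), u ∈ O ∧ u⁻¹ ∈ O ∧ x = ϖ ^ n * u)
    (W : ValuationSubring K) (hOW : O ≤ W) : W = O ∨ W = ⊤ := by
  by_cases h : W ≤ O
  · exact Or.inl (le_antisymm h hOW)
  right
  obtain ⟨x, hxW, hxO⟩ := SetLike.not_le_iff_exists.mp h
  have hx0 : x ≠ 0 := fun h0 => hxO (h0 ▸ O.zero_mem)
  obtain ⟨n, u, hu, hu', rfl⟩ := hU x hx0
  have hu0 : u ≠ 0 := fun h0 => hx0 (by rw [h0, mul_zero])
  have hpowO : ∀ k : ℕ, ϖ ^ k ∈ O := fun k => O.pow_mem hϖ k
  have hn : n < 0 := by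
    by_contra hn
    rw [not_lt] at hn
    apply hxO
    obtain ⟨k, rfl⟩ := Int.eq_ofNat_of_zero_le hn
    rw [zpow_natCast]
    exact O.mul_mem _ _ (hpowO k) hu
  have h1 : ϖ ^ n ∈ W := by
    have e : ϖ ^ n = ϖ ^ n * u * u⁻¹ := by
      rw [mul_assoc, mul_inv_cancel₀ hu0, mul_one]
    rw [e]
    exact W.mul_mem _ _ hxW (hOW hu')
  have h2 : ϖ⁻¹ ∈ W := by
    obtain ⟨k, hk⟩ : ∃ k : ℕ, n = -((k : ℤ) + 1) := ⟨(-n - 1).toNat, by omega⟩
    have e : ϖ⁻¹ = ϖ ^ n * ϖ ^ k := by
      rw [hk, ← zpow_natCast, ← zpow_add₀ hϖ0]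
      have : -((k : ℤ) + 1) + (k : ℤ) = -1 := by ring
      rw [this, zpow_neg_one]
    rw [e]
    exact W.mul_mem _ _ h1 (hOW (hpowO k))
  have hz : ∀ m : ℤ, ϖ ^ m ∈ W := by
    intro m
    rcases le_total 0 m with hm | hm
    · obtain ⟨k, rfl⟩ := Int.eq_ofNat_of_zero_le hm
      rw [zpow_natCast]
      exact hOW (hpowO k)
    · obtain ⟨k, hk⟩ : ∃ k : ℕ, m = -(k : ℤ) := ⟨(-m).toNat, by omega⟩
      rw [hk, zpow_neg, zpow_natCast, ← inv_pow]
      exact W.pow_mem h2 k
  rw [eq_top_iff]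
  intro y _
  by_cases hy0 : y = 0
  · rw [hy0]; exact W.zero_mem
  obtain ⟨m, v, hv, hv', rfl⟩ := hU y hy0
  exact W.mul_mem _ _ (hz m) (hOW hv)

end Max

section NormInt

variable {F F' : Type*} [Field F] [Field F'] [Algebra F F']

/-- **[NORM-INT]**: `V ⊂ F` a maximal valuation subring, `y ∈ F'` in every valuation subring of `F'` above `V`; then
`N_{F'/F}(y) ∈ V`. -/
theorem s59b_norm_mem (V : ValuationSubring F)
    (hmax : ∀ W : ValuationSubring F, V ≤ W → W = V ∨ W = ⊤) (y : F')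
    (hy : ∀ W' : ValuationSubring F', W'.comap (algebraMap F F') = V → y ∈ W') :
    Algebra.norm F y ∈ V := by
  by_cases hfin : Module.Finite F F'
  swap
  · rw [Algebra.norm_eq_one_of_not_module_finite hfin]
    exact V.one_mem
  letI algV : Algebra V F' := ((algebraMap F F').comp V.subtype).toAlgebra
  haveI : IsScalarTower V F F' := IsScalarTower.of_algebraMap_eq (fun x => rfl)
  have hint : IsIntegral V y := by
    by_contra hni
    have hyR : y ∉ (integralClosure V F').toSubring := hni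
    obtain ⟨W', hRW, hyW⟩ := Subring.exists_le_valuationSubring_of_isIntegrallyClosedIn hyR
    have hVW : V ≤ W'.comap (algebraMap F F') := by
      intro x hx
      rw [ValuationSubring.mem_comap]
      apply hRW
      have : IsIntegral V (algebraMap V F' ⟨x, hx⟩) := isIntegral_algebraMap
      exact this
    rcases hmax _ hVW with h1 | h1
    · exact hyW (hy W' h1)
    · apply hyW
      have hyF : IsIntegral F y := IsIntegral.of_finite F y
      have hFW : ∀ x : F, algebraMap F F' x ∈ W' := by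
        intro x
        have : x ∈ W'.comap (algebraMap F F') := by rw [h1]; exact ValuationSubring.mem_top x
        exact ValuationSubring.mem_comap.mp this
      let c : F →+* W' := (algebraMap F F').codRestrict W'.toSubring hFW
      have hW'int : IsIntegral W' y := by
        obtain ⟨p, hp, hp0⟩ := hyF
        refine ⟨p.map c, hp.map c, ?_⟩
        rw [Polynomial.eval₂_map]
        have : (algebraMap W' F').comp c = algebraMap F F' := RingHom.ext fun _ => rfl
        rw [this]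
        exact hp0
      obtain ⟨z, hz⟩ := IsIntegrallyClosed.isIntegral_iff.mp hW'int
      rw [← hz]
      exact z.2
  have h1 : IsIntegral V (Algebra.norm F y) := Algebra.isIntegral_norm F hint
  obtain ⟨z, hz⟩ := IsIntegrallyClosed.isIntegral_iff.mp h1
  rw [← hz]
  exact z.2

end NormInt

end Fermat.Agent.Lib.S59
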