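/-
Programme R (S59), node [MP32] (helper2, prefix `s59b_`), step (A2) "descent from a good auxiliary level":
**[UNIQ] and [NORM-UNIT]** between the levels `M q` and `M ℓ q` (`q` the residue characteristic, ANY prime `q ∤ M ℓ`),
in the frame of helper3's `UCarCorrT.lean` (a general coordinate `t`).

`a : 𝓕_{K₀}(M q) → 𝓕_{K₀}(M ℓ q)` the inclusion (`a y = y` on `q`-expansions).

* `s59b_uniq_level`      : **[UNIQ]** the only valuation subring of `𝓕(M ℓ q)` above `V_i` (`i = ∞, 0`) is `V'_i`;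
* `s59b_norm_unit_level` : **[NORM-UNIT]** the norm along `a` of a unit of `V'_∞ ⊓ V'_0` is a unit of `V_∞ ⊓ V_0`.
-/
import Fermat.Agent.Lib.S59.UCarCorrT
import Fermat.Agent.Lib.S59.B2Val
import Fermat.Agent.Lib.S36.QFracInst

set_option autoImplicit false
set_option linter.unusedSectionVars false
set_option linter.unusedVariables false
set_option linter.style.haveILetI false

noncomputable section

namespace Fermat.Agent.Lib.S59

open Polynomial ModularCurve AlgebraicCurve HahnSeries Fermat.Agent.Lib.FF Fermat.Agent.Lib.S18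
  Fermat.Agent.Lib.S28 Fermat.Agent.Lib.S37 Fermat.Agent.Lib.S34 Fermat.Agent.Lib.S35
  Fermat.Agent.Lib.S36 Fermat.Agent.Lib.S33 Fermat.Agent.Lib.S44

local notation "Kb" => AlgebraicClosure ℚ

variable {K₀ : Type} [Field K₀] [Algebra ℚ K₀] [CharZero K₀] {κ : Type} [Field κ]
  (G : s18g_GaussData K₀ κ) [IsDiscreteValuationRing G.A]
  (φ : K₀ →+* Kb) (M q ℓ : ℕ) [NeZero M] [NeZero q] [NeZero ℓ] (hq : q.Prime) (hqM : ¬ q ∣ M)
  (hqMℓ : ¬ q ∣ M * ℓ)
  (a : s34m_F K₀ (M * q) →ₐ[K₀] s34m_F K₀ (M * ℓ * q))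
  (ha : ∀ y, ((a y : s34m_F K₀ (M * ℓ * q)) : LaurentSeries K₀) = (y : LaurentSeries K₀))
  (t : s34m_F K₀ (M * q)) (t' : s34m_F K₀ (M * ℓ * q))
  (htO : ∀ i, t ∈ s34m_VV G φ M q hq hqM i)
  (hα' : ∀ y ∈ s34x_infRing (s34m_VV G φ (M * ℓ) q hq hqMℓ), ∃ s : G.A[X], s.map G.π ≠ 0 ∧
    (s18b_ev G (laurentBaseChange K₀ (modularFunctionFieldFull (M * ℓ * q))) t').IsIntegralElem
      (s18b_ev G (laurentBaseChange K₀ (modularFunctionFieldFull (M * ℓ * q))) t' s * y))
  (hat : a t = t')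
  (hunit : ∀ (i : Bool) (s : G.A[X]), s.map G.π ≠ 0 →
    s18b_ev G (laurentBaseChange K₀ (modularFunctionFieldFull (M * q))) t s ∉
      (s34m_VV G φ M q hq hqM i).nonunits)

/-- the two vertical valuation rings of level `M q` are maximal. -/
theorem s59b_VV_max (i : Bool) (W : ValuationSubring (s34m_F K₀ (M * q)))
    (hW : s34m_VV G φ M q hq hqM i ≤ W) : W = s34m_VV G φ M q hq hqM i ∨ W = ⊤ :=
  s59b_max_of_unif (s34m_VV G φ M q hq hqM i) (s34m_unif G (M * q))
    (s34m_unif_mem_VV G φ M q hq hqM i) (s34m_unif_ne_zero G (M * q))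
    (fun x hx => s34m_exists_zpow_VV G φ M q hq hqM i x hx) W hW

/-- the vertical valuation rings are proper. -/
theorem s59b_VV_ne_top (i : Bool) : s34m_VV G φ M q hq hqM i ≠ ⊤ := by
  intro htop
  have h1 := (s36b_isUnif_VV G φ M q hq hqM i).2.1
  apply h1
  rw [htop]
  exact ValuationSubring.mem_top _

include ha hat htO hα' hunit in
/-- **[UNIQ]**: the only valuation subring of `𝓕(M ℓ q)` above `V_i` is `V'_i`. -/
theorem s59b_uniq_level [CharP κ q] (W : ValuationSubring (s34m_F K₀ (M * ℓ * q))) (i₀ : Bool)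
    (hW : ∀ y, a y ∈ W ↔ y ∈ s34m_VV G φ M q hq hqM i₀) :
    W = s34m_VV G φ (M * ℓ) q hq hqMℓ i₀ := by
  have hA : ∀ c : G.A, algebraMap K₀ (s34m_F K₀ (M * ℓ * q)) (c : K₀) ∈ W := by
    intro c
    rw [← a.commutes]
    exact (hW _).mpr (s34c_const_mem_VV G φ M q hq hqM i₀ c)
  have ht' : t' ∈ W := by
    rw [← hat]
    exact (hW t).mpr (htO i₀)
  have hsub : ∀ y, y ∈ s34m_VV G φ (M * ℓ) q hq hqMℓ true →
      y ∈ s34m_VV G φ (M * ℓ) q hq hqMℓ false → y ∈ W := by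
    intro y h1 h2
    have hy : y ∈ s34x_infRing (s34m_VV G φ (M * ℓ) q hq hqMℓ) :=
      (s34x_mem_infRing _ _).mpr (fun i => by cases i; exact h2; exact h1)
    obtain ⟨s, hs, hint⟩ := hα' y hy
    have h3 := s18b_mem_of_isIntegralElem G _ t' W hA ht' _ hint
    have e : s18b_ev G (laurentBaseChange K₀ (modularFunctionFieldFull (M * ℓ * q))) t' s =
        a (s18b_ev G (laurentBaseChange K₀ (modularFunctionFieldFull (M * q))) t s) := by
      rw [s18b_evA_apply, s18b_evA_apply, ← hat]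
      exact Polynomial.aeval_algHom_apply a t _
    have hd : s18b_ev G (laurentBaseChange K₀ (modularFunctionFieldFull (M * q))) t s ∈
        s34m_VV G φ M q hq hqM i₀ :=
      s18b_mem_of_isIntegralElem G _ t (s34m_VV G φ M q hq hqM i₀)
        (s34c_const_mem_VV G φ M q hq hqM i₀) (htO i₀) _
        ((s18b_ev G (laurentBaseChange K₀ (modularFunctionFieldFull (M * q))) t).isIntegralElem_map)
    have hnu := hunit i₀ s hs
    rw [ValuationSubring.mem_nonunits_iff_or, not_or, not_not] at hnu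
    obtain ⟨hd0, hdinv⟩ := hnu
    have hinvW : a (s18b_ev G (laurentBaseChange K₀ (modularFunctionFieldFull (M * q))) t s)⁻¹ ∈
        W := (hW _).mpr hdinv
    rw [e] at h3
    have hd0' : a (s18b_ev G (laurentBaseChange K₀ (modularFunctionFieldFull (M * q))) t s) ≠ 0 :=
      (map_ne_zero a).mpr hd0
    have ey : y = a (s18b_ev G (laurentBaseChange K₀ (modularFunctionFieldFull (M * q))) t s)⁻¹ *
        (a (s18b_ev G (laurentBaseChange K₀ (modularFunctionFieldFull (M * q))) t s) * y) := by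
      rw [map_inv₀, ← mul_assoc, inv_mul_cancel₀ hd0', one_mul]
    rw [ey]
    exact W.mul_mem _ _ hinvW h3
  have hWtop : W ≠ ⊤ := by
    intro htop
    have h1 : a (s34m_unif G (M * q))⁻¹ ∈ W := by rw [htop]; exact ValuationSubring.mem_top _
    exact (s36b_isUnif_VV G φ M q hq hqM i₀).2.1 ((hW _).mp h1)
  have hcase : ∀ j : Bool, s34m_VV G φ (M * ℓ) q hq hqMℓ j ≤ W →
      W = s34m_VV G φ (M * ℓ) q hq hqMℓ i₀ := by
    intro j hj
    rcases s59b_VV_max G φ (M * ℓ) q hq hqMℓ j W hj with h1 | h1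
    swap
    · exact absurd h1 hWtop
    -- `W = V'_j`, so `V_j = V_{i₀}`
    have hjj : s34m_VV G φ M q hq hqM j = s34m_VV G φ M q hq hqM i₀ := by
      ext y
      rw [← hW y, h1]
      exact (s59u_a_mem_VV G φ M q ℓ hq hqM hqMℓ a ha j y).symm
    by_cases hji : j = i₀
    · rw [h1, hji]
    · exact absurd hjj (s36qf_VV_ne G φ M q hq hqM j i₀ hji)
  rcases s59b_val_two _ _ W hsub with h | h
  · exact hcase true h
  · exact hcase false h

include ha hat htO hα' hunit in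
/-- **[NORM-UNIT]**: the norm along `a` of a unit of `V'_∞ ⊓ V'_0` is a unit of `V_∞ ⊓ V_0`. -/
theorem s59b_norm_unit_level [CharP κ q] (h' : s34m_F K₀ (M * ℓ * q)) (hh0 : h' ≠ 0)
    (hI : ∀ i, h' ∈ s34m_VV G φ (M * ℓ) q hq hqMℓ i)
    (hI' : ∀ i, h'⁻¹ ∈ s34m_VV G φ (M * ℓ) q hq hqMℓ i) (i : Bool) :
    @Algebra.norm (s34m_F K₀ (M * q)) (s34m_F K₀ (M * ℓ * q)) _ _ (algebraAlong a) h' ∈
        s34m_VV G φ M q hq hqM i ∧
      (@Algebra.norm (s34m_F K₀ (M * q)) (s34m_F K₀ (M * ℓ * q)) _ _ (algebraAlong a) h')⁻¹ ∈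
        s34m_VV G φ M q hq hqM i := by
  letI := algebraAlong a
  have key : ∀ z : s34m_F K₀ (M * ℓ * q), (∀ j, z ∈ s34m_VV G φ (M * ℓ) q hq hqMℓ j) →
      Algebra.norm (s34m_F K₀ (M * q)) z ∈ s34m_VV G φ M q hq hqM i := by
    intro z hz
    refine s59b_norm_mem (s34m_VV G φ M q hq hqM i) (s59b_VV_max G φ M q hq hqM i) z ?_
    intro W' hW'
    have hW'' : ∀ y, a y ∈ W' ↔ y ∈ s34m_VV G φ M q hq hqM i := by
      intro y
      rw [← hW']
      exact Iff.rfl
    rw [s59b_uniq_level G φ M q ℓ hq hqM hqMℓ a ha t t' htO hα' hat hunit W' i hW'']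
    exact hz i
  refine ⟨key h' hI, ?_⟩
  have e : (Algebra.norm (s34m_F K₀ (M * q)) h')⁻¹ = Algebra.norm (s34m_F K₀ (M * q)) h'⁻¹ := by
    symm
    apply eq_inv_of_mul_eq_one_left
    rw [← map_mul, inv_mul_cancel₀ hh0, map_one]
  rw [e]
  exact key h'⁻¹ hI'

end Fermat.Agent.Lib.S59
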