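/-
Programme R (S59), node [MP32] (helper2, prefix `s59b_`), step (A2): **THE DESCENT FROM A GOOD AUXILIARY LEVEL**, Gauss-datum form.

Levels `M q → M ℓ q` (`q` the residue characteristic, `q ≠ 3`, `3 ∣ M`, `ℓ ∤ M q` prime), chart `t₃`, over a field `L₀ ∋ ζ_ℓ`
with a Gauss datum `G`.  `a = s59b_inclK` the level inclusion.

* `s59b_desc_gauss` : if `h'` (level `M ℓ q`) is a unit of `V'_∞ ⊓ V'_0` without zero or pole at the node places of the chart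
  `{t₃ regular}`, then `Nm_a h'` (level `M q`) is a unit of `V_∞ ⊓ V_0` without zero or pole at the node places of the chart
  `{t₃ regular}`, and its base change to `ℚ̄` is the norm along the level inclusion of the base change of `h'`.
-/
import Fermat.Agent.Lib.S59.B2Uniq
import Fermat.Agent.Lib.S59.B2NormNode
import Fermat.Agent.Lib.S59.B2Cast
import Fermat.Agent.Lib.S34.EBaseT

set_option autoImplicit false
set_option linter.unusedSectionVars false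
set_option linter.unusedVariables false
set_option linter.style.haveILetI false
set_option synthInstance.maxHeartbeats 400000

noncomputable section

namespace Fermat.Agent.Lib.S59

open Polynomial ModularCurve AlgebraicCurve HahnSeries Fermat.Agent.Lib.FF Fermat.Agent.Lib.S18
  Fermat.Agent.Lib.S28 Fermat.Agent.Lib.S37 Fermat.Agent.Lib.S34 Fermat.Agent.Lib.S35
  Fermat.Agent.Lib.S36 Fermat.Agent.Lib.S33 Fermat.Agent.Lib.S44

local notation "Kb" => AlgebraicClosure ℚ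

/-- the level inclusion `𝓕_{K₀}(N) → 𝓕_{K₀}(n)`, `N ∣ n`. -/
def s59b_inclK (K₀ : Type*) [Field K₀] [Algebra ℚ K₀] (N n : ℕ) [NeZero N] [NeZero n] (h : N ∣ n) :
    s34m_F K₀ N →ₐ[K₀] s34m_F K₀ n :=
  IntermediateField.inclusion (s18l_laurentBaseChange_mono K₀ (full_degeneracy_le h))

theorem s59b_coe_inclK (K₀ : Type*) [Field K₀] [Algebra ℚ K₀] (N n : ℕ) [NeZero N] [NeZero n]
    (h : N ∣ n) (y : s34m_F K₀ N) :
    ((s59b_inclK K₀ N n h y : s34m_F K₀ n) : LaurentSeries K₀) = (y : LaurentSeries K₀) :=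
  IntermediateField.coe_inclusion _ y

theorem s59b_dvd_level (M ℓ q : ℕ) : M * q ∣ M * ℓ * q := ⟨ℓ, by ring⟩

section Gauss

variable (M q ℓ : ℕ) [NeZero M] [NeZero q] [NeZero ℓ] (hq : q.Prime) (hqM : ¬ q ∣ M)
  (hqMℓ : ¬ q ∣ M * ℓ)
  (L₀ : IntermediateField ℚ Kb) {κ : Type} [Field κ] (G : s18g_GaussData ↥L₀ κ)
  [IsDiscreteValuationRing G.A] [CharP κ q]

include hq hqM hqMℓ in
set_option maxHeartbeats 1600000 in
/-- **the descent, Gauss-datum form.** -/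
theorem s59b_desc_gauss (h3M : 3 ∣ M) (hq3 : q ≠ 3) (hℓ : ℓ.Prime) (hℓMq : ¬ ℓ ∣ M * q)
    (ζ₀ : (↥L₀)ˣ) (hζ₀ : IsPrimitiveRoot (ζ₀ : ↥L₀) ℓ)
    (t : s34m_F ↥L₀ (M * q)) (ht : (t : LaurentSeries ↥L₀) = s18u_t3 ↥L₀)
    (t' : s34m_F ↥L₀ (M * ℓ * q)) (ht' : (t' : LaurentSeries ↥L₀) = s18u_t3 ↥L₀)
    (h' : s34m_F ↥L₀ (M * ℓ * q)) (hh0 : h' ≠ 0)
    (hI : ∀ i, h' ∈ s34m_VV G (algebraMap ↥L₀ Kb) (M * ℓ) q hq hqMℓ i)
    (hI' : ∀ i, h'⁻¹ ∈ s34m_VV G (algebraMap ↥L₀ Kb) (M * ℓ) q hq hqMℓ i)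
    (hnf : ∀ Q' ∈ s33s_nodePlaces (s34m_VV G (algebraMap ↥L₀ Kb) (M * ℓ) q hq hqMℓ)
      (s34m_unif G (M * ℓ * q)) (s18_chart1 (L₀ := ↥L₀) t'), Q'.ord h' = 0) :
    (∀ i, @Algebra.norm (s34m_F ↥L₀ (M * q)) (s34m_F ↥L₀ (M * ℓ * q)) _ _
        (algebraAlong (s59b_inclK ↥L₀ (M * q) (M * ℓ * q) (s59b_dvd_level M ℓ q))) h' ∈
        s34m_VV G (algebraMap ↥L₀ Kb) M q hq hqM i) ∧
    (∀ i, (@Algebra.norm (s34m_F ↥L₀ (M * q)) (s34m_F ↥L₀ (M * ℓ * q)) _ _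
        (algebraAlong (s59b_inclK ↥L₀ (M * q) (M * ℓ * q) (s59b_dvd_level M ℓ q))) h')⁻¹ ∈
        s34m_VV G (algebraMap ↥L₀ Kb) M q hq hqM i) ∧
    (∀ Q ∈ s33s_nodePlaces (s34m_VV G (algebraMap ↥L₀ Kb) M q hq hqM) (s34m_unif G (M * q))
        (s18_chart1 (L₀ := ↥L₀) t),
      Q.ord (@Algebra.norm (s34m_F ↥L₀ (M * q)) (s34m_F ↥L₀ (M * ℓ * q)) _ _
        (algebraAlong (s59b_inclK ↥L₀ (M * q) (M * ℓ * q) (s59b_dvd_level M ℓ q))) h') = 0) ∧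
    s18q_incl (M * q) L₀ (@Algebra.norm (s34m_F ↥L₀ (M * q)) (s34m_F ↥L₀ (M * ℓ * q)) _ _
        (algebraAlong (s59b_inclK ↥L₀ (M * q) (M * ℓ * q) (s59b_dvd_level M ℓ q))) h') =
      @Algebra.norm (ffi_F (M * q)) (ffi_F (M * ℓ * q)) _ _
        (algebraAlong (s37l_incl (M * q) (M * ℓ * q) (s59b_dvd_level M ℓ q)))
        (s18q_incl (M * ℓ * q) L₀ h') := by
  -- the base functions
  obtain ⟨tM, htM, ⟨hwV, hred⟩, -, -, -, hwt, -, hgen, htO, -, -, hα, -⟩ :=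
    s34m_base_t3 G (algebraMap ↥L₀ Kb) M q hq hqM h3M hq3
  obtain ⟨tMℓ, -, -, -, -, -, hwt', -, hgen', -, -, -, hα', -⟩ :=
    s34m_base_t3 G (algebraMap ↥L₀ Kb) (M * ℓ) q hq hqMℓ (Dvd.dvd.mul_right h3M ℓ) hq3
  have et : t = heckeAlphaBar ↥L₀ M q tM := Subtype.ext (ht.trans hwt.symm)
  have et' : t' = heckeAlphaBar ↥L₀ (M * ℓ) q tMℓ := Subtype.ext (ht'.trans hwt'.symm)
  subst et
  subst et'
  haveI := hgen
  haveI := hgen'
  have ha : ∀ y, ((s59b_inclK ↥L₀ (M * q) (M * ℓ * q) (s59b_dvd_level M ℓ q) y :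
      s34m_F ↥L₀ (M * ℓ * q)) : LaurentSeries ↥L₀) = (y : LaurentSeries ↥L₀) :=
    fun y => s59b_coe_inclK ↥L₀ (M * q) (M * ℓ * q) (s59b_dvd_level M ℓ q) y
  have hat : s59b_inclK ↥L₀ (M * q) (M * ℓ * q) (s59b_dvd_level M ℓ q)
      (heckeAlphaBar ↥L₀ M q tM) = heckeAlphaBar ↥L₀ (M * ℓ) q tMℓ :=
    Subtype.ext (by rw [ha, hwt, hwt'])
  have htr : Transcendental κ (s34m_redInf G M ⟨tM, hwV⟩) := by
    have e : s34m_redInf G M ⟨tM, hwV⟩ = s18u_t3 κ := hred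
    rw [e]
    exact s18b_transcendental_t3 κ
  have hunit : ∀ (i : Bool) (s : G.A[X]), s.map G.π ≠ 0 →
      s18b_ev G (laurentBaseChange ↥L₀ (modularFunctionFieldFull (M * q)))
        (heckeAlphaBar ↥L₀ M q tM) s ∉
        (s34m_VV G (algebraMap ↥L₀ Kb) M q hq hqM i).nonunits := by
    intro i s hs
    cases i
    · exact s36qf_unit_zero G (algebraMap ↥L₀ Kb) M q hq hqM tM hwV htr s hs
    · exact s36qf_unit_inf G (algebraMap ↥L₀ Kb) M q hq hqM tM hwV htr s hs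
  have hnorm : ∀ f : s34m_F ↥L₀ (M * ℓ * q),
      s18q_incl (M * q) L₀
        (@Algebra.norm (s34m_F ↥L₀ (M * q)) (s34m_F ↥L₀ (M * ℓ * q)) _ _
          (algebraAlong (s59b_inclK ↥L₀ (M * q) (M * ℓ * q) (s59b_dvd_level M ℓ q))) f) =
      @Algebra.norm (ffi_F (M * q)) (ffi_F (M * ℓ * q)) _ _
        (algebraAlong (s37l_incl (M * q) (M * ℓ * q) (s59b_dvd_level M ℓ q)))
        (s18q_incl (M * ℓ * q) L₀ f) := fun f =>
    s59b_iota_norm_cast (algebraMap ↥L₀ Kb) (M * q) ℓ (M * ℓ * q) (Nat.mul_right_comm M ℓ q)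
      hℓ hℓMq _ ha _ (fun y => s37l_coe_incl (M * q) (M * ℓ * q) (s59b_dvd_level M ℓ q) y)
      ζ₀ hζ₀ f
  refine ⟨fun i => ?_, fun i => ?_, ?_, hnorm h'⟩
  · exact (s59b_norm_unit_level G (algebraMap ↥L₀ Kb) M q ℓ hq hqM hqMℓ _ ha _ _ htO hα' hat hunit
      h' hh0 hI hI' i).1
  · exact (s59b_norm_unit_level G (algebraMap ↥L₀ Kb) M q ℓ hq hqM hqMℓ _ ha _ _ htO hα' hat hunit
      h' hh0 hI hI' i).2
  · intro Q hQ
    exact s59b_norm_node_level M q ℓ hq hqM hqMℓ L₀ G _ ha _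
      (fun y => s37l_coe_incl (M * q) (M * ℓ * q) (s59b_dvd_level M ℓ q) y) _ _ htO hα hα' hat
      hunit hnorm h' hh0 hnf Q hQ

end Gauss

end Fermat.Agent.Lib.S59
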