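/-
Programme (R) / node [MP] (Mazur's principle), leaf [A] = FIN (tame (★)), family N (helper7, prefix `s59n_`):
**THE VOCABULARY WITH THE TWO PRIMES SEPARATED.**

Level `M * q` (`q` prime, `q ∤ M`, `q` = the residue characteristic of the valuation ring `P` of `ℚ̄`), exponent `p`
(any natural number here; an odd prime `≠ q` in the application).

* `s59n_Finite M q p hqM P x` : `x ∈ J₀(M q)` (killed by `p`) is FINITE at `P`: over every sufficiently large finite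
  normal `L₀` it has a Kummer generator of exponent `p` which is a unit of `V_∞` and of `V_0` and has neither zero nor
  pole at the node places (`s44i_Finite` is the diagonal `p = q`);
* `s59n_Q4`      : exact (Q4) for `f` on the chart `S` over `(Z, ϖ)`, exponent `p` (`s44e_Q4` is the diagonal);
* `s59n_Q4Node`  : the same at the nodes of the chart `{j regular}` only;
* `s59n_GlobConcl` : the output of (G6): `f = Gg ^ p · ϖ ^ a · h`, `h` a unit of `V_∞`, of `V_0`, node-avoiding.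
-/
import Fermat.Agent.Lib.S44.Iface
import Fermat.Agent.Lib.S34.CChart
import Fermat.Agent.Lib.S33.SSDatum

set_option autoImplicit false
set_option linter.style.haveILetI false
set_option linter.unusedSectionVars false
set_option synthInstance.maxHeartbeats 400000

namespace Fermat.Agent.Lib.S59

open ModularCurve HahnSeries AlgebraicCurve Fermat.Agent.Lib.S18 Fermat.Agent.Lib.S28
  Fermat.Agent.Lib.S29 Fermat.Agent.Lib.S37 Fermat.Agent.Lib.FF Fermat.Agent.Lib.S34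
  Fermat.Agent.Lib.S35 Fermat.Agent.Lib.S33

noncomputable section

local notation "Kb" => AlgebraicClosure ℚ

section Local

variable (M q p : ℕ) [NeZero M] [hq : Fact q.Prime] (hqM : ¬ q ∣ M) (P : ValuationSubring Kb)

/-- **`x` is finite at `P`** (level `M * q`, exponent `p`). -/
def s59n_Finite (x : JZero (M * q)) : Prop :=
  ∃ Lx : IntermediateField ℚ Kb, FiniteDimensional ℚ ↥Lx ∧
    ∀ (L₀ : IntermediateField ℚ Kb) [FiniteDimensional ℚ ↥L₀] [Normal ℚ ↥L₀]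
      [IsDiscreteValuationRing ↥(s18q_A0 P L₀)] (ϖ : ↥(s18q_A0 P L₀)) (hϖ : Irreducible ϖ),
      Lx ≤ L₀ →
      ∃ h : s34m_F ↥L₀ (M * q),
        s33d_IsKumGen p x (s18q_incl (M * q) L₀ h) ∧
        h ∈ s34m_Vinf (s37r_G P L₀ ϖ hϖ) (M * q) ∧ h⁻¹ ∈ s34m_Vinf (s37r_G P L₀ ϖ hϖ) (M * q) ∧
        h ∈ s34m_Vzero (s37r_G P L₀ ϖ hϖ) (algebraMap ↥L₀ Kb) M q hq.out hqM ∧
        h⁻¹ ∈ s34m_Vzero (s37r_G P L₀ ϖ hϖ) (algebraMap ↥L₀ Kb) M q hq.out hqM ∧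
        ∀ Q ∈ s33t_nodeN M q hqM P L₀ ϖ hϖ, Q.ord h = 0

variable (Z : IntermediateField ℚ Kb) [IsDiscreteValuationRing ↥(s18q_A0 P Z)]
  (ϖ : ↥(s18q_A0 P Z)) (hϖ : Irreducible ϖ)

/-- exact (Q4) for `f` on the chart `S`, over `(Z, ϖ)`, exponent `p`. -/
def s59n_Q4 (S : Set (Place ↥Z (s34m_F ↥Z (M * q)))) (f : s34m_F ↥Z (M * q)) : Prop :=
  ∀ 𝔫 : Ideal (s34x_ring (s34x_infRing
      (s34m_VV (s37r_G P Z ϖ hϖ) (algebraMap ↥Z Kb) M q hq.out hqM)) S),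
    𝔫.IsMaximal →
    s34x_const (s34x_infRing (s34m_VV (s37r_G P Z ϖ hϖ) (algebraMap ↥Z Kb) M q hq.out hqM)) S
      (((s37r_G P Z ϖ hϖ).ϖ : (s37r_G P Z ϖ hϖ).A) : ↥Z)
      (s34x_inf_const_mem (s34m_VV (s37r_G P Z ϖ hϖ) (algebraMap ↥Z Kb) M q hq.out hqM)
        (s37r_G P Z ϖ hϖ).A
        (s34c_const_mem_VV (s37r_G P Z ϖ hϖ) (algebraMap ↥Z Kb) M q hq.out hqM)
        (s37r_G P Z ϖ hϖ).ϖ) ∈ 𝔫 →
    ∃ Φ : s34m_F ↥Z (M * q), Φ ≠ 0 ∧
      ∀ Q ∈ S, s34f_through (s34x_infRing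
          (s34m_VV (s37r_G P Z ϖ hϖ) (algebraMap ↥Z Kb) M q hq.out hqM)) S 𝔫 Q →
        Q.ord f = ((p : ℕ) : ℤ) * Q.ord Φ

/-- exact (Q4) for `f` AT THE NODES of the chart `{j regular}`, over `(Z, ϖ)`, exponent `p` (all that the tame (★)
needs). -/
def s59n_Q4Node (f : s34m_F ↥Z (M * q)) : Prop :=
  ∀ s : s33s_Node (s34m_VV (s37r_G P Z ϖ hϖ) (algebraMap ↥Z Kb) M q hq.out hqM)
      (s34m_unif (s37r_G P Z ϖ hϖ) (M * q)) (s18_chart1 (L₀ := ↥Z) (s18g_jF (K := ↥Z) (M * q))),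
    ∃ Φ : s34m_F ↥Z (M * q), Φ ≠ 0 ∧
      ∀ Q ∈ s18_chart1 (L₀ := ↥Z) (s18g_jF (K := ↥Z) (M * q)),
        s34f_through (s34x_infRing
          (s34m_VV (s37r_G P Z ϖ hϖ) (algebraMap ↥Z Kb) M q hq.out hqM))
          (s18_chart1 (L₀ := ↥Z) (s18g_jF (K := ↥Z) (M * q))) s.1 Q →
        Q.ord f = ((p : ℕ) : ℤ) * Q.ord Φ

/-- the output of (G6) for `f` over `(Z, ϖ)`, exponent `p`. -/
def s59n_GlobConcl (f : s34m_F ↥Z (M * q)) : Prop :=
  ∃ (Gg h : s34m_F ↥Z (M * q)) (a : ℤ), Gg ≠ 0 ∧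
    f = Gg ^ p * (s34m_unif (s37r_G P Z ϖ hϖ) (M * q) ^ a * h) ∧
    (∀ i, h ∈ s34m_VV (s37r_G P Z ϖ hϖ) (algebraMap ↥Z Kb) M q hq.out hqM i ∧
      h⁻¹ ∈ s34m_VV (s37r_G P Z ϖ hϖ) (algebraMap ↥Z Kb) M q hq.out hqM i) ∧
    ∀ Q ∈ s33s_nodePlaces (s34m_VV (s37r_G P Z ϖ hϖ) (algebraMap ↥Z Kb) M q hq.out hqM)
      (s34m_unif (s37r_G P Z ϖ hϖ) (M * q))
      (s18_chart1 (L₀ := ↥Z) (s18g_jF (K := ↥Z) (M * q))), Q.ord h = 0

end Local

end

end Fermat.Agent.Lib.S59
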