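/-
Programme (R) / node [MP] (Mazur's principle), leaf [B] = RED (helper9, prefix `s59m_`): **THE VOCABULARY.**

Level `M q` (`q` prime, `q ∤ M`, `q` = the residue characteristic of the valuation ring `P` of `ℚ̄`), exponent `p`.

* `s59m_Toric M q p hqM P x` : `x ∈ J₀(M q)` is TORIC at `P`: over every sufficiently large finite normal `L₀` it has a
  Kummer generator `h` of exponent `p` which is a unit of `V_∞` and of `V_0`, has neither zero nor pole at the node
  places, and BOTH reductions of `h` (to the two components of the special fibre, each identified with `F̄_M` over the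
  residue field `κ₀` of `L₀`) are constants times `p`-th powers of elements of `F̄_M`;
* `s59m_Red` : the statement of the leaf [B]: a FINITE eigen-point (`s59n_Finite`) either produces a non-zero
  eigen-point at level `M` or is TORIC.
-/
import Fermat.Agent.Lib.S59.NDefs

set_option autoImplicit false
set_option linter.style.haveILetI false
set_option linter.unusedSectionVars false
set_option synthInstance.maxHeartbeats 400000

namespace Fermat.Agent.Lib.S59

open ModularCurve HahnSeries AlgebraicCurve Fermat.Agent.Lib.S18 Fermat.Agent.Lib.S28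
  Fermat.Agent.Lib.S29 Fermat.Agent.Lib.S37 Fermat.Agent.Lib.FF Fermat.Agent.Lib.S34
  Fermat.Agent.Lib.S35 Fermat.Agent.Lib.S33 Fermat.Agent.Lib.S44

noncomputable section

local notation "Kb" => AlgebraicClosure ℚ

/-- **`x` is toric at `P`** (level `M * q`, exponent `p`). -/
def s59m_Toric (M q p : ℕ) [NeZero M] [hq : Fact q.Prime] (hqM : ¬ q ∣ M) (P : ValuationSubring Kb)
    (x : JZero (M * q)) : Prop :=
  ∃ Lx : IntermediateField ℚ Kb, FiniteDimensional ℚ ↥Lx ∧
    ∀ (L₀ : IntermediateField ℚ Kb) [FiniteDimensional ℚ ↥L₀] [Normal ℚ ↥L₀]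
      [IsDiscreteValuationRing ↥(s18q_A0 P L₀)] (ϖ : ↥(s18q_A0 P L₀)) (hϖ : Irreducible ϖ),
      Lx ≤ L₀ →
      ∃ h : s34m_F ↥L₀ (M * q),
        s33d_IsKumGen p x (s18q_incl (M * q) L₀ h) ∧
        ∃ (hI : h ∈ s34m_Vinf (s37r_G P L₀ ϖ hϖ) (M * q))
          (hZ : h ∈ s34m_Vzero (s37r_G P L₀ ϖ hϖ) (algebraMap ↥L₀ Kb) M q hq.out hqM),
          h⁻¹ ∈ s34m_Vinf (s37r_G P L₀ ϖ hϖ) (M * q) ∧
          h⁻¹ ∈ s34m_Vzero (s37r_G P L₀ ϖ hϖ) (algebraMap ↥L₀ Kb) M q hq.out hqM ∧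
          (∀ Q ∈ s33t_nodeN M q hqM P L₀ ϖ hϖ, Q.ord h = 0) ∧
          (∃ (c : IsLocalRing.ResidueField ↥(s18q_A0 P L₀))
            (a₀ : LaurentSeries (IsLocalRing.ResidueField ↥(s18q_A0 P L₀))), c ≠ 0 ∧
            a₀ ∈ modularFunctionFieldFullC (IsLocalRing.ResidueField ↥(s18q_A0 P L₀)) M ∧
            s34m_redInf (s37r_G P L₀ ϖ hϖ) (M * q) ⟨h, hI⟩ = HahnSeries.C c * a₀ ^ p) ∧
          (∃ (c : IsLocalRing.ResidueField ↥(s18q_A0 P L₀))
            (a₀ : LaurentSeries (IsLocalRing.ResidueField ↥(s18q_A0 P L₀))), c ≠ 0 ∧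
            a₀ ∈ modularFunctionFieldFullC (IsLocalRing.ResidueField ↥(s18q_A0 P L₀)) M ∧
            s34m_redZero (s37r_G P L₀ ϖ hϖ) (algebraMap ↥L₀ Kb) M q hq.out hqM ⟨h, hZ⟩ =
              HahnSeries.C c * a₀ ^ p)

/-- **[B] = RED**: a finite eigen-point either gives a non-zero eigen-point at level `M` or is toric. -/
def s59m_Red : Prop :=
  ∀ (M : ℕ) [NeZero M] (q : ℕ) [Fact q.Prime] (hqM : ¬ q ∣ M), 5 ≤ q →
    ∀ (p : ℕ) [Fact p.Prime], p ≠ q →
    ∀ (P : ValuationSubring Kb), P.LiesOverPrime q →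
    ∀ (a : ℕ → ℤ) (B : Finset ℕ), (∀ r : ℕ, r.Prime → r ∣ M * q * p → r ∈ B) →
    ∀ x : JZero (M * q), s44i_Eig (M * q) p a B x → s59n_Finite M q p hqM P x →
      (∃ y : JZero M, y ≠ 0 ∧ s44i_Eig M p a B y) ∨ s59m_Toric M q p hqM P x

end

end Fermat.Agent.Lib.S59
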