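/-
Programme (R) / node [MP], family N (helper7, prefix `s59n_`): **THE VOCABULARY WITH A NODE FAMILY AS A PARAMETER** (needed for
the branch `q = 3`, `2 ∣ M`, where the chart is `{α t₂ regular}` and the node family is `s33t_nodeN_t2`).

* `s59n_FiniteN M q p hqM P N x` = `s59n_Finite` with the node family `N : s33t_NodeFam M q P` instead of `s33t_nodeN`;
* `s59n_ToricN M q p hqM P N x`  = helper9's `s59m_Toric` with the node family `N`;
* `s59n_finite_iff`, `s59n_toric_iff` : for `N = s33t_nodeN M q hqM P` these ARE `s59n_Finite`, `s59m_Toric` (`Iff.rfl`).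
-/
import Fermat.Agent.Lib.S59.MRedDefs
import Fermat.Agent.Lib.S33.TPPackT

set_option autoImplicit false
set_option linter.style.haveILetI false
set_option linter.unusedSectionVars false
set_option synthInstance.maxHeartbeats 400000

namespace Fermat.Agent.Lib.S59

open ModularCurve HahnSeries AlgebraicCurve Fermat.Agent.Lib.S18 Fermat.Agent.Lib.S28
  Fermat.Agent.Lib.S29 Fermat.Agent.Lib.S37 Fermat.Agent.Lib.FF Fermat.Agent.Lib.S34
  Fermat.Agent.Lib.S35 Fermat.Agent.Lib.S33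

noncomputable section

local notation "Kb" => AlgebraicClosure ℚ

variable (M q p : ℕ) [NeZero M] [hq : Fact q.Prime] (hqM : ¬ q ∣ M) (P : ValuationSubring Kb)
  (N : s33t_NodeFam M q P)

/-- **`x` is finite at `P`, node family `N`** (level `M * q`, exponent `p`). -/
def s59n_FiniteN (x : JZero (M * q)) : Prop :=
  ∃ Lx : IntermediateField ℚ Kb, FiniteDimensional ℚ ↥Lx ∧
    ∀ (L₀ : IntermediateField ℚ Kb) [FiniteDimensional ℚ ↥L₀] [Normal ℚ ↥L₀]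
      [IsDiscreteValuationRing ↥(s18q_A0 P L₀)] (ϖ : ↥(s18q_A0 P L₀)) (hϖ : Irreducible ϖ),
      Lx ≤ L₀ →
      ∃ h : s34m_F ↥L₀ (M * q),
        s33d_IsKumGen p x (s18q_incl (M * q) L₀ h) ∧
        h ∈ s34m_Vinf (s37r_G P L₀ ϖ hϖ) (M * q) ∧ h⁻¹ ∈ s34m_Vinf (s37r_G P L₀ ϖ hϖ) (M * q) ∧
        h ∈ s34m_Vzero (s37r_G P L₀ ϖ hϖ) (algebraMap ↥L₀ Kb) M q hq.out hqM ∧
        h⁻¹ ∈ s34m_Vzero (s37r_G P L₀ ϖ hϖ) (algebraMap ↥L₀ Kb) M q hq.out hqM ∧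
        ∀ Q ∈ N L₀ ϖ hϖ, Q.ord h = 0

/-- **`x` is toric at `P`, node family `N`** (level `M * q`, exponent `p`). -/
def s59n_ToricN (x : JZero (M * q)) : Prop :=
  ∃ Lx : IntermediateField ℚ Kb, FiniteDimensional ℚ ↥Lx ∧
    ∀ (L₀ : IntermediateField ℚ Kb) [FiniteDimensional ℚ ↥L₀] [Normal ℚ ↥L₀]
      [IsDiscreteValuationRing ↥(s18q_A0 P L₀)] (ϖ : ↥(s18q_A0 P L₀)) (hϖ : Irreducible ϖ),
      Lx ≤ L₀ →
      ∃ h : s34m_F ↥L₀ (M * q),
        s33d_IsKumGen p x (s18q_incl (M * q) L₀ h) ∧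
        ∃ (hI : h ∈ s34m_Vinf (s37r_G P L₀ ϖ hϖ) (M * q))
          (hZ : h ∈ s34m_Vzero (s37r_G P L₀ ϖ hϖ) (algebraMap ↥L₀ Kb) M q hq.out hqM),
          h⁻¹ ∈ s34m_Vinf (s37r_G P L₀ ϖ hϖ) (M * q) ∧
          h⁻¹ ∈ s34m_Vzero (s37r_G P L₀ ϖ hϖ) (algebraMap ↥L₀ Kb) M q hq.out hqM ∧
          (∀ Q ∈ N L₀ ϖ hϖ, Q.ord h = 0) ∧
          (∃ (c : IsLocalRing.ResidueField ↥(s18q_A0 P L₀))
            (a₀ : LaurentSeries (IsLocalRing.ResidueField ↥(s18q_A0 P L₀))), c ≠ 0 ∧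
            a₀ ∈ modularFunctionFieldFullC (IsLocalRing.ResidueField ↥(s18q_A0 P L₀)) M ∧
            s34m_redInf (s37r_G P L₀ ϖ hϖ) (M * q) ⟨h, hI⟩ = HahnSeries.C c * a₀ ^ p) ∧
          (∃ (c : IsLocalRing.ResidueField ↥(s18q_A0 P L₀))
            (a₀ : LaurentSeries (IsLocalRing.ResidueField ↥(s18q_A0 P L₀))), c ≠ 0 ∧
            a₀ ∈ modularFunctionFieldFullC (IsLocalRing.ResidueField ↥(s18q_A0 P L₀)) M ∧
            s34m_redZero (s37r_G P L₀ ϖ hϖ) (algebraMap ↥L₀ Kb) M q hq.out hqM ⟨h, hZ⟩ =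
              HahnSeries.C c * a₀ ^ p)

theorem s59n_finite_iff (x : JZero (M * q)) :
    s59n_Finite M q p hqM P x ↔ s59n_FiniteN M q p hqM P (s33t_nodeN M q hqM P) x := Iff.rfl

theorem s59n_toric_iff (x : JZero (M * q)) :
    s59m_Toric M q p hqM P x ↔ s59n_ToricN M q p hqM P (s33t_nodeN M q hqM P) x := Iff.rfl

end

end Fermat.Agent.Lib.S59
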