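/-
Programme (R2) / node [MP-two] (helper7), THE `t₃`-CHAIN AT THE LEVEL PRIME `2` (`3 ∣ M`), part 1:
**(NI) AND THE COMPARISON FOR THE CHARTS OF THE HAUPTMODUL `t₃`**, by reduction to the `j`-charts.
`t₃`-twin of `Lib/S33/SSNoInfT.lean` (helper6): the relation is `j t³ = (t + 27)(t + 243)³`, so
`g = (1 + 27 t⁻¹)(1 + 243 t⁻¹)³ = j t⁻¹` (exponent `1` in place of `g³ = j t⁻¹`).

* `s33n_no_node_transfer_t3` : (NI) for the chart `{j ≠ 0}` implies (NI) for the chart `{t ≠ 0}`;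
* `s33n_rel_t3`, `s33n_t3_ne_zero`, **`s33n_no_node_at_infty_t3`**, **`s33n_node_chart2_to_chart1_t3`**,
  **`s33n_nodePlaces_chart2_subset_t3`**.
-/
import Fermat.Agent.Lib.S33.SSNoInfT

set_option autoImplicit false
set_option linter.style.haveILetI false
set_option linter.unusedSectionVars false

noncomputable section

namespace Fermat.Agent.Lib.S33

open ModularCurve AlgebraicCurve HahnSeries Polynomial Fermat.Agent.Lib.FF Fermat.Agent.Lib.S18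
  Fermat.Agent.Lib.S28 Fermat.Agent.Lib.S34 Fermat.Agent.Lib.S37

local notation "Kb" => AlgebraicClosure ℚ

section Transfer

variable {L₀ 𝓕 : Type*} [Field L₀] [Field 𝓕] [Algebra L₀ 𝓕]
variable (O : Bool → ValuationSubring 𝓕) (π : 𝓕)

/-- **(NI) transfers from the `j`-chart to the `t`-chart** when `j t³ = (t + 27)(t + 243)³`. -/
theorem s33n_no_node_transfer_t3 (j t : 𝓕) (hj0 : j ≠ 0) (ht0 : t ≠ 0)
    (hrel : j * t ^ 3 = (t + 27) * (t + 243) ^ 3) (hjO : j⁻¹ ∈ s34x_infRing O)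
    (htO : t⁻¹ ∈ s34x_infRing O)
    (hfin : ∀ b : 𝓕, b ≠ 0 → {Q : Place L₀ 𝓕 | Q.ord b < 0}.Finite)
    (hNI : ∀ (𝔪 : Ideal (s34x_ring (s34x_infRing O) (s18_chart2 (L₀ := L₀) j))) [𝔪.IsPrime],
      s33s_comp O π (s18_chart2 (L₀ := L₀) j) true ≤ 𝔪 →
      s33s_comp O π (s18_chart2 (L₀ := L₀) j) false ≤ 𝔪 →
      ∀ h : j⁻¹ ∈ s34x_ring (s34x_infRing O) (s18_chart2 (L₀ := L₀) j),
        (⟨j⁻¹, h⟩ : s34x_ring (s34x_infRing O) (s18_chart2 (L₀ := L₀) j)) ∉ 𝔪)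
    (𝔫 : Ideal (s34x_ring (s34x_infRing O) (s18_chart2 (L₀ := L₀) t))) [h𝔫 : 𝔫.IsPrime]
    (h1 : s33s_comp O π (s18_chart2 (L₀ := L₀) t) true ≤ 𝔫)
    (h2 : s33s_comp O π (s18_chart2 (L₀ := L₀) t) false ≤ 𝔫) :
    (⟨t⁻¹, ⟨htO, fun _ hQ => hQ⟩⟩ : s34x_ring (s34x_infRing O) (s18_chart2 (L₀ := L₀) t)) ∉ 𝔫 := by
  classical
  intro hv
  have hv0 : t⁻¹ ≠ 0 := inv_ne_zero ht0
  have hvB : t⁻¹ ∈ s34x_ring (s34x_infRing O) (s18_chart2 (L₀ := L₀) t) :=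
    ⟨htO, fun _ hQ => hQ⟩
  -- the function `g = (1 + 27 t⁻¹)(1 + 243 t⁻¹)³ = j t⁻¹`
  set g₁ : 𝓕 := 1 + 27 * t⁻¹ with hg₁def
  set g₂ : 𝓕 := 1 + 243 * t⁻¹ with hg₂def
  set g : 𝓕 := g₁ * g₂ ^ 3 with hgdef
  have hg₁B : g₁ ∈ s34x_ring (s34x_infRing O) (s18_chart2 (L₀ := L₀) t) :=
    add_mem (one_mem _) (mul_mem (ofNat_mem _ 27) hvB)
  have hg₂B : g₂ ∈ s34x_ring (s34x_infRing O) (s18_chart2 (L₀ := L₀) t) :=
    add_mem (one_mem _) (mul_mem (ofNat_mem _ 243) hvB)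
  have hgB : g ∈ s34x_ring (s34x_infRing O) (s18_chart2 (L₀ := L₀) t) :=
    mul_mem hg₁B (pow_mem hg₂B 3)
  have hg3 : g = j * t⁻¹ := by
    have e₁ : g₁ = (t + 27) * t⁻¹ := by rw [hg₁def]; field_simp
    have e₂ : g₂ = (t + 243) * t⁻¹ := by rw [hg₂def]; field_simp
    have e3 : j = (t + 27) * (t + 243) ^ 3 * (t⁻¹) ^ 3 := by
      rw [← hrel]
      field_simp
    rw [hgdef, e₁, e₂, e3]
    ring
  have hg0 : g ≠ 0 := by
    rw [hg3]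
    exact mul_ne_zero hj0 hv0
  have hg₁𝔫 : (⟨g₁, hg₁B⟩ : s34x_ring (s34x_infRing O) (s18_chart2 (L₀ := L₀) t)) ∉ 𝔫 := by
    intro hg𝔫
    have e : (⟨g₁, hg₁B⟩ : s34x_ring (s34x_infRing O) (s18_chart2 (L₀ := L₀) t)) =
        1 + ⟨27, ofNat_mem _ 27⟩ * ⟨t⁻¹, hvB⟩ := Subtype.ext rfl
    rw [e] at hg𝔫
    have := 𝔫.sub_mem hg𝔫 (𝔫.mul_mem_left ⟨27, ofNat_mem _ 27⟩ hv)
    rw [add_sub_cancel_right] at this
    exact h𝔫.ne_top ((Ideal.eq_top_iff_one 𝔫).mpr this)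
  have hg₂𝔫 : (⟨g₂, hg₂B⟩ : s34x_ring (s34x_infRing O) (s18_chart2 (L₀ := L₀) t)) ∉ 𝔫 := by
    intro hg𝔫
    have e : (⟨g₂, hg₂B⟩ : s34x_ring (s34x_infRing O) (s18_chart2 (L₀ := L₀) t)) =
        1 + ⟨243, ofNat_mem _ 243⟩ * ⟨t⁻¹, hvB⟩ := Subtype.ext rfl
    rw [e] at hg𝔫
    have := 𝔫.sub_mem hg𝔫 (𝔫.mul_mem_left ⟨243, ofNat_mem _ 243⟩ hv)
    rw [add_sub_cancel_right] at this
    exact h𝔫.ne_top ((Ideal.eq_top_iff_one 𝔫).mpr this)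
  have hg𝔫 : (⟨g, hgB⟩ : s34x_ring (s34x_infRing O) (s18_chart2 (L₀ := L₀) t)) ∉ 𝔫 := by
    intro hg𝔫
    have e : (⟨g, hgB⟩ : s34x_ring (s34x_infRing O) (s18_chart2 (L₀ := L₀) t)) =
        ⟨g₁, hg₁B⟩ * ⟨g₂, hg₂B⟩ ^ 3 := Subtype.ext rfl
    rw [e] at hg𝔫
    rcases h𝔫.mem_or_mem hg𝔫 with h | h
    · exact hg₁𝔫 h
    · exact hg₂𝔫 (h𝔫.mem_of_pow_mem 3 h)
  -- `B₂(j) ⊆ B₂(t)[1/g]`
  have H : ∀ b ∈ s34x_ring (s34x_infRing O) (s18_chart2 (L₀ := L₀) j),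
      ∃ k : ℕ, g ^ k * b ∈ s34x_ring (s34x_infRing O) (s18_chart2 (L₀ := L₀) t) := by
    intro b hb
    by_cases hb0 : b = 0
    · exact ⟨0, by rw [hb0, mul_zero]; exact (s34x_ring _ _).zero_mem⟩
    have hfinb := hfin b hb0
    set k : ℕ := hfinb.toFinset.sup (fun Q => (-(Q.ord b)).toNat) with hk
    have hkQ : ∀ Q : Place L₀ 𝓕, Q.ord b < 0 → -(Q.ord b) ≤ (k : ℤ) := by
      intro Q hQ
      have hQT : Q ∈ hfinb.toFinset := by rw [Set.Finite.mem_toFinset]; exact hQ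
      have h1 : (-(Q.ord b)).toNat ≤ k := Finset.le_sup (f := fun Q => (-(Q.ord b)).toNat) hQT
      have h2 : -(Q.ord b) ≤ ((-(Q.ord b)).toNat : ℤ) := Int.self_le_toNat _
      exact h2.trans (by exact_mod_cast h1)
    refine ⟨k, mul_mem (pow_mem hgB.1 k) hb.1, fun Q hQ => ?_⟩
    have hgQ : g ∈ Q.toValuationSubring := hgB.2 Q hQ
    by_cases hneg : Q.ord b < 0
    · -- a pole of `b`: a zero of `j`, hence of `g`
      have hjQ : ¬ j⁻¹ ∈ Q.toValuationSubring := by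
        intro h
        have := (ff_mem_iff_ord_nonneg Q hb0).mp (hb.2 Q h)
        omega
      have hordj : 0 < Q.ord j := by
        by_contra hcon
        apply hjQ
        rw [ff_mem_iff_ord_nonneg Q (inv_ne_zero hj0), Q.ord_inv]
        omega
      have hordv : 0 ≤ Q.ord t⁻¹ := (ff_mem_iff_ord_nonneg Q hv0).mp hQ
      have h3 : Q.ord g = Q.ord j + Q.ord t⁻¹ := by
        have := congrArg Q.ord hg3
        rw [Q.ord_mul hj0 hv0] at this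
        exact this
      have hordg : 1 ≤ Q.ord g := by omega
      rw [ff_mem_iff_ord_nonneg Q (mul_ne_zero (pow_ne_zero _ hg0) hb0),
        Q.ord_mul (pow_ne_zero _ hg0) hb0, s33n_ord_pow]
      have h1 := hkQ Q hneg
      have h2 : (k : ℤ) * 1 ≤ (k : ℤ) * Q.ord g :=
        mul_le_mul_of_nonneg_left hordg (Int.natCast_nonneg k)
      linarith
    · have hbQ : b ∈ Q.toValuationSubring := (ff_mem_iff_ord_nonneg Q hb0).mpr (not_lt.mp hneg)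
      exact Q.toValuationSubring.mul_mem _ _ (pow_mem hgQ k) hbQ
  -- contract and conclude
  set 𝔞 := s33n_contractG O (s18_chart2 (L₀ := L₀) j) (s18_chart2 (L₀ := L₀) t) g hgB H 𝔫 with h𝔞
  have hne : 𝔞 ≠ ⊤ := s33n_contractG_ne_top O _ _ g hgB H 𝔫 hg𝔫
  obtain ⟨𝔪, h𝔪, hle⟩ := Ideal.exists_le_maximal 𝔞 hne
  haveI := h𝔪.isPrime
  have hjB : j⁻¹ ∈ s34x_ring (s34x_infRing O) (s18_chart2 (L₀ := L₀) j) :=
    ⟨hjO, fun _ hQ => hQ⟩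
  refine hNI 𝔪 ((s33n_comp_le_contractG O π _ _ g hgB H 𝔫 true h1).trans hle)
    ((s33n_comp_le_contractG O π _ _ g hgB H 𝔫 false h2).trans hle) hjB (hle ?_)
  refine ⟨1, ⟨t⁻¹, hvB⟩, hv, ?_⟩
  show t⁻¹ = g ^ 1 * j⁻¹
  rw [pow_one, hg3]
  field_simp

end Transfer

section ModularT

variable {K₀ : Type*} [Field K₀] [Algebra ℚ K₀] {κ : Type*} [Field κ] (G : s18g_GaussData K₀ κ)
variable (φ : K₀ →+* Kb) (M q : ℕ) [NeZero M] [NeZero q]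

/-- `j t³ = (t + 27)(t + 243)³` in the function field, for `t` with `q`-expansion `t₃`. -/
theorem s33n_rel_t3 (N : ℕ) [NeZero N] (t : s34m_F K₀ N)
    (ht : (t : LaurentSeries K₀) = s18u_t3 K₀) :
    s18g_jF (K := K₀) N * t ^ 3 = (t + 27) * (t + 243) ^ 3 := by
  apply Subtype.ext
  have h27 : (((27 : s34m_F K₀ N)) : LaurentSeries K₀) = 27 := rfl
  have h243 : (((243 : s34m_F K₀ N)) : LaurentSeries K₀) = 243 := rfl
  rw [MulMemClass.coe_mul, MulMemClass.coe_mul, SubmonoidClass.coe_pow, SubmonoidClass.coe_pow,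
    AddMemClass.coe_add, AddMemClass.coe_add, s18g_coe_jF, ht, h27, h243]
  exact s18u_t3_rel_j K₀

theorem s33n_t3_ne_zero (N : ℕ) [NeZero N] (t : s34m_F K₀ N)
    (ht : (t : LaurentSeries K₀) = s18u_t3 K₀) : t ≠ 0 := by
  intro h0
  apply s18b_t3_ne_zero K₀
  rw [← ht, h0]; rfl

/-- **(NI) for the chart `{t ≠ 0}` of the Hauptmodul `t₃`.** -/
theorem s33n_no_node_at_infty_t3 [CharP κ q] (hq : q.Prime) (hqM : ¬ q ∣ M)
    (t : s34m_F K₀ (M * q)) (ht : (t : LaurentSeries K₀) = s18u_t3 K₀)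
    (htO : t⁻¹ ∈ s34x_infRing (s34m_VV G φ M q hq hqM))
    (𝔫 : Ideal (s34x_ring (s34x_infRing (s34m_VV G φ M q hq hqM)) (s18_chart2 (L₀ := K₀) t)))
    [h𝔫 : 𝔫.IsPrime]
    (h1 : s33s_comp (s34m_VV G φ M q hq hqM) (s34m_unif G (M * q)) (s18_chart2 (L₀ := K₀) t) true
      ≤ 𝔫)
    (h2 : s33s_comp (s34m_VV G φ M q hq hqM) (s34m_unif G (M * q)) (s18_chart2 (L₀ := K₀) t) false
      ≤ 𝔫) :
    (⟨t⁻¹, ⟨htO, fun _ hQ => hQ⟩⟩ :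
      s34x_ring (s34x_infRing (s34m_VV G φ M q hq hqM)) (s18_chart2 (L₀ := K₀) t)) ∉ 𝔫 :=
  s33n_no_node_transfer_t3 (s34m_VV G φ M q hq hqM) (s34m_unif G (M * q))
    (s18g_jF (K := K₀) (M * q)) t (s18g_jF_ne_zero (M * q)) (s33n_t3_ne_zero (M * q) t ht)
    (s33n_rel_t3 (M * q) t ht) (s34d2_j_inv_mem_O G φ M q hq hqM) htO
    (fun b hb => s33n_finite_poles φ (M * q) b hb)
    (fun 𝔪 _ hm1 hm2 _ => s33n_no_node_at_infty G φ M q hq hqM 𝔪 hm1 hm2) 𝔫 h1 h2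

/-- **COMPARISON for the `t₃`-charts.** -/
theorem s33n_node_chart2_to_chart1_t3 [CharP κ q] (hq : q.Prime) (hqM : ¬ q ∣ M)
    (t : s34m_F K₀ (M * q)) (ht : (t : LaurentSeries K₀) = s18u_t3 K₀)
    (htO : t⁻¹ ∈ s34x_infRing (s34m_VV G φ M q hq hqM))
    (𝔫₂ : Ideal (s34x_ring (s34x_infRing (s34m_VV G φ M q hq hqM)) (s18_chart2 (L₀ := K₀) t)))
    (h𝔫₂ : s33s_IsNode (s34m_VV G φ M q hq hqM) (s34m_unif G (M * q))
      (s18_chart2 (L₀ := K₀) t) 𝔫₂) :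
    ∃ 𝔫₁ : Ideal (s34x_ring (s34x_infRing (s34m_VV G φ M q hq hqM))
        (s18_chart1 (L₀ := K₀) t)),
      s33s_IsNode (s34m_VV G φ M q hq hqM) (s34m_unif G (M * q)) (s18_chart1 (L₀ := K₀) t) 𝔫₁ ∧
      ∀ Q ∈ s18_chart2 (L₀ := K₀) t,
        s34f_through (s34x_infRing (s34m_VV G φ M q hq hqM)) (s18_chart2 (L₀ := K₀) t) 𝔫₂ Q →
        Q ∈ s18_chart1 (L₀ := K₀) t ∧
          s34f_through (s34x_infRing (s34m_VV G φ M q hq hqM)) (s18_chart1 (L₀ := K₀) t) 𝔫₁ Q := by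
  haveI := h𝔫₂.1.isPrime
  exact s33n_node_chart2_to_chart1_abs (s34m_VV G φ M q hq hqM) (s34m_unif G (M * q)) t
    (s33n_t3_ne_zero (M * q) t ht) htO (fun b hb => s33n_finite_poles φ (M * q) b hb) 𝔫₂ h𝔫₂
    (s33n_no_node_at_infty_t3 G φ M q hq hqM t ht htO 𝔫₂ h𝔫₂.2.1 h𝔫₂.2.2)

/-- **All node places of the `t₃`-charts lie on chart 1.** -/
theorem s33n_nodePlaces_chart2_subset_t3 [CharP κ q] (hq : q.Prime) (hqM : ¬ q ∣ M)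
    (t : s34m_F K₀ (M * q)) (ht : (t : LaurentSeries K₀) = s18u_t3 K₀)
    (htO : t⁻¹ ∈ s34x_infRing (s34m_VV G φ M q hq hqM)) :
    s33s_nodePlaces (s34m_VV G φ M q hq hqM) (s34m_unif G (M * q)) (s18_chart2 (L₀ := K₀) t) ⊆
      s33s_nodePlaces (s34m_VV G φ M q hq hqM) (s34m_unif G (M * q))
        (s18_chart1 (L₀ := K₀) t) := by
  rintro Q ⟨hQ2, 𝔫₂, h𝔫₂, hth⟩
  obtain ⟨𝔫₁, h𝔫₁, h⟩ := s33n_node_chart2_to_chart1_t3 G φ M q hq hqM t ht htO 𝔫₂ h𝔫₂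
  obtain ⟨hQ1, hth1⟩ := h Q hQ2 hth
  exact ⟨hQ1, 𝔫₁, h𝔫₁, hth1⟩

end ModularT

end Fermat.Agent.Lib.S33
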