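/-
P-AT-P (S33 programme, private branch), brick **[SEP-ss]** part 15 (helper9): **`SuperCritical_Σ` for
the model at level `M p`, `p = 2`, `3 ∣ M`** (charts of the level-`M p` function `t` with
`q`-expansion `t₃`), and its contract form `s33z_SuperCritical Z`.

* `s33k_ss_superCritical_two` : the `t₃`-twin of `s33k_ss_superCritical_five` (node hypotheses
  `hN1`, `hN2` on the two charts of `t`);
* `s33k_ss_superCritical_two'` : the same in the vocabulary of `SSPlace.lean`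
  (`s33s_nodePlaces … (chart1 t) ∪ s33s_nodePlaces … (chart2 t) ⊆ N`), `hfull` discharged;
* `s33k_ss_superCritical_Z_two` : `s33z_SuperCritical Z` for every Σ-datum over `s33i_datum G M …` on
  `s34m_F K₀ (M p)` with `Z.Ci.O = V_∞`, `Z.Cz.O = V_0` and `Z.N` containing the node places of both
  `t`-charts.
-/
import Fermat.Agent.Lib.S33.KumPSsBase
import Fermat.Agent.Lib.S33.KumPSsBridge
import Fermat.Agent.Lib.S34.DTwoThree

set_option autoImplicit false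
set_option linter.unusedSectionVars false
set_option linter.style.haveILetI false

noncomputable section

namespace Fermat.Agent.Lib.S33

open ModularCurve AlgebraicCurve Polynomial IntermediateField Fermat.Agent.Lib.FF
  Fermat.Agent.Lib.S18 Fermat.Agent.Lib.S37 Fermat.Agent.Lib.S34 IsLocalRing

local notation "Kb" => AlgebraicClosure ℚ

/-- **`SuperCritical_Σ` for the model at level `M p`, `p = 2`, `3 ∣ M`** (charts of `t = α t₃`). -/
theorem s33k_ss_superCritical_two (M p : ℕ) [NeZero M] [NeZero p] (hp : p.Prime)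
    (hpM : ¬ p ∣ M) (hp2 : p = 2) (h3M : 3 ∣ M)
    (K₀ : Type) [Field K₀] [NumberField K₀] (φ : K₀ →+* Kb)
    (κ : Type) [Field κ] [CharP κ p] [PerfectField κ]
    (G : s18g_GaussData K₀ κ) [IsDiscreteValuationRing G.A] (hπ : Function.Surjective G.π)
    (ε εinv : G.A) (hε : ε * εinv = 1) (e : ℕ)
    (hpϖ : (p : K₀) = ((G.ϖ : G.A) : K₀) ^ e * (ε : K₀))
    (t : s34m_F K₀ (M * p)) (ht : (t : LaurentSeries K₀) = s18u_t3 K₀)
    (N : Set (Place K₀ (s34m_F K₀ (M * p))))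
    (hN1 : ∀ 𝔫 : Ideal (s34x_ring (s34x_infRing (s34m_VV G φ M p hp hpM))
        (s18_chart1 (L₀ := K₀) t)), 𝔫.IsMaximal →
      s33k_ss_compThrough (s34m_VV G φ M p hp hpM) _ (s34m_unif G (M * p)) 𝔫 true →
      s33k_ss_compThrough (s34m_VV G φ M p hp hpM) _ (s34m_unif G (M * p)) 𝔫 false →
      ∀ Q ∈ s18_chart1 (L₀ := K₀) t,
        s34f_through (s34x_infRing (s34m_VV G φ M p hp hpM)) _ 𝔫 Q → Q ∈ N)
    (hN2 : ∀ 𝔫 : Ideal (s34x_ring (s34x_infRing (s34m_VV G φ M p hp hpM))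
        (s18_chart2 (L₀ := K₀) t)), 𝔫.IsMaximal →
      s33k_ss_compThrough (s34m_VV G φ M p hp hpM) _ (s34m_unif G (M * p)) 𝔫 true →
      s33k_ss_compThrough (s34m_VV G φ M p hp hpM) _ (s34m_unif G (M * p)) 𝔫 false →
      ∀ Q ∈ s18_chart2 (L₀ := K₀) t,
        s34f_through (s34x_infRing (s34m_VV G φ M p hp hpM)) _ 𝔫 Q → Q ∈ N)
    (f : s34m_F K₀ (M * p)) (a : ℕ) (ha : p * e < (p - 1) * a)
    (hdiv : ∀ Q : Place K₀ (s34m_F K₀ (M * p)), (p : ℤ) ∣ Q.ord f)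
    (hNf : ∀ Q ∈ N, Q.ord f = 0)
    (hf1 : ∃ y ∈ s34x_infRing (s34m_VV G φ M p hp hpM),
      f - 1 = algebraMap K₀ (s34m_F K₀ (M * p)) ((G.ϖ : G.A) : K₀) ^ a * y) :
    ∃ (c : K₀) (x : s34m_F K₀ (M * p)), c ≠ 0 ∧ x ≠ 0 ∧
      f = algebraMap K₀ (s34m_F K₀ (M * p)) c * x ^ p := by
  haveI : Fact p.Prime := ⟨hp⟩
  haveI : PerfectRing κ p := inferInstance
  have hT : s18g_HT κ M := s18t_indep_j p M hpM κ
  have hdegM : s18g_HDeg K₀ M := fun n b hb hn => s18g_exists_relation M φ hn b hb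
  have hdeg : s34m_HDeg K₀ M p := fun b hb y => s34r_deg_spanning φ M p hp hpM b hb y
  have hp3 : p ≠ 3 := by omega
  haveI : FFGen K₀ (s18g_jF (K := K₀) (M * p)) :=
    s18b_ffGen_jF (M * p) (fun _ b hb hn => s18g_exists_relation (M * p) φ hn b hb)
  obtain ⟨tM, htM, ⟨hwV, hred⟩, hwinvV, hgen, hgeninv, hwt, -, hgenN, -, -, -, hα, hα'⟩ :=
    s34m_base_t3 G φ M p hp hpM h3M hp3
  haveI := hgen
  haveI := hgeninv
  have hwN : heckeAlphaBar K₀ M p tM = t := Subtype.ext (by rw [hwt, ht])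
  haveI : FFGen K₀ t := hwN ▸ hgenN
  have htM0 : tM ≠ 0 := by
    intro h0
    apply s18b_t3_ne_zero K₀
    rw [← htM, h0]; rfl
  have hFM : ∀ f ∈ laurentBaseChange K₀ (modularFunctionFieldFull M), f ∈ s18g_Frac G :=
    fun _ hf => s18g_baseChange_mem_Frac G M hf
  have hred' : ((s18g_redF G M hFM hT hdegM ⟨tM, hwV⟩ : ↥(modularFunctionFieldFullC κ M)) :
      LaurentSeries κ) = s18u_t3 κ := hred
  have hclaim : ∀ P : Place K₀ (s34m_F K₀ (M * p)),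
      (0 ≤ P.ord t → 0 ≤ P.ord (heckeBetaBar K₀ M p tM)) ∧
      (P.ord t ≤ 0 → P.ord (heckeBetaBar K₀ M p tM) ≤ 0) := by
    intro P
    rw [← hwN]
    exact s34e_cusp_hclaim_t3 G φ M p hp hpM hp3 tM htM P
  exact s33k_ss_superCritical_base G φ M p hp hpM hdeg hT hdegM tM htM0 hwV hwinvV
    (by rw [hred']; exact s37b_coord_t3 κ p)
    (by intro τ; rw [hred']; exact s18u_coeffMap_t3 _)
    (s34dt_hmain_t3 M p hpM K₀ φ κ G hπ hT hdegM hp2 h3M tM htM)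
    (s34dt_hmain_t3_inv M p hpM K₀ φ κ G hπ hT hdegM hp2 h3M tM htM)
    t hwN (hwN ▸ hα) (hwN ▸ hα')
    (s34e_ch_alpha₁' G φ M p hp hpM tM t hwN)
    (s34e_ch_beta₁' G φ M p hp hpM htM0 t hwN hclaim)
    (s34e_ch_alpha₂' G φ M p hp hpM tM t hwN)
    (s34e_ch_beta₂' G φ M p hp hpM htM0 t hwN hclaim)
    ε εinv hε e hpϖ (s33k_ss_fullConst φ (M * p)) N hN1 hN2 f a ha hdiv hNf hf1

/-- `s33k_ss_superCritical_two` with the node hypothesis in the vocabulary of `SSPlace.lean`. -/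
theorem s33k_ss_superCritical_two' (M p : ℕ) [NeZero M] [NeZero p] (hp : p.Prime)
    (hpM : ¬ p ∣ M) (hp2 : p = 2) (h3M : 3 ∣ M)
    (K₀ : Type) [Field K₀] [NumberField K₀] (φ : K₀ →+* Kb)
    (κ : Type) [Field κ] [CharP κ p] [PerfectField κ]
    (G : s18g_GaussData K₀ κ) [IsDiscreteValuationRing G.A] (hπ : Function.Surjective G.π)
    (ε εinv : G.A) (hε : ε * εinv = 1) (e : ℕ)
    (hpϖ : (p : K₀) = ((G.ϖ : G.A) : K₀) ^ e * (ε : K₀))
    (t : s34m_F K₀ (M * p)) (ht : (t : LaurentSeries K₀) = s18u_t3 K₀)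
    (N : Set (Place K₀ (s34m_F K₀ (M * p))))
    (hN1 : s33s_nodePlaces (s34m_VV G φ M p hp hpM) (s34m_unif G (M * p))
      (s18_chart1 (L₀ := K₀) t) ⊆ N)
    (hN2 : s33s_nodePlaces (s34m_VV G φ M p hp hpM) (s34m_unif G (M * p))
      (s18_chart2 (L₀ := K₀) t) ⊆ N)
    (f : s34m_F K₀ (M * p)) (a : ℕ) (ha : p * e < (p - 1) * a)
    (hdiv : ∀ Q : Place K₀ (s34m_F K₀ (M * p)), (p : ℤ) ∣ Q.ord f)
    (hNf : ∀ Q ∈ N, Q.ord f = 0)
    (hf1 : ∃ y ∈ s34x_infRing (s34m_VV G φ M p hp hpM),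
      f - 1 = algebraMap K₀ (s34m_F K₀ (M * p)) ((G.ϖ : G.A) : K₀) ^ a * y) :
    ∃ (c : K₀) (x : s34m_F K₀ (M * p)), c ≠ 0 ∧ x ≠ 0 ∧
      f = algebraMap K₀ (s34m_F K₀ (M * p)) c * x ^ p := by
  refine s33k_ss_superCritical_two M p hp hpM hp2 h3M K₀ φ κ G hπ ε εinv hε e hpϖ t ht N
    ?_ ?_ f a ha hdiv hNf hf1
  · intro 𝔫 h𝔫 h1 h2 Q hQ hth
    exact hN1 ⟨hQ, 𝔫, ⟨h𝔫, h1, h2⟩, hth⟩
  · intro 𝔫 h𝔫 h1 h2 Q hQ hth
    exact hN2 ⟨hQ, 𝔫, ⟨h𝔫, h1, h2⟩, hth⟩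

section Bridge

variable (M p : ℕ) [NeZero M] [hp : Fact p.Prime] (hpM : ¬ p ∣ M) (hp2 : p = 2) (h3M : 3 ∣ M)
variable {K₀ : Type} [Field K₀] [NumberField K₀] (φ : K₀ →+* Kb)
variable {κ : Type} [Field κ] [CharP κ p] [PerfectField κ]
variable (G : s18g_GaussData K₀ κ) [IsDiscreteValuationRing G.A]
variable (hT : s18g_HT κ M) (hdegM : s18g_HDeg K₀ M) (hπ : Function.Surjective G.π)
variable (e : ℕ) (ε : K₀) (he : 0 < e) (hε : ε ∈ G.A) (hεinv : ε⁻¹ ∈ G.A) (hε0 : ε ≠ 0)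
variable (hpe : (p : K₀) = ε * ((G.ϖ : G.A) : K₀) ^ e) (hperf : ∀ c : κ, ∃ d : κ, d ^ p = c)
variable {ι : Type*} {k : ι → Type*} [∀ s, Field (k s)] [∀ s, Algebra κ (k s)]

include hp2 h3M in
/-- **[SEP-ss], contract form, `p = 2`, `3 ∣ M`**: `s33z_SuperCritical Z` for every Σ-datum over the
level-`M` Gauss datum on the function field of level `M p` whose components carry the two Gauss
valuation rings and whose `N` contains the places of the two charts of `t` (`q`-expansion `t₃`)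
through the crossing points of the two components. -/
theorem s33k_ss_superCritical_Z_two
    (Z : s33z_Datum (s33i_datum G M hT hdegM hπ p e ε hp.out he hε hεinv hε0 hpe hperf)
      (s34m_F K₀ (M * p)) ι k)
    (hOi : Z.Ci.O = s34m_Vinf G (M * p)) (hOz : Z.Cz.O = s34m_Vzero G φ M p hp.out hpM)
    (t : s34m_F K₀ (M * p)) (ht : (t : LaurentSeries K₀) = s18u_t3 K₀)
    (hN1 : s33s_nodePlaces (s34m_VV G φ M p hp.out hpM) (s34m_unif G (M * p))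
      (s18_chart1 (L₀ := K₀) t) ⊆ Z.N)
    (hN2 : s33s_nodePlaces (s34m_VV G φ M p hp.out hpM) (s34m_unif G (M * p))
      (s18_chart2 (L₀ := K₀) t) ⊆ Z.N) :
    s33z_SuperCritical Z := by
  intro a ha f hf hcong
  haveI : NeZero p := ⟨hp.out.ne_zero⟩
  obtain ⟨y, hyi, hyz, ey⟩ := hcong.exists_eq
  have hε1 : (⟨ε, hε⟩ : G.A) * ⟨ε⁻¹, hεinv⟩ = 1 := Subtype.ext (mul_inv_cancel₀ hε0)
  have hpϖ : (p : K₀) = ((G.ϖ : G.A) : K₀) ^ e * ((⟨ε, hε⟩ : G.A) : K₀) := by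
    rw [hpe, mul_comm]
  obtain ⟨c, x, hc, hx, efx⟩ := s33k_ss_superCritical_two' M p hp.out hpM hp2 h3M K₀ φ κ G hπ
    ⟨ε, hε⟩ ⟨ε⁻¹, hεinv⟩ hε1 e hpϖ t ht Z.N hN1 hN2 f a ha hf.1.2 hf.2.2
    ⟨y, (s34df_mem_O_iff G φ M p hp.out hpM y).mpr ⟨hOi ▸ hyi, hOz ▸ hyz⟩, ey⟩
  exact ⟨c, x, hc, hx, efx⟩

end Bridge

end Fermat.Agent.Lib.S33
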