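/-
P-AT-P (S33 programme, private branch), brick **[SEP-ss]** part 16 (helper9): the contract form
`s33z_SuperCritical Z` for `p = 2`, `3 ∣ M` with ONE node hypothesis (chart 1 of `t`, `q`-expansion
`t₃`), using helper6's comparison `s33n_nodePlaces_chart2_subset_t3` (`SSNoInfT.lean`).

* `s33k_ss_t3_inv_mem`        : `t⁻¹ ∈ V_∞ ⊓ V_0`;
* **`s33k_ss_superCritical_Z2`** : `s33z_SuperCritical Z` from `Z.Ci.O = V_∞`, `Z.Cz.O = V_0`,
  `s33s_nodePlaces … (chart1 t) ⊆ Z.N`.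
-/
import Fermat.Agent.Lib.S33.KumPSsThree
import Fermat.Agent.Lib.S59.NZSsTwo
import Fermat.Agent.Lib.S33.SSNoInfT
import Fermat.Agent.Lib.S59.NZNoInf

set_option autoImplicit false
set_option linter.unusedSectionVars false
set_option linter.style.haveILetI false

noncomputable section

namespace Fermat.Agent.Lib.S33

open ModularCurve AlgebraicCurve Polynomial IntermediateField Fermat.Agent.Lib.FF
  Fermat.Agent.Lib.S18 Fermat.Agent.Lib.S37 Fermat.Agent.Lib.S34 IsLocalRing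

local notation "Kb" => AlgebraicClosure ℚ

/-- the inverse of the level-`M q` function with `q`-expansion `t₃` lies in `V_∞ ⊓ V_0`. -/
theorem s33k_ss_t3_inv_mem {K₀ : Type} [Field K₀] [CharZero K₀] [Algebra ℚ K₀] {κ : Type} [Field κ]
    (G : s18g_GaussData K₀ κ) [IsDiscreteValuationRing G.A] (φ : K₀ →+* Kb) (M q : ℕ) [NeZero M]
    [NeZero q] (hq : q.Prime) (hqM : ¬ q ∣ M) [CharP κ q] (h3M : 3 ∣ M) (hq3 : q ≠ 3)
    (t : s34m_F K₀ (M * q)) (ht : (t : LaurentSeries K₀) = s18u_t3 K₀) :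
    t⁻¹ ∈ s34x_infRing (s34m_VV G φ M q hq hqM) := by
  obtain ⟨tM, -, -, -, -, -, hwt, -, -, -, hwO', -, -, -⟩ := s34m_base_t3 G φ M q hq hqM h3M hq3
  have hwN : heckeAlphaBar K₀ M q tM = t := Subtype.ext (by rw [hwt, ht])
  rw [← hwN, s34x_mem_infRing]
  exact hwO'

section Bridge

variable (M p : ℕ) [NeZero M] [hp : Fact p.Prime] (hpM : ¬ p ∣ M) (hp2 : p = 2) (h3M : 3 ∣ M)
variable {K₀ : Type} [Field K₀] [NumberField K₀] (φ : K₀ →+* Kb)
variable {κ : Type} [Field κ] [CharP κ p] [PerfectField κ]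
variable (G : s18g_GaussData K₀ κ) [IsDiscreteValuationRing G.A]
variable (hT : s18g_HT κ M) (hdegM : s18g_HDeg K₀ M) (hπ : Function.Surjective G.π)
variable (e : ℕ) (ε : K₀) (he : 0 < e) (hε : ε ∈ G.A) (hεinv : ε⁻¹ ∈ G.A) (hε0 : ε ≠ 0)
variable (hpe : (p : K₀) = ε * ((G.ϖ : G.A) : K₀) ^ e) (hperf : ∀ c : κ, ∃ d : κ, d ^ p = c)
variable {ι : Type*} {k : ι → Type*} [∀ s, Field (k s)] [∀ s, Algebra κ (k s)]

include hp2 h3M in
/-- **[SEP-ss], contract form, `p = 2`, `3 ∣ M`**, one node hypothesis. -/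
theorem s33k_ss_superCritical_Z2
    (Z : s33z_Datum (s33i_datum G M hT hdegM hπ p e ε hp.out he hε hεinv hε0 hpe hperf)
      (s34m_F K₀ (M * p)) ι k)
    (hOi : Z.Ci.O = s34m_Vinf G (M * p)) (hOz : Z.Cz.O = s34m_Vzero G φ M p hp.out hpM)
    (t : s34m_F K₀ (M * p)) (ht : (t : LaurentSeries K₀) = s18u_t3 K₀)
    (hN : s33s_nodePlaces (s34m_VV G φ M p hp.out hpM) (s34m_unif G (M * p))
      (s18_chart1 (L₀ := K₀) t) ⊆ Z.N) :
    s33z_SuperCritical Z := by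
  haveI : NeZero p := ⟨hp.out.ne_zero⟩
  have hp3 : p ≠ 3 := by omega
  exact s33k_ss_superCritical_Z_two M p hpM hp2 h3M φ G hT hdegM hπ e ε he hε hεinv hε0 hpe
    hperf Z hOi hOz t ht hN
    ((s33n_nodePlaces_chart2_subset_t3 G φ M p hp.out hpM t ht
      (s33k_ss_t3_inv_mem G φ M p hp.out hpM h3M hp3 t ht)).trans hN)

end Bridge

end Fermat.Agent.Lib.S33
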