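/-
Programme (R2) / node [MP-three] (helper7, prefix `s59nt_`): **THE CHARTS OF THE HAUPTMODUL `t₃` AT THE RESIDUE
CHARACTERISTIC `q = 2`, LEVEL `M q`, `3 ∣ M`** — the geometric input of the rationality wall (Q4) on these charts.

* `s59nt_t3_mem`       : `t₃ ∈ 𝓕_{K₀}(M q)` for every number field with a Gauss datum over `q ≠ 3`, `3 ∣ M`;
* `s59nt_exists_t3`    : the function `t` of level `M q` with `q`-expansion `t₃`;
* `s59nt_map_t3`       : its image under a coefficient map is the function with `q`-expansion `t₃`;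
* `s59nt_ffGen_t3`, `s59nt_ffGen_tb_q2` : it (and its inverse) generate the function field;
* **`s59nt_almostAll_t3`** : `s34f_AlmostAll` at every closed point `𝔫 ∋ ϖ` of the two charts `{t regular}`, `{1 / t regular}`
  (from the S34 chart contracts `s34f_chartContract_w1/_w2` with `s34d_elem_t3_1/_2`).
-/
import Fermat.Agent.Lib.S44.QAlmost
import Fermat.Agent.Lib.S34.DTwoThree
import Fermat.Agent.Lib.S59.NZBridge
import Fermat.Agent.Lib.S59.NZDatum
import Fermat.Agent.Lib.S59.NZPack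

set_option autoImplicit false
set_option linter.style.haveILetI false
set_option linter.unusedSectionVars false
set_option synthInstance.maxHeartbeats 400000

noncomputable section

namespace Fermat.Agent.Lib.S59

open ModularCurve AlgebraicCurve HahnSeries Fermat.Agent.Lib.S18 Fermat.Agent.Lib.FF
  Fermat.Agent.Lib.S34 Fermat.Agent.Lib.S37 Fermat.Agent.Lib.S44 IsLocalRing

local notation "Qbar" => AlgebraicClosure ℚ

section Exists

variable {K₀ : Type*} [Field K₀] [Algebra ℚ K₀] [CharZero K₀] {κ : Type*} [Field κ]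
  (G : s18g_GaussData K₀ κ) [IsDiscreteValuationRing G.A]
  (φ : K₀ →+* Qbar) (M q : ℕ) [NeZero M] [NeZero q] [CharP κ q] (hq : q.Prime) (hqM : ¬ q ∣ M)

include G φ hq hqM in
/-- the function of level `M q` with `q`-expansion `t₃`. -/
theorem s59nt_exists_t3 (h3M : 3 ∣ M) (hq3 : q ≠ 3) :
    ∃ t : s34m_F K₀ (M * q), (t : LaurentSeries K₀) = s18u_t3 K₀ := by
  obtain ⟨tM, -, -, -, -, -, hwt, -⟩ := s34m_base_t3 G φ M q hq hqM h3M hq3
  exact ⟨_, hwt⟩

end Exists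

section Map

variable {K K' : Type*} [Field K] [Field K'] [Algebra ℚ K] [Algebra ℚ K'] (N : ℕ) [NeZero N]

/-- the image of the function with `q`-expansion `t₃` under a coefficient map. -/
theorem s59nt_map_t3 (j : K →+* K') (t : s34m_F K N) (ht : (t : LaurentSeries K) = s18u_t3 K)
    (t' : s34m_F K' N) (ht' : (t' : LaurentSeries K') = s18u_t3 K') :
    s18q_map j (modularFunctionFieldFull N) t = t' := by
  apply Subtype.ext
  rw [s18q_map_coe, ht, ht', s18u_coeffMap_t3]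

theorem s59nt_coe_map_t3 (j : K →+* K') (t : s34m_F K N) (ht : (t : LaurentSeries K) = s18u_t3 K) :
    ((s18q_map j (modularFunctionFieldFull N) t : s34m_F K' N) : LaurentSeries K') = s18u_t3 K' := by
  rw [s18q_map_coe, ht, s18u_coeffMap_t3]

/-- the image of either chart function. -/
theorem s59nt_map_tb_q2 (j : K →+* K') (t : s34m_F K N) (ht : (t : LaurentSeries K) = s18u_t3 K)
    (t' : s34m_F K' N) (ht' : (t' : LaurentSeries K') = s18u_t3 K') (b : Bool) :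
    s18q_map j (modularFunctionFieldFull N) (cond b t t⁻¹) = cond b t' t'⁻¹ := by
  cases b
  · show s18q_map j (modularFunctionFieldFull N) t⁻¹ = t'⁻¹
    rw [map_inv₀, s59nt_map_t3 N j t ht t' ht']
  · exact s59nt_map_t3 N j t ht t' ht'

end Map

section Almost

variable (M q : ℕ) [NeZero M] [NeZero q] (hq : q.Prime) (hqM : ¬ q ∣ M)
  (K₀ : Type) [Field K₀] [NumberField K₀] (φ : K₀ →+* Qbar)
  (κ : Type) [Field κ] [CharP κ q] [PerfectField κ]
  (G : s18g_GaussData K₀ κ) [IsDiscreteValuationRing G.A] (hπ : Function.Surjective G.π)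

include φ in
/-- the function with `q`-expansion `t₃` generates the function field. -/
theorem s59nt_ffGen_t3 (N : ℕ) [NeZero N] (t : s34m_F K₀ N)
    (ht : (t : LaurentSeries K₀) = s18u_t3 K₀) : FFGen K₀ t :=
  s34m_ffGen_of_coe φ N t (by rw [ht]; exact s18b_transcendental_t3 K₀)

include φ in
/-- both chart functions generate the function field. -/
theorem s59nt_ffGen_tb_q2 (N : ℕ) [NeZero N] (t : s34m_F K₀ N)
    (ht : (t : LaurentSeries K₀) = s18u_t3 K₀) (b : Bool) : FFGen K₀ (cond b t t⁻¹) := by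
  haveI := s59nt_ffGen_t3 K₀ φ N t ht
  cases b
  · exact ff_gen_inv
  · exact inferInstanceAs (FFGen K₀ t)

include hπ in
/-- **`s34f_AlmostAll` on the chart `{t regular}`**, level `M q`, `q = 2`, `3 ∣ M`. -/
theorem s59nt_almostAll_t3_1 (hq2 : q = 2) (h3M : 3 ∣ M)
    (t : s34m_F K₀ (M * q)) (ht : (t : LaurentSeries K₀) = s18u_t3 K₀)
    (𝔫 : Ideal (s34x_ring (s34x_infRing (s34m_VV G φ M q hq hqM)) (s18_chart1 (L₀ := K₀) t)))
    [h𝔫 : 𝔫.IsMaximal]
    (hπ𝔫 : s34x_const (s34x_infRing (s34m_VV G φ M q hq hqM)) (s18_chart1 (L₀ := K₀) t)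
      ((G.ϖ : G.A) : K₀)
      (s34x_inf_const_mem (s34m_VV G φ M q hq hqM) G.A (s34c_const_mem_VV G φ M q hq hqM)
        G.ϖ) ∈ 𝔫) :
    s34f_AlmostAll (s34x_infRing (s34m_VV G φ M q hq hqM)) (s18_chart1 (L₀ := K₀) t) 𝔫 := by
  have hq3 : q ≠ 3 := by omega
  obtain ⟨tM, htM, ⟨hwV, hred⟩, hwinvV, hgen, hgeninv, hwt, hw0, hgenN, hwO, hwO', hfix, hα, hα'⟩ :=
    s34m_base_t3 G φ M q hq hqM h3M hq3
  have e : t = heckeAlphaBar K₀ M q tM := Subtype.ext (by rw [ht, hwt])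
  subst e
  haveI := hgen
  haveI := hgenN
  have helem := s34d_elem_t3_1 M q hq hqM K₀ φ κ G hπ hq2 h3M tM htM hwV hred
  have hC := s34f_chartContract_w1 G φ M q hq hqM _ hwO hα 1 (hfix 1) helem
  exact s44q_almostAll_of_contract G φ M q hq hqM _ _ hC 𝔫 hπ𝔫

include hπ in
/-- **`s34f_AlmostAll` on the chart `{1 / t regular}`**, level `M q`, `q = 2`, `3 ∣ M`. -/
theorem s59nt_almostAll_t3_2 (hq2 : q = 2) (h3M : 3 ∣ M)
    (t : s34m_F K₀ (M * q)) (ht : (t : LaurentSeries K₀) = s18u_t3 K₀)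
    (𝔫 : Ideal (s34x_ring (s34x_infRing (s34m_VV G φ M q hq hqM)) (s18_chart2 (L₀ := K₀) t)))
    [h𝔫 : 𝔫.IsMaximal]
    (hπ𝔫 : s34x_const (s34x_infRing (s34m_VV G φ M q hq hqM)) (s18_chart2 (L₀ := K₀) t)
      ((G.ϖ : G.A) : K₀)
      (s34x_inf_const_mem (s34m_VV G φ M q hq hqM) G.A (s34c_const_mem_VV G φ M q hq hqM)
        G.ϖ) ∈ 𝔫) :
    s34f_AlmostAll (s34x_infRing (s34m_VV G φ M q hq hqM)) (s18_chart2 (L₀ := K₀) t) 𝔫 := by
  have hq3 : q ≠ 3 := by omega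
  obtain ⟨tM, htM, ⟨hwV, hred⟩, hwinvV, hgen, hgeninv, hwt, hw0, hgenN, hwO, hwO', hfix, hα, hα'⟩ :=
    s34m_base_t3 G φ M q hq hqM h3M hq3
  have e : t = heckeAlphaBar K₀ M q tM := Subtype.ext (by rw [ht, hwt])
  subst e
  haveI := hgen
  haveI := hgeninv
  haveI := hgenN
  have helem := s34d_elem_t3_2 M q hq hqM K₀ φ κ G hπ hq2 h3M tM htM hwV hwinvV hred
  have hC := s34f_chartContract_w2 G φ M q hq hqM _ hwO' hα' 1 (hfix 1) helem
  exact s44q_almostAll_of_contract G φ M q hq hqM _ _ hC 𝔫 hπ𝔫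

include hπ in
/-- **`s34f_AlmostAll` on either chart of `t`.** -/
theorem s59nt_almostAll_tb_q2 (hq2 : q = 2) (h3M : 3 ∣ M)
    (t : s34m_F K₀ (M * q)) (ht : (t : LaurentSeries K₀) = s18u_t3 K₀) (b : Bool)
    (𝔫 : Ideal (s34x_ring (s34x_infRing (s34m_VV G φ M q hq hqM))
      (s18_chart1 (L₀ := K₀) (cond b t t⁻¹)))) [h𝔫 : 𝔫.IsMaximal]
    (hπ𝔫 : s34x_const (s34x_infRing (s34m_VV G φ M q hq hqM))
      (s18_chart1 (L₀ := K₀) (cond b t t⁻¹)) ((G.ϖ : G.A) : K₀)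
      (s34x_inf_const_mem (s34m_VV G φ M q hq hqM) G.A (s34c_const_mem_VV G φ M q hq hqM)
        G.ϖ) ∈ 𝔫) :
    s34f_AlmostAll (s34x_infRing (s34m_VV G φ M q hq hqM))
      (s18_chart1 (L₀ := K₀) (cond b t t⁻¹)) 𝔫 := by
  cases b
  · exact s59nt_almostAll_t3_2 M q hq hqM K₀ φ κ G hπ hq2 h3M t ht 𝔫 (h𝔫 := h𝔫) hπ𝔫
  · exact s59nt_almostAll_t3_1 M q hq hqM K₀ φ κ G hπ hq2 h3M t ht 𝔫 (h𝔫 := h𝔫) hπ𝔫

end Almost

end Fermat.Agent.Lib.S59
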