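/-
Programme (R2) / node [MP-two] (helper7), THE `t₃`-CHAIN AT THE LEVEL PRIME `2` (`3 ∣ M`):
**the node family of the `t₃`-chart** (`t₃`-twin of the first part of `Lib/S33/TPPackT.lean`):
`s33t_nodeN_t3`, `s33t_nodeN_t3_eq`.
-/
import Fermat.Agent.Lib.S33.TPPack
import Fermat.Agent.Lib.S33.KumPSsBridgeT
import Fermat.Agent.Lib.S59.NZBridge
import Fermat.Agent.Lib.S34.SChartQ

set_option autoImplicit false
set_option linter.style.haveILetI false
set_option linter.unusedSectionVars false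
set_option synthInstance.maxHeartbeats 400000

namespace Fermat.Agent.Lib.S33

open ModularCurve HahnSeries AlgebraicCurve Fermat.Agent.Lib.S18 Fermat.Agent.Lib.S28
  Fermat.Agent.Lib.S29 Fermat.Agent.Lib.S37 Fermat.Agent.Lib.FF Fermat.Agent.Lib.S34
  Fermat.Agent.Lib.S35

noncomputable section

local notation "Kb" => AlgebraicClosure ℚ

section PackT

variable (M p : ℕ) [NeZero M] [hp : Fact p.Prime] (hpM : ¬ p ∣ M) (P : ValuationSubring Kb)

/-- **the node places for the `t₃`-chart** (`p = 2`, `3 ∣ M`). -/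
def s33t_nodeN_t3 : s33t_NodeFam M p P := fun L₀ _ ϖ hϖ =>
  {Q | ∃ t : s34m_F ↥L₀ (M * p), (t : LaurentSeries ↥L₀) = s18u_t3 ↥L₀ ∧
    Q ∈ s33s_nodePlaces (s34m_VV (s37r_G P L₀ ϖ hϖ) (algebraMap ↥L₀ Kb) M p hp.out hpM)
      (s34m_unif (s37r_G P L₀ ϖ hϖ) (M * p)) (s18_chart1 (L₀ := ↥L₀) t)}

/-- for any `t` with `q`-expansion `t₃` the family is the set of node places of chart 1 of `t`. -/
theorem s33t_nodeN_t3_eq (L₀ : IntermediateField ℚ Kb) [IsDiscreteValuationRing ↥(s18q_A0 P L₀)]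
    (ϖ : ↥(s18q_A0 P L₀)) (hϖ : Irreducible ϖ) (t : s34m_F ↥L₀ (M * p))
    (ht : (t : LaurentSeries ↥L₀) = s18u_t3 ↥L₀) :
    s33t_nodeN_t3 M p hpM P L₀ ϖ hϖ =
      s33s_nodePlaces (s34m_VV (s37r_G P L₀ ϖ hϖ) (algebraMap ↥L₀ Kb) M p hp.out hpM)
        (s34m_unif (s37r_G P L₀ ϖ hϖ) (M * p)) (s18_chart1 (L₀ := ↥L₀) t) := by
  ext Q
  constructor
  · rintro ⟨t', ht', hQ⟩
    have : t' = t := Subtype.ext (ht'.trans ht.symm)
    rw [← this]
    exact hQ
  · intro hQ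
    exact ⟨t, ht, hQ⟩

end PackT

end

end Fermat.Agent.Lib.S33
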