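/-
Programme R (S59), node [MP32] (helper2, prefix `s59b_`), step (A2): **THE DESCENT OF FINITENESS FROM A GOOD AUXILIARY LEVEL.**

`q` the residue characteristic (`q ≠ 3`), `3 ∣ M`, `ℓ ∤ M q` an auxiliary prime, `x ∈ J₀(M q)[p]` with `T_ℓ x = a_ℓ x`, `p ∤ a_ℓ`,
`β' : F̄(M q) → F̄(M ℓ q)` the twisted inclusion `f(T) ↦ f(T^ℓ)`.  Then

  `β'^* x` FINITE at the level `(M ℓ, q)` (chart `t₃`)  ⇒  `x` FINITE at the level `(M, q)` (chart `t₃`)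

(`s59b_finite_descend`): a Kummer generator of `x = u a_ℓ x = u T_ℓ x = u α'_* β'^* x` is `(Nm_{α'} h')^u`, `h'` a Kummer
generator of `β'^* x`; the valuation theory is `s59b_desc_gauss`.
-/
import Fermat.Agent.Lib.S59.B2Desc
import Fermat.Agent.Lib.S59.NDefsN
import Fermat.Agent.Lib.S59.NZPack
import Fermat.Agent.Lib.S59.NZChart
import Fermat.Agent.Lib.S33.TPSetup
import Fermat.Agent.Lib.S37.RLevel

set_option autoImplicit false
set_option linter.unusedSectionVars false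
set_option linter.unusedVariables false
set_option linter.style.haveILetI false
set_option synthInstance.maxHeartbeats 400000

noncomputable section

namespace Fermat.Agent.Lib.S59

open Polynomial ModularCurve AlgebraicCurve HahnSeries Fermat.Agent.Lib.FF Fermat.Agent.Lib.S18
  Fermat.Agent.Lib.S28 Fermat.Agent.Lib.S29 Fermat.Agent.Lib.S37 Fermat.Agent.Lib.S34
  Fermat.Agent.Lib.S35 Fermat.Agent.Lib.S36 Fermat.Agent.Lib.S33 Fermat.Agent.Lib.S44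

local notation "Kb" => AlgebraicClosure ℚ

/-- an inverse modulo `p`. -/
theorem s59b_exists_inv_mod (p : ℕ) (hp : p.Prime) (a : ℤ) (h : ¬ (p : ℤ) ∣ a) :
    ∃ u : ℕ, (p : ℤ) ∣ (u : ℤ) * a - 1 := by
  have hcop : IsCoprime a (p : ℤ) :=
    ((Nat.prime_iff_prime_int.mp hp).coprime_iff_not_dvd.mpr h).symm
  obtain ⟨m, n, hmn⟩ := hcop
  have hpos : (0 : ℤ) < p := by exact_mod_cast hp.pos
  refine ⟨(m % p).toNat, ?_⟩
  have h1 : ((m % p).toNat : ℤ) = m % p := Int.toNat_of_nonneg (Int.emod_nonneg _ hpos.ne')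
  rw [h1, Int.emod_def]
  refine ⟨-(m / p) * a - n, ?_⟩
  linear_combination hmn

section KumGen

variable {K F : Type*} [Field K] [Field F] [Algebra K F]

/-- powers of Kummer generators. -/
theorem s59b_kumGen_nsmul {m : ℕ} {z : Pic0 K F} {f : F} (h : s33d_IsKumGen m z f) (n : ℕ) :
    s33d_IsKumGen m (n • z) (f ^ n) := by
  obtain ⟨hf, D, rfl, hD⟩ := h
  refine ⟨pow_ne_zero n hf, n • D, map_nsmul (QuotientAddGroup.mk' _) n D, fun v => ?_⟩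
  rw [s33d_ord_pow, hD v, AddSubgroup.coe_nsmul, Finsupp.smul_apply, nsmul_eq_mul]
  ring

end KumGen

/-- `u • (a • x) = x` when `p • x = 0` and `p ∣ u a - 1`. -/
theorem s59b_nsmul_zsmul_eq {A : Type*} [AddCommGroup A] (p u : ℕ) (a : ℤ) (x : A)
    (hpx : p • x = 0) (hu : (p : ℤ) ∣ (u : ℤ) * a - 1) : u • (a • x) = x := by
  obtain ⟨k, hk⟩ := hu
  have e : (u : ℤ) * a = 1 + k * (p : ℤ) := by linear_combination hk
  rw [← natCast_zsmul, ← mul_smul, e, add_smul, one_smul, mul_smul, natCast_zsmul, hpx, smul_zero,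
    add_zero]

set_option maxHeartbeats 4000000 in
/-- **THE DESCENT OF FINITENESS** from the auxiliary level `(M ℓ, q)` to the level `(M, q)`, chart `t₃`. -/
theorem s59b_finite_descend (p : ℕ) [hp : Fact p.Prime]
    (M q ℓ : ℕ) [NeZero M] [NeZero ℓ] [hq : Fact q.Prime] (hqM : ¬ q ∣ M) (hq3 : q ≠ 3)
    (h3M : 3 ∣ M) (hℓ : ℓ.Prime) (hℓMq : ¬ ℓ ∣ M * q)
    (P : ValuationSubring Kb) (hP : P.LiesOverPrime q)
    (x : JZero (M * q)) (hpx : p • x = 0) (aℓ : ℤ)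
    (hT : heckeOperatorBar (M * q) ⟨ℓ, hℓ⟩ x = aℓ • x) (hpa : ¬ (p : ℤ) ∣ aℓ)
    (β' : ffi_F (M * q) →ₐ[Kb] ffi_F (M * ℓ * q))
    (hβ' : ∀ y, ((β' y : ffi_F (M * ℓ * q)) : LaurentSeries Kb) =
      qExpand Kb ℓ (y : LaurentSeries Kb))
    (hβint : β'.toRingHom.IsIntegral) (hβFI : FundamentalIdentityAlong Kb β' hβint)
    (hqMℓ : ¬ q ∣ M * ℓ)
    (hfin : s59n_FiniteN (M * ℓ) q p hqMℓ P (s33t_nodeN_t3 (M * ℓ) q hqMℓ P)
      (s37l_pic0Pullback β' hβint hβFI x)) :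
    s59n_FiniteN M q p hqM P (s33t_nodeN_t3 M q hqM P) x := by
  classical
  haveI : NeZero q := ⟨hq.out.ne_zero⟩
  obtain ⟨Lx', hfd', H'⟩ := hfin
  obtain ⟨u, hu⟩ := s59b_exists_inv_mod p hp.out aℓ hpa
  obtain ⟨ζ, hζ⟩ := HasEnoughRootsOfUnity.exists_primitiveRoot Kb ℓ
  haveI := hfd'
  haveI : FiniteDimensional ℚ ↥(IntermediateField.adjoin ℚ {ζ}) :=
    IntermediateField.adjoin.finiteDimensional ((hζ.isIntegral hℓ.pos).tower_top (A := ℚ))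
  haveI : FiniteDimensional ℚ ↥(Lx' ⊔ IntermediateField.adjoin ℚ {ζ}) :=
    IntermediateField.finiteDimensional_sup _ _
  refine ⟨Lx' ⊔ IntermediateField.adjoin ℚ {ζ}, inferInstance, ?_⟩
  intro L₀ _ _ _ ϖ hϖ hLx
  have hLx' : Lx' ≤ L₀ := le_sup_left.trans hLx
  have hζL : ζ ∈ L₀ :=
    hLx (le_sup_right (a := Lx') (IntermediateField.subset_adjoin ℚ {ζ} (Set.mem_singleton ζ)))
  obtain ⟨ζ₀, hζ₀, -⟩ := s33t_exists_zeta L₀ hℓ ζ hζ hζL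
  obtain ⟨h', hK', hI', hIinv', hZ', hZinv', hN'⟩ := H' L₀ ϖ hϖ hLx'
  haveI hchar : CharP (IsLocalRing.ResidueField ↥(s18q_A0 P L₀)) q := s37rl_charP P hP L₀
  haveI : IsDiscreteValuationRing ↥(s37r_G P L₀ ϖ hϖ).A :=
    (inferInstance : IsDiscreteValuationRing ↥(s18q_A0 P L₀))
  obtain ⟨t, ht⟩ := s59nt_exists_t3 (s37r_G P L₀ ϖ hϖ) (algebraMap ↥L₀ Kb) M q hq.out hqM h3M hq3
  obtain ⟨t', ht'⟩ := s59nt_exists_t3 (s37r_G P L₀ ϖ hϖ) (algebraMap ↥L₀ Kb) (M * ℓ) q hq.out hqMℓ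
    (Dvd.dvd.mul_right h3M ℓ) hq3
  have hh0 : h' ≠ 0 := by
    intro h0
    apply hK'.1
    rw [h0, map_zero]
  rw [s33t_nodeN_t3_eq (M * ℓ) q hqMℓ P L₀ ϖ hϖ t' ht'] at hN'
  obtain ⟨hV, hVinv, hnode, hincl⟩ :=
    s59b_desc_gauss M q ℓ hq.out hqM hqMℓ L₀ (s37r_G P L₀ ϖ hϖ) h3M hq3 hℓ hℓMq ζ₀ hζ₀ t ht t' ht' h'
      hh0 (fun i => by cases i; exacts [hZ', hI']) (fun i => by cases i; exacts [hZinv', hIinv'])
      hN'
  -- the Kummer generator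
  have hK1 := s59b_kumGen_hecke_cast (M * q) ℓ (M * ℓ * q) (Nat.mul_right_comm M ℓ q) hℓ hℓMq
    (s37l_incl (M * q) (M * ℓ * q) (s59b_dvd_level M ℓ q)) β'
    (fun y => s37l_coe_incl (M * q) (M * ℓ * q) (s59b_dvd_level M ℓ q) y) hβ' hβint hβFI p x _ hK'
  rw [hT, ← hincl] at hK1
  have hK2 := s59b_kumGen_nsmul hK1 u
  rw [s59b_nsmul_zsmul_eq p u aℓ x hpx hu, ← map_pow] at hK2
  refine ⟨_, hK2, ?_, ?_, ?_, ?_, ?_⟩
  · exact (s34m_Vinf (s37r_G P L₀ ϖ hϖ) (M * q)).pow_mem (hV true) u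
  · rw [← inv_pow]
    exact (s34m_Vinf (s37r_G P L₀ ϖ hϖ) (M * q)).pow_mem (hVinv true) u
  · exact (s34m_Vzero (s37r_G P L₀ ϖ hϖ) (algebraMap ↥L₀ Kb) M q hq.out hqM).pow_mem (hV false) u
  · rw [← inv_pow]
    exact (s34m_Vzero (s37r_G P L₀ ϖ hϖ) (algebraMap ↥L₀ Kb) M q hq.out hqM).pow_mem
      (hVinv false) u
  · intro Q hQ
    rw [s33t_nodeN_t3_eq M q hqM P L₀ ϖ hϖ t ht] at hQ
    rw [s33d_ord_pow, hnode Q hQ, mul_zero]

end Fermat.Agent.Lib.S59
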