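/-
Programme R (S59), E-side, [E2] abstract part (helper2, prefix `s59b_`): **determinant from the
relations `g + e(g) g⁻¹ ≡ scalar`.**

`R` a Noetherian local domain, `M` free of rank `2`.
* `s59b_scalar_of_smul`   : `c • X = t • 1`, `c ≠ 0` ⇒ `X` is a scalar;
* `s59b_det_or_scalar`    : `X X' = X' X = 1` and `X + e • X'` congruent to a scalar modulo every
  `𝔪ⁿ` ⇒ `det X = e` or `X` is a scalar;
* `s59b_det_eq_of_generic`: a representation `ρ : G →* End M` and a character `e : G →* R` with
  `det ρ(g) = e(g)` for all non-scalar `ρ(g)`, and ONE non-scalar `ρ(g₀)` ⇒ `det ρ = e`.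
-/
import Mathlib
import Fermat.Agent.Lib.S30.Dens
import Fermat.Agent.Lib.S35.ELevelT

set_option autoImplicit false
set_option linter.unusedSectionVars false
set_option linter.style.haveILetI false

namespace Fermat.Agent.Lib.S59

open IsLocalRing Fermat.Agent.Lib.S30 Fermat.Agent.Lib.S35

section Alg

variable {R : Type*} [CommRing R] [IsDomain R] {M : Type*} [AddCommGroup M] [Module R M]
  [Module.Free R M]

/-- over a domain, `c • X = t • 1` with `c ≠ 0` forces `X` to be a scalar. -/
theorem s59b_scalar_of_smul (X : Module.End R M) (c t : R) (hc : c ≠ 0)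
    (h : c • X = t • (1 : Module.End R M)) : ∃ s : R, X = s • (1 : Module.End R M) := by
  classical
  set b := Module.Free.chooseBasis R M with hb
  have hcoef : ∀ i k, c * b.repr (X (b k)) i = if k = i then t else 0 := by
    intro i k
    have h1 := congrArg (fun f : Module.End R M => b.repr (f (b k)) i) h
    simp only [LinearMap.smul_apply, Module.End.one_apply, map_smul, Finsupp.smul_apply,
      b.repr_self, Finsupp.single_apply, smul_eq_mul] at h1
    rw [h1]
    split_ifs <;> simp
  by_cases hne : Nonempty (Module.Free.ChooseBasisIndex R M)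
  · obtain ⟨i₀⟩ := hne
    refine ⟨b.repr (X (b i₀)) i₀, ?_⟩
    apply b.ext
    intro k
    apply b.repr.injective
    ext i
    rw [LinearMap.smul_apply, Module.End.one_apply, map_smul, Finsupp.smul_apply, b.repr_self,
      Finsupp.single_apply, smul_eq_mul]
    apply mul_left_cancel₀ hc
    rw [hcoef i k]
    by_cases hik : k = i
    · subst hik
      rw [if_pos rfl, if_pos rfl, mul_one, hcoef i₀ i₀, if_pos rfl]
    · rw [if_neg hik, if_neg hik, mul_zero, mul_zero]
  · refine ⟨0, ?_⟩
    apply b.ext
    intro k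
    exact (hne ⟨k⟩).elim

end Alg

section Det

variable {R : Type*} [CommRing R] [IsDomain R] [IsLocalRing R] [IsNoetherianRing R]
  {M : Type*} [AddCommGroup M] [Module R M] [Module.Free R M] [Module.Finite R M]

/-- **determinant or scalar.** -/
theorem s59b_det_or_scalar (h2 : Module.finrank R M = 2) (X X' : Module.End R M)
    (hXX' : X * X' = 1) (e : R)
    (happ : ∀ n : ℕ, ∃ s : R, ∀ v : M,
      (X + e • X') v - s • v ∈ (maximalIdeal R ^ n) • (⊤ : Submodule R M)) :
    LinearMap.det X = e ∨ ∃ s : R, X = s • (1 : Module.End R M) := by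
  set δ := LinearMap.det X with hδ
  set t := LinearMap.trace R M X with ht
  -- `δ • X' = t • 1 - X`
  have hCH := s35el_sq_eq h2 X
  have h1 : δ • X' = t • (1 : Module.End R M) - X := by
    have h3 := congrArg (fun f : Module.End R M => f * X') hCH
    simp only [mul_assoc, hXX', mul_one, sub_mul, smul_mul_assoc, one_mul] at h3
    rw [h3]
    abel
  -- `(δ - e) • X` is congruent to scalars
  have happ' : ∀ n : ℕ, ∃ s : R, ∀ v : M,
      ((δ - e) • X) v - s • v ∈ (maximalIdeal R ^ n) • (⊤ : Submodule R M) := by
    intro n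
    obtain ⟨s, hs⟩ := happ n
    refine ⟨δ * s - e * t, fun v => ?_⟩
    have h5 : δ • (X' v) = t • v - X v := by
      have := congrArg (fun f : Module.End R M => f v) h1
      simpa using this
    have h4 : ((δ - e) • X) v - (δ * s - e * t) • v = δ • ((X + e • X') v - s • v) := by
      simp only [LinearMap.smul_apply, LinearMap.add_apply]
      linear_combination (norm := module) (-e) • h5
    rw [h4]
    exact Submodule.smul_mem _ _ (hs v)
  obtain ⟨t', ht'⟩ := s30d_scalar_of_approx ((δ - e) • X) happ'
  by_cases hde : δ = e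
  · exact Or.inl hde
  · exact Or.inr (s59b_scalar_of_smul X (δ - e) t' (sub_ne_zero.mpr hde) ht')

end Det

section Generic

variable {R : Type*} [CommRing R] [IsDomain R]
  {M : Type*} [AddCommGroup M] [Module R M] [Module.Free R M] [Module.Finite R M]
  {G : Type*} [Group G]

/-- **the determinant from its values at the non-scalar elements.** -/
theorem s59b_det_eq_of_generic (ρ : G →* Module.End R M) (e : G →* R)
    (hgen : ∀ g : G, (¬ ∃ s : R, ρ g = s • (1 : Module.End R M)) → LinearMap.det (ρ g) = e g)
    (g₀ : G) (hg₀ : ¬ ∃ s : R, ρ g₀ = s • (1 : Module.End R M)) (g : G) :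
    LinearMap.det (ρ g) = e g := by
  by_cases hg : ∃ s : R, ρ g = s • (1 : Module.End R M)
  · obtain ⟨s, hs⟩ := hg
    have hinv : ρ g * ρ g⁻¹ = 1 := by rw [← map_mul, mul_inv_cancel, map_one]
    have h1 : s • ρ g⁻¹ = (1 : R) • (1 : Module.End R M) := by
      rw [one_smul, ← hinv, hs, smul_mul_assoc, one_mul]
    -- `g₀ g` is not scalar
    have hprod : ¬ ∃ s' : R, ρ (g₀ * g) = s' • (1 : Module.End R M) := by
      rintro ⟨s', hs'⟩
      apply hg₀
      have h2 : ρ g₀ = ρ (g₀ * g) * ρ g⁻¹ := by
        rw [← map_mul, mul_assoc, mul_inv_cancel, mul_one]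
      by_cases hs0 : s = 0
      · refine ⟨0, ?_⟩
        have h10 : (1 : Module.End R M) = 0 := by
          rw [hs0, zero_smul, one_smul] at h1
          exact h1.symm
        rw [zero_smul, ← mul_one (ρ g₀), h10, mul_zero]
      · obtain ⟨r, hr⟩ := s59b_scalar_of_smul (ρ g⁻¹) s 1 hs0 h1
        exact ⟨s' * r, by rw [h2, hs', hr, smul_mul_assoc, one_mul, mul_smul]⟩
    have e1 := hgen (g₀ * g) hprod
    have e2 := hgen g₀ hg₀
    rw [map_mul, map_mul, map_mul, e2] at e1
    have hne : e g₀ ≠ 0 := by
      intro h0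
      have hinv₀ : ρ g₀ * ρ g₀⁻¹ = 1 := by rw [← map_mul, mul_inv_cancel, map_one]
      have := congrArg LinearMap.det hinv₀
      rw [map_mul, e2, h0, zero_mul, map_one] at this
      exact zero_ne_one this
    exact mul_left_cancel₀ hne e1
  · exact hgen g hg

end Generic

end Fermat.Agent.Lib.S59
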