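/-
Programme R (S59), E-side, [E1] part 1 (helper2, prefix `s59b_`): **the abstract Tate module is free.**

`A` an abelian group, `p` a prime, `d : ℕ`, and `Nat.card A[p ^ n] = p ^ (d * n)` for every `n`.
Then multiplication by `p` maps `A[p ^ (n+1)]` ONTO `A[p ^ n]`, every point of `A[p ^ n]` is the
`n`-th component of an element of the Tate module `s30a_Tp A p` (Lib/S30/TateMod), and
`s30a_Tp A p` is a free `ℤ_[p]`-module of rank `d` (explicit linear equivalence with
`Fin d → ℤ_[p]`, built from lifts of a basis of `A[p]`).  Analysis-free: the `p`-adic limit is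
`s30u_lim` (Lib/S30/TateKinf).
-/
import Mathlib
import Fermat.Agent.Lib.S30.TateKinf

set_option autoImplicit false
set_option linter.unusedSectionVars false
set_option linter.style.haveILetI false

namespace Fermat.Agent.Lib.S59

open Fermat.Agent.Lib.S30

section Tor

variable (A : Type*) [AddCommGroup A]

/-- the `m`-torsion subgroup of an abelian group. -/
def s59b_tor (m : ℕ) : AddSubgroup A := (nsmulAddMonoidHom (α := A) m).ker

variable {A}

theorem s59b_mem_tor {m : ℕ} {y : A} : y ∈ s59b_tor A m ↔ m • y = 0 := by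
  rw [s59b_tor, AddMonoidHom.mem_ker, nsmulAddMonoidHom_apply]

variable (A)

/-- multiplication by `p` from the `p ^ (n + 1)`-torsion to the `p ^ n`-torsion. -/
def s59b_mulP (p n : ℕ) : s59b_tor A (p ^ (n + 1)) →+ s59b_tor A (p ^ n) where
  toFun z := ⟨p • (z : A), by
    rw [s59b_mem_tor, ← mul_smul, ← pow_succ]
    exact s59b_mem_tor.mp z.2⟩
  map_zero' := by
    apply Subtype.ext
    show p • ((0 : s59b_tor A (p ^ (n + 1))) : A) = 0
    rw [AddSubgroup.coe_zero, smul_zero]
  map_add' x y := by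
    apply Subtype.ext
    show p • ((x + y : s59b_tor A (p ^ (n + 1))) : A) = p • (x : A) + p • (y : A)
    rw [AddSubgroup.coe_add, smul_add]

variable {A}

theorem s59b_mulP_coe (p n : ℕ) (z : s59b_tor A (p ^ (n + 1))) :
    ((s59b_mulP A p n z : s59b_tor A (p ^ n)) : A) = p • (z : A) := rfl

end Tor

section Count

variable {A : Type*} [AddCommGroup A] {p : ℕ} [hp : Fact p.Prime] {d : ℕ}

theorem s59b_finite_tor (hcard : ∀ n : ℕ, Nat.card (s59b_tor A (p ^ n)) = p ^ (d * n)) (n : ℕ) :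
    Finite (s59b_tor A (p ^ n)) := by
  apply Nat.finite_of_card_ne_zero
  rw [hcard n]
  exact pow_ne_zero _ hp.out.ne_zero

/-- multiplication by `p` is onto, by counting. -/
theorem s59b_mulP_surjective (hcard : ∀ n : ℕ, Nat.card (s59b_tor A (p ^ n)) = p ^ (d * n))
    (n : ℕ) : Function.Surjective (s59b_mulP A p n) := by
  haveI := s59b_finite_tor hcard (n + 1)
  haveI := s59b_finite_tor hcard n
  haveI := s59b_finite_tor hcard 1
  apply AddMonoidHom.surjective_of_card_ker_le_div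
  rw [hcard (n + 1), hcard n]
  have h1 : p ^ (d * (n + 1)) / p ^ (d * n) = p ^ d := by
    rw [mul_add, mul_one, pow_add, Nat.mul_div_cancel_left _ (pow_pos hp.out.pos _)]
  rw [h1]
  have h2 : Nat.card (s59b_tor A (p ^ 1)) = p ^ d := by rw [hcard 1, mul_one]
  rw [← h2]
  -- the kernel injects into the `p`-torsion
  let g : (s59b_mulP A p n).ker → s59b_tor A (p ^ 1) := fun z =>
    ⟨((z : s59b_tor A (p ^ (n + 1))) : A), by
      rw [s59b_mem_tor, pow_one]
      have := z.2
      rw [AddMonoidHom.mem_ker] at this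
      have h3 := congrArg Subtype.val this
      rw [s59b_mulP_coe] at h3
      exact h3⟩
  have hg : Function.Injective g := by
    intro z w h
    apply Subtype.ext
    apply Subtype.ext
    have h4 : ((g z : s59b_tor A (p ^ 1)) : A) = ((g w : s59b_tor A (p ^ 1)) : A) :=
      congrArg Subtype.val h
    exact h4
  exact Nat.card_le_card_of_injective g hg

/-- a compatible sequence of `p`-power roots above a point of `A[p ^ n]`. -/
theorem s59b_exists_seq (hsurj : ∀ n : ℕ, Function.Surjective (s59b_mulP A p n))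
    (n : ℕ) (y : A) (hy : p ^ n • y = 0) :
    ∃ z : ℕ → A, z 0 = y ∧ ∀ k : ℕ, p • z (k + 1) = z k := by
  let g : (k : ℕ) → s59b_tor A (p ^ (n + k)) := fun k =>
    Nat.rec (motive := fun k => s59b_tor A (p ^ (n + k))) ⟨y, s59b_mem_tor.mpr hy⟩
      (fun k zk => Classical.choose (hsurj (n + k) zk)) k
  refine ⟨fun k => ((g k : s59b_tor A (p ^ (n + k))) : A), rfl, fun k => ?_⟩
  have h1 : s59b_mulP A p (n + k) (g (k + 1)) = g k :=
    Classical.choose_spec (hsurj (n + k) (g k))
  have h2 := congrArg Subtype.val h1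
  rw [s59b_mulP_coe] at h2
  exact h2

/-- **the projections of the Tate module are onto.** -/
theorem s59b_proj_surjective (hcard : ∀ n : ℕ, Nat.card (s59b_tor A (p ^ n)) = p ^ (d * n))
    (n : ℕ) (y : A) (hy : p ^ n • y = 0) :
    ∃ x : s30a_Tp A p, (x : ℕ → A) n = y := by
  obtain ⟨z, hz0, hz⟩ := s59b_exists_seq (s59b_mulP_surjective hcard) n y hy
  have hpow : ∀ k : ℕ, p ^ k • z k = y := by
    intro k
    induction k with
    | zero => rw [pow_zero, one_smul, hz0]
    | succ k ih => rw [pow_succ, mul_smul, hz k, ih]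
  refine ⟨⟨fun m => p ^ n • z m, ?_, fun m => ?_⟩, ?_⟩
  · show p ^ n • z 0 = 0
    rw [hz0, hy]
  · show p • p ^ n • z (m + 1) = p ^ n • z m
    rw [smul_comm, hz m]
  · show p ^ n • z n = y
    exact hpow n

end Count

section Free

variable {A : Type*} [AddCommGroup A] {p : ℕ} [hp : Fact p.Prime] {d : ℕ}

/-- level-by-level independence of lifts of an independent family of `A[p]`. -/
theorem s59b_indep (v : Fin d → s30a_Tp A p)
    (hv : ∀ c : Fin d → ℤ, ∑ i, c i • ((v i : s30a_Tp A p) : ℕ → A) 1 = 0 →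
      ∀ i, (p : ℤ) ∣ c i) :
    ∀ (n : ℕ) (c : Fin d → ℤ), ∑ i, c i • ((v i : s30a_Tp A p) : ℕ → A) n = 0 →
      ∀ i, ((p ^ n : ℕ) : ℤ) ∣ c i := by
  intro n
  induction n with
  | zero =>
    intro c _ i
    rw [pow_zero, Nat.cast_one]
    exact one_dvd _
  | succ n ih =>
    intro c hc i
    have h1 : ∑ i, c i • ((v i : s30a_Tp A p) : ℕ → A) 1 = 0 := by
      have := congrArg (fun y => p ^ n • y) hc
      simp only [Finset.smul_sum, smul_zero] at this
      rw [← this]
      refine Finset.sum_congr rfl fun j _ => ?_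
      rw [smul_comm, s30a_pow_smul_add (v j) n 1]
    have h2 := hv c h1
    choose b hb using h2
    have h3 : ∑ i, b i • ((v i : s30a_Tp A p) : ℕ → A) n = 0 := by
      rw [← hc]
      refine Finset.sum_congr rfl fun j _ => ?_
      rw [hb j, mul_comm, mul_smul, natCast_zsmul, s30a_succ]
    have h4 := ih b h3 i
    rw [hb i, pow_succ, Nat.cast_mul, mul_comm]
    exact mul_dvd_mul_left _ h4

/-- an independent family of size `d` in a `ZMod p`-vector space with `p ^ d` elements. -/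
theorem s59b_exists_indep {V : Type*} [AddCommGroup V] [Module (ZMod p) V] [Finite V]
    (h : Nat.card V = p ^ d) :
    ∃ b : Fin d → V, ∀ c : Fin d → ℤ, ∑ i, c i • b i = 0 → ∀ i, (p : ℤ) ∣ c i := by
  haveI : Module.Finite (ZMod p) V := Module.Finite.of_finite
  have hrank : Module.finrank (ZMod p) V = d := by
    have h1 := Module.natCard_eq_pow_finrank (K := ZMod p) (V := V)
    rw [h, Nat.card_zmod] at h1
    exact (Nat.pow_right_injective hp.out.two_le h1).symm
  let b := Module.finBasisOfFinrankEq (ZMod p) V hrank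
  refine ⟨fun i => b i, fun c hc i => ?_⟩
  have h2 : ∑ i, ((c i : ℤ) : ZMod p) • b i = 0 := by
    rw [← hc]
    refine Finset.sum_congr rfl fun j _ => ?_
    rw [Int.cast_smul_eq_zsmul]
  have h3 := (Fintype.linearIndependent_iff.mp b.linearIndependent)
    (fun i => ((c i : ℤ) : ZMod p)) h2 i
  exact (ZMod.intCast_zmod_eq_zero_iff_dvd (c i) p).mp h3

/-- lifts to the Tate module of a basis of `A[p]`. -/
theorem s59b_exists_lifts (hcard : ∀ n : ℕ, Nat.card (s59b_tor A (p ^ n)) = p ^ (d * n)) :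
    ∃ v : Fin d → s30a_Tp A p,
      ∀ c : Fin d → ℤ, ∑ i, c i • ((v i : s30a_Tp A p) : ℕ → A) 1 = 0 → ∀ i, (p : ℤ) ∣ c i := by
  have hcard1 : Nat.card (s59b_tor A p) = p ^ d := by
    have := hcard 1
    rwa [pow_one, mul_one] at this
  have hkill : ∀ x : s59b_tor A p, p • x = 0 := by
    intro x
    apply Subtype.ext
    rw [AddSubgroup.coe_nsmul, AddSubgroup.coe_zero]
    exact s59b_mem_tor.mp x.2
  letI : Module (ZMod p) (s59b_tor A p) := AddCommGroup.zmodModule hkill
  haveI : Finite (s59b_tor A p) := by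
    apply Nat.finite_of_card_ne_zero
    rw [hcard1]
    exact pow_ne_zero _ hp.out.ne_zero
  obtain ⟨b, hb⟩ := s59b_exists_indep (V := s59b_tor A p) hcard1
  have hlift : ∀ i : Fin d, ∃ x : s30a_Tp A p, (x : ℕ → A) 1 = ((b i : s59b_tor A p) : A) :=
    fun i => s59b_proj_surjective hcard 1 _ (by rw [pow_one]; exact s59b_mem_tor.mp (b i).2)
  choose v hv using hlift
  refine ⟨v, fun c hc i => ?_⟩
  refine hb c ?_ i
  apply Subtype.ext
  rw [AddSubgroup.coe_zero, ← hc, AddSubgroup.val_finsetSum]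
  refine Finset.sum_congr rfl fun j _ => ?_
  rw [AddSubgroup.coe_zsmul, hv j]

/-- evaluation of a linear combination at level `n`. -/
theorem s59b_lc_apply (v : Fin d → s30a_Tp A p) (a : Fin d → ℤ_[p]) (n : ℕ) :
    ((∑ i, a i • v i : s30a_Tp A p) : ℕ → A) n =
      ∑ i, (a i).appr n • ((v i : s30a_Tp A p) : ℕ → A) n := by
  rw [← s30a_proj_apply, map_sum]
  refine Finset.sum_congr rfl fun i _ => ?_
  rw [s30a_proj_apply, s30a_smul_apply]

/-- uniqueness of the coordinates at level `n`. -/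
theorem s59b_coord_unique (v : Fin d → s30a_Tp A p)
    (hv : ∀ c : Fin d → ℤ, ∑ i, c i • ((v i : s30a_Tp A p) : ℕ → A) 1 = 0 →
      ∀ i, (p : ℤ) ∣ c i) (n : ℕ) (c c' : Fin d → ℕ)
    (h : ∑ i, c i • ((v i : s30a_Tp A p) : ℕ → A) n =
      ∑ i, c' i • ((v i : s30a_Tp A p) : ℕ → A) n) (i : Fin d) :
    ((c i : ℕ) : ZMod (p ^ n)) = ((c' i : ℕ) : ZMod (p ^ n)) := by
  have h0 : ∑ i, ((c' i : ℤ) - (c i : ℤ)) • ((v i : s30a_Tp A p) : ℕ → A) n = 0 := by
    simp only [sub_smul, natCast_zsmul, Finset.sum_sub_distrib]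
    rw [h, sub_self]
  have h1 := s59b_indep v hv n _ h0 i
  have h2 := (ZMod.intCast_eq_intCast_iff_dvd_sub (c i : ℤ) (c' i : ℤ) (p ^ n)).mpr h1
  rwa [Int.cast_natCast, Int.cast_natCast] at h2

/-- existence of the coordinates at level `n`, by counting. -/
theorem s59b_coord_exists (hcard : ∀ n : ℕ, Nat.card (s59b_tor A (p ^ n)) = p ^ (d * n))
    (v : Fin d → s30a_Tp A p)
    (hv : ∀ c : Fin d → ℤ, ∑ i, c i • ((v i : s30a_Tp A p) : ℕ → A) 1 = 0 →
      ∀ i, (p : ℤ) ∣ c i) (n : ℕ) (y : A) (hy : p ^ n • y = 0) :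
    ∃ c : Fin d → ZMod (p ^ n), ∑ i, (c i).val • ((v i : s30a_Tp A p) : ℕ → A) n = y := by
  haveI : NeZero (p ^ n) := ⟨pow_ne_zero _ hp.out.ne_zero⟩
  haveI := s59b_finite_tor hcard n
  let ψ : (Fin d → ZMod (p ^ n)) → s59b_tor A (p ^ n) := fun c =>
    ⟨∑ i, (c i).val • ((v i : s30a_Tp A p) : ℕ → A) n, by
      rw [s59b_mem_tor, Finset.smul_sum]
      refine Finset.sum_eq_zero fun i _ => ?_
      rw [smul_comm, s30a_pow_smul, smul_zero]⟩
  have hinj : Function.Injective ψ := by
    intro c c' h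
    have h1 : ∑ i, (c i).val • ((v i : s30a_Tp A p) : ℕ → A) n =
        ∑ i, (c' i).val • ((v i : s30a_Tp A p) : ℕ → A) n := congrArg Subtype.val h
    funext i
    have h2 := s59b_coord_unique v hv n (fun i => (c i).val) (fun i => (c' i).val) h1 i
    rwa [ZMod.natCast_zmod_val, ZMod.natCast_zmod_val] at h2
  have hle : Nat.card (s59b_tor A (p ^ n)) ≤ Nat.card (Fin d → ZMod (p ^ n)) := by
    rw [hcard n, Nat.card_fun, Nat.card_zmod, Nat.card_fin, ← pow_mul, mul_comm]
  have hbij := hinj.bijective_of_nat_card_le hle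
  obtain ⟨c, hc⟩ := hbij.2 ⟨y, s59b_mem_tor.mpr hy⟩
  exact ⟨c, congrArg Subtype.val hc⟩

/-- **the Tate module is free of rank `d`**: an explicit linear equivalence. -/
theorem s59b_tp_equiv (hcard : ∀ n : ℕ, Nat.card (s59b_tor A (p ^ n)) = p ^ (d * n)) :
    Nonempty ((Fin d → ℤ_[p]) ≃ₗ[ℤ_[p]] s30a_Tp A p) := by
  obtain ⟨v, hv⟩ := s59b_exists_lifts hcard
  have hΦ : ∀ a : Fin d → ℤ_[p], Fintype.linearCombination ℤ_[p] v a = ∑ i, a i • v i :=
    fun a => Fintype.linearCombination_apply ℤ_[p] v a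
  refine ⟨LinearEquiv.ofBijective (Fintype.linearCombination ℤ_[p] v) ⟨?_, ?_⟩⟩
  · rw [← LinearMap.ker_eq_bot, LinearMap.ker_eq_bot']
    intro a ha
    funext i
    rw [Pi.zero_apply, ← PadicInt.ext_of_toZModPow]
    intro n
    rw [map_zero]
    have h1 : ∑ i, (a i).appr n • ((v i : s30a_Tp A p) : ℕ → A) n = 0 := by
      rw [← s59b_lc_apply, ← hΦ, ha]
      rfl
    have h2 := s59b_coord_unique v hv n (fun i => (a i).appr n) (fun _ => 0)
      (by simpa using h1) i
    rw [Nat.cast_zero] at h2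
    exact h2
  · intro x
    have hex := fun n : ℕ => s59b_coord_exists hcard v hv n ((x : ℕ → A) n) (s30a_pow_smul x n)
    choose c hc using hex
    have hcompat : ∀ (i : Fin d) (n : ℕ),
        ZMod.castHom (pow_dvd_pow p (Nat.le_succ n)) (ZMod (p ^ n)) (c (n + 1) i) = c n i := by
      intro i n
      haveI : NeZero (p ^ n) := ⟨pow_ne_zero _ hp.out.ne_zero⟩
      haveI : NeZero (p ^ (n + 1)) := ⟨pow_ne_zero _ hp.out.ne_zero⟩
      have h1 : ∑ i, (c (n + 1) i).val • ((v i : s30a_Tp A p) : ℕ → A) n =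
          ∑ i, (c n i).val • ((v i : s30a_Tp A p) : ℕ → A) n := by
        rw [hc n, ← s30a_succ x n, ← hc (n + 1), Finset.smul_sum]
        refine Finset.sum_congr rfl fun j _ => ?_
        rw [smul_comm, s30a_succ]
      have h2 := s59b_coord_unique v hv n (fun i => (c (n + 1) i).val) (fun i => (c n i).val) h1 i
      rw [ZMod.natCast_zmod_val (c n i)] at h2
      rw [← h2, ZMod.castHom_apply, ZMod.natCast_val]
    let a : Fin d → ℤ_[p] := fun i => s30u_lim p ⟨fun n => c n i, hcompat i⟩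
    have ha : ∀ (i : Fin d) (n : ℕ), PadicInt.toZModPow n (a i) = c n i :=
      fun i n => s30u_lim_spec p ⟨fun n => c n i, hcompat i⟩ n
    refine ⟨a, ?_⟩
    rw [hΦ]
    refine s30a_ext fun n => ?_
    haveI : NeZero (p ^ n) := ⟨pow_ne_zero _ hp.out.ne_zero⟩
    rw [s59b_lc_apply, ← hc n]
    refine Finset.sum_congr rfl fun i _ => ?_
    exact s30a_appr_smul_eq (a i) (c n i).val
      ((ha i n).trans (ZMod.natCast_zmod_val (c n i)).symm) (s30a_pow_smul (v i) n)

theorem s59b_tp_free (hcard : ∀ n : ℕ, Nat.card (s59b_tor A (p ^ n)) = p ^ (d * n)) :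
    Module.Free ℤ_[p] (s30a_Tp A p) := by
  obtain ⟨e⟩ := s59b_tp_equiv hcard
  exact Module.Free.of_equiv e

theorem s59b_tp_finite (hcard : ∀ n : ℕ, Nat.card (s59b_tor A (p ^ n)) = p ^ (d * n)) :
    Module.Finite ℤ_[p] (s30a_Tp A p) := by
  obtain ⟨e⟩ := s59b_tp_equiv hcard
  exact Module.Finite.equiv e

theorem s59b_tp_finrank (hcard : ∀ n : ℕ, Nat.card (s59b_tor A (p ^ n)) = p ^ (d * n)) :
    Module.finrank ℤ_[p] (s30a_Tp A p) = d := by
  obtain ⟨e⟩ := s59b_tp_equiv hcard
  rw [← e.finrank_eq, Module.finrank_fin_fun]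

end Free

end Fermat.Agent.Lib.S59
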