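/-
Programme R (S59), E-side, [E1] part 2 (helper2, prefix `s59b_`): **the `p`-adic Galois
representation `ρ_W` of an integral Weierstrass curve `W` with `Δ ≠ 0`**, on the Tate module
`T_p W = s30a_Tp W(ℚ̄) p`:

* `s59b_rhoW W p hΔ : GaloisRepAdic ℤ_[p]` (free of rank `2` by `Lib/EN/Torsion` + `BTate`,
  adic continuity from `s58o_ellLevel`),
* `s59b_rhoW_unram`   : trivial on inertia at good `q ≠ p` (`p` odd; `s58e_ellUnram`),
* `s59b_rhoW_frobQuad`: `σ² − a_ℓ σ + ℓ = 0` for Frobenius elements at good `ℓ ≠ p` (`p` odd;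
  `s44s_ellFrob`),
* `s59b_rhoW_proj_surj`, `s59b_rhoW_apply`: the dictionary with the points `W[pⁿ](ℚ̄)`.
-/
import Fermat.Agent.Lib.S59.BTate
import Fermat.Agent.Lib.S58.OExact
import Fermat.Agent.Lib.S58.E1Close
import Fermat.Agent.Lib.S44.SoftDens
import Fermat.Prelude.Def_GaloisRep_Adic

set_option autoImplicit false
set_option linter.unusedSectionVars false
set_option linter.style.haveILetI false

noncomputable section

namespace Fermat.Agent.Lib.S59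

open Fermat.Agent.Lib.S30 Fermat.Agent.Lib.S58 Fermat.Agent.Lib.EN Fermat.Agent.Lib.S44
open WeierstrassCurve WeierstrassCurve.Affine IsLocalRing

local notation "Kb" => AlgebraicClosure ℚ

variable (W : WeierstrassCurve ℤ) (p : ℕ) [hp : Fact p.Prime]

/-- the Tate module `T_p W`. -/
abbrev s59b_TW : Type := s30a_Tp (s58_Pt W) p

/-- `#W[pⁿ](ℚ̄) = p²ⁿ`. -/
theorem s59b_card_tor (hΔ : W.Δ ≠ 0) (n : ℕ) :
    Nat.card (s59b_tor (s58_Pt W) (p ^ n)) = p ^ (2 * n) := by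
  haveI := s58o_isElliptic W hΔ
  set E : WeierstrassCurve ℚ := W.map (Int.castRingHom ℚ) with hE
  have hc : Nat.card {P : (E.toAffine⁄Kb).Point // p ^ n • P = 0} = (p ^ n) ^ 2 :=
    ent_natCard_torsion (E.toAffine⁄Kb) (p ^ n) (Nat.one_le_pow _ _ hp.out.pos)
  rw [← pow_mul, mul_comm] at hc
  rw [← hc]
  exact Nat.card_congr (Equiv.subtypeEquivRight fun P => s59b_mem_tor)

/-- the Galois action on the Tate module. -/
def s59b_rhoFun : s58_G →* Module.End ℤ_[p] (s59b_TW W p) :=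
  (s30a_map (s58_Pt W) p : AddMonoid.End (s58_Pt W) →* Module.End ℤ_[p] (s59b_TW W p)).comp
    (DistribMulAction.toAddMonoidEnd s58_G (s58_Pt W))

@[simp] theorem s59b_rhoFun_apply (σ : s58_G) (x : s59b_TW W p) (n : ℕ) :
    ((s59b_rhoFun W p σ x : s59b_TW W p) : ℕ → s58_Pt W) n = σ • (x : ℕ → s58_Pt W) n := rfl

theorem s59b_p_mem : (p : ℤ_[p]) ∈ maximalIdeal ℤ_[p] := by
  rw [PadicInt.maximalIdeal_eq_span_p]
  exact Ideal.subset_span rfl

/-- **`ρ_W`.** -/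
def s59b_rhoW (hΔ : W.Δ ≠ 0) : GaloisRepAdic ℤ_[p] where
  V := s59b_TW W p
  instFree := s59b_tp_free (s59b_card_tor W p hΔ)
  instFinite := s59b_tp_finite (s59b_card_tor W p hΔ)
  finrank_eq := s59b_tp_finrank (s59b_card_tor W p hΔ)
  ρ := s59b_rhoFun W p
  isAdicContinuous := by
    intro n
    obtain ⟨L, hfd, hL⟩ := s58o_ellLevel W hΔ (p ^ n) (pow_pos hp.out.pos n)
    refine ⟨L, hfd, fun σ hσ v => ?_⟩
    obtain ⟨w, hw⟩ := s30a_map_sub_mem (DistribMulAction.toAddMonoidEnd s58_G (s58_Pt W) σ) n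
      (fun y hy => hL σ hσ y hy) v
    have h1 : s59b_rhoFun W p σ v - v = (p : ℤ_[p]) ^ n • w := hw
    rw [h1]
    exact Submodule.smul_mem_smul (Ideal.pow_mem_pow (s59b_p_mem p) n) Submodule.mem_top

variable {W p}

@[simp] theorem s59b_rhoW_rho (hΔ : W.Δ ≠ 0) : (s59b_rhoW W p hΔ).ρ = s59b_rhoFun W p := rfl

/-- every point of `W[pⁿ]` is the `n`-th component of an element of the Tate module. -/
theorem s59b_rhoW_proj_surj (hΔ : W.Δ ≠ 0) (n : ℕ) (P : s58_Pt W) (hP : p ^ n • P = 0) :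
    ∃ x : s59b_TW W p, (x : ℕ → s58_Pt W) n = P :=
  s59b_proj_surjective (s59b_card_tor W p hΔ) n P hP

/-- **unramified at the good primes `q ≠ p`** (`p` odd). -/
theorem s59b_rhoW_unram (hΔ : W.Δ ≠ 0) (hp2 : p ≠ 2) (q : ℕ) (hq : q.Prime) (hqp : q ≠ p)
    (hgood : W.IsGoodPrimeFor q) : (s59b_rhoW W p hΔ).IsUnramifiedAt q := by
  intro P hP σ hσ
  show s59b_rhoFun W p σ = 1
  exact s30a_map_eq_one (fun n y hy =>
    s58e_ellUnram W q hq hgood p hp.out hp2 (Ne.symm hqp) n P hP σ hσ y hy)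

/-- **the quadratic relation of a Frobenius element at a good prime `ℓ ≠ p`** (`p` odd). -/
theorem s59b_rhoW_frobQuad (hp2 : p ≠ 2) (ℓ : ℕ) (hℓ : ℓ.Prime) (hℓp : ℓ ≠ p)
    (hgood : W.IsGoodPrimeFor ℓ) (A : ValuationSubring Kb) (hA : A.LiesOverPrime ℓ)
    (σ : s58_G) (hσ : A.IsFrobeniusAt σ ℓ) :
    s59b_rhoFun W p σ * s59b_rhoFun W p σ - ((W.apOfModel ℓ : ℤ) : ℤ_[p]) • s59b_rhoFun W p σ +
      ((ℓ : ℕ) : ℤ_[p]) • (1 : Module.End ℤ_[p] (s59b_TW W p)) = 0 := by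
  refine s30a_end_ext fun x n => ?_
  show σ • σ • (x : ℕ → s58_Pt W) n -
      ((((W.apOfModel ℓ : ℤ) : ℤ_[p]) • s59b_rhoFun W p σ x : s59b_TW W p) : ℕ → s58_Pt W) n +
      ((((ℓ : ℕ) : ℤ_[p]) • x : s59b_TW W p) : ℕ → s58_Pt W) n = 0
  rw [s30a_natCast_smul_apply, s30a_intCast_smul_apply, s59b_rhoFun_apply]
  exact s44s_ellFrob W ℓ hℓ hgood p hp.out hp2 (Ne.symm hℓp) n A hA σ hσ _ (s30a_pow_smul x n)

end Fermat.Agent.Lib.S59
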