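/-
Programme R (S59), E-side, [E2] + [E-Frob] + [E5] (helper2, prefix `s59b_`): **`det ρ_W = ε_p`,
the characteristic polynomials of Frobenius elements, unipotent inertia** — without the Weil
pairing.

* `s59b_cmpT`          : [CMP] of `Lib/S58/WCmp`, points only: `g + u g⁻¹` is an integer scalar on
  a finite Galois module on which the Frobenius elements satisfy `σ² − a_ℓ σ + ℓ = 0`
  (`u ≡ ε(g)`);
* `s59b_rhoW_approx`   : `ρ_W(g) + ε(g) ρ_W(g⁻¹)` is congruent to a scalar modulo every `pⁿ`;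
* `s59b_rhoW_det`      : `det ρ_W(g) = ε_p(g)` (needs: `p` odd, `W[p]` irreducible);
* `s59b_rhoW_detCyc`   : `DetIsCyclotomic`;
* `s59b_rhoW_charpoly` : `charpoly ρ_W(Frob_ℓ) = X² − a_ℓ X + ℓ` at the good primes `ℓ ≠ p`;
* `s59b_rhoW_unip`     : `IsUnipotentOnInertiaAt q` for every `q ≠ p` (semistable `W`).
-/
import Fermat.Agent.Lib.S59.BRho
import Fermat.Agent.Lib.S59.BDetAlg
import Fermat.Agent.Lib.S58.WCons
import Fermat.Agent.Lib.S58.MultFixClose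
import Fermat.Prelude.Def_GaloisRep_LocalConditions
import Fermat.Prelude.Def_FLTPrelim_ModularRep

set_option autoImplicit false
set_option linter.unusedSectionVars false
set_option linter.style.haveILetI false

noncomputable section

namespace Fermat.Agent.Lib.S59

open Fermat.Agent.Lib.S29 Fermat.Agent.Lib.S30 Fermat.Agent.Lib.S35 Fermat.Agent.Lib.S58
  Fermat.Agent.Lib.EN Fermat.Agent.Lib.S44
open WeierstrassCurve WeierstrassCurve.Affine IsLocalRing Polynomial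

local notation "Kb" => AlgebraicClosure ℚ

/-- **[CMP], points only.** -/
theorem s59b_cmpT {T : Type} [AddCommGroup T] [DistribMulAction s58_G T]
    (lam : ℕ) [Fact lam.Prime] (n : ℕ)
    (hkill : ∀ P : T, lam ^ n • P = 0)
    (hlevel : ∃ L : IntermediateField ℚ Kb, FiniteDimensional ℚ L ∧
      ∀ σ : s58_G, (∀ x ∈ L, σ x = x) → ∀ P : T, σ • P = P)
    (S₀ : Finset ℕ) (hlamS : lam ∈ S₀) (a : ℕ → ℤ)
    (hE : ∀ ℓ : ℕ, ℓ.Prime → ℓ ∉ S₀ → ∀ A : ValuationSubring Kb, A.LiesOverPrime ℓ →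
      ∀ σ : s58_G, A.IsFrobeniusAt σ ℓ →
        ∀ P : T, σ • σ • P - a ℓ • σ • P + ℓ • P = 0)
    (g : s58_G) (u : ℤ)
    (hu : PadicInt.toZModPow n ((s30y_eps lam g : ℤ_[lam]ˣ) : ℤ_[lam]) =
      ((u : ℤ) : ZMod (lam ^ n))) :
    ∃ s : ℤ, ∀ P : T, g • P + u • g⁻¹ • P = s • P := by
  obtain ⟨L₂, hfd₂, hT⟩ := hlevel
  obtain ⟨L₃, hfd₃, -, hε⟩ := s30y_cont lam n
  have hfd₀ : FiniteDimensional ℚ (L₂ ⊔ L₃ : IntermediateField ℚ Kb) :=
    IntermediateField.finiteDimensional_sup L₂ L₃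
  obtain ⟨L, hLfd, hLst, hle⟩ := s35el_exists_stable (L₂ ⊔ L₃) hfd₀
  have hle₂ : L₂ ≤ L := le_trans le_sup_left hle
  have hle₃ : L₃ ≤ L := le_trans le_sup_right hle
  obtain ⟨ℓ, A, σ, j, hℓ, hℓS, hA, hFr, hj⟩ := s29d_frobDensity L hLfd hLst S₀ g
  have hℓlam : ℓ ≠ lam := fun h => hℓS (h ▸ hlamS)
  obtain ⟨τ, hτ⟩ : ∃ τ : s58_G, τ = σ ^ j := ⟨_, rfl⟩
  rw [← hτ] at hj
  obtain ⟨h, hg, hfix⟩ : ∃ h : s58_G, g = τ * h ∧ ∀ x ∈ L, h x = x := by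
    refine ⟨τ⁻¹ * g, by rw [mul_inv_cancel_left], fun x hx => ?_⟩
    rw [AlgEquiv.mul_apply, ← hj x hx]
    exact τ.symm_apply_apply x
  have hfix' : ∀ x ∈ L, h⁻¹ x = x := by
    intro x hx
    conv_lhs => rw [← hfix x hx]
    exact h.symm_apply_apply x
  have hginv : g⁻¹ = h⁻¹ * τ⁻¹ := by rw [hg, mul_inv_rev]
  have hεσ := s30y_frob lam ℓ hℓ hℓlam A hA σ hFr
  obtain ⟨w, hw⟩ := hε h (fun x hx => hfix x (hle₃ hx))
  have hεh : PadicInt.toZModPow n ((s30y_eps lam h : ℤ_[lam]ˣ) : ℤ_[lam]) = 1 := by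
    have : ((s30y_eps lam h : ℤ_[lam]ˣ) : ℤ_[lam]) = 1 + (lam : ℤ_[lam]) ^ n * w := by
      rw [← hw]; ring
    rw [this, map_add, map_one, map_mul, map_pow, map_natCast]
    have h0 : ((lam : ZMod (lam ^ n))) ^ n = 0 := by
      rw [← Nat.cast_pow]; exact ZMod.natCast_self _
    rw [h0, zero_mul, add_zero]
  have hεg : PadicInt.toZModPow n ((s30y_eps lam g : ℤ_[lam]ˣ) : ℤ_[lam]) =
      (((ℓ : ℤ) ^ j : ℤ) : ZMod (lam ^ n)) := by
    rw [hg, map_mul, Units.val_mul, map_mul, hεh, mul_one, hτ, map_pow, Units.val_pow_eq_pow_val,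
      map_pow, hεσ, map_natCast]
    push_cast
    rfl
  have hdvd : ((lam ^ n : ℕ) : ℤ) ∣ u - (ℓ : ℤ) ^ j := by
    rw [hu] at hεg
    exact (ZMod.intCast_eq_intCast_iff_dvd_sub ((ℓ : ℤ) ^ j) u (lam ^ n)).mp hεg.symm
  obtain ⟨k, hk⟩ := hdvd
  refine ⟨s58w_luc (a ℓ) (ℓ : ℤ) j, ?_⟩
  intro P
  have hrel : ∀ Q : T, σ • σ • Q - a ℓ • σ • Q + (ℓ : ℤ) • Q = 0 := by
    intro Q
    rw [natCast_zsmul]
    exact hE ℓ hℓ hℓS A hA σ hFr Q
  have hmain := s58w_pt_pow σ (a ℓ) (ℓ : ℤ) hrel j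
  rw [← hτ] at hmain
  have hhP : ∀ Q : T, h • Q = Q := fun Q => hT h (fun x hx => hfix x (hle₂ hx)) Q
  have hhP' : ∀ Q : T, h⁻¹ • Q = Q := fun Q => hT h⁻¹ (fun x hx => hfix' x (hle₂ hx)) Q
  have e1 : g • P = τ • P := by rw [hg, mul_smul, hhP]
  have e2 : g⁻¹ • P = τ⁻¹ • P := by rw [hginv, mul_smul, hhP']
  have e3 : u • τ⁻¹ • P = (ℓ : ℤ) ^ j • τ⁻¹ • P := by
    have : u = (ℓ : ℤ) ^ j + ((lam ^ n : ℕ) : ℤ) * k := by rw [← hk]; ring
    rw [this, add_smul, mul_comm, mul_smul, natCast_zsmul, hkill, smul_zero, add_zero]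
  rw [e1, e2, e3]
  exact hmain P

section Curve

variable {W : WeierstrassCurve ℤ} {p : ℕ} [hp : Fact p.Prime]

/-- the finite set of excluded primes: `p` and the primes of bad reduction. -/
def s59b_S0 (W : WeierstrassCurve ℤ) (p : ℕ) : Finset ℕ := insert p W.Δ.natAbs.primeFactors

theorem s59b_p_mem_S0 : p ∈ s59b_S0 W p := Finset.mem_insert_self _ _

theorem s59b_of_notMem_S0 (hΔ : W.Δ ≠ 0) {ℓ : ℕ} (hℓ : ℓ.Prime) (h : ℓ ∉ s59b_S0 W p) :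
    ℓ ≠ p ∧ W.IsGoodPrimeFor ℓ := by
  rw [s59b_S0, Finset.mem_insert, not_or] at h
  refine ⟨h.1, fun hdvd => h.2 ?_⟩
  rw [Nat.mem_primeFactors]
  exact ⟨hℓ, Int.natCast_dvd.mp hdvd, Int.natAbs_ne_zero.mpr hΔ⟩

/-- `g + u g⁻¹` is an integer scalar on `W[pⁿ]` when `u ≡ ε_p(g)` modulo `pⁿ`. -/
theorem s59b_pt_rel (hΔ : W.Δ ≠ 0) (hp2 : p ≠ 2) (n : ℕ) (g : s58_G) (u : ℤ)
    (hu : PadicInt.toZModPow n ((s30y_eps p g : ℤ_[p]ˣ) : ℤ_[p]) = ((u : ℤ) : ZMod (p ^ n))) :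
    ∃ s : ℤ, ∀ P : s58_Pt W, p ^ n • P = 0 → g • P + u • g⁻¹ • P = s • P := by
  have hmem : ∀ P : s58_Pt W, P ∈ Submodule.torsionBy ℤ (s58_Pt W) ((p ^ n : ℕ) : ℤ) ↔
      p ^ n • P = 0 := by
    intro P
    rw [Submodule.mem_torsionBy_iff, natCast_zsmul]
  have hppos : 0 < p ^ n := pow_pos hp.out.pos n
  obtain ⟨L, hLfd, hL⟩ := s58o_ellLevel W hΔ (p ^ n) hppos
  obtain ⟨s, hs⟩ := s59b_cmpT (T := Submodule.torsionBy ℤ (s58_Pt W) ((p ^ n : ℕ) : ℤ)) p n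
    (fun P => Subtype.ext ((hmem P.1).mp P.2))
    ⟨L, hLfd, fun σ hσ P => Subtype.ext (hL σ hσ P.1 ((hmem P.1).mp P.2))⟩
    (s59b_S0 W p) s59b_p_mem_S0 (fun ℓ => W.apOfModel ℓ)
    (fun ℓ hℓ hℓS A hA σ hσ P => Subtype.ext (by
      obtain ⟨hℓp, hgood⟩ := s59b_of_notMem_S0 hΔ hℓ hℓS
      exact s44s_ellFrob W ℓ hℓ hgood p hp.out hp2 (Ne.symm hℓp) n A hA σ hσ P.1
        ((hmem P.1).mp P.2)))
    g u hu
  refine ⟨s, fun P hP => ?_⟩
  exact congrArg Subtype.val (hs ⟨P, (hmem P).mpr hP⟩)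

/-- **`ρ_W(g) + ε(g) ρ_W(g⁻¹)` is congruent to a scalar modulo every `pⁿ`.** -/
theorem s59b_rhoW_approx (hΔ : W.Δ ≠ 0) (hp2 : p ≠ 2) (g : s58_G) (n : ℕ) :
    ∃ s : ℤ_[p], ∀ v : s59b_TW W p,
      (s59b_rhoFun W p g + ((s30y_eps p g : ℤ_[p]ˣ) : ℤ_[p]) • s59b_rhoFun W p g⁻¹) v - s • v ∈
        (maximalIdeal ℤ_[p] ^ n) • (⊤ : Submodule ℤ_[p] (s59b_TW W p)) := by
  haveI : NeZero (p ^ n) := ⟨pow_ne_zero _ hp.out.ne_zero⟩
  set e : ℤ_[p] := ((s30y_eps p g : ℤ_[p]ˣ) : ℤ_[p]) with he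
  set m : ℕ := (PadicInt.toZModPow n e).val with hm
  have hme : PadicInt.toZModPow n e = ((m : ℕ) : ZMod (p ^ n)) :=
    (ZMod.natCast_zmod_val _).symm
  obtain ⟨s, hs⟩ := s59b_pt_rel hΔ hp2 n g (m : ℤ) (by rw [hme, Int.cast_natCast])
  refine ⟨(s : ℤ_[p]), fun v => ?_⟩
  have h0 : (((s59b_rhoFun W p g + e • s59b_rhoFun W p g⁻¹) v - (s : ℤ_[p]) • v :
      s59b_TW W p) : ℕ → s58_Pt W) n = 0 := by
    rw [s30a_sub_apply, LinearMap.add_apply, s30a_add_apply, LinearMap.smul_apply,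
      s30a_smul_apply_of_eq e _ n m hme, s59b_rhoFun_apply, s59b_rhoFun_apply,
      s30a_intCast_smul_apply]
    have := hs ((v : ℕ → s58_Pt W) n) (s30a_pow_smul v n)
    rw [natCast_zsmul] at this
    rw [this, sub_self]
  obtain ⟨w, hw⟩ := s30a_exists_pow_smul _ n h0
  rw [hw]
  exact Submodule.smul_mem_smul (Ideal.pow_mem_pow (s59b_p_mem p) n) Submodule.mem_top

/-- the action on `W[p]` read off from the Tate module. -/
theorem s59b_smul_of_scalar (hΔ : W.Δ ≠ 0) (g : s58_G) (s : ℤ_[p])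
    (hs : s59b_rhoFun W p g = s • (1 : Module.End ℤ_[p] (s59b_TW W p)))
    (n : ℕ) (P : s58_Pt W) (hP : p ^ n • P = 0) : g • P = s.appr n • P := by
  obtain ⟨x, hx⟩ := s59b_rhoW_proj_surj hΔ n P hP
  have h1 := congrArg (fun f : Module.End ℤ_[p] (s59b_TW W p) =>
    ((f x : s59b_TW W p) : ℕ → s58_Pt W) n) hs
  simp only [s59b_rhoFun_apply, LinearMap.smul_apply, Module.End.one_apply, s30a_smul_apply] at h1
  rw [hx] at h1
  exact h1

/-- **irreducibility of `W[p]` gives a non-scalar `ρ_W(g₀)`.** -/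
theorem s59b_exists_nonscalar (hΔ : W.Δ ≠ 0) (hirr : W.ModRepIsIrreducible p) :
    ∃ g₀ : s58_G, ¬ ∃ s : ℤ_[p],
      s59b_rhoFun W p g₀ = s • (1 : Module.End ℤ_[p] (s59b_TW W p)) := by
  by_contra hcon
  have hall : ∀ g : s58_G, ∃ s : ℤ_[p],
      s59b_rhoFun W p g = s • (1 : Module.End ℤ_[p] (s59b_TW W p)) := by
    intro g
    by_contra hg
    exact hcon ⟨g, hg⟩
  obtain ⟨hnt, hN⟩ := hirr
  obtain ⟨P₀, hP₀⟩ := exists_ne (0 : Submodule.torsionBy ℤ (s58_Pt W) (p : ℤ))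
  have hP₀p : p ^ 1 • (P₀ : s58_Pt W) = 0 := by
    have := (Submodule.mem_torsionBy_iff _ _).mp P₀.2
    rw [natCast_zsmul] at this
    rw [pow_one]
    exact this
  have hstab : Point.IsGaloisStable ℚ (Submodule.span (ZMod p) {P₀}) := by
    intro σ x hx
    obtain ⟨c, rfl⟩ := Submodule.mem_span_singleton.mp hx
    obtain ⟨s, hs⟩ := hall σ
    have h1 : σ • (P₀ : s58_Pt W) = s.appr 1 • (P₀ : s58_Pt W) :=
      s59b_smul_of_scalar hΔ σ s hs 1 _ hP₀p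
    have h2 : σ • P₀ = s.appr 1 • P₀ := Subtype.ext h1
    have h3 : σ • (c • P₀) = c • (σ • P₀) := by
      rw [← ZMod.natCast_zmod_val c, Nat.cast_smul_eq_nsmul, Nat.cast_smul_eq_nsmul]
      exact map_nsmul (DistribSMul.toAddMonoidHom _ σ) _ _
    rw [h3, h2]
    exact Submodule.smul_mem _ _ (Submodule.smul_of_tower_mem _ _
      (Submodule.mem_span_singleton_self P₀))
  rcases hN _ hstab with hbot | htop
  · apply hP₀
    have : P₀ ∈ Submodule.span (ZMod p) {P₀} := Submodule.mem_span_singleton_self P₀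
    rw [hbot] at this
    exact (Submodule.mem_bot _).mp this
  · -- `#W[p] ≤ p`, contradiction with `#W[p] = p²`
    have hsurj : Function.Surjective
        (fun c : ZMod p => c • P₀ : ZMod p → Submodule.torsionBy ℤ (s58_Pt W) (p : ℤ)) := by
      intro x
      have hx : x ∈ Submodule.span (ZMod p) {P₀} := by rw [htop]; exact Submodule.mem_top
      obtain ⟨c, hc⟩ := Submodule.mem_span_singleton.mp hx
      exact ⟨c, hc⟩
    have hle := Nat.card_le_card_of_surjective _ hsurj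
    haveI := s58o_isElliptic W hΔ
    have hcard : Nat.card (Submodule.torsionBy ℤ (s58_Pt W) (p : ℤ)) = p ^ 2 :=
      ent_natCard_torsionBy ((W.map (Int.castRingHom ℚ)).toAffine⁄Kb) p hp.out.one_le
    rw [hcard, Nat.card_zmod] at hle
    have h2 := hp.out.two_le
    nlinarith

/-- **`det ρ_W = ε_p`** (`p` odd, `W[p]` irreducible). -/
theorem s59b_rhoFun_det (hΔ : W.Δ ≠ 0) (hp2 : p ≠ 2) (hirr : W.ModRepIsIrreducible p)
    (g : s58_G) :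
    LinearMap.det (s59b_rhoFun W p g) = ((s30y_eps p g : ℤ_[p]ˣ) : ℤ_[p]) := by
  haveI : Module.Free ℤ_[p] (s59b_TW W p) := s59b_tp_free (s59b_card_tor W p hΔ)
  haveI : Module.Finite ℤ_[p] (s59b_TW W p) := s59b_tp_finite (s59b_card_tor W p hΔ)
  have h2 : Module.finrank ℤ_[p] (s59b_TW W p) = 2 := s59b_tp_finrank (s59b_card_tor W p hΔ)
  obtain ⟨g₀, hg₀⟩ := s59b_exists_nonscalar hΔ hirr
  refine s59b_det_eq_of_generic (s59b_rhoFun W p)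
    ((Units.coeHom ℤ_[p]).comp (s30y_eps p)) (fun g hg => ?_) g₀ hg₀ g
  have hinv : s59b_rhoFun W p g * s59b_rhoFun W p g⁻¹ = 1 := by
    rw [← map_mul, mul_inv_cancel, map_one]
  rcases s59b_det_or_scalar h2 (s59b_rhoFun W p g) (s59b_rhoFun W p g⁻¹) hinv
    ((s30y_eps p g : ℤ_[p]ˣ) : ℤ_[p]) (s59b_rhoW_approx hΔ hp2 g) with h | h
  · exact h
  · exact absurd h hg

/-- **`DetIsCyclotomic`.** -/
theorem s59b_rhoW_detCyc (hΔ : W.Δ ≠ 0) (hp2 : p ≠ 2) (hirr : W.ModRepIsIrreducible p) :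
    (s59b_rhoW W p hΔ).DetIsCyclotomic p := by
  refine ⟨s59b_p_mem p, fun n σ a ha => ?_⟩
  show LinearMap.det (s59b_rhoFun W p σ) - (a : ℤ_[p]) ∈ Ideal.span {((p ^ n : ℕ) : ℤ_[p])}
  rw [s59b_rhoFun_det hΔ hp2 hirr σ]
  obtain ⟨ζ, hζ⟩ := s30y_exists_primitiveRoot p n
  have h1 := s30y_toZModPow_eq p σ n hζ a (ha ζ hζ.pow_eq_one)
  have h2 : ((s30y_eps p σ : ℤ_[p]ˣ) : ℤ_[p]) - (a : ℤ_[p]) ∈
      RingHom.ker (PadicInt.toZModPow (p := p) n) := by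
    rw [RingHom.mem_ker, map_sub, h1, map_natCast, sub_self]
  rw [PadicInt.ker_toZModPow] at h2
  rwa [Nat.cast_pow]

/-- **[E-Frob]** the characteristic polynomial of a Frobenius element at a good prime `ℓ ≠ p`. -/
theorem s59b_rhoW_charpoly (hΔ : W.Δ ≠ 0) (hp2 : p ≠ 2) (hirr : W.ModRepIsIrreducible p)
    (ℓ : ℕ) (hℓ : ℓ.Prime) (hgood : W.IsGoodPrimeFor ℓ) (hℓp : ℓ ≠ p)
    (A : ValuationSubring Kb) (hA : A.LiesOverPrime ℓ) (σ : s58_G) (hσ : A.IsFrobeniusAt σ ℓ) :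
    LinearMap.charpoly ((s59b_rhoW W p hΔ).ρ σ) =
      X ^ 2 - C (((W.apOfModel ℓ : ℤ) : ℤ_[p])) * X + C ((ℓ : ℤ_[p])) := by
  haveI : Module.Free ℤ_[p] (s59b_TW W p) := s59b_tp_free (s59b_card_tor W p hΔ)
  haveI : Module.Finite ℤ_[p] (s59b_TW W p) := s59b_tp_finite (s59b_card_tor W p hΔ)
  have h2 : Module.finrank ℤ_[p] (s59b_TW W p) = 2 := s59b_tp_finrank (s59b_card_tor W p hΔ)
  haveI : Nontrivial (s59b_TW W p) :=
    Module.nontrivial_of_finrank_pos (R := ℤ_[p]) (by rw [h2]; norm_num)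
  show LinearMap.charpoly (s59b_rhoFun W p σ) = _
  set F := s59b_rhoFun W p σ with hF
  have hdet : LinearMap.det F = (ℓ : ℤ_[p]) := by
    rw [hF, s59b_rhoFun_det hΔ hp2 hirr σ]
    exact s30y_frob p ℓ hℓ hℓp A hA σ hσ
  have hquad := s59b_rhoW_frobQuad hp2 ℓ hℓ hℓp hgood A hA σ hσ
  rw [← hF] at hquad
  have hCH := s35el_sq_eq h2 F
  rw [hdet] at hCH
  -- `(tr - a) • F = 0`
  have h3 : (LinearMap.trace ℤ_[p] (s59b_TW W p) F - ((W.apOfModel ℓ : ℤ) : ℤ_[p])) • F = 0 := by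
    rw [hCH] at hquad
    rw [sub_smul]
    rw [← hquad]
    abel
  have hinv : F * s59b_rhoFun W p σ⁻¹ = 1 := by
    rw [hF, ← map_mul, mul_inv_cancel, map_one]
  have h4 : (LinearMap.trace ℤ_[p] (s59b_TW W p) F - ((W.apOfModel ℓ : ℤ) : ℤ_[p])) •
      (1 : Module.End ℤ_[p] (s59b_TW W p)) = (0 : ℤ_[p]) • (1 : Module.End ℤ_[p] (s59b_TW W p)) := by
    rw [zero_smul, ← hinv, ← smul_mul_assoc, h3, zero_mul]
  have htr : LinearMap.trace ℤ_[p] (s59b_TW W p) F = ((W.apOfModel ℓ : ℤ) : ℤ_[p]) :=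
    sub_eq_zero.mp (s30d_smul_one_injective h4)
  rw [s35el_charpoly_eq h2 F, htr, hdet]

/-- `ρ_W` fits the comparison set-up of `Lib/S58/WCons`. -/
theorem s59b_rhoW_setup (hΔ : W.Δ ≠ 0) (hp2 : p ≠ 2) (hirr : W.ModRepIsIrreducible p) :
    s58w_Setup W (s59b_rhoW W p hΔ) p (s59b_S0 W p) where
  hlam := s59b_p_mem p
  hlamS := s59b_p_mem_S0
  hΔ := hΔ
  hF := fun ℓ hℓ hℓS A hA σ hσ => by
    obtain ⟨hℓp, hgood⟩ := s59b_of_notMem_S0 hΔ hℓ hℓS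
    exact s59b_rhoW_charpoly hΔ hp2 hirr ℓ hℓ hgood hℓp A hA σ hσ
  hE := fun ℓ hℓ hℓS A hA σ hσ n P hP => by
    obtain ⟨hℓp, hgood⟩ := s59b_of_notMem_S0 hΔ hℓ hℓS
    exact s44s_ellFrob W ℓ hℓ hgood p hp.out hp2 (Ne.symm hℓp) n A hA σ hσ P hP

/-- **[E5]** unipotent inertia at every prime `q ≠ p` (semistable `W`). -/
theorem s59b_rhoW_unip (hΔ : W.Δ ≠ 0) (hp2 : p ≠ 2) (hirr : W.ModRepIsIrreducible p)
    (hss : W.IsSemistableModel) (q : ℕ) (hq : q.Prime) (hqp : q ≠ p) :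
    (s59b_rhoW W p hΔ).IsUnipotentOnInertiaAt q := by
  intro P hP τ hτ
  by_cases hgood : W.IsGoodPrimeFor q
  · have h1 : (s59b_rhoW W p hΔ).ρ τ = 1 := s59b_rhoW_unram hΔ hp2 q hq hqp hgood P hP τ hτ
    rw [h1, s35el_charpoly_eq (s59b_rhoW W p hΔ).finrank_eq, LinearMap.trace_one,
      (s59b_rhoW W p hΔ).finrank_eq, map_one]
    simp only [Nat.cast_ofNat, map_ofNat, map_one]
    ring
  · have hdvd : (q : ℤ) ∣ W.Δ := by
      by_contra h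
      exact hgood h
    exact s58w_unipotent s58o_ellLevel (s59b_rhoW_setup hΔ hp2 hirr) q hq hqp P hP
      (fun n => s58m_ellMultFix W hΔ q hq hdvd (hss q hq hdvd) p hp.out hp2 (Ne.symm hqp) n P hP)
      τ hτ

end Curve

end Fermat.Agent.Lib.S59
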