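/-
Programme R (S59), node (E6) `s59_TWImage` (helper5, prefix `s59e_`), part 1: PURE ALGEBRA.
Mathlib only.

* `s59e_frob_root`      : in characteristic `p`, a root `a` of `X² - tX + e` with `t^p = t`,
  `e^p = e` satisfies `a^(p²) = a`;
* `s59e_pgroup_cyclic`  : a finite `q`-group which is the normal closure of one element is
  generated by that element (hence commutative);
* `s59e_comm_stable`    : commuting endomorphisms of a plane over an algebraically closed field
  have a common stable line (in the form: a stable submodule `≠ ⊥, ⊤`);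
* `s59e_frob_root_or`, `s59e_trace_det_of_charpoly`, `s59e_unip_trivial`, `s59e_sq_eq_neg_one`,
  `s59e_parity_subgroup`: small tools for part 3.
-/
import Mathlib

set_option autoImplicit false
set_option linter.style.haveILetI false

namespace Fermat.Agent.Lib.S59

/-- the two roots of a quadratic with coefficients fixed by Frobenius are permuted by
Frobenius, hence fixed by its square. -/
theorem s59e_frob_root {K : Type*} [Field K] (p : ℕ) [Fact p.Prime] [CharP K p]
    {a b t e : K} (ht : t ^ p = t) (he : e ^ p = e) (hs : a + b = t) (hm : a * b = e) :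
    a ^ (p ^ 2) = a := by
  have h1 : a ^ p + b ^ p = t := by rw [← add_pow_char, hs, ht]
  have h2 : a ^ p * b ^ p = e := by rw [← mul_pow, hm, he]
  -- `a^p` is a root of `(X - a)(X - b)`
  have h3 : (a ^ p - a) * (a ^ p - b) = 0 := by
    have : (a ^ p - a) * (a ^ p - b) = a ^ p * a ^ p - (a + b) * a ^ p + a * b := by ring
    rw [this, hs, hm, ← h1, ← h2]; ring
  rw [pow_two, pow_mul]
  rcases mul_eq_zero.mp h3 with h | h
  · rw [sub_eq_zero] at h
    rw [h, h]
  · rw [sub_eq_zero] at h
    -- `a^p = b`, so `b^p = a`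
    have h4 : b ^ p = a := by
      have : b ^ p = t - a ^ p := by rw [← h1]; ring
      rw [this, h, ← hs]; ring
    rw [h, h4]

/-- consequence: a nonzero root has order dividing `p² - 1`. -/
theorem s59e_frob_root_pow {K : Type*} [Field K] (p : ℕ) [Fact p.Prime] [CharP K p]
    {a b t e : K} (ht : t ^ p = t) (he : e ^ p = e) (hs : a + b = t) (hm : a * b = e)
    (ha : a ≠ 0) : a ^ (p ^ 2 - 1) = 1 := by
  have h := s59e_frob_root p ht he hs hm
  have hp : 1 ≤ p ^ 2 := Nat.one_le_pow _ _ (Fact.out : p.Prime).pos
  have h2 : a ^ (p ^ 2 - 1) * a = 1 * a := by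
    rw [← pow_succ, Nat.sub_add_cancel hp, h, one_mul]
  exact mul_right_cancel₀ ha h2

/-- **Burnside-type lemma**: a finite `q`-group which is the normal closure of one element is
generated by that element. -/
theorem s59e_pgroup_cyclic {G : Type*} [Group G] [Finite G] (q : ℕ) [Fact q.Prime]
    (hG : IsPGroup q G) (g : G) (hg : Subgroup.normalClosure {g} = ⊤) :
    Subgroup.zpowers g = ⊤ := by
  haveI : Group.IsNilpotent G := hG.isNilpotent
  have hnc : NormalizerCondition G := Group.normalizerCondition_of_isNilpotent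
  rcases eq_top_or_exists_le_coatom (Subgroup.zpowers g) with h | ⟨M, hM, hle⟩
  · exact h
  · exfalso
    haveI : M.Normal := Subgroup.NormalizerCondition.normal_of_coatom M hnc hM
    have h1 : Subgroup.normalClosure {g} ≤ M := by
      apply Subgroup.normalClosure_le_normal
      intro x hx
      rw [Set.mem_singleton_iff] at hx
      rw [hx]
      exact hle (Subgroup.mem_zpowers g)
    rw [hg] at h1
    exact hM.1 (top_le_iff.mp h1)

/-- in a group generated by one element, any two elements commute. -/
theorem s59e_comm_of_zpowers {G : Type*} [Group G] (g : G) (hg : Subgroup.zpowers g = ⊤)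
    (x y : G) : x * y = y * x := by
  have hx : x ∈ Subgroup.zpowers g := by rw [hg]; exact Subgroup.mem_top x
  have hy : y ∈ Subgroup.zpowers g := by rw [hg]; exact Subgroup.mem_top y
  obtain ⟨i, rfl⟩ := Subgroup.mem_zpowers_iff.mp hx
  obtain ⟨j, rfl⟩ := Subgroup.mem_zpowers_iff.mp hy
  rw [← zpow_add, ← zpow_add, add_comm]

/-- **commuting endomorphisms of a plane over an algebraically closed field have a common
stable line.** -/
theorem s59e_comm_stable {K : Type*} [Field K] [IsAlgClosed K] {M : Type*} [AddCommGroup M]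
    [Module K M] (hdim : Module.finrank K M = 2) {Γ : Type*} (R : Γ → Module.End K M)
    (hcomm : ∀ g h : Γ, R g * R h = R h * R g) :
    ∃ U : Submodule K M, U ≠ ⊥ ∧ U ≠ ⊤ ∧ ∀ g : Γ, ∀ x ∈ U, R g x ∈ U := by
  classical
  haveI : Module.Finite K M := Module.finite_of_finrank_eq_succ hdim
  haveI : Nontrivial M := Module.nontrivial_of_finrank_pos (R := K) (by rw [hdim]; norm_num)
  by_cases hsc : ∀ g : Γ, ∃ c : K, R g = c • (1 : Module.End K M)
  · -- all scalar: any line works
    obtain ⟨v, hv⟩ := exists_ne (0 : M)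
    refine ⟨K ∙ v, ?_, ?_, ?_⟩
    · intro h
      exact hv ((Submodule.span_singleton_eq_bot).mp h)
    · intro h
      have h1 : Module.finrank K (K ∙ v) = 1 := finrank_span_singleton hv
      rw [h, finrank_top, hdim] at h1
      norm_num at h1
    · intro g x hx
      obtain ⟨c, hc⟩ := hsc g
      rw [hc, LinearMap.smul_apply, Module.End.one_apply]
      exact Submodule.smul_mem _ _ hx
  · push Not at hsc
    obtain ⟨g₀, hg₀⟩ := hsc
    obtain ⟨μ, hμ⟩ := Module.End.exists_eigenvalue (R g₀)
    refine ⟨Module.End.eigenspace (R g₀) μ, hμ, ?_, ?_⟩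
    · intro h
      apply hg₀ μ
      ext x
      have hx : x ∈ Module.End.eigenspace (R g₀) μ := by rw [h]; exact Submodule.mem_top
      rw [Module.End.mem_eigenspace_iff] at hx
      rw [hx, LinearMap.smul_apply, Module.End.one_apply]
    · intro g x hx
      rw [Module.End.mem_eigenspace_iff] at hx ⊢
      have h1 : R g₀ (R g x) = R g (R g₀ x) := by
        have := congrArg (fun f : Module.End K M => f x) (hcomm g₀ g)
        simpa [Module.End.mul_apply] using this
      rw [h1, hx, map_smul]

/-- Frobenius permutes the two roots. -/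
theorem s59e_frob_root_or {K : Type*} [Field K] (p : ℕ) [Fact p.Prime] [CharP K p]
    {a b t e : K} (ht : t ^ p = t) (he : e ^ p = e) (hs : a + b = t) (hm : a * b = e) :
    (a ^ p = a ∧ b ^ p = b) ∨ (a ^ p = b ∧ b ^ p = a) := by
  have h1 : a ^ p + b ^ p = t := by rw [← add_pow_char, hs, ht]
  have h2 : a ^ p * b ^ p = e := by rw [← mul_pow, hm, he]
  have h3 : (a ^ p - a) * (a ^ p - b) = 0 := by
    have : (a ^ p - a) * (a ^ p - b) = a ^ p * a ^ p - (a + b) * a ^ p + a * b := by ring
    rw [this, hs, hm, ← h1, ← h2]; ring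
  rcases mul_eq_zero.mp h3 with h | h
  · rw [sub_eq_zero] at h
    left
    refine ⟨h, ?_⟩
    have : b ^ p = t - a ^ p := by rw [← h1]; ring
    rw [this, h, ← hs]; ring
  · rw [sub_eq_zero] at h
    right
    refine ⟨h, ?_⟩
    have : b ^ p = t - a ^ p := by rw [← h1]; ring
    rw [this, h, ← hs]; ring

open Polynomial in
/-- trace and determinant of a plane endomorphism from its characteristic polynomial. -/
theorem s59e_trace_det_of_charpoly {k : Type*} [Field k] {V : Type*} [AddCommGroup V] [Module k V]
    [Module.Finite k V] (hdim : Module.finrank k V = 2) (f : Module.End k V) (t e : k)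
    (h : LinearMap.charpoly f = X ^ 2 - C t * X + C e) :
    LinearMap.trace k V f = t ∧ LinearMap.det f = e := by
  let b : Module.Basis (Fin 2) k V := Module.finBasisOfFinrankEq k V hdim
  have h1 := LinearMap.charpoly_toMatrix f b
  rw [Matrix.charpoly_fin_two, h] at h1
  have h2 : (LinearMap.toMatrix b b f).trace = t := by
    have := congrArg (fun q : k[X] => q.coeff 1) h1
    simp only [coeff_sub, coeff_add, coeff_C_mul, coeff_X_one, coeff_X_pow, coeff_C] at this
    simpa using this
  have h3 : (LinearMap.toMatrix b b f).det = e := by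
    have := congrArg (fun q : k[X] => q.coeff 0) h1
    simp only [coeff_sub, coeff_add, coeff_C_mul, coeff_X_zero, coeff_X_pow, coeff_C] at this
    simpa using this
  exact ⟨by rw [LinearMap.trace_eq_matrix_trace k b, h2], by rw [← LinearMap.det_toMatrix b, h3]⟩

/-- in characteristic `p`, a unipotent endomorphism of order prime to `p` is trivial. -/
theorem s59e_unip_trivial {K : Type*} [Field K] (p : ℕ) [CharP K p] {M : Type*}
    [AddCommGroup M] [Module K M] (f : Module.End K M) (h : (f - 1) ^ 2 = 0) (m : ℕ)
    (hm : m.Coprime p) (hfm : f ^ m = 1) : f = 1 := by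
  set n := f - 1 with hn
  have hf : f = 1 + n := by rw [hn]; abel
  have hnn : n * n = 0 := by rw [← pow_two]; exact h
  have hpow : ∀ j : ℕ, (1 + n) ^ j = 1 + (j : K) • n := by
    intro j
    induction j with
    | zero => simp
    | succ j ih =>
      rw [pow_succ, ih, add_mul, mul_add, mul_add, one_mul, one_mul, mul_one, smul_mul_assoc, hnn,
        smul_zero, add_zero, Nat.cast_succ, add_smul, one_smul]
      abel
  rw [hf, hpow m] at hfm
  have h1 : (m : K) • n = 0 := by
    have := congrArg (fun g : Module.End K M => g - 1) hfm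
    simpa using this
  have hm0 : (m : K) ≠ 0 := by
    intro h0
    have hdvd : p ∣ m := (CharP.cast_eq_zero_iff K p m).mp h0
    have h1' : p ∣ 1 := by
      have := Nat.dvd_gcd hdvd (dvd_refl p)
      rwa [hm] at this
    have hp1 : p = 1 := Nat.dvd_one.mp h1'
    subst hp1
    exact CharP.char_ne_one K 1 rfl
  have hn0 : n = 0 := (smul_eq_zero.mp h1).resolve_left hm0
  rw [hf, hn0, add_zero]

/-- a fourth root of unity whose square is not `1` has square `-1`. -/
theorem s59e_sq_eq_neg_one {K : Type*} [Field K] {x : K} (h4 : x ^ 4 = 1) (h2 : x ^ 2 ≠ 1) :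
    x ^ 2 = -1 := by
  have h : (x ^ 2 - 1) * (x ^ 2 + 1) = 0 := by
    have : (x ^ 2 - 1) * (x ^ 2 + 1) = x ^ 4 - 1 := by ring
    rw [this, h4, sub_self]
  rcases mul_eq_zero.mp h with h | h
  · exact absurd (sub_eq_zero.mp h) h2
  · exact eq_neg_of_add_eq_zero_left h

/-- the parity subgroup: for an index-two subgroup `G` and a sign character `s`, the elements
on which membership in `G` agrees with `s = 1` form a normal subgroup. -/
theorem s59e_parity_subgroup {Γ : Type*} [Group Γ] (G : Subgroup Γ) (hG : G.index = 2)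
    {K : Type*} [Field K] (h2 : (1 : K) ≠ -1) (s : Γ →* K) (hs : ∀ g, s g = 1 ∨ s g = -1) :
    ∃ S : Subgroup Γ, S.Normal ∧ ∀ g, g ∈ S ↔ (g ∈ G ↔ s g = 1) := by
  haveI hn : G.Normal := Subgroup.normal_of_index_eq_two hG
  have hmul : ∀ a b : Γ, (s (a * b) = 1 ↔ (s a = 1 ↔ s b = 1)) := by
    intro a b
    rw [map_mul]
    rcases hs a with ha | ha <;> rcases hs b with hb | hb <;> rw [ha, hb]
    · simp
    · simp [h2.symm]
    · simp [h2.symm]
    · simp [h2.symm]
  have hinv : ∀ a : Γ, (s a⁻¹ = 1 ↔ s a = 1) := by
    intro a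
    have h1 : s a⁻¹ * s a = 1 := by rw [← map_mul, inv_mul_cancel, map_one]
    rcases hs a with ha | ha
    · rw [ha, mul_one] at h1
      rw [h1, ha]
    · rw [ha] at h1
      have : s a⁻¹ = -1 := by
        have := congrArg (fun x => -x) h1
        simpa using this
      rw [this, ha]
  refine ⟨{ carrier := {g | g ∈ G ↔ s g = 1}
            mul_mem' := ?_
            one_mem' := ?_
            inv_mem' := ?_ }, ⟨?_⟩, fun g => Iff.rfl⟩
  · intro a b ha hb
    simp only [Set.mem_ofPred_eq] at ha hb ⊢
    rw [Subgroup.mul_mem_iff_of_index_two hG, hmul, ha, hb]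
  · simp only [Set.mem_ofPred_eq]
    exact iff_of_true G.one_mem (map_one s)
  · intro a ha
    simp only [Set.mem_ofPred_eq] at ha ⊢
    rw [G.inv_mem_iff, hinv, ha]
  · intro a ha c
    simp only [Subgroup.mem_mk, Submonoid.mem_mk, Subsemigroup.mem_mk, Set.mem_ofPred_eq] at ha ⊢
    have h1 : c * a * c⁻¹ ∈ G ↔ a ∈ G := by
      constructor
      · intro h
        have := hn.conj_mem _ h c⁻¹
        simpa [mul_assoc] using this
      · intro h
        exact hn.conj_mem _ h c
    have h3 : s (c * a * c⁻¹) = s a := by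
      rw [map_mul, map_mul, mul_comm (s c), mul_assoc, ← map_mul, mul_inv_cancel, map_one, mul_one]
    rw [h1, h3, ha]

end Fermat.Agent.Lib.S59
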