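/-
Programme R (S59), node (E6) `s59_TWImage` (helper5, prefix `s59e_`), part 2: THE FRAME.
Mathlib only.

For a plane `M` over a field `K` with an irreducible action `R` of a group `Γ`, an index-two
subgroup `Γ'` and a `Γ'`-stable line `U`: a frame `(u, u')` in which `Γ'` acts diagonally
(`a`, `b`) and `Γ \ Γ'` anti-diagonally.  Consequences (F1)-(F5): powers, trace, determinant,
`(R g)² = -det (R g)` off `Γ'`, anticommutation.
-/
import Mathlib

set_option autoImplicit false
set_option linter.style.haveILetI false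

namespace Fermat.Agent.Lib.S59

open Module

structure s59e_Frame {Γ : Type*} [Group Γ] {K : Type*} [Field K] {M : Type*} [AddCommGroup M]
    [Module K M] (R : Γ →* Module.End K M) (Γ' : Subgroup Γ) where
  u : M
  u' : M
  a : Γ → K
  b : Γ → K
  li : LinearIndependent K ![u, u']
  span : ∀ x : M, ∃ c c' : K, x = c • u + c' • u'
  diag : ∀ h ∈ Γ', R h u = a h • u ∧ R h u' = b h • u'
  anti : ∀ g ∉ Γ', R g u = a g • u' ∧ R g u' = b g • u

namespace s59e_Frame

variable {Γ : Type*} [Group Γ] {K : Type*} [Field K] {M : Type*} [AddCommGroup M]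
    [Module K M] {R : Γ →* Module.End K M} {Γ' : Subgroup Γ} (F : s59e_Frame R Γ')

include F

theorem u_ne_zero : F.u ≠ 0 := by
  have := F.li.ne_zero 0
  simpa using this

theorem u'_ne_zero : F.u' ≠ 0 := by
  have := F.li.ne_zero 1
  simpa using this

/-- two endomorphisms agreeing on the frame are equal. -/
theorem ext_end {f g : Module.End K M} (h1 : f F.u = g F.u) (h2 : f F.u' = g F.u') : f = g := by
  ext x
  obtain ⟨c, c', rfl⟩ := F.span x
  rw [map_add, map_add, map_smul, map_smul, map_smul, map_smul, h1, h2]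

/-- coefficients are unique. -/
theorem coeff_eq {c c' d d' : K} (h : c • F.u + c' • F.u' = d • F.u + d' • F.u') :
    c = d ∧ c' = d' := by
  have h1 : (c - d) • F.u + (c' - d') • F.u' = 0 := by
    rw [sub_smul, sub_smul]
    have : c • F.u - d • F.u + (c' • F.u' - d' • F.u') =
      (c • F.u + c' • F.u') - (d • F.u + d' • F.u') := by abel
    rw [this, h, sub_self]
  have := LinearIndependent.pair_iff.mp F.li _ _ h1
  exact ⟨sub_eq_zero.mp this.1, sub_eq_zero.mp this.2⟩

omit F in
theorem R_inj (g : Γ) {x : M} (hx : R g x = 0) : x = 0 := by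
  have : R g⁻¹ (R g x) = x := by
    rw [← Module.End.mul_apply, ← map_mul, inv_mul_cancel, map_one, Module.End.one_apply]
  rw [← this, hx, map_zero]

theorem a_ne_zero (g : Γ) : F.a g ≠ 0 := by
  intro h
  by_cases hg : g ∈ Γ'
  · have := (F.diag g hg).1
    rw [h, zero_smul] at this
    exact F.u_ne_zero (R_inj g this)
  · have := (F.anti g hg).1
    rw [h, zero_smul] at this
    exact F.u_ne_zero (R_inj g this)

theorem b_ne_zero (g : Γ) : F.b g ≠ 0 := by
  intro h
  by_cases hg : g ∈ Γ'
  · have := (F.diag g hg).2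
    rw [h, zero_smul] at this
    exact F.u'_ne_zero (R_inj g this)
  · have := (F.anti g hg).2
    rw [h, zero_smul] at this
    exact F.u'_ne_zero (R_inj g this)

/-- (F4) multiplicativity on `Γ'`. -/
theorem a_mul {h h' : Γ} (hh : h ∈ Γ') (hh' : h' ∈ Γ') : F.a (h * h') = F.a h * F.a h' := by
  have h1 := (F.diag (h * h') (Γ'.mul_mem hh hh')).1
  rw [map_mul, Module.End.mul_apply, (F.diag h' hh').1, map_smul, (F.diag h hh).1, smul_smul] at h1
  have := smul_left_injective K F.u_ne_zero h1
  rw [← this, mul_comm]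

theorem b_mul {h h' : Γ} (hh : h ∈ Γ') (hh' : h' ∈ Γ') : F.b (h * h') = F.b h * F.b h' := by
  have h1 := (F.diag (h * h') (Γ'.mul_mem hh hh')).2
  rw [map_mul, Module.End.mul_apply, (F.diag h' hh').2, map_smul, (F.diag h hh).2, smul_smul] at h1
  have := smul_left_injective K F.u'_ne_zero h1
  rw [← this, mul_comm]

/-- (F1) powers of diagonal elements. -/
theorem pow_eq_one {h : Γ} (hh : h ∈ Γ') (n : ℕ) (ha : F.a h ^ n = 1) (hb : F.b h ^ n = 1) :
    R h ^ n = 1 := by
  have h1 : ∀ m : ℕ, (R h ^ m) F.u = F.a h ^ m • F.u ∧ (R h ^ m) F.u' = F.b h ^ m • F.u' := by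
    intro m
    induction m with
    | zero => simp
    | succ m ih =>
      rw [pow_succ, Module.End.mul_apply, (F.diag h hh).1, map_smul, ih.1, smul_smul,
        Module.End.mul_apply, (F.diag h hh).2, map_smul, ih.2, smul_smul, pow_succ, pow_succ,
        mul_comm (F.a h), mul_comm (F.b h)]
      exact ⟨rfl, rfl⟩
  apply F.ext_end
  · rw [(h1 n).1, ha, one_smul, Module.End.one_apply]
  · rw [(h1 n).2, hb, one_smul, Module.End.one_apply]

/-- (F3') off `Γ'`, the square is a scalar. -/
theorem sq_anti {g : Γ} (hg : g ∉ Γ') : R g ^ 2 = (F.a g * F.b g) • (1 : Module.End K M) := by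
  apply F.ext_end
  · rw [pow_two, Module.End.mul_apply, (F.anti g hg).1, map_smul, (F.anti g hg).2, smul_smul,
      LinearMap.smul_apply, Module.End.one_apply]
  · rw [pow_two, Module.End.mul_apply, (F.anti g hg).2, map_smul, (F.anti g hg).1, smul_smul,
      LinearMap.smul_apply, Module.End.one_apply, mul_comm]

/-- (F5) anticommutation forces opposite eigenvalues. -/
theorem b_eq_neg_a {h g : Γ} (hh : h ∈ Γ') (hg : g ∉ Γ') (hanti : R h * R g = -(R g * R h)) :
    F.b h = -F.a h := by
  have h1 := congrArg (fun f : Module.End K M => f F.u) hanti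
  simp only [Module.End.mul_apply, LinearMap.neg_apply] at h1
  rw [(F.anti g hg).1, (F.diag h hh).1, map_smul, map_smul, (F.anti g hg).1, (F.diag h hh).2,
    smul_smul, smul_smul, ← neg_smul] at h1
  have h2 := smul_left_injective K F.u'_ne_zero h1
  have h3 : F.a g * F.b h = F.a g * (-F.a h) := by
    rw [h2]; ring
  exact mul_left_cancel₀ (F.a_ne_zero g) h3

variable (hdim : Module.finrank K M = 2)

include hdim

/-- the frame as a basis. -/
noncomputable def basis : Module.Basis (Fin 2) K M :=
  basisOfLinearIndependentOfCardEqFinrank F.li (by rw [hdim]; rfl)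

theorem basis_zero : F.basis hdim 0 = F.u := by
  simp [basis]

theorem basis_one : F.basis hdim 1 = F.u' := by
  simp [basis]

theorem toMatrix_diag {h : Γ} (hh : h ∈ Γ') :
    LinearMap.toMatrix (F.basis hdim) (F.basis hdim) (R h) = !![F.a h, 0; 0, F.b h] := by
  ext i j
  rw [LinearMap.toMatrix_apply]
  fin_cases j
  · simp only [Fin.zero_eta, F.basis_zero hdim, (F.diag h hh).1]
    rw [← F.basis_zero hdim, map_smul, Module.Basis.repr_self]
    fin_cases i <;> simp
  · simp only [Fin.mk_one, F.basis_one hdim, (F.diag h hh).2]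
    rw [← F.basis_one hdim, map_smul, Module.Basis.repr_self]
    fin_cases i <;> simp

theorem toMatrix_anti {g : Γ} (hg : g ∉ Γ') :
    LinearMap.toMatrix (F.basis hdim) (F.basis hdim) (R g) = !![0, F.b g; F.a g, 0] := by
  ext i j
  rw [LinearMap.toMatrix_apply]
  fin_cases j
  · simp only [Fin.zero_eta, F.basis_zero hdim, (F.anti g hg).1]
    rw [← F.basis_one hdim, map_smul, Module.Basis.repr_self]
    fin_cases i <;> simp
  · simp only [Fin.mk_one, F.basis_one hdim, (F.anti g hg).2]
    rw [← F.basis_zero hdim, map_smul, Module.Basis.repr_self]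
    fin_cases i <;> simp

/-- (F2) trace and determinant on `Γ'`. -/
theorem trace_diag {h : Γ} (hh : h ∈ Γ') : LinearMap.trace K M (R h) = F.a h + F.b h := by
  rw [LinearMap.trace_eq_matrix_trace K (F.basis hdim), F.toMatrix_diag hdim hh,
    Matrix.trace_fin_two_of]

theorem det_diag {h : Γ} (hh : h ∈ Γ') : LinearMap.det (R h) = F.a h * F.b h := by
  rw [← LinearMap.det_toMatrix (F.basis hdim), F.toMatrix_diag hdim hh, Matrix.det_fin_two_of]
  ring

theorem det_anti {g : Γ} (hg : g ∉ Γ') : LinearMap.det (R g) = -(F.a g * F.b g) := by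
  rw [← LinearMap.det_toMatrix (F.basis hdim), F.toMatrix_anti hdim hg, Matrix.det_fin_two_of]
  ring

/-- off `Γ'`: `(R g)² = -det(R g)`. -/
theorem sq_anti_det {g : Γ} (hg : g ∉ Γ') :
    R g ^ 2 = (-LinearMap.det (R g)) • (1 : Module.End K M) := by
  rw [F.sq_anti hg, F.det_anti hdim hg, neg_neg]

end s59e_Frame

/-- **existence of the frame.** -/
theorem s59e_exists_frame {Γ : Type*} [Group Γ] {K : Type*} [Field K] {M : Type*}
    [AddCommGroup M] [Module K M] (hdim : Module.finrank K M = 2) (R : Γ →* Module.End K M)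
    (Γ' : Subgroup Γ) (hidx : Γ'.index = 2) (U : Submodule K M) (hU0 : U ≠ ⊥) (hUtop : U ≠ ⊤)
    (hstab : ∀ h ∈ Γ', ∀ x ∈ U, R h x ∈ U)
    (hirr : ∀ W : Submodule K M, (∀ g : Γ, ∀ x ∈ W, R g x ∈ W) → W = ⊥ ∨ W = ⊤) :
    Nonempty (s59e_Frame R Γ') := by
  classical
  haveI : Module.Finite K M := Module.finite_of_finrank_eq_succ hdim
  haveI hn : Γ'.Normal := Subgroup.normal_of_index_eq_two hidx
  -- `U` is a line
  have hU1 : Module.finrank K U = 1 := by
    have h1 : Module.finrank K U ≤ 2 := hdim ▸ Submodule.finrank_le U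
    have h2 : Module.finrank K U ≠ 0 := by
      intro h
      exact hU0 (Submodule.finrank_eq_zero.mp h)
    have h3 : Module.finrank K U ≠ 2 := by
      intro h
      apply hUtop
      apply Submodule.eq_top_of_finrank_eq
      rw [h, hdim]
    omega
  obtain ⟨⟨u, huU⟩, hu0, hgen⟩ := finrank_eq_one_iff'.mp hU1
  have hu0' : u ≠ 0 := fun h => hu0 (Subtype.ext h)
  have hUu : ∀ x ∈ U, ∃ c : K, x = c • u := by
    intro x hx
    obtain ⟨c, hc⟩ := hgen ⟨x, hx⟩
    exact ⟨c, (congrArg Subtype.val hc).symm⟩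
  -- some element moves `u` out of `U`
  have hex : ∃ g₀ : Γ, R g₀ u ∉ U := by
    by_contra hcon
    push Not at hcon
    rcases hirr U (fun g x hx => by
      obtain ⟨c, rfl⟩ := hUu x hx
      rw [map_smul]
      exact U.smul_mem _ (hcon g)) with h | h
    · exact hU0 h
    · exact hUtop h
  obtain ⟨g₀, hg₀⟩ := hex
  have hg₀' : g₀ ∉ Γ' := fun h => hg₀ (hstab g₀ h u huU)
  set u' := R g₀ u with hu'
  have hli : LinearIndependent K ![u, u'] := by
    rw [LinearIndependent.pair_iff' hu0']
    intro c hc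
    apply hg₀
    rw [← hc]
    exact U.smul_mem _ huU
  -- spanning
  have hspan : ∀ x : M, ∃ c c' : K, x = c • u + c' • u' := by
    have htop : Submodule.span K (Set.range ![u, u']) = ⊤ :=
      hli.span_eq_top_of_card_eq_finrank' (by rw [hdim]; rfl)
    intro x
    have hx : x ∈ Submodule.span K (Set.range ![u, u']) := by rw [htop]; exact Submodule.mem_top
    rw [Matrix.range_cons, Matrix.range_cons, Matrix.range_empty, Set.union_empty,
      ← Set.insert_eq, Submodule.mem_span_pair] at hx
    obtain ⟨c, c', h⟩ := hx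
    exact ⟨c, c', h.symm⟩
  -- eigenvalue on `U`
  have hA : ∀ h ∈ Γ', ∃ c : K, R h u = c • u := fun h hh => hUu _ (hstab h hh u huU)
  -- membership bookkeeping for index two
  have hmem : ∀ x y : Γ, x * y ∈ Γ' ↔ (x ∈ Γ' ↔ y ∈ Γ') :=
    fun x y => Subgroup.mul_mem_iff_of_index_two hidx
  have hinv : g₀⁻¹ ∉ Γ' := fun h => hg₀' (by simpa using Γ'.inv_mem h)
  -- the data
  let a : Γ → K := fun g =>
    if hg : g ∈ Γ' then (hA g hg).choose
    else (hA (g₀⁻¹ * g) ((hmem _ _).mpr (iff_of_false hinv hg))).choose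
  let b : Γ → K := fun g =>
    if hg : g ∈ Γ' then (hA (g₀⁻¹ * g * g₀) (by
        have := hn.conj_mem g hg g₀⁻¹
        simpa using this)).choose
    else (hA (g * g₀) ((hmem _ _).mpr (iff_of_false hg hg₀'))).choose
  refine ⟨⟨u, u', a, b, hli, hspan, ?_, ?_⟩⟩
  · intro h hh
    constructor
    · have := (hA h hh).choose_spec
      simp only [a, dif_pos hh]
      exact this
    · have hc : g₀⁻¹ * h * g₀ ∈ Γ' := by
        have := hn.conj_mem h hh g₀⁻¹
        simpa using this
      have := (hA _ hc).choose_spec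
      simp only [b, dif_pos hh]
      rw [hu', ← map_smul, ← this, ← Module.End.mul_apply, ← Module.End.mul_apply, ← map_mul,
        ← map_mul]
      congr 2
      group
  · intro g hg
    constructor
    · have hc : g₀⁻¹ * g ∈ Γ' := (hmem _ _).mpr (iff_of_false hinv hg)
      have := (hA _ hc).choose_spec
      simp only [a, dif_neg hg]
      rw [hu', ← map_smul, ← this, ← Module.End.mul_apply, ← map_mul]
      congr 2
      group
    · have hc : g * g₀ ∈ Γ' := (hmem _ _).mpr (iff_of_false hg hg₀')
      have := (hA _ hc).choose_spec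
      simp only [b, dif_neg hg]
      rw [← this, hu', ← Module.End.mul_apply, ← map_mul]

end Fermat.Agent.Lib.S59
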