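/-
Programme R (S59), node (E6) `s59_TWImage` (helper5, prefix `s59e_`), part 3: THE GALOIS PART.

`s59e_twimage`: let `ρ̄ : G_ℚ → GL₂(k)` (char `k = p ∈ {3, 5}`) be universally irreducible, with
traces and determinants in the prime field, determinant onto `μ₄` when `p = 5`, and unipotent on
inertia at every `q ≠ p`.  Then no index-two subgroup of `G_ℚ` stabilises a line of `K ⊗ V̄`,
for any field extension `K / k` (the Taylor-Wiles big image hypothesis of S56).

Elementary proof: frame (part 2) -> all orders divide `2(p² - 1)` -> unramified outside `p`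
-> (Minkowski + tame inertia at `p`) the image is the normal closure of one element `t`
-> the image is a finite `2`-group (`p = 5`: parity subgroup + the tame relation
`φ t φ⁻¹ = t ^ p`) -> cyclic -> commutative -> reducible over the algebraic closure.
-/
import Fermat.Agent.Lib.S59.ETWAlg
import Fermat.Agent.Lib.S59.ETWCore
import Fermat.Agent.Lib.Mz.Minkowski
import Fermat.Agent.Lib.Mz.Places
import Fermat.Agent.Lib.S56.GDecomp
import Fermat.Agent.Lib.S48.TGal
import Fermat.Agent.Lib.Frobenius.Exists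
import Fermat.Prelude.Def_GaloisRep_Residual

set_option autoImplicit false
set_option linter.style.haveILetI false

namespace Fermat.Agent.Lib.S59

open Module Fermat.Agent.Lib.Mz Fermat.Agent.Lib.S56

local notation "Qbar" => AlgebraicClosure ℚ
local notation "GQ" => (AlgebraicClosure ℚ ≃ₐ[ℚ] AlgebraicClosure ℚ)

section Core

variable {K : Type} [Field K] (p : ℕ) [Fact p.Prime] [CharP K p]
  {M : Type} [AddCommGroup M] [Module K M] (hdim : Module.finrank K M = 2)
  (R : GQ →* Module.End K M)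

include hdim in
/-- every element has order dividing `2(p² - 1)`. -/
theorem s59e_order (G : Subgroup GQ) (hG : G.index = 2) (F : s59e_Frame R G)
    (htr : ∀ g, LinearMap.trace K M (R g) ^ p = LinearMap.trace K M (R g))
    (hdet : ∀ g, LinearMap.det (R g) ^ p = LinearMap.det (R g)) (g : GQ) :
    R g ^ (2 * (p ^ 2 - 1)) = 1 := by
  have hdiag : ∀ h ∈ G, R h ^ (p ^ 2 - 1) = 1 := by
    intro h hh
    apply F.pow_eq_one hh
    · exact s59e_frob_root_pow p (htr h) (hdet h) (F.trace_diag hdim hh).symm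
        (F.det_diag hdim hh).symm (F.a_ne_zero h)
    · have hs : F.b h + F.a h = LinearMap.trace K M (R h) := by
        rw [add_comm]; exact (F.trace_diag hdim hh).symm
      have hm : F.b h * F.a h = LinearMap.det (R h) := by
        rw [mul_comm]; exact (F.det_diag hdim hh).symm
      exact s59e_frob_root_pow p (htr h) (hdet h) hs hm (F.b_ne_zero h)
  by_cases hg : g ∈ G
  · rw [mul_comm, pow_mul, hdiag g hg, one_pow]
  · have h2 : g * g ∈ G := (Subgroup.mul_mem_iff_of_index_two hG).mpr Iff.rfl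
    rw [pow_mul, pow_two, ← map_mul, hdiag _ h2]

/-- Minkowski + tame inertia: a generator `τ` of tame inertia at `p` modulo the kernel, and a
Frobenius lift `φ` with `φ τ φ⁻¹ = τ ^ p`. -/
theorem s59e_exists_tau (hfl : GaloisFactorsThroughFiniteLevel R) (m : ℕ)
    (hm : m.Coprime p) (hord : ∀ g, R g ^ m = 1)
    (hunr : ∀ q : ℕ, q.Prime → q ≠ p → ∀ P : ValuationSubring Qbar, P.LiesOverPrime q →
      ∀ σ ∈ P.inertiaSubgroupIn ℚ, R σ = 1) :
    ∃ τ φ : GQ, (∀ S : Subgroup GQ, S.Normal → R.ker ≤ S → τ ∈ S → S = ⊤) ∧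
      R φ * R τ = R τ ^ p * R φ := by
  have hp : p.Prime := Fact.out
  obtain ⟨A, hA⟩ := ptm_exists_liesOverPrime p hp
  obtain ⟨φ, hφ⟩ := Fermat.Agent.Lib.Frobenius.exists_isFrobeniusAt_of_liesOverPrime A p hp hA
  obtain ⟨E, hE, hE1⟩ := hfl
  have hEker : E.fixingSubgroup ≤ R.ker := by
    intro σ hσ
    rw [MonoidHom.mem_ker]
    apply hE1 σ
    intro x hx
    exact (IntermediateField.mem_fixingSubgroup_iff E σ).mp hσ x hx
  obtain ⟨τ, hτI, hgen, hfrob⟩ := s56g_ifaceTame p hp A hA R.ker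
    ⟨E, hE, fun σ _ hσ => hEker hσ⟩
    (fun σ _ => ⟨m, hm, by rw [MonoidHom.mem_ker, map_pow, hord]⟩)
  refine ⟨τ, φ, ?_, ?_⟩
  · intro S hS hker hτS
    haveI := hS
    haveI : FiniteDimensional ℚ E := hE
    apply ptm_subgroup_eq_top S E (hEker.trans hker)
    intro ℓ hℓ A' hA'
    by_cases hℓp : ℓ = p
    · subst hℓp
      apply ptm_inertia_le_of_one hℓ S A hA _ A' hA'
      intro σ hσ
      obtain ⟨j, hj⟩ := hgen σ hσ
      have h1 : (τ ^ j)⁻¹ * σ ∈ S := hker hj
      have h2 : τ ^ j ∈ S := S.pow_mem hτS j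
      have := S.mul_mem h2 h1
      simpa using this
    · intro σ hσ
      apply hker
      rw [MonoidHom.mem_ker]
      exact hunr ℓ hℓ hℓp A' hA' σ hσ
  · have h := MonoidHom.mem_ker.mp (hfrob φ hφ)
    calc R φ * R τ = R (φ * τ * φ⁻¹ * φ) := by
          rw [← map_mul]; congr 1; group
      _ = R (φ * τ * φ⁻¹) * R φ := map_mul _ _ _
      _ = R (τ ^ p * ((τ ^ p)⁻¹ * (φ * τ * φ⁻¹))) * R φ := by rw [mul_inv_cancel_left]
      _ = R τ ^ p * R φ := by rw [map_mul, h, mul_one, map_pow]

/-- group-theoretic conclusion: a representation of `G_ℚ` whose image is a finite `2`-group and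
is the normal closure of one element is commutative. -/
theorem s59e_comm_of_two_group (hfl : GaloisFactorsThroughFiniteLevel R) (τ : GQ)
    (hmink : ∀ S : Subgroup GQ, S.Normal → R.ker ≤ S → τ ∈ S → S = ⊤) (k : ℕ)
    (hexp : ∀ g, R g ^ (2 ^ k) = 1) : ∀ g h : GQ, R g * R h = R h * R g := by
  classical
  set RU : GQ →* (Module.End K M)ˣ := R.toHomUnits with hRU
  have hRUv : ∀ g, ((RU g : (Module.End K M)ˣ) : Module.End K M) = R g :=
    fun g => MonoidHom.coe_toHomUnits R g
  have hflU : GaloisFactorsThroughFiniteLevel RU := by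
    obtain ⟨L, hL, h1⟩ := hfl
    exact ⟨L, hL, fun σ hσ => Units.ext (by rw [hRUv, h1 σ hσ]; rfl)⟩
  have hfin : (Set.range RU).Finite := Fermat.Agent.Lib.S48.s48t_finite_range hflU
  haveI : Finite RU.range := by
    have h1 : (RU.range : Set (Module.End K M)ˣ) = Set.range RU := MonoidHom.coe_range RU
    have h2 : (RU.range : Set (Module.End K M)ˣ).Finite := by rw [h1]; exact hfin
    exact h2.to_subtype
  haveI : Fact (Nat.Prime 2) := ⟨Nat.prime_two⟩
  have hP : IsPGroup 2 RU.range := by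
    rintro ⟨x, g, rfl⟩
    refine ⟨k, ?_⟩
    apply Subtype.ext
    apply Units.ext
    rw [SubmonoidClass.coe_pow, Units.val_pow_eq_pow_val, hRUv, hexp]
    rfl
  set tH : RU.range := RU.rangeRestrict τ with htH
  have hnc : Subgroup.normalClosure {tH} = ⊤ := by
    have hS := hmink ((Subgroup.normalClosure {tH}).comap RU.rangeRestrict)
      (Subgroup.Normal.comap inferInstance _) ?_ ?_
    · rw [eq_top_iff]
      intro x _
      obtain ⟨g, rfl⟩ := RU.rangeRestrict_surjective x
      have : g ∈ (Subgroup.normalClosure {tH}).comap RU.rangeRestrict := by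
        rw [hS]; exact Subgroup.mem_top g
      exact this
    · intro g hg
      rw [Subgroup.mem_comap]
      have : RU.rangeRestrict g = 1 := by
        apply Subtype.ext
        apply Units.ext
        rw [MonoidHom.coe_rangeRestrict, hRUv, MonoidHom.mem_ker.mp hg]
        rfl
      rw [this]
      exact Subgroup.one_mem _
    · exact Subgroup.subset_normalClosure (Set.mem_singleton _)
  have hz := s59e_pgroup_cyclic 2 hP tH hnc
  intro g h
  have h1 := s59e_comm_of_zpowers tH hz (RU.rangeRestrict g) (RU.rangeRestrict h)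
  have h2 := congrArg (fun x : RU.range => ((x : (Module.End K M)ˣ) : Module.End K M)) h1
  simpa [hRUv] using h2

end Core

section Five

variable {K : Type} [Field K] [CharP K 5]
  {M : Type} [AddCommGroup M] [Module K M] (hdim : Module.finrank K M = 2)
  (R : GQ →* Module.End K M)

omit [CharP K 5] in
theorem s59e_pow_four_of_pow_five {a : K} (ha : a ≠ 0) (h : a ^ 5 = a) : a ^ 4 = 1 := by
  have h2 : a ^ 4 * a = 1 * a := by rw [← pow_succ, h, one_mul]
  exact mul_right_cancel₀ ha h2

include hdim in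
/-- `p = 5`: the image has exponent dividing `8`. -/
theorem s59e_exp_five (G : Subgroup GQ) (hG : G.index = 2) (F : s59e_Frame R G)
    (htr : ∀ g, LinearMap.trace K M (R g) ^ 5 = LinearMap.trace K M (R g))
    (hdet : ∀ g, LinearMap.det (R g) ^ 5 = LinearMap.det (R g))
    (hdet5 : ∃ g, LinearMap.det (R g) ^ 2 ≠ 1) (τ φ : GQ)
    (hmink : ∀ S : Subgroup GQ, S.Normal → R.ker ≤ S → τ ∈ S → S = ⊤)
    (hrel : R φ * R τ = R τ ^ 5 * R φ) (hker : R.ker ≤ G) (hτG : τ ∉ G) (g : GQ) :
    R g ^ 2 ^ 3 = 1 := by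
  haveI : Fact (Nat.Prime 5) := ⟨by norm_num⟩
  -- the sign character `s = det²`
  let s : GQ →* K := (powMonoidHom 2).comp ((LinearMap.det : Module.End K M →* K).comp R)
  have hsdef : ∀ g, s g = LinearMap.det (R g) ^ 2 := fun g => rfl
  have he0 : ∀ g, LinearMap.det (R g) ≠ 0 := by
    intro g h0
    have h1 : LinearMap.det (R g) * LinearMap.det (R g⁻¹) = 1 := by
      rw [← map_mul, ← map_mul, mul_inv_cancel, map_one, map_one]
    rw [h0, zero_mul] at h1
    exact zero_ne_one h1
  have he4 : ∀ g, LinearMap.det (R g) ^ 4 = 1 :=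
    fun g => s59e_pow_four_of_pow_five (he0 g) (hdet g)
  have hs : ∀ g, s g = 1 ∨ s g = -1 := by
    intro g
    by_cases h : s g = 1
    · exact Or.inl h
    · exact Or.inr (s59e_sq_eq_neg_one (he4 g) h)
  have h2K : (2 : K) ≠ 0 := by
    intro h0
    have h1 : ((2 : ℕ) : K) = 0 := by exact_mod_cast h0
    have := (CharP.cast_eq_zero_iff K 5 2).mp h1
    omega
  have h12 : (1 : K) ≠ -1 := by
    intro h
    apply h2K
    have : (2 : K) = 1 + 1 := by norm_num
    rw [this]
    nth_rewrite 1 [h]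
    ring
  have hkers : R.ker ≤ s.ker := by
    intro g hg
    rw [MonoidHom.mem_ker, hsdef, MonoidHom.mem_ker.mp hg, map_one, one_pow]
  -- (b) `s τ ≠ 1`
  have hτs : s τ ≠ 1 := by
    intro h
    have htop := hmink s.ker (MonoidHom.normal_ker s) hkers (MonoidHom.mem_ker.mpr h)
    obtain ⟨g₁, hg₁⟩ := hdet5
    apply hg₁
    rw [← hsdef, ← MonoidHom.mem_ker, htop]
    exact Subgroup.mem_top g₁
  have hτs' : LinearMap.det (R τ) ^ 2 = -1 := (hs τ).resolve_left hτs
  -- (c) parity
  obtain ⟨S₂, hS₂n, hS₂⟩ := s59e_parity_subgroup G hG h12 s hs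
  have hpar : ∀ g, g ∈ G ↔ s g = 1 := by
    have htop := hmink S₂ hS₂n (fun g hg => (hS₂ g).mpr
      (iff_of_true (hker hg) (MonoidHom.mem_ker.mp (hkers hg))))
      ((hS₂ τ).mpr (iff_of_false hτG hτs))
    intro g
    exact (hS₂ g).mp (by rw [htop]; exact Subgroup.mem_top g)
  -- (d) the Frobenius twist
  have ht2 : R τ ^ 2 = (-LinearMap.det (R τ)) • (1 : Module.End K M) := F.sq_anti_det hdim hτG
  have ht5 : R τ ^ 5 = -R τ := by
    have h4 : R τ ^ 4 = -1 := by
      have : R τ ^ 4 = (R τ ^ 2) ^ 2 := by rw [← pow_mul]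
      rw [this, ht2, smul_pow, one_pow, neg_sq, hτs', neg_smul, one_smul]
    rw [pow_succ, h4, neg_mul, one_mul]
  obtain ⟨φ', hφ'G, hanti⟩ : ∃ φ' ∈ G, R φ' * R τ = -(R τ * R φ') := by
    by_cases hφ : φ ∈ G
    · refine ⟨φ, hφ, ?_⟩
      rw [hrel, ht5, neg_mul]
    · refine ⟨φ * τ, (Subgroup.mul_mem_iff_of_index_two hG).mpr (iff_of_false hφ hτG), ?_⟩
      calc R (φ * τ) * R τ = (R φ * R τ) * R τ := by rw [map_mul]
        _ = (R τ ^ 5 * R φ) * R τ := by rw [hrel]
        _ = -(R τ * (R φ * R τ)) := by rw [ht5, neg_mul, neg_mul, mul_assoc]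
        _ = -(R τ * R (φ * τ)) := by rw [map_mul]
  -- (e) eigenvalues of `φ'`
  have hba : F.b φ' = -F.a φ' := F.b_eq_neg_a hφ'G hτG hanti
  set x := F.a φ' with hx
  have hx0 : x ≠ 0 := F.a_ne_zero φ'
  have hx4 : x ^ 4 = 1 := by
    have h1 : s φ' = 1 := (hpar φ').mp hφ'G
    rw [hsdef, F.det_diag hdim hφ'G, hba, ← hx] at h1
    rw [← h1]; ring
  have hx5 : x ^ 5 = x := by rw [pow_succ, hx4, one_mul]
  have hab : ∀ h ∈ G, F.a h ^ 4 = 1 ∧ F.b h ^ 4 = 1 := by
    intro h hh
    have hfix : F.a h ^ 5 = F.a h ∧ F.b h ^ 5 = F.b h := by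
      rcases s59e_frob_root_or 5 (htr h) (hdet h) (F.trace_diag hdim hh).symm
        (F.det_diag hdim hh).symm with h1 | ⟨ha, hb⟩
      · exact h1
      · have hm : h * φ' ∈ G := G.mul_mem hh hφ'G
        have hA : F.a (h * φ') = F.a h * x := F.a_mul hh hφ'G
        have hB : F.b (h * φ') = F.b h * -x := by rw [F.b_mul hh hφ'G, hba]
        have hpow : (F.a h * x) ^ 5 = F.b h * x := by rw [mul_pow, ha, hx5]
        have key : F.b h = F.a h := by
          rcases s59e_frob_root_or 5 (htr (h * φ')) (hdet (h * φ'))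
            (F.trace_diag hdim hm).symm (F.det_diag hdim hm).symm with ⟨h1, _⟩ | ⟨h1, _⟩
          · rw [hA, hpow] at h1
            exact mul_right_cancel₀ hx0 h1
          · rw [hA, hB, hpow] at h1
            exfalso
            have h3 : x = -x := mul_left_cancel₀ (F.b_ne_zero h) h1
            have h4 : (2 : K) * x = 0 := by
              have : (2 : K) * x = x + x := by ring
              rw [this]
              nth_rewrite 1 [h3]
              ring
            rcases mul_eq_zero.mp h4 with h5 | h5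
            · exact h2K h5
            · exact hx0 h5
        rw [key] at ha hb ⊢
        exact ⟨ha, ha⟩
    exact ⟨s59e_pow_four_of_pow_five (F.a_ne_zero h) hfix.1,
      s59e_pow_four_of_pow_five (F.b_ne_zero h) hfix.2⟩
  -- (f) conclusion
  have hdiag : ∀ h ∈ G, R h ^ 4 = 1 := fun h hh =>
    F.pow_eq_one hh 4 (hab h hh).1 (hab h hh).2
  by_cases hg : g ∈ G
  · have : (2 : ℕ) ^ 3 = 4 * 2 := by norm_num
    rw [this, pow_mul, hdiag g hg, one_pow]
  · have h2 : g * g ∈ G := (Subgroup.mul_mem_iff_of_index_two hG).mpr Iff.rfl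
    have : (2 : ℕ) ^ 3 = 2 * 4 := by norm_num
    rw [this, pow_mul, pow_two, ← map_mul, hdiag _ h2]

end Five

section Main

variable {K : Type} [Field K] (p : ℕ) [Fact p.Prime] [CharP K p]
  {M : Type} [AddCommGroup M] [Module K M] (hdim : Module.finrank K M = 2)
  (R : GQ →* Module.End K M)

include hdim in
/-- **core**: an index-two subgroup with a stable line forces the whole image to commute. -/
theorem s59e_comm_core (hp : p = 3 ∨ p = 5) (hfl : GaloisFactorsThroughFiniteLevel R)
    (hirr : ∀ W : Submodule K M, (∀ g : GQ, ∀ x ∈ W, R g x ∈ W) → W = ⊥ ∨ W = ⊤)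
    (htr : ∀ g, LinearMap.trace K M (R g) ^ p = LinearMap.trace K M (R g))
    (hdet : ∀ g, LinearMap.det (R g) ^ p = LinearMap.det (R g))
    (hdet5 : p = 5 → ∃ g, LinearMap.det (R g) ^ 2 ≠ 1)
    (hunip : ∀ q : ℕ, q.Prime → q ≠ p → ∀ P : ValuationSubring Qbar, P.LiesOverPrime q →
      ∀ σ ∈ P.inertiaSubgroupIn ℚ, (R σ - 1) ^ 2 = 0)
    (G : Subgroup GQ) (hG : G.index = 2) (U : Submodule K M) (hU0 : U ≠ ⊥) (hUtop : U ≠ ⊤)
    (hstab : ∀ σ ∈ G, ∀ x ∈ U, R σ x ∈ U) : ∀ g h : GQ, R g * R h = R h * R g := by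
  obtain ⟨F⟩ := s59e_exists_frame hdim R G hG U hU0 hUtop hstab hirr
  have hord := s59e_order p hdim R G hG F htr hdet
  have hm : (2 * (p ^ 2 - 1)).Coprime p := by
    rcases hp with rfl | rfl <;> norm_num
  have hunr : ∀ q : ℕ, q.Prime → q ≠ p → ∀ P : ValuationSubring Qbar, P.LiesOverPrime q →
      ∀ σ ∈ P.inertiaSubgroupIn ℚ, R σ = 1 := fun q hq hqp P hP σ hσ =>
    s59e_unip_trivial p (R σ) (hunip q hq hqp P hP σ hσ) _ hm (hord σ)
  obtain ⟨τ, φ, hmink, hrel⟩ := s59e_exists_tau p R hfl _ hm hord hunr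
  -- the kernel lies in `G`
  have hker : R.ker ≤ G := by
    by_contra hcon
    obtain ⟨n, hnk, hnG⟩ := SetLike.not_le_iff_exists.mp hcon
    have hn1 : R n = 1 := MonoidHom.mem_ker.mp hnk
    have hall : ∀ g : GQ, ∀ x ∈ U, R g x ∈ U := by
      intro g x hx
      by_cases hg : g ∈ G
      · exact hstab g hg x hx
      · have hnG' : n⁻¹ ∉ G := fun h => hnG (by simpa using G.inv_mem h)
        have h1 : g * n⁻¹ ∈ G :=
          (Subgroup.mul_mem_iff_of_index_two hG).mpr (iff_of_false hg hnG')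
        have h2 : R g = R (g * n⁻¹) := by
          have : g = g * n⁻¹ * n := by group
          nth_rewrite 1 [this]
          rw [map_mul, hn1, mul_one]
        rw [h2]
        exact hstab _ h1 x hx
    rcases hirr U hall with h | h
    · exact hU0 h
    · exact hUtop h
  have hτG : τ ∉ G := by
    intro h
    have htop := hmink G (Subgroup.normal_of_index_eq_two hG) hker h
    rw [htop, Subgroup.index_top] at hG
    norm_num at hG
  -- the exponent is a power of two
  have hexp : ∃ k : ℕ, ∀ g, R g ^ 2 ^ k = 1 := by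
    rcases hp with rfl | rfl
    · refine ⟨4, fun g => ?_⟩
      have := hord g
      norm_num at this ⊢
      exact this
    · refine ⟨3, fun g => ?_⟩
      exact s59e_exp_five hdim R G hG F htr hdet (hdet5 rfl) τ φ hmink hrel hker hτG g
  obtain ⟨k, hk⟩ := hexp
  exact s59e_comm_of_two_group R hfl τ hmink k hk

end Main

/-- **(E6)**: the Taylor-Wiles image condition, abstractly. -/
theorem s59e_twimage {k : Type} [Field k] (p : ℕ) [Fact p.Prime] [CharP k p] (hp : p = 3 ∨ p = 5)
    (ρb : ResidualGaloisRep k)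
    (hirr : ∀ (K : Type) [Field K] [Algebra k K], (ρb.baseChange K).IsIrreducible)
    (htr : ∀ g, LinearMap.trace k ρb.V (ρb.ρ g) ^ p = LinearMap.trace k ρb.V (ρb.ρ g))
    (hdet : ∀ g, LinearMap.det (ρb.ρ g) ^ p = LinearMap.det (ρb.ρ g))
    (hdet5 : p = 5 → ∃ g, LinearMap.det (ρb.ρ g) ^ 2 ≠ 1)
    (hunip : ∀ q : ℕ, q.Prime → q ≠ p → ∀ P : ValuationSubring Qbar, P.LiesOverPrime q →
      ∀ σ ∈ P.inertiaSubgroupIn ℚ, (ρb.ρ σ - 1) ^ 2 = 0) :
    ∀ (K : Type) [Field K] [Algebra k K] (G : Subgroup GQ), G.index = 2 →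
      ∀ V : Submodule K (ρb.baseChange K).V,
        (∀ σ ∈ G, ∀ x ∈ V, (ρb.baseChange K).ρ σ x ∈ V) → V = ⊥ ∨ V = ⊤ := by
  intro K _ _ G hG U hstab
  by_contra hcon
  push Not at hcon
  obtain ⟨hU0, hUtop⟩ := hcon
  haveI : CharP K p := charP_of_injective_algebraMap (algebraMap k K).injective p
  have hRdef : ∀ g, (ρb.baseChange K).ρ g = (ρb.ρ g).baseChange K := fun g => rfl
  have hcomm := s59e_comm_core p (ρb.baseChange K).finrank_eq (ρb.baseChange K).ρ hp
    (ρb.baseChange K).factorsThroughFiniteLevel (hirr K)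
    (fun g => by rw [hRdef, LinearMap.trace_baseChange, ← map_pow, htr])
    (fun g => by rw [hRdef, LinearMap.det_baseChange, ← map_pow, hdet])
    (fun h5 => by
      obtain ⟨g, hg⟩ := hdet5 h5
      refine ⟨g, ?_⟩
      rw [hRdef, LinearMap.det_baseChange, ← map_pow]
      intro h
      apply hg
      apply (algebraMap k K).injective
      rw [h, map_one])
    (fun q hq hqp P hP σ hσ => by
      rw [hRdef, ← LinearMap.baseChange_one (R := k) (A := K) (M := ρb.V),
        ← LinearMap.baseChange_sub, ← LinearMap.baseChange_pow, hunip q hq hqp P hP σ hσ,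
        LinearMap.baseChange_zero])
    G hG U hU0 hUtop hstab
  -- descend commutativity
  have hcomm0 : ∀ g h, ρb.ρ g * ρb.ρ h = ρb.ρ h * ρb.ρ g := by
    intro g h
    apply LinearMap.baseChangeHom_injective (R := k) (S := K) (M := ρb.V) (N := ρb.V)
    show (ρb.ρ g * ρb.ρ h).baseChange K = (ρb.ρ h * ρb.ρ g).baseChange K
    rw [LinearMap.baseChange_mul, LinearMap.baseChange_mul]
    exact hcomm g h
  -- stable line over the algebraic closure
  obtain ⟨W, hW0, hWtop, hWst⟩ := s59e_comm_stable (K := AlgebraicClosure k)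
    (ρb.baseChange (AlgebraicClosure k)).finrank_eq
    (fun g : GQ => (ρb.baseChange (AlgebraicClosure k)).ρ g) (fun g h => by
      show (ρb.ρ g).baseChange _ * (ρb.ρ h).baseChange _ =
        (ρb.ρ h).baseChange _ * (ρb.ρ g).baseChange _
      rw [← LinearMap.baseChange_mul, ← LinearMap.baseChange_mul, hcomm0])
  rcases hirr (AlgebraicClosure k) W hWst with h | h
  · exact hW0 h
  · exact hWtop h

end Fermat.Agent.Lib.S59
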