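/-
Programme R (S59), node (E6) (helper5, prefix `s59e_`), part 5: (E6) FOR `ρ_W ⊗ 𝒪`.

`ρ_W = s59b_rhoW W p hΔ` is helper2's representation on the Tate module.  For `p ∈ {3, 5}`, `W`
semistable with `W[p]` irreducible, and every local homomorphism `φ : ℤ_p → 𝒪`:
`s59e_E6`: the residual representation of `ρ_W ⊗ 𝒪` is absolutely irreducible and satisfies the
Taylor-Wiles image condition (`s59_TWImage` of the graph, stated unfolded).
-/
import Fermat.Agent.Lib.S59.BDet
import Fermat.Agent.Lib.S59.ETWRes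
import Fermat.Agent.Lib.S59.ETWGal
import Fermat.Agent.Lib.S56.HSigma
import Fermat.Agent.Lib.S30.CycB

set_option autoImplicit false
set_option linter.style.haveILetI false
set_option linter.unusedSectionVars false

noncomputable section

namespace Fermat.Agent.Lib.S59

open Fermat.Agent.Lib.S30 Fermat.Agent.Lib.S58 Fermat.Agent.Lib.S56 ExtCitation
open WeierstrassCurve WeierstrassCurve.Affine IsLocalRing TensorProduct

local notation "Kb" => AlgebraicClosure ℚ
local notation "GQ" => (AlgebraicClosure ℚ ≃ₐ[ℚ] AlgebraicClosure ℚ)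

variable {W : WeierstrassCurve ℤ} {p : ℕ} [hp : Fact p.Prime]

/-- every element of `k₀ ⊗ T` is of the form `1 ⊗ t`. -/
theorem s59e_one_tmul_surj (y : ResidueField ℤ_[p] ⊗[ℤ_[p]] s59b_TW W p) :
    ∃ t : s59b_TW W p, y = (1 : ResidueField ℤ_[p]) ⊗ₜ[ℤ_[p]] t := by
  induction y using TensorProduct.induction_on with
  | zero => exact ⟨0, (TensorProduct.tmul_zero _ _).symm⟩
  | tmul c t =>
    obtain ⟨a, rfl⟩ := residue_surjective c
    refine ⟨a • t, ?_⟩
    rw [TensorProduct.tmul_smul, TensorProduct.smul_tmul', Algebra.smul_def, mul_one,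
      ResidueField.algebraMap_eq]
  | add x y hx hy =>
    obtain ⟨t, rfl⟩ := hx
    obtain ⟨t', rfl⟩ := hy
    exact ⟨t + t', (TensorProduct.tmul_add _ _ _).symm⟩

/-- `1 ⊗ (p • w) = 0`. -/
theorem s59e_one_tmul_p (w : s59b_TW W p) :
    (1 : ResidueField ℤ_[p]) ⊗ₜ[ℤ_[p]] ((p : ℤ_[p]) • w) = 0 := by
  rw [TensorProduct.tmul_smul, TensorProduct.smul_tmul', Algebra.smul_def, mul_one,
    ResidueField.algebraMap_eq, (residue_eq_zero_iff (p : ℤ_[p])).mpr (s59b_p_mem p),
    TensorProduct.zero_tmul]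

/-- the first layer of an element of the Tate module, as a point of `W[p]`. -/
def s59e_layer (t : s59b_TW W p) : Submodule.torsionBy ℤ (s58_Pt W) (p : ℤ) :=
  ⟨(t : ℕ → s58_Pt W) 1, by
    rw [Submodule.mem_torsionBy_iff, natCast_zsmul]
    have := s30a_pow_smul t 1
    rwa [pow_one] at this⟩

theorem s59e_layer_add (t t' : s59b_TW W p) :
    s59e_layer (t + t') = s59e_layer t + s59e_layer t' := rfl

theorem s59e_layer_eq_zero {t : s59b_TW W p} (h : s59e_layer t = 0) :
    ∃ w : s59b_TW W p, t = (p : ℤ_[p]) • w := by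
  have h1 : (t : ℕ → s58_Pt W) 1 = 0 := congrArg Subtype.val h
  obtain ⟨w, hw⟩ := s30a_exists_pow_smul t 1 h1
  exact ⟨w, by rw [hw, pow_one]⟩

theorem s59e_layer_nsmul (n : ℕ) (t : s59b_TW W p) :
    s59e_layer ((n : ℤ_[p]) • t) = n • s59e_layer t := by
  apply Subtype.ext
  show (((n : ℤ_[p]) • t : s59b_TW W p) : ℕ → s58_Pt W) 1 = _
  rw [s30a_natCast_smul_apply]
  rfl

theorem s59e_layer_galois (σ : GQ) (t : s59b_TW W p) :
    s59e_layer (s59b_rhoFun W p σ t) = σ • s59e_layer t := rfl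

/-- the tensor-product form of irreducibility. -/
theorem s59e_rhoW_residual_irr_aux (hirr : W.ModRepIsIrreducible p)
    (L : Submodule (ResidueField ℤ_[p]) (ResidueField ℤ_[p] ⊗[ℤ_[p]] s59b_TW W p))
    (hL : ∀ σ : GQ, ∀ x ∈ L, (s59b_rhoFun W p σ).baseChange (ResidueField ℤ_[p]) x ∈ L) :
    L = ⊥ ∨ L = ⊤ := by
  obtain ⟨hnt, hN⟩ := hirr
  -- the corresponding submodule of `W[p]`
  let N : Submodule (ZMod p) (Submodule.torsionBy ℤ (s58_Pt W) (p : ℤ)) :=
    { carrier := {P | ∃ t : s59b_TW W p, (1 : ResidueField ℤ_[p]) ⊗ₜ[ℤ_[p]] t ∈ L ∧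
        s59e_layer t = P}
      add_mem' := by
        rintro _ _ ⟨t, ht, rfl⟩ ⟨t', ht', rfl⟩
        exact ⟨t + t', by rw [TensorProduct.tmul_add]; exact L.add_mem ht ht', s59e_layer_add t t'⟩
      zero_mem' := ⟨0, by rw [TensorProduct.tmul_zero]; exact L.zero_mem, rfl⟩
      smul_mem' := by
        rintro c _ ⟨t, ht, rfl⟩
        refine ⟨((c.val : ℕ) : ℤ_[p]) • t, ?_, ?_⟩
        · rw [TensorProduct.tmul_smul]
          exact L.smul_of_tower_mem _ ht
        · rw [s59e_layer_nsmul]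
          conv_rhs => rw [← ZMod.natCast_zmod_val c, Nat.cast_smul_eq_nsmul] }
  have hNstab : Point.IsGaloisStable ℚ N := by
    rintro σ _ ⟨t, ht, rfl⟩
    refine ⟨s59b_rhoFun W p σ t, ?_, s59e_layer_galois σ t⟩
    have := hL σ _ ht
    rwa [LinearMap.baseChange_tmul] at this
  rcases hN N hNstab with h | h
  · left
    rw [eq_bot_iff]
    intro y hy
    obtain ⟨t, rfl⟩ := s59e_one_tmul_surj y
    have h1 : s59e_layer t ∈ N := ⟨t, hy, rfl⟩
    rw [h, Submodule.mem_bot] at h1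
    obtain ⟨w, rfl⟩ := s59e_layer_eq_zero h1
    rw [Submodule.mem_bot]
    exact s59e_one_tmul_p w
  · right
    rw [eq_top_iff]
    intro y _
    obtain ⟨t, rfl⟩ := s59e_one_tmul_surj y
    have h1 : s59e_layer t ∈ N := by rw [h]; exact Submodule.mem_top
    obtain ⟨t', ht', hlay⟩ := h1
    have h2 : s59e_layer (t - t') = 0 := by
      have : t = (t - t') + t' := by abel
      have h3 := s59e_layer_add (t - t') t'
      rw [← this, hlay] at h3
      exact (add_eq_right.mp h3.symm)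
    obtain ⟨w, hw⟩ := s59e_layer_eq_zero h2
    have h4 : t = t' + (p : ℤ_[p]) • w := by rw [← hw]; abel
    rw [h4, TensorProduct.tmul_add, s59e_one_tmul_p, add_zero]
    exact ht'

/-- **the residual representation of `ρ_W` is irreducible** when `W[p]` is. -/
theorem s59e_rhoW_residual_irr (hΔ : W.Δ ≠ 0) (hirr : W.ModRepIsIrreducible p) :
    (s59b_rhoW W p hΔ).residual.IsIrreducible :=
  fun L hL => s59e_rhoW_residual_irr_aux hirr L hL

/-- natural numbers are fixed by Frobenius. -/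
theorem s59e_natCast_frob (p : ℕ) [Fact p.Prime] {k : Type*} [Field k] [CharP k p] (n : ℕ) :
    (n : k) ^ p = n := by
  have h3 : (n : k) = ZMod.castHom (dvd_refl p) k (n : ZMod p) := by rw [map_natCast]
  rw [h3, ← map_pow, ZMod.pow_card]

/-- **(E6) for `ρ_W ⊗ 𝒪`**: the residual representation is absolutely irreducible and satisfies
the Taylor-Wiles image condition. -/
theorem s59e_E6 (hp35 : p = 3 ∨ p = 5) (hΔ : W.Δ ≠ 0) (hirr : W.ModRepIsIrreducible p)
    (hss : W.IsSemistableModel) {𝒪 : Type} [CommRing 𝒪] [IsLocalRing 𝒪] (φ : ℤ_[p] →+* 𝒪)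
    (hφ : IsLocalHom φ) :
    ((s59b_rhoW W p hΔ).baseChangeAlong φ hφ).residual.IsAbsolutelyIrreducible ∧
    ∀ (K : Type) [Field K] [Algebra (ResidueField 𝒪) K] (G : Subgroup GQ), G.index = 2 →
      ∀ V : Submodule K
        (((s59b_rhoW W p hΔ).baseChangeAlong φ hφ).residual.baseChange K).V,
        (∀ σ ∈ G, ∀ x ∈ V,
          (((s59b_rhoW W p hΔ).baseChangeAlong φ hφ).residual.baseChange K).ρ σ x ∈ V) →
        V = ⊥ ∨ V = ⊤ := by
  have hp2 : p ≠ 2 := by rcases hp35 with rfl | rfl <;> norm_num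
  have hpp : p.Prime := hp.out
  set ρ₀ := s59b_rhoW W p hΔ with hρ₀
  have hdet₀ : ρ₀.DetIsCyclotomic p := s59b_rhoW_detCyc hΔ hp2 hirr
  set ρ := ρ₀.baseChangeAlong φ hφ with hρ
  have hdet : ρ.DetIsCyclotomic p := s59e_bc_detCyc φ hφ ρ₀ p hdet₀
  haveI : CharP (ResidueField 𝒪) p := s59e_charP_residue p hdet.1
  haveI hc₀ : CharP (ResidueField ℤ_[p]) p := s59e_charP_residue p hdet₀.1
  -- complex conjugation
  have h2 : (2 : ResidueField ℤ_[p]) ≠ 0 := by
    intro h0
    have h1 : ((2 : ℕ) : ResidueField ℤ_[p]) = 0 := by exact_mod_cast h0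
    have := (CharP.cast_eq_zero_iff (ResidueField ℤ_[p]) p 2).mp h1
    have := (Nat.prime_dvd_prime_iff_eq hpp Nat.prime_two).mp this
    exact hp2 this
  have hdetc : LinearMap.det (ρ₀.residual.ρ complexConjugation) = -1 := by
    rw [s59e_residual_det p ρ₀ hdet₀ complexConjugation (p - 1)
      (fun μ hμ => s30y_conj_root p hpp.ne_zero μ hμ),
      Nat.cast_sub hpp.one_le, CharP.cast_eq_zero, Nat.cast_one, zero_sub]
  -- universal irreducibility
  have huniv : ∀ (K : Type) [Field K] [Algebra (ResidueField 𝒪) K],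
      (ρ.residual.baseChange K).IsIrreducible := by
    intro K _ _
    apply s59e_residual_irr_transport φ hφ ρ₀ K
    haveI := hφ
    letI : Algebra (ResidueField ℤ_[p]) K :=
      ((algebraMap (ResidueField 𝒪) K).comp (ResidueField.map φ)).toAlgebra
    intro U hU
    exact s59e_univ_irr ρ₀.residual.ρ K h2 ρ₀.residual.finrank_eq
      (s59e_rhoW_residual_irr hΔ hirr) complexConjugation complexConjugation_mul_self hdetc U hU
  -- determinant
  have hdetv : ∀ g : GQ, LinearMap.det (ρ.residual.ρ g) = ((cycloExp p g : ℕ) : ResidueField 𝒪) :=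
    fun g => s59e_residual_det p ρ hdet g (cycloExp p g) (fun μ hμ => s56h_cycloExp_spec p g μ hμ)
  refine ⟨huniv (AlgebraicClosure (ResidueField 𝒪)), ?_⟩
  refine s59e_twimage p hp35 ρ.residual huniv
    (fun g => s59e_residual_trace_frob p φ hφ ρ₀ g)
    (fun g => by rw [hdetv]; exact s59e_natCast_frob p _) ?_ ?_
  · intro h5
    subst h5
    obtain ⟨g, hg⟩ := s56h_cyclo_surjective 5 (ZMod.unitOfCoprime 2 (by norm_num))
    refine ⟨g, ?_⟩
    have hexp : cycloExp 5 g = 2 := by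
      rw [← val_cycloChar, hg]
      rfl
    rw [hdetv, hexp]
    intro h
    have h3 : ((3 : ℕ) : ResidueField 𝒪) = 0 := by
      have : ((2 : ℕ) : ResidueField 𝒪) ^ 2 - 1 = ((3 : ℕ) : ResidueField 𝒪) := by
        push_cast; ring
      rw [← this, h, sub_self]
    have := (CharP.cast_eq_zero_iff (ResidueField 𝒪) 5 3).mp h3
    omega
  · intro q hq hqp P hP σ hσ
    exact s59e_residual_unip ρ q
      (s59e_bc_unip φ hφ ρ₀ q (s59b_rhoW_unip hΔ hp2 hirr hss q hq hqp)) P hP σ hσ

end Fermat.Agent.Lib.S59
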