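/-
Programme R (S59), node [R3] (helper2, prefix `s59b_`): **an auxiliary prime `r ≡ 2 (mod 3)` with
`3 ∤ a_r(W)`**, for a semistable `W` with `W[3]` irreducible, outside any finite set of primes.

Abstract core (`s59b_exists_det_neg_tr_ne`): a residual representation with determinant in `{± 1}`,
an involution `c` of determinant `−1`, and the Taylor-Wiles image condition `s59_TWImage`
(helper5's (E6)) has an element of determinant `−1` and NON-ZERO trace: otherwise every element of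
determinant `−1` is an involution (Cayley-Hamilton), so `c` inverts the image of the index two
subgroup `G₁ = {det = 1}`, which is therefore commutative and stabilises a line over `k̄`.
Then Chebotarev (`s52d_cheb_field`) and the characteristic polynomial of Frobenius elements.
-/
import Mathlib
import Fermat.Agent.Lib.S59.ETWTop
import Fermat.Agent.Lib.S52.DCheb
import Fermat.Agent.Lib.S35.ELevelT

set_option autoImplicit false
set_option linter.style.haveILetI false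
set_option linter.unusedSectionVars false

noncomputable section

namespace Fermat.Agent.Lib.S59

open Fermat.Agent.Lib.S30 Fermat.Agent.Lib.S58 Fermat.Agent.Lib.S56 Fermat.Agent.Lib.S35
open WeierstrassCurve IsLocalRing TensorProduct Polynomial

local notation "Kb" => AlgebraicClosure ℚ
local notation "GQ" => (AlgebraicClosure ℚ ≃ₐ[ℚ] AlgebraicClosure ℚ)

section Core

variable {k : Type} [Field k]

/-- Cayley-Hamilton for an endomorphism of a plane of trace `0` and determinant `−1`. -/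
theorem s59b_sq_eq_one_of_tr_det {V : Type*} [AddCommGroup V] [Module k V]
    (hdim : Module.finrank k V = 2) (f : Module.End k V)
    (htr : LinearMap.trace k V f = 0) (hdet : LinearMap.det f = -1) : f * f = 1 := by
  haveI : Module.Finite k V := Module.finite_of_finrank_eq_succ hdim
  have h1 := LinearMap.aeval_self_charpoly f
  rw [s35el_charpoly_eq hdim f, htr, hdet] at h1
  simp only [map_zero, zero_mul, sub_zero, map_neg, map_one, map_add, map_pow, aeval_X] at h1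
  rw [pow_two] at h1
  exact eq_neg_iff_add_eq_zero.mpr h1 |>.trans (neg_neg _)

/-- **abstract core of [R3]**: under the Taylor-Wiles image condition there is an element of
determinant `−1` and non-zero trace. -/
theorem s59b_exists_det_neg_tr_ne (h2 : (2 : k) ≠ 0) (ρb : ResidualGaloisRep k)
    (hdet : ∀ σ : GQ, LinearMap.det (ρb.ρ σ) = 1 ∨ LinearMap.det (ρb.ρ σ) = -1)
    (c : GQ) (hc : c * c = 1) (hdetc : LinearMap.det (ρb.ρ c) = -1)
    (hTW : ∀ (K : Type) [Field K] [Algebra k K] (G : Subgroup GQ), G.index = 2 →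
      ∀ V : Submodule K (ρb.baseChange K).V,
        (∀ σ ∈ G, ∀ x ∈ V, (ρb.baseChange K).ρ σ x ∈ V) → V = ⊥ ∨ V = ⊤) :
    ∃ σ : GQ, LinearMap.det (ρb.ρ σ) = -1 ∧ LinearMap.trace k ρb.V (ρb.ρ σ) ≠ 0 := by
  by_contra hcon
  push Not at hcon
  have h11 : (1 : k) ≠ -1 := by
    intro h
    apply h2
    have e : (2 : k) = 1 + 1 := by norm_num
    rw [e]
    nth_rewrite 1 [h]
    ring
  -- every element of determinant `-1` is an involution
  have hinv : ∀ σ : GQ, LinearMap.det (ρb.ρ σ) = -1 → ρb.ρ σ * ρb.ρ σ = 1 := fun σ hσ =>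
    s59b_sq_eq_one_of_tr_det ρb.finrank_eq _ (hcon σ hσ) hσ
  -- the index two subgroup
  let D : GQ →* k := (LinearMap.det : Module.End k ρb.V →* k).comp ρb.ρ
  obtain ⟨G₁, hG₁⟩ : ∃ G₁ : Subgroup GQ, G₁ = D.ker := ⟨_, rfl⟩
  have hmem : ∀ σ, σ ∈ G₁ ↔ LinearMap.det (ρb.ρ σ) = 1 := fun σ => by
    rw [hG₁]; exact MonoidHom.mem_ker
  have hindex : G₁.index = 2 := by
    rw [Subgroup.index_eq_two_iff]
    refine ⟨c, fun b => ?_⟩
    rw [hmem, hmem, map_mul, map_mul, hdetc]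
    rcases hdet b with h | h
    · rw [h]
      exact Or.inr ⟨rfl, by rw [one_mul]; exact fun h' => h11 h'.symm⟩
    · rw [h]
      exact Or.inl ⟨by ring, fun h' => h11 h'.symm⟩
  -- `c` inverts the image of `G₁`
  have hCC : ρb.ρ c * ρb.ρ c = 1 := by rw [← map_mul, hc, map_one]
  have key : ∀ h ∈ G₁, ρb.ρ c * ρb.ρ h * ρb.ρ c = ρb.ρ h⁻¹ := by
    intro h hh
    have h1 : LinearMap.det (ρb.ρ (c * h)) = -1 := by
      rw [map_mul, map_mul, hdetc, (hmem h).mp hh, mul_one]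
    have h3 := hinv _ h1
    rw [map_mul] at h3
    have h4 : ρb.ρ h * ρb.ρ h⁻¹ = 1 := by rw [← map_mul, mul_inv_cancel, map_one]
    calc ρb.ρ c * ρb.ρ h * ρb.ρ c = ρb.ρ c * ρb.ρ h * ρb.ρ c * (ρb.ρ h * ρb.ρ h⁻¹) := by
          rw [h4, mul_one]
      _ = (ρb.ρ c * ρb.ρ h * (ρb.ρ c * ρb.ρ h)) * ρb.ρ h⁻¹ := by simp only [mul_assoc]
      _ = ρb.ρ h⁻¹ := by rw [h3, one_mul]
  have hS : ∀ h ∈ G₁, ∀ h' ∈ G₁, ρb.ρ h'⁻¹ * ρb.ρ h⁻¹ = ρb.ρ h⁻¹ * ρb.ρ h'⁻¹ := by
    intro h hh h' hh'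
    have h1 := key (h * h') (G₁.mul_mem hh hh')
    rw [mul_inv_rev, map_mul, map_mul] at h1
    rw [← h1, ← key h hh, ← key h' hh']
    calc ρb.ρ c * (ρb.ρ h * ρb.ρ h') * ρb.ρ c
        = ρb.ρ c * ρb.ρ h * 1 * ρb.ρ h' * ρb.ρ c := by simp only [mul_assoc, one_mul]
      _ = ρb.ρ c * ρb.ρ h * (ρb.ρ c * ρb.ρ c) * ρb.ρ h' * ρb.ρ c := by rw [hCC]
      _ = ρb.ρ c * ρb.ρ h * ρb.ρ c * (ρb.ρ c * ρb.ρ h' * ρb.ρ c) := by simp only [mul_assoc]
  have hcomm : ∀ h ∈ G₁, ∀ h' ∈ G₁, ρb.ρ h * ρb.ρ h' = ρb.ρ h' * ρb.ρ h := by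
    intro h hh h' hh'
    have := hS h'⁻¹ (G₁.inv_mem hh') h⁻¹ (G₁.inv_mem hh)
    rwa [inv_inv, inv_inv] at this
  -- a stable line over the algebraic closure
  have hdimK := (ρb.baseChange (AlgebraicClosure k)).finrank_eq
  obtain ⟨U, hU0, hU1, hU⟩ := s59e_comm_stable hdimK
    (fun g : G₁ => (ρb.baseChange (AlgebraicClosure k)).ρ (g : GQ)) (fun g h => by
      show (ρb.ρ (g : GQ)).baseChange (AlgebraicClosure k) *
          (ρb.ρ (h : GQ)).baseChange (AlgebraicClosure k) =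
        (ρb.ρ (h : GQ)).baseChange (AlgebraicClosure k) *
          (ρb.ρ (g : GQ)).baseChange (AlgebraicClosure k)
      rw [← LinearMap.baseChange_mul, ← LinearMap.baseChange_mul, hcomm _ g.2 _ h.2])
  rcases hTW (AlgebraicClosure k) G₁ hindex U (fun σ hσ x hx => hU ⟨σ, hσ⟩ x hx) with h | h
  · exact hU0 h
  · exact hU1 h

end Core

section Main

/-- the characteristic polynomial of the residual representation. -/
theorem s59b_residual_charpoly_r3 {A : Type} [CommRing A] [IsLocalRing A] (ρ : GaloisRepAdic A)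
    (σ : GQ) :
    LinearMap.charpoly (ρ.residual.ρ σ) = (LinearMap.charpoly (ρ.ρ σ)).map (residue A) := by
  show LinearMap.charpoly ((ρ.ρ σ).baseChange (ResidueField A)) = _
  rw [LinearMap.charpoly_baseChange, ResidueField.algebraMap_eq]

variable {W : WeierstrassCurve ℤ}

/-- **[R3]**: for a semistable `W` with `W[3]` irreducible and any finite set `B` of primes there
is a good prime `r ∉ B`, `r ≡ 2 (mod 3)`, with `3 ∤ a_r(W)`. -/
theorem s59b_R3 (hΔ : W.Δ ≠ 0) (hss : W.IsSemistableModel) (hirr : W.ModRepIsIrreducible 3)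
    (B : Finset ℕ) :
    ∃ r : ℕ, r.Prime ∧ r ∉ B ∧ r % 3 = 2 ∧ W.IsGoodPrimeFor r ∧ ¬ (3 : ℤ) ∣ W.apOfModel r := by
  haveI : Fact (Nat.Prime 3) := ⟨Nat.prime_three⟩
  have hp2 : (3 : ℕ) ≠ 2 := by norm_num
  obtain ⟨ρ₀, hρ₀⟩ : ∃ ρ₀ : GaloisRepAdic ℤ_[3], ρ₀ = s59b_rhoW W 3 hΔ := ⟨_, rfl⟩
  have hφ : IsLocalHom (RingHom.id ℤ_[3]) := ⟨fun a ha => ha⟩
  obtain ⟨ρ, hρ⟩ : ∃ ρ : GaloisRepAdic ℤ_[3], ρ = ρ₀.baseChangeAlong (RingHom.id ℤ_[3]) hφ :=
    ⟨_, rfl⟩
  obtain ⟨-, hTW⟩ := s59e_E6 (Or.inl rfl) hΔ hirr hss (RingHom.id ℤ_[3]) hφ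
  rw [← hρ₀, ← hρ] at hTW
  have hdet₀ : ρ₀.DetIsCyclotomic 3 := by rw [hρ₀]; exact s59b_rhoW_detCyc hΔ hp2 hirr
  have hdet : ρ.DetIsCyclotomic 3 := by rw [hρ]; exact s59e_bc_detCyc _ hφ ρ₀ 3 hdet₀
  haveI : CharP (ResidueField ℤ_[3]) 3 := s59e_charP_residue 3 hdet.1
  have h3 : (3 : ResidueField ℤ_[3]) = 0 := by
    have := CharP.cast_eq_zero (ResidueField ℤ_[3]) 3
    exact_mod_cast this
  have h2 : (2 : ResidueField ℤ_[3]) ≠ 0 := by
    intro h0
    have h1 : ((2 : ℕ) : ResidueField ℤ_[3]) = 0 := by exact_mod_cast h0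
    have := (CharP.cast_eq_zero_iff (ResidueField ℤ_[3]) 3 2).mp h1
    omega
  have h2' : (2 : ResidueField ℤ_[3]) = -1 := by
    have : (2 : ResidueField ℤ_[3]) = 3 - 1 := by norm_num
    rw [this, h3, zero_sub]
  -- determinants
  have hdetv : ∀ g : GQ, LinearMap.det (ρ.residual.ρ g) =
      ((ExtCitation.cycloExp 3 g : ℕ) : ResidueField ℤ_[3]) :=
    fun g => s59e_residual_det 3 ρ hdet g (ExtCitation.cycloExp 3 g)
      (fun μ hμ => s56h_cycloExp_spec 3 g μ hμ)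
  have hpm : ∀ g : GQ, LinearMap.det (ρ.residual.ρ g) = 1 ∨
      LinearMap.det (ρ.residual.ρ g) = -1 := by
    intro g
    have hcube : LinearMap.det (ρ.residual.ρ g) ^ 3 = LinearMap.det (ρ.residual.ρ g) := by
      rw [hdetv]; exact s59e_natCast_frob 3 _
    have hne : LinearMap.det (ρ.residual.ρ g) ≠ 0 := by
      intro h0
      have h1 : LinearMap.det (ρ.residual.ρ g) * LinearMap.det (ρ.residual.ρ g⁻¹) = 1 := by
        rw [← map_mul, ← map_mul, mul_inv_cancel, map_one, map_one]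
      rw [h0, zero_mul] at h1
      exact zero_ne_one h1
    have hfac : LinearMap.det (ρ.residual.ρ g) *
        ((LinearMap.det (ρ.residual.ρ g) - 1) * (LinearMap.det (ρ.residual.ρ g) + 1)) = 0 := by
      linear_combination hcube
    rcases mul_eq_zero.mp hfac with h | h
    · exact absurd h hne
    · rcases mul_eq_zero.mp h with h | h
      · exact Or.inl (sub_eq_zero.mp h)
      · exact Or.inr (eq_neg_of_add_eq_zero_left h)
  have hdetc : LinearMap.det (ρ.residual.ρ complexConjugation) = -1 := by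
    rw [s59e_residual_det 3 ρ hdet complexConjugation (3 - 1)
      (fun μ hμ => s30y_conj_root 3 (by norm_num) μ hμ)]
    norm_num
    exact h2'
  -- an element of determinant `-1` and non-zero trace
  obtain ⟨σ₀, hσ₀d, hσ₀t⟩ := s59b_exists_det_neg_tr_ne h2 ρ.residual hpm complexConjugation
    complexConjugation_mul_self hdetc hTW
  -- Chebotarev
  obtain ⟨L, hLfd, hL⟩ := ρ.residual.factorsThroughFiniteLevel
  obtain ⟨M, hLM, hMfd, hMst⟩ := Fermat.Agent.Lib.S52.s52d_exists_stable L hLfd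
  obtain ⟨r, hr, hrS, hcheb⟩ :=
    Fermat.Agent.Lib.S52.s52d_cheb_field M hMfd hMst σ₀ (B ∪ s59b_S0 W 3)
  rw [Finset.mem_union, not_or] at hrS
  obtain ⟨hr3, hgood⟩ := s59b_of_notMem_S0 hΔ hr hrS.2
  obtain ⟨A, hA⟩ := Fermat.Agent.Lib.Frobenius.exists_liesOverPrime r hr
  obtain ⟨φ, hφF⟩ := Fermat.Agent.Lib.Frobenius.exists_isFrobeniusAt_of_liesOverPrime A r hr hA
  obtain ⟨g, hg⟩ := hcheb A hA φ hφF
  -- `ρ̄ φ` is conjugate to `ρ̄ σ₀`
  have hconj : ρ.residual.ρ φ = ρ.residual.ρ g * ρ.residual.ρ σ₀ * ρ.residual.ρ g⁻¹ := by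
    have h1 : ρ.residual.ρ ((g * σ₀ * g⁻¹)⁻¹ * φ) = 1 := by
      refine hL _ fun x hx => ?_
      rw [AlgEquiv.mul_apply, hg x (hLM hx)]
      exact (g * σ₀ * g⁻¹).symm_apply_apply x
    have h4 : φ = (g * σ₀ * g⁻¹) * ((g * σ₀ * g⁻¹)⁻¹ * φ) := by rw [mul_inv_cancel_left]
    rw [h4, map_mul, h1, mul_one, map_mul, map_mul]
  have hgg : ρ.residual.ρ g⁻¹ * ρ.residual.ρ g = 1 := by
    rw [← map_mul, inv_mul_cancel, map_one]
  have hdetφ : LinearMap.det (ρ.residual.ρ φ) = -1 := by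
    rw [hconj, map_mul, map_mul, mul_comm, ← mul_assoc, ← map_mul, hgg, map_one, one_mul, hσ₀d]
  have htrφ : LinearMap.trace (ResidueField ℤ_[3]) _ (ρ.residual.ρ φ) ≠ 0 := by
    rw [hconj, LinearMap.trace_mul_comm, ← mul_assoc, hgg, one_mul]
    exact hσ₀t
  -- the characteristic polynomial of the Frobenius element
  have hcp₀ : LinearMap.charpoly (ρ₀.ρ φ) =
      X ^ 2 - C (((W.apOfModel r : ℤ) : ℤ_[3])) * X + C ((r : ℤ_[3])) := by
    rw [hρ₀]; exact s59b_rhoW_charpoly hΔ hp2 hirr r hr hgood hr3 A hA φ hφF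
  have hcp : LinearMap.charpoly (ρ.residual.ρ φ) =
      X ^ 2 - C (((W.apOfModel r : ℤ) : ResidueField ℤ_[3])) * X +
        C ((r : ResidueField ℤ_[3])) := by
    rw [s59b_residual_charpoly_r3, hρ, s59e_bc_charpoly, hcp₀]
    simp only [Polynomial.map_sub, Polynomial.map_add, Polynomial.map_mul, Polynomial.map_pow,
      Polynomial.map_X, map_intCast, map_natCast, Polynomial.map_intCast,
      Polynomial.map_natCast]
  obtain ⟨htr, hd⟩ := s59e_trace_det_of_charpoly ρ.residual.finrank_eq (ρ.residual.ρ φ) _ _ hcp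
  refine ⟨r, hr, hrS.1, ?_, hgood, ?_⟩
  · rw [hd] at hdetφ
    have h1 : ((r + 1 : ℕ) : ResidueField ℤ_[3]) = 0 := by
      push_cast; rw [hdetφ]; ring
    have := (CharP.cast_eq_zero_iff (ResidueField ℤ_[3]) 3 (r + 1)).mp h1
    omega
  · intro hdvd
    apply htrφ
    rw [htr]
    exact (CharP.intCast_eq_zero_iff (ResidueField ℤ_[3]) 3 _).mpr (by exact_mod_cast hdvd)

end Main

end Fermat.Agent.Lib.S59
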