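/-
Programme R (S59), node [M2′] (helper2, prefix `s59b_`), part 1: a refinement of
`s29m_valuation_of_div` (Lib/S29/KBridge).  If `div h = p • D` and `w` is a `ℤᵐ⁰`-valued valuation of
`F`, `≤ 1` on the constants, ALL of whose values have logarithm divisible by `d`, then the logarithm
of `w h` is divisible by `d * p` (the ramification index of `w` over the place is a multiple of `d`).
-/
import Mathlib
import Fermat.Agent.Lib.S29.KBridge
import Fermat.Agent.Lib.FF.FFBasicPlace

set_option autoImplicit false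

open AlgebraicCurve WithZero

namespace Fermat.Agent.Lib.S59

open Fermat.Agent.Lib.FF Fermat.Agent.Lib.S29

variable {K F : Type*} [Field K] [Field F] [Algebra K F]

/-- **orders divisible by `d * p`.** -/
theorem s59b_valuation_of_div (w : Valuation F ℤᵐ⁰) (hK : ∀ c : K, w (algebraMap K F c) ≤ 1)
    (d : ℤ) (hd : ∀ f : F, f ≠ 0 → d ∣ WithZero.log (w f))
    (p : ℕ) (h : F) (hh : h ≠ 0) (D : Divisor K F)
    (hD : ∀ v : Place K F, v.ord h = (p : ℤ) * D v) :
    d * (p : ℤ) ∣ WithZero.log (w h) := by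
  by_cases hnt : ∃ t : F, t ≠ 0 ∧ w t < 1
  · obtain ⟨v, m, -, hv⟩ := s29m_place_of_valuation w hK hnt
    obtain ⟨π, hπ0, hπ⟩ := ff_exists_ord_eq_one v
    have hdm : d ∣ m := by
      have h1 := hv π hπ0
      rw [hπ, mul_one] at h1
      rw [← h1]
      exact (dvd_neg.mpr (hd π hπ0))
    obtain ⟨m', rfl⟩ := hdm
    have h1 := hv h hh
    rw [hD v] at h1
    exact ⟨-(m' * D v), by linarith⟩
  · push Not at hnt
    have hwh0 : w h ≠ 0 := (Valuation.ne_zero_iff w).mpr hh
    have h1 : w h = 1 := by
      apply le_antisymm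
      · have h1 := hnt h⁻¹ (inv_ne_zero hh)
        rw [map_inv₀] at h1
        exact (one_le_inv₀ (zero_lt_iff.mpr hwh0)).mp h1
      · exact hnt h hh
    rw [h1, WithZero.log_one]
    exact dvd_zero _

end Fermat.Agent.Lib.S59
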