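/-
Programme R (S59), node [M2′] (helper2, prefix `s59b_`), part 2: **the cusp step at a cusp of
arbitrary width** — `ψ` kills every parabolic element of `Γ₀(N)`, WITHOUT the hypothesis `p ∤ N` of
`s44r_psi_parabolic` (Lib/S44/RKapPar).

Setting of Lib/S44/RKapCusp (`φ : F →+* ffm_E N`, `div h = p • D`, `φ h = a / b`, `A ^ p = a b^(p-1)`,
`A ∘ γ = ζ_p ^ ψ(γ) A`), plus: every `φ f` is a quotient of two `Γ₀(N)`-invariant elements of
`ffm_R N` (`hfrac`; true for helper4's bridge `s29bp_phi`).  For `γ = ± δ T^M δ⁻¹ ∈ Γ₀(N)`, `M > 0`: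
all `δ⁻¹ • φ f` are `M`-periodic, so their `q_N`-orders are divisible by `d = N / gcd(N, M)`; by the
refined valuation lemma (`s59b_valuation_of_div`) the `q_N`-order of `δ⁻¹ • (a b^(p-1))` is divisible
by `d p`, i.e. its `q_M`-order is divisible by `p`, and `s44r_root_limit` (period `M`) applies.
-/
import Mathlib
import Fermat.Agent.Lib.S59.BOldVal
import Fermat.Agent.Lib.S44.RKapCusp
import Fermat.Agent.Lib.FF.CuspsExp

set_option autoImplicit false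
set_option linter.unusedSectionVars false
set_option linter.style.haveILetI false

namespace Fermat.Agent.Lib.S59

open UpperHalfPlane hiding I
open Complex Filter Function Topology AlgebraicCurve CongruenceSubgroup ModularCurve.Period
open Fermat.Agent.Lib.FF Fermat.Agent.Lib.S29 Fermat.Agent.Lib.S44 Fermat.Agent.Lib.Period
open scoped Real Manifold MatrixGroups

noncomputable section

/-! ### arithmetic -/

/-- `N ∣ M n` implies `N / gcd(N, M) ∣ n`. -/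
theorem s59b_div_gcd_dvd {N M : ℕ} (hN : N ≠ 0) {n : ℤ} (h : (N : ℤ) ∣ (M : ℤ) * n) :
    ((N / Nat.gcd N M : ℕ) : ℤ) ∣ n := by
  have hg0 : 0 < Nat.gcd N M := Nat.gcd_pos_of_pos_left M (Nat.pos_of_ne_zero hN)
  have hcop : Nat.Coprime (N / Nat.gcd N M) (M / Nat.gcd N M) := Nat.coprime_div_gcd_div_gcd hg0
  have hN' : (N : ℤ) = (Nat.gcd N M : ℤ) * ((N / Nat.gcd N M : ℕ) : ℤ) := by
    rw [← Nat.cast_mul, Nat.mul_div_cancel' (Nat.gcd_dvd_left N M)]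
  have hM' : (M : ℤ) = (Nat.gcd N M : ℤ) * ((M / Nat.gcd N M : ℕ) : ℤ) := by
    rw [← Nat.cast_mul, Nat.mul_div_cancel' (Nat.gcd_dvd_right N M)]
  rw [hN', hM', mul_assoc] at h
  have h1 : ((N / Nat.gcd N M : ℕ) : ℤ) ∣ ((M / Nat.gcd N M : ℕ) : ℤ) * n :=
    (mul_dvd_mul_iff_left (by exact_mod_cast hg0.ne' : (Nat.gcd N M : ℤ) ≠ 0)).mp h
  exact (Nat.isCoprime_iff_coprime.mpr hcop).dvd_of_dvd_mul_left h1

/-- the exponent in `q_N` of a non-zero `M`-periodic element of `ffm_R N`. -/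
theorem s59b_expInf_dvd_of_periodic {N : ℕ} [NeZero N] (M : ℕ) {x : ffm_R N} (hx : x ≠ 0)
    (hper : ∀ z : ℍ, (x : ℍ → ℂ) ((M : ℝ) +ᵥ z) = (x : ℍ → ℂ) z) :
    ((N / Nat.gcd N M : ℕ) : ℤ) ∣ ffm_expInf N x :=
  s59b_div_gcd_dvd (NeZero.ne N) ((ffm_hasExp N hx).dvd_mul_of_periodic (NeZero.ne N) hper)

/-! ### the cusp step -/

section Main

variable {K : Type*} [Field K] {F : Type*} [Field F] [Algebra K F] {N : ℕ} [NeZero N]
  (φ : F →+* ffm_E N)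
  (hφK : ∀ c : K, ∃ c' : ℂ, φ (algebraMap K F c) = algebraMap ℂ (ffm_E N) c')
  (hfrac : ∀ f : F, ∃ a b : ffm_R N, b ≠ 0 ∧
      φ f * algebraMap (ffm_R N) (ffm_E N) b = algebraMap (ffm_R N) (ffm_E N) a ∧
      (∀ γ ∈ Gamma0 N, ∀ z : ℍ, (a : ℍ → ℂ) (γ • z) = (a : ℍ → ℂ) z) ∧
      (∀ γ ∈ Gamma0 N, ∀ z : ℍ, (b : ℍ → ℂ) (γ • z) = (b : ℍ → ℂ) z))
  (p : ℕ) [hpp : Fact p.Prime]
  (h : F) (hh : h ≠ 0) (D : Divisor K F) (hD : ∀ v : Place K F, v.ord h = (p : ℤ) * D v)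
  (a b : ffm_R N) (hb : b ≠ 0)
  (hab : φ h * algebraMap (ffm_R N) (ffm_E N) b = algebraMap (ffm_R N) (ffm_E N) a)
  (hainv : ∀ γ ∈ Gamma0 N, ∀ z : ℍ, (a : ℍ → ℂ) (γ • z) = (a : ℍ → ℂ) z)
  (hbinv : ∀ γ ∈ Gamma0 N, ∀ z : ℍ, (b : ℍ → ℂ) (γ • z) = (b : ℍ → ℂ) z)
  {A : ℍ → ℂ} (hA : MDiff A) (hA0 : ∃ τ, A τ ≠ 0)
  (hAp : ∀ τ, A τ ^ p = (a : ℍ → ℂ) τ * (b : ℍ → ℂ) τ ^ (p - 1))
  (ψ : Additive (Gamma0 N) →+ ZMod p)
  (hAψ : ∀ (γ : Gamma0 N) (τ : ℍ), A ((γ : SL(2, ℤ)) • τ) =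
    cexp (2 * π * I / p) ^ (ψ (Additive.ofMul γ)).val * A τ)

/-- a `Γ₀(N)`-invariant function, moved to a cusp stabilised by `γ = ± δ T^M δ⁻¹`, is
`M`-periodic. -/
theorem s59b_periodic_of_inv {x : ffm_R N}
    (hx : ∀ γ ∈ Gamma0 N, ∀ z : ℍ, (x : ℍ → ℂ) (γ • z) = (x : ℍ → ℂ) z) (γ : Gamma0 N)
    (δ : SL(2, ℤ)) (M : ℕ) (hg : ∀ w : ℍ, (γ : SL(2, ℤ)) • (δ • w) = δ • ((M : ℝ) +ᵥ w)) (z : ℍ) :
    ((δ⁻¹ • x : ffm_R N) : ℍ → ℂ) ((M : ℝ) +ᵥ z) = ((δ⁻¹ • x : ffm_R N) : ℍ → ℂ) z := by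
  rw [ffm_smul_apply, ffm_smul_apply, inv_inv, ← hg z, hx γ γ.2]

theorem s59b_smul_ne_zero (δ : SL(2, ℤ)) {x : ffm_R N} (hx : x ≠ 0) : δ • x ≠ 0 := by
  intro h0
  apply hx
  have := congrArg (fun y => δ⁻¹ • y) h0
  simpa using this

include hfrac in
/-- the value group of the order at the cusp `δ ∞`, on `F`. -/
theorem s59b_cusp_valueGroup (γ : Gamma0 N) (δ : SL(2, ℤ)) (M : ℕ)
    (hg : ∀ w : ℍ, (γ : SL(2, ℤ)) • (δ • w) = δ • ((M : ℝ) +ᵥ w)) (f : F) (hf : f ≠ 0) :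
    ((N / Nat.gcd N M : ℕ) : ℤ) ∣ WithZero.log (ffm_ordInf N (δ⁻¹ • φ f)) := by
  obtain ⟨af, bf, hbf, habf, hai, hbi⟩ := hfrac f
  have hinj := ffm_algebraMap_injective N
  have hbE : algebraMap (ffm_R N) (ffm_E N) bf ≠ 0 := by rwa [Ne, map_eq_zero_iff _ hinj]
  have hφf : φ f ≠ 0 := (map_ne_zero φ).mpr hf
  have haf : af ≠ 0 := by
    rintro rfl
    rw [map_zero] at habf
    exact (mul_ne_zero hφf hbE) habf
  have h1 : δ⁻¹ • φ f * algebraMap (ffm_R N) (ffm_E N) (δ⁻¹ • bf) =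
      algebraMap (ffm_R N) (ffm_E N) (δ⁻¹ • af) := by
    rw [← ffm_smul_algebraMap, ← ffm_smul_algebraMap, ← smul_mul', habf]
  have h2 := congrArg (ffm_ordInf N) h1
  rw [map_mul, ffm_ordInf_algebraMap_eq_exp N (s59b_smul_ne_zero δ⁻¹ hbf),
    ffm_ordInf_algebraMap_eq_exp N (s59b_smul_ne_zero δ⁻¹ haf)] at h2
  have hx0 : ffm_ordInf N (δ⁻¹ • φ f) ≠ 0 := by
    rw [Valuation.ne_zero_iff]
    intro h0
    apply hφf
    have := congrArg (fun y => δ • y) h0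
    simpa using this
  have h3 := congrArg WithZero.log h2
  rw [WithZero.log_mul hx0 WithZero.exp_ne_zero, WithZero.log_exp, WithZero.log_exp] at h3
  have hda := s59b_expInf_dvd_of_periodic M (s59b_smul_ne_zero δ⁻¹ haf)
    (s59b_periodic_of_inv hai γ δ M hg)
  have hdb := s59b_expInf_dvd_of_periodic M (s59b_smul_ne_zero δ⁻¹ hbf)
    (s59b_periodic_of_inv hbi γ δ M hg)
  have h4 : WithZero.log (ffm_ordInf N (δ⁻¹ • φ f)) =
      ffm_expInf N (δ⁻¹ • bf) - ffm_expInf N (δ⁻¹ • af) := by linarith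
  rw [h4]
  exact dvd_sub hdb hda

include hφK hfrac hh hD hb hab hbinv in
/-- the exponent in `q_N` of `δ⁻¹ • (a b^(p-1))` is divisible by `(N / gcd(N, M)) p`. -/
theorem s59b_exp_dvd (γ : Gamma0 N) (δ : SL(2, ℤ)) (M : ℕ)
    (hg : ∀ w : ℍ, (γ : SL(2, ℤ)) • (δ • w) = δ • ((M : ℝ) +ᵥ w)) :
    δ⁻¹ • (a * b ^ (p - 1)) ≠ 0 ∧
      ((N / Nat.gcd N M : ℕ) : ℤ) * (p : ℤ) ∣ ffm_expInf N (δ⁻¹ • (a * b ^ (p - 1))) := by
  have hp0 : p ≠ 0 := hpp.out.ne_zero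
  have hinj := ffm_algebraMap_injective N
  have hbE : algebraMap (ffm_R N) (ffm_E N) b ≠ 0 := by rwa [Ne, map_eq_zero_iff _ hinj]
  have hφh : φ h ≠ 0 := (map_ne_zero φ).mpr hh
  have ha : a ≠ 0 := by
    rintro rfl
    rw [map_zero] at hab
    exact (mul_ne_zero hφh hbE) hab
  have hG0 : a * b ^ (p - 1) ≠ 0 := mul_ne_zero ha (pow_ne_zero _ hb)
  have hδG : δ⁻¹ • (a * b ^ (p - 1)) ≠ 0 := s59b_smul_ne_zero δ⁻¹ hG0
  have hδb : δ⁻¹ • b ≠ 0 := s59b_smul_ne_zero δ⁻¹ hb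
  refine ⟨hδG, ?_⟩
  -- the refined valuation lemma
  have hval := s59b_valuation_of_div (K := K) ((ffm_ordInf N).comap
    ((MulSemiringAction.toRingHom SL(2, ℤ) (ffm_E N) δ⁻¹).comp φ)) (fun c => by
      obtain ⟨c', hc'⟩ := hφK c
      show ffm_ordInf N (δ⁻¹ • φ (algebraMap K F c)) ≤ 1
      rw [hc', smul_algebraMap]
      by_cases h0 : c' = 0
      · rw [h0, map_zero, map_zero]
        exact zero_le_one
      · rw [ffm_ordInf_const N h0])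
    ((N / Nat.gcd N M : ℕ) : ℤ) (fun f hf => s59b_cusp_valueGroup φ hfrac γ δ M hg f hf)
    p h hh D hD
  have hval' : ((N / Nat.gcd N M : ℕ) : ℤ) * (p : ℤ) ∣
      WithZero.log (ffm_ordInf N (δ⁻¹ • φ h)) := hval
  -- `alg (a b^{p-1}) = φ h · (alg b)^p`
  have h1 : algebraMap (ffm_R N) (ffm_E N) (a * b ^ (p - 1)) =
      φ h * algebraMap (ffm_R N) (ffm_E N) b ^ p := by
    rw [map_mul, map_pow, ← hab, mul_assoc, ← pow_succ',
      Nat.sub_add_cancel (Nat.one_le_iff_ne_zero.mpr hp0)]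
  have h2 : ffm_ordInf N (algebraMap (ffm_R N) (ffm_E N) (δ⁻¹ • (a * b ^ (p - 1)))) =
      ffm_ordInf N (δ⁻¹ • φ h) *
        ffm_ordInf N (algebraMap (ffm_R N) (ffm_E N) (δ⁻¹ • b)) ^ p := by
    rw [← ffm_smul_algebraMap, h1, smul_mul', smul_pow', map_mul, map_pow, ffm_smul_algebraMap]
  have hx0 : ffm_ordInf N (δ⁻¹ • φ h) ≠ 0 := by
    rw [Valuation.ne_zero_iff]
    intro h0
    apply hφh
    have := congrArg (fun y => δ • y) h0
    simpa using this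
  rw [ffm_ordInf_algebraMap_eq_exp N hδG, ffm_ordInf_algebraMap_eq_exp N hδb] at h2
  have h3 := congrArg WithZero.log h2
  rw [WithZero.log_exp, WithZero.log_mul hx0 (pow_ne_zero _ WithZero.exp_ne_zero),
    WithZero.log_pow, WithZero.log_exp] at h3
  have hdb := s59b_expInf_dvd_of_periodic M hδb (s59b_periodic_of_inv hbinv γ δ M hg)
  have h4 : ffm_expInf N (δ⁻¹ • (a * b ^ (p - 1))) =
      -WithZero.log (ffm_ordInf N (δ⁻¹ • φ h)) + (p : ℤ) * ffm_expInf N (δ⁻¹ • b) := by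
    rw [nsmul_eq_mul] at h3
    linarith
  rw [h4]
  refine dvd_add (dvd_neg.mpr hval') ?_
  rw [mul_comm ((N / Nat.gcd N M : ℕ) : ℤ) (p : ℤ)]
  exact mul_dvd_mul_left _ hdb

include hφK hfrac hh hD hb hab hbinv hA hAp hAψ in
/-- **the cusp step at width `M`**: `ψ` kills `γ = ± δ T^M δ⁻¹ ∈ Γ₀(N)`, `M > 0`. -/
theorem s59b_psi_conj_TM (γ : Gamma0 N) (δ : SL(2, ℤ)) (M : ℕ) (hM : 0 < M)
    (hg : ∀ w : ℍ, (γ : SL(2, ℤ)) • (δ • w) = δ • ((M : ℝ) +ᵥ w)) :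
    ψ (Additive.ofMul γ) = 0 := by
  have hp0 : 0 < p := hpp.out.pos
  obtain ⟨hG0, hdvd⟩ := s59b_exp_dvd φ hφK hfrac p h hh D hD a b hb hab hbinv γ δ M hg
  obtain ⟨G, hGdef⟩ : ∃ G : ffm_R N, G = δ⁻¹ • (a * b ^ (p - 1)) := ⟨_, rfl⟩
  rw [← hGdef] at hG0 hdvd
  obtain ⟨k'', hk''⟩ := hdvd
  obtain ⟨k', hk'⟩ : ∃ k' : ℤ, k' = k'' * ((M / Nat.gcd N M : ℕ) : ℤ) := ⟨_, rfl⟩
  have hN0 : (N : ℂ) ≠ 0 := Nat.cast_ne_zero.mpr (NeZero.ne N)
  have hM0 : (M : ℂ) ≠ 0 := Nat.cast_ne_zero.mpr hM.ne'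
  have hkey : (ffm_expInf N G : ℂ) / N = (p : ℂ) * k' / M := by
    have h1 : ffm_expInf N G * (M : ℤ) = (N : ℤ) * ((p : ℤ) * k') := by
      rw [hk'', hk']
      have hN' : (N : ℤ) = (Nat.gcd N M : ℤ) * ((N / Nat.gcd N M : ℕ) : ℤ) := by
        rw [← Nat.cast_mul, Nat.mul_div_cancel' (Nat.gcd_dvd_left N M)]
      have hM' : (M : ℤ) = (Nat.gcd N M : ℤ) * ((M / Nat.gcd N M : ℕ) : ℤ) := by
        rw [← Nat.cast_mul, Nat.mul_div_cancel' (Nat.gcd_dvd_right N M)]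
      conv_lhs => rw [hM']
      conv_rhs => rw [hN']
      ring
    rw [div_eq_div_iff hN0 hM0]
    have := congrArg (fun x : ℤ => (x : ℂ)) h1
    push_cast at this ⊢
    linear_combination this
  obtain ⟨c, hc, hlim⟩ := ffm_hasExp N hG0
  set Fδ : ℍ → ℂ := fun w => A (δ • w) with hFδ
  have hFd : MDiff Fδ := by
    have : MDiff (fun τ : ℍ => ((δ : SL(2, ℤ)) : GL (Fin 2) ℝ) • τ) :=
      UpperHalfPlane.mdifferentiable_smul (by simp)
    exact hA.comp this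
  have hFG : ∀ z, Fδ z ^ p = (G : ℍ → ℂ) z := by
    intro z
    rw [hGdef, ffm_smul_apply, inv_inv]
    simp only [hFδ]
    rw [hAp]
    rfl
  have hper : ∀ w : ℍ, Fδ ((M : ℝ) +ᵥ w) =
      cexp (2 * π * I / p) ^ (ψ (Additive.ofMul γ)).val * Fδ w := by
    intro w
    simp only [hFδ]
    rw [← hg w, hAψ γ]
  -- the cusp step with period `M`
  set E : ℍ → ℂ := fun z => cexp (-(2 * π * I * k' * z / M)) with hE
  set H : ℍ → ℂ := fun z => Fδ z * E z with hH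
  have hEd : MDiff E := by
    have hd : Differentiable ℂ (fun w : ℂ => cexp (-(2 * π * I * k' * w / M))) := by fun_prop
    exact hd.comp_mdifferentiable mdifferentiable_coe
  have hHd : MDiff H := hFd.mul hEd
  have hEper : ∀ w : ℍ, E ((M : ℝ) +ᵥ w) = E w := by
    intro w
    simp only [hE]
    rw [UpperHalfPlane.coe_vadd]
    have h1 : -(2 * π * I * k' * ((((M : ℝ) : ℂ)) + (w : ℂ)) / M) =
        -(2 * π * I * k' * w / M) + ((-k' : ℤ) : ℂ) * (2 * π * I) := by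
      push_cast
      field_simp
      ring
    rw [h1, Complex.exp_add, Complex.exp_int_mul_two_pi_mul_I, mul_one]
  have hHper : ∀ w : ℍ, H ((M : ℝ) +ᵥ w) =
      cexp (2 * π * I / p) ^ (ψ (Additive.ofMul γ)).val * H w := by
    intro w
    simp only [hH]
    rw [hper, hEper]
    ring
  have hHp : ∀ z : ℍ, H z ^ p =
      (G : ℍ → ℂ) z * cexp (-(2 * π * I * (ffm_expInf N G) * z / N)) := by
    intro z
    simp only [hH, hE]
    rw [mul_pow, hFG, ← Complex.exp_nat_mul]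
    congr 2
    have e1 : 2 * π * I * (ffm_expInf N G : ℂ) * z / N =
        2 * π * I * z * ((ffm_expInf N G : ℂ) / N) := by ring
    rw [e1, hkey]
    ring
  have hlim' : Tendsto (fun w : ℍ => H w ^ p) atImInfty (𝓝 c) := by
    refine hlim.congr fun z => ?_
    rw [hHp]
  have h1 := s44r_root_limit M p hM hp0 hHd _ hHper hc hlim'
  have h2 : (ψ (Additive.ofMul γ)).val = 0 := Nat.eq_zero_of_dvd_of_lt h1 (ZMod.val_lt _)
  exact (ZMod.val_eq_zero _).mp h2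

include hφK hfrac hh hD hb hab hbinv hA hA0 hAp hAψ in
/-- **`ψ` is parabolic** (no hypothesis on `p` and `N`). -/
theorem s59b_psi_parabolic (γ : Gamma0 N)
    (hγ : ((γ : SL(2, ℤ)) : Matrix (Fin 2) (Fin 2) ℤ).trace ^ 2 = 4) :
    ψ (Additive.ofMul γ) = 0 := by
  have hp : p.Prime := hpp.out
  obtain ⟨δ, m, hm⟩ := pmP_exists_conj_of_trace_sq (γ : SL(2, ℤ)) hγ
  have hg : ∀ w : ℍ, (γ : SL(2, ℤ)) • (δ • w) = δ • ((m : ℝ) +ᵥ w) :=
    fun w => pmP_smul_conj_smul hm w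
  rcases lt_trichotomy m 0 with hneg | hzero | hpos
  · -- `m < 0`: use `γ⁻¹`
    obtain ⟨M, hMm⟩ := Int.eq_ofNat_of_zero_le (by omega : (0 : ℤ) ≤ -m)
    have hM : 0 < M := by omega
    have hg' : ∀ w : ℍ, ((γ⁻¹ : Gamma0 N) : SL(2, ℤ)) • (δ • w) = δ • ((M : ℝ) +ᵥ w) := by
      intro w
      have h1 := hg ((M : ℝ) +ᵥ w)
      rw [vadd_vadd] at h1
      have h2 : (m : ℝ) + (M : ℝ) = 0 := by
        have : (m : ℝ) = -((M : ℤ) : ℝ) := by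
          have h3 : m = -(M : ℤ) := by omega
          rw [h3]; push_cast; ring
        rw [this]; push_cast; ring
      rw [h2, zero_vadd] at h1
      rw [← h1]
      show (((γ : SL(2, ℤ)))⁻¹) • ((γ : SL(2, ℤ)) • (δ • ((M : ℝ) +ᵥ w))) = _
      rw [inv_smul_smul]
    have h0 := s59b_psi_conj_TM φ hφK hfrac p h hh D hD a b hb hab hbinv hA hAp ψ hAψ γ⁻¹ δ M hM hg'
    rw [ofMul_inv, map_neg, neg_eq_zero] at h0
    exact h0
  · -- `m = 0`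
    obtain ⟨τ, hτ⟩ := hA0
    have h1 := hg (δ⁻¹ • τ)
    rw [hzero, Int.cast_zero, zero_vadd, smul_inv_smul] at h1
    have h2 := hAψ γ τ
    rw [h1] at h2
    set ζ : ℂ := cexp (2 * π * I / p) with hζ
    have hprim : IsPrimitiveRoot ζ p := Complex.isPrimitiveRoot_exp p hp.ne_zero
    have h3 : ζ ^ (ψ (Additive.ofMul γ)).val = 1 := by
      have : (ζ ^ (ψ (Additive.ofMul γ)).val - 1) * A τ = 0 := by
        rw [sub_mul, one_mul, ← h2, sub_self]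
      rcases mul_eq_zero.mp this with h4 | h4
      · exact sub_eq_zero.mp h4
      · exact absurd h4 hτ
    have h4 : p ∣ (ψ (Additive.ofMul γ)).val := (hprim.pow_eq_one_iff_dvd _).mp h3
    have h5 : (ψ (Additive.ofMul γ)).val = 0 := Nat.eq_zero_of_dvd_of_lt h4 (ZMod.val_lt _)
    exact (ZMod.val_eq_zero _).mp h5
  · obtain ⟨M, hMm⟩ := Int.eq_ofNat_of_zero_le hpos.le
    have hM : 0 < M := by omega
    have hg' : ∀ w : ℍ, (γ : SL(2, ℤ)) • (δ • w) = δ • ((M : ℝ) +ᵥ w) := by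
      intro w
      rw [hg w, hMm, Int.cast_natCast]
    exact s59b_psi_conj_TM φ hφK hfrac p h hh D hD a b hb hab hbinv hA hAp ψ hAψ γ δ M hM hg'

end Main

end

end Fermat.Agent.Lib.S59
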