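/-
Programme R (S59), node [M2′] (helper2, prefix `s59b_`), part 3: **the elements of finite order**
— `ψ` kills every element of finite order of `Γ₀(N)`, for every ODD prime `p` (including `p = 3`)
and every level `N` (no hypothesis `5 ≤ p`, `p ∤ N` as in `s44r_psi_finOrder`, Lib/S44/RKapPar).

Setting of Lib/S59/BOldCusp.  An element `γ` of trace `± 1` has a fixed point `τ₀ ∈ ℍ` (Mathlib's
`UpperHalfPlane.fixedPt`), at which its multiplier `1 / (c τ₀ + d)²` is a primitive cube root of unity;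
hence `g ∘ γ = χ g` forces `χ = ζ ^ ord_τ₀ g` (`s59b_ell_order`).  All `Γ₀(N)`-invariant elements of
`ffm_R N` have order divisible by `3` at `τ₀`, so by the refined valuation lemma
(`s59b_valuation_of_div`, `d = 3`) the order of `φ h` at `τ₀` is divisible by `3 p`, the order of the
`p`-th root `A` of `a b^(p-1)` is divisible by `3`, and `ζ_p ^ ψ(γ) = 1`.  Trace `0`: `γ⁴ = 1` and
`p` is odd.  Trace `± 2`: `s59b_psi_parabolic`.
-/
import Mathlib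
import Fermat.Agent.Lib.S59.BOldCusp
import Fermat.Agent.Lib.FF.CuspsElliptic
import Fermat.Agent.Lib.S29.LamOrd
import Fermat.Agent.Lib.S29.KConcrete

set_option autoImplicit false
set_option linter.unusedSectionVars false
set_option linter.style.haveILetI false

namespace Fermat.Agent.Lib.S59

open UpperHalfPlane hiding I
open Complex Filter Function Topology AlgebraicCurve CongruenceSubgroup ModularCurve.Period
open Fermat.Agent.Lib.FF Fermat.Agent.Lib.S29 Fermat.Agent.Lib.S44 Fermat.Agent.Lib.Period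
open scoped Real Manifold MatrixGroups

noncomputable section

/-! ### the local multiplier -/

/-- multiplier version of `ffc_pow_order_eq_one`: if `G ∘ δ = χ G` near a fixed point `z₀` of `δ`
with `δ'(z₀) = ζ`, and `G` has order `n` at `z₀`, then `ζ ^ n = χ`. -/
theorem s59b_pow_order_eq {G δ : ℂ → ℂ} {z₀ ζ χ : ℂ} {n : ℕ} (hG : AnalyticAt ℂ G z₀)
    (hn : analyticOrderAt G z₀ = n) (hδ : HasDerivAt δ ζ z₀) (hδ0 : δ z₀ = z₀)
    (hinv : ∀ᶠ z in 𝓝 z₀, G (δ z) = χ * G z) : ζ ^ n = χ := by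
  obtain ⟨H, hH, hH0, hGH⟩ := (hG.analyticOrderAt_eq_natCast).mp hn
  have hδt : Tendsto δ (𝓝 z₀) (𝓝 z₀) := by
    have := hδ.continuousAt.tendsto
    rwa [hδ0] at this
  have hGH' : ∀ᶠ z in 𝓝 z₀, G (δ z) = (δ z - z₀) ^ n • H (δ z) := hδt.eventually hGH
  have hev : ∀ᶠ z in 𝓝[≠] z₀, ((δ z - δ z₀) / (z - z₀)) ^ n * H (δ z) = χ * H z := by
    have h1 : ∀ᶠ z in 𝓝[≠] z₀, G (δ z) = χ * G z := hinv.filter_mono nhdsWithin_le_nhds
    have h2 : ∀ᶠ z in 𝓝[≠] z₀, G (δ z) = (δ z - z₀) ^ n • H (δ z) :=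
      hGH'.filter_mono nhdsWithin_le_nhds
    have h3 : ∀ᶠ z in 𝓝[≠] z₀, G z = (z - z₀) ^ n • H z := hGH.filter_mono nhdsWithin_le_nhds
    filter_upwards [h1, h2, h3, self_mem_nhdsWithin] with z hz1 hz2 hz3 hz4
    have hne : z - z₀ ≠ 0 := sub_ne_zero.mpr hz4
    rw [hδ0, div_pow, div_mul_eq_mul_div, div_eq_iff (pow_ne_zero n hne)]
    rw [hz2, hz3, smul_eq_mul, smul_eq_mul] at hz1
    rw [hz1]; ring
  have hslope : Tendsto (fun z => (δ z - δ z₀) / (z - z₀)) (𝓝[≠] z₀) (𝓝 ζ) := by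
    have := hasDerivAt_iff_tendsto_slope.mp hδ
    refine this.congr fun z => ?_
    rw [slope_def_field]
  have hHδ : Tendsto (fun z => H (δ z)) (𝓝[≠] z₀) (𝓝 (H z₀)) :=
    (hH.continuousAt.tendsto.comp hδt).mono_left nhdsWithin_le_nhds
  have hlhs : Tendsto (fun z => ((δ z - δ z₀) / (z - z₀)) ^ n * H (δ z)) (𝓝[≠] z₀)
      (𝓝 (ζ ^ n * H z₀)) := (hslope.pow n).mul hHδ
  have hrhs : Tendsto (fun z => χ * H z) (𝓝[≠] z₀) (𝓝 (χ * H z₀)) :=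
    (hH.continuousAt.tendsto.mono_left nhdsWithin_le_nhds).const_mul χ
  have := tendsto_nhds_unique (hlhs.congr' hev) hrhs
  exact mul_right_cancel₀ hH0 this

/-- `g ∘ γ = χ g`, `γ τ = τ`, local multiplier `ζ` of `γ` at `τ`: `ζ ^ ord_τ g = χ`. -/
theorem s59b_multiplier_pow_order {g : ℍ → ℂ} (hg : MDiff g) (γ : SL(2, ℤ)) (χ : ℂ)
    (hγ : ∀ z : ℍ, g (γ • z) = χ * g z) (τ : ℍ) (hτ : γ • τ = τ) (δ : ℂ → ℂ) (ζ : ℂ)
    (hδ : HasDerivAt δ ζ τ) (hδγ : ∀ z : ℍ, δ z = ((γ • z : ℍ) : ℂ)) {n : ℕ}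
    (hn : analyticOrderAt (g ∘ ofComplex) τ = n) : ζ ^ n = χ := by
  refine s59b_pow_order_eq (ffc_analyticAt hg τ) hn hδ ?_ ?_
  · rw [hδγ τ, hτ]
  · have hopen : {z : ℂ | 0 < z.im} ∈ 𝓝 (τ : ℂ) := isOpen_upperHalfPlaneSet.mem_nhds τ.im_pos
    filter_upwards [hopen] with z hz
    obtain ⟨w, rfl⟩ : ∃ w : ℍ, (w : ℂ) = z := ⟨⟨z, hz⟩, rfl⟩
    rw [Function.comp_apply, Function.comp_apply, hδγ, ofComplex_apply, ofComplex_apply, hγ]

/-- a root of `X² + X + 1` is a primitive cube root of unity. -/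
theorem s59b_prim_three {ζ : ℂ} (h : ζ ^ 2 + ζ + 1 = 0) : IsPrimitiveRoot ζ 3 := by
  rw [← Polynomial.isRoot_cyclotomic_iff, Polynomial.cyclotomic_three]
  simp [h]

/-! ### the Möbius transformation of an integral matrix, on `ℂ` -/

/-- the Möbius transformation of `γ`, as a function on `ℂ`. -/
def s59b_moeb (γ : SL(2, ℤ)) (z : ℂ) : ℂ :=
  (((γ 0 0 : ℤ) : ℂ) * z + ((γ 0 1 : ℤ) : ℂ)) / (((γ 1 0 : ℤ) : ℂ) * z + ((γ 1 1 : ℤ) : ℂ))

theorem s59b_moeb_coe (γ : SL(2, ℤ)) (z : ℍ) : s59b_moeb γ z = ((γ • z : ℍ) : ℂ) := by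
  rw [coe_specialLinearGroup_apply]
  simp [s59b_moeb]

theorem s59b_denom_ne_zero (γ : SL(2, ℤ)) (τ : ℍ) :
    ((γ 1 0 : ℤ) : ℂ) * τ + ((γ 1 1 : ℤ) : ℂ) ≠ 0 := by
  have := denom_ne_zero ((γ : SL(2, ℤ)) : GL (Fin 2) ℝ) τ
  simpa [denom] using this

theorem s59b_det_complex (γ : SL(2, ℤ)) :
    ((γ 0 0 : ℤ) : ℂ) * ((γ 1 1 : ℤ) : ℂ) - ((γ 0 1 : ℤ) : ℂ) * ((γ 1 0 : ℤ) : ℂ) = 1 := by
  have h := γ.det_coe
  rw [Matrix.det_fin_two] at h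
  exact_mod_cast h

theorem s59b_moeb_hasDerivAt (γ : SL(2, ℤ)) (τ : ℍ) :
    HasDerivAt (s59b_moeb γ) (1 / (((γ 1 0 : ℤ) : ℂ) * τ + ((γ 1 1 : ℤ) : ℂ)) ^ 2) τ := by
  have h1 : HasDerivAt (fun z : ℂ => ((γ 0 0 : ℤ) : ℂ) * z + ((γ 0 1 : ℤ) : ℂ))
      (((γ 0 0 : ℤ) : ℂ) * 1) τ := ((hasDerivAt_id (τ : ℂ)).const_mul _).add_const _
  have h2 : HasDerivAt (fun z : ℂ => ((γ 1 0 : ℤ) : ℂ) * z + ((γ 1 1 : ℤ) : ℂ))
      (((γ 1 0 : ℤ) : ℂ) * 1) τ := ((hasDerivAt_id (τ : ℂ)).const_mul _).add_const _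
  have h3 := h1.div h2 (s59b_denom_ne_zero γ τ)
  have hdet := s59b_det_complex γ
  refine h3.congr_deriv ?_
  rw [div_left_inj' (pow_ne_zero 2 (s59b_denom_ne_zero γ τ))]
  linear_combination hdet

/-! ### elliptic elements of order `3` or `6` -/

/-- the fixed point of an elliptic element of order `3` or `6`. -/
theorem s59b_ell_fix (γ : SL(2, ℤ)) (ht : (γ : Matrix (Fin 2) (Fin 2) ℤ).trace ^ 2 = 1) :
    ∃ τ₀ : ℍ, γ • τ₀ = τ₀ := by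
  have hdet : 0 < ((γ : SL(2, ℤ)) : GL (Fin 2) ℝ).val.det := ffm_det_pos γ
  have hell : ((γ : SL(2, ℤ)) : GL (Fin 2) ℝ).IsElliptic := by
    show (((γ : SL(2, ℤ)) : GL (Fin 2) ℝ).val).discr < 0
    rw [Matrix.discr_fin_two]
    have h1 : (((γ : SL(2, ℤ)) : GL (Fin 2) ℝ).val).det = 1 := by
      have h := Matrix.SpecialLinearGroup.det_coe
        (Matrix.SpecialLinearGroup.map (Int.castRingHom ℝ) γ)
      simp only [Matrix.SpecialLinearGroup.coe_GL_coe_matrix]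
      exact h
    have h2 : (((γ : SL(2, ℤ)) : GL (Fin 2) ℝ).val).trace =
        (((γ : Matrix (Fin 2) (Fin 2) ℤ).trace : ℤ) : ℝ) := by
      simp [Matrix.trace_fin_two]
    rw [h1, h2]
    have h3 : ((((γ : Matrix (Fin 2) (Fin 2) ℤ).trace : ℤ) : ℝ)) ^ 2 = 1 := by
      exact_mod_cast ht
    rw [h3]
    norm_num
  exact ⟨fixedPt _ hell, (gl_smul_eq_self_iff_eq_fixedPt hdet hell).mpr rfl⟩

/-- the local multiplier of an elliptic element of order `3` or `6` at its fixed point is a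
primitive cube root of unity. -/
theorem s59b_ell_multiplier {γ : SL(2, ℤ)} (ht : (γ : Matrix (Fin 2) (Fin 2) ℤ).trace ^ 2 = 1)
    {τ₀ : ℍ} (hfix : γ • τ₀ = τ₀) :
    IsPrimitiveRoot (1 / (((γ 1 0 : ℤ) : ℂ) * τ₀ + ((γ 1 1 : ℤ) : ℂ)) ^ 2) 3 := by
  have hj0 := s59b_denom_ne_zero γ τ₀
  have hdet := s59b_det_complex γ
  obtain ⟨j, hj⟩ : ∃ j : ℂ, j = ((γ 1 0 : ℤ) : ℂ) * τ₀ + ((γ 1 1 : ℤ) : ℂ) := ⟨_, rfl⟩
  rw [← hj] at hj0 ⊢
  have hE : ((γ 0 0 : ℤ) : ℂ) * τ₀ + ((γ 0 1 : ℤ) : ℂ) = (τ₀ : ℂ) * j := by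
    have h1 := s59b_moeb_coe γ τ₀
    rw [hfix, s59b_moeb, ← hj, div_eq_iff hj0] at h1
    exact h1
  have htr : (((γ 0 0 : ℤ) : ℂ) + ((γ 1 1 : ℤ) : ℂ)) ^ 2 = 1 := by
    rw [Matrix.trace_fin_two] at ht
    exact_mod_cast ht
  have hq : j ^ 2 - (((γ 0 0 : ℤ) : ℂ) + ((γ 1 1 : ℤ) : ℂ)) * j + 1 = 0 := by
    rw [hj] at hE ⊢
    linear_combination (-((γ 1 0 : ℤ) : ℂ)) * hE - hdet
  have hω : (j ^ 2) ^ 2 + j ^ 2 + 1 = 0 := by
    linear_combination (j ^ 2 + (((γ 0 0 : ℤ) : ℂ) + ((γ 1 1 : ℤ) : ℂ)) * j + 1) * hq + j ^ 2 * htr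
  apply s59b_prim_three
  have hj2 : j ^ 2 ≠ 0 := pow_ne_zero 2 hj0
  field_simp
  linear_combination hω

/-- **orders at an elliptic point of order `3`**: if `g ∘ γ = χ g`, then `χ = 1` iff the order of
`g` at the fixed point of `γ` is divisible by `3`. -/
theorem s59b_ell_order {γ : SL(2, ℤ)} (ht : (γ : Matrix (Fin 2) (Fin 2) ℤ).trace ^ 2 = 1)
    {τ₀ : ℍ} (hfix : γ • τ₀ = τ₀) {g : ℍ → ℂ} (hg : MDiff g) (χ : ℂ)
    (hγ : ∀ z : ℍ, g (γ • z) = χ * g z) {n : ℕ}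
    (hn : analyticOrderAt (g ∘ ofComplex) τ₀ = n) : χ = 1 ↔ 3 ∣ n := by
  have h1 := s59b_multiplier_pow_order hg γ χ hγ τ₀ hfix (s59b_moeb γ) _
    (s59b_moeb_hasDerivAt γ τ₀) (s59b_moeb_coe γ) hn
  rw [← h1]
  exact (s59b_ell_multiplier ht hfix).pow_eq_one_iff_dvd n

/-! ### the elements of finite order -/

section Main

variable {K : Type*} [Field K] {F : Type*} [Field F] [Algebra K F] {N : ℕ} [NeZero N]
  (φ : F →+* ffm_E N)
  (hφK : ∀ c : K, ∃ c' : ℂ, φ (algebraMap K F c) = algebraMap ℂ (ffm_E N) c')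
  (hfrac : ∀ f : F, ∃ a b : ffm_R N, b ≠ 0 ∧
      φ f * algebraMap (ffm_R N) (ffm_E N) b = algebraMap (ffm_R N) (ffm_E N) a ∧
      (∀ γ ∈ Gamma0 N, ∀ z : ℍ, (a : ℍ → ℂ) (γ • z) = (a : ℍ → ℂ) z) ∧
      (∀ γ ∈ Gamma0 N, ∀ z : ℍ, (b : ℍ → ℂ) (γ • z) = (b : ℍ → ℂ) z))
  (p : ℕ) [hpp : Fact p.Prime]
  (h : F) (hh : h ≠ 0) (D : Divisor K F) (hD : ∀ v : Place K F, v.ord h = (p : ℤ) * D v)
  (a b : ffm_R N) (hb : b ≠ 0)
  (hab : φ h * algebraMap (ffm_R N) (ffm_E N) b = algebraMap (ffm_R N) (ffm_E N) a)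
  (hainv : ∀ γ ∈ Gamma0 N, ∀ z : ℍ, (a : ℍ → ℂ) (γ • z) = (a : ℍ → ℂ) z)
  (hbinv : ∀ γ ∈ Gamma0 N, ∀ z : ℍ, (b : ℍ → ℂ) (γ • z) = (b : ℍ → ℂ) z)
  {A : ℍ → ℂ} (hA : MDiff A) (hA0 : ∃ τ, A τ ≠ 0)
  (hAp : ∀ τ, A τ ^ p = (a : ℍ → ℂ) τ * (b : ℍ → ℂ) τ ^ (p - 1))
  (ψ : Additive (Gamma0 N) →+ ZMod p)
  (hAψ : ∀ (γ : Gamma0 N) (τ : ℍ), A ((γ : SL(2, ℤ)) • τ) =
    cexp (2 * π * I / p) ^ (ψ (Additive.ofMul γ)).val * A τ)

/-- the order at an elliptic point of order `3` of a non-zero `Γ₀(N)`-invariant element. -/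
theorem s59b_ell_inv_order (γ : Gamma0 N)
    (ht : ((γ : SL(2, ℤ)) : Matrix (Fin 2) (Fin 2) ℤ).trace ^ 2 = 1) {τ₀ : ℍ}
    (hfix : (γ : SL(2, ℤ)) • τ₀ = τ₀) {x : ffm_R N} (hx : x ≠ 0)
    (hxinv : ∀ γ ∈ Gamma0 N, ∀ z : ℍ, (x : ℍ → ℂ) (γ • z) = (x : ℍ → ℂ) z) :
    ∃ m : ℕ, analyticOrderAt ((x : ℍ → ℂ) ∘ ofComplex) (τ₀ : ℂ) = (m : ℕ∞) ∧
      ffm_ordAt N τ₀ (algebraMap (ffm_R N) (ffm_E N) x) = WithZero.exp (-(m : ℤ)) ∧ 3 ∣ m := by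
  obtain ⟨m, hm, hm'⟩ := s29m_exists_order x hx τ₀
  refine ⟨m, hm, hm', ?_⟩
  exact (s59b_ell_order ht hfix (ffm_R_mdiff x) 1 (fun z => by rw [one_mul, hxinv _ γ.2]) hm).mp rfl

include hfrac in
/-- the value group of the order at an elliptic point of order `3`, on `F`. -/
theorem s59b_ell_valueGroup (γ : Gamma0 N)
    (ht : ((γ : SL(2, ℤ)) : Matrix (Fin 2) (Fin 2) ℤ).trace ^ 2 = 1) {τ₀ : ℍ}
    (hfix : (γ : SL(2, ℤ)) • τ₀ = τ₀) (f : F) (hf : f ≠ 0) :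
    (3 : ℤ) ∣ WithZero.log (ffm_ordAt N τ₀ (φ f)) := by
  obtain ⟨af, bf, hbf, habf, hai, hbi⟩ := hfrac f
  have hinj := ffm_algebraMap_injective N
  have hbE : algebraMap (ffm_R N) (ffm_E N) bf ≠ 0 := by rwa [Ne, map_eq_zero_iff _ hinj]
  have hφf : φ f ≠ 0 := (map_ne_zero φ).mpr hf
  have haf : af ≠ 0 := by
    rintro rfl
    rw [map_zero] at habf
    exact (mul_ne_zero hφf hbE) habf
  obtain ⟨ma, -, hma, h3a⟩ := s59b_ell_inv_order γ ht hfix haf hai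
  obtain ⟨mb, -, hmb, h3b⟩ := s59b_ell_inv_order γ ht hfix hbf hbi
  have h2 := congrArg (ffm_ordAt N τ₀) habf
  rw [map_mul, hma, hmb] at h2
  have hx0 : ffm_ordAt N τ₀ (φ f) ≠ 0 := (Valuation.ne_zero_iff _).mpr hφf
  have h3 := congrArg WithZero.log h2
  rw [WithZero.log_mul hx0 WithZero.exp_ne_zero, WithZero.log_exp, WithZero.log_exp] at h3
  have h4 : WithZero.log (ffm_ordAt N τ₀ (φ f)) = (mb : ℤ) - ma := by linarith
  rw [h4]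
  exact dvd_sub (Int.natCast_dvd_natCast.mpr h3b) (Int.natCast_dvd_natCast.mpr h3a)

include hφK hfrac hh hD hb hab hbinv hA hA0 hAp hAψ in
/-- **`ψ` kills the elliptic elements of order `3` and `6`** (every prime `p`, every level). -/
theorem s59b_psi_ell (γ : Gamma0 N)
    (ht : ((γ : SL(2, ℤ)) : Matrix (Fin 2) (Fin 2) ℤ).trace ^ 2 = 1) :
    ψ (Additive.ofMul γ) = 0 := by
  have hp : p.Prime := hpp.out
  have hp0 : p ≠ 0 := hp.ne_zero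
  obtain ⟨τ₀, hfix⟩ := s59b_ell_fix (γ : SL(2, ℤ)) ht
  have hinj := ffm_algebraMap_injective N
  have hbE : algebraMap (ffm_R N) (ffm_E N) b ≠ 0 := by rwa [Ne, map_eq_zero_iff _ hinj]
  have hφh : φ h ≠ 0 := (map_ne_zero φ).mpr hh
  have ha : a ≠ 0 := by
    rintro rfl
    rw [map_zero] at hab
    exact (mul_ne_zero hφh hbE) hab
  -- the refined valuation lemma at `τ₀`
  have hval := s59b_valuation_of_div (K := K) ((ffm_ordAt N τ₀).comap φ) (fun c => by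
      obtain ⟨c', hc'⟩ := hφK c
      show ffm_ordAt N τ₀ (φ (algebraMap K F c)) ≤ 1
      rw [hc']
      by_cases h0 : c' = 0
      · rw [h0, map_zero, map_zero]
        exact zero_le_one
      · rw [ffm_ordAt_const N τ₀ h0])
    3 (fun f hf => s59b_ell_valueGroup φ hfrac γ ht hfix f hf) p h hh D hD
  have hval' : (3 : ℤ) * (p : ℤ) ∣ WithZero.log (ffm_ordAt N τ₀ (φ h)) := hval
  -- orders of `a`, `b`, `A` at `τ₀`
  obtain ⟨na, hna, hna'⟩ := s29m_exists_order a ha τ₀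
  obtain ⟨nb, hnb, hnb', h3b⟩ := s59b_ell_inv_order γ ht hfix hb hbinv
  obtain ⟨nA, hnA⟩ := s29l_exists_order hA hA0 τ₀
  have h2 := congrArg (ffm_ordAt N τ₀) hab
  rw [map_mul, hna', hnb'] at h2
  have hx0 : ffm_ordAt N τ₀ (φ h) ≠ 0 := (Valuation.ne_zero_iff _).mpr hφh
  have h3 := congrArg WithZero.log h2
  rw [WithZero.log_mul hx0 WithZero.exp_ne_zero, WithZero.log_exp, WithZero.log_exp] at h3
  have h4 : WithZero.log (ffm_ordAt N τ₀ (φ h)) = (nb : ℤ) - na := by linarith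
  rw [h4] at hval'
  -- `a b^p = b A^p`
  have hrel : ∀ z : ℍ, (a : ℍ → ℂ) z * (b : ℍ → ℂ) z ^ p = (b : ℍ → ℂ) z * A z ^ p := by
    intro z
    rw [hAp z]
    have : (b : ℍ → ℂ) z ^ p = (b : ℍ → ℂ) z ^ (p - 1) * (b : ℍ → ℂ) z := by
      rw [← pow_succ, Nat.sub_add_cancel (Nat.one_le_iff_ne_zero.mpr hp0)]
    rw [this]
    ring
  have hcalc := s29l_order_calc (p := p) (ffm_R_mdiff a) (ffm_R_mdiff b) hA (ffm_R_mdiff b) hrel τ₀
    hna hnb hnA hnb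
  -- `3 ∣ n_A`
  have h3A : (3 : ℤ) ∣ (nA : ℤ) := by
    obtain ⟨k, hk⟩ := hval'
    have hpz : (p : ℤ) ≠ 0 := by exact_mod_cast hp0
    have h5 : (p : ℤ) * ((nA : ℤ) - nb) = (p : ℤ) * (3 * (-k)) := by
      rw [← hcalc]
      linear_combination -hk
    have h6 : (nA : ℤ) - nb = 3 * (-k) := mul_left_cancel₀ hpz h5
    have h7 : (nA : ℤ) = 3 * (-k) + nb := by linarith
    rw [h7]
    exact dvd_add (dvd_mul_right _ _) (Int.natCast_dvd_natCast.mpr h3b)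
  have h3A' : 3 ∣ nA := Int.natCast_dvd_natCast.mp h3A
  -- the multiplier of `A`
  set ζ : ℂ := cexp (2 * π * I / p) with hζ
  have hprim : IsPrimitiveRoot ζ p := Complex.isPrimitiveRoot_exp p hp0
  have h8 : ζ ^ (ψ (Additive.ofMul γ)).val = 1 :=
    (s59b_ell_order ht hfix hA _ (fun z => hAψ γ z) hnA).mpr h3A'
  have h9 : p ∣ (ψ (Additive.ofMul γ)).val := (hprim.pow_eq_one_iff_dvd _).mp h8
  have h10 : (ψ (Additive.ofMul γ)).val = 0 := Nat.eq_zero_of_dvd_of_lt h9 (ZMod.val_lt _)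
  exact (ZMod.val_eq_zero _).mp h10

/-- `γ⁴ = 1` for an integral matrix of determinant one and trace `0`. -/
theorem s59b_pow_four (g : SL(2, ℤ)) (ht : (g : Matrix (Fin 2) (Fin 2) ℤ).trace = 0) :
    g ^ 4 = 1 := by
  have hsq := s29h_sq_eq g
  apply Subtype.ext
  rw [Matrix.SpecialLinearGroup.coe_pow, Matrix.SpecialLinearGroup.coe_one]
  rw [ht, zero_smul, zero_sub] at hsq
  have : (g : Matrix (Fin 2) (Fin 2) ℤ) ^ 4 =
      ((g : Matrix (Fin 2) (Fin 2) ℤ) * (g : Matrix (Fin 2) (Fin 2) ℤ)) ^ 2 := by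
    rw [← pow_two, ← pow_mul]
  rw [this, hsq]
  norm_num

include hφK hfrac hh hD hb hab hbinv hA hA0 hAp hAψ in
/-- **`ψ` kills the elements of finite order**, `p` odd. -/
theorem s59b_psi_finOrder (hp2 : p ≠ 2) (γ : Gamma0 N) (hfin : IsOfFinOrder γ) :
    ψ (Additive.ofMul γ) = 0 := by
  have hp : p.Prime := hpp.out
  have htr := Fermat.Agent.Lib.S16.s16f_abs_trace_le_of_isOfFinOrder N γ hfin
  set t : ℤ := (((γ : SL(2, ℤ)) : Matrix (Fin 2) (Fin 2) ℤ).trace) with ht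
  have hcases : t ^ 2 = 4 ∨ t = 0 ∨ t ^ 2 = 1 := by
    rw [abs_le] at htr
    obtain ⟨h1, h2⟩ := htr
    have : t = -2 ∨ t = -1 ∨ t = 0 ∨ t = 1 ∨ t = 2 := by omega
    rcases this with h | h | h | h | h <;> simp [h]
  rcases hcases with h4 | h0 | h1
  · exact s59b_psi_parabolic φ hφK hfrac p h hh D hD a b hb hab hbinv hA hA0 hAp ψ hAψ γ h4
  · have h4 : (γ : SL(2, ℤ)) ^ 4 = 1 := s59b_pow_four _ h0
    have hγ4 : γ ^ 4 = 1 := Subtype.ext (by simpa using h4)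
    have h5 : (4 : ℕ) • ψ (Additive.ofMul γ) = 0 := by
      rw [← map_nsmul, ← ofMul_pow, hγ4, ofMul_one, map_zero]
    rw [nsmul_eq_mul] at h5
    have h4u : ((4 : ℕ) : ZMod p) ≠ 0 := by
      intro h0
      have h6 : p ∣ 4 := (ZMod.natCast_eq_zero_iff 4 p).mp h0
      have h7 : p ∣ 2 := by
        have : p ∣ 2 * 2 := by simpa using h6
        rcases (Nat.Prime.dvd_mul hp).mp this with h8 | h8 <;> exact h8
      exact hp2 ((Nat.prime_dvd_prime_iff_eq hp Nat.prime_two).mp h7)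
    exact (mul_eq_zero.mp h5).resolve_left h4u
  · exact s59b_psi_ell φ hφK hfrac p h hh D hD a b hb hab hbinv hA hA0 hAp ψ hAψ γ h1

include hφK hfrac hh hD hb hab hbinv hA hA0 hAp hAψ in
/-- **[KAPPA-PAR] for every odd prime and every level: `ψ ∈ H_p`.** -/
theorem s59b_psi_mem_Hp (hp2 : p ≠ 2) : ψ ∈ s29h_Hp N p := by
  rw [s29h_mem_Hpar_iff]
  exact ⟨fun γ hγ => s59b_psi_parabolic φ hφK hfrac p h hh D hD a b hb hab hbinv hA hA0 hAp ψ hAψ γ hγ,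
    fun γ hγ => s59b_psi_finOrder φ hφK hfrac p h hh D hD a b hb hab hbinv hA hA0 hAp ψ hAψ hp2 γ hγ⟩

end Main

end

end Fermat.Agent.Lib.S59
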