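/-
Programme R (S59), node [M2′] (helper2, prefix `s59b_`), part 4 (assembly): **[OLD] for every odd
prime `p` and every level `M`** (`p ∣ M` allowed) — `s59b_old`, the statement `s59m_Old` of helper9's
interface `Lib/S59/MIface.lean` (= `s44i_Old` of Lib/S44/Iface without `5 ≤ p`, `¬ p ∣ M`).

Re-run of helper5's Lib/S44/RKapCore (`s44r_kappaK_mem_Hp`, `s44r_kappaCore`, `s44r_convEigen`) and of
Lib/S44/SoftOldLeaf (`s44s_old`), with `s44r_psi_mem_Hp (hp5) (hpN)` replaced by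
`s59b_psi_mem_Hp (hp2)` (Lib/S59/BOldEll).
-/
import Mathlib
import Fermat.Agent.Lib.S59.BOldEll
import Fermat.Agent.Lib.S44.RKapCore
import Fermat.Agent.Lib.S44.SoftOldLeaf

set_option autoImplicit false
set_option linter.unusedSectionVars false
set_option linter.style.haveILetI false

open scoped TensorProduct

namespace Fermat.Agent.Lib.S59

open UpperHalfPlane hiding I
open Complex AlgebraicCurve ModularCurve IntermediateField CongruenceSubgroup Module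
open Fermat.Agent.Lib.FF Fermat.Agent.Lib.S18 Fermat.Agent.Lib.S29 Fermat.Agent.Lib.S30
  Fermat.Agent.Lib.S33 Fermat.Agent.Lib.S44
open scoped Real Manifold MatrixGroups

noncomputable section

local notation "Kb" => AlgebraicClosure ℚ

/-! ### `κ(x) ∈ H_p` over `K ≃ ℂ` -/

section KappaK

variable {K : Type*} [Field K] [Algebra ℚ K] [CharZero K] [IsAlgClosed K] (ι : K →+* ℂ)
  (N : ℕ) [NeZero N] (p : ℕ) [hpp : Fact p.Prime]

/-- the image of `ψ` is `Γ₀(N)`-invariant, pointwise. -/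
theorem s59b_psi_inv (a' : s29bp_A K N) :
    ∀ γ ∈ Gamma0 N, ∀ z : ℍ,
      (s29bp_psi ι N a' : ℍ → ℂ) (γ • z) = (s29bp_psi ι N a' : ℍ → ℂ) z := by
  intro γ hγ z
  have h3 := s29bp_psi_smul ι N (inv_mem hγ) a'
  have h4 := congrFun (congrArg Subtype.val h3) z
  have h5 : ((γ⁻¹ • s29bp_psi ι N a' : ffm_R N) : ℍ → ℂ) z =
      (s29bp_psi ι N a' : ℍ → ℂ) ((γ⁻¹)⁻¹ • z) := rfl
  rw [h5, inv_inv] at h4
  exact h4

/-- every `φ f` is a quotient of two `Γ₀(N)`-invariant elements of `ffm_R N`. -/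
theorem s59b_phi_frac (f : ↥(s29bp_FK K N)) : ∃ a b : ffm_R N, b ≠ 0 ∧
    s29bp_phi ι N f * algebraMap (ffm_R N) (ffm_E N) b = algebraMap (ffm_R N) (ffm_E N) a ∧
    (∀ γ ∈ Gamma0 N, ∀ z : ℍ, (a : ℍ → ℂ) (γ • z) = (a : ℍ → ℂ) z) ∧
    (∀ γ ∈ Gamma0 N, ∀ z : ℍ, (b : ℍ → ℂ) (γ • z) = (b : ℍ → ℂ) z) := by
  obtain ⟨a', b', hb', -, hab⟩ := s29bp_exists_frac ι N f
  refine ⟨s29bp_psi ι N a', s29bp_psi ι N b', ?_, hab, s59b_psi_inv ι N a', s59b_psi_inv ι N b'⟩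
  intro h0
  apply hb'
  apply s29bp_psi_injective ι N
  rw [h0, map_zero]

/-- **[KAPPA-PAR] over `K ≃ ℂ`, every odd prime, every level.** -/
theorem s59b_kappaK_mem_Hp (hι : Function.Surjective ι) (hp2 : p ≠ 2)
    (x : Pic0.torsion K ↥(s29bp_FK K N) p) :
    haveI : NeZero p := ⟨hpp.out.ne_zero⟩
    s29m_kappaK ι N p hι x ∈ s29h_Hp N p := by
  haveI : NeZero p := ⟨hpp.out.ne_zero⟩
  have hB := s29m_bridgeHypK ι N hι p
  -- `x = [D]`, `p • D = div h`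
  obtain ⟨D, hDx⟩ := Pic0.mk_surjective (x : Pic0 K ↥(s29bp_FK K N))
  have hx : (p : ℤ) • (x : Pic0 K ↥(s29bp_FK K N)) = 0 := Pic0.mem_torsion.mp x.2
  have h1 : Pic0.mk ((p : ℤ) • D) = (0 : Pic0 K ↥(s29bp_FK K N)) := by
    rw [← hx, ← hDx]; rfl
  have h2 : ((p : ℤ) • D) ∈ (Divisor.principal (K := K) (F := ↥(s29bp_FK K N))).addSubgroupOf
      (Divisor.degZero (K := K) (F := ↥(s29bp_FK K N))) := (QuotientAddGroup.eq_zero_iff _).mp h1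
  obtain ⟨h, hh, hDh⟩ := h2
  have hD : ∀ v : Place K ↥(s29bp_FK K N),
      v.ord h = (p : ℤ) * (D : Divisor K ↥(s29bp_FK K N)) v := by
    intro v
    rw [← hDh v]
    simp
  -- `φ h = a / b`
  obtain ⟨a', b', hb', -, hab⟩ := s29bp_exists_frac ι N h
  set a : ffm_R N := s29bp_psi ι N a' with ha
  set b : ffm_R N := s29bp_psi ι N b' with hb
  have hb0 : b ≠ 0 := by
    intro h0
    apply hb'
    apply s29bp_psi_injective ι N
    rw [← hb, h0, map_zero]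
  have hbE : algebraMap (ffm_R N) (ffm_E N) b ≠ 0 := by
    intro h0
    apply hb0
    apply IsFractionRing.injective (ffm_R N) (ffm_E N)
    rw [h0, map_zero]
  have hφh : s29bp_phi ι N h ≠ 0 := (map_ne_zero (s29bp_phi ι N)).mpr hh
  have ha0 : a ≠ 0 := by
    intro h0
    rw [h0, map_zero] at hab
    exact (mul_ne_zero hφh hbE) hab
  have hab' : s29bp_phi ι N h =
      algebraMap (ffm_R N) (ffm_E N) a / algebraMap (ffm_R N) (ffm_E N) b := by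
    rw [eq_div_iff hbE, hab]
  have hainv : ∀ γ ∈ Gamma0 N, ∀ z : ℍ, (a : ℍ → ℂ) (γ • z) = (a : ℍ → ℂ) z :=
    s59b_psi_inv ι N a'
  have hbinv : ∀ γ ∈ Gamma0 N, ∀ z : ℍ, (b : ℍ → ℂ) (γ • z) = (b : ℍ → ℂ) z :=
    s59b_psi_inv ι N b'
  have hord : ∀ τ : ℍ, ∃ m n : ℕ, analyticOrderAt ((a : ℍ → ℂ) ∘ ofComplex) (τ : ℂ) = (m : ℕ∞) ∧
      analyticOrderAt ((b : ℍ → ℂ) ∘ ofComplex) (τ : ℂ) = (n : ℕ∞) ∧ (p : ℤ) ∣ (m : ℤ) - n := by
    intro τ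
    obtain ⟨m, hm, hm'⟩ := s29m_exists_order a ha0 τ
    obtain ⟨n, hn, hn'⟩ := s29m_exists_order b hb0 τ
    refine ⟨m, n, hm, hn, ?_⟩
    obtain ⟨k, hk⟩ := hB.ord h hh D hD τ
    rw [hab', map_div₀, hm', hn', ← WithZero.exp_sub, WithZero.exp_inj] at hk
    exact ⟨-k, by linarith⟩
  obtain ⟨A, ψ, hA, hA0, hAp, hAψ⟩ := s29r_root_character (p := p) (Gamma0 N) 0 a.2.mdiff b.2.mdiff
    (s29m_ne_zero_of_R b hb0) (fun γ hγ τ => by rw [zpow_zero, one_mul]; exact hainv γ hγ τ)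
    (fun γ hγ τ => by rw [zpow_zero, one_mul]; exact hbinv γ hγ τ) hord
  have hAψ' : ∀ (γ : Gamma0 N) (τ : ℍ), A ((γ : SL(2, ℤ)) • τ) =
      cexp (2 * π * I / p) ^ (ψ (Additive.ofMul γ)).val * A τ := by
    intro γ τ
    have := hAψ γ τ
    rw [zpow_zero, mul_one] at this
    exact this
  -- `κ(x) = ψ`
  have habM : s29m_inclE N (s29bp_phi ι N h) * s29m_ofFun (b : ℍ → ℂ) b.2.mdiff =
      s29m_ofFun (a : ℍ → ℂ) a.2.mdiff := by
    have h4 := congrArg (s29m_inclE N) hab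
    rw [map_mul, s29m_inclE_algebraMap, s29m_inclE_algebraMap] at h4
    exact h4
  have hκ : s29m_kappaK ι N p hι x = ψ := by
    refine AddMonoidHom.ext fun γ => ?_
    obtain ⟨γ, rfl⟩ := Additive.ofMul.surjective γ
    exact s29m_kappaK_eq_of_fun ι N p hι x D hDx h hh hD a.2.mdiff b.2.mdiff hA
      (s29m_ne_zero_of_R b hb0) habM (fun γ hγ z => hbinv γ hγ z) hAp γ
      (ψ (Additive.ofMul γ)) (fun τ => hAψ' γ τ)
  rw [hκ]
  exact s59b_psi_mem_Hp (K := K) (s29bp_phi ι N) (fun c => ⟨ι c, s29bp_phi_const ι N c⟩)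
    (s59b_phi_frac ι N) p h hh (D : Divisor K ↥(s29bp_FK K N)) hD a b hb0 hab hbinv hA hA0 hAp ψ
    hAψ' hp2

end KappaK

/-! ### The strengthened contract -/

section Generic

variable {K1 : Type*} [Field K1] [Algebra ℚ K1] [CharZero K1] [IsAlgClosed K1] [Algebra Kb K1]
  (ι1 : K1 →+* ℂ) (hι1 : Function.Surjective ι1) (N : ℕ) [NeZero N] (p : ℕ) [hpp : Fact p.Prime]
  [FFGen Kb (s29bp_jK Kb N)] [FFGen K1 (s29bp_jK K1 N)]

include hι1 in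
theorem s59b_kappaCore_of (hp2 : p ≠ 2)
    (hinj : Function.Injective (s29a_c (K1 := K1) N))
    (hsurj : ∀ y : Pic0 K1 ↥(s29bp_FK K1 N), y ∈ Pic0.torsion K1 ↥(s29bp_FK K1 N) p →
      ∃ x : JZero N, s29a_c (K1 := K1) N x = y) :
    ∃ κ0 : s29k_Jp N p →+ (Additive (Gamma0 N) →+ ZMod p),
      Function.Injective κ0 ∧ (∀ χ ∈ s29h_Hp N p, ∃ x, κ0 x = χ) ∧ (∀ x, κ0 x ∈ s29h_Hp N p) ∧
      ∀ ℓ : Nat.Primes, ¬ (ℓ : ℕ) ∣ N * p → ∀ x : s29k_Jp N p,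
        κ0 (s29k_Tl N p ℓ x) =
          (haveI : Fact (ℓ : ℕ).Prime := ⟨ℓ.2⟩
           s29h_heckeHom N (ℓ : ℕ) (ZMod p) (κ0 x)) := by
  haveI : NeZero p := ⟨hpp.out.ne_zero⟩
  have hB := s29m_bridgeHypK ι1 N hι1 p
  refine ⟨(s29m_kappaC hB).comp (s29a_ct (K1 := K1) N p), ?_, ?_, ?_, ?_⟩
  · -- injectivity
    intro x y hxy
    have h1 := s29m_kappaC_injective hB hxy
    have h2 := congrArg Subtype.val h1
    rw [s29a_ct_coe, s29a_ct_coe] at h2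
    exact Subtype.ext (hinj h2)
  · -- every `χ ∈ H_p` is hit
    intro χ hχ
    obtain ⟨y, hy⟩ := s29l_lambda_Hp N ι1 hB χ hχ
    obtain ⟨x, hx⟩ := hsurj (y : Pic0 K1 ↥(s29bp_FK K1 N)) y.2
    have hxt : x ∈ Pic0.torsion Kb (modularFunctionFieldBar N) p := by
      rw [Pic0.mem_torsion]
      apply hinj
      rw [map_zsmul, hx, map_zero]
      exact Pic0.mem_torsion.mp y.2
    refine ⟨⟨x, hxt⟩, ?_⟩
    rw [AddMonoidHom.comp_apply]
    have : s29a_ct (K1 := K1) N p ⟨x, hxt⟩ = y := Subtype.ext hx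
    rw [this, hy]
  · -- values in `H_p`
    intro x
    rw [AddMonoidHom.comp_apply]
    exact s59b_kappaK_mem_Hp ι1 N p hι1 hp2 (s29a_ct (K1 := K1) N p x)
  · -- equivariance
    intro ℓ hℓ x
    haveI : Fact (ℓ : ℕ).Prime := ⟨ℓ.2⟩
    have hℓN : ¬ (ℓ : ℕ) ∣ N := fun h => hℓ (Dvd.dvd.mul_right h p)
    exact s29q_EQ (ι1.comp (algebraMap Kb K1)) hB (s29a_j (K1 := K1) N) (s29a_phi_j ι1 N)
      (s29a_c (K1 := K1) N) (s29a_hc N p) (fun x => s29a_ct (K1 := K1) N p x)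
      (fun x => s29a_ct_coe N p x) (ℓ : ℕ) hℓN x

end Generic

attribute [local instance] s29a_algebraC

/-- **[KAPPA-PAR]** for every odd prime and every level: the Kummer map on `J₀(N)(ℚ̄)[p]` with
values IN `H_p`. -/
theorem s59b_kappaCore (N : ℕ) [NeZero N] (p : ℕ) [hpp : Fact p.Prime] (hp2 : p ≠ 2) :
    ∃ κ0 : s29k_Jp N p →+ (Additive (Gamma0 N) →+ ZMod p),
      Function.Injective κ0 ∧ (∀ χ ∈ s29h_Hp N p, ∃ x, κ0 x = χ) ∧ (∀ x, κ0 x ∈ s29h_Hp N p) ∧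
      ∀ ℓ : Nat.Primes, ¬ (ℓ : ℕ) ∣ N * p → ∀ x : s29k_Jp N p,
        κ0 (s29k_Tl N p ℓ x) =
          (haveI : Fact (ℓ : ℕ).Prime := ⟨ℓ.2⟩
           s29h_heckeHom N (ℓ : ℕ) (ZMod p) (κ0 x)) := by
  haveI : NeZero p := ⟨hpp.out.ne_zero⟩
  haveI : FFGen Kb (s29bp_jK Kb N) := s29bp_ffGen (algebraMap Kb ℂ) N
  haveI : FFGen ℂ (s29bp_jK ℂ N) := s29bp_ffGen (RingHom.id ℂ) N
  exact s59b_kappaCore_of (K1 := ℂ) (RingHom.id ℂ) Function.surjective_id N p hp2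
    (s29c_c_injective (K1 := ℂ) (modularFunctionFieldFull N) (s29bp_jK Kb N) (s29bp_jK ℂ N))
    (s29cs_surj_torsion' (K1 := ℂ) (modularFunctionFieldFull N) (s29bp_jK Kb N) (s29bp_jK ℂ N)
      (s29a_j_jK N) p (s29m_finite_torsionK (RingHom.id ℂ) N p Function.surjective_id))

/-! ### The converse of EigenSupport -/

/-- **Converse of `s29k_EigenSupport`** (`p` odd, any level): a non-zero simultaneous eigenvector of
the `T_ℓ` (`ℓ ∤ Np`, `ℓ ∉ S`) in `k ⊗ J₀(N)(ℚ̄)[p]` gives one in `k ⊗ H_p` with the same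
eigenvalues. -/
theorem s59b_convEigen (N : ℕ) [NeZero N] (p : ℕ) [Fact p.Prime] (hp2 : p ≠ 2)
    (k : Type) [Field k] [Algebra (ZMod p) k] (S : Finset ℕ) (e : Nat.Primes → k)
    (v : k ⊗[ZMod p] s29k_Jp N p) (hv : v ≠ 0)
    (heig : ∀ ℓ : Nat.Primes, (ℓ : ℕ) ∉ S → ¬ (ℓ : ℕ) ∣ N * p →
      (s29k_Tl N p ℓ).baseChange k v = e ℓ • v) :
    ∃ w : k ⊗[ZMod p] s29h_Hp N p, w ≠ 0 ∧
      ∀ ℓ : Nat.Primes, (ℓ : ℕ) ∉ S → ¬ (ℓ : ℕ) ∣ N * p →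
        (s29h_Tl N p ℓ).baseChange k w = e ℓ • w := by
  classical
  obtain ⟨κ0, hinj, -, hmem, hEQ⟩ := s59b_kappaCore N p hp2
  let ι : Type := {ℓ : Nat.Primes // ¬ (ℓ : ℕ) ∣ N * p ∧ (ℓ : ℕ) ∉ S}
  let κ : s29k_Jp N p →ₗ[ZMod p] (Additive (Gamma0 N) →+ ZMod p) :=
    AddMonoidHom.toZModLinearMap p κ0
  let Λ : s29k_Jp N p →ₗ[ZMod p] s29h_Hp N p := κ.codRestrict (s29h_Hp N p) hmem
  have hΛinj : Function.Injective Λ := by
    intro x y hxy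
    apply hinj
    exact congrArg Subtype.val hxy
  have hcomm : ∀ i : ι, Λ ∘ₗ s29k_Tl N p i.1 = s29h_Tl N p i.1 ∘ₗ Λ := by
    intro i
    ext x : 1
    apply Subtype.ext
    simp only [LinearMap.comp_apply]
    exact hEQ i.1 i.2.1 x
  obtain ⟨w, hw, hweig⟩ := s29a_transfer (F := ZMod p) (k := k)
    (fun i : ι => s29k_Tl N p i.1) (fun i : ι => s29h_Tl N p i.1) Λ hΛinj hcomm v hv
    (fun i => e i.1) (fun i => heig i.1 i.2.2 i.2.1)
  exact ⟨w, hw, fun ℓ hℓS hℓ => hweig ⟨ℓ, hℓ, hℓS⟩⟩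

/-! ### [OLD] -/

/-- **[M2′] = [OLD] for every odd prime `p` and every level `M`** (`p ∣ M` allowed): a non-zero
eigen-`p`-torsion point at level `M` gives a normalised eigenform of level `M` with the same
eigenvalues modulo a maximal ideal over `p`.  This is `s59m_Old` of `Lib/S59/MIface.lean`. -/
theorem s59b_old (M : ℕ) [NeZero M] (p : ℕ) (hp : p.Prime) (hp2 : p ≠ 2) (a : ℕ → ℤ)
    (B : Finset ℕ) (hB : ∀ r : ℕ, r.Prime → r ∣ M * p → r ∈ B)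
    (y : JZero M) (hy0 : y ≠ 0) (hy : s44i_Eig M p a B y) : s44i_LevelOcc M p a B := by
  classical
  haveI : Fact p.Prime := ⟨hp⟩
  obtain ⟨hpy, hyeig⟩ := hy
  -- the point of `J₀(M)[p]`
  set y' : s29k_Jp M p := ⟨y, by rw [Pic0.mem_torsion, natCast_zsmul]; exact hpy⟩ with hy'
  have hy'0 : y' ≠ 0 := fun h => hy0 (congrArg (fun z : s29k_Jp M p => (z : JZero M)) h)
  set v : (ZMod p) ⊗[ZMod p] s29k_Jp M p := (1 : ZMod p) ⊗ₜ[ZMod p] y' with hv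
  have hv0 : v ≠ 0 := by
    intro h0
    have h1 := congrArg (TensorProduct.lid (ZMod p) (s29k_Jp M p)) h0
    rw [hv, TensorProduct.lid_tmul, one_smul, map_zero] at h1
    exact hy'0 h1
  set e : Nat.Primes → ZMod p := fun ℓ => ((a ℓ : ℤ) : ZMod p) with he
  have hveig : ∀ ℓ : Nat.Primes, (ℓ : ℕ) ∉ B → ¬ (ℓ : ℕ) ∣ M * p →
      (s29k_Tl M p ℓ).baseChange (ZMod p) v = e ℓ • v := by
    intro ℓ hℓB _
    have h1 : s29k_Tl M p ℓ y' = e ℓ • y' := by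
      apply Subtype.ext
      rw [s29k_Tl_coe, he, Int.cast_smul_eq_zsmul]
      exact hyeig ℓ hℓB
    rw [hv, LinearMap.baseChange_tmul, h1, TensorProduct.tmul_smul, TensorProduct.smul_tmul']
  obtain ⟨w, hw0, hweig⟩ := s59b_convEigen M p hp2 (ZMod p) B e v hv0 hveig
  obtain ⟨g, 𝔪', hg, hmax, hpm, hcong⟩ := s44s_formOld M p (ZMod p) e B w hw0 hweig
  refine ⟨g, 𝔪', hg, hmax, hpm, fun ℓ hℓ hℓB => ?_⟩
  have hℓMp : ¬ ℓ ∣ M * p := fun h => hℓB (hB ℓ hℓ h)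
  exact hcong ⟨ℓ, hℓ⟩ hℓB hℓMp (a ℓ) rfl

end

end Fermat.Agent.Lib.S59
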