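/-
PROGRAMME (R) = S59 — CONTRACT GRAPH v2.3 (helper1, chief architect; co-architect patching side: helper4).
Frozen top interface: amendments only by helper1, announced on the board.  Not for main yet.

DECISION: variant (II') = "ONE Kisin–Taylor patching machine (support form, local rings as
parameters) + three finite-level lowering lemmas".  Why not (I) "classical Wiles":
  * (I) needs T_∅ ≠ 0 BEFORE it starts, i.e. node (F1) = Ribet at `q ∥ M₀`; in the SCALAR case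
    (`q ≡ 1 mod p`, `ρ̄(Frob_q)` scalar) the only Shimura-curve-free proof is Taylor's Ihara
    avoidance [IA], which IS a framed patching argument with non-smooth local rings
    (`R_q^1 ⊃ {unr, St}`, `R_q^χ` a domain, `R_q^1/λ = R_q^χ/λ`).  So the framed machine has to be
    built in any case; once it exists it also gives the non-minimal step (primes `q ∣ Δ_W` with `ρ̄`
    unramified: condition "Steinberg at q", `R_q^{St}` a domain + S41[main] level raising) and the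
    minimal case (all local rings smooth) — the numerical criterion (NC: Gorenstein, η-invariants,
    integral Ihara lemma, Lenstra) and the isomorphism form S57 are NOT needed.  (II') has the
    shorter critical path: max{(H4), [MP], (LOC), (H2)} + assembly, against
    (F1-scalar = the same machine) → (MIN) → (NC) in (I).
  * What (II') canNOT absorb (no character of order p to compare with): [MP] Mazur's principle at
    `q ≢ 1 mod p` / non-scalar, and [MRP] `p ∥ M`, W good at p.  They are finite-level geometric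
    nodes (helper7/helper9; S44-library generalised).

TOP LEVEL (all typed below in Prelude vocabulary; `s59_R0_of_lower_lift`, `s59_of_R0` CHECKED):
  S59 ⇐ R0 + S58[main];  R0 ⇐ [LOWER] + [LIFT];
  [LOWER] ⇐ [CAR] (q² ∥ M → q ∥ M) + [RIB] (= frozen S38 shape; ⇐ [MP] + [IA]) + [MRP] (= frozen S40 shape)
  [LIFT]  ⇐ (E) + (H0) + (X) + patching machine [PM] instantiated at the type of W
            (⇐ (H1)..(H6), (G1), (LOC)) + S41[main] (raise to Steinberg at q ∣ Δ_W, ρ̄ unramified)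
  [IA]    ⇐ [PM] instantiated at (R_q^1, R_q^χ) + (H2) at q (Carayol: type 1 → type χ) + (LOC-χ).
OWNERS (lead's #3213): [MP] helper7+helper9; (E) helper5+helper2; (H0) helper6; (H1)+(H2) helper8+
helper3; [PM] = (H6) + (G1) + depth-free support lemma: helper4; (H3)+(H4)+(H5) helper1 (+helper9);
(LOC) local framed rings: UNOWNED (candidate: helper6 after (H0)); [CAR]: falls out of (H2) (helper8);
[MRP]: UNOWNED (candidate: helper2 — author of the S44 library).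
-/
import Fermat.Agent.S58
import Fermat.Prelude.Def_WeierstrassCurve_Mlc1RowStatement
import Fermat.Prelude.Def_WeierstrassCurve_ConductorLevel
import Fermat.Prelude.Def_CuspForm_HeckeLocal
import Fermat.Prelude.Def_GaloisRep_StrictOrdinary
import Fermat.Prelude.Def_GaloisRep_Flat
import Fermat.Prelude.Def_GaloisRep_DeformationRingData
import Fermat.Prelude.Def_Algebra_PatchingDatum
import Fermat.Prelude.Def_EllipticCurve_FrobeniusTrace
import Fermat.Prelude.Def_FLTPrelim_GaloisRep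

set_option autoImplicit false
open Polynomial IsLocalRing

noncomputable section

namespace Fermat.Agent.Lib.S59


/-- (R0) top node: W is modular of SOME level admissible for S58.  S59 = R0 + S58[main]. -/
def s59_R0 : Prop :=
  ∀ (p : ℕ), p = 3 ∨ p = 5 → ∀ (W : WeierstrassCurve ℤ), W.Δ ≠ 0 → W.IsSemistableModel →
    W.ModRepIsIrreducible p → ∀ (M₀ : ℕ) [NeZero M₀], W.IsResiduallyModularOfLevel p M₀ →
    ¬ p ^ 2 ∣ M₀ → (∀ q : ℕ, q.Prime → q ≠ p → ¬ q ^ 3 ∣ M₀) →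
    ∃ N : ℕ, ¬ p ^ 2 ∣ N ∧ W.IsModularModelOfLevel N ∧
      (∀ ℓ : ℕ, ℓ.Prime → (ℓ : ℤ) ∣ W.Δ → ℓ ∣ N) ∧ ∀ q : ℕ, q.Prime → ¬ q ^ 3 ∣ N

/-- the Taylor–Wiles big-image hypothesis of frozen S56, as a predicate. -/
def s59_TWImage {k : Type} [Field k] (ρbar : ResidualGaloisRep k) : Prop :=
  ∀ (K : Type) [Field K] [Algebra k K]
    (G : Subgroup (AlgebraicClosure ℚ ≃ₐ[ℚ] AlgebraicClosure ℚ)), G.index = 2 →
    ∀ V : Submodule K (ρbar.baseChange K).V,
      (∀ σ ∈ G, ∀ x ∈ V, (ρbar.baseChange K).ρ σ x ∈ V) → V = ⊥ ∨ V = ⊤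

/-- (E) the E-side package over a coefficient ring 𝒪: T_p(W) ⊗ 𝒪 with all local properties. -/
def s59_E (p : ℕ) (W : WeierstrassCurve ℤ) (𝒪 : Type) [CommRing 𝒪] [IsLocalRing 𝒪] : Prop :=
  ∃ ρ : GaloisRepAdic 𝒪,
    (∀ ℓ : ℕ, ℓ.Prime → W.IsGoodPrimeFor ℓ → ℓ ≠ p →
      ∀ A : ValuationSubring (AlgebraicClosure ℚ), A.LiesOverPrime ℓ →
      ∀ σ : AlgebraicClosure ℚ ≃ₐ[ℚ] AlgebraicClosure ℚ, A.IsFrobeniusAt σ ℓ →
        LinearMap.charpoly (ρ.ρ σ) =
          X ^ 2 - C (((W.apOfModel ℓ : ℤ) : 𝒪)) * X + C ((ℓ : 𝒪))) ∧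
    ρ.DetIsCyclotomic p ∧
    (W.IsGoodPrimeFor p → ρ.IsFlatAt p) ∧
    (¬ W.IsGoodPrimeFor p → ρ.IsStrictOrdinaryAt p) ∧
    (∀ q : ℕ, q.Prime → q ≠ p → W.IsGoodPrimeFor q → ρ.IsUnramifiedAt q) ∧
    (∀ q : ℕ, q.Prime → q ≠ p → ρ.IsUnipotentOnInertiaAt q) ∧
    ρ.residual.IsAbsolutelyIrreducible ∧ s59_TWImage ρ.residual ∧
    ∀ σ : AlgebraicClosure ℚ ≃ₐ[ℚ] AlgebraicClosure ℚ,
      ∃ α β : ResidueField 𝒪, LinearMap.charpoly (ρ.residual.ρ σ) = (X - C α) * (X - C β)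

/-- θ is "the eigensystem of ρbar". -/
def s59_Eig {N : ℕ} [NeZero N] {S : Finset ℕ} {k : Type} [Field k]
    (θ : CuspForm.heckeAlgebra N 2 (↑S : Set ℕ) →+* k) (ρbar : ResidualGaloisRep k) : Prop :=
  ∀ (ℓ : ℕ) (hℓ : ℓ.Prime) (hℓN : ¬ ℓ ∣ N) (hℓS : ℓ ∉ (↑S : Set ℕ)),
    ∀ A : ValuationSubring (AlgebraicClosure ℚ), A.LiesOverPrime ℓ →
    ∀ σ : AlgebraicClosure ℚ ≃ₐ[ℚ] AlgebraicClosure ℚ, A.IsFrobeniusAt σ ℓ →
      LinearMap.charpoly (ρbar.ρ σ) =
        X ^ 2 - C (θ (CuspForm.heckeAlgebra.T hℓ hℓN hℓS)) * X + C ((ℓ : k))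

/-- (H0) gluing: a Hecke–Galois datum over the FULL local Hecke algebra T_𝔪 at a
non-Eisenstein maximal ideal (S30 on main gives it only over one 𝒪-point at a time).
v2.2 amendment (helper6's request #3226): hypothesis `p ≠ 2` added (Wiles' construction of ρ_T
from the pseudo-character uses complex conjugation and `2 ∈ T^×`). -/
def s59_H0 : Prop :=
  ∀ (p : ℕ) [Fact p.Prime], p ≠ 2 →
    ∀ (N : ℕ) [NeZero N] [Fact (CuspForm.HasIntegralStructure N 2)]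
    (S : Finset ℕ), p ∈ S → (∀ q : ℕ, q.Prime → q ∣ N → q ∈ S) →
    ∀ (𝒪 : Type) [CommRing 𝒪] [IsDomain 𝒪] [IsDiscreteValuationRing 𝒪]
      [IsAdicComplete (maximalIdeal 𝒪) 𝒪] [Finite (ResidueField 𝒪)] [CharZero 𝒪],
      (p : 𝒪) ∈ maximalIdeal 𝒪 →
    ∀ (θ : CuspForm.heckeAlgebra N 2 (↑S : Set ℕ) →+* ResidueField 𝒪)
      (ρbar : ResidualGaloisRep (ResidueField 𝒪)), ρbar.IsAbsolutelyIrreducible →
      s59_Eig θ ρbar →
      Nonempty (CuspForm.HeckeGaloisRepDatum N (↑S : Set ℕ) 𝒪 θ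
        (CuspForm.heckeLocal N (↑S : Set ℕ) 𝒪 θ))

/-- (X) extraction: an 𝒪-point of T_𝔪 with the a_ℓ(W) as eigenvalues gives an eigenform. -/
def s59_X : Prop :=
  ∀ (p : ℕ) [Fact p.Prime] (N : ℕ) [NeZero N] (S : Finset ℕ)
    (𝒪 : Type) [CommRing 𝒪] [IsDomain 𝒪] [IsDiscreteValuationRing 𝒪]
      [IsAdicComplete (maximalIdeal 𝒪) 𝒪] [CharZero 𝒪]
    (W : WeierstrassCurve ℤ)
    (χ : CuspForm.heckeAlgebra N 2 (↑S : Set ℕ) →+* 𝒪),
    (∀ (ℓ : ℕ) (hℓ : ℓ.Prime) (hℓN : ¬ ℓ ∣ N) (hℓS : ℓ ∉ (↑S : Set ℕ)),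
      χ (CuspForm.heckeAlgebra.T hℓ hℓN hℓS) = ((W.apOfModel ℓ : ℤ) : 𝒪)) →
    ∃ f : CuspForm (CongruenceSubgroup.Gamma0 N) 2, f.IsNormalizedEigenform ∧
      ∀ ℓ : ℕ, ℓ.Prime → ¬ ℓ ∣ N → ℓ ∉ S →
        ModularFormClass.qCoeff f ℓ = (W.apOfModel ℓ : ℂ)



/-- (H6) compactness step of patching: levels for all n ⇒ a level with J = ⊥ (then S57[main]). -/
def s59_H6 : Prop :=
  ∀ (𝒪 : Type) [CommRing 𝒪] [IsDomain 𝒪] [IsDiscreteValuationRing 𝒪]
    [IsAdicComplete (maximalIdeal 𝒪) 𝒪] [Finite (ResidueField 𝒪)]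
    (ℓ r : ℕ), ℓ.Prime → (ℓ : 𝒪) ∈ maximalIdeal 𝒪 →
    ∀ (R : Type) [CommRing R] [IsLocalRing R] [IsNoetherianRing R]
      [IsAdicComplete (maximalIdeal R) R] [Algebra 𝒪 R]
      (M : Type) [AddCommGroup M] [Module R M] [Module 𝒪 M] [IsScalarTower 𝒪 R M]
      [Module.Finite 𝒪 M],
      Algebra.PatchingDatum 𝒪 ℓ r R M → Nonempty (Algebra.PatchingLevel 𝒪 r R M ⊥)

/-- the minimal deformation problem of frozen S56 (second = flat clause; first clause the same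
with `strictOrdinaryCondition`). -/
def s59_DminFlat (𝒪 : Type) [CommRing 𝒪] (p : ℕ) (Smin Q : Finset ℕ) :
    ∀ ⦃A : Type⦄ [CommRing A] [IsLocalRing A] [Algebra 𝒪 A], GaloisRepAdic A → Prop :=
  fun _A _ _ _ ρ => GaloisRep.flatCondition 𝒪 p (Smin ∪ Q) ρ ∧
    ∀ q ∈ Smin, q.Prime → q ≠ p → ρ.IsUnipotentOnInertiaAt q

/-- (TW) one Taylor–Wiles level, in the frozen `PatchingLevel` language: for the TW set
`qv : Fin r → ℕ` (from S56[main], all `≡ 1 mod p^(n+1)`), the universal ring `DQ` of the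
Q-augmented problem with its surjection `γ : 𝒪⟦X₁..X_r⟧ ↠ DQ.R` (from S56), the minimal ring
`D0` (Q = ∅) and the minimal Hecke module `M0`, there is a patching level with relation ideal
`((1+S_j)^(p^n) - 1)_j`.  THIS is (H1)–(H5): it says that there is a module `N = M_Q`,
over `DQ.R`, free over `𝒪[Δ_Q/p^n]`, with `M_Q / 𝔞_Q ≅ M_∅`. -/
def s59_TW : Prop :=
  ∀ (𝒪 : Type) [CommRing 𝒪] [IsDomain 𝒪] [IsDiscreteValuationRing 𝒪]
    [IsAdicComplete (maximalIdeal 𝒪) 𝒪] [Finite (ResidueField 𝒪)] [CharZero 𝒪]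
    (p : ℕ) [Fact p.Prime], p ≠ 2 → (p : 𝒪) ∈ maximalIdeal 𝒪 →
    ∀ (ρbar : ResidualGaloisRep (ResidueField 𝒪)) (Smin : Finset ℕ) (r n : ℕ)
      (qv : Fin r → ℕ), Function.Injective qv →
      (∀ i, (qv i).Prime ∧ qv i ∉ Smin ∧ p ^ (n + 1) ∣ qv i - 1) →
      (∀ i, ∀ P : ValuationSubring (AlgebraicClosure ℚ), P.LiesOverPrime (qv i) →
        ∀ φ : AlgebraicClosure ℚ ≃ₐ[ℚ] AlgebraicClosure ℚ, P.IsFrobeniusAt φ (qv i) →
          ∃ α β : ResidueField 𝒪, α ≠ β ∧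
            LinearMap.charpoly (ρbar.ρ φ) = (X - C α) * (X - C β)) →
    ∀ (D0 : GaloisRep.DeformationRingData 𝒪 ρbar (s59_DminFlat 𝒪 p Smin ∅))
      (DQ : GaloisRep.DeformationRingData 𝒪 ρbar
        (s59_DminFlat 𝒪 p Smin (Finset.univ.image qv)))
      (M0 : Type) [AddCommGroup M0] [Module D0.R M0],
      -- + hypothesis "M0 is THE minimal Hecke module" (a structure to be defined, see (H1))
      Nonempty (Algebra.PatchingLevel 𝒪 r D0.R M0
        (Ideal.span (Set.range fun j : Fin r =>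
          ((1 + MvPowerSeries.X j) ^ (p ^ n) - 1 : MvPowerSeries (Fin r) 𝒪))))



/-! ### v2: the top-level decomposition R0 ⇐ [LOWER] + [LIFT] -/

open WeierstrassCurve WeierstrassCurve.Affine in
/-- a Frobenius at `q` acts on `W[p](ℚ̄)` as a scalar. -/
def s59_FrobScalar (W : WeierstrassCurve ℤ) (p q : ℕ) : Prop :=
  ∀ A : ValuationSubring (AlgebraicClosure ℚ), A.LiesOverPrime q →
    ∀ σ : AlgebraicClosure ℚ ≃ₐ[ℚ] AlgebraicClosure ℚ, A.IsFrobeniusAt σ q →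
      ∃ c : ℕ, ∀ x : ((W.map (Int.castRingHom ℚ))⁄(AlgebraicClosure ℚ)).Point,
        p • x = 0 → σ • x = c • x

/-- **[CAR]** (Carayol's lemma / Diamond–Taylor, finite level): for semistable `W` (so `ρ̄|I_q` is
unipotent) a level `q² ∥ M` can be lowered to `q ∥ M/q`.  [hard-ish: (H2) at `q` — freeness of
`H¹(Γ₀(M/q²·q) ∩ Γ_H(q))_𝔪` over `𝒪[Δ_q]` for principal-series types; projectivity over
`𝒪[SL₂(𝔽_q)]` + decomposition numbers for supercuspidal types (`p ∣ q + 1`); old-at-`q` forms by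
S58 tools.] -/
def s59_CAR : Prop :=
  ∀ (p : ℕ), p.Prime → p ≠ 2 → ∀ (W : WeierstrassCurve ℤ), W.Δ ≠ 0 → W.IsSemistableModel →
    W.ModRepIsIrreducible p → ∀ (M q : ℕ), q.Prime → q ≠ p → q ^ 2 ∣ M → ¬ q ^ 3 ∣ M →
    W.IsResiduallyModularOfLevel p M → W.IsResiduallyModularOfLevel p (M / q)

/-- **[MP]** Mazur's principle (helper7): `q ∥ M`, `W` good at `q`: the level drops to `M/q`
unless `q ≡ 1 mod p` and Frobenius at `q` is scalar on `W[p]`.  Stated for every odd `p`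
(S38 generality). -/
def s59_MP : Prop :=
  ∀ (p : ℕ), p.Prime → p ≠ 2 → ∀ (W : WeierstrassCurve ℤ), W.Δ ≠ 0 → W.IsSemistableModel →
    W.ModRepIsIrreducible p → ∀ (M q : ℕ), Squarefree M → q.Prime → q ≠ p → q ∣ M →
    W.IsGoodPrimeFor q → W.IsResiduallyModularOfLevel p M →
    W.IsResiduallyModularOfLevel p (M / q) ∨ (p ∣ q - 1 ∧ s59_FrobScalar W p q)

/-- **[IA]** Ribet's scalar case by Ihara avoidance (patching machine at `(R_q^1, R_q^χ)`). -/
def s59_IA : Prop :=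
  ∀ (p : ℕ), p.Prime → p ≠ 2 → ∀ (W : WeierstrassCurve ℤ), W.Δ ≠ 0 → W.IsSemistableModel →
    W.ModRepIsIrreducible p → ∀ (M q : ℕ), Squarefree M → q.Prime → q ≠ p → q ∣ M →
    W.IsGoodPrimeFor q → p ∣ q - 1 → s59_FrobScalar W p q →
    W.IsResiduallyModularOfLevel p M → W.IsResiduallyModularOfLevel p (M / q)

/-- **[RIB]** Ribet at a good prime of `W` (frozen S38 shape with `W` good at `q`). -/
def s59_RIB : Prop :=
  ∀ (p : ℕ), p.Prime → p ≠ 2 → ∀ (W : WeierstrassCurve ℤ), W.Δ ≠ 0 → W.IsSemistableModel →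
    W.ModRepIsIrreducible p → ∀ (M q : ℕ), Squarefree M → q.Prime → q ≠ p → q ∣ M →
    W.IsGoodPrimeFor q → W.IsResiduallyModularOfLevel p M →
    W.IsResiduallyModularOfLevel p (M / q)

/-! ### v2.3 (lead's decision #3262): the PRIMED nodes — hypothesis "ρ̄ unramified at q"
instead of "W good at q".  Frozen S38 (= [RIB′] up to the formal translation of `hunr`) is the
FIRST deliverable of the programme: S38 ⇐ [MP′] + [IA′].  CODE AGAINST THE PRIMED NODES. -/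

open WeierstrassCurve WeierstrassCurve.Affine in
/-- `W[p](ℚ̄)` is unramified at `q`: every inertia group over `q` acts trivially on the
`p`-torsion points (= frozen S38's `hunr`, unfolded). -/
def s59_Unr (W : WeierstrassCurve ℤ) (p q : ℕ) : Prop :=
  ∀ A : ValuationSubring (AlgebraicClosure ℚ), A.LiesOverPrime q →
    ∀ σ ∈ A.inertiaSubgroupIn ℚ,
      ∀ x : ((W.map (Int.castRingHom ℚ))⁄(AlgebraicClosure ℚ)).Point, p • x = 0 → σ • x = x

/-- **[MP′]** Mazur's principle with `ρ̄` unramified at `q` (no hypothesis on the reduction of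
`W` at `q`). -/
def s59_MP' : Prop :=
  ∀ (p : ℕ), p.Prime → p ≠ 2 → ∀ (W : WeierstrassCurve ℤ), W.Δ ≠ 0 → W.IsSemistableModel →
    W.ModRepIsIrreducible p → ∀ (M q : ℕ), Squarefree M → q.Prime → q ≠ p → q ∣ M →
    s59_Unr W p q → W.IsResiduallyModularOfLevel p M →
    W.IsResiduallyModularOfLevel p (M / q) ∨ (p ∣ q - 1 ∧ s59_FrobScalar W p q)

/-- **[IA′]** the scalar case by Ihara avoidance, with `ρ̄` unramified at `q`. -/
def s59_IA' : Prop :=
  ∀ (p : ℕ), p.Prime → p ≠ 2 → ∀ (W : WeierstrassCurve ℤ), W.Δ ≠ 0 → W.IsSemistableModel →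
    W.ModRepIsIrreducible p → ∀ (M q : ℕ), Squarefree M → q.Prime → q ≠ p → q ∣ M →
    s59_Unr W p q → p ∣ q - 1 → s59_FrobScalar W p q →
    W.IsResiduallyModularOfLevel p M → W.IsResiduallyModularOfLevel p (M / q)

/-- **[RIB′]** = frozen S38 with `hunr` unfolded. -/
def s59_RIB' : Prop :=
  ∀ (p : ℕ), p.Prime → p ≠ 2 → ∀ (W : WeierstrassCurve ℤ), W.Δ ≠ 0 → W.IsSemistableModel →
    W.ModRepIsIrreducible p → ∀ (M q : ℕ), Squarefree M → q.Prime → q ≠ p → q ∣ M →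
    s59_Unr W p q → W.IsResiduallyModularOfLevel p M →
    W.IsResiduallyModularOfLevel p (M / q)

/-- [RIB′] ⇐ [MP′] + [IA′], checked. -/
theorem s59_RIB'_of (hMP : s59_MP') (hIA : s59_IA') : s59_RIB' := by
  intro p hp hp2 W hΔ hW hirr M q hM hq hqp hqM hunr hres
  rcases hMP p hp hp2 W hΔ hW hirr M q hM hq hqp hqM hunr hres with h | ⟨h1, hsc⟩
  · exact h
  · exact hIA p hp hp2 W hΔ hW hirr M q hM hq hqp hqM hunr h1 hsc hres

/-- the unprimed nodes follow from the primed ones as soon as "good ⇒ unramified"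
(`s58e_ellUnram`, main) is supplied. -/
theorem s59_RIB_of' (hgood : ∀ (p : ℕ), p.Prime → ∀ (W : WeierstrassCurve ℤ) (q : ℕ), q.Prime →
      q ≠ p → W.IsGoodPrimeFor q → s59_Unr W p q)
    (hR : s59_RIB') : s59_RIB := by
  intro p hp hp2 W hΔ hW hirr M q hM hq hqp hqM hg hres
  exact hR p hp hp2 W hΔ hW hirr M q hM hq hqp hqM (hgood p hp W q hq hqp hg) hres

/-- [RIB] ⇐ [MP] + [IA], checked. -/
theorem s59_RIB_of (hMP : s59_MP) (hIA : s59_IA) : s59_RIB := by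
  intro p hp hp2 W hΔ hW hirr M q hM hq hqp hqM hgood hres
  rcases hMP p hp hp2 W hΔ hW hirr M q hM hq hqp hqM hgood hres with h | ⟨h1, hsc⟩
  · exact h
  · exact hIA p hp hp2 W hΔ hW hirr M q hM hq hqp hqM hgood h1 hsc hres

/-- **[MRP]** Mazur–Ribet at `p` (frozen S40 shape): `p ∥ M`, `W` good at `p`. -/
def s59_MRP : Prop :=
  ∀ (p : ℕ), p.Prime → p ≠ 2 → ∀ (W : WeierstrassCurve ℤ), W.Δ ≠ 0 → W.IsSemistableModel →
    W.ModRepIsIrreducible p → ∀ (M : ℕ), Squarefree M → p ∣ M → W.IsGoodPrimeFor p →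
    W.IsResiduallyModularOfLevel p M → W.IsResiduallyModularOfLevel p (M / p)

/-- **[LOWER]**: the level can be made squarefree and supported on the bad primes of `W`. -/
def s59_LOWER : Prop :=
  ∀ (p : ℕ), p = 3 ∨ p = 5 → ∀ (W : WeierstrassCurve ℤ), W.Δ ≠ 0 → W.IsSemistableModel →
    W.ModRepIsIrreducible p → ∀ (M₀ : ℕ) [NeZero M₀], W.IsResiduallyModularOfLevel p M₀ →
    ¬ p ^ 2 ∣ M₀ → (∀ q : ℕ, q.Prime → q ≠ p → ¬ q ^ 3 ∣ M₀) →
    ∃ M : ℕ, 0 < M ∧ Squarefree M ∧ (∀ q : ℕ, q.Prime → q ∣ M → (q : ℤ) ∣ W.Δ) ∧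
      W.IsResiduallyModularOfLevel p M

/-- **[LIFT]** modularity lifting at the type of `W` (the patching machine + (E), (H0)…(H6), (X)). -/
def s59_LIFT : Prop :=
  ∀ (p : ℕ), p = 3 ∨ p = 5 → ∀ (W : WeierstrassCurve ℤ), W.Δ ≠ 0 → W.IsSemistableModel →
    W.ModRepIsIrreducible p → ∀ (M : ℕ), 0 < M → Squarefree M →
    (∀ q : ℕ, q.Prime → q ∣ M → (q : ℤ) ∣ W.Δ) → W.IsResiduallyModularOfLevel p M →
    ∃ N : ℕ, ¬ p ^ 2 ∣ N ∧ W.IsModularModelOfLevel N ∧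
      (∀ ℓ : ℕ, ℓ.Prime → (ℓ : ℤ) ∣ W.Δ → ℓ ∣ N) ∧ ∀ q : ℕ, q.Prime → ¬ q ^ 3 ∣ N

/-- R0 ⇐ [LOWER] + [LIFT], checked. -/
theorem s59_R0_of_lower_lift (hL : s59_LOWER) (hT : s59_LIFT) : s59_R0 := by
  intro p hp W hΔ hW hirr M₀ _ hres hp2 h3
  obtain ⟨M, hM0, hMsq, hMbad, hMres⟩ := hL p hp W hΔ hW hirr M₀ hres hp2 h3
  exact hT p hp W hΔ hW hirr M hM0 hMsq hMbad hMres

/-- Step 1 of [LOWER]: strip the squares with [CAR]. -/
theorem s59_lower_sqfree (hC : s59_CAR) (p : ℕ) (hp : p.Prime) (hp2 : p ≠ 2)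
    (W : WeierstrassCurve ℤ) (hΔ : W.Δ ≠ 0) (hW : W.IsSemistableModel)
    (hirr : W.ModRepIsIrreducible p) :
    ∀ M : ℕ, 0 < M → ¬ p ^ 2 ∣ M → (∀ q : ℕ, q.Prime → q ≠ p → ¬ q ^ 3 ∣ M) →
      W.IsResiduallyModularOfLevel p M →
      ∃ M' : ℕ, 0 < M' ∧ Squarefree M' ∧ W.IsResiduallyModularOfLevel p M' := by
  intro M
  induction M using Nat.strong_induction_on with
  | _ M ih =>
    intro hM0 hpM h3 hres
    by_cases hsq : Squarefree M
    · exact ⟨M, hM0, hsq, hres⟩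
    · rw [Nat.squarefree_iff_prime_squarefree] at hsq
      push Not at hsq
      obtain ⟨q, hq, hqq⟩ := hsq
      have hq2 : q ^ 2 ∣ M := by rwa [pow_two]
      have hqp : q ≠ p := by
        rintro rfl
        exact hpM hq2
      have hqM : q ∣ M := (dvd_pow_self q two_ne_zero).trans hq2
      have hdvd : M / q ∣ M := Nat.div_dvd_of_dvd hqM
      have hpos : 0 < M / q := Nat.div_pos (Nat.le_of_dvd hM0 hqM) hq.pos
      have hlt : M / q < M := Nat.div_lt_self hM0 hq.one_lt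
      exact ih (M / q) hlt hpos (fun h => hpM (h.trans hdvd))
        (fun q' hq' hq'p h => h3 q' hq' hq'p (h.trans hdvd))
        (hC p hp hp2 W hΔ hW hirr M q hq hqp hq2 (h3 q hq hqp) hres)

/-- Step 2 of [LOWER]: remove the good primes of `W` with [RIB] and [MRP]. -/
theorem s59_lower_bad (hR : s59_RIB) (hP : s59_MRP) (p : ℕ) (hp : p.Prime) (hp2 : p ≠ 2)
    (W : WeierstrassCurve ℤ) (hΔ : W.Δ ≠ 0) (hW : W.IsSemistableModel)
    (hirr : W.ModRepIsIrreducible p) :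
    ∀ M : ℕ, 0 < M → Squarefree M → W.IsResiduallyModularOfLevel p M →
      ∃ M' : ℕ, 0 < M' ∧ Squarefree M' ∧ (∀ q : ℕ, q.Prime → q ∣ M' → (q : ℤ) ∣ W.Δ) ∧
        W.IsResiduallyModularOfLevel p M' := by
  intro M
  induction M using Nat.strong_induction_on with
  | _ M ih =>
    intro hM0 hsq hres
    by_cases hall : ∀ q : ℕ, q.Prime → q ∣ M → (q : ℤ) ∣ W.Δ
    · exact ⟨M, hM0, hsq, hall, hres⟩
    · push Not at hall
      obtain ⟨q, hq, hqM, hgood⟩ := hall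
      have hdvd : M / q ∣ M := Nat.div_dvd_of_dvd hqM
      have hpos : 0 < M / q := Nat.div_pos (Nat.le_of_dvd hM0 hqM) hq.pos
      have hlt : M / q < M := Nat.div_lt_self hM0 hq.one_lt
      have hsq' : Squarefree (M / q) := hsq.squarefree_of_dvd hdvd
      refine ih (M / q) hlt hpos hsq' ?_
      by_cases hqp : q = p
      · subst hqp
        exact hP q hp hp2 W hΔ hW hirr M hsq hqM hgood hres
      · exact hR p hp hp2 W hΔ hW hirr M q hsq hq hqp hqM hgood hres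

/-- [LOWER] ⇐ [CAR] + [RIB] + [MRP], checked. -/
theorem s59_LOWER_of (hC : s59_CAR) (hR : s59_RIB) (hP : s59_MRP) : s59_LOWER := by
  intro p hp W hΔ hW hirr M₀ _ hres hp2 h3
  have hpp : p.Prime := by rcases hp with rfl | rfl <;> norm_num
  have hp2' : p ≠ 2 := by rcases hp with rfl | rfl <;> norm_num
  obtain ⟨M₁, h0, hsq, hres₁⟩ := s59_lower_sqfree hC p hpp hp2' W hΔ hW hirr M₀
    (Nat.pos_of_ne_zero (NeZero.ne M₀)) hp2 h3 hres
  exact s59_lower_bad hR hP p hpp hp2' W hΔ hW hirr M₁ h0 hsq hres₁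

/-- Top wiring, checked: S59 follows from the node R0 and S58 (on main). -/
theorem s59_of_R0 (h : s59_R0) (p : ℕ) (hp : p = 3 ∨ p = 5)
    (W : WeierstrassCurve ℤ) (hΔ : W.Δ ≠ 0) (hW : W.IsSemistableModel)
    (hirr : W.ModRepIsIrreducible p)
    (M₀ : ℕ) [NeZero M₀] (hres₀ : W.IsResiduallyModularOfLevel p M₀)
    (hM₀ : ¬ p ^ 2 ∣ M₀)
    (hM₀3 : ∀ q : ℕ, q.Prime → q ≠ p → ¬ q ^ 3 ∣ M₀) :
    Mlc1IsModularModelOfExactConductorLevel W := by
  obtain ⟨N, hp2N, hN, hbad, hN3⟩ := h p hp W hΔ hW hirr M₀ hres₀ hM₀ hM₀3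
  have hpp : p.Prime := by rcases hp with rfl | rfl <;> norm_num
  have : Fact p.Prime := ⟨hpp⟩
  have hp2 : p ≠ 2 := by rcases hp with rfl | rfl <;> norm_num
  have key := Fermat.Agent.S58.result W hW N p hp2 hirr hp2N hN hbad hN3
  exact ⟨W.conductorLevel, W.conductorLevel_pos, W.squarefree_conductorLevel,
    fun q hq => W.prime_dvd_conductorLevel_iff hΔ hq, key⟩

/-- **S59 from the five open top-level nodes**, checked. -/
theorem s59_of_nodes (hC : s59_CAR) (hMP : s59_MP) (hIA : s59_IA) (hP : s59_MRP) (hT : s59_LIFT)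
    (p : ℕ) (hp : p = 3 ∨ p = 5)
    (W : WeierstrassCurve ℤ) (hΔ : W.Δ ≠ 0) (hW : W.IsSemistableModel)
    (hirr : W.ModRepIsIrreducible p)
    (M₀ : ℕ) [NeZero M₀] (hres₀ : W.IsResiduallyModularOfLevel p M₀)
    (hM₀ : ¬ p ^ 2 ∣ M₀)
    (hM₀3 : ∀ q : ℕ, q.Prime → q ≠ p → ¬ q ^ 3 ∣ M₀) :
    Mlc1IsModularModelOfExactConductorLevel W :=
  s59_of_R0 (s59_R0_of_lower_lift (s59_LOWER_of hC (s59_RIB_of hMP hIA) hP) hT)
    p hp W hΔ hW hirr M₀ hres₀ hM₀ hM₀3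

end Fermat.Agent.Lib.S59

end
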