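/-
Programme (R) / node [MP] (Mazur's principle), soft ENDGAME, abstract form (helper9, prefix `s59m_`).
Mathlib only.

Setting: a group `G`, an odd prime `p`, two `𝔽_p[G]`-modules
* `V` (in the application `W[p](ℚ̄)`), finite of cardinality `p ^ 2`, IRREDUCIBLE,
* `Z ≠ 0` (in the application a Galois-stable piece of the eigen-module inside `J₀(M q)[p]`),
a character `χ : G → 𝔽_pˣ` (the mod-`p` cyclotomic character) and a function `s : G → 𝔽_p`
(the common "trace") such that BOTH modules satisfy the quadratic relations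

  `g + χ(g) g⁻¹ = s(g)`     (Eichler–Shimura + Frobenius density; `s44s_dens` on main).

If an element `σ` acts on `Z` as a scalar `c`, then (`s59m_end_abs`)

  `c ^ 2 = χ(σ)`   and   `σ` acts on `V` as the scalar `c`.

(For `σ` a Frobenius at `q` and `c = ∓q` this is the conclusion of Mazur's principle:
`q ^ 2 = q` in `𝔽_p` and Frobenius is scalar on `W[p]`.)
-/
import Mathlib

set_option autoImplicit false
set_option linter.style.haveILetI false

namespace Fermat.Agent.Lib.S59

open Module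

section EndAbs

variable {G : Type*} [Group G] {p : ℕ} [hp : Fact p.Prime]
  {V Z : Type*} [AddCommGroup V] [Module (ZMod p) V] [AddCommGroup Z] [Module (ZMod p) Z]
  (ρV : G →* Module.End (ZMod p) V) (ρZ : G →* Module.End (ZMod p) Z)
  (χ : G →* (ZMod p)ˣ) (s : G → ZMod p)

/-! ### Generalities on a representation given as a monoid homomorphism into `End` -/

theorem s59m_rho_inv_apply {X : Type*} [AddCommGroup X] [Module (ZMod p) X]
    (ρ : G →* Module.End (ZMod p) X) (g : G) (x : X) : ρ g⁻¹ (ρ g x) = x := by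
  rw [← Module.End.mul_apply, ← map_mul, inv_mul_cancel, map_one, Module.End.one_apply]

theorem s59m_rho_apply_inv {X : Type*} [AddCommGroup X] [Module (ZMod p) X]
    (ρ : G →* Module.End (ZMod p) X) (g : G) (x : X) : ρ g (ρ g⁻¹ x) = x := by
  rw [← Module.End.mul_apply, ← map_mul, mul_inv_cancel, map_one, Module.End.one_apply]

theorem s59m_rho_mul_apply {X : Type*} [AddCommGroup X] [Module (ZMod p) X]
    (ρ : G →* Module.End (ZMod p) X) (g h : G) (x : X) : ρ (g * h) x = ρ g (ρ h x) := by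
  rw [map_mul, Module.End.mul_apply]

/-- the quadratic relation in polynomial form. -/
theorem s59m_quad {X : Type*} [AddCommGroup X] [Module (ZMod p) X]
    (ρ : G →* Module.End (ZMod p) X)
    (hrel : ∀ g : G, ∀ x : X, ρ g x + (χ g : ZMod p) • ρ g⁻¹ x = s g • x) (g : G) (x : X) :
    ρ g (ρ g x) - s g • ρ g x + (χ g : ZMod p) • x = 0 := by
  have h := hrel g (ρ g x)
  rw [s59m_rho_inv_apply] at h
  rw [← h]
  abel

/-! ### Claim A: if `c ^ 2 ≠ χ(σ)`, every element acts on `Z` as a scalar -/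

/-- a scalar action of an invertible operator on a non-zero space is by a non-zero scalar. -/
theorem s59m_scalar_ne_zero [Nontrivial Z] (σ : G) (c : ZMod p)
    (hσ : ∀ z : Z, ρZ σ z = c • z) : c ≠ 0 := by
  rintro rfl
  obtain ⟨z, hz⟩ := exists_ne (0 : Z)
  apply hz
  have h := s59m_rho_inv_apply ρZ σ z
  rw [hσ z, zero_smul, map_zero] at h
  exact h.symm

theorem s59m_scalar_inv (σ : G) (c : ZMod p) (hc : c ≠ 0)
    (hσ : ∀ z : Z, ρZ σ z = c • z) (z : Z) : ρZ σ⁻¹ z = c⁻¹ • z := by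
  have h := s59m_rho_inv_apply ρZ σ (c⁻¹ • z)
  rw [hσ, smul_smul, mul_inv_cancel₀ hc, one_smul] at h
  exact h

/-- **Claim A.** -/
theorem s59m_all_scalar [Nontrivial Z]
    (hrelZ : ∀ g : G, ∀ z : Z, ρZ g z + (χ g : ZMod p) • ρZ g⁻¹ z = s g • z)
    (σ : G) (c : ZMod p) (hσ : ∀ z : Z, ρZ σ z = c • z)
    (hne : c ^ 2 ≠ (χ σ : ZMod p)) (g : G) :
    ∃ l : ZMod p, ∀ z : Z, ρZ g z = l • z := by
  have hc : c ≠ 0 := s59m_scalar_ne_zero ρZ σ c hσ
  set q : ZMod p := (χ σ : ZMod p) with hq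
  set d : ZMod p := c - q * c⁻¹ with hd
  have hd0 : d ≠ 0 := by
    intro h0
    apply hne
    have h1 : c = q * c⁻¹ := sub_eq_zero.mp h0
    calc c ^ 2 = c * c := sq c
      _ = (q * c⁻¹) * c := by rw [← h1]
      _ = q := by rw [mul_assoc, inv_mul_cancel₀ hc, mul_one]
  refine ⟨d⁻¹ * (s (σ * g) - q * c⁻¹ * s g), fun z => ?_⟩
  -- the relation for `σ * g`
  have h1 := hrelZ (σ * g) z
  have h2 : ρZ (σ * g) z = c • ρZ g z := by rw [s59m_rho_mul_apply, hσ]
  have h3 : ρZ (σ * g)⁻¹ z = c⁻¹ • ρZ g⁻¹ z := by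
    rw [mul_inv_rev, s59m_rho_mul_apply, s59m_scalar_inv ρZ σ c hc hσ, map_smul]
  have h4 : ((χ (σ * g) : (ZMod p)ˣ) : ZMod p) = q * (χ g : ZMod p) := by
    rw [map_mul, Units.val_mul]
  rw [h2, h3, h4] at h1
  -- the relation for `g`
  have h5 := hrelZ g z
  have h6 : (χ g : ZMod p) • ρZ g⁻¹ z = s g • z - ρZ g z := by
    rw [← h5]; abel
  have h7 : (q * (χ g : ZMod p)) • c⁻¹ • ρZ g⁻¹ z = (q * c⁻¹) • ((χ g : ZMod p) • ρZ g⁻¹ z) := by
    rw [smul_smul, smul_smul]
    congr 1
    ring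
  rw [h7, h6, smul_sub, smul_smul] at h1
  have h8 : d • ρZ g z = (s (σ * g) - q * c⁻¹ * s g) • z := by
    rw [hd, sub_smul, sub_smul, ← h1]
    abel
  calc ρZ g z = d⁻¹ • d • ρZ g z := by rw [smul_smul, inv_mul_cancel₀ hd0, one_smul]
    _ = (d⁻¹ * (s (σ * g) - q * c⁻¹ * s g)) • z := by rw [h8, smul_smul]

/-! ### Claim B: if every element acts on `Z` as a scalar, `V` is reducible -/

/-- powers of an operator with `(A - 1) ^ 2 = 0`. -/
theorem s59m_pow_of_sq_zero (A : Module.End (ZMod p) V)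
    (h : ∀ v : V, A (A v) - (2 : ZMod p) • A v + v = 0) (k : ℕ) (v : V) :
    (A ^ k) v = v + (k : ZMod p) • (A v - v) := by
  induction k generalizing v with
  | zero => simp
  | succ k ih =>
    have h1 : A (A v) = (2 : ZMod p) • A v - v := by
      rw [eq_sub_iff_add_eq, ← sub_eq_zero, ← h v]
      abel
    rw [pow_succ, Module.End.mul_apply, ih (A v), h1]
    push_cast
    module

theorem s59m_pow_p_of_sq_zero (A : Module.End (ZMod p) V)
    (h : ∀ v : V, A (A v) - (2 : ZMod p) • A v + v = 0) : A ^ p = 1 := by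
  ext v
  rw [s59m_pow_of_sq_zero A h p v, CharP.cast_eq_zero, zero_smul, add_zero, Module.End.one_apply]

/-- **Claim B.** -/
theorem s59m_reducible_of_all_scalar [Finite V] [Nontrivial Z]
    (hfr : Module.finrank (ZMod p) V = 2)
    (hrelV : ∀ g : G, ∀ v : V, ρV g v + (χ g : ZMod p) • ρV g⁻¹ v = s g • v)
    (hrelZ : ∀ g : G, ∀ z : Z, ρZ g z + (χ g : ZMod p) • ρZ g⁻¹ z = s g • z)
    (hirr : ∀ U : Submodule (ZMod p) V, (∀ g : G, ∀ v ∈ U, ρV g v ∈ U) → U = ⊥ ∨ U = ⊤)
    (hsc : ∀ g : G, ∃ l : ZMod p, ∀ z : Z, ρZ g z = l • z) : False := by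
  classical
  obtain ⟨z₀, hz₀⟩ := exists_ne (0 : Z)
  haveI : Nontrivial V := by
    apply Module.nontrivial_of_finrank_pos (R := ZMod p)
    rw [hfr]; norm_num
  -- the subgroup `N`
  set N : Subgroup G := ρZ.ker ⊓ χ.ker with hN
  have hNmem : ∀ g : G, g ∈ N ↔ ρZ g = 1 ∧ χ g = 1 := fun g => by
    rw [hN, Subgroup.mem_inf, MonoidHom.mem_ker, MonoidHom.mem_ker]
  haveI hNn : N.Normal := by
    rw [hN]
    exact Subgroup.normal_inf_normal _ _
  -- `ρZ g` and `ρZ h` commute
  have hcomm : ∀ g h : G, ρZ g * ρZ h = ρZ h * ρZ g := by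
    intro g h
    obtain ⟨a, ha⟩ := hsc g
    obtain ⟨b, hb⟩ := hsc h
    ext z
    rw [Module.End.mul_apply, Module.End.mul_apply, hb z, ha (b • z), ha z, hb (a • z),
      smul_smul, smul_smul, mul_comm]
  -- commutators lie in `N`
  have hcommN : ∀ g h : G, g * h * g⁻¹ * h⁻¹ ∈ N := by
    intro g h
    rw [hNmem]
    constructor
    · rw [map_mul, map_mul, map_mul, hcomm g h, mul_assoc (ρZ h), ← map_mul, mul_inv_cancel,
        map_one, mul_one, ← map_mul, mul_inv_cancel, map_one]
    · rw [map_mul, map_mul, map_mul, map_inv, map_inv, mul_comm (χ g) (χ h), mul_assoc (χ h),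
        mul_inv_cancel, mul_one, mul_inv_cancel]
  -- elements of `N` are unipotent on `V`
  have hNs : ∀ g ∈ N, s g = 2 := by
    intro g hg
    obtain ⟨h1, h2⟩ := (hNmem g).mp hg
    have h3 := hrelZ g z₀
    have h4 : ρZ g⁻¹ = 1 := by
      have h5 : ρZ g⁻¹ * ρZ g = 1 := by rw [← map_mul, inv_mul_cancel, map_one]
      rwa [h1, mul_one] at h5
    rw [h1, h4, h2, Module.End.one_apply, Units.val_one, one_smul] at h3
    have h6 : ((2 : ZMod p) - s g) • z₀ = 0 := by
      rw [sub_smul, ← h3, two_smul, sub_self]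
    rcases smul_eq_zero.mp h6 with h7 | h7
    · exact (sub_eq_zero.mp h7).symm
    · exact absurd h7 hz₀
  have hNsq : ∀ g ∈ N, ∀ v : V, ρV g (ρV g v) - (2 : ZMod p) • ρV g v + v = 0 := by
    intro g hg v
    have h1 := s59m_quad χ s ρV hrelV g v
    rw [hNs g hg, ((hNmem g).mp hg).2, Units.val_one, one_smul] at h1
    exact h1
  have hNpow : ∀ g ∈ N, ρV g ^ p = 1 := fun g hg => s59m_pow_p_of_sq_zero (ρV g) (hNsq g hg)
  -- a non-zero vector fixed by `N`
  have hfix : ∃ b : V, b ≠ 0 ∧ ∀ g ∈ N, ρV g b = b := by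
    set ρu : G →* (Module.End (ZMod p) V)ˣ := ρV.toHomUnits with hρu
    set R : Subgroup (Module.End (ZMod p) V)ˣ := N.map ρu with hR
    have hRp : IsPGroup p R := by
      rintro ⟨r, hr⟩
      obtain ⟨g, hg, rfl⟩ := Subgroup.mem_map.mp hr
      refine ⟨1, ?_⟩
      rw [pow_one]
      apply Subtype.ext
      apply Units.ext
      show ((ρu g ^ p : (Module.End (ZMod p) V)ˣ) : Module.End (ZMod p) V) = 1
      rw [Units.val_pow_eq_pow_val, hρu, MonoidHom.coe_toHomUnits]
      exact hNpow g hg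
    have hcard : p ∣ Nat.card V := by
      rw [Module.natCard_eq_pow_finrank (K := ZMod p) (V := V), hfr, Nat.card_zmod]
      exact Dvd.intro_left _ (by ring)
    have h0 : (0 : V) ∈ MulAction.fixedPoints R V := by
      rw [MulAction.mem_fixedPoints]
      intro r
      exact smul_zero r
    obtain ⟨b, hb, hb0⟩ := hRp.exists_fixed_point_of_prime_dvd_card_of_fixed_point V hcard h0
    refine ⟨b, fun h => hb0 h.symm, fun g hg => ?_⟩
    have h1 := MulAction.mem_fixedPoints.mp hb ⟨ρu g, Subgroup.mem_map_of_mem ρu hg⟩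
    exact h1
  obtain ⟨b, hb0, hbfix⟩ := hfix
  -- `N` acts trivially on `V`
  have hNtriv : ∀ g ∈ N, ∀ v : V, ρV g v = v := by
    set U : Submodule (ZMod p) V :=
      { carrier := {v | ∀ g ∈ N, ρV g v = v}
        add_mem' := fun {x y} hx hy g hg => by rw [map_add, hx g hg, hy g hg]
        zero_mem' := fun g _ => map_zero _
        smul_mem' := fun c x hx g hg => by rw [map_smul, hx g hg] } with hU
    have hUst : ∀ h : G, ∀ v ∈ U, ρV h v ∈ U := by
      intro h v hv g hg
      have h1 : h⁻¹ * g * h ∈ N := by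
        have := hNn.conj_mem g hg h⁻¹
        rwa [inv_inv] at this
      have h2 : g * h = h * (h⁻¹ * g * h) := by group
      rw [← s59m_rho_mul_apply, h2, s59m_rho_mul_apply, hv _ h1]
    rcases hirr U hUst with h | h
    · exfalso
      apply hb0
      have hbU : b ∈ U := hbfix
      rw [h] at hbU
      exact (Submodule.mem_bot _).mp hbU
    · intro g hg v
      have hv : v ∈ U := by rw [h]; exact Submodule.mem_top
      exact hv g hg
  -- the image of `G` in `End V` is commutative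
  have hVcomm : ∀ g h : G, ∀ v : V, ρV g (ρV h v) = ρV h (ρV g v) := by
    intro g h v
    have h1 : g * h = (g * h * g⁻¹ * h⁻¹) * (h * g) := by group
    rw [← s59m_rho_mul_apply, h1, s59m_rho_mul_apply, hNtriv _ (hcommN g h), s59m_rho_mul_apply]
  -- every element acts on `V` as a scalar
  have hVsc : ∀ g : G, ∃ a : ZMod p, ∀ v : V, ρV g v = a • v := by
    intro g
    obtain ⟨l, hl⟩ := hsc g
    have hl0 : l ≠ 0 := s59m_scalar_ne_zero ρZ g l hl
    -- `s g = l + χ g / l`
    have hs : s g = l + (χ g : ZMod p) * l⁻¹ := by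
      have h1 := hrelZ g z₀
      rw [hl, s59m_scalar_inv ρZ g l hl0 hl, smul_smul, ← add_smul] at h1
      have h2 : (l + (χ g : ZMod p) * l⁻¹ - s g) • z₀ = 0 := by
        rw [sub_smul, h1, sub_self]
      rcases smul_eq_zero.mp h2 with h3 | h3
      · exact (sub_eq_zero.mp h3).symm
      · exact absurd h3 hz₀
    set m : ZMod p := (χ g : ZMod p) * l⁻¹ with hm
    have hlm : l * m = (χ g : ZMod p) := by
      rw [hm, mul_comm l, mul_assoc, inv_mul_cancel₀ hl0, mul_one]
    -- `(A - l)(A - m) = 0`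
    have hfac : ∀ v : V, ρV g (ρV g v - m • v) = l • (ρV g v - m • v) := by
      intro v
      have h1 := s59m_quad χ s ρV hrelV g v
      rw [hs, ← hlm] at h1
      rw [map_sub, map_smul, ← sub_eq_zero, ← h1]
      module
    set U : Submodule (ZMod p) V :=
      { carrier := {v | ρV g v = l • v}
        add_mem' := fun {x y} hx hy => by
          show ρV g (x + y) = l • (x + y)
          rw [map_add, hx, hy, smul_add]
        zero_mem' := by
          show ρV g 0 = l • (0 : V)
          rw [map_zero, smul_zero]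
        smul_mem' := fun c x hx => by
          show ρV g (c • x) = l • c • x
          rw [map_smul, hx, smul_comm] } with hU
    have hUst : ∀ h : G, ∀ v ∈ U, ρV h v ∈ U := by
      intro h v hv
      show ρV g (ρV h v) = l • ρV h v
      rw [hVcomm g h v, hv, map_smul]
    rcases hirr U hUst with h | h
    · refine ⟨m, fun v => ?_⟩
      have h1 : ρV g v - m • v ∈ U := hfac v
      rw [h, Submodule.mem_bot] at h1
      exact sub_eq_zero.mp h1
    · refine ⟨l, fun v => ?_⟩
      have hv : v ∈ U := by rw [h]; exact Submodule.mem_top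
      exact hv
  -- the line spanned by `b` is stable
  have hline : ∀ g : G, ∀ v ∈ Submodule.span (ZMod p) {b}, ρV g v ∈ Submodule.span (ZMod p) {b} := by
    intro g v hv
    obtain ⟨a, ha⟩ := hVsc g
    rw [ha]
    exact Submodule.smul_mem _ _ hv
  rcases hirr _ hline with h | h
  · apply hb0
    have : b ∈ Submodule.span (ZMod p) {b} := Submodule.mem_span_singleton_self b
    rw [h] at this
    exact (Submodule.mem_bot _).mp this
  · have h1 : Module.finrank (ZMod p) ↥(Submodule.span (ZMod p) {b}) = 1 :=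
      finrank_span_singleton hb0
    rw [h, finrank_top, hfr] at h1
    norm_num at h1

/-! ### Claim C: if `c ^ 2 = χ(σ)`, then `σ` acts on `V` as the scalar `c` -/

/-- **Claim C.** -/
theorem s59m_scalar_on_V [Nontrivial Z]
    (hfr : Module.finrank (ZMod p) V = 2)
    (hrelV : ∀ g : G, ∀ v : V, ρV g v + (χ g : ZMod p) • ρV g⁻¹ v = s g • v)
    (hrelZ : ∀ g : G, ∀ z : Z, ρZ g z + (χ g : ZMod p) • ρZ g⁻¹ z = s g • z)
    (hirr : ∀ U : Submodule (ZMod p) V, (∀ g : G, ∀ v ∈ U, ρV g v ∈ U) → U = ⊥ ∨ U = ⊤)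
    (σ : G) (c : ZMod p) (hσ : ∀ z : Z, ρZ σ z = c • z)
    (hsq : c ^ 2 = (χ σ : ZMod p)) (v : V) : ρV σ v = c • v := by
  classical
  obtain ⟨z₀, hz₀⟩ := exists_ne (0 : Z)
  have hc : c ≠ 0 := s59m_scalar_ne_zero ρZ σ c hσ
  haveI : Module.Finite (ZMod p) V := Module.finite_of_finrank_pos (by rw [hfr]; norm_num)
  -- `s σ = 2 c`
  have hs : s σ = 2 * c := by
    have h1 := hrelZ σ z₀
    rw [hσ, s59m_scalar_inv ρZ σ c hc hσ, smul_smul, ← add_smul, ← hsq] at h1
    have h2 : c ^ 2 * c⁻¹ = c := by rw [sq, mul_assoc, mul_inv_cancel₀ hc, mul_one]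
    rw [h2] at h1
    have h3 : (c + c - s σ) • z₀ = 0 := by rw [sub_smul, h1, sub_self]
    rcases smul_eq_zero.mp h3 with h4 | h4
    · rw [two_mul]; exact (sub_eq_zero.mp h4).symm
    · exact absurd h4 hz₀
  -- the nilpotent part `n = σ - c`
  set n : Module.End (ZMod p) V := ρV σ - c • (1 : Module.End (ZMod p) V) with hn
  have hnv : ∀ v : V, n v = ρV σ v - c • v := fun v => by
    rw [hn, LinearMap.sub_apply, LinearMap.smul_apply, Module.End.one_apply]
  have hn2 : ∀ v : V, n (n v) = 0 := by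
    intro v
    have h1 := s59m_quad χ s ρV hrelV σ v
    rw [hs, ← hsq] at h1
    rw [hnv, hnv, map_sub, map_smul, ← h1]
    module
  by_contra hcon
  have hnne : n v ≠ 0 := by
    rw [hnv]
    exact fun h => hcon (sub_eq_zero.mp h)
  -- `ker n` is a line
  have hker1 : Module.finrank (ZMod p) ↥(LinearMap.ker n) = 1 := by
    have h1 := LinearMap.finrank_range_add_finrank_ker n
    rw [hfr] at h1
    have h2 : LinearMap.range n ≤ LinearMap.ker n := by
      rintro _ ⟨x, rfl⟩
      exact LinearMap.mem_ker.mpr (hn2 x)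
    have h3 := Submodule.finrank_mono h2
    have h4 : 0 < Module.finrank (ZMod p) ↥(LinearMap.range n) := by
      rw [Module.finrank_pos_iff_exists_ne_zero]
      exact ⟨⟨n v, LinearMap.mem_range_self n v⟩, fun h => hnne (congrArg Subtype.val h)⟩
    have h5 : Module.finrank (ZMod p) ↥(LinearMap.ker n) ≠ 2 := by
      intro h
      omega
    omega
  -- commutators with `σ` are unipotent on `V`
  have hU : ∀ g : G, ∀ x : V, ρV (σ * g * σ⁻¹ * g⁻¹) (ρV (σ * g * σ⁻¹ * g⁻¹) x) -
      (2 : ZMod p) • ρV (σ * g * σ⁻¹ * g⁻¹) x + x = 0 := by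
    intro g x
    set u : G := σ * g * σ⁻¹ * g⁻¹ with hu
    have huZ : ∀ z : Z, ρZ u z = z := by
      intro z
      rw [hu, s59m_rho_mul_apply, s59m_rho_mul_apply, s59m_rho_mul_apply, hσ,
        s59m_scalar_inv ρZ σ c hc hσ, map_smul, s59m_rho_apply_inv, smul_smul,
        mul_inv_cancel₀ hc, one_smul]
    have huχ : χ u = 1 := by
      rw [hu, map_mul, map_mul, map_mul, map_inv, map_inv, mul_comm (χ σ) (χ g), mul_assoc (χ g),
        mul_inv_cancel, mul_one, mul_inv_cancel]
    have huZinv : ∀ z : Z, ρZ u⁻¹ z = z := by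
      intro z
      have h1 := s59m_rho_inv_apply ρZ u z
      rwa [huZ] at h1
    have hsu : s u = 2 := by
      have h1 := hrelZ u z₀
      rw [huZ, huZinv, huχ, Units.val_one, one_smul] at h1
      have h2 : ((2 : ZMod p) - s u) • z₀ = 0 := by rw [sub_smul, ← h1, two_smul, sub_self]
      rcases smul_eq_zero.mp h2 with h3 | h3
      · exact (sub_eq_zero.mp h3).symm
      · exact absurd h3 hz₀
    have h1 := s59m_quad χ s ρV hrelV u x
    rw [hsu, huχ, Units.val_one, one_smul] at h1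
    exact h1
  -- `σ` on `ker n`
  have hσker : ∀ x : V, n x = 0 → ρV σ x = c • x := fun x hx => by
    rw [hnv] at hx
    exact sub_eq_zero.mp hx
  have hσinvker : ∀ x : V, n x = 0 → ρV σ⁻¹ x = c⁻¹ • x := fun x hx => by
    have h1 := s59m_rho_inv_apply ρV σ (c⁻¹ • x)
    rw [map_smul, hσker x hx, smul_smul, inv_mul_cancel₀ hc, one_smul] at h1
    exact h1
  -- `ker n` is stable under `G`
  have hst : ∀ g : G, ∀ x ∈ LinearMap.ker n, ρV g x ∈ LinearMap.ker n := by
    -- first: `g⁻¹` maps `ker n` into itself whenever `g` does not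
    have key : ∀ g : G, ∀ x₀ : V, n x₀ = 0 → n (ρV g x₀) ≠ 0 →
        ∀ y ∈ LinearMap.ker n, ρV g⁻¹ y ∈ LinearMap.ker n := by
      intro g x₀ hx₀ hx₁ y hy
      set x₁ : V := ρV g x₀ with hx₁def
      set w : V := n x₁ with hw
      have hwker : n w = 0 := hn2 x₁
      set u : G := σ * g * σ⁻¹ * g⁻¹ with hu
      -- `u x₁ = x₁ + c⁻¹ w`
      have hux₁ : ρV u x₁ = x₁ + c⁻¹ • w := by
        rw [hu, s59m_rho_mul_apply, s59m_rho_mul_apply, s59m_rho_mul_apply, hx₁def,
          s59m_rho_inv_apply, hσinvker x₀ hx₀, map_smul, map_smul, ← hx₁def]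
        have h1 : ρV σ x₁ = c • x₁ + w := by rw [hw, hnv]; abel
        rw [h1, smul_add, smul_smul, inv_mul_cancel₀ hc, one_smul]
      -- `u w = w`
      have huw : ρV u w = w := by
        have h1 := hU g x₁
        rw [hux₁, map_add, map_smul, hux₁] at h1
        have h2 : c⁻¹ • (ρV u w - w) = 0 := by
          rw [← h1]
          module
        rcases smul_eq_zero.mp h2 with h3 | h3
        · exact absurd h3 (inv_ne_zero hc)
        · exact sub_eq_zero.mp h3
      -- hence `g⁻¹ w ∈ ker n`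
      have hgw : n (ρV g⁻¹ w) = 0 := by
        have h1 : ρV σ (ρV g (ρV σ⁻¹ (ρV g⁻¹ w))) = w := by
          have h0 := huw
          rw [hu, s59m_rho_mul_apply, s59m_rho_mul_apply, s59m_rho_mul_apply] at h0
          exact h0
        have h2 : ρV g (ρV σ⁻¹ (ρV g⁻¹ w)) = c⁻¹ • w := by
          have h3 := congrArg (ρV σ⁻¹) h1
          rw [s59m_rho_inv_apply, hσinvker w hwker] at h3
          exact h3
        have h4 : ρV σ⁻¹ (ρV g⁻¹ w) = c⁻¹ • ρV g⁻¹ w := by
          have h3 := congrArg (ρV g⁻¹) h2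
          rw [s59m_rho_inv_apply, map_smul] at h3
          exact h3
        have h5 : ρV σ (ρV g⁻¹ w) = c • ρV g⁻¹ w := by
          have h3 := congrArg (ρV σ) h4
          rw [s59m_rho_apply_inv, map_smul] at h3
          have h6 := congrArg (fun t => c • t) h3
          simp only [smul_smul, mul_inv_cancel₀ hc, one_smul] at h6
          exact h6.symm
        rw [hnv, h5, sub_self]
      -- `w` spans `ker n`
      have hw0 : w ≠ 0 := hx₁
      have hwmem : w ∈ LinearMap.ker n := LinearMap.mem_ker.mpr hwker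
      obtain ⟨a, ha⟩ := (finrank_eq_one_iff_of_nonzero' (⟨w, hwmem⟩ : ↥(LinearMap.ker n))
        (fun h => hw0 (congrArg Subtype.val h))).mp hker1 ⟨y, hy⟩
      have hy' : y = a • w := by
        have := congrArg Subtype.val ha
        exact this.symm
      rw [hy', map_smul, LinearMap.mem_ker, map_smul, hgw, smul_zero]
    intro g x hx
    by_contra hgx
    have hx' : n x = 0 := LinearMap.mem_ker.mp hx
    have hgx' : n (ρV g x) ≠ 0 := fun h => hgx (LinearMap.mem_ker.mpr h)
    -- `g⁻¹` preserves `ker n`, hence is a bijection of it, hence `g` preserves it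
    have hinv := key g x hx' hgx'
    set f : ↥(LinearMap.ker n) →ₗ[ZMod p] ↥(LinearMap.ker n) :=
      (ρV g⁻¹).restrict hinv with hf
    have hfinj : Function.Injective f := by
      intro a b hab
      have h1 : ρV g⁻¹ (a : V) = ρV g⁻¹ (b : V) := congrArg Subtype.val hab
      have h2 := congrArg (ρV g) h1
      rw [s59m_rho_apply_inv, s59m_rho_apply_inv] at h2
      exact Subtype.ext h2
    haveI : FiniteDimensional (ZMod p) ↥(LinearMap.ker n) := inferInstance
    have hfsurj : Function.Surjective f := LinearMap.injective_iff_surjective.mp hfinj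
    obtain ⟨⟨y, hy⟩, hfy⟩ := hfsurj ⟨x, hx⟩
    have h1 : ρV g⁻¹ y = x := congrArg Subtype.val hfy
    apply hgx
    rw [← h1, s59m_rho_apply_inv]
    exact hy
  rcases hirr _ hst with h | h
  · rw [h, finrank_bot] at hker1
    exact absurd hker1 (by norm_num)
  · rw [h, finrank_top, hfr] at hker1
    exact absurd hker1 (by norm_num)

/-! ### The abstract endgame -/

/-- **The abstract endgame of Mazur's principle.** -/
theorem s59m_end_abs [Finite V] [Nontrivial Z]
    (hfr : Module.finrank (ZMod p) V = 2)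
    (hrelV : ∀ g : G, ∀ v : V, ρV g v + (χ g : ZMod p) • ρV g⁻¹ v = s g • v)
    (hrelZ : ∀ g : G, ∀ z : Z, ρZ g z + (χ g : ZMod p) • ρZ g⁻¹ z = s g • z)
    (hirr : ∀ U : Submodule (ZMod p) V, (∀ g : G, ∀ v ∈ U, ρV g v ∈ U) → U = ⊥ ∨ U = ⊤)
    (σ : G) (c : ZMod p) (hσ : ∀ z : Z, ρZ σ z = c • z) :
    c ^ 2 = (χ σ : ZMod p) ∧ ∀ v : V, ρV σ v = c • v := by
  have hsq : c ^ 2 = (χ σ : ZMod p) := by
    by_contra hne
    exact s59m_reducible_of_all_scalar ρV ρZ χ s hfr hrelV hrelZ hirr
      (fun g => s59m_all_scalar ρZ χ s hrelZ σ c hσ hne g)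
  exact ⟨hsq, fun v => s59m_scalar_on_V ρV ρZ χ s hfr hrelV hrelZ hirr σ c hσ hsq v⟩

end EndAbs

end Fermat.Agent.Lib.S59
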