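/-
Programme (R) / node [MP] (Mazur's principle), soft ENDGAME, concrete form (helper9, prefix `s59m_`).

* `s59m_end_gen`: the abstract endgame `s59m_end_abs` for two Galois-stable `p`-torsion subgroups
  `V ≤ A_V`, `Z ≤ A_Z` of abelian groups with a `DistribMulAction` of `G` (no `ZMod p`-module
  structures in the statement).
* `s59m_end`: the endgame for `V = W[p](ℚ̄)` and `Z ≤ J₀(N)[p]` a nonzero subgroup, stable under
  `G_ℚ` and the good Hecke operators, on which `T_ℓ = a_ℓ(W)`: if an element `σ` of `G_ℚ` acts on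
  `Z` as the integer scalar `c`, then `c ^ 2 = χ_p(σ)` in `𝔽_p` and `σ` acts on `W[p]` as `c`.
  (Input: the two-sided density relation `s44s_dens` on main and the irreducibility of `W[p]`.)
-/
import Fermat.Agent.Lib.S59.MEndAbs
import Fermat.Agent.Lib.S44.SoftRel
import Fermat.Agent.Lib.S41.AGalois
import Fermat.Agent.Lib.S58.OLevel

set_option autoImplicit false
set_option linter.style.haveILetI false
set_option linter.unusedSectionVars false

namespace Fermat.Agent.Lib.S59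

open Module ModularCurve WeierstrassCurve WeierstrassCurve.Affine
open Fermat.Agent.Lib.S33 Fermat.Agent.Lib.S41 Fermat.Agent.Lib.S44 Fermat.Agent.Lib.S58
open Fermat.Agent.Lib.EN

local notation "Γℚ" => (AlgebraicClosure ℚ ≃ₐ[ℚ] AlgebraicClosure ℚ)
local notation "Kb" => AlgebraicClosure ℚ

noncomputable section

section Gen

variable {G : Type*} [Group G] {p : ℕ} [hp : Fact p.Prime]
  {AV AZ : Type*} [AddCommGroup AV] [AddCommGroup AZ] [DistribMulAction G AV]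
  [DistribMulAction G AZ]

/-- the `ZMod p`-module structure on a `p`-torsion subgroup. -/
abbrev s59m_zmodOf {A : Type*} [AddCommGroup A] (Y : Submodule ℤ A)
    (ht : ∀ y ∈ Y, p • y = 0) : Module (ZMod p) ↥Y :=
  AddCommGroup.zmodModule (n := p) (fun y => Subtype.ext (by
    rw [Submodule.coe_smul_of_tower, Submodule.coe_zero]
    exact ht y y.2))

/-- the action of `G` on a stable `p`-torsion subgroup, by `ZMod p`-linear maps. -/
def s59m_rhoOf {A : Type*} [AddCommGroup A] [DistribMulAction G A] (Y : Submodule ℤ A)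
    [Module (ZMod p) ↥Y] (hg : ∀ g : G, ∀ y ∈ Y, g • y ∈ Y) :
    G →* Module.End (ZMod p) ↥Y where
  toFun := fun g =>
    (((DistribMulAction.toAddMonoidHom A g).comp Y.toAddSubgroup.subtype).codRestrict
      Y.toAddSubgroup (fun y => hg g y y.2)).toZModLinearMap p
  map_one' := by
    apply LinearMap.ext
    intro y
    apply Subtype.ext
    show (1 : G) • (y : A) = y
    rw [one_smul]
  map_mul' := by
    intro g h
    apply LinearMap.ext
    intro y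
    apply Subtype.ext
    show (g * h) • (y : A) = g • (h • (y : A))
    rw [mul_smul]

theorem s59m_rhoOf_coe {A : Type*} [AddCommGroup A] [DistribMulAction G A] (Y : Submodule ℤ A)
    [Module (ZMod p) ↥Y] (hg : ∀ g : G, ∀ y ∈ Y, g • y ∈ Y) (g : G) (y : ↥Y) :
    ((s59m_rhoOf (p := p) Y hg g y : ↥Y) : A) = g • (y : A) := rfl

theorem s59m_finrank_of_card {X : Type*} [AddCommGroup X] [Module (ZMod p) X]
    (hcard : Nat.card X = p ^ 2) : Module.finrank (ZMod p) X = 2 := by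
  have hpP : p.Prime := hp.out
  haveI : Finite X := Nat.finite_of_card_ne_zero (by rw [hcard]; exact pow_ne_zero 2 hpP.ne_zero)
  have h : Nat.card X = Nat.card (ZMod p) ^ finrank (ZMod p) X := Module.natCard_eq_pow_finrank
  rw [hcard, Nat.card_zmod] at h
  exact (Nat.pow_right_injective hpP.two_le h).symm

/-- auxiliary form of `s59m_end_gen` with the `ZMod p`-module structures as instance arguments. -/
theorem s59m_end_gen_aux (V : Submodule ℤ AV) (Z : Submodule ℤ AZ)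
    [Module (ZMod p) ↥V] [Module (ZMod p) ↥Z]
    (hVg : ∀ g : G, ∀ v ∈ V, g • v ∈ V) (hZg : ∀ g : G, ∀ z ∈ Z, g • z ∈ Z)
    (hcard : Nat.card ↥V = p ^ 2) (hZne : ∃ z ∈ Z, z ≠ 0)
    (χ : G →* (ZMod p)ˣ)
    (hrel : ∀ g : G, ∃ s : ℤ,
      (∀ z ∈ Z, g • z + ((χ g : ZMod p).val) • g⁻¹ • z = s • z) ∧
      (∀ v ∈ V, g • v + ((χ g : ZMod p).val) • g⁻¹ • v = s • v))
    (hirr : ∀ U : AddSubgroup AV, U ≤ V.toAddSubgroup → (∀ g : G, ∀ v ∈ U, g • v ∈ U) →
      U = ⊥ ∨ U = V.toAddSubgroup)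
    (σ : G) (c : ℤ) (hσ : ∀ z ∈ Z, σ • z = c • z) :
    ((c : ZMod p)) ^ 2 = (χ σ : ZMod p) ∧ ∀ v ∈ V, σ • v = c • v := by
  have hpP : p.Prime := hp.out
  haveI : Finite ↥V := Nat.finite_of_card_ne_zero (by rw [hcard]; exact pow_ne_zero 2 hpP.ne_zero)
  haveI : Nontrivial ↥Z := by
    obtain ⟨z, hz, hz0⟩ := hZne
    exact ⟨⟨⟨z, hz⟩, 0, fun h => hz0 (congrArg Subtype.val h)⟩⟩
  have hfr : Module.finrank (ZMod p) ↥V = 2 := s59m_finrank_of_card hcard
  choose s hs using hrel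
  -- casts
  have hvalcast : ∀ g : G, (((χ g : ZMod p).val : ℕ) : ZMod p) = (χ g : ZMod p) := fun g =>
    ZMod.natCast_zmod_val _
  have hrelV : ∀ g : G, ∀ v : ↥V,
      s59m_rhoOf (p := p) V hVg g v + (χ g : ZMod p) • s59m_rhoOf (p := p) V hVg g⁻¹ v =
        ((s g : ℤ) : ZMod p) • v := by
    intro g v
    rw [← hvalcast g, Nat.cast_smul_eq_nsmul, Int.cast_smul_eq_zsmul]
    apply Subtype.ext
    rw [Submodule.coe_add, Submodule.coe_smul_of_tower, Submodule.coe_smul_of_tower,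
      s59m_rhoOf_coe, s59m_rhoOf_coe]
    exact (hs g).2 v v.2
  have hrelZ : ∀ g : G, ∀ z : ↥Z,
      s59m_rhoOf (p := p) Z hZg g z + (χ g : ZMod p) • s59m_rhoOf (p := p) Z hZg g⁻¹ z =
        ((s g : ℤ) : ZMod p) • z := by
    intro g z
    rw [← hvalcast g, Nat.cast_smul_eq_nsmul, Int.cast_smul_eq_zsmul]
    apply Subtype.ext
    rw [Submodule.coe_add, Submodule.coe_smul_of_tower, Submodule.coe_smul_of_tower,
      s59m_rhoOf_coe, s59m_rhoOf_coe]
    exact (hs g).1 z z.2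
  have hirr' : ∀ U : Submodule (ZMod p) ↥V,
      (∀ g : G, ∀ v ∈ U, s59m_rhoOf (p := p) V hVg g v ∈ U) → U = ⊥ ∨ U = ⊤ := by
    intro U hU
    -- push `U` to a subgroup of `AV`
    set U' : AddSubgroup AV := U.toAddSubgroup.map V.toAddSubgroup.subtype with hU'
    have hU'le : U' ≤ V.toAddSubgroup := by
      rintro _ ⟨v, -, rfl⟩
      exact v.2
    have hU'g : ∀ g : G, ∀ v ∈ U', g • v ∈ U' := by
      rintro g _ ⟨v, hv, rfl⟩
      exact ⟨s59m_rhoOf (p := p) V hVg g v, hU g v hv, rfl⟩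
    have hmem : ∀ v : ↥V, (v : AV) ∈ U' ↔ v ∈ U := by
      intro v
      constructor
      · rintro ⟨w, hw, hwv⟩
        have : w = v := Subtype.ext hwv
        rw [← this]
        exact hw
      · intro hv
        exact ⟨v, hv, rfl⟩
    rcases hirr U' hU'le hU'g with h | h
    · left
      rw [eq_bot_iff]
      intro v hv
      have h1 : (v : AV) ∈ U' := (hmem v).mpr hv
      rw [h] at h1
      rw [Submodule.mem_bot]
      exact Subtype.ext ((AddSubgroup.mem_bot).mp h1)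
    · right
      rw [eq_top_iff]
      intro v _
      have h1 : (v : AV) ∈ U' := by
        rw [h]
        exact v.2
      exact (hmem v).mp h1
  have hσ' : ∀ z : ↥Z, s59m_rhoOf (p := p) Z hZg σ z = ((c : ℤ) : ZMod p) • z := by
    intro z
    rw [Int.cast_smul_eq_zsmul]
    apply Subtype.ext
    rw [Submodule.coe_smul_of_tower, s59m_rhoOf_coe]
    exact hσ z z.2
  obtain ⟨h1, h2⟩ := s59m_end_abs (s59m_rhoOf (p := p) V hVg) (s59m_rhoOf (p := p) Z hZg) χ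
    (fun g => ((s g : ℤ) : ZMod p)) hfr hrelV hrelZ hirr' σ ((c : ℤ) : ZMod p) hσ'
  refine ⟨h1, fun v hv => ?_⟩
  have h3 := h2 ⟨v, hv⟩
  rw [Int.cast_smul_eq_zsmul] at h3
  have h4 := congrArg (fun x : ↥V => (x : AV)) h3
  simp only [Submodule.coe_smul_of_tower, s59m_rhoOf_coe] at h4
  exact h4

/-- **The endgame for two stable `p`-torsion subgroups.** -/
theorem s59m_end_gen (V : Submodule ℤ AV) (Z : Submodule ℤ AZ)
    (hVt : ∀ v ∈ V, p • v = 0) (hZt : ∀ z ∈ Z, p • z = 0)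
    (hVg : ∀ g : G, ∀ v ∈ V, g • v ∈ V) (hZg : ∀ g : G, ∀ z ∈ Z, g • z ∈ Z)
    (hcard : Nat.card ↥V = p ^ 2) (hZne : ∃ z ∈ Z, z ≠ 0)
    (χ : G →* (ZMod p)ˣ)
    (hrel : ∀ g : G, ∃ s : ℤ,
      (∀ z ∈ Z, g • z + ((χ g : ZMod p).val) • g⁻¹ • z = s • z) ∧
      (∀ v ∈ V, g • v + ((χ g : ZMod p).val) • g⁻¹ • v = s • v))
    (hirr : ∀ U : AddSubgroup AV, U ≤ V.toAddSubgroup → (∀ g : G, ∀ v ∈ U, g • v ∈ U) →
      U = ⊥ ∨ U = V.toAddSubgroup)
    (σ : G) (c : ℤ) (hσ : ∀ z ∈ Z, σ • z = c • z) :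
    ((c : ZMod p)) ^ 2 = (χ σ : ZMod p) ∧ ∀ v ∈ V, σ • v = c • v :=
  @s59m_end_gen_aux G _ p hp AV AZ _ _ _ _ V Z (s59m_zmodOf (p := p) V hVt)
    (s59m_zmodOf (p := p) Z hZt) hVg hZg hcard hZne χ hrel hirr σ c hσ

end Gen

section Concrete

variable (W : WeierstrassCurve ℤ) (hΔ : W.Δ ≠ 0) {p : ℕ} [hp : Fact p.Prime]

theorem s59m_Wp_eq_torsionBy :
    s44s_Wp W p = Submodule.torsionBy ℤ (s58_Pt W) ((p : ℕ) : ℤ) := by
  ext Q
  rw [s44s_mem_Wp, Submodule.mem_torsionBy_iff, natCast_zsmul]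

include hΔ in
theorem s59m_card_Wp : Nat.card ↥(s44s_Wp W p) = p ^ 2 := by
  haveI := s58o_isElliptic W hΔ
  rw [s59m_Wp_eq_torsionBy]
  exact ent_natCard_torsionBy ((W.map (Int.castRingHom ℚ)).toAffine⁄Kb) p hp.out.one_le

/-- irreducibility of `W[p]` in terms of Galois-stable subgroups of `W(ℚ̄)`. -/
theorem s59m_irr_Wp (hirr : W.ModRepIsIrreducible p) (U : AddSubgroup (s58_Pt W))
    (hU : U ≤ (s44s_Wp W p).toAddSubgroup) (hUg : ∀ g : Γℚ, ∀ v ∈ U, g • v ∈ U) :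
    U = ⊥ ∨ U = (s44s_Wp W p).toAddSubgroup := by
  set T := Submodule.torsionBy ℤ (s58_Pt W) ((p : ℕ) : ℤ) with hT
  set N : Submodule (ZMod p) ↥T :=
    AddSubgroup.toZModSubmodule p (U.comap T.toAddSubgroup.subtype) with hN
  have hmem : ∀ x : ↥T, x ∈ N ↔ (x : s58_Pt W) ∈ U := fun x => Iff.rfl
  have hst : Affine.Point.IsGaloisStable (K := Kb) ℚ N := by
    intro σ x hx
    rw [hmem] at hx ⊢
    exact hUg σ _ hx
  rcases hirr.2 N hst with h | h
  · left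
    rw [eq_bot_iff]
    intro v hv
    have hvT : v ∈ T := by
      rw [hT, ← s59m_Wp_eq_torsionBy]
      exact hU hv
    have h1 : (⟨v, hvT⟩ : ↥T) ∈ N := (hmem _).mpr hv
    rw [h, Submodule.mem_bot] at h1
    rw [AddSubgroup.mem_bot]
    exact congrArg Subtype.val h1
  · right
    apply le_antisymm hU
    intro v hv
    have hvT : v ∈ T := by
      rw [hT, ← s59m_Wp_eq_torsionBy]
      exact hv
    have h1 : (⟨v, hvT⟩ : ↥T) ∈ N := by
      rw [h]
      exact Submodule.mem_top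
    exact (hmem _).mp h1

include hΔ in
/-- **The soft endgame of Mazur's principle**, with the irreducibility of `W[p]` as a statement on the
Galois-stable subgroups of `W(ℚ̄)` (so that it can be transported from another model of the same curve). -/
theorem s59m_end' (hp2 : p ≠ 2)
    (hirrU : ∀ U : AddSubgroup (s58_Pt W), U ≤ (s44s_Wp W p).toAddSubgroup →
      (∀ g : Γℚ, ∀ v ∈ U, g • v ∈ U) → U = ⊥ ∨ U = (s44s_Wp W p).toAddSubgroup)
    {N : ℕ} [NeZero N]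
    {S₁ : Finset ℕ} (hpS : p ∈ S₁) (hNS : ∀ q : ℕ, q.Prime → q ∣ N → q ∈ S₁)
    (hΔS : ∀ q : ℕ, q.Prime → (q : ℤ) ∣ W.Δ → q ∈ S₁)
    {Z : Submodule ℤ (JZero N)} (hZ : s33r_Stable N p S₁ Z)
    (hZeig : ∀ ℓ : Nat.Primes, (ℓ : ℕ) ∉ S₁ → ∀ y ∈ Z,
      heckeOperatorBar N ℓ y = W.apOfModel ℓ • y)
    (hZne : ∃ z ∈ Z, z ≠ 0) (σ : Γℚ) (c : ℤ) (hσ : ∀ z ∈ Z, σ • z = c • z) :
    ((c : ZMod p)) ^ 2 = ((s33r_chi p σ : (ZMod p)ˣ) : ZMod p) ∧
      ∀ Q : s58_Pt W, p • Q = 0 → σ • Q = c • Q := by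
  have h := s59m_end_gen (G := Γℚ) (p := p) (s44s_Wp W p) Z (fun v hv => hv) hZ.tors
    (s44s_Wp_gal W p) hZ.gal (s59m_card_Wp W hΔ) hZne (s33r_chi p)
    (fun g => by
      obtain ⟨s, h1, h2⟩ := s44s_dens W hΔ hp2 hpS hNS hΔS hZ hZeig g
      exact ⟨s, h1, fun v hv => h2 v hv⟩)
    hirrU σ c hσ
  exact ⟨h.1, fun Q hQ => h.2 Q hQ⟩

include hΔ in
/-- **The soft endgame of Mazur's principle.**  `Z ≠ 0` a subgroup of `J₀(N)[p]`, stable under
`G_ℚ` and the `T_ℓ` (`ℓ ∉ S₁`), with `T_ℓ = a_ℓ(W)` on `Z`.  If `σ ∈ G_ℚ` acts on `Z` as the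
integer `c`, then `c² = χ_p(σ)` in `𝔽_p` and `σ` acts on `W[p](ℚ̄)` as `c`. -/
theorem s59m_end (hp2 : p ≠ 2) (hirr : W.ModRepIsIrreducible p) {N : ℕ} [NeZero N]
    {S₁ : Finset ℕ} (hpS : p ∈ S₁) (hNS : ∀ q : ℕ, q.Prime → q ∣ N → q ∈ S₁)
    (hΔS : ∀ q : ℕ, q.Prime → (q : ℤ) ∣ W.Δ → q ∈ S₁)
    {Z : Submodule ℤ (JZero N)} (hZ : s33r_Stable N p S₁ Z)
    (hZeig : ∀ ℓ : Nat.Primes, (ℓ : ℕ) ∉ S₁ → ∀ y ∈ Z,
      heckeOperatorBar N ℓ y = W.apOfModel ℓ • y)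
    (hZne : ∃ z ∈ Z, z ≠ 0) (σ : Γℚ) (c : ℤ) (hσ : ∀ z ∈ Z, σ • z = c • z) :
    ((c : ZMod p)) ^ 2 = ((s33r_chi p σ : (ZMod p)ˣ) : ZMod p) ∧
      ∀ Q : s58_Pt W, p • Q = 0 → σ • Q = c • Q :=
  s59m_end' W hΔ hp2 (s59m_irr_Wp W hirr) hpS hNS hΔS hZ hZeig hZne σ c hσ

end Concrete

end

end Fermat.Agent.Lib.S59
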