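/-
Programme (R) / node [MP] (Mazur's principle), SOFT part (helper9, prefix `s59m_`), file 1:
the Atkin–Lehner involution `w_q` on `J₀(M q)(ℚ̄)`.

* `s59m_gal_al`     : `w_q` commutes with the coefficientwise Galois action on `F̄(M q)`;
* `s59m_wq_wq`      : `w_q ∘ w_q = id` on `J₀(M q)`;
* `s59m_wq_smul`    : `w_q (σ • x) = σ • w_q x` (`σ ∈ G_ℚ`);
* `s59m_wq_hecke`   : `T_ℓ (w_q x) = w_q (T_ℓ x)` on `p`-torsion points, `ℓ ∤ M q p` (Eichler–Shimura).
-/
import Fermat.Agent.Lib.S59.MIface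
import Fermat.Agent.Lib.S33.LInj

set_option autoImplicit false
set_option linter.style.haveILetI false
set_option linter.unusedSectionVars false

namespace Fermat.Agent.Lib.S59

open ModularCurve AlgebraicCurve Fermat.Agent.Lib.FF Fermat.Agent.Lib.S28 Fermat.Agent.Lib.S29
  Fermat.Agent.Lib.S37 Fermat.Agent.Lib.S35 Fermat.Agent.Lib.S33 Fermat.Agent.Lib.S44

noncomputable section

local notation "Kb" => AlgebraicClosure ℚ
local notation "Γℚ" => (AlgebraicClosure ℚ ≃ₐ[ℚ] AlgebraicClosure ℚ)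

section AL

variable (M q : ℕ) [NeZero M] [NeZero q] (hq : q.Prime) (hqM : ¬ q ∣ M)

/-- the coefficientwise Galois action fixes the generators `j(q^d)`. -/
theorem s59m_gal_gen (N : ℕ) [NeZero N] (σ : Γℚ) (D : s28w_Idx N) (x : ffi_F N)
    (hx : (x : LaurentSeries Kb) = s37w_gen N D) :
    arithmeticGalois (modularFunctionFieldFull N) σ • x = x := by
  apply Subtype.ext
  rw [coe_arithmeticGalois_smul, hx, s37w_gen, coeffMap_coeffEmb]

/-- **`w_q` commutes with the Galois action on the function field.** -/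
theorem s59m_gal_al (σ : Γℚ) (f : ffi_F (M * q)) :
    arithmeticGalois (modularFunctionFieldFull (M * q)) σ • (s37w_al M q hq hqM f) =
      s37w_al M q hq hqM (arithmeticGalois (modularFunctionFieldFull (M * q)) σ • f) := by
  set g := arithmeticGalois (modularFunctionFieldFull (M * q)) σ with hg
  set w := s37w_al M q hq hqM with hw
  -- the `ℚ̄`-algebra endomorphism `g⁻¹ ∘ w ∘ g`
  let ψ : ffi_F (M * q) →ₐ[Kb] ffi_F (M * q) :=
    { toFun := fun f => g⁻¹ • (w (g • f))
      map_one' := by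
        show g⁻¹ • (w (g • (1 : ffi_F (M * q)))) = 1
        rw [smul_one, map_one, smul_one]
      map_mul' := fun a b => by
        show g⁻¹ • (w (g • (a * b))) = g⁻¹ • (w (g • a)) * g⁻¹ • (w (g • b))
        rw [smul_mul', map_mul, smul_mul']
      map_zero' := by
        show g⁻¹ • (w (g • (0 : ffi_F (M * q)))) = 0
        rw [smul_zero, map_zero, smul_zero]
      map_add' := fun a b => by
        show g⁻¹ • (w (g • (a + b))) = g⁻¹ • (w (g • a)) + g⁻¹ • (w (g • b))
        rw [smul_add, map_add, smul_add]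
      commutes' := fun c => by
        show g⁻¹ • (w (g • (algebraMap Kb (ffi_F (M * q)) c))) = algebraMap Kb (ffi_F (M * q)) c
        rw [SemilinearAut.smul_algebraMap, AlgEquiv.commutes, ← SemilinearAut.smul_algebraMap,
          inv_smul_smul] }
  have hψ : ∀ f, ψ f = g⁻¹ • (w (g • f)) := fun f => rfl
  have key : ψ = (w : ffi_F (M * q) →ₐ[Kb] ffi_F (M * q)) := by
    refine s37w_algHom_ext (M * q) _ _ fun d x hx => ?_
    rw [hψ, s59m_gal_gen (M * q) σ d x hx]
    have h1 := s37w_al_gen M q hq hqM d x hx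
    have h2 : g • (w x) = w x := s59m_gal_gen (M * q) σ _ (w x) h1
    show g⁻¹ • (w x) = w x
    rw [inv_smul_eq_iff, h2]
  have h3 := AlgHom.congr_fun key f
  rw [hψ] at h3
  rw [inv_smul_eq_iff] at h3
  exact h3.symm

/-- the same, in the group of semilinear automorphisms. -/
theorem s59m_gal_al_comm (σ : Γℚ) :
    arithmeticGalois (modularFunctionFieldFull (M * q)) σ *
        SemilinearAut.ofAlgAut (s37w_al M q hq hqM) =
      SemilinearAut.ofAlgAut (s37w_al M q hq hqM) *
        arithmeticGalois (modularFunctionFieldFull (M * q)) σ := by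
  refine Subtype.ext (Prod.ext (RingEquiv.ext fun f => ?_) ?_)
  · exact s59m_gal_al M q hq hqM σ f
  · show SemilinearAut.baseAut _ * 1 = 1 * SemilinearAut.baseAut _
    rw [mul_one, one_mul]

/-- `w_q` is an involution on `J₀(M q)`. -/
theorem s59m_wq_wq (x : JZero (M * q)) : s59m_wq M q hq hqM (s59m_wq M q hq hqM x) = x := by
  rw [s59m_wq_apply, s59m_wq_apply, ← mul_smul, ← map_mul]
  have h1 : s37w_al M q hq hqM * s37w_al M q hq hqM = 1 :=
    AlgEquiv.ext fun f => s37w_al_al M q hq hqM f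
  rw [h1, map_one, one_smul]

/-- **`w_q` commutes with `G_ℚ` on `J₀(M q)`.** -/
theorem s59m_wq_smul (σ : Γℚ) (x : JZero (M * q)) :
    s59m_wq M q hq hqM (σ • x) = σ • s59m_wq M q hq hqM x := by
  rw [s59m_wq_apply, s59m_wq_apply, galois_smul_pic0_def, galois_smul_pic0_def, ← mul_smul,
    ← mul_smul, s59m_gal_al_comm]

/-- **`w_q` commutes with `T_ℓ` on `p`-torsion points** (`ℓ ∤ M q p`). -/
theorem s59m_wq_hecke (p : ℕ) (ℓ : Nat.Primes) (hℓ : ¬ (ℓ : ℕ) ∣ M * q * p)
    (x : JZero (M * q)) (hx : p • x = 0) :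
    s59m_wq M q hq hqM (heckeOperatorBar (M * q) ℓ x) =
      heckeOperatorBar (M * q) ℓ (s59m_wq M q hq hqM x) :=
  s33l_hecke_pt p (s59m_wq M q hq hqM) (fun σ y => s59m_wq_smul M q hq hqM σ y) ℓ hℓ hℓ x hx

end AL

end

end Fermat.Agent.Lib.S59
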