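/-
Programme (R) / node [MP] (Mazur's principle), SOFT part (helper9, prefix `s59m_`), file 2.

* `s59m_shrink` [XQ]  : an eigen-`p`-torsion point of `J₀(M)` for the system of `W` away from `B ∋ q`
                        (`q ∤ M p`, `W` good at `q`) is ALSO a `T_q`-eigenvector with eigenvalue `a_q(W)`
                        (Eichler–Shimura at `q` on both sides + the two-sided density relation).
* `s59m_H W p`        : the (normal) subgroup of `G_ℚ` acting trivially on `W[p](ℚ̄)` and on `μ_p`;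
                        it contains the inertia groups at the good primes `q ≠ p` (`s59m_inertia_mem_H`).
* `s59m_YH`           : the `H`-fixed points of the eigen-module `s44s_Y`, a `s33r_Stable` submodule,
                        non-zero as soon as the eigen-module is (`s59m_YH_ne`).
-/
import Fermat.Agent.Lib.S59.MSoft
import Fermat.Agent.Lib.S59.MEnd
import Fermat.Agent.Lib.S44.SoftLeaves
import Fermat.Agent.Lib.S58.E1Close

set_option autoImplicit false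
set_option linter.style.haveILetI false
set_option linter.unusedSectionVars false

namespace Fermat.Agent.Lib.S59

open ModularCurve AlgebraicCurve Fermat.Agent.Lib.FF Fermat.Agent.Lib.S28 Fermat.Agent.Lib.S29
  Fermat.Agent.Lib.S30 Fermat.Agent.Lib.S37 Fermat.Agent.Lib.S35 Fermat.Agent.Lib.S33
  Fermat.Agent.Lib.S44 Fermat.Agent.Lib.S58

noncomputable section

local notation "Kb" => AlgebraicClosure ℚ
local notation "Γℚ" => (AlgebraicClosure ℚ ≃ₐ[ℚ] AlgebraicClosure ℚ)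

/-- on `p`-torsion, natural multiples only depend on the class modulo `p`. -/
theorem s59m_nsmul_congr {A : Type*} [AddCommGroup A] {p : ℕ} [NeZero p] {n m : ℕ}
    (h : (n : ZMod p) = (m : ZMod p)) {z : A} (hz : p • z = 0) : n • z = m • z := by
  have h1 : n % p = m % p := (ZMod.natCast_eq_natCast_iff' n m p).mp h
  have key : ∀ k : ℕ, k • z = (k % p) • z := by
    intro k
    conv_lhs => rw [← Nat.mod_add_div k p]
    rw [add_nsmul, mul_comm, mul_nsmul', hz, nsmul_zero, add_zero]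
  rw [key n, key m, h1]

section Shrink

variable (W : WeierstrassCurve ℤ) (hΔ : W.Δ ≠ 0) {p : ℕ} [hp : Fact p.Prime] {M : ℕ} [NeZero M]
  {B : Finset ℕ}

include hΔ in
/-- **[XQ]** the `T_q`-eigenvalue of the eigen-module at level `M` is `a_q(W)`. -/
theorem s59m_shrink (hp2 : p ≠ 2) (hpB : p ∈ B) (hMB : ∀ r : ℕ, r.Prime → r ∣ M → r ∈ B)
    (hΔB : ∀ r : ℕ, r.Prime → (r : ℤ) ∣ W.Δ → r ∈ B)
    (q : ℕ) (hq : q.Prime) (hqM : ¬ q ∣ M) (hqp : q ≠ p) (hgood : W.IsGoodPrimeFor q)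
    (y : JZero M) (hy : s44i_Eig M p (fun ℓ => W.apOfModel ℓ) B y) :
    s44i_Eig M p (fun ℓ => W.apOfModel ℓ) (B.erase q) y := by
  have hpP : p.Prime := hp.out
  refine ⟨hy.1, fun ℓ hℓ => ?_⟩
  by_cases hℓB : (ℓ : ℕ) ∈ B
  swap
  · exact hy.2 ℓ hℓB
  have hℓq : (ℓ : ℕ) = q := by
    by_contra hne
    exact hℓ (Finset.mem_erase.mpr ⟨hne, hℓB⟩)
  obtain ⟨A, σ, hA, hσ⟩ := Fermat.Agent.Lib.Frobenius.exists_isFrobeniusAt q hq
  set a : ℕ → ℤ := fun ℓ => W.apOfModel ℓ with ha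
  have hstab := s44s_Y_stable M p B a
  have hyY : y ∈ s44s_Y M p B a := hy
  obtain ⟨s, hsY, hsW⟩ := s44s_dens W hΔ hp2 hpB hMB hΔB hstab
    (fun ℓ hℓ y hy => s44s_Y_eig M p B a ℓ hℓ y hy) σ
  set n : ℕ := (((s33r_chi p σ : (ZMod p)ˣ) : ZMod p)).val with hn
  have hnq : (n : ZMod p) = (q : ZMod p) := by
    rw [hn, ZMod.natCast_zmod_val, s33r_chi_frob p q hq hqp A hA σ hσ]
  -- Eichler–Shimura at level `M`
  have hqMp : ¬ q ∣ M * p := by
    intro h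
    rcases (Nat.Prime.dvd_mul hq).mp h with h | h
    · exact hqM h
    · exact hqp ((Nat.prime_dvd_prime_iff_eq hq hpP).mp h)
  have hx : p ^ 1 • (σ⁻¹ • y) = 0 := by
    rw [pow_one]
    exact hstab.tors _ (hstab.gal σ⁻¹ y hyY)
  have h1 := s29g_frobenius_quadratic M p q hq hqMp A hA σ hσ (σ⁻¹ • y) 1 hx
  rw [smul_inv_smul] at h1
  have hℓ' : ℓ = ⟨q, hq⟩ := Subtype.ext hℓq
  have hT : heckeOperatorBar M ℓ y = σ • y + q • σ⁻¹ • y := by
    rw [hℓ', ← sub_eq_zero, ← neg_eq_zero, ← h1]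
    abel
  have h2 : n • σ⁻¹ • y = q • σ⁻¹ • y :=
    s59m_nsmul_congr hnq (hstab.tors _ (hstab.gal σ⁻¹ y hyY))
  have h3 : heckeOperatorBar M ℓ y = s • y := by
    rw [hT, ← h2]
    exact hsY y hyY
  -- the `W`-side
  obtain ⟨Q₀, hQ₀, hQ₀'⟩ := s58o_ellExact W hΔ p hpP 0
  rw [zero_add, pow_one] at hQ₀
  rw [pow_zero, one_smul] at hQ₀'
  have hQ1 : p • (σ⁻¹ • Q₀) = 0 := s44s_Wp_gal W p σ⁻¹ Q₀ hQ₀
  have h4 := s44s_ellFrob W q hq hgood p hpP hp2 (Ne.symm hqp) 1 A hA σ hσ (σ⁻¹ • Q₀)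
    (by rw [pow_one]; exact hQ1)
  rw [smul_inv_smul] at h4
  have h5 := hsW Q₀ hQ₀
  have h6 : n • σ⁻¹ • Q₀ = q • σ⁻¹ • Q₀ := s59m_nsmul_congr hnq hQ1
  rw [h6] at h5
  have h7 : (s - W.apOfModel q) • Q₀ = 0 := by
    rw [sub_smul, ← h5, ← h4]
    abel
  obtain ⟨c, hc⟩ := s44s_dvd_of_zsmul_eq_zero hpP hQ₀ hQ₀' h7
  have hs : s = W.apOfModel q + (p : ℤ) * c := by rw [← hc]; ring
  rw [h3, hs, add_zsmul, mul_zsmul', natCast_zsmul, hy.1, zsmul_zero, add_zero, ha, hℓq]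

end Shrink

/-! ### The subgroup `H` acting trivially on `W[p]` and `μ_p` -/

section H

variable (W : WeierstrassCurve ℤ) (p : ℕ) [hp : Fact p.Prime]

/-- `H` is normal. -/
theorem s59m_H_conj {h : Γℚ} (hh : h ∈ s59m_H W p) (g : Γℚ) : g⁻¹ * h * g ∈ s59m_H W p := by
  obtain ⟨h1, h2⟩ := hh
  refine ⟨fun Q hQ => ?_, ?_⟩
  · rw [mul_smul, mul_smul, h1 (g • Q) (s44s_Wp_gal W p g Q hQ), inv_smul_smul]
  · rw [map_mul, map_mul, h2, mul_one, map_inv, inv_mul_cancel]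

/-- the inertia groups at the good primes `q ≠ p` lie in `H`. -/
theorem s59m_inertia_mem_H (hp2 : p ≠ 2) (q : ℕ) (hq : q.Prime) (hqp : q ≠ p)
    (hgood : W.IsGoodPrimeFor q) (A : ValuationSubring Kb) (hA : A.LiesOverPrime q)
    (τ : Γℚ) (hτ : τ ∈ A.inertiaSubgroupIn ℚ) : τ ∈ s59m_H W p := by
  refine ⟨fun Q hQ => ?_, ?_⟩
  · exact s58e_ellUnram W q hq hgood p hp.out hp2 (Ne.symm hqp) 1 A hA τ hτ Q
      (by rw [pow_one]; exact hQ)
  · have h1 : s30y_eps p τ = 1 := (s30y_cycDatum p).unram q hq hqp A hA τ hτ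
    show (Units.map (PadicInt.toZMod (p := p)).toMonoidHom) (s30y_eps p τ) = 1
    rw [h1, map_one]

end H

/-! ### The `H`-fixed points of the eigen-module -/

section YH

variable (W : WeierstrassCurve ℤ) (hΔ : W.Δ ≠ 0) (p : ℕ) [hp : Fact p.Prime] (N : ℕ) [NeZero N]
  (B : Finset ℕ)

/-- the `H`-fixed points of the eigen-module of `W` in `J₀(N)[p]`. -/
def s59m_YH : Submodule ℤ (JZero N) where
  carrier := {y | y ∈ s44s_Y N p B (fun ℓ => W.apOfModel ℓ) ∧ ∀ h ∈ s59m_H W p, h • y = y}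
  zero_mem' := ⟨Submodule.zero_mem _, fun h _ => smul_zero h⟩
  add_mem' := by
    rintro x y ⟨hx, hx'⟩ ⟨hy, hy'⟩
    exact ⟨Submodule.add_mem _ hx hy, fun h hh => by rw [smul_add, hx' h hh, hy' h hh]⟩
  smul_mem' := by
    rintro c x ⟨hx, hx'⟩
    refine ⟨Submodule.smul_mem _ c hx, fun h hh => ?_⟩
    have h1 := (DistribSMul.toAddMonoidHom (JZero N) h).map_zsmul c x
    have h2 : h • (c • x) = c • (h • x) := h1
    rw [h2, hx' h hh]

theorem s59m_mem_YH {y : JZero N} :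
    y ∈ s59m_YH W p N B ↔
      y ∈ s44s_Y N p B (fun ℓ => W.apOfModel ℓ) ∧ ∀ h ∈ s59m_H W p, h • y = y := Iff.rfl

theorem s59m_YH_eig {y : JZero N} (hy : y ∈ s59m_YH W p N B) :
    s44i_Eig N p (fun ℓ => W.apOfModel ℓ) B y := hy.1

/-- `Y^H` is stable under `G_ℚ` and the good Hecke operators. -/
theorem s59m_YH_stable : s33r_Stable N p B (s59m_YH W p N B) where
  tors := fun y hy => hy.1.1
  gal := by
    rintro σ y ⟨hy, hy'⟩
    refine ⟨(s44s_Y_stable N p B _).gal σ y hy, fun h hh => ?_⟩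
    have h1 := hy' _ (s59m_H_conj W p hh σ)
    rw [mul_smul, mul_smul, inv_smul_eq_iff] at h1
    exact h1
  hecke := by
    rintro ℓ hℓ y ⟨hy, hy'⟩
    refine ⟨(s44s_Y_stable N p B _).hecke ℓ hℓ y hy, fun h hh => ?_⟩
    rw [s44s_Y_eig N p B _ ℓ hℓ y hy]
    have h1 := (DistribSMul.toAddMonoidHom (JZero N) h).map_zsmul (W.apOfModel ℓ) y
    have h2 : h • (W.apOfModel ℓ • y) = W.apOfModel ℓ • (h • y) := h1
    rw [h2, hy' h hh]

include hΔ in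
/-- **[L7a′]** the `H`-fixed points of a non-zero eigen-module are non-zero. -/
theorem s59m_YH_ne (hp2 : p ≠ 2) (hpB : p ∈ B) (hNB : ∀ r : ℕ, r.Prime → r ∣ N → r ∈ B)
    (hΔB : ∀ r : ℕ, r.Prime → (r : ℤ) ∣ W.Δ → r ∈ B)
    (hex : ∃ x : JZero N, x ≠ 0 ∧ s44i_Eig N p (fun ℓ => W.apOfModel ℓ) B x) :
    ∃ y ∈ s59m_YH W p N B, y ≠ 0 := by
  classical
  have hpP : p.Prime := hp.out
  haveI : NeZero p := ⟨hpP.ne_zero⟩
  set a : ℕ → ℤ := fun ℓ => W.apOfModel ℓ with ha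
  set Y : Submodule ℤ (JZero N) := s44s_Y N p B a with hY
  have hstab : s33r_Stable N p B Y := s44s_Y_stable N p B a
  haveI : Finite ↥Y := by
    haveI := s30a_finite_torsion (N := N) p
    refine Finite.of_injective
      (fun y : ↥Y => (⟨(y : JZero N), by
        rw [AlgebraicCurve.Pic0.mem_torsion, natCast_zsmul]; exact y.2.1⟩ : s29k_Jp N p)) ?_
    intro y y' h
    exact Subtype.ext (congrArg (fun z : s29k_Jp N p => (z : JZero N)) h)
  obtain ⟨Q₀, hQ₀, hQ₀'⟩ := s58o_ellExact W hΔ p hpP 0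
  rw [zero_add, pow_one] at hQ₀
  rw [pow_zero, one_smul] at hQ₀'
  have hunip : ∀ h ∈ s59m_H W p, ∀ y ∈ Y, h • h • y + y = 2 • h • y := by
    intro h hh y hy
    obtain ⟨hV, hχ1⟩ := hh
    have hV' : ∀ Q : s58_Pt W, p • Q = 0 → h⁻¹ • Q = Q := fun Q hQ => by
      rw [inv_smul_eq_iff, hV Q hQ]
    have hχ : (((s33r_chi p h : (ZMod p)ˣ) : ZMod p)) = 1 := by rw [hχ1, Units.val_one]
    have hn : (((s33r_chi p h : (ZMod p)ˣ) : ZMod p)).val = 1 := by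
      rw [hχ]
      haveI : Fact (1 < p) := ⟨hpP.one_lt⟩
      exact ZMod.val_one p
    obtain ⟨s, hsY, hsW⟩ := s44s_dens W hΔ hp2 hpB hNB hΔB hstab
      (fun ℓ hℓ y hy => s44s_Y_eig N p B a ℓ hℓ y hy) h
    rw [hn] at hsY hsW
    have h2 := hsW Q₀ hQ₀
    rw [hV Q₀ hQ₀, hV' Q₀ hQ₀, one_smul] at h2
    have h3 : (s - 2) • Q₀ = 0 := by
      rw [sub_smul, ← h2, two_smul]
      abel
    obtain ⟨c, hc⟩ := s44s_dvd_of_zsmul_eq_zero hpP hQ₀ hQ₀' h3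
    have hy' : h • y ∈ Y := hstab.gal h y hy
    have h4 := hsY (h • y) hy'
    rw [inv_smul_smul, one_smul] at h4
    have hs : s = 2 + (p : ℤ) * c := by rw [← hc]; ring
    have h5 : s • (h • y) = 2 • (h • y) := by
      rw [hs, add_zsmul, mul_zsmul', natCast_zsmul, hstab.tors (h • y) hy', zsmul_zero,
        add_zero]
      exact ofNat_zsmul _ 2
    rw [h4, h5]
  obtain ⟨x, hx0, hx⟩ := hex
  obtain ⟨y, hyY, hy0, hyfix⟩ := s44s_fixed_ne p hstab.gal hstab.tors ⟨x, hx, hx0⟩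
    (s59m_H W p) hunip
  exact ⟨y, ⟨hyY, hyfix⟩, hy0⟩

end YH

/-! ### The `w_q`-eigenspaces of `Y^H` at level `M q` -/

section Eps

variable (W : WeierstrassCurve ℤ) (p : ℕ) [hp : Fact p.Prime]
  (M q : ℕ) [NeZero M] [NeZero q] (hq : q.Prime) (hqM : ¬ q ∣ M) (B : Finset ℕ)

/-- `w_q` preserves `Y^H` (`B` contains the primes dividing `M q p`). -/
theorem s59m_wq_mem_YH (hB : ∀ r : ℕ, r.Prime → r ∣ M * q * p → r ∈ B) {z : JZero (M * q)}
    (hz : z ∈ s59m_YH W p (M * q) B) : s59m_wq M q hq hqM z ∈ s59m_YH W p (M * q) B := by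
  obtain ⟨⟨hz1, hz2⟩, hz3⟩ := hz
  refine ⟨⟨?_, fun ℓ hℓ => ?_⟩, fun h hh => ?_⟩
  · rw [← map_nsmul, hz1, map_zero]
  · have hℓ' : ¬ (ℓ : ℕ) ∣ M * q * p := fun hd => hℓ (hB ℓ ℓ.2 hd)
    rw [← s59m_wq_hecke M q hq hqM p ℓ hℓ' z hz1, hz2 ℓ hℓ, map_zsmul]
  · rw [← s59m_wq_smul, hz3 h hh]

/-- the `ε`-eigenspace of `w_q` on `Y^H`. -/
def s59m_Zeps (ε : ℤ) : Submodule ℤ (JZero (M * q)) where
  carrier := {z | z ∈ s59m_YH W p (M * q) B ∧ s59m_wq M q hq hqM z = ε • z}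
  zero_mem' := ⟨Submodule.zero_mem _, by rw [map_zero, smul_zero]⟩
  add_mem' := by
    rintro x y ⟨hx, hx'⟩ ⟨hy, hy'⟩
    exact ⟨Submodule.add_mem _ hx hy, by rw [map_add, hx', hy', zsmul_add]⟩
  smul_mem' := by
    rintro c x ⟨hx, hx'⟩
    exact ⟨Submodule.smul_mem _ c hx, by rw [map_zsmul, hx', smul_comm]⟩

theorem s59m_mem_Zeps {ε : ℤ} {z : JZero (M * q)} :
    z ∈ s59m_Zeps W p M q hq hqM B ε ↔
      z ∈ s59m_YH W p (M * q) B ∧ s59m_wq M q hq hqM z = ε • z := Iff.rfl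

/-- the eigenspaces are stable under `G_ℚ` and the good Hecke operators. -/
theorem s59m_Zeps_stable (hB : ∀ r : ℕ, r.Prime → r ∣ M * q * p → r ∈ B) (ε : ℤ) :
    s33r_Stable (M * q) p B (s59m_Zeps W p M q hq hqM B ε) where
  tors := fun z hz => hz.1.1.1
  gal := by
    rintro σ z ⟨hz, hz'⟩
    refine ⟨(s59m_YH_stable W p (M * q) B).gal σ z hz, ?_⟩
    rw [s59m_wq_smul, hz']
    exact (DistribSMul.toAddMonoidHom (JZero (M * q)) σ).map_zsmul ε z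
  hecke := by
    rintro ℓ hℓ z ⟨hz, hz'⟩
    refine ⟨(s59m_YH_stable W p (M * q) B).hecke ℓ hℓ z hz, ?_⟩
    have hℓ' : ¬ (ℓ : ℕ) ∣ M * q * p := fun hd => hℓ (hB ℓ ℓ.2 hd)
    rw [s59m_wq_hecke M q hq hqM p ℓ hℓ' z hz.1.1, hz', map_zsmul]

/-- **a non-zero `w_q`-eigenspace**: if `Y^H ≠ 0` then one of the two eigenspaces is non-zero. -/
theorem s59m_exists_eps (hB : ∀ r : ℕ, r.Prime → r ∣ M * q * p → r ∈ B)
    (hne : ∃ y ∈ s59m_YH W p (M * q) B, y ≠ 0) :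
    ∃ ε : ℤ, (ε = 1 ∨ ε = -1) ∧ ∃ z ∈ s59m_Zeps W p M q hq hqM B ε, z ≠ 0 := by
  by_cases h1 : ∃ z ∈ s59m_Zeps W p M q hq hqM B 1, z ≠ 0
  · exact ⟨1, Or.inl rfl, h1⟩
  · refine ⟨-1, Or.inr rfl, ?_⟩
    obtain ⟨y, hy, hy0⟩ := hne
    refine ⟨y, ⟨hy, ?_⟩, hy0⟩
    have h2 : y + s59m_wq M q hq hqM y ∈ s59m_Zeps W p M q hq hqM B 1 := by
      refine ⟨Submodule.add_mem _ hy (s59m_wq_mem_YH W p M q hq hqM B hB hy), ?_⟩
      rw [map_add, s59m_wq_wq, one_smul, add_comm]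
    have h3 : y + s59m_wq M q hq hqM y = 0 := by
      by_contra hne0
      exact h1 ⟨_, h2, hne0⟩
    rw [neg_one_smul]
    exact (eq_neg_of_add_eq_zero_right h3)

end Eps

end

end Fermat.Agent.Lib.S59
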