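/-
Programme (R) / node [MP] (Mazur's principle): **TOP WIRING** (helper9, prefix `s59m_`).

`s59m_MP'_at` : [MP′] at one level `(M, q)` (`ρ̄` unramified at `q`, NO hypothesis on the reduction of `W` at `q`)
from `s59m_Old` [M2′], `s59m_NonEis` (a non-Eisenstein prime) and `s59m_GeoAt p M q` [GEO];
`s59m_MP5_of : s59m_Old → s59m_NonEis → s59m_Geo → s59m_Geo3 → s59m_MP5` ([MP′] for `5 ≤ p`, `q` odd = what S43 needs).

Everything soft is proved here and in `MSoft`, `MSoftB`, `MEnd`, `MEndAbs`: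
* [M1] `s44s_eigExists` (main) gives a non-zero eigen-point `x₀ ∈ J₀(M q)[p]`;
* if `ρ̄` is not modular of level `M`, then by [M2′] (+ [XQ] when `W` is good at `q`; when `W` is bad at `q`
  the prime `q` is not tested by `IsResiduallyModularOfLevel`) there is NO non-zero eigen-point at level `M`
  (away from `B`);
* `Z₀ = Y^H ≠ 0` (`H` = kernel of `G_ℚ` on `W[p] × μ_p`, contains the inertia at `q` by `s59_Unr`), stable under
  `G_ℚ`, the `T_ℓ` and `w_q`; `Z` := a non-zero `w_q`-eigenspace (`ε = ±1`);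
* [GEO] on `Z`: `σ z = − q w_q z = − ε q z` for a Frobenius `σ` at `q`;
* the endgame `s59m_end`: `(ε q)² = χ_p(σ) = q` in `𝔽_p`, i.e. `p ∣ q − 1`, and `σ` is the scalar
  `− ε q` on `W[p]`.
-/
import Fermat.Agent.Lib.S59.MSoftB
import Fermat.Agent.Lib.S59.Graph

set_option autoImplicit false
set_option linter.style.haveILetI false
set_option linter.unusedSectionVars false

namespace Fermat.Agent.Lib.S59

open ModularCurve AlgebraicCurve Fermat.Agent.Lib.FF Fermat.Agent.Lib.S28 Fermat.Agent.Lib.S29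
  Fermat.Agent.Lib.S30 Fermat.Agent.Lib.S37 Fermat.Agent.Lib.S35 Fermat.Agent.Lib.S33
  Fermat.Agent.Lib.S44 Fermat.Agent.Lib.S58 WeierstrassCurve

noncomputable section

local notation "Kb" => AlgebraicClosure ℚ
local notation "Γℚ" => (AlgebraicClosure ℚ ≃ₐ[ℚ] AlgebraicClosure ℚ)

/-- on `p`-torsion, integer multiples only depend on the class modulo `p`. -/
theorem s59m_zsmul_toNat {A : Type*} [AddCommGroup A] {p : ℕ} (hp0 : p ≠ 0) (c : ℤ) {z : A}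
    (hz : p • z = 0) : c • z = (c % (p : ℤ)).toNat • z := by
  have hp' : (p : ℤ) ≠ 0 := by exact_mod_cast hp0
  have h1 : 0 ≤ c % (p : ℤ) := Int.emod_nonneg c hp'
  have h2 : ((c % (p : ℤ)).toNat : ℤ) = c % (p : ℤ) := Int.toNat_of_nonneg h1
  rw [← natCast_zsmul, h2]
  conv_lhs => rw [← Int.emod_add_mul_ediv c (p : ℤ)]
  rw [add_zsmul, mul_zsmul', natCast_zsmul, hz, zsmul_zero, add_zero]

section Core

variable (W : WeierstrassCurve ℤ) (hΔ : W.Δ ≠ 0) {p : ℕ} [hp : Fact p.Prime]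
  (M q : ℕ) [NeZero M] [NeZero q] (hq : q.Prime) (hqM : ¬ q ∣ M)

include hΔ in
/-- **the soft core of [MP]**: a non-zero stable eigen-submodule `Z ⊂ J₀(M q)[p]` on which
`w_q = ε = ±1` and `σ = − q w_q` (`σ` a Frobenius at `q`) forces `p ∣ q − 1` and `σ` scalar on
`W[p]`. -/
theorem s59m_soft_core (hp2 : p ≠ 2)
    (hirrU : ∀ U : AddSubgroup (s58_Pt W), U ≤ (s44s_Wp W p).toAddSubgroup →
      (∀ g : Γℚ, ∀ v ∈ U, g • v ∈ U) → U = ⊥ ∨ U = (s44s_Wp W p).toAddSubgroup)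
    (hqp : q ≠ p)
    {B : Finset ℕ} (hpB : p ∈ B) (hNB : ∀ r : ℕ, r.Prime → r ∣ M * q → r ∈ B)
    (hΔB : ∀ r : ℕ, r.Prime → (r : ℤ) ∣ W.Δ → r ∈ B)
    {Z : Submodule ℤ (JZero (M * q))} (hZ : s33r_Stable (M * q) p B Z)
    (hZeig : ∀ ℓ : Nat.Primes, (ℓ : ℕ) ∉ B → ∀ y ∈ Z,
      heckeOperatorBar (M * q) ℓ y = W.apOfModel ℓ • y)
    (hZne : ∃ z ∈ Z, z ≠ 0) (ε : ℤ) (hε : ε = 1 ∨ ε = -1)
    (hw : ∀ z ∈ Z, s59m_wq M q hq hqM z = ε • z)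
    (A : ValuationSubring Kb) (hA : A.LiesOverPrime q) (σ : Γℚ) (hσ : A.IsFrobeniusAt σ q)
    (hgeo : ∀ z ∈ Z, σ • z = (-(q : ℤ)) • s59m_wq M q hq hqM z) :
    p ∣ q - 1 ∧ ∃ c : ℕ, ∀ Q : s58_Pt W, p • Q = 0 → σ • Q = c • Q := by
  have hpP : p.Prime := hp.out
  have hσZ : ∀ z ∈ Z, σ • z = (-(q : ℤ) * ε) • z := by
    intro z hz
    rw [hgeo z hz, hw z hz, mul_smul]
  obtain ⟨h1, h2⟩ := s59m_end' W hΔ hp2 hirrU hpB hNB hΔB hZ hZeig hZne σ (-(q : ℤ) * ε) hσZ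
  rw [s33r_chi_frob p q hq hqp A hA σ hσ] at h1
  have hε2 : ((ε : ZMod p)) ^ 2 = 1 := by
    rcases hε with h | h <;> rw [h] <;> push_cast <;> ring
  have h3 : ((q : ZMod p)) * ((q : ZMod p) - 1) = 0 := by
    have : ((q : ZMod p)) ^ 2 = (q : ZMod p) := by
      have h1' : (((-(q : ℤ) * ε : ℤ)) : ZMod p) ^ 2 = ((q : ZMod p)) ^ 2 := by
        push_cast
        rw [mul_pow, hε2, mul_one, neg_sq]
      rw [← h1']
      exact h1
    rw [mul_sub, mul_one, ← pow_two, this, sub_self]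
  have hq0 : (q : ZMod p) ≠ 0 := by
    rw [Ne, ZMod.natCast_eq_zero_iff]
    intro h
    exact hqp ((Nat.prime_dvd_prime_iff_eq hpP hq).mp h).symm
  have hq1 : (q : ZMod p) = ((1 : ℕ) : ZMod p) := by
    rcases mul_eq_zero.mp h3 with h | h
    · exact absurd h hq0
    · rw [Nat.cast_one]
      exact sub_eq_zero.mp h
  refine ⟨?_, (-(q : ℤ) * ε % (p : ℤ)).toNat, fun Q hQ => ?_⟩
  · have h4 : q ≡ 1 [MOD p] := (ZMod.natCast_eq_natCast_iff q 1 p).mp hq1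
    exact (Nat.modEq_iff_dvd' hq.one_le).mp h4.symm
  · rw [h2 Q hQ]
    exact s59m_zsmul_toNat hpP.ne_zero _ hQ

end Core

/-- **a non-Eisenstein prime** (helper6's `s59q_nonEis`, verbatim). -/
def s59m_NonEis : Prop :=
  ∀ {W : WeierstrassCurve ℤ} {p : ℕ} [Fact p.Prime], W.Δ ≠ 0 → p ≠ 2 → W.ModRepIsIrreducible p →
    ∀ B : Finset ℕ, ∃ ℓ : ℕ, ℓ.Prime ∧ ℓ ∉ B ∧ W.IsGoodPrimeFor ℓ ∧
      ¬ (p : ℤ) ∣ W.apOfModel ℓ - (ℓ + 1)

/-- the inertia groups at the primes `q ≠ p` where `W[p]` is unramified lie in `H`. -/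
theorem s59m_inertia_mem_H' (W : WeierstrassCurve ℤ) (p : ℕ) [hp : Fact p.Prime] (q : ℕ)
    (hq : q.Prime) (hqp : q ≠ p) (hunr : s59_Unr W p q) (A : ValuationSubring Kb)
    (hA : A.LiesOverPrime q) (τ : Γℚ) (hτ : τ ∈ A.inertiaSubgroupIn ℚ) : τ ∈ s59m_H W p := by
  refine ⟨fun Q hQ => hunr A hA τ hτ Q hQ, ?_⟩
  have h1 : s30y_eps p τ = 1 := (s30y_cycDatum p).unram q hq hqp A hA τ hτ
  show (Units.map (PadicInt.toZMod (p := p)).toMonoidHom) (s30y_eps p τ) = 1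
  rw [h1, map_one]

/-- **[MP′] at the level `(M, q)`, CORE FORM** (fixed set `B ⊇ {r ∣ M q p} ∪ {r ∣ Δ_W}`, `LevelOcc` vocabulary, the
irreducibility of `W[p]` and "inertia at `q` ⊆ `H`" as hypotheses on `W(ℚ̄)` so that they can be transported from
another model of the same curve; a non-Eisenstein prime outside `B` given). -/
theorem s59m_MP_core (hOld : s59m_Old) {p : ℕ} [hpF : Fact p.Prime] (hp2 : p ≠ 2)
    (W : WeierstrassCurve ℤ) (hΔ : W.Δ ≠ 0)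
    (hirrU : ∀ U : AddSubgroup (s58_Pt W), U ≤ (s44s_Wp W p).toAddSubgroup →
      (∀ g : Γℚ, ∀ v ∈ U, g • v ∈ U) → U = ⊥ ∨ U = (s44s_Wp W p).toAddSubgroup)
    (M q : ℕ) [NeZero M] [NeZero q] (hq : q.Prime) (hqM : ¬ q ∣ M) (hqp : q ≠ p)
    (hinH : ∀ A : ValuationSubring Kb, A.LiesOverPrime q → ∀ τ ∈ A.inertiaSubgroupIn ℚ,
      τ ∈ s59m_H W p)
    (hGeo : s59m_GeoAt p M q hq hqM)
    (B : Finset ℕ) (hB1 : ∀ r : ℕ, r.Prime → r ∣ M * q * p → r ∈ B)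
    (hΔB : ∀ r : ℕ, r.Prime → (r : ℤ) ∣ W.Δ → r ∈ B)
    (hne : ∃ ℓ₀ : Nat.Primes, (ℓ₀ : ℕ) ∉ B ∧ ¬ (p : ℤ) ∣ W.apOfModel ℓ₀ - ((ℓ₀ : ℕ) + 1))
    (hres : s44i_LevelOcc (M * q) p (fun ℓ => W.apOfModel ℓ) B) :
    s44i_LevelOcc M p (fun ℓ => W.apOfModel ℓ) B ∨ (p ∣ q - 1 ∧ s59_FrobScalar W p q) := by
  classical
  have hp : p.Prime := hpF.out
  set a : ℕ → ℤ := fun ℓ => W.apOfModel ℓ with ha
  have hpB : p ∈ B := hB1 p hp (Dvd.intro_left _ rfl)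
  have hNB : ∀ r : ℕ, r.Prime → r ∣ M * q → r ∈ B := fun r hr hd => hB1 r hr (hd.mul_right _)
  have hMB : ∀ r : ℕ, r.Prime → r ∣ M → r ∈ B := fun r hr hd => hNB r hr (hd.mul_right _)
  have hB'1 : ∀ r : ℕ, r.Prime → r ∣ M * p → r ∈ B := by
    intro r hr hd
    rcases (Nat.Prime.dvd_mul hr).mp hd with h | h
    · exact hMB r hr h
    · rw [(Nat.prime_dvd_prime_iff_eq hr hp).mp h]
      exact hpB
  by_cases hlev : s44i_LevelOcc M p a B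
  · exact Or.inl hlev
  right
  have KC : ∀ y : JZero M, y ≠ 0 → s44i_Eig M p a B y → False := fun y hy0 hy =>
    hlev (hOld M p hp hp2 a B hB'1 y hy0 hy)
  -- [M1]
  obtain ⟨f, 𝔪, hf, hmax, hpm, hcong⟩ := hres
  obtain ⟨x₀, hx₀, hE₀⟩ := s44s_eigExists (M * q) f hf p hp 𝔪 hmax hpm a B hB1 hcong
  -- a non-zero `w_q`-eigenspace of `Y^H`
  have hYH := s59m_YH_ne W hΔ p (M * q) B hp2 hpB hNB hΔB ⟨x₀, hx₀, hE₀⟩
  obtain ⟨ε, hε, hZne⟩ := s59m_exists_eps W p M q hq hqM B hB1 hYH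
  set Z := s59m_Zeps W p M q hq hqM B ε with hZdef
  have hZ : s33r_Stable (M * q) p B Z := s59m_Zeps_stable W p M q hq hqM B hB1 ε
  have hZeig : ∀ ℓ : Nat.Primes, (ℓ : ℕ) ∉ B → ∀ y ∈ Z,
      heckeOperatorBar (M * q) ℓ y = W.apOfModel ℓ • y :=
    fun ℓ hℓ y hy => hy.1.1.2 ℓ hℓ
  -- the conclusion for every Frobenius element at `q`
  have main : ∀ (A : ValuationSubring Kb), A.LiesOverPrime q → ∀ σ : Γℚ, A.IsFrobeniusAt σ q →
      p ∣ q - 1 ∧ ∃ c : ℕ, ∀ Q : s58_Pt W, p • Q = 0 → σ • Q = c • Q := by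
    intro A hA σ hσ
    refine s59m_soft_core W hΔ M q hq hqM hp2 hirrU hqp hpB hNB hΔB hZ hZeig hZne ε hε
      (fun z hz => hz.2) A hA σ hσ (fun z hz => ?_)
    have hE : s44i_Eig (M * q) p a B z := hz.1.1
    rcases hGeo W hΔ B hB1 hne A hA σ hσ (hinH A hA) z hE hz.1.2 with ⟨y, hy0, hy⟩ | h
    · exact absurd hy (fun hy => KC y hy0 hy)
    · exact h
  obtain ⟨A, σ, hA, hσ⟩ := Fermat.Agent.Lib.Frobenius.exists_isFrobeniusAt q hq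
  exact ⟨(main A hA σ hσ).1, fun A hA σ hσ => (main A hA σ hσ).2⟩

/-- **[MP′] at the level `(M, q)`** from [M2′], a non-Eisenstein prime and [GEO] at `(M, q)`. -/
theorem s59m_MP'_at (hOld : s59m_Old) (hNE : s59m_NonEis) {p : ℕ} [hpF : Fact p.Prime] (hp2 : p ≠ 2)
    (W : WeierstrassCurve ℤ) (hΔ : W.Δ ≠ 0) (hirr : W.ModRepIsIrreducible p)
    (M q : ℕ) [NeZero M] [NeZero q] (hq : q.Prime) (hqM : ¬ q ∣ M) (hqp : q ≠ p)
    (hunr : s59_Unr W p q) (hGeo : s59m_GeoAt p M q hq hqM)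
    (hres : W.IsResiduallyModularOfLevel p (M * q)) :
    W.IsResiduallyModularOfLevel p M ∨ (p ∣ q - 1 ∧ s59_FrobScalar W p q) := by
  classical
  have hp : p.Prime := hpF.out
  have hM0 : M ≠ 0 := NeZero.ne M
  set a : ℕ → ℤ := fun ℓ => W.apOfModel ℓ with ha
  have hprod : M * q * p * W.Δ.natAbs ≠ 0 :=
    Nat.mul_ne_zero (Nat.mul_ne_zero (Nat.mul_ne_zero hM0 hq.ne_zero) hp.ne_zero)
      (Int.natAbs_ne_zero.mpr hΔ)
  set B : Finset ℕ := (M * q * p * W.Δ.natAbs).primeFactors with hB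
  have hB1 : ∀ r : ℕ, r.Prime → r ∣ M * q * p → r ∈ B := fun r hr hd =>
    Nat.mem_primeFactors.mpr ⟨hr, hd.mul_right _, hprod⟩
  have hpB : p ∈ B := hB1 p hp (Dvd.intro_left _ rfl)
  have hNB : ∀ r : ℕ, r.Prime → r ∣ M * q → r ∈ B := fun r hr hd => hB1 r hr (hd.mul_right _)
  have hMB : ∀ r : ℕ, r.Prime → r ∣ M → r ∈ B := fun r hr hd => hNB r hr (hd.mul_right _)
  have hΔB : ∀ r : ℕ, r.Prime → (r : ℤ) ∣ W.Δ → r ∈ B := fun r hr hd =>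
    Nat.mem_primeFactors.mpr ⟨hr, (Int.natCast_dvd.mp hd).mul_left _, hprod⟩
  have hBmem : ∀ ℓ : ℕ, ℓ ∈ B → ℓ ∣ M ∨ ℓ = q ∨ ℓ = p ∨ (ℓ : ℤ) ∣ W.Δ := by
    intro ℓ hmem
    have hℓ := (Nat.mem_primeFactors.mp hmem).1
    have hd := (Nat.mem_primeFactors.mp hmem).2.1
    rcases (Nat.Prime.dvd_mul hℓ).mp hd with h | h
    · rcases (Nat.Prime.dvd_mul hℓ).mp h with h | h
      · rcases (Nat.Prime.dvd_mul hℓ).mp h with h | h
        · exact Or.inl h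
        · exact Or.inr (Or.inl ((Nat.prime_dvd_prime_iff_eq hℓ hq).mp h))
      · exact Or.inr (Or.inr (Or.inl ((Nat.prime_dvd_prime_iff_eq hℓ hp).mp h)))
    · exact Or.inr (Or.inr (Or.inr (Int.natCast_dvd.mpr h)))
  have hBout : ∀ ℓ : ℕ, ℓ.Prime → ℓ ∉ B →
      W.IsGoodPrimeFor ℓ ∧ ¬ ℓ ∣ M * q ∧ ℓ ≠ p := by
    intro ℓ hℓ hℓB
    refine ⟨fun hbad => hℓB (hΔB ℓ hℓ hbad), fun hd => hℓB (hNB ℓ hℓ hd), ?_⟩
    rintro rfl
    exact hℓB hpB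
  -- a non-Eisenstein prime outside `B`
  obtain ⟨ℓ₁, hℓ₁, hℓ₁B, -, hℓ₁E⟩ := hNE hΔ hp2 hirr B
  have hne : ∃ ℓ₀ : Nat.Primes, (ℓ₀ : ℕ) ∉ B ∧
      ¬ (p : ℤ) ∣ W.apOfModel ℓ₀ - ((ℓ₀ : ℕ) + 1) := ⟨⟨ℓ₁, hℓ₁⟩, hℓ₁B, hℓ₁E⟩
  obtain ⟨f, 𝔪, hf, hmax, hpm, hcong⟩ := hres
  have hocc : s44i_LevelOcc (M * q) p a B :=
    ⟨f, 𝔪, hf, hmax, hpm, fun ℓ hℓ hℓB =>
      hcong ℓ hℓ (hBout ℓ hℓ hℓB).1 (hBout ℓ hℓ hℓB).2.1 (hBout ℓ hℓ hℓB).2.2⟩
  rcases s59m_MP_core hOld hp2 W hΔ (s59m_irr_Wp W hirr) M q hq hqM hqp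
    (fun A hA τ hτ => s59m_inertia_mem_H' W p q hq hqp hunr A hA τ hτ) hGeo B hB1 hΔB hne hocc
    with hM | h
  swap
  · exact Or.inr h
  left
  -- back to `IsResiduallyModularOfLevel`
  obtain ⟨g, 𝔪', hg, hmax', hpm', hc⟩ := hM
  by_cases hgood : W.IsGoodPrimeFor q
  · -- `W` good at `q`: recover the congruence at `q` by [XQ]
    obtain ⟨y, hy0, hy⟩ := s44s_eigExists M g hg p hp 𝔪' hmax' hpm' a B
      (fun r hr hd => by
        rcases (Nat.Prime.dvd_mul hr).mp hd with h | h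
        · exact hMB r hr h
        · rw [(Nat.prime_dvd_prime_iff_eq hr hp).mp h]
          exact hpB) hc
    have hB'1 : ∀ r : ℕ, r.Prime → r ∣ M * p → r ∈ B.erase q := by
      intro r hr hd
      refine Finset.mem_erase.mpr ⟨?_, ?_⟩
      · rintro rfl
        rcases (Nat.Prime.dvd_mul hr).mp hd with h | h
        · exact hqM h
        · exact hqp ((Nat.prime_dvd_prime_iff_eq hr hp).mp h)
      · rcases (Nat.Prime.dvd_mul hr).mp hd with h | h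
        · exact hMB r hr h
        · rw [(Nat.prime_dvd_prime_iff_eq hr hp).mp h]
          exact hpB
    obtain ⟨g', 𝔪'', hg', hmax'', hpm'', hc'⟩ := hOld M p hp hp2 a (B.erase q) hB'1 y hy0
      (s59m_shrink W hΔ hp2 hpB hMB hΔB q hq hqM hqp hgood y hy)
    refine ⟨g', 𝔪'', hg', hmax'', hpm'', fun ℓ hℓ hgoodℓ hℓM hℓp => hc' ℓ hℓ fun hmem => ?_⟩
    obtain ⟨hℓq, hmem'⟩ := Finset.mem_erase.mp hmem
    rcases hBmem ℓ hmem' with h | h | h | h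
    · exact hℓM h
    · exact hℓq h
    · exact hℓp h
    · exact hgoodℓ h
  · refine ⟨g, 𝔪', hg, hmax', hpm', fun ℓ hℓ hgoodℓ hℓM hℓp => hc ℓ hℓ fun hmem => ?_⟩
    rcases hBmem ℓ hmem with h | h | h | h
    · exact hℓM h
    · exact hgood (h ▸ hgoodℓ)
    · exact hℓp h
    · exact hgoodℓ h

/-- **[MP′] for `5 ≤ p` and `q` odd** (the generality of frozen S43). -/
def s59m_MP5 : Prop :=
  ∀ (p : ℕ), p.Prime → 5 ≤ p → ∀ (W : WeierstrassCurve ℤ), W.Δ ≠ 0 → W.IsSemistableModel →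
    W.ModRepIsIrreducible p → ∀ (M q : ℕ), Squarefree M → q.Prime → q ≠ 2 → q ≠ p → q ∣ M →
    s59_Unr W p q → W.IsResiduallyModularOfLevel p M →
    W.IsResiduallyModularOfLevel p (M / q) ∨ (p ∣ q - 1 ∧ s59_FrobScalar W p q)

/-- **[MP′] (`5 ≤ p`, `q` odd) from its leaves.** -/
theorem s59m_MP5_of (hOld : s59m_Old) (hNE : s59m_NonEis) (hGeo : s59m_Geo) (hGeo3 : s59m_Geo3) :
    s59m_MP5 := by
  intro p hp hp5 W hΔ _ hirr M₀ q hM₀ hq hq2 hqp hqM₀ hunr hres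
  obtain ⟨M, rfl⟩ : ∃ M, M₀ = M * q := ⟨M₀ / q, (Nat.div_mul_cancel hqM₀).symm⟩
  rw [Nat.mul_div_cancel _ hq.pos]
  haveI : Fact p.Prime := ⟨hp⟩
  have hp2 : p ≠ 2 := by omega
  have hM0 : M ≠ 0 := by
    rintro rfl
    rw [zero_mul] at hM₀
    exact not_squarefree_zero hM₀
  haveI : NeZero M := ⟨hM0⟩
  haveI : NeZero q := ⟨hq.ne_zero⟩
  have hqM : ¬ q ∣ M := by
    rintro ⟨k, rfl⟩
    have h1 : q * q ∣ q * k * q := ⟨k, by ring⟩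
    exact hq.one_lt.ne' (Nat.isUnit_iff.mp (hM₀ q h1))
  have hsqM : Squarefree M := hM₀.squarefree_of_dvd (Dvd.intro _ rfl)
  by_cases h5q : 5 ≤ q
  · exact s59m_MP'_at hOld hNE hp2 W hΔ hirr M q hq hqM hqp hunr
      (hGeo p hp5 M q hq hqM hsqM h5q hqp) hres
  · have hq3 : q = 3 := by
      have h2 := hq.two_le
      have h4 : q ≠ 4 := by
        rintro rfl
        exact absurd hq (by norm_num)
      omega
    subst hq3
    exact s59m_MP'_at hOld hNE hp2 W hΔ hirr M 3 hq hqM hqp hunr (hGeo3 p hp5 M hqM hsqM) hres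

/-- **[MP′] for `5 ≤ p` and `5 ≤ q`** — ALL that frozen S43 needs (`q = 3` is free for the Frey package, see
`MS43.lean`). -/
def s59m_MP55 : Prop :=
  ∀ (p : ℕ), p.Prime → 5 ≤ p → ∀ (W : WeierstrassCurve ℤ), W.Δ ≠ 0 → W.IsSemistableModel →
    W.ModRepIsIrreducible p → ∀ (M q : ℕ), Squarefree M → q.Prime → 5 ≤ q → q ≠ p → q ∣ M →
    s59_Unr W p q → W.IsResiduallyModularOfLevel p M →
    W.IsResiduallyModularOfLevel p (M / q) ∨ (p ∣ q - 1 ∧ s59_FrobScalar W p q)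

/-- **[MP′] (`5 ≤ p`, `5 ≤ q`) from its leaves.** -/
theorem s59m_MP55_of (hOld : s59m_Old) (hNE : s59m_NonEis) (hGeo : s59m_Geo) : s59m_MP55 := by
  intro p hp hp5 W hΔ _ hirr M₀ q hM₀ hq h5q hqp hqM₀ hunr hres
  obtain ⟨M, rfl⟩ : ∃ M, M₀ = M * q := ⟨M₀ / q, (Nat.div_mul_cancel hqM₀).symm⟩
  rw [Nat.mul_div_cancel _ hq.pos]
  haveI : Fact p.Prime := ⟨hp⟩
  have hp2 : p ≠ 2 := by omega
  have hM0 : M ≠ 0 := by
    rintro rfl
    rw [zero_mul] at hM₀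
    exact not_squarefree_zero hM₀
  haveI : NeZero M := ⟨hM0⟩
  haveI : NeZero q := ⟨hq.ne_zero⟩
  have hqM : ¬ q ∣ M := by
    rintro ⟨k, rfl⟩
    have h1 : q * q ∣ q * k * q := ⟨k, by ring⟩
    exact hq.one_lt.ne' (Nat.isUnit_iff.mp (hM₀ q h1))
  have hsqM : Squarefree M := hM₀.squarefree_of_dvd (Dvd.intro _ rfl)
  exact s59m_MP'_at hOld hNE hp2 W hΔ hirr M q hq hqM hqp hunr
    (hGeo p hp5 M q hq hqM hsqM h5q hqp) hres

end

end Fermat.Agent.Lib.S59
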