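/-
Programme (R), TARGET = frozen S43 (level lowering at an odd prime `q ≠ p` for the Frey curve; lead's
decision #3287) — top wiring in FREY FORM (helper3).

Vocabulary = that of the S44 programme (`Lib/S44/Iface.lean`): a Frey package `P` (`p = P.p ≥ 5`), ANY
integral model `W` of the Frey curve (the one handed out by `P.ModularRepOfLevel N`),
`a ℓ := a_ℓ(W)`, a finite set `B` of primes containing the primes dividing `N p` and the bad primes of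
`W`, and `s44i_LevelOcc M p a B` (the eigen-system occurs mod `p` at level `M`, away from `B`).

* `s59v_FreyFrobScalar P q` : every Frobenius at `q` acts on `E[p](ℚ̄)` as a scalar;
* `s59v_MPF` : **[MP′], Frey form** (Mazur's principle at an unramified multiplicative prime `q ∥ N`);
* `s59v_IAF` : **[IA′], Frey form** (the scalar case `q ≡ 1 (p)`);
* `s59v_bad_of_dvd_abc` : a prime `q ∣ abc` is bad for EVERY integral model of the Frey curve (the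
  frozen model `P.freyCurveInt` is semistable, hence minimal);
* `s59v_S43` : [MP′-F] + [IA′-F] ⇒ the frozen statement S43, verbatim.
-/
import Mathlib
import Fermat.Agent.Lib.S44.Iface
import Fermat.Agent.Lib.S12.NArith
import Fermat.Prelude.Def_FLTPrelim_Ramification
import Fermat.Prelude.Def_EllipticCurve_FrobeniusTrace

set_option autoImplicit false

noncomputable section

namespace Fermat.Agent.Lib.S59

open WeierstrassCurve WeierstrassCurve.Affine WeierstrassCurve.Affine.Point FreyPackage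
open Fermat.Agent.Lib.S44 Fermat.Agent.Lib.S12

/-- a Frobenius at `q` acts on `E[p](ℚ̄)` (`E` the Frey curve) as a scalar. -/
def s59v_FreyFrobScalar (P : FreyPackage) (q : ℕ) : Prop :=
  ∀ A : ValuationSubring (AlgebraicClosure ℚ), A.LiesOverPrime q →
    ∀ σ : AlgebraicClosure ℚ ≃ₐ[ℚ] AlgebraicClosure ℚ, A.IsFrobeniusAt σ q →
      ∃ c : ℕ, ∀ x : (P.freyCurve⁄(AlgebraicClosure ℚ)).Point, P.p • x = 0 → σ • x = c • x

/-- **[MP′], Frey form.**  `M q` a conductor level of the Frey package (squarefree, supported on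
`abc`), `q` an odd prime `≠ p`, `ρ̄_{E,p}` irreducible and unramified at `q`; `W` any integral model
of the Frey curve, `B ⊇ {r ∣ M q p} ∪ {bad primes of W}`.  If the eigen-system of `W` occurs mod `p`
at level `M q` (away from `B`) then it occurs at level `M` (away from `B`), unless `q ≡ 1 mod p` and
Frobenius at `q` is scalar on `E[p]`. -/
def s59v_MPF : Prop :=
  ∀ (P : FreyPackage) (W : WeierstrassCurve ℤ), W.IsIntegralModelOf P.freyCurve →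
  ∀ (M q : ℕ), P.IsConductorLevel (M * q) → q.Prime → q ≠ 2 → q ≠ P.p →
    GaloisRepIsIrreducible (K := AlgebraicClosure ℚ) ℚ P.freyCurve P.p →
    P.GaloisRepUnramifiedAt q →
  ∀ B : Finset ℕ, (∀ r : ℕ, r.Prime → r ∣ M * q * P.p → r ∈ B) →
    (∀ r : ℕ, r.Prime → ¬ W.IsGoodPrimeFor r → r ∈ B) →
    s44i_LevelOcc (M * q) P.p (fun ℓ => W.apOfModel ℓ) B →
    s44i_LevelOcc M P.p (fun ℓ => W.apOfModel ℓ) B ∨ (P.p ∣ q - 1 ∧ s59v_FreyFrobScalar P q)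

/-- **[IA′], Frey form**: the scalar case `q ≡ 1 mod p` by Ihara avoidance. -/
def s59v_IAF : Prop :=
  ∀ (P : FreyPackage) (W : WeierstrassCurve ℤ), W.IsIntegralModelOf P.freyCurve →
  ∀ (M q : ℕ), P.IsConductorLevel (M * q) → q.Prime → q ≠ 2 → q ≠ P.p →
    GaloisRepIsIrreducible (K := AlgebraicClosure ℚ) ℚ P.freyCurve P.p →
    P.GaloisRepUnramifiedAt q → P.p ∣ q - 1 → s59v_FreyFrobScalar P q →
  ∀ B : Finset ℕ, (∀ r : ℕ, r.Prime → r ∣ M * q * P.p → r ∈ B) →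
    (∀ r : ℕ, r.Prime → ¬ W.IsGoodPrimeFor r → r ∈ B) →
    s44i_LevelOcc (M * q) P.p (fun ℓ => W.apOfModel ℓ) B →
    s44i_LevelOcc M P.p (fun ℓ => W.apOfModel ℓ) B

/-- **[RIB′], Frey form.** -/
def s59v_RIBF : Prop :=
  ∀ (P : FreyPackage) (W : WeierstrassCurve ℤ), W.IsIntegralModelOf P.freyCurve →
  ∀ (M q : ℕ), P.IsConductorLevel (M * q) → q.Prime → q ≠ 2 → q ≠ P.p →
    GaloisRepIsIrreducible (K := AlgebraicClosure ℚ) ℚ P.freyCurve P.p →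
    P.GaloisRepUnramifiedAt q →
  ∀ B : Finset ℕ, (∀ r : ℕ, r.Prime → r ∣ M * q * P.p → r ∈ B) →
    (∀ r : ℕ, r.Prime → ¬ W.IsGoodPrimeFor r → r ∈ B) →
    s44i_LevelOcc (M * q) P.p (fun ℓ => W.apOfModel ℓ) B →
    s44i_LevelOcc M P.p (fun ℓ => W.apOfModel ℓ) B

theorem s59v_RIBF_of (hMP : s59v_MPF) (hIA : s59v_IAF) : s59v_RIBF := by
  intro P W hW M q hcond hq hq2 hqp hirr hunr B hB1 hB2 hocc
  rcases hMP P W hW M q hcond hq hq2 hqp hirr hunr B hB1 hB2 hocc with h | ⟨h1, hsc⟩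
  · exact h
  · exact hIA P W hW M q hcond hq hq2 hqp hirr hunr h1 hsc B hB1 hB2 hocc

/-! ### Bad primes of an arbitrary integral model -/

/-- the discriminant and `c₄` of an integral model `W` of `E = W₀ ⊗ ℚ` in terms of those of `W₀`. -/
theorem s59v_model_rel (W₀ W : WeierstrassCurve ℤ) (E : WeierstrassCurve ℚ)
    (h0 : W₀.map (Int.castRingHom ℚ) = E) (hW : W.IsIntegralModelOf E) :
    ∃ m n : ℤ, IsCoprime m n ∧ n ≠ 0 ∧ W.c₄ * n ^ 4 = m ^ 4 * W₀.c₄ ∧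
      W.Δ * n ^ 12 = m ^ 12 * W₀.Δ := by
  obtain ⟨C, hC⟩ := hW
  obtain ⟨w, hw⟩ : ∃ w : ℚ, w = ((C.u⁻¹ : ℚˣ) : ℚ) := ⟨_, rfl⟩
  have hc : ((W.c₄ : ℤ) : ℚ) = w ^ 4 * ((W₀.c₄ : ℤ) : ℚ) := by
    have h1 : (W.map (Int.castRingHom ℚ)).c₄ = ((W.c₄ : ℤ) : ℚ) := by
      rw [WeierstrassCurve.map_c₄]; rfl
    have h2 : E.c₄ = ((W₀.c₄ : ℤ) : ℚ) := by
      rw [← h0, WeierstrassCurve.map_c₄]; rfl
    rw [← h1, ← hC, WeierstrassCurve.variableChange_c₄, h2, hw]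
  have hd : ((W.Δ : ℤ) : ℚ) = w ^ 12 * ((W₀.Δ : ℤ) : ℚ) := by
    have h1 : (W.map (Int.castRingHom ℚ)).Δ = ((W.Δ : ℤ) : ℚ) := by
      rw [WeierstrassCurve.map_Δ]; rfl
    have h2 : E.Δ = ((W₀.Δ : ℤ) : ℚ) := by
      rw [← h0, WeierstrassCurve.map_Δ]; rfl
    rw [← h1, ← hC, WeierstrassCurve.variableChange_Δ, h2, hw]
  obtain ⟨m, hm⟩ : ∃ m : ℤ, m = w.num := ⟨_, rfl⟩
  obtain ⟨n, hn⟩ : ∃ n : ℤ, n = (w.den : ℤ) := ⟨_, rfl⟩
  have hn0 : n ≠ 0 := by rw [hn]; exact_mod_cast w.den_nz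
  have hnq : (n : ℚ) ≠ 0 := by exact_mod_cast hn0
  have hwq : w = (m : ℚ) / (n : ℚ) := by
    have := Rat.num_div_den w
    rw [hm, hn]
    push_cast
    exact this.symm
  have hcop : IsCoprime m n := by
    rw [Int.isCoprime_iff_gcd_eq_one, hm, hn]
    show Nat.gcd w.num.natAbs ((w.den : ℤ)).natAbs = 1
    rw [Int.natAbs_natCast]
    exact w.reduced
  refine ⟨m, n, hcop, hn0, ?_, ?_⟩
  · have : (((W.c₄ * n ^ 4 : ℤ)) : ℚ) = ((m ^ 4 * W₀.c₄ : ℤ) : ℚ) := by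
      push_cast
      rw [hc, hwq]
      field_simp
    exact_mod_cast this
  · have : (((W.Δ * n ^ 12 : ℤ)) : ℚ) = ((m ^ 12 * W₀.Δ : ℤ) : ℚ) := by
      push_cast
      rw [hd, hwq]
      field_simp
    exact_mod_cast this

/-- a prime at which `W₀` has multiplicative reduction is bad for every integral model of
`W₀ ⊗ ℚ`. -/
theorem s59v_bad_of_mult (W₀ W : WeierstrassCurve ℤ) (E : WeierstrassCurve ℚ)
    (h0 : W₀.map (Int.castRingHom ℚ) = E) (hW : W.IsIntegralModelOf E) {q : ℕ} (hq : q.Prime)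
    (hΔ : (q : ℤ) ∣ W₀.Δ) (hc₄ : ¬ (q : ℤ) ∣ W₀.c₄) : (q : ℤ) ∣ W.Δ := by
  obtain ⟨m, n, hmn, hn0, h4, h12⟩ := s59v_model_rel W₀ W E h0 hW
  have hpr : Prime (q : ℤ) := Nat.prime_iff_prime_int.mp hq
  have hqn : ¬ (q : ℤ) ∣ n := by
    intro hdn
    have h1 : (q : ℤ) ∣ m ^ 4 * W₀.c₄ := by
      rw [← h4]; exact Dvd.dvd.mul_left (dvd_pow hdn (by norm_num)) _
    rcases hpr.dvd_or_dvd h1 with h2 | h2
    · have h3 : (q : ℤ) ∣ m := hpr.dvd_of_dvd_pow h2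
      exact hpr.not_isUnit (hmn.isUnit_of_dvd' h3 hdn)
    · exact hc₄ h2
  have h1 : (q : ℤ) ∣ W.Δ * n ^ 12 := by
    rw [h12]; exact Dvd.dvd.mul_left hΔ _
  rcases hpr.dvd_or_dvd h1 with h2 | h2
  · exact h2
  · exact absurd (hpr.dvd_of_dvd_pow h2) hqn

/-- **a prime `q ∣ abc` is bad for every integral model of the Frey curve.** -/
theorem s59v_bad_of_dvd_abc (P : FreyPackage) (W : WeierstrassCurve ℤ)
    (hW : W.IsIntegralModelOf P.freyCurve) {q : ℕ} (hq : q.Prime)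
    (hqabc : (q : ℤ) ∣ P.a * P.b * P.c) : ¬ W.IsGoodPrimeFor q := by
  obtain ⟨h0, -, hdiv, hss⟩ := s12s_Arith P
  have hΔ : (q : ℤ) ∣ P.freyCurveInt.Δ := (hdiv q hq).mpr hqabc
  have := s59v_bad_of_mult P.freyCurveInt W P.freyCurve h0 hW hq hΔ (hss q hq hΔ)
  exact fun hgood => hgood this

/-- the discriminant of an integral model of the Frey curve is non-zero. -/
theorem s59v_Δ_ne_zero (P : FreyPackage) (W : WeierstrassCurve ℤ)
    (hW : W.IsIntegralModelOf P.freyCurve) : W.Δ ≠ 0 := by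
  obtain ⟨h0, hΔ0, -, -⟩ := s12s_Arith P
  intro h
  obtain ⟨C, hC⟩ := hW
  have h1 : (W.map (Int.castRingHom ℚ)).Δ = ((W.Δ : ℤ) : ℚ) := by
    rw [WeierstrassCurve.map_Δ]; rfl
  have h2 : P.freyCurve.Δ = ((P.freyCurveInt.Δ : ℤ) : ℚ) := by
    rw [← h0, WeierstrassCurve.map_Δ]; rfl
  have h3 : ((W.Δ : ℤ) : ℚ) = ((C.u⁻¹ : ℚˣ) : ℚ) ^ 12 * ((P.freyCurveInt.Δ : ℤ) : ℚ) := by
    rw [← h1, ← hC, WeierstrassCurve.variableChange_Δ, h2]
  rw [h, Int.cast_zero] at h3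
  have hu : ((C.u⁻¹ : ℚˣ) : ℚ) ^ 12 ≠ 0 := pow_ne_zero _ (Units.ne_zero _)
  have hΔq : ((P.freyCurveInt.Δ : ℤ) : ℚ) ≠ 0 := by exact_mod_cast hΔ0
  exact (mul_ne_zero hu hΔq) h3.symm

/-! ### The frozen statement S43 -/

/-- **Frozen S43 from [MP′-F] + [IA′-F]**, statement verbatim. -/
theorem s59v_S43 (hMP : s59v_MPF) (hIA : s59v_IAF)
    (P : FreyPackage) {N q : ℕ} (hcond : P.IsConductorLevel N) (hq : q.Prime) (hq2 : q ≠ 2)
    (hqp : q ≠ P.p) (hqN : q ∣ N)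
    (hirr : GaloisRepIsIrreducible (K := AlgebraicClosure ℚ) ℚ P.freyCurve P.p)
    (hmod : P.ModularRepOfLevel N) (hunr : P.GaloisRepUnramifiedAt q) :
    ∃ M : ℕ, M ∣ N ∧ ¬ q ∣ M ∧ P.ModularRepOfLevel M := by
  classical
  obtain ⟨M, rfl⟩ : ∃ M, N = M * q := ⟨N / q, (Nat.div_mul_cancel hqN).symm⟩
  have hp := P.pp
  have hM0 : M ≠ 0 := by
    intro h
    have := hcond.pos
    rw [h, zero_mul] at this
    exact lt_irrefl _ this
  have hqM : ¬ q ∣ M := by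
    rintro ⟨k, rfl⟩
    exact hcond.sq_not_dvd hq ⟨k, by ring⟩
  obtain ⟨f, W, 𝔪, hf, hW, hmax, hpm, hcong⟩ := hmod
  have hΔ : W.Δ ≠ 0 := s59v_Δ_ne_zero P W hW
  have hprod : M * q * P.p * W.Δ.natAbs ≠ 0 :=
    Nat.mul_ne_zero (Nat.mul_ne_zero (Nat.mul_ne_zero hM0 hq.ne_zero) hp.ne_zero)
      (Int.natAbs_ne_zero.mpr hΔ)
  obtain ⟨B, hB⟩ : ∃ B : Finset ℕ, B = (M * q * P.p * W.Δ.natAbs).primeFactors := ⟨_, rfl⟩
  have hB1 : ∀ r : ℕ, r.Prime → r ∣ M * q * P.p → r ∈ B := fun r hr hd => by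
    rw [hB]; exact Nat.mem_primeFactors.mpr ⟨hr, hd.mul_right _, hprod⟩
  have hB2 : ∀ r : ℕ, r.Prime → ¬ W.IsGoodPrimeFor r → r ∈ B := fun r hr hbad => by
    have hd : (r : ℤ) ∣ W.Δ := not_not.mp hbad
    have hd' : r ∣ W.Δ.natAbs := Int.natCast_dvd.mp hd
    rw [hB]; exact Nat.mem_primeFactors.mpr ⟨hr, hd'.mul_left _, hprod⟩
  have hBmem : ∀ ℓ : ℕ, ℓ ∈ B → ℓ ∣ M ∨ ℓ = q ∨ ℓ = P.p ∨ (ℓ : ℤ) ∣ W.Δ := by
    intro ℓ hmem
    rw [hB] at hmem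
    have hℓ := (Nat.mem_primeFactors.mp hmem).1
    have hd := (Nat.mem_primeFactors.mp hmem).2.1
    rcases (Nat.Prime.dvd_mul hℓ).mp hd with h | h
    · rcases (Nat.Prime.dvd_mul hℓ).mp h with h | h
      · rcases (Nat.Prime.dvd_mul hℓ).mp h with h | h
        · exact Or.inl h
        · exact Or.inr (Or.inl ((Nat.prime_dvd_prime_iff_eq hℓ hq).mp h))
      · exact Or.inr (Or.inr (Or.inl ((Nat.prime_dvd_prime_iff_eq hℓ hp).mp h)))
    · exact Or.inr (Or.inr (Or.inr (Int.natCast_dvd.mpr h)))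
  have hocc : s44i_LevelOcc (M * q) P.p (fun ℓ => W.apOfModel ℓ) B := by
    refine ⟨f, 𝔪, hf, hmax, hpm, fun ℓ hℓ hℓB => hcong ℓ hℓ ?_ ?_ ?_⟩
    · exact fun hbad => hℓB (hB2 ℓ hℓ (not_not.mpr hbad))
    · exact fun hd => hℓB (hB1 ℓ hℓ (hd.mul_right _))
    · rintro rfl
      exact hℓB (hB1 _ hℓ (Dvd.intro_left _ rfl))
  obtain ⟨g, 𝔪', hg, hmax', hpm', hc⟩ :=
    s59v_RIBF_of hMP hIA P W hW M q hcond hq hq2 hqp hirr hunr B hB1 hB2 hocc
  have hqabc : (q : ℤ) ∣ P.a * P.b * P.c := hcond.support q hq (Dvd.intro_left _ rfl)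
  refine ⟨M, Dvd.intro _ rfl, hqM, g, W, 𝔪', hg, hW, hmax', hpm',
    fun ℓ hℓ hgood hℓM hℓp => hc ℓ hℓ fun hmem => ?_⟩
  rcases hBmem ℓ hmem with h | h | h | h
  · exact hℓM h
  · rw [h] at hgood
    exact s59v_bad_of_dvd_abc P W hW hq hqabc hgood
  · exact hℓp h
  · exact hgood h

end Fermat.Agent.Lib.S59
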