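/-
Programme (R), helper9 (prefix `s59m_`): **[MP′] IN FREY FORM (`q ≥ 5`) AND FROZEN S43 FROM ITS TWO NODES.**

helper3's `VFrey.lean` types the nodes of frozen S43 in Frey form (`s59v_MPF`, `s59v_IAF`: a Frey package `P`, ANY
integral model `W` of the Frey curve, `s44i_LevelOcc` vocabulary).  By `MS43.lean` only `q ≥ 5` is needed:

* `s59m_MPF5`, `s59m_IAF5` : `s59v_MPF`, `s59v_IAF` with `5 ≤ q` instead of `q ≠ 2`;
* `s59m_S43Five_of : s59m_MPF5 → s59m_IAF5 → s59m_S43Five` (helper3's proof of `s59v_S43`);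
* `s59m_S43_final : s59m_MPF5 → s59m_IAF5 →` frozen S43, verbatim;
* `s59m_nonEis : s59m_NonEis` from main's `s41a_nonEis`;
* `s59m_MPF5_of : s59m_Old → s59m_Geo → s59m_MPF5` : **[MP′-F] from [M2′] and [GEO]** (the non-Eisenstein prime is main's
  `s41a_nonEis`; irreducibility, "unramified at `q`" and "Frobenius scalar" are transported between `E(ℚ̄)` and
  `W_ℚ(ℚ̄)` along `s44s_Psi`).
-/
import Fermat.Agent.Lib.S59.MTop
import Fermat.Agent.Lib.S59.MS43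
import Fermat.Agent.Lib.S59.VFrey
import Fermat.Agent.Lib.S44.SoftTransport
import Fermat.Agent.Lib.S41.ANonEis
import Fermat.Agent.Lib.S58.OLevel

set_option autoImplicit false
set_option linter.style.haveILetI false
set_option linter.unusedSectionVars false

namespace Fermat.Agent.Lib.S59

open WeierstrassCurve WeierstrassCurve.Affine WeierstrassCurve.Affine.Point FreyPackage
open ModularCurve AlgebraicCurve Fermat.Agent.Lib.S44 Fermat.Agent.Lib.S12 Fermat.Agent.Lib.S58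
  Fermat.Agent.Lib.S41 Fermat.Agent.Lib.S33 Fermat.Agent.Lib.S30

noncomputable section

local notation "Kb" => AlgebraicClosure ℚ
local notation "Γℚ" => (AlgebraicClosure ℚ ≃ₐ[ℚ] AlgebraicClosure ℚ)

/-- **[MP′], Frey form, `q ≥ 5`.** -/
def s59m_MPF5 : Prop :=
  ∀ (P : FreyPackage) (W : WeierstrassCurve ℤ), W.IsIntegralModelOf P.freyCurve →
  ∀ (M q : ℕ), P.IsConductorLevel (M * q) → q.Prime → 5 ≤ q → q ≠ P.p →
    GaloisRepIsIrreducible (K := AlgebraicClosure ℚ) ℚ P.freyCurve P.p →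
    P.GaloisRepUnramifiedAt q →
  ∀ B : Finset ℕ, (∀ r : ℕ, r.Prime → r ∣ M * q * P.p → r ∈ B) →
    (∀ r : ℕ, r.Prime → ¬ W.IsGoodPrimeFor r → r ∈ B) →
    s44i_LevelOcc (M * q) P.p (fun ℓ => W.apOfModel ℓ) B →
    s44i_LevelOcc M P.p (fun ℓ => W.apOfModel ℓ) B ∨ (P.p ∣ q - 1 ∧ s59v_FreyFrobScalar P q)

/-- **[IA′], Frey form, `q ≥ 5`** (`P.p ∣ q - 1` forces `q ≥ 11`). -/
def s59m_IAF5 : Prop :=
  ∀ (P : FreyPackage) (W : WeierstrassCurve ℤ), W.IsIntegralModelOf P.freyCurve →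
  ∀ (M q : ℕ), P.IsConductorLevel (M * q) → q.Prime → 5 ≤ q → q ≠ P.p →
    GaloisRepIsIrreducible (K := AlgebraicClosure ℚ) ℚ P.freyCurve P.p →
    P.GaloisRepUnramifiedAt q → P.p ∣ q - 1 → s59v_FreyFrobScalar P q →
  ∀ B : Finset ℕ, (∀ r : ℕ, r.Prime → r ∣ M * q * P.p → r ∈ B) →
    (∀ r : ℕ, r.Prime → ¬ W.IsGoodPrimeFor r → r ∈ B) →
    s44i_LevelOcc (M * q) P.p (fun ℓ => W.apOfModel ℓ) B →
    s44i_LevelOcc M P.p (fun ℓ => W.apOfModel ℓ) B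

/-- **frozen S43 restricted to `q ≥ 5` from [MP′-F] + [IA′-F]** (helper3's `s59v_S43`, with `5 ≤ q`). -/
theorem s59m_S43Five_of (hMP : s59m_MPF5) (hIA : s59m_IAF5) : s59m_S43Five := by
  classical
  intro P N q hcond hq hq5 hqp hqN hirr hmod hunr
  obtain ⟨M, rfl⟩ : ∃ M, N = M * q := ⟨N / q, (Nat.div_mul_cancel hqN).symm⟩
  have hp := P.pp
  have hM0 : M ≠ 0 := by
    intro h
    have := hcond.pos
    rw [h, zero_mul] at this
    exact lt_irrefl _ this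
  have hqM : ¬ q ∣ M := by
    rintro ⟨k, rfl⟩
    exact hcond.sq_not_dvd hq ⟨k, by ring⟩
  obtain ⟨f, W, 𝔪, hf, hW, hmax, hpm, hcong⟩ := hmod
  have hΔ : W.Δ ≠ 0 := s59v_Δ_ne_zero P W hW
  have hprod : M * q * P.p * W.Δ.natAbs ≠ 0 :=
    Nat.mul_ne_zero (Nat.mul_ne_zero (Nat.mul_ne_zero hM0 hq.ne_zero) hp.ne_zero)
      (Int.natAbs_ne_zero.mpr hΔ)
  obtain ⟨B, hB⟩ : ∃ B : Finset ℕ, B = (M * q * P.p * W.Δ.natAbs).primeFactors := ⟨_, rfl⟩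
  have hB1 : ∀ r : ℕ, r.Prime → r ∣ M * q * P.p → r ∈ B := fun r hr hd => by
    rw [hB]; exact Nat.mem_primeFactors.mpr ⟨hr, hd.mul_right _, hprod⟩
  have hB2 : ∀ r : ℕ, r.Prime → ¬ W.IsGoodPrimeFor r → r ∈ B := fun r hr hbad => by
    have hd : (r : ℤ) ∣ W.Δ := not_not.mp hbad
    have hd' : r ∣ W.Δ.natAbs := Int.natCast_dvd.mp hd
    rw [hB]; exact Nat.mem_primeFactors.mpr ⟨hr, hd'.mul_left _, hprod⟩
  have hBmem : ∀ ℓ : ℕ, ℓ ∈ B → ℓ ∣ M ∨ ℓ = q ∨ ℓ = P.p ∨ (ℓ : ℤ) ∣ W.Δ := by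
    intro ℓ hmem
    rw [hB] at hmem
    have hℓ := (Nat.mem_primeFactors.mp hmem).1
    have hd := (Nat.mem_primeFactors.mp hmem).2.1
    rcases (Nat.Prime.dvd_mul hℓ).mp hd with h | h
    · rcases (Nat.Prime.dvd_mul hℓ).mp h with h | h
      · rcases (Nat.Prime.dvd_mul hℓ).mp h with h | h
        · exact Or.inl h
        · exact Or.inr (Or.inl ((Nat.prime_dvd_prime_iff_eq hℓ hq).mp h))
      · exact Or.inr (Or.inr (Or.inl ((Nat.prime_dvd_prime_iff_eq hℓ hp).mp h)))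
    · exact Or.inr (Or.inr (Or.inr (Int.natCast_dvd.mpr h)))
  have hocc : s44i_LevelOcc (M * q) P.p (fun ℓ => W.apOfModel ℓ) B := by
    refine ⟨f, 𝔪, hf, hmax, hpm, fun ℓ hℓ hℓB => hcong ℓ hℓ ?_ ?_ ?_⟩
    · exact fun hbad => hℓB (hB2 ℓ hℓ (not_not.mpr hbad))
    · exact fun hd => hℓB (hB1 ℓ hℓ (hd.mul_right _))
    · rintro rfl
      exact hℓB (hB1 _ hℓ (Dvd.intro_left _ rfl))
  have hlev : s44i_LevelOcc M P.p (fun ℓ => W.apOfModel ℓ) B := by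
    rcases hMP P W hW M q hcond hq hq5 hqp hirr hunr B hB1 hB2 hocc with h | ⟨h1, hsc⟩
    · exact h
    · exact hIA P W hW M q hcond hq hq5 hqp hirr hunr h1 hsc B hB1 hB2 hocc
  obtain ⟨g, 𝔪', hg, hmax', hpm', hc⟩ := hlev
  have hqabc : (q : ℤ) ∣ P.a * P.b * P.c := hcond.support q hq (Dvd.intro_left _ rfl)
  refine ⟨M, Dvd.intro _ rfl, hqM, g, W, 𝔪', hg, hW, hmax', hpm',
    fun ℓ hℓ hgood hℓM hℓp => hc ℓ hℓ fun hmem => ?_⟩
  rcases hBmem ℓ hmem with h | h | h | h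
  · exact hℓM h
  · rw [h] at hgood
    exact s59v_bad_of_dvd_abc P W hW hq hqabc hgood
  · exact hℓp h
  · exact hgood h

/-- **Frozen S43 from [MP′-F] and [IA′-F] at `q ≥ 5`**, statement verbatim. -/
theorem s59m_S43_final (hMP : s59m_MPF5) (hIA : s59m_IAF5)
    (P : FreyPackage) {N q : ℕ} (hcond : P.IsConductorLevel N) (hq : q.Prime) (hq2 : q ≠ 2)
    (hqp : q ≠ P.p) (hqN : q ∣ N)
    (hirr : GaloisRepIsIrreducible (K := AlgebraicClosure ℚ) ℚ P.freyCurve P.p)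
    (hmod : P.ModularRepOfLevel N) (hunr : P.GaloisRepUnramifiedAt q) :
    ∃ M : ℕ, M ∣ N ∧ ¬ q ∣ M ∧ P.ModularRepOfLevel M :=
  s59m_S43_of_five (s59m_S43Five_of hMP hIA) P hcond hq hq2 hqp hqN hirr hmod hunr

/-! ### Transport between `E(ℚ̄)` and `W_ℚ(ℚ̄)` -/

section Transport

variable (E : WeierstrassCurve ℚ) (W : WeierstrassCurve ℤ)
  (C : VariableChange ℚ) (hC : C • E = W.map (Int.castRingHom ℚ)) (p : ℕ) [hp : Fact p.Prime]

include hC in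
/-- irreducibility of `E[p]` gives the irreducibility of `W[p]` in the subgroup form used by `s59m_end'`. -/
theorem s59m_irrU_of_irr (hirr : GaloisRepIsIrreducible (K := Kb) ℚ E.toAffine p)
    (U : AddSubgroup (s58_Pt W)) (hU : U ≤ (s44s_Wp W p).toAddSubgroup)
    (hUg : ∀ g : Γℚ, ∀ v ∈ U, g • v ∈ U) :
    U = ⊥ ∨ U = (s44s_Wp W p).toAddSubgroup := by
  set Ψ := s44s_Psi E W C hC with hΨ
  set T := Submodule.torsionBy ℤ (E.toAffine⁄Kb).Point ((p : ℕ) : ℤ) with hT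
  set N : Submodule (ZMod p) ↥T :=
    AddSubgroup.toZModSubmodule p ((U.map Ψ.toAddMonoidHom).comap T.toAddSubgroup.subtype)
    with hN
  have hmem : ∀ x : ↥T, x ∈ N ↔ ∃ u ∈ U, Ψ u = (x : (E.toAffine⁄Kb).Point) := fun x => Iff.rfl
  have hst : Affine.Point.IsGaloisStable (K := Kb) ℚ N := by
    intro σ x hx
    rw [hmem] at hx ⊢
    obtain ⟨u, hu, hux⟩ := hx
    refine ⟨σ • u, hUg σ u hu, ?_⟩
    rw [hΨ, s44s_Psi_sigma, ← hΨ, hux]
    rfl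
  have hTmem : ∀ v : s58_Pt W, v ∈ s44s_Wp W p → Ψ v ∈ T := by
    intro v hv
    rw [hT, Submodule.mem_torsionBy_iff, natCast_zsmul]
    exact (s44s_Psi_nsmul_eq_zero E W C hC p v).mpr (s44s_mem_Wp.mp hv)
  rcases hirr.2 N hst with h | h
  · left
    rw [eq_bot_iff]
    intro v hv
    have h1 : (⟨Ψ v, hTmem v (hU hv)⟩ : ↥T) ∈ N := (hmem _).mpr ⟨v, hv, rfl⟩
    rw [h, Submodule.mem_bot] at h1
    rw [AddSubgroup.mem_bot]
    have h2 : Ψ v = 0 := congrArg Subtype.val h1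
    exact (AddEquiv.map_eq_zero_iff Ψ).mp h2
  · right
    apply le_antisymm hU
    intro v hv
    have h1 : (⟨Ψ v, hTmem v hv⟩ : ↥T) ∈ N := by
      rw [h]
      exact Submodule.mem_top
    obtain ⟨u, hu, huv⟩ := (hmem _).mp h1
    have : u = v := Ψ.injective huv
    rw [← this]
    exact hu

end Transport

/-- **a non-Eisenstein prime** (`s59m_NonEis`) from main's `s41a_nonEis`. -/
theorem s59m_nonEis : s59m_NonEis := by
  intro W p hpF hΔ hp2 hirr B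
  haveI := s58o_isElliptic W hΔ
  obtain ⟨ℓ, h1, h2, h3, h4⟩ := s41a_nonEis (W.map (Int.castRingHom ℚ)) W ⟨1, s44s_one_smul W⟩ p
    hpF.out hp2 hirr B
  refine ⟨ℓ, h1, h2, h3, fun hd => h4 ?_⟩
  have e : W.apOfModel ℓ ^ 2 - ((ℓ : ℤ) + 1) ^ 2 =
      (W.apOfModel ℓ - ((ℓ : ℤ) + 1)) * (W.apOfModel ℓ + ((ℓ : ℤ) + 1)) := by ring
  rw [e]
  exact Dvd.dvd.mul_right hd _

/-- **[MP′] (`5 ≤ p`, `5 ≤ q`, `W`-form) from [M2′] and [GEO].** -/
theorem s59m_MP55_of' (hOld : s59m_Old) (hGeo : s59m_Geo) : s59m_MP55 :=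
  s59m_MP55_of hOld s59m_nonEis hGeo

/-- **[MP′-F] (`q ≥ 5`) from [M2′] and [GEO].** -/
theorem s59m_MPF5_of (hOld : s59m_Old) (hGeo : s59m_Geo) : s59m_MPF5 := by
  classical
  intro P W hW M q hcond hq hq5 hqp hirr hunr B hB1 hB2 hocc
  have hp := P.pp
  haveI : Fact P.p.Prime := ⟨hp⟩
  have hp5 := P.hp5
  have hp2 : P.p ≠ 2 := by omega
  have hM0 : M ≠ 0 := by
    intro h
    have := hcond.pos
    rw [h, zero_mul] at this
    exact lt_irrefl _ this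
  haveI : NeZero M := ⟨hM0⟩
  haveI : NeZero q := ⟨hq.ne_zero⟩
  have hqM : ¬ q ∣ M := by
    rintro ⟨k, rfl⟩
    exact hcond.sq_not_dvd hq ⟨k, by ring⟩
  have hsqM : Squarefree M := hcond.squarefree.squarefree_of_dvd (Dvd.intro _ rfl)
  have hΔ : W.Δ ≠ 0 := s59v_Δ_ne_zero P W hW
  have hΔB : ∀ r : ℕ, r.Prime → (r : ℤ) ∣ W.Δ → r ∈ B := fun r hr hd =>
    hB2 r hr (fun hgood => hgood hd)
  -- a non-Eisenstein prime outside `B` (main)
  obtain ⟨ℓ₁, hℓ₁, hℓ₁B, -, hℓ₁E⟩ := s41a_nonEis P.freyCurve W hW P.p hp hp2 hirr B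
  have hne : ∃ ℓ₀ : Nat.Primes, (ℓ₀ : ℕ) ∉ B ∧
      ¬ ((P.p : ℕ) : ℤ) ∣ W.apOfModel ℓ₀ - ((ℓ₀ : ℕ) + 1) := by
    refine ⟨⟨ℓ₁, hℓ₁⟩, hℓ₁B, fun hd => hℓ₁E ?_⟩
    have h1 : W.apOfModel ℓ₁ ^ 2 - ((ℓ₁ : ℤ) + 1) ^ 2 =
        (W.apOfModel ℓ₁ - ((ℓ₁ : ℤ) + 1)) * (W.apOfModel ℓ₁ + ((ℓ₁ : ℤ) + 1)) := by ring
    rw [h1]
    exact Dvd.dvd.mul_right hd _
  obtain ⟨C, hC⟩ := hW
  -- the inertia at `q` lies in `H`
  have hinH : ∀ A : ValuationSubring Kb, A.LiesOverPrime q → ∀ τ ∈ A.inertiaSubgroupIn ℚ,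
      τ ∈ s59m_H W P.p := by
    intro A hA τ hτ
    refine ⟨fun Q hQ => s44s_fix_of_fix P.freyCurve W C hC P.p τ (hunr A hA τ hτ) Q hQ, ?_⟩
    have h1 : s30y_eps P.p τ = 1 := (s30y_cycDatum P.p).unram q hq hqp A hA τ hτ
    show (Units.map (PadicInt.toZMod (p := P.p)).toMonoidHom) (s30y_eps P.p τ) = 1
    rw [h1, map_one]
  rcases s59m_MP_core hOld hp2 W hΔ (s59m_irrU_of_irr P.freyCurve W C hC P.p hirr) M q hq hqM hqp
    hinH (hGeo P.p hp5 M q hq hqM hsqM hq5 hqp) B hB1 hΔB hne hocc with h | ⟨h1, hsc⟩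
  · exact Or.inl h
  · refine Or.inr ⟨h1, fun A hA σ hσ => ?_⟩
    obtain ⟨c, hc⟩ := hsc A hA σ hσ
    refine ⟨c, fun x hx => ?_⟩
    set Ψ := s44s_Psi P.freyCurve W C hC with hΨ
    have hQ : P.p • Ψ.symm x = 0 := by
      rw [← map_nsmul, hx, _root_.map_zero]
    have h2 := hc (Ψ.symm x) hQ
    have h3 := congrArg Ψ h2
    rw [hΨ, s44s_Psi_sigma, ← hΨ, map_nsmul, AddEquiv.apply_symm_apply] at h3
    exact h3

end

end Fermat.Agent.Lib.S59
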