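/-
Programme (R) / node [MP] (Mazur's principle), sub-architect helper7, with helper9 (prefix `s59m_`).
**INTERFACE, layer 1.**  STATEMENTS ONLY (`def … : Prop`) + the definition of `w_q` on `J₀(M q)`.

Setting: `p` an odd prime (the exponent), `W` a semistable integral model with irreducible `W[p]`,
`a ℓ := a_ℓ(W)`; a level `M q` (`M` squarefree, `q` prime, `q ∤ M`, `q ≠ p`, `W` good at `q`);
`B` a finite set of primes containing the primes dividing `M q p` and the bad primes of `W`;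
`𝔔` (`A` in the code) a valuation subring of `ℚ̄` over `q`, `σ` a Frobenius element at `𝔔`.

Vocabulary from main (Lib/S44/Iface): `s44i_Eig N p a B x` (`x ∈ J₀(N)[p]`, `T_ℓ x = a ℓ • x`, `ℓ ∉ B`),
`s44i_LevelOcc M p a B` (the eigensystem occurs mod `p` at level `M`, away from `B`).

* `s59m_wq M q hqM`     : the Atkin–Lehner involution `w_q` on `J₀(M q)(ℚ̄)` (action of `s37w_al`).
* `s59m_Old`   [M2′]    : `s44i_Old` for ALL odd `p` and ALL levels (`p ∣ M` allowed).
* `s59m_H W p`          : the subgroup of `G_ℚ` acting trivially on `W[p](ℚ̄)` and on `μ_p`.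
* `s59m_GeoAt` [GEO]    : the pointwise geometric statement = [A] + [B] + [C] of the design
                          #3229, at the level `(M, q)`: an `H`-fixed eigen-`p`-torsion point `x` of
                          `J₀(M q)` (the inertia at `𝔔` being contained in `H`) EITHER produces a non-zero
                          eigen-point at level `M` OR is toric, and then `σ x = − q · w_q x`;
                          `s59m_Geo` = all `(M, q)` with `5 ≤ q`, `s59m_Geo3` = all `(M, 3)` (`5 ≤ p`).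
Everything else of [MP] (w_q commutes with `G_ℚ` and `T_ℓ`; the `T_q`-eigenvalue at level `M`
[XQ]; fixed points [L7a′]; the endgame [E]) is PROVED in `MSoft.lean`/`MEnd.lean`, and
`MTop.lean` wires [MP′] (`5 ≤ p`, `q` odd) `⇐ s59m_Old + s59m_NonEis + s59m_Geo + s59m_Geo3`.
-/
import Fermat.Agent.Lib.S44.Iface
import Fermat.Agent.Lib.S37.WAtkin
import Fermat.Agent.Lib.S35.B3Push
import Fermat.Agent.Lib.S33.RealDens
import Fermat.Agent.Lib.S58.Iface

set_option autoImplicit false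
set_option linter.style.haveILetI false
set_option linter.unusedSectionVars false

namespace Fermat.Agent.Lib.S59

open ModularCurve AlgebraicCurve Fermat.Agent.Lib.S37 Fermat.Agent.Lib.S35 Fermat.Agent.Lib.S44
  Fermat.Agent.Lib.S33 Fermat.Agent.Lib.S58

noncomputable section

local notation "Kb" => AlgebraicClosure ℚ
local notation "Γℚ" => (AlgebraicClosure ℚ ≃ₐ[ℚ] AlgebraicClosure ℚ)

/-- **the Atkin–Lehner involution `w_q` on `J₀(M q)(ℚ̄)`** (`q` prime, `q ∤ M`): the action of the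
automorphism `s37w_al M q` of the function field `F̄(M q)`. -/
def s59m_wq (M q : ℕ) [NeZero M] [NeZero q] (hq : q.Prime) (hqM : ¬ q ∣ M) :
    JZero (M * q) →+ JZero (M * q) :=
  DistribMulAction.toAddMonoidHom (JZero (M * q))
    (SemilinearAut.ofAlgAut (s37w_al M q hq hqM))

theorem s59m_wq_apply (M q : ℕ) [NeZero M] [NeZero q] (hq : q.Prime) (hqM : ¬ q ∣ M)
    (x : JZero (M * q)) :
    s59m_wq M q hq hqM x = SemilinearAut.ofAlgAut (s37w_al M q hq hqM) • x := rfl

/-- **[M2′] OLD for all odd `p` and all levels**: a non-zero eigen-`p`-torsion point at level `M`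
gives an eigenform of level `M` (`s44i_Old` on main has `5 ≤ p`, `p ∤ M`). -/
def s59m_Old : Prop :=
  ∀ (M : ℕ) [NeZero M] (p : ℕ), p.Prime → p ≠ 2 →
    ∀ (a : ℕ → ℤ) (B : Finset ℕ), (∀ r : ℕ, r.Prime → r ∣ M * p → r ∈ B) →
      ∀ y : JZero M, y ≠ 0 → s44i_Eig M p a B y → s44i_LevelOcc M p a B

/-! ### The subgroup `H` acting trivially on `W[p]` and `μ_p` -/

section H

variable (W : WeierstrassCurve ℤ) (p : ℕ) [hp : Fact p.Prime]

/-- the subgroup of `G_ℚ` acting trivially on `W[p](ℚ̄)` and on `μ_p`. -/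
def s59m_H : Subgroup Γℚ where
  carrier := {h | (∀ Q : s58_Pt W, p • Q = 0 → h • Q = Q) ∧ s33r_chi p h = 1}
  one_mem' := ⟨fun Q _ => one_smul _ Q, map_one _⟩
  mul_mem' := by
    rintro g h ⟨hg1, hg2⟩ ⟨hh1, hh2⟩
    refine ⟨fun Q hQ => ?_, by rw [map_mul, hg2, hh2, one_mul]⟩
    rw [mul_smul, hh1 Q hQ, hg1 Q hQ]
  inv_mem' := by
    rintro g ⟨hg1, hg2⟩
    refine ⟨fun Q hQ => ?_, by rw [map_inv, hg2, inv_one]⟩
    rw [inv_smul_eq_iff, hg1 Q hQ]

theorem s59m_mem_H {h : Γℚ} :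
    h ∈ s59m_H W p ↔ (∀ Q : s58_Pt W, p • Q = 0 → h • Q = Q) ∧ s33r_chi p h = 1 := Iff.rfl

end H

/-- **[GEO] at the level `(M, q)`, exponent `p`**: the geometric heart of Mazur's principle, pointwise
form.  `x ∈ J₀(M q)[p]` an eigen-point for the system of `W` (away from `B`), fixed by
`H = ker (G_ℚ → Aut (W[p] × μ_p))`, where `H` contains the inertia group at `𝔔 ∣ q` (`ρ̄` unramified at
`q`), and one `T_ℓ₀`-eigenvalue is not Eisenstein.  Then EITHER there is a non-zero eigen-point at level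
`M` (one of the two reductions of `x` to `Pic⁰(X̃₀(M))[p]` is non-zero) OR (`x` is toric and)
`σ x = − q · w_q x` for every Frobenius element `σ` at `𝔔`. -/
def s59m_GeoAt (p : ℕ) [Fact p.Prime] (M q : ℕ) [NeZero M] [NeZero q] (hq : q.Prime)
    (hqM : ¬ q ∣ M) : Prop :=
  ∀ (W : WeierstrassCurve ℤ), W.Δ ≠ 0 →
  ∀ (B : Finset ℕ), (∀ r : ℕ, r.Prime → r ∣ M * q * p → r ∈ B) →
    (∃ ℓ₀ : Nat.Primes, (ℓ₀ : ℕ) ∉ B ∧ ¬ (p : ℤ) ∣ W.apOfModel ℓ₀ - ((ℓ₀ : ℕ) + 1)) →
  ∀ (A : ValuationSubring Kb), A.LiesOverPrime q → ∀ σ : Γℚ, A.IsFrobeniusAt σ q →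
    (∀ τ ∈ A.inertiaSubgroupIn ℚ, τ ∈ s59m_H W p) →
  ∀ x : JZero (M * q), s44i_Eig (M * q) p (fun ℓ => W.apOfModel ℓ) B x →
    (∀ h ∈ s59m_H W p, h • x = x) →
    (∃ y : JZero M, y ≠ 0 ∧ s44i_Eig M p (fun ℓ => W.apOfModel ℓ) B y) ∨
      σ • x = (-(q : ℤ)) • s59m_wq M q hq hqM x

/-- **[GEO]** on the main branch `5 ≤ q` (the `j`-line is a good base), `5 ≤ p`, squarefree `M`. -/
def s59m_Geo : Prop :=
  ∀ (p : ℕ) [Fact p.Prime], 5 ≤ p →
  ∀ (M : ℕ) [NeZero M] (q : ℕ) [NeZero q] (hq : q.Prime) (hqM : ¬ q ∣ M), Squarefree M → 5 ≤ q →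
    q ≠ p → s59m_GeoAt p M q hq hqM

/-- **[GEO] at `q = 3`** (`5 ≤ p`, squarefree `M` prime to `3`): the branches (ii) `2 ∣ M` (chart `t₂`) and
(iii) `2 ∤ M` (auxiliary level `2` inside the geometry) of #3285. -/
def s59m_Geo3 : Prop :=
  ∀ (p : ℕ) [Fact p.Prime], 5 ≤ p →
  ∀ (M : ℕ) [NeZero M] (h3M : ¬ 3 ∣ M), Squarefree M → s59m_GeoAt p M 3 Nat.prime_three h3M

end

end Fermat.Agent.Lib.S59
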