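/-
Programme (R) / node [MP], leaf [A] = FIN (tame (★)), family N (helper7, prefix `s59n_`):
**BASE CHANGE FROM THE SMALL FIELD `L` TO `L₀ ⊇ L`, level `M * q`, exponent `p`** = helper8's `s44e_finite_up_small`,
`s44e_kumGen_of_glob`, `s44e_finite_up_glob` (`Lib/S44/EBase.lean`) with the two primes separated (everything else in
`EBase` is exponent-free and is used as it stands).
-/
import Fermat.Agent.Lib.S44.EBase
import Fermat.Agent.Lib.S59.NDefs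

set_option autoImplicit false
set_option linter.unusedSectionVars false
set_option linter.style.haveILetI false
set_option synthInstance.maxHeartbeats 400000

noncomputable section

namespace Fermat.Agent.Lib.S59

open ModularCurve HahnSeries AlgebraicCurve Fermat.Agent.Lib.S18 Fermat.Agent.Lib.S28
  Fermat.Agent.Lib.S29 Fermat.Agent.Lib.S37 Fermat.Agent.Lib.FF Fermat.Agent.Lib.S34
  Fermat.Agent.Lib.S35 Fermat.Agent.Lib.S33 Fermat.Agent.Lib.S44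

local notation "Kb" => AlgebraicClosure ℚ

section Nodes

variable (M q : ℕ) [NeZero M] [hq : Fact q.Prime] (hqM : ¬ q ∣ M) (p : ℕ) (P : ValuationSubring Kb)
  {L L₀ : IntermediateField ℚ Kb} (hLL : L ≤ L₀)
  [IsDiscreteValuationRing ↥(s18q_A0 P L)] [IsDiscreteValuationRing ↥(s18q_A0 P L₀)]
  (ϖL : ↥(s18q_A0 P L)) (hϖL : Irreducible ϖL) (ϖ : ↥(s18q_A0 P L₀)) (hϖ : Irreducible ϖ)

set_option quotPrecheck false

local notation "VVL" => s34m_VV (s37r_G P L ϖL hϖL) (algebraMap ↥L Kb) M q hq.out hqM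
local notation "SL" => s18_chart1 (L₀ := ↥L) (s18g_jF (K := ↥L) (M * q))

include hLL in
set_option maxHeartbeats 800000 in
/-- **BASE CHANGE, one level.** -/
theorem s59n_finite_up_small (x : JZero (M * q))
    (h : s34m_F ↥L (M * q)) (hK : s33d_IsKumGen p x (s18q_incl (M * q) L h))
    (h1 : h ∈ s34m_Vinf (s37r_G P L ϖL hϖL) (M * q))
    (h1' : h⁻¹ ∈ s34m_Vinf (s37r_G P L ϖL hϖL) (M * q))
    (h2 : h ∈ s34m_Vzero (s37r_G P L ϖL hϖL) (algebraMap ↥L Kb) M q hq.out hqM)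
    (h2' : h⁻¹ ∈ s34m_Vzero (s37r_G P L ϖL hϖL) (algebraMap ↥L Kb) M q hq.out hqM)
    (hN : ∀ Q ∈ s33t_nodeN M q hqM P L ϖL hϖL, Q.ord h = 0) :
    ∃ h : s34m_F ↥L₀ (M * q),
      s33d_IsKumGen p x (s18q_incl (M * q) L₀ h) ∧
      h ∈ s34m_Vinf (s37r_G P L₀ ϖ hϖ) (M * q) ∧ h⁻¹ ∈ s34m_Vinf (s37r_G P L₀ ϖ hϖ) (M * q) ∧
      h ∈ s34m_Vzero (s37r_G P L₀ ϖ hϖ) (algebraMap ↥L₀ Kb) M q hq.out hqM ∧
      h⁻¹ ∈ s34m_Vzero (s37r_G P L₀ ϖ hϖ) (algebraMap ↥L₀ Kb) M q hq.out hqM ∧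
      ∀ Q ∈ s33t_nodeN M q hqM P L₀ ϖ hϖ, Q.ord h = 0 := by
  haveI : NeZero q := ⟨hq.out.ne_zero⟩
  refine ⟨s44e_up hLL (M * q) h, ?_, ?_, ?_, ?_, ?_, ?_⟩
  · rw [s44e_incl_up]
    exact hK
  · exact s44e_up_mem_Vinf P hLL ϖL hϖL ϖ hϖ (M * q) h1
  · rw [← map_inv₀]
    exact s44e_up_mem_Vinf P hLL ϖL hϖL ϖ hϖ (M * q) h1'
  · exact s44e_up_mem_Vzero P hLL ϖL hϖL ϖ hϖ M q hq.out hqM h2
  · rw [← map_inv₀]
    exact s44e_up_mem_Vzero P hLL ϖL hϖL ϖ hϖ M q hq.out hqM h2'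
  · intro Q hQ
    obtain ⟨Q', hord, hmem⟩ := s44e_exists_restrict hLL (M * q) Q
    rw [hord]
    exact hN Q' (s44e_nodePlaces_restrict M q hqM P hLL ϖL hϖL ϖ hϖ Q Q' hord hmem hQ)

set_option maxHeartbeats 800000 in
/-- a Kummer generator `f = G ^ p · ϖ ^ a · h` over `L`: `h` is again a Kummer generator. -/
theorem s59n_kumGen_of_glob (x : JZero (M * q))
    (f G h : s34m_F ↥L (M * q)) (a : ℤ)
    (hK : s33d_IsKumGen p x (s18q_incl (M * q) L f)) (hG : G ≠ 0)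
    (e : f = G ^ p * (s34m_unif (s37r_G P L ϖL hϖL) (M * q) ^ a * h)) :
    s33d_IsKumGen p x (s18q_incl (M * q) L h) := by
  have hϖ0 : ((ϖL : ↥(s18q_A0 P L)) : ↥L) ≠ 0 := fun h0 => hϖL.ne_zero (Subtype.ext h0)
  have hc : ((((ϖL : ↥(s18q_A0 P L)) : ↥L) ^ (-a) : ↥L) : Kb) ≠ 0 := by
    intro h0
    exact zpow_ne_zero (-a) hϖ0 (Subtype.ext h0)
  have hw : (s18q_incl (M * q) L G)⁻¹ ≠ 0 := by
    rw [Ne, inv_eq_zero, map_eq_zero]
    exact hG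
  have hK' := s33d_kumGen_mul hK hc hw
  have hh : s18q_incl (M * q) L h =
      algebraMap Kb _ ((((ϖL : ↥(s18q_A0 P L)) : ↥L) ^ (-a) : ↥L) : Kb) *
        (s18q_incl (M * q) L G)⁻¹ ^ p * s18q_incl (M * q) L f := by
    have hu : s34m_unif (s37r_G P L ϖL hϖL) (M * q) ^ a =
        algebraMap ↥L (s34m_F ↥L (M * q)) (((ϖL : ↥(s18q_A0 P L)) : ↥L) ^ a) := by
      unfold s34m_unif
      rw [map_zpow₀]
      rfl
    have hGi : s18q_incl (M * q) L G ≠ 0 := (map_ne_zero _).mpr hG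
    have ha0 : algebraMap ↥L (s34m_F ↥L (M * q)) (((ϖL : ↥(s18q_A0 P L)) : ↥L) ^ a) ≠ 0 :=
      (map_ne_zero _).mpr (zpow_ne_zero a hϖ0)
    have hci := (map_ne_zero (s18q_incl (M * q) L)).mpr ha0
    rw [← s18q_incl_algebraMap, e, hu, zpow_neg, map_inv₀, map_mul, map_mul, map_pow, map_inv₀]
    exact s44e_field_aux5 _ _ _ p hGi hci
  rw [← hh] at hK'
  exact hK'

include hLL in
set_option maxHeartbeats 800000 in
/-- **(G6) output over `L` ⇒ the `L₀`-instance of the body of `s59n_Finite`**, for ONE `L₀ ⊇ L`. -/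
theorem s59n_finite_up_glob (x : JZero (M * q))
    (f G h : s34m_F ↥L (M * q)) (a : ℤ)
    (hK : s33d_IsKumGen p x (s18q_incl (M * q) L f)) (hG : G ≠ 0)
    (e : f = G ^ p * (s34m_unif (s37r_G P L ϖL hϖL) (M * q) ^ a * h))
    (hO : ∀ i, h ∈ VVL i ∧ h⁻¹ ∈ VVL i)
    (hN : ∀ Q ∈ s33s_nodePlaces VVL (s34m_unif (s37r_G P L ϖL hϖL) (M * q)) SL, Q.ord h = 0) :
    ∃ h : s34m_F ↥L₀ (M * q),
      s33d_IsKumGen p x (s18q_incl (M * q) L₀ h) ∧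
      h ∈ s34m_Vinf (s37r_G P L₀ ϖ hϖ) (M * q) ∧ h⁻¹ ∈ s34m_Vinf (s37r_G P L₀ ϖ hϖ) (M * q) ∧
      h ∈ s34m_Vzero (s37r_G P L₀ ϖ hϖ) (algebraMap ↥L₀ Kb) M q hq.out hqM ∧
      h⁻¹ ∈ s34m_Vzero (s37r_G P L₀ ϖ hϖ) (algebraMap ↥L₀ Kb) M q hq.out hqM ∧
      ∀ Q ∈ s33t_nodeN M q hqM P L₀ ϖ hϖ, Q.ord h = 0 :=
  s59n_finite_up_small M q hqM p P hLL ϖL hϖL ϖ hϖ x h
    (s59n_kumGen_of_glob M q p P ϖL hϖL x f G h a hK hG e) (hO true).1 (hO true).2 (hO false).1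
    (hO false).2 hN

end Nodes

end Fermat.Agent.Lib.S59
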