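/-
Programme (R) / node [MP], leaf [A] = FIN (tame (★)), family N (helper7, prefix `s59n_`):
**[EX-RAM]** = helper9's `s44q_exists_wild` (`Lib/S44/QWild.lean`) with the two primes separated: residue
characteristic `p` (of `P`), and a prime `r ∣ e`.  Consequence `s59n_not_dvd_of_unram`: if the inertia group of `P`
acts trivially on `L` then no prime divides `e`, i.e. `e = 1`.
-/
import Fermat.Agent.Lib.S44.SoftDec

set_option autoImplicit false
set_option linter.style.haveILetI false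

namespace Fermat.Agent.Lib.S59

open NumberField IsDedekindDomain
open Fermat.Agent.Lib.CFT Fermat.Agent.Lib.Frey Fermat.Agent.Lib.S18 Fermat.Agent.Lib.S33
  Fermat.Agent.Lib.S36 Fermat.Agent.Lib.S44

local notation "Kb" => AlgebraicClosure ℚ

set_option maxHeartbeats 1000000 in
/-- **[EX-RAM]**: `q = ε ϖ ^ e` in `A_L = P ∩ L` (`P` over `q`), `r ∣ e` a prime: some `τ` in the inertia group of
`P` has order exactly `r` on `L`. -/
theorem s59n_exists_ram (p : ℕ) [hpF : Fact p.Prime] (r : ℕ) [hrF : Fact r.Prime]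
    (P : ValuationSubring Kb)
    (hP : P.LiesOverPrime p) (L : IntermediateField ℚ Kb) [FiniteDimensional ℚ ↥L] [Normal ℚ ↥L]
    [IsDiscreteValuationRing ↥(s18q_A0 P L)] (ϖ : ↥(s18q_A0 P L)) (hϖ : Irreducible ϖ)
    (e : ℕ) (ε : ↥L) (hε : ε ∈ s18q_A0 P L) (hεinv : ε⁻¹ ∈ s18q_A0 P L)
    (hpe : ((p : ℕ) : ↥L) = ε * (ϖ : ↥L) ^ e) (hd : r ∣ e) :
    ∃ τ ∈ P.inertiaSubgroupIn ℚ, (∀ a ∈ L, (τ ^ r) a = a) ∧ ∃ a ∈ L, τ a ≠ a := by
  classical
  have hp : p.Prime := hpF.out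
  have hr : r.Prime := hrF.out
  have hgalKb : IsGalois ℚ Kb := cfg_isGalois_QBar
  have hPp : (p : Kb) ∈ P.nonunits := hP
  haveI hnfL : NumberField ↥L := ⟨⟩
  haveI hgalL : IsGalois ℚ ↥L := ⟨⟩
  have hALnon : ∀ x : ↥L, x ∈ (s18q_A0 P L).nonunits ↔ (x : Kb) ∈ P.nonunits := fun x =>
    s36v_mem_nonunits_comap (algebraMap ↥L Kb) P x
  have hALp : ((p : ℕ) : ↥L) ∈ (s18q_A0 P L).nonunits := (hALnon _).mpr hPp
  -- the centre and its ramification index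
  set Q : Ideal (𝓞 ↥L) := cfg_center (s18q_A0 P L) with hQ
  haveI hQprime : Q.IsPrime := cfg_center_isPrime
  have hcen : Q = (cfg_center P).under (𝓞 ↥L) := by
    ext b
    rw [cfg_mem_center_iff, hALnon, Ideal.under_def, Ideal.mem_comap, cfg_mem_center_iff]
    rfl
  haveI hPprime : (cfg_center P).IsPrime := cfg_center_isPrime
  haveI hlo : (cfg_center P).LiesOver Q := ⟨hcen⟩
  obtain ⟨v, -, hv, hvp⟩ := s33d_exists_adic (s18q_A0 P L) hp hALp
  set e₀ : ℕ := Q.ramificationIdx (𝓞 ℚ) with he₀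
  set w := v.valuation ↥L with hw
  have hw_le : ∀ x : ↥L, x ∈ s18q_A0 P L ↔ w x ≤ 1 := by
    intro x
    rw [← hv]
    exact Valuation.mem_valuationSubring_iff _ _
  obtain ⟨π, hπ⟩ := v.valuation_exists_uniformizer ↥L
  have hwϖ : w ((ϖ : ↥L)) = WithZero.exp (-1 : ℤ) :=
    s44s_val_of_irreducible w (s18q_A0 P L) hw_le π hπ ϖ hϖ
  have hwε : w ε = 1 := by
    have h1 : w ε ≤ 1 := (hw_le _).mp hε
    have h2 : w ε⁻¹ ≤ 1 := (hw_le _).mp hεinv
    rw [map_inv₀] at h2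
    have hε0 : ε ≠ 0 := by
      intro h0
      rw [h0, zero_mul] at hpe
      exact (Nat.cast_ne_zero.mpr hp.ne_zero) hpe
    have hpos : 0 < w ε := zero_lt_iff.mpr ((Valuation.ne_zero_iff _).mpr hε0)
    exact le_antisymm h1 ((inv_le_one₀ hpos).mp h2)
  have hee : e₀ = e := by
    have h1 : w ((p : ℕ) : ↥L) = WithZero.exp (-((e : ℕ) : ℤ)) := by
      rw [hpe, map_mul, map_pow, hwε, one_mul, hwϖ, ← WithZero.exp_nsmul]
      congr 1
      simp
    rw [hvp] at h1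
    have h2 := WithZero.exp_injective h1
    omega
  -- the inertia group of `Q` in `Gal(L/ℚ)` has order `e`
  have hcard : Nat.card (Q.inertia (↥L ≃ₐ[ℚ] ↥L)) = e := by
    rw [s44s_card_inertia (K := ℚ) (𝕃 := ↥L) Q, ← he₀, hee]
  have hdvd : r ∣ Nat.card (Q.inertia (↥L ≃ₐ[ℚ] ↥L)) := by
    rw [hcard]; exact hd
  obtain ⟨g, hg⟩ := exists_prime_orderOf_dvd_card' r hdvd
  set γ : ↥L ≃ₐ[ℚ] ↥L := (g : ↥L ≃ₐ[ℚ] ↥L) with hγ
  have hγI : ∀ y : 𝓞 ↥L, γ • y - y ∈ Q := fun y => AddSubgroup.mem_inertia.mp g.2 y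
  have hγp : γ ^ r = 1 := by
    have h1 : g ^ r = 1 := by rw [← hg]; exact pow_orderOf_eq_one g
    have h2 := congrArg (Subtype.val) h1
    simpa using h2
  have hγ1 : γ ≠ 1 := by
    intro h1
    have h2 : g = 1 := Subtype.ext h1
    rw [h2, orderOf_one] at hg
    exact hr.one_lt.ne hg
  -- lift to `Gal(ℚ̄/ℚ)`
  obtain ⟨σ, hσ, -, hσI⟩ := cfg_exists_lifts_inertia Q (cfg_center P) γ hγI
  have hσin : σ ∈ P.inertiaSubgroupIn ℚ := by
    refine cfg_mem_inertiaSubgroupIn_of_integral hp hPp σ ?_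
    intro b hb
    obtain ⟨b', rfl⟩ : ∃ b' : 𝓞 Kb, algebraMap (𝓞 Kb) Kb b' = b :=
      (IsIntegralClosure.isIntegral_iff (A := 𝓞 Kb)).mp hb
    exact hσI b'
  have hpow : ∀ n : ℕ, ∀ x : ↥L, (σ ^ n) (algebraMap ↥L Kb x) = algebraMap ↥L Kb ((γ ^ n) x) := by
    intro n
    induction n with
    | zero => intro x; simp
    | succ n ih =>
      intro x
      rw [pow_succ, pow_succ, AlgEquiv.mul_apply, AlgEquiv.mul_apply, hσ x, ih]
  refine ⟨σ, hσin, ?_, ?_⟩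
  · intro a ha
    have h := hpow r ⟨a, ha⟩
    rw [hγp] at h
    exact h
  · obtain ⟨x, hx⟩ : ∃ x : ↥L, γ x ≠ x := by
      by_contra hcon
      push Not at hcon
      exact hγ1 (AlgEquiv.ext hcon)
    refine ⟨(x : Kb), x.2, ?_⟩
    intro h
    apply hx
    have h1 := hσ x
    apply (algebraMap ↥L Kb).injective
    rw [← h1]
    exact h


/-- **unramified ⇒ `r ∤ e`.** -/
theorem s59n_not_dvd_of_unram (p : ℕ) [hpF : Fact p.Prime] (r : ℕ) [hrF : Fact r.Prime]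
    (P : ValuationSubring Kb)
    (hP : P.LiesOverPrime p) (L : IntermediateField ℚ Kb) [FiniteDimensional ℚ ↥L] [Normal ℚ ↥L]
    [IsDiscreteValuationRing ↥(s18q_A0 P L)] (ϖ : ↥(s18q_A0 P L)) (hϖ : Irreducible ϖ)
    (e : ℕ) (ε : ↥L) (hε : ε ∈ s18q_A0 P L) (hεinv : ε⁻¹ ∈ s18q_A0 P L)
    (hpe : ((p : ℕ) : ↥L) = ε * (ϖ : ↥L) ^ e)
    (hunr : ∀ τ ∈ P.inertiaSubgroupIn ℚ, ∀ a ∈ L, τ a = a) : ¬ r ∣ e := by
  intro hd
  obtain ⟨τ, hτ, -, a, ha, hne⟩ := s59n_exists_ram p r P hP L ϖ hϖ e ε hε hεinv hpe hd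
  exact hne (hunr τ hτ a ha)

end Fermat.Agent.Lib.S59
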