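/-
Programme (R) / node [MP], leaf [A] = FIN (tame (★)), family N (helper7, prefix `s59n_`):
**(★), LOCAL FORM, TAME CASE, WITH A FREE EXPONENT `p`** (the exponent need not be the residue characteristic
`D'.p` of the Σ-datum).  Verbatim helper4's `s44c_hecke_delta` / `s44c_star_local_tame` (`Lib/S44/CoreHecke`,
`CoreTame`) with `D'.p` replaced by a prime `p`.

* `s59n_hecke_delta`     : (G3) `p ∣ δ f` from the Hecke relation `T f = c g ^ p f ^ m`, `p ∤ ℓ + 1 - m`;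
* `s59n_star_local_tame` : exact (Q4) at the nodes + `η` with `p ∤ δ η` ⇒ at every node `f = Γ ^ p υ`, `υ` a unit at
  the places through the node with `δ υ = 0`.
-/
import Fermat.Agent.Lib.S44.CoreTame

set_option autoImplicit false
set_option linter.unusedSectionVars false
set_option linter.style.haveILetI false

noncomputable section

namespace Fermat.Agent.Lib.S59

open ModularCurve AlgebraicCurve HahnSeries Polynomial Fermat.Agent.Lib.FF Fermat.Agent.Lib.S18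
  Fermat.Agent.Lib.S34 Fermat.Agent.Lib.S37 Fermat.Agent.Lib.S33 Fermat.Agent.Lib.S44

section Abstract

variable {L₀ 𝓕' κ Fb : Type*} [Field L₀] [Field 𝓕'] [Algebra L₀ 𝓕'] [Field κ] [Field Fb] [Algebra κ Fb]
variable {D' : s33f_Datum L₀ 𝓕' κ Fb} {𝓕 : Type*} [Field 𝓕] [Algebra L₀ 𝓕]
variable {ι : Type*} {k : ι → Type*} [∀ s, Field (k s)] [∀ s, Algebra κ (k s)]
variable {Z : s33z_Datum D' 𝓕 ι k} {Ns : ι → Set (Place L₀ 𝓕)}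

/-- **(G3)** with a free exponent: `p ∣ δ f`, and `δ g = (ℓ + 1 - m) · δ f / p`. -/
theorem s59n_hecke_delta {p : ℕ} (hp : p.Prime) (T : 𝓕 →* 𝓕) (ℓ : ℕ)
    (hTvi : ∀ (n : ℤ) (x : 𝓕), s44c_Val Z.Di n x → s44c_Val Z.Di (n * ((ℓ : ℤ) + 1)) (T x))
    (hTvz : ∀ (n : ℤ) (x : 𝓕), s44c_Val Z.Dz n x → s44c_Val Z.Dz (n * ((ℓ : ℤ) + 1)) (T x))
    {f g : 𝓕} {c : L₀} (hc : c ≠ 0) (hf : f ≠ 0) (hg : g ≠ 0) (m : ℤ)
    (hT : T f = algebraMap L₀ 𝓕 c * g ^ p * f ^ m) (hm : ¬ (p : ℤ) ∣ (ℓ : ℤ) + 1 - m) :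
    ∃ q : ℤ, s44c_delta Z f = p * q ∧ s44c_delta Z g = ((ℓ : ℤ) + 1 - m) * q := by
  have hc0 : algebraMap L₀ 𝓕 c ≠ 0 := (map_ne_zero_iff _ (algebraMap L₀ 𝓕).injective).mpr hc
  have hδT : s44c_delta Z (T f) = ((ℓ : ℤ) + 1) * s44c_delta Z f := by
    have hi := hTvi _ _ (s44c_v_spec (D := Z.Di) hf)
    have hz := hTvz _ _ (s44c_v_spec (D := Z.Dz) hf)
    rw [s44c_delta_eq hi hz]
    unfold s44c_delta
    ring
  have hδT' : s44c_delta Z (T f) = p * s44c_delta Z g + m * s44c_delta Z f := by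
    rw [hT, s44c_delta_mul (mul_ne_zero hc0 (pow_ne_zero _ hg)) (zpow_ne_zero _ hf),
      s44c_delta_mul hc0 (pow_ne_zero _ hg), s44c_delta_const hc, s44c_delta_pow hg,
      s44c_delta_zpow hf]
    ring
  have hrel : ((ℓ : ℤ) + 1 - m) * s44c_delta Z f = p * s44c_delta Z g := by
    rw [hδT] at hδT'
    linear_combination hδT'
  have hdvd : (p : ℤ) ∣ s44c_delta Z f := by
    have h1 : (p : ℤ) ∣ ((ℓ : ℤ) + 1 - m) * s44c_delta Z f := ⟨_, hrel⟩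
    exact ((Nat.prime_iff_prime_int.mp hp).dvd_or_dvd h1).resolve_left hm
  obtain ⟨q, hq⟩ := hdvd
  refine ⟨q, hq, ?_⟩
  have hp0 : (p : ℤ) ≠ 0 := by exact_mod_cast hp.ne_zero
  apply mul_left_cancel₀ hp0
  rw [← hrel, hq]
  ring

/-- **(★), LOCAL FORM, TAME CASE, free exponent.** -/
theorem s59n_star_local_tame {p : ℕ} (hp : p.Prime) {f : 𝓕} (hf : f ≠ 0)
    (hnode : ∀ s : ι, ∃ φ E : 𝓕, f = φ ^ p * E ∧ s44c_Unit (Ns s) E)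
    (T : 𝓕 →* 𝓕) (ℓ : ℕ)
    (hTvi : ∀ (n : ℤ) (x : 𝓕), s44c_Val Z.Di n x → s44c_Val Z.Di (n * ((ℓ : ℤ) + 1)) (T x))
    (hTvz : ∀ (n : ℤ) (x : 𝓕), s44c_Val Z.Dz n x → s44c_Val Z.Dz (n * ((ℓ : ℤ) + 1)) (T x))
    {g : 𝓕} {cg : L₀} (hcg : cg ≠ 0) (hg : g ≠ 0) (m : ℤ)
    (hT : T f = algebraMap L₀ 𝓕 cg * g ^ p * f ^ m)
    (hm : ¬ (p : ℤ) ∣ (ℓ : ℤ) + 1 - m)
    {η : 𝓕} (hη : ∀ s, s44c_Unit (Ns s) η) (hη2 : ¬ (p : ℤ) ∣ s44c_delta Z η) (s : ι) :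
    ∃ Γ υ : 𝓕, f = Γ ^ p * υ ∧ s44c_Unit (Ns s) υ ∧ s44c_delta Z υ = 0 := by
  obtain ⟨q, hq, -⟩ := s59n_hecke_delta (Z := Z) hp T ℓ hTvi hTvz hcg hf hg m hT hm
  obtain ⟨φ, E, ef, hE⟩ := hnode s
  have hφ0 : φ ≠ 0 := by
    rintro rfl
    rw [zero_pow hp.ne_zero, zero_mul] at ef
    exact hf ef
  have hδ : (p : ℤ) ∣ s44c_delta Z E := by
    have := congrArg (s44c_delta Z) ef
    rw [s44c_delta_mul (pow_ne_zero _ hφ0) hE.1, s44c_delta_pow hφ0, hq] at this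
    exact ⟨q - s44c_delta Z φ, by linear_combination -this⟩
  exact s44c_local_fin_tame (Z := Z) hp ef hE (hη s) hδ hη2

end Abstract

section Five

variable (M q : ℕ) [NeZero M] [hq : Fact q.Prime] (hqM : ¬ q ∣ M) (h5 : 5 ≤ q)
  (K₀ : Type) [Field K₀] [NumberField K₀] (φ : K₀ →+* AlgebraicClosure ℚ)
  (κ : Type) [Field κ] [CharP κ q] [PerfectField κ]
  (G : s18g_GaussData K₀ κ) [IsDiscreteValuationRing G.A]
  (hdeg : s34m_HDeg K₀ M q) (hT : s18g_HT κ M) (hdegM : s18g_HDeg K₀ M)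
  (hπ : Function.Surjective G.π)
  (e : ℕ) (ε : K₀) (he : 0 < e) (hε : ε ∈ G.A) (hεinv : ε⁻¹ ∈ G.A) (hε0 : ε ≠ 0)
  (hqe : (q : K₀) = ε * ((G.ϖ : G.A) : K₀) ^ e) (hperf : ∀ c : κ, ∃ d : κ, d ^ q = c)

/-- **(★), LOCAL FORM, TAME CASE, for `s33s_datum_five` at level `M * q`, exponent `p`**: the output is verbatim the
hypothesis `hloc` of helper8's `s44e_glob_five` (with `n := p`). -/
theorem s59n_five_star_tame {p : ℕ} (hp : p.Prime) {f : s34m_F K₀ (M * q)} (hf : f ≠ 0)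
    (hnode : ∀ s, ∃ φ' E : s34m_F K₀ (M * q), f = φ' ^ p * E ∧
      s44c_Unit (s44c_five_Ns M q hqM K₀ φ κ G s) E)
    (T : s34m_F K₀ (M * q) →* s34m_F K₀ (M * q)) (ℓ : ℕ)
    (hTvi : ∀ (n : ℤ) (x : s34m_F K₀ (M * q)),
      s44c_Val (s33s_datum_five M q hqM h5 K₀ φ κ G hdeg hT hdegM hπ e ε he hε hεinv hε0 hqe
        hperf).Di n x →
      s44c_Val (s33s_datum_five M q hqM h5 K₀ φ κ G hdeg hT hdegM hπ e ε he hε hεinv hε0 hqe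
        hperf).Di (n * ((ℓ : ℤ) + 1)) (T x))
    (hTvz : ∀ (n : ℤ) (x : s34m_F K₀ (M * q)),
      s44c_Val (s33s_datum_five M q hqM h5 K₀ φ κ G hdeg hT hdegM hπ e ε he hε hεinv hε0 hqe
        hperf).Dz n x →
      s44c_Val (s33s_datum_five M q hqM h5 K₀ φ κ G hdeg hT hdegM hπ e ε he hε hεinv hε0 hqe
        hperf).Dz (n * ((ℓ : ℤ) + 1)) (T x))
    {g : s34m_F K₀ (M * q)} {cg : K₀} (hcg : cg ≠ 0) (hg : g ≠ 0) (m : ℤ)
    (hTf : T f = algebraMap K₀ (s34m_F K₀ (M * q)) cg * g ^ p * f ^ m)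
    (hm : ¬ (p : ℤ) ∣ (ℓ : ℤ) + 1 - m)
    {η : s34m_F K₀ (M * q)} (hη : ∀ s, s44c_Unit (s44c_five_Ns M q hqM K₀ φ κ G s) η)
    (hη2 : ¬ (p : ℤ) ∣ s44c_delta
      (s33s_datum_five M q hqM h5 K₀ φ κ G hdeg hT hdegM hπ e ε he hε hεinv hε0 hqe hperf) η)
    (s : s33s_Node (s34m_VV G φ M q hq.out hqM) (s34m_unif G (M * q))
      (s18_chart1 (L₀ := K₀) (s18g_jF (K := K₀) (M * q)))) :
    ∃ (g' υ : s34m_F K₀ (M * q)) (a' : ℤ), f = g' ^ p * υ ∧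
      (∀ i, υ * s34m_unif G (M * q) ^ (-a') ∈ s34m_VV G φ M q hq.out hqM i ∧
        (υ * s34m_unif G (M * q) ^ (-a'))⁻¹ ∈ s34m_VV G φ M q hq.out hqM i) ∧
      ∀ Q ∈ s18_chart1 (L₀ := K₀) (s18g_jF (K := K₀) (M * q)),
        s34f_through (s34x_infRing (s34m_VV G φ M q hq.out hqM))
          (s18_chart1 (L₀ := K₀) (s18g_jF (K := K₀) (M * q))) s.1 Q → Q.ord υ = 0 := by
  obtain ⟨g', υ, e1, hU, hδ⟩ := s59n_star_local_tame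
    (Z := s33s_datum_five M q hqM h5 K₀ φ κ G hdeg hT hdegM hπ e ε he hε hεinv hε0 hqe hperf)
    (Ns := s44c_five_Ns M q hqM K₀ φ κ G) hp hf hnode T ℓ hTvi hTvz hcg hg m hTf hm hη hη2 s
  obtain ⟨a', ha'⟩ := s44c_five_unit_of_delta M q hqM h5 K₀ φ κ G hdeg hT hdegM hπ e ε he hε hεinv
    hε0 hqe hperf hU.1 hδ
  exact ⟨g', υ, a', e1, ha', fun Q hQ hth => hU.2 Q ⟨hQ, hth⟩⟩

/-- **helper8's modular unit is an admissible `η` for the exponent `p`** as soon as `p ∤ 12 e`. -/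
theorem s59n_five_eta_tame {p : ℕ} {g₀ : s34m_F K₀ (M * q)} (hg₀ : g₀ ≠ 0)
    (hord : ∀ Q : Place K₀ (s34m_F K₀ (M * q)), 0 ≤ Q.ord (s18g_jF (K := K₀) (M * q)) →
      Q.ord g₀ = 0)
    (hinf : g₀ * (s34m_unif G (M * q) ^ (6 * e))⁻¹ ∈ s34m_Vinf G (M * q) ∧
      (g₀ * (s34m_unif G (M * q) ^ (6 * e))⁻¹)⁻¹ ∈ s34m_Vinf G (M * q))
    (hzero : g₀ * s34m_unif G (M * q) ^ (6 * e) ∈ s34m_Vzero G φ M q hq.out hqM ∧
      (g₀ * s34m_unif G (M * q) ^ (6 * e))⁻¹ ∈ s34m_Vzero G φ M q hq.out hqM)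
    (hp1 : ¬ p ∣ 12 * e) :
    (∀ s, s44c_Unit (s44c_five_Ns M q hqM K₀ φ κ G s) g₀) ∧
      ¬ (p : ℤ) ∣ s44c_delta
        (s33s_datum_five M q hqM h5 K₀ φ κ G hdeg hT hdegM hπ e ε he hε hεinv hε0 hqe hperf) g₀ := by
  set Z := s33s_datum_five M q hqM h5 K₀ φ κ G hdeg hT hdegM hπ e ε he hε hεinv hε0 hqe hperf
    with hZ
  have hϖ0 : s34m_unif G (M * q) ≠ 0 := s34m_unif_ne_zero G (M * q)
  have hj0 : s18g_jF (K := K₀) (M * q) ≠ 0 := s18g_jF_ne_zero (M * q)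
  refine ⟨fun s => ⟨hg₀, fun Q hQ => hord Q ?_⟩, ?_⟩
  · have hQ1 : Q ∈ s18_chart1 (L₀ := K₀) (s18g_jF (K := K₀) (M * q)) := hQ.1
    exact (ff_mem_iff_ord_nonneg Q hj0).mp hQ1
  · have hi : s44c_Val Z.Di ((6 * e : ℕ) : ℤ) g₀ := by
      refine ⟨g₀ * (s34m_unif G (M * q) ^ (6 * e))⁻¹,
        mul_ne_zero hg₀ (inv_ne_zero (pow_ne_zero _ hϖ0)), hinf.1, hinf.2, ?_⟩
      show g₀ = s34m_unif G (M * q) ^ ((6 * e : ℕ) : ℤ) * _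
      rw [zpow_natCast]
      field_simp
    have hz : s44c_Val Z.Dz (-((6 * e : ℕ) : ℤ)) g₀ := by
      refine ⟨g₀ * s34m_unif G (M * q) ^ (6 * e),
        mul_ne_zero hg₀ (pow_ne_zero _ hϖ0), hzero.1, hzero.2, ?_⟩
      show g₀ = s34m_unif G (M * q) ^ (-((6 * e : ℕ) : ℤ)) * _
      rw [zpow_neg, zpow_natCast]
      field_simp
    rw [s44c_delta_eq hi hz]
    intro hd
    apply hp1
    have h1 : ((p : ℕ) : ℤ) ∣ ((12 * e : ℕ) : ℤ) := by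
      push_cast at hd ⊢
      have : (-(6 * (e : ℤ)) - 6 * (e : ℤ)) = -(12 * (e : ℤ)) := by ring
      rw [this] at hd
      exact (dvd_neg.mp hd)
    exact Int.natCast_dvd_natCast.mp h1

end Five

end Fermat.Agent.Lib.S59
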