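/-
Programme (R) / node [MP], leaf [A] = FIN (tame (★)), family N (helper7, prefix `s59n_`):
**(★) OVER A FIXED FIELD `L₀ ≤ ℚ̄`, TAME CASE, LEVEL `M * q` (`q ≥ 5`), EXPONENT `p`, `p ∤ 12 e`.**

Port of `s44k_star_tame` (`Lib/S44/KStar.lean`) with the two primes separated: `L₀ ∋ ζ_ℓ` a number field with Gauss
datum `G` over `q = ε ϖ ^ e`; `x ∈ J₀(M q)`, `T_ℓ x = a₀ x`, `p ∤ a₀ - (ℓ + 1)`; `f ∈ 𝓕_{L₀}(M q)` a Kummer generator of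
`x` of exponent `p`; exact (Q4) at the NODES of the chart `{j regular}`.
Conclusion: `f = Gg ^ p · (ϖ ^ a · h)`, `h` a unit of `V_∞` and of `V_0` with neither zero nor pole at the node places.
-/
import Fermat.Agent.Lib.S59.NStarAbs
import Fermat.Agent.Lib.S44.KStar

set_option autoImplicit false
set_option linter.style.haveILetI false
set_option linter.unusedSectionVars false
set_option synthInstance.maxHeartbeats 400000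

noncomputable section

namespace Fermat.Agent.Lib.S59

open AlgebraicCurve ModularCurve HahnSeries Fermat.Agent.Lib.FF Fermat.Agent.Lib.S18
  Fermat.Agent.Lib.S33 Fermat.Agent.Lib.S34 Fermat.Agent.Lib.S35 Fermat.Agent.Lib.S36
  Fermat.Agent.Lib.S37 Fermat.Agent.Lib.S44

local notation "Kb" => AlgebraicClosure ℚ

section FiveTau

variable (M q : ℕ) [NeZero M] [hq : Fact q.Prime] (hqM : ¬ q ∣ M) (h5 : 5 ≤ q)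
  (L₀ : IntermediateField ℚ Kb) [NumberField ↥L₀]
  (κ : Type) [Field κ] [CharP κ q] [PerfectField κ]
  (G : s18g_GaussData ↥L₀ κ) [IsDiscreteValuationRing G.A]
  (hdeg : s34m_HDeg ↥L₀ M q) (hT : s18g_HT κ M) (hdegM : s18g_HDeg ↥L₀ M)
  (hπ : Function.Surjective G.π)
  (e : ℕ) (ε : ↥L₀) (he : 0 < e) (hε : ε ∈ G.A) (hεinv : ε⁻¹ ∈ G.A) (hε0 : ε ≠ 0)
  (hqe : (q : ↥L₀) = ε * ((G.ϖ : G.A) : ↥L₀) ^ e) (hperf : ∀ c : κ, ∃ d : κ, d ^ q = c)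
  (ℓ : ℕ) [hℓ : Fact ℓ.Prime] (hℓN : ¬ ℓ ∣ M * q)
  (ζ₀ : (↥L₀)ˣ) (hζ₀ : IsPrimitiveRoot (ζ₀ : ↥L₀) ℓ)
  (p : ℕ) [hp : Fact p.Prime]

include hℓN hζ₀ in
/-- **(★), LOCAL FORM, TAME CASE, for `s33s_datum_five` over `L₀ ≤ ℚ̄` with `T = τ_ℓ`**, level `M * q`, `f` a Kummer
generator (exponent `p`) of a `T_ℓ`-eigenclass `x` with `a₀ ≢ ℓ + 1 mod p`. -/
theorem s59n_five_star_tame_tau {f : s34m_F ↥L₀ (M * q)}
    (hnode : ∀ s, ∃ φ' E : s34m_F ↥L₀ (M * q), f = φ' ^ p * E ∧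
      s44c_Unit (s44c_five_Ns M q hqM ↥L₀ (algebraMap ↥L₀ Kb) κ G s) E)
    {x : JZero (M * q)} (hf : s33d_IsKumGen p x (s18q_incl (M * q) L₀ f)) (a₀ : ℤ)
    (hx : heckeOperatorBar (M * q) ⟨ℓ, hℓ.out⟩ x = a₀ • x)
    (ha₀ : ¬ (p : ℤ) ∣ a₀ - ((ℓ : ℤ) + 1))
    {η : s34m_F ↥L₀ (M * q)}
    (hη : ∀ s, s44c_Unit (s44c_five_Ns M q hqM ↥L₀ (algebraMap ↥L₀ Kb) κ G s) η)
    (hη2 : ¬ (p : ℤ) ∣ s44c_delta
      (s33s_datum_five M q hqM h5 ↥L₀ (algebraMap ↥L₀ Kb) κ G hdeg hT hdegM hπ e ε he hε hεinv hε0 hqe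
        hperf) η)
    (s : s33s_Node (s34m_VV G (algebraMap ↥L₀ Kb) M q hq.out hqM) (s34m_unif G (M * q))
      (s18_chart1 (L₀ := ↥L₀) (s18g_jF (K := ↥L₀) (M * q)))) :
    ∃ (g' υ : s34m_F ↥L₀ (M * q)) (a' : ℤ), f = g' ^ p * υ ∧
      (∀ i, υ * s34m_unif G (M * q) ^ (-a') ∈ s34m_VV G (algebraMap ↥L₀ Kb) M q hq.out hqM i ∧
        (υ * s34m_unif G (M * q) ^ (-a'))⁻¹ ∈ s34m_VV G (algebraMap ↥L₀ Kb) M q hq.out hqM i) ∧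
      ∀ Q ∈ s18_chart1 (L₀ := ↥L₀) (s18g_jF (K := ↥L₀) (M * q)),
        s34f_through (s34x_infRing (s34m_VV G (algebraMap ↥L₀ Kb) M q hq.out hqM))
          (s18_chart1 (L₀ := ↥L₀) (s18g_jF (K := ↥L₀) (M * q))) s.1 Q → Q.ord υ = 0 := by
  have hf0 : f ≠ 0 := fun h0 => hf.1 (by rw [h0, map_zero])
  obtain ⟨c₀, g, hc₀, hg, hrel⟩ := s44c_hecke_rel (M * q) ℓ hℓN L₀ ζ₀ hζ₀ p hf a₀ hx
  have hm : ¬ (p : ℤ) ∣ (ℓ : ℤ) + 1 - a₀ := fun hd => ha₀ (by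
    have := dvd_neg.mpr hd
    rwa [neg_sub] at this)
  exact s59n_five_star_tame M q hqM h5 ↥L₀ (algebraMap ↥L₀ Kb) κ G hdeg hT hdegM hπ e ε he hε hεinv
    hε0 hqe hperf hp.out hf0 hnode (s33t_tau (M * q) ℓ hℓN L₀ ζ₀ hζ₀) ℓ
    (s44c_five_tau_val_i M q hqM h5 L₀ κ G hdeg hT hdegM hπ e ε he hε hεinv hε0 hqe hperf ℓ hℓN ζ₀
      hζ₀)
    (s44c_five_tau_val_z M q hqM h5 L₀ κ G hdeg hT hdegM hπ e ε he hε hεinv hε0 hqe hperf ℓ hℓN ζ₀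
      hζ₀)
    hc₀ hg a₀ hrel hm hη hη2 s

include h5 hdeg hT hdegM hπ he hε hεinv hε0 hqe hperf hℓN hζ₀ in
set_option maxHeartbeats 3200000 in
/-- **(★) over the field `L₀`, TAME CASE `p ∤ 12 e`, level `M * q`, exponent `p`.** -/
theorem s59n_star_tame (hp1 : ¬ p ∣ 12 * e)
    {x : JZero (M * q)} {f : s34m_F ↥L₀ (M * q)}
    (hf : s33d_IsKumGen p x (s18q_incl (M * q) L₀ f)) (a₀ : ℤ)
    (hx : heckeOperatorBar (M * q) ⟨ℓ, hℓ.out⟩ x = a₀ • x)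
    (ha₀ : ¬ (p : ℤ) ∣ a₀ - ((ℓ : ℤ) + 1))
    (hQ4 : ∀ s : s33s_Node (s34m_VV G (algebraMap ↥L₀ Kb) M q hq.out hqM) (s34m_unif G (M * q))
        (s18_chart1 (L₀ := ↥L₀) (s18g_jF (K := ↥L₀) (M * q))),
      ∃ Φ : s34m_F ↥L₀ (M * q), Φ ≠ 0 ∧
        ∀ Q ∈ s18_chart1 (L₀ := ↥L₀) (s18g_jF (K := ↥L₀) (M * q)),
          s34f_through (s34x_infRing (s34m_VV G (algebraMap ↥L₀ Kb) M q hq.out hqM))
            (s18_chart1 (L₀ := ↥L₀) (s18g_jF (K := ↥L₀) (M * q))) s.1 Q →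
          Q.ord f = ((p : ℕ) : ℤ) * Q.ord Φ) :
    ∃ (Gg h : s34m_F ↥L₀ (M * q)) (a : ℤ), Gg ≠ 0 ∧
      f = Gg ^ p * (s34m_unif G (M * q) ^ a * h) ∧
      (∀ i, h ∈ s34m_VV G (algebraMap ↥L₀ Kb) M q hq.out hqM i ∧
        h⁻¹ ∈ s34m_VV G (algebraMap ↥L₀ Kb) M q hq.out hqM i) ∧
      ∀ Q ∈ s33s_nodePlaces (s34m_VV G (algebraMap ↥L₀ Kb) M q hq.out hqM) (s34m_unif G (M * q))
        (s18_chart1 (L₀ := ↥L₀) (s18g_jF (K := ↥L₀) (M * q))), Q.ord h = 0 := by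
  haveI : NeZero q := ⟨hq.out.ne_zero⟩
  haveI : NeZero p := ⟨hp.out.ne_zero⟩
  have hf0 : f ≠ 0 := (s33d_kum_of_gen (M * q) p L₀ hf).1
  -- the modular unit
  obtain ⟨g₀, hg₀, hord, hinf, hzero⟩ :=
    s44e_exists_unit G (algebraMap ↥L₀ Kb) M q hq.out hqM h5 e ε hε hεinv hqe
  obtain ⟨hη, hη2⟩ := s59n_five_eta_tame M q hqM h5 ↥L₀ (algebraMap ↥L₀ Kb) κ G hdeg hT hdegM hπ e ε
    he hε hεinv hε0 hqe hperf (p := p) hg₀ hord hinf hzero hp1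
  -- the node factorisations
  have hnode : ∀ s : s33s_Node (s34m_VV G (algebraMap ↥L₀ Kb) M q hq.out hqM) (s34m_unif G (M * q))
      (s18_chart1 (L₀ := ↥L₀) (s18g_jF (K := ↥L₀) (M * q))),
      ∃ φ' E : s34m_F ↥L₀ (M * q), f = φ' ^ p * E ∧
        s44c_Unit (s44c_five_Ns M q hqM ↥L₀ (algebraMap ↥L₀ Kb) κ G s) E := by
    intro s
    obtain ⟨Φ, hΦ0, hΦ⟩ := hQ4 s
    refine ⟨Φ, f / Φ ^ p, ?_, div_ne_zero hf0 (pow_ne_zero p hΦ0), fun Q hQ => ?_⟩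
    · rw [mul_div_cancel₀ _ (pow_ne_zero _ hΦ0)]
    · rw [div_eq_mul_inv, Q.ord_mul hf0 (inv_ne_zero (pow_ne_zero p hΦ0)), Q.ord_inv,
        ← zpow_natCast, Q.ord_zpow, hΦ Q hQ.1 hQ.2]
      ring
  exact s44e_glob_five M q hqM h5 ↥L₀ (algebraMap ↥L₀ Kb) κ G hdeg hT hdegM hπ p hp.out.ne_zero f hf0
    (fun s => s59n_five_star_tame_tau M q hqM h5 L₀ κ G hdeg hT hdegM hπ e ε he hε hεinv hε0 hqe hperf
      ℓ hℓN ζ₀ hζ₀ p hnode hf a₀ hx ha₀ hη hη2 s)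

end FiveTau

end Fermat.Agent.Lib.S59
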