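/-
Programme (R) / node [MP], leaf [A] = FIN (tame (★)), family N (helper7, prefix `s59n_`):
**THE WIRING OF [A]**: `s59n_fin : s59n_Q4Z → s59n_Fin`.

* `s59n_Q4Z` : the ONE open input (helper9's [RAT] for the pair `(q, p)`): exact (Q4) AT THE NODES over the inertia
  field `Z = s44s_Z P L L₀` of every big finite normal `L₀ ⊇ L, L₂`, for a function `f ∈ 𝓕_L(M q)` with `p ∣ div f`.
* `s59n_Fin`  : **[A]**: level `M * q` (`q ≥ 5` prime, `q ∤ M`), exponent `p ≥ 5` prime; `L / ℚ` finite normal, UNRAMIFIED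
  at `P ∣ q` (the inertia group of `P` acts trivially on `L`); `x ∈ J₀(M q)[p]` rational over `L`, `T_ℓ₀ x = a₀ x` with
  `p ∤ a₀ - (ℓ₀ + 1)` for one prime `ℓ₀ ∤ M q`.  Then `x` is FINITE at `P` (`s59n_Finite`).

Route = helper8's `s44e_star` (`Lib/S44/EStar.lean`), tame branch only: [Q-DIV] `s44e_qdiv`, the inertia field `Z`
(helper2's `SoftDec`), `e(Z) = e(L) = 1` (`s59n_not_dvd_of_unram`), `s59n_star_tame` over `Z`, base change `Z → L₀`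
(`s59n_finite_up_glob`).
-/
import Fermat.Agent.Lib.S59.NStarField
import Fermat.Agent.Lib.S59.NBase
import Fermat.Agent.Lib.S59.NRam
import Fermat.Agent.Lib.S44.EStarAux
import Fermat.Agent.Lib.S44.EDiv
import Fermat.Agent.Lib.S44.KStarInst

set_option autoImplicit false
set_option linter.style.haveILetI false
set_option linter.unusedSectionVars false
set_option synthInstance.maxHeartbeats 400000

noncomputable section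

namespace Fermat.Agent.Lib.S59

open ModularCurve HahnSeries AlgebraicCurve Fermat.Agent.Lib.S18 Fermat.Agent.Lib.S28
  Fermat.Agent.Lib.S29 Fermat.Agent.Lib.S37 Fermat.Agent.Lib.FF Fermat.Agent.Lib.S34
  Fermat.Agent.Lib.S35 Fermat.Agent.Lib.S33 Fermat.Agent.Lib.Frey Fermat.Agent.Lib.S44

local notation "Kb" => AlgebraicClosure ℚ
local notation "Γℚ" => (AlgebraicClosure ℚ ≃ₐ[ℚ] AlgebraicClosure ℚ)

/-- **[A-Q4]** (helper9's [RAT] for `(q, p)`): exact (Q4) at the nodes over the inertia field. -/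
def s59n_Q4Z : Prop :=
  ∀ (M q : ℕ) [NeZero M] [hq : Fact q.Prime] (hqM : ¬ q ∣ M), 5 ≤ q →
    ∀ (p : ℕ) [Fact p.Prime], p ≠ q →
    ∀ (P : ValuationSubring Kb), P.LiesOverPrime q →
    ∀ (L : IntermediateField ℚ Kb) (f : s34m_F ↥L (M * q)), f ≠ 0 →
      (∀ Q : Place ↥L (s34m_F ↥L (M * q)), (p : ℤ) ∣ Q.ord f) →
    ∃ L₂ : IntermediateField ℚ Kb, FiniteDimensional ℚ L₂ ∧
      ∀ (L₀ : IntermediateField ℚ Kb) [FiniteDimensional ℚ ↥L₀] [Normal ℚ ↥L₀]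
        (hLL : L ≤ L₀), L₂ ≤ L₀ →
      ∀ [IsDiscreteValuationRing ↥(s18q_A0 P (s44s_Z P L L₀))]
        (ϖ : ↥(s18q_A0 P (s44s_Z P L L₀))) (hϖ : Irreducible ϖ),
        s59n_Q4Node M q p hqM P (s44s_Z P L L₀) ϖ hϖ (s44e_up (s44s_le_Z hLL) (M * q) f)

/-- **[A] = FIN.** -/
def s59n_Fin : Prop :=
  ∀ (M q : ℕ) [NeZero M] [hq : Fact q.Prime] (hqM : ¬ q ∣ M), 5 ≤ q →
    ∀ (p : ℕ) [Fact p.Prime], 5 ≤ p → p ≠ q →
    ∀ (P : ValuationSubring Kb), P.LiesOverPrime q →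
    ∀ (L : IntermediateField ℚ Kb) [FiniteDimensional ℚ ↥L] [Normal ℚ ↥L],
      (∀ τ ∈ P.inertiaSubgroupIn ℚ, ∀ a ∈ L, τ a = a) →
    ∀ x : JZero (M * q), p • x = 0 →
      (∀ σ : Γℚ, (∀ a ∈ L, σ a = a) → σ • x = x) →
      (∃ (ℓ₀ : Nat.Primes) (a₀ : ℤ), ¬ (ℓ₀ : ℕ) ∣ M * q ∧
        heckeOperatorBar (M * q) ℓ₀ x = a₀ • x ∧ ¬ (p : ℤ) ∣ a₀ - ((ℓ₀ : ℕ) + 1)) →
      s59n_Finite M q p hqM P x

section Inst

variable (M q : ℕ) [NeZero M] [hq : Fact q.Prime] (hqM : ¬ q ∣ M) (h5 : 5 ≤ q)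
  (p : ℕ) [hp : Fact p.Prime]
  (P : ValuationSubring Kb) (hP : P.LiesOverPrime q)
  (Z : IntermediateField ℚ Kb) [FiniteDimensional ℚ ↥Z] [IsDiscreteValuationRing ↥(s18q_A0 P Z)]
  (ϖ : ↥(s18q_A0 P Z)) (hϖ : Irreducible ϖ)
  (e : ℕ) (ε : ↥Z) (he : 0 < e) (hε : ε ∈ s18q_A0 P Z) (hεinv : ε⁻¹ ∈ s18q_A0 P Z) (hε0 : ε ≠ 0)
  (hqe : (q : ↥Z) = ε * ((ϖ : ↥(s18q_A0 P Z)) : ↥Z) ^ e)
  (ℓ : ℕ) [hℓ : Fact ℓ.Prime] (hℓN : ¬ ℓ ∣ M * q)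
  (ζ₀ : (↥Z)ˣ) (hζ₀ : IsPrimitiveRoot (ζ₀ : ↥Z) ℓ)

include h5 hP he hε hεinv hε0 hqe hℓN hζ₀ in
set_option maxHeartbeats 1600000 in
/-- **(★) over `Z`, TAME CASE `p ∤ 12 e`**, at the Gauss datum `s37r_G P Z ϖ hϖ`. -/
theorem s59n_star_tame_inst (hp1 : ¬ p ∣ 12 * e)
    {x : JZero (M * q)} {f : s34m_F ↥Z (M * q)}
    (hf : s33d_IsKumGen p x (s18q_incl (M * q) Z f)) (a₀ : ℤ)
    (hx : heckeOperatorBar (M * q) ⟨ℓ, hℓ.out⟩ x = a₀ • x)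
    (ha₀ : ¬ (p : ℤ) ∣ a₀ - ((ℓ : ℤ) + 1))
    (hQ4 : s59n_Q4Node M q p hqM P Z ϖ hϖ f) :
    s59n_GlobConcl M q p hqM P Z ϖ hϖ f := by
  haveI : NumberField ↥Z := ⟨⟩
  haveI hchar₀ : CharP (IsLocalRing.ResidueField ↥(s18q_A0 P Z)) q := s37rl_charP P hP Z
  haveI hperf₀ : PerfectField (IsLocalRing.ResidueField ↥(s18q_A0 P Z)) :=
    s37rl_perfectField P hP Z
  haveI : PerfectRing (IsLocalRing.ResidueField ↥(s18q_A0 P Z)) q := PerfectField.toPerfectRing q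
  haveI : IsDiscreteValuationRing ↥(s37r_G P Z ϖ hϖ).A :=
    (inferInstance : IsDiscreteValuationRing ↥(s18q_A0 P Z))
  have hT : s18g_HT (IsLocalRing.ResidueField ↥(s18q_A0 P Z)) M := s18t_indep_j q M hqM _
  have hdegM : s18g_HDeg ↥Z M := fun n b hb hn =>
    s18g_exists_relation M (algebraMap ↥Z Kb) hn b hb
  have hdeg : s34m_HDeg ↥Z M q := s34r_deg_HDeg (algebraMap ↥Z Kb) M q hq.out hqM
  have hπ : Function.Surjective (s37r_G P Z ϖ hϖ).π := IsLocalRing.residue_surjective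
  have hperf : ∀ c : IsLocalRing.ResidueField ↥(s18q_A0 P Z), ∃ d, d ^ q = c :=
    fun c => surjective_frobenius _ q c
  exact s59n_star_tame M q hqM h5 Z (IsLocalRing.ResidueField ↥(s18q_A0 P Z)) (s37r_G P Z ϖ hϖ) hdeg
    hT hdegM hπ e ε he hε hεinv hε0 hqe hperf ℓ hℓN ζ₀ hζ₀ p hp1 hf a₀ hx ha₀ hQ4

end Inst

set_option maxHeartbeats 4000000 in
/-- **[A] from [A-Q4].** -/
theorem s59n_fin (hQ : s59n_Q4Z) : s59n_Fin := by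
  intro M q _ hq hqM h5 p hp hp5 hpq P hP L _ _ hunr x hpx hfix ⟨ℓ₀, a₀, hℓ₀, hTx, ha₀⟩
  classical
  haveI : NeZero p := ⟨hp.out.ne_zero⟩
  haveI : NeZero q := ⟨hq.out.ne_zero⟩
  have hℓq : (ℓ₀ : ℕ) ≠ q := by
    rintro h
    exact hℓ₀ (h ▸ Dvd.intro_left M rfl)
  -- the level `L`
  haveI hdvrL : IsDiscreteValuationRing ↥(s18q_A0 P L) := s18q_A0_dvr P L hP
  obtain ⟨ϖL, hϖL⟩ := IsDiscreteValuationRing.exists_irreducible ↥(s18q_A0 P L)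
  obtain ⟨e, ε, he, hε, hεinv, hε0, hqe⟩ := s33t_exists_e P L hq.out hP ϖL hϖL
  -- `p ∤ 12 e`
  have hpe : ¬ p ∣ e := s59n_not_dvd_of_unram q p P hP L ϖL hϖL e ε hε hεinv hqe hunr
  have hp12 : ¬ p ∣ 12 * e := by
    intro hd
    rcases (Nat.Prime.dvd_mul hp.out).mp hd with h12 | h
    · have hle : p ≤ 12 := Nat.le_of_dvd (by norm_num) h12
      have hpp := hp.out
      interval_cases p <;> first | omega | (norm_num at hpp)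
    · exact hpe h
  -- [Q-DIV]
  obtain ⟨fL, hfL⟩ := s44e_qdiv (M * q) p L x hpx hfix
  obtain ⟨hfL0, hdivL⟩ := s33d_kum_of_gen (M * q) p L hfL
  -- [RAT]
  obtain ⟨L₂, hL₂fd, hQ4⟩ := hQ M q hqM h5 p hpq P hP L fL hfL0 hdivL
  -- roots of unity
  haveI : NeZero (ℓ₀ : ℕ) := ⟨ℓ₀.2.ne_zero⟩
  obtain ⟨ζℓ, hζℓ⟩ := HasEnoughRootsOfUnity.exists_primitiveRoot Kb (ℓ₀ : ℕ)
  haveI := hL₂fd
  haveI : FiniteDimensional ℚ ↥(IntermediateField.adjoin ℚ {ζℓ}) :=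
    IntermediateField.adjoin.finiteDimensional ((hζℓ.isIntegral ℓ₀.2.pos).tower_top (A := ℚ))
  haveI : FiniteDimensional ℚ ↥(L ⊔ L₂) := IntermediateField.finiteDimensional_sup _ _
  haveI : FiniteDimensional ℚ ↥(L ⊔ L₂ ⊔ IntermediateField.adjoin ℚ {ζℓ}) :=
    IntermediateField.finiteDimensional_sup _ _
  refine ⟨L ⊔ L₂ ⊔ IntermediateField.adjoin ℚ {ζℓ}, inferInstance, ?_⟩
  intro L₀ _ _ _ ϖ hϖ hLx
  have hLL : L ≤ L₀ := (le_sup_left.trans le_sup_left).trans hLx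
  have hL₂L₀ : L₂ ≤ L₀ := (le_sup_right.trans le_sup_left).trans hLx
  have hζℓL₀ : ζℓ ∈ L₀ :=
    hLx (le_sup_right (a := L ⊔ L₂) (IntermediateField.subset_adjoin ℚ {ζℓ} (Set.mem_singleton ζℓ)))
  -- the inertia field `Z`
  haveI hZfd : FiniteDimensional ℚ ↥(s44s_Z P L L₀) := s44s_Z_finiteDimensional P L L₀
  haveI hdvrZ : IsDiscreteValuationRing ↥(s18q_A0 P (s44s_Z P L L₀)) := s18q_A0_dvr P _ hP
  have hLZ : L ≤ s44s_Z P L L₀ := s44s_le_Z hLL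
  have hZL₀ : s44s_Z P L L₀ ≤ L₀ := s44s_Z_le P L L₀
  -- the uniformiser, `e`, `ε` over `Z`
  have hϖLP : (((ϖL : ↥(s18q_A0 P L)) : ↥L) : Kb) ∈ P := ϖL.2
  set ϖZ : ↥(s18q_A0 P (s44s_Z P L L₀)) :=
    ⟨⟨(((ϖL : ↥(s18q_A0 P L)) : ↥L) : Kb), hLZ (ϖL : ↥L).2⟩, hϖLP⟩ with hϖZdef
  have hϖZ : Irreducible ϖZ := s44s_irreducible_Z q hq.out P hP L L₀ hLL ϖL hϖL ϖZ rfl
  set εZ : ↥(s44s_Z P L L₀) := ⟨(ε : Kb), hLZ ε.2⟩ with hεZdef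
  have hεZ : εZ ∈ s18q_A0 P (s44s_Z P L L₀) := hε
  have hεZinv : εZ⁻¹ ∈ s18q_A0 P (s44s_Z P L L₀) := by
    have h1 : ((ε⁻¹ : ↥L) : Kb) ∈ P := hεinv
    show ((εZ⁻¹ : ↥(s44s_Z P L L₀)) : Kb) ∈ P
    simpa using h1
  have hεZ0 : εZ ≠ 0 := by
    intro h0
    apply hε0
    have := congrArg (fun z : ↥(s44s_Z P L L₀) => (z : Kb)) h0
    exact Subtype.ext this
  have hqeZ : (q : ↥(s44s_Z P L L₀)) =
      εZ * ((ϖZ : ↥(s18q_A0 P (s44s_Z P L L₀))) : ↥(s44s_Z P L L₀)) ^ e := by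
    apply Subtype.ext
    have := congrArg (fun z : ↥L => (z : Kb)) hqe
    simpa using this
  -- the function over `Z`
  set f : s34m_F ↥(s44s_Z P L L₀) (M * q) := s44e_up hLZ (M * q) fL with hfdef
  have hf : s33d_IsKumGen p x (s18q_incl (M * q) (s44s_Z P L L₀) f) := by
    rw [hfdef, s44e_incl_up]
    exact hfL
  have hQ4Z := hQ4 L₀ hLL hL₂L₀ ϖZ hϖZ
  -- the roots of unity in `Z`
  have hζℓZ : ζℓ ∈ s44s_Z P L L₀ :=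
    s44e_root_mem_Z hq.out ℓ₀.2 hℓq P hP L L₀ hζℓ.pow_eq_one hζℓL₀
  obtain ⟨ζℓ₀, hζℓ₀, -⟩ := s33t_exists_zeta (s44s_Z P L L₀) ℓ₀.2 ζℓ hζℓ hζℓZ
  haveI : Fact (ℓ₀ : ℕ).Prime := ⟨ℓ₀.2⟩
  -- (G6) over `Z`
  obtain ⟨Gg, h, a, hGg, efh, hO, hN⟩ :=
    s59n_star_tame_inst M q hqM h5 p P hP (s44s_Z P L L₀) ϖZ hϖZ e εZ he hεZ hεZinv hεZ0 hqeZ
      (ℓ₀ : ℕ) hℓ₀ ζℓ₀ hζℓ₀ hp12 hf a₀ hTx ha₀ hQ4Z
  exact s59n_finite_up_glob M q hqM p P hZL₀ ϖZ hϖZ ϖ hϖ x f Gg h a hf hGg efh hO hN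

end Fermat.Agent.Lib.S59
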