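/-
Programme (R) / node [MP] (Mazur's principle), helper9 (prefix `s59m_`): **[GEO] ⇐ [A] + [B] + [C]**.

* `s59m_exists_LH` : the field `L_H = ℚ(W[p], μ_p)`: finite, normal, `Gal(ℚ̄/L_H) = H` (`s59m_H W p`);
* `s59m_ToricFrob` : the statement of leaf [C] (helper7): a toric point satisfies `σ x = − q · w_q x`;
* `s59m_geo_of`    : `s59n_Fin` [A] → `s59m_Red` [B] → `s59m_ToricFrob` [C] → `s59m_Geo`.
-/
import Fermat.Agent.Lib.S59.MIface
import Fermat.Agent.Lib.S59.MRedDefs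
import Fermat.Agent.Lib.S59.NStar
import Fermat.Agent.Lib.S58.OLevel
import Fermat.Agent.Lib.S30.CycB

set_option autoImplicit false
set_option linter.style.haveILetI false
set_option linter.unusedSectionVars false
set_option linter.unusedVariables false

namespace Fermat.Agent.Lib.S59

open ModularCurve AlgebraicCurve Fermat.Agent.Lib.FF Fermat.Agent.Lib.S28 Fermat.Agent.Lib.S29
  Fermat.Agent.Lib.S30 Fermat.Agent.Lib.S37 Fermat.Agent.Lib.S35 Fermat.Agent.Lib.S33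
  Fermat.Agent.Lib.S44 Fermat.Agent.Lib.S58 Fermat.Agent.Lib.S41 WeierstrassCurve
  WeierstrassCurve.Affine

noncomputable section

local notation "Kb" => AlgebraicClosure ℚ
local notation "Γℚ" => (AlgebraicClosure ℚ ≃ₐ[ℚ] AlgebraicClosure ℚ)

/-! ### The field cut out by `H` -/

section LH

variable (W : WeierstrassCurve ℤ) (hΔ : W.Δ ≠ 0) (p : ℕ) [hp : Fact p.Prime]

theorem s59m_cx_smul (σ : Γℚ) (P : s58_Pt W) : s41a_cx (σ • P) = σ (s41a_cx P) := by
  rcases P with _ | ⟨x, y, h⟩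
  · exact (map_zero σ).symm
  · rfl

theorem s59m_cy_smul (σ : Γℚ) (P : s58_Pt W) : s41a_cy (σ • P) = σ (s41a_cy P) := by
  rcases P with _ | ⟨x, y, h⟩
  · exact (map_zero σ).symm
  · rfl

theorem s59m_smul_eq_of_coords (σ : Γℚ) (P : s58_Pt W) (hx : σ (s41a_cx P) = s41a_cx P)
    (hy : σ (s41a_cy P) = s41a_cy P) : σ • P = P := by
  rcases P with _ | ⟨x, y, h⟩
  · rfl
  · show Point.map σ.toAlgHom (Point.some x y h) = Point.some x y h
    rw [Point.map_some, Point.some.injEq]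
    exact ⟨hx, hy⟩

include hΔ in
/-- **the field `L_H = ℚ(W[p], μ_p)`.** -/
theorem s59m_exists_LH :
    ∃ L : IntermediateField ℚ Kb, FiniteDimensional ℚ ↥L ∧ Normal ℚ ↥L ∧
      (∀ σ : Γℚ, (∀ a ∈ L, σ a = a) → σ ∈ s59m_H W p) ∧
      (∀ h ∈ s59m_H W p, ∀ a ∈ L, h a = a) := by
  classical
  have hpP : p.Prime := hp.out
  haveI := s58o_isElliptic W hΔ
  set E : WeierstrassCurve ℚ := W.map (Int.castRingHom ℚ) with hE
  set T : Set (s58_Pt W) := {P | p • P = 0} with hT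
  have hTfin : T.Finite := by
    have hcard : Nat.card {P : (E.toAffine⁄Kb).Point // p • P = 0} = p ^ 2 :=
      Fermat.Agent.Lib.EN.ent_natCard_torsion (E.toAffine⁄Kb) p hpP.pos
    have : Finite {P : (E.toAffine⁄Kb).Point // p • P = 0} :=
      Nat.finite_of_card_ne_zero (by rw [hcard]; exact pow_ne_zero 2 hpP.ne_zero)
    exact Set.finite_coe_iff.mp (show Finite ↥T from this)
  obtain ⟨ζ, hζ⟩ := s30y_exists_primitiveRoot p 1
  rw [pow_one] at hζ
  set S : Set Kb := (s41a_cx '' T ∪ s41a_cy '' T) ∪ {ζ} with hS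
  have hSfin : S.Finite := ((hTfin.image _).union (hTfin.image _)).union (Set.finite_singleton ζ)
  set L : IntermediateField ℚ Kb := IntermediateField.adjoin ℚ S with hL
  have hTσ : ∀ (σ : Γℚ) (P : s58_Pt W), P ∈ T → σ • P ∈ T := by
    intro σ P hP
    show p • (σ • P) = 0
    have h1 : σ • (p • P) = p • (σ • P) :=
      map_nsmul (DistribSMul.toAddMonoidHom (s58_Pt W) σ) p P
    rw [← h1, show p • P = 0 from hP]
    exact smul_zero (A := s58_Pt W) σ
  have hζL : ζ ∈ L := IntermediateField.subset_adjoin ℚ S (Or.inr rfl)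
  -- `σ` maps the generators into `L`
  have hgen : ∀ (σ : Γℚ), ∀ a ∈ S, σ a ∈ L := by
    intro σ a ha
    rcases ha with (⟨P, hP, rfl⟩ | ⟨P, hP, rfl⟩) | ha
    · rw [← s59m_cx_smul]
      exact IntermediateField.subset_adjoin ℚ S (Or.inl (Or.inl ⟨_, hTσ σ P hP, rfl⟩))
    · rw [← s59m_cy_smul]
      exact IntermediateField.subset_adjoin ℚ S (Or.inl (Or.inr ⟨_, hTσ σ P hP, rfl⟩))
    · rw [Set.mem_singleton_iff] at ha
      rw [ha, s30y_eps_spec p σ 1 ζ (by rw [pow_one]; exact hζ.pow_eq_one)]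
      exact pow_mem hζL _
  refine ⟨L, ?_, ?_, ?_, ?_⟩
  · have : Finite S := hSfin.to_subtype
    exact IntermediateField.finiteDimensional_adjoin fun x _ =>
      (Fermat.Agent.Lib.Frobenius.isAlgebraic_QBar.isAlgebraic x).isIntegral
  · refine IntermediateField.normal_iff_forall_map_le'.mpr fun σ => ?_
    rw [hL, IntermediateField.adjoin_map, IntermediateField.adjoin_le_iff]
    rintro _ ⟨a, ha, rfl⟩
    exact hgen σ a ha
  · intro σ hσ
    refine ⟨fun P hP => ?_, ?_⟩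
    · have hPT : P ∈ T := hP
      exact s59m_smul_eq_of_coords W σ P
        (hσ _ (IntermediateField.subset_adjoin ℚ S (Or.inl (Or.inl ⟨P, hPT, rfl⟩))))
        (hσ _ (IntermediateField.subset_adjoin ℚ S (Or.inl (Or.inr ⟨P, hPT, rfl⟩))))
    · apply Units.ext
      rw [Units.val_one]
      have h1 := s33r_chi_eq_of_acts p σ 1 (fun ζ' hζ' => by
        obtain ⟨i, -, rfl⟩ := hζ.eq_pow_of_pow_eq_one hζ'
        rw [map_pow, hσ ζ hζL, pow_one])
      rw [← h1, Nat.cast_one]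
  · rintro h ⟨h1, h2⟩ a ha
    have hfix : ∀ b ∈ S, h b = b := by
      intro b hb
      rcases hb with (⟨P, hP, rfl⟩ | ⟨P, hP, rfl⟩) | hb
      · rw [← s59m_cx_smul, h1 P hP]
      · rw [← s59m_cy_smul, h1 P hP]
      · rw [Set.mem_singleton_iff] at hb
        rw [hb, s30y_eps_spec p h 1 ζ (by rw [pow_one]; exact hζ.pow_eq_one)]
        -- `ε h ≡ 1 mod p`
        have h3 : PadicInt.toZMod ((s30y_eps p h : ℤ_[p]ˣ) : ℤ_[p]) = 1 := by
          have := congrArg (fun u : (ZMod p)ˣ => (u : ZMod p)) h2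
          simpa [s33r_chi_val] using this
        have h4 : ((s30y_eps p h : ℤ_[p]ˣ) : ℤ_[p]) - 1 ∈
            RingHom.ker (PadicInt.toZModPow (p := p) 1) := by
          rw [PadicInt.ker_toZModPow, pow_one, ← PadicInt.maximalIdeal_eq_span_p,
            ← PadicInt.ker_toZMod, RingHom.mem_ker, map_sub, map_one, h3, sub_self]
        rw [RingHom.mem_ker, map_sub, map_one, sub_eq_zero] at h4
        rw [h4]
        haveI : Fact (1 < p ^ 1) := ⟨by rw [pow_one]; exact hpP.one_lt⟩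
        rw [ZMod.val_one, pow_one]
    have hle : L ≤ IntermediateField.fixedField (Subgroup.zpowers h) := by
      rw [hL, IntermediateField.adjoin_le_iff]
      intro b hb
      rw [SetLike.mem_coe, IntermediateField.mem_fixedField_iff]
      have hb' : h b = b := hfix b hb
      have hst : Subgroup.zpowers h ≤ MulAction.stabilizer Γℚ b :=
        (Subgroup.zpowers_le).mpr (MulAction.mem_stabilizer_iff.mpr hb')
      intro g hg
      exact MulAction.mem_stabilizer_iff.mp (hst hg)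
    have := hle ha
    rw [IntermediateField.mem_fixedField_iff] at this
    exact this h (Subgroup.mem_zpowers h)

end LH

/-! ### [GEO] ⇐ [A] + [B] + [C] -/

/-- **[C] = TORIC-FROB** (helper7): a toric point satisfies `σ x = − q · w_q x` for every Frobenius
element `σ` at `P`. -/
def s59m_ToricFrob : Prop :=
  ∀ (M : ℕ) [NeZero M] (q : ℕ) [hq : Fact q.Prime] (hqM : ¬ q ∣ M), 5 ≤ q →
    ∀ (p : ℕ) [Fact p.Prime], 5 ≤ p → p ≠ q →
    ∀ (P : ValuationSubring Kb), P.LiesOverPrime q → ∀ σ : Γℚ, P.IsFrobeniusAt σ q →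
    ∀ x : JZero (M * q), p • x = 0 → s59m_Toric M q p hqM P x →
      haveI : NeZero q := ⟨hq.out.ne_zero⟩
      σ • x = (-(q : ℤ)) • s59m_wq M q hq.out hqM x

/-- **[GEO] ⇐ [A] + [B] + [C]** (main branch `5 ≤ q`, `5 ≤ p`). -/
theorem s59m_geo_of (hA : s59n_Fin) (hB : s59m_Red) (hC : s59m_ToricFrob) : s59m_Geo := by
  intro p _ hp5 M _ q _ hq hqM _ h5q hqp W hΔ B hB1 hne A hAq σ hσ hin x hE hfix
  obtain ⟨ℓ₀, hℓ₀B, hℓ₀⟩ := hne
  haveI : Fact q.Prime := ⟨hq⟩
  obtain ⟨L, hLfd, hLn, hL1, hL2⟩ := s59m_exists_LH W hΔ p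
  haveI := hLfd
  haveI := hLn
  have hℓ₀N : ¬ (ℓ₀ : ℕ) ∣ M * q := fun hd => hℓ₀B (hB1 ℓ₀ ℓ₀.2 (hd.mul_right p))
  have hfin : s59n_Finite M q p hqM A x :=
    hA M q hqM h5q p hp5 (Ne.symm hqp) A hAq L (fun τ hτ a ha => hL2 τ (hin τ hτ) a ha) x hE.1
      (fun σ' hσ' => hfix σ' (hL1 σ' hσ')) ⟨ℓ₀, W.apOfModel ℓ₀, hℓ₀N, hE.2 ℓ₀ hℓ₀B, hℓ₀⟩
  rcases hB M q hqM h5q p (Ne.symm hqp) A hAq _ B hB1 x hE hfin with h | h
  · exact Or.inl h
  · exact Or.inr (hC M q hqM h5q p hp5 (Ne.symm hqp) A hAq σ hσ x hE.1 h)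

end

end Fermat.Agent.Lib.S59
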