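/-
Programme (R) / node [MP] (helper9, prefix `s59m_`, for helper7's tame (★) at `(q, p)`):
**THE RATIONALITY WALL (Q4) WITH THE TWO PRIMES SEPARATED.**

Level `M q` (`q ≥ 5` prime, `q ∤ M`), `P` a valuation ring of `ℚ̄` over `q`, EXPONENT `p` an arbitrary
prime (`p = q` gives back `s44q_Q4`, `s44q_Q4_inst`, `s44q_Q4_Z`, `s44q_Q4_big` of `Lib/S44/QTop*`).
The proofs are the S44 proofs verbatim: the abstract top theorem `s44q_top_abs` is applied to a Sylow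
`p`-subgroup of the inertia group `Gal(K/K₀)`; the geometric input (B2) `s44q_b2_level` does not see
the exponent.

* `s59m_Q4`      : over abstract number fields `K₀ ⊆ K`;
* `s59m_Q4_inst` : over intermediate fields `Z ≤ L₀` of `ℚ̄`;
* `s59m_Q4_Z`    : over the inertia field `Z = s44s_Z P L L₀` of every big finite normal `L₀`;
* `s59m_Q4_big`  : over every big finite normal field.
-/
import Fermat.Agent.Lib.S44.QTopZ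
import Fermat.Agent.Lib.S44.QTopBig

set_option autoImplicit false
set_option linter.style.haveILetI false
set_option linter.unusedSectionVars false
set_option synthInstance.maxHeartbeats 400000

noncomputable section

namespace Fermat.Agent.Lib.S59

open ModularCurve HahnSeries AlgebraicCurve Fermat.Agent.Lib.S18 Fermat.Agent.Lib.FF
  Fermat.Agent.Lib.S34 Fermat.Agent.Lib.S37 Fermat.Agent.Lib.S44 IsLocalRing

local notation "Qbar" => AlgebraicClosure ℚ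

set_option maxHeartbeats 4000000 in
/-- **(Q4): the rationality wall.** -/
theorem s59m_Q4 (M q : ℕ) [NeZero M] [NeZero q] (hq : q.Prime) (hqM : ¬ q ∣ M) (h5 : 5 ≤ q)
    (p : ℕ) (hp : p.Prime)
    (A : ValuationSubring Qbar) (hA : A.LiesOverPrime q)
    (K₀ K : Type) [Field K₀] [NumberField K₀] [Field K] [NumberField K] [Algebra K₀ K]
    [IsGalois ℚ K]
    (φ₀ : K₀ →+* Qbar) (φ : K →+* Qbar) (hj : ∀ a, φ (algebraMap K₀ K a) = φ₀ a)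
    [IsDiscreteValuationRing ↥(A.comap φ₀)] (ϖ₀ : ↥(A.comap φ₀)) (hϖ₀ : Irreducible ϖ₀)
    (hinert : ∀ σ : K ≃ₐ[ℚ] K, (∀ a : K₀, σ (algebraMap K₀ K a) = algebraMap K₀ K a) →
      s44q_IsInertia A φ σ)
    (f : s34m_F K₀ (M * q)) (hf : f ≠ 0)
    (hdiv : ∀ Q : Place K₀ (s34m_F K₀ (M * q)), (p : ℤ) ∣ Q.ord f)
    (hdeg : ∀ Q : Place K (s34m_F K (M * q)),
      Q.ord (s18q_map (algebraMap K₀ K) (modularFunctionFieldFull (M * q)) f) ≠ 0 → Q.deg = 1)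
    (hunif : ∀ Q₀ : Place K₀ (s34m_F K₀ (M * q)), Q₀.ord f ≠ 0 →
      ∃ u : s34m_F K₀ (M * q), u ≠ 0 ∧ Q₀.ord u = 1 ∧
        ∀ Q : Place K (s34m_F K (M * q)),
          Q.ord (s18q_map (algebraMap K₀ K) (modularFunctionFieldFull (M * q)) u) ≠ 0 → Q.deg = 1)
    (b : Bool)
    (𝔫 : Ideal ↥(s34x_ring (s34x_infRing (s34m_VV (s44q_G A φ₀ ϖ₀ hϖ₀) φ₀ M q hq hqM))
      (s18_chart1 (L₀ := K₀) (s44q_tj K₀ (M * q) b)))) [h𝔫 : 𝔫.IsMaximal]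
    (hπ𝔫 : s34x_const (s34x_infRing (s34m_VV (s44q_G A φ₀ ϖ₀ hϖ₀) φ₀ M q hq hqM))
      (s18_chart1 (L₀ := K₀) (s44q_tj K₀ (M * q) b)) ((ϖ₀ : ↥(A.comap φ₀)) : K₀)
      (s34x_inf_const_mem (s34m_VV (s44q_G A φ₀ ϖ₀ hϖ₀) φ₀ M q hq hqM) (s44q_G A φ₀ ϖ₀ hϖ₀).A
        (s34c_const_mem_VV (s44q_G A φ₀ ϖ₀ hϖ₀) φ₀ M q hq hqM) (s44q_G A φ₀ ϖ₀ hϖ₀).ϖ) ∈ 𝔫) :
    ∃ Φ : s34m_F K₀ (M * q), Φ ≠ 0 ∧
      ∀ Q ∈ s18_chart1 (L₀ := K₀) (s44q_tj K₀ (M * q) b),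
        s34f_through (s34x_infRing (s34m_VV (s44q_G A φ₀ ϖ₀ hϖ₀) φ₀ M q hq hqM))
          (s18_chart1 (L₀ := K₀) (s44q_tj K₀ (M * q) b)) 𝔫 Q →
        Q.ord f = (p : ℤ) * Q.ord Φ := by
  classical
  haveI : Fact q.Prime := ⟨hq⟩
  haveI : Fact p.Prime := ⟨hp⟩
  haveI hdvr : IsDiscreteValuationRing ↥(A.comap φ) := s18q_comap_dvr φ A q hq.ne_zero hA
  obtain ⟨ϖ, hϖ⟩ := IsDiscreteValuationRing.exists_irreducible ↥(A.comap φ)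
  haveI : Algebra.IsAlgebraic ℚ K := Algebra.IsAlgebraic.of_finite ℚ K
  haveI : Algebra.IsAlgebraic K₀ K := s44q_isAlgebraic_of_rat K₀ K
  set F₀ := modularFunctionFieldFull (M * q) with hF₀
  -- the group `I = Gal(K / K₀)`
  set E : IntermediateField ℚ K := (algebraMap K₀ K).toRatAlgHom.fieldRange with hE
  set I : Subgroup (K ≃ₐ[ℚ] K) := E.fixingSubgroup with hI
  letI : Fintype ↥I := Fintype.ofFinite _
  have hK₀ : ∀ g : ↥I, ∀ a : K₀, I.subtype g (algebraMap K₀ K a) = algebraMap K₀ K a := by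
    intro g a
    have := (IntermediateField.mem_fixingSubgroup_iff E g.1).mp g.2 (algebraMap K₀ K a)
      ⟨a, rfl⟩
    exact this
  have hfix : ∀ a : K, (∀ g : ↥I, I.subtype g a = a) → ∃ a₀ : K₀, algebraMap K₀ K a₀ = a := by
    intro a ha
    have h1 : a ∈ IntermediateField.fixedField I :=
      (IntermediateField.mem_fixedField_iff I a).mpr (fun σ hσ => ha ⟨σ, hσ⟩)
    rw [hI, IsGalois.fixedField_fixingSubgroup E] at h1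
    obtain ⟨a₀, ha₀⟩ := h1
    exact ⟨a₀, ha₀⟩
  have hin : ∀ g : ↥I, s44q_IsInertia A φ (I.subtype g) := fun g =>
    hinert g.1 (fun a => hK₀ g a)
  -- the chart data of `K / K₀`
  have D := s44q_chartData_inst A φ₀ φ hj ϖ₀ hϖ₀ ϖ hϖ M q hq hqM I.subtype hK₀ hfix hin
    (s44q_tj K₀ (M * q) b)
  rw [s44q_map_tj] at D
  have hπO : ∀ i, algebraMap K (s34m_F K (M * q)) ((ϖ : ↥(A.comap φ)) : K) ∈
      s34m_VV (s44q_G A φ ϖ hϖ) φ M q hq hqM i := fun i =>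
    s34c_const_mem_VV (s44q_G A φ ϖ hϖ) φ M q hq hqM i (s44q_G A φ ϖ hϖ).ϖ
  -- the closed point upstairs
  obtain ⟨𝔫', h𝔫'max, hcomap⟩ := D.exists_over 𝔫
  haveI := h𝔫'max
  haveI h𝔫'prime : 𝔫'.IsPrime := h𝔫'max.isPrime
  have hπ𝔫' : s44q_piB _ _ ((ϖ : ↥(A.comap φ)) : K) hπO ∈ 𝔫' := by
    -- `ϖ₀ = unit * ϖ ^ e`
    have hx0 : algebraMap K₀ K ((ϖ₀ : ↥(A.comap φ₀)) : K₀) ∈ A.comap φ := by
      show φ (algebraMap K₀ K ((ϖ₀ : ↥(A.comap φ₀)) : K₀)) ∈ A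
      rw [hj]
      exact ϖ₀.2
    set x : ↥(A.comap φ) := ⟨algebraMap K₀ K ((ϖ₀ : ↥(A.comap φ₀)) : K₀), hx0⟩ with hx
    have hxne : x ≠ 0 := by
      intro h
      have h1 : algebraMap K₀ K ((ϖ₀ : ↥(A.comap φ₀)) : K₀) = 0 := congrArg Subtype.val h
      rw [map_eq_zero] at h1
      exact hϖ₀.ne_zero (Subtype.ext h1)
    obtain ⟨n, u, hu⟩ := IsDiscreteValuationRing.eq_unit_mul_pow_irreducible hxne hϖ
    set cH := s34f_constHom (s44q_G A φ ϖ hϖ).A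
      (s34x_infRing (s34m_VV (s44q_G A φ ϖ hϖ) φ M q hq hqM))
      (s34x_inf_const_mem (s34m_VV (s44q_G A φ ϖ hϖ) φ M q hq hqM) (s44q_G A φ ϖ hϖ).A
        (s34c_const_mem_VV (s44q_G A φ ϖ hϖ) φ M q hq hqM))
      (s18_chart1 (L₀ := K) (s44q_tj K (M * q) b)) with hcH
    have hmem : cH x ∈ 𝔫' := by
      have h1 : s34x_const (s34x_infRing (s34m_VV (s44q_G A φ₀ ϖ₀ hϖ₀) φ₀ M q hq hqM))
          (s18_chart1 (L₀ := K₀) (s44q_tj K₀ (M * q) b)) ((ϖ₀ : ↥(A.comap φ₀)) : K₀)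
          (s34x_inf_const_mem (s34m_VV (s44q_G A φ₀ ϖ₀ hϖ₀) φ₀ M q hq hqM)
            (s44q_G A φ₀ ϖ₀ hϖ₀).A
            (s34c_const_mem_VV (s44q_G A φ₀ ϖ₀ hϖ₀) φ₀ M q hq hqM) (s44q_G A φ₀ ϖ₀ hϖ₀).ϖ) ∈
          𝔫'.comap D.chartHom := by
        rw [hcomap]
        exact hπ𝔫
      rw [Ideal.mem_comap] at h1
      have e : cH x = D.chartHom (s34x_const
          (s34x_infRing (s34m_VV (s44q_G A φ₀ ϖ₀ hϖ₀) φ₀ M q hq hqM))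
          (s18_chart1 (L₀ := K₀) (s44q_tj K₀ (M * q) b)) ((ϖ₀ : ↥(A.comap φ₀)) : K₀)
          (s34x_inf_const_mem (s34m_VV (s44q_G A φ₀ ϖ₀ hϖ₀) φ₀ M q hq hqM)
            (s44q_G A φ₀ ϖ₀ hϖ₀).A
            (s34c_const_mem_VV (s44q_G A φ₀ ϖ₀ hϖ₀) φ₀ M q hq hqM)
            (s44q_G A φ₀ ϖ₀ hϖ₀).ϖ)) := by
        apply Subtype.ext
        rw [D.chartHom_coe]
        show algebraMap K _ (algebraMap K₀ K ((ϖ₀ : ↥(A.comap φ₀)) : K₀)) =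
          s18q_map (algebraMap K₀ K) _ (algebraMap K₀ _ ((ϖ₀ : ↥(A.comap φ₀)) : K₀))
        rw [s18q_map_algebraMap]
      rw [e]
      exact h1
    have e2 : cH x = cH (u : ↥(A.comap φ)) * cH ϖ ^ n := by
      rw [hu]
      exact (map_mul cH _ _).trans (congrArg _ (map_pow cH _ _))
    rw [e2] at hmem
    have hunit : IsUnit (cH (u : ↥(A.comap φ))) := (Units.isUnit u).map cH
    have h2 : cH ϖ ^ n ∈ 𝔫' := by
      rcases h𝔫'prime.mem_or_mem hmem with h | h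
      · exact absurd (𝔫'.eq_top_of_isUnit_mem h hunit) h𝔫'prime.ne_top
      · exact h
    exact h𝔫'prime.mem_of_pow_mem n h2
  have hπ𝔫'c : s34x_const (s34x_infRing (s34m_VV (s44q_G A φ ϖ hϖ) φ M q hq hqM))
      (s18_chart1 (L₀ := K) (s44q_tj K (M * q) b)) ((ϖ : ↥(A.comap φ)) : K)
      (s34x_inf_const_mem (s34m_VV (s44q_G A φ ϖ hϖ) φ M q hq hqM) (s44q_G A φ ϖ hϖ).A
        (s34c_const_mem_VV (s44q_G A φ ϖ hϖ) φ M q hq hqM) (s44q_G A φ ϖ hϖ).ϖ) ∈ 𝔫' := hπ𝔫'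
  -- the action, the set `T` of places through `𝔫'`, the rational places
  set ρ := s44q_rho F₀ I.subtype with hρ
  set T : Set (Place K (s34m_F K (M * q))) :=
    {Q | Q ∈ s18_chart1 (L₀ := K) (s44q_tj K (M * q) b) ∧
      s34f_through (s34x_infRing (s34m_VV (s44q_G A φ ϖ hϖ) φ M q hq hqM))
        (s18_chart1 (L₀ := K) (s44q_tj K (M * q) b)) 𝔫' Q} with hTdef
  have hT : s44q_Stable ρ T := by
    intro g Q hQ
    have hgS := D.smul_mem_chart g hQ.1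
    refine ⟨hgS, (D.through_iff hπO 𝔫' hπ𝔫' _ hgS).mpr ?_⟩
    rw [s44q_restrict_smul K₀ F₀ D.hK₀]
    exact (D.through_iff hπO 𝔫' hπ𝔫' Q hQ.1).mp hQ.2
  set R : Set (Place K (s34m_F K (M * q))) := {Q | Q.deg = 1} with hRdef
  have hR : ∀ g : ↥I, ∀ Q ∈ R, ρ g • Q ∈ R := by
    intro g Q hQ
    show (ρ g • Q).deg = 1
    rw [SemilinearAut.deg_smul]
    exact hQ
  -- a Sylow subgroup
  obtain ⟨P⟩ : Nonempty (Sylow p ↥I) := inferInstance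
  have hP : IsPGroup p ↥(P : Subgroup ↥I) := P.isPGroup'
  have hcop : Nat.Coprime (P : Subgroup ↥I).index p :=
    ((Nat.Prime.coprime_iff_not_dvd hp).mpr P.not_dvd_index).symm
  -- finiteness of supports on the chart
  have hdegN : s18g_HDeg K (M * q) := fun n b hb hn => s18g_exists_relation (M * q) φ hn b hb
  haveI : FFGen K (s18g_jF (K := K) (M * q)) := s18b_ffGen_jF (M * q) hdegN
  haveI : FFGen K (s44q_tj K (M * q) b) := by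
    cases b
    · exact ff_gen_inv
    · exact inferInstanceAs (FFGen K (s18g_jF (K := K) (M * q)))
  have hfinT : ∀ y : s34m_F K (M * q), y ≠ 0 → {Q | Q ∈ T ∧ Q.ord y ≠ 0}.Finite := by
    intro y hy
    refine (s34x_finite_ord_ne_zero1 (s44q_tj K (M * q) b) hy).subset ?_
    rintro Q ⟨hQT, hQy⟩
    exact ⟨hQT.1, hQy⟩
  have hι0 : ∀ y : s34m_F K₀ (M * q), y ≠ 0 → s18q_map (algebraMap K₀ K) F₀ y ≠ 0 :=
    fun y hy => (map_ne_zero _).mpr hy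
  -- (B2)
  have hB2 : ∀ H : Subgroup ↥I, H ≤ (P : Subgroup ↥I) → ∀ Q ∈ T, ∀ Q' ∈ T, Q ∈ R → Q' ∈ R →
      (∀ g ∈ H, ρ g • Q = Q) → (∀ g ∈ H, ρ g • Q' = Q') →
      ¬ s44q_LocInv ρ T H Q → ¬ s44q_LocInv ρ T H Q' → Q = Q' := by
    intro H _ Q hQT Q' hQ'T hQR hQ'R hfixQ hfixQ' hno hno'
    set H' : Subgroup (K ≃ₐ[ℚ] K) := H.map I.subtype with hH'
    set E' : IntermediateField ℚ K := IntermediateField.fixedField H' with hE'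
    haveI : NumberField ↥E' := ⟨⟩
    haveI : Algebra.IsAlgebraic ↥E' K := s44q_isAlgebraic_of_rat ↥E' K
    letI : Fintype ↥H := Fintype.ofFinite _
    refine s44q_b2_level M q hq hqM h5 A hA ↥E' K (φ.comp (algebraMap ↥E' K)) φ (fun a => rfl)
      ϖ hϖ (I.subtype.comp H.subtype) ?_ ?_ (fun g => hin g.1) b 𝔫' hπ𝔫'c Q Q' hQT.1 hQ'T.1
      hQT.2 hQ'T.2 hQR hQ'R (fun g => hfixQ g.1 g.2) (fun g => hfixQ' g.1 g.2) ?_ ?_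
    · intro g a
      have ha : (a : K) ∈ IntermediateField.fixedField H' := a.2
      rw [IntermediateField.mem_fixedField_iff] at ha
      exact ha _ (Subgroup.mem_map_of_mem I.subtype g.2)
    · intro a ha
      have h1 : a ∈ IntermediateField.fixedField H' := by
        rw [IntermediateField.mem_fixedField_iff]
        intro σ hσ
        obtain ⟨g, hg, rfl⟩ := Subgroup.mem_map.mp hσ
        exact ha ⟨g, hg⟩
      exact ⟨⟨a, h1⟩, rfl⟩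
    · rintro ⟨φ', h1, h2⟩
      exact hno ⟨φ', h1, fun g hg => h2 ⟨g, hg⟩⟩
    · rintro ⟨φ', h1, h2⟩
      exact hno' ⟨φ', h1, fun g hg => h2 ⟨g, hg⟩⟩
  -- the abstract top theorem
  obtain ⟨Φ, hΦ0, hΦinv, hΦ⟩ := s44q_top_abs hT R hR (P : Subgroup ↥I) p hP hcop hB2
    (s18q_map (algebraMap K₀ K) F₀ f) (hι0 f hf) (fun g => s44q_rho_map F₀ hK₀ g f)
    (hfinT _ (hι0 f hf))
    (fun Q _ => by rw [s18q_ord_restrictGen]; exact hdiv _)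
    (fun Q _ hQ => hdeg Q hQ)
    (by
      intro Q _ hQf
      rw [s18q_ord_restrictGen] at hQf
      obtain ⟨u, hu0, hu1, hudeg⟩ := hunif _ hQf
      refine ⟨s18q_map (algebraMap K₀ K) F₀ u, hι0 u hu0, fun g => s44q_rho_map F₀ hK₀ g u, ?_,
        hfinT _ (hι0 u hu0), fun Q' _ hQ' => hudeg Q' hQ'⟩
      rw [s18q_ord_restrictGen]
      exact hu1)
  -- Galois descent of the root
  obtain ⟨Φ₀, hΦ₀⟩ := s44q_inv_descent F₀ hK₀ hfix Φ hΦinv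
  refine ⟨Φ₀, ?_, ?_⟩
  · rintro rfl
    rw [map_zero] at hΦ₀
    exact hΦ0 hΦ₀.symm
  · intro Q₀ hQ₀S hQ₀th
    obtain ⟨Q, rfl⟩ := s18q_restrictGen_surjective K₀ (K := K) F₀ Q₀
    have hQS : Q ∈ s18_chart1 (L₀ := K) (s44q_tj K (M * q) b) := (D.hS Q).mpr hQ₀S
    have hQth : s34f_through (s34x_infRing (s34m_VV (s44q_G A φ ϖ hϖ) φ M q hq hqM))
        (s18_chart1 (L₀ := K) (s44q_tj K (M * q) b)) 𝔫' Q := by
      rw [D.through_iff hπO 𝔫' hπ𝔫' Q hQS, hcomap]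
      exact hQ₀th
    have h := hΦ Q ⟨hQS, hQth⟩
    rw [← hΦ₀, s18q_ord_restrictGen, s18q_ord_restrictGen] at h
    exact h

set_option maxHeartbeats 2000000 in
/-- **(Q4) over an intermediate field `Z` containing the inertia field of `L₀`.** -/
theorem s59m_Q4_inst (M q : ℕ) [NeZero M] [NeZero q] (hq : q.Prime) (hqM : ¬ q ∣ M) (h5 : 5 ≤ q)
    (p : ℕ) (hp : p.Prime)
    (P : ValuationSubring Qbar) (hP : P.LiesOverPrime q)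
    (Z L₀ : IntermediateField ℚ Qbar) (hZ : Z ≤ L₀) [FiniteDimensional ℚ ↥L₀] [Normal ℚ ↥L₀]
    [IsDiscreteValuationRing ↥(s18q_A0 P Z)] (ϖ : ↥(s18q_A0 P Z)) (hϖ : Irreducible ϖ)
    (hinert : ∀ γ : ↥L₀ ≃ₐ[ℚ] ↥L₀, (∀ y : ↥L₀, (y : Qbar) ∈ Z → γ y = y) →
      ∀ a ∈ s18q_A0 P L₀, γ a ∈ s18q_A0 P L₀ ∧ γ a - a ∈ (s18q_A0 P L₀).nonunits)
    (f : s34m_F ↥Z (M * q)) (hf : f ≠ 0)
    (hdiv : ∀ Q : Place ↥Z (s34m_F ↥Z (M * q)), (p : ℤ) ∣ Q.ord f)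
    (hdeg : ∀ Q : Place ↥L₀ (s34m_F ↥L₀ (M * q)), Q.ord (s44q_up (M * q) hZ f) ≠ 0 → Q.deg = 1)
    (hunif : ∀ Q₀ : Place ↥Z (s34m_F ↥Z (M * q)), Q₀.ord f ≠ 0 →
      ∃ u : s34m_F ↥Z (M * q), u ≠ 0 ∧ Q₀.ord u = 1 ∧
        ∀ Q : Place ↥L₀ (s34m_F ↥L₀ (M * q)), Q.ord (s44q_up (M * q) hZ u) ≠ 0 → Q.deg = 1) :
    (∀ 𝔫 : Ideal (s34x_ring (s34x_infRing
        (s34m_VV (s37r_G P Z ϖ hϖ) (algebraMap ↥Z Qbar) M q hq hqM))
        (s18_chart1 (L₀ := ↥Z) (s18g_jF (K := ↥Z) (M * q)))), 𝔫.IsMaximal →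
      s34x_const (s34x_infRing (s34m_VV (s37r_G P Z ϖ hϖ) (algebraMap ↥Z Qbar) M q hq hqM))
        (s18_chart1 (L₀ := ↥Z) (s18g_jF (K := ↥Z) (M * q)))
        (((s37r_G P Z ϖ hϖ).ϖ : (s37r_G P Z ϖ hϖ).A) : ↥Z)
        (s34x_inf_const_mem (s34m_VV (s37r_G P Z ϖ hϖ) (algebraMap ↥Z Qbar) M q hq hqM)
          (s37r_G P Z ϖ hϖ).A
          (s34c_const_mem_VV (s37r_G P Z ϖ hϖ) (algebraMap ↥Z Qbar) M q hq hqM)
          (s37r_G P Z ϖ hϖ).ϖ) ∈ 𝔫 →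
      ∃ Φ : s34m_F ↥Z (M * q), Φ ≠ 0 ∧
        ∀ Q ∈ s18_chart1 (L₀ := ↥Z) (s18g_jF (K := ↥Z) (M * q)),
          s34f_through (s34x_infRing
            (s34m_VV (s37r_G P Z ϖ hϖ) (algebraMap ↥Z Qbar) M q hq hqM))
            (s18_chart1 (L₀ := ↥Z) (s18g_jF (K := ↥Z) (M * q))) 𝔫 Q →
          Q.ord f = ((p : ℕ) : ℤ) * Q.ord Φ) ∧
    (∀ 𝔫 : Ideal (s34x_ring (s34x_infRing
        (s34m_VV (s37r_G P Z ϖ hϖ) (algebraMap ↥Z Qbar) M q hq hqM))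
        (s18_chart2 (L₀ := ↥Z) (s18g_jF (K := ↥Z) (M * q)))), 𝔫.IsMaximal →
      s34x_const (s34x_infRing (s34m_VV (s37r_G P Z ϖ hϖ) (algebraMap ↥Z Qbar) M q hq hqM))
        (s18_chart2 (L₀ := ↥Z) (s18g_jF (K := ↥Z) (M * q)))
        (((s37r_G P Z ϖ hϖ).ϖ : (s37r_G P Z ϖ hϖ).A) : ↥Z)
        (s34x_inf_const_mem (s34m_VV (s37r_G P Z ϖ hϖ) (algebraMap ↥Z Qbar) M q hq hqM)
          (s37r_G P Z ϖ hϖ).A
          (s34c_const_mem_VV (s37r_G P Z ϖ hϖ) (algebraMap ↥Z Qbar) M q hq hqM)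
          (s37r_G P Z ϖ hϖ).ϖ) ∈ 𝔫 →
      ∃ Φ : s34m_F ↥Z (M * q), Φ ≠ 0 ∧
        ∀ Q ∈ s18_chart2 (L₀ := ↥Z) (s18g_jF (K := ↥Z) (M * q)),
          s34f_through (s34x_infRing
            (s34m_VV (s37r_G P Z ϖ hϖ) (algebraMap ↥Z Qbar) M q hq hqM))
            (s18_chart2 (L₀ := ↥Z) (s18g_jF (K := ↥Z) (M * q))) 𝔫 Q →
          Q.ord f = ((p : ℕ) : ℤ) * Q.ord Φ) := by
  classical
  letI : Algebra ↥Z ↥L₀ := (IntermediateField.inclusion hZ).toRingHom.toAlgebra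
  haveI : FiniteDimensional ℚ ↥Z :=
    FiniteDimensional.of_injective (IntermediateField.inclusion hZ).toLinearMap
      (IntermediateField.inclusion hZ).injective
  haveI : NumberField ↥Z := ⟨⟩
  haveI : NumberField ↥L₀ := ⟨⟩
  haveI : IsGalois ℚ ↥L₀ := ⟨⟩
  haveI : IsDiscreteValuationRing ↥(P.comap (algebraMap ↥Z Qbar)) :=
    ‹IsDiscreteValuationRing ↥(s18q_A0 P Z)›
  have hj : ∀ a : ↥Z, algebraMap ↥L₀ Qbar (algebraMap ↥Z ↥L₀ a) = algebraMap ↥Z Qbar a :=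
    fun a => rfl
  have hinert' : ∀ σ : ↥L₀ ≃ₐ[ℚ] ↥L₀,
      (∀ a : ↥Z, σ (algebraMap ↥Z ↥L₀ a) = algebraMap ↥Z ↥L₀ a) →
      s44q_IsInertia P (algebraMap ↥L₀ Qbar) σ := by
    intro σ hσ
    exact hinert σ (fun y hy => hσ ⟨(y : Qbar), hy⟩)
  constructor
  · intro 𝔫 h𝔫 hπ𝔫
    exact s59m_Q4 M q hq hqM h5 p hp P hP ↥Z ↥L₀ (algebraMap ↥Z Qbar) (algebraMap ↥L₀ Qbar) hj ϖ hϖ
      hinert' f hf hdiv hdeg hunif true 𝔫 (h𝔫 := h𝔫) hπ𝔫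
  · intro 𝔫 h𝔫 hπ𝔫
    exact s59m_Q4 M q hq hqM h5 p hp P hP ↥Z ↥L₀ (algebraMap ↥Z Qbar) (algebraMap ↥L₀ Qbar) hj ϖ hϖ
      hinert' f hf hdiv hdeg hunif false 𝔫 (h𝔫 := h𝔫) hπ𝔫

set_option maxHeartbeats 2000000 in
/-- **THE RATIONALITY WALL over the inertia field.** -/
theorem s59m_Q4_Z (M q : ℕ) [NeZero M] [NeZero q] (hq : q.Prime) (hqM : ¬ q ∣ M) (h5 : 5 ≤ q)
    (p : ℕ) (hp : p.Prime)
    (P : ValuationSubring Qbar) (hP : P.LiesOverPrime q)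
    (L : IntermediateField ℚ Qbar) (f : s34m_F ↥L (M * q)) (hf : f ≠ 0)
    (hdiv : ∀ Q : Place ↥L (s34m_F ↥L (M * q)), (p : ℤ) ∣ Q.ord f) :
    ∃ L₂ : IntermediateField ℚ Qbar, FiniteDimensional ℚ L₂ ∧
      ∀ (L₀ : IntermediateField ℚ Qbar) [FiniteDimensional ℚ ↥L₀] [Normal ℚ ↥L₀]
        (hLL : L ≤ L₀), L₂ ≤ L₀ →
      ∀ [IsDiscreteValuationRing ↥(s18q_A0 P (s44s_Z P L L₀))]
        (ϖ : ↥(s18q_A0 P (s44s_Z P L L₀))) (hϖ : Irreducible ϖ),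
    (∀ 𝔫 : Ideal (s34x_ring (s34x_infRing
        (s34m_VV (s37r_G P (s44s_Z P L L₀) ϖ hϖ) (algebraMap ↥(s44s_Z P L L₀) Qbar) M q hq hqM))
        (s18_chart1 (L₀ := ↥(s44s_Z P L L₀)) (s18g_jF (K := ↥(s44s_Z P L L₀)) (M * q)))),
      𝔫.IsMaximal →
      s34x_const (s34x_infRing (s34m_VV (s37r_G P (s44s_Z P L L₀) ϖ hϖ)
          (algebraMap ↥(s44s_Z P L L₀) Qbar) M q hq hqM))
        (s18_chart1 (L₀ := ↥(s44s_Z P L L₀)) (s18g_jF (K := ↥(s44s_Z P L L₀)) (M * q)))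
        (((s37r_G P (s44s_Z P L L₀) ϖ hϖ).ϖ : (s37r_G P (s44s_Z P L L₀) ϖ hϖ).A) :
          ↥(s44s_Z P L L₀))
        (s34x_inf_const_mem (s34m_VV (s37r_G P (s44s_Z P L L₀) ϖ hϖ)
            (algebraMap ↥(s44s_Z P L L₀) Qbar) M q hq hqM)
          (s37r_G P (s44s_Z P L L₀) ϖ hϖ).A
          (s34c_const_mem_VV (s37r_G P (s44s_Z P L L₀) ϖ hϖ)
            (algebraMap ↥(s44s_Z P L L₀) Qbar) M q hq hqM)
          (s37r_G P (s44s_Z P L L₀) ϖ hϖ).ϖ) ∈ 𝔫 →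
      ∃ Φ : s34m_F ↥(s44s_Z P L L₀) (M * q), Φ ≠ 0 ∧
        ∀ Q ∈ s18_chart1 (L₀ := ↥(s44s_Z P L L₀)) (s18g_jF (K := ↥(s44s_Z P L L₀)) (M * q)),
          s34f_through (s34x_infRing (s34m_VV (s37r_G P (s44s_Z P L L₀) ϖ hϖ)
              (algebraMap ↥(s44s_Z P L L₀) Qbar) M q hq hqM))
            (s18_chart1 (L₀ := ↥(s44s_Z P L L₀)) (s18g_jF (K := ↥(s44s_Z P L L₀)) (M * q)))
            𝔫 Q →
          Q.ord (s44q_up (M * q) (s44s_le_Z hLL) f) = ((p : ℕ) : ℤ) * Q.ord Φ) ∧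
    (∀ 𝔫 : Ideal (s34x_ring (s34x_infRing
        (s34m_VV (s37r_G P (s44s_Z P L L₀) ϖ hϖ) (algebraMap ↥(s44s_Z P L L₀) Qbar) M q hq hqM))
        (s18_chart2 (L₀ := ↥(s44s_Z P L L₀)) (s18g_jF (K := ↥(s44s_Z P L L₀)) (M * q)))),
      𝔫.IsMaximal →
      s34x_const (s34x_infRing (s34m_VV (s37r_G P (s44s_Z P L L₀) ϖ hϖ)
          (algebraMap ↥(s44s_Z P L L₀) Qbar) M q hq hqM))
        (s18_chart2 (L₀ := ↥(s44s_Z P L L₀)) (s18g_jF (K := ↥(s44s_Z P L L₀)) (M * q)))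
        (((s37r_G P (s44s_Z P L L₀) ϖ hϖ).ϖ : (s37r_G P (s44s_Z P L L₀) ϖ hϖ).A) :
          ↥(s44s_Z P L L₀))
        (s34x_inf_const_mem (s34m_VV (s37r_G P (s44s_Z P L L₀) ϖ hϖ)
            (algebraMap ↥(s44s_Z P L L₀) Qbar) M q hq hqM)
          (s37r_G P (s44s_Z P L L₀) ϖ hϖ).A
          (s34c_const_mem_VV (s37r_G P (s44s_Z P L L₀) ϖ hϖ)
            (algebraMap ↥(s44s_Z P L L₀) Qbar) M q hq hqM)
          (s37r_G P (s44s_Z P L L₀) ϖ hϖ).ϖ) ∈ 𝔫 →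
      ∃ Φ : s34m_F ↥(s44s_Z P L L₀) (M * q), Φ ≠ 0 ∧
        ∀ Q ∈ s18_chart2 (L₀ := ↥(s44s_Z P L L₀)) (s18g_jF (K := ↥(s44s_Z P L L₀)) (M * q)),
          s34f_through (s34x_infRing (s34m_VV (s37r_G P (s44s_Z P L L₀) ϖ hϖ)
              (algebraMap ↥(s44s_Z P L L₀) Qbar) M q hq hqM))
            (s18_chart2 (L₀ := ↥(s44s_Z P L L₀)) (s18g_jF (K := ↥(s44s_Z P L L₀)) (M * q)))
            𝔫 Q →
          Q.ord (s44q_up (M * q) (s44s_le_Z hLL) f) = ((p : ℕ) : ℤ) * Q.ord Φ) := by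
  classical
  obtain ⟨L₂, hfd, hL₂⟩ := s44q_rat_tower (M * q) L f hf
  refine ⟨L₂, hfd, ?_⟩
  intro L₀ hfd₀ hnorm hLL hle hdvr ϖ hϖ
  haveI : FiniteDimensional ℚ ↥(s44s_Z P L L₀) := s44s_Z_finiteDimensional P L L₀
  have halg : Algebra.IsAlgebraic ℚ ↥(s44s_Z P L L₀) := Algebra.IsAlgebraic.of_finite ℚ _
  obtain ⟨hdeg, hunif⟩ := hL₂ (s44s_Z P L L₀) L₀ (s44s_le_Z hLL) (s44s_Z_le P L L₀) hle halg
  have hf' : s44q_up (M * q) (s44s_le_Z (P := P) hLL) f ≠ 0 := (map_ne_zero _).mpr hf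
  have hdiv' : ∀ Q : Place ↥(s44s_Z P L L₀) (s34m_F ↥(s44s_Z P L L₀) (M * q)),
      (p : ℤ) ∣ Q.ord (s44q_up (M * q) (s44s_le_Z (P := P) hLL) f) := by
    intro Q
    obtain ⟨ρ, -, hρ⟩ := s18q_restrict_gen
      (IntermediateField.inclusion (s44s_le_Z (P := P) hLL)).toRingHom
      (modularFunctionFieldFull (M * q))
    have : Q.ord (s44q_up (M * q) (s44s_le_Z (P := P) hLL) f) = (ρ Q).ord f := hρ Q f
    rw [this]
    exact hdiv _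
  exact s59m_Q4_inst M q hq hqM h5 p hp P hP (s44s_Z P L L₀) L₀ (s44s_Z_le P L L₀) ϖ hϖ
    (fun γ hγ => (s44s_fix_Z_inertia P L L₀ γ hγ).2)
    (s44q_up (M * q) (s44s_le_Z hLL) f) hf' hdiv' hdeg hunif

set_option maxHeartbeats 2000000 in
/-- **(Q4) over every big finite normal field.** -/
theorem s59m_Q4_big (M q : ℕ) [NeZero M] [NeZero q] (hq : q.Prime) (hqM : ¬ q ∣ M) (h5 : 5 ≤ q)
    (p : ℕ) (hp : p.Prime)
    (P : ValuationSubring Qbar) (hP : P.LiesOverPrime q)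
    (L : IntermediateField ℚ Qbar) (f : s34m_F ↥L (M * q)) (hf : f ≠ 0)
    (hdiv : ∀ Q : Place ↥L (s34m_F ↥L (M * q)), (p : ℤ) ∣ Q.ord f) :
    ∃ L₂ : IntermediateField ℚ Qbar, FiniteDimensional ℚ L₂ ∧
      ∀ (L₁ : IntermediateField ℚ Qbar) [FiniteDimensional ℚ ↥L₁] [Normal ℚ ↥L₁]
        (hLL : L ≤ L₁), L₂ ≤ L₁ →
      ∀ [IsDiscreteValuationRing ↥(s18q_A0 P L₁)]
        (ϖ : ↥(s18q_A0 P L₁)) (hϖ : Irreducible ϖ),
    (∀ 𝔫 : Ideal (s34x_ring (s34x_infRing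
        (s34m_VV (s37r_G P L₁ ϖ hϖ) (algebraMap ↥L₁ Qbar) M q hq hqM))
        (s18_chart1 (L₀ := ↥L₁) (s18g_jF (K := ↥L₁) (M * q)))), 𝔫.IsMaximal →
      s34x_const (s34x_infRing (s34m_VV (s37r_G P L₁ ϖ hϖ) (algebraMap ↥L₁ Qbar) M q hq hqM))
        (s18_chart1 (L₀ := ↥L₁) (s18g_jF (K := ↥L₁) (M * q)))
        (((s37r_G P L₁ ϖ hϖ).ϖ : (s37r_G P L₁ ϖ hϖ).A) : ↥L₁)
        (s34x_inf_const_mem (s34m_VV (s37r_G P L₁ ϖ hϖ) (algebraMap ↥L₁ Qbar) M q hq hqM)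
          (s37r_G P L₁ ϖ hϖ).A
          (s34c_const_mem_VV (s37r_G P L₁ ϖ hϖ) (algebraMap ↥L₁ Qbar) M q hq hqM)
          (s37r_G P L₁ ϖ hϖ).ϖ) ∈ 𝔫 →
      ∃ Φ : s34m_F ↥L₁ (M * q), Φ ≠ 0 ∧
        ∀ Q ∈ s18_chart1 (L₀ := ↥L₁) (s18g_jF (K := ↥L₁) (M * q)),
          s34f_through (s34x_infRing
            (s34m_VV (s37r_G P L₁ ϖ hϖ) (algebraMap ↥L₁ Qbar) M q hq hqM))
            (s18_chart1 (L₀ := ↥L₁) (s18g_jF (K := ↥L₁) (M * q))) 𝔫 Q →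
          Q.ord (s44q_up (M * q) hLL f) = ((p : ℕ) : ℤ) * Q.ord Φ) ∧
    (∀ 𝔫 : Ideal (s34x_ring (s34x_infRing
        (s34m_VV (s37r_G P L₁ ϖ hϖ) (algebraMap ↥L₁ Qbar) M q hq hqM))
        (s18_chart2 (L₀ := ↥L₁) (s18g_jF (K := ↥L₁) (M * q)))), 𝔫.IsMaximal →
      s34x_const (s34x_infRing (s34m_VV (s37r_G P L₁ ϖ hϖ) (algebraMap ↥L₁ Qbar) M q hq hqM))
        (s18_chart2 (L₀ := ↥L₁) (s18g_jF (K := ↥L₁) (M * q)))
        (((s37r_G P L₁ ϖ hϖ).ϖ : (s37r_G P L₁ ϖ hϖ).A) : ↥L₁)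
        (s34x_inf_const_mem (s34m_VV (s37r_G P L₁ ϖ hϖ) (algebraMap ↥L₁ Qbar) M q hq hqM)
          (s37r_G P L₁ ϖ hϖ).A
          (s34c_const_mem_VV (s37r_G P L₁ ϖ hϖ) (algebraMap ↥L₁ Qbar) M q hq hqM)
          (s37r_G P L₁ ϖ hϖ).ϖ) ∈ 𝔫 →
      ∃ Φ : s34m_F ↥L₁ (M * q), Φ ≠ 0 ∧
        ∀ Q ∈ s18_chart2 (L₀ := ↥L₁) (s18g_jF (K := ↥L₁) (M * q)),
          s34f_through (s34x_infRing
            (s34m_VV (s37r_G P L₁ ϖ hϖ) (algebraMap ↥L₁ Qbar) M q hq hqM))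
            (s18_chart2 (L₀ := ↥L₁) (s18g_jF (K := ↥L₁) (M * q))) 𝔫 Q →
          Q.ord (s44q_up (M * q) hLL f) = ((p : ℕ) : ℤ) * Q.ord Φ) := by
  classical
  obtain ⟨L₂, hfd, hL₂⟩ := s44q_rat_tower (M * q) L f hf
  refine ⟨L₂, hfd, ?_⟩
  intro L₁ hfd₁ hnorm hLL hle hdvr ϖ hϖ
  have halg : Algebra.IsAlgebraic ℚ ↥L₁ := Algebra.IsAlgebraic.of_finite ℚ _
  obtain ⟨hdeg, hunif⟩ := hL₂ L₁ L₁ hLL le_rfl hle halg
  have hf' : s44q_up (M * q) hLL f ≠ 0 := (map_ne_zero _).mpr hf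
  have hdiv' : ∀ Q : Place ↥L₁ (s34m_F ↥L₁ (M * q)),
      (p : ℤ) ∣ Q.ord (s44q_up (M * q) hLL f) := by
    intro Q
    obtain ⟨ρ, -, hρ⟩ := s18q_restrict_gen (IntermediateField.inclusion hLL).toRingHom
      (modularFunctionFieldFull (M * q))
    have : Q.ord (s44q_up (M * q) hLL f) = (ρ Q).ord f := hρ Q f
    rw [this]
    exact hdiv _
  refine s59m_Q4_inst M q hq hqM h5 p hp P hP L₁ L₁ le_rfl ϖ hϖ ?_
    (s44q_up (M * q) hLL f) hf' hdiv' hdeg hunif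
  intro γ hγ a ha
  have h1 : γ a = a := hγ a a.2
  rw [h1, sub_self]
  refine ⟨ha, ?_⟩
  rw [ValuationSubring.mem_nonunits_iff_or]
  exact Or.inl rfl

end Fermat.Agent.Lib.S59
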