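/-
Programme (R) / node [MP] (helper9, prefix `s59m_`): **[A] = FIN is UNCONDITIONAL for `q ≥ 5`, `p ≥ 5`.**

`s59m_Q4Z : s59n_Q4Z` (the one open input of helper7's `s59n_fin`, `Lib/S59/NStar.lean`) from the
rationality wall with the two primes separated (`s59m_Q4_Z`, `Lib/S59/MQ4.lean`): a node of the chart is a
closed point of the special fibre, so the exact (Q4) at every closed point gives it at the nodes.
Hence `s59m_fin : s59n_Fin`.
-/
import Fermat.Agent.Lib.S59.MQ4
import Fermat.Agent.Lib.S59.NStar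

set_option autoImplicit false
set_option linter.style.haveILetI false
set_option linter.unusedSectionVars false
set_option synthInstance.maxHeartbeats 400000

noncomputable section

namespace Fermat.Agent.Lib.S59

open ModularCurve HahnSeries AlgebraicCurve Fermat.Agent.Lib.S18 Fermat.Agent.Lib.FF
  Fermat.Agent.Lib.S33 Fermat.Agent.Lib.S34 Fermat.Agent.Lib.S37 Fermat.Agent.Lib.S44 IsLocalRing

local notation "Kb" => AlgebraicClosure ℚ

set_option maxHeartbeats 1600000 in
/-- **[A-Q4]**: exact (Q4) at the nodes over the inertia field, for the pair `(q, p)`. -/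
theorem s59m_Q4Z : s59n_Q4Z := by
  intro M q _ hq hqM h5 p hp hpq P hP L f hf hdiv
  haveI : NeZero q := ⟨hq.out.ne_zero⟩
  obtain ⟨L₂, hfd, h⟩ := s59m_Q4_Z M q hq.out hqM h5 p hp.out P hP L f hf hdiv
  refine ⟨L₂, hfd, ?_⟩
  intro L₀ _ _ hLL hle _ ϖ hϖ
  obtain ⟨h1, -⟩ := h L₀ hLL hle ϖ hϖ
  intro s
  refine h1 s.1 s.2.1 (s.2.2.1 ?_)
  exact ⟨1, (s34m_VV (s37r_G P (s44s_Z P L L₀) ϖ hϖ)
    (algebraMap ↥(s44s_Z P L L₀) Kb) M q hq.out hqM true).one_mem, (mul_one _).symm⟩

/-- **[A] = FIN** (tame (★)) for `q ≥ 5`, `p ≥ 5`, `p ≠ q`. -/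
theorem s59m_fin : s59n_Fin := s59n_fin s59m_Q4Z

end Fermat.Agent.Lib.S59
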