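/-
Programme (R) / node [MP] (Mazur's principle), leaf [B] = RED (helper9, prefix `s59m_`):
**CONSTANT FIELD EXTENSION OF THE SPECIAL FIBRE: RESTRICTION OF PLACES.**

`k/κ` an algebraic extension of fields, `E₀ = F̄_κ(N) = modularFunctionFieldFullC κ N ⊆ κ((q))`,
`E = F̄_k(N) ⊆ k((q))`, `ι = s59m_up : E₀ → E` coefficientwise.

* `s59m_isIntegralElem_up` : every element of `E` is integral over `ι E₀`;
* `s59m_restrictPl`        : the restriction of a place of `E/k` to a place of `E₀/κ`, with
  `ord_v (ι f) = m · ord_{v₀} f`, `m > 0` (`s59m_ord_restrictPl`);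
* `s59m_dvd_ord_up`        : divisibility of all orders of `f ∈ E₀` is inherited by `ι f`.
(Port of `Lib/S18/QPlace.lean`, which treats the characteristic-zero fields `laurentBaseChange`.)
-/
import Fermat.Agent.Lib.S18.QPlace
import Fermat.Agent.Lib.S19.BBaseChangeInst

set_option autoImplicit false
set_option linter.style.haveILetI false
set_option linter.unusedSectionVars false

namespace Fermat.Agent.Lib.S59

open ModularCurve HahnSeries AlgebraicCurve Polynomial Fermat.Agent.Lib.FF Fermat.Agent.Lib.S18
  Fermat.Agent.Lib.S19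

noncomputable section

variable {κ k : Type*} [Field κ] [Field k] [Algebra κ k] (N : ℕ)

/-- the coefficientwise extension `F̄_κ(N) → F̄_k(N)`. -/
def s59m_up : ↥(modularFunctionFieldFullC κ N) →+* ↥(modularFunctionFieldFullC k N) :=
  ((coeffMap (algebraMap κ k)).comp
    (modularFunctionFieldFullC κ N).toSubfield.subtype).codRestrict
    (modularFunctionFieldFullC k N) (fun x => s19b_iota_mem_fullC κ k N x.2)

theorem s59m_up_coe (x : ↥(modularFunctionFieldFullC κ N)) :
    ((s59m_up (k := k) N x : ↥(modularFunctionFieldFullC k N)) : LaurentSeries k) =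
      coeffMap (algebraMap κ k) (x : LaurentSeries κ) := rfl

theorem s59m_up_algebraMap (c : κ) :
    s59m_up (k := k) N (algebraMap κ ↥(modularFunctionFieldFullC κ N) c) =
      algebraMap k ↥(modularFunctionFieldFullC k N) (algebraMap κ k c) := by
  apply Subtype.ext
  rw [s59m_up_coe]
  show coeffMap (algebraMap κ k) (algebraMap κ (LaurentSeries κ) c) =
    algebraMap k (LaurentSeries k) (algebraMap κ k c)
  rw [algebraMap_laurentSeries_eq_single, algebraMap_laurentSeries_eq_single, coeffMap_single]

section Integral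

variable [Algebra.IsAlgebraic κ k]

/-- every element of `E` is integral over `ι E₀`. -/
theorem s59m_isIntegralElem_up (y : ↥(modularFunctionFieldFullC k N)) :
    (s59m_up (κ := κ) (k := k) N).IsIntegralElem y := by
  let _ : Algebra ↥(modularFunctionFieldFullC κ N) ↥(modularFunctionFieldFullC k N) :=
    (s59m_up (κ := κ) (k := k) N).toAlgebra
  change IsIntegral ↥(modularFunctionFieldFullC κ N) y
  let T : Subfield (LaurentSeries k) :=
    (algebraicClosure ↥(modularFunctionFieldFullC κ N)
      ↥(modularFunctionFieldFullC k N)).toSubfield.map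
      (modularFunctionFieldFullC k N).toSubfield.subtype
  have hle : Subfield.closure (Set.range (algebraMap k (LaurentSeries k)) ∪
      (s19b_iota (K' := k) '' ((modularFunctionFieldFullC κ N : IntermediateField κ _) :
        Set (LaurentSeries κ)))) ≤ T := by
    rw [Subfield.closure_le]
    rintro x (⟨c, rfl⟩ | ⟨z, hz, rfl⟩)
    · refine ⟨algebraMap k ↥(modularFunctionFieldFullC k N) c, ?_, rfl⟩
      have hc : IsIntegral κ c := Algebra.IsIntegral.isIntegral c
      obtain ⟨p, hpm, hp⟩ := hc
      refine ⟨p.map (algebraMap κ ↥(modularFunctionFieldFullC κ N)), hpm.map _, ?_⟩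
      rw [eval₂_map]
      have h1 : (algebraMap ↥(modularFunctionFieldFullC κ N)
          ↥(modularFunctionFieldFullC k N)).comp
          (algebraMap κ ↥(modularFunctionFieldFullC κ N)) =
          (algebraMap k ↥(modularFunctionFieldFullC k N)).comp (algebraMap κ k) :=
        RingHom.ext fun c' => s59m_up_algebraMap N c'
      rw [h1, ← hom_eval₂, hp, map_zero]
    · refine ⟨algebraMap ↥(modularFunctionFieldFullC κ N) ↥(modularFunctionFieldFullC k N)
        ⟨z, hz⟩, ?_, rfl⟩
      exact isIntegral_algebraMap
  have hy : (y : LaurentSeries k) ∈ Subfield.closure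
      (Set.range (algebraMap k (LaurentSeries k)) ∪
      (s19b_iota (K' := k) '' ((modularFunctionFieldFullC κ N : IntermediateField κ _) :
        Set (LaurentSeries κ)))) := by
    have h1 : (y : LaurentSeries k) ∈ modularFunctionFieldFullC k N := y.2
    have h2 : (y : LaurentSeries k) ∈ IntermediateField.adjoin k
        (s19b_iota (K' := k) '' ((modularFunctionFieldFullC κ N : IntermediateField κ _) :
          Set (LaurentSeries κ))) := by
      rw [← s19b_fullC_eq κ k N]
      exact h1
    exact h2
  obtain ⟨y', hy', hyy'⟩ := hle hy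
  have h2 : y' = y := Subtype.ext hyy'
  rw [← h2]
  exact hy'

/-- a valuation ring of `E` containing `ι E₀` is everything. -/
theorem s59m_eq_top_of_range_le (V : ValuationSubring ↥(modularFunctionFieldFullC k N))
    (h : ∀ x : ↥(modularFunctionFieldFullC κ N), s59m_up N x ∈ V) : V = ⊤ := by
  refine SetLike.ext fun x => ⟨fun _ => ValuationSubring.mem_top x, fun _ => ?_⟩
  obtain ⟨p, hpm, hp⟩ := s59m_isIntegralElem_up (κ := κ) N x
  let ι' : ↥(modularFunctionFieldFullC κ N) →+* ↥V := (s59m_up N).codRestrict V h
  have hint : IsIntegral ↥V x := by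
    refine ⟨p.map ι', hpm.map _, ?_⟩
    rw [Polynomial.eval₂_map]
    exact hp
  obtain ⟨y, hy⟩ := IsIntegrallyClosed.isIntegral_iff.mp hint
  rw [← hy]
  exact y.2

theorem s59m_comap_ne_top (P : Place k ↥(modularFunctionFieldFullC k N)) :
    P.toValuationSubring.comap (s59m_up (κ := κ) N) ≠ ⊤ := by
  intro htop
  apply P.ne_top'
  apply s59m_eq_top_of_range_le (κ := κ) N
  intro x
  have : x ∈ P.toValuationSubring.comap (s59m_up (κ := κ) N) := by
    rw [htop]
    exact ValuationSubring.mem_top x
  exact this

theorem s59m_comap_isDVR (P : Place k ↥(modularFunctionFieldFullC k N)) :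
    IsDiscreteValuationRing ↥(P.toValuationSubring.comap (s59m_up (κ := κ) N)) := by
  refine s18q_isDVR_of_ord _ (fun f => P.ord (s59m_up N f)) ?_ ?_ (s59m_comap_ne_top N P)
  · intro f g hf hg
    simp only [map_mul]
    exact P.ord_mul ((_root_.map_ne_zero _).mpr hf) ((_root_.map_ne_zero _).mpr hg)
  · intro f hf
    rw [ValuationSubring.mem_comap]
    exact ff_mem_iff_ord_nonneg P ((_root_.map_ne_zero _).mpr hf)

/-- restriction of a place of `F̄_k(N)` to `F̄_κ(N)`. -/
def s59m_restrictPl (P : Place k ↥(modularFunctionFieldFullC k N)) :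
    Place κ ↥(modularFunctionFieldFullC κ N) where
  toValuationSubring := P.toValuationSubring.comap (s59m_up (κ := κ) N)
  algebraMap_mem' := fun a => by
    rw [ValuationSubring.mem_comap, s59m_up_algebraMap]
    exact P.algebraMap_mem' _
  ne_top' := s59m_comap_ne_top N P
  isPrincipalIdealRing' := by
    have := s59m_comap_isDVR (κ := κ) N P
    infer_instance

/-- `ord_P (ι f) = m · ord_{P₀} f` with `m > 0`. -/
theorem s59m_ord_restrictPl (P : Place k ↥(modularFunctionFieldFullC k N)) :
    ∃ m : ℤ, 0 < m ∧ ∀ f : ↥(modularFunctionFieldFullC κ N), f ≠ 0 →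
      P.ord (s59m_up N f) = m * (s59m_restrictPl (κ := κ) N P).ord f :=
  ff_ord_unique (s59m_restrictPl (κ := κ) N P) (fun f => P.ord (s59m_up N f))
    (by
      intro f g hf hg
      simp only [map_mul]
      exact P.ord_mul ((_root_.map_ne_zero _).mpr hf) ((_root_.map_ne_zero _).mpr hg))
    (by
      intro f hf
      show s59m_up N f ∈ P.toValuationSubring ↔ _
      exact ff_mem_iff_ord_nonneg P ((_root_.map_ne_zero _).mpr hf))

/-- **divisibility of the divisor is inherited by the constant field extension.** -/
theorem s59m_dvd_ord_up (e : ℤ) (f : ↥(modularFunctionFieldFullC κ N)) (hf : f ≠ 0)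
    (h : ∀ v₀ : Place κ ↥(modularFunctionFieldFullC κ N), e ∣ v₀.ord f)
    (v : Place k ↥(modularFunctionFieldFullC k N)) : e ∣ v.ord (s59m_up N f) := by
  obtain ⟨m, -, hm⟩ := s59m_ord_restrictPl (κ := κ) N v
  rw [hm f hf]
  exact Dvd.dvd.mul_left (h _) m

end Integral

end

end Fermat.Agent.Lib.S59
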