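/-
Programme (R) / node [MP] (Mazur's principle), leaf [B] = RED (helper9, prefix `s59m_`):
**SERIES LEVEL.**

* `s59m_zetaA`, `s59m_zetaBar`, `s59m_zetaBar_prim` : a primitive `ℓ`-th root of unity `ζ` of a field `L` lies in every
  valuation subring `A`; its image `ζ̄` under `π : A →+* k` is again primitive when `ℓ` is a prime with `(ℓ : k) ≠ 0`;
* `s59m_N_mem_O`, `s59m_red_N` : the Kummer-side Hecke operator `N = s33t_N ℓ ζ` (`N(Y)(q) = Y(q^ℓ) ∏_b Y(ζ^b q^{1/ℓ})`)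
  preserves the TOP-LEVEL Gauss ring `s37r_O A π` and commutes with the reduction: `red (N Y) = N̄ (red Y)`;
* `s59m_N_inv`, `s59m_N_zpow`, `s59m_N_ne_zero` : `N̄` on the field `k((q))`;
* `s59m_descent` : **Kummer descent on the special fibre, exponent prime to the characteristic**: an element of `F̄_κ(N)`
  which becomes a constant times a `p`-th power over a Galois extension `k/κ` containing a primitive `p`-th root of unity
  already is one over `κ`.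
-/
import Fermat.Agent.Lib.S44.HTauCong
import Fermat.Agent.Lib.S37.RGauss
import Fermat.Agent.Lib.S33.DescKD

set_option autoImplicit false
set_option linter.style.haveILetI false
set_option linter.unusedSectionVars false

namespace Fermat.Agent.Lib.S59

open ModularCurve HahnSeries AlgebraicCurve Fermat.Agent.Lib.FF Fermat.Agent.Lib.S18
  Fermat.Agent.Lib.S28 Fermat.Agent.Lib.S37 Fermat.Agent.Lib.S34 Fermat.Agent.Lib.S33
  Fermat.Agent.Lib.S44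

noncomputable section

/-! ### Roots of unity in a valuation ring and their reductions -/

section Zeta

variable {L : Type*} [Field L] (A : ValuationSubring L) {k : Type*} [Field k] (π : A →+* k)
variable (ℓ : ℕ) [NeZero ℓ] (ζ₀ : Lˣ)

/-- the primitive root `ζ₀ ∈ L` as a unit of the valuation ring `A`. -/
def s59m_zetaA (hζ₀ : IsPrimitiveRoot (ζ₀ : L) ℓ) : (↥A)ˣ :=
  Units.mkOfMulEqOne
    (⟨(ζ₀ : L), s44h_mem_of_pow_eq_one A (NeZero.ne ℓ) hζ₀.pow_eq_one⟩ : A)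
    ((⟨(ζ₀ : L), s44h_mem_of_pow_eq_one A (NeZero.ne ℓ) hζ₀.pow_eq_one⟩ : A) ^ (ℓ - 1))
    (by
      rw [← pow_succ', Nat.sub_add_cancel (Nat.one_le_iff_ne_zero.mpr (NeZero.ne ℓ))]
      exact Subtype.ext hζ₀.pow_eq_one)

theorem s59m_zetaA_map (hζ₀ : IsPrimitiveRoot (ζ₀ : L) ℓ) :
    Units.map ((A.subtype : A →+* L) : A →* L) (s59m_zetaA A ℓ ζ₀ hζ₀) = ζ₀ :=
  Units.ext rfl

theorem s59m_zetaA_prim (hζ₀ : IsPrimitiveRoot (ζ₀ : L) ℓ) :
    IsPrimitiveRoot ((s59m_zetaA A ℓ ζ₀ hζ₀ : (↥A)ˣ) : A) ℓ :=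
  IsPrimitiveRoot.of_map_of_injective (f := A.subtype) (by exact hζ₀) Subtype.val_injective

/-- the reduction `ζ̄ ∈ k` of the root of unity. -/
def s59m_zetaBar (hζ₀ : IsPrimitiveRoot (ζ₀ : L) ℓ) : kˣ :=
  Units.map ((π : A →+* k) : A →* k) (s59m_zetaA A ℓ ζ₀ hζ₀)

/-- `ζ̄` is primitive when `ℓ` is a prime invertible in `k`. -/
theorem s59m_zetaBar_prim (hℓ : ℓ.Prime) (hℓk : ((ℓ : ℕ) : k) ≠ 0)
    (hζ₀ : IsPrimitiveRoot (ζ₀ : L) ℓ) :
    IsPrimitiveRoot ((s59m_zetaBar A π ℓ ζ₀ hζ₀ : kˣ) : k) ℓ := by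
  haveI : Fact ℓ.Prime := ⟨hℓ⟩
  have hprim := s59m_zetaA_prim A ℓ ζ₀ hζ₀
  have hcoe : ((s59m_zetaBar A π ℓ ζ₀ hζ₀ : kˣ) : k) =
      π ((s59m_zetaA A ℓ ζ₀ hζ₀ : (↥A)ˣ) : A) := rfl
  rw [hcoe, IsPrimitiveRoot.iff_orderOf]
  apply orderOf_eq_prime
  · rw [← map_pow, hprim.pow_eq_one, map_one]
  · intro h1
    have hsum := hprim.geom_sum_eq_zero hℓ.one_lt
    have h2 := congrArg π hsum
    rw [map_sum, map_zero] at h2
    have h3 : ∀ i ∈ Finset.range ℓ, π (((s59m_zetaA A ℓ ζ₀ hζ₀ : (↥A)ˣ) : A) ^ i) = 1 := by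
      intro i _
      rw [map_pow, h1, one_pow]
    rw [Finset.sum_congr rfl h3, Finset.sum_const, Finset.card_range, nsmul_eq_mul, mul_one] at h2
    exact hℓk h2

end Zeta

/-! ### `N` and the top-level Gauss ring -/

section TopN

variable {L : Type*} [Field L] (A : ValuationSubring L) {k : Type*} [Field k] (π : A →+* k)
variable (ℓ : ℕ) [NeZero ℓ] (ζ₀ : Lˣ)

theorem s59m_iota_N (hζ₀ : IsPrimitiveRoot (ζ₀ : L) ℓ) (Q : LaurentSeries A) :
    coeffMap A.subtype (s33t_N ℓ (s59m_zetaA A ℓ ζ₀ hζ₀) Q) =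
      s33t_N ℓ ζ₀ (coeffMap A.subtype Q) := by
  rw [s33t_coeffMap_N', s59m_zetaA_map]

theorem s59m_pi_N (hζ₀ : IsPrimitiveRoot (ζ₀ : L) ℓ) (Q : LaurentSeries A) :
    coeffMap π (s33t_N ℓ (s59m_zetaA A ℓ ζ₀ hζ₀) Q) =
      s33t_N ℓ (s59m_zetaBar A π ℓ ζ₀ hζ₀) (coeffMap π Q) := by
  rw [s33t_coeffMap_N']
  rfl

/-- `N̄` of a non-zero series over a field is non-zero. -/
theorem s59m_N_ne_zero {k' : Type*} [Field k'] (ζ : k'ˣ) (hζ : IsPrimitiveRoot (ζ : k') ℓ)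
    {Y : LaurentSeries k'} (hY : Y ≠ 0) : s33t_N ℓ ζ Y ≠ 0 := by
  intro h0
  have h1 := s44h_P_eq_qExpand_N ℓ ζ hζ Y
  rw [h0, map_zero] at h1
  exact s44h_P_ne_zero ℓ ζ hY h1

theorem s59m_N_one {k' : Type*} [Field k'] (ζ : k'ˣ) : s33t_N ℓ ζ (1 : LaurentSeries k') = 1 := by
  have h := s33t_N_C ℓ ζ (1 : k')
  rwa [map_one, one_pow, map_one] at h

theorem s59m_N_inv {k' : Type*} [Field k'] (ζ : k'ˣ) (hζ : IsPrimitiveRoot (ζ : k') ℓ)
    (Y : LaurentSeries k') : s33t_N ℓ ζ Y⁻¹ = (s33t_N ℓ ζ Y)⁻¹ := by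
  rcases eq_or_ne Y 0 with rfl | hY
  · rw [inv_zero]
    have h := s33t_N_C ℓ ζ (0 : k')
    rw [map_zero, zero_pow (Nat.succ_ne_zero ℓ), map_zero] at h
    rw [h, inv_zero]
  · have h1 : s33t_N ℓ ζ Y * s33t_N ℓ ζ Y⁻¹ = 1 := by
      rw [← s44h_N_mul ℓ ζ hζ, mul_inv_cancel₀ hY, s59m_N_one]
    exact eq_inv_of_mul_eq_one_right h1

theorem s59m_N_pow {k' : Type*} [Field k'] (ζ : k'ˣ) (hζ : IsPrimitiveRoot (ζ : k') ℓ)
    (Y : LaurentSeries k') (n : ℕ) : s33t_N ℓ ζ (Y ^ n) = (s33t_N ℓ ζ Y) ^ n := by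
  induction n with
  | zero => rw [pow_zero, pow_zero, s59m_N_one]
  | succ n ih => rw [pow_succ, pow_succ, s44h_N_mul ℓ ζ hζ, ih]

theorem s59m_N_zpow {k' : Type*} [Field k'] (ζ : k'ˣ) (hζ : IsPrimitiveRoot (ζ : k') ℓ)
    (Y : LaurentSeries k') (n : ℤ) : s33t_N ℓ ζ (Y ^ n) = (s33t_N ℓ ζ Y) ^ n := by
  cases n with
  | ofNat n => simp only [Int.ofNat_eq_natCast, zpow_natCast]; exact s59m_N_pow ℓ ζ hζ Y n
  | negSucc n =>
    simp only [zpow_negSucc]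
    rw [s59m_N_inv ℓ ζ hζ, s59m_N_pow ℓ ζ hζ]

/-- **`N` preserves the top-level Gauss ring** (when `ζ̄` is primitive). -/
theorem s59m_N_mem_O (hζ₀ : IsPrimitiveRoot (ζ₀ : L) ℓ)
    (hζb : IsPrimitiveRoot ((s59m_zetaBar A π ℓ ζ₀ hζ₀ : kˣ) : k) ℓ)
    {Y : LaurentSeries L} (hY : Y ∈ s37r_O A π) : s33t_N ℓ ζ₀ Y ∈ s37r_O A π := by
  obtain ⟨P, Q, hQ, h⟩ := hY
  refine ⟨s33t_N ℓ (s59m_zetaA A ℓ ζ₀ hζ₀) P, s33t_N ℓ (s59m_zetaA A ℓ ζ₀ hζ₀) Q, ?_, ?_⟩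
  · rw [s59m_pi_N]
    exact s59m_N_ne_zero ℓ _ hζb hQ
  · rw [s59m_iota_N, s59m_iota_N, ← s44h_N_mul ℓ ζ₀ hζ₀, h]

/-- **`red (N Y) = N̄ (red Y)`.** -/
theorem s59m_red_N (hζ₀ : IsPrimitiveRoot (ζ₀ : L) ℓ)
    (hζb : IsPrimitiveRoot ((s59m_zetaBar A π ℓ ζ₀ hζ₀ : kˣ) : k) ℓ)
    (Y : s37r_O A π) :
    s37r_red A π ⟨s33t_N ℓ ζ₀ (Y : LaurentSeries L), s59m_N_mem_O A π ℓ ζ₀ hζ₀ hζb Y.2⟩ =
      s33t_N ℓ (s59m_zetaBar A π ℓ ζ₀ hζ₀) (s37r_red A π Y) := by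
  obtain ⟨P, Q, hQ, h⟩ := Y.2
  have hNQ : coeffMap π (s33t_N ℓ (s59m_zetaA A ℓ ζ₀ hζ₀) Q) ≠ 0 := by
    rw [s59m_pi_N]
    exact s59m_N_ne_zero ℓ _ hζb hQ
  rw [s37r_red_eq A π _ (s33t_N ℓ (s59m_zetaA A ℓ ζ₀ hζ₀) P)
    (s33t_N ℓ (s59m_zetaA A ℓ ζ₀ hζ₀) Q) hNQ
    (by rw [s59m_iota_N, s59m_iota_N, ← s44h_N_mul ℓ ζ₀ hζ₀, h]),
    s37r_red_eq A π Y P Q hQ h, s59m_pi_N, s59m_pi_N, div_eq_mul_inv, div_eq_mul_inv,
    s44h_N_mul ℓ _ hζb, s59m_N_inv ℓ _ hζb]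

end TopN

/-! ### Kummer descent on the special fibre, exponent prime to the characteristic -/

section Descent

variable {κ k : Type*} [Field κ] [Field k] [Algebra κ k]

theorem s59m_lc_C (c : k) : (HahnSeries.C c : LaurentSeries k).leadingCoeff = c := by
  rw [HahnSeries.C_apply, HahnSeries.leadingCoeff_of_single]

theorem s59m_lc_inv (b : LaurentSeries k) (hb : b ≠ 0) :
    (b⁻¹).leadingCoeff = (b.leadingCoeff)⁻¹ := by
  have h1 : b.leadingCoeff * (b⁻¹).leadingCoeff = 1 := by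
    rw [← HahnSeries.leadingCoeff_mul, mul_inv_cancel₀ hb, HahnSeries.leadingCoeff_one]
  exact eq_inv_of_mul_eq_one_right h1

theorem s59m_lc_pow (y : LaurentSeries k) (n : ℕ) : (y ^ n).leadingCoeff = y.leadingCoeff ^ n := by
  induction n with
  | zero => rw [pow_zero, pow_zero, HahnSeries.leadingCoeff_one]
  | succ n ih => rw [pow_succ, pow_succ, HahnSeries.leadingCoeff_mul, ih]

/-- in `k((q))`, two `p`-th roots of the same series with leading coefficient one are equal. -/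
theorem s59m_eq_of_pow_eq {p : ℕ} [NeZero p] {ζ : k} (hζ : IsPrimitiveRoot ζ p)
    {a b : LaurentSeries k} (hab : a ^ p = b ^ p) (ha : a.leadingCoeff = 1)
    (hb : b.leadingCoeff = 1) : a = b := by
  have hb0 : b ≠ 0 := by
    rintro rfl
    rw [HahnSeries.leadingCoeff_zero] at hb
    exact zero_ne_one hb
  have h1 : (a / b) ^ p = 1 := by
    rw [div_pow, hab, div_self (pow_ne_zero p hb0)]
  have hζ' : IsPrimitiveRoot ((HahnSeries.C : k →+* LaurentSeries k) ζ) p :=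
    hζ.map_of_injective HahnSeries.C_injective
  obtain ⟨i, -, hi⟩ := hζ'.eq_pow_of_pow_eq_one h1
  have h2 : (a / b).leadingCoeff = 1 := by
    rw [div_eq_mul_inv, HahnSeries.leadingCoeff_mul, s59m_lc_inv b hb0, ha, hb, inv_one, mul_one]
  rw [← hi, ← map_pow, s59m_lc_C] at h2
  rw [← map_pow, h2, map_one, eq_comm, div_eq_one_iff_eq hb0] at hi
  exact hi

variable [IsGalois κ k] (N : ℕ)

/-- **[DESC-KD], exponent prime to the characteristic.** -/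
theorem s59m_descent (p : ℕ) [NeZero p] (ζ : k) (hζ : IsPrimitiveRoot ζ p)
    (x₀ : LaurentSeries κ) (hx₀ : x₀ ∈ modularFunctionFieldFullC κ N)
    (hx₀0 : x₀ ≠ 0) (a : k) (v : LaurentSeries k) (hv : v ∈ modularFunctionFieldFullC k N)
    (hx : coeffMap (algebraMap κ k) x₀ = HahnSeries.C a * v ^ p) :
    ∃ (a₀ : κ) (v₀ : LaurentSeries κ), v₀ ∈ modularFunctionFieldFullC κ N ∧ a₀ ≠ 0 ∧ v₀ ≠ 0 ∧
      x₀ = HahnSeries.C a₀ * v₀ ^ p := by
  haveI : Algebra.IsAlgebraic κ k := inferInstance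
  set φ : κ →+* k := algebraMap κ k with hφ
  have hφinj : Function.Injective φ := φ.injective
  have hcinj : Function.Injective (coeffMap φ) := by
    intro y y' hyy
    ext n
    apply hφinj
    rw [← coeffMap_coeff, ← coeffMap_coeff, hyy]
  have hx0 : coeffMap φ x₀ ≠ 0 := fun h0 => hx₀0 (hcinj (by rw [h0, map_zero]))
  have hv0 : v ≠ 0 := by
    rintro rfl
    rw [zero_pow (NeZero.ne p), mul_zero] at hx
    exact hx0 hx
  have ha0 : a ≠ 0 := by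
    rintro rfl
    rw [map_zero, zero_mul] at hx
    exact hx0 hx
  have hlv : v.leadingCoeff ≠ 0 := HahnSeries.leadingCoeff_ne_zero.mpr hv0
  have hl0 : x₀.leadingCoeff ≠ 0 := HahnSeries.leadingCoeff_ne_zero.mpr hx₀0
  -- the normalised root
  set vn : LaurentSeries k := HahnSeries.C v.leadingCoeff⁻¹ * v with hvn
  have hCmem : ∀ c : k, (HahnSeries.C c : LaurentSeries k) ∈ modularFunctionFieldFullC k N := by
    intro c
    have := (modularFunctionFieldFullC k N).algebraMap_mem c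
    rwa [algebraMap_laurentSeries_eq_single, ← HahnSeries.C_apply] at this
  have hvn_mem : vn ∈ modularFunctionFieldFullC k N := mul_mem (hCmem _) hv
  have hlc : φ x₀.leadingCoeff = a * v.leadingCoeff ^ p := by
    rw [← s33d_leadingCoeff_coeffMap φ hφinj, hx, HahnSeries.leadingCoeff_mul, s59m_lc_C,
      s59m_lc_pow]
  have hCφ : ∀ c : κ, coeffMap φ (HahnSeries.C c : LaurentSeries κ) = HahnSeries.C (φ c) := by
    intro c
    rw [HahnSeries.C_apply, coeffMap_single, HahnSeries.C_apply]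
  have hpow : coeffMap φ (HahnSeries.C x₀.leadingCoeff⁻¹ * x₀) = vn ^ p := by
    rw [map_mul, hCφ, map_inv₀, hlc, hx, hvn, mul_pow, ← map_pow]
    have h1 : (HahnSeries.C (a * v.leadingCoeff ^ p)⁻¹ : LaurentSeries k) * HahnSeries.C a =
        HahnSeries.C (v.leadingCoeff⁻¹ ^ p) := by
      rw [← map_mul]
      congr 1
      rw [inv_pow, mul_inv, mul_comm a⁻¹, mul_assoc, inv_mul_cancel₀ ha0, mul_one]
    rw [← mul_assoc, h1]
  have hvn_lc : vn.leadingCoeff = 1 := by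
    rw [hvn, HahnSeries.leadingCoeff_mul, s59m_lc_C, inv_mul_cancel₀ hlv]
  -- the coefficients of `vn` are Galois-fixed
  have hcoef : ∀ n : ℤ, vn.coeff n ∈ φ.range := by
    intro n
    have hfix : ∀ τ : k ≃ₐ[κ] k, τ (vn.coeff n) = vn.coeff n := by
      intro τ
      have h1 : coeffMap (τ : k →+* k) vn = vn := by
        refine s59m_eq_of_pow_eq hζ ?_ ?_ hvn_lc
        · rw [← map_pow, ← hpow, coeffMap_coeffMap]
          refine coeffMap_congr (RingHom.ext fun c => ?_) _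
          exact τ.commutes c
        · rw [s33d_leadingCoeff_coeffMap _ (τ : k →+* k).injective, hvn_lc, map_one]
      have h2 := congrArg (fun y : LaurentSeries k => y.coeff n) h1
      simpa using h2
    exact (InfiniteGalois.mem_range_algebraMap_iff_fixed (k := κ) (K := k) _).mpr hfix
  obtain ⟨v₀, hv₀mem, hv₀⟩ := s33d_fullC_exists_of_coeff N hvn_mem hcoef
  have hvn0 : vn ≠ 0 := mul_ne_zero (by
    rw [Ne, map_eq_zero]
    exact inv_ne_zero hlv) hv0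
  have hv₀0 : v₀ ≠ 0 := by
    rintro rfl
    rw [map_zero] at hv₀
    exact hvn0 hv₀.symm
  refine ⟨x₀.leadingCoeff, v₀, hv₀mem, hl0, hv₀0, ?_⟩
  apply hcinj
  have h2 : coeffMap φ (v₀ ^ p) = vn ^ p := by rw [map_pow, hv₀]
  rw [map_mul, h2, ← hpow, ← map_mul, ← mul_assoc, ← map_mul, mul_inv_cancel₀ hl0, map_one,
    one_mul]

end Descent

end

end Fermat.Agent.Lib.S59
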