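/-
Programme (R) / node [MP] (Mazur's principle), leaf [B] = RED (helper9, prefix `s59m_`):
**SPECIALISATION OF KUMMER GENERATORS ON A CURVE WITH GOOD REDUCTION** (abstract: `s19_Curve`).

`hC : s19_Curve x A π O red r FW l g` (a curve `F/K` with good reduction `Fb/k`, Gauss valuation ring `O`,
reduction `red : O → Fb`, reduction of places `r`), `p` a prime which is a unit of `A`:

* `s59m_injK`  **(INJ-K)**: a Kummer generator `G` (exponent `p`) of `z ∈ Pic⁰(F)`, Gauss-integral, whose reduction is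
  a non-zero constant times a `p`-th power, has `z = 0` (the kernel of specialisation has no `p`-torsion,
  `s27s_J1_tf`);
* `s59m_liftK` **(LIFT-K)**: every `ū ∈ Fb^×` whose divisor is divisible by `p` is, up to a constant and a `p`-th
  power, the reduction of a Gauss-unit Kummer generator `g` of some `z ∈ Pic⁰(F)[p]` (specialisation is onto
  `p`-torsion: `s27s_spHom_surjective`, `s27s_J1_div`, `s27s_torsion_bij`).
-/
import Fermat.Agent.Lib.S27.SSpec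
import Fermat.Agent.Lib.S33.DescGen

set_option autoImplicit false
set_option linter.unusedSectionVars false
set_option linter.unusedVariables false
set_option linter.style.haveILetI false

noncomputable section

namespace Fermat.Agent.Lib.S59

open AlgebraicCurve Fermat.Agent.Lib.FF Fermat.Agent.Lib.S37 Fermat.Agent.Lib.S19
  Fermat.Agent.Lib.S17 Fermat.Agent.Lib.S27 Fermat.Agent.Lib.S33 IsLocalRing

section Gen

variable {K F : Type*} [Field K] [Field F] [Algebra K F]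

/-- equality in `Pic⁰` (no hypothesis on the constant field). -/
theorem s59m_mk_eq_mk_iff (D E : Divisor.degZero (K := K) (F := F)) :
    Pic0.mk D = Pic0.mk E ↔
      (D : Divisor K F) - (E : Divisor K F) ∈ Divisor.principal (K := K) (F := F) := by
  unfold Pic0.mk
  rw [QuotientAddGroup.eq, AddSubgroup.mem_addSubgroupOf]
  have h1 : ((-D + E : Divisor.degZero (K := K) (F := F)) : Divisor K F) =
      -((D : Divisor K F) - (E : Divisor K F)) := by
    rw [AddMemClass.coe_add, NegMemClass.coe_neg]; abel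
  rw [h1, neg_mem_iff]

end Gen

section Abs

variable {K F k Fb : Type} [Field K] [Field F] [Algebra K F] [IsAlgClosed K] [CharZero K]
  [Field k] [Field Fb] [Algebra k Fb] {x : F} [FFGen K x] {A : ValuationSubring K} {π : ↥A →+* k}
  {O : ValuationSubring F} {red : ↥O →+* Fb} {r : Place K F → Place k Fb} {FW : Subring F}
  {l : ↥A} {g : ℕ} (hC : s19_Curve x A π O red r FW l g)

include hC in
/-- **(INJ-K)**. -/
theorem s59m_injK (p : ℕ) (hp0 : p ≠ 0) (hpA : IsUnit ((p : ℕ) : ↥A)) (z : Pic0 K F) (G : F)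
    (hgen : s33d_IsKumGen p z G) (hGO : G ∈ O) (c : k) (hc : c ≠ 0) (w : Fb) (hw : w ≠ 0)
    (hred : red ⟨G, hGO⟩ = algebraMap k Fb c * w ^ p) : z = 0 := by
  classical
  obtain ⟨hG0, D, rfl, hD⟩ := hgen
  obtain ⟨𝔰⟩ := s27s_exists_sys hC
  obtain ⟨L, rfl⟩ : ∃ L, p = L + 1 := ⟨p - 1, by omega⟩
  have hc' : algebraMap k Fb c ≠ 0 := (map_ne_zero_iff _ (algebraMap k Fb).injective).mpr hc
  have hredne : red ⟨G, hGO⟩ ≠ 0 := by
    rw [hred]
    exact mul_ne_zero hc' (pow_ne_zero _ hw)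
  refine s27s_J1_tf hC 𝔰 L hpA (Pic0.mk D) ?_ ?_
  · refine ⟨D, rfl, w, hw, fun Q => ?_⟩
    have hcons := hC.rd.cons G hGO hredne ((((L + 1 : ℕ) : ℤ)) • (D : Divisor K F))
      (fun P => by rw [Finsupp.smul_apply, smul_eq_mul, hD P]) Q
    rw [Finsupp.mapDomain_smul, Finsupp.smul_apply, smul_eq_mul, hred,
      Q.ord_mul hc' (pow_ne_zero _ hw), ff_ord_algebraMap, zero_add, s33d_ord_pow] at hcons
    have hL : (((L + 1 : ℕ)) : ℤ) ≠ 0 := by exact_mod_cast Nat.succ_ne_zero L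
    exact mul_left_cancel₀ hL hcons
  · have hnsmul : (L + 1) • Pic0.mk D = Pic0.mk ((L + 1) • D) := rfl
    rw [hnsmul, ← Pic0.mk_zero, s19j_mk_eq_mk_iff]
    refine ⟨G, hG0, fun v => ?_⟩
    rw [ZeroMemClass.coe_zero, sub_zero, AddSubgroupClass.coe_nsmul, Finsupp.smul_apply, hD v,
      nsmul_eq_mul]

include hC in
/-- **(LIFT-K)**. -/
theorem s59m_liftK (abv : AbsoluteValue K ℝ)
    (hna : ∀ a b : K, abv (a + b) ≤ max (abv a) (abv b)) (hA : ∀ a : K, a ∈ A ↔ abv a ≤ 1)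
    (hconst : s33d_ConstOfOrdZero k Fb) (p : ℕ) (hp0 : p ≠ 0) (hpA : IsUnit ((p : ℕ) : ↥A))
    (ū : Fb) (hū : ū ≠ 0) (hdiv : ∀ Q : Place k Fb, (p : ℤ) ∣ Q.ord ū) :
    ∃ (z : Pic0 K F) (G : F) (hGO : G ∈ O), s33d_IsKumGen p z G ∧ G⁻¹ ∈ O ∧
      ∃ (c : k) (w : Fb), c ≠ 0 ∧ w ≠ 0 ∧ red ⟨G, hGO⟩ = algebraMap k Fb c * ū * w ^ p := by
  classical
  obtain ⟨𝔰⟩ := s27s_exists_sys hC
  obtain ⟨L, rfl⟩ : ∃ L, p = L + 1 := ⟨p - 1, by omega⟩
  have hL : (((L + 1 : ℕ)) : ℤ) ≠ 0 := by exact_mod_cast Nat.succ_ne_zero L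
  have hdivJ : ∀ y, s27s_spHom hC y = 0 → ∃ y', s27s_spHom hC y' = 0 ∧ (L + 1) • y' = y := by
    intro y hy
    obtain ⟨y', hy', h⟩ := s27s_J1_div hC 𝔰 abv hna hA L hpA y ((s27s_spHom_eq_zero_iff hC y).mp hy)
    exact ⟨y', (s27s_spHom_eq_zero_iff hC y').mpr hy', h⟩
  have htf : ∀ y, s27s_spHom hC y = 0 → (L + 1) • y = 0 → y = 0 := fun y hy h =>
    s27s_J1_tf hC 𝔰 L hpA y ((s27s_spHom_eq_zero_iff hC y).mp hy) h
  obtain ⟨-, hsurj⟩ := s27s_torsion_bij (s27s_spHom hC) (s27s_spHom_surjective hC) (L + 1) hdivJ htf 1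
  -- the divisor of `ū`, divided by `p`
  haveI := hC.pdFb
  obtain ⟨Du, hDu, hDudeg⟩ := HasPrincipalDivisors.exists_divisor (K := k) ū hū
  set Db : Divisor k Fb := Finsupp.mapRange (fun n : ℤ => n / (((L + 1 : ℕ)) : ℤ))
    (by simp) Du with hDb
  have hDbQ : ∀ Q, (((L + 1 : ℕ)) : ℤ) * Db Q = Q.ord ū := by
    intro Q
    rw [hDb, Finsupp.mapRange_apply, hDu Q]
    exact Int.mul_ediv_cancel' (hdiv Q)
  have hsm : (((L + 1 : ℕ)) : ℤ) • Db = Du := by
    ext Q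
    rw [Finsupp.smul_apply, smul_eq_mul, hDbQ Q, hDu Q]
  have hDbdeg : Divisor.degree Db = 0 := by
    have h1 : (((L + 1 : ℕ)) : ℤ) * Divisor.degree Db = 0 := by
      rw [← smul_eq_mul, ← map_zsmul, hsm, hDudeg]
    exact (mul_eq_zero.mp h1).resolve_left hL
  set Db0 : Divisor.degZero (K := k) (F := Fb) := ⟨Db, Divisor.mem_degZero.mpr hDbdeg⟩ with hDb0
  have hyb : ((L + 1) ^ 1) • Pic0.mk Db0 = 0 := by
    rw [pow_one]
    have hnsmul : (L + 1) • Pic0.mk Db0 = Pic0.mk ((L + 1) • Db0) := rfl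
    rw [hnsmul, ← Pic0.mk_zero, s59m_mk_eq_mk_iff]
    refine ⟨ū, hū, fun v => ?_⟩
    rw [ZeroMemClass.coe_zero, sub_zero, AddSubgroupClass.coe_nsmul, Finsupp.smul_apply,
      nsmul_eq_mul]
    exact hDbQ v
  obtain ⟨y, hy, hyb'⟩ := hsurj (Pic0.mk Db0) hyb
  rw [pow_one] at hy
  obtain ⟨D, rfl⟩ := Pic0.mk_surjective y
  -- a generator
  have hnsmulD : (L + 1) • Pic0.mk D = Pic0.mk ((L + 1) • D) := rfl
  rw [hnsmulD, ← Pic0.mk_zero, s19j_mk_eq_mk_iff] at hy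
  obtain ⟨g₀, hg₀0, hg₀⟩ := hy
  obtain ⟨u, hu0, huO, huinv⟩ := hC.gv g₀ hg₀0
  have hu0' : algebraMap K F u ≠ 0 := (map_ne_zero_iff _ (algebraMap K F).injective).mpr hu0
  set G : F := algebraMap K F u * g₀ with hG
  have hG0 : G ≠ 0 := mul_ne_zero hu0' hg₀0
  have hordG : ∀ P : Place K F, P.ord G = (((L + 1 : ℕ)) : ℤ) * (D : Divisor K F) P := by
    intro P
    have h1 := hg₀ P
    rw [ZeroMemClass.coe_zero, sub_zero, AddSubgroupClass.coe_nsmul, Finsupp.smul_apply,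
      nsmul_eq_mul] at h1
    rw [hG, P.ord_mul hu0' hg₀0, ff_ord_algebraMap, zero_add, ← h1]
  have hred : red ⟨G, huO⟩ ≠ 0 := by
    intro h0
    have h1 : (⟨G, huO⟩ : ↥O) * ⟨G⁻¹, huinv⟩ = 1 := Subtype.ext (mul_inv_cancel₀ hG0)
    have h2 := congrArg red h1
    rw [map_mul, h0, zero_mul, map_one] at h2
    exact zero_ne_one h2
  -- the specialisation
  rw [s27s_spHom_mk, s59m_mk_eq_mk_iff] at hyb'
  obtain ⟨w, hw0, hw⟩ := hyb'
  have hwQ : ∀ Q : Place k Fb,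
      Finsupp.mapDomain r (D : Divisor K F) Q = Db Q + Q.ord w := by
    intro Q
    have h1 := hw Q
    rw [Finsupp.sub_apply, s27s_degZeroMap_coe] at h1
    have h2 : ((Db0 : Divisor.degZero (K := k) (F := Fb)) : Divisor k Fb) Q = Db Q := rfl
    rw [h2] at h1
    omega
  -- the function `red G / (ū w^p)` has no zero and no pole
  set t : Fb := red ⟨G, huO⟩ * (ū * w ^ (L + 1))⁻¹ with ht
  have huw0 : ū * w ^ (L + 1) ≠ 0 := mul_ne_zero hū (pow_ne_zero _ hw0)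
  have ht0 : t ≠ 0 := mul_ne_zero hred (inv_ne_zero huw0)
  have hordt : ∀ Q : Place k Fb, Q.ord t = 0 := by
    intro Q
    have hcons := hC.rd.cons G huO hred ((((L + 1 : ℕ)) : ℤ) • (D : Divisor K F))
      (fun P => by rw [Finsupp.smul_apply, smul_eq_mul, hordG P]) Q
    rw [Finsupp.mapDomain_smul, Finsupp.smul_apply, smul_eq_mul, hwQ Q, mul_add, hDbQ Q] at hcons
    rw [ht, Q.ord_mul hred (inv_ne_zero huw0), Q.ord_inv, Q.ord_mul hū (pow_ne_zero _ hw0),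
      s33d_ord_pow, ← hcons]
    ring
  obtain ⟨c, hc⟩ := hconst t ht0 hordt
  have hc0 : c ≠ 0 := by
    rintro rfl
    rw [map_zero] at hc
    exact ht0 hc
  refine ⟨Pic0.mk D, G, huO, ⟨hG0, D, rfl, hordG⟩, huinv, c, w, hc0, hw0, ?_⟩
  rw [← hc, ht, mul_assoc, mul_assoc, inv_mul_cancel₀ huw0, mul_one]

end Abs

end Fermat.Agent.Lib.S59
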