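/-
Programme (R) / node [MP] (Mazur's principle), leaf [B] = RED (helper9, prefix `s59m_`):
**THE CORE OF THE REDUCTION STEP, AT THE TOP LEVEL** (`ℚ̄`, Gauss valuation ring of `P ∣ q`).

Level `M q` (`q ∤ M`, `q` the residue characteristic of `P`), Kummer exponent `p ≠ q`.

* `s59m_redV_top_mem_fullC` : the reduction of the top-level Gauss ring of level `M q` lands in `F̄_M`;
* `s59m_tauBar_mem_OF`, `s59m_redV_tauBar` : the Kummer-side Hecke operator `Nm_α ∘ β` preserves the Gauss ring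
  and reduces to `N̄_ℓ`;
* `s59m_top_eigen` : the reduced Hecke relation (two-prime version of `s44h_top_eigen`);
* `s59m_core` : `x ∈ J₀(M q)[p]` an eigen-point, `H` a Gauss-unit Kummer generator of `x` whose reduction
  `ū ∈ F̄_M` has divisor divisible by `p`.  Then EITHER there is a non-zero eigen-point at level `M` OR
  `ū = c · w ^ p`.
-/
import Fermat.Agent.Lib.S59.MRedSp
import Fermat.Agent.Lib.S59.MRedSer
import Fermat.Agent.Lib.S44.HTauTop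
import Fermat.Agent.Lib.S44.Iface
import Fermat.Agent.Lib.S33.SsComp
import Fermat.Agent.Lib.S17.ZTop
import Fermat.Agent.Lib.S17.ZAbv
import Fermat.Agent.Lib.S15.RTower
import Fermat.Agent.Lib.S33.UnipJ
import Fermat.Agent.Lib.S33.TPTau

set_option autoImplicit false
set_option linter.style.haveILetI false
set_option linter.unusedSectionVars false
set_option linter.unusedVariables false
set_option synthInstance.maxHeartbeats 400000

namespace Fermat.Agent.Lib.S59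

open ModularCurve HahnSeries AlgebraicCurve Fermat.Agent.Lib.FF Fermat.Agent.Lib.S18
  Fermat.Agent.Lib.S28 Fermat.Agent.Lib.S29 Fermat.Agent.Lib.S37 Fermat.Agent.Lib.S34
  Fermat.Agent.Lib.S33 Fermat.Agent.Lib.S44 Fermat.Agent.Lib.S19 Fermat.Agent.Lib.S17
  Fermat.Agent.Lib.S15

noncomputable section

local notation "Kb" => AlgebraicClosure ℚ

/-! ### The reduction of the top-level Gauss ring of level `M q` lands in `F̄_M` -/

section FracTop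

variable (M q : ℕ) [NeZero M] [hq : Fact q.Prime] (hqM : ¬ q ∣ M)
  (P : ValuationSubring Kb) (hP : P.LiesOverPrime q)

include hqM in
/-- **FRAC at the top level**: `red (O_{M q}) ⊆ F̄_M`. -/
theorem s59m_redV_top_mem_fullC (f : ↥(s37r_OF P (M * q) hP)) :
    s37r_redV P (M * q) hP f ∈ modularFunctionFieldFullC (IsLocalRing.ResidueField ↥P) M := by
  classical
  obtain ⟨L₀, hfd, hL₀⟩ := s18q_exists_field (M * q) {(f : ↥(modularFunctionFieldBar (M * q)))}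
  obtain ⟨f₀, hf₀⟩ := hL₀ (f : ↥(modularFunctionFieldBar (M * q))) (Finset.mem_singleton_self _)
  haveI := hfd
  obtain ⟨_, ϖ, hϖ⟩ := s37r_exists_unif P hP L₀
  haveI hchar : CharP (IsLocalRing.ResidueField ↥(s18q_A0 P L₀)) q := s37rl_charP P hP L₀
  have hT : s18g_HT (IsLocalRing.ResidueField ↥(s18q_A0 P L₀)) M := s18t_indep_j q M hqM _
  have hdegM : s18g_HDeg ↥L₀ M := fun n b hb hn =>
    s18g_exists_relation M (algebraMap ↥L₀ Kb) hn b hb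
  have hdeg : s34m_HDeg ↥L₀ M q := s34r_deg_HDeg (algebraMap ↥L₀ Kb) M q hq.out hqM
  have hmem : s18q_incl (M * q) L₀ f₀ ∈ s37r_OF P (M * q) hP := by rw [hf₀]; exact f.2
  have hf₀V : f₀ ∈ s34m_Vinf (s37r_G P L₀ ϖ hϖ) (M * q) :=
    (s37r_incl_mem_OF_iff P (M * q) hP L₀ ϖ hϖ f₀).mp hmem
  have hfeq : f = ⟨s18q_incl (M * q) L₀ f₀, hmem⟩ := Subtype.ext hf₀.symm
  have e : s37r_redV P (M * q) hP ⟨s18q_incl (M * q) L₀ f₀, hmem⟩ =
      coeffMap (s37r_resMap P L₀) (s34m_redInf (s37r_G P L₀ ϖ hϖ) (M * q) ⟨f₀, hf₀V⟩) :=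
    s37r_redV_incl P (M * q) hP L₀ ϖ hϖ f₀ hf₀V hmem
  rw [hfeq, e]
  exact s37e_coeffMap_mem_fullC M (s37r_resMap P L₀)
    (s33y_redInf_mem_fullC (s37r_G P L₀ ϖ hϖ) (algebraMap ↥L₀ Kb) M q hqM hdeg hT hdegM ⟨f₀, hf₀V⟩)

end FracTop

/-! ### The Kummer-side Hecke operator on the top-level Gauss ring -/

section Tau

variable (N : ℕ) [NeZero N] (ℓ : ℕ) [hℓ : Fact ℓ.Prime] (hℓN : ¬ ℓ ∣ N)
  {q : ℕ} [hq : Fact q.Prime] (hℓq : ℓ ≠ q)
  (A : ValuationSubring Kb) (hA : A.LiesOverPrime q)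
  (ζ : Kbˣ) (hζ : IsPrimitiveRoot (ζ : Kb) ℓ)

include hℓq hA in
/-- `ζ̄` is primitive (`ℓ ≠ q`). -/
theorem s59m_zetaTK_prim :
    haveI : NeZero ℓ := ⟨hℓ.out.ne_zero⟩
    IsPrimitiveRoot ((s44h_zetaTK A (IsLocalRing.residue ↥A) ℓ ζ hζ :
      (IsLocalRing.ResidueField ↥A)ˣ) : IsLocalRing.ResidueField ↥A) ℓ := by
  haveI : NeZero ℓ := ⟨hℓ.out.ne_zero⟩
  haveI hchar : CharP (IsLocalRing.ResidueField ↥A) q := s18n_charP_residueField A hq.out hA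
  have hℓk : ((ℓ : ℕ) : IsLocalRing.ResidueField ↥A) ≠ 0 := by
    intro h0
    have := (CharP.cast_eq_zero_iff (IsLocalRing.ResidueField ↥A) q ℓ).mp h0
    exact hℓq ((Nat.prime_dvd_prime_iff_eq hq.out hℓ.out).mp this).symm
  exact s44h_top_zeta_prim A (IsLocalRing.residue ↥A) ℓ ζ hζ hℓ.out hℓk

include hℓN hζ in
/-- `Nm_α (β f)` is Gauss-integral when `f` is. -/
theorem s59m_tauBar_mem_OF {f : ffi_F N} (hf : f ∈ s37r_OF A N hA) :
    s37e_normAlpha N ℓ (heckeBetaBar Kb N ℓ f) ∈ s37r_OF A N hA := by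
  haveI : NeZero ℓ := ⟨hℓ.out.ne_zero⟩
  rw [s37r_mem_OF_iff, s44h_coe_normAlpha_beta N ℓ hℓN ζ hζ f]
  exact s44h_top_N_mem_O A _ ℓ ζ hζ hf

include hℓq in
/-- **`red (Nm_α (β f)) = N̄_ℓ (red f)`.** -/
theorem s59m_redV_tauBar {f : ffi_F N} (hf : f ∈ s37r_OF A N hA) :
    haveI : NeZero ℓ := ⟨hℓ.out.ne_zero⟩
    s37r_redV A N hA ⟨s37e_normAlpha N ℓ (heckeBetaBar Kb N ℓ f),
        s59m_tauBar_mem_OF N ℓ hℓN A hA ζ hζ hf⟩ =
      s33t_N ℓ (s44h_zetaTK A (IsLocalRing.residue ↥A) ℓ ζ hζ) (s37r_redV A N hA ⟨f, hf⟩) := by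
  haveI : NeZero ℓ := ⟨hℓ.out.ne_zero⟩
  have hζκ := s59m_zetaTK_prim ℓ hℓq A hA ζ hζ
  have := s44h_top_red_N A (IsLocalRing.residue ↥A) ℓ ζ hζ hζκ
    ((s37r_mem_OF_iff A N hA f).mp hf)
  refine Eq.trans ?_ this
  show s37r_red A _ (s37r_OFtoO A N hA ⟨_, _⟩) = _
  congr 1
  exact Subtype.ext (s44h_coe_normAlpha_beta N ℓ hℓN ζ hζ f)

end Tau

/-! ### The reduced Hecke relation (two primes) -/

section Eigen

variable (N : ℕ) [NeZero N] (ℓ : ℕ) [hℓ : Fact ℓ.Prime] (hℓN : ¬ ℓ ∣ N)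
  {q : ℕ} [hq : Fact q.Prime] (hℓq : ℓ ≠ q)
  (A : ValuationSubring Kb) (hA : A.LiesOverPrime q) (e : ℕ)
  (ζ : Kbˣ) (hζ : IsPrimitiveRoot (ζ : Kb) ℓ)

/-- **Gauss normalisation of a relation** `T = c · w^e · H^a₀` between Gauss units `T`, `H`:
`red T = C c̄ · (red H)^a₀ · (red u)^e`, `u` a Gauss unit. -/
theorem s59m_gauss_rel (a₀ : ℤ) (H T : ffi_F N) (hH0 : H ≠ 0)
    (hH : H ∈ s37r_OF A N hA) (hH' : H⁻¹ ∈ s37r_OF A N hA)
    (hTmem : T ∈ s37r_OF A N hA) (hTmem' : T⁻¹ ∈ s37r_OF A N hA)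
    (c : Kb) (w : ffi_F N) (hc : c ≠ 0) (hw : w ≠ 0)
    (hrel : T = algebraMap Kb (ffi_F N) c * w ^ e * H ^ a₀) :
    ∃ (c : IsLocalRing.ResidueField ↥A) (u : ffi_F N) (hu : u ∈ s37r_OF A N hA),
      c ≠ 0 ∧ s37r_redV A N hA ⟨u, hu⟩ ≠ 0 ∧
      s37r_redV A N hA ⟨T, hTmem⟩ =
        HahnSeries.C c * (s37r_redV A N hA ⟨H, hH⟩) ^ a₀ * (s37r_redV A N hA ⟨u, hu⟩) ^ e := by
  -- normalise `w`
  obtain ⟨d, u, hd, hu, hu', hwu⟩ := s33d_exists_gauss_unit A N hA w hw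
  have hu0 : u ≠ 0 := by
    rintro rfl
    rw [mul_zero] at hwu
    exact hw hwu
  -- `T = C(c d^e) · u^e · H^a₀`
  have hrel2 : T = algebraMap Kb (ffi_F N) (c * d ^ e) * (u ^ e * H ^ a₀) := by
    rw [hrel, hwu, mul_pow, map_mul, map_pow]
    ring
  -- `u^e H^a₀` is a Gauss unit
  obtain ⟨hHa1, hHa2, hredHa⟩ := s44h_redV_zpow N q A hA H hH hH' hH0 a₀
  set W : ffi_F N := u ^ e * H ^ a₀ with hW
  have hWmem : W ∈ s37r_OF A N hA := (s37r_OF A N hA).mul_mem _ _ (pow_mem hu e) hHa1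
  have hWmem' : W⁻¹ ∈ s37r_OF A N hA := by
    rw [hW, mul_inv, ← inv_pow]
    exact (s37r_OF A N hA).mul_mem _ _ (pow_mem hu' e) hHa2
  have hW0 : W ≠ 0 := mul_ne_zero (pow_ne_zero e hu0) (zpow_ne_zero a₀ hH0)
  have hT0 : T ≠ 0 := by
    rw [hrel]
    exact mul_ne_zero (mul_ne_zero (by rwa [Ne, map_eq_zero]) (pow_ne_zero e hw))
      (zpow_ne_zero a₀ hH0)
  obtain ⟨hcd, hcd'⟩ := s33d_gauss_const A N hA hW0 hT0 hWmem hWmem' hTmem hTmem' hrel2.symm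
  -- reduce
  set cA : A := ⟨c * d ^ e, hcd⟩ with hcA
  have hcAunit : IsUnit cA := by
    refine IsUnit.of_mul_eq_one (⟨(c * d ^ e)⁻¹, hcd'⟩ : A) (Subtype.ext ?_)
    show (c * d ^ e) * (c * d ^ e)⁻¹ = 1
    exact mul_inv_cancel₀ (mul_ne_zero hc (pow_ne_zero e hd))
  have hCmem : algebraMap Kb (ffi_F N) ((cA : A) : Kb) ∈ s37r_OF A N hA :=
    (s33d_algebraMap_mem_OF_iff A N hA _).mpr hcd
  have hred : s37r_redV A N hA ⟨T, hTmem⟩ =
      HahnSeries.C (IsLocalRing.residue ↥A cA) *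
        ((s37r_redV A N hA ⟨u, hu⟩) ^ e * s37r_redV A N hA ⟨H ^ a₀, hHa1⟩) := by
    have e' : (⟨T, hTmem⟩ : ↥(s37r_OF A N hA)) =
        ⟨algebraMap Kb (ffi_F N) ((cA : A) : Kb), hCmem⟩ * (⟨u, hu⟩ ^ e * ⟨H ^ a₀, hHa1⟩) :=
      Subtype.ext hrel2
    rw [e', map_mul (s37r_redV A N hA), map_mul (s37r_redV A N hA), map_pow,
      s33d_redV_algebraMap A N hA cA hCmem]
  have hredu0 : s37r_redV A N hA ⟨u, hu⟩ ≠ 0 := by
    intro h0
    have h1 : (⟨u, hu⟩ : ↥(s37r_OF A N hA)) * ⟨u⁻¹, hu'⟩ = 1 :=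
      Subtype.ext (mul_inv_cancel₀ hu0)
    have := congrArg (s37r_redV A N hA) h1
    rw [map_mul, h0, zero_mul, map_one] at this
    exact zero_ne_one this
  refine ⟨IsLocalRing.residue ↥A cA, u, hu, ?_, hredu0, ?_⟩
  · intro h0
    exact ((IsLocalRing.residue_eq_zero_iff _).mp h0) hcAunit
  · rw [hred, hredHa]
    ring

include hℓN hℓq in
/-- **the reduced Hecke relation**: if `Nm_α (β H) = c · w^e · H^a₀` over `ℚ̄` and `H` is a Gauss unit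
at the top level, then `N̄_ℓ (red H) = C c̄ · (red H)^a₀ · (red u)^e`, `u` a Gauss unit. -/
theorem s59m_top_eigen (a₀ : ℤ) (H : ffi_F N) (hH0 : H ≠ 0)
    (hH : H ∈ s37r_OF A N hA) (hH' : H⁻¹ ∈ s37r_OF A N hA)
    (c : Kb) (w : ffi_F N) (hc : c ≠ 0) (hw : w ≠ 0)
    (hrel : s37e_normAlpha N ℓ (heckeBetaBar Kb N ℓ H) =
      algebraMap Kb (ffi_F N) c * w ^ e * H ^ a₀) :
    haveI : NeZero ℓ := ⟨hℓ.out.ne_zero⟩
    ∃ (c : IsLocalRing.ResidueField ↥A) (u : ffi_F N) (hu : u ∈ s37r_OF A N hA),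
      c ≠ 0 ∧ s37r_redV A N hA ⟨u, hu⟩ ≠ 0 ∧
      s33t_N ℓ (s44h_zetaTK A (IsLocalRing.residue ↥A) ℓ ζ hζ) (s37r_redV A N hA ⟨H, hH⟩) =
        HahnSeries.C c * (s37r_redV A N hA ⟨H, hH⟩) ^ a₀ * (s37r_redV A N hA ⟨u, hu⟩) ^ e := by
  haveI : NeZero ℓ := ⟨hℓ.out.ne_zero⟩
  set T : ffi_F N := s37e_normAlpha N ℓ (heckeBetaBar Kb N ℓ H) with hT
  have hTcoe : ((T : ffi_F N) : LaurentSeries Kb) = s33t_N ℓ ζ ((H : ffi_F N) : LaurentSeries Kb) :=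
    s44h_coe_normAlpha_beta N ℓ hℓN ζ hζ H
  have hTmem : T ∈ s37r_OF A N hA := s59m_tauBar_mem_OF N ℓ hℓN A hA ζ hζ hH
  -- `T⁻¹ ∈ O_F`: `T` is `N(H)` and `N(H⁻¹) = T⁻¹`
  have hTmem' : T⁻¹ ∈ s37r_OF A N hA := by
    have hTinv : ((T⁻¹ : ffi_F N) : LaurentSeries Kb) =
        s33t_N ℓ ζ ((H⁻¹ : ffi_F N) : LaurentSeries Kb) := by
      rw [IntermediateField.coe_inv, IntermediateField.coe_inv, s59m_N_inv ℓ ζ hζ, hTcoe]
    rw [s37r_mem_OF_iff, hTinv]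
    exact s44h_top_N_mem_O A _ ℓ ζ hζ hH'
  have hredT : s37r_redV A N hA ⟨T, hTmem⟩ =
      s33t_N ℓ (s44h_zetaTK A (IsLocalRing.residue ↥A) ℓ ζ hζ) (s37r_redV A N hA ⟨H, hH⟩) :=
    s59m_redV_tauBar N ℓ hℓN hℓq A hA ζ hζ hH
  obtain ⟨cb, u, hu, hcb, hu0, h⟩ := s59m_gauss_rel N A hA e a₀ H T hH0 hH hH' hTmem hTmem' c w hc hw hrel
  exact ⟨cb, u, hu, hcb, hu0, by rw [← hredT]; exact h⟩

end Eigen

/-! ### A computation in the field of Laurent series -/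

section FieldComp

theorem s59m_field_comp {k : Type*} [Field k] (ℓ : ℕ) [NeZero ℓ] (ζ : kˣ)
    (hζ : IsPrimitiveRoot (ζ : k) ℓ) (p : ℕ) (a : ℤ) (c₁ cb : k) (hc₁ : c₁ ≠ 0)
    (U W Ured G : LaurentSeries k) (hU : U ≠ 0) (hW : W ≠ 0)
    (hG : G = HahnSeries.C c₁ * U * W ^ p)
    (hN : s33t_N ℓ ζ U = HahnSeries.C cb * U ^ a * Ured ^ p) :
    s33t_N ℓ ζ G * (G ^ a)⁻¹ =
      HahnSeries.C (c₁ ^ (ℓ + 1) * cb * (c₁ ^ a)⁻¹) *
        (Ured * s33t_N ℓ ζ W * (W ^ a)⁻¹) ^ p := by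
  have hC0 : (HahnSeries.C c₁ : LaurentSeries k) ≠ 0 := by
    rw [Ne, ← map_zero (HahnSeries.C : k →+* LaurentSeries k)]
    exact fun h => hc₁ (HahnSeries.C_injective h)
  have hWa : (W ^ p) ^ a = (W ^ a) ^ p := by
    rw [← zpow_natCast, ← zpow_mul, mul_comm, zpow_mul, zpow_natCast]
  rw [hG, s44h_N_mul ℓ ζ hζ, s44h_N_mul ℓ ζ hζ, s59m_N_pow ℓ ζ hζ, s33t_N_C, hN, mul_zpow,
    mul_zpow, hWa, map_mul, map_mul, map_inv₀, map_zpow₀, map_pow]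
  have h1 : U ^ a ≠ 0 := zpow_ne_zero a hU
  have h2 : (W ^ a) ≠ 0 := zpow_ne_zero a hW
  have h3 : (HahnSeries.C c₁ : LaurentSeries k) ^ a ≠ 0 := zpow_ne_zero a hC0
  have h4 : (W ^ a) ^ p ≠ 0 := pow_ne_zero p h2
  simp only [mul_pow, inv_pow]
  field_simp

theorem s59m_coe_algebraMap_fullC {k : Type*} [Field k] (N : ℕ) (c : k) :
    ((algebraMap k ↥(modularFunctionFieldFullC k N) c : ↥(modularFunctionFieldFullC k N)) :
      LaurentSeries k) = HahnSeries.C c := by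
  show algebraMap k (LaurentSeries k) c = _
  rw [algebraMap_laurentSeries_eq_single, HahnSeries.C_apply]

end FieldComp

/-! ### The core -/

section Core

variable (M q : ℕ) [NeZero M] [hq : Fact q.Prime] (hqM : ¬ q ∣ M) (h5 : 5 ≤ q)
  (p : ℕ) [hp : Fact p.Prime] (hpq : p ≠ q)
  (P : ValuationSubring Kb) (hP : P.LiesOverPrime q)

include hpq hP in
/-- `p ≠ q` is a unit of `P`. -/
theorem s59m_isUnit_p : IsUnit ((p : ℕ) : ↥P) := by
  haveI : CharP (IsLocalRing.ResidueField ↥P) q := s18x_charP_residueField P hq.out hP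
  by_contra hnu
  have h1 : IsLocalRing.residue ↥P ((p : ℕ) : ↥P) = 0 := by
    rw [IsLocalRing.residue_eq_zero_iff, IsLocalRing.mem_maximalIdeal, mem_nonunits_iff]
    exact hnu
  have h2 : ((p : ℕ) : IsLocalRing.ResidueField ↥P) = 0 := by
    rw [← h1, map_natCast]
  have h3 := (CharP.cast_eq_zero_iff (IsLocalRing.ResidueField ↥P) q p).mp h2
  exact hpq ((Nat.prime_dvd_prime_iff_eq hq.out hp.out).mp h3).symm

include hqM hP in
/-- `N̄_ℓ` preserves the special fibre function field `F̄_M`. -/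
theorem s59m_Nbar_mem_fullC (ℓ : ℕ) [hℓ : Fact ℓ.Prime] (hℓM : ¬ ℓ ∣ M) (hℓq : ℓ ≠ q)
    (ζ : Kbˣ) (hζ : IsPrimitiveRoot (ζ : Kb) ℓ)
    (w : ↥(modularFunctionFieldFullC (IsLocalRing.ResidueField ↥P) M)) :
    haveI : NeZero ℓ := ⟨hℓ.out.ne_zero⟩
    s33t_N ℓ (s44h_zetaTK P (IsLocalRing.residue ↥P) ℓ ζ hζ)
        (w : LaurentSeries (IsLocalRing.ResidueField ↥P)) ∈
      modularFunctionFieldFullC (IsLocalRing.ResidueField ↥P) M := by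
  haveI : NeZero ℓ := ⟨hℓ.out.ne_zero⟩
  obtain ⟨wt, hwt⟩ := m15r_redF_surjective P hP M hqM w
  have h1 : (w : LaurentSeries (IsLocalRing.ResidueField ↥P)) =
      s37r_redV P M hP ⟨(wt : ffi_F M), wt.2⟩ := by
    rw [← hwt]
    rfl
  rw [h1, ← s59m_redV_tauBar M ℓ hℓM hℓq P hP ζ hζ wt.2]
  exact s37r_redV_mem_fullC P M hP hqM _

set_option maxHeartbeats 1600000 in
include hqM h5 hpq in
/-- **THE CORE.** -/
theorem s59m_core (a : ℕ → ℤ) (B : Finset ℕ) (hB : ∀ r : ℕ, r.Prime → r ∣ M * q * p → r ∈ B)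
    (x : JZero (M * q)) (hE : s44i_Eig (M * q) p a B x)
    (H : ffi_F (M * q)) (hgen : s33d_IsKumGen p x H)
    (hH : H ∈ s37r_OF P (M * q) hP) (hH' : H⁻¹ ∈ s37r_OF P (M * q) hP)
    (ū : ↥(modularFunctionFieldFullC (IsLocalRing.ResidueField ↥P) M))
    (hū : (ū : LaurentSeries (IsLocalRing.ResidueField ↥P)) = s37r_redV P (M * q) hP ⟨H, hH⟩)
    (hdiv : ∀ v : Place (IsLocalRing.ResidueField ↥P)
      ↥(modularFunctionFieldFullC (IsLocalRing.ResidueField ↥P) M), (p : ℤ) ∣ v.ord ū) :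
    (∃ y : JZero M, y ≠ 0 ∧ s44i_Eig M p a B y) ∨
      ∃ (c : IsLocalRing.ResidueField ↥P)
        (w : ↥(modularFunctionFieldFullC (IsLocalRing.ResidueField ↥P) M)), c ≠ 0 ∧ w ≠ 0 ∧
        ū = algebraMap (IsLocalRing.ResidueField ↥P)
          ↥(modularFunctionFieldFullC (IsLocalRing.ResidueField ↥P) M) c * w ^ p := by
  classical
  have hgood : s18_GoodLevel q M := ⟨hqM, Or.inl h5⟩
  haveI : FFGen Kb (ffd_jBar M) := s18r_ffGen M
  obtain ⟨r, l, g, hr, hl, hC⟩ :=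
    (s19m_curveExists s19_gauss_final s19_rr_final s19e_baseA) M q hgood P hP
  obtain ⟨abv, hna, hAabv⟩ := s17z_abv_exists P hq.out hP
  have hconst : s33d_ConstOfOrdZero (IsLocalRing.ResidueField ↥P)
      ↥(modularFunctionFieldFullC (IsLocalRing.ResidueField ↥P) M) :=
    s18n_constFk_residueField (N := M) P hq.out hP hqM
  have hp0 : p ≠ 0 := hp.out.ne_zero
  have hpA := s59m_isUnit_p q p hpq P hP
  have hH0 : H ≠ 0 := hgen.1
  have hredH0 : s37r_redV P (M * q) hP ⟨H, hH⟩ ≠ 0 := by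
    intro h0
    have h1 : (⟨H, hH⟩ : ↥(s37r_OF P (M * q) hP)) * ⟨H⁻¹, hH'⟩ = 1 :=
      Subtype.ext (mul_inv_cancel₀ hH0)
    have := congrArg (s37r_redV P (M * q) hP) h1
    rw [map_mul, h0, zero_mul, map_one] at this
    exact zero_ne_one this
  have hū0 : ū ≠ 0 := by
    rintro rfl
    exact hredH0 hū.symm
  obtain ⟨z, G, hGO, hgenG, hG'O, c₁, w₁, hc₁, hw₁, hredG⟩ :=
    s59m_liftK hC abv hna hAabv hconst p hp0 hpA ū hū0 hdiv
  have hG0 : G ≠ 0 := hgenG.1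
  -- the reduction of `G` as a series
  have hredGs : s37r_redV P M hP ⟨G, hGO⟩ =
      HahnSeries.C c₁ * (ū : LaurentSeries (IsLocalRing.ResidueField ↥P)) *
        (w₁ : LaurentSeries (IsLocalRing.ResidueField ↥P)) ^ p := by
    have := congrArg (fun y : ↥(modularFunctionFieldFullC (IsLocalRing.ResidueField ↥P) M) =>
      (y : LaurentSeries (IsLocalRing.ResidueField ↥P))) hredG
    simp only [s37r_coe_redF, MulMemClass.coe_mul, SubmonoidClass.coe_pow,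
      s59m_coe_algebraMap_fullC] at this
    exact this
  by_cases hz : z = 0
  · -- `z = 0`: `ū` is a constant times a `p`-th power
    right
    obtain ⟨c₂, w₂, hc₂, hw₂, hGeq⟩ :=
      (s33d_kumGen_zero_iff (s33d_constOfOrdZero_bar M) hp0 hgenG).mp hz
    obtain ⟨cb, u, hu, hcb, hu0, hrel⟩ := s59m_gauss_rel M P hP p 0 1 G one_ne_zero
      (s37r_OF P M hP).one_mem (by rw [inv_one]; exact (s37r_OF P M hP).one_mem) hGO hG'O
      c₂ w₂ hc₂ hw₂ (by rw [hGeq, zpow_zero, mul_one])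
    rw [zpow_zero, mul_one] at hrel
    refine ⟨cb * c₁⁻¹, s37r_redF P M hP hqM ⟨u, hu⟩ * w₁⁻¹, mul_ne_zero hcb (inv_ne_zero hc₁),
      mul_ne_zero (fun h0 => hu0 (congrArg Subtype.val h0)) (inv_ne_zero hw₁), ?_⟩
    apply Subtype.ext
    have hw₁s : (w₁ : LaurentSeries (IsLocalRing.ResidueField ↥P)) ≠ 0 :=
      fun h0 => hw₁ (Subtype.ext h0)
    have hC0 : (HahnSeries.C c₁ : LaurentSeries (IsLocalRing.ResidueField ↥P)) ≠ 0 := by
      rw [Ne, ← map_zero (HahnSeries.C : (IsLocalRing.ResidueField ↥P) →+* LaurentSeries _)]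
      exact fun h => hc₁ (HahnSeries.C_injective h)
    have e1 : HahnSeries.C c₁ * (ū : LaurentSeries (IsLocalRing.ResidueField ↥P)) *
        (w₁ : LaurentSeries (IsLocalRing.ResidueField ↥P)) ^ p =
        HahnSeries.C cb * (s37r_redV P M hP ⟨u, hu⟩) ^ p := by rw [← hredGs, hrel]
    simp only [MulMemClass.coe_mul, SubmonoidClass.coe_pow, s59m_coe_algebraMap_fullC,
      s37r_coe_redF, IntermediateField.coe_inv, map_mul, map_inv₀, mul_pow, inv_pow]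
    have hwp : (w₁ : LaurentSeries (IsLocalRing.ResidueField ↥P)) ^ p ≠ 0 := pow_ne_zero p hw₁s
    field_simp
    rw [← e1]
    ring
  · -- `z ≠ 0`: an eigen-point at level `M`
    left
    refine ⟨z, hz, s33d_kumGen_tors hgenG, ?_⟩
    intro ℓ hℓB
    haveI hℓF : Fact (ℓ : ℕ).Prime := ⟨ℓ.2⟩
    haveI : NeZero (ℓ : ℕ) := ⟨ℓ.2.ne_zero⟩
    have hℓN : ¬ (ℓ : ℕ) ∣ M * q * p := fun hd => hℓB (hB ℓ ℓ.2 hd)
    have hℓMq : ¬ (ℓ : ℕ) ∣ M * q := fun hd => hℓN (Dvd.dvd.mul_right hd p)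
    have hℓM : ¬ (ℓ : ℕ) ∣ M := fun hd => hℓMq (Dvd.dvd.mul_right hd q)
    have hℓq : (ℓ : ℕ) ≠ q := by
      intro h0
      exact hℓMq (h0 ▸ dvd_mul_left _ _)
    obtain ⟨ζ, hζ⟩ := s37e_exists_zeta (ℓ : ℕ)
    have hζκ := s59m_zetaTK_prim (ℓ : ℕ) hℓq P hP ζ hζ
    -- level `M q`
    have hzx : heckeOperatorBar (M * q) ⟨(ℓ : ℕ), hℓF.out⟩ x = a ℓ • x := hE.2 ℓ hℓB
    obtain ⟨c, w, hc, hw, hrel⟩ :=
      s44h_top_rel_of_eigen (M * q) (ℓ : ℕ) p hℓMq x (a ℓ) hzx H hgen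
    obtain ⟨cb, u, hu, hcb, hu0, hN⟩ := s59m_top_eigen (M * q) (ℓ : ℕ) hℓMq hℓq P hP p ζ hζ
      (a ℓ) H hH0 hH hH' c w hc hw hrel
    rw [← hū] at hN
    -- level `M`
    obtain ⟨hGa1, hGa2, hredGa⟩ := s44h_redV_zpow M q P hP G hGO hG'O hG0 (a ℓ)
    have hτG : s37e_normAlpha M (ℓ : ℕ) (heckeBetaBar Kb M (ℓ : ℕ) G) ∈ s37r_OF P M hP :=
      s59m_tauBar_mem_OF M (ℓ : ℕ) hℓM P hP ζ hζ hGO
    set G' : ffi_F M := s37e_normAlpha M (ℓ : ℕ) (heckeBetaBar Kb M (ℓ : ℕ) G) * (G ^ (a ℓ))⁻¹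
      with hG'
    have hgen' : s33d_IsKumGen p (heckeOperatorBar M ⟨(ℓ : ℕ), hℓF.out⟩ z + -(a ℓ • z)) G' :=
      s33d_kumGen_prod (s44c_isKumGen_hecke M (ℓ : ℕ) hℓM p z G hgenG)
        (s33d_kumGen_inv (s44c_isKumGen_zpow M p hgenG (a ℓ)))
    have hG'mem : G' ∈ s37r_OF P M hP := (s37r_OF P M hP).mul_mem _ _ hτG hGa2
    have hredinv : s37r_redV P M hP ⟨(G ^ (a ℓ))⁻¹, hGa2⟩ =
        ((s37r_redV P M hP ⟨G, hGO⟩) ^ (a ℓ))⁻¹ := by
      have h1 : (⟨G ^ (a ℓ), hGa1⟩ : ↥(s37r_OF P M hP)) * ⟨(G ^ (a ℓ))⁻¹, hGa2⟩ = 1 :=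
        Subtype.ext (mul_inv_cancel₀ (zpow_ne_zero _ hG0))
      have := congrArg (s37r_redV P M hP) h1
      rw [map_mul, map_one, hredGa] at this
      exact eq_inv_of_mul_eq_one_right this
    have hredG' : s37r_redV P M hP ⟨G', hG'mem⟩ =
        s33t_N (ℓ : ℕ) (s44h_zetaTK P (IsLocalRing.residue ↥P) (ℓ : ℕ) ζ hζ)
            (s37r_redV P M hP ⟨G, hGO⟩) * ((s37r_redV P M hP ⟨G, hGO⟩) ^ (a ℓ))⁻¹ := by
      have e' : (⟨G', hG'mem⟩ : ↥(s37r_OF P M hP)) =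
          ⟨_, hτG⟩ * ⟨(G ^ (a ℓ))⁻¹, hGa2⟩ := Subtype.ext rfl
      rw [e', map_mul, hredinv, s59m_redV_tauBar M (ℓ : ℕ) hℓM hℓq P hP ζ hζ hGO]
    have hūs : (ū : LaurentSeries (IsLocalRing.ResidueField ↥P)) ≠ 0 :=
      fun h0 => hū0 (Subtype.ext h0)
    have hw₁s : (w₁ : LaurentSeries (IsLocalRing.ResidueField ↥P)) ≠ 0 :=
      fun h0 => hw₁ (Subtype.ext h0)
    have hcomp := s59m_field_comp (ℓ : ℕ) _ hζκ p (a ℓ) c₁ cb hc₁ _ _ _ _ hūs hw₁s hredGs hN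
    rw [← hredG'] at hcomp
    -- the elements of `F̄_M`
    have hum : s37r_redV P (M * q) hP ⟨u, hu⟩ ∈
        modularFunctionFieldFullC (IsLocalRing.ResidueField ↥P) M :=
      s59m_redV_top_mem_fullC M q hqM P hP ⟨u, hu⟩
    have hNw := s59m_Nbar_mem_fullC M q hqM P hP (ℓ : ℕ) hℓM hℓq ζ hζ w₁
    set w'' : ↥(modularFunctionFieldFullC (IsLocalRing.ResidueField ↥P) M) :=
      ⟨_, hum⟩ * ⟨_, hNw⟩ * (w₁ ^ (a ℓ))⁻¹ with hw''
    have hw''0 : w'' ≠ 0 := by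
      refine mul_ne_zero (mul_ne_zero (fun h0 => hu0 (congrArg Subtype.val h0)) ?_)
        (inv_ne_zero (zpow_ne_zero _ hw₁))
      intro h0
      exact s59m_N_ne_zero (ℓ : ℕ) _ hζκ hw₁s (congrArg Subtype.val h0)
    have hcc : c₁ ^ ((ℓ : ℕ) + 1) * cb * (c₁ ^ (a ℓ))⁻¹ ≠ 0 :=
      mul_ne_zero (mul_ne_zero (pow_ne_zero _ hc₁) hcb) (inv_ne_zero (zpow_ne_zero _ hc₁))
    have hfin : s37r_redF P M hP hqM ⟨G', hG'mem⟩ =
        algebraMap (IsLocalRing.ResidueField ↥P)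
          ↥(modularFunctionFieldFullC (IsLocalRing.ResidueField ↥P) M)
          (c₁ ^ ((ℓ : ℕ) + 1) * cb * (c₁ ^ (a ℓ))⁻¹) * w'' ^ p := by
      apply Subtype.ext
      rw [s37r_coe_redF, hcomp]
      have hzp : ((w₁ ^ (a ℓ) : ↥(modularFunctionFieldFullC (IsLocalRing.ResidueField ↥P) M)) :
          LaurentSeries (IsLocalRing.ResidueField ↥P)) =
          (w₁ : LaurentSeries (IsLocalRing.ResidueField ↥P)) ^ (a ℓ) :=
        map_zpow₀ (modularFunctionFieldFullC (IsLocalRing.ResidueField ↥P) M).val w₁ (a ℓ)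
      simp only [MulMemClass.coe_mul, SubmonoidClass.coe_pow, s59m_coe_algebraMap_fullC, hw'',
        IntermediateField.coe_inv, hzp]
    have hzero := s59m_injK hC p hp0 hpA _ G' hgen' hG'mem _ hcc w'' hw''0 hfin
    exact add_neg_eq_zero.mp hzero

end Core

end

end Fermat.Agent.Lib.S59
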