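/-
Programme (R) / node [MP] (Mazur's principle), helper9 (prefix `s59m_`): **[GEO] on the main branch `5 ≤ q`, `5 ≤ p`
from the ONE remaining leaf [C] = `s59m_ToricFrob`** (helper7): [A] = `s59m_fin` (helper7 + (Q4) `MQ4Z`), [B] = `s59m_red`
(`MRedAsm`).
-/
import Fermat.Agent.Lib.S59.MGeoH
import Fermat.Agent.Lib.S59.MQ4Z
import Fermat.Agent.Lib.S59.MRedAsm

set_option autoImplicit false

namespace Fermat.Agent.Lib.S59

/-- **[GEO] (`5 ≤ q`, `5 ≤ p`) ⇐ [C]**. -/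
theorem s59m_geo (hC : s59m_ToricFrob) : s59m_Geo := s59m_geo_of s59m_fin s59m_red hC

end Fermat.Agent.Lib.S59
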