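/-
Programme (R), helper9 (prefix `s59m_`): **THE [MP′] SIDE OF FROZEN S43, ASSEMBLED.**

* `s59m_old : s59m_Old` = helper2's `s59b_old` ([M2′]);
* `s59m_MPF5_all : s59m_ToricFrob → s59m_MPF5` : [MP′] in Frey form (`q ≥ 5`) from the ONE open leaf [C] (helper7);
* `s59m_S43_all : s59m_ToricFrob → s59m_IAF5 →` frozen S43, verbatim.
-/
import Fermat.Agent.Lib.S59.MFrey
import Fermat.Agent.Lib.S59.MGeo
import Fermat.Agent.Lib.S59.BOld

set_option autoImplicit false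

open WeierstrassCurve WeierstrassCurve.Affine WeierstrassCurve.Affine.Point FreyPackage

namespace Fermat.Agent.Lib.S59

/-- **[M2′]** (helper2). -/
theorem s59m_old : s59m_Old :=
  fun M _ p hp hp2 a B hB y hy0 hy => s59b_old M p hp hp2 a B hB y hy0 hy

/-- **[MP′-F] (`q ≥ 5`) from the leaf [C].** -/
theorem s59m_MPF5_all (hC : s59m_ToricFrob) : s59m_MPF5 := s59m_MPF5_of s59m_old (s59m_geo hC)

/-- **[MP′] (`5 ≤ p`, `5 ≤ q`, `W`-form) from the leaf [C].** -/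
theorem s59m_MP55_all (hC : s59m_ToricFrob) : s59m_MP55 := s59m_MP55_of' s59m_old (s59m_geo hC)

/-- **Frozen S43 from [C] (helper7) and [IA′-F] (`q ≥ 5`).** -/
theorem s59m_S43_all (hC : s59m_ToricFrob) (hIA : s59m_IAF5)
    (P : FreyPackage) {N q : ℕ} (hcond : P.IsConductorLevel N) (hq : q.Prime) (hq2 : q ≠ 2)
    (hqp : q ≠ P.p) (hqN : q ∣ N)
    (hirr : GaloisRepIsIrreducible (K := AlgebraicClosure ℚ) ℚ P.freyCurve P.p)
    (hmod : P.ModularRepOfLevel N) (hunr : P.GaloisRepUnramifiedAt q) :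
    ∃ M : ℕ, M ∣ N ∧ ¬ q ∣ M ∧ P.ModularRepOfLevel M :=
  s59m_S43_final (s59m_MPF5_all hC) hIA P hcond hq hq2 hqp hqN hirr hmod hunr

end Fermat.Agent.Lib.S59
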