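/-
Programme (R) / node [MP], leaf [C] = TORIC-FROB, family N (helper7, prefix `s59n_`):
**[C3] ON THE BRANCH `q = 3`, `2 ∣ M`** (chart `{α t₂ regular}`, node family `s33t_nodeN_t2`): a point of `J₀(M q)` which is
toric for the `t₂`-node family satisfies `σ x = − q · w_q x` for every Frobenius element `σ` at `P ∣ q`.
Instance of `s59n_toric_geo_W_inst` (`NGeoW.lean`) with the inputs of helper8's `s33k_sd_exists_datum_three`.
-/
import Fermat.Agent.Lib.S59.NGeoW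
import Fermat.Agent.Lib.S59.NDefsN
import Fermat.Agent.Lib.S33.KumPSsDatumT
import Fermat.Agent.Lib.S35.Geo

set_option autoImplicit false
set_option linter.style.haveILetI false
set_option linter.unusedSectionVars false
set_option synthInstance.maxHeartbeats 400000

noncomputable section

namespace Fermat.Agent.Lib.S59

open ModularCurve AlgebraicCurve HahnSeries Polynomial Fermat.Agent.Lib.FF Fermat.Agent.Lib.S18
  Fermat.Agent.Lib.S34 Fermat.Agent.Lib.S37 Fermat.Agent.Lib.S33 Fermat.Agent.Lib.S35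

local notation "Kb" => AlgebraicClosure ℚ
local notation "Γℚ" => (AlgebraicClosure ℚ ≃ₐ[ℚ] AlgebraicClosure ℚ)

section Chart

variable {K₀ : Type} [Field K₀] [CharZero K₀] [Algebra ℚ K₀] {κ : Type} [Field κ]
  (G : s18g_GaussData K₀ κ) (φ : K₀ →+* Kb) (M q : ℕ) [NeZero M] [NeZero q] [CharP κ q]
  (hq : q.Prime) (hqM : ¬ q ∣ M)

include G in
/-- the chart `{α t₂ regular}` is `w_q`-stable. -/
theorem s59n_chart_al_t2 (hq2 : q ≠ 2) (tM : s34m_F K₀ M)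
    (htM : (tM : LaurentSeries K₀) = s18u_t2 K₀) (Q : Place K₀ (s34m_F K₀ (M * q)))
    (hQ : Q ∈ s18_chart1 (L₀ := K₀) (heckeAlphaBar K₀ M q tM)) :
    SemilinearAut.ofAlgAut (s34m_al φ M q hq hqM) • Q ∈
      s18_chart1 (L₀ := K₀) (heckeAlphaBar K₀ M q tM) := by
  have htM0 : tM ≠ 0 := by
    intro h0
    apply s18b_t2_ne_zero K₀
    rw [← htM, h0]; rfl
  have hA0 : heckeAlphaBar K₀ M q tM ≠ 0 := (_root_.map_ne_zero _).mpr htM0
  have hB0 : heckeBetaBar K₀ M q tM ≠ 0 := (_root_.map_ne_zero _).mpr htM0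
  show heckeAlphaBar K₀ M q tM ∈
    (SemilinearAut.ofAlgAut (s34m_al φ M q hq hqM) • Q).toValuationSubring
  have h := s34f_smul_mem_iff (SemilinearAut.ofAlgAut (s34m_al φ M q hq hqM))⁻¹ Q
    (heckeAlphaBar K₀ M q tM)
  rw [inv_inv] at h
  rw [← h]
  have e : (SemilinearAut.ofAlgAut (s34m_al φ M q hq hqM))⁻¹ • heckeAlphaBar K₀ M q tM =
      heckeBetaBar K₀ M q tM := by
    rw [SemilinearAut.inv_smul_def, SemilinearAut.toRingAut_ofAlgAut]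
    show (s34m_al φ M q hq hqM).symm (heckeAlphaBar K₀ M q tM) = _
    rw [s34m_al_symm, s34m_al_alpha]
  rw [e, ff_mem_iff_ord_nonneg Q hB0]
  have hQ' : heckeAlphaBar K₀ M q tM ∈ Q.toValuationSubring := hQ
  rw [ff_mem_iff_ord_nonneg Q hA0] at hQ'
  exact (s34e_cusp_hclaim_t2 G φ M q hq hqM hq2 tM htM Q).1 hQ'

end Chart

section Main

variable (M q : ℕ) [NeZero M] [hq : Fact q.Prime] (hqM : ¬ q ∣ M) (hq3 : q = 3) (h2M : 2 ∣ M)
  (p : ℕ) [hp : Fact p.Prime] (hpq : p ≠ q)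
  (P : ValuationSubring Kb) (hP : P.LiesOverPrime q)

include hq3 h2M hpq hP in
set_option maxHeartbeats 3200000 in
/-- **[C3] = TORIC-FROB on the branch `q = 3`, `2 ∣ M`.** -/
theorem s59n_toric_geo_t2 {x : JZero (M * q)}
    (hx : s59n_ToricN M q p hqM P (s33t_nodeN_t2 M q hqM P) x) {σ : Γℚ}
    (hσ : P.IsFrobeniusAt σ q) :
    haveI : NeZero q := ⟨hq.out.ne_zero⟩
    σ • x = (-(q : ℤ)) • s59m_wq M q hq.out hqM x := by
  classical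
  haveI : NeZero q := ⟨hq.out.ne_zero⟩
  have hq2 : q ≠ 2 := by omega
  obtain ⟨Lx, hfd, H⟩ := hx
  haveI := hfd
  obtain ⟨L₀, hLx, hfd₀, hn₀⟩ := s33t_exists_normal_ge Lx
  haveI := hfd₀
  haveI := hn₀
  haveI : IsDiscreteValuationRing ↥(s18q_A0 P L₀) := s18q_A0_dvr P L₀ hP
  obtain ⟨ϖ, hϖ⟩ := IsDiscreteValuationRing.exists_irreducible ↥(s18q_A0 P L₀)
  obtain ⟨h, hK, hI, hZ, hI', hZ', hnode, ⟨ci, ai, hci, hai, ei⟩, ⟨cz, az, hcz, haz, ez⟩⟩ :=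
    H L₀ ϖ hϖ hLx
  -- the Gauss datum
  haveI : NumberField ↥L₀ := ⟨⟩
  haveI hchar₀ : CharP (IsLocalRing.ResidueField ↥(s18q_A0 P L₀)) q := s37rl_charP P hP L₀
  haveI hperf₀ : PerfectField (IsLocalRing.ResidueField ↥(s18q_A0 P L₀)) :=
    s37rl_perfectField P hP L₀
  haveI : IsDiscreteValuationRing ↥(s37r_G P L₀ ϖ hϖ).A :=
    (inferInstance : IsDiscreteValuationRing ↥(s18q_A0 P L₀))
  have hT : s18g_HT (IsLocalRing.ResidueField ↥(s18q_A0 P L₀)) M := s18t_indep_j q M hqM _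
  have hdegM : s18g_HDeg ↥L₀ M := fun n b hb hn =>
    s18g_exists_relation M (algebraMap ↥L₀ Kb) hn b hb
  have hπ : Function.Surjective (s37r_G P L₀ ϖ hϖ).π := IsLocalRing.residue_surjective
  -- the coordinate `t₂`
  obtain ⟨tM, htM, ⟨hwV, hred⟩, hwinvV, hgen, hgeninv, hwt, hw0, hgenN, hwO, hwO', hfix, hα, hα'⟩ :=
    s34m_base_t2 (s37r_G P L₀ ϖ hϖ) (algebraMap ↥L₀ Kb) M q hq.out hqM h2M hq2
  haveI := hgen
  haveI := hgeninv
  haveI := hgenN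
  haveI : FFGen ↥L₀ (s18g_jF (K := ↥L₀) (M * q)) :=
    s18b_ffGen_jF (M * q) (fun _ b hb hn => s18g_exists_relation (M * q) (algebraMap ↥L₀ Kb) hn b hb)
  have htM0 : tM ≠ 0 := by
    intro h0
    apply s18b_t2_ne_zero ↥L₀
    rw [← htM, h0]; rfl
  have hFM : ∀ f ∈ laurentBaseChange ↥L₀ (modularFunctionFieldFull M),
      f ∈ s18g_Frac (s37r_G P L₀ ϖ hϖ) := fun _ hf => s18g_baseChange_mem_Frac _ M hf
  have hred' : ((s18g_redF (s37r_G P L₀ ϖ hϖ) M hFM hT hdegM ⟨tM, hwV⟩ :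
      ↥(modularFunctionFieldFullC (IsLocalRing.ResidueField ↥(s18q_A0 P L₀)) M)) :
      LaurentSeries (IsLocalRing.ResidueField ↥(s18q_A0 P L₀))) = s18u_t2 _ := hred
  have hclaim : ∀ Q : Place ↥L₀ (s34m_F ↥L₀ (M * q)),
      (0 ≤ Q.ord (heckeAlphaBar ↥L₀ M q tM) → 0 ≤ Q.ord (heckeBetaBar ↥L₀ M q tM)) ∧
      (Q.ord (heckeAlphaBar ↥L₀ M q tM) ≤ 0 → Q.ord (heckeBetaBar ↥L₀ M q tM) ≤ 0) :=
    fun Q => s34e_cusp_hclaim_t2 (s37r_G P L₀ ϖ hϖ) (algebraMap ↥L₀ Kb) M q hq.out hqM hq2 tM htM Q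
  have hB : s35g_BaseData (s37r_G P L₀ ϖ hϖ) (algebraMap ↥L₀ Kb) M q hq.out hqM
      (heckeAlphaBar ↥L₀ M q tM) :=
    ⟨hw0, hgenN, hwO, hwO', hfix, hα, hα',
      s35g_chartData_t2_1 M q hq.out hqM ↥L₀ (algebraMap ↥L₀ Kb) _ (s37r_G P L₀ ϖ hϖ) hπ hq3 h2M tM
        htM hwV hred,
      s35g_chartData_t2_2 M q hq.out hqM ↥L₀ (algebraMap ↥L₀ Kb) _ (s37r_G P L₀ ϖ hϖ) hπ hq3 h2M tM
        htM hwV hwinvV hred⟩
  have hNeq := s33t_nodeN_t2_eq M q hqM P L₀ ϖ hϖ (heckeAlphaBar ↥L₀ M q tM) hwt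
  have key := s59n_toric_geo_W_inst M q hqM p hpq P hP L₀ ϖ hϖ hT hdegM tM hwV
    (by rw [hred']; exact s37b_coord_t2 _ q)
    (by intro τ; rw [hred']; exact s18u_coeffMap_t2 _)
    (s34dt_hmain_t2 M q hqM ↥L₀ (algebraMap ↥L₀ Kb) _ (s37r_G P L₀ ϖ hϖ) hπ hT hdegM hq3 h2M tM htM)
    (heckeAlphaBar ↥L₀ M q tM) rfl hα
    (s34e_ch_alpha₁' (s37r_G P L₀ ϖ hϖ) (algebraMap ↥L₀ Kb) M q hq.out hqM tM _ rfl)
    (s34e_ch_beta₁' (s37r_G P L₀ ϖ hϖ) (algebraMap ↥L₀ Kb) M q hq.out hqM htM0 _ rfl hclaim)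
    (s33k_sd_exists_node_t2 (s37r_G P L₀ ϖ hϖ) (algebraMap ↥L₀ Kb) M q hq.out hqM h2M hq2 _ hwt)
    (fun σ₀ => s34s_galois_fixed_t2 M σ₀ tM htM)
    (fun Q hQ => s59n_chart_al_t2 (s37r_G P L₀ ϖ hϖ) (algebraMap ↥L₀ Kb) M q hq.out hqM hq2 tM htM Q
      hQ)
    hB
    (s33n_nodePlaces_chart2_subset_t2 (s37r_G P L₀ ϖ hϖ) (algebraMap ↥L₀ Kb) M q hq.out hqM _ hwt
      ((s34x_mem_infRing _ _).mpr hwO'))
    hK hI hZ hI' hZ' (by rw [← hNeq]; exact hnode) hci hcz hai haz ei ez hσ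
  have h1 : s59m_wq M q hq.out hqM (σ • x) = -(q • x) := eq_neg_of_add_eq_zero_left key
  have h2 := congrArg (s59m_wq M q hq.out hqM) h1
  rw [s59m_wq_wq, map_neg, map_nsmul] at h2
  rw [h2, neg_smul, natCast_zsmul]

end Main

end Fermat.Agent.Lib.S59
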