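/-
Programme (R) / node [MP], leaf [C] = TORIC-FROB, family N (helper7, prefix `s59n_`):
**[FROB-AL], abstract part** (pure algebra on helper8's gluing algebra `Lib/S33/SSGlue.lean`).

`B` a chart ring, `ρ₁ ρ₂ : B →+* D` the two reductions onto a Dedekind domain `D` with fraction field `Fb`,
`𝔫 ⊇ ker ρ₁, ker ρ₂` a node, `χ : B → K` with kernel `𝔫`, `ψ : Fb →+* Fb` (the coefficientwise Frobenius).

`s59n_branch_abs`: if every `c ∈ B` has a companion `c' ∈ B` with `r₁ c' = ψ (r₂ c)` and `c' ≡ c ^ q mod 𝔫`, then `ψ`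
maps the branch `W₂(𝔫)` into the branch `W₁(𝔫)` and `ev₁ (ψ a) = (ev₂ a) ^ q`.
-/
import Fermat.Agent.Lib.S33.SSGlue

set_option autoImplicit false
set_option linter.style.haveILetI false
set_option linter.unusedSectionVars false

noncomputable section

namespace Fermat.Agent.Lib.S59

open Fermat.Agent.Lib.S33

variable {B D Fb : Type*} [CommRing B] [CommRing D] [IsDedekindDomain D] [Field Fb]
  [Algebra D Fb] [IsFractionRing D Fb]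

/-- **the branch lemma.** -/
theorem s59n_branch_abs (ρ₁ ρ₂ : B →+* D) (hρ₁ : Function.Surjective ρ₁)
    (hρ₂ : Function.Surjective ρ₂) (hD : ¬ IsField D) (𝔫 : Ideal B) [h𝔫 : 𝔫.IsMaximal]
    (hk₁ : RingHom.ker ρ₁ ≤ 𝔫) (hk₂ : RingHom.ker ρ₂ ≤ 𝔫) {K : Type*} [Field K] (χ : B →+* K)
    (hχ : ∀ c, χ c = 0 ↔ c ∈ 𝔫) (ψ : Fb →+* Fb) (q : ℕ)
    (H : ∀ c : B, ∃ c' : B, s33s_r (Fb := Fb) ρ₁ c' = ψ (s33s_r (Fb := Fb) ρ₂ c) ∧ c' - c ^ q ∈ 𝔫)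
    (a : Fb) (ha : a ∈ s33s_W (Fb := Fb) ρ₂ hρ₂ hD 𝔫 hk₂) :
    ∃ h : ψ a ∈ s33s_W (Fb := Fb) ρ₁ hρ₁ hD 𝔫 hk₁,
      s33s_evN ρ₁ hρ₁ hD 𝔫 hk₁ χ hχ ⟨ψ a, h⟩ = (s33s_evN ρ₂ hρ₂ hD 𝔫 hk₂ χ hχ ⟨a, ha⟩) ^ q := by
  haveI : 𝔫.IsPrime := h𝔫.isPrime
  obtain ⟨c, b, hc, e⟩ := (s33s_mem_W_iff ρ₂ hρ₂ hD 𝔫 hk₂ a).mp ha
  obtain ⟨c', hc'1, hc'2⟩ := H c
  obtain ⟨b', hb'1, hb'2⟩ := H b
  have hχc : χ c' = χ c ^ q := by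
    have h0 : χ (c' - c ^ q) = 0 := (hχ _).mpr hc'2
    rw [map_sub, map_pow, sub_eq_zero] at h0
    exact h0
  have hχb : χ b' = χ b ^ q := by
    have h0 : χ (b' - b ^ q) = 0 := (hχ _).mpr hb'2
    rw [map_sub, map_pow, sub_eq_zero] at h0
    exact h0
  have hχc0 : χ c ≠ 0 := fun h => hc ((hχ c).mp h)
  have hc'n : c' ∉ 𝔫 := by
    intro h
    have h1 : χ c' = 0 := (hχ c').mpr h
    rw [hχc] at h1
    exact hχc0 (pow_eq_zero_iff (fun h0 => by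
      rw [h0, pow_zero] at h1; exact one_ne_zero h1) |>.mp h1)
  have e' : s33s_r (Fb := Fb) ρ₁ c' * ψ a = s33s_r (Fb := Fb) ρ₁ b' := by
    rw [hc'1, hb'1, ← map_mul, e]
  have hmem : ψ a ∈ s33s_W (Fb := Fb) ρ₁ hρ₁ hD 𝔫 hk₁ :=
    (s33s_mem_W_iff ρ₁ hρ₁ hD 𝔫 hk₁ (ψ a)).mpr ⟨c', b', hc'n, e'⟩
  refine ⟨hmem, ?_⟩
  have s1 := s33s_evN_spec ρ₁ hρ₁ hD 𝔫 hk₁ χ hχ ⟨ψ a, hmem⟩ hc'n e'
  have s2 := s33s_evN_spec ρ₂ hρ₂ hD 𝔫 hk₂ χ hχ ⟨a, ha⟩ hc e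
  rw [hχc, hχb, ← s2, mul_pow] at s1
  exact mul_right_cancel₀ (pow_ne_zero q hχc0) s1

end Fermat.Agent.Lib.S59
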