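/-
Programme (R) / node [MP], leaf [C] = TORIC-FROB, family N (helper7, prefix `s59n_`):
**[FROB-AL], the companions**: in the setting of helper8's `SSInst.lean` (chart ring `B` of level `M q`, the two
reductions `ρ_∞, ρ_0 : B → D ⊂ Fb`, the Kronecker lifts `α g`, `b'_g ≈ β g` of `g ∈ BM`), `σ₀` a Frobenius lift:

* `s59n_H_zi` : every `c ∈ B` has `c' = α (σ₀ g)` with `r_∞ c' = Frob (r_0 c)` and `c' ≡ c ^ q mod ker ρ_0`;
* `s59n_H_iz` : every `c ∈ B` has `c' = b'_{σ₀ g}` with `r_0 c' = Frob (r_∞ c)` and `c' ≡ c ^ q mod ker ρ_∞`.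

(`Frob` = the coefficientwise `q`-Frobenius of `Fb ⊂ κ((T))`.)  These are the hypotheses `H` of `s59n_branch_abs`.
-/
import Fermat.Agent.Lib.S33.SSInst
import Fermat.Agent.Lib.S35.MNode
import Fermat.Agent.Lib.S59.NFrobAbs

set_option autoImplicit false
set_option linter.style.haveILetI false
set_option linter.unusedSectionVars false

noncomputable section

namespace Fermat.Agent.Lib.S59

open ModularCurve AlgebraicCurve HahnSeries Fermat.Agent.Lib.FF Fermat.Agent.Lib.S18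
  Fermat.Agent.Lib.S34 Fermat.Agent.Lib.S37 Fermat.Agent.Lib.S33 Fermat.Agent.Lib.S35

local notation "Kb" => AlgebraicClosure ℚ

/-- the coefficientwise Frobenius of a Frobenius-stable subfield of `κ((T))`. -/
def s59n_frobFb {κ : Type*} [Field κ] (q : ℕ) [Fact q.Prime] [CharP κ q]
    (Fb : IntermediateField κ (LaurentSeries κ))
    (hFr : ∀ x ∈ Fb, coeffMap (frobenius κ q) x ∈ Fb) : Fb →+* Fb :=
  (coeffMap (frobenius κ q)).restrict Fb Fb hFr

@[simp] theorem s59n_coe_frobFb {κ : Type*} [Field κ] (q : ℕ) [Fact q.Prime] [CharP κ q]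
    (Fb : IntermediateField κ (LaurentSeries κ))
    (hFr : ∀ x ∈ Fb, coeffMap (frobenius κ q) x ∈ Fb) (x : Fb) :
    ((s59n_frobFb q Fb hFr x : Fb) : LaurentSeries κ) =
      coeffMap (frobenius κ q) (x : LaurentSeries κ) := rfl

section H

variable {K₀ : Type*} [Field K₀] [Algebra ℚ K₀] {κ : Type*} [Field κ] (G : s18g_GaussData K₀ κ)
variable (φ : K₀ →+* Kb) (M q : ℕ) [NeZero M] [NeZero q] (hq : q.Prime) (hqM : ¬ q ∣ M)
variable [hqF : Fact q.Prime] [CharP κ q]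
variable (Fb : IntermediateField κ (LaurentSeries κ))
  (hFr : ∀ x ∈ Fb, coeffMap (frobenius κ q) x ∈ Fb)
variable (S : Set (Place K₀ (s34m_F K₀ (M * q))))
variable {D : Type*} [CommRing D] [IsDedekindDomain D] [Algebra D Fb] [IsFractionRing D Fb]
variable (hF : ∀ i y, s33s_redL G φ M q hq hqM i y ∈ Fb)
  (hint : ∀ (i : Bool) (b : s34x_ring (s34x_infRing (s34m_VV G φ M q hq hqM)) S),
    ∃ d : D, algebraMap D Fb d = s33s_redO G φ M q hq hqM Fb hF i ⟨(b : s34m_F K₀ (M * q)), b.2.1⟩)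
  (BM : Set (s34m_F K₀ M)) (hBMV : ∀ g ∈ BM, g ∈ s34m_Vinf G M)
  (hαB : ∀ g ∈ BM, heckeAlphaBar K₀ M q g ∈ s34x_ring (s34x_infRing (s34m_VV G φ M q hq hqM)) S)
  (hβB : ∀ g ∈ BM, ∃ b' ∈ s34x_ring (s34x_infRing (s34m_VV G φ M q hq hqM)) S,
    ∃ z, z ∈ s34m_Vinf G (M * q) ∧ z ∈ s34m_Vzero G φ M q hq hqM ∧
      b' - heckeBetaBar K₀ M q g = s34m_unif G (M * q) * z)
  (hlift : ∀ d : D, ∃ g, ∃ hg : g ∈ BM,
    s34m_redInf G M ⟨g, hBMV g hg⟩ = ((algebraMap D Fb d : Fb) : LaurentSeries κ))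
  (σ₀ : K₀ ≃ₐ[ℚ] K₀) (hσA : ∀ a : K₀, a ∈ G.A → (σ₀ : K₀ ≃+* K₀) a ∈ G.A)
  (hσπ : ∀ a : G.A, G.π (s34m_sigmaA G (σ₀ : K₀ ≃+* K₀) hσA a) = G.π a ^ q)
  (hBMσ : ∀ g ∈ BM, arithmeticRingAut (modularFunctionFieldFull M) σ₀ g ∈ BM)

local notation "BB" => s34x_ring (s34x_infRing (s34m_VV G φ M q hq hqM)) S
local notation "ρD" => s33s_rhoD G φ M q hq hqM Fb S hF hint

include hσπ hBMσ hlift hαB in
/-- the companion `α (σ₀ g)`. -/
theorem s59n_H_zi (c : BB) :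
    ∃ c' : BB, s33s_r (Fb := Fb) (ρD true) c' =
        s59n_frobFb q Fb hFr (s33s_r (Fb := Fb) (ρD false) c) ∧
      c' - c ^ q ∈ RingHom.ker (ρD false) := by
  have hσπ' : ∀ a : G.A, G.π (s34m_sigmaA G (σ₀ : K₀ ≃+* K₀) hσA a) = frobenius κ q (G.π a) :=
    fun a => (hσπ a).trans (frobenius_def q (G.π a)).symm
  have hc := s33s_coe_rhoD G φ M q hq hqM Fb S hF hint
  obtain ⟨g, hg, eg⟩ := hlift (ρD false c)
  rw [(hc c).2] at eg
  have hg' : arithmeticRingAut (modularFunctionFieldFull M) σ₀ g ∈ BM := hBMσ g hg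
  have hgal : s34m_redInf G M ⟨arithmeticRingAut (modularFunctionFieldFull M) σ₀ g, hBMV _ hg'⟩ =
      coeffMap (frobenius κ q) (s34df_r2 G φ M q hq hqM S c) := by
    rw [← eg]
    exact s35m_redInf_galois G σ₀ hσA (frobenius κ q) hσπ' M ⟨g, hBMV g hg⟩
  refine ⟨⟨_, hαB _ hg'⟩, ?_, ?_⟩
  · apply Subtype.ext
    rw [s33s_r_apply, (hc _).1, s59n_coe_frobFb, s33s_r_apply, (hc c).2, ← hgal]
    exact (s34df_r1_eq G φ M q hq hqM S _ _ (s34m_alpha_mem_Vinf G M q (hBMV _ hg')) rfl).trans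
      (s34m_redInf_alpha G M q ⟨_, hBMV _ hg'⟩)
  · rw [RingHom.mem_ker, map_sub, map_pow, sub_eq_zero]
    apply IsFractionRing.injective D Fb
    apply Subtype.ext
    rw [map_pow]
    show _ = (((algebraMap D Fb (ρD false c) : Fb) : LaurentSeries κ)) ^ q
    rw [(hc _).2, (hc c).2, s37e_pow_char q, ← hgal]
    exact (s34df_r2_eq G φ M q hq hqM S _ _ (s34m_alpha_mem_Vzero G φ M q hq hqM (hBMV _ hg'))
      rfl).trans (s34m_redZero_alpha G φ M q hq hqM ⟨_, hBMV _ hg'⟩)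

include hσπ hBMσ hlift hβB in
/-- the companion `b'_{σ₀ g}`. -/
theorem s59n_H_iz (c : BB) :
    ∃ c' : BB, s33s_r (Fb := Fb) (ρD false) c' =
        s59n_frobFb q Fb hFr (s33s_r (Fb := Fb) (ρD true) c) ∧
      c' - c ^ q ∈ RingHom.ker (ρD true) := by
  have hσπ' : ∀ a : G.A, G.π (s34m_sigmaA G (σ₀ : K₀ ≃+* K₀) hσA a) = frobenius κ q (G.π a) :=
    fun a => (hσπ a).trans (frobenius_def q (G.π a)).symm
  have hc := s33s_coe_rhoD G φ M q hq hqM Fb S hF hint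
  obtain ⟨g, hg, eg⟩ := hlift (ρD true c)
  rw [(hc c).1] at eg
  have hg' : arithmeticRingAut (modularFunctionFieldFull M) σ₀ g ∈ BM := hBMσ g hg
  have hgal : s34m_redInf G M ⟨arithmeticRingAut (modularFunctionFieldFull M) σ₀ g, hBMV _ hg'⟩ =
      coeffMap (frobenius κ q) (s34df_r1 G φ M q hq hqM S c) := by
    rw [← eg]
    exact s35m_redInf_galois G σ₀ hσA (frobenius κ q) hσπ' M ⟨g, hBMV g hg⟩
  obtain ⟨b', hb', z, hzI, hzZ, ez⟩ := hβB _ hg'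
  refine ⟨⟨b', hb'⟩, ?_, ?_⟩
  · apply Subtype.ext
    rw [s33s_r_apply, (hc _).2, s59n_coe_frobFb, s33s_r_apply, (hc c).1, ← hgal,
      s34df_r2_apply, ← s34m_redZero_beta G φ M q hq hqM ⟨_, hBMV _ hg'⟩]
    exact s34df_redZero_congr G φ M q hq hqM _ _ hzZ ez
  · rw [RingHom.mem_ker, map_sub, map_pow, sub_eq_zero]
    apply IsFractionRing.injective D Fb
    apply Subtype.ext
    rw [map_pow]
    show _ = (((algebraMap D Fb (ρD true c) : Fb) : LaurentSeries κ)) ^ q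
    rw [(hc _).1, (hc c).1, s37e_pow_char q, ← hgal, s34df_r1_apply,
      ← s34m_redInf_beta G M q ⟨_, hBMV _ hg'⟩]
    exact s34df_redInf_congr G M q _ _ hzI ez

end H

end Fermat.Agent.Lib.S59
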