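/-
Programme (R) / node [MP], leaf [C] = TORIC-FROB, family N (helper7, prefix `s59n_`):
**THE NODE PLACES ARE STABLE UNDER A COMPONENT-SWAPPING AUTOMORPHISM.**

`g : SemilinearAut L₀ 𝓕` with `g • π = π · u`, `u ∈ O_∞ ⊓ O_0`, `y ∈ O i ↔ g • y ∈ O (!i)` (it SWAPS the two Gauss valuations), the chart
`S` stable under `g` (as a set of places).  Then the chart ring `B = s34x_ring (s34x_infRing O) S` is `g`-stable, `g`
permutes the nodes (`s33s_IsNode`) and `Q ∈ s33s_nodePlaces O π S → g⁻¹ • Q ∈ s33s_nodePlaces O π S`.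
In the application `g = w_q ∘ σ` (Atkin–Lehner composed with a Frobenius lift).
-/
import Fermat.Agent.Lib.S33.SSPlace
import Fermat.Agent.Lib.S35.MNode

set_option autoImplicit false
set_option linter.style.haveILetI false
set_option linter.unusedSectionVars false

noncomputable section

namespace Fermat.Agent.Lib.S59

open AlgebraicCurve Fermat.Agent.Lib.FF Fermat.Agent.Lib.S33 Fermat.Agent.Lib.S34
  Fermat.Agent.Lib.S35

variable {L₀ 𝓕 : Type*} [Field L₀] [Field 𝓕] [Algebra L₀ 𝓕]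
  (O : Bool → ValuationSubring 𝓕) (π : 𝓕) (S : Set (Place L₀ 𝓕))
  (g : SemilinearAut L₀ 𝓕) (hgπ : ∃ u : 𝓕, (∀ i, u ∈ O i) ∧ g • π = π * u)
  (hgO : ∀ i, ∀ y : 𝓕, y ∈ O i ↔ g • y ∈ O (!i))
  (hgS : ∀ Q : Place L₀ 𝓕, Q ∈ S ↔ g • Q ∈ S)

include hgO hgS in
/-- the chart ring is stable. -/
theorem s59n_swap_ring_mem_iff (y : 𝓕) :
    y ∈ s34x_ring (s34x_infRing O) S ↔ g • y ∈ s34x_ring (s34x_infRing O) S := by
  have hinvS : ∀ Q : Place L₀ 𝓕, Q ∈ S → g⁻¹ • Q ∈ S := by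
    intro Q hQ
    have := hgS (g⁻¹ • Q)
    rw [smul_inv_smul] at this
    exact this.mpr hQ
  constructor
  · rintro ⟨hO, hS⟩
    refine ⟨(s34x_mem_infRing O _).mpr fun i => ?_, fun Q hQ => ?_⟩
    · have := (hgO (!i) y).mp ((s34x_mem_infRing O y).mp hO (!i))
      rwa [Bool.not_not] at this
    · rw [s34f_smul_mem_iff]
      exact hS _ (hinvS Q hQ)
  · rintro ⟨hO, hS⟩
    refine ⟨(s34x_mem_infRing O _).mpr fun i => (hgO i y).mpr ((s34x_mem_infRing O _).mp hO (!i)),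
      fun Q hQ => ?_⟩
    have := hS (g • Q) ((hgS Q).mp hQ)
    rw [s34f_smul_mem_iff, inv_smul_smul] at this
    exact this

include hgπ hgO hgS in
/-- **the node places are stable.** -/
theorem s59n_nodePlaces_stable (Q : Place L₀ 𝓕) (hQ : Q ∈ s33s_nodePlaces O π S) :
    g⁻¹ • Q ∈ s33s_nodePlaces O π S := by
  obtain ⟨hQS, 𝔫, ⟨hmax, hc1, hc2⟩, hth⟩ := hQ
  have hmem := s59n_swap_ring_mem_iff O S g hgO hgS
  set T : s34x_ring (s34x_infRing O) S ≃+* s34x_ring (s34x_infRing O) S :=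
    s35m_ringAut (s34x_ring (s34x_infRing O) S) g hmem with hT
  have hTcoe : ∀ b, ((T b : s34x_ring (s34x_infRing O) S) : 𝓕) = g • (b : 𝓕) := fun b => rfl
  have hinvS : g⁻¹ • Q ∈ S := by
    have := hgS (g⁻¹ • Q)
    rw [smul_inv_smul] at this
    exact this.mpr hQS
  -- the image of a component prime
  have hcomp : ∀ i, ∀ b ∈ s33s_comp O π S i, T b ∈ s33s_comp O π S (!i) := by
    rintro i b ⟨z, hz, ez⟩
    obtain ⟨u, hu, eu⟩ := hgπ
    refine ⟨u * g • z, (O (!i)).mul_mem _ _ (hu _) ((hgO i z).mp hz), ?_⟩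
    rw [hTcoe, ez, smul_mul', eu, mul_assoc]
  refine ⟨hinvS, Ideal.comap (T : s34x_ring (s34x_infRing O) S →+* s34x_ring (s34x_infRing O) S) 𝔫,
    ⟨?_, ?_, ?_⟩, ?_⟩
  · haveI := hmax
    exact Ideal.comap_isMaximal_of_surjective _ T.surjective
  · intro b hb
    rw [Ideal.mem_comap]
    exact hc2 (hcomp true b hb)
  · intro b hb
    rw [Ideal.mem_comap]
    exact hc1 (hcomp false b hb)
  · intro b hb0 hpos
    rw [Ideal.mem_comap]
    refine hth (T b) ?_ ?_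
    · rw [hTcoe]
      exact s34r_smul_ne_zero g hb0
    · rw [hTcoe]
      have h1 := SemilinearAut.ord_smul g (g⁻¹ • Q) (b : 𝓕)
      rw [smul_inv_smul] at h1
      rw [h1]
      exact hpos

end Fermat.Agent.Lib.S59
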