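/-
Programme (R) / node [MP], leaf [C] = TORIC-FROB, family N (helper7, prefix `s59n_`):
**[C1] THE ABSTRACT Σ-THEORY OF THE TORIC PART.**  No modular curve in this file.

Setting: helper4's semistable Σ-datum `Z : s33z_Datum D' 𝓕 ι k` (`Lib/S33/CritSs.lean`: the two components `Ci`, `Cz`
with reductions into the common residue function field `Fb`, the node places `N`, the branches `Wi s`, `Wz s` with
evaluations into `k s`, [GLUE], [LIFT], `unit`), and a **Frobenius–Atkin–Lehner structure** `Φ : s59n_FrobAL Z q`: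
a ring endomorphism `Ψ` of `𝓕` (in the application `Ψ = w_q ∘ σ`, `σ` a Frobenius lift, acting coefficientwise)
which SWAPS the two components, with `red_i (Ψ y) = ψzi (red_z y)`, `red_z (Ψ y) = ψiz (red_i y)`, is the `q`-power map
on the constants, preserves regularity at the node places, and **induces the `q`-power map on the residue field of
every node** (`br_i`, `br_z` = [FROB-AL]: `w_q ∘ σ` fixes every supersingular point and is its `q`-Frobenius).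

`s59n_toric_frob`: if `h` is a unit of both components, node-avoiding, whose two reductions are `p`-th powers up to
constants (`x = [h]` is TORIC), then

  `Ψ h · h ^ q = c · G ^ p · u`,  `u ≡ 1 mod ϖ (O_∞ ⊓ O_0)`,  `u` node-avoiding,

i.e. `(w_q σ + q) x` has a Kummer generator `≡ 1`, hence vanishes by Theorem X₀ (exponent prime to the residue
characteristic).  No `p`-th roots of constants, no rationality of the nodes, no permutation of the nodes is needed.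
-/
import Fermat.Agent.Lib.S33.CritSs

set_option autoImplicit false
set_option linter.style.haveILetI false
set_option linter.unusedSectionVars false

noncomputable section

namespace Fermat.Agent.Lib.S59

open AlgebraicCurve Fermat.Agent.Lib.FF Fermat.Agent.Lib.S33

variable {L₀ 𝓕' κ Fb : Type*} [Field L₀] [Field 𝓕'] [Algebra L₀ 𝓕'] [Field κ] [Field Fb] [Algebra κ Fb]
variable {D' : s33f_Datum L₀ 𝓕' κ Fb} {𝓕 : Type*} [Field 𝓕] [Algebra L₀ 𝓕]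
variable {ι : Type*} {k : ι → Type*} [∀ s, Field (k s)] [∀ s, Algebra κ (k s)]

/-- **A Frobenius–Atkin–Lehner structure on a Σ-datum** (see the header). -/
structure s59n_FrobAL (Z : s33z_Datum D' 𝓕 ι k) (q : ℕ) where
  /-- `w_q ∘ σ` on the function field -/
  Ψ : 𝓕 →+* 𝓕
  /-- the induced map `κ(V_0) → κ(V_∞)` -/
  ψzi : Fb →+* Fb
  /-- the induced map `κ(V_∞) → κ(V_0)` -/
  ψiz : Fb →+* Fb
  mem_i : ∀ y : 𝓕, y ∈ Z.Cz.O → Ψ y ∈ Z.Ci.O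
  mem_z : ∀ y : 𝓕, y ∈ Z.Ci.O → Ψ y ∈ Z.Cz.O
  red_i : ∀ (y : 𝓕) (hy : y ∈ Z.Cz.O), Z.Ci.red ⟨Ψ y, mem_i y hy⟩ = ψzi (Z.Cz.red ⟨y, hy⟩)
  red_z : ∀ (y : 𝓕) (hy : y ∈ Z.Ci.O), Z.Cz.red ⟨Ψ y, mem_z y hy⟩ = ψiz (Z.Ci.red ⟨y, hy⟩)
  const_zi : ∀ c : κ, ψzi (algebraMap κ Fb c) = algebraMap κ Fb (c ^ q)
  const_iz : ∀ c : κ, ψiz (algebraMap κ Fb c) = algebraMap κ Fb (c ^ q)
  /-- [FROB-AL], `∞`-branch -/
  br_i : ∀ (s : ι) (a : Fb) (ha : a ∈ Z.Wz s),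
    ∃ h : ψzi a ∈ Z.Wi s, Z.evi s ⟨ψzi a, h⟩ = (Z.evz s ⟨a, ha⟩) ^ q
  /-- [FROB-AL], `0`-branch -/
  br_z : ∀ (s : ι) (a : Fb) (ha : a ∈ Z.Wi s),
    ∃ h : ψiz a ∈ Z.Wz s, Z.evz s ⟨ψiz a, h⟩ = (Z.evi s ⟨a, ha⟩) ^ q
  reg : ∀ y : 𝓕, s33z_Reg Z y → s33z_Reg Z (Ψ y)

/-! ### Small lemmas -/

/-- in a valuation ring, `x ^ n ∈ W` (`n ≠ 0`) forces `x ∈ W`. -/
theorem s59n_mem_of_pow_mem {F : Type*} [Field F] (W : ValuationSubring F) {x : F} {n : ℕ}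
    (hn : n ≠ 0) (h : x ^ n ∈ W) : x ∈ W := by
  rcases W.mem_or_inv_mem x with hx | hx
  · exact hx
  · obtain ⟨m, rfl⟩ := Nat.exists_eq_succ_of_ne_zero hn
    rcases eq_or_ne x 0 with rfl | hx0
    · exact zero_mem W
    have : x = x ^ (m + 1) * (x⁻¹) ^ m := by
      rw [pow_succ, inv_pow]
      field_simp
    rw [this]
    exact mul_mem h (pow_mem hx m)

theorem s59n_field_aux {F : Type*} [Field F] (X Y A B : F) (hX : X ≠ 0) (hY : Y ≠ 0) (hA : A ≠ 0)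
    (hB : B ≠ 0) (p q : ℕ) :
    X ^ q * B ^ p * (Y * A ^ p) ^ q * (B⁻¹ * (A⁻¹) ^ q) ^ p * ((X * Y) ^ q)⁻¹ = 1 := by
  have h1 : (A ^ p) ^ q = A ^ (p * q) := (pow_mul A p q).symm
  have h2 : ((A⁻¹) ^ q) ^ p = (A ^ (p * q))⁻¹ := by
    rw [← pow_mul, inv_pow, mul_comm]
  rw [mul_pow Y, mul_pow B⁻¹, h1, h2, inv_pow, mul_pow X]
  have := pow_ne_zero (p * q) hA
  have := pow_ne_zero p hB
  have := pow_ne_zero q hX
  have := pow_ne_zero q hY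
  field_simp

variable {Z : s33z_Datum D' 𝓕 ι k}

theorem s59n_reg_mul {y z : 𝓕} (hy : s33z_Reg Z y) (hz : s33z_Reg Z z) : s33z_Reg Z (y * z) :=
  fun Q hQ => mul_mem (hy Q hQ) (hz Q hQ)

theorem s59n_reg_pow {y : 𝓕} (hy : s33z_Reg Z y) (n : ℕ) : s33z_Reg Z (y ^ n) :=
  fun Q hQ => pow_mem (hy Q hQ) n

theorem s59n_reg_const (c : L₀) : s33z_Reg Z (algebraMap L₀ 𝓕 c) :=
  fun Q _ => Q.algebraMap_mem' c

theorem s59n_reg_of_nf {y : 𝓕} (hy : s33z_NF Z y) : s33z_Reg Z y := fun Q hQ =>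
  (ff_mem_iff_ord_nonneg Q hy.1).mpr (hy.2 Q hQ).ge

theorem s59n_reg_inv_of_nf {y : 𝓕} (hy : s33z_NF Z y) : s33z_Reg Z y⁻¹ := fun Q hQ =>
  (ff_mem_iff_ord_nonneg Q (inv_ne_zero hy.1)).mpr (by rw [Q.ord_inv, hy.2 Q hQ, neg_zero])

/-! ### The main theorem -/

set_option maxHeartbeats 1600000 in
/-- **[C1]: `(Ψ + q)` kills the toric invariant.** -/
theorem s59n_toric_frob {q : ℕ} (Φ : s59n_FrobAL Z q) {p : ℕ} (hp : p ≠ 0)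
    {h : 𝓕} (hi : h ∈ Z.Ci.O) (hi' : h⁻¹ ∈ Z.Ci.O) (hz : h ∈ Z.Cz.O) (hz' : h⁻¹ ∈ Z.Cz.O)
    (hN : s33z_NF Z h)
    {ci cz : κ} {ai az : Fb} (hci : ci ≠ 0) (hcz : cz ≠ 0)
    (ei : Z.Ci.red ⟨h, hi⟩ = algebraMap κ Fb ci * ai ^ p)
    (ez : Z.Cz.red ⟨h, hz⟩ = algebraMap κ Fb cz * az ^ p) :
    ∃ (G u : 𝓕) (c : L₀), G ≠ 0 ∧ c ≠ 0 ∧
      Φ.Ψ h * h ^ q = algebraMap L₀ 𝓕 c * G ^ p * u ∧ s33z_Cong Z 1 u ∧ s33z_NF Z u := by
  classical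
  have hh0 : h ≠ 0 := hN.1
  have hϖ0 : algebraMap L₀ 𝓕 D'.ϖ ≠ 0 :=
    (map_ne_zero_iff _ (algebraMap L₀ 𝓕).injective).mpr D'.ϖ_ne_zero
  -- the reductions of `h` are units of `Fb`
  have hri : Z.Ci.red ⟨h, hi⟩ * Z.Ci.red ⟨h⁻¹, hi'⟩ = 1 := by
    rw [← map_mul]
    have : (⟨h, hi⟩ : Z.Ci.O) * ⟨h⁻¹, hi'⟩ = 1 := Subtype.ext (mul_inv_cancel₀ hh0)
    rw [this, map_one]
  have hrz : Z.Cz.red ⟨h, hz⟩ * Z.Cz.red ⟨h⁻¹, hz'⟩ = 1 := by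
    rw [← map_mul]
    have : (⟨h, hz⟩ : Z.Cz.O) * ⟨h⁻¹, hz'⟩ = 1 := Subtype.ext (mul_inv_cancel₀ hh0)
    rw [this, map_one]
  have hci' : algebraMap κ Fb ci ≠ 0 := (map_ne_zero_iff _ (algebraMap κ Fb).injective).mpr hci
  have hcz' : algebraMap κ Fb cz ≠ 0 := (map_ne_zero_iff _ (algebraMap κ Fb).injective).mpr hcz
  have hai0 : ai ≠ 0 := by
    rintro rfl
    rw [ei, zero_pow hp, mul_zero, zero_mul] at hri
    exact zero_ne_one hri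
  have haz0 : az ≠ 0 := by
    rintro rfl
    rw [ez, zero_pow hp, mul_zero, zero_mul] at hrz
    exact zero_ne_one hrz
  -- `a_i`, `a_z` are units at the branches of every node
  have hgl := Z.glue h hi hz (s59n_reg_of_nf hN)
  have hgl' := Z.glue h⁻¹ hi' hz' (s59n_reg_inv_of_nf hN)
  have hinv_i : Z.Ci.red ⟨h⁻¹, hi'⟩ = (algebraMap κ Fb ci)⁻¹ * (ai⁻¹) ^ p := by
    have h1 := eq_inv_of_mul_eq_one_right hri
    rw [h1, ei, mul_inv, inv_pow]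
  have hinv_z : Z.Cz.red ⟨h⁻¹, hz'⟩ = (algebraMap κ Fb cz)⁻¹ * (az⁻¹) ^ p := by
    have h1 := eq_inv_of_mul_eq_one_right hrz
    rw [h1, ez, mul_inv, inv_pow]
  have hcinv : ∀ c : κ, (algebraMap κ Fb c)⁻¹ = algebraMap κ Fb c⁻¹ := fun c => (map_inv₀ _ c).symm
  have hai_mem : ∀ s, ai ∈ Z.Wi s ∧ ai⁻¹ ∈ Z.Wi s := by
    intro s
    obtain ⟨h1, -, -⟩ := hgl s
    obtain ⟨h1', -, -⟩ := hgl' s
    constructor
    · apply s59n_mem_of_pow_mem (Z.Wi s) hp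
      have : ai ^ p = algebraMap κ Fb ci⁻¹ * Z.Ci.red ⟨h, hi⟩ := by
        rw [ei, ← hcinv, ← mul_assoc, inv_mul_cancel₀ hci', one_mul]
      rw [this]
      exact mul_mem (Z.Wi_const s _) h1
    · apply s59n_mem_of_pow_mem (Z.Wi s) hp
      have : (ai⁻¹) ^ p = algebraMap κ Fb ci * Z.Ci.red ⟨h⁻¹, hi'⟩ := by
        rw [hinv_i, ← mul_assoc, mul_inv_cancel₀ hci', one_mul]
      rw [this]
      exact mul_mem (Z.Wi_const s _) h1'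
  have haz_mem : ∀ s, az ∈ Z.Wz s ∧ az⁻¹ ∈ Z.Wz s := by
    intro s
    obtain ⟨-, h2, -⟩ := hgl s
    obtain ⟨-, h2', -⟩ := hgl' s
    constructor
    · apply s59n_mem_of_pow_mem (Z.Wz s) hp
      have : az ^ p = algebraMap κ Fb cz⁻¹ * Z.Cz.red ⟨h, hz⟩ := by
        rw [ez, ← hcinv, ← mul_assoc, inv_mul_cancel₀ hcz', one_mul]
      rw [this]
      exact mul_mem (Z.Wz_const s _) h2
    · apply s59n_mem_of_pow_mem (Z.Wz s) hp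
      have : (az⁻¹) ^ p = algebraMap κ Fb cz * Z.Cz.red ⟨h⁻¹, hz'⟩ := by
        rw [hinv_z, ← mul_assoc, mul_inv_cancel₀ hcz', one_mul]
      rw [this]
      exact mul_mem (Z.Wz_const s _) h2'
  -- the glued pair `(B_i, B_z)`
  set Bi : Fb := Φ.ψzi az⁻¹ * (ai⁻¹) ^ q with hBi
  set Bz : Fb := Φ.ψiz ai⁻¹ * (az⁻¹) ^ q with hBz
  have hglued : ∀ s : ι, ∃ (h1 : Bi ∈ Z.Wi s) (h2 : Bz ∈ Z.Wz s),
      Z.evi s ⟨Bi, h1⟩ = Z.evz s ⟨Bz, h2⟩ := by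
    intro s
    obtain ⟨hm1, e1⟩ := Φ.br_i s az⁻¹ (haz_mem s).2
    obtain ⟨hm2, e2⟩ := Φ.br_z s ai⁻¹ (hai_mem s).2
    have hq1 : (ai⁻¹) ^ q ∈ Z.Wi s := pow_mem (hai_mem s).2 q
    have hq2 : (az⁻¹) ^ q ∈ Z.Wz s := pow_mem (haz_mem s).2 q
    refine ⟨mul_mem hm1 hq1, mul_mem hm2 hq2, ?_⟩
    have E1 : (⟨Bi, mul_mem hm1 hq1⟩ : Z.Wi s) =
        ⟨Φ.ψzi az⁻¹, hm1⟩ * (⟨ai⁻¹, (hai_mem s).2⟩ : Z.Wi s) ^ q := Subtype.ext rfl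
    have E2 : (⟨Bz, mul_mem hm2 hq2⟩ : Z.Wz s) =
        ⟨Φ.ψiz ai⁻¹, hm2⟩ * (⟨az⁻¹, (haz_mem s).2⟩ : Z.Wz s) ^ q := Subtype.ext rfl
    rw [E1, E2, map_mul, map_mul, map_pow, map_pow, e1, e2, mul_comm]
  obtain ⟨g', hg'i, hg'z, hg'reg, eg'i, eg'z⟩ := Z.lift Bi Bz hglued
  have hψzi : Φ.ψzi az * Φ.ψzi az⁻¹ = 1 := by rw [← map_mul, mul_inv_cancel₀ haz0, map_one]
  have hψiz : Φ.ψiz ai * Φ.ψiz ai⁻¹ = 1 := by rw [← map_mul, mul_inv_cancel₀ hai0, map_one]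
  have hBi0 : Bi ≠ 0 := by
    rw [hBi]
    exact mul_ne_zero (left_ne_zero_of_mul_eq_one (by rw [mul_comm]; exact hψzi))
      (pow_ne_zero _ (inv_ne_zero hai0))
  have hg'0 : g' ≠ 0 := by
    rintro rfl
    apply hBi0
    rw [← eg'i]
    exact map_zero _
  -- the constant
  obtain ⟨d, hd⟩ := D'.resA_surjective (((cz * ci) ^ q)⁻¹)
  have hdO_i : algebraMap L₀ 𝓕 (d : L₀) ∈ Z.Ci.O := (Z.Ci.const_mem_iff _).mpr d.2
  have hdO_z : algebraMap L₀ 𝓕 (d : L₀) ∈ Z.Cz.O := (Z.Cz.const_mem_iff _).mpr d.2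
  have hd0 : (d : L₀) ≠ 0 := by
    intro h0
    have : d = 0 := Subtype.ext h0
    rw [this, map_zero] at hd
    exact inv_ne_zero (pow_ne_zero q (mul_ne_zero hcz hci)) hd.symm
  -- the function `u`
  set u : 𝓕 := Φ.Ψ h * h ^ q * g' ^ p * algebraMap L₀ 𝓕 (d : L₀) with hu
  have hΨ0 : Φ.Ψ h ≠ 0 := (map_ne_zero Φ.Ψ).mpr hh0
  have hu0 : u ≠ 0 := mul_ne_zero (mul_ne_zero (mul_ne_zero hΨ0 (pow_ne_zero _ hh0))
    (pow_ne_zero _ hg'0)) ((map_ne_zero_iff _ (algebraMap L₀ 𝓕).injective).mpr hd0)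
  have hui : u ∈ Z.Ci.O := mul_mem (mul_mem (mul_mem (Φ.mem_i h hz)
    (pow_mem hi q)) (pow_mem hg'i p)) hdO_i
  have huz : u ∈ Z.Cz.O := mul_mem (mul_mem (mul_mem (Φ.mem_z h hi)
    (pow_mem hz q)) (pow_mem hg'z p)) hdO_z
  have hureg : s33z_Reg Z u := s59n_reg_mul (s59n_reg_mul (s59n_reg_mul
    (Φ.reg h (s59n_reg_of_nf hN)) (s59n_reg_pow (s59n_reg_of_nf hN) q)) (s59n_reg_pow hg'reg p))
    (s59n_reg_const _)
  have hredi : Z.Ci.red ⟨u, hui⟩ = 1 := by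
    have E : (⟨u, hui⟩ : Z.Ci.O) = ⟨Φ.Ψ h, Φ.mem_i h hz⟩ * (⟨h, hi⟩ : Z.Ci.O) ^ q *
        (⟨g', hg'i⟩ : Z.Ci.O) ^ p * ⟨algebraMap L₀ 𝓕 (d : L₀), hdO_i⟩ := Subtype.ext rfl
    rw [E, map_mul, map_mul, map_mul, map_pow, map_pow, Φ.red_i h hz, ez, ei, eg'i, Z.Ci.red_const d,
      hd]
    simp only [map_mul, map_pow, map_inv₀, Φ.const_zi, hBi]
    exact s59n_field_aux _ _ _ _ hcz' hci' hai0 (left_ne_zero_of_mul_eq_one hψzi) p q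
  have hredz : Z.Cz.red ⟨u, huz⟩ = 1 := by
    have E : (⟨u, huz⟩ : Z.Cz.O) = ⟨Φ.Ψ h, Φ.mem_z h hi⟩ * (⟨h, hz⟩ : Z.Cz.O) ^ q *
        (⟨g', hg'z⟩ : Z.Cz.O) ^ p * ⟨algebraMap L₀ 𝓕 (d : L₀), hdO_z⟩ := Subtype.ext rfl
    rw [E, map_mul, map_mul, map_mul, map_pow, map_pow, Φ.red_z h hi, ez, ei, eg'z, Z.Cz.red_const d,
      hd]
    simp only [map_mul, map_pow, map_inv₀, Φ.const_iz, hBz]
    rw [mul_comm (algebraMap κ Fb cz) (algebraMap κ Fb ci)]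
    exact s59n_field_aux _ _ _ _ hci' hcz' haz0 (left_ne_zero_of_mul_eq_one hψiz) p q
  -- `u ≡ 1` on both components
  have hci1 : ∃ y ∈ Z.Ci.O, u - 1 = algebraMap L₀ 𝓕 D'.ϖ * y := by
    have h1 : Z.Ci.red (⟨u, hui⟩ - 1) = 0 := by rw [map_sub, hredi, map_one, sub_self]
    obtain ⟨y, hy, e⟩ := (Z.Ci.red_eq_zero_iff _).mp h1
    exact ⟨y, hy, e⟩
  have hcz1 : ∃ y ∈ Z.Cz.O, u - 1 = algebraMap L₀ 𝓕 D'.ϖ * y := by
    have h1 : Z.Cz.red (⟨u, huz⟩ - 1) = 0 := by rw [map_sub, hredz, map_one, sub_self]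
    obtain ⟨y, hy, e⟩ := (Z.Cz.red_eq_zero_iff _).mp h1
    exact ⟨y, hy, e⟩
  obtain ⟨yi, hyi, eyi⟩ := hci1
  obtain ⟨yz, hyz, eyz⟩ := hcz1
  have hyy : yz = yi := by
    have := eyi.symm.trans eyz
    exact (mul_left_cancel₀ hϖ0 this).symm
  subst hyy
  have hyreg : s33z_Reg Z yz := by
    intro Q hQ
    have h1 : yz = (u - 1) * (algebraMap L₀ 𝓕 D'.ϖ)⁻¹ := by
      rw [eyi]
      field_simp
    rw [h1, ← map_inv₀]
    exact mul_mem (sub_mem (hureg Q hQ) (one_mem _)) (Q.algebraMap_mem' _)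
  have hu1 : u = 1 + algebraMap L₀ 𝓕 D'.ϖ * yz := by rw [← eyi]; ring
  refine ⟨g'⁻¹, u, (d : L₀)⁻¹, inv_ne_zero hg'0, inv_ne_zero hd0, ?_, ⟨⟨yz, hyi, ?_⟩, ⟨yz, hyz, ?_⟩⟩,
    hu0, fun Q hQ => ?_⟩
  · rw [hu, map_inv₀, inv_pow]
    have h1 : algebraMap L₀ 𝓕 (d : L₀) ≠ 0 := (map_ne_zero_iff _ (algebraMap L₀ 𝓕).injective).mpr hd0
    have h2 := pow_ne_zero p hg'0
    field_simp
  · show u - 1 = s33f_pi Z.Di ^ 1 * yz
    rw [pow_one]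
    exact eyi
  · show u - 1 = s33f_pi Z.Dz ^ 1 * yz
    rw [pow_one]
    exact eyi
  · rw [hu1]
    exact Z.unit yz hyi hyz hyreg Q hQ

end Fermat.Agent.Lib.S59
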