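/-
Programme (R) / node [MP], leaf [C] = TORIC-FROB, family N (helper7, prefix `s59n_`):
**[FROB-AL]: THE FROBENIUS–ATKIN–LEHNER STRUCTURE ON THE Σ-DATUM OF `X_0(M q)`.**

`s59n_frobAL_D` : for helper8's datum `s33s_datumD` (`Lib/S33/SSDatum.lean`, any chart `S`) and a Frobenius lift `σ₀` at the
place over `q` (`σ₀ A = A`, `π (σ₀ a) = π a ^ q`), the ring endomorphism `Ψ = w_q ∘ σ₀` of `𝓕_{K₀}(M q)` with the
coefficientwise Frobenius of `F̄_M` on both sides is a `s59n_FrobAL` structure, PROVIDED `BM` is `σ₀`-stable and the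
chart `S` is stable under `w_q ∘ σ₀`.

Fields: `mem/red` from `V_0 = w_q⁻¹ V_∞`, `red_0 = red_∞ ∘ w_q` (definitions of `Lib/S34/MVal`), `w_q² = 1`,
`w_q σ₀ = σ₀ w_q`, `red (σ₀ y) = Frob (red y)` (helper6's `MSigma`); `br_i/br_z` from `s59n_branch_abs` with the
companions `s59n_H_zi/_iz`; `reg` from `s59n_nodePlaces_stable`.
-/
import Fermat.Agent.Lib.S59.NFrobH
import Fermat.Agent.Lib.S59.NToric
import Fermat.Agent.Lib.S59.NNodeStab
import Fermat.Agent.Lib.S59.NChartAL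
import Fermat.Agent.Lib.S33.SSDatum
import Fermat.Agent.Lib.S37.EFrob

set_option autoImplicit false
set_option linter.style.haveILetI false
set_option linter.unusedSectionVars false
set_option synthInstance.maxHeartbeats 400000

noncomputable section

namespace Fermat.Agent.Lib.S59

open ModularCurve AlgebraicCurve HahnSeries Fermat.Agent.Lib.FF Fermat.Agent.Lib.S18
  Fermat.Agent.Lib.S34 Fermat.Agent.Lib.S37 Fermat.Agent.Lib.S33 Fermat.Agent.Lib.S35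

local notation "Kb" => AlgebraicClosure ℚ

section Datum

variable {K₀ : Type} [Field K₀] [CharZero K₀] [Algebra ℚ K₀] {κ : Type} [Field κ]
  (G : s18g_GaussData K₀ κ) (φ : K₀ →+* Kb) (M q : ℕ) [NeZero M] [hq : Fact q.Prime]
  (hqM : ¬ q ∣ M) [CharP κ q] [PerfectRing κ q]
  (hdeg : s34m_HDeg K₀ M q) (hT : s18g_HT κ M) (hdegM : s18g_HDeg K₀ M)
  (hπ : Function.Surjective G.π)
  (e : ℕ) (ε : K₀) (he : 0 < e) (hε : ε ∈ G.A) (hεinv : ε⁻¹ ∈ G.A) (hε0 : ε ≠ 0)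
  (hqe : (q : K₀) = ε * ((G.ϖ : G.A) : K₀) ^ e) (hperf : ∀ c : κ, ∃ d : κ, d ^ q = c)
  (S : Set (Place K₀ (s34m_F K₀ (M * q))))

variable {D : Type*} [CommRing D] [IsDedekindDomain D] [Algebra D ↥(modularFunctionFieldFullC κ M)]
  [IsFractionRing D ↥(modularFunctionFieldFullC κ M)] (hD : ¬ IsField D)
  (hF : ∀ i y, s33s_redL G φ M q hq.out hqM i y ∈ modularFunctionFieldFullC κ M)
  (hint : ∀ (i : Bool) (b : s34x_ring (s34x_infRing (s34m_VV G φ M q hq.out hqM)) S),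
    ∃ d : D, algebraMap D ↥(modularFunctionFieldFullC κ M) d =
      s33s_redO G φ M q hq.out hqM (modularFunctionFieldFullC κ M) hF i
        ⟨(b : s34m_F K₀ (M * q)), b.2.1⟩)
  (BM : Set (s34m_F K₀ M)) (hBMV : ∀ g ∈ BM, g ∈ s34m_Vinf G M)
  (hαB : ∀ g ∈ BM, heckeAlphaBar K₀ M q g ∈
    s34x_ring (s34x_infRing (s34m_VV G φ M q hq.out hqM)) S)
  (hβB : ∀ g ∈ BM, ∃ b' ∈ s34x_ring (s34x_infRing (s34m_VV G φ M q hq.out hqM)) S,
    ∃ z, z ∈ s34m_Vinf G (M * q) ∧ z ∈ s34m_Vzero G φ M q hq.out hqM ∧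
      b' - heckeBetaBar K₀ M q g = s34m_unif G (M * q) * z)
  (hlift : ∀ d : D, ∃ g, ∃ hg : g ∈ BM,
    s34m_redInf G M ⟨g, hBMV g hg⟩ =
      ((algebraMap D ↥(modularFunctionFieldFullC κ M) d : ↥(modularFunctionFieldFullC κ M)) :
        LaurentSeries κ))
  (htw : ∀ d : D, ∃ d' : D, qExpand κ q
    ((algebraMap D ↥(modularFunctionFieldFullC κ M) d : ↥(modularFunctionFieldFullC κ M)) :
      LaurentSeries κ) =
    ((algebraMap D ↥(modularFunctionFieldFullC κ M) d' : ↥(modularFunctionFieldFullC κ M)) :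
      LaurentSeries κ) ^ q)
  (hnode : ∃ 𝔫, s33s_IsNode (s34m_VV G φ M q hq.out hqM) (s34m_unif G (M * q)) S 𝔫)
  (σ₀ : K₀ ≃ₐ[ℚ] K₀) (hσA : ∀ a : K₀, a ∈ G.A → (σ₀ : K₀ ≃+* K₀) a ∈ G.A)
  (hσA' : ∀ a : K₀, a ∈ G.A → (σ₀.symm : K₀ ≃+* K₀) a ∈ G.A)
  (hσπ : ∀ a : G.A, G.π (s34m_sigmaA G (σ₀ : K₀ ≃+* K₀) hσA a) = G.π a ^ q)
  (hBMσ : ∀ g ∈ BM, arithmeticRingAut (modularFunctionFieldFull M) σ₀ g ∈ BM)
  (hSΨ : ∀ Q : Place K₀ (s34m_F K₀ (M * q)),
    Q ∈ S ↔ s59n_gPsi φ M q hq.out hqM σ₀ • Q ∈ S)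

/-- the function field of the special fibre is stable under the coefficientwise Frobenius. -/
theorem s59n_hFr (x : LaurentSeries κ) (hx : x ∈ modularFunctionFieldFullC κ M) :
    coeffMap (frobenius κ q) x ∈ modularFunctionFieldFullC κ M :=
  s37e_coeffMap_mem_fullC M (frobenius κ q) hx

/-- `Ψ = w_q ∘ σ₀` as a ring endomorphism. -/
def s59n_Psi : s34m_F K₀ (M * q) →+* s34m_F K₀ (M * q) :=
  ((s34m_al φ M q hq.out hqM : s34m_F K₀ (M * q) ≃ₐ[K₀] s34m_F K₀ (M * q)) :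
      s34m_F K₀ (M * q) →+* s34m_F K₀ (M * q)).comp
    ((arithmeticRingAut (modularFunctionFieldFull (M * q)) σ₀ :
      s34m_F K₀ (M * q) ≃+* s34m_F K₀ (M * q)) : s34m_F K₀ (M * q) →+* s34m_F K₀ (M * q))

theorem s59n_Psi_apply (y : s34m_F K₀ (M * q)) :
    s59n_Psi φ M q hqM σ₀ y =
      s34m_al φ M q hq.out hqM (arithmeticRingAut (modularFunctionFieldFull (M * q)) σ₀ y) := rfl

theorem s59n_Psi_eq_smul (y : s34m_F K₀ (M * q)) :
    s59n_Psi φ M q hqM σ₀ y = s59n_gPsi φ M q hq.out hqM σ₀ • y :=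
  (s59n_gPsi_smul φ M q hq.out hqM σ₀ y).symm

include hσπ in
theorem s59n_hσπ' (a : G.A) :
    G.π (s34m_sigmaA G (σ₀ : K₀ ≃+* K₀) hσA a) = frobenius κ q (G.π a) :=
  (hσπ a).trans (frobenius_def q (G.π a)).symm

include hσπ in
theorem s59n_Psi_mem_i (y : s34m_F K₀ (M * q)) (hy : y ∈ s34m_Vzero G φ M q hq.out hqM) :
    s59n_Psi φ M q hqM σ₀ y ∈ s34m_Vinf G (M * q) :=
  (s34m_mem_Vzero G φ M q hq.out hqM _).mp
    (s35m_galois_mem_Vzero G σ₀ hσA (frobenius κ q) (s59n_hσπ' G q σ₀ hσA hσπ) φ M q hq.out hqM hy)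

include hσπ in
theorem s59n_Psi_mem_z (y : s34m_F K₀ (M * q)) (hy : y ∈ s34m_Vinf G (M * q)) :
    s59n_Psi φ M q hqM σ₀ y ∈ s34m_Vzero G φ M q hq.out hqM := by
  rw [s34m_mem_Vzero, s59n_Psi_apply, s34m_al_al]
  exact s35m_galois_mem_Vinf G σ₀ hσA (frobenius κ q) (s59n_hσπ' G q σ₀ hσA hσπ) (M * q) hy

omit hq [PerfectRing κ q] [CharZero K₀] in
/-- `red_0 u = red_∞ v` when `w_q u = v` (generic elements: keeps the kernel away from `Ψ`). -/
theorem s59n_red_aux (hq' : q.Prime) [NeZero q] (u v : s34m_F K₀ (M * q))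
    (hu : u ∈ s34m_Vzero G φ M q hq' hqM)
    (hv : v ∈ s34m_Vinf G (M * q)) (e : s34m_al φ M q hq' hqM u = v) :
    s34m_redZero G φ M q hq' hqM ⟨u, hu⟩ = s34m_redInf G (M * q) ⟨v, hv⟩ :=
  (s34m_redZero_apply G φ M q hq' hqM ⟨u, hu⟩).trans
    (congrArg (s34m_redInf G (M * q)) (Subtype.ext e))

include hσπ in
theorem s59n_Psi_red_i (y : s34m_F K₀ (M * q)) (hy : y ∈ s34m_Vzero G φ M q hq.out hqM) :
    s34m_redInf G (M * q) ⟨s59n_Psi φ M q hqM σ₀ y, s59n_Psi_mem_i G φ M q hqM σ₀ hσA hσπ y hy⟩ =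
      coeffMap (frobenius κ q) (s34m_redZero G φ M q hq.out hqM ⟨y, hy⟩) :=
  (s59n_red_aux G φ M q hqM hq.out _ _
    (s35m_galois_mem_Vzero G σ₀ hσA (frobenius κ q) (s59n_hσπ' G q σ₀ hσA hσπ) φ M q hq.out hqM hy)
    (s59n_Psi_mem_i G φ M q hqM σ₀ hσA hσπ y hy) (s59n_Psi_apply φ M q hqM σ₀ y).symm).symm.trans
    (s35m_redZero_galois G σ₀ hσA (frobenius κ q) (s59n_hσπ' G q σ₀ hσA hσπ) φ M q hq.out hqM
      ⟨y, hy⟩)

include hσπ in
theorem s59n_Psi_red_z (y : s34m_F K₀ (M * q)) (hy : y ∈ s34m_Vinf G (M * q)) :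
    s34m_redZero G φ M q hq.out hqM
        ⟨s59n_Psi φ M q hqM σ₀ y, s59n_Psi_mem_z G φ M q hqM σ₀ hσA hσπ y hy⟩ =
      coeffMap (frobenius κ q) (s34m_redInf G (M * q) ⟨y, hy⟩) :=
  (s59n_red_aux G φ M q hqM hq.out _ _ (s59n_Psi_mem_z G φ M q hqM σ₀ hσA hσπ y hy)
    (s35m_galois_mem_Vinf G σ₀ hσA (frobenius κ q) (s59n_hσπ' G q σ₀ hσA hσπ) (M * q) hy)
    (by rw [s59n_Psi_apply, s34m_al_al])).trans
    (s35m_redInf_galois G σ₀ hσA (frobenius κ q) (s59n_hσπ' G q σ₀ hσA hσπ) (M * q) ⟨y, hy⟩)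

include hσπ hσA' in
/-- `Ψ` swaps the two Gauss valuations. -/
theorem s59n_Psi_swap (i : Bool) (y : s34m_F K₀ (M * q)) :
    y ∈ s34m_VV G φ M q hq.out hqM i ↔
      s59n_gPsi φ M q hq.out hqM σ₀ • y ∈ s34m_VV G φ M q hq.out hqM (!i) := by
  have hσπe : ∀ a : G.A, G.π (s34m_sigmaA G (σ₀ : K₀ ≃+* K₀) hσA a) = frobeniusEquiv κ q (G.π a) :=
    fun a => (hσπ a).trans (by rw [frobeniusEquiv_apply, frobenius_def])
  rw [← s59n_Psi_eq_smul, s59n_Psi_apply,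
    ← s35m_galois_mem_VV_iff G σ₀ hσA hσA' (frobeniusEquiv κ q) hσπe φ M q hq.out hqM i y]
  cases i
  · exact (s34m_mem_Vzero G φ M q hq.out hqM _)
  · exact (s34m_al_mem_Vinf_iff G φ M q hq.out hqM _).symm

include hσπ in
/-- `Ψ ϖ = ϖ · u`, `u ∈ V_∞ ⊓ V_0`. -/
theorem s59n_Psi_unif :
    ∃ u : s34m_F K₀ (M * q), (∀ i, u ∈ s34m_VV G φ M q hq.out hqM i) ∧
      s59n_gPsi φ M q hq.out hqM σ₀ • s34m_unif G (M * q) = s34m_unif G (M * q) * u := by
  have h0 : G.π (s34m_sigmaA G (σ₀ : K₀ ≃+* K₀) hσA G.ϖ) = 0 := by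
    rw [hσπ, s18g_pi_unif, zero_pow hq.out.ne_zero]
  obtain ⟨u, hu⟩ := (G.π_eq_zero_iff _).mp h0
  refine ⟨algebraMap K₀ (s34m_F K₀ (M * q)) (u : K₀),
    fun i => s34c_const_mem_VV G φ M q hq.out hqM i u, ?_⟩
  rw [← s59n_Psi_eq_smul, s59n_Psi_apply, s34m_unif, arithmeticRingAut_algebraMap,
    AlgEquiv.commutes, ← map_mul]
  congr 1
  have := congrArg (fun a : G.A => (a : K₀)) hu
  exact this

/-- **[FROB-AL]: the Frobenius–Atkin–Lehner structure on helper8's Σ-datum.** -/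
def s59n_frobAL_D :
    s59n_FrobAL (s33s_datumD G φ M q hqM hdeg hT hdegM hπ e ε he hε hεinv hε0 hqe hperf S hD hF hint
      BM hBMV hαB hβB hlift htw hnode) q where
  Ψ := s59n_Psi φ M q hqM σ₀
  ψzi := s59n_frobFb q (modularFunctionFieldFullC κ M) (s59n_hFr M q)
  ψiz := s59n_frobFb q (modularFunctionFieldFullC κ M) (s59n_hFr M q)
  mem_i := fun y hy => s59n_Psi_mem_i G φ M q hqM σ₀ hσA hσπ y hy
  mem_z := fun y hy => s59n_Psi_mem_z G φ M q hqM σ₀ hσA hσπ y hy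
  red_i := fun y hy => Subtype.ext (s59n_Psi_red_i G φ M q hqM σ₀ hσA hσπ y hy)
  red_z := fun y hy => Subtype.ext (s59n_Psi_red_z G φ M q hqM σ₀ hσA hσπ y hy)
  const_zi := fun c => Subtype.ext (by
    rw [s59n_coe_frobFb]
    exact (s37e_coeffMap_algebraMap (frobenius κ q) c).trans (by rw [frobenius_def]; rfl))
  const_iz := fun c => Subtype.ext (by
    rw [s59n_coe_frobFb]
    exact (s37e_coeffMap_algebraMap (frobenius κ q) c).trans (by rw [frobenius_def]; rfl))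
  br_i := fun s a ha =>
    s59n_branch_abs
      (s33s_rhoD G φ M q hq.out hqM (modularFunctionFieldFullC κ M) S hF hint true)
      (s33s_rhoD G φ M q hq.out hqM (modularFunctionFieldFullC κ M) S hF hint false)
      (s33s_inst_rho_surjective G φ M q hqM S hF hint BM hBMV hαB hβB hlift htw true)
      (s33s_inst_rho_surjective G φ M q hqM S hF hint BM hBMV hαB hβB hlift htw false) hD s.1
      (s33s_inst_ker_le G φ M q hqM S hF hint s true)
      (s33s_inst_ker_le G φ M q hqM S hF hint s false)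
      (s33s_kGmk G φ M q hqM hπ S s) (s33s_kGmk_eq_zero_iff G φ M q hqM hπ S s)
      (s59n_frobFb q (modularFunctionFieldFullC κ M) (s59n_hFr M q)) q
      (fun c => by
        obtain ⟨c', h1, h2⟩ := s59n_H_zi G φ M q hq.out hqM (modularFunctionFieldFullC κ M)
          (s59n_hFr M q) S hF hint BM hBMV hαB hlift σ₀ hσA hσπ hBMσ c
        exact ⟨c', h1, s33s_inst_ker_le G φ M q hqM S hF hint s false h2⟩)
      a ha
  br_z := fun s a ha =>
    s59n_branch_abs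
      (s33s_rhoD G φ M q hq.out hqM (modularFunctionFieldFullC κ M) S hF hint false)
      (s33s_rhoD G φ M q hq.out hqM (modularFunctionFieldFullC κ M) S hF hint true)
      (s33s_inst_rho_surjective G φ M q hqM S hF hint BM hBMV hαB hβB hlift htw false)
      (s33s_inst_rho_surjective G φ M q hqM S hF hint BM hBMV hαB hβB hlift htw true) hD s.1
      (s33s_inst_ker_le G φ M q hqM S hF hint s false)
      (s33s_inst_ker_le G φ M q hqM S hF hint s true)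
      (s33s_kGmk G φ M q hqM hπ S s) (s33s_kGmk_eq_zero_iff G φ M q hqM hπ S s)
      (s59n_frobFb q (modularFunctionFieldFullC κ M) (s59n_hFr M q)) q
      (fun c => by
        obtain ⟨c', h1, h2⟩ := s59n_H_iz G φ M q hq.out hqM (modularFunctionFieldFullC κ M)
          (s59n_hFr M q) S hF hint BM hBMV hβB hlift σ₀ hσA hσπ hBMσ c
        exact ⟨c', h1, s33s_inst_ker_le G φ M q hqM S hF hint s true h2⟩)
      a ha
  reg := fun y hy Q hQ => by
    rw [s59n_Psi_eq_smul, s34f_smul_mem_iff]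
    exact hy _ (s59n_nodePlaces_stable (s34m_VV G φ M q hq.out hqM) (s34m_unif G (M * q)) S
      (s59n_gPsi φ M q hq.out hqM σ₀) (s59n_Psi_unif G φ M q hqM σ₀ hσA hσπ)
      (s59n_Psi_swap G φ M q hqM σ₀ hσA hσA' hσπ) hSΨ Q hQ)

end Datum

end Fermat.Agent.Lib.S59
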