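/-
Programme (R) / node [MP], leaf [C] = TORIC-FROB, family N (helper7, prefix `s59n_`):
**[FROB-AL] specialised**: the Frobenius–Atkin–Lehner structure on the Σ-datum `s33s_datumW` of a coordinate `w` of
level `M` (chart `{α w regular}`), and on `s33s_datum_five` (`w = j`, `q ≥ 5`, NO hypothesis left besides the Frobenius
lift `σ₀`).
-/
import Fermat.Agent.Lib.S59.NFrob
import Fermat.Agent.Lib.S33.SSFive

set_option autoImplicit false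
set_option linter.style.haveILetI false
set_option linter.unusedSectionVars false
set_option synthInstance.maxHeartbeats 400000

noncomputable section

namespace Fermat.Agent.Lib.S59

open ModularCurve AlgebraicCurve HahnSeries Polynomial Fermat.Agent.Lib.FF Fermat.Agent.Lib.S18
  Fermat.Agent.Lib.S34 Fermat.Agent.Lib.S37 Fermat.Agent.Lib.S33 Fermat.Agent.Lib.S35

local notation "Kb" => AlgebraicClosure ℚ

section Wrap

variable {K₀ : Type} [Field K₀] [CharZero K₀] [Algebra ℚ K₀] {κ : Type} [Field κ]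
  (G : s18g_GaussData K₀ κ) (φ : K₀ →+* Kb) (M q : ℕ) [NeZero M] [hq : Fact q.Prime]
  (hqM : ¬ q ∣ M) [CharP κ q] [PerfectField κ]

local notation "𝓕M" => laurentBaseChange K₀ (modularFunctionFieldFull M)
local notation "𝓕N" => laurentBaseChange K₀ (modularFunctionFieldFull (M * q))
local notation "hFM" => (fun (f : LaurentSeries K₀)
  (hf : f ∈ laurentBaseChange K₀ (modularFunctionFieldFull M)) => s18g_baseChange_mem_Frac G M hf)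

variable (hdeg : s34m_HDeg K₀ M q) (hT : s18g_HT κ M) (hdegM : s18g_HDeg K₀ M)
  (hπ : Function.Surjective G.π)
  (e : ℕ) (ε : K₀) (he : 0 < e) (hε : ε ∈ G.A) (hεinv : ε⁻¹ ∈ G.A) (hε0 : ε ≠ 0)
  (hqe : (q : K₀) = ε * ((G.ϖ : G.A) : K₀) ^ e) (hperf : ∀ c : κ, ∃ d : κ, d ^ q = c)

/-- **[FROB-AL] on the Σ-datum of a coordinate `w`** (chart `{α w regular}`): inputs = a Frobenius lift `σ₀`, the chart ring
of `w` at level `M` is `σ₀`-stable, the chart of `α w` is stable under `w_q ∘ σ₀`. -/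
def s59n_frobAL_W [IsDiscreteValuationRing G.A] (w : ↥𝓕M) (hwV : w ∈ s18g_V G 𝓕M hFM)
    (hcoord : s37b_Coord κ q
      ((s18g_redF G M hFM hT hdegM ⟨w, hwV⟩ : ↥(modularFunctionFieldFullC κ M)) : LaurentSeries κ))
    (hwtw : ∀ τ : κ ≃+* κ, ModularCurve.coeffMap (τ : κ →+* κ)
      ((s18g_redF G M hFM hT hdegM ⟨w, hwV⟩ : ↥(modularFunctionFieldFullC κ M)) : LaurentSeries κ) =
      ((s18g_redF G M hFM hT hdegM ⟨w, hwV⟩ : ↥(modularFunctionFieldFullC κ M)) : LaurentSeries κ))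
    (hmain : letI := s18f_algF G M hT hdegM w hwV
      ∀ z : ↥(modularFunctionFieldFullC κ M), IsIntegral κ[X] z →
        ∃ (b : ↥𝓕M) (hb : b ∈ s18_ring (L₀ := K₀) (s18g_V G 𝓕M hFM) (s18_chart1 w)),
          s18g_redF G M hFM hT hdegM ⟨b, hb.1⟩ = z)
    (wN : ↥𝓕N) (hwN : heckeAlphaBar K₀ M q w = wN) [FFGen K₀ wN]
    (hαN : ∀ y ∈ s34x_infRing (s34m_VV G φ M q hq.out hqM), ∃ s : G.A[X], s.map G.π ≠ 0 ∧
      (s18b_ev G 𝓕N wN).IsIntegralElem (s18b_ev G 𝓕N wN s * y))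
    (hαB : ∀ g ∈ (s18_ring (L₀ := K₀) (s34m_Vinf G M) (s18_chart1 w) : Set (s34m_F K₀ M)),
      heckeAlphaBar K₀ M q g ∈ s34x_ring (s34x_infRing (s34m_VV G φ M q hq.out hqM))
        (s18_chart1 (L₀ := K₀) wN))
    (hβB : ∀ g ∈ (s18_ring (L₀ := K₀) (s34m_Vinf G M) (s18_chart1 w) : Set (s34m_F K₀ M)),
      ∃ b' ∈ s34x_ring (s34x_infRing (s34m_VV G φ M q hq.out hqM)) (s18_chart1 (L₀ := K₀) wN),
      ∃ z, z ∈ s34m_Vinf G (M * q) ∧ z ∈ s34m_Vzero G φ M q hq.out hqM ∧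
        b' - heckeBetaBar K₀ M q g = s34m_unif G (M * q) * z)
    (hnode : ∃ 𝔫, s33s_IsNode (s34m_VV G φ M q hq.out hqM) (s34m_unif G (M * q))
      (s18_chart1 (L₀ := K₀) wN) 𝔫)
    (σ₀ : K₀ ≃ₐ[ℚ] K₀) (hσA : ∀ a : K₀, a ∈ G.A → (σ₀ : K₀ ≃+* K₀) a ∈ G.A)
    (hσA' : ∀ a : K₀, a ∈ G.A → (σ₀.symm : K₀ ≃+* K₀) a ∈ G.A)
    (hσπ : ∀ a : G.A, G.π (s34m_sigmaA G (σ₀ : K₀ ≃+* K₀) hσA a) = G.π a ^ q)
    (hBMσ : ∀ g ∈ (s18_ring (L₀ := K₀) (s34m_Vinf G M) (s18_chart1 w) : Set (s34m_F K₀ M)),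
      arithmeticRingAut (modularFunctionFieldFull M) σ₀ g ∈
        (s18_ring (L₀ := K₀) (s34m_Vinf G M) (s18_chart1 w) : Set (s34m_F K₀ M)))
    (hSΨ : ∀ Q : Place K₀ (s34m_F K₀ (M * q)),
      Q ∈ s18_chart1 (L₀ := K₀) wN ↔ s59n_gPsi φ M q hq.out hqM σ₀ • Q ∈ s18_chart1 (L₀ := K₀) wN) :
    s59n_FrobAL (s33s_datumW G φ M q hqM hdeg hT hdegM hπ e ε he hε hεinv hε0 hqe hperf w hwV hcoord
      hwtw hmain wN hwN hαN hαB hβB hnode) q :=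
  letI := s18f_algF G M hT hdegM w hwV
  haveI := (s37b_dedekind_of_coord κ q M (s18g_redF G M hFM hT hdegM ⟨w, hwV⟩) hcoord
    (s18f_algF_apply G M hT hdegM w hwV)).1
  haveI := (s37b_dedekind_of_coord κ q M (s18g_redF G M hFM hT hdegM ⟨w, hwV⟩) hcoord
    (s18f_algF_apply G M hT hdegM w hwV)).2
  s59n_frobAL_D G φ M q hqM hdeg hT hdegM hπ e ε he hε hεinv hε0 hqe hperf
    (s18_chart1 (L₀ := K₀) wN)
    (D := ↥(integralClosure κ[X] ↥(modularFunctionFieldFullC κ M)))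
    (s33s_w_hD G M q hT hdegM w hwV hcoord)
    (s33s_w_hF G φ M q hqM hdeg hT hdegM)
    (s33s_w_hint G φ M q hqM hdeg hT hdegM w hwV hwtw wN hwN hαN)
    (s18_ring (L₀ := K₀) (s34m_Vinf G M) (s18_chart1 w) : Set (s34m_F K₀ M))
    (fun _ hg => hg.1) hαB hβB
    (s33s_w_hlift G M hT hdegM w hwV hmain)
    (s33s_w_htw G M q hT hdegM w hwV hwtw)
    hnode σ₀ hσA hσA' hσπ hBMσ hSΨ

theorem s59n_frobAL_W_Psi [IsDiscreteValuationRing G.A] (w : ↥𝓕M) (hwV : w ∈ s18g_V G 𝓕M hFM)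
    (hcoord : s37b_Coord κ q
      ((s18g_redF G M hFM hT hdegM ⟨w, hwV⟩ : ↥(modularFunctionFieldFullC κ M)) : LaurentSeries κ))
    (hwtw : ∀ τ : κ ≃+* κ, ModularCurve.coeffMap (τ : κ →+* κ)
      ((s18g_redF G M hFM hT hdegM ⟨w, hwV⟩ : ↥(modularFunctionFieldFullC κ M)) : LaurentSeries κ) =
      ((s18g_redF G M hFM hT hdegM ⟨w, hwV⟩ : ↥(modularFunctionFieldFullC κ M)) : LaurentSeries κ))
    (hmain : letI := s18f_algF G M hT hdegM w hwV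
      ∀ z : ↥(modularFunctionFieldFullC κ M), IsIntegral κ[X] z →
        ∃ (b : ↥𝓕M) (hb : b ∈ s18_ring (L₀ := K₀) (s18g_V G 𝓕M hFM) (s18_chart1 w)),
          s18g_redF G M hFM hT hdegM ⟨b, hb.1⟩ = z)
    (wN : ↥𝓕N) (hwN : heckeAlphaBar K₀ M q w = wN) [FFGen K₀ wN]
    (hαN : ∀ y ∈ s34x_infRing (s34m_VV G φ M q hq.out hqM), ∃ s : G.A[X], s.map G.π ≠ 0 ∧
      (s18b_ev G 𝓕N wN).IsIntegralElem (s18b_ev G 𝓕N wN s * y))
    (hαB : ∀ g ∈ (s18_ring (L₀ := K₀) (s34m_Vinf G M) (s18_chart1 w) : Set (s34m_F K₀ M)),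
      heckeAlphaBar K₀ M q g ∈ s34x_ring (s34x_infRing (s34m_VV G φ M q hq.out hqM))
        (s18_chart1 (L₀ := K₀) wN))
    (hβB : ∀ g ∈ (s18_ring (L₀ := K₀) (s34m_Vinf G M) (s18_chart1 w) : Set (s34m_F K₀ M)),
      ∃ b' ∈ s34x_ring (s34x_infRing (s34m_VV G φ M q hq.out hqM)) (s18_chart1 (L₀ := K₀) wN),
      ∃ z, z ∈ s34m_Vinf G (M * q) ∧ z ∈ s34m_Vzero G φ M q hq.out hqM ∧
        b' - heckeBetaBar K₀ M q g = s34m_unif G (M * q) * z)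
    (hnode : ∃ 𝔫, s33s_IsNode (s34m_VV G φ M q hq.out hqM) (s34m_unif G (M * q))
      (s18_chart1 (L₀ := K₀) wN) 𝔫)
    (σ₀ : K₀ ≃ₐ[ℚ] K₀) (hσA : ∀ a : K₀, a ∈ G.A → (σ₀ : K₀ ≃+* K₀) a ∈ G.A)
    (hσA' : ∀ a : K₀, a ∈ G.A → (σ₀.symm : K₀ ≃+* K₀) a ∈ G.A)
    (hσπ : ∀ a : G.A, G.π (s34m_sigmaA G (σ₀ : K₀ ≃+* K₀) hσA a) = G.π a ^ q)
    (hBMσ : ∀ g ∈ (s18_ring (L₀ := K₀) (s34m_Vinf G M) (s18_chart1 w) : Set (s34m_F K₀ M)),
      arithmeticRingAut (modularFunctionFieldFull M) σ₀ g ∈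
        (s18_ring (L₀ := K₀) (s34m_Vinf G M) (s18_chart1 w) : Set (s34m_F K₀ M)))
    (hSΨ : ∀ Q : Place K₀ (s34m_F K₀ (M * q)),
      Q ∈ s18_chart1 (L₀ := K₀) wN ↔ s59n_gPsi φ M q hq.out hqM σ₀ • Q ∈ s18_chart1 (L₀ := K₀) wN) :
    (s59n_frobAL_W G φ M q hqM hdeg hT hdegM hπ e ε he hε hεinv hε0 hqe hperf w hwV hcoord hwtw hmain
      wN hwN hαN hαB hβB hnode σ₀ hσA hσA' hσπ hBMσ hSΨ).Ψ = s59n_Psi φ M q hqM σ₀ := rfl

omit [PerfectField κ] in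
/-- the chart ring at level `M` of a `σ₀`-fixed coordinate `w` is `σ₀`-stable. -/
theorem s59n_BM_stable (w : ↥𝓕M) (σ₀ : K₀ ≃ₐ[ℚ] K₀)
    (hσA : ∀ a : K₀, a ∈ G.A → (σ₀ : K₀ ≃+* K₀) a ∈ G.A)
    (hσπ : ∀ a : G.A, G.π (s34m_sigmaA G (σ₀ : K₀ ≃+* K₀) hσA a) = G.π a ^ q)
    (hwσ : arithmeticGalois (modularFunctionFieldFull M) σ₀ • w = w)
    (g : s34m_F K₀ M)
    (hg : g ∈ (s18_ring (L₀ := K₀) (s34m_Vinf G M) (s18_chart1 w) : Set (s34m_F K₀ M))) :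
    arithmeticRingAut (modularFunctionFieldFull M) σ₀ g ∈
      (s18_ring (L₀ := K₀) (s34m_Vinf G M) (s18_chart1 w) : Set (s34m_F K₀ M)) := by
  refine ⟨s35m_galois_mem_Vinf G σ₀ hσA (frobenius κ q)
    (fun a => (hσπ a).trans (frobenius_def q (G.π a)).symm) M hg.1, fun Q hQ => ?_⟩
  have h1 : arithmeticRingAut (modularFunctionFieldFull M) σ₀ g =
      arithmeticGalois (modularFunctionFieldFull M) σ₀ • g := rfl
  rw [h1, s34f_smul_mem_iff]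
  refine hg.2 _ ?_
  have h2 := s34f_chart_stable_of_fixed (arithmeticGalois (modularFunctionFieldFull M) σ₀)
    w hwσ ((arithmeticGalois (modularFunctionFieldFull M) σ₀)⁻¹ • Q)
  rw [smul_inv_smul] at h2
  exact h2.mpr hQ

end Wrap

section Five

variable (M q : ℕ) [NeZero M] [hq : Fact q.Prime] (hqM : ¬ q ∣ M) (h5 : 5 ≤ q)
  (K₀ : Type) [Field K₀] [NumberField K₀] (φ : K₀ →+* Kb)
  (κ : Type) [Field κ] [CharP κ q] [PerfectField κ]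
  (G : s18g_GaussData K₀ κ) [IsDiscreteValuationRing G.A]
  (hdeg : s34m_HDeg K₀ M q) (hT : s18g_HT κ M) (hdegM : s18g_HDeg K₀ M)
  (hπ : Function.Surjective G.π)
  (e : ℕ) (ε : K₀) (he : 0 < e) (hε : ε ∈ G.A) (hεinv : ε⁻¹ ∈ G.A) (hε0 : ε ≠ 0)
  (hqe : (q : K₀) = ε * ((G.ϖ : G.A) : K₀) ^ e) (hperf : ∀ c : κ, ∃ d : κ, d ^ q = c)
  (σ₀ : K₀ ≃ₐ[ℚ] K₀) (hσA : ∀ a : K₀, a ∈ G.A → (σ₀ : K₀ ≃+* K₀) a ∈ G.A)
  (hσA' : ∀ a : K₀, a ∈ G.A → (σ₀.symm : K₀ ≃+* K₀) a ∈ G.A)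
  (hσπ : ∀ a : G.A, G.π (s34m_sigmaA G (σ₀ : K₀ ≃+* K₀) hσA a) = G.π a ^ q)

include hσπ in
/-- the chart ring of `j` at level `M` is stable under the arithmetic Frobenius lift. -/
theorem s59n_BM_j_stable (g : s34m_F K₀ M)
    (hg : g ∈ (s18_ring (L₀ := K₀) (s34m_Vinf G M) (s18_chart1 (s18g_jF (K := K₀) M)) :
      Set (s34m_F K₀ M))) :
    arithmeticRingAut (modularFunctionFieldFull M) σ₀ g ∈
      (s18_ring (L₀ := K₀) (s34m_Vinf G M) (s18_chart1 (s18g_jF (K := K₀) M)) :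
        Set (s34m_F K₀ M)) := by
  refine ⟨s35m_galois_mem_Vinf G σ₀ hσA (frobenius κ q)
    (fun a => (hσπ a).trans (frobenius_def q (G.π a)).symm) M hg.1, fun Q hQ => ?_⟩
  have h1 : arithmeticRingAut (modularFunctionFieldFull M) σ₀ g =
      arithmeticGalois (modularFunctionFieldFull M) σ₀ • g := rfl
  rw [h1, s34f_smul_mem_iff]
  refine hg.2 _ ?_
  have h2 := s34f_chart_stable_of_fixed (arithmeticGalois (modularFunctionFieldFull M) σ₀)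
    (s18g_jF (K := K₀) M) (s34f_galois_jF M σ₀)
    ((arithmeticGalois (modularFunctionFieldFull M) σ₀)⁻¹ • Q)
  rw [smul_inv_smul] at h2
  exact h2.mpr hQ

/-- **[FROB-AL] on `s33s_datum_five`** (`q ≥ 5`): the only input is the Frobenius lift `σ₀`. -/
def s59n_frobAL_five :
    s59n_FrobAL (s33s_datum_five M q hqM h5 K₀ φ κ G hdeg hT hdegM hπ e ε he hε hεinv hε0 hqe
      hperf) q :=
  haveI : FFGen K₀ (s18g_jF (K := K₀) (M * q)) :=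
    s18b_ffGen_jF (M * q) (fun _ b hb hn => s18g_exists_relation (M * q) φ hn b hb)
  s59n_frobAL_W G φ M q hqM hdeg hT hdegM hπ e ε he hε hεinv hε0 hqe hperf
    (s18g_jF (K := K₀) M)
    (s18g_jF_mem_V G M (fun _ hf => s18g_baseChange_mem_Frac G M hf))
    _ _
    (s34df_hmain_five M q h5 K₀ φ κ G hπ hT hdegM).1
    (s18g_jF (K := K₀) (M * q)) (s34m_alpha_jF M q)
    (s34f_alpha_j G φ M q hq.out hqM)
    (fun g hg => s34d_alpha_liftJ₁ G φ M q hq.out hqM g hg)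
    (fun g hg => s34d_beta_liftJ₁ G φ M q hq.out hqM g hg)
    (s33s_inst_exists_node G φ M q hq.out hqM)
    σ₀ hσA hσA' hσπ
    (s59n_BM_j_stable M q K₀ κ G σ₀ hσA hσπ)
    (s59n_chart_al_stable φ M q hq.out hqM σ₀)

theorem s59n_frobAL_five_Psi :
    (s59n_frobAL_five M q hqM h5 K₀ φ κ G hdeg hT hdegM hπ e ε he hε hεinv hε0 hqe hperf σ₀ hσA hσA'
      hσπ).Ψ = s59n_Psi φ M q hqM σ₀ := rfl

end Five

end Fermat.Agent.Lib.S59
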