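/-
Programme (R) / node [MP], leaf [C] = TORIC-FROB, family N (helper7, prefix `s59n_`):
**A Frobenius element of `G_ℚ` at `P ∣ q` restricts to a Frobenius lift of every finite normal level `L₀`**:
`σ₀ := σ.restrictNormal L₀` preserves `A₀ = P ∩ L₀` (both ways) and induces `x ↦ x ^ q` on its residue field — the inputs
`hσA, hσA', hσπ` of `s59n_frobAL_five`.
-/
import Fermat.Agent.Lib.S37.RTop
import Fermat.Agent.Lib.S34.MVal
import Fermat.Prelude.Def_EllipticCurve_FrobeniusTrace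

set_option autoImplicit false

noncomputable section

namespace Fermat.Agent.Lib.S59

open Pointwise ModularCurve Fermat.Agent.Lib.S18 Fermat.Agent.Lib.S37 Fermat.Agent.Lib.S34

local notation "Kb" => AlgebraicClosure ℚ
local notation "Γℚ" => (AlgebraicClosure ℚ ≃ₐ[ℚ] AlgebraicClosure ℚ)

variable (P : ValuationSubring Kb) (L₀ : IntermediateField ℚ Kb) [Normal ℚ ↥L₀]

theorem s59n_restrict_coe (σ : Γℚ) (a : ↥L₀) :
    ((σ.restrictNormal ↥L₀ a : ↥L₀) : Kb) = σ (a : Kb) :=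
  AlgEquiv.restrictNormal_commutes σ ↥L₀ a

omit [Normal ℚ ↥L₀] in
theorem s59n_decomp_mem {σ : Γℚ} (hσ : σ ∈ P.decompositionSubgroup ℚ) {a : Kb} (ha : a ∈ P) :
    σ a ∈ P := by
  have h1 : σ • P = P := hσ
  have h2 : σ • a ∈ σ • P := ValuationSubring.smul_mem_pointwise_smul σ a P ha
  rw [h1] at h2
  exact h2

theorem s59n_frob_mem {σ : Γℚ} (hσ : σ ∈ P.decompositionSubgroup ℚ) (a : ↥L₀)
    (ha : a ∈ s18q_A0 P L₀) :
    ((σ.restrictNormal ↥L₀ : ↥L₀ ≃ₐ[ℚ] ↥L₀) : ↥L₀ ≃+* ↥L₀) a ∈ s18q_A0 P L₀ := by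
  show (((σ.restrictNormal ↥L₀) a : ↥L₀) : Kb) ∈ P
  rw [s59n_restrict_coe]
  exact s59n_decomp_mem P hσ ha

theorem s59n_frob_symm_mem {σ : Γℚ} (hσ : σ ∈ P.decompositionSubgroup ℚ) (a : ↥L₀)
    (ha : a ∈ s18q_A0 P L₀) :
    ((σ.restrictNormal ↥L₀ : ↥L₀ ≃ₐ[ℚ] ↥L₀).symm : ↥L₀ ≃+* ↥L₀) a ∈ s18q_A0 P L₀ := by
  have hσ' : σ⁻¹ ∈ P.decompositionSubgroup ℚ := inv_mem hσ
  have h1 : (σ.restrictNormal ↥L₀).symm a = (σ⁻¹).restrictNormal ↥L₀ a := by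
    apply (σ.restrictNormal ↥L₀).injective
    rw [AlgEquiv.apply_symm_apply]
    apply Subtype.ext
    rw [s59n_restrict_coe, s59n_restrict_coe]
    exact (σ.apply_symm_apply _).symm
  show (((σ.restrictNormal ↥L₀).symm a : ↥L₀) : Kb) ∈ P
  rw [h1, s59n_restrict_coe]
  exact s59n_decomp_mem P hσ' ha

theorem s59n_frob_res_aux {σ : Γℚ} {q : ℕ} (hσ : P.IsFrobeniusAt σ q) (b : ↥(s18q_A0 P L₀))
    (hb : (σ.restrictNormal ↥L₀) (b : ↥L₀) ∈ s18q_A0 P L₀) :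
    IsLocalRing.residue ↥(s18q_A0 P L₀) ⟨(σ.restrictNormal ↥L₀) (b : ↥L₀), hb⟩ =
      IsLocalRing.residue ↥(s18q_A0 P L₀) b ^ q := by
  apply (s37r_resMap P L₀).injective
  rw [map_pow]
  have h1 : ∀ c : ↥(s18q_A0 P L₀), s37r_resMap P L₀ (IsLocalRing.residue _ c) =
      IsLocalRing.residue ↥P (s18q_A0_hom P L₀ c) := fun c => rfl
  rw [h1, h1, ← hσ.smul_residue_eq, ← IsLocalRing.ResidueField.residue_smul]
  congr 1
  apply Subtype.ext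
  show (((σ.restrictNormal ↥L₀) (b : ↥L₀) : ↥L₀) : Kb) = σ ((b : ↥L₀) : Kb)
  exact s59n_restrict_coe L₀ σ _

variable [IsDiscreteValuationRing ↥(s18q_A0 P L₀)] (ϖ : ↥(s18q_A0 P L₀)) (hϖ : Irreducible ϖ)

/-- **`hσπ` for the restriction of a Frobenius element.** -/
theorem s59n_frob_res {σ : Γℚ} {q : ℕ} (hσ : P.IsFrobeniusAt σ q) (a : (s37r_G P L₀ ϖ hϖ).A) :
    (s37r_G P L₀ ϖ hϖ).π (s34m_sigmaA (s37r_G P L₀ ϖ hϖ)
      ((σ.restrictNormal ↥L₀ : ↥L₀ ≃ₐ[ℚ] ↥L₀) : ↥L₀ ≃+* ↥L₀)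
      (s59n_frob_mem P L₀ hσ.mem_decompositionSubgroup) a) = (s37r_G P L₀ ϖ hϖ).π a ^ q :=
  s59n_frob_res_aux P L₀ hσ a _

end Fermat.Agent.Lib.S59
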