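/-
Programme (R) / node [MP], leaf [C] = TORIC-FROB, family N (helper7, prefix `s59n_`):
**[C3]: THE WIRING — a TORIC `p`-torsion point `x` of `J₀(M q)` satisfies `σ x = − q · w_q x` for every Frobenius element
`σ` at `P ∣ q`** (`q ≥ 5`, `p ≠ q` prime).

* `s59m_Toric M q p hqM P x` (helper9, `MRedDefs.lean`) : `x` is finite at `P` (`s59n_Finite`) and BOTH reductions of
  the same Kummer generator are `p`-th powers up to constants of the residue field;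
* `s59n_toric_geo` : the theorem.  Proof: over a finite normal level `L₀`, `Ψ = w_q ∘ σ|_{L₀}` is a Frobenius–Atkin–Lehner
  structure on the Σ-datum (`s59n_frobAL_five`), so by [C1] `Ψ h · h ^ q = c · G ^ p · u` with `u ≡ 1` on both components,
  node-avoiding; `u` is a Kummer generator of `w_q σ x + q x`, which vanishes by [Σ-INJ] (`s59n_inj_kum`).
-/
import Fermat.Agent.Lib.S59.NFrobFive
import Fermat.Agent.Lib.S59.NFrobRes
import Fermat.Agent.Lib.S59.NInj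
import Fermat.Agent.Lib.S59.MRedDefs
import Fermat.Agent.Lib.S59.MSoft
import Fermat.Agent.Lib.S33.UnipJ
import Fermat.Agent.Lib.S33.LPull
import Fermat.Agent.Lib.S33.TPDict

set_option autoImplicit false
set_option linter.style.haveILetI false
set_option linter.unusedSectionVars false
set_option synthInstance.maxHeartbeats 400000

noncomputable section

namespace Fermat.Agent.Lib.S59

open ModularCurve AlgebraicCurve HahnSeries Fermat.Agent.Lib.FF Fermat.Agent.Lib.S18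
  Fermat.Agent.Lib.S34 Fermat.Agent.Lib.S37 Fermat.Agent.Lib.S33 Fermat.Agent.Lib.S35

local notation "Kb" => AlgebraicClosure ℚ
local notation "Γℚ" => (AlgebraicClosure ℚ ≃ₐ[ℚ] AlgebraicClosure ℚ)


theorem s59n_C_eq_coe (κ : Type*) [Field κ] (M : ℕ) [NeZero M] (c : κ) :
    (HahnSeries.C c : LaurentSeries κ) =
      ((algebraMap κ ↥(modularFunctionFieldFullC κ M) c : ↥(modularFunctionFieldFullC κ M)) :
        LaurentSeries κ) := by
  show HahnSeries.C c = algebraMap κ (LaurentSeries κ) c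
  rw [algebraMap_laurentSeries_eq_single, HahnSeries.C_apply]

section Inst

variable (M q : ℕ) [NeZero M] [hq : Fact q.Prime] (hqM : ¬ q ∣ M) (h5 : 5 ≤ q)
  (p : ℕ) [hp : Fact p.Prime] (hpq : p ≠ q)
  (P : ValuationSubring Kb) (hP : P.LiesOverPrime q)
  (L₀ : IntermediateField ℚ Kb) [FiniteDimensional ℚ ↥L₀] [Normal ℚ ↥L₀]
  [IsDiscreteValuationRing ↥(s18q_A0 P L₀)] (ϖ : ↥(s18q_A0 P L₀)) (hϖ : Irreducible ϖ)

include h5 hpq hP in
set_option maxHeartbeats 3200000 in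
/-- **[C3] over a fixed finite normal level `L₀`.** -/
theorem s59n_toric_geo_inst {x : JZero (M * q)} {h : s34m_F ↥L₀ (M * q)}
    (hK : s33d_IsKumGen p x (s18q_incl (M * q) L₀ h))
    (hI : h ∈ s34m_Vinf (s37r_G P L₀ ϖ hϖ) (M * q))
    (hZ : h ∈ s34m_Vzero (s37r_G P L₀ ϖ hϖ) (algebraMap ↥L₀ Kb) M q hq.out hqM)
    (hI' : h⁻¹ ∈ s34m_Vinf (s37r_G P L₀ ϖ hϖ) (M * q))
    (hZ' : h⁻¹ ∈ s34m_Vzero (s37r_G P L₀ ϖ hϖ) (algebraMap ↥L₀ Kb) M q hq.out hqM)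
    (hnode : ∀ Q ∈ s33t_nodeN M q hqM P L₀ ϖ hϖ, Q.ord h = 0)
    {ci cz : IsLocalRing.ResidueField ↥(s18q_A0 P L₀)}
    {ai az : LaurentSeries (IsLocalRing.ResidueField ↥(s18q_A0 P L₀))}
    (hci : ci ≠ 0) (hcz : cz ≠ 0)
    (hai : ai ∈ modularFunctionFieldFullC (IsLocalRing.ResidueField ↥(s18q_A0 P L₀)) M)
    (haz : az ∈ modularFunctionFieldFullC (IsLocalRing.ResidueField ↥(s18q_A0 P L₀)) M)
    (ei : s34m_redInf (s37r_G P L₀ ϖ hϖ) (M * q) ⟨h, hI⟩ = HahnSeries.C ci * ai ^ p)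
    (ez : s34m_redZero (s37r_G P L₀ ϖ hϖ) (algebraMap ↥L₀ Kb) M q hq.out hqM ⟨h, hZ⟩ =
      HahnSeries.C cz * az ^ p)
    {σ : Γℚ} (hσ : P.IsFrobeniusAt σ q) :
    s59m_wq M q hq.out hqM (σ • x) + q • x = 0 := by
  classical
  haveI : NeZero q := ⟨hq.out.ne_zero⟩
  haveI : NumberField ↥L₀ := ⟨⟩
  haveI hchar₀ : CharP (IsLocalRing.ResidueField ↥(s18q_A0 P L₀)) q := s37rl_charP P hP L₀
  haveI hperf₀ : PerfectField (IsLocalRing.ResidueField ↥(s18q_A0 P L₀)) :=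
    s37rl_perfectField P hP L₀
  haveI : PerfectRing (IsLocalRing.ResidueField ↥(s18q_A0 P L₀)) q := PerfectField.toPerfectRing q
  haveI : IsDiscreteValuationRing ↥(s37r_G P L₀ ϖ hϖ).A :=
    (inferInstance : IsDiscreteValuationRing ↥(s18q_A0 P L₀))
  have hT : s18g_HT (IsLocalRing.ResidueField ↥(s18q_A0 P L₀)) M := s18t_indep_j q M hqM _
  have hdegM : s18g_HDeg ↥L₀ M := fun n b hb hn =>
    s18g_exists_relation M (algebraMap ↥L₀ Kb) hn b hb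
  have hdeg : s34m_HDeg ↥L₀ M q := s34r_deg_HDeg (algebraMap ↥L₀ Kb) M q hq.out hqM
  have hπ : Function.Surjective (s37r_G P L₀ ϖ hϖ).π := IsLocalRing.residue_surjective
  have hperf : ∀ c : IsLocalRing.ResidueField ↥(s18q_A0 P L₀), ∃ d, d ^ q = c :=
    fun c => surjective_frobenius _ q c
  obtain ⟨e, ε, he, hε, hεinv, hε0, hqe⟩ := s33t_exists_e P L₀ hq.out hP ϖ hϖ
  -- the Frobenius lift
  have hσD := hσ.mem_decompositionSubgroup
  have hσA := s59n_frob_mem P L₀ hσD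
  have hσA' := s59n_frob_symm_mem P L₀ hσD
  have hσπ := s59n_frob_res P L₀ ϖ hϖ hσ
  -- the datum and its Frobenius–Atkin–Lehner structure
  have hi : h ∈ (s33s_datum_five M q hqM h5 ↥L₀ (algebraMap ↥L₀ Kb)
      (IsLocalRing.ResidueField ↥(s18q_A0 P L₀)) (s37r_G P L₀ ϖ hϖ) hdeg hT hdegM hπ e ε he hε hεinv
      hε0 hqe hperf).Ci.O := hI
  have hi' : h⁻¹ ∈ (s33s_datum_five M q hqM h5 ↥L₀ (algebraMap ↥L₀ Kb)
      (IsLocalRing.ResidueField ↥(s18q_A0 P L₀)) (s37r_G P L₀ ϖ hϖ) hdeg hT hdegM hπ e ε he hε hεinv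
      hε0 hqe hperf).Ci.O := hI'
  have hz : h ∈ (s33s_datum_five M q hqM h5 ↥L₀ (algebraMap ↥L₀ Kb)
      (IsLocalRing.ResidueField ↥(s18q_A0 P L₀)) (s37r_G P L₀ ϖ hϖ) hdeg hT hdegM hπ e ε he hε hεinv
      hε0 hqe hperf).Cz.O := hZ
  have hz' : h⁻¹ ∈ (s33s_datum_five M q hqM h5 ↥L₀ (algebraMap ↥L₀ Kb)
      (IsLocalRing.ResidueField ↥(s18q_A0 P L₀)) (s37r_G P L₀ ϖ hϖ) hdeg hT hdegM hπ e ε he hε hεinv
      hε0 hqe hperf).Cz.O := hZ'
  have hh0 : h ≠ 0 := fun h0 => hK.1 (by rw [h0, map_zero])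
  have hNF : s33z_NF (s33s_datum_five M q hqM h5 ↥L₀ (algebraMap ↥L₀ Kb)
      (IsLocalRing.ResidueField ↥(s18q_A0 P L₀)) (s37r_G P L₀ ϖ hϖ) hdeg hT hdegM hπ e ε he hε hεinv
      hε0 hqe hperf) h := ⟨hh0, hnode⟩
  have ei' : (s33s_datum_five M q hqM h5 ↥L₀ (algebraMap ↥L₀ Kb)
      (IsLocalRing.ResidueField ↥(s18q_A0 P L₀)) (s37r_G P L₀ ϖ hϖ) hdeg hT hdegM hπ e ε he hε hεinv
      hε0 hqe hperf).Ci.red ⟨h, hi⟩ =
      algebraMap (IsLocalRing.ResidueField ↥(s18q_A0 P L₀))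
        ↥(modularFunctionFieldFullC (IsLocalRing.ResidueField ↥(s18q_A0 P L₀)) M) ci *
        (⟨ai, hai⟩ : ↥(modularFunctionFieldFullC (IsLocalRing.ResidueField ↥(s18q_A0 P L₀)) M)) ^ p := by
    apply Subtype.ext
    refine ei.trans ?_
    rw [MulMemClass.coe_mul, SubmonoidClass.coe_pow, ← s59n_C_eq_coe]
  have ez' : (s33s_datum_five M q hqM h5 ↥L₀ (algebraMap ↥L₀ Kb)
      (IsLocalRing.ResidueField ↥(s18q_A0 P L₀)) (s37r_G P L₀ ϖ hϖ) hdeg hT hdegM hπ e ε he hε hεinv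
      hε0 hqe hperf).Cz.red ⟨h, hz⟩ =
      algebraMap (IsLocalRing.ResidueField ↥(s18q_A0 P L₀))
        ↥(modularFunctionFieldFullC (IsLocalRing.ResidueField ↥(s18q_A0 P L₀)) M) cz *
        (⟨az, haz⟩ : ↥(modularFunctionFieldFullC (IsLocalRing.ResidueField ↥(s18q_A0 P L₀)) M)) ^ p := by
    apply Subtype.ext
    refine ez.trans ?_
    rw [MulMemClass.coe_mul, SubmonoidClass.coe_pow, ← s59n_C_eq_coe]
  obtain ⟨Gf, u, c, hG0, hc0, hΨ, hcong, hNFu⟩ := s59n_toric_frob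
    (s59n_frobAL_five M q hqM h5 ↥L₀ (algebraMap ↥L₀ Kb)
      (IsLocalRing.ResidueField ↥(s18q_A0 P L₀)) (s37r_G P L₀ ϖ hϖ) hdeg hT hdegM hπ e ε he hε hεinv
      hε0 hqe hperf (σ.restrictNormal ↥L₀) hσA hσA' hσπ) hp.out.ne_zero hi hi' hz hz' hNF hci hcz ei' ez'
  have hΨ' : s34m_al (algebraMap ↥L₀ Kb) M q hq.out hqM
      (arithmeticRingAut (modularFunctionFieldFull (M * q)) (σ.restrictNormal ↥L₀) h) * h ^ q =
      algebraMap ↥L₀ (s34m_F ↥L₀ (M * q)) c * Gf ^ p * u := hΨ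
  clear hΨ
  -- Kummer generators
  have hK1 := s33d_isKumGen_galois (M * q) p L₀ σ hK
  have hK2 := s33d_kumGen_smul (SemilinearAut.ofAlgAut (s37w_al M q hq.out hqM)) hK1
  have e2 : SemilinearAut.ofAlgAut (s37w_al M q hq.out hqM) • s18q_incl (M * q) L₀
      (arithmeticRingAut (modularFunctionFieldFull (M * q)) (σ.restrictNormal ↥L₀) h) =
      s18q_incl (M * q) L₀ (s34m_al (algebraMap ↥L₀ Kb) M q hq.out hqM
        (arithmeticRingAut (modularFunctionFieldFull (M * q)) (σ.restrictNormal ↥L₀) h)) := by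
    rw [SemilinearAut.ofAlgAut_smul]
    exact (s34m_iota_al (algebraMap ↥L₀ Kb) M q hq.out hqM _).symm
  rw [e2] at hK2
  have hK3 := s33l_kumGen_pow hK q
  have hK4 := s33d_kumGen_prod hK2 hK3
  rw [← map_pow, ← map_mul, hΨ'] at hK4
  have hu0 : u ≠ 0 := hNFu.1
  have hcK : ((c : ↥L₀) : Kb) ≠ 0 := fun h0 => hc0 (Subtype.ext h0)
  have hGK : s18q_incl (M * q) L₀ Gf⁻¹ ≠ 0 := (_root_.map_ne_zero _).mpr (inv_ne_zero hG0)
  have hK5 := s33d_kumGen_mul hK4 (inv_ne_zero hcK) hGK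
  have e5 : algebraMap Kb (ffi_F (M * q)) ((c : ↥L₀) : Kb)⁻¹ * s18q_incl (M * q) L₀ Gf⁻¹ ^ p *
      s18q_incl (M * q) L₀ (algebraMap ↥L₀ (s34m_F ↥L₀ (M * q)) c * Gf ^ p * u) =
      s18q_incl (M * q) L₀ u := by
    have hG1 : s18q_incl (M * q) L₀ Gf ≠ 0 := (_root_.map_ne_zero _).mpr hG0
    have hc1 : algebraMap Kb (ffi_F (M * q)) ((c : ↥L₀) : Kb) ≠ 0 :=
      (_root_.map_ne_zero _).mpr hcK
    rw [map_mul, map_mul, map_pow, s18q_incl_algebraMap, map_inv₀, map_inv₀, inv_pow]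
    field_simp
  rw [e5] at hK5
  -- [Σ-INJ]
  obtain ⟨⟨zi, hzi, ezi⟩, ⟨zz, hzz, ezz⟩⟩ := hcong
  have hu1 : ∀ i, ∃ z ∈ s34m_VV (s37r_G P L₀ ϖ hϖ) (algebraMap ↥L₀ Kb) M q hq.out hqM i,
      u - 1 = algebraMap ↥L₀ (s34m_F ↥L₀ (M * q)) ((ϖ : ↥(s18q_A0 P L₀)) : ↥L₀) * z := by
    intro i
    cases i
    · refine ⟨zz, hzz, ?_⟩
      rw [ezz, pow_one]
      rfl
    · refine ⟨zi, hzi, ?_⟩
      rw [ezi, pow_one]
      rfl
  exact s59n_inj_kum M q hqM h5 p hpq P hP L₀ ϖ hϖ hK5 hu1 hNFu.2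

end Inst

section Main

variable (M q : ℕ) [NeZero M] [hq : Fact q.Prime] (hqM : ¬ q ∣ M) (h5 : 5 ≤ q)
  (p : ℕ) [hp : Fact p.Prime] (hpq : p ≠ q)
  (P : ValuationSubring Kb) (hP : P.LiesOverPrime q)

include h5 hpq hP in
/-- **[C3] = TORIC-FROB**: a toric `p`-torsion point `x` of `J₀(M q)` satisfies `σ x = − q · w_q x` for every Frobenius
element `σ` at `P ∣ q` (`q ≥ 5`, `p ≠ q` prime). -/
theorem s59n_toric_geo {x : JZero (M * q)} (hx : s59m_Toric M q p hqM P x) {σ : Γℚ}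
    (hσ : P.IsFrobeniusAt σ q) :
    haveI : NeZero q := ⟨hq.out.ne_zero⟩
    σ • x = (-(q : ℤ)) • s59m_wq M q hq.out hqM x := by
  haveI : NeZero q := ⟨hq.out.ne_zero⟩
  obtain ⟨Lx, hfd, H⟩ := hx
  haveI := hfd
  obtain ⟨L₀, hLx, hfd₀, hn₀⟩ := s33t_exists_normal_ge Lx
  haveI := hfd₀
  haveI := hn₀
  haveI : IsDiscreteValuationRing ↥(s18q_A0 P L₀) := s18q_A0_dvr P L₀ hP
  obtain ⟨ϖ, hϖ⟩ := IsDiscreteValuationRing.exists_irreducible ↥(s18q_A0 P L₀)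
  obtain ⟨h, hK, hI, hZ, hI', hZ', hnode, ⟨ci, ai, hci, hai, ei⟩, ⟨cz, az, hcz, haz, ez⟩⟩ :=
    H L₀ ϖ hϖ hLx
  have key := s59n_toric_geo_inst M q hqM h5 p hpq P hP L₀ ϖ hϖ hK hI hZ hI' hZ' hnode hci hcz hai
    haz ei ez hσ
  have h1 : s59m_wq M q hq.out hqM (σ • x) = -(q • x) := eq_neg_of_add_eq_zero_left key
  have h2 := congrArg (s59m_wq M q hq.out hqM) h1
  rw [s59m_wq_wq, map_neg, map_nsmul] at h2
  rw [h2, neg_smul, natCast_zsmul]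

end Main

end Fermat.Agent.Lib.S59
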