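/-
Programme (R) / node [MP], leaf [C] = TORIC-FROB, family N (helper7, prefix `s59n_`):
**helper9's contract `s59m_ToricFrob` (`MGeoH.lean`) is PROVED**: `s59n_toricFrob : s59m_ToricFrob` (= `s59n_toric_geo`).
-/
import Fermat.Agent.Lib.S59.NGeo
import Fermat.Agent.Lib.S59.MGeoH

set_option autoImplicit false

namespace Fermat.Agent.Lib.S59

/-- **[C] = TORIC-FROB**, in helper9's contract form. -/
theorem s59n_toricFrob : s59m_ToricFrob :=
  fun M _ q _ hqM h5 p _ _ hpq P hP _ hσ _ _ hx => s59n_toric_geo M q hqM h5 p hpq P hP hx hσ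

end Fermat.Agent.Lib.S59
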