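/-
Programme "R2" (the S59 long shot), STAGE A, blocker **[MP′] for general `W`, all `q`, `p ∈ {3, 5}`**
(owner helper7, prefix `s59n_`): **THE TYPED BRANCH TABLE, WITH THE CHECKED WIRINGS.**

Target: `s59n_MP35` = the node `s59_MP'` of `Graph.lean` restricted to `p ∈ {3, 5}` (all that frozen S59 needs).

What is ALREADY general on main (`MTop.lean`, `MAll.lean`, `MFrey.lean`): `s59m_MP'_at` gives [MP′] at the level `(M, q)` for every
odd `p`, every semistable `W` (no hypothesis on the reduction of `W` at `q`), from `s59m_old` [M2′], `s59m_nonEis` and the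
POINTWISE geometric statement `s59m_GeoAt p M q` [GEO].  So the whole blocker is [GEO] at the pairs `(p, q)`:

  `s59n_GeoPQ p q` := `s59m_GeoAt p M q` for every squarefree `M` prime to `q` (`p ∣ M` allowed).

BRANCHES (`q ≠ p`, `p ∈ {3, 5}`):
* (5, q ≥ 7)            PROVED, `s59n_geo_five_big` (= `s59m_geo s59n_toricFrob`, main);
* (p, q ≥ 5), any `p`   ⇐ `s59n_FinP p` ([A] = FIN at the exponent `p`), CHECKED `s59n_geoBig_of_finP`
                         ([B] `s59m_red` and [C] `s59n_toric_geo` on main have NO restriction on `p`); `s59n_finP_of_five` for `5 ≤ p`;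
                         so (3, q ≥ 5) ⇐ `s59n_FinP 3` ONLY;
* (p, 3), `2 ∣ M`       ⇐ `s59n_FinT2 p` + `s59n_RedT2 p` ([A], [B] on the chart `t₂`), CHECKED `s59n_geoT2_of`
                         ([C] on the chart `t₂` = `s59n_toric_geo_t2`, helper7's branch, any `p ≠ 3`);
* (p, 3), `2 ∤ M`       node `s59n_Geo3Odd p` (auxiliary level `2` INSIDE the geometry; NOT a formal consequence of the even case);
* (p, 2)                node `s59n_Geo2 p` (chart `t₃` if `3 ∣ M`, auxiliary level `3` inside the geometry if `3 ∤ M`);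
* top: `s59n_MP35_of` CHECKED.
-/
import Fermat.Agent.Lib.S59.MAll
import Fermat.Agent.Lib.S59.NGeoTop
import Fermat.Agent.Lib.S59.NGeoT

set_option autoImplicit false
set_option linter.style.haveILetI false
set_option linter.unusedSectionVars false
set_option linter.unusedVariables false

namespace Fermat.Agent.Lib.S59

open ModularCurve AlgebraicCurve Fermat.Agent.Lib.FF Fermat.Agent.Lib.S28 Fermat.Agent.Lib.S29
  Fermat.Agent.Lib.S30 Fermat.Agent.Lib.S37 Fermat.Agent.Lib.S35 Fermat.Agent.Lib.S33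
  Fermat.Agent.Lib.S44 Fermat.Agent.Lib.S58 WeierstrassCurve

noncomputable section

local notation "Kb" => AlgebraicClosure ℚ
local notation "Γℚ" => (AlgebraicClosure ℚ ≃ₐ[ℚ] AlgebraicClosure ℚ)

/-! ### The target and the pointwise node -/

/-- **[MP′] for `p ∈ {3, 5}`** (= `s59_MP'` restricted to the two exponents of frozen S59). -/
def s59n_MP35 : Prop :=
  ∀ (p : ℕ), p.Prime → (p = 3 ∨ p = 5) → ∀ (W : WeierstrassCurve ℤ), W.Δ ≠ 0 →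
    W.IsSemistableModel → W.ModRepIsIrreducible p → ∀ (M q : ℕ), Squarefree M → q.Prime → q ≠ p →
    q ∣ M → s59_Unr W p q → W.IsResiduallyModularOfLevel p M →
    W.IsResiduallyModularOfLevel p (M / q) ∨ (p ∣ q - 1 ∧ s59_FrobScalar W p q)

/-- **[GEO] for the pair `(p, q)`**: `s59m_GeoAt p M q` at every squarefree level `M` prime to `q`. -/
def s59n_GeoPQ (p : ℕ) [Fact p.Prime] (q : ℕ) [NeZero q] (hq : q.Prime) : Prop :=
  ∀ (M : ℕ) [NeZero M] (hqM : ¬ q ∣ M), Squarefree M → s59m_GeoAt p M q hq hqM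

/-- **[MP′] at one pair `(p, q)` from [GEO] at `(p, q)`** (`p` odd; [M2′] and the non-Eisenstein prime are on main). -/
theorem s59n_MP_of_geoPQ {p : ℕ} [hpF : Fact p.Prime] (hp2 : p ≠ 2) {q : ℕ} [NeZero q] (hq : q.Prime)
    (hqp : q ≠ p) (hGeo : s59n_GeoPQ p q hq)
    (W : WeierstrassCurve ℤ) (hΔ : W.Δ ≠ 0) (hirr : W.ModRepIsIrreducible p)
    (M₀ : ℕ) (hM₀ : Squarefree M₀) (hqM₀ : q ∣ M₀) (hunr : s59_Unr W p q)
    (hres : W.IsResiduallyModularOfLevel p M₀) :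
    W.IsResiduallyModularOfLevel p (M₀ / q) ∨ (p ∣ q - 1 ∧ s59_FrobScalar W p q) := by
  obtain ⟨M, rfl⟩ : ∃ M, M₀ = M * q := ⟨M₀ / q, (Nat.div_mul_cancel hqM₀).symm⟩
  rw [Nat.mul_div_cancel _ hq.pos]
  have hM0 : M ≠ 0 := by
    rintro rfl
    rw [zero_mul] at hM₀
    exact not_squarefree_zero hM₀
  haveI : NeZero M := ⟨hM0⟩
  have hqM : ¬ q ∣ M := by
    rintro ⟨k, rfl⟩
    have h1 : q * q ∣ q * k * q := ⟨k, by ring⟩
    exact hq.one_lt.ne' (Nat.isUnit_iff.mp (hM₀ q h1))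
  have hsqM : Squarefree M := hM₀.squarefree_of_dvd (Dvd.intro _ rfl)
  exact s59m_MP'_at s59m_old s59m_nonEis hp2 W hΔ hirr M q hq hqM hqp hunr (hGeo M hqM hsqM) hres

/-! ### Branch `q ≥ 5`: [GEO] ⇐ [A] at the exponent `p` -/

/-- **[A] = FIN at the exponent `p`** (`s59n_Fin` of `NStar.lean` WITHOUT `5 ≤ p`, the exponent fixed). -/
def s59n_FinP (p : ℕ) [Fact p.Prime] : Prop :=
  ∀ (M q : ℕ) [NeZero M] [hq : Fact q.Prime] (hqM : ¬ q ∣ M), 5 ≤ q → p ≠ q →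
    ∀ (P : ValuationSubring Kb), P.LiesOverPrime q →
    ∀ (L : IntermediateField ℚ Kb) [FiniteDimensional ℚ ↥L] [Normal ℚ ↥L],
      (∀ τ ∈ P.inertiaSubgroupIn ℚ, ∀ a ∈ L, τ a = a) →
    ∀ x : JZero (M * q), p • x = 0 →
      (∀ σ : Γℚ, (∀ a ∈ L, σ a = a) → σ • x = x) →
      (∃ (ℓ₀ : Nat.Primes) (a₀ : ℤ), ¬ (ℓ₀ : ℕ) ∣ M * q ∧
        heckeOperatorBar (M * q) ℓ₀ x = a₀ • x ∧ ¬ (p : ℤ) ∣ a₀ - ((ℓ₀ : ℕ) + 1)) →
      s59n_Finite M q p hqM P x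

/-- [A] at every exponent `p ≥ 5` (main: `s59m_fin`). -/
theorem s59n_finP_of_five {p : ℕ} [Fact p.Prime] (hp5 : 5 ≤ p) : s59n_FinP p :=
  fun M q _ _ hqM h5q hpq P hP L _ _ hunr x hpx hfix hne =>
    s59m_fin M q hqM h5q p hp5 hpq P hP L hunr x hpx hfix hne

/-- **[GEO] at `(p, q)`, `q ≥ 5`, from [A] at the exponent `p`** ([B] = `s59m_red`, [C] = `s59n_toric_geo`: no hypothesis on `p`). -/
theorem s59n_geoBig_of_finP {p : ℕ} [Fact p.Prime] (hA : s59n_FinP p) {q : ℕ} [NeZero q]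
    (hq : q.Prime) (h5q : 5 ≤ q) (hqp : q ≠ p) : s59n_GeoPQ p q hq := by
  intro M _ hqM _ W hΔ B hB1 hne A hAq σ hσ hin x hE hfix
  obtain ⟨ℓ₀, hℓ₀B, hℓ₀⟩ := hne
  haveI : Fact q.Prime := ⟨hq⟩
  obtain ⟨L, hLfd, hLn, hL1, hL2⟩ := s59m_exists_LH W hΔ p
  haveI := hLfd
  haveI := hLn
  have hℓ₀N : ¬ (ℓ₀ : ℕ) ∣ M * q := fun hd => hℓ₀B (hB1 ℓ₀ ℓ₀.2 (hd.mul_right p))
  have hfin : s59n_Finite M q p hqM A x :=
    hA M q hqM h5q (Ne.symm hqp) A hAq L (fun τ hτ a ha => hL2 τ (hin τ hτ) a ha) x hE.1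
      (fun σ' hσ' => hfix σ' (hL1 σ' hσ')) ⟨ℓ₀, W.apOfModel ℓ₀, hℓ₀N, hE.2 ℓ₀ hℓ₀B, hℓ₀⟩
  rcases s59m_red M q hqM h5q p (Ne.symm hqp) A hAq _ B hB1 x hE hfin with h | h
  · exact Or.inl h
  · exact Or.inr (s59n_toric_geo M q hqM h5q p (Ne.symm hqp) A hAq h hσ)

/-- **(5, q ≥ 7): PROVED.** -/
theorem s59n_geo_five_big {q : ℕ} [NeZero q] (hq : q.Prime) (h5q : 5 ≤ q) (hq5 : q ≠ 5) :
    haveI : Fact (Nat.Prime 5) := ⟨Nat.prime_five⟩
    s59n_GeoPQ 5 q hq := by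
  haveI : Fact (Nat.Prime 5) := ⟨Nat.prime_five⟩
  exact s59n_geoBig_of_finP (s59n_finP_of_five le_rfl) hq h5q hq5

/-! ### Branch `q = 3`, `2 ∣ M`: the chart `t₂` -/

/-- **[A] on the chart `t₂`** (`q = 3`, `2 ∣ M`; node family `s33t_nodeN_t2`). -/
def s59n_FinT2 (p : ℕ) [Fact p.Prime] : Prop :=
  ∀ (M q : ℕ) [NeZero M] [hq : Fact q.Prime] (hqM : ¬ q ∣ M), q = 3 → 2 ∣ M → p ≠ q →
    ∀ (P : ValuationSubring Kb), P.LiesOverPrime q →
    ∀ (L : IntermediateField ℚ Kb) [FiniteDimensional ℚ ↥L] [Normal ℚ ↥L],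
      (∀ τ ∈ P.inertiaSubgroupIn ℚ, ∀ a ∈ L, τ a = a) →
    ∀ x : JZero (M * q), p • x = 0 →
      (∀ σ : Γℚ, (∀ a ∈ L, σ a = a) → σ • x = x) →
      (∃ (ℓ₀ : Nat.Primes) (a₀ : ℤ), ¬ (ℓ₀ : ℕ) ∣ M * q ∧
        heckeOperatorBar (M * q) ℓ₀ x = a₀ • x ∧ ¬ (p : ℤ) ∣ a₀ - ((ℓ₀ : ℕ) + 1)) →
      s59n_FiniteN M q p hqM P (s33t_nodeN_t2 M q hqM P) x

/-- **[B] on the chart `t₂`** (`q = 3`, `2 ∣ M`). -/
def s59n_RedT2 (p : ℕ) [Fact p.Prime] : Prop :=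
  ∀ (M q : ℕ) [NeZero M] [hq : Fact q.Prime] (hqM : ¬ q ∣ M), q = 3 → 2 ∣ M → p ≠ q →
    ∀ (P : ValuationSubring Kb), P.LiesOverPrime q →
    ∀ (a : ℕ → ℤ) (B : Finset ℕ), (∀ r : ℕ, r.Prime → r ∣ M * q * p → r ∈ B) →
    ∀ x : JZero (M * q), s44i_Eig (M * q) p a B x →
      s59n_FiniteN M q p hqM P (s33t_nodeN_t2 M q hqM P) x →
      (∃ y : JZero M, y ≠ 0 ∧ s44i_Eig M p a B y) ∨
        s59n_ToricN M q p hqM P (s33t_nodeN_t2 M q hqM P) x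

/-- **[GEO] at `(p, 3)`, `2 ∣ M`, from [A] and [B] on the chart `t₂`** ([C] on the chart `t₂` is `s59n_toric_geo_t2`). -/
theorem s59n_geoT2_of {p : ℕ} [Fact p.Prime] (hA : s59n_FinT2 p) (hB : s59n_RedT2 p) (h3p : 3 ≠ p)
    (M : ℕ) [NeZero M] (h3M : ¬ 3 ∣ M) (h2M : 2 ∣ M) :
    s59m_GeoAt p M 3 Nat.prime_three h3M := by
  intro W hΔ B hB1 hne A hAq σ hσ hin x hE hfix
  obtain ⟨ℓ₀, hℓ₀B, hℓ₀⟩ := hne
  haveI : Fact (Nat.Prime 3) := ⟨Nat.prime_three⟩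
  obtain ⟨L, hLfd, hLn, hL1, hL2⟩ := s59m_exists_LH W hΔ p
  haveI := hLfd
  haveI := hLn
  have hℓ₀N : ¬ (ℓ₀ : ℕ) ∣ M * 3 := fun hd => hℓ₀B (hB1 ℓ₀ ℓ₀.2 (hd.mul_right p))
  have hfin : s59n_FiniteN M 3 p h3M A (s33t_nodeN_t2 M 3 h3M A) x :=
    hA M 3 h3M rfl h2M (Ne.symm h3p) A hAq L (fun τ hτ a ha => hL2 τ (hin τ hτ) a ha) x hE.1
      (fun σ' hσ' => hfix σ' (hL1 σ' hσ')) ⟨ℓ₀, W.apOfModel ℓ₀, hℓ₀N, hE.2 ℓ₀ hℓ₀B, hℓ₀⟩
  rcases hB M 3 h3M rfl h2M (Ne.symm h3p) A hAq _ B hB1 x hE hfin with h | h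
  · exact Or.inl h
  · exact Or.inr (s59n_toric_geo_t2 M 3 h3M rfl h2M p (Ne.symm h3p) A hAq h hσ)

/-! ### The remaining branch nodes -/

/-- **[GEO] at `(p, 3)`, `2 ∤ M`**: auxiliary level `2` INSIDE the geometry (`x' = π₁^* x ∈ J₀(2 M · 3)[p]`, chart `t₂`;
toric case: `π₁_* π₁^* = 3` is prime to `p`; non-toric case: the reduction commutes with the correspondence `π₁^* π₁_*`, so
`π₁_* y' ≠ 0` at level `M`).  NOT a formal consequence of `s59m_GeoAt p (2 M) 3` (the (2, 3)-circularity). -/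
def s59n_Geo3Odd (p : ℕ) [Fact p.Prime] : Prop :=
  ∀ (M : ℕ) [NeZero M] (h3M : ¬ 3 ∣ M), ¬ 2 ∣ M → Squarefree M →
    s59m_GeoAt p M 3 Nat.prime_three h3M

/-- **[GEO] at `(p, 2)`**: chart `t₃` if `3 ∣ M` (needs the Σ-datum of `t₃` at `2`, the analogue of
`s33k_sd_exists_datum_three`, and [A], [B], [C] on it), auxiliary level `3` inside the geometry if `3 ∤ M`
(`π₁_* π₁^* = 4`). -/
def s59n_Geo2 (p : ℕ) [Fact p.Prime] : Prop :=
  ∀ (M : ℕ) [NeZero M] (h2M : ¬ 2 ∣ M), Squarefree M → s59m_GeoAt p M 2 Nat.prime_two h2M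

/-- **[GEO] at `(p, 3)` from the two sub-branches.** -/
theorem s59n_geo3_of {p : ℕ} [Fact p.Prime] (h3p : 3 ≠ p) (hA : s59n_FinT2 p) (hB : s59n_RedT2 p)
    (hOdd : s59n_Geo3Odd p) : s59n_GeoPQ p 3 Nat.prime_three := by
  intro M _ h3M hsq
  by_cases h2M : 2 ∣ M
  · exact s59n_geoT2_of hA hB h3p M h3M h2M
  · exact hOdd M h3M h2M hsq

/-! ### The top wiring -/

/-- **[MP′] for `p ∈ {3, 5}` from the branch nodes**:
`p = 5`: [A], [B] on the chart `t₂`, the odd branch at `3`, [GEO] at `2`;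
`p = 3`: [A] at the exponent `3` (`q ≥ 5`), [GEO] at `(3, 2)`. -/
theorem s59n_MP35_of
    (h5A : haveI : Fact (Nat.Prime 5) := ⟨Nat.prime_five⟩; s59n_FinT2 5)
    (h5B : haveI : Fact (Nat.Prime 5) := ⟨Nat.prime_five⟩; s59n_RedT2 5)
    (h5O : haveI : Fact (Nat.Prime 5) := ⟨Nat.prime_five⟩; s59n_Geo3Odd 5)
    (h52 : haveI : Fact (Nat.Prime 5) := ⟨Nat.prime_five⟩; s59n_Geo2 5)
    (h3A : haveI : Fact (Nat.Prime 3) := ⟨Nat.prime_three⟩; s59n_FinP 3)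
    (h32 : haveI : Fact (Nat.Prime 3) := ⟨Nat.prime_three⟩; s59n_Geo2 3) :
    s59n_MP35 := by
  intro p hp hp35 W hΔ _ hirr M₀ q hM₀ hq hqp hqM₀ hunr hres
  haveI : NeZero q := ⟨hq.ne_zero⟩
  have hq4 : q ≠ 4 := by
    rintro rfl
    exact absurd hq (by norm_num)
  have hq2 := hq.two_le
  rcases hp35 with rfl | rfl
  · -- `p = 3`
    haveI : Fact (Nat.Prime 3) := ⟨Nat.prime_three⟩
    by_cases h5q : 5 ≤ q
    · exact s59n_MP_of_geoPQ (by norm_num) hq hqp (s59n_geoBig_of_finP h3A hq h5q hqp) W hΔ hirr M₀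
        hM₀ hqM₀ hunr hres
    · have hq2' : q = 2 := by omega
      subst hq2'
      exact s59n_MP_of_geoPQ (by norm_num) Nat.prime_two hqp h32 W hΔ hirr M₀ hM₀ hqM₀ hunr hres
  · -- `p = 5`
    haveI : Fact (Nat.Prime 5) := ⟨Nat.prime_five⟩
    by_cases h5q : 5 ≤ q
    · exact s59n_MP_of_geoPQ (by norm_num) hq hqp (s59n_geo_five_big hq h5q hqp) W hΔ hirr M₀ hM₀
        hqM₀ hunr hres
    · have hq23 : q = 2 ∨ q = 3 := by omega
      rcases hq23 with rfl | rfl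
      · exact s59n_MP_of_geoPQ (by norm_num) Nat.prime_two hqp h52 W hΔ hirr M₀ hM₀ hqM₀ hunr hres
      · exact s59n_MP_of_geoPQ (by norm_num) Nat.prime_three hqp
          (s59n_geo3_of (by norm_num) h5A h5B h5O) W hΔ hirr M₀ hM₀ hqM₀ hunr hres

end

end Fermat.Agent.Lib.S59
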