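/-
Programme (R2) / node [MP-three], leaf [A] (helper7, prefix `s59nt_`): **BASE CHANGE `L → L₀ ⊇ L` OF THE NODE PLACES OF THE
CHART OF AN ARBITRARY FUNCTION `t`** (level `M p`): port of `s44e_restrict_chart`, `s44e_up_mem_ring`, `s44e_upB`,
`s44e_nodePlaces_restrict` (`Lib/S44/EBase.lean`, chart `{j regular}`) to the chart `{t regular}`, `t₀ = ι t_L`;
then `s59nt_finite_up_small`, `s59nt_finite_up_glob` = `NBase.lean` for the node family of the chart of `t`.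
-/
import Fermat.Agent.Lib.S59.NBase
import Fermat.Agent.Lib.S59.NDefsN

set_option autoImplicit false
set_option linter.unusedSectionVars false
set_option linter.style.haveILetI false
set_option synthInstance.maxHeartbeats 400000

noncomputable section

namespace Fermat.Agent.Lib.S59

open ModularCurve HahnSeries AlgebraicCurve Fermat.Agent.Lib.S18 Fermat.Agent.Lib.S28
  Fermat.Agent.Lib.S29 Fermat.Agent.Lib.S37 Fermat.Agent.Lib.FF Fermat.Agent.Lib.S34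
  Fermat.Agent.Lib.S35 Fermat.Agent.Lib.S33 Fermat.Agent.Lib.S44

local notation "Kb" => AlgebraicClosure ℚ

section Nodes

variable (M p : ℕ) [NeZero M] [hp : Fact p.Prime] (hpM : ¬ p ∣ M) (P : ValuationSubring Kb)
  {L L₀ : IntermediateField ℚ Kb} (hLL : L ≤ L₀)
  [IsDiscreteValuationRing ↥(s18q_A0 P L)] [IsDiscreteValuationRing ↥(s18q_A0 P L₀)]
  (ϖL : ↥(s18q_A0 P L)) (hϖL : Irreducible ϖL) (ϖ : ↥(s18q_A0 P L₀)) (hϖ : Irreducible ϖ)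
  (tL : s34m_F ↥L (M * p)) (t₀ : s34m_F ↥L₀ (M * p)) (hup : s44e_up hLL (M * p) tL = t₀)

set_option quotPrecheck false

local notation "VVL" => s34m_VV (s37r_G P L ϖL hϖL) (algebraMap ↥L Kb) M p hp.out hpM
local notation "VV₀" => s34m_VV (s37r_G P L₀ ϖ hϖ) (algebraMap ↥L₀ Kb) M p hp.out hpM
local notation "SL" => s18_chart1 (L₀ := ↥L) tL
local notation "S₀" => s18_chart1 (L₀ := ↥L₀) t₀

include hup in
/-- the restriction of a place of the chart `{j regular}` is in the chart. -/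
theorem s59nt_restrict_chart (Q : Place ↥L₀ (s34m_F ↥L₀ (M * p))) (Q' : Place ↥L (s34m_F ↥L (M * p)))
    (hmem : ∀ f : s34m_F ↥L (M * p),
      f ∈ Q'.toValuationSubring ↔ s44e_up hLL (M * p) f ∈ Q.toValuationSubring)
    (hQ : Q ∈ S₀) : Q' ∈ SL := by
  show tL ∈ Q'.toValuationSubring
  rw [hmem, hup]
  exact hQ

include hup in
/-- `ι` maps the chart ring of `L` into the chart ring of `L₀`. -/
theorem s59nt_up_mem_ring (b : s34m_F ↥L (M * p)) (hb : b ∈ s34x_ring (s34x_infRing VVL) SL) :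
    s44e_up hLL (M * p) b ∈ s34x_ring (s34x_infRing VV₀) S₀ := by
  refine ⟨(s34x_mem_infRing _ _).mpr (fun i =>
    s44e_up_mem_VV P hLL ϖL hϖL ϖ hϖ M p hp.out hpM i ((s34x_mem_infRing _ _).mp hb.1 i)),
    fun Q hQ => ?_⟩
  obtain ⟨Q', -, hmem⟩ := s44e_exists_restrict hLL (M * p) Q
  exact (hmem b).mp (hb.2 Q' (s59nt_restrict_chart M p hLL tL t₀ hup Q Q' hmem hQ))

/-- `ι` on the chart rings. -/
def s59nt_upB : s34x_ring (s34x_infRing VVL) SL →+* s34x_ring (s34x_infRing VV₀) S₀ :=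
  (s44e_up hLL (M * p)).restrict _ _ (s59nt_up_mem_ring M p hpM P hLL ϖL hϖL ϖ hϖ tL t₀ hup)

theorem s59nt_coe_upB (b : s34x_ring (s34x_infRing VVL) SL) :
    ((s59nt_upB M p hpM P hLL ϖL hϖL ϖ hϖ tL t₀ hup b : s34x_ring (s34x_infRing VV₀) S₀) :
      s34m_F ↥L₀ (M * p)) = s44e_up hLL (M * p) (b : s34m_F ↥L (M * p)) := rfl

include hup in
set_option maxHeartbeats 1600000 in
/-- **node places restrict to node places.** -/
theorem s59nt_nodePlaces_restrict (Q : Place ↥L₀ (s34m_F ↥L₀ (M * p)))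
    (Q' : Place ↥L (s34m_F ↥L (M * p)))
    (hord : ∀ f : s34m_F ↥L (M * p), Q.ord (s44e_up hLL (M * p) f) = Q'.ord f)
    (hmem : ∀ f : s34m_F ↥L (M * p),
      f ∈ Q'.toValuationSubring ↔ s44e_up hLL (M * p) f ∈ Q.toValuationSubring)
    (hQ : Q ∈ s33s_nodePlaces VV₀ (s34m_unif (s37r_G P L₀ ϖ hϖ) (M * p)) S₀) :
    Q' ∈ s33s_nodePlaces VVL (s34m_unif (s37r_G P L ϖL hϖL) (M * p)) SL := by
  obtain ⟨hQS, 𝔫, h𝔫, hth⟩ := hQ
  have hQ'S := s59nt_restrict_chart M p hLL tL t₀ hup Q Q' hmem hQS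
  refine ⟨hQ'S, ?_⟩
  set I : Ideal (s34x_ring (s34x_infRing VVL) SL) :=
    Ideal.comap (s59nt_upB M p hpM P hLL ϖL hϖL ϖ hϖ tL t₀ hup) 𝔫 with hI
  have hI1 : I ≠ ⊤ := by
    intro htop
    have h1 : (1 : s34x_ring (s34x_infRing VVL) SL) ∈ I := by rw [htop]; trivial
    rw [hI, Ideal.mem_comap, map_one] at h1
    exact h𝔫.1.ne_top ((Ideal.eq_top_iff_one _).mpr h1)
  obtain ⟨𝔪, h𝔪, hle⟩ := Ideal.exists_le_maximal I hI1
  obtain ⟨c, hc⟩ := s44e_unif_dvd hLL P ϖL hϖL ϖ hϖ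
  have hcomp : ∀ i, s33s_comp VVL (s34m_unif (s37r_G P L ϖL hϖL) (M * p)) SL i ≤ 𝔪 := by
    intro i b hb
    apply hle
    rw [hI, Ideal.mem_comap]
    obtain ⟨z, hz, e⟩ := (s33s_mem_comp _ _ _ i b).mp hb
    have hmem' : s59nt_upB M p hpM P hLL ϖL hϖL ϖ hϖ tL t₀ hup b ∈
        s33s_comp VV₀ (s34m_unif (s37r_G P L₀ ϖ hϖ) (M * p)) S₀ i := by
      rw [s33s_mem_comp]
      refine ⟨algebraMap ↥L₀ (s34m_F ↥L₀ (M * p)) (c : ↥L₀) * s44e_up hLL (M * p) z,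
        (VV₀ i).mul_mem _ _ (s34c_const_mem_VV (s37r_G P L₀ ϖ hϖ) (algebraMap ↥L₀ Kb) M p hp.out hpM
          i c) (s44e_up_mem_VV P hLL ϖL hϖL ϖ hϖ M p hp.out hpM i hz), ?_⟩
      rw [s59nt_coe_upB, e, map_mul]
      have h2 : s44e_up hLL (M * p) (s34m_unif (s37r_G P L ϖL hϖL) (M * p)) =
          s34m_unif (s37r_G P L₀ ϖ hϖ) (M * p) * algebraMap ↥L₀ (s34m_F ↥L₀ (M * p)) (c : ↥L₀) := by
        unfold s34m_unif
        rw [s44e_up_const, ← map_mul]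
        exact congrArg _ hc
      rw [h2]
      ring
    cases i
    · exact h𝔫.2.2 hmem'
    · exact h𝔫.2.1 hmem'
  refine ⟨𝔪, ⟨h𝔪, hcomp true, hcomp false⟩, fun b hb0 hbpos => ?_⟩
  apply hle
  rw [hI, Ideal.mem_comap]
  refine hth _ ?_ ?_
  · rw [s59nt_coe_upB]
    exact (map_ne_zero _).mpr hb0
  · rw [s59nt_coe_upB, hord]
    exact hbpos


end Nodes

section T2

variable (M q : ℕ) [NeZero M] [hq : Fact q.Prime] (hqM : ¬ q ∣ M) (p : ℕ) (P : ValuationSubring Kb)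
  {L L₀ : IntermediateField ℚ Kb} (hLL : L ≤ L₀)
  [IsDiscreteValuationRing ↥(s18q_A0 P L)] [IsDiscreteValuationRing ↥(s18q_A0 P L₀)]
  (ϖL : ↥(s18q_A0 P L)) (hϖL : Irreducible ϖL) (ϖ : ↥(s18q_A0 P L₀)) (hϖ : Irreducible ϖ)

/-- `ι` maps the function with `q`-expansion `t₂` to the function with `q`-expansion `t₂`. -/
theorem s59nt_up_t2 (N : ℕ) [NeZero N] (tL : s34m_F ↥L N)
    (htL : (tL : LaurentSeries ↥L) = s18u_t2 ↥L) :
    ((s44e_up hLL N tL : s34m_F ↥L₀ N) : LaurentSeries ↥L₀) = s18u_t2 ↥L₀ := by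
  unfold s44e_up
  rw [s18q_map_coe, htL, s18u_coeffMap_t2]

include hLL in
set_option maxHeartbeats 800000 in
/-- **BASE CHANGE, one level, node family of the `t₂`-chart.** -/
theorem s59nt_finite_up_small_t2 (x : JZero (M * q))
    (tL : s34m_F ↥L (M * q)) (htL : (tL : LaurentSeries ↥L) = s18u_t2 ↥L)
    (h : s34m_F ↥L (M * q)) (hK : s33d_IsKumGen p x (s18q_incl (M * q) L h))
    (h1 : h ∈ s34m_Vinf (s37r_G P L ϖL hϖL) (M * q))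
    (h1' : h⁻¹ ∈ s34m_Vinf (s37r_G P L ϖL hϖL) (M * q))
    (h2 : h ∈ s34m_Vzero (s37r_G P L ϖL hϖL) (algebraMap ↥L Kb) M q hq.out hqM)
    (h2' : h⁻¹ ∈ s34m_Vzero (s37r_G P L ϖL hϖL) (algebraMap ↥L Kb) M q hq.out hqM)
    (hN : ∀ Q ∈ s33s_nodePlaces (s34m_VV (s37r_G P L ϖL hϖL) (algebraMap ↥L Kb) M q hq.out hqM)
      (s34m_unif (s37r_G P L ϖL hϖL) (M * q)) (s18_chart1 (L₀ := ↥L) tL), Q.ord h = 0) :
    ∃ h : s34m_F ↥L₀ (M * q),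
      s33d_IsKumGen p x (s18q_incl (M * q) L₀ h) ∧
      h ∈ s34m_Vinf (s37r_G P L₀ ϖ hϖ) (M * q) ∧ h⁻¹ ∈ s34m_Vinf (s37r_G P L₀ ϖ hϖ) (M * q) ∧
      h ∈ s34m_Vzero (s37r_G P L₀ ϖ hϖ) (algebraMap ↥L₀ Kb) M q hq.out hqM ∧
      h⁻¹ ∈ s34m_Vzero (s37r_G P L₀ ϖ hϖ) (algebraMap ↥L₀ Kb) M q hq.out hqM ∧
      ∀ Q ∈ s33t_nodeN_t2 M q hqM P L₀ ϖ hϖ, Q.ord h = 0 := by
  haveI : NeZero q := ⟨hq.out.ne_zero⟩
  refine ⟨s44e_up hLL (M * q) h, ?_, ?_, ?_, ?_, ?_, ?_⟩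
  · rw [s44e_incl_up]
    exact hK
  · exact s44e_up_mem_Vinf P hLL ϖL hϖL ϖ hϖ (M * q) h1
  · rw [← map_inv₀]
    exact s44e_up_mem_Vinf P hLL ϖL hϖL ϖ hϖ (M * q) h1'
  · exact s44e_up_mem_Vzero P hLL ϖL hϖL ϖ hϖ M q hq.out hqM h2
  · rw [← map_inv₀]
    exact s44e_up_mem_Vzero P hLL ϖL hϖL ϖ hϖ M q hq.out hqM h2'
  · intro Q hQ
    rw [s33t_nodeN_t2_eq M q hqM P L₀ ϖ hϖ (s44e_up hLL (M * q) tL)
      (s59nt_up_t2 hLL (M * q) tL htL)] at hQ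
    obtain ⟨Q', hord, hmem⟩ := s44e_exists_restrict hLL (M * q) Q
    rw [hord]
    exact hN Q' (s59nt_nodePlaces_restrict M q hqM P hLL ϖL hϖL ϖ hϖ tL _ rfl Q Q' hord hmem hQ)

include hLL in
set_option maxHeartbeats 800000 in
/-- **(G6) output over `L` on the `t₂`-chart ⇒ the `L₀`-instance of the body of `s59n_FiniteN … s33t_nodeN_t2`**, for ONE
`L₀ ⊇ L`. -/
theorem s59nt_finite_up_glob_t2 (x : JZero (M * q))
    (tL : s34m_F ↥L (M * q)) (htL : (tL : LaurentSeries ↥L) = s18u_t2 ↥L)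
    (f G h : s34m_F ↥L (M * q)) (a : ℤ)
    (hK : s33d_IsKumGen p x (s18q_incl (M * q) L f)) (hG : G ≠ 0)
    (e : f = G ^ p * (s34m_unif (s37r_G P L ϖL hϖL) (M * q) ^ a * h))
    (hO : ∀ i, h ∈ s34m_VV (s37r_G P L ϖL hϖL) (algebraMap ↥L Kb) M q hq.out hqM i ∧
      h⁻¹ ∈ s34m_VV (s37r_G P L ϖL hϖL) (algebraMap ↥L Kb) M q hq.out hqM i)
    (hN : ∀ Q ∈ s33s_nodePlaces (s34m_VV (s37r_G P L ϖL hϖL) (algebraMap ↥L Kb) M q hq.out hqM)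
      (s34m_unif (s37r_G P L ϖL hϖL) (M * q)) (s18_chart1 (L₀ := ↥L) tL), Q.ord h = 0) :
    ∃ h : s34m_F ↥L₀ (M * q),
      s33d_IsKumGen p x (s18q_incl (M * q) L₀ h) ∧
      h ∈ s34m_Vinf (s37r_G P L₀ ϖ hϖ) (M * q) ∧ h⁻¹ ∈ s34m_Vinf (s37r_G P L₀ ϖ hϖ) (M * q) ∧
      h ∈ s34m_Vzero (s37r_G P L₀ ϖ hϖ) (algebraMap ↥L₀ Kb) M q hq.out hqM ∧
      h⁻¹ ∈ s34m_Vzero (s37r_G P L₀ ϖ hϖ) (algebraMap ↥L₀ Kb) M q hq.out hqM ∧
      ∀ Q ∈ s33t_nodeN_t2 M q hqM P L₀ ϖ hϖ, Q.ord h = 0 :=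
  s59nt_finite_up_small_t2 M q hqM p P hLL ϖL hϖL ϖ hϖ x tL htL h
    (s59n_kumGen_of_glob M q p P ϖL hϖL x f G h a hK hG e) (hO true).1 (hO true).2 (hO false).1
    (hO false).2 hN

end T2

end Fermat.Agent.Lib.S59
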