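/-
Programme (R2) / node [MP-three], leaf [A] (helper7, prefix `s59nt_`): **(NZ) "NO NODE AT `t = 0`" FOR THE CHART `{t regular}`
OF THE HAUPTMODUL `t₂`** (residue characteristic `≠ 2`), by reduction to helper6's (NI) for the chart `{j ≠ 0}` — the
mirror of `s33n_no_node_transfer` (`Lib/S33/SSNoInfT.lean`): `g = t + 256`, `g³ j⁻¹ = t²`.

* `s59nt_no_node_at_zero`        : abstract form (`j t² = (t + 256)³`, `256 ∉ 𝔫`);
* **`s59nt_no_node_at_zero_t2`** : the modular instance, level `M q`, `q` odd;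
* **`s59nt_j_regular_of_node_t2`**: every place of the chart `{t regular}` through a node is a place at which `j` is regular
  (so the modular units `g₀`, `η₂` have order `0` there).
-/
import Fermat.Agent.Lib.S33.SSNoInfT

set_option autoImplicit false
set_option linter.style.haveILetI false
set_option linter.unusedSectionVars false

noncomputable section

namespace Fermat.Agent.Lib.S59

open ModularCurve AlgebraicCurve HahnSeries Polynomial Fermat.Agent.Lib.FF Fermat.Agent.Lib.S18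
  Fermat.Agent.Lib.S28 Fermat.Agent.Lib.S34 Fermat.Agent.Lib.S37 Fermat.Agent.Lib.S33

local notation "Kb" => AlgebraicClosure ℚ

section Transfer

variable {L₀ 𝓕 : Type*} [Field L₀] [Field 𝓕] [Algebra L₀ 𝓕]
variable (O : Bool → ValuationSubring 𝓕) (π : 𝓕)

/-- **(NZ) from (NI) for the chart `{j ≠ 0}`** when `j t² = (t + 256)³` and `256` is a unit at the prime. -/
theorem s59nt_no_node_at_zero (j t : 𝓕) (hj0 : j ≠ 0) (ht0 : t ≠ 0)
    (hrel : j * t ^ 2 = (t + 256) ^ 3) (hjO : j⁻¹ ∈ s34x_infRing O) (htO : t ∈ s34x_infRing O)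
    (hfin : ∀ b : 𝓕, b ≠ 0 → {Q : Place L₀ 𝓕 | Q.ord b < 0}.Finite)
    (hNI : ∀ (𝔪 : Ideal (s34x_ring (s34x_infRing O) (s18_chart2 (L₀ := L₀) j))) [𝔪.IsPrime],
      s33s_comp O π (s18_chart2 (L₀ := L₀) j) true ≤ 𝔪 →
      s33s_comp O π (s18_chart2 (L₀ := L₀) j) false ≤ 𝔪 →
      ∀ h : j⁻¹ ∈ s34x_ring (s34x_infRing O) (s18_chart2 (L₀ := L₀) j),
        (⟨j⁻¹, h⟩ : s34x_ring (s34x_infRing O) (s18_chart2 (L₀ := L₀) j)) ∉ 𝔪)
    (𝔫 : Ideal (s34x_ring (s34x_infRing O) (s18_chart1 (L₀ := L₀) t))) [h𝔫 : 𝔫.IsPrime]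
    (h1 : s33s_comp O π (s18_chart1 (L₀ := L₀) t) true ≤ 𝔫)
    (h2 : s33s_comp O π (s18_chart1 (L₀ := L₀) t) false ≤ 𝔫)
    (h256 : (⟨256, ofNat_mem _ 256⟩ : s34x_ring (s34x_infRing O) (s18_chart1 (L₀ := L₀) t)) ∉ 𝔫) :
    (⟨t, ⟨htO, fun _ hQ => hQ⟩⟩ : s34x_ring (s34x_infRing O) (s18_chart1 (L₀ := L₀) t)) ∉ 𝔫 := by
  classical
  intro hv
  have htB : t ∈ s34x_ring (s34x_infRing O) (s18_chart1 (L₀ := L₀) t) := ⟨htO, fun _ hQ => hQ⟩
  -- the function `g = t + 256`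
  set g : 𝓕 := t + 256 with hgdef
  have hgB : g ∈ s34x_ring (s34x_infRing O) (s18_chart1 (L₀ := L₀) t) :=
    add_mem htB (ofNat_mem _ 256)
  have hg3 : g ^ 3 = j * t ^ 2 := hrel.symm
  have hg0 : g ≠ 0 := by
    intro h0
    rw [h0] at hg3
    exact mul_ne_zero hj0 (pow_ne_zero 2 ht0) (by rw [← hg3]; ring)
  have hg𝔫 : (⟨g, hgB⟩ : s34x_ring (s34x_infRing O) (s18_chart1 (L₀ := L₀) t)) ∉ 𝔫 := by
    intro hg𝔫
    have e : (⟨g, hgB⟩ : s34x_ring (s34x_infRing O) (s18_chart1 (L₀ := L₀) t)) =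
        ⟨t, htB⟩ + ⟨256, ofNat_mem _ 256⟩ := Subtype.ext rfl
    rw [e] at hg𝔫
    have := 𝔫.sub_mem hg𝔫 hv
    rw [add_sub_cancel_left] at this
    exact h256 this
  -- `B₂(j) ⊆ B₁(t)[1/g]`
  have H : ∀ b ∈ s34x_ring (s34x_infRing O) (s18_chart2 (L₀ := L₀) j),
      ∃ k : ℕ, g ^ k * b ∈ s34x_ring (s34x_infRing O) (s18_chart1 (L₀ := L₀) t) := by
    intro b hb
    by_cases hb0 : b = 0
    · exact ⟨0, by rw [hb0, mul_zero]; exact (s34x_ring _ _).zero_mem⟩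
    have hfinb := hfin b hb0
    set k : ℕ := hfinb.toFinset.sup (fun Q => (-(Q.ord b)).toNat) with hk
    have hkQ : ∀ Q : Place L₀ 𝓕, Q.ord b < 0 → -(Q.ord b) ≤ (k : ℤ) := by
      intro Q hQ
      have hQT : Q ∈ hfinb.toFinset := by rw [Set.Finite.mem_toFinset]; exact hQ
      have h1 : (-(Q.ord b)).toNat ≤ k := Finset.le_sup (f := fun Q => (-(Q.ord b)).toNat) hQT
      have h2 : -(Q.ord b) ≤ ((-(Q.ord b)).toNat : ℤ) := Int.self_le_toNat _
      exact h2.trans (by exact_mod_cast h1)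
    refine ⟨k, mul_mem (pow_mem hgB.1 k) hb.1, fun Q hQ => ?_⟩
    have hgQ : g ∈ Q.toValuationSubring := hgB.2 Q hQ
    by_cases hneg : Q.ord b < 0
    · -- a pole of `b`: a zero of `j`, hence of `g`
      have hjQ : ¬ j⁻¹ ∈ Q.toValuationSubring := by
        intro h
        have := (ff_mem_iff_ord_nonneg Q hb0).mp (hb.2 Q h)
        omega
      have hordj : 0 < Q.ord j := by
        by_contra hcon
        apply hjQ
        rw [ff_mem_iff_ord_nonneg Q (inv_ne_zero hj0), Q.ord_inv]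
        omega
      have hordt : 0 ≤ Q.ord t := (ff_mem_iff_ord_nonneg Q ht0).mp hQ
      have h3 : (3 : ℤ) * Q.ord g = Q.ord j + 2 * Q.ord t := by
        have := congrArg Q.ord hg3
        rw [s33n_ord_pow, Q.ord_mul hj0 (pow_ne_zero 2 ht0), s33n_ord_pow] at this
        exact_mod_cast this
      have hordg : 1 ≤ Q.ord g := by omega
      rw [ff_mem_iff_ord_nonneg Q (mul_ne_zero (pow_ne_zero _ hg0) hb0),
        Q.ord_mul (pow_ne_zero _ hg0) hb0, s33n_ord_pow]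
      have h1 := hkQ Q hneg
      have h2 : (k : ℤ) * 1 ≤ (k : ℤ) * Q.ord g :=
        mul_le_mul_of_nonneg_left hordg (Int.natCast_nonneg k)
      linarith
    · have hbQ : b ∈ Q.toValuationSubring := (ff_mem_iff_ord_nonneg Q hb0).mpr (not_lt.mp hneg)
      exact Q.toValuationSubring.mul_mem _ _ (pow_mem hgQ k) hbQ
  -- contract and conclude
  set 𝔞 := s33n_contractG O (s18_chart2 (L₀ := L₀) j) (s18_chart1 (L₀ := L₀) t) g hgB H 𝔫 with h𝔞
  have hne : 𝔞 ≠ ⊤ := s33n_contractG_ne_top O _ _ g hgB H 𝔫 hg𝔫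
  obtain ⟨𝔪, h𝔪, hle⟩ := Ideal.exists_le_maximal 𝔞 hne
  haveI := h𝔪.isPrime
  have hjB : j⁻¹ ∈ s34x_ring (s34x_infRing O) (s18_chart2 (L₀ := L₀) j) :=
    ⟨hjO, fun _ hQ => hQ⟩
  refine hNI 𝔪 ((s33n_comp_le_contractG O π _ _ g hgB H 𝔫 true h1).trans hle)
    ((s33n_comp_le_contractG O π _ _ g hgB H 𝔫 false h2).trans hle) hjB (hle ?_)
  refine ⟨3, ⟨t, htB⟩ ^ 2, 𝔫.pow_mem_of_mem hv 2 (by norm_num), ?_⟩
  show t ^ 2 = g ^ 3 * j⁻¹
  rw [hg3]
  field_simp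

end Transfer

section ModularT

variable {K₀ : Type*} [Field K₀] [Algebra ℚ K₀] {κ : Type*} [Field κ] (G : s18g_GaussData K₀ κ)
variable (φ : K₀ →+* Kb) (M q : ℕ) [NeZero M] [NeZero q]

/-- the residue characteristic lies in every prime of a chart ring containing a component prime. -/
theorem s59nt_natCast_mem_of_comp [CharP κ q] (hq : q.Prime) (hqM : ¬ q ∣ M)
    (S : Set (Place K₀ (s34m_F K₀ (M * q))))
    (𝔫 : Ideal (s34x_ring (s34x_infRing (s34m_VV G φ M q hq hqM)) S))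
    (h1 : s33s_comp (s34m_VV G φ M q hq hqM) (s34m_unif G (M * q)) S true ≤ 𝔫) :
    ((q : ℕ) : s34x_ring (s34x_infRing (s34m_VV G φ M q hq hqM)) S) ∈ 𝔫 := by
  apply h1
  have hq0 : G.π ((q : ℕ) : G.A) = 0 := by
    rw [map_natCast]
    exact CharP.cast_eq_zero κ q
  rw [G.π_eq_zero_iff] at hq0
  obtain ⟨c, hc⟩ := hq0
  refine ⟨algebraMap K₀ (s34m_F K₀ (M * q)) (c : K₀),
    s34c_const_mem_VV G φ M q hq hqM true c, ?_⟩
  show (((q : ℕ) : s34x_ring (s34x_infRing (s34m_VV G φ M q hq hqM)) S) : s34m_F K₀ (M * q)) =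
    algebraMap K₀ (s34m_F K₀ (M * q)) ((G.ϖ : G.A) : K₀) * algebraMap K₀ (s34m_F K₀ (M * q)) (c : K₀)
  rw [← map_mul]
  have e : ((G.ϖ : G.A) : K₀) * (c : K₀) = ((q : ℕ) : K₀) := by
    have := congrArg (fun x : G.A => (x : K₀)) hc
    push_cast at this
    exact this.symm
  rw [e, map_natCast]
  push_cast
  rfl

/-- **(NZ) for the chart `{t regular}` of the Hauptmodul `t₂`**, `q` odd. -/
theorem s59nt_no_node_at_zero_t2 [CharP κ q] (hq : q.Prime) (hqM : ¬ q ∣ M) (hq2 : q ≠ 2)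
    (t : s34m_F K₀ (M * q)) (ht : (t : LaurentSeries K₀) = s18u_t2 K₀)
    (htO : t ∈ s34x_infRing (s34m_VV G φ M q hq hqM))
    (𝔫 : Ideal (s34x_ring (s34x_infRing (s34m_VV G φ M q hq hqM)) (s18_chart1 (L₀ := K₀) t)))
    [h𝔫 : 𝔫.IsPrime]
    (h1 : s33s_comp (s34m_VV G φ M q hq hqM) (s34m_unif G (M * q)) (s18_chart1 (L₀ := K₀) t) true
      ≤ 𝔫)
    (h2 : s33s_comp (s34m_VV G φ M q hq hqM) (s34m_unif G (M * q)) (s18_chart1 (L₀ := K₀) t) false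
      ≤ 𝔫) :
    (⟨t, ⟨htO, fun _ hQ => hQ⟩⟩ :
      s34x_ring (s34x_infRing (s34m_VV G φ M q hq hqM)) (s18_chart1 (L₀ := K₀) t)) ∉ 𝔫 := by
  refine s59nt_no_node_at_zero (s34m_VV G φ M q hq hqM) (s34m_unif G (M * q))
    (s18g_jF (K := K₀) (M * q)) t (s18g_jF_ne_zero (M * q)) (s33n_t2_ne_zero (M * q) t ht)
    (s33n_rel_t2 (M * q) t ht) (s34d2_j_inv_mem_O G φ M q hq hqM) htO
    (fun b hb => s33n_finite_poles φ (M * q) b hb)
    (fun 𝔪 _ hm1 hm2 _ => s33n_no_node_at_infty G φ M q hq hqM 𝔪 hm1 hm2) 𝔫 h1 h2 ?_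
  -- `256 ∉ 𝔫`
  intro h256
  have hqn := s59nt_natCast_mem_of_comp G φ M q hq hqM _ 𝔫 h1
  have hcop : IsCoprime ((256 : ℕ) : ℤ) ((q : ℕ) : ℤ) := by
    rw [Nat.isCoprime_iff_coprime]
    have h2' : Nat.Coprime 2 q := (Nat.coprime_primes Nat.prime_two hq).mpr (Ne.symm hq2)
    have : (256 : ℕ) = 2 ^ 8 := by norm_num
    rw [this]
    exact Nat.Coprime.pow_left 8 h2'
  obtain ⟨a, b, hab⟩ := hcop
  have h256' : ((256 : ℕ) : s34x_ring (s34x_infRing (s34m_VV G φ M q hq hqM))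
      (s18_chart1 (L₀ := K₀) t)) ∈ 𝔫 := by
    have e : ((256 : ℕ) : s34x_ring (s34x_infRing (s34m_VV G φ M q hq hqM))
        (s18_chart1 (L₀ := K₀) t)) = ⟨256, ofNat_mem _ 256⟩ := by
      apply Subtype.ext
      push_cast
      rfl
    rw [e]
    exact h256
  have hone : (1 : s34x_ring (s34x_infRing (s34m_VV G φ M q hq hqM))
      (s18_chart1 (L₀ := K₀) t)) ∈ 𝔫 := by
    have := congrArg (Int.cast : ℤ → s34x_ring (s34x_infRing (s34m_VV G φ M q hq hqM))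
      (s18_chart1 (L₀ := K₀) t)) hab
    push_cast at this
    rw [← this]
    exact 𝔫.add_mem (𝔫.mul_mem_left _ (by exact_mod_cast h256'))
      (𝔫.mul_mem_left _ (by exact_mod_cast hqn))
  exact h𝔫.ne_top ((Ideal.eq_top_iff_one 𝔫).mpr hone)

/-- **the places of the chart `{t regular}` through a node are places at which `j` is regular.** -/
theorem s59nt_j_regular_of_node_t2 [CharP κ q] (hq : q.Prime) (hqM : ¬ q ∣ M) (hq2 : q ≠ 2)
    (t : s34m_F K₀ (M * q)) (ht : (t : LaurentSeries K₀) = s18u_t2 K₀)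
    (htO : t ∈ s34x_infRing (s34m_VV G φ M q hq hqM))
    (𝔫 : Ideal (s34x_ring (s34x_infRing (s34m_VV G φ M q hq hqM)) (s18_chart1 (L₀ := K₀) t)))
    (h𝔫 : s33s_IsNode (s34m_VV G φ M q hq hqM) (s34m_unif G (M * q)) (s18_chart1 (L₀ := K₀) t) 𝔫)
    (Q : Place K₀ (s34m_F K₀ (M * q))) (hQ : Q ∈ s18_chart1 (L₀ := K₀) t)
    (hth : s34f_through (s34x_infRing (s34m_VV G φ M q hq hqM)) (s18_chart1 (L₀ := K₀) t) 𝔫 Q) :
    0 ≤ Q.ord (s18g_jF (K := K₀) (M * q)) := by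
  haveI := h𝔫.1.isPrime
  have ht0 : t ≠ 0 := s33n_t2_ne_zero (M * q) t ht
  have hj0 : s18g_jF (K := K₀) (M * q) ≠ 0 := s18g_jF_ne_zero (M * q)
  have hnz := s59nt_no_node_at_zero_t2 G φ M q hq hqM hq2 t ht htO 𝔫 h𝔫.2.1 h𝔫.2.2
  have hordt : 0 ≤ Q.ord t := (ff_mem_iff_ord_nonneg Q ht0).mp hQ
  have hordt0 : Q.ord t = 0 := by
    by_contra hne
    have hpos : 0 < Q.ord t := lt_of_le_of_ne hordt (Ne.symm hne)
    exact hnz (hth ⟨t, ⟨htO, fun _ hQ => hQ⟩⟩ ht0 hpos)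
  have hrel := s33n_rel_t2 (M * q) t ht
  have hg0 : t + 256 ≠ 0 := by
    intro h0
    rw [h0] at hrel
    exact mul_ne_zero hj0 (pow_ne_zero 2 ht0) (by rw [hrel]; ring)
  have hgQ : t + 256 ∈ Q.toValuationSubring :=
    Q.toValuationSubring.add_mem _ _ hQ (ofNat_mem _ 256)
  have hordg : 0 ≤ Q.ord (t + 256) := (ff_mem_iff_ord_nonneg Q hg0).mp hgQ
  have h3 : Q.ord (s18g_jF (K := K₀) (M * q)) + 2 * Q.ord t = 3 * Q.ord (t + 256) := by
    have := congrArg Q.ord hrel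
    rw [Q.ord_mul hj0 (pow_ne_zero 2 ht0), s33n_ord_pow, s33n_ord_pow] at this
    exact_mod_cast this
  omega

end ModularT

end Fermat.Agent.Lib.S59
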