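/-
Programme (R2) / node [MP-three], leaf [A] = FIN (tame (★)) (helper7, prefix `s59nt_`):
**(★) OVER A FIXED FIELD `L₀ ≤ ℚ̄`, TAME CASE, FOR THE Σ-DATUM OF AN ARBITRARY COORDINATE `w` OF LEVEL `M`** (chart
`{α w regular}`, `s33s_datumW`), exponent `p` free, with an ABSTRACT modular unit `η` (`η ϖ^{-k} ∈ V_∞^×`, `η ϖ^{k} ∈ V_0^×`,
order `0` at the places through the nodes, `p ∤ 2 k`).

Port of `NStarAbs.lean` (section `Five`) and `NStarField.lean` with `s33s_datum_five` replaced by `s33s_datumW`: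
* `s59nt_W_unit_of_delta` : `δ υ = 0` ⇒ `υ = ϖ ^ a ·` (a unit of `V_∞` and of `V_0`);
* `s59nt_W_eta`           : the abstract unit is admissible;
* `s59nt_W_star_tame_tau` : (★), local form, tame case, `T = τ_ℓ`;
* **`s59nt_star_tame_W`** : (★) over `L₀`: exact (Q4) at the nodes of the chart `{α w regular}` ⇒ `f = Gg ^ p · ϖ ^ a · h`,
  `h` a unit of `V_∞` and of `V_0` of order `0` at the node places.
-/
import Fermat.Agent.Lib.S59.NStarAbs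
import Fermat.Agent.Lib.S44.KStar
import Fermat.Agent.Lib.S44.EGlobInst

set_option autoImplicit false
set_option linter.style.haveILetI false
set_option linter.unusedSectionVars false
set_option synthInstance.maxHeartbeats 400000

noncomputable section

namespace Fermat.Agent.Lib.S59

open AlgebraicCurve ModularCurve HahnSeries Polynomial Fermat.Agent.Lib.FF Fermat.Agent.Lib.S18
  Fermat.Agent.Lib.S33 Fermat.Agent.Lib.S34 Fermat.Agent.Lib.S35 Fermat.Agent.Lib.S36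
  Fermat.Agent.Lib.S37 Fermat.Agent.Lib.S44

local notation "Kb" => AlgebraicClosure ℚ

section W

variable (M q : ℕ) [NeZero M] [hq : Fact q.Prime] (hqM : ¬ q ∣ M)
  (L₀ : IntermediateField ℚ Kb) [NumberField ↥L₀]
  (κ : Type) [Field κ] [CharP κ q] [PerfectField κ]
  (G : s18g_GaussData ↥L₀ κ) [IsDiscreteValuationRing G.A]
  (hdeg : s34m_HDeg ↥L₀ M q) (hT : s18g_HT κ M) (hdegM : s18g_HDeg ↥L₀ M)
  (hπ : Function.Surjective G.π)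
  (e : ℕ) (ε : ↥L₀) (he : 0 < e) (hε : ε ∈ G.A) (hεinv : ε⁻¹ ∈ G.A) (hε0 : ε ≠ 0)
  (hqe : (q : ↥L₀) = ε * ((G.ϖ : G.A) : ↥L₀) ^ e) (hperf : ∀ c : κ, ∃ d : κ, d ^ q = c)

variable (w : ↥(laurentBaseChange ↥L₀ (modularFunctionFieldFull M)))
    (hwV : w ∈ s18g_V G (laurentBaseChange ↥L₀ (modularFunctionFieldFull M)) (fun (f : LaurentSeries ↥L₀) (hf : f ∈ laurentBaseChange ↥L₀ (modularFunctionFieldFull M)) => s18g_baseChange_mem_Frac G M hf))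
    (hcoord : s37b_Coord κ q
      ((s18g_redF G M (fun (f : LaurentSeries ↥L₀) (hf : f ∈ laurentBaseChange ↥L₀ (modularFunctionFieldFull M)) => s18g_baseChange_mem_Frac G M hf) hT hdegM ⟨w, hwV⟩ : ↥(modularFunctionFieldFullC κ M)) : LaurentSeries κ))
    (hwtw : ∀ τ : κ ≃+* κ, ModularCurve.coeffMap (τ : κ →+* κ)
      ((s18g_redF G M (fun (f : LaurentSeries ↥L₀) (hf : f ∈ laurentBaseChange ↥L₀ (modularFunctionFieldFull M)) => s18g_baseChange_mem_Frac G M hf) hT hdegM ⟨w, hwV⟩ : ↥(modularFunctionFieldFullC κ M)) : LaurentSeries κ) =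
      ((s18g_redF G M (fun (f : LaurentSeries ↥L₀) (hf : f ∈ laurentBaseChange ↥L₀ (modularFunctionFieldFull M)) => s18g_baseChange_mem_Frac G M hf) hT hdegM ⟨w, hwV⟩ : ↥(modularFunctionFieldFullC κ M)) : LaurentSeries κ))
    (hmain : letI := s18f_algF G M hT hdegM w hwV
      ∀ z : ↥(modularFunctionFieldFullC κ M), IsIntegral κ[X] z →
        ∃ (b : ↥(laurentBaseChange ↥L₀ (modularFunctionFieldFull M))) (hb : b ∈ s18_ring (L₀ := ↥L₀) (s18g_V G (laurentBaseChange ↥L₀ (modularFunctionFieldFull M)) (fun (f : LaurentSeries ↥L₀) (hf : f ∈ laurentBaseChange ↥L₀ (modularFunctionFieldFull M)) => s18g_baseChange_mem_Frac G M hf)) (s18_chart1 w)),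
          s18g_redF G M (fun (f : LaurentSeries ↥L₀) (hf : f ∈ laurentBaseChange ↥L₀ (modularFunctionFieldFull M)) => s18g_baseChange_mem_Frac G M hf) hT hdegM ⟨b, hb.1⟩ = z)
    (wN : ↥(laurentBaseChange ↥L₀ (modularFunctionFieldFull (M * q)))) (hwN : heckeAlphaBar ↥L₀ M q w = wN) [FFGen ↥L₀ wN]
    (hαN : ∀ y ∈ s34x_infRing (s34m_VV G (algebraMap ↥L₀ Kb) M q hq.out hqM), ∃ s : G.A[X], s.map G.π ≠ 0 ∧
      (s18b_ev G (laurentBaseChange ↥L₀ (modularFunctionFieldFull (M * q))) wN).IsIntegralElem (s18b_ev G (laurentBaseChange ↥L₀ (modularFunctionFieldFull (M * q))) wN s * y))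
    (hαB : ∀ g ∈ (s18_ring (L₀ := ↥L₀) (s34m_Vinf G M) (s18_chart1 w) : Set (s34m_F ↥L₀ M)),
      heckeAlphaBar ↥L₀ M q g ∈ s34x_ring (s34x_infRing (s34m_VV G (algebraMap ↥L₀ Kb) M q hq.out hqM))
        (s18_chart1 (L₀ := ↥L₀) wN))
    (hβB : ∀ g ∈ (s18_ring (L₀ := ↥L₀) (s34m_Vinf G M) (s18_chart1 w) : Set (s34m_F ↥L₀ M)),
      ∃ b' ∈ s34x_ring (s34x_infRing (s34m_VV G (algebraMap ↥L₀ Kb) M q hq.out hqM)) (s18_chart1 (L₀ := ↥L₀) wN),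
      ∃ z, z ∈ s34m_Vinf G (M * q) ∧ z ∈ s34m_Vzero G (algebraMap ↥L₀ Kb) M q hq.out hqM ∧
        b' - heckeBetaBar ↥L₀ M q g = s34m_unif G (M * q) * z)
    (hnodeE : ∃ 𝔫, s33s_IsNode (s34m_VV G (algebraMap ↥L₀ Kb) M q hq.out hqM) (s34m_unif G (M * q))
      (s18_chart1 (L₀ := ↥L₀) wN) 𝔫)

set_option quotPrecheck false

local notation "φ₀" => algebraMap ↥L₀ Kb
local notation "OO" => s34m_VV G (algebraMap ↥L₀ Kb) M q hq.out hqM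
local notation "ϖF" => s34m_unif G (M * q)
local notation "SW" => s18_chart1 (L₀ := ↥L₀) wN
local notation "ZW" => s33s_datumW G (algebraMap ↥L₀ Kb) M q hqM hdeg hT hdegM hπ e ε he hε hεinv hε0 hqe hperf w hwV
  hcoord hwtw hmain wN hwN hαN hαB hβB hnodeE

/-- `δ υ = 0` ⇒ `υ = ϖ ^ a ·` (a unit of `V_∞` and of `V_0`), for `s33s_datumW`. -/
theorem s59nt_W_unit_of_delta {υ : s34m_F ↥L₀ (M * q)} (hυ : υ ≠ 0)
    (hδ : s44c_delta ZW υ = 0) :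
    ∃ a : ℤ, ∀ i, υ * ϖF ^ (-a) ∈ OO i ∧ (υ * ϖF ^ (-a))⁻¹ ∈ OO i := by
  set Z := ZW with hZ
  have hi := s44c_v_spec (D := Z.Di) hυ
  have hz := s44c_v_spec (D := Z.Dz) hυ
  have hδ' : s44c_v Z.Dz υ = s44c_v Z.Di υ := by
    unfold s44c_delta at hδ
    omega
  rw [hδ'] at hz
  have hπ0 : s34m_unif G (M * q) ≠ 0 := s34m_unif_ne_zero G (M * q)
  refine ⟨s44c_v Z.Di υ, fun i => ?_⟩
  have key : ∀ u : s34m_F ↥L₀ (M * q), u ≠ 0 →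
      υ = s34m_unif G (M * q) ^ (s44c_v Z.Di υ) * u →
      υ * s34m_unif G (M * q) ^ (-(s44c_v Z.Di υ)) = u := by
    intro u _ e
    rw [zpow_neg]
    nth_rewrite 1 [e]
    field_simp
  cases i
  · obtain ⟨u, hu0, hu, hu', e⟩ := hz
    have e' := key u hu0 e
    rw [e']
    exact ⟨hu, hu'⟩
  · obtain ⟨u, hu0, hu, hu', e⟩ := hi
    have e' := key u hu0 e
    rw [e']
    exact ⟨hu, hu'⟩

/-- **an abstract modular unit** (`η ϖ^{-k} ∈ V_∞^×`, `η ϖ^{k} ∈ V_0^×`, order `0` at the places through the nodes) **is an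
admissible `η` for the exponent `p`** as soon as `p ∤ 2 k`. -/
theorem s59nt_W_eta {p : ℕ} {η : s34m_F ↥L₀ (M * q)} (hη0 : η ≠ 0) (k : ℕ)
    (hord : ∀ s : s33s_Node OO ϖF SW, ∀ Q ∈ s44c_thr OO SW s.1, Q.ord η = 0)
    (hinf : η * (ϖF ^ k)⁻¹ ∈ s34m_Vinf G (M * q) ∧ (η * (ϖF ^ k)⁻¹)⁻¹ ∈ s34m_Vinf G (M * q))
    (hzero : η * ϖF ^ k ∈ s34m_Vzero G φ₀ M q hq.out hqM ∧
      (η * ϖF ^ k)⁻¹ ∈ s34m_Vzero G φ₀ M q hq.out hqM)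
    (hp1 : ¬ p ∣ 2 * k) :
    (∀ s : s33s_Node OO ϖF SW, s44c_Unit (s44c_thr OO SW s.1) η) ∧
      ¬ (p : ℤ) ∣ s44c_delta ZW η := by
  set Z := ZW with hZ
  have hϖ0 : s34m_unif G (M * q) ≠ 0 := s34m_unif_ne_zero G (M * q)
  refine ⟨fun s => ⟨hη0, fun Q hQ => hord s Q hQ⟩, ?_⟩
  have hi : s44c_Val Z.Di ((k : ℕ) : ℤ) η := by
    refine ⟨η * (s34m_unif G (M * q) ^ k)⁻¹,
      mul_ne_zero hη0 (inv_ne_zero (pow_ne_zero _ hϖ0)), hinf.1, hinf.2, ?_⟩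
    show η = s34m_unif G (M * q) ^ ((k : ℕ) : ℤ) * _
    rw [zpow_natCast]
    field_simp
  have hz : s44c_Val Z.Dz (-((k : ℕ) : ℤ)) η := by
    refine ⟨η * s34m_unif G (M * q) ^ k,
      mul_ne_zero hη0 (pow_ne_zero _ hϖ0), hzero.1, hzero.2, ?_⟩
    show η = s34m_unif G (M * q) ^ (-((k : ℕ) : ℤ)) * _
    rw [zpow_neg, zpow_natCast]
    field_simp
  rw [s44c_delta_eq hi hz]
  intro hd
  apply hp1
  have h1 : ((p : ℕ) : ℤ) ∣ ((2 * k : ℕ) : ℤ) := by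
    push_cast at hd ⊢
    have : (-(k : ℤ) - (k : ℤ)) = -(2 * (k : ℤ)) := by ring
    rw [this] at hd
    exact (dvd_neg.mp hd)
  exact Int.natCast_dvd_natCast.mp h1

variable (ℓ : ℕ) [hℓ : Fact ℓ.Prime] (hℓN : ¬ ℓ ∣ M * q)
  (ζ₀ : (↥L₀)ˣ) (hζ₀ : IsPrimitiveRoot (ζ₀ : ↥L₀) ℓ)
  (p : ℕ) [hp : Fact p.Prime]

/-- (T4) on `V_∞` for `s33s_datumW`. -/
theorem s59nt_W_tau_val_i (n : ℤ) (x : s34m_F ↥L₀ (M * q)) (h : s44c_Val (ZW).Di n x) :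
    s44c_Val (ZW).Di (n * ((ℓ : ℤ) + 1)) (s33t_tau (M * q) ℓ hℓN L₀ ζ₀ hζ₀ x) := by
  have hx0 : x ≠ 0 := h.ne_zero
  obtain ⟨u, hu0, hu, hu', e1⟩ := h
  obtain ⟨u₁, hu₁, hu₁', e₁⟩ := s44h_tau_val_Vinf (M * q) ℓ hℓN L₀ ζ₀ hζ₀ G n hu0 hu hu' e1
  refine ⟨u₁, ?_, hu₁, hu₁', e₁⟩
  rintro rfl
  rw [mul_zero] at e₁
  exact s33t_tau_ne_zero (M * q) ℓ hℓN L₀ ζ₀ hζ₀ x hx0 e₁

/-- (T4) on `V_0` for `s33s_datumW`. -/
theorem s59nt_W_tau_val_z (n : ℤ) (x : s34m_F ↥L₀ (M * q)) (h : s44c_Val (ZW).Dz n x) :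
    s44c_Val (ZW).Dz (n * ((ℓ : ℤ) + 1)) (s33t_tau (M * q) ℓ hℓN L₀ ζ₀ hζ₀ x) := by
  have hx0 : x ≠ 0 := h.ne_zero
  obtain ⟨u, hu0, hu, hu', e1⟩ := h
  obtain ⟨u₁, hu₁, hu₁', e₁⟩ := s44h_tau_val_Vzero M q hqM ℓ hℓN L₀ ζ₀ hζ₀ G n hu0 hu hu' e1
  refine ⟨u₁, ?_, hu₁, hu₁', e₁⟩
  rintro rfl
  rw [mul_zero] at e₁
  exact s33t_tau_ne_zero (M * q) ℓ hℓN L₀ ζ₀ hζ₀ x hx0 e₁

include hℓN hζ₀ in
/-- **(★), LOCAL FORM, TAME CASE, for `s33s_datumW` over `L₀ ≤ ℚ̄` with `T = τ_ℓ`**, level `M * q`, `f` a Kummer generator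
(exponent `p`) of a `T_ℓ`-eigenclass `x` with `a₀ ≢ ℓ + 1 mod p`. -/
theorem s59nt_W_star_tame_tau {f : s34m_F ↥L₀ (M * q)}
    (hnode : ∀ s : s33s_Node OO ϖF SW, ∃ φ' E : s34m_F ↥L₀ (M * q), f = φ' ^ p * E ∧
      s44c_Unit (s44c_thr OO SW s.1) E)
    {x : JZero (M * q)} (hf : s33d_IsKumGen p x (s18q_incl (M * q) L₀ f)) (a₀ : ℤ)
    (hx : heckeOperatorBar (M * q) ⟨ℓ, hℓ.out⟩ x = a₀ • x)
    (ha₀ : ¬ (p : ℤ) ∣ a₀ - ((ℓ : ℤ) + 1))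
    {η : s34m_F ↥L₀ (M * q)}
    (hη : ∀ s : s33s_Node OO ϖF SW, s44c_Unit (s44c_thr OO SW s.1) η)
    (hη2 : ¬ (p : ℤ) ∣ s44c_delta ZW η)
    (s : s33s_Node OO ϖF SW) :
    ∃ (g' υ : s34m_F ↥L₀ (M * q)) (a' : ℤ), f = g' ^ p * υ ∧
      (∀ i, υ * ϖF ^ (-a') ∈ OO i ∧ (υ * ϖF ^ (-a'))⁻¹ ∈ OO i) ∧
      ∀ Q ∈ SW, s34f_through (s34x_infRing OO) SW s.1 Q → Q.ord υ = 0 := by
  have hf0 : f ≠ 0 := fun h0 => hf.1 (by rw [h0, map_zero])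
  obtain ⟨c₀, g, hc₀, hg, hrel⟩ := s44c_hecke_rel (M * q) ℓ hℓN L₀ ζ₀ hζ₀ p hf a₀ hx
  have hm : ¬ (p : ℤ) ∣ (ℓ : ℤ) + 1 - a₀ := fun hd => ha₀ (by
    have := dvd_neg.mpr hd
    rwa [neg_sub] at this)
  obtain ⟨g', υ, e1, hU, hδ⟩ := s59n_star_local_tame (Z := ZW)
    (Ns := fun s : s33s_Node OO ϖF SW => s44c_thr OO SW s.1) hp.out hf0 hnode
    (s33t_tau (M * q) ℓ hℓN L₀ ζ₀ hζ₀) ℓ
    (s59nt_W_tau_val_i M q hqM L₀ κ G hdeg hT hdegM hπ e ε he hε hεinv hε0 hqe hperf w hwV hcoord hwtw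
      hmain wN hwN hαN hαB hβB hnodeE ℓ hℓN ζ₀ hζ₀)
    (s59nt_W_tau_val_z M q hqM L₀ κ G hdeg hT hdegM hπ e ε he hε hεinv hε0 hqe hperf w hwV hcoord hwtw
      hmain wN hwN hαN hαB hβB hnodeE ℓ hℓN ζ₀ hζ₀)
    hc₀ hg a₀ hrel hm hη hη2 s
  obtain ⟨a', ha'⟩ := s59nt_W_unit_of_delta M q hqM L₀ κ G hdeg hT hdegM hπ e ε he hε hεinv hε0 hqe
    hperf w hwV hcoord hwtw hmain wN hwN hαN hαB hβB hnodeE hU.1 hδ
  exact ⟨g', υ, a', e1, ha', fun Q hQ hth => hU.2 Q ⟨hQ, hth⟩⟩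

include hdeg hT hdegM hπ he hε hεinv hε0 hqe hperf hℓN hζ₀ hcoord hwtw hmain hwN hαN hαB hβB hnodeE in
set_option maxHeartbeats 3200000 in
/-- **(★) over the field `L₀`, TAME CASE, level `M * q`, exponent `p`, coordinate `w`.** -/
theorem s59nt_star_tame_W {η : s34m_F ↥L₀ (M * q)} (hη0 : η ≠ 0) (k : ℕ)
    (hord : ∀ s : s33s_Node OO ϖF SW, ∀ Q ∈ s44c_thr OO SW s.1, Q.ord η = 0)
    (hinf : η * (ϖF ^ k)⁻¹ ∈ s34m_Vinf G (M * q) ∧ (η * (ϖF ^ k)⁻¹)⁻¹ ∈ s34m_Vinf G (M * q))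
    (hzero : η * ϖF ^ k ∈ s34m_Vzero G φ₀ M q hq.out hqM ∧
      (η * ϖF ^ k)⁻¹ ∈ s34m_Vzero G φ₀ M q hq.out hqM)
    (hp1 : ¬ p ∣ 2 * k)
    {x : JZero (M * q)} {f : s34m_F ↥L₀ (M * q)}
    (hf : s33d_IsKumGen p x (s18q_incl (M * q) L₀ f)) (a₀ : ℤ)
    (hx : heckeOperatorBar (M * q) ⟨ℓ, hℓ.out⟩ x = a₀ • x)
    (ha₀ : ¬ (p : ℤ) ∣ a₀ - ((ℓ : ℤ) + 1))
    (hQ4 : ∀ s : s33s_Node OO ϖF SW,
      ∃ Φ : s34m_F ↥L₀ (M * q), Φ ≠ 0 ∧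
        ∀ Q ∈ SW, s34f_through (s34x_infRing OO) SW s.1 Q →
          Q.ord f = ((p : ℕ) : ℤ) * Q.ord Φ) :
    ∃ (Gg h : s34m_F ↥L₀ (M * q)) (a : ℤ), Gg ≠ 0 ∧
      f = Gg ^ p * (ϖF ^ a * h) ∧
      (∀ i, h ∈ OO i ∧ h⁻¹ ∈ OO i) ∧
      ∀ Q ∈ s33s_nodePlaces OO ϖF SW, Q.ord h = 0 := by
  haveI : NeZero q := ⟨hq.out.ne_zero⟩
  haveI : NeZero p := ⟨hp.out.ne_zero⟩
  have hf0 : f ≠ 0 := (s33d_kum_of_gen (M * q) p L₀ hf).1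
  obtain ⟨hη, hη2⟩ := s59nt_W_eta M q hqM L₀ κ G hdeg hT hdegM hπ e ε he hε hεinv hε0 hqe hperf w hwV
    hcoord hwtw hmain wN hwN hαN hαB hβB hnodeE (p := p) hη0 k hord hinf hzero hp1
  -- the node factorisations
  have hnode : ∀ s : s33s_Node OO ϖF SW,
      ∃ φ' E : s34m_F ↥L₀ (M * q), f = φ' ^ p * E ∧ s44c_Unit (s44c_thr OO SW s.1) E := by
    intro s
    obtain ⟨Φ, hΦ0, hΦ⟩ := hQ4 s
    refine ⟨Φ, f / Φ ^ p, ?_, div_ne_zero hf0 (pow_ne_zero p hΦ0), fun Q hQ => ?_⟩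
    · rw [mul_div_cancel₀ _ (pow_ne_zero _ hΦ0)]
    · rw [div_eq_mul_inv, Q.ord_mul hf0 (inv_ne_zero (pow_ne_zero p hΦ0)), Q.ord_inv,
        ← zpow_natCast, Q.ord_zpow, hΦ Q hQ.1 hQ.2]
      ring
  haveI := s44e_finite_node_W G φ₀ M q hqM hdeg hT hdegM w hwV hcoord hwtw hmain wN hwN hαN hαB hβB
  exact s44e_glob_modular G φ₀ M q hqM SW hnodeE p hp.out.ne_zero f hf0
    (fun s => s59nt_W_star_tame_tau M q hqM L₀ κ G hdeg hT hdegM hπ e ε he hε hεinv hε0 hqe hperf w hwV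
      hcoord hwtw hmain wN hwN hαN hαB hβB hnodeE ℓ hℓN ζ₀ hζ₀ p hnode hf a₀ hx ha₀ hη hη2 s)

end W

end Fermat.Agent.Lib.S59
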