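/-
Programme (R2) / node [MP-three], leaf [A] (helper7, prefix `s59nt_`): **helper8's MODULAR UNIT `g₀ = h⁶ · α(X) / β(X)` AT THE
LEVEL PRIME `p = 3`** (`p ∤ M`, `M` arbitrary): port of `s44e_unit_ord_bar_gen`, `s44e_unit_ord_K`, `s44e_g0_ord`,
`s44e_exists_unit` (`Lib/S44/EUnitLevel.lean`, `EUnitK.lean`, `EUnit.lean`) with the auxiliary level `36 M` replaced by `4 M`
(`ν₂(4 M) = 0`, and `ν₃(4 M) = 0` because `2 ≡ 2 mod 3` divides `4 M`; `3 ∤ 4 M`).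

* **`s59nt_exists_unit_three`** : `(3) = ε ϖ^e`: there is `g₀ ∈ 𝓕ˣ` with neither zero nor pole at the places at which `j` is
  regular, `g₀ = ϖ^(6e) · (unit of V_∞) = ϖ^(-6e) · (unit of V_0)`.
-/
import Fermat.Agent.Lib.S44.EUnit

set_option autoImplicit false
set_option linter.unusedSectionVars false
set_option linter.style.haveILetI false
set_option synthInstance.maxHeartbeats 200000

noncomputable section

namespace Fermat.Agent.Lib.S59

open AlgebraicCurve ModularCurve KaehlerDifferential HahnSeries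
open Fermat.Agent.Lib.FF Fermat.Agent.Lib.S18 Fermat.Agent.Lib.S37 Fermat.Agent.Lib.S36
  Fermat.Agent.Lib.S34 Fermat.Agent.Lib.S44

local notation "Kb" => AlgebraicClosure ℚ

/-! ### `ν₂(4 M) = ν₃(4 M) = 0` -/

theorem s59nt_nuThree_two : nuThree 2 = 0 := by
  rw [nuThree]
  haveI : IsEmpty {x : ZMod 2 // x ^ 2 + x + 1 = 0} := ⟨fun ⟨x, hx⟩ => by revert x; decide⟩
  exact Nat.card_of_isEmpty

theorem s59nt_nuTwo_4M (M : ℕ) : nuTwo (4 * M) = 0 :=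
  s36u_nuTwo_mul 4 M s44e_nuTwo_four

theorem s59nt_nuThree_4M (M : ℕ) : nuThree (4 * M) = 0 := by
  have e : 4 * M = 2 * (2 * M) := by ring
  rw [e]
  exact s36u_nuThree_mul 2 (2 * M) s59nt_nuThree_two

/-! ### The unit at level `M p`, `p = 3`, over `Q̄` -/

section LevelBar

variable (M p : ℕ) [NeZero M] [NeZero p]

theorem s59nt_dvd_level : M * p ∣ 4 * M * p := ⟨4, by ring⟩

/-- **The modular unit has neither zero nor pole where `j` is regular**, level `M p` over `Q̄`,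
any `M` prime to the prime `p`. -/
theorem s59nt_unit_ord_bar_three (hp : p.Prime) (hpM : ¬ p ∣ M) (hp3 : p = 3)
    (h : ffi_F (M * p)) (hh : h ≠ 0)
    (hrel : D Kb (ffi_F (M * p)) (heckeBetaBar Kb M p (ffd_jBar M)) =
      h • D Kb (ffi_F (M * p)) (ffd_jBar (M * p)))
    (v : Place Kb (ffi_F (M * p))) (hreg : 0 ≤ v.ord (ffd_jBar (M * p))) :
    6 * v.ord h + 4 * v.ord (ffd_jBar (M * p)) +
        3 * v.ord (ffd_jBar (M * p) - algebraMap Kb (ffi_F (M * p)) 1728) -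
        4 * v.ord (heckeBetaBar Kb M p (ffd_jBar M)) -
        3 * v.ord (heckeBetaBar Kb M p (ffd_jBar M) - algebraMap Kb (ffi_F (M * p)) 1728) = 0 := by
  have hpM' : ¬ p ∣ 4 * M := by
    intro hd
    rcases (Nat.Prime.dvd_mul hp).mp hd with h4 | hM
    · subst hp3
      omega
    · exact hpM hM
  set ι : ffi_F (M * p) →ₐ[Kb] ffi_F (4 * M * p) :=
    s37l_incl (M * p) (4 * M * p) (s59nt_dvd_level M p) with hι
  obtain ⟨hιint, W, hW⟩ := s44e_exists_place_above (M * p) (4 * M * p) ι v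
  set e : ℕ := Place.ramificationIndexAlong ι W with he
  have hepos : 0 < e := s36u_ramIdx_pos ι hιint W
  have hord : ∀ f : ffi_F (M * p), W.ord (ι f) = (e : ℤ) * v.ord f := by
    intro f
    have := Place.ord_restrictAlong ι hιint W f
    rw [hW] at this
    exact this
  have hιA : ι (ffd_jBar (M * p)) = ffd_jBar (4 * M * p) := by
    apply Subtype.ext
    rw [hι, s37l_coe_incl, ffd_jBar_coe, ffd_jBar_coe]
  have hιB : ι (heckeBetaBar Kb M p (ffd_jBar M)) =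
      heckeBetaBar Kb (4 * M) p (ffd_jBar (4 * M)) := by
    apply Subtype.ext
    rw [hι, s37l_coe_incl, coe_heckeBetaBar, coe_heckeBetaBar, ffd_jBar_coe, ffd_jBar_coe]
  have hιc : ∀ c : Kb, ι (algebraMap Kb (ffi_F (M * p)) c) =
      algebraMap Kb (ffi_F (4 * M * p)) c := fun c => ι.commutes c
  have hrel' := s36r_D_map (RingHom.id Kb) (ι : ffi_F (M * p) →+* ffi_F (4 * M * p))
    (fun a => ι.commutes a) hrel
  simp only [RingHom.coe_coe] at hrel'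
  rw [hιA, hιB] at hrel'
  have hh' : ι h ≠ 0 := (map_ne_zero _).mpr hh
  have hreg' : 0 ≤ W.ord (ffd_jBar (4 * M * p)) := by
    rw [← hιA, hord]
    positivity
  have key := s44e_unit_ord_bar (4 * M) p hp hpM' (s59nt_nuTwo_4M M) (s59nt_nuThree_4M M)
    (ι h) hh' hrel' W hreg'
  rw [← hιA, ← hιB, ← hιc, ← map_sub, ← map_sub, hord, hord, hord, hord, hord] at key
  have hepos' : (0 : ℤ) < e := by exact_mod_cast hepos
  have : (e : ℤ) * (6 * v.ord h + 4 * v.ord (ffd_jBar (M * p)) +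
        3 * v.ord (ffd_jBar (M * p) - algebraMap Kb (ffi_F (M * p)) 1728) -
        4 * v.ord (heckeBetaBar Kb M p (ffd_jBar M)) -
        3 * v.ord (heckeBetaBar Kb M p (ffd_jBar M) - algebraMap Kb (ffi_F (M * p)) 1728)) = 0 := by
    linarith
  rcases mul_eq_zero.mp this with h0 | h0
  · omega
  · exact h0

end LevelBar

/-! ### Over an arbitrary field `K₀ ⊆ Q̄` -/

section Places

variable {K₀ : Type*} [Field K₀] [Algebra ℚ K₀] (φ : K₀ →+* Kb) (M p : ℕ) [NeZero M] [NeZero p]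

include φ in
/-- **The modular unit has neither zero nor pole where `j` is regular**, over `K₀`. -/
theorem s59nt_unit_ord_K_three (hp : p.Prime) (hpM : ¬ p ∣ M) (hp3 : p = 3)
    (h : s34m_F K₀ (M * p)) (hh : h ≠ 0)
    (hrel : D K₀ (s34m_F K₀ (M * p)) (heckeBetaBar K₀ M p (s18g_jF (K := K₀) M)) =
      h • D K₀ (s34m_F K₀ (M * p)) (s18g_jF (K := K₀) (M * p)))
    (Q : Place K₀ (s34m_F K₀ (M * p))) (hreg : 0 ≤ Q.ord (s18g_jF (K := K₀) (M * p))) :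
    6 * Q.ord h + 4 * Q.ord (s18g_jF (K := K₀) (M * p)) +
        3 * Q.ord (s18g_jF (K := K₀) (M * p) - algebraMap K₀ (s34m_F K₀ (M * p)) 1728) -
        4 * Q.ord (heckeBetaBar K₀ M p (s18g_jF (K := K₀) M)) -
        3 * Q.ord (heckeBetaBar K₀ M p (s18g_jF (K := K₀) M) -
          algebraMap K₀ (s34m_F K₀ (M * p)) 1728) = 0 := by
  obtain ⟨ρ, hsurj, hord⟩ := s18r_exists_restrict φ (M * p)
  obtain ⟨P, rfl⟩ := hsurj Q
  set ι := s34m_iota φ (M * p) with hι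
  have hιA : ι (s18g_jF (K := K₀) (M * p)) = ffd_jBar (M * p) := s18r_map_jF φ (M * p)
  have hιB : ι (heckeBetaBar K₀ M p (s18g_jF (K := K₀) M)) =
      heckeBetaBar Kb M p (ffd_jBar M) := by
    rw [hι, s34m_iota_beta]
    congr 1
    exact s18r_map_jF φ M
  have hι1728 : ι (algebraMap K₀ (s34m_F K₀ (M * p)) 1728) =
      algebraMap Kb (ffi_F (M * p)) 1728 := by
    rw [hι, s18q_map_algebraMap, map_ofNat]
  have hrel' := s36r_D_map φ (ι : s34m_F K₀ (M * p) →+* ffi_F (M * p))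
    (fun a => s18q_map_algebraMap φ (modularFunctionFieldFull (M * p)) a) hrel
  rw [hιA, hιB] at hrel'
  have hh' : ι h ≠ 0 := (map_ne_zero _).mpr hh
  have hreg' : 0 ≤ P.ord (ffd_jBar (M * p)) := by
    rw [← hιA, hord]; exact hreg
  have key := s59nt_unit_ord_bar_three M p hp hpM hp3 (ι h) hh' hrel' P hreg'
  rw [← hιA, ← hιB, ← hι1728, ← map_sub, ← map_sub, hord, hord, hord, hord, hord] at key
  exact key

end Places

/-! ### The packaged unit -/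

section Level

variable {K₀ : Type*} [Field K₀] [CharZero K₀] [Algebra ℚ K₀] {κ : Type*} [Field κ]
  (G : s18g_GaussData K₀ κ) (φ : K₀ →+* Kb) (M p : ℕ) [NeZero M] [NeZero p]
  (hp : p.Prime) (hpM : ¬ p ∣ M)

local notation "𝓕" => s34m_F K₀ (M * p)
local notation "jA" => heckeAlphaBar K₀ M p (s18g_jF (K := K₀) M)
local notation "jB" => heckeBetaBar K₀ M p (s18g_jF (K := K₀) M)

include hp hpM φ in
/-- **`ord_Q g₀ = 0` wherever `j` is regular.** -/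
theorem s59nt_g0_ord_three (hp3 : p = 3) (h : 𝓕)
    (hrel : D K₀ 𝓕 (jB : 𝓕) = h • D K₀ 𝓕 (jA : 𝓕))
    (Q : Place K₀ 𝓕) (hreg : 0 ≤ Q.ord (s18g_jF (K := K₀) (M * p))) :
    Q.ord (s44e_g0 M p h) = 0 := by
  have hh := s44e_h_ne_zero φ M p hp hpM h hrel
  have hX := s44e_X_ne_zero (K₀ := K₀) M
  have hαX : heckeAlphaBar K₀ M p (s44e_X K₀ M) ≠ 0 := (map_ne_zero _).mpr hX
  have hβX : heckeBetaBar K₀ M p (s44e_X K₀ M) ≠ 0 := (map_ne_zero _).mpr hX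
  have hjA : (jA : 𝓕) = s18g_jF (K := K₀) (M * p) := Subtype.ext rfl
  have hrel' : D K₀ 𝓕 (jB : 𝓕) = h • D K₀ 𝓕 (s18g_jF (K := K₀) (M * p)) := by
    rw [← hjA]; exact hrel
  have key := s59nt_unit_ord_K_three φ M p hp hpM hp3 h hh hrel' Q hreg
  -- the factors
  have hαX' := hαX
  have hβX' := hβX
  rw [s44e_alpha_X] at hαX'
  rw [s44e_beta_X] at hβX'
  have hA4 : (jA : 𝓕) ^ 4 ≠ 0 := left_ne_zero_of_mul hαX'
  have hA3 : ((jA : 𝓕) - algebraMap K₀ 𝓕 1728) ^ 3 ≠ 0 := right_ne_zero_of_mul hαX'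
  have hB4 : (jB : 𝓕) ^ 4 ≠ 0 := left_ne_zero_of_mul hβX'
  have hB3 : ((jB : 𝓕) - algebraMap K₀ 𝓕 1728) ^ 3 ≠ 0 := right_ne_zero_of_mul hβX'
  rw [s44e_g0, Q.ord_mul (pow_ne_zero 6 hh) (mul_ne_zero hαX (inv_ne_zero hβX)),
    Q.ord_mul hαX (inv_ne_zero hβX), Q.ord_inv, s44e_alpha_X, s44e_beta_X,
    Q.ord_mul hA4 hA3, Q.ord_mul hB4 hB3, s44e_ord_pow, s44e_ord_pow, s44e_ord_pow,
    s44e_ord_pow, s44e_ord_pow, hjA]
  push_cast
  linarith

include hp hpM in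
/-- **THE MODULAR UNIT, packaged.**  `(p) = ε ϖ^e`.  There is `g₀ ∈ 𝓕ˣ` with neither zero nor
pole at the places at which `j` is regular, `g₀ = ϖ^(6e) · (unit of V_∞) = ϖ^(-6e) · (unit of V_0)`. -/
theorem s59nt_exists_unit_three (hp3 : p = 3) (e : ℕ) (ε : K₀) (hε : ε ∈ G.A) (hεinv : ε⁻¹ ∈ G.A)
    (hpe : ((p : ℕ) : K₀) = ε * ((G.ϖ : G.A) : K₀) ^ e) :
    ∃ g₀ : 𝓕, g₀ ≠ 0 ∧
      (∀ Q : Place K₀ 𝓕, 0 ≤ Q.ord (s18g_jF (K := K₀) (M * p)) → Q.ord g₀ = 0) ∧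
      (g₀ * (s34m_unif G (M * p) ^ (6 * e))⁻¹ ∈ s34m_Vinf G (M * p) ∧
        (g₀ * (s34m_unif G (M * p) ^ (6 * e))⁻¹)⁻¹ ∈ s34m_Vinf G (M * p)) ∧
      (g₀ * s34m_unif G (M * p) ^ (6 * e) ∈ s34m_Vzero G φ M p hp hpM ∧
        (g₀ * s34m_unif G (M * p) ^ (6 * e))⁻¹ ∈ s34m_Vzero G φ M p hp hpM) := by
  haveI : FFGen K₀ (s18g_jF (K := K₀) (M * p)) :=
    s18b_ffGen_jF (M * p) (fun n b hb hn => s18g_exists_relation (M * p) φ hn b hb)
  obtain ⟨h, hrel⟩ := s36r_exists_D_eq (laurentBaseChange K₀ (modularFunctionFieldFull (M * p)))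
    (s18g_jF (K := K₀) (M * p)) (jB : 𝓕) (jA : 𝓕) (s44e_theta_jA_ne_zero M p)
  refine ⟨s44e_g0 M p h, s44e_g0_ne_zero φ M p hp hpM h hrel,
    fun Q hQ => s59nt_g0_ord_three φ M p hp hpM hp3 h hrel Q hQ, ?_, ?_⟩
  · obtain ⟨h1, h2⟩ := s44e_g0_Vinf G φ M p hp hpM h hrel
    have hεV : algebraMap K₀ 𝓕 ε ∈ s34m_Vinf G (M * p) :=
      s34c_const_mem_VV G φ M p hp hpM true ⟨ε, hε⟩
    have hεV' : algebraMap K₀ 𝓕 ε⁻¹ ∈ s34m_Vinf G (M * p) :=
      s34c_const_mem_VV G φ M p hp hpM true ⟨ε⁻¹, hεinv⟩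
    have hP : algebraMap K₀ 𝓕 ((p : ℕ) : K₀) =
        algebraMap K₀ 𝓕 ε * s34m_unif G (M * p) ^ e := by
      rw [hpe, map_mul, map_pow]; rfl
    have hε0 : algebraMap K₀ 𝓕 ε ≠ 0 := by
      intro h0
      have hp0 : algebraMap K₀ 𝓕 ((p : ℕ) : K₀) ≠ 0 :=
        (map_ne_zero _).mpr (by exact_mod_cast NeZero.ne p)
      rw [hP, h0, zero_mul] at hp0
      exact hp0 rfl
    have hϖ0 := s34m_unif_ne_zero G (M * p)
    rw [s44e_field_aux1 (s44e_g0 M p h) _ _ _ e hP hε0 hϖ0]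
    refine ⟨mul_mem h1 (pow_mem hεV 6), ?_⟩
    rw [s44e_field_aux3, ← map_inv₀]
    exact mul_mem h2 (pow_mem hεV' 6)
  · obtain ⟨h1, h2⟩ := s44e_g0_Vzero G φ M p hp hpM h hrel
    have hεV : algebraMap K₀ 𝓕 ε ∈ s34m_Vzero G φ M p hp hpM :=
      s34c_const_mem_VV G φ M p hp hpM false ⟨ε, hε⟩
    have hεV' : algebraMap K₀ 𝓕 ε⁻¹ ∈ s34m_Vzero G φ M p hp hpM :=
      s34c_const_mem_VV G φ M p hp hpM false ⟨ε⁻¹, hεinv⟩
    have hP : algebraMap K₀ 𝓕 ((p : ℕ) : K₀) =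
        algebraMap K₀ 𝓕 ε * s34m_unif G (M * p) ^ e := by
      rw [hpe, map_mul, map_pow]; rfl
    have hε0 : algebraMap K₀ 𝓕 ε ≠ 0 := by
      intro h0
      have hp0 : algebraMap K₀ 𝓕 ((p : ℕ) : K₀) ≠ 0 :=
        (map_ne_zero _).mpr (by exact_mod_cast NeZero.ne p)
      rw [hP, h0, zero_mul] at hp0
      exact hp0 rfl
    have hϖ0 := s34m_unif_ne_zero G (M * p)
    rw [s44e_field_aux2 (s44e_g0 M p h) _ _ _ e hP hε0 hϖ0]
    rw [map_inv₀] at hεV'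
    refine ⟨mul_mem h1 (pow_mem hεV' 6), ?_⟩
    rw [s44e_field_aux4]
    exact mul_mem h2 (pow_mem hεV 6)

end Level

end Fermat.Agent.Lib.S59
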