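/-
Programme (R2) / node [MP-two] (helper7), THE `t₃`-CHAIN AT THE LEVEL PRIME `2` (`3 ∣ M`): the leaf statements
`s59n_FinT3 p` ([A]) and `s59n_RedT3 p` ([B]) on the chart `t₃` (`q = 2`, `3 ∣ M`; node family `s33t_nodeN_t3`);
`t₃`-twins of `s59n_FinT2`, `s59n_RedT2` (`NMPGraph.lean`).
-/
import Fermat.Agent.Lib.S59.NMPGraph
import Fermat.Agent.Lib.S59.NZPack

set_option autoImplicit false
set_option linter.style.haveILetI false
set_option linter.unusedSectionVars false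
set_option linter.unusedVariables false

namespace Fermat.Agent.Lib.S59

open ModularCurve AlgebraicCurve Fermat.Agent.Lib.FF Fermat.Agent.Lib.S28 Fermat.Agent.Lib.S29
  Fermat.Agent.Lib.S30 Fermat.Agent.Lib.S37 Fermat.Agent.Lib.S35 Fermat.Agent.Lib.S33
  Fermat.Agent.Lib.S44 Fermat.Agent.Lib.S58 WeierstrassCurve

noncomputable section

local notation "Kb" => AlgebraicClosure ℚ
local notation "Γℚ" => (AlgebraicClosure ℚ ≃ₐ[ℚ] AlgebraicClosure ℚ)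

/-! ### The target and the pointwise node -/

/-- **[A] on the chart `t₃`** (`q = 2`, `3 ∣ M`; node family `s33t_nodeN_t3`). -/
def s59n_FinT3 (p : ℕ) [Fact p.Prime] : Prop :=
  ∀ (M q : ℕ) [NeZero M] [hq : Fact q.Prime] (hqM : ¬ q ∣ M), q = 2 → 3 ∣ M → p ≠ q →
    ∀ (P : ValuationSubring Kb), P.LiesOverPrime q →
    ∀ (L : IntermediateField ℚ Kb) [FiniteDimensional ℚ ↥L] [Normal ℚ ↥L],
      (∀ τ ∈ P.inertiaSubgroupIn ℚ, ∀ a ∈ L, τ a = a) →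
    ∀ x : JZero (M * q), p • x = 0 →
      (∀ σ : Γℚ, (∀ a ∈ L, σ a = a) → σ • x = x) →
      (∃ (ℓ₀ : Nat.Primes) (a₀ : ℤ), ¬ (ℓ₀ : ℕ) ∣ M * q ∧
        heckeOperatorBar (M * q) ℓ₀ x = a₀ • x ∧ ¬ (p : ℤ) ∣ a₀ - ((ℓ₀ : ℕ) + 1)) →
      s59n_FiniteN M q p hqM P (s33t_nodeN_t3 M q hqM P) x

/-- **[B] on the chart `t₃`** (`q = 2`, `3 ∣ M`). -/
def s59n_RedT3 (p : ℕ) [Fact p.Prime] : Prop :=
  ∀ (M q : ℕ) [NeZero M] [hq : Fact q.Prime] (hqM : ¬ q ∣ M), q = 2 → 3 ∣ M → p ≠ q →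
    ∀ (P : ValuationSubring Kb), P.LiesOverPrime q →
    ∀ (a : ℕ → ℤ) (B : Finset ℕ), (∀ r : ℕ, r.Prime → r ∣ M * q * p → r ∈ B) →
    ∀ x : JZero (M * q), s44i_Eig (M * q) p a B x →
      s59n_FiniteN M q p hqM P (s33t_nodeN_t3 M q hqM P) x →
      (∃ y : JZero M, y ≠ 0 ∧ s44i_Eig M p a B y) ∨
        s59n_ToricN M q p hqM P (s33t_nodeN_t3 M q hqM P) x


end

end Fermat.Agent.Lib.S59
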