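/-
Programme (R2) = S59, THE `(3, 2)` WALL, leaf [A] at a GOOD level (helper2, prefix `s59b_rc_`), part 1:
**A REGULAR CROSSING CARRIES A LOCAL "UNIT" `η` WITH `δ η = -1`.**

Frame of `Lib/S36/QTriple2.lean`: `O : Bool → ValuationSubring 𝓕` the two vertical valuations (`true ↦ V_∞`,
`false ↦ V_0`), `B = s34x_ring (s34x_infRing O) S` the ring of a chart `S`, `𝔫` a prime of `B` through which both components
pass, `π` a common uniformiser (a constant: order `0` at every place of the chart).  If `𝔫` is a REGULAR CROSSING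
(`s36q_RegCross O S 𝔫 true false π`: branch equations `u`, `w` with `u w = π · unit`), then `η := ι u` satisfies

* `η ≠ 0`, `ord_Q η = 0` at every place `Q` of the chart through `𝔫`;
* `η = π · v` with `v` a unit of `O true`;
* `η` is a unit of `O false`.

So in the language of `Lib/S44/CoreTame.lean`: `η` is a unit at the node with `δ η = 0 - 1 = -1`, prime to every exponent.
Mathlib + `Lib/S36` only.
-/
import Fermat.Agent.Lib.S36.QTriple2
import Fermat.Agent.Lib.S36.QPlace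

set_option autoImplicit false
set_option linter.unusedSectionVars false
set_option linter.style.haveILetI false

noncomputable section

namespace Fermat.Agent.Lib.S59

open AlgebraicCurve Fermat.Agent.Lib.FF Fermat.Agent.Lib.S18 Fermat.Agent.Lib.S34
  Fermat.Agent.Lib.S36 IsLocalRing

variable {L₀ 𝓕 : Type*} [Field L₀] [Field 𝓕] [Algebra L₀ 𝓕]
variable (O : Bool → ValuationSubring 𝓕) (S : Set (Place L₀ 𝓕))
  (𝔫 : Ideal (s34x_ring (s34x_infRing O) S)) [h𝔫 : 𝔫.IsPrime]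

/-- **the local unit of a regular crossing.** -/
theorem s59b_rc_unit (π : 𝓕) (hπ0 : π ≠ 0) (hπord : ∀ Q ∈ S, Q.ord π = 0)
    (hgen : ∀ i, ∀ y ∈ (O i).nonunits, ∃ c ∈ O i, y = π * c)
    (hT : s36q_compThrough O S 𝔫 true) (hF : s36q_compThrough O S 𝔫 false)
    (hX : s36q_RegCross O S 𝔫 true false π) :
    ∃ η : 𝓕, η ≠ 0 ∧
      (∀ Q ∈ S, s34f_through (s34x_infRing O) S 𝔫 Q → Q.ord η = 0) ∧
      (∃ v : 𝓕, v ≠ 0 ∧ v ∈ O true ∧ v⁻¹ ∈ O true ∧ η = π * v) ∧
      η ∈ O false ∧ η⁻¹ ∈ O false := by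
  obtain ⟨u, w, β, hβ, hu, hw, huw, -⟩ := hX
  set ι := s34f_iota (s34x_infRing O) S 𝔫 with hι
  -- `β` and its inverse
  obtain ⟨β', hββ'⟩ := isUnit_iff_exists_inv.mp hβ
  have hιβ : ι β * ι β' = 1 := by rw [← map_mul, hββ', map_one]
  have hιβ0 : ι β ≠ 0 := left_ne_zero_of_mul_eq_one hιβ
  have hιβ'0 : ι β' ≠ 0 := right_ne_zero_of_mul_eq_one hιβ
  have hβinv : (ι β)⁻¹ = ι β' := (eq_inv_of_mul_eq_one_right hιβ).symm
  have hprod0 : ι u * ι w ≠ 0 := by rw [huw]; exact mul_ne_zero hπ0 hιβ0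
  have hu0 : ι u ≠ 0 := left_ne_zero_of_mul hprod0
  have hw0 : ι w ≠ 0 := right_ne_zero_of_mul hprod0
  refine ⟨ι u, hu0, ?_, ?_, ?_, ?_⟩
  · -- orders at the places through `𝔫`
    intro Q hQS hth
    have h1 := s34f_iota_ord_nonneg (s34x_infRing O) S 𝔫 u Q hQS hth
    have h2 := s34f_iota_ord_nonneg (s34x_infRing O) S 𝔫 w Q hQS hth
    have h3 := s34f_iota_ord_nonneg (s34x_infRing O) S 𝔫 β Q hQS hth
    have h4 := s34f_iota_ord_nonneg (s34x_infRing O) S 𝔫 β' Q hQS hth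
    have h5 : Q.ord (ι β) + Q.ord (ι β') = 0 := by
      rw [← Q.ord_mul hιβ0 hιβ'0, hιβ, Place.ord_one]
    have h6 : Q.ord (ι u) + Q.ord (ι w) = Q.ord (ι β) := by
      rw [← Q.ord_mul hu0 hw0, huw, Q.ord_mul hπ0 hιβ0, hπord Q hQS, zero_add]
    rw [← hι] at h1 h2 h3 h4
    omega
  · -- `η = π v`, `v` a unit of `O true`
    obtain ⟨c, hc, huc⟩ := hgen true _ hu
    have hc0 : c ≠ 0 := by
      rintro rfl
      rw [mul_zero] at huc
      exact hu0 huc
    refine ⟨c, hc0, hc, ?_, huc⟩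
    -- `c * (ι w * ι β') = 1`
    have h1 : c * (ι w * ι β') = 1 := by
      have h2 : π * (c * ι w) = π * ι β := by rw [← mul_assoc, ← huc, huw]
      have h3 : c * ι w = ι β := mul_left_cancel₀ hπ0 h2
      rw [← mul_assoc, h3, hιβ]
    rw [← eq_inv_of_mul_eq_one_right h1]
    exact (O true).mul_mem _ _ (s36q_iota_mem_comp O S 𝔫 true hT w)
      (s36q_iota_mem_comp O S 𝔫 true hT β')
  · exact s36q_iota_mem_comp O S 𝔫 false hF u
  · -- `(ι u)⁻¹ = c' * ι β'`
    obtain ⟨c', hc', hwc⟩ := hgen false _ hw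
    have h1 : ι u * (c' * ι β') = 1 := by
      have h2 : π * (ι u * c') = π * ι β := by
        rw [← huw, hwc]; ring
      have h3 : ι u * c' = ι β := mul_left_cancel₀ hπ0 h2
      rw [← mul_assoc, h3, hιβ]
    rw [← eq_inv_of_mul_eq_one_right h1]
    exact (O false).mul_mem _ _ hc' (s36q_iota_mem_comp O S 𝔫 false hF β')

end Fermat.Agent.Lib.S59
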