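/-
Programme (R2) = S59, THE `(3, 2)` WALL, leaf [A] at a GOOD level (helper2, prefix `s59b_rc_`), part 2:
**(★) OVER A FIXED FIELD `L₀ ≤ ℚ̄`, TAME CASE, WITHOUT ANY MODULAR UNIT: ALL NODES OF THE CHART ARE REGULAR CROSSINGS.**

Observation: in the local tame core (`s44c_local_fin_tame`) the auxiliary unit `η` (`p ∤ δ η`) is used at the node `s` only,
so it may depend on `s`; at a regular crossing (`s36q_RegCross … true false ϖ`) the branch equation `η_s := ι u` has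
`δ η_s = -1` (`s59b_rc_unit`).  Hence, for the Σ-datum `s33s_datumW` of an arbitrary coordinate `w`, EVERY exponent `p`:

* `s59b_rc_star_local_node` : the abstract local core with a node-dependent `η`;
* `s59b_rc_eta`             : the local unit of a regular crossing is admissible (`s44c_Unit` at the node, `δ = -1`);
* `s59b_rc_star_tame_tau`   : (★), local form;
* **`s59b_rc_star_tame_W`** : (★) over `L₀`: exact (Q4) at the nodes ⇒ `f = Gg ^ p · ϖ ^ a · h`, `h` a unit of `V_∞` and of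
  `V_0` of order `0` at the node places.  Same conclusion as helper7's `s59nt_star_tame_W`, the hypotheses on `η` replaced by
  `hreg : ∀ s, s36q_RegCross OO SW s.1 true false ϖF`.
-/
import Fermat.Agent.Lib.S59.NXStar
import Fermat.Agent.Lib.S59.B2RegUnit
import Fermat.Agent.Lib.S36.QFibInst

set_option autoImplicit false
set_option linter.style.haveILetI false
set_option linter.unusedSectionVars false
set_option synthInstance.maxHeartbeats 400000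

noncomputable section

namespace Fermat.Agent.Lib.S59

open AlgebraicCurve ModularCurve HahnSeries Polynomial Fermat.Agent.Lib.FF Fermat.Agent.Lib.S18
  Fermat.Agent.Lib.S33 Fermat.Agent.Lib.S34 Fermat.Agent.Lib.S35 Fermat.Agent.Lib.S36
  Fermat.Agent.Lib.S37 Fermat.Agent.Lib.S44

local notation "Kb" => AlgebraicClosure ℚ

section Abstract

variable {L₀ 𝓕' κ Fb : Type*} [Field L₀] [Field 𝓕'] [Algebra L₀ 𝓕'] [Field κ] [Field Fb] [Algebra κ Fb]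
variable {D' : s33f_Datum L₀ 𝓕' κ Fb} {𝓕 : Type*} [Field 𝓕] [Algebra L₀ 𝓕]
variable {ι : Type*} {k : ι → Type*} [∀ s, Field (k s)] [∀ s, Algebra κ (k s)]
variable {Z : s33z_Datum D' 𝓕 ι k} {Ns : ι → Set (Place L₀ 𝓕)}

/-- **(★), LOCAL FORM, TAME CASE, free exponent, the unit `η` attached to the node `s` only.** -/
theorem s59b_rc_star_local_node {p : ℕ} (hp : p.Prime) {f : 𝓕} (hf : f ≠ 0)
    (hnode : ∀ s : ι, ∃ φ E : 𝓕, f = φ ^ p * E ∧ s44c_Unit (Ns s) E)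
    (T : 𝓕 →* 𝓕) (ℓ : ℕ)
    (hTvi : ∀ (n : ℤ) (x : 𝓕), s44c_Val Z.Di n x → s44c_Val Z.Di (n * ((ℓ : ℤ) + 1)) (T x))
    (hTvz : ∀ (n : ℤ) (x : 𝓕), s44c_Val Z.Dz n x → s44c_Val Z.Dz (n * ((ℓ : ℤ) + 1)) (T x))
    {g : 𝓕} {cg : L₀} (hcg : cg ≠ 0) (hg : g ≠ 0) (m : ℤ)
    (hT : T f = algebraMap L₀ 𝓕 cg * g ^ p * f ^ m)
    (hm : ¬ (p : ℤ) ∣ (ℓ : ℤ) + 1 - m) (s : ι)
    {η : 𝓕} (hη : s44c_Unit (Ns s) η) (hη2 : ¬ (p : ℤ) ∣ s44c_delta Z η) :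
    ∃ Γ υ : 𝓕, f = Γ ^ p * υ ∧ s44c_Unit (Ns s) υ ∧ s44c_delta Z υ = 0 := by
  obtain ⟨q, hq, -⟩ := s59n_hecke_delta (Z := Z) hp T ℓ hTvi hTvz hcg hf hg m hT hm
  obtain ⟨φ, E, ef, hE⟩ := hnode s
  have hφ0 : φ ≠ 0 := by
    rintro rfl
    rw [zero_pow hp.ne_zero, zero_mul] at ef
    exact hf ef
  have hδ : (p : ℤ) ∣ s44c_delta Z E := by
    have := congrArg (s44c_delta Z) ef
    rw [s44c_delta_mul (pow_ne_zero _ hφ0) hE.1, s44c_delta_pow hφ0, hq] at this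
    exact ⟨q - s44c_delta Z φ, by linear_combination -this⟩
  exact s44c_local_fin_tame (Z := Z) hp ef hE hη hδ hη2

end Abstract

section W

variable (M q : ℕ) [NeZero M] [hq : Fact q.Prime] (hqM : ¬ q ∣ M)
  (L₀ : IntermediateField ℚ Kb) [NumberField ↥L₀]
  (κ : Type) [Field κ] [CharP κ q] [PerfectField κ]
  (G : s18g_GaussData ↥L₀ κ) [IsDiscreteValuationRing G.A]
  (hdeg : s34m_HDeg ↥L₀ M q) (hT : s18g_HT κ M) (hdegM : s18g_HDeg ↥L₀ M)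
  (hπ : Function.Surjective G.π)
  (e : ℕ) (ε : ↥L₀) (he : 0 < e) (hε : ε ∈ G.A) (hεinv : ε⁻¹ ∈ G.A) (hε0 : ε ≠ 0)
  (hqe : (q : ↥L₀) = ε * ((G.ϖ : G.A) : ↥L₀) ^ e) (hperf : ∀ c : κ, ∃ d : κ, d ^ q = c)

variable (w : ↥(laurentBaseChange ↥L₀ (modularFunctionFieldFull M)))
    (hwV : w ∈ s18g_V G (laurentBaseChange ↥L₀ (modularFunctionFieldFull M)) (fun (f : LaurentSeries ↥L₀) (hf : f ∈ laurentBaseChange ↥L₀ (modularFunctionFieldFull M)) => s18g_baseChange_mem_Frac G M hf))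
    (hcoord : s37b_Coord κ q
      ((s18g_redF G M (fun (f : LaurentSeries ↥L₀) (hf : f ∈ laurentBaseChange ↥L₀ (modularFunctionFieldFull M)) => s18g_baseChange_mem_Frac G M hf) hT hdegM ⟨w, hwV⟩ : ↥(modularFunctionFieldFullC κ M)) : LaurentSeries κ))
    (hwtw : ∀ τ : κ ≃+* κ, ModularCurve.coeffMap (τ : κ →+* κ)
      ((s18g_redF G M (fun (f : LaurentSeries ↥L₀) (hf : f ∈ laurentBaseChange ↥L₀ (modularFunctionFieldFull M)) => s18g_baseChange_mem_Frac G M hf) hT hdegM ⟨w, hwV⟩ : ↥(modularFunctionFieldFullC κ M)) : LaurentSeries κ) =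
      ((s18g_redF G M (fun (f : LaurentSeries ↥L₀) (hf : f ∈ laurentBaseChange ↥L₀ (modularFunctionFieldFull M)) => s18g_baseChange_mem_Frac G M hf) hT hdegM ⟨w, hwV⟩ : ↥(modularFunctionFieldFullC κ M)) : LaurentSeries κ))
    (hmain : letI := s18f_algF G M hT hdegM w hwV
      ∀ z : ↥(modularFunctionFieldFullC κ M), IsIntegral κ[X] z →
        ∃ (b : ↥(laurentBaseChange ↥L₀ (modularFunctionFieldFull M))) (hb : b ∈ s18_ring (L₀ := ↥L₀) (s18g_V G (laurentBaseChange ↥L₀ (modularFunctionFieldFull M)) (fun (f : LaurentSeries ↥L₀) (hf : f ∈ laurentBaseChange ↥L₀ (modularFunctionFieldFull M)) => s18g_baseChange_mem_Frac G M hf)) (s18_chart1 w)),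
          s18g_redF G M (fun (f : LaurentSeries ↥L₀) (hf : f ∈ laurentBaseChange ↥L₀ (modularFunctionFieldFull M)) => s18g_baseChange_mem_Frac G M hf) hT hdegM ⟨b, hb.1⟩ = z)
    (wN : ↥(laurentBaseChange ↥L₀ (modularFunctionFieldFull (M * q)))) (hwN : heckeAlphaBar ↥L₀ M q w = wN) [FFGen ↥L₀ wN]
    (hαN : ∀ y ∈ s34x_infRing (s34m_VV G (algebraMap ↥L₀ Kb) M q hq.out hqM), ∃ s : G.A[X], s.map G.π ≠ 0 ∧
      (s18b_ev G (laurentBaseChange ↥L₀ (modularFunctionFieldFull (M * q))) wN).IsIntegralElem (s18b_ev G (laurentBaseChange ↥L₀ (modularFunctionFieldFull (M * q))) wN s * y))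
    (hαB : ∀ g ∈ (s18_ring (L₀ := ↥L₀) (s34m_Vinf G M) (s18_chart1 w) : Set (s34m_F ↥L₀ M)),
      heckeAlphaBar ↥L₀ M q g ∈ s34x_ring (s34x_infRing (s34m_VV G (algebraMap ↥L₀ Kb) M q hq.out hqM))
        (s18_chart1 (L₀ := ↥L₀) wN))
    (hβB : ∀ g ∈ (s18_ring (L₀ := ↥L₀) (s34m_Vinf G M) (s18_chart1 w) : Set (s34m_F ↥L₀ M)),
      ∃ b' ∈ s34x_ring (s34x_infRing (s34m_VV G (algebraMap ↥L₀ Kb) M q hq.out hqM)) (s18_chart1 (L₀ := ↥L₀) wN),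
      ∃ z, z ∈ s34m_Vinf G (M * q) ∧ z ∈ s34m_Vzero G (algebraMap ↥L₀ Kb) M q hq.out hqM ∧
        b' - heckeBetaBar ↥L₀ M q g = s34m_unif G (M * q) * z)
    (hnodeE : ∃ 𝔫, s33s_IsNode (s34m_VV G (algebraMap ↥L₀ Kb) M q hq.out hqM) (s34m_unif G (M * q))
      (s18_chart1 (L₀ := ↥L₀) wN) 𝔫)

set_option quotPrecheck false

local notation "φ₀" => algebraMap ↥L₀ Kb
local notation "OO" => s34m_VV G (algebraMap ↥L₀ Kb) M q hq.out hqM
local notation "ϖF" => s34m_unif G (M * q)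
local notation "SW" => s18_chart1 (L₀ := ↥L₀) wN
local notation "ZW" => s33s_datumW G (algebraMap ↥L₀ Kb) M q hqM hdeg hT hdegM hπ e ε he hε hεinv hε0 hqe hperf w hwV
  hcoord hwtw hmain wN hwN hαN hαB hβB hnodeE


set_option maxHeartbeats 1600000 in
/-- the components pass through a node. -/
theorem s59b_rc_through (s : s33s_Node OO ϖF SW) (i : Bool) :
    s36q_compThrough OO SW s.1 i := by
  intro b hb
  obtain ⟨c, hc, e⟩ := s36q_fi_gen G φ₀ M q hq.out hqM i _ hb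
  have hmem : b ∈ s33s_comp OO ϖF SW i := ⟨c, hc, e⟩
  cases i
  · exact s.2.2.2 hmem
  · exact s.2.2.1 hmem

set_option maxHeartbeats 1600000 in
/-- **the local unit of a regular crossing is an admissible `η`** at its node, for every exponent: it is a unit at the
places through the node and `δ η = -1`. -/
theorem s59b_rc_eta (s : s33s_Node OO ϖF SW)
    (hX : s36q_RegCross OO SW s.1 true false ϖF) :
    ∃ η : s34m_F ↥L₀ (M * q), s44c_Unit (s44c_thr OO SW s.1) η ∧ s44c_delta ZW η = -1 := by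
  set Z := ZW with hZ
  haveI : s.1.IsPrime := s.2.1.isPrime
  have hϖ0 : s34m_unif G (M * q) ≠ 0 := s34m_unif_ne_zero G (M * q)
  obtain ⟨η, hη0, hord, ⟨v, hv0, hv, hv', e⟩, hz, hz'⟩ :=
    s59b_rc_unit OO SW s.1 ϖF hϖ0 (fun Q _ => ff_ord_algebraMap Q _)
      (fun i y hy => s36q_fi_gen G φ₀ M q hq.out hqM i y hy)
      (s59b_rc_through M q hqM L₀ κ G wN s true) (s59b_rc_through M q hqM L₀ κ G wN s false) hX
  refine ⟨η, ⟨hη0, fun Q hQ => hord Q hQ.1 hQ.2⟩, ?_⟩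
  have hi : s44c_Val Z.Di (1 : ℤ) η := by
    refine ⟨v, hv0, hv, hv', ?_⟩
    show η = s34m_unif G (M * q) ^ (1 : ℤ) * v
    rw [zpow_one]
    exact e
  have hzV : s44c_Val Z.Dz (0 : ℤ) η := by
    refine ⟨η, hη0, hz, hz', ?_⟩
    show η = s34m_unif G (M * q) ^ (0 : ℤ) * η
    rw [zpow_zero, one_mul]
  rw [s44c_delta_eq hi hzV]
  norm_num

variable (ℓ : ℕ) [hℓ : Fact ℓ.Prime] (hℓN : ¬ ℓ ∣ M * q)
  (ζ₀ : (↥L₀)ˣ) (hζ₀ : IsPrimitiveRoot (ζ₀ : ↥L₀) ℓ)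
  (p : ℕ) [hp : Fact p.Prime]

include hdeg hT hdegM hπ he hε hεinv hε0 hqe hperf hℓN hζ₀ hcoord hwtw hmain hwN hαN hαB hβB hnodeE in
set_option maxHeartbeats 1600000 in
/-- **(★), LOCAL FORM, TAME CASE, for `s33s_datumW` over `L₀ ≤ ℚ̄` with `T = τ_ℓ`, ALL NODES REGULAR CROSSINGS**, level
`M * q`, `f` a Kummer generator (exponent `p`) of a `T_ℓ`-eigenclass `x` with `a₀ ≢ ℓ + 1 mod p`.  No modular unit. -/
theorem s59b_rc_star_tame_tau {f : s34m_F ↥L₀ (M * q)}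
    (hnode : ∀ s : s33s_Node OO ϖF SW, ∃ φ' E : s34m_F ↥L₀ (M * q), f = φ' ^ p * E ∧
      s44c_Unit (s44c_thr OO SW s.1) E)
    {x : JZero (M * q)} (hf : s33d_IsKumGen p x (s18q_incl (M * q) L₀ f)) (a₀ : ℤ)
    (hx : heckeOperatorBar (M * q) ⟨ℓ, hℓ.out⟩ x = a₀ • x)
    (ha₀ : ¬ (p : ℤ) ∣ a₀ - ((ℓ : ℤ) + 1))
    (hreg : ∀ s : s33s_Node OO ϖF SW, s36q_RegCross OO SW s.1 true false ϖF)
    (s : s33s_Node OO ϖF SW) :
    ∃ (g' υ : s34m_F ↥L₀ (M * q)) (a' : ℤ), f = g' ^ p * υ ∧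
      (∀ i, υ * ϖF ^ (-a') ∈ OO i ∧ (υ * ϖF ^ (-a'))⁻¹ ∈ OO i) ∧
      ∀ Q ∈ SW, s34f_through (s34x_infRing OO) SW s.1 Q → Q.ord υ = 0 := by
  have hf0 : f ≠ 0 := fun h0 => hf.1 (by rw [h0, map_zero])
  obtain ⟨c₀, g, hc₀, hg, hrel⟩ := s44c_hecke_rel (M * q) ℓ hℓN L₀ ζ₀ hζ₀ p hf a₀ hx
  have hm : ¬ (p : ℤ) ∣ (ℓ : ℤ) + 1 - a₀ := fun hd => ha₀ (by
    have := dvd_neg.mpr hd
    rwa [neg_sub] at this)
  obtain ⟨η, hη, hηδ⟩ := s59b_rc_eta M q hqM L₀ κ G hdeg hT hdegM hπ e ε he hε hεinv hε0 hqe hperf w hwV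
    hcoord hwtw hmain wN hwN hαN hαB hβB hnodeE s (hreg s)
  have hη2 : ¬ (p : ℤ) ∣ s44c_delta ZW η := by
    rw [hηδ]
    intro hd
    have h1 : (p : ℤ) ∣ 1 := (dvd_neg (a := (p : ℤ)) (b := 1)).mp hd
    have h2 : (p : ℕ) ∣ 1 := Int.natCast_dvd_natCast.mp (by exact_mod_cast h1)
    exact hp.out.one_lt.ne' (Nat.dvd_one.mp h2)
  obtain ⟨g', υ, e1, hU, hδ⟩ := s59b_rc_star_local_node (Z := ZW)
    (Ns := fun s : s33s_Node OO ϖF SW => s44c_thr OO SW s.1) hp.out hf0 hnode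
    (s33t_tau (M * q) ℓ hℓN L₀ ζ₀ hζ₀) ℓ
    (s59nt_W_tau_val_i M q hqM L₀ κ G hdeg hT hdegM hπ e ε he hε hεinv hε0 hqe hperf w hwV hcoord hwtw
      hmain wN hwN hαN hαB hβB hnodeE ℓ hℓN ζ₀ hζ₀)
    (s59nt_W_tau_val_z M q hqM L₀ κ G hdeg hT hdegM hπ e ε he hε hεinv hε0 hqe hperf w hwV hcoord hwtw
      hmain wN hwN hαN hαB hβB hnodeE ℓ hℓN ζ₀ hζ₀)
    hc₀ hg a₀ hrel hm s hη hη2
  obtain ⟨a', ha'⟩ := s59nt_W_unit_of_delta M q hqM L₀ κ G hdeg hT hdegM hπ e ε he hε hεinv hε0 hqe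
    hperf w hwV hcoord hwtw hmain wN hwN hαN hαB hβB hnodeE hU.1 hδ
  exact ⟨g', υ, a', e1, ha', fun Q hQ hth => hU.2 Q ⟨hQ, hth⟩⟩

include hdeg hT hdegM hπ he hε hεinv hε0 hqe hperf hℓN hζ₀ hcoord hwtw hmain hwN hαN hαB hβB hnodeE in
set_option maxHeartbeats 3200000 in
/-- **(★) over the field `L₀`, TAME CASE, level `M * q`, exponent `p`, coordinate `w`, ALL NODES REGULAR CROSSINGS.** -/
theorem s59b_rc_star_tame_W
    (hreg : ∀ s : s33s_Node OO ϖF SW, s36q_RegCross OO SW s.1 true false ϖF)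
    {x : JZero (M * q)} {f : s34m_F ↥L₀ (M * q)}
    (hf : s33d_IsKumGen p x (s18q_incl (M * q) L₀ f)) (a₀ : ℤ)
    (hx : heckeOperatorBar (M * q) ⟨ℓ, hℓ.out⟩ x = a₀ • x)
    (ha₀ : ¬ (p : ℤ) ∣ a₀ - ((ℓ : ℤ) + 1))
    (hQ4 : ∀ s : s33s_Node OO ϖF SW,
      ∃ Φ : s34m_F ↥L₀ (M * q), Φ ≠ 0 ∧
        ∀ Q ∈ SW, s34f_through (s34x_infRing OO) SW s.1 Q →
          Q.ord f = ((p : ℕ) : ℤ) * Q.ord Φ) :
    ∃ (Gg h : s34m_F ↥L₀ (M * q)) (a : ℤ), Gg ≠ 0 ∧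
      f = Gg ^ p * (ϖF ^ a * h) ∧
      (∀ i, h ∈ OO i ∧ h⁻¹ ∈ OO i) ∧
      ∀ Q ∈ s33s_nodePlaces OO ϖF SW, Q.ord h = 0 := by
  haveI : NeZero q := ⟨hq.out.ne_zero⟩
  haveI : NeZero p := ⟨hp.out.ne_zero⟩
  have hf0 : f ≠ 0 := (s33d_kum_of_gen (M * q) p L₀ hf).1
  -- the node factorisations
  have hnode : ∀ s : s33s_Node OO ϖF SW,
      ∃ φ' E : s34m_F ↥L₀ (M * q), f = φ' ^ p * E ∧ s44c_Unit (s44c_thr OO SW s.1) E := by
    intro s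
    obtain ⟨Φ, hΦ0, hΦ⟩ := hQ4 s
    refine ⟨Φ, f / Φ ^ p, ?_, div_ne_zero hf0 (pow_ne_zero p hΦ0), fun Q hQ => ?_⟩
    · rw [mul_div_cancel₀ _ (pow_ne_zero _ hΦ0)]
    · rw [div_eq_mul_inv, Q.ord_mul hf0 (inv_ne_zero (pow_ne_zero p hΦ0)), Q.ord_inv,
        ← zpow_natCast, Q.ord_zpow, hΦ Q hQ.1 hQ.2]
      ring
  haveI := s44e_finite_node_W G φ₀ M q hqM hdeg hT hdegM w hwV hcoord hwtw hmain wN hwN hαN hαB hβB
  exact s44e_glob_modular G φ₀ M q hqM SW hnodeE p hp.out.ne_zero f hf0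
    (fun s => s59b_rc_star_tame_tau M q hqM L₀ κ G hdeg hT hdegM hπ e ε he hε hεinv hε0 hqe hperf w hwV
      hcoord hwtw hmain wN hwN hαN hαB hβB hnodeE ℓ hℓN ζ₀ hζ₀ p hnode hf a₀ hx ha₀ hreg s)

end W

end Fermat.Agent.Lib.S59
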