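/-
Programme (R2) / node [MP-three], leaf [A] = FIN (tame (★)) (helper7, prefix `s59nt_`):
**(★) OVER A FIELD `Z ≤ ℚ̄`, TAME CASE `p ∤ 12 e`, ON THE CHART OF THE HAUPTMODUL `t₃`** (level `M q`, `q = 2`, `3 ∣ M`):
the instance of `s59nt_star_tame_W` (`NXStar.lean`) with the inputs of helper8's `s33k_sd_exists_datum_two`, the unit
`g₀` of `s59nt_exists_unit_two` (`NXUnit.lean`) and (NZ) (`NXNoZero.lean`: the places through the nodes of the chart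
`{t regular}` are places at which `j` is regular).
-/
import Fermat.Agent.Lib.S59.NXStar
import Fermat.Agent.Lib.S59.NXUnit
import Fermat.Agent.Lib.S59.NZUnit
import Fermat.Agent.Lib.S59.NXNoZero
import Fermat.Agent.Lib.S59.NZNoZero
import Fermat.Agent.Lib.S33.KumPSsDatumT
import Fermat.Agent.Lib.S59.NZDatum
import Fermat.Agent.Lib.S59.NZBridge
import Fermat.Agent.Lib.S59.NZPack

set_option autoImplicit false
set_option linter.style.haveILetI false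
set_option linter.unusedSectionVars false
set_option synthInstance.maxHeartbeats 400000

noncomputable section

namespace Fermat.Agent.Lib.S59

open ModularCurve AlgebraicCurve HahnSeries Polynomial Fermat.Agent.Lib.FF Fermat.Agent.Lib.S18
  Fermat.Agent.Lib.S34 Fermat.Agent.Lib.S37 Fermat.Agent.Lib.S33 Fermat.Agent.Lib.S35
  Fermat.Agent.Lib.S44

local notation "Kb" => AlgebraicClosure ℚ

section Inst

variable (M q : ℕ) [NeZero M] [hq : Fact q.Prime] (hqM : ¬ q ∣ M) (hq2 : q = 2) (h3M : 3 ∣ M)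
  (p : ℕ) [hp : Fact p.Prime]
  (P : ValuationSubring Kb) (hP : P.LiesOverPrime q)
  (Z : IntermediateField ℚ Kb) [FiniteDimensional ℚ ↥Z] [IsDiscreteValuationRing ↥(s18q_A0 P Z)]
  (ϖ : ↥(s18q_A0 P Z)) (hϖ : Irreducible ϖ)
  (e : ℕ) (ε : ↥Z) (he : 0 < e) (hε : ε ∈ s18q_A0 P Z) (hεinv : ε⁻¹ ∈ s18q_A0 P Z) (hε0 : ε ≠ 0)
  (hqe : (q : ↥Z) = ε * ((ϖ : ↥(s18q_A0 P Z)) : ↥Z) ^ e)
  (ℓ : ℕ) [hℓ : Fact ℓ.Prime] (hℓN : ¬ ℓ ∣ M * q)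
  (ζ₀ : (↥Z)ˣ) (hζ₀ : IsPrimitiveRoot (ζ₀ : ↥Z) ℓ)

include hq2 h3M hP he hε hεinv hε0 hqe hℓN hζ₀ in
set_option maxHeartbeats 3200000 in
/-- **(★) over `Z`, TAME CASE `p ∤ 12 e`, chart of `t₃`**, at the Gauss datum `s37r_G P Z ϖ hϖ`. -/
theorem s59nt_star_tame_t3_inst (hp1 : ¬ p ∣ 12 * e)
    (t : s34m_F ↥Z (M * q)) (ht : (t : LaurentSeries ↥Z) = s18u_t3 ↥Z)
    {x : JZero (M * q)} {f : s34m_F ↥Z (M * q)}
    (hf : s33d_IsKumGen p x (s18q_incl (M * q) Z f)) (a₀ : ℤ)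
    (hx : heckeOperatorBar (M * q) ⟨ℓ, hℓ.out⟩ x = a₀ • x)
    (ha₀ : ¬ (p : ℤ) ∣ a₀ - ((ℓ : ℤ) + 1))
    (hQ4 : ∀ s : s33s_Node (s34m_VV (s37r_G P Z ϖ hϖ) (algebraMap ↥Z Kb) M q hq.out hqM)
        (s34m_unif (s37r_G P Z ϖ hϖ) (M * q)) (s18_chart1 (L₀ := ↥Z) t),
      ∃ Φ : s34m_F ↥Z (M * q), Φ ≠ 0 ∧
        ∀ Q ∈ s18_chart1 (L₀ := ↥Z) t,
          s34f_through (s34x_infRing
            (s34m_VV (s37r_G P Z ϖ hϖ) (algebraMap ↥Z Kb) M q hq.out hqM))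
            (s18_chart1 (L₀ := ↥Z) t) s.1 Q →
          Q.ord f = ((p : ℕ) : ℤ) * Q.ord Φ) :
    ∃ (Gg h : s34m_F ↥Z (M * q)) (a : ℤ), Gg ≠ 0 ∧
      f = Gg ^ p * (s34m_unif (s37r_G P Z ϖ hϖ) (M * q) ^ a * h) ∧
      (∀ i, h ∈ s34m_VV (s37r_G P Z ϖ hϖ) (algebraMap ↥Z Kb) M q hq.out hqM i ∧
        h⁻¹ ∈ s34m_VV (s37r_G P Z ϖ hϖ) (algebraMap ↥Z Kb) M q hq.out hqM i) ∧
      ∀ Q ∈ s33s_nodePlaces (s34m_VV (s37r_G P Z ϖ hϖ) (algebraMap ↥Z Kb) M q hq.out hqM)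
        (s34m_unif (s37r_G P Z ϖ hϖ) (M * q)) (s18_chart1 (L₀ := ↥Z) t), Q.ord h = 0 := by
  classical
  haveI : NeZero q := ⟨hq.out.ne_zero⟩
  have hq3 : q ≠ 3 := by omega
  haveI : NumberField ↥Z := ⟨⟩
  haveI hchar₀ : CharP (IsLocalRing.ResidueField ↥(s18q_A0 P Z)) q := s37rl_charP P hP Z
  haveI hperf₀ : PerfectField (IsLocalRing.ResidueField ↥(s18q_A0 P Z)) :=
    s37rl_perfectField P hP Z
  haveI : PerfectRing (IsLocalRing.ResidueField ↥(s18q_A0 P Z)) q := PerfectField.toPerfectRing q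
  haveI : IsDiscreteValuationRing ↥(s37r_G P Z ϖ hϖ).A :=
    (inferInstance : IsDiscreteValuationRing ↥(s18q_A0 P Z))
  have hT : s18g_HT (IsLocalRing.ResidueField ↥(s18q_A0 P Z)) M := s18t_indep_j q M hqM _
  have hdegM : s18g_HDeg ↥Z M := fun n b hb hn =>
    s18g_exists_relation M (algebraMap ↥Z Kb) hn b hb
  have hdeg : s34m_HDeg ↥Z M q := s34r_deg_HDeg (algebraMap ↥Z Kb) M q hq.out hqM
  have hπ : Function.Surjective (s37r_G P Z ϖ hϖ).π := IsLocalRing.residue_surjective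
  have hperf : ∀ c : IsLocalRing.ResidueField ↥(s18q_A0 P Z), ∃ d, d ^ q = c :=
    fun c => surjective_frobenius _ q c
  -- the coordinate `t₃`
  obtain ⟨tM, htM, ⟨hwV, hred⟩, hwinvV, hgen, hgeninv, hwt, hw0, hgenN, hwO, hwO', hfix, hα, hα'⟩ :=
    s34m_base_t3 (s37r_G P Z ϖ hϖ) (algebraMap ↥Z Kb) M q hq.out hqM h3M hq3
  have et : t = heckeAlphaBar ↥Z M q tM := Subtype.ext (by rw [ht, hwt])
  subst et
  haveI := hgen
  haveI := hgeninv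
  haveI := hgenN
  haveI : FFGen ↥Z (s18g_jF (K := ↥Z) (M * q)) :=
    s18b_ffGen_jF (M * q) (fun _ b hb hn => s18g_exists_relation (M * q) (algebraMap ↥Z Kb) hn b hb)
  have htM0 : tM ≠ 0 := by
    intro h0
    apply s18b_t3_ne_zero ↥Z
    rw [← htM, h0]; rfl
  have hFM : ∀ f ∈ laurentBaseChange ↥Z (modularFunctionFieldFull M),
      f ∈ s18g_Frac (s37r_G P Z ϖ hϖ) := fun _ hf => s18g_baseChange_mem_Frac _ M hf
  have hred' : ((s18g_redF (s37r_G P Z ϖ hϖ) M hFM hT hdegM ⟨tM, hwV⟩ :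
      ↥(modularFunctionFieldFullC (IsLocalRing.ResidueField ↥(s18q_A0 P Z)) M)) :
      LaurentSeries (IsLocalRing.ResidueField ↥(s18q_A0 P Z))) = s18u_t3 _ := hred
  have hclaim : ∀ Q : Place ↥Z (s34m_F ↥Z (M * q)),
      (0 ≤ Q.ord (heckeAlphaBar ↥Z M q tM) → 0 ≤ Q.ord (heckeBetaBar ↥Z M q tM)) ∧
      (Q.ord (heckeAlphaBar ↥Z M q tM) ≤ 0 → Q.ord (heckeBetaBar ↥Z M q tM) ≤ 0) :=
    fun Q => s34e_cusp_hclaim_t3 (s37r_G P Z ϖ hϖ) (algebraMap ↥Z Kb) M q hq.out hqM hq3 tM htM Q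
  -- the modular unit
  obtain ⟨g₀, hg₀, hord, hinf, hzero⟩ :=
    s59nt_exists_unit_two (s37r_G P Z ϖ hϖ) (algebraMap ↥Z Kb) M q hq.out hqM hq2 e ε hε hεinv hqe
  have htO : heckeAlphaBar ↥Z M q tM ∈
      s34x_infRing (s34m_VV (s37r_G P Z ϖ hϖ) (algebraMap ↥Z Kb) M q hq.out hqM) :=
    (s34x_mem_infRing _ _).mpr hwO
  have hp3 : ¬ p ∣ 2 * (6 * e) := by
    intro hd
    apply hp1
    have : 2 * (6 * e) = 12 * e := by ring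
    rwa [this] at hd
  exact s59nt_star_tame_W M q hqM Z (IsLocalRing.ResidueField ↥(s18q_A0 P Z)) (s37r_G P Z ϖ hϖ) hdeg
    hT hdegM hπ e ε he hε hεinv hε0 hqe hperf tM hwV
    (by rw [hred']; exact s37b_coord_t3 _ q)
    (by intro τ; rw [hred']; exact s18u_coeffMap_t3 _)
    (s34dt_hmain_t3 M q hqM ↥Z (algebraMap ↥Z Kb) _ (s37r_G P Z ϖ hϖ) hπ hT hdegM hq2 h3M tM htM)
    (heckeAlphaBar ↥Z M q tM) rfl hα
    (s34e_ch_alpha₁' (s37r_G P Z ϖ hϖ) (algebraMap ↥Z Kb) M q hq.out hqM tM _ rfl)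
    (s34e_ch_beta₁' (s37r_G P Z ϖ hϖ) (algebraMap ↥Z Kb) M q hq.out hqM htM0 _ rfl hclaim)
    (s33k_sd_exists_node_t3 (s37r_G P Z ϖ hϖ) (algebraMap ↥Z Kb) M q hq.out hqM h3M hq3 _ hwt)
    ℓ hℓN ζ₀ hζ₀ p hg₀ (6 * e)
    (fun s Q hQ => hord Q (s59nt_j_regular_of_node_t3 (s37r_G P Z ϖ hϖ) (algebraMap ↥Z Kb) M q
      hq.out hqM hq3 _ hwt htO s.1 s.2 Q hQ.1 hQ.2))
    hinf hzero hp3 hf a₀ hx ha₀ hQ4

end Inst

end Fermat.Agent.Lib.S59
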