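/-
Programme (R2) / the `(3, 2)` wall, leaf [A-good] (helper7, prefix `s59nt_`), part 1:
**(★) OVER A FIELD `Z ≤ ℚ̄` UNRAMIFIED AT `P ∣ 2`, ON THE CHART OF THE HAUPTMODUL `t₃`, AT A GOOD LEVEL
(`ν₂(M) = ν₃(M) = 0`), FOR EVERY EXPONENT `p`** (level `M q`, `q = 2`, `3 ∣ M`): the instance of helper2's
`s59b_rc_star_tame_W` (`B2StarReg.lean`: all nodes regular crossings, no modular unit) with the inputs of
`s33k_sd_exists_datum_two`; the regular crossings come from main's (R-q) `s36r_crossReg_of_explicit`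
(`Lib/S36/RLeafCross.lean`) at the base function `t₃` (`s36g_base_full`).
-/
import Fermat.Agent.Lib.S59.B2StarReg
import Fermat.Agent.Lib.S59.NZStarT3
import Fermat.Agent.Lib.S36.XLeafCross

set_option autoImplicit false
set_option linter.style.haveILetI false
set_option linter.unusedSectionVars false
set_option synthInstance.maxHeartbeats 400000

noncomputable section

namespace Fermat.Agent.Lib.S59

open ModularCurve AlgebraicCurve HahnSeries Polynomial Fermat.Agent.Lib.FF Fermat.Agent.Lib.S18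
  Fermat.Agent.Lib.S34 Fermat.Agent.Lib.S37 Fermat.Agent.Lib.S33 Fermat.Agent.Lib.S35
  Fermat.Agent.Lib.S36 Fermat.Agent.Lib.S44

local notation "Kb" => AlgebraicClosure ℚ

/-- **(R-q) at the levels with `ν₂(M) = ν₃(M) = 0`, uniformiser `ϖ` with `q = ϖ · unit`** (`s36b_leafCross` with the
hypothesis `ϖ = q` weakened). -/
theorem s59nt_crossReg_good (M q : ℕ) [NeZero M] [NeZero q] (hq : q.Prime) (hqM : ¬ q ∣ M)
    (h2 : nuTwo M = 0) (h3 : nuThree M = 0)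
    (K₀ : Type) [Field K₀] [NumberField K₀] (φ : K₀ →+* Kb)
    (κ : Type) [Field κ] [CharP κ q] [PerfectField κ]
    (G : s18g_GaussData K₀ κ) [IsDiscreteValuationRing G.A] (hπ : Function.Surjective G.π)
    (hunr : ∃ ε : G.A, IsUnit ε ∧ ((q : ℕ) : G.A) = G.ϖ * ε)
    (x : s34m_F K₀ M) (hx : x ∈ s34m_Vinf G M) (hBF : s36g_BaseFull G φ M q hq hqM x hx) :
    s36q_fi_CrossReg G φ M q hq hqM (heckeAlphaBar K₀ M q x) := by
  have hcoe := s36l_coe_of_baseFull G φ M q hq hqM x hx hBF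
  exact s36r_crossReg_of_explicit G φ M q hq hqM h2 h3 hπ hunr x
    (s36l_explicit_of_baseFull M q hq hqM K₀ φ κ G hπ x hx hBF) hBF.1
    (fun 𝔫 _ h1 h2 => s36b_cross_isMaximal G φ M q hq hqM x hx hπ hBF.1 hBF.2.2.2.2.1 𝔫 h1 h2)
    (fun 𝔫 _ h1 h2 Q hQ hth =>
      (s36b_cross_noncusp_of_coe G φ M q hq hqM hπ x hBF.1 hcoe 𝔫 h1 h2 Q hQ hth).2)

section Inst

variable (M q : ℕ) [NeZero M] [hq : Fact q.Prime] (hqM : ¬ q ∣ M) (hq2 : q = 2) (h3M : 3 ∣ M)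
  (p : ℕ) [hp : Fact p.Prime]
  (P : ValuationSubring Kb) (hP : P.LiesOverPrime q)
  (Z : IntermediateField ℚ Kb) [FiniteDimensional ℚ ↥Z] [IsDiscreteValuationRing ↥(s18q_A0 P Z)]
  (ϖ : ↥(s18q_A0 P Z)) (hϖ : Irreducible ϖ)
  (ε : ↥Z) (hε : ε ∈ s18q_A0 P Z) (hεinv : ε⁻¹ ∈ s18q_A0 P Z) (hε0 : ε ≠ 0)
  (hqe : (q : ↥Z) = ε * ((ϖ : ↥(s18q_A0 P Z)) : ↥Z) ^ 1)
  (ℓ : ℕ) [hℓ : Fact ℓ.Prime] (hℓN : ¬ ℓ ∣ M * q)
  (ζ₀ : (↥Z)ˣ) (hζ₀ : IsPrimitiveRoot (ζ₀ : ↥Z) ℓ)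

include hq2 h3M hP hε hεinv hε0 hqe hℓN hζ₀ in
set_option maxHeartbeats 3200000 in
/-- **(★) over `Z` unramified at `P ∣ 2` (`2 = ε ϖ`), GOOD LEVEL, chart of `t₃`, EVERY exponent `p`**, at the Gauss datum
`s37r_G P Z ϖ hϖ`. -/
theorem s59nt_star_good_t3_inst (h2 : nuTwo M = 0) (h3 : nuThree M = 0)
    (t : s34m_F ↥Z (M * q)) (ht : (t : LaurentSeries ↥Z) = s18u_t3 ↥Z)
    {x : JZero (M * q)} {f : s34m_F ↥Z (M * q)}
    (hf : s33d_IsKumGen p x (s18q_incl (M * q) Z f)) (a₀ : ℤ)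
    (hx : heckeOperatorBar (M * q) ⟨ℓ, hℓ.out⟩ x = a₀ • x)
    (ha₀ : ¬ (p : ℤ) ∣ a₀ - ((ℓ : ℤ) + 1))
    (hQ4 : ∀ s : s33s_Node (s34m_VV (s37r_G P Z ϖ hϖ) (algebraMap ↥Z Kb) M q hq.out hqM)
        (s34m_unif (s37r_G P Z ϖ hϖ) (M * q)) (s18_chart1 (L₀ := ↥Z) t),
      ∃ Φ : s34m_F ↥Z (M * q), Φ ≠ 0 ∧
        ∀ Q ∈ s18_chart1 (L₀ := ↥Z) t,
          s34f_through (s34x_infRing
            (s34m_VV (s37r_G P Z ϖ hϖ) (algebraMap ↥Z Kb) M q hq.out hqM))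
            (s18_chart1 (L₀ := ↥Z) t) s.1 Q →
          Q.ord f = ((p : ℕ) : ℤ) * Q.ord Φ) :
    ∃ (Gg h : s34m_F ↥Z (M * q)) (a : ℤ), Gg ≠ 0 ∧
      f = Gg ^ p * (s34m_unif (s37r_G P Z ϖ hϖ) (M * q) ^ a * h) ∧
      (∀ i, h ∈ s34m_VV (s37r_G P Z ϖ hϖ) (algebraMap ↥Z Kb) M q hq.out hqM i ∧
        h⁻¹ ∈ s34m_VV (s37r_G P Z ϖ hϖ) (algebraMap ↥Z Kb) M q hq.out hqM i) ∧
      ∀ Q ∈ s33s_nodePlaces (s34m_VV (s37r_G P Z ϖ hϖ) (algebraMap ↥Z Kb) M q hq.out hqM)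
        (s34m_unif (s37r_G P Z ϖ hϖ) (M * q)) (s18_chart1 (L₀ := ↥Z) t), Q.ord h = 0 := by
  classical
  haveI : NeZero q := ⟨hq.out.ne_zero⟩
  have hq3 : q ≠ 3 := by omega
  haveI : NumberField ↥Z := ⟨⟩
  haveI hchar₀ : CharP (IsLocalRing.ResidueField ↥(s18q_A0 P Z)) q := s37rl_charP P hP Z
  haveI hperf₀ : PerfectField (IsLocalRing.ResidueField ↥(s18q_A0 P Z)) :=
    s37rl_perfectField P hP Z
  haveI : PerfectRing (IsLocalRing.ResidueField ↥(s18q_A0 P Z)) q := PerfectField.toPerfectRing q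
  haveI : IsDiscreteValuationRing ↥(s37r_G P Z ϖ hϖ).A :=
    (inferInstance : IsDiscreteValuationRing ↥(s18q_A0 P Z))
  have hT : s18g_HT (IsLocalRing.ResidueField ↥(s18q_A0 P Z)) M := s18t_indep_j q M hqM _
  have hdegM : s18g_HDeg ↥Z M := fun n b hb hn =>
    s18g_exists_relation M (algebraMap ↥Z Kb) hn b hb
  have hdeg : s34m_HDeg ↥Z M q := s34r_deg_HDeg (algebraMap ↥Z Kb) M q hq.out hqM
  have hπ : Function.Surjective (s37r_G P Z ϖ hϖ).π := IsLocalRing.residue_surjective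
  have hperf : ∀ c : IsLocalRing.ResidueField ↥(s18q_A0 P Z), ∃ d, d ^ q = c :=
    fun c => surjective_frobenius _ q c
  -- the coordinate `t₃`
  obtain ⟨tM, htM, ⟨hwV, hred⟩, hwinvV, hgen, hgeninv, hwt, hw0, hgenN, hwO, hwO', hfix, hα, hα'⟩ :=
    s34m_base_t3 (s37r_G P Z ϖ hϖ) (algebraMap ↥Z Kb) M q hq.out hqM h3M hq3
  have et : t = heckeAlphaBar ↥Z M q tM := Subtype.ext (by rw [ht, hwt])
  subst et
  haveI := hgen
  haveI := hgeninv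
  haveI := hgenN
  haveI : FFGen ↥Z (s18g_jF (K := ↥Z) (M * q)) :=
    s18b_ffGen_jF (M * q) (fun _ b hb hn => s18g_exists_relation (M * q) (algebraMap ↥Z Kb) hn b hb)
  have htM0 : tM ≠ 0 := by
    intro h0
    apply s18b_t3_ne_zero ↥Z
    rw [← htM, h0]; rfl
  have hFM : ∀ f ∈ laurentBaseChange ↥Z (modularFunctionFieldFull M),
      f ∈ s18g_Frac (s37r_G P Z ϖ hϖ) := fun _ hf => s18g_baseChange_mem_Frac _ M hf
  have hred' : ((s18g_redF (s37r_G P Z ϖ hϖ) M hFM hT hdegM ⟨tM, hwV⟩ :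
      ↥(modularFunctionFieldFullC (IsLocalRing.ResidueField ↥(s18q_A0 P Z)) M)) :
      LaurentSeries (IsLocalRing.ResidueField ↥(s18q_A0 P Z))) = s18u_t3 _ := hred
  have hclaim : ∀ Q : Place ↥Z (s34m_F ↥Z (M * q)),
      (0 ≤ Q.ord (heckeAlphaBar ↥Z M q tM) → 0 ≤ Q.ord (heckeBetaBar ↥Z M q tM)) ∧
      (Q.ord (heckeAlphaBar ↥Z M q tM) ≤ 0 → Q.ord (heckeBetaBar ↥Z M q tM) ≤ 0) :=
    fun Q => s34e_cusp_hclaim_t3 (s37r_G P Z ϖ hϖ) (algebraMap ↥Z Kb) M q hq.out hqM hq3 tM htM Q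
  -- the regular crossings
  have hunr : ∃ ε' : (s37r_G P Z ϖ hϖ).A, IsUnit ε' ∧
      ((q : ℕ) : (s37r_G P Z ϖ hϖ).A) = (s37r_G P Z ϖ hϖ).ϖ * ε' := by
    refine ⟨⟨ε, hε⟩, ?_, ?_⟩
    · refine isUnit_iff_exists_inv.mpr ⟨⟨ε⁻¹, hεinv⟩, ?_⟩
      apply Subtype.ext
      show ε * ε⁻¹ = 1
      exact mul_inv_cancel₀ hε0
    · apply Subtype.ext
      show (((q : ℕ) : ↥(s18q_A0 P Z)) : ↥Z) = ((ϖ : ↥(s18q_A0 P Z)) : ↥Z) * ε
      rw [pow_one] at hqe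
      rw [mul_comm, ← hqe]
      exact map_natCast (s18q_A0 P Z).subtype q
  obtain ⟨x', hx', hBF⟩ := s36g_base_full ↥Z (algebraMap ↥Z Kb) M q hq.out hqM
    (Or.inr (Or.inr ⟨hq2, h3M⟩)) (IsLocalRing.ResidueField ↥(s18q_A0 P Z)) (s37r_G P Z ϖ hϖ) hπ
  have hx't : x' = tM := by
    rcases hBF.2.2.2.2.2.1 with ⟨h5, -⟩ | ⟨h3', -⟩ | ⟨-, -, e3⟩
    · omega
    · omega
    · exact Subtype.ext (by rw [e3, htM])
  subst hx't
  have hX := s59nt_crossReg_good M q hq.out hqM h2 h3 ↥Z (algebraMap ↥Z Kb)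
    (IsLocalRing.ResidueField ↥(s18q_A0 P Z)) (s37r_G P Z ϖ hϖ) hπ hunr x' hx' hBF
  exact s59b_rc_star_tame_W M q hqM Z (IsLocalRing.ResidueField ↥(s18q_A0 P Z)) (s37r_G P Z ϖ hϖ) hdeg
    hT hdegM hπ 1 ε Nat.one_pos hε hεinv hε0 hqe hperf x' hwV
    (by rw [hred']; exact s37b_coord_t3 _ q)
    (by intro τ; rw [hred']; exact s18u_coeffMap_t3 _)
    (s34dt_hmain_t3 M q hqM ↥Z (algebraMap ↥Z Kb) _ (s37r_G P Z ϖ hϖ) hπ hT hdegM hq2 h3M x' htM)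
    (heckeAlphaBar ↥Z M q x') rfl hα
    (s34e_ch_alpha₁' (s37r_G P Z ϖ hϖ) (algebraMap ↥Z Kb) M q hq.out hqM x' _ rfl)
    (s34e_ch_beta₁' (s37r_G P Z ϖ hϖ) (algebraMap ↥Z Kb) M q hq.out hqM htM0 _ rfl hclaim)
    (s33k_sd_exists_node_t3 (s37r_G P Z ϖ hϖ) (algebraMap ↥Z Kb) M q hq.out hqM h3M hq3 _ hwt)
    ℓ hℓN ζ₀ hζ₀ p
    (fun s => by
      haveI : s.1.IsPrime := s.2.1.isPrime
      exact hX s.1
        (s59b_rc_through M q hqM Z (IsLocalRing.ResidueField ↥(s18q_A0 P Z)) (s37r_G P Z ϖ hϖ)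
          (heckeAlphaBar ↥Z M q x') s true)
        (s59b_rc_through M q hqM Z (IsLocalRing.ResidueField ↥(s18q_A0 P Z)) (s37r_G P Z ϖ hϖ)
          (heckeAlphaBar ↥Z M q x') s false))
    hf a₀ hx ha₀ hQ4

end Inst

end Fermat.Agent.Lib.S59
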