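/-
Programme "R2-bg", blocker [MP′] at `p = 3` (helper7, prefix `s59n_`): **THE MODULAR UNIT OF WEIGHT 4 AT EVEN LEVEL.**

Level `M · q`, `2 ∣ M`, `q ≥ 5` prime, `q ∤ M`.  `t = t₂ ∈ 𝓕_M` (`s34m_base_t2`), `j · t² = (t + 256)³` (`s18u_t2_rel_j`),
`t_A = α t`, `t_B = β t`, `R(t) = (t + 256)² (t - 512) / t³` (`dj = R(t) dt`), `h = dj_B / dj_A` (helper8's `hrel`),
`h_t := h · R(t_A) / R(t_B)` and

  `η₂ := h_t² · (t_A + 64) / (t_B + 64)`     (`= q² F(qz)/F(z)`, `F = η(2z)¹⁶/η(z)⁸ ∈ M₄(Γ₀(2))`, zero-free on `ℍ`).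

* `s59n_eta2_cube`    : the PURE FIELD IDENTITY `η₂³ = g₀ · (t_B / t_A)⁴` (`g₀ = h⁶ α(X)/β(X)` helper8's `s44e_g0`);
* `s59n_exists_unit_two` : **there is `η ∈ 𝓕ˣ`, without zero or pole at the places where `j` is regular, with
  `η = ϖ^(2e) · (unit of V_∞) = ϖ^(-2e) · (unit of V_0)`** — so `δ η = -4e`, prime to `3` when `3 ∤ e`: an admissible `η` for
  the tame (★) at the exponent `3` (main's `g₀` has `δ = -12 e`).
-/
import Fermat.Agent.Lib.S44.EUnit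
import Fermat.Agent.Lib.S34.EBaseT
import Fermat.Agent.Lib.S34.ECuspFinal

set_option autoImplicit false
set_option linter.unusedSectionVars false
set_option linter.style.haveILetI false
set_option synthInstance.maxHeartbeats 200000

noncomputable section

namespace Fermat.Agent.Lib.S59

open AlgebraicCurve ModularCurve KaehlerDifferential HahnSeries
open Fermat.Agent.Lib.FF Fermat.Agent.Lib.S18 Fermat.Agent.Lib.S37 Fermat.Agent.Lib.S36
  Fermat.Agent.Lib.S34 Fermat.Agent.Lib.S44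

local notation "Kb" => AlgebraicClosure ℚ

/-! ### The field identity -/

section Algebra

variable {F : Type*} [Field F]

/-- `R(t) = (t + 256)² (t - 512) / t³`. -/
def s59n_Rt (t : F) : F := (t + 256) ^ 2 * (t - 512) / t ^ 3

/-- `η₂ = (h · R(t_A) / R(t_B))² · (t_A + 64) / (t_B + 64)`. -/
def s59n_eta2 (h tA tB : F) : F :=
  (h * s59n_Rt tA / s59n_Rt tB) ^ 2 * ((tA + 64) / (tB + 64))

/-- **`η₂³ = g₀ · (t_B / t_A)⁴`**, `g₀ = h⁶ · X(j_A) / X(j_B)`, `X(j) = j⁴ (j - 1728)³`. -/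
theorem s59n_eta2_cube (h jA jB tA tB : F) (hA : jA * tA ^ 2 = (tA + 256) ^ 3)
    (hB : jB * tB ^ 2 = (tB + 256) ^ 3) (htA : tA ≠ 0) (htB : tB ≠ 0)
    (hA1 : tA + 256 ≠ 0) (hA2 : tA - 512 ≠ 0) (hA3 : tA + 64 ≠ 0)
    (hB1 : tB + 256 ≠ 0) (hB2 : tB - 512 ≠ 0) (hB3 : tB + 64 ≠ 0) :
    s59n_eta2 h tA tB ^ 3 =
      h ^ 6 * (jA ^ 4 * (jA - 1728) ^ 3 * (jB ^ 4 * (jB - 1728) ^ 3)⁻¹) * (tB / tA) ^ 4 := by
  have ejA : jA = (tA + 256) ^ 3 / tA ^ 2 := by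
    rw [eq_div_iff (pow_ne_zero 2 htA)]; exact hA
  have ejB : jB = (tB + 256) ^ 3 / tB ^ 2 := by
    rw [eq_div_iff (pow_ne_zero 2 htB)]; exact hB
  have ejA' : jA - 1728 = (tA + 64) * (tA - 512) ^ 2 / tA ^ 2 := by
    rw [ejA]; field_simp; ring
  have ejB' : jB - 1728 = (tB + 64) * (tB - 512) ^ 2 / tB ^ 2 := by
    rw [ejB]; field_simp; ring
  rw [ejA', ejB', ejA, ejB, s59n_eta2, s59n_Rt, s59n_Rt]
  field_simp

end Algebra

/-! ### Cube roots in valuation rings -/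

theorem s59n_mem_of_cube_mem {F : Type*} [Field F] (A : ValuationSubring F) {x : F}
    (hx : x ^ 3 ∈ A) : x ∈ A := by
  rw [← A.valuation_le_one_iff] at hx ⊢
  rw [map_pow] at hx
  exact (pow_le_one_iff (n := 3) (by norm_num)).mp hx

/-- a cube root of a unit of a valuation ring is a unit of it. -/
theorem s59n_cube_unit {F : Type*} [Field F] (A : ValuationSubring F) {y z : F} (h : y ^ 3 = z)
    (hz : z ∈ A) (hz' : z⁻¹ ∈ A) : y ∈ A ∧ y⁻¹ ∈ A := by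
  refine ⟨s59n_mem_of_cube_mem A (by rw [h]; exact hz), s59n_mem_of_cube_mem A ?_⟩
  rw [inv_pow, h]; exact hz'

/-- `j · t² = (t + 256)³`, `j` regular at `v` ⇒ `t` is a unit at `v`. -/
theorem s59n_ord_t2_eq_zero {K F : Type*} [Field K] [Field F] [Algebra K F] (v : Place K F)
    {j t : F} (hrel : j * t ^ 2 = (t + 256) ^ 3) (ht : t ≠ 0) (hj0 : j ≠ 0)
    (h256 : (256 : F) ≠ 0) (hj : 0 ≤ v.ord j) : v.ord t = 0 := by
  have e256 : (256 : F) = algebraMap K F 256 := (map_ofNat _ 256).symm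
  have o256 : v.ord (256 : F) = 0 := by rw [e256]; exact ff_ord_algebraMap v 256
  have ht256 : t + 256 ≠ 0 := by
    intro h0
    rw [h0, zero_pow (by norm_num)] at hrel
    exact mul_ne_zero hj0 (pow_ne_zero 2 ht) hrel
  have h1 := congrArg v.ord hrel
  rw [v.ord_mul hj0 (pow_ne_zero 2 ht), s44e_ord_pow, s44e_ord_pow] at h1
  by_contra hne
  rcases lt_or_gt_of_ne hne with hlt | hgt
  · have h2 := s18u_ord_add_eq v ht h256 (by rw [o256]; exact hlt)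
    rw [h2] at h1
    push_cast at h1
    omega
  · have h2 := s18u_ord_add_eq v h256 ht (by rw [o256]; exact hgt)
    rw [add_comm] at h2
    rw [h2, o256] at h1
    push_cast at h1
    omega

/-! ### The unit -/

section Level

variable {K₀ : Type*} [Field K₀] [CharZero K₀] [Algebra ℚ K₀] {κ : Type*} [Field κ]
  (G : s18g_GaussData K₀ κ) (φ : K₀ →+* Kb) (M p : ℕ) [NeZero M] [NeZero p] [CharP κ p]
  [IsDiscreteValuationRing ↥G.A] (hp : p.Prime) (hpM : ¬ p ∣ M)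

local notation "𝓕" => s34m_F K₀ (M * p)
local notation "jA" => heckeAlphaBar K₀ M p (s18g_jF (K := K₀) M)
local notation "jB" => heckeBetaBar K₀ M p (s18g_jF (K := K₀) M)

/-- `t₂ + c ≠ 0` at level `N` for a function with `q`-expansion `t₂`. -/
theorem s59n_t2_add_ne_zero (N : ℕ) [NeZero N] (t : s34m_F K₀ N)
    (ht : (t : LaurentSeries K₀) = s18u_t2 K₀) (c : K₀) :
    t + algebraMap K₀ (s34m_F K₀ N) c ≠ 0 := by
  intro h0
  have h1 : (t : LaurentSeries K₀) = algebraMap K₀ (LaurentSeries K₀) (-c) := by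
    have e1 : t = algebraMap K₀ (s34m_F K₀ N) (-c) := by
      rw [map_neg]; exact eq_neg_of_add_eq_zero_left h0
    rw [e1]
    rfl
  have htr : Transcendental K₀ (t : LaurentSeries K₀) := by
    rw [ht]; exact s18b_transcendental_t2 K₀
  rw [h1] at htr
  exact htr (isAlgebraic_algebraMap _)

include hp hpM in
/-- helper8's three properties of `g₀ = s44e_g0 M p h` (the body of `s44e_exists_unit`, with `h` kept). -/
theorem s59n_g0_pack (hp5 : 5 ≤ p) (e : ℕ) (ε : K₀) (hε : ε ∈ G.A) (hεinv : ε⁻¹ ∈ G.A)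
    (hpe : ((p : ℕ) : K₀) = ε * ((G.ϖ : G.A) : K₀) ^ e) (h : 𝓕)
    (hrel : D K₀ 𝓕 (jB : 𝓕) = h • D K₀ 𝓕 (jA : 𝓕)) :
    (∀ Q : Place K₀ 𝓕, 0 ≤ Q.ord (s18g_jF (K := K₀) (M * p)) → Q.ord (s44e_g0 M p h) = 0) ∧
      (s44e_g0 M p h * (s34m_unif G (M * p) ^ (6 * e))⁻¹ ∈ s34m_Vinf G (M * p) ∧
        (s44e_g0 M p h * (s34m_unif G (M * p) ^ (6 * e))⁻¹)⁻¹ ∈ s34m_Vinf G (M * p)) ∧
      (s44e_g0 M p h * s34m_unif G (M * p) ^ (6 * e) ∈ s34m_Vzero G φ M p hp hpM ∧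
        (s44e_g0 M p h * s34m_unif G (M * p) ^ (6 * e))⁻¹ ∈ s34m_Vzero G φ M p hp hpM) := by
  refine ⟨fun Q hQ => s44e_g0_ord φ M p hp hpM hp5 h hrel Q hQ, ?_, ?_⟩
  · obtain ⟨h1, h2⟩ := s44e_g0_Vinf G φ M p hp hpM h hrel
    have hεV : algebraMap K₀ 𝓕 ε ∈ s34m_Vinf G (M * p) :=
      s34c_const_mem_VV G φ M p hp hpM true ⟨ε, hε⟩
    have hεV' : algebraMap K₀ 𝓕 ε⁻¹ ∈ s34m_Vinf G (M * p) :=
      s34c_const_mem_VV G φ M p hp hpM true ⟨ε⁻¹, hεinv⟩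
    have hP : algebraMap K₀ 𝓕 ((p : ℕ) : K₀) =
        algebraMap K₀ 𝓕 ε * s34m_unif G (M * p) ^ e := by
      rw [hpe, map_mul, map_pow]; rfl
    have hε0 : algebraMap K₀ 𝓕 ε ≠ 0 := by
      intro h0
      have hp0 : algebraMap K₀ 𝓕 ((p : ℕ) : K₀) ≠ 0 :=
        (map_ne_zero _).mpr (by exact_mod_cast NeZero.ne p)
      rw [hP, h0, zero_mul] at hp0
      exact hp0 rfl
    have hϖ0 := s34m_unif_ne_zero G (M * p)
    rw [s44e_field_aux1 (s44e_g0 M p h) _ _ _ e hP hε0 hϖ0]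
    refine ⟨mul_mem h1 (pow_mem hεV 6), ?_⟩
    rw [s44e_field_aux3, ← map_inv₀]
    exact mul_mem h2 (pow_mem hεV' 6)
  · obtain ⟨h1, h2⟩ := s44e_g0_Vzero G φ M p hp hpM h hrel
    have hεV : algebraMap K₀ 𝓕 ε ∈ s34m_Vzero G φ M p hp hpM :=
      s34c_const_mem_VV G φ M p hp hpM false ⟨ε, hε⟩
    have hεV' : algebraMap K₀ 𝓕 ε⁻¹ ∈ s34m_Vzero G φ M p hp hpM :=
      s34c_const_mem_VV G φ M p hp hpM false ⟨ε⁻¹, hεinv⟩
    have hP : algebraMap K₀ 𝓕 ((p : ℕ) : K₀) =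
        algebraMap K₀ 𝓕 ε * s34m_unif G (M * p) ^ e := by
      rw [hpe, map_mul, map_pow]; rfl
    have hε0 : algebraMap K₀ 𝓕 ε ≠ 0 := by
      intro h0
      have hp0 : algebraMap K₀ 𝓕 ((p : ℕ) : K₀) ≠ 0 :=
        (map_ne_zero _).mpr (by exact_mod_cast NeZero.ne p)
      rw [hP, h0, zero_mul] at hp0
      exact hp0 rfl
    have hϖ0 := s34m_unif_ne_zero G (M * p)
    rw [s44e_field_aux2 (s44e_g0 M p h) _ _ _ e hP hε0 hϖ0]
    rw [map_inv₀] at hεV'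
    refine ⟨mul_mem h1 (pow_mem hεV' 6), ?_⟩
    rw [s44e_field_aux4]
    exact mul_mem h2 (pow_mem hεV 6)

include hp hpM in
set_option maxHeartbeats 1600000 in
/-- **THE MODULAR UNIT OF WEIGHT 4 AT EVEN LEVEL, packaged** (`(p) = ε ϖ^e`; here `p ≥ 5` is the LEVEL prime = the residue
characteristic).  There is `η ∈ 𝓕ˣ` with neither zero nor pole at the places at which `j` is regular,
`η = ϖ^(2e) · (unit of V_∞) = ϖ^(-2e) · (unit of V_0)`. -/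
theorem s59n_exists_unit_two (hp5 : 5 ≤ p) (h2M : 2 ∣ M) (e : ℕ) (ε : K₀) (hε : ε ∈ G.A)
    (hεinv : ε⁻¹ ∈ G.A) (hpe : ((p : ℕ) : K₀) = ε * ((G.ϖ : G.A) : K₀) ^ e) :
    ∃ η : 𝓕, η ≠ 0 ∧
      (∀ Q : Place K₀ 𝓕, 0 ≤ Q.ord (s18g_jF (K := K₀) (M * p)) → Q.ord η = 0) ∧
      (η * (s34m_unif G (M * p) ^ (2 * e))⁻¹ ∈ s34m_Vinf G (M * p) ∧
        (η * (s34m_unif G (M * p) ^ (2 * e))⁻¹)⁻¹ ∈ s34m_Vinf G (M * p)) ∧
      (η * s34m_unif G (M * p) ^ (2 * e) ∈ s34m_Vzero G φ M p hp hpM ∧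
        (η * s34m_unif G (M * p) ^ (2 * e))⁻¹ ∈ s34m_Vzero G φ M p hp hpM) := by
  haveI : FFGen K₀ (s18g_jF (K := K₀) (M * p)) :=
    s18b_ffGen_jF (M * p) (fun n b hb hn => s18g_exists_relation (M * p) φ hn b hb)
  obtain ⟨h, hrel⟩ := s36r_exists_D_eq (laurentBaseChange K₀ (modularFunctionFieldFull (M * p)))
    (s18g_jF (K := K₀) (M * p)) (jB : 𝓕) (jA : 𝓕) (s44e_theta_jA_ne_zero M p)
  obtain ⟨hord, ⟨hi1, hi2⟩, ⟨hz1, hz2⟩⟩ := s59n_g0_pack G φ M p hp hpM hp5 e ε hε hεinv hpe h hrel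
  have hg0 : s44e_g0 M p h ≠ 0 := s44e_g0_ne_zero φ M p hp hpM h hrel
  have hp2 : p ≠ 2 := by omega
  -- the coordinate `t₂`
  obtain ⟨tM, htM, ⟨hwV, -⟩, hwinvV, -, -, hwt, hw0, -, -, -, -, -, -⟩ :=
    s34m_base_t2 G φ M p hp hpM h2M hp2
  have htM0 : tM ≠ 0 := by
    intro h0
    apply s18b_t2_ne_zero K₀
    rw [← htM, h0]; rfl
  set tA : 𝓕 := heckeAlphaBar K₀ M p tM with htA
  set tB : 𝓕 := heckeBetaBar K₀ M p tM with htB
  have htA0 : tA ≠ 0 := (map_ne_zero _).mpr htM0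
  have htB0 : tB ≠ 0 := (map_ne_zero _).mpr htM0
  -- the relation at level `M`, and its two images
  have hrelM : s18g_jF (K := K₀) M * tM ^ 2 = (tM + 256) ^ 3 := by
    apply Subtype.ext
    push_cast
    rw [s18g_coe_jF, htM]
    exact s18u_t2_rel_j K₀
  have hA : (jA : 𝓕) * tA ^ 2 = (tA + 256) ^ 3 := by
    have := congrArg (heckeAlphaBar K₀ M p) hrelM
    rwa [map_mul, map_pow, map_pow, map_add, map_ofNat] at this
  have hB : (jB : 𝓕) * tB ^ 2 = (tB + 256) ^ 3 := by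
    have := congrArg (heckeBetaBar K₀ M p) hrelM
    rwa [map_mul, map_pow, map_pow, map_add, map_ofNat] at this
  -- non-vanishing
  have hne : ∀ c : K₀, tM + algebraMap K₀ (s34m_F K₀ M) c ≠ 0 :=
    fun c => s59n_t2_add_ne_zero M tM htM c
  have hneA : ∀ c : K₀, tA + algebraMap K₀ 𝓕 c ≠ 0 := by
    intro c
    have := (map_ne_zero (heckeAlphaBar K₀ M p)).mpr (hne c)
    rwa [map_add, AlgHom.commutes] at this
  have hneB : ∀ c : K₀, tB + algebraMap K₀ 𝓕 c ≠ 0 := by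
    intro c
    have := (map_ne_zero (heckeBetaBar K₀ M p)).mpr (hne c)
    rwa [map_add, AlgHom.commutes] at this
  have hA1 : tA + 256 ≠ 0 := by have := hneA 256; rwa [map_ofNat] at this
  have hA2 : tA - 512 ≠ 0 := by
    have := hneA (-512); rwa [map_neg, map_ofNat, ← sub_eq_add_neg] at this
  have hA3 : tA + 64 ≠ 0 := by have := hneA 64; rwa [map_ofNat] at this
  have hB1 : tB + 256 ≠ 0 := by have := hneB 256; rwa [map_ofNat] at this
  have hB2 : tB - 512 ≠ 0 := by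
    have := hneB (-512); rwa [map_neg, map_ofNat, ← sub_eq_add_neg] at this
  have hB3 : tB + 64 ≠ 0 := by have := hneB 64; rwa [map_ofNat] at this
  -- the cube identity
  set η : 𝓕 := s59n_eta2 h tA tB with hη
  have hcube : η ^ 3 = s44e_g0 M p h * (tB / tA) ^ 4 := by
    rw [hη, s59n_eta2_cube h (jA : 𝓕) (jB : 𝓕) tA tB hA hB htA0 htB0 hA1 hA2 hA3 hB1 hB2 hB3,
      s44e_g0, s44e_alpha_X, s44e_beta_X, map_ofNat]
  have hq0 : tB / tA ≠ 0 := div_ne_zero htB0 htA0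
  have hη0 : η ≠ 0 := by
    intro h0
    rw [h0, zero_pow (by norm_num)] at hcube
    exact mul_ne_zero hg0 (pow_ne_zero 4 hq0) hcube.symm
  -- `t_A`, `t_B` are units of `V_∞` and `V_0`
  have hAV : ∀ i, tA ∈ s34m_VV G φ M p hp hpM i ∧ tA⁻¹ ∈ s34m_VV G φ M p hp hpM i := by
    intro i
    refine ⟨s34m_alpha_mem_VV G φ M p hp hpM hwV i, ?_⟩
    rw [htA, ← map_inv₀]
    exact s34m_alpha_mem_VV G φ M p hp hpM hwinvV i
  have hBV : ∀ i, tB ∈ s34m_VV G φ M p hp hpM i ∧ tB⁻¹ ∈ s34m_VV G φ M p hp hpM i := by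
    intro i
    refine ⟨s34m_beta_mem_VV G φ M p hp hpM hwV i, ?_⟩
    rw [htB, ← map_inv₀]
    exact s34m_beta_mem_VV G φ M p hp hpM hwinvV i
  have hqV : ∀ i, (tB / tA) ^ 4 ∈ s34m_VV G φ M p hp hpM i ∧
      ((tB / tA) ^ 4)⁻¹ ∈ s34m_VV G φ M p hp hpM i := by
    intro i
    refine ⟨pow_mem (by rw [div_eq_mul_inv]; exact mul_mem (hBV i).1 (hAV i).2) 4, ?_⟩
    rw [← inv_pow, inv_div]
    exact pow_mem (by rw [div_eq_mul_inv]; exact mul_mem (hAV i).1 (hBV i).2) 4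
  have hϖ0 := s34m_unif_ne_zero G (M * p)
  refine ⟨η, hη0, fun Q hQ => ?_, ?_, ?_⟩
  · -- orders
    have hjA : (jA : 𝓕) = s18g_jF (K := K₀) (M * p) := Subtype.ext rfl
    have hjA0 : (jA : 𝓕) ≠ 0 := by rw [hjA]; exact s18g_jF_ne_zero (M * p)
    have h256 : (256 : 𝓕) ≠ 0 := by norm_num
    have oA : Q.ord tA = 0 :=
      s59n_ord_t2_eq_zero Q hA htA0 hjA0 h256 (by rw [hjA]; exact hQ)
    have hcl := s34e_cusp_hclaim_t2 G φ M p hp hpM hp2 tM htM Q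
    have oB : Q.ord tB = 0 := by
      have h1 : 0 ≤ Q.ord tB := hcl.1 (le_of_eq oA.symm)
      have h2 : Q.ord tB ≤ 0 := hcl.2 (le_of_eq oA)
      omega
    have h3 := congrArg Q.ord hcube
    rw [s44e_ord_pow, Q.ord_mul hg0 (pow_ne_zero 4 hq0), s44e_ord_pow, div_eq_mul_inv,
      Q.ord_mul htB0 (inv_ne_zero htA0), Q.ord_inv, oA, oB, hord Q hQ] at h3
    push_cast at h3
    omega
  · -- `V_∞`
    have hy : (η * (s34m_unif G (M * p) ^ (2 * e))⁻¹) ^ 3 =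
        s44e_g0 M p h * (s34m_unif G (M * p) ^ (6 * e))⁻¹ * (tB / tA) ^ 4 := by
      rw [mul_pow, hcube, inv_pow, ← pow_mul]
      have : 2 * e * 3 = 6 * e := by ring
      rw [this]; ring
    refine s59n_cube_unit (s34m_Vinf G (M * p)) hy (mul_mem hi1 (hqV true).1) ?_
    rw [mul_inv]
    exact mul_mem hi2 (hqV true).2
  · -- `V_0`
    have hy : (η * s34m_unif G (M * p) ^ (2 * e)) ^ 3 =
        s44e_g0 M p h * s34m_unif G (M * p) ^ (6 * e) * (tB / tA) ^ 4 := by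
      rw [mul_pow, hcube, ← pow_mul]
      have : 2 * e * 3 = 6 * e := by ring
      rw [this]; ring
    refine s59n_cube_unit (s34m_Vzero G φ M p hp hpM) hy (mul_mem hz1 (hqV false).1) ?_
    rw [mul_inv]
    exact mul_mem hz2 (hqV false).2

end Level

end Fermat.Agent.Lib.S59
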