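/-
Programme "R2-bg", blocker [MP′] at `p = 3` (helper7, prefix `s59n_`): **[A] = FIN AT EVEN LEVEL FOR EVERY ODD EXPONENT.**

Verbatim `NStarAbs.s59n_five_eta_tame`, `NStarField.s59n_star_tame`, `NStar.s59n_star_tame_inst`, `NStar.s59n_fin` with helper8's
modular unit `g₀` (`δ = -12 e`) replaced by the weight-4 unit `η₂` of `NUnitTwo.lean` (`δ = -4 e`, level `M q`, `2 ∣ M`): the tame
condition `p ∤ 12 e` becomes `p ∤ 4 e`, i.e. `p` odd (and `p ∤ e`, automatic for `L` unramified at `q`).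

* `s59n_FinEven`  : [A] for `q ≥ 5`, `2 ∣ M`, every odd prime `p ≠ q` — in particular `p = 3`;
* `s59n_fin_even` : `s59n_Q4Z → s59n_FinEven`.
-/
import Fermat.Agent.Lib.S59.NStar
import Fermat.Agent.Lib.S59.NUnitTwo

set_option autoImplicit false
set_option linter.style.haveILetI false
set_option linter.unusedSectionVars false
set_option synthInstance.maxHeartbeats 400000

noncomputable section

namespace Fermat.Agent.Lib.S59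

open ModularCurve HahnSeries AlgebraicCurve Polynomial Fermat.Agent.Lib.S18 Fermat.Agent.Lib.S28
  Fermat.Agent.Lib.S29 Fermat.Agent.Lib.S37 Fermat.Agent.Lib.FF Fermat.Agent.Lib.S34
  Fermat.Agent.Lib.S35 Fermat.Agent.Lib.S36 Fermat.Agent.Lib.S33 Fermat.Agent.Lib.Frey
  Fermat.Agent.Lib.S44

local notation "Kb" => AlgebraicClosure ℚ
local notation "Γℚ" => (AlgebraicClosure ℚ ≃ₐ[ℚ] AlgebraicClosure ℚ)

section TwoEta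

variable (M q : ℕ) [NeZero M] [hq : Fact q.Prime] (hqM : ¬ q ∣ M) (h5 : 5 ≤ q)
  (K₀ : Type) [Field K₀] [NumberField K₀] (φ : K₀ →+* AlgebraicClosure ℚ)
  (κ : Type) [Field κ] [CharP κ q] [PerfectField κ]
  (G : s18g_GaussData K₀ κ) [IsDiscreteValuationRing G.A]
  (hdeg : s34m_HDeg K₀ M q) (hT : s18g_HT κ M) (hdegM : s18g_HDeg K₀ M)
  (hπ : Function.Surjective G.π)
  (e : ℕ) (ε : K₀) (he : 0 < e) (hε : ε ∈ G.A) (hεinv : ε⁻¹ ∈ G.A) (hε0 : ε ≠ 0)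
  (hqe : (q : K₀) = ε * ((G.ϖ : G.A) : K₀) ^ e) (hperf : ∀ c : κ, ∃ d : κ, d ^ q = c)

/-- **the weight-4 unit of `NUnitTwo.lean` is an admissible `η` for the exponent `p`** as soon as `p ∤ 4 e`. -/
theorem s59n_two_eta_tame {p : ℕ} {g₀ : s34m_F K₀ (M * q)} (hg₀ : g₀ ≠ 0)
    (hord : ∀ Q : Place K₀ (s34m_F K₀ (M * q)), 0 ≤ Q.ord (s18g_jF (K := K₀) (M * q)) →
      Q.ord g₀ = 0)
    (hinf : g₀ * (s34m_unif G (M * q) ^ (2 * e))⁻¹ ∈ s34m_Vinf G (M * q) ∧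
      (g₀ * (s34m_unif G (M * q) ^ (2 * e))⁻¹)⁻¹ ∈ s34m_Vinf G (M * q))
    (hzero : g₀ * s34m_unif G (M * q) ^ (2 * e) ∈ s34m_Vzero G φ M q hq.out hqM ∧
      (g₀ * s34m_unif G (M * q) ^ (2 * e))⁻¹ ∈ s34m_Vzero G φ M q hq.out hqM)
    (hp1 : ¬ p ∣ 4 * e) :
    (∀ s, s44c_Unit (s44c_five_Ns M q hqM K₀ φ κ G s) g₀) ∧
      ¬ (p : ℤ) ∣ s44c_delta
        (s33s_datum_five M q hqM h5 K₀ φ κ G hdeg hT hdegM hπ e ε he hε hεinv hε0 hqe hperf) g₀ := by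
  set Z := s33s_datum_five M q hqM h5 K₀ φ κ G hdeg hT hdegM hπ e ε he hε hεinv hε0 hqe hperf
    with hZ
  have hϖ0 : s34m_unif G (M * q) ≠ 0 := s34m_unif_ne_zero G (M * q)
  have hj0 : s18g_jF (K := K₀) (M * q) ≠ 0 := s18g_jF_ne_zero (M * q)
  refine ⟨fun s => ⟨hg₀, fun Q hQ => hord Q ?_⟩, ?_⟩
  · have hQ1 : Q ∈ s18_chart1 (L₀ := K₀) (s18g_jF (K := K₀) (M * q)) := hQ.1
    exact (ff_mem_iff_ord_nonneg Q hj0).mp hQ1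
  · have hi : s44c_Val Z.Di ((2 * e : ℕ) : ℤ) g₀ := by
      refine ⟨g₀ * (s34m_unif G (M * q) ^ (2 * e))⁻¹,
        mul_ne_zero hg₀ (inv_ne_zero (pow_ne_zero _ hϖ0)), hinf.1, hinf.2, ?_⟩
      show g₀ = s34m_unif G (M * q) ^ ((2 * e : ℕ) : ℤ) * _
      rw [zpow_natCast]
      field_simp
    have hz : s44c_Val Z.Dz (-((2 * e : ℕ) : ℤ)) g₀ := by
      refine ⟨g₀ * s34m_unif G (M * q) ^ (2 * e),
        mul_ne_zero hg₀ (pow_ne_zero _ hϖ0), hzero.1, hzero.2, ?_⟩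
      show g₀ = s34m_unif G (M * q) ^ (-((2 * e : ℕ) : ℤ)) * _
      rw [zpow_neg, zpow_natCast]
      field_simp
    rw [s44c_delta_eq hi hz]
    intro hd
    apply hp1
    have h1 : ((p : ℕ) : ℤ) ∣ ((4 * e : ℕ) : ℤ) := by
      push_cast at hd ⊢
      have : (-(2 * (e : ℤ)) - 2 * (e : ℤ)) = -(4 * (e : ℤ)) := by ring
      rw [this] at hd
      exact (dvd_neg.mp hd)
    exact Int.natCast_dvd_natCast.mp h1

end TwoEta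

section TwoTau

variable (M q : ℕ) [NeZero M] [hq : Fact q.Prime] (hqM : ¬ q ∣ M) (h5 : 5 ≤ q)
  (L₀ : IntermediateField ℚ Kb) [NumberField ↥L₀]
  (κ : Type) [Field κ] [CharP κ q] [PerfectField κ]
  (G : s18g_GaussData ↥L₀ κ) [IsDiscreteValuationRing G.A]
  (hdeg : s34m_HDeg ↥L₀ M q) (hT : s18g_HT κ M) (hdegM : s18g_HDeg ↥L₀ M)
  (hπ : Function.Surjective G.π)
  (e : ℕ) (ε : ↥L₀) (he : 0 < e) (hε : ε ∈ G.A) (hεinv : ε⁻¹ ∈ G.A) (hε0 : ε ≠ 0)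
  (hqe : (q : ↥L₀) = ε * ((G.ϖ : G.A) : ↥L₀) ^ e) (hperf : ∀ c : κ, ∃ d : κ, d ^ q = c)
  (ℓ : ℕ) [hℓ : Fact ℓ.Prime] (hℓN : ¬ ℓ ∣ M * q)
  (ζ₀ : (↥L₀)ˣ) (hζ₀ : IsPrimitiveRoot (ζ₀ : ↥L₀) ℓ)
  (p : ℕ) [hp : Fact p.Prime]

include h5 hdeg hT hdegM hπ he hε hεinv hε0 hqe hperf hℓN hζ₀ in
set_option maxHeartbeats 3200000 in
/-- **(★) over the field `L₀`, TAME CASE `p ∤ 4 e`, EVEN LEVEL `2 ∣ M`, level `M * q`, exponent `p`.** -/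
theorem s59n_star_tame_two (h2M : 2 ∣ M) (hp1 : ¬ p ∣ 4 * e)
    {x : JZero (M * q)} {f : s34m_F ↥L₀ (M * q)}
    (hf : s33d_IsKumGen p x (s18q_incl (M * q) L₀ f)) (a₀ : ℤ)
    (hx : heckeOperatorBar (M * q) ⟨ℓ, hℓ.out⟩ x = a₀ • x)
    (ha₀ : ¬ (p : ℤ) ∣ a₀ - ((ℓ : ℤ) + 1))
    (hQ4 : ∀ s : s33s_Node (s34m_VV G (algebraMap ↥L₀ Kb) M q hq.out hqM) (s34m_unif G (M * q))
        (s18_chart1 (L₀ := ↥L₀) (s18g_jF (K := ↥L₀) (M * q))),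
      ∃ Φ : s34m_F ↥L₀ (M * q), Φ ≠ 0 ∧
        ∀ Q ∈ s18_chart1 (L₀ := ↥L₀) (s18g_jF (K := ↥L₀) (M * q)),
          s34f_through (s34x_infRing (s34m_VV G (algebraMap ↥L₀ Kb) M q hq.out hqM))
            (s18_chart1 (L₀ := ↥L₀) (s18g_jF (K := ↥L₀) (M * q))) s.1 Q →
          Q.ord f = ((p : ℕ) : ℤ) * Q.ord Φ) :
    ∃ (Gg h : s34m_F ↥L₀ (M * q)) (a : ℤ), Gg ≠ 0 ∧
      f = Gg ^ p * (s34m_unif G (M * q) ^ a * h) ∧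
      (∀ i, h ∈ s34m_VV G (algebraMap ↥L₀ Kb) M q hq.out hqM i ∧
        h⁻¹ ∈ s34m_VV G (algebraMap ↥L₀ Kb) M q hq.out hqM i) ∧
      ∀ Q ∈ s33s_nodePlaces (s34m_VV G (algebraMap ↥L₀ Kb) M q hq.out hqM) (s34m_unif G (M * q))
        (s18_chart1 (L₀ := ↥L₀) (s18g_jF (K := ↥L₀) (M * q))), Q.ord h = 0 := by
  haveI : NeZero q := ⟨hq.out.ne_zero⟩
  haveI : NeZero p := ⟨hp.out.ne_zero⟩
  have hf0 : f ≠ 0 := (s33d_kum_of_gen (M * q) p L₀ hf).1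
  -- the modular unit
  obtain ⟨g₀, hg₀, hord, hinf, hzero⟩ :=
    s59n_exists_unit_two G (algebraMap ↥L₀ Kb) M q hq.out hqM h5 h2M e ε hε hεinv hqe
  obtain ⟨hη, hη2⟩ := s59n_two_eta_tame M q hqM h5 ↥L₀ (algebraMap ↥L₀ Kb) κ G hdeg hT hdegM hπ e ε
    he hε hεinv hε0 hqe hperf (p := p) hg₀ hord hinf hzero hp1
  -- the node factorisations
  have hnode : ∀ s : s33s_Node (s34m_VV G (algebraMap ↥L₀ Kb) M q hq.out hqM) (s34m_unif G (M * q))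
      (s18_chart1 (L₀ := ↥L₀) (s18g_jF (K := ↥L₀) (M * q))),
      ∃ φ' E : s34m_F ↥L₀ (M * q), f = φ' ^ p * E ∧
        s44c_Unit (s44c_five_Ns M q hqM ↥L₀ (algebraMap ↥L₀ Kb) κ G s) E := by
    intro s
    obtain ⟨Φ, hΦ0, hΦ⟩ := hQ4 s
    refine ⟨Φ, f / Φ ^ p, ?_, div_ne_zero hf0 (pow_ne_zero p hΦ0), fun Q hQ => ?_⟩
    · rw [mul_div_cancel₀ _ (pow_ne_zero _ hΦ0)]
    · rw [div_eq_mul_inv, Q.ord_mul hf0 (inv_ne_zero (pow_ne_zero p hΦ0)), Q.ord_inv,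
        ← zpow_natCast, Q.ord_zpow, hΦ Q hQ.1 hQ.2]
      ring
  exact s44e_glob_five M q hqM h5 ↥L₀ (algebraMap ↥L₀ Kb) κ G hdeg hT hdegM hπ p hp.out.ne_zero f hf0
    (fun s => s59n_five_star_tame_tau M q hqM h5 L₀ κ G hdeg hT hdegM hπ e ε he hε hεinv hε0 hqe hperf
      ℓ hℓN ζ₀ hζ₀ p hnode hf a₀ hx ha₀ hη hη2 s)

end TwoTau

section TwoInst

variable (M q : ℕ) [NeZero M] [hq : Fact q.Prime] (hqM : ¬ q ∣ M) (h5 : 5 ≤ q)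
  (p : ℕ) [hp : Fact p.Prime]
  (P : ValuationSubring Kb) (hP : P.LiesOverPrime q)
  (Z : IntermediateField ℚ Kb) [FiniteDimensional ℚ ↥Z] [IsDiscreteValuationRing ↥(s18q_A0 P Z)]
  (ϖ : ↥(s18q_A0 P Z)) (hϖ : Irreducible ϖ)
  (e : ℕ) (ε : ↥Z) (he : 0 < e) (hε : ε ∈ s18q_A0 P Z) (hεinv : ε⁻¹ ∈ s18q_A0 P Z) (hε0 : ε ≠ 0)
  (hqe : (q : ↥Z) = ε * ((ϖ : ↥(s18q_A0 P Z)) : ↥Z) ^ e)
  (ℓ : ℕ) [hℓ : Fact ℓ.Prime] (hℓN : ¬ ℓ ∣ M * q)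
  (ζ₀ : (↥Z)ˣ) (hζ₀ : IsPrimitiveRoot (ζ₀ : ↥Z) ℓ)

include h5 hP he hε hεinv hε0 hqe hℓN hζ₀ in
set_option maxHeartbeats 1600000 in
/-- **(★) over `Z`, TAME CASE `p ∤ 4 e`, `2 ∣ M`**, at the Gauss datum `s37r_G P Z ϖ hϖ`. -/
theorem s59n_star_tame_two_inst (h2M : 2 ∣ M) (hp1 : ¬ p ∣ 4 * e)
    {x : JZero (M * q)} {f : s34m_F ↥Z (M * q)}
    (hf : s33d_IsKumGen p x (s18q_incl (M * q) Z f)) (a₀ : ℤ)
    (hx : heckeOperatorBar (M * q) ⟨ℓ, hℓ.out⟩ x = a₀ • x)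
    (ha₀ : ¬ (p : ℤ) ∣ a₀ - ((ℓ : ℤ) + 1))
    (hQ4 : s59n_Q4Node M q p hqM P Z ϖ hϖ f) :
    s59n_GlobConcl M q p hqM P Z ϖ hϖ f := by
  haveI : NumberField ↥Z := ⟨⟩
  haveI hchar₀ : CharP (IsLocalRing.ResidueField ↥(s18q_A0 P Z)) q := s37rl_charP P hP Z
  haveI hperf₀ : PerfectField (IsLocalRing.ResidueField ↥(s18q_A0 P Z)) :=
    s37rl_perfectField P hP Z
  haveI : PerfectRing (IsLocalRing.ResidueField ↥(s18q_A0 P Z)) q := PerfectField.toPerfectRing q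
  haveI : IsDiscreteValuationRing ↥(s37r_G P Z ϖ hϖ).A :=
    (inferInstance : IsDiscreteValuationRing ↥(s18q_A0 P Z))
  have hT : s18g_HT (IsLocalRing.ResidueField ↥(s18q_A0 P Z)) M := s18t_indep_j q M hqM _
  have hdegM : s18g_HDeg ↥Z M := fun n b hb hn =>
    s18g_exists_relation M (algebraMap ↥Z Kb) hn b hb
  have hdeg : s34m_HDeg ↥Z M q := s34r_deg_HDeg (algebraMap ↥Z Kb) M q hq.out hqM
  have hπ : Function.Surjective (s37r_G P Z ϖ hϖ).π := IsLocalRing.residue_surjective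
  have hperf : ∀ c : IsLocalRing.ResidueField ↥(s18q_A0 P Z), ∃ d, d ^ q = c :=
    fun c => surjective_frobenius _ q c
  exact s59n_star_tame_two M q hqM h5 Z (IsLocalRing.ResidueField ↥(s18q_A0 P Z)) (s37r_G P Z ϖ hϖ) hdeg
    hT hdegM hπ e ε he hε hεinv hε0 hqe hperf ℓ hℓN ζ₀ hζ₀ p h2M hp1 hf a₀ hx ha₀ hQ4

end TwoInst

/-- **[A] = FIN at EVEN level, every odd exponent `p ≠ q`.** -/
def s59n_FinEven : Prop :=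
  ∀ (M q : ℕ) [NeZero M] [hq : Fact q.Prime] (hqM : ¬ q ∣ M), 5 ≤ q → 2 ∣ M →
    ∀ (p : ℕ) [Fact p.Prime], p ≠ 2 → p ≠ q →
    ∀ (P : ValuationSubring Kb), P.LiesOverPrime q →
    ∀ (L : IntermediateField ℚ Kb) [FiniteDimensional ℚ ↥L] [Normal ℚ ↥L],
      (∀ τ ∈ P.inertiaSubgroupIn ℚ, ∀ a ∈ L, τ a = a) →
    ∀ x : JZero (M * q), p • x = 0 →
      (∀ σ : Γℚ, (∀ a ∈ L, σ a = a) → σ • x = x) →
      (∃ (ℓ₀ : Nat.Primes) (a₀ : ℤ), ¬ (ℓ₀ : ℕ) ∣ M * q ∧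
        heckeOperatorBar (M * q) ℓ₀ x = a₀ • x ∧ ¬ (p : ℤ) ∣ a₀ - ((ℓ₀ : ℕ) + 1)) →
      s59n_Finite M q p hqM P x

set_option maxHeartbeats 4000000 in
/-- **[A] at EVEN level, every odd exponent, from [A-Q4].** -/
theorem s59n_fin_even (hQ : s59n_Q4Z) : s59n_FinEven := by
  intro M q _ hq hqM h5 h2M p hp hp2 hpq P hP L _ _ hunr x hpx hfix ⟨ℓ₀, a₀, hℓ₀, hTx, ha₀⟩
  classical
  haveI : NeZero p := ⟨hp.out.ne_zero⟩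
  haveI : NeZero q := ⟨hq.out.ne_zero⟩
  have hℓq : (ℓ₀ : ℕ) ≠ q := by
    rintro h
    exact hℓ₀ (h ▸ Dvd.intro_left M rfl)
  -- the level `L`
  haveI hdvrL : IsDiscreteValuationRing ↥(s18q_A0 P L) := s18q_A0_dvr P L hP
  obtain ⟨ϖL, hϖL⟩ := IsDiscreteValuationRing.exists_irreducible ↥(s18q_A0 P L)
  obtain ⟨e, ε, he, hε, hεinv, hε0, hqe⟩ := s33t_exists_e P L hq.out hP ϖL hϖL
  -- `p ∤ 12 e`
  have hpe : ¬ p ∣ e := s59n_not_dvd_of_unram q p P hP L ϖL hϖL e ε hε hεinv hqe hunr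
  have hp12 : ¬ p ∣ 4 * e := by
    intro hd
    rcases (Nat.Prime.dvd_mul hp.out).mp hd with h4 | h
    · have h22 : p ∣ 2 * 2 := h4
      rcases (Nat.Prime.dvd_mul hp.out).mp h22 with h | h <;>
        exact hp2 ((Nat.prime_dvd_prime_iff_eq hp.out Nat.prime_two).mp h)
    · exact hpe h
  -- [Q-DIV]
  obtain ⟨fL, hfL⟩ := s44e_qdiv (M * q) p L x hpx hfix
  obtain ⟨hfL0, hdivL⟩ := s33d_kum_of_gen (M * q) p L hfL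
  -- [RAT]
  obtain ⟨L₂, hL₂fd, hQ4⟩ := hQ M q hqM h5 p hpq P hP L fL hfL0 hdivL
  -- roots of unity
  haveI : NeZero (ℓ₀ : ℕ) := ⟨ℓ₀.2.ne_zero⟩
  obtain ⟨ζℓ, hζℓ⟩ := HasEnoughRootsOfUnity.exists_primitiveRoot Kb (ℓ₀ : ℕ)
  haveI := hL₂fd
  haveI : FiniteDimensional ℚ ↥(IntermediateField.adjoin ℚ {ζℓ}) :=
    IntermediateField.adjoin.finiteDimensional ((hζℓ.isIntegral ℓ₀.2.pos).tower_top (A := ℚ))
  haveI : FiniteDimensional ℚ ↥(L ⊔ L₂) := IntermediateField.finiteDimensional_sup _ _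
  haveI : FiniteDimensional ℚ ↥(L ⊔ L₂ ⊔ IntermediateField.adjoin ℚ {ζℓ}) :=
    IntermediateField.finiteDimensional_sup _ _
  refine ⟨L ⊔ L₂ ⊔ IntermediateField.adjoin ℚ {ζℓ}, inferInstance, ?_⟩
  intro L₀ _ _ _ ϖ hϖ hLx
  have hLL : L ≤ L₀ := (le_sup_left.trans le_sup_left).trans hLx
  have hL₂L₀ : L₂ ≤ L₀ := (le_sup_right.trans le_sup_left).trans hLx
  have hζℓL₀ : ζℓ ∈ L₀ :=
    hLx (le_sup_right (a := L ⊔ L₂) (IntermediateField.subset_adjoin ℚ {ζℓ} (Set.mem_singleton ζℓ)))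
  -- the inertia field `Z`
  haveI hZfd : FiniteDimensional ℚ ↥(s44s_Z P L L₀) := s44s_Z_finiteDimensional P L L₀
  haveI hdvrZ : IsDiscreteValuationRing ↥(s18q_A0 P (s44s_Z P L L₀)) := s18q_A0_dvr P _ hP
  have hLZ : L ≤ s44s_Z P L L₀ := s44s_le_Z hLL
  have hZL₀ : s44s_Z P L L₀ ≤ L₀ := s44s_Z_le P L L₀
  -- the uniformiser, `e`, `ε` over `Z`
  have hϖLP : (((ϖL : ↥(s18q_A0 P L)) : ↥L) : Kb) ∈ P := ϖL.2
  set ϖZ : ↥(s18q_A0 P (s44s_Z P L L₀)) :=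
    ⟨⟨(((ϖL : ↥(s18q_A0 P L)) : ↥L) : Kb), hLZ (ϖL : ↥L).2⟩, hϖLP⟩ with hϖZdef
  have hϖZ : Irreducible ϖZ := s44s_irreducible_Z q hq.out P hP L L₀ hLL ϖL hϖL ϖZ rfl
  set εZ : ↥(s44s_Z P L L₀) := ⟨(ε : Kb), hLZ ε.2⟩ with hεZdef
  have hεZ : εZ ∈ s18q_A0 P (s44s_Z P L L₀) := hε
  have hεZinv : εZ⁻¹ ∈ s18q_A0 P (s44s_Z P L L₀) := by
    have h1 : ((ε⁻¹ : ↥L) : Kb) ∈ P := hεinv
    show ((εZ⁻¹ : ↥(s44s_Z P L L₀)) : Kb) ∈ P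
    simpa using h1
  have hεZ0 : εZ ≠ 0 := by
    intro h0
    apply hε0
    have := congrArg (fun z : ↥(s44s_Z P L L₀) => (z : Kb)) h0
    exact Subtype.ext this
  have hqeZ : (q : ↥(s44s_Z P L L₀)) =
      εZ * ((ϖZ : ↥(s18q_A0 P (s44s_Z P L L₀))) : ↥(s44s_Z P L L₀)) ^ e := by
    apply Subtype.ext
    have := congrArg (fun z : ↥L => (z : Kb)) hqe
    simpa using this
  -- the function over `Z`
  set f : s34m_F ↥(s44s_Z P L L₀) (M * q) := s44e_up hLZ (M * q) fL with hfdef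
  have hf : s33d_IsKumGen p x (s18q_incl (M * q) (s44s_Z P L L₀) f) := by
    rw [hfdef, s44e_incl_up]
    exact hfL
  have hQ4Z := hQ4 L₀ hLL hL₂L₀ ϖZ hϖZ
  -- the roots of unity in `Z`
  have hζℓZ : ζℓ ∈ s44s_Z P L L₀ :=
    s44e_root_mem_Z hq.out ℓ₀.2 hℓq P hP L L₀ hζℓ.pow_eq_one hζℓL₀
  obtain ⟨ζℓ₀, hζℓ₀, -⟩ := s33t_exists_zeta (s44s_Z P L L₀) ℓ₀.2 ζℓ hζℓ hζℓZ
  haveI : Fact (ℓ₀ : ℕ).Prime := ⟨ℓ₀.2⟩
  -- (G6) over `Z`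
  obtain ⟨Gg, h, a, hGg, efh, hO, hN⟩ :=
    s59n_star_tame_two_inst M q hqM h5 p P hP (s44s_Z P L L₀) ϖZ hϖZ e εZ he hεZ hεZinv hεZ0 hqeZ
      (ℓ₀ : ℕ) hℓ₀ ζℓ₀ hζℓ₀ h2M hp12 hf a₀ hTx ha₀ hQ4Z
  exact s59n_finite_up_glob M q hqM p P hZL₀ ϖZ hϖZ ϖ hϖ x f Gg h a hf hGg efh hO hN

end Fermat.Agent.Lib.S59
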