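/-
Programme "R2-bg", blocker [MP′] at `p = 3` (helper7, prefix `s59n_`): **[GEO] AND [MP′] AT EVEN LEVEL, EVERY ODD EXPONENT — PROVED.**

With the weight-4 unit `η₂` (`NUnitTwo.lean`, `δ = -4 e`) the leaf [A] holds at every level `M q`, `2 ∣ M`, `q ≥ 5`, for EVERY odd
exponent `p ≠ q` (`NStarTwo.lean`); [B] `s59m_red` and [C] `s59n_toric_geo` (main) have no restriction on `p`.  Hence:

* `s59n_finEven`   : `s59n_FinEven` ([A-Q4] = main's `s59m_Q4Z`);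
* `s59n_geo_even`  : `s59m_GeoAt p M q` for `p` odd, `q ≥ 5`, `q ≠ p`, `2 ∣ M`;
* `s59n_MP_even`   : **[MP′] at `(p, q)`, `p` odd (in particular `p = 3`), `q ≥ 5`, at every squarefree level `M₀ = M q` with `2 ∣ M₀`**,
  general semistable `W`, no hypothesis on the reduction of `W` at `q`.
-/
import Fermat.Agent.Lib.S59.NMPGraph
import Fermat.Agent.Lib.S59.NStarTwo

set_option autoImplicit false
set_option linter.style.haveILetI false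
set_option linter.unusedSectionVars false
set_option linter.unusedVariables false

namespace Fermat.Agent.Lib.S59

open ModularCurve AlgebraicCurve Fermat.Agent.Lib.FF Fermat.Agent.Lib.S28 Fermat.Agent.Lib.S29
  Fermat.Agent.Lib.S30 Fermat.Agent.Lib.S37 Fermat.Agent.Lib.S35 Fermat.Agent.Lib.S33
  Fermat.Agent.Lib.S44 Fermat.Agent.Lib.S58 WeierstrassCurve

noncomputable section

local notation "Kb" => AlgebraicClosure ℚ
local notation "Γℚ" => (AlgebraicClosure ℚ ≃ₐ[ℚ] AlgebraicClosure ℚ)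

/-- **[A] at even level, every odd exponent.** -/
theorem s59n_finEven : s59n_FinEven := s59n_fin_even s59m_Q4Z

/-- **[GEO] at `(p, M, q)`: `p` odd, `q ≥ 5`, `q ≠ p`, `2 ∣ M` — PROVED.** -/
theorem s59n_geo_even {p : ℕ} [Fact p.Prime] (hp2 : p ≠ 2) (M : ℕ) [NeZero M] {q : ℕ} [NeZero q]
    (hq : q.Prime) (hqM : ¬ q ∣ M) (h5q : 5 ≤ q) (hqp : q ≠ p) (h2M : 2 ∣ M) :
    s59m_GeoAt p M q hq hqM := by
  intro W hΔ B hB1 hne A hAq σ hσ hin x hE hfix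
  obtain ⟨ℓ₀, hℓ₀B, hℓ₀⟩ := hne
  haveI : Fact q.Prime := ⟨hq⟩
  obtain ⟨L, hLfd, hLn, hL1, hL2⟩ := s59m_exists_LH W hΔ p
  haveI := hLfd
  haveI := hLn
  have hℓ₀N : ¬ (ℓ₀ : ℕ) ∣ M * q := fun hd => hℓ₀B (hB1 ℓ₀ ℓ₀.2 (hd.mul_right p))
  have hfin : s59n_Finite M q p hqM A x :=
    s59n_finEven M q hqM h5q h2M p hp2 (Ne.symm hqp) A hAq L
      (fun τ hτ a ha => hL2 τ (hin τ hτ) a ha) x hE.1
      (fun σ' hσ' => hfix σ' (hL1 σ' hσ')) ⟨ℓ₀, W.apOfModel ℓ₀, hℓ₀N, hE.2 ℓ₀ hℓ₀B, hℓ₀⟩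
  rcases s59m_red M q hqM h5q p (Ne.symm hqp) A hAq _ B hB1 x hE hfin with h | h
  · exact Or.inl h
  · exact Or.inr (s59n_toric_geo M q hqM h5q p (Ne.symm hqp) A hAq h hσ)

/-- **[MP′] at even level** (`p` odd — in particular `p = 3` —, `q ≥ 5`, `q ≠ p`, `M₀` squarefree, `2 ∣ M₀`, `q ∣ M₀`). -/
theorem s59n_MP_even (p : ℕ) (hp : p.Prime) (hp2 : p ≠ 2) (W : WeierstrassCurve ℤ) (hΔ : W.Δ ≠ 0)
    (hirr : W.ModRepIsIrreducible p) (M₀ q : ℕ) (hM₀ : Squarefree M₀) (hq : q.Prime) (h5q : 5 ≤ q)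
    (hqp : q ≠ p) (hqM₀ : q ∣ M₀) (h2M₀ : 2 ∣ M₀) (hunr : s59_Unr W p q)
    (hres : W.IsResiduallyModularOfLevel p M₀) :
    W.IsResiduallyModularOfLevel p (M₀ / q) ∨ (p ∣ q - 1 ∧ s59_FrobScalar W p q) := by
  haveI : Fact p.Prime := ⟨hp⟩
  haveI : NeZero q := ⟨hq.ne_zero⟩
  obtain ⟨M, rfl⟩ : ∃ M, M₀ = M * q := ⟨M₀ / q, (Nat.div_mul_cancel hqM₀).symm⟩
  rw [Nat.mul_div_cancel _ hq.pos]
  have hM0 : M ≠ 0 := by
    rintro rfl
    rw [zero_mul] at hM₀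
    exact not_squarefree_zero hM₀
  haveI : NeZero M := ⟨hM0⟩
  have hqM : ¬ q ∣ M := by
    rintro ⟨k, rfl⟩
    have h1 : q * q ∣ q * k * q := ⟨k, by ring⟩
    exact hq.one_lt.ne' (Nat.isUnit_iff.mp (hM₀ q h1))
  have h2M : 2 ∣ M := by
    rcases (Nat.Prime.dvd_mul Nat.prime_two).mp h2M₀ with h | h
    · exact h
    · have := (Nat.prime_dvd_prime_iff_eq Nat.prime_two hq).mp h
      omega
  exact s59m_MP'_at s59m_old s59m_nonEis hp2 W hΔ hirr M q hq hqM hqp hunr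
    (s59n_geo_even hp2 M hq hqM h5q hqp h2M) hres

end

end Fermat.Agent.Lib.S59
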