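/-
Programme (R2) / node [MP-three], leaf [B] = RED (helper7, prefix `s59nt_`):
**[DIV-e] ON THE CHARTS OF THE HAUPTMODUL `t₂`** (level `M q`, `q = 3`, `2 ∣ M`) — the `t₂`-twin of helper9's `s59m_div_p`
(`Lib/S59/MDiv.lean`), from his coordinate-generic `s59m_divp_w_true/_false`.

`s59nt_div_p_t2` : `f ∈ 𝓕_{K₀}(M q)`, `f ≠ 0`, a unit of `V_∞` and of `V_0`, without zero or pole at the node places of the chart
`{t regular}`, satisfying the exact (Q4) `ord_Q f = e · ord_Q Φ_𝔫` at every closed point `𝔫 ∋ ϖ` of the chart rings of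
`{t regular}` and of `{1 / t regular}`:  `e ∣ ord_{v₀} (red_∞ f)` and `e ∣ ord_{v₀} (red_0 f)` at every place `v₀` of `F̄_M`.
-/
import Fermat.Agent.Lib.S59.MDiv
import Fermat.Agent.Lib.S33.KumPSsDatumT

set_option autoImplicit false
set_option linter.unusedSectionVars false
set_option linter.style.haveILetI false
set_option synthInstance.maxHeartbeats 400000

noncomputable section

namespace Fermat.Agent.Lib.S59

open ModularCurve AlgebraicCurve HahnSeries Polynomial Fermat.Agent.Lib.FF Fermat.Agent.Lib.S18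
  Fermat.Agent.Lib.S34 Fermat.Agent.Lib.S37 Fermat.Agent.Lib.S33 Fermat.Agent.Lib.S44

local notation "Kb" => AlgebraicClosure ℚ

section T2

variable (M p : ℕ) [NeZero M] [hp : Fact p.Prime] (hpM : ¬ p ∣ M) (hp3 : p = 3) (h2M : 2 ∣ M)
  (K₀ : Type) [Field K₀] [NumberField K₀] (φ : K₀ →+* Kb)
  (κ : Type) [Field κ] [CharP κ p] [PerfectField κ]
  (G : s18g_GaussData K₀ κ) [IsDiscreteValuationRing G.A]
  (hdeg : s34m_HDeg K₀ M p) (hT : s18g_HT κ M) (hdegM : s18g_HDeg K₀ M)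
  (hπ : Function.Surjective G.π)

local notation "hFM" => (fun (f : LaurentSeries K₀)
  (hf : f ∈ laurentBaseChange K₀ (modularFunctionFieldFull M)) => s18g_baseChange_mem_Frac G M hf)
local notation "FbM" => modularFunctionFieldFullC κ M
local notation "OO" => s34m_VV G φ M p hp.out hpM
local notation "ϖF" => s34m_unif G (M * p)

include hp3 h2M hπ in
set_option maxHeartbeats 1600000 in
/-- **[DIV-e] on the `t₂`-charts** (both components). -/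
theorem s59nt_div_p_t2 (e : ℕ) (t : s34m_F K₀ (M * p))
    (ht : (t : LaurentSeries K₀) = s18u_t2 K₀)
    (f : s34m_F K₀ (M * p)) (hf0 : f ≠ 0)
    (hfI : f ∈ s34m_Vinf G (M * p)) (hfI' : f⁻¹ ∈ s34m_Vinf G (M * p))
    (hfZ : f ∈ s34m_Vzero G φ M p hp.out hpM) (hfZ' : f⁻¹ ∈ s34m_Vzero G φ M p hp.out hpM)
    (hnode : ∀ Q ∈ s33s_nodePlaces OO ϖF (s18_chart1 (L₀ := K₀) t), Q.ord f = 0)
    (hQ4₁ : ∀ 𝔫 : Ideal (s34x_ring (s34x_infRing OO) (s18_chart1 (L₀ := K₀) t)), 𝔫.IsMaximal →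
      s34x_const (s34x_infRing OO) (s18_chart1 (L₀ := K₀) t) ((G.ϖ : G.A) : K₀)
        (s34x_inf_const_mem OO G.A (s34c_const_mem_VV G φ M p hp.out hpM) G.ϖ) ∈ 𝔫 →
      ∃ Φ : s34m_F K₀ (M * p), Φ ≠ 0 ∧ ∀ Q ∈ s18_chart1 (L₀ := K₀) t,
        s34f_through (s34x_infRing OO) (s18_chart1 (L₀ := K₀) t) 𝔫 Q →
        Q.ord f = ((e : ℕ) : ℤ) * Q.ord Φ)
    (hQ4₂ : ∀ 𝔫 : Ideal (s34x_ring (s34x_infRing OO) (s18_chart2 (L₀ := K₀) t)), 𝔫.IsMaximal →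
      s34x_const (s34x_infRing OO) (s18_chart2 (L₀ := K₀) t) ((G.ϖ : G.A) : K₀)
        (s34x_inf_const_mem OO G.A (s34c_const_mem_VV G φ M p hp.out hpM) G.ϖ) ∈ 𝔫 →
      ∃ Φ : s34m_F K₀ (M * p), Φ ≠ 0 ∧ ∀ Q ∈ s18_chart2 (L₀ := K₀) t,
        s34f_through (s34x_infRing OO) (s18_chart2 (L₀ := K₀) t) 𝔫 Q →
        Q.ord f = ((e : ℕ) : ℤ) * Q.ord Φ) :
    (∀ v₀ : Place κ ↥FbM, (e : ℤ) ∣ v₀.ord (s33y_redI G φ M p hpM hdeg hT hdegM ⟨f, hfI⟩)) ∧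
    (∀ v₀ : Place κ ↥FbM, (e : ℤ) ∣ v₀.ord (s33y_redZ G φ M p hpM hdeg hT hdegM ⟨f, hfZ⟩)) := by
  haveI : NeZero p := ⟨hp.out.ne_zero⟩
  have hp2 : p ≠ 2 := by omega
  obtain ⟨tM, htM, ⟨hwV, hred⟩, hwinvV, hgen, hgeninv, hwt, hw0, hgenN, hwO, hwO', hfix, hα, hα'⟩ :=
    s34m_base_t2 G φ M p hp.out hpM h2M hp2
  have et : t = heckeAlphaBar K₀ M p tM := Subtype.ext (by rw [ht, hwt])
  subst et
  haveI := hgen
  haveI := hgeninv
  haveI := hgenN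
  haveI : FFGen K₀ (heckeAlphaBar K₀ M p tM)⁻¹ := ff_gen_inv
  haveI : FFGen K₀ (s18g_jF (K := K₀) (M * p)) :=
    s18b_ffGen_jF (M * p) (fun _ b hb hn => s18g_exists_relation (M * p) φ hn b hb)
  have htM0 : tM ≠ 0 := by
    intro h0
    apply s18b_t2_ne_zero K₀
    rw [← htM, h0]; rfl
  have hred' : ((s18g_redF G M hFM hT hdegM ⟨tM, hwV⟩ : ↥FbM) : LaurentSeries κ) = s18u_t2 κ :=
    hred
  have hinv : s18g_redF G M hFM hT hdegM ⟨tM⁻¹, hwinvV⟩ =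
      (s18g_redF G M hFM hT hdegM ⟨tM, hwV⟩)⁻¹ :=
    s18f_redF_inv G M hT hdegM _ htM0 hwV _
  have hredinv : ((s18g_redF G M hFM hT hdegM ⟨tM⁻¹, hwinvV⟩ : ↥FbM) : LaurentSeries κ) =
      (s18u_t2 κ)⁻¹ := by
    rw [hinv, IntermediateField.coe_inv, hred']
  have hclaim : ∀ P : Place K₀ (s34m_F K₀ (M * p)),
      (0 ≤ P.ord (heckeAlphaBar K₀ M p tM) → 0 ≤ P.ord (heckeBetaBar K₀ M p tM)) ∧
      (P.ord (heckeAlphaBar K₀ M p tM) ≤ 0 → P.ord (heckeBetaBar K₀ M p tM) ≤ 0) :=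
    fun P => s34e_cusp_hclaim_t2 G φ M p hp.out hpM hp2 tM htM P
  have hnode₂ : ∀ Q ∈ s33s_nodePlaces OO ϖF (s18_chart1 (L₀ := K₀) (heckeAlphaBar K₀ M p tM)⁻¹),
      Q.ord f = 0 :=
    fun Q hQ => hnode Q (s33n_nodePlaces_chart2_subset_t2 G φ M p hp.out hpM _ hwt
      ((s34x_mem_infRing _ _).mpr hwO') hQ)
  have hαinv : heckeAlphaBar K₀ M p tM⁻¹ = (heckeAlphaBar K₀ M p tM)⁻¹ := map_inv₀ _ _
  constructor
  · intro v₀
    rcases v₀.toValuationSubring.mem_or_inv_mem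
      (s18g_redF G M hFM hT hdegM ⟨tM, hwV⟩) with hj | hj
    · exact s59m_divp_w_true G φ M p hpM hdeg hT hdegM tM hwV
        (by rw [hred']; exact s37b_coord_t2 κ p)
        (by intro τ; rw [hred']; exact s18u_coeffMap_t2 _)
        (s34dt_hmain_t2 M p hpM K₀ φ κ G hπ hT hdegM hp3 h2M tM htM)
        (heckeAlphaBar K₀ M p tM) rfl hα
        (s34e_ch_alpha₁ G φ M p hp.out hpM tM)
        (s34e_ch_beta₁ G φ M p hp.out hpM htM0 hclaim)
        e v₀ hj f hf0 hfI hfI' hfZ hfZ' hnode hQ4₁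
    · rw [← hinv] at hj
      exact s59m_divp_w_true G φ M p hpM hdeg hT hdegM tM⁻¹ hwinvV
        (by rw [hredinv]; exact s37b_coord_inv (s37b_coord_t2 κ p))
        (by intro τ; rw [hredinv, map_inv₀, s18u_coeffMap_t2])
        (s34dt_hmain_t2_inv M p hpM K₀ φ κ G hπ hT hdegM hp3 h2M tM htM)
        (heckeAlphaBar K₀ M p tM)⁻¹ hαinv hα'
        (s34e_ch_alpha₂ G φ M p hp.out hpM tM)
        (s34e_ch_beta₂ G φ M p hp.out hpM htM0 hclaim)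
        e v₀ hj f hf0 hfI hfI' hfZ hfZ' hnode₂ hQ4₂
  · intro v₀
    rcases v₀.toValuationSubring.mem_or_inv_mem
      (s18g_redF G M hFM hT hdegM ⟨tM, hwV⟩) with hj | hj
    · exact s59m_divp_w_false G φ M p hpM hdeg hT hdegM tM hwV
        (by rw [hred']; exact s37b_coord_t2 κ p)
        (by intro τ; rw [hred']; exact s18u_coeffMap_t2 _)
        (s34dt_hmain_t2 M p hpM K₀ φ κ G hπ hT hdegM hp3 h2M tM htM)
        (heckeAlphaBar K₀ M p tM) rfl hα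
        (s34e_ch_alpha₁ G φ M p hp.out hpM tM)
        (s34e_ch_beta₁ G φ M p hp.out hpM htM0 hclaim)
        e v₀ hj f hf0 hfI hfI' hfZ hfZ' hnode hQ4₁
    · rw [← hinv] at hj
      exact s59m_divp_w_false G φ M p hpM hdeg hT hdegM tM⁻¹ hwinvV
        (by rw [hredinv]; exact s37b_coord_inv (s37b_coord_t2 κ p))
        (by intro τ; rw [hredinv, map_inv₀, s18u_coeffMap_t2])
        (s34dt_hmain_t2_inv M p hpM K₀ φ κ G hπ hT hdegM hp3 h2M tM htM)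
        (heckeAlphaBar K₀ M p tM)⁻¹ hαinv hα'
        (s34e_ch_alpha₂ G φ M p hp.out hpM tM)
        (s34e_ch_beta₂ G φ M p hp.out hpM htM0 hclaim)
        e v₀ hj f hf0 hfI hfI' hfZ hfZ' hnode₂ hQ4₂

end T2

end Fermat.Agent.Lib.S59
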