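/-
Programme (R2) / node [MP-three], leaf [B] = RED (helper7, prefix `s59nt_`):
**[B] ON THE CHART `t₂`: `s59n_RedT2 p` FOR EVERY PRIME `p ≠ 3`** (level `M * 3`, `2 ∣ M`, `P ∣ 3`): an eigen-point
`x ∈ J₀(M · 3)[p]` which is FINITE at `P` for the node family `s33t_nodeN_t2` either produces a non-zero eigen-point at level `M`
or is TORIC for that node family.

Port of helper9's `s59m_core` (`MRedTop.lean`; the hypothesis `5 ≤ q` is only used through `s18_GoodLevel q M`),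
`s59m_level_comp`, `s59m_level_both`, `s59m_red` (`MRedAsm.lean`) with [DIV-e] on the `t₂`-charts (`s59nt_div_p_t2`,
`NXDiv.lean`) and the rationality wall on the `t₂`-charts (`s59nt_Q4_big`, `NXQ4.lean`).
-/
import Fermat.Agent.Lib.S59.MRedAsm
import Fermat.Agent.Lib.S59.NXDiv
import Fermat.Agent.Lib.S59.NXQ4
import Fermat.Agent.Lib.S59.NMPGraph

set_option autoImplicit false
set_option linter.style.haveILetI false
set_option linter.unusedSectionVars false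
set_option linter.unusedVariables false
set_option synthInstance.maxHeartbeats 400000

namespace Fermat.Agent.Lib.S59

open ModularCurve HahnSeries AlgebraicCurve Fermat.Agent.Lib.FF Fermat.Agent.Lib.S18
  Fermat.Agent.Lib.S28 Fermat.Agent.Lib.S29 Fermat.Agent.Lib.S37 Fermat.Agent.Lib.S34
  Fermat.Agent.Lib.S33 Fermat.Agent.Lib.S44 Fermat.Agent.Lib.S19 Fermat.Agent.Lib.S17
  Fermat.Agent.Lib.S15

noncomputable section

local notation "Kb" => AlgebraicClosure ℚ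

/-! ### The core at a good level -/

section Core

variable (M q : ℕ) [NeZero M] [hq : Fact q.Prime] (hqM : ¬ q ∣ M) (hgood : s18_GoodLevel q M)
  (p : ℕ) [hp : Fact p.Prime] (hpq : p ≠ q)
  (P : ValuationSubring Kb) (hP : P.LiesOverPrime q)

set_option maxHeartbeats 1600000 in
include hqM hgood hpq in
/-- **THE CORE.** -/
theorem s59nt_core (a : ℕ → ℤ) (B : Finset ℕ) (hB : ∀ r : ℕ, r.Prime → r ∣ M * q * p → r ∈ B)
    (x : JZero (M * q)) (hE : s44i_Eig (M * q) p a B x)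
    (H : ffi_F (M * q)) (hgen : s33d_IsKumGen p x H)
    (hH : H ∈ s37r_OF P (M * q) hP) (hH' : H⁻¹ ∈ s37r_OF P (M * q) hP)
    (ū : ↥(modularFunctionFieldFullC (IsLocalRing.ResidueField ↥P) M))
    (hū : (ū : LaurentSeries (IsLocalRing.ResidueField ↥P)) = s37r_redV P (M * q) hP ⟨H, hH⟩)
    (hdiv : ∀ v : Place (IsLocalRing.ResidueField ↥P)
      ↥(modularFunctionFieldFullC (IsLocalRing.ResidueField ↥P) M), (p : ℤ) ∣ v.ord ū) :
    (∃ y : JZero M, y ≠ 0 ∧ s44i_Eig M p a B y) ∨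
      ∃ (c : IsLocalRing.ResidueField ↥P)
        (w : ↥(modularFunctionFieldFullC (IsLocalRing.ResidueField ↥P) M)), c ≠ 0 ∧ w ≠ 0 ∧
        ū = algebraMap (IsLocalRing.ResidueField ↥P)
          ↥(modularFunctionFieldFullC (IsLocalRing.ResidueField ↥P) M) c * w ^ p := by
  classical
  haveI : FFGen Kb (ffd_jBar M) := s18r_ffGen M
  obtain ⟨r, l, g, hr, hl, hC⟩ :=
    (s19m_curveExists s19_gauss_final s19_rr_final s19e_baseA) M q hgood P hP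
  obtain ⟨abv, hna, hAabv⟩ := s17z_abv_exists P hq.out hP
  have hconst : s33d_ConstOfOrdZero (IsLocalRing.ResidueField ↥P)
      ↥(modularFunctionFieldFullC (IsLocalRing.ResidueField ↥P) M) :=
    s18n_constFk_residueField (N := M) P hq.out hP hqM
  have hp0 : p ≠ 0 := hp.out.ne_zero
  have hpA := s59m_isUnit_p q p hpq P hP
  have hH0 : H ≠ 0 := hgen.1
  have hredH0 : s37r_redV P (M * q) hP ⟨H, hH⟩ ≠ 0 := by
    intro h0
    have h1 : (⟨H, hH⟩ : ↥(s37r_OF P (M * q) hP)) * ⟨H⁻¹, hH'⟩ = 1 :=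
      Subtype.ext (mul_inv_cancel₀ hH0)
    have := congrArg (s37r_redV P (M * q) hP) h1
    rw [map_mul, h0, zero_mul, map_one] at this
    exact zero_ne_one this
  have hū0 : ū ≠ 0 := by
    rintro rfl
    exact hredH0 hū.symm
  obtain ⟨z, G, hGO, hgenG, hG'O, c₁, w₁, hc₁, hw₁, hredG⟩ :=
    s59m_liftK hC abv hna hAabv hconst p hp0 hpA ū hū0 hdiv
  have hG0 : G ≠ 0 := hgenG.1
  -- the reduction of `G` as a series
  have hredGs : s37r_redV P M hP ⟨G, hGO⟩ =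
      HahnSeries.C c₁ * (ū : LaurentSeries (IsLocalRing.ResidueField ↥P)) *
        (w₁ : LaurentSeries (IsLocalRing.ResidueField ↥P)) ^ p := by
    have := congrArg (fun y : ↥(modularFunctionFieldFullC (IsLocalRing.ResidueField ↥P) M) =>
      (y : LaurentSeries (IsLocalRing.ResidueField ↥P))) hredG
    simp only [s37r_coe_redF, MulMemClass.coe_mul, SubmonoidClass.coe_pow,
      s59m_coe_algebraMap_fullC] at this
    exact this
  by_cases hz : z = 0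
  · -- `z = 0`: `ū` is a constant times a `p`-th power
    right
    obtain ⟨c₂, w₂, hc₂, hw₂, hGeq⟩ :=
      (s33d_kumGen_zero_iff (s33d_constOfOrdZero_bar M) hp0 hgenG).mp hz
    obtain ⟨cb, u, hu, hcb, hu0, hrel⟩ := s59m_gauss_rel M P hP p 0 1 G one_ne_zero
      (s37r_OF P M hP).one_mem (by rw [inv_one]; exact (s37r_OF P M hP).one_mem) hGO hG'O
      c₂ w₂ hc₂ hw₂ (by rw [hGeq, zpow_zero, mul_one])
    rw [zpow_zero, mul_one] at hrel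
    refine ⟨cb * c₁⁻¹, s37r_redF P M hP hqM ⟨u, hu⟩ * w₁⁻¹, mul_ne_zero hcb (inv_ne_zero hc₁),
      mul_ne_zero (fun h0 => hu0 (congrArg Subtype.val h0)) (inv_ne_zero hw₁), ?_⟩
    apply Subtype.ext
    have hw₁s : (w₁ : LaurentSeries (IsLocalRing.ResidueField ↥P)) ≠ 0 :=
      fun h0 => hw₁ (Subtype.ext h0)
    have hC0 : (HahnSeries.C c₁ : LaurentSeries (IsLocalRing.ResidueField ↥P)) ≠ 0 := by
      rw [Ne, ← map_zero (HahnSeries.C : (IsLocalRing.ResidueField ↥P) →+* LaurentSeries _)]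
      exact fun h => hc₁ (HahnSeries.C_injective h)
    have e1 : HahnSeries.C c₁ * (ū : LaurentSeries (IsLocalRing.ResidueField ↥P)) *
        (w₁ : LaurentSeries (IsLocalRing.ResidueField ↥P)) ^ p =
        HahnSeries.C cb * (s37r_redV P M hP ⟨u, hu⟩) ^ p := by rw [← hredGs, hrel]
    simp only [MulMemClass.coe_mul, SubmonoidClass.coe_pow, s59m_coe_algebraMap_fullC,
      s37r_coe_redF, IntermediateField.coe_inv, map_mul, map_inv₀, mul_pow, inv_pow]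
    have hwp : (w₁ : LaurentSeries (IsLocalRing.ResidueField ↥P)) ^ p ≠ 0 := pow_ne_zero p hw₁s
    field_simp
    rw [← e1]
    ring
  · -- `z ≠ 0`: an eigen-point at level `M`
    left
    refine ⟨z, hz, s33d_kumGen_tors hgenG, ?_⟩
    intro ℓ hℓB
    haveI hℓF : Fact (ℓ : ℕ).Prime := ⟨ℓ.2⟩
    haveI : NeZero (ℓ : ℕ) := ⟨ℓ.2.ne_zero⟩
    have hℓN : ¬ (ℓ : ℕ) ∣ M * q * p := fun hd => hℓB (hB ℓ ℓ.2 hd)
    have hℓMq : ¬ (ℓ : ℕ) ∣ M * q := fun hd => hℓN (Dvd.dvd.mul_right hd p)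
    have hℓM : ¬ (ℓ : ℕ) ∣ M := fun hd => hℓMq (Dvd.dvd.mul_right hd q)
    have hℓq : (ℓ : ℕ) ≠ q := by
      intro h0
      exact hℓMq (h0 ▸ dvd_mul_left _ _)
    obtain ⟨ζ, hζ⟩ := s37e_exists_zeta (ℓ : ℕ)
    have hζκ := s59m_zetaTK_prim (ℓ : ℕ) hℓq P hP ζ hζ
    -- level `M q`
    have hzx : heckeOperatorBar (M * q) ⟨(ℓ : ℕ), hℓF.out⟩ x = a ℓ • x := hE.2 ℓ hℓB
    obtain ⟨c, w, hc, hw, hrel⟩ :=
      s44h_top_rel_of_eigen (M * q) (ℓ : ℕ) p hℓMq x (a ℓ) hzx H hgen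
    obtain ⟨cb, u, hu, hcb, hu0, hN⟩ := s59m_top_eigen (M * q) (ℓ : ℕ) hℓMq hℓq P hP p ζ hζ
      (a ℓ) H hH0 hH hH' c w hc hw hrel
    rw [← hū] at hN
    -- level `M`
    obtain ⟨hGa1, hGa2, hredGa⟩ := s44h_redV_zpow M q P hP G hGO hG'O hG0 (a ℓ)
    have hτG : s37e_normAlpha M (ℓ : ℕ) (heckeBetaBar Kb M (ℓ : ℕ) G) ∈ s37r_OF P M hP :=
      s59m_tauBar_mem_OF M (ℓ : ℕ) hℓM P hP ζ hζ hGO
    set G' : ffi_F M := s37e_normAlpha M (ℓ : ℕ) (heckeBetaBar Kb M (ℓ : ℕ) G) * (G ^ (a ℓ))⁻¹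
      with hG'
    have hgen' : s33d_IsKumGen p (heckeOperatorBar M ⟨(ℓ : ℕ), hℓF.out⟩ z + -(a ℓ • z)) G' :=
      s33d_kumGen_prod (s44c_isKumGen_hecke M (ℓ : ℕ) hℓM p z G hgenG)
        (s33d_kumGen_inv (s44c_isKumGen_zpow M p hgenG (a ℓ)))
    have hG'mem : G' ∈ s37r_OF P M hP := (s37r_OF P M hP).mul_mem _ _ hτG hGa2
    have hredinv : s37r_redV P M hP ⟨(G ^ (a ℓ))⁻¹, hGa2⟩ =
        ((s37r_redV P M hP ⟨G, hGO⟩) ^ (a ℓ))⁻¹ := by
      have h1 : (⟨G ^ (a ℓ), hGa1⟩ : ↥(s37r_OF P M hP)) * ⟨(G ^ (a ℓ))⁻¹, hGa2⟩ = 1 :=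
        Subtype.ext (mul_inv_cancel₀ (zpow_ne_zero _ hG0))
      have := congrArg (s37r_redV P M hP) h1
      rw [map_mul, map_one, hredGa] at this
      exact eq_inv_of_mul_eq_one_right this
    have hredG' : s37r_redV P M hP ⟨G', hG'mem⟩ =
        s33t_N (ℓ : ℕ) (s44h_zetaTK P (IsLocalRing.residue ↥P) (ℓ : ℕ) ζ hζ)
            (s37r_redV P M hP ⟨G, hGO⟩) * ((s37r_redV P M hP ⟨G, hGO⟩) ^ (a ℓ))⁻¹ := by
      have e' : (⟨G', hG'mem⟩ : ↥(s37r_OF P M hP)) =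
          ⟨_, hτG⟩ * ⟨(G ^ (a ℓ))⁻¹, hGa2⟩ := Subtype.ext rfl
      rw [e', map_mul, hredinv, s59m_redV_tauBar M (ℓ : ℕ) hℓM hℓq P hP ζ hζ hGO]
    have hūs : (ū : LaurentSeries (IsLocalRing.ResidueField ↥P)) ≠ 0 :=
      fun h0 => hū0 (Subtype.ext h0)
    have hw₁s : (w₁ : LaurentSeries (IsLocalRing.ResidueField ↥P)) ≠ 0 :=
      fun h0 => hw₁ (Subtype.ext h0)
    have hcomp := s59m_field_comp (ℓ : ℕ) _ hζκ p (a ℓ) c₁ cb hc₁ _ _ _ _ hūs hw₁s hredGs hN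
    rw [← hredG'] at hcomp
    -- the elements of `F̄_M`
    have hum : s37r_redV P (M * q) hP ⟨u, hu⟩ ∈
        modularFunctionFieldFullC (IsLocalRing.ResidueField ↥P) M :=
      s59m_redV_top_mem_fullC M q hqM P hP ⟨u, hu⟩
    have hNw := s59m_Nbar_mem_fullC M q hqM P hP (ℓ : ℕ) hℓM hℓq ζ hζ w₁
    set w'' : ↥(modularFunctionFieldFullC (IsLocalRing.ResidueField ↥P) M) :=
      ⟨_, hum⟩ * ⟨_, hNw⟩ * (w₁ ^ (a ℓ))⁻¹ with hw''
    have hw''0 : w'' ≠ 0 := by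
      refine mul_ne_zero (mul_ne_zero (fun h0 => hu0 (congrArg Subtype.val h0)) ?_)
        (inv_ne_zero (zpow_ne_zero _ hw₁))
      intro h0
      exact s59m_N_ne_zero (ℓ : ℕ) _ hζκ hw₁s (congrArg Subtype.val h0)
    have hcc : c₁ ^ ((ℓ : ℕ) + 1) * cb * (c₁ ^ (a ℓ))⁻¹ ≠ 0 :=
      mul_ne_zero (mul_ne_zero (pow_ne_zero _ hc₁) hcb) (inv_ne_zero (zpow_ne_zero _ hc₁))
    have hfin : s37r_redF P M hP hqM ⟨G', hG'mem⟩ =
        algebraMap (IsLocalRing.ResidueField ↥P)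
          ↥(modularFunctionFieldFullC (IsLocalRing.ResidueField ↥P) M)
          (c₁ ^ ((ℓ : ℕ) + 1) * cb * (c₁ ^ (a ℓ))⁻¹) * w'' ^ p := by
      apply Subtype.ext
      rw [s37r_coe_redF, hcomp]
      have hzp : ((w₁ ^ (a ℓ) : ↥(modularFunctionFieldFullC (IsLocalRing.ResidueField ↥P) M)) :
          LaurentSeries (IsLocalRing.ResidueField ↥P)) =
          (w₁ : LaurentSeries (IsLocalRing.ResidueField ↥P)) ^ (a ℓ) :=
        map_zpow₀ (modularFunctionFieldFullC (IsLocalRing.ResidueField ↥P) M).val w₁ (a ℓ)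
      simp only [MulMemClass.coe_mul, SubmonoidClass.coe_pow, s59m_coe_algebraMap_fullC, hw'',
        IntermediateField.coe_inv, hzp]
    have hzero := s59m_injK hC p hp0 hpA _ G' hgen' hG'mem _ hcc w'' hw''0 hfin
    exact add_neg_eq_zero.mp hzero

end Core

/-! ### One component over a finite level -/

section Comp

variable (M q : ℕ) [NeZero M] [hq : Fact q.Prime] (hqM : ¬ q ∣ M) (hgood : s18_GoodLevel q M)
  (p : ℕ) [hp : Fact p.Prime] (hpq : p ≠ q)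
  (P : ValuationSubring Kb) (hP : P.LiesOverPrime q)
  (a : ℕ → ℤ) (B : Finset ℕ) (hB : ∀ r : ℕ, r.Prime → r ∣ M * q * p → r ∈ B)
  (L₀ : IntermediateField ℚ Kb) [FiniteDimensional ℚ ↥L₀]
  [IsDiscreteValuationRing ↥(s18q_A0 P L₀)] (ϖ : ↥(s18q_A0 P L₀)) (hϖ : Irreducible ϖ)

set_option maxHeartbeats 1600000 in
include hqM hgood hpq hP hB in
/-- **one component**: a Gauss-unit Kummer generator `h` over `L₀` of an eigen-point `x` whose reduction has divisor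
divisible by `p`: EITHER a non-zero eigen-point at level `M`, OR `red h = c · a₀ ^ p` over the residue field of `L₀`. -/
theorem s59nt_level_comp (x : JZero (M * q)) (hE : s44i_Eig (M * q) p a B x)
    (h : s34m_F ↥L₀ (M * q)) (hgen : s33d_IsKumGen p x (s18q_incl (M * q) L₀ h))
    (hI : h ∈ s34m_Vinf (s37r_G P L₀ ϖ hϖ) (M * q))
    (hI' : h⁻¹ ∈ s34m_Vinf (s37r_G P L₀ ϖ hϖ) (M * q))
    (ū₀ : ↥(modularFunctionFieldFullC (IsLocalRing.ResidueField ↥(s18q_A0 P L₀)) M))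
    (hū₀ : (ū₀ : LaurentSeries (IsLocalRing.ResidueField ↥(s18q_A0 P L₀))) =
      s34m_redInf (s37r_G P L₀ ϖ hϖ) (M * q) ⟨h, hI⟩)
    (hdiv : ∀ v₀ : Place (IsLocalRing.ResidueField ↥(s18q_A0 P L₀))
      ↥(modularFunctionFieldFullC (IsLocalRing.ResidueField ↥(s18q_A0 P L₀)) M),
      (p : ℤ) ∣ v₀.ord ū₀) :
    (∃ y : JZero M, y ≠ 0 ∧ s44i_Eig M p a B y) ∨
      ∃ (c : IsLocalRing.ResidueField ↥(s18q_A0 P L₀))
        (a₀ : LaurentSeries (IsLocalRing.ResidueField ↥(s18q_A0 P L₀))), c ≠ 0 ∧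
        a₀ ∈ modularFunctionFieldFullC (IsLocalRing.ResidueField ↥(s18q_A0 P L₀)) M ∧
        s34m_redInf (s37r_G P L₀ ϖ hϖ) (M * q) ⟨h, hI⟩ = HahnSeries.C c * a₀ ^ p := by
  classical
  haveI : NeZero p := ⟨hp.out.ne_zero⟩
  letI alg : Algebra (IsLocalRing.ResidueField ↥(s18q_A0 P L₀)) (IsLocalRing.ResidueField ↥P) :=
    (s37r_resMap P L₀).toAlgebra
  haveI : Algebra.IsAlgebraic (IsLocalRing.ResidueField ↥(s18q_A0 P L₀))
      (IsLocalRing.ResidueField ↥P) := s33d_resMap_isAlgebraic P hP L₀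
  haveI : IsGalois (IsLocalRing.ResidueField ↥(s18q_A0 P L₀)) (IsLocalRing.ResidueField ↥P) :=
    s59m_isGalois_res P hP L₀
  have hh0 : h ≠ 0 := (s33d_kum_of_gen (M * q) p L₀ hgen).1
  have hred0 : s34m_redInf (s37r_G P L₀ ϖ hϖ) (M * q) ⟨h, hI⟩ ≠ 0 := by
    intro h0
    have h1 : (⟨h, hI⟩ : s34m_Vinf (s37r_G P L₀ ϖ hϖ) (M * q)) * ⟨h⁻¹, hI'⟩ = 1 :=
      Subtype.ext (mul_inv_cancel₀ hh0)
    have := congrArg (s34m_redInf (s37r_G P L₀ ϖ hϖ) (M * q)) h1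
    rw [map_mul, h0, zero_mul, map_one] at this
    exact zero_ne_one this
  have hū₀s : (ū₀ : LaurentSeries (IsLocalRing.ResidueField ↥(s18q_A0 P L₀))) ≠ 0 := by
    rw [hū₀]; exact hred0
  have hū₀0 : ū₀ ≠ 0 := fun h0 => hū₀s (by rw [h0]; rfl)
  have hH : s18q_incl (M * q) L₀ h ∈ s37r_OF P (M * q) hP :=
    (s37r_incl_mem_OF_iff P (M * q) hP L₀ ϖ hϖ h).mpr hI
  have hH' : (s18q_incl (M * q) L₀ h)⁻¹ ∈ s37r_OF P (M * q) hP := by
    rw [← map_inv₀]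
    exact (s37r_incl_mem_OF_iff P (M * q) hP L₀ ϖ hϖ h⁻¹).mpr hI'
  have e : s37r_redV P (M * q) hP ⟨s18q_incl (M * q) L₀ h, hH⟩ =
      coeffMap (s37r_resMap P L₀) (s34m_redInf (s37r_G P L₀ ϖ hϖ) (M * q) ⟨h, hI⟩) :=
    s37r_redV_incl P (M * q) hP L₀ ϖ hϖ h hI hH
  have hup : ((s59m_up (k := IsLocalRing.ResidueField ↥P) M ū₀ :
      ↥(modularFunctionFieldFullC (IsLocalRing.ResidueField ↥P) M)) :
        LaurentSeries (IsLocalRing.ResidueField ↥P)) =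
      s37r_redV P (M * q) hP ⟨s18q_incl (M * q) L₀ h, hH⟩ := by
    rw [s59m_up_coe, hū₀, e]
    rfl
  have hdiv' : ∀ v : Place (IsLocalRing.ResidueField ↥P)
      ↥(modularFunctionFieldFullC (IsLocalRing.ResidueField ↥P) M),
      (p : ℤ) ∣ v.ord (s59m_up (k := IsLocalRing.ResidueField ↥P) M ū₀) :=
    fun v => s59m_dvd_ord_up M (p : ℤ) ū₀ hū₀0 hdiv v
  rcases s59nt_core M q hqM hgood p hpq P hP a B hB x hE (s18q_incl (M * q) L₀ h) hgen hH hH'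
    (s59m_up (k := IsLocalRing.ResidueField ↥P) M ū₀) hup hdiv' with hy | ⟨c, w, hc, hw, hcw⟩
  · exact Or.inl hy
  · right
    obtain ⟨ζ₀, hζ₀⟩ := s37e_exists_zeta p
    haveI hchar : CharP (IsLocalRing.ResidueField ↥P) q := s18n_charP_residueField P hq.out hP
    have hpk : ((p : ℕ) : IsLocalRing.ResidueField ↥P) ≠ 0 := by
      intro h0
      have := (CharP.cast_eq_zero_iff (IsLocalRing.ResidueField ↥P) q p).mp h0
      exact hpq ((Nat.prime_dvd_prime_iff_eq hq.out hp.out).mp this).symm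
    have hζb := s59m_zetaBar_prim P (IsLocalRing.residue ↥P) p ζ₀ hp.out hpk hζ₀
    have hx : coeffMap (algebraMap (IsLocalRing.ResidueField ↥(s18q_A0 P L₀))
        (IsLocalRing.ResidueField ↥P))
        (ū₀ : LaurentSeries (IsLocalRing.ResidueField ↥(s18q_A0 P L₀))) =
        HahnSeries.C c * (w : LaurentSeries (IsLocalRing.ResidueField ↥P)) ^ p := by
      have := congrArg (fun y : ↥(modularFunctionFieldFullC (IsLocalRing.ResidueField ↥P) M) =>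
        (y : LaurentSeries (IsLocalRing.ResidueField ↥P))) hcw
      simp only [s59m_up_coe, MulMemClass.coe_mul, SubmonoidClass.coe_pow,
        s59m_coe_algebraMap_fullC] at this
      exact this
    obtain ⟨a₀, v₀, hv₀, ha₀, hv₀0, hx₀⟩ := s59m_descent M p _ hζb
      (ū₀ : LaurentSeries (IsLocalRing.ResidueField ↥(s18q_A0 P L₀))) ū₀.2 hū₀s c
      (w : LaurentSeries (IsLocalRing.ResidueField ↥P)) w.2 hx
    exact ⟨a₀, v₀, ha₀, hv₀, by rw [← hū₀]; exact hx₀⟩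

end Comp

/-! ### Both components over a finite level -/

section Both

variable (M q : ℕ) [NeZero M] [hq : Fact q.Prime] (hqM : ¬ q ∣ M) (hq3 : q = 3) (h2M : 2 ∣ M)
  (p : ℕ) [hp : Fact p.Prime] (hpq : p ≠ q)
  (P : ValuationSubring Kb) (hP : P.LiesOverPrime q)
  (a : ℕ → ℤ) (B : Finset ℕ) (hB : ∀ r : ℕ, r.Prime → r ∣ M * q * p → r ∈ B)
  (x : JZero (M * q)) (hE : s44i_Eig (M * q) p a B x)
  (L₀ : IntermediateField ℚ Kb) [FiniteDimensional ℚ ↥L₀] [Normal ℚ ↥L₀]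
  [IsDiscreteValuationRing ↥(s18q_A0 P L₀)] (ϖ : ↥(s18q_A0 P L₀)) (hϖ : Irreducible ϖ)
  (t : s34m_F ↥L₀ (M * q)) (ht : (t : LaurentSeries ↥L₀) = s18u_t2 ↥L₀)
  (h : s34m_F ↥L₀ (M * q)) (hgen : s33d_IsKumGen p x (s18q_incl (M * q) L₀ h))
  (hI : h ∈ s34m_Vinf (s37r_G P L₀ ϖ hϖ) (M * q))
  (hI' : h⁻¹ ∈ s34m_Vinf (s37r_G P L₀ ϖ hϖ) (M * q))
  (hZ : h ∈ s34m_Vzero (s37r_G P L₀ ϖ hϖ) (algebraMap ↥L₀ Kb) M q hq.out hqM)
  (hZ' : h⁻¹ ∈ s34m_Vzero (s37r_G P L₀ ϖ hϖ) (algebraMap ↥L₀ Kb) M q hq.out hqM)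
  (hnode : ∀ Q ∈ s33t_nodeN_t2 M q hqM P L₀ ϖ hϖ, Q.ord h = 0)
  (hQ4₁ : s59n_Q4 M q p hqM P L₀ ϖ hϖ (s18_chart1 (L₀ := ↥L₀) t) h)
  (hQ4₂ : s59n_Q4 M q p hqM P L₀ ϖ hϖ (s18_chart2 (L₀ := ↥L₀) t) h)

set_option maxHeartbeats 1600000 in
include hq3 h2M hpq hP hB hE hgen hI hI' hZ hZ' hnode hQ4₁ hQ4₂ ht in
/-- **both components.** -/
theorem s59nt_level_both_t2 :
    (∃ y : JZero M, y ≠ 0 ∧ s44i_Eig M p a B y) ∨
      ((∃ (c : IsLocalRing.ResidueField ↥(s18q_A0 P L₀))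
        (a₀ : LaurentSeries (IsLocalRing.ResidueField ↥(s18q_A0 P L₀))), c ≠ 0 ∧
        a₀ ∈ modularFunctionFieldFullC (IsLocalRing.ResidueField ↥(s18q_A0 P L₀)) M ∧
        s34m_redInf (s37r_G P L₀ ϖ hϖ) (M * q) ⟨h, hI⟩ = HahnSeries.C c * a₀ ^ p) ∧
      (∃ (c : IsLocalRing.ResidueField ↥(s18q_A0 P L₀))
        (a₀ : LaurentSeries (IsLocalRing.ResidueField ↥(s18q_A0 P L₀))), c ≠ 0 ∧
        a₀ ∈ modularFunctionFieldFullC (IsLocalRing.ResidueField ↥(s18q_A0 P L₀)) M ∧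
        s34m_redZero (s37r_G P L₀ ϖ hϖ) (algebraMap ↥L₀ Kb) M q hq.out hqM ⟨h, hZ⟩ =
          HahnSeries.C c * a₀ ^ p)) := by
  classical
  haveI : NeZero q := ⟨hq.out.ne_zero⟩
  haveI : NumberField ↥L₀ := ⟨⟩
  haveI hchar₀ : CharP (IsLocalRing.ResidueField ↥(s18q_A0 P L₀)) q := s37rl_charP P hP L₀
  haveI hperf₀ : PerfectField (IsLocalRing.ResidueField ↥(s18q_A0 P L₀)) :=
    s37rl_perfectField P hP L₀
  haveI : PerfectRing (IsLocalRing.ResidueField ↥(s18q_A0 P L₀)) q := PerfectField.toPerfectRing q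
  have hT : s18g_HT (IsLocalRing.ResidueField ↥(s18q_A0 P L₀)) M := s18t_indep_j q M hqM _
  have hdegM : s18g_HDeg ↥L₀ M := fun n b hb hn =>
    s18g_exists_relation M (algebraMap ↥L₀ Kb) hn b hb
  have hdeg : s34m_HDeg ↥L₀ M q := s34r_deg_HDeg (algebraMap ↥L₀ Kb) M q hq.out hqM
  have hπ : Function.Surjective (s37r_G P L₀ ϖ hϖ).π := IsLocalRing.residue_surjective
  haveI : IsDiscreteValuationRing (s37r_G P L₀ ϖ hϖ).A := ‹_›
  have hh0 : h ≠ 0 := (s33d_kum_of_gen (M * q) p L₀ hgen).1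
  have hgood : s18_GoodLevel q M := ⟨hqM, Or.inr (Or.inl ⟨hq3, h2M⟩)⟩
  have hnode' : ∀ Q ∈ s33s_nodePlaces (s34m_VV (s37r_G P L₀ ϖ hϖ) (algebraMap ↥L₀ Kb) M q hq.out hqM)
      (s34m_unif (s37r_G P L₀ ϖ hϖ) (M * q)) (s18_chart1 (L₀ := ↥L₀) t), Q.ord h = 0 := by
    rw [← s33t_nodeN_t2_eq M q hqM P L₀ ϖ hϖ t ht]
    exact hnode
  obtain ⟨hdivI, hdivZ⟩ := s59nt_div_p_t2 M q hqM hq3 h2M ↥L₀ (algebraMap ↥L₀ Kb)
    (IsLocalRing.ResidueField ↥(s18q_A0 P L₀)) (s37r_G P L₀ ϖ hϖ) hdeg hT hdegM hπ p t ht h hh0 hI hI'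
    hZ hZ' hnode' hQ4₁ hQ4₂
  by_cases hy : ∃ y : JZero M, y ≠ 0 ∧ s44i_Eig M p a B y
  · exact Or.inl hy
  · right
    constructor
    · rcases s59nt_level_comp M q hqM hgood p hpq P hP a B hB L₀ ϖ hϖ x hE h hgen hI hI'
        (s33y_redI (s37r_G P L₀ ϖ hϖ) (algebraMap ↥L₀ Kb) M q hqM hdeg hT hdegM ⟨h, hI⟩) rfl
        hdivI with h1 | h1
      · exact absurd h1 hy
      · exact h1
    · have hI₂ : s34m_al (algebraMap ↥L₀ Kb) M q hq.out hqM h ∈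
          s34m_Vinf (s37r_G P L₀ ϖ hϖ) (M * q) :=
        (s34m_mem_Vzero (s37r_G P L₀ ϖ hϖ) (algebraMap ↥L₀ Kb) M q hq.out hqM h).mp hZ
      have hI₂' : (s34m_al (algebraMap ↥L₀ Kb) M q hq.out hqM h)⁻¹ ∈
          s34m_Vinf (s37r_G P L₀ ϖ hϖ) (M * q) := by
        have := (s34m_mem_Vzero (s37r_G P L₀ ϖ hϖ) (algebraMap ↥L₀ Kb) M q hq.out hqM h⁻¹).mp hZ'
        rwa [map_inv₀] at this
      rcases s59nt_level_comp M q hqM hgood p hpq P hP a B hB L₀ ϖ hϖ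
        (s59m_wq M q hq.out hqM x) (s59m_eig_wq M q hqM p a B hB x hE)
        (s34m_al (algebraMap ↥L₀ Kb) M q hq.out hqM h) (s59m_kumGen_wq M q hqM p L₀ x h hgen)
        hI₂ hI₂'
        (s33y_redZ (s37r_G P L₀ ϖ hϖ) (algebraMap ↥L₀ Kb) M q hqM hdeg hT hdegM ⟨h, hZ⟩) rfl
        hdivZ with h1 | h1
      · exact absurd h1 hy
      · exact h1

end Both

/-! ### The leaf -/

set_option maxHeartbeats 1600000 in
/-- **[B] = RED on the chart `t₂`.** -/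
theorem s59nt_redT2 (p : ℕ) [hp : Fact p.Prime] : s59n_RedT2 p := by
  intro M q _ hq hqM hq3 h2M hpq P hP a B hB x hE hfin
  classical
  haveI : NeZero q := ⟨hq.out.ne_zero⟩
  haveI : NeZero p := ⟨hp.out.ne_zero⟩
  by_cases hy : ∃ y : JZero M, y ≠ 0 ∧ s44i_Eig M p a B y
  · exact Or.inl hy
  right
  obtain ⟨Lf, hLffd, hLf⟩ := hfin
  haveI := hLffd
  obtain ⟨La, hLfLa, hLafd, hLanorm⟩ := s33t_exists_normal_ge Lf
  haveI := hLafd
  haveI := hLanorm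
  haveI hdvra : IsDiscreteValuationRing ↥(s18q_A0 P La) := s18q_A0_dvr P La hP
  obtain ⟨ϖa, hϖa⟩ := IsDiscreteValuationRing.exists_irreducible ↥(s18q_A0 P La)
  obtain ⟨ha, hagen, -⟩ := hLf La ϖa hϖa hLfLa
  obtain ⟨ha0, hadiv⟩ := s33d_kum_of_gen (M * q) p La hagen
  obtain ⟨L₂, hL₂fd, hL₂⟩ := s59nt_Q4_big M q hq.out hqM hq3 h2M p hp.out P hP La ha ha0 hadiv
  haveI := hL₂fd
  haveI hfdx : FiniteDimensional ℚ ↥(Lf ⊔ La ⊔ L₂) := inferInstance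
  refine ⟨Lf ⊔ La ⊔ L₂, hfdx, ?_⟩
  intro L₀ _ _ _ ϖ hϖ hle
  have hLfL₀ : Lf ≤ L₀ := le_trans (le_trans le_sup_left le_sup_left) hle
  have hLaL₀ : La ≤ L₀ := le_trans (le_trans le_sup_right le_sup_left) hle
  have hL₂L₀ : L₂ ≤ L₀ := le_trans le_sup_right hle
  obtain ⟨h, hgen, hI, hI', hZ, hZ', hnode⟩ := hLf L₀ ϖ hϖ hLfL₀
  -- (Q4) for `h`
  haveI : NumberField ↥L₀ := ⟨⟩
  haveI hcharL₀ : CharP (IsLocalRing.ResidueField ↥(s18q_A0 P L₀)) q := s37rl_charP P hP _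
  haveI : IsDiscreteValuationRing ↥(s37r_G P L₀ ϖ hϖ).A :=
    (inferInstance : IsDiscreteValuationRing ↥(s18q_A0 P L₀))
  have hq2 : q ≠ 2 := by omega
  obtain ⟨t, ht⟩ := s59nt_exists_t2 (s37r_G P L₀ ϖ hϖ) (algebraMap ↥L₀ Kb) M q hq.out hqM h2M hq2
  obtain ⟨q1, q2⟩ := hL₂ L₀ hLaL₀ hL₂L₀ ϖ hϖ t ht
  set u := s44q_up (M * q) hLaL₀ ha with hu
  have hugen : s33d_IsKumGen p x (s18q_incl (M * q) L₀ u) := by
    rw [hu, s44q_incl_up]
    exact hagen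
  have hu0 : u ≠ 0 := (s33d_kum_of_gen (M * q) p L₀ hugen).1
  obtain ⟨c₀, g, hc₀, hg, e⟩ := s33d_kum0_of_same_class (M * q) p L₀ hugen hgen
  have hQ4₁ : s59n_Q4 M q p hqM P L₀ ϖ hϖ
      (s18_chart1 (L₀ := ↥L₀) t) h := by
    intro 𝔫 h1 h2
    have := s44q_Q4_mul_pow _ _ 𝔫 p u hu0 c₀ hc₀ g hg (q1 𝔫 h1 h2)
    rwa [← e] at this
  have hQ4₂ : s59n_Q4 M q p hqM P L₀ ϖ hϖ
      (s18_chart2 (L₀ := ↥L₀) t) h := by
    intro 𝔫 h1 h2
    have := s44q_Q4_mul_pow _ _ 𝔫 p u hu0 c₀ hc₀ g hg (q2 𝔫 h1 h2)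
    rwa [← e] at this
  rcases s59nt_level_both_t2 M q hqM hq3 h2M p hpq P hP a B hB x hE L₀ ϖ hϖ t ht h hgen hI hI' hZ hZ' hnode
    hQ4₁ hQ4₂ with h1 | ⟨h1, h2⟩
  · exact absurd h1 hy
  · exact ⟨h, hgen, hI, hZ, hI', hZ', hnode, h1, h2⟩

end

end Fermat.Agent.Lib.S59
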