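/-
Programme (R2) / node [MP-three] (helper7, prefix `s59nt_`):
**[GEO] AT `(p, 3)`, `2 ∣ M`, PROVED for every prime `p ≥ 5`**, and **MAZUR'S PRINCIPLE AT `q = 3` AT EVEN SQUAREFREE LEVELS**.

* `s59nt_geo_three_even` : `s59m_GeoAt p M 3` for `2 ∣ M`, `3 ∤ M` ([A] = `s59nt_finT2`, [B] = `s59nt_redT2`, [C] =
  `s59n_toric_geo_t2`, assembled by `s59n_geoT2_of`);
* `s59nt_MP_three_even`  : [MP′] at `q = 3` for every prime `p ≥ 5`, general `W`, squarefree level `M₀ = 3 M`, `2 ∣ M`: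
  `ρ̄_{W,p}` unramified at `3`, modular of level `3 M` ⇒ modular of level `M` or (`3 ≡ 1 mod p` — impossible — and scalar).
-/
import Fermat.Agent.Lib.S59.NXFin
import Fermat.Agent.Lib.S59.NXRed
import Fermat.Agent.Lib.S59.NMPEven

set_option autoImplicit false
set_option linter.style.haveILetI false
set_option linter.unusedSectionVars false

namespace Fermat.Agent.Lib.S59

noncomputable section

/-- **[GEO] at `(p, 3)`, `2 ∣ M`**, every prime `p ≥ 5`. -/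
theorem s59nt_geo_three_even (p : ℕ) [hp : Fact p.Prime] (hp5 : 5 ≤ p)
    (M : ℕ) [NeZero M] (h3M : ¬ 3 ∣ M) (h2M : 2 ∣ M) :
    s59m_GeoAt p M 3 Nat.prime_three h3M :=
  s59n_geoT2_of (s59nt_finT2 p hp5) (s59nt_redT2 p) (by omega) M h3M h2M

/-- **[MP′] at `q = 3`, even squarefree level, every prime `p ≥ 5`**: general `W`, no hypothesis on the reduction of `W`
at `3`. -/
theorem s59nt_MP_three_even (p : ℕ) (hp : p.Prime) (hp5 : 5 ≤ p) (W : WeierstrassCurve ℤ) (hΔ : W.Δ ≠ 0)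
    (hirr : W.ModRepIsIrreducible p) (M₀ : ℕ) (hM₀ : Squarefree M₀) (h2M₀ : 2 ∣ M₀) (h3M₀ : 3 ∣ M₀)
    (hunr : s59_Unr W p 3) (hres : W.IsResiduallyModularOfLevel p M₀) :
    W.IsResiduallyModularOfLevel p (M₀ / 3) := by
  haveI : Fact p.Prime := ⟨hp⟩
  obtain ⟨M, rfl⟩ : ∃ M, M₀ = M * 3 := ⟨M₀ / 3, (Nat.div_mul_cancel h3M₀).symm⟩
  rw [Nat.mul_div_cancel _ (by norm_num : 0 < 3)]
  have hM0 : M ≠ 0 := by
    rintro rfl
    rw [zero_mul] at hM₀
    exact not_squarefree_zero hM₀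
  haveI : NeZero M := ⟨hM0⟩
  have h3M : ¬ 3 ∣ M := by
    rintro ⟨k, rfl⟩
    have h1 : 3 * 3 ∣ 3 * k * 3 := ⟨k, by ring⟩
    exact absurd (Nat.isUnit_iff.mp (hM₀ 3 h1)) (by norm_num)
  have h2M : 2 ∣ M := by
    rcases (Nat.Prime.dvd_mul Nat.prime_two).mp h2M₀ with h | h
    · exact h
    · omega
  have hp2 : p ≠ 2 := by omega
  have hqp : 3 ≠ p := by omega
  rcases s59m_MP'_at s59m_old s59m_nonEis hp2 W hΔ hirr M 3 Nat.prime_three h3M hqp hunr
    (s59nt_geo_three_even p hp5 M h3M h2M) hres with h | h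
  · exact h
  · exfalso
    have := Nat.le_of_dvd (by norm_num) h.1
    omega

/-- **[MP-three]** in the exact shape of helper1's node `s59g_MPthree` (`Graph3E.lean`): Mazur's principle at `q = 3`,
`p = 5`, at an EVEN squarefree level. -/
theorem s59nt_MPthree :
    ∀ (W : WeierstrassCurve ℤ), W.Δ ≠ 0 → W.IsSemistableModel →
      W.ModRepIsIrreducible 5 → ∀ (M : ℕ), Squarefree M → 2 ∣ M → 3 ∣ M →
      (5 ∣ M → ¬ W.IsGoodPrimeFor 5) →
      s59_Unr W 5 3 → W.IsResiduallyModularOfLevel 5 M → W.IsResiduallyModularOfLevel 5 (M / 3) :=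
  fun W hΔ _ hirr M hM h2M h3M _ hunr hres =>
    s59nt_MP_three_even 5 (by norm_num) le_rfl W hΔ hirr M hM h2M h3M hunr hres

end

end Fermat.Agent.Lib.S59
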