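/-
Programme (R2) / node [MP-two], the AUXILIARY LEVEL INSIDE THE GEOMETRY, part 0 (helper7, prefix `s59nt_`):
the abstract field-theoretic step of the refined core.  `F ⊆ F'` finite of degree `n` prime to `p`, `κ` a field of constants.
If `ū = c_b · ūM · w^p` with `ūM ∈ F` and `N_{F'/F}(c₁ · ū · w₁^p) = c' · V^p`, then `ū = c · W^p`.
-/
import Mathlib

set_option autoImplicit false

namespace Fermat.Agent.Lib.S59

/-- **the norm trick**: `ūM^n` is a constant times a `p`-th power and `(n, p) = 1`, so `ūM` is. -/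
theorem s59nt_norm_power {κ F F' : Type*} [Field κ] [Field F] [Field F'] [Algebra κ F] [Algebra κ F']
    [Algebra F F'] [IsScalarTower κ F F'] [FiniteDimensional F F'] (p : ℕ)
    (hcop : Nat.Coprime p (Module.finrank F F'))
    (ū w w₁ : F') (ūM V : F) (cb c₁ c' : κ) (hcb : cb ≠ 0) (hc₁ : c₁ ≠ 0) (hc' : c' ≠ 0)
    (hūM : ūM ≠ 0) (hw : w ≠ 0) (hw₁ : w₁ ≠ 0) (hV : V ≠ 0)
    (h1 : ū = algebraMap κ F' cb * algebraMap F F' ūM * w ^ p)
    (h2 : Algebra.norm F (algebraMap κ F' c₁ * ū * w₁ ^ p) = algebraMap κ F c' * V ^ p) :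
    ∃ (c : κ) (W : F'), c ≠ 0 ∧ W ≠ 0 ∧ ū = algebraMap κ F' c * W ^ p := by
  set n := Module.finrank F F' with hn
  have hnc : ∀ c : κ, Algebra.norm F (algebraMap κ F' c) = (algebraMap κ F c) ^ n := by
    intro c
    rw [IsScalarTower.algebraMap_apply κ F F', Algebra.norm_algebraMap]
  have hnw : Algebra.norm F w ≠ 0 := Algebra.norm_ne_zero_iff.mpr hw
  have hnw₁ : Algebra.norm F w₁ ≠ 0 := Algebra.norm_ne_zero_iff.mpr hw₁
  rw [h1] at h2
  simp only [map_mul, map_pow, hnc, Algebra.norm_algebraMap] at h2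
  set Y : F := V * (Algebra.norm F w * Algebra.norm F w₁)⁻¹ with hY
  set d : κ := c' * ((c₁ * cb) ^ n)⁻¹ with hd
  have hd0 : d ≠ 0 := mul_ne_zero hc' (inv_ne_zero (pow_ne_zero _ (mul_ne_zero hc₁ hcb)))
  have hY0 : Y ≠ 0 := mul_ne_zero hV (inv_ne_zero (mul_ne_zero hnw hnw₁))
  have hA₁ : algebraMap κ F c₁ ≠ 0 := by rwa [Ne, map_eq_zero]
  have hAb : algebraMap κ F cb ≠ 0 := by rwa [Ne, map_eq_zero]
  have key : ūM ^ n = algebraMap κ F d * Y ^ p := by
    rw [hY, hd, map_mul, map_inv₀, map_pow, map_mul, mul_pow V, inv_pow]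
    field_simp
    rw [← h2]
    ring
  obtain ⟨a, b, hab⟩ : IsCoprime (p : ℤ) (n : ℤ) := Nat.isCoprime_iff_coprime.mpr hcop
  have hu : ūM = algebraMap κ F (d ^ b) * (ūM ^ a * Y ^ b) ^ p := by
    have e1 : ūM = (ūM ^ a) ^ p * (ūM ^ n) ^ b := by
      conv_lhs => rw [← zpow_one ūM, ← hab]
      rw [zpow_add₀ hūM, zpow_mul, zpow_natCast, mul_comm b, zpow_mul, zpow_natCast]
    have e2 : (Y ^ p) ^ b = (Y ^ b) ^ p := by
      rw [← zpow_natCast (Y ^ b), ← zpow_mul, mul_comm, zpow_mul, zpow_natCast]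
    rw [key, mul_zpow, e2] at e1
    rw [map_zpow₀, mul_pow]
    conv_lhs => rw [e1]
    ring
  refine ⟨cb * d ^ b, algebraMap F F' (ūM ^ a * Y ^ b) * w,
    mul_ne_zero hcb (zpow_ne_zero _ hd0),
    mul_ne_zero ((map_ne_zero _).mpr (mul_ne_zero (zpow_ne_zero _ hūM) (zpow_ne_zero _ hY0))) hw, ?_⟩
  rw [h1]
  conv_lhs => rw [hu]
  rw [map_mul (algebraMap κ F'), mul_pow (algebraMap F F' (ūM ^ a * Y ^ b)), ← map_pow (algebraMap F F'),
    map_mul (algebraMap F F'), ← IsScalarTower.algebraMap_apply κ F F']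
  ring

end Fermat.Agent.Lib.S59
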