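/-
Programme R (S59), node [MP′], work package WP-X [AUX] (helper7 #3285 §3; helper2, prefix `s59b_`),
part 2: the statements of `Lib/S59/BAux` in the vocabulary of helper9's interface `Lib/S59/MIface`
(`s59m_wq`, `s59m_GeoAt`).

* `s59b_pull_wq`         : `π^* (w_q x) = w_q (π^* x)` (levels `M q ∣ M' q`);
* `s59b_frob_descend_wq` : `σ (π^* x) = − q · w_q (π^* x) ⟹ σ x = − q · w_q x` for `p`-torsion `x`
                           (levels `M q ∣ (M r) q`, `r ∤ M q` prime, `p ∤ r + 1`);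
* `s59b_geoAt_aux`       : the FORMAL part of the descent of [GEO] from the level `(M r, q)` to the level
                           `(M, q)`: under the hypotheses of `s59m_GeoAt p M q` (with `r ∈ B`), EITHER there is a
                           non-zero eigen-point at the level `M r` OR `σ x = − q · w_q x`.
-/
import Mathlib
import Fermat.Agent.Lib.S59.BAux
import Fermat.Agent.Lib.S59.MIface

set_option autoImplicit false
set_option linter.unusedSectionVars false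
set_option linter.style.haveILetI false

namespace Fermat.Agent.Lib.S59

open ModularCurve AlgebraicCurve
open Fermat.Agent.Lib.FF Fermat.Agent.Lib.S18 Fermat.Agent.Lib.S28 Fermat.Agent.Lib.S29
  Fermat.Agent.Lib.S33 Fermat.Agent.Lib.S35 Fermat.Agent.Lib.S36 Fermat.Agent.Lib.S37
  Fermat.Agent.Lib.S44

noncomputable section

local notation "Kb" => AlgebraicClosure ℚ
local notation "Γℚ" => (AlgebraicClosure ℚ ≃ₐ[ℚ] AlgebraicClosure ℚ)

/-- **`π^* ∘ w_q = w_q ∘ π^*`.** -/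
theorem s59b_pull_wq (M M' q : ℕ) [NeZero M] [NeZero M'] [NeZero q] (h : M ∣ M') (hq : q.Prime)
    (hqM : ¬ q ∣ M) (hqM' : ¬ q ∣ M') (x : JZero (M * q)) :
    s36p_pull (s36p_dvd_top M M' q h) (s59m_wq M q hq hqM x) =
      s59m_wq M' q hq hqM' (s36p_pull (s36p_dvd_top M M' q h) x) :=
  s59b_pull_al M M' q h hq hqM' x

/-- **descent of `σ x = − q · w_q x`** along `π^* : J₀(M q) → J₀((M r) q)`. -/
theorem s59b_frob_descend_wq (M r q : ℕ) [NeZero M] [NeZero r] [NeZero q] (hq : q.Prime)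
    (hr : r.Prime) (hrMq : ¬ r ∣ M * q) (hqM : ¬ q ∣ M) (hqMr : ¬ q ∣ M * r) (p : ℕ)
    (hp : Nat.Coprime p (r + 1)) (σ : Γℚ) (x : JZero (M * q)) (hpx : p • x = 0)
    (hx' : σ • s36p_pull (s36p_dvd_top M (M * r) q (dvd_mul_right M r)) x =
      (-(q : ℤ)) • s59m_wq (M * r) q hq hqMr
        (s36p_pull (s36p_dvd_top M (M * r) q (dvd_mul_right M r)) x)) :
    σ • x = (-(q : ℤ)) • s59m_wq M q hq hqM x :=
  s59b_frob_descend M r q hq hr hrMq hqMr p hp σ x hpx hx'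

/-- **the formal part of the descent of [GEO]** from `(M r, q)` to `(M, q)`. -/
theorem s59b_geoAt_aux (p : ℕ) [hp : Fact p.Prime] (M r q : ℕ) [NeZero M] [NeZero r] [NeZero q]
    (hq : q.Prime) (hr : r.Prime) (hrMq : ¬ r ∣ M * q) (hqM : ¬ q ∣ M) (hqMr : ¬ q ∣ M * r)
    (hpr : Nat.Coprime p (r + 1)) (hG : s59m_GeoAt p (M * r) q hq hqMr)
    (W : WeierstrassCurve ℤ) (hΔ : W.Δ ≠ 0) (B : Finset ℕ)
    (hB : ∀ s : ℕ, s.Prime → s ∣ M * r * q * p → s ∈ B)
    (hℓ₀ : ∃ ℓ₀ : Nat.Primes, (ℓ₀ : ℕ) ∉ B ∧ ¬ (p : ℤ) ∣ W.apOfModel ℓ₀ - ((ℓ₀ : ℕ) + 1))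
    (A : ValuationSubring Kb) (hA : A.LiesOverPrime q) (σ : Γℚ) (hσ : A.IsFrobeniusAt σ q)
    (hI : ∀ τ ∈ A.inertiaSubgroupIn ℚ, τ ∈ s59m_H W p)
    (x : JZero (M * q)) (hx : s44i_Eig (M * q) p (fun ℓ => W.apOfModel ℓ) B x)
    (hfix : ∀ h ∈ s59m_H W p, h • x = x) :
    (∃ y : JZero (M * r), y ≠ 0 ∧ s44i_Eig (M * r) p (fun ℓ => W.apOfModel ℓ) B y) ∨
      σ • x = (-(q : ℤ)) • s59m_wq M q hq hqM x := by
  set π := s36p_pull (s36p_dvd_top M (M * r) q (dvd_mul_right M r)) with hπ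
  have hx' : s44i_Eig (M * r * q) p (fun ℓ => W.apOfModel ℓ) B (π x) :=
    s59b_eig_pull _ p _ B B (Finset.Subset.refl B) hB x hx
  have hfix' : ∀ h ∈ s59m_H W p, h • π x = π x := by
    intro h hh
    rw [hπ, ← s36p_pull_smul, hfix h hh]
  rcases hG W hΔ B hB hℓ₀ A hA σ hσ hI (π x) hx' hfix' with hy | hF
  · exact Or.inl hy
  · exact Or.inr (s59b_frob_descend_wq M r q hq hr hrMq hqM hqMr p hpr σ x hx.1 hF)

end

end Fermat.Agent.Lib.S59
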