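/-
Programme (R2) / node [MP-two] (and [MP] at `q = 3` at ODD levels), the AUXILIARY LEVEL INSIDE THE GEOMETRY, part 1
(helper7, prefix `s59nt_`): **THE REFINED CORE.**

Levels `M ∣ M r` (`r` prime, `r ∤ M q`), `q ∤ M r` the residue characteristic, `(q, M r)` an S18-good level (`(q, M)` need
not be good), Kummer exponent `p ≠ q`, `p ∤ r + 1`.

* `s59nt_core_lift` : helper9's core (`s59nt_core`) in LIFTING form: the point `z ∈ J₀(M)[p]` lifting the reduction `ū` of a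
  Kummer generator, together with its Kummer generator `G` (`red G = c ū w^p`) and the eigen-property of `z`;
* `s59nt_claimA`    : if `x' = π^* x` (`x ∈ J₀(M q)[p]`), the reduction of ANY Gauss-unit Kummer generator of `x'` is
  `c · ū · w^p` with `ū ∈ F̄_M` (the residue field of `V_∞` at the level `M q` is `F̄_M`: `s59m_redV_top_mem_fullC`, no
  good-level hypothesis);
* `s59nt_core_aux`  : **the refined core**: for such an `x'`, EITHER there is a non-zero eigen-point AT THE LEVEL `M`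
  (`α_* z`, `z` the lift at the level `M r`; Kummer generator `Nm G`) OR the reduction of the Kummer generator is a constant
  times a `p`-th power in `F̄_{M r}` (if `α_* z = 0` then `Nm G = c w^p`; by helper9's Gauss lemma for norms `m15r_norm_redF`
  `red (Nm G) = Nm̄ (red G) = c' ū^{r+1} (…)^p`, and `p ∤ r + 1`).
-/
import Fermat.Agent.Lib.S59.NXRed
import Fermat.Agent.Lib.S59.BAuxWq
import Fermat.Agent.Lib.S15.RTower

set_option autoImplicit false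
set_option linter.style.haveILetI false
set_option linter.unusedSectionVars false
set_option linter.unusedVariables false
set_option synthInstance.maxHeartbeats 400000

namespace Fermat.Agent.Lib.S59

open ModularCurve HahnSeries AlgebraicCurve Fermat.Agent.Lib.FF Fermat.Agent.Lib.S18
  Fermat.Agent.Lib.S28 Fermat.Agent.Lib.S29 Fermat.Agent.Lib.S37 Fermat.Agent.Lib.S34
  Fermat.Agent.Lib.S33 Fermat.Agent.Lib.S44 Fermat.Agent.Lib.S19 Fermat.Agent.Lib.S17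
  Fermat.Agent.Lib.S15 Fermat.Agent.Lib.S35 Fermat.Agent.Lib.S36

noncomputable section

local notation "Kb" => AlgebraicClosure ℚ

/-! ### The core in lifting form -/

section Core

variable (M q : ℕ) [NeZero M] [hq : Fact q.Prime] (hqM : ¬ q ∣ M) (hgood : s18_GoodLevel q M)
  (p : ℕ) [hp : Fact p.Prime] (hpq : p ≠ q)
  (P : ValuationSubring Kb) (hP : P.LiesOverPrime q)

set_option maxHeartbeats 1600000 in
include hqM hgood hpq in
/-- **THE CORE, lifting form**: the lift `z` of the reduction with its Kummer generator `G` (no case split `z = 0`). -/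
theorem s59nt_core_lift (a : ℕ → ℤ) (B : Finset ℕ) (hB : ∀ r : ℕ, r.Prime → r ∣ M * q * p → r ∈ B)
    (x : JZero (M * q)) (hE : s44i_Eig (M * q) p a B x)
    (H : ffi_F (M * q)) (hgen : s33d_IsKumGen p x H)
    (hH : H ∈ s37r_OF P (M * q) hP) (hH' : H⁻¹ ∈ s37r_OF P (M * q) hP)
    (ū : ↥(modularFunctionFieldFullC (IsLocalRing.ResidueField ↥P) M))
    (hū : (ū : LaurentSeries (IsLocalRing.ResidueField ↥P)) = s37r_redV P (M * q) hP ⟨H, hH⟩)
    (hdiv : ∀ v : Place (IsLocalRing.ResidueField ↥P)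
      ↥(modularFunctionFieldFullC (IsLocalRing.ResidueField ↥P) M), (p : ℤ) ∣ v.ord ū) :
    ∃ (z : JZero M) (G : ffi_F M) (hGO : G ∈ s37r_OF P M hP), s33d_IsKumGen p z G ∧
      G⁻¹ ∈ s37r_OF P M hP ∧
      (∃ (c₁ : IsLocalRing.ResidueField ↥P)
        (w₁ : ↥(modularFunctionFieldFullC (IsLocalRing.ResidueField ↥P) M)), c₁ ≠ 0 ∧ w₁ ≠ 0 ∧
        s37r_redF P M hP hqM ⟨G, hGO⟩ =
          algebraMap (IsLocalRing.ResidueField ↥P)
            ↥(modularFunctionFieldFullC (IsLocalRing.ResidueField ↥P) M) c₁ * ū * w₁ ^ p) ∧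
      s44i_Eig M p a B z := by
  classical
  haveI : FFGen Kb (ffd_jBar M) := s18r_ffGen M
  obtain ⟨r, l, g, hr, hl, hC⟩ :=
    (s19m_curveExists s19_gauss_final s19_rr_final s19e_baseA) M q hgood P hP
  obtain ⟨abv, hna, hAabv⟩ := s17z_abv_exists P hq.out hP
  have hconst : s33d_ConstOfOrdZero (IsLocalRing.ResidueField ↥P)
      ↥(modularFunctionFieldFullC (IsLocalRing.ResidueField ↥P) M) :=
    s18n_constFk_residueField (N := M) P hq.out hP hqM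
  have hp0 : p ≠ 0 := hp.out.ne_zero
  have hpA := s59m_isUnit_p q p hpq P hP
  have hH0 : H ≠ 0 := hgen.1
  have hredH0 : s37r_redV P (M * q) hP ⟨H, hH⟩ ≠ 0 := by
    intro h0
    have h1 : (⟨H, hH⟩ : ↥(s37r_OF P (M * q) hP)) * ⟨H⁻¹, hH'⟩ = 1 :=
      Subtype.ext (mul_inv_cancel₀ hH0)
    have := congrArg (s37r_redV P (M * q) hP) h1
    rw [map_mul, h0, zero_mul, map_one] at this
    exact zero_ne_one this
  have hū0 : ū ≠ 0 := by
    rintro rfl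
    exact hredH0 hū.symm
  obtain ⟨z, G, hGO, hgenG, hG'O, c₁, w₁, hc₁, hw₁, hredG⟩ :=
    s59m_liftK hC abv hna hAabv hconst p hp0 hpA ū hū0 hdiv
  have hG0 : G ≠ 0 := hgenG.1
  -- the reduction of `G` as a series
  have hredGs : s37r_redV P M hP ⟨G, hGO⟩ =
      HahnSeries.C c₁ * (ū : LaurentSeries (IsLocalRing.ResidueField ↥P)) *
        (w₁ : LaurentSeries (IsLocalRing.ResidueField ↥P)) ^ p := by
    have := congrArg (fun y : ↥(modularFunctionFieldFullC (IsLocalRing.ResidueField ↥P) M) =>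
      (y : LaurentSeries (IsLocalRing.ResidueField ↥P))) hredG
    simp only [s37r_coe_redF, MulMemClass.coe_mul, SubmonoidClass.coe_pow,
      s59m_coe_algebraMap_fullC] at this
    exact this
  refine ⟨z, G, hGO, hgenG, hG'O, ⟨c₁, w₁, hc₁, hw₁, hredG⟩, s33d_kumGen_tors hgenG, ?_⟩
  intro ℓ hℓB
  haveI hℓF : Fact (ℓ : ℕ).Prime := ⟨ℓ.2⟩
  haveI : NeZero (ℓ : ℕ) := ⟨ℓ.2.ne_zero⟩
  have hℓN : ¬ (ℓ : ℕ) ∣ M * q * p := fun hd => hℓB (hB ℓ ℓ.2 hd)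
  have hℓMq : ¬ (ℓ : ℕ) ∣ M * q := fun hd => hℓN (Dvd.dvd.mul_right hd p)
  have hℓM : ¬ (ℓ : ℕ) ∣ M := fun hd => hℓMq (Dvd.dvd.mul_right hd q)
  have hℓq : (ℓ : ℕ) ≠ q := by
    intro h0
    exact hℓMq (h0 ▸ dvd_mul_left _ _)
  obtain ⟨ζ, hζ⟩ := s37e_exists_zeta (ℓ : ℕ)
  have hζκ := s59m_zetaTK_prim (ℓ : ℕ) hℓq P hP ζ hζ
  -- level `M q`
  have hzx : heckeOperatorBar (M * q) ⟨(ℓ : ℕ), hℓF.out⟩ x = a ℓ • x := hE.2 ℓ hℓB
  obtain ⟨c, w, hc, hw, hrel⟩ :=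
    s44h_top_rel_of_eigen (M * q) (ℓ : ℕ) p hℓMq x (a ℓ) hzx H hgen
  obtain ⟨cb, u, hu, hcb, hu0, hN⟩ := s59m_top_eigen (M * q) (ℓ : ℕ) hℓMq hℓq P hP p ζ hζ
    (a ℓ) H hH0 hH hH' c w hc hw hrel
  rw [← hū] at hN
  -- level `M`
  obtain ⟨hGa1, hGa2, hredGa⟩ := s44h_redV_zpow M q P hP G hGO hG'O hG0 (a ℓ)
  have hτG : s37e_normAlpha M (ℓ : ℕ) (heckeBetaBar Kb M (ℓ : ℕ) G) ∈ s37r_OF P M hP :=
    s59m_tauBar_mem_OF M (ℓ : ℕ) hℓM P hP ζ hζ hGO
  set G' : ffi_F M := s37e_normAlpha M (ℓ : ℕ) (heckeBetaBar Kb M (ℓ : ℕ) G) * (G ^ (a ℓ))⁻¹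
    with hG'
  have hgen' : s33d_IsKumGen p (heckeOperatorBar M ⟨(ℓ : ℕ), hℓF.out⟩ z + -(a ℓ • z)) G' :=
    s33d_kumGen_prod (s44c_isKumGen_hecke M (ℓ : ℕ) hℓM p z G hgenG)
      (s33d_kumGen_inv (s44c_isKumGen_zpow M p hgenG (a ℓ)))
  have hG'mem : G' ∈ s37r_OF P M hP := (s37r_OF P M hP).mul_mem _ _ hτG hGa2
  have hredinv : s37r_redV P M hP ⟨(G ^ (a ℓ))⁻¹, hGa2⟩ =
      ((s37r_redV P M hP ⟨G, hGO⟩) ^ (a ℓ))⁻¹ := by
    have h1 : (⟨G ^ (a ℓ), hGa1⟩ : ↥(s37r_OF P M hP)) * ⟨(G ^ (a ℓ))⁻¹, hGa2⟩ = 1 :=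
      Subtype.ext (mul_inv_cancel₀ (zpow_ne_zero _ hG0))
    have := congrArg (s37r_redV P M hP) h1
    rw [map_mul, map_one, hredGa] at this
    exact eq_inv_of_mul_eq_one_right this
  have hredG' : s37r_redV P M hP ⟨G', hG'mem⟩ =
      s33t_N (ℓ : ℕ) (s44h_zetaTK P (IsLocalRing.residue ↥P) (ℓ : ℕ) ζ hζ)
          (s37r_redV P M hP ⟨G, hGO⟩) * ((s37r_redV P M hP ⟨G, hGO⟩) ^ (a ℓ))⁻¹ := by
    have e' : (⟨G', hG'mem⟩ : ↥(s37r_OF P M hP)) =
        ⟨_, hτG⟩ * ⟨(G ^ (a ℓ))⁻¹, hGa2⟩ := Subtype.ext rfl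
    rw [e', map_mul, hredinv, s59m_redV_tauBar M (ℓ : ℕ) hℓM hℓq P hP ζ hζ hGO]
  have hūs : (ū : LaurentSeries (IsLocalRing.ResidueField ↥P)) ≠ 0 :=
    fun h0 => hū0 (Subtype.ext h0)
  have hw₁s : (w₁ : LaurentSeries (IsLocalRing.ResidueField ↥P)) ≠ 0 :=
    fun h0 => hw₁ (Subtype.ext h0)
  have hcomp := s59m_field_comp (ℓ : ℕ) _ hζκ p (a ℓ) c₁ cb hc₁ _ _ _ _ hūs hw₁s hredGs hN
  rw [← hredG'] at hcomp
  -- the elements of `F̄_M`
  have hum : s37r_redV P (M * q) hP ⟨u, hu⟩ ∈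
      modularFunctionFieldFullC (IsLocalRing.ResidueField ↥P) M :=
    s59m_redV_top_mem_fullC M q hqM P hP ⟨u, hu⟩
  have hNw := s59m_Nbar_mem_fullC M q hqM P hP (ℓ : ℕ) hℓM hℓq ζ hζ w₁
  set w'' : ↥(modularFunctionFieldFullC (IsLocalRing.ResidueField ↥P) M) :=
    ⟨_, hum⟩ * ⟨_, hNw⟩ * (w₁ ^ (a ℓ))⁻¹ with hw''
  have hw''0 : w'' ≠ 0 := by
    refine mul_ne_zero (mul_ne_zero (fun h0 => hu0 (congrArg Subtype.val h0)) ?_)
      (inv_ne_zero (zpow_ne_zero _ hw₁))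
    intro h0
    exact s59m_N_ne_zero (ℓ : ℕ) _ hζκ hw₁s (congrArg Subtype.val h0)
  have hcc : c₁ ^ ((ℓ : ℕ) + 1) * cb * (c₁ ^ (a ℓ))⁻¹ ≠ 0 :=
    mul_ne_zero (mul_ne_zero (pow_ne_zero _ hc₁) hcb) (inv_ne_zero (zpow_ne_zero _ hc₁))
  have hfin : s37r_redF P M hP hqM ⟨G', hG'mem⟩ =
      algebraMap (IsLocalRing.ResidueField ↥P)
        ↥(modularFunctionFieldFullC (IsLocalRing.ResidueField ↥P) M)
        (c₁ ^ ((ℓ : ℕ) + 1) * cb * (c₁ ^ (a ℓ))⁻¹) * w'' ^ p := by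
    apply Subtype.ext
    rw [s37r_coe_redF, hcomp]
    have hzp : ((w₁ ^ (a ℓ) : ↥(modularFunctionFieldFullC (IsLocalRing.ResidueField ↥P) M)) :
        LaurentSeries (IsLocalRing.ResidueField ↥P)) =
        (w₁ : LaurentSeries (IsLocalRing.ResidueField ↥P)) ^ (a ℓ) :=
      map_zpow₀ (modularFunctionFieldFullC (IsLocalRing.ResidueField ↥P) M).val w₁ (a ℓ)
    simp only [MulMemClass.coe_mul, SubmonoidClass.coe_pow, s59m_coe_algebraMap_fullC, hw'',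
      IntermediateField.coe_inv, hzp]
  have hzero := s59m_injK hC p hp0 hpA _ G' hgen' hG'mem _ hcc w'' hw''0 hfin
  exact add_neg_eq_zero.mp hzero

end Core

end

end Fermat.Agent.Lib.S59
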