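/-
Programme (R2) / node [MP-two] (and [MP] at `q = 3` at ODD levels), the AUXILIARY LEVEL INSIDE THE GEOMETRY, part 2
(helper7, prefix `s59nt_`): **Claim A and the refined core.**

Levels `M ∣ M r` (`r` prime, `r ∤ M`), `q ∤ M r` the residue characteristic, `(q, M r)` an S18-good level (`(q, M)` need
not be good), Kummer exponent `p ≠ q`, `p` prime to `r + 1`.

* `s59nt_claimA`   : if `x' = π^* x₀` (`x₀ ∈ J₀(M q)[p]`), the reduction of ANY Gauss-unit Kummer generator of `x'` is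
  `c · ūM · w^p` with `ūM ∈ F̄_M`, `w ∈ F̄_{M r}`;
* `s59nt_core_aux` : **the refined core**: EITHER a non-zero eigen-point AT THE LEVEL `M`, OR the reduction `ū` of the Kummer
  generator is a constant times a `p`-th power in `F̄_{M r}`.
-/
import Fermat.Agent.Lib.S59.NYCore
import Fermat.Agent.Lib.S59.NYAbs

set_option autoImplicit false
set_option linter.style.haveILetI false
set_option linter.unusedSectionVars false
set_option linter.unusedVariables false
set_option synthInstance.maxHeartbeats 400000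

namespace Fermat.Agent.Lib.S59

open ModularCurve HahnSeries AlgebraicCurve Fermat.Agent.Lib.FF Fermat.Agent.Lib.S18
  Fermat.Agent.Lib.S28 Fermat.Agent.Lib.S29 Fermat.Agent.Lib.S37 Fermat.Agent.Lib.S34
  Fermat.Agent.Lib.S33 Fermat.Agent.Lib.S44 Fermat.Agent.Lib.S19 Fermat.Agent.Lib.S17
  Fermat.Agent.Lib.S15 Fermat.Agent.Lib.S35 Fermat.Agent.Lib.S36

noncomputable section

local notation "Kb" => AlgebraicClosure ℚ

/-! ### The reduction commutes with the level inclusion -/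

/-- the level inclusion preserves Gauss-integrality. -/
theorem s59nt_incl_mem_OF {N N' : ℕ} [NeZero N] [NeZero N'] (h : N ∣ N') {q : ℕ} [hq : Fact q.Prime]
    (P : ValuationSubring Kb) (hP : P.LiesOverPrime q) (f : ffi_F N) (hf : f ∈ s37r_OF P N hP) :
    s37l_incl N N' h f ∈ s37r_OF P N' hP := by
  rw [s37r_mem_OF_iff, s37l_coe_incl]
  exact (s37r_mem_OF_iff P N hP f).mp hf

/-- the reduction only depends on the underlying series (abstract form: the kernel must not unfold the map). -/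
theorem s59nt_redV_congr {N N' : ℕ} [NeZero N] [NeZero N'] {q : ℕ} [hq : Fact q.Prime]
    (P : ValuationSubring Kb) (hP : P.LiesOverPrime q)
    (φ : ffi_F N → ffi_F N')
    (hφ : ∀ x, ((φ x : ffi_F N') : LaurentSeries Kb) = (x : LaurentSeries Kb))
    (f : ffi_F N) (hf : f ∈ s37r_OF P N hP) (hf' : φ f ∈ s37r_OF P N' hP) :
    s37r_redV P N' hP ⟨φ f, hf'⟩ = s37r_redV P N hP ⟨f, hf⟩ := by
  have e : s37r_OFtoO P N' hP ⟨φ f, hf'⟩ = s37r_OFtoO P N hP ⟨f, hf⟩ :=
    Subtype.ext (hφ f)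
  exact congrArg (s37r_red P (IsLocalRing.residue ↥P)) e

/-- the reduction of `incl f` is the reduction of `f`. -/
theorem s59nt_redV_incl {N N' : ℕ} [NeZero N] [NeZero N'] (h : N ∣ N') {q : ℕ} [hq : Fact q.Prime]
    (P : ValuationSubring Kb) (hP : P.LiesOverPrime q) (f : ffi_F N) (hf : f ∈ s37r_OF P N hP)
    (hf' : s37l_incl N N' h f ∈ s37r_OF P N' hP) :
    s37r_redV P N' hP ⟨s37l_incl N N' h f, hf'⟩ = s37r_redV P N hP ⟨f, hf⟩ :=
  s59nt_redV_congr P hP (fun x => s37l_incl N N' h x) (fun x => s37l_coe_incl N N' h x) f hf hf'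

/-- a Gauss unit has non-zero reduction. -/
theorem s59nt_redV_ne_zero {N : ℕ} [NeZero N] {q : ℕ} [hq : Fact q.Prime]
    (P : ValuationSubring Kb) (hP : P.LiesOverPrime q) (f : ffi_F N) (hf0 : f ≠ 0)
    (hf : f ∈ s37r_OF P N hP) (hf' : f⁻¹ ∈ s37r_OF P N hP) :
    s37r_redV P N hP ⟨f, hf⟩ ≠ 0 := by
  intro h0
  have h1 : (⟨f, hf⟩ : ↥(s37r_OF P N hP)) * ⟨f⁻¹, hf'⟩ = 1 := Subtype.ext (mul_inv_cancel₀ hf0)
  have := congrArg (s37r_redV P N hP) h1
  rw [map_mul, h0, zero_mul, map_one] at this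
  exact zero_ne_one this

/-! ### Claim A -/

section ClaimA

variable (M r q : ℕ) [NeZero M] [NeZero r] [hq : Fact q.Prime] (hqMr : ¬ q ∣ M * r)
  (p : ℕ) [hp : Fact p.Prime]
  (P : ValuationSubring Kb) (hP : P.LiesOverPrime q)

set_option maxHeartbeats 1600000 in
include hqMr in
/-- **Claim A**: the reduction of a Gauss-unit Kummer generator of `π^* x₀` is `c · ūM · w^p`, `ūM ∈ F̄_M`. -/
theorem s59nt_claimA (x₀ : JZero (M * q)) (hx₀ : p • x₀ = 0) (H : ffi_F (M * r * q))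
    (hgen : s33d_IsKumGen p (s36p_pull (s36p_dvd_top M (M * r) q (dvd_mul_right M r)) x₀) H)
    (hH : H ∈ s37r_OF P (M * r * q) hP) (hH' : H⁻¹ ∈ s37r_OF P (M * r * q) hP) :
    ∃ (cb : IsLocalRing.ResidueField ↥P)
      (ūM : ↥(modularFunctionFieldFullC (IsLocalRing.ResidueField ↥P) M))
      (w : ↥(modularFunctionFieldFullC (IsLocalRing.ResidueField ↥P) (M * r))),
      cb ≠ 0 ∧ ūM ≠ 0 ∧ w ≠ 0 ∧
      s37r_redV P (M * r * q) hP ⟨H, hH⟩ =
        HahnSeries.C cb * (ūM : LaurentSeries (IsLocalRing.ResidueField ↥P)) *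
          (w : LaurentSeries (IsLocalRing.ResidueField ↥P)) ^ p := by
  classical
  haveI : NeZero q := ⟨hq.out.ne_zero⟩
  haveI : NeZero p := ⟨hp.out.ne_zero⟩
  have hqM : ¬ q ∣ M := fun h => hqMr (h.mul_right r)
  have hdvd : M * q ∣ M * r * q := s36p_dvd_top M (M * r) q (dvd_mul_right M r)
  obtain ⟨H₀, hgen₀⟩ := s33d_exists_kumGen p x₀ hx₀
  have hH₀0 : H₀ ≠ 0 := hgen₀.1
  obtain ⟨d, H₁, hd, hH₁, hH₁', e⟩ := s33d_exists_gauss_unit P (M * q) hP H₀ hH₀0
  have hH₁0 : H₁ ≠ 0 := by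
    rintro rfl
    rw [mul_zero] at e
    exact hH₀0 e
  have hgen₀' : s33d_IsKumGen p (s36p_pull hdvd x₀) (s37l_incl (M * q) (M * r * q) hdvd H₀) :=
    s33l_kumGen_pull (s37l_incl (M * q) (M * r * q) hdvd) (s36p_incl_integral hdvd)
      (s36p_incl_FI hdvd) hgen₀
  have hquot := s33d_kumGen_prod hgen (s33d_kumGen_inv hgen₀')
  rw [add_neg_cancel] at hquot
  obtain ⟨c, w, hc, hw, hcw⟩ :=
    (s33d_kumGen_zero_iff (s19v_const (M * r * q)) hp.out.ne_zero hquot).mp rfl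
  have hI₀0 : s37l_incl (M * q) (M * r * q) hdvd H₀ ≠ 0 := hgen₀'.1
  have hI₁0 : s37l_incl (M * q) (M * r * q) hdvd H₁ ≠ 0 := (map_ne_zero _).mpr hH₁0
  have hrel : H = algebraMap Kb (ffi_F (M * r * q)) (c * d) * w ^ p *
      (s37l_incl (M * q) (M * r * q) hdvd H₁) ^ (1 : ℤ) := by
    rw [zpow_one]
    have h1 : H = (algebraMap Kb (ffi_F (M * r * q)) c * w ^ p) *
        s37l_incl (M * q) (M * r * q) hdvd H₀ := by
      exact (mul_inv_eq_iff_eq_mul₀ hI₀0).mp hcw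
    rw [h1, e, map_mul, AlgHom.commutes, map_mul]
    ring
  have hI₁ : s37l_incl (M * q) (M * r * q) hdvd H₁ ∈ s37r_OF P (M * r * q) hP :=
    s59nt_incl_mem_OF hdvd P hP H₁ hH₁
  have hI₁' : (s37l_incl (M * q) (M * r * q) hdvd H₁)⁻¹ ∈ s37r_OF P (M * r * q) hP := by
    rw [← map_inv₀]
    exact s59nt_incl_mem_OF hdvd P hP H₁⁻¹ hH₁'
  obtain ⟨cb, u, hu, hcb, hu0, hred⟩ := s59m_gauss_rel (M * r * q) P hP p 1
    (s37l_incl (M * q) (M * r * q) hdvd H₁) H hI₁0 hI₁ hI₁' hH hH' (c * d) w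
    (mul_ne_zero hc hd) hw hrel
  rw [zpow_one, s59nt_redV_incl hdvd P hP H₁ hH₁ hI₁] at hred
  refine ⟨cb, ⟨_, s59m_redV_top_mem_fullC M q hqM P hP ⟨H₁, hH₁⟩⟩,
    ⟨_, s59m_redV_top_mem_fullC (M * r) q hqMr P hP ⟨u, hu⟩⟩, hcb, ?_, ?_, hred⟩
  · intro h0
    exact s59nt_redV_ne_zero P hP H₁ hH₁0 hH₁ hH₁' (congrArg Subtype.val h0)
  · intro h0
    exact hu0 (congrArg Subtype.val h0)

end ClaimA

/-! ### The refined core -/

section CoreAux

variable (M r q : ℕ) [NeZero M] [NeZero r] [hq : Fact q.Prime] (hr : r.Prime) (hrM : ¬ r ∣ M)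
  (hqMr : ¬ q ∣ M * r) (hgood : s18_GoodLevel q (M * r))
  (p : ℕ) [hp : Fact p.Prime] (hpq : p ≠ q) (hpr : Nat.Coprime p (r + 1))
  (P : ValuationSubring Kb) (hP : P.LiesOverPrime q)

set_option maxHeartbeats 3200000 in
include hr hrM hqMr hgood hpq hpr in
/-- **THE REFINED CORE**: for `x' = π^* x₀` at the level `(M r) q`: EITHER a non-zero eigen-point at the level `M`, OR the
reduction `ū ∈ F̄_{M r}` of the Kummer generator is a constant times a `p`-th power. -/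
theorem s59nt_core_aux (a : ℕ → ℤ) (B : Finset ℕ)
    (hB : ∀ s : ℕ, s.Prime → s ∣ M * r * q * p → s ∈ B)
    (x₀ : JZero (M * q)) (hx₀ : p • x₀ = 0)
    (hE : s44i_Eig (M * r * q) p a B
      (s36p_pull (s36p_dvd_top M (M * r) q (dvd_mul_right M r)) x₀))
    (H : ffi_F (M * r * q))
    (hgen : s33d_IsKumGen p (s36p_pull (s36p_dvd_top M (M * r) q (dvd_mul_right M r)) x₀) H)
    (hH : H ∈ s37r_OF P (M * r * q) hP) (hH' : H⁻¹ ∈ s37r_OF P (M * r * q) hP)
    (ū : ↥(modularFunctionFieldFullC (IsLocalRing.ResidueField ↥P) (M * r)))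
    (hū : (ū : LaurentSeries (IsLocalRing.ResidueField ↥P)) = s37r_redV P (M * r * q) hP ⟨H, hH⟩)
    (hdiv : ∀ v : Place (IsLocalRing.ResidueField ↥P)
      ↥(modularFunctionFieldFullC (IsLocalRing.ResidueField ↥P) (M * r)), (p : ℤ) ∣ v.ord ū) :
    (∃ y : JZero M, y ≠ 0 ∧ s44i_Eig M p a B y) ∨
      ∃ (c : IsLocalRing.ResidueField ↥P)
        (w : ↥(modularFunctionFieldFullC (IsLocalRing.ResidueField ↥P) (M * r))), c ≠ 0 ∧ w ≠ 0 ∧
        ū = algebraMap (IsLocalRing.ResidueField ↥P)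
          ↥(modularFunctionFieldFullC (IsLocalRing.ResidueField ↥P) (M * r)) c * w ^ p := by
  classical
  haveI : NeZero q := ⟨hq.out.ne_zero⟩
  haveI : NeZero p := ⟨hp.out.ne_zero⟩
  have hqM : ¬ q ∣ M := fun h => hqMr (h.mul_right r)
  obtain ⟨cb, ūM, wA, hcb, hūM, hwA, hA⟩ := s59nt_claimA M r q hqMr p P hP x₀ hx₀ H hgen hH hH'
  obtain ⟨z, G, hGO, hgenG, hG'O, ⟨c₁, w₁, hc₁, hw₁, hredG⟩, hEz⟩ :=
    s59nt_core_lift (M * r) q hqMr hgood p hpq P hP a B hB _ hE H hgen hH hH' ū hū hdiv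
  by_cases hz₀ : s35c_alphaPush M r hr hrM z = 0
  swap
  · refine Or.inl ⟨_, hz₀, s59b_eig_alphaPush M r hr hrM p a B (fun s hs hd => hB s hs ?_) z hEz⟩
    obtain ⟨k, hk⟩ := hd
    exact ⟨k * q, by rw [show M * r * q * p = M * r * p * q by ring, hk]; ring⟩
  right
  have hG0 : G ≠ 0 := hgenG.1
  have hgenN := s59b_isKumGen_alphaPush M r hr hrM p z G hgenG
  rw [hz₀] at hgenN
  obtain ⟨c, w, hc, hw, hcw⟩ := (s33d_kumGen_zero_iff (s19v_const M) hp.out.ne_zero hgenN).mp rfl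
  -- the two towers
  letI algF : Algebra (ffi_F M) (ffi_F (M * r)) := algebraAlong (heckeAlphaBar Kb M r)
  letI algFb : Algebra ↥(modularFunctionFieldFullC (IsLocalRing.ResidueField ↥P) M)
      ↥(modularFunctionFieldFullC (IsLocalRing.ResidueField ↥P) (M * r)) :=
    algebraAlong (m15r_inclC M (M * r) (IsLocalRing.ResidueField ↥P) (dvd_mul_right M r))
  obtain ⟨hfinF, hfinFb, hrank⟩ := m15r_finite_and_finrank_eq P hP M (M * r) hqMr
    (heckeAlphaBar Kb M r) (fun x => coe_heckeAlphaBar M r x) (dvd_mul_right M r)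
  haveI := hfinFb
  have hrk : Module.finrank ↥(modularFunctionFieldFullC (IsLocalRing.ResidueField ↥P) M)
      ↥(modularFunctionFieldFullC (IsLocalRing.ResidueField ↥P) (M * r)) = r + 1 := by
    rw [hrank]
    exact s37w_finrank_alpha M r hr hrM
  haveI : IsScalarTower (IsLocalRing.ResidueField ↥P)
      ↥(modularFunctionFieldFullC (IsLocalRing.ResidueField ↥P) M)
      ↥(modularFunctionFieldFullC (IsLocalRing.ResidueField ↥P) (M * r)) :=
    IsScalarTower.of_algebraMap_eq fun x =>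
      ((m15r_inclC M (M * r) (IsLocalRing.ResidueField ↥P) (dvd_mul_right M r)).commutes x).symm
  -- the Gauss lemma for norms
  obtain ⟨hz, hnorm⟩ := m15r_norm_redF P hP M (M * r) hqMr (heckeAlphaBar Kb M r)
    (fun x => coe_heckeAlphaBar M r x) (dvd_mul_right M r) ⟨G, hGO⟩
  obtain ⟨hz', -⟩ := m15r_norm_redF P hP M (M * r) hqMr (heckeAlphaBar Kb M r)
    (fun x => coe_heckeAlphaBar M r x) (dvd_mul_right M r) ⟨G⁻¹, hG'O⟩
  have hNA : s37e_normAlpha M r G = Algebra.norm (ffi_F M) G := rfl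
  have hz'' : (Algebra.norm (ffi_F M) G)⁻¹ ∈ s37r_OF P M hP := by
    have e1 : Algebra.norm (ffi_F M) G * Algebra.norm (ffi_F M) G⁻¹ = 1 := by
      rw [← map_mul, mul_inv_cancel₀ hG0, map_one]
    rw [← eq_inv_of_mul_eq_one_right e1]
    exact hz'
  have hone : (1 : ffi_F M) ∈ s37r_OF P M hP := one_mem _
  have hone' : (1 : ffi_F M)⁻¹ ∈ s37r_OF P M hP := by rw [inv_one]; exact one_mem _
  obtain ⟨cb', u, hu, hcb', hu0, hred⟩ := s59m_gauss_rel M P hP p 0 1 (Algebra.norm (ffi_F M) G)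
    one_ne_zero hone hone' hz hz'' c w hc hw (by rw [zpow_zero, mul_one, ← hNA]; exact hcw)
  rw [zpow_zero, mul_one] at hred
  -- the element `V`
  set V : ↥(modularFunctionFieldFullC (IsLocalRing.ResidueField ↥P) M) :=
    s37r_redF P M hP hqM ⟨u, hu⟩ with hV
  have hV0 : V ≠ 0 := by
    intro h0
    apply hu0
    have := congrArg Subtype.val h0
    rwa [hV, s37r_coe_redF] at this
  have h1 : ū = algebraMap (IsLocalRing.ResidueField ↥P)
      ↥(modularFunctionFieldFullC (IsLocalRing.ResidueField ↥P) (M * r)) cb *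
      algebraMap ↥(modularFunctionFieldFullC (IsLocalRing.ResidueField ↥P) M)
        ↥(modularFunctionFieldFullC (IsLocalRing.ResidueField ↥P) (M * r)) ūM * wA ^ p := by
    apply Subtype.ext
    rw [hū, hA]
    simp only [MulMemClass.coe_mul, SubmonoidClass.coe_pow, s59m_coe_algebraMap_fullC]
    congr 2
  have h2 : Algebra.norm ↥(modularFunctionFieldFullC (IsLocalRing.ResidueField ↥P) M)
      (algebraMap (IsLocalRing.ResidueField ↥P)
        ↥(modularFunctionFieldFullC (IsLocalRing.ResidueField ↥P) (M * r)) c₁ * ū * w₁ ^ p) =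
      algebraMap (IsLocalRing.ResidueField ↥P)
        ↥(modularFunctionFieldFullC (IsLocalRing.ResidueField ↥P) M) cb' * V ^ p := by
    rw [← hredG, ← hnorm]
    apply Subtype.ext
    rw [s37r_coe_redF, hred]
    simp only [MulMemClass.coe_mul, SubmonoidClass.coe_pow, s59m_coe_algebraMap_fullC, hV,
      s37r_coe_redF]
  exact s59nt_norm_power p (by rw [hrk]; exact hpr) ū wA w₁ ūM V cb c₁ cb' hcb hc₁ hcb' hūM hwA hw₁
    hV0 h1 h2

end CoreAux

end

end Fermat.Agent.Lib.S59
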