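/-
Programme (R2) / node [MP-two] (and [MP] at `q = 3` at ODD levels), the AUXILIARY LEVEL INSIDE THE GEOMETRY, part 3
(helper7, prefix `s59nt_`): **[B] = RED ON THE CHART `t₂` WITH AN AUXILIARY LEVEL `r`.**

`x = π^* x₀ ∈ J₀((M r) · 3)[p]`, `x₀ ∈ J₀(M · 3)[p]`, `2 ∣ M r`: an eigen-point of this form which is FINITE at `P` for the node
family `s33t_nodeN_t2` at the level `M r` either produces a non-zero eigen-point AT THE LEVEL `M` (not only `M r`) or is TORIC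
at the level `M r`.  Port of `NXRed.lean` (`s59nt_level_comp`, `s59nt_level_both_t2`, `s59nt_redT2`) with the refined core
`s59nt_core_aux` (`NYAux.lean`) in place of `s59nt_core`.
-/
import Fermat.Agent.Lib.S59.NYAux

set_option autoImplicit false
set_option linter.style.haveILetI false
set_option linter.unusedSectionVars false
set_option linter.unusedVariables false
set_option synthInstance.maxHeartbeats 400000

namespace Fermat.Agent.Lib.S59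

open ModularCurve HahnSeries AlgebraicCurve Fermat.Agent.Lib.FF Fermat.Agent.Lib.S18
  Fermat.Agent.Lib.S28 Fermat.Agent.Lib.S29 Fermat.Agent.Lib.S37 Fermat.Agent.Lib.S34
  Fermat.Agent.Lib.S33 Fermat.Agent.Lib.S44 Fermat.Agent.Lib.S19 Fermat.Agent.Lib.S17
  Fermat.Agent.Lib.S15 Fermat.Agent.Lib.S35 Fermat.Agent.Lib.S36

noncomputable section

local notation "Kb" => AlgebraicClosure ℚ

/-! ### One component over a finite level -/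

section Comp

variable (M r q : ℕ) [NeZero M] [NeZero r] [hq : Fact q.Prime] (hr : r.Prime) (hrM : ¬ r ∣ M)
  (hqMr : ¬ q ∣ M * r) (hgood : s18_GoodLevel q (M * r))
  (p : ℕ) [hp : Fact p.Prime] (hpq : p ≠ q) (hpr : Nat.Coprime p (r + 1))
  (P : ValuationSubring Kb) (hP : P.LiesOverPrime q)
  (a : ℕ → ℤ) (B : Finset ℕ) (hB : ∀ s : ℕ, s.Prime → s ∣ M * r * q * p → s ∈ B)
  (L₀ : IntermediateField ℚ Kb) [FiniteDimensional ℚ ↥L₀]
  [IsDiscreteValuationRing ↥(s18q_A0 P L₀)] (ϖ : ↥(s18q_A0 P L₀)) (hϖ : Irreducible ϖ)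

set_option maxHeartbeats 1600000 in
include hr hrM hqMr hgood hpq hpr hP hB in
/-- **one component**: a Gauss-unit Kummer generator `h` over `L₀` of an eigen-point `x` whose reduction has divisor
divisible by `p`: EITHER a non-zero eigen-point at level `(M * r)`, OR `red h = c · a₀ ^ p` over the residue field of `L₀`. -/
theorem s59nt_level_comp_aux (x₀ : JZero (M * q)) (hx₀ : p • x₀ = 0) (x : JZero ((M * r) * q))
    (hxx : x = s36p_pull (s36p_dvd_top M (M * r) q (dvd_mul_right M r)) x₀)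
    (hE : s44i_Eig ((M * r) * q) p a B x)
    (h : s34m_F ↥L₀ ((M * r) * q)) (hgen : s33d_IsKumGen p x (s18q_incl ((M * r) * q) L₀ h))
    (hI : h ∈ s34m_Vinf (s37r_G P L₀ ϖ hϖ) ((M * r) * q))
    (hI' : h⁻¹ ∈ s34m_Vinf (s37r_G P L₀ ϖ hϖ) ((M * r) * q))
    (ū₀ : ↥(modularFunctionFieldFullC (IsLocalRing.ResidueField ↥(s18q_A0 P L₀)) (M * r)))
    (hū₀ : (ū₀ : LaurentSeries (IsLocalRing.ResidueField ↥(s18q_A0 P L₀))) =
      s34m_redInf (s37r_G P L₀ ϖ hϖ) ((M * r) * q) ⟨h, hI⟩)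
    (hdiv : ∀ v₀ : Place (IsLocalRing.ResidueField ↥(s18q_A0 P L₀))
      ↥(modularFunctionFieldFullC (IsLocalRing.ResidueField ↥(s18q_A0 P L₀)) (M * r)),
      (p : ℤ) ∣ v₀.ord ū₀) :
    (∃ y : JZero M, y ≠ 0 ∧ s44i_Eig M p a B y) ∨
      ∃ (c : IsLocalRing.ResidueField ↥(s18q_A0 P L₀))
        (a₀ : LaurentSeries (IsLocalRing.ResidueField ↥(s18q_A0 P L₀))), c ≠ 0 ∧
        a₀ ∈ modularFunctionFieldFullC (IsLocalRing.ResidueField ↥(s18q_A0 P L₀)) (M * r) ∧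
        s34m_redInf (s37r_G P L₀ ϖ hϖ) ((M * r) * q) ⟨h, hI⟩ = HahnSeries.C c * a₀ ^ p := by
  classical
  subst hxx
  haveI : NeZero p := ⟨hp.out.ne_zero⟩
  letI alg : Algebra (IsLocalRing.ResidueField ↥(s18q_A0 P L₀)) (IsLocalRing.ResidueField ↥P) :=
    (s37r_resMap P L₀).toAlgebra
  haveI : Algebra.IsAlgebraic (IsLocalRing.ResidueField ↥(s18q_A0 P L₀))
      (IsLocalRing.ResidueField ↥P) := s33d_resMap_isAlgebraic P hP L₀
  haveI : IsGalois (IsLocalRing.ResidueField ↥(s18q_A0 P L₀)) (IsLocalRing.ResidueField ↥P) :=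
    s59m_isGalois_res P hP L₀
  have hh0 : h ≠ 0 := (s33d_kum_of_gen ((M * r) * q) p L₀ hgen).1
  have hred0 : s34m_redInf (s37r_G P L₀ ϖ hϖ) ((M * r) * q) ⟨h, hI⟩ ≠ 0 := by
    intro h0
    have h1 : (⟨h, hI⟩ : s34m_Vinf (s37r_G P L₀ ϖ hϖ) ((M * r) * q)) * ⟨h⁻¹, hI'⟩ = 1 :=
      Subtype.ext (mul_inv_cancel₀ hh0)
    have := congrArg (s34m_redInf (s37r_G P L₀ ϖ hϖ) ((M * r) * q)) h1
    rw [map_mul, h0, zero_mul, map_one] at this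
    exact zero_ne_one this
  have hū₀s : (ū₀ : LaurentSeries (IsLocalRing.ResidueField ↥(s18q_A0 P L₀))) ≠ 0 := by
    rw [hū₀]; exact hred0
  have hū₀0 : ū₀ ≠ 0 := fun h0 => hū₀s (by rw [h0]; rfl)
  have hH : s18q_incl ((M * r) * q) L₀ h ∈ s37r_OF P ((M * r) * q) hP :=
    (s37r_incl_mem_OF_iff P ((M * r) * q) hP L₀ ϖ hϖ h).mpr hI
  have hH' : (s18q_incl ((M * r) * q) L₀ h)⁻¹ ∈ s37r_OF P ((M * r) * q) hP := by
    rw [← map_inv₀]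
    exact (s37r_incl_mem_OF_iff P ((M * r) * q) hP L₀ ϖ hϖ h⁻¹).mpr hI'
  have e : s37r_redV P ((M * r) * q) hP ⟨s18q_incl ((M * r) * q) L₀ h, hH⟩ =
      coeffMap (s37r_resMap P L₀) (s34m_redInf (s37r_G P L₀ ϖ hϖ) ((M * r) * q) ⟨h, hI⟩) :=
    s37r_redV_incl P ((M * r) * q) hP L₀ ϖ hϖ h hI hH
  have hup : ((s59m_up (k := IsLocalRing.ResidueField ↥P) (M * r) ū₀ :
      ↥(modularFunctionFieldFullC (IsLocalRing.ResidueField ↥P) (M * r))) :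
        LaurentSeries (IsLocalRing.ResidueField ↥P)) =
      s37r_redV P ((M * r) * q) hP ⟨s18q_incl ((M * r) * q) L₀ h, hH⟩ := by
    rw [s59m_up_coe, hū₀, e]
    rfl
  have hdiv' : ∀ v : Place (IsLocalRing.ResidueField ↥P)
      ↥(modularFunctionFieldFullC (IsLocalRing.ResidueField ↥P) (M * r)),
      (p : ℤ) ∣ v.ord (s59m_up (k := IsLocalRing.ResidueField ↥P) (M * r) ū₀) :=
    fun v => s59m_dvd_ord_up (M * r) (p : ℤ) ū₀ hū₀0 hdiv v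
  rcases s59nt_core_aux M r q hr hrM hqMr hgood p hpq hpr P hP a B hB x₀ hx₀ hE
    (s18q_incl ((M * r) * q) L₀ h) hgen hH hH'
    (s59m_up (k := IsLocalRing.ResidueField ↥P) (M * r) ū₀) hup hdiv' with hy | ⟨c, w, hc, hw, hcw⟩
  · exact Or.inl hy
  · right
    obtain ⟨ζ₀, hζ₀⟩ := s37e_exists_zeta p
    haveI hchar : CharP (IsLocalRing.ResidueField ↥P) q := s18n_charP_residueField P hq.out hP
    have hpk : ((p : ℕ) : IsLocalRing.ResidueField ↥P) ≠ 0 := by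
      intro h0
      have := (CharP.cast_eq_zero_iff (IsLocalRing.ResidueField ↥P) q p).mp h0
      exact hpq ((Nat.prime_dvd_prime_iff_eq hq.out hp.out).mp this).symm
    have hζb := s59m_zetaBar_prim P (IsLocalRing.residue ↥P) p ζ₀ hp.out hpk hζ₀
    have hx : coeffMap (algebraMap (IsLocalRing.ResidueField ↥(s18q_A0 P L₀))
        (IsLocalRing.ResidueField ↥P))
        (ū₀ : LaurentSeries (IsLocalRing.ResidueField ↥(s18q_A0 P L₀))) =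
        HahnSeries.C c * (w : LaurentSeries (IsLocalRing.ResidueField ↥P)) ^ p := by
      have := congrArg (fun y : ↥(modularFunctionFieldFullC (IsLocalRing.ResidueField ↥P) (M * r)) =>
        (y : LaurentSeries (IsLocalRing.ResidueField ↥P))) hcw
      simp only [s59m_up_coe, MulMemClass.coe_mul, SubmonoidClass.coe_pow,
        s59m_coe_algebraMap_fullC] at this
      exact this
    obtain ⟨a₀, v₀, hv₀, ha₀, hv₀0, hx₀⟩ := s59m_descent (M * r) p _ hζb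
      (ū₀ : LaurentSeries (IsLocalRing.ResidueField ↥(s18q_A0 P L₀))) ū₀.2 hū₀s c
      (w : LaurentSeries (IsLocalRing.ResidueField ↥P)) w.2 hx
    exact ⟨a₀, v₀, ha₀, hv₀, by rw [← hū₀]; exact hx₀⟩

end Comp

/-! ### Both components over a finite level -/

section Both

variable (M r q : ℕ) [NeZero M] [NeZero r] [hq : Fact q.Prime] (hr : r.Prime) (hrM : ¬ r ∣ M)
  (hqMr : ¬ q ∣ M * r) (hq3 : q = 3) (h2M : 2 ∣ M * r)
  (p : ℕ) [hp : Fact p.Prime] (hpq : p ≠ q) (hpr : Nat.Coprime p (r + 1))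
  (P : ValuationSubring Kb) (hP : P.LiesOverPrime q)
  (a : ℕ → ℤ) (B : Finset ℕ) (hB : ∀ s : ℕ, s.Prime → s ∣ M * r * q * p → s ∈ B)
  (x₀ : JZero (M * q)) (hx₀ : p • x₀ = 0) (x : JZero ((M * r) * q))
  (hxx : x = s36p_pull (s36p_dvd_top M (M * r) q (dvd_mul_right M r)) x₀)
  (hE : s44i_Eig ((M * r) * q) p a B x)
  (L₀ : IntermediateField ℚ Kb) [FiniteDimensional ℚ ↥L₀] [Normal ℚ ↥L₀]
  [IsDiscreteValuationRing ↥(s18q_A0 P L₀)] (ϖ : ↥(s18q_A0 P L₀)) (hϖ : Irreducible ϖ)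
  (t : s34m_F ↥L₀ ((M * r) * q)) (ht : (t : LaurentSeries ↥L₀) = s18u_t2 ↥L₀)
  (h : s34m_F ↥L₀ ((M * r) * q)) (hgen : s33d_IsKumGen p x (s18q_incl ((M * r) * q) L₀ h))
  (hI : h ∈ s34m_Vinf (s37r_G P L₀ ϖ hϖ) ((M * r) * q))
  (hI' : h⁻¹ ∈ s34m_Vinf (s37r_G P L₀ ϖ hϖ) ((M * r) * q))
  (hZ : h ∈ s34m_Vzero (s37r_G P L₀ ϖ hϖ) (algebraMap ↥L₀ Kb) (M * r) q hq.out hqMr)
  (hZ' : h⁻¹ ∈ s34m_Vzero (s37r_G P L₀ ϖ hϖ) (algebraMap ↥L₀ Kb) (M * r) q hq.out hqMr)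
  (hnode : ∀ Q ∈ s33t_nodeN_t2 (M * r) q hqMr P L₀ ϖ hϖ, Q.ord h = 0)
  (hQ4₁ : s59n_Q4 (M * r) q p hqMr P L₀ ϖ hϖ (s18_chart1 (L₀ := ↥L₀) t) h)
  (hQ4₂ : s59n_Q4 (M * r) q p hqMr P L₀ ϖ hϖ (s18_chart2 (L₀ := ↥L₀) t) h)

set_option maxHeartbeats 1600000 in
include hr hrM hq3 h2M hpq hpr hP hB hx₀ hxx hE hgen hI hI' hZ hZ' hnode hQ4₁ hQ4₂ ht in
/-- **both components.** -/
theorem s59nt_level_both_t2_aux :
    (∃ y : JZero M, y ≠ 0 ∧ s44i_Eig M p a B y) ∨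
      ((∃ (c : IsLocalRing.ResidueField ↥(s18q_A0 P L₀))
        (a₀ : LaurentSeries (IsLocalRing.ResidueField ↥(s18q_A0 P L₀))), c ≠ 0 ∧
        a₀ ∈ modularFunctionFieldFullC (IsLocalRing.ResidueField ↥(s18q_A0 P L₀)) (M * r) ∧
        s34m_redInf (s37r_G P L₀ ϖ hϖ) ((M * r) * q) ⟨h, hI⟩ = HahnSeries.C c * a₀ ^ p) ∧
      (∃ (c : IsLocalRing.ResidueField ↥(s18q_A0 P L₀))
        (a₀ : LaurentSeries (IsLocalRing.ResidueField ↥(s18q_A0 P L₀))), c ≠ 0 ∧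
        a₀ ∈ modularFunctionFieldFullC (IsLocalRing.ResidueField ↥(s18q_A0 P L₀)) (M * r) ∧
        s34m_redZero (s37r_G P L₀ ϖ hϖ) (algebraMap ↥L₀ Kb) (M * r) q hq.out hqMr ⟨h, hZ⟩ =
          HahnSeries.C c * a₀ ^ p)) := by
  classical
  haveI : NeZero q := ⟨hq.out.ne_zero⟩
  haveI : NumberField ↥L₀ := ⟨⟩
  haveI hchar₀ : CharP (IsLocalRing.ResidueField ↥(s18q_A0 P L₀)) q := s37rl_charP P hP L₀
  haveI hperf₀ : PerfectField (IsLocalRing.ResidueField ↥(s18q_A0 P L₀)) :=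
    s37rl_perfectField P hP L₀
  haveI : PerfectRing (IsLocalRing.ResidueField ↥(s18q_A0 P L₀)) q := PerfectField.toPerfectRing q
  have hT : s18g_HT (IsLocalRing.ResidueField ↥(s18q_A0 P L₀)) (M * r) := s18t_indep_j q (M * r) hqMr _
  have hdegM : s18g_HDeg ↥L₀ (M * r) := fun n b hb hn =>
    s18g_exists_relation (M * r) (algebraMap ↥L₀ Kb) hn b hb
  have hdeg : s34m_HDeg ↥L₀ (M * r) q := s34r_deg_HDeg (algebraMap ↥L₀ Kb) (M * r) q hq.out hqMr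
  have hπ : Function.Surjective (s37r_G P L₀ ϖ hϖ).π := IsLocalRing.residue_surjective
  haveI : IsDiscreteValuationRing (s37r_G P L₀ ϖ hϖ).A := ‹_›
  have hh0 : h ≠ 0 := (s33d_kum_of_gen ((M * r) * q) p L₀ hgen).1
  have hgood : s18_GoodLevel q (M * r) := ⟨hqMr, Or.inr (Or.inl ⟨hq3, h2M⟩)⟩
  have hnode' : ∀ Q ∈ s33s_nodePlaces (s34m_VV (s37r_G P L₀ ϖ hϖ) (algebraMap ↥L₀ Kb) (M * r) q hq.out hqMr)
      (s34m_unif (s37r_G P L₀ ϖ hϖ) ((M * r) * q)) (s18_chart1 (L₀ := ↥L₀) t), Q.ord h = 0 := by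
    rw [← s33t_nodeN_t2_eq (M * r) q hqMr P L₀ ϖ hϖ t ht]
    exact hnode
  obtain ⟨hdivI, hdivZ⟩ := s59nt_div_p_t2 (M * r) q hqMr hq3 h2M ↥L₀ (algebraMap ↥L₀ Kb)
    (IsLocalRing.ResidueField ↥(s18q_A0 P L₀)) (s37r_G P L₀ ϖ hϖ) hdeg hT hdegM hπ p t ht h hh0 hI hI'
    hZ hZ' hnode' hQ4₁ hQ4₂
  by_cases hy : ∃ y : JZero M, y ≠ 0 ∧ s44i_Eig M p a B y
  · exact Or.inl hy
  · right
    constructor
    · rcases s59nt_level_comp_aux M r q hr hrM hqMr hgood p hpq hpr P hP a B hB L₀ ϖ hϖ x₀ hx₀ x hxx hE h hgen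
        hI hI'
        (s33y_redI (s37r_G P L₀ ϖ hϖ) (algebraMap ↥L₀ Kb) (M * r) q hqMr hdeg hT hdegM ⟨h, hI⟩) rfl
        hdivI with h1 | h1
      · exact absurd h1 hy
      · exact h1
    · have hI₂ : s34m_al (algebraMap ↥L₀ Kb) (M * r) q hq.out hqMr h ∈
          s34m_Vinf (s37r_G P L₀ ϖ hϖ) ((M * r) * q) :=
        (s34m_mem_Vzero (s37r_G P L₀ ϖ hϖ) (algebraMap ↥L₀ Kb) (M * r) q hq.out hqMr h).mp hZ
      have hI₂' : (s34m_al (algebraMap ↥L₀ Kb) (M * r) q hq.out hqMr h)⁻¹ ∈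
          s34m_Vinf (s37r_G P L₀ ϖ hϖ) ((M * r) * q) := by
        have := (s34m_mem_Vzero (s37r_G P L₀ ϖ hϖ) (algebraMap ↥L₀ Kb) (M * r) q hq.out hqMr h⁻¹).mp hZ'
        rwa [map_inv₀] at this
      have hqM : ¬ q ∣ M := fun h0 => hqMr (h0.mul_right r)
      have hx₀w : p • s59m_wq M q hq.out hqM x₀ = 0 := by rw [← map_nsmul, hx₀, map_zero]
      have hxxw : s59m_wq (M * r) q hq.out hqMr x =
          s36p_pull (s36p_dvd_top M (M * r) q (dvd_mul_right M r)) (s59m_wq M q hq.out hqM x₀) := by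
        rw [hxx]
        exact (s59b_pull_wq M (M * r) q (dvd_mul_right M r) hq.out hqM hqMr x₀).symm
      rcases s59nt_level_comp_aux M r q hr hrM hqMr hgood p hpq hpr P hP a B hB L₀ ϖ hϖ
        (s59m_wq M q hq.out hqM x₀) hx₀w
        (s59m_wq (M * r) q hq.out hqMr x) hxxw (s59m_eig_wq (M * r) q hqMr p a B hB x hE)
        (s34m_al (algebraMap ↥L₀ Kb) (M * r) q hq.out hqMr h) (s59m_kumGen_wq (M * r) q hqMr p L₀ x h hgen)
        hI₂ hI₂'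
        (s33y_redZ (s37r_G P L₀ ϖ hϖ) (algebraMap ↥L₀ Kb) (M * r) q hqMr hdeg hT hdegM ⟨h, hZ⟩) rfl
        hdivZ with h1 | h1
      · exact absurd h1 hy
      · exact h1

end Both

/-! ### The leaf -/

set_option maxHeartbeats 1600000 in
/-- **[B] = RED on the chart `t₂`.** -/
theorem s59nt_redT2_aux (p : ℕ) [hp : Fact p.Prime] (M r q : ℕ) [NeZero M] [NeZero r] [hq : Fact q.Prime]
    (hr : r.Prime) (hrM : ¬ r ∣ M) (hqMr : ¬ q ∣ M * r) (hq3 : q = 3) (h2M : 2 ∣ M * r) (hpq : p ≠ q)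
    (hpr : Nat.Coprime p (r + 1)) (P : ValuationSubring Kb) (hP : P.LiesOverPrime q)
    (a : ℕ → ℤ) (B : Finset ℕ) (hB : ∀ s : ℕ, s.Prime → s ∣ M * r * q * p → s ∈ B)
    (x₀ : JZero (M * q)) (hx₀ : p • x₀ = 0) (x : JZero (M * r * q))
    (hxx : x = s36p_pull (s36p_dvd_top M (M * r) q (dvd_mul_right M r)) x₀)
    (hE : s44i_Eig (M * r * q) p a B x)
    (hfin : s59n_FiniteN (M * r) q p hqMr P (s33t_nodeN_t2 (M * r) q hqMr P) x) :
    (∃ y : JZero M, y ≠ 0 ∧ s44i_Eig M p a B y) ∨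
      s59n_ToricN (M * r) q p hqMr P (s33t_nodeN_t2 (M * r) q hqMr P) x := by
  classical
  haveI : NeZero q := ⟨hq.out.ne_zero⟩
  haveI : NeZero p := ⟨hp.out.ne_zero⟩
  by_cases hy : ∃ y : JZero M, y ≠ 0 ∧ s44i_Eig M p a B y
  · exact Or.inl hy
  right
  obtain ⟨Lf, hLffd, hLf⟩ := hfin
  haveI := hLffd
  obtain ⟨La, hLfLa, hLafd, hLanorm⟩ := s33t_exists_normal_ge Lf
  haveI := hLafd
  haveI := hLanorm
  haveI hdvra : IsDiscreteValuationRing ↥(s18q_A0 P La) := s18q_A0_dvr P La hP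
  obtain ⟨ϖa, hϖa⟩ := IsDiscreteValuationRing.exists_irreducible ↥(s18q_A0 P La)
  obtain ⟨ha, hagen, -⟩ := hLf La ϖa hϖa hLfLa
  obtain ⟨ha0, hadiv⟩ := s33d_kum_of_gen ((M * r) * q) p La hagen
  obtain ⟨L₂, hL₂fd, hL₂⟩ := s59nt_Q4_big (M * r) q hq.out hqMr hq3 h2M p hp.out P hP La ha ha0 hadiv
  haveI := hL₂fd
  haveI hfdx : FiniteDimensional ℚ ↥(Lf ⊔ La ⊔ L₂) := inferInstance
  refine ⟨Lf ⊔ La ⊔ L₂, hfdx, ?_⟩
  intro L₀ _ _ _ ϖ hϖ hle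
  have hLfL₀ : Lf ≤ L₀ := le_trans (le_trans le_sup_left le_sup_left) hle
  have hLaL₀ : La ≤ L₀ := le_trans (le_trans le_sup_right le_sup_left) hle
  have hL₂L₀ : L₂ ≤ L₀ := le_trans le_sup_right hle
  obtain ⟨h, hgen, hI, hI', hZ, hZ', hnode⟩ := hLf L₀ ϖ hϖ hLfL₀
  -- (Q4) for `h`
  haveI : NumberField ↥L₀ := ⟨⟩
  haveI hcharL₀ : CharP (IsLocalRing.ResidueField ↥(s18q_A0 P L₀)) q := s37rl_charP P hP _
  haveI : IsDiscreteValuationRing ↥(s37r_G P L₀ ϖ hϖ).A :=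
    (inferInstance : IsDiscreteValuationRing ↥(s18q_A0 P L₀))
  have hq2 : q ≠ 2 := by omega
  obtain ⟨t, ht⟩ := s59nt_exists_t2 (s37r_G P L₀ ϖ hϖ) (algebraMap ↥L₀ Kb) (M * r) q hq.out hqMr h2M hq2
  obtain ⟨q1, q2⟩ := hL₂ L₀ hLaL₀ hL₂L₀ ϖ hϖ t ht
  set u := s44q_up ((M * r) * q) hLaL₀ ha with hu
  have hugen : s33d_IsKumGen p x (s18q_incl ((M * r) * q) L₀ u) := by
    rw [hu, s44q_incl_up]
    exact hagen
  have hu0 : u ≠ 0 := (s33d_kum_of_gen ((M * r) * q) p L₀ hugen).1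
  obtain ⟨c₀, g, hc₀, hg, e⟩ := s33d_kum0_of_same_class ((M * r) * q) p L₀ hugen hgen
  have hQ4₁ : s59n_Q4 (M * r) q p hqMr P L₀ ϖ hϖ
      (s18_chart1 (L₀ := ↥L₀) t) h := by
    intro 𝔫 h1 h2
    have := s44q_Q4_mul_pow _ _ 𝔫 p u hu0 c₀ hc₀ g hg (q1 𝔫 h1 h2)
    rwa [← e] at this
  have hQ4₂ : s59n_Q4 (M * r) q p hqMr P L₀ ϖ hϖ
      (s18_chart2 (L₀ := ↥L₀) t) h := by
    intro 𝔫 h1 h2
    have := s44q_Q4_mul_pow _ _ 𝔫 p u hu0 c₀ hc₀ g hg (q2 𝔫 h1 h2)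
    rwa [← e] at this
  rcases s59nt_level_both_t2_aux M r q hr hrM hqMr hq3 h2M p hpq hpr P hP a B hB x₀ hx₀ x hxx hE L₀ ϖ hϖ t ht h hgen hI hI' hZ hZ' hnode
    hQ4₁ hQ4₂ with h1 | ⟨h1, h2⟩
  · exact absurd h1 hy
  · exact ⟨h, hgen, hI, hZ, hI', hZ', hnode, h1, h2⟩

end

end Fermat.Agent.Lib.S59
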