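/-
Programme (R2) / node [MP-two] (and [MP] at `q = 3` at ODD levels), the AUXILIARY LEVEL INSIDE THE GEOMETRY, part 4
(helper7, prefix `s59nt_`): **[GEO] AT `(p, 3)` AT ODD LEVELS `M` (`2 ∤ M`, `3 ∤ M`), every prime `p ≥ 5`**, with the set `B` of
excluded primes containing the auxiliary prime `2`.

* `s59nt_GeoAtAux p M r q` : `s59m_GeoAt p M q` for the sets `B ⊇ {s ∣ M r q p}`;
* `s59nt_geo_three_odd`    : `s59nt_GeoAtAux p M 2 3` for `2 ∤ M`, `3 ∤ M`, `p ≥ 5`: `x' = π^* x ∈ J₀((M · 2) · 3)[p]`;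
  [A] = `s59nt_finT2` at the level `(M · 2, 3)`; [B] = `s59nt_redT2_aux` (left alternative AT THE LEVEL `M`); [C] =
  `s59n_toric_geo_t2` at the level `(M · 2, 3)`; descent of `σ x' = − 3 w₃ x'` along `π^*` by `s59b_frob_descend_wq`
  (`π_* π^* = 3` is prime to `p`).
-/
import Fermat.Agent.Lib.S59.NYRed
import Fermat.Agent.Lib.S59.NXFin

set_option autoImplicit false
set_option linter.style.haveILetI false
set_option linter.unusedSectionVars false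
set_option linter.unusedVariables false

namespace Fermat.Agent.Lib.S59

open ModularCurve AlgebraicCurve Fermat.Agent.Lib.FF Fermat.Agent.Lib.S18
  Fermat.Agent.Lib.S33 Fermat.Agent.Lib.S44 Fermat.Agent.Lib.S36

noncomputable section

local notation "Kb" => AlgebraicClosure ℚ
local notation "Γℚ" => (AlgebraicClosure ℚ ≃ₐ[ℚ] AlgebraicClosure ℚ)

/-- **[GEO] at `(M, q)` for the sets `B` containing the primes of the auxiliary level `r`.** -/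
def s59nt_GeoAtAux (p : ℕ) [Fact p.Prime] (M r q : ℕ) [NeZero M] [NeZero q] (hq : q.Prime)
    (hqM : ¬ q ∣ M) : Prop :=
  ∀ (W : WeierstrassCurve ℤ), W.Δ ≠ 0 →
  ∀ (B : Finset ℕ), (∀ s : ℕ, s.Prime → s ∣ M * r * q * p → s ∈ B) →
    (∃ ℓ₀ : Nat.Primes, (ℓ₀ : ℕ) ∉ B ∧ ¬ (p : ℤ) ∣ W.apOfModel ℓ₀ - ((ℓ₀ : ℕ) + 1)) →
  ∀ (A : ValuationSubring Kb), A.LiesOverPrime q → ∀ σ : Γℚ, A.IsFrobeniusAt σ q →
    (∀ τ ∈ A.inertiaSubgroupIn ℚ, τ ∈ s59m_H W p) →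
  ∀ x : JZero (M * q), s44i_Eig (M * q) p (fun ℓ => W.apOfModel ℓ) B x →
    (∀ h ∈ s59m_H W p, h • x = x) →
    (∃ y : JZero M, y ≠ 0 ∧ s44i_Eig M p (fun ℓ => W.apOfModel ℓ) B y) ∨
      σ • x = (-(q : ℤ)) • s59m_wq M q hq hqM x

set_option maxHeartbeats 1600000 in
/-- **[GEO] at `(p, 3)`, `2 ∤ M`**, every prime `p ≥ 5`, the auxiliary level `2` inside the geometry. -/
theorem s59nt_geo_three_odd (p : ℕ) [hp : Fact p.Prime] (hp5 : 5 ≤ p)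
    (M : ℕ) [NeZero M] (h3M : ¬ 3 ∣ M) (h2M : ¬ 2 ∣ M) :
    s59nt_GeoAtAux p M 2 3 Nat.prime_three h3M := by
  intro W hΔ B hB1 hne A hAq σ hσ hin x hE hfix
  obtain ⟨ℓ₀, hℓ₀B, hℓ₀⟩ := hne
  haveI : Fact (Nat.Prime 3) := ⟨Nat.prime_three⟩
  obtain ⟨L, hLfd, hLn, hL1, hL2⟩ := s59m_exists_LH W hΔ p
  haveI := hLfd
  haveI := hLn
  have hp3 : p ≠ 3 := by omega
  have h3M2 : ¬ 3 ∣ M * 2 := by
    intro h
    rcases (Nat.Prime.dvd_mul Nat.prime_three).mp h with h | h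
    · exact h3M h
    · omega
  have h2M3 : ¬ 2 ∣ M * 3 := by
    intro h
    rcases (Nat.Prime.dvd_mul Nat.prime_two).mp h with h | h
    · exact h2M h
    · omega
  have hcop : Nat.Coprime p (2 + 1) := by
    rw [Nat.coprime_primes hp.out Nat.prime_three]
    exact hp3
  have hE' : s44i_Eig (M * 2 * 3) p (fun ℓ => W.apOfModel ℓ) B
      (s36p_pull (s36p_dvd_top M (M * 2) 3 (dvd_mul_right M 2)) x) :=
    s59b_eig_pull _ p _ B B (Finset.Subset.refl B) hB1 x hE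
  have hℓ₀N : ¬ (ℓ₀ : ℕ) ∣ M * 2 * 3 := fun hd => hℓ₀B (hB1 ℓ₀ ℓ₀.2 (hd.mul_right p))
  have hfin : s59n_FiniteN (M * 2) 3 p h3M2 A (s33t_nodeN_t2 (M * 2) 3 h3M2 A)
      (s36p_pull (s36p_dvd_top M (M * 2) 3 (dvd_mul_right M 2)) x) :=
    s59nt_finT2 p hp5 (M * 2) 3 h3M2 rfl (dvd_mul_left 2 M) hp3 A hAq L
      (fun τ hτ a ha => hL2 τ (hin τ hτ) a ha) _ hE'.1
      (fun σ' hσ' => by rw [← s36p_pull_smul, hfix σ' (hL1 σ' hσ')])
      ⟨ℓ₀, W.apOfModel ℓ₀, hℓ₀N, hE'.2 ℓ₀ hℓ₀B, hℓ₀⟩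
  rcases s59nt_redT2_aux p M 2 3 Nat.prime_two h2M h3M2 rfl (dvd_mul_left 2 M) hp3 hcop A hAq _ B hB1
    x hE.1 _ rfl hE' hfin with h | h
  · exact Or.inl h
  · right
    have h1 := s59n_toric_geo_t2 (M * 2) 3 h3M2 rfl (dvd_mul_left 2 M) p hp3 A hAq h hσ
    exact s59b_frob_descend_wq M 2 3 Nat.prime_three Nat.prime_two h2M3 h3M h3M2 p hcop σ x hE.1 h1

end

end Fermat.Agent.Lib.S59
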