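/-
Programme (R2) / node [MP-two] (and [MP] at `q = 3` at ODD levels), the AUXILIARY LEVEL INSIDE THE GEOMETRY, part 5
(helper7, prefix `s59nt_`): **TOP WIRING WITH AN AUXILIARY PRIME `r` IN THE SET `B`.**

* `s59nt_MP_core_B`    : helper9's `s59m_MP_core` with [GEO] only for the GIVEN set `B` (same proof);
* `s59nt_occ_erase`    : [XQ] on `LevelOcc`: a good prime `s ∤ M p` of `W` can be erased from `B`;
* `s59nt_MP'_at_aux`   : [MP′] at the level `(M, q)` from `s59nt_GeoAtAux p M r q` (`B = {s ∣ M r q p Δ_W}`; the congruences at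
  `q` and at `r` are recovered by [XQ] when `W` is good there);
* `s59nt_MP_three_odd` : **[MP′] at `q = 3` at ODD squarefree levels, every prime `p ≥ 5`, general `W`.**
* `s59nt_MP_three_all` : [MP′] at `q = 3`, every squarefree level, every prime `p ≥ 5`.
-/
import Fermat.Agent.Lib.S59.NYGeo
import Fermat.Agent.Lib.S59.NXGeo3
import Fermat.Agent.Lib.S59.MTop

set_option autoImplicit false
set_option linter.style.haveILetI false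
set_option linter.unusedSectionVars false
set_option linter.unusedVariables false

namespace Fermat.Agent.Lib.S59

open ModularCurve AlgebraicCurve Fermat.Agent.Lib.FF Fermat.Agent.Lib.S28 Fermat.Agent.Lib.S29
  Fermat.Agent.Lib.S30 Fermat.Agent.Lib.S37 Fermat.Agent.Lib.S35 Fermat.Agent.Lib.S33
  Fermat.Agent.Lib.S44 Fermat.Agent.Lib.S58 WeierstrassCurve

noncomputable section

local notation "Kb" => AlgebraicClosure ℚ
local notation "Γℚ" => (AlgebraicClosure ℚ ≃ₐ[ℚ] AlgebraicClosure ℚ)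

/-- **[MP′] at the level `(M, q)`, CORE FORM, [GEO] for the given set `B` only.** -/
theorem s59nt_MP_core_B (hOld : s59m_Old) {p : ℕ} [hpF : Fact p.Prime] (hp2 : p ≠ 2)
    (W : WeierstrassCurve ℤ) (hΔ : W.Δ ≠ 0)
    (hirrU : ∀ U : AddSubgroup (s58_Pt W), U ≤ (s44s_Wp W p).toAddSubgroup →
      (∀ g : Γℚ, ∀ v ∈ U, g • v ∈ U) → U = ⊥ ∨ U = (s44s_Wp W p).toAddSubgroup)
    (M q : ℕ) [NeZero M] [NeZero q] (hq : q.Prime) (hqM : ¬ q ∣ M) (hqp : q ≠ p)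
    (B : Finset ℕ) (hB1 : ∀ r : ℕ, r.Prime → r ∣ M * q * p → r ∈ B)
    (hΔB : ∀ r : ℕ, r.Prime → (r : ℤ) ∣ W.Δ → r ∈ B)
    (hGeoB : ∀ (A : ValuationSubring Kb), A.LiesOverPrime q → ∀ σ : Γℚ, A.IsFrobeniusAt σ q →
      ∀ x : JZero (M * q), s44i_Eig (M * q) p (fun ℓ => W.apOfModel ℓ) B x →
      (∀ h ∈ s59m_H W p, h • x = x) →
      (∃ y : JZero M, y ≠ 0 ∧ s44i_Eig M p (fun ℓ => W.apOfModel ℓ) B y) ∨
        σ • x = (-(q : ℤ)) • s59m_wq M q hq hqM x)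
    (hres : s44i_LevelOcc (M * q) p (fun ℓ => W.apOfModel ℓ) B) :
    s44i_LevelOcc M p (fun ℓ => W.apOfModel ℓ) B ∨ (p ∣ q - 1 ∧ s59_FrobScalar W p q) := by
  classical
  have hp : p.Prime := hpF.out
  set a : ℕ → ℤ := fun ℓ => W.apOfModel ℓ with ha
  have hpB : p ∈ B := hB1 p hp (Dvd.intro_left _ rfl)
  have hNB : ∀ r : ℕ, r.Prime → r ∣ M * q → r ∈ B := fun r hr hd => hB1 r hr (hd.mul_right _)
  have hMB : ∀ r : ℕ, r.Prime → r ∣ M → r ∈ B := fun r hr hd => hNB r hr (hd.mul_right _)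
  have hB'1 : ∀ r : ℕ, r.Prime → r ∣ M * p → r ∈ B := by
    intro r hr hd
    rcases (Nat.Prime.dvd_mul hr).mp hd with h | h
    · exact hMB r hr h
    · rw [(Nat.prime_dvd_prime_iff_eq hr hp).mp h]
      exact hpB
  by_cases hlev : s44i_LevelOcc M p a B
  · exact Or.inl hlev
  right
  have KC : ∀ y : JZero M, y ≠ 0 → s44i_Eig M p a B y → False := fun y hy0 hy =>
    hlev (hOld M p hp hp2 a B hB'1 y hy0 hy)
  -- [M1]
  obtain ⟨f, 𝔪, hf, hmax, hpm, hcong⟩ := hres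
  obtain ⟨x₀, hx₀, hE₀⟩ := s44s_eigExists (M * q) f hf p hp 𝔪 hmax hpm a B hB1 hcong
  -- a non-zero `w_q`-eigenspace of `Y^H`
  have hYH := s59m_YH_ne W hΔ p (M * q) B hp2 hpB hNB hΔB ⟨x₀, hx₀, hE₀⟩
  obtain ⟨ε, hε, hZne⟩ := s59m_exists_eps W p M q hq hqM B hB1 hYH
  set Z := s59m_Zeps W p M q hq hqM B ε with hZdef
  have hZ : s33r_Stable (M * q) p B Z := s59m_Zeps_stable W p M q hq hqM B hB1 ε
  have hZeig : ∀ ℓ : Nat.Primes, (ℓ : ℕ) ∉ B → ∀ y ∈ Z,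
      heckeOperatorBar (M * q) ℓ y = W.apOfModel ℓ • y :=
    fun ℓ hℓ y hy => hy.1.1.2 ℓ hℓ
  -- the conclusion for every Frobenius element at `q`
  have main : ∀ (A : ValuationSubring Kb), A.LiesOverPrime q → ∀ σ : Γℚ, A.IsFrobeniusAt σ q →
      p ∣ q - 1 ∧ ∃ c : ℕ, ∀ Q : s58_Pt W, p • Q = 0 → σ • Q = c • Q := by
    intro A hA σ hσ
    refine s59m_soft_core W hΔ M q hq hqM hp2 hirrU hqp hpB hNB hΔB hZ hZeig hZne ε hε
      (fun z hz => hz.2) A hA σ hσ (fun z hz => ?_)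
    have hE : s44i_Eig (M * q) p a B z := hz.1.1
    rcases hGeoB A hA σ hσ z hE hz.1.2 with ⟨y, hy0, hy⟩ | h
    · exact absurd hy (fun hy => KC y hy0 hy)
    · exact h
  obtain ⟨A, σ, hA, hσ⟩ := Fermat.Agent.Lib.Frobenius.exists_isFrobeniusAt q hq
  exact ⟨(main A hA σ hσ).1, fun A hA σ hσ => (main A hA σ hσ).2⟩

/-- **[XQ] on `LevelOcc`**: a good prime `s ∤ M p` of `W` can be erased from `B`. -/
theorem s59nt_occ_erase (hOld : s59m_Old) {p : ℕ} [hpF : Fact p.Prime] (hp2 : p ≠ 2)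
    (W : WeierstrassCurve ℤ) (hΔ : W.Δ ≠ 0) (M : ℕ) [NeZero M] (B : Finset ℕ) (hpB : p ∈ B)
    (hMB : ∀ r : ℕ, r.Prime → r ∣ M → r ∈ B)
    (hΔB : ∀ r : ℕ, r.Prime → (r : ℤ) ∣ W.Δ → r ∈ B)
    (s : ℕ) (hs : s.Prime) (hsM : ¬ s ∣ M) (hsp : s ≠ p) (hgood : W.IsGoodPrimeFor s)
    (hocc : s44i_LevelOcc M p (fun ℓ => W.apOfModel ℓ) B) :
    s44i_LevelOcc M p (fun ℓ => W.apOfModel ℓ) (B.erase s) := by
  have hp : p.Prime := hpF.out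
  obtain ⟨g, 𝔪', hg, hmax', hpm', hc⟩ := hocc
  obtain ⟨y, hy0, hy⟩ := s44s_eigExists M g hg p hp 𝔪' hmax' hpm' (fun ℓ => W.apOfModel ℓ) B
    (fun r hr hd => by
      rcases (Nat.Prime.dvd_mul hr).mp hd with h | h
      · exact hMB r hr h
      · rw [(Nat.prime_dvd_prime_iff_eq hr hp).mp h]
        exact hpB) hc
  have hB'1 : ∀ r : ℕ, r.Prime → r ∣ M * p → r ∈ B.erase s := by
    intro r hr hd
    refine Finset.mem_erase.mpr ⟨?_, ?_⟩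
    · rintro rfl
      rcases (Nat.Prime.dvd_mul hr).mp hd with h | h
      · exact hsM h
      · exact hsp ((Nat.prime_dvd_prime_iff_eq hr hp).mp h)
    · rcases (Nat.Prime.dvd_mul hr).mp hd with h | h
      · exact hMB r hr h
      · rw [(Nat.prime_dvd_prime_iff_eq hr hp).mp h]
        exact hpB
  exact hOld M p hp hp2 _ (B.erase s) hB'1 y hy0
    (s59m_shrink W hΔ hp2 hpB hMB hΔB s hs hsM hsp hgood y hy)

/-- **[MP′] at the level `(M, q)`** from [M2′], a non-Eisenstein prime and [GEO] at `(M, q)` for the sets `B` containing an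
auxiliary prime `r ∤ M q p`. -/
theorem s59nt_MP'_at_aux (hOld : s59m_Old) (hNE : s59m_NonEis) {p : ℕ} [hpF : Fact p.Prime]
    (hp2 : p ≠ 2) (W : WeierstrassCurve ℤ) (hΔ : W.Δ ≠ 0) (hirr : W.ModRepIsIrreducible p)
    (M r q : ℕ) [NeZero M] [NeZero q] (hr : r.Prime) (hrM : ¬ r ∣ M) (hrp : r ≠ p)
    (hq : q.Prime) (hqM : ¬ q ∣ M) (hqp : q ≠ p)
    (hunr : s59_Unr W p q) (hGeo : s59nt_GeoAtAux p M r q hq hqM)
    (hres : W.IsResiduallyModularOfLevel p (M * q)) :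
    W.IsResiduallyModularOfLevel p M ∨ (p ∣ q - 1 ∧ s59_FrobScalar W p q) := by
  classical
  have hp : p.Prime := hpF.out
  have hM0 : M ≠ 0 := NeZero.ne M
  set a : ℕ → ℤ := fun ℓ => W.apOfModel ℓ with ha
  have hprod : M * r * q * p * W.Δ.natAbs ≠ 0 :=
    Nat.mul_ne_zero (Nat.mul_ne_zero (Nat.mul_ne_zero (Nat.mul_ne_zero hM0 hr.ne_zero) hq.ne_zero)
      hp.ne_zero) (Int.natAbs_ne_zero.mpr hΔ)
  set B : Finset ℕ := (M * r * q * p * W.Δ.natAbs).primeFactors with hB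
  have hB1' : ∀ s : ℕ, s.Prime → s ∣ M * r * q * p → s ∈ B := fun s hs hd =>
    Nat.mem_primeFactors.mpr ⟨hs, hd.mul_right _, hprod⟩
  have hB1 : ∀ s : ℕ, s.Prime → s ∣ M * q * p → s ∈ B := fun s hs hd =>
    hB1' s hs (hd.trans ⟨r, by ring⟩)
  have hpB : p ∈ B := hB1 p hp (Dvd.intro_left _ rfl)
  have hNB : ∀ s : ℕ, s.Prime → s ∣ M * q → s ∈ B := fun s hs hd => hB1 s hs (hd.mul_right _)
  have hMB : ∀ s : ℕ, s.Prime → s ∣ M → s ∈ B := fun s hs hd => hNB s hs (hd.mul_right _)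
  have hΔB : ∀ s : ℕ, s.Prime → (s : ℤ) ∣ W.Δ → s ∈ B := fun s hs hd =>
    Nat.mem_primeFactors.mpr ⟨hs, (Int.natCast_dvd.mp hd).mul_left _, hprod⟩
  have hBmem : ∀ ℓ : ℕ, ℓ ∈ B → ℓ ∣ M ∨ ℓ = r ∨ ℓ = q ∨ ℓ = p ∨ (ℓ : ℤ) ∣ W.Δ := by
    intro ℓ hmem
    have hℓ := (Nat.mem_primeFactors.mp hmem).1
    have hd := (Nat.mem_primeFactors.mp hmem).2.1
    rcases (Nat.Prime.dvd_mul hℓ).mp hd with h | h
    · rcases (Nat.Prime.dvd_mul hℓ).mp h with h | h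
      · rcases (Nat.Prime.dvd_mul hℓ).mp h with h | h
        · rcases (Nat.Prime.dvd_mul hℓ).mp h with h | h
          · exact Or.inl h
          · exact Or.inr (Or.inl ((Nat.prime_dvd_prime_iff_eq hℓ hr).mp h))
        · exact Or.inr (Or.inr (Or.inl ((Nat.prime_dvd_prime_iff_eq hℓ hq).mp h)))
      · exact Or.inr (Or.inr (Or.inr (Or.inl ((Nat.prime_dvd_prime_iff_eq hℓ hp).mp h))))
    · exact Or.inr (Or.inr (Or.inr (Or.inr (Int.natCast_dvd.mpr h))))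
  have hBout : ∀ ℓ : ℕ, ℓ.Prime → ℓ ∉ B →
      W.IsGoodPrimeFor ℓ ∧ ¬ ℓ ∣ M * q ∧ ℓ ≠ p := by
    intro ℓ hℓ hℓB
    refine ⟨fun hbad => hℓB (hΔB ℓ hℓ hbad), fun hd => hℓB (hNB ℓ hℓ hd), ?_⟩
    rintro rfl
    exact hℓB hpB
  -- a non-Eisenstein prime outside `B`
  obtain ⟨ℓ₁, hℓ₁, hℓ₁B, -, hℓ₁E⟩ := hNE hΔ hp2 hirr B
  have hne : ∃ ℓ₀ : Nat.Primes, (ℓ₀ : ℕ) ∉ B ∧
      ¬ (p : ℤ) ∣ W.apOfModel ℓ₀ - ((ℓ₀ : ℕ) + 1) := ⟨⟨ℓ₁, hℓ₁⟩, hℓ₁B, hℓ₁E⟩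
  obtain ⟨f, 𝔪, hf, hmax, hpm, hcong⟩ := hres
  have hocc : s44i_LevelOcc (M * q) p a B :=
    ⟨f, 𝔪, hf, hmax, hpm, fun ℓ hℓ hℓB =>
      hcong ℓ hℓ (hBout ℓ hℓ hℓB).1 (hBout ℓ hℓ hℓB).2.1 (hBout ℓ hℓ hℓB).2.2⟩
  rcases s59nt_MP_core_B hOld hp2 W hΔ (s59m_irr_Wp W hirr) M q hq hqM hqp B hB1 hΔB
    (fun A hA σ hσ x hE hfix => hGeo W hΔ B hB1' hne A hA σ hσ
      (fun τ hτ => s59m_inertia_mem_H' W p q hq hqp hunr A hA τ hτ) x hE hfix) hocc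
    with hM | h
  swap
  · exact Or.inr h
  left
  -- erase `q` (if `W` is good at `q`)
  obtain ⟨B₁, hB₁sub, hpB₁, hMB₁, hΔB₁, hqB₁, hocc₁⟩ : ∃ B₁ : Finset ℕ, B₁ ⊆ B ∧ p ∈ B₁ ∧
      (∀ s : ℕ, s.Prime → s ∣ M → s ∈ B₁) ∧ (∀ s : ℕ, s.Prime → (s : ℤ) ∣ W.Δ → s ∈ B₁) ∧
      (W.IsGoodPrimeFor q → q ∉ B₁) ∧ s44i_LevelOcc M p a B₁ := by
    by_cases hgood : W.IsGoodPrimeFor q
    · refine ⟨B.erase q, Finset.erase_subset _ _, Finset.mem_erase.mpr ⟨hqp.symm, hpB⟩,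
        fun s hs hd => Finset.mem_erase.mpr ⟨?_, hMB s hs hd⟩,
        fun s hs hd => Finset.mem_erase.mpr ⟨?_, hΔB s hs hd⟩,
        fun _ => Finset.notMem_erase q B,
        s59nt_occ_erase hOld hp2 W hΔ M B hpB hMB hΔB q hq hqM hqp hgood hM⟩
      · rintro rfl
        exact hqM hd
      · rintro rfl
        exact hgood hd
    · exact ⟨B, Finset.Subset.refl B, hpB, hMB, hΔB, fun h => absurd h hgood, hM⟩
  -- erase `r` (if `W` is good at `r`)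
  obtain ⟨B₂, hB₂sub, hrB₂, hocc₂⟩ : ∃ B₂ : Finset ℕ, B₂ ⊆ B₁ ∧
      (W.IsGoodPrimeFor r → r ∉ B₂) ∧ s44i_LevelOcc M p a B₂ := by
    by_cases hgood : W.IsGoodPrimeFor r
    · exact ⟨B₁.erase r, Finset.erase_subset _ _, fun _ => Finset.notMem_erase r B₁,
        s59nt_occ_erase hOld hp2 W hΔ M B₁ hpB₁ hMB₁ hΔB₁ r hr hrM hrp hgood hocc₁⟩
    · exact ⟨B₁, Finset.Subset.refl B₁, fun h => absurd h hgood, hocc₁⟩
  obtain ⟨g, 𝔪', hg, hmax', hpm', hc⟩ := hocc₂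
  refine ⟨g, 𝔪', hg, hmax', hpm', fun ℓ hℓ hgoodℓ hℓM hℓp => hc ℓ hℓ fun hmem => ?_⟩
  have hmem₁ : ℓ ∈ B₁ := hB₂sub hmem
  rcases hBmem ℓ (hB₁sub hmem₁) with h | h | h | h | h
  · exact hℓM h
  · subst h
    exact hrB₂ hgoodℓ hmem
  · subst h
    exact hqB₁ hgoodℓ hmem₁
  · exact hℓp h
  · exact hgoodℓ h

/-- **[MP′] at `q = 3`, ODD squarefree level, every prime `p ≥ 5`**: general `W`, no hypothesis on the reduction of `W` at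
`3` (or at `2`). -/
theorem s59nt_MP_three_odd (p : ℕ) (hp : p.Prime) (hp5 : 5 ≤ p) (W : WeierstrassCurve ℤ) (hΔ : W.Δ ≠ 0)
    (hirr : W.ModRepIsIrreducible p) (M₀ : ℕ) (hM₀ : Squarefree M₀) (h2M₀ : ¬ 2 ∣ M₀) (h3M₀ : 3 ∣ M₀)
    (hunr : s59_Unr W p 3) (hres : W.IsResiduallyModularOfLevel p M₀) :
    W.IsResiduallyModularOfLevel p (M₀ / 3) := by
  haveI : Fact p.Prime := ⟨hp⟩
  obtain ⟨M, rfl⟩ : ∃ M, M₀ = M * 3 := ⟨M₀ / 3, (Nat.div_mul_cancel h3M₀).symm⟩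
  rw [Nat.mul_div_cancel _ (by norm_num : 0 < 3)]
  have hM0 : M ≠ 0 := by
    rintro rfl
    rw [zero_mul] at hM₀
    exact not_squarefree_zero hM₀
  haveI : NeZero M := ⟨hM0⟩
  have h3M : ¬ 3 ∣ M := by
    rintro ⟨k, rfl⟩
    have h1 : 3 * 3 ∣ 3 * k * 3 := ⟨k, by ring⟩
    exact absurd (Nat.isUnit_iff.mp (hM₀ 3 h1)) (by norm_num)
  have h2M : ¬ 2 ∣ M := fun h => h2M₀ (h.mul_right 3)
  have hp2 : p ≠ 2 := by omega
  have hqp : 3 ≠ p := by omega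
  rcases s59nt_MP'_at_aux s59m_old s59m_nonEis hp2 W hΔ hirr M 2 3 Nat.prime_two h2M (Ne.symm hp2)
    Nat.prime_three h3M hqp hunr (s59nt_geo_three_odd p hp5 M h3M h2M) hres with h | h
  · exact h
  · exfalso
    have := Nat.le_of_dvd (by norm_num) h.1
    omega

/-- **[MP′] at `q = 3`, EVERY squarefree level, every prime `p ≥ 5`.** -/
theorem s59nt_MP_three_all (p : ℕ) (hp : p.Prime) (hp5 : 5 ≤ p) (W : WeierstrassCurve ℤ) (hΔ : W.Δ ≠ 0)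
    (hirr : W.ModRepIsIrreducible p) (M₀ : ℕ) (hM₀ : Squarefree M₀) (h3M₀ : 3 ∣ M₀)
    (hunr : s59_Unr W p 3) (hres : W.IsResiduallyModularOfLevel p M₀) :
    W.IsResiduallyModularOfLevel p (M₀ / 3) := by
  by_cases h2 : 2 ∣ M₀
  · exact s59nt_MP_three_even p hp hp5 W hΔ hirr M₀ hM₀ h2 h3M₀ hunr hres
  · exact s59nt_MP_three_odd p hp hp5 W hΔ hirr M₀ hM₀ h2 h3M₀ hunr hres

end

end Fermat.Agent.Lib.S59
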