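/-
Programme (R2) / node [MP-three], leaf [A] = FIN (helper7, prefix `s59nt_`):
**[A] ON THE CHART `t₃`: `s59n_FinT3 p` FOR EVERY PRIME `p ≥ 5`** (level `M * 3`, `3 ∣ M`, `P ∣ 3`): `L / ℚ` finite normal
UNRAMIFIED at `P`, `x ∈ J₀(M · 3)[p]` rational over `L`, `T_ℓ₀ x = a₀ x` with `p ∤ a₀ - (ℓ₀ + 1)` ⇒ `x` is FINITE at `P` for the node
family `s33t_nodeN_t3`.

Port of `s59n_fin` (`NStar.lean`): [Q-DIV] `s44e_qdiv`, the rationality wall on the `t₃`-charts `s59nt_Q4_Z_q2` (`NXQ4.lean`), the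
inertia field `Z`, `e(Z) = e(L) = 1`, the tame (★) on the `t₃`-chart `s59nt_star_tame_t3_inst` (`NXStarT3.lean`), base change
`Z → L₀` (`s59nt_finite_up_glob_t3`, `NXBase.lean`).
-/
import Fermat.Agent.Lib.S59.NXStarT2
import Fermat.Agent.Lib.S59.NZStarT3
import Fermat.Agent.Lib.S59.NXQ4
import Fermat.Agent.Lib.S59.NZQ4
import Fermat.Agent.Lib.S59.NXBase
import Fermat.Agent.Lib.S59.NZBase
import Fermat.Agent.Lib.S59.NMPGraph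
import Fermat.Agent.Lib.S59.NZDefs
import Fermat.Agent.Lib.S59.NZBridge
import Fermat.Agent.Lib.S59.NZDatum
import Fermat.Agent.Lib.S59.NZPack

set_option autoImplicit false
set_option linter.style.haveILetI false
set_option linter.unusedSectionVars false
set_option synthInstance.maxHeartbeats 400000

noncomputable section

namespace Fermat.Agent.Lib.S59

open ModularCurve HahnSeries AlgebraicCurve Fermat.Agent.Lib.S18 Fermat.Agent.Lib.S28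
  Fermat.Agent.Lib.S29 Fermat.Agent.Lib.S37 Fermat.Agent.Lib.FF Fermat.Agent.Lib.S34
  Fermat.Agent.Lib.S35 Fermat.Agent.Lib.S33 Fermat.Agent.Lib.Frey Fermat.Agent.Lib.S44

local notation "Kb" => AlgebraicClosure ℚ
local notation "Γℚ" => (AlgebraicClosure ℚ ≃ₐ[ℚ] AlgebraicClosure ℚ)

set_option maxHeartbeats 4000000 in
/-- **[A] on the chart `t₃`**, every exponent `p ≥ 5`. -/
theorem s59nt_finT3 (p : ℕ) [hp : Fact p.Prime] (hp5 : 5 ≤ p) : s59n_FinT3 p := by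
  intro M q _ hq hqM hq2 h3M hpq P hP L _ _ hunr x hpx hfix ⟨ℓ₀, a₀, hℓ₀, hTx, ha₀⟩
  classical
  haveI : NeZero p := ⟨hp.out.ne_zero⟩
  haveI : NeZero q := ⟨hq.out.ne_zero⟩
  have hq3 : q ≠ 3 := by omega
  have hℓq : (ℓ₀ : ℕ) ≠ q := by
    rintro h
    exact hℓ₀ (h ▸ Dvd.intro_left M rfl)
  -- the level `L`
  haveI hdvrL : IsDiscreteValuationRing ↥(s18q_A0 P L) := s18q_A0_dvr P L hP
  obtain ⟨ϖL, hϖL⟩ := IsDiscreteValuationRing.exists_irreducible ↥(s18q_A0 P L)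
  obtain ⟨e, ε, he, hε, hεinv, hε0, hqe⟩ := s33t_exists_e P L hq.out hP ϖL hϖL
  -- `p ∤ 12 e`
  have hpe : ¬ p ∣ e := s59n_not_dvd_of_unram q p P hP L ϖL hϖL e ε hε hεinv hqe hunr
  have hp12 : ¬ p ∣ 12 * e := by
    intro hd
    rcases (Nat.Prime.dvd_mul hp.out).mp hd with h12 | h
    · have hle : p ≤ 12 := Nat.le_of_dvd (by norm_num) h12
      have hpp := hp.out
      interval_cases p <;> first | omega | (norm_num at hpp)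
    · exact hpe h
  -- [Q-DIV]
  obtain ⟨fL, hfL⟩ := s44e_qdiv (M * q) p L x hpx hfix
  obtain ⟨hfL0, hdivL⟩ := s33d_kum_of_gen (M * q) p L hfL
  -- [RAT]
  obtain ⟨L₂, hL₂fd, hQ4⟩ := s59nt_Q4_Z_q2 M q hq.out hqM hq2 h3M p hp.out P hP L fL hfL0 hdivL
  -- roots of unity
  haveI : NeZero (ℓ₀ : ℕ) := ⟨ℓ₀.2.ne_zero⟩
  obtain ⟨ζℓ, hζℓ⟩ := HasEnoughRootsOfUnity.exists_primitiveRoot Kb (ℓ₀ : ℕ)
  haveI := hL₂fd
  haveI : FiniteDimensional ℚ ↥(IntermediateField.adjoin ℚ {ζℓ}) :=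
    IntermediateField.adjoin.finiteDimensional ((hζℓ.isIntegral ℓ₀.2.pos).tower_top (A := ℚ))
  haveI : FiniteDimensional ℚ ↥(L ⊔ L₂) := IntermediateField.finiteDimensional_sup _ _
  haveI : FiniteDimensional ℚ ↥(L ⊔ L₂ ⊔ IntermediateField.adjoin ℚ {ζℓ}) :=
    IntermediateField.finiteDimensional_sup _ _
  refine ⟨L ⊔ L₂ ⊔ IntermediateField.adjoin ℚ {ζℓ}, inferInstance, ?_⟩
  intro L₀ _ _ _ ϖ hϖ hLx
  have hLL : L ≤ L₀ := (le_sup_left.trans le_sup_left).trans hLx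
  have hL₂L₀ : L₂ ≤ L₀ := (le_sup_right.trans le_sup_left).trans hLx
  have hζℓL₀ : ζℓ ∈ L₀ :=
    hLx (le_sup_right (a := L ⊔ L₂) (IntermediateField.subset_adjoin ℚ {ζℓ} (Set.mem_singleton ζℓ)))
  -- the inertia field `Z`
  haveI hZfd : FiniteDimensional ℚ ↥(s44s_Z P L L₀) := s44s_Z_finiteDimensional P L L₀
  haveI hdvrZ : IsDiscreteValuationRing ↥(s18q_A0 P (s44s_Z P L L₀)) := s18q_A0_dvr P _ hP
  have hLZ : L ≤ s44s_Z P L L₀ := s44s_le_Z hLL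
  have hZL₀ : s44s_Z P L L₀ ≤ L₀ := s44s_Z_le P L L₀
  -- the uniformiser, `e`, `ε` over `Z`
  have hϖLP : (((ϖL : ↥(s18q_A0 P L)) : ↥L) : Kb) ∈ P := ϖL.2
  set ϖZ : ↥(s18q_A0 P (s44s_Z P L L₀)) :=
    ⟨⟨(((ϖL : ↥(s18q_A0 P L)) : ↥L) : Kb), hLZ (ϖL : ↥L).2⟩, hϖLP⟩ with hϖZdef
  have hϖZ : Irreducible ϖZ := s44s_irreducible_Z q hq.out P hP L L₀ hLL ϖL hϖL ϖZ rfl
  set εZ : ↥(s44s_Z P L L₀) := ⟨(ε : Kb), hLZ ε.2⟩ with hεZdef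
  have hεZ : εZ ∈ s18q_A0 P (s44s_Z P L L₀) := hε
  have hεZinv : εZ⁻¹ ∈ s18q_A0 P (s44s_Z P L L₀) := by
    have h1 : ((ε⁻¹ : ↥L) : Kb) ∈ P := hεinv
    show ((εZ⁻¹ : ↥(s44s_Z P L L₀)) : Kb) ∈ P
    simpa using h1
  have hεZ0 : εZ ≠ 0 := by
    intro h0
    apply hε0
    have := congrArg (fun z : ↥(s44s_Z P L L₀) => (z : Kb)) h0
    exact Subtype.ext this
  have hqeZ : (q : ↥(s44s_Z P L L₀)) =
      εZ * ((ϖZ : ↥(s18q_A0 P (s44s_Z P L L₀))) : ↥(s44s_Z P L L₀)) ^ e := by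
    apply Subtype.ext
    have := congrArg (fun z : ↥L => (z : Kb)) hqe
    simpa using this
  -- the function over `Z`
  set f : s34m_F ↥(s44s_Z P L L₀) (M * q) := s44e_up hLZ (M * q) fL with hfdef
  have hf : s33d_IsKumGen p x (s18q_incl (M * q) (s44s_Z P L L₀) f) := by
    rw [hfdef, s44e_incl_up]
    exact hfL
  -- the function `t₃` over `Z`
  haveI : NumberField ↥(s44s_Z P L L₀) := ⟨⟩
  haveI hcharZ : CharP (IsLocalRing.ResidueField ↥(s18q_A0 P (s44s_Z P L L₀))) q :=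
    s37rl_charP P hP _
  haveI : IsDiscreteValuationRing ↥(s37r_G P (s44s_Z P L L₀) ϖZ hϖZ).A :=
    (inferInstance : IsDiscreteValuationRing ↥(s18q_A0 P (s44s_Z P L L₀)))
  obtain ⟨t, ht⟩ := s59nt_exists_t3 (s37r_G P (s44s_Z P L L₀) ϖZ hϖZ)
    (algebraMap ↥(s44s_Z P L L₀) Kb) M q hq.out hqM h3M hq3
  obtain ⟨hQ4Z, -⟩ := hQ4 L₀ hLL hL₂L₀ ϖZ hϖZ t ht
  -- the roots of unity in `Z`
  have hζℓZ : ζℓ ∈ s44s_Z P L L₀ :=
    s44e_root_mem_Z hq.out ℓ₀.2 hℓq P hP L L₀ hζℓ.pow_eq_one hζℓL₀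
  obtain ⟨ζℓ₀, hζℓ₀, -⟩ := s33t_exists_zeta (s44s_Z P L L₀) ℓ₀.2 ζℓ hζℓ hζℓZ
  haveI : Fact (ℓ₀ : ℕ).Prime := ⟨ℓ₀.2⟩
  -- (G6) over `Z`
  obtain ⟨Gg, h, a, hGg, efh, hO, hN⟩ :=
    s59nt_star_tame_t3_inst M q hqM hq2 h3M p P hP (s44s_Z P L L₀) ϖZ hϖZ e εZ he hεZ hεZinv hεZ0
      hqeZ (ℓ₀ : ℕ) hℓ₀ ζℓ₀ hζℓ₀ hp12 t ht hf a₀ hTx ha₀
      (fun s => hQ4Z s.1 s.2.1 (s.2.2.1 ⟨1,
        (s34m_VV (s37r_G P (s44s_Z P L L₀) ϖZ hϖZ)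
          (algebraMap ↥(s44s_Z P L L₀) Kb) M q hq.out hqM true).one_mem, (mul_one _).symm⟩))
  exact s59nt_finite_up_glob_t3 M q hqM p P hZL₀ ϖZ hϖZ ϖ hϖ x t ht f Gg h a hf hGg efh hO hN

end Fermat.Agent.Lib.S59
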