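/-
Programme (R2) / node [MP-two] (helper7), THE `t₃`-CHAIN AT THE LEVEL PRIME `2`:
**[GEO] AT `(p, 2)`, `3 ∣ M`, PROVED for every prime `p ≥ 5`**, and **MAZUR'S PRINCIPLE AT `q = 2` AT SQUAREFREE LEVELS
DIVISIBLE BY `3`**.

* `s59n_geoT3_of`       : [GEO] at `(p, 2)`, `3 ∣ M`, from [A] and [B] on the chart `t₃` ([C] = `s59n_toric_geo_t3`);
* `s59nt_geo_two_three` : `s59m_GeoAt p M 2` for `3 ∣ M`, `2 ∤ M` ([A] = `s59nt_finT3`, [B] = `s59nt_redT3`);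
* `s59nt_MP_two_three`  : [MP′] at `q = 2` for every prime `p ≥ 5`, general `W`, squarefree level `M₀ = 2 M`, `3 ∣ M`:
  `ρ̄_{W,p}` unramified at `2`, modular of level `2 M` ⇒ modular of level `M`.
-/
import Fermat.Agent.Lib.S59.NZFin
import Fermat.Agent.Lib.S59.NZRed
import Fermat.Agent.Lib.S59.NZGeoT
import Fermat.Agent.Lib.S59.NMPEven

set_option autoImplicit false
set_option linter.style.haveILetI false
set_option linter.unusedSectionVars false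

namespace Fermat.Agent.Lib.S59

open ModularCurve AlgebraicCurve Fermat.Agent.Lib.FF Fermat.Agent.Lib.S33 Fermat.Agent.Lib.S44

noncomputable section

local notation "Kb" => AlgebraicClosure ℚ
local notation "Γℚ" => (AlgebraicClosure ℚ ≃ₐ[ℚ] AlgebraicClosure ℚ)

/-- **[GEO] at `(p, 2)`, `3 ∣ M`, from [A] and [B] on the chart `t₃`** ([C] on the chart `t₃` is `s59n_toric_geo_t3`). -/
theorem s59n_geoT3_of {p : ℕ} [Fact p.Prime] (hA : s59n_FinT3 p) (hB : s59n_RedT3 p) (h2p : 2 ≠ p)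
    (M : ℕ) [NeZero M] (h2M : ¬ 2 ∣ M) (h3M : 3 ∣ M) :
    s59m_GeoAt p M 2 Nat.prime_two h2M := by
  intro W hΔ B hB1 hne A hAq σ hσ hin x hE hfix
  obtain ⟨ℓ₀, hℓ₀B, hℓ₀⟩ := hne
  haveI : Fact (Nat.Prime 2) := ⟨Nat.prime_two⟩
  obtain ⟨L, hLfd, hLn, hL1, hL2⟩ := s59m_exists_LH W hΔ p
  haveI := hLfd
  haveI := hLn
  have hℓ₀N : ¬ (ℓ₀ : ℕ) ∣ M * 2 := fun hd => hℓ₀B (hB1 ℓ₀ ℓ₀.2 (hd.mul_right p))
  have hfin : s59n_FiniteN M 2 p h2M A (s33t_nodeN_t3 M 2 h2M A) x :=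
    hA M 2 h2M rfl h3M (Ne.symm h2p) A hAq L (fun τ hτ a ha => hL2 τ (hin τ hτ) a ha) x hE.1
      (fun σ' hσ' => hfix σ' (hL1 σ' hσ')) ⟨ℓ₀, W.apOfModel ℓ₀, hℓ₀N, hE.2 ℓ₀ hℓ₀B, hℓ₀⟩
  rcases hB M 2 h2M rfl h3M (Ne.symm h2p) A hAq _ B hB1 x hE hfin with h | h
  · exact Or.inl h
  · exact Or.inr (s59n_toric_geo_t3 M 2 h2M rfl h3M p (Ne.symm h2p) A hAq h hσ)

/-- **[GEO] at `(p, 2)`, `3 ∣ M`**, every prime `p ≥ 5`. -/
theorem s59nt_geo_two_three (p : ℕ) [hp : Fact p.Prime] (hp5 : 5 ≤ p)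
    (M : ℕ) [NeZero M] (h2M : ¬ 2 ∣ M) (h3M : 3 ∣ M) :
    s59m_GeoAt p M 2 Nat.prime_two h2M :=
  s59n_geoT3_of (s59nt_finT3 p hp5) (s59nt_redT3 p) (by omega) M h2M h3M

/-- **[MP′] at `q = 2`, squarefree level divisible by `3`, every prime `p ≥ 5`**: general `W`, no hypothesis on the reduction
of `W` at `2`. -/
theorem s59nt_MP_two_three (p : ℕ) (hp : p.Prime) (hp5 : 5 ≤ p) (W : WeierstrassCurve ℤ) (hΔ : W.Δ ≠ 0)
    (hirr : W.ModRepIsIrreducible p) (M₀ : ℕ) (hM₀ : Squarefree M₀) (h2M₀ : 2 ∣ M₀) (h3M₀ : 3 ∣ M₀)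
    (hunr : s59_Unr W p 2) (hres : W.IsResiduallyModularOfLevel p M₀) :
    W.IsResiduallyModularOfLevel p (M₀ / 2) := by
  haveI : Fact p.Prime := ⟨hp⟩
  obtain ⟨M, rfl⟩ : ∃ M, M₀ = M * 2 := ⟨M₀ / 2, (Nat.div_mul_cancel h2M₀).symm⟩
  rw [Nat.mul_div_cancel _ (by norm_num : 0 < 2)]
  have hM0 : M ≠ 0 := by
    rintro rfl
    rw [zero_mul] at hM₀
    exact not_squarefree_zero hM₀
  haveI : NeZero M := ⟨hM0⟩
  have h2M : ¬ 2 ∣ M := by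
    rintro ⟨k, rfl⟩
    have h1 : 2 * 2 ∣ 2 * k * 2 := ⟨k, by ring⟩
    exact absurd (Nat.isUnit_iff.mp (hM₀ 2 h1)) (by norm_num)
  have h3M : 3 ∣ M := by
    rcases (Nat.Prime.dvd_mul Nat.prime_three).mp h3M₀ with h | h
    · exact h
    · omega
  have hp2 : p ≠ 2 := by omega
  have hqp : 2 ≠ p := by omega
  rcases s59m_MP'_at s59m_old s59m_nonEis hp2 W hΔ hirr M 2 Nat.prime_two h2M hqp hunr
    (s59nt_geo_two_three p hp5 M h2M h3M) hres with h | h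
  · exact h
  · exfalso
    have := Nat.le_of_dvd (by norm_num) h.1
    omega

end

end Fermat.Agent.Lib.S59
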