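/-
Programme (R2) / node [MP-two] (helper7), THE `t₃`-CHAIN AT THE LEVEL PRIME `2`, AUXILIARY LEVEL `r` (`3 ∣ M r`):
**[B] = RED ON THE CHART `t₃` WITH AN AUXILIARY LEVEL `r`**: `x = π^* x₀ ∈ J₀((M r) · 2)[p]`, `x₀ ∈ J₀(M · 2)[p]`; left alternative
AT THE LEVEL `M`.  `t₃`-twin of the sections `Both` and of the leaf of `NYRed.lean` (`s59nt_level_comp_aux` is generic).
-/
import Fermat.Agent.Lib.S59.NYRed
import Fermat.Agent.Lib.S59.NZRed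

set_option autoImplicit false
set_option linter.style.haveILetI false
set_option linter.unusedSectionVars false
set_option linter.unusedVariables false
set_option synthInstance.maxHeartbeats 400000

namespace Fermat.Agent.Lib.S59

open ModularCurve HahnSeries AlgebraicCurve Fermat.Agent.Lib.FF Fermat.Agent.Lib.S18
  Fermat.Agent.Lib.S28 Fermat.Agent.Lib.S29 Fermat.Agent.Lib.S37 Fermat.Agent.Lib.S34
  Fermat.Agent.Lib.S33 Fermat.Agent.Lib.S44 Fermat.Agent.Lib.S19 Fermat.Agent.Lib.S17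
  Fermat.Agent.Lib.S15 Fermat.Agent.Lib.S35 Fermat.Agent.Lib.S36

noncomputable section

local notation "Kb" => AlgebraicClosure ℚ

/-! ### Both components over a finite level -/

section Both

variable (M r q : ℕ) [NeZero M] [NeZero r] [hq : Fact q.Prime] (hr : r.Prime) (hrM : ¬ r ∣ M)
  (hqMr : ¬ q ∣ M * r) (hq2 : q = 2) (h3M : 3 ∣ M * r)
  (p : ℕ) [hp : Fact p.Prime] (hpq : p ≠ q) (hpr : Nat.Coprime p (r + 1))
  (P : ValuationSubring Kb) (hP : P.LiesOverPrime q)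
  (a : ℕ → ℤ) (B : Finset ℕ) (hB : ∀ s : ℕ, s.Prime → s ∣ M * r * q * p → s ∈ B)
  (x₀ : JZero (M * q)) (hx₀ : p • x₀ = 0) (x : JZero ((M * r) * q))
  (hxx : x = s36p_pull (s36p_dvd_top M (M * r) q (dvd_mul_right M r)) x₀)
  (hE : s44i_Eig ((M * r) * q) p a B x)
  (L₀ : IntermediateField ℚ Kb) [FiniteDimensional ℚ ↥L₀] [Normal ℚ ↥L₀]
  [IsDiscreteValuationRing ↥(s18q_A0 P L₀)] (ϖ : ↥(s18q_A0 P L₀)) (hϖ : Irreducible ϖ)
  (t : s34m_F ↥L₀ ((M * r) * q)) (ht : (t : LaurentSeries ↥L₀) = s18u_t3 ↥L₀)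
  (h : s34m_F ↥L₀ ((M * r) * q)) (hgen : s33d_IsKumGen p x (s18q_incl ((M * r) * q) L₀ h))
  (hI : h ∈ s34m_Vinf (s37r_G P L₀ ϖ hϖ) ((M * r) * q))
  (hI' : h⁻¹ ∈ s34m_Vinf (s37r_G P L₀ ϖ hϖ) ((M * r) * q))
  (hZ : h ∈ s34m_Vzero (s37r_G P L₀ ϖ hϖ) (algebraMap ↥L₀ Kb) (M * r) q hq.out hqMr)
  (hZ' : h⁻¹ ∈ s34m_Vzero (s37r_G P L₀ ϖ hϖ) (algebraMap ↥L₀ Kb) (M * r) q hq.out hqMr)
  (hnode : ∀ Q ∈ s33t_nodeN_t3 (M * r) q hqMr P L₀ ϖ hϖ, Q.ord h = 0)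
  (hQ4₁ : s59n_Q4 (M * r) q p hqMr P L₀ ϖ hϖ (s18_chart1 (L₀ := ↥L₀) t) h)
  (hQ4₂ : s59n_Q4 (M * r) q p hqMr P L₀ ϖ hϖ (s18_chart2 (L₀ := ↥L₀) t) h)

set_option maxHeartbeats 1600000 in
include hr hrM hq2 h3M hpq hpr hP hB hx₀ hxx hE hgen hI hI' hZ hZ' hnode hQ4₁ hQ4₂ ht in
/-- **both components.** -/
theorem s59nt_level_both_t3_aux :
    (∃ y : JZero M, y ≠ 0 ∧ s44i_Eig M p a B y) ∨
      ((∃ (c : IsLocalRing.ResidueField ↥(s18q_A0 P L₀))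
        (a₀ : LaurentSeries (IsLocalRing.ResidueField ↥(s18q_A0 P L₀))), c ≠ 0 ∧
        a₀ ∈ modularFunctionFieldFullC (IsLocalRing.ResidueField ↥(s18q_A0 P L₀)) (M * r) ∧
        s34m_redInf (s37r_G P L₀ ϖ hϖ) ((M * r) * q) ⟨h, hI⟩ = HahnSeries.C c * a₀ ^ p) ∧
      (∃ (c : IsLocalRing.ResidueField ↥(s18q_A0 P L₀))
        (a₀ : LaurentSeries (IsLocalRing.ResidueField ↥(s18q_A0 P L₀))), c ≠ 0 ∧
        a₀ ∈ modularFunctionFieldFullC (IsLocalRing.ResidueField ↥(s18q_A0 P L₀)) (M * r) ∧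
        s34m_redZero (s37r_G P L₀ ϖ hϖ) (algebraMap ↥L₀ Kb) (M * r) q hq.out hqMr ⟨h, hZ⟩ =
          HahnSeries.C c * a₀ ^ p)) := by
  classical
  haveI : NeZero q := ⟨hq.out.ne_zero⟩
  haveI : NumberField ↥L₀ := ⟨⟩
  haveI hchar₀ : CharP (IsLocalRing.ResidueField ↥(s18q_A0 P L₀)) q := s37rl_charP P hP L₀
  haveI hperf₀ : PerfectField (IsLocalRing.ResidueField ↥(s18q_A0 P L₀)) :=
    s37rl_perfectField P hP L₀
  haveI : PerfectRing (IsLocalRing.ResidueField ↥(s18q_A0 P L₀)) q := PerfectField.toPerfectRing q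
  have hT : s18g_HT (IsLocalRing.ResidueField ↥(s18q_A0 P L₀)) (M * r) := s18t_indep_j q (M * r) hqMr _
  have hdegM : s18g_HDeg ↥L₀ (M * r) := fun n b hb hn =>
    s18g_exists_relation (M * r) (algebraMap ↥L₀ Kb) hn b hb
  have hdeg : s34m_HDeg ↥L₀ (M * r) q := s34r_deg_HDeg (algebraMap ↥L₀ Kb) (M * r) q hq.out hqMr
  have hπ : Function.Surjective (s37r_G P L₀ ϖ hϖ).π := IsLocalRing.residue_surjective
  haveI : IsDiscreteValuationRing (s37r_G P L₀ ϖ hϖ).A := ‹_›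
  have hh0 : h ≠ 0 := (s33d_kum_of_gen ((M * r) * q) p L₀ hgen).1
  have hgood : s18_GoodLevel q (M * r) := ⟨hqMr, Or.inr (Or.inr ⟨hq2, h3M⟩)⟩
  have hnode' : ∀ Q ∈ s33s_nodePlaces (s34m_VV (s37r_G P L₀ ϖ hϖ) (algebraMap ↥L₀ Kb) (M * r) q hq.out hqMr)
      (s34m_unif (s37r_G P L₀ ϖ hϖ) ((M * r) * q)) (s18_chart1 (L₀ := ↥L₀) t), Q.ord h = 0 := by
    rw [← s33t_nodeN_t3_eq (M * r) q hqMr P L₀ ϖ hϖ t ht]
    exact hnode
  obtain ⟨hdivI, hdivZ⟩ := s59nt_div_p_t3 (M * r) q hqMr hq2 h3M ↥L₀ (algebraMap ↥L₀ Kb)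
    (IsLocalRing.ResidueField ↥(s18q_A0 P L₀)) (s37r_G P L₀ ϖ hϖ) hdeg hT hdegM hπ p t ht h hh0 hI hI'
    hZ hZ' hnode' hQ4₁ hQ4₂
  by_cases hy : ∃ y : JZero M, y ≠ 0 ∧ s44i_Eig M p a B y
  · exact Or.inl hy
  · right
    constructor
    · rcases s59nt_level_comp_aux M r q hr hrM hqMr hgood p hpq hpr P hP a B hB L₀ ϖ hϖ x₀ hx₀ x hxx hE h hgen
        hI hI'
        (s33y_redI (s37r_G P L₀ ϖ hϖ) (algebraMap ↥L₀ Kb) (M * r) q hqMr hdeg hT hdegM ⟨h, hI⟩) rfl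
        hdivI with h1 | h1
      · exact absurd h1 hy
      · exact h1
    · have hI₂ : s34m_al (algebraMap ↥L₀ Kb) (M * r) q hq.out hqMr h ∈
          s34m_Vinf (s37r_G P L₀ ϖ hϖ) ((M * r) * q) :=
        (s34m_mem_Vzero (s37r_G P L₀ ϖ hϖ) (algebraMap ↥L₀ Kb) (M * r) q hq.out hqMr h).mp hZ
      have hI₂' : (s34m_al (algebraMap ↥L₀ Kb) (M * r) q hq.out hqMr h)⁻¹ ∈
          s34m_Vinf (s37r_G P L₀ ϖ hϖ) ((M * r) * q) := by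
        have := (s34m_mem_Vzero (s37r_G P L₀ ϖ hϖ) (algebraMap ↥L₀ Kb) (M * r) q hq.out hqMr h⁻¹).mp hZ'
        rwa [map_inv₀] at this
      have hqM : ¬ q ∣ M := fun h0 => hqMr (h0.mul_right r)
      have hx₀w : p • s59m_wq M q hq.out hqM x₀ = 0 := by rw [← map_nsmul, hx₀, map_zero]
      have hxxw : s59m_wq (M * r) q hq.out hqMr x =
          s36p_pull (s36p_dvd_top M (M * r) q (dvd_mul_right M r)) (s59m_wq M q hq.out hqM x₀) := by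
        rw [hxx]
        exact (s59b_pull_wq M (M * r) q (dvd_mul_right M r) hq.out hqM hqMr x₀).symm
      rcases s59nt_level_comp_aux M r q hr hrM hqMr hgood p hpq hpr P hP a B hB L₀ ϖ hϖ
        (s59m_wq M q hq.out hqM x₀) hx₀w
        (s59m_wq (M * r) q hq.out hqMr x) hxxw (s59m_eig_wq (M * r) q hqMr p a B hB x hE)
        (s34m_al (algebraMap ↥L₀ Kb) (M * r) q hq.out hqMr h) (s59m_kumGen_wq (M * r) q hqMr p L₀ x h hgen)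
        hI₂ hI₂'
        (s33y_redZ (s37r_G P L₀ ϖ hϖ) (algebraMap ↥L₀ Kb) (M * r) q hqMr hdeg hT hdegM ⟨h, hZ⟩) rfl
        hdivZ with h1 | h1
      · exact absurd h1 hy
      · exact h1

end Both

/-! ### The leaf -/

set_option maxHeartbeats 1600000 in
/-- **[B] = RED on the chart `t₃`.** -/
theorem s59nt_redT3_aux (p : ℕ) [hp : Fact p.Prime] (M r q : ℕ) [NeZero M] [NeZero r] [hq : Fact q.Prime]
    (hr : r.Prime) (hrM : ¬ r ∣ M) (hqMr : ¬ q ∣ M * r) (hq2 : q = 2) (h3M : 3 ∣ M * r) (hpq : p ≠ q)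
    (hpr : Nat.Coprime p (r + 1)) (P : ValuationSubring Kb) (hP : P.LiesOverPrime q)
    (a : ℕ → ℤ) (B : Finset ℕ) (hB : ∀ s : ℕ, s.Prime → s ∣ M * r * q * p → s ∈ B)
    (x₀ : JZero (M * q)) (hx₀ : p • x₀ = 0) (x : JZero (M * r * q))
    (hxx : x = s36p_pull (s36p_dvd_top M (M * r) q (dvd_mul_right M r)) x₀)
    (hE : s44i_Eig (M * r * q) p a B x)
    (hfin : s59n_FiniteN (M * r) q p hqMr P (s33t_nodeN_t3 (M * r) q hqMr P) x) :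
    (∃ y : JZero M, y ≠ 0 ∧ s44i_Eig M p a B y) ∨
      s59n_ToricN (M * r) q p hqMr P (s33t_nodeN_t3 (M * r) q hqMr P) x := by
  classical
  haveI : NeZero q := ⟨hq.out.ne_zero⟩
  haveI : NeZero p := ⟨hp.out.ne_zero⟩
  by_cases hy : ∃ y : JZero M, y ≠ 0 ∧ s44i_Eig M p a B y
  · exact Or.inl hy
  right
  obtain ⟨Lf, hLffd, hLf⟩ := hfin
  haveI := hLffd
  obtain ⟨La, hLfLa, hLafd, hLanorm⟩ := s33t_exists_normal_ge Lf
  haveI := hLafd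
  haveI := hLanorm
  haveI hdvra : IsDiscreteValuationRing ↥(s18q_A0 P La) := s18q_A0_dvr P La hP
  obtain ⟨ϖa, hϖa⟩ := IsDiscreteValuationRing.exists_irreducible ↥(s18q_A0 P La)
  obtain ⟨ha, hagen, -⟩ := hLf La ϖa hϖa hLfLa
  obtain ⟨ha0, hadiv⟩ := s33d_kum_of_gen ((M * r) * q) p La hagen
  obtain ⟨L₂, hL₂fd, hL₂⟩ := s59nt_Q4_big_q2 (M * r) q hq.out hqMr hq2 h3M p hp.out P hP La ha ha0 hadiv
  haveI := hL₂fd
  haveI hfdx : FiniteDimensional ℚ ↥(Lf ⊔ La ⊔ L₂) := inferInstance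
  refine ⟨Lf ⊔ La ⊔ L₂, hfdx, ?_⟩
  intro L₀ _ _ _ ϖ hϖ hle
  have hLfL₀ : Lf ≤ L₀ := le_trans (le_trans le_sup_left le_sup_left) hle
  have hLaL₀ : La ≤ L₀ := le_trans (le_trans le_sup_right le_sup_left) hle
  have hL₂L₀ : L₂ ≤ L₀ := le_trans le_sup_right hle
  obtain ⟨h, hgen, hI, hI', hZ, hZ', hnode⟩ := hLf L₀ ϖ hϖ hLfL₀
  -- (Q4) for `h`
  haveI : NumberField ↥L₀ := ⟨⟩
  haveI hcharL₀ : CharP (IsLocalRing.ResidueField ↥(s18q_A0 P L₀)) q := s37rl_charP P hP _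
  haveI : IsDiscreteValuationRing ↥(s37r_G P L₀ ϖ hϖ).A :=
    (inferInstance : IsDiscreteValuationRing ↥(s18q_A0 P L₀))
  have hq3 : q ≠ 3 := by omega
  obtain ⟨t, ht⟩ := s59nt_exists_t3 (s37r_G P L₀ ϖ hϖ) (algebraMap ↥L₀ Kb) (M * r) q hq.out hqMr h3M hq3
  obtain ⟨q1, q2⟩ := hL₂ L₀ hLaL₀ hL₂L₀ ϖ hϖ t ht
  set u := s44q_up ((M * r) * q) hLaL₀ ha with hu
  have hugen : s33d_IsKumGen p x (s18q_incl ((M * r) * q) L₀ u) := by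
    rw [hu, s44q_incl_up]
    exact hagen
  have hu0 : u ≠ 0 := (s33d_kum_of_gen ((M * r) * q) p L₀ hugen).1
  obtain ⟨c₀, g, hc₀, hg, e⟩ := s33d_kum0_of_same_class ((M * r) * q) p L₀ hugen hgen
  have hQ4₁ : s59n_Q4 (M * r) q p hqMr P L₀ ϖ hϖ
      (s18_chart1 (L₀ := ↥L₀) t) h := by
    intro 𝔫 h1 h2
    have := s44q_Q4_mul_pow _ _ 𝔫 p u hu0 c₀ hc₀ g hg (q1 𝔫 h1 h2)
    rwa [← e] at this
  have hQ4₂ : s59n_Q4 (M * r) q p hqMr P L₀ ϖ hϖ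
      (s18_chart2 (L₀ := ↥L₀) t) h := by
    intro 𝔫 h1 h2
    have := s44q_Q4_mul_pow _ _ 𝔫 p u hu0 c₀ hc₀ g hg (q2 𝔫 h1 h2)
    rwa [← e] at this
  rcases s59nt_level_both_t3_aux M r q hr hrM hqMr hq2 h3M p hpq hpr P hP a B hB x₀ hx₀ x hxx hE L₀ ϖ hϖ t ht h hgen hI hI' hZ hZ' hnode
    hQ4₁ hQ4₂ with h1 | ⟨h1, h2⟩
  · exact absurd h1 hy
  · exact ⟨h, hgen, hI, hZ, hI', hZ', hnode, h1, h2⟩

end

end Fermat.Agent.Lib.S59
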