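/-
Programme (R2) / node [MP-two] (helper7), THE `t₃`-CHAIN AT THE LEVEL PRIME `2`:
**MAZUR'S PRINCIPLE AT `q = 2` AT EVERY EVEN SQUAREFREE LEVEL, every prime `p ≥ 5`, general `W`** — node `s59g_MPtwoFive`.

* `s59nt_geo_two_aux`  : `s59nt_GeoAtAux p M 3 2` for `2 ∤ M`, `3 ∤ M`, `p ≥ 5`: the auxiliary level `3` INSIDE the geometry
  (`x' = π^* x ∈ J₀((M · 3) · 2)[p]`; [A] = `s59nt_finT3` at the level `(M · 3, 2)`; [B] = `s59nt_redT3_aux`, left alternative at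
  the level `M`; [C] = `s59n_toric_geo_t3`; descent by `s59b_frob_descend_wq`, `π_* π^* = 4` prime to `p`);
* `s59nt_MP_two_odd3`  : [MP′] at `q = 2`, squarefree level `M₀ = 2 M`, `3 ∤ M`;
* **`s59nt_MP_two_all`** : [MP′] at `q = 2`, EVERY even squarefree level, every prime `p ≥ 5`, general `W`;
* **`s59nt_MPtwoFive`**  : helper1's node `s59g_MPtwoFive` (`Graph3S.lean`) verbatim (the hypothesis "`ρ̄` ramified at the odd
  primes of the level" is not used).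
-/
import Fermat.Agent.Lib.S59.NZGeo2
import Fermat.Agent.Lib.S59.NZRedAux
import Fermat.Agent.Lib.S59.NYMP

set_option autoImplicit false
set_option linter.style.haveILetI false
set_option linter.unusedSectionVars false
set_option linter.unusedVariables false

namespace Fermat.Agent.Lib.S59

open ModularCurve AlgebraicCurve Fermat.Agent.Lib.FF Fermat.Agent.Lib.S18
  Fermat.Agent.Lib.S33 Fermat.Agent.Lib.S44 Fermat.Agent.Lib.S36

noncomputable section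

local notation "Kb" => AlgebraicClosure ℚ
local notation "Γℚ" => (AlgebraicClosure ℚ ≃ₐ[ℚ] AlgebraicClosure ℚ)

set_option maxHeartbeats 1600000 in
/-- **[GEO] at `(p, 2)`, `3 ∤ M`**, every prime `p ≥ 5`, the auxiliary level `3` inside the geometry. -/
theorem s59nt_geo_two_aux (p : ℕ) [hp : Fact p.Prime] (hp5 : 5 ≤ p)
    (M : ℕ) [NeZero M] (h2M : ¬ 2 ∣ M) (h3M : ¬ 3 ∣ M) :
    s59nt_GeoAtAux p M 3 2 Nat.prime_two h2M := by
  intro W hΔ B hB1 hne A hAq σ hσ hin x hE hfix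
  obtain ⟨ℓ₀, hℓ₀B, hℓ₀⟩ := hne
  haveI : Fact (Nat.Prime 2) := ⟨Nat.prime_two⟩
  obtain ⟨L, hLfd, hLn, hL1, hL2⟩ := s59m_exists_LH W hΔ p
  haveI := hLfd
  haveI := hLn
  have hp2 : p ≠ 2 := by omega
  have h2M3 : ¬ 2 ∣ M * 3 := by
    intro h
    rcases (Nat.Prime.dvd_mul Nat.prime_two).mp h with h | h
    · exact h2M h
    · omega
  have h3M2 : ¬ 3 ∣ M * 2 := by
    intro h
    rcases (Nat.Prime.dvd_mul Nat.prime_three).mp h with h | h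
    · exact h3M h
    · omega
  have hcop : Nat.Coprime p (3 + 1) := by
    have h1 : Nat.Coprime p 2 := (Nat.coprime_primes hp.out Nat.prime_two).mpr hp2
    have e : 3 + 1 = 2 ^ 2 := by norm_num
    rw [e]
    exact Nat.Coprime.pow_right 2 h1
  have hE' : s44i_Eig (M * 3 * 2) p (fun ℓ => W.apOfModel ℓ) B
      (s36p_pull (s36p_dvd_top M (M * 3) 2 (dvd_mul_right M 3)) x) :=
    s59b_eig_pull _ p _ B B (Finset.Subset.refl B) hB1 x hE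
  have hℓ₀N : ¬ (ℓ₀ : ℕ) ∣ M * 3 * 2 := fun hd => hℓ₀B (hB1 ℓ₀ ℓ₀.2 (hd.mul_right p))
  have hfin : s59n_FiniteN (M * 3) 2 p h2M3 A (s33t_nodeN_t3 (M * 3) 2 h2M3 A)
      (s36p_pull (s36p_dvd_top M (M * 3) 2 (dvd_mul_right M 3)) x) :=
    s59nt_finT3 p hp5 (M * 3) 2 h2M3 rfl (dvd_mul_left 3 M) hp2 A hAq L
      (fun τ hτ a ha => hL2 τ (hin τ hτ) a ha) _ hE'.1
      (fun σ' hσ' => by rw [← s36p_pull_smul, hfix σ' (hL1 σ' hσ')])
      ⟨ℓ₀, W.apOfModel ℓ₀, hℓ₀N, hE'.2 ℓ₀ hℓ₀B, hℓ₀⟩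
  rcases s59nt_redT3_aux p M 3 2 Nat.prime_three h3M h2M3 rfl (dvd_mul_left 3 M) hp2 hcop A hAq _ B
    hB1 x hE.1 _ rfl hE' hfin with h | h
  · exact Or.inl h
  · right
    have h1 := s59n_toric_geo_t3 (M * 3) 2 h2M3 rfl (dvd_mul_left 3 M) p hp2 A hAq h hσ
    exact s59b_frob_descend_wq M 3 2 Nat.prime_two Nat.prime_three h3M2 h2M h2M3 p hcop σ x hE.1 h1

/-- **[MP′] at `q = 2`, squarefree level `2 M` with `3 ∤ M`, every prime `p ≥ 5`.** -/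
theorem s59nt_MP_two_odd3 (p : ℕ) (hp : p.Prime) (hp5 : 5 ≤ p) (W : WeierstrassCurve ℤ) (hΔ : W.Δ ≠ 0)
    (hirr : W.ModRepIsIrreducible p) (M₀ : ℕ) (hM₀ : Squarefree M₀) (h2M₀ : 2 ∣ M₀) (h3M₀ : ¬ 3 ∣ M₀)
    (hunr : s59_Unr W p 2) (hres : W.IsResiduallyModularOfLevel p M₀) :
    W.IsResiduallyModularOfLevel p (M₀ / 2) := by
  haveI : Fact p.Prime := ⟨hp⟩
  obtain ⟨M, rfl⟩ : ∃ M, M₀ = M * 2 := ⟨M₀ / 2, (Nat.div_mul_cancel h2M₀).symm⟩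
  rw [Nat.mul_div_cancel _ (by norm_num : 0 < 2)]
  have hM0 : M ≠ 0 := by
    rintro rfl
    rw [zero_mul] at hM₀
    exact not_squarefree_zero hM₀
  haveI : NeZero M := ⟨hM0⟩
  have h2M : ¬ 2 ∣ M := by
    rintro ⟨k, rfl⟩
    have h1 : 2 * 2 ∣ 2 * k * 2 := ⟨k, by ring⟩
    exact absurd (Nat.isUnit_iff.mp (hM₀ 2 h1)) (by norm_num)
  have h3M : ¬ 3 ∣ M := fun h => h3M₀ (h.mul_right 2)
  have hp2 : p ≠ 2 := by omega
  have hqp : 2 ≠ p := by omega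
  have hrp : 3 ≠ p := by omega
  rcases s59nt_MP'_at_aux s59m_old s59m_nonEis hp2 W hΔ hirr M 3 2 Nat.prime_three h3M hrp
    Nat.prime_two h2M hqp hunr (s59nt_geo_two_aux p hp5 M h2M h3M) hres with h | h
  · exact h
  · exfalso
    have := Nat.le_of_dvd (by norm_num) h.1
    omega

/-- **[MP′] at `q = 2`, EVERY even squarefree level, every prime `p ≥ 5`, general `W`.** -/
theorem s59nt_MP_two_all (p : ℕ) (hp : p.Prime) (hp5 : 5 ≤ p) (W : WeierstrassCurve ℤ) (hΔ : W.Δ ≠ 0)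
    (hirr : W.ModRepIsIrreducible p) (M₀ : ℕ) (hM₀ : Squarefree M₀) (h2M₀ : 2 ∣ M₀)
    (hunr : s59_Unr W p 2) (hres : W.IsResiduallyModularOfLevel p M₀) :
    W.IsResiduallyModularOfLevel p (M₀ / 2) := by
  by_cases h3 : 3 ∣ M₀
  · exact s59nt_MP_two_three p hp hp5 W hΔ hirr M₀ hM₀ h2M₀ h3 hunr hres
  · exact s59nt_MP_two_odd3 p hp hp5 W hΔ hirr M₀ hM₀ h2M₀ h3 hunr hres

/-- **[MP-two] at `p = 5`** in the exact shape of helper1's node `s59g_MPtwoFive` (`Graph3S.lean`; `s59g_Inv2 W 5 M` unfolded: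
`0 < M ∧ Squarefree M ∧ (5 ∣ M → ¬ W.IsGoodPrimeFor 5)`). -/
theorem s59nt_MPtwoFive :
    ∀ (W : WeierstrassCurve ℤ), W.Δ ≠ 0 → W.IsSemistableModel →
      W.ModRepIsIrreducible 5 → ∀ (M : ℕ),
      (0 < M ∧ Squarefree M ∧ (5 ∣ M → ¬ W.IsGoodPrimeFor 5)) → 2 ∣ M → s59_Unr W 5 2 →
      (∀ q : ℕ, q.Prime → q ≠ 5 → q ≠ 2 → q ∣ M → ¬ s59_Unr W 5 q) →
      W.IsResiduallyModularOfLevel 5 M → W.IsResiduallyModularOfLevel 5 (M / 2) :=
  fun W hΔ _ hirr M hinv h2M hunr _ hres =>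
    s59nt_MP_two_all 5 (by norm_num) le_rfl W hΔ hirr M hinv.2.1 h2M hunr hres

end

end Fermat.Agent.Lib.S59
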