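/-
Programme (R2) / nodes [MP-two], [MP32] (helper7), THE `t₃`-CHAIN AT THE LEVEL PRIME `2`: **EXPONENT-GENERIC FORMS** (for
helper2's [A] at `(p, q) = (3, 2)`).

* `s59nt_geo_of_fin_t3`     : [GEO] at `(M, 2)`, `3 ∣ M`, pointwise, from FINITENESS of the given point (any prime `p ≠ 2`):
  [B] = `s59nt_redT3`, [C] = `s59n_toric_geo_t3`;
* `s59nt_geo_aux_of_fin_t3` : the same with an auxiliary prime `r` (`3 ∣ M r`, `p` prime to `r + 1`; e.g. `r = 3`, also for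
  `p = 3`): FINITENESS of `π^* x` at the level `(M r, 2)` ⇒ a non-zero eigen-point at the level `M` or `σ x = − 2 w₂ x`;
* `s59nt_MP'_at_auxP`       : `s59nt_MP'_at_aux` WITHOUT the hypothesis `r ≠ p`.
-/
import Fermat.Agent.Lib.S59.NZMP2

set_option autoImplicit false
set_option linter.style.haveILetI false
set_option linter.unusedSectionVars false
set_option linter.unusedVariables false

namespace Fermat.Agent.Lib.S59

open ModularCurve AlgebraicCurve Fermat.Agent.Lib.FF Fermat.Agent.Lib.S18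
  Fermat.Agent.Lib.S33 Fermat.Agent.Lib.S44 Fermat.Agent.Lib.S36 Fermat.Agent.Lib.S58

noncomputable section

local notation "Kb" => AlgebraicClosure ℚ
local notation "Γℚ" => (AlgebraicClosure ℚ ≃ₐ[ℚ] AlgebraicClosure ℚ)

/-- **[GEO] at `(M, 2)`, `3 ∣ M`, pointwise, from FINITENESS** (any prime `p ≠ 2`). -/
theorem s59nt_geo_of_fin_t3 (p : ℕ) [hp : Fact p.Prime] (hp2 : p ≠ 2)
    (M : ℕ) [NeZero M] (h2M : ¬ 2 ∣ M) (h3M : 3 ∣ M)
    (A : ValuationSubring Kb) (hAq : A.LiesOverPrime 2) (σ : Γℚ) (hσ : A.IsFrobeniusAt σ 2)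
    (a : ℕ → ℤ) (B : Finset ℕ) (hB1 : ∀ s : ℕ, s.Prime → s ∣ M * 2 * p → s ∈ B)
    (x : JZero (M * 2)) (hE : s44i_Eig (M * 2) p a B x) :
    haveI : Fact (Nat.Prime 2) := ⟨Nat.prime_two⟩
    s59n_FiniteN M 2 p h2M A (s33t_nodeN_t3 M 2 h2M A) x →
    (∃ y : JZero M, y ≠ 0 ∧ s44i_Eig M p a B y) ∨
      σ • x = (-((2 : ℕ) : ℤ)) • s59m_wq M 2 Nat.prime_two h2M x := by
  haveI : Fact (Nat.Prime 2) := ⟨Nat.prime_two⟩
  intro hfin
  rcases s59nt_redT3 p M 2 h2M rfl h3M hp2 A hAq a B hB1 x hE hfin with h | h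
  · exact Or.inl h
  · exact Or.inr (s59n_toric_geo_t3 M 2 h2M rfl h3M p hp2 A hAq h hσ)

set_option maxHeartbeats 1600000 in
/-- **[GEO] at `(M, 2)` with an auxiliary prime `r`, pointwise, from FINITENESS of `π^* x` at the level `(M r, 2)`.** -/
theorem s59nt_geo_aux_of_fin_t3 (p : ℕ) [hp : Fact p.Prime] (hp2 : p ≠ 2)
    (M r : ℕ) [NeZero M] [NeZero r] (hr : r.Prime) (hrM : ¬ r ∣ M) (hr2 : r ≠ 2)
    (h2M : ¬ 2 ∣ M) (h3Mr : 3 ∣ M * r) (hcop : Nat.Coprime p (r + 1))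
    (A : ValuationSubring Kb) (hAq : A.LiesOverPrime 2) (σ : Γℚ) (hσ : A.IsFrobeniusAt σ 2)
    (a : ℕ → ℤ) (B : Finset ℕ) (hB1 : ∀ s : ℕ, s.Prime → s ∣ M * r * 2 * p → s ∈ B)
    (x : JZero (M * 2)) (hx : p • x = 0)
    (hE' : s44i_Eig (M * r * 2) p a B (s36p_pull (s36p_dvd_top M (M * r) 2 (dvd_mul_right M r)) x)) :
    haveI : Fact (Nat.Prime 2) := ⟨Nat.prime_two⟩
    ∀ h2Mr : ¬ 2 ∣ M * r,
    s59n_FiniteN (M * r) 2 p h2Mr A (s33t_nodeN_t3 (M * r) 2 h2Mr A)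
      (s36p_pull (s36p_dvd_top M (M * r) 2 (dvd_mul_right M r)) x) →
    (∃ y : JZero M, y ≠ 0 ∧ s44i_Eig M p a B y) ∨
      σ • x = (-((2 : ℕ) : ℤ)) • s59m_wq M 2 Nat.prime_two h2M x := by
  haveI : Fact (Nat.Prime 2) := ⟨Nat.prime_two⟩
  intro h2Mr hfin
  have hrM2 : ¬ r ∣ M * 2 := by
    intro h
    rcases (Nat.Prime.dvd_mul hr).mp h with h | h
    · exact hrM h
    · exact hr2 ((Nat.prime_dvd_prime_iff_eq hr Nat.prime_two).mp h)
  rcases s59nt_redT3_aux p M r 2 hr hrM h2Mr rfl h3Mr hp2 hcop A hAq a B hB1 x hx _ rfl hE' hfin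
    with h | h
  · exact Or.inl h
  · right
    have h1 := s59n_toric_geo_t3 (M * r) 2 h2Mr rfl h3Mr p hp2 A hAq h hσ
    exact s59b_frob_descend_wq M r 2 Nat.prime_two hr hrM2 h2M h2Mr p hcop σ x hx h1

/-- **[MP′] at the level `(M, q)`** from [GEO] at `(M, q)` for the sets `B` containing an auxiliary prime `r ∤ M`
(`r = p` ALLOWED). -/
theorem s59nt_MP'_at_auxP (hOld : s59m_Old) (hNE : s59m_NonEis) {p : ℕ} [hpF : Fact p.Prime]
    (hp2 : p ≠ 2) (W : WeierstrassCurve ℤ) (hΔ : W.Δ ≠ 0) (hirr : W.ModRepIsIrreducible p)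
    (M r q : ℕ) [NeZero M] [NeZero q] (hr : r.Prime) (hrM : ¬ r ∣ M)
    (hq : q.Prime) (hqM : ¬ q ∣ M) (hqp : q ≠ p)
    (hunr : s59_Unr W p q) (hGeo : s59nt_GeoAtAux p M r q hq hqM)
    (hres : W.IsResiduallyModularOfLevel p (M * q)) :
    W.IsResiduallyModularOfLevel p M ∨ (p ∣ q - 1 ∧ s59_FrobScalar W p q) := by
  by_cases hrp : r = p
  swap
  · exact s59nt_MP'_at_aux hOld hNE hp2 W hΔ hirr M r q hr hrM hrp hq hqM hqp hunr hGeo hres
  subst hrp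
  -- `r = p`: the sets `B ⊇ {s ∣ M q p}` already contain `r`, so [GEO] holds for all of them
  refine s59m_MP'_at hOld hNE hp2 W hΔ hirr M q hq hqM hqp hunr ?_ hres
  intro W' hΔ' B hB1 hne A hA σ hσ hin x hE hfix
  refine hGeo W' hΔ' B (fun s hs hd => ?_) hne A hA σ hσ hin x hE hfix
  -- `s ∣ M r q r` ⇒ `s ∣ M q r`
  have e : M * r * q * r = M * q * r * r := by ring
  rw [e] at hd
  rcases (Nat.Prime.dvd_mul hs).mp hd with h | h
  · exact hB1 s hs h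
  · exact hB1 s hs (h.trans (Dvd.intro_left _ rfl))

end

end Fermat.Agent.Lib.S59
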