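/-
Programme R (S59), node [MP32] (helper2, prefix `s59b_`), steps (A3) + (A4): **MAZUR'S PRINCIPLE AT `(p, q) = (3, 2)`.**

`W` semistable, `W[3]` irreducible and unramified at `2`, `ρ̄_{W,3}` modular of an even squarefree level `M₀`  ⊢  modular of
level `M₀ / 2`  (`s59b_MP32`, helper1's node `s59g_MP32` of `Graph3W.lean` with `s59g_Inv2T` unfolded).

The geometry at the level `(M, 2)` needs the chart `t₃` (`3 ∣ M`, or the auxiliary level `3`), and FINITENESS [A] of the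
eigen-point `x ∈ J₀(M · 2)[3]` at the primes over `2`.  [A] at a GOOD level (`ν₂ = ν₃ = 0`) is helper7's `s59nt_finT3good`
(regular crossings, `s59b_rc_star_tame_W`); the good level is reached by an auxiliary prime `ℓ ≡ 2 (mod 3)` with
`3 ∤ a_ℓ(W)` (`s59b_R3`, Chebotarev + the image of `ρ̄`), and finiteness descends from `(M ℓ, 2)` to `(M, 2)` along the
twisted degeneracy map (`s59b_finite_descend`).
-/
import Fermat.Agent.Lib.S59.B2DescFin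
import Fermat.Agent.Lib.S59.BRThree
import Fermat.Agent.Lib.S59.NZFinGood
import Fermat.Agent.Lib.S59.NZGen
import Fermat.Agent.Lib.S15.AComm1
import Fermat.Prelude.Def_WeierstrassCurve_PeuRamifiee

set_option autoImplicit false
set_option linter.style.haveILetI false
set_option linter.unusedSectionVars false
set_option linter.unusedVariables false
set_option synthInstance.maxHeartbeats 400000

namespace Fermat.Agent.Lib.S59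

open ModularCurve AlgebraicCurve Fermat.Agent.Lib.FF Fermat.Agent.Lib.S18 Fermat.Agent.Lib.S28
  Fermat.Agent.Lib.S29 Fermat.Agent.Lib.S30 Fermat.Agent.Lib.S37 Fermat.Agent.Lib.S35
  Fermat.Agent.Lib.S33 Fermat.Agent.Lib.S44 Fermat.Agent.Lib.S36 Fermat.Agent.Lib.S58
  Fermat.Agent.Lib.S15 WeierstrassCurve

noncomputable section

local notation "Kb" => AlgebraicClosure ℚ
local notation "Γℚ" => (AlgebraicClosure ℚ ≃ₐ[ℚ] AlgebraicClosure ℚ)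

/-! ### `ν₃(ℓ) = 0` for the primes `ℓ ≡ 2 (mod 3)` -/

theorem s59b_nuThree_of_mod (ℓ : ℕ) (hℓ : ℓ.Prime) (hℓ3 : ℓ % 3 = 2) : nuThree ℓ = 0 := by
  haveI : Fact ℓ.Prime := ⟨hℓ⟩
  rw [nuThree]
  haveI : IsEmpty {x : ZMod ℓ // x ^ 2 + x + 1 = 0} := by
    refine ⟨fun ⟨x, hx⟩ => ?_⟩
    have hx3 : x ^ 3 = 1 := by
      have h1 : x ^ 3 - 1 = (x - 1) * (x ^ 2 + x + 1) := by ring
      rw [hx, mul_zero] at h1
      exact sub_eq_zero.mp h1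
    have hx0 : x ≠ 0 := by
      rintro rfl
      simp at hx
    have hF := ZMod.pow_card_sub_one_eq_one hx0
    obtain ⟨k, hk⟩ : ∃ k, ℓ - 1 = 3 * k + 1 := ⟨(ℓ - 1) / 3, by omega⟩
    rw [hk, pow_succ, pow_mul, hx3, one_pow, one_mul] at hF
    subst hF
    have h3 : ((3 : ℕ) : ZMod ℓ) = 0 := by
      push_cast
      linear_combination hx
    rw [ZMod.natCast_eq_zero_iff] at h3
    have h4 := Nat.le_of_dvd (by norm_num) h3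
    interval_cases ℓ <;> omega
  exact Nat.card_of_isEmpty

/-! ### The twisted pull-back `β'^* : J₀(N) → J₀(N')`, `N ℓ ∣ N'` -/

section Twist

variable (N ℓ N' : ℕ) [NeZero N] [NeZero ℓ] [NeZero N'] (h : N * ℓ ∣ N')

/-- the twisted inclusion intertwines the arithmetic Galois actions. -/
theorem s59b_B_intertwines (σ : Γℚ) :
    SemilinearAut.IntertwinesAlong
      ((m15a_B N ℓ N' h : ffi_F N →ₐ[Kb] ffi_F N') : ffi_F N →+* ffi_F N')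
      (arithmeticGalois (modularFunctionFieldFull N) σ)
      (arithmeticGalois (modularFunctionFieldFull N') σ) := by
  intro x
  apply Subtype.ext
  show ((arithmeticGalois (modularFunctionFieldFull N') σ • (m15a_B N ℓ N' h x) : ffi_F N') :
      LaurentSeries Kb) =
    ((m15a_B N ℓ N' h (arithmeticGalois (modularFunctionFieldFull N) σ • x) : ffi_F N') :
      LaurentSeries Kb)
  rw [coe_arithmeticGalois_smul, m15a_coe_B, m15a_coe_B, coe_arithmeticGalois_smul,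
    s18u_coeffMap_qExpand]

theorem s59b_B_integral : (m15a_B N ℓ N' h).toRingHom.IsIntegral :=
  s37h_isIntegral_of_finiteAlong _ (s36w_finiteAlong _)

theorem s59b_B_FI : FundamentalIdentityAlong Kb (m15a_B N ℓ N' h) (s59b_B_integral N ℓ N' h) :=
  s37h_fundamentalIdentityAlong _ (s36w_finiteAlong _) _

/-- **the twisted pull-back of divisor classes** `β'^* : J₀(N) → J₀(N')`. -/
def s59b_Bpull : JZero N →+ JZero N' :=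
  s37l_pic0Pullback (m15a_B N ℓ N' h) (s59b_B_integral N ℓ N' h) (s59b_B_FI N ℓ N' h)

/-- `β'^*` is Galois equivariant. -/
theorem s59b_Bpull_smul (σ : Γℚ) (x : JZero N) :
    s59b_Bpull N ℓ N' h (σ • x) = σ • s59b_Bpull N ℓ N' h x := by
  rw [galois_smul_pic0_def, galois_smul_pic0_def]
  exact s37l_pic0Pullback_smul _ _ _ _ _ (s59b_B_intertwines N ℓ N' h σ) x

end Twist

/-! ### [A] at `(p, q) = (3, 2)`, `3 ∣ M`, any level -/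

set_option maxHeartbeats 1600000 in
/-- **[A] at `(3, 2)`, `3 ∣ M`**: a point of `J₀(M · 2)[3]`, rational over a field unramified at `A ∣ 2`, eigen for `T_ℓ`
(`ℓ ≡ 2 (mod 3)`, eigenvalue prime to `3`) and for a non-Eisenstein `T_ℓ₀`, is FINITE at `A` (chart `t₃`). -/
theorem s59b_fin32 (M : ℕ) [NeZero M] (h2M : ¬ 2 ∣ M) (h3M : 3 ∣ M)
    (A : ValuationSubring Kb) (hAq : A.LiesOverPrime 2)
    (L : IntermediateField ℚ Kb) [FiniteDimensional ℚ ↥L] [Normal ℚ ↥L]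
    (hunr : ∀ τ ∈ A.inertiaSubgroupIn ℚ, ∀ a ∈ L, τ a = a)
    (x : JZero (M * 2)) (h3x : 3 • x = 0)
    (hfix : ∀ σ : Γℚ, (∀ a ∈ L, σ a = a) → σ • x = x)
    (ℓ : ℕ) (hℓ : ℓ.Prime) (hℓ3 : ℓ % 3 = 2) (hℓM : ¬ ℓ ∣ M * 2) (aℓ : ℤ)
    (hT : heckeOperatorBar (M * 2) ⟨ℓ, hℓ⟩ x = aℓ • x) (hpa : ¬ (3 : ℤ) ∣ aℓ)
    (ℓ₀ : Nat.Primes) (a₀ : ℤ) (hℓ₀ : ¬ (ℓ₀ : ℕ) ∣ M * ℓ * 2 * 3)
    (hT₀ : heckeOperatorBar (M * 2) ℓ₀ x = a₀ • x)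
    (ha₀ : ¬ (3 : ℤ) ∣ a₀ - ((ℓ₀ : ℕ) + 1)) :
    haveI : Fact (Nat.Prime 2) := ⟨Nat.prime_two⟩
    haveI : Fact (Nat.Prime 3) := ⟨Nat.prime_three⟩
    s59n_FiniteN M 2 3 h2M A (s33t_nodeN_t3 M 2 h2M A) x := by
  haveI : Fact (Nat.Prime 2) := ⟨Nat.prime_two⟩
  haveI : Fact (Nat.Prime 3) := ⟨Nat.prime_three⟩
  haveI : NeZero ℓ := ⟨hℓ.ne_zero⟩
  have hdvd : M * 2 * ℓ ∣ M * ℓ * 2 := dvd_of_eq (Nat.mul_right_comm M 2 ℓ)
  have hℓ2 : ℓ ≠ 2 := by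
    rintro rfl
    exact hℓM (Dvd.intro_left M rfl)
  have h2Mℓ : ¬ 2 ∣ M * ℓ := by
    intro hd
    rcases (Nat.Prime.dvd_mul Nat.prime_two).mp hd with h | h
    · exact h2M h
    · exact hℓ2 ((Nat.prime_dvd_prime_iff_eq Nat.prime_two hℓ).mp h).symm
  -- the good level
  have hν2 : nuTwo (M * ℓ) = 0 := by
    obtain ⟨k, rfl⟩ := h3M
    rw [mul_assoc]
    exact s36u_nuTwo_mul 3 (k * ℓ) s59nt_nuTwo_three
  have hν3 : nuThree (M * ℓ) = 0 := by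
    rw [mul_comm]
    exact s36u_nuThree_mul ℓ M (s59b_nuThree_of_mod ℓ hℓ hℓ3)
  -- the point at the level `(M ℓ, 2)`
  have h3y : 3 • s59b_Bpull (M * 2) ℓ (M * ℓ * 2) hdvd x = 0 := by
    rw [← map_nsmul, h3x, map_zero]
  have hfixy : ∀ σ : Γℚ, (∀ a ∈ L, σ a = a) →
      σ • s59b_Bpull (M * 2) ℓ (M * ℓ * 2) hdvd x = s59b_Bpull (M * 2) ℓ (M * ℓ * 2) hdvd x := by
    intro σ hσ
    rw [← s59b_Bpull_smul, hfix σ hσ]
  have hℓ₀A : ¬ (ℓ₀ : ℕ) ∣ M * 2 * 3 := by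
    intro hd
    apply hℓ₀
    have e : M * ℓ * 2 * 3 = M * 2 * 3 * ℓ := by ring
    rw [e]
    exact hd.mul_right ℓ
  have hTy : heckeOperatorBar (M * ℓ * 2) ℓ₀ (s59b_Bpull (M * 2) ℓ (M * ℓ * 2) hdvd x) =
      a₀ • s59b_Bpull (M * 2) ℓ (M * ℓ * 2) hdvd x := by
    rw [← s33l_hecke_pt 3 (s59b_Bpull (M * 2) ℓ (M * ℓ * 2) hdvd)
      (fun σ z => s59b_Bpull_smul (M * 2) ℓ (M * ℓ * 2) hdvd σ z) ℓ₀ hℓ₀A hℓ₀ x h3x, hT₀, map_zsmul]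
  have hfin' := s59nt_finT3good 3 (M * ℓ) 2 h2Mℓ rfl (Dvd.dvd.mul_right h3M ℓ) (by norm_num) hν2 hν3
    A hAq L hunr _ h3y hfixy
    ⟨ℓ₀, a₀, fun hd => hℓ₀ (hd.mul_right 3), hTy, ha₀⟩
  exact s59b_finite_descend 3 M 2 ℓ h2M (by norm_num) h3M hℓ hℓM A hAq x h3x aℓ hT hpa
    (m15a_B (M * 2) ℓ (M * ℓ * 2) hdvd) (m15a_coe_B (M * 2) ℓ (M * ℓ * 2) hdvd)
    (s59b_B_integral (M * 2) ℓ (M * ℓ * 2) hdvd) (s59b_B_FI (M * 2) ℓ (M * ℓ * 2) hdvd) h2Mℓ hfin'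

/-! ### [GEO] at `(p, q) = (3, 2)` -/

set_option maxHeartbeats 1600000 in
/-- **[GEO] at `(3, 2)`**, pointwise: with an auxiliary prime `ℓ ≡ 2 (mod 3)`, `ℓ ∉ B`, `3 ∤ a_ℓ(W)`, and a non-Eisenstein prime
`ℓ₀ ∉ B`, `ℓ₀ ≠ ℓ`. -/
theorem s59b_geo32 (W : WeierstrassCurve ℤ) (hΔ : W.Δ ≠ 0) (M : ℕ) [NeZero M] (h2M : ¬ 2 ∣ M)
    (B : Finset ℕ) (hB1 : ∀ s : ℕ, s.Prime → s ∣ M * 3 * 2 * 3 → s ∈ B)
    (ℓ : ℕ) (hℓ : ℓ.Prime) (hℓB : ℓ ∉ B) (hℓ3 : ℓ % 3 = 2) (hpa : ¬ (3 : ℤ) ∣ W.apOfModel ℓ)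
    (ℓ₀ : Nat.Primes) (hℓ₀B : (ℓ₀ : ℕ) ∉ B) (hℓ₀ℓ : (ℓ₀ : ℕ) ≠ ℓ)
    (hℓ₀ : ¬ ((3 : ℕ) : ℤ) ∣ W.apOfModel ℓ₀ - ((ℓ₀ : ℕ) + 1))
    (A : ValuationSubring Kb) (hAq : A.LiesOverPrime 2) (σ : Γℚ) (hσ : A.IsFrobeniusAt σ 2)
    (hin : haveI : Fact (Nat.Prime 3) := ⟨Nat.prime_three⟩
      ∀ τ ∈ A.inertiaSubgroupIn ℚ, τ ∈ s59m_H W 3)
    (x : JZero (M * 2)) (hE : s44i_Eig (M * 2) 3 (fun r => W.apOfModel r) B x)
    (hfix : haveI : Fact (Nat.Prime 3) := ⟨Nat.prime_three⟩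
      ∀ h ∈ s59m_H W 3, h • x = x) :
    (∃ y : JZero M, y ≠ 0 ∧ s44i_Eig M 3 (fun r => W.apOfModel r) B y) ∨
      σ • x = (-((2 : ℕ) : ℤ)) • s59m_wq M 2 Nat.prime_two h2M x := by
  haveI : Fact (Nat.Prime 2) := ⟨Nat.prime_two⟩
  haveI : Fact (Nat.Prime 3) := ⟨Nat.prime_three⟩
  obtain ⟨L, hLfd, hLn, hL1, hL2⟩ := s59m_exists_LH W hΔ 3
  haveI := hLfd
  haveI := hLn
  have hp2 : (3 : ℕ) ≠ 2 := by norm_num
  have hunrL : ∀ τ ∈ A.inertiaSubgroupIn ℚ, ∀ a ∈ L, τ a = a :=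
    fun τ hτ a ha => hL2 τ (hin τ hτ) a ha
  have ha₀ : ¬ (3 : ℤ) ∣ W.apOfModel ℓ₀ - ((ℓ₀ : ℕ) + 1) := hℓ₀
  -- `ℓ`, `ℓ₀` and the levels
  have hℓN : ¬ ℓ ∣ M * 3 * 2 * 3 := fun hd => hℓB (hB1 ℓ hℓ hd)
  have hℓ₀N : ¬ (ℓ₀ : ℕ) ∣ M * 3 * 2 * 3 := fun hd => hℓ₀B (hB1 ℓ₀ ℓ₀.2 hd)
  have hB1' : ∀ s : ℕ, s.Prime → s ∣ M * 2 * 3 → s ∈ B := fun s hs hd =>
    hB1 s hs (hd.trans ⟨3, by ring⟩)
  by_cases h3M : 3 ∣ M
  · -- `3 ∣ M`: the chart `t₃` at the level `(M, 2)`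
    have hℓM : ¬ ℓ ∣ M * 2 := fun hd => hℓN (hd.trans ⟨3 * 3, by ring⟩)
    have hℓ₀M : ¬ (ℓ₀ : ℕ) ∣ M * ℓ * 2 * 3 := by
      intro hd
      have e : M * ℓ * 2 * 3 = M * 2 * 3 * ℓ := by ring
      rw [e] at hd
      rcases (Nat.Prime.dvd_mul ℓ₀.2).mp hd with h | h
      · exact hℓ₀N (h.trans ⟨3, by ring⟩)
      · exact hℓ₀ℓ ((Nat.prime_dvd_prime_iff_eq ℓ₀.2 hℓ).mp h)
    have hfin := s59b_fin32 M h2M h3M A hAq L hunrL x hE.1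
      (fun σ' hσ' => hfix σ' (hL1 σ' hσ')) ℓ hℓ hℓ3 hℓM (W.apOfModel ℓ)
      (hE.2 ⟨ℓ, hℓ⟩ hℓB) hpa ℓ₀ (W.apOfModel ℓ₀) hℓ₀M (hE.2 ℓ₀ hℓ₀B) ha₀
    exact s59nt_geo_of_fin_t3 3 hp2 M h2M h3M A hAq σ hσ (fun r => W.apOfModel r) B hB1' x hE hfin
  · -- `3 ∤ M`: the auxiliary level `3`
    have h2M3 : ¬ 2 ∣ M * 3 := by
      intro h
      rcases (Nat.Prime.dvd_mul Nat.prime_two).mp h with h | h
      · exact h2M h
      · omega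
    have hcop : Nat.Coprime 3 (3 + 1) := by norm_num
    have hE' : s44i_Eig (M * 3 * 2) 3 (fun r => W.apOfModel r) B
        (s36p_pull (s36p_dvd_top M (M * 3) 2 (dvd_mul_right M 3)) x) :=
      s59b_eig_pull _ 3 _ B B (Finset.Subset.refl B) hB1 x hE
    have hℓM : ¬ ℓ ∣ M * 3 * 2 := fun hd => hℓN (hd.mul_right 3)
    have hℓ₀M : ¬ (ℓ₀ : ℕ) ∣ M * 3 * ℓ * 2 * 3 := by
      intro hd
      have e : M * 3 * ℓ * 2 * 3 = M * 3 * 2 * 3 * ℓ := by ring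
      rw [e] at hd
      rcases (Nat.Prime.dvd_mul ℓ₀.2).mp hd with h | h
      · exact hℓ₀N h
      · exact hℓ₀ℓ ((Nat.prime_dvd_prime_iff_eq ℓ₀.2 hℓ).mp h)
    have hfin := s59b_fin32 (M * 3) h2M3 (dvd_mul_left 3 M) A hAq L hunrL
      (s36p_pull (s36p_dvd_top M (M * 3) 2 (dvd_mul_right M 3)) x) hE'.1
      (fun σ' hσ' => by rw [← s36p_pull_smul, hfix σ' (hL1 σ' hσ')]) ℓ hℓ hℓ3 hℓM (W.apOfModel ℓ)
      (hE'.2 ⟨ℓ, hℓ⟩ hℓB) hpa ℓ₀ (W.apOfModel ℓ₀) hℓ₀M (hE'.2 ℓ₀ hℓ₀B) ha₀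
    exact s59nt_geo_aux_of_fin_t3 3 hp2 M 3 Nat.prime_three h3M (by norm_num) h2M
      (dvd_mul_left 3 M) hcop A hAq σ hσ (fun r => W.apOfModel r) B hB1 x hE.1 hE' h2M3 hfin

/-! ### The top wiring -/

set_option maxHeartbeats 1600000 in
/-- **[MP′] at `(p, q) = (3, 2)`, level `M · 2`, `2 ∤ M`** (any `M`). -/
theorem s59b_MP32_at (W : WeierstrassCurve ℤ) (hΔ : W.Δ ≠ 0) (hss : W.IsSemistableModel)
    (hirr : W.ModRepIsIrreducible 3) (M : ℕ) [NeZero M] (h2M : ¬ 2 ∣ M)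
    (hunr : s59_Unr W 3 2) (hres : W.IsResiduallyModularOfLevel 3 (M * 2)) :
    W.IsResiduallyModularOfLevel 3 M := by
  classical
  haveI hpF : Fact (Nat.Prime 3) := ⟨Nat.prime_three⟩
  have hp : (3 : ℕ).Prime := Nat.prime_three
  have hp2 : (3 : ℕ) ≠ 2 := by norm_num
  have hqp : (2 : ℕ) ≠ 3 := by norm_num
  have hq : (2 : ℕ).Prime := Nat.prime_two
  have hOld : s59m_Old := s59m_old
  have hM0 : M ≠ 0 := NeZero.ne M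
  set a : ℕ → ℤ := fun r => W.apOfModel r with ha
  have hprod : M * 3 * 2 * 3 * W.Δ.natAbs ≠ 0 :=
    Nat.mul_ne_zero (Nat.mul_ne_zero (Nat.mul_ne_zero (Nat.mul_ne_zero hM0 (by norm_num))
      (by norm_num)) (by norm_num)) (Int.natAbs_ne_zero.mpr hΔ)
  set B : Finset ℕ := (M * 3 * 2 * 3 * W.Δ.natAbs).primeFactors with hB
  have hB1' : ∀ s : ℕ, s.Prime → s ∣ M * 3 * 2 * 3 → s ∈ B := fun s hs hd =>
    Nat.mem_primeFactors.mpr ⟨hs, hd.mul_right _, hprod⟩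
  have hB1 : ∀ s : ℕ, s.Prime → s ∣ M * 2 * 3 → s ∈ B := fun s hs hd =>
    hB1' s hs (hd.trans ⟨3, by ring⟩)
  have hpB : 3 ∈ B := hB1 3 hp (Dvd.intro_left _ rfl)
  have hNB : ∀ s : ℕ, s.Prime → s ∣ M * 2 → s ∈ B := fun s hs hd => hB1 s hs (hd.mul_right _)
  have hMB : ∀ s : ℕ, s.Prime → s ∣ M → s ∈ B := fun s hs hd => hNB s hs (hd.mul_right _)
  have hΔB : ∀ s : ℕ, s.Prime → (s : ℤ) ∣ W.Δ → s ∈ B := fun s hs hd =>
    Nat.mem_primeFactors.mpr ⟨hs, (Int.natCast_dvd.mp hd).mul_left _, hprod⟩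
  have hBmem : ∀ r : ℕ, r ∈ B → r ∣ M ∨ r = 2 ∨ r = 3 ∨ (r : ℤ) ∣ W.Δ := by
    intro r hmem
    have hr := (Nat.mem_primeFactors.mp hmem).1
    have hd := (Nat.mem_primeFactors.mp hmem).2.1
    rcases (Nat.Prime.dvd_mul hr).mp hd with h | h
    · rcases (Nat.Prime.dvd_mul hr).mp h with h | h
      · rcases (Nat.Prime.dvd_mul hr).mp h with h | h
        · rcases (Nat.Prime.dvd_mul hr).mp h with h | h
          · exact Or.inl h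
          · exact Or.inr (Or.inr (Or.inl ((Nat.prime_dvd_prime_iff_eq hr hp).mp h)))
        · exact Or.inr (Or.inl ((Nat.prime_dvd_prime_iff_eq hr hq).mp h))
      · exact Or.inr (Or.inr (Or.inl ((Nat.prime_dvd_prime_iff_eq hr hp).mp h)))
    · exact Or.inr (Or.inr (Or.inr (Int.natCast_dvd.mpr h)))
  have hBout : ∀ r : ℕ, r.Prime → r ∉ B →
      W.IsGoodPrimeFor r ∧ ¬ r ∣ M * 2 ∧ r ≠ 3 := by
    intro r hr hrB
    refine ⟨fun hbad => hrB (hΔB r hr hbad), fun hd => hrB (hNB r hr hd), ?_⟩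
    rintro rfl
    exact hrB hpB
  -- the auxiliary prime `ℓ ≡ 2 (mod 3)` with `3 ∤ a_ℓ`
  obtain ⟨ℓ, hℓ, hℓB, hℓ3, -, hℓa⟩ := s59b_R3 hΔ hss hirr B
  -- a non-Eisenstein prime outside `B ∪ {ℓ}`
  obtain ⟨ℓ₁, hℓ₁, hℓ₁B, -, hℓ₁E⟩ := s59m_nonEis hΔ hp2 hirr (insert ℓ B)
  have hℓ₁B' : ℓ₁ ∉ B := fun hm => hℓ₁B (Finset.mem_insert_of_mem hm)
  have hℓ₁ℓ : ℓ₁ ≠ ℓ := fun he => hℓ₁B (he ▸ Finset.mem_insert_self ℓ B)
  obtain ⟨f, 𝔪, hf, hmax, hpm, hcong⟩ := hres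
  have hocc : s44i_LevelOcc (M * 2) 3 a B :=
    ⟨f, 𝔪, hf, hmax, hpm, fun r hr hrB =>
      hcong r hr (hBout r hr hrB).1 (hBout r hr hrB).2.1 (hBout r hr hrB).2.2⟩
  rcases s59nt_MP_core_B hOld hp2 W hΔ (s59m_irr_Wp W hirr) M 2 hq h2M hqp B hB1 hΔB
    (fun A hA σ hσ x hE hfix => s59b_geo32 W hΔ M h2M B hB1' ℓ hℓ hℓB hℓ3 hℓa ⟨ℓ₁, hℓ₁⟩ hℓ₁B'
      hℓ₁ℓ hℓ₁E A hA σ hσ
      (fun τ hτ => s59m_inertia_mem_H' W 3 2 hq hqp hunr A hA τ hτ) x hE hfix) hocc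
    with hM | h
  swap
  · exfalso
    have := Nat.le_of_dvd (by norm_num) h.1
    omega
  -- erase `2` (if `W` is good at `2`)
  obtain ⟨B₁, hB₁sub, hqB₁, hocc₁⟩ : ∃ B₁ : Finset ℕ, B₁ ⊆ B ∧
      (W.IsGoodPrimeFor 2 → 2 ∉ B₁) ∧ s44i_LevelOcc M 3 a B₁ := by
    by_cases hgood : W.IsGoodPrimeFor 2
    · exact ⟨B.erase 2, Finset.erase_subset _ _, fun _ => Finset.notMem_erase 2 B,
        s59nt_occ_erase hOld hp2 W hΔ M B hpB hMB hΔB 2 hq h2M hqp hgood hM⟩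
    · exact ⟨B, Finset.Subset.refl B, fun h => absurd h hgood, hM⟩
  obtain ⟨g, 𝔪', hg, hmax', hpm', hc⟩ := hocc₁
  refine ⟨g, 𝔪', hg, hmax', hpm', fun r hr hgoodr hrM hrp => hc r hr fun hmem => ?_⟩
  rcases hBmem r (hB₁sub hmem) with h | h | h | h
  · exact hrM h
  · subst h
    exact hqB₁ hgoodr hmem
  · exact hrp h
  · exact hgoodr h

/-- **[MP32]**: Mazur's principle at `(p, q) = (3, 2)` — helper1's node `s59g_MP32` (`Graph3W.lean`) verbatim, with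
`s59g_Inv2T W 3 M` unfolded (`0 < M ∧ Squarefree M ∧ (3 ∣ M → ¬ s59g_Peu W 3)`; only the first two items are used). -/
theorem s59b_MP32 :
    ∀ (W : WeierstrassCurve ℤ), W.Δ ≠ 0 → W.IsSemistableModel →
      W.ModRepIsIrreducible 3 → ∀ (M : ℕ),
      (0 < M ∧ Squarefree M ∧
        (3 ∣ M → ¬ (W.map (Int.castRingHom ℚ)).IsPeuRamifieeAt 3 3)) → 2 ∣ M → s59_Unr W 3 2 →
      W.IsResiduallyModularOfLevel 3 M → W.IsResiduallyModularOfLevel 3 (M / 2) := by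
  intro W hΔ hss hirr M₀ hinv h2M₀ hunr hres
  obtain ⟨M, rfl⟩ : ∃ M, M₀ = M * 2 := ⟨M₀ / 2, (Nat.div_mul_cancel h2M₀).symm⟩
  rw [Nat.mul_div_cancel _ (by norm_num : 0 < 2)]
  have hM0 : M ≠ 0 := by
    rintro rfl
    exact absurd hinv.1 (by simp)
  haveI : NeZero M := ⟨hM0⟩
  have h2M : ¬ 2 ∣ M := by
    rintro ⟨k, rfl⟩
    have h1 : 2 * 2 ∣ 2 * k * 2 := ⟨k, by ring⟩
    exact absurd (Nat.isUnit_iff.mp (hinv.2.1 2 h1)) (by norm_num)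
  exact s59b_MP32_at W hΔ hss hirr M h2M hunr hres

end

end Fermat.Agent.Lib.S59
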