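/-
PROGRAMME (R2) = S59, node **[MRP_W] at `p = 3`** (helper2, prefix `s59b_`), file 1: **THE BASE OF THE `t₂`-PORT OF THE S44
LIBRARY.**

* `s59b_tF K₀ N`     : THE function of level `N` with `q`-expansion `t₂` (`0` if there is none) — the twin of `s18g_jF`;
* `s59b_tF_coe`      : its `q`-expansion, `2 ∣ N`, in the presence of a Gauss datum of odd residue characteristic;
* `s59b_tF_eq`       : every function with `q`-expansion `t₂` IS `s59b_tF`;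
* `s59b_base`        : helper6's package `s34m_base_t2` for `s59b_tF K₀ M` and `s59b_tF K₀ (M * q)`;
* **`s59b_datumT`**  : THE Σ-DATUM OF `X_0(M p)`, `p = 3`, `2 ∣ M`, on the chart `{t regular}` — the concrete twin of
                       `s33s_datum_five` (`SSFive.lean`; body = helper9's `s33k_sd_exists_datum_three`);
  `s59b_datumT_Ci/_Cz/_N` (`rfl`).
-/
import Fermat.Agent.Lib.S33.KumPSsDatumT

set_option autoImplicit false
set_option linter.unusedSectionVars false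
set_option linter.style.haveILetI false

noncomputable section

namespace Fermat.Agent.Lib.S59

open ModularCurve AlgebraicCurve HahnSeries Polynomial Fermat.Agent.Lib.FF Fermat.Agent.Lib.S18
  Fermat.Agent.Lib.S34 Fermat.Agent.Lib.S37 Fermat.Agent.Lib.S33

local notation "Kb" => AlgebraicClosure ℚ

/-! ### The canonical coordinate -/

section Coord

open Classical in
/-- **THE function of level `N` with `q`-expansion `t₂`** (`0` if `t₂ ∉ 𝓕_N`). -/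
def s59b_tF (K₀ : Type*) [Field K₀] [Algebra ℚ K₀] (N : ℕ) [NeZero N] : s34m_F K₀ N :=
  if h : s18u_t2 K₀ ∈ laurentBaseChange K₀ (modularFunctionFieldFull N) then ⟨s18u_t2 K₀, h⟩ else 0

theorem s59b_tF_coe_of_mem {K₀ : Type*} [Field K₀] [Algebra ℚ K₀] (N : ℕ) [NeZero N]
    (h : s18u_t2 K₀ ∈ laurentBaseChange K₀ (modularFunctionFieldFull N)) :
    ((s59b_tF K₀ N : s34m_F K₀ N) : LaurentSeries K₀) = s18u_t2 K₀ := by
  rw [s59b_tF, dif_pos h]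

/-- every function with `q`-expansion `t₂` is `s59b_tF`. -/
theorem s59b_tF_eq {K₀ : Type*} [Field K₀] [Algebra ℚ K₀] (N : ℕ) [NeZero N] (t : s34m_F K₀ N)
    (ht : (t : LaurentSeries K₀) = s18u_t2 K₀) : t = s59b_tF K₀ N := by
  have h : s18u_t2 K₀ ∈ laurentBaseChange K₀ (modularFunctionFieldFull N) := ht ▸ t.2
  exact Subtype.ext (ht.trans (s59b_tF_coe_of_mem N h).symm)

variable {K₀ : Type*} [Field K₀] [Algebra ℚ K₀] {κ : Type*} [Field κ] (G : s18g_GaussData K₀ κ)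
variable (φ : K₀ →+* Kb) (q : ℕ) [NeZero q] [CharP κ q]

include G φ in
/-- `t₂ ∈ 𝓕_N` for `2 ∣ N` (a Gauss datum of odd residue characteristic is around). -/
theorem s59b_t2_mem (hq : q.Prime) (hq2 : q ≠ 2) (N : ℕ) [NeZero N] (h2N : 2 ∣ N) :
    s18u_t2 K₀ ∈ laurentBaseChange K₀ (modularFunctionFieldFull N) := by
  have hq2' : ¬ q ∣ 2 := fun h => hq2 ((Nat.prime_dvd_prime_iff_eq hq Nat.prime_two).mp h)
  exact s18b_t2_mem_baseChange G (s34m_top_HT 2 q hq hq2') (s34m_top_HDegM φ 2) N h2N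

include G φ in
theorem s59b_tF_coe (hq : q.Prime) (hq2 : q ≠ 2) (N : ℕ) [NeZero N] (h2N : 2 ∣ N) :
    ((s59b_tF K₀ N : s34m_F K₀ N) : LaurentSeries K₀) = s18u_t2 K₀ :=
  s59b_tF_coe_of_mem N (s59b_t2_mem G φ q hq hq2 N h2N)

end Coord

/-! ### helper6's package for the canonical coordinate -/

section Pack

variable {K₀ : Type*} [Field K₀] [Algebra ℚ K₀] {κ : Type*} [Field κ] (G : s18g_GaussData K₀ κ)
variable (φ : K₀ →+* Kb) (M q : ℕ) [NeZero M] [NeZero q]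
variable (hq : q.Prime) (hqM : ¬ q ∣ M)
variable [CharP κ q] [CharZero K₀] [IsDiscreteValuationRing ↥G.A]

include G φ hq in
/-- `α t_M = t_{M q}`. -/
theorem s59b_alpha_tF (h2M : 2 ∣ M) (hq2 : q ≠ 2) :
    heckeAlphaBar K₀ M q (s59b_tF K₀ M) = s59b_tF K₀ (M * q) := by
  apply Subtype.ext
  rw [coe_heckeAlphaBar, s59b_tF_coe G φ q hq hq2 M h2M,
    s59b_tF_coe G φ q hq hq2 (M * q) (Dvd.dvd.mul_right h2M q)]

include hq hqM in
/-- **helper6's package `s34m_base_t2` for the canonical coordinate.** -/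
theorem s59b_base (h2M : 2 ∣ M) (hq2 : q ≠ 2) :
    ((s59b_tF K₀ M : s34m_F K₀ M) : LaurentSeries K₀) = s18u_t2 K₀ ∧
      (∃ hw : s59b_tF K₀ M ∈ s34m_Vinf G M,
        s18g_redV G _ (s34m_hF G M) ⟨s59b_tF K₀ M, hw⟩ = s18u_t2 κ) ∧
      (s59b_tF K₀ M)⁻¹ ∈ s34m_Vinf G M ∧ FFGen K₀ (s59b_tF K₀ M) ∧ FFGen K₀ (s59b_tF K₀ M)⁻¹ ∧
      ((s59b_tF K₀ (M * q) : s34m_F K₀ (M * q)) : LaurentSeries K₀) = s18u_t2 K₀ ∧
      s59b_tF K₀ (M * q) ≠ 0 ∧ FFGen K₀ (s59b_tF K₀ (M * q)) ∧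
      (∀ i, s59b_tF K₀ (M * q) ∈ s34m_VV G φ M q hq hqM i) ∧
      (∀ i, (s59b_tF K₀ (M * q))⁻¹ ∈ s34m_VV G φ M q hq hqM i) ∧
      (∀ σ₀ : K₀ ≃ₐ[ℚ] K₀, arithmeticGalois (modularFunctionFieldFull (M * q)) σ₀ •
        s59b_tF K₀ (M * q) = s59b_tF K₀ (M * q)) ∧
      s34f_AlphaW G φ M q hq hqM (s59b_tF K₀ (M * q)) ∧
      s34f_AlphaW G φ M q hq hqM (s59b_tF K₀ (M * q))⁻¹ := by
  obtain ⟨tM, htM, h1, h2, h3, h4, h5, h6, h7, h8, h9, h10, h11, h12⟩ :=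
    s34m_base_t2 G φ M q hq hqM h2M hq2
  have e1 : tM = s59b_tF K₀ M := s59b_tF_eq M tM htM
  have e2 : heckeAlphaBar K₀ M q tM = s59b_tF K₀ (M * q) := s59b_tF_eq (M * q) _ h5
  rw [e2] at h5 h6 h7 h8 h9 h10 h11 h12
  subst e1
  exact ⟨htM, h1, h2, h3, h4, h5, h6, h7, h8, h9, h10, h11, h12⟩

end Pack

/-! ### The Σ-datum -/

section Three

/-- **THE Σ-DATUM OF `X_0(M p)`, `p = 3`, `2 ∣ M`** (chart `{t regular}`): the concrete twin of `s33s_datum_five`. -/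
def s59b_datumT (M p : ℕ) [NeZero M] [hp : Fact p.Prime] (hpM : ¬ p ∣ M)
    (hp3 : p = 3) (h2M : 2 ∣ M)
    (K₀ : Type) [Field K₀] [NumberField K₀] (φ : K₀ →+* Kb)
    (κ : Type) [Field κ] [CharP κ p] [PerfectField κ]
    (G : s18g_GaussData K₀ κ) [IsDiscreteValuationRing G.A]
    (hdeg : s34m_HDeg K₀ M p) (hT : s18g_HT κ M) (hdegM : s18g_HDeg K₀ M)
    (hπ : Function.Surjective G.π)
    (e : ℕ) (ε : K₀) (he : 0 < e) (hε : ε ∈ G.A) (hεinv : ε⁻¹ ∈ G.A) (hε0 : ε ≠ 0)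
    (hpe : (p : K₀) = ε * ((G.ϖ : G.A) : K₀) ^ e) (hperf : ∀ c : κ, ∃ d : κ, d ^ p = c) :
    s33z_Datum (s33i_datum G M hT hdegM hπ p e ε hp.out he hε hεinv hε0 hpe hperf)
      (s34m_F K₀ (M * p))
      (s33s_Node (s34m_VV G φ M p hp.out hpM) (s34m_unif G (M * p))
        (s18_chart1 (L₀ := K₀) (s59b_tF K₀ (M * p))))
      (s33s_kG G φ M p hpM (s18_chart1 (L₀ := K₀) (s59b_tF K₀ (M * p))) hπ) :=
  haveI : NeZero p := ⟨hp.out.ne_zero⟩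
  have hp2 : p ≠ 2 := by omega
  have hb := s59b_base G φ M p hp.out hpM h2M hp2
  haveI : FFGen K₀ (s18g_jF (K := K₀) (M * p)) :=
    s18b_ffGen_jF (M * p) (fun _ b hb hn => s18g_exists_relation (M * p) φ hn b hb)
  haveI : FFGen K₀ (s59b_tF K₀ M) := hb.2.2.2.1
  haveI : FFGen K₀ (s59b_tF K₀ (M * p)) := hb.2.2.2.2.2.2.2.1
  have hFM : ∀ f ∈ laurentBaseChange K₀ (modularFunctionFieldFull M), f ∈ s18g_Frac G :=
    fun _ hf => s18g_baseChange_mem_Frac G M hf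
  have hwV : s59b_tF K₀ M ∈ s34m_Vinf G M := hb.2.1.choose
  have hred' : ((s18g_redF G M hFM hT hdegM ⟨s59b_tF K₀ M, hwV⟩ :
      ↥(modularFunctionFieldFullC κ M)) : LaurentSeries κ) = s18u_t2 κ := hb.2.1.choose_spec
  have hwN : heckeAlphaBar K₀ M p (s59b_tF K₀ M) = s59b_tF K₀ (M * p) :=
    s59b_alpha_tF G φ M p hp.out h2M hp2
  have htM0 : s59b_tF K₀ M ≠ 0 := by
    intro h0
    apply s18b_t2_ne_zero K₀
    rw [← hb.1, h0]; rfl
  have hclaim : ∀ P : Place K₀ (s34m_F K₀ (M * p)),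
      (0 ≤ P.ord (s59b_tF K₀ (M * p)) → 0 ≤ P.ord (heckeBetaBar K₀ M p (s59b_tF K₀ M))) ∧
      (P.ord (s59b_tF K₀ (M * p)) ≤ 0 → P.ord (heckeBetaBar K₀ M p (s59b_tF K₀ M)) ≤ 0) := by
    intro P
    rw [← hwN]
    exact s34e_cusp_hclaim_t2 G φ M p hp.out hpM hp2 (s59b_tF K₀ M) hb.1 P
  s33s_datumW G φ M p hpM hdeg hT hdegM hπ e ε he hε hεinv hε0 hpe hperf (s59b_tF K₀ M) hwV
    (by rw [hred']; exact s37b_coord_t2 κ p)
    (by intro τ; rw [hred']; exact s18u_coeffMap_t2 _)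
    (s34dt_hmain_t2 M p hpM K₀ φ κ G hπ hT hdegM hp3 h2M (s59b_tF K₀ M) hb.1)
    (s59b_tF K₀ (M * p)) hwN hb.2.2.2.2.2.2.2.2.2.2.2.1
    (s34e_ch_alpha₁' G φ M p hp.out hpM (s59b_tF K₀ M) (s59b_tF K₀ (M * p)) hwN)
    (s34e_ch_beta₁' G φ M p hp.out hpM htM0 (s59b_tF K₀ (M * p)) hwN hclaim)
    (s33k_sd_exists_node_t2 G φ M p hp.out hpM h2M hp2 (s59b_tF K₀ (M * p))
      hb.2.2.2.2.2.1)

end Three

section ThreeAPI

variable (M p : ℕ) [NeZero M] [hp : Fact p.Prime] (hpM : ¬ p ∣ M) (hp3 : p = 3) (h2M : 2 ∣ M)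
  (K₀ : Type) [Field K₀] [NumberField K₀] (φ : K₀ →+* Kb)
  (κ : Type) [Field κ] [CharP κ p] [PerfectField κ]
  (G : s18g_GaussData K₀ κ) [IsDiscreteValuationRing G.A]
  (hdeg : s34m_HDeg K₀ M p) (hT : s18g_HT κ M) (hdegM : s18g_HDeg K₀ M)
  (hπ : Function.Surjective G.π)
  (e : ℕ) (ε : K₀) (he : 0 < e) (hε : ε ∈ G.A) (hεinv : ε⁻¹ ∈ G.A) (hε0 : ε ≠ 0)
  (hpe : (p : K₀) = ε * ((G.ϖ : G.A) : K₀) ^ e) (hperf : ∀ c : κ, ∃ d : κ, d ^ p = c)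

theorem s59b_datumT_Ci :
    (s59b_datumT M p hpM hp3 h2M K₀ φ κ G hdeg hT hdegM hπ e ε he hε hεinv hε0 hpe hperf).Ci =
      s33y_Ci G φ M p hpM hdeg hT hdegM hπ e ε he hε hεinv hε0 hpe hperf := rfl

theorem s59b_datumT_Cz :
    (s59b_datumT M p hpM hp3 h2M K₀ φ κ G hdeg hT hdegM hπ e ε he hε hεinv hε0 hpe hperf).Cz =
      s33y_Cz G φ M p hpM hdeg hT hdegM hπ e ε he hε hεinv hε0 hpe hperf := rfl

theorem s59b_datumT_N :
    (s59b_datumT M p hpM hp3 h2M K₀ φ κ G hdeg hT hdegM hπ e ε he hε hεinv hε0 hpe hperf).N =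
      s33s_nodePlaces (s34m_VV G φ M p hp.out hpM) (s34m_unif G (M * p))
        (s18_chart1 (L₀ := K₀) (s59b_tF K₀ (M * p))) := rfl

end ThreeAPI

end Fermat.Agent.Lib.S59
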