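/-
PROGRAMME (R2) = S59, node **[MRP_W] at `p = 3`** (helper2, prefix `s59b_`), file 4: **(★)-core, INSTANCE SIDE, `p = 3`, `2 ∣ M`**
= the `t₂`-twin of helper4's `Lib/S44/CoreFive.lean`: the hypotheses `s44c_GlueAt`, `s44c_Pts` (×2), `s44c_ConstI`,
`s44c_ConstZ` of `s44c_slope_const` / `s44c_slope_core` for the Σ-datum `s59b_datumT` of `X_0(M p)`.

* `s59b_c_*`         : the chart inputs of `CoreInstW` for `w = t_M` (chart `{t regular}`) and `w = t_M⁻¹`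
                       (chart `{1 / t regular}`), as lemmas;
* `s59b_three_Ns s`  : the places of the chart `{t regular}` through the node `s`;
* `s59b_three_Xi`, `s59b_three_Xz` : the closed points of the two components outside the nodes (both charts), with [REG];
* `s59b_three_glueAt` : per-node [GLUE];
* `s59b_three_constI`, `s59b_three_constZ` : "regular everywhere on the complete component ⇒ constant".
-/
import Fermat.Agent.Lib.S44.CoreFive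
import Fermat.Agent.Lib.S59.B3Base

set_option autoImplicit false
set_option linter.unusedSectionVars false
set_option linter.style.haveILetI false

noncomputable section

namespace Fermat.Agent.Lib.S59

open ModularCurve AlgebraicCurve HahnSeries Polynomial Fermat.Agent.Lib.FF Fermat.Agent.Lib.S18
  Fermat.Agent.Lib.S34 Fermat.Agent.Lib.S37 Fermat.Agent.Lib.S33 Fermat.Agent.Lib.S44

local notation "Kb" => AlgebraicClosure ℚ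

section Three

variable (M p : ℕ) [NeZero M] [hp : Fact p.Prime] (hpM : ¬ p ∣ M) (hp3 : p = 3) (h2M : 2 ∣ M)
  (K₀ : Type) [Field K₀] [NumberField K₀] (φ : K₀ →+* Kb)
  (κ : Type) [Field κ] [CharP κ p] [PerfectField κ]
  (G : s18g_GaussData K₀ κ) [IsDiscreteValuationRing G.A]
  (hdeg : s34m_HDeg K₀ M p) (hT : s18g_HT κ M) (hdegM : s18g_HDeg K₀ M)
  (hπ : Function.Surjective G.π)
  (e : ℕ) (ε : K₀) (he : 0 < e) (hε : ε ∈ G.A) (hεinv : ε⁻¹ ∈ G.A) (hε0 : ε ≠ 0)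
  (hpe : (p : K₀) = ε * ((G.ϖ : G.A) : K₀) ^ e) (hperf : ∀ c : κ, ∃ d : κ, d ^ p = c)

local notation "hFM" => (fun (f : LaurentSeries K₀)
  (hf : f ∈ laurentBaseChange K₀ (modularFunctionFieldFull M)) => s18g_baseChange_mem_Frac G M hf)
local notation "FbM" => modularFunctionFieldFullC κ M
local notation "OO" => s34m_VV G φ M p hp.out hpM
local notation "ϖF" => s34m_unif G (M * p)
local notation "tM" => s59b_tF K₀ M
local notation "tN" => s59b_tF K₀ (M * p)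
local notation "S₁" => s18_chart1 (L₀ := K₀) (s59b_tF K₀ (M * p))
local notation "S₂" => s18_chart1 (L₀ := K₀) (s59b_tF K₀ (M * p))⁻¹

/-! ### The chart inputs -/

include hp3 in
theorem s59b_c_hp2 : p ≠ 2 := by omega

include hpM hp3 h2M φ G in
/-- the package of `B3Base` in the present notation. -/
theorem s59b_c_base :
    ((s59b_tF K₀ M : s34m_F K₀ M) : LaurentSeries K₀) = s18u_t2 K₀ ∧
      (∃ hw : s59b_tF K₀ M ∈ s34m_Vinf G M,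
        s18g_redV G _ (s34m_hF G M) ⟨s59b_tF K₀ M, hw⟩ = s18u_t2 κ) ∧
      (s59b_tF K₀ M)⁻¹ ∈ s34m_Vinf G M ∧ FFGen K₀ (s59b_tF K₀ M) ∧ FFGen K₀ (s59b_tF K₀ M)⁻¹ ∧
      ((s59b_tF K₀ (M * p) : s34m_F K₀ (M * p)) : LaurentSeries K₀) = s18u_t2 K₀ ∧
      s59b_tF K₀ (M * p) ≠ 0 ∧ FFGen K₀ (s59b_tF K₀ (M * p)) ∧
      (∀ i, s59b_tF K₀ (M * p) ∈ s34m_VV G φ M p hp.out hpM i) ∧
      (∀ i, (s59b_tF K₀ (M * p))⁻¹ ∈ s34m_VV G φ M p hp.out hpM i) ∧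
      (∀ σ₀ : K₀ ≃ₐ[ℚ] K₀, arithmeticGalois (modularFunctionFieldFull (M * p)) σ₀ •
        s59b_tF K₀ (M * p) = s59b_tF K₀ (M * p)) ∧
      s34f_AlphaW G φ M p hp.out hpM (s59b_tF K₀ (M * p)) ∧
      s34f_AlphaW G φ M p hp.out hpM (s59b_tF K₀ (M * p))⁻¹ :=
  haveI : NeZero p := ⟨hp.out.ne_zero⟩
  s59b_base G φ M p hp.out hpM h2M (s59b_c_hp2 p hp3)

include hpM hp3 h2M φ G in
theorem s59b_c_coeM : ((tM : s34m_F K₀ M) : LaurentSeries K₀) = s18u_t2 K₀ :=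
  (s59b_c_base M p hpM hp3 h2M K₀ φ κ G).1

include hpM hp3 h2M φ G in
theorem s59b_c_coeN : ((tN : s34m_F K₀ (M * p)) : LaurentSeries K₀) = s18u_t2 K₀ :=
  (s59b_c_base M p hpM hp3 h2M K₀ φ κ G).2.2.2.2.2.1

include hpM hp3 h2M φ G in
theorem s59b_c_hwV : tM ∈ s18g_V G (laurentBaseChange K₀ (modularFunctionFieldFull M)) hFM :=
  (s59b_c_base M p hpM hp3 h2M K₀ φ κ G).2.1.choose

include hpM hp3 h2M φ G in
theorem s59b_c_hwinvV :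
    tM⁻¹ ∈ s18g_V G (laurentBaseChange K₀ (modularFunctionFieldFull M)) hFM :=
  (s59b_c_base M p hpM hp3 h2M K₀ φ κ G).2.2.1

include hpM hp3 h2M φ G in
theorem s59b_c_tM_ne_zero : tM ≠ 0 := by
  intro h0
  apply s18b_t2_ne_zero K₀
  rw [← s59b_c_coeM M p hpM hp3 h2M K₀ φ κ G, h0]; rfl

include hpM hp3 h2M φ G in
theorem s59b_c_tN_ne_zero : tN ≠ 0 :=
  (s59b_c_base M p hpM hp3 h2M K₀ φ κ G).2.2.2.2.2.2.1

include hpM hp3 h2M φ G in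
theorem s59b_c_ffGenM : FFGen K₀ tM := (s59b_c_base M p hpM hp3 h2M K₀ φ κ G).2.2.2.1

include hpM hp3 h2M φ G in
theorem s59b_c_ffGenMinv : FFGen K₀ tM⁻¹ := (s59b_c_base M p hpM hp3 h2M K₀ φ κ G).2.2.2.2.1

include hpM hp3 h2M φ G in
theorem s59b_c_ffGen1 : FFGen K₀ tN := (s59b_c_base M p hpM hp3 h2M K₀ φ κ G).2.2.2.2.2.2.2.1

include hpM hp3 h2M φ G in
theorem s59b_c_ffGen2 : FFGen K₀ tN⁻¹ :=
  haveI := s59b_c_ffGen1 M p hpM hp3 h2M K₀ φ κ G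
  ff_gen_inv

include φ in
theorem s59b_c_ffGenJ : FFGen K₀ (s18g_jF (K := K₀) (M * p)) :=
  s18b_ffGen_jF (M * p) (fun _ b hb hn => s18g_exists_relation (M * p) φ hn b hb)

include hpM hp3 h2M φ G in
/-- the reduction of `t`. -/
theorem s59b_c_hred1 :
    ((s18g_redF G M hFM hT hdegM ⟨tM, s59b_c_hwV M p hpM hp3 h2M K₀ φ κ G⟩ : ↥FbM) :
      LaurentSeries κ) = s18u_t2 κ :=
  (s59b_c_base M p hpM hp3 h2M K₀ φ κ G).2.1.choose_spec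

include hpM hp3 h2M φ G in
/-- the reduction of `1 / t`. -/
theorem s59b_c_hred2 :
    ((s18g_redF G M hFM hT hdegM ⟨tM⁻¹, s59b_c_hwinvV M p hpM hp3 h2M K₀ φ κ G⟩ : ↥FbM) :
      LaurentSeries κ) = (s18u_t2 κ)⁻¹ := by
  rw [s18f_redF_inv G M hT hdegM _ (s59b_c_tM_ne_zero M p hpM hp3 h2M K₀ φ κ G)
    (s59b_c_hwV M p hpM hp3 h2M K₀ φ κ G),
    IntermediateField.coe_inv, s59b_c_hred1 M p hpM hp3 h2M K₀ φ κ G hT hdegM]

include hpM hp3 h2M φ G in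
theorem s59b_c_hwN : heckeAlphaBar K₀ M p tM = tN :=
  haveI : NeZero p := ⟨hp.out.ne_zero⟩
  s59b_alpha_tF G φ M p hp.out h2M (s59b_c_hp2 p hp3)

include hpM hp3 h2M φ G in
theorem s59b_c_hwN2 : heckeAlphaBar K₀ M p tM⁻¹ = tN⁻¹ := by
  rw [map_inv₀, s59b_c_hwN M p hpM hp3 h2M K₀ φ κ G]

include hpM hp3 h2M φ G in
theorem s59b_c_alphaW1 : s34f_AlphaW G φ M p hp.out hpM tN :=
  (s59b_c_base M p hpM hp3 h2M K₀ φ κ G).2.2.2.2.2.2.2.2.2.2.2.1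

include hpM hp3 h2M φ G in
theorem s59b_c_alphaW2 : s34f_AlphaW G φ M p hp.out hpM tN⁻¹ :=
  (s59b_c_base M p hpM hp3 h2M K₀ φ κ G).2.2.2.2.2.2.2.2.2.2.2.2

include hpM hp3 h2M φ G in
theorem s59b_c_tN_mem_VV (i : Bool) : tN ∈ OO i :=
  (s59b_c_base M p hpM hp3 h2M K₀ φ κ G).2.2.2.2.2.2.2.2.1 i

include hpM hp3 h2M φ G in
theorem s59b_c_tN_inv_mem_VV (i : Bool) : tN⁻¹ ∈ OO i :=
  (s59b_c_base M p hpM hp3 h2M K₀ φ κ G).2.2.2.2.2.2.2.2.2.1 i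

include hpM hp3 h2M φ G in
theorem s59b_c_tN_inv_mem_O : tN⁻¹ ∈ s34x_infRing OO :=
  (s34x_mem_infRing _ _).mpr (s59b_c_tN_inv_mem_VV M p hpM hp3 h2M K₀ φ κ G)

include hpM hp3 h2M φ G in
theorem s59b_c_tN_mem_O : tN ∈ s34x_infRing OO :=
  (s34x_mem_infRing _ _).mpr (s59b_c_tN_mem_VV M p hpM hp3 h2M K₀ φ κ G)

include hpM hp3 h2M φ G in
/-- CLAIM 1 (cusps) for `t`. -/
theorem s59b_c_hclaim : ∀ P : Place K₀ (s34m_F K₀ (M * p)),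
    (0 ≤ P.ord tN → 0 ≤ P.ord (heckeBetaBar K₀ M p tM)) ∧
    (P.ord tN ≤ 0 → P.ord (heckeBetaBar K₀ M p tM) ≤ 0) := by
  haveI : NeZero p := ⟨hp.out.ne_zero⟩
  intro P
  rw [← s59b_c_hwN M p hpM hp3 h2M K₀ φ κ G]
  exact s34e_cusp_hclaim_t2 G φ M p hp.out hpM (s59b_c_hp2 p hp3) tM
    (s59b_c_coeM M p hpM hp3 h2M K₀ φ κ G) P

include hpM hp3 h2M φ G in
theorem s59b_c_coord1 : s37b_Coord κ p
    ((s18g_redF G M hFM hT hdegM ⟨tM, s59b_c_hwV M p hpM hp3 h2M K₀ φ κ G⟩ : ↥FbM) :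
      LaurentSeries κ) := by
  rw [s59b_c_hred1 M p hpM hp3 h2M K₀ φ κ G hT hdegM]; exact s37b_coord_t2 κ p

include hpM hp3 h2M φ G in
theorem s59b_c_coord2 : s37b_Coord κ p
    ((s18g_redF G M hFM hT hdegM ⟨tM⁻¹, s59b_c_hwinvV M p hpM hp3 h2M K₀ φ κ G⟩ : ↥FbM) :
      LaurentSeries κ) := by
  rw [s59b_c_hred2 M p hpM hp3 h2M K₀ φ κ G hT hdegM]; exact s37b_coord_inv (s37b_coord_t2 κ p)

include hpM hp3 h2M φ G in
theorem s59b_c_tw1 : ∀ τ : κ ≃+* κ, ModularCurve.coeffMap (τ : κ →+* κ)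
    ((s18g_redF G M hFM hT hdegM ⟨tM, s59b_c_hwV M p hpM hp3 h2M K₀ φ κ G⟩ : ↥FbM) :
      LaurentSeries κ) =
    ((s18g_redF G M hFM hT hdegM ⟨tM, s59b_c_hwV M p hpM hp3 h2M K₀ φ κ G⟩ : ↥FbM) :
      LaurentSeries κ) := by
  intro τ; rw [s59b_c_hred1 M p hpM hp3 h2M K₀ φ κ G hT hdegM]; exact s18u_coeffMap_t2 _

include hpM hp3 h2M φ G in
theorem s59b_c_tw2 : ∀ τ : κ ≃+* κ, ModularCurve.coeffMap (τ : κ →+* κ)
    ((s18g_redF G M hFM hT hdegM ⟨tM⁻¹, s59b_c_hwinvV M p hpM hp3 h2M K₀ φ κ G⟩ : ↥FbM) :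
      LaurentSeries κ) =
    ((s18g_redF G M hFM hT hdegM ⟨tM⁻¹, s59b_c_hwinvV M p hpM hp3 h2M K₀ φ κ G⟩ : ↥FbM) :
      LaurentSeries κ) := by
  intro τ; rw [s59b_c_hred2 M p hpM hp3 h2M K₀ φ κ G hT hdegM, map_inv₀, s18u_coeffMap_t2]

include hpM hp3 h2M φ G hπ in
theorem s59b_c_hmain1 :
    letI := s18f_algF G M hT hdegM tM (s59b_c_hwV M p hpM hp3 h2M K₀ φ κ G)
    ∀ z : ↥(modularFunctionFieldFullC κ M), IsIntegral κ[X] z →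
      ∃ (b : ↥(laurentBaseChange K₀ (modularFunctionFieldFull M)))
        (hb : b ∈ s18_ring (L₀ := K₀)
          (s18g_V G (laurentBaseChange K₀ (modularFunctionFieldFull M)) hFM) (s18_chart1 tM)),
        s18g_redF G M hFM hT hdegM ⟨b, hb.1⟩ = z :=
  haveI := s59b_c_ffGenM M p hpM hp3 h2M K₀ φ κ G
  s34dt_hmain_t2 M p hpM K₀ φ κ G hπ hT hdegM hp3 h2M tM (s59b_c_coeM M p hpM hp3 h2M K₀ φ κ G)

include hpM hp3 h2M φ G hπ in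
theorem s59b_c_hmain2 :
    letI := s18f_algF G M hT hdegM tM⁻¹ (s59b_c_hwinvV M p hpM hp3 h2M K₀ φ κ G)
    ∀ z : ↥(modularFunctionFieldFullC κ M), IsIntegral κ[X] z →
      ∃ (b : ↥(laurentBaseChange K₀ (modularFunctionFieldFull M)))
        (hb : b ∈ s18_ring (L₀ := K₀)
          (s18g_V G (laurentBaseChange K₀ (modularFunctionFieldFull M)) hFM) (s18_chart1 tM⁻¹)),
        s18g_redF G M hFM hT hdegM ⟨b, hb.1⟩ = z :=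
  haveI := s59b_c_ffGenMinv M p hpM hp3 h2M K₀ φ κ G
  s34dt_hmain_t2_inv M p hpM K₀ φ κ G hπ hT hdegM hp3 h2M tM
    (s59b_c_coeM M p hpM hp3 h2M K₀ φ κ G)

include hpM hp3 h2M φ G in
theorem s59b_c_alphaB1 :
    ∀ g ∈ (s18_ring (L₀ := K₀) (s34m_Vinf G M) (s18_chart1 tM) : Set (s34m_F K₀ M)),
      heckeAlphaBar K₀ M p g ∈ s34x_ring (s34x_infRing OO) S₁ :=
  haveI : NeZero p := ⟨hp.out.ne_zero⟩
  haveI := s59b_c_ffGenJ M p K₀ φ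
  s34e_ch_alpha₁' G φ M p hp.out hpM tM tN (s59b_c_hwN M p hpM hp3 h2M K₀ φ κ G)

include hpM hp3 h2M φ G in
theorem s59b_c_alphaB2 :
    ∀ g ∈ (s18_ring (L₀ := K₀) (s34m_Vinf G M) (s18_chart1 tM⁻¹) : Set (s34m_F K₀ M)),
      heckeAlphaBar K₀ M p g ∈ s34x_ring (s34x_infRing OO) S₂ :=
  haveI : NeZero p := ⟨hp.out.ne_zero⟩
  haveI := s59b_c_ffGenJ M p K₀ φ
  s34e_ch_alpha₂' G φ M p hp.out hpM tM tN (s59b_c_hwN M p hpM hp3 h2M K₀ φ κ G)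

include hpM hp3 h2M φ G in
theorem s59b_c_betaB1 :
    ∀ g ∈ (s18_ring (L₀ := K₀) (s34m_Vinf G M) (s18_chart1 tM) : Set (s34m_F K₀ M)),
      ∃ b' ∈ s34x_ring (s34x_infRing OO) S₁,
      ∃ z, z ∈ s34m_Vinf G (M * p) ∧ z ∈ s34m_Vzero G φ M p hp.out hpM ∧
        b' - heckeBetaBar K₀ M p g = s34m_unif G (M * p) * z :=
  haveI : NeZero p := ⟨hp.out.ne_zero⟩
  haveI := s59b_c_ffGenJ M p K₀ φ
  s34e_ch_beta₁' G φ M p hp.out hpM (s59b_c_tM_ne_zero M p hpM hp3 h2M K₀ φ κ G) tN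
    (s59b_c_hwN M p hpM hp3 h2M K₀ φ κ G) (s59b_c_hclaim M p hpM hp3 h2M K₀ φ κ G)

include hpM hp3 h2M φ G in
theorem s59b_c_betaB2 :
    ∀ g ∈ (s18_ring (L₀ := K₀) (s34m_Vinf G M) (s18_chart1 tM⁻¹) : Set (s34m_F K₀ M)),
      ∃ b' ∈ s34x_ring (s34x_infRing OO) S₂,
      ∃ z, z ∈ s34m_Vinf G (M * p) ∧ z ∈ s34m_Vzero G φ M p hp.out hpM ∧
        b' - heckeBetaBar K₀ M p g = s34m_unif G (M * p) * z :=
  haveI : NeZero p := ⟨hp.out.ne_zero⟩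
  haveI := s59b_c_ffGenJ M p K₀ φ
  s34e_ch_beta₂' G φ M p hp.out hpM (s59b_c_tM_ne_zero M p hpM hp3 h2M K₀ φ κ G) tN
    (s59b_c_hwN M p hpM hp3 h2M K₀ φ κ G) (s59b_c_hclaim M p hpM hp3 h2M K₀ φ κ G)

include hpM hp3 h2M φ G in
/-- [CONN]: the chart `{t regular}` contains a node. -/
theorem s59b_c_hnode : ∃ 𝔫, s33s_IsNode OO ϖF S₁ 𝔫 :=
  haveI : NeZero p := ⟨hp.out.ne_zero⟩
  s33k_sd_exists_node_t2 G φ M p hp.out hpM h2M (s59b_c_hp2 p hp3) tN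
    (s59b_c_coeN M p hpM hp3 h2M K₀ φ κ G)

/-! ### The points, the glueing, the constants -/

/-- **the closed points outside the nodes, `∞`-component, chart `{t regular}`.** -/
def s59b_three_ptsI1 :
    s44c_Pts (s33y_Ci G φ M p hpM hdeg hT hdegM hπ e ε he hε hεinv hε0 hpe hperf)
      (s44c_Pt OO ϖF S₁ true) :=
  haveI := s59b_c_ffGen1 M p hpM hp3 h2M K₀ φ κ G
  s44c_ptsIW G φ M p hpM hdeg hT hdegM hπ e ε he hε hεinv hε0 hpe hperf tM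
    (s59b_c_hwV M p hpM hp3 h2M K₀ φ κ G)
    (s59b_c_coord1 M p hpM hp3 h2M K₀ φ κ G hT hdegM)
    (s59b_c_tw1 M p hpM hp3 h2M K₀ φ κ G hT hdegM)
    (s59b_c_hmain1 M p hpM hp3 h2M K₀ φ κ G hT hdegM hπ)
    tN (s59b_c_hwN M p hpM hp3 h2M K₀ φ κ G)
    (s59b_c_alphaW1 M p hpM hp3 h2M K₀ φ κ G)
    (s59b_c_alphaB1 M p hpM hp3 h2M K₀ φ κ G)
    (s59b_c_betaB1 M p hpM hp3 h2M K₀ φ κ G)

/-- **the closed points outside the nodes, `0`-component, chart `{t regular}`.** -/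
def s59b_three_ptsZ1 :
    s44c_Pts (s33y_Cz G φ M p hpM hdeg hT hdegM hπ e ε he hε hεinv hε0 hpe hperf)
      (s44c_Pt OO ϖF S₁ false) :=
  haveI := s59b_c_ffGen1 M p hpM hp3 h2M K₀ φ κ G
  s44c_ptsZW G φ M p hpM hdeg hT hdegM hπ e ε he hε hεinv hε0 hpe hperf tM
    (s59b_c_hwV M p hpM hp3 h2M K₀ φ κ G)
    (s59b_c_coord1 M p hpM hp3 h2M K₀ φ κ G hT hdegM)
    (s59b_c_tw1 M p hpM hp3 h2M K₀ φ κ G hT hdegM)
    (s59b_c_hmain1 M p hpM hp3 h2M K₀ φ κ G hT hdegM hπ)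
    tN (s59b_c_hwN M p hpM hp3 h2M K₀ φ κ G)
    (s59b_c_alphaW1 M p hpM hp3 h2M K₀ φ κ G)
    (s59b_c_alphaB1 M p hpM hp3 h2M K₀ φ κ G)
    (s59b_c_betaB1 M p hpM hp3 h2M K₀ φ κ G)

/-- **the closed points outside the nodes, `∞`-component, chart `{1 / t regular}`.** -/
def s59b_three_ptsI2 :
    s44c_Pts (s33y_Ci G φ M p hpM hdeg hT hdegM hπ e ε he hε hεinv hε0 hpe hperf)
      (s44c_Pt OO ϖF S₂ true) :=
  haveI := s59b_c_ffGen2 M p hpM hp3 h2M K₀ φ κ G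
  s44c_ptsIW G φ M p hpM hdeg hT hdegM hπ e ε he hε hεinv hε0 hpe hperf tM⁻¹
    (s59b_c_hwinvV M p hpM hp3 h2M K₀ φ κ G)
    (s59b_c_coord2 M p hpM hp3 h2M K₀ φ κ G hT hdegM)
    (s59b_c_tw2 M p hpM hp3 h2M K₀ φ κ G hT hdegM)
    (s59b_c_hmain2 M p hpM hp3 h2M K₀ φ κ G hT hdegM hπ)
    tN⁻¹ (s59b_c_hwN2 M p hpM hp3 h2M K₀ φ κ G)
    (s59b_c_alphaW2 M p hpM hp3 h2M K₀ φ κ G)
    (s59b_c_alphaB2 M p hpM hp3 h2M K₀ φ κ G)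
    (s59b_c_betaB2 M p hpM hp3 h2M K₀ φ κ G)

/-- **the closed points outside the nodes, `0`-component, chart `{1 / t regular}`.** -/
def s59b_three_ptsZ2 :
    s44c_Pts (s33y_Cz G φ M p hpM hdeg hT hdegM hπ e ε he hε hεinv hε0 hpe hperf)
      (s44c_Pt OO ϖF S₂ false) :=
  haveI := s59b_c_ffGen2 M p hpM hp3 h2M K₀ φ κ G
  s44c_ptsZW G φ M p hpM hdeg hT hdegM hπ e ε he hε hεinv hε0 hpe hperf tM⁻¹
    (s59b_c_hwinvV M p hpM hp3 h2M K₀ φ κ G)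
    (s59b_c_coord2 M p hpM hp3 h2M K₀ φ κ G hT hdegM)
    (s59b_c_tw2 M p hpM hp3 h2M K₀ φ κ G hT hdegM)
    (s59b_c_hmain2 M p hpM hp3 h2M K₀ φ κ G hT hdegM hπ)
    tN⁻¹ (s59b_c_hwN2 M p hpM hp3 h2M K₀ φ κ G)
    (s59b_c_alphaW2 M p hpM hp3 h2M K₀ φ κ G)
    (s59b_c_alphaB2 M p hpM hp3 h2M K₀ φ κ G)
    (s59b_c_betaB2 M p hpM hp3 h2M K₀ φ κ G)

/-- **the closed points of the `∞`-component outside the nodes** (both charts). -/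
def s59b_three_Xi :
    s44c_Pts (s33y_Ci G φ M p hpM hdeg hT hdegM hπ e ε he hε hεinv hε0 hpe hperf)
      (s44c_Pt OO ϖF S₁ true ⊕ s44c_Pt OO ϖF S₂ true) :=
  (s59b_three_ptsI1 M p hpM hp3 h2M K₀ φ κ G hdeg hT hdegM hπ e ε he hε hεinv hε0 hpe hperf).sum
    (s59b_three_ptsI2 M p hpM hp3 h2M K₀ φ κ G hdeg hT hdegM hπ e ε he hε hεinv hε0 hpe hperf)

/-- **the closed points of the `0`-component outside the nodes** (both charts). -/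
def s59b_three_Xz :
    s44c_Pts (s33y_Cz G φ M p hpM hdeg hT hdegM hπ e ε he hε hεinv hε0 hpe hperf)
      (s44c_Pt OO ϖF S₁ false ⊕ s44c_Pt OO ϖF S₂ false) :=
  (s59b_three_ptsZ1 M p hpM hp3 h2M K₀ φ κ G hdeg hT hdegM hπ e ε he hε hεinv hε0 hpe hperf).sum
    (s59b_three_ptsZ2 M p hpM hp3 h2M K₀ φ κ G hdeg hT hdegM hπ e ε he hε hεinv hε0 hpe hperf)

/-- **the places through a node.** -/
def s59b_three_Ns (s : s33s_Node OO ϖF S₁) : Set (Place K₀ (s34m_F K₀ (M * p))) :=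
  s44c_thr OO S₁ s.1

/-- **per-node [GLUE] for `s59b_datumT`.** -/
theorem s59b_three_glueAt :
    s44c_GlueAt
      (s59b_datumT M p hpM hp3 h2M K₀ φ κ G hdeg hT hdegM hπ e ε he hε hεinv hε0 hpe hperf)
      (s59b_three_Ns M p hpM K₀ φ κ G) :=
  haveI := s59b_c_ffGen1 M p hpM hp3 h2M K₀ φ κ G
  s44c_glueAt_datumW G φ M p hpM hdeg hT hdegM hπ e ε he hε hεinv hε0 hpe hperf tM
    (s59b_c_hwV M p hpM hp3 h2M K₀ φ κ G)
    (s59b_c_coord1 M p hpM hp3 h2M K₀ φ κ G hT hdegM)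
    (s59b_c_tw1 M p hpM hp3 h2M K₀ φ κ G hT hdegM)
    (s59b_c_hmain1 M p hpM hp3 h2M K₀ φ κ G hT hdegM hπ)
    tN (s59b_c_hwN M p hpM hp3 h2M K₀ φ κ G)
    (s59b_c_alphaW1 M p hpM hp3 h2M K₀ φ κ G)
    (s59b_c_alphaB1 M p hpM hp3 h2M K₀ φ κ G)
    (s59b_c_betaB1 M p hpM hp3 h2M K₀ φ κ G)
    (s59b_c_hnode M p hpM hp3 h2M K₀ φ κ G)

include hp3 h2M in
/-- `red_∞ (1 / t) = 1 / t̄`. -/
theorem s59b_redO_tinv_true :
    s33s_redO G φ M p hp.out hpM (modularFunctionFieldFullC κ M)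
      (s33s_w_hF G φ M p hpM hdeg hT hdegM) true
      ⟨tN⁻¹, s59b_c_tN_inv_mem_O M p hpM hp3 h2M K₀ φ κ G⟩ =
      s18g_redF G M hFM hT hdegM ⟨tM⁻¹, s59b_c_hwinvV M p hpM hp3 h2M K₀ φ κ G⟩ ^ 1 := by
  rw [pow_one]
  apply Subtype.ext
  rw [s33s_coe_redO, s33s_redL_true, s59b_c_hred2 M p hpM hp3 h2M K₀ φ κ G hT hdegM]
  have h := s34m_redInf_alpha G M p ⟨tM⁻¹, s59b_c_hwinvV M p hpM hp3 h2M K₀ φ κ G⟩
  have h2 : s34m_redInf G M ⟨tM⁻¹, s59b_c_hwinvV M p hpM hp3 h2M K₀ φ κ G⟩ = (s18u_t2 κ)⁻¹ :=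
    s59b_c_hred2 M p hpM hp3 h2M K₀ φ κ G hT hdegM
  rw [h2] at h
  rw [← h]
  refine congrArg (s34m_redInf G (M * p)) (Subtype.ext ?_)
  show tN⁻¹ = heckeAlphaBar K₀ M p tM⁻¹
  rw [s59b_c_hwN2 M p hpM hp3 h2M K₀ φ κ G]

include hp3 h2M in
/-- `red_0 (1 / t) = (1 / t̄) ^ p`. -/
theorem s59b_redO_tinv_false :
    s33s_redO G φ M p hp.out hpM (modularFunctionFieldFullC κ M)
      (s33s_w_hF G φ M p hpM hdeg hT hdegM) false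
      ⟨tN⁻¹, s59b_c_tN_inv_mem_O M p hpM hp3 h2M K₀ φ κ G⟩ =
      s18g_redF G M hFM hT hdegM ⟨tM⁻¹, s59b_c_hwinvV M p hpM hp3 h2M K₀ φ κ G⟩ ^ p := by
  apply Subtype.ext
  rw [s33s_coe_redO, s33s_redL_false, SubmonoidClass.coe_pow, s59b_c_hred2 M p hpM hp3 h2M K₀ φ κ G hT hdegM]
  have h := s34m_redZero_alpha G φ M p hp.out hpM ⟨tM⁻¹, s59b_c_hwinvV M p hpM hp3 h2M K₀ φ κ G⟩
  have h2 : s34m_redInf G M ⟨tM⁻¹, s59b_c_hwinvV M p hpM hp3 h2M K₀ φ κ G⟩ = (s18u_t2 κ)⁻¹ :=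
    s59b_c_hred2 M p hpM hp3 h2M K₀ φ κ G hT hdegM
  have e1 : qExpand κ p ((s18u_t2 κ)⁻¹) = ((s18u_t2 κ)⁻¹) ^ p := by
    have e0 : qExpand κ p (s18u_t2 κ) = s18u_t2 κ ^ p := by
      rw [s37e_pow_char p (s18u_t2 κ), s18u_coeffMap_t2]
    rw [inv_pow, ← e0]
    exact map_inv₀ (qExpand κ p) (s18u_t2 κ)
  rw [h2, e1] at h
  rw [← h]
  refine congrArg (s34m_redZero G φ M p hp.out hpM) (Subtype.ext ?_)
  show tN⁻¹ = heckeAlphaBar K₀ M p tM⁻¹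
  rw [s59b_c_hwN2 M p hpM hp3 h2M K₀ φ κ G]

include hp3 h2M in
/-- the element `1 / t` of the chart ring of `{1 / t regular}`. -/
def s59b_vInf : s34x_ring (s34x_infRing OO) S₂ :=
  ⟨tN⁻¹, ⟨s59b_c_tN_inv_mem_O M p hpM hp3 h2M K₀ φ κ G, fun _ hQ => hQ⟩⟩

/-- no node of the chart `{1 / t regular}` contains `1 / t` (helper6's (NI) for `t₂`). -/
theorem s59b_vInf_not_mem (s : s33s_Node OO ϖF S₂) :
    s59b_vInf M p hpM hp3 h2M K₀ φ κ G ∉ s.1 := by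
  haveI : NeZero p := ⟨hp.out.ne_zero⟩
  exact s33n_no_node_at_infty_t2 G φ M p hp.out hpM tN (s59b_c_coeN M p hpM hp3 h2M K₀ φ κ G)
    (s59b_c_tN_inv_mem_O M p hpM hp3 h2M K₀ φ κ G) s.1 (h𝔫 := s.2.1.isPrime) s.2.2.1 s.2.2.2

/-- **a function on a component which is regular at all branches of the nodes and at all other closed points
is a constant** (generic component). -/
theorem s59b_three_const_aux (i : Bool) (n : ℕ) (hn : 1 ≤ n)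
    (hrv : s33s_redO G φ M p hp.out hpM (modularFunctionFieldFullC κ M)
      (s33s_w_hF G φ M p hpM hdeg hT hdegM) i
      ⟨tN⁻¹, s59b_c_tN_inv_mem_O M p hpM hp3 h2M K₀ φ κ G⟩ =
      s18g_redF G M hFM hT hdegM ⟨tM⁻¹, s59b_c_hwinvV M p hpM hp3 h2M K₀ φ κ G⟩ ^ n)
    (ψ : ↥FbM)
    (h1 : haveI := s59b_c_ffGen1 M p hpM hp3 h2M K₀ φ κ G
      ∀ s, ψ ∈ s44c_WnW G φ M p hpM hdeg hT hdegM tM
    (s59b_c_hwV M p hpM hp3 h2M K₀ φ κ G)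
    (s59b_c_coord1 M p hpM hp3 h2M K₀ φ κ G hT hdegM)
    (s59b_c_tw1 M p hpM hp3 h2M K₀ φ κ G hT hdegM)
    (s59b_c_hmain1 M p hpM hp3 h2M K₀ φ κ G hT hdegM hπ)
    tN (s59b_c_hwN M p hpM hp3 h2M K₀ φ κ G)
    (s59b_c_alphaW1 M p hpM hp3 h2M K₀ φ κ G)
    (s59b_c_alphaB1 M p hpM hp3 h2M K₀ φ κ G)
    (s59b_c_betaB1 M p hpM hp3 h2M K₀ φ κ G) i s)
    (h2 : haveI := s59b_c_ffGen1 M p hpM hp3 h2M K₀ φ κ G
      ∀ z, ψ ∈ s44c_ptWW G φ M p hpM hdeg hT hdegM tM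
    (s59b_c_hwV M p hpM hp3 h2M K₀ φ κ G)
    (s59b_c_coord1 M p hpM hp3 h2M K₀ φ κ G hT hdegM)
    (s59b_c_tw1 M p hpM hp3 h2M K₀ φ κ G hT hdegM)
    (s59b_c_hmain1 M p hpM hp3 h2M K₀ φ κ G hT hdegM hπ)
    tN (s59b_c_hwN M p hpM hp3 h2M K₀ φ κ G)
    (s59b_c_alphaW1 M p hpM hp3 h2M K₀ φ κ G)
    (s59b_c_alphaB1 M p hpM hp3 h2M K₀ φ κ G)
    (s59b_c_betaB1 M p hpM hp3 h2M K₀ φ κ G) i z)
    (h3 : haveI := s59b_c_ffGen2 M p hpM hp3 h2M K₀ φ κ G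
      ∀ z, ψ ∈ s44c_ptWW G φ M p hpM hdeg hT hdegM tM⁻¹
    (s59b_c_hwinvV M p hpM hp3 h2M K₀ φ κ G)
    (s59b_c_coord2 M p hpM hp3 h2M K₀ φ κ G hT hdegM)
    (s59b_c_tw2 M p hpM hp3 h2M K₀ φ κ G hT hdegM)
    (s59b_c_hmain2 M p hpM hp3 h2M K₀ φ κ G hT hdegM hπ)
    tN⁻¹ (s59b_c_hwN2 M p hpM hp3 h2M K₀ φ κ G)
    (s59b_c_alphaW2 M p hpM hp3 h2M K₀ φ κ G)
    (s59b_c_alphaB2 M p hpM hp3 h2M K₀ φ κ G)
    (s59b_c_betaB2 M p hpM hp3 h2M K₀ φ κ G) i z) :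
    ∃ c : κ, ψ = algebraMap κ ↥FbM c := by
  haveI := s59b_c_ffGen1 M p hpM hp3 h2M K₀ φ κ G
  haveI := s59b_c_ffGen2 M p hpM hp3 h2M K₀ φ κ G
  have hint1 := s44c_W_integral G φ M p hpM hdeg hT hdegM tM
    (s59b_c_hwV M p hpM hp3 h2M K₀ φ κ G)
    (s59b_c_coord1 M p hpM hp3 h2M K₀ φ κ G hT hdegM)
    (s59b_c_tw1 M p hpM hp3 h2M K₀ φ κ G hT hdegM)
    (s59b_c_hmain1 M p hpM hp3 h2M K₀ φ κ G hT hdegM hπ)
    tN (s59b_c_hwN M p hpM hp3 h2M K₀ φ κ G)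
    (s59b_c_alphaW1 M p hpM hp3 h2M K₀ φ κ G)
    (s59b_c_alphaB1 M p hpM hp3 h2M K₀ φ κ G)
    (s59b_c_betaB1 M p hpM hp3 h2M K₀ φ κ G) i ψ h1 h2
  have hinv : s18g_redF G M hFM hT hdegM ⟨tM⁻¹, s59b_c_hwinvV M p hpM hp3 h2M K₀ φ κ G⟩ =
      (s18g_redF G M hFM hT hdegM ⟨tM, s59b_c_hwV M p hpM hp3 h2M K₀ φ κ G⟩)⁻¹ :=
    s18f_redF_inv G M hT hdegM _ (s59b_c_tM_ne_zero M p hpM hp3 h2M K₀ φ κ G) (s59b_c_hwV M p hpM hp3 h2M K₀ φ κ G) _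
  have hint2 := s44c_W_integral_of_inv G φ M p hpM hdeg hT hdegM hπ tM⁻¹
    (s59b_c_hwinvV M p hpM hp3 h2M K₀ φ κ G)
    (s59b_c_coord2 M p hpM hp3 h2M K₀ φ κ G hT hdegM)
    (s59b_c_tw2 M p hpM hp3 h2M K₀ φ κ G hT hdegM)
    (s59b_c_hmain2 M p hpM hp3 h2M K₀ φ κ G hT hdegM hπ)
    tN⁻¹ (s59b_c_hwN2 M p hpM hp3 h2M K₀ φ κ G)
    (s59b_c_alphaW2 M p hpM hp3 h2M K₀ φ κ G)
    (s59b_c_alphaB2 M p hpM hp3 h2M K₀ φ κ G)
    (s59b_c_betaB2 M p hpM hp3 h2M K₀ φ κ G) i ψ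
    (by rw [hinv, inv_inv]; exact hint1)
    (s59b_vInf M p hpM hp3 h2M K₀ φ κ G) (s59b_vInf_not_mem M p hpM hp3 h2M K₀ φ κ G) n hn hrv h3
  rw [hinv] at hint2
  have hz : IsIntegral κ ψ := s18n_isIntegral_of_adjoin_of_adjoin_inv _ _ hint1 hint2
  have hz' : IsIntegral κ ((ψ : ↥FbM) : LaurentSeries κ) :=
    (isIntegral_algHom_iff (modularFunctionFieldFullC κ M).val Subtype.val_injective).mpr hz
  obtain ⟨c, hc⟩ := s33i_laurent_const_of_isIntegral _ hz'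
  exact ⟨c, Subtype.ext hc⟩

/-- **"regular everywhere on the complete `∞`-component ⇒ constant"** for `s59b_datumT`. -/
theorem s59b_three_constI :
    s44c_ConstI
      (s59b_datumT M p hpM hp3 h2M K₀ φ κ G hdeg hT hdegM hπ e ε he hε hεinv hε0 hpe hperf)
      (s59b_three_Xi M p hpM hp3 h2M K₀ φ κ G hdeg hT hdegM hπ e ε he hε hεinv hε0 hpe hperf) := by
  intro ψ hW hV
  exact s59b_three_const_aux M p hpM hp3 h2M K₀ φ κ G hdeg hT hdegM hπ true 1 le_rfl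
    (s59b_redO_tinv_true M p hpM hp3 h2M K₀ φ κ G hdeg hT hdegM) ψ (fun s => hW s)
    (fun z => hV (Sum.inl z)) (fun z => hV (Sum.inr z))

/-- **"regular everywhere on the complete `0`-component ⇒ constant"** for `s59b_datumT`. -/
theorem s59b_three_constZ :
    s44c_ConstZ
      (s59b_datumT M p hpM hp3 h2M K₀ φ κ G hdeg hT hdegM hπ e ε he hε hεinv hε0 hpe hperf)
      (s59b_three_Xz M p hpM hp3 h2M K₀ φ κ G hdeg hT hdegM hπ e ε he hε hεinv hε0 hpe hperf) := by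
  intro ψ hW hV
  exact s59b_three_const_aux M p hpM hp3 h2M K₀ φ κ G hdeg hT hdegM hπ false p hp.out.one_le
    (s59b_redO_tinv_false M p hpM hp3 h2M K₀ φ κ G hdeg hT hdegM) ψ (fun s => hW s)
    (fun z => hV (Sum.inl z)) (fun z => hV (Sum.inr z))

end Three

end Fermat.Agent.Lib.S59
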