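/-
PROGRAMME (R2) = S59, node **[MRP_W] at `p = 3`** (helper2, prefix `s59b_`), file 8: the `t₂`-twin of helper4's
`Lib/S44/CoreTame.lean` ((★) in the TAME case `p ∤ e`): `s59b_three_star_tame`, `s59b_three_star_tame_tau` for
`s59b_datumT` (mechanical port; the abstract part is main's; the admissible `η` is `s59b_three_eta_tame` of `B3CoreTau`).
-/
import Fermat.Agent.Lib.S44.CoreTame
import Fermat.Agent.Lib.S59.B3CoreTau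

set_option autoImplicit false
set_option linter.unusedSectionVars false
set_option linter.style.haveILetI false
set_option synthInstance.maxHeartbeats 400000
set_option maxHeartbeats 1600000

noncomputable section

namespace Fermat.Agent.Lib.S59

open ModularCurve AlgebraicCurve HahnSeries Polynomial Fermat.Agent.Lib.FF Fermat.Agent.Lib.S18 Fermat.Agent.Lib.S44
  Fermat.Agent.Lib.S34 Fermat.Agent.Lib.S37 Fermat.Agent.Lib.S33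

local notation "Kb" => AlgebraicClosure ℚ



section Three

variable (M p : ℕ) [NeZero M] [hp : Fact p.Prime] (hpM : ¬ p ∣ M) (hp3 : p = 3) (h2M : 2 ∣ M)
  (K₀ : Type) [Field K₀] [NumberField K₀] (φ : K₀ →+* Kb)
  (κ : Type) [Field κ] [CharP κ p] [PerfectField κ]
  (G : s18g_GaussData K₀ κ) [IsDiscreteValuationRing G.A]
  (hdeg : s34m_HDeg K₀ M p) (hT : s18g_HT κ M) (hdegM : s18g_HDeg K₀ M)
  (hπ : Function.Surjective G.π)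
  (e : ℕ) (ε : K₀) (he : 0 < e) (hε : ε ∈ G.A) (hεinv : ε⁻¹ ∈ G.A) (hε0 : ε ≠ 0)
  (hpe : (p : K₀) = ε * ((G.ϖ : G.A) : K₀) ^ e) (hperf : ∀ c : κ, ∃ d : κ, d ^ p = c)

/-- **(★), LOCAL FORM, TAME CASE, for `s33s_datum_five`**: the output is verbatim the hypothesis `hloc` of
helper8's `s44e_glob_five`. -/
theorem s59b_three_star_tame {f : s34m_F K₀ (M * p)} (hf : f ≠ 0)
    (hnode : ∀ s, ∃ φ' E : s34m_F K₀ (M * p), f = φ' ^ p * E ∧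
      s44c_Unit (s59b_three_Ns M p hpM K₀ φ κ G s) E)
    (T : s34m_F K₀ (M * p) →* s34m_F K₀ (M * p)) (ℓ : ℕ)
    (hTvi : ∀ (n : ℤ) (x : s34m_F K₀ (M * p)),
      s44c_Val (s59b_datumT M p hpM hp3 h2M K₀ φ κ G hdeg hT hdegM hπ e ε he hε hεinv hε0 hpe
        hperf).Di n x →
      s44c_Val (s59b_datumT M p hpM hp3 h2M K₀ φ κ G hdeg hT hdegM hπ e ε he hε hεinv hε0 hpe
        hperf).Di (n * ((ℓ : ℤ) + 1)) (T x))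
    (hTvz : ∀ (n : ℤ) (x : s34m_F K₀ (M * p)),
      s44c_Val (s59b_datumT M p hpM hp3 h2M K₀ φ κ G hdeg hT hdegM hπ e ε he hε hεinv hε0 hpe
        hperf).Dz n x →
      s44c_Val (s59b_datumT M p hpM hp3 h2M K₀ φ κ G hdeg hT hdegM hπ e ε he hε hεinv hε0 hpe
        hperf).Dz (n * ((ℓ : ℤ) + 1)) (T x))
    {g : s34m_F K₀ (M * p)} {cg : K₀} (hcg : cg ≠ 0) (hg : g ≠ 0) (m : ℤ)
    (hTf : T f = algebraMap K₀ (s34m_F K₀ (M * p)) cg * g ^ p * f ^ m)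
    (hm : ¬ (p : ℤ) ∣ (ℓ : ℤ) + 1 - m)
    {η : s34m_F K₀ (M * p)} (hη : ∀ s, s44c_Unit (s59b_three_Ns M p hpM K₀ φ κ G s) η)
    (hη2 : ¬ (p : ℤ) ∣ s44c_delta
      (s59b_datumT M p hpM hp3 h2M K₀ φ κ G hdeg hT hdegM hπ e ε he hε hεinv hε0 hpe hperf) η)
    (s : s33s_Node (s34m_VV G φ M p hp.out hpM) (s34m_unif G (M * p))
      (s18_chart1 (L₀ := K₀) (s59b_tF K₀ (M * p)))) :
    ∃ (g' υ : s34m_F K₀ (M * p)) (a' : ℤ), f = g' ^ p * υ ∧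
      (∀ i, υ * s34m_unif G (M * p) ^ (-a') ∈ s34m_VV G φ M p hp.out hpM i ∧
        (υ * s34m_unif G (M * p) ^ (-a'))⁻¹ ∈ s34m_VV G φ M p hp.out hpM i) ∧
      ∀ Q ∈ s18_chart1 (L₀ := K₀) (s59b_tF K₀ (M * p)),
        s34f_through (s34x_infRing (s34m_VV G φ M p hp.out hpM))
          (s18_chart1 (L₀ := K₀) (s59b_tF K₀ (M * p))) s.1 Q → Q.ord υ = 0 := by
  obtain ⟨g', υ, e1, hU, hδ⟩ := s44c_star_local_tame
    (Z := s59b_datumT M p hpM hp3 h2M K₀ φ κ G hdeg hT hdegM hπ e ε he hε hεinv hε0 hpe hperf)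
    (Ns := s59b_three_Ns M p hpM K₀ φ κ G) hf hnode T ℓ hTvi hTvz hcg hg m hTf hm hη hη2 s
  obtain ⟨a', ha'⟩ := s59b_three_unit_of_delta M p hpM hp3 h2M K₀ φ κ G hdeg hT hdegM hπ e ε he hε hεinv
    hε0 hpe hperf hU.1 hδ
  exact ⟨g', υ, a', e1, ha', fun Q hQ hth => hU.2 Q ⟨hQ, hth⟩⟩

end Three

section ThreeTau

variable (M p : ℕ) [NeZero M] [hp : Fact p.Prime] (hpM : ¬ p ∣ M) (hp3 : p = 3) (h2M : 2 ∣ M)
  (L₀ : IntermediateField ℚ Kb) [NumberField ↥L₀]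
  (κ : Type) [Field κ] [CharP κ p] [PerfectField κ]
  (G : s18g_GaussData ↥L₀ κ) [IsDiscreteValuationRing G.A]
  (hdeg : s34m_HDeg ↥L₀ M p) (hT : s18g_HT κ M) (hdegM : s18g_HDeg ↥L₀ M)
  (hπ : Function.Surjective G.π)
  (e : ℕ) (ε : ↥L₀) (he : 0 < e) (hε : ε ∈ G.A) (hεinv : ε⁻¹ ∈ G.A) (hε0 : ε ≠ 0)
  (hpe : (p : ↥L₀) = ε * ((G.ϖ : G.A) : ↥L₀) ^ e) (hperf : ∀ c : κ, ∃ d : κ, d ^ p = c)
  (ℓ : ℕ) [hℓ : Fact ℓ.Prime] (hℓN : ¬ ℓ ∣ M * p)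
  (ζ₀ : (↥L₀)ˣ) (hζ₀ : IsPrimitiveRoot (ζ₀ : ↥L₀) ℓ)

include hℓN hζ₀ in
/-- **(★), LOCAL FORM, TAME CASE, for `s33s_datum_five` over `L₀ ≤ ℚ̄` with `T = τ_ℓ`**, `f` a Kummer generator
of a `T_ℓ`-eigenclass `x` with `a₀ ≢ ℓ + 1 mod p`. -/
theorem s59b_three_star_tame_tau {f : s34m_F ↥L₀ (M * p)}
    (hnode : ∀ s, ∃ φ' E : s34m_F ↥L₀ (M * p), f = φ' ^ p * E ∧
      s44c_Unit (s59b_three_Ns M p hpM ↥L₀ (algebraMap ↥L₀ Kb) κ G s) E)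
    {x : JZero (M * p)} (hf : s33d_IsKumGen p x (s18q_incl (M * p) L₀ f)) (a₀ : ℤ)
    (hx : heckeOperatorBar (M * p) ⟨ℓ, hℓ.out⟩ x = a₀ • x)
    (ha₀ : ¬ (p : ℤ) ∣ a₀ - ((ℓ : ℤ) + 1))
    {η : s34m_F ↥L₀ (M * p)}
    (hη : ∀ s, s44c_Unit (s59b_three_Ns M p hpM ↥L₀ (algebraMap ↥L₀ Kb) κ G s) η)
    (hη2 : ¬ (p : ℤ) ∣ s44c_delta
      (s59b_datumT M p hpM hp3 h2M ↥L₀ (algebraMap ↥L₀ Kb) κ G hdeg hT hdegM hπ e ε he hε hεinv hε0 hpe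
        hperf) η)
    (s : s33s_Node (s34m_VV G (algebraMap ↥L₀ Kb) M p hp.out hpM) (s34m_unif G (M * p))
      (s18_chart1 (L₀ := ↥L₀) (s59b_tF ↥L₀ (M * p)))) :
    ∃ (g' υ : s34m_F ↥L₀ (M * p)) (a' : ℤ), f = g' ^ p * υ ∧
      (∀ i, υ * s34m_unif G (M * p) ^ (-a') ∈ s34m_VV G (algebraMap ↥L₀ Kb) M p hp.out hpM i ∧
        (υ * s34m_unif G (M * p) ^ (-a'))⁻¹ ∈ s34m_VV G (algebraMap ↥L₀ Kb) M p hp.out hpM i) ∧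
      ∀ Q ∈ s18_chart1 (L₀ := ↥L₀) (s59b_tF ↥L₀ (M * p)),
        s34f_through (s34x_infRing (s34m_VV G (algebraMap ↥L₀ Kb) M p hp.out hpM))
          (s18_chart1 (L₀ := ↥L₀) (s59b_tF ↥L₀ (M * p))) s.1 Q → Q.ord υ = 0 := by
  have hf0 : f ≠ 0 := fun h0 => hf.1 (by rw [h0, map_zero])
  obtain ⟨c₀, g, hc₀, hg, hrel⟩ := s59b_three_tau_rel M p L₀ ℓ hℓN ζ₀ hζ₀ hf a₀ hx
  have hm : ¬ (p : ℤ) ∣ (ℓ : ℤ) + 1 - a₀ := fun hd => ha₀ (by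
    have := dvd_neg.mpr hd
    rwa [neg_sub] at this)
  exact s59b_three_star_tame M p hpM hp3 h2M ↥L₀ (algebraMap ↥L₀ Kb) κ G hdeg hT hdegM hπ e ε he hε hεinv
    hε0 hpe hperf hf0 hnode (s33t_tau (M * p) ℓ hℓN L₀ ζ₀ hζ₀) ℓ
    (s59b_three_tau_val_i M p hpM hp3 h2M L₀ κ G hdeg hT hdegM hπ e ε he hε hεinv hε0 hpe hperf ℓ hℓN ζ₀
      hζ₀)
    (s59b_three_tau_val_z M p hpM hp3 h2M L₀ κ G hdeg hT hdegM hπ e ε he hε hεinv hε0 hpe hperf ℓ hℓN ζ₀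
      hζ₀)
    hc₀ hg a₀ hrel hm hη hη2 s

end ThreeTau

end Fermat.Agent.Lib.S59
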