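/-
PROGRAMME (R2) = S59, node **[MRP_W] at `p = 3`** (helper2, prefix `s59b_`), file 5: the `t₂`-twin of helper4's
`Lib/S44/CoreFiveTop.lean` (THE SLOPE LEMMA, first-order core, and (★) in local form) for the Σ-datum `s59b_datumT`
of `X_0(M p)`, `p = 3`, `2 ∣ M`.  Mechanical port (`s33s_datum_five ↦ s59b_datumT`, `s44c_five_* ↦ s59b_three_*`,
`j ↦ t`).
-/
import Fermat.Agent.Lib.S44.CoreFiveTop
import Fermat.Agent.Lib.S59.B3Core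

set_option autoImplicit false
set_option linter.unusedSectionVars false
set_option linter.style.haveILetI false

noncomputable section

namespace Fermat.Agent.Lib.S59

open ModularCurve AlgebraicCurve HahnSeries Polynomial Fermat.Agent.Lib.FF Fermat.Agent.Lib.S18 Fermat.Agent.Lib.S44
  Fermat.Agent.Lib.S34 Fermat.Agent.Lib.S37 Fermat.Agent.Lib.S33

local notation "Kb" => AlgebraicClosure ℚ

section Five

variable (M p : ℕ) [NeZero M] [hp : Fact p.Prime] (hpM : ¬ p ∣ M) (hp3 : p = 3) (h2M : 2 ∣ M)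
  (K₀ : Type) [Field K₀] [NumberField K₀] (φ : K₀ →+* Kb)
  (κ : Type) [Field κ] [CharP κ p] [PerfectField κ]
  (G : s18g_GaussData K₀ κ) [IsDiscreteValuationRing G.A]
  (hdeg : s34m_HDeg K₀ M p) (hT : s18g_HT κ M) (hdegM : s18g_HDeg K₀ M)
  (hπ : Function.Surjective G.π)
  (e : ℕ) (ε : K₀) (he : 0 < e) (hε : ε ∈ G.A) (hεinv : ε⁻¹ ∈ G.A) (hε0 : ε ≠ 0)
  (hpe : (p : K₀) = ε * ((G.ϖ : G.A) : K₀) ^ e) (hperf : ∀ c : κ, ∃ d : κ, d ^ p = c)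

/-- **THE SLOPE LEMMA, first-order core, for `s33s_datum_five`.** -/
theorem s59b_three_slope_core
    (Γ : s33z_GalAut
      (s59b_datumT M p hpM hp3 h2M K₀ φ κ G hdeg hT hdegM hπ e ε he hε hεinv hε0 hpe hperf))
    {b : ℕ} {cbar : κ} (hb : 1 ≤ b) (hsub : (p - 1) * b < e)
    (hWi : s44c_FirstOrder Γ.Gi b cbar) (hWz : s44c_FirstOrder Γ.Gz b cbar) (hcτ : cbar ≠ 0)
    {f h a : s34m_F K₀ (M * p)} {c : K₀} (hc : c ≠ 0) (hf : f ≠ 0) (ha : a ≠ 0)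
    (hhN : ∀ s, s44c_Unit (s59b_three_Ns M p hpM K₀ φ κ G s) h)
    (hh : s33z_Cong
      (s59b_datumT M p hpM hp3 h2M K₀ φ κ G hdeg hT hdegM hπ e ε he hε hεinv hε0 hpe hperf)
      (p * b + 1) h)
    (heq : a ^ p * h = algebraMap K₀ (s34m_F K₀ (M * p)) c * (Γ.s f / f))
    {ni nz : s33s_Node (s34m_VV G φ M p hp.out hpM) (s34m_unif G (M * p))
      (s18_chart1 (L₀ := K₀) (s59b_tF K₀ (M * p))) → ℤ}
    (hnode : s44c_NodeFact
      (s59b_datumT M p hpM hp3 h2M K₀ φ κ G hdeg hT hdegM hπ e ε he hε hεinv hε0 hpe hperf)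
      (s59b_three_Ns M p hpM K₀ φ κ G) Γ.s f ni nz)
    (hsi : s44c_SmoothFact
      (s59b_datumT M p hpM hp3 h2M K₀ φ κ G hdeg hT hdegM hπ e ε he hε hεinv hε0 hpe hperf).Ci
      (s59b_three_Xi M p hpM hp3 h2M K₀ φ κ G hdeg hT hdegM hπ e ε he hε hεinv hε0 hpe hperf) Γ.s f)
    (hsz : s44c_SmoothFact
      (s59b_datumT M p hpM hp3 h2M K₀ φ κ G hdeg hT hdegM hπ e ε he hε hεinv hε0 hpe hperf).Cz
      (s59b_three_Xz M p hpM hp3 h2M K₀ φ κ G hdeg hT hdegM hπ e ε he hε hεinv hε0 hpe hperf) Γ.s f)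
    (s s' : s33s_Node (s34m_VV G φ M p hp.out hpM) (s34m_unif G (M * p))
      (s18_chart1 (L₀ := K₀) (s59b_tF K₀ (M * p)))) :
    (p : ℤ) ∣ (nz s - ni s) - (nz s' - ni s') :=
  s44c_slope_core
    (s59b_three_glueAt M p hpM hp3 h2M K₀ φ κ G hdeg hT hdegM hπ e ε he hε hεinv hε0 hpe hperf)
    (s59b_three_Xi M p hpM hp3 h2M K₀ φ κ G hdeg hT hdegM hπ e ε he hε hεinv hε0 hpe hperf)
    (s59b_three_Xz M p hpM hp3 h2M K₀ φ κ G hdeg hT hdegM hπ e ε he hε hεinv hε0 hpe hperf)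
    (s59b_three_constI M p hpM hp3 h2M K₀ φ κ G hdeg hT hdegM hπ e ε he hε hεinv hε0 hpe hperf)
    (s59b_three_constZ M p hpM hp3 h2M K₀ φ κ G hdeg hT hdegM hπ e ε he hε hεinv hε0 hpe hperf)
    Γ hb hsub hWi hWz hcτ hc hf ha hhN hh heq hnode hsi hsz s s'

/-- `δ υ = 0` in the form of the hypothesis `hloc` of helper8's `s44e_glob_five`: `υ = ϖ ^ a · (a unit of `V_∞`
and of `V_0`)`. -/
theorem s59b_three_unit_of_delta {υ : s34m_F K₀ (M * p)} (hυ : υ ≠ 0)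
    (hδ : s44c_delta
      (s59b_datumT M p hpM hp3 h2M K₀ φ κ G hdeg hT hdegM hπ e ε he hε hεinv hε0 hpe hperf) υ = 0) :
    ∃ a : ℤ, ∀ i, υ * s34m_unif G (M * p) ^ (-a) ∈ s34m_VV G φ M p hp.out hpM i ∧
      (υ * s34m_unif G (M * p) ^ (-a))⁻¹ ∈ s34m_VV G φ M p hp.out hpM i := by
  set Z := s59b_datumT M p hpM hp3 h2M K₀ φ κ G hdeg hT hdegM hπ e ε he hε hεinv hε0 hpe hperf
    with hZ
  have hi := s44c_v_spec (D := Z.Di) hυ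
  have hz := s44c_v_spec (D := Z.Dz) hυ
  have hδ' : s44c_v Z.Dz υ = s44c_v Z.Di υ := by
    unfold s44c_delta at hδ
    omega
  rw [hδ'] at hz
  have hπ0 : s34m_unif G (M * p) ≠ 0 := s34m_unif_ne_zero G (M * p)
  refine ⟨s44c_v Z.Di υ, fun i => ?_⟩
  have key : ∀ u : s34m_F K₀ (M * p), u ≠ 0 →
      υ = s34m_unif G (M * p) ^ (s44c_v Z.Di υ) * u →
      υ * s34m_unif G (M * p) ^ (-(s44c_v Z.Di υ)) = u := by
    intro u _ e
    rw [zpow_neg]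
    nth_rewrite 1 [e]
    field_simp
  cases i
  · obtain ⟨u, hu0, hu, hu', e⟩ := hz
    have e' := key u hu0 e
    rw [e']
    exact ⟨hu, hu'⟩
  · obtain ⟨u, hu0, hu, hu', e⟩ := hi
    have e' := key u hu0 e
    rw [e']
    exact ⟨hu, hu'⟩

/-- **(★), LOCAL FORM, for `s33s_datum_five`**: the output is verbatim the hypothesis `hloc` of helper8's
globalisation `s44e_glob_five` (`Lib/S44/EGlobInst.lean`). -/
theorem s59b_three_star_local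
    (Γ : s33z_GalAut
      (s59b_datumT M p hpM hp3 h2M K₀ φ κ G hdeg hT hdegM hπ e ε he hε hεinv hε0 hpe hperf))
    {b : ℕ} {cbar : κ} (hb : 1 ≤ b) (hsub : (p - 1) * b < e)
    (hWi : s44c_FirstOrder Γ.Gi b cbar) (hWz : s44c_FirstOrder Γ.Gz b cbar) (hcτ : cbar ≠ 0)
    {f h a : s34m_F K₀ (M * p)} {c : K₀} (hc : c ≠ 0) (hf : f ≠ 0) (ha : a ≠ 0)
    (hhN : ∀ s, s44c_Unit (s59b_three_Ns M p hpM K₀ φ κ G s) h)
    (hh : s33z_Cong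
      (s59b_datumT M p hpM hp3 h2M K₀ φ κ G hdeg hT hdegM hπ e ε he hε hεinv hε0 hpe hperf)
      (p * b + 1) h)
    (heq : a ^ p * h = algebraMap K₀ (s34m_F K₀ (M * p)) c * (Γ.s f / f))
    {ni nz : s33s_Node (s34m_VV G φ M p hp.out hpM) (s34m_unif G (M * p))
      (s18_chart1 (L₀ := K₀) (s59b_tF K₀ (M * p))) → ℤ}
    (hnode : ∀ s, ∃ φ' E : s34m_F K₀ (M * p), f = φ' ^ p * E ∧
      s44c_Val (s59b_datumT M p hpM hp3 h2M K₀ φ κ G hdeg hT hdegM hπ e ε he hε hεinv hε0 hpe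
        hperf).Di (ni s) φ' ∧
      s44c_Val (s59b_datumT M p hpM hp3 h2M K₀ φ κ G hdeg hT hdegM hπ e ε he hε hεinv hε0 hpe
        hperf).Dz (nz s) φ' ∧
      s44c_Unit (s59b_three_Ns M p hpM K₀ φ κ G s) E ∧
      s44c_Unit (s59b_three_Ns M p hpM K₀ φ κ G s) (Γ.s E / E))
    (hsi : s44c_SmoothFact
      (s59b_datumT M p hpM hp3 h2M K₀ φ κ G hdeg hT hdegM hπ e ε he hε hεinv hε0 hpe hperf).Ci
      (s59b_three_Xi M p hpM hp3 h2M K₀ φ κ G hdeg hT hdegM hπ e ε he hε hεinv hε0 hpe hperf) Γ.s f)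
    (hsz : s44c_SmoothFact
      (s59b_datumT M p hpM hp3 h2M K₀ φ κ G hdeg hT hdegM hπ e ε he hε hεinv hε0 hpe hperf).Cz
      (s59b_three_Xz M p hpM hp3 h2M K₀ φ κ G hdeg hT hdegM hπ e ε he hε hεinv hε0 hpe hperf) Γ.s f)
    (T : s34m_F K₀ (M * p) →* s34m_F K₀ (M * p)) (ℓ : ℕ)
    (hTc : ∀ c : K₀, T (algebraMap K₀ (s34m_F K₀ (M * p)) c) =
      algebraMap K₀ (s34m_F K₀ (M * p)) (c ^ (ℓ + 1)))
    (hTi : ∀ (n : ℕ) (y : s34m_F K₀ (M * p)),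
      s33f_Cong (s59b_datumT M p hpM hp3 h2M K₀ φ κ G hdeg hT hdegM hπ e ε he hε hεinv hε0 hpe
        hperf).Di n y 1 →
      s33f_Cong (s59b_datumT M p hpM hp3 h2M K₀ φ κ G hdeg hT hdegM hπ e ε he hε hεinv hε0 hpe
        hperf).Di n (T y) 1)
    (hTz : ∀ (n : ℕ) (y : s34m_F K₀ (M * p)),
      s33f_Cong (s59b_datumT M p hpM hp3 h2M K₀ φ κ G hdeg hT hdegM hπ e ε he hε hεinv hε0 hpe
        hperf).Dz n y 1 →
      s33f_Cong (s59b_datumT M p hpM hp3 h2M K₀ φ κ G hdeg hT hdegM hπ e ε he hε hεinv hε0 hpe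
        hperf).Dz n (T y) 1)
    (hTvi : ∀ (n : ℤ) (x : s34m_F K₀ (M * p)),
      s44c_Val (s59b_datumT M p hpM hp3 h2M K₀ φ κ G hdeg hT hdegM hπ e ε he hε hεinv hε0 hpe
        hperf).Di n x →
      s44c_Val (s59b_datumT M p hpM hp3 h2M K₀ φ κ G hdeg hT hdegM hπ e ε he hε hεinv hε0 hpe
        hperf).Di (n * ((ℓ : ℤ) + 1)) (T x))
    (hTvz : ∀ (n : ℤ) (x : s34m_F K₀ (M * p)),
      s44c_Val (s59b_datumT M p hpM hp3 h2M K₀ φ κ G hdeg hT hdegM hπ e ε he hε hεinv hε0 hpe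
        hperf).Dz n x →
      s44c_Val (s59b_datumT M p hpM hp3 h2M K₀ φ κ G hdeg hT hdegM hπ e ε he hε hεinv hε0 hpe
        hperf).Dz (n * ((ℓ : ℤ) + 1)) (T x))
    (hTG : ∀ x, T (Γ.s x) = Γ.s (T x))
    {g : s34m_F K₀ (M * p)} {cg : K₀} (hcg : cg ≠ 0) (hg : g ≠ 0) (m : ℤ)
    (hTf : T f = algebraMap K₀ (s34m_F K₀ (M * p)) cg * g ^ p * f ^ m)
    (hm : ¬ (p : ℤ) ∣ (ℓ : ℤ) + 1 - m)
    {η : s34m_F K₀ (M * p)} (hη : ∀ s, s44c_Unit (s59b_three_Ns M p hpM K₀ φ κ G s) η)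
    (hη2 : ¬ (p : ℤ) ^ 2 ∣ s44c_delta
      (s59b_datumT M p hpM hp3 h2M K₀ φ κ G hdeg hT hdegM hπ e ε he hε hεinv hε0 hpe hperf) η)
    (s : s33s_Node (s34m_VV G φ M p hp.out hpM) (s34m_unif G (M * p))
      (s18_chart1 (L₀ := K₀) (s59b_tF K₀ (M * p)))) :
    ∃ (g' υ : s34m_F K₀ (M * p)) (a' : ℤ), f = g' ^ p * υ ∧
      (∀ i, υ * s34m_unif G (M * p) ^ (-a') ∈ s34m_VV G φ M p hp.out hpM i ∧
        (υ * s34m_unif G (M * p) ^ (-a'))⁻¹ ∈ s34m_VV G φ M p hp.out hpM i) ∧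
      ∀ Q ∈ s18_chart1 (L₀ := K₀) (s59b_tF K₀ (M * p)),
        s34f_through (s34x_infRing (s34m_VV G φ M p hp.out hpM))
          (s18_chart1 (L₀ := K₀) (s59b_tF K₀ (M * p))) s.1 Q → Q.ord υ = 0 := by
  obtain ⟨g', υ, e1, hU, hδ⟩ := s44c_star_local
    (s59b_three_glueAt M p hpM hp3 h2M K₀ φ κ G hdeg hT hdegM hπ e ε he hε hεinv hε0 hpe hperf)
    (s59b_three_Xi M p hpM hp3 h2M K₀ φ κ G hdeg hT hdegM hπ e ε he hε hεinv hε0 hpe hperf)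
    (s59b_three_Xz M p hpM hp3 h2M K₀ φ κ G hdeg hT hdegM hπ e ε he hε hεinv hε0 hpe hperf)
    (s59b_three_constI M p hpM hp3 h2M K₀ φ κ G hdeg hT hdegM hπ e ε he hε hεinv hε0 hpe hperf)
    (s59b_three_constZ M p hpM hp3 h2M K₀ φ κ G hdeg hT hdegM hπ e ε he hε hεinv hε0 hpe hperf)
    Γ hb hsub hWi hWz hcτ hc hf ha hhN hh heq hnode hsi hsz T ℓ hTc hTi hTz hTvi hTvz hTG hcg hg m
    hTf hm hη hη2 s
  obtain ⟨a', ha'⟩ := s59b_three_unit_of_delta M p hpM hp3 h2M K₀ φ κ G hdeg hT hdegM hπ e ε he hε hεinv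
    hε0 hpe hperf hU.1 hδ
  exact ⟨g', υ, a', e1, ha', fun Q hQ hth => hU.2 Q ⟨hQ, hth⟩⟩

end Five

end Fermat.Agent.Lib.S59
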