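/-
PROGRAMME (R2) = S59, node **[MRP_W] at `p = 3`** (helper2, prefix `s59b_`), file 6: **THE NODES OF THE CHART `{t regular}` AVOID
THE CUSP `t = 0`**: `t ∉ 𝔫` for every node `𝔫` of the chart ring of `{t regular}` (`t` of `q`-expansion `t₂`), hence
`ord_Q t = 0` and `j` IS REGULAR at every place `Q` through a node.  (The Five-side never needs this: its node places lie on
the chart `{j regular}` by definition; the modular unit `η₂` is controlled only where `j` is regular.)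

Proof = helper6's contraction argument `s33n_no_node_transfer` (`Lib/S33/SSNoInfT.lean`) with the roles changed:
`S = {j ≠ 0}`, `S' = {t ≠ ∞}`, `g = t + 256` (`g³ j⁻¹ = t²`, `B_S ⊆ B_{S'}[1/g]`), and (NI) for the `j`-chart `{j ≠ 0}`.

* `s59b_no_node_transfer0` : abstract;
* `s59b_three_mem_comp`, `s59b_256_not_mem` : `3 ∈ 𝔭_i`, `256 ∉ 𝔫`;
* **`s59b_t_not_mem_node`**, **`s59b_node_ord_t`**, **`s59b_node_j_regular`**.
-/
import Fermat.Agent.Lib.S59.B3Core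

set_option autoImplicit false
set_option linter.style.haveILetI false
set_option linter.unusedSectionVars false

noncomputable section

namespace Fermat.Agent.Lib.S59

open ModularCurve AlgebraicCurve HahnSeries Polynomial Fermat.Agent.Lib.FF Fermat.Agent.Lib.S18
  Fermat.Agent.Lib.S28 Fermat.Agent.Lib.S34 Fermat.Agent.Lib.S37 Fermat.Agent.Lib.S33
  Fermat.Agent.Lib.S44

local notation "Kb" => AlgebraicClosure ℚ

section Transfer

variable {L₀ 𝓕 : Type*} [Field L₀] [Field 𝓕] [Algebra L₀ 𝓕]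
variable (O : Bool → ValuationSubring 𝓕) (π : 𝓕)

/-- **(NI) for the `j`-chart `{j ≠ 0}` ⇒ no node of the chart `{t ≠ ∞}` contains `t`**, when `j t² = (t + 256)³` and
`256` lies in no node. -/
theorem s59b_no_node_transfer0 (j t : 𝓕) (hj0 : j ≠ 0) (ht0 : t ≠ 0)
    (hrel : j * t ^ 2 = (t + 256) ^ 3) (hjO : j⁻¹ ∈ s34x_infRing O) (htO : t ∈ s34x_infRing O)
    (hfin : ∀ b : 𝓕, b ≠ 0 → {Q : Place L₀ 𝓕 | Q.ord b < 0}.Finite)
    (hNI : ∀ (𝔪 : Ideal (s34x_ring (s34x_infRing O) (s18_chart2 (L₀ := L₀) j))) [𝔪.IsPrime],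
      s33s_comp O π (s18_chart2 (L₀ := L₀) j) true ≤ 𝔪 →
      s33s_comp O π (s18_chart2 (L₀ := L₀) j) false ≤ 𝔪 →
      ∀ h : j⁻¹ ∈ s34x_ring (s34x_infRing O) (s18_chart2 (L₀ := L₀) j),
        (⟨j⁻¹, h⟩ : s34x_ring (s34x_infRing O) (s18_chart2 (L₀ := L₀) j)) ∉ 𝔪)
    (𝔫 : Ideal (s34x_ring (s34x_infRing O) (s18_chart1 (L₀ := L₀) t))) [h𝔫 : 𝔫.IsPrime]
    (h256 : (⟨256, ofNat_mem _ 256⟩ : s34x_ring (s34x_infRing O) (s18_chart1 (L₀ := L₀) t)) ∉ 𝔫)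
    (h1 : s33s_comp O π (s18_chart1 (L₀ := L₀) t) true ≤ 𝔫)
    (h2 : s33s_comp O π (s18_chart1 (L₀ := L₀) t) false ≤ 𝔫) :
    (⟨t, ⟨htO, fun _ hQ => hQ⟩⟩ : s34x_ring (s34x_infRing O) (s18_chart1 (L₀ := L₀) t)) ∉ 𝔫 := by
  classical
  intro hv
  have hvB : t ∈ s34x_ring (s34x_infRing O) (s18_chart1 (L₀ := L₀) t) :=
    ⟨htO, fun _ hQ => hQ⟩
  -- the function `g = t + 256`
  set g : 𝓕 := t + 256 with hgdef
  have hgB : g ∈ s34x_ring (s34x_infRing O) (s18_chart1 (L₀ := L₀) t) :=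
    add_mem hvB (ofNat_mem _ 256)
  have hg3 : g ^ 3 = j * t ^ 2 := hrel.symm
  have hg0 : g ≠ 0 := by
    intro h0
    rw [h0] at hg3
    exact mul_ne_zero hj0 (pow_ne_zero 2 ht0) (by rw [← hg3]; ring)
  have hg𝔫 : (⟨g, hgB⟩ : s34x_ring (s34x_infRing O) (s18_chart1 (L₀ := L₀) t)) ∉ 𝔫 := by
    intro hg𝔫
    have e : (⟨g, hgB⟩ : s34x_ring (s34x_infRing O) (s18_chart1 (L₀ := L₀) t)) =
        ⟨t, hvB⟩ + ⟨256, ofNat_mem _ 256⟩ := Subtype.ext rfl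
    rw [e] at hg𝔫
    have := 𝔫.sub_mem hg𝔫 hv
    rw [add_sub_cancel_left] at this
    exact h256 this
  -- `B₂(j) ⊆ B₁(t)[1/g]`
  have H : ∀ b ∈ s34x_ring (s34x_infRing O) (s18_chart2 (L₀ := L₀) j),
      ∃ k : ℕ, g ^ k * b ∈ s34x_ring (s34x_infRing O) (s18_chart1 (L₀ := L₀) t) := by
    intro b hb
    by_cases hb0 : b = 0
    · exact ⟨0, by rw [hb0, mul_zero]; exact (s34x_ring _ _).zero_mem⟩
    have hfinb := hfin b hb0
    set k : ℕ := hfinb.toFinset.sup (fun Q => (-(Q.ord b)).toNat) with hk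
    have hkQ : ∀ Q : Place L₀ 𝓕, Q.ord b < 0 → -(Q.ord b) ≤ (k : ℤ) := by
      intro Q hQ
      have hQT : Q ∈ hfinb.toFinset := by rw [Set.Finite.mem_toFinset]; exact hQ
      have h1 : (-(Q.ord b)).toNat ≤ k := Finset.le_sup (f := fun Q => (-(Q.ord b)).toNat) hQT
      have h2 : -(Q.ord b) ≤ ((-(Q.ord b)).toNat : ℤ) := Int.self_le_toNat _
      exact h2.trans (by exact_mod_cast h1)
    refine ⟨k, mul_mem (pow_mem hgB.1 k) hb.1, fun Q hQ => ?_⟩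
    have hgQ : g ∈ Q.toValuationSubring := hgB.2 Q hQ
    by_cases hneg : Q.ord b < 0
    · -- a pole of `b`: a zero of `j`, hence of `g`
      have hjQ : ¬ j⁻¹ ∈ Q.toValuationSubring := by
        intro h
        have := (ff_mem_iff_ord_nonneg Q hb0).mp (hb.2 Q h)
        omega
      have hordj : 0 < Q.ord j := by
        by_contra hcon
        apply hjQ
        rw [ff_mem_iff_ord_nonneg Q (inv_ne_zero hj0), Q.ord_inv]
        omega
      have hordv : 0 ≤ Q.ord t := (ff_mem_iff_ord_nonneg Q ht0).mp hQ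
      have h3 : (3 : ℤ) * Q.ord g = Q.ord j + 2 * Q.ord t := by
        have := congrArg Q.ord hg3
        rw [s33n_ord_pow, Q.ord_mul hj0 (pow_ne_zero 2 ht0), s33n_ord_pow] at this
        exact_mod_cast this
      have hordg : 1 ≤ Q.ord g := by omega
      rw [ff_mem_iff_ord_nonneg Q (mul_ne_zero (pow_ne_zero _ hg0) hb0),
        Q.ord_mul (pow_ne_zero _ hg0) hb0, s33n_ord_pow]
      have h1 := hkQ Q hneg
      have h2 : (k : ℤ) * 1 ≤ (k : ℤ) * Q.ord g :=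
        mul_le_mul_of_nonneg_left hordg (Int.natCast_nonneg k)
      linarith
    · have hbQ : b ∈ Q.toValuationSubring := (ff_mem_iff_ord_nonneg Q hb0).mpr (not_lt.mp hneg)
      exact Q.toValuationSubring.mul_mem _ _ (pow_mem hgQ k) hbQ
  -- contract and conclude
  set 𝔞 := s33n_contractG O (s18_chart2 (L₀ := L₀) j) (s18_chart1 (L₀ := L₀) t) g hgB H 𝔫 with h𝔞
  have hne : 𝔞 ≠ ⊤ := s33n_contractG_ne_top O _ _ g hgB H 𝔫 hg𝔫
  obtain ⟨𝔪, h𝔪, hle⟩ := Ideal.exists_le_maximal 𝔞 hne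
  haveI := h𝔪.isPrime
  have hjB : j⁻¹ ∈ s34x_ring (s34x_infRing O) (s18_chart2 (L₀ := L₀) j) :=
    ⟨hjO, fun _ hQ => hQ⟩
  refine hNI 𝔪 ((s33n_comp_le_contractG O π _ _ g hgB H 𝔫 true h1).trans hle)
    ((s33n_comp_le_contractG O π _ _ g hgB H 𝔫 false h2).trans hle) hjB (hle ?_)
  refine ⟨3, ⟨t, hvB⟩ ^ 2, 𝔫.pow_mem_of_mem hv 2 (by norm_num), ?_⟩
  show ((⟨t, hvB⟩ ^ 2 : s34x_ring (s34x_infRing O) (s18_chart1 (L₀ := L₀) t)) : 𝓕) = g ^ 3 * j⁻¹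
  rw [hg3]
  push_cast
  field_simp

end Transfer

section Three

variable (M p : ℕ) [NeZero M] [hp : Fact p.Prime] (hpM : ¬ p ∣ M) (hp3 : p = 3) (h2M : 2 ∣ M)
  (K₀ : Type) [Field K₀] [NumberField K₀] (φ : K₀ →+* Kb)
  (κ : Type) [Field κ] [CharP κ p] [PerfectField κ]
  (G : s18g_GaussData K₀ κ) [IsDiscreteValuationRing G.A]
  (e : ℕ) (ε : K₀) (he : 0 < e) (hε : ε ∈ G.A)
  (hpe : (p : K₀) = ε * ((G.ϖ : G.A) : K₀) ^ e)

local notation "OO" => s34m_VV G φ M p hp.out hpM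
local notation "ϖF" => s34m_unif G (M * p)
local notation "tN" => s59b_tF K₀ (M * p)
local notation "S₁" => s18_chart1 (L₀ := K₀) (s59b_tF K₀ (M * p))

include he hε hpe in
/-- `p ∈ 𝔭_i` (`p = ε ϖ ^ e`, `e ≥ 1`). -/
theorem s59b_p_mem_comp (S : Set (Place K₀ (s34m_F K₀ (M * p)))) (i : Bool) :
    (⟨(p : s34m_F K₀ (M * p)), natCast_mem _ p⟩ : s34x_ring (s34x_infRing OO) S) ∈
      s33s_comp OO ϖF S i := by
  obtain ⟨e', rfl⟩ : ∃ e', e = e' + 1 := ⟨e - 1, by omega⟩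
  refine ⟨algebraMap K₀ (s34m_F K₀ (M * p)) (ε * ((G.ϖ : G.A) : K₀) ^ e'), ?_, ?_⟩
  · exact s34c_const_mem_VV G φ M p hp.out hpM i
      ⟨ε * ((G.ϖ : G.A) : K₀) ^ e', G.A.mul_mem _ _ hε (pow_mem G.ϖ.2 e')⟩
  · show (p : s34m_F K₀ (M * p)) = s34m_unif G (M * p) * _
    have h1 : (p : s34m_F K₀ (M * p)) = algebraMap K₀ (s34m_F K₀ (M * p)) (p : K₀) :=
      (map_natCast _ p).symm
    rw [h1, hpe, pow_succ, map_mul, map_mul, map_mul]
    have h2 : s34m_unif G (M * p) = algebraMap K₀ (s34m_F K₀ (M * p)) ((G.ϖ : G.A) : K₀) := rfl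
    rw [h2]
    ring

include he hε hpe hp3 in
/-- `256` lies in no proper ideal containing a component prime (`256 = 85 · 3 + 1`). -/
theorem s59b_256_not_mem (S : Set (Place K₀ (s34m_F K₀ (M * p))))
    (𝔫 : Ideal (s34x_ring (s34x_infRing OO) S)) (h𝔫 : 𝔫 ≠ ⊤)
    (h1 : s33s_comp OO ϖF S true ≤ 𝔫) :
    (⟨256, ofNat_mem _ 256⟩ : s34x_ring (s34x_infRing OO) S) ∉ 𝔫 := by
  intro h
  apply h𝔫
  rw [Ideal.eq_top_iff_one]
  have h3 := h1 (s59b_p_mem_comp M p hpM K₀ φ κ G e ε he hε hpe S true)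
  have e1 : (1 : s34x_ring (s34x_infRing OO) S) =
      ⟨256, ofNat_mem _ 256⟩ - ⟨85, ofNat_mem _ 85⟩ *
        ⟨(p : s34m_F K₀ (M * p)), natCast_mem _ p⟩ := by
    apply Subtype.ext
    subst hp3
    show (1 : s34m_F K₀ (M * 3)) = 256 - 85 * ((3 : ℕ) : s34m_F K₀ (M * 3))
    norm_num
  rw [e1]
  exact 𝔫.sub_mem h (𝔫.mul_mem_left _ h3)

include he hε hpe hp3 h2M in
/-- **no node of the chart `{t regular}` contains `t`.** -/
theorem s59b_t_not_mem_node (s : s33s_Node OO ϖF S₁) :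
    (⟨tN, ⟨s59b_c_tN_mem_O M p hpM hp3 h2M K₀ φ κ G, fun _ hQ => hQ⟩⟩ :
      s34x_ring (s34x_infRing OO) S₁) ∉ s.1 := by
  haveI : NeZero p := ⟨hp.out.ne_zero⟩
  haveI := s.2.1.isPrime
  exact s59b_no_node_transfer0 OO ϖF (s18g_jF (K := K₀) (M * p)) tN (s18g_jF_ne_zero (M * p))
    (s59b_c_tN_ne_zero M p hpM hp3 h2M K₀ φ κ G)
    (s33n_rel_t2 (M * p) tN (s59b_c_coeN M p hpM hp3 h2M K₀ φ κ G))
    (s34d2_j_inv_mem_O G φ M p hp.out hpM) (s59b_c_tN_mem_O M p hpM hp3 h2M K₀ φ κ G)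
    (fun b hb => s33n_finite_poles φ (M * p) b hb)
    (fun 𝔪 _ hm1 hm2 _ => s33n_no_node_at_infty G φ M p hp.out hpM 𝔪 hm1 hm2) s.1
    (s59b_256_not_mem M p hpM hp3 K₀ φ κ G e ε he hε hpe S₁ s.1 s.2.1.ne_top s.2.2.1)
    s.2.2.1 s.2.2.2

include he hε hpe hp3 h2M in
/-- **`t` is a unit at every place through a node.** -/
theorem s59b_node_ord_t (s : s33s_Node OO ϖF S₁) (Q : Place K₀ (s34m_F K₀ (M * p)))
    (hQ : Q ∈ s59b_three_Ns M p hpM K₀ φ κ G s) : Q.ord tN = 0 := by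
  have ht0 := s59b_c_tN_ne_zero M p hpM hp3 h2M K₀ φ κ G
  have h1 : 0 ≤ Q.ord tN := (ff_mem_iff_ord_nonneg Q ht0).mp hQ.1
  by_contra hne
  have hpos : 0 < Q.ord tN := lt_of_le_of_ne h1 (Ne.symm hne)
  exact s59b_t_not_mem_node M p hpM hp3 h2M K₀ φ κ G e ε he hε hpe s
    (hQ.2 ⟨tN, ⟨s59b_c_tN_mem_O M p hpM hp3 h2M K₀ φ κ G, fun _ hQ => hQ⟩⟩ ht0 hpos)

include he hε hpe hp3 h2M in
/-- **`j` is regular at every place through a node of the chart `{t regular}`.** -/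
theorem s59b_node_j_regular (s : s33s_Node OO ϖF S₁) (Q : Place K₀ (s34m_F K₀ (M * p)))
    (hQ : Q ∈ s59b_three_Ns M p hpM K₀ φ κ G s) : 0 ≤ Q.ord (s18g_jF (K := K₀) (M * p)) := by
  have ht0 := s59b_c_tN_ne_zero M p hpM hp3 h2M K₀ φ κ G
  have hj0 : s18g_jF (K := K₀) (M * p) ≠ 0 := s18g_jF_ne_zero (M * p)
  have ho := s59b_node_ord_t M p hpM hp3 h2M K₀ φ κ G e ε he hε hpe s Q hQ
  have hrel := s33n_rel_t2 (M * p) tN (s59b_c_coeN M p hpM hp3 h2M K₀ φ κ G)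
  have h256 : tN + 256 ∈ Q.toValuationSubring :=
    Q.toValuationSubring.add_mem _ _ hQ.1 (ofNat_mem _ 256)
  have hg0 : tN + 256 ≠ 0 := by
    intro h0
    rw [h0, zero_pow (by norm_num)] at hrel
    exact mul_ne_zero hj0 (pow_ne_zero 2 ht0) hrel
  have h1 := congrArg Q.ord hrel
  rw [Q.ord_mul hj0 (pow_ne_zero 2 ht0), s33n_ord_pow, s33n_ord_pow, ho] at h1
  have h2 : 0 ≤ Q.ord (tN + 256) := (ff_mem_iff_ord_nonneg Q hg0).mp h256
  push_cast at h1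
  omega

end Three

end Fermat.Agent.Lib.S59
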