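/-
PROGRAMME (R2) = S59, node **[MRP_W] at `p = 3`** (helper2, prefix `s59b_`), file 7: the `t₂`-twin of helper4's
`Lib/S44/CoreFiveTau.lean`: (★), LOCAL FORM, for `s59b_datumT` over `L₀ ≤ ℚ̄` with `T := τ_ℓ` (mechanical port), and
**`s59b_three_eta`**: a modular unit `η` with `δ η = -4 e` (helper7's `η₂`: `η = ϖ^(2e) · unit of V_∞ = ϖ^(-2e) · unit of
V_0`, `ord_Q η = 0` where `j` is regular) is an admissible `η` at `p = 3`: a unit at every node of the chart `{t regular}`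
(`B3NodeT`: `j` is regular there) and `p² ∤ δ η` as soon as `p² ∤ e`.
-/
import Fermat.Agent.Lib.S44.CoreFiveTau
import Fermat.Agent.Lib.S59.B3CoreTop
import Fermat.Agent.Lib.S59.B3NodeT

set_option autoImplicit false
set_option linter.unusedSectionVars false
set_option linter.style.haveILetI false
set_option synthInstance.maxHeartbeats 400000
set_option maxHeartbeats 1600000

noncomputable section

namespace Fermat.Agent.Lib.S59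

open ModularCurve AlgebraicCurve HahnSeries Polynomial Fermat.Agent.Lib.FF Fermat.Agent.Lib.S18 Fermat.Agent.Lib.S44
  Fermat.Agent.Lib.S34 Fermat.Agent.Lib.S37 Fermat.Agent.Lib.S33

local notation "Kb" => AlgebraicClosure ℚ

section ThreeTau

variable (M p : ℕ) [NeZero M] [hp : Fact p.Prime] (hpM : ¬ p ∣ M) (hp3 : p = 3) (h2M : 2 ∣ M)
  (L₀ : IntermediateField ℚ Kb) [NumberField ↥L₀]
  (κ : Type) [Field κ] [CharP κ p] [PerfectField κ]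
  (G : s18g_GaussData ↥L₀ κ) [IsDiscreteValuationRing G.A]
  (hdeg : s34m_HDeg ↥L₀ M p) (hT : s18g_HT κ M) (hdegM : s18g_HDeg ↥L₀ M)
  (hπ : Function.Surjective G.π)
  (e : ℕ) (ε : ↥L₀) (he : 0 < e) (hε : ε ∈ G.A) (hεinv : ε⁻¹ ∈ G.A) (hε0 : ε ≠ 0)
  (hpe : (p : ↥L₀) = ε * ((G.ϖ : G.A) : ↥L₀) ^ e) (hperf : ∀ c : κ, ∃ d : κ, d ^ p = c)
  (ℓ : ℕ) [hℓ : Fact ℓ.Prime] (hℓN : ¬ ℓ ∣ M * p)
  (ζ₀ : (↥L₀)ˣ) (hζ₀ : IsPrimitiveRoot (ζ₀ : ↥L₀) ℓ)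

/-- (T3) on `V_∞`. -/
theorem s59b_three_tau_cong_i (n : ℕ) (y : s34m_F ↥L₀ (M * p))
    (h : s33f_Cong (s59b_datumT M p hpM hp3 h2M ↥L₀ (algebraMap ↥L₀ Kb) κ G hdeg hT hdegM hπ e ε he hε
      hεinv hε0 hpe hperf).Di n y 1) :
    s33f_Cong (s59b_datumT M p hpM hp3 h2M ↥L₀ (algebraMap ↥L₀ Kb) κ G hdeg hT hdegM hπ e ε he hε
      hεinv hε0 hpe hperf).Di n (s33t_tau (M * p) ℓ hℓN L₀ ζ₀ hζ₀ y) 1 := by
  obtain ⟨z, hz, e1⟩ := h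
  obtain ⟨z', hz', e'⟩ := s44h_tau_cong_Vinf (M * p) ℓ hℓN L₀ ζ₀ hζ₀ G n hz e1
  exact ⟨z', hz', e'⟩

/-- (T3) on `V_0`. -/
theorem s59b_three_tau_cong_z (n : ℕ) (y : s34m_F ↥L₀ (M * p))
    (h : s33f_Cong (s59b_datumT M p hpM hp3 h2M ↥L₀ (algebraMap ↥L₀ Kb) κ G hdeg hT hdegM hπ e ε he hε
      hεinv hε0 hpe hperf).Dz n y 1) :
    s33f_Cong (s59b_datumT M p hpM hp3 h2M ↥L₀ (algebraMap ↥L₀ Kb) κ G hdeg hT hdegM hπ e ε he hε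
      hεinv hε0 hpe hperf).Dz n (s33t_tau (M * p) ℓ hℓN L₀ ζ₀ hζ₀ y) 1 := by
  obtain ⟨z, hz, e1⟩ := h
  obtain ⟨z', hz', e'⟩ := s44h_tau_cong_Vzero M p hpM ℓ hℓN L₀ ζ₀ hζ₀ G n hz e1
  exact ⟨z', hz', e'⟩

/-- (T4) on `V_∞`. -/
theorem s59b_three_tau_val_i (n : ℤ) (x : s34m_F ↥L₀ (M * p))
    (h : s44c_Val (s59b_datumT M p hpM hp3 h2M ↥L₀ (algebraMap ↥L₀ Kb) κ G hdeg hT hdegM hπ e ε he hε
      hεinv hε0 hpe hperf).Di n x) :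
    s44c_Val (s59b_datumT M p hpM hp3 h2M ↥L₀ (algebraMap ↥L₀ Kb) κ G hdeg hT hdegM hπ e ε he hε
      hεinv hε0 hpe hperf).Di (n * ((ℓ : ℤ) + 1)) (s33t_tau (M * p) ℓ hℓN L₀ ζ₀ hζ₀ x) := by
  have hx0 : x ≠ 0 := h.ne_zero
  obtain ⟨u, hu0, hu, hu', e1⟩ := h
  obtain ⟨u₁, hu₁, hu₁', e₁⟩ := s44h_tau_val_Vinf (M * p) ℓ hℓN L₀ ζ₀ hζ₀ G n hu0 hu hu' e1
  refine ⟨u₁, ?_, hu₁, hu₁', e₁⟩
  rintro rfl
  rw [mul_zero] at e₁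
  exact s33t_tau_ne_zero (M * p) ℓ hℓN L₀ ζ₀ hζ₀ x hx0 e₁

/-- (T4) on `V_0`. -/
theorem s59b_three_tau_val_z (n : ℤ) (x : s34m_F ↥L₀ (M * p))
    (h : s44c_Val (s59b_datumT M p hpM hp3 h2M ↥L₀ (algebraMap ↥L₀ Kb) κ G hdeg hT hdegM hπ e ε he hε
      hεinv hε0 hpe hperf).Dz n x) :
    s44c_Val (s59b_datumT M p hpM hp3 h2M ↥L₀ (algebraMap ↥L₀ Kb) κ G hdeg hT hdegM hπ e ε he hε
      hεinv hε0 hpe hperf).Dz (n * ((ℓ : ℤ) + 1)) (s33t_tau (M * p) ℓ hℓN L₀ ζ₀ hζ₀ x) := by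
  have hx0 : x ≠ 0 := h.ne_zero
  obtain ⟨u, hu0, hu, hu', e1⟩ := h
  obtain ⟨u₁, hu₁, hu₁', e₁⟩ := s44h_tau_val_Vzero M p hpM ℓ hℓN L₀ ζ₀ hζ₀ G n hu0 hu hu' e1
  refine ⟨u₁, ?_, hu₁, hu₁', e₁⟩
  rintro rfl
  rw [mul_zero] at e₁
  exact s33t_tau_ne_zero (M * p) ℓ hℓN L₀ ζ₀ hζ₀ x hx0 e₁

/-- **the Hecke relation for the Kummer generator `f` of an eigen-class.** -/
theorem s59b_three_tau_rel {x : JZero (M * p)} {f : s34m_F ↥L₀ (M * p)}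
    (hf : s33d_IsKumGen p x (s18q_incl (M * p) L₀ f)) (a₀ : ℤ)
    (hx : heckeOperatorBar (M * p) ⟨ℓ, hℓ.out⟩ x = a₀ • x) :
    ∃ (c₀ : ↥L₀) (g : s34m_F ↥L₀ (M * p)), c₀ ≠ 0 ∧ g ≠ 0 ∧
      s33t_tau (M * p) ℓ hℓN L₀ ζ₀ hζ₀ f =
        algebraMap ↥L₀ (s34m_F ↥L₀ (M * p)) c₀ * g ^ p * f ^ a₀ :=
  s44c_hecke_rel (M * p) ℓ hℓN L₀ ζ₀ hζ₀ p hf a₀ hx

include hℓN hζ₀ in
/-- **(★), LOCAL FORM, for `s33s_datum_five` over `L₀ ≤ ℚ̄`, `T = τ_ℓ`, `Γ.s` the coefficientwise action of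
`σ₀ : L₀ ≃ₐ[ℚ] L₀`, `f` a Kummer generator of an `T_ℓ`-eigenclass `x` with `a₀ ≢ ℓ + 1 mod p`.** -/
theorem s59b_three_star_tau
    (Γ : s33z_GalAut
      (s59b_datumT M p hpM hp3 h2M ↥L₀ (algebraMap ↥L₀ Kb) κ G hdeg hT hdegM hπ e ε he hε hεinv hε0 hpe
        hperf))
    (σ₀ : ↥L₀ ≃ₐ[ℚ] ↥L₀)
    (hΓs : ∀ y, Γ.s y = arithmeticRingAut (modularFunctionFieldFull (M * p)) σ₀ y)
    {b : ℕ} {cbar : κ} (hb : 1 ≤ b) (hsub : (p - 1) * b < e)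
    (hWi : s44c_FirstOrder Γ.Gi b cbar) (hWz : s44c_FirstOrder Γ.Gz b cbar) (hcτ : cbar ≠ 0)
    {f h a : s34m_F ↥L₀ (M * p)} {c : ↥L₀} (hc : c ≠ 0) (ha : a ≠ 0)
    (hhN : ∀ s, s44c_Unit (s59b_three_Ns M p hpM ↥L₀ (algebraMap ↥L₀ Kb) κ G s) h)
    (hh : s33z_Cong
      (s59b_datumT M p hpM hp3 h2M ↥L₀ (algebraMap ↥L₀ Kb) κ G hdeg hT hdegM hπ e ε he hε hεinv hε0 hpe
        hperf) (p * b + 1) h)
    (heq : a ^ p * h = algebraMap ↥L₀ (s34m_F ↥L₀ (M * p)) c * (Γ.s f / f))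
    {ni nz : s33s_Node (s34m_VV G (algebraMap ↥L₀ Kb) M p hp.out hpM) (s34m_unif G (M * p))
      (s18_chart1 (L₀ := ↥L₀) (s59b_tF ↥L₀ (M * p))) → ℤ}
    (hnode : ∀ s, ∃ φ' E : s34m_F ↥L₀ (M * p), f = φ' ^ p * E ∧
      s44c_Val (s59b_datumT M p hpM hp3 h2M ↥L₀ (algebraMap ↥L₀ Kb) κ G hdeg hT hdegM hπ e ε he hε
        hεinv hε0 hpe hperf).Di (ni s) φ' ∧
      s44c_Val (s59b_datumT M p hpM hp3 h2M ↥L₀ (algebraMap ↥L₀ Kb) κ G hdeg hT hdegM hπ e ε he hε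
        hεinv hε0 hpe hperf).Dz (nz s) φ' ∧
      s44c_Unit (s59b_three_Ns M p hpM ↥L₀ (algebraMap ↥L₀ Kb) κ G s) E ∧
      s44c_Unit (s59b_three_Ns M p hpM ↥L₀ (algebraMap ↥L₀ Kb) κ G s) (Γ.s E / E))
    (hsi : s44c_SmoothFact
      (s59b_datumT M p hpM hp3 h2M ↥L₀ (algebraMap ↥L₀ Kb) κ G hdeg hT hdegM hπ e ε he hε hεinv hε0 hpe
        hperf).Ci
      (s59b_three_Xi M p hpM hp3 h2M ↥L₀ (algebraMap ↥L₀ Kb) κ G hdeg hT hdegM hπ e ε he hε hεinv hε0 hpe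
        hperf) Γ.s f)
    (hsz : s44c_SmoothFact
      (s59b_datumT M p hpM hp3 h2M ↥L₀ (algebraMap ↥L₀ Kb) κ G hdeg hT hdegM hπ e ε he hε hεinv hε0 hpe
        hperf).Cz
      (s59b_three_Xz M p hpM hp3 h2M ↥L₀ (algebraMap ↥L₀ Kb) κ G hdeg hT hdegM hπ e ε he hε hεinv hε0 hpe
        hperf) Γ.s f)
    {x : JZero (M * p)} (hf : s33d_IsKumGen p x (s18q_incl (M * p) L₀ f)) (a₀ : ℤ)
    (hx : heckeOperatorBar (M * p) ⟨ℓ, hℓ.out⟩ x = a₀ • x)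
    (ha₀ : ¬ (p : ℤ) ∣ a₀ - ((ℓ : ℤ) + 1))
    {η : s34m_F ↥L₀ (M * p)}
    (hη : ∀ s, s44c_Unit (s59b_three_Ns M p hpM ↥L₀ (algebraMap ↥L₀ Kb) κ G s) η)
    (hη2 : ¬ (p : ℤ) ^ 2 ∣ s44c_delta
      (s59b_datumT M p hpM hp3 h2M ↥L₀ (algebraMap ↥L₀ Kb) κ G hdeg hT hdegM hπ e ε he hε hεinv hε0 hpe
        hperf) η)
    (s : s33s_Node (s34m_VV G (algebraMap ↥L₀ Kb) M p hp.out hpM) (s34m_unif G (M * p))
      (s18_chart1 (L₀ := ↥L₀) (s59b_tF ↥L₀ (M * p)))) :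
    ∃ (g' υ : s34m_F ↥L₀ (M * p)) (a' : ℤ), f = g' ^ p * υ ∧
      (∀ i, υ * s34m_unif G (M * p) ^ (-a') ∈ s34m_VV G (algebraMap ↥L₀ Kb) M p hp.out hpM i ∧
        (υ * s34m_unif G (M * p) ^ (-a'))⁻¹ ∈ s34m_VV G (algebraMap ↥L₀ Kb) M p hp.out hpM i) ∧
      ∀ Q ∈ s18_chart1 (L₀ := ↥L₀) (s59b_tF ↥L₀ (M * p)),
        s34f_through (s34x_infRing (s34m_VV G (algebraMap ↥L₀ Kb) M p hp.out hpM))
          (s18_chart1 (L₀ := ↥L₀) (s59b_tF ↥L₀ (M * p))) s.1 Q → Q.ord υ = 0 := by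
  have hf0 : f ≠ 0 := fun h0 => hf.1 (by rw [h0, map_zero])
  obtain ⟨c₀, g, hc₀, hg, hrel⟩ := s59b_three_tau_rel M p L₀ ℓ hℓN ζ₀ hζ₀ hf a₀ hx
  have hm : ¬ (p : ℤ) ∣ (ℓ : ℤ) + 1 - a₀ := fun hd => ha₀ (by
    have := dvd_neg.mpr hd
    rwa [neg_sub] at this)
  exact s59b_three_star_local M p hpM hp3 h2M ↥L₀ (algebraMap ↥L₀ Kb) κ G hdeg hT hdegM hπ e ε he hε hεinv
    hε0 hpe hperf Γ hb hsub hWi hWz hcτ hc hf0 ha hhN hh heq hnode hsi hsz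
    (s33t_tau (M * p) ℓ hℓN L₀ ζ₀ hζ₀) ℓ
    (s33t_tau_algebraMap (M * p) ℓ hℓN L₀ ζ₀ hζ₀)
    (s59b_three_tau_cong_i M p hpM hp3 h2M L₀ κ G hdeg hT hdegM hπ e ε he hε hεinv hε0 hpe hperf ℓ hℓN ζ₀
      hζ₀)
    (s59b_three_tau_cong_z M p hpM hp3 h2M L₀ κ G hdeg hT hdegM hπ e ε he hε hεinv hε0 hpe hperf ℓ hℓN ζ₀
      hζ₀)
    (s59b_three_tau_val_i M p hpM hp3 h2M L₀ κ G hdeg hT hdegM hπ e ε he hε hεinv hε0 hpe hperf ℓ hℓN ζ₀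
      hζ₀)
    (s59b_three_tau_val_z M p hpM hp3 h2M L₀ κ G hdeg hT hdegM hπ e ε he hε hεinv hε0 hpe hperf ℓ hℓN ζ₀
      hζ₀)
    (fun y => by rw [hΓs, hΓs, s44c_tau_galois])
    hc₀ hg a₀ hrel hm hη hη2 s

end ThreeTau

section ThreeEta

variable (M p : ℕ) [NeZero M] [hp : Fact p.Prime] (hpM : ¬ p ∣ M) (hp3 : p = 3) (h2M : 2 ∣ M)
  (K₀ : Type) [Field K₀] [NumberField K₀] (φ : K₀ →+* Kb)
  (κ : Type) [Field κ] [CharP κ p] [PerfectField κ]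
  (G : s18g_GaussData K₀ κ) [IsDiscreteValuationRing G.A]
  (hdeg : s34m_HDeg K₀ M p) (hT : s18g_HT κ M) (hdegM : s18g_HDeg K₀ M)
  (hπ : Function.Surjective G.π)
  (e : ℕ) (ε : K₀) (he : 0 < e) (hε : ε ∈ G.A) (hεinv : ε⁻¹ ∈ G.A) (hε0 : ε ≠ 0)
  (hpe : (p : K₀) = ε * ((G.ϖ : G.A) : K₀) ^ e) (hperf : ∀ c : κ, ∃ d : κ, d ^ p = c)

include hp3 in
/-- `p = 3`: `p² ∣ 4 e ⇒ p² ∣ e`. -/
theorem s59b_sq_dvd_of_four (e' : ℕ) (h : (p : ℤ) ^ 2 ∣ -(2 * (e' : ℤ)) - 2 * (e' : ℤ)) :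
    p ^ 2 ∣ e' := by
  subst hp3
  have h1 : ((3 ^ 2 : ℕ) : ℤ) ∣ ((4 * e' : ℕ) : ℤ) := by
    push_cast
    have : (-(2 * (e' : ℤ)) - 2 * (e' : ℤ)) = -(4 * (e' : ℤ)) := by ring
    rw [this] at h
    exact (dvd_neg.mp h)
  have h2 : 3 ^ 2 ∣ 4 * e' := Int.natCast_dvd_natCast.mp h1
  have hcop : Nat.Coprime (3 ^ 2) 4 := by norm_num
  exact hcop.dvd_of_dvd_mul_left h2

include hp3 in
/-- `p = 3`: `p ∣ 4 e ⇒ p ∣ e`. -/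
theorem s59b_dvd_of_four (e' : ℕ) (h : (p : ℤ) ∣ -(2 * (e' : ℤ)) - 2 * (e' : ℤ)) :
    p ∣ e' := by
  subst hp3
  have h1 : ((3 : ℕ) : ℤ) ∣ ((4 * e' : ℕ) : ℤ) := by
    push_cast
    have : (-(2 * (e' : ℤ)) - 2 * (e' : ℤ)) = -(4 * (e' : ℤ)) := by ring
    rw [this] at h
    exact (dvd_neg.mp h)
  have h2 : 3 ∣ 4 * e' := Int.natCast_dvd_natCast.mp h1
  have hcop : Nat.Coprime 3 4 := by norm_num
  exact hcop.dvd_of_dvd_mul_left h2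

/-- the two valuations and `δ` of a modular unit of type `η₂`. -/
theorem s59b_three_eta_delta {g₀ : s34m_F K₀ (M * p)} (hg₀ : g₀ ≠ 0)
    (hinf : g₀ * (s34m_unif G (M * p) ^ (2 * e))⁻¹ ∈ s34m_Vinf G (M * p) ∧
      (g₀ * (s34m_unif G (M * p) ^ (2 * e))⁻¹)⁻¹ ∈ s34m_Vinf G (M * p))
    (hzero : g₀ * s34m_unif G (M * p) ^ (2 * e) ∈ s34m_Vzero G φ M p hp.out hpM ∧
      (g₀ * s34m_unif G (M * p) ^ (2 * e))⁻¹ ∈ s34m_Vzero G φ M p hp.out hpM) :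
    s44c_delta
        (s59b_datumT M p hpM hp3 h2M K₀ φ κ G hdeg hT hdegM hπ e ε he hε hεinv hε0 hpe hperf) g₀ =
      -((2 * e : ℕ) : ℤ) - ((2 * e : ℕ) : ℤ) := by
  set Z := s59b_datumT M p hpM hp3 h2M K₀ φ κ G hdeg hT hdegM hπ e ε he hε hεinv hε0 hpe hperf
    with hZ
  have hϖ0 : s34m_unif G (M * p) ≠ 0 := s34m_unif_ne_zero G (M * p)
  have hi : s44c_Val Z.Di ((2 * e : ℕ) : ℤ) g₀ := by
    refine ⟨g₀ * (s34m_unif G (M * p) ^ (2 * e))⁻¹,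
      mul_ne_zero hg₀ (inv_ne_zero (pow_ne_zero _ hϖ0)), hinf.1, hinf.2, ?_⟩
    show g₀ = s34m_unif G (M * p) ^ ((2 * e : ℕ) : ℤ) * _
    rw [zpow_natCast]
    field_simp
  have hz : s44c_Val Z.Dz (-((2 * e : ℕ) : ℤ)) g₀ := by
    refine ⟨g₀ * s34m_unif G (M * p) ^ (2 * e),
      mul_ne_zero hg₀ (pow_ne_zero _ hϖ0), hzero.1, hzero.2, ?_⟩
    show g₀ = s34m_unif G (M * p) ^ (-((2 * e : ℕ) : ℤ)) * _
    rw [zpow_neg, zpow_natCast]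
    field_simp
  exact s44c_delta_eq hi hz

include hp3 h2M he hε hpe in
/-- a function without zero or pole where `j` is regular is a unit at every node of the chart `{t regular}`. -/
theorem s59b_three_eta_unit {g₀ : s34m_F K₀ (M * p)} (hg₀ : g₀ ≠ 0)
    (hord : ∀ Q : Place K₀ (s34m_F K₀ (M * p)), 0 ≤ Q.ord (s18g_jF (K := K₀) (M * p)) →
      Q.ord g₀ = 0) :
    ∀ s, s44c_Unit (s59b_three_Ns M p hpM K₀ φ κ G s) g₀ :=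
  fun s => ⟨hg₀, fun Q hQ => hord Q
    (s59b_node_j_regular M p hpM hp3 h2M K₀ φ κ G e ε he hε hpe s Q hQ)⟩

/-- **a modular unit of type `η₂`** (`δ = -4 e`) **is an admissible `η`** for `s59b_three_star_local` /
`s59b_three_star_tau`: a unit at every node, `p² ∤ δ η` as soon as `p² ∤ e`. -/
theorem s59b_three_eta {g₀ : s34m_F K₀ (M * p)} (hg₀ : g₀ ≠ 0)
    (hord : ∀ Q : Place K₀ (s34m_F K₀ (M * p)), 0 ≤ Q.ord (s18g_jF (K := K₀) (M * p)) →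
      Q.ord g₀ = 0)
    (hinf : g₀ * (s34m_unif G (M * p) ^ (2 * e))⁻¹ ∈ s34m_Vinf G (M * p) ∧
      (g₀ * (s34m_unif G (M * p) ^ (2 * e))⁻¹)⁻¹ ∈ s34m_Vinf G (M * p))
    (hzero : g₀ * s34m_unif G (M * p) ^ (2 * e) ∈ s34m_Vzero G φ M p hp.out hpM ∧
      (g₀ * s34m_unif G (M * p) ^ (2 * e))⁻¹ ∈ s34m_Vzero G φ M p hp.out hpM)
    (hp2 : ¬ p ^ 2 ∣ e) :
    (∀ s, s44c_Unit (s59b_three_Ns M p hpM K₀ φ κ G s) g₀) ∧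
      ¬ (p : ℤ) ^ 2 ∣ s44c_delta
        (s59b_datumT M p hpM hp3 h2M K₀ φ κ G hdeg hT hdegM hπ e ε he hε hεinv hε0 hpe hperf) g₀ := by
  refine ⟨s59b_three_eta_unit M p hpM hp3 h2M K₀ φ κ G e ε he hε hpe hg₀ hord, ?_⟩
  rw [s59b_three_eta_delta M p hpM hp3 h2M K₀ φ κ G hdeg hT hdegM hπ e ε he hε hεinv hε0 hpe hperf
    hg₀ hinf hzero]
  intro hd
  apply hp2
  apply s59b_sq_dvd_of_four p hp3 e
  push_cast at hd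
  exact hd

/-- the same in the tame case: `p ∤ δ η` as soon as `p ∤ e`. -/
theorem s59b_three_eta_tame {g₀ : s34m_F K₀ (M * p)} (hg₀ : g₀ ≠ 0)
    (hord : ∀ Q : Place K₀ (s34m_F K₀ (M * p)), 0 ≤ Q.ord (s18g_jF (K := K₀) (M * p)) →
      Q.ord g₀ = 0)
    (hinf : g₀ * (s34m_unif G (M * p) ^ (2 * e))⁻¹ ∈ s34m_Vinf G (M * p) ∧
      (g₀ * (s34m_unif G (M * p) ^ (2 * e))⁻¹)⁻¹ ∈ s34m_Vinf G (M * p))
    (hzero : g₀ * s34m_unif G (M * p) ^ (2 * e) ∈ s34m_Vzero G φ M p hp.out hpM ∧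
      (g₀ * s34m_unif G (M * p) ^ (2 * e))⁻¹ ∈ s34m_Vzero G φ M p hp.out hpM)
    (hp1 : ¬ p ∣ e) :
    (∀ s, s44c_Unit (s59b_three_Ns M p hpM K₀ φ κ G s) g₀) ∧
      ¬ (p : ℤ) ∣ s44c_delta
        (s59b_datumT M p hpM hp3 h2M K₀ φ κ G hdeg hT hdegM hπ e ε he hε hεinv hε0 hpe hperf) g₀ := by
  refine ⟨s59b_three_eta_unit M p hpM hp3 h2M K₀ φ κ G e ε he hε hpe hg₀ hord, ?_⟩
  rw [s59b_three_eta_delta M p hpM hp3 h2M K₀ φ κ G hdeg hT hdegM hπ e ε he hε hεinv hε0 hpe hperf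
    hg₀ hinf hzero]
  intro hd
  apply hp1
  apply s59b_dvd_of_four p hp3 e
  push_cast at hd
  exact hd

end ThreeEta

end Fermat.Agent.Lib.S59
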