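/-
PROGRAMME (R2) = S59, node **[MRP_W] at `p = 3`** (helper2, prefix `s59b_`), file 2: **THE INTERFACE OF THE `t₂`-PORT.**
STATEMENTS (`def … : Prop`) + the two generic wirings.

The definitions `s44i_Finite`, `s44i_Toric`, `s44i_RedTriv` of `Lib/S44/Iface.lean` hard-code the node places of the
`j`-chart (`s33t_nodeN`).  Here they are GENERIC in the node family `N : s33t_NodeFam M p P`
(`s44i_Finite M p hpM P x = s59b_FiniteN M p hpM P (s33t_nodeN M p hpM P) x` by `rfl`); the port uses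
`N = s33t_nodeN_t2 M p hpM P` (`Lib/S33/TPPackT.lean`).

Leaves at `p = 3` (`M` = the level prime to `p`, `2 ∣ M`):
`s59b_OldT` [L2], `s59b_StarT` [L3], `s59b_LiftTorT` [L4a], `s59b_LiftOccT` [L4b], `s59b_MFinT` [L5];
`s59b_liftT_of : [L4a] → [L4b] → [L4]`.
-/
import Fermat.Agent.Lib.S44.Iface
import Fermat.Agent.Lib.S33.TPPackT

set_option autoImplicit false
set_option linter.style.haveILetI false
set_option linter.unusedSectionVars false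
set_option synthInstance.maxHeartbeats 400000

namespace Fermat.Agent.Lib.S59

open ModularCurve HahnSeries AlgebraicCurve Fermat.Agent.Lib.S18 Fermat.Agent.Lib.S28
  Fermat.Agent.Lib.S29 Fermat.Agent.Lib.S37 Fermat.Agent.Lib.FF Fermat.Agent.Lib.S34
  Fermat.Agent.Lib.S35 Fermat.Agent.Lib.S33 Fermat.Agent.Lib.S44

noncomputable section

local notation "Kb" => AlgebraicClosure ℚ
local notation "Γℚ" => (AlgebraicClosure ℚ ≃ₐ[ℚ] AlgebraicClosure ℚ)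

section Local

variable (M p : ℕ) [NeZero M] [hp : Fact p.Prime] (hpM : ¬ p ∣ M) (P : ValuationSubring Kb)
  (N : s33t_NodeFam M p P)

/-- **`x` is finite at `P`** (node family `N`). -/
def s59b_FiniteN (x : JZero (M * p)) : Prop :=
  ∃ Lx : IntermediateField ℚ Kb, FiniteDimensional ℚ ↥Lx ∧
    ∀ (L₀ : IntermediateField ℚ Kb) [FiniteDimensional ℚ ↥L₀] [Normal ℚ ↥L₀]
      [IsDiscreteValuationRing ↥(s18q_A0 P L₀)] (ϖ : ↥(s18q_A0 P L₀)) (hϖ : Irreducible ϖ),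
      Lx ≤ L₀ →
      ∃ h : s34m_F ↥L₀ (M * p),
        s33d_IsKumGen p x (s18q_incl (M * p) L₀ h) ∧
        h ∈ s34m_Vinf (s37r_G P L₀ ϖ hϖ) (M * p) ∧ h⁻¹ ∈ s34m_Vinf (s37r_G P L₀ ϖ hϖ) (M * p) ∧
        h ∈ s34m_Vzero (s37r_G P L₀ ϖ hϖ) (algebraMap ↥L₀ Kb) M p hp.out hpM ∧
        h⁻¹ ∈ s34m_Vzero (s37r_G P L₀ ϖ hϖ) (algebraMap ↥L₀ Kb) M p hp.out hpM ∧
        ∀ Q ∈ N L₀ ϖ hϖ, Q.ord h = 0

/-- **`x` is toric at `P`** (node family `N`). -/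
def s59b_ToricN (x : JZero (M * p)) : Prop :=
  ∃ Lx : IntermediateField ℚ Kb, FiniteDimensional ℚ ↥Lx ∧
    ∀ (L₀ : IntermediateField ℚ Kb) [FiniteDimensional ℚ ↥L₀] [Normal ℚ ↥L₀]
      [IsDiscreteValuationRing ↥(s18q_A0 P L₀)] (ϖ : ↥(s18q_A0 P L₀)) (hϖ : Irreducible ϖ),
      Lx ≤ L₀ →
      ∃ h : s34m_F ↥L₀ (M * p),
        s33d_IsKumGen p x (s18q_incl (M * p) L₀ h) ∧
        (∃ y : s34m_F ↥L₀ (M * p), y ∈ s34m_Vinf (s37r_G P L₀ ϖ hϖ) (M * p) ∧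
          y ∈ s34m_Vzero (s37r_G P L₀ ϖ hϖ) (algebraMap ↥L₀ Kb) M p hp.out hpM ∧
          h - 1 = s34m_unif (s37r_G P L₀ ϖ hϖ) (M * p) * y) ∧
        ∀ Q ∈ N L₀ ϖ hϖ, Q.ord h = 0

/-- the reduction of `x` on the component `C_∞` (`i = false`; resp. `C_0`, `i = true`) is trivial (node family `N`). -/
def s59b_RedTrivN (i : Bool) (x : JZero (M * p)) : Prop :=
  ∃ Lx : IntermediateField ℚ Kb, FiniteDimensional ℚ ↥Lx ∧
    ∀ (L₀ : IntermediateField ℚ Kb) [FiniteDimensional ℚ ↥L₀] [Normal ℚ ↥L₀]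
      [IsDiscreteValuationRing ↥(s18q_A0 P L₀)] (ϖ : ↥(s18q_A0 P L₀)) (hϖ : Irreducible ϖ),
      Lx ≤ L₀ →
      ∃ h : s34m_F ↥L₀ (M * p),
        s33d_IsKumGen p x (s18q_incl (M * p) L₀ h) ∧
        h ∈ s34m_Vinf (s37r_G P L₀ ϖ hϖ) (M * p) ∧ h⁻¹ ∈ s34m_Vinf (s37r_G P L₀ ϖ hϖ) (M * p) ∧
        h ∈ s34m_Vzero (s37r_G P L₀ ϖ hϖ) (algebraMap ↥L₀ Kb) M p hp.out hpM ∧
        h⁻¹ ∈ s34m_Vzero (s37r_G P L₀ ϖ hϖ) (algebraMap ↥L₀ Kb) M p hp.out hpM ∧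
        (∀ Q ∈ N L₀ ϖ hϖ, Q.ord h = 0) ∧
        ∃ (c : ↥L₀) (a y : s34m_F ↥L₀ (M * p)), c ≠ 0 ∧
          (if i then
            a ∈ s34m_Vzero (s37r_G P L₀ ϖ hϖ) (algebraMap ↥L₀ Kb) M p hp.out hpM ∧
            a⁻¹ ∈ s34m_Vzero (s37r_G P L₀ ϖ hϖ) (algebraMap ↥L₀ Kb) M p hp.out hpM ∧
            y ∈ s34m_Vzero (s37r_G P L₀ ϖ hϖ) (algebraMap ↥L₀ Kb) M p hp.out hpM
          else
            a ∈ s34m_Vinf (s37r_G P L₀ ϖ hϖ) (M * p) ∧ a⁻¹ ∈ s34m_Vinf (s37r_G P L₀ ϖ hϖ) (M * p) ∧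
            y ∈ s34m_Vinf (s37r_G P L₀ ϖ hϖ) (M * p)) ∧
          h - algebraMap ↥L₀ (s34m_F ↥L₀ (M * p)) c * a ^ p =
            s34m_unif (s37r_G P L₀ ϖ hϖ) (M * p) * y

theorem s59b_finiteN_j (x : JZero (M * p)) :
    s59b_FiniteN M p hpM P (s33t_nodeN M p hpM P) x ↔ s44i_Finite M p hpM P x := Iff.rfl

theorem s59b_toricN_j (x : JZero (M * p)) :
    s59b_ToricN M p hpM P (s33t_nodeN M p hpM P) x ↔ s44i_Toric M p hpM P x := Iff.rfl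

theorem s59b_redTrivN_j (i : Bool) (x : JZero (M * p)) :
    s59b_RedTrivN M p hpM P (s33t_nodeN M p hpM P) i x ↔ s44i_RedTriv M p hpM P i x := Iff.rfl

end Local

/-! ### The leaves at `p = 3`, `2 ∣ M` (node family `s33t_nodeN_t2`) -/

/-- **[L2] at `p = 3`**: a non-zero eigen-`3`-torsion point at an EVEN level `M` prime to `3` gives an eigenform of
level `M`. -/
def s59b_OldT : Prop :=
  ∀ (M : ℕ) [NeZero M] (p : ℕ), p.Prime → p = 3 → 2 ∣ M → ¬ p ∣ M →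
    ∀ (a : ℕ → ℤ) (B : Finset ℕ), (∀ q : ℕ, q.Prime → q ∣ M * p → q ∈ B) →
      ∀ y : JZero M, y ≠ 0 → s44i_Eig M p a B y → s44i_LevelOcc M p a B

/-- **[L3] = (★) at `p = 3`**. -/
def s59b_StarT : Prop :=
  ∀ (M : ℕ) [NeZero M] (p : ℕ) [hp : Fact p.Prime], p = 3 → 2 ∣ M → ∀ (hpM : ¬ p ∣ M), Squarefree M →
    ∀ (P : ValuationSubring Kb) (hP : P.LiesOverPrime p)
      (L : IntermediateField ℚ Kb) [FiniteDimensional ℚ ↥L] [Normal ℚ ↥L],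
      s44i_SubCrit p hp.out P hP L → (∀ ζ : Kb, ζ ^ p = 1 → ζ ∈ L) →
    ∀ x : JZero (M * p), p • x = 0 →
      s35c_alphaPush M p hp.out hpM x = 0 → s35c_betaPush M p hp.out hpM x = 0 →
      (∀ σ : Γℚ, (∀ a ∈ L, σ a = a) → σ • x = x) →
      (∃ (ℓ₀ : Nat.Primes) (a₀ : ℤ), ¬ (ℓ₀ : ℕ) ∣ M * p ∧
        heckeOperatorBar (M * p) ℓ₀ x = a₀ • x ∧ ¬ (p : ℤ) ∣ a₀ - ((ℓ₀ : ℕ) + 1)) →
      s59b_FiniteN M p hpM P (s33t_nodeN_t2 M p hpM P) x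

/-- **[L4a] = [GLUE-p] at `p = 3`**. -/
def s59b_LiftTorT : Prop :=
  ∀ (M : ℕ) [NeZero M] (p : ℕ) [hp : Fact p.Prime], p = 3 → 2 ∣ M → ∀ (hpM : ¬ p ∣ M), Squarefree M →
    ∀ (P : ValuationSubring Kb), P.LiesOverPrime p →
    ∀ x : JZero (M * p), p • x = 0 → s59b_FiniteN M p hpM P (s33t_nodeN_t2 M p hpM P) x →
      s59b_RedTrivN M p hpM P (s33t_nodeN_t2 M p hpM P) false x →
      s59b_RedTrivN M p hpM P (s33t_nodeN_t2 M p hpM P) true x →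
      s59b_ToricN M p hpM P (s33t_nodeN_t2 M p hpM P) x

/-- **[L4b] = [LIFT] at `p = 3`**. -/
def s59b_LiftOccT : Prop :=
  ∀ (M : ℕ) [NeZero M] (p : ℕ) [hp : Fact p.Prime], p = 3 → 2 ∣ M → ∀ (hpM : ¬ p ∣ M), Squarefree M →
    ∀ (P : ValuationSubring Kb), P.LiesOverPrime p →
    ∀ (a : ℕ → ℤ) (B : Finset ℕ), (∀ q : ℕ, q.Prime → q ∣ M * p → q ∈ B) →
    ∀ x : JZero (M * p), s44i_Eig (M * p) p a B x →
      s35c_alphaPush M p hp.out hpM x = 0 → s35c_betaPush M p hp.out hpM x = 0 →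
      s59b_FiniteN M p hpM P (s33t_nodeN_t2 M p hpM P) x →
      (¬ s59b_RedTrivN M p hpM P (s33t_nodeN_t2 M p hpM P) false x ∨
        ¬ s59b_RedTrivN M p hpM P (s33t_nodeN_t2 M p hpM P) true x) → s44i_LevelOcc M p a B

/-- **[L4] at `p = 3`**. -/
def s59b_LiftT : Prop :=
  ∀ (M : ℕ) [NeZero M] (p : ℕ) [hp : Fact p.Prime], p = 3 → 2 ∣ M → ∀ (hpM : ¬ p ∣ M), Squarefree M →
    ∀ (P : ValuationSubring Kb), P.LiesOverPrime p →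
    ∀ (a : ℕ → ℤ) (B : Finset ℕ), (∀ q : ℕ, q.Prime → q ∣ M * p → q ∈ B) →
    ∀ x : JZero (M * p), s44i_Eig (M * p) p a B x →
      s35c_alphaPush M p hp.out hpM x = 0 → s35c_betaPush M p hp.out hpM x = 0 →
      s59b_FiniteN M p hpM P (s33t_nodeN_t2 M p hpM P) x →
      s59b_ToricN M p hpM P (s33t_nodeN_t2 M p hpM P) x ∨ s44i_LevelOcc M p a B

/-- `[L4] ⇐ [L4a] + [L4b]`. -/
theorem s59b_liftT_of (ha : s59b_LiftTorT) (hb : s59b_LiftOccT) : s59b_LiftT := by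
  intro M _ p hp hp3 h2M hpM hsq P hP a B hB x hE hα hβ hfin
  by_cases h1 : s59b_RedTrivN M p hpM P (s33t_nodeN_t2 M p hpM P) false x
  · by_cases h2 : s59b_RedTrivN M p hpM P (s33t_nodeN_t2 M p hpM P) true x
    · exact Or.inl (ha M p hp3 h2M hpM hsq P hP x hE.1 hfin h1 h2)
    · exact Or.inr (hb M p hp3 h2M hpM hsq P hP a B hB x hE hα hβ hfin (Or.inr h2))
  · exact Or.inr (hb M p hp3 h2M hpM hsq P hP a B hB x hE hα hβ hfin (Or.inl h1))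

/-- **[L5] = (M°) for toric points at `p = 3`**. -/
def s59b_MFinT : Prop :=
  ∀ (M : ℕ) [NeZero M] (p : ℕ) [hp : Fact p.Prime], p = 3 → 2 ∣ M → ∀ (hpM : ¬ p ∣ M),
    ∀ (P : ValuationSubring Kb), P.LiesOverPrime p →
    ∀ x : JZero (M * p), p • x = 0 →
      s35c_alphaPush M p hp.out hpM x = 0 → s35c_betaPush M p hp.out hpM x = 0 →
      s59b_ToricN M p hpM P (s33t_nodeN_t2 M p hpM P) x → s33_IsMuType (M * p) p P x

end

end Fermat.Agent.Lib.S59
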