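/-
PROGRAMME (R2) = S59, node **[MRP_W] at `p = 3`**, leaf [L4b] (helper2, prefix `s59b_`): **THE SUBSTITUTION
`j = (t + 256)³ / t²` ON POLYNOMIALS** (pure algebra, for the change of chart coordinate `j → t₂` in the test data of [GR]).

For `j w² = (w + 256)³` in a commutative ring `E`:
* `s59b_gsub N c` (`c ∈ R[X]`, `2 deg c ≤ N`)  : `(s59b_gsub N c)(w) = w ^ N · c(j)`;
* `s59b_gsub2 m n r P` (`P ∈ R[X][Y]`, `deg_Y P ≤ n`, `2 deg P_i ≤ m (n - i) + r`) :
  `(s59b_gsub2 m n r P)(w, y w ^ m) = w ^ (m n + r) · P(j, y)`, the same for `∂_Y` (up to the factor `w ^ m`), and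
  `s59b_gsub2 m n 0 P` is monic if `P` is.
-/
import Mathlib

set_option autoImplicit false

namespace Fermat.Agent.Lib.S59

open Polynomial

section Sub

variable {R E : Type*} [CommRing R] [CommRing E]

/-- `t ^ N · c((t + 256)³ / t²)` as a polynomial in `t` (`2 deg c ≤ N`). -/
noncomputable def s59b_gsub (N : ℕ) (c : R[X]) : R[X] :=
  ∑ k ∈ Finset.range (c.natDegree + 1), C (c.coeff k) * (X + 256) ^ (3 * k) * X ^ (N - 2 * k)

theorem s59b_gsub_eval₂ (ψ : R →+* E) {j w : E} (hrel : j * w ^ 2 = (w + 256) ^ 3) (N : ℕ)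
    (c : R[X]) (hN : 2 * c.natDegree ≤ N) :
    (s59b_gsub N c).eval₂ ψ w = w ^ N * c.eval₂ ψ j := by
  rw [s59b_gsub, eval₂_finsetSum, eval₂_eq_sum_range' ψ (Nat.lt_succ_self _), Finset.mul_sum]
  refine Finset.sum_congr rfl fun k hk => ?_
  have hk' : k ≤ c.natDegree := Nat.lt_succ_iff.mp (Finset.mem_range.mp hk)
  have h2k : 2 * k ≤ N := by omega
  rw [eval₂_mul, eval₂_mul, eval₂_C, eval₂_pow, eval₂_pow, eval₂_add, eval₂_X, eval₂_ofNat]
  have e : w ^ N = w ^ (N - 2 * k) * (w ^ 2) ^ k := by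
    rw [← pow_mul, ← pow_add]
    congr 1
    omega
  rw [e, pow_mul (w + 256), ← hrel, mul_pow]
  ring

/-- the two-variable substitution `(j, y) → (w, y w ^ m)`. -/
noncomputable def s59b_gsub2 (m n r : ℕ) (P : R[X][X]) : R[X][X] :=
  ∑ i ∈ Finset.range (n + 1), monomial i (s59b_gsub (m * (n - i) + r) (P.coeff i))

theorem s59b_gsub2_eval₂ (ψ : R →+* E) {j w : E} (hrel : j * w ^ 2 = (w + 256) ^ 3) (m n r : ℕ)
    (P : R[X][X]) (hn : P.natDegree ≤ n)
    (hd : ∀ i ≤ n, 2 * (P.coeff i).natDegree ≤ m * (n - i) + r) (y : E) :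
    (s59b_gsub2 m n r P).eval₂ (eval₂RingHom ψ w) (y * w ^ m) =
      w ^ (m * n + r) * P.eval₂ (eval₂RingHom ψ j) y := by
  rw [s59b_gsub2, eval₂_finsetSum, eval₂_eq_sum_range' _ (Nat.lt_succ_of_le hn), Finset.mul_sum]
  refine Finset.sum_congr rfl fun i hi => ?_
  have hi' : i ≤ n := Nat.lt_succ_iff.mp (Finset.mem_range.mp hi)
  rw [eval₂_monomial, coe_eval₂RingHom, coe_eval₂RingHom, s59b_gsub_eval₂ ψ hrel _ _ (hd i hi'),
    mul_pow, ← pow_mul]
  have e : w ^ (m * n + r) = w ^ (m * (n - i) + r) * w ^ (m * i) := by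
    rw [← pow_add]
    congr 1
    have : m * (n - i) + m * i = m * n := by rw [← Nat.mul_add, Nat.sub_add_cancel hi']
    omega
  rw [e]
  ring

theorem s59b_gsub2_deriv_eval₂ (ψ : R →+* E) {j w : E} (hrel : j * w ^ 2 = (w + 256) ^ 3)
    (m n r : ℕ) (P : R[X][X]) (hn : P.natDegree ≤ n)
    (hd : ∀ i ≤ n, 2 * (P.coeff i).natDegree ≤ m * (n - i) + r) (y : E) :
    (derivative (s59b_gsub2 m n r P)).eval₂ (eval₂RingHom ψ w) (y * w ^ m) * w ^ m =
      w ^ (m * n + r) * (derivative P).eval₂ (eval₂RingHom ψ j) y := by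
  have hP : derivative P = ∑ i ∈ Finset.range (n + 1), monomial (i - 1) (P.coeff i * (i : R[X])) := by
    conv_lhs => rw [as_sum_range' P (n + 1) (Nat.lt_succ_of_le hn)]
    rw [derivative_sum]
    exact Finset.sum_congr rfl fun i _ => derivative_monomial _ _
  rw [hP, s59b_gsub2, derivative_sum, eval₂_finsetSum, eval₂_finsetSum, Finset.mul_sum,
    Finset.sum_mul]
  refine Finset.sum_congr rfl fun i hi => ?_
  have hi' : i ≤ n := Nat.lt_succ_iff.mp (Finset.mem_range.mp hi)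
  rw [derivative_monomial, eval₂_monomial, eval₂_monomial, map_mul, map_mul, map_natCast,
    map_natCast, coe_eval₂RingHom, coe_eval₂RingHom, s59b_gsub_eval₂ ψ hrel _ _ (hd i hi')]
  rcases Nat.eq_zero_or_pos i with rfl | hpos
  · simp
  · have e : w ^ (m * n + r) = w ^ (m * (n - i) + r) * (w ^ m) ^ (i - 1) * w ^ m := by
      rw [← pow_mul, ← pow_add, ← pow_add]
      congr 1
      have h1 : m * (n - i) + m * i = m * n := by rw [← Nat.mul_add, Nat.sub_add_cancel hi']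
      have h2 : m * (i - 1) + m = m * i := by
        rw [← Nat.mul_succ, Nat.succ_eq_add_one, Nat.sub_add_cancel hpos]
      omega
    rw [e, mul_pow]
    ring

theorem s59b_gsub_zero_one [Nontrivial R] : s59b_gsub 0 (1 : R[X]) = 1 := by
  rw [s59b_gsub, natDegree_one, zero_add, Finset.sum_range_one]
  simp

theorem s59b_gsub2_monic [Nontrivial R] (m n : ℕ) (P : R[X][X]) (hP : P.Monic) (hn : P.natDegree = n) :
    (s59b_gsub2 m n 0 P).Monic := by
  rw [s59b_gsub2, Finset.sum_range_succ]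
  have h1 : P.coeff n = 1 := by rw [← hn]; exact hP.coeff_natDegree
  rw [h1, Nat.sub_self, Nat.mul_zero, zero_add, s59b_gsub_zero_one, monomial_one_right_eq_X_pow,
    add_comm]
  apply monic_X_pow_add
  refine lt_of_le_of_lt (degree_sum_le _ _) ?_
  refine (Finset.sup_lt_iff (WithBot.bot_lt_coe n)).mpr ?_
  intro i hi
  exact lt_of_le_of_lt (degree_monomial_le _ _)
    (WithBot.coe_lt_coe.mpr (Finset.mem_range.mp hi))

end Sub

end Fermat.Agent.Lib.S59
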