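/-
PROGRAMME (R2) = S59, node **[MRP_W] at `p = 3`**, leaf [L4b] (helper2, prefix `s59b_g_`): **[GR] AT TOP LEVEL FOR `p = 3`,
`2 ∣ M`** — helper4's `s44gd_HypA M A ∧ s44gd_HypB M A` for every valuation subring `A ⊆ ℚ̄` above `3`, `3 ∤ M`, `2 ∣ M`.

Port of helper6's `s44g_f_top` (`Lib/S44/GFinalTop.lean`).  The cusp theorem `s44g_f_ab`, the transformation
`s44gt_transform_gen` and helper2's test element `s44g_y_main` are coordinate-generic / valid for every `ℓ ∤ M`; the chart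
coordinate `w = j` (not a good chart at residue characteristic `3`) is replaced by `w = t₂`:
* `s59b_g_charts` : the two chart packages for `w`, `w⁻¹` (`s37rl_levelInputs_t2`);
* `s59b_g_bridge` : the test data `(y, G_y, H)` relative to `j` ⇒ the test data `(y w ^ m, G_y', H')` relative to `w`
  (`j w² = (w + 256)³`, `B3GSub.lean`);
* **`s59b_g_f_top`**.
-/
import Fermat.Agent.Lib.S44.GFinalTop
import Fermat.Agent.Lib.S59.B3GSub
import Fermat.Agent.Lib.S59.B3GSser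
import Fermat.Agent.Lib.S18.TLevelU

set_option autoImplicit false
set_option linter.style.haveILetI false
set_option linter.unusedSectionVars false
set_option synthInstance.maxHeartbeats 400000
set_option maxHeartbeats 1600000

noncomputable section

namespace Fermat.Agent.Lib.S59

open ModularCurve HahnSeries AlgebraicCurve Polynomial Fermat.Agent.Lib.S18 Fermat.Agent.Lib.FF
  Fermat.Agent.Lib.S37 Fermat.Agent.Lib.S29 Fermat.Agent.Lib.S44

local notation "Qbar" => AlgebraicClosure ℚ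

/-! ### Degree bounds -/

section Deg

variable {R : Type*} [CommRing R]

/-- the maximal degree of the coefficients of `P ∈ R[X][Y]`. -/
def s59b_gdeg (P : R[X][X]) : ℕ :=
  (Finset.range (P.natDegree + 1)).sup fun i => (P.coeff i).natDegree

theorem s59b_gdeg_le (P : R[X][X]) (i : ℕ) (hi : i ≤ P.natDegree) :
    (P.coeff i).natDegree ≤ s59b_gdeg P :=
  Finset.le_sup (f := fun i => (P.coeff i).natDegree) (Finset.mem_range.mpr (Nat.lt_succ_of_le hi))

end Deg

/-! ### The charts -/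

section Charts

variable (A : ValuationSubring Qbar) (M : ℕ) [NeZero M] {p : ℕ} [Fact p.Prime]
  (hA : A.LiesOverPrime p) (hpM : ¬ p ∣ M)

local notation "κ" => IsLocalRing.ResidueField A

/-- **the two chart packages at the top level** for `w` of `q`-expansion `t₂` and `w⁻¹` (`p = 3`, `2 ∣ M`, `p ∤ M`). -/
theorem s59b_g_charts (hp3 : p = 3) (h2M : 2 ∣ M) (w : ↥(modularFunctionFieldBar M))
    (hw : (w : LaurentSeries Qbar) = s18u_t2 Qbar) :
    haveI : FFGen Qbar (ffd_jBar M) := s18r_ffGen M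
    ∃ (D₁ : Type) (_ : CommRing D₁) (_ : IsDedekindDomain D₁)
      (_ : Algebra D₁ ↥(modularFunctionFieldFullC κ M))
      (_ : IsFractionRing D₁ ↥(modularFunctionFieldFullC κ M))
      (_ : Algebra κ D₁)
      (_ : IsScalarTower κ D₁ ↥(modularFunctionFieldFullC κ M))
      (PsiD₁ : ↥(s37r_B A M hA w) →+* D₁)
      (D₂ : Type) (_ : CommRing D₂) (_ : IsDedekindDomain D₂)
      (_ : Algebra D₂ ↥(modularFunctionFieldFullC κ M))
      (_ : IsFractionRing D₂ ↥(modularFunctionFieldFullC κ M))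
      (_ : Algebra κ D₂)
      (_ : IsScalarTower κ D₂ ↥(modularFunctionFieldFullC κ M))
      (PsiD₂ : ↥(s37r_B A M hA w⁻¹) →+* D₂),
      s37r_ChartHyp (ffd_jBar M) A (IsLocalRing.residue ↥A) (s37r_OF A M hA)
        (s37r_redF A M hA hpM) w PsiD₁ ∧
      s37r_ChartHyp (ffd_jBar M) A (IsLocalRing.residue ↥A) (s37r_OF A M hA)
        (s37r_redF A M hA hpM) w⁻¹ PsiD₂ := by
  haveI : FFGen Qbar (ffd_jBar M) := s18r_ffGen M
  obtain ⟨hlev₁, hlev₂⟩ := s37rl_levelInputs_t2 A M hA hpM hp3 h2M w hw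
  obtain ⟨hwO, hred⟩ := s37rl_redF_of_iota A M hA hpM w (s18u_t2 ↥A)
    (by rw [hw, s18u_coeffMap_t2])
  rw [s18u_coeffMap_t2] at hred
  have hw0 : w ≠ 0 := by
    intro h0
    apply s18u_t2_ne_zero Qbar
    rw [← hw, h0]
    rfl
  have hcoord₁ : s37b_Coord κ p
      ((s37r_redF A M hA hpM ⟨w, s37r7_w_mem_OF A M hA w hlev₁⟩ :
        ↥(modularFunctionFieldFullC κ M)) : LaurentSeries κ) := by
    rw [hred]; exact s37b_coord_t2 _ p
  have hcoord₂ : s37b_Coord κ p
      ((s37r_redF A M hA hpM ⟨w⁻¹, s37r7_w_mem_OF A M hA w⁻¹ hlev₂⟩ :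
        ↥(modularFunctionFieldFullC κ M)) : LaurentSeries κ) := by
    rw [s37rl_redF_inv A M hA hpM hw0 (s37r7_w_mem_OF A M hA w hlev₁), IntermediateField.coe_inv]
    exact s37b_coord_inv hcoord₁
  obtain ⟨D₁, i1, i2, i3, i4, i5, i6, PsiD₁, h₁⟩ :=
    s37rp_chartPackage A M hA hpM w hlev₁ hcoord₁ (s37r_P3s A M hA hpM _ hlev₁ hcoord₁)
  obtain ⟨D₂, j1, j2, j3, j4, j5, j6, PsiD₂, h₂⟩ :=
    s37rp_chartPackage A M hA hpM w⁻¹ hlev₂ hcoord₂ (s37r_P3s A M hA hpM _ hlev₂ hcoord₂)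
  exact ⟨D₁, i1, i2, i3, i4, i5, i6, PsiD₁, D₂, j1, j2, j3, j4, j5, j6, PsiD₂, h₁, h₂⟩

end Charts

/-! ### The bridge `j → t₂` -/

section Bridge

variable (A : ValuationSubring Qbar) (M : ℕ) [NeZero M]
  (w : ↥(modularFunctionFieldBar M)) (hw : (w : LaurentSeries Qbar) = s18u_t2 Qbar)
  {k : Type*} [Field k] (π : ↥A →+* k)

include hw in
theorem s59b_g_rel : s18g_jF (K := Qbar) M * w ^ 2 = (w + 256) ^ 3 := by
  apply Subtype.ext
  push_cast
  rw [s18g_coe_jF, hw]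
  exact s18u_t2_rel_j Qbar

include hw in
theorem s59b_g_w_ne_zero : w ≠ 0 := by
  intro h0
  apply s18u_t2_ne_zero Qbar
  rw [← hw, h0]
  rfl

include hw in
set_option maxHeartbeats 3200000 in
/-- **the bridge**: test data relative to `j` ⇒ test data relative to `w` (`q`-expansion `t₂`). -/
theorem s59b_g_bridge (Y : LaurentSeries ↥A)
    (hY1 : coeffMap A.subtype Y ∈ modularFunctionFieldBar M)
    (Gy H : (↥A)[X][X]) (hH : H.Monic)
    (hGy0 : Gy.eval₂ (eval₂RingHom ((algebraMap Qbar ↥(modularFunctionFieldBar M)).comp A.subtype)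
      (s18g_jF (K := Qbar) M)) (⟨coeffMap A.subtype Y, hY1⟩ : ↥(modularFunctionFieldBar M)) = 0)
    (hH0 : H.eval₂ (eval₂RingHom ((algebraMap Qbar ↥(modularFunctionFieldBar M)).comp A.subtype)
      (s18g_jF (K := Qbar) M)) (⟨coeffMap A.subtype Y, hY1⟩ : ↥(modularFunctionFieldBar M)) = 0)
    (hY5 : (derivative Gy).eval₂
      (eval₂RingHom ((HahnSeries.C : k →+* LaurentSeries k).comp π) (jqModC k))
      (coeffMap π Y) ≠ 0)
    (hY4 : ∀ f : ↥(modularFunctionFieldBar M), ∃ (d : Qbar[X]) (a : Qbar[X][X]),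
      aeval (s18g_jF (K := Qbar) M) d ≠ 0 ∧
      aeval (s18g_jF (K := Qbar) M) d * f =
        a.eval₂ (eval₂RingHom (algebraMap Qbar ↥(modularFunctionFieldBar M))
          (s18g_jF (K := Qbar) M)) (⟨coeffMap A.subtype Y, hY1⟩ : ↥(modularFunctionFieldBar M))) :
    ∃ (m : ℕ) (Gy' H' : (↥A)[X][X]), H'.Monic ∧
      Gy'.eval₂ (eval₂RingHom ((algebraMap Qbar ↥(modularFunctionFieldBar M)).comp A.subtype) w)
        ((⟨coeffMap A.subtype Y, hY1⟩ : ↥(modularFunctionFieldBar M)) * w ^ m) = 0 ∧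
      H'.eval₂ (eval₂RingHom ((algebraMap Qbar ↥(modularFunctionFieldBar M)).comp A.subtype) w)
        ((⟨coeffMap A.subtype Y, hY1⟩ : ↥(modularFunctionFieldBar M)) * w ^ m) = 0 ∧
      (derivative Gy').eval₂
        (eval₂RingHom ((HahnSeries.C : k →+* LaurentSeries k).comp π) (s18u_t2 k))
        (coeffMap π (Y * s18u_t2 ↥A ^ m)) ≠ 0 ∧
      ∀ f : ↥(modularFunctionFieldBar M), ∃ (d : Qbar[X]) (a : Qbar[X][X]),
        aeval w d ≠ 0 ∧
        aeval w d * f =
          a.eval₂ (eval₂RingHom (algebraMap Qbar ↥(modularFunctionFieldBar M)) w)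
            ((⟨coeffMap A.subtype Y, hY1⟩ : ↥(modularFunctionFieldBar M)) * w ^ m) := by
  classical
  set y : ↥(modularFunctionFieldBar M) := ⟨coeffMap A.subtype Y, hY1⟩ with hy
  have hrelF := s59b_g_rel M w hw
  have hrelk : jqModC k * s18u_t2 k ^ 2 = (s18u_t2 k + 256) ^ 3 := s18u_t2_rel_j k
  have hw0 := s59b_g_w_ne_zero M w hw
  have ht0 : s18u_t2 k ≠ 0 := s18u_t2_ne_zero k
  set φ : ↥A →+* ↥(modularFunctionFieldBar M) :=
    (algebraMap Qbar ↥(modularFunctionFieldBar M)).comp A.subtype with hφ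
  -- the exponent
  set nH := H.natDegree with hnH
  set m : ℕ := 2 * s59b_gdeg H with hm
  have hdH : ∀ i ≤ nH, 2 * (H.coeff i).natDegree ≤ m * (nH - i) + 0 := by
    intro i hi
    rcases Nat.lt_or_ge i nH with hlt | hge
    · have h1 : (H.coeff i).natDegree ≤ s59b_gdeg H := s59b_gdeg_le H i hi
      have h2 : 1 ≤ nH - i := by omega
      calc 2 * (H.coeff i).natDegree ≤ m * 1 := by omega
        _ ≤ m * (nH - i) := Nat.mul_le_mul_left _ h2
        _ = m * (nH - i) + 0 := rfl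
    · have hi' : i = nH := le_antisymm hi hge
      have h1 : H.coeff i = 1 := by rw [hi', hnH]; exact hH.coeff_natDegree
      rw [h1, natDegree_one]
      omega
  -- the relation
  set nG := Gy.natDegree with hnG
  set rG : ℕ := 2 * s59b_gdeg Gy with hrG
  have hdG : ∀ i ≤ nG, 2 * (Gy.coeff i).natDegree ≤ m * (nG - i) + rG := by
    intro i hi
    have h1 : (Gy.coeff i).natDegree ≤ s59b_gdeg Gy := s59b_gdeg_le Gy i hi
    omega
  refine ⟨m, s59b_gsub2 m nG rG Gy, s59b_gsub2 m nH 0 H, s59b_gsub2_monic m nH H hH rfl, ?_, ?_,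
    ?_, ?_⟩
  · rw [s59b_gsub2_eval₂ φ hrelF m nG rG Gy le_rfl hdG y, hGy0, mul_zero]
  · rw [s59b_gsub2_eval₂ φ hrelF m nH 0 H le_rfl hdH y, hH0, mul_zero]
  · have key := s59b_gsub2_deriv_eval₂ ((HahnSeries.C : k →+* LaurentSeries k).comp π) hrelk m nG rG
      Gy le_rfl hdG (coeffMap π Y)
    have e1 : coeffMap π (Y * s18u_t2 ↥A ^ m) = coeffMap π Y * s18u_t2 k ^ m := by
      rw [map_mul, map_pow, s18u_coeffMap_t2]
    rw [e1]
    intro h0
    rw [h0, zero_mul] at key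
    exact (mul_ne_zero (pow_ne_zero _ ht0) hY5) key.symm
  · intro f
    obtain ⟨d, a, hd0, hda⟩ := hY4 f
    set na := a.natDegree with hna
    set ra : ℕ := 2 * max (s59b_gdeg a) d.natDegree with hra
    have hda' : ∀ i ≤ na, 2 * (a.coeff i).natDegree ≤ m * (na - i) + ra := by
      intro i hi
      have h1 : (a.coeff i).natDegree ≤ s59b_gdeg a := s59b_gdeg_le a i hi
      have h2 : s59b_gdeg a ≤ max (s59b_gdeg a) d.natDegree := le_max_left _ _
      omega
    have hdd : 2 * d.natDegree ≤ m * na + ra := by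
      have h2 : d.natDegree ≤ max (s59b_gdeg a) d.natDegree := le_max_right _ _
      omega
    have e1 : aeval w (s59b_gsub (m * na + ra) d) =
        w ^ (m * na + ra) * aeval (s18g_jF (K := Qbar) M) d := by
      rw [aeval_def, aeval_def]
      exact s59b_gsub_eval₂ (algebraMap Qbar ↥(modularFunctionFieldBar M)) hrelF _ d hdd
    refine ⟨s59b_gsub (m * na + ra) d, s59b_gsub2 m na ra a, ?_, ?_⟩
    · rw [e1]
      exact mul_ne_zero (pow_ne_zero _ hw0) hd0
    · rw [e1, mul_assoc, hda,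
        s59b_gsub2_eval₂ (algebraMap Qbar ↥(modularFunctionFieldBar M)) hrelF m na ra a le_rfl hda' y]

end Bridge

/-! ### [GR] at top level -/

section Top

variable (A : ValuationSubring Qbar) (M : ℕ) [NeZero M] {p : ℕ} [Fact p.Prime]
  (hA : A.LiesOverPrime p) (hpM : ¬ p ∣ M)

local notation "κ" => IsLocalRing.ResidueField A

include hA hpM in
/-- **[GR] at top level, `p = 3`, `2 ∣ M`**: (a) bounded denominators and (b) good reduction off `∞` of the ring
`B = s44r_B ℚ̄ M`. -/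
theorem s59b_g_f_top (hp3 : p = 3) (h2M : 2 ∣ M) [IsAlgClosed (IsLocalRing.ResidueField ↥A)] :
    s44gd_HypA M A ∧ s44gd_HypB M A := by
  haveI : FFGen Qbar (ffd_jBar M) := s18r_ffGen M
  obtain ⟨w, hw⟩ := s37rl_exists_t2 A M hA hp3 h2M
  obtain ⟨D₁, i1, i2, i3, i4, i5, i6, PsiD₁, D₂, j1, j2, j3, j4, j5, j6, PsiD₂, h₁, h₂⟩ :=
    s59b_g_charts A M hA hpM hp3 h2M w hw
  -- `red w` has a simple pole at `∞̃`
  obtain ⟨hwO, hred⟩ := s37rl_redF_of_iota A M hA hpM w (s18u_t2 ↥A)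
    (by rw [hw, s18u_coeffMap_t2])
  rw [s18u_coeffMap_t2] at hred
  have hQ1 : (s44h_fbarInf κ M).ord (s37r_redF A M hA hpM ⟨w, h₁.w_mem⟩) = -1 := by
    have h0 : s37r_redF A M hA hpM ⟨w, h₁.w_mem⟩ ≠ 0 := by
      intro h
      have := congrArg (fun f : ↥(modularFunctionFieldFullC κ M) => (f : LaurentSeries κ)) h
      simp only [ZeroMemClass.coe_zero] at this
      rw [hred] at this
      exact s18u_t2_ne_zero κ this
    rw [s44g_i_ordBar κ M h0, hred]
    exact s18t_t2_order κ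
  -- the expansion of `s = w⁻¹`
  have hιs : ((w⁻¹ : ↥(modularFunctionFieldBar M)) : LaurentSeries Qbar) =
      coeffMap A.subtype (HahnSeries.ofPowerSeries ℤ ↥A (s59b_gs_Ser ↥A)) := by
    rw [coeffMap_ofPowerSeries, s59b_gs_Ser_map, IntermediateField.coe_inv, hw]
    exact inv_eq_of_mul_eq_one_right (s59b_gs_t2_mul Qbar)
  -- the test element
  obtain ⟨n, Y, C, hY1, -, hY3, hY5, hY4, hY6⟩ := s44g_y_main A M hA hpM
  obtain ⟨Gy, H, hH, hGy0, hH0, hY5', hY4'⟩ :=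
    s44gt_input_of_y A M (IsLocalRing.residue ↥A) n Y C hY1 hY3 hY5 hY4 hY6
  obtain ⟨m, Gy', H', hH', hGy0', hH0', hY5'', hY4''⟩ :=
    s59b_g_bridge A M w hw (IsLocalRing.residue ↥A) Y hY1 Gy H hH hGy0 hH0 hY5' hY4'
  have hY' : ((modularFunctionFieldBar M).val : ↥(modularFunctionFieldBar M) →+* _)
      ((⟨coeffMap A.subtype Y, hY1⟩ : ↥(modularFunctionFieldBar M)) * w ^ m) =
      coeffMap A.subtype (Y * s18u_t2 ↥A ^ m) := by
    rw [map_mul, map_pow, map_mul, map_pow, s18u_coeffMap_t2]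
    show coeffMap A.subtype Y * (w : LaurentSeries Qbar) ^ m = _
    rw [hw]
  obtain ⟨t, T, G, ht, hT, hG, hsep, hgen⟩ :=
    s44gt_transform_gen h₁ h₂
      ((modularFunctionFieldBar M).val : ↥(modularFunctionFieldBar M) →+* _)
      (s44h_fbarInf (IsLocalRing.ResidueField ↥A) M) hQ1 (s59b_gs_Ser ↥A) (s59b_gs_Ur ↥A)
      (s59b_gs_Ser_eq ↥A) hιs
      ((⟨coeffMap A.subtype Y, hY1⟩ : ↥(modularFunctionFieldBar M)) * w ^ m)
      (Y * s18u_t2 ↥A ^ m) hY' Gy' hGy0' H' hH' hH0'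
      (s18u_t2 (IsLocalRing.ResidueField ↥A)) (s59b_gs_Jb (IsLocalRing.residue ↥A)) hY5'' hY4''
  exact s44g_f_ab A M hA hpM h₁ h₂ hQ1 (s59b_gs_Ser ↥A) (s59b_gs_Ur ↥A) (s59b_gs_Vr ↥A)
    (s59b_gs_Ur_mul_Vr ↥A) (s59b_gs_Ser_eq ↥A) hιs (s18u_t2 ↥A)
    (by rw [s18u_coeffMap_t2, hw])
    t ht T hT G hG hsep hgen

end Top

end Fermat.Agent.Lib.S59
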