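/-
PROGRAMME (R2) = S59, node **[MRP_W] at `p = 3`**, leaf [L4b] (helper2, prefix `s59b_`): **[LAT] AT `p = 3`, `2 ∣ M`, AND THE
ABSTRACT END OF THE LIFTING ARGUMENT.**

* `s59b_LatAt M P L₀`   : the body of helper3's [LAT] statement (`Lib/S44/HLiftCore.lean`) at one `(M, P, L₀)`;
* `s59b_levelocc_core`  : helper3's `s44h_levelocc_core` from `s59b_LatAt` (any prime `p ∤ M`);
* **`s59b_lat_three`**  : `s59b_LatAt M P L₀` for `P ∣ 3`, `3 ∤ M`, `2 ∣ M` — from [GR] at top level on the `t₂`-charts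
  (`s59b_g_f_top`, `B3GTop.lean`), helper4's descent `s44gd_gr_level` and helper5's [SQ-INST] `s44r_sq_inst_L0`.
-/
import Fermat.Agent.Lib.S44.HLat
import Fermat.Agent.Lib.S59.B3GTop

set_option autoImplicit false
set_option linter.style.haveILetI false
set_option linter.unusedSectionVars false
set_option synthInstance.maxHeartbeats 400000

noncomputable section

namespace Fermat.Agent.Lib.S59

open ModularCurve HahnSeries AlgebraicCurve Fermat.Agent.Lib.FF Fermat.Agent.Lib.S18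
  Fermat.Agent.Lib.S28 Fermat.Agent.Lib.S29 Fermat.Agent.Lib.S37 Fermat.Agent.Lib.S34
  Fermat.Agent.Lib.S33 Fermat.Agent.Lib.S44

local notation "Kb" => AlgebraicClosure ℚ

/-- **[LAT] = [GR] + [SQ-INST] AT ONE `(M, P, L₀)`** (the body of helper3's [LAT] statement). -/
def s59b_LatAt (M : ℕ) [NeZero M] (P : ValuationSubring Kb)
    (L₀ : IntermediateField ℚ Kb) [FiniteDimensional ℚ ↥L₀] [Normal ℚ ↥L₀]
    [IsDiscreteValuationRing ↥(s18q_A0 P L₀)] : Prop :=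
  ∃ Bs : Set (LaurentSeries ↥L₀),
    (∀ y : LaurentSeries ↥(s18q_A0 P L₀),
      coeffMap (algebraMap ↥(s18q_A0 P L₀) ↥L₀) y ∈ Bs →
      ∃ hmem : coeffMap ((s37r_resMap P L₀).comp (IsLocalRing.residue ↥(s18q_A0 P L₀))) y ∈
          modularFunctionFieldFullC (IsLocalRing.ResidueField ↥P) M,
        ∀ v : Place (IsLocalRing.ResidueField ↥P)
            ↥(modularFunctionFieldFullC (IsLocalRing.ResidueField ↥P) M),
          v ≠ @s44h_fbarInf (IsLocalRing.ResidueField ↥P) _ (s18n_isAlgClosed_residueField P) M _ →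
          (⟨_, hmem⟩ : ↥(modularFunctionFieldFullC (IsLocalRing.ResidueField ↥P) M)) ∈
            v.toValuationSubring) ∧
    (∀ ψ : LaurentSeries (IsLocalRing.ResidueField ↥(s18q_A0 P L₀)),
      (∀ i : ℤ, i ≤ 0 → ψ.coeff i = 0) →
      (∀ y : LaurentSeries ↥(s18q_A0 P L₀),
        coeffMap (algebraMap ↥(s18q_A0 P L₀) ↥L₀) y ∈ Bs →
        (coeffMap (IsLocalRing.residue ↥(s18q_A0 P L₀)) y * ψ).coeff 0 = 0) →
      ∃ (r : ℕ) (f : Fin r → CuspForm (CongruenceSubgroup.Gamma0 M) 2) (cf : Fin r → ℕ → ℤ)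
        (v : Fin r → IsLocalRing.ResidueField ↥(s18q_A0 P L₀)),
        (∀ j n, ModularFormClass.qCoeff ⇑(f j) n = ((cf j n : ℤ) : ℂ)) ∧
        ∀ n : ℕ, ψ.coeff n =
          ∑ j, v j * ((cf j n : ℤ) : IsLocalRing.ResidueField ↥(s18q_A0 P L₀)))

/-- **the end of the lifting argument** (helper3's `s44h_levelocc_core`, with [LAT] at the one `(M, P, L₀)` used). -/
theorem s59b_levelocc_core (M : ℕ) [NeZero M] (p : ℕ) [hp : Fact p.Prime]
    (hpM : ¬ p ∣ M) (P : ValuationSubring Kb) (hP : P.LiesOverPrime p)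
    (a : ℕ → ℤ) (B : Finset ℕ) (hB : ∀ q : ℕ, q.Prime → q ∣ M * p → q ∈ B)
    (L₀ : IntermediateField ℚ Kb) [FiniteDimensional ℚ ↥L₀] [Normal ℚ ↥L₀]
    [IsDiscreteValuationRing ↥(s18q_A0 P L₀)] (hLat : s59b_LatAt M P L₀)
    (g₀ : LaurentSeries (IsLocalRing.ResidueField ↥(s18q_A0 P L₀)))
    (hg₀ : g₀ ∈ modularFunctionFieldFullC (IsLocalRing.ResidueField ↥(s18q_A0 P L₀)) M)
    (hg₀0 : g₀ ≠ 0)
    (hdiv : ∀ v₀ : Place (IsLocalRing.ResidueField ↥(s18q_A0 P L₀))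
        ↥(modularFunctionFieldFullC (IsLocalRing.ResidueField ↥(s18q_A0 P L₀)) M),
      (p : ℤ) ∣ v₀.ord (⟨g₀, hg₀⟩ :
        ↥(modularFunctionFieldFullC (IsLocalRing.ResidueField ↥(s18q_A0 P L₀)) M)))
    (hnz : s44h_dlog (coeffMap (s37r_resMap P L₀) g₀) ≠ 0)
    (heig : ∀ (ℓ : ℕ) [NeZero ℓ], ℓ.Prime → ℓ ∉ B →
      s33t_U ℓ (s44h_dlog (coeffMap (s37r_resMap P L₀) g₀)) +
          HahnSeries.C ((ℓ : ℕ) : IsLocalRing.ResidueField ↥P) *
            qExpand (IsLocalRing.ResidueField ↥P) ℓ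
              (s44h_dlog (coeffMap (s37r_resMap P L₀) g₀)) =
        HahnSeries.C ((a ℓ : ℤ) : IsLocalRing.ResidueField ↥P) *
          s44h_dlog (coeffMap (s37r_resMap P L₀) g₀)) :
    s44i_LevelOcc M p a B := by
  classical
  haveI hchar₀ : CharP (IsLocalRing.ResidueField ↥(s18q_A0 P L₀)) p := s37rl_charP P hP L₀
  haveI hchar : CharP (IsLocalRing.ResidueField ↥P) p := s18n_charP_residueField P hp.out hP
  haveI hac : IsAlgClosed (IsLocalRing.ResidueField ↥P) := s18n_isAlgClosed_residueField P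
  obtain ⟨Bs, hGR, hSQ⟩ := hLat
  set ρ := s37r_resMap P L₀ with hρ
  set ψ : LaurentSeries (IsLocalRing.ResidueField ↥(s18q_A0 P L₀)) := s44h_dlog g₀ with hψdef
  have hΦ : coeffMap ρ ψ = s44h_dlog (coeffMap ρ g₀) := s44h_coeffMap_dlog ρ g₀
  set g : ↥(modularFunctionFieldFullC (IsLocalRing.ResidueField ↥P) M) :=
    s44h_fbarMap ρ M ⟨g₀, hg₀⟩ with hgdef
  have hgcoe : (g : LaurentSeries (IsLocalRing.ResidueField ↥P)) = coeffMap ρ g₀ := rfl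
  have hg₀' : (⟨g₀, hg₀⟩ :
      ↥(modularFunctionFieldFullC (IsLocalRing.ResidueField ↥(s18q_A0 P L₀)) M)) ≠ 0 :=
    fun h => hg₀0 (congrArg Subtype.val h)
  have hg0 : g ≠ 0 := (map_ne_zero (s44h_fbarMap ρ M)).mpr hg₀'
  have hdvd : ∀ v : Place (IsLocalRing.ResidueField ↥P)
      ↥(modularFunctionFieldFullC (IsLocalRing.ResidueField ↥P) M), (p : ℤ) ∣ v.ord g :=
    fun v => s44h_fbar_dvd_ord ρ M (p : ℤ) ⟨g₀, hg₀⟩ hg₀' hdiv v
  have hinjρ : Function.Injective ρ := ρ.injective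
  -- (i) no polar part, no constant term
  have hψ0 : ∀ i : ℤ, i ≤ 0 → ψ.coeff i = 0 := by
    intro i hi
    apply hinjρ
    rw [map_zero, ← coeffMap_coeff, hΦ, ← hgcoe]
    exact s44h_dlog_coeff_nonpos (IsLocalRing.ResidueField ↥P) M p g hg0 hdvd hi
  -- (ii) orthogonality
  have hψorth : ∀ y : LaurentSeries ↥(s18q_A0 P L₀),
      coeffMap (algebraMap ↥(s18q_A0 P L₀) ↥L₀) y ∈ Bs →
      (coeffMap (IsLocalRing.residue ↥(s18q_A0 P L₀)) y * ψ).coeff 0 = 0 := by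
    intro y hy
    obtain ⟨hmem, hreg⟩ := hGR y hy
    have h1 := s44h_orth (IsLocalRing.ResidueField ↥P) M p ⟨_, hmem⟩ g hg0 hreg hdvd
    apply hinjρ
    rw [map_zero, ← coeffMap_coeff, map_mul, hΦ, ← hgcoe, coeffMap_coeffMap]
    exact h1
  -- (iii) the squeeze
  obtain ⟨r, f, cf, v, hf, hψf⟩ := hSQ ψ hψ0 hψorth
  -- (iv) Deligne–Serre
  have hψne : ψ ≠ 0 := by
    intro h0
    apply hnz
    rw [← hΦ, h0, map_zero]
  have hφ0 : ∃ n : ℕ, ψ.coeff (n : ℤ) ≠ 0 := by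
    by_contra hcon
    push Not at hcon
    apply hψne
    ext i
    rw [HahnSeries.coeff_zero]
    rcases le_or_gt i 0 with hi | hi
    · exact hψ0 i hi
    · have := hcon i.toNat
      rwa [Int.toNat_of_nonneg hi.le] at this
  refine s44w_levelocc_iface' M p (IsLocalRing.ResidueField ↥(s18q_A0 P L₀)) a B hB
    (fun n => ψ.coeff (n : ℤ)) hφ0 f cf v hf hψf ?_
  intro ℓ hℓ hℓB n _
  haveI : NeZero ℓ := ⟨hℓ.ne_zero⟩
  have h1 := heig ℓ hℓ hℓB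
  rw [← hΦ] at h1
  exact s44h_eig_descend ℓ ρ ψ (a ℓ) h1 n

/-- **[LAT] at `p = 3`, `2 ∣ M`.** -/
theorem s59b_lat_three (M : ℕ) [NeZero M] (p : ℕ) [Fact p.Prime] (hp3 : p = 3) (h2M : 2 ∣ M)
    (hpM : ¬ p ∣ M) (P : ValuationSubring Kb) (hP : P.LiesOverPrime p)
    (L₀ : IntermediateField ℚ Kb) [FiniteDimensional ℚ ↥L₀] [Normal ℚ ↥L₀]
    [IsDiscreteValuationRing ↥(s18q_A0 P L₀)] : s59b_LatAt M P L₀ := by
  haveI hchar₀ : CharP (IsLocalRing.ResidueField ↥(s18q_A0 P L₀)) p := s37rl_charP P hP L₀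
  have hab := @s59b_g_f_top P M _ p _ hP hpM hp3 h2M (s18n_isAlgClosed_residueField P)
  obtain ⟨h1, h2, h2'⟩ := s44gd_gr_level M p P hP L₀ hab.1 hab.2
  obtain ⟨ϖ, hϖ⟩ := IsDiscreteValuationRing.exists_irreducible ↥(s18q_A0 P L₀)
  refine ⟨(s44r_BL ↥L₀ M : Set (LaurentSeries ↥L₀)), fun y hy => h2' y hy, fun ψ hψ0 hψ => ?_⟩
  exact s44r_sq_inst_L0 M p P L₀
    (((IsAlgClosed.lift : Kb →ₐ[ℚ] ℂ) : Kb →+* ℂ).comp (algebraMap ↥L₀ Kb)) ϖ hϖ h1 h2 ψ hψ0 hψ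

end Fermat.Agent.Lib.S59
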