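/-
PROGRAMME (R2) = S59, node **[MRP_W] at `p = 3`** (helper2, prefix `s59b_`): **LEAF [L4a] = [GLUE-p] AT `p = 3`, `2 ∣ M`:
`s59b_liftTorT : s59b_LiftTorT`.**

`s59b_liftTor_of_pack` = `s44s_liftTor_of_pack` (`Lib/S44/SoftLiftTor.lean`) for an ARBITRARY node family `N` (the proof never
looks at `N`: it only uses [SS-pack] for `N` and the abstract core `s44s_glue_core3`); the Σ-pack on the `t₂`-chart is the landed
`s33t_ssPack_three` fed with helper9's `s33k_sd_SSDatumC_three`.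
-/
import Fermat.Agent.Lib.S44.SoftLiftTor
import Fermat.Agent.Lib.S33.KumPSsPackT
import Fermat.Agent.Lib.S33.SsPackT
import Fermat.Agent.Lib.S33.TPPackT
import Fermat.Agent.Lib.S59.B3Iface

set_option autoImplicit false
set_option linter.style.haveILetI false
set_option linter.unusedSectionVars false
set_option synthInstance.maxHeartbeats 400000

namespace Fermat.Agent.Lib.S59

open ModularCurve HahnSeries AlgebraicCurve Fermat.Agent.Lib.S18 Fermat.Agent.Lib.S28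
  Fermat.Agent.Lib.S29 Fermat.Agent.Lib.S37 Fermat.Agent.Lib.FF Fermat.Agent.Lib.S34
  Fermat.Agent.Lib.S35 Fermat.Agent.Lib.S33 Fermat.Agent.Lib.S44

noncomputable section

local notation "Kb" => AlgebraicClosure ℚ

section Core

variable (M p : ℕ) [NeZero M] [hp : Fact p.Prime]

set_option maxHeartbeats 1600000 in
/-- **[GLUE-p]** from [SS-pack], ANY node family (helper2's `s44s_liftTor_of_pack`, verbatim proof). -/
theorem s59b_liftTor_of_pack (hpM : ¬ p ∣ M) (P : ValuationSubring Kb)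
    (hP : P.LiesOverPrime p) (N : s33t_NodeFam M p P) (hS : s33t_SSPack M p hpM P N)
    (x : JZero (M * p))
    (h1 : s59b_RedTrivN M p hpM P N false x) (h2 : s59b_RedTrivN M p hpM P N true x) :
    s59b_ToricN M p hpM P N x := by
  haveI : NeZero p := ⟨hp.out.ne_zero⟩
  obtain ⟨Lx₁, hfd₁, hL₁⟩ := h1
  obtain ⟨Lx₂, hfd₂, hL₂⟩ := h2
  obtain ⟨Lss, hLssfd, hLss⟩ := hS
  haveI := hfd₁
  haveI := hfd₂
  haveI := hLssfd
  haveI : FiniteDimensional ℚ ↥(Lx₁ ⊔ Lx₂) := IntermediateField.finiteDimensional_sup _ _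
  haveI : FiniteDimensional ℚ ↥(Lx₁ ⊔ Lx₂ ⊔ Lss) := IntermediateField.finiteDimensional_sup _ _
  refine ⟨Lx₁ ⊔ Lx₂ ⊔ Lss, inferInstance, ?_⟩
  intro L₀ _ _ _ ϖ hϖ hle
  have hle₁ : Lx₁ ≤ L₀ := (le_sup_left.trans le_sup_left).trans hle
  have hle₂ : Lx₂ ≤ L₀ := (le_sup_right.trans le_sup_left).trans hle
  have hLssle : Lss ≤ L₀ := le_sup_right.trans hle
  -- the datum over `L₀`
  haveI : NumberField ↥L₀ := ⟨⟩
  haveI hchar₀ : CharP (IsLocalRing.ResidueField ↥(s18q_A0 P L₀)) p := s37rl_charP P hP L₀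
  haveI hperf₀ : PerfectField (IsLocalRing.ResidueField ↥(s18q_A0 P L₀)) :=
    s37rl_perfectField P hP L₀
  haveI : PerfectRing (IsLocalRing.ResidueField ↥(s18q_A0 P L₀)) p := PerfectField.toPerfectRing p
  have hT : s18g_HT (IsLocalRing.ResidueField ↥(s18q_A0 P L₀)) M := s18t_indep_j p M hpM _
  have hdegM : s18g_HDeg ↥L₀ M := fun n b hb hn =>
    s18g_exists_relation M (algebraMap ↥L₀ Kb) hn b hb
  have hdeg : s34m_HDeg ↥L₀ M p := s34r_deg_HDeg (algebraMap ↥L₀ Kb) M p hp.out hpM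
  have hπ : Function.Surjective (s37r_G P L₀ ϖ hϖ).π := IsLocalRing.residue_surjective
  obtain ⟨e, ε, he, hε, hεinv, hε0, hpe⟩ := s33t_exists_e P L₀ hp.out hP ϖ hϖ
  have hperf : ∀ c : IsLocalRing.ResidueField ↥(s18q_A0 P L₀), ∃ d, d ^ p = c :=
    fun c => surjective_frobenius _ p c
  -- [SS-pack]
  obtain ⟨ι, k, i1, i2, Z, hCi, hCz, hZN, -, -⟩ :=
    hLss L₀ ϖ hϖ hdeg hT hdegM hπ e ε he hε hεinv hε0 hpe hperf hLssle
  -- the two Kummer generators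
  obtain ⟨f₁, hgen₁, hf₁i, hf₁i', hf₁z, hf₁z', hnf₁, c₁, a₁, y₁, hc₁, hy₁, ey₁⟩ :=
    hL₁ L₀ ϖ hϖ hle₁
  obtain ⟨f₂, hgen₂, hf₂i, hf₂i', hf₂z, hf₂z', hnf₂, c₂, a₂, y₂, hc₂, hy₂, ey₂⟩ :=
    hL₂ L₀ ϖ hϖ hle₂
  simp only [Bool.false_eq_true, if_false] at hy₁
  simp only [if_true] at hy₂
  obtain ⟨ha₁, ha₁', hy₁⟩ := hy₁
  obtain ⟨ha₂, ha₂', hy₂⟩ := hy₂
  have hf₁0 : f₁ ≠ 0 := (s33d_kum_of_gen (M * p) p L₀ hgen₁).1
  have hf₂0 : f₂ ≠ 0 := (s33d_kum_of_gen (M * p) p L₀ hgen₂).1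
  obtain ⟨c₀, g₀, hc₀, hg₀, e₀⟩ := s33d_kum0_of_same_class (M * p) p L₀ hgen₁ hgen₂
  -- translation to the Σ-datum
  have hNF₁ : s33z_NF Z f₁ := ⟨hf₁0, fun Q hQ => hnf₁ Q (hZN ▸ hQ)⟩
  have hNF₂ : s33z_NF Z f₂ := ⟨hf₂0, fun Q hQ => hnf₂ Q (hZN ▸ hQ)⟩
  have h1cong : s33f_Cong Z.Di 1 f₁
      (algebraMap ↥L₀ (s34m_F ↥L₀ (M * p)) c₁ * a₁ ^ p) := by
    refine ⟨y₁, ?_, ?_⟩
    · show y₁ ∈ Z.Ci.O
      rw [hCi]; exact hy₁
    · rw [pow_one]; exact ey₁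
  have h2cong : s33f_Cong Z.Dz 1 f₂
      (algebraMap ↥L₀ (s34m_F ↥L₀ (M * p)) c₂ * a₂ ^ p) := by
    refine ⟨y₂, ?_, ?_⟩
    · show y₂ ∈ Z.Cz.O
      rw [hCz]; exact hy₂
    · rw [pow_one]; exact ey₂
  have h1i : f₁ ∈ Z.Ci.O := by rw [hCi]; exact hf₁i
  have h1i' : f₁⁻¹ ∈ Z.Ci.O := by rw [hCi]; exact hf₁i'
  have h1z : f₁ ∈ Z.Cz.O := by rw [hCz]; exact hf₁z
  have h1z' : f₁⁻¹ ∈ Z.Cz.O := by rw [hCz]; exact hf₁z'
  have h2i : f₂ ∈ Z.Ci.O := by rw [hCi]; exact hf₂i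
  have h2i' : f₂⁻¹ ∈ Z.Ci.O := by rw [hCi]; exact hf₂i'
  have h2z : f₂ ∈ Z.Cz.O := by rw [hCz]; exact hf₂z
  have h2z' : f₂⁻¹ ∈ Z.Cz.O := by rw [hCz]; exact hf₂z'
  have ha₁O : a₁ ∈ Z.Ci.O := by rw [hCi]; exact ha₁
  have ha₁O' : a₁⁻¹ ∈ Z.Ci.O := by rw [hCi]; exact ha₁'
  have ha₂O : a₂ ∈ Z.Cz.O := by rw [hCz]; exact ha₂
  have ha₂O' : a₂⁻¹ ∈ Z.Cz.O := by rw [hCz]; exact ha₂'
  obtain ⟨d, g₁, hd0, hg₁0, hNF, hcong⟩ :=
    s44s_glue_core3 Z (f := f₁) (h₂ := f₂) (g := g₀) (c := c₀) hNF₁ hNF₂ h1i h1i' h1z h1z'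
      h2i h2i' h2z h2z' hc₁ ha₁O ha₁O' h1cong hc₂ ha₂O ha₂O' h2cong hc₀ hg₀ e₀
  obtain ⟨y, hyi, hyz, ey⟩ := hcong.exists_eq
  refine ⟨algebraMap ↥L₀ (s34m_F ↥L₀ (M * p)) d * g₁ ^ p * f₁, ?_, ⟨y, ?_, ?_, ?_⟩, ?_⟩
  · -- Kummer generator
    have hdKb : algebraMap ↥L₀ Kb d ≠ 0 := by rwa [Ne, map_eq_zero]
    have h := s33d_kumGen_mul hgen₁ (c := algebraMap ↥L₀ Kb d) hdKb
      (w := s18q_incl (M * p) L₀ g₁) (by rwa [Ne, map_eq_zero])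
    rw [map_mul, map_mul, map_pow, s18q_incl_algebraMap]
    exact h
  · have h := hyi
    rw [hCi] at h
    exact h
  · have h := hyz
    rw [hCz] at h
    exact h
  · rw [pow_one] at ey
    exact ey
  · intro Q hQ
    exact hNF.2 Q (hZN ▸ hQ)

end Core

/-- **LEAF [L4a] = [GLUE-p] AT `p = 3`, `2 ∣ M`.** -/
theorem s59b_liftTorT : s59b_LiftTorT := by
  intro M _ p hp hp3 h2M hpM _ P hP x _ _ h1 h2
  have hp2 : p ≠ 2 := by omega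
  exact s59b_liftTor_of_pack M p hpM P hP (s33t_nodeN_t2 M p hpM P)
    (s33t_ssPack_three M p hpM P hp3 h2M
      (s33y_ssDatumC_t2 M p hpM P hp2 h2M hP (s33k_sd_SSDatumC_three M p hpM P hp3 h2M))) x h1 h2

end

end Fermat.Agent.Lib.S59
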