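/-
PROGRAMME (R2) = S59, node **[MRP_W] at `p = 3`** (helper2, prefix `s59b_`): **LEAF [L5] = (M°) FOR TORIC POINTS AT `p = 3`,
`2 ∣ M`: `s59b_mfinT : s59b_MFinT`.**

helper1's `s44m_mfin_of_pack` (`Lib/S44/MFin.lean`) is generic in the node family and in `s18_GoodLevel p M`; the Σ-pack on
the `t₂`-chart is the landed `s33t_ssPack_three` (`Lib/S33/TPPackT.lean`) fed with helper9's `s33k_sd_SSDatumC_three`
(`Lib/S33/KumPSsPackT.lean`) through `s33y_ssDatumC_t2` (`Lib/S33/SsPackT.lean`).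
-/
import Fermat.Agent.Lib.S44.MFin
import Fermat.Agent.Lib.S33.KumPSsPackT
import Fermat.Agent.Lib.S33.SsPackT
import Fermat.Agent.Lib.S33.TPPackT
import Fermat.Agent.Lib.S59.B3Iface

set_option autoImplicit false
set_option linter.style.haveILetI false
set_option linter.unusedSectionVars false
set_option synthInstance.maxHeartbeats 400000

namespace Fermat.Agent.Lib.S59

open ModularCurve HahnSeries AlgebraicCurve Fermat.Agent.Lib.S18 Fermat.Agent.Lib.S28
  Fermat.Agent.Lib.S29 Fermat.Agent.Lib.S37 Fermat.Agent.Lib.FF Fermat.Agent.Lib.S34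
  Fermat.Agent.Lib.S35 Fermat.Agent.Lib.S33 Fermat.Agent.Lib.S44

noncomputable section

local notation "Kb" => AlgebraicClosure ℚ

/-- **LEAF [L5] = (M°) FOR TORIC POINTS AT `p = 3`, `2 ∣ M`.** -/
theorem s59b_mfinT : s59b_MFinT := by
  intro M _ p hp hp3 h2M hpM P hP x _ hα0 hβ0 ht
  have hp2 : p ≠ 2 := by omega
  have hM : s18_GoodLevel p M := ⟨hpM, Or.inr (Or.inl ⟨hp3, h2M⟩)⟩
  exact s44m_mfin_of_pack M p hp2 hM P hP (s33t_nodeN_t2 M p hpM P)
    (s33t_ssPack_three M p hM.1 P hp3 h2M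
      (s33y_ssDatumC_t2 M p hM.1 P hp2 h2M hP (s33k_sd_SSDatumC_three M p hM.1 P hp3 h2M)))
    x hα0 hβ0 ht

end

end Fermat.Agent.Lib.S59
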