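/-
PROGRAMME (R2) = S59, node **[MRP_W] at `p = 3`** (helper2, prefix `s59b_`): **LEAF [L2] AT `p = 3`, EVEN LEVEL:
`s59b_oldT : s59b_OldT`.**

Port of helper5's [KAPPA-PAR] (`Lib/S44/RKapPar.lean`, `RKapCore.lean`, `RKapOld.lean`) and of `s44s_old`
(`Lib/S44/SoftOldLeaf.lean`).  The ONLY place where `p ≥ 5` enters is `s44r_psi_finOrder` (`12 ψ(γ) = 0` for `γ` of finite order,
`p ∤ 12`).  For `p = 3` and `2 ∣ N`: `γ = [a, b; c, d] ∈ Γ₀(N)` has `c` even, `a d - b c = 1`, so `a`, `d` are odd and the trace is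
EVEN: there is no element of trace `± 1`; trace `0` gives `γ² = -1`, `γ⁴ = 1`, `4 ψ(γ) = 0`, `ψ(γ) = 0`.

* `s59b_pow_four_even`, `s59b_trace_even`, `s59b_psi_finOrder_three`, `s59b_psi_mem_Hp_three`;
* `s59b_kappaK_mem_Hp_three`, `s59b_KappaCoreT`, `s59b_kappaCoreT`, `s59b_ConvEigenT`, `s59b_convEigenT`;
* **`s59b_oldT : s59b_OldT`** (leaf [L2] of `B3Iface.lean`), UNCONDITIONALLY.
-/
import Fermat.Agent.Lib.S44.RKapOld
import Fermat.Agent.Lib.S59.B3Iface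

set_option autoImplicit false
set_option linter.unusedSectionVars false
set_option linter.style.haveILetI false

namespace Fermat.Agent.Lib.S59

open UpperHalfPlane hiding I
open Complex Filter Function Topology AlgebraicCurve ModularCurve IntermediateField CongruenceSubgroup TensorProduct
  ModularCurve.Period
open Fermat.Agent.Lib.FF Fermat.Agent.Lib.S18 Fermat.Agent.Lib.S29 Fermat.Agent.Lib.Period Fermat.Agent.Lib.S44
open scoped Real Manifold MatrixGroups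

noncomputable section

local notation "Kb" => AlgebraicClosure ℚ

/-! ### Elements of finite order of `Γ₀(N)`, `N` even -/

/-- `γ ^ 4 = 1` for an integral matrix of determinant one and trace `0`. -/
theorem s59b_pow_four_even (g : SL(2, ℤ)) (ht : (g : Matrix (Fin 2) (Fin 2) ℤ).trace = 0) : g ^ 4 = 1 := by
  have hsq := s29h_sq_eq g
  apply Subtype.ext
  rw [Matrix.SpecialLinearGroup.coe_pow, Matrix.SpecialLinearGroup.coe_one]
  set A : Matrix (Fin 2) (Fin 2) ℤ := (g : Matrix (Fin 2) (Fin 2) ℤ) with hA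
  rw [ht, zero_smul, zero_sub] at hsq
  have : A ^ 4 = (A * A) ^ 2 := by rw [← pow_two, ← pow_mul]
  rw [this, hsq]
  norm_num

/-- the trace of an element of `Γ₀(N)`, `N` even, is even. -/
theorem s59b_trace_even {N : ℕ} (h2N : 2 ∣ N) (γ : Gamma0 N) :
    (2 : ℤ) ∣ (((γ : SL(2, ℤ)) : Matrix (Fin 2) (Fin 2) ℤ).trace) := by
  have hdet := (γ : SL(2, ℤ)).det_coe
  rw [Matrix.det_fin_two] at hdet
  have hc : ((N : ℕ) : ℤ) ∣ ((γ : SL(2, ℤ)) : Matrix (Fin 2) (Fin 2) ℤ) 1 0 := by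
    have h1 := Gamma0_mem.mp γ.2
    exact (ZMod.intCast_zmod_eq_zero_iff_dvd _ N).mp h1
  have h2c : (2 : ℤ) ∣ ((γ : SL(2, ℤ)) : Matrix (Fin 2) (Fin 2) ℤ) 1 0 :=
    dvd_trans (by exact_mod_cast h2N) hc
  rw [Matrix.trace_fin_two]
  set a := ((γ : SL(2, ℤ)) : Matrix (Fin 2) (Fin 2) ℤ) 0 0
  set b := ((γ : SL(2, ℤ)) : Matrix (Fin 2) (Fin 2) ℤ) 0 1
  set c := ((γ : SL(2, ℤ)) : Matrix (Fin 2) (Fin 2) ℤ) 1 0
  set d := ((γ : SL(2, ℤ)) : Matrix (Fin 2) (Fin 2) ℤ) 1 1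
  obtain ⟨k, hk⟩ := h2c
  have had : a * d = 1 + 2 * (b * k) := by rw [hk] at hdet; linarith
  have hodd : Odd (a * d) := ⟨b * k, by rw [had]; ring⟩
  obtain ⟨ha, hd⟩ := Int.odd_mul.mp hodd
  exact even_iff_two_dvd.mp (ha.add_odd hd)

section Main

variable {K : Type*} [Field K] {F : Type*} [Field F] [Algebra K F] {N : ℕ} [NeZero N]
  (φ : F →+* ffm_E N)
  (hφK : ∀ c : K, ∃ c' : ℂ, φ (algebraMap K F c) = algebraMap ℂ (ffm_E N) c')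
  (p : ℕ) [hpp : Fact p.Prime]
  (h : F) (hh : h ≠ 0) (D : Divisor K F) (hD : ∀ v : Place K F, v.ord h = (p : ℤ) * D v)
  (a b : ffm_R N) (hb : b ≠ 0)
  (hab : φ h * algebraMap (ffm_R N) (ffm_E N) b = algebraMap (ffm_R N) (ffm_E N) a)
  {A : ℍ → ℂ} (hA : MDiff A) (hA0 : ∃ τ, A τ ≠ 0)
  (hAp : ∀ τ, A τ ^ p = (a : ℍ → ℂ) τ * (b : ℍ → ℂ) τ ^ (p - 1))
  (ψ : Additive (Gamma0 N) →+ ZMod p)
  (hAψ : ∀ (γ : Gamma0 N) (τ : ℍ), A ((γ : SL(2, ℤ)) • τ) =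
    cexp (2 * π * I / p) ^ (ψ (Additive.ofMul γ)).val * A τ)

include hφK hh hD hb hab hA hA0 hAp hAψ in
/-- **`ψ` kills the elements of finite order**, `p = 3`, `2 ∣ N`. -/
theorem s59b_psi_finOrder_three (hp3 : p = 3) (h2N : 2 ∣ N) (hpN : ¬ p ∣ N) (γ : Gamma0 N)
    (hfin : IsOfFinOrder γ) : ψ (Additive.ofMul γ) = 0 := by
  have htr := Fermat.Agent.Lib.S16.s16f_abs_trace_le_of_isOfFinOrder N γ hfin
  have hev := s59b_trace_even h2N γ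
  set t : ℤ := (((γ : SL(2, ℤ)) : Matrix (Fin 2) (Fin 2) ℤ).trace) with ht
  have hcases : t ^ 2 = 4 ∨ t = 0 := by
    rw [abs_le] at htr
    obtain ⟨h1, h2⟩ := htr
    obtain ⟨k, hk⟩ := hev
    have : t = -2 ∨ t = 0 ∨ t = 2 := by omega
    rcases this with h | h | h <;> simp [h]
  rcases hcases with h4 | h0
  · exact s44r_psi_parabolic φ hφK p h hh D hD a b hb hab hA hA0 hAp ψ hAψ hpN γ h4
  · have h4 : (γ : SL(2, ℤ)) ^ 4 = 1 := s59b_pow_four_even _ h0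
    have hγ4 : γ ^ 4 = 1 := Subtype.ext (by simpa using h4)
    have h5 : (4 : ℕ) • ψ (Additive.ofMul γ) = 0 := by
      rw [← map_nsmul, ← ofMul_pow, hγ4, ofMul_one, map_zero]
    rw [nsmul_eq_mul] at h5
    have h4u : ((4 : ℕ) : ZMod p) ≠ 0 := by
      intro h0
      have h6 : p ∣ 4 := (ZMod.natCast_eq_zero_iff 4 p).mp h0
      rw [hp3] at h6
      omega
    exact (mul_eq_zero.mp h5).resolve_left h4u

include hφK hh hD hb hab hA hA0 hAp hAψ in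
/-- **[KAPPA-PAR], abstract form: `ψ ∈ H_p`**, `p = 3`, `2 ∣ N`. -/
theorem s59b_psi_mem_Hp_three (hp3 : p = 3) (h2N : 2 ∣ N) (hpN : ¬ p ∣ N) : ψ ∈ s29h_Hp N p := by
  rw [s29h_mem_Hpar_iff]
  exact ⟨fun γ hγ => s44r_psi_parabolic φ hφK p h hh D hD a b hb hab hA hA0 hAp ψ hAψ hpN γ hγ,
    fun γ hγ => s59b_psi_finOrder_three φ hφK p h hh D hD a b hb hab hA hA0 hAp ψ hAψ hp3 h2N hpN γ hγ⟩

end Main

/-! ### `κ(x) ∈ H_p` over `K ≃ ℂ` -/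

section KappaK

variable {K : Type*} [Field K] [Algebra ℚ K] [CharZero K] [IsAlgClosed K] (ι : K →+* ℂ)
  (N : ℕ) [NeZero N] (p : ℕ) [hpp : Fact p.Prime]

/-- **[KAPPA-PAR] over `K ≃ ℂ`, `p = 3`, `2 ∣ N`.** -/
theorem s59b_kappaK_mem_Hp_three (hι : Function.Surjective ι) (hp3 : p = 3) (h2N : 2 ∣ N)
    (hpN : ¬ p ∣ N)
    (x : Pic0.torsion K ↥(s29bp_FK K N) p) :
    haveI : NeZero p := ⟨hpp.out.ne_zero⟩
    s29m_kappaK ι N p hι x ∈ s29h_Hp N p := by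
  haveI : NeZero p := ⟨hpp.out.ne_zero⟩
  have hB := s29m_bridgeHypK ι N hι p
  -- `x = [D]`, `p • D = div h`
  obtain ⟨D, hDx⟩ := Pic0.mk_surjective (x : Pic0 K ↥(s29bp_FK K N))
  have hx : (p : ℤ) • (x : Pic0 K ↥(s29bp_FK K N)) = 0 := Pic0.mem_torsion.mp x.2
  have h1 : Pic0.mk ((p : ℤ) • D) = (0 : Pic0 K ↥(s29bp_FK K N)) := by
    rw [← hx, ← hDx]; rfl
  have h2 : ((p : ℤ) • D) ∈ (Divisor.principal (K := K) (F := ↥(s29bp_FK K N))).addSubgroupOf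
      (Divisor.degZero (K := K) (F := ↥(s29bp_FK K N))) := (QuotientAddGroup.eq_zero_iff _).mp h1
  obtain ⟨h, hh, hDh⟩ := h2
  have hD : ∀ v : Place K ↥(s29bp_FK K N),
      v.ord h = (p : ℤ) * (D : Divisor K ↥(s29bp_FK K N)) v := by
    intro v
    rw [← hDh v]
    simp
  -- `φ h = a / b`
  obtain ⟨a', b', hb', -, hab⟩ := s29bp_exists_frac ι N h
  set a : ffm_R N := s29bp_psi ι N a' with ha
  set b : ffm_R N := s29bp_psi ι N b' with hb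
  have hb0 : b ≠ 0 := by
    intro h0
    apply hb'
    apply s29bp_psi_injective ι N
    rw [← hb, h0, map_zero]
  have hbE : algebraMap (ffm_R N) (ffm_E N) b ≠ 0 := by
    intro h0
    apply hb0
    apply IsFractionRing.injective (ffm_R N) (ffm_E N)
    rw [h0, map_zero]
  have hφh : s29bp_phi ι N h ≠ 0 := (map_ne_zero (s29bp_phi ι N)).mpr hh
  have ha0 : a ≠ 0 := by
    intro h0
    rw [h0, map_zero] at hab
    exact (mul_ne_zero hφh hbE) hab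
  have hab' : s29bp_phi ι N h =
      algebraMap (ffm_R N) (ffm_E N) a / algebraMap (ffm_R N) (ffm_E N) b := by
    rw [eq_div_iff hbE, hab]
  have hainv : ∀ γ ∈ Gamma0 N, ∀ z : ℍ, (a : ℍ → ℂ) (γ • z) = (a : ℍ → ℂ) z := by
    intro γ hγ z
    have h3 := s29bp_psi_smul ι N (inv_mem hγ) a'
    have h4 := congrFun (congrArg Subtype.val h3) z
    have h5 : ((γ⁻¹ • s29bp_psi ι N a' : ffm_R N) : ℍ → ℂ) z =
        (s29bp_psi ι N a' : ℍ → ℂ) ((γ⁻¹)⁻¹ • z) := rfl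
    rw [h5, inv_inv] at h4
    exact h4
  have hbinv : ∀ γ ∈ Gamma0 N, ∀ z : ℍ, (b : ℍ → ℂ) (γ • z) = (b : ℍ → ℂ) z := by
    intro γ hγ z
    have h3 := s29bp_psi_smul ι N (inv_mem hγ) b'
    have h4 := congrFun (congrArg Subtype.val h3) z
    have h5 : ((γ⁻¹ • s29bp_psi ι N b' : ffm_R N) : ℍ → ℂ) z =
        (s29bp_psi ι N b' : ℍ → ℂ) ((γ⁻¹)⁻¹ • z) := rfl
    rw [h5, inv_inv] at h4
    exact h4
  have hord : ∀ τ : ℍ, ∃ m n : ℕ, analyticOrderAt ((a : ℍ → ℂ) ∘ ofComplex) (τ : ℂ) = (m : ℕ∞) ∧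
      analyticOrderAt ((b : ℍ → ℂ) ∘ ofComplex) (τ : ℂ) = (n : ℕ∞) ∧ (p : ℤ) ∣ (m : ℤ) - n := by
    intro τ
    obtain ⟨m, hm, hm'⟩ := s29m_exists_order a ha0 τ
    obtain ⟨n, hn, hn'⟩ := s29m_exists_order b hb0 τ
    refine ⟨m, n, hm, hn, ?_⟩
    obtain ⟨k, hk⟩ := hB.ord h hh D hD τ
    rw [hab', map_div₀, hm', hn', ← WithZero.exp_sub, WithZero.exp_inj] at hk
    exact ⟨-k, by linarith⟩
  obtain ⟨A, ψ, hA, hA0, hAp, hAψ⟩ := s29r_root_character (p := p) (Gamma0 N) 0 a.2.mdiff b.2.mdiff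
    (s29m_ne_zero_of_R b hb0) (fun γ hγ τ => by rw [zpow_zero, one_mul]; exact hainv γ hγ τ)
    (fun γ hγ τ => by rw [zpow_zero, one_mul]; exact hbinv γ hγ τ) hord
  have hAψ' : ∀ (γ : Gamma0 N) (τ : ℍ), A ((γ : SL(2, ℤ)) • τ) =
      cexp (2 * π * I / p) ^ (ψ (Additive.ofMul γ)).val * A τ := by
    intro γ τ
    have := hAψ γ τ
    rw [zpow_zero, mul_one] at this
    exact this
  -- `κ(x) = ψ`
  have habM : s29m_inclE N (s29bp_phi ι N h) * s29m_ofFun (b : ℍ → ℂ) b.2.mdiff =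
      s29m_ofFun (a : ℍ → ℂ) a.2.mdiff := by
    have h4 := congrArg (s29m_inclE N) hab
    rw [map_mul, s29m_inclE_algebraMap, s29m_inclE_algebraMap] at h4
    exact h4
  have hκ : s29m_kappaK ι N p hι x = ψ := by
    refine AddMonoidHom.ext fun γ => ?_
    obtain ⟨γ, rfl⟩ := Additive.ofMul.surjective γ
    exact s29m_kappaK_eq_of_fun ι N p hι x D hDx h hh hD a.2.mdiff b.2.mdiff hA
      (s29m_ne_zero_of_R b hb0) habM (fun γ hγ z => hbinv γ hγ z) hAp γ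
      (ψ (Additive.ofMul γ)) (fun τ => hAψ' γ τ)
  rw [hκ]
  exact s59b_psi_mem_Hp_three (K := K) (s29bp_phi ι N) (fun c => ⟨ι c, s29bp_phi_const ι N c⟩) p h hh
    (D : Divisor K ↥(s29bp_FK K N)) hD a b hb0 hab hA hA0 hAp ψ hAψ' hp3 h2N hpN

end KappaK

/-! ### The strengthened contract -/

/-- **[KAPPA-PAR]**: the Kummer map on `J₀(N)(ℚ̄)[p]` with values IN `H_p` (`p = 3`, `2 ∣ N`). -/
def s59b_KappaCoreT : Prop :=
  ∀ (N : ℕ) [NeZero N] (p : ℕ) [Fact p.Prime], p = 3 → 2 ∣ N → ¬ p ∣ N →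
    ∃ κ0 : s29k_Jp N p →+ (Additive (Gamma0 N) →+ ZMod p),
      Function.Injective κ0 ∧ (∀ χ ∈ s29h_Hp N p, ∃ x, κ0 x = χ) ∧ (∀ x, κ0 x ∈ s29h_Hp N p) ∧
      ∀ ℓ : Nat.Primes, ¬ (ℓ : ℕ) ∣ N * p → ∀ x : s29k_Jp N p,
        κ0 (s29k_Tl N p ℓ x) =
          (haveI : Fact (ℓ : ℕ).Prime := ⟨ℓ.2⟩
           s29h_heckeHom N (ℓ : ℕ) (ZMod p) (κ0 x))

section Generic

variable {K1 : Type*} [Field K1] [Algebra ℚ K1] [CharZero K1] [IsAlgClosed K1] [Algebra Kb K1]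
  (ι1 : K1 →+* ℂ) (hι1 : Function.Surjective ι1) (N : ℕ) [NeZero N] (p : ℕ) [hpp : Fact p.Prime]
  [FFGen Kb (s29bp_jK Kb N)] [FFGen K1 (s29bp_jK K1 N)]

include hι1 in
theorem s59b_kappaCore_of_three (hp3 : p = 3) (h2N : 2 ∣ N) (hpN : ¬ p ∣ N)
    (hinj : Function.Injective (s29a_c (K1 := K1) N))
    (hsurj : ∀ y : Pic0 K1 ↥(s29bp_FK K1 N), y ∈ Pic0.torsion K1 ↥(s29bp_FK K1 N) p →
      ∃ x : JZero N, s29a_c (K1 := K1) N x = y) :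
    ∃ κ0 : s29k_Jp N p →+ (Additive (Gamma0 N) →+ ZMod p),
      Function.Injective κ0 ∧ (∀ χ ∈ s29h_Hp N p, ∃ x, κ0 x = χ) ∧ (∀ x, κ0 x ∈ s29h_Hp N p) ∧
      ∀ ℓ : Nat.Primes, ¬ (ℓ : ℕ) ∣ N * p → ∀ x : s29k_Jp N p,
        κ0 (s29k_Tl N p ℓ x) =
          (haveI : Fact (ℓ : ℕ).Prime := ⟨ℓ.2⟩
           s29h_heckeHom N (ℓ : ℕ) (ZMod p) (κ0 x)) := by
  haveI : NeZero p := ⟨hpp.out.ne_zero⟩
  have hB := s29m_bridgeHypK ι1 N hι1 p
  refine ⟨(s29m_kappaC hB).comp (s29a_ct (K1 := K1) N p), ?_, ?_, ?_, ?_⟩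
  · -- injectivity
    intro x y hxy
    have h1 := s29m_kappaC_injective hB hxy
    have h2 := congrArg Subtype.val h1
    rw [s29a_ct_coe, s29a_ct_coe] at h2
    exact Subtype.ext (hinj h2)
  · -- every `χ ∈ H_p` is hit
    intro χ hχ
    obtain ⟨y, hy⟩ := s29l_lambda_Hp N ι1 hB χ hχ
    obtain ⟨x, hx⟩ := hsurj (y : Pic0 K1 ↥(s29bp_FK K1 N)) y.2
    have hxt : x ∈ Pic0.torsion Kb (modularFunctionFieldBar N) p := by
      rw [Pic0.mem_torsion]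
      apply hinj
      rw [map_zsmul, hx, map_zero]
      exact Pic0.mem_torsion.mp y.2
    refine ⟨⟨x, hxt⟩, ?_⟩
    rw [AddMonoidHom.comp_apply]
    have : s29a_ct (K1 := K1) N p ⟨x, hxt⟩ = y := Subtype.ext hx
    rw [this, hy]
  · -- values in `H_p`
    intro x
    rw [AddMonoidHom.comp_apply]
    exact s59b_kappaK_mem_Hp_three ι1 N p hι1 hp3 h2N hpN (s29a_ct (K1 := K1) N p x)
  · -- equivariance
    intro ℓ hℓ x
    haveI : Fact (ℓ : ℕ).Prime := ⟨ℓ.2⟩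
    have hℓN : ¬ (ℓ : ℕ) ∣ N := fun h => hℓ (Dvd.dvd.mul_right h p)
    exact s29q_EQ (ι1.comp (algebraMap Kb K1)) hB (s29a_j (K1 := K1) N) (s29a_phi_j ι1 N)
      (s29a_c (K1 := K1) N) (s29a_hc N p) (fun x => s29a_ct (K1 := K1) N p x)
      (fun x => s29a_ct_coe N p x) (ℓ : ℕ) hℓN x

end Generic

attribute [local instance] s29a_algebraC

/-- **[KAPPA-PAR]**, unconditionally. -/
theorem s59b_kappaCoreT : s59b_KappaCoreT := by
  intro N _ p hpp hp3 h2N hpN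
  haveI : NeZero p := ⟨hpp.out.ne_zero⟩
  haveI : FFGen Kb (s29bp_jK Kb N) := s29bp_ffGen (algebraMap Kb ℂ) N
  haveI : FFGen ℂ (s29bp_jK ℂ N) := s29bp_ffGen (RingHom.id ℂ) N
  exact s59b_kappaCore_of_three (K1 := ℂ) (RingHom.id ℂ) Function.surjective_id N p hp3 h2N hpN
    (s29c_c_injective (K1 := ℂ) (modularFunctionFieldFull N) (s29bp_jK Kb N) (s29bp_jK ℂ N))
    (s29cs_surj_torsion' (K1 := ℂ) (modularFunctionFieldFull N) (s29bp_jK Kb N) (s29bp_jK ℂ N)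
      (s29a_j_jK N) p (s29m_finite_torsionK (RingHom.id ℂ) N p Function.surjective_id))

/-! ### The converse of EigenSupport -/

/-- **Converse of `s29k_EigenSupport`** (`p = 3`, `2 ∣ N`): a non-zero simultaneous eigenvector of the
`T_ℓ` (`ℓ ∤ Np`, `ℓ ∉ S`) in `k ⊗ J₀(N)(ℚ̄)[p]` gives one in `k ⊗ H_p` with the same eigenvalues. -/
def s59b_ConvEigenT : Prop :=
  ∀ (N : ℕ) [NeZero N] (p : ℕ) [Fact p.Prime], p = 3 → 2 ∣ N → ¬ p ∣ N →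
  ∀ (k : Type) [Field k] [Algebra (ZMod p) k] (S : Set ℕ) (e : Nat.Primes → k)
    (v : k ⊗[ZMod p] s29k_Jp N p), v ≠ 0 →
    (∀ ℓ : Nat.Primes, ¬ (ℓ : ℕ) ∣ N * p → (ℓ : ℕ) ∉ S →
      (s29k_Tl N p ℓ).baseChange k v = e ℓ • v) →
    ∃ w : k ⊗[ZMod p] s29h_Hp N p, w ≠ 0 ∧
      ∀ ℓ : Nat.Primes, ¬ (ℓ : ℕ) ∣ N * p → (ℓ : ℕ) ∉ S →
        (s29h_Tl N p ℓ).baseChange k w = e ℓ • w

theorem s59b_convEigen_of_three (hK : s59b_KappaCoreT) : s59b_ConvEigenT := by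
  intro N _ p _ hp3 h2N hpN k _ _ S e v hv heig
  classical
  obtain ⟨κ0, hinj, -, hmem, hEQ⟩ := hK N p hp3 h2N hpN
  let ι : Type := {ℓ : Nat.Primes // ¬ (ℓ : ℕ) ∣ N * p ∧ (ℓ : ℕ) ∉ S}
  let κ : s29k_Jp N p →ₗ[ZMod p] (Additive (Gamma0 N) →+ ZMod p) :=
    AddMonoidHom.toZModLinearMap p κ0
  let Λ : s29k_Jp N p →ₗ[ZMod p] s29h_Hp N p := κ.codRestrict (s29h_Hp N p) hmem
  have hΛinj : Function.Injective Λ := by
    intro x y hxy
    apply hinj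
    exact congrArg Subtype.val hxy
  have hcomm : ∀ i : ι, Λ ∘ₗ s29k_Tl N p i.1 = s29h_Tl N p i.1 ∘ₗ Λ := by
    intro i
    ext x : 1
    apply Subtype.ext
    simp only [LinearMap.comp_apply]
    exact hEQ i.1 i.2.1 x
  obtain ⟨w, hw, hweig⟩ := s29a_transfer (F := ZMod p) (k := k)
    (fun i : ι => s29k_Tl N p i.1) (fun i : ι => s29h_Tl N p i.1) Λ hΛinj hcomm v hv
    (fun i => e i.1) (fun i => heig i.1 i.2.1 i.2.2)
  exact ⟨w, hw, fun ℓ hℓ hℓS => hweig ⟨ℓ, hℓ, hℓS⟩⟩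

/-- **The converse of EigenSupport**, unconditionally. -/
theorem s59b_convEigenT : s59b_ConvEigenT := s59b_convEigen_of_three s59b_kappaCoreT


/-! ### Leaf [L2] -/

open Module in
/-- **LEAF [L2] AT `p = 3`, EVEN LEVEL**: a non-zero eigen-`3`-torsion point at an even level `M` prime to `3` gives a normalised
eigenform of level `M`. -/
theorem s59b_oldT : s59b_OldT := by
  intro M _ p hp hp3 h2M hpM a B hB y hy0 hy
  classical
  haveI : Fact p.Prime := ⟨hp⟩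
  obtain ⟨hpy, hyeig⟩ := hy
  set y' : s29k_Jp M p := ⟨y, by rw [Pic0.mem_torsion, natCast_zsmul]; exact hpy⟩ with hy'
  have hy'0 : y' ≠ 0 := fun h => hy0 (congrArg (fun z : s29k_Jp M p => (z : JZero M)) h)
  set v : (ZMod p) ⊗[ZMod p] s29k_Jp M p := (1 : ZMod p) ⊗ₜ[ZMod p] y' with hv
  have hv0 : v ≠ 0 := by
    intro h0
    have h1 := congrArg (TensorProduct.lid (ZMod p) (s29k_Jp M p)) h0
    rw [hv, TensorProduct.lid_tmul, one_smul, map_zero] at h1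
    exact hy'0 h1
  set e : Nat.Primes → ZMod p := fun ℓ => ((a ℓ : ℤ) : ZMod p) with he
  have hveig : ∀ ℓ : Nat.Primes, ¬ (ℓ : ℕ) ∣ M * p → (ℓ : ℕ) ∉ (↑B : Set ℕ) →
      (s29k_Tl M p ℓ).baseChange (ZMod p) v = e ℓ • v := by
    intro ℓ _ hℓB
    have h1 : s29k_Tl M p ℓ y' = e ℓ • y' := by
      apply Subtype.ext
      rw [s29k_Tl_coe, he, Int.cast_smul_eq_zsmul]
      exact hyeig ℓ (fun h3 => hℓB (Finset.mem_coe.mpr h3))
    rw [hv, LinearMap.baseChange_tmul, h1, TensorProduct.tmul_smul, TensorProduct.smul_tmul']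
  obtain ⟨w, hw0, hweig⟩ := s59b_convEigenT M p hp3 h2M hpM (ZMod p) (↑B : Set ℕ) e v hv0 hveig
  obtain ⟨g, 𝔪', hg, hmax, hpm, hcong⟩ := s44s_formOld M p (ZMod p) e B w hw0
    (fun ℓ h2 h1 => hweig ℓ h1 (fun h3 => h2 (Finset.mem_coe.mp h3)))
  refine ⟨g, 𝔪', hg, hmax, hpm, fun ℓ hℓ hℓB => ?_⟩
  have hℓMp : ¬ ℓ ∣ M * p := fun h => hℓB (hB ℓ hℓ h)
  exact hcong ⟨ℓ, hℓ⟩ hℓB hℓMp (a ℓ) rfl

end

end Fermat.Agent.Lib.S59
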