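/-
PROGRAMME (R2) = S59, node **[MRP_W] at `p = 3`** (helper2, prefix `s59b_`), file 10: the `t₂`-twin of helper7's
`Lib/S44/KRoot.lean`: THE GLOBAL `p`-TH ROOT `a` AND THE DEEP NODE-AVOIDING GENERATOR `h` OF `τx - x` for a Σ-datum whose node
places are those of the chart `t ≠ ∞` (`p = 3`, `2 ∣ M`).  Only `s59b_k_root` is new (the auxiliary lemmas are main's).
-/
import Fermat.Agent.Lib.S44.KRoot
import Fermat.Agent.Lib.S59.B3KUnipW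
import Fermat.Agent.Lib.S33.UnipNode
import Fermat.Agent.Lib.S33.TPUnip
import Fermat.Agent.Lib.S33.SsTrace
import Fermat.Agent.Lib.S36.GNormGal
import Fermat.Agent.Lib.S35.NormGen

set_option autoImplicit false
set_option linter.style.haveILetI false
set_option linter.unusedSectionVars false
set_option synthInstance.maxHeartbeats 400000

noncomputable section

namespace Fermat.Agent.Lib.S59

open AlgebraicCurve ModularCurve HahnSeries Fermat.Agent.Lib.FF Fermat.Agent.Lib.S18 Fermat.Agent.Lib.S44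
  Fermat.Agent.Lib.S33 Fermat.Agent.Lib.S34 Fermat.Agent.Lib.S35 Fermat.Agent.Lib.S36
  Fermat.Agent.Lib.S37

local notation "Kb" => AlgebraicClosure ℚ

/-! ### The root -/

section Root

variable {K₀ : Type} [Field K₀] [NumberField K₀] {κ : Type} [Field κ]
  (G : s18g_GaussData K₀ κ) [IsDiscreteValuationRing G.A]
variable (φ : K₀ →+* Kb) (M p : ℕ) [NeZero M] [hp : Fact p.Prime] (hpM : ¬ p ∣ M) (hp3 : p = 3) (h2M : 2 ∣ M)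
variable [CharP κ p] [PerfectField κ]
variable (hdeg : s34m_HDeg K₀ M p) (hT : s18g_HT κ M) (hdegM : s18g_HDeg K₀ M)
variable (hπ : Function.Surjective G.π)
variable (e : ℕ) (ε : K₀) (he : 0 < e) (hε : ε ∈ G.A) (hεinv : ε⁻¹ ∈ G.A) (hε0 : ε ≠ 0)
variable (hpe : (p : K₀) = ε * ((G.ϖ : G.A) : K₀) ^ e) (hperf : ∀ c : κ, ∃ d : κ, d ^ p = c)
variable (ζ₀ : K₀ˣ) (hζ₀ : IsPrimitiveRoot (ζ₀ : K₀) p)

local notation "D'M" => s33i_datum G M hT hdegM hπ p e ε hp.out he hε hεinv hε0 hpe hperf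
local notation "CI" => s33y_Ci G φ M p hpM hdeg hT hdegM hπ e ε he hε hεinv hε0 hpe hperf
local notation "CZ" => s33y_Cz G φ M p hpM hdeg hT hdegM hπ e ε he hε hεinv hε0 hpe hperf

variable {ι : Type*} {k : ι → Type*} [∀ s, Field (k s)] [∀ s, Algebra κ (k s)]

include hp3 h2M in
set_option maxHeartbeats 1600000 in
/-- **THE GLOBAL `p`-TH ROOT AND THE DEEP GENERATOR** (see the header). -/
theorem s59b_k_root (Z : s33z_Datum D'M (s34m_F K₀ (M * p)) ι k) (hCi : Z.Ci = CI) (hCz : Z.Cz = CZ)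
    (hZN : Z.N = s33s_nodePlaces (s34m_VV G φ M p hp.out hpM) (s34m_unif G (M * p))
      (s18_chart1 (L₀ := K₀) (s59b_tF K₀ (M * p))))
    (σ₀ : K₀ ≃ₐ[ℚ] K₀)
    (hσA : ∀ a : K₀, a ∈ G.A → (σ₀ : K₀ ≃+* K₀) a ∈ G.A)
    (hσA' : ∀ a : K₀, a ∈ G.A → (σ₀.symm : K₀ ≃+* K₀) a ∈ G.A)
    (B : ℕ) (hB : 1 ≤ B) (hsub : (p - 1) * B < e)
    (hσB : ∀ a : K₀, a ∈ G.A →
      ∃ z ∈ G.A, (σ₀ : K₀ ≃+* K₀) a - a = ((G.ϖ : G.A) : K₀) ^ (B + 1) * z)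
    (f : s34m_F K₀ (M * p)) (hf : f ≠ 0)
    (hdiv : ∀ Q : Place K₀ (s34m_F K₀ (M * p)), ((p : ℕ) : ℤ) ∣ Q.ord f)
    (hQ4 : ∀ 𝔫 : Ideal (s34x_ring (s34x_infRing (s34m_VV G φ M p hp.out hpM))
        (s18_chart1 (L₀ := K₀) (s59b_tF K₀ (M * p)))), 𝔫.IsMaximal →
      s34x_const (s34x_infRing (s34m_VV G φ M p hp.out hpM))
        (s18_chart1 (L₀ := K₀) (s59b_tF K₀ (M * p))) ((G.ϖ : G.A) : K₀)
        (s34x_inf_const_mem (s34m_VV G φ M p hp.out hpM) G.A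
          (s34c_const_mem_VV G φ M p hp.out hpM) G.ϖ) ∈ 𝔫 →
      ∃ Φ : s34m_F K₀ (M * p), Φ ≠ 0 ∧
        ∀ Q ∈ s18_chart1 (L₀ := K₀) (s59b_tF K₀ (M * p)),
          s34f_through (s34x_infRing (s34m_VV G φ M p hp.out hpM))
            (s18_chart1 (L₀ := K₀) (s59b_tF K₀ (M * p))) 𝔫 Q →
          Q.ord f = ((p : ℕ) : ℤ) * Q.ord Φ)
    (hα : s33f_IsKum0 D'M (s33t_nuAlpha φ M p hpM ζ₀ hζ₀ f))
    (hβ : s33f_IsKum0 D'M (s33t_nuBeta φ M p hpM ζ₀ hζ₀ f)) :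
    ∃ (a h : s34m_F K₀ (M * p)) (c : K₀), c ≠ 0 ∧ a ≠ 0 ∧ s33z_NF Z h ∧
      s33z_Cong Z (p * B + 1) h ∧
      a ^ p * h = algebraMap K₀ (s34m_F K₀ (M * p)) c *
        (arithmeticRingAut (modularFunctionFieldFull (M * p)) σ₀ f / f) := by
  haveI : PerfectRing κ p := PerfectField.toPerfectRing p
  set gσ : SemilinearAut K₀ (s34m_F K₀ (M * p)) :=
    arithmeticGalois (modularFunctionFieldFull (M * p)) σ₀ with hgσ
  -- [UNIP-K]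
  obtain ⟨a₁, ha₁, hU⟩ := haveI : NeZero p := ⟨hp.out.ne_zero⟩
    s59b_k_unip_wild M p hp.out hpM hp3 h2M K₀ φ κ G hπ σ₀ hσA hσA' B hB hσB f hf
    hdiv hQ4
  set F₁ : s34m_F K₀ (M * p) := s33u_fd gσ f / a₁ ^ p with hF₁
  have hfd0 : s33u_fd gσ f ≠ 0 := s33u_fd_ne_zero gσ hf
  have hF₁0 : F₁ ≠ 0 := div_ne_zero hfd0 (pow_ne_zero p ha₁)
  -- node-avoiding, `≡ 1 mod ϖ`
  have hUN := s33t_unipN_of_unipW M p hpM G φ (s59b_tF K₀ (M * p)) hU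
  have hnf₁ : s33z_NF Z F₁ := ⟨hF₁0, fun Q hQ => hUN.2 Q (hZN ▸ hQ)⟩
  obtain ⟨⟨y, hy, ey⟩, -⟩ := hU
  have hyi : y ∈ s34m_Vinf G (M * p) := (s34x_mem_infRing (s34m_VV G φ M p hp.out hpM) y).mp hy true
  have hyz : y ∈ s34m_Vzero G φ M p hp.out hpM :=
    (s34x_mem_infRing (s34m_VV G φ M p hp.out hpM) y).mp hy false
  have hc₁ : s33z_Cong Z 1 F₁ := by
    constructor
    · refine ⟨y, ?_, ?_⟩
      · show y ∈ Z.Ci.O
        rw [hCi]; exact hyi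
      · rw [pow_one]; exact ey
    · refine ⟨y, ?_, ?_⟩
      · show y ∈ Z.Cz.O
        rw [hCz]; exact hyz
      · rw [pow_one]; exact ey
  -- [TRACE] and the norms
  have hTr := s33y_trace G φ M p hpM hdeg hT hdegM hπ e ε he hε hεinv hε0 hpe hperf ζ₀ hζ₀ Z hCi hCz
  set Nm := s33y_Nm G φ M p hpM hT hdegM hπ e ε he hε hεinv hε0 hpe hperf ζ₀ hζ₀ with hNm
  have hNa : s33f_IsKum0 D'M (Nm.Na F₁) := by
    have h1 : Nm.Na F₁ = s33t_nuAlpha φ M p hpM ζ₀ hζ₀ (s33u_fd gσ f) *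
        ((s33t_nuAlpha φ M p hpM ζ₀ hζ₀ a₁) ^ p)⁻¹ := by
      show s33t_nuAlpha φ M p hpM ζ₀ hζ₀ F₁ = _
      rw [hF₁, s44k_monoidHom_div _ (s33t_nuAlpha_ne_zero φ M p hpM ζ₀ hζ₀) _ _ (pow_ne_zero p ha₁),
        map_pow, div_eq_mul_inv]
    rw [h1]
    exact (s44k_nuAlpha_fd_isKum0 G φ M p hpM hT hdegM hπ e ε he hε hεinv hε0 hpe hperf ζ₀ hζ₀ σ₀ f
      hf hα).mul (s33f_isKum0_pow (D := D'M)
        (s33t_nuAlpha_ne_zero φ M p hpM ζ₀ hζ₀ a₁ ha₁)).inv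
  have hNb : s33f_IsKum0 D'M (Nm.Nb F₁) := by
    have h1 : Nm.Nb F₁ = s33t_nuBeta φ M p hpM ζ₀ hζ₀ (s33u_fd gσ f) *
        ((s33t_nuBeta φ M p hpM ζ₀ hζ₀ a₁) ^ p)⁻¹ := by
      show s33t_nuBeta φ M p hpM ζ₀ hζ₀ F₁ = _
      rw [hF₁, s44k_monoidHom_div (s33t_nuBeta φ M p hpM ζ₀ hζ₀) Nm.Nb_ne_zero _ _
        (pow_ne_zero p ha₁), map_pow, div_eq_mul_inv]
    rw [h1]
    exact (s44k_nuBeta_fd_isKum0 G φ M p hpM hT hdegM hπ e ε he hε hεinv hε0 hpe hperf ζ₀ hζ₀ σ₀ f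
      hf hβ).mul (s33f_isKum0_pow (D := D'M) (Nm.Nb_ne_zero a₁ ha₁)).inv
  -- all depths `≤ p B` are sub-critical
  have hsubc : ∀ a, 1 ≤ a → a < p * B + 1 → s33f_SubCrit D'M a := by
    intro a _ ha
    show (p - 1) * a < p * e
    have h1 : a ≤ p * B := by omega
    have hp1 : 1 ≤ p := hp.out.one_le
    calc (p - 1) * a ≤ (p - 1) * (p * B) := Nat.mul_le_mul_left _ h1
      _ = p * ((p - 1) * B) := by ring
      _ < p * e := Nat.mul_lt_mul_of_pos_left hsub (by omega)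
  -- deepen
  obtain ⟨g, hg, hcong⟩ := s33z_depth_iter Nm hTr hsubc hnf₁ (s33z_depthGE_of_cong hc₁)
    (s44k_depthGE_of_isKum0 D'M hNa _) (s44k_depthGE_of_isKum0 D'M hNb _) (p * B + 1)
    (Nat.le_add_left 1 _) le_rfl
  obtain ⟨c, h₁, hc0, hh₁, rfl⟩ := hg
  have hh₁0 : h₁ ≠ 0 := hh₁.1
  refine ⟨a₁ / h₁, algebraMap K₀ (s34m_F K₀ (M * p)) c * h₁ ^ p * F₁, c, hc0,
    div_ne_zero ha₁ hh₁0, ((s33z_nf_const hc0).mul (hh₁.pow p)).mul hnf₁, hcong, ?_⟩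
  have hap : a₁ ^ p ≠ 0 := pow_ne_zero p ha₁
  have hhp : h₁ ^ p ≠ 0 := pow_ne_zero p hh₁0
  rw [hF₁, div_pow]
  show a₁ ^ p / h₁ ^ p * (algebraMap K₀ (s34m_F K₀ (M * p)) c * h₁ ^ p * (s33u_fd gσ f / a₁ ^ p)) =
    algebraMap K₀ (s34m_F K₀ (M * p)) c * s33u_fd gσ f
  field_simp

end Root

end Fermat.Agent.Lib.S59
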