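/-
PROGRAMME (R2) = S59, node **[MRP_W] at `p = 3`** (helper2, prefix `s59b_`): **(★) OVER A FIXED FIELD `L₀ ≤ ℚ̄` AT `p = 3`,
`2 ∣ M`, ON THE CHART `{t regular}`** (`t = s59b_tF`, `q`-expansion `t₂`) — the port of helper7's `Lib/S44/KStar.lean`
(section `Field`): `s33s_datum_five → s59b_datumT`, helper8's unit `s44e_exists_unit → s59b_exists_unit_three` (weight `2 e`),
`s44e_glob_five → s59b_glob_three`, `s44k_root → s59b_k_root`, `s44c_five_* → s59b_three_*`.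

* `s59b_finite_node_three`, `s59b_glob_three` : finitely many nodes / (G6) on the chart `{t regular}`;
* **`s59b_k_star_tame`** : `p ∤ e`, (Q4) at the nodes of the chart `{t regular}`;
* **`s59b_k_star_wild`** : `σ₀` wild of break exactly `B ≥ 1`, `(p - 1) B < e`, `p² ∤ e`, (Q4) on BOTH charts of `t`.
-/
import Fermat.Agent.Lib.S44.KStar
import Fermat.Agent.Lib.S59.B3KRoot
import Fermat.Agent.Lib.S59.B3CoreTau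
import Fermat.Agent.Lib.S59.B3CoreTame
import Fermat.Agent.Lib.S59.B3Unit
import Fermat.Agent.Lib.S34.SChartQ

set_option autoImplicit false
set_option linter.style.haveILetI false
set_option linter.unusedSectionVars false
set_option synthInstance.maxHeartbeats 400000

noncomputable section

namespace Fermat.Agent.Lib.S59

open AlgebraicCurve ModularCurve HahnSeries Polynomial Fermat.Agent.Lib.FF Fermat.Agent.Lib.S18 Fermat.Agent.Lib.S44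
  Fermat.Agent.Lib.S33 Fermat.Agent.Lib.S34 Fermat.Agent.Lib.S35 Fermat.Agent.Lib.S36
  Fermat.Agent.Lib.S37

local notation "Kb" => AlgebraicClosure ℚ

section Glob

variable (M p : ℕ) [NeZero M] [hp : Fact p.Prime] (hpM : ¬ p ∣ M) (hp3 : p = 3) (h2M : 2 ∣ M)
  (K₀ : Type) [Field K₀] [NumberField K₀] (φ : K₀ →+* Kb)
  (κ : Type) [Field κ] [CharP κ p] [PerfectField κ]
  (G : s18g_GaussData K₀ κ) [IsDiscreteValuationRing G.A]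
  (hdeg : s34m_HDeg K₀ M p) (hT : s18g_HT κ M) (hdegM : s18g_HDeg K₀ M)
  (hπ : Function.Surjective G.π)

include hp3 h2M hdeg hT hdegM hπ in
/-- **finitely many nodes** for `X_0(M p)`, `p = 3`, `2 ∣ M`, chart `{t regular}`. -/
theorem s59b_finite_node_three :
    Finite (s33s_Node (s34m_VV G φ M p hp.out hpM) (s34m_unif G (M * p))
      (s18_chart1 (L₀ := K₀) (s59b_tF K₀ (M * p)))) :=
  haveI := s59b_c_ffGen1 M p hpM hp3 h2M K₀ φ κ G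
  s44e_finite_node_W G φ M p hpM hdeg hT hdegM (s59b_tF K₀ M)
    (s59b_c_hwV M p hpM hp3 h2M K₀ φ κ G)
    (s59b_c_coord1 M p hpM hp3 h2M K₀ φ κ G hT hdegM)
    (s59b_c_tw1 M p hpM hp3 h2M K₀ φ κ G hT hdegM)
    (s59b_c_hmain1 M p hpM hp3 h2M K₀ φ κ G hT hdegM hπ)
    (s59b_tF K₀ (M * p)) (s59b_c_hwN M p hpM hp3 h2M K₀ φ κ G)
    (s59b_c_alphaW1 M p hpM hp3 h2M K₀ φ κ G)
    (s59b_c_alphaB1 M p hpM hp3 h2M K₀ φ κ G)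
    (s59b_c_betaB1 M p hpM hp3 h2M K₀ φ κ G)

include hp3 h2M hdeg hT hdegM hπ in
/-- **(G6) FOR `X_0(M p)`, `p = 3`, `2 ∣ M`**, chart `{t regular}`. -/
theorem s59b_glob_three (n : ℕ) (hn : n ≠ 0) (f : s34m_F K₀ (M * p)) (hf : f ≠ 0)
    (hloc : ∀ s : s33s_Node (s34m_VV G φ M p hp.out hpM) (s34m_unif G (M * p))
        (s18_chart1 (L₀ := K₀) (s59b_tF K₀ (M * p))),
      ∃ (g υ : s34m_F K₀ (M * p)) (a : ℤ), f = g ^ n * υ ∧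
        (∀ i, υ * s34m_unif G (M * p) ^ (-a) ∈ s34m_VV G φ M p hp.out hpM i ∧
          (υ * s34m_unif G (M * p) ^ (-a))⁻¹ ∈ s34m_VV G φ M p hp.out hpM i) ∧
        ∀ Q ∈ s18_chart1 (L₀ := K₀) (s59b_tF K₀ (M * p)),
          s34f_through (s34x_infRing (s34m_VV G φ M p hp.out hpM))
            (s18_chart1 (L₀ := K₀) (s59b_tF K₀ (M * p))) s.1 Q → Q.ord υ = 0) :
    ∃ (Gg h : s34m_F K₀ (M * p)) (a : ℤ), Gg ≠ 0 ∧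
      f = Gg ^ n * (s34m_unif G (M * p) ^ a * h) ∧
      (∀ i, h ∈ s34m_VV G φ M p hp.out hpM i ∧ h⁻¹ ∈ s34m_VV G φ M p hp.out hpM i) ∧
      ∀ Q ∈ s33s_nodePlaces (s34m_VV G φ M p hp.out hpM) (s34m_unif G (M * p))
        (s18_chart1 (L₀ := K₀) (s59b_tF K₀ (M * p))), Q.ord h = 0 :=
  haveI := s59b_finite_node_three M p hpM hp3 h2M K₀ φ κ G hdeg hT hdegM hπ
  s44e_glob_modular G φ M p hpM _ (s59b_c_hnode M p hpM hp3 h2M K₀ φ κ G) n hn f hf hloc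

end Glob

section Field

variable (M p : ℕ) [NeZero M] [hp : Fact p.Prime] (hpM : ¬ p ∣ M) (hp3 : p = 3) (h2M : 2 ∣ M)
  (L₀ : IntermediateField ℚ Kb) [NumberField ↥L₀]
  (κ : Type) [Field κ] [CharP κ p] [PerfectField κ]
  (G : s18g_GaussData ↥L₀ κ) [IsDiscreteValuationRing G.A]
  (hdeg : s34m_HDeg ↥L₀ M p) (hT : s18g_HT κ M) (hdegM : s18g_HDeg ↥L₀ M)
  (hπ : Function.Surjective G.π)
  (e : ℕ) (ε : ↥L₀) (he : 0 < e) (hε : ε ∈ G.A) (hεinv : ε⁻¹ ∈ G.A) (hε0 : ε ≠ 0)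
  (hpe : (p : ↥L₀) = ε * ((G.ϖ : G.A) : ↥L₀) ^ e) (hperf : ∀ c : κ, ∃ d : κ, d ^ p = c)
  (ℓ : ℕ) [hℓ : Fact ℓ.Prime] (hℓN : ¬ ℓ ∣ M * p)
  (ζ₀ : (↥L₀)ˣ) (hζ₀ : IsPrimitiveRoot (ζ₀ : ↥L₀) ℓ)
  (ζp : (↥L₀)ˣ) (hζp : IsPrimitiveRoot (ζp : ↥L₀) p)

include hp3 h2M hdeg hT hdegM hπ he hε hεinv hε0 hpe hperf hℓN hζ₀ in
set_option maxHeartbeats 3200000 in
/-- **(★) over the field `L₀`, TAME CASE `p ∤ e`.** -/
theorem s59b_k_star_tame (hp1 : ¬ p ∣ e)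
    {x : JZero (M * p)} {f : s34m_F ↥L₀ (M * p)}
    (hf : s33d_IsKumGen p x (s18q_incl (M * p) L₀ f)) (a₀ : ℤ)
    (hx : heckeOperatorBar (M * p) ⟨ℓ, hℓ.out⟩ x = a₀ • x)
    (ha₀ : ¬ (p : ℤ) ∣ a₀ - ((ℓ : ℤ) + 1))
    (hQ4 : ∀ 𝔫 : Ideal (s34x_ring (s34x_infRing (s34m_VV G (algebraMap ↥L₀ Kb) M p hp.out hpM))
        (s18_chart1 (L₀ := ↥L₀) (s59b_tF ↥L₀ (M * p)))), 𝔫.IsMaximal →
      s34x_const (s34x_infRing (s34m_VV G (algebraMap ↥L₀ Kb) M p hp.out hpM))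
        (s18_chart1 (L₀ := ↥L₀) (s59b_tF ↥L₀ (M * p))) ((G.ϖ : G.A) : ↥L₀)
        (s34x_inf_const_mem (s34m_VV G (algebraMap ↥L₀ Kb) M p hp.out hpM) G.A
          (s34c_const_mem_VV G (algebraMap ↥L₀ Kb) M p hp.out hpM) G.ϖ) ∈ 𝔫 →
      ∃ Φ : s34m_F ↥L₀ (M * p), Φ ≠ 0 ∧
        ∀ Q ∈ s18_chart1 (L₀ := ↥L₀) (s59b_tF ↥L₀ (M * p)),
          s34f_through (s34x_infRing (s34m_VV G (algebraMap ↥L₀ Kb) M p hp.out hpM))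
            (s18_chart1 (L₀ := ↥L₀) (s59b_tF ↥L₀ (M * p))) 𝔫 Q →
          Q.ord f = ((p : ℕ) : ℤ) * Q.ord Φ) :
    ∃ (Gg h : s34m_F ↥L₀ (M * p)) (a : ℤ), Gg ≠ 0 ∧
      f = Gg ^ p * (s34m_unif G (M * p) ^ a * h) ∧
      (∀ i, h ∈ s34m_VV G (algebraMap ↥L₀ Kb) M p hp.out hpM i ∧
        h⁻¹ ∈ s34m_VV G (algebraMap ↥L₀ Kb) M p hp.out hpM i) ∧
      ∀ Q ∈ s33s_nodePlaces (s34m_VV G (algebraMap ↥L₀ Kb) M p hp.out hpM) (s34m_unif G (M * p))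
        (s18_chart1 (L₀ := ↥L₀) (s59b_tF ↥L₀ (M * p))), Q.ord h = 0 := by
  haveI : NeZero p := ⟨hp.out.ne_zero⟩
  have hf0 : f ≠ 0 := (s33d_kum_of_gen (M * p) p L₀ hf).1
  -- the modular unit
  obtain ⟨g₀, hg₀, hord, hinf, hzero⟩ :=
    s59b_exists_unit_three G (algebraMap ↥L₀ Kb) M p hp.out hpM hp3 h2M e ε hε hεinv hpe
  obtain ⟨hη, hη2⟩ := s59b_three_eta_tame M p hpM hp3 h2M ↥L₀ (algebraMap ↥L₀ Kb) κ G hdeg hT hdegM hπ e ε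
    he hε hεinv hε0 hpe hperf hg₀ hord hinf hzero hp1
  -- the node factorisations
  have hnode : ∀ s : s33s_Node (s34m_VV G (algebraMap ↥L₀ Kb) M p hp.out hpM) (s34m_unif G (M * p))
      (s18_chart1 (L₀ := ↥L₀) (s59b_tF ↥L₀ (M * p))),
      ∃ φ' E : s34m_F ↥L₀ (M * p), f = φ' ^ p * E ∧
        s44c_Unit (s59b_three_Ns M p hpM ↥L₀ (algebraMap ↥L₀ Kb) κ G s) E := by
    intro s
    obtain ⟨Φ, hΦ0, hΦ⟩ := hQ4 s.1 s.2.1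
      (s.2.2.1 (s44k_const_mem_comp G (algebraMap ↥L₀ Kb) M p hpM _ true))
    refine ⟨Φ, f / Φ ^ p, ?_, div_ne_zero hf0 (pow_ne_zero p hΦ0), fun Q hQ => ?_⟩
    · rw [mul_div_cancel₀ _ (pow_ne_zero _ hΦ0)]
    · rw [div_eq_mul_inv, Q.ord_mul hf0 (inv_ne_zero (pow_ne_zero p hΦ0)), Q.ord_inv,
        ← zpow_natCast, Q.ord_zpow, hΦ Q hQ.1 hQ.2]
      ring
  exact s59b_glob_three M p hpM hp3 h2M ↥L₀ (algebraMap ↥L₀ Kb) κ G hdeg hT hdegM hπ p hp.out.ne_zero f hf0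
    (fun s => s59b_three_star_tame_tau M p hpM hp3 h2M L₀ κ G hdeg hT hdegM hπ e ε he hε hεinv hε0 hpe hperf
      ℓ hℓN ζ₀ hζ₀ hnode hf a₀ hx ha₀ hη hη2 s)

include hp3 h2M hdeg hT hdegM hπ he hε hεinv hε0 hpe hperf hℓN hζ₀ hζp in
set_option maxHeartbeats 6400000 in
/-- **(★) over the field `L₀`, WILD CASE**: `σ₀` of break exactly `B ≥ 1`, sub-critical `(p - 1) B < e`,
`p² ∤ e`. -/
theorem s59b_k_star_wild (hp2 : ¬ p ^ 2 ∣ e)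
    -- the wild automorphism
    (σ₀ : ↥L₀ ≃ₐ[ℚ] ↥L₀)
    (hσA : ∀ a : ↥L₀, a ∈ G.A → (σ₀ : ↥L₀ ≃+* ↥L₀) a ∈ G.A)
    (hσA' : ∀ a : ↥L₀, a ∈ G.A → (σ₀.symm : ↥L₀ ≃+* ↥L₀) a ∈ G.A)
    (B : ℕ) (hB : 1 ≤ B) (hsub : (p - 1) * B < e)
    (hσB : ∀ a : ↥L₀, a ∈ G.A →
      ∃ z ∈ G.A, (σ₀ : ↥L₀ ≃+* ↥L₀) a - a = ((G.ϖ : G.A) : ↥L₀) ^ (B + 1) * z)
    (cτ : G.A)
    (hcτ : (σ₀ : ↥L₀ ≃+* ↥L₀) ((G.ϖ : G.A) : ↥L₀) - ((G.ϖ : G.A) : ↥L₀) =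
      ((G.ϖ : G.A) : ↥L₀) ^ (B + 1) * (cτ : ↥L₀))
    (hcτ0 : G.π cτ ≠ 0)
    -- the class and its Kummer generator
    {x : JZero (M * p)} {f : s34m_F ↥L₀ (M * p)}
    (hf : s33d_IsKumGen p x (s18q_incl (M * p) L₀ f))
    (hαx : s35c_alphaPush M p hp.out hpM x = 0) (hβx : s35c_betaPush M p hp.out hpM x = 0)
    (a₀ : ℤ) (hx : heckeOperatorBar (M * p) ⟨ℓ, hℓ.out⟩ x = a₀ • x)
    (ha₀ : ¬ (p : ℤ) ∣ a₀ - ((ℓ : ℤ) + 1))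
    -- [RAT] = exact (Q4), both charts
    (hQ4 : ∀ 𝔫 : Ideal (s34x_ring (s34x_infRing (s34m_VV G (algebraMap ↥L₀ Kb) M p hp.out hpM))
        (s18_chart1 (L₀ := ↥L₀) (s59b_tF ↥L₀ (M * p)))), 𝔫.IsMaximal →
      s34x_const (s34x_infRing (s34m_VV G (algebraMap ↥L₀ Kb) M p hp.out hpM))
        (s18_chart1 (L₀ := ↥L₀) (s59b_tF ↥L₀ (M * p))) ((G.ϖ : G.A) : ↥L₀)
        (s34x_inf_const_mem (s34m_VV G (algebraMap ↥L₀ Kb) M p hp.out hpM) G.A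
          (s34c_const_mem_VV G (algebraMap ↥L₀ Kb) M p hp.out hpM) G.ϖ) ∈ 𝔫 →
      ∃ Φ : s34m_F ↥L₀ (M * p), Φ ≠ 0 ∧
        ∀ Q ∈ s18_chart1 (L₀ := ↥L₀) (s59b_tF ↥L₀ (M * p)),
          s34f_through (s34x_infRing (s34m_VV G (algebraMap ↥L₀ Kb) M p hp.out hpM))
            (s18_chart1 (L₀ := ↥L₀) (s59b_tF ↥L₀ (M * p))) 𝔫 Q →
          Q.ord f = ((p : ℕ) : ℤ) * Q.ord Φ)
    (hQ4' : ∀ 𝔫 : Ideal (s34x_ring (s34x_infRing (s34m_VV G (algebraMap ↥L₀ Kb) M p hp.out hpM))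
        (s18_chart1 (L₀ := ↥L₀) (s59b_tF ↥L₀ (M * p))⁻¹)), 𝔫.IsMaximal →
      s34x_const (s34x_infRing (s34m_VV G (algebraMap ↥L₀ Kb) M p hp.out hpM))
        (s18_chart1 (L₀ := ↥L₀) (s59b_tF ↥L₀ (M * p))⁻¹) ((G.ϖ : G.A) : ↥L₀)
        (s34x_inf_const_mem (s34m_VV G (algebraMap ↥L₀ Kb) M p hp.out hpM) G.A
          (s34c_const_mem_VV G (algebraMap ↥L₀ Kb) M p hp.out hpM) G.ϖ) ∈ 𝔫 →
      ∃ Φ : s34m_F ↥L₀ (M * p), Φ ≠ 0 ∧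
        ∀ Q ∈ s18_chart1 (L₀ := ↥L₀) (s59b_tF ↥L₀ (M * p))⁻¹,
          s34f_through (s34x_infRing (s34m_VV G (algebraMap ↥L₀ Kb) M p hp.out hpM))
            (s18_chart1 (L₀ := ↥L₀) (s59b_tF ↥L₀ (M * p))⁻¹) 𝔫 Q →
          Q.ord f = ((p : ℕ) : ℤ) * Q.ord Φ) :
    ∃ (Gg h : s34m_F ↥L₀ (M * p)) (a : ℤ), Gg ≠ 0 ∧
      f = Gg ^ p * (s34m_unif G (M * p) ^ a * h) ∧
      (∀ i, h ∈ s34m_VV G (algebraMap ↥L₀ Kb) M p hp.out hpM i ∧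
        h⁻¹ ∈ s34m_VV G (algebraMap ↥L₀ Kb) M p hp.out hpM i) ∧
      ∀ Q ∈ s33s_nodePlaces (s34m_VV G (algebraMap ↥L₀ Kb) M p hp.out hpM) (s34m_unif G (M * p))
        (s18_chart1 (L₀ := ↥L₀) (s59b_tF ↥L₀ (M * p))), Q.ord h = 0 := by
  haveI : NeZero p := ⟨hp.out.ne_zero⟩
  haveI : PerfectRing κ p := PerfectField.toPerfectRing p
  obtain ⟨hf0, hdiv⟩ := s33d_kum_of_gen (M * p) p L₀ hf
  set gσ : SemilinearAut ↥L₀ (s34m_F ↥L₀ (M * p)) :=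
    arithmeticGalois (modularFunctionFieldFull (M * p)) σ₀ with hgσ
  set Z := s59b_datumT M p hpM hp3 h2M ↥L₀ (algebraMap ↥L₀ Kb) κ G hdeg hT hdegM hπ e ε he hε hεinv
    hε0 hpe hperf with hZ
  have hCi : Z.Ci = s33y_Ci G (algebraMap ↥L₀ Kb) M p hpM hdeg hT hdegM hπ e ε he hε hεinv hε0 hpe
    hperf := rfl
  have hCz : Z.Cz = s33y_Cz G (algebraMap ↥L₀ Kb) M p hpM hdeg hT hdegM hπ e ε he hε hεinv hε0 hpe
    hperf := rfl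
  have hZN : Z.N = s33s_nodePlaces (s34m_VV G (algebraMap ↥L₀ Kb) M p hp.out hpM)
    (s34m_unif G (M * p)) (s18_chart1 (L₀ := ↥L₀) (s59b_tF ↥L₀ (M * p))) := rfl
  have hcoe : ((s59b_tF ↥L₀ (M * p) : s34m_F ↥L₀ (M * p)) : LaurentSeries ↥L₀) = s18u_t2 ↥L₀ :=
    s59b_c_coeN M p hpM hp3 h2M ↥L₀ (algebraMap ↥L₀ Kb) κ G
  have hfixt : arithmeticGalois (modularFunctionFieldFull (M * p)) σ₀ • s59b_tF ↥L₀ (M * p) =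
      s59b_tF ↥L₀ (M * p) := s34s_galois_fixed_t2 (M * p) σ₀ (s59b_tF ↥L₀ (M * p)) hcoe
  -- the wild `s33z_GalAut`
  have hs : s33i_InertiaAut G σ₀ := s44k_inertiaAut G σ₀ hσA B hσB
  have hN : ∀ f : s34m_F ↥L₀ (M * p), s33z_NF Z f →
      s33z_NF Z (arithmeticRingAut (modularFunctionFieldFull (M * p)) σ₀ f) := by
    intro f hfN
    have := s33y_hN G (algebraMap ↥L₀ Kb) M p hpM hs (s59b_tF ↥L₀ (M * p))
      (s34s_galois_fixed_t2 (M * p) σ₀ (s59b_tF ↥L₀ (M * p)) hcoe) f ⟨hfN.1, fun Q hQ => hfN.2 Q (hZN ▸ hQ)⟩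
    exact ⟨this.1, fun Q hQ => this.2 Q (hZN ▸ hQ)⟩
  set GA : s33z_GalAut Z := s44k_galAut G (algebraMap ↥L₀ Kb) M p hpM σ₀ hσA B hσB hdeg hT hdegM hπ
    e ε he hε hεinv hε0 hpe hperf Z hCi hCz hN with hGA
  have hWi := (s44k_wild_i G (algebraMap ↥L₀ Kb) M p hpM σ₀ hσA B hσB hdeg hT hdegM hπ e ε he hε
    hεinv hε0 hpe hperf Z hCi hCz hN cτ hcτ).firstOrder hB
  have hWz := (s44k_wild_z G (algebraMap ↥L₀ Kb) M p hpM σ₀ hσA B hσB hdeg hT hdegM hπ e ε he hε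
    hεinv hε0 hpe hperf Z hCi hCz hN cτ hcτ).firstOrder hB
  -- the root
  have hα := s44k_isKum0_nuAlpha M p hpM L₀ ζp hζp G hT hdegM hπ e ε he hε hεinv hε0 hpe hperf x f
    hf hαx
  have hβ := s44k_isKum0_nuBeta M p hpM L₀ ζp hζp G hT hdegM hπ e ε he hε hεinv hε0 hpe hperf x f
    hf hβx
  obtain ⟨a, h, c, hc0, ha0, hnf, hcong, heq⟩ := s59b_k_root G (algebraMap ↥L₀ Kb) M p hpM hp3 h2M hdeg hT
    hdegM hπ e ε he hε hεinv hε0 hpe hperf ζp hζp Z hCi hCz hZN σ₀ hσA hσA' B hB hsub hσB f hf0 hdiv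
    hQ4 hα hβ
  have hσ : ∀ y : s34m_F ↥L₀ (M * p), GA.s y = gσ • y := fun _ => rfl
  -- stability of the sets of places through the closed points
  have hgS₁ : ∀ Q : Place ↥L₀ (s34m_F ↥L₀ (M * p)),
      Q ∈ s18_chart1 (L₀ := ↥L₀) (s59b_tF ↥L₀ (M * p)) ↔
        gσ • Q ∈ s18_chart1 (L₀ := ↥L₀) (s59b_tF ↥L₀ (M * p)) :=
    fun Q => s34s_chart1_stable _ _ hfixt Q
  have hgS₂ : ∀ Q : Place ↥L₀ (s34m_F ↥L₀ (M * p)),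
      Q ∈ s18_chart1 (L₀ := ↥L₀) (s59b_tF ↥L₀ (M * p))⁻¹ ↔
        gσ • Q ∈ s18_chart1 (L₀ := ↥L₀) (s59b_tF ↥L₀ (M * p))⁻¹ :=
    fun Q => s34s_chart2_stable _ _ hfixt Q
  have hst₁ := s44k_thr_stable G (algebraMap ↥L₀ Kb) M p hpM σ₀ hσA hσA' B hσB _ hgS₁
  have hst₂ := s44k_thr_stable G (algebraMap ↥L₀ Kb) M p hpM σ₀ hσA hσA' B hσB _ hgS₂
  -- the node factorisations
  have hΦn : ∀ s : s33s_Node (s34m_VV G (algebraMap ↥L₀ Kb) M p hp.out hpM) (s34m_unif G (M * p))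
      (s18_chart1 (L₀ := ↥L₀) (s59b_tF ↥L₀ (M * p))),
      ∃ Φ : s34m_F ↥L₀ (M * p), Φ ≠ 0 ∧
        ∀ Q ∈ s59b_three_Ns M p hpM ↥L₀ (algebraMap ↥L₀ Kb) κ G s,
          Q.ord f = ((p : ℕ) : ℤ) * Q.ord Φ := by
    intro s
    obtain ⟨Φ, hΦ0, hΦ⟩ := hQ4 s.1 s.2.1
      (s.2.2.1 (s44k_const_mem_comp G (algebraMap ↥L₀ Kb) M p hpM _ true))
    exact ⟨Φ, hΦ0, fun Q hQ => hΦ Q hQ.1 hQ.2⟩
  choose Φ hΦ0 hΦs using hΦn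
  have hvi : ∀ s, ∃ n : ℤ, s44c_Val Z.Di n (Φ s) := fun s => s44c_exists_val (D := Z.Di) (hΦ0 s)
  have hvz : ∀ s, ∃ n : ℤ, s44c_Val Z.Dz n (Φ s) := fun s => s44c_exists_val (D := Z.Dz) (hΦ0 s)
  choose ni hni using hvi
  choose nz hnz using hvz
  have hnode : ∀ s, ∃ φ' E : s34m_F ↥L₀ (M * p), f = φ' ^ p * E ∧
      s44c_Val Z.Di (ni s) φ' ∧ s44c_Val Z.Dz (nz s) φ' ∧
      s44c_Unit (s59b_three_Ns M p hpM ↥L₀ (algebraMap ↥L₀ Kb) κ G s) E ∧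
      s44c_Unit (s59b_three_Ns M p hpM ↥L₀ (algebraMap ↥L₀ Kb) κ G s) (GA.s E / E) := by
    intro s
    obtain ⟨hU1, hU2⟩ := s44k_unit_fd_of_Phi (s59b_three_Ns M p hpM ↥L₀ (algebraMap ↥L₀ Kb) κ G s) gσ
      (hst₁ s.1 true s.2.2.1) p hf0 (hΦ0 s) (hΦs s)
    refine ⟨Φ s, f / Φ s ^ p, ?_, hni s, hnz s, hU1, ?_⟩
    · rw [mul_div_cancel₀ _ (pow_ne_zero _ (hΦ0 s))]
    · rw [hσ]
      exact hU2
  -- the smooth-point factorisations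
  have hsi : s44c_SmoothFact Z.Ci
      (s59b_three_Xi M p hpM hp3 h2M ↥L₀ (algebraMap ↥L₀ Kb) κ G hdeg hT hdegM hπ e ε he hε hεinv hε0 hpe
        hperf) GA.s f := by
    refine s44k_smoothFact_of_Phi Z.Ci _ gσ GA.s hσ ?_ hf0 ?_
    · rintro (z | z)
      · exact hst₁ z.1 true z.2.2.1
      · exact hst₂ z.1 true z.2.2.1
    · rintro (z | z)
      · obtain ⟨Ψ, hΨ0, hΨ⟩ := hQ4 z.1 z.2.1
          (z.2.2.1 (s44k_const_mem_comp G (algebraMap ↥L₀ Kb) M p hpM _ true))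
        exact ⟨Ψ, hΨ0, fun Q hQ => hΨ Q hQ.1 hQ.2⟩
      · obtain ⟨Ψ, hΨ0, hΨ⟩ := hQ4' z.1 z.2.1
          (z.2.2.1 (s44k_const_mem_comp G (algebraMap ↥L₀ Kb) M p hpM _ true))
        exact ⟨Ψ, hΨ0, fun Q hQ => hΨ Q hQ.1 hQ.2⟩
  have hsz : s44c_SmoothFact Z.Cz
      (s59b_three_Xz M p hpM hp3 h2M ↥L₀ (algebraMap ↥L₀ Kb) κ G hdeg hT hdegM hπ e ε he hε hεinv hε0 hpe
        hperf) GA.s f := by
    refine s44k_smoothFact_of_Phi Z.Cz _ gσ GA.s hσ ?_ hf0 ?_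
    · rintro (z | z)
      · exact hst₁ z.1 false z.2.2.1
      · exact hst₂ z.1 false z.2.2.1
    · rintro (z | z)
      · obtain ⟨Ψ, hΨ0, hΨ⟩ := hQ4 z.1 z.2.1
          (z.2.2.1 (s44k_const_mem_comp G (algebraMap ↥L₀ Kb) M p hpM _ false))
        exact ⟨Ψ, hΨ0, fun Q hQ => hΨ Q hQ.1 hQ.2⟩
      · obtain ⟨Ψ, hΨ0, hΨ⟩ := hQ4' z.1 z.2.1
          (z.2.2.1 (s44k_const_mem_comp G (algebraMap ↥L₀ Kb) M p hpM _ false))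
        exact ⟨Ψ, hΨ0, fun Q hQ => hΨ Q hQ.1 hQ.2⟩
  -- the modular unit
  obtain ⟨g₀, hg₀, hord, hinf, hzero⟩ :=
    s59b_exists_unit_three G (algebraMap ↥L₀ Kb) M p hp.out hpM hp3 h2M e ε hε hεinv hpe
  obtain ⟨hη, hη2⟩ := s59b_three_eta M p hpM hp3 h2M ↥L₀ (algebraMap ↥L₀ Kb) κ G hdeg hT hdegM hπ e ε
    he hε hεinv hε0 hpe hperf hg₀ hord hinf hzero hp2
  have hhN : ∀ s, s44c_Unit (s59b_three_Ns M p hpM ↥L₀ (algebraMap ↥L₀ Kb) κ G s) h :=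
    fun s => ⟨hnf.1, fun Q hQ => hnf.2 Q ⟨hQ.1, s.1, s.2, hQ.2⟩⟩
  exact s59b_glob_three M p hpM hp3 h2M ↥L₀ (algebraMap ↥L₀ Kb) κ G hdeg hT hdegM hπ p hp.out.ne_zero f hf0
    (fun s => s59b_three_star_tau M p hpM hp3 h2M L₀ κ G hdeg hT hdegM hπ e ε he hε hεinv hε0 hpe hperf
      ℓ hℓN ζ₀ hζ₀ GA σ₀ (fun _ => rfl) hB hsub hWi hWz hcτ0 hc0 ha0 hhN hcong heq hnode hsi hsz
      hf a₀ hx ha₀ hη hη2 s)

end Field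

end Fermat.Agent.Lib.S59
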