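/-
PROGRAMME (R2) = S59, node **[MRP_W] at `p = 3`** (helper2, prefix `s59b_`): **LEAF [L3] = (★) AT `p = 3`, `2 ∣ M`:
`s59b_starT : s59b_StarT`.**  Port of helper8's wiring `Lib/S44/EStar.lean` (`s44e_star`) and of helper7's
`Lib/S44/KStarWire.lean` to the chart `{t regular}` (`t = s59b_tF`, `q`-expansion `t₂`):

* `s59b_GlobConclT`, `s59b_FieldWildT`, `s59b_FieldTameT` : the vocabulary (`s44e_Q4` of `EStar.lean` is generic in the chart);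
* `s59b_fieldTameT`, `s59b_fieldWildT` : the two field statements = `s59b_k_star_tame`, `s59b_k_star_wild` (`B3KStar.lean`) at the
  Gauss datum `s37r_G P Z ϖ hϖ`;
* `s59b_star_of_field` : the wiring — [Q-DIV] `s44e_qdiv`, [RAT] = helper7's `s59nt_Q4_Z` (`NXQ4.lean`, exponent `3` = level prime
  `3`), inertia field `Z`, wild/tame split, base change `Z → L₀` = helper7's `s59nt_finite_up_glob_t2` (`NXBase.lean`);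
* **`s59b_starT : s59b_StarT`** (leaf [L3] of `B3Iface.lean`), UNCONDITIONALLY.
-/
import Fermat.Agent.Lib.S44.EStar
import Fermat.Agent.Lib.S59.B3KStar
import Fermat.Agent.Lib.S59.B3Iface
import Fermat.Agent.Lib.S59.NXQ4
import Fermat.Agent.Lib.S59.NXBase

set_option autoImplicit false
set_option linter.style.haveILetI false
set_option linter.unusedSectionVars false
set_option synthInstance.maxHeartbeats 400000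

noncomputable section

namespace Fermat.Agent.Lib.S59

open ModularCurve HahnSeries AlgebraicCurve Fermat.Agent.Lib.S18 Fermat.Agent.Lib.S44 Fermat.Agent.Lib.S28
  Fermat.Agent.Lib.S29 Fermat.Agent.Lib.S37 Fermat.Agent.Lib.FF Fermat.Agent.Lib.S34
  Fermat.Agent.Lib.S35 Fermat.Agent.Lib.S33 Fermat.Agent.Lib.Frey Fermat.Agent.Lib.S13

local notation "Kb" => AlgebraicClosure ℚ
local notation "Γℚ" => (AlgebraicClosure ℚ ≃ₐ[ℚ] AlgebraicClosure ℚ)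

/-! ### The vocabulary of the field statements -/

section Vocab

variable (M p : ℕ) [NeZero M] [hp : Fact p.Prime] (hpM : ¬ p ∣ M) (P : ValuationSubring Kb)
  (Z : IntermediateField ℚ Kb) [IsDiscreteValuationRing ↥(s18q_A0 P Z)]
  (ϖ : ↥(s18q_A0 P Z)) (hϖ : Irreducible ϖ)

/-- the output of (G6) for `f` over `(Z, ϖ)`: `f = Gg ^ p · ϖ ^ a · h`, `h` a unit of `V_∞` and of `V_0` of order
`0` at all node places (= the input of `s44e_finite_up_glob`). -/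
def s59b_GlobConclT (f : s34m_F ↥Z (M * p)) : Prop :=
  ∃ (Gg h : s34m_F ↥Z (M * p)) (a : ℤ), Gg ≠ 0 ∧
    f = Gg ^ p * (s34m_unif (s37r_G P Z ϖ hϖ) (M * p) ^ a * h) ∧
    (∀ i, h ∈ s34m_VV (s37r_G P Z ϖ hϖ) (algebraMap ↥Z Kb) M p hp.out hpM i ∧
      h⁻¹ ∈ s34m_VV (s37r_G P Z ϖ hϖ) (algebraMap ↥Z Kb) M p hp.out hpM i) ∧
    ∀ Q ∈ s33s_nodePlaces (s34m_VV (s37r_G P Z ϖ hϖ) (algebraMap ↥Z Kb) M p hp.out hpM)
      (s34m_unif (s37r_G P Z ϖ hϖ) (M * p))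
      (s18_chart1 (L₀ := ↥Z) (s59b_tF ↥Z (M * p))), Q.ord h = 0

end Vocab

/-- **(★) over a fixed field, WILD case** (helper7's `s44k_star_field`). -/
def s59b_FieldWildT : Prop :=
  ∀ (M : ℕ) [NeZero M] (p : ℕ) [hp : Fact p.Prime], p = 3 → 2 ∣ M → ∀ (hpM : ¬ p ∣ M), Squarefree M →
    ∀ (P : ValuationSubring Kb), P.LiesOverPrime p →
    ∀ (Z : IntermediateField ℚ Kb) [FiniteDimensional ℚ ↥Z]
      [IsDiscreteValuationRing ↥(s18q_A0 P Z)] (ϖ : ↥(s18q_A0 P Z)) (hϖ : Irreducible ϖ)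
      (e : ℕ) (ε : ↥Z), 0 < e → ε ∈ s18q_A0 P Z → ε⁻¹ ∈ s18q_A0 P Z → ε ≠ 0 →
      (p : ↥Z) = ε * ((ϖ : ↥(s18q_A0 P Z)) : ↥Z) ^ e → ¬ p ^ 2 ∣ e →
    ∀ (ζp : (↥Z)ˣ), IsPrimitiveRoot (ζp : ↥Z) p →
    ∀ (ℓ : Nat.Primes), ¬ (ℓ : ℕ) ∣ M * p →
    ∀ (ζℓ : (↥Z)ˣ), IsPrimitiveRoot (ζℓ : ↥Z) (ℓ : ℕ) →
    ∀ (x : JZero (M * p)), p • x = 0 →
      s35c_alphaPush M p hp.out hpM x = 0 → s35c_betaPush M p hp.out hpM x = 0 →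
    ∀ (a₀ : ℤ), heckeOperatorBar (M * p) ℓ x = a₀ • x → ¬ (p : ℤ) ∣ a₀ - ((ℓ : ℕ) + 1) →
    ∀ (f : s34m_F ↥Z (M * p)), s33d_IsKumGen p x (s18q_incl (M * p) Z f) →
      s44e_Q4 M p hpM P Z ϖ hϖ (s18_chart1 (L₀ := ↥Z) (s59b_tF ↥Z (M * p))) f →
      s44e_Q4 M p hpM P Z ϖ hϖ (s18_chart2 (L₀ := ↥Z) (s59b_tF ↥Z (M * p))) f →
    ∀ (σ₀ : ↥Z ≃ₐ[ℚ] ↥Z),
      (∀ a : ↥Z, a ∈ (s37r_G P Z ϖ hϖ).A → (σ₀ : ↥Z ≃+* ↥Z) a ∈ (s37r_G P Z ϖ hϖ).A) →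
      (∀ a : ↥Z, a ∈ (s37r_G P Z ϖ hϖ).A → (σ₀.symm : ↥Z ≃+* ↥Z) a ∈ (s37r_G P Z ϖ hϖ).A) →
    ∀ (B : ℕ), 1 ≤ B → (p - 1) * B < e →
      (∀ a : ↥Z, a ∈ (s37r_G P Z ϖ hϖ).A → ∃ z ∈ (s37r_G P Z ϖ hϖ).A,
        (σ₀ : ↥Z ≃+* ↥Z) a - a =
          (((s37r_G P Z ϖ hϖ).ϖ : (s37r_G P Z ϖ hϖ).A) : ↥Z) ^ (B + 1) * z) →
    ∀ (cτ : (s37r_G P Z ϖ hϖ).A),
      (σ₀ : ↥Z ≃+* ↥Z) (((s37r_G P Z ϖ hϖ).ϖ : (s37r_G P Z ϖ hϖ).A) : ↥Z) -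
          (((s37r_G P Z ϖ hϖ).ϖ : (s37r_G P Z ϖ hϖ).A) : ↥Z) =
        (((s37r_G P Z ϖ hϖ).ϖ : (s37r_G P Z ϖ hϖ).A) : ↥Z) ^ (B + 1) * (cτ : ↥Z) →
      (s37r_G P Z ϖ hϖ).π cτ ≠ 0 →
    s59b_GlobConclT M p hpM P Z ϖ hϖ f

/-- **(★) over a fixed field, TAME case** (`p ∤ e`). -/
def s59b_FieldTameT : Prop :=
  ∀ (M : ℕ) [NeZero M] (p : ℕ) [hp : Fact p.Prime], p = 3 → 2 ∣ M → ∀ (hpM : ¬ p ∣ M), Squarefree M →
    ∀ (P : ValuationSubring Kb), P.LiesOverPrime p →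
    ∀ (Z : IntermediateField ℚ Kb) [FiniteDimensional ℚ ↥Z]
      [IsDiscreteValuationRing ↥(s18q_A0 P Z)] (ϖ : ↥(s18q_A0 P Z)) (hϖ : Irreducible ϖ)
      (e : ℕ) (ε : ↥Z), 0 < e → ε ∈ s18q_A0 P Z → ε⁻¹ ∈ s18q_A0 P Z → ε ≠ 0 →
      (p : ↥Z) = ε * ((ϖ : ↥(s18q_A0 P Z)) : ↥Z) ^ e → ¬ p ∣ e →
    ∀ (ζp : (↥Z)ˣ), IsPrimitiveRoot (ζp : ↥Z) p →
    ∀ (ℓ : Nat.Primes), ¬ (ℓ : ℕ) ∣ M * p →
    ∀ (ζℓ : (↥Z)ˣ), IsPrimitiveRoot (ζℓ : ↥Z) (ℓ : ℕ) →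
    ∀ (x : JZero (M * p)), p • x = 0 →
      s35c_alphaPush M p hp.out hpM x = 0 → s35c_betaPush M p hp.out hpM x = 0 →
    ∀ (a₀ : ℤ), heckeOperatorBar (M * p) ℓ x = a₀ • x → ¬ (p : ℤ) ∣ a₀ - ((ℓ : ℕ) + 1) →
    ∀ (f : s34m_F ↥Z (M * p)), s33d_IsKumGen p x (s18q_incl (M * p) Z f) →
      s44e_Q4 M p hpM P Z ϖ hϖ (s18_chart1 (L₀ := ↥Z) (s59b_tF ↥Z (M * p))) f →
      s44e_Q4 M p hpM P Z ϖ hϖ (s18_chart2 (L₀ := ↥Z) (s59b_tF ↥Z (M * p))) f →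
    s59b_GlobConclT M p hpM P Z ϖ hϖ f


/-! ### The two field statements -/

set_option maxHeartbeats 1600000 in
/-- **(★) over a fixed field, TAME case, `p = 3`.** -/
theorem s59b_fieldTameT : s59b_FieldTameT := by
  intro M _ p hp hp3 h2M hpM _ P hP Z _ _ ϖ hϖ e ε he hε hεinv hε0 hpe hp1 _ _ ℓ hℓN ζℓ hζℓ x _ _ _ a₀ hx
    ha₀ f hf hQ4 _
  haveI : Fact (ℓ : ℕ).Prime := ⟨ℓ.2⟩
  haveI : NumberField ↥Z := ⟨⟩
  haveI hchar₀ : CharP (IsLocalRing.ResidueField ↥(s18q_A0 P Z)) p := s37rl_charP P hP Z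
  haveI hperf₀ : PerfectField (IsLocalRing.ResidueField ↥(s18q_A0 P Z)) :=
    s37rl_perfectField P hP Z
  haveI : PerfectRing (IsLocalRing.ResidueField ↥(s18q_A0 P Z)) p := PerfectField.toPerfectRing p
  haveI : IsDiscreteValuationRing ↥(s37r_G P Z ϖ hϖ).A :=
    (inferInstance : IsDiscreteValuationRing ↥(s18q_A0 P Z))
  have hT : s18g_HT (IsLocalRing.ResidueField ↥(s18q_A0 P Z)) M := s18t_indep_j p M hpM _
  have hdegM : s18g_HDeg ↥Z M := fun n b hb hn =>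
    s18g_exists_relation M (algebraMap ↥Z Kb) hn b hb
  have hdeg : s34m_HDeg ↥Z M p := s34r_deg_HDeg (algebraMap ↥Z Kb) M p hp.out hpM
  have hπ : Function.Surjective (s37r_G P Z ϖ hϖ).π := IsLocalRing.residue_surjective
  have hperf : ∀ c : IsLocalRing.ResidueField ↥(s18q_A0 P Z), ∃ d, d ^ p = c :=
    fun c => surjective_frobenius _ p c
  exact s59b_k_star_tame M p hpM hp3 h2M Z (IsLocalRing.ResidueField ↥(s18q_A0 P Z)) (s37r_G P Z ϖ hϖ)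
    hdeg hT hdegM hπ e ε he hε hεinv hε0 hpe hperf (ℓ : ℕ) hℓN ζℓ hζℓ hp1 hf a₀ hx ha₀ hQ4

set_option maxHeartbeats 3200000 in
/-- **(★) over a fixed field, WILD case, `p = 3`.** -/
theorem s59b_fieldWildT : s59b_FieldWildT := by
  intro M _ p hp hp3 h2M hpM _ P hP Z _ _ ϖ hϖ e ε he hε hεinv hε0 hpe hp2 ζp hζp ℓ hℓN ζℓ hζℓ x _ hαx hβx
    a₀ hx ha₀ f hf hQ4 hQ4' σ₀ hσA hσA' B hB hsub hσB cτ hcτ hcτ0
  haveI : Fact (ℓ : ℕ).Prime := ⟨ℓ.2⟩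
  haveI : NumberField ↥Z := ⟨⟩
  haveI hchar₀ : CharP (IsLocalRing.ResidueField ↥(s18q_A0 P Z)) p := s37rl_charP P hP Z
  haveI hperf₀ : PerfectField (IsLocalRing.ResidueField ↥(s18q_A0 P Z)) :=
    s37rl_perfectField P hP Z
  haveI : PerfectRing (IsLocalRing.ResidueField ↥(s18q_A0 P Z)) p := PerfectField.toPerfectRing p
  haveI : IsDiscreteValuationRing ↥(s37r_G P Z ϖ hϖ).A :=
    (inferInstance : IsDiscreteValuationRing ↥(s18q_A0 P Z))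
  have hT : s18g_HT (IsLocalRing.ResidueField ↥(s18q_A0 P Z)) M := s18t_indep_j p M hpM _
  have hdegM : s18g_HDeg ↥Z M := fun n b hb hn =>
    s18g_exists_relation M (algebraMap ↥Z Kb) hn b hb
  have hdeg : s34m_HDeg ↥Z M p := s34r_deg_HDeg (algebraMap ↥Z Kb) M p hp.out hpM
  have hπ : Function.Surjective (s37r_G P Z ϖ hϖ).π := IsLocalRing.residue_surjective
  have hperf : ∀ c : IsLocalRing.ResidueField ↥(s18q_A0 P Z), ∃ d, d ^ p = c :=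
    fun c => surjective_frobenius _ p c
  exact s59b_k_star_wild M p hpM hp3 h2M Z (IsLocalRing.ResidueField ↥(s18q_A0 P Z)) (s37r_G P Z ϖ hϖ)
    hdeg hT hdegM hπ e ε he hε hεinv hε0 hpe hperf (ℓ : ℕ) hℓN ζℓ hζℓ ζp hζp hp2 σ₀ hσA hσA' B hB hsub hσB
    cτ hcτ hcτ0 hf hαx hβx a₀ hx ha₀ hQ4 hQ4'

/-! ### The wiring -/

set_option maxHeartbeats 4000000 in
/-- **[L3] = (★) from the two field statements.** -/
theorem s59b_star_of_field (hW : s59b_FieldWildT) (hT : s59b_FieldTameT) : s59b_StarT := by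
  intro M _ p hp hp3 h2M hpM hsq P hP L _ _ hSC hμ x hpx hα hβ hfix ⟨ℓ₀, a₀, hℓ₀, hTx, ha₀⟩
  classical
  haveI : NeZero p := ⟨hp.out.ne_zero⟩
  have hℓp : (ℓ₀ : ℕ) ≠ p := by
    rintro h
    exact hℓ₀ (h ▸ Dvd.intro_left M rfl)
  -- the level `L`
  haveI hdvrL : IsDiscreteValuationRing ↥(s18q_A0 P L) := s18q_A0_dvr P L hP
  obtain ⟨ϖL, hϖL⟩ := IsDiscreteValuationRing.exists_irreducible ↥(s18q_A0 P L)
  obtain ⟨e, ε, he, hε, hεinv, hε0, hpe⟩ := s33t_exists_e P L hp.out hP ϖL hϖL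
  -- [Q-DIV]
  obtain ⟨fL, hfL⟩ := s44e_qdiv (M * p) p L x hpx hfix
  obtain ⟨hfL0, hdivL⟩ := s33d_kum_of_gen (M * p) p L hfL
  -- [RAT]
  obtain ⟨L₂, hL₂fd, hQ4⟩ := s59nt_Q4_Z M p hp.out hpM hp3 h2M p hp.out P hP L fL hfL0 hdivL
  -- roots of unity
  haveI : NeZero (ℓ₀ : ℕ) := ⟨ℓ₀.2.ne_zero⟩
  obtain ⟨ζℓ, hζℓ⟩ := HasEnoughRootsOfUnity.exists_primitiveRoot Kb (ℓ₀ : ℕ)
  obtain ⟨ζp, hζp⟩ := HasEnoughRootsOfUnity.exists_primitiveRoot Kb p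
  haveI := hL₂fd
  haveI : FiniteDimensional ℚ ↥(IntermediateField.adjoin ℚ {ζℓ}) :=
    IntermediateField.adjoin.finiteDimensional ((hζℓ.isIntegral ℓ₀.2.pos).tower_top (A := ℚ))
  haveI : FiniteDimensional ℚ ↥(L ⊔ L₂) := IntermediateField.finiteDimensional_sup _ _
  haveI : FiniteDimensional ℚ ↥(L ⊔ L₂ ⊔ IntermediateField.adjoin ℚ {ζℓ}) :=
    IntermediateField.finiteDimensional_sup _ _
  refine ⟨L ⊔ L₂ ⊔ IntermediateField.adjoin ℚ {ζℓ}, inferInstance, ?_⟩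
  intro L₀ _ _ _ ϖ hϖ hLx
  have hLL : L ≤ L₀ := (le_sup_left.trans le_sup_left).trans hLx
  have hL₂L₀ : L₂ ≤ L₀ := (le_sup_right.trans le_sup_left).trans hLx
  have hζℓL₀ : ζℓ ∈ L₀ :=
    hLx (le_sup_right (a := L ⊔ L₂) (IntermediateField.subset_adjoin ℚ {ζℓ} (Set.mem_singleton ζℓ)))
  -- the inertia field `Z`
  haveI hZfd : FiniteDimensional ℚ ↥(s44s_Z P L L₀) := s44s_Z_finiteDimensional P L L₀
  haveI hdvrZ : IsDiscreteValuationRing ↥(s18q_A0 P (s44s_Z P L L₀)) := s18q_A0_dvr P _ hP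
  have hLZ : L ≤ s44s_Z P L L₀ := s44s_le_Z hLL
  have hZL₀ : s44s_Z P L L₀ ≤ L₀ := s44s_Z_le P L L₀
  -- the uniformiser, `e`, `ε` over `Z`
  have hϖLP : (((ϖL : ↥(s18q_A0 P L)) : ↥L) : Kb) ∈ P := ϖL.2
  set ϖZ : ↥(s18q_A0 P (s44s_Z P L L₀)) :=
    ⟨⟨(((ϖL : ↥(s18q_A0 P L)) : ↥L) : Kb), hLZ (ϖL : ↥L).2⟩, hϖLP⟩ with hϖZdef
  have hϖZ : Irreducible ϖZ := s44s_irreducible_Z p hp.out P hP L L₀ hLL ϖL hϖL ϖZ rfl
  set εZ : ↥(s44s_Z P L L₀) := ⟨(ε : Kb), hLZ ε.2⟩ with hεZdef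
  have hεZ : εZ ∈ s18q_A0 P (s44s_Z P L L₀) := hε
  have hεZinv : εZ⁻¹ ∈ s18q_A0 P (s44s_Z P L L₀) := by
    have h1 : ((ε⁻¹ : ↥L) : Kb) ∈ P := hεinv
    show ((εZ⁻¹ : ↥(s44s_Z P L L₀)) : Kb) ∈ P
    simpa using h1
  have hεZ0 : εZ ≠ 0 := by
    intro h0
    apply hε0
    have := congrArg (fun z : ↥(s44s_Z P L L₀) => (z : Kb)) h0
    exact Subtype.ext this
  have hpeZ : (p : ↥(s44s_Z P L L₀)) =
      εZ * ((ϖZ : ↥(s18q_A0 P (s44s_Z P L L₀))) : ↥(s44s_Z P L L₀)) ^ e := by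
    apply Subtype.ext
    have := congrArg (fun z : ↥L => (z : Kb)) hpe
    simpa using this
  -- the function over `Z`
  set f : s34m_F ↥(s44s_Z P L L₀) (M * p) := s44q_up (M * p) hLZ fL with hfdef
  have hf : s33d_IsKumGen p x (s18q_incl (M * p) (s44s_Z P L L₀) f) := by
    rw [hfdef, s44q_incl_up]
    exact hfL
  -- the function `t₂` over `Z`
  haveI : NumberField ↥(s44s_Z P L L₀) := ⟨⟩
  haveI hcharZ₀ : CharP (IsLocalRing.ResidueField ↥(s18q_A0 P (s44s_Z P L L₀))) p :=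
    s37rl_charP P hP _
  haveI hperfZ₀ : PerfectField (IsLocalRing.ResidueField ↥(s18q_A0 P (s44s_Z P L L₀))) :=
    s37rl_perfectField P hP _
  haveI : IsDiscreteValuationRing ↥(s37r_G P (s44s_Z P L L₀) ϖZ hϖZ).A :=
    (inferInstance : IsDiscreteValuationRing ↥(s18q_A0 P (s44s_Z P L L₀)))
  have hcoeZ : ((s59b_tF ↥(s44s_Z P L L₀) (M * p) : s34m_F ↥(s44s_Z P L L₀) (M * p)) :
      LaurentSeries ↥(s44s_Z P L L₀)) = s18u_t2 ↥(s44s_Z P L L₀) :=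
    s59b_c_coeN M p hpM hp3 h2M ↥(s44s_Z P L L₀) (algebraMap ↥(s44s_Z P L L₀) Kb)
      (IsLocalRing.ResidueField ↥(s18q_A0 P (s44s_Z P L L₀))) (s37r_G P (s44s_Z P L L₀) ϖZ hϖZ)
  obtain ⟨hQ4₁, hQ4₂⟩ := hQ4 L₀ hLL hL₂L₀ ϖZ hϖZ (s59b_tF ↥(s44s_Z P L L₀) (M * p)) hcoeZ
  -- the roots of unity in `Z`
  have hζpZ : ζp ∈ s44s_Z P L L₀ := hLZ (hμ ζp hζp.pow_eq_one)
  have hζℓZ : ζℓ ∈ s44s_Z P L L₀ :=
    s44e_root_mem_Z hp.out ℓ₀.2 hℓp P hP L L₀ hζℓ.pow_eq_one hζℓL₀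
  obtain ⟨ζp₀, hζp₀, -⟩ := s33t_exists_zeta (s44s_Z P L L₀) hp.out ζp hζp hζpZ
  obtain ⟨ζℓ₀, hζℓ₀, -⟩ := s33t_exists_zeta (s44s_Z P L L₀) ℓ₀.2 ζℓ hζℓ hζℓZ
  -- (G6) over `Z`
  have hglob : s59b_GlobConclT M p hpM P (s44s_Z P L L₀) ϖZ hϖZ f := by
    by_cases hd : p ∣ e
    · -- the WILD case
      obtain ⟨τ, hτ, hτp, b, hbL, hτb⟩ := s44q_exists_wild p P hP L ϖL hϖL e ε hε hεinv hpe hd
      obtain ⟨g, hgL, r, hr, hnd, hlt⟩ := hSC.2 τ hτ hτp ⟨b, hbL, hτb⟩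
      haveI hcharZ : CharP (IsLocalRing.ResidueField ↥(s18q_A0 P (s44s_Z P L L₀))) p :=
        s37rl_charP P hP _
      set σ₀ : ↥(s44s_Z P L L₀) ≃ₐ[ℚ] ↥(s44s_Z P L L₀) := s44s_resZ P L L₀ τ hτ with hσ₀
      have hσA : ∀ a : ↥(s44s_Z P L L₀), a ∈ (s37r_G P (s44s_Z P L L₀) ϖZ hϖZ).A →
          (σ₀ : ↥(s44s_Z P L L₀) ≃+* ↥(s44s_Z P L L₀)) a ∈ (s37r_G P (s44s_Z P L L₀) ϖZ hϖZ).A :=
        fun a ha => (s44s_resZ_mem P L L₀ τ hτ a ha).1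
      have hσA' : ∀ a : ↥(s44s_Z P L L₀), a ∈ (s37r_G P (s44s_Z P L L₀) ϖZ hϖZ).A →
          (σ₀.symm : ↥(s44s_Z P L L₀) ≃+* ↥(s44s_Z P L L₀)) a ∈
            (s37r_G P (s44s_Z P L L₀) ϖZ hϖZ).A :=
        fun a ha => (s44s_resZ_mem P L L₀ τ hτ a ha).2.1
      have hD2 : ∀ a : ↥(s44s_Z P L L₀), a ∈ (s37r_G P (s44s_Z P L L₀) ϖZ hϖZ).A →
          ∃ u ∈ (s37r_G P (s44s_Z P L L₀) ϖZ hϖZ).A,
            (σ₀ : ↥(s44s_Z P L L₀) ≃+* ↥(s44s_Z P L L₀)) u = u ∧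
            ∃ z ∈ (s37r_G P (s44s_Z P L L₀) ϖZ hϖZ).A,
              a - u = (((s37r_G P (s44s_Z P L L₀) ϖZ hϖZ).ϖ :
                (s37r_G P (s44s_Z P L L₀) ϖZ hϖZ).A) : ↥(s44s_Z P L L₀)) * z := by
        intro a ha
        obtain ⟨u, hu, hufix, z, hz, e1⟩ :=
          s44s_exists_inertia_fixed_Z p hp.out P hP L L₀ ϖZ hϖZ a ha
        exact ⟨u, hu, hufix τ hτ, z, hz, e1⟩
      -- `σ₀ ^ p` fixes the uniformiser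
      have hord : ((σ₀ : ↥(s44s_Z P L L₀) ≃+* ↥(s44s_Z P L L₀))^[p])
          (((s37r_G P (s44s_Z P L L₀) ϖZ hϖZ).ϖ : (s37r_G P (s44s_Z P L L₀) ϖZ hϖZ).A) :
            ↥(s44s_Z P L L₀)) =
          (((s37r_G P (s44s_Z P L L₀) ϖZ hϖZ).ϖ : (s37r_G P (s44s_Z P L L₀) ϖZ hϖZ).A) :
            ↥(s44s_Z P L L₀)) := by
        apply Subtype.ext
        rw [hσ₀, s44e_resZ_iterate P L L₀ τ hτ p]
        exact hτp _ (ϖL : ↥L).2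
      -- `σ₀` moves the uniformiser
      have hne : (σ₀ : ↥(s44s_Z P L L₀) ≃+* ↥(s44s_Z P L L₀))
          (((s37r_G P (s44s_Z P L L₀) ϖZ hϖZ).ϖ : (s37r_G P (s44s_Z P L L₀) ϖZ hϖZ).A) :
            ↥(s44s_Z P L L₀)) ≠
          (((s37r_G P (s44s_Z P L L₀) ϖZ hϖZ).ϖ : (s37r_G P (s44s_Z P L L₀) ϖZ hϖZ).A) :
            ↥(s44s_Z P L L₀)) := by
        have hb0 : b ≠ 0 := by
          rintro rfl
          exact hτb (map_zero τ)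
        rcases P.mem_or_inv_mem b with hbP | hbP
        · refine s44e_unif_moved (s37r_G P (s44s_Z P L L₀) ϖZ hϖZ) _ hσA hD2 ⟨b, hLZ hbL⟩ hbP ?_
          intro h0
          exact hτb (congrArg Subtype.val h0)
        · refine s44e_unif_moved (s37r_G P (s44s_Z P L L₀) ϖZ hϖZ) _ hσA hD2
            ⟨b⁻¹, hLZ (L.inv_mem hbL)⟩ hbP ?_
          intro h0
          have h1 : τ b⁻¹ = b⁻¹ := congrArg Subtype.val h0
          rw [map_inv₀, inv_inj] at h1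
          exact hτb h1
      obtain ⟨B, cτ, hB, hcτ0, hcτ, hσB⟩ := s44k_break (s37r_G P (s44s_Z P L L₀) ϖZ hϖZ) p
        (σ₀ : ↥(s44s_Z P L L₀) ≃+* ↥(s44s_Z P L L₀)) hσA hσA' hD2 hord hne
      -- sub-criticality from the witness
      have hg0 : g ≠ 0 := by
        rintro rfl
        rw [AddValuation.map_zero] at hr
        exact WithTop.top_ne_coe hr
      have hsub : (p - 1) * B < e := by
        refine s44k_subcrit_of_witness (s37r_G P (s44s_Z P L L₀) ϖZ hϖZ) p P hP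
          (algebraMap ↥(s44s_Z P L L₀) Kb) (fun _ => Iff.rfl) e εZ he hεZ hεZinv hεZ0 hpeZ
          (σ₀ : ↥(s44s_Z P L L₀) ≃+* ↥(s44s_Z P L L₀)) hσA hσA' B hB cτ hcτ0 hcτ hσB
          ⟨g, hLZ hgL⟩ (fun h0 => hg0 (congrArg Subtype.val h0)) r hr ?_ ?_
        · intro m s hs
          refine hnd _ ?_ s hs
          show algebraMap ↥(s44s_Z P L L₀) Kb (_ ^ m) ∈ L
          rw [map_zpow₀]
          exact zpow_mem (ϖL : ↥L).2 m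
        · have e1 : algebraMap ↥(s44s_Z P L L₀) Kb
              ((σ₀ : ↥(s44s_Z P L L₀) ≃+* ↥(s44s_Z P L L₀)) ⟨g, hLZ hgL⟩ / ⟨g, hLZ hgL⟩ - 1) =
              τ g / g - 1 := by
            rw [map_sub, map_div₀, map_one]
            rfl
          rw [e1]
          exact hlt
      have hnsq : ¬ p ^ 2 ∣ e := s44e_not_sq_dvd p P hP L ϖL e ε he hε hεinv hε0 hpe hSC.1
      exact hW M p hp3 h2M hpM hsq P hP (s44s_Z P L L₀) ϖZ hϖZ e εZ he hεZ hεZinv hεZ0 hpeZ hnsq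
        ζp₀ hζp₀ ℓ₀ hℓ₀ ζℓ₀ hζℓ₀ x hpx hα hβ a₀ hTx ha₀ f hf hQ4₁ hQ4₂ σ₀ hσA hσA' B hB hsub hσB
        cτ hcτ hcτ0
    · -- the TAME case
      exact hT M p hp3 h2M hpM hsq P hP (s44s_Z P L L₀) ϖZ hϖZ e εZ he hεZ hεZinv hεZ0 hpeZ hd
        ζp₀ hζp₀ ℓ₀ hℓ₀ ζℓ₀ hζℓ₀ x hpx hα hβ a₀ hTx ha₀ f hf hQ4₁ hQ4₂
  obtain ⟨Gg, h, a, hGg, efh, hO, hN⟩ := hglob
  exact s59nt_finite_up_glob_t2 M p hpM p P hZL₀ ϖZ hϖZ ϖ hϖ x (s59b_tF ↥(s44s_Z P L L₀) (M * p)) hcoeZ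
    f Gg h a hf hGg efh hO hN


/-- **LEAF [L3] = (★) AT `p = 3`, `2 ∣ M`, UNCONDITIONALLY.** -/
theorem s59b_starT : s59b_StarT := s59b_star_of_field s59b_fieldWildT s59b_fieldTameT

end Fermat.Agent.Lib.S59
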