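/-
PROGRAMME (R2) = S59, node [MRP_W], leaf [L6_W] `s59b_WSideW`, sub-node **(S5) THE IMPROVEMENT LEMMA**
(helper2, prefix `s59b_`), abstract form.

Setting: a field `K` with a `ℚ ∪ {∞}`-valued valuation `v`, a subfield `L` on which `v` is discrete
(values in `(1/e) ℤ`), a ring endomorphism `τ` of `K` which preserves `v`, moves integral elements by
elements of positive valuation ("`τ` is in the inertia group"), maps `L` into itself and satisfies
`τ ^ p = 1` on `L`; residue characteristic `p` (odd) and the residue field of `L` is perfect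
(`hperf`: units of `L` are `p`-th powers modulo the maximal ideal).

* `s59b_theta`   : `v a < v (τ a - a)` for every `a ≠ 0` with `τ^p a = a` (no unit hypothesis on `a`).
* `s59b_improve` : if `g₁ ∈ L` is integral and `τ g₁ ≠ g₁` then there is `g ∈ L`, `g ≠ 0`, `0 < v g`,
  `v g₁ ≤ v g`, `v g ∉ p · v (L^×)`, `τ g - g = τ g₁ - g₁`.  Hence `v (τ g / g - 1) < v (τ g₁ - g₁)`
  (`s59b_improve_lt`): the shape of the witness in `s44i_SubCrit`.
-/
import Mathlib

set_option autoImplicit false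

namespace Fermat.Agent.Lib.S59

section Abs

variable {K : Type*} [Field K] (v : AddValuation K (WithTop ℚ)) (τ : K →+* K)

theorem s59b_v_add_pos {x y : K} (hx : 0 < v x) (hy : 0 < v y) : 0 < v (x + y) :=
  lt_of_lt_of_le (lt_min hx hy) (v.map_add x y)

theorem s59b_v_mul_pos {x y : K} (hx : 0 < v x) (hy : 0 ≤ v y) : 0 < v (x * y) := by
  rw [v.map_mul]
  exact add_pos_of_pos_of_nonneg hx hy

theorem s59b_v_iter (hτv : ∀ x, v (τ x) = v x) (a : K) (i : ℕ) : v (τ^[i] a) = v a := by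
  induction i with
  | zero => rfl
  | succ i ih => rw [Function.iterate_succ_apply', hτv, ih]

theorem s59b_v_iter_sub (hτv : ∀ x, v (τ x) = v x) (hτres : ∀ a, 0 ≤ v a → 0 < v (τ a - a))
    (a : K) (ha : 0 ≤ v a) (i : ℕ) : 0 < v (τ^[i] a - a) := by
  induction i with
  | zero => simp
  | succ i ih =>
    rw [Function.iterate_succ_apply']
    have h1 : τ (τ^[i] a) - a = (τ (τ^[i] a) - τ^[i] a) + (τ^[i] a - a) := by ring
    rw [h1]
    exact s59b_v_add_pos v (hτres _ (by rw [s59b_v_iter v τ hτv]; exact ha)) ih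

/-- the "norm" `∏_{i<n} τ^i a`. -/
def s59b_nrm (n : ℕ) (a : K) : K := ∏ i ∈ Finset.range n, τ^[i] a

theorem s59b_nrm_cong (hτv : ∀ x, v (τ x) = v x) (hτres : ∀ a, 0 ≤ v a → 0 < v (τ a - a))
    (a : K) (ha : 0 ≤ v a) (n : ℕ) : 0 < v (s59b_nrm τ n a - a ^ n) := by
  induction n with
  | zero => simp [s59b_nrm]
  | succ n ih =>
    have h1 : s59b_nrm τ (n + 1) a - a ^ (n + 1)
        = (s59b_nrm τ n a - a ^ n) * τ^[n] a + (τ^[n] a - a) * a ^ n := by
      unfold s59b_nrm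
      rw [Finset.prod_range_succ]
      ring
    rw [h1]
    refine s59b_v_add_pos v (s59b_v_mul_pos v ih (by rw [s59b_v_iter v τ hτv]; exact ha)) ?_
    refine s59b_v_mul_pos v (s59b_v_iter_sub v τ hτv hτres a ha n) ?_
    rw [v.map_pow]
    exact nsmul_nonneg ha n

theorem s59b_v_nrm (hτv : ∀ x, v (τ x) = v x) (a : K) (n : ℕ) :
    v (s59b_nrm τ n a) = n • v a := by
  induction n with
  | zero => simp [s59b_nrm]
  | succ n ih =>
    have h1 : s59b_nrm τ (n + 1) a = s59b_nrm τ n a * τ^[n] a := by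
      unfold s59b_nrm
      rw [Finset.prod_range_succ]
    rw [h1, v.map_mul, ih, s59b_v_iter v τ hτv, succ_nsmul]

theorem s59b_nrm_fixed (a : K) (n : ℕ) (h : τ^[n] a = a) :
    τ (s59b_nrm τ n a) = s59b_nrm τ n a := by
  unfold s59b_nrm
  rw [map_prod]
  have h0 : ∀ i, τ (τ^[i] a) = τ^[i + 1] a := fun i => (Function.iterate_succ_apply' τ i a).symm
  simp_rw [h0]
  have h1 := Finset.prod_range_succ' (fun i => τ^[i] a) n
  have h2 := Finset.prod_range_succ (fun i => τ^[i] a) n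
  rw [h1] at h2
  simp only [Function.iterate_zero, id_eq] at h2
  rw [h] at h2
  by_cases ha : a = 0
  · subst ha
    have h3 : ∀ i, τ^[i] (0 : K) = 0 := fun i => iterate_map_zero τ i
    simp_rw [h3]
  · exact mul_right_cancel₀ ha h2

theorem s59b_iter_div (x y : K) (i : ℕ) : τ^[i] (x / y) = τ^[i] x / τ^[i] y := by
  induction i with
  | zero => rfl
  | succ i ih => simp only [Function.iterate_succ_apply', ih, map_div₀]


/-- the ring of integers of `v`. -/
def s59b_O : Subring K where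
  carrier := {x | 0 ≤ v x}
  mul_mem' := fun {a b} ha hb => by
    show 0 ≤ v (a * b)
    rw [v.map_mul]
    exact add_nonneg ha hb
  one_mem' := by
    show 0 ≤ v 1
    rw [v.map_one]
  add_mem' := fun {a b} ha hb => le_trans (le_min ha hb) (v.map_add a b)
  zero_mem' := by
    show 0 ≤ v 0
    rw [v.map_zero]
    exact le_top
  neg_mem' := fun {a} ha => by
    show 0 ≤ v (-a)
    rw [v.map_neg]
    exact ha

theorem s59b_mem_O (x : K) : x ∈ s59b_O v ↔ 0 ≤ v x := Iff.rfl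

/-- a non-zero element has a rational valuation. -/
theorem s59b_v_coe {a : K} (ha : a ≠ 0) : ∃ r : ℚ, v a = (r : WithTop ℚ) := by
  have h : v a ≠ ⊤ := fun h => ha (v.top_iff.mp h)
  obtain ⟨r, hr⟩ := WithTop.ne_top_iff_exists.mp h
  exact ⟨r, hr.symm⟩

theorem s59b_v_lt_add {a x : K} (ha : a ≠ 0) (hx : 0 < v x) : v a < v a + v x := by
  have h : v a ≠ ⊤ := fun h => ha (v.top_iff.mp h)
  have := WithTop.add_lt_add_left h hx
  rwa [add_zero] at this

/-- residue characteristic `p` odd: `u ^ p ≡ 1` implies `u ≡ 1`. -/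
theorem s59b_sub_one_pos (p : ℕ) (hp : p.Prime) (hp2 : p ≠ 2) (hpv : 0 < v (p : K))
    (u : K) (hu : 0 ≤ v u) (h : 0 < v (1 - u ^ p)) : 0 < v (u - 1) := by
  obtain ⟨c, hc⟩ := exists_add_pow_prime_eq hp (⟨u, hu⟩ : s59b_O v) (-1)
  have hc' : (u + -1) ^ p = u ^ p + (-1) ^ p + (p : K) * u * (-1) * (c : K) := by
    have := congrArg (fun z : s59b_O v => (z : K)) hc
    simpa using this
  have hodd : (-1 : K) ^ p = -1 := (hp.odd_of_ne_two hp2).neg_one_pow
  have h3 : (u - 1) ^ p = -(1 - u ^ p) + (p : K) * (-(u * (c : K))) := by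
    rw [sub_eq_add_neg, hc', hodd]
    ring
  have h4 : 0 < v ((u - 1) ^ p) := by
    rw [h3]
    refine s59b_v_add_pos v (by rw [v.map_neg]; exact h) (s59b_v_mul_pos v hpv ?_)
    rw [v.map_neg, v.map_mul]
    exact add_nonneg hu c.2
  rw [v.map_pow] at h4
  by_contra hneg
  rw [not_lt] at hneg
  exact absurd h4 (not_lt.mpr (nsmul_nonpos hneg p))

/-- **the θ-lemma**: an inertia element of order `p` moves every non-zero element (unit or not)
to a strictly closer one. -/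
theorem s59b_theta (p : ℕ) (hp : p.Prime) (hp2 : p ≠ 2) (hpv : 0 < v (p : K))
    (hτv : ∀ x, v (τ x) = v x) (hτres : ∀ a, 0 ≤ v a → 0 < v (τ a - a))
    (a : K) (ha : a ≠ 0) (hpa : τ^[p] a = a) : v a < v (τ a - a) := by
  obtain ⟨r, hr⟩ := s59b_v_coe v ha
  have hτa : τ a ≠ 0 := (map_ne_zero τ).mpr ha
  have hvu : v (τ a / a) = 0 := by
    rw [v.map_div, hτv, hr]
    exact LinearOrderedAddCommGroupWithTop.sub_self_eq_zero_of_ne_top WithTop.coe_ne_top
  have hn : s59b_nrm τ p (τ a / a) = 1 := by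
    unfold s59b_nrm
    have h1 : ∀ i, τ^[i] (τ a / a) = τ^[i + 1] a / τ^[i] a := by
      intro i
      rw [s59b_iter_div, ← Function.iterate_succ_apply]
    simp_rw [h1]
    have hne : ∀ i, τ^[i] a ≠ 0 := fun i => by
      induction i with
      | zero => exact ha
      | succ i ih =>
        rw [Function.iterate_succ_apply']
        exact (map_ne_zero τ).mpr ih
    have htel : ∀ n, ∏ i ∈ Finset.range n, τ^[i + 1] a / τ^[i] a = τ^[n] a / a := by
      intro n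
      induction n with
      | zero => simp [div_self ha]
      | succ n ih =>
        rw [Finset.prod_range_succ, ih]
        field_simp [hne n]
    rw [htel p, hpa, div_self ha]
  have h2 := s59b_nrm_cong v τ hτv hτres (τ a / a) hvu.ge p
  rw [hn] at h2
  have h3 := s59b_sub_one_pos v p hp hp2 hpv (τ a / a) hvu.ge h2
  have h4 : τ a - a = a * (τ a / a - 1) := by
    field_simp
  rw [h4, v.map_mul]
  exact s59b_v_lt_add v ha h3

theorem s59b_iter_mem (L : Subfield K) (hτL : ∀ a ∈ L, τ a ∈ L) (a : K) (ha : a ∈ L) (i : ℕ) :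
    τ^[i] a ∈ L := by
  induction i with
  | zero => exact ha
  | succ i ih =>
    rw [Function.iterate_succ_apply']
    exact hτL _ ih

theorem s59b_nrm_mem (L : Subfield K) (hτL : ∀ a ∈ L, τ a ∈ L) (a : K) (ha : a ∈ L) (n : ℕ) :
    s59b_nrm τ n a ∈ L :=
  L.prod_mem fun i _ => s59b_iter_mem τ L hτL a ha i

/-- **(S5) the improvement lemma.** -/
theorem s59b_improve (L : Subfield K) (p : ℕ) (hp : p.Prime) (hp2 : p ≠ 2) (hpv : 0 < v (p : K))
    (hτv : ∀ x, v (τ x) = v x) (hτres : ∀ a, 0 ≤ v a → 0 < v (τ a - a))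
    (hτL : ∀ a ∈ L, τ a ∈ L) (hτp : ∀ a ∈ L, τ^[p] a = a)
    (e : ℕ) (he : 0 < e)
    (hdisc : ∀ a ∈ L, a ≠ 0 → ∃ k : ℤ, v a = ((((k : ℚ) / (e : ℚ) : ℚ)) : WithTop ℚ))
    (hperf : ∀ w ∈ L, v w = 0 → ∃ w' ∈ L, 0 ≤ v w' ∧ 0 < v (w' ^ p - w))
    (g₁ : K) (hg₁L : g₁ ∈ L) (hg₁ : 0 ≤ v g₁) (hne : τ g₁ ≠ g₁) :
    ∃ g ∈ L, g ≠ 0 ∧ 0 < v g ∧ v g₁ ≤ v g ∧ (∀ a ∈ L, a ≠ 0 → v g ≠ p • v a) ∧
      τ g - g = τ g₁ - g₁ := by
  classical
  have he' : (0 : ℚ) < (e : ℚ) := by exact_mod_cast he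
  have hd0 : τ g₁ - g₁ ≠ 0 := sub_ne_zero.mpr hne
  have hdL : τ g₁ - g₁ ∈ L := L.sub_mem (hτL _ hg₁L) hg₁L
  obtain ⟨kd, hkd⟩ := hdisc _ hdL hd0
  -- general facts on `g₁ - c`, `c` fixed
  have hfix : ∀ c ∈ L, τ c = c → g₁ - c ≠ 0 ∧ τ (g₁ - c) - (g₁ - c) = τ g₁ - g₁ := by
    intro c _ hcτ
    refine ⟨fun h => hne ?_, by rw [map_sub, hcτ]; ring⟩
    rw [sub_eq_zero.mp h]
    exact hcτ
  have hlt : ∀ c ∈ L, τ c = c → v (g₁ - c) < v (τ g₁ - g₁) := by
    intro c hcL hcτ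
    obtain ⟨h0, h1⟩ := hfix c hcL hcτ
    have hθ := s59b_theta v τ p hp hp2 hpv hτv hτres (g₁ - c) h0 (hτp _ (L.sub_mem hg₁L hcL))
    rwa [h1] at hθ
  let P : ℤ → Prop := fun k => ∃ c ∈ L, τ c = c ∧ 0 ≤ v c ∧
    v (g₁ - c) = ((((k : ℚ) / (e : ℚ) : ℚ)) : WithTop ℚ)
  have hbdd : ∃ b, ∀ z, P z → z ≤ b := by
    refine ⟨kd, ?_⟩
    rintro z ⟨c, hcL, hcτ, -, hcv⟩
    have h1 := hlt c hcL hcτ
    rw [hcv, hkd, WithTop.coe_lt_coe, div_lt_div_iff_of_pos_right he'] at h1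
    exact_mod_cast h1.le
  have hg0 : g₁ ≠ 0 := by
    rintro rfl
    exact hne (map_zero τ)
  obtain ⟨k0, hk0⟩ := hdisc g₁ hg₁L hg0
  have hPk0 : P k0 := by
    refine ⟨0, L.zero_mem, map_zero τ, ?_, by rw [sub_zero]; exact hk0⟩
    rw [v.map_zero]
    exact le_top
  have hinh : ∃ z, P z := ⟨k0, hPk0⟩
  obtain ⟨k, ⟨c, hcL, hcτ, hc0, hcv⟩, hmax⟩ := Int.exists_greatest_of_bdd hbdd hinh
  have haL : g₁ - c ∈ L := L.sub_mem hg₁L hcL
  obtain ⟨ha0, hτa⟩ := hfix c hcL hcτ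
  have hav0 : 0 ≤ v (g₁ - c) := le_trans (le_min hg₁ hc0) (v.map_sub _ _)
  -- the key claim: `v (g₁ - c)` is not the value of a fixed element of `L`
  have key : ∀ b ∈ L, b ≠ 0 → τ b = b → v b ≠ v (g₁ - c) := by
    intro b hbL hb0 hbτ hvb
    have hwL : (g₁ - c) / b ∈ L := L.div_mem haL hbL
    have hvw : v ((g₁ - c) / b) = 0 := by
      rw [v.map_div, hvb, hcv]
      exact LinearOrderedAddCommGroupWithTop.sub_self_eq_zero_of_ne_top WithTop.coe_ne_top
    obtain ⟨w', hw'L, hw'0, hw'⟩ := hperf _ hwL hvw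
    have hc'L : s59b_nrm τ p w' ∈ L := s59b_nrm_mem τ L hτL w' hw'L p
    have hc'τ : τ (s59b_nrm τ p w') = s59b_nrm τ p w' := s59b_nrm_fixed τ w' p (hτp w' hw'L)
    have hc'v : 0 ≤ v (s59b_nrm τ p w') := by
      rw [s59b_v_nrm v τ hτv]
      exact nsmul_nonneg hw'0 p
    have h1 : 0 < v (s59b_nrm τ p w' - w' ^ p) := s59b_nrm_cong v τ hτv hτres w' hw'0 p
    have h2 : 0 < v (s59b_nrm τ p w' - (g₁ - c) / b) := by
      have h : s59b_nrm τ p w' - (g₁ - c) / b
          = (s59b_nrm τ p w' - w' ^ p) + (w' ^ p - (g₁ - c) / b) := by ring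
      rw [h]
      exact s59b_v_add_pos v h1 hw'
    have hb_int : 0 ≤ v b := by
      rw [hvb]
      exact hav0
    have hnewL : c + b * s59b_nrm τ p w' ∈ L := L.add_mem hcL (L.mul_mem hbL hc'L)
    have hnewτ : τ (c + b * s59b_nrm τ p w') = c + b * s59b_nrm τ p w' := by
      rw [map_add, map_mul, hcτ, hbτ, hc'τ]
    have hnew0 : 0 ≤ v (c + b * s59b_nrm τ p w') := by
      refine le_trans (le_min hc0 ?_) (v.map_add _ _)
      rw [v.map_mul]
      exact add_nonneg hb_int hc'v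
    have hnew : g₁ - (c + b * s59b_nrm τ p w') = b * ((g₁ - c) / b - s59b_nrm τ p w') := by
      field_simp
      ring
    have hvnew : v (g₁ - c) < v (g₁ - (c + b * s59b_nrm τ p w')) := by
      rw [hnew, v.map_mul, v.map_sub_swap ((g₁ - c) / b) (s59b_nrm τ p w'), hvb]
      exact s59b_v_lt_add v ha0 h2
    obtain ⟨hn0, -⟩ := hfix _ hnewL hnewτ
    obtain ⟨k', hk'⟩ := hdisc _ (L.sub_mem hg₁L hnewL) hn0
    have hle := hmax k' ⟨_, hnewL, hnewτ, hnew0, hk'⟩
    rw [hcv, hk', WithTop.coe_lt_coe, div_lt_div_iff_of_pos_right he'] at hvnew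
    have : k < k' := by exact_mod_cast hvnew
    omega
  refine ⟨g₁ - c, haL, ha0, ?_, ?_, ?_, hτa⟩
  · refine lt_of_le_of_ne hav0 fun h => ?_
    refine key 1 L.one_mem one_ne_zero (map_one τ) ?_
    rw [v.map_one]
    exact h
  · have hk0k : k0 ≤ k := hmax k0 hPk0
    rw [hk0, hcv, WithTop.coe_le_coe, div_le_div_iff_of_pos_right he']
    exact_mod_cast hk0k
  · intro x hxL hx0 h
    have hNL : s59b_nrm τ p x ∈ L := s59b_nrm_mem τ L hτL x hxL p
    have hNv : v (s59b_nrm τ p x) = p • v x := s59b_v_nrm v τ hτv x p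
    have hN0 : s59b_nrm τ p x ≠ 0 := by
      intro h0
      obtain ⟨r, hr⟩ := s59b_v_coe v hx0
      rw [h0, v.map_zero, hr] at hNv
      exact WithTop.coe_ne_top (a := p • r) (by rw [WithTop.coe_nsmul]; exact hNv.symm)
    exact key _ hNL hN0 (s59b_nrm_fixed τ x p (hτp x hxL)) (by rw [hNv, h])

end Abs

end Fermat.Agent.Lib.S59
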