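/-
PROGRAMME (R2) = S59, node [MRP_W], leaf [L6_W] `s59b_WSideW`, sub-node **(S3) THE KEY INEQUALITY**
(helper2, prefix `s59b_`): for `p ∈ {3, 5}`, a Weierstrass curve `W` over a valued field `(K, v)` with
integral `b₂, b₄, b₆, b₈`, `v p = 1`, and a root `x` of the `p`-division polynomial with `v x < 0`:
`v x ≥ -2/(p-1)`  (`-1` for `p = 3`, `-1/2` for `p = 5`).

Proof: with `u = 1/x`, `ψ₃(x) = x⁴ (3 + u·I)`, `ψ₅(x) = x¹² (5 (1 + b₂ u) + u²·G)` with `I`, `G`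
integral (explicit polynomials in `b₂, b₄, b₆, b₈, u`); the division polynomials and the torsion
criteria are main's `Lib/S51/Dup.lean` (`p3`, `p5`, `three_nsmul_eq_zero_iff`,
`five_nsmul_eq_zero_iff`).
-/
import Fermat.Agent.Lib.S59.BImprove
import Fermat.Agent.Lib.S51.Dup

set_option autoImplicit false

namespace Fermat.Agent.Lib.S59

open WeierstrassCurve Fermat.Agent.Lib.S51

section Abs

variable {K : Type*} [Field K] (v : AddValuation K (WithTop ℚ))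

/-- `v (1 + s) = 0` when `0 < v s`. -/
theorem s59b_v_one_add {s : K} (hs : 0 < v s) : v (1 + s) = 0 := by
  have h := v.map_add_of_distinct_val (x := (1 : K)) (y := s) (by rw [v.map_one]; exact hs.ne)
  rw [h, v.map_one]
  exact min_eq_left hs.le

/-- `v x < 0` implies `x ≠ 0` and `0 < v x⁻¹ = - v x`. -/
theorem s59b_v_inv_pos {x : K} (hx : v x < 0) : x ≠ 0 ∧ 0 < v x⁻¹ := by
  have hx0 : x ≠ 0 := by
    rintro rfl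
    rw [v.map_zero] at hx
    exact absurd hx (not_lt.mpr le_top)
  refine ⟨hx0, ?_⟩
  obtain ⟨r, hr⟩ := s59b_v_coe v hx0
  rw [v.map_inv, hr, ← WithTop.LinearOrderedAddCommGroup.coe_neg]
  rw [hr] at hx
  have hr0 : r < 0 := by exact_mod_cast hx
  have : (0 : ℚ) < -r := by linarith
  exact_mod_cast this

/-- **(S3) for `p = 3`.** -/
theorem s59b_p3_bound (W : Affine K) (hb2 : 0 ≤ v W.b₂) (hb4 : 0 ≤ v W.b₄) (hb6 : 0 ≤ v W.b₆)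
    (hb8 : 0 ≤ v W.b₈) (h3 : v (3 : K) = 1) {x : K} (hx : v x < 0) (h : p3 W x = 0) :
    (((-1 : ℚ)) : WithTop ℚ) ≤ v x := by
  obtain ⟨hx0, hu⟩ := s59b_v_inv_pos v hx
  let B₂ : s59b_O v := ⟨W.b₂, hb2⟩
  let B₄ : s59b_O v := ⟨W.b₄, hb4⟩
  let B₆ : s59b_O v := ⟨W.b₆, hb6⟩
  let B₈ : s59b_O v := ⟨W.b₈, hb8⟩
  let U : s59b_O v := ⟨x⁻¹, hu.le⟩
  let I : s59b_O v := B₂ + 3 * B₄ * U + 3 * B₆ * U ^ 2 + B₈ * U ^ 3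
  have hid : p3 W x = x ^ 4 * (3 + x⁻¹ * (I : K)) := by
    have hI : (I : K) = W.b₂ + 3 * W.b₄ * x⁻¹ + 3 * W.b₆ * x⁻¹ ^ 2 + W.b₈ * x⁻¹ ^ 3 := by
      simp only [I, B₂, B₄, B₆, B₈, U, Subring.coe_add, Subring.coe_mul, Subring.coe_pow]
      rfl
    rw [hI, p3]
    field_simp
    ring
  rw [hid] at h
  have h1 : (3 : K) + x⁻¹ * (I : K) = 0 := by
    rcases mul_eq_zero.mp h with h | h
    · exact absurd (pow_eq_zero_iff (n := 4) (by norm_num) |>.mp h) hx0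
    · exact h
  have h2 : (3 : K) = -(x⁻¹ * (I : K)) := by linear_combination h1
  have h4 : v (3 : K) = v x⁻¹ + v (I : K) := by
    rw [h2, v.map_neg, v.map_mul]
  rw [h3] at h4
  -- `1 = v u + v I ≥ v u = - v x`
  obtain ⟨r, hr⟩ := s59b_v_coe v hx0
  have hI0 : 0 ≤ v (I : K) := I.2
  rw [v.map_inv, hr, ← WithTop.LinearOrderedAddCommGroup.coe_neg] at h4
  rw [hr, WithTop.coe_le_coe]
  have h5 : ((-r : ℚ) : WithTop ℚ) ≤ 1 := by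
    rw [h4]
    exact le_add_of_nonneg_right hI0
  have h6 : -r ≤ 1 := by exact_mod_cast h5
  linarith

/-- **(S3) for `p = 5`.** -/
theorem s59b_p5_bound (W : Affine K) (hb2 : 0 ≤ v W.b₂) (hb4 : 0 ≤ v W.b₄) (hb6 : 0 ≤ v W.b₆)
    (hb8 : 0 ≤ v W.b₈) (h5 : v (5 : K) = 1) {x : K} (hx : v x < 0) (h : p5 W x = 0) :
    (((-1 / 2 : ℚ)) : WithTop ℚ) ≤ v x := by
  obtain ⟨hx0, hu⟩ := s59b_v_inv_pos v hx
  let B₂ : s59b_O v := ⟨W.b₂, hb2⟩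
  let B₄ : s59b_O v := ⟨W.b₄, hb4⟩
  let B₆ : s59b_O v := ⟨W.b₆, hb6⟩
  let B₈ : s59b_O v := ⟨W.b₈, hb8⟩
  let U : s59b_O v := ⟨x⁻¹, hu.le⟩
  let S : s59b_O v := B₂ * U
  let F₂ : s59b_O v := 5 * B₄ + 10 * B₆ * U + 10 * B₈ * U ^ 2 + (B₂ * B₈ - B₄ * B₆) * U ^ 3 +
    (B₄ * B₈ - B₆ ^ 2) * U ^ 4
  let D₂ : s59b_O v := 2 * B₄ + B₆ * U
  let T₂ : s59b_O v := 3 * B₄ + 3 * B₆ * U + B₈ * U ^ 2
  let G : s59b_O v := B₂ ^ 2 + F₂ * (4 + S + U ^ 2 * D₂) ^ 2 +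
    (2 + S) * (2 * (4 + S) * D₂ + U ^ 2 * D₂ ^ 2) -
    (3 * (3 + S) ^ 2 * T₂ + 3 * (3 + S) * U ^ 2 * T₂ ^ 2 + U ^ 4 * T₂ ^ 3)
  have hid : p5 W x = x ^ 12 * (5 * (1 + W.b₂ * x⁻¹) + x⁻¹ ^ 2 * (G : K)) := by
    have hG : (G : K) = W.b₂ ^ 2 +
        (5 * W.b₄ + 10 * W.b₆ * x⁻¹ + 10 * W.b₈ * x⁻¹ ^ 2 + (W.b₂ * W.b₈ - W.b₄ * W.b₆) * x⁻¹ ^ 3 +
          (W.b₄ * W.b₈ - W.b₆ ^ 2) * x⁻¹ ^ 4) *
          (4 + W.b₂ * x⁻¹ + x⁻¹ ^ 2 * (2 * W.b₄ + W.b₆ * x⁻¹)) ^ 2 +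
        (2 + W.b₂ * x⁻¹) * (2 * (4 + W.b₂ * x⁻¹) * (2 * W.b₄ + W.b₆ * x⁻¹) +
          x⁻¹ ^ 2 * (2 * W.b₄ + W.b₆ * x⁻¹) ^ 2) -
        (3 * (3 + W.b₂ * x⁻¹) ^ 2 * (3 * W.b₄ + 3 * W.b₆ * x⁻¹ + W.b₈ * x⁻¹ ^ 2) +
          3 * (3 + W.b₂ * x⁻¹) * x⁻¹ ^ 2 * (3 * W.b₄ + 3 * W.b₆ * x⁻¹ + W.b₈ * x⁻¹ ^ 2) ^ 2 +
          x⁻¹ ^ 4 * (3 * W.b₄ + 3 * W.b₆ * x⁻¹ + W.b₈ * x⁻¹ ^ 2) ^ 3) := by
      simp only [G, F₂, D₂, T₂, S, B₂, B₄, B₆, B₈, U, Subring.coe_add, Subring.coe_mul,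
        Subring.coe_pow, AddSubgroupClass.coe_sub]
      rfl
    rw [hG, p5, p4, dd, p3]
    field_simp
    ring
  rw [hid] at h
  have h1 : 5 * (1 + W.b₂ * x⁻¹) + x⁻¹ ^ 2 * (G : K) = 0 := by
    rcases mul_eq_zero.mp h with h | h
    · exact absurd (pow_eq_zero_iff (n := 12) (by norm_num) |>.mp h) hx0
    · exact h
  have h2 : 5 * (1 + W.b₂ * x⁻¹) = -(x⁻¹ ^ 2 * (G : K)) := by linear_combination h1
  have hS : 0 < v (W.b₂ * x⁻¹) := by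
    rw [mul_comm]
    exact s59b_v_mul_pos v hu hb2
  have h4 : v (5 : K) + v (1 + W.b₂ * x⁻¹) = 2 • v x⁻¹ + v (G : K) := by
    rw [← v.map_mul, h2, v.map_neg, v.map_mul, v.map_pow]
  rw [h5, s59b_v_one_add v hS, add_zero] at h4
  obtain ⟨r, hr⟩ := s59b_v_coe v hx0
  have hG0 : 0 ≤ v (G : K) := G.2
  rw [v.map_inv, hr, ← WithTop.LinearOrderedAddCommGroup.coe_neg, ← WithTop.coe_nsmul] at h4
  rw [hr, WithTop.coe_le_coe]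
  have h6 : ((2 • (-r) : ℚ) : WithTop ℚ) ≤ 1 := by
    rw [h4]
    exact le_add_of_nonneg_right hG0
  have h7 : 2 • (-r) ≤ (1 : ℚ) := by exact_mod_cast h6
  rw [nsmul_eq_mul] at h7
  push_cast at h7
  linarith

/-- integrality of the `b`-invariants. -/
theorem s59b_b_int (W : WeierstrassCurve K) (h1 : 0 ≤ v W.a₁) (h2 : 0 ≤ v W.a₂) (h3 : 0 ≤ v W.a₃)
    (h4 : 0 ≤ v W.a₄) (h6 : 0 ≤ v W.a₆) :
    0 ≤ v W.b₂ ∧ 0 ≤ v W.b₄ ∧ 0 ≤ v W.b₆ ∧ 0 ≤ v W.b₈ := by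
  let A₁ : s59b_O v := ⟨W.a₁, h1⟩
  let A₂ : s59b_O v := ⟨W.a₂, h2⟩
  let A₃ : s59b_O v := ⟨W.a₃, h3⟩
  let A₄ : s59b_O v := ⟨W.a₄, h4⟩
  let A₆ : s59b_O v := ⟨W.a₆, h6⟩
  refine ⟨?_, ?_, ?_, ?_⟩
  · exact (A₁ ^ 2 + 4 * A₂).2
  · exact (2 * A₄ + A₁ * A₃).2
  · exact (A₃ ^ 2 + 4 * A₆).2
  · exact (A₁ ^ 2 * A₆ + 4 * A₂ * A₆ - A₁ * A₃ * A₄ + A₂ * A₃ ^ 2 - A₄ ^ 2).2

/-- **(S3), point form**: a non-zero `p`-torsion point (`p ∈ {3, 5}`, `v p = 1`) with `v x < 0` has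
`v x ≥ -2/(p-1)`. -/
theorem s59b_tors_x_ge [DecidableEq K] (W : Affine K) (hΔ : W.Δ ≠ 0) (h1 : 0 ≤ v W.a₁)
    (h2 : 0 ≤ v W.a₂) (h3 : 0 ≤ v W.a₃) (h4 : 0 ≤ v W.a₄) (h6 : 0 ≤ v W.a₆) (p : ℕ)
    (hp35 : p = 3 ∨ p = 5) (hvp : v (p : K) = 1) {x y : K} (h : W.Nonsingular x y)
    (htor : p • Affine.Point.some x y h = 0) (hx : v x < 0) :
    (((-2 : ℚ) / ((p : ℚ) - 1) : ℚ) : WithTop ℚ) ≤ v x := by
  obtain ⟨hb2, hb4, hb6, hb8⟩ := s59b_b_int v W h1 h2 h3 h4 h6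
  rcases hp35 with rfl | rfl
  · have h0 := (three_nsmul_eq_zero_iff W hΔ h).mp htor
    have hv3 : v (3 : K) = 1 := by exact_mod_cast hvp
    have := s59b_p3_bound v W hb2 hb4 hb6 hb8 hv3 hx h0
    norm_num at this ⊢
    exact this
  · have h0 := (five_nsmul_eq_zero_iff W hΔ h).mp htor
    have hv5 : v (5 : K) = 1 := by exact_mod_cast hvp
    have := s59b_p5_bound v W hb2 hb4 hb6 hb8 hv5 hx h0
    norm_num at this ⊢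
    exact this

end Abs

end Fermat.Agent.Lib.S59
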