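/-
PROGRAMME (R2) = S59, node [MRP_W], leaf [L6_W] `s59b_WSideW`, sub-nodes **(S2)+(S4) THE DISPLACEMENT
LEMMAS** (helper2, prefix `s59b_`).  No formal groups, no kernel of reduction, no change of model:
general Weierstrass form over a valued field `(K, v)`, integral coefficients, `v Δ = 0`.

For two `p`-torsion points `R = (x, y)`, `R' = (x', y')` (`R' = τ R` in the application), `R' ≠ ± R`,
the difference `Q = R' - R` is a non-zero `p`-torsion point with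
`x(Q) = ℓ² + a₁ ℓ - a₂ - x' - x`, `ℓ = (y' + y + a₁ x + a₃) / (x' - x)`, and `(S3)` bounds `v (x(Q))`
from below by `-2/(p-1)`.  Hence
* `s59b_disp_int` (`R` integral, `R' ≡ R` modulo the maximal ideal): `v (x' - x) ≤ 1/(p-1)` or
  `v (y' - y) ≤ 1/(p-1)`  (smoothness of the reduction, `s59b_smooth`, decides which);
* `s59b_disp_E1` (`v x < 0`): `v (x' - x) < 1/(p-1) + v x`.
-/
import Fermat.Agent.Lib.S59.BTorsVal

set_option autoImplicit false
set_option linter.unusedSectionVars false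

namespace Fermat.Agent.Lib.S59

open WeierstrassCurve

section Abs

variable {K : Type*} [Field K] (v : AddValuation K (WithTop ℚ))

theorem s59b_v_add_eq {a b : K} (h : v a < v b) : v (a + b) = v a := by
  rw [v.map_add_of_distinct_val h.ne]
  exact min_eq_left h.le

theorem s59b_v_sub_eq {a b : K} (h : v a < v b) : v (a - b) = v a := by
  rw [sub_eq_add_neg]
  exact s59b_v_add_eq v (by rwa [v.map_neg])

theorem s59b_v_add_ge {a b : K} {m : WithTop ℚ} (ha : m ≤ v a) (hb : m ≤ v b) : m ≤ v (a + b) :=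
  le_trans (le_min ha hb) (v.map_add a b)

theorem s59b_v_sub_ge {a b : K} {m : WithTop ℚ} (ha : m ≤ v a) (hb : m ≤ v b) : m ≤ v (a - b) :=
  le_trans (le_min ha hb) (v.map_sub a b)

theorem s59b_v_mul_ge {a b : K} {m : WithTop ℚ} (ha : 0 ≤ v a) (hb : m ≤ v b) : m ≤ v (a * b) := by
  rw [v.map_mul]
  calc m = 0 + m := (zero_add m).symm
    _ ≤ v a + v b := add_le_add ha hb

/-- positivity of `WX * c + WY * d`. -/
theorem s59b_v_comb_pos {a X Y c d : K} (h : a = X * c + Y * d) (hc : 0 ≤ v c) (hd : 0 ≤ v d)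
    (hX : 0 < v X) (hY : 0 < v Y) : 0 < v a := by
  rw [h]
  exact s59b_v_add_pos v (s59b_v_mul_pos v hX hc) (s59b_v_mul_pos v hY hd)

/-- **smoothness of the reduction**: for an integral point on a Weierstrass curve with integral
coefficients and `v Δ = 0`, the two partial derivatives are not both in the maximal ideal. -/
theorem s59b_smooth (W : WeierstrassCurve K) (h1 : 0 ≤ v W.a₁) (h2 : 0 ≤ v W.a₂) (h3 : 0 ≤ v W.a₃)
    (h4 : 0 ≤ v W.a₄) (hΔ : ¬ 0 < v W.Δ) {x y : K} (hx : 0 ≤ v x) (hy : 0 ≤ v y)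
    (heq : W.toAffine.Equation x y) :
    ¬ (0 < v (W.a₁ * y - (3 * x ^ 2 + 2 * W.a₂ * x + W.a₄)) ∧ 0 < v (2 * y + W.a₁ * x + W.a₃)) := by
  rintro ⟨hX, hY⟩
  apply hΔ
  let A₁ : s59b_O v := ⟨W.a₁, h1⟩
  let A₂ : s59b_O v := ⟨W.a₂, h2⟩
  let A₃ : s59b_O v := ⟨W.a₃, h3⟩
  let A₄ : s59b_O v := ⟨W.a₄, h4⟩
  let X : s59b_O v := ⟨x, hx⟩
  let Y : s59b_O v := ⟨y, hy⟩
  let WX : s59b_O v := A₁ * Y - (3 * X ^ 2 + 2 * A₂ * X + A₄)
  let WY : s59b_O v := 2 * Y + A₁ * X + A₃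
  let B2 : s59b_O v := A₁ ^ 2 + 4 * (A₂ + 3 * X)
  let B4 : s59b_O v := A₁ * WY - 2 * WX
  let c : s59b_O v := -B2 ^ 2 * (A₁ * WY - WX) + 16 * B4 ^ 2
  let d : s59b_O v := -B2 ^ 2 * (A₂ + 3 * X) * WY - 8 * A₁ * B4 ^ 2 + 9 * B2 * B4 * WY - 27 * WY ^ 3
  have hWX : (WX : K) = W.a₁ * y - (3 * x ^ 2 + 2 * W.a₂ * x + W.a₄) := by
    simp only [WX, A₁, A₂, A₄, X, Y, Subring.coe_add, Subring.coe_mul, Subring.coe_pow,
      AddSubgroupClass.coe_sub]
    rfl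
  have hWY : (WY : K) = 2 * y + W.a₁ * x + W.a₃ := by
    simp only [WY, A₁, A₃, X, Y, Subring.coe_add, Subring.coe_mul]
    rfl
  have hc : (c : K) = -(W.a₁ ^ 2 + 4 * (W.a₂ + 3 * x)) ^ 2 * (W.a₁ * (WY : K) - (WX : K)) +
      16 * (W.a₁ * (WY : K) - 2 * (WX : K)) ^ 2 := by
    simp only [c, B2, B4, A₁, A₂, X, Subring.coe_add, Subring.coe_mul, Subring.coe_pow,
      AddSubgroupClass.coe_sub, NegMemClass.coe_neg]
    rfl
  have hd : (d : K) = -(W.a₁ ^ 2 + 4 * (W.a₂ + 3 * x)) ^ 2 * (W.a₂ + 3 * x) * (WY : K) -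
      8 * W.a₁ * (W.a₁ * (WY : K) - 2 * (WX : K)) ^ 2 +
      9 * (W.a₁ ^ 2 + 4 * (W.a₂ + 3 * x)) * (W.a₁ * (WY : K) - 2 * (WX : K)) * (WY : K) -
      27 * (WY : K) ^ 3 := by
    simp only [d, B2, B4, A₁, A₂, X, Subring.coe_add, Subring.coe_mul, Subring.coe_pow,
      AddSubgroupClass.coe_sub, NegMemClass.coe_neg]
    rfl
  rw [← hWX] at hX
  rw [← hWY] at hY
  refine s59b_v_comb_pos v (X := (WX : K)) (Y := (WY : K)) (c := (c : K)) (d := (d : K)) ?_ c.2 d.2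
    hX hY
  rw [Affine.equation_iff] at heq
  rw [hc, hd, hWX, hWY]
  simp only [WeierstrassCurve.Δ, WeierstrassCurve.b₂, WeierstrassCurve.b₄, WeierstrassCurve.b₆,
    WeierstrassCurve.b₈]
  linear_combination ((W.a₁ ^ 2 + 4 * (W.a₂ + 3 * x)) ^ 3 + 216 * (2 * y + W.a₁ * x + W.a₃) ^ 2 -
    36 * (W.a₁ ^ 2 + 4 * (W.a₂ + 3 * x)) *
      (W.a₁ * (2 * y + W.a₁ * x + W.a₃) - 2 * (W.a₁ * y - (3 * x ^ 2 + 2 * W.a₂ * x + W.a₄))) -
    432 * (y ^ 2 + W.a₁ * x * y + W.a₃ * y - (x ^ 3 + W.a₂ * x ^ 2 + W.a₄ * x + W.a₆))) * heq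

/-- **the valuation of `y`** at a point with `v x < 0`: `2 v y = 3 v x`. -/
theorem s59b_v_y (W : WeierstrassCurve K) (h1 : 0 ≤ v W.a₁) (h2 : 0 ≤ v W.a₂) (h3 : 0 ≤ v W.a₃)
    (h4 : 0 ≤ v W.a₄) (h6 : 0 ≤ v W.a₆) {x y : K} {r : ℚ} (hr : v x = (r : WithTop ℚ)) (hr0 : r < 0)
    (heq : W.toAffine.Equation x y) : v y = ((3 * r / 2 : ℚ) : WithTop ℚ) := by
  rw [Affine.equation_iff] at heq
  have hx0 : x ≠ 0 := by
    rintro rfl
    rw [v.map_zero] at hr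
    exact WithTop.top_ne_coe hr
  -- the right-hand side has valuation `3 r`
  have hR : v (x ^ 3 + W.a₂ * x ^ 2 + W.a₄ * x + W.a₆) = ((3 * r : ℚ) : WithTop ℚ) := by
    have e : x ^ 3 + W.a₂ * x ^ 2 + W.a₄ * x + W.a₆ = x ^ 3 + (W.a₂ * x ^ 2 + W.a₄ * x + W.a₆) := by
      ring
    have hx3 : v (x ^ 3) = ((3 * r : ℚ) : WithTop ℚ) := by
      rw [v.map_pow, hr, ← WithTop.coe_nsmul, nsmul_eq_mul]
      norm_num
    rw [e, s59b_v_add_eq v, hx3]
    rw [hx3]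
    have hm : ((2 * r : ℚ) : WithTop ℚ) ≤ v (W.a₂ * x ^ 2 + W.a₄ * x + W.a₆) := by
      refine s59b_v_add_ge v (s59b_v_add_ge v ?_ ?_) ?_
      · refine s59b_v_mul_ge v h2 ?_
        rw [v.map_pow, hr, ← WithTop.coe_nsmul, nsmul_eq_mul]
        norm_num
      · refine s59b_v_mul_ge v h4 ?_
        rw [hr, WithTop.coe_le_coe]
        linarith
      · refine le_trans ?_ h6
        have : (2 * r : ℚ) ≤ 0 := by linarith
        exact_mod_cast this
    refine lt_of_lt_of_le ?_ hm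
    rw [WithTop.coe_lt_coe]
    linarith
  have hL : v (y * (y + W.a₁ * x + W.a₃)) = ((3 * r : ℚ) : WithTop ℚ) := by
    rw [← hR, ← heq]
    congr 1
    ring
  have hy0 : y ≠ 0 := by
    rintro rfl
    rw [zero_mul, v.map_zero] at hL
    exact WithTop.top_ne_coe hL
  obtain ⟨s, hs⟩ := s59b_v_coe v hy0
  have hax : (r : WithTop ℚ) ≤ v (W.a₁ * x + W.a₃) := by
    refine s59b_v_add_ge v (s59b_v_mul_ge v h1 hr.ge) (le_trans ?_ h3)
    exact_mod_cast hr0.le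
  -- `s < r`
  have hsr : s < r := by
    by_contra hge
    rw [not_lt] at hge
    have h5 : (r : WithTop ℚ) ≤ v (y + W.a₁ * x + W.a₃) := by
      rw [add_assoc]
      refine s59b_v_add_ge v ?_ hax
      rw [hs]
      exact_mod_cast hge
    have h7 : ((r + r : ℚ) : WithTop ℚ) ≤ v (y * (y + W.a₁ * x + W.a₃)) := by
      rw [v.map_mul, WithTop.coe_add]
      refine add_le_add ?_ h5
      rw [hs]
      exact_mod_cast hge
    rw [hL, WithTop.coe_le_coe] at h7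
    linarith
  have h8 : v (y + W.a₁ * x + W.a₃) = (s : WithTop ℚ) := by
    rw [add_assoc, s59b_v_add_eq v, hs]
    rw [hs]
    refine lt_of_lt_of_le ?_ hax
    exact_mod_cast hsr
  rw [v.map_mul, hs, h8, ← WithTop.coe_add, WithTop.coe_eq_coe] at hL
  rw [hs, WithTop.coe_eq_coe]
  linarith

/-- valuation of `addX` for a slope of negative valuation `-d` and integral `a₁, a₂, x₁, x₂`. -/
theorem s59b_v_addX (W : WeierstrassCurve K) (h1 : 0 ≤ v W.a₁) (h2 : 0 ≤ v W.a₂) {x₁ x₂ ℓ : K}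
    (hx₁ : 0 ≤ v x₁) (hx₂ : 0 ≤ v x₂) {d : ℚ} (hd : 0 < d) (hℓ : v ℓ = ((-d : ℚ) : WithTop ℚ)) :
    v (W.toAffine.addX x₁ x₂ ℓ) = ((-(2 * d) : ℚ) : WithTop ℚ) := by
  have e : W.toAffine.addX x₁ x₂ ℓ = ℓ ^ 2 + (W.a₁ * ℓ - W.a₂ - x₁ - x₂) := by
    simp only [Affine.addX]
    ring
  have hℓ2 : v (ℓ ^ 2) = ((-(2 * d) : ℚ) : WithTop ℚ) := by
    rw [v.map_pow, hℓ, ← WithTop.coe_nsmul, nsmul_eq_mul]
    norm_num
  have hneg : ((-d : ℚ) : WithTop ℚ) ≤ 0 := by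
    have : (-d : ℚ) ≤ 0 := by linarith
    exact_mod_cast this
  rw [e, s59b_v_add_eq v, hℓ2]
  rw [hℓ2]
  have hm : ((-d : ℚ) : WithTop ℚ) ≤ v (W.a₁ * ℓ - W.a₂ - x₁ - x₂) := by
    refine s59b_v_sub_ge v (s59b_v_sub_ge v (s59b_v_sub_ge v ?_ ?_) ?_) ?_
    · exact s59b_v_mul_ge v h1 hℓ.ge
    · exact le_trans hneg h2
    · exact le_trans hneg hx₁
    · exact le_trans hneg hx₂
  refine lt_of_lt_of_le ?_ hm
  rw [WithTop.coe_lt_coe]
  linarith

section Disp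

variable [DecidableEq K] (W : Affine K)

/-- the difference of two points with different `x`-coordinates. -/
theorem s59b_sub_some {x y x' y' : K} (h : W.Nonsingular x y) (h' : W.Nonsingular x' y')
    (hxx : x' ≠ x) :
    ∃ hQ : W.Nonsingular (W.addX x' x ((y' - W.negY x y) / (x' - x)))
        (W.addY x' x y' ((y' - W.negY x y) / (x' - x))),
      Affine.Point.some x' y' h' - Affine.Point.some x y h = Affine.Point.some _ _ hQ := by
  have hs : W.slope x' x y' (W.negY x y) = (y' - W.negY x y) / (x' - x) :=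
    Affine.slope_of_X_ne hxx
  have h0 : Affine.Point.some x' y' h' - Affine.Point.some x y h =
      Affine.Point.some x' y' h' + Affine.Point.some x (W.negY x y) ((Affine.nonsingular_neg ..).mpr h) := by
    rw [sub_eq_add_neg, Affine.Point.neg_some]
  rw [h0, Affine.Point.add_of_X_ne hxx]
  have key : ∀ ℓ (_ : W.slope x' x y' (W.negY x y) = ℓ)
      (hq : W.Nonsingular (W.addX x' x (W.slope x' x y' (W.negY x y)))
        (W.addY x' x y' (W.slope x' x y' (W.negY x y)))),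
      ∃ hQ : W.Nonsingular (W.addX x' x ℓ) (W.addY x' x y' ℓ),
        Affine.Point.some _ _ hq = Affine.Point.some _ _ hQ := by
    rintro _ rfl hq
    exact ⟨hq, rfl⟩
  exact key _ hs _

/-- two points with the same `x`-coordinate are equal or opposite. -/
theorem s59b_eq_or_neg {x y x' y' : K} (h : W.Nonsingular x y) (h' : W.Nonsingular x' y')
    (hxx : x' = x) :
    Affine.Point.some x' y' h' = Affine.Point.some x y h ∨
      Affine.Point.some x' y' h' = -Affine.Point.some x y h := by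
  subst hxx
  rcases Affine.Y_eq_of_X_eq h'.1 h.1 rfl with hy | hy
  · left
    subst hy
    rfl
  · right
    subst hy
    rw [Affine.Point.neg_some]

/-- **(S2)+(S4), integral case.** -/
theorem s59b_disp_int (hΔ0 : W.Δ ≠ 0) (hΔ : ¬ 0 < v W.Δ) (h1 : 0 ≤ v W.a₁) (h2 : 0 ≤ v W.a₂)
    (h3 : 0 ≤ v W.a₃) (h4 : 0 ≤ v W.a₄) (h6 : 0 ≤ v W.a₆) (p : ℕ) (hp35 : p = 3 ∨ p = 5)
    (hvp : v (p : K) = 1) {x y x' y' : K} (h : W.Nonsingular x y) (h' : W.Nonsingular x' y')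
    (htor : p • Affine.Point.some x y h = 0) (htor' : p • Affine.Point.some x' y' h' = 0)
    (hne : Affine.Point.some x' y' h' ≠ Affine.Point.some x y h)
    (hneg : Affine.Point.some x' y' h' ≠ -Affine.Point.some x y h)
    (hx : 0 ≤ v x) (hy : 0 ≤ v y) (hdx : 0 < v (x' - x)) (hdy : 0 < v (y' - y)) :
    (x' ≠ x ∧ v (x' - x) ≤ (((1 : ℚ) / ((p : ℚ) - 1) : ℚ) : WithTop ℚ)) ∨
      (y' ≠ y ∧ v (y' - y) ≤ (((1 : ℚ) / ((p : ℚ) - 1) : ℚ) : WithTop ℚ)) := by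
  have hp1 : (0 : ℚ) < (p : ℚ) - 1 := by
    rcases hp35 with rfl | rfl <;> norm_num
  have hxx : x' ≠ x := fun e => (s59b_eq_or_neg W h h' e).elim hne hneg
  obtain ⟨hQ, hQe⟩ := s59b_sub_some W h h' hxx
  have hQtor : p • Affine.Point.some _ _ hQ = 0 := by
    rw [← hQe, smul_sub, htor, htor', sub_zero]
  have hS3 := s59b_tors_x_ge v W hΔ0 h1 h2 h3 h4 h6 p hp35 hvp hQ hQtor
  have hx' : 0 ≤ v x' := by
    have e : x' = (x' - x) + x := by ring
    rw [e]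
    exact s59b_v_add_ge v hdx.le hx
  have hdx0 : x' - x ≠ 0 := sub_ne_zero.mpr hxx
  -- the conclusion from a slope of valuation `-d`
  have fin : ∀ d : ℚ, 0 < d → v ((y' - W.negY x y) / (x' - x)) = ((-d : ℚ) : WithTop ℚ) →
      d ≤ 1 / ((p : ℚ) - 1) := by
    intro d hd hℓ
    have hX := s59b_v_addX v W h1 h2 hx' hx hd hℓ
    have hlt : v (W.addX x' x ((y' - W.negY x y) / (x' - x))) < 0 := by
      rw [hX]
      have : (-(2 * d) : ℚ) < 0 := by linarith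
      exact_mod_cast this
    have h5 := hS3 hlt
    rw [hX, WithTop.coe_le_coe] at h5
    rw [div_le_iff₀ hp1] at h5
    rw [le_div_iff₀ hp1]
    linarith
  -- the relation between the two increments
  have rel : (y' - y) * (y' + y + W.a₁ * x' + W.a₃) =
      (x' - x) * (x' ^ 2 + x' * x + x ^ 2 + W.a₂ * (x' + x) + W.a₄ - W.a₁ * y) := by
    have e := h.1
    have e' := h'.1
    rw [Affine.equation_iff] at e e'
    linear_combination e' - e
  have hsm := s59b_smooth v W h1 h2 h3 h4 hΔ hx hy h.1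
  have hWYint : 0 ≤ v (2 * y + W.a₁ * x + W.a₃) := by
    refine s59b_v_add_ge v (s59b_v_add_ge v ?_ (s59b_v_mul_ge v h1 hx)) h3
    have h2' : (0 : WithTop ℚ) ≤ v (2 : K) := by
      have e : (2 : K) = 1 + 1 := by norm_num
      rw [e]
      exact s59b_v_add_ge v (by rw [v.map_one]) (by rw [v.map_one])
    exact s59b_v_mul_ge v h2' hy
  have hnum : y' - W.negY x y = (2 * y + W.a₁ * x + W.a₃) + (y' - y) := by
    simp only [Affine.negY]
    ring
  by_cases hWY : 0 < v (2 * y + W.a₁ * x + W.a₃)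
  · -- `W_X` is a unit: use `y`
    right
    have hWX : ¬ 0 < v (W.a₁ * y - (3 * x ^ 2 + 2 * W.a₂ * x + W.a₄)) := fun hc => hsm ⟨hc, hWY⟩
    have hXs : v (x' ^ 2 + x' * x + x ^ 2 + W.a₂ * (x' + x) + W.a₄ - W.a₁ * y) = 0 := by
      have e : x' ^ 2 + x' * x + x ^ 2 + W.a₂ * (x' + x) + W.a₄ - W.a₁ * y =
          -(W.a₁ * y - (3 * x ^ 2 + 2 * W.a₂ * x + W.a₄)) + (x' - x) * (x' + 2 * x + W.a₂) := by
        ring
      have hWX0 : v (W.a₁ * y - (3 * x ^ 2 + 2 * W.a₂ * x + W.a₄)) = 0 := by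
        refine le_antisymm (not_lt.mp hWX) ?_
        refine s59b_v_sub_ge v (s59b_v_mul_ge v h1 hy) ?_
        refine s59b_v_add_ge v (s59b_v_add_ge v ?_ ?_) h4
        · exact (3 * (⟨x, hx⟩ : s59b_O v) ^ 2).2
        · exact (2 * (⟨W.a₂, h2⟩ : s59b_O v) * (⟨x, hx⟩ : s59b_O v)).2
      rw [e, s59b_v_add_eq v, v.map_neg, hWX0]
      rw [v.map_neg, hWX0]
      refine s59b_v_mul_pos v hdx ?_
      exact ((⟨x', hx'⟩ : s59b_O v) + 2 * (⟨x, hx⟩ : s59b_O v) + (⟨W.a₂, h2⟩ : s59b_O v)).2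
    have hXs0 : x' ^ 2 + x' * x + x ^ 2 + W.a₂ * (x' + x) + W.a₄ - W.a₁ * y ≠ 0 := by
      intro e0
      rw [e0, v.map_zero] at hXs
      exact WithTop.top_ne_zero hXs
    have hdy0 : y' - y ≠ 0 := by
      intro e0
      rw [e0, zero_mul] at rel
      rcases mul_eq_zero.mp rel.symm with e1 | e1
      · exact hdx0 e1
      · exact hXs0 e1
    refine ⟨sub_ne_zero.mp hdy0, ?_⟩
    obtain ⟨d, hd⟩ := s59b_v_coe v hdy0
    have hdpos : 0 < d := by
      rw [hd] at hdy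
      exact_mod_cast hdy
    rw [hd, WithTop.coe_le_coe]
    apply fin d hdpos
    -- the slope is `X* / dy - a₁`
    have hsl : (y' - W.negY x y) / (x' - x) =
        (x' ^ 2 + x' * x + x ^ 2 + W.a₂ * (x' + x) + W.a₄ - W.a₁ * y) / (y' - y) - W.a₁ := by
      rw [hnum]
      field_simp
      linear_combination rel
    rw [hsl, s59b_v_sub_eq v, v.map_div, hXs, hd, zero_sub,
      ← WithTop.LinearOrderedAddCommGroup.coe_neg]
    rw [v.map_div, hXs, hd, zero_sub, ← WithTop.LinearOrderedAddCommGroup.coe_neg]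
    refine lt_of_lt_of_le ?_ h1
    have : (-d : ℚ) < 0 := by linarith
    exact_mod_cast this
  · -- `W_Y` is a unit: use `x`
    left
    refine ⟨hxx, ?_⟩
    have hWY0 : v (2 * y + W.a₁ * x + W.a₃) = 0 := le_antisymm (not_lt.mp hWY) hWYint
    obtain ⟨d, hd⟩ := s59b_v_coe v hdx0
    have hdpos : 0 < d := by
      rw [hd] at hdx
      exact_mod_cast hdx
    rw [hd, WithTop.coe_le_coe]
    apply fin d hdpos
    rw [v.map_div, hnum, s59b_v_add_eq v (by rw [hWY0]; exact hdy), hWY0, hd, zero_sub,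
      ← WithTop.LinearOrderedAddCommGroup.coe_neg]

/-- valuation of `addX` for a slope of negative valuation `l`, general form. -/
theorem s59b_v_addX' (h1 : 0 ≤ v W.a₁) {x₁ x₂ ℓ : K} {l : ℚ} (hl : l < 0)
    (hℓ : v ℓ = ((l : ℚ) : WithTop ℚ))
    (hrest : (((2 * l : ℚ)) : WithTop ℚ) < v (W.a₂ + x₁ + x₂)) :
    v (W.addX x₁ x₂ ℓ) = ((2 * l : ℚ) : WithTop ℚ) := by
  have e : W.addX x₁ x₂ ℓ = ℓ ^ 2 + (W.a₁ * ℓ - (W.a₂ + x₁ + x₂)) := by
    simp only [Affine.addX]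
    ring
  have hℓ2 : v (ℓ ^ 2) = ((2 * l : ℚ) : WithTop ℚ) := by
    rw [v.map_pow, hℓ, ← WithTop.coe_nsmul, nsmul_eq_mul]
    norm_num
  rw [e, s59b_v_add_eq v, hℓ2]
  rw [hℓ2]
  refine lt_of_lt_of_le (lt_min ?_ hrest) (v.map_sub _ _)
  refine lt_of_lt_of_le ?_ (s59b_v_mul_ge v h1 hℓ.ge)
  rw [WithTop.coe_lt_coe]
  linarith

/-- **(S2)+(S4), the case `v x < 0`.** -/
theorem s59b_disp_E1 (hΔ0 : W.Δ ≠ 0) (h1 : 0 ≤ v W.a₁) (h2 : 0 ≤ v W.a₂)
    (h3 : 0 ≤ v W.a₃) (h4 : 0 ≤ v W.a₄) (h6 : 0 ≤ v W.a₆) (p : ℕ) (hp35 : p = 3 ∨ p = 5)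
    (hvp : v (p : K) = 1) (hv2 : v (2 : K) = 0) {x y x' y' : K} (h : W.Nonsingular x y)
    (h' : W.Nonsingular x' y')
    (htor : p • Affine.Point.some x y h = 0) (htor' : p • Affine.Point.some x' y' h' = 0)
    (hne : Affine.Point.some x' y' h' ≠ Affine.Point.some x y h)
    (hneg : Affine.Point.some x' y' h' ≠ -Affine.Point.some x y h)
    {r : ℚ} (hr : v x = (r : WithTop ℚ)) (hr0 : r < 0) (hr' : v x' = (r : WithTop ℚ))
    (hdy : v y < v (y' - y)) :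
    x' ≠ x ∧ v (x' - x) < (((1 : ℚ) / ((p : ℚ) - 1) + r : ℚ) : WithTop ℚ) := by
  have hp1 : (0 : ℚ) < (p : ℚ) - 1 := by
    rcases hp35 with rfl | rfl <;> norm_num
  have hc : (0 : ℚ) < 1 / ((p : ℚ) - 1) := by positivity
  have hxx : x' ≠ x := fun e => (s59b_eq_or_neg W h h' e).elim hne hneg
  refine ⟨hxx, ?_⟩
  obtain ⟨hQ, hQe⟩ := s59b_sub_some W h h' hxx
  have hQtor : p • Affine.Point.some _ _ hQ = 0 := by
    rw [← hQe, smul_sub, htor, htor', sub_zero]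
  have hS3 := s59b_tors_x_ge v W hΔ0 h1 h2 h3 h4 h6 p hp35 hvp hQ hQtor
  have hdx0 : x' - x ≠ 0 := sub_ne_zero.mpr hxx
  obtain ⟨d, hd⟩ := s59b_v_coe v hdx0
  rw [hd, WithTop.coe_lt_coe]
  by_contra hcon
  rw [not_lt] at hcon
  -- the numerator of the slope has the valuation of `y`
  have hvy := s59b_v_y v W h1 h2 h3 h4 h6 hr hr0 h.1
  have hnum : y' - W.negY x y = 2 * y + ((y' - y) + (W.a₁ * x + W.a₃)) := by
    simp only [Affine.negY]
    ring
  have hv2y : v (2 * y) = ((3 * r / 2 : ℚ) : WithTop ℚ) := by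
    rw [v.map_mul, hv2, zero_add, hvy]
  have hvnum : v (y' - W.negY x y) = ((3 * r / 2 : ℚ) : WithTop ℚ) := by
    rw [hnum, s59b_v_add_eq v, hv2y]
    rw [hv2y]
    refine lt_of_lt_of_le (lt_min ?_ ?_) (v.map_add _ _)
    · rw [← hvy]
      exact hdy
    · refine lt_of_lt_of_le ?_ (s59b_v_add_ge v (s59b_v_mul_ge v h1 hr.ge) (le_trans ?_ h3))
      · rw [WithTop.coe_lt_coe]
        linarith
      · exact_mod_cast hr0.le
  have hℓ : v ((y' - W.negY x y) / (x' - x)) = ((3 * r / 2 - d : ℚ) : WithTop ℚ) := by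
    rw [v.map_div, hvnum, hd, ← WithTop.LinearOrderedAddCommGroup.coe_sub]
  have hl : 3 * r / 2 - d < 0 := by linarith
  have hrest : (((2 * (3 * r / 2 - d) : ℚ)) : WithTop ℚ) < v (W.a₂ + x' + x) := by
    refine lt_of_lt_of_le ?_ (s59b_v_add_ge v (s59b_v_add_ge v (le_trans ?_ h2) hr'.ge) hr.ge)
    · rw [WithTop.coe_lt_coe]
      linarith
    · exact_mod_cast hr0.le
  have hX := s59b_v_addX' v W h1 hl hℓ hrest
  have hlt : v (W.addX x' x ((y' - W.negY x y) / (x' - x))) < 0 := by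
    rw [hX]
    have : (2 * (3 * r / 2 - d) : ℚ) < 0 := by linarith
    exact_mod_cast this
  have h5 := hS3 hlt
  rw [hX, WithTop.coe_le_coe, div_le_iff₀ hp1] at h5
  rw [div_add' _ _ _ hp1.ne', div_le_iff₀ hp1] at hcon
  nlinarith

end Disp

end Abs

end Fermat.Agent.Lib.S59
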