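/-
PROGRAMME (R2) = S59, node [MRP_W], leaf [L6_W] `s59b_WSideW`, sub-node **(S5)**, instantiated
(helper2, prefix `s59b_`): the abstract improvement lemma `s59b_improve` (`BImprove.lean`) for
`v = ford_vQ P` on `ℚ̄`, a finite normal `L ≤ ℚ̄` and an inertia element `τ` with `τ ^ p = 1` on `L`.

* `s59b_witness`      : `g₁ ∈ L ∩ P`, `τ g₁ ≠ g₁`, `v (τ g₁ - g₁) ≤ B` or `v (τ g₁ - g₁) < B + v g₁`
  ⇒ the witness `g` of `s44i_SubCrit` (ii) with bound `B`.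
* `s59b_subCrit_of`   : `p² ∤ [L : ℚ]` + (every inertia element of order `p` on `L` moves some
  integral `g₁ ∈ L` by at most `1/(p-1)`, or by less than `1/(p-1) + v g₁`) ⇒ `s44i_SubCrit p hp P hP L`.
-/
import Fermat.Agent.Lib.S59.BImprove
import Fermat.Agent.Lib.S44.Iface
import Fermat.Agent.Lib.S44.SoftVal
import Fermat.Agent.Lib.S18.XPerfect
import Fermat.Agent.Lib.S18.QDvr
import Fermat.Agent.Lib.Frey.OrdInertia

set_option autoImplicit false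
set_option linter.style.haveILetI false
set_option linter.unusedSectionVars false
set_option synthInstance.maxHeartbeats 400000

namespace Fermat.Agent.Lib.S59

open Fermat.Agent.Lib.Frey Fermat.Agent.Lib.S18 Fermat.Agent.Lib.S44

noncomputable section

local notation "Kb" => AlgebraicClosure ℚ
local notation "Γℚ" => (AlgebraicClosure ℚ ≃ₐ[ℚ] AlgebraicClosure ℚ)

/-- a normal intermediate field is stable under every automorphism. -/
theorem s59b_normal_mem (M : IntermediateField ℚ Kb) [Normal ℚ ↥M] (ρ : Γℚ) (x : Kb)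
    (hx : x ∈ M) : ρ x ∈ M := by
  have h3 : ((ρ.restrictNormal ↥M ⟨x, hx⟩ : ↥M) : Kb) = ρ x :=
    AlgEquiv.restrictNormal_commutes ρ ↥M ⟨x, hx⟩
  rw [← h3]
  exact (ρ.restrictNormal ↥M ⟨x, hx⟩).2

/-- the residue field of `L ∩ P` is perfect of characteristic `p`: units of `L` are `p`-th powers
modulo the maximal ideal. -/
theorem s59b_perf (p : ℕ) (hp : p.Prime) (P : ValuationSubring Kb) (hP : P.LiesOverPrime p)
    (L : IntermediateField ℚ Kb) (hfin : FiniteDimensional ℚ ↥L) :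
    ∀ w ∈ L.toSubfield, ford_vQ P hp hP w = 0 → ∃ w' ∈ L.toSubfield, 0 ≤ ford_vQ P hp hP w' ∧
      0 < ford_vQ P hp hP (w' ^ p - w) := by
  intro w hwL hw
  haveI : Fact p.Prime := ⟨hp⟩
  haveI : Algebra.IsAlgebraic ℚ ↥L := Algebra.IsAlgebraic.of_finite ℚ ↥L
  have hnu : ((p : ℕ) : ↥L) ∈ (s18q_A0 P L).nonunits := by
    rw [ValuationSubring.mem_nonunits_iff_or]
    right
    intro hinv
    rw [s18q_A0, ValuationSubring.mem_comap, map_inv₀, map_natCast] at hinv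
    rcases (ValuationSubring.mem_nonunits_iff_or (A := P)).mp hP with h0 | h0
    · exact (Nat.cast_ne_zero.mpr hp.ne_zero) h0
    · exact h0 hinv
  haveI hchar : CharP (IsLocalRing.ResidueField ↥(s18q_A0 P L)) p :=
    s18x_charP_residueField _ hp hnu
  haveI hpf : PerfectField (IsLocalRing.ResidueField ↥(s18q_A0 P L)) :=
    s18x_perfectField_residue _ hp hnu
  haveI : PerfectRing (IsLocalRing.ResidueField ↥(s18q_A0 P L)) p := PerfectField.toPerfectRing p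
  have hwP : w ∈ P := (ford_vQ_nonneg_iff hp hP w).mp hw.ge
  set w₀ : ↥(s18q_A0 P L) := ⟨⟨w, hwL⟩, hwP⟩ with hw₀
  obtain ⟨y, hy⟩ := surjective_frobenius (IsLocalRing.ResidueField ↥(s18q_A0 P L)) p
    (IsLocalRing.residue _ w₀)
  obtain ⟨w₁, rfl⟩ := IsLocalRing.residue_surjective y
  rw [frobenius_def, ← map_pow, ← sub_eq_zero, ← map_sub, IsLocalRing.residue_eq_zero_iff] at hy
  have h1 := (s18q_A0_hom_mem_maximalIdeal P L (w₁ ^ p - w₀)).mpr hy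
  have h2 : ((s18q_A0_hom P L (w₁ ^ p - w₀) : ↥P) : Kb) ∈ P.nonunits :=
    (ValuationSubring.coe_mem_nonunits_iff (A := P)).mpr h1
  rw [s18q_A0_hom_coe] at h2
  refine ⟨((w₁ : ↥L) : Kb), (w₁ : ↥L).2, (ford_vQ_nonneg_iff hp hP _).mpr w₁.2, ?_⟩
  have h3 : ((((w₁ ^ p - w₀ : ↥(s18q_A0 P L)) : ↥L)) : Kb) = ((w₁ : ↥L) : Kb) ^ p - w := by
    simp [hw₀]
  rw [h3] at h2
  exact (ford_vQ_pos_iff hp hP _).mpr h2

/-- **(S5), instantiated**: the witness of `s44i_SubCrit` (ii) from an integral element of `L` moved by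
at most `B`. -/
theorem s59b_witness (p : ℕ) (hp : p.Prime) (hp2 : p ≠ 2) (P : ValuationSubring Kb)
    (hP : P.LiesOverPrime p) (L : IntermediateField ℚ Kb) (hfin : FiniteDimensional ℚ ↥L)
    (hnorm : Normal ℚ ↥L) (τ : Γℚ) (hτ : τ ∈ P.inertiaSubgroupIn ℚ)
    (hτp : ∀ a ∈ L, (τ ^ p) a = a) (g₁ : Kb) (hg₁L : g₁ ∈ L) (hg₁P : g₁ ∈ P) (hne : τ g₁ ≠ g₁)
    (B : ℚ) (hB : ford_vQ P hp hP (τ g₁ - g₁) ≤ (B : WithTop ℚ) ∨
      ford_vQ P hp hP (τ g₁ - g₁) < (B : WithTop ℚ) + ford_vQ P hp hP g₁) :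
    ∃ g ∈ L, ∃ r : ℚ, ford_vQ P hp hP g = (r : WithTop ℚ) ∧
      (∀ a ∈ L, ∀ s : ℚ, ford_vQ P hp hP a = (s : WithTop ℚ) → r ≠ (p : ℚ) * s) ∧
      ford_vQ P hp hP (τ g / g - 1) < (B : WithTop ℚ) := by
  obtain ⟨hτv, hτres⟩ := ford_vQ_inertia hp hP τ hτ
  obtain ⟨e, he, -, hval⟩ := s44s_valGroup' p hp P hP L hfin hnorm
  have hpv : 0 < ford_vQ P hp hP ((p : ℕ) : Kb) :=
    lt_of_lt_of_eq zero_lt_one (ford_vQ_q hp hP).symm
  obtain ⟨g, hgL, hg0, hgpos, hgge, hgnd, hgτ⟩ :=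
    s59b_improve (ford_vQ P hp hP) (τ : Kb →+* Kb) L.toSubfield p hp hp2 hpv hτv hτres
      (fun a ha => s59b_normal_mem L τ a ha)
      (fun a ha => by
        have h := hτp a ha
        rw [AlgEquiv.coe_pow] at h
        exact h)
      e he (fun a ha ha0 => hval a ha ha0) (s59b_perf p hp P hP L hfin)
      g₁ hg₁L ((ford_vQ_nonneg_iff hp hP g₁).mpr hg₁P) hne
  obtain ⟨r, hr⟩ := s59b_v_coe (ford_vQ P hp hP) hg0
  refine ⟨g, hgL, r, hr, ?_, ?_⟩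
  · intro a haL s hs h
    have ha0 : a ≠ 0 := by
      rintro rfl
      exact s44s_vQ_zero_ne p hp P hP s hs
    apply hgnd a haL ha0
    rw [hr, hs, h, ← WithTop.coe_nsmul, nsmul_eq_mul]
  · have hτg : (τ : Kb →+* Kb) g = τ g := rfl
    have hτg₁ : (τ : Kb →+* Kb) g₁ = τ g₁ := rfl
    rw [hτg, hτg₁] at hgτ
    have h1 : τ g / g - 1 = (τ g₁ - g₁) / g := by
      rw [← hgτ]
      field_simp
    rw [h1, AddValuation.map_div]
    have hd0 : τ g₁ - g₁ ≠ 0 := sub_ne_zero.mpr hne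
    obtain ⟨s, hs⟩ := s59b_v_coe (ford_vQ P hp hP) hd0
    have hg₁0 : g₁ ≠ 0 := by
      rintro rfl
      exact hne (map_zero τ)
    obtain ⟨r₁, hr₁⟩ := s59b_v_coe (ford_vQ P hp hP) hg₁0
    rw [hr] at hgpos
    have hr0 : 0 < r := by exact_mod_cast hgpos
    rw [hr₁, hr, WithTop.coe_le_coe] at hgge
    rw [hs, hr, ← WithTop.LinearOrderedAddCommGroup.coe_sub, WithTop.coe_lt_coe]
    rw [hs, hr₁, ← WithTop.coe_add, WithTop.coe_le_coe, WithTop.coe_lt_coe] at hB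
    rcases hB with hB | hB
    · linarith
    · linarith

/-- **`s44i_SubCrit` from `p² ∤ [L : ℚ]` and small displacements.** -/
theorem s59b_subCrit_of (p : ℕ) (hp : p.Prime) (hp2 : p ≠ 2) (P : ValuationSubring Kb)
    (hP : P.LiesOverPrime p) (L : IntermediateField ℚ Kb) (hfin : FiniteDimensional ℚ ↥L)
    (hnorm : Normal ℚ ↥L) (hn : ¬ p ^ 2 ∣ Module.finrank ℚ ↥L)
    (hmove : ∀ τ ∈ P.inertiaSubgroupIn ℚ, (∀ a ∈ L, (τ ^ p) a = a) → (∃ a ∈ L, τ a ≠ a) →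
      ∃ g₁ ∈ L, g₁ ∈ P ∧ τ g₁ ≠ g₁ ∧
        (ford_vQ P hp hP (τ g₁ - g₁) ≤ (((1 : ℚ) / ((p : ℚ) - 1) : ℚ) : WithTop ℚ) ∨
          ford_vQ P hp hP (τ g₁ - g₁) <
            (((1 : ℚ) / ((p : ℚ) - 1) : ℚ) : WithTop ℚ) + ford_vQ P hp hP g₁)) :
    s44i_SubCrit p hp P hP L := by
  refine ⟨s44s_vQ_ne_sq p hp P hP L hfin hnorm hn, ?_⟩
  intro τ hτ hτp hτne
  obtain ⟨g₁, hg₁L, hg₁P, hne, hB⟩ := hmove τ hτ hτp hτne
  exact s59b_witness p hp hp2 P hP L hfin hnorm τ hτ hτp g₁ hg₁L hg₁P hne _ hB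

end

end Fermat.Agent.Lib.S59
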