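/-
PROGRAMME (R2) = S59, node **[MRP_W]** (Mazur–Ribet at `p` for a general semistable `W`, GOOD at `p`,
`p ∥ M`; frozen S40 shape = `s59_MRP` of `Lib/S59/Graph.lean`).  CONTRACT + CHECKED TOP WIRING
(helper2, prefix `s59b_`).  STATEMENTS ONLY for the three W-side leaves (`def … : Prop`); the
wiring theorems are proved.

ROUTE (uniform in ordinary / supersingular reduction; no formal groups, no Hasse invariant):
the S44 method.  All GENERAL leaves [L1]–[L5] of `Lib/S44/Iface.lean` are on main, proved, with the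
hypothesis `5 ≤ p` (`s44s_eigExists`, `s44r_old_leaf`, `s44k_star`, `s44s_liftTor`, `s44_liftOcc`,
`s44m_mfin`).  The Frey-only W-side leaves [L6], [L6b], [L7a], [L7b] are replaced by

* **[L6_W]  `s59b_WSideW p`**  : for `W` good at `p` and a place `A ∣ p` of `ℚ̄` there is a finite normal
  `L ≤ ℚ̄` splitting `W[p]` and `μ_p` which is sub-critically ramified at `A` (`s44i_SubCrit`).
  THE ONLY HARD NEW LEAF.  Sub-nodes (all elementary, `x`-coordinate calculus of `Lib/Frey/E1`):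
    (S0) `L := ℚ(W[p], μ_p)` finite, normal, splits; `p² ∤ [L:ℚ]` (⇒ clause (i) of SubCrit).
    (S1) short model over `ℤ[1/2] ⊆ A`: `y² = x³ + (b₂/4)x² + (b₄/2)x + b₆/4`, transport of points.
    (S2) `E₁ = {v(x) < 0} ∪ {O}` is a subgroup; for `τ ∈ I_A` and a `p`-torsion point `R`:
         `τ R − R ∈ E₁` (good reduction, `p` odd: a `p`-torsion point with `v(y) > 0` lies in `E₁`).
    (S3) **KEY inequality** `v(t(Q)) ≤ 1/(p−1)` for `Q ∈ E₁[p]`, `Q ≠ O` (`t = x/y`).  `p = 3`: the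
         congruence `u(kP) ≡ k² u(P) mod u²` (`u = 1/x`) of `Lib/Frey/E1`, read with `v(p) = 1`;
         `p = 5`: the same congruence one order further.  (True for every `p`, but the general
         case is the Newton polygon of `[p]` on the formal group — NOT needed for `p ∈ {3, 5}`.)
    (S4) first-order translation: `R ∉ E₁` integral, `Q ∈ E₁` ⇒ `v(x(R+Q) − x(R)) = v(t(Q))`;
         `R, Q ∈ E₁` ⇒ `v(t(R+Q) − t(R)) = v(t(Q))`.
    (S5) improvement lemma (abstract): `τ ∈ I_A`, `τ^p = 1` on `L`, `g₁ ∈ L ∩ A`,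
         `v(τ g₁ − g₁) ≤ 1/(p−1)` ⇒ the witness `g` of SubCrit (ii) (norms to `L^τ`, perfect
         residue field, discreteness of `v` on `L`).
* **[L7a_W] `s59b_FixedNeW`**  : `L`-rational eigen-points exist (copy of `s44s_fixedNe`, soft).
* **[L7b_W] `s59b_EndgameW`**  : the `L`-rational eigen-points cannot all be of `μ_p`-type (soft:
  `s44s_dens` + irreducibility give `det = χ` on `W[p]`, so an inertia element with `χ(τ) = 2`
  cannot act on `W[p]` by the scalar `2`; replaces `cfh_T₀ ≠ ⊤`).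

CHECKED below:  `s59b_MRP_of_leaves` : for every prime `p ≥ 5`,
  [L6_W] + [L7a_W] + [L7b_W]  ⊢  the `s59_MRP` clause at `p`;
`s59b_MRP_of_five_three` : `s59_MRP ⇐ (clause for p ≥ 5) + (clause at p = 3)`.
The clause at `p = 3` (`s59b_MRPat 3`) has NO route through this method (see the board).
-/
import Fermat.Agent.Lib.S59.Graph
import Fermat.Agent.Lib.S44.Asm3

set_option autoImplicit false
set_option linter.style.haveILetI false
set_option linter.unusedSectionVars false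
set_option synthInstance.maxHeartbeats 400000

namespace Fermat.Agent.Lib.S59

open ModularCurve AlgebraicCurve WeierstrassCurve
  Fermat.Agent.Lib.S18 Fermat.Agent.Lib.S29 Fermat.Agent.Lib.S35 Fermat.Agent.Lib.S33
  Fermat.Agent.Lib.S41 Fermat.Agent.Lib.S44 Fermat.Agent.Lib.S58

noncomputable section

local notation "Kb" => AlgebraicClosure ℚ
local notation "Γℚ" => (AlgebraicClosure ℚ ≃ₐ[ℚ] AlgebraicClosure ℚ)

/-! ### The W-side leaves -/

/-- the fixing condition for a general `W`: `σ` fixes `L` pointwise ⇒ `σ` fixes `W[p](ℚ̄)` and `μ_p`. -/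
def s59b_SplitsW (W : WeierstrassCurve ℤ) (p : ℕ) (L : IntermediateField ℚ Kb) : Prop :=
  ∀ σ : Γℚ, (∀ a ∈ L, σ a = a) →
    (∀ Q : s58_Pt W, p • Q = 0 → σ • Q = Q) ∧ ∀ ζ : Kb, ζ ^ p = 1 → σ ζ = ζ

/-- **[L6_W]** at the prime `p`: for `W` with good reduction at `p` and a place `A ∣ p` there is a finite
normal splitting field of `W[p]` and `μ_p` which is sub-critically ramified at `A`. -/
def s59b_WSideW (p : ℕ) : Prop :=
  ∀ (hp : p.Prime) (W : WeierstrassCurve ℤ), W.Δ ≠ 0 → W.IsGoodPrimeFor p →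
    ∀ (A : ValuationSubring Kb) (hA : A.LiesOverPrime p),
      ∃ L : IntermediateField ℚ Kb, FiniteDimensional ℚ ↥L ∧ Normal ℚ ↥L ∧ s59b_SplitsW W p L ∧
        s44i_SubCrit p hp A hA L

/-- **[L7a_W]** the points of the eigen-module which are rational over a splitting field `L`:
non-zero as soon as the eigen-module is. -/
def s59b_FixedNeW : Prop :=
  ∀ (p : ℕ), p.Prime → p ≠ 2 → ∀ (W : WeierstrassCurve ℤ), W.Δ ≠ 0 →
    ∀ (N : ℕ) [NeZero N] (B : Finset ℕ), (∀ q : ℕ, q.Prime → q ∣ N * p → q ∈ B) →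
      (∀ q : ℕ, q.Prime → ¬ W.IsGoodPrimeFor q → q ∈ B) →
    ∀ L : IntermediateField ℚ Kb, FiniteDimensional ℚ ↥L → Normal ℚ ↥L → s59b_SplitsW W p L →
      (∃ x : JZero N, x ≠ 0 ∧ s44i_Eig N p (fun ℓ => W.apOfModel ℓ) B x) →
      ∃ x : JZero N, x ≠ 0 ∧ s44i_Eig N p (fun ℓ => W.apOfModel ℓ) B x ∧
        ∀ σ : Γℚ, (∀ a ∈ L, σ a = a) → σ • x = x

/-- **[L7b_W] the endgame**: the `L`-rational points of the eigen-module cannot all be of
`μ_p`-type at `A` (no hypothesis on the reduction of `W` at `p`). -/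
def s59b_EndgameW : Prop :=
  ∀ (p : ℕ), p.Prime → p ≠ 2 → ∀ (W : WeierstrassCurve ℤ), W.Δ ≠ 0 →
    W.ModRepIsIrreducible p →
    ∀ (N : ℕ) [NeZero N] (B : Finset ℕ), (∀ q : ℕ, q.Prime → q ∣ N * p → q ∈ B) →
      (∀ q : ℕ, q.Prime → ¬ W.IsGoodPrimeFor q → q ∈ B) →
    ∀ L : IntermediateField ℚ Kb, FiniteDimensional ℚ ↥L → Normal ℚ ↥L → s59b_SplitsW W p L →
    ∀ (A : ValuationSubring Kb), A.LiesOverPrime p →
      (∃ x : JZero N, x ≠ 0 ∧ s44i_Eig N p (fun ℓ => W.apOfModel ℓ) B x ∧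
        ∀ σ : Γℚ, (∀ a ∈ L, σ a = a) → σ • x = x) →
      (∀ x : JZero N, s44i_Eig N p (fun ℓ => W.apOfModel ℓ) B x →
        (∀ σ : Γℚ, (∀ a ∈ L, σ a = a) → σ • x = x) → s33_IsMuType N p A x) →
      False

/-- the `s59_MRP` clause at one prime `p`. -/
def s59b_MRPat (p : ℕ) : Prop :=
  p.Prime → p ≠ 2 → ∀ (W : WeierstrassCurve ℤ), W.Δ ≠ 0 → W.IsSemistableModel →
    W.ModRepIsIrreducible p → ∀ (M : ℕ), Squarefree M → p ∣ M → W.IsGoodPrimeFor p →
    W.IsResiduallyModularOfLevel p M → W.IsResiduallyModularOfLevel p (M / p)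

/-! ### The top wiring, checked -/

/-- `W` is an integral model of `W_ℚ`. -/
theorem s59b_isIntegralModelOf_self (W : WeierstrassCurve ℤ) :
    W.IsIntegralModelOf (W.map (Int.castRingHom ℚ)) :=
  ⟨1, one_smul _ _⟩

/-- **[MRP_W] at a prime `p ≥ 5` from the three W-side leaves** (general leaves: main's S44 library). -/
theorem s59b_MRP_of_leaves (p : ℕ) (h5 : 5 ≤ p) (h6 : s59b_WSideW p) (h7a : s59b_FixedNeW)
    (h7b : s59b_EndgameW) : s59b_MRPat p := by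
  intro hp hp2 W hΔ _ hirr M₁ hsq hpM₁ hgoodp hres
  classical
  obtain ⟨M, rfl⟩ : ∃ M, M₁ = M * p := ⟨M₁ / p, (Nat.div_mul_cancel hpM₁).symm⟩
  haveI : Fact p.Prime := ⟨hp⟩
  have hM0 : M ≠ 0 := by
    rintro rfl
    rw [zero_mul] at hsq
    exact not_squarefree_zero hsq
  haveI : NeZero M := ⟨hM0⟩
  have hdiv : M * p / p = M := Nat.mul_div_cancel M hp.pos
  rw [hdiv]
  have hpM : ¬ p ∣ M := by
    rintro ⟨k, rfl⟩
    have h1 : p * p ∣ p * k * p := ⟨k, by ring⟩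
    exact hp.not_isUnit (hsq p h1)
  have hsqM : Squarefree M := hsq.squarefree_of_dvd (Dvd.intro _ rfl)
  obtain ⟨f, 𝔪, hf, hmax, hpm, hcong⟩ := hres
  haveI := s58o_isElliptic W hΔ
  have hW : W.IsIntegralModelOf (W.map (Int.castRingHom ℚ)) := s59b_isIntegralModelOf_self W
  -- the exceptional set
  set a : ℕ → ℤ := fun ℓ => W.apOfModel ℓ with ha
  have hprod : M * p * p * W.Δ.natAbs ≠ 0 :=
    Nat.mul_ne_zero (Nat.mul_ne_zero (Nat.mul_ne_zero hM0 hp.ne_zero) hp.ne_zero)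
      (Int.natAbs_ne_zero.mpr hΔ)
  set B : Finset ℕ := (M * p * p * W.Δ.natAbs).primeFactors with hB
  have hB1 : ∀ q : ℕ, q.Prime → q ∣ M * p * p → q ∈ B := fun q hq hd =>
    Nat.mem_primeFactors.mpr ⟨hq, hd.mul_right _, hprod⟩
  have hB1' : ∀ q : ℕ, q.Prime → q ∣ M * p → q ∈ B := fun q hq hd => hB1 q hq (hd.mul_right _)
  have hB2 : ∀ q : ℕ, q.Prime → ¬ W.IsGoodPrimeFor q → q ∈ B := fun q hq hbad => by
    have hd : (q : ℤ) ∣ W.Δ := not_not.mp hbad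
    have hd' : q ∣ W.Δ.natAbs := Int.natCast_dvd.mp hd
    exact Nat.mem_primeFactors.mpr ⟨hq, hd'.mul_left _, hprod⟩
  have hB3 : ∀ ℓ : ℕ, ℓ.Prime → W.IsGoodPrimeFor ℓ → ¬ ℓ ∣ M → ℓ ≠ p → ℓ ∉ B := by
    intro ℓ hℓ hgood hℓM hℓp hmem
    have hd := (Nat.mem_primeFactors.mp hmem).2.1
    rcases (Nat.Prime.dvd_mul hℓ).mp hd with h | h
    · rcases (Nat.Prime.dvd_mul hℓ).mp h with h | h
      · rcases (Nat.Prime.dvd_mul hℓ).mp h with h | h
        · exact hℓM h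
        · exact hℓp ((Nat.prime_dvd_prime_iff_eq hℓ hp).mp h)
      · exact hℓp ((Nat.prime_dvd_prime_iff_eq hℓ hp).mp h)
    · exact hgood (Int.natCast_dvd.mpr h)
  have hB4 : ∀ ℓ : ℕ, ℓ.Prime → ℓ ∉ B →
      W.IsGoodPrimeFor ℓ ∧ ¬ ℓ ∣ M * p ∧ ℓ ≠ p ∧ ¬ ℓ ∣ M * p * p := by
    intro ℓ hℓ hℓB
    refine ⟨fun hbad => hℓB (hB2 ℓ hℓ (not_not.mpr hbad)), fun hd => hℓB (hB1' ℓ hℓ hd), ?_,
      fun hd => hℓB (hB1 ℓ hℓ hd)⟩
    rintro rfl
    exact hℓB (hB1' _ hℓ (Dvd.intro_left _ rfl))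
  by_cases hocc : s44i_LevelOcc M p a B
  · -- the eigensystem occurs at level `M`
    obtain ⟨g, 𝔪', hg, hmax', hpm', hc⟩ := hocc
    exact ⟨g, 𝔪', hg, hmax', hpm',
      fun ℓ hℓ hgood hℓM hℓp => hc ℓ hℓ (hB3 ℓ hℓ hgood hℓM hℓp)⟩
  · exfalso
    -- [L1]
    obtain ⟨x₀, hx₀, hE₀⟩ := s44s_eigExists (M * p) f hf p hp 𝔪 hmax hpm a B hB1
      (fun ℓ hℓ hℓB => hcong ℓ hℓ (hB4 ℓ hℓ hℓB).1 (hB4 ℓ hℓ hℓB).2.1 (hB4 ℓ hℓ hℓB).2.2.1)
    -- [L2]: the eigen-module is `p`-new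
    have hnew : ∀ x : JZero (M * p), s44i_Eig (M * p) p a B x →
        s35c_alphaPush M p hp hpM x = 0 ∧ s35c_betaPush M p hp hpM x = 0 := by
      intro x hE
      constructor
      · by_contra hne
        refine hocc (s44r_old_leaf M p hp h5 hpM a B hB1' _ hne ⟨?_, fun ℓ hℓB => ?_⟩)
        · rw [← map_nsmul, hE.1, map_zero]
        · have h := s33l_hecke_pt p (s35c_alphaPush M p hp hpM)
            (fun σ x => s35c_alphaPush_smul M p hp hpM σ x) ℓ (hB4 ℓ ℓ.2 hℓB).2.2.2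
            (hB4 ℓ ℓ.2 hℓB).2.1 x hE.1
          rw [← h, hE.2 ℓ hℓB, map_zsmul]
      · by_contra hne
        refine hocc (s44r_old_leaf M p hp h5 hpM a B hB1' _ hne ⟨?_, fun ℓ hℓB => ?_⟩)
        · rw [← map_nsmul, hE.1, map_zero]
        · have h := s33l_hecke_pt p (s35c_betaPush M p hp hpM)
            (fun σ x => s35c_betaPush_smul M p hp hpM σ x) ℓ (hB4 ℓ ℓ.2 hℓB).2.2.2
            (hB4 ℓ ℓ.2 hℓB).2.1 x hE.1
          rw [← h, hE.2 ℓ hℓB, map_zsmul]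
    -- the place and the W-side
    obtain ⟨A, hA⟩ := Fermat.Agent.Lib.Frobenius.exists_liesOverPrime p hp
    obtain ⟨L, hLfd, hLn, hLs, hLsc⟩ := h6 hp W hΔ hgoodp A hA
    haveI := hLfd
    haveI := hLn
    -- [L7a_W]
    have hx₁ := h7a p hp hp2 W hΔ (M * p) B hB1 hB2 L hLfd hLn hLs ⟨x₀, hx₀, hE₀⟩
    -- the non-Eisenstein prime
    obtain ⟨ℓ₀, hℓ₀, hℓ₀B, -, hℓ₀ne⟩ :=
      s41a_nonEis (W.map (Int.castRingHom ℚ)) W hW p hp hp2 hirr B
    -- [L7b_W]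
    refine h7b p hp hp2 W hΔ hirr (M * p) B hB1 hB2 L hLfd hLn hLs A hA hx₁
      (fun x hE hfix => ?_)
    obtain ⟨hα, hβ⟩ := hnew x hE
    have hfin : s44i_Finite M p hpM A x := by
      have hμ : ∀ ζ : Kb, ζ ^ p = 1 → ζ ∈ L := by
        intro ζ hζ
        have hfixL : IntermediateField.fixedField L.fixingSubgroup = L :=
          InfiniteGalois.fixedField_fixingSubgroup L
        rw [← hfixL]
        rintro ⟨σ, hσ⟩
        exact (hLs σ fun a ha => hσ ⟨a, ha⟩).2 ζ hζ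
      refine s44k_star M p h5 hpM hsqM A hA L hLsc hμ x hE.1 hα hβ hfix
        ⟨⟨ℓ₀, hℓ₀⟩, a ℓ₀, (hB4 ℓ₀ hℓ₀ hℓ₀B).2.1, hE.2 ⟨ℓ₀, hℓ₀⟩ hℓ₀B, fun hd => hℓ₀ne ?_⟩
      have e : W.apOfModel ℓ₀ ^ 2 - ((ℓ₀ : ℤ) + 1) ^ 2 =
          (a ℓ₀ - ((ℓ₀ : ℕ) + 1)) * (a ℓ₀ + ((ℓ₀ : ℕ) + 1)) := by rw [ha]; push_cast; ring
      rw [e]
      exact hd.mul_right _
    rcases s44i_lift_of s44s_liftTor s44_liftOcc M p h5 hpM hsqM A hA a B hB1' x hE hα hβ hfin
      with ht | ho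
    · exact s44m_mfin M p h5 hpM A hA x hE.1 hα hβ ht
    · exact absurd ho hocc

/-- `s59_MRP ⇐` the clauses at the primes `p ≥ 5` and the clause at `p = 3`. -/
theorem s59b_MRP_of_five_three (h5 : ∀ p : ℕ, 5 ≤ p → s59b_MRPat p) (h3 : s59b_MRPat 3) :
    s59_MRP := by
  intro p hp hp2 W hΔ hW hirr M hsq hpM hgood hres
  by_cases hp5 : 5 ≤ p
  · exact h5 p hp5 hp hp2 W hΔ hW hirr M hsq hpM hgood hres
  · have hp3 : p = 3 := by
      have h2 := hp.two_le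
      have hlt : p < 5 := Nat.lt_of_not_le hp5
      interval_cases p
      · exact absurd rfl hp2
      · rfl
      · exact absurd hp (by norm_num)
    subst hp3
    exact h3 hp hp2 W hΔ hW hirr M hsq hpM hgood hres

end

end Fermat.Agent.Lib.S59
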