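/-
PROGRAMME (R2) = S59, node [MRP_W] (helper2, prefix `s59b_`): **the two SOFT W-side leaves PROVED.**

* `s59b_endgame_abs`, `s59b_endgame_sub` : the abstract endgame of `Lib/S44/REndAbs.lean` WITHOUT the
  auxiliary subgroup `T` ("kernel of reduction is not everything"): if `V` is irreducible of order `p²`
  and both `Y ≠ 0` and `V` satisfy the relations `g + χ(g) g⁻¹ = s(g)`, then no `τ` with `χ(τ) ≠ 1` acts
  on `Y` through the scalar `χ(τ)`.  (`τ` is central on `V`, `(τ - 1)(τ - χ τ) = 0` on `V`, so by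
  irreducibility `τ = 1` or `τ = χ τ` on `V`; in both cases every `g` is scalar on `V`.)
* `s59b_fixedNeW : s59b_FixedNeW`   [L7a_W]  (copy of `s44s_fixedNe`, W-general).
* `s59b_endgameW : s59b_EndgameW`   [L7b_W]  (no hypothesis on the reduction of `W` at `p`).
-/
import Fermat.Agent.Lib.S59.BMrpGraph
import Fermat.Agent.Lib.S44.REnd

set_option autoImplicit false
set_option linter.style.haveILetI false
set_option linter.unusedSectionVars false
set_option synthInstance.maxHeartbeats 400000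

namespace Fermat.Agent.Lib.S59

open Module ModularCurve WeierstrassCurve WeierstrassCurve.Affine
open Fermat.Agent.Lib.S29 Fermat.Agent.Lib.S30 Fermat.Agent.Lib.S31 Fermat.Agent.Lib.S33
open Fermat.Agent.Lib.S58 Fermat.Agent.Lib.S44 Fermat.Agent.Lib.EN

local notation "Γℚ" => (AlgebraicClosure ℚ ≃ₐ[ℚ] AlgebraicClosure ℚ)
local notation "Kb" => AlgebraicClosure ℚ

noncomputable section

section Abs

variable {p : ℕ} [hp : Fact p.Prime] {G : Type*} [Group G]
  {Y : Type*} [AddCommGroup Y] [DistribMulAction G Y] [Module (ZMod p) Y]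
  {V : Type*} [AddCommGroup V] [DistribMulAction G V] [Module (ZMod p) V]
  (χ : G →* (ZMod p)ˣ) (s : G → ZMod p)
  (hY : ∀ (g : G) (y : Y), g • y + (χ g : ZMod p) • g⁻¹ • y = s g • y)
  (hV : ∀ (g : G) (v : V), g • v + (χ g : ZMod p) • g⁻¹ • v = s g • v)

include hY hV in
/-- **[L7b_W], abstract form** (no subgroup `T`). -/
theorem s59b_endgame_abs [Nontrivial Y] [Finite V]
    (hirr : ∀ N : Submodule (ZMod p) V, (∀ (g : G), ∀ x ∈ N, g • x ∈ N) → N = ⊥ ∨ N = ⊤)
    (hcard : Nat.card V = p ^ 2)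
    (τ : G) (hχτ : (χ τ : ZMod p) ≠ 1) (hτY : ∀ y : Y, τ • y = (χ τ : ZMod p) • y) : False := by
  classical
  have hp2 : 2 ≤ p := hp.out.two_le
  have hVnt : Nontrivial V := by
    rw [← Finite.one_lt_card_iff_nontrivial, hcard]
    calc 1 < 2 ^ 2 := by norm_num
      _ ≤ p ^ 2 := Nat.pow_le_pow_left hp2 2
  set c : ZMod p := (χ τ : ZMod p) with hc
  have hc0 : c ≠ 0 := Units.ne_zero _
  -- the normal subgroup `D`
  let D : Subgroup G :=
    { carrier := {d | (∀ y : Y, d • y = y) ∧ χ d = 1}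
      one_mem' := ⟨fun y => one_smul _ y, map_one χ⟩
      mul_mem' := fun {a b} ha hb =>
        ⟨fun y => by rw [mul_smul, hb.1, ha.1], by rw [map_mul, ha.2, hb.2, one_mul]⟩
      inv_mem' := fun {a} ha =>
        ⟨fun y => by rw [inv_smul_eq_iff, ha.1], by rw [map_inv, ha.2, inv_one]⟩ }
  have hDconj : ∀ (g d : G), d ∈ D → g⁻¹ * d * g ∈ D := by
    intro g d hd
    refine ⟨fun y => ?_, ?_⟩
    · rw [mul_smul, mul_smul, hd.1, inv_smul_smul]
    · rw [map_mul, map_mul, hd.2, mul_one, map_inv, inv_mul_cancel]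
  -- `s = 2` on `D`, hence `D` acts unipotently on `V`
  have hsD : ∀ d ∈ D, s d = 2 := by
    intro d hd
    obtain ⟨y, hy⟩ := exists_ne (0 : Y)
    have h1 := hY d y
    have h2 : d⁻¹ • y = y := by rw [inv_smul_eq_iff, hd.1]
    rw [hd.1, h2, hd.2, Units.val_one, one_smul, ← two_smul (ZMod p) y] at h1
    have h3 : ((2 : ZMod p) - s d) • y = 0 := by rw [sub_smul, h1, sub_self]
    rcases smul_eq_zero.mp h3 with h4 | h4
    · exact (sub_eq_zero.mp h4).symm
    · exact absurd h4 hy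
  have hunip : ∀ d : D, (((s44r_rho p G V).comp D.subtype) d - 1) *
      (((s44r_rho p G V).comp D.subtype) d - 1) = 0 := by
    intro d
    refine s44r_unip_of_rel (d : G) fun v => ?_
    have h1 := hV (d : G) v
    rw [d.2.2, Units.val_one, one_smul, hsD d d.2] at h1
    exact h1
  obtain ⟨x, hx0, hx⟩ := s44r_exists_fixed ((s44r_rho p G V).comp D.subtype) hunip
  -- the fixed space of `D` is `G`-stable, hence everything
  let N : Submodule (ZMod p) V :=
    { carrier := {v | ∀ d ∈ D, d • v = v}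
      zero_mem' := fun d _ => smul_zero d
      add_mem' := fun {a b} ha hb d hd => by rw [smul_add, ha d hd, hb d hd]
      smul_mem' := fun c v hv d hd => by rw [s44r_smul_zmod, hv d hd] }
  have hNstab : ∀ (g : G), ∀ v ∈ N, g • v ∈ N := by
    intro g v hv d hd
    have h1 := hv (g⁻¹ * d * g) (hDconj g d hd)
    rw [mul_smul, mul_smul, inv_smul_eq_iff] at h1
    exact h1
  have hNtop : N = ⊤ := by
    rcases hirr N hNstab with h | h
    · exfalso
      have hxN : x ∈ N := fun d hd => hx ⟨d, hd⟩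
      rw [h, Submodule.mem_bot] at hxN
      exact hx0 hxN
    · exact h
  have hDV : ∀ d ∈ D, ∀ v : V, d • v = v := by
    intro d hd v
    have : v ∈ N := by rw [hNtop]; exact Submodule.mem_top
    exact this d hd
  -- `τ` is central on `V`
  have hcomm : ∀ (g : G) (v : V), τ • g • v = g • τ • v := by
    intro g v
    have hd : τ⁻¹ * g⁻¹ * τ * g ∈ D := by
      refine ⟨fun y => ?_, ?_⟩
      · rw [mul_smul, mul_smul, mul_smul, hτY, s44r_smul_zmod, inv_smul_smul, ← hτY,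
          inv_smul_smul]
      · rw [map_mul, map_mul, map_mul, map_inv, map_inv]
        rw [mul_comm (χ τ)⁻¹ (χ g)⁻¹, mul_assoc (χ g)⁻¹, inv_mul_cancel, mul_one, inv_mul_cancel]
    have h1 := hDV _ hd v
    rw [mul_smul, mul_smul, mul_smul, inv_smul_eq_iff, inv_smul_eq_iff] at h1
    exact h1
  -- `s τ = c + 1`
  have hsτ : s τ = c + 1 := by
    obtain ⟨y, hy⟩ := exists_ne (0 : Y)
    have h1 := hY τ y
    have h2 : τ⁻¹ • y = c⁻¹ • y := by
      rw [inv_smul_eq_iff, s44r_smul_zmod, hτY, smul_smul, inv_mul_cancel₀ hc0, one_smul]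
    rw [hτY, h2, smul_smul, mul_inv_cancel₀ hc0, one_smul] at h1
    have h3 : ((c + 1) - s τ) • y = 0 := by rw [sub_smul, add_smul, one_smul, h1, sub_self]
    rcases smul_eq_zero.mp h3 with h4 | h4
    · exact (sub_eq_zero.mp h4).symm
    · exact absurd h4 hy
  -- `(τ - 1)(τ - c) = 0` on `V`
  have hquad : ∀ v : V, τ • (τ • v - c • v) = τ • v - c • v := by
    intro v
    have h1 := hV τ (τ • v)
    rw [inv_smul_smul, hsτ, add_smul, one_smul] at h1
    rw [smul_sub, s44r_smul_zmod]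
    have h2 : τ • τ • v = c • τ • v + τ • v - c • v := by rw [← h1]; abel
    rw [h2]; abel
  -- the fixed space of `τ`
  let Kτ : Submodule (ZMod p) V :=
    { carrier := {v | τ • v = v}
      zero_mem' := smul_zero τ
      add_mem' := fun {a b} ha hb => by
        show τ • (a + b) = a + b
        rw [smul_add, ha, hb]
      smul_mem' := fun c v hv => by
        show τ • (c • v) = c • v
        rw [s44r_smul_zmod, hv] }
  have hKstab : ∀ (g : G), ∀ v ∈ Kτ, g • v ∈ Kτ := by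
    intro g v hv
    show τ • g • v = g • v
    rw [hcomm, hv]
  -- every `g` is scalar on `V`
  have hscal : ∀ g : G, ∃ c' : ZMod p, ∀ v : V, g • v = c' • v := by
    rcases hirr Kτ hKstab with hbot | htop
    · -- `τ = c` on `V`
      have hτV : ∀ v : V, τ • v = c • v := by
        intro v
        have h1 : τ • v - c • v ∈ Kτ := hquad v
        rw [hbot, Submodule.mem_bot] at h1
        exact sub_eq_zero.mp h1
      have hτV' : ∀ v : V, τ⁻¹ • v = c⁻¹ • v := fun v => by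
        rw [inv_smul_eq_iff, s44r_smul_zmod, hτV, smul_smul, inv_mul_cancel₀ hc0, one_smul]
      intro g
      have hu : c - 1 ≠ 0 := sub_ne_zero.mpr hχτ
      refine ⟨(c - 1)⁻¹ * (s (g * τ) - s g), fun v => ?_⟩
      have h1 := hV g v
      have h2 := hV (g * τ) v
      rw [mul_smul, hτV, s44r_smul_zmod, mul_inv_rev, mul_smul, hτV', map_mul, Units.val_mul,
        smul_smul, mul_assoc, mul_inv_cancel₀ hc0, mul_one] at h2
      have h3 : (c - 1) • g • v = (s (g * τ) - s g) • v := by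
        rw [sub_smul, sub_smul, one_smul, ← h2, ← h1]
        abel
      rw [mul_smul, ← h3, smul_smul, inv_mul_cancel₀ hu, one_smul]
    · -- `τ = 1` on `V`
      have hτV : ∀ v : V, τ • v = v := by
        intro v
        have : v ∈ Kτ := by rw [htop]; exact Submodule.mem_top
        exact this
      have hτV' : ∀ v : V, τ⁻¹ • v = v := fun v => by rw [inv_smul_eq_iff, hτV]
      have hscal' : ∀ g : G, ∃ c' : ZMod p, ∀ v : V, g⁻¹ • v = c' • v := by
        intro g
        have hu : ((χ g : ZMod p) * (c - 1)) ≠ 0 :=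
          mul_ne_zero (Units.ne_zero _) (sub_ne_zero.mpr hχτ)
        refine ⟨((χ g : ZMod p) * (c - 1))⁻¹ * (s (g * τ) - s g), fun v => ?_⟩
        have h1 := hV g v
        have h2 := hV (g * τ) v
        rw [mul_smul, hτV, mul_inv_rev, mul_smul, hτV', map_mul, Units.val_mul] at h2
        have h3 : ((χ g : ZMod p) * (c - 1)) • g⁻¹ • v = (s (g * τ) - s g) • v := by
          rw [mul_sub, mul_one, sub_smul, sub_smul, ← h2, ← h1]
          abel
        rw [mul_smul, ← h3, smul_smul, inv_mul_cancel₀ hu, one_smul]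
      intro g
      obtain ⟨c', hc'⟩ := hscal' g⁻¹
      rw [inv_inv] at hc'
      exact ⟨c', hc'⟩
  -- a stable line
  obtain ⟨v₀, hv₀⟩ := exists_ne (0 : V)
  have hline : ∀ (g : G), ∀ x ∈ Submodule.span (ZMod p) {v₀},
      g • x ∈ Submodule.span (ZMod p) {v₀} := by
    intro g x hx
    obtain ⟨c', hc'⟩ := hscal g
    rw [hc']
    exact Submodule.smul_mem _ _ hx
  have hspan : Submodule.span (ZMod p) {v₀} = ⊤ := by
    rcases hirr _ hline with h | h
    · exfalso
      have : v₀ ∈ Submodule.span (ZMod p) {v₀} := Submodule.mem_span_singleton_self v₀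
      rw [h, Submodule.mem_bot] at this
      exact hv₀ this
    · exact h
  have hsurj : Function.Surjective (fun c' : ZMod p => c' • v₀) := by
    intro v
    have : v ∈ Submodule.span (ZMod p) {v₀} := by rw [hspan]; exact Submodule.mem_top
    obtain ⟨c', hc'⟩ := Submodule.mem_span_singleton.mp this
    exact ⟨c', hc'⟩
  have hle : Nat.card V ≤ Nat.card (ZMod p) := Nat.card_le_card_of_surjective _ hsurj
  rw [hcard, Nat.card_zmod] at hle
  have : p < p ^ 2 := by
    calc p = p ^ 1 := (pow_one p).symm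
      _ < p ^ 2 := Nat.pow_lt_pow_right hp2 (by norm_num)
  omega

end Abs

section Sub

variable {p : ℕ} [hp : Fact p.Prime] {G : Type*} [Group G]
  {J : Type*} [AddCommGroup J] [DistribMulAction G J]
  {V : Type*} [AddCommGroup V] [DistribMulAction G V] [Module (ZMod p) V]

/-- **[L7b_W], subgroup form**: `Y₁` a `G`-stable `p`-torsion subgroup of an abelian group `J` with
`G`-action, all relations with integer coefficients. -/
theorem s59b_endgame_sub (Y₁ : AddSubgroup J) (hY₁p : ∀ y ∈ Y₁, p • y = 0)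
    (hY₁G : ∀ (g : G), ∀ y ∈ Y₁, g • y ∈ Y₁) (hY₁ne : ∃ y ∈ Y₁, y ≠ 0)
    (χ : G →* (ZMod p)ˣ)
    (hrel : ∀ g : G, ∃ s : ℤ,
      (∀ y ∈ Y₁, g • y + ((χ g : ZMod p).val) • g⁻¹ • y = s • y) ∧
      (∀ v : V, g • v + ((χ g : ZMod p).val) • g⁻¹ • v = s • v))
    [Finite V]
    (hirr : ∀ N : Submodule (ZMod p) V, (∀ (g : G), ∀ x ∈ N, g • x ∈ N) → N = ⊥ ∨ N = ⊤)
    (hcard : Nat.card V = p ^ 2)
    (τ : G) (hχτ : (χ τ : ZMod p) ≠ 1)
    (hτY : ∀ y ∈ Y₁, τ • y = ((χ τ : ZMod p).val) • y) : False := by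
  classical
  letI iSM : SMul G ↥Y₁ := ⟨fun g y => ⟨g • (y : J), hY₁G g y y.2⟩⟩
  have hc : ∀ (g : G) (z : ↥Y₁), ((g • z : ↥Y₁) : J) = g • (z : J) := fun _ _ => rfl
  letI iDMA : DistribMulAction G ↥Y₁ :=
    Function.Injective.distribMulAction Y₁.subtype Subtype.val_injective (fun _ _ => rfl)
  letI iMod : Module (ZMod p) ↥Y₁ := AddCommGroup.zmodModule (fun y => Subtype.ext (by
    rw [AddSubgroup.coe_nsmul, AddSubgroup.coe_zero]; exact hY₁p y y.2))
  haveI : Nontrivial ↥Y₁ := by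
    obtain ⟨y, hy, hy0⟩ := hY₁ne
    exact ⟨⟨⟨y, hy⟩, 0, fun h => hy0 (congrArg Subtype.val h)⟩⟩
  choose s hsY hsV using hrel
  refine s59b_endgame_abs (Y := ↥Y₁) (V := V) χ (fun g => ((s g : ℤ) : ZMod p)) ?_ ?_ hirr hcard τ
    hχτ ?_
  · intro g y
    rw [s44r_zmod_smul_val, Int.cast_smul_eq_zsmul]
    apply Subtype.ext
    rw [AddSubgroup.coe_add, AddSubgroup.coe_nsmul, hc, hc, AddSubgroup.coe_zsmul]
    exact hsY g (y : J) y.2
  · intro g v
    rw [s44r_zmod_smul_val, Int.cast_smul_eq_zsmul]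
    exact hsV g v
  · intro y
    rw [s44r_zmod_smul_val]
    apply Subtype.ext
    rw [AddSubgroup.coe_nsmul, hc]
    exact hτY (y : J) y.2

end Sub

/-! ### [L7a_W] -/

/-- **[L7a_W]** -/
theorem s59b_fixedNeW : s59b_FixedNeW := by
  intro p hp hp2 W hΔ N _ B hB hbad L hfd hnorm hsplit hex
  classical
  haveI : Fact p.Prime := ⟨hp⟩
  haveI : NeZero p := ⟨hp.ne_zero⟩
  set a : ℕ → ℤ := fun ℓ => W.apOfModel ℓ with ha
  set Y : Submodule ℤ (JZero N) := s44s_Y N p B a with hY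
  have hstab : s33r_Stable N p B Y := s44s_Y_stable N p B a
  -- membership of `p`, the primes of `N` and the bad primes in `B`
  have hpB : p ∈ B := hB p hp (Dvd.intro_left N rfl)
  have hNB : ∀ q : ℕ, q.Prime → q ∣ N → q ∈ B := fun q hq hqN =>
    hB q hq (Dvd.dvd.mul_right hqN p)
  have hΔB : ∀ q : ℕ, q.Prime → (q : ℤ) ∣ W.Δ → q ∈ B := fun q hq hqΔ =>
    hbad q hq (fun hgood => hgood hqΔ)
  -- finiteness of `Y`
  haveI : Finite ↥Y := by
    haveI := s30a_finite_torsion (N := N) p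
    refine Finite.of_injective
      (fun y : ↥Y => (⟨(y : JZero N), by
        rw [AlgebraicCurve.Pic0.mem_torsion, natCast_zsmul]; exact y.2.1⟩ : s29k_Jp N p)) ?_
    intro y y' h
    exact Subtype.ext (congrArg (fun z : s29k_Jp N p => (z : JZero N)) h)
  -- a point of exact order `p` on `W`
  obtain ⟨Q₀, hQ₀, hQ₀'⟩ := s58o_ellExact W hΔ p hp 0
  rw [zero_add, pow_one] at hQ₀
  rw [pow_zero, one_smul] at hQ₀'
  -- the unipotency of the elements fixing `L`
  have hunip : ∀ h ∈ L.fixingSubgroup, ∀ y ∈ Y, h • h • y + y = 2 • h • y := by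
    intro h hh y hy
    have hfix : ∀ x ∈ L, h x = x := (IntermediateField.mem_fixingSubgroup_iff L h).mp hh
    obtain ⟨hV, hμ⟩ := hsplit h hfix
    have hfix' : ∀ x ∈ L, h⁻¹ x = x := fun x hx => by
      have := hfix x hx
      calc h⁻¹ x = h⁻¹ (h x) := by rw [this]
        _ = x := by rw [← AlgEquiv.mul_apply, inv_mul_cancel, AlgEquiv.one_apply]
    obtain ⟨hV', -⟩ := hsplit h⁻¹ hfix'
    -- `χ h = 1`
    have hχ : (((s33r_chi p h : (ZMod p)ˣ) : ZMod p)) = 1 := by
      have := s33r_chi_eq_of_acts p h 1 (fun ζ hζ => by rw [pow_one]; exact hμ ζ hζ)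
      rw [← this, Nat.cast_one]
    have hn : (((s33r_chi p h : (ZMod p)ˣ) : ZMod p)).val = 1 := by
      rw [hχ]
      haveI : Fact (1 < p) := ⟨hp.one_lt⟩
      exact ZMod.val_one p
    obtain ⟨s, hsY, hsW⟩ := s44s_dens W hΔ hp2 hpB hNB hΔB hstab
      (fun ℓ hℓ y hy => s44s_Y_eig N p B a ℓ hℓ y hy) h
    rw [hn] at hsY hsW
    -- `s ≡ 2 mod p`
    have hQh : h • Q₀ = Q₀ := hV Q₀ hQ₀
    have hQh' : h⁻¹ • Q₀ = Q₀ := hV' Q₀ hQ₀
    have h2 := hsW Q₀ hQ₀
    rw [hQh, hQh', one_smul] at h2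
    have h3 : (s - 2) • Q₀ = 0 := by
      rw [sub_smul, ← h2, two_smul]
      abel
    obtain ⟨c, hc⟩ := s44s_dvd_of_zsmul_eq_zero hp hQ₀ hQ₀' h3
    -- the relation on `Y` at `h • y`
    have hy' : h • y ∈ Y := hstab.gal h y hy
    have h4 := hsY (h • y) hy'
    rw [inv_smul_smul, one_smul] at h4
    have hs : s = 2 + (p : ℤ) * c := by rw [← hc]; ring
    have h5 : s • (h • y) = 2 • (h • y) := by
      rw [hs, add_zsmul, mul_zsmul', natCast_zsmul, hstab.tors (h • y) hy', zsmul_zero,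
        add_zero]
      exact ofNat_zsmul _ 2
    rw [h4, h5]
  obtain ⟨x, hx0, hx⟩ := hex
  obtain ⟨y, hyY, hy0, hyfix⟩ := s44s_fixed_ne p hstab.gal hstab.tors ⟨x, hx, hx0⟩
    L.fixingSubgroup hunip
  exact ⟨y, hy0, hyY, fun σ hσ =>
    hyfix σ ((IntermediateField.mem_fixingSubgroup_iff L σ).mpr hσ)⟩

/-! ### [L7b_W] -/

/-- **[L7b_W]**. -/
theorem s59b_endgameW : s59b_EndgameW := by
  intro p hp hp2 W hΔ hirr N _ B hB hbad L hfd hnorm hsplit A hA hex hmu
  classical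
  haveI : Fact p.Prime := ⟨hp⟩
  haveI : NeZero p := ⟨hp.ne_zero⟩
  set a : ℕ → ℤ := fun ℓ => W.apOfModel ℓ with ha
  set Y : Submodule ℤ (JZero N) := s44s_Y N p B a with hY
  have hstab : s33r_Stable N p B Y := s44s_Y_stable N p B a
  have hpB : p ∈ B := hB p hp (Dvd.intro_left N rfl)
  have hNB : ∀ q : ℕ, q.Prime → q ∣ N → q ∈ B := fun q hq hqN =>
    hB q hq (Dvd.dvd.mul_right hqN p)
  have hΔB : ∀ q : ℕ, q.Prime → (q : ℤ) ∣ W.Δ → q ∈ B := fun q hq hqΔ =>
    hbad q hq (fun hgood => hgood hqΔ)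
  -- the `L`-rational part of `Y`
  let Y₁ : AddSubgroup (JZero N) :=
    { carrier := {x | x ∈ Y ∧ ∀ σ : Γℚ, (∀ a ∈ L, σ a = a) → σ • x = x}
      zero_mem' := ⟨Y.zero_mem, fun σ _ => smul_zero σ⟩
      add_mem' := fun {x y} hx hy =>
        ⟨Y.add_mem hx.1 hy.1, fun σ hσ => by rw [smul_add, hx.2 σ hσ, hy.2 σ hσ]⟩
      neg_mem' := fun {x} hx =>
        ⟨Y.neg_mem hx.1, fun σ hσ => by rw [smul_neg, hx.2 σ hσ]⟩ }
  have hY₁p : ∀ y ∈ Y₁, p • y = 0 := fun y hy => hstab.tors y hy.1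
  have hY₁G : ∀ (g : Γℚ), ∀ y ∈ Y₁, g • y ∈ Y₁ := by
    intro g y hy
    refine ⟨hstab.gal g y hy.1, fun σ hσ => ?_⟩
    have hconj : ∀ a ∈ L, (g⁻¹ * σ * g) a = a := by
      intro a ha
      have h1 : g a ∈ L := s44r_normal_mem L hnorm g a ha
      rw [AlgEquiv.mul_apply, AlgEquiv.mul_apply, hσ (g a) h1, ← AlgEquiv.mul_apply,
        inv_mul_cancel, AlgEquiv.one_apply]
    have h2 := hy.2 (g⁻¹ * σ * g) hconj
    rw [mul_smul, mul_smul, inv_smul_eq_iff] at h2
    exact h2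
  have hY₁ne : ∃ y ∈ Y₁, y ≠ 0 := by
    obtain ⟨x, hx0, hx, hxfix⟩ := hex
    exact ⟨x, ⟨hx, hxfix⟩, hx0⟩
  -- `V`
  haveI := s58o_isElliptic W hΔ
  have hcard : Nat.card (Submodule.torsionBy ℤ (s58_Pt W) p) = p ^ 2 := by
    have : ((W.map (Int.castRingHom ℚ)).baseChange Kb).IsElliptic :=
      inferInstanceAs (((W.map (Int.castRingHom ℚ)).map (algebraMap ℚ Kb)).IsElliptic)
    exact ent_natCard_torsionBy ((W.map (Int.castRingHom ℚ)).baseChange Kb) p hp.one_le
  haveI hfin : Finite (Submodule.torsionBy ℤ (s58_Pt W) p) := by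
    apply Nat.finite_of_card_ne_zero
    rw [hcard]; exact pow_ne_zero 2 hp.ne_zero
  -- the relations
  have hrel : ∀ g : Γℚ, ∃ s : ℤ,
      (∀ y ∈ Y₁, g • y + (((s33r_chi p g : (ZMod p)ˣ) : ZMod p).val) • g⁻¹ • y = s • y) ∧
      (∀ v : Submodule.torsionBy ℤ (s58_Pt W) p,
        g • v + (((s33r_chi p g : (ZMod p)ˣ) : ZMod p).val) • g⁻¹ • v = s • v) := by
    intro g
    obtain ⟨s, hsY, hsW⟩ := s44s_dens W hΔ hp2 hpB hNB hΔB hstab
      (fun ℓ hℓ y hy => s44s_Y_eig N p B a ℓ hℓ y hy) g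
    refine ⟨s, fun y hy => hsY y hy.1, fun v => ?_⟩
    have hv : p • (v : s58_Pt W) = 0 := by
      have := (Submodule.mem_torsionBy_iff _ _).mp v.2
      rwa [natCast_zsmul] at this
    apply Subtype.ext
    exact hsW (v : s58_Pt W) hv
  -- the inertia element
  obtain ⟨τ, hτI, hτμ, hχτ⟩ := s33r_exists_tau (p := p) hp2 A hA
  have hχ2 : (((s33r_chi p τ : (ZMod p)ˣ) : ZMod p)).val = 2 := by
    rw [← s33r_chi_eq_of_acts p τ 2 hτμ]
    have h3 : 3 ≤ p := by
      have := hp.two_le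
      omega
    exact ZMod.val_natCast_of_lt (by omega)
  have hτY : ∀ y ∈ Y₁, τ • y = (((s33r_chi p τ : (ZMod p)ˣ) : ZMod p).val) • y := by
    intro y hy
    rw [hχ2]
    exact hmu y hy.1 hy.2 τ hτI 2 hτμ
  exact s59b_endgame_sub (p := p) (G := Γℚ) (J := JZero N)
    (V := Submodule.torsionBy ℤ (s58_Pt W) p) Y₁ hY₁p hY₁G hY₁ne
    (s33r_chi p) hrel (fun N' hN' => hirr.2 N' hN') hcard τ hχτ hτY

end

end Fermat.Agent.Lib.S59
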