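/-
PROGRAMME (R2) = S59, node [MRP_W], leaf [L6_W] `s59b_WSideW`, sub-node **(S0) THE SPLITTING FIELD**
(helper2, prefix `s59b_`): for a Weierstrass curve `W / ℤ` with `Δ ≠ 0` and an odd prime `p`,
`s59b_L W p = ℚ(x(Q), y(Q) : Q ∈ W[p](ℚ̄); μ_p) ⊂ ℚ̄` is finite, normal, splits `W[p]` and `μ_p`
(`s59b_SplitsW`) and `p² ∤ [L : ℚ]`.  Port of main's `Lib/S44/WField.lean` (helper6) and
`Lib/S44/SoftCardL.lean` to a general `W` (no `√D`).
-/
import Fermat.Agent.Lib.S59.BMrpGraph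
import Fermat.Agent.Lib.S44.SoftCardL

set_option autoImplicit false
set_option linter.unusedSectionVars false
set_option linter.style.haveILetI false

namespace Fermat.Agent.Lib.S59

open WeierstrassCurve WeierstrassCurve.Affine WeierstrassCurve.Affine.Point
  Fermat.Agent.Lib.S13 Fermat.Agent.Lib.EN Fermat.Agent.Lib.S33 Fermat.Agent.Lib.S30
  Fermat.Agent.Lib.S44 Fermat.Agent.Lib.S58

local notation "Kb" => AlgebraicClosure ℚ
local notation "Γℚ" => (AlgebraicClosure ℚ ≃ₐ[ℚ] AlgebraicClosure ℚ)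

noncomputable section

/-- the coordinates of the `p`-torsion points of `W` over `ℚ̄`. -/
def s59b_coords (W : WeierstrassCurve ℤ) (p : ℕ) : Set Kb :=
  {a | ∃ (X Y : Kb) (h : ((W.map (Int.castRingHom ℚ))⁄Kb).Nonsingular X Y),
    p • (Point.some X Y h : s58_Pt W) = 0 ∧ (a = X ∨ a = Y)}

/-- the generators of the splitting field. -/
def s59b_gens (W : WeierstrassCurve ℤ) (p : ℕ) : Set Kb :=
  s59b_coords W p ∪ {ζ | ζ ^ p = 1}

/-- **the splitting field** `ℚ(W[p], μ_p)`. -/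
def s59b_L (W : WeierstrassCurve ℤ) (p : ℕ) : IntermediateField ℚ Kb :=
  IntermediateField.adjoin ℚ (s59b_gens W p)

theorem s59b_coord_mem (W : WeierstrassCurve ℤ) (p : ℕ) {X Y : Kb}
    (h : ((W.map (Int.castRingHom ℚ))⁄Kb).Nonsingular X Y)
    (htor : p • (Point.some X Y h : s58_Pt W) = 0) :
    X ∈ s59b_L W p ∧ Y ∈ s59b_L W p :=
  ⟨IntermediateField.subset_adjoin _ _ (Or.inl ⟨X, Y, h, htor, Or.inl rfl⟩),
    IntermediateField.subset_adjoin _ _ (Or.inl ⟨X, Y, h, htor, Or.inr rfl⟩)⟩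

theorem s59b_zeta_mem (W : WeierstrassCurve ℤ) (p : ℕ) {ζ : Kb} (hζ : ζ ^ p = 1) :
    ζ ∈ s59b_L W p :=
  IntermediateField.subset_adjoin _ _ (Or.inr hζ)

/-- `#W[p](ℚ̄) = p²`. -/
theorem s59b_card_tors (W : WeierstrassCurve ℤ) (hΔ : W.Δ ≠ 0) (p : ℕ) (hp : p.Prime) :
    Nat.card (Submodule.torsionBy ℤ (s58_Pt W) p) = p ^ 2 := by
  haveI := s58o_isElliptic W hΔ
  have : ((W.map (Int.castRingHom ℚ)).baseChange Kb).IsElliptic :=
    inferInstanceAs (((W.map (Int.castRingHom ℚ)).map (algebraMap ℚ Kb)).IsElliptic)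
  exact ent_natCard_torsionBy ((W.map (Int.castRingHom ℚ)).baseChange Kb) p hp.one_le

theorem s59b_finite_tors (W : WeierstrassCurve ℤ) (hΔ : W.Δ ≠ 0) (p : ℕ) (hp : p.Prime) :
    Finite (Submodule.torsionBy ℤ (s58_Pt W) p) := by
  apply Nat.finite_of_card_ne_zero
  rw [s59b_card_tors W hΔ p hp]
  exact pow_ne_zero 2 hp.ne_zero

theorem s59b_mem_tors (W : WeierstrassCurve ℤ) (p : ℕ) {Q : s58_Pt W} (h : p • Q = 0) :
    Q ∈ Submodule.torsionBy ℤ (s58_Pt W) (p : ℤ) := by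
  rw [Submodule.mem_torsionBy_iff, natCast_zsmul]
  exact h

theorem s59b_coords_finite (W : WeierstrassCurve ℤ) (hΔ : W.Δ ≠ 0) (p : ℕ) (hp : p.Prime) :
    (s59b_coords W p).Finite := by
  classical
  haveI := s59b_finite_tors W hΔ p hp
  have hfin : (Set.range (fun q : Submodule.torsionBy ℤ (s58_Pt W) p × Bool =>
      s44w_xy q.2 (q.1 : s58_Pt W))).Finite := Set.finite_range _
  refine hfin.subset ?_
  rintro a ⟨X, Y, h, htor, ha⟩
  rcases ha with rfl | rfl
  · exact ⟨(⟨_, s59b_mem_tors W p htor⟩, true), rfl⟩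
  · exact ⟨(⟨_, s59b_mem_tors W p htor⟩, false), rfl⟩

theorem s59b_gens_finite (W : WeierstrassCurve ℤ) (hΔ : W.Δ ≠ 0) (p : ℕ) (hp : p.Prime) :
    (s59b_gens W p).Finite := by
  refine (s59b_coords_finite W hΔ p hp).union ?_
  refine (Polynomial.nthRoots p (1 : Kb)).toFinset.finite_toSet.subset ?_
  intro ζ hζ
  rw [Finset.mem_coe, Multiset.mem_toFinset, Polynomial.mem_nthRoots hp.pos]
  exact hζ

theorem s59b_L_finite (W : WeierstrassCurve ℤ) (hΔ : W.Δ ≠ 0) (p : ℕ) (hp : p.Prime) :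
    FiniteDimensional ℚ (s59b_L W p) := by
  have : Finite (s59b_gens W p) := (s59b_gens_finite W hΔ p hp).to_subtype
  exact IntermediateField.finiteDimensional_adjoin
    (fun x _ => (Algebra.IsIntegral.isIntegral (R := ℚ) x))

/-- the Galois action on an affine point. -/
theorem s59b_smul_some (W : WeierstrassCurve ℤ) (σ : Γℚ) {X Y : Kb}
    (h : ((W.map (Int.castRingHom ℚ))⁄Kb).Nonsingular X Y) :
    ∃ h' : ((W.map (Int.castRingHom ℚ))⁄Kb).Nonsingular (σ X) (σ Y),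
      σ • (Point.some X Y h : s58_Pt W) = Point.some (σ X) (σ Y) h' := by
  rw [algEquiv_smul_def, Affine.Point.map_some]
  exact ⟨_, rfl⟩

theorem s59b_smul_nsmul (W : WeierstrassCurve ℤ) (σ : Γℚ) (n : ℕ) (Q : s58_Pt W) :
    σ • (n • Q) = n • (σ • Q) :=
  map_nsmul (DistribSMul.toAddMonoidHom (s58_Pt W) σ) n Q

/-- the generators are stable under `Gal(ℚ̄/ℚ)`. -/
theorem s59b_gens_stable (W : WeierstrassCurve ℤ) (p : ℕ) (σ : Γℚ) {a : Kb}
    (ha : a ∈ s59b_gens W p) : σ a ∈ s59b_gens W p := by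
  rcases ha with ⟨X, Y, h, htor, ha⟩ | ha
  · left
    obtain ⟨h', hσ⟩ := s59b_smul_some W σ h
    have htor' : p • (σ • (Point.some X Y h : s58_Pt W)) = 0 := by
      rw [← s59b_smul_nsmul, htor]
      exact smul_zero (A := s58_Pt W) σ
    rw [hσ] at htor'
    refine ⟨_, _, h', htor', ?_⟩
    rcases ha with rfl | rfl
    · exact Or.inl rfl
    · exact Or.inr rfl
  · right
    change (σ a) ^ p = 1
    rw [← map_pow, ha, map_one]

theorem s59b_L_normal (W : WeierstrassCurve ℤ) (p : ℕ) : Normal ℚ (s59b_L W p) := by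
  have h : @Normal ℚ (s59b_L W p) _ _ (IntermediateField.algebra' _) := by
    rw [IntermediateField.normal_iff_forall_map_le']
    intro σ
    rw [s59b_L, IntermediateField.adjoin_map, IntermediateField.adjoin_le_iff]
    rintro _ ⟨a, ha, rfl⟩
    exact IntermediateField.subset_adjoin _ _ (s59b_gens_stable W p σ ha)
  convert h
  exact Subsingleton.elim _ _

theorem s59b_L_splits (W : WeierstrassCurve ℤ) (p : ℕ) : s59b_SplitsW W p (s59b_L W p) := by
  intro σ hσ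
  refine ⟨fun Q htor => ?_, fun ζ hζ => hσ ζ (s59b_zeta_mem W p hζ)⟩
  rcases Q with _ | ⟨X, Y, h⟩
  · exact smul_zero (A := s58_Pt W) σ
  · obtain ⟨hX, hY⟩ := s59b_coord_mem W p h htor
    obtain ⟨h', hσQ⟩ := s59b_smul_some W σ h
    rw [hσQ]
    exact Fermat.Agent.Lib.Frey.fvc_some_congr (hσ X hX) (hσ Y hY) _ _

/-! ### `p² ∤ [L : ℚ]` -/

section Card

variable (W : WeierstrassCurve ℤ) (p : ℕ) [hpF : Fact p.Prime]

/-- `φ = (σ|_{W[p]}, χ_p(σ), 1)`. -/
def s59b_phiL : Γℚ →*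
    (Submodule.torsionBy ℤ (s58_Pt W) p ≃ₗ[ZMod p] Submodule.torsionBy ℤ (s58_Pt W) p) ×
      (ZMod p)ˣ × Unit :=
  (s44s_rho p Γℚ (Submodule.torsionBy ℤ (s58_Pt W) p)).prod ((s33r_chi p).prod 1)

/-- an element of `ker φ` fixes every generator of `L`. -/
theorem s59b_fix_gens (σ : Γℚ) (hσ : s59b_phiL W p σ = 1) {a : Kb} (ha : a ∈ s59b_gens W p) :
    σ a = a := by
  have h1 : s44s_rho p Γℚ (Submodule.torsionBy ℤ (s58_Pt W) p) σ = 1 := congrArg Prod.fst hσ
  have h2 : s33r_chi p σ = 1 := congrArg (fun z => z.2.1) hσ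
  rcases ha with ⟨X, Y, h, htor, ha⟩ | ha
  · have hmem := s59b_mem_tors W p htor
    have h4 : s44s_rho p Γℚ (Submodule.torsionBy ℤ (s58_Pt W) p) σ ⟨_, hmem⟩ =
        (⟨_, hmem⟩ : Submodule.torsionBy ℤ (s58_Pt W) p) := by
      rw [h1]
      rfl
    have h5 : σ • (Point.some X Y h : s58_Pt W) = Point.some X Y h := congrArg Subtype.val h4
    rw [algEquiv_smul_def, Affine.Point.map_some] at h5
    have h6 := Point.some.inj h5
    rcases ha with rfl | rfl
    · exact h6.1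
    · exact h6.2
  · exact s44s_fix_mu_of_chi p σ h2 a ha

/-- `ker φ ≤ Gal(ℚ̄/L)`. -/
theorem s59b_ker_le (σ : Γℚ) (hσ : s59b_phiL W p σ = 1) : ∀ a ∈ s59b_L W p, σ a = a := by
  intro a ha
  unfold s59b_L at ha
  induction ha using IntermediateField.adjoin_induction with
  | mem x hx => exact s59b_fix_gens W p σ hσ hx
  | algebraMap x => exact σ.commutes x
  | add x y _ _ hx hy => rw [map_add, hx, hy]
  | inv x _ hx => rw [map_inv₀, hx]
  | mul x y _ _ hx hy => rw [map_mul, hx, hy]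

/-- **`p² ∤ [L : ℚ]`** for `L = ℚ(W[p], μ_p)`, `p` odd. -/
theorem s59b_not_sq_dvd_finrank_L (hΔ : W.Δ ≠ 0) (hp2 : p ≠ 2) :
    ¬ p ^ 2 ∣ Module.finrank ℚ ↥(s59b_L W p) := by
  classical
  have hp : p.Prime := hpF.out
  haveI hfin : FiniteDimensional ℚ ↥(s59b_L W p) := s59b_L_finite W hΔ p hp
  haveI hnorm : Normal ℚ ↥(s59b_L W p) := s59b_L_normal W p
  haveI hgal : IsGalois ℚ ↥(s59b_L W p) := ⟨⟩
  have hcard : Nat.card (Submodule.torsionBy ℤ (s58_Pt W) p) = p ^ 2 := s59b_card_tors W hΔ p hp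
  haveI hVfin : Finite (Submodule.torsionBy ℤ (s58_Pt W) p) := s59b_finite_tors W hΔ p hp
  have hV : Module.finrank (ZMod p) (Submodule.torsionBy ℤ (s58_Pt W) p) = 2 := by
    have h1 := Module.natCard_eq_pow_finrank (K := ZMod p)
      (V := Submodule.torsionBy ℤ (s58_Pt W) p)
    rw [hcard, Nat.card_zmod] at h1
    exact (Nat.pow_right_injective hp.two_le h1).symm
  set res : Γℚ →* (↥(s59b_L W p) ≃ₐ[ℚ] ↥(s59b_L W p)) :=
    AlgEquiv.restrictNormalHom (F := ℚ) (K₁ := Kb) ↥(s59b_L W p) with hres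
  have hsurj : Function.Surjective res := AlgEquiv.restrictNormalHom_surjective Kb
  have hker : (s59b_phiL W p).ker ≤ res.ker := by
    intro σ hσ
    rw [MonoidHom.mem_ker] at hσ
    rw [MonoidHom.mem_ker]
    ext x
    have h0 := AlgEquiv.restrictNormal_commutes σ ↥(s59b_L W p) x
    have h1 : σ (algebraMap ↥(s59b_L W p) Kb x) = algebraMap ↥(s59b_L W p) Kb x :=
      s59b_ker_le W p σ hσ _ x.2
    rw [h1] at h0
    exact h0
  have h1 : res.ker.index = Module.finrank ℚ ↥(s59b_L W p) := by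
    rw [Subgroup.index_ker, MonoidHom.range_eq_top.mpr hsurj, Subgroup.card_top,
      IsGalois.card_aut_eq_finrank]
  have h2 : (s59b_phiL W p).ker.index = Nat.card (s59b_phiL W p).range := Subgroup.index_ker _
  have h3 : res.ker.index ∣ (s59b_phiL W p).ker.index := Subgroup.index_dvd_of_le hker
  haveI : Finite (ZMod p)ˣ := inferInstance
  have hC : Nat.card (ZMod p)ˣ ∣ p - 1 := by
    rw [Nat.card_eq_fintype_card, ZMod.card_units_eq_totient, Nat.totient_prime hp]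
  have hD : Nat.card Unit ∣ 2 := by
    rw [Nat.card_unique]
    exact one_dvd 2
  have h4 := s44s_card_not_sq_dvd p hp2 hV hC hD
    (s59b_phiL W p).range.subtype (Subgroup.subtype_injective _)
  intro hdvd
  apply h4
  rw [← h2]
  exact (h1 ▸ hdvd).trans h3

end Card

end

end Fermat.Agent.Lib.S59
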