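/-
PROGRAMME (R2) = S59, node [MRP_W], leaf **[L6_W] `s59b_WSideW p` PROVED for `p ∈ {3, 5}`**
(helper2, prefix `s59b_`): for `W / ℤ` with good reduction at `p` and a place `A ∣ p` of `ℚ̄`, the field
`L = s59b_L W p = ℚ(W[p], μ_p)` (`BWField.lean`) is finite, normal, splits `W[p]` and `μ_p`, and is
sub-critically ramified at `A` (`s44i_SubCrit`).

Assembly of (S0) `BWField`, (S3) `BTorsVal`, (S2)+(S4) `BDisp`, (S5) `BImprove`/`BImproveInst`:
an inertia element `τ` of order `p` on `L` fixes `μ_p` (`χ(τ)^p = χ(τ)`), hence moves a `p`-torsion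
point `R = (X, Y)`; `τ R ≠ -R` (`p` odd); the displacement lemmas give `g₁ ∈ {X, Y, 1/X}` with the
bound required by `s59b_subCrit_of`.
Consequence (`s59b_MRPat_five`): **[MRP_W] at `p = 5`**, the `s59_MRP` clause for `p = 5`.
-/
import Fermat.Agent.Lib.S59.BWField
import Fermat.Agent.Lib.S59.BDisp
import Fermat.Agent.Lib.S59.BImproveInst
import Fermat.Agent.Lib.S59.BMrpSoft

set_option autoImplicit false
set_option linter.unusedSectionVars false
set_option linter.style.haveILetI false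
set_option synthInstance.maxHeartbeats 400000

namespace Fermat.Agent.Lib.S59

open WeierstrassCurve WeierstrassCurve.Affine WeierstrassCurve.Affine.Point
  Fermat.Agent.Lib.Frey Fermat.Agent.Lib.S33 Fermat.Agent.Lib.S44 Fermat.Agent.Lib.S58

local notation "Kb" => AlgebraicClosure ℚ
local notation "Γℚ" => (AlgebraicClosure ℚ ≃ₐ[ℚ] AlgebraicClosure ℚ)

noncomputable section

/-- an element of `G_ℚ` whose `p`-th power fixes `μ_p` fixes `μ_p`. -/
theorem s59b_tau_fix_mu (p : ℕ) [hpF : Fact p.Prime] (τ : Γℚ)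
    (hτp : ∀ ζ : Kb, ζ ^ p = 1 → (τ ^ p) ζ = ζ) (ζ : Kb) (hζ : ζ ^ p = 1) : τ ζ = ζ := by
  have h1 := s33r_chi_eq_of_acts p (τ ^ p) 1 (fun ξ hξ => by rw [pow_one]; exact hτp ξ hξ)
  rw [map_pow, Units.val_pow_eq_pow_val, ZMod.pow_card, Nat.cast_one] at h1
  have h2 : s33r_chi p τ = 1 := Units.ext (by rw [Units.val_one]; exact h1.symm)
  exact s44s_fix_mu_of_chi p τ h2 ζ hζ

/-- an automorphism which moves an element of `L` moves a generator. -/
theorem s59b_moves_gen (W : WeierstrassCurve ℤ) (p : ℕ) (τ : Γℚ)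
    (hmove : ∃ a ∈ s59b_L W p, τ a ≠ a) : ∃ a ∈ s59b_gens W p, τ a ≠ a := by
  by_contra hcon
  have hcon' : ∀ a ∈ s59b_gens W p, τ a = a := by
    intro a ha
    by_contra hne
    exact hcon ⟨a, ha, hne⟩
  have hall : ∀ a ∈ s59b_L W p, τ a = a := by
    intro a ha
    unfold s59b_L at ha
    induction ha using IntermediateField.adjoin_induction with
    | mem x hx => exact hcon' x hx
    | algebraMap x => exact τ.commutes x
    | add x y _ _ hx hy => rw [map_add, hx, hy]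
    | inv x _ hx => rw [map_inv₀, hx]
    | mul x y _ _ hx hy => rw [map_mul, hx, hy]
  obtain ⟨a, ha, hne⟩ := hmove
  exact hne (hall a ha)

/-- `τ ^ p = 1` on `L`, `p` odd: `τ` does not send a `p`-torsion point to its opposite unless it
fixes it. -/
theorem s59b_not_neg (W : WeierstrassCurve ℤ) (p : ℕ) (hp : p.Prime) (hp2 : p ≠ 2) (τ : Γℚ)
    (hτp : ∀ a ∈ s59b_L W p, (τ ^ p) a = a) (R : s58_Pt W) (hR : p • R = 0)
    (hneg : τ • R = -R) : τ • R = R := by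
  have h1 : (τ ^ p) • R = R := (s59b_L_splits W p (τ ^ p) hτp).1 R hR
  have h2 : τ • τ • R = R := by
    rw [hneg, smul_neg, hneg, neg_neg]
  obtain ⟨k, hk⟩ := hp.odd_of_ne_two hp2
  have h3 : ∀ n : ℕ, (τ ^ (2 * n)) • R = R := by
    intro n
    induction n with
    | zero => simp
    | succ n ih =>
      rw [Nat.mul_succ, pow_add, mul_smul, pow_two, mul_smul, h2, ih]
  rw [hk, pow_succ, mul_smul, hneg, smul_neg, h3 k] at h1
  rw [hneg, h1]

/-- integrality of `y` at a point with integral `x`. -/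
theorem s59b_y_int {K : Type*} [Field K] (v : AddValuation K (WithTop ℚ)) (W : WeierstrassCurve K)
    (h1 : 0 ≤ v W.a₁) (h2 : 0 ≤ v W.a₂) (h3 : 0 ≤ v W.a₃) (h4 : 0 ≤ v W.a₄) (h6 : 0 ≤ v W.a₆)
    {x y : K} (hx : 0 ≤ v x) (heq : W.toAffine.Equation x y) : 0 ≤ v y := by
  by_contra hy
  rw [not_le] at hy
  have hy0 : y ≠ 0 := (s59b_v_inv_pos v hy).1
  obtain ⟨s, hs⟩ := s59b_v_coe v hy0
  have hs0 : s < 0 := by
    rw [hs] at hy
    exact_mod_cast hy
  rw [Affine.equation_iff] at heq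
  have e : y * (y + (W.a₁ * x + W.a₃)) = x ^ 3 + W.a₂ * x ^ 2 + W.a₄ * x + W.a₆ := by
    linear_combination heq
  have hR : 0 ≤ v (x ^ 3 + W.a₂ * x ^ 2 + W.a₄ * x + W.a₆) := by
    refine s59b_v_add_ge v (s59b_v_add_ge v (s59b_v_add_ge v ?_ ?_) ?_) h6
    · rw [v.map_pow]
      exact nsmul_nonneg hx 3
    · refine s59b_v_mul_ge v h2 ?_
      rw [v.map_pow]
      exact nsmul_nonneg hx 2
    · exact s59b_v_mul_ge v h4 hx
  have hax : 0 ≤ v (W.a₁ * x + W.a₃) := s59b_v_add_ge v (s59b_v_mul_ge v h1 hx) h3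
  have h5 : v (y + (W.a₁ * x + W.a₃)) = v y := s59b_v_add_eq v (lt_of_lt_of_le hy hax)
  rw [← e, v.map_mul, h5, hs, ← WithTop.coe_add] at hR
  have : (0 : ℚ) ≤ s + s := by exact_mod_cast hR
  linarith

section Main

variable (W : WeierstrassCurve ℤ) (p : ℕ) (hp : p.Prime) (A : ValuationSubring Kb)
  (hA : A.LiesOverPrime p)

/-- the coefficients of `W_{ℚ̄}` are integral at `A`. -/
theorem s59b_curve_int :
    0 ≤ ford_vQ A hp hA ((W.map (Int.castRingHom ℚ))⁄Kb).a₁ ∧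
    0 ≤ ford_vQ A hp hA ((W.map (Int.castRingHom ℚ))⁄Kb).a₂ ∧
    0 ≤ ford_vQ A hp hA ((W.map (Int.castRingHom ℚ))⁄Kb).a₃ ∧
    0 ≤ ford_vQ A hp hA ((W.map (Int.castRingHom ℚ))⁄Kb).a₄ ∧
    0 ≤ ford_vQ A hp hA ((W.map (Int.castRingHom ℚ))⁄Kb).a₆ := by
  have e1 : ((W.map (Int.castRingHom ℚ))⁄Kb).a₁ = ((W.a₁ : ℤ) : Kb) := by
    simp [WeierstrassCurve.baseChange]
  have e2 : ((W.map (Int.castRingHom ℚ))⁄Kb).a₂ = ((W.a₂ : ℤ) : Kb) := by
    simp [WeierstrassCurve.baseChange]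
  have e3 : ((W.map (Int.castRingHom ℚ))⁄Kb).a₃ = ((W.a₃ : ℤ) : Kb) := by
    simp [WeierstrassCurve.baseChange]
  have e4 : ((W.map (Int.castRingHom ℚ))⁄Kb).a₄ = ((W.a₄ : ℤ) : Kb) := by
    simp [WeierstrassCurve.baseChange]
  have e6 : ((W.map (Int.castRingHom ℚ))⁄Kb).a₆ = ((W.a₆ : ℤ) : Kb) := by
    simp [WeierstrassCurve.baseChange]
  rw [e1, e2, e3, e4, e6]
  exact ⟨ford_vQ_intCast_nonneg hp hA _, ford_vQ_intCast_nonneg hp hA _,
    ford_vQ_intCast_nonneg hp hA _, ford_vQ_intCast_nonneg hp hA _, ford_vQ_intCast_nonneg hp hA _⟩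

/-- the discriminant of `W_{ℚ̄}`: non-zero, and a unit at `A` when `W` is good at `p`. -/
theorem s59b_curve_disc (hΔ : W.Δ ≠ 0) (hgood : W.IsGoodPrimeFor p) :
    ((W.map (Int.castRingHom ℚ))⁄Kb).Δ ≠ 0 ∧
      ¬ 0 < ford_vQ A hp hA ((W.map (Int.castRingHom ℚ))⁄Kb).Δ := by
  have e : ((W.map (Int.castRingHom ℚ))⁄Kb).Δ = ((W.Δ : ℤ) : Kb) := by
    simp [WeierstrassCurve.baseChange]
  rw [e]
  refine ⟨Int.cast_ne_zero.mpr hΔ, ?_⟩
  have h0 := ford_vQ_intCast hp hA (K := Kb) hΔ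
  rw [padicValInt.eq_zero_of_not_dvd hgood] at h0
  intro hpos
  rw [h0] at hpos
  simp at hpos

end Main

/-- **[L6_W] for `p ∈ {3, 5}`.** -/
theorem s59b_wSideW (p : ℕ) (hp35 : p = 3 ∨ p = 5) : s59b_WSideW p := by
  intro hp W hΔ hgood A hA
  have hp2 : p ≠ 2 := by
    rcases hp35 with rfl | rfl <;> decide
  haveI : Fact p.Prime := ⟨hp⟩
  have hfin := s59b_L_finite W hΔ p hp
  have hnorm := s59b_L_normal W p
  refine ⟨s59b_L W p, hfin, hnorm, s59b_L_splits W p, ?_⟩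
  refine s59b_subCrit_of p hp hp2 A hA _ hfin hnorm (s59b_not_sq_dvd_finrank_L W p hΔ hp2) ?_
  intro τ hτ hτp hτne
  obtain ⟨hτv, hτres⟩ := ford_vQ_inertia hp hA τ hτ
  -- `τ` fixes `μ_p`, hence moves a coordinate of a `p`-torsion point
  have hmu : ∀ ζ : Kb, ζ ^ p = 1 → τ ζ = ζ :=
    s59b_tau_fix_mu p τ (fun ζ hζ => hτp ζ (s59b_zeta_mem W p hζ))
  obtain ⟨a, ha, hane⟩ := s59b_moves_gen W p τ hτne
  rcases ha with ⟨X, Y, h, htor, haXY⟩ | ha
  swap
  · exact absurd (hmu a ha) hane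
  obtain ⟨h', hσR⟩ := s59b_smul_some W τ h
  have htor' : p • (Point.some (τ X) (τ Y) h' : s58_Pt W) = 0 := by
    rw [← hσR, ← s59b_smul_nsmul, htor]
    exact smul_zero (A := s58_Pt W) τ
  have hne : (Point.some (τ X) (τ Y) h' : s58_Pt W) ≠ Point.some X Y h := by
    intro e
    have h0 := Point.some.inj e
    rcases haXY with rfl | rfl
    · exact hane h0.1
    · exact hane h0.2
  have hneg : (Point.some (τ X) (τ Y) h' : s58_Pt W) ≠ -Point.some X Y h := by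
    intro e
    apply hne
    rw [← hσR] at e ⊢
    exact s59b_not_neg W p hp hp2 τ hτp _ htor e
  obtain ⟨hXL, hYL⟩ := s59b_coord_mem W p h htor
  -- the curve
  obtain ⟨h1, h2, h3, h4, h6⟩ := s59b_curve_int W p hp A hA
  obtain ⟨hΔ0, hΔv⟩ := s59b_curve_disc W p hp A hA hΔ hgood
  have hvp : ford_vQ A hp hA ((p : ℕ) : Kb) = 1 := ford_vQ_q hp hA
  have hpv : 0 < ford_vQ A hp hA ((p : ℕ) : Kb) := lt_of_lt_of_eq zero_lt_one hvp.symm
  by_cases hXint : 0 ≤ ford_vQ A hp hA X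
  · -- the integral case
    have hYint : 0 ≤ ford_vQ A hp hA Y :=
      s59b_y_int (ford_vQ A hp hA) _ h1 h2 h3 h4 h6 hXint h.1
    rcases s59b_disp_int (ford_vQ A hp hA) ((W.map (Int.castRingHom ℚ))⁄Kb) hΔ0 hΔv h1 h2 h3 h4 h6
      p hp35 hvp h h' htor htor' hne hneg hXint hYint (hτres X hXint) (hτres Y hYint) with
      ⟨hxx, hb⟩ | ⟨hyy, hb⟩
    · exact ⟨X, hXL, (ford_vQ_nonneg_iff hp hA X).mp hXint, hxx, Or.inl hb⟩
    · exact ⟨Y, hYL, (ford_vQ_nonneg_iff hp hA Y).mp hYint, hyy, Or.inl hb⟩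
  · -- the case `v X < 0`
    rw [not_le] at hXint
    obtain ⟨hX0, hUpos⟩ := s59b_v_inv_pos (ford_vQ A hp hA) hXint
    obtain ⟨r, hr⟩ := s59b_v_coe (ford_vQ A hp hA) hX0
    have hr0 : r < 0 := by
      rw [hr] at hXint
      exact_mod_cast hXint
    have hr' : ford_vQ A hp hA (τ X) = (r : WithTop ℚ) := by rw [hτv, hr]
    have hvY := s59b_v_y (ford_vQ A hp hA) _ h1 h2 h3 h4 h6 hr hr0 h.1
    have hY0 : Y ≠ 0 := by
      rintro rfl
      rw [AddValuation.map_zero] at hvY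
      exact WithTop.top_ne_coe hvY
    have hτpY : (⇑(τ : Kb →+* Kb))^[p] Y = Y := by
      have h0 := hτp Y hYL
      rw [AlgEquiv.coe_pow] at h0
      exact h0
    have hdy : ford_vQ A hp hA Y < ford_vQ A hp hA (τ Y - Y) :=
      s59b_theta (ford_vQ A hp hA) (τ : Kb →+* Kb) p hp hp2 hpv hτv hτres Y hY0 hτpY
    have hv2 : ford_vQ A hp hA (2 : Kb) = 0 := by
      have h0 := ford_vQ_natCast hp hA (K := Kb) (n := 2) two_ne_zero
      have h2' : padicValNat p 2 = 0 := by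
        apply padicValNat.eq_zero_of_not_dvd
        intro hd
        exact hp2 ((Nat.prime_dvd_prime_iff_eq hp Nat.prime_two).mp hd)
      rw [h2'] at h0
      simpa using h0
    obtain ⟨hxx, hb⟩ := s59b_disp_E1 (ford_vQ A hp hA) ((W.map (Int.castRingHom ℚ))⁄Kb) hΔ0
      h1 h2 h3 h4 h6 p hp35 hvp hv2 h h' htor htor' hne hneg hr hr0 hr' hdy
    have hτX0 : τ X ≠ 0 := (map_ne_zero τ).mpr hX0
    have hdx0 : τ X - X ≠ 0 := sub_ne_zero.mpr hxx
    obtain ⟨d, hd⟩ := s59b_v_coe (ford_vQ A hp hA) hdx0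
    rw [hd, WithTop.coe_lt_coe] at hb
    refine ⟨X⁻¹, (s59b_L W p).inv_mem hXL, (ford_vQ_nonneg_iff hp hA _).mp hUpos.le, ?_, Or.inr ?_⟩
    · rw [map_inv₀]
      intro e
      exact hxx (inv_injective e)
    · have e : τ X⁻¹ - X⁻¹ = -(τ X - X) / (τ X * X) := by
        rw [map_inv₀]
        field_simp
        ring
      rw [e, AddValuation.map_div, AddValuation.map_neg, AddValuation.map_mul, hd, hr', hr,
        AddValuation.map_inv, hr, ← WithTop.coe_add, ← WithTop.LinearOrderedAddCommGroup.coe_sub,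
        ← WithTop.LinearOrderedAddCommGroup.coe_neg, ← WithTop.coe_add, WithTop.coe_lt_coe]
      linarith

/-- **[MRP_W] at `p = 5`**: the `s59_MRP` clause for `p = 5` (general semistable `W`, good at `5`,
`5 ∥ M`) is a theorem. -/
theorem s59b_MRPat_five : s59b_MRPat 5 :=
  s59b_MRP_of_leaves 5 (le_refl 5) (s59b_wSideW 5 (Or.inr rfl)) s59b_fixedNeW s59b_endgameW

end

end Fermat.Agent.Lib.S59
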