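/-
Programme (R2-bg), helper8 (prefix `s59c_`): **raising the level by a prime `r ∤ M`, `W`-form, `M` arbitrary**
(no squarefreeness; main's `s59v_resMod_mono` needs `Squarefree`).  From `s58q_stab` (`r`-stabilisation).
* `s59c_resMod_raise` : `W.IsResiduallyModularOfLevel p M → r.Prime → ¬ r ∣ M → W.IsResiduallyModularOfLevel p (M * r)`;
-/
import Fermat.Agent.Lib.S58.QStabForm
import Fermat.Prelude.Def_FLTPrelim_ModularRep

set_option autoImplicit false
set_option linter.style.haveILetI false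

noncomputable section

namespace Fermat.Agent.Lib.S59

open Fermat.Agent.Lib.S58

/-- **level raising by oldforms, `W`-form**: `r` prime, `r ∤ M`, `M ≠ 0` arbitrary. -/
theorem s59c_resMod_raise {W : WeierstrassCurve ℤ} {p M r : ℕ} (hM : M ≠ 0) (hr : r.Prime)
    (hrM : ¬ r ∣ M) (h : W.IsResiduallyModularOfLevel p M) :
    W.IsResiduallyModularOfLevel p (M * r) := by
  haveI : NeZero M := ⟨hM⟩
  haveI : NeZero r := ⟨hr.ne_zero⟩
  obtain ⟨g, 𝔪, hg, hmax, hpm, hc⟩ := h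
  obtain ⟨β, hβ⟩ := s58q_exists_root (ModularFormClass.qCoeff g r) (r : ℂ)
  obtain ⟨h1, h2⟩ := s58q_stab hr hrM g hg β hβ
  refine ⟨s58q_stabForm M r g β, 𝔪, h1, hmax, hpm, fun ℓ hℓ hgood hℓM hℓp => ?_⟩
  obtain ⟨α, hα, hαm⟩ := hc ℓ hℓ hgood (fun hd => hℓM (hd.mul_right r)) hℓp
  refine ⟨α, ?_, hαm⟩
  rw [hα, h2 ℓ hℓ]
  rintro rfl
  exact hℓM (Dvd.intro_left M rfl)

end Fermat.Agent.Lib.S59
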