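/-
Programme (R2) / node [MRP_W] at `p = 3` (helper2, prefix `s59b_`): **THE ASSEMBLY**.

All five leaves of `B3Iface.lean` are theorems:
`s59b_oldT` [L2] (`B3Old`), `s59b_starT` [L3] (`B3Star`), `s59b_liftTorT` [L4a] (`B3LiftTor`), `s59b_liftOccT` [L4b] (`B3LiftOcc`),
`s59b_mfinT` [L5] (`B3MFin`).  Hence

* `s59b_MRPatEven_three : s59b_MRPatEven 3`;
* `s59b_MRPevenAt_three` : helper1's node `s59g_MRPevenAt 3` (Graph v3.5/v3.6), stated verbatim (unfolded);
* `s59b_MRPW_three`      : helper1's older node `s59g_MRPW` at `p = 3` (any level divisible by `3`; raise `2` first).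
-/
import Fermat.Agent.Lib.S59.B3Top
import Fermat.Agent.Lib.S59.B3Old
import Fermat.Agent.Lib.S59.B3Star
import Fermat.Agent.Lib.S59.B3LiftTor
import Fermat.Agent.Lib.S59.B3LiftOcc
import Fermat.Agent.Lib.S59.B3MFin

set_option autoImplicit false

namespace Fermat.Agent.Lib.S59

/-- **[L4] at `p = 3`.** -/
theorem s59b_liftT : s59b_LiftT := s59b_liftT_of s59b_liftTorT s59b_liftOccT

/-- **[MRP_W] at `p = 3`, even level.** -/
theorem s59b_MRPatEven_three : s59b_MRPatEven 3 :=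
  s59b_MRP_three_of_leaves 3 rfl s59b_oldT s59b_starT s59b_liftT s59b_mfinT

/-- **helper1's node `s59g_MRPevenAt 3`**, verbatim (unfolded). -/
theorem s59b_MRPevenAt_three :
    ∀ (W : WeierstrassCurve ℤ), W.Δ ≠ 0 → W.IsSemistableModel →
      W.ModRepIsIrreducible 3 → ∀ (M : ℕ), Squarefree M → 2 ∣ M → 3 ∣ M → W.IsGoodPrimeFor 3 →
      W.IsResiduallyModularOfLevel 3 M → W.IsResiduallyModularOfLevel 3 (M / 3) :=
  fun W hΔ _ hirr M hsq h2 h3 hgood hres =>
    s59b_MRPatEven_three Nat.prime_three (by norm_num) W hΔ hirr M hsq h3 h2 hgood hres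

/-- **helper1's node `s59g_MRPW` at `p = 3`** (Graph ≤ v3.3): any squarefree level divisible by `3`. -/
theorem s59b_MRPW_three :
    ∀ (W : WeierstrassCurve ℤ), W.Δ ≠ 0 → W.IsSemistableModel →
      W.ModRepIsIrreducible 3 → ∀ (M : ℕ), 0 < M → Squarefree M → 3 ∣ M → W.IsGoodPrimeFor 3 →
      W.IsResiduallyModularOfLevel 3 M →
      ∃ M' : ℕ, 0 < M' ∧ Squarefree M' ∧ ¬ 3 ∣ M' ∧ W.IsResiduallyModularOfLevel 3 M' :=
  s59b_MRPW_three_of_even s59b_MRPatEven_three

end Fermat.Agent.Lib.S59
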