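/-
PROGRAMME (R2) = S59, node **[MRP_W] at `p = 3`**, leaf [L4b] (helper2, prefix `s59b_gs_`): **the expansion of `s = 1/t₂`**
(port of helper3's `Lib/S44/GSser.lean`, `j → t₂`).  `t₂(q) = q⁻¹ · T₂(q)` with `T₂ = s18u_T2 ∈ 1 + q ℤ[[q]]`
(`s18u_t2_eq`), so `1/t₂(q) = q · u(q)`, `u = T₂⁻¹ ∈ ℤ[[q]]ˣ`.
-/
import Fermat.Agent.Lib.S18.UFormal
import Fermat.Prelude.Def_ModularCurve_X0ModL
import Fermat.Prelude.Def_ModularCurve_ArithmeticGalois

set_option autoImplicit false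
set_option linter.style.haveILetI false
set_option linter.unusedSectionVars false

noncomputable section

namespace Fermat.Agent.Lib.S59

open ModularCurve HahnSeries Fermat.Agent.Lib.S18

/-! ### Over `ℤ` -/

/-- `v = q · t₂(q) ∈ 1 + q ℤ[[q]]`. -/
def s59b_gs_V : PowerSeries ℤ := s18u_T2

/-- `u = v⁻¹ ∈ ℤ[[q]]`. -/
def s59b_gs_U : PowerSeries ℤ := PowerSeries.invOfUnit s18u_T2 1

/-- `S = q · u = 1/t₂(q)`. -/
def s59b_gs_S : PowerSeries ℤ := PowerSeries.X * s59b_gs_U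

theorem s59b_gs_V_mul_U : s59b_gs_V * s59b_gs_U = 1 :=
  PowerSeries.mul_invOfUnit s18u_T2 1 (by rw [s18u_constantCoeff_T2]; rfl)

theorem s59b_gs_U_mul_V : s59b_gs_U * s59b_gs_V = 1 := by
  rw [mul_comm]; exact s59b_gs_V_mul_U

/-! ### Over any commutative ring -/

section Ring

variable (R : Type*) [CommRing R]

/-- `S`, `u`, `v` over `R`. -/
def s59b_gs_Ser : PowerSeries R := PowerSeries.map (Int.castRingHom R) s59b_gs_S
def s59b_gs_Ur : PowerSeries R := PowerSeries.map (Int.castRingHom R) s59b_gs_U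
def s59b_gs_Vr : PowerSeries R := PowerSeries.map (Int.castRingHom R) s59b_gs_V

theorem s59b_gs_Ur_mul_Vr : s59b_gs_Ur R * s59b_gs_Vr R = 1 := by
  unfold s59b_gs_Ur s59b_gs_Vr
  rw [← map_mul, s59b_gs_U_mul_V, map_one]

theorem s59b_gs_Vr_mul_Ur : s59b_gs_Vr R * s59b_gs_Ur R = 1 := by
  rw [mul_comm]; exact s59b_gs_Ur_mul_Vr R

theorem s59b_gs_Ser_eq : s59b_gs_Ser R = PowerSeries.X * s59b_gs_Ur R := by
  unfold s59b_gs_Ser s59b_gs_Ur s59b_gs_S
  rw [map_mul, PowerSeries.map_X]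

variable {R} in
/-- base change. -/
theorem s59b_gs_Ser_map {S : Type*} [CommRing S] (f : R →+* S) :
    PowerSeries.map f (s59b_gs_Ser R) = s59b_gs_Ser S := by
  unfold s59b_gs_Ser
  rw [← RingHom.comp_apply (PowerSeries.map f) (PowerSeries.map (Int.castRingHom R)),
    ← PowerSeries.map_comp, RingHom.ext_int (f.comp (Int.castRingHom R)) (Int.castRingHom S)]

variable {R} in
theorem s59b_gs_Ur_map {S : Type*} [CommRing S] (f : R →+* S) :
    PowerSeries.map f (s59b_gs_Ur R) = s59b_gs_Ur S := by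
  unfold s59b_gs_Ur
  rw [← RingHom.comp_apply (PowerSeries.map f) (PowerSeries.map (Int.castRingHom R)),
    ← PowerSeries.map_comp, RingHom.ext_int (f.comp (Int.castRingHom R)) (Int.castRingHom S)]

variable {R} in
theorem s59b_gs_Vr_map {S : Type*} [CommRing S] (f : R →+* S) :
    PowerSeries.map f (s59b_gs_Vr R) = s59b_gs_Vr S := by
  unfold s59b_gs_Vr
  rw [← RingHom.comp_apply (PowerSeries.map f) (PowerSeries.map (Int.castRingHom R)),
    ← PowerSeries.map_comp, RingHom.ext_int (f.comp (Int.castRingHom R)) (Int.castRingHom S)]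

/-- **`t₂(q) · S(q) = 1`** over any commutative ring. -/
theorem s59b_gs_t2_mul :
    s18u_t2 R * HahnSeries.ofPowerSeries ℤ R (s59b_gs_Ser R) = 1 := by
  have hX : HahnSeries.ofPowerSeries ℤ R (PowerSeries.X : PowerSeries R) =
      HahnSeries.single (1 : ℤ) (1 : R) := by
    rw [HahnSeries.ofPowerSeries_X]
  have hv : s18u_T2.map (Int.castRingHom R) = s59b_gs_Vr R := rfl
  rw [s18u_t2_eq, hv, s59b_gs_Ser_eq, map_mul, hX]
  calc HahnSeries.single (-1 : ℤ) (1 : R) * HahnSeries.ofPowerSeries ℤ R (s59b_gs_Vr R) *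
        (HahnSeries.single (1 : ℤ) (1 : R) * HahnSeries.ofPowerSeries ℤ R (s59b_gs_Ur R))
      = (HahnSeries.single (-1 : ℤ) (1 : R) * HahnSeries.single (1 : ℤ) (1 : R)) *
          (HahnSeries.ofPowerSeries ℤ R (s59b_gs_Vr R) *
            HahnSeries.ofPowerSeries ℤ R (s59b_gs_Ur R)) := by ring
    _ = 1 := by
      have h1 : HahnSeries.ofPowerSeries ℤ R (s59b_gs_Vr R) *
          HahnSeries.ofPowerSeries ℤ R (s59b_gs_Ur R) = 1 := by
        rw [← map_mul, s59b_gs_Vr_mul_Ur]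
        exact map_one (HahnSeries.ofPowerSeries ℤ R)
      have h2 : HahnSeries.single (-1 : ℤ) (1 : R) * HahnSeries.single (1 : ℤ) (1 : R) = 1 := by
        rw [HahnSeries.single_mul_single, mul_one]
        rfl
      rw [h1, h2, mul_one]

theorem s59b_gs_mul_t2 :
    HahnSeries.ofPowerSeries ℤ R (s59b_gs_Ser R) * s18u_t2 R = 1 := by
  rw [mul_comm]; exact s59b_gs_t2_mul R

end Ring

/-- the reduction of `S` is the inverse of `t̄₂(q)`. -/
theorem s59b_gs_Jb {A κ : Type*} [CommRing A] [CommRing κ] (π : A →+* κ) :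
    s18u_t2 κ * HahnSeries.ofPowerSeries ℤ κ (PowerSeries.map π (s59b_gs_Ser A)) = 1 := by
  rw [s59b_gs_Ser_map]
  exact s59b_gs_t2_mul κ

end Fermat.Agent.Lib.S59
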