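/-
PROGRAMME (R2) = S59, node **[MRP_W] at `p = 3`** (helper2, prefix `s59b_`), file 9: the `t₂`-twin of helper7's
`Lib/S44/KUnipW.lean`: **[UNIP-K] FOR A WILD AUTOMORPHISM, FROM (Q4), ON THE CHART `t ≠ ∞`** (`q = 3`, `2 ∣ M`).
Conclusion in helper6's chart-generic form `s33n_UnipW … (s59b_tF K₀ (M * q))` (`Lib/S33/UnipIfaceT.lean`).
The chart contract is `s34f_chartContract_w1` + `s34d_elem_t2_1` (`Lib/S34/FBase.lean`, `DTwoThree.lean`).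
-/
import Fermat.Agent.Lib.S44.KUnipW
import Fermat.Agent.Lib.S33.UnipIfaceT
import Fermat.Agent.Lib.S34.DTwoThree
import Fermat.Agent.Lib.S59.B3Base

set_option autoImplicit false
set_option linter.style.haveILetI false
set_option synthInstance.maxHeartbeats 400000

noncomputable section

namespace Fermat.Agent.Lib.S59

open AlgebraicCurve ModularCurve Polynomial Fermat.Agent.Lib.FF Fermat.Agent.Lib.S18
  Fermat.Agent.Lib.S33 Fermat.Agent.Lib.S34 Fermat.Agent.Lib.S35 Fermat.Agent.Lib.S44 IsLocalRing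

local notation "Qbar" => AlgebraicClosure ℚ

/-- **the chart contract of the chart `{t regular}`** (`q = 3`, `2 ∣ M`). -/
theorem s59b_chartContract_t1 (M q : ℕ) [NeZero M] [NeZero q] (hq : q.Prime) (hqM : ¬ q ∣ M)
    (hq3 : q = 3) (h2M : 2 ∣ M)
    (K₀ : Type) [Field K₀] [NumberField K₀] (φ : K₀ →+* Qbar)
    (κ : Type) [Field κ] [CharP κ q] [PerfectField κ]
    (G : s18g_GaussData K₀ κ) [IsDiscreteValuationRing G.A] (hπ : Function.Surjective G.π)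
    (σ₀ : K₀ ≃ₐ[ℚ] K₀) :
    s34f_ChartContract G.A (s34m_VV G φ M q hq hqM) (s34c_const_mem_VV G φ M q hq hqM) G.ϖ
      (s18_chart1 (L₀ := K₀) (s59b_tF K₀ (M * q)))
      (arithmeticGalois (modularFunctionFieldFull (M * q)) σ₀) := by
  have hq2 : q ≠ 2 := by omega
  obtain ⟨hcoe, ⟨hwV, hred⟩, -, hgenM, -, -, -, hgenN, hwO, -, hfix, hα, -⟩ :=
    s59b_base G φ M q hq hqM h2M hq2
  haveI := hgenM
  haveI := hgenN
  have helem := s34d_elem_t2_1 M q hq hqM K₀ φ κ G hπ hq3 h2M (s59b_tF K₀ M) hcoe hwV hred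
  rw [s59b_alpha_tF G φ M q hq h2M hq2] at helem
  exact s34f_chartContract_w1 G φ M q hq hqM (s59b_tF K₀ (M * q)) hwO hα σ₀ (hfix σ₀) helem

/-- **the chart contract of the chart `{1 / t regular}`** (`q = 3`, `2 ∣ M`). -/
theorem s59b_chartContract_t2 (M q : ℕ) [NeZero M] [NeZero q] (hq : q.Prime) (hqM : ¬ q ∣ M)
    (hq3 : q = 3) (h2M : 2 ∣ M)
    (K₀ : Type) [Field K₀] [NumberField K₀] (φ : K₀ →+* Qbar)
    (κ : Type) [Field κ] [CharP κ q] [PerfectField κ]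
    (G : s18g_GaussData K₀ κ) [IsDiscreteValuationRing G.A] (hπ : Function.Surjective G.π)
    (σ₀ : K₀ ≃ₐ[ℚ] K₀) :
    s34f_ChartContract G.A (s34m_VV G φ M q hq hqM) (s34c_const_mem_VV G φ M q hq hqM) G.ϖ
      (s18_chart2 (L₀ := K₀) (s59b_tF K₀ (M * q)))
      (arithmeticGalois (modularFunctionFieldFull (M * q)) σ₀) := by
  have hq2 : q ≠ 2 := by omega
  obtain ⟨hcoe, ⟨hwV, hred⟩, hwinvV, -, hgenMinv, -, -, hgenN, -, hwO', hfix, -, hα'⟩ :=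
    s59b_base G φ M q hq hqM h2M hq2
  haveI := hgenMinv
  haveI := hgenN
  have helem := s34d_elem_t2_2 M q hq hqM K₀ φ κ G hπ hq3 h2M (s59b_tF K₀ M) hcoe hwV hwinvV hred
  rw [s59b_alpha_tF G φ M q hq h2M hq2] at helem
  exact s34f_chartContract_w2 G φ M q hq hqM (s59b_tF K₀ (M * q)) hwO' hα' σ₀ (hfix σ₀) helem

set_option maxHeartbeats 1000000 in
/-- **[UNIP-K] for a wild automorphism, from (Q4), on the chart `t ≠ ∞`** (`q = 3`, `2 ∣ M`). -/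
theorem s59b_k_unip_wild (M q : ℕ) [NeZero M] [NeZero q] (hq : q.Prime) (hqM : ¬ q ∣ M)
    (hq3 : q = 3) (h2M : 2 ∣ M)
    (K₀ : Type) [Field K₀] [NumberField K₀] (φ : K₀ →+* Qbar)
    (κ : Type) [Field κ] [CharP κ q] [PerfectField κ]
    (G : s18g_GaussData K₀ κ) [IsDiscreteValuationRing G.A] (hπ : Function.Surjective G.π)
    (σ₀ : K₀ ≃ₐ[ℚ] K₀)
    (hσA : ∀ a : K₀, a ∈ G.A → (σ₀ : K₀ ≃+* K₀) a ∈ G.A)
    (hσA' : ∀ a : K₀, a ∈ G.A → (σ₀.symm : K₀ ≃+* K₀) a ∈ G.A)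
    (B : ℕ) (hB : 1 ≤ B)
    (hσB : ∀ a : K₀, a ∈ G.A →
      ∃ z ∈ G.A, (σ₀ : K₀ ≃+* K₀) a - a = ((G.ϖ : G.A) : K₀) ^ (B + 1) * z)
    (f : s34m_F K₀ (M * q)) (hf : f ≠ 0)
    (hdiv : ∀ Q : Place K₀ (s34m_F K₀ (M * q)), ((q : ℕ) : ℤ) ∣ Q.ord f)
    (hQ4 : ∀ 𝔫 : Ideal (s34x_ring (s34x_infRing (s34m_VV G φ M q hq hqM))
        (s18_chart1 (L₀ := K₀) (s59b_tF K₀ (M * q)))), 𝔫.IsMaximal →
      s34x_const (s34x_infRing (s34m_VV G φ M q hq hqM))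
        (s18_chart1 (L₀ := K₀) (s59b_tF K₀ (M * q))) ((G.ϖ : G.A) : K₀)
        (s34x_inf_const_mem (s34m_VV G φ M q hq hqM) G.A (s34c_const_mem_VV G φ M q hq hqM)
          G.ϖ) ∈ 𝔫 →
      ∃ Φ : s34m_F K₀ (M * q), Φ ≠ 0 ∧
        ∀ Q ∈ s18_chart1 (L₀ := K₀) (s59b_tF K₀ (M * q)),
          s34f_through (s34x_infRing (s34m_VV G φ M q hq hqM))
            (s18_chart1 (L₀ := K₀) (s59b_tF K₀ (M * q))) 𝔫 Q →
          Q.ord f = ((q : ℕ) : ℤ) * Q.ord Φ) :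
    ∃ a : s34m_F K₀ (M * q), a ≠ 0 ∧
      s33n_UnipW G φ M q hq hqM (s59b_tF K₀ (M * q))
        (s33u_fd (arithmeticGalois (modularFunctionFieldFull (M * q)) σ₀) f / a ^ q) := by
  classical
  haveI : Fact q.Prime := ⟨hq⟩
  have hσπ := s44k_res_of_depth G (σ₀ : K₀ ≃+* K₀) hσA (B + 1) hσB (by omega)
  have hirr : Irreducible G.ϖ := by
    have hker : RingHom.ker G.π = Ideal.span {G.ϖ} := by
      ext x
      rw [RingHom.mem_ker, G.π_eq_zero_iff, Ideal.mem_span_singleton]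
    have hprime : (Ideal.span {G.ϖ}).IsPrime := hker ▸ RingHom.ker_isPrime G.π
    exact ((Ideal.span_singleton_prime G.ϖ_ne_zero).mp hprime).irreducible
  set gσ : SemilinearAut K₀ (s34m_F K₀ (M * q)) :=
    arithmeticGalois (modularFunctionFieldFull (M * q)) σ₀ with hgσ
  have hsymm : ∀ y : s34m_F K₀ (M * q),
      arithmeticRingAut (modularFunctionFieldFull (M * q)) σ₀.symm (gσ • y) = y := by
    intro y
    have h1 : arithmeticGalois (modularFunctionFieldFull (M * q)) σ₀.symm • (gσ • y) = y := by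
      rw [hgσ, ← mul_smul, ← map_mul]
      have : σ₀.symm * σ₀ = 1 := by
        ext a
        exact σ₀.symm_apply_apply a
      rw [this, map_one, one_smul]
    exact h1
  -- the chart contract
  have hC := s59b_chartContract_t1 M q hq hqM hq3 h2M K₀ φ κ G hπ σ₀
  -- `hnorm` with `c₀ = 1`
  have hnorm : ∀ i, ∃ z ∈ s34m_VV G φ M q hq hqM i,
      s33u_fd gσ f - s33u_cst G.A (((1 : (↥G.A)ˣ) : (↥G.A)ˣ) : G.A) =
        algebraMap K₀ (s34m_F K₀ (M * q)) ((G.ϖ : G.A) : K₀) * z := by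
    intro i
    obtain ⟨z, hz, e⟩ := s44k_fd_one G φ M q hq hqM σ₀ hσA hσA' B hB hσB i f hf
    refine ⟨z, hz, ?_⟩
    rw [Units.val_one, s33u_cst_one]
    exact e
  obtain ⟨a, ha0, hF0, hF1, hFQ⟩ := s44k_unip_chart_F_of_Phi (ι := Bool) G.A
    (s34m_VV G φ M q hq hqM) (s34c_const_mem_VV G φ M q hq hqM) G.ϖ hirr
    (fun i => s34f_unif_not_unit_VV G φ M q hq hqM i)
    (fun i y => s34c_hU_VV G φ M q hq hqM i y) gσ
    (fun i y => ⟨fun hy => s34m_galois_mem_VV G φ M q σ₀ hσA hσπ hq hqM i hy, fun hy => by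
      have := s34m_galois_mem_VV G φ M q σ₀.symm hσA'
        (s34m_symm_res G σ₀ hσA hσA' hσπ) hq hqM i hy
      rw [hsymm] at this
      exact this⟩)
    (fun i y hy => s34m_galois_sub_mem_VV G φ M q σ₀ hσA hσπ hq hqM i hy)
    (fun i U hU => s33u_hfd_VV G φ M q hq hqM σ₀ hσA hσA' hσπ i U hU)
    (s18_chart1 (L₀ := K₀) (s59b_tF K₀ (M * q))) hC q hq.ne_zero
    (fun c c' h => by
      have := s33u_hroot G q 1 c c' (by rwa [pow_one])
      exact this)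
    f hf hdiv
    (fun 𝔫 h𝔫 hπ𝔫 hst _ => by
      obtain ⟨Φ, hΦ0, hΦ⟩ := hQ4 𝔫 h𝔫 hπ𝔫
      exact ⟨Φ, hΦ0, s44k_hPhi_of_Q4 _ _ _ 𝔫 gσ hst q hq.ne_zero f Φ hΦ⟩)
    1 hnorm
  rw [Units.val_one, s33u_cst_one, one_mul] at hF0 hF1 hFQ
  exact ⟨a, ha0, hF1, hFQ⟩

end Fermat.Agent.Lib.S59
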