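/-
PROGRAMME (R2) = S59, nodes **[MRP_W]** / **[MRP-mult]** (helper2, prefix `s59b_`): **the top wiring with the W-side as a
HYPOTHESIS** — no assumption on the reduction type of `W` at `p`.

`s59b_WSideAt W p` : for every place `A ∣ p` of `ℚ̄` there is a finite normal `L ≤ ℚ̄` splitting `W[p]` and `μ_p`
(`s59b_SplitsW`) which is sub-critically ramified at `A` (`s44i_SubCrit`).  For `W` good at `p ∈ {3, 5}` this is
`s59b_wSideW` (`s59b_wSideAt_of_good`); for `W` multiplicative at `p` with `ρ̄` peu ramifié it is the leaf of [MRP-mult].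

* `s59b_MRP_five_of_wside`  : `5 ≤ p`, `p ∣ M` squarefree, `s59b_WSideAt W p`, `ρ̄` irreducible, residually modular of level `M`
   ⊢ residually modular of level `M / p`   (copy of `s59b_MRP_of_leaves`, `BMrpGraph.lean`);
* `s59b_MRP_three_of_wside` : the same at `p = 3` and EVEN `M` (copy of `s59b_MRP_three_of_leaves`, `B3Top.lean`, with the five
   leaves of `B3Final.lean` plugged in).
-/
import Fermat.Agent.Lib.S59.B3Final
import Fermat.Agent.Lib.S59.BMrpSoft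

set_option autoImplicit false
set_option linter.style.haveILetI false
set_option linter.unusedSectionVars false
set_option synthInstance.maxHeartbeats 400000

namespace Fermat.Agent.Lib.S59

open ModularCurve AlgebraicCurve WeierstrassCurve
  Fermat.Agent.Lib.S18 Fermat.Agent.Lib.S29 Fermat.Agent.Lib.S35 Fermat.Agent.Lib.S33
  Fermat.Agent.Lib.S41 Fermat.Agent.Lib.S44 Fermat.Agent.Lib.S58

noncomputable section

local notation "Kb" => AlgebraicClosure ℚ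
local notation "Γℚ" => (AlgebraicClosure ℚ ≃ₐ[ℚ] AlgebraicClosure ℚ)

/-- **the W-side at `(W, p)`**: at every place over `p` a finite normal splitting field of `W[p]` and `μ_p` which is
sub-critically ramified. -/
def s59b_WSideAt (W : WeierstrassCurve ℤ) (p : ℕ) : Prop :=
  ∀ (hp : p.Prime) (A : ValuationSubring Kb) (hA : A.LiesOverPrime p),
    ∃ L : IntermediateField ℚ Kb, FiniteDimensional ℚ ↥L ∧ Normal ℚ ↥L ∧ s59b_SplitsW W p L ∧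
      s44i_SubCrit p hp A hA L

/-- `W` good at `p ∈ {3, 5}` ⇒ the W-side. -/
theorem s59b_wSideAt_of_good (p : ℕ) (hp35 : p = 3 ∨ p = 5) (W : WeierstrassCurve ℤ) (hΔ : W.Δ ≠ 0)
    (hgood : W.IsGoodPrimeFor p) : s59b_WSideAt W p :=
  fun hp A hA => s59b_wSideW p hp35 hp W hΔ hgood A hA

/-- **[MRP] at a prime `p ≥ 5` from the W-side at `(W, p)`** (any reduction type at `p`). -/
theorem s59b_MRP_five_of_wside (p : ℕ) (h5 : 5 ≤ p) (hp : p.Prime) (hp2 : p ≠ 2)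
    (W : WeierstrassCurve ℤ) (hΔ : W.Δ ≠ 0) (hirr : W.ModRepIsIrreducible p) (M₁ : ℕ)
    (hsq : Squarefree M₁) (hpM₁ : p ∣ M₁) (hWS : s59b_WSideAt W p)
    (hres : W.IsResiduallyModularOfLevel p M₁) : W.IsResiduallyModularOfLevel p (M₁ / p) := by
  classical
  obtain ⟨M, rfl⟩ : ∃ M, M₁ = M * p := ⟨M₁ / p, (Nat.div_mul_cancel hpM₁).symm⟩
  haveI : Fact p.Prime := ⟨hp⟩
  have hM0 : M ≠ 0 := by
    rintro rfl
    rw [zero_mul] at hsq
    exact not_squarefree_zero hsq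
  haveI : NeZero M := ⟨hM0⟩
  have hdiv : M * p / p = M := Nat.mul_div_cancel M hp.pos
  rw [hdiv]
  have hpM : ¬ p ∣ M := by
    rintro ⟨k, rfl⟩
    have h1 : p * p ∣ p * k * p := ⟨k, by ring⟩
    exact hp.not_isUnit (hsq p h1)
  have hsqM : Squarefree M := hsq.squarefree_of_dvd (Dvd.intro _ rfl)
  obtain ⟨f, 𝔪, hf, hmax, hpm, hcong⟩ := hres
  haveI := s58o_isElliptic W hΔ
  have hW : W.IsIntegralModelOf (W.map (Int.castRingHom ℚ)) := s59b_isIntegralModelOf_self W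
  -- the exceptional set
  set a : ℕ → ℤ := fun ℓ => W.apOfModel ℓ with ha
  have hprod : M * p * p * W.Δ.natAbs ≠ 0 :=
    Nat.mul_ne_zero (Nat.mul_ne_zero (Nat.mul_ne_zero hM0 hp.ne_zero) hp.ne_zero)
      (Int.natAbs_ne_zero.mpr hΔ)
  set B : Finset ℕ := (M * p * p * W.Δ.natAbs).primeFactors with hB
  have hB1 : ∀ q : ℕ, q.Prime → q ∣ M * p * p → q ∈ B := fun q hq hd =>
    Nat.mem_primeFactors.mpr ⟨hq, hd.mul_right _, hprod⟩
  have hB1' : ∀ q : ℕ, q.Prime → q ∣ M * p → q ∈ B := fun q hq hd => hB1 q hq (hd.mul_right _)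
  have hB2 : ∀ q : ℕ, q.Prime → ¬ W.IsGoodPrimeFor q → q ∈ B := fun q hq hbad => by
    have hd : (q : ℤ) ∣ W.Δ := not_not.mp hbad
    have hd' : q ∣ W.Δ.natAbs := Int.natCast_dvd.mp hd
    exact Nat.mem_primeFactors.mpr ⟨hq, hd'.mul_left _, hprod⟩
  have hB3 : ∀ ℓ : ℕ, ℓ.Prime → W.IsGoodPrimeFor ℓ → ¬ ℓ ∣ M → ℓ ≠ p → ℓ ∉ B := by
    intro ℓ hℓ hgood hℓM hℓp hmem
    have hd := (Nat.mem_primeFactors.mp hmem).2.1
    rcases (Nat.Prime.dvd_mul hℓ).mp hd with h | h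
    · rcases (Nat.Prime.dvd_mul hℓ).mp h with h | h
      · rcases (Nat.Prime.dvd_mul hℓ).mp h with h | h
        · exact hℓM h
        · exact hℓp ((Nat.prime_dvd_prime_iff_eq hℓ hp).mp h)
      · exact hℓp ((Nat.prime_dvd_prime_iff_eq hℓ hp).mp h)
    · exact hgood (Int.natCast_dvd.mpr h)
  have hB4 : ∀ ℓ : ℕ, ℓ.Prime → ℓ ∉ B →
      W.IsGoodPrimeFor ℓ ∧ ¬ ℓ ∣ M * p ∧ ℓ ≠ p ∧ ¬ ℓ ∣ M * p * p := by
    intro ℓ hℓ hℓB
    refine ⟨fun hbad => hℓB (hB2 ℓ hℓ (not_not.mpr hbad)), fun hd => hℓB (hB1' ℓ hℓ hd), ?_,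
      fun hd => hℓB (hB1 ℓ hℓ hd)⟩
    rintro rfl
    exact hℓB (hB1' _ hℓ (Dvd.intro_left _ rfl))
  by_cases hocc : s44i_LevelOcc M p a B
  · -- the eigensystem occurs at level `M`
    obtain ⟨g, 𝔪', hg, hmax', hpm', hc⟩ := hocc
    exact ⟨g, 𝔪', hg, hmax', hpm',
      fun ℓ hℓ hgood hℓM hℓp => hc ℓ hℓ (hB3 ℓ hℓ hgood hℓM hℓp)⟩
  · exfalso
    -- [L1]
    obtain ⟨x₀, hx₀, hE₀⟩ := s44s_eigExists (M * p) f hf p hp 𝔪 hmax hpm a B hB1
      (fun ℓ hℓ hℓB => hcong ℓ hℓ (hB4 ℓ hℓ hℓB).1 (hB4 ℓ hℓ hℓB).2.1 (hB4 ℓ hℓ hℓB).2.2.1)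
    -- [L2]: the eigen-module is `p`-new
    have hnew : ∀ x : JZero (M * p), s44i_Eig (M * p) p a B x →
        s35c_alphaPush M p hp hpM x = 0 ∧ s35c_betaPush M p hp hpM x = 0 := by
      intro x hE
      constructor
      · by_contra hne
        refine hocc (s44r_old_leaf M p hp h5 hpM a B hB1' _ hne ⟨?_, fun ℓ hℓB => ?_⟩)
        · rw [← map_nsmul, hE.1, map_zero]
        · have h := s33l_hecke_pt p (s35c_alphaPush M p hp hpM)
            (fun σ x => s35c_alphaPush_smul M p hp hpM σ x) ℓ (hB4 ℓ ℓ.2 hℓB).2.2.2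
            (hB4 ℓ ℓ.2 hℓB).2.1 x hE.1
          rw [← h, hE.2 ℓ hℓB, map_zsmul]
      · by_contra hne
        refine hocc (s44r_old_leaf M p hp h5 hpM a B hB1' _ hne ⟨?_, fun ℓ hℓB => ?_⟩)
        · rw [← map_nsmul, hE.1, map_zero]
        · have h := s33l_hecke_pt p (s35c_betaPush M p hp hpM)
            (fun σ x => s35c_betaPush_smul M p hp hpM σ x) ℓ (hB4 ℓ ℓ.2 hℓB).2.2.2
            (hB4 ℓ ℓ.2 hℓB).2.1 x hE.1
          rw [← h, hE.2 ℓ hℓB, map_zsmul]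
    -- the place and the W-side
    obtain ⟨A, hA⟩ := Fermat.Agent.Lib.Frobenius.exists_liesOverPrime p hp
    obtain ⟨L, hLfd, hLn, hLs, hLsc⟩ := hWS hp A hA
    haveI := hLfd
    haveI := hLn
    -- [L7a_W]
    have hx₁ := s59b_fixedNeW p hp hp2 W hΔ (M * p) B hB1 hB2 L hLfd hLn hLs ⟨x₀, hx₀, hE₀⟩
    -- the non-Eisenstein prime
    obtain ⟨ℓ₀, hℓ₀, hℓ₀B, -, hℓ₀ne⟩ :=
      s41a_nonEis (W.map (Int.castRingHom ℚ)) W hW p hp hp2 hirr B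
    -- [L7b_W]
    refine s59b_endgameW p hp hp2 W hΔ hirr (M * p) B hB1 hB2 L hLfd hLn hLs A hA hx₁
      (fun x hE hfix => ?_)
    obtain ⟨hα, hβ⟩ := hnew x hE
    have hfin : s44i_Finite M p hpM A x := by
      have hμ : ∀ ζ : Kb, ζ ^ p = 1 → ζ ∈ L := by
        intro ζ hζ
        have hfixL : IntermediateField.fixedField L.fixingSubgroup = L :=
          InfiniteGalois.fixedField_fixingSubgroup L
        rw [← hfixL]
        rintro ⟨σ, hσ⟩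
        exact (hLs σ fun a ha => hσ ⟨a, ha⟩).2 ζ hζ
      refine s44k_star M p h5 hpM hsqM A hA L hLsc hμ x hE.1 hα hβ hfix
        ⟨⟨ℓ₀, hℓ₀⟩, a ℓ₀, (hB4 ℓ₀ hℓ₀ hℓ₀B).2.1, hE.2 ⟨ℓ₀, hℓ₀⟩ hℓ₀B, fun hd => hℓ₀ne ?_⟩
      have e : W.apOfModel ℓ₀ ^ 2 - ((ℓ₀ : ℤ) + 1) ^ 2 =
          (a ℓ₀ - ((ℓ₀ : ℕ) + 1)) * (a ℓ₀ + ((ℓ₀ : ℕ) + 1)) := by rw [ha]; push_cast; ring
      rw [e]
      exact hd.mul_right _
    rcases s44i_lift_of s44s_liftTor s44_liftOcc M p h5 hpM hsqM A hA a B hB1' x hE hα hβ hfin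
      with ht | ho
    · exact s44m_mfin M p h5 hpM A hA x hE.1 hα hβ ht
    · exact absurd ho hocc

/-- **[MRP] at `p = 3`, EVEN level, from the W-side at `(W, 3)`** (any reduction type at `3`). -/
theorem s59b_MRP_three_of_wside (p : ℕ) (hp3 : p = 3) (hp : p.Prime) (hp2 : p ≠ 2)
    (W : WeierstrassCurve ℤ) (hΔ : W.Δ ≠ 0) (hirr : W.ModRepIsIrreducible p) (M₁ : ℕ)
    (hsq : Squarefree M₁) (hpM₁ : p ∣ M₁) (h2M₁ : 2 ∣ M₁) (hWS : s59b_WSideAt W p)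
    (hres : W.IsResiduallyModularOfLevel p M₁) : W.IsResiduallyModularOfLevel p (M₁ / p) := by
  have hOld := s59b_oldT
  have hStar := s59b_starT
  have hLift := s59b_liftT
  have hMFin := s59b_mfinT
  classical
  obtain ⟨M, rfl⟩ : ∃ M, M₁ = M * p := ⟨M₁ / p, (Nat.div_mul_cancel hpM₁).symm⟩
  haveI : Fact p.Prime := ⟨hp⟩
  have hM0 : M ≠ 0 := by
    rintro rfl
    rw [zero_mul] at hsq
    exact not_squarefree_zero hsq
  haveI : NeZero M := ⟨hM0⟩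
  have hdiv : M * p / p = M := Nat.mul_div_cancel M hp.pos
  rw [hdiv]
  have hpM : ¬ p ∣ M := by
    rintro ⟨k, rfl⟩
    have h1 : p * p ∣ p * k * p := ⟨k, by ring⟩
    exact hp.not_isUnit (hsq p h1)
  have h2M : 2 ∣ M := by
    rcases (Nat.Prime.dvd_mul Nat.prime_two).mp h2M₁ with h | h
    · exact h
    · exact absurd ((Nat.prime_dvd_prime_iff_eq Nat.prime_two hp).mp h).symm hp2
  have hsqM : Squarefree M := hsq.squarefree_of_dvd (Dvd.intro _ rfl)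
  obtain ⟨f, 𝔪, hf, hmax, hpm, hcong⟩ := hres
  haveI := s58o_isElliptic W hΔ
  have hW : W.IsIntegralModelOf (W.map (Int.castRingHom ℚ)) := s59b_isIntegralModelOf_self W
  -- the exceptional set
  set a : ℕ → ℤ := fun ℓ => W.apOfModel ℓ with ha
  have hprod : M * p * p * W.Δ.natAbs ≠ 0 :=
    Nat.mul_ne_zero (Nat.mul_ne_zero (Nat.mul_ne_zero hM0 hp.ne_zero) hp.ne_zero)
      (Int.natAbs_ne_zero.mpr hΔ)
  set B : Finset ℕ := (M * p * p * W.Δ.natAbs).primeFactors with hB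
  have hB1 : ∀ q : ℕ, q.Prime → q ∣ M * p * p → q ∈ B := fun q hq hd =>
    Nat.mem_primeFactors.mpr ⟨hq, hd.mul_right _, hprod⟩
  have hB1' : ∀ q : ℕ, q.Prime → q ∣ M * p → q ∈ B := fun q hq hd => hB1 q hq (hd.mul_right _)
  have hB2 : ∀ q : ℕ, q.Prime → ¬ W.IsGoodPrimeFor q → q ∈ B := fun q hq hbad => by
    have hd : (q : ℤ) ∣ W.Δ := not_not.mp hbad
    have hd' : q ∣ W.Δ.natAbs := Int.natCast_dvd.mp hd
    exact Nat.mem_primeFactors.mpr ⟨hq, hd'.mul_left _, hprod⟩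
  have hB3 : ∀ ℓ : ℕ, ℓ.Prime → W.IsGoodPrimeFor ℓ → ¬ ℓ ∣ M → ℓ ≠ p → ℓ ∉ B := by
    intro ℓ hℓ hgood hℓM hℓp hmem
    have hd := (Nat.mem_primeFactors.mp hmem).2.1
    rcases (Nat.Prime.dvd_mul hℓ).mp hd with h | h
    · rcases (Nat.Prime.dvd_mul hℓ).mp h with h | h
      · rcases (Nat.Prime.dvd_mul hℓ).mp h with h | h
        · exact hℓM h
        · exact hℓp ((Nat.prime_dvd_prime_iff_eq hℓ hp).mp h)
      · exact hℓp ((Nat.prime_dvd_prime_iff_eq hℓ hp).mp h)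
    · exact hgood (Int.natCast_dvd.mpr h)
  have hB4 : ∀ ℓ : ℕ, ℓ.Prime → ℓ ∉ B →
      W.IsGoodPrimeFor ℓ ∧ ¬ ℓ ∣ M * p ∧ ℓ ≠ p ∧ ¬ ℓ ∣ M * p * p := by
    intro ℓ hℓ hℓB
    refine ⟨fun hbad => hℓB (hB2 ℓ hℓ (not_not.mpr hbad)), fun hd => hℓB (hB1' ℓ hℓ hd), ?_,
      fun hd => hℓB (hB1 ℓ hℓ hd)⟩
    rintro rfl
    exact hℓB (hB1' _ hℓ (Dvd.intro_left _ rfl))
  by_cases hocc : s44i_LevelOcc M p a B
  · obtain ⟨g, 𝔪', hg, hmax', hpm', hc⟩ := hocc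
    exact ⟨g, 𝔪', hg, hmax', hpm',
      fun ℓ hℓ hgood hℓM hℓp => hc ℓ hℓ (hB3 ℓ hℓ hgood hℓM hℓp)⟩
  · exfalso
    -- [L1]
    obtain ⟨x₀, hx₀, hE₀⟩ := s44s_eigExists (M * p) f hf p hp 𝔪 hmax hpm a B hB1
      (fun ℓ hℓ hℓB => hcong ℓ hℓ (hB4 ℓ hℓ hℓB).1 (hB4 ℓ hℓ hℓB).2.1 (hB4 ℓ hℓ hℓB).2.2.1)
    -- [L2]: the eigen-module is `p`-new
    have hnew : ∀ x : JZero (M * p), s44i_Eig (M * p) p a B x →
        s35c_alphaPush M p hp hpM x = 0 ∧ s35c_betaPush M p hp hpM x = 0 := by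
      intro x hE
      constructor
      · by_contra hne
        refine hocc (hOld M p hp hp3 h2M hpM a B hB1' _ hne ⟨?_, fun ℓ hℓB => ?_⟩)
        · rw [← map_nsmul, hE.1, map_zero]
        · have h := s33l_hecke_pt p (s35c_alphaPush M p hp hpM)
            (fun σ x => s35c_alphaPush_smul M p hp hpM σ x) ℓ (hB4 ℓ ℓ.2 hℓB).2.2.2
            (hB4 ℓ ℓ.2 hℓB).2.1 x hE.1
          rw [← h, hE.2 ℓ hℓB, map_zsmul]
      · by_contra hne
        refine hocc (hOld M p hp hp3 h2M hpM a B hB1' _ hne ⟨?_, fun ℓ hℓB => ?_⟩)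
        · rw [← map_nsmul, hE.1, map_zero]
        · have h := s33l_hecke_pt p (s35c_betaPush M p hp hpM)
            (fun σ x => s35c_betaPush_smul M p hp hpM σ x) ℓ (hB4 ℓ ℓ.2 hℓB).2.2.2
            (hB4 ℓ ℓ.2 hℓB).2.1 x hE.1
          rw [← h, hE.2 ℓ hℓB, map_zsmul]
    -- the place and the W-side
    obtain ⟨A, hA⟩ := Fermat.Agent.Lib.Frobenius.exists_liesOverPrime p hp
    obtain ⟨L, hLfd, hLn, hLs, hLsc⟩ := hWS hp A hA
    haveI := hLfd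
    haveI := hLn
    -- [L7a_W]
    have hx₁ := s59b_fixedNeW p hp hp2 W hΔ (M * p) B hB1 hB2 L hLfd hLn hLs ⟨x₀, hx₀, hE₀⟩
    -- the non-Eisenstein prime
    obtain ⟨ℓ₀, hℓ₀, hℓ₀B, -, hℓ₀ne⟩ :=
      s41a_nonEis (W.map (Int.castRingHom ℚ)) W hW p hp hp2 hirr B
    -- [L7b_W]
    refine s59b_endgameW p hp hp2 W hΔ hirr (M * p) B hB1 hB2 L hLfd hLn hLs A hA hx₁
      (fun x hE hfix => ?_)
    obtain ⟨hα, hβ⟩ := hnew x hE
    have hfin : s59b_FiniteN M p hpM A (s33t_nodeN_t2 M p hpM A) x := by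
      have hμ : ∀ ζ : Kb, ζ ^ p = 1 → ζ ∈ L := by
        intro ζ hζ
        have hfixL : IntermediateField.fixedField L.fixingSubgroup = L :=
          InfiniteGalois.fixedField_fixingSubgroup L
        rw [← hfixL]
        rintro ⟨σ, hσ⟩
        exact (hLs σ fun a ha => hσ ⟨a, ha⟩).2 ζ hζ
      refine hStar M p hp3 h2M hpM hsqM A hA L hLsc hμ x hE.1 hα hβ hfix
        ⟨⟨ℓ₀, hℓ₀⟩, a ℓ₀, (hB4 ℓ₀ hℓ₀ hℓ₀B).2.1, hE.2 ⟨ℓ₀, hℓ₀⟩ hℓ₀B, fun hd => hℓ₀ne ?_⟩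
      have e : W.apOfModel ℓ₀ ^ 2 - ((ℓ₀ : ℤ) + 1) ^ 2 =
          (a ℓ₀ - ((ℓ₀ : ℕ) + 1)) * (a ℓ₀ + ((ℓ₀ : ℕ) + 1)) := by rw [ha]; push_cast; ring
      rw [e]
      exact hd.mul_right _
    rcases hLift M p hp3 h2M hpM hsqM A hA a B hB1' x hE hα hβ hfin with ht | ho
    · exact hMFin M p hp3 h2M hpM A hA x hE.1 hα hβ ht
    · exact absurd ho hocc

end

end Fermat.Agent.Lib.S59
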