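/-
Programme (R) / node [MP] / [IA′] extraction step (helper9, prefix `s59m_`):
**THE RATIONALITY WALL (Q4) FOR AN ARBITRARY EXPONENT `n`** (application: `n = p ^ k`).

Level `M q` (`q ≥ 5` prime, `q ∤ M`), `P` a valuation ring of `ℚ̄` over `q`.

* `s59m_top_abs_n` : the abstract top theorem `s44q_top_abs` for an exponent `n` prime to the index of the `p`-group
  (`s44q_exact_descent` is exponent-generic);
* `s59m_Q4pk`      : (Q4) for the exponent `p ^ k` (Sylow `p`-subgroup of the inertia group, as `s59m_Q4`);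
* `s59m_Q4n`       : (Q4) for EVERY exponent `n` (no hypothesis on `n`), by gluing the local roots of coprime
  exponents: `Φ = Φ_b ^ u * Φ_a ^ v`, `u a + v b = 1`;
* `s59m_Q4n_inst`, `s59m_Q4n_Z`, `s59m_Q4n_big` : the instances over intermediate fields of `ℚ̄` / over the inertia
  field / over every big finite normal field, verbatim `s59m_Q4_inst`, `s59m_Q4_Z`, `s59m_Q4_big` with `p` replaced by `n`.
-/
import Fermat.Agent.Lib.S59.MQ4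

set_option autoImplicit false
set_option linter.style.haveILetI false
set_option linter.unusedSectionVars false
set_option linter.unusedVariables false
set_option synthInstance.maxHeartbeats 400000

noncomputable section

namespace Fermat.Agent.Lib.S59

open ModularCurve HahnSeries AlgebraicCurve Fermat.Agent.Lib.S18 Fermat.Agent.Lib.FF
  Fermat.Agent.Lib.S34 Fermat.Agent.Lib.S37 Fermat.Agent.Lib.S44 IsLocalRing

local notation "Qbar" => AlgebraicClosure ℚ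

section Abs

variable {K F : Type*} [Field K] [Field F] [Algebra K F]
variable {G : Type*} [Group G] [Fintype G] {ρ : G →* SemilinearAut K F}

/-- **THE ABSTRACT TOP THEOREM OF THE RATIONALITY WALL, exponent `n` prime to the index of the `p`-group `P`.** -/
theorem s59m_top_abs_n {T : Set (Place K F)} (hT : s44q_Stable ρ T) (R : Set (Place K F))
    (hR : ∀ g : G, ∀ Q ∈ R, ρ g • Q ∈ R)
    (P : Subgroup G) (p : ℕ) [Fact p.Prime] (hP : IsPGroup p ↥P)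
    (n : ℕ) (hn0 : n ≠ 0) (hcopn : Nat.Coprime P.index n)
    (hB2 : ∀ H : Subgroup G, H ≤ P → ∀ Q ∈ T, ∀ Q' ∈ T, Q ∈ R → Q' ∈ R →
      (∀ g ∈ H, ρ g • Q = Q) → (∀ g ∈ H, ρ g • Q' = Q') →
      ¬ s44q_LocInv ρ T H Q → ¬ s44q_LocInv ρ T H Q' → Q = Q')
    (f : F) (hf : f ≠ 0) (hinv : ∀ g : G, ρ g • f = f)
    (hfin : {Q : Place K F | Q ∈ T ∧ Q.ord f ≠ 0}.Finite)
    (hdiv : ∀ Q ∈ T, (n : ℤ) ∣ Q.ord f)
    (hfR : ∀ Q ∈ T, Q.ord f ≠ 0 → Q ∈ R)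
    (hunif : ∀ Q ∈ T, Q.ord f ≠ 0 → ∃ u : F, u ≠ 0 ∧ (∀ g : G, ρ g • u = u) ∧ Q.ord u = 1 ∧
      {Q' : Place K F | Q' ∈ T ∧ Q'.ord u ≠ 0}.Finite ∧ ∀ Q' ∈ T, Q'.ord u ≠ 0 → Q' ∈ R) :
    ∃ Φ : F, Φ ≠ 0 ∧ (∀ g : G, ρ g • Φ = Φ) ∧ ∀ Q ∈ T, Q.ord f = (n : ℤ) * Q.ord Φ := by
  classical
  -- the exceptional places
  set Exc : Place K F → Prop := fun Q =>
    (∀ g ∈ P, ρ g • Q = Q) ∧ Q ∈ R ∧ ¬ s44q_LocInv ρ T P Q with hExc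
  have hExcFix : ∀ Q ∈ T, Exc Q → ∀ g ∈ P, ρ g • Q = Q := fun Q _ h => h.1
  have hExcUniq : ∀ Q ∈ T, ∀ Q' ∈ T, Exc Q → Exc Q' → Q = Q' := by
    intro Q hQ Q' hQ' h h'
    exact hB2 P le_rfl Q hQ Q' hQ' h.2.1 h'.2.1 h.1 h'.1 h.2.2 h'.2.2
  -- the auxiliary function
  obtain ⟨u, hu0, huinv, hufin, huR, hu1⟩ : ∃ u : F, u ≠ 0 ∧ (∀ g : G, ρ g • u = u) ∧
      {Q' : Place K F | Q' ∈ T ∧ Q'.ord u ≠ 0}.Finite ∧ (∀ Q' ∈ T, Q'.ord u ≠ 0 → Q' ∈ R) ∧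
      ∀ Q ∈ T, Exc Q → Q.ord f ≠ 0 → Q.ord u = 1 := by
    by_cases hex : ∃ Q ∈ T, Exc Q ∧ Q.ord f ≠ 0
    · obtain ⟨Q, hQ, hQE, hQf⟩ := hex
      obtain ⟨u, hu0, huinv, hu1, hufin, huR⟩ := hunif Q hQ hQf
      refine ⟨u, hu0, huinv, hufin, huR, ?_⟩
      intro Q' hQ' hQ'E _
      rw [← hExcUniq Q hQ Q' hQ' hQE hQ'E]
      exact hu1
    · refine ⟨1, one_ne_zero, fun g => smul_one _, ?_, ?_, ?_⟩
      · refine Set.Finite.subset Set.finite_empty ?_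
        rintro Q ⟨-, h⟩
        exact absurd (Place.ord_one Q) h
      · intro Q' _ h
        exact absurd (Place.ord_one Q') h
      · intro Q hQ hQE hQf
        exact absurd ⟨Q, hQ, hQE, hQf⟩ hex
  -- local equations away from the exceptional place
  have hloc : ∀ Q ∈ T, (Q.ord f ≠ 0 ∨ Q.ord u ≠ 0) → ¬ Exc Q →
      ∃ φ : F, s44q_LocEqOn T Q φ ∧ ∀ g ∈ P, ρ g • Q = Q → ρ g • φ = φ := by
    intro Q hQ hsupp hnE
    have hQR : Q ∈ R := by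
      rcases hsupp with h | h
      · exact hfR Q hQ h
      · exact huR Q hQ h
    -- the stabiliser of `Q` in `P`
    set H : Subgroup G :=
      { carrier := {g | g ∈ P ∧ ρ g • Q = Q}
        one_mem' := ⟨P.one_mem, by rw [map_one, one_smul]⟩
        mul_mem' := by
          rintro a b ⟨ha, ha'⟩ ⟨hb, hb'⟩
          exact ⟨P.mul_mem ha hb, by rw [map_mul, mul_smul, hb', ha']⟩
        inv_mem' := by
          rintro a ⟨ha, ha'⟩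
          refine ⟨P.inv_mem ha, ?_⟩
          rw [map_inv]
          conv_lhs => rw [← ha']
          rw [inv_smul_smul] } with hH
    have hHP : H ≤ P := fun g hg => hg.1
    have hHfix : ∀ g ∈ H, ρ g • Q = Q := fun g hg => hg.2
    by_cases hLI : s44q_LocInv ρ T H Q
    · obtain ⟨φ, hφ, hφinv⟩ := hLI
      exact ⟨φ, hφ, fun g hg hgQ => hφinv g ⟨hg, hgQ⟩⟩
    · exfalso
      apply hnE
      -- `Q` is fixed by `P`
      have hfixP : ∀ g ∈ P, ρ g • Q = Q := by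
        apply s44q_fixed_of_normalizer P p hP Q
        intro g hg hn1 hn2
        have hgH : ∀ h ∈ H, g * h * g⁻¹ ∈ H := fun h hh =>
          ⟨P.mul_mem (P.mul_mem hg hh.1) (P.inv_mem hg), hn1 h hh.1 hh.2⟩
        have hgH' : ∀ h ∈ H, g⁻¹ * h * g ∈ H := fun h hh =>
          ⟨P.mul_mem (P.mul_mem (P.inv_mem hg) hh.1) hg, hn2 h hh.1 hh.2⟩
        have hfix' : ∀ h ∈ H, ρ h • ρ g • Q = ρ g • Q := by
          intro h hh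
          have h1 := (hgH' h hh).2
          have h2 : ρ h • ρ g • Q = ρ g • ρ (g⁻¹ * h * g) • Q := by
            rw [← mul_smul, ← mul_smul, ← map_mul, ← map_mul]
            congr 2
            group
          rw [h2, h1]
        have hnLI' : ¬ s44q_LocInv ρ T H (ρ g • Q) := fun h =>
          hLI (s44q_LocInv.of_smul hT g hgH h)
        exact (hB2 H hHP Q hQ (ρ g • Q) (hT g Q hQ) hQR (hR g Q hQR) hHfix hfix' hLI hnLI').symm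
      exact ⟨hfixP, hQR, fun h => hLI (h.mono hHP)⟩
  exact s44q_exact_descent hT P n hn0 hcopn Exc hExcFix hExcUniq f hf hinv hfin hdiv u hu0 huinv
    hufin hu1 hloc

end Abs

set_option maxHeartbeats 4000000 in
/-- **(Q4), prime-power exponent `p ^ k`.** -/
theorem s59m_Q4pk (M q : ℕ) [NeZero M] [NeZero q] (hq : q.Prime) (hqM : ¬ q ∣ M) (h5 : 5 ≤ q)
    (p : ℕ) (hp : p.Prime) (k : ℕ)
    (A : ValuationSubring Qbar) (hA : A.LiesOverPrime q)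
    (K₀ K : Type) [Field K₀] [NumberField K₀] [Field K] [NumberField K] [Algebra K₀ K]
    [IsGalois ℚ K]
    (φ₀ : K₀ →+* Qbar) (φ : K →+* Qbar) (hj : ∀ a, φ (algebraMap K₀ K a) = φ₀ a)
    [IsDiscreteValuationRing ↥(A.comap φ₀)] (ϖ₀ : ↥(A.comap φ₀)) (hϖ₀ : Irreducible ϖ₀)
    (hinert : ∀ σ : K ≃ₐ[ℚ] K, (∀ a : K₀, σ (algebraMap K₀ K a) = algebraMap K₀ K a) →
      s44q_IsInertia A φ σ)
    (f : s34m_F K₀ (M * q)) (hf : f ≠ 0)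
    (hdiv : ∀ Q : Place K₀ (s34m_F K₀ (M * q)), ((p ^ k : ℕ) : ℤ) ∣ Q.ord f)
    (hdeg : ∀ Q : Place K (s34m_F K (M * q)),
      Q.ord (s18q_map (algebraMap K₀ K) (modularFunctionFieldFull (M * q)) f) ≠ 0 → Q.deg = 1)
    (hunif : ∀ Q₀ : Place K₀ (s34m_F K₀ (M * q)), Q₀.ord f ≠ 0 →
      ∃ u : s34m_F K₀ (M * q), u ≠ 0 ∧ Q₀.ord u = 1 ∧
        ∀ Q : Place K (s34m_F K (M * q)),
          Q.ord (s18q_map (algebraMap K₀ K) (modularFunctionFieldFull (M * q)) u) ≠ 0 → Q.deg = 1)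
    (b : Bool)
    (𝔫 : Ideal ↥(s34x_ring (s34x_infRing (s34m_VV (s44q_G A φ₀ ϖ₀ hϖ₀) φ₀ M q hq hqM))
      (s18_chart1 (L₀ := K₀) (s44q_tj K₀ (M * q) b)))) [h𝔫 : 𝔫.IsMaximal]
    (hπ𝔫 : s34x_const (s34x_infRing (s34m_VV (s44q_G A φ₀ ϖ₀ hϖ₀) φ₀ M q hq hqM))
      (s18_chart1 (L₀ := K₀) (s44q_tj K₀ (M * q) b)) ((ϖ₀ : ↥(A.comap φ₀)) : K₀)
      (s34x_inf_const_mem (s34m_VV (s44q_G A φ₀ ϖ₀ hϖ₀) φ₀ M q hq hqM) (s44q_G A φ₀ ϖ₀ hϖ₀).A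
        (s34c_const_mem_VV (s44q_G A φ₀ ϖ₀ hϖ₀) φ₀ M q hq hqM) (s44q_G A φ₀ ϖ₀ hϖ₀).ϖ) ∈ 𝔫) :
    ∃ Φ : s34m_F K₀ (M * q), Φ ≠ 0 ∧
      ∀ Q ∈ s18_chart1 (L₀ := K₀) (s44q_tj K₀ (M * q) b),
        s34f_through (s34x_infRing (s34m_VV (s44q_G A φ₀ ϖ₀ hϖ₀) φ₀ M q hq hqM))
          (s18_chart1 (L₀ := K₀) (s44q_tj K₀ (M * q) b)) 𝔫 Q →
        Q.ord f = ((p ^ k : ℕ) : ℤ) * Q.ord Φ := by
  classical
  haveI : Fact q.Prime := ⟨hq⟩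
  haveI : Fact p.Prime := ⟨hp⟩
  haveI hdvr : IsDiscreteValuationRing ↥(A.comap φ) := s18q_comap_dvr φ A q hq.ne_zero hA
  obtain ⟨ϖ, hϖ⟩ := IsDiscreteValuationRing.exists_irreducible ↥(A.comap φ)
  haveI : Algebra.IsAlgebraic ℚ K := Algebra.IsAlgebraic.of_finite ℚ K
  haveI : Algebra.IsAlgebraic K₀ K := s44q_isAlgebraic_of_rat K₀ K
  set F₀ := modularFunctionFieldFull (M * q) with hF₀
  -- the group `I = Gal(K / K₀)`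
  set E : IntermediateField ℚ K := (algebraMap K₀ K).toRatAlgHom.fieldRange with hE
  set I : Subgroup (K ≃ₐ[ℚ] K) := E.fixingSubgroup with hI
  letI : Fintype ↥I := Fintype.ofFinite _
  have hK₀ : ∀ g : ↥I, ∀ a : K₀, I.subtype g (algebraMap K₀ K a) = algebraMap K₀ K a := by
    intro g a
    have := (IntermediateField.mem_fixingSubgroup_iff E g.1).mp g.2 (algebraMap K₀ K a)
      ⟨a, rfl⟩
    exact this
  have hfix : ∀ a : K, (∀ g : ↥I, I.subtype g a = a) → ∃ a₀ : K₀, algebraMap K₀ K a₀ = a := by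
    intro a ha
    have h1 : a ∈ IntermediateField.fixedField I :=
      (IntermediateField.mem_fixedField_iff I a).mpr (fun σ hσ => ha ⟨σ, hσ⟩)
    rw [hI, IsGalois.fixedField_fixingSubgroup E] at h1
    obtain ⟨a₀, ha₀⟩ := h1
    exact ⟨a₀, ha₀⟩
  have hin : ∀ g : ↥I, s44q_IsInertia A φ (I.subtype g) := fun g =>
    hinert g.1 (fun a => hK₀ g a)
  -- the chart data of `K / K₀`
  have D := s44q_chartData_inst A φ₀ φ hj ϖ₀ hϖ₀ ϖ hϖ M q hq hqM I.subtype hK₀ hfix hin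
    (s44q_tj K₀ (M * q) b)
  rw [s44q_map_tj] at D
  have hπO : ∀ i, algebraMap K (s34m_F K (M * q)) ((ϖ : ↥(A.comap φ)) : K) ∈
      s34m_VV (s44q_G A φ ϖ hϖ) φ M q hq hqM i := fun i =>
    s34c_const_mem_VV (s44q_G A φ ϖ hϖ) φ M q hq hqM i (s44q_G A φ ϖ hϖ).ϖ
  -- the closed point upstairs
  obtain ⟨𝔫', h𝔫'max, hcomap⟩ := D.exists_over 𝔫
  haveI := h𝔫'max
  haveI h𝔫'prime : 𝔫'.IsPrime := h𝔫'max.isPrime
  have hπ𝔫' : s44q_piB _ _ ((ϖ : ↥(A.comap φ)) : K) hπO ∈ 𝔫' := by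
    -- `ϖ₀ = unit * ϖ ^ e`
    have hx0 : algebraMap K₀ K ((ϖ₀ : ↥(A.comap φ₀)) : K₀) ∈ A.comap φ := by
      show φ (algebraMap K₀ K ((ϖ₀ : ↥(A.comap φ₀)) : K₀)) ∈ A
      rw [hj]
      exact ϖ₀.2
    set x : ↥(A.comap φ) := ⟨algebraMap K₀ K ((ϖ₀ : ↥(A.comap φ₀)) : K₀), hx0⟩ with hx
    have hxne : x ≠ 0 := by
      intro h
      have h1 : algebraMap K₀ K ((ϖ₀ : ↥(A.comap φ₀)) : K₀) = 0 := congrArg Subtype.val h
      rw [map_eq_zero] at h1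
      exact hϖ₀.ne_zero (Subtype.ext h1)
    obtain ⟨n, u, hu⟩ := IsDiscreteValuationRing.eq_unit_mul_pow_irreducible hxne hϖ
    set cH := s34f_constHom (s44q_G A φ ϖ hϖ).A
      (s34x_infRing (s34m_VV (s44q_G A φ ϖ hϖ) φ M q hq hqM))
      (s34x_inf_const_mem (s34m_VV (s44q_G A φ ϖ hϖ) φ M q hq hqM) (s44q_G A φ ϖ hϖ).A
        (s34c_const_mem_VV (s44q_G A φ ϖ hϖ) φ M q hq hqM))
      (s18_chart1 (L₀ := K) (s44q_tj K (M * q) b)) with hcH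
    have hmem : cH x ∈ 𝔫' := by
      have h1 : s34x_const (s34x_infRing (s34m_VV (s44q_G A φ₀ ϖ₀ hϖ₀) φ₀ M q hq hqM))
          (s18_chart1 (L₀ := K₀) (s44q_tj K₀ (M * q) b)) ((ϖ₀ : ↥(A.comap φ₀)) : K₀)
          (s34x_inf_const_mem (s34m_VV (s44q_G A φ₀ ϖ₀ hϖ₀) φ₀ M q hq hqM)
            (s44q_G A φ₀ ϖ₀ hϖ₀).A
            (s34c_const_mem_VV (s44q_G A φ₀ ϖ₀ hϖ₀) φ₀ M q hq hqM) (s44q_G A φ₀ ϖ₀ hϖ₀).ϖ) ∈
          𝔫'.comap D.chartHom := by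
        rw [hcomap]
        exact hπ𝔫
      rw [Ideal.mem_comap] at h1
      have e : cH x = D.chartHom (s34x_const
          (s34x_infRing (s34m_VV (s44q_G A φ₀ ϖ₀ hϖ₀) φ₀ M q hq hqM))
          (s18_chart1 (L₀ := K₀) (s44q_tj K₀ (M * q) b)) ((ϖ₀ : ↥(A.comap φ₀)) : K₀)
          (s34x_inf_const_mem (s34m_VV (s44q_G A φ₀ ϖ₀ hϖ₀) φ₀ M q hq hqM)
            (s44q_G A φ₀ ϖ₀ hϖ₀).A
            (s34c_const_mem_VV (s44q_G A φ₀ ϖ₀ hϖ₀) φ₀ M q hq hqM)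
            (s44q_G A φ₀ ϖ₀ hϖ₀).ϖ)) := by
        apply Subtype.ext
        rw [D.chartHom_coe]
        show algebraMap K _ (algebraMap K₀ K ((ϖ₀ : ↥(A.comap φ₀)) : K₀)) =
          s18q_map (algebraMap K₀ K) _ (algebraMap K₀ _ ((ϖ₀ : ↥(A.comap φ₀)) : K₀))
        rw [s18q_map_algebraMap]
      rw [e]
      exact h1
    have e2 : cH x = cH (u : ↥(A.comap φ)) * cH ϖ ^ n := by
      rw [hu]
      exact (map_mul cH _ _).trans (congrArg _ (map_pow cH _ _))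
    rw [e2] at hmem
    have hunit : IsUnit (cH (u : ↥(A.comap φ))) := (Units.isUnit u).map cH
    have h2 : cH ϖ ^ n ∈ 𝔫' := by
      rcases h𝔫'prime.mem_or_mem hmem with h | h
      · exact absurd (𝔫'.eq_top_of_isUnit_mem h hunit) h𝔫'prime.ne_top
      · exact h
    exact h𝔫'prime.mem_of_pow_mem n h2
  have hπ𝔫'c : s34x_const (s34x_infRing (s34m_VV (s44q_G A φ ϖ hϖ) φ M q hq hqM))
      (s18_chart1 (L₀ := K) (s44q_tj K (M * q) b)) ((ϖ : ↥(A.comap φ)) : K)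
      (s34x_inf_const_mem (s34m_VV (s44q_G A φ ϖ hϖ) φ M q hq hqM) (s44q_G A φ ϖ hϖ).A
        (s34c_const_mem_VV (s44q_G A φ ϖ hϖ) φ M q hq hqM) (s44q_G A φ ϖ hϖ).ϖ) ∈ 𝔫' := hπ𝔫'
  -- the action, the set `T` of places through `𝔫'`, the rational places
  set ρ := s44q_rho F₀ I.subtype with hρ
  set T : Set (Place K (s34m_F K (M * q))) :=
    {Q | Q ∈ s18_chart1 (L₀ := K) (s44q_tj K (M * q) b) ∧
      s34f_through (s34x_infRing (s34m_VV (s44q_G A φ ϖ hϖ) φ M q hq hqM))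
        (s18_chart1 (L₀ := K) (s44q_tj K (M * q) b)) 𝔫' Q} with hTdef
  have hT : s44q_Stable ρ T := by
    intro g Q hQ
    have hgS := D.smul_mem_chart g hQ.1
    refine ⟨hgS, (D.through_iff hπO 𝔫' hπ𝔫' _ hgS).mpr ?_⟩
    rw [s44q_restrict_smul K₀ F₀ D.hK₀]
    exact (D.through_iff hπO 𝔫' hπ𝔫' Q hQ.1).mp hQ.2
  set R : Set (Place K (s34m_F K (M * q))) := {Q | Q.deg = 1} with hRdef
  have hR : ∀ g : ↥I, ∀ Q ∈ R, ρ g • Q ∈ R := by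
    intro g Q hQ
    show (ρ g • Q).deg = 1
    rw [SemilinearAut.deg_smul]
    exact hQ
  -- a Sylow subgroup
  obtain ⟨P⟩ : Nonempty (Sylow p ↥I) := inferInstance
  have hP : IsPGroup p ↥(P : Subgroup ↥I) := P.isPGroup'
  have hcop : Nat.Coprime (P : Subgroup ↥I).index p :=
    ((Nat.Prime.coprime_iff_not_dvd hp).mpr P.not_dvd_index).symm
  -- finiteness of supports on the chart
  have hdegN : s18g_HDeg K (M * q) := fun n b hb hn => s18g_exists_relation (M * q) φ hn b hb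
  haveI : FFGen K (s18g_jF (K := K) (M * q)) := s18b_ffGen_jF (M * q) hdegN
  haveI : FFGen K (s44q_tj K (M * q) b) := by
    cases b
    · exact ff_gen_inv
    · exact inferInstanceAs (FFGen K (s18g_jF (K := K) (M * q)))
  have hfinT : ∀ y : s34m_F K (M * q), y ≠ 0 → {Q | Q ∈ T ∧ Q.ord y ≠ 0}.Finite := by
    intro y hy
    refine (s34x_finite_ord_ne_zero1 (s44q_tj K (M * q) b) hy).subset ?_
    rintro Q ⟨hQT, hQy⟩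
    exact ⟨hQT.1, hQy⟩
  have hι0 : ∀ y : s34m_F K₀ (M * q), y ≠ 0 → s18q_map (algebraMap K₀ K) F₀ y ≠ 0 :=
    fun y hy => (map_ne_zero _).mpr hy
  -- (B2)
  have hB2 : ∀ H : Subgroup ↥I, H ≤ (P : Subgroup ↥I) → ∀ Q ∈ T, ∀ Q' ∈ T, Q ∈ R → Q' ∈ R →
      (∀ g ∈ H, ρ g • Q = Q) → (∀ g ∈ H, ρ g • Q' = Q') →
      ¬ s44q_LocInv ρ T H Q → ¬ s44q_LocInv ρ T H Q' → Q = Q' := by
    intro H _ Q hQT Q' hQ'T hQR hQ'R hfixQ hfixQ' hno hno'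
    set H' : Subgroup (K ≃ₐ[ℚ] K) := H.map I.subtype with hH'
    set E' : IntermediateField ℚ K := IntermediateField.fixedField H' with hE'
    haveI : NumberField ↥E' := ⟨⟩
    haveI : Algebra.IsAlgebraic ↥E' K := s44q_isAlgebraic_of_rat ↥E' K
    letI : Fintype ↥H := Fintype.ofFinite _
    refine s44q_b2_level M q hq hqM h5 A hA ↥E' K (φ.comp (algebraMap ↥E' K)) φ (fun a => rfl)
      ϖ hϖ (I.subtype.comp H.subtype) ?_ ?_ (fun g => hin g.1) b 𝔫' hπ𝔫'c Q Q' hQT.1 hQ'T.1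
      hQT.2 hQ'T.2 hQR hQ'R (fun g => hfixQ g.1 g.2) (fun g => hfixQ' g.1 g.2) ?_ ?_
    · intro g a
      have ha : (a : K) ∈ IntermediateField.fixedField H' := a.2
      rw [IntermediateField.mem_fixedField_iff] at ha
      exact ha _ (Subgroup.mem_map_of_mem I.subtype g.2)
    · intro a ha
      have h1 : a ∈ IntermediateField.fixedField H' := by
        rw [IntermediateField.mem_fixedField_iff]
        intro σ hσ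
        obtain ⟨g, hg, rfl⟩ := Subgroup.mem_map.mp hσ
        exact ha ⟨g, hg⟩
      exact ⟨⟨a, h1⟩, rfl⟩
    · rintro ⟨φ', h1, h2⟩
      exact hno ⟨φ', h1, fun g hg => h2 ⟨g, hg⟩⟩
    · rintro ⟨φ', h1, h2⟩
      exact hno' ⟨φ', h1, fun g hg => h2 ⟨g, hg⟩⟩
  -- the abstract top theorem
  obtain ⟨Φ, hΦ0, hΦinv, hΦ⟩ := s59m_top_abs_n hT R hR (P : Subgroup ↥I) p hP (p ^ k)
    (pow_ne_zero k hp.ne_zero) (Nat.Coprime.pow_right k hcop) hB2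
    (s18q_map (algebraMap K₀ K) F₀ f) (hι0 f hf) (fun g => s44q_rho_map F₀ hK₀ g f)
    (hfinT _ (hι0 f hf))
    (fun Q _ => by rw [s18q_ord_restrictGen]; exact hdiv _)
    (fun Q _ hQ => hdeg Q hQ)
    (by
      intro Q _ hQf
      rw [s18q_ord_restrictGen] at hQf
      obtain ⟨u, hu0, hu1, hudeg⟩ := hunif _ hQf
      refine ⟨s18q_map (algebraMap K₀ K) F₀ u, hι0 u hu0, fun g => s44q_rho_map F₀ hK₀ g u, ?_,
        hfinT _ (hι0 u hu0), fun Q' _ hQ' => hudeg Q' hQ'⟩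
      rw [s18q_ord_restrictGen]
      exact hu1)
  -- Galois descent of the root
  obtain ⟨Φ₀, hΦ₀⟩ := s44q_inv_descent F₀ hK₀ hfix Φ hΦinv
  refine ⟨Φ₀, ?_, ?_⟩
  · rintro rfl
    rw [map_zero] at hΦ₀
    exact hΦ0 hΦ₀.symm
  · intro Q₀ hQ₀S hQ₀th
    obtain ⟨Q, rfl⟩ := s18q_restrictGen_surjective K₀ (K := K) F₀ Q₀
    have hQS : Q ∈ s18_chart1 (L₀ := K) (s44q_tj K (M * q) b) := (D.hS Q).mpr hQ₀S
    have hQth : s34f_through (s34x_infRing (s34m_VV (s44q_G A φ ϖ hϖ) φ M q hq hqM))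
        (s18_chart1 (L₀ := K) (s44q_tj K (M * q) b)) 𝔫' Q := by
      rw [D.through_iff hπO 𝔫' hπ𝔫' Q hQS, hcomap]
      exact hQ₀th
    have h := hΦ Q ⟨hQS, hQth⟩
    rw [← hΦ₀, s18q_ord_restrictGen, s18q_ord_restrictGen] at h
    exact h


set_option maxHeartbeats 4000000 in
/-- **(Q4) for every exponent `n`.** -/
theorem s59m_Q4n (M q : ℕ) [NeZero M] [NeZero q] (hq : q.Prime) (hqM : ¬ q ∣ M) (h5 : 5 ≤ q)
    (n : ℕ)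
    (A : ValuationSubring Qbar) (hA : A.LiesOverPrime q)
    (K₀ K : Type) [Field K₀] [NumberField K₀] [Field K] [NumberField K] [Algebra K₀ K]
    [IsGalois ℚ K]
    (φ₀ : K₀ →+* Qbar) (φ : K →+* Qbar) (hj : ∀ a, φ (algebraMap K₀ K a) = φ₀ a)
    [IsDiscreteValuationRing ↥(A.comap φ₀)] (ϖ₀ : ↥(A.comap φ₀)) (hϖ₀ : Irreducible ϖ₀)
    (hinert : ∀ σ : K ≃ₐ[ℚ] K, (∀ a : K₀, σ (algebraMap K₀ K a) = algebraMap K₀ K a) →
      s44q_IsInertia A φ σ)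
    (f : s34m_F K₀ (M * q)) (hf : f ≠ 0)
    (hdiv : ∀ Q : Place K₀ (s34m_F K₀ (M * q)), ((n : ℕ) : ℤ) ∣ Q.ord f)
    (hdeg : ∀ Q : Place K (s34m_F K (M * q)),
      Q.ord (s18q_map (algebraMap K₀ K) (modularFunctionFieldFull (M * q)) f) ≠ 0 → Q.deg = 1)
    (hunif : ∀ Q₀ : Place K₀ (s34m_F K₀ (M * q)), Q₀.ord f ≠ 0 →
      ∃ u : s34m_F K₀ (M * q), u ≠ 0 ∧ Q₀.ord u = 1 ∧
        ∀ Q : Place K (s34m_F K (M * q)),
          Q.ord (s18q_map (algebraMap K₀ K) (modularFunctionFieldFull (M * q)) u) ≠ 0 → Q.deg = 1)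
    (b : Bool)
    (𝔫 : Ideal ↥(s34x_ring (s34x_infRing (s34m_VV (s44q_G A φ₀ ϖ₀ hϖ₀) φ₀ M q hq hqM))
      (s18_chart1 (L₀ := K₀) (s44q_tj K₀ (M * q) b)))) [h𝔫 : 𝔫.IsMaximal]
    (hπ𝔫 : s34x_const (s34x_infRing (s34m_VV (s44q_G A φ₀ ϖ₀ hϖ₀) φ₀ M q hq hqM))
      (s18_chart1 (L₀ := K₀) (s44q_tj K₀ (M * q) b)) ((ϖ₀ : ↥(A.comap φ₀)) : K₀)
      (s34x_inf_const_mem (s34m_VV (s44q_G A φ₀ ϖ₀ hϖ₀) φ₀ M q hq hqM) (s44q_G A φ₀ ϖ₀ hϖ₀).A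
        (s34c_const_mem_VV (s44q_G A φ₀ ϖ₀ hϖ₀) φ₀ M q hq hqM) (s44q_G A φ₀ ϖ₀ hϖ₀).ϖ) ∈ 𝔫) :
    ∃ Φ : s34m_F K₀ (M * q), Φ ≠ 0 ∧
      ∀ Q ∈ s18_chart1 (L₀ := K₀) (s44q_tj K₀ (M * q) b),
        s34f_through (s34x_infRing (s34m_VV (s44q_G A φ₀ ϖ₀ hϖ₀) φ₀ M q hq hqM))
          (s18_chart1 (L₀ := K₀) (s44q_tj K₀ (M * q) b)) 𝔫 Q →
        Q.ord f = ((n : ℕ) : ℤ) * Q.ord Φ := by
  classical
  induction n using Nat.recOnPosPrimePosCoprime with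
  | prime_pow p k hp hk =>
    exact s59m_Q4pk M q hq hqM h5 p hp k A hA K₀ K φ₀ φ hj ϖ₀ hϖ₀ hinert f hf hdiv hdeg hunif b 𝔫 hπ𝔫
  | zero =>
    refine ⟨1, one_ne_zero, fun Q _ _ => ?_⟩
    have h := hdiv Q
    rw [Nat.cast_zero, zero_dvd_iff] at h
    rw [h, Nat.cast_zero, zero_mul]
  | one =>
    refine ⟨f, hf, fun Q _ _ => ?_⟩
    rw [Nat.cast_one, one_mul]
  | coprime a b' ha hb hab iha ihb =>
    have hda : ∀ Q : Place K₀ (s34m_F K₀ (M * q)), ((a : ℕ) : ℤ) ∣ Q.ord f := fun Q =>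
      dvd_trans ⟨((b' : ℕ) : ℤ), by push_cast; ring⟩ (hdiv Q)
    have hdb : ∀ Q : Place K₀ (s34m_F K₀ (M * q)), ((b' : ℕ) : ℤ) ∣ Q.ord f := fun Q =>
      dvd_trans ⟨((a : ℕ) : ℤ), by push_cast; ring⟩ (hdiv Q)
    obtain ⟨Φa, hΦa0, hΦa⟩ := iha hda
    obtain ⟨Φb, hΦb0, hΦb⟩ := ihb hdb
    have hbez : ((a : ℕ) : ℤ) * Nat.gcdA a b' + ((b' : ℕ) : ℤ) * Nat.gcdB a b' = 1 := by
      have := Nat.gcd_eq_gcd_ab a b'
      rw [hab.gcd_eq_one] at this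
      exact_mod_cast this.symm
    refine ⟨Φb ^ (Nat.gcdA a b') * Φa ^ (Nat.gcdB a b'),
      mul_ne_zero (zpow_ne_zero _ hΦb0) (zpow_ne_zero _ hΦa0), fun Q hQ hth => ?_⟩
    have h1 := hΦa Q hQ hth
    have h2 := hΦb Q hQ hth
    rw [Place.ord_mul Q (zpow_ne_zero _ hΦb0) (zpow_ne_zero _ hΦa0), Place.ord_zpow, Place.ord_zpow]
    have e1 : ((a * b' : ℕ) : ℤ) * (Nat.gcdA a b' * Q.ord Φb + Nat.gcdB a b' * Q.ord Φa) =
        ((a : ℕ) : ℤ) * Nat.gcdA a b' * (((b' : ℕ) : ℤ) * Q.ord Φb) +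
          ((b' : ℕ) : ℤ) * Nat.gcdB a b' * (((a : ℕ) : ℤ) * Q.ord Φa) := by
      push_cast; ring
    rw [e1, ← h1, ← h2, ← add_mul, hbez, one_mul]

set_option maxHeartbeats 2000000 in
/-- **(Q4)ₙ over an intermediate field `Z` containing the inertia field of `L₀`.** -/
theorem s59m_Q4n_inst (M q : ℕ) [NeZero M] [NeZero q] (hq : q.Prime) (hqM : ¬ q ∣ M) (h5 : 5 ≤ q)
    (n : ℕ)
    (P : ValuationSubring Qbar) (hP : P.LiesOverPrime q)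
    (Z L₀ : IntermediateField ℚ Qbar) (hZ : Z ≤ L₀) [FiniteDimensional ℚ ↥L₀] [Normal ℚ ↥L₀]
    [IsDiscreteValuationRing ↥(s18q_A0 P Z)] (ϖ : ↥(s18q_A0 P Z)) (hϖ : Irreducible ϖ)
    (hinert : ∀ γ : ↥L₀ ≃ₐ[ℚ] ↥L₀, (∀ y : ↥L₀, (y : Qbar) ∈ Z → γ y = y) →
      ∀ a ∈ s18q_A0 P L₀, γ a ∈ s18q_A0 P L₀ ∧ γ a - a ∈ (s18q_A0 P L₀).nonunits)
    (f : s34m_F ↥Z (M * q)) (hf : f ≠ 0)
    (hdiv : ∀ Q : Place ↥Z (s34m_F ↥Z (M * q)), ((n : ℕ) : ℤ) ∣ Q.ord f)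
    (hdeg : ∀ Q : Place ↥L₀ (s34m_F ↥L₀ (M * q)), Q.ord (s44q_up (M * q) hZ f) ≠ 0 → Q.deg = 1)
    (hunif : ∀ Q₀ : Place ↥Z (s34m_F ↥Z (M * q)), Q₀.ord f ≠ 0 →
      ∃ u : s34m_F ↥Z (M * q), u ≠ 0 ∧ Q₀.ord u = 1 ∧
        ∀ Q : Place ↥L₀ (s34m_F ↥L₀ (M * q)), Q.ord (s44q_up (M * q) hZ u) ≠ 0 → Q.deg = 1) :
    (∀ 𝔫 : Ideal (s34x_ring (s34x_infRing
        (s34m_VV (s37r_G P Z ϖ hϖ) (algebraMap ↥Z Qbar) M q hq hqM))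
        (s18_chart1 (L₀ := ↥Z) (s18g_jF (K := ↥Z) (M * q)))), 𝔫.IsMaximal →
      s34x_const (s34x_infRing (s34m_VV (s37r_G P Z ϖ hϖ) (algebraMap ↥Z Qbar) M q hq hqM))
        (s18_chart1 (L₀ := ↥Z) (s18g_jF (K := ↥Z) (M * q)))
        (((s37r_G P Z ϖ hϖ).ϖ : (s37r_G P Z ϖ hϖ).A) : ↥Z)
        (s34x_inf_const_mem (s34m_VV (s37r_G P Z ϖ hϖ) (algebraMap ↥Z Qbar) M q hq hqM)
          (s37r_G P Z ϖ hϖ).A
          (s34c_const_mem_VV (s37r_G P Z ϖ hϖ) (algebraMap ↥Z Qbar) M q hq hqM)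
          (s37r_G P Z ϖ hϖ).ϖ) ∈ 𝔫 →
      ∃ Φ : s34m_F ↥Z (M * q), Φ ≠ 0 ∧
        ∀ Q ∈ s18_chart1 (L₀ := ↥Z) (s18g_jF (K := ↥Z) (M * q)),
          s34f_through (s34x_infRing
            (s34m_VV (s37r_G P Z ϖ hϖ) (algebraMap ↥Z Qbar) M q hq hqM))
            (s18_chart1 (L₀ := ↥Z) (s18g_jF (K := ↥Z) (M * q))) 𝔫 Q →
          Q.ord f = ((n : ℕ) : ℤ) * Q.ord Φ) ∧
    (∀ 𝔫 : Ideal (s34x_ring (s34x_infRing
        (s34m_VV (s37r_G P Z ϖ hϖ) (algebraMap ↥Z Qbar) M q hq hqM))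
        (s18_chart2 (L₀ := ↥Z) (s18g_jF (K := ↥Z) (M * q)))), 𝔫.IsMaximal →
      s34x_const (s34x_infRing (s34m_VV (s37r_G P Z ϖ hϖ) (algebraMap ↥Z Qbar) M q hq hqM))
        (s18_chart2 (L₀ := ↥Z) (s18g_jF (K := ↥Z) (M * q)))
        (((s37r_G P Z ϖ hϖ).ϖ : (s37r_G P Z ϖ hϖ).A) : ↥Z)
        (s34x_inf_const_mem (s34m_VV (s37r_G P Z ϖ hϖ) (algebraMap ↥Z Qbar) M q hq hqM)
          (s37r_G P Z ϖ hϖ).A
          (s34c_const_mem_VV (s37r_G P Z ϖ hϖ) (algebraMap ↥Z Qbar) M q hq hqM)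
          (s37r_G P Z ϖ hϖ).ϖ) ∈ 𝔫 →
      ∃ Φ : s34m_F ↥Z (M * q), Φ ≠ 0 ∧
        ∀ Q ∈ s18_chart2 (L₀ := ↥Z) (s18g_jF (K := ↥Z) (M * q)),
          s34f_through (s34x_infRing
            (s34m_VV (s37r_G P Z ϖ hϖ) (algebraMap ↥Z Qbar) M q hq hqM))
            (s18_chart2 (L₀ := ↥Z) (s18g_jF (K := ↥Z) (M * q))) 𝔫 Q →
          Q.ord f = ((n : ℕ) : ℤ) * Q.ord Φ) := by
  classical
  letI : Algebra ↥Z ↥L₀ := (IntermediateField.inclusion hZ).toRingHom.toAlgebra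
  haveI : FiniteDimensional ℚ ↥Z :=
    FiniteDimensional.of_injective (IntermediateField.inclusion hZ).toLinearMap
      (IntermediateField.inclusion hZ).injective
  haveI : NumberField ↥Z := ⟨⟩
  haveI : NumberField ↥L₀ := ⟨⟩
  haveI : IsGalois ℚ ↥L₀ := ⟨⟩
  haveI : IsDiscreteValuationRing ↥(P.comap (algebraMap ↥Z Qbar)) :=
    ‹IsDiscreteValuationRing ↥(s18q_A0 P Z)›
  have hj : ∀ a : ↥Z, algebraMap ↥L₀ Qbar (algebraMap ↥Z ↥L₀ a) = algebraMap ↥Z Qbar a :=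
    fun a => rfl
  have hinert' : ∀ σ : ↥L₀ ≃ₐ[ℚ] ↥L₀,
      (∀ a : ↥Z, σ (algebraMap ↥Z ↥L₀ a) = algebraMap ↥Z ↥L₀ a) →
      s44q_IsInertia P (algebraMap ↥L₀ Qbar) σ := by
    intro σ hσ
    exact hinert σ (fun y hy => hσ ⟨(y : Qbar), hy⟩)
  constructor
  · intro 𝔫 h𝔫 hπ𝔫
    exact s59m_Q4n M q hq hqM h5 n P hP ↥Z ↥L₀ (algebraMap ↥Z Qbar) (algebraMap ↥L₀ Qbar) hj ϖ hϖ
      hinert' f hf hdiv hdeg hunif true 𝔫 (h𝔫 := h𝔫) hπ𝔫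
  · intro 𝔫 h𝔫 hπ𝔫
    exact s59m_Q4n M q hq hqM h5 n P hP ↥Z ↥L₀ (algebraMap ↥Z Qbar) (algebraMap ↥L₀ Qbar) hj ϖ hϖ
      hinert' f hf hdiv hdeg hunif false 𝔫 (h𝔫 := h𝔫) hπ𝔫

set_option maxHeartbeats 2000000 in
/-- **THE RATIONALITY WALL over the inertia field, arbitrary exponent `n`.** -/
theorem s59m_Q4n_Z (M q : ℕ) [NeZero M] [NeZero q] (hq : q.Prime) (hqM : ¬ q ∣ M) (h5 : 5 ≤ q)
    (n : ℕ)
    (P : ValuationSubring Qbar) (hP : P.LiesOverPrime q)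
    (L : IntermediateField ℚ Qbar) (f : s34m_F ↥L (M * q)) (hf : f ≠ 0)
    (hdiv : ∀ Q : Place ↥L (s34m_F ↥L (M * q)), ((n : ℕ) : ℤ) ∣ Q.ord f) :
    ∃ L₂ : IntermediateField ℚ Qbar, FiniteDimensional ℚ L₂ ∧
      ∀ (L₀ : IntermediateField ℚ Qbar) [FiniteDimensional ℚ ↥L₀] [Normal ℚ ↥L₀]
        (hLL : L ≤ L₀), L₂ ≤ L₀ →
      ∀ [IsDiscreteValuationRing ↥(s18q_A0 P (s44s_Z P L L₀))]
        (ϖ : ↥(s18q_A0 P (s44s_Z P L L₀))) (hϖ : Irreducible ϖ),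
    (∀ 𝔫 : Ideal (s34x_ring (s34x_infRing
        (s34m_VV (s37r_G P (s44s_Z P L L₀) ϖ hϖ) (algebraMap ↥(s44s_Z P L L₀) Qbar) M q hq hqM))
        (s18_chart1 (L₀ := ↥(s44s_Z P L L₀)) (s18g_jF (K := ↥(s44s_Z P L L₀)) (M * q)))),
      𝔫.IsMaximal →
      s34x_const (s34x_infRing (s34m_VV (s37r_G P (s44s_Z P L L₀) ϖ hϖ)
          (algebraMap ↥(s44s_Z P L L₀) Qbar) M q hq hqM))
        (s18_chart1 (L₀ := ↥(s44s_Z P L L₀)) (s18g_jF (K := ↥(s44s_Z P L L₀)) (M * q)))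
        (((s37r_G P (s44s_Z P L L₀) ϖ hϖ).ϖ : (s37r_G P (s44s_Z P L L₀) ϖ hϖ).A) :
          ↥(s44s_Z P L L₀))
        (s34x_inf_const_mem (s34m_VV (s37r_G P (s44s_Z P L L₀) ϖ hϖ)
            (algebraMap ↥(s44s_Z P L L₀) Qbar) M q hq hqM)
          (s37r_G P (s44s_Z P L L₀) ϖ hϖ).A
          (s34c_const_mem_VV (s37r_G P (s44s_Z P L L₀) ϖ hϖ)
            (algebraMap ↥(s44s_Z P L L₀) Qbar) M q hq hqM)
          (s37r_G P (s44s_Z P L L₀) ϖ hϖ).ϖ) ∈ 𝔫 →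
      ∃ Φ : s34m_F ↥(s44s_Z P L L₀) (M * q), Φ ≠ 0 ∧
        ∀ Q ∈ s18_chart1 (L₀ := ↥(s44s_Z P L L₀)) (s18g_jF (K := ↥(s44s_Z P L L₀)) (M * q)),
          s34f_through (s34x_infRing (s34m_VV (s37r_G P (s44s_Z P L L₀) ϖ hϖ)
              (algebraMap ↥(s44s_Z P L L₀) Qbar) M q hq hqM))
            (s18_chart1 (L₀ := ↥(s44s_Z P L L₀)) (s18g_jF (K := ↥(s44s_Z P L L₀)) (M * q)))
            𝔫 Q →
          Q.ord (s44q_up (M * q) (s44s_le_Z hLL) f) = ((n : ℕ) : ℤ) * Q.ord Φ) ∧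
    (∀ 𝔫 : Ideal (s34x_ring (s34x_infRing
        (s34m_VV (s37r_G P (s44s_Z P L L₀) ϖ hϖ) (algebraMap ↥(s44s_Z P L L₀) Qbar) M q hq hqM))
        (s18_chart2 (L₀ := ↥(s44s_Z P L L₀)) (s18g_jF (K := ↥(s44s_Z P L L₀)) (M * q)))),
      𝔫.IsMaximal →
      s34x_const (s34x_infRing (s34m_VV (s37r_G P (s44s_Z P L L₀) ϖ hϖ)
          (algebraMap ↥(s44s_Z P L L₀) Qbar) M q hq hqM))
        (s18_chart2 (L₀ := ↥(s44s_Z P L L₀)) (s18g_jF (K := ↥(s44s_Z P L L₀)) (M * q)))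
        (((s37r_G P (s44s_Z P L L₀) ϖ hϖ).ϖ : (s37r_G P (s44s_Z P L L₀) ϖ hϖ).A) :
          ↥(s44s_Z P L L₀))
        (s34x_inf_const_mem (s34m_VV (s37r_G P (s44s_Z P L L₀) ϖ hϖ)
            (algebraMap ↥(s44s_Z P L L₀) Qbar) M q hq hqM)
          (s37r_G P (s44s_Z P L L₀) ϖ hϖ).A
          (s34c_const_mem_VV (s37r_G P (s44s_Z P L L₀) ϖ hϖ)
            (algebraMap ↥(s44s_Z P L L₀) Qbar) M q hq hqM)
          (s37r_G P (s44s_Z P L L₀) ϖ hϖ).ϖ) ∈ 𝔫 →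
      ∃ Φ : s34m_F ↥(s44s_Z P L L₀) (M * q), Φ ≠ 0 ∧
        ∀ Q ∈ s18_chart2 (L₀ := ↥(s44s_Z P L L₀)) (s18g_jF (K := ↥(s44s_Z P L L₀)) (M * q)),
          s34f_through (s34x_infRing (s34m_VV (s37r_G P (s44s_Z P L L₀) ϖ hϖ)
              (algebraMap ↥(s44s_Z P L L₀) Qbar) M q hq hqM))
            (s18_chart2 (L₀ := ↥(s44s_Z P L L₀)) (s18g_jF (K := ↥(s44s_Z P L L₀)) (M * q)))
            𝔫 Q →
          Q.ord (s44q_up (M * q) (s44s_le_Z hLL) f) = ((n : ℕ) : ℤ) * Q.ord Φ) := by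
  classical
  obtain ⟨L₂, hfd, hL₂⟩ := s44q_rat_tower (M * q) L f hf
  refine ⟨L₂, hfd, ?_⟩
  intro L₀ hfd₀ hnorm hLL hle hdvr ϖ hϖ
  haveI : FiniteDimensional ℚ ↥(s44s_Z P L L₀) := s44s_Z_finiteDimensional P L L₀
  have halg : Algebra.IsAlgebraic ℚ ↥(s44s_Z P L L₀) := Algebra.IsAlgebraic.of_finite ℚ _
  obtain ⟨hdeg, hunif⟩ := hL₂ (s44s_Z P L L₀) L₀ (s44s_le_Z hLL) (s44s_Z_le P L L₀) hle halg
  have hf' : s44q_up (M * q) (s44s_le_Z (P := P) hLL) f ≠ 0 := (map_ne_zero _).mpr hf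
  have hdiv' : ∀ Q : Place ↥(s44s_Z P L L₀) (s34m_F ↥(s44s_Z P L L₀) (M * q)),
      ((n : ℕ) : ℤ) ∣ Q.ord (s44q_up (M * q) (s44s_le_Z (P := P) hLL) f) := by
    intro Q
    obtain ⟨ρ, -, hρ⟩ := s18q_restrict_gen
      (IntermediateField.inclusion (s44s_le_Z (P := P) hLL)).toRingHom
      (modularFunctionFieldFull (M * q))
    have : Q.ord (s44q_up (M * q) (s44s_le_Z (P := P) hLL) f) = (ρ Q).ord f := hρ Q f
    rw [this]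
    exact hdiv _
  exact s59m_Q4n_inst M q hq hqM h5 n P hP (s44s_Z P L L₀) L₀ (s44s_Z_le P L L₀) ϖ hϖ
    (fun γ hγ => (s44s_fix_Z_inertia P L L₀ γ hγ).2)
    (s44q_up (M * q) (s44s_le_Z hLL) f) hf' hdiv' hdeg hunif

set_option maxHeartbeats 2000000 in
/-- **(Q4)ₙ over every big finite normal field.** -/
theorem s59m_Q4n_big (M q : ℕ) [NeZero M] [NeZero q] (hq : q.Prime) (hqM : ¬ q ∣ M) (h5 : 5 ≤ q)
    (n : ℕ)
    (P : ValuationSubring Qbar) (hP : P.LiesOverPrime q)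
    (L : IntermediateField ℚ Qbar) (f : s34m_F ↥L (M * q)) (hf : f ≠ 0)
    (hdiv : ∀ Q : Place ↥L (s34m_F ↥L (M * q)), ((n : ℕ) : ℤ) ∣ Q.ord f) :
    ∃ L₂ : IntermediateField ℚ Qbar, FiniteDimensional ℚ L₂ ∧
      ∀ (L₁ : IntermediateField ℚ Qbar) [FiniteDimensional ℚ ↥L₁] [Normal ℚ ↥L₁]
        (hLL : L ≤ L₁), L₂ ≤ L₁ →
      ∀ [IsDiscreteValuationRing ↥(s18q_A0 P L₁)]
        (ϖ : ↥(s18q_A0 P L₁)) (hϖ : Irreducible ϖ),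
    (∀ 𝔫 : Ideal (s34x_ring (s34x_infRing
        (s34m_VV (s37r_G P L₁ ϖ hϖ) (algebraMap ↥L₁ Qbar) M q hq hqM))
        (s18_chart1 (L₀ := ↥L₁) (s18g_jF (K := ↥L₁) (M * q)))), 𝔫.IsMaximal →
      s34x_const (s34x_infRing (s34m_VV (s37r_G P L₁ ϖ hϖ) (algebraMap ↥L₁ Qbar) M q hq hqM))
        (s18_chart1 (L₀ := ↥L₁) (s18g_jF (K := ↥L₁) (M * q)))
        (((s37r_G P L₁ ϖ hϖ).ϖ : (s37r_G P L₁ ϖ hϖ).A) : ↥L₁)
        (s34x_inf_const_mem (s34m_VV (s37r_G P L₁ ϖ hϖ) (algebraMap ↥L₁ Qbar) M q hq hqM)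
          (s37r_G P L₁ ϖ hϖ).A
          (s34c_const_mem_VV (s37r_G P L₁ ϖ hϖ) (algebraMap ↥L₁ Qbar) M q hq hqM)
          (s37r_G P L₁ ϖ hϖ).ϖ) ∈ 𝔫 →
      ∃ Φ : s34m_F ↥L₁ (M * q), Φ ≠ 0 ∧
        ∀ Q ∈ s18_chart1 (L₀ := ↥L₁) (s18g_jF (K := ↥L₁) (M * q)),
          s34f_through (s34x_infRing
            (s34m_VV (s37r_G P L₁ ϖ hϖ) (algebraMap ↥L₁ Qbar) M q hq hqM))
            (s18_chart1 (L₀ := ↥L₁) (s18g_jF (K := ↥L₁) (M * q))) 𝔫 Q →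
          Q.ord (s44q_up (M * q) hLL f) = ((n : ℕ) : ℤ) * Q.ord Φ) ∧
    (∀ 𝔫 : Ideal (s34x_ring (s34x_infRing
        (s34m_VV (s37r_G P L₁ ϖ hϖ) (algebraMap ↥L₁ Qbar) M q hq hqM))
        (s18_chart2 (L₀ := ↥L₁) (s18g_jF (K := ↥L₁) (M * q)))), 𝔫.IsMaximal →
      s34x_const (s34x_infRing (s34m_VV (s37r_G P L₁ ϖ hϖ) (algebraMap ↥L₁ Qbar) M q hq hqM))
        (s18_chart2 (L₀ := ↥L₁) (s18g_jF (K := ↥L₁) (M * q)))
        (((s37r_G P L₁ ϖ hϖ).ϖ : (s37r_G P L₁ ϖ hϖ).A) : ↥L₁)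
        (s34x_inf_const_mem (s34m_VV (s37r_G P L₁ ϖ hϖ) (algebraMap ↥L₁ Qbar) M q hq hqM)
          (s37r_G P L₁ ϖ hϖ).A
          (s34c_const_mem_VV (s37r_G P L₁ ϖ hϖ) (algebraMap ↥L₁ Qbar) M q hq hqM)
          (s37r_G P L₁ ϖ hϖ).ϖ) ∈ 𝔫 →
      ∃ Φ : s34m_F ↥L₁ (M * q), Φ ≠ 0 ∧
        ∀ Q ∈ s18_chart2 (L₀ := ↥L₁) (s18g_jF (K := ↥L₁) (M * q)),
          s34f_through (s34x_infRing
            (s34m_VV (s37r_G P L₁ ϖ hϖ) (algebraMap ↥L₁ Qbar) M q hq hqM))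
            (s18_chart2 (L₀ := ↥L₁) (s18g_jF (K := ↥L₁) (M * q))) 𝔫 Q →
          Q.ord (s44q_up (M * q) hLL f) = ((n : ℕ) : ℤ) * Q.ord Φ) := by
  classical
  obtain ⟨L₂, hfd, hL₂⟩ := s44q_rat_tower (M * q) L f hf
  refine ⟨L₂, hfd, ?_⟩
  intro L₁ hfd₁ hnorm hLL hle hdvr ϖ hϖ
  have halg : Algebra.IsAlgebraic ℚ ↥L₁ := Algebra.IsAlgebraic.of_finite ℚ _
  obtain ⟨hdeg, hunif⟩ := hL₂ L₁ L₁ hLL le_rfl hle halg
  have hf' : s44q_up (M * q) hLL f ≠ 0 := (map_ne_zero _).mpr hf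
  have hdiv' : ∀ Q : Place ↥L₁ (s34m_F ↥L₁ (M * q)),
      ((n : ℕ) : ℤ) ∣ Q.ord (s44q_up (M * q) hLL f) := by
    intro Q
    obtain ⟨ρ, -, hρ⟩ := s18q_restrict_gen (IntermediateField.inclusion hLL).toRingHom
      (modularFunctionFieldFull (M * q))
    have : Q.ord (s44q_up (M * q) hLL f) = (ρ Q).ord f := hρ Q f
    rw [this]
    exact hdiv _
  refine s59m_Q4n_inst M q hq hqM h5 n P hP L₁ L₁ le_rfl ϖ hϖ ?_
    (s44q_up (M * q) hLL f) hf' hdiv' hdeg hunif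
  intro γ hγ a ha
  have h1 : γ a = a := hγ a a.2
  rw [h1, sub_self]
  refine ⟨ha, ?_⟩
  rw [ValuationSubring.mem_nonunits_iff_or]
  exact Or.inl rfl

end Fermat.Agent.Lib.S59
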