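/-
Programme (R) / [IA′] extraction step, leaf [B]ₙ (helper9, prefix `s59m_`):
**THE ASSEMBLY OF THE REDUCTION STEP, EXPONENT `p ^ k`, GENERALISED EIGEN-POINTS.**

Level `M q` (`q ∤ M`, `5 ≤ q`, `q` the residue characteristic of `P`), Kummer exponent `p ^ k` (`p ≠ q` prime),
`x ∈ J₀(M q)[p ^ k]` a GENERALISED eigen-point away from `B` (`s59m_GEig`: `(T_ℓ - a ℓ) ^ m x = 0`), FINITE at `P`
(`s59n_Finite`, exponent `p ^ k`).  Then EITHER there is a non-zero eigen-point of exponent `p` at level `M` (hence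
`s44i_LevelOcc M p a B` by [OLD]) OR `x` is TORIC (`s59m_Toric`, exponent `p ^ k`).  Verbatim `MRedAsm.lean` with
`s59m_core` replaced by `s59m_coreN` (`MRedN.lean`) and (Q4) by (Q4)ₙ (`MQ4N.lean`).

Consequence used by the extraction step of [IA′]: if `a` does NOT occur at level `M`, every finite point of the
`𝔪_a`-part of `J₀(M q)[p ^ k]` is toric, for every `k`.
-/
import Fermat.Agent.Lib.S59.MRedAsm
import Fermat.Agent.Lib.S59.MRedN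
import Fermat.Agent.Lib.S59.MQ4N

set_option autoImplicit false
set_option linter.style.haveILetI false
set_option linter.unusedSectionVars false
set_option linter.unusedVariables false
set_option synthInstance.maxHeartbeats 400000

namespace Fermat.Agent.Lib.S59

open ModularCurve HahnSeries AlgebraicCurve Fermat.Agent.Lib.FF Fermat.Agent.Lib.S18
  Fermat.Agent.Lib.S28 Fermat.Agent.Lib.S29 Fermat.Agent.Lib.S37 Fermat.Agent.Lib.S34
  Fermat.Agent.Lib.S33 Fermat.Agent.Lib.S44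

noncomputable section

local notation "Kb" => AlgebraicClosure ℚ

/-! ### Kummer generators over `L₀`, arbitrary exponent -/

section Dict

variable (N : ℕ) [NeZero N] (n : ℕ) (L₀ : IntermediateField ℚ Kb)

/-- `s33d_kum_of_gen` for an arbitrary exponent. -/
theorem s59m_kum_of_gen_n {z : JZero N}
    {f₀ : ↥(laurentBaseChange ↥L₀ (modularFunctionFieldFull N))}
    (h : s33d_IsKumGen n z (s18q_incl N L₀ f₀)) :
    f₀ ≠ 0 ∧ ∀ Q : Place ↥L₀ ↥(laurentBaseChange ↥L₀ (modularFunctionFieldFull N)),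
      (n : ℤ) ∣ Q.ord f₀ := by
  obtain ⟨hf0, D, -, hD⟩ := h
  refine ⟨fun h0 => hf0 (by rw [h0, map_zero]), ?_⟩
  exact s18q_dvd_ord_descend N L₀ (n : ℤ) f₀ (fun P => ⟨_, hD P⟩)

/-- `s33d_kum0_of_same_class` for an arbitrary exponent `n ≠ 0`. -/
theorem s59m_kum0_of_same_class_n [NeZero n] {z : JZero N}
    {f₀ f₀' : ↥(laurentBaseChange ↥L₀ (modularFunctionFieldFull N))}
    (h : s33d_IsKumGen n z (s18q_incl N L₀ f₀)) (h' : s33d_IsKumGen n z (s18q_incl N L₀ f₀')) :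
    ∃ (c₀ : ↥L₀) (h₀ : ↥(laurentBaseChange ↥L₀ (modularFunctionFieldFull N))), c₀ ≠ 0 ∧ h₀ ≠ 0 ∧
      f₀' = algebraMap ↥L₀ _ c₀ * h₀ ^ n * f₀ := by
  obtain ⟨ζ, hζ⟩ := HasEnoughRootsOfUnity.exists_primitiveRoot Kb n
  have hf0 : f₀ ≠ 0 := (s59m_kum_of_gen_n N n L₀ h).1
  have hf0' : f₀' ≠ 0 := (s59m_kum_of_gen_n N n L₀ h').1
  obtain ⟨c, w, hc, hw, hfw⟩ := s33d_kumGen_unique (s33d_constOfOrdZero_bar N) h h'
  have hx : s33d_incl (modularFunctionFieldFull N) L₀ (f₀' / f₀) =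
      algebraMap Kb ↥(laurentBaseChange Kb (modularFunctionFieldFull N)) c * w ^ n := by
    have h1 : s18q_incl N L₀ (f₀' / f₀) = s18q_incl N L₀ f₀' / s18q_incl N L₀ f₀ := map_div₀ _ _ _
    show s18q_incl N L₀ (f₀' / f₀) = _
    rw [h1, hfw, mul_div_assoc, div_self h.1, mul_one]
  obtain ⟨c₀, h₀, hc₀, hh₀, e⟩ := s33d_kum0_descent (modularFunctionFieldFull N) n ζ hζ L₀
    (f₀' / f₀) (div_ne_zero hf0' hf0) c w hx
  refine ⟨c₀, h₀, hc₀, hh₀, ?_⟩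
  rw [← e, div_mul_cancel₀ _ hf0]

end Dict

/-! ### One component over a finite level -/

section Comp

variable (M q : ℕ) [NeZero M] [hq : Fact q.Prime] (hqM : ¬ q ∣ M) (h5 : 5 ≤ q)
  (p : ℕ) [hp : Fact p.Prime] (hpq : p ≠ q) (k : ℕ)
  (P : ValuationSubring Kb) (hP : P.LiesOverPrime q)
  (a : ℕ → ℤ) (B : Finset ℕ) (hB : ∀ r : ℕ, r.Prime → r ∣ M * q * p → r ∈ B)
  (L₀ : IntermediateField ℚ Kb) [FiniteDimensional ℚ ↥L₀]
  [IsDiscreteValuationRing ↥(s18q_A0 P L₀)] (ϖ : ↥(s18q_A0 P L₀)) (hϖ : Irreducible ϖ)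

set_option maxHeartbeats 1600000 in
include hqM h5 hpq hP hB in
/-- **one component**: a Gauss-unit Kummer generator `h` over `L₀` of an eigen-point `x` whose reduction has divisor
divisible by `p`: EITHER a non-zero eigen-point at level `M`, OR `red h = c · a₀ ^ p` over the residue field of `L₀`. -/
theorem s59m_level_compN (x : JZero (M * q)) (hE : s59m_GEig (M * q) (p ^ k) a B x)
    (h : s34m_F ↥L₀ (M * q)) (hgen : s33d_IsKumGen (p ^ k) x (s18q_incl (M * q) L₀ h))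
    (hI : h ∈ s34m_Vinf (s37r_G P L₀ ϖ hϖ) (M * q))
    (hI' : h⁻¹ ∈ s34m_Vinf (s37r_G P L₀ ϖ hϖ) (M * q))
    (ū₀ : ↥(modularFunctionFieldFullC (IsLocalRing.ResidueField ↥(s18q_A0 P L₀)) M))
    (hū₀ : (ū₀ : LaurentSeries (IsLocalRing.ResidueField ↥(s18q_A0 P L₀))) =
      s34m_redInf (s37r_G P L₀ ϖ hϖ) (M * q) ⟨h, hI⟩)
    (hdiv : ∀ v₀ : Place (IsLocalRing.ResidueField ↥(s18q_A0 P L₀))
      ↥(modularFunctionFieldFullC (IsLocalRing.ResidueField ↥(s18q_A0 P L₀)) M),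
      ((p ^ k : ℕ) : ℤ) ∣ v₀.ord ū₀) :
    (∃ y : JZero M, y ≠ 0 ∧ s44i_Eig M p a B y) ∨
      ∃ (c : IsLocalRing.ResidueField ↥(s18q_A0 P L₀))
        (a₀ : LaurentSeries (IsLocalRing.ResidueField ↥(s18q_A0 P L₀))), c ≠ 0 ∧
        a₀ ∈ modularFunctionFieldFullC (IsLocalRing.ResidueField ↥(s18q_A0 P L₀)) M ∧
        s34m_redInf (s37r_G P L₀ ϖ hϖ) (M * q) ⟨h, hI⟩ = HahnSeries.C c * a₀ ^ (p ^ k) := by
  classical
  haveI : NeZero (p ^ k) := ⟨pow_ne_zero k hp.out.ne_zero⟩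
  letI alg : Algebra (IsLocalRing.ResidueField ↥(s18q_A0 P L₀)) (IsLocalRing.ResidueField ↥P) :=
    (s37r_resMap P L₀).toAlgebra
  haveI : Algebra.IsAlgebraic (IsLocalRing.ResidueField ↥(s18q_A0 P L₀))
      (IsLocalRing.ResidueField ↥P) := s33d_resMap_isAlgebraic P hP L₀
  haveI : IsGalois (IsLocalRing.ResidueField ↥(s18q_A0 P L₀)) (IsLocalRing.ResidueField ↥P) :=
    s59m_isGalois_res P hP L₀
  have hh0 : h ≠ 0 := (s59m_kum_of_gen_n (M * q) (p ^ k) L₀ hgen).1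
  have hred0 : s34m_redInf (s37r_G P L₀ ϖ hϖ) (M * q) ⟨h, hI⟩ ≠ 0 := by
    intro h0
    have h1 : (⟨h, hI⟩ : s34m_Vinf (s37r_G P L₀ ϖ hϖ) (M * q)) * ⟨h⁻¹, hI'⟩ = 1 :=
      Subtype.ext (mul_inv_cancel₀ hh0)
    have := congrArg (s34m_redInf (s37r_G P L₀ ϖ hϖ) (M * q)) h1
    rw [map_mul, h0, zero_mul, map_one] at this
    exact zero_ne_one this
  have hū₀s : (ū₀ : LaurentSeries (IsLocalRing.ResidueField ↥(s18q_A0 P L₀))) ≠ 0 := by
    rw [hū₀]; exact hred0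
  have hū₀0 : ū₀ ≠ 0 := fun h0 => hū₀s (by rw [h0]; rfl)
  have hH : s18q_incl (M * q) L₀ h ∈ s37r_OF P (M * q) hP :=
    (s37r_incl_mem_OF_iff P (M * q) hP L₀ ϖ hϖ h).mpr hI
  have hH' : (s18q_incl (M * q) L₀ h)⁻¹ ∈ s37r_OF P (M * q) hP := by
    rw [← map_inv₀]
    exact (s37r_incl_mem_OF_iff P (M * q) hP L₀ ϖ hϖ h⁻¹).mpr hI'
  have e : s37r_redV P (M * q) hP ⟨s18q_incl (M * q) L₀ h, hH⟩ =
      coeffMap (s37r_resMap P L₀) (s34m_redInf (s37r_G P L₀ ϖ hϖ) (M * q) ⟨h, hI⟩) :=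
    s37r_redV_incl P (M * q) hP L₀ ϖ hϖ h hI hH
  have hup : ((s59m_up (k := IsLocalRing.ResidueField ↥P) M ū₀ :
      ↥(modularFunctionFieldFullC (IsLocalRing.ResidueField ↥P) M)) :
        LaurentSeries (IsLocalRing.ResidueField ↥P)) =
      s37r_redV P (M * q) hP ⟨s18q_incl (M * q) L₀ h, hH⟩ := by
    rw [s59m_up_coe, hū₀, e]
    rfl
  have hdiv' : ∀ v : Place (IsLocalRing.ResidueField ↥P)
      ↥(modularFunctionFieldFullC (IsLocalRing.ResidueField ↥P) M),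
      ((p ^ k : ℕ) : ℤ) ∣ v.ord (s59m_up (k := IsLocalRing.ResidueField ↥P) M ū₀) :=
    fun v => s59m_dvd_ord_up M ((p ^ k : ℕ) : ℤ) ū₀ hū₀0 hdiv v
  rcases s59m_coreN M q hqM h5 p hpq k P hP a B hB x hE (s18q_incl (M * q) L₀ h) hgen hH hH'
    (s59m_up (k := IsLocalRing.ResidueField ↥P) M ū₀) hup hdiv' with hy | ⟨c, w, hc, hw, hcw⟩
  · exact Or.inl hy
  · right
    haveI hchar : CharP (IsLocalRing.ResidueField ↥P) q := s18n_charP_residueField P hq.out hP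
    have hpk : ((p : ℕ) : IsLocalRing.ResidueField ↥P) ≠ 0 := by
      intro h0
      have := (CharP.cast_eq_zero_iff (IsLocalRing.ResidueField ↥P) q p).mp h0
      exact hpq ((Nat.prime_dvd_prime_iff_eq hq.out hp.out).mp this).symm
    haveI : IsAlgClosed (IsLocalRing.ResidueField ↥P) := s18n_isAlgClosed_residueField P
    haveI : NeZero (((p ^ k : ℕ) : ℕ) : IsLocalRing.ResidueField ↥P) :=
      ⟨by rw [Nat.cast_pow]; exact pow_ne_zero k hpk⟩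
    obtain ⟨ζb, hζb⟩ := HasEnoughRootsOfUnity.exists_primitiveRoot
      (IsLocalRing.ResidueField ↥P) (p ^ k)
    have hx : coeffMap (algebraMap (IsLocalRing.ResidueField ↥(s18q_A0 P L₀))
        (IsLocalRing.ResidueField ↥P))
        (ū₀ : LaurentSeries (IsLocalRing.ResidueField ↥(s18q_A0 P L₀))) =
        HahnSeries.C c * (w : LaurentSeries (IsLocalRing.ResidueField ↥P)) ^ (p ^ k) := by
      have := congrArg (fun y : ↥(modularFunctionFieldFullC (IsLocalRing.ResidueField ↥P) M) =>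
        (y : LaurentSeries (IsLocalRing.ResidueField ↥P))) hcw
      simp only [s59m_up_coe, MulMemClass.coe_mul, SubmonoidClass.coe_pow,
        s59m_coe_algebraMap_fullC] at this
      exact this
    obtain ⟨a₀, v₀, hv₀, ha₀, hv₀0, hx₀⟩ := s59m_descent M (p ^ k) ζb hζb
      (ū₀ : LaurentSeries (IsLocalRing.ResidueField ↥(s18q_A0 P L₀))) ū₀.2 hū₀s c
      (w : LaurentSeries (IsLocalRing.ResidueField ↥P)) w.2 hx
    exact ⟨a₀, v₀, ha₀, hv₀, by rw [← hū₀]; exact hx₀⟩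

end Comp

/-! ### The Atkin–Lehner involution on generalised eigen-points -/

section WQ

variable (M q : ℕ) [NeZero M] [hq : Fact q.Prime] (hqM : ¬ q ∣ M)
  (n : ℕ) (a : ℕ → ℤ) (B : Finset ℕ) (hB : ∀ r : ℕ, r.Prime → r ∣ M * q * n → r ∈ B)

include hB in
/-- `w_q` preserves generalised eigen-points. -/
theorem s59m_geig_wq (x : JZero (M * q)) (hE : s59m_GEig (M * q) n a B x) :
    haveI : NeZero q := ⟨hq.out.ne_zero⟩
    s59m_GEig (M * q) n a B (s59m_wq M q hq.out hqM x) := by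
  haveI : NeZero q := ⟨hq.out.ne_zero⟩
  refine ⟨by rw [← map_nsmul, hE.1, map_zero], fun ℓ hℓB => ?_⟩
  have hℓN : ¬ (ℓ : ℕ) ∣ M * q * n := fun hd => hℓB (hB ℓ ℓ.2 hd)
  obtain ⟨m, hm⟩ := hE.2 ℓ hℓB
  refine ⟨m, ?_⟩
  -- `w_q` commutes with the powers of `T_ℓ - a` on `n`-torsion points
  have key : ∀ (j : ℕ) (y : JZero (M * q)), n • y = 0 →
      n • (((heckeOperatorBar (M * q) ℓ - (a ℓ) • (1 : Module.End ℤ (JZero (M * q)))) ^ j) y) = 0 ∧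
      ((heckeOperatorBar (M * q) ℓ - (a ℓ) • (1 : Module.End ℤ (JZero (M * q)))) ^ j)
        (s59m_wq M q hq.out hqM y) =
      s59m_wq M q hq.out hqM
        (((heckeOperatorBar (M * q) ℓ - (a ℓ) • (1 : Module.End ℤ (JZero (M * q)))) ^ j) y) := by
    intro j
    induction j with
    | zero => intro y hy; exact ⟨by simpa using hy, by simp⟩
    | succ j ih =>
      intro y hy
      obtain ⟨h1, h2⟩ := ih y hy
      constructor
      · rw [pow_succ', Module.End.mul_apply, ← map_nsmul, h1, map_zero]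
      · rw [pow_succ', Module.End.mul_apply, Module.End.mul_apply, h2, s59m_D_apply, s59m_D_apply,
          map_add, map_zsmul, s59m_wq_hecke M q hq.out hqM n ℓ hℓN _ h1]
  rw [(key m x hE.1).2, hm, map_zero]

end WQ

/-! ### Both components over a finite level -/

section Both

variable (M q : ℕ) [NeZero M] [hq : Fact q.Prime] (hqM : ¬ q ∣ M) (h5 : 5 ≤ q)
  (p : ℕ) [hp : Fact p.Prime] (hpq : p ≠ q) (k : ℕ)
  (P : ValuationSubring Kb) (hP : P.LiesOverPrime q)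
  (a : ℕ → ℤ) (B : Finset ℕ) (hB : ∀ r : ℕ, r.Prime → r ∣ M * q * p → r ∈ B)
  (x : JZero (M * q)) (hE : s59m_GEig (M * q) (p ^ k) a B x)
  (L₀ : IntermediateField ℚ Kb) [FiniteDimensional ℚ ↥L₀] [Normal ℚ ↥L₀]
  [IsDiscreteValuationRing ↥(s18q_A0 P L₀)] (ϖ : ↥(s18q_A0 P L₀)) (hϖ : Irreducible ϖ)
  (h : s34m_F ↥L₀ (M * q)) (hgen : s33d_IsKumGen (p ^ k) x (s18q_incl (M * q) L₀ h))
  (hI : h ∈ s34m_Vinf (s37r_G P L₀ ϖ hϖ) (M * q))
  (hI' : h⁻¹ ∈ s34m_Vinf (s37r_G P L₀ ϖ hϖ) (M * q))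
  (hZ : h ∈ s34m_Vzero (s37r_G P L₀ ϖ hϖ) (algebraMap ↥L₀ Kb) M q hq.out hqM)
  (hZ' : h⁻¹ ∈ s34m_Vzero (s37r_G P L₀ ϖ hϖ) (algebraMap ↥L₀ Kb) M q hq.out hqM)
  (hnode : ∀ Q ∈ s33t_nodeN M q hqM P L₀ ϖ hϖ, Q.ord h = 0)
  (hQ4₁ : s59n_Q4 M q (p ^ k) hqM P L₀ ϖ hϖ (s18_chart1 (L₀ := ↥L₀) (s18g_jF (K := ↥L₀) (M * q))) h)
  (hQ4₂ : s59n_Q4 M q (p ^ k) hqM P L₀ ϖ hϖ (s18_chart2 (L₀ := ↥L₀) (s18g_jF (K := ↥L₀) (M * q))) h)

set_option maxHeartbeats 1600000 in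
include h5 hpq hP hB hE hgen hI hI' hZ hZ' hnode hQ4₁ hQ4₂ in
/-- **both components.** -/
theorem s59m_level_bothN :
    (∃ y : JZero M, y ≠ 0 ∧ s44i_Eig M p a B y) ∨
      ((∃ (c : IsLocalRing.ResidueField ↥(s18q_A0 P L₀))
        (a₀ : LaurentSeries (IsLocalRing.ResidueField ↥(s18q_A0 P L₀))), c ≠ 0 ∧
        a₀ ∈ modularFunctionFieldFullC (IsLocalRing.ResidueField ↥(s18q_A0 P L₀)) M ∧
        s34m_redInf (s37r_G P L₀ ϖ hϖ) (M * q) ⟨h, hI⟩ = HahnSeries.C c * a₀ ^ (p ^ k)) ∧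
      (∃ (c : IsLocalRing.ResidueField ↥(s18q_A0 P L₀))
        (a₀ : LaurentSeries (IsLocalRing.ResidueField ↥(s18q_A0 P L₀))), c ≠ 0 ∧
        a₀ ∈ modularFunctionFieldFullC (IsLocalRing.ResidueField ↥(s18q_A0 P L₀)) M ∧
        s34m_redZero (s37r_G P L₀ ϖ hϖ) (algebraMap ↥L₀ Kb) M q hq.out hqM ⟨h, hZ⟩ =
          HahnSeries.C c * a₀ ^ (p ^ k))) := by
  classical
  haveI : NeZero q := ⟨hq.out.ne_zero⟩
  haveI : NumberField ↥L₀ := ⟨⟩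
  have hBk : ∀ r : ℕ, r.Prime → r ∣ M * q * p ^ k → r ∈ B := by
    intro r hr hd
    rcases (Nat.Prime.dvd_mul hr).mp hd with h1 | h1
    · exact hB r hr (Dvd.dvd.mul_right h1 p)
    · exact hB r hr (Dvd.dvd.mul_left (hr.dvd_of_dvd_pow h1) (M * q))
  haveI hchar₀ : CharP (IsLocalRing.ResidueField ↥(s18q_A0 P L₀)) q := s37rl_charP P hP L₀
  haveI hperf₀ : PerfectField (IsLocalRing.ResidueField ↥(s18q_A0 P L₀)) :=
    s37rl_perfectField P hP L₀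
  haveI : PerfectRing (IsLocalRing.ResidueField ↥(s18q_A0 P L₀)) q := PerfectField.toPerfectRing q
  have hT : s18g_HT (IsLocalRing.ResidueField ↥(s18q_A0 P L₀)) M := s18t_indep_j q M hqM _
  have hdegM : s18g_HDeg ↥L₀ M := fun n b hb hn =>
    s18g_exists_relation M (algebraMap ↥L₀ Kb) hn b hb
  have hdeg : s34m_HDeg ↥L₀ M q := s34r_deg_HDeg (algebraMap ↥L₀ Kb) M q hq.out hqM
  have hπ : Function.Surjective (s37r_G P L₀ ϖ hϖ).π := IsLocalRing.residue_surjective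
  haveI : IsDiscreteValuationRing (s37r_G P L₀ ϖ hϖ).A := ‹_›
  have hh0 : h ≠ 0 := (s59m_kum_of_gen_n (M * q) (p ^ k) L₀ hgen).1
  obtain ⟨hdivI, hdivZ⟩ := s59m_div_p M q hqM h5 ↥L₀ (algebraMap ↥L₀ Kb)
    (IsLocalRing.ResidueField ↥(s18q_A0 P L₀)) (s37r_G P L₀ ϖ hϖ) hdeg hT hdegM hπ (p ^ k) h hh0 hI hI'
    hZ hZ' hnode hQ4₁ hQ4₂
  by_cases hy : ∃ y : JZero M, y ≠ 0 ∧ s44i_Eig M p a B y
  · exact Or.inl hy
  · right
    constructor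
    · rcases s59m_level_compN M q hqM h5 p hpq k P hP a B hB L₀ ϖ hϖ x hE h hgen hI hI'
        (s33y_redI (s37r_G P L₀ ϖ hϖ) (algebraMap ↥L₀ Kb) M q hqM hdeg hT hdegM ⟨h, hI⟩) rfl
        hdivI with h1 | h1
      · exact absurd h1 hy
      · exact h1
    · have hI₂ : s34m_al (algebraMap ↥L₀ Kb) M q hq.out hqM h ∈
          s34m_Vinf (s37r_G P L₀ ϖ hϖ) (M * q) :=
        (s34m_mem_Vzero (s37r_G P L₀ ϖ hϖ) (algebraMap ↥L₀ Kb) M q hq.out hqM h).mp hZ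
      have hI₂' : (s34m_al (algebraMap ↥L₀ Kb) M q hq.out hqM h)⁻¹ ∈
          s34m_Vinf (s37r_G P L₀ ϖ hϖ) (M * q) := by
        have := (s34m_mem_Vzero (s37r_G P L₀ ϖ hϖ) (algebraMap ↥L₀ Kb) M q hq.out hqM h⁻¹).mp hZ'
        rwa [map_inv₀] at this
      rcases s59m_level_compN M q hqM h5 p hpq k P hP a B hB L₀ ϖ hϖ
        (s59m_wq M q hq.out hqM x) (s59m_geig_wq M q hqM (p ^ k) a B hBk x hE)
        (s34m_al (algebraMap ↥L₀ Kb) M q hq.out hqM h) (s59m_kumGen_wq M q hqM (p ^ k) L₀ x h hgen)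
        hI₂ hI₂'
        (s33y_redZ (s37r_G P L₀ ϖ hϖ) (algebraMap ↥L₀ Kb) M q hqM hdeg hT hdegM ⟨h, hZ⟩) rfl
        hdivZ with h1 | h1
      · exact absurd h1 hy
      · exact h1

end Both

/-! ### The leaf -/

/-- **[B]ₙ = RED, exponent `p ^ k`, generalised eigen-points**: a finite generalised eigen-point of exponent `p ^ k`
either gives a non-zero eigen-point (exponent `p`) at level `M` or is toric (exponent `p ^ k`). -/
def s59m_RedN : Prop :=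
  ∀ (M : ℕ) [NeZero M] (q : ℕ) [Fact q.Prime] (hqM : ¬ q ∣ M), 5 ≤ q →
    ∀ (p : ℕ) [Fact p.Prime], p ≠ q → ∀ (k : ℕ),
    ∀ (P : ValuationSubring Kb), P.LiesOverPrime q →
    ∀ (a : ℕ → ℤ) (B : Finset ℕ), (∀ r : ℕ, r.Prime → r ∣ M * q * p → r ∈ B) →
    ∀ x : JZero (M * q), s59m_GEig (M * q) (p ^ k) a B x → s59n_Finite M q (p ^ k) hqM P x →
      (∃ y : JZero M, y ≠ 0 ∧ s44i_Eig M p a B y) ∨ s59m_Toric M q (p ^ k) hqM P x

set_option maxHeartbeats 1600000 in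
/-- **[B]ₙ.** -/
theorem s59m_redN : s59m_RedN := by
  intro M _ q hq hqM h5 p hp hpq k P hP a B hB x hE hfin
  classical
  haveI : NeZero q := ⟨hq.out.ne_zero⟩
  haveI : NeZero (p ^ k) := ⟨pow_ne_zero k hp.out.ne_zero⟩
  by_cases hy : ∃ y : JZero M, y ≠ 0 ∧ s44i_Eig M p a B y
  · exact Or.inl hy
  right
  obtain ⟨Lf, hLffd, hLf⟩ := hfin
  haveI := hLffd
  obtain ⟨La, hLfLa, hLafd, hLanorm⟩ := s33t_exists_normal_ge Lf
  haveI := hLafd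
  haveI := hLanorm
  haveI hdvra : IsDiscreteValuationRing ↥(s18q_A0 P La) := s18q_A0_dvr P La hP
  obtain ⟨ϖa, hϖa⟩ := IsDiscreteValuationRing.exists_irreducible ↥(s18q_A0 P La)
  obtain ⟨ha, hagen, -⟩ := hLf La ϖa hϖa hLfLa
  obtain ⟨ha0, hadiv⟩ := s59m_kum_of_gen_n (M * q) (p ^ k) La hagen
  obtain ⟨L₂, hL₂fd, hL₂⟩ := s59m_Q4n_big M q hq.out hqM h5 (p ^ k) P hP La ha ha0 hadiv
  haveI := hL₂fd
  haveI hfdx : FiniteDimensional ℚ ↥(Lf ⊔ La ⊔ L₂) := inferInstance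
  refine ⟨Lf ⊔ La ⊔ L₂, hfdx, ?_⟩
  intro L₀ _ _ _ ϖ hϖ hle
  have hLfL₀ : Lf ≤ L₀ := le_trans (le_trans le_sup_left le_sup_left) hle
  have hLaL₀ : La ≤ L₀ := le_trans (le_trans le_sup_right le_sup_left) hle
  have hL₂L₀ : L₂ ≤ L₀ := le_trans le_sup_right hle
  obtain ⟨h, hgen, hI, hI', hZ, hZ', hnode⟩ := hLf L₀ ϖ hϖ hLfL₀
  -- (Q4) for `h`
  obtain ⟨q1, q2⟩ := hL₂ L₀ hLaL₀ hL₂L₀ ϖ hϖ
  set u := s44q_up (M * q) hLaL₀ ha with hu
  have hugen : s33d_IsKumGen (p ^ k) x (s18q_incl (M * q) L₀ u) := by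
    rw [hu, s44q_incl_up]
    exact hagen
  have hu0 : u ≠ 0 := (s59m_kum_of_gen_n (M * q) (p ^ k) L₀ hugen).1
  obtain ⟨c₀, g, hc₀, hg, e⟩ := s59m_kum0_of_same_class_n (M * q) (p ^ k) L₀ hugen hgen
  have hQ4₁ : s59n_Q4 M q (p ^ k) hqM P L₀ ϖ hϖ
      (s18_chart1 (L₀ := ↥L₀) (s18g_jF (K := ↥L₀) (M * q))) h := by
    intro 𝔫 h1 h2
    have := s44q_Q4_mul_pow _ _ 𝔫 (p ^ k) u hu0 c₀ hc₀ g hg (q1 𝔫 h1 h2)
    rwa [← e] at this
  have hQ4₂ : s59n_Q4 M q (p ^ k) hqM P L₀ ϖ hϖ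
      (s18_chart2 (L₀ := ↥L₀) (s18g_jF (K := ↥L₀) (M * q))) h := by
    intro 𝔫 h1 h2
    have := s44q_Q4_mul_pow _ _ 𝔫 (p ^ k) u hu0 c₀ hc₀ g hg (q2 𝔫 h1 h2)
    rwa [← e] at this
  rcases s59m_level_bothN M q hqM h5 p hpq k P hP a B hB x hE L₀ ϖ hϖ h hgen hI hI' hZ hZ' hnode
    hQ4₁ hQ4₂ with h1 | ⟨h1, h2⟩
  · exact absurd h1 hy
  · exact ⟨h, hgen, hI, hZ, hI', hZ', hnode, h1, h2⟩

end

end Fermat.Agent.Lib.S59
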