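/-
Programme (R) / node [MP], leaf [C] = TORIC-FROB, family N (helper7, prefix `s59n_`):
**[Σ-INJ] THEOREM X₀ AT A NODE-AVOIDING FUNCTION `≡ 1`** (level `M q`, `q ≥ 5`, exponent `m` prime to `q`).

`s59n_inj_field` : over a number field `K₀` with a Gauss datum `G` (residue characteristic `q`): `F ≠ 0`,
`m ∣ div F`, `F ≡ 1 mod ϖ` on BOTH components `V_∞, V_0` of `X_0(M q)`, `ord_Q F = 0` at the places through the
nodes (chart `{j regular}`), `1 / m ∈ A` ⟹ `∃ x' ≠ 0, ord_Q F ≤ m · ord_Q x'` at all places (hence `F = c x' ^ m`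
over `ℚ̄`).

Route = helper9's final assembly `s35fin_NFKummer_of_inputs` (`Lib/S35/Final.lean`) with `Pf := F`, `x := 1`: the
generic assembly `s35f_zero`, the dictionaries `s35g_dict₁/₂` of the base function `j`, at every closed point of the
special fibre `s35gd_smoothAt_or_crossing_of_chartData`; a crossing is a node (`s33s_IsNode`), the places through it
are node places (those of chart 2 lie on chart 1: helper6's `s33n_nodePlaces_chart2_subset`), where `ord F = 0`, so the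
local generator contract holds with `γ = 1`.
-/
import Fermat.Agent.Lib.S35.GDichC
import Fermat.Agent.Lib.S35.VMax
import Fermat.Agent.Lib.S34.FFinal
import Fermat.Agent.Lib.S33.SSCompare
import Fermat.Agent.Lib.S33.DescDict
import Fermat.Agent.Lib.S37.RLevel
import Fermat.Agent.Lib.S18.XGeo
import Fermat.Agent.Lib.S18.EConst

set_option autoImplicit false
set_option linter.style.haveILetI false
set_option linter.unusedSectionVars false
set_option synthInstance.maxHeartbeats 400000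

noncomputable section

namespace Fermat.Agent.Lib.S59

open ModularCurve HahnSeries AlgebraicCurve Polynomial Fermat.Agent.Lib.S18 Fermat.Agent.Lib.FF
  Fermat.Agent.Lib.S34 Fermat.Agent.Lib.S35 Fermat.Agent.Lib.S33 Fermat.Agent.Lib.S37

local notation "Kb" => AlgebraicClosure ℚ

section Field

variable (M q : ℕ) [NeZero M] [NeZero q] (hq : q.Prime) (hqM : ¬ q ∣ M) (h5 : 5 ≤ q)
  (K₀ : Type) [Field K₀] [NumberField K₀] (φ : K₀ →+* Kb)
  (κ : Type) [Field κ] [CharP κ q] [PerfectField κ]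
  (G : s18g_GaussData K₀ κ) [IsDiscreteValuationRing G.A] (hπ : Function.Surjective G.π)

local notation "VV" => s34m_VV G φ M q hq hqM
local notation "ϖF" => s34m_unif G (M * q)
local notation "S₁" => s18_chart1 (L₀ := K₀) (s18g_jF (K := K₀) (M * q))
local notation "S₂" => s18_chart2 (L₀ := K₀) (s18g_jF (K := K₀) (M * q))

/-- a crossing is a node. -/
theorem s59n_isNode_of_crossAt (S : Set (Place K₀ (s34m_F K₀ (M * q))))
    (𝔫 : Ideal (s34x_ring (s34x_infRing VV) S)) [h𝔫 : 𝔫.IsMaximal]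
    (hc : haveI : 𝔫.IsPrime := h𝔫.isPrime; s35gd_CrossAt G φ M q hq hqM S 𝔫) :
    s33s_IsNode VV ϖF S 𝔫 := by
  haveI : 𝔫.IsPrime := h𝔫.isPrime
  obtain ⟨hk1, hk2, -⟩ := hc
  refine ⟨h𝔫, fun b hb => hk1 ?_, fun b hb => hk2 ?_⟩
  · rw [RingHom.mem_ker, s35gd_r1_eq_zero_iff]
    exact hb
  · rw [RingHom.mem_ker, s35gd_r2_eq_zero_iff]
    exact hb

/-- the local generator contract with `γ = 1` at a node where `ord F = 0`. -/
theorem s59n_nodeGen_one (S : Set (Place K₀ (s34m_F K₀ (M * q))))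
    (𝔫 : Ideal (s34x_ring (s34x_infRing VV) S)) (F : s34m_F K₀ (M * q)) (m : ℕ)
    (h0 : ∀ Q ∈ S, s34f_through (s34x_infRing VV) S 𝔫 Q → Q.ord F = 0) :
    s35f_NodeGen VV S (algebraMap K₀ (s34m_F K₀ (M * q)) ((G.ϖ : G.A) : K₀)) 𝔫 (s18_E F m) := by
  refine ⟨1, one_ne_zero, fun Q hQ hth => ?_, fun i _ => ⟨0, (VV i).zero_mem, by rw [sub_self, mul_zero]⟩⟩
  rw [s18_E, h0 Q hQ hth, Int.zero_ediv, Q.ord_one]

include hπ h5 in
set_option maxHeartbeats 1600000 in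
/-- **[Σ-INJ], field level.** -/
theorem s59n_inj_field (hϖ : Irreducible G.ϖ)
    (m : ℕ) (hm0 : m ≠ 0) (hmA : ((m : K₀))⁻¹ ∈ G.A)
    (F : s34m_F K₀ (M * q)) (hF0 : F ≠ 0)
    (hdiv : ∀ Q : Place K₀ (s34m_F K₀ (M * q)), (m : ℤ) ∣ Q.ord F)
    (hF1 : ∀ i, ∃ y ∈ VV i, F - 1 = algebraMap K₀ (s34m_F K₀ (M * q)) ((G.ϖ : G.A) : K₀) * y)
    (hN : ∀ Q ∈ s33s_nodePlaces VV ϖF S₁, Q.ord F = 0) :
    ∃ x' : s34m_F K₀ (M * q), x' ≠ 0 ∧ (∀ i, x' ∈ VV i) ∧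
      ∀ Q : Place K₀ (s34m_F K₀ (M * q)), Q.ord F ≤ (m : ℤ) * Q.ord x' := by
  classical
  haveI : Fact q.Prime := ⟨hq⟩
  have hdeg : s18g_HDeg K₀ (M * q) := fun n b hb hn => s18g_exists_relation (M * q) φ hn b hb
  haveI hgen : FFGen K₀ (s18g_jF (K := K₀) (M * q)) := s18b_ffGen_jF (M * q) hdeg
  have hC1 := s35g_chartData_five_j1 M q hq hqM K₀ φ κ G hπ h5
  have hC2 := s35g_chartData_five_j2 M q hq hqM K₀ φ κ G hπ h5
  have hB : s35g_BaseData G φ M q hq hqM (s18g_jF (K := K₀) (M * q)) :=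
    ⟨s18g_jF_ne_zero (M * q), hgen, s34m_jF_mem_VV G φ M q hq hqM, s34m_jF_inv_mem_VV G φ M q hq hqM,
      fun σ₀ => s34f_galois_jF (M * q) σ₀, s34f_alpha_j G φ M q hq hqM, s34f_alpha_inv G φ M q hq hqM,
      hC1, hC2⟩
  have hD1 := s35g_dict₁ G φ M q hq hqM _ hB
  have hD2 := s35g_dict₂ G φ M q hq hqM _ hB
  have hmL : (m : K₀) ≠ 0 := Nat.cast_ne_zero.mpr hm0
  have e1 : F / 1 ^ m = F := by rw [one_pow, div_one]
  -- the local data on a chart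
  have hloc : ∀ (S : Set (Place K₀ (s34m_F K₀ (M * q)))), s35g_ChartData G φ M q hq hqM S →
      (∀ Q ∈ s33s_nodePlaces VV ϖF S, Q.ord F = 0) →
      ∀ (𝔫 : Ideal (s34x_ring (s34x_infRing VV) S)) [𝔫.IsMaximal],
        s34x_const (s34x_infRing VV) S ((G.ϖ : G.A) : K₀)
          (s34x_inf_const_mem VV G.A (s34c_const_mem_VV G φ M q hq hqM) G.ϖ) ∈ 𝔫 →
        s35f_SmoothAt G.A VV (s34c_const_mem_VV G φ M q hq hqM) G.ϖ S 𝔫 ∨
          s35f_NodeGen VV S (algebraMap K₀ (s34m_F K₀ (M * q)) ((G.ϖ : G.A) : K₀)) 𝔫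
            (s18_E (F / 1 ^ m) m) := by
    intro S hC hNS 𝔫 h𝔫 hϖ𝔫
    haveI : 𝔫.IsPrime := h𝔫.isPrime
    have hϖ𝔫' : s35gd_unifB G φ M q hq hqM S ∈ 𝔫 := hϖ𝔫
    rcases s35gd_smoothAt_or_crossing_of_chartData G φ M q hq hqM S hC 𝔫 hϖ𝔫' with hs | hc
    · exact Or.inl hs
    · right
      rw [e1]
      have hnode := s59n_isNode_of_crossAt M q hq hqM K₀ φ κ G S 𝔫 hc
      exact s59n_nodeGen_one M q hq hqM K₀ φ κ G S 𝔫 F m
        (fun Q hQ hth => hNS Q ⟨hQ, 𝔫, hnode, hth⟩)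
  have hN2 : ∀ Q ∈ s33s_nodePlaces VV ϖF S₂, Q.ord F = 0 :=
    fun Q hQ => hN Q (s33n_nodePlaces_chart2_subset G φ M q hq hqM hQ)
  obtain ⟨x', hx'0, hx'O, hx'⟩ := s35f_zero (ι := Bool) G.A VV
    (s34c_const_mem_VV G φ M q hq hqM) G.ϖ hϖ
    (fun i => s34f_unif_not_unit_VV G φ M q hq hqM i)
    (fun i y => s34c_hU_VV G φ M q hq hqM i y)
    (s35v_hmax_VV G φ M q hq hqM) (s18g_jF (K := K₀) (M * q)) hD1 hD2 F 1 hF0 one_ne_zero m hm0 hmA hmL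
    hdiv (by rw [e1]; exact hF1)
    (fun 𝔫 _ hϖ𝔫 => hloc _ hC1 hN 𝔫 hϖ𝔫)
    (fun 𝔫 _ hϖ𝔫 => hloc _ hC2 hN2 𝔫 hϖ𝔫)
    (by
      rw [e1]
      exact s34f_hH_w G φ M q hq hqM _ (s18g_jF_ne_zero (M * q)) (s34m_jF_mem_VV G φ M q hq hqM)
        (s34m_jF_inv_mem_VV G φ M q hq hqM) (s34f_alpha_j G φ M q hq hqM) hF0 m)
  refine ⟨x', hx'0, hx'O, fun Q => ?_⟩
  have := hx' Q
  rwa [one_mul] at this

end Field

/-! ### The Kummer form -/

section Kummer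

variable (M q : ℕ) [NeZero M] [hq : Fact q.Prime] (hqM : ¬ q ∣ M) (h5 : 5 ≤ q)
  (p : ℕ) [hp : Fact p.Prime] (hpq : p ≠ q)
  (P : ValuationSubring Kb) (hP : P.LiesOverPrime q)
  (L₀ : IntermediateField ℚ Kb) [FiniteDimensional ℚ ↥L₀] [IsDiscreteValuationRing ↥(s18q_A0 P L₀)]
  (ϖ : ↥(s18q_A0 P L₀)) (hϖ : Irreducible ϖ)

include h5 hpq hP in
set_option maxHeartbeats 1600000 in
/-- **[Σ-INJ], Kummer form**: a class of exponent `p ≠ q` of `J₀(M q)` with a Kummer generator over `L₀` which is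
`≡ 1 mod ϖ` on both components and node-avoiding is ZERO. -/
theorem s59n_inj_kum {y : JZero (M * q)} {u : s34m_F ↥L₀ (M * q)}
    (hu : s33d_IsKumGen p y (s18q_incl (M * q) L₀ u))
    (hu1 : ∀ i, ∃ z ∈ s34m_VV (s37r_G P L₀ ϖ hϖ) (algebraMap ↥L₀ Kb) M q hq.out hqM i,
      u - 1 = algebraMap ↥L₀ (s34m_F ↥L₀ (M * q)) ((ϖ : ↥(s18q_A0 P L₀)) : ↥L₀) * z)
    (hN : ∀ Q ∈ s33s_nodePlaces (s34m_VV (s37r_G P L₀ ϖ hϖ) (algebraMap ↥L₀ Kb) M q hq.out hqM)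
      (s34m_unif (s37r_G P L₀ ϖ hϖ) (M * q))
      (s18_chart1 (L₀ := ↥L₀) (s18g_jF (K := ↥L₀) (M * q))), Q.ord u = 0) :
    y = 0 := by
  classical
  haveI : NeZero q := ⟨hq.out.ne_zero⟩
  haveI : NumberField ↥L₀ := ⟨⟩
  haveI hchar₀ : CharP (IsLocalRing.ResidueField ↥(s18q_A0 P L₀)) q := s37rl_charP P hP L₀
  haveI hperf₀ : PerfectField (IsLocalRing.ResidueField ↥(s18q_A0 P L₀)) :=
    s37rl_perfectField P hP L₀
  haveI : IsDiscreteValuationRing ↥(s37r_G P L₀ ϖ hϖ).A :=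
    (inferInstance : IsDiscreteValuationRing ↥(s18q_A0 P L₀))
  have hπ : Function.Surjective (s37r_G P L₀ ϖ hϖ).π := IsLocalRing.residue_surjective
  obtain ⟨hu0, hdiv⟩ := s33d_kum_of_gen (M * q) p L₀ hu
  have hqp : ¬ q ∣ p := fun h => hpq ((Nat.prime_dvd_prime_iff_eq hq.out hp.out).mp h).symm
  have hmA : ((p : ↥L₀))⁻¹ ∈ (s37r_G P L₀ ϖ hϖ).A :=
    s34f_natCast_inv_mem (s18q_A0 P L₀) hq.out (s37rl_nonunit P hP L₀) p hqp
  obtain ⟨x', hx'0, -, hx'⟩ := s59n_inj_field M q hq.out hqM h5 ↥L₀ (algebraMap ↥L₀ Kb) _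
    (s37r_G P L₀ ϖ hϖ) hπ hϖ p hp.out.ne_zero hmA u hu0 hdiv hu1 hN
  obtain ⟨ρ, -, hord⟩ := s18q_restrict_gen_bar (algebraMap ↥L₀ Kb) (modularFunctionFieldFull (M * q))
  obtain ⟨c, hc⟩ := s18x_endgame (s18q_map (algebraMap ↥L₀ Kb) (modularFunctionFieldFull (M * q))) ρ hord
    (fun g hg => s18e_const_of_ord_nonpos (M * q) g hg) u x' p hx'0 hu0 hx'
  have hc0 : c ≠ 0 := by
    rintro rfl
    rw [map_zero, zero_mul] at hc
    exact hu.1 hc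
  exact (s33d_kumGen_zero_iff (s33d_constOfOrdZero_bar (M * q)) hp.out.ne_zero hu).mpr
    ⟨c, s18q_map (algebraMap ↥L₀ Kb) (modularFunctionFieldFull (M * q)) x', hc0,
      (_root_.map_ne_zero _).mpr hx'0, hc⟩

end Kummer

end Fermat.Agent.Lib.S59
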