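/-
Programme (R2) / node **[CAR]**, route R-DS′ (helper9, prefix `s59m_`): **THE CONCRETE FRAME AT LEVEL `M q`** and the leaf
**[L-a]** (the Kummer frame) PROVED.

Frame: `q ≥ 5` prime, `q ∤ M`; `P` a valuation ring of `ℚ̄` over `q`; `L₀ ⊆ ℚ̄` a finite extension of `ℚ` (NOT assumed normal)
whose valuation ring `s18q_A0 P L₀` is a discrete valuation ring with uniformiser `ϖ`, `q = ε ϖ ^ e`
(for [CAR]: `L₀` = the inertia field, `e = 1`, `ε = 1`, `ϖ = q`).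

* `s59m_Zc M q hqM h5 P L₀ ϖ hϖ e ε …` : **the Σ-datum** `s33s_datum_five` of `X₀(M q)` over `(L₀, ϖ)` (chart `{j regular}`),
  residue field `κ₀ = ResidueField (s18q_A0 P L₀)`;
* `s59m_genC N m L₀ x h` : `h ∈ 𝓕_{L₀}(N)` is a Kummer generator of exponent `m` of `x ∈ J₀(N)`
  (`s33d_IsKumGen m x (s18q_incl N L₀ h)`); `s59m_genC_zero/_mul/_inv/_tors/_congr` (Hilbert 90: `s59m_kum0_of_same_class_n`);
* `s59m_inj_kum_n` : [Σ-INJ] for an ARBITRARY exponent `m` prime to `q` (`s59n_inj_kum` is stated for a prime exponent);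
* **`s59m_kumFrameC`** : **[L-a]** `s59m_KumFrame (M * q) m (s59m_Zc …)`, for every `m ≠ 0` prime to `q`.
* `s59m_UnitNF Z h`, `s59m_KumFrame.Fin` (the FINITE points: a generator which is a unit of both Gauss rings and
  node-avoiding), `fin_exp`, `tor_le_fin`, `mem_tor_of_dat` (abstract);
* `s59m_Base M q p K P L₀` : the ADMISSIBLE base fields (inertia-fixed, rationality of the inertia-fixed torsion, roots
  of unity).
-/
import Fermat.Agent.Lib.S59.MCarAsm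
import Fermat.Agent.Lib.S59.MRedNAsm
import Fermat.Agent.Lib.S59.NInj

set_option autoImplicit false
set_option linter.style.haveILetI false
set_option linter.unusedSectionVars false
set_option linter.unusedVariables false
set_option synthInstance.maxHeartbeats 400000

noncomputable section

namespace Fermat.Agent.Lib.S59

open ModularCurve HahnSeries AlgebraicCurve Fermat.Agent.Lib.FF Fermat.Agent.Lib.S18
  Fermat.Agent.Lib.S28 Fermat.Agent.Lib.S29 Fermat.Agent.Lib.S37 Fermat.Agent.Lib.S34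
  Fermat.Agent.Lib.S35 Fermat.Agent.Lib.S33 Fermat.Agent.Lib.S44

local notation "Kb" => AlgebraicClosure ℚ
local notation "Γℚ" => (AlgebraicClosure ℚ ≃ₐ[ℚ] AlgebraicClosure ℚ)

/-! ### Kummer generators: group operations (abstract) -/

section Abs

variable {K F : Type*} [Field K] [Field F] [Algebra K F]

theorem s59m_isKumGen_mul {m : ℕ} {z z' : Pic0 K F} {f f' : F} (hf : s33d_IsKumGen m z f)
    (hf' : s33d_IsKumGen m z' f') : s33d_IsKumGen m (z + z') (f * f') := by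
  obtain ⟨hf0, D, rfl, hD⟩ := hf
  obtain ⟨hf'0, D', rfl, hD'⟩ := hf'
  refine ⟨mul_ne_zero hf0 hf'0, D + D', rfl, fun v => ?_⟩
  rw [v.ord_mul hf0 hf'0, hD v, hD' v, AddSubgroup.coe_add, Finsupp.add_apply, mul_add]

theorem s59m_isKumGen_inv {m : ℕ} {z : Pic0 K F} {f : F} (hf : s33d_IsKumGen m z f) :
    s33d_IsKumGen m (-z) f⁻¹ := by
  obtain ⟨hf0, D, rfl, hD⟩ := hf
  refine ⟨inv_ne_zero hf0, -D, rfl, fun v => ?_⟩
  rw [v.ord_inv, hD v, AddSubgroup.coe_neg, Finsupp.neg_apply, mul_neg]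

theorem s59m_isKumGen_tors {m : ℕ} {z : Pic0 K F} {f : F} (hf : s33d_IsKumGen m z f) : m • z = 0 := by
  obtain ⟨hf0, D, rfl, hD⟩ := hf
  have h1 : Pic0.mk (m • D) = m • Pic0.mk D := map_nsmul (QuotientAddGroup.mk' _) m D
  rw [← h1]
  refine (QuotientAddGroup.eq_zero_iff (m • D)).mpr ?_
  refine ⟨f, hf0, fun v => ?_⟩
  show ((m • D : Divisor.degZero (K := K) (F := F)) : Divisor K F) v = v.ord f
  rw [hD v, AddSubgroupClass.coe_nsmul, Finsupp.smul_apply, nsmul_eq_mul]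

end Abs

/-! ### The finite points of a Kummer frame (abstract) -/

section FinAbs

variable {L₀ 𝓕' κ Fb : Type*} [Field L₀] [Field 𝓕'] [Algebra L₀ 𝓕'] [Field κ] [Field Fb] [Algebra κ Fb]
variable {D' : s33f_Datum L₀ 𝓕' κ Fb} {𝓕 : Type*} [Field 𝓕] [Algebra L₀ 𝓕]
variable {ι : Type*} {k : ι → Type*} [∀ s, Field (k s)] [∀ s, Algebra κ (k s)]

/-- `h` is a unit of both Gauss rings and node-avoiding. -/
structure s59m_UnitNF (Z : s33z_Datum D' 𝓕 ι k) (h : 𝓕) : Prop where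
  hi : h ∈ Z.Ci.O
  hi' : h⁻¹ ∈ Z.Ci.O
  hz : h ∈ Z.Cz.O
  hz' : h⁻¹ ∈ Z.Cz.O
  nf : s33z_NF Z h

variable {Z : s33z_Datum D' 𝓕 ι k}

theorem s59m_UnitNF.one : s59m_UnitNF Z (1 : 𝓕) :=
  ⟨one_mem _, by rw [inv_one]; exact one_mem _, one_mem _, by rw [inv_one]; exact one_mem _,
    s33z_nf_one⟩

theorem s59m_UnitNF.mul {h h' : 𝓕} (a : s59m_UnitNF Z h) (b : s59m_UnitNF Z h') :
    s59m_UnitNF Z (h * h') :=
  ⟨mul_mem a.hi b.hi, by rw [mul_inv]; exact mul_mem a.hi' b.hi', mul_mem a.hz b.hz,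
    by rw [mul_inv]; exact mul_mem a.hz' b.hz', a.nf.mul b.nf⟩

theorem s59m_UnitNF.inv {h : 𝓕} (a : s59m_UnitNF Z h) : s59m_UnitNF Z h⁻¹ :=
  ⟨a.hi', by rw [inv_inv]; exact a.hi, a.hz', by rw [inv_inv]; exact a.hz, a.nf.inv⟩

theorem s59m_TorDat.unitNF {m : ℕ} {h : 𝓕} (t : s59m_TorDat Z m h) : s59m_UnitNF Z h :=
  ⟨t.hi, t.hi', t.hz, t.hz', t.nf⟩

variable {N m : ℕ} [NeZero N]

/-- **the finite points** of a Kummer frame: the classes having a generator which is a unit of both Gauss rings and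
node-avoiding. -/
def s59m_KumFrame.Fin (F : s59m_KumFrame N m Z) : AddSubgroup (JZero N) where
  carrier := {x | ∃ h : 𝓕, F.gen x h ∧ s59m_UnitNF Z h}
  zero_mem' := ⟨1, F.gen_zero, s59m_UnitNF.one⟩
  add_mem' := by
    rintro x x' ⟨h, hx, a⟩ ⟨h', hx', b⟩
    exact ⟨h * h', F.gen_add hx hx', a.mul b⟩
  neg_mem' := by
    rintro x ⟨h, hx, a⟩
    exact ⟨h⁻¹, F.gen_neg hx, a.inv⟩

theorem s59m_KumFrame.fin_exp (F : s59m_KumFrame N m Z) {x : JZero N} (hx : x ∈ F.Fin) :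
    m • x = 0 := by
  obtain ⟨h, hg, -⟩ := hx
  exact F.gen_tors hg

/-- toric points are finite. -/
theorem s59m_KumFrame.tor_le_fin (F : s59m_KumFrame N m Z) : F.Tor ≤ F.Fin := by
  rintro x ⟨h, hx, ⟨t⟩⟩
  exact ⟨h, hx, t.unitNF⟩

/-- a finite point whose generator has toric data is toric. -/
theorem s59m_KumFrame.mem_tor_of_dat (F : s59m_KumFrame N m Z) {x : JZero N} {h : 𝓕}
    (hx : F.gen x h) (t : s59m_TorDat Z m h) : x ∈ F.Tor := ⟨h, hx, ⟨t⟩⟩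

end FinAbs

/-! ### Kummer generators over `L₀` -/

section Gen

variable (N : ℕ) [NeZero N] (m : ℕ) (L₀ : IntermediateField ℚ Kb)

/-- `h ∈ 𝓕_{L₀}(N)` is a Kummer generator of exponent `m` of `x ∈ J₀(N)`. -/
def s59m_genC (x : JZero N) (h : s34m_F ↥L₀ N) : Prop :=
  s33d_IsKumGen m x (s18q_incl N L₀ h)

theorem s59m_genC_zero : s59m_genC N m L₀ 0 1 := by
  unfold s59m_genC
  rw [map_one]
  exact ⟨one_ne_zero, 0, rfl, fun v => by simp⟩

end Gen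

/-! ### [Σ-INJ] for an arbitrary exponent -/

section Inj

variable (M q : ℕ) [NeZero M] [hq : Fact q.Prime] (hqM : ¬ q ∣ M) (h5 : 5 ≤ q)
  (m : ℕ) (hm0 : m ≠ 0) (hqm : ¬ q ∣ m)
  (P : ValuationSubring Kb) (hP : P.LiesOverPrime q)
  (L₀ : IntermediateField ℚ Kb) [FiniteDimensional ℚ ↥L₀] [IsDiscreteValuationRing ↥(s18q_A0 P L₀)]
  (ϖ : ↥(s18q_A0 P L₀)) (hϖ : Irreducible ϖ)

include h5 hm0 hqm hP in
set_option maxHeartbeats 1600000 in
/-- **[Σ-INJ], Kummer form, exponent `m` prime to `q`**: a class of `J₀(M q)` with a Kummer generator of exponent `m` over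
`L₀` which is `≡ 1 mod ϖ` on both components and node-avoiding is ZERO. -/
theorem s59m_inj_kum_n {y : JZero (M * q)} {u : s34m_F ↥L₀ (M * q)}
    (hu : s33d_IsKumGen m y (s18q_incl (M * q) L₀ u))
    (hu1 : ∀ i, ∃ z ∈ s34m_VV (s37r_G P L₀ ϖ hϖ) (algebraMap ↥L₀ Kb) M q hq.out hqM i,
      u - 1 = algebraMap ↥L₀ (s34m_F ↥L₀ (M * q)) ((ϖ : ↥(s18q_A0 P L₀)) : ↥L₀) * z)
    (hN : ∀ Q ∈ s33s_nodePlaces (s34m_VV (s37r_G P L₀ ϖ hϖ) (algebraMap ↥L₀ Kb) M q hq.out hqM)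
      (s34m_unif (s37r_G P L₀ ϖ hϖ) (M * q))
      (s18_chart1 (L₀ := ↥L₀) (s18g_jF (K := ↥L₀) (M * q))), Q.ord u = 0) :
    y = 0 := by
  classical
  haveI : NeZero q := ⟨hq.out.ne_zero⟩
  haveI : NumberField ↥L₀ := ⟨⟩
  haveI hchar₀ : CharP (IsLocalRing.ResidueField ↥(s18q_A0 P L₀)) q := s37rl_charP P hP L₀
  haveI hperf₀ : PerfectField (IsLocalRing.ResidueField ↥(s18q_A0 P L₀)) :=
    s37rl_perfectField P hP L₀
  haveI : IsDiscreteValuationRing ↥(s37r_G P L₀ ϖ hϖ).A :=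
    (inferInstance : IsDiscreteValuationRing ↥(s18q_A0 P L₀))
  have hπ : Function.Surjective (s37r_G P L₀ ϖ hϖ).π := IsLocalRing.residue_surjective
  obtain ⟨hu0, hdiv⟩ := s59m_kum_of_gen_n (M * q) m L₀ hu
  have hmA : ((m : ↥L₀))⁻¹ ∈ (s37r_G P L₀ ϖ hϖ).A :=
    s34f_natCast_inv_mem (s18q_A0 P L₀) hq.out (s37rl_nonunit P hP L₀) m hqm
  obtain ⟨x', hx'0, -, hx'⟩ := s59n_inj_field M q hq.out hqM h5 ↥L₀ (algebraMap ↥L₀ Kb) _
    (s37r_G P L₀ ϖ hϖ) hπ hϖ m hm0 hmA u hu0 hdiv hu1 hN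
  obtain ⟨ρ, -, hord⟩ := s18q_restrict_gen_bar (algebraMap ↥L₀ Kb) (modularFunctionFieldFull (M * q))
  obtain ⟨c, hc⟩ := s18x_endgame (s18q_map (algebraMap ↥L₀ Kb) (modularFunctionFieldFull (M * q))) ρ hord
    (fun g hg => s18e_const_of_ord_nonpos (M * q) g hg) u x' m hx'0 hu0 hx'
  have hc0 : c ≠ 0 := by
    rintro rfl
    rw [map_zero, zero_mul] at hc
    exact hu.1 hc
  exact (s33d_kumGen_zero_iff (s33d_constOfOrdZero_bar (M * q)) hm0 hu).mpr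
    ⟨c, s18q_map (algebraMap ↥L₀ Kb) (modularFunctionFieldFull (M * q)) x', hc0,
      (_root_.map_ne_zero _).mpr hx'0, hc⟩

end Inj

/-! ### The concrete Σ-datum and its Kummer frame: **[L-a]** -/

section Frame

variable (M q : ℕ) [NeZero M] [hq : Fact q.Prime] (hqM : ¬ q ∣ M) (h5 : 5 ≤ q)
  (m : ℕ) (hm0 : m ≠ 0) (hqm : ¬ q ∣ m)
  (P : ValuationSubring Kb) (hP : P.LiesOverPrime q)
  (L₀ : IntermediateField ℚ Kb) [FiniteDimensional ℚ ↥L₀] [IsDiscreteValuationRing ↥(s18q_A0 P L₀)]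
  (ϖ : ↥(s18q_A0 P L₀)) (hϖ : Irreducible ϖ)
  [NumberField ↥L₀] [CharP (IsLocalRing.ResidueField ↥(s18q_A0 P L₀)) q]
  [PerfectField (IsLocalRing.ResidueField ↥(s18q_A0 P L₀))]
  [IsDiscreteValuationRing ↥(s37r_G P L₀ ϖ hϖ).A]
  (hdeg : s34m_HDeg ↥L₀ M q) (hT : s18g_HT (IsLocalRing.ResidueField ↥(s18q_A0 P L₀)) M)
  (hdegM : s18g_HDeg ↥L₀ M) (hπ : Function.Surjective (s37r_G P L₀ ϖ hϖ).π)
  (e : ℕ) (ε : ↥L₀) (he : 0 < e) (hε : ε ∈ (s37r_G P L₀ ϖ hϖ).A)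
  (hεinv : ε⁻¹ ∈ (s37r_G P L₀ ϖ hϖ).A) (hε0 : ε ≠ 0)
  (hqe : (q : ↥L₀) = ε * (((s37r_G P L₀ ϖ hϖ).ϖ : (s37r_G P L₀ ϖ hϖ).A) : ↥L₀) ^ e)
  (hperf : ∀ c : IsLocalRing.ResidueField ↥(s18q_A0 P L₀), ∃ d, d ^ q = c)

/-- **THE Σ-DATUM OF `X₀(M q)` OVER `(L₀, ϖ)`** (`q ≥ 5`, chart `{j regular}`): `s33s_datum_five` at the Gauss data
`s37r_G P L₀ ϖ hϖ`, residue field `κ₀ = ResidueField (s18q_A0 P L₀)`. -/
abbrev s59m_Zc := s33s_datum_five M q hqM h5 ↥L₀ (algebraMap ↥L₀ Kb)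
  (IsLocalRing.ResidueField ↥(s18q_A0 P L₀)) (s37r_G P L₀ ϖ hϖ) hdeg hT hdegM hπ e ε he hε hεinv hε0
  hqe hperf

include hm0 hqm hP in
set_option maxHeartbeats 1600000 in
/-- **[L-a]: THE KUMMER FRAME** of exponent `m` (`m ≠ 0`, `q ∤ m`) at level `M q` over the Σ-datum `s59m_Zc`:
`gen x h := s59m_genC (M q) m L₀ x h`. -/
def s59m_kumFrameC : s59m_KumFrame (M * q) m
    (s59m_Zc M q hqM h5 P L₀ ϖ hϖ hdeg hT hdegM hπ e ε he hε hεinv hε0 hqe hperf) where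
  gen x h := s59m_genC (M * q) m L₀ x h
  gen_zero := s59m_genC_zero (M * q) m L₀
  gen_add := by
    intro x x' h h' hx hx'
    show s33d_IsKumGen m (x + x') (s18q_incl (M * q) L₀ (h * h'))
    rw [map_mul]
    exact s59m_isKumGen_mul hx hx'
  gen_neg := by
    intro x h hx
    show s33d_IsKumGen m (-x) (s18q_incl (M * q) L₀ h⁻¹)
    rw [map_inv₀]
    exact s59m_isKumGen_inv hx
  gen_tors := fun hx => s59m_isKumGen_tors hx
  gen_congr := by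
    intro x h h' hx hx'
    haveI : NeZero m := ⟨hm0⟩
    exact s59m_kum0_of_same_class_n (M * q) m L₀ hx hx'
  inj := by
    intro x h hx c g u hc hg e1 hcong hnf
    -- `u` is a Kummer generator of `x`
    have hcK : ((c : ↥L₀) : Kb) ≠ 0 := fun h0 => hc (Subtype.ext h0)
    have hgK : s18q_incl (M * q) L₀ g ≠ 0 := (_root_.map_ne_zero _).mpr hg
    have hx1 : s33d_IsKumGen m x (s18q_incl (M * q) L₀ h) := hx
    have hu : s33d_IsKumGen m x (s18q_incl (M * q) L₀ u) := by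
      have hK5 := s33d_kumGen_mul hx1 (inv_ne_zero hcK) (inv_ne_zero hgK)
      have e5 : algebraMap Kb (ffi_F (M * q)) ((c : ↥L₀) : Kb)⁻¹ * (s18q_incl (M * q) L₀ g)⁻¹ ^ m *
          s18q_incl (M * q) L₀ h = s18q_incl (M * q) L₀ u := by
        have hc1 : algebraMap Kb (ffi_F (M * q)) ((c : ↥L₀) : Kb) ≠ 0 :=
          (_root_.map_ne_zero _).mpr hcK
        rw [e1, map_mul, map_mul, map_pow, s18q_incl_algebraMap, map_inv₀, inv_pow]
        field_simp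
      rw [e5] at hK5
      exact hK5
    obtain ⟨⟨zi, hzi, ezi⟩, ⟨zz, hzz, ezz⟩⟩ := hcong
    have hu1 : ∀ i, ∃ z ∈ s34m_VV (s37r_G P L₀ ϖ hϖ) (algebraMap ↥L₀ Kb) M q hq.out hqM i,
        u - 1 = algebraMap ↥L₀ (s34m_F ↥L₀ (M * q)) ((ϖ : ↥(s18q_A0 P L₀)) : ↥L₀) * z := by
      intro i
      cases i
      · refine ⟨zz, hzz, ?_⟩
        rw [ezz, pow_one]
        rfl
      · refine ⟨zi, hzi, ?_⟩
        rw [ezi, pow_one]
        rfl
    exact s59m_inj_kum_n M q hqM h5 m hm0 hqm P hP L₀ ϖ hϖ hu hu1 hnf.2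

end Frame

/-! ### Admissible base fields -/

/-- **an admissible base field `L₀` at depth `K`** for the place `P ∣ q`: fixed by the inertia group of `P` (hence
unramified: `e = 1`, `s59n_e_eq_one_of_fix`), over which every inertia-fixed point of `J₀(M q)[p ^ K]` and of
`J₀(M q²)[p]` is rational, and which contains the roots of unity of order `p ^ K` and `q² - 1`.
(Existence: the inertia field `s44s_Z P ⊥ L₁` of a large finite normal `L₁` — leaf [FR-K0].) -/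
structure s59m_Base (M q p K : ℕ) [NeZero M] [NeZero q] (P : ValuationSubring Kb)
    (L₀ : IntermediateField ℚ Kb) : Prop where
  unr : ∀ τ ∈ P.inertiaSubgroupIn ℚ, ∀ a ∈ L₀, τ a = a
  rat : ∀ x : JZero (M * q), (p ^ K) • x = 0 → (∀ τ ∈ P.inertiaSubgroupIn ℚ, τ • x = x) →
    ∀ σ : Γℚ, (∀ a ∈ L₀, σ a = a) → σ • x = x
  rat2 : ∀ x : JZero (M * q * q), p • x = 0 → (∀ τ ∈ P.inertiaSubgroupIn ℚ, τ • x = x) →
    ∀ σ : Γℚ, (∀ a ∈ L₀, σ a = a) → σ • x = x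
  zeta : ∃ ζ : Kb, ζ ∈ L₀ ∧ IsPrimitiveRoot ζ (p ^ K)
  zeta2 : ∃ ζ : Kb, ζ ∈ L₀ ∧ IsPrimitiveRoot ζ (q ^ 2 - 1)

end Fermat.Agent.Lib.S59
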