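/-
Programme (R) / node [MP], leaf [A] = FIN, family N (helper7, prefix `s59n_`):
**[A] UNCONDITIONAL**: `s59n_q4z : s59n_Q4Z` from helper9's `s59m_Q4_Z` (`MQ4.lean`, the rationality wall (Q4) with the
level prime `q ≥ 5` and the exponent `p` separated), hence `s59n_fin_main : s59n_Fin`.
-/
import Fermat.Agent.Lib.S59.NStar
import Fermat.Agent.Lib.S59.MQ4

set_option autoImplicit false
set_option linter.style.haveILetI false
set_option linter.unusedSectionVars false
set_option synthInstance.maxHeartbeats 400000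

noncomputable section

namespace Fermat.Agent.Lib.S59

open ModularCurve HahnSeries AlgebraicCurve Fermat.Agent.Lib.S18 Fermat.Agent.Lib.S28
  Fermat.Agent.Lib.S29 Fermat.Agent.Lib.S37 Fermat.Agent.Lib.FF Fermat.Agent.Lib.S34
  Fermat.Agent.Lib.S35 Fermat.Agent.Lib.S33 Fermat.Agent.Lib.Frey Fermat.Agent.Lib.S44

local notation "Kb" => AlgebraicClosure ℚ

set_option maxHeartbeats 1600000 in
/-- **[A-Q4]** = helper9's `s59m_Q4_Z`, restricted to the nodes of the chart `{j regular}`. -/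
theorem s59n_q4z : s59n_Q4Z := by
  intro M q _ hq hqM h5 p hp _ P hP L f hf hdiv
  haveI : NeZero q := ⟨hq.out.ne_zero⟩
  obtain ⟨L₂, hfd, h⟩ := s59m_Q4_Z M q hq.out hqM h5 p hp.out P hP L f hf hdiv
  refine ⟨L₂, hfd, ?_⟩
  intro L₀ _ _ hLL hle _ ϖ hϖ s
  obtain ⟨h1, -⟩ := h L₀ hLL hle ϖ hϖ
  exact h1 s.1 s.2.1 (s.2.2.1 ⟨1, ValuationSubring.one_mem _, by rw [mul_one]; rfl⟩)

/-- **[A] = FIN**, unconditional (`q ≥ 5`, `p ≥ 5`, `p ≠ q`). -/
theorem s59n_fin_main : s59n_Fin := s59n_fin s59n_q4z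

end Fermat.Agent.Lib.S59
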