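/-
Programme (R) / node [IA′-all] (extraction step, helper1 #3278 §5), leaf [A]ₙ, family N (helper7, prefix `s59n_`):
**(★), LOCAL FORM, TAME CASE, FOR AN ARBITRARY EXPONENT `n` AND WITHOUT EIGENVECTORS.**

The tame (★) of `NStarAbs.lean` used the Hecke relation `T f = c g ^ p f ^ m` of an eigenclass only to get `p ∣ δ f`.
Here the divisibility `n ∣ δ F` is a HYPOTHESIS (it holds on the nose for `F = c g ^ n · τ f · f ^ (-(ℓ + 1))`, the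
Kummer generator of `(T_ℓ - (ℓ + 1)) x`), and the exponent `n` is any natural number prime to `δ η`.

* `s59n_local_pth_tame_n`, `s59n_local_fin_tame_n` : (G5), tame form, with `IsCoprime (n : ℤ) (δ η)`;
* `s59n_star_local_n`   : exact (Q4) at the nodes + `n ∣ δ F` + `η` ⇒ at every node `F = Γ ^ n υ`, `υ` a unit at the
  places through the node with `δ υ = 0`;
* `s59n_delta_T`        : `δ (T f) = (ℓ + 1) δ f`;
* `s59n_five_star_n`    : the same for `s33s_datum_five` at level `M * q`, conclusion verbatim the hypothesis `hloc` of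
  helper8's `s44e_glob_five`;
* `s59n_five_eta_n`     : helper8's modular unit is an admissible `η` as soon as `n` is prime to `12 e`.
-/
import Fermat.Agent.Lib.S59.NStarAbs

set_option autoImplicit false
set_option linter.unusedSectionVars false
set_option linter.style.haveILetI false

noncomputable section

namespace Fermat.Agent.Lib.S59

open ModularCurve AlgebraicCurve HahnSeries Polynomial Fermat.Agent.Lib.FF Fermat.Agent.Lib.S18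
  Fermat.Agent.Lib.S34 Fermat.Agent.Lib.S37 Fermat.Agent.Lib.S33 Fermat.Agent.Lib.S44

section Abstract

variable {L₀ 𝓕' κ Fb : Type*} [Field L₀] [Field 𝓕'] [Algebra L₀ 𝓕'] [Field κ] [Field Fb] [Algebra κ Fb]
variable {D' : s33f_Datum L₀ 𝓕' κ Fb} {𝓕 : Type*} [Field 𝓕] [Algebra L₀ 𝓕]
variable {ι : Type*} {k : ι → Type*} [∀ s, Field (k s)] [∀ s, Algebra κ (k s)]
variable {Z : s33z_Datum D' 𝓕 ι k} {Ns : ι → Set (Place L₀ 𝓕)}

/-- **(G5), tame form, arbitrary exponent**: `E, η` units at `T`, `n ∣ δ E`, `n` prime to `δ η` ⇒ there is a unit `g`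
at `T` (a monomial in `E` and `η`) with `δ E = n · δ g`. -/
theorem s59n_local_pth_tame_n {T : Set (Place L₀ 𝓕)} {n : ℕ} {E η : 𝓕}
    (hE : s44c_Unit T E) (hη : s44c_Unit T η) (h1 : (n : ℤ) ∣ s44c_delta Z E)
    (h2 : IsCoprime (n : ℤ) (s44c_delta Z η)) :
    ∃ g : 𝓕, s44c_Unit T g ∧ s44c_delta Z E = n * s44c_delta Z g := by
  set x := s44c_delta Z E with hx
  set y := s44c_delta Z η with hy
  have hbez := Int.gcd_eq_gcd_ab x y
  set l : ℤ := (Int.gcd x y : ℤ) with hl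
  have hF0 : s44c_Unit T (E ^ (Int.gcdA x y) * η ^ (Int.gcdB x y)) :=
    (hE.zpow _).mul (hη.zpow _)
  have hδF0 : s44c_delta Z (E ^ (Int.gcdA x y) * η ^ (Int.gcdB x y)) = l := by
    rw [s44c_delta_mul (zpow_ne_zero _ hE.1) (zpow_ne_zero _ hη.1), s44c_delta_zpow hE.1,
      s44c_delta_zpow hη.1, hbez]
    ring
  have hly : l ∣ y := Int.gcd_dvd_right x y
  obtain ⟨k, hk⟩ : l ∣ x := Int.gcd_dvd_left x y
  have hl2 : IsCoprime (n : ℤ) l := h2.of_isCoprime_of_dvd_right hly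
  have hpk : (n : ℤ) ∣ k := by
    have h3 : (n : ℤ) ∣ l * k := by rw [← hk]; exact h1
    exact hl2.dvd_of_dvd_mul_left h3
  obtain ⟨k', rfl⟩ := hpk
  refine ⟨(E ^ (Int.gcdA x y) * η ^ (Int.gcdB x y)) ^ k', hF0.zpow _, ?_⟩
  rw [s44c_delta_zpow hF0.1, hδF0, hk]
  ring

/-- **finiteness at a node, tame form, arbitrary exponent.** -/
theorem s59n_local_fin_tame_n {T : Set (Place L₀ 𝓕)} {n : ℕ} {f φ E η : 𝓕}
    (hf : f = φ ^ n * E) (hE : s44c_Unit T E) (hη : s44c_Unit T η)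
    (h1 : (n : ℤ) ∣ s44c_delta Z E) (h2 : IsCoprime (n : ℤ) (s44c_delta Z η)) :
    ∃ G υ : 𝓕, f = G ^ n * υ ∧ s44c_Unit T υ ∧ s44c_delta Z υ = 0 := by
  obtain ⟨g, hg, e⟩ := s59n_local_pth_tame_n (Z := Z) hE hη h1 h2
  refine ⟨φ * g, E * (g ^ n)⁻¹, ?_, hE.mul (hg.pow n).inv, ?_⟩
  · rw [hf, mul_pow]
    have := hg.1
    field_simp
  · rw [s44c_delta_mul hE.1 (inv_ne_zero (pow_ne_zero _ hg.1)), s44c_delta_inv (pow_ne_zero _ hg.1),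
      s44c_delta_pow hg.1, e]
    ring

/-- **(★), LOCAL FORM, TAME CASE, arbitrary exponent, `n ∣ δ F` as a hypothesis.** -/
theorem s59n_star_local_n {n : ℕ} (hn : n ≠ 0) {F : 𝓕} (hF : F ≠ 0)
    (hnode : ∀ s : ι, ∃ φ E : 𝓕, F = φ ^ n * E ∧ s44c_Unit (Ns s) E)
    (hδF : (n : ℤ) ∣ s44c_delta Z F)
    {η : 𝓕} (hη : ∀ s, s44c_Unit (Ns s) η) (hη2 : IsCoprime (n : ℤ) (s44c_delta Z η)) (s : ι) :
    ∃ Γ υ : 𝓕, F = Γ ^ n * υ ∧ s44c_Unit (Ns s) υ ∧ s44c_delta Z υ = 0 := by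
  obtain ⟨φ, E, ef, hE⟩ := hnode s
  have hφ0 : φ ≠ 0 := by
    rintro rfl
    rw [zero_pow hn, zero_mul] at ef
    exact hF ef
  have hδ : (n : ℤ) ∣ s44c_delta Z E := by
    obtain ⟨r, hr⟩ := hδF
    have := congrArg (s44c_delta Z) ef
    rw [s44c_delta_mul (pow_ne_zero _ hφ0) hE.1, s44c_delta_pow hφ0, hr] at this
    exact ⟨r - s44c_delta Z φ, by linear_combination -this⟩
  exact s59n_local_fin_tame_n (Z := Z) ef hE (hη s) hδ hη2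

/-- `δ (T f) = (ℓ + 1) · δ f` for a multiplicative operator scaling both Gauss valuations by `ℓ + 1`. -/
theorem s59n_delta_T (T : 𝓕 →* 𝓕) (ℓ : ℕ)
    (hTvi : ∀ (n : ℤ) (x : 𝓕), s44c_Val Z.Di n x → s44c_Val Z.Di (n * ((ℓ : ℤ) + 1)) (T x))
    (hTvz : ∀ (n : ℤ) (x : 𝓕), s44c_Val Z.Dz n x → s44c_Val Z.Dz (n * ((ℓ : ℤ) + 1)) (T x))
    {f : 𝓕} (hf : f ≠ 0) :
    s44c_delta Z (T f) = ((ℓ : ℤ) + 1) * s44c_delta Z f := by
  have hi := hTvi _ _ (s44c_v_spec (D := Z.Di) hf)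
  have hz := hTvz _ _ (s44c_v_spec (D := Z.Dz) hf)
  rw [s44c_delta_eq hi hz]
  unfold s44c_delta
  ring

/-- **`n ∣ δ F` for `F = c · g ^ n · T f · f ^ (-(ℓ + 1))`.** -/
theorem s59n_delta_elt (T : 𝓕 →* 𝓕) (ℓ : ℕ)
    (hTvi : ∀ (n : ℤ) (x : 𝓕), s44c_Val Z.Di n x → s44c_Val Z.Di (n * ((ℓ : ℤ) + 1)) (T x))
    (hTvz : ∀ (n : ℤ) (x : 𝓕), s44c_Val Z.Dz n x → s44c_Val Z.Dz (n * ((ℓ : ℤ) + 1)) (T x))
    {n : ℕ} {f g F : 𝓕} {c : L₀} (hc : c ≠ 0) (hf : f ≠ 0) (hg : g ≠ 0)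
    (hF : F = algebraMap L₀ 𝓕 c * g ^ n * (T f * f ^ (-((ℓ : ℤ) + 1)))) :
    (n : ℤ) ∣ s44c_delta Z F := by
  have hc0 : algebraMap L₀ 𝓕 c ≠ 0 := (map_ne_zero_iff _ (algebraMap L₀ 𝓕).injective).mpr hc
  have hTf : T f ≠ 0 := by
    intro h0
    have h1 := hTvi _ _ (s44c_v_spec (D := Z.Di) hf)
    exact h1.ne_zero h0
  refine ⟨s44c_delta Z g, ?_⟩
  rw [hF, s44c_delta_mul (mul_ne_zero hc0 (pow_ne_zero _ hg)) (mul_ne_zero hTf (zpow_ne_zero _ hf)),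
    s44c_delta_mul hc0 (pow_ne_zero _ hg), s44c_delta_const hc, s44c_delta_pow hg,
    s44c_delta_mul hTf (zpow_ne_zero _ hf), s44c_delta_zpow hf,
    s59n_delta_T (Z := Z) T ℓ hTvi hTvz hf]
  ring

end Abstract

section Five

variable (M q : ℕ) [NeZero M] [hq : Fact q.Prime] (hqM : ¬ q ∣ M) (h5 : 5 ≤ q)
  (K₀ : Type) [Field K₀] [NumberField K₀] (φ : K₀ →+* AlgebraicClosure ℚ)
  (κ : Type) [Field κ] [CharP κ q] [PerfectField κ]
  (G : s18g_GaussData K₀ κ) [IsDiscreteValuationRing G.A]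
  (hdeg : s34m_HDeg K₀ M q) (hT : s18g_HT κ M) (hdegM : s18g_HDeg K₀ M)
  (hπ : Function.Surjective G.π)
  (e : ℕ) (ε : K₀) (he : 0 < e) (hε : ε ∈ G.A) (hεinv : ε⁻¹ ∈ G.A) (hε0 : ε ≠ 0)
  (hqe : (q : K₀) = ε * ((G.ϖ : G.A) : K₀) ^ e) (hperf : ∀ c : κ, ∃ d : κ, d ^ q = c)

/-- **(★), LOCAL FORM, TAME CASE, for `s33s_datum_five` at level `M * q`, arbitrary exponent `n`, `n ∣ δ F` as a
hypothesis**: the output is verbatim the hypothesis `hloc` of helper8's `s44e_glob_five`. -/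
theorem s59n_five_star_n {n : ℕ} (hn : n ≠ 0) {F : s34m_F K₀ (M * q)} (hF : F ≠ 0)
    (hnode : ∀ s, ∃ φ' E : s34m_F K₀ (M * q), F = φ' ^ n * E ∧
      s44c_Unit (s44c_five_Ns M q hqM K₀ φ κ G s) E)
    (hδF : (n : ℤ) ∣ s44c_delta
      (s33s_datum_five M q hqM h5 K₀ φ κ G hdeg hT hdegM hπ e ε he hε hεinv hε0 hqe hperf) F)
    {η : s34m_F K₀ (M * q)} (hη : ∀ s, s44c_Unit (s44c_five_Ns M q hqM K₀ φ κ G s) η)
    (hη2 : IsCoprime (n : ℤ) (s44c_delta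
      (s33s_datum_five M q hqM h5 K₀ φ κ G hdeg hT hdegM hπ e ε he hε hεinv hε0 hqe hperf) η))
    (s : s33s_Node (s34m_VV G φ M q hq.out hqM) (s34m_unif G (M * q))
      (s18_chart1 (L₀ := K₀) (s18g_jF (K := K₀) (M * q)))) :
    ∃ (g' υ : s34m_F K₀ (M * q)) (a' : ℤ), F = g' ^ n * υ ∧
      (∀ i, υ * s34m_unif G (M * q) ^ (-a') ∈ s34m_VV G φ M q hq.out hqM i ∧
        (υ * s34m_unif G (M * q) ^ (-a'))⁻¹ ∈ s34m_VV G φ M q hq.out hqM i) ∧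
      ∀ Q ∈ s18_chart1 (L₀ := K₀) (s18g_jF (K := K₀) (M * q)),
        s34f_through (s34x_infRing (s34m_VV G φ M q hq.out hqM))
          (s18_chart1 (L₀ := K₀) (s18g_jF (K := K₀) (M * q))) s.1 Q → Q.ord υ = 0 := by
  obtain ⟨g', υ, e1, hU, hδ⟩ := s59n_star_local_n
    (Z := s33s_datum_five M q hqM h5 K₀ φ κ G hdeg hT hdegM hπ e ε he hε hεinv hε0 hqe hperf)
    (Ns := s44c_five_Ns M q hqM K₀ φ κ G) hn hF hnode hδF hη hη2 s
  obtain ⟨a', ha'⟩ := s44c_five_unit_of_delta M q hqM h5 K₀ φ κ G hdeg hT hdegM hπ e ε he hε hεinv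
    hε0 hqe hperf hU.1 hδ
  exact ⟨g', υ, a', e1, ha', fun Q hQ hth => hU.2 Q ⟨hQ, hth⟩⟩

/-- **helper8's modular unit is an admissible `η` for the exponent `n`** as soon as `n` is prime to `12 e`. -/
theorem s59n_five_eta_n {n : ℕ} {g₀ : s34m_F K₀ (M * q)} (hg₀ : g₀ ≠ 0)
    (hord : ∀ Q : Place K₀ (s34m_F K₀ (M * q)), 0 ≤ Q.ord (s18g_jF (K := K₀) (M * q)) →
      Q.ord g₀ = 0)
    (hinf : g₀ * (s34m_unif G (M * q) ^ (6 * e))⁻¹ ∈ s34m_Vinf G (M * q) ∧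
      (g₀ * (s34m_unif G (M * q) ^ (6 * e))⁻¹)⁻¹ ∈ s34m_Vinf G (M * q))
    (hzero : g₀ * s34m_unif G (M * q) ^ (6 * e) ∈ s34m_Vzero G φ M q hq.out hqM ∧
      (g₀ * s34m_unif G (M * q) ^ (6 * e))⁻¹ ∈ s34m_Vzero G φ M q hq.out hqM)
    (hn1 : n.Coprime (12 * e)) :
    (∀ s, s44c_Unit (s44c_five_Ns M q hqM K₀ φ κ G s) g₀) ∧
      IsCoprime (n : ℤ) (s44c_delta
        (s33s_datum_five M q hqM h5 K₀ φ κ G hdeg hT hdegM hπ e ε he hε hεinv hε0 hqe hperf) g₀) := by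
  set Z := s33s_datum_five M q hqM h5 K₀ φ κ G hdeg hT hdegM hπ e ε he hε hεinv hε0 hqe hperf
    with hZ
  have hϖ0 : s34m_unif G (M * q) ≠ 0 := s34m_unif_ne_zero G (M * q)
  have hj0 : s18g_jF (K := K₀) (M * q) ≠ 0 := s18g_jF_ne_zero (M * q)
  refine ⟨fun s => ⟨hg₀, fun Q hQ => hord Q ?_⟩, ?_⟩
  · have hQ1 : Q ∈ s18_chart1 (L₀ := K₀) (s18g_jF (K := K₀) (M * q)) := hQ.1
    exact (ff_mem_iff_ord_nonneg Q hj0).mp hQ1
  · have hi : s44c_Val Z.Di ((6 * e : ℕ) : ℤ) g₀ := by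
      refine ⟨g₀ * (s34m_unif G (M * q) ^ (6 * e))⁻¹,
        mul_ne_zero hg₀ (inv_ne_zero (pow_ne_zero _ hϖ0)), hinf.1, hinf.2, ?_⟩
      show g₀ = s34m_unif G (M * q) ^ ((6 * e : ℕ) : ℤ) * _
      rw [zpow_natCast]
      field_simp
    have hz : s44c_Val Z.Dz (-((6 * e : ℕ) : ℤ)) g₀ := by
      refine ⟨g₀ * s34m_unif G (M * q) ^ (6 * e),
        mul_ne_zero hg₀ (pow_ne_zero _ hϖ0), hzero.1, hzero.2, ?_⟩
      show g₀ = s34m_unif G (M * q) ^ (-((6 * e : ℕ) : ℤ)) * _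
      rw [zpow_neg, zpow_natCast]
      field_simp
    rw [s44c_delta_eq hi hz]
    have h1 : IsCoprime ((n : ℕ) : ℤ) ((12 * e : ℕ) : ℤ) := Nat.isCoprime_iff_coprime.mpr hn1
    have e2 : (-((6 * e : ℕ) : ℤ) - ((6 * e : ℕ) : ℤ)) = -((12 * e : ℕ) : ℤ) := by
      push_cast
      ring
    rw [e2]
    exact h1.neg_right

end Five

end Fermat.Agent.Lib.S59
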