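/-
Programme (R) / node [IA′-all] (extraction step, helper1 #3278 §5), leaf [A]ₙ, family N (helper7, prefix `s59n_`):
**(★) OVER A FIXED FIELD `L₀ ≤ ℚ̄`, TAME CASE, LEVEL `M * q` (`q ≥ 5`), ARBITRARY EXPONENT `n` PRIME TO `12 e`,
ELEMENTWISE FORM (no eigenvector).**

`L₀ ∋ ζ_ℓ` a number field with Gauss datum `G` over `q = ε ϖ ^ e`; `x ∈ J₀(M q)` with a Kummer generator `f ∈ 𝓕_{L₀}(M q)`
of exponent `n`; `F ∈ 𝓕_{L₀}(M q)` a Kummer generator (exponent `n`) of `y = T_ℓ x - (ℓ + 1) x`; exact (Q4) for `F` at the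
NODES of the chart `{j regular}`.
Conclusion: `F = Gg ^ n · (ϖ ^ a · h)`, `h` a unit of `V_∞` and of `V_0` with neither zero nor pole at the node places.

Key point: `F = c · g ^ n · τ f · f ^ (-(ℓ + 1))` (`s59n_kum0_of_same_class_n`, Kummer descent) and `τ` multiplies both
Gauss valuations by `ℓ + 1`, hence `δ F = n · δ g`.
-/
import Fermat.Agent.Lib.S59.NStarAbsN
import Fermat.Agent.Lib.S59.NStarField
import Fermat.Agent.Lib.S33.UnipJ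

set_option autoImplicit false
set_option linter.style.haveILetI false
set_option linter.unusedSectionVars false
set_option synthInstance.maxHeartbeats 400000

noncomputable section

namespace Fermat.Agent.Lib.S59

open AlgebraicCurve ModularCurve HahnSeries Fermat.Agent.Lib.FF Fermat.Agent.Lib.S18
  Fermat.Agent.Lib.S33 Fermat.Agent.Lib.S34 Fermat.Agent.Lib.S35 Fermat.Agent.Lib.S36
  Fermat.Agent.Lib.S37 Fermat.Agent.Lib.S44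

local notation "Kb" => AlgebraicClosure ℚ

/-- a Kummer generator of exponent `n` over `L₀` is nonzero and has divisor divisible by `n` over `L₀` (main's
`s33d_kum_of_gen` without the primality of the exponent). -/
theorem s59n_kum_of_gen_n' (M : ℕ) [NeZero M] (n : ℕ) (L₀ : IntermediateField ℚ Kb) {z : JZero M}
    {f₀ : ↥(laurentBaseChange ↥L₀ (modularFunctionFieldFull M))}
    (h : s33d_IsKumGen n z (s18q_incl M L₀ f₀)) :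
    f₀ ≠ 0 ∧ ∀ Q : Place ↥L₀ ↥(laurentBaseChange ↥L₀ (modularFunctionFieldFull M)),
      (n : ℤ) ∣ Q.ord f₀ := by
  obtain ⟨hf0, D, -, hD⟩ := h
  refine ⟨fun h0 => hf0 (by rw [h0, map_zero]), ?_⟩
  exact s18q_dvd_ord_descend M L₀ (n : ℤ) f₀ (fun P => ⟨_, hD P⟩)

/-- two Kummer generators (exponent `n ≠ 0`) over `L₀` of the same class differ by a constant of `L₀` times an `n`-th
power over `L₀` (main's `s33d_kum0_of_same_class` without the primality of the exponent). -/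
theorem s59n_kum0_of_same_class_n (M : ℕ) [NeZero M] (n : ℕ) [NeZero n] (L₀ : IntermediateField ℚ Kb)
    {z : JZero M} {f₀ f₀' : ↥(laurentBaseChange ↥L₀ (modularFunctionFieldFull M))}
    (h : s33d_IsKumGen n z (s18q_incl M L₀ f₀)) (h' : s33d_IsKumGen n z (s18q_incl M L₀ f₀')) :
    ∃ (c₀ : ↥L₀) (h₀ : ↥(laurentBaseChange ↥L₀ (modularFunctionFieldFull M))), c₀ ≠ 0 ∧ h₀ ≠ 0 ∧
      f₀' = algebraMap ↥L₀ _ c₀ * h₀ ^ n * f₀ := by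
  obtain ⟨ζ, hζ⟩ := HasEnoughRootsOfUnity.exists_primitiveRoot Kb n
  have hf0 : f₀ ≠ 0 := (s59n_kum_of_gen_n' M n L₀ h).1
  have hf0' : f₀' ≠ 0 := (s59n_kum_of_gen_n' M n L₀ h').1
  obtain ⟨c, w, hc, hw, hfw⟩ := s33d_kumGen_unique (s33d_constOfOrdZero_bar M) h h'
  have hx : s33d_incl (modularFunctionFieldFull M) L₀ (f₀' / f₀) =
      algebraMap Kb ↥(laurentBaseChange Kb (modularFunctionFieldFull M)) c * w ^ n := by
    have h1 : s18q_incl M L₀ (f₀' / f₀) = s18q_incl M L₀ f₀' / s18q_incl M L₀ f₀ := map_div₀ _ _ _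
    show s18q_incl M L₀ (f₀' / f₀) = _
    rw [h1, hfw, mul_div_assoc, div_self h.1, mul_one]
  obtain ⟨c₀, h₀, hc₀, hh₀, e⟩ := s33d_kum0_descent (modularFunctionFieldFull M) n ζ hζ L₀
    (f₀' / f₀) (div_ne_zero hf0' hf0) c w hx
  refine ⟨c₀, h₀, hc₀, hh₀, ?_⟩
  rw [← e, div_mul_cancel₀ _ hf0]

section FiveTauN

variable (M q : ℕ) [NeZero M] [hq : Fact q.Prime] (hqM : ¬ q ∣ M) (h5 : 5 ≤ q)
  (L₀ : IntermediateField ℚ Kb) [NumberField ↥L₀]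
  (κ : Type) [Field κ] [CharP κ q] [PerfectField κ]
  (G : s18g_GaussData ↥L₀ κ) [IsDiscreteValuationRing G.A]
  (hdeg : s34m_HDeg ↥L₀ M q) (hT : s18g_HT κ M) (hdegM : s18g_HDeg ↥L₀ M)
  (hπ : Function.Surjective G.π)
  (e : ℕ) (ε : ↥L₀) (he : 0 < e) (hε : ε ∈ G.A) (hεinv : ε⁻¹ ∈ G.A) (hε0 : ε ≠ 0)
  (hqe : (q : ↥L₀) = ε * ((G.ϖ : G.A) : ↥L₀) ^ e) (hperf : ∀ c : κ, ∃ d : κ, d ^ q = c)
  (ℓ : ℕ) [hℓ : Fact ℓ.Prime] (hℓN : ¬ ℓ ∣ M * q)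
  (ζ₀ : (↥L₀)ˣ) (hζ₀ : IsPrimitiveRoot (ζ₀ : ↥L₀) ℓ)
  (n : ℕ)

include hℓN hζ₀ in
/-- **the Kummer generator of `T_ℓ x - (ℓ + 1) x` has `n ∣ δ`.** -/
theorem s59n_delta_dvd_elt (hn0 : n ≠ 0) {x : JZero (M * q)} {f F : s34m_F ↥L₀ (M * q)}
    (hf : s33d_IsKumGen n x (s18q_incl (M * q) L₀ f))
    (hF : s33d_IsKumGen n (heckeOperatorBar (M * q) ⟨ℓ, hℓ.out⟩ x - ((ℓ + 1 : ℕ) : ℤ) • x)
      (s18q_incl (M * q) L₀ F)) :
    (n : ℤ) ∣ s44c_delta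
      (s33s_datum_five M q hqM h5 ↥L₀ (algebraMap ↥L₀ Kb) κ G hdeg hT hdegM hπ e ε he hε hεinv hε0 hqe
        hperf) F := by
  haveI : NeZero n := ⟨hn0⟩
  have hf0 : f ≠ 0 := (s59n_kum_of_gen_n' (M * q) n L₀ hf).1
  have h1 := s44c_isKumGen_tau (M * q) ℓ hℓN L₀ ζ₀ hζ₀ n hf
  have h2 : s33d_IsKumGen n ((-(((ℓ + 1 : ℕ) : ℤ))) • x)
      (s18q_incl (M * q) L₀ (f ^ (-(((ℓ + 1 : ℕ) : ℤ))))) := by
    rw [map_zpow₀]
    exact s44c_isKumGen_zpow (M * q) n hf _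
  have h3 := s33d_kumGen_prod h1 h2
  rw [← map_mul] at h3
  have e3 : heckeOperatorBar (M * q) ⟨ℓ, hℓ.out⟩ x + (-(((ℓ + 1 : ℕ) : ℤ))) • x =
      heckeOperatorBar (M * q) ⟨ℓ, hℓ.out⟩ x - ((ℓ + 1 : ℕ) : ℤ) • x := by
    rw [neg_smul, sub_eq_add_neg]
  rw [e3] at h3
  obtain ⟨c₀, g, hc₀, hg, hrel⟩ := s59n_kum0_of_same_class_n (M * q) n L₀ h3 hF
  have hrel' : F = algebraMap ↥L₀ (s34m_F ↥L₀ (M * q)) c₀ * g ^ n *
      (s33t_tau (M * q) ℓ hℓN L₀ ζ₀ hζ₀ f * f ^ (-((ℓ : ℤ) + 1))) := by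
    rw [hrel]
    push_cast
    rfl
  exact s59n_delta_elt
    (Z := s33s_datum_five M q hqM h5 ↥L₀ (algebraMap ↥L₀ Kb) κ G hdeg hT hdegM hπ e ε he hε hεinv hε0
      hqe hperf) (s33t_tau (M * q) ℓ hℓN L₀ ζ₀ hζ₀) ℓ
    (s44c_five_tau_val_i M q hqM h5 L₀ κ G hdeg hT hdegM hπ e ε he hε hεinv hε0 hqe hperf ℓ hℓN ζ₀
      hζ₀)
    (s44c_five_tau_val_z M q hqM h5 L₀ κ G hdeg hT hdegM hπ e ε he hε hεinv hε0 hqe hperf ℓ hℓN ζ₀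
      hζ₀)
    hc₀ hf0 hg hrel'

include h5 hdeg hT hdegM hπ he hε hεinv hε0 hqe hperf hℓN hζ₀ in
set_option maxHeartbeats 3200000 in
/-- **(★) over the field `L₀`, TAME CASE `gcd(n, 12 e) = 1`, level `M * q`, exponent `n`, elementwise form.** -/
theorem s59n_star_elt (hn0 : n ≠ 0) (hn1 : n.Coprime (12 * e))
    {x : JZero (M * q)} {f F : s34m_F ↥L₀ (M * q)}
    (hf : s33d_IsKumGen n x (s18q_incl (M * q) L₀ f))
    (hF : s33d_IsKumGen n (heckeOperatorBar (M * q) ⟨ℓ, hℓ.out⟩ x - ((ℓ + 1 : ℕ) : ℤ) • x)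
      (s18q_incl (M * q) L₀ F))
    (hQ4 : ∀ s : s33s_Node (s34m_VV G (algebraMap ↥L₀ Kb) M q hq.out hqM) (s34m_unif G (M * q))
        (s18_chart1 (L₀ := ↥L₀) (s18g_jF (K := ↥L₀) (M * q))),
      ∃ Φ : s34m_F ↥L₀ (M * q), Φ ≠ 0 ∧
        ∀ Q ∈ s18_chart1 (L₀ := ↥L₀) (s18g_jF (K := ↥L₀) (M * q)),
          s34f_through (s34x_infRing (s34m_VV G (algebraMap ↥L₀ Kb) M q hq.out hqM))
            (s18_chart1 (L₀ := ↥L₀) (s18g_jF (K := ↥L₀) (M * q))) s.1 Q →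
          Q.ord F = ((n : ℕ) : ℤ) * Q.ord Φ) :
    ∃ (Gg h : s34m_F ↥L₀ (M * q)) (a : ℤ), Gg ≠ 0 ∧
      F = Gg ^ n * (s34m_unif G (M * q) ^ a * h) ∧
      (∀ i, h ∈ s34m_VV G (algebraMap ↥L₀ Kb) M q hq.out hqM i ∧
        h⁻¹ ∈ s34m_VV G (algebraMap ↥L₀ Kb) M q hq.out hqM i) ∧
      ∀ Q ∈ s33s_nodePlaces (s34m_VV G (algebraMap ↥L₀ Kb) M q hq.out hqM) (s34m_unif G (M * q))
        (s18_chart1 (L₀ := ↥L₀) (s18g_jF (K := ↥L₀) (M * q))), Q.ord h = 0 := by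
  haveI : NeZero q := ⟨hq.out.ne_zero⟩
  haveI : NeZero n := ⟨hn0⟩
  have hF0 : F ≠ 0 := (s59n_kum_of_gen_n' (M * q) n L₀ hF).1
  -- the modular unit
  obtain ⟨g₀, hg₀, hord, hinf, hzero⟩ :=
    s44e_exists_unit G (algebraMap ↥L₀ Kb) M q hq.out hqM h5 e ε hε hεinv hqe
  obtain ⟨hη, hη2⟩ := s59n_five_eta_n M q hqM h5 ↥L₀ (algebraMap ↥L₀ Kb) κ G hdeg hT hdegM hπ e ε
    he hε hεinv hε0 hqe hperf (n := n) hg₀ hord hinf hzero hn1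
  -- the node factorisations
  have hnode : ∀ s : s33s_Node (s34m_VV G (algebraMap ↥L₀ Kb) M q hq.out hqM) (s34m_unif G (M * q))
      (s18_chart1 (L₀ := ↥L₀) (s18g_jF (K := ↥L₀) (M * q))),
      ∃ φ' E : s34m_F ↥L₀ (M * q), F = φ' ^ n * E ∧
        s44c_Unit (s44c_five_Ns M q hqM ↥L₀ (algebraMap ↥L₀ Kb) κ G s) E := by
    intro s
    obtain ⟨Φ, hΦ0, hΦ⟩ := hQ4 s
    refine ⟨Φ, F / Φ ^ n, ?_, div_ne_zero hF0 (pow_ne_zero n hΦ0), fun Q hQ => ?_⟩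
    · rw [mul_div_cancel₀ _ (pow_ne_zero _ hΦ0)]
    · rw [div_eq_mul_inv, Q.ord_mul hF0 (inv_ne_zero (pow_ne_zero n hΦ0)), Q.ord_inv,
        ← zpow_natCast, Q.ord_zpow, hΦ Q hQ.1 hQ.2]
      ring
  have hδ := s59n_delta_dvd_elt M q hqM h5 L₀ κ G hdeg hT hdegM hπ e ε he hε hεinv hε0 hqe hperf ℓ hℓN
    ζ₀ hζ₀ n hn0 hf hF
  exact s44e_glob_five M q hqM h5 ↥L₀ (algebraMap ↥L₀ Kb) κ G hdeg hT hdegM hπ n hn0 F hF0
    (fun s => s59n_five_star_n M q hqM h5 ↥L₀ (algebraMap ↥L₀ Kb) κ G hdeg hT hdegM hπ e ε he hε hεinv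
      hε0 hqe hperf hn0 hF0 hnode hδ hη hη2 s)

end FiveTauN

end Fermat.Agent.Lib.S59
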