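/-
Programme (R) / node [IA′] (C7 = (G2), D = extraction), leaf [A]ₙ, family N (helper7, prefix `s59n_`):
**`e = 1` FOR A FINITE (NOT NECESSARILY NORMAL) FIELD FIXED BY THE INERTIA GROUP.**

`L / ℚ` finite, every element of the inertia group `I_P` of `P ∣ q` fixes `L` pointwise ⇒ `q` is a uniformiser of `P ∩ L`:
if `q = ε ϖ ^ e` in `A_L = P ∩ L` then `e = 1`.  (`NRam.lean` did this for `L` NORMAL by counting the inertia group of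
`Gal(L / ℚ)`; here `L` sits inside the inertia field `s44s_Z P ⊥ N` of a finite normal `N ⊇ L`, in which `q` is
irreducible by `s44s_irreducible_Z` + `s56o_irreducible_bot`.)  This is what makes the `D_P`-version of [A] available
(helper1 #3327 (2)): the points of a `D_P`-stable, `I_P`-fixed subgroup are rational over such an `L`.
-/
import Fermat.Agent.Lib.S56.FArith
import Fermat.Agent.Lib.S33.TPDict

set_option autoImplicit false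
set_option linter.style.haveILetI false

noncomputable section

namespace Fermat.Agent.Lib.S59

open Fermat.Agent.Lib.S18 Fermat.Agent.Lib.S33 Fermat.Agent.Lib.S36 Fermat.Agent.Lib.S44
  Fermat.Agent.Lib.S56

local notation "Kb" => AlgebraicClosure ℚ

/-- a finite extension fixed pointwise by the inertia group of `P` lies in an inertia field `s44s_Z P ⊥ N`, `N` finite
normal, in which `q` is irreducible. -/
theorem s59n_exists_unr_level (q : ℕ) (hq : q.Prime) (P : ValuationSubring Kb)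
    (hP : P.LiesOverPrime q) (L : IntermediateField ℚ Kb) [FiniteDimensional ℚ ↥L]
    (hunr : ∀ τ ∈ P.inertiaSubgroupIn ℚ, ∀ a ∈ L, τ a = a) :
    ∃ (Z₀ : IntermediateField ℚ Kb) (_ : IsDiscreteValuationRing ↥(s18q_A0 P Z₀))
      (ϖ' : ↥(s18q_A0 P Z₀)), L ≤ Z₀ ∧ ((ϖ' : ↥Z₀) : Kb) = (q : Kb) ∧ Irreducible ϖ' := by
  haveI : Fact q.Prime := ⟨hq⟩
  obtain ⟨N, hLN, hfd, hn⟩ := s33t_exists_normal_ge L
  haveI := hfd
  haveI := hn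
  set Z₀ := s44s_Z P ⊥ N with hZ₀
  haveI : FiniteDimensional ℚ ↥Z₀ := s44s_Z_finiteDimensional P ⊥ N
  have hdvr : IsDiscreteValuationRing ↥(s18q_A0 P Z₀) := s18q_A0_dvr P Z₀ hP
  have hLZ : L ≤ Z₀ := by
    intro a ha
    rw [hZ₀, s44s_mem_Z]
    exact ⟨fun σ hσ => hunr σ (s44s_mem_IΓ.mp hσ).1 a ha, hLN ha⟩
  have hqbot : (q : Kb) ∈ (⊥ : IntermediateField ℚ Kb) := natCast_mem _ q
  have hqP : (q : Kb) ∈ P := P.nonunits_le hP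
  let ϖ : ↥(s18q_A0 P (⊥ : IntermediateField ℚ Kb)) := ⟨⟨(q : Kb), hqbot⟩, hqP⟩
  have hϖ : Irreducible ϖ := s56o_irreducible_bot hq P hP ϖ rfl
  have hqZ : (q : Kb) ∈ Z₀ := natCast_mem _ q
  let ϖ' : ↥(s18q_A0 P Z₀) := ⟨⟨(q : Kb), hqZ⟩, hqP⟩
  have hϖ' : Irreducible ϖ' := s44s_irreducible_Z q hq P hP ⊥ N bot_le ϖ hϖ ϖ' rfl
  exact ⟨Z₀, hdvr, ϖ', hLZ, rfl, hϖ'⟩

/-- **unramified ⇒ `e = 1`**, `L` finite, not necessarily normal. -/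
theorem s59n_e_eq_one_of_fix (q : ℕ) (hq : q.Prime) (P : ValuationSubring Kb)
    (hP : P.LiesOverPrime q) (L : IntermediateField ℚ Kb) [FiniteDimensional ℚ ↥L]
    (ϖ : ↥(s18q_A0 P L)) (hϖ : Irreducible ϖ)
    (e : ℕ) (ε : ↥L) (he : 0 < e) (hε : ε ∈ s18q_A0 P L)
    (hqe : ((q : ℕ) : ↥L) = ε * (ϖ : ↥L) ^ e)
    (hunr : ∀ τ ∈ P.inertiaSubgroupIn ℚ, ∀ a ∈ L, τ a = a) : e = 1 := by
  obtain ⟨Z₀, hdvr, ϖ', hLZ, hϖ'q, hϖ'⟩ := s59n_exists_unr_level q hq P hP L hunr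
  haveI := hdvr
  by_contra hne
  have he2 : 2 ≤ e := by omega
  -- `ϖ` is a non-unit of `P`
  have hϖnu : (((ϖ : ↥(s18q_A0 P L)) : ↥L) : Kb) ∈ P.nonunits := by
    have h1 : ϖ ∈ IsLocalRing.maximalIdeal ↥(s18q_A0 P L) := hϖ.not_isUnit
    rw [← ValuationSubring.coe_mem_nonunits_iff] at h1
    exact (s36v_mem_nonunits_comap (algebraMap ↥L Kb) P _).mp h1
  have hϖ0 : (((ϖ : ↥(s18q_A0 P L)) : ↥L) : Kb) ≠ 0 := by
    intro h0
    apply hϖ.ne_zero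
    apply Subtype.ext
    apply Subtype.ext
    exact h0
  -- `ϖ` as an element of `A_{Z₀}`, divisible by `q`
  let x' : ↥(s18q_A0 P Z₀) :=
    ⟨⟨(((ϖ : ↥(s18q_A0 P L)) : ↥L) : Kb), hLZ (ϖ : ↥L).2⟩, P.nonunits_le hϖnu⟩
  have h1 : x' ∈ IsLocalRing.maximalIdeal ↥(s18q_A0 P Z₀) := by
    rw [← ValuationSubring.coe_mem_nonunits_iff]
    exact (s36v_mem_nonunits_comap (algebraMap ↥Z₀ Kb) P _).mpr hϖnu
  rw [hϖ'.maximalIdeal_eq, Ideal.mem_span_singleton'] at h1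
  obtain ⟨z, hz⟩ := h1
  have h2 : ((z : ↥Z₀) : Kb) * (q : Kb) = (((ϖ : ↥(s18q_A0 P L)) : ↥L) : Kb) := by
    have h : (((z * ϖ' : ↥(s18q_A0 P Z₀)) : ↥Z₀) : Kb) =
        (((ϖ : ↥(s18q_A0 P L)) : ↥L) : Kb) :=
      congrArg (fun t : ↥(s18q_A0 P Z₀) => ((t : ↥Z₀) : Kb)) hz
    rw [← hϖ'q]
    exact h
  have h3 : (q : Kb) = (ε : Kb) * (((ϖ : ↥(s18q_A0 P L)) : ↥L) : Kb) ^ e := by
    have := congrArg (fun t : ↥L => (t : Kb)) hqe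
    simpa using this
  -- `ϖ⁻¹ = z ε ϖ ^ (e - 2) ∈ P`
  obtain ⟨k, rfl⟩ : ∃ k, e = k + 2 := ⟨e - 2, by omega⟩
  rw [h3] at h2
  have h41 : (((z : ↥Z₀) : Kb) * (ε : Kb) * (((ϖ : ↥(s18q_A0 P L)) : ↥L) : Kb) ^ k) *
      (((ϖ : ↥(s18q_A0 P L)) : ↥L) : Kb) = 1 := by
    apply mul_right_cancel₀ hϖ0
    rw [one_mul]
    refine Eq.trans ?_ h2
    ring
  have h4 : ((z : ↥Z₀) : Kb) * (ε : Kb) * (((ϖ : ↥(s18q_A0 P L)) : ↥L) : Kb) ^ k =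
      ((((ϖ : ↥(s18q_A0 P L)) : ↥L) : Kb))⁻¹ := eq_inv_of_mul_eq_one_left h41
  have hϖP : (((ϖ : ↥(s18q_A0 P L)) : ↥L) : Kb) ∈ P := (ϖ : ↥(s18q_A0 P L)).2
  have h5 : ((((ϖ : ↥(s18q_A0 P L)) : ↥L) : Kb))⁻¹ ∈ P := by
    rw [← h4]
    exact P.mul_mem _ _ (P.mul_mem _ _ z.2 hε) (Subring.pow_mem P.toSubring hϖP k)
  rcases (ValuationSubring.mem_nonunits_iff_or (A := P)).mp hϖnu with h6 | h6
  · exact hϖ0 h6
  · exact h6 h5

end Fermat.Agent.Lib.S59
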