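/-
Programme (R) / node [IA′-all] (extraction step, helper1 #3278 §5), leaf [A]ₙ, family N (helper7, prefix `s59n_`):
**[A] = FIN FOR AN ARBITRARY EXPONENT `n` PRIME TO `6`, ELEMENTWISE FORM (no eigenvector, no eigenvalue in `ℤ`).**

* `s59n_Q4At M q n hqM P` : the ONE input (helper9's (Q4) for the exponent `n`): exact (Q4) AT THE NODES over the inertia
  field `Z = s44s_Z P L L₀` of every big finite normal `L₀ ⊇ L, L₂`, for a function `f ∈ 𝓕_L(M q)` with `n ∣ div f`.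
  `s59n_q4At_prime` : it holds for `n = p` prime, `q ≥ 5` (helper9's `s59m_Q4_Z` through `s59n_q4z`).
* **`s59n_fin_elt`** : level `M * q` (`q ≥ 5` prime, `q ∤ M`, `M` ARBITRARY), exponent `n ≠ 0` prime to `6`; `L / ℚ` FINITE
  (NOT necessarily normal: the `D_P`-version), UNRAMIFIED at `P ∣ q` (the inertia group of `P` acts trivially on `L`,
  `NUnr.lean`); `x ∈ J₀(M q)[n]` rational over `L`;
  `ℓ₀ ∤ M q` a prime.  Then **`T_ℓ₀ x - (ℓ₀ + 1) x` is FINITE at `P`** (`s59n_Finite M q n hqM P`).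

Route = `s59n_fin` (`NStar.lean`) with the Hecke relation of an eigenclass replaced by the tautology
`δ (τ f · f ^ (-(ℓ + 1))) = 0`: [Q-DIV] for `x` and for `y = T x - (ℓ + 1) x`, the inertia field `Z`, `e(Z) = e(L) = 1`,
`s59n_star_elt` over `Z`, base change `Z → L₀`.
-/
import Fermat.Agent.Lib.S59.NStarFieldN
import Fermat.Agent.Lib.S59.NQ4Z
import Fermat.Agent.Lib.S29.GSHecke
import Fermat.Agent.Lib.S59.NUnr

set_option autoImplicit false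
set_option linter.style.haveILetI false
set_option linter.unusedSectionVars false
set_option synthInstance.maxHeartbeats 400000

noncomputable section

namespace Fermat.Agent.Lib.S59

open ModularCurve HahnSeries AlgebraicCurve Fermat.Agent.Lib.S18 Fermat.Agent.Lib.S28
  Fermat.Agent.Lib.S29 Fermat.Agent.Lib.S37 Fermat.Agent.Lib.FF Fermat.Agent.Lib.S34
  Fermat.Agent.Lib.S35 Fermat.Agent.Lib.S33 Fermat.Agent.Lib.Frey Fermat.Agent.Lib.S44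

local notation "Kb" => AlgebraicClosure ℚ
local notation "Γℚ" => (AlgebraicClosure ℚ ≃ₐ[ℚ] AlgebraicClosure ℚ)

/-- **(Q4) at the nodes over the inertia field, for the exponent `n`**, at the level `M * q` and the place `P`. -/
def s59n_Q4At (M q : ℕ) [NeZero M] [hq : Fact q.Prime] (n : ℕ) (hqM : ¬ q ∣ M)
    (P : ValuationSubring Kb) : Prop :=
  ∀ (L : IntermediateField ℚ Kb) (f : s34m_F ↥L (M * q)), f ≠ 0 →
    (∀ Q : Place ↥L (s34m_F ↥L (M * q)), (n : ℤ) ∣ Q.ord f) →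
    ∃ L₂ : IntermediateField ℚ Kb, FiniteDimensional ℚ L₂ ∧
      ∀ (L₀ : IntermediateField ℚ Kb) [FiniteDimensional ℚ ↥L₀] [Normal ℚ ↥L₀]
        (hLL : L ≤ L₀), L₂ ≤ L₀ →
      ∀ [IsDiscreteValuationRing ↥(s18q_A0 P (s44s_Z P L L₀))]
        (ϖ : ↥(s18q_A0 P (s44s_Z P L L₀))) (hϖ : Irreducible ϖ),
        s59n_Q4Node M q n hqM P (s44s_Z P L L₀) ϖ hϖ (s44e_up (s44s_le_Z hLL) (M * q) f)

/-- (Q4) for a PRIME exponent `p ≠ q`, `q ≥ 5`: helper9's rationality wall. -/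
theorem s59n_q4At_prime (M q : ℕ) [NeZero M] [hq : Fact q.Prime] (hqM : ¬ q ∣ M) (h5 : 5 ≤ q)
    (p : ℕ) [Fact p.Prime] (hpq : p ≠ q) (P : ValuationSubring Kb) (hP : P.LiesOverPrime q) :
    s59n_Q4At M q p hqM P :=
  fun L f hf hdiv => s59n_q4z M q hqM h5 p hpq P hP L f hf hdiv

set_option maxHeartbeats 4000000 in
/-- **[A]ₙ, elementwise form**: `(T_ℓ₀ - (ℓ₀ + 1)) x` is finite at `P` for every `L`-rational `n`-torsion point `x`,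
`L` finite normal unramified at `P`. -/
theorem s59n_fin_elt (M q : ℕ) [NeZero M] [hq : Fact q.Prime] (hqM : ¬ q ∣ M) (h5 : 5 ≤ q)
    (n : ℕ) (hn0 : n ≠ 0) (hn6 : n.Coprime 6)
    (P : ValuationSubring Kb) (hP : P.LiesOverPrime q) (hQ : s59n_Q4At M q n hqM P)
    (L : IntermediateField ℚ Kb) [FiniteDimensional ℚ ↥L]
    (hunr : ∀ τ ∈ P.inertiaSubgroupIn ℚ, ∀ a ∈ L, τ a = a)
    (x : JZero (M * q)) (hnx : n • x = 0)
    (hfix : ∀ σ : Γℚ, (∀ a ∈ L, σ a = a) → σ • x = x)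
    (ℓ₀ : Nat.Primes) (hℓ₀ : ¬ (ℓ₀ : ℕ) ∣ M * q) :
    s59n_Finite M q n hqM P
      (heckeOperatorBar (M * q) ℓ₀ x - (((ℓ₀ : ℕ) + 1 : ℕ) : ℤ) • x) := by
  classical
  haveI : NeZero n := ⟨hn0⟩
  haveI : NeZero q := ⟨hq.out.ne_zero⟩
  have hℓq : (ℓ₀ : ℕ) ≠ q := by
    rintro h
    exact hℓ₀ (h ▸ Dvd.intro_left M rfl)
  obtain ⟨c, hc⟩ : ∃ c : ℤ, c = (((ℓ₀ : ℕ) + 1 : ℕ) : ℤ) := ⟨_, rfl⟩
  rw [← hc]
  obtain ⟨y, hy⟩ : ∃ y : JZero (M * q), y = heckeOperatorBar (M * q) ℓ₀ x - c • x := ⟨_, rfl⟩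
  rw [← hy]
  have hny : n • y = 0 := by
    rw [hy, nsmul_sub, ← map_nsmul, hnx, map_zero, smul_comm, hnx, smul_zero, sub_zero]
  have hfixy : ∀ σ : Γℚ, (∀ a ∈ L, σ a = a) → σ • y = y := by
    intro σ hσ
    rw [hy, smul_sub, ← s29g_heckeOperatorBar_smul, smul_comm, hfix σ hσ]
  -- the level `L`
  haveI hdvrL : IsDiscreteValuationRing ↥(s18q_A0 P L) := s18q_A0_dvr P L hP
  obtain ⟨ϖL, hϖL⟩ := IsDiscreteValuationRing.exists_irreducible ↥(s18q_A0 P L)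
  obtain ⟨e, ε, he, hε, hεinv, hε0, hqe⟩ := s33t_exists_e P L hq.out hP ϖL hϖL
  -- `e = 1`, hence `gcd(n, 12 e) = 1`
  have he1 : e = 1 := s59n_e_eq_one_of_fix q hq.out P hP L ϖL hϖL e ε he hε hqe hunr
  have hn12 : n.Coprime (12 * e) := by
    rw [he1, mul_one]
    have h2 : n.Coprime 2 := hn6.coprime_dvd_right ⟨3, by norm_num⟩
    have h12 : n.Coprime (2 * 6) := h2.mul_right hn6
    exact h12
  -- [Q-DIV]
  obtain ⟨fL, hfL⟩ := s44e_qdiv (M * q) n L x hnx hfix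
  obtain ⟨FL, hFL⟩ := s44e_qdiv (M * q) n L y hny hfixy
  obtain ⟨hFL0, hdivL⟩ := s59n_kum_of_gen_n' (M * q) n L hFL
  -- (Q4)
  obtain ⟨L₂, hL₂fd, hQ4⟩ := hQ L FL hFL0 hdivL
  -- roots of unity
  haveI : NeZero (ℓ₀ : ℕ) := ⟨ℓ₀.2.ne_zero⟩
  obtain ⟨ζℓ, hζℓ⟩ := HasEnoughRootsOfUnity.exists_primitiveRoot Kb (ℓ₀ : ℕ)
  haveI := hL₂fd
  haveI : FiniteDimensional ℚ ↥(IntermediateField.adjoin ℚ {ζℓ}) :=
    IntermediateField.adjoin.finiteDimensional ((hζℓ.isIntegral ℓ₀.2.pos).tower_top (A := ℚ))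
  haveI : FiniteDimensional ℚ ↥(L ⊔ L₂) := IntermediateField.finiteDimensional_sup _ _
  haveI : FiniteDimensional ℚ ↥(L ⊔ L₂ ⊔ IntermediateField.adjoin ℚ {ζℓ}) :=
    IntermediateField.finiteDimensional_sup _ _
  refine ⟨L ⊔ L₂ ⊔ IntermediateField.adjoin ℚ {ζℓ}, inferInstance, ?_⟩
  intro L₀ _ _ _ ϖ hϖ hLx
  have hLL : L ≤ L₀ := (le_sup_left.trans le_sup_left).trans hLx
  have hL₂L₀ : L₂ ≤ L₀ := (le_sup_right.trans le_sup_left).trans hLx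
  have hζℓL₀ : ζℓ ∈ L₀ :=
    hLx (le_sup_right (a := L ⊔ L₂) (IntermediateField.subset_adjoin ℚ {ζℓ} (Set.mem_singleton ζℓ)))
  -- the inertia field `Z`
  haveI hZfd : FiniteDimensional ℚ ↥(s44s_Z P L L₀) := s44s_Z_finiteDimensional P L L₀
  haveI hdvrZ : IsDiscreteValuationRing ↥(s18q_A0 P (s44s_Z P L L₀)) := s18q_A0_dvr P _ hP
  have hLZ : L ≤ s44s_Z P L L₀ := s44s_le_Z hLL
  have hZL₀ : s44s_Z P L L₀ ≤ L₀ := s44s_Z_le P L L₀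
  -- the uniformiser, `e`, `ε` over `Z`
  have hϖLP : (((ϖL : ↥(s18q_A0 P L)) : ↥L) : Kb) ∈ P := ϖL.2
  set ϖZ : ↥(s18q_A0 P (s44s_Z P L L₀)) :=
    ⟨⟨(((ϖL : ↥(s18q_A0 P L)) : ↥L) : Kb), hLZ (ϖL : ↥L).2⟩, hϖLP⟩ with hϖZdef
  have hϖZ : Irreducible ϖZ := s44s_irreducible_Z q hq.out P hP L L₀ hLL ϖL hϖL ϖZ rfl
  set εZ : ↥(s44s_Z P L L₀) := ⟨(ε : Kb), hLZ ε.2⟩ with hεZdef
  have hεZ : εZ ∈ s18q_A0 P (s44s_Z P L L₀) := hε
  have hεZinv : εZ⁻¹ ∈ s18q_A0 P (s44s_Z P L L₀) := by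
    have h1 : ((ε⁻¹ : ↥L) : Kb) ∈ P := hεinv
    show ((εZ⁻¹ : ↥(s44s_Z P L L₀)) : Kb) ∈ P
    simpa using h1
  have hεZ0 : εZ ≠ 0 := by
    intro h0
    apply hε0
    have := congrArg (fun z : ↥(s44s_Z P L L₀) => (z : Kb)) h0
    exact Subtype.ext this
  have hqeZ : (q : ↥(s44s_Z P L L₀)) =
      εZ * ((ϖZ : ↥(s18q_A0 P (s44s_Z P L L₀))) : ↥(s44s_Z P L L₀)) ^ e := by
    apply Subtype.ext
    have := congrArg (fun z : ↥L => (z : Kb)) hqe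
    simpa using this
  -- the functions over `Z`
  set f : s34m_F ↥(s44s_Z P L L₀) (M * q) := s44e_up hLZ (M * q) fL with hfdef
  have hf : s33d_IsKumGen n x (s18q_incl (M * q) (s44s_Z P L L₀) f) := by
    rw [hfdef, s44e_incl_up]
    exact hfL
  set F : s34m_F ↥(s44s_Z P L L₀) (M * q) := s44e_up hLZ (M * q) FL with hFdef
  have hF : s33d_IsKumGen n y (s18q_incl (M * q) (s44s_Z P L L₀) F) := by
    rw [hFdef, s44e_incl_up]
    exact hFL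
  have hQ4Z := hQ4 L₀ hLL hL₂L₀ ϖZ hϖZ
  -- the roots of unity in `Z`
  have hζℓZ : ζℓ ∈ s44s_Z P L L₀ :=
    s44e_root_mem_Z hq.out ℓ₀.2 hℓq P hP L L₀ hζℓ.pow_eq_one hζℓL₀
  obtain ⟨ζℓ₀, hζℓ₀, -⟩ := s33t_exists_zeta (s44s_Z P L L₀) ℓ₀.2 ζℓ hζℓ hζℓZ
  haveI : Fact (ℓ₀ : ℕ).Prime := ⟨ℓ₀.2⟩
  -- (G6) over `Z`
  haveI : NumberField ↥(s44s_Z P L L₀) := ⟨⟩
  haveI hchar₀ : CharP (IsLocalRing.ResidueField ↥(s18q_A0 P (s44s_Z P L L₀))) q :=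
    s37rl_charP P hP _
  haveI hperf₀ : PerfectField (IsLocalRing.ResidueField ↥(s18q_A0 P (s44s_Z P L L₀))) :=
    s37rl_perfectField P hP _
  haveI : PerfectRing (IsLocalRing.ResidueField ↥(s18q_A0 P (s44s_Z P L L₀))) q :=
    PerfectField.toPerfectRing q
  haveI : IsDiscreteValuationRing ↥(s37r_G P (s44s_Z P L L₀) ϖZ hϖZ).A :=
    (inferInstance : IsDiscreteValuationRing ↥(s18q_A0 P (s44s_Z P L L₀)))
  have hT : s18g_HT (IsLocalRing.ResidueField ↥(s18q_A0 P (s44s_Z P L L₀))) M :=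
    s18t_indep_j q M hqM _
  have hdegM : s18g_HDeg ↥(s44s_Z P L L₀) M := fun n b hb hn =>
    s18g_exists_relation M (algebraMap ↥(s44s_Z P L L₀) Kb) hn b hb
  have hdeg : s34m_HDeg ↥(s44s_Z P L L₀) M q :=
    s34r_deg_HDeg (algebraMap ↥(s44s_Z P L L₀) Kb) M q hq.out hqM
  have hπ : Function.Surjective (s37r_G P (s44s_Z P L L₀) ϖZ hϖZ).π :=
    IsLocalRing.residue_surjective
  have hperf : ∀ c : IsLocalRing.ResidueField ↥(s18q_A0 P (s44s_Z P L L₀)), ∃ d, d ^ q = c :=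
    fun c => surjective_frobenius _ q c
  have hy' : heckeOperatorBar (M * q) ⟨(ℓ₀ : ℕ), ℓ₀.2⟩ x - (((ℓ₀ : ℕ) + 1 : ℕ) : ℤ) • x = y := by
    rw [hy, hc]
    rfl
  obtain ⟨Gg, h, a, hGg, efh, hO, hN⟩ :=
    s59n_star_elt M q hqM h5 (s44s_Z P L L₀) (IsLocalRing.ResidueField ↥(s18q_A0 P (s44s_Z P L L₀)))
      (s37r_G P (s44s_Z P L L₀) ϖZ hϖZ) hdeg hT hdegM hπ e εZ he hεZ hεZinv hεZ0 hqeZ hperf
      (ℓ₀ : ℕ) hℓ₀ ζℓ₀ hζℓ₀ n hn0 hn12 hf (hy'.symm ▸ hF) hQ4Z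
  exact s59n_finite_up_glob M q hqM n P hZL₀ ϖZ hϖZ ϖ hϖ y F Gg h a hF hGg efh hO hN

end Fermat.Agent.Lib.S59
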