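/-
Programme (R) / node [IA′-all] (extraction step, helper1 #3278 §5), leaf [A]ₙ, family N (helper7, prefix `s59n_`):
**THE FINITE CLASSES FORM A SUBGROUP, AND THE CONSUMER FORMS OF [A]ₙ.**

* `s59n_finite_zero/_add/_neg`, `s59n_finiteSubgroup M q n hqM P : AddSubgroup (JZero (M * q))` (any exponent `n`);
* **`s59n_fin_surj`** : `V ⊆ J₀(M q)[n]` a set of `L`-rational points (`L` finite (not necessarily normal) unramified at `P ∣ q`) such that
  every `z ∈ V` is `(T_ℓ₀ - (ℓ₀ + 1)) z'` for some `z' ∈ V` (non-Eisenstein) ⇒ every `z ∈ V` is finite at `P`;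
* `s59n_fin_eigen_n` : the eigenvector form for an arbitrary exponent: `T_ℓ₀ x = a₀ x`, `a₀ - (ℓ₀ + 1)` prime to `n`.
-/
import Fermat.Agent.Lib.S59.NStarN

set_option autoImplicit false
set_option linter.style.haveILetI false
set_option linter.unusedSectionVars false
set_option synthInstance.maxHeartbeats 400000

noncomputable section

namespace Fermat.Agent.Lib.S59

open ModularCurve HahnSeries AlgebraicCurve Fermat.Agent.Lib.S18 Fermat.Agent.Lib.S28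
  Fermat.Agent.Lib.S29 Fermat.Agent.Lib.S37 Fermat.Agent.Lib.FF Fermat.Agent.Lib.S34
  Fermat.Agent.Lib.S35 Fermat.Agent.Lib.S33 Fermat.Agent.Lib.Frey Fermat.Agent.Lib.S44

local notation "Kb" => AlgebraicClosure ℚ
local notation "Γℚ" => (AlgebraicClosure ℚ ≃ₐ[ℚ] AlgebraicClosure ℚ)

section Grp

variable (M q n : ℕ) [NeZero M] [hq : Fact q.Prime] (hqM : ¬ q ∣ M) (P : ValuationSubring Kb)

theorem s59n_finite_zero : s59n_Finite M q n hqM P 0 := by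
  refine ⟨⊥, inferInstance, ?_⟩
  intro L₀ _ _ _ ϖ hϖ _
  refine ⟨1, ?_, ValuationSubring.one_mem _, ?_, ValuationSubring.one_mem _, ?_, ?_⟩
  · rw [map_one]
    exact ⟨one_ne_zero, 0, rfl, fun v => by simp⟩
  · rw [inv_one]; exact ValuationSubring.one_mem _
  · rw [inv_one]; exact ValuationSubring.one_mem _
  · intro Q _
    exact Q.ord_one

theorem s59n_finite_neg {x : JZero (M * q)} (hx : s59n_Finite M q n hqM P x) :
    s59n_Finite M q n hqM P (-x) := by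
  obtain ⟨Lx, hfd, H⟩ := hx
  refine ⟨Lx, hfd, ?_⟩
  intro L₀ _ _ _ ϖ hϖ hL
  obtain ⟨h, hK, h1, h2, h3, h4, h5⟩ := H L₀ ϖ hϖ hL
  refine ⟨h⁻¹, ?_, h2, ?_, h4, ?_, ?_⟩
  · rw [map_inv₀]
    exact s33d_kumGen_inv hK
  · rw [inv_inv]; exact h1
  · rw [inv_inv]; exact h3
  · intro Q hQ
    rw [Q.ord_inv, h5 Q hQ, neg_zero]

theorem s59n_finite_add {x y : JZero (M * q)} (hx : s59n_Finite M q n hqM P x)
    (hy : s59n_Finite M q n hqM P y) : s59n_Finite M q n hqM P (x + y) := by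
  obtain ⟨Lx, hfdx, Hx⟩ := hx
  obtain ⟨Ly, hfdy, Hy⟩ := hy
  haveI := hfdx
  haveI := hfdy
  refine ⟨Lx ⊔ Ly, IntermediateField.finiteDimensional_sup _ _, ?_⟩
  intro L₀ _ _ _ ϖ hϖ hL
  obtain ⟨h, hK, h1, h2, h3, h4, h5⟩ := Hx L₀ ϖ hϖ (le_sup_left.trans hL)
  obtain ⟨h', hK', h1', h2', h3', h4', h5'⟩ := Hy L₀ ϖ hϖ (le_sup_right.trans hL)
  have hh0 : h ≠ 0 := fun h0 => hK.1 (by rw [h0, map_zero])
  have hh0' : h' ≠ 0 := fun h0 => hK'.1 (by rw [h0, map_zero])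
  refine ⟨h * h', ?_, mul_mem h1 h1', ?_, mul_mem h3 h3', ?_, ?_⟩
  · rw [map_mul]
    exact s33d_kumGen_prod hK hK'
  · rw [mul_inv]; exact mul_mem h2 h2'
  · rw [mul_inv]; exact mul_mem h4 h4'
  · intro Q hQ
    rw [Q.ord_mul hh0 hh0', h5 Q hQ, h5' Q hQ, add_zero]

/-- **the subgroup of the classes which are finite at `P`** (exponent `n`). -/
def s59n_finiteSubgroup : AddSubgroup (JZero (M * q)) where
  carrier := {x | s59n_Finite M q n hqM P x}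
  zero_mem' := s59n_finite_zero M q n hqM P
  add_mem' := fun hx hy => s59n_finite_add M q n hqM P hx hy
  neg_mem' := fun hx => s59n_finite_neg M q n hqM P hx

theorem s59n_mem_finiteSubgroup {x : JZero (M * q)} :
    x ∈ s59n_finiteSubgroup M q n hqM P ↔ s59n_Finite M q n hqM P x := Iff.rfl

theorem s59n_finite_zsmul {x : JZero (M * q)} (hx : s59n_Finite M q n hqM P x) (k : ℤ) :
    s59n_Finite M q n hqM P (k • x) :=
  (s59n_finiteSubgroup M q n hqM P).zsmul_mem hx k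

/-- an `n`-torsion class is finite as soon as a multiple `k • x`, `k` prime to `n`, is. -/
theorem s59n_finite_of_coprime_smul {x : JZero (M * q)} (hnx : n • x = 0) {k : ℤ}
    (hk : IsCoprime k (n : ℤ)) (hx : s59n_Finite M q n hqM P (k • x)) :
    s59n_Finite M q n hqM P x := by
  obtain ⟨u, v, huv⟩ := hk
  have e : x = u • (k • x) := by
    have h1 : ((n : ℤ)) • x = 0 := by rw [natCast_zsmul]; exact hnx
    calc x = (1 : ℤ) • x := (one_smul ℤ x).symm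
      _ = (u * k + v * n) • x := by rw [huv]
      _ = u • (k • x) + v • ((n : ℤ) • x) := by rw [add_zsmul, mul_zsmul, mul_zsmul]
      _ = u • (k • x) := by rw [h1, smul_zero, add_zero]
  rw [e]
  exact s59n_finite_zsmul M q n hqM P hx u

end Grp

section Consumers

variable (M q : ℕ) [NeZero M] [hq : Fact q.Prime] (hqM : ¬ q ∣ M) (h5 : 5 ≤ q)
  (n : ℕ) (hn0 : n ≠ 0) (hn6 : n.Coprime 6)
  (P : ValuationSubring Kb) (hP : P.LiesOverPrime q) (hQ : s59n_Q4At M q n hqM P)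
  (L : IntermediateField ℚ Kb) [FiniteDimensional ℚ ↥L]
  (hunr : ∀ τ ∈ P.inertiaSubgroupIn ℚ, ∀ a ∈ L, τ a = a)
  (ℓ₀ : Nat.Primes) (hℓ₀ : ¬ (ℓ₀ : ℕ) ∣ M * q)

include h5 hn0 hn6 hP hQ hunr hℓ₀ in
/-- **[A]ₙ, SURJECTIVE (non-Eisenstein) FORM**: `V` a set of `L`-rational `n`-torsion points on which `T_ℓ₀ - (ℓ₀ + 1)`
is surjective ⇒ every point of `V` is finite at `P`. -/
theorem s59n_fin_surj (V : Set (JZero (M * q))) (hVn : ∀ z ∈ V, n • z = 0)
    (hVL : ∀ z ∈ V, ∀ σ : Γℚ, (∀ a ∈ L, σ a = a) → σ • z = z)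
    (hsurj : ∀ z ∈ V, ∃ z' ∈ V,
      heckeOperatorBar (M * q) ℓ₀ z' - (((ℓ₀ : ℕ) + 1 : ℕ) : ℤ) • z' = z) :
    ∀ z ∈ V, s59n_Finite M q n hqM P z := by
  intro z hz
  obtain ⟨z', hz', e⟩ := hsurj z hz
  rw [← e]
  exact s59n_fin_elt M q hqM h5 n hn0 hn6 P hP hQ L hunr z' (hVn z' hz') (hVL z' hz') ℓ₀ hℓ₀

include h5 hn0 hn6 hP hQ hunr hℓ₀ in
/-- **[A]ₙ, EIGENVECTOR FORM** (arbitrary exponent `n` prime to `6`): `T_ℓ₀ x = a₀ x` with `a₀ - (ℓ₀ + 1)` prime to `n`. -/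
theorem s59n_fin_eigen_n (x : JZero (M * q)) (hnx : n • x = 0)
    (hfix : ∀ σ : Γℚ, (∀ a ∈ L, σ a = a) → σ • x = x) (a₀ : ℤ)
    (hTx : heckeOperatorBar (M * q) ℓ₀ x = a₀ • x)
    (ha₀ : IsCoprime (a₀ - (((ℓ₀ : ℕ) + 1 : ℕ) : ℤ)) (n : ℤ)) :
    s59n_Finite M q n hqM P x := by
  have h1 := s59n_fin_elt M q hqM h5 n hn0 hn6 P hP hQ L hunr x hnx hfix ℓ₀ hℓ₀
  rw [hTx, ← sub_smul] at h1
  exact s59n_finite_of_coprime_smul M q n hqM P hnx ha₀ h1

end Consumers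

end Fermat.Agent.Lib.S59
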