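/-
Programme (R) / node [IA′-all] (extraction step, helper1 #3278 §5), leaf [A]ₙ, family N (helper7, prefix `s59n_`):
**[A]ₙ UNCONDITIONAL**: `s59n_q4At : s59n_Q4At M q n hqM P` for EVERY exponent `n` from helper9's `s59m_Q4n_Z`
(`MQ4N.lean`, the rationality wall (Q4) for an arbitrary exponent), hence

* `s59n_fin_elt_main`   : `(T_ℓ₀ - (ℓ₀ + 1)) x` is finite at `P` for every `L`-rational `x ∈ J₀(M q)[n]`, `L` finite normal
  unramified at `P ∣ q` (`q ≥ 5`, `gcd(n, 6) = 1`, `n ≠ 0`, `M` arbitrary);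
* `s59n_fin_surj_main`  : the surjective (non-Eisenstein) form for a set `V` of such points;
* `s59n_fin_eigen_main` : the eigenvector form (`T_ℓ₀ x = a₀ x`, `a₀ - (ℓ₀ + 1)` prime to `n`).
-/
import Fermat.Agent.Lib.S59.NFinGrp
import Fermat.Agent.Lib.S59.MQ4N

set_option autoImplicit false
set_option linter.style.haveILetI false
set_option linter.unusedSectionVars false
set_option synthInstance.maxHeartbeats 400000

noncomputable section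

namespace Fermat.Agent.Lib.S59

open ModularCurve HahnSeries AlgebraicCurve Fermat.Agent.Lib.S18 Fermat.Agent.Lib.S28
  Fermat.Agent.Lib.S29 Fermat.Agent.Lib.S37 Fermat.Agent.Lib.FF Fermat.Agent.Lib.S34
  Fermat.Agent.Lib.S35 Fermat.Agent.Lib.S33 Fermat.Agent.Lib.Frey Fermat.Agent.Lib.S44

local notation "Kb" => AlgebraicClosure ℚ
local notation "Γℚ" => (AlgebraicClosure ℚ ≃ₐ[ℚ] AlgebraicClosure ℚ)

section Main

variable (M q : ℕ) [NeZero M] [hq : Fact q.Prime] (hqM : ¬ q ∣ M) (h5 : 5 ≤ q) (n : ℕ)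
  (P : ValuationSubring Kb) (hP : P.LiesOverPrime q)

include h5 hP in
set_option maxHeartbeats 1600000 in
/-- **(Q4)ₙ at the nodes over the inertia field** = helper9's `s59m_Q4n_Z`, restricted to the nodes of the chart
`{j regular}`. -/
theorem s59n_q4At : s59n_Q4At M q n hqM P := by
  intro L f hf hdiv
  haveI : NeZero q := ⟨hq.out.ne_zero⟩
  obtain ⟨L₂, hfd, h⟩ := s59m_Q4n_Z M q hq.out hqM h5 n P hP L f hf hdiv
  refine ⟨L₂, hfd, ?_⟩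
  intro L₀ _ _ hLL hle _ ϖ hϖ s
  obtain ⟨h1, -⟩ := h L₀ hLL hle ϖ hϖ
  exact h1 s.1 s.2.1 (s.2.2.1 ⟨1, ValuationSubring.one_mem _, by rw [mul_one]; rfl⟩)

variable (hn0 : n ≠ 0) (hn6 : n.Coprime 6)
  (L : IntermediateField ℚ Kb) [FiniteDimensional ℚ ↥L]
  (hunr : ∀ τ ∈ P.inertiaSubgroupIn ℚ, ∀ a ∈ L, τ a = a)
  (ℓ₀ : Nat.Primes) (hℓ₀ : ¬ (ℓ₀ : ℕ) ∣ M * q)

include h5 hn0 hn6 hP hunr hℓ₀ in
/-- **[A]ₙ, elementwise form, unconditional.** -/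
theorem s59n_fin_elt_main (x : JZero (M * q)) (hnx : n • x = 0)
    (hfix : ∀ σ : Γℚ, (∀ a ∈ L, σ a = a) → σ • x = x) :
    s59n_Finite M q n hqM P
      (heckeOperatorBar (M * q) ℓ₀ x - (((ℓ₀ : ℕ) + 1 : ℕ) : ℤ) • x) :=
  s59n_fin_elt M q hqM h5 n hn0 hn6 P hP (s59n_q4At M q hqM h5 n P hP) L hunr x hnx hfix ℓ₀ hℓ₀

include h5 hn0 hn6 hP hunr hℓ₀ in
/-- **[A]ₙ, surjective (non-Eisenstein) form, unconditional.** -/
theorem s59n_fin_surj_main (V : Set (JZero (M * q))) (hVn : ∀ z ∈ V, n • z = 0)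
    (hVL : ∀ z ∈ V, ∀ σ : Γℚ, (∀ a ∈ L, σ a = a) → σ • z = z)
    (hsurj : ∀ z ∈ V, ∃ z' ∈ V,
      heckeOperatorBar (M * q) ℓ₀ z' - (((ℓ₀ : ℕ) + 1 : ℕ) : ℤ) • z' = z) :
    ∀ z ∈ V, s59n_Finite M q n hqM P z :=
  s59n_fin_surj M q hqM h5 n hn0 hn6 P hP (s59n_q4At M q hqM h5 n P hP) L hunr ℓ₀ hℓ₀ V hVn hVL hsurj

include h5 hn0 hn6 hP hunr hℓ₀ in
/-- **[A]ₙ, eigenvector form, unconditional.** -/
theorem s59n_fin_eigen_main (x : JZero (M * q)) (hnx : n • x = 0)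
    (hfix : ∀ σ : Γℚ, (∀ a ∈ L, σ a = a) → σ • x = x) (a₀ : ℤ)
    (hTx : heckeOperatorBar (M * q) ℓ₀ x = a₀ • x)
    (ha₀ : IsCoprime (a₀ - (((ℓ₀ : ℕ) + 1 : ℕ) : ℤ)) (n : ℤ)) :
    s59n_Finite M q n hqM P x :=
  s59n_fin_eigen_n M q hqM h5 n hn0 hn6 P hP (s59n_q4At M q hqM h5 n P hP) L hunr ℓ₀ hℓ₀ x hnx hfix a₀
    hTx ha₀

end Main

end Fermat.Agent.Lib.S59
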