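/-
Programme (R) / node [IA′] (C7 = (G2), D = extraction), leaf [A]ₙ, family N (helper7, prefix `s59n_`):
**[A]ₙ IN THE POINTWISE INERTIA FORM (the `D_P`-version, helper1 #3327 (2)).**

No field `L`, no normality, no `G_ℚ`-stability: the ONLY hypothesis on the point is `τ • x = x` for `τ` in the inertia
group of `P ∣ q`.

* `s59n_exists_unr_field` : a point `x ∈ J₀(N)` fixed by the inertia group `I_P` is rational over a FINITE extension `L`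
  which `I_P` fixes pointwise (`L` = the inertia field `s44s_Z P ⊥ K` of a finite normal `K` over which `x` is rational);
* **`s59n_fin_elt_I`**  : `x ∈ J₀(M q)[n]`, `I_P`-fixed ⇒ `(T_ℓ₀ - (ℓ₀ + 1)) x` is finite at `P`;
* **`s59n_fin_surj_I`** : `V` a set of `I_P`-fixed `n`-torsion points on which `T_ℓ₀ - (ℓ₀ + 1)` is surjective ⇒ every
  point of `V` is finite at `P`;
* `s59n_fin_eigen_I`    : `T_ℓ₀ x = a₀ x`, `a₀ - (ℓ₀ + 1)` prime to `n`, `x` `I_P`-fixed ⇒ `x` finite at `P`.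
(`q ≥ 5`, `q ∤ M`, `M` arbitrary, `n ≠ 0` prime to `6`.)
-/
import Fermat.Agent.Lib.S59.NQ4N
import Fermat.Agent.Lib.S29.GSInt

set_option autoImplicit false
set_option linter.style.haveILetI false
set_option linter.unusedSectionVars false
set_option synthInstance.maxHeartbeats 400000

noncomputable section

namespace Fermat.Agent.Lib.S59

open ModularCurve HahnSeries AlgebraicCurve Fermat.Agent.Lib.S18 Fermat.Agent.Lib.S28
  Fermat.Agent.Lib.S29 Fermat.Agent.Lib.S37 Fermat.Agent.Lib.FF Fermat.Agent.Lib.S34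
  Fermat.Agent.Lib.S35 Fermat.Agent.Lib.S33 Fermat.Agent.Lib.Frey Fermat.Agent.Lib.S44

local notation "Kb" => AlgebraicClosure ℚ
local notation "Γℚ" => (AlgebraicClosure ℚ ≃ₐ[ℚ] AlgebraicClosure ℚ)

/-- a point fixed by the inertia group `I_P` is rational over a finite extension fixed pointwise by `I_P`. -/
theorem s59n_exists_unr_field (N : ℕ) [NeZero N] (P : ValuationSubring Kb) (x : JZero N)
    (hI : ∀ τ ∈ P.inertiaSubgroupIn ℚ, τ • x = x) :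
    ∃ L : IntermediateField ℚ Kb, FiniteDimensional ℚ ↥L ∧
      (∀ τ ∈ P.inertiaSubgroupIn ℚ, ∀ a ∈ L, τ a = a) ∧
      ∀ σ : Γℚ, (∀ a ∈ L, σ a = a) → σ • x = x := by
  obtain ⟨K₁, hK₁fd, hK₁⟩ := s29g_S37Int.openStab N x
  haveI := hK₁fd
  obtain ⟨K, hK₁K, hKfd, hKn⟩ := s33t_exists_normal_ge K₁
  haveI := hKfd
  haveI := hKn
  refine ⟨s44s_Z P ⊥ K, s44s_Z_finiteDimensional P ⊥ K, ?_, ?_⟩
  · intro τ hτ a ha
    refine (s44s_mem_Z.mp ha).1 τ (s44s_mem_IΓ.mpr ⟨hτ, fun b hb => ?_⟩)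
    obtain ⟨r, rfl⟩ := IntermediateField.mem_bot.mp hb
    exact τ.commutes r
  · intro σ hσ
    have hγ : ∀ y : ↥K, (y : Kb) ∈ s44s_Z P ⊥ K → (σ.restrictNormal ↥K) y = y := by
      intro y hy
      apply Subtype.ext
      exact (AlgEquiv.restrictNormal_commutes σ ↥K y).trans (hσ _ hy)
    obtain ⟨τ, hτ, hτγ⟩ := s44s_exists_lift_Z P ⊥ K (σ.restrictNormal ↥K) hγ
    have hτI : τ ∈ P.inertiaSubgroupIn ℚ := (s44s_mem_IΓ.mp hτ).1
    have hρ : (τ⁻¹ * σ) • x = x := by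
      apply hK₁
      intro y hy
      have h1 : τ y = σ y := by
        have := hτγ ⟨y, hK₁K hy⟩
        rw [this]
        exact AlgEquiv.restrictNormal_commutes σ ↥K ⟨y, hK₁K hy⟩
      show τ⁻¹ (σ y) = y
      rw [← h1]
      exact τ.symm_apply_apply y
    have h2 : σ • x = τ • ((τ⁻¹ * σ) • x) := by
      rw [← mul_smul, mul_inv_cancel_left]
    rw [h2, hρ]
    exact hI τ hτI

section Main

variable (M q : ℕ) [NeZero M] [hq : Fact q.Prime] (hqM : ¬ q ∣ M) (h5 : 5 ≤ q) (n : ℕ)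
  (hn0 : n ≠ 0) (hn6 : n.Coprime 6)
  (P : ValuationSubring Kb) (hP : P.LiesOverPrime q)
  (ℓ₀ : Nat.Primes) (hℓ₀ : ¬ (ℓ₀ : ℕ) ∣ M * q)

include h5 hn0 hn6 hP hℓ₀ in
/-- **[A]ₙ, elementwise, pointwise inertia form.** -/
theorem s59n_fin_elt_I (x : JZero (M * q)) (hnx : n • x = 0)
    (hI : ∀ τ ∈ P.inertiaSubgroupIn ℚ, τ • x = x) :
    s59n_Finite M q n hqM P
      (heckeOperatorBar (M * q) ℓ₀ x - (((ℓ₀ : ℕ) + 1 : ℕ) : ℤ) • x) := by
  haveI : NeZero q := ⟨hq.out.ne_zero⟩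
  obtain ⟨L, hLfd, hunr, hfix⟩ := s59n_exists_unr_field (M * q) P x hI
  haveI := hLfd
  exact s59n_fin_elt_main M q hqM h5 n P hP hn0 hn6 L hunr ℓ₀ hℓ₀ x hnx hfix

include h5 hn0 hn6 hP hℓ₀ in
/-- **[A]ₙ, surjective (non-Eisenstein) form, pointwise inertia form.** -/
theorem s59n_fin_surj_I (V : Set (JZero (M * q))) (hVn : ∀ z ∈ V, n • z = 0)
    (hVI : ∀ z ∈ V, ∀ τ ∈ P.inertiaSubgroupIn ℚ, τ • z = z)
    (hsurj : ∀ z ∈ V, ∃ z' ∈ V,
      heckeOperatorBar (M * q) ℓ₀ z' - (((ℓ₀ : ℕ) + 1 : ℕ) : ℤ) • z' = z) :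
    ∀ z ∈ V, s59n_Finite M q n hqM P z := by
  intro z hz
  obtain ⟨z', hz', e⟩ := hsurj z hz
  rw [← e]
  exact s59n_fin_elt_I M q hqM h5 n hn0 hn6 P hP ℓ₀ hℓ₀ z' (hVn z' hz') (hVI z' hz')

include h5 hn0 hn6 hP hℓ₀ in
/-- **[A]ₙ, eigenvector form, pointwise inertia form.** -/
theorem s59n_fin_eigen_I (x : JZero (M * q)) (hnx : n • x = 0)
    (hI : ∀ τ ∈ P.inertiaSubgroupIn ℚ, τ • x = x) (a₀ : ℤ)
    (hTx : heckeOperatorBar (M * q) ℓ₀ x = a₀ • x)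
    (ha₀ : IsCoprime (a₀ - (((ℓ₀ : ℕ) + 1 : ℕ) : ℤ)) (n : ℤ)) :
    s59n_Finite M q n hqM P x := by
  have h1 := s59n_fin_elt_I M q hqM h5 n hn0 hn6 P hP ℓ₀ hℓ₀ x hnx hI
  rw [hTx, ← sub_smul] at h1
  exact s59n_finite_of_coprime_smul M q n hqM P hnx ha₀ h1

end Main

end Fermat.Agent.Lib.S59
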