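/-
Programme (R2) / node **[CAR]**, route R-DS′ (helper9, prefix `s59m_`): leaf **[FR-K0]** — **ADMISSIBLE BASE FIELDS EXIST**.

For a place `P ∣ q` of `ℚ̄`, a prime `p ≠ q`, a level `M q` and a depth `K`, there is a finite extension `L₀ / ℚ` inside `ℚ̄`
with `s59m_Base M q p K P L₀` (`MCarFrame.lean`): fixed pointwise by the inertia group `I_P`, over which every
`I_P`-fixed point of `J₀(M q)[p ^ K]` and of `J₀(M q²)[p]` is rational, containing primitive roots of unity of order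
`p ^ K` and `q² - 1`.

* `s59m_exists_field_of_finite` : finitely many points of `J₀(N)` are rational over ONE finite extension (open
  stabilisers, `s29g_S37Int.openStab`);
* `s59m_inertia_fix_root` : the inertia group at `q` fixes the roots of unity of order prime to `q`;
* `s59m_residue_finite` : the residue field of `P ∩ L₀` is FINITE; `s59m_dvd_card_units` : a primitive `n`-th root of
  unity in `L₀` (`n` prime to `q`) gives `n ∣ #κ₀ˣ`; `s59m_q_irreducible` : `q` is a uniformiser of `P ∩ L₀` for `L₀`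
  inertia-fixed;
* **`s59m_exists_base`** : [FR-K0].  `L₀ := s44s_Z P ⊥ L₁` = the inertia field of a finite normal `L₁` containing the
  fields of definition of the torsion points and the roots of unity.
-/
import Fermat.Agent.Lib.S59.MCarFrame
import Fermat.Agent.Lib.S59.NFinI
import Fermat.Agent.Lib.S30.Cyc
import Fermat.Agent.Lib.S15.FKum6
import Fermat.Agent.Lib.CFT.RamBridgeVal
import Fermat.Agent.Lib.S37.RLevel

set_option autoImplicit false
set_option linter.style.haveILetI false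
set_option linter.unusedSectionVars false
set_option linter.unusedVariables false

noncomputable section

namespace Fermat.Agent.Lib.S59

open ModularCurve AlgebraicCurve Fermat.Agent.Lib.FF Fermat.Agent.Lib.S18 Fermat.Agent.Lib.S29
  Fermat.Agent.Lib.S30 Fermat.Agent.Lib.S33 Fermat.Agent.Lib.S44 Fermat.Agent.Lib.S15

local notation "Kb" => AlgebraicClosure ℚ
local notation "Γℚ" => (AlgebraicClosure ℚ ≃ₐ[ℚ] AlgebraicClosure ℚ)

/-- finitely many points of `J₀(N)` are rational over one finite extension of `ℚ`. -/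
theorem s59m_exists_field_of_finite (N : ℕ) [NeZero N] (S : Set (JZero N)) (hS : S.Finite) :
    ∃ K₁ : IntermediateField ℚ Kb, FiniteDimensional ℚ ↥K₁ ∧
      ∀ x ∈ S, ∀ σ : Γℚ, (∀ a ∈ K₁, σ a = a) → σ • x = x := by
  induction S, hS using Set.Finite.induction_on with
  | empty =>
    exact ⟨⊥, inferInstance, fun x hx => absurd hx (Set.notMem_empty x)⟩
  | @insert y S hy hS ih =>
    obtain ⟨K₁, hfd₁, h₁⟩ := ih
    obtain ⟨K₂, hfd₂, h₂⟩ := s29g_S37Int.openStab N y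
    haveI := hfd₁
    haveI := hfd₂
    refine ⟨K₁ ⊔ K₂, IntermediateField.finiteDimensional_sup _ _, ?_⟩
    intro x hx σ hσ
    rcases Set.mem_insert_iff.mp hx with rfl | hx
    · exact h₂ σ fun a ha => hσ a (le_sup_right (a := K₁) ha)
    · exact h₁ x hx σ fun a ha => hσ a (le_sup_left (b := K₂) ha)

/-- the inertia group at `q` fixes the roots of unity of order prime to `q`. -/
theorem s59m_inertia_fix_root {q n : ℕ} (hn0 : n ≠ 0) (hcop : Nat.Coprime n q)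
    (P : ValuationSubring Kb) (hP : P.LiesOverPrime q) {ζ : Kb} (hζ : ζ ^ n = 1) {τ : Γℚ}
    (hτ : τ ∈ P.inertiaSubgroupIn ℚ) : τ ζ = ζ := by
  have hmem : ζ ∈ P := s29g_root_mem P hn0 hζ
  have hcong := s29g_inertia_congr P hτ hmem
  refine s30c_root_sep P hn0 hcop hP ?_ hζ hcong
  rw [← map_pow, hζ, map_one]

section Main

variable (M q p K : ℕ) [NeZero M] [hq : Fact q.Prime] [hp : Fact p.Prime] (hpq : p ≠ q)
  (P : ValuationSubring Kb) (hP : P.LiesOverPrime q)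

include hpq hP in
/-- **[FR-K0]: admissible base fields exist.** -/
theorem s59m_exists_base :
    haveI : NeZero q := ⟨hq.out.ne_zero⟩
    ∃ L₀ : IntermediateField ℚ Kb, FiniteDimensional ℚ ↥L₀ ∧ s59m_Base M q p K P L₀ := by
  haveI : NeZero q := ⟨hq.out.ne_zero⟩
  -- the torsion points
  have hfin1 : {x : JZero (M * q) | (p ^ K) • x = 0}.Finite := by
    exact Set.finite_coe_iff.mp (m15f_tors_finite (M * q) p K)
  have hfin2 : {x : JZero (M * q * q) | p • x = 0}.Finite := by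
    have h : {x : JZero (M * q * q) | p • x = 0} = {x : JZero (M * q * q) | (p ^ 1) • x = 0} := by
      rw [pow_one]
    rw [h]
    exact Set.finite_coe_iff.mp (m15f_tors_finite (M * q * q) p 1)
  obtain ⟨K₁, hfd₁, h₁⟩ := s59m_exists_field_of_finite (M * q) _ hfin1
  obtain ⟨K₂, hfd₂, h₂⟩ := s59m_exists_field_of_finite (M * q * q) _ hfin2
  haveI := hfd₁
  haveI := hfd₂
  -- the roots of unity
  have hpK0 : p ^ K ≠ 0 := (pow_pos hp.out.pos K).ne'
  have hq2 : 1 < q ^ 2 := Nat.one_lt_pow (by norm_num) hq.out.one_lt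
  have hq20 : q ^ 2 - 1 ≠ 0 := by omega
  haveI : NeZero (p ^ K) := ⟨hpK0⟩
  haveI : NeZero (q ^ 2 - 1) := ⟨hq20⟩
  obtain ⟨ζ₁, hζ₁⟩ := HasEnoughRootsOfUnity.exists_primitiveRoot Kb (p ^ K)
  obtain ⟨ζ₂, hζ₂⟩ := HasEnoughRootsOfUnity.exists_primitiveRoot Kb (q ^ 2 - 1)
  haveI : FiniteDimensional ℚ ↥(IntermediateField.adjoin ℚ {ζ₁}) :=
    IntermediateField.adjoin.finiteDimensional
      ((hζ₁.isIntegral (Nat.pos_of_ne_zero hpK0)).tower_top (A := ℚ))
  haveI : FiniteDimensional ℚ ↥(IntermediateField.adjoin ℚ {ζ₂}) :=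
    IntermediateField.adjoin.finiteDimensional
      ((hζ₂.isIntegral (Nat.pos_of_ne_zero hq20)).tower_top (A := ℚ))
  haveI : FiniteDimensional ℚ ↥(K₁ ⊔ K₂) := IntermediateField.finiteDimensional_sup _ _
  haveI : FiniteDimensional ℚ ↥(K₁ ⊔ K₂ ⊔ IntermediateField.adjoin ℚ {ζ₁}) :=
    IntermediateField.finiteDimensional_sup _ _
  haveI : FiniteDimensional ℚ
      ↥(K₁ ⊔ K₂ ⊔ IntermediateField.adjoin ℚ {ζ₁} ⊔ IntermediateField.adjoin ℚ {ζ₂}) :=
    IntermediateField.finiteDimensional_sup _ _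
  obtain ⟨L₁, hle, hfdL, hnL⟩ := s33t_exists_normal_ge
    (K₁ ⊔ K₂ ⊔ IntermediateField.adjoin ℚ {ζ₁} ⊔ IntermediateField.adjoin ℚ {ζ₂})
  haveI := hfdL
  haveI := hnL
  have hK₁ : K₁ ≤ L₁ := ((le_sup_left.trans le_sup_left).trans le_sup_left).trans hle
  have hK₂ : K₂ ≤ L₁ := ((le_sup_right.trans le_sup_left).trans le_sup_left).trans hle
  have hζ₁L : ζ₁ ∈ L₁ := hle (le_sup_left (b := IntermediateField.adjoin ℚ {ζ₂})
    (le_sup_right (a := K₁ ⊔ K₂) (IntermediateField.subset_adjoin ℚ {ζ₁} (Set.mem_singleton ζ₁))))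
  have hζ₂L : ζ₂ ∈ L₁ := hle (le_sup_right
    (a := K₁ ⊔ K₂ ⊔ IntermediateField.adjoin ℚ {ζ₁})
    (IntermediateField.subset_adjoin ℚ {ζ₂} (Set.mem_singleton ζ₂)))
  -- the inertia field
  have hI : ∀ τ ∈ P.inertiaSubgroupIn ℚ, τ ∈ s44s_IΓ P ⊥ := fun τ hτ =>
    s44s_mem_IΓ.mpr ⟨hτ, fun b hb => by
      obtain ⟨r, rfl⟩ := IntermediateField.mem_bot.mp hb
      exact τ.commutes r⟩
  -- rationality over the inertia field of inertia-fixed `L₁`-rational points
  have hrat : ∀ (N : ℕ) [NeZero N] (x : JZero N),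
      (∀ σ : Γℚ, (∀ a ∈ L₁, σ a = a) → σ • x = x) →
      (∀ τ ∈ P.inertiaSubgroupIn ℚ, τ • x = x) →
      ∀ σ : Γℚ, (∀ a ∈ s44s_Z P ⊥ L₁, σ a = a) → σ • x = x := by
    intro N _ x hxL hxI σ hσ
    have hγ : ∀ y : ↥L₁, (y : Kb) ∈ s44s_Z P ⊥ L₁ → (σ.restrictNormal ↥L₁) y = y := by
      intro y hy
      apply Subtype.ext
      exact (AlgEquiv.restrictNormal_commutes σ ↥L₁ y).trans (hσ _ hy)
    obtain ⟨τ, hτ, hτγ⟩ := s44s_exists_lift_Z P ⊥ L₁ (σ.restrictNormal ↥L₁) hγ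
    have hτI : τ ∈ P.inertiaSubgroupIn ℚ := (s44s_mem_IΓ.mp hτ).1
    have hρ : (τ⁻¹ * σ) • x = x := by
      apply hxL
      intro y hy
      have h1 : τ y = σ y := by
        have := hτγ ⟨y, hy⟩
        rw [this]
        exact AlgEquiv.restrictNormal_commutes σ ↥L₁ ⟨y, hy⟩
      show τ⁻¹ (σ y) = y
      rw [← h1]
      exact τ.symm_apply_apply y
    have h2 : σ • x = τ • ((τ⁻¹ * σ) • x) := by
      rw [← mul_smul, mul_inv_cancel_left]
    rw [h2, hρ]
    exact hxI τ hτI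
  have hcop1 : Nat.Coprime (p ^ K) q :=
    Nat.Coprime.pow_left K ((Nat.coprime_primes hp.out hq.out).mpr hpq)
  have hcop2 : Nat.Coprime (q ^ 2 - 1) q := by
    have h1 : q ^ 2 - 1 + 1 = q * q := by
      have : q ^ 2 = q * q := sq q
      omega
    have h2 : Nat.Coprime (q ^ 2 - 1) (q ^ 2 - 1 + 1) := by simp
    rw [h1] at h2
    exact Nat.Coprime.coprime_mul_left_right h2
  refine ⟨s44s_Z P ⊥ L₁, s44s_Z_finiteDimensional P ⊥ L₁, ?_, ?_, ?_, ?_, ?_⟩
  · intro τ hτ a ha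
    exact (s44s_mem_Z.mp ha).1 τ (hI τ hτ)
  · intro x hx hxI
    exact hrat (M * q) x (fun σ hσ => h₁ x hx σ fun a ha => hσ a (hK₁ ha)) hxI
  · intro x hx hxI
    exact hrat (M * q * q) x (fun σ hσ => h₂ x hx σ fun a ha => hσ a (hK₂ ha)) hxI
  · refine ⟨ζ₁, s44s_mem_Z.mpr ⟨fun σ hσ => ?_, hζ₁L⟩, hζ₁⟩
    exact s59m_inertia_fix_root hpK0 hcop1 P hP hζ₁.pow_eq_one (s44s_mem_IΓ.mp hσ).1
  · refine ⟨ζ₂, s44s_mem_Z.mpr ⟨fun σ hσ => ?_, hζ₂L⟩, hζ₂⟩
    exact s59m_inertia_fix_root hq20 hcop2 P hP hζ₂.pow_eq_one (s44s_mem_IΓ.mp hσ).1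

end Main

/-! ### The residue field of a finite level -/

section Residue

open NumberField Fermat.Agent.Lib.CFT Fermat.Agent.Lib.S37

variable (q : ℕ) [hq : Fact q.Prime] (P : ValuationSubring Kb) (hP : P.LiesOverPrime q)
  (L₀ : IntermediateField ℚ Kb) [FiniteDimensional ℚ ↥L₀]

include hP in
/-- **the residue field of `P ∩ L₀` is finite** (`L₀ / ℚ` finite). -/
theorem s59m_residue_finite : Finite (IsLocalRing.ResidueField ↥(s18q_A0 P L₀)) := by
  haveI : NumberField ↥L₀ := ⟨⟩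
  have hA : ((q : ℕ) : ↥L₀) ∈ (s18q_A0 P L₀).nonunits := s37rl_nonunit P hP L₀
  -- the reduction of the ring of integers
  let f : 𝓞 ↥L₀ →+* ↥(s18q_A0 P L₀) :=
    (algebraMap (𝓞 ↥L₀) ↥L₀).codRestrict (s18q_A0 P L₀).toSubring fun x => cfg_coe_mem _ x
  let g : 𝓞 ↥L₀ →+* IsLocalRing.ResidueField ↥(s18q_A0 P L₀) :=
    (IsLocalRing.residue ↥(s18q_A0 P L₀)).comp f
  have hker : RingHom.ker g ≠ ⊥ := by
    intro h
    have h1 : ((q : ℕ) : 𝓞 ↥L₀) ∈ RingHom.ker g := by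
      rw [RingHom.mem_ker]
      show IsLocalRing.residue ↥(s18q_A0 P L₀) (f ((q : ℕ) : 𝓞 ↥L₀)) = 0
      rw [IsLocalRing.residue_eq_zero_iff, ← ValuationSubring.coe_mem_nonunits_iff]
      show algebraMap (𝓞 ↥L₀) ↥L₀ ((q : ℕ) : 𝓞 ↥L₀) ∈ (s18q_A0 P L₀).nonunits
      rw [map_natCast]
      exact hA
    rw [h, Ideal.mem_bot] at h1
    have h2 : ((q : ℕ) : ↥L₀) = 0 := by
      have := congrArg (algebraMap (𝓞 ↥L₀) ↥L₀) h1
      simpa using this
    exact (Nat.cast_ne_zero.mpr hq.out.ne_zero) h2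
  haveI : Finite (𝓞 ↥L₀ ⧸ RingHom.ker g) := Ideal.finiteQuotientOfFreeOfNeBot _ hker
  have hsurj : Function.Surjective g := by
    intro y
    obtain ⟨x, rfl⟩ := IsLocalRing.residue_surjective y
    obtain ⟨a, ha⟩ := cfg_exists_sub_mem_nonunits hq.out hA x.2
    refine ⟨a, ?_⟩
    show IsLocalRing.residue ↥(s18q_A0 P L₀) (f a) = IsLocalRing.residue ↥(s18q_A0 P L₀) x
    rw [eq_comm, ← sub_eq_zero, ← map_sub, IsLocalRing.residue_eq_zero_iff,
      ← ValuationSubring.coe_mem_nonunits_iff]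
    exact ha
  exact Finite.of_surjective (Ideal.Quotient.lift (RingHom.ker g) g fun a ha => ha)
    (Ideal.Quotient.lift_surjective_of_surjective _ _ hsurj)

include hP in
/-- a primitive `n`-th root of unity in `L₀`, `n` prime to `q`: `n` divides the order of the multiplicative group of
the residue field. -/
theorem s59m_dvd_card_units {n : ℕ} (hn0 : n ≠ 0) (hcop : Nat.Coprime n q) {ζ : Kb} (hζL : ζ ∈ L₀)
    (hζ : IsPrimitiveRoot ζ n) :
    n ∣ Nat.card (IsLocalRing.ResidueField ↥(s18q_A0 P L₀))ˣ := by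
  haveI := s59m_residue_finite q P hP L₀
  have hζP : ζ ∈ P := s29g_root_mem P hn0 hζ.pow_eq_one
  have hζ0 : ζ ≠ 0 := hζ.ne_zero hn0
  have hζiP : ζ⁻¹ ∈ P := by
    refine s29g_root_mem P hn0 ?_
    rw [inv_pow, hζ.pow_eq_one, inv_one]
  -- the unit of the residue field
  let z : ↥(s18q_A0 P L₀) := ⟨⟨ζ, hζL⟩, hζP⟩
  let z' : ↥(s18q_A0 P L₀) := ⟨⟨ζ, hζL⟩⁻¹, by
    show ((⟨ζ, hζL⟩⁻¹ : ↥L₀) : Kb) ∈ P
    simpa using hζiP⟩
  have hzz' : z * z' = 1 := by
    apply Subtype.ext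
    apply Subtype.ext
    show ζ * ((⟨ζ, hζL⟩⁻¹ : ↥L₀) : Kb) = 1
    simp [hζ0]
  let u : (IsLocalRing.ResidueField ↥(s18q_A0 P L₀))ˣ :=
    ⟨IsLocalRing.residue _ z, IsLocalRing.residue _ z', by rw [← map_mul, hzz', map_one],
      by rw [← map_mul, mul_comm, hzz', map_one]⟩
  have hord : orderOf u = n := by
    refine Nat.dvd_antisymm ?_ ?_
    · refine orderOf_dvd_of_pow_eq_one ?_
      apply Units.ext
      show IsLocalRing.residue _ z ^ n = 1
      rw [← map_pow]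
      have : z ^ n = 1 := by
        apply Subtype.ext
        apply Subtype.ext
        show ζ ^ n = 1
        exact hζ.pow_eq_one
      rw [this, map_one]
    · -- `ζ ^ (orderOf u) ≡ 1`, hence `= 1`
      have h1 : u ^ orderOf u = 1 := pow_orderOf_eq_one u
      have h2 : IsLocalRing.residue _ (z ^ orderOf u) = IsLocalRing.residue _ (1 : ↥(s18q_A0 P L₀)) := by
        rw [map_pow, map_one]
        exact congrArg Units.val h1
      rw [← sub_eq_zero, ← map_sub, IsLocalRing.residue_eq_zero_iff,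
        ← ValuationSubring.coe_mem_nonunits_iff] at h2
      have h3 : ζ ^ orderOf u - 1 ∈ P.nonunits := by
        have h4 : (((z ^ orderOf u - 1 : ↥(s18q_A0 P L₀)) : ↥L₀) : Kb) = ζ ^ orderOf u - 1 := by
          simp [z]
        rw [← h4]
        exact (Fermat.Agent.Lib.S36.s36v_mem_nonunits_comap (algebraMap ↥L₀ Kb) P _).mp h2
      have h5 : ζ ^ orderOf u = 1 := by
        refine s30c_root_sep P hn0 hcop hP ?_ (one_pow n) h3
        rw [← pow_mul, mul_comm, pow_mul, hζ.pow_eq_one, one_pow]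
      exact hζ.dvd_of_pow_eq_one _ h5
  rw [← hord]
  exact orderOf_dvd_natCard u

include hP in
/-- **`q` is a uniformiser of `P ∩ L₀`** when `L₀` is fixed pointwise by the inertia group of `P`. -/
theorem s59m_q_irreducible (hunr : ∀ τ ∈ P.inertiaSubgroupIn ℚ, ∀ a ∈ L₀, τ a = a) :
    Irreducible ((q : ℕ) : ↥(s18q_A0 P L₀)) := by
  haveI : IsDiscreteValuationRing ↥(s18q_A0 P L₀) := s18q_A0_dvr P L₀ hP
  obtain ⟨ϖ, hϖ⟩ := IsDiscreteValuationRing.exists_irreducible ↥(s18q_A0 P L₀)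
  obtain ⟨e, ε, he, hε, hεinv, hε0, hqe⟩ := s33t_exists_e P L₀ hq.out hP ϖ hϖ
  have he1 : e = 1 := s59n_e_eq_one_of_fix q hq.out P hP L₀ ϖ hϖ e ε he hε hqe hunr
  subst he1
  rw [pow_one] at hqe
  let u : (↥(s18q_A0 P L₀))ˣ :=
    ⟨⟨ε, hε⟩, ⟨ε⁻¹, hεinv⟩, Subtype.ext (mul_inv_cancel₀ hε0), Subtype.ext (inv_mul_cancel₀ hε0)⟩
  have h1 : ((q : ℕ) : ↥(s18q_A0 P L₀)) = (u : ↥(s18q_A0 P L₀)) * ϖ := by
    apply Subtype.ext
    show (((q : ℕ) : ↥(s18q_A0 P L₀)) : ↥L₀) = ε * (ϖ : ↥L₀)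
    rw [← hqe]
    simp
  rw [h1]
  exact (irreducible_units_mul u).mpr hϖ

end Residue

end Fermat.Agent.Lib.S59
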