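/-
Programme (R2) / node **[CAR]**, the ports to `q ∈ {2, 3}` (helper2, prefix `s59b_`): **ADMISSIBLE BASE FIELDS WITH THE
RATIONALITY WALL (Q4) ON THE CHARTS OF A HAUPTMODUL** — helper9's `MCarBaseQ.lean` with the two `j`-charts replaced by the two
charts of THE function `t` of level `M q` with a prescribed `q`-expansion `τ` (`τ = t₃` for `q = 2`, `τ = t₂` for `q = 3`).

* `s59b_Q4nZ M q hq hqM τ` : the rationality wall over the inertia fields, every exponent (`s59b_Q4n_Z_q2`, `s59b_Q4n_Z_q3`);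
* `s59b_BaseQ4W M q p K hqM P L₀ τ` : every inertia-fixed point of `J₀(M q)[p ^ K]` has a Kummer generator over `L₀` with
  exact (Q4) of exponent `p ^ K` on both charts of `t`, for every uniformiser;
* **`s59b_exists_base_q4W`** : from `s59b_Q4nZ`, a finite `L₀ / ℚ` with `s59m_Base M q p K P L₀` AND `s59b_BaseQ4W …`;
* `s59b_q4nZ_t3`, `s59b_q4nZ_t2` : the two instances.
-/
import Fermat.Agent.Lib.S59.MCarBase
import Fermat.Agent.Lib.S59.B4Q4N2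
import Fermat.Agent.Lib.S59.B4Q4N3
import Fermat.Agent.Lib.S59.NDefs
import Fermat.Agent.Lib.S44.EDiv

set_option autoImplicit false
set_option linter.style.haveILetI false
set_option linter.unusedSectionVars false
set_option linter.unusedVariables false
set_option synthInstance.maxHeartbeats 400000

noncomputable section

namespace Fermat.Agent.Lib.S59

open ModularCurve AlgebraicCurve Fermat.Agent.Lib.FF Fermat.Agent.Lib.S18 Fermat.Agent.Lib.S29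
  Fermat.Agent.Lib.S30 Fermat.Agent.Lib.S33 Fermat.Agent.Lib.S34 Fermat.Agent.Lib.S37
  Fermat.Agent.Lib.S44 Fermat.Agent.Lib.S15

local notation "Kb" => AlgebraicClosure ℚ
local notation "Γℚ" => (AlgebraicClosure ℚ ≃ₐ[ℚ] AlgebraicClosure ℚ)

/-- **the rationality wall over the inertia fields, every exponent**, for the two charts of the function of level `M q`
with `q`-expansion `τ`. -/
def s59b_Q4nZ (M q : ℕ) [NeZero M] [hq : Fact q.Prime] (hqM : ¬ q ∣ M)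
    (τ : ∀ (K : Type) [Field K], LaurentSeries K) : Prop :=
  ∀ (n : ℕ) (P : ValuationSubring Kb), P.LiesOverPrime q →
  ∀ (L : IntermediateField ℚ Kb) (f : s34m_F ↥L (M * q)), f ≠ 0 →
    (∀ Q : Place ↥L (s34m_F ↥L (M * q)), ((n : ℕ) : ℤ) ∣ Q.ord f) →
    ∃ L₂ : IntermediateField ℚ Kb, FiniteDimensional ℚ L₂ ∧
      ∀ (L₀ : IntermediateField ℚ Kb) [FiniteDimensional ℚ ↥L₀] [Normal ℚ ↥L₀]
        (hLL : L ≤ L₀), L₂ ≤ L₀ →
      ∀ [IsDiscreteValuationRing ↥(s18q_A0 P (s44s_Z P L L₀))]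
        (ϖ : ↥(s18q_A0 P (s44s_Z P L L₀))) (hϖ : Irreducible ϖ)
        (t : s34m_F ↥(s44s_Z P L L₀) (M * q)),
        (t : LaurentSeries ↥(s44s_Z P L L₀)) = τ ↥(s44s_Z P L L₀) →
        s59n_Q4 M q n hqM P (s44s_Z P L L₀) ϖ hϖ (s18_chart1 (L₀ := ↥(s44s_Z P L L₀)) t)
          (s44q_up (M * q) (s44s_le_Z hLL) f) ∧
        s59n_Q4 M q n hqM P (s44s_Z P L L₀) ϖ hϖ (s18_chart2 (L₀ := ↥(s44s_Z P L L₀)) t)
          (s44q_up (M * q) (s44s_le_Z hLL) f)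

theorem s59b_q4nZ_t3 (M q : ℕ) [NeZero M] [hq : Fact q.Prime] (hqM : ¬ q ∣ M) (hq2 : q = 2)
    (h3M : 3 ∣ M) : s59b_Q4nZ M q hqM (fun K _ => s18u_t3 K) := by
  haveI : NeZero q := ⟨hq.out.ne_zero⟩
  intro n P hP L f hf hdiv
  obtain ⟨L₂, hfd, hL₂⟩ := s59b_Q4n_Z_q2 M q hq.out hqM hq2 h3M n P hP L f hf hdiv
  refine ⟨L₂, hfd, ?_⟩
  intro L₀ _ _ hLL h2 _ ϖ hϖ t ht
  exact hL₂ L₀ hLL h2 ϖ hϖ t ht

theorem s59b_q4nZ_t2 (M q : ℕ) [NeZero M] [hq : Fact q.Prime] (hqM : ¬ q ∣ M) (hq3 : q = 3)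
    (h2M : 2 ∣ M) : s59b_Q4nZ M q hqM (fun K _ => s18u_t2 K) := by
  haveI : NeZero q := ⟨hq.out.ne_zero⟩
  intro n P hP L f hf hdiv
  obtain ⟨L₂, hfd, hL₂⟩ := s59b_Q4n_Z_q3 M q hq.out hqM hq3 h2M n P hP L f hf hdiv
  refine ⟨L₂, hfd, ?_⟩
  intro L₀ _ _ hLL h2 _ ϖ hϖ t ht
  exact hL₂ L₀ hLL h2 ϖ hϖ t ht

/-- **the rationality wall over the base field**: every inertia-fixed point of `J₀(M q)[p ^ K]` has a Kummer generator
over `L₀` with exact (Q4) of exponent `p ^ K` on both charts of `t`. -/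
structure s59b_BaseQ4W (M q p K : ℕ) [NeZero M] [hq : Fact q.Prime] (hqM : ¬ q ∣ M)
    (P : ValuationSubring Kb) (L₀ : IntermediateField ℚ Kb)
    (τ : ∀ (K : Type) [Field K], LaurentSeries K) : Prop where
  q4 : ∀ x : JZero (M * q), (p ^ K) • x = 0 → (∀ σ ∈ P.inertiaSubgroupIn ℚ, σ • x = x) →
    ∀ [IsDiscreteValuationRing ↥(s18q_A0 P L₀)] (ϖ : ↥(s18q_A0 P L₀)) (hϖ : Irreducible ϖ)
      (t : s34m_F ↥L₀ (M * q)), (t : LaurentSeries ↥L₀) = τ ↥L₀ →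
      ∃ h : s34m_F ↥L₀ (M * q), s59m_genC (M * q) (p ^ K) L₀ x h ∧
        s59n_Q4 M q (p ^ K) hqM P L₀ ϖ hϖ (s18_chart1 (L₀ := ↥L₀) t) h ∧
        s59n_Q4 M q (p ^ K) hqM P L₀ ϖ hϖ (s18_chart2 (L₀ := ↥L₀) t) h

section Main

variable (M q p K : ℕ) [NeZero M] [hq : Fact q.Prime] [hp : Fact p.Prime] (hqM : ¬ q ∣ M)
  (τ : ∀ (K : Type) [Field K], LaurentSeries K) (h5 : s59b_Q4nZ M q hqM τ)
  (hpq : p ≠ q) (P : ValuationSubring Kb) (hP : P.LiesOverPrime q)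

/-- the statement of `s59m_Q4n_Z` for a generator `f` over `L′`, as a property of the auxiliary field `L₂`. -/
def s59b_Q4FieldW (L' : IntermediateField ℚ Kb) (f : s34m_F ↥L' (M * q))
    (L₂ : IntermediateField ℚ Kb) : Prop :=
  ∀ (L₁ : IntermediateField ℚ Kb) [FiniteDimensional ℚ ↥L₁] [Normal ℚ ↥L₁] (hLL : L' ≤ L₁),
    L₂ ≤ L₁ →
    ∀ [IsDiscreteValuationRing ↥(s18q_A0 P (s44s_Z P L' L₁))]
      (ϖ : ↥(s18q_A0 P (s44s_Z P L' L₁))) (hϖ : Irreducible ϖ)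
      (t : s34m_F ↥(s44s_Z P L' L₁) (M * q)),
      (t : LaurentSeries ↥(s44s_Z P L' L₁)) = τ ↥(s44s_Z P L' L₁) →
      s59n_Q4 M q (p ^ K) hqM P (s44s_Z P L' L₁) ϖ hϖ
        (s18_chart1 (L₀ := ↥(s44s_Z P L' L₁)) t)
        (s44q_up (M * q) (s44s_le_Z hLL) f) ∧
      s59n_Q4 M q (p ^ K) hqM P (s44s_Z P L' L₁) ϖ hϖ
        (s18_chart2 (L₀ := ↥(s44s_Z P L' L₁)) t)
        (s44q_up (M * q) (s44s_le_Z hLL) f)

theorem s59b_Q4FieldW.mono {L' : IntermediateField ℚ Kb} {f : s34m_F ↥L' (M * q)}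
    {L₂ L₂' : IntermediateField ℚ Kb} (h : s59b_Q4FieldW M q p K hqM τ P L' f L₂) (hle : L₂ ≤ L₂') :
    s59b_Q4FieldW M q p K hqM τ P L' f L₂' :=
  fun L₁ _ _ hLL h2 => h L₁ hLL (hle.trans h2)

include h5 hP in
/-- `s59m_Q4n_Z` in the shape `s59b_Q4FieldW`. -/
theorem s59b_exists_Q4FieldW (L' : IntermediateField ℚ Kb) (f : s34m_F ↥L' (M * q)) (hf : f ≠ 0)
    (hdiv : ∀ Q : Place ↥L' (s34m_F ↥L' (M * q)), ((p ^ K : ℕ) : ℤ) ∣ Q.ord f) :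
    ∃ L₂ : IntermediateField ℚ Kb, FiniteDimensional ℚ ↥L₂ ∧
      s59b_Q4FieldW M q p K hqM τ P L' f L₂ := by
  haveI : NeZero q := ⟨hq.out.ne_zero⟩
  obtain ⟨L₂, hfd, hL₂⟩ := h5 (p ^ K) P hP L' f hf hdiv
  refine ⟨L₂, hfd, ?_⟩
  intro L₁ _ _ hLL h2 _ ϖ hϖ t ht
  exact hL₂ L₁ hLL h2 ϖ hϖ t ht

include h5 hP in
/-- finitely many points, rational over `L′`: ONE auxiliary field for (Q4). -/
theorem s59b_exists_Q4FieldW_finite (L' : IntermediateField ℚ Kb) (S : Set (JZero (M * q)))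
    (hS : S.Finite)
    (hSn : ∀ x ∈ S, (p ^ K) • x = 0)
    (hSr : ∀ x ∈ S, ∀ σ : Γℚ, (∀ a ∈ L', σ a = a) → σ • x = x) :
    ∃ L₂ : IntermediateField ℚ Kb, FiniteDimensional ℚ ↥L₂ ∧
      ∀ x ∈ S, ∃ f : s34m_F ↥L' (M * q), s59m_genC (M * q) (p ^ K) L' x f ∧
        s59b_Q4FieldW M q p K hqM τ P L' f L₂ := by
  haveI : NeZero (p ^ K) := ⟨(pow_pos hp.out.pos K).ne'⟩
  induction S, hS using Set.Finite.induction_on with
  | empty => exact ⟨⊥, inferInstance, fun x hx => absurd hx (Set.notMem_empty x)⟩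
  | @insert y S hy hSf ih =>
    obtain ⟨L₂, hfd, hL₂⟩ := ih (fun x hx => hSn x (Set.mem_insert_of_mem _ hx))
      (fun x hx => hSr x (Set.mem_insert_of_mem _ hx))
    obtain ⟨f, hf⟩ := s44e_qdiv (M * q) (p ^ K) L' y (hSn y (Set.mem_insert _ _))
      (hSr y (Set.mem_insert _ _))
    obtain ⟨hf0, hdiv⟩ := s59m_kum_of_gen_n (M * q) (p ^ K) L' hf
    obtain ⟨L₃, hfd₃, hL₃⟩ := s59b_exists_Q4FieldW M q p K hqM τ h5 P hP L' f hf0 hdiv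
    haveI := hfd
    haveI := hfd₃
    refine ⟨L₂ ⊔ L₃, IntermediateField.finiteDimensional_sup _ _, ?_⟩
    intro x hx
    rcases Set.mem_insert_iff.mp hx with rfl | hx
    · exact ⟨f, hf, hL₃.mono M q p K hqM τ P le_sup_right⟩
    · obtain ⟨g, hg, hgQ⟩ := hL₂ x hx
      exact ⟨g, hg, hgQ.mono M q p K hqM τ P le_sup_left⟩

include hpq h5 hP in
set_option maxHeartbeats 1600000 in
/-- **[FR-K0]⁺: admissible base fields with the rationality wall exist.** -/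
theorem s59b_exists_base_q4W :
    haveI : NeZero q := ⟨hq.out.ne_zero⟩
    ∃ L₀ : IntermediateField ℚ Kb, FiniteDimensional ℚ ↥L₀ ∧ s59m_Base M q p K P L₀ ∧
      s59b_BaseQ4W M q p K hqM P L₀ τ := by
  haveI : NeZero q := ⟨hq.out.ne_zero⟩
  -- the torsion points
  have hfin1 : {x : JZero (M * q) | (p ^ K) • x = 0}.Finite :=
    Set.finite_coe_iff.mp (m15f_tors_finite (M * q) p K)
  have hfin2 : {x : JZero (M * q * q) | p • x = 0}.Finite := by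
    have h : {x : JZero (M * q * q) | p • x = 0} = {x : JZero (M * q * q) | (p ^ 1) • x = 0} := by
      rw [pow_one]
    rw [h]
    exact Set.finite_coe_iff.mp (m15f_tors_finite (M * q * q) p 1)
  obtain ⟨K₁, hfd₁, h₁⟩ := s59m_exists_field_of_finite (M * q) _ hfin1
  obtain ⟨K₂, hfd₂, h₂⟩ := s59m_exists_field_of_finite (M * q * q) _ hfin2
  haveI := hfd₁
  haveI := hfd₂
  -- the roots of unity
  have hpK0 : p ^ K ≠ 0 := (pow_pos hp.out.pos K).ne'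
  have hq2 : 1 < q ^ 2 := Nat.one_lt_pow (by norm_num) hq.out.one_lt
  have hq20 : q ^ 2 - 1 ≠ 0 := by omega
  haveI : NeZero (p ^ K) := ⟨hpK0⟩
  haveI : NeZero (q ^ 2 - 1) := ⟨hq20⟩
  obtain ⟨ζ₁, hζ₁⟩ := HasEnoughRootsOfUnity.exists_primitiveRoot Kb (p ^ K)
  obtain ⟨ζ₂, hζ₂⟩ := HasEnoughRootsOfUnity.exists_primitiveRoot Kb (q ^ 2 - 1)
  haveI : FiniteDimensional ℚ ↥(IntermediateField.adjoin ℚ {ζ₁}) :=
    IntermediateField.adjoin.finiteDimensional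
      ((hζ₁.isIntegral (Nat.pos_of_ne_zero hpK0)).tower_top (A := ℚ))
  haveI : FiniteDimensional ℚ ↥(IntermediateField.adjoin ℚ {ζ₂}) :=
    IntermediateField.adjoin.finiteDimensional
      ((hζ₂.isIntegral (Nat.pos_of_ne_zero hq20)).tower_top (A := ℚ))
  haveI : FiniteDimensional ℚ ↥(K₁ ⊔ K₂) := IntermediateField.finiteDimensional_sup _ _
  haveI : FiniteDimensional ℚ ↥(K₁ ⊔ K₂ ⊔ IntermediateField.adjoin ℚ {ζ₁}) :=
    IntermediateField.finiteDimensional_sup _ _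
  haveI : FiniteDimensional ℚ
      ↥(K₁ ⊔ K₂ ⊔ IntermediateField.adjoin ℚ {ζ₁} ⊔ IntermediateField.adjoin ℚ {ζ₂}) :=
    IntermediateField.finiteDimensional_sup _ _
  obtain ⟨N₁, hle, hfdN, hnN⟩ := s33t_exists_normal_ge
    (K₁ ⊔ K₂ ⊔ IntermediateField.adjoin ℚ {ζ₁} ⊔ IntermediateField.adjoin ℚ {ζ₂})
  haveI := hfdN
  haveI := hnN
  have hK₁ : K₁ ≤ N₁ := ((le_sup_left.trans le_sup_left).trans le_sup_left).trans hle
  have hK₂ : K₂ ≤ N₁ := ((le_sup_right.trans le_sup_left).trans le_sup_left).trans hle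
  have hζ₁N : ζ₁ ∈ N₁ := hle (le_sup_left (b := IntermediateField.adjoin ℚ {ζ₂})
    (le_sup_right (a := K₁ ⊔ K₂) (IntermediateField.subset_adjoin ℚ {ζ₁} (Set.mem_singleton ζ₁))))
  have hζ₂N : ζ₂ ∈ N₁ := hle (le_sup_right
    (a := K₁ ⊔ K₂ ⊔ IntermediateField.adjoin ℚ {ζ₁})
    (IntermediateField.subset_adjoin ℚ {ζ₂} (Set.mem_singleton ζ₂)))
  -- the inertia field `L'` of `N₁`
  have hI : ∀ τ ∈ P.inertiaSubgroupIn ℚ, τ ∈ s44s_IΓ P ⊥ := fun τ hτ =>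
    s44s_mem_IΓ.mpr ⟨hτ, fun b hb => by
      obtain ⟨r, rfl⟩ := IntermediateField.mem_bot.mp hb
      exact τ.commutes r⟩
  set L' : IntermediateField ℚ Kb := s44s_Z P ⊥ N₁ with hL'
  haveI hfdL' : FiniteDimensional ℚ ↥L' := s44s_Z_finiteDimensional P ⊥ N₁
  have hL'N : L' ≤ N₁ := s44s_Z_le P ⊥ N₁
  have hunr' : ∀ τ ∈ P.inertiaSubgroupIn ℚ, ∀ a ∈ L', τ a = a := fun τ hτ a ha =>
    (s44s_mem_Z.mp ha).1 τ (hI τ hτ)
  have hrat : ∀ (N : ℕ) [NeZero N] (x : JZero N),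
      (∀ σ : Γℚ, (∀ a ∈ N₁, σ a = a) → σ • x = x) →
      (∀ τ ∈ P.inertiaSubgroupIn ℚ, τ • x = x) →
      ∀ σ : Γℚ, (∀ a ∈ L', σ a = a) → σ • x = x := by
    intro N _ x hxL hxI σ hσ
    have hγ : ∀ y : ↥N₁, (y : Kb) ∈ s44s_Z P ⊥ N₁ → (σ.restrictNormal ↥N₁) y = y := by
      intro y hy
      apply Subtype.ext
      exact (AlgEquiv.restrictNormal_commutes σ ↥N₁ y).trans (hσ _ hy)
    obtain ⟨τ, hτ, hτγ⟩ := s44s_exists_lift_Z P ⊥ N₁ (σ.restrictNormal ↥N₁) hγ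
    have hτI : τ ∈ P.inertiaSubgroupIn ℚ := (s44s_mem_IΓ.mp hτ).1
    have hρ : (τ⁻¹ * σ) • x = x := by
      apply hxL
      intro y hy
      have h1 : τ y = σ y := by
        have := hτγ ⟨y, hy⟩
        rw [this]
        exact AlgEquiv.restrictNormal_commutes σ ↥N₁ ⟨y, hy⟩
      show τ⁻¹ (σ y) = y
      rw [← h1]
      exact τ.symm_apply_apply y
    have h2 : σ • x = τ • ((τ⁻¹ * σ) • x) := by
      rw [← mul_smul, mul_inv_cancel_left]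
    rw [h2, hρ]
    exact hxI τ hτI
  have hcop1 : Nat.Coprime (p ^ K) q :=
    Nat.Coprime.pow_left K ((Nat.coprime_primes hp.out hq.out).mpr hpq)
  have hcop2 : Nat.Coprime (q ^ 2 - 1) q := by
    have h1 : q ^ 2 - 1 + 1 = q * q := by
      have : q ^ 2 = q * q := sq q
      omega
    have h2 : Nat.Coprime (q ^ 2 - 1) (q ^ 2 - 1 + 1) := by simp
    rw [h1] at h2
    exact Nat.Coprime.coprime_mul_left_right h2
  have hζ₁L' : ζ₁ ∈ L' := s44s_mem_Z.mpr ⟨fun σ hσ =>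
    s59m_inertia_fix_root hpK0 hcop1 P hP hζ₁.pow_eq_one (s44s_mem_IΓ.mp hσ).1, hζ₁N⟩
  have hζ₂L' : ζ₂ ∈ L' := s44s_mem_Z.mpr ⟨fun σ hσ =>
    s59m_inertia_fix_root hq20 hcop2 P hP hζ₂.pow_eq_one (s44s_mem_IΓ.mp hσ).1, hζ₂N⟩
  -- the inertia-fixed points and their generators
  have hfinS : {x : JZero (M * q) | (p ^ K) • x = 0 ∧
      ∀ τ ∈ P.inertiaSubgroupIn ℚ, τ • x = x}.Finite := hfin1.subset fun x hx => hx.1
  obtain ⟨L₂, hfd₂', hL₂⟩ := s59b_exists_Q4FieldW_finite M q p K hqM τ h5 P hP L' _ hfinS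
    (fun x hx => hx.1)
    (fun x hx => hrat (M * q) x (fun σ hσ => h₁ x hx.1 σ fun a ha => hσ a (hK₁ ha)) hx.2)
  haveI := hfd₂'
  haveI : FiniteDimensional ℚ ↥(N₁ ⊔ L₂) := IntermediateField.finiteDimensional_sup _ _
  obtain ⟨L₁, hle₁, hfdL₁, hnL₁⟩ := s33t_exists_normal_ge (N₁ ⊔ L₂)
  haveI := hfdL₁
  haveI := hnL₁
  have hN₁L₁ : N₁ ≤ L₁ := le_sup_left.trans hle₁
  have hL₂L₁ : L₂ ≤ L₁ := le_sup_right.trans hle₁
  have hL'L₁ : L' ≤ L₁ := hL'N.trans hN₁L₁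
  have hL'Z : L' ≤ s44s_Z P L' L₁ := s44s_le_Z hL'L₁
  refine ⟨s44s_Z P L' L₁, s44s_Z_finiteDimensional P L' L₁, ⟨?_, ?_, ?_, ?_, ?_⟩, ⟨?_⟩⟩
  · intro τ hτ a ha
    exact (s44s_mem_Z.mp ha).1 τ (s44s_mem_IΓ.mpr ⟨hτ, hunr' τ hτ⟩)
  · intro x hx hxI σ hσ
    exact hrat (M * q) x (fun σ hσ => h₁ x hx σ fun a ha => hσ a (hK₁ ha)) hxI σ
      fun a ha => hσ a (hL'Z ha)
  · intro x hx hxI σ hσ
    exact hrat (M * q * q) x (fun σ hσ => h₂ x hx σ fun a ha => hσ a (hK₂ ha)) hxI σ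
      fun a ha => hσ a (hL'Z ha)
  · exact ⟨ζ₁, hL'Z hζ₁L', hζ₁⟩
  · exact ⟨ζ₂, hL'Z hζ₂L', hζ₂⟩
  · intro x hx hxI _ ϖ hϖ t ht
    obtain ⟨f, hf, hfQ⟩ := hL₂ x ⟨hx, hxI⟩
    obtain ⟨h1, h2⟩ := hfQ L₁ hL'L₁ hL₂L₁ ϖ hϖ t ht
    refine ⟨s44q_up (M * q) (s44s_le_Z hL'L₁) f, ?_, h1, h2⟩
    show s33d_IsKumGen (p ^ K) x (s18q_incl (M * q) _ (s44q_up (M * q) (s44s_le_Z hL'L₁) f))
    rw [s44q_incl_up]
    exact hf

end Main

end Fermat.Agent.Lib.S59
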