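/-
Programme (R2) / node **[CAR]**, the ports to `q ∈ {2, 3}` (helper2, prefix `s59b_`), part 1: **THE CHART PACKAGE.**

helper9's concrete frame of level `M q` (`MCarFrame.lean`) is built on helper8's Σ-datum `s33s_datum_five` (chart
`{j regular}`, `q ≥ 5`).  `s33s_datum_five` is the instance `w = j` of the coordinate-generic `s33s_datumW` (`SSFive.lean`).
Here the inputs of `s33s_datumW` are bundled in a structure `s59b_Chart` (a coordinate `w` of level `M`, its image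
`wN = α w` of level `M q`, and the seven facts), so that the whole [CAR] frame can be re-run for the charts of
`t₃` (`q = 2`, `3 ∣ M`) and `t₂` (`q = 3`, `2 ∣ M`):

* `s59b_Chart G φ M q hqM hT hdegM` : the inputs;  `C.Z hπ e ε … hperf` : the Σ-datum (`s33s_datumW`);
  `C.Z_Ci`, `C.Z_Cz`, `C.Z_N` (`rfl`);
* `s59b_chartFive` : the chart `w = j` for `q ≥ 5` (`C.Z = s33s_datum_five …` by `rfl`).
-/
import Fermat.Agent.Lib.S33.SSFive

set_option autoImplicit false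
set_option linter.unusedSectionVars false
set_option linter.style.haveILetI false

noncomputable section

namespace Fermat.Agent.Lib.S59

open ModularCurve AlgebraicCurve HahnSeries Polynomial Fermat.Agent.Lib.FF Fermat.Agent.Lib.S18
  Fermat.Agent.Lib.S34 Fermat.Agent.Lib.S37 Fermat.Agent.Lib.S33

local notation "Kb" => AlgebraicClosure ℚ

section Def

variable {K₀ : Type} [Field K₀] [CharZero K₀] [Algebra ℚ K₀] {κ : Type} [Field κ]
  (G : s18g_GaussData K₀ κ) (φ : K₀ →+* Kb) (M p : ℕ) [NeZero M] [hp : Fact p.Prime]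
  (hpM : ¬ p ∣ M) [CharP κ p] [PerfectField κ]

local notation "𝓕M" => laurentBaseChange K₀ (modularFunctionFieldFull M)
local notation "𝓕N" => laurentBaseChange K₀ (modularFunctionFieldFull (M * p))
local notation "hFM" => (fun (f : LaurentSeries K₀)
  (hf : f ∈ laurentBaseChange K₀ (modularFunctionFieldFull M)) => s18g_baseChange_mem_Frac G M hf)

variable (hdeg : s34m_HDeg K₀ M p) (hT : s18g_HT κ M) (hdegM : s18g_HDeg K₀ M)

/-- **A chart of `X₀(M p)`**: the inputs of helper8's `s33s_datumW` (a coordinate `w` of level `M`, `wN = α w`). -/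
structure s59b_Chart where
  /-- the coordinate of level `M` -/
  w : ↥𝓕M
  hwV : w ∈ s18g_V G 𝓕M hFM
  hcoord : s37b_Coord κ p
    ((s18g_redF G M hFM hT hdegM ⟨w, hwV⟩ : ↥(modularFunctionFieldFullC κ M)) : LaurentSeries κ)
  hwtw : ∀ τ : κ ≃+* κ, ModularCurve.coeffMap (τ : κ →+* κ)
    ((s18g_redF G M hFM hT hdegM ⟨w, hwV⟩ : ↥(modularFunctionFieldFullC κ M)) : LaurentSeries κ) =
    ((s18g_redF G M hFM hT hdegM ⟨w, hwV⟩ : ↥(modularFunctionFieldFullC κ M)) : LaurentSeries κ)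
  hmain : letI := s18f_algF G M hT hdegM w hwV
    ∀ z : ↥(modularFunctionFieldFullC κ M), IsIntegral κ[X] z →
      ∃ (b : ↥𝓕M) (hb : b ∈ s18_ring (L₀ := K₀) (s18g_V G 𝓕M hFM) (s18_chart1 w)),
        s18g_redF G M hFM hT hdegM ⟨b, hb.1⟩ = z
  /-- the coordinate of level `M p` -/
  wN : ↥𝓕N
  hwN : heckeAlphaBar K₀ M p w = wN
  gen : FFGen K₀ wN
  hαN : ∀ y ∈ s34x_infRing (s34m_VV G φ M p hp.out hpM), ∃ s : G.A[X], s.map G.π ≠ 0 ∧
    (s18b_ev G 𝓕N wN).IsIntegralElem (s18b_ev G 𝓕N wN s * y)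
  hαB : ∀ g ∈ (s18_ring (L₀ := K₀) (s34m_Vinf G M) (s18_chart1 w) : Set (s34m_F K₀ M)),
    heckeAlphaBar K₀ M p g ∈ s34x_ring (s34x_infRing (s34m_VV G φ M p hp.out hpM))
      (s18_chart1 (L₀ := K₀) wN)
  hβB : ∀ g ∈ (s18_ring (L₀ := K₀) (s34m_Vinf G M) (s18_chart1 w) : Set (s34m_F K₀ M)),
    ∃ b' ∈ s34x_ring (s34x_infRing (s34m_VV G φ M p hp.out hpM)) (s18_chart1 (L₀ := K₀) wN),
    ∃ z, z ∈ s34m_Vinf G (M * p) ∧ z ∈ s34m_Vzero G φ M p hp.out hpM ∧
      b' - heckeBetaBar K₀ M p g = s34m_unif G (M * p) * z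
  hnode : ∃ 𝔫, s33s_IsNode (s34m_VV G φ M p hp.out hpM) (s34m_unif G (M * p))
    (s18_chart1 (L₀ := K₀) wN) 𝔫

variable {G φ M p hpM hT hdegM}

variable (hπ : Function.Surjective G.π)
  (e : ℕ) (ε : K₀) (he : 0 < e) (hε : ε ∈ G.A) (hεinv : ε⁻¹ ∈ G.A) (hε0 : ε ≠ 0)
  (hpe : (p : K₀) = ε * ((G.ϖ : G.A) : K₀) ^ e) (hperf : ∀ c : κ, ∃ d : κ, d ^ p = c)

/-- **the Σ-datum of the chart `C`** (`s33s_datumW`). -/
def s59b_Chart.Z [IsDiscreteValuationRing G.A] (C : s59b_Chart G φ M p hpM hT hdegM) :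
    s33z_Datum (s33i_datum G M hT hdegM hπ p e ε hp.out he hε hεinv hε0 hpe hperf)
      (s34m_F K₀ (M * p))
      (s33s_Node (s34m_VV G φ M p hp.out hpM) (s34m_unif G (M * p)) (s18_chart1 (L₀ := K₀) C.wN))
      (s33s_kG G φ M p hpM (s18_chart1 (L₀ := K₀) C.wN) hπ) :=
  haveI := C.gen
  s33s_datumW G φ M p hpM hdeg hT hdegM hπ e ε he hε hεinv hε0 hpe hperf C.w C.hwV C.hcoord C.hwtw
    C.hmain C.wN C.hwN C.hαN C.hαB C.hβB C.hnode

theorem s59b_Chart.Z_Ci [IsDiscreteValuationRing G.A] (C : s59b_Chart G φ M p hpM hT hdegM) :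
    (C.Z hdeg hπ e ε he hε hεinv hε0 hpe hperf).Ci =
      s33y_Ci G φ M p hpM hdeg hT hdegM hπ e ε he hε hεinv hε0 hpe hperf := rfl

theorem s59b_Chart.Z_Cz [IsDiscreteValuationRing G.A] (C : s59b_Chart G φ M p hpM hT hdegM) :
    (C.Z hdeg hπ e ε he hε hεinv hε0 hpe hperf).Cz =
      s33y_Cz G φ M p hpM hdeg hT hdegM hπ e ε he hε hεinv hε0 hpe hperf := rfl

theorem s59b_Chart.Z_N [IsDiscreteValuationRing G.A] (C : s59b_Chart G φ M p hpM hT hdegM) :
    (C.Z hdeg hπ e ε he hε hεinv hε0 hpe hperf).N =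
      s33s_nodePlaces (s34m_VV G φ M p hp.out hpM) (s34m_unif G (M * p))
        (s18_chart1 (L₀ := K₀) C.wN) := rfl

end Def

section Five

variable (M p : ℕ) [NeZero M] [hp : Fact p.Prime] (hpM : ¬ p ∣ M) (h5 : 5 ≤ p)
  (K₀ : Type) [Field K₀] [NumberField K₀] (φ : K₀ →+* Kb)
  (κ : Type) [Field κ] [CharP κ p] [PerfectField κ]
  (G : s18g_GaussData K₀ κ) [IsDiscreteValuationRing G.A]
  (hdeg : s34m_HDeg K₀ M p) (hT : s18g_HT κ M) (hdegM : s18g_HDeg K₀ M)
  (hπ : Function.Surjective G.π)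
  (e : ℕ) (ε : K₀) (he : 0 < e) (hε : ε ∈ G.A) (hεinv : ε⁻¹ ∈ G.A) (hε0 : ε ≠ 0)
  (hpe : (p : K₀) = ε * ((G.ϖ : G.A) : K₀) ^ e) (hperf : ∀ c : κ, ∃ d : κ, d ^ p = c)

/-- **the chart `{j regular}`, `p ≥ 5`.** -/
def s59b_chartFive : s59b_Chart G φ M p hpM hT hdegM where
  w := s18g_jF (K := K₀) M
  hwV := s18g_jF_mem_V G M (fun _ hf => s18g_baseChange_mem_Frac G M hf)
  hcoord := by
    have hred1 : ((s18g_redF G M (fun _ hf => s18g_baseChange_mem_Frac G M hf) hT hdegM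
        ⟨s18g_jF (K := K₀) M,
          s18g_jF_mem_V G M (fun _ hf => s18g_baseChange_mem_Frac G M hf)⟩ :
        ↥(modularFunctionFieldFullC κ M)) : LaurentSeries κ) = jqModC κ := by
      rw [s18g_coe_redF]
      exact s18g_red_jq G
    rw [hred1]
    exact s37b_coord_jq κ p
  hwtw := by
    have hred1 : ((s18g_redF G M (fun _ hf => s18g_baseChange_mem_Frac G M hf) hT hdegM
        ⟨s18g_jF (K := K₀) M,
          s18g_jF_mem_V G M (fun _ hf => s18g_baseChange_mem_Frac G M hf)⟩ :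
        ↥(modularFunctionFieldFullC κ M)) : LaurentSeries κ) = jqModC κ := by
      rw [s18g_coe_redF]
      exact s18g_red_jq G
    intro τ
    rw [hred1]
    exact coeffMap_jqModC _
  hmain := (s34df_hmain_five M p h5 K₀ φ κ G hπ hT hdegM).1
  wN := s18g_jF (K := K₀) (M * p)
  hwN := s34m_alpha_jF M p
  gen := s18b_ffGen_jF (M * p) (fun n b hb hn => s18g_exists_relation (M * p) φ hn b hb)
  hαN := s34f_alpha_j G φ M p hp.out hpM
  hαB := by
    haveI : FFGen K₀ (s18g_jF (K := K₀) (M * p)) :=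
      s18b_ffGen_jF (M * p) (fun n b hb hn => s18g_exists_relation (M * p) φ hn b hb)
    exact fun g hg => s34d_alpha_liftJ₁ G φ M p hp.out hpM g hg
  hβB := by
    haveI : FFGen K₀ (s18g_jF (K := K₀) (M * p)) :=
      s18b_ffGen_jF (M * p) (fun n b hb hn => s18g_exists_relation (M * p) φ hn b hb)
    exact fun g hg => s34d_beta_liftJ₁ G φ M p hp.out hpM g hg
  hnode := s33s_inst_exists_node G φ M p hp.out hpM

/-- the Σ-datum of the chart `{j regular}` is `s33s_datum_five`. -/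
theorem s59b_chartFive_Z :
    (s59b_chartFive M p hpM h5 K₀ φ κ G hT hdegM hπ).Z hdeg hπ e ε he hε hεinv hε0 hpe hperf =
      s33s_datum_five M p hpM h5 K₀ φ κ G hdeg hT hdegM hπ e ε he hε hεinv hε0 hpe hperf := rfl

end Five

end Fermat.Agent.Lib.S59
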