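/-
Programme (R2) / node **[CAR]**, the ports to `q ∈ {2, 3}` (helper2, prefix `s59b_`), part 2: **THE CHARTS OF `t₃` AND `t₂`.**

* `s59b_exists_chart_t3` : `p = 2`, `3 ∣ M` : a chart `C : s59b_Chart …` whose coordinates `C.w`, `C.wN` have `q`-expansion `t₃`;
* `s59b_exists_chart_t2` : `p = 3`, `2 ∣ M` : the same with `t₂`
(the bodies of `s33k_sd_exists_datum_two` (`NZDatum.lean`) and `s33k_sd_exists_datum_three` (`KumPSsDatumT.lean`)).
-/
import Fermat.Agent.Lib.S59.B4Chart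
import Fermat.Agent.Lib.S59.NZDatum
import Fermat.Agent.Lib.S33.KumPSsDatumT

set_option autoImplicit false
set_option linter.unusedSectionVars false
set_option linter.style.haveILetI false

noncomputable section

namespace Fermat.Agent.Lib.S59

open ModularCurve AlgebraicCurve HahnSeries Polynomial Fermat.Agent.Lib.FF Fermat.Agent.Lib.S18
  Fermat.Agent.Lib.S34 Fermat.Agent.Lib.S37 Fermat.Agent.Lib.S33

local notation "Kb" => AlgebraicClosure ℚ

variable (M p : ℕ) [NeZero M] [hp : Fact p.Prime] (hpM : ¬ p ∣ M)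
  (K₀ : Type) [Field K₀] [NumberField K₀] (φ : K₀ →+* Kb)
  (κ : Type) [Field κ] [CharP κ p] [PerfectField κ]
  (G : s18g_GaussData K₀ κ) [IsDiscreteValuationRing G.A]
  (hT : s18g_HT κ M) (hdegM : s18g_HDeg K₀ M)
  (hπ : Function.Surjective G.π)

include hπ in
/-- **the chart of `t₃`** (`p = 2`, `3 ∣ M`). -/
theorem s59b_exists_chart_t3 (hp2 : p = 2) (h3M : 3 ∣ M) :
    ∃ C : s59b_Chart G φ M p hpM hT hdegM,
      ((C.w : s34m_F K₀ M) : LaurentSeries K₀) = s18u_t3 K₀ ∧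
      ((C.wN : s34m_F K₀ (M * p)) : LaurentSeries K₀) = s18u_t3 K₀ := by
  haveI : NeZero p := ⟨hp.out.ne_zero⟩
  have hp3 : p ≠ 3 := by omega
  obtain ⟨tM, htM, ⟨hwV, hred⟩, hwinvV, hgen, hgeninv, hwt, -, hgenN, -, -, -, hα, -⟩ :=
    s34m_base_t3 G φ M p hp.out hpM h3M hp3
  haveI := hgen
  haveI := hgenN
  haveI : FFGen K₀ (s18g_jF (K := K₀) (M * p)) :=
    s18b_ffGen_jF (M * p) (fun _ b hb hn => s18g_exists_relation (M * p) φ hn b hb)
  have htM0 : tM ≠ 0 := by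
    intro h0
    apply s18b_t3_ne_zero K₀
    rw [← htM, h0]; rfl
  have hFM : ∀ f ∈ laurentBaseChange K₀ (modularFunctionFieldFull M), f ∈ s18g_Frac G :=
    fun _ hf => s18g_baseChange_mem_Frac G M hf
  have hred' : ((s18g_redF G M hFM hT hdegM ⟨tM, hwV⟩ : ↥(modularFunctionFieldFullC κ M)) :
      LaurentSeries κ) = s18u_t3 κ := hred
  have hclaim : ∀ P : Place K₀ (s34m_F K₀ (M * p)),
      (0 ≤ P.ord (heckeAlphaBar K₀ M p tM) → 0 ≤ P.ord (heckeBetaBar K₀ M p tM)) ∧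
      (P.ord (heckeAlphaBar K₀ M p tM) ≤ 0 → P.ord (heckeBetaBar K₀ M p tM) ≤ 0) := by
    intro P
    exact s34e_cusp_hclaim_t3 G φ M p hp.out hpM hp3 tM htM P
  exact ⟨{ w := tM
           hwV := hwV
           hcoord := by rw [hred']; exact s37b_coord_t3 κ p
           hwtw := by intro τ; rw [hred']; exact s18u_coeffMap_t3 _
           hmain := s34dt_hmain_t3 M p hpM K₀ φ κ G hπ hT hdegM hp2 h3M tM htM
           wN := heckeAlphaBar K₀ M p tM
           hwN := rfl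
           gen := hgenN
           hαN := hα
           hαB := s34e_ch_alpha₁' G φ M p hp.out hpM tM _ rfl
           hβB := s34e_ch_beta₁' G φ M p hp.out hpM htM0 _ rfl hclaim
           hnode := s33k_sd_exists_node_t3 G φ M p hp.out hpM h3M hp3 _ hwt }, htM, hwt⟩

include hπ in
/-- **the chart of `t₂`** (`p = 3`, `2 ∣ M`). -/
theorem s59b_exists_chart_t2 (hp3 : p = 3) (h2M : 2 ∣ M) :
    ∃ C : s59b_Chart G φ M p hpM hT hdegM,
      ((C.w : s34m_F K₀ M) : LaurentSeries K₀) = s18u_t2 K₀ ∧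
      ((C.wN : s34m_F K₀ (M * p)) : LaurentSeries K₀) = s18u_t2 K₀ := by
  haveI : NeZero p := ⟨hp.out.ne_zero⟩
  have hp2 : p ≠ 2 := by omega
  obtain ⟨tM, htM, ⟨hwV, hred⟩, hwinvV, hgen, hgeninv, hwt, -, hgenN, -, -, -, hα, -⟩ :=
    s34m_base_t2 G φ M p hp.out hpM h2M hp2
  haveI := hgen
  haveI := hgenN
  haveI : FFGen K₀ (s18g_jF (K := K₀) (M * p)) :=
    s18b_ffGen_jF (M * p) (fun _ b hb hn => s18g_exists_relation (M * p) φ hn b hb)
  have htM0 : tM ≠ 0 := by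
    intro h0
    apply s18b_t2_ne_zero K₀
    rw [← htM, h0]; rfl
  have hFM : ∀ f ∈ laurentBaseChange K₀ (modularFunctionFieldFull M), f ∈ s18g_Frac G :=
    fun _ hf => s18g_baseChange_mem_Frac G M hf
  have hred' : ((s18g_redF G M hFM hT hdegM ⟨tM, hwV⟩ : ↥(modularFunctionFieldFullC κ M)) :
      LaurentSeries κ) = s18u_t2 κ := hred
  have hclaim : ∀ P : Place K₀ (s34m_F K₀ (M * p)),
      (0 ≤ P.ord (heckeAlphaBar K₀ M p tM) → 0 ≤ P.ord (heckeBetaBar K₀ M p tM)) ∧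
      (P.ord (heckeAlphaBar K₀ M p tM) ≤ 0 → P.ord (heckeBetaBar K₀ M p tM) ≤ 0) := by
    intro P
    exact s34e_cusp_hclaim_t2 G φ M p hp.out hpM hp2 tM htM P
  exact ⟨{ w := tM
           hwV := hwV
           hcoord := by rw [hred']; exact s37b_coord_t2 κ p
           hwtw := by intro τ; rw [hred']; exact s18u_coeffMap_t2 _
           hmain := s34dt_hmain_t2 M p hpM K₀ φ κ G hπ hT hdegM hp3 h2M tM htM
           wN := heckeAlphaBar K₀ M p tM
           hwN := rfl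
           gen := hgenN
           hαN := hα
           hαB := s34e_ch_alpha₁' G φ M p hp.out hpM tM _ rfl
           hβB := s34e_ch_beta₁' G φ M p hp.out hpM htM0 _ rfl hclaim
           hnode := s33k_sd_exists_node_t2 G φ M p hp.out hpM h2M hp2 _ hwt }, htM, hwt⟩

end Fermat.Agent.Lib.S59
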