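/-
Programme (R) / node [MP], leaf [C] = TORIC-FROB, family N (helper7, prefix `s59n_`):
**[Σ-INJ] FOR AN ARBITRARY BASE FUNCTION `w`** (all three S18-good branches: `w = j` (`q ≥ 5`), `w = α t₂`
(`q = 3`, `2 ∣ M`), `w = α t₃` (`q = 2`, `3 ∣ M`)).

`s59n_inj_field_W` / `s59n_inj_kum_W` : the statements of `NInj.lean` with the chart `{j regular}` replaced by chart 1 of a
base function `w` with `s35g_BaseData` (helper4's `Lib/S35/Geo.lean`) such that the node places of chart 2 of `w` lie on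
chart 1 (`s33n_nodePlaces_chart2_subset`, `…_t2`).
-/
import Fermat.Agent.Lib.S59.NInj

set_option autoImplicit false
set_option linter.style.haveILetI false
set_option linter.unusedSectionVars false
set_option synthInstance.maxHeartbeats 400000

noncomputable section

namespace Fermat.Agent.Lib.S59

open ModularCurve HahnSeries AlgebraicCurve Polynomial Fermat.Agent.Lib.S18 Fermat.Agent.Lib.FF
  Fermat.Agent.Lib.S34 Fermat.Agent.Lib.S35 Fermat.Agent.Lib.S33 Fermat.Agent.Lib.S37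

local notation "Kb" => AlgebraicClosure ℚ

section Field

variable (M q : ℕ) [NeZero M] [NeZero q] (hq : q.Prime) (hqM : ¬ q ∣ M)
  (K₀ : Type) [Field K₀] [NumberField K₀] (φ : K₀ →+* Kb)
  (κ : Type) [Field κ] [CharP κ q] [PerfectField κ]
  (G : s18g_GaussData K₀ κ) [IsDiscreteValuationRing G.A] (hπ : Function.Surjective G.π)

local notation "VV" => s34m_VV G φ M q hq hqM
local notation "ϖF" => s34m_unif G (M * q)

include hπ in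
set_option maxHeartbeats 1600000 in
/-- **[Σ-INJ], field level, base function `w`.** -/
theorem s59n_inj_field_W (w : s34m_F K₀ (M * q)) (hB : s35g_BaseData G φ M q hq hqM w)
    (hsub : s33s_nodePlaces VV ϖF (s18_chart2 (L₀ := K₀) w) ⊆
      s33s_nodePlaces VV ϖF (s18_chart1 (L₀ := K₀) w))
    (hϖ : Irreducible G.ϖ)
    (m : ℕ) (hm0 : m ≠ 0) (hmA : ((m : K₀))⁻¹ ∈ G.A)
    (F : s34m_F K₀ (M * q)) (hF0 : F ≠ 0)
    (hdiv : ∀ Q : Place K₀ (s34m_F K₀ (M * q)), (m : ℤ) ∣ Q.ord F)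
    (hF1 : ∀ i, ∃ y ∈ VV i, F - 1 = algebraMap K₀ (s34m_F K₀ (M * q)) ((G.ϖ : G.A) : K₀) * y)
    (hN : ∀ Q ∈ s33s_nodePlaces VV ϖF (s18_chart1 (L₀ := K₀) w), Q.ord F = 0) :
    ∃ x' : s34m_F K₀ (M * q), x' ≠ 0 ∧ (∀ i, x' ∈ VV i) ∧
      ∀ Q : Place K₀ (s34m_F K₀ (M * q)), Q.ord F ≤ (m : ℤ) * Q.ord x' := by
  classical
  haveI : Fact q.Prime := ⟨hq⟩
  have hD1 := s35g_dict₁ G φ M q hq hqM _ hB
  have hD2 := s35g_dict₂ G φ M q hq hqM _ hB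
  obtain ⟨hw0, hgen, hwO, hwO', -, hα, -, hC1, hC2⟩ := hB
  haveI := hgen
  have hmL : (m : K₀) ≠ 0 := Nat.cast_ne_zero.mpr hm0
  have e1 : F / 1 ^ m = F := by rw [one_pow, div_one]
  -- the local data on a chart
  have hloc : ∀ (S : Set (Place K₀ (s34m_F K₀ (M * q)))), s35g_ChartData G φ M q hq hqM S →
      (∀ Q ∈ s33s_nodePlaces VV ϖF S, Q.ord F = 0) →
      ∀ (𝔫 : Ideal (s34x_ring (s34x_infRing VV) S)) [𝔫.IsMaximal],
        s34x_const (s34x_infRing VV) S ((G.ϖ : G.A) : K₀)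
          (s34x_inf_const_mem VV G.A (s34c_const_mem_VV G φ M q hq hqM) G.ϖ) ∈ 𝔫 →
        s35f_SmoothAt G.A VV (s34c_const_mem_VV G φ M q hq hqM) G.ϖ S 𝔫 ∨
          s35f_NodeGen VV S (algebraMap K₀ (s34m_F K₀ (M * q)) ((G.ϖ : G.A) : K₀)) 𝔫
            (s18_E (F / 1 ^ m) m) := by
    intro S hC hNS 𝔫 h𝔫 hϖ𝔫
    haveI : 𝔫.IsPrime := h𝔫.isPrime
    have hϖ𝔫' : s35gd_unifB G φ M q hq hqM S ∈ 𝔫 := hϖ𝔫
    rcases s35gd_smoothAt_or_crossing_of_chartData G φ M q hq hqM S hC 𝔫 hϖ𝔫' with hs | hc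
    · exact Or.inl hs
    · right
      rw [e1]
      have hnode := s59n_isNode_of_crossAt M q hq hqM K₀ φ κ G S 𝔫 hc
      exact s59n_nodeGen_one M q hq hqM K₀ φ κ G S 𝔫 F m
        (fun Q hQ hth => hNS Q ⟨hQ, 𝔫, hnode, hth⟩)
  have hN2 : ∀ Q ∈ s33s_nodePlaces VV ϖF (s18_chart2 (L₀ := K₀) w), Q.ord F = 0 :=
    fun Q hQ => hN Q (hsub hQ)
  obtain ⟨x', hx'0, hx'O, hx'⟩ := s35f_zero (ι := Bool) G.A VV
    (s34c_const_mem_VV G φ M q hq hqM) G.ϖ hϖ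
    (fun i => s34f_unif_not_unit_VV G φ M q hq hqM i)
    (fun i y => s34c_hU_VV G φ M q hq hqM i y)
    (s35v_hmax_VV G φ M q hq hqM) w hD1 hD2 F 1 hF0 one_ne_zero m hm0 hmA hmL
    hdiv (by rw [e1]; exact hF1)
    (fun 𝔫 _ hϖ𝔫 => hloc _ hC1 hN 𝔫 hϖ𝔫)
    (fun 𝔫 _ hϖ𝔫 => hloc _ hC2 hN2 𝔫 hϖ𝔫)
    (by
      rw [e1]
      exact s34f_hH_w G φ M q hq hqM _ hw0 hwO hwO' hα hF0 m)
  refine ⟨x', hx'0, hx'O, fun Q => ?_⟩
  have := hx' Q
  rwa [one_mul] at this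

end Field

/-! ### The Kummer form -/

section Kummer

variable (M q : ℕ) [NeZero M] [hq : Fact q.Prime] (hqM : ¬ q ∣ M)
  (p : ℕ) [hp : Fact p.Prime] (hpq : p ≠ q)
  (P : ValuationSubring Kb) (hP : P.LiesOverPrime q)
  (L₀ : IntermediateField ℚ Kb) [FiniteDimensional ℚ ↥L₀] [IsDiscreteValuationRing ↥(s18q_A0 P L₀)]
  (ϖ : ↥(s18q_A0 P L₀)) (hϖ : Irreducible ϖ)

include hpq hP in
set_option maxHeartbeats 1600000 in
/-- **[Σ-INJ], Kummer form, base function `w`**: a class of exponent `p ≠ q` of `J₀(M q)` with a Kummer generator over `L₀`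
which is `≡ 1 mod ϖ` on both components and node-avoiding (chart 1 of `w`) is ZERO. -/
theorem s59n_inj_kum_W (w : s34m_F ↥L₀ (M * q))
    (hB : haveI : NeZero q := ⟨hq.out.ne_zero⟩
      s35g_BaseData (s37r_G P L₀ ϖ hϖ) (algebraMap ↥L₀ Kb) M q hq.out hqM w)
    (hsub : s33s_nodePlaces (s34m_VV (s37r_G P L₀ ϖ hϖ) (algebraMap ↥L₀ Kb) M q hq.out hqM)
        (s34m_unif (s37r_G P L₀ ϖ hϖ) (M * q)) (s18_chart2 (L₀ := ↥L₀) w) ⊆
      s33s_nodePlaces (s34m_VV (s37r_G P L₀ ϖ hϖ) (algebraMap ↥L₀ Kb) M q hq.out hqM)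
        (s34m_unif (s37r_G P L₀ ϖ hϖ) (M * q)) (s18_chart1 (L₀ := ↥L₀) w))
    {y : JZero (M * q)} {u : s34m_F ↥L₀ (M * q)}
    (hu : s33d_IsKumGen p y (s18q_incl (M * q) L₀ u))
    (hu1 : ∀ i, ∃ z ∈ s34m_VV (s37r_G P L₀ ϖ hϖ) (algebraMap ↥L₀ Kb) M q hq.out hqM i,
      u - 1 = algebraMap ↥L₀ (s34m_F ↥L₀ (M * q)) ((ϖ : ↥(s18q_A0 P L₀)) : ↥L₀) * z)
    (hN : ∀ Q ∈ s33s_nodePlaces (s34m_VV (s37r_G P L₀ ϖ hϖ) (algebraMap ↥L₀ Kb) M q hq.out hqM)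
      (s34m_unif (s37r_G P L₀ ϖ hϖ) (M * q)) (s18_chart1 (L₀ := ↥L₀) w), Q.ord u = 0) :
    y = 0 := by
  classical
  haveI : NeZero q := ⟨hq.out.ne_zero⟩
  haveI : NumberField ↥L₀ := ⟨⟩
  haveI hchar₀ : CharP (IsLocalRing.ResidueField ↥(s18q_A0 P L₀)) q := s37rl_charP P hP L₀
  haveI hperf₀ : PerfectField (IsLocalRing.ResidueField ↥(s18q_A0 P L₀)) :=
    s37rl_perfectField P hP L₀
  haveI : IsDiscreteValuationRing ↥(s37r_G P L₀ ϖ hϖ).A :=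
    (inferInstance : IsDiscreteValuationRing ↥(s18q_A0 P L₀))
  have hπ : Function.Surjective (s37r_G P L₀ ϖ hϖ).π := IsLocalRing.residue_surjective
  obtain ⟨hu0, hdiv⟩ := s33d_kum_of_gen (M * q) p L₀ hu
  have hqp : ¬ q ∣ p := fun h => hpq ((Nat.prime_dvd_prime_iff_eq hq.out hp.out).mp h).symm
  have hmA : ((p : ↥L₀))⁻¹ ∈ (s37r_G P L₀ ϖ hϖ).A :=
    s34f_natCast_inv_mem (s18q_A0 P L₀) hq.out (s37rl_nonunit P hP L₀) p hqp
  obtain ⟨x', hx'0, -, hx'⟩ := s59n_inj_field_W M q hq.out hqM ↥L₀ (algebraMap ↥L₀ Kb) _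
    (s37r_G P L₀ ϖ hϖ) hπ w hB hsub hϖ p hp.out.ne_zero hmA u hu0 hdiv hu1 hN
  obtain ⟨ρ, -, hord⟩ := s18q_restrict_gen_bar (algebraMap ↥L₀ Kb) (modularFunctionFieldFull (M * q))
  obtain ⟨c, hc⟩ := s18x_endgame (s18q_map (algebraMap ↥L₀ Kb) (modularFunctionFieldFull (M * q))) ρ hord
    (fun g hg => s18e_const_of_ord_nonpos (M * q) g hg) u x' p hx'0 hu0 hx'
  have hc0 : c ≠ 0 := by
    rintro rfl
    rw [map_zero, zero_mul] at hc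
    exact hu.1 hc
  exact (s33d_kumGen_zero_iff (s33d_constOfOrdZero_bar (M * q)) hp.out.ne_zero hu).mpr
    ⟨c, s18q_map (algebraMap ↥L₀ Kb) (modularFunctionFieldFull (M * q)) x', hc0,
      (_root_.map_ne_zero _).mpr hx'0, hc⟩

end Kummer

end Fermat.Agent.Lib.S59
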