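/-
Programme (R2) / node **[CAR]**, the ports to `q ∈ {2, 3}` (helper2, prefix `s59b_`), part 3: **THE CONCRETE FRAME AT LEVEL
`M q` OVER A CHART** — helper9's `MCarFrame.lean` (concrete part) with the chart `{j regular}` (`q ≥ 5`) replaced by a chart
package `C : s59b_Chart …` (`B4Chart.lean`) with the geometric inputs `s59b_ChartGeo C`:

* `s59b_ChartGeo C` : `α w` is a base function (`s35g_BaseData`) and the node places of chart 2 lie on chart 1;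
* `s59b_inj_kum_nW` : [Σ-INJ], Kummer form, ARBITRARY exponent `m` prime to `q`, base function `w`
  (`s59n_inj_field_W`);
* `s59b_ZcW` : the Σ-datum `C.Z` over `(L₀, ϖ)`;  **`s59b_kumFrameCW`** : its Kummer frame of exponent `m` ([L-a]).
-/
import Fermat.Agent.Lib.S59.B4Chart
import Fermat.Agent.Lib.S59.MCarFrame
import Fermat.Agent.Lib.S59.NInjW

set_option autoImplicit false
set_option linter.style.haveILetI false
set_option linter.unusedSectionVars false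
set_option linter.unusedVariables false
set_option synthInstance.maxHeartbeats 400000

noncomputable section

namespace Fermat.Agent.Lib.S59

open ModularCurve HahnSeries AlgebraicCurve Fermat.Agent.Lib.FF Fermat.Agent.Lib.S18
  Fermat.Agent.Lib.S28 Fermat.Agent.Lib.S29 Fermat.Agent.Lib.S37 Fermat.Agent.Lib.S34
  Fermat.Agent.Lib.S35 Fermat.Agent.Lib.S33 Fermat.Agent.Lib.S44

local notation "Kb" => AlgebraicClosure ℚ
local notation "Γℚ" => (AlgebraicClosure ℚ ≃ₐ[ℚ] AlgebraicClosure ℚ)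

/-! ### The geometric inputs of a chart -/

section Geo

variable {K₀ : Type} [Field K₀] [CharZero K₀] [Algebra ℚ K₀] {κ : Type} [Field κ]
  {G : s18g_GaussData K₀ κ} {φ : K₀ →+* Kb} {M p : ℕ} [NeZero M] [hp : Fact p.Prime]
  {hpM : ¬ p ∣ M} [CharP κ p] [PerfectField κ] {hT : s18g_HT κ M} {hdegM : s18g_HDeg K₀ M}

/-- **the geometric inputs of a chart**: `α w` is a base function with `s35g_BaseData` and the node places of its chart 2
lie on chart 1. -/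
structure s59b_ChartGeo (C : s59b_Chart G φ M p hpM hT hdegM) : Prop where
  base : haveI : NeZero p := ⟨hp.out.ne_zero⟩
    s35g_BaseData G φ M p hp.out hpM C.wN
  sub : s33s_nodePlaces (s34m_VV G φ M p hp.out hpM) (s34m_unif G (M * p))
      (s18_chart2 (L₀ := K₀) C.wN) ⊆
    s33s_nodePlaces (s34m_VV G φ M p hp.out hpM) (s34m_unif G (M * p))
      (s18_chart1 (L₀ := K₀) C.wN)

end Geo

/-! ### [Σ-INJ] for an arbitrary exponent, base function `w` -/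

section Inj

variable (M q : ℕ) [NeZero M] [hq : Fact q.Prime] (hqM : ¬ q ∣ M)
  (m : ℕ) (hm0 : m ≠ 0) (hqm : ¬ q ∣ m)
  (P : ValuationSubring Kb) (hP : P.LiesOverPrime q)
  (L₀ : IntermediateField ℚ Kb) [FiniteDimensional ℚ ↥L₀] [IsDiscreteValuationRing ↥(s18q_A0 P L₀)]
  (ϖ : ↥(s18q_A0 P L₀)) (hϖ : Irreducible ϖ)

include hm0 hqm hP in
set_option maxHeartbeats 1600000 in
/-- **[Σ-INJ], Kummer form, exponent `m` prime to `q`, base function `w`.** -/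
theorem s59b_inj_kum_nW (w : s34m_F ↥L₀ (M * q))
    (hB : haveI : NeZero q := ⟨hq.out.ne_zero⟩
      s35g_BaseData (s37r_G P L₀ ϖ hϖ) (algebraMap ↥L₀ Kb) M q hq.out hqM w)
    (hsub : s33s_nodePlaces (s34m_VV (s37r_G P L₀ ϖ hϖ) (algebraMap ↥L₀ Kb) M q hq.out hqM)
        (s34m_unif (s37r_G P L₀ ϖ hϖ) (M * q)) (s18_chart2 (L₀ := ↥L₀) w) ⊆
      s33s_nodePlaces (s34m_VV (s37r_G P L₀ ϖ hϖ) (algebraMap ↥L₀ Kb) M q hq.out hqM)
        (s34m_unif (s37r_G P L₀ ϖ hϖ) (M * q)) (s18_chart1 (L₀ := ↥L₀) w))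
    {y : JZero (M * q)} {u : s34m_F ↥L₀ (M * q)}
    (hu : s33d_IsKumGen m y (s18q_incl (M * q) L₀ u))
    (hu1 : ∀ i, ∃ z ∈ s34m_VV (s37r_G P L₀ ϖ hϖ) (algebraMap ↥L₀ Kb) M q hq.out hqM i,
      u - 1 = algebraMap ↥L₀ (s34m_F ↥L₀ (M * q)) ((ϖ : ↥(s18q_A0 P L₀)) : ↥L₀) * z)
    (hN : ∀ Q ∈ s33s_nodePlaces (s34m_VV (s37r_G P L₀ ϖ hϖ) (algebraMap ↥L₀ Kb) M q hq.out hqM)
      (s34m_unif (s37r_G P L₀ ϖ hϖ) (M * q)) (s18_chart1 (L₀ := ↥L₀) w), Q.ord u = 0) :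
    y = 0 := by
  classical
  haveI : NeZero q := ⟨hq.out.ne_zero⟩
  haveI : NumberField ↥L₀ := ⟨⟩
  haveI hchar₀ : CharP (IsLocalRing.ResidueField ↥(s18q_A0 P L₀)) q := s37rl_charP P hP L₀
  haveI hperf₀ : PerfectField (IsLocalRing.ResidueField ↥(s18q_A0 P L₀)) :=
    s37rl_perfectField P hP L₀
  haveI : IsDiscreteValuationRing ↥(s37r_G P L₀ ϖ hϖ).A :=
    (inferInstance : IsDiscreteValuationRing ↥(s18q_A0 P L₀))
  have hπ : Function.Surjective (s37r_G P L₀ ϖ hϖ).π := IsLocalRing.residue_surjective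
  obtain ⟨hu0, hdiv⟩ := s59m_kum_of_gen_n (M * q) m L₀ hu
  have hmA : ((m : ↥L₀))⁻¹ ∈ (s37r_G P L₀ ϖ hϖ).A :=
    s34f_natCast_inv_mem (s18q_A0 P L₀) hq.out (s37rl_nonunit P hP L₀) m hqm
  obtain ⟨x', hx'0, -, hx'⟩ := s59n_inj_field_W M q hq.out hqM ↥L₀ (algebraMap ↥L₀ Kb) _
    (s37r_G P L₀ ϖ hϖ) hπ w hB hsub hϖ m hm0 hmA u hu0 hdiv hu1 hN
  obtain ⟨ρ, -, hord⟩ := s18q_restrict_gen_bar (algebraMap ↥L₀ Kb) (modularFunctionFieldFull (M * q))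
  obtain ⟨c, hc⟩ := s18x_endgame (s18q_map (algebraMap ↥L₀ Kb) (modularFunctionFieldFull (M * q))) ρ hord
    (fun g hg => s18e_const_of_ord_nonpos (M * q) g hg) u x' m hx'0 hu0 hx'
  have hc0 : c ≠ 0 := by
    rintro rfl
    rw [map_zero, zero_mul] at hc
    exact hu.1 hc
  exact (s33d_kumGen_zero_iff (s33d_constOfOrdZero_bar (M * q)) hm0 hu).mpr
    ⟨c, s18q_map (algebraMap ↥L₀ Kb) (modularFunctionFieldFull (M * q)) x', hc0,
      (_root_.map_ne_zero _).mpr hx'0, hc⟩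

end Inj

/-! ### The concrete Σ-datum over a chart and its Kummer frame: **[L-a]** -/

section Frame

variable (M q : ℕ) [NeZero M] [hq : Fact q.Prime] (hqM : ¬ q ∣ M)
  (m : ℕ) (hm0 : m ≠ 0) (hqm : ¬ q ∣ m)
  (P : ValuationSubring Kb) (hP : P.LiesOverPrime q)
  (L₀ : IntermediateField ℚ Kb) [FiniteDimensional ℚ ↥L₀] [IsDiscreteValuationRing ↥(s18q_A0 P L₀)]
  (ϖ : ↥(s18q_A0 P L₀)) (hϖ : Irreducible ϖ)
  [NumberField ↥L₀] [CharP (IsLocalRing.ResidueField ↥(s18q_A0 P L₀)) q]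
  [PerfectField (IsLocalRing.ResidueField ↥(s18q_A0 P L₀))]
  [IsDiscreteValuationRing ↥(s37r_G P L₀ ϖ hϖ).A]
  (hdeg : s34m_HDeg ↥L₀ M q) (hT : s18g_HT (IsLocalRing.ResidueField ↥(s18q_A0 P L₀)) M)
  (hdegM : s18g_HDeg ↥L₀ M) (hπ : Function.Surjective (s37r_G P L₀ ϖ hϖ).π)
  (e : ℕ) (ε : ↥L₀) (he : 0 < e) (hε : ε ∈ (s37r_G P L₀ ϖ hϖ).A)
  (hεinv : ε⁻¹ ∈ (s37r_G P L₀ ϖ hϖ).A) (hε0 : ε ≠ 0)
  (hqe : (q : ↥L₀) = ε * (((s37r_G P L₀ ϖ hϖ).ϖ : (s37r_G P L₀ ϖ hϖ).A) : ↥L₀) ^ e)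
  (hperf : ∀ c : IsLocalRing.ResidueField ↥(s18q_A0 P L₀), ∃ d, d ^ q = c)
  (C : s59b_Chart (s37r_G P L₀ ϖ hϖ) (algebraMap ↥L₀ Kb) M q hqM hT hdegM)

/-- **THE Σ-DATUM OF `X₀(M q)` OVER `(L₀, ϖ)`, chart `C`.** -/
abbrev s59b_ZcW := C.Z hdeg hπ e ε he hε hεinv hε0 hqe hperf

include hm0 hqm hP in
set_option maxHeartbeats 1600000 in
/-- **[L-a]: THE KUMMER FRAME** of exponent `m` (`m ≠ 0`, `q ∤ m`) at level `M q` over the Σ-datum of the chart `C`. -/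
def s59b_kumFrameCW (hC : s59b_ChartGeo C) : s59m_KumFrame (M * q) m
    (s59b_ZcW M q hqM P L₀ ϖ hϖ hdeg hT hdegM hπ e ε he hε hεinv hε0 hqe hperf C) where
  gen x h := s59m_genC (M * q) m L₀ x h
  gen_zero := s59m_genC_zero (M * q) m L₀
  gen_add := by
    intro x x' h h' hx hx'
    show s33d_IsKumGen m (x + x') (s18q_incl (M * q) L₀ (h * h'))
    rw [map_mul]
    exact s59m_isKumGen_mul hx hx'
  gen_neg := by
    intro x h hx
    show s33d_IsKumGen m (-x) (s18q_incl (M * q) L₀ h⁻¹)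
    rw [map_inv₀]
    exact s59m_isKumGen_inv hx
  gen_tors := fun hx => s59m_isKumGen_tors hx
  gen_congr := by
    intro x h h' hx hx'
    haveI : NeZero m := ⟨hm0⟩
    exact s59m_kum0_of_same_class_n (M * q) m L₀ hx hx'
  inj := by
    intro x h hx c g u hc hg e1 hcong hnf
    -- `u` is a Kummer generator of `x`
    have hcK : ((c : ↥L₀) : Kb) ≠ 0 := fun h0 => hc (Subtype.ext h0)
    have hgK : s18q_incl (M * q) L₀ g ≠ 0 := (_root_.map_ne_zero _).mpr hg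
    have hx1 : s33d_IsKumGen m x (s18q_incl (M * q) L₀ h) := hx
    have hu : s33d_IsKumGen m x (s18q_incl (M * q) L₀ u) := by
      have hK5 := s33d_kumGen_mul hx1 (inv_ne_zero hcK) (inv_ne_zero hgK)
      have e5 : algebraMap Kb (ffi_F (M * q)) ((c : ↥L₀) : Kb)⁻¹ * (s18q_incl (M * q) L₀ g)⁻¹ ^ m *
          s18q_incl (M * q) L₀ h = s18q_incl (M * q) L₀ u := by
        have hc1 : algebraMap Kb (ffi_F (M * q)) ((c : ↥L₀) : Kb) ≠ 0 :=
          (_root_.map_ne_zero _).mpr hcK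
        rw [e1, map_mul, map_mul, map_pow, s18q_incl_algebraMap, map_inv₀, inv_pow]
        field_simp
      rw [e5] at hK5
      exact hK5
    obtain ⟨⟨zi, hzi, ezi⟩, ⟨zz, hzz, ezz⟩⟩ := hcong
    have hu1 : ∀ i, ∃ z ∈ s34m_VV (s37r_G P L₀ ϖ hϖ) (algebraMap ↥L₀ Kb) M q hq.out hqM i,
        u - 1 = algebraMap ↥L₀ (s34m_F ↥L₀ (M * q)) ((ϖ : ↥(s18q_A0 P L₀)) : ↥L₀) * z := by
      intro i
      cases i
      · refine ⟨zz, hzz, ?_⟩
        rw [ezz, pow_one]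
        rfl
      · refine ⟨zi, hzi, ?_⟩
        rw [ezi, pow_one]
        rfl
    exact s59b_inj_kum_nW M q hqM m hm0 hqm P hP L₀ ϖ hϖ C.wN hC.base hC.sub hu hu1 hnf.2

end Frame

end Fermat.Agent.Lib.S59
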