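/-
Programme (R2) / node **[CAR]**, route R-DS′ (helper9, prefix `s59m_`): **THE ABSTRACT DATUM MAP OF THE TORIC PART**.
No modular curve in this file: everything is stated for helper4's semistable Σ-datum `Z : s33z_Datum D' 𝓕 ι k`
(`Lib/S33/CritSs.lean`: the two components `Ci`, `Cz` with reductions into the common residue function field `Fb`, the
node places `N`, the branches `Wi s`, `Wz s` with evaluations into `k s`, [GLUE], [LIFT], `unit`) and an exponent `m ≠ 0`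
(in the application `m = p ^ K`, prime to the residue characteristic).

* `s59m_TorDat Z m h` : **toric data** of the function `h`: `h` is a unit of both components, node-avoiding, and its two
  reductions are `m`-th powers up to constants, `red_∞ h = c_∞ a_∞ ^ m`, `red_0 h = c_0 a_0 ^ m`;
* `s59m_Ygl Z` : **the gluing torus** `(∏_s (k s)ˣ) / κˣ` (multiplicative; the package uses `Additive`);
* `s59m_TorDat.val t s = ev_∞,s(a_∞) / ev_0,s(a_0) ∈ (k s)ˣ`, `s59m_TorDat.cls t : s59m_Ygl Z` : **the datum**;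
  `s59m_TorDat.glue_rel` : `c_∞ · ev(a_∞) ^ m = c_0 · ev(a_0) ^ m` at every node ([GLUE]), hence `cls t ^ m = 1`
  (`s59m_TorDat.cls_pow`);
* `s59m_TorDat.cls_eq` : the datum does not depend on the choice of `(c, a)` (`m`-th roots of constants are constants:
  hypothesis `s59m_RootConst`, i.e. `κ` is algebraically closed in `Fb`);
* `s59m_TorDat.mul`, `.inv`, `.one`, `.ofNF` + `cls_mul`, `cls_inv`, `cls_one`, `cls_ofNF` : the datum is multiplicative,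
  and trivial on `c · g ^ m` (`g` a node-avoiding unit of both components);
* `s59m_TorDat.cls_congr` : `h' = c g ^ m h` (ANY `c ≠ 0`, `g ≠ 0`) ⇒ same datum  (so the datum is a function of the
  Kummer class);
* **`s59m_TorDat.exists_cong_of_cls_eq_one`** : if the datum is trivial then `h = c g ^ m u` with `u ≡ 1 mod ϖ` on both
  components and node-avoiding ([LIFT] + `unit`); with [Σ-INJ] (`s59n_inj_field`) the class of `h` is then `0`: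
  **the datum map is injective**.
-/
import Fermat.Agent.Lib.S33.CritSs

set_option autoImplicit false
set_option linter.style.haveILetI false
set_option linter.unusedSectionVars false

noncomputable section

namespace Fermat.Agent.Lib.S59

open AlgebraicCurve Fermat.Agent.Lib.FF Fermat.Agent.Lib.S33

variable {L₀ 𝓕' κ Fb : Type*} [Field L₀] [Field 𝓕'] [Algebra L₀ 𝓕'] [Field κ] [Field Fb] [Algebra κ Fb]
variable {D' : s33f_Datum L₀ 𝓕' κ Fb} {𝓕 : Type*} [Field 𝓕] [Algebra L₀ 𝓕]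
variable {ι : Type*} {k : ι → Type*} [∀ s, Field (k s)] [∀ s, Algebra κ (k s)]

/-! ### Small lemmas -/

/-- in a valuation ring, `x ^ n ∈ W` (`n ≠ 0`) forces `x ∈ W`. -/
theorem s59m_mem_of_pow_mem {F : Type*} [Field F] (W : ValuationSubring F) {x : F} {n : ℕ}
    (hn : n ≠ 0) (h : x ^ n ∈ W) : x ∈ W := by
  rcases W.mem_or_inv_mem x with hx | hx
  · exact hx
  · obtain ⟨j, rfl⟩ := Nat.exists_eq_succ_of_ne_zero hn
    rcases eq_or_ne x 0 with rfl | hx0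
    · exact zero_mem W
    have : x = x ^ (j + 1) * (x⁻¹) ^ j := by
      rw [pow_succ, inv_pow]
      field_simp
    rw [this]
    exact mul_mem h (pow_mem hx j)

/-- the value of a unit of a valuation ring under a ring homomorphism into a field is non-zero. -/
theorem s59m_ev_ne_zero {F k₀ : Type*} [Field F] [Field k₀] (W : ValuationSubring F) (ev : W →+* k₀)
    {a : F} (ha : a ∈ W) (ha' : a⁻¹ ∈ W) (h0 : a ≠ 0) : ev ⟨a, ha⟩ ≠ 0 := by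
  intro h
  have h1 : (⟨a, ha⟩ : W) * ⟨a⁻¹, ha'⟩ = 1 := Subtype.ext (mul_inv_cancel₀ h0)
  have h2 := congrArg ev h1
  rw [map_mul, h, zero_mul, map_one] at h2
  exact zero_ne_one h2

/-- `m`-th roots of constants are constants (`κ` is algebraically closed in `Fb`). -/
def s59m_RootConst (κ Fb : Type*) [Field κ] [Field Fb] [Algebra κ Fb] (m : ℕ) : Prop :=
  ∀ (a : Fb) (c : κ), a ^ m = algebraMap κ Fb c → ∃ d : κ, a = algebraMap κ Fb d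

/-! ### Toric data -/

/-- **Toric data of exponent `m`** of the function `h` (see the header). -/
structure s59m_TorDat (Z : s33z_Datum D' 𝓕 ι k) (m : ℕ) (h : 𝓕) where
  hi : h ∈ Z.Ci.O
  hi' : h⁻¹ ∈ Z.Ci.O
  hz : h ∈ Z.Cz.O
  hz' : h⁻¹ ∈ Z.Cz.O
  nf : s33z_NF Z h
  /-- the constant on the `∞`-component -/
  ci : κ
  /-- the constant on the `0`-component -/
  cz : κ
  /-- the `m`-th root on the `∞`-component -/
  ai : Fb
  /-- the `m`-th root on the `0`-component -/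
  az : Fb
  ci_ne : ci ≠ 0
  cz_ne : cz ≠ 0
  ei : Z.Ci.red ⟨h, hi⟩ = algebraMap κ Fb ci * ai ^ m
  ez : Z.Cz.red ⟨h, hz⟩ = algebraMap κ Fb cz * az ^ m

variable {Z : s33z_Datum D' 𝓕 ι k} {m : ℕ}

section Units

/-- a unit of a component has a non-zero reduction, with inverse the reduction of the inverse. -/
theorem s59m_red_mul_inv (C : s33z_Comp D' 𝓕) {h : 𝓕} (h0 : h ≠ 0) (hO : h ∈ C.O) (hO' : h⁻¹ ∈ C.O) :
    C.red ⟨h, hO⟩ * C.red ⟨h⁻¹, hO'⟩ = 1 := by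
  rw [← map_mul]
  have : (⟨h, hO⟩ : C.O) * ⟨h⁻¹, hO'⟩ = 1 := Subtype.ext (mul_inv_cancel₀ h0)
  rw [this, map_one]

theorem s59m_red_inv (C : s33z_Comp D' 𝓕) {h : 𝓕} (h0 : h ≠ 0) (hO : h ∈ C.O) (hO' : h⁻¹ ∈ C.O) :
    C.red ⟨h⁻¹, hO'⟩ = (C.red ⟨h, hO⟩)⁻¹ :=
  eq_inv_of_mul_eq_one_right (s59m_red_mul_inv C h0 hO hO')

theorem s59m_red_ne_zero (C : s33z_Comp D' 𝓕) {h : 𝓕} (h0 : h ≠ 0) (hO : h ∈ C.O) (hO' : h⁻¹ ∈ C.O) :
    C.red ⟨h, hO⟩ ≠ 0 :=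
  left_ne_zero_of_mul_eq_one (s59m_red_mul_inv C h0 hO hO')

/-- an element of a component with non-zero reduction is a unit of the component. -/
theorem s59m_inv_mem_of_red_ne_zero (C : s33z_Comp D' 𝓕) {g : 𝓕} (hO : g ∈ C.O)
    (hr : C.red ⟨g, hO⟩ ≠ 0) : g⁻¹ ∈ C.O := by
  have hg0 : g ≠ 0 := by
    rintro rfl
    apply hr
    have : (⟨0, hO⟩ : C.O) = 0 := rfl
    rw [this, map_zero]
  obtain ⟨j, v, hv, hv', e⟩ := C.unif g hO hg0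
  rcases Nat.eq_zero_or_pos j with rfl | hj
  · rw [pow_zero, one_mul] at e
    rw [e]
    exact hv'
  · exfalso
    apply hr
    rw [C.red_eq_zero_iff]
    refine ⟨algebraMap L₀ 𝓕 D'.ϖ ^ (j - 1) * v, mul_mem (pow_mem ?_ _) hv, ?_⟩
    · exact (C.const_mem_iff _).mpr D'.ϖ_mem
    · show g = _
      rw [e, ← mul_assoc, ← pow_succ', Nat.sub_add_cancel hj]

end Units

/-! ### The gluing torus -/

/-- the diagonal `κˣ → ∏_s (k s)ˣ`. -/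
def s59m_diag (_Z : s33z_Datum D' 𝓕 ι k) : κˣ →* (∀ s, (k s)ˣ) :=
  MonoidHom.pi fun s => Units.map (algebraMap κ (k s) : κ →* k s)

theorem s59m_diag_apply (c : κˣ) (s : ι) :
    ((s59m_diag Z c s : (k s)ˣ) : k s) = algebraMap κ (k s) (c : κ) := rfl

/-- **The gluing torus** `(∏_s (k s)ˣ) / κˣ`. -/
abbrev s59m_Ygl (Z : s33z_Datum D' 𝓕 ι k) : Type _ := (∀ s, (k s)ˣ) ⧸ (s59m_diag Z).range

namespace s59m_TorDat

variable {h : 𝓕} (t : s59m_TorDat Z m h)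

include t in
theorem h_ne : h ≠ 0 := t.nf.1

theorem ci_ne' : algebraMap κ Fb t.ci ≠ 0 :=
  (map_ne_zero_iff _ (algebraMap κ Fb).injective).mpr t.ci_ne

theorem cz_ne' : algebraMap κ Fb t.cz ≠ 0 :=
  (map_ne_zero_iff _ (algebraMap κ Fb).injective).mpr t.cz_ne

theorem ai_ne (hm : m ≠ 0) : t.ai ≠ 0 := by
  intro h0
  have := s59m_red_ne_zero Z.Ci t.h_ne t.hi t.hi'
  rw [t.ei, h0, zero_pow hm, mul_zero] at this
  exact this rfl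

theorem az_ne (hm : m ≠ 0) : t.az ≠ 0 := by
  intro h0
  have := s59m_red_ne_zero Z.Cz t.h_ne t.hz t.hz'
  rw [t.ez, h0, zero_pow hm, mul_zero] at this
  exact this rfl

theorem ai_pow : t.ai ^ m = algebraMap κ Fb t.ci⁻¹ * Z.Ci.red ⟨h, t.hi⟩ := by
  rw [t.ei, map_inv₀, ← mul_assoc, inv_mul_cancel₀ t.ci_ne', one_mul]

theorem az_pow : t.az ^ m = algebraMap κ Fb t.cz⁻¹ * Z.Cz.red ⟨h, t.hz⟩ := by
  rw [t.ez, map_inv₀, ← mul_assoc, inv_mul_cancel₀ t.cz_ne', one_mul]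

theorem ai_inv_pow : (t.ai⁻¹) ^ m = algebraMap κ Fb t.ci * Z.Ci.red ⟨h⁻¹, t.hi'⟩ := by
  rw [s59m_red_inv Z.Ci t.h_ne t.hi t.hi', t.ei, mul_inv, ← mul_assoc, mul_inv_cancel₀ t.ci_ne', one_mul,
    inv_pow]

theorem az_inv_pow : (t.az⁻¹) ^ m = algebraMap κ Fb t.cz * Z.Cz.red ⟨h⁻¹, t.hz'⟩ := by
  rw [s59m_red_inv Z.Cz t.h_ne t.hz t.hz', t.ez, mul_inv, ← mul_assoc, mul_inv_cancel₀ t.cz_ne', one_mul,
    inv_pow]

include t in
theorem reg : s33z_Reg Z h := t.nf.reg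

include t in
theorem reg_inv : s33z_Reg Z h⁻¹ := t.nf.inv.reg

theorem ai_mem (hm : m ≠ 0) (s : ι) : t.ai ∈ Z.Wi s := by
  obtain ⟨h1, -, -⟩ := Z.glue h t.hi t.hz t.reg s
  apply s59m_mem_of_pow_mem (Z.Wi s) hm
  rw [t.ai_pow]
  exact mul_mem (Z.Wi_const s _) h1

theorem ai_inv_mem (hm : m ≠ 0) (s : ι) : t.ai⁻¹ ∈ Z.Wi s := by
  obtain ⟨h1, -, -⟩ := Z.glue h⁻¹ t.hi' t.hz' t.reg_inv s
  apply s59m_mem_of_pow_mem (Z.Wi s) hm
  rw [t.ai_inv_pow]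
  exact mul_mem (Z.Wi_const s _) h1

theorem az_mem (hm : m ≠ 0) (s : ι) : t.az ∈ Z.Wz s := by
  obtain ⟨-, h2, -⟩ := Z.glue h t.hi t.hz t.reg s
  apply s59m_mem_of_pow_mem (Z.Wz s) hm
  rw [t.az_pow]
  exact mul_mem (Z.Wz_const s _) h2

theorem az_inv_mem (hm : m ≠ 0) (s : ι) : t.az⁻¹ ∈ Z.Wz s := by
  obtain ⟨-, h2, -⟩ := Z.glue h⁻¹ t.hi' t.hz' t.reg_inv s
  apply s59m_mem_of_pow_mem (Z.Wz s) hm
  rw [t.az_inv_pow]
  exact mul_mem (Z.Wz_const s _) h2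

/-- the value of `a_∞` at the node `s`. -/
def vi (hm : m ≠ 0) (s : ι) : k s := Z.evi s ⟨t.ai, t.ai_mem hm s⟩

/-- the value of `a_0` at the node `s`. -/
def vz (hm : m ≠ 0) (s : ι) : k s := Z.evz s ⟨t.az, t.az_mem hm s⟩

theorem vi_ne (hm : m ≠ 0) (s : ι) : t.vi hm s ≠ 0 :=
  s59m_ev_ne_zero (Z.Wi s) (Z.evi s) (t.ai_mem hm s) (t.ai_inv_mem hm s) (t.ai_ne hm)

theorem vz_ne (hm : m ≠ 0) (s : ι) : t.vz hm s ≠ 0 :=
  s59m_ev_ne_zero (Z.Wz s) (Z.evz s) (t.az_mem hm s) (t.az_inv_mem hm s) (t.az_ne hm)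

/-- **[GLUE] for toric data**: `c_∞ · ev(a_∞) ^ m = c_0 · ev(a_0) ^ m` at every node. -/
theorem glue_rel (hm : m ≠ 0) (s : ι) :
    algebraMap κ (k s) t.ci * t.vi hm s ^ m = algebraMap κ (k s) t.cz * t.vz hm s ^ m := by
  obtain ⟨h1, h2, e⟩ := Z.glue h t.hi t.hz t.reg s
  have E1 : (⟨Z.Ci.red ⟨h, t.hi⟩, h1⟩ : Z.Wi s) =
      ⟨algebraMap κ Fb t.ci, Z.Wi_const s _⟩ * (⟨t.ai, t.ai_mem hm s⟩ : Z.Wi s) ^ m :=
    Subtype.ext t.ei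
  have E2 : (⟨Z.Cz.red ⟨h, t.hz⟩, h2⟩ : Z.Wz s) =
      ⟨algebraMap κ Fb t.cz, Z.Wz_const s _⟩ * (⟨t.az, t.az_mem hm s⟩ : Z.Wz s) ^ m :=
    Subtype.ext t.ez
  rw [E1, E2, map_mul, map_mul, map_pow, map_pow, Z.evi_const, Z.evz_const] at e
  exact e

/-- **the datum**, as a family of units. -/
def val (hm : m ≠ 0) : ∀ s, (k s)ˣ := fun s =>
  Units.mk0 (t.vi hm s) (t.vi_ne hm s) / Units.mk0 (t.vz hm s) (t.vz_ne hm s)

theorem val_coe (hm : m ≠ 0) (s : ι) : ((t.val hm s : (k s)ˣ) : k s) = t.vi hm s / t.vz hm s := by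
  rw [val, Units.val_div_eq_div_val, Units.val_mk0, Units.val_mk0]

/-- **the datum**, in the gluing torus. -/
def cls (hm : m ≠ 0) : s59m_Ygl Z := QuotientGroup.mk (t.val hm)

/-- `val ^ m` is the constant `c_0 / c_∞`. -/
theorem val_pow (hm : m ≠ 0) :
    t.val hm ^ m = s59m_diag Z (Units.mk0 t.cz t.cz_ne / Units.mk0 t.ci t.ci_ne) := by
  funext s
  apply Units.ext
  rw [Pi.pow_apply, Units.val_pow_eq_pow_val, t.val_coe, s59m_diag_apply, Units.val_div_eq_div_val,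
    Units.val_mk0, Units.val_mk0, div_pow, map_div₀]
  have h1 := t.glue_rel hm s
  have h2 : algebraMap κ (k s) t.ci ≠ 0 :=
    (map_ne_zero_iff _ (algebraMap κ (k s)).injective).mpr t.ci_ne
  have h3 : t.vz hm s ^ m ≠ 0 := pow_ne_zero _ (t.vz_ne hm s)
  rw [div_eq_div_iff h3 h2, mul_comm, h1, mul_comm]

/-- the datum is killed by `m`. -/
theorem cls_pow (hm : m ≠ 0) : t.cls hm ^ m = 1 := by
  rw [cls, ← QuotientGroup.mk_pow, QuotientGroup.eq_one_iff, t.val_pow hm]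
  exact ⟨_, rfl⟩

/-! ### Independence of the choices -/

/-- **the comparison lemma**: if `a'_∞ = b_∞ a_∞`, `a'_0 = b_0 a_0` and `(b_∞, b_0)` is glued up to a constant `e`,
the two data have the same class. -/
theorem cls_eq_of_ratio (hm : m ≠ 0) {h' : 𝓕} (t' : s59m_TorDat Z m h') (bi bz : Fb) (e : κ) (he : e ≠ 0)
    (hbi : t'.ai = bi * t.ai) (hbz : t'.az = bz * t.az)
    (hgl : ∀ s : ι, ∃ (h1 : bi ∈ Z.Wi s) (h2 : bz ∈ Z.Wz s),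
      Z.evi s ⟨bi, h1⟩ = algebraMap κ (k s) e * Z.evz s ⟨bz, h2⟩) :
    t'.cls hm = t.cls hm := by
  rw [cls, cls, QuotientGroup.eq]
  refine ⟨(Units.mk0 e he)⁻¹, ?_⟩
  funext s
  apply Units.ext
  obtain ⟨h1, h2, e12⟩ := hgl s
  have E1 : t'.vi hm s = Z.evi s ⟨bi, h1⟩ * t.vi hm s := by
    have : (⟨t'.ai, t'.ai_mem hm s⟩ : Z.Wi s) = ⟨bi, h1⟩ * ⟨t.ai, t.ai_mem hm s⟩ := Subtype.ext hbi
    rw [vi, this, map_mul]
    rfl
  have E2 : t'.vz hm s = Z.evz s ⟨bz, h2⟩ * t.vz hm s := by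
    have : (⟨t'.az, t'.az_mem hm s⟩ : Z.Wz s) = ⟨bz, h2⟩ * ⟨t.az, t.az_mem hm s⟩ := Subtype.ext hbz
    rw [vz, this, map_mul]
    rfl
  have hz0 : Z.evz s ⟨bz, h2⟩ ≠ 0 := by
    intro h0
    exact t'.vz_ne hm s (by rw [E2, h0, zero_mul])
  simp only [s59m_diag_apply, Pi.mul_apply, Pi.inv_apply, Units.val_mul, Units.val_inv_eq_inv_val, val_coe,
    Units.val_mk0, map_inv₀]
  rw [E1, E2, e12]
  have := t.vi_ne hm s
  have := t.vz_ne hm s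
  have : algebraMap κ (k s) e ≠ 0 := (map_ne_zero_iff _ (algebraMap κ (k s)).injective).mpr he
  field_simp

/-- **the datum does not depend on the choice of the constants and of the roots.** -/
theorem cls_eq (hm : m ≠ 0) (hrc : s59m_RootConst κ Fb m) (t' : s59m_TorDat Z m h) :
    t'.cls hm = t.cls hm := by
  -- the ratios of the roots are constants
  have hi : (t'.ai * t.ai⁻¹) ^ m = algebraMap κ Fb (t'.ci⁻¹ * t.ci) := by
    rw [mul_pow, t'.ai_pow, t.ai_inv_pow, s59m_red_inv Z.Ci t.h_ne t.hi t.hi', map_mul]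
    have := s59m_red_ne_zero Z.Ci t.h_ne t.hi t.hi'
    field_simp
  have hz : (t'.az * t.az⁻¹) ^ m = algebraMap κ Fb (t'.cz⁻¹ * t.cz) := by
    rw [mul_pow, t'.az_pow, t.az_inv_pow, s59m_red_inv Z.Cz t.h_ne t.hz t.hz', map_mul]
    have := s59m_red_ne_zero Z.Cz t.h_ne t.hz t.hz'
    field_simp
  obtain ⟨di, hdi⟩ := hrc _ _ hi
  obtain ⟨dz, hdz⟩ := hrc _ _ hz
  have hai := t.ai_ne hm
  have haz := t.az_ne hm
  have hdi0 : di ≠ 0 := by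
    rintro rfl
    rw [map_zero] at hdi
    rcases mul_eq_zero.mp hdi with h0 | h0
    · exact t'.ai_ne hm h0
    · exact inv_ne_zero hai h0
  have hdz0 : dz ≠ 0 := by
    rintro rfl
    rw [map_zero] at hdz
    rcases mul_eq_zero.mp hdz with h0 | h0
    · exact t'.az_ne hm h0
    · exact inv_ne_zero haz h0
  refine t.cls_eq_of_ratio hm t' (algebraMap κ Fb di) (algebraMap κ Fb dz) (di * dz⁻¹)
    (mul_ne_zero hdi0 (inv_ne_zero hdz0)) ?_ ?_ fun s => ⟨Z.Wi_const s _, Z.Wz_const s _, ?_⟩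
  · rw [← hdi, mul_assoc, inv_mul_cancel₀ hai, mul_one]
  · rw [← hdz, mul_assoc, inv_mul_cancel₀ haz, mul_one]
  · rw [Z.evi_const, Z.evz_const, ← map_mul, mul_assoc, inv_mul_cancel₀ hdz0, mul_one]

/-! ### Multiplicativity -/

/-- the product of two toric data. -/
def mul {h₁ h₂ : 𝓕} (t₁ : s59m_TorDat Z m h₁) (t₂ : s59m_TorDat Z m h₂) :
    s59m_TorDat Z m (h₁ * h₂) where
  hi := mul_mem t₁.hi t₂.hi
  hi' := by rw [mul_inv]; exact mul_mem t₁.hi' t₂.hi'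
  hz := mul_mem t₁.hz t₂.hz
  hz' := by rw [mul_inv]; exact mul_mem t₁.hz' t₂.hz'
  nf := t₁.nf.mul t₂.nf
  ci := t₁.ci * t₂.ci
  cz := t₁.cz * t₂.cz
  ai := t₁.ai * t₂.ai
  az := t₁.az * t₂.az
  ci_ne := mul_ne_zero t₁.ci_ne t₂.ci_ne
  cz_ne := mul_ne_zero t₁.cz_ne t₂.cz_ne
  ei := by
    have : (⟨h₁ * h₂, mul_mem t₁.hi t₂.hi⟩ : Z.Ci.O) = ⟨h₁, t₁.hi⟩ * ⟨h₂, t₂.hi⟩ := rfl
    rw [this, map_mul, t₁.ei, t₂.ei, map_mul, mul_pow]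
    ring
  ez := by
    have : (⟨h₁ * h₂, mul_mem t₁.hz t₂.hz⟩ : Z.Cz.O) = ⟨h₁, t₁.hz⟩ * ⟨h₂, t₂.hz⟩ := rfl
    rw [this, map_mul, t₁.ez, t₂.ez, map_mul, mul_pow]
    ring

theorem val_mul (hm : m ≠ 0) {h₁ h₂ : 𝓕} (t₁ : s59m_TorDat Z m h₁) (t₂ : s59m_TorDat Z m h₂) :
    (t₁.mul t₂).val hm = t₁.val hm * t₂.val hm := by
  funext s
  apply Units.ext
  have E1 : (t₁.mul t₂).vi hm s = t₁.vi hm s * t₂.vi hm s := by
    have : (⟨(t₁.mul t₂).ai, (t₁.mul t₂).ai_mem hm s⟩ : Z.Wi s) =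
        ⟨t₁.ai, t₁.ai_mem hm s⟩ * ⟨t₂.ai, t₂.ai_mem hm s⟩ := Subtype.ext rfl
    rw [vi, this, map_mul]
    rfl
  have E2 : (t₁.mul t₂).vz hm s = t₁.vz hm s * t₂.vz hm s := by
    have : (⟨(t₁.mul t₂).az, (t₁.mul t₂).az_mem hm s⟩ : Z.Wz s) =
        ⟨t₁.az, t₁.az_mem hm s⟩ * ⟨t₂.az, t₂.az_mem hm s⟩ := Subtype.ext rfl
    rw [vz, this, map_mul]
    rfl
  rw [Pi.mul_apply, Units.val_mul, val_coe, val_coe, val_coe, E1, E2, mul_div_mul_comm]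

theorem cls_mul (hm : m ≠ 0) {h₁ h₂ : 𝓕} (t₁ : s59m_TorDat Z m h₁) (t₂ : s59m_TorDat Z m h₂) :
    (t₁.mul t₂).cls hm = t₁.cls hm * t₂.cls hm := by
  rw [cls, val_mul, QuotientGroup.mk_mul]
  rfl

/-- the inverse of toric data. -/
def inv : s59m_TorDat Z m h⁻¹ where
  hi := t.hi'
  hi' := by rw [inv_inv]; exact t.hi
  hz := t.hz'
  hz' := by rw [inv_inv]; exact t.hz
  nf := t.nf.inv
  ci := t.ci⁻¹
  cz := t.cz⁻¹
  ai := t.ai⁻¹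
  az := t.az⁻¹
  ci_ne := inv_ne_zero t.ci_ne
  cz_ne := inv_ne_zero t.cz_ne
  ei := by
    rw [s59m_red_inv Z.Ci t.h_ne t.hi t.hi', t.ei, mul_inv, map_inv₀, inv_pow]
  ez := by
    rw [s59m_red_inv Z.Cz t.h_ne t.hz t.hz', t.ez, mul_inv, map_inv₀, inv_pow]

theorem val_inv (hm : m ≠ 0) : t.inv.val hm = (t.val hm)⁻¹ := by
  funext s
  apply Units.ext
  have E1 : t.inv.vi hm s * t.vi hm s = 1 := by
    have : (⟨t.inv.ai, t.inv.ai_mem hm s⟩ : Z.Wi s) * ⟨t.ai, t.ai_mem hm s⟩ = 1 :=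
      Subtype.ext (inv_mul_cancel₀ (t.ai_ne hm))
    rw [vi, vi, ← map_mul, this, map_one]
  have E2 : t.inv.vz hm s * t.vz hm s = 1 := by
    have : (⟨t.inv.az, t.inv.az_mem hm s⟩ : Z.Wz s) * ⟨t.az, t.az_mem hm s⟩ = 1 :=
      Subtype.ext (inv_mul_cancel₀ (t.az_ne hm))
    rw [vz, vz, ← map_mul, this, map_one]
  rw [Pi.inv_apply, Units.val_inv_eq_inv_val, val_coe, val_coe, eq_inv_of_mul_eq_one_left E1,
    eq_inv_of_mul_eq_one_left E2, inv_div_inv, inv_div]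

theorem cls_inv (hm : m ≠ 0) : t.inv.cls hm = (t.cls hm)⁻¹ := by
  rw [cls, val_inv, QuotientGroup.mk_inv]
  rfl

/-- the toric data of `c · g ^ m`, `c` a unit constant, `g` a node-avoiding unit of both components. -/
def ofUnit {c : L₀} (hc : c ∈ D'.A₀) (hc' : c⁻¹ ∈ D'.A₀) (hc0 : c ≠ 0) {g : 𝓕}
    (hgi : g ∈ Z.Ci.O) (hgi' : g⁻¹ ∈ Z.Ci.O) (hgz : g ∈ Z.Cz.O) (hgz' : g⁻¹ ∈ Z.Cz.O)
    (hg : s33z_NF Z g) : s59m_TorDat Z m (algebraMap L₀ 𝓕 c * g ^ m) where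
  hi := mul_mem ((Z.Ci.const_mem_iff c).mpr hc) (pow_mem hgi m)
  hi' := by
    rw [mul_inv, ← map_inv₀, ← inv_pow]
    exact mul_mem ((Z.Ci.const_mem_iff _).mpr hc') (pow_mem hgi' m)
  hz := mul_mem ((Z.Cz.const_mem_iff c).mpr hc) (pow_mem hgz m)
  hz' := by
    rw [mul_inv, ← map_inv₀, ← inv_pow]
    exact mul_mem ((Z.Cz.const_mem_iff _).mpr hc') (pow_mem hgz' m)
  nf := (s33z_nf_const (Z := Z) hc0).mul (hg.pow m)
  ci := D'.resA ⟨c, hc⟩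
  cz := D'.resA ⟨c, hc⟩
  ai := Z.Ci.red ⟨g, hgi⟩
  az := Z.Cz.red ⟨g, hgz⟩
  ci_ne := by
    intro h0
    have h1 : (⟨c, hc⟩ : D'.A₀) * ⟨c⁻¹, hc'⟩ = 1 := Subtype.ext (mul_inv_cancel₀ hc0)
    have h2 := congrArg D'.resA h1
    rw [map_mul, h0, zero_mul, map_one] at h2
    exact zero_ne_one h2
  cz_ne := by
    intro h0
    have h1 : (⟨c, hc⟩ : D'.A₀) * ⟨c⁻¹, hc'⟩ = 1 := Subtype.ext (mul_inv_cancel₀ hc0)
    have h2 := congrArg D'.resA h1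
    rw [map_mul, h0, zero_mul, map_one] at h2
    exact zero_ne_one h2
  ei := by
    have : (⟨algebraMap L₀ 𝓕 c * g ^ m, mul_mem ((Z.Ci.const_mem_iff c).mpr hc) (pow_mem hgi m)⟩ : Z.Ci.O) =
        ⟨algebraMap L₀ 𝓕 c, (Z.Ci.const_mem_iff c).mpr hc⟩ * (⟨g, hgi⟩ : Z.Ci.O) ^ m := rfl
    rw [this, map_mul, map_pow]
    exact congrArg (· * _) (Z.Ci.red_const ⟨c, hc⟩)
  ez := by
    have : (⟨algebraMap L₀ 𝓕 c * g ^ m, mul_mem ((Z.Cz.const_mem_iff c).mpr hc) (pow_mem hgz m)⟩ : Z.Cz.O) =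
        ⟨algebraMap L₀ 𝓕 c, (Z.Cz.const_mem_iff c).mpr hc⟩ * (⟨g, hgz⟩ : Z.Cz.O) ^ m := rfl
    rw [this, map_mul, map_pow]
    exact congrArg (· * _) (Z.Cz.red_const ⟨c, hc⟩)

theorem cls_ofUnit (hm : m ≠ 0) {c : L₀} (hc : c ∈ D'.A₀) (hc' : c⁻¹ ∈ D'.A₀) (hc0 : c ≠ 0) {g : 𝓕}
    (hgi : g ∈ Z.Ci.O) (hgi' : g⁻¹ ∈ Z.Ci.O) (hgz : g ∈ Z.Cz.O) (hgz' : g⁻¹ ∈ Z.Cz.O)
    (hg : s33z_NF Z g) :
    (ofUnit (Z := Z) (m := m) hc hc' hc0 hgi hgi' hgz hgz' hg).cls hm = 1 := by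
  rw [cls, QuotientGroup.eq_one_iff]
  refine ⟨1, ?_⟩
  rw [map_one]
  funext s
  apply Units.ext
  obtain ⟨h1, h2, e⟩ := Z.glue g hgi hgz hg.reg s
  rw [Pi.one_apply, Units.val_one, val_coe]
  have E1 : (ofUnit (Z := Z) (m := m) hc hc' hc0 hgi hgi' hgz hgz' hg).vi hm s =
      Z.evi s ⟨Z.Ci.red ⟨g, hgi⟩, h1⟩ := rfl
  have E2 : (ofUnit (Z := Z) (m := m) hc hc' hc0 hgi hgi' hgz hgz' hg).vz hm s =
      Z.evz s ⟨Z.Cz.red ⟨g, hgz⟩, h2⟩ := rfl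
  rw [E1, E2, e]
  have := (ofUnit (Z := Z) (m := m) hc hc' hc0 hgi hgi' hgz hgz' hg).vz_ne hm s
  rw [E2] at this
  exact (div_self this).symm

/-! ### The datum is a function of the Kummer class -/

theorem _root_.Fermat.Agent.Lib.S59.s59m_nf_of_pow (hm : m ≠ 0) {v : 𝓕} (h : s33z_NF Z (v ^ m)) :
    s33z_NF Z v := by
  have hv0 : v ≠ 0 := by
    rintro rfl
    exact h.1 (zero_pow hm)
  refine ⟨hv0, fun Q hQ => ?_⟩
  have h1 := h.2 Q hQ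
  rw [← zpow_natCast, Q.ord_zpow] at h1
  rcases mul_eq_zero.mp h1 with h2 | h2
  · exact absurd (Nat.cast_eq_zero.mp h2) hm
  · exact h2

/-- auxiliary form of `cls_congr`: `g` integral on the `∞`-component. -/
theorem cls_congr_aux (hm : m ≠ 0) (hrc : s59m_RootConst κ Fb m) {h' : 𝓕} (t' : s59m_TorDat Z m h')
    {c : L₀} {g : 𝓕} (hc : c ≠ 0) (hg : g ≠ 0) (hgO : g ∈ Z.Ci.O)
    (e : h' = algebraMap L₀ 𝓕 c * g ^ m * h) : t'.cls hm = t.cls hm := by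
  obtain ⟨j, v, hv, hv', ev⟩ := Z.Ci.unif g hgO hg
  have hv0 : v ≠ 0 := by
    rintro rfl
    rw [mul_zero] at ev
    exact hg ev
  have hh0 := t.h_ne
  have hh'0 := t'.h_ne
  have hϖ0 : algebraMap L₀ 𝓕 D'.ϖ ≠ 0 :=
    (map_ne_zero_iff _ (algebraMap L₀ 𝓕).injective).mpr D'.ϖ_ne_zero
  set c₁ : L₀ := c * D'.ϖ ^ (j * m) with hc₁
  have hc₁0 : c₁ ≠ 0 := mul_ne_zero hc (pow_ne_zero _ D'.ϖ_ne_zero)
  have hc₁F : algebraMap L₀ 𝓕 c₁ ≠ 0 := (map_ne_zero_iff _ (algebraMap L₀ 𝓕).injective).mpr hc₁0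
  have e' : h' = algebraMap L₀ 𝓕 c₁ * v ^ m * h := by
    rw [e, ev, hc₁, map_mul, map_pow, mul_pow, ← pow_mul]
    ring
  have hvm0 : v ^ m ≠ 0 := pow_ne_zero _ hv0
  -- the constant is a unit
  have ec : algebraMap L₀ 𝓕 c₁ = h' * h⁻¹ * (v⁻¹) ^ m := by
    rw [e', inv_pow]
    field_simp
  have ec' : algebraMap L₀ 𝓕 c₁⁻¹ = h * h'⁻¹ * v ^ m := by
    rw [map_inv₀, ec, inv_pow]
    field_simp
  have hc₁A : c₁ ∈ D'.A₀ := by
    rw [← Z.Ci.const_mem_iff, ec]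
    exact mul_mem (mul_mem t'.hi t.hi') (pow_mem hv' m)
  have hc₁A' : c₁⁻¹ ∈ D'.A₀ := by
    rw [← Z.Ci.const_mem_iff, ec']
    exact mul_mem (mul_mem t.hi t'.hi') (pow_mem hv m)
  -- `v` is a unit of the `0`-component
  have evm : v ^ m = h' * h⁻¹ * algebraMap L₀ 𝓕 c₁⁻¹ := by
    rw [e', map_inv₀]
    field_simp
  have evm' : (v⁻¹) ^ m = h * h'⁻¹ * algebraMap L₀ 𝓕 c₁ := by
    rw [e', inv_pow]
    field_simp
  have hvz : v ∈ Z.Cz.O := by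
    apply s59m_mem_of_pow_mem _ hm
    rw [evm]
    exact mul_mem (mul_mem t'.hz t.hz') ((Z.Cz.const_mem_iff _).mpr hc₁A')
  have hvz' : v⁻¹ ∈ Z.Cz.O := by
    apply s59m_mem_of_pow_mem _ hm
    rw [evm']
    exact mul_mem (mul_mem t.hz t'.hz') ((Z.Cz.const_mem_iff _).mpr hc₁A)
  -- `v` is node-avoiding
  have hvnf : s33z_NF Z v := by
    apply s59m_nf_of_pow hm
    rw [evm]
    exact (t'.nf.mul t.nf.inv).mul (s33z_nf_const (inv_ne_zero hc₁0))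
  subst e'
  have h1 := cls_eq ((ofUnit (Z := Z) (m := m) hc₁A hc₁A' hc₁0 hv hv' hvz hvz' hvnf).mul t) hm hrc t'
  rw [h1, cls_mul, cls_ofUnit]
  exact one_mul (t.cls hm)

/-- **the datum is a function of the Kummer class**: `h' = c g ^ m h` (`c ≠ 0`, `g ≠ 0` arbitrary) ⇒ same datum. -/
theorem cls_congr (hm : m ≠ 0) (hrc : s59m_RootConst κ Fb m) {h' : 𝓕} (t' : s59m_TorDat Z m h')
    {c : L₀} {g : 𝓕} (hc : c ≠ 0) (hg : g ≠ 0)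
    (e : h' = algebraMap L₀ 𝓕 c * g ^ m * h) : t'.cls hm = t.cls hm := by
  rcases Z.Ci.O.mem_or_inv_mem g with hgO | hgO
  · exact t.cls_congr_aux hm hrc t' hc hg hgO e
  · refine (t'.cls_congr_aux hm hrc t (inv_ne_zero hc) (inv_ne_zero hg) hgO ?_).symm
    have h1 : algebraMap L₀ 𝓕 c ≠ 0 := (map_ne_zero_iff _ (algebraMap L₀ 𝓕).injective).mpr hc
    have h2 := pow_ne_zero m hg
    rw [e, map_inv₀, inv_pow]
    field_simp

/-! ### Injectivity -/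

set_option maxHeartbeats 1600000 in
/-- **the datum map is injective** (with [Σ-INJ]): a function with trivial datum is `c g ^ m u` with `u ≡ 1 mod ϖ` on
both components and node-avoiding ([LIFT] + `unit`). -/
theorem exists_cong_of_cls_eq_one (hm : m ≠ 0) (h1 : t.cls hm = 1) :
    ∃ (c : L₀) (g u : 𝓕), c ≠ 0 ∧ g ≠ 0 ∧ h = algebraMap L₀ 𝓕 c * g ^ m * u ∧
      s33z_Cong Z 1 u ∧ s33z_NF Z u := by
  classical
  rw [cls, QuotientGroup.eq_one_iff] at h1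
  obtain ⟨e, he⟩ := h1
  have hϖ0 : algebraMap L₀ 𝓕 D'.ϖ ≠ 0 :=
    (map_ne_zero_iff _ (algebraMap L₀ 𝓕).injective).mpr D'.ϖ_ne_zero
  have hai0 := t.ai_ne hm
  have haz0 := t.az_ne hm
  have he0 : (e : κ) ≠ 0 := e.ne_zero
  have heF : algebraMap κ Fb (e : κ) ≠ 0 := (map_ne_zero_iff _ (algebraMap κ Fb).injective).mpr he0
  -- `ev(a_∞) = e · ev(a_0)` at every node
  have hval : ∀ s, t.vi hm s = algebraMap κ (k s) (e : κ) * t.vz hm s := by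
    intro s
    have h2 := congrArg (fun f => ((f s : (k s)ˣ) : k s)) he
    simp only [s59m_diag_apply, val_coe] at h2
    rw [h2, div_mul_cancel₀ _ (t.vz_ne hm s)]
  set az' : Fb := algebraMap κ Fb (e : κ) * t.az with haz'
  have haz'0 : az' ≠ 0 := mul_ne_zero heF haz0
  have haz'inv : az'⁻¹ = algebraMap κ Fb ((e : κ)⁻¹) * t.az⁻¹ := by
    rw [haz', mul_inv, map_inv₀]
  have hgl : ∀ s : ι, ∃ (h1 : t.ai ∈ Z.Wi s) (h2 : az' ∈ Z.Wz s),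
      Z.evi s ⟨t.ai, h1⟩ = Z.evz s ⟨az', h2⟩ := by
    intro s
    refine ⟨t.ai_mem hm s, mul_mem (Z.Wz_const s _) (t.az_mem hm s), ?_⟩
    have E : (⟨az', mul_mem (Z.Wz_const s _) (t.az_mem hm s)⟩ : Z.Wz s) =
        ⟨algebraMap κ Fb (e : κ), Z.Wz_const s _⟩ * ⟨t.az, t.az_mem hm s⟩ := Subtype.ext rfl
    rw [E, map_mul, Z.evz_const]
    exact hval s
  have hgl' : ∀ s : ι, ∃ (h1 : t.ai⁻¹ ∈ Z.Wi s) (h2 : az'⁻¹ ∈ Z.Wz s),
      Z.evi s ⟨t.ai⁻¹, h1⟩ = Z.evz s ⟨az'⁻¹, h2⟩ := by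
    intro s
    have hm2 : az'⁻¹ ∈ Z.Wz s := by
      rw [haz'inv]
      exact mul_mem (Z.Wz_const s _) (t.az_inv_mem hm s)
    refine ⟨t.ai_inv_mem hm s, hm2, ?_⟩
    obtain ⟨h1, h2, e12⟩ := hgl s
    have P1 : Z.evi s ⟨t.ai⁻¹, t.ai_inv_mem hm s⟩ * Z.evi s ⟨t.ai, h1⟩ = 1 := by
      rw [← map_mul]
      have : (⟨t.ai⁻¹, t.ai_inv_mem hm s⟩ : Z.Wi s) * ⟨t.ai, h1⟩ = 1 :=
        Subtype.ext (inv_mul_cancel₀ hai0)
      rw [this, map_one]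
    have P2 : Z.evz s ⟨az'⁻¹, hm2⟩ * Z.evz s ⟨az', h2⟩ = 1 := by
      rw [← map_mul]
      have : (⟨az'⁻¹, hm2⟩ : Z.Wz s) * ⟨az', h2⟩ = 1 := Subtype.ext (inv_mul_cancel₀ haz'0)
      rw [this, map_one]
    rw [eq_inv_of_mul_eq_one_left P1, eq_inv_of_mul_eq_one_left P2, e12]
  obtain ⟨g, hgi, hgz, hgreg, egi, egz⟩ := Z.lift t.ai az' hgl
  obtain ⟨g', hg'i, hg'z, hg'reg, eg'i, eg'z⟩ := Z.lift t.ai⁻¹ az'⁻¹ hgl'
  have hg0 : g ≠ 0 := by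
    rintro rfl
    apply hai0
    rw [← egi]
    exact map_zero _
  have hg'0 : g' ≠ 0 := by
    rintro rfl
    apply inv_ne_zero hai0
    rw [← eg'i]
    exact map_zero _
  -- `g g' ≡ 1`
  have hwi : g * g' ∈ Z.Ci.O := mul_mem hgi hg'i
  have hwz : g * g' ∈ Z.Cz.O := mul_mem hgz hg'z
  have hwri : Z.Ci.red ⟨g * g', hwi⟩ = 1 := by
    have : (⟨g * g', hwi⟩ : Z.Ci.O) = ⟨g, hgi⟩ * ⟨g', hg'i⟩ := rfl
    rw [this, map_mul, egi, eg'i, mul_inv_cancel₀ hai0]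
  have hwrz : Z.Cz.red ⟨g * g', hwz⟩ = 1 := by
    have : (⟨g * g', hwz⟩ : Z.Cz.O) = ⟨g, hgz⟩ * ⟨g', hg'z⟩ := rfl
    rw [this, map_mul, egz, eg'z, mul_inv_cancel₀ haz'0]
  obtain ⟨yi, hyi, eyi⟩ : ∃ y ∈ Z.Ci.O, g * g' - 1 = algebraMap L₀ 𝓕 D'.ϖ * y := by
    have h1 : Z.Ci.red (⟨g * g', hwi⟩ - 1) = 0 := by rw [map_sub, hwri, map_one, sub_self]
    obtain ⟨y, hy, e⟩ := (Z.Ci.red_eq_zero_iff _).mp h1
    exact ⟨y, hy, e⟩
  obtain ⟨yz, hyz, eyz⟩ : ∃ y ∈ Z.Cz.O, g * g' - 1 = algebraMap L₀ 𝓕 D'.ϖ * y := by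
    have h1 : Z.Cz.red (⟨g * g', hwz⟩ - 1) = 0 := by rw [map_sub, hwrz, map_one, sub_self]
    obtain ⟨y, hy, e⟩ := (Z.Cz.red_eq_zero_iff _).mp h1
    exact ⟨y, hy, e⟩
  have hyy : yz = yi := (mul_left_cancel₀ hϖ0 (eyi.symm.trans eyz)).symm
  subst hyy
  have hyreg : s33z_Reg Z yz := by
    intro Q hQ
    have h1 : yz = (g * g' - 1) * (algebraMap L₀ 𝓕 D'.ϖ)⁻¹ := by
      rw [eyi]
      field_simp
    rw [h1, ← map_inv₀]
    exact mul_mem (sub_mem (mul_mem (hgreg Q hQ) (hg'reg Q hQ)) (one_mem _)) (Q.algebraMap_mem' _)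
  have hw1 : g * g' = 1 + algebraMap L₀ 𝓕 D'.ϖ * yz := by rw [← eyi]; ring
  have hgnf : s33z_NF Z g := by
    refine ⟨hg0, fun Q hQ => ?_⟩
    have h0 := Z.unit yz hyi hyz hyreg Q hQ
    rw [← hw1, Q.ord_mul hg0 hg'0] at h0
    have h2 := (ff_mem_iff_ord_nonneg Q hg0).mp (hgreg Q hQ)
    have h3 := (ff_mem_iff_ord_nonneg Q hg'0).mp (hg'reg Q hQ)
    omega
  have hgi' : g⁻¹ ∈ Z.Ci.O := s59m_inv_mem_of_red_ne_zero Z.Ci hgi (by rw [egi]; exact hai0)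
  have hgz' : g⁻¹ ∈ Z.Cz.O := s59m_inv_mem_of_red_ne_zero Z.Cz hgz (by rw [egz]; exact haz'0)
  -- the constants
  have hcc : t.cz = t.ci * (e : κ) ^ m := by
    obtain ⟨s₀⟩ := Z.nonempty
    have h2 := t.glue_rel hm s₀
    rw [hval s₀, mul_pow, ← mul_assoc, ← map_pow, ← map_mul] at h2
    have h3 := mul_right_cancel₀ (pow_ne_zero m (t.vz_ne hm s₀)) h2
    exact ((algebraMap κ (k s₀)).injective h3).symm
  obtain ⟨cT, hcT⟩ := D'.resA_surjective t.ci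
  have hcT0 : (cT : L₀) ≠ 0 := by
    intro h0
    have : cT = 0 := Subtype.ext h0
    rw [this, map_zero] at hcT
    exact t.ci_ne hcT.symm
  have hcF : algebraMap L₀ 𝓕 (cT : L₀) ≠ 0 := (map_ne_zero_iff _ (algebraMap L₀ 𝓕).injective).mpr hcT0
  have hci : algebraMap L₀ 𝓕 (cT : L₀) ∈ Z.Ci.O := (Z.Ci.const_mem_iff _).mpr cT.2
  have hcz : algebraMap L₀ 𝓕 (cT : L₀) ∈ Z.Cz.O := (Z.Cz.const_mem_iff _).mpr cT.2
  have hrci : Z.Ci.red ⟨_, hci⟩ = algebraMap κ Fb t.ci := by rw [Z.Ci.red_const cT, hcT]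
  have hrcz : Z.Cz.red ⟨_, hcz⟩ = algebraMap κ Fb t.ci := by rw [Z.Cz.red_const cT, hcT]
  have hci' : (algebraMap L₀ 𝓕 (cT : L₀))⁻¹ ∈ Z.Ci.O :=
    s59m_inv_mem_of_red_ne_zero Z.Ci hci (by rw [hrci]; exact t.ci_ne')
  have hcz' : (algebraMap L₀ 𝓕 (cT : L₀))⁻¹ ∈ Z.Cz.O :=
    s59m_inv_mem_of_red_ne_zero Z.Cz hcz (by rw [hrcz]; exact t.ci_ne')
  -- the function `u`
  set u : 𝓕 := h * (algebraMap L₀ 𝓕 (cT : L₀))⁻¹ * (g⁻¹) ^ m with hu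
  have hui : u ∈ Z.Ci.O := mul_mem (mul_mem t.hi hci') (pow_mem hgi' m)
  have huz : u ∈ Z.Cz.O := mul_mem (mul_mem t.hz hcz') (pow_mem hgz' m)
  have hunf : s33z_NF Z u :=
    (t.nf.mul (s33z_nf_const hcT0).inv).mul (hgnf.inv.pow m)
  have hredi : Z.Ci.red ⟨u, hui⟩ = 1 := by
    have E : (⟨u, hui⟩ : Z.Ci.O) = ⟨h, t.hi⟩ * ⟨_, hci'⟩ * (⟨g⁻¹, hgi'⟩ : Z.Ci.O) ^ m := Subtype.ext rfl
    rw [E, map_mul, map_mul, map_pow, s59m_red_inv Z.Ci hcF hci hci', s59m_red_inv Z.Ci hg0 hgi hgi', t.ei,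
      hrci, egi]
    have := t.ci_ne'
    have := pow_ne_zero m hai0
    rw [inv_pow]
    field_simp
  have hredz : Z.Cz.red ⟨u, huz⟩ = 1 := by
    have E : (⟨u, huz⟩ : Z.Cz.O) = ⟨h, t.hz⟩ * ⟨_, hcz'⟩ * (⟨g⁻¹, hgz'⟩ : Z.Cz.O) ^ m := Subtype.ext rfl
    rw [E, map_mul, map_mul, map_pow, s59m_red_inv Z.Cz hcF hcz hcz', s59m_red_inv Z.Cz hg0 hgz hgz', t.ez,
      hrcz, egz, hcc, haz', map_mul, map_pow, inv_pow, mul_pow]
    have := t.ci_ne'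
    have := pow_ne_zero m haz0
    have := pow_ne_zero m heF
    field_simp
  obtain ⟨zi, hzi, ezi⟩ : ∃ y ∈ Z.Ci.O, u - 1 = algebraMap L₀ 𝓕 D'.ϖ * y := by
    have h1 : Z.Ci.red (⟨u, hui⟩ - 1) = 0 := by rw [map_sub, hredi, map_one, sub_self]
    obtain ⟨y, hy, e⟩ := (Z.Ci.red_eq_zero_iff _).mp h1
    exact ⟨y, hy, e⟩
  obtain ⟨zz, hzz, ezz⟩ : ∃ y ∈ Z.Cz.O, u - 1 = algebraMap L₀ 𝓕 D'.ϖ * y := by
    have h1 : Z.Cz.red (⟨u, huz⟩ - 1) = 0 := by rw [map_sub, hredz, map_one, sub_self]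
    obtain ⟨y, hy, e⟩ := (Z.Cz.red_eq_zero_iff _).mp h1
    exact ⟨y, hy, e⟩
  refine ⟨(cT : L₀), g, u, hcT0, hg0, ?_, ⟨⟨zi, hzi, ?_⟩, ⟨zz, hzz, ?_⟩⟩, hunf⟩
  · rw [hu, inv_pow]
    have := pow_ne_zero m hg0
    field_simp
  · show u - 1 = s33f_pi Z.Di ^ 1 * zi
    rw [pow_one]
    exact ezi
  · show u - 1 = s33f_pi Z.Dz ^ 1 * zz
    rw [pow_one]
    exact ezz

end s59m_TorDat

end Fermat.Agent.Lib.S59
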