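/-
Programme (R2) / node **[CAR]**, route R-DS′ (helper9, prefix `s59m_`): **THE ABSTRACT HECKE LAYER ON THE TORIC DATA**
([T-GLUE] and the eigen-transfer).  No modular curve in this file: helper4's Σ-datum `Z : s33z_Datum D' 𝓕 ι k` and

* `s59m_HeckeOn Z` : **a Hecke correspondence on the Σ-datum**: `T : 𝓕 →* 𝓕` (`T_ℓ^× = Nm_α ∘ β^*` on functions), with induced
  maps `Ti, Tz : Fb →* Fb` on the residue function fields of the two components (`red_∞ (T h) = Ti (red_∞ h)`,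
  `red_0 (T h) = Tz (red_0 h)`), constants to constants, and **[T-NODE]** `nf : T` preserves node-avoiding functions;
* `s59m_GlU Z φi φz` : `(φi, φz)` is a pair of functions on the residue curve, units at all branches, GLUED UP TO A CONSTANT
  (`ev_∞,s φi = e · ev_0,s φz` for all nodes `s`); closed under `mul`, `inv`, `zpow`, contains the pairs of constants;
* `s59m_lift_glU` : a pair glued with `e = 1` is the pair of reductions of a node-avoiding unit of both components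
  ([LIFT] + `unit`);
* **`s59m_GlU.hecke`** : **[T-GLUE]** `GlU φi φz → GlU (Ti φi) (Tz φz)`;
* `s59m_TorDat.hecke`, `s59m_TorDat.zpow` : the toric data of `T h` (roots `Ti a_∞`, `Tz a_0`) and of `h ^ a`, `a : ℤ`;
* `s59m_TorDat.cls_eq_one_of_glU` : roots glued up to a constant ⇒ trivial datum;
* **`s59m_eig_transfer`** : if the datum of `h` is represented by a pair `(φi, φz)` (i.e. `GlU (φi / a_∞) (φz / a_0)`) which is
  an EIGEN-PAIR (`GlU (Ti φi · φi ^ (-a)) (Tz φz · φz ^ (-a))`), then `T h · h ^ (-a) = c g ^ m u`, `u ≡ 1 mod ϖ` on both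
  components, node-avoiding — so that `T_ℓ x - a x = 0` by [Σ-INJ].  This is the field `eig_tor` of `s59m_CarPkgE`.
-/
import Fermat.Agent.Lib.S59.MCarDatum

set_option autoImplicit false
set_option linter.style.haveILetI false
set_option linter.unusedSectionVars false

noncomputable section

namespace Fermat.Agent.Lib.S59

open AlgebraicCurve Fermat.Agent.Lib.FF Fermat.Agent.Lib.S33

variable {L₀ 𝓕' κ Fb : Type*} [Field L₀] [Field 𝓕'] [Algebra L₀ 𝓕'] [Field κ] [Field Fb] [Algebra κ Fb]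
variable {D' : s33f_Datum L₀ 𝓕' κ Fb} {𝓕 : Type*} [Field 𝓕] [Algebra L₀ 𝓕]
variable {ι : Type*} {k : ι → Type*} [∀ s, Field (k s)] [∀ s, Algebra κ (k s)]

/-! ### Small lemmas -/

theorem s59m_mh_ne_zero {F : Type*} [Field F] (T : F →* F) {x : F} (hx : x ≠ 0) : T x ≠ 0 := by
  intro h
  have : T x * T x⁻¹ = 1 := by rw [← map_mul, mul_inv_cancel₀ hx, map_one]
  rw [h, zero_mul] at this
  exact zero_ne_one this

theorem s59m_mh_inv {F : Type*} [Field F] (T : F →* F) {x : F} (hx : x ≠ 0) : T x⁻¹ = (T x)⁻¹ := by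
  have : T x * T x⁻¹ = 1 := by rw [← map_mul, mul_inv_cancel₀ hx, map_one]
  exact eq_inv_of_mul_eq_one_right this

theorem s59m_mh_zpow {F : Type*} [Field F] (T : F →* F) {x : F} (hx : x ≠ 0) (n : ℤ) :
    T (x ^ n) = T x ^ n := by
  cases n with
  | ofNat n => rw [Int.ofNat_eq_natCast, zpow_natCast, zpow_natCast, map_pow]
  | negSucc n => rw [zpow_negSucc, zpow_negSucc, s59m_mh_inv T (pow_ne_zero _ hx), map_pow]

theorem s59m_zpow_mem {F : Type*} [Field F] (W : ValuationSubring F) {x : F} (hx : x ∈ W) (hx' : x⁻¹ ∈ W)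
    (a : ℤ) : x ^ a ∈ W := by
  cases a with
  | ofNat n => rw [Int.ofNat_eq_natCast, zpow_natCast]; exact pow_mem hx n
  | negSucc n => rw [zpow_negSucc, ← inv_pow]; exact pow_mem hx' _

/-- evaluation of an integer power of a unit. -/
theorem s59m_ev_zpow {F k₀ : Type*} [Field F] [Field k₀] (W : ValuationSubring F) (ev : W →+* k₀)
    {x : F} (hx0 : x ≠ 0) (hx : x ∈ W) (hx' : x⁻¹ ∈ W) (a : ℤ) (hm : x ^ a ∈ W) :
    ev ⟨x ^ a, hm⟩ = ev ⟨x, hx⟩ ^ a := by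
  have hinv : ev ⟨x⁻¹, hx'⟩ = (ev ⟨x, hx⟩)⁻¹ := by
    have h1 : (⟨x, hx⟩ : W) * ⟨x⁻¹, hx'⟩ = 1 := Subtype.ext (mul_inv_cancel₀ hx0)
    have h2 := congrArg ev h1
    rw [map_mul, map_one] at h2
    exact eq_inv_of_mul_eq_one_right h2
  cases a with
  | ofNat n =>
    have : (⟨x ^ (Int.ofNat n), hm⟩ : W) = ⟨x, hx⟩ ^ n := Subtype.ext (by
      show x ^ (Int.ofNat n) = x ^ n
      rw [Int.ofNat_eq_natCast, zpow_natCast])
    rw [this, map_pow, Int.ofNat_eq_natCast, zpow_natCast]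
  | negSucc n =>
    have : (⟨x ^ (Int.negSucc n), hm⟩ : W) = ⟨x⁻¹, hx'⟩ ^ (n + 1) := Subtype.ext (by
      show x ^ (Int.negSucc n) = x⁻¹ ^ (n + 1)
      rw [zpow_negSucc, ← inv_pow])
    rw [this, map_pow, hinv, zpow_negSucc, inv_pow]

theorem s59m_nf_zpow {Z : s33z_Datum D' 𝓕 ι k} {f : 𝓕} (hf : s33z_NF Z f) (a : ℤ) : s33z_NF Z (f ^ a) := by
  cases a with
  | ofNat n => rw [Int.ofNat_eq_natCast, zpow_natCast]; exact hf.pow n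
  | negSucc n => rw [zpow_negSucc]; exact (hf.pow _).inv

/-! ### Hecke correspondences on a Σ-datum -/

/-- **A Hecke correspondence on the Σ-datum** (see the header). -/
structure s59m_HeckeOn (Z : s33z_Datum D' 𝓕 ι k) where
  /-- `T_ℓ^×` on functions -/
  T : 𝓕 →* 𝓕
  /-- the induced map on the residue function field of the `∞`-component -/
  Ti : Fb →* Fb
  /-- the induced map on the residue function field of the `0`-component -/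
  Tz : Fb →* Fb
  mem_i : ∀ h : 𝓕, h ∈ Z.Ci.O → T h ∈ Z.Ci.O
  mem_z : ∀ h : 𝓕, h ∈ Z.Cz.O → T h ∈ Z.Cz.O
  /-- only asked for UNITS of the component -/
  red_i : ∀ (h : 𝓕) (hh : h ∈ Z.Ci.O), h⁻¹ ∈ Z.Ci.O → Z.Ci.red ⟨T h, mem_i h hh⟩ = Ti (Z.Ci.red ⟨h, hh⟩)
  /-- only asked for UNITS of the component -/
  red_z : ∀ (h : 𝓕) (hh : h ∈ Z.Cz.O), h⁻¹ ∈ Z.Cz.O → Z.Cz.red ⟨T h, mem_z h hh⟩ = Tz (Z.Cz.red ⟨h, hh⟩)
  Ti_const : ∀ c : κ, ∃ d : κ, Ti (algebraMap κ Fb c) = algebraMap κ Fb d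
  Tz_const : ∀ c : κ, ∃ d : κ, Tz (algebraMap κ Fb c) = algebraMap κ Fb d
  /-- **[T-NODE]** -/
  nf : ∀ h : 𝓕, s33z_NF Z h → s33z_NF Z (T h)

variable {Z : s33z_Datum D' 𝓕 ι k} {m : ℕ}

/-! ### Pairs glued up to a constant -/

/-- `(φi, φz)` is a pair of units at all branches, glued up to a constant. -/
def s59m_GlU (Z : s33z_Datum D' 𝓕 ι k) (φi φz : Fb) : Prop :=
  φi ≠ 0 ∧ φz ≠ 0 ∧ ∃ e : κ, e ≠ 0 ∧ ∀ s : ι, ∃ (h1 : φi ∈ Z.Wi s) (_ : φi⁻¹ ∈ Z.Wi s) (h2 : φz ∈ Z.Wz s)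
    (_ : φz⁻¹ ∈ Z.Wz s), Z.evi s ⟨φi, h1⟩ = algebraMap κ (k s) e * Z.evz s ⟨φz, h2⟩

theorem s59m_GlU.mul {φi φz ψi ψz : Fb} (h1 : s59m_GlU Z φi φz) (h2 : s59m_GlU Z ψi ψz) :
    s59m_GlU Z (φi * ψi) (φz * ψz) := by
  obtain ⟨a1, a2, e, he, h⟩ := h1
  obtain ⟨b1, b2, e', he', h'⟩ := h2
  refine ⟨mul_ne_zero a1 b1, mul_ne_zero a2 b2, e * e', mul_ne_zero he he', fun s => ?_⟩
  obtain ⟨m1, m1', m2, m2', ev⟩ := h s
  obtain ⟨n1, n1', n2, n2', ev'⟩ := h' s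
  refine ⟨mul_mem m1 n1, by rw [mul_inv]; exact mul_mem m1' n1', mul_mem m2 n2,
    by rw [mul_inv]; exact mul_mem m2' n2', ?_⟩
  have E1 : (⟨φi * ψi, mul_mem m1 n1⟩ : Z.Wi s) = ⟨φi, m1⟩ * ⟨ψi, n1⟩ := rfl
  have E2 : (⟨φz * ψz, mul_mem m2 n2⟩ : Z.Wz s) = ⟨φz, m2⟩ * ⟨ψz, n2⟩ := rfl
  rw [E1, E2, map_mul, map_mul, ev, ev', map_mul]
  ring

theorem s59m_GlU.inv {φi φz : Fb} (h1 : s59m_GlU Z φi φz) : s59m_GlU Z φi⁻¹ φz⁻¹ := by
  obtain ⟨a1, a2, e, he, h⟩ := h1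
  refine ⟨inv_ne_zero a1, inv_ne_zero a2, e⁻¹, inv_ne_zero he, fun s => ?_⟩
  obtain ⟨m1, m1', m2, m2', ev⟩ := h s
  refine ⟨m1', by rw [inv_inv]; exact m1, m2', by rw [inv_inv]; exact m2, ?_⟩
  have P1 : Z.evi s ⟨φi⁻¹, m1'⟩ * Z.evi s ⟨φi, m1⟩ = 1 := by
    rw [← map_mul]
    have : (⟨φi⁻¹, m1'⟩ : Z.Wi s) * ⟨φi, m1⟩ = 1 := Subtype.ext (inv_mul_cancel₀ a1)
    rw [this, map_one]
  have P2 : Z.evz s ⟨φz⁻¹, m2'⟩ * Z.evz s ⟨φz, m2⟩ = 1 := by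
    rw [← map_mul]
    have : (⟨φz⁻¹, m2'⟩ : Z.Wz s) * ⟨φz, m2⟩ = 1 := Subtype.ext (inv_mul_cancel₀ a2)
    rw [this, map_one]
  rw [eq_inv_of_mul_eq_one_left P1, eq_inv_of_mul_eq_one_left P2, ev, mul_inv, map_inv₀]

theorem s59m_GlU.const {c d : κ} (hc : c ≠ 0) (hd : d ≠ 0) :
    s59m_GlU Z (algebraMap κ Fb c) (algebraMap κ Fb d) := by
  refine ⟨(map_ne_zero_iff _ (algebraMap κ Fb).injective).mpr hc,
    (map_ne_zero_iff _ (algebraMap κ Fb).injective).mpr hd, c * d⁻¹, mul_ne_zero hc (inv_ne_zero hd),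
    fun s => ⟨Z.Wi_const s c, by rw [← map_inv₀]; exact Z.Wi_const s _, Z.Wz_const s d,
      by rw [← map_inv₀]; exact Z.Wz_const s _, ?_⟩⟩
  rw [Z.evi_const, Z.evz_const, ← map_mul, mul_assoc, inv_mul_cancel₀ hd, mul_one]

theorem s59m_GlU.one : s59m_GlU Z (1 : Fb) 1 := by
  have := s59m_GlU.const (Z := Z) (c := 1) (d := 1) one_ne_zero one_ne_zero
  rwa [map_one] at this

theorem s59m_GlU.div {φi φz ψi ψz : Fb} (h1 : s59m_GlU Z φi φz) (h2 : s59m_GlU Z ψi ψz) :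
    s59m_GlU Z (φi / ψi) (φz / ψz) := by
  rw [div_eq_mul_inv, div_eq_mul_inv]
  exact h1.mul h2.inv

theorem s59m_GlU.pow {φi φz : Fb} (h1 : s59m_GlU Z φi φz) (n : ℕ) : s59m_GlU Z (φi ^ n) (φz ^ n) := by
  induction n with
  | zero => rw [pow_zero, pow_zero]; exact s59m_GlU.one
  | succ n ih => rw [pow_succ, pow_succ]; exact ih.mul h1

theorem s59m_GlU.zpow {φi φz : Fb} (h1 : s59m_GlU Z φi φz) (a : ℤ) : s59m_GlU Z (φi ^ a) (φz ^ a) := by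
  cases a with
  | ofNat n => rw [Int.ofNat_eq_natCast, zpow_natCast, zpow_natCast]; exact h1.pow n
  | negSucc n => rw [zpow_negSucc, zpow_negSucc]; exact (h1.pow _).inv

/-! ### [LIFT] for glued pairs of units -/

set_option maxHeartbeats 800000 in
/-- **a pair of units glued with constant `1` is the pair of reductions of a node-avoiding unit of both components**
([LIFT] + `unit`). -/
theorem s59m_lift_glU {φi φz : Fb} (h0i : φi ≠ 0) (h0z : φz ≠ 0)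
    (hgl : ∀ s : ι, ∃ (h1 : φi ∈ Z.Wi s) (_ : φi⁻¹ ∈ Z.Wi s) (h2 : φz ∈ Z.Wz s) (_ : φz⁻¹ ∈ Z.Wz s),
      Z.evi s ⟨φi, h1⟩ = Z.evz s ⟨φz, h2⟩) :
    ∃ (g : 𝓕) (hgi : g ∈ Z.Ci.O) (hgz : g ∈ Z.Cz.O), g⁻¹ ∈ Z.Ci.O ∧ g⁻¹ ∈ Z.Cz.O ∧ s33z_NF Z g ∧
      Z.Ci.red ⟨g, hgi⟩ = φi ∧ Z.Cz.red ⟨g, hgz⟩ = φz := by
  classical
  have hϖ0 : algebraMap L₀ 𝓕 D'.ϖ ≠ 0 :=
    (map_ne_zero_iff _ (algebraMap L₀ 𝓕).injective).mpr D'.ϖ_ne_zero
  have hgl1 : ∀ s : ι, ∃ (h1 : φi ∈ Z.Wi s) (h2 : φz ∈ Z.Wz s),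
      Z.evi s ⟨φi, h1⟩ = Z.evz s ⟨φz, h2⟩ := fun s => by
    obtain ⟨h1, -, h2, -, e⟩ := hgl s
    exact ⟨h1, h2, e⟩
  have hgl' : ∀ s : ι, ∃ (h1 : φi⁻¹ ∈ Z.Wi s) (h2 : φz⁻¹ ∈ Z.Wz s),
      Z.evi s ⟨φi⁻¹, h1⟩ = Z.evz s ⟨φz⁻¹, h2⟩ := by
    intro s
    obtain ⟨h1, h1', h2, h2', e12⟩ := hgl s
    refine ⟨h1', h2', ?_⟩
    have P1 : Z.evi s ⟨φi⁻¹, h1'⟩ * Z.evi s ⟨φi, h1⟩ = 1 := by
      rw [← map_mul]
      have : (⟨φi⁻¹, h1'⟩ : Z.Wi s) * ⟨φi, h1⟩ = 1 := Subtype.ext (inv_mul_cancel₀ h0i)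
      rw [this, map_one]
    have P2 : Z.evz s ⟨φz⁻¹, h2'⟩ * Z.evz s ⟨φz, h2⟩ = 1 := by
      rw [← map_mul]
      have : (⟨φz⁻¹, h2'⟩ : Z.Wz s) * ⟨φz, h2⟩ = 1 := Subtype.ext (inv_mul_cancel₀ h0z)
      rw [this, map_one]
    rw [eq_inv_of_mul_eq_one_left P1, eq_inv_of_mul_eq_one_left P2, e12]
  obtain ⟨g, hgi, hgz, hgreg, egi, egz⟩ := Z.lift φi φz hgl1
  obtain ⟨g', hg'i, hg'z, hg'reg, eg'i, eg'z⟩ := Z.lift φi⁻¹ φz⁻¹ hgl'
  have hg0 : g ≠ 0 := by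
    rintro rfl
    apply h0i
    rw [← egi]
    exact map_zero _
  have hg'0 : g' ≠ 0 := by
    rintro rfl
    apply inv_ne_zero h0i
    rw [← eg'i]
    exact map_zero _
  have hwi : g * g' ∈ Z.Ci.O := mul_mem hgi hg'i
  have hwz : g * g' ∈ Z.Cz.O := mul_mem hgz hg'z
  have hwri : Z.Ci.red ⟨g * g', hwi⟩ = 1 := by
    have : (⟨g * g', hwi⟩ : Z.Ci.O) = ⟨g, hgi⟩ * ⟨g', hg'i⟩ := rfl
    rw [this, map_mul, egi, eg'i, mul_inv_cancel₀ h0i]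
  have hwrz : Z.Cz.red ⟨g * g', hwz⟩ = 1 := by
    have : (⟨g * g', hwz⟩ : Z.Cz.O) = ⟨g, hgz⟩ * ⟨g', hg'z⟩ := rfl
    rw [this, map_mul, egz, eg'z, mul_inv_cancel₀ h0z]
  obtain ⟨yi, hyi, eyi⟩ : ∃ y ∈ Z.Ci.O, g * g' - 1 = algebraMap L₀ 𝓕 D'.ϖ * y := by
    have h1 : Z.Ci.red (⟨g * g', hwi⟩ - 1) = 0 := by rw [map_sub, hwri, map_one, sub_self]
    obtain ⟨y, hy, e⟩ := (Z.Ci.red_eq_zero_iff _).mp h1
    exact ⟨y, hy, e⟩
  obtain ⟨yz, hyz, eyz⟩ : ∃ y ∈ Z.Cz.O, g * g' - 1 = algebraMap L₀ 𝓕 D'.ϖ * y := by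
    have h1 : Z.Cz.red (⟨g * g', hwz⟩ - 1) = 0 := by rw [map_sub, hwrz, map_one, sub_self]
    obtain ⟨y, hy, e⟩ := (Z.Cz.red_eq_zero_iff _).mp h1
    exact ⟨y, hy, e⟩
  have hyy : yz = yi := (mul_left_cancel₀ hϖ0 (eyi.symm.trans eyz)).symm
  subst hyy
  have hyreg : s33z_Reg Z yz := by
    intro Q hQ
    have h1 : yz = (g * g' - 1) * (algebraMap L₀ 𝓕 D'.ϖ)⁻¹ := by
      rw [eyi]
      field_simp
    rw [h1, ← map_inv₀]
    exact mul_mem (sub_mem (mul_mem (hgreg Q hQ) (hg'reg Q hQ)) (one_mem _)) (Q.algebraMap_mem' _)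
  have hw1 : g * g' = 1 + algebraMap L₀ 𝓕 D'.ϖ * yz := by rw [← eyi]; ring
  have hgnf : s33z_NF Z g := by
    refine ⟨hg0, fun Q hQ => ?_⟩
    have h0 := Z.unit yz hyi hyz hyreg Q hQ
    rw [← hw1, Q.ord_mul hg0 hg'0] at h0
    have h2 := (ff_mem_iff_ord_nonneg Q hg0).mp (hgreg Q hQ)
    have h3 := (ff_mem_iff_ord_nonneg Q hg'0).mp (hg'reg Q hQ)
    omega
  exact ⟨g, hgi, hgz, s59m_inv_mem_of_red_ne_zero Z.Ci hgi (by rw [egi]; exact h0i),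
    s59m_inv_mem_of_red_ne_zero Z.Cz hgz (by rw [egz]; exact h0z), hgnf, egi, egz⟩

/-! ### [T-GLUE] -/

set_option maxHeartbeats 800000 in
/-- **[T-GLUE]**: a Hecke correspondence preserves the pairs of units glued up to a constant. -/
theorem s59m_GlU.hecke (H : s59m_HeckeOn Z) {φi φz : Fb} (h : s59m_GlU Z φi φz) :
    s59m_GlU Z (H.Ti φi) (H.Tz φz) := by
  obtain ⟨h0i, h0z, e, he, hgl⟩ := h
  have heF : algebraMap κ Fb e ≠ 0 := (map_ne_zero_iff _ (algebraMap κ Fb).injective).mpr he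
  set ψz : Fb := algebraMap κ Fb e * φz with hψz
  have hψ0 : ψz ≠ 0 := mul_ne_zero heF h0z
  have hgl1 : ∀ s : ι, ∃ (h1 : φi ∈ Z.Wi s) (_ : φi⁻¹ ∈ Z.Wi s) (h2 : ψz ∈ Z.Wz s) (_ : ψz⁻¹ ∈ Z.Wz s),
      Z.evi s ⟨φi, h1⟩ = Z.evz s ⟨ψz, h2⟩ := by
    intro s
    obtain ⟨m1, m1', m2, m2', ev⟩ := hgl s
    refine ⟨m1, m1', mul_mem (Z.Wz_const s e) m2, ?_, ?_⟩
    · rw [hψz, mul_inv, ← map_inv₀]
      exact mul_mem (Z.Wz_const s _) m2'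
    · have E : (⟨ψz, mul_mem (Z.Wz_const s e) m2⟩ : Z.Wz s) =
          ⟨algebraMap κ Fb e, Z.Wz_const s e⟩ * ⟨φz, m2⟩ := rfl
      rw [E, map_mul, Z.evz_const]
      exact ev
  obtain ⟨g, hgi, hgz, hgi', hgz', hgnf, egi, egz⟩ := s59m_lift_glU h0i hψ0 hgl1
  have hg0 := hgnf.1
  have hTi := H.mem_i g hgi
  have hTz := H.mem_z g hgz
  have hTinv : (H.T g)⁻¹ = H.T g⁻¹ := (s59m_mh_inv H.T hg0).symm
  have hTi' : (H.T g)⁻¹ ∈ Z.Ci.O := by rw [hTinv]; exact H.mem_i _ hgi'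
  have hTz' : (H.T g)⁻¹ ∈ Z.Cz.O := by rw [hTinv]; exact H.mem_z _ hgz'
  have hTnf := H.nf g hgnf
  have ri : Z.Ci.red ⟨H.T g, hTi⟩ = H.Ti φi := by rw [H.red_i g hgi hgi', egi]
  obtain ⟨d, hd⟩ := H.Tz_const e
  have rz : Z.Cz.red ⟨H.T g, hTz⟩ = algebraMap κ Fb d * H.Tz φz := by
    rw [H.red_z g hgz hgz', egz, hψz, map_mul, hd]
  have hd0 : d ≠ 0 := by
    intro h0
    have := s59m_mh_ne_zero H.Tz heF
    rw [hd, h0, map_zero] at this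
    exact this rfl
  have hdF : algebraMap κ Fb d ≠ 0 := (map_ne_zero_iff _ (algebraMap κ Fb).injective).mpr hd0
  have hTφi0 : H.Ti φi ≠ 0 := s59m_mh_ne_zero H.Ti h0i
  have hTφz0 : H.Tz φz ≠ 0 := s59m_mh_ne_zero H.Tz h0z
  refine ⟨hTφi0, hTφz0, d, hd0, fun s => ?_⟩
  obtain ⟨a1, a2, ea⟩ := Z.glue (H.T g) hTi hTz hTnf.reg s
  obtain ⟨b1, b2, -⟩ := Z.glue (H.T g)⁻¹ hTi' hTz' hTnf.inv.reg s
  have m1 : H.Ti φi ∈ Z.Wi s := by rw [← ri]; exact a1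
  have m1' : (H.Ti φi)⁻¹ ∈ Z.Wi s := by
    rw [← ri, ← s59m_red_inv Z.Ci hTnf.1 hTi hTi']
    exact b1
  have m2 : H.Tz φz ∈ Z.Wz s := by
    have : H.Tz φz = algebraMap κ Fb d⁻¹ * Z.Cz.red ⟨H.T g, hTz⟩ := by
      rw [rz, map_inv₀, ← mul_assoc, inv_mul_cancel₀ hdF, one_mul]
    rw [this]
    exact mul_mem (Z.Wz_const s _) a2
  have m2' : (H.Tz φz)⁻¹ ∈ Z.Wz s := by
    have : (H.Tz φz)⁻¹ = algebraMap κ Fb d * Z.Cz.red ⟨(H.T g)⁻¹, hTz'⟩ := by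
      rw [s59m_red_inv Z.Cz hTnf.1 hTz hTz', rz, mul_inv, ← mul_assoc, mul_inv_cancel₀ hdF, one_mul]
    rw [this]
    exact mul_mem (Z.Wz_const s d) b2
  refine ⟨m1, m1', m2, m2', ?_⟩
  have E1 : (⟨H.Ti φi, m1⟩ : Z.Wi s) = ⟨Z.Ci.red ⟨H.T g, hTi⟩, a1⟩ := Subtype.ext ri.symm
  have E2 : (⟨Z.Cz.red ⟨H.T g, hTz⟩, a2⟩ : Z.Wz s) =
      ⟨algebraMap κ Fb d, Z.Wz_const s d⟩ * ⟨H.Tz φz, m2⟩ := Subtype.ext rz
  rw [E1, ea, E2, map_mul, Z.evz_const]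

/-! ### Toric data of `T h` and of `h ^ a` -/

namespace s59m_TorDat

variable {h : 𝓕} (t : s59m_TorDat Z m h)

/-- the toric data of `T h`: roots `Ti a_∞`, `Tz a_0`. -/
def hecke (H : s59m_HeckeOn Z) : s59m_TorDat Z m (H.T h) where
  hi := H.mem_i h t.hi
  hi' := by rw [← s59m_mh_inv H.T t.h_ne]; exact H.mem_i _ t.hi'
  hz := H.mem_z h t.hz
  hz' := by rw [← s59m_mh_inv H.T t.h_ne]; exact H.mem_z _ t.hz'
  nf := H.nf h t.nf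
  ci := Classical.choose (H.Ti_const t.ci)
  cz := Classical.choose (H.Tz_const t.cz)
  ai := H.Ti t.ai
  az := H.Tz t.az
  ci_ne := by
    intro h0
    have h1 := Classical.choose_spec (H.Ti_const t.ci)
    rw [h0, map_zero] at h1
    exact s59m_mh_ne_zero H.Ti t.ci_ne' h1
  cz_ne := by
    intro h0
    have h1 := Classical.choose_spec (H.Tz_const t.cz)
    rw [h0, map_zero] at h1
    exact s59m_mh_ne_zero H.Tz t.cz_ne' h1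
  ei := by
    rw [H.red_i h t.hi t.hi', t.ei, map_mul, map_pow]
    exact congrArg (· * _) (Classical.choose_spec (H.Ti_const t.ci))
  ez := by
    rw [H.red_z h t.hz t.hz', t.ez, map_mul, map_pow]
    exact congrArg (· * _) (Classical.choose_spec (H.Tz_const t.cz))

theorem hecke_ai (H : s59m_HeckeOn Z) : (t.hecke H).ai = H.Ti t.ai := rfl

theorem hecke_az (H : s59m_HeckeOn Z) : (t.hecke H).az = H.Tz t.az := rfl

/-- the toric data of `h ^ a`, `a : ℤ`. -/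
def zpow (a : ℤ) : s59m_TorDat Z m (h ^ a) where
  hi := s59m_zpow_mem _ t.hi t.hi' a
  hi' := by rw [← zpow_neg]; exact s59m_zpow_mem _ t.hi t.hi' (-a)
  hz := s59m_zpow_mem _ t.hz t.hz' a
  hz' := by rw [← zpow_neg]; exact s59m_zpow_mem _ t.hz t.hz' (-a)
  nf := s59m_nf_zpow t.nf a
  ci := t.ci ^ a
  cz := t.cz ^ a
  ai := t.ai ^ a
  az := t.az ^ a
  ci_ne := zpow_ne_zero a t.ci_ne
  cz_ne := zpow_ne_zero a t.cz_ne
  ei := by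
    rw [s59m_ev_zpow Z.Ci.O Z.Ci.red t.h_ne t.hi t.hi' a, t.ei, mul_zpow, map_zpow₀, ← zpow_natCast,
      ← zpow_natCast, ← zpow_mul, ← zpow_mul, mul_comm (m : ℤ) a]
  ez := by
    rw [s59m_ev_zpow Z.Cz.O Z.Cz.red t.h_ne t.hz t.hz' a, t.ez, mul_zpow, map_zpow₀, ← zpow_natCast,
      ← zpow_natCast, ← zpow_mul, ← zpow_mul, mul_comm (m : ℤ) a]

theorem zpow_ai (a : ℤ) : (t.zpow a).ai = t.ai ^ a := rfl

theorem zpow_az (a : ℤ) : (t.zpow a).az = t.az ^ a := rfl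

/-- roots glued up to a constant ⇒ trivial datum. -/
theorem cls_eq_one_of_glU (hm : m ≠ 0) (hg : s59m_GlU Z t.ai t.az) : t.cls hm = 1 := by
  obtain ⟨-, -, e, he, hgl⟩ := hg
  rw [cls, QuotientGroup.eq_one_iff]
  refine ⟨Units.mk0 e he, ?_⟩
  funext s
  apply Units.ext
  obtain ⟨h1, -, h2, -, ev⟩ := hgl s
  rw [s59m_diag_apply, val_coe, Units.val_mk0]
  have E1 : t.vi hm s = Z.evi s ⟨t.ai, h1⟩ := rfl
  have E2 : t.vz hm s = Z.evz s ⟨t.az, h2⟩ := rfl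
  rw [E1, E2, ev, mul_div_assoc, div_self, mul_one]
  rw [← E2]
  exact t.vz_ne hm s

end s59m_TorDat

/-! ### The eigen-transfer -/

/-- **the eigen-transfer** (see the header). -/
theorem s59m_eig_transfer (H : s59m_HeckeOn Z) (hm : m ≠ 0) {h : 𝓕} (t : s59m_TorDat Z m h) (a : ℤ)
    {φi φz : Fb} (hrep : s59m_GlU Z (φi / t.ai) (φz / t.az))
    (heig : s59m_GlU Z (H.Ti φi * φi ^ (-a)) (H.Tz φz * φz ^ (-a))) :
    ∃ (c : L₀) (g u : 𝓕), c ≠ 0 ∧ g ≠ 0 ∧ H.T h * h ^ (-a) = algebraMap L₀ 𝓕 c * g ^ m * u ∧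
      s33z_Cong Z 1 u ∧ s33z_NF Z u := by
  have hai := t.ai_ne hm
  have haz := t.az_ne hm
  have hφi : φi ≠ 0 := fun h0 => hrep.1 (by rw [h0, zero_div])
  have hφz : φz ≠ 0 := fun h0 => hrep.2.1 (by rw [h0, zero_div])
  have hTφi : H.Ti φi ≠ 0 := s59m_mh_ne_zero H.Ti hφi
  have hTφz : H.Tz φz ≠ 0 := s59m_mh_ne_zero H.Tz hφz
  -- `ψ = (a_∞ / φi, a_0 / φz)`
  have hψ : s59m_GlU Z (t.ai / φi) (t.az / φz) := by
    have := hrep.inv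
    rwa [inv_div, inv_div] at this
  have hTψ := hψ.hecke H
  have hψa := hψ.zpow (-a)
  have hall := (hTψ.mul hψa).mul heig
  have e1 : H.Ti (t.ai / φi) * (t.ai / φi) ^ (-a) * (H.Ti φi * φi ^ (-a)) = H.Ti t.ai * t.ai ^ (-a) := by
    rw [div_eq_mul_inv, map_mul, s59m_mh_inv H.Ti hφi, mul_zpow, inv_zpow]
    have := zpow_ne_zero (-a) hφi
    field_simp
  have e2 : H.Tz (t.az / φz) * (t.az / φz) ^ (-a) * (H.Tz φz * φz ^ (-a)) = H.Tz t.az * t.az ^ (-a) := by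
    rw [div_eq_mul_inv, map_mul, s59m_mh_inv H.Tz hφz, mul_zpow, inv_zpow]
    have := zpow_ne_zero (-a) hφz
    field_simp
  rw [e1, e2] at hall
  exact ((t.hecke H).mul (t.zpow (-a))).exists_cong_of_cls_eq_one hm
    (((t.hecke H).mul (t.zpow (-a))).cls_eq_one_of_glU hm hall)

end Fermat.Agent.Lib.S59
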