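/-
Programme (R2) / node **[CAR]**, route R-DS′ (helper9, prefix `s59m_`): **THE ABSTRACT ASSEMBLY OF THE LEVEL-`M q` HALF OF THE
GLUING-TORUS PACKAGE** (`Tor`, `D`, `D_inj`, `Eig`, `eig_tor` of `s59m_CarPkgE`) from a Σ-datum and a KUMMER FRAME.

* `s59m_KumFrame N m Z` : **a Kummer frame**: the relation `gen x h` ("`h ∈ 𝓕` is a Kummer generator of exponent `m` of
  `x ∈ J₀(N)`, over the base field `L₀` of the Σ-datum"), additive, with
  - `gen_congr` : two generators of the same class differ by `c g ^ m`, `c ∈ L₀ˣ`, `g ∈ 𝓕ˣ` (Hilbert 90 descent);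
  - `inj` : **[Σ-INJ]**: a class with a generator `c g ^ m u`, `u ≡ 1 mod ϖ` on both components, node-avoiding, is `0`;
* `s59m_KumFrame.Tor` : the TORIC POINTS (classes having a generator with toric data `s59m_TorDat Z m h`), a subgroup;
  `tor_exp`;
* `s59m_KumFrame.D : Tor →+ Additive (s59m_Ygl Z)` : **the datum map**; `D_inj` : it is INJECTIVE;
* `s59m_Rep Z φi φz y` : the pair of functions `(φi, φz)` on the residue curve REPRESENTS `y ∈ s59m_Ygl Z`;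
* `s59m_HeckeFrame F ℓ` : a Hecke correspondence on the Σ-datum compatible with `T_ℓ` on `J₀(N)`;
* `s59m_KumFrame.Eig HF a B u` : `u` has, for every `ℓ ∉ B`, a representing EIGEN-PAIR for `T_ℓ` with eigenvalue `a ℓ`;
* **`s59m_KumFrame.eig_tor`** : if `D t` is an eigen-datum, `t` is an eigen-point.
-/
import Fermat.Agent.Lib.S59.MCarHecke
import Fermat.Prelude.Def_ModularCurve_HeckeModule

set_option autoImplicit false
set_option linter.style.haveILetI false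
set_option linter.unusedSectionVars false

noncomputable section

namespace Fermat.Agent.Lib.S59

open AlgebraicCurve ModularCurve Fermat.Agent.Lib.FF Fermat.Agent.Lib.S33

variable {L₀ 𝓕' κ Fb : Type*} [Field L₀] [Field 𝓕'] [Algebra L₀ 𝓕'] [Field κ] [Field Fb] [Algebra κ Fb]
variable {D' : s33f_Datum L₀ 𝓕' κ Fb} {𝓕 : Type*} [Field 𝓕] [Algebra L₀ 𝓕]
variable {ι : Type*} {k : ι → Type*} [∀ s, Field (k s)] [∀ s, Algebra κ (k s)]

/-- **A Kummer frame** of exponent `m` at level `N` over the Σ-datum `Z` (see the header). -/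
structure s59m_KumFrame (N m : ℕ) [NeZero N] (Z : s33z_Datum D' 𝓕 ι k) where
  /-- `h` is a Kummer generator of `x` -/
  gen : JZero N → 𝓕 → Prop
  gen_zero : gen 0 1
  gen_add : ∀ {x x' : JZero N} {h h' : 𝓕}, gen x h → gen x' h' → gen (x + x') (h * h')
  gen_neg : ∀ {x : JZero N} {h : 𝓕}, gen x h → gen (-x) h⁻¹
  gen_tors : ∀ {x : JZero N} {h : 𝓕}, gen x h → m • x = 0
  /-- Hilbert 90 descent -/
  gen_congr : ∀ {x : JZero N} {h h' : 𝓕}, gen x h → gen x h' →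
    ∃ (c : L₀) (g : 𝓕), c ≠ 0 ∧ g ≠ 0 ∧ h' = algebraMap L₀ 𝓕 c * g ^ m * h
  /-- **[Σ-INJ]** -/
  inj : ∀ {x : JZero N} {h : 𝓕}, gen x h → ∀ (c : L₀) (g u : 𝓕), c ≠ 0 → g ≠ 0 →
    h = algebraMap L₀ 𝓕 c * g ^ m * u → s33z_Cong Z 1 u → s33z_NF Z u → x = 0

variable {N m : ℕ} [NeZero N] {Z : s33z_Datum D' 𝓕 ι k}

namespace s59m_KumFrame

variable (F : s59m_KumFrame N m Z)

theorem gen_zsmul {x : JZero N} {h : 𝓕} (hx : F.gen x h) (a : ℤ) : F.gen (a • x) (h ^ a) := by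
  induction a using Int.induction_on with
  | zero => rw [zero_zsmul, zpow_zero]; exact F.gen_zero
  | succ n ih =>
    by_cases h0 : h = 0
    · -- degenerate: `h = 0`
      subst h0
      have h1 : (0 : 𝓕) ^ ((n : ℤ) + 1) = 0 ^ (n : ℤ) * 0 := by
        rw [mul_zero]
        exact zero_zpow _ (by omega)
      rw [add_zsmul, one_zsmul, h1]
      exact F.gen_add ih hx
    · rw [add_zsmul, one_zsmul, zpow_add_one₀ h0]
      exact F.gen_add ih hx
  | pred n ih =>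
    by_cases h0 : h = 0
    · subst h0
      have h1 : (0 : 𝓕) ^ (-(n : ℤ) - 1) = 0 ^ (-(n : ℤ)) * 0⁻¹ := by
        rw [inv_zero, mul_zero]
        exact zero_zpow _ (by omega)
      rw [sub_zsmul, one_zsmul, h1]
      exact F.gen_add ih (F.gen_neg hx)
    · rw [sub_zsmul, one_zsmul, zpow_sub_one₀ h0]
      exact F.gen_add ih (F.gen_neg hx)

/-- **the toric points.** -/
def Tor : AddSubgroup (JZero N) where
  carrier := {x | ∃ h : 𝓕, F.gen x h ∧ Nonempty (s59m_TorDat Z m h)}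
  zero_mem' := by
    refine ⟨1, F.gen_zero, ⟨?_⟩⟩
    have t := s59m_TorDat.ofUnit (Z := Z) (m := m) (c := (1 : L₀)) D'.A₀.one_mem
      (by rw [inv_one]; exact D'.A₀.one_mem) one_ne_zero (g := (1 : 𝓕)) Z.Ci.O.one_mem
      (by rw [inv_one]; exact Z.Ci.O.one_mem) Z.Cz.O.one_mem (by rw [inv_one]; exact Z.Cz.O.one_mem)
      s33z_nf_one
    have e : algebraMap L₀ 𝓕 1 * (1 : 𝓕) ^ m = 1 := by rw [map_one, one_pow, one_mul]
    exact e ▸ t
  add_mem' := by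
    rintro x x' ⟨h, hx, ⟨t⟩⟩ ⟨h', hx', ⟨t'⟩⟩
    exact ⟨h * h', F.gen_add hx hx', ⟨t.mul t'⟩⟩
  neg_mem' := by
    rintro x ⟨h, hx, ⟨t⟩⟩
    exact ⟨h⁻¹, F.gen_neg hx, ⟨t.inv⟩⟩

theorem tor_exp {x : JZero N} (hx : x ∈ F.Tor) : m • x = 0 := by
  obtain ⟨h, hg, -⟩ := hx
  exact F.gen_tors hg

/-- a generator with toric data of a toric point. -/
def torGen (x : F.Tor) : 𝓕 := Classical.choose x.2

theorem torGen_gen (x : F.Tor) : F.gen (x : JZero N) (F.torGen x) := (Classical.choose_spec x.2).1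

/-- its toric data. -/
def torDat (x : F.Tor) : s59m_TorDat Z m (F.torGen x) := (Classical.choose_spec x.2).2.some

/-- the datum of a toric point does not depend on the generator. -/
theorem cls_indep (hm : m ≠ 0) (hrc : s59m_RootConst κ Fb m) {x : JZero N} {h h' : 𝓕}
    (hx : F.gen x h) (hx' : F.gen x h') (t : s59m_TorDat Z m h) (t' : s59m_TorDat Z m h') :
    t'.cls hm = t.cls hm := by
  obtain ⟨c, g, hc, hg, e⟩ := F.gen_congr hx hx'
  exact t.cls_congr hm hrc t' hc hg e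

/-- **the datum map.** -/
def D (hm : m ≠ 0) (hrc : s59m_RootConst κ Fb m) : F.Tor →+ Additive (s59m_Ygl Z) where
  toFun x := Additive.ofMul ((F.torDat x).cls hm)
  map_zero' := by
    have t1 : s59m_TorDat Z m (1 : 𝓕) := by
      have t := s59m_TorDat.ofUnit (Z := Z) (m := m) (c := (1 : L₀)) D'.A₀.one_mem
        (by rw [inv_one]; exact D'.A₀.one_mem) one_ne_zero (g := (1 : 𝓕)) Z.Ci.O.one_mem
        (by rw [inv_one]; exact Z.Ci.O.one_mem) Z.Cz.O.one_mem (by rw [inv_one]; exact Z.Cz.O.one_mem)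
        s33z_nf_one
      have e : algebraMap L₀ 𝓕 1 * (1 : 𝓕) ^ m = 1 := by rw [map_one, one_pow, one_mul]
      exact e ▸ t
    have h1 := F.cls_indep hm hrc (F.torGen_gen 0) F.gen_zero (F.torDat 0) t1
    -- `t1.cls = 1`: the square of the class is the class
    have h2 : (t1.mul t1).cls hm = t1.cls hm :=
      t1.cls_congr hm hrc (t1.mul t1) (c := 1) (g := 1) one_ne_zero one_ne_zero (by
        rw [map_one, one_pow, one_mul, one_mul])
    rw [s59m_TorDat.cls_mul] at h2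
    have h3 : t1.cls hm = 1 := by
      have h := congrArg (fun z => (t1.cls hm)⁻¹ * z) h2
      simp only [inv_mul_cancel_left, inv_mul_cancel] at h
      exact h
    show Additive.ofMul ((F.torDat 0).cls hm) = 0
    rw [← h1, h3]
    rfl
  map_add' x y := by
    have h1 := F.cls_indep hm hrc (F.torGen_gen (x + y))
      (F.gen_add (F.torGen_gen x) (F.torGen_gen y)) (F.torDat (x + y))
      ((F.torDat x).mul (F.torDat y))
    show Additive.ofMul ((F.torDat (x + y)).cls hm) =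
      Additive.ofMul ((F.torDat x).cls hm) + Additive.ofMul ((F.torDat y).cls hm)
    rw [← h1, s59m_TorDat.cls_mul]
    rfl

theorem D_apply (hm : m ≠ 0) (hrc : s59m_RootConst κ Fb m) (x : F.Tor) {h : 𝓕}
    (hx : F.gen (x : JZero N) h) (t : s59m_TorDat Z m h) :
    F.D hm hrc x = Additive.ofMul (t.cls hm) := by
  show Additive.ofMul ((F.torDat x).cls hm) = _
  rw [F.cls_indep hm hrc hx (F.torGen_gen x) t (F.torDat x)]

/-- **the datum map is injective.** -/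
theorem D_inj (hm : m ≠ 0) (hrc : s59m_RootConst κ Fb m) : Function.Injective (F.D hm hrc) := by
  rw [injective_iff_map_eq_zero]
  intro x hx
  have h1 : (F.torDat x).cls hm = 1 := hx
  obtain ⟨c, g, u, hc, hg, e, hcong, hnf⟩ := (F.torDat x).exists_cong_of_cls_eq_one hm h1
  exact Subtype.ext (F.inj (F.torGen_gen x) c g u hc hg e hcong hnf)

end s59m_KumFrame

/-! ### Representing pairs -/

/-- the pair `(φi, φz)` of functions on the residue curve (units at all branches) REPRESENTS `y` in the gluing torus: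
`y = [ev_∞,s φi / ev_0,s φz]`. -/
def s59m_Rep (Z : s33z_Datum D' 𝓕 ι k) (φi φz : Fb) (y : s59m_Ygl Z) : Prop :=
  φi ≠ 0 ∧ φz ≠ 0 ∧ ∃ v : ∀ s, (k s)ˣ, y = QuotientGroup.mk v ∧
    ∀ s : ι, ∃ (h1 : φi ∈ Z.Wi s) (_ : φi⁻¹ ∈ Z.Wi s) (h2 : φz ∈ Z.Wz s) (_ : φz⁻¹ ∈ Z.Wz s),
      Z.evi s ⟨φi, h1⟩ = ((v s : (k s)ˣ) : k s) * Z.evz s ⟨φz, h2⟩

/-- the roots of toric data represent the datum. -/
theorem s59m_TorDat.rep (hm : m ≠ 0) {h : 𝓕} (t : s59m_TorDat Z m h) :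
    s59m_Rep Z t.ai t.az (t.cls hm) := by
  refine ⟨t.ai_ne hm, t.az_ne hm, t.val hm, rfl, fun s =>
    ⟨t.ai_mem hm s, t.ai_inv_mem hm s, t.az_mem hm s, t.az_inv_mem hm s, ?_⟩⟩
  rw [t.val_coe]
  exact (div_mul_cancel₀ _ (t.vz_ne hm s)).symm

/-- two pairs representing the same class differ by a pair glued up to a constant. -/
theorem s59m_Rep.glU {φi φz ψi ψz : Fb} {y : s59m_Ygl Z} (h1 : s59m_Rep Z φi φz y)
    (h2 : s59m_Rep Z ψi ψz y) : s59m_GlU Z (φi / ψi) (φz / ψz) := by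
  obtain ⟨a1, a2, v, ev, hv⟩ := h1
  obtain ⟨b1, b2, w, ew, hw⟩ := h2
  have hvw : (QuotientGroup.mk v : s59m_Ygl Z) = QuotientGroup.mk w := ev.symm.trans ew
  rw [QuotientGroup.eq] at hvw
  obtain ⟨e, he⟩ := hvw
  refine ⟨div_ne_zero a1 b1, div_ne_zero a2 b2, ((e : κˣ) : κ)⁻¹, inv_ne_zero e.ne_zero, fun s => ?_⟩
  obtain ⟨m1, m1', m2, m2', e1⟩ := hv s
  obtain ⟨n1, n1', n2, n2', e2⟩ := hw s
  have hes : algebraMap κ (k s) ((e : κˣ) : κ) = ((v s : (k s)ˣ) : k s)⁻¹ * ((w s : (k s)ˣ) : k s) := by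
    have := congrArg (fun f => ((f s : (k s)ˣ) : k s)) he
    simpa [s59m_diag_apply] using this
  have q1 : φi / ψi ∈ Z.Wi s := by rw [div_eq_mul_inv]; exact mul_mem m1 n1'
  have q1' : (φi / ψi)⁻¹ ∈ Z.Wi s := by rw [inv_div, div_eq_mul_inv]; exact mul_mem n1 m1'
  have q2 : φz / ψz ∈ Z.Wz s := by rw [div_eq_mul_inv]; exact mul_mem m2 n2'
  have q2' : (φz / ψz)⁻¹ ∈ Z.Wz s := by rw [inv_div, div_eq_mul_inv]; exact mul_mem n2 m2'
  refine ⟨q1, q1', q2, q2', ?_⟩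
  have P1 : Z.evi s ⟨φi / ψi, q1⟩ * Z.evi s ⟨ψi, n1⟩ = Z.evi s ⟨φi, m1⟩ := by
    rw [← map_mul]
    exact congrArg _ (Subtype.ext (div_mul_cancel₀ _ b1))
  have P2 : Z.evz s ⟨φz / ψz, q2⟩ * Z.evz s ⟨ψz, n2⟩ = Z.evz s ⟨φz, m2⟩ := by
    rw [← map_mul]
    exact congrArg _ (Subtype.ext (div_mul_cancel₀ _ b2))
  have hψi0 : Z.evi s ⟨ψi, n1⟩ ≠ 0 := s59m_ev_ne_zero (Z.Wi s) (Z.evi s) n1 n1' b1
  have hψz0 : Z.evz s ⟨ψz, n2⟩ ≠ 0 := s59m_ev_ne_zero (Z.Wz s) (Z.evz s) n2 n2' b2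
  have hv0 : ((v s : (k s)ˣ) : k s) ≠ 0 := (v s).ne_zero
  have hw0 : ((w s : (k s)ˣ) : k s) ≠ 0 := (w s).ne_zero
  rw [map_inv₀, hes]
  rw [e1, e2, ← P2] at P1
  field_simp
  field_simp at P1
  linear_combination P1

/-! ### Hecke frames and eigen-data -/

/-- a Hecke correspondence on the Σ-datum compatible with `T_ℓ` on `J₀(N)`. -/
structure s59m_HeckeFrame (F : s59m_KumFrame N m Z) (ℓ : Nat.Primes) where
  /-- the correspondence -/
  H : s59m_HeckeOn Z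
  gen_hecke : ∀ {x : JZero N} {h : 𝓕}, F.gen x h → F.gen (heckeOperatorBar N ℓ x) (H.T h)

namespace s59m_KumFrame

variable (F : s59m_KumFrame N m Z)

/-- **eigen-data**: for every `ℓ ∉ B` (away from `bad`) there is a representing eigen-pair. -/
def Eig (bad : ℕ) (HF : ∀ ℓ : Nat.Primes, ¬ (ℓ : ℕ) ∣ bad → s59m_HeckeFrame F ℓ)
    (a : ℕ → ℤ) (B : Finset ℕ) (y : s59m_Ygl Z) : Prop :=
  ∀ (ℓ : Nat.Primes) (hℓ : ¬ (ℓ : ℕ) ∣ bad), (ℓ : ℕ) ∉ B → ∃ φi φz : Fb, s59m_Rep Z φi φz y ∧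
    s59m_GlU Z ((HF ℓ hℓ).H.Ti φi * φi ^ (-(a ℓ))) ((HF ℓ hℓ).H.Tz φz * φz ^ (-(a ℓ)))

/-- **a toric point whose datum is an eigen-datum is an eigen-point.** -/
theorem eig_tor (hm : m ≠ 0) (hrc : s59m_RootConst κ Fb m) (bad : ℕ)
    (HF : ∀ ℓ : Nat.Primes, ¬ (ℓ : ℕ) ∣ bad → s59m_HeckeFrame F ℓ) (a : ℕ → ℤ) (B : Finset ℕ)
    (hB : ∀ r : ℕ, r.Prime → r ∣ bad → r ∈ B) (t : F.Tor)
    (ht : F.Eig bad HF a B (Additive.toMul (F.D hm hrc t))) (ℓ : Nat.Primes) (hℓB : (ℓ : ℕ) ∉ B) :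
    heckeOperatorBar N ℓ (t : JZero N) = a ℓ • (t : JZero N) := by
  have hℓ : ¬ (ℓ : ℕ) ∣ bad := fun h => hℓB (hB ℓ ℓ.2 h)
  obtain ⟨φi, φz, hrep, heig⟩ := ht ℓ hℓ hℓB
  have hD : Additive.toMul (F.D hm hrc t) = (F.torDat t).cls hm := rfl
  rw [hD] at hrep
  have hgl := hrep.glU ((F.torDat t).rep hm)
  obtain ⟨c, g, u, hc, hg, e, hcong, hnf⟩ :=
    s59m_eig_transfer (HF ℓ hℓ).H hm (F.torDat t) (a ℓ) hgl heig
  have hgen : F.gen (heckeOperatorBar N ℓ (t : JZero N) + (-(a ℓ)) • (t : JZero N))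
      ((HF ℓ hℓ).H.T (F.torGen t) * F.torGen t ^ (-(a ℓ))) :=
    F.gen_add ((HF ℓ hℓ).gen_hecke (F.torGen_gen t)) (F.gen_zsmul (F.torGen_gen t) _)
  have h0 := F.inj hgen c g u hc hg e hcong hnf
  rw [neg_zsmul, ← sub_eq_add_neg, sub_eq_zero] at h0
  exact h0

end s59m_KumFrame

end Fermat.Agent.Lib.S59
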