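/-
Programme (R2), Stage A / node **[CAR]** (Carayol's lemma at finite level: `q² ∥ M₀ → q ∥ M₀/q`), helper8
(prefix `s59c_`).  **TYPED CONTRACT + CHECKED TOP WIRING** `s59c_CAR_of : s59c_Geo → s59_CAR`.

Route = the type-free GEOMETRIC one (lead #3597, helper4 #3596): "Mazur's principle at level `M q²`" on the
three Gauss valuations of S36 (`s36m_VV3`): NO case distinction principal series / supercuspidal.

Setting: `p` odd prime, `W` semistable, `W[p]` irreducible, `q ≠ p` prime, level `M q q` with `q ∤ M`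
(`M` ARBITRARY: not squarefree, `p ∣ M` allowed — [CAR] is applied while other squares are still in the level).

* PROVED here (soft):
  - `s59c_levelOcc_raise` [CAR-OLD] : `s44i_LevelOcc M → s44i_LevelOcc (M q)` (`q ∤ M`; `q`-stabilisation `s58q_stab`,
    no squarefreeness needed);
  - `s59c_fixed_exists` [CAR-X] : a non-zero eigen-point of `J₀(N)[p]` for the system of `W` gives a non-zero
    eigen-point fixed by `H = ker(G_ℚ → Aut(W[p] × μ_p))` AND by the inertia group at `𝔔 ∣ q`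
    (`ρ̄|I_q` is only UNIPOTENT: the inertia group fixes a point `Q₀ ≠ 0` of `W[p]` — `s58m_ellMultFix` at a
    multiplicative prime, `s58e_ellUnram` at a good prime — so every `g ∈ S = Stab(Q₀) ∩ ker χ_p` is unipotent of
    level two on the eigen-module by Eichler–Shimura + Chebotarev `s44s_dens`, and Kolchin `s44s_fixed_ne`);
  - `s59c_CAR_at`, `s59c_CAR_of` : the wiring, `W`-form, from the ONE geometric leaf `s59c_Geo`.
* OPEN (the whole content): `s59c_Geo` = `s59c_GeoAt` for all `(p, M, q)`: pointwise, `W`-free: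
  a non-zero eigen-`p`-torsion point `x` of `J₀(M q²)` (non-Eisenstein at one `ℓ₀`), rational over a finite normal
  `L` and FIXED BY THE INERTIA GROUP at `𝔔 ∣ q`, gives a non-zero eigen-point at level `M` or at level `M q`.
  Sub-leaves (prose, see the board post): [FIN3] `x` is finite at the three Gauss valuations (component group
  Eisenstein); [RED3] one of the three reductions to `Pic⁰(X̃₀(M))[p]` is non-zero ⇒ level `M`, or `x` is toric;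
  [TOR3] toric ⇒ `(α_*, β_*) x ≠ 0` in `J₀(M q)²` (`s36w_alphaPush (M * q) q`, `s36w_betaPush (M * q) q`).
-/
import Fermat.Agent.Lib.S59.MAll
import Fermat.Agent.Lib.S58.QStabForm
import Fermat.Agent.Lib.S58.MultFixClose
import Fermat.Agent.Lib.S58.E1Close
import Fermat.Agent.Lib.S58.OExact
import Fermat.Agent.Lib.S36.Defs

set_option autoImplicit false
set_option linter.style.haveILetI false
set_option linter.unusedSectionVars false
set_option linter.unusedVariables false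

namespace Fermat.Agent.Lib.S59

open ModularCurve AlgebraicCurve Fermat.Agent.Lib.FF Fermat.Agent.Lib.S28 Fermat.Agent.Lib.S29
  Fermat.Agent.Lib.S30 Fermat.Agent.Lib.S37 Fermat.Agent.Lib.S35 Fermat.Agent.Lib.S33
  Fermat.Agent.Lib.S44 Fermat.Agent.Lib.S58 Fermat.Agent.Lib.S36 WeierstrassCurve

noncomputable section

local notation "Kb" => AlgebraicClosure ℚ
local notation "Γℚ" => (AlgebraicClosure ℚ ≃ₐ[ℚ] AlgebraicClosure ℚ)

/-! ### The geometric leaf -/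

/-- **[CAR-GEO] at the level `(M, q)`, exponent `p`** (pointwise, `W`-free): `x ∈ J₀(M q²)[p]`, `x ≠ 0`, an
eigen-point for the system `a` away from `B ⊇ {r ∣ M q p}`, non-Eisenstein at one prime `ℓ₀ ∉ B`, rational over
a finite normal `L` and fixed by the inertia group at `𝔔 ∣ q` (`A` in the code).  Then the system `a` has a
non-zero eigen-point at level `M` (one of the three reductions of `x` to `Pic⁰(X̃₀(M))[p]` is non-zero) or at
level `M q` (`x` is toric, and then `α_* x ≠ 0` or `β_* x ≠ 0`). -/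
def s59c_GeoAt (p : ℕ) [Fact p.Prime] (M q : ℕ) [NeZero M] [NeZero q] (hq : q.Prime)
    (hqM : ¬ q ∣ M) : Prop :=
  ∀ (a : ℕ → ℤ) (B : Finset ℕ), (∀ r : ℕ, r.Prime → r ∣ M * q * p → r ∈ B) →
    (∃ ℓ₀ : Nat.Primes, (ℓ₀ : ℕ) ∉ B ∧ ¬ (p : ℤ) ∣ a ℓ₀ - ((ℓ₀ : ℕ) + 1)) →
  ∀ (A : ValuationSubring Kb), A.LiesOverPrime q →
  ∀ (L : IntermediateField ℚ Kb) [FiniteDimensional ℚ ↥L] [Normal ℚ ↥L],
  ∀ x : JZero (M * q * q), x ≠ 0 → s44i_Eig (M * q * q) p a B x →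
    (∀ σ : Γℚ, (∀ b ∈ L, σ b = b) → σ • x = x) →
    (∀ τ ∈ A.inertiaSubgroupIn ℚ, τ • x = x) →
    (∃ y : JZero M, y ≠ 0 ∧ s44i_Eig M p a B y) ∨
      (∃ y : JZero (M * q), y ≠ 0 ∧ s44i_Eig (M * q) p a B y)

/-- **[CAR-GEO]**: all levels `(M, q)`, `q ∤ M`, all odd `p ≠ q`. -/
def s59c_Geo : Prop :=
  ∀ (p : ℕ) [Fact p.Prime], p ≠ 2 →
  ∀ (M : ℕ) [NeZero M] (q : ℕ) [NeZero q] (hq : q.Prime) (hqM : ¬ q ∣ M), q ≠ p →
    s59c_GeoAt p M q hq hqM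

/-! ### [CAR-OLD]: raising the level by a prime `q ∤ M` -/

/-- **[CAR-OLD]** `q`-stabilisation: the eigen-system occurs at level `M q` as soon as it occurs at level `M`
(`q ∤ M`, `q ∈ B`; `M` arbitrary). -/
theorem s59c_levelOcc_raise {M q p : ℕ} [NeZero M] [NeZero q] (hq : q.Prime) (hqM : ¬ q ∣ M)
    {a : ℕ → ℤ} {B : Finset ℕ} (hqB : q ∈ B) (h : s44i_LevelOcc M p a B) :
    s44i_LevelOcc (M * q) p a B := by
  obtain ⟨g, 𝔪, hg, hmax, hpm, hc⟩ := h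
  obtain ⟨β, hβ⟩ := s58q_exists_root (ModularFormClass.qCoeff g q) (q : ℂ)
  obtain ⟨h1, h2⟩ := s58q_stab hq hqM g hg β hβ
  refine ⟨s58q_stabForm M q g β, 𝔪, h1, hmax, hpm, fun ℓ hℓ hℓB => ?_⟩
  obtain ⟨α, hα, hαm⟩ := hc ℓ hℓ hℓB
  refine ⟨α, ?_, hαm⟩
  rw [hα, h2 ℓ hℓ]
  rintro rfl
  exact hℓB hqB

/-! ### [CAR-X]: a non-zero eigen-point fixed by `H` and by the inertia group -/

section Fixed

variable (W : WeierstrassCurve ℤ) (hΔ : W.Δ ≠ 0) (p : ℕ) [hp : Fact p.Prime] (N : ℕ) [NeZero N]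
  (B : Finset ℕ)

/-- the stabiliser of a point `Q₀` of `W(ℚ̄)` inside the kernel of the mod `p` cyclotomic character. -/
def s59c_S (Q₀ : s58_Pt W) : Subgroup Γℚ where
  carrier := {g | g • Q₀ = Q₀ ∧ s33r_chi p g = 1}
  one_mem' := ⟨one_smul _ Q₀, map_one _⟩
  mul_mem' := by
    rintro g h ⟨hg1, hg2⟩ ⟨hh1, hh2⟩
    refine ⟨?_, by rw [map_mul, hg2, hh2, one_mul]⟩
    rw [mul_smul, hh1, hg1]
  inv_mem' := by
    rintro g ⟨hg1, hg2⟩
    refine ⟨?_, by rw [map_inv, hg2, inv_one]⟩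
    rw [inv_smul_eq_iff, hg1]

include hΔ in
/-- **[CAR-X]** (semistable `W`, `q ≠ p`): the eigen-module of `W` in `J₀(N)[p]`, if non-zero, contains a non-zero
point fixed by `H` and by the inertia group at `𝔔 ∣ q`. -/
theorem s59c_fixed_exists (hp2 : p ≠ 2) (hss : W.IsSemistableModel) (hpB : p ∈ B)
    (hNB : ∀ r : ℕ, r.Prime → r ∣ N → r ∈ B)
    (hΔB : ∀ r : ℕ, r.Prime → (r : ℤ) ∣ W.Δ → r ∈ B)
    (q : ℕ) (hq : q.Prime) (hqp : q ≠ p) (A : ValuationSubring Kb) (hA : A.LiesOverPrime q)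
    (hex : ∃ x : JZero N, x ≠ 0 ∧ s44i_Eig N p (fun ℓ => W.apOfModel ℓ) B x) :
    ∃ y : JZero N, y ≠ 0 ∧ s44i_Eig N p (fun ℓ => W.apOfModel ℓ) B y ∧
      (∀ h ∈ s59m_H W p, h • y = y) ∧ (∀ τ ∈ A.inertiaSubgroupIn ℚ, τ • y = y) := by
  classical
  have hpP : p.Prime := hp.out
  haveI : NeZero p := ⟨hpP.ne_zero⟩
  set a : ℕ → ℤ := fun ℓ => W.apOfModel ℓ with ha
  set Y : Submodule ℤ (JZero N) := s44s_Y N p B a with hY
  have hstab : s33r_Stable N p B Y := s44s_Y_stable N p B a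
  haveI : Finite ↥Y := by
    haveI := s30a_finite_torsion (N := N) p
    refine Finite.of_injective
      (fun y : ↥Y => (⟨(y : JZero N), by
        rw [AlgebraicCurve.Pic0.mem_torsion, natCast_zsmul]; exact y.2.1⟩ : s29k_Jp N p)) ?_
    intro y y' h
    exact Subtype.ext (congrArg (fun z : s29k_Jp N p => (z : JZero N)) h)
  -- a non-zero point of `W[p]` fixed by the inertia group
  obtain ⟨Q₀, hQ₀, hQ₀', hQ₀I⟩ : ∃ Q₀ : s58_Pt W, p • Q₀ = 0 ∧ Q₀ ≠ 0 ∧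
      ∀ τ ∈ A.inertiaSubgroupIn ℚ, τ • Q₀ = Q₀ := by
    by_cases hbad : (q : ℤ) ∣ W.Δ
    · obtain ⟨P₀, h1, h2, h3⟩ := s58m_ellMultFix W hΔ q hq hbad (hss q hq hbad) p hpP hp2
        (Ne.symm hqp) 0 A hA
      rw [zero_add, pow_one] at h1
      rw [pow_zero, one_smul] at h2
      exact ⟨P₀, h1, h2, h3⟩
    · obtain ⟨P₀, h1, h2⟩ := s58o_ellExact W hΔ p hpP 0
      rw [zero_add, pow_one] at h1
      rw [pow_zero, one_smul] at h2
      refine ⟨P₀, h1, h2, fun τ hτ => ?_⟩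
      exact s58e_ellUnram W q hq hbad p hpP hp2 (Ne.symm hqp) 1 A hA τ hτ P₀
        (by rw [pow_one]; exact h1)
  have hunip : ∀ g ∈ s59c_S W p Q₀, ∀ y ∈ Y, g • g • y + y = 2 • g • y := by
    intro g hg y hy
    obtain ⟨hV, hχ1⟩ := hg
    have hV' : g⁻¹ • Q₀ = Q₀ := by rw [inv_smul_eq_iff, hV]
    have hχ : (((s33r_chi p g : (ZMod p)ˣ) : ZMod p)) = 1 := by rw [hχ1, Units.val_one]
    have hn : (((s33r_chi p g : (ZMod p)ˣ) : ZMod p)).val = 1 := by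
      rw [hχ]
      haveI : Fact (1 < p) := ⟨hpP.one_lt⟩
      exact ZMod.val_one p
    obtain ⟨s, hsY, hsW⟩ := s44s_dens W hΔ hp2 hpB hNB hΔB hstab
      (fun ℓ hℓ y hy => s44s_Y_eig N p B a ℓ hℓ y hy) g
    rw [hn] at hsY hsW
    have h2 := hsW Q₀ hQ₀
    rw [hV, hV', one_smul] at h2
    have h3 : (s - 2) • Q₀ = 0 := by
      rw [sub_smul, ← h2, two_smul]
      abel
    obtain ⟨c, hc⟩ := s44s_dvd_of_zsmul_eq_zero hpP hQ₀ hQ₀' h3
    have hy' : g • y ∈ Y := hstab.gal g y hy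
    have h4 := hsY (g • y) hy'
    rw [inv_smul_smul, one_smul] at h4
    have hs : s = 2 + (p : ℤ) * c := by rw [← hc]; ring
    have h5 : s • (g • y) = 2 • (g • y) := by
      rw [hs, add_zsmul, mul_zsmul', natCast_zsmul, hstab.tors (g • y) hy', zsmul_zero,
        add_zero]
      exact ofNat_zsmul _ 2
    rw [h4, h5]
  obtain ⟨x, hx0, hx⟩ := hex
  obtain ⟨y, hyY, hy0, hyfix⟩ := s44s_fixed_ne p hstab.gal hstab.tors ⟨x, hx, hx0⟩
    (s59c_S W p Q₀) hunip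
  refine ⟨y, hy0, hyY, fun h hh => hyfix h ⟨hh.1 Q₀ hQ₀, hh.2⟩, fun τ hτ => hyfix τ ⟨hQ₀I τ hτ, ?_⟩⟩
  have h1 : s30y_eps p τ = 1 := (s30y_cycDatum p).unram q hq hqp A hA τ hτ
  show (Units.map (PadicInt.toZMod (p := p)).toMonoidHom) (s30y_eps p τ) = 1
  rw [h1, map_one]

end Fixed

/-! ### The wiring -/

/-- **[CAR] at the level `(M, q)`, `W`-form**, from [CAR-GEO] at `(M, q)`. -/
theorem s59c_CAR_at {p : ℕ} [hpF : Fact p.Prime] (hp2 : p ≠ 2)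
    (W : WeierstrassCurve ℤ) (hΔ : W.Δ ≠ 0) (hss : W.IsSemistableModel)
    (hirr : W.ModRepIsIrreducible p)
    (M q : ℕ) [NeZero M] [NeZero q] (hq : q.Prime) (hqM : ¬ q ∣ M) (hqp : q ≠ p)
    (hGeo : s59c_GeoAt p M q hq hqM)
    (hres : W.IsResiduallyModularOfLevel p (M * q * q)) :
    W.IsResiduallyModularOfLevel p (M * q) := by
  classical
  have hp : p.Prime := hpF.out
  have hM0 : M ≠ 0 := NeZero.ne M
  set a : ℕ → ℤ := fun ℓ => W.apOfModel ℓ with ha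
  have hprod : M * q * p * W.Δ.natAbs ≠ 0 :=
    Nat.mul_ne_zero (Nat.mul_ne_zero (Nat.mul_ne_zero hM0 hq.ne_zero) hp.ne_zero)
      (Int.natAbs_ne_zero.mpr hΔ)
  set B : Finset ℕ := (M * q * p * W.Δ.natAbs).primeFactors with hB
  have hB1 : ∀ r : ℕ, r.Prime → r ∣ M * q * p → r ∈ B := fun r hr hd =>
    Nat.mem_primeFactors.mpr ⟨hr, hd.mul_right _, hprod⟩
  have hpB : p ∈ B := hB1 p hp (Dvd.intro_left _ rfl)
  have hNB : ∀ r : ℕ, r.Prime → r ∣ M * q → r ∈ B := fun r hr hd => hB1 r hr (hd.mul_right _)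
  have hMB : ∀ r : ℕ, r.Prime → r ∣ M → r ∈ B := fun r hr hd => hNB r hr (hd.mul_right _)
  have hqB : q ∈ B := hNB q hq (Dvd.intro_left _ rfl)
  have hNqB : ∀ r : ℕ, r.Prime → r ∣ M * q * q → r ∈ B := by
    intro r hr hd
    rcases (Nat.Prime.dvd_mul hr).mp hd with h | h
    · exact hNB r hr h
    · rw [(Nat.prime_dvd_prime_iff_eq hr hq).mp h]
      exact hqB
  have hNqpB : ∀ r : ℕ, r.Prime → r ∣ M * q * q * p → r ∈ B := by
    intro r hr hd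
    rcases (Nat.Prime.dvd_mul hr).mp hd with h | h
    · exact hNqB r hr h
    · rw [(Nat.prime_dvd_prime_iff_eq hr hp).mp h]
      exact hpB
  have hΔB : ∀ r : ℕ, r.Prime → (r : ℤ) ∣ W.Δ → r ∈ B := fun r hr hd =>
    Nat.mem_primeFactors.mpr ⟨hr, (Int.natCast_dvd.mp hd).mul_left _, hprod⟩
  have hBmem : ∀ ℓ : ℕ, ℓ ∈ B → ℓ ∣ M ∨ ℓ = q ∨ ℓ = p ∨ (ℓ : ℤ) ∣ W.Δ := by
    intro ℓ hmem
    have hℓ := (Nat.mem_primeFactors.mp hmem).1
    have hd := (Nat.mem_primeFactors.mp hmem).2.1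
    rcases (Nat.Prime.dvd_mul hℓ).mp hd with h | h
    · rcases (Nat.Prime.dvd_mul hℓ).mp h with h | h
      · rcases (Nat.Prime.dvd_mul hℓ).mp h with h | h
        · exact Or.inl h
        · exact Or.inr (Or.inl ((Nat.prime_dvd_prime_iff_eq hℓ hq).mp h))
      · exact Or.inr (Or.inr (Or.inl ((Nat.prime_dvd_prime_iff_eq hℓ hp).mp h)))
    · exact Or.inr (Or.inr (Or.inr (Int.natCast_dvd.mpr h)))
  have hBout : ∀ ℓ : ℕ, ℓ.Prime → ℓ ∉ B →
      W.IsGoodPrimeFor ℓ ∧ ¬ ℓ ∣ M * q * q ∧ ℓ ≠ p := by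
    intro ℓ hℓ hℓB
    refine ⟨fun hbad => hℓB (hΔB ℓ hℓ hbad), fun hd => hℓB (hNqB ℓ hℓ hd), ?_⟩
    rintro rfl
    exact hℓB hpB
  -- a non-Eisenstein prime outside `B`
  obtain ⟨ℓ₁, hℓ₁, hℓ₁B, -, hℓ₁E⟩ := s59m_nonEis hΔ hp2 hirr B
  have hne : ∃ ℓ₀ : Nat.Primes, (ℓ₀ : ℕ) ∉ B ∧ ¬ (p : ℤ) ∣ a ℓ₀ - ((ℓ₀ : ℕ) + 1) :=
    ⟨⟨ℓ₁, hℓ₁⟩, hℓ₁B, hℓ₁E⟩
  -- [M1] at level `M q q`
  obtain ⟨f, 𝔪, hf, hmax, hpm, hcong⟩ := hres
  obtain ⟨x₀, hx₀, hE₀⟩ := s44s_eigExists (M * q * q) f hf p hp 𝔪 hmax hpm a B hNqpB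
    (fun ℓ hℓ hℓB => hcong ℓ hℓ (hBout ℓ hℓ hℓB).1 (hBout ℓ hℓ hℓB).2.1 (hBout ℓ hℓ hℓB).2.2)
  -- [CAR-X]
  obtain ⟨A, σ₀, hA, -⟩ := Fermat.Agent.Lib.Frobenius.exists_isFrobeniusAt q hq
  obtain ⟨x, hx0, hxE, hxH, hxI⟩ := s59c_fixed_exists W hΔ p (M * q * q) B hp2 hss hpB hNqB hΔB q hq
    hqp A hA ⟨x₀, hx₀, hE₀⟩
  -- the field cut out by `H`
  obtain ⟨L, hLfd, hLn, hL1, hL2⟩ := s59m_exists_LH W hΔ p
  haveI := hLfd
  haveI := hLn
  have hB'1 : ∀ r : ℕ, r.Prime → r ∣ M * p → r ∈ B := by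
    intro r hr hd
    rcases (Nat.Prime.dvd_mul hr).mp hd with h | h
    · exact hMB r hr h
    · rw [(Nat.prime_dvd_prime_iff_eq hr hp).mp h]
      exact hpB
  -- [CAR-GEO], then [M2′] (and [CAR-OLD] when the level drops to `M`)
  have hocc : s44i_LevelOcc (M * q) p a B := by
    rcases hGeo a B hB1 hne A hA L x hx0 hxE (fun σ hσ => hxH σ (hL1 σ hσ)) hxI with
      ⟨y, hy0, hy⟩ | ⟨y, hy0, hy⟩
    · exact s59c_levelOcc_raise hq hqM hqB (s59m_old M p hp hp2 a B hB'1 y hy0 hy)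
    · exact s59m_old (M * q) p hp hp2 a B hB1 y hy0 hy
  -- back to `IsResiduallyModularOfLevel`
  obtain ⟨g, 𝔪', hg, hmax', hpm', hc⟩ := hocc
  refine ⟨g, 𝔪', hg, hmax', hpm', fun ℓ hℓ hgoodℓ hℓM hℓp => hc ℓ hℓ fun hmem => ?_⟩
  rcases hBmem ℓ hmem with h | h | h | h
  · exact hℓM (h.mul_right q)
  · exact hℓM (h ▸ Dvd.intro_left M rfl)
  · exact hℓp h
  · exact hgoodℓ h

/-- **[CAR] ⇐ [CAR-GEO]**, checked: the ONE open leaf of [CAR] is the geometric statement `s59c_Geo`. -/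
theorem s59c_CAR_of (hGeo : s59c_Geo) : s59_CAR := by
  intro p hp hp2 W hΔ hss hirr M₀ q hq hqp hq2 hq3 hres
  haveI : Fact p.Prime := ⟨hp⟩
  haveI : NeZero q := ⟨hq.ne_zero⟩
  obtain ⟨M, rfl⟩ : ∃ M, M₀ = M * q * q := by
    obtain ⟨k, rfl⟩ := hq2
    exact ⟨k, by ring⟩
  have hM0 : M ≠ 0 := by
    rintro rfl
    exact hq3 (by rw [zero_mul, zero_mul]; exact dvd_zero _)
  haveI : NeZero M := ⟨hM0⟩
  have hqM : ¬ q ∣ M := by
    rintro ⟨k, rfl⟩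
    exact hq3 ⟨k, by ring⟩
  rw [Nat.mul_div_cancel _ hq.pos]
  exact s59c_CAR_at hp2 W hΔ hss hirr M q hq hqM hqp (hGeo p hp2 M q hq hqM hqp) hres

end

end Fermat.Agent.Lib.S59
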