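/-
Programme (R) / [IA′] extraction step, leaf [B]ₙ (helper9, prefix `s59m_`): **FROM GENERALISED EIGENVECTORS TO
EIGENVECTORS** (Mathlib only).

`D : ι → End_ℤ(A)` a commuting family of endomorphisms of an abelian group, `z ≠ 0` with `n • z = 0`, `A[n]` finite,
every `D i` nilpotent at `z`.  Then the family has a common kernel vector `y ≠ 0` (in the orbit of `z` under the
commutant of the family).

* `s59m_common_ker_aux` : the minimal-orbit argument;
* `s59m_exists_common_ker` : the same with `n = p ^ k` and the extra conclusion `p • y = 0`.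
-/
import Mathlib

set_option autoImplicit false

namespace Fermat.Agent.Lib.S59

theorem s59m_common_ker_aux {A : Type*} [AddCommGroup A] {ι : Type*} (D : ι → Module.End ℤ A)
    (hcomm : ∀ i j, D i * D j = D j * D i) (n : ℕ) (hfin : {y : A | n • y = 0}.Finite)
    (z : A) (hz : z ≠ 0) (hnz : n • z = 0) (hnil : ∀ i, ∃ m : ℕ, (D i ^ m) z = 0) :
    ∃ y : A, y ≠ 0 ∧ n • y = 0 ∧ ∀ i, D i y = 0 := by
  classical
  set T : Set (Module.End ℤ A) := {t | ∀ i, t * D i = D i * t} with hT
  have hT1 : (1 : Module.End ℤ A) ∈ T := fun i => by rw [one_mul, mul_one]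
  have hTmul : ∀ s ∈ T, ∀ t ∈ T, s * t ∈ T := fun s hs t ht i => by
    rw [mul_assoc, ht i, ← mul_assoc, hs i, mul_assoc]
  have hTD : ∀ i, D i ∈ T := fun i j => hcomm i j
  set O : A → Set A := fun y => (fun t : Module.End ℤ A => t y) '' T with hO
  have hOfin : ∀ y, n • y = 0 → (O y).Finite := fun y hy => hfin.subset (by
    rintro _ ⟨t, -, rfl⟩
    show n • t y = 0
    rw [← map_nsmul, hy, map_zero])
  set C : Set A := {y | y ≠ 0 ∧ y ∈ O z} with hC
  have hCne : C.Nonempty := ⟨z, hz, 1, hT1, rfl⟩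
  obtain ⟨y, hyC, hmin⟩ := WellFounded.has_min (measure (fun y : A => (O y).ncard)).wf C hCne
  obtain ⟨s, hsT, hsy⟩ := hyC.2
  have hsy' : s z = y := hsy
  have hny : n • y = 0 := by rw [← hsy', ← map_nsmul, hnz, map_zero]
  refine ⟨y, hyC.1, hny, fun i => ?_⟩
  by_contra hne
  have hDy : D i y ∈ C :=
    ⟨hne, D i * s, hTmul _ (hTD i) _ hsT, by show (D i * s) z = D i y; rw [Module.End.mul_apply, hsy']⟩
  have hsub : O (D i y) ⊆ O y := by
    rintro _ ⟨t, ht, rfl⟩
    exact ⟨t * D i, hTmul _ ht _ (hTD i), by show (t * D i) y = t (D i y); rw [Module.End.mul_apply]⟩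
  have hcard : (O y).ncard ≤ (O (D i y)).ncard := not_lt.mp (hmin _ hDy)
  have heq : O (D i y) = O y := Set.eq_of_subset_of_ncard_le hsub hcard (hOfin y hny)
  have hy_mem : y ∈ O (D i y) := by rw [heq]; exact ⟨1, hT1, rfl⟩
  obtain ⟨t, htT, hty⟩ := hy_mem
  have hty' : t (D i y) = y := hty
  have hc : Commute t (D i) := htT i
  have hiter : ∀ m : ℕ, ((t * D i) ^ m) y = y := by
    intro m
    induction m with
    | zero => simp
    | succ m ih =>
      rw [pow_succ, Module.End.mul_apply, Module.End.mul_apply, hty', ih]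
  obtain ⟨m, hm⟩ := hnil i
  have hcs : Commute s (D i ^ m) := Commute.pow_right (hsT i) m
  have hDm : (D i ^ m) y = 0 := by
    rw [← hsy', ← Module.End.mul_apply, ← hcs.eq, Module.End.mul_apply, hm, map_zero]
  have h1 := hiter m
  rw [hc.mul_pow, Module.End.mul_apply, hDm, map_zero] at h1
  exact hyC.1 h1.symm

theorem s59m_exists_common_ker {A : Type*} [AddCommGroup A] {ι : Type*} (D : ι → Module.End ℤ A)
    (hcomm : ∀ i j, D i * D j = D j * D i) (p k : ℕ) (hfin : {y : A | p ^ k • y = 0}.Finite)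
    (z : A) (hz : z ≠ 0) (hpz : p ^ k • z = 0) (hnil : ∀ i, ∃ m : ℕ, (D i ^ m) z = 0) :
    ∃ y : A, y ≠ 0 ∧ p • y = 0 ∧ ∀ i, D i y = 0 := by
  classical
  set D' : Option ι → Module.End ℤ A := fun o => o.elim ((p : ℤ) • (1 : Module.End ℤ A)) D with hD'
  have hcomm' : ∀ i j, D' i * D' j = D' j * D' i := by
    intro i j
    cases i with
    | none =>
      cases j with
      | none => rfl
      | some j =>
        show ((p : ℤ) • (1 : Module.End ℤ A)) * D j = D j * ((p : ℤ) • (1 : Module.End ℤ A))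
        rw [smul_mul_assoc, mul_smul_comm, one_mul, mul_one]
    | some i =>
      cases j with
      | none =>
        show D i * ((p : ℤ) • (1 : Module.End ℤ A)) = ((p : ℤ) • (1 : Module.End ℤ A)) * D i
        rw [smul_mul_assoc, mul_smul_comm, one_mul, mul_one]
      | some j => exact hcomm i j
  have hnil' : ∀ i, ∃ m : ℕ, (D' i ^ m) z = 0 := by
    intro i
    cases i with
    | none =>
      refine ⟨k, ?_⟩
      show (((p : ℤ) • (1 : Module.End ℤ A)) ^ k) z = 0
      rw [smul_pow, one_pow, LinearMap.smul_apply, Module.End.one_apply]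
      have : ((p : ℤ) ^ k) • z = (p ^ k : ℕ) • z := by
        rw [← Nat.cast_pow, natCast_zsmul]
      rw [this, hpz]
    | some i => exact hnil i
  obtain ⟨y, hy0, -, hy⟩ := s59m_common_ker_aux D' hcomm' (p ^ k) hfin z hz hpz hnil'
  refine ⟨y, hy0, ?_, fun i => hy (some i)⟩
  have h1 := hy none
  have h2 : ((p : ℤ) • (1 : Module.End ℤ A)) y = 0 := h1
  rw [LinearMap.smul_apply, Module.End.one_apply, natCast_zsmul] at h2
  exact h2

end Fermat.Agent.Lib.S59
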