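/-
Programme (R) / [IA′] extraction step, leaf [B]ₙ (helper9, prefix `s59m_`):
**THE CORE OF THE REDUCTION STEP IN RELATIONAL FORM, ARBITRARY EXPONENT** (top level `ℚ̄`, Gauss ring of `P ∣ q`).

Level `M q` (`q ∤ M`, `5 ≤ q`, `q` the residue characteristic of `P`), Kummer exponent `n` (a unit of `P`).

* `s59m_GEig N n a B x` : `x ∈ J₀(N)[n]` is a GENERALISED eigen-point: `(T_ℓ - a ℓ) ^ m x = 0` for every prime `ℓ ∉ B`;
* `s59m_Rel M q P hP n x z` : `x ∈ J₀(M q)`, `z ∈ J₀(M)` have Gauss-unit Kummer generators `H`, `G` of exponent `n`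
  with `red G = c · red H · w ^ n`, `w ∈ F̄_M` ("`z` is the reduction of `x` on the `∞`-component");
* `s59m_Rel.add`, `.zsmul`, `.hecke` : the relation is additive and Hecke-equivariant;
* `s59m_Rel.zero_left` : `Rel 0 z → z = 0`;   `s59m_Rel.zero_right` : `Rel x 0 →` every Gauss-unit Kummer generator of
  `x` reduces to a constant times an `n`-th power;   `s59m_Rel.exists` : existence of `z`;
* `s59m_Rel.geig` : `z` is a generalised eigen-point when `x` is;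
* `s59m_eig_of_geig` : a non-zero generalised eigen-point of exponent `p ^ k` gives a non-zero eigen-point of exponent `p`;
* `s59m_coreN` : the core dichotomy for exponent `p ^ k` and generalised eigen-points.
-/
import Fermat.Agent.Lib.S59.MRedTop
import Fermat.Agent.Lib.S59.MGEig
import Fermat.Agent.Lib.S15.AComm4
import Fermat.Agent.Lib.S30.TateLevel

set_option autoImplicit false
set_option linter.style.haveILetI false
set_option linter.unusedSectionVars false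
set_option linter.unusedVariables false
set_option synthInstance.maxHeartbeats 400000

namespace Fermat.Agent.Lib.S59

open ModularCurve HahnSeries AlgebraicCurve Fermat.Agent.Lib.FF Fermat.Agent.Lib.S18
  Fermat.Agent.Lib.S28 Fermat.Agent.Lib.S29 Fermat.Agent.Lib.S37 Fermat.Agent.Lib.S34
  Fermat.Agent.Lib.S33 Fermat.Agent.Lib.S44 Fermat.Agent.Lib.S19 Fermat.Agent.Lib.S17
  Fermat.Agent.Lib.S15 Fermat.Agent.Lib.S30

noncomputable section

local notation "Kb" => AlgebraicClosure ℚ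

/-- `x ∈ J₀(N)[n]` is a generalised eigen-point for `a` (away from `B`). -/
def s59m_GEig (N : ℕ) [NeZero N] (n : ℕ) (a : ℕ → ℤ) (B : Finset ℕ) (x : JZero N) : Prop :=
  n • x = 0 ∧ ∀ ℓ : Nat.Primes, (ℓ : ℕ) ∉ B →
    ∃ m : ℕ, ((heckeOperatorBar N ℓ - (a ℓ) • (1 : Module.End ℤ (JZero N))) ^ m) x = 0

theorem s59m_D_apply (N : ℕ) [NeZero N] (ℓ : Nat.Primes) (a : ℤ) (x : JZero N) :
    (heckeOperatorBar N ℓ - a • (1 : Module.End ℤ (JZero N))) x =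
      heckeOperatorBar N ℓ x + (-a) • x := by
  rw [LinearMap.sub_apply, LinearMap.smul_apply, Module.End.one_apply, neg_smul, sub_eq_add_neg]

/-! ### Gauss units -/

section Unit

variable (N : ℕ) [NeZero N] {q : ℕ} [hq : Fact q.Prime]
  (A : ValuationSubring Kb) (hA : A.LiesOverPrime q)

theorem s59m_redV_unit_ne_zero {H : ffi_F N} (hH0 : H ≠ 0) (hH : H ∈ s37r_OF A N hA)
    (hH' : H⁻¹ ∈ s37r_OF A N hA) : s37r_redV A N hA ⟨H, hH⟩ ≠ 0 := by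
  intro h0
  have h1 : (⟨H, hH⟩ : ↥(s37r_OF A N hA)) * ⟨H⁻¹, hH'⟩ = 1 :=
    Subtype.ext (mul_inv_cancel₀ hH0)
  have := congrArg (s37r_redV A N hA) h1
  rw [map_mul, h0, zero_mul, map_one] at this
  exact zero_ne_one this

variable (ℓ : ℕ) [hℓ : Fact ℓ.Prime] (hℓN : ¬ ℓ ∣ N) (ζ : Kbˣ) (hζ : IsPrimitiveRoot (ζ : Kb) ℓ)

include hℓN hζ in
theorem s59m_tauBar_inv_mem_OF {H : ffi_F N} (hH' : H⁻¹ ∈ s37r_OF A N hA) :
    (s37e_normAlpha N ℓ (heckeBetaBar Kb N ℓ H))⁻¹ ∈ s37r_OF A N hA := by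
  haveI : NeZero ℓ := ⟨hℓ.out.ne_zero⟩
  have hTcoe : ((s37e_normAlpha N ℓ (heckeBetaBar Kb N ℓ H) : ffi_F N) : LaurentSeries Kb) =
      s33t_N ℓ ζ ((H : ffi_F N) : LaurentSeries Kb) := s44h_coe_normAlpha_beta N ℓ hℓN ζ hζ H
  have hTinv : (((s37e_normAlpha N ℓ (heckeBetaBar Kb N ℓ H))⁻¹ : ffi_F N) : LaurentSeries Kb) =
      s33t_N ℓ ζ ((H⁻¹ : ffi_F N) : LaurentSeries Kb) := by
    rw [IntermediateField.coe_inv, IntermediateField.coe_inv, s59m_N_inv ℓ ζ hζ, hTcoe]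
  rw [s37r_mem_OF_iff, hTinv]
  exact s44h_top_N_mem_O A _ ℓ ζ hζ hH'

end Unit

/-! ### The relation -/

section Rel

variable (M q : ℕ) [NeZero M] [hq : Fact q.Prime] (hqM : ¬ q ∣ M)
  (P : ValuationSubring Kb) (hP : P.LiesOverPrime q) (n : ℕ)

/-- `z ∈ J₀(M)` is the reduction of `x ∈ J₀(M q)` (on the `∞`-component), at the level of Kummer generators of
exponent `n`. -/
def s59m_Rel (x : JZero (M * q)) (z : JZero M) : Prop :=
  ∃ (H : ffi_F (M * q)) (G : ffi_F M) (hH : H ∈ s37r_OF P (M * q) hP) (hG : G ∈ s37r_OF P M hP),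
    s33d_IsKumGen n x H ∧ H⁻¹ ∈ s37r_OF P (M * q) hP ∧
    s33d_IsKumGen n z G ∧ G⁻¹ ∈ s37r_OF P M hP ∧
    ∃ (c : IsLocalRing.ResidueField ↥P) (w : LaurentSeries (IsLocalRing.ResidueField ↥P)),
      c ≠ 0 ∧ w ≠ 0 ∧ w ∈ modularFunctionFieldFullC (IsLocalRing.ResidueField ↥P) M ∧
      s37r_redV P M hP ⟨G, hG⟩ =
        HahnSeries.C c * s37r_redV P (M * q) hP ⟨H, hH⟩ * w ^ n

variable {M q P hP n}

theorem s59m_Rel.add {x x' : JZero (M * q)} {z z' : JZero M}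
    (h : s59m_Rel M q P hP n x z) (h' : s59m_Rel M q P hP n x' z') :
    s59m_Rel M q P hP n (x + x') (z + z') := by
  obtain ⟨H, G, hH, hG, hgH, hH', hgG, hG', c, w, hc, hw, hwm, hred⟩ := h
  obtain ⟨H₂, G₂, hH₂, hG₂, hgH₂, hH₂', hgG₂, hG₂', c₂, w₂, hc₂, hw₂, hwm₂, hred₂⟩ := h'
  refine ⟨H * H₂, G * G₂, mul_mem hH hH₂, mul_mem hG hG₂, s33d_kumGen_prod hgH hgH₂, ?_,
    s33d_kumGen_prod hgG hgG₂, ?_, c * c₂, w * w₂, mul_ne_zero hc hc₂, mul_ne_zero hw hw₂,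
    mul_mem hwm hwm₂, ?_⟩
  · rw [mul_inv]; exact mul_mem hH' hH₂'
  · rw [mul_inv]; exact mul_mem hG' hG₂'
  · have e1 : (⟨G * G₂, mul_mem hG hG₂⟩ : ↥(s37r_OF P M hP)) = ⟨G, hG⟩ * ⟨G₂, hG₂⟩ := rfl
    have e2 : (⟨H * H₂, mul_mem hH hH₂⟩ : ↥(s37r_OF P (M * q) hP)) = ⟨H, hH⟩ * ⟨H₂, hH₂⟩ := rfl
    rw [e1, e2, map_mul, map_mul, hred, hred₂, map_mul, mul_pow]
    ring

theorem s59m_Rel.zsmul (a : ℤ) {x : JZero (M * q)} {z : JZero M}
    (h : s59m_Rel M q P hP n x z) : s59m_Rel M q P hP n (a • x) (a • z) := by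
  obtain ⟨H, G, hH, hG, hgH, hH', hgG, hG', c, w, hc, hw, hwm, hred⟩ := h
  obtain ⟨hHa, hHa', hredHa⟩ := s44h_redV_zpow (M * q) q P hP H hH hH' hgH.1 a
  obtain ⟨hGa, hGa', hredGa⟩ := s44h_redV_zpow M q P hP G hG hG' hgG.1 a
  refine ⟨H ^ a, G ^ a, hHa, hGa, s44c_isKumGen_zpow (M * q) n hgH a, hHa',
    s44c_isKumGen_zpow M n hgG a, hGa', c ^ a, w ^ a, zpow_ne_zero a hc, zpow_ne_zero a hw,
    zpow_mem hwm a, ?_⟩
  rw [hredGa, hredHa, hred, mul_zpow, mul_zpow, map_zpow₀]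
  congr 1
  rw [← zpow_natCast, ← zpow_mul, mul_comm, zpow_mul, zpow_natCast]

include hqM in
theorem s59m_Rel.hecke (ℓ : ℕ) [hℓ : Fact ℓ.Prime] (hℓMq : ¬ ℓ ∣ M * q)
    {x : JZero (M * q)} {z : JZero M} (h : s59m_Rel M q P hP n x z) :
    s59m_Rel M q P hP n (heckeOperatorBar (M * q) ⟨ℓ, hℓ.out⟩ x)
      (heckeOperatorBar M ⟨ℓ, hℓ.out⟩ z) := by
  haveI : NeZero ℓ := ⟨hℓ.out.ne_zero⟩
  have hℓM : ¬ ℓ ∣ M := fun hd => hℓMq (Dvd.dvd.mul_right hd q)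
  have hℓq : ℓ ≠ q := fun h0 => hℓMq (h0 ▸ dvd_mul_left _ _)
  obtain ⟨ζ, hζ⟩ := s37e_exists_zeta ℓ
  have hζκ := s59m_zetaTK_prim ℓ hℓq P hP ζ hζ
  obtain ⟨H, G, hH, hG, hgH, hH', hgG, hG', c, w, hc, hw, hwm, hred⟩ := h
  refine ⟨s37e_normAlpha (M * q) ℓ (heckeBetaBar Kb (M * q) ℓ H),
    s37e_normAlpha M ℓ (heckeBetaBar Kb M ℓ G),
    s59m_tauBar_mem_OF (M * q) ℓ hℓMq P hP ζ hζ hH, s59m_tauBar_mem_OF M ℓ hℓM P hP ζ hζ hG,
    s44c_isKumGen_hecke (M * q) ℓ hℓMq n x H hgH,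
    s59m_tauBar_inv_mem_OF (M * q) P hP ℓ hℓMq ζ hζ hH',
    s44c_isKumGen_hecke M ℓ hℓM n z G hgG,
    s59m_tauBar_inv_mem_OF M P hP ℓ hℓM ζ hζ hG',
    c ^ (ℓ + 1), s33t_N ℓ (s44h_zetaTK P (IsLocalRing.residue ↥P) ℓ ζ hζ) w,
    pow_ne_zero _ hc, s59m_N_ne_zero ℓ _ hζκ hw,
    s59m_Nbar_mem_fullC M q hqM P hP ℓ hℓM hℓq ζ hζ ⟨w, hwm⟩, ?_⟩
  rw [s59m_redV_tauBar M ℓ hℓM hℓq P hP ζ hζ hG,
    s59m_redV_tauBar (M * q) ℓ hℓMq hℓq P hP ζ hζ hH, hred,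
    s44h_N_mul ℓ _ hζκ, s44h_N_mul ℓ _ hζκ, s59m_N_pow ℓ _ hζκ, s33t_N_C]

end Rel

/-! ### Zero on either side, existence -/

section Curve

variable {M q : ℕ} [NeZero M] [hq : Fact q.Prime] (hqM : ¬ q ∣ M) (h5 : 5 ≤ q)
  {P : ValuationSubring Kb} {hP : P.LiesOverPrime q} {n : ℕ} (hn0 : n ≠ 0)
  (hnP : IsUnit ((n : ℕ) : ↥P))

set_option maxHeartbeats 1600000 in
include hqM h5 hn0 hnP in
/-- **`Rel 0 z → z = 0`.** -/
theorem s59m_Rel.zero_left {z : JZero M} (h : s59m_Rel M q P hP n 0 z) : z = 0 := by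
  classical
  have hgood : s18_GoodLevel q M := ⟨hqM, Or.inl h5⟩
  haveI : FFGen Kb (ffd_jBar M) := s18r_ffGen M
  obtain ⟨r, l, g, hr, hl, hC⟩ :=
    (s19m_curveExists s19_gauss_final s19_rr_final s19e_baseA) M q hgood P hP
  obtain ⟨H, G, hH, hG, hgH, hH', hgG, hG', c, w, hc, hw, hwm, hred⟩ := h
  obtain ⟨c₂, w₂, hc₂, hw₂, hHeq⟩ :=
    (s33d_kumGen_zero_iff (s33d_constOfOrdZero_bar (M * q)) hn0 hgH).mp rfl
  obtain ⟨cb, u, hu, hcb, hu0, hrel⟩ := s59m_gauss_rel (M * q) P hP n 0 1 H one_ne_zero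
    (s37r_OF P (M * q) hP).one_mem (by rw [inv_one]; exact (s37r_OF P (M * q) hP).one_mem) hH hH'
    c₂ w₂ hc₂ hw₂ (by rw [hHeq, zpow_zero, mul_one])
  rw [zpow_zero, mul_one] at hrel
  have hum : s37r_redV P (M * q) hP ⟨u, hu⟩ ∈
      modularFunctionFieldFullC (IsLocalRing.ResidueField ↥P) M :=
    s59m_redV_top_mem_fullC M q hqM P hP ⟨u, hu⟩
  set w'' : ↥(modularFunctionFieldFullC (IsLocalRing.ResidueField ↥P) M) :=
    ⟨_, hum⟩ * ⟨w, hwm⟩ with hw''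
  have hw''0 : w'' ≠ 0 :=
    mul_ne_zero (fun h0 => hu0 (congrArg Subtype.val h0)) (fun h0 => hw (congrArg Subtype.val h0))
  refine s59m_injK hC n hn0 hnP z G hgG hG (c * cb) (mul_ne_zero hc hcb) w'' hw''0 ?_
  apply Subtype.ext
  rw [s37r_coe_redF, hred, hrel]
  simp only [MulMemClass.coe_mul, SubmonoidClass.coe_pow, s59m_coe_algebraMap_fullC, hw'', map_mul,
    mul_pow]
  ring

include hqM hn0 in
/-- **`Rel x 0 →` every Gauss-unit Kummer generator of `x` reduces to a constant times an `n`-th power.** -/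
theorem s59m_Rel.zero_right {x : JZero (M * q)} (h : s59m_Rel M q P hP n x 0)
    (H' : ffi_F (M * q)) (hgen' : s33d_IsKumGen n x H') (hH'1 : H' ∈ s37r_OF P (M * q) hP)
    (hH'2 : H'⁻¹ ∈ s37r_OF P (M * q) hP) :
    ∃ (c : IsLocalRing.ResidueField ↥P) (w : LaurentSeries (IsLocalRing.ResidueField ↥P)),
      c ≠ 0 ∧ w ≠ 0 ∧ w ∈ modularFunctionFieldFullC (IsLocalRing.ResidueField ↥P) M ∧
      s37r_redV P (M * q) hP ⟨H', hH'1⟩ = HahnSeries.C c * w ^ n := by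
  classical
  obtain ⟨H, G, hH, hG, hgH, hHi, hgG, hGi, c, w, hc, hw, hwm, hred⟩ := h
  obtain ⟨c₂, w₂, hc₂, hw₂, hGeq⟩ :=
    (s33d_kumGen_zero_iff (s33d_constOfOrdZero_bar M) hn0 hgG).mp rfl
  obtain ⟨cb, u, hu, hcb, hu0, hrel⟩ := s59m_gauss_rel M P hP n 0 1 G one_ne_zero
    (s37r_OF P M hP).one_mem (by rw [inv_one]; exact (s37r_OF P M hP).one_mem) hG hGi
    c₂ w₂ hc₂ hw₂ (by rw [hGeq, zpow_zero, mul_one])
  rw [zpow_zero, mul_one] at hrel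
  have hum : s37r_redV P M hP ⟨u, hu⟩ ∈
      modularFunctionFieldFullC (IsLocalRing.ResidueField ↥P) M :=
    s37r_redV_mem_fullC P M hP hqM ⟨u, hu⟩
  obtain ⟨c₃, w₃, hc₃, hw₃, hH'eq⟩ :=
    s33d_kumGen_unique (s33d_constOfOrdZero_bar (M * q)) hgH hgen'
  obtain ⟨cb', u', hu', hcb', hu'0, hrel'⟩ := s59m_gauss_rel (M * q) P hP n 1 H H' hgH.1 hH hHi
    hH'1 hH'2 c₃ w₃ hc₃ hw₃ (by rw [hH'eq, zpow_one])
  rw [zpow_one] at hrel'
  have hum' : s37r_redV P (M * q) hP ⟨u', hu'⟩ ∈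
      modularFunctionFieldFullC (IsLocalRing.ResidueField ↥P) M :=
    s59m_redV_top_mem_fullC M q hqM P hP ⟨u', hu'⟩
  have hC0 : (HahnSeries.C c : LaurentSeries (IsLocalRing.ResidueField ↥P)) ≠ 0 := by
    rw [Ne, ← map_zero (HahnSeries.C : (IsLocalRing.ResidueField ↥P) →+* LaurentSeries _)]
    exact fun h => hc (HahnSeries.C_injective h)
  have hwn : w ^ n ≠ 0 := pow_ne_zero n hw
  have e1 : HahnSeries.C c * s37r_redV P (M * q) hP ⟨H, hH⟩ * w ^ n =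
      HahnSeries.C cb * (s37r_redV P M hP ⟨u, hu⟩) ^ n := by rw [← hred, hrel]
  have e2 : s37r_redV P (M * q) hP ⟨H, hH⟩ =
      HahnSeries.C (cb * c⁻¹) * (s37r_redV P M hP ⟨u, hu⟩ * w⁻¹) ^ n := by
    rw [map_mul, map_inv₀, mul_pow, inv_pow]
    field_simp
    rw [← e1]
    ring
  refine ⟨cb' * (cb * c⁻¹),
    s37r_redV P (M * q) hP ⟨u', hu'⟩ * (s37r_redV P M hP ⟨u, hu⟩ * w⁻¹),
    mul_ne_zero hcb' (mul_ne_zero hcb (inv_ne_zero hc)),
    mul_ne_zero hu'0 (mul_ne_zero hu0 (inv_ne_zero hw)),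
    mul_mem hum' (mul_mem hum (inv_mem hwm)), ?_⟩
  rw [hrel', e2]
  simp only [map_mul, mul_pow]
  ring

set_option maxHeartbeats 1600000 in
include hqM h5 hn0 hnP in
/-- **existence of the reduction.** -/
theorem s59m_Rel.exists {x : JZero (M * q)} (H : ffi_F (M * q)) (hgen : s33d_IsKumGen n x H)
    (hH : H ∈ s37r_OF P (M * q) hP) (hH' : H⁻¹ ∈ s37r_OF P (M * q) hP)
    (ū : ↥(modularFunctionFieldFullC (IsLocalRing.ResidueField ↥P) M))
    (hū : (ū : LaurentSeries (IsLocalRing.ResidueField ↥P)) = s37r_redV P (M * q) hP ⟨H, hH⟩)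
    (hdiv : ∀ v : Place (IsLocalRing.ResidueField ↥P)
      ↥(modularFunctionFieldFullC (IsLocalRing.ResidueField ↥P) M), (n : ℤ) ∣ v.ord ū) :
    ∃ z : JZero M, s59m_Rel M q P hP n x z := by
  classical
  have hgood : s18_GoodLevel q M := ⟨hqM, Or.inl h5⟩
  haveI : FFGen Kb (ffd_jBar M) := s18r_ffGen M
  obtain ⟨r, l, g, hr, hl, hC⟩ :=
    (s19m_curveExists s19_gauss_final s19_rr_final s19e_baseA) M q hgood P hP
  obtain ⟨abv, hna, hAabv⟩ := s17z_abv_exists P hq.out hP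
  have hconst : s33d_ConstOfOrdZero (IsLocalRing.ResidueField ↥P)
      ↥(modularFunctionFieldFullC (IsLocalRing.ResidueField ↥P) M) :=
    s18n_constFk_residueField (N := M) P hq.out hP hqM
  have hredH0 := s59m_redV_unit_ne_zero (M * q) P hP hgen.1 hH hH'
  have hū0 : ū ≠ 0 := by
    rintro rfl
    exact hredH0 hū.symm
  obtain ⟨z, G, hGO, hgenG, hG'O, c₁, w₁, hc₁, hw₁, hredG⟩ :=
    s59m_liftK hC abv hna hAabv hconst n hn0 hnP ū hū0 hdiv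
  refine ⟨z, H, G, hH, hGO, hgen, hH', hgenG, hG'O, c₁, (w₁ : LaurentSeries _), hc₁,
    fun h0 => hw₁ (Subtype.ext h0), w₁.2, ?_⟩
  have := congrArg (fun y : ↥(modularFunctionFieldFullC (IsLocalRing.ResidueField ↥P) M) =>
    (y : LaurentSeries (IsLocalRing.ResidueField ↥P))) hredG
  simp only [s37r_coe_redF, MulMemClass.coe_mul, SubmonoidClass.coe_pow,
    s59m_coe_algebraMap_fullC] at this
  rw [this, hū]

end Curve

/-! ### Generalised eigen-points -/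

section GE

variable {M q : ℕ} [NeZero M] [hq : Fact q.Prime] (hqM : ¬ q ∣ M) (h5 : 5 ≤ q)
  {P : ValuationSubring Kb} {hP : P.LiesOverPrime q} {n : ℕ} (hn0 : n ≠ 0)
  (hnP : IsUnit ((n : ℕ) : ↥P))

include hqM in
/-- the relation is compatible with the powers of `T_ℓ - a`. -/
theorem s59m_Rel.pow (ℓ : Nat.Primes) (hℓMq : ¬ (ℓ : ℕ) ∣ M * q) (a : ℤ)
    {x : JZero (M * q)} {z : JZero M} (h : s59m_Rel M q P hP n x z) (m : ℕ) :
    s59m_Rel M q P hP n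
      (((heckeOperatorBar (M * q) ℓ - a • (1 : Module.End ℤ (JZero (M * q)))) ^ m) x)
      (((heckeOperatorBar M ℓ - a • (1 : Module.End ℤ (JZero M))) ^ m) z) := by
  induction m with
  | zero => simpa using h
  | succ m ih =>
    rw [pow_succ', Module.End.mul_apply, pow_succ', Module.End.mul_apply, s59m_D_apply,
      s59m_D_apply]
    haveI : Fact (ℓ : ℕ).Prime := ⟨ℓ.2⟩
    exact (ih.hecke hqM (ℓ : ℕ) hℓMq).add (ih.zsmul (-a))

include hqM h5 hn0 hnP in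
/-- **the reduction of a generalised eigen-point is a generalised eigen-point.** -/
theorem s59m_Rel.geig (a : ℕ → ℤ) (B : Finset ℕ) (hB : ∀ r : ℕ, r.Prime → r ∣ M * q → r ∈ B)
    {x : JZero (M * q)} {z : JZero M} (h : s59m_Rel M q P hP n x z)
    (hE : s59m_GEig (M * q) n a B x) : s59m_GEig M n a B z := by
  obtain ⟨H, G, hH, hG, hgH, hH', hgG, hG', -⟩ := id h
  refine ⟨s33d_kumGen_tors hgG, fun ℓ hℓB => ?_⟩
  obtain ⟨m, hm⟩ := hE.2 ℓ hℓB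
  have hℓMq : ¬ (ℓ : ℕ) ∣ M * q := fun hd => hℓB (hB ℓ ℓ.2 hd)
  have h1 := h.pow hqM ℓ hℓMq (a ℓ) m
  rw [hm] at h1
  exact ⟨m, h1.zero_left hqM h5 hn0 hnP⟩

end GE

/-- **a non-zero generalised eigen-point of exponent `p ^ k` gives a non-zero eigen-point of exponent `p`.** -/
theorem s59m_eig_of_geig (M : ℕ) [NeZero M] (p : ℕ) [hp : Fact p.Prime] (k : ℕ) (a : ℕ → ℤ)
    (B : Finset ℕ) (hB : ∀ r : ℕ, r.Prime → r ∣ M → r ∈ B)
    (z : JZero M) (hz : z ≠ 0) (hE : s59m_GEig M (p ^ k) a B z) :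
    ∃ y : JZero M, y ≠ 0 ∧ s44i_Eig M p a B y := by
  classical
  haveI : NeZero (p ^ k) := ⟨pow_ne_zero k hp.out.ne_zero⟩
  haveI hfinT : Finite (s29k_Jp M (p ^ k)) := s30a_finite_torsion M (p ^ k)
  have hfin : {y : JZero M | p ^ k • y = 0}.Finite := by
    have hset : {y : JZero M | p ^ k • y = 0} =
        ((Pic0.torsion Kb (modularFunctionFieldBar M) (p ^ k) : AddSubgroup (JZero M)) :
          Set (JZero M)) := by
      ext y
      rw [Set.mem_setOf_eq, SetLike.mem_coe, Pic0.mem_torsion, natCast_zsmul]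
    rw [hset]
    exact Set.toFinite _
  set D : {ℓ : Nat.Primes // (ℓ : ℕ) ∉ B} → Module.End ℤ (JZero M) :=
    fun i => heckeOperatorBar M i.1 - (a i.1) • (1 : Module.End ℤ (JZero M)) with hD
  have hcomm : ∀ i j, D i * D j = D j * D i := by
    intro i j
    have hiM : ¬ ((i.1 : Nat.Primes) : ℕ) ∣ M := fun hd => i.2 (hB _ i.1.2 hd)
    have hjM : ¬ ((j.1 : Nat.Primes) : ℕ) ∣ M := fun hd => j.2 (hB _ j.1.2 hd)
    have hc : Commute (heckeOperatorBar M i.1) (heckeOperatorBar M j.1) :=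
      m15a_comm_good M i.1 j.1 hiM hjM
    have h1 : Commute (heckeOperatorBar M i.1)
        (heckeOperatorBar M j.1 - (a j.1) • (1 : Module.End ℤ (JZero M))) :=
      hc.sub_right (Commute.smul_right (Commute.one_right _) _)
    have h2 : Commute ((a i.1) • (1 : Module.End ℤ (JZero M)))
        (heckeOperatorBar M j.1 - (a j.1) • (1 : Module.End ℤ (JZero M))) :=
      Commute.smul_left (Commute.one_left _) _
    exact (h1.sub_left h2).eq
  obtain ⟨y, hy0, hpy, hy⟩ := s59m_exists_common_ker D hcomm p k hfin z hz hE.1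
    (fun i => hE.2 i.1 i.2)
  refine ⟨y, hy0, hpy, fun ℓ hℓB => ?_⟩
  have h1 := hy ⟨ℓ, hℓB⟩
  rw [hD] at h1
  simp only at h1
  rw [s59m_D_apply, neg_smul, ← sub_eq_add_neg, sub_eq_zero] at h1
  exact h1

/-! ### The core, exponent `p ^ k`, generalised eigen-points -/

section CoreN

variable (M q : ℕ) [NeZero M] [hq : Fact q.Prime] (hqM : ¬ q ∣ M) (h5 : 5 ≤ q)
  (p : ℕ) [hp : Fact p.Prime] (hpq : p ≠ q) (k : ℕ)
  (P : ValuationSubring Kb) (hP : P.LiesOverPrime q)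

include hpq hP in
/-- `p ^ k` is a unit of `P` (`p ≠ q`). -/
theorem s59m_isUnit_pk : IsUnit (((p ^ k : ℕ) : ℕ) : ↥P) := by
  rw [Nat.cast_pow]
  exact (s59m_isUnit_p q p hpq P hP).pow k

include hqM h5 hpq in
/-- **THE CORE**, exponent `p ^ k`, generalised eigen-points. -/
theorem s59m_coreN (a : ℕ → ℤ) (B : Finset ℕ) (hB : ∀ r : ℕ, r.Prime → r ∣ M * q * p → r ∈ B)
    (x : JZero (M * q)) (hE : s59m_GEig (M * q) (p ^ k) a B x)
    (H : ffi_F (M * q)) (hgen : s33d_IsKumGen (p ^ k) x H)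
    (hH : H ∈ s37r_OF P (M * q) hP) (hH' : H⁻¹ ∈ s37r_OF P (M * q) hP)
    (ū : ↥(modularFunctionFieldFullC (IsLocalRing.ResidueField ↥P) M))
    (hū : (ū : LaurentSeries (IsLocalRing.ResidueField ↥P)) = s37r_redV P (M * q) hP ⟨H, hH⟩)
    (hdiv : ∀ v : Place (IsLocalRing.ResidueField ↥P)
      ↥(modularFunctionFieldFullC (IsLocalRing.ResidueField ↥P) M),
      ((p ^ k : ℕ) : ℤ) ∣ v.ord ū) :
    (∃ y : JZero M, y ≠ 0 ∧ s44i_Eig M p a B y) ∨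
      ∃ (c : IsLocalRing.ResidueField ↥P)
        (w : ↥(modularFunctionFieldFullC (IsLocalRing.ResidueField ↥P) M)), c ≠ 0 ∧ w ≠ 0 ∧
        ū = algebraMap (IsLocalRing.ResidueField ↥P)
          ↥(modularFunctionFieldFullC (IsLocalRing.ResidueField ↥P) M) c * w ^ (p ^ k) := by
  classical
  have hn0 : p ^ k ≠ 0 := pow_ne_zero k hp.out.ne_zero
  have hnP := s59m_isUnit_pk q p hpq k P hP
  have hBMq : ∀ r : ℕ, r.Prime → r ∣ M * q → r ∈ B := fun r hr hd => hB r hr (Dvd.dvd.mul_right hd p)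
  have hBM : ∀ r : ℕ, r.Prime → r ∣ M → r ∈ B := fun r hr hd => hBMq r hr (Dvd.dvd.mul_right hd q)
  obtain ⟨z, hrel⟩ := s59m_Rel.exists hqM h5 hn0 hnP H hgen hH hH' ū hū hdiv
  by_cases hz : z = 0
  · right
    rw [hz] at hrel
    obtain ⟨c, w, hc, hw, hwm, hred⟩ := hrel.zero_right hqM hn0 H hgen hH hH'
    refine ⟨c, ⟨w, hwm⟩, hc, fun h0 => hw (congrArg Subtype.val h0), ?_⟩
    apply Subtype.ext
    rw [hū, hred]
    simp only [MulMemClass.coe_mul, SubmonoidClass.coe_pow, s59m_coe_algebraMap_fullC]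
  · left
    exact s59m_eig_of_geig M p k a B hBM z hz (hrel.geig hqM h5 hn0 hnP a B hBMq hE)

end CoreN

end

end Fermat.Agent.Lib.S59
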