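/-
Programme (R2) / node **[CAR]** (Carayol's lemma at finite level, `q² ∥ M₀ → q ∥ M₀/q`), route **R-DS′**
(lead #3643/#3657, helper8 #3645, helper9 #3647): "Jacquet–Langlands for `(M, q)` by counting at level `M q`"
+ "the toric datum of a new inertia-fixed point of level `M q²`".   INTERFACE (helper9, prefix `s59m_`).
STATEMENTS ONLY: two structures and three contracts (`def … : Prop`); nothing is proved here.

Fix an odd prime `p`, a prime `q ≠ p`, a level `M` prime to `q`, a valuation ring `A` of `ℚ̄` over `q`.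

* `s59m_CarPkg M q p A K C` : **the gluing-torus package of depth `K` with loss `C`**:
  - `Y` : the gluing torus `(∏_{s ∈ SS} κ^×)/κ^×` (`SS` = the supersingular points = the nodes of the fibre of `X₀(M q)`
    at `A`, `κ` a finite field containing `μ_{p^K}` over which all nodes are rational), written ADDITIVELY, with
    commuting Hecke operators `T ℓ` (only the primes `ℓ ∤ M q p` matter); `Y[p^k]` has order `p^{k(n-1)}` (`n = #SS`)
    and is `p`-divisible inside `Y[p^{k+1}]` for `k < K`;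
  - `Tor` : the TORIC points of `J₀(M q)[p^K]` (finite at `A`, both reductions trivial), Hecke-stable;
  - `D : Tor →+ Y` : the DATUM MAP (value at the node `s` of the ratio of the `p^K`-th roots of the two reductions of
    a Kummer generator), INJECTIVE ([Σ-INJ], main's `s59n_inj_kum`) and HECKE-EQUIVARIANT;
  - `count` : `#Y[p^K] ≤ C · #Tor` (the output of the count, `s59m_CountData`; `C` does NOT depend on `K`);
  - `lvl2` : **level `M q²`**: a non-zero eigen-point `x ∈ J₀(M q²)[p]`, non-Eisenstein, rational over a finite normal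
    `L`, fixed by the inertia group of `A` and NEW (`α_* x = β_* x = 0`) either gives a non-zero eigen-point of level `M`
    (one of its three reductions is non-zero) or a non-zero eigenvector of `Y[p]` for the same system (it is toric at
    the three Gauss valuations; the ratios of its three node data are two elements of `Y[p]`, not both zero).
* `s59m_CarPkgAt p M q` : for every `A ∣ q` there is `C` such that packages exist for EVERY depth `K`.
* `s59m_CountData …` : the inputs of the count at level `M q`, depth `K`: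
  `Tor ≤ Fin ≤ J₀(M q)[p^K]`, `red : Fin →+ J₀(M)[p^K]²` with kernel `Tor` ([B]ₙ, main's `s59m_Rel`), a map
  `N = τ - 1 : J₀(M q)[p^K] →+ Tor` whose kernel contains `Fin` with index `≤ C` ([im N_τ ⊂ T] + the component group),
  and **(R1)** `n - 1 ≤ g(M q) - 2 g(M)`.  `s59m_CarCount` (contract, pure algebra + S27/S24 cardinalities):
  these data give `count`.
* `s59m_CarAlg` (contract, pure algebra): `s59m_CarPkgAt p M q → s59c_GeoAt p M q` (helper8's leaf of `CGraph.lean`).
  Proof sketch: if `α_* x ≠ 0` or `β_* x ≠ 0` we are at level `M q`; otherwise `lvl2` (with `K` such that `C < p^K`):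
  an eigenvector `u ∈ Y[p]` makes the generalised `𝔪`-eigenspace of `G = Y[p^K]` of order `≥ p^K` (exactness of the
  generalised-eigenspace functor on finite Hecke modules, `div_tors`, `card_tors`), `D(Tor)` has index `≤ C < p^K` in
  `G`, so `Tor` has a non-zero generalised eigen-point, hence (`s59m_eig_of_geig`) a non-zero eigen-point of exponent `p`.
-/
import Fermat.Agent.Lib.S59.CGraph
import Fermat.Agent.Lib.S59.MRedN
import Fermat.Agent.Lib.S15.KPack

set_option autoImplicit false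
set_option linter.style.haveILetI false
set_option linter.unusedSectionVars false
set_option linter.unusedVariables false

namespace Fermat.Agent.Lib.S59

open ModularCurve AlgebraicCurve Fermat.Agent.Lib.FF Fermat.Agent.Lib.S28 Fermat.Agent.Lib.S29
  Fermat.Agent.Lib.S30 Fermat.Agent.Lib.S37 Fermat.Agent.Lib.S35 Fermat.Agent.Lib.S33
  Fermat.Agent.Lib.S44 Fermat.Agent.Lib.S36

noncomputable section

local notation "Kb" => AlgebraicClosure ℚ
local notation "Γℚ" => (AlgebraicClosure ℚ ≃ₐ[ℚ] AlgebraicClosure ℚ)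

/-- **The gluing-torus package** of depth `K` and loss `C` at the place `A ∣ q` (see the header). -/
structure s59m_CarPkg (M q p : ℕ) [NeZero M] [NeZero q] (A : ValuationSubring Kb) (K C : ℕ) where
  /-- the gluing torus, written additively -/
  Y : Type
  /-- its group structure -/
  grpY : AddCommGroup Y
  /-- the Hecke operators on the gluing torus -/
  T : Nat.Primes → Y →+ Y
  /-- they commute -/
  T_comm : ∀ (ℓ ℓ' : Nat.Primes) (y : Y), T ℓ (T ℓ' y) = T ℓ' (T ℓ y)
  /-- the number of nodes -/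
  n : ℕ
  /-- `Y[p^k]` is finite -/
  fin_tors : ∀ k : ℕ, k ≤ K → Finite {y : Y // (p ^ k) • y = 0}
  /-- `#Y[p^k] = p^{k(n-1)}` -/
  card_tors : ∀ k : ℕ, k ≤ K → Nat.card {y : Y // (p ^ k) • y = 0} = p ^ (k * (n - 1))
  /-- `Y[p^k] = p · Y[p^{k+1}]` for `k < K` -/
  div_tors : ∀ k : ℕ, k < K → ∀ y : Y, (p ^ k) • y = 0 → ∃ y' : Y, (p ^ (k + 1)) • y' = 0 ∧ p • y' = y
  /-- the toric points of exponent `p^K` of `J₀(M q)` -/
  Tor : AddSubgroup (JZero (M * q))
  /-- they are killed by `p^K` -/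
  tor_exp : ∀ x ∈ Tor, (p ^ K) • x = 0
  /-- they are Hecke-stable -/
  tor_hecke : ∀ ℓ : Nat.Primes, ¬ (ℓ : ℕ) ∣ M * q * p → ∀ x ∈ Tor, heckeOperatorBar (M * q) ℓ x ∈ Tor
  /-- the datum map -/
  D : Tor →+ Y
  /-- it is injective -/
  D_inj : Function.Injective D
  /-- it is Hecke-equivariant -/
  D_hecke : ∀ (ℓ : Nat.Primes) (hℓ : ¬ (ℓ : ℕ) ∣ M * q * p) (x : Tor),
    D ⟨heckeOperatorBar (M * q) ℓ (x : JZero (M * q)), tor_hecke ℓ hℓ x x.2⟩ = T ℓ (D x)
  /-- the output of the count -/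
  count : p ^ (K * (n - 1)) ≤ C * Nat.card Tor
  /-- level `M q²` -/
  lvl2 : ∀ (a : ℕ → ℤ) (B : Finset ℕ), (∀ r : ℕ, r.Prime → r ∣ M * q * p → r ∈ B) →
    (∃ ℓ₀ : Nat.Primes, (ℓ₀ : ℕ) ∉ B ∧ ¬ (p : ℤ) ∣ a ℓ₀ - ((ℓ₀ : ℕ) + 1)) →
    ∀ (L : IntermediateField ℚ Kb) [FiniteDimensional ℚ ↥L] [Normal ℚ ↥L],
    ∀ x : JZero (M * q * q), x ≠ 0 → s44i_Eig (M * q * q) p a B x →
      (∀ σ : Γℚ, (∀ b ∈ L, σ b = b) → σ • x = x) →
      (∀ τ ∈ A.inertiaSubgroupIn ℚ, τ • x = x) →
      s36w_alphaPush (M * q) q x = 0 → s36w_betaPush (M * q) q x = 0 →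
      (∃ y : JZero M, y ≠ 0 ∧ s44i_Eig M p a B y) ∨
        (∃ u : Y, u ≠ 0 ∧ p • u = 0 ∧ ∀ ℓ : Nat.Primes, (ℓ : ℕ) ∉ B → T ℓ u = a ℓ • u)

attribute [instance] s59m_CarPkg.grpY

/-- **[CAR-PKG] at `(p, M, q)`**: for every place `A ∣ q` there is a loss `C` such that the package exists at every
depth `K`. -/
def s59m_CarPkgAt (p M q : ℕ) [NeZero M] [NeZero q] : Prop :=
  ∀ A : ValuationSubring Kb, A.LiesOverPrime q →
    ∃ C : ℕ, ∀ K : ℕ, Nonempty (s59m_CarPkg M q p A K C)

/-- **[CAR-ALG]** (contract, pure algebra; helper3): the packages give helper8's geometric leaf `s59c_GeoAt`. -/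
def s59m_CarAlg : Prop :=
  ∀ (p : ℕ) [Fact p.Prime], p ≠ 2 →
  ∀ (M : ℕ) [NeZero M] (q : ℕ) [NeZero q] (hq : q.Prime) (hqM : ¬ q ∣ M), q ≠ p →
    s59m_CarPkgAt p M q → s59c_GeoAt p M q hq hqM

/-- **[CAR] from [CAR-ALG] and the packages** (checked wiring). -/
theorem s59m_CAR_of (hAlg : s59m_CarAlg)
    (hPkg : ∀ (p : ℕ) [Fact p.Prime], p ≠ 2 → ∀ (M : ℕ) [NeZero M] (q : ℕ) [NeZero q], q.Prime →
      ¬ q ∣ M → q ≠ p → s59m_CarPkgAt p M q) : s59_CAR :=
  s59c_CAR_of fun p _ hp2 M _ q _ hq hqM hqp =>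
    hAlg p hp2 M q hq hqM hqp (hPkg p hp2 M q hq hqM hqp)

/-! ### The count at level `M q` -/

/-- **The inputs of the count** at level `M q`, depth `K`, with loss `C` (see the header).  `g`, `g'` are the genera
of `X₀(M q)`, `X₀(M)` (`genusFF Kb (ffi_F _)`, so that `m15k_card_Jp` gives `#J₀[p^K] = p^{2 g K}`), `n` the number of
nodes, `Tor` the toric points of exponent `p^K`. -/
structure s59m_CountData (M q p : ℕ) [NeZero M] [NeZero q] (K C n : ℕ)
    (Tor : AddSubgroup (JZero (M * q))) where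
  /-- the finite points of exponent `p^K` -/
  Fin : AddSubgroup (JZero (M * q))
  fin_exp : ∀ x ∈ Fin, (p ^ K) • x = 0
  tor_le : Tor ≤ Fin
  /-- the two reductions (to level `M`, through the good-reduction bijection) -/
  red : Fin →+ JZero M × JZero M
  red_exp : ∀ x : Fin, (p ^ K) • (red x).1 = 0 ∧ (p ^ K) • (red x).2 = 0
  /-- a finite point with trivial reductions is toric -/
  red_ker : ∀ x : Fin, red x = 0 → (x : JZero (M * q)) ∈ Tor
  /-- `N = τ - 1` on `J₀(M q)[p^K]`, with values in the toric points -/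
  N : JZero (M * q) →+ JZero (M * q)
  N_mem : ∀ x : JZero (M * q), (p ^ K) • x = 0 → N x ∈ Tor
  /-- the kernel of `N` on `J₀(M q)[p^K]` (= the inertia-fixed points) contains `Fin` with index `≤ C`: there are `C`
  representatives -/
  N_ker : ∃ R : Finset (JZero (M * q)), R.card ≤ C ∧
    ∀ x : JZero (M * q), (p ^ K) • x = 0 → N x = 0 → ∃ r ∈ R, x - r ∈ Fin
  /-- **(R1)**, the inequality that is used -/
  r1 : (n - 1) + 2 * genusFF Kb (ffi_F M) ≤ genusFF Kb (ffi_F (M * q))

/-- **[CAR-COUNT]** (contract, pure algebra + `m15k_card_Jp`; helper3): the count. -/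
def s59m_CarCount : Prop :=
  ∀ (p : ℕ) [Fact p.Prime] (M : ℕ) [NeZero M] (q : ℕ) [NeZero q] (K C n : ℕ)
    (Tor : AddSubgroup (JZero (M * q))), (∀ x ∈ Tor, (p ^ K) • x = 0) →
    s59m_CountData M q p K C n Tor → p ^ (K * (n - 1)) ≤ C * Nat.card Tor

end

end Fermat.Agent.Lib.S59
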