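/-
Programme (R2) / node **[CAR]**, route R-DS′ (helper9, prefix `s59m_`): **INTERFACE v2 ("E-shape")** of the gluing-torus
package.  `MCarIface.lean` (v1) asks for Hecke operators `T ℓ` on ALL of the gluing torus `Y`; constructing them needs weak
approximation at the supersingular places, which nothing else uses.  v2 replaces `T`, `T_comm`, `tor_hecke`, `D_hecke` by

* `Eig a B u : Prop`  — "`u ∈ Y` is an eigen-datum for the system `a` away from `B`" (in the construction: `u` is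
  represented by a pair of functions `(φ_∞, φ_0)` on the residue curve, units at all branches, some power of which is glued
  up to constants, such that for every `ℓ ∉ B` the pair `(T̄_ℓ φ_∞ / φ_∞ ^ (a ℓ), T̄_ℓ φ_0 / φ_0 ^ (a ℓ))` is glued up to a
  constant);
* `eig_tor`  — if `D t` is an eigen-datum then the toric point `t` is an eigen-point ([T-GLUE] + injectivity of `D`).

Everything the algebra consumes is kept: `card_tors`, `div_tors`, `D_inj`, `count`, `lvl2`.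

* `s59m_CarPkgE M q p A K C`, `s59m_CarPkgEAt p M q` : the package / its existence at all depths;
* `s59m_CarPkg.toE` : a v1 package gives a v2 package (`Eig a B u := ∀ ℓ ∉ B, T ℓ u = a ℓ • u`);
* `s59m_CarAlgE` : **[CAR-ALG], v2** (contract, pure algebra; it IMPLIES v1's `s59m_CarAlg`: `s59m_CarAlg_of_E`);
* `s59m_CAR_of_E` : the checked wiring `s59m_CarAlgE → (∀ …, s59m_CarPkgEAt p M q) → s59_CAR`.

Proof of [CAR-ALG] v2 (helper3's argument, #3665): `α_* x ≠ 0` or `β_* x ≠ 0` ⇒ level `M q`; otherwise `lvl2` with `K` such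
that `C < p ^ K` gives `u ∈ Y[p]`, `u ≠ 0`, `Eig a B u`; `count` + `card_tors` + `D_inj` ⇒ `D(Tor)` has index `≤ C` in
`Y[p^K]`; `div_tors` ⇒ `u = p^(K-1) v`, `v ∈ Y[p^K]`; pigeonhole on `0·v, …, C·v` ⇒ `d v ∈ D(Tor)` for some
`1 ≤ d ≤ C < p^K` ⇒ `u ∈ D(Tor)`, `u = D t`; `t ≠ 0`, `p t = 0` (`D_inj`), and `eig_tor` ⇒ `t` is an eigen-point.
-/
import Fermat.Agent.Lib.S59.MCarIface

set_option autoImplicit false
set_option linter.style.haveILetI false
set_option linter.unusedSectionVars false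
set_option linter.unusedVariables false

namespace Fermat.Agent.Lib.S59

open ModularCurve AlgebraicCurve Fermat.Agent.Lib.FF Fermat.Agent.Lib.S28 Fermat.Agent.Lib.S29
  Fermat.Agent.Lib.S30 Fermat.Agent.Lib.S37 Fermat.Agent.Lib.S35 Fermat.Agent.Lib.S33
  Fermat.Agent.Lib.S44 Fermat.Agent.Lib.S36

noncomputable section

local notation "Kb" => AlgebraicClosure ℚ
local notation "Γℚ" => (AlgebraicClosure ℚ ≃ₐ[ℚ] AlgebraicClosure ℚ)

/-- **The gluing-torus package, v2** (see the header). -/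
structure s59m_CarPkgE (M q p : ℕ) [NeZero M] [NeZero q] (A : ValuationSubring Kb) (K C : ℕ) where
  /-- the gluing torus, written additively -/
  Y : Type
  /-- its group structure -/
  grpY : AddCommGroup Y
  /-- the number of nodes -/
  n : ℕ
  /-- `Y[p^k]` is finite -/
  fin_tors : ∀ k : ℕ, k ≤ K → Finite {y : Y // (p ^ k) • y = 0}
  /-- `#Y[p^k] = p^{k(n-1)}` -/
  card_tors : ∀ k : ℕ, k ≤ K → Nat.card {y : Y // (p ^ k) • y = 0} = p ^ (k * (n - 1))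
  /-- `Y[p^k] = p · Y[p^{k+1}]` for `k < K` -/
  div_tors : ∀ k : ℕ, k < K → ∀ y : Y, (p ^ k) • y = 0 → ∃ y' : Y, (p ^ (k + 1)) • y' = 0 ∧ p • y' = y
  /-- the toric points of exponent `p^K` of `J₀(M q)` -/
  Tor : AddSubgroup (JZero (M * q))
  /-- they are killed by `p^K` -/
  tor_exp : ∀ x ∈ Tor, (p ^ K) • x = 0
  /-- the datum map -/
  D : Tor →+ Y
  /-- it is injective -/
  D_inj : Function.Injective D
  /-- the output of the count -/
  count : p ^ (K * (n - 1)) ≤ C * Nat.card Tor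
  /-- eigen-data -/
  Eig : (ℕ → ℤ) → Finset ℕ → Y → Prop
  /-- a toric point whose datum is an eigen-datum is an eigen-point -/
  eig_tor : ∀ (a : ℕ → ℤ) (B : Finset ℕ), (∀ r : ℕ, r.Prime → r ∣ M * q * p → r ∈ B) →
    ∀ t : Tor, Eig a B (D t) → ∀ ℓ : Nat.Primes, (ℓ : ℕ) ∉ B →
      heckeOperatorBar (M * q) ℓ (t : JZero (M * q)) = a ℓ • (t : JZero (M * q))
  /-- level `M q²` -/
  lvl2 : ∀ (a : ℕ → ℤ) (B : Finset ℕ), (∀ r : ℕ, r.Prime → r ∣ M * q * p → r ∈ B) →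
    (∃ ℓ₀ : Nat.Primes, (ℓ₀ : ℕ) ∉ B ∧ ¬ (p : ℤ) ∣ a ℓ₀ - ((ℓ₀ : ℕ) + 1)) →
    ∀ (L : IntermediateField ℚ Kb) [FiniteDimensional ℚ ↥L] [Normal ℚ ↥L],
    ∀ x : JZero (M * q * q), x ≠ 0 → s44i_Eig (M * q * q) p a B x →
      (∀ σ : Γℚ, (∀ b ∈ L, σ b = b) → σ • x = x) →
      (∀ τ ∈ A.inertiaSubgroupIn ℚ, τ • x = x) →
      s36w_alphaPush (M * q) q x = 0 → s36w_betaPush (M * q) q x = 0 →
      (∃ y : JZero M, y ≠ 0 ∧ s44i_Eig M p a B y) ∨ (∃ u : Y, u ≠ 0 ∧ p • u = 0 ∧ Eig a B u)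

attribute [instance] s59m_CarPkgE.grpY

/-- **[CAR-PKG] at `(p, M, q)`, v2**. -/
def s59m_CarPkgEAt (p M q : ℕ) [NeZero M] [NeZero q] : Prop :=
  ∀ A : ValuationSubring Kb, A.LiesOverPrime q →
    ∃ C : ℕ, ∀ K : ℕ, Nonempty (s59m_CarPkgE M q p A K C)

/-- a v1 package is a v2 package. -/
def s59m_CarPkg.toE {M q p : ℕ} [NeZero M] [NeZero q] {A : ValuationSubring Kb} {K C : ℕ}
    (P : s59m_CarPkg M q p A K C) : s59m_CarPkgE M q p A K C where
  Y := P.Y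
  grpY := P.grpY
  n := P.n
  fin_tors := P.fin_tors
  card_tors := P.card_tors
  div_tors := P.div_tors
  Tor := P.Tor
  tor_exp := P.tor_exp
  D := P.D
  D_inj := P.D_inj
  count := P.count
  Eig := fun a B u => ∀ ℓ : Nat.Primes, (ℓ : ℕ) ∉ B → P.T ℓ u = a ℓ • u
  eig_tor := by
    intro a B hB t ht ℓ hℓ
    have hℓ' : ¬ (ℓ : ℕ) ∣ M * q * p := fun h => hℓ (hB ℓ ℓ.2 h)
    have h1 := P.D_hecke ℓ hℓ' t
    rw [ht ℓ hℓ] at h1
    have h2 : a ℓ • P.D t = P.D (a ℓ • t) := (map_zsmul P.D (a ℓ) t).symm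
    rw [h2] at h1
    have h3 := P.D_inj h1
    have h4 := congrArg (fun z : P.Tor => (z : JZero (M * q))) h3
    exact h4
  lvl2 := P.lvl2

theorem s59m_CarPkgEAt_of {p M q : ℕ} [NeZero M] [NeZero q] (h : s59m_CarPkgAt p M q) :
    s59m_CarPkgEAt p M q := by
  intro A hA
  obtain ⟨C, hC⟩ := h A hA
  exact ⟨C, fun K => (hC K).map s59m_CarPkg.toE⟩

/-- **[CAR-ALG], v2** (contract, pure algebra; helper3). -/
def s59m_CarAlgE : Prop :=
  ∀ (p : ℕ) [Fact p.Prime], p ≠ 2 →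
  ∀ (M : ℕ) [NeZero M] (q : ℕ) [NeZero q] (hq : q.Prime) (hqM : ¬ q ∣ M), q ≠ p →
    s59m_CarPkgEAt p M q → s59c_GeoAt p M q hq hqM

/-- v2 implies v1. -/
theorem s59m_CarAlg_of_E (h : s59m_CarAlgE) : s59m_CarAlg :=
  fun p _ hp2 M _ q _ hq hqM hqp hP => h p hp2 M q hq hqM hqp (s59m_CarPkgEAt_of hP)

/-- **[CAR] from [CAR-ALG] v2 and the v2 packages** (checked wiring). -/
theorem s59m_CAR_of_E (hAlg : s59m_CarAlgE)
    (hPkg : ∀ (p : ℕ) [Fact p.Prime], p ≠ 2 → ∀ (M : ℕ) [NeZero M] (q : ℕ) [NeZero q], q.Prime →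
      ¬ q ∣ M → q ≠ p → s59m_CarPkgEAt p M q) : s59_CAR :=
  s59c_CAR_of fun p _ hp2 M _ q _ hq hqM hqp =>
    hAlg p hp2 M q hq hqM hqp (hPkg p hp2 M q hq hqM hqp)

end

end Fermat.Agent.Lib.S59
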