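/-
Programme (R2), node **[CAR]**, route R-DS′ (helper3, prefix `s59u_`): **the group theory of the gluing torus**
`Y = Additive ((S → G) ⧸ constants)`, `G` a finite cyclic group (`κˣ`) of order divisible by `p^K`, `S` the finite set of
nodes — the fields `fin_tors`, `card_tors`, `div_tors` of helper9's `s59m_CarPkg(E)`.

* `s59u_div_of_card` : for ANY abelian group, `#Y[p^k] = p^(k r)` (all `k ≤ K`) ⇒ `Y[p^k] = p · Y[p^(k+1)]` (`k < K`):
  `div_tors` is a CONSEQUENCE of `card_tors`;
* `s59u_cyc_tors_card`, `s59u_pi_tors_card`, `s59u_tors_card_congr` : `d`-torsion of cyclic groups, of their finite powers,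
  transport along `≃+`;
* `s59u_diagHom`, `s59u_quotDiagEquiv` : `(S → G) ⧸ D ≃* ({s ≠ s₀} → G)` for `D` = the constants;
* `s59u_torus_card`, `s59u_torus_fin`, `s59u_torus_div` : the three fields for the gluing torus.
-/
import Mathlib

set_option autoImplicit false
set_option linter.unusedSectionVars false
set_option linter.unusedVariables false
set_option linter.style.haveILetI false

namespace Fermat.Agent.Lib.S59

/-- **`div_tors` from `card_tors`**: if `#Y[p^k] = p^(k r)` for all `k ≤ K`, then `Y[p^k] = p · Y[p^(k+1)]` for `k < K`. -/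
theorem s59u_div_of_card {Y : Type*} [AddCommGroup Y] (p K r : ℕ) (hp : p.Prime)
    (hfin : ∀ k : ℕ, k ≤ K → Finite {y : Y // (p ^ k) • y = 0})
    (hcard : ∀ k : ℕ, k ≤ K → Nat.card {y : Y // (p ^ k) • y = 0} = p ^ (k * r)) :
    ∀ k : ℕ, k < K → ∀ y : Y, (p ^ k) • y = 0 →
      ∃ y' : Y, (p ^ (k + 1)) • y' = 0 ∧ p • y' = y := by
  intro k hk y hy
  classical
  -- the three torsion subgroups
  let tors : ℕ → AddSubgroup Y := fun j =>
    { carrier := {y | (p ^ j) • y = 0}
      zero_mem' := smul_zero _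
      add_mem' := fun {y y'} hy hy' => by
        show (p ^ j) • (y + y') = 0
        rw [smul_add, hy, hy', add_zero]
      neg_mem' := fun {y} hy => by
        show (p ^ j) • (-y) = 0
        rw [smul_neg, hy, neg_zero] }
  have hmem : ∀ j (y : Y), y ∈ tors j ↔ (p ^ j) • y = 0 := fun j y => Iff.rfl
  haveI hfinT : ∀ j, j ≤ K → Finite ↥(tors j) := fun j hj => hfin j hj
  have hcardT : ∀ j, j ≤ K → Nat.card ↥(tors j) = p ^ (j * r) := fun j hj => hcard j hj
  haveI := hfinT (k + 1) hk
  haveI := hfinT k hk.le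
  haveI := hfinT 1 (by omega)
  let φ : ↥(tors (k + 1)) →+ ↥(tors k) :=
    { toFun := fun z => ⟨p • (z : Y), by
        show (p ^ k) • (p • (z : Y)) = 0
        rw [← mul_smul, ← pow_succ]
        exact z.2⟩
      map_zero' := Subtype.ext (smul_zero _)
      map_add' := fun z z' => Subtype.ext (smul_add _ _ _) }
  -- the kernel has at most `p^r` elements
  have hker : Nat.card ↥φ.ker ≤ p ^ r := by
    have h1 : Nat.card ↥(tors 1) = p ^ r := by rw [hcardT 1 (by omega), one_mul]
    rw [← h1]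
    refine Nat.card_le_card_of_injective
      (fun z => (⟨((z : ↥(tors (k + 1))) : Y), ?_⟩ : ↥(tors 1))) ?_
    · show (p ^ 1) • ((z : ↥(tors (k + 1))) : Y) = 0
      rw [pow_one]
      exact congrArg (fun w : ↥(tors k) => (w : Y)) ((AddMonoidHom.mem_ker).mp z.2)
    · intro z z' hzz
      exact Subtype.ext (Subtype.ext (congrArg (fun w : ↥(tors 1) => (w : Y)) hzz))
  -- counting
  have h2 : Nat.card ↥(tors (k + 1)) = Nat.card (↥(tors (k + 1)) ⧸ φ.ker) * Nat.card ↥φ.ker :=
    AddSubgroup.card_eq_card_quotient_mul_card_addSubgroup _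
  have h3 : Nat.card (↥(tors (k + 1)) ⧸ φ.ker) = Nat.card ↥φ.range :=
    Nat.card_congr (QuotientAddGroup.quotientKerEquivRange φ).toEquiv
  have h4 : p ^ (k * r) ≤ Nat.card ↥φ.range := by
    rw [← h3]
    have h5 : p ^ ((k + 1) * r) ≤ Nat.card (↥(tors (k + 1)) ⧸ φ.ker) * p ^ r := by
      rw [← hcardT (k + 1) hk, h2]
      exact Nat.mul_le_mul_left _ hker
    have h6 : p ^ ((k + 1) * r) = p ^ (k * r) * p ^ r := by rw [← pow_add]; ring_nf
    rw [h6] at h5
    exact Nat.le_of_mul_le_mul_right h5 (pow_pos hp.pos r)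
  have h7 : φ.range = ⊤ := by
    refine AddSubgroup.eq_top_of_le_card _ ?_
    rw [hcardT k hk.le]
    exact h4
  have h8 : (⟨y, hy⟩ : ↥(tors k)) ∈ φ.range := by rw [h7]; exact AddSubgroup.mem_top _
  obtain ⟨z, hz⟩ := h8
  exact ⟨(z : Y), z.2, congrArg (fun w : ↥(tors k) => (w : Y)) hz⟩


/-- `d`-torsion of a finite cyclic group of order divisible by `d`. -/
theorem s59u_cyc_tors_card {Z : Type*} [AddCommGroup Z] [Finite Z] [IsAddCyclic Z] (d : ℕ)
    (hd : d ∣ Nat.card Z) : Nat.card {z : Z // d • z = 0} = d := by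
  have h1 := IsAddCyclic.card_nsmulAddMonoidHom_ker Z d
  rw [Nat.gcd_eq_right hd] at h1
  refine (Nat.card_congr (Equiv.subtypeEquivRight fun z => ?_)).trans h1
  rw [AddMonoidHom.mem_ker, nsmulAddMonoidHom_apply]

/-- `d`-torsion of a finite power of a finite cyclic group of order divisible by `d`. -/
theorem s59u_pi_tors_card {ι Z : Type*} [Finite ι] [AddCommGroup Z] [Finite Z] [IsAddCyclic Z]
    (d : ℕ) (hd : d ∣ Nat.card Z) :
    Nat.card {y : ι → Z // d • y = 0} = d ^ Nat.card ι := by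
  classical
  haveI := Fintype.ofFinite ι
  have e : {y : ι → Z // d • y = 0} ≃ (ι → {z : Z // d • z = 0}) :=
    (Equiv.subtypeEquivRight fun y => by
      rw [funext_iff]
      exact Iff.rfl).trans (Equiv.subtypePiEquivPi (p := fun _ (z : Z) => d • z = 0))
  rw [Nat.card_congr e, Nat.card_pi, Finset.prod_const, s59u_cyc_tors_card d hd, Finset.card_univ,
    Nat.card_eq_fintype_card]

/-- torsion counts are transported by additive equivalences. -/
theorem s59u_tors_card_congr {Y Y' : Type*} [AddCommGroup Y] [AddCommGroup Y'] (e : Y ≃+ Y') (d : ℕ) :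
    Nat.card {y : Y // d • y = 0} = Nat.card {y : Y' // d • y = 0} :=
  Nat.card_congr (e.toEquiv.subtypeEquiv fun y => by
    show d • y = 0 ↔ d • e y = 0
    rw [← map_nsmul, e.map_eq_zero_iff])


section Diag

variable {S G : Type*} [CommGroup G] (s₀ : S)

/-- `f ↦ (s ↦ f s / f s₀)`. -/
def s59u_diagHom : (S → G) →* ({s : S // s ≠ s₀} → G) where
  toFun f := fun s => f s / f s₀
  map_one' := by
    funext s
    simp
  map_mul' f g := by
    funext s
    show (f s * g s) / (f s₀ * g s₀) = (f s / f s₀) * (g s / g s₀)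
    rw [div_mul_div_comm]

theorem s59u_diagHom_surjective : Function.Surjective (s59u_diagHom (G := G) s₀) := by
  classical
  intro g
  refine ⟨fun s => if h : s = s₀ then 1 else g ⟨s, h⟩, ?_⟩
  funext s
  show (if h : (s : S) = s₀ then 1 else g ⟨s, h⟩) / (if h : s₀ = s₀ then 1 else g ⟨s₀, h⟩) = g s
  rw [dif_neg s.2, dif_pos rfl, div_one]

theorem s59u_diagHom_ker (D : Subgroup (S → G)) (hD : ∀ f : S → G, f ∈ D ↔ ∀ s, f s = f s₀) :
    D = (s59u_diagHom (G := G) s₀).ker := by
  classical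
  ext f
  rw [hD, MonoidHom.mem_ker]
  constructor
  · intro h
    funext s
    show f s / f s₀ = 1
    rw [h s, div_self']
  · intro h s
    by_cases hs : s = s₀
    · rw [hs]
    · have h1 := congrFun h ⟨s, hs⟩
      exact div_eq_one.mp h1

/-- `(S → G) ⧸ (constants) ≃* ({s ≠ s₀} → G)`. -/
noncomputable def s59u_quotDiagEquiv (D : Subgroup (S → G))
    (hD : ∀ f : S → G, f ∈ D ↔ ∀ s, f s = f s₀) : (S → G) ⧸ D ≃* ({s : S // s ≠ s₀} → G) :=
  (QuotientGroup.quotientMulEquivOfEq (s59u_diagHom_ker s₀ D hD)).trans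
    (QuotientGroup.quotientKerEquivOfSurjective _ (s59u_diagHom_surjective s₀))

end Diag

/-- **`card_tors` for the gluing torus** `Y = Additive ((S → G) ⧸ constants)`, `G` finite cyclic of order divisible by
`p^K`: `#Y[p^k] = p^(k (n-1))`, `n = #S ≥ 1`. -/
theorem s59u_torus_card {S G : Type*} [Finite S] [CommGroup G] [Finite G] [IsCyclic G] (s₀ : S)
    (D : Subgroup (S → G)) (hD : ∀ f : S → G, f ∈ D ↔ ∀ s, f s = f s₀)
    (p K : ℕ) (hK : p ^ K ∣ Nat.card G) (k : ℕ) (hk : k ≤ K) :
    Nat.card {y : Additive ((S → G) ⧸ D) // (p ^ k) • y = 0} = p ^ (k * (Nat.card S - 1)) := by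
  classical
  have e : Additive ((S → G) ⧸ D) ≃+ ({s : S // s ≠ s₀} → Additive G) :=
    (MulEquiv.toAdditive (s59u_quotDiagEquiv s₀ D hD)).trans (AddEquiv.funAdditive _ G)
  rw [s59u_tors_card_congr e, s59u_pi_tors_card (Z := Additive G) (p ^ k)
    (((pow_dvd_pow p hk).trans hK).trans (by rw [Nat.card_congr Additive.toMul])), ← pow_mul]
  congr 2
  haveI := Fintype.ofFinite S
  rw [Nat.card_eq_fintype_card, Nat.card_eq_fintype_card, Fintype.card_subtype_compl,
    Fintype.card_subtype_eq]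


/-- **`fin_tors` for the gluing torus.** -/
theorem s59u_torus_fin {S G : Type*} [Finite S] [CommGroup G] [Finite G] (D : Subgroup (S → G)) (d : ℕ) :
    Finite {y : Additive ((S → G) ⧸ D) // d • y = 0} := by
  haveI : Finite ((S → G) ⧸ D) := Quotient.finite _
  haveI : Finite (Additive ((S → G) ⧸ D)) := Finite.of_equiv _ Additive.ofMul
  exact Subtype.finite

/-- **`div_tors` for the gluing torus.** -/
theorem s59u_torus_div {S G : Type*} [Finite S] [CommGroup G] [Finite G] [IsCyclic G] (s₀ : S)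
    (D : Subgroup (S → G)) (hD : ∀ f : S → G, f ∈ D ↔ ∀ s, f s = f s₀)
    (p K : ℕ) (hp : p.Prime) (hK : p ^ K ∣ Nat.card G) :
    ∀ k : ℕ, k < K → ∀ y : Additive ((S → G) ⧸ D), (p ^ k) • y = 0 →
      ∃ y' : Additive ((S → G) ⧸ D), (p ^ (k + 1)) • y' = 0 ∧ p • y' = y :=
  s59u_div_of_card p K (Nat.card S - 1) hp (fun k _ => s59u_torus_fin D (p ^ k))
    (fun k hk => s59u_torus_card s₀ D hD p K hK k hk)

end Fermat.Agent.Lib.S59
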