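/-
Programme (R2), node **[CAR]**, route R-DS′ (helper3, prefix `s59u_`): **the gluing torus, DEPENDENT form**
`Y = Additive ((∀ s, G s) ⧸ d.range)` for a "diagonal" `d : H →* ∀ s, G s` all of whose components are bijective
(`H = κˣ`, `G s = (k s)ˣ`, all nodes `κ`-rational), `H` finite cyclic of order divisible by `p^K`:
`s59u_torusD_card`, `s59u_torusD_fin`, `s59u_torusD_div` = the fields `card_tors`, `fin_tors`, `div_tors` of helper9's
`s59m_CarPkg(E)`; `s59u_units_map_bijective` : `Units.map` of a bijective ring homomorphism is bijective.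
-/
import Mathlib
import Fermat.Agent.Lib.S59.UCarTorus

set_option autoImplicit false
set_option linter.unusedSectionVars false
set_option linter.unusedVariables false
set_option linter.style.haveILetI false

namespace Fermat.Agent.Lib.S59

theorem s59u_mem_diagHom_ker {S G : Type*} [CommGroup G] (s₀ : S) (f : S → G) :
    f ∈ (s59u_diagHom (G := G) s₀).ker ↔ ∀ s, f s = f s₀ := by
  classical
  rw [MonoidHom.mem_ker]
  constructor
  · intro h s
    by_cases hs : s = s₀
    · rw [hs]
    · have h1 := congrFun h ⟨s, hs⟩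
      exact div_eq_one.mp h1
  · intro h
    funext s
    show f s / f s₀ = 1
    rw [h s, div_self']

section Dep

variable {S : Type*} {G : S → Type*} [∀ s, CommGroup (G s)] {H : Type*} [CommGroup H]
  (d : H →* ∀ s, G s) (hd : ∀ s, Function.Bijective fun c => d c s)

/-- the components of the diagonal, as isomorphisms. -/
noncomputable def s59u_compEquiv (s : S) : H ≃* G s :=
  MulEquiv.ofBijective ((Pi.evalMonoidHom G s).comp d) (hd s)

theorem s59u_compEquiv_apply (s : S) (c : H) : s59u_compEquiv d hd s c = d c s := rfl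

/-- `∏ G s ≃* (S → H)` through the components of the diagonal. -/
noncomputable def s59u_piEquiv : (∀ s, G s) ≃* (S → H) :=
  MulEquiv.piCongrRight fun s => (s59u_compEquiv d hd s).symm

theorem s59u_piEquiv_apply (f : ∀ s, G s) (s : S) :
    s59u_piEquiv d hd f s = (s59u_compEquiv d hd s).symm (f s) := rfl

theorem s59u_piEquiv_diag (c : H) (s : S) : s59u_piEquiv d hd (d c) s = c := by
  rw [s59u_piEquiv_apply, MulEquiv.symm_apply_eq, s59u_compEquiv_apply]

theorem s59u_map_range (s₀ : S) :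
    d.range.map (s59u_piEquiv d hd).toMonoidHom = (s59u_diagHom (G := H) s₀).ker := by
  ext f
  rw [s59u_mem_diagHom_ker, Subgroup.mem_map]
  constructor
  · rintro ⟨g, ⟨c, rfl⟩, rfl⟩ s
    show s59u_piEquiv d hd (d c) s = s59u_piEquiv d hd (d c) s₀
    rw [s59u_piEquiv_diag, s59u_piEquiv_diag]
  · intro h
    refine ⟨d (f s₀), ⟨f s₀, rfl⟩, ?_⟩
    funext s
    show s59u_piEquiv d hd (d (f s₀)) s = f s
    rw [s59u_piEquiv_diag, h s]

/-- `(∏ G s) ⧸ d(H) ≃* (S → H) ⧸ constants`. -/
noncomputable def s59u_quotEquivD (s₀ : S) :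
    (∀ s, G s) ⧸ d.range ≃* (S → H) ⧸ (s59u_diagHom (G := H) s₀).ker :=
  QuotientGroup.congr d.range (s59u_diagHom (G := H) s₀).ker (s59u_piEquiv d hd)
    (s59u_map_range d hd s₀)

variable [Finite S] [Finite H] [IsCyclic H]

include hd in
/-- **`card_tors`, dependent form.** -/
theorem s59u_torusD_card (s₀ : S) (p K : ℕ) (hK : p ^ K ∣ Nat.card H) (k : ℕ) (hk : k ≤ K) :
    Nat.card {y : Additive ((∀ s, G s) ⧸ d.range) // (p ^ k) • y = 0} =
      p ^ (k * (Nat.card S - 1)) := by
  rw [s59u_tors_card_congr (MulEquiv.toAdditive (s59u_quotEquivD d hd s₀))]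
  exact s59u_torus_card s₀ _ (s59u_mem_diagHom_ker s₀) p K hK k hk

include hd in
/-- **`fin_tors`, dependent form.** -/
theorem s59u_torusD_fin (n : ℕ) : Finite {y : Additive ((∀ s, G s) ⧸ d.range) // n • y = 0} := by
  haveI : ∀ s, Finite (G s) := fun s => Finite.of_equiv H (s59u_compEquiv d hd s).toEquiv
  haveI : Finite ((∀ s, G s) ⧸ d.range) := Quotient.finite _
  haveI : Finite (Additive ((∀ s, G s) ⧸ d.range)) := Finite.of_equiv _ Additive.ofMul
  exact Subtype.finite

include hd in
/-- **`div_tors`, dependent form.** -/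
theorem s59u_torusD_div (s₀ : S) (p K : ℕ) (hp : p.Prime) (hK : p ^ K ∣ Nat.card H) :
    ∀ k : ℕ, k < K → ∀ y : Additive ((∀ s, G s) ⧸ d.range), (p ^ k) • y = 0 →
      ∃ y' : Additive ((∀ s, G s) ⧸ d.range), (p ^ (k + 1)) • y' = 0 ∧ p • y' = y :=
  s59u_div_of_card p K (Nat.card S - 1) hp (fun k _ => s59u_torusD_fin d hd (p ^ k))
    (fun k hk => s59u_torusD_card d hd s₀ p K hK k hk)

include hd in
/-- **`card_tors`, dependent form, no base point** (`S` may be empty). -/
theorem s59u_torusD_card' (p K : ℕ) (hK : p ^ K ∣ Nat.card H) (k : ℕ) (hk : k ≤ K) :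
    Nat.card {y : Additive ((∀ s, G s) ⧸ d.range) // (p ^ k) • y = 0} =
      p ^ (k * (Nat.card S - 1)) := by
  rcases isEmpty_or_nonempty S with hS | ⟨⟨s₀⟩⟩
  · haveI : Subsingleton ((∀ s, G s) ⧸ d.range) := by
      refine ⟨fun a b => ?_⟩
      induction a using QuotientGroup.induction_on with
      | H a =>
        induction b using QuotientGroup.induction_on with
        | H b => rw [Subsingleton.elim a b]
    haveI : Subsingleton (Additive ((∀ s, G s) ⧸ d.range)) :=
      Additive.ofMul.symm.subsingleton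
    have h0 : Nat.card S = 0 := Nat.card_eq_zero.mpr (Or.inl hS)
    rw [h0, Nat.zero_sub, mul_zero, pow_zero]
    haveI : Nonempty {y : Additive ((∀ s, G s) ⧸ d.range) // (p ^ k) • y = 0} :=
      ⟨⟨0, smul_zero _⟩⟩
    exact Nat.card_eq_one_iff_unique.mpr ⟨inferInstance, inferInstance⟩
  · exact s59u_torusD_card d hd s₀ p K hK k hk

include hd in
/-- **`div_tors`, dependent form, no base point.** -/
theorem s59u_torusD_div' (p K : ℕ) (hp : p.Prime) (hK : p ^ K ∣ Nat.card H) :
    ∀ k : ℕ, k < K → ∀ y : Additive ((∀ s, G s) ⧸ d.range), (p ^ k) • y = 0 →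
      ∃ y' : Additive ((∀ s, G s) ⧸ d.range), (p ^ (k + 1)) • y' = 0 ∧ p • y' = y :=
  s59u_div_of_card p K (Nat.card S - 1) hp (fun k _ => s59u_torusD_fin d hd (p ^ k))
    (fun k hk => s59u_torusD_card' d hd p K hK k hk)

end Dep

/-- `Units.map` of a bijective ring homomorphism is bijective. -/
theorem s59u_units_map_bijective {R R' : Type*} [Monoid R] [Monoid R'] (f : R →* R')
    (hf : Function.Bijective f) : Function.Bijective (Units.map f) := by
  refine ⟨fun a b h => Units.ext (hf.1 (congrArg (fun u : R'ˣ => (u : R')) h)), fun u => ?_⟩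
  obtain ⟨a, ha⟩ := hf.2 (u : R')
  obtain ⟨b, hb⟩ := hf.2 ((u⁻¹ : R'ˣ) : R')
  refine ⟨⟨a, b, hf.1 ?_, hf.1 ?_⟩, Units.ext ha⟩
  · rw [map_mul, ha, hb, map_one, Units.mul_inv]
  · rw [map_mul, ha, hb, map_one, Units.inv_mul]

end Fermat.Agent.Lib.S59
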