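/-
Programme (R2), node **[CAR]**, route R-DS′ (helper3, prefix `s59u_`): the fields `fin_tors`, `card_tors`, `div_tors` of
helper9's package for **helper9's gluing torus `Additive (s59m_Ygl Z)`** (`MCarDatum.lean`), when all nodes are rational
over the finite field `κ` (`algebraMap κ (k s)` bijective) and `p^K ∣ #κˣ`; `n := Nat.card ι` (the number of nodes).
-/
import Mathlib
import Fermat.Agent.Lib.S59.MCarDatum
import Fermat.Agent.Lib.S59.UCarTorusD

set_option autoImplicit false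
set_option linter.unusedSectionVars false
set_option linter.unusedVariables false
set_option linter.style.haveILetI false

noncomputable section

namespace Fermat.Agent.Lib.S59

open AlgebraicCurve Fermat.Agent.Lib.FF Fermat.Agent.Lib.S33

variable {L₀ 𝓕' κ Fb : Type*} [Field L₀] [Field 𝓕'] [Algebra L₀ 𝓕'] [Field κ] [Field Fb] [Algebra κ Fb]
variable {D' : s33f_Datum L₀ 𝓕' κ Fb} {𝓕 : Type*} [Field 𝓕] [Algebra L₀ 𝓕]
variable {ι : Type*} {k : ι → Type*} [∀ s, Field (k s)] [∀ s, Algebra κ (k s)]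
variable (Z : s33z_Datum D' 𝓕 ι k) (hrat : ∀ s, Function.Bijective (algebraMap κ (k s)))

include hrat in
theorem s59u_diag_comp_bijective (s : ι) : Function.Bijective fun c : κˣ => s59m_diag Z c s :=
  s59u_units_map_bijective (algebraMap κ (k s) : κ →* k s) (hrat s)

variable [Finite ι] [Finite κ]

include hrat in
/-- **`card_tors` for `Additive (s59m_Ygl Z)`.** -/
theorem s59u_Ygl_card (s₀ : ι) (p K : ℕ) (hK : p ^ K ∣ Nat.card κˣ) (j : ℕ) (hj : j ≤ K) :
    Nat.card {y : Additive (s59m_Ygl Z) // (p ^ j) • y = 0} = p ^ (j * (Nat.card ι - 1)) :=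
  s59u_torusD_card (s59m_diag Z) (s59u_diag_comp_bijective Z hrat) s₀ p K hK j hj

include hrat in
/-- **`fin_tors` for `Additive (s59m_Ygl Z)`.** -/
theorem s59u_Ygl_fin (n : ℕ) : Finite {y : Additive (s59m_Ygl Z) // n • y = 0} :=
  s59u_torusD_fin (s59m_diag Z) (s59u_diag_comp_bijective Z hrat) n

include hrat in
/-- **`div_tors` for `Additive (s59m_Ygl Z)`.** -/
theorem s59u_Ygl_div (s₀ : ι) (p K : ℕ) (hp : p.Prime) (hK : p ^ K ∣ Nat.card κˣ) :
    ∀ j : ℕ, j < K → ∀ y : Additive (s59m_Ygl Z), (p ^ j) • y = 0 →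
      ∃ y' : Additive (s59m_Ygl Z), (p ^ (j + 1)) • y' = 0 ∧ p • y' = y :=
  s59u_torusD_div (s59m_diag Z) (s59u_diag_comp_bijective Z hrat) s₀ p K hp hK

include hrat in
/-- **`card_tors` for `Additive (s59m_Ygl Z)`, no base point** (`ι` may be empty). -/
theorem s59u_Ygl_card' (p K : ℕ) (hK : p ^ K ∣ Nat.card κˣ) (j : ℕ) (hj : j ≤ K) :
    Nat.card {y : Additive (s59m_Ygl Z) // (p ^ j) • y = 0} = p ^ (j * (Nat.card ι - 1)) :=
  s59u_torusD_card' (s59m_diag Z) (s59u_diag_comp_bijective Z hrat) p K hK j hj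

include hrat in
/-- **`div_tors` for `Additive (s59m_Ygl Z)`, no base point.** -/
theorem s59u_Ygl_div' (p K : ℕ) (hp : p.Prime) (hK : p ^ K ∣ Nat.card κˣ) :
    ∀ j : ℕ, j < K → ∀ y : Additive (s59m_Ygl Z), (p ^ j) • y = 0 →
      ∃ y' : Additive (s59m_Ygl Z), (p ^ (j + 1)) • y' = 0 ∧ p • y' = y :=
  s59u_torusD_div' (s59m_diag Z) (s59u_diag_comp_bijective Z hrat) p K hp hK

end Fermat.Agent.Lib.S59
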