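/-
Programme (R2), node **[CAR]**, route R-DS′ (helper3, prefix `s59u_`): **THE CONSTRUCTOR GLUE** of helper9's package
`s59m_CarPkgE M q p A K C` from the typed leaves of #3681:

* a Σ-datum `Z` with finitely many nodes, all rational over the finite residue field `κ` (`hrat`, [NODE-RAT]),
  `p ^ K ∣ #κˣ`;
* a Kummer frame `F : s59m_KumFrame (M q) (p^K) Z` ([L-a]);  `s59m_RootConst κ Fb (p^K)` ([L-b], `s59u_rootConst`);
* Hecke frames `HF ℓ` for `ℓ ∤ M q p` ([L-c]);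
* the count data `s59m_CountData M q p K C (Nat.card ι) F.Tor` ([L-d]);
* the level-`M q²` leaf `lvl2` in the `F.Eig` shape.

Everything else (the three torus fields, `count`, `D`, `D_inj`, `eig_tor`) is supplied here from `UCarYgl.lean`,
`UCarM.lean` (`s59u_CarCount`) and helper9's `MCarAsm.lean`.
-/
import Mathlib
import Fermat.Agent.Lib.S59.MCarAsm
import Fermat.Agent.Lib.S59.MCarIfaceE
import Fermat.Agent.Lib.S59.UCarYgl
import Fermat.Agent.Lib.S59.UCarM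

set_option autoImplicit false
set_option linter.unusedSectionVars false
set_option linter.unusedVariables false
set_option linter.style.haveILetI false

noncomputable section

namespace Fermat.Agent.Lib.S59

open ModularCurve AlgebraicCurve Fermat.Agent.Lib.FF Fermat.Agent.Lib.S28 Fermat.Agent.Lib.S29
  Fermat.Agent.Lib.S30 Fermat.Agent.Lib.S37 Fermat.Agent.Lib.S35 Fermat.Agent.Lib.S33
  Fermat.Agent.Lib.S44 Fermat.Agent.Lib.S36

local notation "Kb" => AlgebraicClosure ℚ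
local notation "Γℚ" => (AlgebraicClosure ℚ ≃ₐ[ℚ] AlgebraicClosure ℚ)

variable {L₀ 𝓕' κ Fb : Type*} [Field L₀] [Field 𝓕'] [Algebra L₀ 𝓕'] [Field κ] [Field Fb] [Algebra κ Fb]
variable {D' : s33f_Datum L₀ 𝓕' κ Fb} {𝓕 : Type*} [Field 𝓕] [Algebra L₀ 𝓕]
variable {ι : Type} {k : ι → Type} [∀ s, Field (k s)] [∀ s, Algebra κ (k s)]

/-- **the level-`M q²` leaf in the frame shape**: the last field of `s59m_CarPkgE`, for the gluing torus
`Additive (s59m_Ygl Z)` and the eigen-data `F.Eig`. -/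
def s59u_Lvl2 (M q p : ℕ) [NeZero M] [NeZero q] (A : ValuationSubring Kb) {K : ℕ}
    {Z : s33z_Datum D' 𝓕 ι k} (F : s59m_KumFrame (M * q) (p ^ K) Z)
    (HF : ∀ ℓ : Nat.Primes, ¬ (ℓ : ℕ) ∣ M * q * p → s59m_HeckeFrame F ℓ) : Prop :=
  ∀ (a : ℕ → ℤ) (B : Finset ℕ), (∀ r : ℕ, r.Prime → r ∣ M * q * p → r ∈ B) →
    (∃ ℓ₀ : Nat.Primes, (ℓ₀ : ℕ) ∉ B ∧ ¬ (p : ℤ) ∣ a ℓ₀ - ((ℓ₀ : ℕ) + 1)) →
    ∀ (L : IntermediateField ℚ Kb) [FiniteDimensional ℚ ↥L] [Normal ℚ ↥L],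
    ∀ x : JZero (M * q * q), x ≠ 0 → s44i_Eig (M * q * q) p a B x →
      (∀ σ : Γℚ, (∀ b ∈ L, σ b = b) → σ • x = x) →
      (∀ τ ∈ A.inertiaSubgroupIn ℚ, τ • x = x) →
      s36w_alphaPush (M * q) q x = 0 → s36w_betaPush (M * q) q x = 0 →
      (∃ y : JZero M, y ≠ 0 ∧ s44i_Eig M p a B y) ∨
        (∃ u : Additive (s59m_Ygl Z), u ≠ 0 ∧ p • u = 0 ∧
          F.Eig (M * q * p) HF a B (Additive.toMul u))

/-- **THE CONSTRUCTOR GLUE**: the package from its typed leaves. -/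
def s59u_pkgE_of {M q p : ℕ} [NeZero M] [NeZero q] [Fact p.Prime] (A : ValuationSubring Kb)
    (K C : ℕ) [Finite ι] [Finite κ] (Z : s33z_Datum D' 𝓕 ι k)
    (hrat : ∀ s, Function.Bijective (algebraMap κ (k s))) (hK : p ^ K ∣ Nat.card κˣ)
    (F : s59m_KumFrame (M * q) (p ^ K) Z) (hrc : s59m_RootConst κ Fb (p ^ K))
    (HF : ∀ ℓ : Nat.Primes, ¬ (ℓ : ℕ) ∣ M * q * p → s59m_HeckeFrame F ℓ)
    (cd : s59m_CountData M q p K C (Nat.card ι) F.Tor)
    (h2 : s59u_Lvl2 M q p A F HF) : s59m_CarPkgE M q p A K C :=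
  have hpK : p ^ K ≠ 0 := (pow_pos (Fact.out : p.Prime).pos K).ne'
  { Y := Additive (s59m_Ygl Z)
    grpY := inferInstance
    n := Nat.card ι
    fin_tors := fun j _ => s59u_Ygl_fin Z hrat (p ^ j)
    card_tors := fun j hj => s59u_Ygl_card' Z hrat p K hK j hj
    div_tors := s59u_Ygl_div' Z hrat p K (Fact.out : p.Prime) hK
    Tor := F.Tor
    tor_exp := fun x hx => F.tor_exp hx
    D := F.D hpK hrc
    D_inj := F.D_inj hpK hrc
    count := s59u_CarCount p M q K C (Nat.card ι) F.Tor (fun x hx => F.tor_exp hx) cd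
    Eig := fun a B u => F.Eig (M * q * p) HF a B (Additive.toMul u)
    eig_tor := fun a B hB t ht ℓ hℓ => F.eig_tor hpK hrc (M * q * p) HF a B hB t ht ℓ hℓ
    lvl2 := h2 }

/-- **[CAR-PKG] at `(p, M, q)` from the leaves at every place and depth.**  The loss `C` may depend on the place `A`
but not on the depth `K`; everything else (the Σ-datum, the frames) may depend on both. -/
theorem s59u_pkgEAt_of {M q p : ℕ} [NeZero M] [NeZero q] [Fact p.Prime]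
    (h : ∀ A : ValuationSubring Kb, A.LiesOverPrime q → ∃ C : ℕ, ∀ K : ℕ,
      ∃ (L₀ 𝓕' κ Fb : Type) (_ : Field L₀) (_ : Field 𝓕') (_ : Algebra L₀ 𝓕') (_ : Field κ)
        (_ : Field Fb) (_ : Algebra κ Fb) (D' : s33f_Datum L₀ 𝓕' κ Fb) (𝓕 : Type) (_ : Field 𝓕)
        (_ : Algebra L₀ 𝓕) (ι : Type) (k : ι → Type) (_ : ∀ s, Field (k s))
        (_ : ∀ s, Algebra κ (k s)) (_ : Finite ι) (_ : Finite κ) (Z : s33z_Datum D' 𝓕 ι k)
        (F : s59m_KumFrame (M * q) (p ^ K) Z)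
        (HF : ∀ ℓ : Nat.Primes, ¬ (ℓ : ℕ) ∣ M * q * p → s59m_HeckeFrame F ℓ),
        (∀ s, Function.Bijective (algebraMap κ (k s))) ∧ p ^ K ∣ Nat.card κˣ ∧
          s59m_RootConst κ Fb (p ^ K) ∧ Nonempty (s59m_CountData M q p K C (Nat.card ι) F.Tor) ∧
          s59u_Lvl2 M q p A F HF) :
    s59m_CarPkgEAt p M q := by
  intro A hA
  obtain ⟨C, hC⟩ := h A hA
  refine ⟨C, fun K => ?_⟩
  obtain ⟨L₀, 𝓕', κ, Fb, i1, i2, i3, i4, i5, i6, D', 𝓕, i7, i8, ι, k, i9, i10, i11, i12, Z, F, HF,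
    hrat, hK, hrc, ⟨cd⟩, h2⟩ := hC K
  exact ⟨s59u_pkgE_of A K C Z hrat hK F hrc HF cd h2⟩

end Fermat.Agent.Lib.S59
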