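/-
Programme (R2), node **[CAR]**, route R-DS′, leaf **[L-b]** of helper9's #3681 (helper3, prefix `s59u_`):
**`s59m_RootConst κ Fb m`** — `m`-th roots of constants are constants — for EVERY intermediate field
`κ ⊆ Fb ⊆ κ((t))` (in particular `Fb = modularFunctionFieldFullC κ M`) and every `m` invertible in `κ`.

* `s59u_powerSeries_root_const` : in `κ[[X]]`, `f ^ m = C c`, `c ≠ 0` ⇒ `f` is constant (geometric-sum factorisation
  `f^m − f₀^m = G · (f − f₀)` with `G(0) = m f₀^(m−1)` a unit);
* `s59u_laurent_root_const` : the same in `κ((X))`;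
* `s59u_rootConst` : `s59m_RootConst κ ↥E m` for `E : IntermediateField κ (LaurentSeries κ)`.
-/
import Mathlib
import Fermat.Agent.Lib.S59.MCarDatum

set_option autoImplicit false
set_option linter.unusedSectionVars false
set_option linter.unusedVariables false
set_option linter.style.haveILetI false

namespace Fermat.Agent.Lib.S59

open PowerSeries in
/-- in `κ[[X]]`, an `m`-th root of a non-zero constant is constant (`m` invertible in `κ`). -/
theorem s59u_powerSeries_root_const {κ : Type*} [Field κ] (m : ℕ) (hm : (m : κ) ≠ 0)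
    (f : PowerSeries κ) (c : κ) (hc : c ≠ 0) (h : f ^ m = PowerSeries.C c) :
    f = PowerSeries.C (PowerSeries.constantCoeff f) := by
  set f₀ : κ := PowerSeries.constantCoeff f with hf₀
  have hm0 : m ≠ 0 := by
    rintro rfl
    exact hm Nat.cast_zero
  have hf₀m : f₀ ^ m = c := by
    have := congrArg PowerSeries.constantCoeff h
    rwa [map_pow, PowerSeries.constantCoeff_C] at this
  have hf₀0 : f₀ ≠ 0 := by
    rintro h0
    rw [h0, zero_pow hm0] at hf₀m
    exact hc hf₀m.symm
  set G : PowerSeries κ := ∑ i ∈ Finset.range m, f ^ i * (PowerSeries.C f₀) ^ (m - 1 - i) with hG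
  have hGr : G * (f - PowerSeries.C f₀) = 0 := by
    rw [hG, (Commute.all f (PowerSeries.C f₀)).geom_sum₂_mul, h, ← map_pow, hf₀m, sub_self]
  have hGc : PowerSeries.constantCoeff G = (m : κ) * f₀ ^ (m - 1) := by
    rw [hG, map_sum]
    have : ∀ i ∈ Finset.range m,
        PowerSeries.constantCoeff (f ^ i * (PowerSeries.C f₀) ^ (m - 1 - i)) = f₀ ^ (m - 1) := by
      intro i hi
      rw [map_mul, map_pow, map_pow, PowerSeries.constantCoeff_C, ← pow_add]
      congr 1
      have := Finset.mem_range.mp hi
      omega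
    rw [Finset.sum_congr rfl this, Finset.sum_const, Finset.card_range, nsmul_eq_mul]
  have hGu : IsUnit G := by
    rw [PowerSeries.isUnit_iff_constantCoeff, hGc]
    exact (mul_ne_zero hm (pow_ne_zero _ hf₀0)).isUnit
  have := (hGu.mul_right_eq_zero).mp hGr
  exact sub_eq_zero.mp this


/-- in `κ((X))`, an `m`-th root of a constant is constant (`m` invertible in `κ`). -/
theorem s59u_laurent_root_const {κ : Type*} [Field κ] (m : ℕ) (hm : (m : κ) ≠ 0)
    (a : LaurentSeries κ) (c : κ) (h : a ^ m = HahnSeries.C c) : ∃ d : κ, a = HahnSeries.C d := by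
  have hm0 : m ≠ 0 := by
    rintro rfl
    exact hm Nat.cast_zero
  by_cases hc : c = 0
  · refine ⟨0, ?_⟩
    rw [hc, map_zero] at h
    rw [map_zero]
    exact pow_eq_zero_iff hm0 |>.mp h
  · have hord : a.order = 0 := by
      have h1 := HahnSeries.order_pow a m
      rw [h, HahnSeries.order_C] at h1
      rcases smul_eq_zero.mp h1.symm with h2 | h2
      · exact absurd h2 hm0
      · exact h2
    have ha : a = HahnSeries.ofPowerSeries ℤ κ (LaurentSeries.powerSeriesPart a) := by
      have h1 := LaurentSeries.single_order_mul_powerSeriesPart a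
      rw [hord] at h1
      have h2 : (HahnSeries.single (0 : ℤ) (1 : κ)) = 1 := rfl
      rw [h2, one_mul] at h1
      exact h1.symm
    have h3 : (LaurentSeries.powerSeriesPart a) ^ m = PowerSeries.C c := by
      apply HahnSeries.ofPowerSeries_injective (Γ := ℤ) (R := κ)
      rw [map_pow, ← ha, h, HahnSeries.ofPowerSeries_C]
    have h4 := s59u_powerSeries_root_const m hm _ c hc h3
    refine ⟨PowerSeries.constantCoeff (LaurentSeries.powerSeriesPart a), ?_⟩
    rw [← HahnSeries.ofPowerSeries_C, ← h4]
    exact ha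


/-- **[L-b]**: `s59m_RootConst` for every intermediate field of `κ((t)) / κ`. -/
theorem s59u_rootConst {κ : Type*} [Field κ] (E : IntermediateField κ (LaurentSeries κ)) (m : ℕ)
    (hm : (m : κ) ≠ 0) : s59m_RootConst κ ↥E m := by
  intro a c h
  have hC : ∀ e : κ, ((algebraMap κ ↥E e : ↥E) : LaurentSeries κ) = HahnSeries.C e := fun e => by
    rw [IntermediateField.coe_algebraMap_apply, HahnSeries.algebraMap_apply',
      PowerSeries.algebraMap_apply, Algebra.algebraMap_self, RingHom.id_apply,
      HahnSeries.ofPowerSeries_C]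
  have h1 : (a : LaurentSeries κ) ^ m = HahnSeries.C c := by
    have := congrArg (fun z : ↥E => (z : LaurentSeries κ)) h
    rw [← hC]
    exact this
  obtain ⟨d, hd⟩ := s59u_laurent_root_const m hm (a : LaurentSeries κ) c h1
  exact ⟨d, Subtype.ext (by rw [hC]; exact hd)⟩

end Fermat.Agent.Lib.S59
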