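/-
Programme (R2) / node **[CAR]**, route R-DS′ (helper9, prefix `s59m_`): **THE TOP ASSEMBLY** of the gluing-torus package
`s59m_CarPkgEAt p M q` (`5 ≤ q`, `q ∤ M`, `p ≠ q`) from the typed leaves over the CANONICAL concrete frame.

For a place `P ∣ q` and a finite extension `L₀ / ℚ` fixed pointwise by the inertia group of `P` (`hunr`):
* `s59m_ZU M q hqM h5 P hP L₀ hunr` : the Σ-datum `s59m_Zc` with `ϖ = q`, `e = 1`, `ε = 1`;
* `s59m_kumFrameU … m hm0 hqm` : its Kummer frame of exponent `m` (`s59m_kumFrameC`, [L-a]).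
  Both take the instances `[CharP κ₀ q] [PerfectField κ₀]` (`κ₀ = ResidueField (s18q_A0 P L₀)`; they are
  `s37rl_charP P hP L₀`, `s37rl_perfectField P hP L₀`) as INSTANCE ARGUMENTS, because the `κ₀`-algebra structure of the
  residue fields of the nodes (`s33s_kG.algebra`) is found by instance search through them;
* **`s59m_pkgEAt_of_leaves`** : `s59m_CarPkgEAt p M q` from the four remaining leaves, each stated for the canonical
  frame: `hHF` = [L-c] (a Hecke frame for every `ℓ ∤ M q p`), `hrat` = [L-e] (the nodes are rational over `κ₀` once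
  `μ_{q²-1} ⊆ L₀`), `hcount` = [L-d] (`s59m_CountData`, the loss `C` depends on the place only; the base field comes with
  `s59m_Base` AND the rationality wall `s59m_BaseQ4`), `hlvl2` = the level-`M q²`
  leaf `s59u_Lvl2`.  Everything else ([FR-K0]⁺ `s59m_exists_base_q4`, [L-a], [L-b] `s59u_rootConst`, finiteness of `κ₀` and of
  the node set, `p ^ K ∣ #κ₀ˣ`, helper3's glue `s59u_pkgEAt_of`) is supplied here.
-/
import Fermat.Agent.Lib.S59.MCarBaseQ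
import Fermat.Agent.Lib.S59.UCarPkgOf
import Fermat.Agent.Lib.S59.UCarRootConst

set_option autoImplicit false
set_option linter.style.haveILetI false
set_option linter.unusedSectionVars false
set_option linter.unusedVariables false
set_option synthInstance.maxHeartbeats 400000

noncomputable section

namespace Fermat.Agent.Lib.S59

open ModularCurve HahnSeries AlgebraicCurve Fermat.Agent.Lib.FF Fermat.Agent.Lib.S18
  Fermat.Agent.Lib.S28 Fermat.Agent.Lib.S29 Fermat.Agent.Lib.S37 Fermat.Agent.Lib.S34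
  Fermat.Agent.Lib.S35 Fermat.Agent.Lib.S33 Fermat.Agent.Lib.S44

local notation "Kb" => AlgebraicClosure ℚ
local notation "Γℚ" => (AlgebraicClosure ℚ ≃ₐ[ℚ] AlgebraicClosure ℚ)

section Canon

variable (M q : ℕ) [NeZero M] [hq : Fact q.Prime] (hqM : ¬ q ∣ M) (h5 : 5 ≤ q)
  (P : ValuationSubring Kb) (hP : P.LiesOverPrime q)
  (L₀ : IntermediateField ℚ Kb) [FiniteDimensional ℚ ↥L₀]
  (hunr : ∀ τ ∈ P.inertiaSubgroupIn ℚ, ∀ a ∈ L₀, τ a = a)

theorem s59m_hT_U [CharP (IsLocalRing.ResidueField ↥(s18q_A0 P L₀)) q] (hqM : ¬ q ∣ M) :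
    s18g_HT (IsLocalRing.ResidueField ↥(s18q_A0 P L₀)) M :=
  s18t_indep_j q M hqM _

theorem s59m_hperf_U [CharP (IsLocalRing.ResidueField ↥(s18q_A0 P L₀)) q]
    [PerfectField (IsLocalRing.ResidueField ↥(s18q_A0 P L₀))] :
    ∀ c : IsLocalRing.ResidueField ↥(s18q_A0 P L₀), ∃ d, d ^ q = c := by
  haveI : PerfectRing (IsLocalRing.ResidueField ↥(s18q_A0 P L₀)) q := PerfectField.toPerfectRing q
  exact fun c => surjective_frobenius _ q c

include hqM in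
theorem s59m_hdeg_U : s34m_HDeg ↥L₀ M q := by
  haveI : NeZero q := ⟨hq.out.ne_zero⟩
  exact s34r_deg_HDeg (algebraMap ↥L₀ Kb) M q hq.out hqM

variable [CharP (IsLocalRing.ResidueField ↥(s18q_A0 P L₀)) q]
  [PerfectField (IsLocalRing.ResidueField ↥(s18q_A0 P L₀))]

/-- **the canonical Σ-datum** of `X₀(M q)` over an inertia-fixed base field: `ϖ = q`, `e = 1`, `ε = 1`.
(The instances `CharP κ₀ q`, `PerfectField κ₀` are `s37rl_charP P hP L₀`, `s37rl_perfectField P hP L₀`.) -/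
def s59m_ZU :=
  @s59m_Zc M q _ hq hqM h5 P L₀ (s18q_A0_dvr P L₀ hP) ((q : ℕ) : ↥(s18q_A0 P L₀))
    (s59m_q_irreducible q P hP L₀ hunr) ⟨⟩ _ _
    (s18q_A0_dvr P L₀ hP) (s59m_hdeg_U M q hqM L₀) (s59m_hT_U M q P L₀ hqM)
    (fun n b hb hn => s18g_exists_relation M (algebraMap ↥L₀ Kb) hn b hb)
    IsLocalRing.residue_surjective 1 1 one_pos (one_mem _) (by rw [inv_one]; exact one_mem _)
    one_ne_zero (by rw [one_mul, pow_one]; rfl) (s59m_hperf_U q P L₀)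

/-- **the canonical Kummer frame** of exponent `m` (`m ≠ 0`, `q ∤ m`). -/
def s59m_kumFrameU (m : ℕ) (hm0 : m ≠ 0) (hqm : ¬ q ∣ m) :
    s59m_KumFrame (M * q) m (s59m_ZU M q hqM h5 P hP L₀ hunr) :=
  @s59m_kumFrameC M q _ hq hqM h5 m hm0 hqm P hP L₀ _ (s18q_A0_dvr P L₀ hP)
    ((q : ℕ) : ↥(s18q_A0 P L₀))
    (s59m_q_irreducible q P hP L₀ hunr) ⟨⟩ _ _
    (s18q_A0_dvr P L₀ hP) (s59m_hdeg_U M q hqM L₀) (s59m_hT_U M q P L₀ hqM)
    (fun n b hb hn => s18g_exists_relation M (algebraMap ↥L₀ Kb) hn b hb)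
    IsLocalRing.residue_surjective 1 1 one_pos (one_mem _) (by rw [inv_one]; exact one_mem _)
    one_ne_zero (by rw [one_mul, pow_one]; rfl) (s59m_hperf_U q P L₀)

theorem s59m_kumFrameU_gen (m : ℕ) (hm0 : m ≠ 0) (hqm : ¬ q ∣ m) (x : JZero (M * q))
    (h : s34m_F ↥L₀ (M * q)) :
    (s59m_kumFrameU M q hqM h5 P hP L₀ hunr m hm0 hqm).gen x h ↔
      s33d_IsKumGen m x (s18q_incl (M * q) L₀ h) := Iff.rfl

end Canon

section Top

variable (M q p : ℕ) [NeZero M] [hq : Fact q.Prime] [hp : Fact p.Prime] (hqM : ¬ q ∣ M)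
  (h5 : 5 ≤ q) (hpq : p ≠ q)

theorem s59m_pK_ne (K : ℕ) : p ^ K ≠ 0 := (pow_pos hp.out.pos K).ne'

include hpq in
theorem s59m_q_ndvd_pK (K : ℕ) : ¬ q ∣ p ^ K := fun h =>
  hpq ((Nat.prime_dvd_prime_iff_eq hq.out hp.out).mp (hq.out.dvd_of_dvd_pow h)).symm

/-- the node type of the canonical Σ-datum. -/
abbrev s59m_NodeU (P : ValuationSubring Kb) (hP : P.LiesOverPrime q)
    (L₀ : IntermediateField ℚ Kb) [FiniteDimensional ℚ ↥L₀]
    (hunr : ∀ τ ∈ P.inertiaSubgroupIn ℚ, ∀ a ∈ L₀, τ a = a) : Type :=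
  s33s_Node (s34m_VV (@s37r_G P L₀ (s18q_A0_dvr P L₀ hP) ((q : ℕ) : ↥(s18q_A0 P L₀))
      (s59m_q_irreducible q P hP L₀ hunr)) (algebraMap ↥L₀ Kb) M q hq.out hqM)
    (s34m_unif (@s37r_G P L₀ (s18q_A0_dvr P L₀ hP) ((q : ℕ) : ↥(s18q_A0 P L₀))
      (s59m_q_irreducible q P hP L₀ hunr)) (M * q))
    (s18_chart1 (L₀ := ↥L₀) (s18g_jF (K := ↥L₀) (M * q)))

include hpq in
set_option maxHeartbeats 1600000 in
/-- **THE TOP ASSEMBLY**: `s59m_CarPkgEAt p M q` from the typed leaves [L-c] (Hecke frames), [L-e] (node rationality),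
[L-d] (count data) and [lvl2], over the canonical frames of the admissible base fields ([L-a], [L-b], [FR-K0] proved). -/
theorem s59m_pkgEAt_of_leaves
    (hHF : ∀ (P : ValuationSubring Kb) (hP : P.LiesOverPrime q) (L₀ : IntermediateField ℚ Kb)
      [FiniteDimensional ℚ ↥L₀] [CharP (IsLocalRing.ResidueField ↥(s18q_A0 P L₀)) q]
      [PerfectField (IsLocalRing.ResidueField ↥(s18q_A0 P L₀))]
      (hunr : ∀ τ ∈ P.inertiaSubgroupIn ℚ, ∀ a ∈ L₀, τ a = a) (K : ℕ) (ℓ : Nat.Primes),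
      ¬ (ℓ : ℕ) ∣ M * q * p →
      Nonempty (s59m_HeckeFrame (s59m_kumFrameU M q hqM h5 P hP L₀ hunr (p ^ K) (s59m_pK_ne p K)
        (s59m_q_ndvd_pK q p hpq K)) ℓ))
    (hrat : ∀ (P : ValuationSubring Kb) (hP : P.LiesOverPrime q) (L₀ : IntermediateField ℚ Kb)
      [FiniteDimensional ℚ ↥L₀] [CharP (IsLocalRing.ResidueField ↥(s18q_A0 P L₀)) q]
      [PerfectField (IsLocalRing.ResidueField ↥(s18q_A0 P L₀))]
      (hunr : ∀ τ ∈ P.inertiaSubgroupIn ℚ, ∀ a ∈ L₀, τ a = a),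
      (∃ ζ : Kb, ζ ∈ L₀ ∧ IsPrimitiveRoot ζ (q ^ 2 - 1)) →
      ∀ s : s59m_NodeU M q hqM P hP L₀ hunr,
        Function.Bijective (algebraMap (IsLocalRing.ResidueField ↥(s18q_A0 P L₀))
          (s33s_kG (@s37r_G P L₀ (s18q_A0_dvr P L₀ hP) ((q : ℕ) : ↥(s18q_A0 P L₀))
            (s59m_q_irreducible q P hP L₀ hunr)) (algebraMap ↥L₀ Kb) M q hqM
            (s18_chart1 (L₀ := ↥L₀) (s18g_jF (K := ↥L₀) (M * q))) IsLocalRing.residue_surjective s)))
    (hcount : ∀ (P : ValuationSubring Kb) (hP : P.LiesOverPrime q), ∃ C : ℕ, ∀ (K : ℕ)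
      (L₀ : IntermediateField ℚ Kb) [FiniteDimensional ℚ ↥L₀]
      [CharP (IsLocalRing.ResidueField ↥(s18q_A0 P L₀)) q]
      [PerfectField (IsLocalRing.ResidueField ↥(s18q_A0 P L₀))]
      (hB : haveI : NeZero q := ⟨hq.out.ne_zero⟩; s59m_Base M q p K P L₀)
      (hQ : s59m_BaseQ4 M q p K hqM P L₀),
      haveI : NeZero q := ⟨hq.out.ne_zero⟩
      Nonempty (s59m_CountData M q p K C (Nat.card (s59m_NodeU M q hqM P hP L₀ hB.unr))
        (s59m_kumFrameU M q hqM h5 P hP L₀ hB.unr (p ^ K) (s59m_pK_ne p K)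
          (s59m_q_ndvd_pK q p hpq K)).Tor))
    (hlvl2 : ∀ (P : ValuationSubring Kb) (hP : P.LiesOverPrime q) (K : ℕ)
      (L₀ : IntermediateField ℚ Kb) [FiniteDimensional ℚ ↥L₀]
      [CharP (IsLocalRing.ResidueField ↥(s18q_A0 P L₀)) q]
      [PerfectField (IsLocalRing.ResidueField ↥(s18q_A0 P L₀))]
      (hB : haveI : NeZero q := ⟨hq.out.ne_zero⟩; s59m_Base M q p K P L₀)
      (HF : ∀ ℓ : Nat.Primes, ¬ (ℓ : ℕ) ∣ M * q * p →
        s59m_HeckeFrame (s59m_kumFrameU M q hqM h5 P hP L₀ hB.unr (p ^ K) (s59m_pK_ne p K)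
          (s59m_q_ndvd_pK q p hpq K)) ℓ),
      haveI : NeZero q := ⟨hq.out.ne_zero⟩
      s59u_Lvl2 M q p P (s59m_kumFrameU M q hqM h5 P hP L₀ hB.unr (p ^ K) (s59m_pK_ne p K)
        (s59m_q_ndvd_pK q p hpq K)) HF) :
    haveI : NeZero q := ⟨hq.out.ne_zero⟩
    s59m_CarPkgEAt p M q := by
  haveI : NeZero q := ⟨hq.out.ne_zero⟩
  refine s59u_pkgEAt_of ?_
  intro A hA
  obtain ⟨C, hC⟩ := hcount A hA
  refine ⟨C, fun K => ?_⟩
  obtain ⟨L₀, hfd, hB, hQ⟩ := s59m_exists_base_q4 M q p K hqM h5 hpq A hA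
  haveI := hfd
  haveI : NumberField ↥L₀ := ⟨⟩
  haveI hdvr : IsDiscreteValuationRing ↥(s18q_A0 A L₀) := s18q_A0_dvr A L₀ hA
  haveI hchar : CharP (IsLocalRing.ResidueField ↥(s18q_A0 A L₀)) q := s37rl_charP A hA L₀
  haveI hperf : PerfectField (IsLocalRing.ResidueField ↥(s18q_A0 A L₀)) :=
    s37rl_perfectField A hA L₀
  haveI hfinκ : Finite (IsLocalRing.ResidueField ↥(s18q_A0 A L₀)) := s59m_residue_finite q A hA L₀
  haveI hfinι : Finite (s59m_NodeU M q hqM A hA L₀ hB.unr) := by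
    haveI : IsDiscreteValuationRing ↥(s37r_G A L₀ ((q : ℕ) : ↥(s18q_A0 A L₀))
        (s59m_q_irreducible q A hA L₀ hB.unr)).A := hdvr
    exact Fermat.Agent.Lib.S44.s44e_finite_node_five M q hqM h5 ↥L₀ (algebraMap ↥L₀ Kb) _
      (s37r_G A L₀ ((q : ℕ) : ↥(s18q_A0 A L₀)) (s59m_q_irreducible q A hA L₀ hB.unr))
      (s59m_hdeg_U M q hqM L₀) (s59m_hT_U M q A L₀ hqM)
      (fun n b hb hn => s18g_exists_relation M (algebraMap ↥L₀ Kb) hn b hb)
      IsLocalRing.residue_surjective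
  have HF : ∀ ℓ : Nat.Primes, ¬ (ℓ : ℕ) ∣ M * q * p →
      s59m_HeckeFrame (s59m_kumFrameU M q hqM h5 A hA L₀ hB.unr (p ^ K) (s59m_pK_ne p K)
        (s59m_q_ndvd_pK q p hpq K)) ℓ := fun ℓ hℓ => (hHF A hA L₀ hB.unr K ℓ hℓ).some
  have hK : p ^ K ∣ Nat.card (IsLocalRing.ResidueField ↥(s18q_A0 A L₀))ˣ := by
    obtain ⟨ζ, hζL, hζ⟩ := hB.zeta
    exact s59m_dvd_card_units q A hA L₀ (s59m_pK_ne p K)
      (Nat.Coprime.pow_left K ((Nat.coprime_primes hp.out hq.out).mpr hpq)) hζL hζ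
  have hrc : s59m_RootConst (IsLocalRing.ResidueField ↥(s18q_A0 A L₀))
      ↥(modularFunctionFieldFullC (IsLocalRing.ResidueField ↥(s18q_A0 A L₀)) M) (p ^ K) := by
    refine s59u_rootConst _ (p ^ K) ?_
    rw [Ne, CharP.cast_eq_zero_iff (IsLocalRing.ResidueField ↥(s18q_A0 A L₀)) q]
    exact s59m_q_ndvd_pK q p hpq K
  exact ⟨_, _, _, _, _, _, _, _, _, _, _, _, _, _, _, _, _, _, hfinι, hfinκ,
    s59m_ZU M q hqM h5 A hA L₀ hB.unr,
    s59m_kumFrameU M q hqM h5 A hA L₀ hB.unr (p ^ K) (s59m_pK_ne p K) (s59m_q_ndvd_pK q p hpq K), HF,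
    hrat A hA L₀ hB.unr hB.zeta2, hK, hrc, hC K L₀ hB hQ, hlvl2 A hA K L₀ hB HF⟩

end Top

end Fermat.Agent.Lib.S59
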