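/-
Programme (R2) / node **[CAR]**, the ports to `q ∈ {2, 3}` (helper2, prefix `s59b_`): **THE TOP ASSEMBLY OVER A CHART** —
helper9's `MCarTop.lean` with the chart `{j regular}` (`5 ≤ q`) replaced by a chart package.

For a place `P ∣ q` and a finite extension `L₀ / ℚ` fixed pointwise by the inertia group of `P` (`hunr`):
* `s59b_ChartU M q hqM P hP L₀ hunr` : the charts over the canonical Gauss datum (`ϖ = q`);
* `s59b_ZUW … C`, `s59b_kumFrameUW … C hC m hm0 hqm`, `s59b_NodeUW … C` : the canonical Σ-datum, Kummer frame, node type;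
* **`s59b_pkgEAt_of_leavesW`** : `s59m_CarPkgEAt p M q` from: the rationality wall `s59b_Q4nZ M q hqM τ`, the existence of a
  chart with geometric inputs and `q`-expansion `τ` over every admissible base, and the four leaves `hHF`, `hrat`,
  `hcount`, `hlvl2` stated for every such chart.
-/
import Fermat.Agent.Lib.S59.B4Frame
import Fermat.Agent.Lib.S59.B4BaseQ
import Fermat.Agent.Lib.S59.MCarTop
import Fermat.Agent.Lib.S44.EGlobInst

set_option autoImplicit false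
set_option linter.style.haveILetI false
set_option linter.unusedSectionVars false
set_option linter.unusedVariables false
set_option synthInstance.maxHeartbeats 400000

noncomputable section

namespace Fermat.Agent.Lib.S59

open ModularCurve HahnSeries AlgebraicCurve Fermat.Agent.Lib.FF Fermat.Agent.Lib.S18
  Fermat.Agent.Lib.S28 Fermat.Agent.Lib.S29 Fermat.Agent.Lib.S37 Fermat.Agent.Lib.S34
  Fermat.Agent.Lib.S35 Fermat.Agent.Lib.S33 Fermat.Agent.Lib.S44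

local notation "Kb" => AlgebraicClosure ℚ
local notation "Γℚ" => (AlgebraicClosure ℚ ≃ₐ[ℚ] AlgebraicClosure ℚ)

section Canon

variable (M q : ℕ) [NeZero M] [hq : Fact q.Prime] (hqM : ¬ q ∣ M)
  (P : ValuationSubring Kb) (hP : P.LiesOverPrime q)
  (L₀ : IntermediateField ℚ Kb) [FiniteDimensional ℚ ↥L₀]
  (hunr : ∀ τ ∈ P.inertiaSubgroupIn ℚ, ∀ a ∈ L₀, τ a = a)

variable [CharP (IsLocalRing.ResidueField ↥(s18q_A0 P L₀)) q]
  [PerfectField (IsLocalRing.ResidueField ↥(s18q_A0 P L₀))]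

/-- the charts over the canonical Gauss datum. -/
abbrev s59b_ChartU :=
  s59b_Chart (@s37r_G P L₀ (s18q_A0_dvr P L₀ hP) ((q : ℕ) : ↥(s18q_A0 P L₀))
    (s59m_q_irreducible q P hP L₀ hunr)) (algebraMap ↥L₀ Kb) M q hqM (s59m_hT_U M q P L₀ hqM)
    (fun n b hb hn => s18g_exists_relation M (algebraMap ↥L₀ Kb) hn b hb)

variable (C : s59b_ChartU M q hqM P hP L₀ hunr)

/-- **the canonical Σ-datum over the chart `C`**: `ϖ = q`, `e = 1`, `ε = 1`. -/
def s59b_ZUW :=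
  @s59b_ZcW M q _ hq hqM P L₀ (s18q_A0_dvr P L₀ hP) ((q : ℕ) : ↥(s18q_A0 P L₀))
    (s59m_q_irreducible q P hP L₀ hunr) _ _
    (s18q_A0_dvr P L₀ hP) (s59m_hdeg_U M q hqM L₀) (s59m_hT_U M q P L₀ hqM)
    (fun n b hb hn => s18g_exists_relation M (algebraMap ↥L₀ Kb) hn b hb)
    IsLocalRing.residue_surjective 1 1 one_pos (one_mem _) (by rw [inv_one]; exact one_mem _)
    one_ne_zero (by rw [one_mul, pow_one]; rfl) (s59m_hperf_U q P L₀) C

/-- **the canonical Kummer frame** of exponent `m` (`m ≠ 0`, `q ∤ m`) over the chart `C`. -/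
def s59b_kumFrameUW (hC : s59b_ChartGeo C) (m : ℕ) (hm0 : m ≠ 0) (hqm : ¬ q ∣ m) :
    s59m_KumFrame (M * q) m (s59b_ZUW M q hqM P hP L₀ hunr C) :=
  @s59b_kumFrameCW M q _ hq hqM m hm0 hqm P hP L₀ _ (s18q_A0_dvr P L₀ hP)
    ((q : ℕ) : ↥(s18q_A0 P L₀))
    (s59m_q_irreducible q P hP L₀ hunr) _ _
    (s18q_A0_dvr P L₀ hP) (s59m_hdeg_U M q hqM L₀) (s59m_hT_U M q P L₀ hqM)
    (fun n b hb hn => s18g_exists_relation M (algebraMap ↥L₀ Kb) hn b hb)
    IsLocalRing.residue_surjective 1 1 one_pos (one_mem _) (by rw [inv_one]; exact one_mem _)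
    one_ne_zero (by rw [one_mul, pow_one]; rfl) (s59m_hperf_U q P L₀) C hC

theorem s59b_kumFrameUW_gen (hC : s59b_ChartGeo C) (m : ℕ) (hm0 : m ≠ 0) (hqm : ¬ q ∣ m)
    (x : JZero (M * q)) (h : s34m_F ↥L₀ (M * q)) :
    (s59b_kumFrameUW M q hqM P hP L₀ hunr C hC m hm0 hqm).gen x h ↔
      s33d_IsKumGen m x (s18q_incl (M * q) L₀ h) := Iff.rfl

/-- the node type of the canonical Σ-datum over the chart `C`. -/
abbrev s59b_NodeUW : Type :=
  s33s_Node (s34m_VV (@s37r_G P L₀ (s18q_A0_dvr P L₀ hP) ((q : ℕ) : ↥(s18q_A0 P L₀))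
      (s59m_q_irreducible q P hP L₀ hunr)) (algebraMap ↥L₀ Kb) M q hq.out hqM)
    (s34m_unif (@s37r_G P L₀ (s18q_A0_dvr P L₀ hP) ((q : ℕ) : ↥(s18q_A0 P L₀))
      (s59m_q_irreducible q P hP L₀ hunr)) (M * q))
    (s18_chart1 (L₀ := ↥L₀) C.wN)

/-- **a chart with its geometric inputs and `q`-expansion `τ`** (both coordinates `w`, `wN = α w` have the `q`-expansion
`τ`: `j` for `q ≥ 5`, `t₃` for `q = 2`, `t₂` for `q = 3`). -/
structure s59b_ChartAt (τ : ∀ (K : Type) [Field K], LaurentSeries K) : Prop where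
  geo : s59b_ChartGeo C
  hw : ((C.w : s34m_F ↥L₀ M) : LaurentSeries ↥L₀) = τ ↥L₀
  hwN : ((C.wN : s34m_F ↥L₀ (M * q)) : LaurentSeries ↥L₀) = τ ↥L₀

/-- finitely many nodes on the chart `C`. -/
theorem s59b_finite_nodeUW : Finite (s59b_NodeUW M q hqM P hP L₀ hunr C) := by
  haveI : NumberField ↥L₀ := ⟨⟩
  haveI hdvr : IsDiscreteValuationRing ↥(s18q_A0 P L₀) := s18q_A0_dvr P L₀ hP
  haveI : IsDiscreteValuationRing ↥(@s37r_G P L₀ (s18q_A0_dvr P L₀ hP) ((q : ℕ) : ↥(s18q_A0 P L₀))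
      (s59m_q_irreducible q P hP L₀ hunr)).A := hdvr
  haveI := C.gen
  exact Fermat.Agent.Lib.S44.s44e_finite_node_W (@s37r_G P L₀ (s18q_A0_dvr P L₀ hP) ((q : ℕ) : ↥(s18q_A0 P L₀))
      (s59m_q_irreducible q P hP L₀ hunr)) (algebraMap ↥L₀ Kb) M q hqM
    (s59m_hdeg_U M q hqM L₀) (s59m_hT_U M q P L₀ hqM)
    (fun n b hb hn => s18g_exists_relation M (algebraMap ↥L₀ Kb) hn b hb)
    C.w C.hwV C.hcoord C.hwtw C.hmain C.wN C.hwN C.hαN C.hαB C.hβB

end Canon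

section Top

variable (M q p : ℕ) [NeZero M] [hq : Fact q.Prime] [hp : Fact p.Prime] (hqM : ¬ q ∣ M)
  (hpq : p ≠ q) (τ : ∀ (K : Type) [Field K], LaurentSeries K)

include hpq in
set_option maxHeartbeats 1600000 in
/-- **THE TOP ASSEMBLY OVER CHARTS**: `s59m_CarPkgEAt p M q` from the rationality wall for the charts of `τ`, the existence of
a chart with `q`-expansion `τ` over every inertia-fixed base, and the four typed leaves [L-c] (Hecke frames), [L-e] (node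
rationality), [L-d] (count data), [lvl2], each stated for EVERY chart with `q`-expansion `τ`. -/
theorem s59b_pkgEAt_of_leavesW (h5 : s59b_Q4nZ M q hqM τ)
    (hchart : ∀ (P : ValuationSubring Kb) (hP : P.LiesOverPrime q) (L₀ : IntermediateField ℚ Kb)
      [FiniteDimensional ℚ ↥L₀] [CharP (IsLocalRing.ResidueField ↥(s18q_A0 P L₀)) q]
      [PerfectField (IsLocalRing.ResidueField ↥(s18q_A0 P L₀))]
      (hunr : ∀ σ ∈ P.inertiaSubgroupIn ℚ, ∀ a ∈ L₀, σ a = a),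
      ∃ C : s59b_ChartU M q hqM P hP L₀ hunr, s59b_ChartAt M q hqM P hP L₀ hunr C τ)
    (hHF : ∀ (P : ValuationSubring Kb) (hP : P.LiesOverPrime q) (L₀ : IntermediateField ℚ Kb)
      [FiniteDimensional ℚ ↥L₀] [CharP (IsLocalRing.ResidueField ↥(s18q_A0 P L₀)) q]
      [PerfectField (IsLocalRing.ResidueField ↥(s18q_A0 P L₀))]
      (hunr : ∀ σ ∈ P.inertiaSubgroupIn ℚ, ∀ a ∈ L₀, σ a = a)
      (C : s59b_ChartU M q hqM P hP L₀ hunr) (hC : s59b_ChartAt M q hqM P hP L₀ hunr C τ)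
      (K : ℕ) (ℓ : Nat.Primes),
      ¬ (ℓ : ℕ) ∣ M * q * p →
      Nonempty (s59m_HeckeFrame (s59b_kumFrameUW M q hqM P hP L₀ hunr C hC.geo (p ^ K)
        (s59m_pK_ne p K) (s59m_q_ndvd_pK q p hpq K)) ℓ))
    (hrat : ∀ (P : ValuationSubring Kb) (hP : P.LiesOverPrime q) (L₀ : IntermediateField ℚ Kb)
      [FiniteDimensional ℚ ↥L₀] [CharP (IsLocalRing.ResidueField ↥(s18q_A0 P L₀)) q]
      [PerfectField (IsLocalRing.ResidueField ↥(s18q_A0 P L₀))]
      (hunr : ∀ σ ∈ P.inertiaSubgroupIn ℚ, ∀ a ∈ L₀, σ a = a)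
      (C : s59b_ChartU M q hqM P hP L₀ hunr) (hC : s59b_ChartAt M q hqM P hP L₀ hunr C τ),
      (∃ ζ : Kb, ζ ∈ L₀ ∧ IsPrimitiveRoot ζ (q ^ 2 - 1)) →
      ∀ s : s59b_NodeUW M q hqM P hP L₀ hunr C,
        Function.Bijective (algebraMap (IsLocalRing.ResidueField ↥(s18q_A0 P L₀))
          (s33s_kG (@s37r_G P L₀ (s18q_A0_dvr P L₀ hP) ((q : ℕ) : ↥(s18q_A0 P L₀))
            (s59m_q_irreducible q P hP L₀ hunr)) (algebraMap ↥L₀ Kb) M q hqM
            (s18_chart1 (L₀ := ↥L₀) C.wN) IsLocalRing.residue_surjective s)))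
    (hcount : ∀ (P : ValuationSubring Kb) (hP : P.LiesOverPrime q), ∃ C₀ : ℕ, ∀ (K : ℕ)
      (L₀ : IntermediateField ℚ Kb) [FiniteDimensional ℚ ↥L₀]
      [CharP (IsLocalRing.ResidueField ↥(s18q_A0 P L₀)) q]
      [PerfectField (IsLocalRing.ResidueField ↥(s18q_A0 P L₀))]
      (hB : haveI : NeZero q := ⟨hq.out.ne_zero⟩; s59m_Base M q p K P L₀)
      (hQ : s59b_BaseQ4W M q p K hqM P L₀ τ)
      (C : s59b_ChartU M q hqM P hP L₀ hB.unr) (hC : s59b_ChartAt M q hqM P hP L₀ hB.unr C τ),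
      haveI : NeZero q := ⟨hq.out.ne_zero⟩
      Nonempty (s59m_CountData M q p K C₀ (Nat.card (s59b_NodeUW M q hqM P hP L₀ hB.unr C))
        (s59b_kumFrameUW M q hqM P hP L₀ hB.unr C hC.geo (p ^ K) (s59m_pK_ne p K)
          (s59m_q_ndvd_pK q p hpq K)).Tor))
    (hlvl2 : ∀ (P : ValuationSubring Kb) (hP : P.LiesOverPrime q) (K : ℕ)
      (L₀ : IntermediateField ℚ Kb) [FiniteDimensional ℚ ↥L₀]
      [CharP (IsLocalRing.ResidueField ↥(s18q_A0 P L₀)) q]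
      [PerfectField (IsLocalRing.ResidueField ↥(s18q_A0 P L₀))]
      (hB : haveI : NeZero q := ⟨hq.out.ne_zero⟩; s59m_Base M q p K P L₀)
      (C : s59b_ChartU M q hqM P hP L₀ hB.unr) (hC : s59b_ChartAt M q hqM P hP L₀ hB.unr C τ)
      (HF : ∀ ℓ : Nat.Primes, ¬ (ℓ : ℕ) ∣ M * q * p →
        s59m_HeckeFrame (s59b_kumFrameUW M q hqM P hP L₀ hB.unr C hC.geo (p ^ K) (s59m_pK_ne p K)
          (s59m_q_ndvd_pK q p hpq K)) ℓ),
      haveI : NeZero q := ⟨hq.out.ne_zero⟩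
      s59u_Lvl2 M q p P (s59b_kumFrameUW M q hqM P hP L₀ hB.unr C hC.geo (p ^ K) (s59m_pK_ne p K)
        (s59m_q_ndvd_pK q p hpq K)) HF) :
    haveI : NeZero q := ⟨hq.out.ne_zero⟩
    s59m_CarPkgEAt p M q := by
  haveI : NeZero q := ⟨hq.out.ne_zero⟩
  refine s59u_pkgEAt_of ?_
  intro A hA
  obtain ⟨C₀, hC₀⟩ := hcount A hA
  refine ⟨C₀, fun K => ?_⟩
  obtain ⟨L₀, hfd, hB, hQ⟩ := s59b_exists_base_q4W M q p K hqM τ h5 hpq A hA
  haveI := hfd
  haveI : NumberField ↥L₀ := ⟨⟩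
  haveI hdvr : IsDiscreteValuationRing ↥(s18q_A0 A L₀) := s18q_A0_dvr A L₀ hA
  haveI hchar : CharP (IsLocalRing.ResidueField ↥(s18q_A0 A L₀)) q := s37rl_charP A hA L₀
  haveI hperf : PerfectField (IsLocalRing.ResidueField ↥(s18q_A0 A L₀)) :=
    s37rl_perfectField A hA L₀
  haveI hfinκ : Finite (IsLocalRing.ResidueField ↥(s18q_A0 A L₀)) := s59m_residue_finite q A hA L₀
  obtain ⟨C, hC⟩ := hchart A hA L₀ hB.unr
  haveI hfinι : Finite (s59b_NodeUW M q hqM A hA L₀ hB.unr C) :=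
    s59b_finite_nodeUW M q hqM A hA L₀ hB.unr C
  have HF : ∀ ℓ : Nat.Primes, ¬ (ℓ : ℕ) ∣ M * q * p →
      s59m_HeckeFrame (s59b_kumFrameUW M q hqM A hA L₀ hB.unr C hC.geo (p ^ K) (s59m_pK_ne p K)
        (s59m_q_ndvd_pK q p hpq K)) ℓ := fun ℓ hℓ => (hHF A hA L₀ hB.unr C hC K ℓ hℓ).some
  have hK : p ^ K ∣ Nat.card (IsLocalRing.ResidueField ↥(s18q_A0 A L₀))ˣ := by
    obtain ⟨ζ, hζL, hζ⟩ := hB.zeta
    exact s59m_dvd_card_units q A hA L₀ (s59m_pK_ne p K)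
      (Nat.Coprime.pow_left K ((Nat.coprime_primes hp.out hq.out).mpr hpq)) hζL hζ
  have hrc : s59m_RootConst (IsLocalRing.ResidueField ↥(s18q_A0 A L₀))
      ↥(modularFunctionFieldFullC (IsLocalRing.ResidueField ↥(s18q_A0 A L₀)) M) (p ^ K) := by
    refine s59u_rootConst _ (p ^ K) ?_
    rw [Ne, CharP.cast_eq_zero_iff (IsLocalRing.ResidueField ↥(s18q_A0 A L₀)) q]
    exact s59m_q_ndvd_pK q p hpq K
  exact ⟨_, _, _, _, _, _, _, _, _, _, _, _, _, _, _, _, _, _, hfinι, hfinκ,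
    s59b_ZUW M q hqM A hA L₀ hB.unr C,
    s59b_kumFrameUW M q hqM A hA L₀ hB.unr C hC.geo (p ^ K) (s59m_pK_ne p K)
      (s59m_q_ndvd_pK q p hpq K), HF,
    hrat A hA L₀ hB.unr C hC hB.zeta2, hK, hrc, hC₀ K L₀ hB hQ C hC, hlvl2 A hA K L₀ hB C hC HF⟩

end Top

end Fermat.Agent.Lib.S59
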