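/-
Programme (R2) / node **[CAR]**, the ports to `q ∈ {2, 3}` (helper2, prefix `s59b_`): **THE GEOMETRIC INPUTS OF THE CHARTS OF
`t₃` AND `t₂`.**

* `s59b_baseData_t3`, `s59b_baseData_t2` : EVERY function of level `M p` with `q`-expansion `t₃` (`p = 2`, `3 ∣ M`), resp.
  `t₂` (`p = 3`, `2 ∣ M`), is a base function (`s35g_BaseData`);
* `s59b_chartGeo_t3`, `s59b_chartGeo_t2` : `s59b_ChartGeo C` for every chart whose coordinate `C.wN` has that `q`-expansion;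
* **`s59b_exists_chartAt_t3`**, **`s59b_exists_chartAt_t2`** : over every inertia-fixed base, a chart with geometric inputs
  and `q`-expansion `t₃` / `t₂` (the hypothesis `hchart` of `s59b_pkgEAt_of_leavesW`).
-/
import Fermat.Agent.Lib.S59.B4Top
import Fermat.Agent.Lib.S59.B4ChartT
import Fermat.Agent.Lib.S59.NZNoInf
import Fermat.Agent.Lib.S35.Geo

set_option autoImplicit false
set_option linter.style.haveILetI false
set_option linter.unusedSectionVars false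
set_option linter.unusedVariables false
set_option synthInstance.maxHeartbeats 400000

noncomputable section

namespace Fermat.Agent.Lib.S59

open ModularCurve HahnSeries AlgebraicCurve Fermat.Agent.Lib.FF Fermat.Agent.Lib.S18
  Fermat.Agent.Lib.S28 Fermat.Agent.Lib.S29 Fermat.Agent.Lib.S37 Fermat.Agent.Lib.S34
  Fermat.Agent.Lib.S35 Fermat.Agent.Lib.S33 Fermat.Agent.Lib.S44

local notation "Kb" => AlgebraicClosure ℚ

section Base

variable (M p : ℕ) [NeZero M] [hp : Fact p.Prime] (hpM : ¬ p ∣ M)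
  (K₀ : Type) [Field K₀] [NumberField K₀] (φ : K₀ →+* Kb)
  (κ : Type) [Field κ] [CharP κ p] [PerfectField κ]
  (G : s18g_GaussData K₀ κ) [IsDiscreteValuationRing G.A]
  (hπ : Function.Surjective G.π)

include hπ in
/-- every function of level `M p` with `q`-expansion `t₃` is a base function (`p = 2`, `3 ∣ M`). -/
theorem s59b_baseData_t3 (hp2 : p = 2) (h3M : 3 ∣ M) (w : s34m_F K₀ (M * p))
    (hw : (w : LaurentSeries K₀) = s18u_t3 K₀) :
    haveI : NeZero p := ⟨hp.out.ne_zero⟩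
    s35g_BaseData G φ M p hp.out hpM w := by
  haveI : NeZero p := ⟨hp.out.ne_zero⟩
  have hp3 : p ≠ 3 := by omega
  obtain ⟨tM, htM, ⟨hwV, hred⟩, hwinvV, hgen, hgeninv, hwt, hw0, hgenN, hwO, hwO', hfix, hα, hα'⟩ :=
    s34m_base_t3 G φ M p hp.out hpM h3M hp3
  have hww : w = heckeAlphaBar K₀ M p tM := Subtype.ext (hw.trans hwt.symm)
  subst hww
  haveI := hgen
  haveI := hgeninv
  exact ⟨hw0, hgenN, hwO, hwO', hfix, hα, hα',
    s35g_chartData_t3_1 M p hp.out hpM K₀ φ κ G hπ hp2 h3M tM htM hwV hred,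
    s35g_chartData_t3_2 M p hp.out hpM K₀ φ κ G hπ hp2 h3M tM htM hwV hwinvV hred⟩

include hπ in
/-- every function of level `M p` with `q`-expansion `t₂` is a base function (`p = 3`, `2 ∣ M`). -/
theorem s59b_baseData_t2 (hp3 : p = 3) (h2M : 2 ∣ M) (w : s34m_F K₀ (M * p))
    (hw : (w : LaurentSeries K₀) = s18u_t2 K₀) :
    haveI : NeZero p := ⟨hp.out.ne_zero⟩
    s35g_BaseData G φ M p hp.out hpM w := by
  haveI : NeZero p := ⟨hp.out.ne_zero⟩
  have hp2 : p ≠ 2 := by omega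
  obtain ⟨tM, htM, ⟨hwV, hred⟩, hwinvV, hgen, hgeninv, hwt, hw0, hgenN, hwO, hwO', hfix, hα, hα'⟩ :=
    s34m_base_t2 G φ M p hp.out hpM h2M hp2
  have hww : w = heckeAlphaBar K₀ M p tM := Subtype.ext (hw.trans hwt.symm)
  subst hww
  haveI := hgen
  haveI := hgeninv
  exact ⟨hw0, hgenN, hwO, hwO', hfix, hα, hα',
    s35g_chartData_t2_1 M p hp.out hpM K₀ φ κ G hπ hp3 h2M tM htM hwV hred,
    s35g_chartData_t2_2 M p hp.out hpM K₀ φ κ G hπ hp3 h2M tM htM hwV hwinvV hred⟩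

variable (hT : s18g_HT κ M) (hdegM : s18g_HDeg K₀ M)

include hπ in
/-- the geometric inputs of a chart of `t₃`. -/
theorem s59b_chartGeo_t3 (hp2 : p = 2) (h3M : 3 ∣ M) (C : s59b_Chart G φ M p hpM hT hdegM)
    (hwN : ((C.wN : s34m_F K₀ (M * p)) : LaurentSeries K₀) = s18u_t3 K₀) : s59b_ChartGeo C := by
  haveI : NeZero p := ⟨hp.out.ne_zero⟩
  have hB := s59b_baseData_t3 M p hpM K₀ φ κ G hπ hp2 h3M C.wN hwN
  refine ⟨hB, ?_⟩
  refine s33n_nodePlaces_chart2_subset_t3 G φ M p hp.out hpM C.wN hwN ?_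
  exact (s34x_mem_infRing _ _).mpr hB.2.2.2.1

include hπ in
/-- the geometric inputs of a chart of `t₂`. -/
theorem s59b_chartGeo_t2 (hp3 : p = 3) (h2M : 2 ∣ M) (C : s59b_Chart G φ M p hpM hT hdegM)
    (hwN : ((C.wN : s34m_F K₀ (M * p)) : LaurentSeries K₀) = s18u_t2 K₀) : s59b_ChartGeo C := by
  haveI : NeZero p := ⟨hp.out.ne_zero⟩
  have hB := s59b_baseData_t2 M p hpM K₀ φ κ G hπ hp3 h2M C.wN hwN
  refine ⟨hB, ?_⟩
  refine s33n_nodePlaces_chart2_subset_t2 G φ M p hp.out hpM C.wN hwN ?_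
  exact (s34x_mem_infRing _ _).mpr hB.2.2.2.1

end Base

section Canon

variable (M q : ℕ) [NeZero M] [hq : Fact q.Prime] (hqM : ¬ q ∣ M)
  (P : ValuationSubring Kb) (hP : P.LiesOverPrime q)
  (L₀ : IntermediateField ℚ Kb) [FiniteDimensional ℚ ↥L₀]
  (hunr : ∀ τ ∈ P.inertiaSubgroupIn ℚ, ∀ a ∈ L₀, τ a = a)

variable [CharP (IsLocalRing.ResidueField ↥(s18q_A0 P L₀)) q]
  [PerfectField (IsLocalRing.ResidueField ↥(s18q_A0 P L₀))]

/-- **a chart of `t₃` with its geometric inputs over the canonical Gauss datum** (`q = 2`, `3 ∣ M`). -/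
theorem s59b_exists_chartAt_t3 (hq2 : q = 2) (h3M : 3 ∣ M) :
    ∃ C : s59b_ChartU M q hqM P hP L₀ hunr,
      s59b_ChartAt M q hqM P hP L₀ hunr C (fun K _ => s18u_t3 K) := by
  haveI : NumberField ↥L₀ := ⟨⟩
  haveI hdvr : IsDiscreteValuationRing ↥(s18q_A0 P L₀) := s18q_A0_dvr P L₀ hP
  haveI : IsDiscreteValuationRing ↥(@s37r_G P L₀ (s18q_A0_dvr P L₀ hP) ((q : ℕ) : ↥(s18q_A0 P L₀))
      (s59m_q_irreducible q P hP L₀ hunr)).A := hdvr
  obtain ⟨C, hw, hwN⟩ := s59b_exists_chart_t3 M q hqM ↥L₀ (algebraMap ↥L₀ Kb) _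
    (@s37r_G P L₀ (s18q_A0_dvr P L₀ hP) ((q : ℕ) : ↥(s18q_A0 P L₀))
      (s59m_q_irreducible q P hP L₀ hunr)) (s59m_hT_U M q P L₀ hqM)
    (fun n b hb hn => s18g_exists_relation M (algebraMap ↥L₀ Kb) hn b hb)
    IsLocalRing.residue_surjective hq2 h3M
  exact ⟨C, s59b_chartGeo_t3 M q hqM ↥L₀ (algebraMap ↥L₀ Kb) _ _ IsLocalRing.residue_surjective
    _ _ hq2 h3M C hwN, hw, hwN⟩

/-- **a chart of `t₂` with its geometric inputs over the canonical Gauss datum** (`q = 3`, `2 ∣ M`). -/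
theorem s59b_exists_chartAt_t2 (hq3 : q = 3) (h2M : 2 ∣ M) :
    ∃ C : s59b_ChartU M q hqM P hP L₀ hunr,
      s59b_ChartAt M q hqM P hP L₀ hunr C (fun K _ => s18u_t2 K) := by
  haveI : NumberField ↥L₀ := ⟨⟩
  haveI hdvr : IsDiscreteValuationRing ↥(s18q_A0 P L₀) := s18q_A0_dvr P L₀ hP
  haveI : IsDiscreteValuationRing ↥(@s37r_G P L₀ (s18q_A0_dvr P L₀ hP) ((q : ℕ) : ↥(s18q_A0 P L₀))
      (s59m_q_irreducible q P hP L₀ hunr)).A := hdvr
  obtain ⟨C, hw, hwN⟩ := s59b_exists_chart_t2 M q hqM ↥L₀ (algebraMap ↥L₀ Kb) _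
    (@s37r_G P L₀ (s18q_A0_dvr P L₀ hP) ((q : ℕ) : ↥(s18q_A0 P L₀))
      (s59m_q_irreducible q P hP L₀ hunr)) (s59m_hT_U M q P L₀ hqM)
    (fun n b hb hn => s18g_exists_relation M (algebraMap ↥L₀ Kb) hn b hb)
    IsLocalRing.residue_surjective hq3 h2M
  exact ⟨C, s59b_chartGeo_t2 M q hqM ↥L₀ (algebraMap ↥L₀ Kb) _ _ IsLocalRing.residue_surjective
    _ _ hq3 h2M C hwN, hw, hwN⟩

end Canon

end Fermat.Agent.Lib.S59
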