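/-
Programme (R2) / node **[CAR]**, the ports to `q ∈ {2, 3}` (helper2, prefix `s59b_`): **THE NODE PLACES OF THE CHART OF A
HAUPTMODUL `t` ARE THE NODE PLACES OF THE CHART OF `j`** — abstract part (helper6's contraction frame `s33n_contractG`,
`SSNoInfT.lean`).

Frame: `O : Bool → ValuationSubring 𝓕`, `π : 𝓕`, functions `j t : 𝓕` with `g = j tⁿ` regular on `{t regular}`
(`t₃`: `j t³ = (t + 27)(t + 243)³`; `t₂`: `j t² = (t + 256)³`).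

* `s59b_nodePlaces_contract` : node places transfer from a chart `S'` to a chart `S` through `B_S ⊆ B_{S'}[1/g]` when `g`
  avoids every node of `S'`;
* `s59b_no_node_zero_abs` : **no node at `t = 0`**: (NI) for the chart `{j ≠ 0}` implies that no prime of the chart
  `{t regular}` containing both component ideals contains `t` (as soon as it does not contain `g`);
* **`s59b_nodePlaces_chart1_eq_abs`** : `s33s_nodePlaces O π (chart1 j) = s33s_nodePlaces O π (chart1 t)`.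
-/
import Fermat.Agent.Lib.S33.SSNoInfT

set_option autoImplicit false
set_option linter.style.haveILetI false
set_option linter.unusedSectionVars false
set_option linter.unusedVariables false

noncomputable section

namespace Fermat.Agent.Lib.S59

open ModularCurve AlgebraicCurve HahnSeries Polynomial Fermat.Agent.Lib.FF Fermat.Agent.Lib.S18
  Fermat.Agent.Lib.S28 Fermat.Agent.Lib.S34 Fermat.Agent.Lib.S37 Fermat.Agent.Lib.S33

variable {L₀ 𝓕 : Type*} [Field L₀] [Field 𝓕] [Algebra L₀ 𝓕]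
variable (O : Bool → ValuationSubring 𝓕) (π : 𝓕)

/-- **node places transfer through a contraction**: if `B_S ⊆ B_{S'}[1/g]`, `g` avoids every node of `S'` and the places
of `S'` at which `g` is a unit lie on `S`, then every node place of `S'` is a node place of `S`. -/
theorem s59b_nodePlaces_contract (S S' : Set (Place L₀ 𝓕)) (g : 𝓕) (hg0 : g ≠ 0)
    (hg : g ∈ s34x_ring (s34x_infRing O) S')
    (H : ∀ b ∈ s34x_ring (s34x_infRing O) S, ∃ k : ℕ, g ^ k * b ∈ s34x_ring (s34x_infRing O) S')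
    (hgn : ∀ 𝔫' : Ideal (s34x_ring (s34x_infRing O) S'), s33s_IsNode O π S' 𝔫' →
      (⟨g, hg⟩ : s34x_ring (s34x_infRing O) S') ∉ 𝔫')
    (hS : ∀ Q ∈ S', Q.ord g = 0 → Q ∈ S) :
    s33s_nodePlaces O π S' ⊆ s33s_nodePlaces O π S := by
  rintro Q ⟨hQS', 𝔫', h𝔫', hth⟩
  haveI := h𝔫'.1.isPrime
  have hgQ : Q.ord g = 0 := by
    have h1 : 0 ≤ Q.ord g := (ff_mem_iff_ord_nonneg Q hg0).mp (hg.2 Q hQS')
    by_contra hne
    have hpos : 0 < Q.ord g := lt_of_le_of_ne h1 (Ne.symm hne)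
    exact hgn 𝔫' h𝔫' (hth ⟨g, hg⟩ hg0 hpos)
  refine ⟨hS Q hQS' hgQ, ?_⟩
  have hne : s33n_contractG O S S' g hg H 𝔫' ≠ ⊤ :=
    s33n_contractG_ne_top O S S' g hg H 𝔫' (hgn 𝔫' h𝔫')
  obtain ⟨𝔪, h𝔪, hle⟩ := Ideal.exists_le_maximal _ hne
  refine ⟨𝔪, ⟨h𝔪, (s33n_comp_le_contractG O π S S' g hg H 𝔫' true h𝔫'.2.1).trans hle,
    (s33n_comp_le_contractG O π S S' g hg H 𝔫' false h𝔫'.2.2).trans hle⟩, ?_⟩
  intro b hb0 hbpos
  apply hle
  obtain ⟨k, hk⟩ := H (b : 𝓕) b.2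
  refine ⟨k, ⟨_, hk⟩, ?_, rfl⟩
  apply hth ⟨_, hk⟩
  · exact mul_ne_zero (pow_ne_zero _ hg0) hb0
  · show 0 < Q.ord (g ^ k * (b : 𝓕))
    rw [Q.ord_mul (pow_ne_zero _ hg0) hb0, s33n_ord_pow, hgQ, mul_zero, zero_add]
    exact hbpos

/-- a bound for the pole orders of a function with finitely many poles. -/
theorem s59b_exists_pole_bound (b : 𝓕) (hfin : {Q : Place L₀ 𝓕 | Q.ord b < 0}.Finite) :
    ∃ k : ℕ, ∀ Q : Place L₀ 𝓕, Q.ord b < 0 → -(Q.ord b) ≤ (k : ℤ) := by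
  classical
  refine ⟨hfin.toFinset.sup (fun Q => (-(Q.ord b)).toNat), fun Q hQ => ?_⟩
  have hQT : Q ∈ hfin.toFinset := by rw [Set.Finite.mem_toFinset]; exact hQ
  have h1 : (-(Q.ord b)).toNat ≤ hfin.toFinset.sup (fun Q => (-(Q.ord b)).toNat) :=
    Finset.le_sup (f := fun Q => (-(Q.ord b)).toNat) hQT
  have h2 : -(Q.ord b) ≤ ((-(Q.ord b)).toNat : ℤ) := Int.self_le_toNat _
  exact h2.trans (by exact_mod_cast h1)

/-- `B_S ⊆ B_{S'}[1/g]` as soon as `g` is regular on `S'` and vanishes at every place of `S'` outside `S`. -/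
theorem s59b_exists_pow_mul_mem (S S' : Set (Place L₀ 𝓕)) (g : 𝓕) (hg0 : g ≠ 0)
    (hg : g ∈ s34x_ring (s34x_infRing O) S')
    (hvan : ∀ Q ∈ S', Q ∉ S → 0 < Q.ord g)
    (hfin : ∀ b : 𝓕, b ≠ 0 → {Q : Place L₀ 𝓕 | Q.ord b < 0}.Finite)
    (b : 𝓕) (hb : b ∈ s34x_ring (s34x_infRing O) S) :
    ∃ k : ℕ, g ^ k * b ∈ s34x_ring (s34x_infRing O) S' := by
  by_cases hb0 : b = 0
  · exact ⟨0, by rw [hb0, mul_zero]; exact (s34x_ring _ _).zero_mem⟩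
  obtain ⟨k, hkQ⟩ := s59b_exists_pole_bound b (hfin b hb0)
  refine ⟨k, ⟨mul_mem (pow_mem hg.1 k) hb.1, fun Q hQ => ?_⟩⟩
  have hgQ : g ∈ Q.toValuationSubring := hg.2 Q hQ
  by_cases hneg : Q.ord b < 0
  · have hQS : Q ∉ S := by
      intro h
      have := (ff_mem_iff_ord_nonneg Q hb0).mp (hb.2 Q h)
      omega
    have hordg : 1 ≤ Q.ord g := hvan Q hQ hQS
    rw [ff_mem_iff_ord_nonneg Q (mul_ne_zero (pow_ne_zero _ hg0) hb0),
      Q.ord_mul (pow_ne_zero _ hg0) hb0, s33n_ord_pow]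
    have h1 := hkQ Q hneg
    have h2 : (k : ℤ) * 1 ≤ (k : ℤ) * Q.ord g :=
      mul_le_mul_of_nonneg_left hordg (Int.natCast_nonneg k)
    linarith
  · have hbQ : b ∈ Q.toValuationSubring := (ff_mem_iff_ord_nonneg Q hb0).mpr (not_lt.mp hneg)
    exact Q.toValuationSubring.mul_mem _ _ (pow_mem hgQ k) hbQ

/-- **NO NODE AT `t = 0`**: (NI) for the chart `{j ≠ 0}` implies that a prime of the chart ring of `{t regular}` which
contains both component ideals but not `g = j tⁿ` (`n ≥ 1`) does not contain `t`. -/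
theorem s59b_no_node_zero_abs (j t : 𝓕) (n : ℕ) (hn : n ≠ 0) (hj0 : j ≠ 0) (ht0 : t ≠ 0)
    (hjO : j⁻¹ ∈ s34x_infRing O)
    (ht : t ∈ s34x_ring (s34x_infRing O) (s18_chart1 (L₀ := L₀) t))
    (hg : j * t ^ n ∈ s34x_ring (s34x_infRing O) (s18_chart1 (L₀ := L₀) t))
    (hfin : ∀ b : 𝓕, b ≠ 0 → {Q : Place L₀ 𝓕 | Q.ord b < 0}.Finite)
    (hNI : ∀ (𝔪 : Ideal (s34x_ring (s34x_infRing O) (s18_chart2 (L₀ := L₀) j))) [𝔪.IsPrime],
      s33s_comp O π (s18_chart2 (L₀ := L₀) j) true ≤ 𝔪 →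
      s33s_comp O π (s18_chart2 (L₀ := L₀) j) false ≤ 𝔪 →
      ∀ h : j⁻¹ ∈ s34x_ring (s34x_infRing O) (s18_chart2 (L₀ := L₀) j),
        (⟨j⁻¹, h⟩ : s34x_ring (s34x_infRing O) (s18_chart2 (L₀ := L₀) j)) ∉ 𝔪)
    (𝔫 : Ideal (s34x_ring (s34x_infRing O) (s18_chart1 (L₀ := L₀) t))) [h𝔫 : 𝔫.IsPrime]
    (h1 : s33s_comp O π (s18_chart1 (L₀ := L₀) t) true ≤ 𝔫)
    (h2 : s33s_comp O π (s18_chart1 (L₀ := L₀) t) false ≤ 𝔫)
    (hg𝔫 : (⟨j * t ^ n, hg⟩ : s34x_ring (s34x_infRing O) (s18_chart1 (L₀ := L₀) t)) ∉ 𝔫) :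
    (⟨t, ht⟩ : s34x_ring (s34x_infRing O) (s18_chart1 (L₀ := L₀) t)) ∉ 𝔫 := by
  intro hv
  have hg0 : j * t ^ n ≠ 0 := mul_ne_zero hj0 (pow_ne_zero _ ht0)
  -- `B₂(j) ⊆ B₁(t)[1/g]`
  have H : ∀ b ∈ s34x_ring (s34x_infRing O) (s18_chart2 (L₀ := L₀) j),
      ∃ k : ℕ, (j * t ^ n) ^ k * b ∈ s34x_ring (s34x_infRing O) (s18_chart1 (L₀ := L₀) t) := by
    intro b hb
    refine s59b_exists_pow_mul_mem O (s18_chart2 (L₀ := L₀) j) (s18_chart1 (L₀ := L₀) t) (j * t ^ n)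
      hg0 hg ?_ hfin b hb
    intro Q hQ hQj
    -- `j⁻¹` is not regular at `Q`: a zero of `j`
    have hordj : 0 < Q.ord j := by
      by_contra hcon
      apply hQj
      show j⁻¹ ∈ Q.toValuationSubring
      rw [ff_mem_iff_ord_nonneg Q (inv_ne_zero hj0), Q.ord_inv]
      omega
    have hordt : 0 ≤ Q.ord t := (ff_mem_iff_ord_nonneg Q ht0).mp hQ
    rw [Q.ord_mul hj0 (pow_ne_zero _ ht0), s33n_ord_pow]
    have : 0 ≤ (n : ℤ) * Q.ord t := mul_nonneg (Int.natCast_nonneg n) hordt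
    omega
  set 𝔞 := s33n_contractG O (s18_chart2 (L₀ := L₀) j) (s18_chart1 (L₀ := L₀) t) (j * t ^ n) hg H 𝔫
    with h𝔞
  have hne : 𝔞 ≠ ⊤ := s33n_contractG_ne_top O _ _ (j * t ^ n) hg H 𝔫 hg𝔫
  obtain ⟨𝔪, h𝔪, hle⟩ := Ideal.exists_le_maximal 𝔞 hne
  haveI := h𝔪.isPrime
  have hjB : j⁻¹ ∈ s34x_ring (s34x_infRing O) (s18_chart2 (L₀ := L₀) j) :=
    ⟨hjO, fun _ hQ => hQ⟩
  refine hNI 𝔪 ((s33n_comp_le_contractG O π _ _ (j * t ^ n) hg H 𝔫 true h1).trans hle)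
    ((s33n_comp_le_contractG O π _ _ (j * t ^ n) hg H 𝔫 false h2).trans hle) hjB (hle ?_)
  refine ⟨1, (⟨t, ht⟩ : s34x_ring (s34x_infRing O) (s18_chart1 (L₀ := L₀) t)) ^ n,
    Ideal.pow_mem_of_mem 𝔫 hv n (Nat.pos_of_ne_zero hn), ?_⟩
  show t ^ n = (j * t ^ n) ^ 1 * j⁻¹
  rw [pow_one]
  field_simp

/-- **THE NODE PLACES OF THE CHART OF `t` ARE THOSE OF THE CHART OF `j`.** -/
theorem s59b_nodePlaces_chart1_eq_abs (j t : 𝓕) (n : ℕ) (hn : n ≠ 0) (hj0 : j ≠ 0) (ht0 : t ≠ 0)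
    (hjO : j⁻¹ ∈ s34x_infRing O)
    (ht : t ∈ s34x_ring (s34x_infRing O) (s18_chart1 (L₀ := L₀) t))
    (hg : j * t ^ n ∈ s34x_ring (s34x_infRing O) (s18_chart1 (L₀ := L₀) t))
    (hsub : ∀ Q : Place L₀ 𝓕, j ∈ Q.toValuationSubring → t ∈ Q.toValuationSubring)
    (hreg : ∀ Q : Place L₀ 𝓕, t ∈ Q.toValuationSubring → t⁻¹ ∈ Q.toValuationSubring →
      j ∈ Q.toValuationSubring)
    (hfin : ∀ b : 𝓕, b ≠ 0 → {Q : Place L₀ 𝓕 | Q.ord b < 0}.Finite)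
    (hNI : ∀ (𝔪 : Ideal (s34x_ring (s34x_infRing O) (s18_chart2 (L₀ := L₀) j))) [𝔪.IsPrime],
      s33s_comp O π (s18_chart2 (L₀ := L₀) j) true ≤ 𝔪 →
      s33s_comp O π (s18_chart2 (L₀ := L₀) j) false ≤ 𝔪 →
      ∀ h : j⁻¹ ∈ s34x_ring (s34x_infRing O) (s18_chart2 (L₀ := L₀) j),
        (⟨j⁻¹, h⟩ : s34x_ring (s34x_infRing O) (s18_chart2 (L₀ := L₀) j)) ∉ 𝔪)
    (hgn : ∀ (𝔫 : Ideal (s34x_ring (s34x_infRing O) (s18_chart1 (L₀ := L₀) t))) [𝔫.IsPrime],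
      s33s_comp O π (s18_chart1 (L₀ := L₀) t) true ≤ 𝔫 →
      (⟨t, ht⟩ : s34x_ring (s34x_infRing O) (s18_chart1 (L₀ := L₀) t)) ∈ 𝔫 →
      (⟨j * t ^ n, hg⟩ : s34x_ring (s34x_infRing O) (s18_chart1 (L₀ := L₀) t)) ∉ 𝔫) :
    s33s_nodePlaces O π (s18_chart1 (L₀ := L₀) j) = s33s_nodePlaces O π (s18_chart1 (L₀ := L₀) t) := by
  apply Set.Subset.antisymm
  · -- `chart1 j ⊆ chart1 t`, `B₁(t) ⊆ B₁(j)`: contraction with `g = 1`
    refine s59b_nodePlaces_contract O π (s18_chart1 (L₀ := L₀) t) (s18_chart1 (L₀ := L₀) j) 1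
      one_ne_zero (one_mem _) ?_ ?_ ?_
    · intro b hb
      refine ⟨0, ?_⟩
      rw [pow_zero, one_mul]
      exact ⟨hb.1, fun Q hQ => hb.2 Q (hsub Q hQ)⟩
    · intro 𝔫' h𝔫' h1
      exact h𝔫'.1.ne_top ((Ideal.eq_top_iff_one 𝔫').mpr h1)
    · intro Q hQ _
      exact hsub Q hQ
  · -- `B₁(j) ⊆ B₁(t)[1/t]`, no node at `t = 0`
    refine s59b_nodePlaces_contract O π (s18_chart1 (L₀ := L₀) j) (s18_chart1 (L₀ := L₀) t) t ht0 ht
      ?_ ?_ ?_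
    · intro b hb
      refine s59b_exists_pow_mul_mem O (s18_chart1 (L₀ := L₀) j) (s18_chart1 (L₀ := L₀) t) t ht0 ht
        ?_ hfin b hb
      intro Q hQ hQj
      by_contra hcon
      apply hQj
      refine hreg Q hQ ?_
      rw [ff_mem_iff_ord_nonneg Q (inv_ne_zero ht0), Q.ord_inv]
      omega
    · intro 𝔫' h𝔫' hv
      haveI := h𝔫'.1.isPrime
      exact s59b_no_node_zero_abs O π j t n hn hj0 ht0 hjO ht hg hfin hNI 𝔫' h𝔫'.2.1 h𝔫'.2.2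
        (hgn 𝔫' h𝔫'.2.1 hv) hv
    · intro Q hQ hord
      refine hreg Q hQ ?_
      rw [ff_mem_iff_ord_nonneg Q (inv_ne_zero ht0), Q.ord_inv, hord]
      simp

end Fermat.Agent.Lib.S59
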