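/-
Programme (R2) / node **[CAR]**, the ports to `q ∈ {2, 3}` (helper2, prefix `s59b_`): **THE NODE PLACES OF THE CHARTS OF `t₃`
AND `t₂` ARE THE NODE PLACES OF THE CHART `{j regular}`** (modular instances of `B4NodeAbs.lean`).

Level `M q`, `O = (V_∞, V_0)`, `π = ϖ`:
* `s59b_natCast_mem_comp` : `q ∈ ϖ V_∞`, so the integer `q` lies in the component ideal of every chart;
* **`s59b_nodePlaces_t3_eq_j`** (`q ≠ 3`) : `s33s_nodePlaces … (chart1 j) = s33s_nodePlaces … (chart1 t)` for `t` with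
  `q`-expansion `t₃` (`j t³ = (t + 27)(t + 243)³`, and `3` is a unit at the nodes);
* **`s59b_nodePlaces_t2_eq_j`** (`q ≠ 2`) : the same for `t₂` (`j t² = (t + 256)³`).
Consequence: every statement about the node places of the `j`-chart which does not use `q ≥ 5` (helper3's [T-NODE]
`s59u_tnode_gauss`) transfers to the `t`-charts.
-/
import Fermat.Agent.Lib.S59.B4NodeAbs
import Fermat.Agent.Lib.S59.NZNoInf
import Fermat.Agent.Lib.S18.UOrd

set_option autoImplicit false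
set_option linter.style.haveILetI false
set_option linter.unusedSectionVars false
set_option linter.unusedVariables false

noncomputable section

namespace Fermat.Agent.Lib.S59

open ModularCurve AlgebraicCurve HahnSeries Polynomial Fermat.Agent.Lib.FF Fermat.Agent.Lib.S18
  Fermat.Agent.Lib.S28 Fermat.Agent.Lib.S34 Fermat.Agent.Lib.S37 Fermat.Agent.Lib.S33

local notation "Kb" => AlgebraicClosure ℚ

/-- two coprime integers in a proper ideal: impossible. -/
theorem s59b_not_mem_of_coprime {B : Type*} [CommRing B] (𝔫 : Ideal B) (h𝔫 : 𝔫 ≠ ⊤) (a b : ℕ)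
    (hab : Nat.Coprime a b) (ha : (a : B) ∈ 𝔫) : (b : B) ∉ 𝔫 := by
  intro hb
  apply h𝔫
  rw [Ideal.eq_top_iff_one]
  have hc : IsCoprime ((a : ℤ) : B) ((b : ℤ) : B) :=
    (Nat.isCoprime_iff_coprime.mpr hab).map (Int.castRingHom B)
  obtain ⟨u, v, huv⟩ := hc
  rw [← huv]
  refine 𝔫.add_mem (𝔫.mul_mem_left u ?_) (𝔫.mul_mem_left v ?_)
  · rw [Int.cast_natCast]; exact ha
  · rw [Int.cast_natCast]; exact hb

section Modular

variable {K₀ : Type*} [Field K₀] [Algebra ℚ K₀] {κ : Type*} [Field κ] (G : s18g_GaussData K₀ κ)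
variable (φ : K₀ →+* Kb) (M q : ℕ) [NeZero M] [NeZero q]

/-- the integer `q` lies in the component ideal `ϖ V_∞ ∩ B` of every chart. -/
theorem s59b_natCast_mem_comp [CharP κ q] (hq : q.Prime) (hqM : ¬ q ∣ M)
    (S : Set (Place K₀ (s34m_F K₀ (M * q)))) :
    ((q : ℕ) : s34x_ring (s34x_infRing (s34m_VV G φ M q hq hqM)) S) ∈
      s33s_comp (s34m_VV G φ M q hq hqM) (s34m_unif G (M * q)) S true := by
  have h0 : G.π ((q : ℕ) : G.A) = 0 := by
    rw [map_natCast]
    exact CharP.cast_eq_zero κ q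
  obtain ⟨b, hb⟩ := (G.π_eq_zero_iff _).mp h0
  refine ⟨algebraMap K₀ (s34m_F K₀ (M * q)) (b : K₀),
    s34c_const_mem_VV G φ M q hq hqM true b, ?_⟩
  rw [s34m_unif, ← map_mul]
  have e : ((G.ϖ : G.A) : K₀) * (b : K₀) = ((q : ℕ) : K₀) := by
    have h1 : (((q : ℕ) : G.A) : K₀) = ((G.ϖ * b : G.A) : K₀) := congrArg (fun x : G.A => (x : K₀)) hb
    rw [← MulMemClass.coe_mul, ← h1]
    push_cast
    rfl
  rw [e, map_natCast]
  push_cast
  rfl

/-- the order of `t + c` at a pole of `t` (`c` a non-zero numeral). -/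
theorem s59b_ord_add_natCast {K F : Type*} [Field K] [Field F] [Algebra K F] [CharZero F]
    (Q : Place K F) (t : F) (c : ℕ) (hc : c ≠ 0) (ht : Q.ord t < 0) (ht0 : t ≠ 0) :
    Q.ord (t + (c : F)) = Q.ord t := by
  have hc0 : ((c : ℕ) : F) ≠ 0 := Nat.cast_ne_zero.mpr hc
  have hordc : Q.ord ((c : ℕ) : F) = 0 := by
    have : ((c : ℕ) : F) = algebraMap K F (c : K) := by rw [map_natCast]
    rw [this]
    exact ff_ord_algebraMap Q _
  exact s18u_ord_add_eq Q ht0 hc0 (by rw [hordc]; exact ht)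

include φ in
/-- **the node places of the chart of `t₃` are those of the chart of `j`** (`q ≠ 3`). -/
theorem s59b_nodePlaces_t3_eq_j [CharZero K₀] [CharP κ q] (hq : q.Prime) (hqM : ¬ q ∣ M) (hq3 : q ≠ 3)
    (t : s34m_F K₀ (M * q)) (ht : (t : LaurentSeries K₀) = s18u_t3 K₀)
    (htO : t ∈ s34x_infRing (s34m_VV G φ M q hq hqM)) :
    s33s_nodePlaces (s34m_VV G φ M q hq hqM) (s34m_unif G (M * q))
        (s18_chart1 (L₀ := K₀) (s18g_jF (K := K₀) (M * q))) =
      s33s_nodePlaces (s34m_VV G φ M q hq hqM) (s34m_unif G (M * q)) (s18_chart1 (L₀ := K₀) t) := by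
  have ht0 : t ≠ 0 := s33n_t3_ne_zero (M * q) t ht
  have hj0 : s18g_jF (K := K₀) (M * q) ≠ 0 := s18g_jF_ne_zero (M * q)
  have hrel : s18g_jF (K := K₀) (M * q) * t ^ 3 = (t + 27) * (t + 243) ^ 3 :=
    s33n_rel_t3 (M * q) t ht
  have htB : t ∈ s34x_ring (s34x_infRing (s34m_VV G φ M q hq hqM)) (s18_chart1 (L₀ := K₀) t) :=
    ⟨htO, fun _ hQ => hQ⟩
  have hgB : s18g_jF (K := K₀) (M * q) * t ^ 3 ∈
      s34x_ring (s34x_infRing (s34m_VV G φ M q hq hqM)) (s18_chart1 (L₀ := K₀) t) := by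
    rw [hrel]
    exact mul_mem (add_mem htB (ofNat_mem _ 27)) (pow_mem (add_mem htB (ofNat_mem _ 243)) 3)
  haveI : CharZero (s34m_F K₀ (M * q)) :=
    charZero_of_injective_algebraMap (algebraMap K₀ (s34m_F K₀ (M * q))).injective
  refine s59b_nodePlaces_chart1_eq_abs (s34m_VV G φ M q hq hqM) (s34m_unif G (M * q))
    (s18g_jF (K := K₀) (M * q)) t 3 (by norm_num) hj0 ht0 (s34d2_j_inv_mem_O G φ M q hq hqM) htB hgB
    ?_ ?_ (fun b hb => s33n_finite_poles φ (M * q) b hb)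
    (fun 𝔪 _ hm1 hm2 _ => s33n_no_node_at_infty G φ M q hq hqM 𝔪 hm1 hm2) ?_
  · -- `j` regular ⇒ `t` regular
    intro Q hjQ
    by_contra htQ
    have hordt : Q.ord t < 0 := by
      by_contra hcon
      exact htQ ((ff_mem_iff_ord_nonneg Q ht0).mpr (not_lt.mp hcon))
    have hordj : 0 ≤ Q.ord (s18g_jF (K := K₀) (M * q)) := (ff_mem_iff_ord_nonneg Q hj0).mp hjQ
    have h27 : Q.ord (t + 27) = Q.ord t := by
      have := s59b_ord_add_natCast Q t 27 (by norm_num) hordt ht0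
      simpa using this
    have h243 : Q.ord (t + 243) = Q.ord t := by
      have := s59b_ord_add_natCast Q t 243 (by norm_num) hordt ht0
      simpa using this
    have h27' : t + 27 ≠ 0 := by
      intro h0; rw [h0] at h27; simp at h27; omega
    have h243' : t + 243 ≠ 0 := by
      intro h0; rw [h0] at h243; simp at h243; omega
    have h := congrArg Q.ord hrel
    rw [Q.ord_mul hj0 (pow_ne_zero _ ht0), Q.ord_mul h27' (pow_ne_zero _ h243'), s33n_ord_pow,
      s33n_ord_pow, h27, h243] at h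
    push_cast at h
    omega
  · -- `t` a unit ⇒ `j` regular
    intro Q htQ htQ'
    have e3 : s18g_jF (K := K₀) (M * q) = (t + 27) * (t + 243) ^ 3 * (t⁻¹) ^ 3 := by
      rw [← hrel]
      field_simp
    rw [e3]
    have h27 : (27 : s34m_F K₀ (M * q)) ∈ Q.toValuationSubring := ofNat_mem _ 27
    have h243 : (243 : s34m_F K₀ (M * q)) ∈ Q.toValuationSubring := ofNat_mem _ 243
    exact mul_mem (mul_mem (add_mem htQ h27) (pow_mem (add_mem htQ h243) 3)) (pow_mem htQ' 3)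
  · -- `g = (t + 27)(t + 243)³` avoids the primes containing `ϖ` and `t`
    intro 𝔫 h𝔫 h1 hv hg𝔫
    have hq𝔫 : ((q : ℕ) : s34x_ring (s34x_infRing (s34m_VV G φ M q hq hqM))
        (s18_chart1 (L₀ := K₀) t)) ∈ 𝔫 := h1 (s59b_natCast_mem_comp G φ M q hq hqM _)
    have hcop : ∀ k : ℕ, Nat.Coprime q (3 ^ k) := fun k =>
      Nat.Coprime.pow_right k ((Nat.coprime_primes hq Nat.prime_three).mpr hq3)
    have e : (⟨s18g_jF (K := K₀) (M * q) * t ^ 3, hgB⟩ :
        s34x_ring (s34x_infRing (s34m_VV G φ M q hq hqM)) (s18_chart1 (L₀ := K₀) t)) =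
        (⟨t, htB⟩ + ((27 : ℕ) : s34x_ring _ _)) * (⟨t, htB⟩ + ((243 : ℕ) : s34x_ring _ _)) ^ 3 := by
      apply Subtype.ext
      push_cast
      exact hrel
    rw [e] at hg𝔫
    rcases h𝔫.mem_or_mem hg𝔫 with h | h
    · have h27 : ((27 : ℕ) : s34x_ring (s34x_infRing (s34m_VV G φ M q hq hqM))
          (s18_chart1 (L₀ := K₀) t)) ∈ 𝔫 := by
        have := 𝔫.sub_mem h hv
        rwa [add_sub_cancel_left] at this
      exact s59b_not_mem_of_coprime 𝔫 h𝔫.ne_top q 27 (hcop 3) hq𝔫 h27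
    · have h' := h𝔫.mem_of_pow_mem 3 h
      have h243 : ((243 : ℕ) : s34x_ring (s34x_infRing (s34m_VV G φ M q hq hqM))
          (s18_chart1 (L₀ := K₀) t)) ∈ 𝔫 := by
        have := 𝔫.sub_mem h' hv
        rwa [add_sub_cancel_left] at this
      exact s59b_not_mem_of_coprime 𝔫 h𝔫.ne_top q 243 (hcop 5) hq𝔫 h243

include φ in
/-- **the node places of the chart of `t₂` are those of the chart of `j`** (`q ≠ 2`). -/
theorem s59b_nodePlaces_t2_eq_j [CharZero K₀] [CharP κ q] (hq : q.Prime) (hqM : ¬ q ∣ M) (hq2 : q ≠ 2)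
    (t : s34m_F K₀ (M * q)) (ht : (t : LaurentSeries K₀) = s18u_t2 K₀)
    (htO : t ∈ s34x_infRing (s34m_VV G φ M q hq hqM)) :
    s33s_nodePlaces (s34m_VV G φ M q hq hqM) (s34m_unif G (M * q))
        (s18_chart1 (L₀ := K₀) (s18g_jF (K := K₀) (M * q))) =
      s33s_nodePlaces (s34m_VV G φ M q hq hqM) (s34m_unif G (M * q)) (s18_chart1 (L₀ := K₀) t) := by
  have ht0 : t ≠ 0 := s33n_t2_ne_zero (M * q) t ht
  have hj0 : s18g_jF (K := K₀) (M * q) ≠ 0 := s18g_jF_ne_zero (M * q)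
  have hrel : s18g_jF (K := K₀) (M * q) * t ^ 2 = (t + 256) ^ 3 := s33n_rel_t2 (M * q) t ht
  have htB : t ∈ s34x_ring (s34x_infRing (s34m_VV G φ M q hq hqM)) (s18_chart1 (L₀ := K₀) t) :=
    ⟨htO, fun _ hQ => hQ⟩
  have hgB : s18g_jF (K := K₀) (M * q) * t ^ 2 ∈
      s34x_ring (s34x_infRing (s34m_VV G φ M q hq hqM)) (s18_chart1 (L₀ := K₀) t) := by
    rw [hrel]
    exact pow_mem (add_mem htB (ofNat_mem _ 256)) 3
  haveI : CharZero (s34m_F K₀ (M * q)) :=
    charZero_of_injective_algebraMap (algebraMap K₀ (s34m_F K₀ (M * q))).injective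
  refine s59b_nodePlaces_chart1_eq_abs (s34m_VV G φ M q hq hqM) (s34m_unif G (M * q))
    (s18g_jF (K := K₀) (M * q)) t 2 (by norm_num) hj0 ht0 (s34d2_j_inv_mem_O G φ M q hq hqM) htB hgB
    ?_ ?_ (fun b hb => s33n_finite_poles φ (M * q) b hb)
    (fun 𝔪 _ hm1 hm2 _ => s33n_no_node_at_infty G φ M q hq hqM 𝔪 hm1 hm2) ?_
  · intro Q hjQ
    by_contra htQ
    have hordt : Q.ord t < 0 := by
      by_contra hcon
      exact htQ ((ff_mem_iff_ord_nonneg Q ht0).mpr (not_lt.mp hcon))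
    have hordj : 0 ≤ Q.ord (s18g_jF (K := K₀) (M * q)) := (ff_mem_iff_ord_nonneg Q hj0).mp hjQ
    have h256 : Q.ord (t + 256) = Q.ord t := by
      have := s59b_ord_add_natCast Q t 256 (by norm_num) hordt ht0
      simpa using this
    have h256' : t + 256 ≠ 0 := by
      intro h0; rw [h0] at h256; simp at h256; omega
    have h := congrArg Q.ord hrel
    rw [Q.ord_mul hj0 (pow_ne_zero _ ht0), s33n_ord_pow, s33n_ord_pow, h256] at h
    push_cast at h
    omega
  · intro Q htQ htQ'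
    have e3 : s18g_jF (K := K₀) (M * q) = (t + 256) ^ 3 * (t⁻¹) ^ 2 := by
      rw [← hrel]
      field_simp
    rw [e3]
    have h256 : (256 : s34m_F K₀ (M * q)) ∈ Q.toValuationSubring := ofNat_mem _ 256
    exact mul_mem (pow_mem (add_mem htQ h256) 3) (pow_mem htQ' 2)
  · intro 𝔫 h𝔫 h1 hv hg𝔫
    have hq𝔫 : ((q : ℕ) : s34x_ring (s34x_infRing (s34m_VV G φ M q hq hqM))
        (s18_chart1 (L₀ := K₀) t)) ∈ 𝔫 := h1 (s59b_natCast_mem_comp G φ M q hq hqM _)
    have hcop : ∀ k : ℕ, Nat.Coprime q (2 ^ k) := fun k =>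
      Nat.Coprime.pow_right k ((Nat.coprime_primes hq Nat.prime_two).mpr hq2)
    have e : (⟨s18g_jF (K := K₀) (M * q) * t ^ 2, hgB⟩ :
        s34x_ring (s34x_infRing (s34m_VV G φ M q hq hqM)) (s18_chart1 (L₀ := K₀) t)) =
        (⟨t, htB⟩ + ((256 : ℕ) : s34x_ring _ _)) ^ 3 := by
      apply Subtype.ext
      push_cast
      exact hrel
    rw [e] at hg𝔫
    have h' := h𝔫.mem_of_pow_mem 3 hg𝔫
    have h256 : ((256 : ℕ) : s34x_ring (s34x_infRing (s34m_VV G φ M q hq hqM))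
        (s18_chart1 (L₀ := K₀) t)) ∈ 𝔫 := by
      have := 𝔫.sub_mem h' hv
      rwa [add_sub_cancel_left] at this
    exact s59b_not_mem_of_coprime 𝔫 h𝔫.ne_top q 256 (hcop 8) hq𝔫 h256

end Modular

end Fermat.Agent.Lib.S59
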