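/-
Programme (R2), node **[CAR]**, route R-DS′, helper9's request (A) of #3674 (helper3, prefix `s59u_`):
**`s59m_HeckeOn Z` FROM CONGRUENCES.**

For a Σ-datum `Z` and a multiplicative map `T : 𝓕 →* 𝓕` which preserves the two Gauss rings (`mem_i`, `mem_z`), preserves
`1 + ϖ O` on both components (`cong_i`, `cong_z`), maps constants to constants and node-avoiding functions to node-avoiding
functions, there is a Hecke correspondence `H : s59m_HeckeOn Z` with `H.T = T`: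
`Ti φ := red_∞ (T (lift φ))` for `φ ≠ 0` (`Ti 0 := 0`), independent of the unit lift because two unit lifts differ by an
element of `1 + ϖ O`.

* `s59u_red_T_congr` : `red (T h') = red (T h)` for lifts `h` (a unit), `h'` of the same residue function;
* `s59u_exists_redT` : the induced map on one component;
* `s59u_heckeOn_of_cong` : the statement (A).
-/
import Mathlib
import Fermat.Agent.Lib.S59.MCarHecke

set_option autoImplicit false
set_option linter.unusedSectionVars false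
set_option linter.unusedVariables false
set_option linter.style.haveILetI false

noncomputable section

namespace Fermat.Agent.Lib.S59

open AlgebraicCurve Fermat.Agent.Lib.FF Fermat.Agent.Lib.S33

variable {L₀ 𝓕' κ Fb : Type*} [Field L₀] [Field 𝓕'] [Algebra L₀ 𝓕'] [Field κ] [Field Fb] [Algebra κ Fb]
variable {D' : s33f_Datum L₀ 𝓕' κ Fb} {𝓕 : Type*} [Field 𝓕] [Algebra L₀ 𝓕]
variable {ι : Type*} {k : ι → Type*} [∀ s, Field (k s)] [∀ s, Algebra κ (k s)]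

section Comp

variable (C : s33z_Comp D' 𝓕) (T : 𝓕 →* 𝓕) (mem : ∀ h : 𝓕, h ∈ C.O → T h ∈ C.O)
  (cong : ∀ u : 𝓕, u ∈ C.O → (∃ y ∈ C.O, u - 1 = algebraMap L₀ 𝓕 D'.ϖ * y) →
    ∃ y' ∈ C.O, T u - 1 = algebraMap L₀ 𝓕 D'.ϖ * y')

include cong in
/-- two lifts of the same non-zero residue function have the same `red ∘ T`. -/
theorem s59u_red_T_congr {h h' : 𝓕} (h0 : h ≠ 0) (hh : h ∈ C.O) (hh' : h' ∈ C.O) (hinv : h⁻¹ ∈ C.O)
    (hred : C.red ⟨h', hh'⟩ = C.red ⟨h, hh⟩) :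
    C.red ⟨T h', mem h' hh'⟩ = C.red ⟨T h, mem h hh⟩ := by
  have hr0 : C.red ⟨h, hh⟩ ≠ 0 := s59m_red_ne_zero C h0 hh hinv
  have hu : h' * h⁻¹ ∈ C.O := mul_mem hh' hinv
  have hru : C.red ⟨h' * h⁻¹, hu⟩ = 1 := by
    have e : (⟨h' * h⁻¹, hu⟩ : C.O) = ⟨h', hh'⟩ * ⟨h⁻¹, hinv⟩ := rfl
    rw [e, map_mul, hred, s59m_red_inv C h0 hh hinv, mul_inv_cancel₀ hr0]
  have hx : h' * h⁻¹ - 1 ∈ C.O := sub_mem hu (one_mem _)
  have hrx : C.red ⟨h' * h⁻¹ - 1, hx⟩ = 0 := by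
    have e : (⟨h' * h⁻¹ - 1, hx⟩ : C.O) = ⟨h' * h⁻¹, hu⟩ - 1 := rfl
    rw [e, map_sub, hru, map_one, sub_self]
  obtain ⟨y, hy, hxy⟩ := (C.red_eq_zero_iff _).mp hrx
  obtain ⟨y', hy', hTy⟩ := cong _ hu ⟨y, hy, hxy⟩
  have hTu : T (h' * h⁻¹) ∈ C.O := mem _ hu
  have hrTu : C.red ⟨T (h' * h⁻¹), hTu⟩ = 1 := by
    have hx' : T (h' * h⁻¹) - 1 ∈ C.O := sub_mem hTu (one_mem _)
    have h1 : C.red ⟨T (h' * h⁻¹) - 1, hx'⟩ = 0 := (C.red_eq_zero_iff _).mpr ⟨y', hy', hTy⟩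
    have e : (⟨T (h' * h⁻¹) - 1, hx'⟩ : C.O) = ⟨T (h' * h⁻¹), hTu⟩ - 1 := rfl
    rw [e, map_sub, map_one, sub_eq_zero] at h1
    exact h1
  have hprod : T h' = T (h' * h⁻¹) * T h := by
    rw [← map_mul, mul_assoc, inv_mul_cancel₀ h0, mul_one]
  have e : (⟨T h', mem h' hh'⟩ : C.O) = ⟨T (h' * h⁻¹), hTu⟩ * ⟨T h, mem h hh⟩ := Subtype.ext hprod
  rw [e, map_mul, hrTu, one_mul]

/-- the chosen lift of a residue function (`0` lifts to `0`). -/
def s59u_liftC (φ : Fb) : 𝓕 :=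
  haveI := Classical.dec (φ = 0)
  if φ = 0 then 0 else ((Classical.choose (C.red_surjective φ) : C.O) : 𝓕)

theorem s59u_liftC_zero : s59u_liftC C (0 : Fb) = 0 := by
  unfold s59u_liftC
  rw [if_pos rfl]

theorem s59u_liftC_mem (φ : Fb) : s59u_liftC C φ ∈ C.O := by
  unfold s59u_liftC
  split_ifs with h
  · exact zero_mem _
  · exact (Classical.choose (C.red_surjective φ)).2

theorem s59u_liftC_red (φ : Fb) : C.red ⟨s59u_liftC C φ, s59u_liftC_mem C φ⟩ = φ := by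
  by_cases h : φ = 0
  · have e : (⟨s59u_liftC C φ, s59u_liftC_mem C φ⟩ : C.O) = 0 := by
      refine Subtype.ext ?_
      show s59u_liftC C φ = 0
      rw [h, s59u_liftC_zero]
    rw [e, map_zero, h]
  · have e : (⟨s59u_liftC C φ, s59u_liftC_mem C φ⟩ : C.O) = Classical.choose (C.red_surjective φ) := by
      refine Subtype.ext ?_
      show s59u_liftC C φ = _
      unfold s59u_liftC
      rw [if_neg h]
    rw [e]
    exact Classical.choose_spec (C.red_surjective φ)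

theorem s59u_liftC_unit {φ : Fb} (hφ : φ ≠ 0) : s59u_liftC C φ ≠ 0 ∧ (s59u_liftC C φ)⁻¹ ∈ C.O := by
  have h1 : C.red ⟨s59u_liftC C φ, s59u_liftC_mem C φ⟩ ≠ 0 := by rw [s59u_liftC_red]; exact hφ
  refine ⟨?_, s59m_inv_mem_of_red_ne_zero C (s59u_liftC_mem C φ) h1⟩
  intro h0
  apply h1
  have e : (⟨s59u_liftC C φ, s59u_liftC_mem C φ⟩ : C.O) = 0 := Subtype.ext h0
  rw [e, map_zero]

include cong in
/-- **the induced map on the residue function field of one component.** -/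
theorem s59u_exists_redT
    (const : ∀ c : L₀, ∃ d : L₀, T (algebraMap L₀ 𝓕 c) = algebraMap L₀ 𝓕 d) :
    ∃ Tr : Fb →* Fb,
      (∀ (h : 𝓕) (hh : h ∈ C.O), h⁻¹ ∈ C.O → C.red ⟨T h, mem h hh⟩ = Tr (C.red ⟨h, hh⟩)) ∧
      (∀ c : κ, ∃ d : κ, Tr (algebraMap κ Fb c) = algebraMap κ Fb d) := by
  classical
  -- the function
  let f : Fb → Fb := fun φ => C.red ⟨T (s59u_liftC C φ), mem _ (s59u_liftC_mem C φ)⟩
  -- `red (T h) = f (red h)` for units (and for `h = 0`)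
  have hkey : ∀ (h : 𝓕) (hh : h ∈ C.O), h⁻¹ ∈ C.O → C.red ⟨T h, mem h hh⟩ = f (C.red ⟨h, hh⟩) := by
    intro h hh hinv
    by_cases h0 : h = 0
    · subst h0
      have e : (⟨(0 : 𝓕), hh⟩ : C.O) = 0 := rfl
      show _ = C.red ⟨T (s59u_liftC C (C.red ⟨0, hh⟩)), _⟩
      congr 2
      rw [e, map_zero C.red, s59u_liftC_zero]
    · exact (s59u_red_T_congr C T mem cong h0 hh (s59u_liftC_mem C _) hinv (s59u_liftC_red C _)).symm
  have hone : f 1 = 1 := by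
    have h1 : C.red ⟨T 1, mem 1 (one_mem _)⟩ = f (C.red ⟨1, one_mem _⟩) :=
      hkey 1 (one_mem _) (by rw [inv_one]; exact one_mem _)
    have e1 : C.red ⟨(1 : 𝓕), one_mem _⟩ = 1 := map_one C.red
    have e2 : C.red ⟨T 1, mem 1 (one_mem _)⟩ = 1 := by
      have : (⟨T 1, mem 1 (one_mem _)⟩ : C.O) = 1 := Subtype.ext (map_one T)
      rw [this, map_one]
    rw [e1] at h1
    rw [← h1, e2]
  have hmul : ∀ φ ψ : Fb, f (φ * ψ) = f φ * f ψ := by
    intro φ ψ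
    have hm : s59u_liftC C φ * s59u_liftC C ψ ∈ C.O := mul_mem (s59u_liftC_mem C φ) (s59u_liftC_mem C ψ)
    have hprod : f φ * f ψ = C.red ⟨T (s59u_liftC C φ * s59u_liftC C ψ), mem _ hm⟩ := by
      show C.red _ * C.red _ = _
      rw [← map_mul]
      congr 1
      exact Subtype.ext (map_mul T _ _).symm
    rw [hprod]
    by_cases hz : φ * ψ = 0
    · have hl : s59u_liftC C φ * s59u_liftC C ψ = 0 := by
        rcases mul_eq_zero.mp hz with h | h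
        · rw [h, s59u_liftC_zero, zero_mul]
        · rw [h, s59u_liftC_zero, mul_zero]
      show C.red ⟨T (s59u_liftC C (φ * ψ)), _⟩ = _
      congr 2
      rw [hz, s59u_liftC_zero, hl]
    · have hφ : φ ≠ 0 := left_ne_zero_of_mul hz
      have hψ : ψ ≠ 0 := right_ne_zero_of_mul hz
      obtain ⟨a0, ainv⟩ := s59u_liftC_unit C hφ
      obtain ⟨b0, binv⟩ := s59u_liftC_unit C hψ
      refine s59u_red_T_congr C T mem cong (mul_ne_zero a0 b0) hm (s59u_liftC_mem C _)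
        (by rw [mul_inv]; exact mul_mem ainv binv) ?_
      rw [s59u_liftC_red]
      have e : (⟨s59u_liftC C φ * s59u_liftC C ψ, hm⟩ : C.O) =
          ⟨s59u_liftC C φ, s59u_liftC_mem C φ⟩ * ⟨s59u_liftC C ψ, s59u_liftC_mem C ψ⟩ := rfl
      rw [e, map_mul, s59u_liftC_red, s59u_liftC_red]
  refine ⟨⟨⟨f, hone⟩, hmul⟩, hkey, fun c => ?_⟩
  show ∃ d : κ, f (algebraMap κ Fb c) = algebraMap κ Fb d
  obtain ⟨a, rfl⟩ := D'.resA_surjective c
  have ha : algebraMap L₀ 𝓕 (a : L₀) ∈ C.O := (C.const_mem_iff (a : L₀)).mpr a.2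
  obtain ⟨d₀, hd₀⟩ := const (a : L₀)
  have hTa : T (algebraMap L₀ 𝓕 (a : L₀)) ∈ C.O := mem _ ha
  have hd₀A : d₀ ∈ D'.A₀ := (C.const_mem_iff d₀).mp (by rw [← hd₀]; exact hTa)
  by_cases hc : D'.resA a = 0
  · -- `c = 0`
    obtain ⟨d₁, hd₁⟩ := const 0
    have h0 : T (s59u_liftC C (0 : Fb)) = algebraMap L₀ 𝓕 d₁ := by
      rw [s59u_liftC_zero, ← hd₁, map_zero (algebraMap L₀ 𝓕)]
    have hd₁A : d₁ ∈ D'.A₀ := (C.const_mem_iff d₁).mp (by
      rw [← h0]; exact mem _ (s59u_liftC_mem C 0))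
    refine ⟨D'.resA ⟨d₁, hd₁A⟩, ?_⟩
    rw [hc, map_zero (algebraMap κ Fb)]
    show C.red ⟨T (s59u_liftC C 0), _⟩ = _
    rw [← C.red_const ⟨d₁, hd₁A⟩]
    congr 1
    exact Subtype.ext h0
  · refine ⟨D'.resA ⟨d₀, hd₀A⟩, ?_⟩
    have hra : C.red ⟨algebraMap L₀ 𝓕 (a : L₀), ha⟩ = algebraMap κ Fb (D'.resA a) := C.red_const a
    have hinv : (algebraMap L₀ 𝓕 (a : L₀))⁻¹ ∈ C.O := by
      refine s59m_inv_mem_of_red_ne_zero C ha ?_
      rw [hra]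
      exact (map_ne_zero_iff _ (algebraMap κ Fb).injective).mpr hc
    have h1 := hkey _ ha hinv
    rw [hra] at h1
    rw [← h1, ← C.red_const ⟨d₀, hd₀A⟩]
    congr 1
    exact Subtype.ext hd₀

end Comp



/-- **(A): a Hecke correspondence on the Σ-datum from congruences.** -/
theorem s59u_heckeOn_of_cong (Z : s33z_Datum D' 𝓕 ι k) (T : 𝓕 →* 𝓕)
    (mem_i : ∀ h : 𝓕, h ∈ Z.Ci.O → T h ∈ Z.Ci.O) (mem_z : ∀ h : 𝓕, h ∈ Z.Cz.O → T h ∈ Z.Cz.O)
    (cong_i : ∀ u : 𝓕, u ∈ Z.Ci.O → (∃ y ∈ Z.Ci.O, u - 1 = algebraMap L₀ 𝓕 D'.ϖ * y) →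
      ∃ y' ∈ Z.Ci.O, T u - 1 = algebraMap L₀ 𝓕 D'.ϖ * y')
    (cong_z : ∀ u : 𝓕, u ∈ Z.Cz.O → (∃ y ∈ Z.Cz.O, u - 1 = algebraMap L₀ 𝓕 D'.ϖ * y) →
      ∃ y' ∈ Z.Cz.O, T u - 1 = algebraMap L₀ 𝓕 D'.ϖ * y')
    (const : ∀ c : L₀, ∃ d : L₀, T (algebraMap L₀ 𝓕 c) = algebraMap L₀ 𝓕 d)
    (nf : ∀ h : 𝓕, s33z_NF Z h → s33z_NF Z (T h)) :
    ∃ H : s59m_HeckeOn Z, H.T = T := by
  obtain ⟨Ti, hTi, hTic⟩ := s59u_exists_redT Z.Ci T mem_i cong_i const
  obtain ⟨Tz, hTz, hTzc⟩ := s59u_exists_redT Z.Cz T mem_z cong_z const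
  exact ⟨{ T := T
           Ti := Ti
           Tz := Tz
           mem_i := mem_i
           mem_z := mem_z
           red_i := hTi
           red_z := hTz
           Ti_const := hTic
           Tz_const := hTzc
           nf := nf }, rfl⟩

end Fermat.Agent.Lib.S59
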