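/-
Programme (R2), node **[CAR]**, route R-DS′, leaf **[L-c]** (helper3, prefix `s59u_`): **THE HECKE FRAMES OF helper9's CONCRETE
KUMMER FRAME `s59m_kumFrameC`** (level `M q`, `q ≥ 5`, Σ-datum `s59m_Zc`, base field `L₀` arbitrary finite — NO roots of
unity needed), for every prime `ℓ ∤ M q`, `ℓ ≠ q`, modulo the one geometric input **[T-NODE]**.

* `s59u_TNodeC …`      : **[T-NODE]** for `τ_ℓ = s59u_tauD (M q) ℓ hℓN L₀`: node-avoiding functions go to node-avoiding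
                         functions (contract; helper8's node frame + `s59u_tnode_down/up`);
* `s59u_heckeOnC`      : `s59m_HeckeOn (s59m_Zc …)` with `T = τ_ℓ` (from `s59u_heckeOn_of_cong` and `UCarTauD.lean`);
* **`s59u_heckeFrameC`** : `s59m_HeckeFrame (s59m_kumFrameC …) ℓ` (`gen_hecke` = `s59u_isKumGen_tauD`).
-/
import Fermat.Agent.Lib.S59.MCarFrame
import Fermat.Agent.Lib.S59.UCarHeckeOn
import Fermat.Agent.Lib.S59.UCarTauGen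

set_option autoImplicit false
set_option linter.style.haveILetI false
set_option linter.unusedSectionVars false
set_option linter.unusedVariables false
set_option synthInstance.maxHeartbeats 400000

noncomputable section

namespace Fermat.Agent.Lib.S59

open ModularCurve HahnSeries AlgebraicCurve Fermat.Agent.Lib.FF Fermat.Agent.Lib.S18
  Fermat.Agent.Lib.S28 Fermat.Agent.Lib.S29 Fermat.Agent.Lib.S37 Fermat.Agent.Lib.S34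
  Fermat.Agent.Lib.S35 Fermat.Agent.Lib.S33 Fermat.Agent.Lib.S44

local notation "Kb" => AlgebraicClosure ℚ

variable (M q : ℕ) [NeZero M] [hq : Fact q.Prime] (hqM : ¬ q ∣ M) (h5 : 5 ≤ q)
  (m : ℕ) (hm0 : m ≠ 0) (hqm : ¬ q ∣ m)
  (P : ValuationSubring Kb) (hP : P.LiesOverPrime q)
  (L₀ : IntermediateField ℚ Kb) [FiniteDimensional ℚ ↥L₀] [IsDiscreteValuationRing ↥(s18q_A0 P L₀)]
  (ϖ : ↥(s18q_A0 P L₀)) (hϖ : Irreducible ϖ)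
  [NumberField ↥L₀] [CharP (IsLocalRing.ResidueField ↥(s18q_A0 P L₀)) q]
  [PerfectField (IsLocalRing.ResidueField ↥(s18q_A0 P L₀))]
  [IsDiscreteValuationRing ↥(s37r_G P L₀ ϖ hϖ).A]
  (hdeg : s34m_HDeg ↥L₀ M q) (hT : s18g_HT (IsLocalRing.ResidueField ↥(s18q_A0 P L₀)) M)
  (hdegM : s18g_HDeg ↥L₀ M) (hπ : Function.Surjective (s37r_G P L₀ ϖ hϖ).π)
  (e : ℕ) (ε : ↥L₀) (he : 0 < e) (hε : ε ∈ (s37r_G P L₀ ϖ hϖ).A)
  (hεinv : ε⁻¹ ∈ (s37r_G P L₀ ϖ hϖ).A) (hε0 : ε ≠ 0)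
  (hqe : (q : ↥L₀) = ε * (((s37r_G P L₀ ϖ hϖ).ϖ : (s37r_G P L₀ ϖ hϖ).A) : ↥L₀) ^ e)
  (hperf : ∀ c : IsLocalRing.ResidueField ↥(s18q_A0 P L₀), ∃ d, d ^ q = c)
  (ℓ : ℕ) [hℓ : Fact ℓ.Prime] (hℓN : ¬ ℓ ∣ M * q) (hℓq : ℓ ≠ q)

/-- **[T-NODE]** (contract): `τ_ℓ` preserves node-avoidance on the concrete Σ-datum. -/
def s59u_TNodeC : Prop :=
  ∀ h : s34m_F ↥L₀ (M * q),
    s33z_NF (s59m_Zc M q hqM h5 P L₀ ϖ hϖ hdeg hT hdegM hπ e ε he hε hεinv hε0 hqe hperf) h →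
    s33z_NF (s59m_Zc M q hqM h5 P L₀ ϖ hϖ hdeg hT hdegM hπ e ε he hε hεinv hε0 hqe hperf)
      (s59u_tauD (M * q) ℓ hℓN L₀ h)

include hP hℓq in
/-- **the Hecke correspondence `τ_ℓ` on the concrete Σ-datum.** -/
theorem s59u_heckeOnC
    (hnf : s59u_TNodeC M q hqM h5 P L₀ ϖ hϖ hdeg hT hdegM hπ e ε he hε hεinv hε0 hqe hperf ℓ hℓN) :
    ∃ H : s59m_HeckeOn
        (s59m_Zc M q hqM h5 P L₀ ϖ hϖ hdeg hT hdegM hπ e ε he hε hεinv hε0 hqe hperf),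
      H.T = s59u_tauD (M * q) ℓ hℓN L₀ := by
  refine s59u_heckeOn_of_cong _ (s59u_tauD (M * q) ℓ hℓN L₀) ?_ ?_ ?_ ?_ ?_ hnf
  · intro h hh
    exact s59u_tauD_mem_Vinf (M * q) ℓ hℓN P hP L₀ ϖ hϖ hh
  · intro h hh
    exact s59u_tauD_mem_Vzero M hqM ℓ hℓN P hP L₀ ϖ hϖ hh
  · intro u hu hc
    exact s59u_tauD_cong_Vinf (M * q) ℓ hℓN hℓq P hP L₀ ϖ hϖ hu hc
  · intro u hu hc
    exact s59u_tauD_cong_Vzero M hqM ℓ hℓN hℓq P hP L₀ ϖ hϖ hu hc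
  · intro c
    exact s59u_tauD_const (M * q) ℓ hℓN L₀ c

include hP hℓq hm0 hqm in
/-- **[L-c]: THE HECKE FRAME** of `s59m_kumFrameC` at `ℓ`, modulo [T-NODE]. -/
def s59u_heckeFrameC
    (hnf : s59u_TNodeC M q hqM h5 P L₀ ϖ hϖ hdeg hT hdegM hπ e ε he hε hεinv hε0 hqe hperf ℓ hℓN) :
    s59m_HeckeFrame
      (s59m_kumFrameC M q hqM h5 m hm0 hqm P hP L₀ ϖ hϖ hdeg hT hdegM hπ e ε he hε hεinv hε0 hqe
        hperf) ⟨ℓ, hℓ.out⟩ where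
  H := Classical.choose (s59u_heckeOnC M q hqM h5 P hP L₀ ϖ hϖ hdeg hT hdegM hπ e ε he hε hεinv hε0
    hqe hperf ℓ hℓN hℓq hnf)
  gen_hecke := by
    intro x h hx
    rw [Classical.choose_spec (s59u_heckeOnC M q hqM h5 P hP L₀ ϖ hϖ hdeg hT hdegM hπ e ε he hε hεinv
      hε0 hqe hperf ℓ hℓN hℓq hnf)]
    exact s59u_isKumGen_tauD (M * q) ℓ hℓN L₀ m hx

theorem s59u_heckeFrameC_T
    (hnf : s59u_TNodeC M q hqM h5 P L₀ ϖ hϖ hdeg hT hdegM hπ e ε he hε hεinv hε0 hqe hperf ℓ hℓN) :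
    (s59u_heckeFrameC M q hqM h5 m hm0 hqm P hP L₀ ϖ hϖ hdeg hT hdegM hπ e ε he hε hεinv hε0 hqe
      hperf ℓ hℓN hℓq hnf).H.T = s59u_tauD (M * q) ℓ hℓN L₀ :=
  Classical.choose_spec (s59u_heckeOnC M q hqM h5 P hP L₀ ϖ hϖ hdeg hT hdegM hπ e ε he hε hεinv
    hε0 hqe hperf ℓ hℓN hℓq hnf)

end Fermat.Agent.Lib.S59
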