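/-
Programme (R2), node **[CAR]**, leaf [L-c]/**[T-NODE]** (helper3, prefix `s59u_`), part 4: **[T-NODE] PROVED.**

* `s59u_ord_normAlpha_eq_zero` : over `ℚ̄`, `ord_v (Nm_α z) = 0` as soon as `ord_w z = 0` for every place `w` of
  `F̄(N ℓ)` above `v` along `α` (Prelude norm formula `Σ_{w ∣ v} f_w · ord_w z`);
* **`s59u_tnodeC`** : `s59u_TNodeC …` — the Kummer-side Hecke operator `τ_ℓ = Nm_α ∘ β` of the concrete Σ-datum
  `s59m_Zc` (level `M q`, `q ≥ 5`) maps node-avoiding functions to node-avoiding functions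
  (`s59u_nodeCorr`: the `β`-restriction of a place above a place through a node passes through a node);
* **`s59u_exists_heckeFrameC`** : [L-c] in helper9's shape: for every prime `ℓ ∤ M q`, `ℓ ≠ q`, a Hecke frame of
  `s59m_kumFrameC` with `H.T = s59u_tauD (M q) ℓ hℓ L₀`.
-/
import Fermat.Agent.Lib.S59.UCarCorrInst
import Fermat.Agent.Lib.S59.UCarHeckeC
import Fermat.Agent.Lib.S37.HUnfold

set_option autoImplicit false
set_option linter.style.haveILetI false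
set_option linter.unusedSectionVars false
set_option linter.unusedVariables false
set_option synthInstance.maxHeartbeats 400000

noncomputable section

namespace Fermat.Agent.Lib.S59

open ModularCurve HahnSeries AlgebraicCurve Fermat.Agent.Lib.FF Fermat.Agent.Lib.S18
  Fermat.Agent.Lib.S28 Fermat.Agent.Lib.S29 Fermat.Agent.Lib.S37 Fermat.Agent.Lib.S34
  Fermat.Agent.Lib.S35 Fermat.Agent.Lib.S33 Fermat.Agent.Lib.S44

local notation "Kb" => AlgebraicClosure ℚ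

/-- membership in the restriction of a place along an embedding (general form: the kernel checks `Iff.rfl` cheaply
here, NOT at the concrete function fields). -/
theorem s59u_mem_restrictAlong {K F F' : Type*} [Field K] [Field F] [Field F'] [Algebra K F]
    [Algebra K F'] (φ : F →ₐ[K] F') (hφ : φ.toRingHom.IsIntegral) (w : Place K F') (z : F) :
    z ∈ (w.restrictAlong φ hφ).toValuationSubring ↔ φ z ∈ w.toValuationSubring := Iff.rfl

section W1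

variable (N ℓ : ℕ) [NeZero N] [NeZero ℓ] (hℓ : ℓ.Prime) (hℓN : ¬ ℓ ∣ N)

/-- `ord_v (Nm_α z) = 0` as soon as `z` is a unit at every place above `v` along `α`. -/
theorem s59u_ord_normAlpha_eq_zero (z : ffi_F (N * ℓ)) (hz : z ≠ 0) (v : Place Kb (ffi_F N))
    (h : ∀ w : Place Kb (ffi_F (N * ℓ)),
      w.restrictAlong (heckeAlphaBar Kb N ℓ) (s37h_alphaIntegral N ℓ hℓ hℓN) = v → w.ord z = 0) :
    v.ord (s37e_normAlpha N ℓ z) = 0 := by
  classical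
  obtain ⟨D, hD, -⟩ := HasPrincipalDivisors.exists_divisor (K := Kb) z hz
  letI := algebraAlong (heckeAlphaBar Kb N ℓ)
  haveI := isScalarTower_along (heckeAlphaBar Kb N ℓ)
  haveI := isIntegral_along (heckeAlphaBar Kb N ℓ) (s37h_alphaIntegral N ℓ hℓ hℓN)
  haveI : Module.Finite (ffi_F N) (ffi_F (N * ℓ)) := s37w_finite_alpha N ℓ hℓ hℓN
  have h1 := s37h_normFormula_alpha N ℓ hℓ hℓN z hz D hD v
  show v.ord (Algebra.norm (ffi_F N) z) = 0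
  rw [← h1, Divisor.pushforward_apply]
  refine Finset.sum_eq_zero fun w _ => ?_
  split_ifs with hw
  · rw [hD w, h w hw, zero_mul]
  · rfl

end W1

section TNodeG

variable (M q : ℕ) [NeZero M] [NeZero q] (hq : q.Prime) (hqM : ¬ q ∣ M)
  (L₀ : IntermediateField ℚ Kb) {κ : Type} [Field κ] (G : s18g_GaussData ↥L₀ κ)
  [IsDiscreteValuationRing G.A] [CharP κ q]
  (ℓ : ℕ) [hℓ : Fact ℓ.Prime] (hℓN : ¬ ℓ ∣ M * q)

include hq in
/-- **[T-NODE]** for an arbitrary Gauss datum over `L₀`: `τ_ℓ` preserves the functions without zero or pole at the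
places through the nodes of the chart `{j regular}`. -/
theorem s59u_tnode_gauss (h : s34m_F ↥L₀ (M * q)) (hh0 : h ≠ 0)
    (hnf : ∀ Q ∈ s33s_nodePlaces (s34m_VV G (algebraMap ↥L₀ Kb) M q hq hqM) (s34m_unif G (M * q))
      (s18_chart1 (L₀ := ↥L₀) (s18g_jF (K := ↥L₀) (M * q))), Q.ord h = 0)
    (Q : Place ↥L₀ (s34m_F ↥L₀ (M * q)))
    (hQ : Q ∈ s33s_nodePlaces (s34m_VV G (algebraMap ↥L₀ Kb) M q hq hqM) (s34m_unif G (M * q))
      (s18_chart1 (L₀ := ↥L₀) (s18g_jF (K := ↥L₀) (M * q)))) :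
    Q.ord (s59u_tauD (M * q) ℓ hℓN L₀ h) = 0 := by
  haveI : NeZero ℓ := ⟨hℓ.out.ne_zero⟩
  obtain ⟨Pb, rfl⟩ := s18q_restrict_surjective (M * q) L₀ Q
  rw [← s18q_ord_restrict, s59u_incl_tauD]
  have hβ0 : heckeBetaBar Kb (M * q) ℓ (s18q_incl (M * q) L₀ h) ≠ 0 :=
    (map_ne_zero _).mpr ((map_ne_zero _).mpr hh0)
  refine s59u_ord_normAlpha_eq_zero (M * q) ℓ hℓ.out hℓN _ hβ0 Pb fun w hw => ?_
  rw [Place.ord_restrictAlong (heckeBetaBar Kb (M * q) ℓ) (s37h_betaIntegral (M * q) ℓ hℓ.out hℓN) w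
    (s18q_incl (M * q) L₀ h)]
  have key : (w.restrictAlong (heckeBetaBar Kb (M * q) ℓ)
      (s37h_betaIntegral (M * q) ℓ hℓ.out hℓN)).ord (s18q_incl (M * q) L₀ h) = 0 := by
    rw [s18q_ord_restrict (M * q) L₀]
    apply hnf
    refine s59u_nodeCorr G (algebraMap ↥L₀ Kb) M q ℓ hq hqM hℓ.out hℓN
      (s18q_restrict (M * q * ℓ) L₀ w) (s18q_restrict (M * q) L₀ Pb) _ ?_ ?_ hQ
    · intro y
      rw [s18q_mem_restrict, s18q_mem_restrict, ← hw]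
      have e1 : s18q_incl (M * q * ℓ) L₀ (heckeAlphaBar ↥L₀ (M * q) ℓ y) =
          heckeAlphaBar Kb (M * q) ℓ (s18q_incl (M * q) L₀ y) :=
        s34m_iota_alpha (algebraMap ↥L₀ Kb) (M * q) ℓ y
      rw [e1]
      exact s59u_mem_restrictAlong (heckeAlphaBar Kb (M * q) ℓ) _ w (s18q_incl (M * q) L₀ y)
    · intro y
      rw [s18q_mem_restrict, s18q_mem_restrict]
      have e1 : s18q_incl (M * q * ℓ) L₀ (heckeBetaBar ↥L₀ (M * q) ℓ y) =
          heckeBetaBar Kb (M * q) ℓ (s18q_incl (M * q) L₀ y) :=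
        s34m_iota_beta (algebraMap ↥L₀ Kb) (M * q) ℓ y
      rw [e1]
      exact s59u_mem_restrictAlong (heckeBetaBar Kb (M * q) ℓ) _ w (s18q_incl (M * q) L₀ y)
  rw [key, mul_zero]

end TNodeG


section TNode

variable (M q : ℕ) [NeZero M] [hq : Fact q.Prime] (hqM : ¬ q ∣ M) (h5 : 5 ≤ q)
  (m : ℕ) (hm0 : m ≠ 0) (hqm : ¬ q ∣ m)
  (P : ValuationSubring Kb) (hP : P.LiesOverPrime q)
  (L₀ : IntermediateField ℚ Kb) [FiniteDimensional ℚ ↥L₀] [IsDiscreteValuationRing ↥(s18q_A0 P L₀)]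
  (ϖ : ↥(s18q_A0 P L₀)) (hϖ : Irreducible ϖ)
  [NumberField ↥L₀] [CharP (IsLocalRing.ResidueField ↥(s18q_A0 P L₀)) q]
  [PerfectField (IsLocalRing.ResidueField ↥(s18q_A0 P L₀))]
  [IsDiscreteValuationRing ↥(s37r_G P L₀ ϖ hϖ).A]
  (hdeg : s34m_HDeg ↥L₀ M q) (hT : s18g_HT (IsLocalRing.ResidueField ↥(s18q_A0 P L₀)) M)
  (hdegM : s18g_HDeg ↥L₀ M) (hπ : Function.Surjective (s37r_G P L₀ ϖ hϖ).π)
  (e : ℕ) (ε : ↥L₀) (he : 0 < e) (hε : ε ∈ (s37r_G P L₀ ϖ hϖ).A)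
  (hεinv : ε⁻¹ ∈ (s37r_G P L₀ ϖ hϖ).A) (hε0 : ε ≠ 0)
  (hqe : (q : ↥L₀) = ε * (((s37r_G P L₀ ϖ hϖ).ϖ : (s37r_G P L₀ ϖ hϖ).A) : ↥L₀) ^ e)
  (hperf : ∀ c : IsLocalRing.ResidueField ↥(s18q_A0 P L₀), ∃ d, d ^ q = c)
  (ℓ : ℕ) [hℓ : Fact ℓ.Prime] (hℓN : ¬ ℓ ∣ M * q) (hℓq : ℓ ≠ q)

/-- **[T-NODE] PROVED**: `τ_ℓ` preserves node-avoidance on the concrete Σ-datum. -/
theorem s59u_tnodeC :
    s59u_TNodeC M q hqM h5 P L₀ ϖ hϖ hdeg hT hdegM hπ e ε he hε hεinv hε0 hqe hperf ℓ hℓN := by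
  rintro h ⟨hh0, hnf⟩
  refine ⟨s59u_tauD_ne_zero (M * q) ℓ hℓN L₀ hh0, fun Q hQ => ?_⟩
  exact s59u_tnode_gauss M q hq.out hqM L₀ (s37r_G P L₀ ϖ hϖ) ℓ hℓN h hh0 hnf Q hQ

include hP hm0 hqm hℓq in
/-- **[L-c] DONE**: for every prime `ℓ ∤ M q`, `ℓ ≠ q`, a Hecke frame of the concrete Kummer frame with
`T = τ_ℓ = s59u_tauD (M q) ℓ hℓN L₀`. -/
theorem s59u_exists_heckeFrameC :
    ∃ HF : s59m_HeckeFrame
        (s59m_kumFrameC M q hqM h5 m hm0 hqm P hP L₀ ϖ hϖ hdeg hT hdegM hπ e ε he hε hεinv hε0 hqe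
          hperf) ⟨ℓ, hℓ.out⟩,
      HF.H.T = s59u_tauD (M * q) ℓ hℓN L₀ :=
  ⟨s59u_heckeFrameC M q hqM h5 m hm0 hqm P hP L₀ ϖ hϖ hdeg hT hdegM hπ e ε he hε hεinv hε0 hqe hperf
      ℓ hℓN hℓq
      (s59u_tnodeC M q hqM h5 P L₀ ϖ hϖ hdeg hT hdegM hπ e ε he hε hεinv hε0 hqe hperf ℓ hℓN),
    s59u_heckeFrameC_T M q hqM h5 m hm0 hqm P hP L₀ ϖ hϖ hdeg hT hdegM hπ e ε he hε hεinv hε0 hqe
      hperf ℓ hℓN hℓq _⟩

end TNode

end Fermat.Agent.Lib.S59
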