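/-
Programme (R2) / node **[CAR]**, the ports to `q ∈ {2, 3}` (helper2, prefix `s59b_`): **THE LEAF `hHF` (HECKE FRAMES) OVER THE
CHARTS OF `t₃` AND `t₂`** — helper3's `UCarHeckeC.lean` / `UCarTNodeW.lean` / `UCarHFLeaf.lean` over a chart package.

* `s59b_TNodeW …` : **[T-NODE]** for the Σ-datum `s59b_ZcW … C` (contract);
  `s59b_tnodeW_of_eq` : it holds as soon as the node places of the chart `{C.wN regular}` are those of the chart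
  `{j regular}` (helper3's `s59u_tnode_gauss`, which needs no `q ≥ 5`);
* `s59b_heckeOnW`, `s59b_heckeFrameCW` : the Hecke correspondence `τ_ℓ` and the Hecke frame of `s59b_kumFrameCW`;
* `s59b_nodePlaces_eq_j_t3/_t2` : the node-place comparison for a chart with `q`-expansion `t₃` / `t₂` (`B4NodeJ.lean`);
* **`s59b_hHF_leaf_t3`**, **`s59b_hHF_leaf_t2`** : the leaf `hHF` of `s59b_pkgEAt_of_leavesW` at `τ = t₃` (`q = 2`), `τ = t₂`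
  (`q = 3`).
-/
import Fermat.Agent.Lib.S59.B4Top
import Fermat.Agent.Lib.S59.B4NodeJ
import Fermat.Agent.Lib.S59.UCarTNodeW

set_option autoImplicit false
set_option linter.style.haveILetI false
set_option linter.unusedSectionVars false
set_option linter.unusedVariables false
set_option synthInstance.maxHeartbeats 400000

noncomputable section

namespace Fermat.Agent.Lib.S59

open ModularCurve HahnSeries AlgebraicCurve Fermat.Agent.Lib.FF Fermat.Agent.Lib.S18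
  Fermat.Agent.Lib.S28 Fermat.Agent.Lib.S29 Fermat.Agent.Lib.S37 Fermat.Agent.Lib.S34
  Fermat.Agent.Lib.S35 Fermat.Agent.Lib.S33 Fermat.Agent.Lib.S44

local notation "Kb" => AlgebraicClosure ℚ

section Frame

variable (M q : ℕ) [NeZero M] [hq : Fact q.Prime] (hqM : ¬ q ∣ M)
  (m : ℕ) (hm0 : m ≠ 0) (hqm : ¬ q ∣ m)
  (P : ValuationSubring Kb) (hP : P.LiesOverPrime q)
  (L₀ : IntermediateField ℚ Kb) [FiniteDimensional ℚ ↥L₀] [IsDiscreteValuationRing ↥(s18q_A0 P L₀)]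
  (ϖ : ↥(s18q_A0 P L₀)) (hϖ : Irreducible ϖ)
  [NumberField ↥L₀] [CharP (IsLocalRing.ResidueField ↥(s18q_A0 P L₀)) q]
  [PerfectField (IsLocalRing.ResidueField ↥(s18q_A0 P L₀))]
  [IsDiscreteValuationRing ↥(s37r_G P L₀ ϖ hϖ).A]
  (hdeg : s34m_HDeg ↥L₀ M q) (hT : s18g_HT (IsLocalRing.ResidueField ↥(s18q_A0 P L₀)) M)
  (hdegM : s18g_HDeg ↥L₀ M) (hπ : Function.Surjective (s37r_G P L₀ ϖ hϖ).π)
  (e : ℕ) (ε : ↥L₀) (he : 0 < e) (hε : ε ∈ (s37r_G P L₀ ϖ hϖ).A)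
  (hεinv : ε⁻¹ ∈ (s37r_G P L₀ ϖ hϖ).A) (hε0 : ε ≠ 0)
  (hqe : (q : ↥L₀) = ε * (((s37r_G P L₀ ϖ hϖ).ϖ : (s37r_G P L₀ ϖ hϖ).A) : ↥L₀) ^ e)
  (hperf : ∀ c : IsLocalRing.ResidueField ↥(s18q_A0 P L₀), ∃ d, d ^ q = c)
  (C : s59b_Chart (s37r_G P L₀ ϖ hϖ) (algebraMap ↥L₀ Kb) M q hqM hT hdegM)
  (ℓ : ℕ) [hℓ : Fact ℓ.Prime] (hℓN : ¬ ℓ ∣ M * q) (hℓq : ℓ ≠ q)

/-- **[T-NODE]** (contract): `τ_ℓ` preserves node-avoidance on the Σ-datum of the chart `C`. -/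
def s59b_TNodeW : Prop :=
  ∀ h : s34m_F ↥L₀ (M * q),
    s33z_NF (s59b_ZcW M q hqM P L₀ ϖ hϖ hdeg hT hdegM hπ e ε he hε hεinv hε0 hqe hperf C) h →
    s33z_NF (s59b_ZcW M q hqM P L₀ ϖ hϖ hdeg hT hdegM hπ e ε he hε hεinv hε0 hqe hperf C)
      (s59u_tauD (M * q) ℓ hℓN L₀ h)

/-- **[T-NODE]** as soon as the node places of the chart `{C.wN regular}` are those of the chart `{j regular}`. -/
theorem s59b_tnodeW_of_eq
    (hNP : s33s_nodePlaces (s34m_VV (s37r_G P L₀ ϖ hϖ) (algebraMap ↥L₀ Kb) M q hq.out hqM)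
        (s34m_unif (s37r_G P L₀ ϖ hϖ) (M * q))
        (s18_chart1 (L₀ := ↥L₀) (s18g_jF (K := ↥L₀) (M * q))) =
      s33s_nodePlaces (s34m_VV (s37r_G P L₀ ϖ hϖ) (algebraMap ↥L₀ Kb) M q hq.out hqM)
        (s34m_unif (s37r_G P L₀ ϖ hϖ) (M * q)) (s18_chart1 (L₀ := ↥L₀) C.wN)) :
    s59b_TNodeW M q hqM P L₀ ϖ hϖ hdeg hT hdegM hπ e ε he hε hεinv hε0 hqe hperf C ℓ hℓN := by
  haveI : NeZero q := ⟨hq.out.ne_zero⟩
  rintro h ⟨hh0, hnf⟩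
  refine ⟨s59u_tauD_ne_zero (M * q) ℓ hℓN L₀ hh0, fun Q hQ => ?_⟩
  have hnf' : ∀ Q ∈ s33s_nodePlaces (s34m_VV (s37r_G P L₀ ϖ hϖ) (algebraMap ↥L₀ Kb) M q hq.out hqM)
      (s34m_unif (s37r_G P L₀ ϖ hϖ) (M * q))
      (s18_chart1 (L₀ := ↥L₀) (s18g_jF (K := ↥L₀) (M * q))), Q.ord h = 0 := by
    intro Q' hQ'
    rw [hNP] at hQ'
    exact hnf Q' hQ'
  have hQ' : Q ∈ s33s_nodePlaces (s34m_VV (s37r_G P L₀ ϖ hϖ) (algebraMap ↥L₀ Kb) M q hq.out hqM)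
      (s34m_unif (s37r_G P L₀ ϖ hϖ) (M * q))
      (s18_chart1 (L₀ := ↥L₀) (s18g_jF (K := ↥L₀) (M * q))) := by
    rw [hNP]
    exact hQ
  exact s59u_tnode_gauss M q hq.out hqM L₀ (s37r_G P L₀ ϖ hϖ) ℓ hℓN h hh0 hnf' Q hQ'

include hP hℓq in
/-- **the Hecke correspondence `τ_ℓ` on the Σ-datum of the chart `C`.** -/
theorem s59b_heckeOnW
    (hnf : s59b_TNodeW M q hqM P L₀ ϖ hϖ hdeg hT hdegM hπ e ε he hε hεinv hε0 hqe hperf C ℓ hℓN) :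
    ∃ H : s59m_HeckeOn
        (s59b_ZcW M q hqM P L₀ ϖ hϖ hdeg hT hdegM hπ e ε he hε hεinv hε0 hqe hperf C),
      H.T = s59u_tauD (M * q) ℓ hℓN L₀ := by
  refine s59u_heckeOn_of_cong _ (s59u_tauD (M * q) ℓ hℓN L₀) ?_ ?_ ?_ ?_ ?_ hnf
  · intro h hh
    exact s59u_tauD_mem_Vinf (M * q) ℓ hℓN P hP L₀ ϖ hϖ hh
  · intro h hh
    exact s59u_tauD_mem_Vzero M hqM ℓ hℓN P hP L₀ ϖ hϖ hh
  · intro u hu hc
    exact s59u_tauD_cong_Vinf (M * q) ℓ hℓN hℓq P hP L₀ ϖ hϖ hu hc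
  · intro u hu hc
    exact s59u_tauD_cong_Vzero M hqM ℓ hℓN hℓq P hP L₀ ϖ hϖ hu hc
  · intro c
    exact s59u_tauD_const (M * q) ℓ hℓN L₀ c

include hP hℓq hm0 hqm in
/-- **[L-c]: THE HECKE FRAME** of `s59b_kumFrameCW` at `ℓ`, modulo [T-NODE]. -/
def s59b_heckeFrameCW (hC : s59b_ChartGeo C)
    (hnf : s59b_TNodeW M q hqM P L₀ ϖ hϖ hdeg hT hdegM hπ e ε he hε hεinv hε0 hqe hperf C ℓ hℓN) :
    s59m_HeckeFrame
      (s59b_kumFrameCW M q hqM m hm0 hqm P hP L₀ ϖ hϖ hdeg hT hdegM hπ e ε he hε hεinv hε0 hqe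
        hperf C hC) ⟨ℓ, hℓ.out⟩ where
  H := Classical.choose (s59b_heckeOnW M q hqM P hP L₀ ϖ hϖ hdeg hT hdegM hπ e ε he hε hεinv hε0
    hqe hperf C ℓ hℓN hℓq hnf)
  gen_hecke := by
    intro x h hx
    rw [Classical.choose_spec (s59b_heckeOnW M q hqM P hP L₀ ϖ hϖ hdeg hT hdegM hπ e ε he hε hεinv
      hε0 hqe hperf C ℓ hℓN hℓq hnf)]
    exact s59u_isKumGen_tauD (M * q) ℓ hℓN L₀ m hx

theorem s59b_heckeFrameCW_T (hC : s59b_ChartGeo C)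
    (hnf : s59b_TNodeW M q hqM P L₀ ϖ hϖ hdeg hT hdegM hπ e ε he hε hεinv hε0 hqe hperf C ℓ hℓN) :
    (s59b_heckeFrameCW M q hqM m hm0 hqm P hP L₀ ϖ hϖ hdeg hT hdegM hπ e ε he hε hεinv hε0 hqe
      hperf C ℓ hℓN hℓq hC hnf).H.T = s59u_tauD (M * q) ℓ hℓN L₀ :=
  Classical.choose_spec (s59b_heckeOnW M q hqM P hP L₀ ϖ hϖ hdeg hT hdegM hπ e ε he hε hεinv
    hε0 hqe hperf C ℓ hℓN hℓq hnf)

end Frame

section Leaf

variable (M q p : ℕ) [NeZero M] [hq : Fact q.Prime] [hp : Fact p.Prime] (hqM : ¬ q ∣ M)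
  (hpq : p ≠ q)

/-- the Hecke frame of the canonical Kummer frame over a chart, at a prime `ℓ ∤ M q`, `ℓ ≠ q`. -/
def s59b_heckeFrameUW (P : ValuationSubring Kb) (hP : P.LiesOverPrime q)
    (L₀ : IntermediateField ℚ Kb)
    [FiniteDimensional ℚ ↥L₀] [CharP (IsLocalRing.ResidueField ↥(s18q_A0 P L₀)) q]
    [PerfectField (IsLocalRing.ResidueField ↥(s18q_A0 P L₀))]
    (hunr : ∀ τ ∈ P.inertiaSubgroupIn ℚ, ∀ a ∈ L₀, τ a = a)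
    (C : s59b_ChartU M q hqM P hP L₀ hunr) (hC : s59b_ChartGeo C)
    (hNP : s33s_nodePlaces (s34m_VV (@s37r_G P L₀ (s18q_A0_dvr P L₀ hP) ((q : ℕ) : ↥(s18q_A0 P L₀))
      (s59m_q_irreducible q P hP L₀ hunr)) (algebraMap ↥L₀ Kb) M q hq.out hqM)
        (s34m_unif (@s37r_G P L₀ (s18q_A0_dvr P L₀ hP) ((q : ℕ) : ↥(s18q_A0 P L₀))
      (s59m_q_irreducible q P hP L₀ hunr)) (M * q))
        (s18_chart1 (L₀ := ↥L₀) (s18g_jF (K := ↥L₀) (M * q))) =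
      s33s_nodePlaces (s34m_VV (@s37r_G P L₀ (s18q_A0_dvr P L₀ hP) ((q : ℕ) : ↥(s18q_A0 P L₀))
      (s59m_q_irreducible q P hP L₀ hunr)) (algebraMap ↥L₀ Kb) M q hq.out hqM)
        (s34m_unif (@s37r_G P L₀ (s18q_A0_dvr P L₀ hP) ((q : ℕ) : ↥(s18q_A0 P L₀))
      (s59m_q_irreducible q P hP L₀ hunr)) (M * q)) (s18_chart1 (L₀ := ↥L₀) C.wN))
    (m : ℕ) (hm0 : m ≠ 0) (hqm : ¬ q ∣ m)
    (ℓ : ℕ) [hℓ : Fact ℓ.Prime] (hℓN : ¬ ℓ ∣ M * q) (hℓq : ℓ ≠ q) :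
    s59m_HeckeFrame (s59b_kumFrameUW M q hqM P hP L₀ hunr C hC m hm0 hqm) ⟨ℓ, hℓ.out⟩ :=
  haveI : IsDiscreteValuationRing ↥(s18q_A0 P L₀) := s18q_A0_dvr P L₀ hP
  haveI : NumberField ↥L₀ := ⟨⟩
  haveI : IsDiscreteValuationRing ↥(s37r_G P L₀ ((q : ℕ) : ↥(s18q_A0 P L₀))
      (s59m_q_irreducible q P hP L₀ hunr)).A := s18q_A0_dvr P L₀ hP
  s59b_heckeFrameCW M q hqM m hm0 hqm P hP L₀ ((q : ℕ) : ↥(s18q_A0 P L₀))
    (s59m_q_irreducible q P hP L₀ hunr) (s59m_hdeg_U M q hqM L₀) (s59m_hT_U M q P L₀ hqM)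
    (fun n b hb hn => s18g_exists_relation M (algebraMap ↥L₀ Kb) hn b hb)
    IsLocalRing.residue_surjective 1 1 one_pos (one_mem _) (by rw [inv_one]; exact one_mem _)
    one_ne_zero (by rw [one_mul, pow_one]; rfl) (s59m_hperf_U q P L₀) C ℓ hℓN hℓq hC
    (s59b_tnodeW_of_eq M q hqM P L₀ ((q : ℕ) : ↥(s18q_A0 P L₀))
      (s59m_q_irreducible q P hP L₀ hunr) (s59m_hdeg_U M q hqM L₀) (s59m_hT_U M q P L₀ hqM)
      (fun n b hb hn => s18g_exists_relation M (algebraMap ↥L₀ Kb) hn b hb)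
      IsLocalRing.residue_surjective 1 1 one_pos (one_mem _) (by rw [inv_one]; exact one_mem _)
      one_ne_zero (by rw [one_mul, pow_one]; rfl) (s59m_hperf_U q P L₀) C ℓ hℓN hNP)

/-- the node places of a chart with `q`-expansion `t₃` are those of the `j`-chart (`q ≠ 3`). -/
theorem s59b_nodePlaces_eq_j_t3 (hq3 : q ≠ 3) (P : ValuationSubring Kb) (hP : P.LiesOverPrime q)
    (L₀ : IntermediateField ℚ Kb)
    [FiniteDimensional ℚ ↥L₀] [CharP (IsLocalRing.ResidueField ↥(s18q_A0 P L₀)) q]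
    [PerfectField (IsLocalRing.ResidueField ↥(s18q_A0 P L₀))]
    (hunr : ∀ τ ∈ P.inertiaSubgroupIn ℚ, ∀ a ∈ L₀, τ a = a)
    (C : s59b_ChartU M q hqM P hP L₀ hunr)
    (hC : s59b_ChartAt M q hqM P hP L₀ hunr C (fun K _ => s18u_t3 K)) :
    s33s_nodePlaces (s34m_VV (@s37r_G P L₀ (s18q_A0_dvr P L₀ hP) ((q : ℕ) : ↥(s18q_A0 P L₀))
      (s59m_q_irreducible q P hP L₀ hunr)) (algebraMap ↥L₀ Kb) M q hq.out hqM)
        (s34m_unif (@s37r_G P L₀ (s18q_A0_dvr P L₀ hP) ((q : ℕ) : ↥(s18q_A0 P L₀))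
      (s59m_q_irreducible q P hP L₀ hunr)) (M * q))
        (s18_chart1 (L₀ := ↥L₀) (s18g_jF (K := ↥L₀) (M * q))) =
      s33s_nodePlaces (s34m_VV (@s37r_G P L₀ (s18q_A0_dvr P L₀ hP) ((q : ℕ) : ↥(s18q_A0 P L₀))
      (s59m_q_irreducible q P hP L₀ hunr)) (algebraMap ↥L₀ Kb) M q hq.out hqM)
        (s34m_unif (@s37r_G P L₀ (s18q_A0_dvr P L₀ hP) ((q : ℕ) : ↥(s18q_A0 P L₀))
      (s59m_q_irreducible q P hP L₀ hunr)) (M * q)) (s18_chart1 (L₀ := ↥L₀) C.wN) := by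
  haveI : NeZero q := ⟨hq.out.ne_zero⟩
  exact s59b_nodePlaces_t3_eq_j (@s37r_G P L₀ (s18q_A0_dvr P L₀ hP) ((q : ℕ) : ↥(s18q_A0 P L₀))
      (s59m_q_irreducible q P hP L₀ hunr)) (algebraMap ↥L₀ Kb) M q hq.out hqM hq3 C.wN hC.hwN
    ((s34x_mem_infRing _ _).mpr hC.geo.base.2.2.1)

/-- the node places of a chart with `q`-expansion `t₂` are those of the `j`-chart (`q ≠ 2`). -/
theorem s59b_nodePlaces_eq_j_t2 (hq2 : q ≠ 2) (P : ValuationSubring Kb) (hP : P.LiesOverPrime q)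
    (L₀ : IntermediateField ℚ Kb)
    [FiniteDimensional ℚ ↥L₀] [CharP (IsLocalRing.ResidueField ↥(s18q_A0 P L₀)) q]
    [PerfectField (IsLocalRing.ResidueField ↥(s18q_A0 P L₀))]
    (hunr : ∀ τ ∈ P.inertiaSubgroupIn ℚ, ∀ a ∈ L₀, τ a = a)
    (C : s59b_ChartU M q hqM P hP L₀ hunr)
    (hC : s59b_ChartAt M q hqM P hP L₀ hunr C (fun K _ => s18u_t2 K)) :
    s33s_nodePlaces (s34m_VV (@s37r_G P L₀ (s18q_A0_dvr P L₀ hP) ((q : ℕ) : ↥(s18q_A0 P L₀))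
      (s59m_q_irreducible q P hP L₀ hunr)) (algebraMap ↥L₀ Kb) M q hq.out hqM)
        (s34m_unif (@s37r_G P L₀ (s18q_A0_dvr P L₀ hP) ((q : ℕ) : ↥(s18q_A0 P L₀))
      (s59m_q_irreducible q P hP L₀ hunr)) (M * q))
        (s18_chart1 (L₀ := ↥L₀) (s18g_jF (K := ↥L₀) (M * q))) =
      s33s_nodePlaces (s34m_VV (@s37r_G P L₀ (s18q_A0_dvr P L₀ hP) ((q : ℕ) : ↥(s18q_A0 P L₀))
      (s59m_q_irreducible q P hP L₀ hunr)) (algebraMap ↥L₀ Kb) M q hq.out hqM)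
        (s34m_unif (@s37r_G P L₀ (s18q_A0_dvr P L₀ hP) ((q : ℕ) : ↥(s18q_A0 P L₀))
      (s59m_q_irreducible q P hP L₀ hunr)) (M * q)) (s18_chart1 (L₀ := ↥L₀) C.wN) := by
  haveI : NeZero q := ⟨hq.out.ne_zero⟩
  exact s59b_nodePlaces_t2_eq_j (@s37r_G P L₀ (s18q_A0_dvr P L₀ hP) ((q : ℕ) : ↥(s18q_A0 P L₀))
      (s59m_q_irreducible q P hP L₀ hunr)) (algebraMap ↥L₀ Kb) M q hq.out hqM hq2 C.wN hC.hwN
    ((s34x_mem_infRing _ _).mpr hC.geo.base.2.2.1)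

include hpq in
/-- **[L-c] = the leaf `hHF` of `s59b_pkgEAt_of_leavesW` for the charts of `t₃`** (`q ≠ 3`). -/
theorem s59b_hHF_leaf_t3 (hq3 : q ≠ 3) :
    ∀ (P : ValuationSubring Kb) (hP : P.LiesOverPrime q) (L₀ : IntermediateField ℚ Kb)
      [FiniteDimensional ℚ ↥L₀] [CharP (IsLocalRing.ResidueField ↥(s18q_A0 P L₀)) q]
      [PerfectField (IsLocalRing.ResidueField ↥(s18q_A0 P L₀))]
      (hunr : ∀ σ ∈ P.inertiaSubgroupIn ℚ, ∀ a ∈ L₀, σ a = a)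
      (C : s59b_ChartU M q hqM P hP L₀ hunr)
      (hC : s59b_ChartAt M q hqM P hP L₀ hunr C (fun K _ => s18u_t3 K))
      (K : ℕ) (ℓ : Nat.Primes),
      ¬ (ℓ : ℕ) ∣ M * q * p →
      Nonempty (s59m_HeckeFrame (s59b_kumFrameUW M q hqM P hP L₀ hunr C hC.geo (p ^ K)
        (s59m_pK_ne p K) (s59m_q_ndvd_pK q p hpq K)) ℓ) := by
  intro P hP L₀ _ _ _ hunr C hC K ℓ hℓ
  obtain ⟨l, hl⟩ := ℓ
  haveI : Fact l.Prime := ⟨hl⟩
  have hℓN : ¬ l ∣ M * q := fun h => hℓ (h.trans (dvd_mul_right _ _))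
  have hℓq : l ≠ q := fun h => hℓN (h ▸ dvd_mul_left l M)
  exact ⟨s59b_heckeFrameUW M q hqM P hP L₀ hunr C hC.geo
    (s59b_nodePlaces_eq_j_t3 M q hqM hq3 P hP L₀ hunr C hC) (p ^ K) (s59m_pK_ne p K)
    (s59m_q_ndvd_pK q p hpq K) l hℓN hℓq⟩

include hpq in
/-- **[L-c] = the leaf `hHF` of `s59b_pkgEAt_of_leavesW` for the charts of `t₂`** (`q ≠ 2`). -/
theorem s59b_hHF_leaf_t2 (hq2 : q ≠ 2) :
    ∀ (P : ValuationSubring Kb) (hP : P.LiesOverPrime q) (L₀ : IntermediateField ℚ Kb)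
      [FiniteDimensional ℚ ↥L₀] [CharP (IsLocalRing.ResidueField ↥(s18q_A0 P L₀)) q]
      [PerfectField (IsLocalRing.ResidueField ↥(s18q_A0 P L₀))]
      (hunr : ∀ σ ∈ P.inertiaSubgroupIn ℚ, ∀ a ∈ L₀, σ a = a)
      (C : s59b_ChartU M q hqM P hP L₀ hunr)
      (hC : s59b_ChartAt M q hqM P hP L₀ hunr C (fun K _ => s18u_t2 K))
      (K : ℕ) (ℓ : Nat.Primes),
      ¬ (ℓ : ℕ) ∣ M * q * p →
      Nonempty (s59m_HeckeFrame (s59b_kumFrameUW M q hqM P hP L₀ hunr C hC.geo (p ^ K)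
        (s59m_pK_ne p K) (s59m_q_ndvd_pK q p hpq K)) ℓ) := by
  intro P hP L₀ _ _ _ hunr C hC K ℓ hℓ
  obtain ⟨l, hl⟩ := ℓ
  haveI : Fact l.Prime := ⟨hl⟩
  have hℓN : ¬ l ∣ M * q := fun h => hℓ (h.trans (dvd_mul_right _ _))
  have hℓq : l ≠ q := fun h => hℓN (h ▸ dvd_mul_left l M)
  exact ⟨s59b_heckeFrameUW M q hqM P hP L₀ hunr C hC.geo
    (s59b_nodePlaces_eq_j_t2 M q hqM hq2 P hP L₀ hunr C hC) (p ^ K) (s59m_pK_ne p K)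
    (s59m_q_ndvd_pK q p hpq K) l hℓN hℓq⟩

end Leaf

end Fermat.Agent.Lib.S59
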