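/-
Programme (R2) / node **[CAR]**, route R-DS′, W5 = the level `M q²` leaf (helper9, prefix `s59m_`): leaf **[L2-3a]**,
**LOCALLY PRINCIPAL ⇒ PRINCIPAL OVER THE SEMI-LOCAL RING OF FINITELY MANY MULTIPLE POINTS** (abstract: S34 X″ vocabulary).

Port of helper8's (G6) `s44e_glob_G` (`Lib/S44/EGlob.lean`, two components `O : Bool → …`, nodes `s33s_IsNode`) to an
ARBITRARY family of vertical valuation rings `O : ι' → ValuationSubring 𝓕` and closed points `𝔫` of the chart ring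
`B = s34x_ring (s34x_infRing O) S` through which ALL components pass (`s59m_IsMulti`: for `ι' = Fin 3` the triple points
of level `M q²`).  No uniformiser is needed.

* `s59m_UnitAt O S 𝔫 x` : `x` is a unit of every `O i` of order `0` at the places through `𝔫`; `s59m_RegAt`;
* `s59m_unitAt_of_not_mem`, `s59m_unitAt_frac`, `s59m_unitAt_add_sum`, `s59m_pole_killer`;
* **`s59m_glob_G`** : `g s` with `g s / g s'` a unit of every `O i` and `ord_Q (g s) = ord_Q (g s')` at the places through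
  `𝔫 s` and `𝔫 s'` ⇒ `∃ G, ∀ s, G / g s` is a unit at `𝔫 s`.
-/
import Fermat.Agent.Lib.S44.EGlob
import Fermat.Agent.Lib.S36.QMem

set_option autoImplicit false
set_option linter.unusedSectionVars false
set_option linter.unusedVariables false
set_option linter.style.haveILetI false

noncomputable section

namespace Fermat.Agent.Lib.S59

open AlgebraicCurve Fermat.Agent.Lib.FF Fermat.Agent.Lib.S18 Fermat.Agent.Lib.S34
  Fermat.Agent.Lib.S33 Fermat.Agent.Lib.S36 Fermat.Agent.Lib.S44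

variable {L₀ 𝓕 : Type*} [Field L₀] [Field 𝓕] [Algebra L₀ 𝓕]
variable {ι' : Type*} (O : ι' → ValuationSubring 𝓕) (S : Set (Place L₀ 𝓕))

/-- **a multiple point**: a maximal ideal of the chart ring through which ALL the components pass. -/
def s59m_IsMulti (𝔫 : Ideal (s34x_ring (s34x_infRing O) S)) : Prop :=
  𝔫.IsMaximal ∧ ∀ i, s36q_compThrough O S 𝔫 i

/-- `x` is a unit at `𝔫`: a unit of every `O i` of order `0` at the places through `𝔫`. -/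
def s59m_UnitAt (𝔫 : Ideal (s34x_ring (s34x_infRing O) S)) (x : 𝓕) : Prop :=
  x ≠ 0 ∧ (∀ i, x ∈ O i ∧ x⁻¹ ∈ O i) ∧
    ∀ Q ∈ S, s34f_through (s34x_infRing O) S 𝔫 Q → Q.ord x = 0

/-- `x` is regular at `𝔫`. -/
def s59m_RegAt (𝔫 : Ideal (s34x_ring (s34x_infRing O) S)) (x : 𝓕) : Prop :=
  (∀ i, x ∈ O i) ∧ ∀ Q ∈ S, s34f_through (s34x_infRing O) S 𝔫 Q → x ∈ Q.toValuationSubring

variable {O S}

theorem s59m_UnitAt.mul {𝔫 : Ideal (s34x_ring (s34x_infRing O) S)} {x y : 𝓕}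
    (hx : s59m_UnitAt O S 𝔫 x) (hy : s59m_UnitAt O S 𝔫 y) : s59m_UnitAt O S 𝔫 (x * y) := by
  refine ⟨mul_ne_zero hx.1 hy.1, fun i => ⟨(O i).mul_mem _ _ (hx.2.1 i).1 (hy.2.1 i).1, ?_⟩,
    fun Q hQ hth => ?_⟩
  · rw [mul_inv]
    exact (O i).mul_mem _ _ (hx.2.1 i).2 (hy.2.1 i).2
  · rw [Q.ord_mul hx.1 hy.1, hx.2.2 Q hQ hth, hy.2.2 Q hQ hth, add_zero]

theorem s59m_UnitAt.inv {𝔫 : Ideal (s34x_ring (s34x_infRing O) S)} {x : 𝓕}
    (hx : s59m_UnitAt O S 𝔫 x) : s59m_UnitAt O S 𝔫 x⁻¹ := by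
  refine ⟨inv_ne_zero hx.1, fun i => ⟨(hx.2.1 i).2, ?_⟩, fun Q hQ hth => ?_⟩
  · rw [inv_inv]
    exact (hx.2.1 i).1
  · rw [Q.ord_inv, hx.2.2 Q hQ hth, neg_zero]

theorem s59m_UnitAt.one {𝔫 : Ideal (s34x_ring (s34x_infRing O) S)} : s59m_UnitAt O S 𝔫 (1 : 𝓕) := by
  refine ⟨one_ne_zero, fun i => ⟨(O i).one_mem, ?_⟩, fun Q _ _ => Q.ord_one⟩
  rw [inv_one]
  exact (O i).one_mem

theorem s59m_UnitAt.pow {𝔫 : Ideal (s34x_ring (s34x_infRing O) S)} {x : 𝓕}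
    (hx : s59m_UnitAt O S 𝔫 x) (n : ℕ) : s59m_UnitAt O S 𝔫 (x ^ n) := by
  induction n with
  | zero =>
    rw [pow_zero]
    exact s59m_UnitAt.one
  | succ n ih =>
    rw [pow_succ]
    exact ih.mul hx

theorem s59m_UnitAt.zpow {𝔫 : Ideal (s34x_ring (s34x_infRing O) S)} {x : 𝓕}
    (hx : s59m_UnitAt O S 𝔫 x) (n : ℤ) : s59m_UnitAt O S 𝔫 (x ^ n) := by
  cases n with
  | ofNat k => rw [Int.ofNat_eq_natCast, zpow_natCast]; exact hx.pow k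
  | negSucc k => rw [zpow_negSucc]; exact (hx.pow _).inv

theorem s59m_UnitAt.regAt {𝔫 : Ideal (s34x_ring (s34x_infRing O) S)} {x : 𝓕}
    (hx : s59m_UnitAt O S 𝔫 x) : s59m_RegAt O S 𝔫 x :=
  ⟨fun i => (hx.2.1 i).1, fun Q hQ hth =>
    (ff_mem_iff_ord_nonneg Q hx.1).mpr (le_of_eq (hx.2.2 Q hQ hth).symm)⟩

variable (O S)

/-- **an element of the chart ring outside the multiple point is a unit at the point.** -/
theorem s59m_unitAt_of_not_mem (𝔫 : Ideal (s34x_ring (s34x_infRing O) S))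
    (h𝔫 : s59m_IsMulti O S 𝔫) (d : s34x_ring (s34x_infRing O) S) (hd : d ∉ 𝔫) :
    s59m_UnitAt O S 𝔫 (d : 𝓕) := by
  have hd0 : (d : 𝓕) ≠ 0 := by
    intro h0
    apply hd
    have : d = 0 := Subtype.ext h0
    rw [this]
    exact 𝔫.zero_mem
  have hdO : ∀ i, (d : 𝓕) ∈ O i := fun i => (s34x_mem_infRing O _).mp d.2.1 i
  refine ⟨hd0, fun i => ⟨hdO i, ?_⟩, fun Q hQ hth =>
    s33s_ord_eq_zero_of_not_mem (s34x_infRing O) S 𝔫 d hd Q hQ hth⟩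
  by_contra hinv
  apply hd
  apply h𝔫.2 i d
  rw [ValuationSubring.mem_nonunits_iff_or]
  exact Or.inr hinv

/-- Hartogs at a point. -/
theorem s59m_regAt_frac
    (hfin : ∀ y : 𝓕, y ≠ 0 → {Q : Place L₀ 𝓕 | Q ∈ S ∧ Q.ord y ≠ 0}.Finite)
    (𝔫 : Ideal (s34x_ring (s34x_infRing O) S)) [h𝔫 : 𝔫.IsPrime] (x : 𝓕)
    (hx : s59m_RegAt O S 𝔫 x) :
    ∃ c : s34x_ring (s34x_infRing O) S, c ∉ 𝔫 ∧ (c : 𝓕) * x ∈ s34x_ring (s34x_infRing O) S := by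
  have hfin' : {Q : Place L₀ 𝓕 | Q ∈ S ∧ Q.ord x < 0}.Finite := by
    by_cases hx0 : x = 0
    · have : {Q : Place L₀ 𝓕 | Q ∈ S ∧ Q.ord x < 0} = ∅ := by
        ext Q
        simp [hx0]
      rw [this]
      exact Set.finite_empty
    · exact (hfin x hx0).subset (fun Q hQ => ⟨hQ.1, ne_of_lt hQ.2⟩)
  exact s33s_frac_of_reg (s34x_infRing O) S 𝔫 x ((s34x_mem_infRing O x).mpr hx.1) hfin' hx.2

/-- **a unit at the point is a quotient of two elements of the chart ring outside the point.** -/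
theorem s59m_unitAt_frac
    (hfin : ∀ y : 𝓕, y ≠ 0 → {Q : Place L₀ 𝓕 | Q ∈ S ∧ Q.ord y ≠ 0}.Finite)
    (𝔫 : Ideal (s34x_ring (s34x_infRing O) S)) [h𝔫 : 𝔫.IsPrime] (u : 𝓕)
    (hu : s59m_UnitAt O S 𝔫 u) :
    ∃ b c : s34x_ring (s34x_infRing O) S, b ∉ 𝔫 ∧ c ∉ 𝔫 ∧ (c : 𝓕) * u = (b : 𝓕) := by
  obtain ⟨c, hc, hcu⟩ := s59m_regAt_frac O S hfin 𝔫 u hu.regAt
  obtain ⟨c', hc', hcu'⟩ := s59m_regAt_frac O S hfin 𝔫 u⁻¹ hu.inv.regAt
  refine ⟨⟨_, hcu⟩, c, ?_, hc, rfl⟩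
  intro hb
  have hprod : (⟨_, hcu⟩ : s34x_ring (s34x_infRing O) S) * ⟨_, hcu'⟩ = c * c' := by
    apply Subtype.ext
    show (c : 𝓕) * u * ((c' : 𝓕) * u⁻¹) = (c : 𝓕) * (c' : 𝓕)
    have := hu.1
    field_simp
  have : c * c' ∈ 𝔫 := by
    rw [← hprod]
    exact 𝔫.mul_mem_right _ hb
  rcases h𝔫.mem_or_mem this with h | h
  · exact hc h
  · exact hc' h

/-- `unit + n r` is a unit at the point (`n ∈ 𝔫`, `r` regular at `𝔫`). -/
theorem s59m_unitAt_add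
    (hfin : ∀ y : 𝓕, y ≠ 0 → {Q : Place L₀ 𝓕 | Q ∈ S ∧ Q.ord y ≠ 0}.Finite)
    (𝔫 : Ideal (s34x_ring (s34x_infRing O) S)) (h𝔫 : s59m_IsMulti O S 𝔫) (u : 𝓕)
    (hu : s59m_UnitAt O S 𝔫 u) (n : s34x_ring (s34x_infRing O) S) (hn : n ∈ 𝔫) (r : 𝓕)
    (hr : s59m_RegAt O S 𝔫 r) : s59m_UnitAt O S 𝔫 (u + (n : 𝓕) * r) := by
  haveI := h𝔫.1
  haveI : 𝔫.IsPrime := h𝔫.1.isPrime
  obtain ⟨b, c, hb, hc, hcu⟩ := s59m_unitAt_frac O S hfin 𝔫 u hu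
  obtain ⟨c', hc', hcr⟩ := s59m_regAt_frac O S hfin 𝔫 r hr
  set b' : s34x_ring (s34x_infRing O) S := ⟨_, hcr⟩ with hb'
  have hnum : b * c' + n * c * b' ∉ 𝔫 := by
    intro h
    have h1 : n * c * b' ∈ 𝔫 := by
      rw [mul_assoc]
      exact 𝔫.mul_mem_right _ hn
    have h2 : b * c' ∈ 𝔫 := by
      have := 𝔫.sub_mem h h1
      rwa [add_sub_cancel_right] at this
    rcases ‹𝔫.IsPrime›.mem_or_mem h2 with h | h
    · exact hb h
    · exact hc' h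
  have hden : c * c' ∉ 𝔫 := by
    intro h
    rcases ‹𝔫.IsPrime›.mem_or_mem h with h | h
    · exact hc h
    · exact hc' h
  have hN := s59m_unitAt_of_not_mem O S 𝔫 h𝔫 _ hnum
  have hD := s59m_unitAt_of_not_mem O S 𝔫 h𝔫 _ hden
  have e : u + (n : 𝓕) * r =
      ((b * c' + n * c * b' : s34x_ring (s34x_infRing O) S) : 𝓕) *
        ((c * c' : s34x_ring (s34x_infRing O) S) : 𝓕)⁻¹ := by
    have hD0 := hD.1
    rw [eq_mul_inv_iff_mul_eq₀ hD0]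
    push_cast
    rw [hb']
    show (u + (n : 𝓕) * r) * ((c : 𝓕) * (c' : 𝓕)) =
      (b : 𝓕) * (c' : 𝓕) + (n : 𝓕) * (c : 𝓕) * ((c' : 𝓕) * r)
    rw [← hcu]
    ring
  rw [e]
  exact hN.mul hD.inv

/-- `unit + Σ n_k r_k` is a unit at the point. -/
theorem s59m_unitAt_add_sum
    (hfin : ∀ y : 𝓕, y ≠ 0 → {Q : Place L₀ 𝓕 | Q ∈ S ∧ Q.ord y ≠ 0}.Finite)
    (𝔫 : Ideal (s34x_ring (s34x_infRing O) S)) (h𝔫 : s59m_IsMulti O S 𝔫) (u : 𝓕)
    (hu : s59m_UnitAt O S 𝔫 u) {κ' : Type*} (T : Finset κ')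
    (n : κ' → s34x_ring (s34x_infRing O) S) (r : κ' → 𝓕) (hn : ∀ k ∈ T, n k ∈ 𝔫)
    (hr : ∀ k ∈ T, s59m_RegAt O S 𝔫 (r k)) :
    s59m_UnitAt O S 𝔫 (u + ∑ k ∈ T, (n k : 𝓕) * r k) := by
  classical
  induction T using Finset.induction_on with
  | empty =>
    rw [Finset.sum_empty, add_zero]
    exact hu
  | insert a T ha ih =>
    have e : u + ∑ k ∈ insert a T, (n k : 𝓕) * r k =
        (u + ∑ k ∈ T, (n k : 𝓕) * r k) + (n a : 𝓕) * r a := by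
      rw [Finset.sum_insert ha]
      ring
    rw [e]
    have h1 := ih (fun k hk => hn k (Finset.mem_insert_of_mem hk))
      (fun k hk => hr k (Finset.mem_insert_of_mem hk))
    exact s59m_unitAt_add O S hfin 𝔫 h𝔫 _ h1 (n a)
      (hn a (Finset.mem_insert_self _ _)) (r a) (hr a (Finset.mem_insert_self _ _))

/-- the pole killer: for the point `s` there is `d ∈ B ∖ 𝔫 s` with `d · g s / g s'` regular at `𝔫 s'` for
every `s'`. -/
theorem s59m_pole_killer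
    (hfin : ∀ y : 𝓕, y ≠ 0 → {Q : Place L₀ 𝓕 | Q ∈ S ∧ Q.ord y ≠ 0}.Finite)
    {ι : Type*} [Fintype ι] (𝔫 : ι → Ideal (s34x_ring (s34x_infRing O) S))
    (h𝔫 : ∀ s, s59m_IsMulti O S (𝔫 s)) (g : ι → 𝓕) (hg0 : ∀ s, g s ≠ 0)
    (hgO : ∀ s s' i, g s * (g s')⁻¹ ∈ O i)
    (hgQ : ∀ s s' Q, Q ∈ S → s34f_through (s34x_infRing O) S (𝔫 s) Q →
      s34f_through (s34x_infRing O) S (𝔫 s') Q → Q.ord (g s) = Q.ord (g s')) (s : ι) :
    ∃ d : s34x_ring (s34x_infRing O) S, d ∉ 𝔫 s ∧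
      ∀ s', s59m_RegAt O S (𝔫 s') ((d : 𝓕) * (g s * (g s')⁻¹)) := by
  classical
  haveI := (h𝔫 s).1
  haveI : (𝔫 s).IsPrime := (h𝔫 s).1.isPrime
  have hy0 : ∀ s', g s * (g s')⁻¹ ≠ 0 := fun s' => mul_ne_zero (hg0 s) (inv_ne_zero (hg0 s'))
  have hfinneg : ∀ s', {Q : Place L₀ 𝓕 | Q ∈ S ∧ Q.ord (g s * (g s')⁻¹) < 0}.Finite :=
    fun s' => (hfin _ (hy0 s')).subset (fun Q hQ => ⟨hQ.1, ne_of_lt hQ.2⟩)
  set T : Finset (Place L₀ 𝓕) := Finset.univ.biUnion (fun s' =>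
    (hfinneg s').toFinset.filter (fun Q => s34f_through (s34x_infRing O) S (𝔫 s') Q)) with hT
  set nn : Place L₀ 𝓕 → ℤ := fun Q => ∑ s', |Q.ord (g s * (g s')⁻¹)| with hnn
  obtain ⟨d, hd, hd0, hdT⟩ := s34x_exists_kill_places (s34x_infRing O) S (𝔫 s) nn T (by
    intro Q hQ
    rw [hT, Finset.mem_biUnion] at hQ
    obtain ⟨s', -, hQ⟩ := hQ
    rw [Finset.mem_filter, Set.Finite.mem_toFinset] at hQ
    obtain ⟨⟨hQS, hneg⟩, hth⟩ := hQ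
    refine ⟨hQS, ?_⟩
    by_contra hcon
    push Not at hcon
    have hths : s34f_through (s34x_infRing O) S (𝔫 s) Q := fun b hb0 hbpos => hcon b hb0 hbpos
    have := hgQ s s' Q hQS hths hth
    rw [Q.ord_mul (hg0 s) (inv_ne_zero (hg0 s')), Q.ord_inv, this] at hneg
    omega)
  refine ⟨d, hd, fun s' => ⟨fun i => (O i).mul_mem _ _ ((s34x_mem_infRing O _).mp d.2.1 i)
    (hgO s s' i), fun Q hQ hth => ?_⟩⟩
  rw [ff_mem_iff_ord_nonneg Q (mul_ne_zero hd0 (hy0 s')), Q.ord_mul hd0 (hy0 s')]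
  have hdnn : 0 ≤ Q.ord (d : 𝓕) := s34x_ord_nonneg_of_mem_ring (s34x_infRing O) S d Q hQ
  by_cases hneg : Q.ord (g s * (g s')⁻¹) < 0
  · have hQT : Q ∈ T := by
      rw [hT, Finset.mem_biUnion]
      refine ⟨s', Finset.mem_univ _, ?_⟩
      rw [Finset.mem_filter, Set.Finite.mem_toFinset]
      exact ⟨⟨hQ, hneg⟩, hth⟩
    have h1 := hdT Q hQT
    have h2 : |Q.ord (g s * (g s')⁻¹)| ≤ nn Q :=
      Finset.single_le_sum (f := fun s' => |Q.ord (g s * (g s')⁻¹)|)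
        (fun _ _ => abs_nonneg _) (Finset.mem_univ s')
    have h3 := neg_abs_le (Q.ord (g s * (g s')⁻¹))
    omega
  · omega

/-- **LOCALLY PRINCIPAL ⇒ PRINCIPAL over the semi-local ring of finitely many multiple points.** -/
theorem s59m_glob_G
    (hfin : ∀ y : 𝓕, y ≠ 0 → {Q : Place L₀ 𝓕 | Q ∈ S ∧ Q.ord y ≠ 0}.Finite)
    {ι : Type*} [Fintype ι] (𝔫 : ι → Ideal (s34x_ring (s34x_infRing O) S))
    (h𝔫 : ∀ s, s59m_IsMulti O S (𝔫 s)) (hinj : Function.Injective 𝔫)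
    (g : ι → 𝓕) (hg0 : ∀ s, g s ≠ 0)
    (hgO : ∀ s s' i, g s * (g s')⁻¹ ∈ O i)
    (hgQ : ∀ s s' Q, Q ∈ S → s34f_through (s34x_infRing O) S (𝔫 s) Q →
      s34f_through (s34x_infRing O) S (𝔫 s') Q → Q.ord (g s) = Q.ord (g s')) :
    ∃ G : 𝓕, ∀ s, s59m_UnitAt O S (𝔫 s) (G * (g s)⁻¹) := by
  classical
  have key := s59m_pole_killer O S hfin 𝔫 h𝔫 g hg0 hgO hgQ
  choose d hd hdreg using key
  obtain ⟨e, he⟩ := s44e_crt 𝔫 (fun s => (h𝔫 s).1) hinj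
  refine ⟨∑ s, (e s : 𝓕) * ((d s : 𝓕) * g s), fun s' => ?_⟩
  have hes' : e s' ∉ 𝔫 s' := by
    intro h
    have h1 : (1 : s34x_ring (s34x_infRing O) S) ∈ 𝔫 s' := by
      have := (𝔫 s').sub_mem h (he s').1
      rwa [sub_sub_cancel] at this
    exact (h𝔫 s').1.ne_top ((Ideal.eq_top_iff_one _).mpr h1)
  haveI : (𝔫 s').IsPrime := (h𝔫 s').1.isPrime
  have hu : e s' * d s' ∉ 𝔫 s' := by
    intro h
    rcases ‹(𝔫 s').IsPrime›.mem_or_mem h with h | h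
    · exact hes' h
    · exact hd s' h
  have hU := s59m_unitAt_of_not_mem O S (𝔫 s') (h𝔫 s') _ hu
  have e1 : (∑ s, (e s : 𝓕) * ((d s : 𝓕) * g s)) * (g s')⁻¹ =
      ((e s' * d s' : s34x_ring (s34x_infRing O) S) : 𝓕) +
        ∑ s ∈ Finset.univ.erase s', (e s : 𝓕) * ((d s : 𝓕) * (g s * (g s')⁻¹)) := by
    rw [Finset.sum_mul, ← Finset.add_sum_erase Finset.univ _ (Finset.mem_univ s')]
    congr 1
    · push_cast
      have := hg0 s'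
      field_simp
    · refine Finset.sum_congr rfl (fun s _ => ?_)
      ring
  rw [e1]
  refine s59m_unitAt_add_sum O S hfin (𝔫 s') (h𝔫 s') _ hU _ e
    (fun s => (d s : 𝓕) * (g s * (g s')⁻¹)) (fun s hs => ?_) (fun s _ => hdreg s s')
  exact (he s).2 s' (Finset.ne_of_mem_erase hs).symm

end Fermat.Agent.Lib.S59
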