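/-
Programme (R2) / node **[CAR]**, route R-DS′ (helper9, prefix `s59m_`): **THE FIELD `lvl2` OF THE PACKAGE, ABSTRACTLY.**
No modular curve in this file.  Over helper4's Σ-datum `Z : s33z_Datum D' 𝓕 ι k` of level `M q` (two components, nodes `s : ι`
with `∞`-branches `Z.Wi s ⊆ Fb` and evaluations `Z.evi s`), the level `M q²` is described by

* `s59m_Frame3 Z 𝓕₂` : **three Gauss valuation rings** `V 0, V 1, V 2` of the function field `𝓕₂` of level `M q²` with reductions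
  `r j : V j →+* Fb` (ALL THREE normalised into the residue function field `Fb` of `X₀(M)` in such a way that the three
  branches through the triple point over the node `s` are the ONE place `Z.Wi s` of `Fb` — for `V 0`, `V 1` through `α'` and
  `red_∞`, for `V 2` through `β'` and `red_0`, using `Wz (β' t) = Wi (α' t)`), the places `N₃` of the generic fibre through
  the triple points, and **[GLUE₃]** `glue₃`: the three residues of a function which is integral at the three rings and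
  regular along `N₃` take the same value at every triple point;
* `s59m_KumFrame3 N₂ p X` : Kummer generators of exponent `p` at level `N₂ = M q²` (`gen`, `gen_zsmul`, Hilbert 90
  `gen_congr`, the normalisation `norm` of `c g ^ p`), and **[Σ-INJ₃]** `inj`: a generator which is a unit at the three
  rings, avoids the triple points, and whose three residues are ONE constant times the `p`-th powers of a GLUED triple
  belongs to `x = 0`;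
* `s59m_HeckeFrame3 G H ℓ` : `T_ℓ^×` on `𝓕₂`, inducing `H.Ti` on the three residue fields, preserving `N₃`-avoiding
  functions ([T-NODE₃]) and compatible with `T_ℓ` on `J₀(N₂)`.

**`s59m_lvl2_abs`** : let `x ≠ 0` be an eigen-point (`T_ℓ x = a ℓ • x`, `ℓ ∉ B`) with a generator `h` which is a unit at the
three rings, avoids the triple points, and whose three residues are constants times `p`-th powers
(`r j h = c_j a_j ^ p`: the output of the leaves [L2-FIN3], [L2-Q4₃], [L2-RED3]).  Then one of the two classes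
`u₀₁ = [ev_s (a₀ / a₁)]_s`, `u₂₁ = [ev_s (a₂ / a₁)]_s` of the gluing torus `s59m_Ygl Z` of level `M q` is non-trivial, it is
killed by `p`, and it is an eigen-datum (`s59m_KumFrame.Eig`) — the second alternative of the field `lvl2` of
`s59m_CarPkgE`.
-/
import Fermat.Agent.Lib.S59.MCarAsm

set_option autoImplicit false
set_option linter.style.haveILetI false
set_option linter.unusedSectionVars false
set_option linter.unusedVariables false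

noncomputable section

namespace Fermat.Agent.Lib.S59

open AlgebraicCurve ModularCurve Fermat.Agent.Lib.FF Fermat.Agent.Lib.S33

variable {L₀ 𝓕' κ Fb : Type*} [Field L₀] [Field 𝓕'] [Algebra L₀ 𝓕'] [Field κ] [Field Fb] [Algebra κ Fb]
variable {D' : s33f_Datum L₀ 𝓕' κ Fb} {𝓕 : Type*} [Field 𝓕] [Algebra L₀ 𝓕]
variable {ι : Type*} {k : ι → Type*} [∀ s, Field (k s)] [∀ s, Algebra κ (k s)]

/-- **The three-component frame of level `M q²`** over the Σ-datum `Z` of level `M q` (see the header). -/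
structure s59m_Frame3 (Z : s33z_Datum D' 𝓕 ι k) (𝓕₂ : Type*) [Field 𝓕₂] [Algebra L₀ 𝓕₂] where
  /-- the three Gauss valuation rings -/
  V : Fin 3 → ValuationSubring 𝓕₂
  /-- their reductions, all normalised into `Fb` -/
  r : ∀ j : Fin 3, V j →+* Fb
  /-- the places of the generic fibre through the triple points -/
  N₃ : Set (Place L₀ 𝓕₂)
  const_mem : ∀ (j : Fin 3) (c : L₀), c ∈ D'.A₀ → algebraMap L₀ 𝓕₂ c ∈ V j
  r_const : ∀ (j : Fin 3) (c : D'.A₀),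
    r j ⟨algebraMap L₀ 𝓕₂ (c : L₀), const_mem j c c.2⟩ = algebraMap κ Fb (D'.resA c)
  /-- **[GLUE₃]** -/
  glue₃ : ∀ (y : 𝓕₂) (hy : ∀ j, y ∈ V j), (∀ Q ∈ N₃, y ∈ Q.toValuationSubring) → ∀ (s : ι) (j : Fin 3),
    ∃ (hj : r j ⟨y, hy j⟩ ∈ Z.Wi s) (h1 : r 1 ⟨y, hy 1⟩ ∈ Z.Wi s),
      Z.evi s ⟨_, hj⟩ = Z.evi s ⟨_, h1⟩

variable {Z : s33z_Datum D' 𝓕 ι k} {𝓕₂ : Type*} [Field 𝓕₂] [Algebra L₀ 𝓕₂]

/-- `f` avoids the triple points: no zero or pole along `N₃`. -/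
def s59m_Frame3.NF3 (X : s59m_Frame3 Z 𝓕₂) (f : 𝓕₂) : Prop := f ≠ 0 ∧ ∀ Q ∈ X.N₃, Q.ord f = 0

/-- `f` is a unit at the three rings. -/
def s59m_Frame3.U3 (X : s59m_Frame3 Z 𝓕₂) (f : 𝓕₂) : Prop := f ≠ 0 ∧ ∀ j, f ∈ X.V j ∧ f⁻¹ ∈ X.V j

namespace s59m_Frame3

variable (X : s59m_Frame3 Z 𝓕₂)

theorem NF3.mul {f g : 𝓕₂} (hf : X.NF3 f) (hg : X.NF3 g) : X.NF3 (f * g) :=
  ⟨mul_ne_zero hf.1 hg.1, fun Q hQ => by rw [Q.ord_mul hf.1 hg.1, hf.2 Q hQ, hg.2 Q hQ, add_zero]⟩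

theorem NF3.inv {f : 𝓕₂} (hf : X.NF3 f) : X.NF3 f⁻¹ :=
  ⟨inv_ne_zero hf.1, fun Q hQ => by rw [Q.ord_inv, hf.2 Q hQ, neg_zero]⟩

theorem NF3.one : X.NF3 (1 : 𝓕₂) := ⟨one_ne_zero, fun Q _ => Q.ord_one⟩

theorem NF3.pow {f : 𝓕₂} (hf : X.NF3 f) (n : ℕ) : X.NF3 (f ^ n) := by
  induction n with
  | zero => rw [pow_zero]; exact NF3.one X
  | succ n ih => rw [pow_succ]; exact NF3.mul X ih hf

theorem NF3.zpow {f : 𝓕₂} (hf : X.NF3 f) (a : ℤ) : X.NF3 (f ^ a) := by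
  cases a with
  | ofNat n => rw [Int.ofNat_eq_natCast, zpow_natCast]; exact NF3.pow X hf n
  | negSucc n => rw [zpow_negSucc]; exact NF3.inv X (NF3.pow X hf _)

theorem NF3.const {c : L₀} (hc : c ≠ 0) : X.NF3 (algebraMap L₀ 𝓕₂ c) :=
  ⟨by rwa [Ne, map_eq_zero], fun Q _ => ff_ord_algebraMap Q c⟩

theorem NF3.reg {f : 𝓕₂} (hf : X.NF3 f) : ∀ Q ∈ X.N₃, f ∈ Q.toValuationSubring := fun Q hQ =>
  (ff_mem_iff_ord_nonneg Q hf.1).mpr (by rw [hf.2 Q hQ])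

theorem NF3.of_pow {n : ℕ} (hn : n ≠ 0) {v : 𝓕₂} (h : X.NF3 (v ^ n)) : X.NF3 v := by
  have hv0 : v ≠ 0 := by
    rintro rfl
    exact h.1 (zero_pow hn)
  refine ⟨hv0, fun Q hQ => ?_⟩
  have h1 := h.2 Q hQ
  rw [← zpow_natCast, Q.ord_zpow] at h1
  rcases mul_eq_zero.mp h1 with h2 | h2
  · exact absurd (Nat.cast_eq_zero.mp h2) hn
  · exact h2

theorem U3.mul {f g : 𝓕₂} (hf : X.U3 f) (hg : X.U3 g) : X.U3 (f * g) :=
  ⟨mul_ne_zero hf.1 hg.1, fun j => ⟨mul_mem (hf.2 j).1 (hg.2 j).1, by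
    rw [mul_inv]; exact mul_mem (hf.2 j).2 (hg.2 j).2⟩⟩

theorem U3.inv {f : 𝓕₂} (hf : X.U3 f) : X.U3 f⁻¹ :=
  ⟨inv_ne_zero hf.1, fun j => ⟨(hf.2 j).2, by rw [inv_inv]; exact (hf.2 j).1⟩⟩

theorem U3.zpow {f : 𝓕₂} (hf : X.U3 f) (a : ℤ) : X.U3 (f ^ a) :=
  ⟨zpow_ne_zero a hf.1, fun j => ⟨s59m_zpow_mem (X.V j) (hf.2 j).1 (hf.2 j).2 a, by
    rw [← zpow_neg]; exact s59m_zpow_mem (X.V j) (hf.2 j).1 (hf.2 j).2 (-a)⟩⟩

/-- the residue of a unit is non-zero, with inverse the residue of the inverse. -/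
theorem r_mul_inv {f : 𝓕₂} (hf : X.U3 f) (j : Fin 3) :
    X.r j ⟨f, (hf.2 j).1⟩ * X.r j ⟨f⁻¹, (hf.2 j).2⟩ = 1 := by
  rw [← map_mul]
  have : (⟨f, (hf.2 j).1⟩ : X.V j) * ⟨f⁻¹, (hf.2 j).2⟩ = 1 := Subtype.ext (mul_inv_cancel₀ hf.1)
  rw [this, map_one]

theorem r_ne_zero {f : 𝓕₂} (hf : X.U3 f) (j : Fin 3) : X.r j ⟨f, (hf.2 j).1⟩ ≠ 0 :=
  left_ne_zero_of_mul_eq_one (X.r_mul_inv hf j)

theorem r_inv {f : 𝓕₂} (hf : X.U3 f) (j : Fin 3) :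
    X.r j ⟨f⁻¹, (hf.2 j).2⟩ = (X.r j ⟨f, (hf.2 j).1⟩)⁻¹ :=
  eq_inv_of_mul_eq_one_right (X.r_mul_inv hf j)

/-- the residue of an integer power of a unit. -/
theorem r_zpow {f : 𝓕₂} (hf : X.U3 f) (j : Fin 3) (a : ℤ) :
    X.r j ⟨f ^ a, ((U3.zpow X hf a).2 j).1⟩ = (X.r j ⟨f, (hf.2 j).1⟩) ^ a := by
  cases a with
  | ofNat n =>
    have : (⟨f ^ (Int.ofNat n), ((U3.zpow X hf (Int.ofNat n)).2 j).1⟩ : X.V j) = ⟨f, (hf.2 j).1⟩ ^ n :=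
      Subtype.ext (by
        show f ^ (Int.ofNat n) = f ^ n
        rw [Int.ofNat_eq_natCast, zpow_natCast])
    rw [this, map_pow, Int.ofNat_eq_natCast, zpow_natCast]
  | negSucc n =>
    have : (⟨f ^ (Int.negSucc n), ((U3.zpow X hf (Int.negSucc n)).2 j).1⟩ : X.V j) =
        ⟨f⁻¹, (hf.2 j).2⟩ ^ (n + 1) := Subtype.ext (by
      show f ^ (Int.negSucc n) = f⁻¹ ^ (n + 1)
      rw [zpow_negSucc, ← inv_pow])
    rw [this, map_pow, X.r_inv hf j, zpow_negSucc, inv_pow]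

/-- a unit avoiding the triple points has residues which are units at every branch `Z.Wi s`, with ONE value. -/
theorem glue_unit {f : 𝓕₂} (hf : X.U3 f) (hnf : X.NF3 f) (s : ι) (j : Fin 3) :
    ∃ (hj : X.r j ⟨f, (hf.2 j).1⟩ ∈ Z.Wi s) (_ : (X.r j ⟨f, (hf.2 j).1⟩)⁻¹ ∈ Z.Wi s)
      (h1 : X.r 1 ⟨f, (hf.2 1).1⟩ ∈ Z.Wi s),
      Z.evi s ⟨_, hj⟩ = Z.evi s ⟨_, h1⟩ := by
  obtain ⟨a1, a2, a3⟩ := X.glue₃ f (fun j => (hf.2 j).1) (NF3.reg X hnf) s j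
  obtain ⟨b1, b2, b3⟩ := X.glue₃ f⁻¹ (fun j => (hf.2 j).2) (NF3.reg X (NF3.inv X hnf)) s j
  refine ⟨a1, ?_, a2, a3⟩
  rw [← X.r_inv hf j]
  exact b1

end s59m_Frame3

/-! ### Kummer generators and Hecke correspondences at level `M q²` -/

/-- **Kummer generators of exponent `p` at level `N₂ = M q²`** over the frame `X` (see the header). -/
structure s59m_KumFrame3 (N₂ p : ℕ) [NeZero N₂] (X : s59m_Frame3 Z 𝓕₂) where
  /-- `h` is a Kummer generator of `x` -/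
  gen : JZero N₂ → 𝓕₂ → Prop
  gen_zsmul : ∀ {x : JZero N₂} {h : 𝓕₂}, gen x h → ∀ a : ℤ, gen (a • x) (h ^ a)
  /-- Hilbert 90 descent -/
  gen_congr : ∀ {x : JZero N₂} {h h' : 𝓕₂}, gen x h → gen x h' →
    ∃ (c : L₀) (g : 𝓕₂), c ≠ 0 ∧ g ≠ 0 ∧ h' = algebraMap L₀ 𝓕₂ c * g ^ p * h
  /-- normalisation: a unit of the three rings of the shape `c g ^ p` is of this shape with `c` a unit of `A₀` and
  `g` a unit of the three rings (`V 0` is unramified over `A₀`) -/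
  norm : ∀ (c : L₀) (g w : 𝓕₂), c ≠ 0 → g ≠ 0 → X.U3 w → w = algebraMap L₀ 𝓕₂ c * g ^ p →
    ∃ (c' : L₀) (g' : 𝓕₂), c' ∈ D'.A₀ ∧ c'⁻¹ ∈ D'.A₀ ∧ c' ≠ 0 ∧ X.U3 g' ∧
      w = algebraMap L₀ 𝓕₂ c' * g' ^ p
  /-- **[Σ-INJ₃]** -/
  inj : ∀ {x : JZero N₂} {h : 𝓕₂}, gen x h → ∀ (hu : X.U3 h), X.NF3 h →
    ∀ (c : κ) (b : Fin 3 → Fb), c ≠ 0 → (∀ j, b j ≠ 0) →
      (∀ j, X.r j ⟨h, (hu.2 j).1⟩ = algebraMap κ Fb c * b j ^ p) →
      (∀ (s : ι) (j : Fin 3), ∃ (hj : b j ∈ Z.Wi s) (_ : (b j)⁻¹ ∈ Z.Wi s) (h1 : b 1 ∈ Z.Wi s),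
        Z.evi s ⟨b j, hj⟩ = Z.evi s ⟨b 1, h1⟩) → x = 0

variable {N₂ p : ℕ} [NeZero N₂] {X : s59m_Frame3 Z 𝓕₂}

/-- **`T_ℓ` at level `M q²`** on the frame, inducing `H.Ti` on the three residue fields. -/
structure s59m_HeckeFrame3 (G : s59m_KumFrame3 N₂ p X) (H : s59m_HeckeOn Z) (ℓ : Nat.Primes) where
  /-- `T_ℓ^×` on functions of level `M q²` -/
  T : 𝓕₂ →* 𝓕₂
  mem : ∀ (j : Fin 3) (h : 𝓕₂), h ∈ X.V j → T h ∈ X.V j
  /-- only asked for units -/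
  red : ∀ (j : Fin 3) (h : 𝓕₂) (hh : h ∈ X.V j), h⁻¹ ∈ X.V j →
    X.r j ⟨T h, mem j h hh⟩ = H.Ti (X.r j ⟨h, hh⟩)
  /-- **[T-NODE₃]** -/
  nf : ∀ h : 𝓕₂, X.NF3 h → X.NF3 (T h)
  gen_hecke : ∀ {x : JZero N₂} {h : 𝓕₂}, G.gen x h → G.gen (heckeOperatorBar N₂ ℓ x) (T h)

namespace s59m_HeckeFrame3

variable {G : s59m_KumFrame3 N₂ p X} {H : s59m_HeckeOn Z} {ℓ : Nat.Primes} (E : s59m_HeckeFrame3 G H ℓ)

theorem u3 {h : 𝓕₂} (hu : X.U3 h) : X.U3 (E.T h) :=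
  ⟨s59m_mh_ne_zero E.T hu.1, fun j => ⟨E.mem j h (hu.2 j).1, by
    rw [← s59m_mh_inv E.T hu.1]; exact E.mem j h⁻¹ (hu.2 j).2⟩⟩

end s59m_HeckeFrame3

/-! ### Residue data of a generator -/

/-- a `p`-th root of (constant × unit of `W`) is a unit of `W`. -/
theorem s59m_root_unit {p : ℕ} (hp : p ≠ 0) (W : ValuationSubring Fb)
    (hW : ∀ c : κ, algebraMap κ Fb c ∈ W) {ρ α : Fb} {c : κ} (hc : c ≠ 0)
    (e : ρ = algebraMap κ Fb c * α ^ p) (hρ0 : ρ ≠ 0) (hρ : ρ ∈ W) (hρ' : ρ⁻¹ ∈ W) :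
    α ≠ 0 ∧ α ∈ W ∧ α⁻¹ ∈ W := by
  have hC : algebraMap κ Fb c ≠ 0 := (map_ne_zero_iff _ (algebraMap κ Fb).injective).mpr hc
  have hα0 : α ≠ 0 := by
    rintro rfl
    rw [zero_pow hp, mul_zero] at e
    exact hρ0 e
  refine ⟨hα0, s59m_mem_of_pow_mem W hp ?_, s59m_mem_of_pow_mem W hp ?_⟩
  · have : α ^ p = algebraMap κ Fb c⁻¹ * ρ := by
      rw [e, map_inv₀, ← mul_assoc, inv_mul_cancel₀ hC, one_mul]
    rw [this]
    exact mul_mem (hW _) hρ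
  · have : α⁻¹ ^ p = algebraMap κ Fb c * ρ⁻¹ := by
      rw [e, mul_inv, ← mul_assoc, mul_inv_cancel₀ hC, one_mul, inv_pow]
    rw [this]
    exact mul_mem (hW _) hρ'

/-- the root of an eigen-relation: if `ρ = c α ^ p` and `Ti ρ = c̄ γ ^ p ρ ^ a`, then `Ti α = ε γ α ^ a` with a constant
`ε ≠ 0` (roots of constants are constants). -/
theorem s59m_root_eig {p : ℕ} (hp : p ≠ 0) (hrc : s59m_RootConst κ Fb p) (Ti : Fb →* Fb)
    (hTi : ∀ c : κ, ∃ d : κ, Ti (algebraMap κ Fb c) = algebraMap κ Fb d)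
    {ρ α γ : Fb} {c cb : κ} (a : ℤ) (hc : c ≠ 0) (hα : α ≠ 0) (hγ : γ ≠ 0) (hcb : cb ≠ 0)
    (e : ρ = algebraMap κ Fb c * α ^ p)
    (eT : Ti ρ = algebraMap κ Fb cb * γ ^ p * ρ ^ a) :
    ∃ ε : κ, ε ≠ 0 ∧ Ti α = algebraMap κ Fb ε * γ * α ^ a := by
  have hC : algebraMap κ Fb c ≠ 0 := (map_ne_zero_iff _ (algebraMap κ Fb).injective).mpr hc
  have hCb : algebraMap κ Fb cb ≠ 0 := (map_ne_zero_iff _ (algebraMap κ Fb).injective).mpr hcb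
  obtain ⟨d, hd⟩ := hTi c
  have hd0 : algebraMap κ Fb d ≠ 0 := by
    rw [← hd]
    exact s59m_mh_ne_zero Ti hC
  have hTα : Ti α ≠ 0 := s59m_mh_ne_zero Ti hα
  have hαa : α ^ a ≠ 0 := zpow_ne_zero a hα
  have h1 : Ti ρ = algebraMap κ Fb d * Ti α ^ p := by rw [e, map_mul, map_pow, hd]
  have h2 : ρ ^ a = algebraMap κ Fb c ^ a * (α ^ a) ^ p := by
    rw [e, mul_zpow, ← zpow_natCast (α ^ a), ← zpow_mul, ← zpow_natCast α, ← zpow_mul, mul_comm a]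
  have hcz : algebraMap κ Fb c ^ a = algebraMap κ Fb (c ^ a) := (map_zpow₀ (algebraMap κ Fb) c a).symm
  have key : (Ti α / (γ * α ^ a)) ^ p = algebraMap κ Fb (cb * c ^ a / d) := by
    rw [div_pow, mul_pow, map_div₀, map_mul, ← hcz]
    rw [div_eq_div_iff (mul_ne_zero (pow_ne_zero _ hγ) (pow_ne_zero _ hαa)) hd0]
    have := h1.symm.trans (eT.trans (by rw [h2]))
    linear_combination this
  obtain ⟨ε, hε⟩ := hrc _ _ key
  have hε0 : ε ≠ 0 := by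
    rintro rfl
    rw [map_zero, div_eq_zero_iff] at hε
    rcases hε with h | h
    · exact hTα h
    · exact mul_ne_zero hγ hαa h
  refine ⟨ε, hε0, ?_⟩
  rw [mul_assoc, ← hε, div_mul_cancel₀ _ (mul_ne_zero hγ hαa)]

/-- **Residue data** of a function `h` of level `M q²`: a unit at the three rings, avoiding the triple points, with
residues `r j h = c j · α j ^ p`. -/
structure s59m_Res3 (X : s59m_Frame3 Z 𝓕₂) (p : ℕ) (h : 𝓕₂) where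
  hu : X.U3 h
  hnf : X.NF3 h
  /-- the constants -/
  c : Fin 3 → κ
  /-- the `p`-th roots -/
  α : Fin 3 → Fb
  c_ne : ∀ j, c j ≠ 0
  e : ∀ j, X.r j ⟨h, (hu.2 j).1⟩ = algebraMap κ Fb (c j) * α j ^ p

namespace s59m_Res3

variable {h : 𝓕₂} (R : s59m_Res3 X p h)

theorem α_unit (hp : p ≠ 0) (s : ι) (j : Fin 3) : R.α j ≠ 0 ∧ R.α j ∈ Z.Wi s ∧ (R.α j)⁻¹ ∈ Z.Wi s := by
  obtain ⟨a1, a2, -, -⟩ := X.glue_unit R.hu R.hnf s j
  exact s59m_root_unit hp (Z.Wi s) (Z.Wi_const s) (R.c_ne j) (R.e j) (X.r_ne_zero R.hu j) a1 a2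

theorem α_ne (hp : p ≠ 0) (j : Fin 3) : R.α j ≠ 0 := by
  obtain ⟨s⟩ := Z.nonempty
  exact (R.α_unit hp s j).1

/-- the value of the root `α j` at the triple point over the node `s`. -/
def lam (hp : p ≠ 0) (s : ι) (j : Fin 3) : k s := Z.evi s ⟨R.α j, (R.α_unit hp s j).2.1⟩

theorem lam_ne (hp : p ≠ 0) (s : ι) (j : Fin 3) : R.lam hp s j ≠ 0 :=
  s59m_ev_ne_zero (Z.Wi s) (Z.evi s) (R.α_unit hp s j).2.1 (R.α_unit hp s j).2.2 (R.α_unit hp s j).1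

/-- **[GLUE₃] for the residue data**: `c j · λ_j ^ p = c 1 · λ_1 ^ p` at every triple point. -/
theorem glue_rel (hp : p ≠ 0) (s : ι) (j : Fin 3) :
    algebraMap κ (k s) (R.c j) * R.lam hp s j ^ p = algebraMap κ (k s) (R.c 1) * R.lam hp s 1 ^ p := by
  obtain ⟨a1, -, a3, a4⟩ := X.glue_unit R.hu R.hnf s j
  have E1 : (⟨X.r j ⟨h, (R.hu.2 j).1⟩, a1⟩ : Z.Wi s) =
      ⟨algebraMap κ Fb (R.c j), Z.Wi_const s _⟩ * (⟨R.α j, (R.α_unit hp s j).2.1⟩ : Z.Wi s) ^ p :=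
    Subtype.ext (R.e j)
  have E2 : (⟨X.r 1 ⟨h, (R.hu.2 1).1⟩, a3⟩ : Z.Wi s) =
      ⟨algebraMap κ Fb (R.c 1), Z.Wi_const s _⟩ * (⟨R.α 1, (R.α_unit hp s 1).2.1⟩ : Z.Wi s) ^ p :=
    Subtype.ext (R.e 1)
  rw [E1, E2, map_mul, map_mul, map_pow, map_pow, Z.evi_const, Z.evi_const] at a4
  exact a4

/-- the datum `[λ_j / λ_1]`, as a family of units. -/
def val (hp : p ≠ 0) (j : Fin 3) : ∀ s, (k s)ˣ := fun s =>
  Units.mk0 (R.lam hp s j) (R.lam_ne hp s j) / Units.mk0 (R.lam hp s 1) (R.lam_ne hp s 1)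

theorem val_coe (hp : p ≠ 0) (j : Fin 3) (s : ι) :
    ((R.val hp j s : (k s)ˣ) : k s) = R.lam hp s j / R.lam hp s 1 := by
  rw [val, Units.val_div_eq_div_val, Units.val_mk0, Units.val_mk0]

/-- **the datum `u_{j1}`** in the gluing torus of level `M q`. -/
def cls (hp : p ≠ 0) (j : Fin 3) : s59m_Ygl Z := QuotientGroup.mk (R.val hp j)

theorem val_pow (hp : p ≠ 0) (j : Fin 3) :
    R.val hp j ^ p = s59m_diag Z (Units.mk0 (R.c 1) (R.c_ne 1) / Units.mk0 (R.c j) (R.c_ne j)) := by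
  funext s
  apply Units.ext
  rw [Pi.pow_apply, Units.val_pow_eq_pow_val, R.val_coe, s59m_diag_apply, Units.val_div_eq_div_val,
    Units.val_mk0, Units.val_mk0, div_pow, map_div₀]
  have h1 := R.glue_rel hp s j
  have h2 : algebraMap κ (k s) (R.c j) ≠ 0 :=
    (map_ne_zero_iff _ (algebraMap κ (k s)).injective).mpr (R.c_ne j)
  have h3 : R.lam hp s 1 ^ p ≠ 0 := pow_ne_zero _ (R.lam_ne hp s 1)
  rw [div_eq_div_iff h3 h2, mul_comm, h1, mul_comm]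

/-- the datum is killed by `p`. -/
theorem cls_pow (hp : p ≠ 0) (j : Fin 3) : R.cls hp j ^ p = 1 := by
  rw [cls, ← QuotientGroup.mk_pow, QuotientGroup.eq_one_iff, R.val_pow hp]
  exact ⟨_, rfl⟩

/-- the pair `(α j / α 1, 1)` represents the datum `u_{j1}`. -/
theorem rep (hp : p ≠ 0) (j : Fin 3) : s59m_Rep Z (R.α j / R.α 1) 1 (R.cls hp j) := by
  refine ⟨div_ne_zero (R.α_ne hp j) (R.α_ne hp 1), one_ne_zero, R.val hp j, rfl, fun s => ?_⟩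
  obtain ⟨-, b1, b2⟩ := R.α_unit hp s j
  obtain ⟨-, d1, d2⟩ := R.α_unit hp s 1
  have m1 : R.α j / R.α 1 ∈ Z.Wi s := by rw [div_eq_mul_inv]; exact mul_mem b1 d2
  have m1' : (R.α j / R.α 1)⁻¹ ∈ Z.Wi s := by rw [inv_div, div_eq_mul_inv]; exact mul_mem d1 b2
  refine ⟨m1, m1', (Z.Wz s).one_mem, by rw [inv_one]; exact (Z.Wz s).one_mem, ?_⟩
  have h1 : Z.evz s ⟨1, (Z.Wz s).one_mem⟩ = 1 := map_one (Z.evz s)
  rw [h1, mul_one, R.val_coe]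
  have P1 : Z.evi s ⟨R.α j / R.α 1, m1⟩ * Z.evi s ⟨R.α 1, d1⟩ = Z.evi s ⟨R.α j, b1⟩ := by
    rw [← map_mul]
    exact congrArg _ (Subtype.ext (div_mul_cancel₀ _ (R.α_ne hp 1)))
  exact eq_div_of_mul_eq (R.lam_ne hp s 1) P1

/-- the residue of `T h` in terms of the residue of `h`, for the Hecke relation `T h = c' g' ^ p h ^ a`. -/
theorem ti_root (hp : p ≠ 0) (hrc : s59m_RootConst κ Fb p) {G : s59m_KumFrame3 N₂ p X} {H : s59m_HeckeOn Z}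
    {ℓ : Nat.Primes} (E : s59m_HeckeFrame3 G H ℓ) (a : ℤ) {c' : L₀} {g' : 𝓕₂} (hc'1 : c' ∈ D'.A₀)
    (hc'2 : c'⁻¹ ∈ D'.A₀) (hc'0 : c' ≠ 0) (hg'u : X.U3 g')
    (eT : E.T h = algebraMap L₀ 𝓕₂ c' * g' ^ p * h ^ a) (j : Fin 3) :
    ∃ ε : κ, ε ≠ 0 ∧ H.Ti (R.α j) = algebraMap κ Fb ε * X.r j ⟨g', (hg'u.2 j).1⟩ * R.α j ^ a := by
  have hcb : D'.resA ⟨c', hc'1⟩ ≠ 0 := by
    have h1 : (⟨c', hc'1⟩ : D'.A₀) * ⟨c'⁻¹, hc'2⟩ = 1 := Subtype.ext (mul_inv_cancel₀ hc'0)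
    have h2 := congrArg D'.resA h1
    rw [map_mul, map_one] at h2
    exact left_ne_zero_of_mul_eq_one h2
  have hau : X.U3 (h ^ a) := s59m_Frame3.U3.zpow X R.hu a
  have E1 : (⟨E.T h, E.mem j h (R.hu.2 j).1⟩ : X.V j) =
      ⟨algebraMap L₀ 𝓕₂ c', X.const_mem j c' hc'1⟩ * (⟨g', (hg'u.2 j).1⟩ : X.V j) ^ p *
        ⟨h ^ a, (hau.2 j).1⟩ := Subtype.ext eT
  have eT' : H.Ti (X.r j ⟨h, (R.hu.2 j).1⟩) =
      algebraMap κ Fb (D'.resA ⟨c', hc'1⟩) * (X.r j ⟨g', (hg'u.2 j).1⟩) ^ p *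
        (X.r j ⟨h, (R.hu.2 j).1⟩) ^ a := by
    rw [← E.red j h (R.hu.2 j).1 (R.hu.2 j).2, E1, map_mul, map_mul, map_pow, X.r_zpow R.hu j a]
    congr 2
    exact X.r_const j ⟨c', hc'1⟩
  exact s59m_root_eig hp hrc H.Ti H.Ti_const a (R.c_ne j) (R.α_ne hp j) (X.r_ne_zero hg'u j) hcb (R.e j) eT'

/-- **the datum `u_{j1}` of an eigen-point is an eigen-datum.** -/
theorem eig (hp : p ≠ 0) (hrc : s59m_RootConst κ Fb p) {N m : ℕ} [NeZero N] (F : s59m_KumFrame N m Z)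
    (G : s59m_KumFrame3 N₂ p X) (bad : ℕ)
    (HF : ∀ ℓ : Nat.Primes, ¬ (ℓ : ℕ) ∣ bad → s59m_HeckeFrame F ℓ)
    (HF3 : ∀ (ℓ : Nat.Primes) (hℓ : ¬ (ℓ : ℕ) ∣ bad), s59m_HeckeFrame3 G (HF ℓ hℓ).H ℓ)
    (a : ℕ → ℤ) (B : Finset ℕ) {x : JZero N₂}
    (heig : ∀ ℓ : Nat.Primes, (ℓ : ℕ) ∉ B → heckeOperatorBar N₂ ℓ x = a ℓ • x)
    (hgen : G.gen x h) (j : Fin 3) : F.Eig bad HF a B (R.cls hp j) := by
  intro ℓ hℓ hℓB
  have g1 : G.gen (a ℓ • x) ((HF3 ℓ hℓ).T h) := by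
    have := (HF3 ℓ hℓ).gen_hecke hgen
    rwa [heig ℓ hℓB] at this
  have g2 : G.gen (a ℓ • x) (h ^ a ℓ) := G.gen_zsmul hgen _
  obtain ⟨c, g, hc, hg, e⟩ := G.gen_congr g2 g1
  have hTu : X.U3 ((HF3 ℓ hℓ).T h) := (HF3 ℓ hℓ).u3 R.hu
  have hau : X.U3 (h ^ a ℓ) := s59m_Frame3.U3.zpow X R.hu _
  have hw : X.U3 ((HF3 ℓ hℓ).T h * (h ^ a ℓ)⁻¹) :=
    s59m_Frame3.U3.mul X hTu (s59m_Frame3.U3.inv X hau)
  have ew : (HF3 ℓ hℓ).T h * (h ^ a ℓ)⁻¹ = algebraMap L₀ 𝓕₂ c * g ^ p := by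
    rw [e, mul_assoc, mul_inv_cancel₀ hau.1, mul_one]
  obtain ⟨c', g', hc'1, hc'2, hc'0, hg'u, e'⟩ := G.norm c g _ hc hg hw ew
  have eT : (HF3 ℓ hℓ).T h = algebraMap L₀ 𝓕₂ c' * g' ^ p * h ^ a ℓ := by
    rw [← e', mul_assoc, inv_mul_cancel₀ hau.1, mul_one]
  have hC' : algebraMap L₀ 𝓕₂ c' ≠ 0 := by rwa [Ne, map_eq_zero]
  have hg'nf : X.NF3 g' := by
    apply s59m_Frame3.NF3.of_pow X hp
    have : g' ^ p = (algebraMap L₀ 𝓕₂ c')⁻¹ * ((HF3 ℓ hℓ).T h * (h ^ a ℓ)⁻¹) := by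
      rw [e', ← mul_assoc, inv_mul_cancel₀ hC', one_mul]
    rw [this]
    exact s59m_Frame3.NF3.mul X (s59m_Frame3.NF3.inv X (s59m_Frame3.NF3.const X hc'0))
      (s59m_Frame3.NF3.mul X ((HF3 ℓ hℓ).nf h R.hnf)
        (s59m_Frame3.NF3.inv X (s59m_Frame3.NF3.zpow X R.hnf _)))
  obtain ⟨εj, hεj, ej⟩ := R.ti_root hp hrc (HF3 ℓ hℓ) (a ℓ) hc'1 hc'2 hc'0 hg'u eT j
  obtain ⟨ε1, hε1, e1⟩ := R.ti_root hp hrc (HF3 ℓ hℓ) (a ℓ) hc'1 hc'2 hc'0 hg'u eT 1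
  refine ⟨R.α j / R.α 1, 1, R.rep hp j, ?_⟩
  have hαj := R.α_ne hp j
  have hα1 := R.α_ne hp 1
  have hγj := X.r_ne_zero hg'u j
  have hγ1 := X.r_ne_zero hg'u 1
  have hCε1 : algebraMap κ Fb ε1 ≠ 0 := (map_ne_zero_iff _ (algebraMap κ Fb).injective).mpr hε1
  have hone : (HF ℓ hℓ).H.Tz 1 * (1 : Fb) ^ (-(a ℓ)) = 1 := by rw [map_one, one_zpow, mul_one]
  have hfirst : (HF ℓ hℓ).H.Ti (R.α j / R.α 1) * (R.α j / R.α 1) ^ (-(a ℓ)) =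
      algebraMap κ Fb (εj / ε1) * (X.r j ⟨g', (hg'u.2 j).1⟩ / X.r 1 ⟨g', (hg'u.2 1).1⟩) := by
    rw [div_eq_mul_inv (R.α j), map_mul, s59m_mh_inv _ hα1, ej, e1, ← div_eq_mul_inv (R.α j), zpow_neg,
      div_zpow, map_div₀]
    have h3 : R.α j ^ a ℓ ≠ 0 := zpow_ne_zero _ hαj
    have h4 : R.α 1 ^ a ℓ ≠ 0 := zpow_ne_zero _ hα1
    field_simp
  rw [hone, hfirst]
  have he0 : εj / ε1 ≠ 0 := div_ne_zero hεj hε1
  have hCe : algebraMap κ Fb (εj / ε1) ≠ 0 := (map_ne_zero_iff _ (algebraMap κ Fb).injective).mpr he0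
  refine ⟨mul_ne_zero hCe (div_ne_zero hγj hγ1), one_ne_zero, εj / ε1, he0, fun s => ?_⟩
  obtain ⟨a1, a2, a3, a4⟩ := X.glue_unit hg'u hg'nf s j
  obtain ⟨-, b2, -, -⟩ := X.glue_unit hg'u hg'nf s 1
  have d1 : X.r j ⟨g', (hg'u.2 j).1⟩ / X.r 1 ⟨g', (hg'u.2 1).1⟩ ∈ Z.Wi s := by
    rw [div_eq_mul_inv]
    exact mul_mem a1 b2
  have d2 : X.r 1 ⟨g', (hg'u.2 1).1⟩ / X.r j ⟨g', (hg'u.2 j).1⟩ ∈ Z.Wi s := by
    rw [div_eq_mul_inv]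
    exact mul_mem a3 a2
  have m1 : algebraMap κ Fb (εj / ε1) * (X.r j ⟨g', (hg'u.2 j).1⟩ / X.r 1 ⟨g', (hg'u.2 1).1⟩) ∈ Z.Wi s :=
    mul_mem (Z.Wi_const s _) d1
  have m1' : (algebraMap κ Fb (εj / ε1) *
      (X.r j ⟨g', (hg'u.2 j).1⟩ / X.r 1 ⟨g', (hg'u.2 1).1⟩))⁻¹ ∈ Z.Wi s := by
    rw [mul_inv, inv_div, ← map_inv₀]
    exact mul_mem (Z.Wi_const s _) d2
  refine ⟨m1, m1', (Z.Wz s).one_mem, by rw [inv_one]; exact (Z.Wz s).one_mem, ?_⟩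
  have h1 : Z.evz s ⟨1, (Z.Wz s).one_mem⟩ = 1 := map_one (Z.evz s)
  rw [h1, mul_one]
  have hγ1s : Z.evi s ⟨_, a3⟩ ≠ 0 := s59m_ev_ne_zero (Z.Wi s) (Z.evi s) a3 b2 hγ1
  have P : (⟨_, m1⟩ : Z.Wi s) * ⟨_, a3⟩ = ⟨algebraMap κ Fb (εj / ε1), Z.Wi_const s _⟩ * ⟨_, a1⟩ :=
    Subtype.ext (by
      show algebraMap κ Fb (εj / ε1) * (X.r j ⟨g', (hg'u.2 j).1⟩ / X.r 1 ⟨g', (hg'u.2 1).1⟩) *
        X.r 1 ⟨g', (hg'u.2 1).1⟩ = algebraMap κ Fb (εj / ε1) * X.r j ⟨g', (hg'u.2 j).1⟩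
      rw [mul_assoc, div_mul_cancel₀ _ hγ1])
  have P' := congrArg (Z.evi s) P
  rw [map_mul, map_mul, Z.evi_const, a4] at P'
  exact mul_right_cancel₀ hγ1s P'

/-- **trivial data ⇒ `x = 0`** ([Σ-INJ₃]). -/
theorem zero_of_cls (hp : p ≠ 0) (G : s59m_KumFrame3 N₂ p X) {x : JZero N₂} (hgen : G.gen x h)
    (hall : ∀ j : Fin 3, R.cls hp j = 1) : x = 0 := by
  have hex : ∀ j : Fin 3, ∃ e : κˣ, s59m_diag Z e = R.val hp j := fun j => by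
    have := hall j
    rw [cls, QuotientGroup.eq_one_iff] at this
    exact this
  choose eu heu using hex
  have hval : ∀ (j : Fin 3) (s : ι),
      algebraMap κ (k s) ((eu j : κˣ) : κ) = R.lam hp s j / R.lam hp s 1 := fun j s => by
    have := congrArg (fun f : ∀ s, (k s)ˣ => ((f s : (k s)ˣ) : k s)) (heu j)
    simpa [s59m_diag_apply, R.val_coe] using this
  have hCe : ∀ j, algebraMap κ Fb ((eu j : κˣ) : κ) ≠ 0 := fun j =>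
    (map_ne_zero_iff _ (algebraMap κ Fb).injective).mpr (eu j).ne_zero
  -- the constants agree
  have hconst : ∀ j : Fin 3, R.c j * ((eu j : κˣ) : κ) ^ p = R.c 1 := fun j => by
    obtain ⟨s⟩ := Z.nonempty
    have h1 := R.glue_rel hp s j
    have h2 : R.lam hp s j = algebraMap κ (k s) ((eu j : κˣ) : κ) * R.lam hp s 1 := by
      rw [hval j s, div_mul_cancel₀ _ (R.lam_ne hp s 1)]
    rw [h2, mul_pow, ← mul_assoc, ← map_pow, ← map_mul] at h1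
    have h3 := mul_right_cancel₀ (pow_ne_zero p (R.lam_ne hp s 1)) h1
    exact (algebraMap κ (k s)).injective h3
  refine G.inj hgen R.hu R.hnf (R.c 1) (fun j => R.α j / algebraMap κ Fb ((eu j : κˣ) : κ)) (R.c_ne 1)
    (fun j => div_ne_zero (R.α_ne hp j) (hCe j)) (fun j => ?_) (fun s j => ?_)
  · rw [R.e j, div_pow, ← hconst j, map_mul, map_pow]
    have := pow_ne_zero p (hCe j)
    field_simp
  · obtain ⟨-, b1, b2⟩ := R.α_unit hp s j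
    obtain ⟨-, d1, d2⟩ := R.α_unit hp s 1
    have mj : R.α j / algebraMap κ Fb ((eu j : κˣ) : κ) ∈ Z.Wi s := by
      rw [div_eq_mul_inv, ← map_inv₀]
      exact mul_mem b1 (Z.Wi_const s _)
    have mj' : (R.α j / algebraMap κ Fb ((eu j : κˣ) : κ))⁻¹ ∈ Z.Wi s := by
      rw [inv_div, div_eq_mul_inv]
      exact mul_mem (Z.Wi_const s _) b2
    have m1 : R.α 1 / algebraMap κ Fb ((eu 1 : κˣ) : κ) ∈ Z.Wi s := by
      rw [div_eq_mul_inv, ← map_inv₀]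
      exact mul_mem d1 (Z.Wi_const s _)
    refine ⟨mj, mj', m1, ?_⟩
    have key : ∀ (i : Fin 3) (mi : R.α i / algebraMap κ Fb ((eu i : κˣ) : κ) ∈ Z.Wi s),
        Z.evi s ⟨_, mi⟩ = R.lam hp s 1 := fun i mi => by
      have P : (⟨_, mi⟩ : Z.Wi s) * ⟨algebraMap κ Fb ((eu i : κˣ) : κ), Z.Wi_const s _⟩ =
          ⟨R.α i, (R.α_unit hp s i).2.1⟩ := Subtype.ext (div_mul_cancel₀ _ (hCe i))
      have P' := congrArg (Z.evi s) P
      rw [map_mul, Z.evi_const, hval i s] at P'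
      have h3 : R.lam hp s i / R.lam hp s 1 ≠ 0 := div_ne_zero (R.lam_ne hp s i) (R.lam_ne hp s 1)
      have h4 : R.lam hp s 1 * (R.lam hp s i / R.lam hp s 1) = R.lam hp s i :=
        mul_div_cancel₀ _ (R.lam_ne hp s 1)
      exact mul_right_cancel₀ h3 (P'.trans h4.symm)
    rw [key j mj, key 1 m1]

end s59m_Res3

/-! ### The abstract form of the second alternative of `lvl2` -/

/-- **[CAR] `lvl2`, abstract**: a non-zero eigen-point of level `M q²` with a generator which is a unit at the three Gauss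
valuations, avoids the triple points, and has residues `c_j α_j ^ p`, gives a NON-TRIVIAL class of the gluing torus of
level `M q`, killed by `p`, which is an eigen-datum. -/
theorem s59m_lvl2_abs (hp : p ≠ 0) (hrc : s59m_RootConst κ Fb p) {N m : ℕ} [NeZero N]
    (F : s59m_KumFrame N m Z) (G : s59m_KumFrame3 N₂ p X) (bad : ℕ)
    (HF : ∀ ℓ : Nat.Primes, ¬ (ℓ : ℕ) ∣ bad → s59m_HeckeFrame F ℓ)
    (HF3 : ∀ (ℓ : Nat.Primes) (hℓ : ¬ (ℓ : ℕ) ∣ bad), s59m_HeckeFrame3 G (HF ℓ hℓ).H ℓ)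
    (a : ℕ → ℤ) (B : Finset ℕ) {x : JZero N₂} (hx : x ≠ 0)
    (heig : ∀ ℓ : Nat.Primes, (ℓ : ℕ) ∉ B → heckeOperatorBar N₂ ℓ x = a ℓ • x)
    {h : 𝓕₂} (hgen : G.gen x h) (R : s59m_Res3 X p h) :
    ∃ u : s59m_Ygl Z, u ≠ 1 ∧ u ^ p = 1 ∧ F.Eig bad HF a B u := by
  by_contra hcon
  push Not at hcon
  apply hx
  apply R.zero_of_cls hp G hgen
  intro j
  by_contra hj
  exact hcon (R.cls hp j) hj (R.cls_pow hp j) (R.eig hp hrc F G bad HF HF3 a B heig hgen j)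

/-- the same, in the additive notation of `s59m_CarPkgE`. -/
theorem s59m_lvl2_abs_add (hp : p ≠ 0) (hrc : s59m_RootConst κ Fb p) {N m : ℕ} [NeZero N]
    (F : s59m_KumFrame N m Z) (G : s59m_KumFrame3 N₂ p X) (bad : ℕ)
    (HF : ∀ ℓ : Nat.Primes, ¬ (ℓ : ℕ) ∣ bad → s59m_HeckeFrame F ℓ)
    (HF3 : ∀ (ℓ : Nat.Primes) (hℓ : ¬ (ℓ : ℕ) ∣ bad), s59m_HeckeFrame3 G (HF ℓ hℓ).H ℓ)
    (a : ℕ → ℤ) (B : Finset ℕ) {x : JZero N₂} (hx : x ≠ 0)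
    (heig : ∀ ℓ : Nat.Primes, (ℓ : ℕ) ∉ B → heckeOperatorBar N₂ ℓ x = a ℓ • x)
    {h : 𝓕₂} (hgen : G.gen x h) (R : s59m_Res3 X p h) :
    ∃ u : Additive (s59m_Ygl Z), u ≠ 0 ∧ p • u = 0 ∧ F.Eig bad HF a B (Additive.toMul u) := by
  obtain ⟨u, hu1, hup, hue⟩ := s59m_lvl2_abs hp hrc F G bad HF HF3 a B hx heig hgen R
  refine ⟨Additive.ofMul u, fun h0 => hu1 ?_, ?_, hue⟩
  · exact congrArg Additive.toMul h0
  · rw [← ofMul_pow, hup]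
    rfl

end Fermat.Agent.Lib.S59
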