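/-
Programme (R2) / node **[CAR]**, route R-DS′, W5 = the level `M q²` leaf (helper9, prefix `s59m_`):
**THE CONCRETE THREE-COMPONENT FRAME OF LEVEL `M q²` OVER THE CANONICAL BASE** (`q ≥ 5`, `q ∤ M`, `P ∣ q`, `L₀` inertia-fixed).

* `s59m_GU P hP L₀ hunr`        : the canonical Gauss datum `s37r_G P L₀ q _` (`ϖ = q`) — the one of `s59m_ZU`;
* `s59m_L2Data M q hqM P hP L₀ hunr` : **the valuation data of level `M q²`**: `V : Fin 3 → ValuationSubring F₂`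
  (`0 ↦ V_∞`, `1 ↦ V_mid`, `2 ↦ V_0`), the S36 package `pkg : s36g_ValPkg G φ M q _ hqM V (s36m_t M q)`, and the reductions
  `r i : V i →+* κ₀((T))` of `s36g_ValRed` as DATA (fields `r_ker`, `r0α`, `r0β`, `r1α`, `r1β`, `r2α`, `r2β`);
  `s59m_exists_L2Data` : it exists (`s36m_exists_pkg`);
* `D.rb i : D.V i →+* Fb` (`Fb = modularFunctionFieldFullC κ₀ M`) : the reductions corestricted to `Fb`
  (`D.coe_rb : ((D.rb i y : Fb) : κ₀((T))) = D.r i y` is `rfl`); normalisation: `rb 0 (α' x) = red_∞ x`, `rb 1 (α' x) = red_∞ x`,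
  `rb 1 (β' x) = red_0 x`, `rb 2 (β' x) = red_0 x` (`D.rb0α`, `D.rb1α`, `D.rb1β`, `D.rb2β`);
* `s59m_S2 M q L₀` : the chart `{α' j_{Mq} regular}` of level `M q²`; `D.N₃` : the places of the chart through the TRIPLE
  points (`s59m_IsMulti D.V (s59m_S2 …) 𝔫`);
* `s59m_Glue3C D` : **the contract [L2-6] = GLUE₃** for the concrete data (owner helper6), and
  **`s59m_frame3C D hglue : s59m_Frame3 (s59m_ZU …) F₂`** with `V = D.V`, `r = D.rb`, `N₃ = D.N₃` (all `rfl`).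
-/
import Fermat.Agent.Lib.S59.MCarL2
import Fermat.Agent.Lib.S59.MCarTop
import Fermat.Agent.Lib.S59.MCarGlob3
import Fermat.Agent.Lib.S36.MPkgFinal

set_option autoImplicit false
set_option linter.style.haveILetI false
set_option linter.unusedSectionVars false
set_option linter.unusedVariables false
set_option synthInstance.maxHeartbeats 400000

noncomputable section

namespace Fermat.Agent.Lib.S59

open ModularCurve HahnSeries AlgebraicCurve Fermat.Agent.Lib.FF Fermat.Agent.Lib.S18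
  Fermat.Agent.Lib.S28 Fermat.Agent.Lib.S29 Fermat.Agent.Lib.S37 Fermat.Agent.Lib.S34
  Fermat.Agent.Lib.S35 Fermat.Agent.Lib.S33 Fermat.Agent.Lib.S44 Fermat.Agent.Lib.S36

local notation "Kb" => AlgebraicClosure ℚ

variable (M q : ℕ) [NeZero M] [hq : Fact q.Prime] (hqM : ¬ q ∣ M) (h5 : 5 ≤ q)
  (P : ValuationSubring Kb) (hP : P.LiesOverPrime q)
  (L₀ : IntermediateField ℚ Kb) [FiniteDimensional ℚ ↥L₀]
  (hunr : ∀ τ ∈ P.inertiaSubgroupIn ℚ, ∀ a ∈ L₀, τ a = a)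

/-- **the canonical Gauss datum** over an inertia-fixed base field: `ϖ = q`. -/
abbrev s59m_GU : s18g_GaussData ↥L₀ (IsLocalRing.ResidueField ↥(s18q_A0 P L₀)) :=
  @s37r_G P L₀ (s18q_A0_dvr P L₀ hP) ((q : ℕ) : ↥(s18q_A0 P L₀))
    (s59m_q_irreducible q P hP L₀ hunr)

/-- **The valuation data of level `M q²`** over the canonical base (see the header). -/
structure s59m_L2Data where
  /-- the three Gauss valuation rings: `0 ↦ V_∞`, `1 ↦ V_mid`, `2 ↦ V_0` -/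
  V : Fin 3 → ValuationSubring (s34m_F ↥L₀ (M * q * q))
  pkg : s36g_ValPkg (s59m_GU q P hP L₀ hunr) (algebraMap ↥L₀ Kb) M q hq.out hqM V (s36m_t M q)
  /-- the reductions of `s36g_ValRed` -/
  r : ∀ i : Fin 3, V i →+* LaurentSeries (IsLocalRing.ResidueField ↥(s18q_A0 P L₀))
  r_ker : ∀ i, ∀ y : V i, r i y = 0 ↔ (y : s34m_F ↥L₀ (M * q * q)) ∈ (V i).nonunits
  r0α : ∀ (x : s34m_Vinf (s59m_GU q P hP L₀ hunr) (M * q)) (h : s36g_alpha M q x ∈ V 0),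
    r 0 ⟨_, h⟩ = s34m_redInf (s59m_GU q P hP L₀ hunr) (M * q) x
  r0β : ∀ (x : s34m_Vinf (s59m_GU q P hP L₀ hunr) (M * q)) (h : s36g_beta M q x ∈ V 0),
    r 0 ⟨_, h⟩ = qExpand (IsLocalRing.ResidueField ↥(s18q_A0 P L₀)) q
      (s34m_redInf (s59m_GU q P hP L₀ hunr) (M * q) x)
  r1α : ∀ (x : s34m_Vinf (s59m_GU q P hP L₀ hunr) (M * q)) (h : s36g_alpha M q x ∈ V 1),
    r 1 ⟨_, h⟩ = s34m_redInf (s59m_GU q P hP L₀ hunr) (M * q) x
  r1β : ∀ (x : s34m_Vzero (s59m_GU q P hP L₀ hunr) (algebraMap ↥L₀ Kb) M q hq.out hqM)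
    (h : s36g_beta M q x ∈ V 1),
    r 1 ⟨_, h⟩ = s34m_redZero (s59m_GU q P hP L₀ hunr) (algebraMap ↥L₀ Kb) M q hq.out hqM x
  r2α : ∀ (x : s34m_Vzero (s59m_GU q P hP L₀ hunr) (algebraMap ↥L₀ Kb) M q hq.out hqM)
    (h : s36g_alpha M q x ∈ V 2),
    r 2 ⟨_, h⟩ = qExpand (IsLocalRing.ResidueField ↥(s18q_A0 P L₀)) q
      (s34m_redZero (s59m_GU q P hP L₀ hunr) (algebraMap ↥L₀ Kb) M q hq.out hqM x)
  r2β : ∀ (x : s34m_Vzero (s59m_GU q P hP L₀ hunr) (algebraMap ↥L₀ Kb) M q hq.out hqM)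
    (h : s36g_beta M q x ∈ V 2),
    r 2 ⟨_, h⟩ = s34m_redZero (s59m_GU q P hP L₀ hunr) (algebraMap ↥L₀ Kb) M q hq.out hqM x

/-- `q = ϖ · 1` in the canonical Gauss datum. -/
theorem s59m_GU_unr : ∃ u : (s59m_GU q P hP L₀ hunr).A, IsUnit u ∧
    ((q : ℕ) : (s59m_GU q P hP L₀ hunr).A) = (s59m_GU q P hP L₀ hunr).ϖ * u :=
  ⟨1, isUnit_one, by rw [mul_one]; rfl⟩

/-- **the valuation data of level `M q²` exist.** -/
theorem s59m_exists_L2Data [CharP (IsLocalRing.ResidueField ↥(s18q_A0 P L₀)) q] :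
    Nonempty (s59m_L2Data M q hqM P hP L₀ hunr) := by
  obtain ⟨V, hV⟩ := s36m_exists_pkg (s59m_GU q P hP L₀ hunr) (algebraMap ↥L₀ Kb) M q hq.out hqM
    (s59m_GU_unr q P hP L₀ hunr)
  obtain ⟨r, h1, h2, h3, h4, h5, h6, h7⟩ := hV.2.2.2.2.2.2
  exact ⟨⟨V, hV, r, h1, h2, h3, h4, h5, h6, h7⟩⟩

/-! ### The reductions, corestricted to `Fb = F̄_M` -/

namespace s59m_L2Data

variable {M q hqM P hP L₀ hunr} (D : s59m_L2Data M q hqM P hP L₀ hunr)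

/-- congruent elements have the same reduction. -/
theorem r_congr (i : Fin 3) {y z : s34m_F ↥L₀ (M * q * q)} (hy : y ∈ D.V i) (hz : z ∈ D.V i)
    (h : y - z ∈ (D.V i).nonunits) : D.r i ⟨y, hy⟩ = D.r i ⟨z, hz⟩ := by
  have h0 : D.r i (⟨y, hy⟩ - ⟨z, hz⟩) = 0 := (D.r_ker i _).mpr h
  rw [map_sub, sub_eq_zero] at h0
  exact h0

/-- `y ∈ V i` and `y - z ∈ 𝔪 (V i)` ⇒ `z ∈ V i`. -/
theorem mem_of_sub_mem (i : Fin 3) {y z : s34m_F ↥L₀ (M * q * q)} (hy : y ∈ D.V i)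
    (h : y - z ∈ (D.V i).nonunits) : z ∈ D.V i := by
  have h1 : y - z ∈ D.V i := (D.V i).nonunits_le h
  have : z = y - (y - z) := by ring
  rw [this]
  exact sub_mem hy h1

variable [CharP (IsLocalRing.ResidueField ↥(s18q_A0 P L₀)) q]
  [PerfectField (IsLocalRing.ResidueField ↥(s18q_A0 P L₀))]

include h5 in
/-- **the three reductions land in `Fb`.** -/
theorem r_mem_fullC (i : Fin 3) (y : D.V i) :
    D.r i y ∈ modularFunctionFieldFullC (IsLocalRing.ResidueField ↥(s18q_A0 P L₀)) M := by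
  haveI : PerfectRing (IsLocalRing.ResidueField ↥(s18q_A0 P L₀)) q := PerfectField.toPerfectRing q
  have hdeg := s59m_hdeg_U M q hqM L₀
  have hT := s59m_hT_U M q P L₀ hqM
  have hdegM : s18g_HDeg ↥L₀ M := fun n b hb hn => s18g_exists_relation M (algebraMap ↥L₀ Kb) hn b hb
  obtain ⟨y, hy⟩ := y
  obtain ⟨-, -, hRes, -⟩ := D.pkg
  obtain ⟨h0, h1, -, h2, -, -⟩ := hRes
  fin_cases i
  · obtain ⟨x, hx, hc⟩ := h0 y hy
    have hm := D.mem_of_sub_mem 0 hy hc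
    show D.r 0 ⟨y, hy⟩ ∈ _
    rw [D.r_congr 0 hy hm hc, D.r0α ⟨x, hx⟩ hm]
    exact s33y_redInf_mem_fullC (s59m_GU q P hP L₀ hunr) (algebraMap ↥L₀ Kb) M q hqM hdeg hT hdegM _
  · obtain ⟨x, hx, hc⟩ := h1 y hy
    have hm := D.mem_of_sub_mem 1 hy hc
    show D.r 1 ⟨y, hy⟩ ∈ _
    rw [D.r_congr 1 hy hm hc, D.r1α ⟨x, hx⟩ hm]
    exact s33y_redInf_mem_fullC (s59m_GU q P hP L₀ hunr) (algebraMap ↥L₀ Kb) M q hqM hdeg hT hdegM _
  · obtain ⟨x, hx, hc⟩ := h2 y hy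
    have hm := D.mem_of_sub_mem 2 hy hc
    show D.r 2 ⟨y, hy⟩ ∈ _
    rw [D.r_congr 2 hy hm hc, D.r2β ⟨x, hx⟩ hm]
    exact s33y_redZero_mem_fullC (s59m_GU q P hP L₀ hunr) (algebraMap ↥L₀ Kb) M q hqM hdeg hT hdegM _

/-- **the reductions `V i →+* Fb`.** -/
def rb (i : Fin 3) : D.V i →+* ↥(modularFunctionFieldFullC (IsLocalRing.ResidueField ↥(s18q_A0 P L₀)) M) :=
  (D.r i).codRestrict (modularFunctionFieldFullC (IsLocalRing.ResidueField ↥(s18q_A0 P L₀)) M)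
    (D.r_mem_fullC h5 i)

@[simp] theorem coe_rb (i : Fin 3) (y : D.V i) :
    ((D.rb h5 i y : ↥(modularFunctionFieldFullC (IsLocalRing.ResidueField ↥(s18q_A0 P L₀)) M)) :
      LaurentSeries (IsLocalRing.ResidueField ↥(s18q_A0 P L₀))) = D.r i y := rfl

theorem rb_eq_zero_iff (i : Fin 3) (y : D.V i) :
    D.rb h5 i y = 0 ↔ (y : s34m_F ↥L₀ (M * q * q)) ∈ (D.V i).nonunits := by
  rw [← D.r_ker i y]
  constructor
  · intro h
    have := congrArg (fun z : ↥(modularFunctionFieldFullC (IsLocalRing.ResidueField ↥(s18q_A0 P L₀)) M) =>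
      (z : LaurentSeries (IsLocalRing.ResidueField ↥(s18q_A0 P L₀)))) h
    simpa using this
  · intro h
    apply Subtype.ext
    rw [coe_rb, h]
    rfl

/-- `rb 0 (α' x) = red_∞ x`. -/
theorem rb0α (x : s34m_F ↥L₀ (M * q)) (hx : x ∈ s34m_Vinf (s59m_GU q P hP L₀ hunr) (M * q))
    (h : s36g_alpha M q x ∈ D.V 0) :
    D.rb h5 0 ⟨_, h⟩ = (s59m_ZU M q hqM h5 P hP L₀ hunr).Ci.red ⟨x, hx⟩ :=
  Subtype.ext (D.r0α ⟨x, hx⟩ h)

/-- `rb 1 (α' x) = red_∞ x`. -/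
theorem rb1α (x : s34m_F ↥L₀ (M * q)) (hx : x ∈ s34m_Vinf (s59m_GU q P hP L₀ hunr) (M * q))
    (h : s36g_alpha M q x ∈ D.V 1) :
    D.rb h5 1 ⟨_, h⟩ = (s59m_ZU M q hqM h5 P hP L₀ hunr).Ci.red ⟨x, hx⟩ :=
  Subtype.ext (D.r1α ⟨x, hx⟩ h)

/-- `rb 1 (β' x) = red_0 x`. -/
theorem rb1β (x : s34m_F ↥L₀ (M * q))
    (hx : x ∈ s34m_Vzero (s59m_GU q P hP L₀ hunr) (algebraMap ↥L₀ Kb) M q hq.out hqM)
    (h : s36g_beta M q x ∈ D.V 1) :
    D.rb h5 1 ⟨_, h⟩ = (s59m_ZU M q hqM h5 P hP L₀ hunr).Cz.red ⟨x, hx⟩ :=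
  Subtype.ext (D.r1β ⟨x, hx⟩ h)

/-- `rb 2 (β' x) = red_0 x`. -/
theorem rb2β (x : s34m_F ↥L₀ (M * q))
    (hx : x ∈ s34m_Vzero (s59m_GU q P hP L₀ hunr) (algebraMap ↥L₀ Kb) M q hq.out hqM)
    (h : s36g_beta M q x ∈ D.V 2) :
    D.rb h5 2 ⟨_, h⟩ = (s59m_ZU M q hqM h5 P hP L₀ hunr).Cz.red ⟨x, hx⟩ :=
  Subtype.ext (D.r2β ⟨x, hx⟩ h)

/-- constants of `A₀` lie in the three rings. -/
theorem const_mem (j : Fin 3) (c : ↥L₀) (hc : c ∈ (s59m_GU q P hP L₀ hunr).A) :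
    algebraMap ↥L₀ (s34m_F ↥L₀ (M * q * q)) c ∈ D.V j :=
  s36b_const_mem (s59m_GU q P hP L₀ hunr) (algebraMap ↥L₀ Kb) M q hq.out hqM D.pkg.1 j ⟨c, hc⟩

/-- the reduction of a constant. -/
theorem rb_const (j : Fin 3) (c : (s59m_GU q P hP L₀ hunr).A) :
    D.rb h5 j ⟨algebraMap ↥L₀ (s34m_F ↥L₀ (M * q * q)) (c : ↥L₀), D.const_mem j c c.2⟩ =
      algebraMap (IsLocalRing.ResidueField ↥(s18q_A0 P L₀))
        ↥(modularFunctionFieldFullC (IsLocalRing.ResidueField ↥(s18q_A0 P L₀)) M)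
        ((s59m_GU q P hP L₀ hunr).π c) := by
  have eα : s36g_alpha M q (algebraMap ↥L₀ (s34m_F ↥L₀ (M * q)) (c : ↥L₀)) =
      algebraMap ↥L₀ (s34m_F ↥L₀ (M * q * q)) (c : ↥L₀) :=
    (heckeAlphaBar ↥L₀ (M * q) q).commutes _
  have eβ : s36g_beta M q (algebraMap ↥L₀ (s34m_F ↥L₀ (M * q)) (c : ↥L₀)) =
      algebraMap ↥L₀ (s34m_F ↥L₀ (M * q * q)) (c : ↥L₀) :=
    (heckeBetaBar ↥L₀ (M * q) q).commutes _
  have hi : algebraMap ↥L₀ (s34m_F ↥L₀ (M * q)) (c : ↥L₀) ∈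
      s34m_Vinf (s59m_GU q P hP L₀ hunr) (M * q) :=
    s34c_const_mem_VV (s59m_GU q P hP L₀ hunr) (algebraMap ↥L₀ Kb) M q hq.out hqM true c
  have hz : algebraMap ↥L₀ (s34m_F ↥L₀ (M * q)) (c : ↥L₀) ∈
      s34m_Vzero (s59m_GU q P hP L₀ hunr) (algebraMap ↥L₀ Kb) M q hq.out hqM :=
    s34c_const_mem_VV (s59m_GU q P hP L₀ hunr) (algebraMap ↥L₀ Kb) M q hq.out hqM false c
  fin_cases j
  · have hm : s36g_alpha M q (algebraMap ↥L₀ (s34m_F ↥L₀ (M * q)) (c : ↥L₀)) ∈ D.V 0 := by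
      rw [eα]; exact D.const_mem 0 c c.2
    have e1 : (⟨algebraMap ↥L₀ (s34m_F ↥L₀ (M * q * q)) (c : ↥L₀), D.const_mem 0 c c.2⟩ : D.V 0) =
        ⟨_, hm⟩ := Subtype.ext eα.symm
    show D.rb h5 0 ⟨_, D.const_mem 0 c c.2⟩ = _
    rw [e1, D.rb0α h5 _ hi hm]
    exact (s59m_ZU M q hqM h5 P hP L₀ hunr).Ci.red_const c
  · have hm : s36g_alpha M q (algebraMap ↥L₀ (s34m_F ↥L₀ (M * q)) (c : ↥L₀)) ∈ D.V 1 := by
      rw [eα]; exact D.const_mem 1 c c.2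
    have e1 : (⟨algebraMap ↥L₀ (s34m_F ↥L₀ (M * q * q)) (c : ↥L₀), D.const_mem 1 c c.2⟩ : D.V 1) =
        ⟨_, hm⟩ := Subtype.ext eα.symm
    show D.rb h5 1 ⟨_, D.const_mem 1 c c.2⟩ = _
    rw [e1, D.rb1α h5 _ hi hm]
    exact (s59m_ZU M q hqM h5 P hP L₀ hunr).Ci.red_const c
  · have hm : s36g_beta M q (algebraMap ↥L₀ (s34m_F ↥L₀ (M * q)) (c : ↥L₀)) ∈ D.V 2 := by
      rw [eβ]; exact D.const_mem 2 c c.2
    have e1 : (⟨algebraMap ↥L₀ (s34m_F ↥L₀ (M * q * q)) (c : ↥L₀), D.const_mem 2 c c.2⟩ : D.V 2) =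
        ⟨_, hm⟩ := Subtype.ext eβ.symm
    show D.rb h5 2 ⟨_, D.const_mem 2 c c.2⟩ = _
    rw [e1, D.rb2β h5 _ hz hm]
    exact (s59m_ZU M q hqM h5 P hP L₀ hunr).Cz.red_const c

end s59m_L2Data

/-! ### The chart, the triple points, GLUE₃ and the concrete frame -/

/-- **the chart of level `M q²`**: the places where `α' j_{M q} = j_{M q²}` is regular. -/
abbrev s59m_S2 : Set (Place ↥L₀ (s34m_F ↥L₀ (M * q * q))) :=
  s18_chart1 (L₀ := ↥L₀) (s36g_alpha M q (s18g_jF (K := ↥L₀) (M * q)))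

variable {M q hqM P hP L₀ hunr}

/-- **the places of the generic fibre through the triple points** of the chart. -/
def s59m_L2Data.N₃ (D : s59m_L2Data M q hqM P hP L₀ hunr) :
    Set (Place ↥L₀ (s34m_F ↥L₀ (M * q * q))) :=
  {Q | Q ∈ s59m_S2 M q L₀ ∧
    ∃ 𝔫 : Ideal (s34x_ring (L₀ := ↥L₀) (s34x_infRing D.V) (s59m_S2 M q L₀)),
      s59m_IsMulti D.V (s59m_S2 M q L₀) 𝔫 ∧
      s34f_through (s34x_infRing D.V) (s59m_S2 M q L₀) 𝔫 Q}

variable [CharP (IsLocalRing.ResidueField ↥(s18q_A0 P L₀)) q]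
  [PerfectField (IsLocalRing.ResidueField ↥(s18q_A0 P L₀))]

/-- **The contract [L2-6] = GLUE₃** for the concrete data: the three residues of a function integral at the three rings
and regular at the places through the triple points lie in the `∞`-branch `Wi s` of every node `s` of level `M q`, with
the same value. -/
def s59m_Glue3C (D : s59m_L2Data M q hqM P hP L₀ hunr) : Prop :=
  ∀ (y : s34m_F ↥L₀ (M * q * q)) (hy : ∀ j, y ∈ D.V j), (∀ Q ∈ D.N₃, y ∈ Q.toValuationSubring) →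
    ∀ (s : s59m_NodeU M q hqM P hP L₀ hunr) (j : Fin 3),
      ∃ (hj : D.rb h5 j ⟨y, hy j⟩ ∈ (s59m_ZU M q hqM h5 P hP L₀ hunr).Wi s)
        (h1 : D.rb h5 1 ⟨y, hy 1⟩ ∈ (s59m_ZU M q hqM h5 P hP L₀ hunr).Wi s),
        (s59m_ZU M q hqM h5 P hP L₀ hunr).evi s ⟨_, hj⟩ =
          (s59m_ZU M q hqM h5 P hP L₀ hunr).evi s ⟨_, h1⟩

/-- **THE CONCRETE FRAME** of level `M q²` (GLUE₃ is the leaf [L2-6]). -/
def s59m_frame3C (D : s59m_L2Data M q hqM P hP L₀ hunr) (hglue : s59m_Glue3C h5 D) :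
    s59m_Frame3 (s59m_ZU M q hqM h5 P hP L₀ hunr) (s34m_F ↥L₀ (M * q * q)) where
  V := D.V
  r := D.rb h5
  N₃ := D.N₃
  const_mem := fun j c hc => D.const_mem j c hc
  r_const := fun j c => D.rb_const h5 j c
  glue₃ := hglue

@[simp] theorem s59m_frame3C_V (D : s59m_L2Data M q hqM P hP L₀ hunr) (hglue : s59m_Glue3C h5 D) :
    (s59m_frame3C h5 D hglue).V = D.V := rfl

@[simp] theorem s59m_frame3C_r (D : s59m_L2Data M q hqM P hP L₀ hunr) (hglue : s59m_Glue3C h5 D)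
    (j : Fin 3) : (s59m_frame3C h5 D hglue).r j = D.rb h5 j := rfl

@[simp] theorem s59m_frame3C_N₃ (D : s59m_L2Data M q hqM P hP L₀ hunr) (hglue : s59m_Glue3C h5 D) :
    (s59m_frame3C h5 D hglue).N₃ = D.N₃ := rfl

end Fermat.Agent.Lib.S59
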