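/-
Programme (R2), node **[CAR]**, leaf W5/[L2-7 HECKE₃] (helper3, prefix `s59u_`), part 7:
**MULTIPLE POINTS OF LEVEL `M q²` ↔ NODES OF LEVEL `M q`** (the hypothesis `hN₃` of [T-NODE₃]; step (1) of GLUE₃).

Frame of S36: `V : Fin 3 → ValuationSubring 𝓕(M q²)` with the valuation package, `w₁` a base function of level `M q`
(`s35g_BaseData`), `B₁ = s34x_ring (⨅ VV) (chart1 w₁)`, `B₂ = s34x_ring (⨅ V) (chart1 (α' w₁))`, `χ = s36q_chartMap … α'`.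

* `s59u_multi_comap_isNode`   : a multiple point `𝔫₂` of `B₂` (`s59m_IsMulti`) contracts to a NODE `χ⁻¹ 𝔫₂` of `B₁`;
* `s59u_through_comap`        : a place `Q` through `𝔫₂` has its `α'`-restriction through `χ⁻¹ 𝔫₂`;
* `s59u_exists_multi_over`    : (FIB) ⇒ over a node `𝔫₁` of `B₁` and through a given place `Q` (of the chart, with
  `α'`-restriction through `𝔫₁`) there is a multiple point `𝔫₂` of `B₂` with `χ⁻¹ 𝔫₂ = 𝔫₁`;
* `s59u_multi_comap_injective` : (FIB) ⇒ two multiple points with the same contraction are equal;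
* **`s59u_multiPlaces_iff`**  : `Q` passes through a multiple point iff its `α'`-restriction passes through a node;
* `s59u_baseData_jF`, `s59u_sat_jF`, `s59u_crossReg_jF`, **`s59u_geoFib_jF`** : the base function `w₁ = j_{M q}` at `q ≥ 5`,
  `ν₂(M) = ν₃(M) = 0`, `ϖ = q`: base data, saturation, regular crossings and (FIB) (from S36's leaves);
* **`s59u_multiPlaces_iff_jF`** : the instance for `w₁ = j_{M q}`.
-/
import Fermat.Agent.Lib.S59.MCarGlob3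
import Fermat.Agent.Lib.S59.UCarCorrInst
import Fermat.Agent.Lib.S36.GGeoInst
import Fermat.Agent.Lib.S36.XLeafCross

set_option autoImplicit false
set_option linter.style.haveILetI false
set_option linter.unusedSectionVars false
set_option linter.unusedVariables false
set_option synthInstance.maxHeartbeats 400000

noncomputable section

namespace Fermat.Agent.Lib.S59

open ModularCurve HahnSeries AlgebraicCurve Fermat.Agent.Lib.FF Fermat.Agent.Lib.S18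
  Fermat.Agent.Lib.S28 Fermat.Agent.Lib.S37 Fermat.Agent.Lib.S34
  Fermat.Agent.Lib.S35 Fermat.Agent.Lib.S36 Fermat.Agent.Lib.S33 Fermat.Agent.Lib.S44

local notation "Kb" => AlgebraicClosure ℚ

section Abs

variable {K₀ : Type} [Field K₀] [Algebra ℚ K₀] [CharZero K₀] {κ : Type} [Field κ]
  (G : s18g_GaussData K₀ κ) [IsDiscreteValuationRing G.A]
  (φ : K₀ →+* Kb) (M q : ℕ) [NeZero M] [NeZero q] (hq : q.Prime) (hqM : ¬ q ∣ M)
  {V : Fin 3 → ValuationSubring (s34m_F K₀ (M * q * q))}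
  (hC : s36g_ValComap G φ M q hq hqM V) (w₁ : s34m_F K₀ (M * q))
  (hB : s35g_BaseData G φ M q hq hqM w₁)

/-- the component ideal `B₁ ∩ ϖ O_i` is the ideal of the non-units of `O_i` in `B₁`. -/
theorem s59u_comp_le_iff (S : Set (Place K₀ (s34m_F K₀ (M * q))))
    (𝔫 : Ideal (s34x_ring (L₀ := K₀) (s34x_infRing (s34m_VV G φ M q hq hqM)) S)) (i : Bool) :
    s33s_comp (s34m_VV G φ M q hq hqM) (s34m_unif G (M * q)) S i ≤ 𝔫 ↔
      s36q_compThrough (s34m_VV G φ M q hq hqM) S 𝔫 i := by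
  have hU := s36b_isUnif_VV G φ M q hq hqM i
  constructor
  · intro h b hb
    obtain ⟨c, hc, e⟩ := s36q_fi_gen G φ M q hq hqM i _ hb
    exact h ((s33s_mem_comp _ _ _ i b).mpr ⟨c, hc, e⟩)
  · intro h b hb
    obtain ⟨z, hz, e⟩ := (s33s_mem_comp _ _ _ i b).mp hb
    apply h b
    rw [e, ValuationSubring.mem_nonunits_iff_or]
    by_cases h0 : s34m_unif G (M * q) * z = 0
    · exact Or.inl h0
    · right
      intro hinv
      apply hU.2.1
      have e2 : (s34m_unif G (M * q))⁻¹ = (s34m_unif G (M * q) * z)⁻¹ * z := by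
        have hz0 : z ≠ 0 := right_ne_zero_of_mul h0
        have hπ0 := s34m_unif_ne_zero G (M * q)
        field_simp
      rw [e2]
      exact (s34m_VV G φ M q hq hqM i).mul_mem _ _ hinv hz

/-- **a multiple point of level `M q²` contracts to a node of level `M q`.** -/
theorem s59u_multi_comap_isNode (hCompl : s36g_ValComplete G φ M q hq hqM V)
    (hInd : s36g_ValIndep M q V)
    (𝔫₂ : Ideal (s34x_ring (L₀ := K₀) (s34x_infRing V) (s18_chart1 (s36g_alpha M q w₁))))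
    (h𝔫₂ : s59m_IsMulti V (s18_chart1 (L₀ := K₀) (s36g_alpha M q w₁)) 𝔫₂) :
    s33s_IsNode (s34m_VV G φ M q hq hqM) (s34m_unif G (M * q)) (s18_chart1 (L₀ := K₀) w₁)
      (𝔫₂.comap (s36q_chartMap (s34m_VV G φ M q hq hqM) V (s18_chart1 (L₀ := K₀) w₁)
        (s18_chart1 (L₀ := K₀) (s36g_alpha M q w₁)) (s36g_alpha M q)
        (s36p_chart1_alpha G φ M q hq hqM hC w₁ hB))) := by
  haveI := h𝔫₂.1
  haveI : 𝔫₂.IsPrime := h𝔫₂.1.isPrime
  have hint := s36p_chart1_int_alpha G φ M q hq hqM hC hCompl hInd w₁ hB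
    (s36p_chart1_alpha G φ M q hq hqM hC w₁ hB)
  have hαi := fun x => s36b_alpha_mem_iff G φ M q hq hqM hC x
  refine ⟨Ideal.isMaximal_comap_of_isIntegral_of_isMaximal' _ hint 𝔫₂, ?_, ?_⟩
  · rw [s59u_comp_le_iff]
    exact s36q_compThrough_comap (s34m_VV G φ M q hq hqM) V (s18_chart1 (L₀ := K₀) w₁)
      (s18_chart1 (L₀ := K₀) (s36g_alpha M q w₁)) (s36g_alpha M q)
      (s36p_chart1_alpha G φ M q hq hqM hC w₁ hB) 𝔫₂ true 0 (fun x => (hαi x).1) (h𝔫₂.2 0)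
  · rw [s59u_comp_le_iff]
    exact s36q_compThrough_comap (s34m_VV G φ M q hq hqM) V (s18_chart1 (L₀ := K₀) w₁)
      (s18_chart1 (L₀ := K₀) (s36g_alpha M q w₁)) (s36g_alpha M q)
      (s36p_chart1_alpha G φ M q hq hqM hC w₁ hB) 𝔫₂ false 2 (fun x => (hαi x).2.2) (h𝔫₂.2 2)

/-- **a place through `𝔫₂` has its `α'`-restriction through the contraction of `𝔫₂`.** -/
theorem s59u_through_comap
    (𝔫₂ : Ideal (s34x_ring (L₀ := K₀) (s34x_infRing V) (s18_chart1 (s36g_alpha M q w₁))))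
    (Q : Place K₀ (s34m_F K₀ (M * q * q))) (Qa : Place K₀ (s34m_F K₀ (M * q)))
    (hQa : ∀ y, y ∈ Qa.toValuationSubring ↔ s36g_alpha M q y ∈ Q.toValuationSubring)
    (hth : s34f_through (s34x_infRing V) (s18_chart1 (L₀ := K₀) (s36g_alpha M q w₁)) 𝔫₂ Q) :
    s34f_through (s34x_infRing (s34m_VV G φ M q hq hqM)) (s18_chart1 (L₀ := K₀) w₁)
      (𝔫₂.comap (s36q_chartMap (s34m_VV G φ M q hq hqM) V (s18_chart1 (L₀ := K₀) w₁)
        (s18_chart1 (L₀ := K₀) (s36g_alpha M q w₁)) (s36g_alpha M q)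
        (s36p_chart1_alpha G φ M q hq hqM hC w₁ hB))) Qa := by
  intro b hb0 hb
  rw [Ideal.mem_comap]
  have hαb0 : s36g_alpha M q (b : s34m_F K₀ (M * q)) ≠ 0 := (_root_.map_ne_zero _).mpr hb0
  refine hth _ hαb0 ?_
  rw [s36q_chartMap_coe, s59u_ord_pos_iff Q hαb0, ← map_inv₀, ← hQa, ← s59u_ord_pos_iff Qa hb0]
  exact hb

variable (hsat : ∀ Q : Place K₀ (s34m_F K₀ (M * q * q)),
      s36g_alpha M q w₁ ∈ Q.toValuationSubring ↔ s36g_beta M q w₁ ∈ Q.toValuationSubring)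

/-- going-up: over a maximal ideal `𝔫₁` of `B₁` containing the contraction of the centre of `Q` there is a maximal ideal of
`B₂` containing the centre. -/
theorem s59u_exists_over_centre (hCompl : s36g_ValComplete G φ M q hq hqM V)
    (hInd : s36g_ValIndep M q V)
    (𝔫₁ : Ideal (s34x_ring (L₀ := K₀) (s34x_infRing (s34m_VV G φ M q hq hqM))
      (s18_chart1 (L₀ := K₀) w₁))) (h𝔫₁max : 𝔫₁.IsMaximal)
    (Q : Place K₀ (s34m_F K₀ (M * q * q))) (hQ : Q ∈ s18_chart1 (L₀ := K₀) (s36g_alpha M q w₁))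
    (Qa : Place K₀ (s34m_F K₀ (M * q)))
    (hQa : ∀ y, y ∈ Qa.toValuationSubring ↔ s36g_alpha M q y ∈ Q.toValuationSubring)
    (hth : s34f_through (s34x_infRing (s34m_VV G φ M q hq hqM)) (s18_chart1 (L₀ := K₀) w₁) 𝔫₁ Qa) :
    ∃ 𝔫₂ : Ideal (s34x_ring (L₀ := K₀) (s34x_infRing V) (s18_chart1 (s36g_alpha M q w₁))),
      𝔫₂.IsMaximal ∧
      s34f_through (s34x_infRing V) (s18_chart1 (L₀ := K₀) (s36g_alpha M q w₁)) 𝔫₂ Q ∧
      𝔫₂.comap (s36q_chartMap (s34m_VV G φ M q hq hqM) V (s18_chart1 (L₀ := K₀) w₁)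
        (s18_chart1 (L₀ := K₀) (s36g_alpha M q w₁)) (s36g_alpha M q)
        (s36p_chart1_alpha G φ M q hq hqM hC w₁ hB)) = 𝔫₁ := by
  classical
  have hγ := s36p_chart1_alpha G φ M q hq hqM hC w₁ hB
  have hint := s36p_chart1_int_alpha G φ M q hq hqM hC hCompl hInd w₁ hB hγ
  letI alg : Algebra (s34x_ring (L₀ := K₀) (s34x_infRing (s34m_VV G φ M q hq hqM))
      (s18_chart1 (L₀ := K₀) w₁))
      (s34x_ring (L₀ := K₀) (s34x_infRing V) (s18_chart1 (s36g_alpha M q w₁))) :=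
    (s36q_chartMap (s34m_VV G φ M q hq hqM) V (s18_chart1 (L₀ := K₀) w₁)
      (s18_chart1 (L₀ := K₀) (s36g_alpha M q w₁)) (s36g_alpha M q) hγ).toAlgebra
  have halg : algebraMap (s34x_ring (L₀ := K₀) (s34x_infRing (s34m_VV G φ M q hq hqM))
      (s18_chart1 (L₀ := K₀) w₁))
      (s34x_ring (L₀ := K₀) (s34x_infRing V) (s18_chart1 (s36g_alpha M q w₁))) =
      s36q_chartMap (s34m_VV G φ M q hq hqM) V (s18_chart1 (L₀ := K₀) w₁)
      (s18_chart1 (L₀ := K₀) (s36g_alpha M q w₁)) (s36g_alpha M q) hγ := rfl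
  haveI : Algebra.IsIntegral (s34x_ring (L₀ := K₀) (s34x_infRing (s34m_VV G φ M q hq hqM))
      (s18_chart1 (L₀ := K₀) w₁))
      (s34x_ring (L₀ := K₀) (s34x_infRing V) (s18_chart1 (s36g_alpha M q w₁))) := ⟨hint⟩
  haveI := h𝔫₁max
  haveI h𝔫₁p : 𝔫₁.IsPrime := h𝔫₁max.isPrime
  -- the centre of `Q` contracts into `𝔫₁`
  have hle : (s59u_centre (s34x_infRing V) (s18_chart1 (L₀ := K₀) (s36g_alpha M q w₁)) Q hQ).comap
      (algebraMap (s34x_ring (L₀ := K₀) (s34x_infRing (s34m_VV G φ M q hq hqM))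
        (s18_chart1 (L₀ := K₀) w₁))
        (s34x_ring (L₀ := K₀) (s34x_infRing V) (s18_chart1 (s36g_alpha M q w₁)))) ≤ 𝔫₁ := by
    intro y hy
    rw [Ideal.mem_comap, halg, s59u_mem_centre, s36q_chartMap_coe] at hy
    by_cases hy0 : (y : s34m_F K₀ (M * q)) = 0
    · have : y = 0 := Subtype.ext hy0
      rw [this]
      exact 𝔫₁.zero_mem
    rcases hy with hy | hy
    · exact absurd ((map_eq_zero (s36g_alpha M q)).mp hy) hy0
    · refine hth y hy0 ?_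
      rw [s59u_ord_pos_iff Qa hy0, hQa, map_inv₀,
        ← s59u_ord_pos_iff Q ((_root_.map_ne_zero (s36g_alpha M q)).mpr hy0)]
      exact hy
  obtain ⟨𝔫₂, h𝔫₂ge, h𝔫₂p, h𝔫₂c⟩ := Ideal.exists_ideal_over_prime_of_isIntegral 𝔫₁
    (s59u_centre (s34x_infRing V) (s18_chart1 (L₀ := K₀) (s36g_alpha M q w₁)) Q hQ) hle
  haveI := h𝔫₂p
  have h𝔫₂max : 𝔫₂.IsMaximal :=
    Ideal.isMaximal_of_isIntegral_of_isMaximal_comap 𝔫₂ (by rw [h𝔫₂c]; exact h𝔫₁max)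
  refine ⟨𝔫₂, h𝔫₂max, ?_, h𝔫₂c⟩
  rw [s59u_through_iff _ _ Q hQ]
  exact h𝔫₂ge

/-- `ϖ` lies in every ideal of `B₂` whose contraction contains the component ideal of `V'_∞`. -/
theorem s59u_unif_mem_of_comap
    (𝔫₂ : Ideal (s34x_ring (L₀ := K₀) (s34x_infRing V) (s18_chart1 (s36g_alpha M q w₁))))
    (h : s33s_comp (s34m_VV G φ M q hq hqM) (s34m_unif G (M * q)) (s18_chart1 (L₀ := K₀) w₁) true ≤
      𝔫₂.comap (s36q_chartMap (s34m_VV G φ M q hq hqM) V (s18_chart1 (L₀ := K₀) w₁)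
        (s18_chart1 (L₀ := K₀) (s36g_alpha M q w₁)) (s36g_alpha M q)
        (s36p_chart1_alpha G φ M q hq hqM hC w₁ hB))) :
    s34x_const (s34x_infRing V) (s18_chart1 (L₀ := K₀) (s36g_alpha M q w₁))
      ((G.ϖ : G.A) : K₀) (s34x_inf_const_mem V G.A (s36b_const_mem G φ M q hq hqM hC) G.ϖ) ∈ 𝔫₂ := by
  have hγ := s36p_chart1_alpha G φ M q hq hqM hC w₁ hB
  have hπB : s34m_unif G (M * q) ∈ s34x_ring (L₀ := K₀)
      (s34x_infRing (s34m_VV G φ M q hq hqM)) (s18_chart1 (L₀ := K₀) w₁) :=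
    ⟨(s34x_mem_infRing _ _).mpr fun i => s34m_unif_mem_VV G φ M q hq hqM i,
      fun Q' _ => Q'.algebraMap_mem' _⟩
  have h1 := h ((s33s_mem_comp _ _ _ true (⟨s34m_unif G (M * q), hπB⟩ : s34x_ring (L₀ := K₀)
      (s34x_infRing (s34m_VV G φ M q hq hqM)) (s18_chart1 (L₀ := K₀) w₁))).mpr
      ⟨1, (s34m_VV G φ M q hq hqM true).one_mem, by rw [mul_one]⟩)
  rw [Ideal.mem_comap] at h1
  have e : s36q_chartMap (s34m_VV G φ M q hq hqM) V (s18_chart1 (L₀ := K₀) w₁)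
      (s18_chart1 (L₀ := K₀) (s36g_alpha M q w₁)) (s36g_alpha M q) hγ
      ⟨s34m_unif G (M * q), hπB⟩ =
      s34x_const (s34x_infRing V) (s18_chart1 (L₀ := K₀) (s36g_alpha M q w₁))
        ((G.ϖ : G.A) : K₀) (s34x_inf_const_mem V G.A (s36b_const_mem G φ M q hq hqM hC) G.ϖ) := by
    apply Subtype.ext
    rw [s36q_chartMap_coe, s34x_const_coe]
    exact (heckeAlphaBar K₀ (M * q) q).commutes _
  rw [e] at h1
  exact h1

/-- **(FIB) ⇒ over a node and through a given place there is a multiple point.** -/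
theorem s59u_exists_multi_over (hCompl : s36g_ValComplete G φ M q hq hqM V)
    (hInd : s36g_ValIndep M q V)
    (hFib : s36g_GeoFib G φ M q hq hqM hC w₁ hB hsat)
    (𝔫₁ : Ideal (s34x_ring (L₀ := K₀) (s34x_infRing (s34m_VV G φ M q hq hqM))
      (s18_chart1 (L₀ := K₀) w₁)))
    (h𝔫₁ : s33s_IsNode (s34m_VV G φ M q hq hqM) (s34m_unif G (M * q)) (s18_chart1 (L₀ := K₀) w₁) 𝔫₁)
    (Q : Place K₀ (s34m_F K₀ (M * q * q))) (hQ : Q ∈ s18_chart1 (L₀ := K₀) (s36g_alpha M q w₁))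
    (Qa : Place K₀ (s34m_F K₀ (M * q)))
    (hQa : ∀ y, y ∈ Qa.toValuationSubring ↔ s36g_alpha M q y ∈ Q.toValuationSubring)
    (hth : s34f_through (s34x_infRing (s34m_VV G φ M q hq hqM)) (s18_chart1 (L₀ := K₀) w₁) 𝔫₁ Qa) :
    ∃ 𝔫₂ : Ideal (s34x_ring (L₀ := K₀) (s34x_infRing V) (s18_chart1 (s36g_alpha M q w₁))),
      s59m_IsMulti V (s18_chart1 (L₀ := K₀) (s36g_alpha M q w₁)) 𝔫₂ ∧
      s34f_through (s34x_infRing V) (s18_chart1 (L₀ := K₀) (s36g_alpha M q w₁)) 𝔫₂ Q ∧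
      𝔫₂.comap (s36q_chartMap (s34m_VV G φ M q hq hqM) V (s18_chart1 (L₀ := K₀) w₁)
        (s18_chart1 (L₀ := K₀) (s36g_alpha M q w₁)) (s36g_alpha M q)
        (s36p_chart1_alpha G φ M q hq hqM hC w₁ hB)) = 𝔫₁ := by
  have hγ := s36p_chart1_alpha G φ M q hq hqM hC w₁ hB
  have hint := s36p_chart1_int_alpha G φ M q hq hqM hC hCompl hInd w₁ hB hγ
  have hαi := fun x => s36b_alpha_mem_iff G φ M q hq hqM hC x
  obtain ⟨𝔫₂, h𝔫₂max, hth₂, h𝔫₂c⟩ := s59u_exists_over_centre G φ M q hq hqM hC w₁ hB hCompl hInd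
    𝔫₁ h𝔫₁.1 Q hQ Qa hQa hth
  haveI : 𝔫₂.IsPrime := h𝔫₂max.isPrime
  -- the two components of level `M q` pass through the contraction
  have hT : s36q_compThrough (s34m_VV G φ M q hq hqM) (s18_chart1 (L₀ := K₀) w₁)
      (s36q_pt (s34m_VV G φ M q hq hqM) V (s18_chart1 (L₀ := K₀) w₁)
        (s18_chart1 (L₀ := K₀) (s36g_alpha M q w₁)) (s36g_alpha M q) hγ 𝔫₂) true := by
    show s36q_compThrough _ _ (𝔫₂.comap _) true
    rw [h𝔫₂c, ← s59u_comp_le_iff]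
    exact h𝔫₁.2.1
  have hF : s36q_compThrough (s34m_VV G φ M q hq hqM) (s18_chart1 (L₀ := K₀) w₁)
      (s36q_pt (s34m_VV G φ M q hq hqM) V (s18_chart1 (L₀ := K₀) w₁)
        (s18_chart1 (L₀ := K₀) (s36g_alpha M q w₁)) (s36g_alpha M q) hγ 𝔫₂) false := by
    show s36q_compThrough _ _ (𝔫₂.comap _) false
    rw [h𝔫₂c, ← s59u_comp_le_iff]
    exact h𝔫₁.2.2
  have hϖ := s59u_unif_mem_of_comap G φ M q hq hqM hC w₁ hB 𝔫₂ (by rw [h𝔫₂c]; exact h𝔫₁.2.1)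
  have hfib := (hFib 𝔫₂ h𝔫₂max hϖ).1 hT hF
  refine ⟨𝔫₂, ⟨h𝔫₂max, ?_⟩, hth₂, h𝔫₂c⟩
  intro j
  have key : ∀ (i : Bool) (j : Fin 3),
      (∀ x : s34m_F K₀ (M * q), s36g_alpha M q x ∈ V j ↔ x ∈ s34m_VV G φ M q hq hqM i) →
      s36q_compThrough (s34m_VV G φ M q hq hqM) (s18_chart1 (L₀ := K₀) w₁)
        (s36q_pt (s34m_VV G φ M q hq hqM) V (s18_chart1 (L₀ := K₀) w₁)
          (s18_chart1 (L₀ := K₀) (s36g_alpha M q w₁)) (s36g_alpha M q) hγ 𝔫₂) i →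
      s36q_compThrough V (s18_chart1 (L₀ := K₀) (s36g_alpha M q w₁)) 𝔫₂ j :=
    fun i j hc hi => s36q_comp_through_of_integral (s34m_VV G φ M q hq hqM) V
      (s18_chart1 (L₀ := K₀) w₁) (s18_chart1 (L₀ := K₀) (s36g_alpha M q w₁)) (s36g_alpha M q) hγ
      𝔫₂ hint hfib i j hc hi
  fin_cases j
  · exact key true 0 (fun x => (hαi x).1) hT
  · exact key true 1 (fun x => (hαi x).2.1) hT
  · exact key false 2 (fun x => (hαi x).2.2) hF

/-- **(FIB) ⇒ a multiple point is determined by its contraction** (two multiple points over the same node are equal). -/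
theorem s59u_multi_comap_injective (hCompl : s36g_ValComplete G φ M q hq hqM V)
    (hInd : s36g_ValIndep M q V)
    (hFib : s36g_GeoFib G φ M q hq hqM hC w₁ hB hsat)
    (𝔫 𝔫' : Ideal (s34x_ring (L₀ := K₀) (s34x_infRing V) (s18_chart1 (s36g_alpha M q w₁))))
    (h𝔫 : s59m_IsMulti V (s18_chart1 (L₀ := K₀) (s36g_alpha M q w₁)) 𝔫)
    (h𝔫' : 𝔫'.IsPrime)
    (he : 𝔫'.comap (s36q_chartMap (s34m_VV G φ M q hq hqM) V (s18_chart1 (L₀ := K₀) w₁)
        (s18_chart1 (L₀ := K₀) (s36g_alpha M q w₁)) (s36g_alpha M q)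
        (s36p_chart1_alpha G φ M q hq hqM hC w₁ hB)) =
      𝔫.comap (s36q_chartMap (s34m_VV G φ M q hq hqM) V (s18_chart1 (L₀ := K₀) w₁)
        (s18_chart1 (L₀ := K₀) (s36g_alpha M q w₁)) (s36g_alpha M q)
        (s36p_chart1_alpha G φ M q hq hqM hC w₁ hB))) : 𝔫' = 𝔫 := by
  haveI : 𝔫.IsPrime := h𝔫.1.isPrime
  have hnode := s59u_multi_comap_isNode G φ M q hq hqM hC w₁ hB hCompl hInd 𝔫 h𝔫
  have hT : s36q_compThrough (s34m_VV G φ M q hq hqM) (s18_chart1 (L₀ := K₀) w₁)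
      (s36q_pt (s34m_VV G φ M q hq hqM) V (s18_chart1 (L₀ := K₀) w₁)
        (s18_chart1 (L₀ := K₀) (s36g_alpha M q w₁)) (s36g_alpha M q)
        (s36p_chart1_alpha G φ M q hq hqM hC w₁ hB) 𝔫) true :=
    (s59u_comp_le_iff G φ M q hq hqM _ _ true).mp hnode.2.1
  have hF : s36q_compThrough (s34m_VV G φ M q hq hqM) (s18_chart1 (L₀ := K₀) w₁)
      (s36q_pt (s34m_VV G φ M q hq hqM) V (s18_chart1 (L₀ := K₀) w₁)
        (s18_chart1 (L₀ := K₀) (s36g_alpha M q w₁)) (s36g_alpha M q)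
        (s36p_chart1_alpha G φ M q hq hqM hC w₁ hB) 𝔫) false :=
    (s59u_comp_le_iff G φ M q hq hqM _ _ false).mp hnode.2.2
  have hϖ := s59u_unif_mem_of_comap G φ M q hq hqM hC w₁ hB 𝔫 hnode.2.1
  exact (hFib 𝔫 h𝔫.1 hϖ).1 hT hF 𝔫' h𝔫' he

/-- **`Q` passes through a multiple point of level `M q²` iff its `α'`-restriction passes through a node of level
`M q`.** -/
theorem s59u_multiPlaces_iff (hCompl : s36g_ValComplete G φ M q hq hqM V)
    (hInd : s36g_ValIndep M q V)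
    (hFib : s36g_GeoFib G φ M q hq hqM hC w₁ hB hsat)
    (Q : Place K₀ (s34m_F K₀ (M * q * q))) (Qa : Place K₀ (s34m_F K₀ (M * q)))
    (hQa : ∀ y, y ∈ Qa.toValuationSubring ↔ s36g_alpha M q y ∈ Q.toValuationSubring) :
    (Q ∈ s18_chart1 (L₀ := K₀) (s36g_alpha M q w₁) ∧
      ∃ 𝔫 : Ideal (s34x_ring (L₀ := K₀) (s34x_infRing V) (s18_chart1 (s36g_alpha M q w₁))),
        s59m_IsMulti V (s18_chart1 (L₀ := K₀) (s36g_alpha M q w₁)) 𝔫 ∧
        s34f_through (s34x_infRing V) (s18_chart1 (L₀ := K₀) (s36g_alpha M q w₁)) 𝔫 Q) ↔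
    Qa ∈ s33s_nodePlaces (s34m_VV G φ M q hq hqM) (s34m_unif G (M * q))
      (s18_chart1 (L₀ := K₀) w₁) := by
  have hS : Qa ∈ s18_chart1 (L₀ := K₀) w₁ ↔ Q ∈ s18_chart1 (L₀ := K₀) (s36g_alpha M q w₁) :=
    hQa w₁
  constructor
  · rintro ⟨hQ, 𝔫₂, h𝔫₂, hth⟩
    exact ⟨hS.mpr hQ, _, s59u_multi_comap_isNode G φ M q hq hqM hC w₁ hB hCompl hInd 𝔫₂ h𝔫₂,
      s59u_through_comap G φ M q hq hqM hC w₁ hB 𝔫₂ Q Qa hQa hth⟩
  · rintro ⟨hQaS, 𝔫₁, h𝔫₁, hth⟩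
    obtain ⟨𝔫₂, h𝔫₂, hth₂, -⟩ := s59u_exists_multi_over G φ M q hq hqM hC w₁ hB hsat hCompl hInd
      hFib 𝔫₁ h𝔫₁ Q (hS.mp hQaS) Qa hQa hth
    exact ⟨hS.mp hQaS, 𝔫₂, h𝔫₂, hth₂⟩

end Abs

section JF

variable {K₀ : Type} [Field K₀] [NumberField K₀] {κ : Type} [Field κ]
  (G : s18g_GaussData K₀ κ) [IsDiscreteValuationRing G.A]
  (φ : K₀ →+* Kb) (M q : ℕ) [NeZero M] [NeZero q] (hq : q.Prime) (hqM : ¬ q ∣ M)
  [CharP κ q] [PerfectField κ]
  {V : Fin 3 → ValuationSubring (s34m_F K₀ (M * q * q))} {t : s34m_F K₀ (M * q * q)}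

/-- **`j` is a base function of level `M` for `q ≥ 5`** (the first case of `s36g_base_full`). -/
theorem s59u_baseFull_jF (h5 : 5 ≤ q) (hπ : Function.Surjective G.π) :
    s36g_BaseFull G φ M q hq hqM (s18g_jF (K := K₀) M) (s34m_jF_mem_Vinf G M) := by
  haveI : Fact q.Prime := ⟨hq⟩
  have hdeg : s18g_HDeg K₀ (M * q) := fun n b hb hn => s18g_exists_relation (M * q) φ hn b hb
  have e : heckeAlphaBar K₀ M q (s18g_jF (K := K₀) M) = s18g_jF (K := K₀) (M * q) :=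
    s34d2_alpha_j M q
  refine ⟨?_, ?_, ?_, fun Q hQ => s36p_reg_j φ M q hq hqM Q hQ, ?_, Or.inl ⟨h5, rfl⟩,
    s36b_hauptRel_jF M⟩
  · rw [e]
    exact ⟨s18g_jF_ne_zero (M * q), s18b_ffGen_jF (M * q) hdeg,
      s34m_jF_mem_VV G φ M q hq hqM, s34m_jF_inv_mem_VV G φ M q hq hqM,
      fun σ₀ => s34f_galois_jF (M * q) σ₀, s34f_alpha_j G φ M q hq hqM,
      s34f_alpha_inv G φ M q hq hqM, s35g_chartData_five_j1 M q hq hqM K₀ φ κ G hπ h5,
      s35g_chartData_five_j2 M q hq hqM K₀ φ κ G hπ h5⟩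
  · rw [e]
    exact s36p_sat_j φ M q hq
  · rw [s34m_redInf_jF]
    exact s34df_qExpand_jqModC q hq
  · rw [s34m_redInf_jF]
    exact s28v_transcendental_jqModC κ

/-- the base data of `w₁ = j_{M q}` (`q ≥ 5`). -/
theorem s59u_baseData_jF (h5 : 5 ≤ q) (hπ : Function.Surjective G.π) :
    s35g_BaseData G φ M q hq hqM (s18g_jF (K := K₀) (M * q)) := by
  have h := (s59u_baseFull_jF G φ M q hq hqM h5 hπ).1
  rwa [s34d2_alpha_j M q] at h

include φ hq in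
/-- the chart `{α' j_{M q} regular}` is `β'`-saturated. -/
theorem s59u_sat_jF (Q : Place K₀ (s34m_F K₀ (M * q * q))) :
    s36g_alpha M q (s18g_jF (K := K₀) (M * q)) ∈ Q.toValuationSubring ↔
      s36g_beta M q (s18g_jF (K := K₀) (M * q)) ∈ Q.toValuationSubring :=
  s36p_sat_j φ M q hq Q

/-- the crossings of the chart `{j regular}` of level `M q` are regular (`q ≥ 5`, `ν₂(M) = ν₃(M) = 0`, `ϖ = q`). -/
theorem s59u_crossReg_jF (h5 : 5 ≤ q) (h2 : nuTwo M = 0) (h3 : nuThree M = 0)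
    (hπ : Function.Surjective G.π) (hϖ : ((G.ϖ : G.A) : K₀) = (q : K₀)) :
    s36q_fi_CrossReg G φ M q hq hqM (s18g_jF (K := K₀) (M * q)) := by
  have h := s36b_leafCross M q hq hqM h2 h3 K₀ φ κ G hπ hϖ (s18g_jF (K := K₀) M)
    (s34m_jF_mem_Vinf G M) (s59u_baseFull_jF G φ M q hq hqM h5 hπ)
  rwa [s34d2_alpha_j M q] at h

/-- **(FIB) for `w₁ = j_{M q}`.** -/
theorem s59u_geoFib_jF (h5 : 5 ≤ q) (h2 : nuTwo M = 0) (h3 : nuThree M = 0)
    (hπ : Function.Surjective G.π) (hϖ : ((G.ϖ : G.A) : K₀) = (q : K₀))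
    (hP : s36g_ValPkg G φ M q hq hqM V t) :
    s36g_GeoFib G φ M q hq hqM hP.1 (s18g_jF (K := K₀) (M * q))
      (s59u_baseData_jF G φ M q hq hqM h5 hπ) (s59u_sat_jF φ M q hq) :=
  s36g_geoFib_of_crossReg G φ M q hq hqM hπ hP _ _ _
    (s59u_crossReg_jF G φ M q hq hqM h5 h2 h3 hπ hϖ)

/-- **`Q` passes through a multiple point of the chart `{α' j_{M q} regular}` of level `M q²` iff its `α'`-restriction
passes through a node of the chart `{j_{M q} regular}` of level `M q`.** -/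
theorem s59u_multiPlaces_iff_jF (h5 : 5 ≤ q) (h2 : nuTwo M = 0) (h3 : nuThree M = 0)
    (hπ : Function.Surjective G.π) (hϖ : ((G.ϖ : G.A) : K₀) = (q : K₀))
    (hP : s36g_ValPkg G φ M q hq hqM V t)
    (Q : Place K₀ (s34m_F K₀ (M * q * q))) (Qa : Place K₀ (s34m_F K₀ (M * q)))
    (hQa : ∀ y, y ∈ Qa.toValuationSubring ↔ heckeAlphaBar K₀ (M * q) q y ∈ Q.toValuationSubring) :
    (Q ∈ s18_chart1 (L₀ := K₀) (s36g_alpha M q (s18g_jF (K := K₀) (M * q))) ∧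
      ∃ 𝔫 : Ideal (s34x_ring (L₀ := K₀) (s34x_infRing V)
          (s18_chart1 (s36g_alpha M q (s18g_jF (K := K₀) (M * q))))),
        s59m_IsMulti V (s18_chart1 (L₀ := K₀) (s36g_alpha M q (s18g_jF (K := K₀) (M * q)))) 𝔫 ∧
        s34f_through (s34x_infRing V)
          (s18_chart1 (L₀ := K₀) (s36g_alpha M q (s18g_jF (K := K₀) (M * q)))) 𝔫 Q) ↔
    Qa ∈ s33s_nodePlaces (s34m_VV G φ M q hq hqM) (s34m_unif G (M * q))
      (s18_chart1 (L₀ := K₀) (s18g_jF (K := K₀) (M * q))) :=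
  s59u_multiPlaces_iff G φ M q hq hqM hP.1 _ (s59u_baseData_jF G φ M q hq hqM h5 hπ)
    (s59u_sat_jF φ M q hq) hP.2.2.2.1 hP.2.2.2.2.1
    (s59u_geoFib_jF G φ M q hq hqM h5 h2 h3 hπ hϖ hP) Q Qa hQa

end JF

end Fermat.Agent.Lib.S59
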