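/-
Programme (R) / node (H4′), family K (helper1, prefix `s59k_`): **(K-V), extensions of a valuation
subring to an algebraic extension** (Mathlib only).

`F/F₀` an algebraic field extension, `V` a valuation subring of `F₀`.  An EXTENSION of `V` is a valuation
subring `W` of `F` with `W.comap (algebraMap F₀ F) = V`.

* `s59k_exists_ext`      : extensions exist (Chevalley);
* `s59k_ext_mem`, `s59k_ext_nonunits`, `s59k_ext_val_eq_one` : `W ∩ F₀ = V`, `𝔪_W ∩ F₀ = 𝔪_V`, `W^× ∩ F₀ = V^×`;
* `s59k_ext_hnorm`       : if every `f ∈ F₀^×` is a constant (of a subfield `K` closed under roots) times a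
                           `V`-unit, the same holds for `F` and `W` (the value group does not grow).
-/
import Mathlib

set_option autoImplicit false
set_option linter.unusedSectionVars false
set_option linter.unusedVariables false

noncomputable section

namespace Fermat.Agent.Lib.S59

open Polynomial

variable {F₀ F : Type*} [Field F₀] [Field F] [Algebra F₀ F]

/-! ### Existence -/

/-- **Chevalley**: every valuation subring of `F₀` extends to `F`. -/
theorem s59k_exists_ext (V : ValuationSubring F₀) :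
    ∃ W : ValuationSubring F, W.comap (algebraMap F₀ F) = V := by
  obtain ⟨W, h, hloc⟩ := IsLocalRing.exists_factor_valuationRing
    (R := ↥V) ((algebraMap F₀ F).comp V.subtype)
  refine ⟨W, ?_⟩
  ext x
  rw [ValuationSubring.mem_comap]
  constructor
  · intro hx
    by_contra hxV
    have hx0 : x ≠ 0 := fun h0 => hxV (h0 ▸ V.zero_mem)
    have hinv : x⁻¹ ∈ V := (V.mem_or_inv_mem x).resolve_left hxV
    -- the image of `x⁻¹` is a unit of `W`, hence `x⁻¹` is a unit of `V`
    have hu : IsUnit (((algebraMap F₀ F).comp V.subtype).codRestrict W.toSubring h ⟨x⁻¹, hinv⟩) := by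
      refine isUnit_iff_exists_inv.mpr ⟨⟨algebraMap F₀ F x, hx⟩, Subtype.ext ?_⟩
      show algebraMap F₀ F x⁻¹ * algebraMap F₀ F x = 1
      rw [← map_mul, inv_mul_cancel₀ hx0, map_one]
    have hu' : IsUnit (⟨x⁻¹, hinv⟩ : ↥V) := hloc.map_nonunit _ hu
    obtain ⟨⟨y, hy⟩, hxy⟩ := isUnit_iff_exists_inv.mp hu'
    have e : x⁻¹ * y = 1 := congrArg Subtype.val hxy
    have : y = x := by
      have := congrArg (x * ·) e
      simp only [mul_one] at this
      rw [← mul_assoc, mul_inv_cancel₀ hx0, one_mul] at this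
      exact this
    exact hxV (this ▸ hy)
  · intro hx
    exact h ⟨x, hx⟩

/-! ### Basic properties of an extension -/

section Basic

variable {V : ValuationSubring F₀} {W : ValuationSubring F}
  (hW : W.comap (algebraMap F₀ F) = V)

include hW

theorem s59k_ext_mem (x : F₀) : algebraMap F₀ F x ∈ W ↔ x ∈ V := by
  rw [← hW, ValuationSubring.mem_comap]

theorem s59k_ext_nonunits (x : F₀) : algebraMap F₀ F x ∈ W.nonunits ↔ x ∈ V.nonunits := by
  rw [ValuationSubring.mem_nonunits_iff_or, ValuationSubring.mem_nonunits_iff_or, ← map_inv₀,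
    s59k_ext_mem hW, map_eq_zero]

theorem s59k_ext_val_lt_one (x : F₀) :
    W.valuation (algebraMap F₀ F x) < 1 ↔ V.valuation x < 1 :=
  s59k_ext_nonunits hW x

theorem s59k_ext_val_le_one (x : F₀) :
    W.valuation (algebraMap F₀ F x) ≤ 1 ↔ V.valuation x ≤ 1 := by
  rw [ValuationSubring.valuation_le_one_iff, ValuationSubring.valuation_le_one_iff,
    s59k_ext_mem hW]

theorem s59k_ext_val_eq_one (x : F₀) :
    W.valuation (algebraMap F₀ F x) = 1 ↔ V.valuation x = 1 := by
  constructor
  · intro h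
    refine le_antisymm ((s59k_ext_val_le_one hW x).mp h.le) (not_lt.mp fun hlt => ?_)
    exact absurd h ((s59k_ext_val_lt_one hW x).mpr hlt).ne
  · intro h
    refine le_antisymm ((s59k_ext_val_le_one hW x).mpr h.le) (not_lt.mp fun hlt => ?_)
    exact absurd h ((s59k_ext_val_lt_one hW x).mp hlt).ne

end Basic

/-! ### The value group does not grow -/

section Hnorm

variable {K : Type*} [Field K] [Algebra K F₀] [Algebra K F] [IsScalarTower K F₀ F]
  [Algebra.IsAlgebraic F₀ F]
  {V : ValuationSubring F₀} {W : ValuationSubring F}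
  (hW : W.comap (algebraMap F₀ F) = V)

include hW in
/-- **(hnorm) for an extension.** -/
theorem s59k_ext_hnorm (hroot : ∀ (c : K) (m : ℕ), 0 < m → ∃ c' : K, c' ^ m = c)
    (hnorm : ∀ f : F₀, f ≠ 0 → ∃ c : K, c ≠ 0 ∧ V.valuation (f * (algebraMap K F₀ c)⁻¹) = 1)
    (f : F) (hf : f ≠ 0) :
    ∃ c : K, c ≠ 0 ∧ W.valuation (f * (algebraMap K F c)⁻¹) = 1 := by
  classical
  -- a non-trivial relation
  obtain ⟨p, hp0, hpf⟩ := (Algebra.IsAlgebraic.isAlgebraic (R := F₀) f)
  -- the terms
  set t : ℕ → F := fun i => algebraMap F₀ F (p.coeff i) * f ^ i with ht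
  have hsum : ∑ i ∈ p.support, t i = 0 := by
    rw [← hpf, aeval_def, eval₂_eq_sum, Polynomial.sum_def]
  have hsne : p.support.Nonempty := by
    rw [Finset.nonempty_iff_ne_empty, Ne, Polynomial.support_eq_empty]
    exact hp0
  obtain ⟨j, hj, hjmax⟩ := Finset.exists_max_image p.support (fun i => W.valuation (t i)) hsne
  have htne : ∀ i ∈ p.support, t i ≠ 0 := by
    intro i hi
    rw [ht]
    exact mul_ne_zero ((_root_.map_ne_zero _).mpr (Polynomial.mem_support_iff.mp hi))
      (pow_ne_zero i hf)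
  -- a second term of the same valuation
  have hex : ∃ i ∈ p.support, i ≠ j ∧ W.valuation (t i) = W.valuation (t j) := by
    by_contra hcon
    push Not at hcon
    have hlt : ∀ i ∈ p.support \ {j}, W.valuation (t i) < W.valuation (t j) := by
      intro i hi
      rw [Finset.mem_sdiff, Finset.mem_singleton] at hi
      exact lt_of_le_of_ne (hjmax i hi.1) (hcon i hi.1 hi.2)
    have := Valuation.map_sum_eq_of_lt W.valuation hj hlt
    rw [hsum, map_zero] at this
    exact (Valuation.ne_zero_iff _).mpr (htne j hj) this.symm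
  obtain ⟨i, hi, hij, hval⟩ := hex
  -- reduce to `v(f) ^ m = v(a)`, `m > 0`, `a ∈ F₀^×`
  have key : ∃ (m : ℕ) (a : F₀), 0 < m ∧ a ≠ 0 ∧
      W.valuation f ^ m = W.valuation (algebraMap F₀ F a) := by
    have hai : p.coeff i ≠ 0 := Polynomial.mem_support_iff.mp hi
    have haj : p.coeff j ≠ 0 := Polynomial.mem_support_iff.mp hj
    have hvf : W.valuation f ≠ 0 := (Valuation.ne_zero_iff _).mpr hf
    have hvai : W.valuation (algebraMap F₀ F (p.coeff i)) ≠ 0 :=
      (Valuation.ne_zero_iff _).mpr ((_root_.map_ne_zero _).mpr hai)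
    have hvaj : W.valuation (algebraMap F₀ F (p.coeff j)) ≠ 0 :=
      (Valuation.ne_zero_iff _).mpr ((_root_.map_ne_zero _).mpr haj)
    simp only [ht, map_mul, map_pow] at hval
    rcases Nat.lt_or_gt_of_ne hij with hlt | hlt
    · -- `i < j`: `v(f)^(j-i) = v(a_i / a_j)`
      refine ⟨j - i, p.coeff i / p.coeff j, Nat.sub_pos_of_lt hlt, div_ne_zero hai haj, ?_⟩
      rw [map_div₀, map_div₀, eq_div_iff hvaj]
      have e : W.valuation f ^ j = W.valuation f ^ (j - i) * W.valuation f ^ i := by
        rw [← pow_add, Nat.sub_add_cancel hlt.le]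
      rw [e] at hval
      have h2 : W.valuation (algebraMap F₀ F (p.coeff i)) * W.valuation f ^ i =
          (W.valuation f ^ (j - i) * W.valuation (algebraMap F₀ F (p.coeff j))) *
            W.valuation f ^ i := by
        rw [hval]; ac_rfl
      exact (mul_right_cancel₀ (pow_ne_zero i hvf) h2).symm
    · -- `j < i`
      refine ⟨i - j, p.coeff j / p.coeff i, Nat.sub_pos_of_lt hlt, div_ne_zero haj hai, ?_⟩
      rw [map_div₀, map_div₀, eq_div_iff hvai]
      have e : W.valuation f ^ i = W.valuation f ^ (i - j) * W.valuation f ^ j := by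
        rw [← pow_add, Nat.sub_add_cancel hlt.le]
      rw [e] at hval
      have h2 : W.valuation (algebraMap F₀ F (p.coeff j)) * W.valuation f ^ j =
          (W.valuation f ^ (i - j) * W.valuation (algebraMap F₀ F (p.coeff i))) *
            W.valuation f ^ j := by
        rw [← hval]; ac_rfl
      exact (mul_right_cancel₀ (pow_ne_zero j hvf) h2).symm
  obtain ⟨m, a, hm, ha, hva⟩ := key
  obtain ⟨c, hc, hvc⟩ := hnorm a ha
  obtain ⟨c', hc'⟩ := hroot c m hm
  have hc'0 : c' ≠ 0 := by
    rintro rfl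
    rw [zero_pow hm.ne'] at hc'
    exact hc hc'.symm
  refine ⟨c', hc'0, ?_⟩
  -- `v(a) = v(c)` in `W`
  have h1 : W.valuation (algebraMap F₀ F (a * (algebraMap K F₀ c)⁻¹)) = 1 :=
    (s59k_ext_val_eq_one hW _).mpr hvc
  have hcF : algebraMap K F c ≠ 0 := (_root_.map_ne_zero _).mpr hc
  have h2 : W.valuation (algebraMap F₀ F a) = W.valuation (algebraMap K F c) := by
    rw [map_mul, map_inv₀, ← IsScalarTower.algebraMap_apply, map_mul, map_inv₀] at h1
    have hvc0 : W.valuation (algebraMap K F c) ≠ 0 := (Valuation.ne_zero_iff _).mpr hcF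
    field_simp at h1
    exact h1
  have h3 : W.valuation f ^ m = W.valuation (algebraMap K F c') ^ m := by
    rw [hva, h2, ← map_pow, ← map_pow, hc']
  have h4 : W.valuation f = W.valuation (algebraMap K F c') :=
    (pow_left_inj₀ zero_le zero_le hm.ne').mp h3
  have hc'F : W.valuation (algebraMap K F c') ≠ 0 :=
    (Valuation.ne_zero_iff _).mpr ((_root_.map_ne_zero _).mpr hc'0)
  rw [map_mul, map_inv₀, h4, mul_inv_cancel₀ hc'F]

end Hnorm

/-! ### An extension is a localisation of the integral closure -/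

section Integral

/-- **the polynomial trick**: `B ⊆ W` a subring which is the intersection of the valuation subrings
containing it, `w ∈ W` a root of a polynomial with coefficients in `B`, one of which is a unit of `W`:
then `w = (s w) / s` with `s, s w ∈ B` and `s` a unit of `W`. -/
theorem s59k_unit_mul_mem (W : ValuationSubring F) (B : Subring F) (hBW : B ≤ W.toSubring)
    (hB : ∀ y : F, (∀ W' : ValuationSubring F, B ≤ W'.toSubring → y ∈ W') → y ∈ B)
    (n : ℕ) (a : ℕ → F) (ha : ∀ k, a k ∈ B) (w : F) (hw : w ∈ W)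
    (hrel : ∑ k ∈ Finset.range (n + 1), a k * w ^ k = 0)
    (hunit : ∃ m ≤ n, W.valuation (a m) = 1) :
    ∃ s ∈ B, W.valuation s = 1 ∧ s * w ∈ B := by
  classical
  obtain ⟨m, hmn, hm⟩ := hunit
  set i := Nat.findGreatest (fun k => W.valuation (a k) = 1) n with hi
  have hin : i ≤ n := Nat.findGreatest_le n
  have hi1 : W.valuation (a i) = 1 :=
    Nat.findGreatest_spec (P := fun k => W.valuation (a k) = 1) hmn hm
  have hgt : ∀ k, i < k → k ≤ n → W.valuation (a k) < 1 := by
    intro k hik hkn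
    have hne : ¬ W.valuation (a k) = 1 := Nat.findGreatest_is_greatest hik hkn
    have hle : W.valuation (a k) ≤ 1 := (W.valuation_le_one_iff _).mpr (hBW (ha k))
    exact lt_of_le_of_ne hle hne
  have hwv : W.valuation w ≤ 1 := (W.valuation_le_one_iff _).mpr hw
  set s : F := ∑ j ∈ Finset.range (n + 1 - i), a (i + j) * w ^ j with hs
  -- the relation, split at `i`
  have hsplit : ∑ k ∈ Finset.range i, a k * w ^ k + w ^ i * s = 0 := by
    have h1 := Finset.sum_range_add (fun k => a k * w ^ k) i (n + 1 - i)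
    rw [show i + (n + 1 - i) = n + 1 by omega, hrel] at h1
    rw [h1, hs, Finset.mul_sum]
    congr 1
    refine Finset.sum_congr rfl fun j _ => ?_
    rw [pow_add]
    ring
  -- `s` is a unit of `W`
  have hsv : W.valuation s = 1 := by
    have e : n + 1 - i = (n - i) + 1 := by omega
    rw [hs, e, Finset.sum_range_succ', add_zero, pow_zero, mul_one, add_comm]
    rw [Valuation.map_add_eq_of_lt_left, hi1]
    rw [hi1]
    refine Valuation.map_sum_lt _ one_ne_zero fun j hj => ?_
    have hj' : j < n - i := Finset.mem_range.mp hj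
    rw [map_mul, map_pow]
    have h1 : W.valuation (a (i + (j + 1))) < 1 := hgt _ (by omega) (by omega)
    have h2 : W.valuation w ^ (j + 1) ≤ 1 := pow_le_one₀ zero_le hwv
    exact lt_of_le_of_lt (mul_le_of_le_one_right' h2) h1
  -- membership in every valuation subring containing `B`
  have hmem : ∀ W' : ValuationSubring F, B ≤ W'.toSubring → s ∈ W' ∧ s * w ∈ W' := by
    intro W' hBW'
    by_cases hw' : w ∈ W'
    · have h1 : s ∈ W' := by
        rw [hs]
        exact sum_mem fun j _ => mul_mem (hBW' (ha _)) (pow_mem hw' j)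
      exact ⟨h1, mul_mem h1 hw'⟩
    · have hw0 : w ≠ 0 := fun h0 => hw' (h0 ▸ W'.zero_mem)
      have hu : w⁻¹ ∈ W' := (W'.mem_or_inv_mem w).resolve_left hw'
      set u : F := w⁻¹ with hu_def
      have huw : u * w = 1 := inv_mul_cancel₀ hw0
      have h1 : w ^ i * s = -(∑ k ∈ Finset.range i, a k * w ^ k) := by
        linear_combination hsplit
      have h2 : s = u ^ i * (w ^ i * s) := by
        rw [← mul_assoc, ← mul_pow, huw, one_pow, one_mul]
      have hs_eq : s = -(∑ k ∈ Finset.range i, a k * u ^ (i - k)) := by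
        rw [h2, h1, mul_neg, Finset.mul_sum]
        congr 1
        refine Finset.sum_congr rfl fun k hk => ?_
        have hk' : k < i := Finset.mem_range.mp hk
        have e : u ^ i = u ^ (i - k) * u ^ k := by
          rw [← pow_add, Nat.sub_add_cancel hk'.le]
        have e2 : u ^ k * w ^ k = 1 := by rw [← mul_pow, huw, one_pow]
        calc u ^ i * (a k * w ^ k) = a k * u ^ (i - k) * (u ^ k * w ^ k) := by rw [e]; ring
          _ = a k * u ^ (i - k) := by rw [e2, mul_one]
      have hsw_eq : s * w = -(∑ k ∈ Finset.range i, a k * u ^ (i - k - 1)) := by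
        rw [hs_eq, neg_mul, Finset.sum_mul]
        congr 1
        refine Finset.sum_congr rfl fun k hk => ?_
        have hk' : k < i := Finset.mem_range.mp hk
        have e : u ^ (i - k) = u ^ (i - k - 1) * u := by
          rw [← pow_succ]
          congr 1
          omega
        calc a k * u ^ (i - k) * w = a k * u ^ (i - k - 1) * (u * w) := by rw [e]; ring
          _ = a k * u ^ (i - k - 1) := by rw [huw, mul_one]
      refine ⟨?_, ?_⟩
      · rw [hs_eq]
        exact neg_mem (sum_mem fun k _ => mul_mem (hBW' (ha k)) (pow_mem hu _))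
      · rw [hsw_eq]
        exact neg_mem (sum_mem fun k _ => mul_mem (hBW' (ha k)) (pow_mem hu _))
  exact ⟨s, hB s fun W' h => (hmem W' h).1, hsv, hB _ fun W' h => (hmem W' h).2⟩

variable {V : ValuationSubring F₀} {W : ValuationSubring F}
  (hW : W.comap (algebraMap F₀ F) = V)

include hW in
/-- elements integral over `V` lie in every extension of `V`. -/
theorem s59k_ext_mem_of_isIntegral {y : F} (hy : IsIntegral ↥V y) : y ∈ W := by
  let φ : ↥V →+* ↥W :=
    ((algebraMap F₀ F).comp V.subtype).codRestrict W.toSubring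
      fun r => (s59k_ext_mem hW (r : F₀)).mpr r.2
  have h := IsIntegral.map_of_comp_eq (R := ↥V) (S := F) (T := ↥W) (U := F) φ (RingHom.id F)
    (RingHom.ext fun r => rfl) hy
  obtain ⟨z, hz⟩ := (IsIntegrallyClosed.isIntegral_iff (R := ↥W) (K := F)).mp h
  rw [RingHom.id_apply] at hz
  rw [← hz]
  exact z.2

include hW in
/-- **an extension is the localisation of the integral closure at its centre**: every `w ∈ W` is
`(s w) / s` with `s`, `s w` integral over `V` and `s` a unit of `W`. -/
theorem s59k_ext_exists_denominator [Algebra.IsAlgebraic F₀ F] (w : F) (hw : w ∈ W) :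
    ∃ s : F, IsIntegral ↥V s ∧ W.valuation s = 1 ∧ IsIntegral ↥V (s * w) := by
  classical
  set B : Subring F := (integralClosure ↥V F).toSubring with hBdef
  have hBmem : ∀ y : F, y ∈ B ↔ IsIntegral ↥V y := fun y => Iff.rfl
  have hBW : B ≤ W.toSubring := fun y hy => s59k_ext_mem_of_isIntegral hW ((hBmem y).mp hy)
  have hB : ∀ y : F, (∀ W' : ValuationSubring F, B ≤ W'.toSubring → y ∈ W') → y ∈ B := by
    intro y hy
    have h := Subring.eq_iInf_of_isIntegrallyClosedIn (R := B)
    rw [h, Subring.mem_iInf]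
    rintro ⟨W', hW'⟩
    exact hy W' hW'
  -- a relation with coefficients in `V`, one of them a unit
  obtain ⟨p, hp0, hpw⟩ := (Algebra.IsAlgebraic.isAlgebraic (R := F₀) w)
  have hsne : p.support.Nonempty := by
    rw [Finset.nonempty_iff_ne_empty, Ne, Polynomial.support_eq_empty]
    exact hp0
  obtain ⟨m, hm, hmax⟩ := Finset.exists_max_image p.support (fun i => V.valuation (p.coeff i)) hsne
  have hc0 : p.coeff m ≠ 0 := Polynomial.mem_support_iff.mp hm
  set c : F₀ := p.coeff m with hc
  have hcoef : ∀ k, p.coeff k / c ∈ V := by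
    intro k
    rw [← ValuationSubring.valuation_le_one_iff, map_div₀]
    have hvc : V.valuation c ≠ 0 := (Valuation.ne_zero_iff _).mpr hc0
    rw [div_le_one₀ (zero_lt_iff.mpr hvc)]
    by_cases hk : k ∈ p.support
    · exact hmax k hk
    · rw [Polynomial.notMem_support_iff.mp hk, map_zero]
      exact zero_le
  set a : ℕ → F := fun k => algebraMap F₀ F (p.coeff k / c) with ha
  have haB : ∀ k, a k ∈ B := fun k =>
    (hBmem _).mpr (isIntegral_algebraMap (R := ↥V) (x := (⟨p.coeff k / c, hcoef k⟩ : ↥V)))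
  have hmle : m ≤ p.natDegree := Polynomial.le_natDegree_of_mem_supp m hm
  have hrel : ∑ k ∈ Finset.range (p.natDegree + 1), a k * w ^ k = 0 := by
    have h1 : (Polynomial.aeval w) p = ∑ k ∈ Finset.range (p.natDegree + 1),
        algebraMap F₀ F (p.coeff k) * w ^ k := by
      rw [Polynomial.aeval_eq_sum_range]
      exact Finset.sum_congr rfl fun k _ => Algebra.smul_def _ _
    have hcF : algebraMap F₀ F c ≠ 0 := (_root_.map_ne_zero _).mpr hc0
    have h2 : ∑ k ∈ Finset.range (p.natDegree + 1), a k * w ^ k =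
        (algebraMap F₀ F c)⁻¹ * (Polynomial.aeval w) p := by
      rw [h1, Finset.mul_sum]
      refine Finset.sum_congr rfl fun k _ => ?_
      rw [ha]
      simp only [map_div₀]
      field_simp
    rw [h2, hpw, mul_zero]
  have hunit : ∃ m' ≤ p.natDegree, W.valuation (a m') = 1 := by
    refine ⟨m, hmle, ?_⟩
    rw [ha]
    simp only
    rw [div_self hc0, map_one, map_one]
  obtain ⟨s, hsB, hsv, hswB⟩ := s59k_unit_mul_mem W B hBW hB p.natDegree a haB w hw hrel hunit
  exact ⟨s, (hBmem s).mp hsB, hsv, (hBmem _).mp hswB⟩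

end Integral

/-! ### Galois extensions: conjugacy of the extensions, and inertia -/

section Galois

open scoped Pointwise

variable {G : Type*} [Group G] [Finite G] [MulSemiringAction G F] [SMulCommClass G F₀ F]
  [Algebra.IsAlgebraic F₀ F]
  {V : ValuationSubring F₀}

/-- the centre of an extension `W` on the integral closure of `V`. -/
def s59k_centre (W : ValuationSubring F) (hW : W.comap (algebraMap F₀ F) = V) :
    Ideal ↥(integralClosure ↥V F) where
  carrier := {b | W.valuation (b : F) < 1}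
  zero_mem' := by
    show W.valuation ((0 : ↥(integralClosure ↥V F)) : F) < 1
    rw [ZeroMemClass.coe_zero, map_zero]
    exact zero_lt_one
  add_mem' := fun {a b} ha hb => by
    show W.valuation ((a + b : ↥(integralClosure ↥V F)) : F) < 1
    rw [AddMemClass.coe_add]
    exact Valuation.map_add_lt _ ha hb
  smul_mem' := fun c b hb => by
    show W.valuation ((c • b : ↥(integralClosure ↥V F)) : F) < 1
    rw [smul_eq_mul, MulMemClass.coe_mul, map_mul]
    have hc : W.valuation (c : F) ≤ 1 :=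
      (W.valuation_le_one_iff _).mpr (s59k_ext_mem_of_isIntegral hW c.2)
    exact lt_of_le_of_lt (mul_le_of_le_one_left' hc) hb

theorem s59k_mem_centre {W : ValuationSubring F} (hW : W.comap (algebraMap F₀ F) = V)
    (b : ↥(integralClosure ↥V F)) : b ∈ s59k_centre W hW ↔ W.valuation (b : F) < 1 := Iff.rfl

instance s59k_centre_isPrime (W : ValuationSubring F) (hW : W.comap (algebraMap F₀ F) = V) :
    (s59k_centre W hW).IsPrime where
  ne_top' := by
    intro h
    have h1 : (1 : ↥(integralClosure ↥V F)) ∈ s59k_centre W hW := h ▸ Submodule.mem_top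
    rw [s59k_mem_centre, OneMemClass.coe_one, map_one] at h1
    exact lt_irrefl _ h1
  mem_or_mem' := by
    intro x y hxy
    rw [s59k_mem_centre, MulMemClass.coe_mul, map_mul] at hxy
    by_contra hcon
    rw [not_or, s59k_mem_centre, s59k_mem_centre, not_lt, not_lt] at hcon
    have hx : W.valuation (x : F) = 1 := le_antisymm
      ((W.valuation_le_one_iff _).mpr (s59k_ext_mem_of_isIntegral hW x.2)) hcon.1
    have hy : W.valuation (y : F) = 1 := le_antisymm
      ((W.valuation_le_one_iff _).mpr (s59k_ext_mem_of_isIntegral hW y.2)) hcon.2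
    rw [hx, hy, one_mul] at hxy
    exact lt_irrefl _ hxy

theorem s59k_centre_under (W : ValuationSubring F) (hW : W.comap (algebraMap F₀ F) = V) :
    (s59k_centre W hW).under ↥V = IsLocalRing.maximalIdeal ↥V := by
  ext r
  rw [Ideal.under_def, Ideal.mem_comap, s59k_mem_centre, ValuationSubring.valuation_lt_one_iff]
  exact s59k_ext_val_lt_one hW (r : F₀)

instance s59k_centre_liesOver (W : ValuationSubring F) (hW : W.comap (algebraMap F₀ F) = V) :
    (s59k_centre W hW).LiesOver (IsLocalRing.maximalIdeal ↥V) :=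
  ⟨(s59k_centre_under W hW).symm⟩

/-- the fixed field of `G` is `F₀` ⟹ the integral closure of `V` has invariants `V`. -/
theorem s59k_isInvariant
    (hfix : ∀ x : F, (∀ g : G, g • x = x) → ∃ x₀ : F₀, algebraMap F₀ F x₀ = x) :
    Algebra.IsInvariant ↥V ↥(integralClosure ↥V F) G := by
  refine ⟨fun b hb => ?_⟩
  have hb' : ∀ g : G, g • (b : F) = (b : F) := fun g => by
    have := congrArg (fun x : ↥(integralClosure ↥V F) => (x : F)) (hb g)
    simpa using this
  obtain ⟨x₀, hx₀⟩ := hfix (b : F) hb'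
  have hint : IsIntegral ↥V x₀ := by
    have h1 : IsIntegral ↥V (algebraMap F₀ F x₀) := hx₀ ▸ b.2
    exact (isIntegral_algebraMap_iff (algebraMap F₀ F).injective).mp h1
  obtain ⟨r, hr⟩ := (IsIntegrallyClosed.isIntegral_iff (R := ↥V) (K := F₀)).mp hint
  refine ⟨r, Subtype.ext ?_⟩
  show algebraMap ↥V F r = (b : F)
  rw [IsScalarTower.algebraMap_apply ↥V F₀ F, hr, hx₀]

/-- **transfer**: if `g` carries the centre of `W` to the centre of `W'`, it carries `W` into `W'`. -/
theorem s59k_smul_mem_of_centre {W W' : ValuationSubring F}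
    (hW : W.comap (algebraMap F₀ F) = V) (hW' : W'.comap (algebraMap F₀ F) = V) (g : G)
    (hg : ∀ b : F, IsIntegral ↥V b → W.valuation b = 1 → W'.valuation (g • b) = 1)
    (y : F) (hy : y ∈ W) : g • y ∈ W' := by
  obtain ⟨s, hs, hsv, hsy⟩ := s59k_ext_exists_denominator hW y hy
  have hs0 : s ≠ 0 := by
    rintro rfl
    rw [map_zero] at hsv
    exact zero_ne_one hsv
  have hgs : IsIntegral ↥V (g • s) := hs.map (MulSemiringAction.toAlgHom ↥V F g)
  have hgsy : IsIntegral ↥V (g • (s * y)) := hsy.map (MulSemiringAction.toAlgHom ↥V F g)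
  have h1 : W'.valuation (g • s) = 1 := hg s hs hsv
  have h2 : g • (s * y) ∈ W' := s59k_ext_mem_of_isIntegral hW' hgsy
  have e : g • y = (g • (s * y)) * (g • s)⁻¹ := by
    rw [smul_mul', mul_comm (g • s), mul_assoc, mul_inv_cancel₀, mul_one]
    exact (smul_ne_zero_iff_ne g).mpr hs0
  rw [e, ← ValuationSubring.valuation_le_one_iff, map_mul, map_inv₀, h1, inv_one, mul_one,
    ValuationSubring.valuation_le_one_iff]
  exact h2

/-- **conjugacy**: `G` acts transitively on the extensions of `V`. -/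
theorem s59k_ext_conj
    (hfix : ∀ x : F, (∀ g : G, g • x = x) → ∃ x₀ : F₀, algebraMap F₀ F x₀ = x)
    {W W' : ValuationSubring F}
    (hW : W.comap (algebraMap F₀ F) = V) (hW' : W'.comap (algebraMap F₀ F) = V) :
    ∃ g : G, ∀ y : F, y ∈ W' ↔ g⁻¹ • y ∈ W := by
  have hInv := s59k_isInvariant (V := V) (G := G) hfix
  obtain ⟨g, hg⟩ := Algebra.IsInvariant.exists_smul_of_under_eq ↥V ↥(integralClosure ↥V F) G
    (s59k_centre W hW) (s59k_centre W' hW')
    ((s59k_centre_under W hW).trans (s59k_centre_under W' hW').symm)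
  -- `b ∈ centre W' ↔ g⁻¹ • b ∈ centre W`
  have key : ∀ b : F, IsIntegral ↥V b → (W'.valuation b < 1 ↔ W.valuation (g⁻¹ • b) < 1) := by
    intro b hb
    have h1 : (⟨b, hb⟩ : ↥(integralClosure ↥V F)) ∈ s59k_centre W' hW' ↔
        g⁻¹ • (⟨b, hb⟩ : ↥(integralClosure ↥V F)) ∈ s59k_centre W hW := by
      rw [hg, Ideal.mem_pointwise_smul_iff_inv_smul_mem]
    exact h1
  have hint : ∀ (h : G) (b : F), IsIntegral ↥V b → IsIntegral ↥V (h • b) := fun h b hb =>
    hb.map (MulSemiringAction.toAlgHom ↥V F h)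
  have hle : ∀ (W₁ : ValuationSubring F) (hW₁ : W₁.comap (algebraMap F₀ F) = V) (b : F),
      IsIntegral ↥V b → W₁.valuation b ≤ 1 := fun W₁ hW₁ b hb =>
    (W₁.valuation_le_one_iff _).mpr (s59k_ext_mem_of_isIntegral hW₁ hb)
  refine ⟨g, fun y => ⟨fun hy => ?_, fun hy => ?_⟩⟩
  · refine s59k_smul_mem_of_centre hW' hW g⁻¹ (fun b hb hbv => ?_) y hy
    refine le_antisymm (hle W hW _ (hint _ b hb)) (not_lt.mp fun hlt => ?_)
    exact absurd hbv ((key b hb).mpr hlt).ne
  · have := s59k_smul_mem_of_centre hW hW' g (fun b hb hbv => ?_) (g⁻¹ • y) hy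
    · rwa [smul_inv_smul] at this
    · refine le_antisymm (hle W' hW' _ (hint _ b hb)) (not_lt.mp fun hlt => ?_)
      have := (key (g • b) (hint _ b hb)).mp hlt
      rw [inv_smul_smul] at this
      exact absurd hbv this.ne

/-- a ring automorphism preserving a valuation subring preserves its maximal ideal. -/
theorem s59k_val_lt_one_of_equiv (W : ValuationSubring F) (μ : F ≃+* F)
    (hμ : ∀ z : F, μ z ∈ W ↔ z ∈ W) (z : F) :
    W.valuation (μ z) < 1 ↔ W.valuation z < 1 := by
  rw [← ValuationSubring.mem_nonunits_iff, ← ValuationSubring.mem_nonunits_iff,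
    ValuationSubring.mem_nonunits_iff_or, ValuationSubring.mem_nonunits_iff_or, ← map_inv₀, hμ,
    EmbeddingLike.map_eq_zero_iff]

/-- **inertia**: a ring automorphism `ν` of `F` commuting with `G`, inducing on `F₀` an automorphism
`ν₀` which preserves `V` and acts trivially on its residue field, becomes — after composition with a
suitable element of `G` — an automorphism preserving a given extension `W` and acting trivially on
ITS residue field. -/
theorem s59k_ext_inertia
    (hfix : ∀ x : F, (∀ g : G, g • x = x) → ∃ x₀ : F₀, algebraMap F₀ F x₀ = x)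
    (ν : F ≃+* F) (ν₀ : F₀ ≃+* F₀)
    (hνι : ∀ x : F₀, ν (algebraMap F₀ F x) = algebraMap F₀ F (ν₀ x))
    (hν₀V : ∀ x : F₀, ν₀ x ∈ V ↔ x ∈ V)
    (hν₀res : ∀ x ∈ V, V.valuation (ν₀ x - x) < 1)
    {W : ValuationSubring F} (hW : W.comap (algebraMap F₀ F) = V) :
    ∃ g : G, (∀ y ∈ W, g⁻¹ • ν y ∈ W) ∧ ∀ y ∈ W, W.valuation (g⁻¹ • ν y - y) < 1 := by
  classical
  have hInv := s59k_isInvariant (V := V) (G := G) hfix
  -- Step 1: `ν W` is an extension of `V`
  have hνsymm : ∀ x : F₀, ν.symm (algebraMap F₀ F x) = algebraMap F₀ F (ν₀.symm x) := by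
    intro x
    rw [RingEquiv.symm_apply_eq, hνι, RingEquiv.apply_symm_apply]
  have hν₀Vsymm : ∀ x : F₀, ν₀.symm x ∈ V ↔ x ∈ V := by
    intro x
    have := hν₀V (ν₀.symm x)
    rw [RingEquiv.apply_symm_apply] at this
    exact this.symm
  set W₁ : ValuationSubring F := W.comap (ν.symm : F →+* F) with hW₁def
  have hW₁ : W₁.comap (algebraMap F₀ F) = V := by
    ext x
    rw [ValuationSubring.mem_comap, hW₁def, ValuationSubring.mem_comap]
    show ν.symm (algebraMap F₀ F x) ∈ W ↔ x ∈ V
    rw [hνsymm, s59k_ext_mem hW, hν₀Vsymm]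
  -- Step 2: conjugate back
  obtain ⟨g₁, hg₁⟩ := s59k_ext_conj (G := G) hfix hW hW₁
  set ν₁ : F ≃+* F := ν.trans (MulSemiringAction.toRingEquiv G F g₁⁻¹) with hν₁def
  have hν₁app : ∀ z : F, ν₁ z = g₁⁻¹ • ν z := fun z => rfl
  have hν₁W : ∀ z : F, ν₁ z ∈ W ↔ z ∈ W := by
    intro z
    rw [hν₁app, ← hg₁ (ν z), hW₁def, ValuationSubring.mem_comap]
    show ν.symm (ν z) ∈ W ↔ z ∈ W
    rw [RingEquiv.symm_apply_apply]
  have hν₁ι : ∀ x : F₀, ν₁ (algebraMap F₀ F x) = algebraMap F₀ F (ν₀ x) := by
    intro x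
    rw [hν₁app, hνι, smul_algebraMap]
  have hν₁symmι : ∀ x : F₀, ν₁.symm (algebraMap F₀ F x) = algebraMap F₀ F (ν₀.symm x) := by
    intro x
    rw [RingEquiv.symm_apply_eq, hν₁ι, RingEquiv.apply_symm_apply]
  -- Step 3: `ν₁` preserves integrality over `V`
  let φ : ↥V →+* ↥V := (ν₀ : F₀ →+* F₀).restrict V.toSubring V.toSubring
    fun x hx => (hν₀V x).mpr hx
  let φ' : ↥V →+* ↥V := (ν₀.symm : F₀ →+* F₀).restrict V.toSubring V.toSubring
    fun x hx => (hν₀Vsymm x).mpr hx
  have hint : ∀ b : F, IsIntegral ↥V b → IsIntegral ↥V (ν₁ b) := fun b hb =>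
    IsIntegral.map_of_comp_eq (R := ↥V) (S := F) (T := ↥V) (U := F) φ (ν₁ : F →+* F)
      (RingHom.ext fun r => (hν₁ι (r : F₀)).symm) hb
  have hint' : ∀ b : F, IsIntegral ↥V b → IsIntegral ↥V (ν₁.symm b) := fun b hb =>
    IsIntegral.map_of_comp_eq (R := ↥V) (S := F) (T := ↥V) (U := F) φ' (ν₁.symm : F →+* F)
      (RingHom.ext fun r => (hν₁symmι (r : F₀)).symm) hb
  -- Step 4: the induced automorphism of the integral closure
  let e : ↥(integralClosure ↥V F) ≃+* ↥(integralClosure ↥V F) :=
    { toFun := fun b => ⟨ν₁ b, hint b b.2⟩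
      invFun := fun b => ⟨ν₁.symm b, hint' b b.2⟩
      left_inv := fun b => Subtype.ext (ν₁.symm_apply_apply b)
      right_inv := fun b => Subtype.ext (ν₁.apply_symm_apply b)
      map_mul' := fun a b => Subtype.ext (map_mul ν₁ (a : F) (b : F))
      map_add' := fun a b => Subtype.ext (map_add ν₁ (a : F) (b : F)) }
  have he : ∀ b : ↥(integralClosure ↥V F), ((e b : ↥(integralClosure ↥V F)) : F) = ν₁ b :=
    fun b => rfl
  set Q := s59k_centre W hW with hQ
  have hν₁val := s59k_val_lt_one_of_equiv W ν₁ hν₁W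
  have hQe : ∀ b : ↥(integralClosure ↥V F), e b ∈ Q ↔ b ∈ Q := by
    intro b
    rw [hQ, s59k_mem_centre, s59k_mem_centre, he, hν₁val]
  have hmap : Q = Q.map (e : ↥(integralClosure ↥V F) →+* ↥(integralClosure ↥V F)) := by
    refine le_antisymm (fun b hb => ?_) (Ideal.map_le_iff_le_comap.mpr fun b hb => ?_)
    · have : e (e.symm b) ∈ Q.map (e : ↥(integralClosure ↥V F) →+* ↥(integralClosure ↥V F)) :=
        Ideal.mem_map_of_mem _ ((hQe _).mp (by rwa [RingEquiv.apply_symm_apply]))
      rwa [RingEquiv.apply_symm_apply] at this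
    · exact Ideal.mem_comap.mpr ((hQe b).mpr hb)
  -- Step 5: the automorphism of the residue field of the centre
  let ebar : (↥(integralClosure ↥V F) ⧸ Q) ≃ₐ[↥V ⧸ IsLocalRing.maximalIdeal ↥V]
      (↥(integralClosure ↥V F) ⧸ Q) :=
    { Ideal.quotientEquiv Q Q e hmap with
      commutes' := by
        rintro ⟨r⟩
        refine Ideal.Quotient.eq.mpr ?_
        show W.valuation (ν₁ (algebraMap F₀ F (r : F₀)) - algebraMap F₀ F (r : F₀)) < 1
        rw [hν₁ι, ← map_sub, s59k_ext_val_lt_one hW]
        exact hν₀res _ r.2 }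
  obtain ⟨g₂, hg₂⟩ := Ideal.Quotient.stabilizerHom_surjective G
    (IsLocalRing.maximalIdeal ↥V) Q ebar
  have hg₂b : ∀ b : ↥(integralClosure ↥V F), (g₂ : G) • b - e b ∈ Q := by
    intro b
    have h1 := congrArg (fun f => f (Ideal.Quotient.mk Q b)) hg₂
    exact Ideal.Quotient.eq.mp h1
  have hg₂Q : ∀ b : ↥(integralClosure ↥V F), (g₂ : G)⁻¹ • b ∈ Q ↔ b ∈ Q := by
    intro b
    have h1 : (g₂ : G) • Q = Q := g₂.2
    conv_rhs => rw [← h1]
    exact Ideal.mem_pointwise_smul_iff_inv_smul_mem.symm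
  -- Step 6: the final automorphism
  set ν₂ : F ≃+* F := ν₁.trans (MulSemiringAction.toRingEquiv G F (g₂ : G)⁻¹) with hν₂def
  have hν₂app : ∀ z : F, ν₂ z = (g₂ : G)⁻¹ • ν₁ z := fun z => rfl
  have hgoal : ∀ z : F, (g₁ * (g₂ : G))⁻¹ • ν z = ν₂ z := by
    intro z
    rw [hν₂app, hν₁app, mul_inv_rev, mul_smul]
  have hle : ∀ b : F, IsIntegral ↥V b → W.valuation b ≤ 1 := fun b hb =>
    (W.valuation_le_one_iff _).mpr (s59k_ext_mem_of_isIntegral hW hb)
  have hintg : ∀ (h : G) (b : F), IsIntegral ↥V b → IsIntegral ↥V (h • b) := fun h b hb =>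
    hb.map (MulSemiringAction.toAlgHom ↥V F h)
  -- `g₂⁻¹` preserves `W`
  have hg₂W : ∀ y ∈ W, (g₂ : G)⁻¹ • y ∈ W := by
    intro y hy
    refine s59k_smul_mem_of_centre hW hW (g₂ : G)⁻¹ (fun b hb hbv => ?_) y hy
    refine le_antisymm (hle _ (hintg _ b hb)) (not_lt.mp fun hlt => ?_)
    have := (hg₂Q ⟨b, hb⟩).mp hlt
    exact absurd hbv (ne_of_lt this)
  have hν₂W : ∀ y ∈ W, ν₂ y ∈ W := fun y hy => by
    rw [hν₂app]
    exact hg₂W _ ((hν₁W y).mpr hy)
  -- `ν₂` is trivial on the integral closure modulo the centre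
  have hν₂B : ∀ b : F, IsIntegral ↥V b → W.valuation (ν₂ b - b) < 1 := by
    intro b hb
    have h1 := hg₂b ⟨b, hb⟩
    have h2 : (g₂ : G)⁻¹ • (e ⟨b, hb⟩ - (g₂ : G) • (⟨b, hb⟩ : ↥(integralClosure ↥V F))) ∈ Q := by
      refine (hg₂Q _).mpr ?_
      have := Q.neg_mem h1
      rwa [neg_sub] at this
    replace h2 := (s59k_mem_centre hW _).mp h2
    have e1 : (((g₂ : G)⁻¹ • (e ⟨b, hb⟩ - (g₂ : G) • (⟨b, hb⟩ : ↥(integralClosure ↥V F))) :
        ↥(integralClosure ↥V F)) : F) = ν₂ b - b := by
      rw [integralClosure.coe_smul, AddSubgroupClass.coe_sub, integralClosure.coe_smul, he,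
        smul_sub, inv_smul_smul, hν₂app]
    rwa [e1] at h2
  refine ⟨g₁ * (g₂ : G), fun y hy => ?_, fun y hy => ?_⟩
  · rw [hgoal]
    exact hν₂W y hy
  · rw [hgoal]
    obtain ⟨s, hs, hsv, hsy⟩ := s59k_ext_exists_denominator hW y hy
    have hs0 : s ≠ 0 := by
      rintro rfl
      rw [map_zero] at hsv
      exact zero_ne_one hsv
    have hν₂s : W.valuation (ν₂ s) = 1 := by
      have h1 : ν₂ s = s + (ν₂ s - s) := by ring
      rw [h1, Valuation.map_add_eq_of_lt_left, hsv]
      rw [hsv]
      exact hν₂B s hs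
    have hν₂s0 : ν₂ s ≠ 0 := (EmbeddingLike.map_ne_zero_iff (f := ν₂)).mpr hs0
    -- `ν₂ y - y = ((ν₂ (s y) - s y) s - (s y) (ν₂ s - s)) / (ν₂ s · s)`
    have e1 : ν₂ y - y = ((ν₂ (s * y) - s * y) * s - (s * y) * (ν₂ s - s)) * (ν₂ s * s)⁻¹ := by
      rw [map_mul]
      field_simp
      ring
    rw [e1, map_mul W.valuation _ (ν₂ s * s)⁻¹, map_inv₀, map_mul W.valuation (ν₂ s) s, hν₂s, hsv,
      one_mul, inv_one, mul_one]
    refine Valuation.map_sub_lt _ ?_ ?_
    · rw [map_mul, hsv, mul_one]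
      exact hν₂B _ hsy
    · rw [map_mul]
      exact lt_of_le_of_lt (mul_le_of_le_one_left' (hle _ hsy)) (hν₂B s hs)

end Galois

end Fermat.Agent.Lib.S59
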