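/-
Programme (R2), node **[CAR]**, leaf W5/[L2-7 HECKE₃] (helper3, prefix `s59u_`), part 1: **NORMS AND VALUATION SUBRINGS**
(Mathlib + helper1's `KExt.lean`).

`L/K` a finite separable field extension, `O` a valuation subring of `K`.

* `s59u_comap_eq_of_le`         : `V'.comap f = V` as soon as `f V ⊆ V'` and `f 𝔪_V ⊆ 𝔪_{V'}`;
* `s59u_norm_mem_of_forall_over` : `y ∈ W` for EVERY valuation subring `W` of `L` over `O`  ⇒  `N_{L/K} y ∈ O`;
* `s59u_norm_sub_one_mem`       : `y - 1 ∈ 𝔪_W` for every `W` over `O`  ⇒  `N_{L/K} y - 1 ∈ 𝔪_O`;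
* `s59u_norm_along_mem`, `s59u_norm_along_cong` : the same for `τ = N_a ∘ b`, `a b : F → F'` two embeddings, under the
  CORRESPONDENCE hypothesis "every `W` over `O` along `a` lies over `O` along `b`".

Route: embed `L` into an algebraic closure `E`, extend `O` to `Õ ⊆ E` (Chevalley, `s59k_exists_ext`); the norm is the
product of the conjugates `σ y`, and `Õ.comap σ` is a valuation subring of `L` over `O` for every `σ : L →ₐ[K] E`.
-/
import Fermat.Agent.Lib.S59.KExt
import Fermat.Prelude.Def_AlgebraicCurve_Correspondence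

set_option autoImplicit false
set_option linter.unusedSectionVars false
set_option linter.unusedVariables false
set_option linter.style.haveILetI false

noncomputable section

namespace Fermat.Agent.Lib.S59

/-- `V'.comap f = V` as soon as `f V ⊆ V'` and `f 𝔪_V ⊆ 𝔪_{V'}`. -/
theorem s59u_comap_eq_of_le {F F' : Type*} [Field F] [Field F'] (f : F →+* F') (V : ValuationSubring F)
    (V' : ValuationSubring F') (h1 : ∀ y ∈ V, f y ∈ V') (h2 : ∀ y ∈ V.nonunits, f y ∈ V'.nonunits) :
    V'.comap f = V := by
  ext y
  rw [ValuationSubring.mem_comap]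
  refine ⟨fun hy => ?_, h1 y⟩
  by_contra hyV
  have hy0 : y ≠ 0 := fun h0 => hyV (h0 ▸ V.zero_mem)
  have hinv : y⁻¹ ∈ V.nonunits := by
    rw [ValuationSubring.mem_nonunits_iff_or]
    right
    rwa [inv_inv]
  have h3 := h2 _ hinv
  rw [map_inv₀, ValuationSubring.mem_nonunits_iff_or, inv_inv] at h3
  rcases h3 with h3 | h3
  · exact (inv_ne_zero ((map_ne_zero f).mpr hy0)) h3
  · exact h3 hy

section Norm

variable {K L : Type*} [Field K] [Field L] [Algebra K L] [FiniteDimensional K L]
  [Algebra.IsSeparable K L]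

/-- every conjugate of `y` lies in the extension `Õ`. -/
theorem s59u_conj_mem (O : ValuationSubring K)
    (E : Type*) [Field E] [Algebra K E] [Algebra L E] [IsScalarTower K L E]
    (Ot : ValuationSubring E) (hOt : Ot.comap (algebraMap K E) = O) (σ : L →ₐ[K] E) :
    (Ot.comap (σ : L →+* E)).comap (algebraMap K L) = O := by
  rw [ValuationSubring.comap_comap]
  have : (σ : L →+* E).comp (algebraMap K L) = algebraMap K E := by
    ext x
    exact σ.commutes x
  rw [this, hOt]

/-- **`N_{L/K} y ∈ O`** as soon as `y` lies in every valuation subring of `L` over `O`. -/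
theorem s59u_norm_mem_of_forall_over (O : ValuationSubring K) (y : L)
    (h : ∀ W : ValuationSubring L, W.comap (algebraMap K L) = O → y ∈ W) :
    Algebra.norm K y ∈ O := by
  classical
  let E := AlgebraicClosure L
  obtain ⟨Ot, hOt⟩ := s59k_exists_ext (F₀ := K) (F := E) O
  have hnorm := Algebra.norm_eq_prod_embeddings K E y
  have hmem : algebraMap K E (Algebra.norm K y) ∈ Ot := by
    rw [hnorm]
    refine prod_mem fun σ _ => ?_
    have := h (Ot.comap (σ : L →+* E)) (s59u_conj_mem O E Ot hOt σ)
    exact this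
  rw [← hOt]
  exact hmem

/-- **`N_{L/K} y ≡ 1`** as soon as `y ≡ 1` at every valuation subring of `L` over `O`. -/
theorem s59u_norm_sub_one_mem (O : ValuationSubring K) (y : L)
    (h : ∀ W : ValuationSubring L, W.comap (algebraMap K L) = O → y - 1 ∈ W.nonunits) :
    Algebra.norm K y - 1 ∈ O.nonunits := by
  classical
  let E := AlgebraicClosure L
  obtain ⟨Ot, hOt⟩ := s59k_exists_ext (F₀ := K) (F := E) O
  have hnorm := Algebra.norm_eq_prod_embeddings K E y
  have hσ : ∀ σ : L →ₐ[K] E, σ y - 1 ∈ Ot.nonunits := fun σ => by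
    have h1 := h (Ot.comap (σ : L →+* E)) (s59u_conj_mem O E Ot hOt σ)
    rw [ValuationSubring.mem_nonunits_iff] at h1 ⊢
    have h2 : (Ot.comap (σ : L →+* E)).valuation (y - 1) < 1 := h1
    rw [← ValuationSubring.mem_nonunits_iff, ValuationSubring.mem_nonunits_iff_or] at h2
    rw [← ValuationSubring.mem_nonunits_iff, ValuationSubring.mem_nonunits_iff_or]
    rcases h2 with h2 | h2
    · left
      have : σ (y - 1) = 0 := by rw [h2, map_zero]
      rwa [map_sub, map_one] at this
    · right
      intro hc
      apply h2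
      rw [ValuationSubring.mem_comap]
      show (σ : L →+* E) (y - 1)⁻¹ ∈ Ot
      rw [map_inv₀]
      have e : (σ : L →+* E) (y - 1) = σ y - 1 := by
        show σ (y - 1) = σ y - 1
        rw [map_sub, map_one]
      rw [e]
      exact hc
  -- a product of elements `≡ 1` is `≡ 1`
  have hprod : ∀ s : Finset (L →ₐ[K] E), (∏ σ ∈ s, σ y) - 1 ∈ Ot.nonunits := by
    intro s
    induction s using Finset.induction_on with
    | empty =>
      rw [Finset.prod_empty, sub_self, ValuationSubring.mem_nonunits_iff, map_zero]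
      exact zero_lt_one
    | insert σ s hσs ih =>
      rw [Finset.prod_insert hσs]
      have e : σ y * ∏ τ ∈ s, τ y - 1 = (σ y - 1) * ∏ τ ∈ s, τ y + (∏ τ ∈ s, τ y - 1) := by ring
      rw [e, ValuationSubring.mem_nonunits_iff]
      have hP : ∏ τ ∈ s, τ y ∈ Ot := by
        have : ∏ τ ∈ s, τ y = (∏ τ ∈ s, τ y - 1) + 1 := by ring
        rw [this]
        exact Ot.add_mem _ _ (ValuationSubring.nonunits_le ih) Ot.one_mem
      have h1 : Ot.valuation ((σ y - 1) * ∏ τ ∈ s, τ y) < 1 := by
        rw [map_mul]
        have a1 : Ot.valuation (σ y - 1) < 1 := (ValuationSubring.mem_nonunits_iff (A := Ot)).mp (hσ σ)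
        have a2 : Ot.valuation (∏ τ ∈ s, τ y) ≤ 1 := (Ot.valuation_le_one_iff _).mpr hP
        calc Ot.valuation (σ y - 1) * Ot.valuation (∏ τ ∈ s, τ y)
            ≤ Ot.valuation (σ y - 1) * 1 := by gcongr
          _ < 1 := by rwa [mul_one]
      have h2 : Ot.valuation (∏ τ ∈ s, τ y - 1) < 1 := (ValuationSubring.mem_nonunits_iff (A := Ot)).mp ih
      exact lt_of_le_of_lt (Ot.valuation.map_add _ _) (max_lt h1 h2)
  have hmem : algebraMap K E (Algebra.norm K y - 1) ∈ Ot.nonunits := by
    rw [map_sub, map_one, hnorm]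
    exact hprod Finset.univ
  rw [ValuationSubring.mem_nonunits_iff_or] at hmem ⊢
  rcases hmem with h0 | h0
  · left
    exact (map_eq_zero _).mp h0
  · right
    intro hc
    apply h0
    rw [← map_inv₀]
    have : (Algebra.norm K y - 1)⁻¹ ∈ Ot.comap (algebraMap K E) := by rw [hOt]; exact hc
    exact this

end Norm

/-! ### Along two embeddings -/

section Along

open AlgebraicCurve

variable {K F F' : Type*} [Field K] [Field F] [Field F'] [Algebra K F] [Algebra K F'] [CharZero F]

/-- **`N_a (b h) ∈ O`** for `h ∈ O`, if every valuation subring over `O` along `a` lies over `O` along `b`. -/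
theorem s59u_norm_along_mem (a b : F →ₐ[K] F') (hfin : FiniteAlong K a) (O : ValuationSubring F)
    (hcorr : ∀ W : ValuationSubring F', W.comap (a : F →+* F') = O → W.comap (b : F →+* F') = O)
    (h : F) (hh : h ∈ O) :
    (letI := algebraAlong a; Algebra.norm F (b h)) ∈ O := by
  letI := algebraAlong a
  haveI : Module.Finite F F' := hfin
  haveI : Algebra.IsSeparable F F' := Algebra.IsAlgebraic.isSeparable_of_perfectField
  refine s59u_norm_mem_of_forall_over O (b h) fun W hW => ?_
  have h1 : W.comap (b : F →+* F') = O := hcorr W hW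
  have h2 : h ∈ W.comap (b : F →+* F') := by rw [h1]; exact hh
  exact h2

/-- **`N_a (b h) ≡ 1`** for `h ≡ 1`, under the same correspondence hypothesis. -/
theorem s59u_norm_along_cong (a b : F →ₐ[K] F') (hfin : FiniteAlong K a) (O : ValuationSubring F)
    (hcorr : ∀ W : ValuationSubring F', W.comap (a : F →+* F') = O → W.comap (b : F →+* F') = O)
    (h : F) (hh : h - 1 ∈ O.nonunits) :
    (letI := algebraAlong a; Algebra.norm F (b h)) - 1 ∈ O.nonunits := by
  letI := algebraAlong a
  haveI : Module.Finite F F' := hfin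
  haveI : Algebra.IsSeparable F F' := Algebra.IsAlgebraic.isSeparable_of_perfectField
  refine s59u_norm_sub_one_mem O (b h) fun W hW => ?_
  have h1 : W.comap (b : F →+* F') = O := hcorr W hW
  rw [ValuationSubring.mem_nonunits_iff_or] at hh ⊢
  rcases hh with h0 | h0
  · left
    have : b (h - 1) = 0 := by rw [h0, map_zero]
    rwa [map_sub, map_one] at this
  · right
    intro hc
    apply h0
    rw [← h1, ValuationSubring.mem_comap]
    show (b : F →+* F') (h - 1)⁻¹ ∈ W
    rw [map_inv₀]
    have e : (b : F →+* F') (h - 1) = b h - 1 := by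
      show b (h - 1) = b h - 1
      rw [map_sub, map_one]
    rw [e]
    exact hc

end Along

end Fermat.Agent.Lib.S59
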