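/-
Programme (R2), node **[CAR]**, leaf W5/[L2-7 HECKE₃] (helper3, prefix `s59u_`), part 3: **THE CORRESPONDENCE OF THE VERTICAL
VALUATIONS, LEVELS `(M, q) → (M ℓ, q)`.**

`a b : 𝓕(M q) → 𝓕(M ℓ q)` the two degeneracy maps (`a y = y`, `b y = y(T^ℓ)` on `q`-expansions), `V_i` (`V'_i`) the two Gauss
valuation rings `V_∞, V_0` of level `M q` (`M ℓ q`).

* **`s59u_val_over_a`** : a valuation subring `W` of `𝓕(M ℓ q)` with `W.comap a = V_i` IS `V'_i` (completeness along `a`):
  `W ⊇ A[j']`, hence `W` contains the chart ring `B'` (integral closure of `A[j']`), hence — clearing the horizontal poles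
  by (α), `s34f_alpha_j` — all of `V'_∞ ⊓ V'_0`; a valuation subring containing the intersection of two discrete valuation
  rings is one of them (helper1's `s36b_le_of_inter_le`, `s36b_dvr_max`);
* `s59u_VV_comap_a`, `s59u_VV_comap_b` : `V'_i.comap a = V_i`, `V'_i.comap b = V_i`;
* **`s59u_val_corr`** : `W.comap a = V_i → W.comap b = V_i` — the correspondence hypothesis of `s59u_norm_along_mem/_cong` for
  `τ_ℓ = Nm_a ∘ b` and the two components.
-/
import Fermat.Agent.Lib.S59.UCarCorrInst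
import Fermat.Agent.Lib.S59.UCarNormVal
import Fermat.Agent.Lib.S36.XBase

set_option autoImplicit false
set_option linter.style.haveILetI false
set_option linter.unusedSectionVars false
set_option linter.unusedVariables false
set_option synthInstance.maxHeartbeats 400000

noncomputable section

namespace Fermat.Agent.Lib.S59

open Polynomial ModularCurve AlgebraicCurve HahnSeries Fermat.Agent.Lib.FF Fermat.Agent.Lib.S18
  Fermat.Agent.Lib.S28 Fermat.Agent.Lib.S37 Fermat.Agent.Lib.S34 Fermat.Agent.Lib.S35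
  Fermat.Agent.Lib.S36 Fermat.Agent.Lib.S33 Fermat.Agent.Lib.S44

local notation "Kb" => AlgebraicClosure ℚ

variable {K₀ : Type} [Field K₀] [Algebra ℚ K₀] [CharZero K₀] {κ : Type} [Field κ]
  (G : s18g_GaussData K₀ κ) [IsDiscreteValuationRing G.A]
  (φ : K₀ →+* Kb) (M q ℓ : ℕ) [NeZero M] [NeZero q] [NeZero ℓ] (hq : q.Prime) (hqM : ¬ q ∣ M)
  (hqMℓ : ¬ q ∣ M * ℓ)
  (a b : s34m_F K₀ (M * q) →ₐ[K₀] s34m_F K₀ (M * ℓ * q))
  (ha : ∀ y, ((a y : s34m_F K₀ (M * ℓ * q)) : LaurentSeries K₀) = (y : LaurentSeries K₀))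
  (hb : ∀ y, ((b y : s34m_F K₀ (M * ℓ * q)) : LaurentSeries K₀) =
    qExpand K₀ ℓ (y : LaurentSeries K₀))
  [CharP κ q]

/-- `s(j)` (`s mod ϖ ≠ 0`) is a unit of `V_∞` and of `V_0`. -/
theorem s59u_ev_jF_unit (i : Bool) (s : G.A[X]) (hs : s.map G.π ≠ 0) :
    s18b_ev G (laurentBaseChange K₀ (modularFunctionFieldFull (M * q))) (s18g_jF (K := K₀) (M * q)) s ∈
        s34m_VV G φ M q hq hqM i ∧
      (s18b_ev G (laurentBaseChange K₀ (modularFunctionFieldFull (M * q)))
        (s18g_jF (K := K₀) (M * q)) s)⁻¹ ∈ s34m_VV G φ M q hq hqM i := by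
  set c := s18b_ev G (laurentBaseChange K₀ (modularFunctionFieldFull (M * q)))
    (s18g_jF (K := K₀) (M * q)) s with hc
  have hcB : c ∈ s34x_ring (L₀ := K₀) (s34x_infRing (s34m_VV G φ M q hq hqM))
      (s18_chart1 (L₀ := K₀) (s18g_jF (K := K₀) (M * q))) :=
    (s59u_mem_ring_iff G φ M q hq hqM _).mpr (RingHom.isIntegralElem_map _)
  have hcV : c ∈ s34m_VV G φ M q hq hqM i := (s34x_mem_infRing _ _).mp hcB.1 i
  have htr : Transcendental κ (s34m_redInf G M ⟨s18g_jF (K := K₀) M, s34m_jF_mem_Vinf G M⟩) := by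
    rw [s34m_redInf_jF]
    exact s28v_transcendental_jqModC κ
  have hcu : c ∉ (s34m_VV G φ M q hq hqM i).nonunits := by
    cases i
    · have h := s36qf_unit_zero G φ M q hq hqM (s18g_jF (K := K₀) M) (s34m_jF_mem_Vinf G M) htr s hs
      rw [s34m_alpha_jF] at h
      exact h
    · have h := s36qf_unit_inf G φ M q hq hqM (s18g_jF (K := K₀) M) (s34m_jF_mem_Vinf G M) htr s hs
      rw [s34m_alpha_jF] at h
      exact h
  refine ⟨hcV, ?_⟩
  by_contra hinv
  apply hcu
  rw [ValuationSubring.mem_nonunits_iff_or]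
  exact Or.inr hinv

include ha in
/-- `a (s(j)) = s(j')`. -/
theorem s59u_a_ev_jF (s : G.A[X]) :
    a (s18b_ev G (laurentBaseChange K₀ (modularFunctionFieldFull (M * q)))
      (s18g_jF (K := K₀) (M * q)) s) =
      s18b_ev G (laurentBaseChange K₀ (modularFunctionFieldFull (M * ℓ * q)))
        (s18g_jF (K := K₀) (M * ℓ * q)) s := by
  rw [s18b_evA_apply, s18b_evA_apply, ← s59u_a_jF M q ℓ a ha]
  exact (Polynomial.aeval_algHom_apply a _ _).symm

include ha in
/-- **completeness along `a`**: a valuation subring of `𝓕(M ℓ q)` over `V_i` along `a` is `V'_i`. -/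
theorem s59u_val_over_a (i : Bool) (W : ValuationSubring (s34m_F K₀ (M * ℓ * q)))
    (hW : W.comap (a : s34m_F K₀ (M * q) →+* s34m_F K₀ (M * ℓ * q)) = s34m_VV G φ M q hq hqM i) :
    W = s34m_VV G φ (M * ℓ) q hq hqMℓ i := by
  have hmem : ∀ y, a y ∈ W ↔ y ∈ s34m_VV G φ M q hq hqM i := fun y => by
    rw [← hW]
    exact Iff.rfl
  have hA : ∀ c : G.A, algebraMap K₀ (s34m_F K₀ (M * ℓ * q)) (c : K₀) ∈ W := fun c => by
    rw [← a.commutes]
    exact (hmem _).mpr (s34c_const_mem_VV G φ M q hq hqM i c)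
  have hj : s18g_jF (K := K₀) (M * ℓ * q) ∈ W := by
    rw [← s59u_a_jF M q ℓ a ha]
    exact (hmem _).mpr (s34c_jF_mem_VV G φ M q hq hqM i)
  -- `V'_∞ ⊓ V'_0 ⊆ W`
  have hinf : ∀ x, x ∈ s34m_VV G φ (M * ℓ) q hq hqMℓ true →
      x ∈ s34m_VV G φ (M * ℓ) q hq hqMℓ false → x ∈ W := by
    intro x h1 h2
    have hx : x ∈ s34x_infRing (s34m_VV G φ (M * ℓ) q hq hqMℓ) :=
      (s34x_mem_infRing _ _).mpr fun k => by
        cases k
        · exact h2
        · exact h1
    obtain ⟨s, hs, hsx⟩ := s34f_alpha_j G φ (M * ℓ) q hq hqMℓ x hx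
    have hcx := s18b_mem_of_isIntegralElem G
      (laurentBaseChange K₀ (modularFunctionFieldFull (M * ℓ * q))) (s18g_jF (K := K₀) (M * ℓ * q)) W
      hA hj _ hsx
    obtain ⟨-, hcinv⟩ := s59u_ev_jF_unit G φ M q hq hqM i s hs
    have hc'inv : (s18b_ev G (laurentBaseChange K₀ (modularFunctionFieldFull (M * ℓ * q)))
        (s18g_jF (K := K₀) (M * ℓ * q)) s)⁻¹ ∈ W := by
      rw [← s59u_a_ev_jF G M q ℓ a ha s, ← map_inv₀]
      exact (hmem _).mpr hcinv
    have hc0 : s18b_ev G (laurentBaseChange K₀ (modularFunctionFieldFull (M * ℓ * q)))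
        (s18g_jF (K := K₀) (M * ℓ * q)) s ≠ 0 := by
      intro h0
      obtain ⟨hcV, hcinv'⟩ := s59u_ev_jF_unit G φ M q hq hqM i s hs
      have h1' := s59u_a_ev_jF G M q ℓ a ha s
      rw [h0] at h1'
      have h2' : s18b_ev G (laurentBaseChange K₀ (modularFunctionFieldFull (M * q)))
          (s18g_jF (K := K₀) (M * q)) s = 0 := (map_eq_zero a).mp h1'
      -- `0` is not a unit
      have htr : Transcendental κ (s34m_redInf G M ⟨s18g_jF (K := K₀) M, s34m_jF_mem_Vinf G M⟩) := by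
        rw [s34m_redInf_jF]
        exact s28v_transcendental_jqModC κ
      have hnu := s36qf_unit_inf G φ M q hq hqM (s18g_jF (K := K₀) M) (s34m_jF_mem_Vinf G M) htr s hs
      rw [s34m_alpha_jF, h2'] at hnu
      apply hnu
      rw [ValuationSubring.mem_nonunits_iff, map_zero]
      exact zero_lt_one
    have e : x = (s18b_ev G (laurentBaseChange K₀ (modularFunctionFieldFull (M * ℓ * q)))
        (s18g_jF (K := K₀) (M * ℓ * q)) s)⁻¹ *
        (s18b_ev G (laurentBaseChange K₀ (modularFunctionFieldFull (M * ℓ * q)))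
          (s18g_jF (K := K₀) (M * ℓ * q)) s * x) := by
      rw [← mul_assoc, inv_mul_cancel₀ hc0, one_mul]
    rw [e]
    exact W.mul_mem _ _ hc'inv hcx
  have hU := fun k => s36b_isUnif_VV G φ (M * ℓ) q hq hqMℓ k
  have hne : s34m_VV G φ (M * ℓ) q hq hqMℓ true ≠ s34m_VV G φ (M * ℓ) q hq hqMℓ false :=
    s36qf_VV_ne G φ (M * ℓ) q hq hqMℓ true false (by decide)
  -- `W ≠ ⊤`
  have hWtop : W ≠ ⊤ := by
    intro htop
    have : (s34m_VV G φ M q hq hqM i) = ⊤ := by
      rw [← hW, htop]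
      rfl
    exact s36b_dvr_ne_top (s36b_isUnif_VV G φ M q hq hqM i) this
  -- identify the index
  have hidx : ∀ k : Bool, W = s34m_VV G φ (M * ℓ) q hq hqMℓ k → k = i := by
    intro k hk
    by_contra hki
    apply s36qf_VV_ne G φ M q hq hqM k i hki
    rw [← hW, hk]
    ext y
    rw [ValuationSubring.mem_comap]
    exact (s59u_a_mem_VV G φ M q ℓ hq hqM hqMℓ a ha k y).symm
  rcases s36b_le_of_inter_le (hU true) (hU false) hne hinf with hle | hle
  · rcases s36b_dvr_max (hU true) hle with h | h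
    · rw [h, hidx true h]
    · exact absurd h hWtop
  · rcases s36b_dvr_max (hU false) hle with h | h
    · rw [h, hidx false h]
    · exact absurd h hWtop

include ha in
/-- `V'_i.comap a = V_i`. -/
theorem s59u_VV_comap_a (i : Bool) :
    (s34m_VV G φ (M * ℓ) q hq hqMℓ i).comap (a : s34m_F K₀ (M * q) →+* s34m_F K₀ (M * ℓ * q)) =
      s34m_VV G φ M q hq hqM i := by
  ext y
  rw [ValuationSubring.mem_comap]
  exact s59u_a_mem_VV G φ M q ℓ hq hqM hqMℓ a ha i y

include hb in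
/-- `V'_i.comap b = V_i`. -/
theorem s59u_VV_comap_b (i : Bool) :
    (s34m_VV G φ (M * ℓ) q hq hqMℓ i).comap (b : s34m_F K₀ (M * q) →+* s34m_F K₀ (M * ℓ * q)) =
      s34m_VV G φ M q hq hqM i := by
  refine s59u_comap_eq_of_le _ _ _ (fun y hy => s59u_b_mem_VV G φ M q ℓ hq hqM hqMℓ b hb i y hy)
    fun y hy => ?_
  obtain ⟨z, hz, e⟩ := s36q_fi_gen G φ M q hq hqM i y hy
  have e' : (b : s34m_F K₀ (M * q) →+* s34m_F K₀ (M * ℓ * q)) y =
      s34m_unif G (M * ℓ * q) * b z := by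
    show b y = _
    rw [e, map_mul]
    congr 1
    exact b.commutes _
  rw [e']
  exact s36qf_mul_mem_nonunits _ (s36e_unif_mem_nonunits_VV G φ (M * ℓ) q hq hqMℓ i)
    (s59u_b_mem_VV G φ M q ℓ hq hqM hqMℓ b hb i z hz)

include ha hb hqMℓ in
/-- **the correspondence of the vertical valuations**: over `V_i` along `a` ⇒ over `V_i` along `b`. -/
theorem s59u_val_corr (i : Bool) (W : ValuationSubring (s34m_F K₀ (M * ℓ * q)))
    (hW : W.comap (a : s34m_F K₀ (M * q) →+* s34m_F K₀ (M * ℓ * q)) = s34m_VV G φ M q hq hqM i) :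
    W.comap (b : s34m_F K₀ (M * q) →+* s34m_F K₀ (M * ℓ * q)) = s34m_VV G φ M q hq hqM i := by
  rw [s59u_val_over_a G φ M q ℓ hq hqM hqMℓ a ha i W hW]
  exact s59u_VV_comap_b G φ M q ℓ hq hqM hqMℓ b hb i

end Fermat.Agent.Lib.S59
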