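/-
Programme (R2), node **[CAR]**, route R-DS′, leaf **[L-c]** (Hecke frame), part 1 (helper3, prefix `s59u_`):
**THE KUMMER-SIDE HECKE OPERATOR `τ_ℓ = Nm_α ∘ β` OVER AN ARBITRARY `L₀ ⊆ ℚ̄` — NO ROOT OF UNITY IN `L₀`.**

The S33/S44 operator `s33t_tau N ℓ hℓN L₀ ζ₀ hζ₀` needs a primitive `ℓ`-th root of unity `ζ₀ ∈ L₀`.  A Hecke frame needs
`τ_ℓ` for ALL `ℓ ∤ M q p` over ONE finite base field `L₀`.  Here `τ_ℓ` is descended: the `q`-expansion `N_ℓ(ζ)(y)`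
(`ζ ∈ ℚ̄`) of `Nm_α (β y)` is fixed by `Gal(ℚ̄/L₀)` (the Galois group permutes the factors of `∏_b y(ζ^b q^{1/ℓ})`), so it
has coefficients in `L₀`.

* `s59u_prodTw_pow`, `s59u_N_pow` : `N_ℓ(ζ^a) = N_ℓ(ζ)` for `a` prime to `ℓ`;
* `s59u_N_fixed`, `s59u_exists_N` : Galois invariance, descent of the series;
* **`s59u_tauD N ℓ hℓN L₀ : 𝓕_{L₀}(N) →* 𝓕_{L₀}(N)`**, `s59u_incl_tauD : incl (τ y) = Nm_α (β (incl y))`;
* `s59u_tauD_eq_tau` (it is `s33t_tau` when `ζ₀ ∈ L₀`), `s59u_coe_tauD`, `s59u_tauD_algebraMap : τ c = c ^ (ℓ + 1)`;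
* `s59u_tauD_al` : `w_q ∘ τ_ℓ = τ_ℓ ∘ w_q` at level `M q`;
* for the Gauss datum `G = s37r_G P L₀ ϖ hϖ` of a place `P ∣ q` of `ℚ̄`, `ℓ ≠ q`:
  **`s59u_tauD_mem_Vinf`, `s59u_tauD_cong_Vinf`, `s59u_tauD_mem_Vzero`, `s59u_tauD_cong_Vzero`** — the four inputs
  `mem_i`, `cong_i`, `mem_z`, `cong_z` of `s59u_heckeOn_of_cong` (UCarHeckeOn.lean), and `s59u_tauD_const`.
-/
import Fermat.Agent.Lib.S59.MRedTop
import Fermat.Agent.Lib.S44.HTauTop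
import Fermat.Agent.Lib.S44.HTauCong
import Fermat.Agent.Lib.S33.TPDict
import Fermat.Agent.Lib.S29.DCCoeff

set_option autoImplicit false
set_option linter.style.haveILetI false
set_option linter.unusedSectionVars false
set_option linter.unusedVariables false
set_option synthInstance.maxHeartbeats 400000

noncomputable section

namespace Fermat.Agent.Lib.S59

open ModularCurve HahnSeries AlgebraicCurve Fermat.Agent.Lib.FF Fermat.Agent.Lib.S18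
  Fermat.Agent.Lib.S28 Fermat.Agent.Lib.S29 Fermat.Agent.Lib.S37 Fermat.Agent.Lib.S34
  Fermat.Agent.Lib.S33 Fermat.Agent.Lib.S44

local notation "Kb" => AlgebraicClosure ℚ

/-- `ℚ̄ / L₀` is Galois. -/
theorem s59u_isGalois_over (L₀ : IntermediateField ℚ Kb) : IsGalois ↥L₀ Kb := by
  haveI : Normal ℚ Kb := s33t_normal_QBar
  haveI : Normal ↥L₀ Kb := Normal.tower_top_of_normal ℚ ↥L₀ Kb
  haveI : Algebra.IsAlgebraic ↥L₀ Kb := Algebra.IsAlgebraic.tower_top (K := ℚ) ↥L₀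
  haveI : Algebra.IsSeparable ↥L₀ Kb := Algebra.IsAlgebraic.isSeparable_of_perfectField
  exact ⟨⟩

/-! ### Series level: independence of the root of unity -/

section Series

variable {R : Type*} [CommRing R]

/-- the product of the twists does not depend on the choice of the generator of `μ_ℓ`. -/
theorem s59u_prodTw_pow (ℓ : ℕ) (hℓ : 0 < ℓ) (ζ : Rˣ) (hζ : ζ ^ ℓ = 1) (a : ℕ) (ha : a.Coprime ℓ)
    (y : LaurentSeries R) : s37e_prodTw ℓ (ζ ^ a) y = s37e_prodTw ℓ ζ y := by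
  unfold s37e_prodTw
  have hmod : ∀ n : ℕ, ζ ^ n = ζ ^ (n % ℓ) := fun n => by
    conv_lhs => rw [← Nat.div_add_mod n ℓ, _root_.pow_add, pow_mul, hζ, one_pow, one_mul]
  by_cases h1 : ℓ = 1
  · subst h1
    simp
  have hℓ1 : 1 < ℓ := by omega
  obtain ⟨a', -, ha'⟩ := Nat.exists_mul_mod_eq_one_of_coprime ha hℓ1
  have hkey : ∀ b : ℕ, (a' * ((a * b) % ℓ)) % ℓ = b % ℓ := fun b => by
    rw [Nat.mul_mod, Nat.mod_mod, ← Nat.mul_mod, ← mul_assoc, mul_comm a' a, Nat.mul_mod, ha',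
      one_mul, Nat.mod_mod]
  have hkey' : ∀ b : ℕ, (a * ((a' * b) % ℓ)) % ℓ = b % ℓ := fun b => by
    rw [Nat.mul_mod, Nat.mod_mod, ← Nat.mul_mod, ← mul_assoc, Nat.mul_mod, ha',
      one_mul, Nat.mod_mod]
  refine Finset.prod_nbij' (fun b => (a * b) % ℓ) (fun b => (a' * b) % ℓ) ?_ ?_ ?_ ?_ ?_
  · intro b _
    exact Finset.mem_range.mpr (Nat.mod_lt _ hℓ)
  · intro b _
    exact Finset.mem_range.mpr (Nat.mod_lt _ hℓ)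
  · intro b hb
    show (a' * ((a * b) % ℓ)) % ℓ = b
    rw [hkey, Nat.mod_eq_of_lt (Finset.mem_range.mp hb)]
  · intro b hb
    show (a * ((a' * b) % ℓ)) % ℓ = b
    rw [hkey', Nat.mod_eq_of_lt (Finset.mem_range.mp hb)]
  · intro b _
    show s28m_tw ((ζ ^ a) ^ b) y = s28m_tw (ζ ^ ((a * b) % ℓ)) y
    rw [← pow_mul, hmod (a * b)]

/-- `N_ℓ(ζ^a) = N_ℓ(ζ)` for `a` prime to `ℓ`. -/
theorem s59u_N_pow (ℓ : ℕ) [NeZero ℓ] (ζ : Rˣ) (hζ : ζ ^ ℓ = 1) (a : ℕ) (ha : a.Coprime ℓ)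
    (y : LaurentSeries R) : s33t_N ℓ (ζ ^ a) y = s33t_N ℓ ζ y := by
  unfold s33t_N s33t_P
  rw [s59u_prodTw_pow ℓ (Nat.pos_of_ne_zero (NeZero.ne ℓ)) ζ hζ a ha]

/-- `N_ℓ(ζ) = N_ℓ(ζ')` for two primitive `ℓ`-th roots of unity of a domain. -/
theorem s59u_N_indep [IsDomain R] (ℓ : ℕ) [hℓ : Fact ℓ.Prime] (ζ ζ' : Rˣ)
    (hζ : IsPrimitiveRoot (ζ : R) ℓ) (hζ' : IsPrimitiveRoot (ζ' : R) ℓ) (y : LaurentSeries R) :
    haveI : NeZero ℓ := ⟨hℓ.out.ne_zero⟩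
    s33t_N ℓ ζ' y = s33t_N ℓ ζ y := by
  haveI : NeZero ℓ := ⟨hℓ.out.ne_zero⟩
  obtain ⟨a, -, ha⟩ := hζ.eq_pow_of_pow_eq_one hζ'.pow_eq_one
  have hcop : a.Coprime ℓ := by
    rw [← ha] at hζ'
    exact (hζ.pow_iff_coprime hℓ.out.pos a).mp hζ'
  have h2 : ζ' = ζ ^ a := by
    apply Units.ext
    rw [Units.val_pow_eq_pow_val, ha]
  rw [h2]
  refine s59u_N_pow ℓ ζ ?_ a hcop _
  apply Units.ext
  rw [Units.val_pow_eq_pow_val, Units.val_one]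
  exact hζ.pow_eq_one

end Series

/-! ### Galois invariance and descent of the series -/

section Desc

variable (ℓ : ℕ) [hℓ : Fact ℓ.Prime] (L₀ : IntermediateField ℚ Kb)

/-- the series `N_ℓ(ζ)(Y)`, `ζ ∈ ℚ̄`, of a series `Y` over `L₀` is fixed by `Gal(ℚ̄/L₀)`. -/
theorem s59u_N_fixed (ζ : Kbˣ) (hζ : IsPrimitiveRoot (ζ : Kb) ℓ) (Y : LaurentSeries ↥L₀)
    (σ : Kb ≃ₐ[↥L₀] Kb) :
    haveI : NeZero ℓ := ⟨hℓ.out.ne_zero⟩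
    coeffMap ((σ : Kb ≃+* Kb) : Kb →+* Kb) (s33t_N ℓ ζ (coeffMap (algebraMap ↥L₀ Kb) Y)) =
      s33t_N ℓ ζ (coeffMap (algebraMap ↥L₀ Kb) Y) := by
  haveI : NeZero ℓ := ⟨hℓ.out.ne_zero⟩
  rw [s33t_coeffMap_N', coeffMap_coeffMap]
  have h1 : (((σ : Kb ≃+* Kb) : Kb →+* Kb)).comp (algebraMap ↥L₀ Kb) = algebraMap ↥L₀ Kb := by
    ext a
    exact σ.commutes a
  rw [h1]
  have hσζ : IsPrimitiveRoot
      ((Units.map ((((σ : Kb ≃+* Kb) : Kb →+* Kb)) : Kb →* Kb) ζ : Kbˣ) : Kb) ℓ :=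
    hζ.map_of_injective (f := σ) σ.injective
  exact s59u_N_indep ℓ ζ _ hζ hσζ _

/-- hence it is defined over `L₀`. -/
theorem s59u_exists_N (ζ : Kbˣ) (hζ : IsPrimitiveRoot (ζ : Kb) ℓ) (Y : LaurentSeries ↥L₀) :
    haveI : NeZero ℓ := ⟨hℓ.out.ne_zero⟩
    ∃ Y' : LaurentSeries ↥L₀, coeffMap (algebraMap ↥L₀ Kb) Y' =
      s33t_N ℓ ζ (coeffMap (algebraMap ↥L₀ Kb) Y) := by
  haveI : NeZero ℓ := ⟨hℓ.out.ne_zero⟩
  haveI := s59u_isGalois_over L₀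
  apply s29cf_exists_coeffMap_eq
  intro n
  rw [InfiniteGalois.mem_range_algebraMap_iff_fixed]
  intro σ
  have h := congrArg (fun z : LaurentSeries Kb => z.coeff n) (s59u_N_fixed ℓ L₀ ζ hζ Y σ)
  simp only [coeffMap_coeff] at h
  exact h

end Desc

/-! ### The operator -/

section Tau

variable (N : ℕ) [NeZero N] (ℓ : ℕ) [hℓ : Fact ℓ.Prime] (hℓN : ¬ ℓ ∣ N)
variable (L₀ : IntermediateField ℚ Kb)

/-- a primitive `ℓ`-th root of unity of `ℚ̄`, as a unit. -/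
theorem s59u_exists_zeta : ∃ ζ : Kbˣ, IsPrimitiveRoot (ζ : Kb) ℓ := by
  haveI : NeZero ℓ := ⟨hℓ.out.ne_zero⟩
  obtain ⟨ζ', hζ'⟩ := HasEnoughRootsOfUnity.exists_primitiveRoot Kb ℓ
  refine ⟨(hζ'.isUnit (NeZero.ne ℓ)).unit, ?_⟩
  rw [IsUnit.unit_spec]
  exact hζ'

include hℓN in
theorem s59u_exists_tau (y : s34m_F ↥L₀ N) :
    haveI : NeZero ℓ := ⟨hℓ.out.ne_zero⟩
    ∃ z : s34m_F ↥L₀ N, s18q_incl N L₀ z =
      s37e_normAlpha N ℓ (heckeBetaBar Kb N ℓ (s18q_incl N L₀ y)) := by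
  haveI : NeZero ℓ := ⟨hℓ.out.ne_zero⟩
  obtain ⟨ζ, hζ⟩ := s59u_exists_zeta ℓ
  obtain ⟨Y', hY'⟩ := s59u_exists_N ℓ L₀ ζ hζ (y : LaurentSeries ↥L₀)
  have hcoe := s44h_coe_normAlpha_beta N ℓ hℓN ζ hζ (s18q_incl N L₀ y)
  rw [s18q_incl_coe] at hcoe
  have hmem : Y' ∈ laurentBaseChange ↥L₀ (modularFunctionFieldFull N) := by
    apply s29cf_mem_of_coeffMap_mem' (algebraMap ↥L₀ Kb) (modularFunctionFieldFull N)
    rw [hY', ← hcoe]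
    exact Subtype.mem _
  refine ⟨⟨Y', hmem⟩, ?_⟩
  apply Subtype.ext
  rw [s18q_incl_coe, hcoe]
  exact hY'

/-- **The Kummer-side Hecke operator `τ_ℓ = Nm_α ∘ β` over an ARBITRARY `L₀ ⊆ ℚ̄`** (no root of unity). -/
def s59u_tauD : s34m_F ↥L₀ N →* s34m_F ↥L₀ N where
  toFun y := Classical.choose (s59u_exists_tau N ℓ hℓN L₀ y)
  map_one' := by
    haveI : NeZero ℓ := ⟨hℓ.out.ne_zero⟩
    apply s18q_incl_injective N L₀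
    rw [Classical.choose_spec (s59u_exists_tau N ℓ hℓN L₀ 1)]
    simp only [map_one]
    unfold s37e_normAlpha
    rw [map_one]
  map_mul' x y := by
    haveI : NeZero ℓ := ⟨hℓ.out.ne_zero⟩
    apply s18q_incl_injective N L₀
    have hxy := Classical.choose_spec (s59u_exists_tau N ℓ hℓN L₀ (x * y))
    have hx := Classical.choose_spec (s59u_exists_tau N ℓ hℓN L₀ x)
    have hy := Classical.choose_spec (s59u_exists_tau N ℓ hℓN L₀ y)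
    refine hxy.trans ?_
    refine Eq.trans ?_ (map_mul (s18q_incl N L₀) _ _).symm
    refine Eq.trans ?_ (congrArg₂ (· * ·) hx.symm hy.symm)
    simp only [map_mul]
    unfold s37e_normAlpha
    rw [map_mul]

/-- **the characterisation**: `incl (τ y) = Nm_α (β (incl y))`. -/
theorem s59u_incl_tauD (y : s34m_F ↥L₀ N) :
    haveI : NeZero ℓ := ⟨hℓ.out.ne_zero⟩
    s18q_incl N L₀ (s59u_tauD N ℓ hℓN L₀ y) =
      s37e_normAlpha N ℓ (heckeBetaBar Kb N ℓ (s18q_incl N L₀ y)) :=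
  Classical.choose_spec (s59u_exists_tau N ℓ hℓN L₀ y)

/-- the `q`-expansion of `τ y`, pushed to `ℚ̄`. -/
theorem s59u_coe_tauD (ζ : Kbˣ) (hζ : IsPrimitiveRoot (ζ : Kb) ℓ) (y : s34m_F ↥L₀ N) :
    haveI : NeZero ℓ := ⟨hℓ.out.ne_zero⟩
    coeffMap (algebraMap ↥L₀ Kb) ((s59u_tauD N ℓ hℓN L₀ y : s34m_F ↥L₀ N) : LaurentSeries ↥L₀) =
      s33t_N ℓ ζ (coeffMap (algebraMap ↥L₀ Kb) (y : LaurentSeries ↥L₀)) := by
  haveI : NeZero ℓ := ⟨hℓ.out.ne_zero⟩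
  rw [← s18q_incl_coe, s59u_incl_tauD, s44h_coe_normAlpha_beta N ℓ hℓN ζ hζ, s18q_incl_coe]

/-- it is the S33 operator when `L₀` contains a primitive `ℓ`-th root of unity. -/
theorem s59u_tauD_eq_tau (ζ₀ : (↥L₀)ˣ) (hζ₀ : IsPrimitiveRoot (ζ₀ : ↥L₀) ℓ) :
    s59u_tauD N ℓ hℓN L₀ = s33t_tau N ℓ hℓN L₀ ζ₀ hζ₀ := by
  ext1 y
  apply s18q_incl_injective N L₀
  rw [s59u_incl_tauD, s33t_incl_tau]

/-- `τ c = c ^ (ℓ + 1)` on constants. -/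
theorem s59u_tauD_algebraMap (c : ↥L₀) :
    s59u_tauD N ℓ hℓN L₀ (algebraMap ↥L₀ (s34m_F ↥L₀ N) c) =
      algebraMap ↥L₀ (s34m_F ↥L₀ N) (c ^ (ℓ + 1)) := by
  haveI : NeZero ℓ := ⟨hℓ.out.ne_zero⟩
  obtain ⟨ζ, hζ⟩ := s59u_exists_zeta ℓ
  have h1 : ∀ d : ↥L₀,
      ((algebraMap ↥L₀ (s34m_F ↥L₀ N) d : s34m_F ↥L₀ N) : LaurentSeries ↥L₀) = HahnSeries.C d := by
    intro d
    show algebraMap ↥L₀ (LaurentSeries ↥L₀) d = HahnSeries.C d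
    rw [algebraMap_laurentSeries_eq_single]
    rfl
  apply Subtype.ext
  apply HahnSeries.ext
  funext n
  apply (algebraMap ↥L₀ Kb).injective
  have h := congrArg (fun z : LaurentSeries Kb => z.coeff n)
    (s59u_coe_tauD N ℓ hℓN L₀ ζ hζ (algebraMap ↥L₀ (s34m_F ↥L₀ N) c))
  simp only [coeffMap_coeff] at h
  rw [h, h1, h1]
  have h2 : coeffMap (algebraMap ↥L₀ Kb) (HahnSeries.C c : LaurentSeries ↥L₀) =
      HahnSeries.C (algebraMap ↥L₀ Kb c) := by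
    ext m
    rw [coeffMap_coeff]
    by_cases hm : m = 0
    · subst hm
      simp [HahnSeries.C_apply]
    · simp [HahnSeries.C_apply, HahnSeries.coeff_single_of_ne hm]
  rw [h2, s33t_N_C, ← map_pow]
  by_cases hm : n = 0
  · subst hm
    simp [HahnSeries.C_apply]
  · simp [HahnSeries.C_apply, HahnSeries.coeff_single_of_ne hm]

/-- the form asked for by `s59u_heckeOn_of_cong`. -/
theorem s59u_tauD_const (c : ↥L₀) : ∃ d : ↥L₀,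
    s59u_tauD N ℓ hℓN L₀ (algebraMap ↥L₀ (s34m_F ↥L₀ N) c) = algebraMap ↥L₀ (s34m_F ↥L₀ N) d :=
  ⟨c ^ (ℓ + 1), s59u_tauD_algebraMap N ℓ hℓN L₀ c⟩

theorem s59u_tauD_zero : s59u_tauD N ℓ hℓN L₀ 0 = 0 := by
  have h := s59u_tauD_algebraMap N ℓ hℓN L₀ 0
  rw [zero_pow (Nat.succ_ne_zero ℓ), map_zero (algebraMap ↥L₀ (s34m_F ↥L₀ N))] at h
  exact h

theorem s59u_tauD_ne_zero {y : s34m_F ↥L₀ N} (hy : y ≠ 0) : s59u_tauD N ℓ hℓN L₀ y ≠ 0 := by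
  intro h0
  have h1 : s59u_tauD N ℓ hℓN L₀ y * s59u_tauD N ℓ hℓN L₀ y⁻¹ = 1 := by
    rw [← map_mul, mul_inv_cancel₀ hy, map_one]
  rw [h0, zero_mul] at h1
  exact zero_ne_one h1

theorem s59u_tauD_inv (y : s34m_F ↥L₀ N) :
    s59u_tauD N ℓ hℓN L₀ y⁻¹ = (s59u_tauD N ℓ hℓN L₀ y)⁻¹ := by
  by_cases hy : y = 0
  · subst hy
    rw [inv_zero, s59u_tauD_zero, inv_zero]
  · apply eq_inv_of_mul_eq_one_left
    rw [← map_mul, inv_mul_cancel₀ hy, map_one]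

end Tau

/-! ### Commutation with the Atkin–Lehner involution -/

section AL

variable (M q : ℕ) [NeZero M] [hq : Fact q.Prime] (hqM : ¬ q ∣ M)
variable (ℓ : ℕ) [hℓ : Fact ℓ.Prime] (hℓN : ¬ ℓ ∣ M * q)
variable (L₀ : IntermediateField ℚ Kb)

/-- **`w_q ∘ τ_ℓ = τ_ℓ ∘ w_q` on `𝓕_{L₀}(M q)`.** -/
theorem s59u_tauD_al (y : s34m_F ↥L₀ (M * q)) :
    s34m_al (algebraMap ↥L₀ Kb) M q hq.out hqM (s59u_tauD (M * q) ℓ hℓN L₀ y) =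
      s59u_tauD (M * q) ℓ hℓN L₀ (s34m_al (algebraMap ↥L₀ Kb) M q hq.out hqM y) := by
  apply s18q_incl_injective (M * q) L₀
  have e1 : s18q_incl (M * q) L₀
      (s34m_al (algebraMap ↥L₀ Kb) M q hq.out hqM (s59u_tauD (M * q) ℓ hℓN L₀ y)) =
      s37w_al M q hq.out hqM (s18q_incl (M * q) L₀ (s59u_tauD (M * q) ℓ hℓN L₀ y)) :=
    s34m_iota_al (algebraMap ↥L₀ Kb) M q hq.out hqM _
  have e2 : s18q_incl (M * q) L₀ (s34m_al (algebraMap ↥L₀ Kb) M q hq.out hqM y) =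
      s37w_al M q hq.out hqM (s18q_incl (M * q) L₀ y) :=
    s34m_iota_al (algebraMap ↥L₀ Kb) M q hq.out hqM y
  rw [e1, s59u_incl_tauD, s59u_incl_tauD, e2,
    s44h_tauBar_al M q ℓ hq.out hqM (s44h_not_dvd_mul M q hqM ℓ hℓN)]

end AL

/-! ### Gauss integrality and congruences -/

section Gauss

variable (N : ℕ) [NeZero N] (ℓ : ℕ) [hℓ : Fact ℓ.Prime] (hℓN : ¬ ℓ ∣ N)
  {q : ℕ} [hq : Fact q.Prime] (hℓq : ℓ ≠ q)
  (P : ValuationSubring Kb) (hP : P.LiesOverPrime q)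
  (L₀ : IntermediateField ℚ Kb) [IsDiscreteValuationRing ↥(s18q_A0 P L₀)]
  (ϖ : ↥(s18q_A0 P L₀)) (hϖ : Irreducible ϖ)

include hP in
/-- **`τ_ℓ V_∞ ⊆ V_∞`.** -/
theorem s59u_tauD_mem_Vinf {y : s34m_F ↥L₀ N} (hy : y ∈ s34m_Vinf (s37r_G P L₀ ϖ hϖ) N) :
    s59u_tauD N ℓ hℓN L₀ y ∈ s34m_Vinf (s37r_G P L₀ ϖ hϖ) N := by
  haveI : NeZero ℓ := ⟨hℓ.out.ne_zero⟩
  obtain ⟨ζ, hζ⟩ := s59u_exists_zeta ℓ
  have h1 : s18q_incl N L₀ y ∈ s37r_OF P N hP := (s37r_incl_mem_OF_iff P N hP L₀ ϖ hϖ y).mpr hy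
  have h2 := s59m_tauBar_mem_OF N ℓ hℓN P hP ζ hζ h1
  rw [← s59u_incl_tauD N ℓ hℓN L₀ y] at h2
  exact (s37r_incl_mem_OF_iff P N hP L₀ ϖ hϖ _).mp h2

include hP hℓq in
/-- **`red (τ_ℓ y) = 1` if `red y = 1`.** -/
theorem s59u_redInf_tauD_eq_one {y : s34m_F ↥L₀ N} (hy : y ∈ s34m_Vinf (s37r_G P L₀ ϖ hϖ) N)
    (hred : s34m_redInf (s37r_G P L₀ ϖ hϖ) N ⟨y, hy⟩ = 1) :
    s34m_redInf (s37r_G P L₀ ϖ hϖ) N
      ⟨s59u_tauD N ℓ hℓN L₀ y, s59u_tauD_mem_Vinf N ℓ hℓN P hP L₀ ϖ hϖ hy⟩ = 1 := by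
  haveI : NeZero ℓ := ⟨hℓ.out.ne_zero⟩
  obtain ⟨ζ, hζ⟩ := s59u_exists_zeta ℓ
  have h1 : s18q_incl N L₀ y ∈ s37r_OF P N hP := (s37r_incl_mem_OF_iff P N hP L₀ ϖ hϖ y).mpr hy
  have hτV := s59u_tauD_mem_Vinf N ℓ hℓN P hP L₀ ϖ hϖ hy
  have h2 : s18q_incl N L₀ (s59u_tauD N ℓ hℓN L₀ y) ∈ s37r_OF P N hP :=
    (s37r_incl_mem_OF_iff P N hP L₀ ϖ hϖ _).mpr hτV
  have e1 := s37r_redV_incl P N hP L₀ ϖ hϖ y hy h1
  have e2 := s37r_redV_incl P N hP L₀ ϖ hϖ (s59u_tauD N ℓ hℓN L₀ y) hτV h2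
  have e3 := s59m_redV_tauBar N ℓ hℓN hℓq P hP ζ hζ h1
  have hy1 : s18g_redV (s37r_G P L₀ ϖ hϖ) (laurentBaseChange ↥L₀ (modularFunctionFieldFull N))
      (fun _ hf => s18g_baseChange_mem_Frac (s37r_G P L₀ ϖ hϖ) N hf) ⟨y, hy⟩ = 1 := hred
  rw [hy1, map_one] at e1
  -- `redV (incl (τ y)) = redV (Nm β incl y) = N̄ (1) = 1`
  have e4 : s37r_redV P N hP ⟨s18q_incl N L₀ (s59u_tauD N ℓ hℓN L₀ y), h2⟩ = 1 := by
    have hcongr : (⟨s18q_incl N L₀ (s59u_tauD N ℓ hℓN L₀ y), h2⟩ : ↥(s37r_OF P N hP)) =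
        ⟨s37e_normAlpha N ℓ (heckeBetaBar Kb N ℓ (s18q_incl N L₀ y)),
          s59m_tauBar_mem_OF N ℓ hℓN P hP ζ hζ h1⟩ := Subtype.ext (s59u_incl_tauD N ℓ hℓN L₀ y)
    rw [hcongr, e3, e1]
    have h1C : (1 : LaurentSeries (IsLocalRing.ResidueField ↥P)) = HahnSeries.C 1 := by
      rw [map_one]
    rw [h1C, s33t_N_C, one_pow]
  rw [e4] at e2
  have hinj : Function.Injective (coeffMap (s37r_resMap P L₀)) := by
    intro a b hab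
    ext n
    have := congrArg (fun z : LaurentSeries (IsLocalRing.ResidueField ↥P) => z.coeff n) hab
    simp only [coeffMap_coeff] at this
    exact (s37r_resMap P L₀).injective this
  apply hinj
  rw [map_one]
  exact e2.symm

include hP hℓq in
/-- **(E-∞), congruence form: `τ_ℓ (1 + ϖ V_∞) ⊆ 1 + ϖ V_∞`.** -/
theorem s59u_tauD_cong_Vinf {y : s34m_F ↥L₀ N} (hy : y ∈ s34m_Vinf (s37r_G P L₀ ϖ hϖ) N)
    (hc : ∃ z ∈ s34m_Vinf (s37r_G P L₀ ϖ hϖ) N, y - 1 = s34m_unif (s37r_G P L₀ ϖ hϖ) N * z) :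
    ∃ z' ∈ s34m_Vinf (s37r_G P L₀ ϖ hϖ) N,
      s59u_tauD N ℓ hℓN L₀ y - 1 = s34m_unif (s37r_G P L₀ ϖ hϖ) N * z' := by
  set G := s37r_G P L₀ ϖ hϖ with hG
  have h1V : (1 : s34m_F ↥L₀ N) ∈ s34m_Vinf G N := (s34m_Vinf G N).one_mem
  have hsub : y - 1 ∈ s34m_Vinf G N := sub_mem hy h1V
  have hred0 : s34m_redInf G N ⟨y - 1, hsub⟩ = 0 := (s34m_redInf_eq_zero_iff G N ⟨y - 1, hsub⟩).mpr hc
  have hred : s34m_redInf G N ⟨y, hy⟩ = 1 := by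
    have e : (⟨y - 1, hsub⟩ : s34m_Vinf G N) = ⟨y, hy⟩ - 1 := rfl
    rw [e, map_sub, map_one, sub_eq_zero] at hred0
    exact hred0
  have hτ := s59u_redInf_tauD_eq_one N ℓ hℓN hℓq P hP L₀ ϖ hϖ hy hred
  have hτV := s59u_tauD_mem_Vinf N ℓ hℓN P hP L₀ ϖ hϖ hy
  have hsub' : s59u_tauD N ℓ hℓN L₀ y - 1 ∈ s34m_Vinf G N := sub_mem hτV h1V
  have hred0' : s34m_redInf G N ⟨s59u_tauD N ℓ hℓN L₀ y - 1, hsub'⟩ = 0 := by
    have e : (⟨s59u_tauD N ℓ hℓN L₀ y - 1, hsub'⟩ : s34m_Vinf G N) =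
        ⟨s59u_tauD N ℓ hℓN L₀ y, hτV⟩ - 1 := rfl
    rw [e, map_sub, map_one, hτ, sub_self]
  exact (s34m_redInf_eq_zero_iff G N ⟨_, hsub'⟩).mp hred0'

end Gauss

section GaussZero

variable (M : ℕ) [NeZero M] {q : ℕ} [hq : Fact q.Prime] (hqM : ¬ q ∣ M)
  (ℓ : ℕ) [hℓ : Fact ℓ.Prime] (hℓN : ¬ ℓ ∣ M * q) (hℓq : ℓ ≠ q)
  (P : ValuationSubring Kb) (hP : P.LiesOverPrime q)
  (L₀ : IntermediateField ℚ Kb) [IsDiscreteValuationRing ↥(s18q_A0 P L₀)]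
  (ϖ : ↥(s18q_A0 P L₀)) (hϖ : Irreducible ϖ)

include hP in
/-- **`τ_ℓ V_0 ⊆ V_0`.** -/
theorem s59u_tauD_mem_Vzero {y : s34m_F ↥L₀ (M * q)}
    (hy : y ∈ s34m_Vzero (s37r_G P L₀ ϖ hϖ) (algebraMap ↥L₀ Kb) M q hq.out hqM) :
    s59u_tauD (M * q) ℓ hℓN L₀ y ∈
      s34m_Vzero (s37r_G P L₀ ϖ hϖ) (algebraMap ↥L₀ Kb) M q hq.out hqM := by
  rw [s34m_mem_Vzero] at hy ⊢
  rw [s59u_tauD_al]
  exact s59u_tauD_mem_Vinf (M * q) ℓ hℓN P hP L₀ ϖ hϖ hy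

include hP hℓq in
/-- **(E-0), congruence form: `τ_ℓ (1 + ϖ V_0) ⊆ 1 + ϖ V_0`.** -/
theorem s59u_tauD_cong_Vzero {y : s34m_F ↥L₀ (M * q)}
    (hy : y ∈ s34m_Vzero (s37r_G P L₀ ϖ hϖ) (algebraMap ↥L₀ Kb) M q hq.out hqM)
    (hc : ∃ z ∈ s34m_Vzero (s37r_G P L₀ ϖ hϖ) (algebraMap ↥L₀ Kb) M q hq.out hqM,
      y - 1 = s34m_unif (s37r_G P L₀ ϖ hϖ) (M * q) * z) :
    ∃ z' ∈ s34m_Vzero (s37r_G P L₀ ϖ hϖ) (algebraMap ↥L₀ Kb) M q hq.out hqM,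
      s59u_tauD (M * q) ℓ hℓN L₀ y - 1 = s34m_unif (s37r_G P L₀ ϖ hϖ) (M * q) * z' := by
  set G := s37r_G P L₀ ϖ hϖ with hG
  set w := s34m_al (algebraMap ↥L₀ Kb) M q hq.out hqM with hw
  obtain ⟨z, hz, hyz⟩ := hc
  have hwy : w y - 1 = s34m_unif G (M * q) * w z := by
    have := congrArg w hyz
    rwa [map_sub, map_one, map_mul, s34m_al_unif] at this
  have hwyV : w y ∈ s34m_Vinf G (M * q) := (s34m_mem_Vzero G (algebraMap ↥L₀ Kb) M q hq.out hqM y).mp hy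
  have hwzV : w z ∈ s34m_Vinf G (M * q) := (s34m_mem_Vzero G (algebraMap ↥L₀ Kb) M q hq.out hqM z).mp hz
  obtain ⟨z', hz', h⟩ := s59u_tauD_cong_Vinf (M * q) ℓ hℓN hℓq P hP L₀ ϖ hϖ hwyV ⟨w z, hwzV, hwy⟩
  refine ⟨w z', ?_, ?_⟩
  · rw [s34m_mem_Vzero, ← hw, s34m_al_al]
    exact hz'
  · have h2 := congrArg w h
    rw [map_sub, map_one, map_mul, s34m_al_unif, hw, s59u_tauD_al, s34m_al_al] at h2
    exact h2

end GaussZero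

end Fermat.Agent.Lib.S59
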