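/-
Programme (R2), node **[CAR]**, leaf W5/[L2-7 HECKE₃] (helper3, prefix `s59u_`), part 2: **`τ_ℓ` IS THE NORM OVER `L₀`, AND IT
COMMUTES WITH THE DEGENERACY MAPS `α_d`, `β_d` OF ANOTHER LEVEL.**

* `s59u_tw_qExpand`, `s59u_prodTw_qExpand`, `s59u_P_qExpand`, `s59u_N_qExpand` : series level,
  `N_ℓ(ζ)(Y(T^d)) = N_ℓ(ζ)(Y)(T^d)` for `d` prime to `ℓ`;
* **`s59u_tauD_alpha`** : `τ_ℓ^{(N d)} ∘ α_d = α_d ∘ τ_ℓ^{(N)}`;  **`s59u_tauD_beta`** : the same for `β_d` (`d` prime to `ℓ`);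
* **`s59u_tauD_eq_norm`** : `τ_ℓ y = Nm_{α_ℓ} (β_ℓ y)` with the norm along `α_ℓ : 𝓕_{L₀}(N) → 𝓕_{L₀}(N ℓ)` OVER `L₀`
  (norms commute with the base change `L₀ → ℚ̄`, `s36v_norm_alpha_iota`).
-/
import Fermat.Agent.Lib.S59.UCarTauD
import Fermat.Agent.Lib.S36.VNormCompat

set_option autoImplicit false
set_option linter.style.haveILetI false
set_option linter.unusedSectionVars false
set_option linter.unusedVariables false
set_option synthInstance.maxHeartbeats 400000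

noncomputable section

namespace Fermat.Agent.Lib.S59

open ModularCurve HahnSeries AlgebraicCurve Fermat.Agent.Lib.FF Fermat.Agent.Lib.S18
  Fermat.Agent.Lib.S28 Fermat.Agent.Lib.S29 Fermat.Agent.Lib.S37 Fermat.Agent.Lib.S34
  Fermat.Agent.Lib.S35 Fermat.Agent.Lib.S36 Fermat.Agent.Lib.S33 Fermat.Agent.Lib.S44

local notation "Kb" => AlgebraicClosure ℚ

/-! ### Series level -/

section Series

variable {R : Type*} [CommRing R]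

/-- the twist of a series in `T^d`. -/
theorem s59u_tw_qExpand (c : Rˣ) (d : ℕ) [NeZero d] (x : LaurentSeries R) :
    s28m_tw c (qExpand R d x) = qExpand R d (s28m_tw (c ^ d) x) := by
  ext n
  rw [s28m_tw_coeff]
  by_cases hn : (d : ℤ) ∣ n
  · obtain ⟨m, rfl⟩ := hn
    rw [qExpand_coeff_mul, qExpand_coeff_mul, s28m_tw_coeff, zpow_mul, zpow_natCast]
  · rw [qExpand_coeff_of_not_dvd d x hn, qExpand_coeff_of_not_dvd d _ hn, mul_zero]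

theorem s59u_prodTw_qExpand (ℓ : ℕ) (ζ : Rˣ) (d : ℕ) [NeZero d] (x : LaurentSeries R) :
    s37e_prodTw ℓ ζ (qExpand R d x) = qExpand R d (s37e_prodTw ℓ (ζ ^ d) x) := by
  unfold s37e_prodTw
  rw [map_prod]
  refine Finset.prod_congr rfl fun b _ => ?_
  rw [s59u_tw_qExpand, ← pow_mul, ← pow_mul, mul_comm]

theorem s59u_P_qExpand (ℓ : ℕ) [NeZero ℓ] (ζ : Rˣ) (d : ℕ) [NeZero d] (x : LaurentSeries R) :
    s33t_P ℓ ζ (qExpand R d x) = qExpand R d (s33t_P ℓ (ζ ^ d) x) := by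
  unfold s33t_P
  rw [s59u_prodTw_qExpand, map_mul, qExpand_qExpand, qExpand_qExpand]
  congr 1
  exact qExpand_congr (mul_comm _ _) x

/-- **`N_ℓ(ζ)(Y(T^d)) = N_ℓ(ζ)(Y)(T^d)`** for `d` prime to `ℓ`. -/
theorem s59u_N_qExpand [IsDomain R] (ℓ : ℕ) [NeZero ℓ] (ζ : Rˣ) (hζ : IsPrimitiveRoot (ζ : R) ℓ)
    (d : ℕ) [NeZero d] (hd : d.Coprime ℓ) (x : LaurentSeries R) :
    s33t_N ℓ ζ (qExpand R d x) = qExpand R d (s33t_N ℓ ζ x) := by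
  apply s33t_N_eq_of_qExpand_eq
  have hζd : IsPrimitiveRoot ((ζ ^ d : Rˣ) : R) ℓ := by
    rw [Units.val_pow_eq_pow_val]
    exact hζ.pow_of_coprime d hd
  have hζ1 : ζ ^ ℓ = 1 := by
    apply Units.ext
    rw [Units.val_pow_eq_pow_val, Units.val_one]
    exact hζ.pow_eq_one
  rw [s59u_P_qExpand, s44h_P_eq_qExpand_N ℓ (ζ ^ d) hζd, s59u_N_pow ℓ ζ hζ1 d hd, qExpand_qExpand,
    qExpand_qExpand]
  exact qExpand_congr (mul_comm _ _) _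

end Series

/-! ### Commutation with the degeneracy maps -/

section Comm

variable (N d : ℕ) [NeZero N] [NeZero d] (ℓ : ℕ) [hℓ : Fact ℓ.Prime] (hℓN : ¬ ℓ ∣ N)
  (hℓNd : ¬ ℓ ∣ N * d) (L₀ : IntermediateField ℚ Kb)

theorem s59u_coeffMap_injective : Function.Injective (coeffMap (algebraMap ↥L₀ Kb)) := by
  intro a b hab
  apply HahnSeries.ext
  funext n
  have := congrArg (fun z : LaurentSeries Kb => z.coeff n) hab
  simp only [coeffMap_coeff] at this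
  exact (algebraMap ↥L₀ Kb).injective this

/-- **`τ_ℓ ∘ α_d = α_d ∘ τ_ℓ`.** -/
theorem s59u_tauD_alpha (ρ : s34m_F ↥L₀ N) :
    s59u_tauD (N * d) ℓ hℓNd L₀ (heckeAlphaBar ↥L₀ N d ρ) =
      heckeAlphaBar ↥L₀ N d (s59u_tauD N ℓ hℓN L₀ ρ) := by
  haveI : NeZero ℓ := ⟨hℓ.out.ne_zero⟩
  obtain ⟨ζ, hζ⟩ := s59u_exists_zeta ℓ
  apply Subtype.ext
  apply s59u_coeffMap_injective L₀
  rw [s59u_coe_tauD (N * d) ℓ hℓNd L₀ ζ hζ, coe_heckeAlphaBar, coe_heckeAlphaBar,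
    s59u_coe_tauD N ℓ hℓN L₀ ζ hζ]

/-- **`τ_ℓ ∘ β_d = β_d ∘ τ_ℓ`** (`d` prime to `ℓ`). -/
theorem s59u_tauD_beta (hd : d.Coprime ℓ) (ρ : s34m_F ↥L₀ N) :
    s59u_tauD (N * d) ℓ hℓNd L₀ (heckeBetaBar ↥L₀ N d ρ) =
      heckeBetaBar ↥L₀ N d (s59u_tauD N ℓ hℓN L₀ ρ) := by
  haveI : NeZero ℓ := ⟨hℓ.out.ne_zero⟩
  obtain ⟨ζ, hζ⟩ := s59u_exists_zeta ℓ
  apply Subtype.ext
  apply s59u_coeffMap_injective L₀
  rw [s59u_coe_tauD (N * d) ℓ hℓNd L₀ ζ hζ, coe_heckeBetaBar, coe_heckeBetaBar,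
    coeffMap_qExpand, coeffMap_qExpand, s59u_coe_tauD N ℓ hℓN L₀ ζ hζ,
    s59u_N_qExpand ℓ ζ hζ d hd]

end Comm

/-! ### The norm over `L₀` -/

section NormL

variable (N : ℕ) [NeZero N] (ℓ : ℕ) [hℓ : Fact ℓ.Prime] (hℓN : ¬ ℓ ∣ N)
  (L₀ : IntermediateField ℚ Kb)

/-- **`τ_ℓ y = Nm_{α_ℓ} (β_ℓ y)` over `L₀`.** -/
theorem s59u_tauD_eq_norm (y : s34m_F ↥L₀ N) :
    haveI : NeZero ℓ := ⟨hℓ.out.ne_zero⟩
    s59u_tauD N ℓ hℓN L₀ y =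
      s35r_normAlong (heckeAlphaBar ↥L₀ N ℓ) (heckeBetaBar ↥L₀ N ℓ y) := by
  haveI : NeZero ℓ := ⟨hℓ.out.ne_zero⟩
  apply s18q_incl_injective N L₀
  rw [s59u_incl_tauD]
  have h1 := s36v_norm_alpha_iota (algebraMap ↥L₀ Kb) N ℓ (heckeBetaBar ↥L₀ N ℓ y)
  have h2 : s34m_iota (algebraMap ↥L₀ Kb) (N * ℓ) (heckeBetaBar ↥L₀ N ℓ y) =
      heckeBetaBar Kb N ℓ (s34m_iota (algebraMap ↥L₀ Kb) N y) :=
    s34m_iota_beta (algebraMap ↥L₀ Kb) N ℓ y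
  rw [h2] at h1
  exact h1.symm

end NormL

end Fermat.Agent.Lib.S59
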