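/-
Programme (R2), node **[CAR]**, leaf W5/[L2-7 HECKE₃] (helper3, prefix `s59u_`), part 4: **[T-CORR₃] — THE CORRESPONDENCE OF THE
THREE VERTICAL VALUATIONS OF LEVEL `M q²`, AND `mem` / `cong` FOR `τ_ℓ`.**

`V : Fin 3 → ValuationSubring 𝓕(M q²)` ANY family with `s36g_ValComap`, `s36g_ValComplete`, `s36g_ValIndep` (GeoFrame.lean),
`a₂ = α_ℓ`, `b₂ = β_ℓ : 𝓕(M q²) → 𝓕(M q² ℓ)`.

* `s59u_corr3_abs`   : abstract form — from the correspondence at level `M q` (`V'_∞`, `V'_0`), the four commuting squares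
  `a₂ α' = α'' a₁`, `b₂ α' = α'' b₁`, `a₂ β' = β'' a₁`, `b₂ β' = β'' b₁`, the six comaps and completeness;
* `s59u_exists_alpha_cast`, `s59u_exists_beta_cast` : the degeneracy maps into a level `n = N d` given up to an equation;
* **`s59u_corr3`**   : [T-CORR₃] — `W.comap α_ℓ = V j → W.comap β_ℓ = V j` for every valuation subring `W` of `𝓕(M q² ℓ)`;
* **`s59u_tauD_mem_V3`**, **`s59u_tauD_cong_V3`** : `τ_ℓ (V j) ⊆ V j`, `τ_ℓ (1 + 𝔪_j) ⊆ 1 + 𝔪_j` (`τ_ℓ = s59u_tauD (M q²) ℓ`);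
* `s59u_T_congr`     : `h ≡ g` (`g` a unit) ⇒ `T h ≡ T g`, for a multiplicative `T` with `mem` and `cong`;
* **`s59u_tauD_red_alpha`**, **`s59u_tauD_red_beta`** : `h ≡ α' ρ ⇒ τ_ℓ h ≡ α' (τ_ℓ ρ)`, `h ≡ β' ρ ⇒ τ_ℓ h ≡ β' (τ_ℓ ρ)` modulo `𝔪_j`.
-/
import Fermat.Agent.Lib.S59.UCarCorrVal
import Fermat.Agent.Lib.S59.UCarTauNorm
import Fermat.Agent.Lib.S36.GeoFrame

set_option autoImplicit false
set_option linter.style.haveILetI false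
set_option linter.unusedSectionVars false
set_option linter.unusedVariables false
set_option synthInstance.maxHeartbeats 400000

noncomputable section

namespace Fermat.Agent.Lib.S59

open Polynomial ModularCurve AlgebraicCurve HahnSeries Fermat.Agent.Lib.FF Fermat.Agent.Lib.S18
  Fermat.Agent.Lib.S28 Fermat.Agent.Lib.S37 Fermat.Agent.Lib.S34 Fermat.Agent.Lib.S35
  Fermat.Agent.Lib.S36 Fermat.Agent.Lib.S33 Fermat.Agent.Lib.S44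

local notation "Kb" => AlgebraicClosure ℚ

/-! ### The abstract form -/

section Abs

variable {F₁ F₂ F₁' F₂' : Type*} [Field F₁] [Field F₂] [Field F₁'] [Field F₂']

/-- **[T-CORR₃], abstract form.** -/
theorem s59u_corr3_abs (α' β' : F₁ →+* F₂) (a₁ b₁ : F₁ →+* F₁') (a₂ b₂ : F₂ →+* F₂')
    (α'' β'' : F₁' →+* F₂')
    (haα : a₂.comp α' = α''.comp a₁) (hbα : b₂.comp α' = α''.comp b₁)
    (haβ : a₂.comp β' = β''.comp a₁) (hbβ : b₂.comp β' = β''.comp b₁)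
    (Vi Vz : ValuationSubring F₁) (V : Fin 3 → ValuationSubring F₂)
    (h0α : (V 0).comap α' = Vi) (h0β : (V 0).comap β' = Vi)
    (h1α : (V 1).comap α' = Vi) (h1β : (V 1).comap β' = Vz)
    (h2α : (V 2).comap α' = Vz) (h2β : (V 2).comap β' = Vz)
    (hK1 : ∀ U : ValuationSubring F₂, U.comap α' = Vi → U = V 0 ∨ U = V 1)
    (hK2 : ∀ U : ValuationSubring F₂, U.comap α' = Vz → U = V 2)
    (hK3 : ∀ U : ValuationSubring F₂, U.comap β' = Vz → U = V 1 ∨ U = V 2)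
    (hK4 : ∀ U : ValuationSubring F₂, U.comap β' = Vi → U = V 0)
    (hI : V 0 ≠ V 1 ∧ V 0 ≠ V 2 ∧ V 1 ≠ V 2)
    (hci : ∀ W₁ : ValuationSubring F₁', W₁.comap a₁ = Vi → W₁.comap b₁ = Vi)
    (hcz : ∀ W₁ : ValuationSubring F₁', W₁.comap a₁ = Vz → W₁.comap b₁ = Vz)
    (j : Fin 3) (W : ValuationSubring F₂') (hW : W.comap a₂ = V j) : W.comap b₂ = V j := by
  -- the two restrictions of `U = W.comap b₂` to level `M q`
  have keyα : ∀ X : ValuationSubring F₁, (∀ W₁ : ValuationSubring F₁', W₁.comap a₁ = X → W₁.comap b₁ = X) →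
      (V j).comap α' = X → (W.comap b₂).comap α' = X := by
    intro X hX hVX
    rw [ValuationSubring.comap_comap, hbα, ← ValuationSubring.comap_comap]
    apply hX
    rw [ValuationSubring.comap_comap, ← haα, ← ValuationSubring.comap_comap, hW, hVX]
  have keyβ : ∀ X : ValuationSubring F₁, (∀ W₁ : ValuationSubring F₁', W₁.comap a₁ = X → W₁.comap b₁ = X) →
      (V j).comap β' = X → (W.comap b₂).comap β' = X := by
    intro X hX hVX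
    rw [ValuationSubring.comap_comap, hbβ, ← ValuationSubring.comap_comap]
    apply hX
    rw [ValuationSubring.comap_comap, ← haβ, ← ValuationSubring.comap_comap, hW, hVX]
  fin_cases j
  · exact hK4 _ (keyβ Vi hci h0β)
  · rcases hK1 _ (keyα Vi hci h1α) with h | h
    · rcases hK3 _ (keyβ Vz hcz h1β) with h' | h'
      · exact h'
      · exact absurd (h.symm.trans h') hI.2.1
    · exact h
  · exact hK2 _ (keyα Vz hcz h2α)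

/-- `h ≡ g` modulo `𝔪_V` (`g` a unit) ⇒ `T h ≡ T g`, for a multiplicative `T` with `mem` and `cong`. -/
theorem s59u_T_congr {F : Type*} [Field F] (T : F →* F) (V : ValuationSubring F)
    (hmem : ∀ h ∈ V, T h ∈ V) (hcong : ∀ h, h - 1 ∈ V.nonunits → T h - 1 ∈ V.nonunits)
    {h g : F} (hg : g ∈ V) (hg' : g⁻¹ ∈ V) (hg0 : g ≠ 0) (hhg : h - g ∈ V.nonunits) :
    T h - T g ∈ V.nonunits := by
  have h1 : h * g⁻¹ - 1 ∈ V.nonunits := by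
    have e : h * g⁻¹ - 1 = (h - g) * g⁻¹ := by
      rw [sub_mul, mul_inv_cancel₀ hg0]
    rw [e]
    exact s36qf_mul_mem_nonunits V hhg hg'
  have h2 := hcong _ h1
  have e : T h - T g = (T (h * g⁻¹) - 1) * T g := by
    rw [sub_mul, one_mul, ← map_mul, mul_assoc, inv_mul_cancel₀ hg0, mul_one]
  rw [e]
  exact s36qf_mul_mem_nonunits V h2 (hmem g hg)

end Abs

/-! ### Degeneracy maps into a level given up to an equation -/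

section Cast

variable (K₀ : Type*) [Field K₀] [Algebra ℚ K₀]

theorem s59u_exists_alpha_cast (N d n : ℕ) [NeZero N] [NeZero d] [NeZero n] (hn : n = N * d) :
    ∃ f : s34m_F K₀ N →ₐ[K₀] s34m_F K₀ n,
      ∀ y, ((f y : s34m_F K₀ n) : LaurentSeries K₀) = (y : LaurentSeries K₀) := by
  subst hn
  exact ⟨heckeAlphaBar K₀ N d, fun y => coe_heckeAlphaBar N d y⟩

theorem s59u_exists_beta_cast (N d n : ℕ) [NeZero N] [NeZero d] [NeZero n] (hn : n = N * d) :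
    ∃ f : s34m_F K₀ N →ₐ[K₀] s34m_F K₀ n,
      ∀ y, ((f y : s34m_F K₀ n) : LaurentSeries K₀) = qExpand K₀ d (y : LaurentSeries K₀) := by
  subst hn
  exact ⟨heckeBetaBar K₀ N d, fun y => coe_heckeBetaBar N d y⟩

end Cast

/-! ### [T-CORR₃] -/

section Corr3

variable {K₀ : Type} [Field K₀] [Algebra ℚ K₀] [CharZero K₀] {κ : Type} [Field κ]
  (G : s18g_GaussData K₀ κ) [IsDiscreteValuationRing G.A]
  (φ : K₀ →+* Kb) (M q ℓ : ℕ) [NeZero M] [NeZero q] [NeZero ℓ] (hq : q.Prime) (hqM : ¬ q ∣ M)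
  (hqℓ : q ≠ ℓ) (hℓ : ℓ.Prime) [CharP κ q]
  (V : Fin 3 → ValuationSubring (s34m_F K₀ (M * q * q)))

include hqℓ hℓ in
/-- **[T-CORR₃]**: every valuation subring of `𝓕(M q² ℓ)` over `V j` along `α_ℓ` lies over `V j` along `β_ℓ`. -/
theorem s59u_corr3 (hC : s36g_ValComap G φ M q hq hqM V) (hK : s36g_ValComplete G φ M q hq hqM V)
    (hI : s36g_ValIndep M q V) (j : Fin 3) (W : ValuationSubring (s34m_F K₀ (M * q * q * ℓ)))
    (hW : W.comap ((heckeAlphaBar K₀ (M * q * q) ℓ : s34m_F K₀ (M * q * q) →ₐ[K₀] _) :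
      s34m_F K₀ (M * q * q) →+* s34m_F K₀ (M * q * q * ℓ)) = V j) :
    W.comap ((heckeBetaBar K₀ (M * q * q) ℓ : s34m_F K₀ (M * q * q) →ₐ[K₀] _) :
      s34m_F K₀ (M * q * q) →+* s34m_F K₀ (M * q * q * ℓ)) = V j := by
  have hqMℓ : ¬ q ∣ M * ℓ := by
    intro h
    rcases (Nat.Prime.dvd_mul hq).mp h with h | h
    · exact hqM h
    · exact hqℓ ((Nat.prime_dvd_prime_iff_eq hq hℓ).mp h)
  obtain ⟨a₁, ha₁⟩ := s59u_exists_alpha_cast K₀ (M * q) ℓ (M * ℓ * q) (by ring)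
  obtain ⟨b₁, hb₁⟩ := s59u_exists_beta_cast K₀ (M * q) ℓ (M * ℓ * q) (by ring)
  obtain ⟨α'', hα''⟩ := s59u_exists_alpha_cast K₀ (M * ℓ * q) q (M * q * q * ℓ) (by ring)
  obtain ⟨β'', hβ''⟩ := s59u_exists_beta_cast K₀ (M * ℓ * q) q (M * q * q * ℓ) (by ring)
  obtain ⟨h00, h0α, h0β, h1α, h1β, h2α, h2β⟩ := hC
  obtain ⟨hK1, hK2, hK3, hK4⟩ := hK
  refine s59u_corr3_abs (s36g_alpha M q) (s36g_beta M q)
    (a₁ : s34m_F K₀ (M * q) →+* s34m_F K₀ (M * ℓ * q)) (b₁ : s34m_F K₀ (M * q) →+* _)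
    _ _ (α'' : s34m_F K₀ (M * ℓ * q) →+* s34m_F K₀ (M * q * q * ℓ)) (β'' : s34m_F K₀ (M * ℓ * q) →+* _)
    ?_ ?_ ?_ ?_ (s34m_Vinf G (M * q)) (s34m_Vzero G φ M q hq hqM) V h0α h0β h1α h1β h2α h2β
    hK1 hK2 hK3 hK4 hI
    (fun W₁ h => s59u_val_corr G φ M q ℓ hq hqM hqMℓ a₁ b₁ ha₁ hb₁ true W₁ h)
    (fun W₁ h => s59u_val_corr G φ M q ℓ hq hqM hqMℓ a₁ b₁ ha₁ hb₁ false W₁ h) j W hW
  · refine RingHom.ext fun y => ?_
    apply Subtype.ext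
    show ((heckeAlphaBar K₀ (M * q * q) ℓ (heckeAlphaBar K₀ (M * q) q y) : s34m_F K₀ (M * q * q * ℓ)) :
      LaurentSeries K₀) = ((α'' (a₁ y) : s34m_F K₀ (M * q * q * ℓ)) : LaurentSeries K₀)
    rw [coe_heckeAlphaBar, coe_heckeAlphaBar, hα'', ha₁]
  · refine RingHom.ext fun y => ?_
    apply Subtype.ext
    show ((heckeBetaBar K₀ (M * q * q) ℓ (heckeAlphaBar K₀ (M * q) q y) : s34m_F K₀ (M * q * q * ℓ)) :
      LaurentSeries K₀) = ((α'' (b₁ y) : s34m_F K₀ (M * q * q * ℓ)) : LaurentSeries K₀)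
    rw [coe_heckeBetaBar, coe_heckeAlphaBar, hα'', hb₁]
  · refine RingHom.ext fun y => ?_
    apply Subtype.ext
    show ((heckeAlphaBar K₀ (M * q * q) ℓ (heckeBetaBar K₀ (M * q) q y) : s34m_F K₀ (M * q * q * ℓ)) :
      LaurentSeries K₀) = ((β'' (a₁ y) : s34m_F K₀ (M * q * q * ℓ)) : LaurentSeries K₀)
    rw [coe_heckeAlphaBar, coe_heckeBetaBar, hβ'', ha₁]
  · refine RingHom.ext fun y => ?_
    apply Subtype.ext
    show ((heckeBetaBar K₀ (M * q * q) ℓ (heckeBetaBar K₀ (M * q) q y) : s34m_F K₀ (M * q * q * ℓ)) :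
      LaurentSeries K₀) = ((β'' (b₁ y) : s34m_F K₀ (M * q * q * ℓ)) : LaurentSeries K₀)
    rw [coe_heckeBetaBar, coe_heckeBetaBar, hβ'', hb₁, qExpand_qExpand, qExpand_qExpand]
    exact qExpand_congr (mul_comm _ _) _

end Corr3

/-! ### `mem`, `cong` and the residues of `τ_ℓ` at the three rings -/

section Tau3

variable (M q : ℕ) [NeZero M] [NeZero q] (hq : q.Prime) (hqM : ¬ q ∣ M)
  (L₀ : IntermediateField ℚ Kb) {κ : Type} [Field κ] (G : s18g_GaussData ↥L₀ κ)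
  [IsDiscreteValuationRing G.A] [CharP κ q]
  (ℓ : ℕ) [hℓ : Fact ℓ.Prime] (hℓ1 : ¬ ℓ ∣ M * q) (hℓ2 : ¬ ℓ ∣ M * q * q) (hqℓ : q ≠ ℓ)
  (V : Fin 3 → ValuationSubring (s34m_F ↥L₀ (M * q * q)))
  (hC : s36g_ValComap G (algebraMap ↥L₀ Kb) M q hq hqM V)
  (hK : s36g_ValComplete G (algebraMap ↥L₀ Kb) M q hq hqM V) (hI : s36g_ValIndep M q V)

include hC hK hI hqℓ in
/-- **`τ_ℓ (V j) ⊆ V j`.** -/
theorem s59u_tauD_mem_V3 (j : Fin 3) {h : s34m_F ↥L₀ (M * q * q)} (hh : h ∈ V j) :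
    s59u_tauD (M * q * q) ℓ hℓ2 L₀ h ∈ V j := by
  haveI : NeZero ℓ := ⟨hℓ.out.ne_zero⟩
  rw [s59u_tauD_eq_norm]
  exact s59u_norm_along_mem (heckeAlphaBar ↥L₀ (M * q * q) ℓ) (heckeBetaBar ↥L₀ (M * q * q) ℓ)
    (s36v_finite_alpha (algebraMap ↥L₀ Kb) (M * q * q) ℓ) (V j)
    (fun W hW => s59u_corr3 G (algebraMap ↥L₀ Kb) M q ℓ hq hqM hqℓ hℓ.out V hC hK hI j W hW) h hh

include hC hK hI hqℓ in
/-- **`τ_ℓ (1 + 𝔪_j) ⊆ 1 + 𝔪_j`.** -/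
theorem s59u_tauD_cong_V3 (j : Fin 3) {h : s34m_F ↥L₀ (M * q * q)} (hh : h - 1 ∈ (V j).nonunits) :
    s59u_tauD (M * q * q) ℓ hℓ2 L₀ h - 1 ∈ (V j).nonunits := by
  haveI : NeZero ℓ := ⟨hℓ.out.ne_zero⟩
  rw [s59u_tauD_eq_norm]
  exact s59u_norm_along_cong (heckeAlphaBar ↥L₀ (M * q * q) ℓ) (heckeBetaBar ↥L₀ (M * q * q) ℓ)
    (s36v_finite_alpha (algebraMap ↥L₀ Kb) (M * q * q) ℓ) (V j)
    (fun W hW => s59u_corr3 G (algebraMap ↥L₀ Kb) M q ℓ hq hqM hqℓ hℓ.out V hC hK hI j W hW) h hh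

include hC hK hI hqℓ in
/-- **`h ≡ g` (`g` a unit of `V j`) ⇒ `τ_ℓ h ≡ τ_ℓ g`.** -/
theorem s59u_tauD_congr_V3 (j : Fin 3) {h g : s34m_F ↥L₀ (M * q * q)} (hg : g ∈ V j) (hg' : g⁻¹ ∈ V j)
    (hg0 : g ≠ 0) (hhg : h - g ∈ (V j).nonunits) :
    s59u_tauD (M * q * q) ℓ hℓ2 L₀ h - s59u_tauD (M * q * q) ℓ hℓ2 L₀ g ∈ (V j).nonunits :=
  s59u_T_congr (s59u_tauD (M * q * q) ℓ hℓ2 L₀) (V j)
    (fun h hh => s59u_tauD_mem_V3 M q hq hqM L₀ G ℓ hℓ2 hqℓ V hC hK hI j hh)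
    (fun h hh => s59u_tauD_cong_V3 M q hq hqM L₀ G ℓ hℓ2 hqℓ V hC hK hI j hh) hg hg' hg0 hhg

include hC hK hI hqℓ in
/-- **`h ≡ α' ρ` (a unit) ⇒ `τ_ℓ h ≡ α' (τ_ℓ ρ)`** modulo `𝔪_j`. -/
theorem s59u_tauD_red_alpha (j : Fin 3) {h : s34m_F ↥L₀ (M * q * q)} {ρ : s34m_F ↥L₀ (M * q)}
    (hρ : s36g_alpha M q ρ ∈ V j) (hρ' : (s36g_alpha M q ρ)⁻¹ ∈ V j) (hρ0 : ρ ≠ 0)
    (hh : h - s36g_alpha M q ρ ∈ (V j).nonunits) :
    s59u_tauD (M * q * q) ℓ hℓ2 L₀ h - s36g_alpha M q (s59u_tauD (M * q) ℓ hℓ1 L₀ ρ) ∈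
      (V j).nonunits := by
  have h1 := s59u_tauD_congr_V3 M q hq hqM L₀ G ℓ hℓ2 hqℓ V hC hK hI j hρ hρ'
    ((_root_.map_ne_zero (s36g_alpha M q)).mpr hρ0) hh
  have e : s59u_tauD (M * q * q) ℓ hℓ2 L₀ (s36g_alpha M q ρ) =
      s36g_alpha M q (s59u_tauD (M * q) ℓ hℓ1 L₀ ρ) :=
    s59u_tauD_alpha (M * q) q ℓ hℓ1 hℓ2 L₀ ρ
  rwa [e] at h1

include hC hK hI hqℓ in
/-- **`h ≡ β' ρ` (a unit) ⇒ `τ_ℓ h ≡ β' (τ_ℓ ρ)`** modulo `𝔪_j`. -/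
theorem s59u_tauD_red_beta (j : Fin 3) {h : s34m_F ↥L₀ (M * q * q)} {ρ : s34m_F ↥L₀ (M * q)}
    (hρ : s36g_beta M q ρ ∈ V j) (hρ' : (s36g_beta M q ρ)⁻¹ ∈ V j) (hρ0 : ρ ≠ 0)
    (hh : h - s36g_beta M q ρ ∈ (V j).nonunits) :
    s59u_tauD (M * q * q) ℓ hℓ2 L₀ h - s36g_beta M q (s59u_tauD (M * q) ℓ hℓ1 L₀ ρ) ∈
      (V j).nonunits := by
  have h1 := s59u_tauD_congr_V3 M q hq hqM L₀ G ℓ hℓ2 hqℓ V hC hK hI j hρ hρ'
    ((_root_.map_ne_zero (s36g_beta M q)).mpr hρ0) hh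
  have hcop : q.Coprime ℓ := (Nat.coprime_primes hq hℓ.out).mpr hqℓ
  have e : s59u_tauD (M * q * q) ℓ hℓ2 L₀ (s36g_beta M q ρ) =
      s36g_beta M q (s59u_tauD (M * q) ℓ hℓ1 L₀ ρ) :=
    s59u_tauD_beta (M * q) q ℓ hℓ1 hℓ2 L₀ hcop ρ
  rwa [e] at h1

end Tau3

end Fermat.Agent.Lib.S59
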