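/-
Programme (R2), node **[CAR]**, leaf W5/[L2-7 HECKE₃] (helper3, prefix `s59u_`), part 6: **THE RESIDUES OF `τ_ℓ h` AT THE THREE
RINGS OF LEVEL `M q²`, IN TERMS OF THE REDUCTIONS OF LEVEL `M q`** (the field `red` of `s59m_HeckeFrame3`, frame-independent).

* `s59u_red_transfer` : abstract — `γ : F₁ → F₂`, `O ⊆ F₁`, `V ⊆ F₂` over `O` with residue degree one (`hres`), reductions
  `red : O → Λ`, `r : V → Λ` compatible along `γ`, `T₂ ∘ γ = γ ∘ T₁`, `T₂` with `mem` and `congr` on `V`: for a unit `h` of `V`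
  there is a unit `ρ` of `O` with `r h = red ρ` and `r (T₂ h) = red (T₁ ρ)`;
* **`s59u_red3_alpha`** (`j = 0, 1`, along `α'`, `red_∞`), **`s59u_red3_beta`** (`j = 1, 2`, along `β'`, `red_0`) for any family
  `V` with `s36g_ValComap`, `s36g_ValComplete`, `s36g_ValIndep`, `s36g_ValRes` and a reduction `r j` as in `s36g_ValRed`.
-/
import Fermat.Agent.Lib.S59.UCarCorr3

set_option autoImplicit false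
set_option linter.style.haveILetI false
set_option linter.unusedSectionVars false
set_option linter.unusedVariables false
set_option synthInstance.maxHeartbeats 400000

noncomputable section

namespace Fermat.Agent.Lib.S59

open Polynomial ModularCurve AlgebraicCurve HahnSeries Fermat.Agent.Lib.FF Fermat.Agent.Lib.S18
  Fermat.Agent.Lib.S28 Fermat.Agent.Lib.S37 Fermat.Agent.Lib.S34 Fermat.Agent.Lib.S35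
  Fermat.Agent.Lib.S36 Fermat.Agent.Lib.S33 Fermat.Agent.Lib.S44

local notation "Kb" => AlgebraicClosure ℚ

section Abs

variable {F₁ F₂ Λ : Type*} [Field F₁] [Field F₂] [CommRing Λ]

/-- **transfer of the residue of `T₂ h`** along `γ`. -/
theorem s59u_red_transfer (γ : F₁ →+* F₂) (O : ValuationSubring F₁) (Vj : ValuationSubring F₂)
    (red : O →+* Λ) (r : Vj →+* Λ) (hcomap : Vj.comap γ = O)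
    (hr0 : ∀ y : Vj, (y : F₂) ∈ Vj.nonunits → r y = 0)
    (hrγ : ∀ (x : O) (h : γ x ∈ Vj), r ⟨γ x, h⟩ = red x)
    (hres : ∀ y ∈ Vj, ∃ ρ ∈ O, y - γ ρ ∈ Vj.nonunits)
    (T₁ : F₁ →* F₁) (T₂ : F₂ →* F₂) (hT₁ : ∀ ρ ∈ O, T₁ ρ ∈ O) (hT₂ : ∀ h ∈ Vj, T₂ h ∈ Vj)
    (hcongr : ∀ {h g : F₂}, g ∈ Vj → g⁻¹ ∈ Vj → g ≠ 0 → h - g ∈ Vj.nonunits →
      T₂ h - T₂ g ∈ Vj.nonunits)
    (hcomm : ∀ ρ, T₂ (γ ρ) = γ (T₁ ρ))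
    (h : F₂) (hh : h ∈ Vj) (hh' : h⁻¹ ∈ Vj) (hh0 : h ≠ 0) :
    ∃ (ρ : F₁) (hρ : ρ ∈ O), ρ⁻¹ ∈ O ∧ ρ ≠ 0 ∧ r ⟨h, hh⟩ = red ⟨ρ, hρ⟩ ∧
      r ⟨T₂ h, hT₂ h hh⟩ = red ⟨T₁ ρ, hT₁ ρ hρ⟩ := by
  have hmemO : ∀ x, γ x ∈ Vj ↔ x ∈ O := fun x => by
    rw [← hcomap]
    exact Iff.rfl
  obtain ⟨ρ, hρ, hd⟩ := hres h hh
  have hγρ : γ ρ ∈ Vj := (hmemO ρ).mpr hρ
  -- `γ ρ` is a unit of `Vj`
  have hγρu : γ ρ ∉ Vj.nonunits := by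
    intro hnu
    have h1 : h ∈ Vj.nonunits := by
      have e : h = (h - γ ρ) + γ ρ := by ring
      rw [e]
      exact s36qf_add_mem_nonunits Vj hd hnu
    rw [ValuationSubring.mem_nonunits_iff_or] at h1
    rcases h1 with h1 | h1
    · exact hh0 h1
    · exact h1 hh'
  have hγρ0 : γ ρ ≠ 0 := by
    intro h0
    apply hγρu
    rw [h0, ValuationSubring.mem_nonunits_iff, map_zero]
    exact zero_lt_one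
  have hρ0 : ρ ≠ 0 := fun h0 => hγρ0 (by rw [h0, map_zero])
  have hγρinv : (γ ρ)⁻¹ ∈ Vj := by
    by_contra hc
    apply hγρu
    rw [ValuationSubring.mem_nonunits_iff_or]
    exact Or.inr hc
  have hρinv : ρ⁻¹ ∈ O := by
    rw [← hmemO, map_inv₀]
    exact hγρinv
  refine ⟨ρ, hρ, hρinv, hρ0, ?_, ?_⟩
  · have e : (⟨h, hh⟩ : Vj) = ⟨h - γ ρ, sub_mem hh hγρ⟩ + ⟨γ ρ, hγρ⟩ :=
      Subtype.ext (by show h = (h - γ ρ) + γ ρ; ring)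
    rw [e, map_add, hr0 _ hd, zero_add]
    exact hrγ ⟨ρ, hρ⟩ hγρ
  · have hd2 : T₂ h - T₂ (γ ρ) ∈ Vj.nonunits := hcongr hγρ hγρinv hγρ0 hd
    have hT₂γ : T₂ (γ ρ) ∈ Vj := hT₂ _ hγρ
    have e : (⟨T₂ h, hT₂ h hh⟩ : Vj) =
        ⟨T₂ h - T₂ (γ ρ), sub_mem (hT₂ h hh) hT₂γ⟩ + ⟨T₂ (γ ρ), hT₂γ⟩ :=
      Subtype.ext (by show T₂ h = (T₂ h - T₂ (γ ρ)) + T₂ (γ ρ); ring)
    rw [e, map_add, hr0 _ hd2, zero_add]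
    have e2 : (⟨T₂ (γ ρ), hT₂γ⟩ : Vj) = ⟨γ (T₁ ρ), (hmemO _).mpr (hT₁ ρ hρ)⟩ :=
      Subtype.ext (hcomm ρ)
    rw [e2]
    exact hrγ ⟨T₁ ρ, hT₁ ρ hρ⟩ _

end Abs

section Red3

variable (M q : ℕ) [NeZero M] [NeZero q] [hqF : Fact q.Prime] (hqM : ¬ q ∣ M)
  (P : ValuationSubring Kb) (hP : P.LiesOverPrime q)
  (L₀ : IntermediateField ℚ Kb) [IsDiscreteValuationRing ↥(s18q_A0 P L₀)]
  (ϖ : ↥(s18q_A0 P L₀)) (hϖ : Irreducible ϖ)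
  [IsDiscreteValuationRing (s37r_G P L₀ ϖ hϖ).A]
  [CharP (IsLocalRing.ResidueField ↥(s18q_A0 P L₀)) q]
  (ℓ : ℕ) [hℓ : Fact ℓ.Prime] (hℓ1 : ¬ ℓ ∣ M * q) (hℓ2 : ¬ ℓ ∣ M * q * q) (hqℓ : q ≠ ℓ)
  (V : Fin 3 → ValuationSubring (s34m_F ↥L₀ (M * q * q)))
  (hC : s36g_ValComap (s37r_G P L₀ ϖ hϖ) (algebraMap ↥L₀ Kb) M q hqF.out hqM V)
  (hK : s36g_ValComplete (s37r_G P L₀ ϖ hϖ) (algebraMap ↥L₀ Kb) M q hqF.out hqM V)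
  (hI : s36g_ValIndep M q V)

include hP hC hK hI hqℓ in
/-- **the residue of `τ_ℓ h` along `α'`** (`j = 0, 1`): `r j h = red_∞ ρ`, `r j (τ_ℓ h) = red_∞ (τ_ℓ ρ)`. -/
theorem s59u_red3_alpha (j : Fin 3)
    (hcomap : (V j).comap (s36g_alpha M q) = s34m_Vinf (s37r_G P L₀ ϖ hϖ) (M * q))
    (hres : ∀ y ∈ V j, ∃ ρ ∈ s34m_Vinf (s37r_G P L₀ ϖ hϖ) (M * q),
      y - s36g_alpha M q ρ ∈ (V j).nonunits)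
    (r : V j →+* LaurentSeries (IsLocalRing.ResidueField ↥(s18q_A0 P L₀)))
    (hr0 : ∀ y : V j, (y : s34m_F ↥L₀ (M * q * q)) ∈ (V j).nonunits → r y = 0)
    (hrα : ∀ (x : s34m_Vinf (s37r_G P L₀ ϖ hϖ) (M * q)) (h : s36g_alpha M q x ∈ V j),
      r ⟨_, h⟩ = s34m_redInf (s37r_G P L₀ ϖ hϖ) (M * q) x)
    (h : s34m_F ↥L₀ (M * q * q)) (hh : h ∈ V j) (hh' : h⁻¹ ∈ V j) (hh0 : h ≠ 0) :
    ∃ (ρ : s34m_F ↥L₀ (M * q)) (hρ : ρ ∈ s34m_Vinf (s37r_G P L₀ ϖ hϖ) (M * q)),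
      ρ⁻¹ ∈ s34m_Vinf (s37r_G P L₀ ϖ hϖ) (M * q) ∧ ρ ≠ 0 ∧
      r ⟨h, hh⟩ = s34m_redInf (s37r_G P L₀ ϖ hϖ) (M * q) ⟨ρ, hρ⟩ ∧
      r ⟨s59u_tauD (M * q * q) ℓ hℓ2 L₀ h,
          s59u_tauD_mem_V3 M q hqF.out hqM L₀ (s37r_G P L₀ ϖ hϖ) ℓ hℓ2 hqℓ V hC hK hI j hh⟩ =
        s34m_redInf (s37r_G P L₀ ϖ hϖ) (M * q)
          ⟨s59u_tauD (M * q) ℓ hℓ1 L₀ ρ, s59u_tauD_mem_Vinf (M * q) ℓ hℓ1 P hP L₀ ϖ hϖ hρ⟩ :=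
  s59u_red_transfer (s36g_alpha M q) _ (V j) _ r hcomap hr0 hrα hres
    (s59u_tauD (M * q) ℓ hℓ1 L₀) (s59u_tauD (M * q * q) ℓ hℓ2 L₀)
    (fun ρ hρ => s59u_tauD_mem_Vinf (M * q) ℓ hℓ1 P hP L₀ ϖ hϖ hρ)
    (fun h hh => s59u_tauD_mem_V3 M q hqF.out hqM L₀ (s37r_G P L₀ ϖ hϖ) ℓ hℓ2 hqℓ V hC hK hI j hh)
    (fun hg hg' hg0 hhg =>
      s59u_tauD_congr_V3 M q hqF.out hqM L₀ (s37r_G P L₀ ϖ hϖ) ℓ hℓ2 hqℓ V hC hK hI j hg hg' hg0 hhg)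
    (fun ρ => s59u_tauD_alpha (M * q) q ℓ hℓ1 hℓ2 L₀ ρ) h hh hh' hh0

include hP hC hK hI hqℓ in
/-- **the residue of `τ_ℓ h` along `β'`** (`j = 1, 2`): `r j h = red_0 ρ`, `r j (τ_ℓ h) = red_0 (τ_ℓ ρ)`. -/
theorem s59u_red3_beta (j : Fin 3)
    (hcomap : (V j).comap (s36g_beta M q) =
      s34m_Vzero (s37r_G P L₀ ϖ hϖ) (algebraMap ↥L₀ Kb) M q hqF.out hqM)
    (hres : ∀ y ∈ V j, ∃ ρ ∈ s34m_Vzero (s37r_G P L₀ ϖ hϖ) (algebraMap ↥L₀ Kb) M q hqF.out hqM,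
      y - s36g_beta M q ρ ∈ (V j).nonunits)
    (r : V j →+* LaurentSeries (IsLocalRing.ResidueField ↥(s18q_A0 P L₀)))
    (hr0 : ∀ y : V j, (y : s34m_F ↥L₀ (M * q * q)) ∈ (V j).nonunits → r y = 0)
    (hrβ : ∀ (x : s34m_Vzero (s37r_G P L₀ ϖ hϖ) (algebraMap ↥L₀ Kb) M q hqF.out hqM)
      (h : s36g_beta M q x ∈ V j),
      r ⟨_, h⟩ = s34m_redZero (s37r_G P L₀ ϖ hϖ) (algebraMap ↥L₀ Kb) M q hqF.out hqM x)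
    (h : s34m_F ↥L₀ (M * q * q)) (hh : h ∈ V j) (hh' : h⁻¹ ∈ V j) (hh0 : h ≠ 0) :
    ∃ (ρ : s34m_F ↥L₀ (M * q))
      (hρ : ρ ∈ s34m_Vzero (s37r_G P L₀ ϖ hϖ) (algebraMap ↥L₀ Kb) M q hqF.out hqM),
      ρ⁻¹ ∈ s34m_Vzero (s37r_G P L₀ ϖ hϖ) (algebraMap ↥L₀ Kb) M q hqF.out hqM ∧ ρ ≠ 0 ∧
      r ⟨h, hh⟩ = s34m_redZero (s37r_G P L₀ ϖ hϖ) (algebraMap ↥L₀ Kb) M q hqF.out hqM ⟨ρ, hρ⟩ ∧
      r ⟨s59u_tauD (M * q * q) ℓ hℓ2 L₀ h,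
          s59u_tauD_mem_V3 M q hqF.out hqM L₀ (s37r_G P L₀ ϖ hϖ) ℓ hℓ2 hqℓ V hC hK hI j hh⟩ =
        s34m_redZero (s37r_G P L₀ ϖ hϖ) (algebraMap ↥L₀ Kb) M q hqF.out hqM
          ⟨s59u_tauD (M * q) ℓ hℓ1 L₀ ρ, s59u_tauD_mem_Vzero M hqM ℓ hℓ1 P hP L₀ ϖ hϖ hρ⟩ :=
  s59u_red_transfer (s36g_beta M q) _ (V j) _ r hcomap hr0 hrβ hres
    (s59u_tauD (M * q) ℓ hℓ1 L₀) (s59u_tauD (M * q * q) ℓ hℓ2 L₀)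
    (fun ρ hρ => s59u_tauD_mem_Vzero M hqM ℓ hℓ1 P hP L₀ ϖ hϖ hρ)
    (fun h hh => s59u_tauD_mem_V3 M q hqF.out hqM L₀ (s37r_G P L₀ ϖ hϖ) ℓ hℓ2 hqℓ V hC hK hI j hh)
    (fun hg hg' hg0 hhg =>
      s59u_tauD_congr_V3 M q hqF.out hqM L₀ (s37r_G P L₀ ϖ hϖ) ℓ hℓ2 hqℓ V hC hK hI j hg hg' hg0 hhg)
    (fun ρ => s59u_tauD_beta (M * q) q ℓ hℓ1 hℓ2 L₀
      ((Nat.coprime_primes hqF.out hℓ.out).mpr hqℓ) ρ) h hh hh' hh0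

end Red3

end Fermat.Agent.Lib.S59
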