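/-
Programme (R2), node **[CAR]**, leaf W5/[L2-7 HECKE₃] (helper3, prefix `s59u_`), part 5: **[T-NODE₃].**

`N₁` a set of places of `𝓕_{L₀}(M q)` (the places through the nodes), `N₃` a set of places of `𝓕_{L₀}(M q²)` (the places through
the triple points) with

* `hN₃`   : a place `Q` of level `M q²` lies in `N₃` iff its `α'`-restriction lies in `N₁` ((FIB): triple points ↔ nodes);
* `hcorr₁`: [NODE-CORR] at level `M q`: for a place `Q'` of `𝓕(M q ℓ)`, `α_ℓ`-restriction in `N₁` ⇒ `β_ℓ`-restriction in `N₁`.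

* **`s59u_tnode3_abs`** : `τ_ℓ = s59u_tauD (M q²) ℓ` preserves the functions without zero or pole along `N₃`;
* **`s59u_tnode3`**     : the same with `N₁ = s33s_nodePlaces (V'_∞, V'_0) ϖ {j regular}` for an arbitrary Gauss datum over `L₀`
  (`hcorr₁ = s59u_nodeCorr`).
-/
import Fermat.Agent.Lib.S59.UCarTNodeW
import Fermat.Agent.Lib.S36.WFinite

set_option autoImplicit false
set_option linter.style.haveILetI false
set_option linter.unusedSectionVars false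
set_option linter.unusedVariables false
set_option synthInstance.maxHeartbeats 400000

noncomputable section

namespace Fermat.Agent.Lib.S59

open ModularCurve HahnSeries AlgebraicCurve Fermat.Agent.Lib.FF Fermat.Agent.Lib.S18
  Fermat.Agent.Lib.S28 Fermat.Agent.Lib.S29 Fermat.Agent.Lib.S37 Fermat.Agent.Lib.S34
  Fermat.Agent.Lib.S35 Fermat.Agent.Lib.S36 Fermat.Agent.Lib.S33 Fermat.Agent.Lib.S44

local notation "Kb" => AlgebraicClosure ℚ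

section Restr

variable (N d : ℕ) [NeZero N] [NeZero d] (L₀ : IntermediateField ℚ Kb)

/-- the `α_d`-restriction to `𝓕_{L₀}(N)` of (the `L₀`-restriction of) a place of `F̄(N d)`. -/
theorem s59u_exists_restr_alpha (Pb : Place Kb (ffi_F (N * d))) :
    ∃ Qa : Place ↥L₀ (s34m_F ↥L₀ N), ∀ y, y ∈ Qa.toValuationSubring ↔
      heckeAlphaBar ↥L₀ N d y ∈ (s18q_restrict (N * d) L₀ Pb).toValuationSubring := by
  refine ⟨s18q_restrict N L₀ (Pb.restrictAlong (heckeAlphaBar Kb N d) (s36w_alphaIntegral N d)),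
    fun y => ?_⟩
  rw [s18q_mem_restrict, s18q_mem_restrict,
    s59u_mem_restrictAlong (heckeAlphaBar Kb N d) _ Pb (s18q_incl N L₀ y)]
  have e1 : s18q_incl (N * d) L₀ (heckeAlphaBar ↥L₀ N d y) =
      heckeAlphaBar Kb N d (s18q_incl N L₀ y) :=
    s34m_iota_alpha (algebraMap ↥L₀ Kb) N d y
  rw [e1]

/-- the restriction to `𝓕_{L₀}(N)` of a place of `F̄(n)`, `n = N d`, along `α_d` and the transport of levels. -/
theorem s59u_exists_restr_cast (n : ℕ) [NeZero n] (hn : N * d = n) (w : Place Kb (ffi_F n)) :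
    ∃ Q' : Place ↥L₀ (s34m_F ↥L₀ N), ∀ z, z ∈ Q'.toValuationSubring ↔
      (s44h_castF hn) (heckeAlphaBar Kb N d (s18q_incl N L₀ z)) ∈ w.toValuationSubring := by
  subst hn
  obtain ⟨Q', hQ'⟩ := s59u_exists_restr_alpha N d L₀ w
  refine ⟨Q', fun z => ?_⟩
  rw [hQ', s18q_mem_restrict]
  have e1 : s18q_incl (N * d) L₀ (heckeAlphaBar ↥L₀ N d z) =
      heckeAlphaBar Kb N d (s18q_incl N L₀ z) :=
    s34m_iota_alpha (algebraMap ↥L₀ Kb) N d z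
  rw [e1]
  have e2 : (s44h_castF (rfl : N * d = N * d)) (heckeAlphaBar Kb N d (s18q_incl N L₀ z)) =
      heckeAlphaBar Kb N d (s18q_incl N L₀ z) := by
    apply Subtype.ext
    rw [s44h_castF_coe]
  rw [e2]

end Restr

section TNode3

variable (M q : ℕ) [NeZero M] [NeZero q] (L₀ : IntermediateField ℚ Kb)
  (ℓ : ℕ) [hℓ : Fact ℓ.Prime] [NeZero ℓ] (hℓ2 : ¬ ℓ ∣ M * q * q)
  (N₁ : Set (Place ↥L₀ (s34m_F ↥L₀ (M * q)))) (N₃ : Set (Place ↥L₀ (s34m_F ↥L₀ (M * q * q))))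

set_option maxHeartbeats 1600000 in
/-- **[T-NODE₃], abstract form.** -/
theorem s59u_tnode3_abs
    (hN₃ : ∀ (Q : Place ↥L₀ (s34m_F ↥L₀ (M * q * q))) (Qa : Place ↥L₀ (s34m_F ↥L₀ (M * q))),
      (∀ y, y ∈ Qa.toValuationSubring ↔ heckeAlphaBar ↥L₀ (M * q) q y ∈ Q.toValuationSubring) →
      (Q ∈ N₃ ↔ Qa ∈ N₁))
    (hcorr₁ : ∀ (Q' : Place ↥L₀ (s34m_F ↥L₀ (M * q * ℓ))) (Qa Qb : Place ↥L₀ (s34m_F ↥L₀ (M * q))),
      (∀ y, y ∈ Qa.toValuationSubring ↔ heckeAlphaBar ↥L₀ (M * q) ℓ y ∈ Q'.toValuationSubring) →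
      (∀ y, y ∈ Qb.toValuationSubring ↔ heckeBetaBar ↥L₀ (M * q) ℓ y ∈ Q'.toValuationSubring) →
      Qa ∈ N₁ → Qb ∈ N₁)
    (h : s34m_F ↥L₀ (M * q * q)) (hh0 : h ≠ 0) (hnf : ∀ Q ∈ N₃, Q.ord h = 0)
    (Q : Place ↥L₀ (s34m_F ↥L₀ (M * q * q))) (hQ : Q ∈ N₃) :
    Q.ord (s59u_tauD (M * q * q) ℓ hℓ2 L₀ h) = 0 := by
  obtain ⟨Pb, rfl⟩ := s18q_restrict_surjective (M * q * q) L₀ Q
  rw [← s18q_ord_restrict, s59u_incl_tauD]
  have hβ0 : heckeBetaBar Kb (M * q * q) ℓ (s18q_incl (M * q * q) L₀ h) ≠ 0 :=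
    (map_ne_zero _).mpr ((map_ne_zero _).mpr hh0)
  refine s59u_ord_normAlpha_eq_zero (M * q * q) ℓ hℓ.out hℓ2 _ hβ0 Pb fun w hw => ?_
  rw [Place.ord_restrictAlong (heckeBetaBar Kb (M * q * q) ℓ)
    (s37h_betaIntegral (M * q * q) ℓ hℓ.out hℓ2) w (s18q_incl (M * q * q) L₀ h)]
  -- the four places
  obtain ⟨Pβ, hPβ⟩ : ∃ Pβ : Place Kb (ffi_F (M * q * q)), Pβ = w.restrictAlong
      (heckeBetaBar Kb (M * q * q) ℓ) (s37h_betaIntegral (M * q * q) ℓ hℓ.out hℓ2) := ⟨_, rfl⟩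
  rw [← hPβ]
  have mPβ : ∀ z : ffi_F (M * q * q), z ∈ Pβ.toValuationSubring ↔
      heckeBetaBar Kb (M * q * q) ℓ z ∈ w.toValuationSubring := fun z => by
    rw [hPβ]
    exact s59u_mem_restrictAlong (heckeBetaBar Kb (M * q * q) ℓ) _ w z
  have mPb : ∀ z : ffi_F (M * q * q), z ∈ Pb.toValuationSubring ↔
      heckeAlphaBar Kb (M * q * q) ℓ z ∈ w.toValuationSubring := fun z => by
    rw [← hw]
    exact s59u_mem_restrictAlong (heckeAlphaBar Kb (M * q * q) ℓ) _ w z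
  obtain ⟨Qa₁, mQa₁⟩ := s59u_exists_restr_alpha (M * q) q L₀ Pb
  obtain ⟨Qb₁, mQb₁⟩ := s59u_exists_restr_alpha (M * q) q L₀ Pβ
  have hcast : M * q * ℓ * q = M * q * q * ℓ := by ring
  obtain ⟨Q', mQ'⟩ := s59u_exists_restr_cast (M * q * ℓ) q L₀ (M * q * q * ℓ) hcast w
  -- `Qa₁ ∈ N₁`
  have hQa₁N : Qa₁ ∈ N₁ := (hN₃ _ Qa₁ mQa₁).mp hQ
  -- [NODE-CORR] at level `M q`
  have hQb₁N : Qb₁ ∈ N₁ := by
    refine hcorr₁ Q' Qa₁ Qb₁ (fun y => ?_) (fun y => ?_) hQa₁N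
    · have e : (s44h_castF hcast) (heckeAlphaBar Kb (M * q * ℓ) q
          (s18q_incl (M * q * ℓ) L₀ (heckeAlphaBar ↥L₀ (M * q) ℓ y))) =
          heckeAlphaBar Kb (M * q * q) ℓ
            (s18q_incl (M * q * q) L₀ (heckeAlphaBar ↥L₀ (M * q) q y)) := by
        apply Subtype.ext
        rw [s44h_castF_coe, coe_heckeAlphaBar, s18q_incl_coe, coe_heckeAlphaBar, coe_heckeAlphaBar,
          s18q_incl_coe, coe_heckeAlphaBar]
      have h1 := mQa₁ y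
      have h2 : heckeAlphaBar ↥L₀ (M * q) q y ∈ (s18q_restrict (M * q * q) L₀ Pb).toValuationSubring ↔
          s18q_incl (M * q * q) L₀ (heckeAlphaBar ↥L₀ (M * q) q y) ∈ Pb.toValuationSubring :=
        s18q_mem_restrict (M * q * q) L₀ Pb _
      have h3 := mPb (s18q_incl (M * q * q) L₀ (heckeAlphaBar ↥L₀ (M * q) q y))
      have h4 := mQ' (heckeAlphaBar ↥L₀ (M * q) ℓ y)
      rw [e] at h4
      exact h1.trans (h2.trans (h3.trans h4.symm))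
    · have e : (s44h_castF hcast) (heckeAlphaBar Kb (M * q * ℓ) q
          (s18q_incl (M * q * ℓ) L₀ (heckeBetaBar ↥L₀ (M * q) ℓ y))) =
          heckeBetaBar Kb (M * q * q) ℓ
            (s18q_incl (M * q * q) L₀ (heckeAlphaBar ↥L₀ (M * q) q y)) := by
        apply Subtype.ext
        rw [s44h_castF_coe, coe_heckeAlphaBar, s18q_incl_coe, coe_heckeBetaBar, coe_heckeBetaBar,
          s18q_incl_coe, coe_heckeAlphaBar, coeffMap_qExpand]
      have h1 := mQb₁ y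
      have h2 : heckeAlphaBar ↥L₀ (M * q) q y ∈ (s18q_restrict (M * q * q) L₀ Pβ).toValuationSubring ↔
          s18q_incl (M * q * q) L₀ (heckeAlphaBar ↥L₀ (M * q) q y) ∈ Pβ.toValuationSubring :=
        s18q_mem_restrict (M * q * q) L₀ Pβ _
      have h3 := mPβ (s18q_incl (M * q * q) L₀ (heckeAlphaBar ↥L₀ (M * q) q y))
      have h4 := mQ' (heckeBetaBar ↥L₀ (M * q) ℓ y)
      rw [e] at h4
      exact h1.trans (h2.trans (h3.trans h4.symm))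
  have hPβN : s18q_restrict (M * q * q) L₀ Pβ ∈ N₃ := (hN₃ _ Qb₁ mQb₁).mpr hQb₁N
  have key : Pβ.ord (s18q_incl (M * q * q) L₀ h) = 0 := by
    rw [s18q_ord_restrict (M * q * q) L₀]
    exact hnf _ hPβN
  rw [key, mul_zero]

end TNode3

section TNode3G

variable (M q : ℕ) [NeZero M] [NeZero q] (hq : q.Prime) (hqM : ¬ q ∣ M)
  (L₀ : IntermediateField ℚ Kb) {κ : Type} [Field κ] (G : s18g_GaussData ↥L₀ κ)
  [IsDiscreteValuationRing G.A] [CharP κ q]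
  (ℓ : ℕ) [hℓ : Fact ℓ.Prime] [NeZero ℓ] (hℓ1 : ¬ ℓ ∣ M * q) (hℓ2 : ¬ ℓ ∣ M * q * q)
  (N₃ : Set (Place ↥L₀ (s34m_F ↥L₀ (M * q * q))))

include hq hℓ1 in
/-- **[T-NODE₃]** for an arbitrary Gauss datum over `L₀`, `N₁` = the places through the nodes of the chart `{j regular}` of
level `M q`. -/
theorem s59u_tnode3
    (hN₃ : ∀ (Q : Place ↥L₀ (s34m_F ↥L₀ (M * q * q))) (Qa : Place ↥L₀ (s34m_F ↥L₀ (M * q))),
      (∀ y, y ∈ Qa.toValuationSubring ↔ heckeAlphaBar ↥L₀ (M * q) q y ∈ Q.toValuationSubring) →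
      (Q ∈ N₃ ↔ Qa ∈ s33s_nodePlaces (s34m_VV G (algebraMap ↥L₀ Kb) M q hq hqM) (s34m_unif G (M * q))
        (s18_chart1 (L₀ := ↥L₀) (s18g_jF (K := ↥L₀) (M * q)))))
    (h : s34m_F ↥L₀ (M * q * q)) (hh0 : h ≠ 0) (hnf : ∀ Q ∈ N₃, Q.ord h = 0)
    (Q : Place ↥L₀ (s34m_F ↥L₀ (M * q * q))) (hQ : Q ∈ N₃) :
    Q.ord (s59u_tauD (M * q * q) ℓ hℓ2 L₀ h) = 0 := by
  exact s59u_tnode3_abs M q L₀ ℓ hℓ2 _ N₃ hN₃
    (fun Q' Qa Qb hQa hQb hN =>
      s59u_nodeCorr G (algebraMap ↥L₀ Kb) M q ℓ hq hqM hℓ.out hℓ1 Q' Qa Qb hQa hQb hN)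
    h hh0 hnf Q hQ

end TNode3G

end Fermat.Agent.Lib.S59
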