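/-
Programme (R2), node **[CAR]**, leaf W5/**[L2-7 HECKE₃]** (helper3, prefix `s59u_`), part 8: **THE LEAVES `mem`, `red`, `nf` OF
`s59m_HeckeFrame3` OVER helper9's CONCRETE FRAME OF LEVEL `M q²`** (`MCarL2F.lean`: `D : s59m_L2Data M q hqM P hP L₀ hunr`,
`X = s59m_frame3C h5 D hglue`, `X.V = D.V`, `X.r j = D.rb h5 j`, `X.N₃ = D.N₃`), for `T = τ_ℓ = s59u_tauD (M q²) ℓ _ L₀` and EVERY
Hecke correspondence `H : s59m_HeckeOn (s59m_ZU …)` of level `M q` with `H.T = s59u_tauD (M q) ℓ _ L₀`.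

* `s59u_Ti_zero`, `s59u_Tz_zero`, **`s59u_Tz_eq_Ti`** : for such an `H` (over any concrete Σ-datum `s59m_Zc`) the two induced
  maps on `Fb` agree (`red_0 = red_∞ ∘ w_q`, `τ_ℓ w_q = w_q τ_ℓ`);
* `s59u_red_i_tau`, `s59u_red_z_tau` : `H.red_i`, `H.red_z` with `H.T` replaced by `τ_ℓ`;
* **`s59u_hecke3_mem`** : `h ∈ D.V j → τ_ℓ h ∈ D.V j`;
* **`s59u_hecke3_red`** : `D.rb h5 j ⟨τ_ℓ h, _⟩ = H.Ti (D.rb h5 j ⟨h, _⟩)` for `h, h⁻¹ ∈ D.V j`;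
* **`s59u_hecke3_nf`**  : `h ≠ 0`, `ord_Q h = 0` on `D.N₃` ⇒ the same for `τ_ℓ h` (`ν₂(M) = ν₃(M) = 0`).
-/
import Fermat.Agent.Lib.S59.MCarL2F
import Fermat.Agent.Lib.S59.UCarFib3
import Fermat.Agent.Lib.S59.UCarTNode3
import Fermat.Agent.Lib.S59.UCarRed3

set_option autoImplicit false
set_option linter.style.haveILetI false
set_option linter.unusedSectionVars false
set_option linter.unusedVariables false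
set_option synthInstance.maxHeartbeats 400000

noncomputable section

namespace Fermat.Agent.Lib.S59

open ModularCurve HahnSeries AlgebraicCurve Fermat.Agent.Lib.FF Fermat.Agent.Lib.S18
  Fermat.Agent.Lib.S28 Fermat.Agent.Lib.S29 Fermat.Agent.Lib.S37 Fermat.Agent.Lib.S34
  Fermat.Agent.Lib.S35 Fermat.Agent.Lib.S33 Fermat.Agent.Lib.S44 Fermat.Agent.Lib.S36

local notation "Kb" => AlgebraicClosure ℚ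

/-! ### `H.Tz = H.Ti`, abstractly -/

section AbsTz

variable {L₀ 𝓕' κ Fb : Type*} [Field L₀] [Field 𝓕'] [Algebra L₀ 𝓕'] [Field κ] [Field Fb] [Algebra κ Fb]
variable {D' : s33f_Datum L₀ 𝓕' κ Fb} {𝓕 : Type*} [Field 𝓕] [Algebra L₀ 𝓕]
variable {ι : Type*} {k : ι → Type*} [∀ s, Field (k s)] [∀ s, Algebra κ (k s)]
variable {Z : s33z_Datum D' 𝓕 ι k}

theorem s59u_comp_red_congr (C : s33z_Comp D' 𝓕) {x y : 𝓕} (hx : x ∈ C.O) (hy : y ∈ C.O) (h : x = y) :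
    C.red ⟨x, hx⟩ = C.red ⟨y, hy⟩ := by
  subst h
  rfl

theorem s59u_comp_red_zero (C : s33z_Comp D' 𝓕) {x : 𝓕} (hx : x ∈ C.O) (h : x = 0) :
    C.red ⟨x, hx⟩ = 0 := by
  subst h
  exact map_zero C.red

/-- `H.Ti 0 = 0` if `H.T 0 = 0`. -/
theorem s59u_Ti_zero_abs (H : s59m_HeckeOn Z) (hT0 : H.T 0 = 0) : H.Ti 0 = 0 := by
  have h0 : (0 : 𝓕) ∈ Z.Ci.O := zero_mem _
  have h0' : (0 : 𝓕)⁻¹ ∈ Z.Ci.O := by rw [inv_zero]; exact zero_mem _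
  have h1 := H.red_i 0 h0 h0'
  rw [s59u_comp_red_zero Z.Ci (H.mem_i 0 h0) hT0, s59u_comp_red_zero Z.Ci h0 rfl] at h1
  exact h1.symm

/-- `H.Tz 0 = 0` if `H.T 0 = 0`. -/
theorem s59u_Tz_zero_abs (H : s59m_HeckeOn Z) (hT0 : H.T 0 = 0) : H.Tz 0 = 0 := by
  have h0 : (0 : 𝓕) ∈ Z.Cz.O := zero_mem _
  have h0' : (0 : 𝓕)⁻¹ ∈ Z.Cz.O := by rw [inv_zero]; exact zero_mem _
  have h1 := H.red_z 0 h0 h0'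
  rw [s59u_comp_red_zero Z.Cz (H.mem_z 0 h0) hT0, s59u_comp_red_zero Z.Cz h0 rfl] at h1
  exact h1.symm

/-- **`H.Tz = H.Ti`** if there is a ring endomorphism `w` of `𝓕` exchanging the two components compatibly with the
reductions and commuting with `H.T`. -/
theorem s59u_Tz_eq_Ti_abs (H : s59m_HeckeOn Z) (w : 𝓕 →+* 𝓕) (hT0 : H.T 0 = 0)
    (hwO : ∀ y, y ∈ Z.Ci.O → w y ∈ Z.Cz.O)
    (hwred : ∀ (y : 𝓕) (hy : y ∈ Z.Ci.O) (hwy : w y ∈ Z.Cz.O), Z.Cz.red ⟨w y, hwy⟩ = Z.Ci.red ⟨y, hy⟩)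
    (hTw : ∀ y, H.T (w y) = w (H.T y)) (φ : Fb) : H.Tz φ = H.Ti φ := by
  by_cases hφ : φ = 0
  · rw [hφ, s59u_Ti_zero_abs H hT0, s59u_Tz_zero_abs H hT0]
  obtain ⟨⟨h, hh⟩, rfl⟩ := Z.Ci.red_surjective φ
  have hinv : h⁻¹ ∈ Z.Ci.O := s59m_inv_mem_of_red_ne_zero Z.Ci hh hφ
  have hwh : w h ∈ Z.Cz.O := hwO h hh
  have hwh' : (w h)⁻¹ ∈ Z.Cz.O := by
    rw [← map_inv₀]
    exact hwO _ hinv
  have h1 := H.red_z (w h) hwh hwh'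
  have h2 := H.red_i h hh hinv
  rw [hwred h hh hwh] at h1
  rw [← h1, ← h2]
  have hm : w (H.T h) ∈ Z.Cz.O := hwO _ (H.mem_i h hh)
  rw [s59u_comp_red_congr Z.Cz (H.mem_z (w h) hwh) hm (hTw h)]
  exact hwred _ (H.mem_i h hh) hm

end AbsTz

/-! ### `H.Tz = H.Ti` for a Hecke correspondence with `H.T = τ_ℓ` -/

section TzTi

variable (M q : ℕ) [NeZero M] [hq : Fact q.Prime] (hqM : ¬ q ∣ M) (h5 : 5 ≤ q)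
  (P : ValuationSubring Kb) (hP : P.LiesOverPrime q)
  (L₀ : IntermediateField ℚ Kb) [FiniteDimensional ℚ ↥L₀] [IsDiscreteValuationRing ↥(s18q_A0 P L₀)]
  (ϖ : ↥(s18q_A0 P L₀)) (hϖ : Irreducible ϖ)
  [NumberField ↥L₀] [CharP (IsLocalRing.ResidueField ↥(s18q_A0 P L₀)) q]
  [PerfectField (IsLocalRing.ResidueField ↥(s18q_A0 P L₀))]
  [IsDiscreteValuationRing ↥(s37r_G P L₀ ϖ hϖ).A]
  (hdeg : s34m_HDeg ↥L₀ M q) (hT : s18g_HT (IsLocalRing.ResidueField ↥(s18q_A0 P L₀)) M)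
  (hdegM : s18g_HDeg ↥L₀ M) (hπ : Function.Surjective (s37r_G P L₀ ϖ hϖ).π)
  (e : ℕ) (ε : ↥L₀) (he : 0 < e) (hε : ε ∈ (s37r_G P L₀ ϖ hϖ).A)
  (hεinv : ε⁻¹ ∈ (s37r_G P L₀ ϖ hϖ).A) (hε0 : ε ≠ 0)
  (hqe : (q : ↥L₀) = ε * (((s37r_G P L₀ ϖ hϖ).ϖ : (s37r_G P L₀ ϖ hϖ).A) : ↥L₀) ^ e)
  (hperf : ∀ c : IsLocalRing.ResidueField ↥(s18q_A0 P L₀), ∃ d, d ^ q = c)
  (ℓ : ℕ) [hℓ : Fact ℓ.Prime] (hℓN : ¬ ℓ ∣ M * q)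

set_option quotPrecheck false

local notation "ZZ" => s59m_Zc M q hqM h5 P L₀ ϖ hϖ hdeg hT hdegM hπ e ε he hε hεinv hε0 hqe hperf

set_option maxHeartbeats 1600000 in
/-- `H.red_i` with `H.T` replaced by `τ_ℓ`. -/
theorem s59u_red_i_tau
    (H : s59m_HeckeOn (s59m_Zc M q hqM h5 P L₀ ϖ hϖ hdeg hT hdegM hπ e ε he hε hεinv hε0 hqe hperf))
    (hHT : H.T = s59u_tauD (M * q) ℓ hℓN L₀) (ρ : s34m_F ↥L₀ (M * q)) (hρ : ρ ∈ (ZZ).Ci.O)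
    (hρ' : ρ⁻¹ ∈ (ZZ).Ci.O) (hm : s59u_tauD (M * q) ℓ hℓN L₀ ρ ∈ (ZZ).Ci.O) :
    (ZZ).Ci.red ⟨s59u_tauD (M * q) ℓ hℓN L₀ ρ, hm⟩ = H.Ti ((ZZ).Ci.red ⟨ρ, hρ⟩) := by
  rw [← H.red_i ρ hρ hρ']
  exact s59u_comp_red_congr (ZZ).Ci hm (H.mem_i ρ hρ) (by rw [hHT])

set_option maxHeartbeats 1600000 in
/-- `H.red_z` with `H.T` replaced by `τ_ℓ`. -/
theorem s59u_red_z_tau
    (H : s59m_HeckeOn (s59m_Zc M q hqM h5 P L₀ ϖ hϖ hdeg hT hdegM hπ e ε he hε hεinv hε0 hqe hperf))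
    (hHT : H.T = s59u_tauD (M * q) ℓ hℓN L₀) (ρ : s34m_F ↥L₀ (M * q)) (hρ : ρ ∈ (ZZ).Cz.O)
    (hρ' : ρ⁻¹ ∈ (ZZ).Cz.O) (hm : s59u_tauD (M * q) ℓ hℓN L₀ ρ ∈ (ZZ).Cz.O) :
    (ZZ).Cz.red ⟨s59u_tauD (M * q) ℓ hℓN L₀ ρ, hm⟩ = H.Tz ((ZZ).Cz.red ⟨ρ, hρ⟩) := by
  rw [← H.red_z ρ hρ hρ']
  exact s59u_comp_red_congr (ZZ).Cz hm (H.mem_z ρ hρ) (by rw [hHT])

set_option maxHeartbeats 1600000 in
/-- the Atkin–Lehner involution exchanges the two reductions. -/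
theorem s59u_Zc_red_al (y : s34m_F ↥L₀ (M * q)) (hy : y ∈ (ZZ).Ci.O)
    (hwy : s34m_al (algebraMap ↥L₀ Kb) M q hq.out hqM y ∈ (ZZ).Cz.O) :
    (ZZ).Cz.red ⟨s34m_al (algebraMap ↥L₀ Kb) M q hq.out hqM y, hwy⟩ = (ZZ).Ci.red ⟨y, hy⟩ :=
  Subtype.ext (congrArg (s34m_redInf (s37r_G P L₀ ϖ hϖ) (M * q))
    (Subtype.ext (s34m_al_al (algebraMap ↥L₀ Kb) M q hq.out hqM y)))

set_option maxHeartbeats 1600000 in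
/-- **`H.Tz = H.Ti`** for a Hecke correspondence with `H.T = τ_ℓ`. -/
theorem s59u_Tz_eq_Ti
    (H : s59m_HeckeOn (s59m_Zc M q hqM h5 P L₀ ϖ hϖ hdeg hT hdegM hπ e ε he hε hεinv hε0 hqe hperf))
    (hHT : H.T = s59u_tauD (M * q) ℓ hℓN L₀)
    (φ : ↥(modularFunctionFieldFullC (IsLocalRing.ResidueField ↥(s18q_A0 P L₀)) M)) :
    H.Tz φ = H.Ti φ := by
  refine s59u_Tz_eq_Ti_abs H
    ((s34m_al (algebraMap ↥L₀ Kb) M q hq.out hqM : s34m_F ↥L₀ (M * q) ≃ₐ[↥L₀] s34m_F ↥L₀ (M * q)) :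
      s34m_F ↥L₀ (M * q) →+* s34m_F ↥L₀ (M * q)) ?_ ?_ ?_ ?_ φ
  · rw [hHT]
    exact s59u_tauD_zero (M * q) ℓ hℓN L₀
  · intro y hy
    exact (s34m_al_mem_Vinf_iff (s37r_G P L₀ ϖ hϖ) (algebraMap ↥L₀ Kb) M q hq.out hqM y).mpr hy
  · intro y hy hwy
    exact s59u_Zc_red_al M q hqM h5 P L₀ ϖ hϖ hdeg hT hdegM hπ e ε he hε hεinv hε0 hqe hperf y hy hwy
  · intro y
    rw [hHT]
    exact (s59u_tauD_al M q hqM ℓ hℓN L₀ y).symm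

end TzTi

/-! ### The three leaves over the concrete frame of level `M q²` -/

section Leaves

variable (M q : ℕ) [NeZero M] [hq : Fact q.Prime] (hqM : ¬ q ∣ M) (h5 : 5 ≤ q)
  (P : ValuationSubring Kb) (hP : P.LiesOverPrime q)
  (L₀ : IntermediateField ℚ Kb) [FiniteDimensional ℚ ↥L₀]
  (hunr : ∀ τ ∈ P.inertiaSubgroupIn ℚ, ∀ a ∈ L₀, τ a = a)
  [CharP (IsLocalRing.ResidueField ↥(s18q_A0 P L₀)) q]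
  [PerfectField (IsLocalRing.ResidueField ↥(s18q_A0 P L₀))]
  (D : s59m_L2Data M q hqM P hP L₀ hunr)
  (ℓ : ℕ) [hℓ : Fact ℓ.Prime] (hℓ1 : ¬ ℓ ∣ M * q) (hℓ2 : ¬ ℓ ∣ M * q * q) (hqℓ : q ≠ ℓ)

set_option maxHeartbeats 1600000 in
/-- `H.red_i` over the canonical Σ-datum, with `H.T` replaced by `τ_ℓ`. -/
theorem s59u_ZU_red_i_tau (H : s59m_HeckeOn (s59m_ZU M q hqM h5 P hP L₀ hunr))
    (hHT : H.T = s59u_tauD (M * q) ℓ hℓ1 L₀) (ρ : s34m_F ↥L₀ (M * q))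
    (hρ : ρ ∈ s34m_Vinf (s59m_GU q P hP L₀ hunr) (M * q))
    (hρ' : ρ⁻¹ ∈ s34m_Vinf (s59m_GU q P hP L₀ hunr) (M * q))
    (hm : s59u_tauD (M * q) ℓ hℓ1 L₀ ρ ∈ s34m_Vinf (s59m_GU q P hP L₀ hunr) (M * q)) :
    (s59m_ZU M q hqM h5 P hP L₀ hunr).Ci.red ⟨s59u_tauD (M * q) ℓ hℓ1 L₀ ρ, hm⟩ =
      H.Ti ((s59m_ZU M q hqM h5 P hP L₀ hunr).Ci.red ⟨ρ, hρ⟩) :=
  haveI : IsDiscreteValuationRing ↥(s18q_A0 P L₀) := s18q_A0_dvr P L₀ hP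
  haveI : NumberField ↥L₀ := ⟨⟩
  haveI : IsDiscreteValuationRing ↥(s37r_G P L₀ ((q : ℕ) : ↥(s18q_A0 P L₀))
      (s59m_q_irreducible q P hP L₀ hunr)).A := s18q_A0_dvr P L₀ hP
  s59u_red_i_tau M q hqM h5 P L₀ ((q : ℕ) : ↥(s18q_A0 P L₀))
    (s59m_q_irreducible q P hP L₀ hunr) (s59m_hdeg_U M q hqM L₀) (s59m_hT_U M q P L₀ hqM)
    (fun n b hb hn => s18g_exists_relation M (algebraMap ↥L₀ Kb) hn b hb)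
    IsLocalRing.residue_surjective 1 1 one_pos (one_mem _) (by rw [inv_one]; exact one_mem _)
    one_ne_zero (by rw [one_mul, pow_one]; rfl) (s59m_hperf_U q P L₀) ℓ hℓ1 H hHT ρ hρ hρ' hm

set_option maxHeartbeats 1600000 in
/-- `H.red_z` over the canonical Σ-datum, with `H.T` replaced by `τ_ℓ` and `H.Tz` by `H.Ti`. -/
theorem s59u_ZU_red_z_tau (H : s59m_HeckeOn (s59m_ZU M q hqM h5 P hP L₀ hunr))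
    (hHT : H.T = s59u_tauD (M * q) ℓ hℓ1 L₀) (ρ : s34m_F ↥L₀ (M * q))
    (hρ : ρ ∈ s34m_Vzero (s59m_GU q P hP L₀ hunr) (algebraMap ↥L₀ Kb) M q hq.out hqM)
    (hρ' : ρ⁻¹ ∈ s34m_Vzero (s59m_GU q P hP L₀ hunr) (algebraMap ↥L₀ Kb) M q hq.out hqM)
    (hm : s59u_tauD (M * q) ℓ hℓ1 L₀ ρ ∈
      s34m_Vzero (s59m_GU q P hP L₀ hunr) (algebraMap ↥L₀ Kb) M q hq.out hqM) :
    (s59m_ZU M q hqM h5 P hP L₀ hunr).Cz.red ⟨s59u_tauD (M * q) ℓ hℓ1 L₀ ρ, hm⟩ =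
      H.Ti ((s59m_ZU M q hqM h5 P hP L₀ hunr).Cz.red ⟨ρ, hρ⟩) :=
  haveI : IsDiscreteValuationRing ↥(s18q_A0 P L₀) := s18q_A0_dvr P L₀ hP
  haveI : NumberField ↥L₀ := ⟨⟩
  haveI : IsDiscreteValuationRing ↥(s37r_G P L₀ ((q : ℕ) : ↥(s18q_A0 P L₀))
      (s59m_q_irreducible q P hP L₀ hunr)).A := s18q_A0_dvr P L₀ hP
  (s59u_red_z_tau M q hqM h5 P L₀ ((q : ℕ) : ↥(s18q_A0 P L₀))
    (s59m_q_irreducible q P hP L₀ hunr) (s59m_hdeg_U M q hqM L₀) (s59m_hT_U M q P L₀ hqM)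
    (fun n b hb hn => s18g_exists_relation M (algebraMap ↥L₀ Kb) hn b hb)
    IsLocalRing.residue_surjective 1 1 one_pos (one_mem _) (by rw [inv_one]; exact one_mem _)
    one_ne_zero (by rw [one_mul, pow_one]; rfl) (s59m_hperf_U q P L₀) ℓ hℓ1 H hHT ρ hρ hρ' hm).trans
  (s59u_Tz_eq_Ti M q hqM h5 P L₀ ((q : ℕ) : ↥(s18q_A0 P L₀))
    (s59m_q_irreducible q P hP L₀ hunr) (s59m_hdeg_U M q hqM L₀) (s59m_hT_U M q P L₀ hqM)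
    (fun n b hb hn => s18g_exists_relation M (algebraMap ↥L₀ Kb) hn b hb)
    IsLocalRing.residue_surjective 1 1 one_pos (one_mem _) (by rw [inv_one]; exact one_mem _)
    one_ne_zero (by rw [one_mul, pow_one]; rfl) (s59m_hperf_U q P L₀) ℓ hℓ1 H hHT _)

set_option maxHeartbeats 1600000 in
/-- `H.Ti 0 = 0` over the canonical Σ-datum. -/
theorem s59u_ZU_Ti_zero (H : s59m_HeckeOn (s59m_ZU M q hqM h5 P hP L₀ hunr))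
    (hHT : H.T = s59u_tauD (M * q) ℓ hℓ1 L₀) : H.Ti 0 = 0 :=
  s59u_Ti_zero_abs H (by rw [hHT]; exact s59u_tauD_zero (M * q) ℓ hℓ1 L₀)

include hqℓ in
/-- **`mem`**: `τ_ℓ (D.V j) ⊆ D.V j`. -/
theorem s59u_hecke3_mem (j : Fin 3) (h : s34m_F ↥L₀ (M * q * q)) (hh : h ∈ D.V j) :
    s59u_tauD (M * q * q) ℓ hℓ2 L₀ h ∈ D.V j :=
  haveI : IsDiscreteValuationRing ↥(s18q_A0 P L₀) := s18q_A0_dvr P L₀ hP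
  haveI : IsDiscreteValuationRing ↥(s59m_GU q P hP L₀ hunr).A := s18q_A0_dvr P L₀ hP
  s59u_tauD_mem_V3 M q hq.out hqM L₀ (s59m_GU q P hP L₀ hunr) ℓ hℓ2 hqℓ D.V D.pkg.1
    D.pkg.2.2.2.1 D.pkg.2.2.2.2.1 j hh

include hqℓ in
set_option maxHeartbeats 1600000 in
/-- `red` at `j = 0` (along `α'`, `red_∞`). -/
theorem s59u_hecke3_red0 (H : s59m_HeckeOn (s59m_ZU M q hqM h5 P hP L₀ hunr))
    (hHT : H.T = s59u_tauD (M * q) ℓ hℓ1 L₀) (h : s34m_F ↥L₀ (M * q * q))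
    (hh : h ∈ D.V 0) (hh' : h⁻¹ ∈ D.V 0) (hh0 : h ≠ 0)
    (hm : s59u_tauD (M * q * q) ℓ hℓ2 L₀ h ∈ D.V 0) :
    D.rb h5 0 ⟨s59u_tauD (M * q * q) ℓ hℓ2 L₀ h, hm⟩ = H.Ti (D.rb h5 0 ⟨h, hh⟩) := by
  haveI : IsDiscreteValuationRing ↥(s18q_A0 P L₀) := s18q_A0_dvr P L₀ hP
  haveI : IsDiscreteValuationRing ↥(s37r_G P L₀ ((q : ℕ) : ↥(s18q_A0 P L₀))
      (s59m_q_irreducible q P hP L₀ hunr)).A := s18q_A0_dvr P L₀ hP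
  obtain ⟨ρ, hρ, hρ', hρ0, e1, e2⟩ := s59u_red3_alpha M q hqM P hP L₀ ((q : ℕ) : ↥(s18q_A0 P L₀))
    (s59m_q_irreducible q P hP L₀ hunr) ℓ hℓ1 hℓ2 hqℓ D.V D.pkg.1 D.pkg.2.2.2.1 D.pkg.2.2.2.2.1 0
    D.pkg.1.2.1 D.pkg.2.2.1.1 (D.r 0) (fun y hy => (D.r_ker 0 y).mpr hy) D.r0α h hh hh' hh0
  have E1 : D.rb h5 0 ⟨h, hh⟩ = (s59m_ZU M q hqM h5 P hP L₀ hunr).Ci.red ⟨ρ, hρ⟩ := Subtype.ext e1
  have E2 : D.rb h5 0 ⟨s59u_tauD (M * q * q) ℓ hℓ2 L₀ h, hm⟩ =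
      (s59m_ZU M q hqM h5 P hP L₀ hunr).Ci.red ⟨s59u_tauD (M * q) ℓ hℓ1 L₀ ρ,
        s59u_tauD_mem_Vinf (M * q) ℓ hℓ1 P hP L₀ _ _ hρ⟩ := Subtype.ext e2
  rw [E1, E2]
  exact s59u_ZU_red_i_tau M q hqM h5 P hP L₀ hunr ℓ hℓ1 H hHT ρ hρ hρ' _

include hqℓ in
set_option maxHeartbeats 1600000 in
/-- `red` at `j = 1` (along `α'`, `red_∞`). -/
theorem s59u_hecke3_red1 (H : s59m_HeckeOn (s59m_ZU M q hqM h5 P hP L₀ hunr))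
    (hHT : H.T = s59u_tauD (M * q) ℓ hℓ1 L₀) (h : s34m_F ↥L₀ (M * q * q))
    (hh : h ∈ D.V 1) (hh' : h⁻¹ ∈ D.V 1) (hh0 : h ≠ 0)
    (hm : s59u_tauD (M * q * q) ℓ hℓ2 L₀ h ∈ D.V 1) :
    D.rb h5 1 ⟨s59u_tauD (M * q * q) ℓ hℓ2 L₀ h, hm⟩ = H.Ti (D.rb h5 1 ⟨h, hh⟩) := by
  haveI : IsDiscreteValuationRing ↥(s18q_A0 P L₀) := s18q_A0_dvr P L₀ hP
  haveI : IsDiscreteValuationRing ↥(s37r_G P L₀ ((q : ℕ) : ↥(s18q_A0 P L₀))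
      (s59m_q_irreducible q P hP L₀ hunr)).A := s18q_A0_dvr P L₀ hP
  obtain ⟨ρ, hρ, hρ', hρ0, e1, e2⟩ := s59u_red3_alpha M q hqM P hP L₀ ((q : ℕ) : ↥(s18q_A0 P L₀))
    (s59m_q_irreducible q P hP L₀ hunr) ℓ hℓ1 hℓ2 hqℓ D.V D.pkg.1 D.pkg.2.2.2.1 D.pkg.2.2.2.2.1 1
    D.pkg.1.2.2.2.1 D.pkg.2.2.1.2.1 (D.r 1) (fun y hy => (D.r_ker 1 y).mpr hy) D.r1α h hh hh' hh0
  have E1 : D.rb h5 1 ⟨h, hh⟩ = (s59m_ZU M q hqM h5 P hP L₀ hunr).Ci.red ⟨ρ, hρ⟩ := Subtype.ext e1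
  have E2 : D.rb h5 1 ⟨s59u_tauD (M * q * q) ℓ hℓ2 L₀ h, hm⟩ =
      (s59m_ZU M q hqM h5 P hP L₀ hunr).Ci.red ⟨s59u_tauD (M * q) ℓ hℓ1 L₀ ρ,
        s59u_tauD_mem_Vinf (M * q) ℓ hℓ1 P hP L₀ _ _ hρ⟩ := Subtype.ext e2
  rw [E1, E2]
  exact s59u_ZU_red_i_tau M q hqM h5 P hP L₀ hunr ℓ hℓ1 H hHT ρ hρ hρ' _

include hqℓ in
set_option maxHeartbeats 1600000 in
/-- `red` at `j = 2` (along `β'`, `red_0`, and `H.Tz = H.Ti`). -/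
theorem s59u_hecke3_red2 (H : s59m_HeckeOn (s59m_ZU M q hqM h5 P hP L₀ hunr))
    (hHT : H.T = s59u_tauD (M * q) ℓ hℓ1 L₀) (h : s34m_F ↥L₀ (M * q * q))
    (hh : h ∈ D.V 2) (hh' : h⁻¹ ∈ D.V 2) (hh0 : h ≠ 0)
    (hm : s59u_tauD (M * q * q) ℓ hℓ2 L₀ h ∈ D.V 2) :
    D.rb h5 2 ⟨s59u_tauD (M * q * q) ℓ hℓ2 L₀ h, hm⟩ = H.Ti (D.rb h5 2 ⟨h, hh⟩) := by
  haveI : IsDiscreteValuationRing ↥(s18q_A0 P L₀) := s18q_A0_dvr P L₀ hP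
  haveI : IsDiscreteValuationRing ↥(s37r_G P L₀ ((q : ℕ) : ↥(s18q_A0 P L₀))
      (s59m_q_irreducible q P hP L₀ hunr)).A := s18q_A0_dvr P L₀ hP
  obtain ⟨ρ, hρ, hρ', hρ0, e1, e2⟩ := s59u_red3_beta M q hqM P hP L₀ ((q : ℕ) : ↥(s18q_A0 P L₀))
    (s59m_q_irreducible q P hP L₀ hunr) ℓ hℓ1 hℓ2 hqℓ D.V D.pkg.1 D.pkg.2.2.2.1 D.pkg.2.2.2.2.1 2
    D.pkg.1.2.2.2.2.2.2 D.pkg.2.2.1.2.2.2.1 (D.r 2) (fun y hy => (D.r_ker 2 y).mpr hy) D.r2β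
    h hh hh' hh0
  have E1 : D.rb h5 2 ⟨h, hh⟩ = (s59m_ZU M q hqM h5 P hP L₀ hunr).Cz.red ⟨ρ, hρ⟩ := Subtype.ext e1
  have E2 : D.rb h5 2 ⟨s59u_tauD (M * q * q) ℓ hℓ2 L₀ h, hm⟩ =
      (s59m_ZU M q hqM h5 P hP L₀ hunr).Cz.red ⟨s59u_tauD (M * q) ℓ hℓ1 L₀ ρ,
        s59u_tauD_mem_Vzero M hqM ℓ hℓ1 P hP L₀ _ _ hρ⟩ := Subtype.ext e2
  rw [E1, E2]
  exact s59u_ZU_red_z_tau M q hqM h5 P hP L₀ hunr ℓ hℓ1 H hHT ρ hρ hρ' _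

include hqℓ in
set_option maxHeartbeats 1600000 in
/-- **`red`**: `τ_ℓ` induces `H.Ti` on the three residue fields (for `h, h⁻¹ ∈ D.V j`). -/
theorem s59u_hecke3_red (H : s59m_HeckeOn (s59m_ZU M q hqM h5 P hP L₀ hunr))
    (hHT : H.T = s59u_tauD (M * q) ℓ hℓ1 L₀) (j : Fin 3) (h : s34m_F ↥L₀ (M * q * q))
    (hh : h ∈ D.V j) (hh' : h⁻¹ ∈ D.V j)
    (hm : s59u_tauD (M * q * q) ℓ hℓ2 L₀ h ∈ D.V j) :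
    D.rb h5 j ⟨s59u_tauD (M * q * q) ℓ hℓ2 L₀ h, hm⟩ = H.Ti (D.rb h5 j ⟨h, hh⟩) := by
  by_cases hh0 : h = 0
  · subst hh0
    have e1 : (⟨s59u_tauD (M * q * q) ℓ hℓ2 L₀ 0, hm⟩ : D.V j) = 0 :=
      Subtype.ext (s59u_tauD_zero (M * q * q) ℓ hℓ2 L₀)
    have e2 : (⟨0, hh⟩ : D.V j) = 0 := rfl
    rw [e1, e2, map_zero, s59u_ZU_Ti_zero M q hqM h5 P hP L₀ hunr ℓ hℓ1 H hHT]
  · fin_cases j
    · exact s59u_hecke3_red0 M q hqM h5 P hP L₀ hunr D ℓ hℓ1 hℓ2 hqℓ H hHT h hh hh' hh0 hm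
    · exact s59u_hecke3_red1 M q hqM h5 P hP L₀ hunr D ℓ hℓ1 hℓ2 hqℓ H hHT h hh hh' hh0 hm
    · exact s59u_hecke3_red2 M q hqM h5 P hP L₀ hunr D ℓ hℓ1 hℓ2 hqℓ H hHT h hh hh' hh0 hm

include h5 in
set_option maxHeartbeats 1600000 in
/-- the hypothesis `hN₃` of [T-NODE₃] for the intrinsic `D.N₃`. -/
theorem s59u_hecke3_hN3 (h2 : nuTwo M = 0) (h3 : nuThree M = 0)
    (Q : Place ↥L₀ (s34m_F ↥L₀ (M * q * q))) (Qa : Place ↥L₀ (s34m_F ↥L₀ (M * q)))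
    (hQa : ∀ y, y ∈ Qa.toValuationSubring ↔
      heckeAlphaBar ↥L₀ (M * q) q y ∈ Q.toValuationSubring) :
    Q ∈ D.N₃ ↔ Qa ∈ s33s_nodePlaces
      (s34m_VV (s59m_GU q P hP L₀ hunr) (algebraMap ↥L₀ Kb) M q hq.out hqM)
      (s34m_unif (s59m_GU q P hP L₀ hunr) (M * q))
      (s18_chart1 (L₀ := ↥L₀) (s18g_jF (K := ↥L₀) (M * q))) := by
  haveI : IsDiscreteValuationRing ↥(s18q_A0 P L₀) := s18q_A0_dvr P L₀ hP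
  haveI : NumberField ↥L₀ := ⟨⟩
  haveI : IsDiscreteValuationRing ↥(s37r_G P L₀ ((q : ℕ) : ↥(s18q_A0 P L₀))
      (s59m_q_irreducible q P hP L₀ hunr)).A := s18q_A0_dvr P L₀ hP
  exact s59u_multiPlaces_iff_jF (s59m_GU q P hP L₀ hunr) (algebraMap ↥L₀ Kb) M q hq.out hqM h5 h2 h3
    IsLocalRing.residue_surjective rfl D.pkg Q Qa hQa

include h5 hℓ1 in
set_option maxHeartbeats 1600000 in
/-- **`nf` = [T-NODE₃]**: `τ_ℓ` preserves the functions without zero or pole along `D.N₃`. -/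
theorem s59u_hecke3_nf (h2 : nuTwo M = 0) (h3 : nuThree M = 0)
    (h : s34m_F ↥L₀ (M * q * q)) (hh0 : h ≠ 0) (hnf : ∀ Q ∈ D.N₃, Q.ord h = 0) :
    s59u_tauD (M * q * q) ℓ hℓ2 L₀ h ≠ 0 ∧
      ∀ Q ∈ D.N₃, Q.ord (s59u_tauD (M * q * q) ℓ hℓ2 L₀ h) = 0 := by
  haveI : NeZero ℓ := ⟨hℓ.out.ne_zero⟩
  haveI : IsDiscreteValuationRing ↥(s18q_A0 P L₀) := s18q_A0_dvr P L₀ hP
  haveI : IsDiscreteValuationRing ↥(s37r_G P L₀ ((q : ℕ) : ↥(s18q_A0 P L₀))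
      (s59m_q_irreducible q P hP L₀ hunr)).A := s18q_A0_dvr P L₀ hP
  refine ⟨s59u_tauD_ne_zero (M * q * q) ℓ hℓ2 L₀ hh0, fun Q hQ => ?_⟩
  exact s59u_tnode3 M q hq.out hqM L₀ (s59m_GU q P hP L₀ hunr) ℓ hℓ1 hℓ2 D.N₃
    (fun Q Qa hQa => s59u_hecke3_hN3 M q hqM h5 P hP L₀ hunr D h2 h3 Q Qa hQa) h hh0 hnf Q hQ

end Leaves

end Fermat.Agent.Lib.S59
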