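/-
Programme (R2) / node **[CAR]**, the ports to `q ∈ {2, 3}`, leaf W5/**[L2-7 HECKE₃]** over a chart (helper2, prefix `s59b_`),
part A — everything that does not mention the level-`M q²` frame: helper3's `UCarHecke3.lean` (sections `TzTi`, the
`ZU`-lemmas) and `UCarFib3.lean` (section `JF`) over a chart package `C` (`B4Chart.lean`, `B4Top.lean`).

* `s59b_red_i_tauW`, `s59b_red_z_tauW`, `s59b_Zc_red_alW`, **`s59b_Tz_eq_TiW`** : for a Hecke correspondence `H` on the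
  Σ-datum `s59b_ZcW … C` with `H.T = τ_ℓ`: `H.red_i`, `H.red_z` with `H.T` replaced by `τ_ℓ`, and `H.Tz = H.Ti`;
* `s59b_ZUW_red_i_tau`, `s59b_ZUW_red_z_tau`, `s59b_ZUW_Ti_zero` : the same over the canonical Σ-datum `s59b_ZUW … C`;
* **`s59b_multiPlaces_iff_full`** : for a base function `x` with all its global properties (`s36g_BaseFull`) and
  `ν₂(M) = ν₃(M) = 0`, `ϖ = q`: a place `Q` of level `M q²` passes through a multiple point of the chart `{α' α x regular}` iff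
  its `α'`-restriction passes through a node of the chart `{α x regular}` of level `M q` (no `q ≥ 5`).
-/
import Fermat.Agent.Lib.S59.B4Hecke
import Fermat.Agent.Lib.S59.UCarHecke3

set_option autoImplicit false
set_option linter.style.haveILetI false
set_option linter.unusedSectionVars false
set_option linter.unusedVariables false
set_option synthInstance.maxHeartbeats 400000

noncomputable section

namespace Fermat.Agent.Lib.S59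

open ModularCurve HahnSeries AlgebraicCurve Fermat.Agent.Lib.FF Fermat.Agent.Lib.S18
  Fermat.Agent.Lib.S28 Fermat.Agent.Lib.S29 Fermat.Agent.Lib.S37 Fermat.Agent.Lib.S34
  Fermat.Agent.Lib.S35 Fermat.Agent.Lib.S33 Fermat.Agent.Lib.S44 Fermat.Agent.Lib.S36

local notation "Kb" => AlgebraicClosure ℚ

/-! ### `H.Tz = H.Ti` for a Hecke correspondence with `H.T = τ_ℓ`, over the Σ-datum of a chart -/

section TzTi

variable (M q : ℕ) [NeZero M] [hq : Fact q.Prime] (hqM : ¬ q ∣ M)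
  (P : ValuationSubring Kb) (hP : P.LiesOverPrime q)
  (L₀ : IntermediateField ℚ Kb) [FiniteDimensional ℚ ↥L₀] [IsDiscreteValuationRing ↥(s18q_A0 P L₀)]
  (ϖ : ↥(s18q_A0 P L₀)) (hϖ : Irreducible ϖ)
  [NumberField ↥L₀] [CharP (IsLocalRing.ResidueField ↥(s18q_A0 P L₀)) q]
  [PerfectField (IsLocalRing.ResidueField ↥(s18q_A0 P L₀))]
  [IsDiscreteValuationRing ↥(s37r_G P L₀ ϖ hϖ).A]
  (hdeg : s34m_HDeg ↥L₀ M q) (hT : s18g_HT (IsLocalRing.ResidueField ↥(s18q_A0 P L₀)) M)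
  (hdegM : s18g_HDeg ↥L₀ M) (hπ : Function.Surjective (s37r_G P L₀ ϖ hϖ).π)
  (e : ℕ) (ε : ↥L₀) (he : 0 < e) (hε : ε ∈ (s37r_G P L₀ ϖ hϖ).A)
  (hεinv : ε⁻¹ ∈ (s37r_G P L₀ ϖ hϖ).A) (hε0 : ε ≠ 0)
  (hqe : (q : ↥L₀) = ε * (((s37r_G P L₀ ϖ hϖ).ϖ : (s37r_G P L₀ ϖ hϖ).A) : ↥L₀) ^ e)
  (hperf : ∀ c : IsLocalRing.ResidueField ↥(s18q_A0 P L₀), ∃ d, d ^ q = c)
  (C : s59b_Chart (s37r_G P L₀ ϖ hϖ) (algebraMap ↥L₀ Kb) M q hqM hT hdegM)
  (ℓ : ℕ) [hℓ : Fact ℓ.Prime] (hℓN : ¬ ℓ ∣ M * q)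

set_option quotPrecheck false

local notation "ZW" => s59b_ZcW M q hqM P L₀ ϖ hϖ hdeg hT hdegM hπ e ε he hε hεinv hε0 hqe hperf C

set_option maxHeartbeats 1600000 in
/-- `H.red_i` with `H.T` replaced by `τ_ℓ`. -/
theorem s59b_red_i_tauW
    (H : s59m_HeckeOn (s59b_ZcW M q hqM P L₀ ϖ hϖ hdeg hT hdegM hπ e ε he hε hεinv hε0 hqe hperf C))
    (hHT : H.T = s59u_tauD (M * q) ℓ hℓN L₀) (ρ : s34m_F ↥L₀ (M * q)) (hρ : ρ ∈ (ZW).Ci.O)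
    (hρ' : ρ⁻¹ ∈ (ZW).Ci.O) (hm : s59u_tauD (M * q) ℓ hℓN L₀ ρ ∈ (ZW).Ci.O) :
    (ZW).Ci.red ⟨s59u_tauD (M * q) ℓ hℓN L₀ ρ, hm⟩ = H.Ti ((ZW).Ci.red ⟨ρ, hρ⟩) := by
  rw [← H.red_i ρ hρ hρ']
  exact s59u_comp_red_congr (ZW).Ci hm (H.mem_i ρ hρ) (by rw [hHT])

set_option maxHeartbeats 1600000 in
/-- `H.red_z` with `H.T` replaced by `τ_ℓ`. -/
theorem s59b_red_z_tauW
    (H : s59m_HeckeOn (s59b_ZcW M q hqM P L₀ ϖ hϖ hdeg hT hdegM hπ e ε he hε hεinv hε0 hqe hperf C))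
    (hHT : H.T = s59u_tauD (M * q) ℓ hℓN L₀) (ρ : s34m_F ↥L₀ (M * q)) (hρ : ρ ∈ (ZW).Cz.O)
    (hρ' : ρ⁻¹ ∈ (ZW).Cz.O) (hm : s59u_tauD (M * q) ℓ hℓN L₀ ρ ∈ (ZW).Cz.O) :
    (ZW).Cz.red ⟨s59u_tauD (M * q) ℓ hℓN L₀ ρ, hm⟩ = H.Tz ((ZW).Cz.red ⟨ρ, hρ⟩) := by
  rw [← H.red_z ρ hρ hρ']
  exact s59u_comp_red_congr (ZW).Cz hm (H.mem_z ρ hρ) (by rw [hHT])

set_option maxHeartbeats 1600000 in
/-- the Atkin–Lehner involution exchanges the two reductions. -/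
theorem s59b_Zc_red_alW (y : s34m_F ↥L₀ (M * q)) (hy : y ∈ (ZW).Ci.O)
    (hwy : s34m_al (algebraMap ↥L₀ Kb) M q hq.out hqM y ∈ (ZW).Cz.O) :
    (ZW).Cz.red ⟨s34m_al (algebraMap ↥L₀ Kb) M q hq.out hqM y, hwy⟩ = (ZW).Ci.red ⟨y, hy⟩ :=
  Subtype.ext (congrArg (s34m_redInf (s37r_G P L₀ ϖ hϖ) (M * q))
    (Subtype.ext (s34m_al_al (algebraMap ↥L₀ Kb) M q hq.out hqM y)))

set_option maxHeartbeats 1600000 in
/-- **`H.Tz = H.Ti`** for a Hecke correspondence with `H.T = τ_ℓ`. -/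
theorem s59b_Tz_eq_TiW
    (H : s59m_HeckeOn (s59b_ZcW M q hqM P L₀ ϖ hϖ hdeg hT hdegM hπ e ε he hε hεinv hε0 hqe hperf C))
    (hHT : H.T = s59u_tauD (M * q) ℓ hℓN L₀)
    (φ : ↥(modularFunctionFieldFullC (IsLocalRing.ResidueField ↥(s18q_A0 P L₀)) M)) :
    H.Tz φ = H.Ti φ := by
  refine s59u_Tz_eq_Ti_abs H
    ((s34m_al (algebraMap ↥L₀ Kb) M q hq.out hqM : s34m_F ↥L₀ (M * q) ≃ₐ[↥L₀] s34m_F ↥L₀ (M * q)) :
      s34m_F ↥L₀ (M * q) →+* s34m_F ↥L₀ (M * q)) ?_ ?_ ?_ ?_ φ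
  · rw [hHT]
    exact s59u_tauD_zero (M * q) ℓ hℓN L₀
  · intro y hy
    exact (s34m_al_mem_Vinf_iff (s37r_G P L₀ ϖ hϖ) (algebraMap ↥L₀ Kb) M q hq.out hqM y).mpr hy
  · intro y hy hwy
    exact s59b_Zc_red_alW M q hqM P L₀ ϖ hϖ hdeg hT hdegM hπ e ε he hε hεinv hε0 hqe hperf C y hy hwy
  · intro y
    rw [hHT]
    exact (s59u_tauD_al M q hqM ℓ hℓN L₀ y).symm

end TzTi

/-! ### The same over the canonical Σ-datum of a chart -/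

section Canon

variable (M q : ℕ) [NeZero M] [hq : Fact q.Prime] (hqM : ¬ q ∣ M)
  (P : ValuationSubring Kb) (hP : P.LiesOverPrime q)
  (L₀ : IntermediateField ℚ Kb) [FiniteDimensional ℚ ↥L₀]
  (hunr : ∀ τ ∈ P.inertiaSubgroupIn ℚ, ∀ a ∈ L₀, τ a = a)
  [CharP (IsLocalRing.ResidueField ↥(s18q_A0 P L₀)) q]
  [PerfectField (IsLocalRing.ResidueField ↥(s18q_A0 P L₀))]
  (C : s59b_ChartU M q hqM P hP L₀ hunr)
  (ℓ : ℕ) [hℓ : Fact ℓ.Prime] (hℓ1 : ¬ ℓ ∣ M * q)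

set_option maxHeartbeats 1600000 in
/-- `H.red_i` over the canonical Σ-datum of the chart `C`, with `H.T` replaced by `τ_ℓ`. -/
theorem s59b_ZUW_red_i_tau (H : s59m_HeckeOn (s59b_ZUW M q hqM P hP L₀ hunr C))
    (hHT : H.T = s59u_tauD (M * q) ℓ hℓ1 L₀) (ρ : s34m_F ↥L₀ (M * q))
    (hρ : ρ ∈ s34m_Vinf (s59m_GU q P hP L₀ hunr) (M * q))
    (hρ' : ρ⁻¹ ∈ s34m_Vinf (s59m_GU q P hP L₀ hunr) (M * q))
    (hm : s59u_tauD (M * q) ℓ hℓ1 L₀ ρ ∈ s34m_Vinf (s59m_GU q P hP L₀ hunr) (M * q)) :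
    (s59b_ZUW M q hqM P hP L₀ hunr C).Ci.red ⟨s59u_tauD (M * q) ℓ hℓ1 L₀ ρ, hm⟩ =
      H.Ti ((s59b_ZUW M q hqM P hP L₀ hunr C).Ci.red ⟨ρ, hρ⟩) :=
  haveI : IsDiscreteValuationRing ↥(s18q_A0 P L₀) := s18q_A0_dvr P L₀ hP
  haveI : NumberField ↥L₀ := ⟨⟩
  haveI : IsDiscreteValuationRing ↥(s37r_G P L₀ ((q : ℕ) : ↥(s18q_A0 P L₀))
      (s59m_q_irreducible q P hP L₀ hunr)).A := s18q_A0_dvr P L₀ hP
  s59b_red_i_tauW M q hqM P L₀ ((q : ℕ) : ↥(s18q_A0 P L₀))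
    (s59m_q_irreducible q P hP L₀ hunr) (s59m_hdeg_U M q hqM L₀) (s59m_hT_U M q P L₀ hqM)
    (fun n b hb hn => s18g_exists_relation M (algebraMap ↥L₀ Kb) hn b hb)
    IsLocalRing.residue_surjective 1 1 one_pos (one_mem _) (by rw [inv_one]; exact one_mem _)
    one_ne_zero (by rw [one_mul, pow_one]; rfl) (s59m_hperf_U q P L₀) C ℓ hℓ1 H hHT ρ hρ hρ' hm

set_option maxHeartbeats 1600000 in
/-- `H.red_z` over the canonical Σ-datum of the chart `C`, with `H.T` replaced by `τ_ℓ` and `H.Tz` by `H.Ti`. -/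
theorem s59b_ZUW_red_z_tau (H : s59m_HeckeOn (s59b_ZUW M q hqM P hP L₀ hunr C))
    (hHT : H.T = s59u_tauD (M * q) ℓ hℓ1 L₀) (ρ : s34m_F ↥L₀ (M * q))
    (hρ : ρ ∈ s34m_Vzero (s59m_GU q P hP L₀ hunr) (algebraMap ↥L₀ Kb) M q hq.out hqM)
    (hρ' : ρ⁻¹ ∈ s34m_Vzero (s59m_GU q P hP L₀ hunr) (algebraMap ↥L₀ Kb) M q hq.out hqM)
    (hm : s59u_tauD (M * q) ℓ hℓ1 L₀ ρ ∈
      s34m_Vzero (s59m_GU q P hP L₀ hunr) (algebraMap ↥L₀ Kb) M q hq.out hqM) :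
    (s59b_ZUW M q hqM P hP L₀ hunr C).Cz.red ⟨s59u_tauD (M * q) ℓ hℓ1 L₀ ρ, hm⟩ =
      H.Ti ((s59b_ZUW M q hqM P hP L₀ hunr C).Cz.red ⟨ρ, hρ⟩) :=
  haveI : IsDiscreteValuationRing ↥(s18q_A0 P L₀) := s18q_A0_dvr P L₀ hP
  haveI : NumberField ↥L₀ := ⟨⟩
  haveI : IsDiscreteValuationRing ↥(s37r_G P L₀ ((q : ℕ) : ↥(s18q_A0 P L₀))
      (s59m_q_irreducible q P hP L₀ hunr)).A := s18q_A0_dvr P L₀ hP
  (s59b_red_z_tauW M q hqM P L₀ ((q : ℕ) : ↥(s18q_A0 P L₀))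
    (s59m_q_irreducible q P hP L₀ hunr) (s59m_hdeg_U M q hqM L₀) (s59m_hT_U M q P L₀ hqM)
    (fun n b hb hn => s18g_exists_relation M (algebraMap ↥L₀ Kb) hn b hb)
    IsLocalRing.residue_surjective 1 1 one_pos (one_mem _) (by rw [inv_one]; exact one_mem _)
    one_ne_zero (by rw [one_mul, pow_one]; rfl) (s59m_hperf_U q P L₀) C ℓ hℓ1 H hHT ρ hρ hρ' hm).trans
  (s59b_Tz_eq_TiW M q hqM P L₀ ((q : ℕ) : ↥(s18q_A0 P L₀))
    (s59m_q_irreducible q P hP L₀ hunr) (s59m_hdeg_U M q hqM L₀) (s59m_hT_U M q P L₀ hqM)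
    (fun n b hb hn => s18g_exists_relation M (algebraMap ↥L₀ Kb) hn b hb)
    IsLocalRing.residue_surjective 1 1 one_pos (one_mem _) (by rw [inv_one]; exact one_mem _)
    one_ne_zero (by rw [one_mul, pow_one]; rfl) (s59m_hperf_U q P L₀) C ℓ hℓ1 H hHT _)

set_option maxHeartbeats 1600000 in
/-- `H.Ti 0 = 0` over the canonical Σ-datum of the chart `C`. -/
theorem s59b_ZUW_Ti_zero (H : s59m_HeckeOn (s59b_ZUW M q hqM P hP L₀ hunr C))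
    (hHT : H.T = s59u_tauD (M * q) ℓ hℓ1 L₀) : H.Ti 0 = 0 :=
  s59u_Ti_zero_abs H (by rw [hHT]; exact s59u_tauD_zero (M * q) ℓ hℓ1 L₀)

end Canon

/-! ### Multiple points of level `M q²` ↔ nodes of level `M q`, for a full base function -/

section Multi

variable {K₀ : Type} [Field K₀] [NumberField K₀] {κ : Type} [Field κ]
  (G : s18g_GaussData K₀ κ) [IsDiscreteValuationRing G.A]
  (φ : K₀ →+* Kb) (M q : ℕ) [NeZero M] [NeZero q] (hq : q.Prime) (hqM : ¬ q ∣ M)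
  [CharP κ q] [PerfectField κ]
  {V : Fin 3 → ValuationSubring (s34m_F K₀ (M * q * q))} {t : s34m_F K₀ (M * q * q)}

/-- the crossings of the chart of a full base function are regular (`ν₂(M) = ν₃(M) = 0`, `ϖ = q`). -/
theorem s59b_crossReg_full (h2 : nuTwo M = 0) (h3 : nuThree M = 0)
    (hπ : Function.Surjective G.π) (hϖ : ((G.ϖ : G.A) : K₀) = (q : K₀))
    (x : s34m_F K₀ M) (hx : x ∈ s34m_Vinf G M) (hfull : s36g_BaseFull G φ M q hq hqM x hx) :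
    s36q_fi_CrossReg G φ M q hq hqM (heckeAlphaBar K₀ M q x) :=
  s36b_leafCross M q hq hqM h2 h3 K₀ φ κ G hπ hϖ x hx hfull

/-- **(FIB) for a full base function.** -/
theorem s59b_geoFib_full (h2 : nuTwo M = 0) (h3 : nuThree M = 0)
    (hπ : Function.Surjective G.π) (hϖ : ((G.ϖ : G.A) : K₀) = (q : K₀))
    (x : s34m_F K₀ M) (hx : x ∈ s34m_Vinf G M) (hfull : s36g_BaseFull G φ M q hq hqM x hx)
    (hP : s36g_ValPkg G φ M q hq hqM V t) :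
    s36g_GeoFib G φ M q hq hqM hP.1 (heckeAlphaBar K₀ M q x) hfull.1 hfull.2.1 :=
  s36g_geoFib_of_crossReg G φ M q hq hqM hπ hP _ _ _
    (s59b_crossReg_full G φ M q hq hqM h2 h3 hπ hϖ x hx hfull)

/-- **`Q` passes through a multiple point of the chart `{α' α x regular}` of level `M q²` iff its `α'`-restriction passes
through a node of the chart `{α x regular}` of level `M q`** (`x` a full base function). -/
theorem s59b_multiPlaces_iff_full (h2 : nuTwo M = 0) (h3 : nuThree M = 0)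
    (hπ : Function.Surjective G.π) (hϖ : ((G.ϖ : G.A) : K₀) = (q : K₀))
    (x : s34m_F K₀ M) (hx : x ∈ s34m_Vinf G M) (hfull : s36g_BaseFull G φ M q hq hqM x hx)
    (hP : s36g_ValPkg G φ M q hq hqM V t)
    (Q : Place K₀ (s34m_F K₀ (M * q * q))) (Qa : Place K₀ (s34m_F K₀ (M * q)))
    (hQa : ∀ y, y ∈ Qa.toValuationSubring ↔ heckeAlphaBar K₀ (M * q) q y ∈ Q.toValuationSubring) :
    (Q ∈ s18_chart1 (L₀ := K₀) (s36g_alpha M q (heckeAlphaBar K₀ M q x)) ∧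
      ∃ 𝔫 : Ideal (s34x_ring (L₀ := K₀) (s34x_infRing V)
          (s18_chart1 (s36g_alpha M q (heckeAlphaBar K₀ M q x)))),
        s59m_IsMulti V (s18_chart1 (L₀ := K₀) (s36g_alpha M q (heckeAlphaBar K₀ M q x))) 𝔫 ∧
        s34f_through (s34x_infRing V)
          (s18_chart1 (L₀ := K₀) (s36g_alpha M q (heckeAlphaBar K₀ M q x))) 𝔫 Q) ↔
    Qa ∈ s33s_nodePlaces (s34m_VV G φ M q hq hqM) (s34m_unif G (M * q))
      (s18_chart1 (L₀ := K₀) (heckeAlphaBar K₀ M q x)) :=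
  s59u_multiPlaces_iff G φ M q hq hqM hP.1 _ hfull.1 hfull.2.1 hP.2.2.2.1 hP.2.2.2.2.1
    (s59b_geoFib_full G φ M q hq hqM h2 h3 hπ hϖ x hx hfull hP) Q Qa hQa

end Multi

end Fermat.Agent.Lib.S59
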