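/-
Programme (R2) / node **[CAR]**, the ports to `q ∈ {2, 3}`, leaf W5/**[L2-7 HECKE₃]** over a chart (helper2, prefix `s59b_`),
part B — **THE LEAVES `red`, `nf` OF `s59m_HeckeFrame3` OVER A CHART**, stated on the raw data of `D : s59m_L2Data …`
(`D.V`, `D.r`; no corestricted reduction, no named set of triple places), so that they plug into any `W`-twin of helper9's
concrete frame of level `M q²`.

* **`s59b_hecke3_redW`** : for `H : s59m_HeckeOn (s59b_ZUW … C)` with `H.T = τ_ℓ`, `h, h⁻¹ ∈ D.V j` and `y : Fb` with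
  `(y : κ₀((T))) = D.r j h` : `D.r j (τ_ℓ h) = H.Ti y`;
* `s59b_hecke3_hN3W` : the hypothesis `hN₃` of [T-NODE₃] for the places through the multiple points of the chart
  `{α' C.wN regular}` (from `s59b_multiPlaces_iff_full` and the node-place comparison with the `j`-chart);
* **`s59b_hecke3_nfW`** : **[T-NODE₃]** — `τ_ℓ` preserves the functions without zero or pole along those places
  (inputs: `s36g_BaseFull` for `C.w` and the node-place comparison, i.e. helper9's `s59m_ChartOK.full`, `.np`).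
-/
import Fermat.Agent.Lib.S59.B5Hecke3A

set_option autoImplicit false
set_option linter.style.haveILetI false
set_option linter.unusedSectionVars false
set_option linter.unusedVariables false
set_option synthInstance.maxHeartbeats 400000

noncomputable section

namespace Fermat.Agent.Lib.S59

open ModularCurve HahnSeries AlgebraicCurve Fermat.Agent.Lib.FF Fermat.Agent.Lib.S18
  Fermat.Agent.Lib.S28 Fermat.Agent.Lib.S29 Fermat.Agent.Lib.S37 Fermat.Agent.Lib.S34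
  Fermat.Agent.Lib.S35 Fermat.Agent.Lib.S33 Fermat.Agent.Lib.S44 Fermat.Agent.Lib.S36

local notation "Kb" => AlgebraicClosure ℚ

variable (M q : ℕ) [NeZero M] [hq : Fact q.Prime] (hqM : ¬ q ∣ M)
  (P : ValuationSubring Kb) (hP : P.LiesOverPrime q)
  (L₀ : IntermediateField ℚ Kb) [FiniteDimensional ℚ ↥L₀]
  (hunr : ∀ τ ∈ P.inertiaSubgroupIn ℚ, ∀ a ∈ L₀, τ a = a)
  [CharP (IsLocalRing.ResidueField ↥(s18q_A0 P L₀)) q]
  [PerfectField (IsLocalRing.ResidueField ↥(s18q_A0 P L₀))]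
  (C : s59b_ChartU M q hqM P hP L₀ hunr)

/-! ### The leaf `red` -/

section Red

variable (D : s59m_L2Data M q hqM P hP L₀ hunr)
  (ℓ : ℕ) [hℓ : Fact ℓ.Prime] (hℓ1 : ¬ ℓ ∣ M * q) (hℓ2 : ¬ ℓ ∣ M * q * q) (hqℓ : q ≠ ℓ)

include hqℓ in
set_option maxHeartbeats 1600000 in
/-- `red` at `j = 0` (along `α'`, `red_∞`). -/
theorem s59b_hecke3_red0W (H : s59m_HeckeOn (s59b_ZUW M q hqM P hP L₀ hunr C))
    (hHT : H.T = s59u_tauD (M * q) ℓ hℓ1 L₀) (h : s34m_F ↥L₀ (M * q * q))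
    (hh : h ∈ D.V 0) (hh' : h⁻¹ ∈ D.V 0) (hh0 : h ≠ 0)
    (hm : s59u_tauD (M * q * q) ℓ hℓ2 L₀ h ∈ D.V 0)
    (y : ↥(modularFunctionFieldFullC (IsLocalRing.ResidueField ↥(s18q_A0 P L₀)) M))
    (hy : (y : LaurentSeries (IsLocalRing.ResidueField ↥(s18q_A0 P L₀))) = D.r 0 ⟨h, hh⟩) :
    D.r 0 ⟨s59u_tauD (M * q * q) ℓ hℓ2 L₀ h, hm⟩ =
      ((H.Ti y : ↥(modularFunctionFieldFullC (IsLocalRing.ResidueField ↥(s18q_A0 P L₀)) M)) :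
        LaurentSeries (IsLocalRing.ResidueField ↥(s18q_A0 P L₀))) := by
  haveI : IsDiscreteValuationRing ↥(s18q_A0 P L₀) := s18q_A0_dvr P L₀ hP
  haveI : IsDiscreteValuationRing ↥(s37r_G P L₀ ((q : ℕ) : ↥(s18q_A0 P L₀))
      (s59m_q_irreducible q P hP L₀ hunr)).A := s18q_A0_dvr P L₀ hP
  obtain ⟨ρ, hρ, hρ', hρ0, e1, e2⟩ := s59u_red3_alpha M q hqM P hP L₀ ((q : ℕ) : ↥(s18q_A0 P L₀))
    (s59m_q_irreducible q P hP L₀ hunr) ℓ hℓ1 hℓ2 hqℓ D.V D.pkg.1 D.pkg.2.2.2.1 D.pkg.2.2.2.2.1 0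
    D.pkg.1.2.1 D.pkg.2.2.1.1 (D.r 0) (fun y hy => (D.r_ker 0 y).mpr hy) D.r0α h hh hh' hh0
  have E1 : y = (s59b_ZUW M q hqM P hP L₀ hunr C).Ci.red ⟨ρ, hρ⟩ := Subtype.ext (hy.trans e1)
  have E2 := s59b_ZUW_red_i_tau M q hqM P hP L₀ hunr C ℓ hℓ1 H hHT ρ hρ hρ'
    (s59u_tauD_mem_Vinf (M * q) ℓ hℓ1 P hP L₀ _ _ hρ)
  rw [E1, ← E2]
  exact e2

include hqℓ in
set_option maxHeartbeats 1600000 in
/-- `red` at `j = 1` (along `α'`, `red_∞`). -/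
theorem s59b_hecke3_red1W (H : s59m_HeckeOn (s59b_ZUW M q hqM P hP L₀ hunr C))
    (hHT : H.T = s59u_tauD (M * q) ℓ hℓ1 L₀) (h : s34m_F ↥L₀ (M * q * q))
    (hh : h ∈ D.V 1) (hh' : h⁻¹ ∈ D.V 1) (hh0 : h ≠ 0)
    (hm : s59u_tauD (M * q * q) ℓ hℓ2 L₀ h ∈ D.V 1)
    (y : ↥(modularFunctionFieldFullC (IsLocalRing.ResidueField ↥(s18q_A0 P L₀)) M))
    (hy : (y : LaurentSeries (IsLocalRing.ResidueField ↥(s18q_A0 P L₀))) = D.r 1 ⟨h, hh⟩) :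
    D.r 1 ⟨s59u_tauD (M * q * q) ℓ hℓ2 L₀ h, hm⟩ =
      ((H.Ti y : ↥(modularFunctionFieldFullC (IsLocalRing.ResidueField ↥(s18q_A0 P L₀)) M)) :
        LaurentSeries (IsLocalRing.ResidueField ↥(s18q_A0 P L₀))) := by
  haveI : IsDiscreteValuationRing ↥(s18q_A0 P L₀) := s18q_A0_dvr P L₀ hP
  haveI : IsDiscreteValuationRing ↥(s37r_G P L₀ ((q : ℕ) : ↥(s18q_A0 P L₀))
      (s59m_q_irreducible q P hP L₀ hunr)).A := s18q_A0_dvr P L₀ hP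
  obtain ⟨ρ, hρ, hρ', hρ0, e1, e2⟩ := s59u_red3_alpha M q hqM P hP L₀ ((q : ℕ) : ↥(s18q_A0 P L₀))
    (s59m_q_irreducible q P hP L₀ hunr) ℓ hℓ1 hℓ2 hqℓ D.V D.pkg.1 D.pkg.2.2.2.1 D.pkg.2.2.2.2.1 1
    D.pkg.1.2.2.2.1 D.pkg.2.2.1.2.1 (D.r 1) (fun y hy => (D.r_ker 1 y).mpr hy) D.r1α h hh hh' hh0
  have E1 : y = (s59b_ZUW M q hqM P hP L₀ hunr C).Ci.red ⟨ρ, hρ⟩ := Subtype.ext (hy.trans e1)
  have E2 := s59b_ZUW_red_i_tau M q hqM P hP L₀ hunr C ℓ hℓ1 H hHT ρ hρ hρ'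
    (s59u_tauD_mem_Vinf (M * q) ℓ hℓ1 P hP L₀ _ _ hρ)
  rw [E1, ← E2]
  exact e2

include hqℓ in
set_option maxHeartbeats 1600000 in
/-- `red` at `j = 2` (along `β'`, `red_0`, and `H.Tz = H.Ti`). -/
theorem s59b_hecke3_red2W (H : s59m_HeckeOn (s59b_ZUW M q hqM P hP L₀ hunr C))
    (hHT : H.T = s59u_tauD (M * q) ℓ hℓ1 L₀) (h : s34m_F ↥L₀ (M * q * q))
    (hh : h ∈ D.V 2) (hh' : h⁻¹ ∈ D.V 2) (hh0 : h ≠ 0)
    (hm : s59u_tauD (M * q * q) ℓ hℓ2 L₀ h ∈ D.V 2)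
    (y : ↥(modularFunctionFieldFullC (IsLocalRing.ResidueField ↥(s18q_A0 P L₀)) M))
    (hy : (y : LaurentSeries (IsLocalRing.ResidueField ↥(s18q_A0 P L₀))) = D.r 2 ⟨h, hh⟩) :
    D.r 2 ⟨s59u_tauD (M * q * q) ℓ hℓ2 L₀ h, hm⟩ =
      ((H.Ti y : ↥(modularFunctionFieldFullC (IsLocalRing.ResidueField ↥(s18q_A0 P L₀)) M)) :
        LaurentSeries (IsLocalRing.ResidueField ↥(s18q_A0 P L₀))) := by
  haveI : IsDiscreteValuationRing ↥(s18q_A0 P L₀) := s18q_A0_dvr P L₀ hP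
  haveI : IsDiscreteValuationRing ↥(s37r_G P L₀ ((q : ℕ) : ↥(s18q_A0 P L₀))
      (s59m_q_irreducible q P hP L₀ hunr)).A := s18q_A0_dvr P L₀ hP
  obtain ⟨ρ, hρ, hρ', hρ0, e1, e2⟩ := s59u_red3_beta M q hqM P hP L₀ ((q : ℕ) : ↥(s18q_A0 P L₀))
    (s59m_q_irreducible q P hP L₀ hunr) ℓ hℓ1 hℓ2 hqℓ D.V D.pkg.1 D.pkg.2.2.2.1 D.pkg.2.2.2.2.1 2
    D.pkg.1.2.2.2.2.2.2 D.pkg.2.2.1.2.2.2.1 (D.r 2) (fun y hy => (D.r_ker 2 y).mpr hy) D.r2β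
    h hh hh' hh0
  have E1 : y = (s59b_ZUW M q hqM P hP L₀ hunr C).Cz.red ⟨ρ, hρ⟩ := Subtype.ext (hy.trans e1)
  have E2 := s59b_ZUW_red_z_tau M q hqM P hP L₀ hunr C ℓ hℓ1 H hHT ρ hρ hρ'
    (s59u_tauD_mem_Vzero M hqM ℓ hℓ1 P hP L₀ _ _ hρ)
  rw [E1, ← E2]
  exact e2

include hqℓ in
set_option maxHeartbeats 1600000 in
/-- **`red`**: `τ_ℓ` induces `H.Ti` on the three residue fields (for `h, h⁻¹ ∈ D.V j`). -/
theorem s59b_hecke3_redW (H : s59m_HeckeOn (s59b_ZUW M q hqM P hP L₀ hunr C))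
    (hHT : H.T = s59u_tauD (M * q) ℓ hℓ1 L₀) (j : Fin 3) (h : s34m_F ↥L₀ (M * q * q))
    (hh : h ∈ D.V j) (hh' : h⁻¹ ∈ D.V j)
    (hm : s59u_tauD (M * q * q) ℓ hℓ2 L₀ h ∈ D.V j)
    (y : ↥(modularFunctionFieldFullC (IsLocalRing.ResidueField ↥(s18q_A0 P L₀)) M))
    (hy : (y : LaurentSeries (IsLocalRing.ResidueField ↥(s18q_A0 P L₀))) = D.r j ⟨h, hh⟩) :
    D.r j ⟨s59u_tauD (M * q * q) ℓ hℓ2 L₀ h, hm⟩ =
      ((H.Ti y : ↥(modularFunctionFieldFullC (IsLocalRing.ResidueField ↥(s18q_A0 P L₀)) M)) :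
        LaurentSeries (IsLocalRing.ResidueField ↥(s18q_A0 P L₀))) := by
  by_cases hh0 : h = 0
  · subst hh0
    have e1 : (⟨s59u_tauD (M * q * q) ℓ hℓ2 L₀ 0, hm⟩ : D.V j) = 0 :=
      Subtype.ext (s59u_tauD_zero (M * q * q) ℓ hℓ2 L₀)
    have e2 : (⟨0, hh⟩ : D.V j) = 0 := rfl
    have hy0 : y = 0 := by
      apply Subtype.ext
      rw [hy, e2, map_zero]
      rfl
    rw [e1, hy0, map_zero, s59b_ZUW_Ti_zero M q hqM P hP L₀ hunr C ℓ hℓ1 H hHT]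
    rfl
  · fin_cases j
    · exact s59b_hecke3_red0W M q hqM P hP L₀ hunr C D ℓ hℓ1 hℓ2 hqℓ H hHT h hh hh' hh0 hm y hy
    · exact s59b_hecke3_red1W M q hqM P hP L₀ hunr C D ℓ hℓ1 hℓ2 hqℓ H hHT h hh hh' hh0 hm y hy
    · exact s59b_hecke3_red2W M q hqM P hP L₀ hunr C D ℓ hℓ1 hℓ2 hqℓ H hHT h hh hh' hh0 hm y hy

end Red

/-! ### The leaf `nf` = [T-NODE₃] -/

section NF

variable (D : s59m_L2Data M q hqM P hP L₀ hunr)
  (ℓ : ℕ) [hℓ : Fact ℓ.Prime] (hℓ1 : ¬ ℓ ∣ M * q) (hℓ2 : ¬ ℓ ∣ M * q * q)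

set_option maxHeartbeats 1600000 in
/-- the hypothesis `hN₃` of [T-NODE₃] for the places through the multiple points of the chart `{α' C.wN regular}`. -/
theorem s59b_hecke3_hN3W (h2 : nuTwo M = 0) (h3 : nuThree M = 0)
    (hfull : haveI : NeZero q := ⟨hq.out.ne_zero⟩
      haveI : NumberField ↥L₀ := ⟨⟩
      haveI : IsDiscreteValuationRing ↥(s59m_GU q P hP L₀ hunr).A := s18q_A0_dvr P L₀ hP
      s36g_BaseFull (s59m_GU q P hP L₀ hunr) (algebraMap ↥L₀ Kb) M q hq.out hqM C.w C.hwV)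
    (hNP : s33s_nodePlaces (s34m_VV (s59m_GU q P hP L₀ hunr) (algebraMap ↥L₀ Kb) M q hq.out hqM)
        (s34m_unif (s59m_GU q P hP L₀ hunr) (M * q))
        (s18_chart1 (L₀ := ↥L₀) (s18g_jF (K := ↥L₀) (M * q))) =
      s33s_nodePlaces (s34m_VV (s59m_GU q P hP L₀ hunr) (algebraMap ↥L₀ Kb) M q hq.out hqM)
        (s34m_unif (s59m_GU q P hP L₀ hunr) (M * q)) (s18_chart1 (L₀ := ↥L₀) C.wN))
    (Q : Place ↥L₀ (s34m_F ↥L₀ (M * q * q))) (Qa : Place ↥L₀ (s34m_F ↥L₀ (M * q)))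
    (hQa : ∀ y, y ∈ Qa.toValuationSubring ↔
      heckeAlphaBar ↥L₀ (M * q) q y ∈ Q.toValuationSubring) :
    (Q ∈ s18_chart1 (L₀ := ↥L₀) (s36g_alpha M q C.wN) ∧
      ∃ 𝔫 : Ideal (s34x_ring (L₀ := ↥L₀) (s34x_infRing D.V) (s18_chart1 (s36g_alpha M q C.wN))),
        s59m_IsMulti D.V (s18_chart1 (L₀ := ↥L₀) (s36g_alpha M q C.wN)) 𝔫 ∧
        s34f_through (s34x_infRing D.V) (s18_chart1 (L₀ := ↥L₀) (s36g_alpha M q C.wN)) 𝔫 Q) ↔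
    Qa ∈ s33s_nodePlaces (s34m_VV (s59m_GU q P hP L₀ hunr) (algebraMap ↥L₀ Kb) M q hq.out hqM)
      (s34m_unif (s59m_GU q P hP L₀ hunr) (M * q))
      (s18_chart1 (L₀ := ↥L₀) (s18g_jF (K := ↥L₀) (M * q))) := by
  haveI : NeZero q := ⟨hq.out.ne_zero⟩
  haveI : IsDiscreteValuationRing ↥(s18q_A0 P L₀) := s18q_A0_dvr P L₀ hP
  haveI : NumberField ↥L₀ := ⟨⟩
  haveI : IsDiscreteValuationRing ↥(s59m_GU q P hP L₀ hunr).A := s18q_A0_dvr P L₀ hP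
  rw [hNP]
  have h := s59b_multiPlaces_iff_full (s59m_GU q P hP L₀ hunr) (algebraMap ↥L₀ Kb) M q hq.out hqM
    h2 h3 IsLocalRing.residue_surjective rfl C.w C.hwV hfull D.pkg Q Qa hQa
  rw [C.hwN] at h
  exact h

include hℓ1 in
set_option maxHeartbeats 1600000 in
/-- **`nf` = [T-NODE₃]** over a chart: `τ_ℓ` preserves the functions without zero or pole along the places through the
multiple points of the chart `{α' C.wN regular}`. -/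
theorem s59b_hecke3_nfW (h2 : nuTwo M = 0) (h3 : nuThree M = 0)
    (hfull : haveI : NeZero q := ⟨hq.out.ne_zero⟩
      haveI : NumberField ↥L₀ := ⟨⟩
      haveI : IsDiscreteValuationRing ↥(s59m_GU q P hP L₀ hunr).A := s18q_A0_dvr P L₀ hP
      s36g_BaseFull (s59m_GU q P hP L₀ hunr) (algebraMap ↥L₀ Kb) M q hq.out hqM C.w C.hwV)
    (hNP : s33s_nodePlaces (s34m_VV (s59m_GU q P hP L₀ hunr) (algebraMap ↥L₀ Kb) M q hq.out hqM)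
        (s34m_unif (s59m_GU q P hP L₀ hunr) (M * q))
        (s18_chart1 (L₀ := ↥L₀) (s18g_jF (K := ↥L₀) (M * q))) =
      s33s_nodePlaces (s34m_VV (s59m_GU q P hP L₀ hunr) (algebraMap ↥L₀ Kb) M q hq.out hqM)
        (s34m_unif (s59m_GU q P hP L₀ hunr) (M * q)) (s18_chart1 (L₀ := ↥L₀) C.wN))
    (h : s34m_F ↥L₀ (M * q * q)) (hh0 : h ≠ 0)
    (hnf : ∀ Q ∈ {Q : Place ↥L₀ (s34m_F ↥L₀ (M * q * q)) |
        Q ∈ s18_chart1 (L₀ := ↥L₀) (s36g_alpha M q C.wN) ∧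
        ∃ 𝔫 : Ideal (s34x_ring (L₀ := ↥L₀) (s34x_infRing D.V) (s18_chart1 (s36g_alpha M q C.wN))),
          s59m_IsMulti D.V (s18_chart1 (L₀ := ↥L₀) (s36g_alpha M q C.wN)) 𝔫 ∧
          s34f_through (s34x_infRing D.V) (s18_chart1 (L₀ := ↥L₀) (s36g_alpha M q C.wN)) 𝔫 Q},
      Q.ord h = 0) :
    s59u_tauD (M * q * q) ℓ hℓ2 L₀ h ≠ 0 ∧
      ∀ Q ∈ {Q : Place ↥L₀ (s34m_F ↥L₀ (M * q * q)) |
        Q ∈ s18_chart1 (L₀ := ↥L₀) (s36g_alpha M q C.wN) ∧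
        ∃ 𝔫 : Ideal (s34x_ring (L₀ := ↥L₀) (s34x_infRing D.V) (s18_chart1 (s36g_alpha M q C.wN))),
          s59m_IsMulti D.V (s18_chart1 (L₀ := ↥L₀) (s36g_alpha M q C.wN)) 𝔫 ∧
          s34f_through (s34x_infRing D.V) (s18_chart1 (L₀ := ↥L₀) (s36g_alpha M q C.wN)) 𝔫 Q},
        Q.ord (s59u_tauD (M * q * q) ℓ hℓ2 L₀ h) = 0 := by
  haveI : NeZero ℓ := ⟨hℓ.out.ne_zero⟩
  haveI : NeZero q := ⟨hq.out.ne_zero⟩
  haveI : IsDiscreteValuationRing ↥(s18q_A0 P L₀) := s18q_A0_dvr P L₀ hP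
  haveI : IsDiscreteValuationRing ↥(s37r_G P L₀ ((q : ℕ) : ↥(s18q_A0 P L₀))
      (s59m_q_irreducible q P hP L₀ hunr)).A := s18q_A0_dvr P L₀ hP
  refine ⟨s59u_tauD_ne_zero (M * q * q) ℓ hℓ2 L₀ hh0, fun Q hQ => ?_⟩
  exact s59u_tnode3 M q hq.out hqM L₀ (s59m_GU q P hP L₀ hunr) ℓ hℓ1 hℓ2 _
    (fun Q Qa hQa => s59b_hecke3_hN3W M q hqM P hP L₀ hunr C D h2 h3 hfull hNP Q Qa hQa) h hh0 hnf
    Q hQ


end NF

end Fermat.Agent.Lib.S59
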