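/-
Programme (R2) / node **[CAR]**, the ports to `q ∈ {2, 3}` — W5 over a CHART (helper9, prefix `s59m_`, suffix `W`):
**THE CONCRETE THREE-COMPONENT FRAME OF LEVEL `M q²` OVER helper2's CHART PACKAGE** `C : s59b_ChartU M q hqM P hP L₀ hunr`
(`B4Chart.lean`, `B4Top.lean`) — the twin of `MCarL2F.lean` with the chart `{j regular}` (`5 ≤ q`) replaced by `C`.

The valuation data `s59m_L2Data M q hqM P hP L₀ hunr` (`MCarL2F.lean`) are chart-free and are REUSED.  New here: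
* `D.rbW i : D.V i →+* Fb` : the reductions corestricted to `Fb` (= `D.rb h5 i` without the dummy `h5`); `D.coe_rbW` (`rfl`),
  `D.rbW_eq_zero_iff`, `D.rbW0α`, `D.rbW1α`, `D.rbW1β`, `D.rbW2β` (residues through `(s59b_ZUW … C).Ci.red`, `.Cz.red`),
  `D.rbW_const`;
* `s59m_S2W C` : the chart `{α' C.wN regular}` of level `M q²`; `D.N₃W C`;
* `s59m_Glue3CW C D` : the contract GLUE₃ over `C`; **`s59m_frame3CW C D hglue : s59m_Frame3 (s59b_ZUW … C) F₂`**.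
-/
import Fermat.Agent.Lib.S59.MCarL2F
import Fermat.Agent.Lib.S59.B4Top

set_option autoImplicit false
set_option linter.style.haveILetI false
set_option linter.unusedSectionVars false
set_option linter.unusedVariables false
set_option synthInstance.maxHeartbeats 400000

noncomputable section

namespace Fermat.Agent.Lib.S59

open ModularCurve HahnSeries AlgebraicCurve Fermat.Agent.Lib.FF Fermat.Agent.Lib.S18
  Fermat.Agent.Lib.S28 Fermat.Agent.Lib.S29 Fermat.Agent.Lib.S37 Fermat.Agent.Lib.S34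
  Fermat.Agent.Lib.S35 Fermat.Agent.Lib.S33 Fermat.Agent.Lib.S44 Fermat.Agent.Lib.S36

local notation "Kb" => AlgebraicClosure ℚ

variable {M q : ℕ} [NeZero M] [hq : Fact q.Prime] {hqM : ¬ q ∣ M}
  {P : ValuationSubring Kb} {hP : P.LiesOverPrime q}
  {L₀ : IntermediateField ℚ Kb} [FiniteDimensional ℚ ↥L₀]
  {hunr : ∀ τ ∈ P.inertiaSubgroupIn ℚ, ∀ a ∈ L₀, τ a = a}

namespace s59m_L2Data

variable (D : s59m_L2Data M q hqM P hP L₀ hunr)

variable [CharP (IsLocalRing.ResidueField ↥(s18q_A0 P L₀)) q]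
  [PerfectField (IsLocalRing.ResidueField ↥(s18q_A0 P L₀))]

/-- **the three reductions land in `Fb`.** -/
theorem r_mem_fullCW (i : Fin 3) (y : D.V i) :
    D.r i y ∈ modularFunctionFieldFullC (IsLocalRing.ResidueField ↥(s18q_A0 P L₀)) M := by
  haveI : PerfectRing (IsLocalRing.ResidueField ↥(s18q_A0 P L₀)) q := PerfectField.toPerfectRing q
  have hdeg := s59m_hdeg_U M q hqM L₀
  have hT := s59m_hT_U M q P L₀ hqM
  have hdegM : s18g_HDeg ↥L₀ M := fun n b hb hn => s18g_exists_relation M (algebraMap ↥L₀ Kb) hn b hb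
  obtain ⟨y, hy⟩ := y
  obtain ⟨-, -, hRes, -⟩ := D.pkg
  obtain ⟨h0, h1, -, h2, -, -⟩ := hRes
  fin_cases i
  · obtain ⟨x, hx, hc⟩ := h0 y hy
    have hm := D.mem_of_sub_mem 0 hy hc
    show D.r 0 ⟨y, hy⟩ ∈ _
    rw [D.r_congr 0 hy hm hc, D.r0α ⟨x, hx⟩ hm]
    exact s33y_redInf_mem_fullC (s59m_GU q P hP L₀ hunr) (algebraMap ↥L₀ Kb) M q hqM hdeg hT hdegM _
  · obtain ⟨x, hx, hc⟩ := h1 y hy
    have hm := D.mem_of_sub_mem 1 hy hc
    show D.r 1 ⟨y, hy⟩ ∈ _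
    rw [D.r_congr 1 hy hm hc, D.r1α ⟨x, hx⟩ hm]
    exact s33y_redInf_mem_fullC (s59m_GU q P hP L₀ hunr) (algebraMap ↥L₀ Kb) M q hqM hdeg hT hdegM _
  · obtain ⟨x, hx, hc⟩ := h2 y hy
    have hm := D.mem_of_sub_mem 2 hy hc
    show D.r 2 ⟨y, hy⟩ ∈ _
    rw [D.r_congr 2 hy hm hc, D.r2β ⟨x, hx⟩ hm]
    exact s33y_redZero_mem_fullC (s59m_GU q P hP L₀ hunr) (algebraMap ↥L₀ Kb) M q hqM hdeg hT hdegM _

/-- **the reductions `V i →+* Fb`.** -/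
def rbW (i : Fin 3) : D.V i →+* ↥(modularFunctionFieldFullC (IsLocalRing.ResidueField ↥(s18q_A0 P L₀)) M) :=
  (D.r i).codRestrict (modularFunctionFieldFullC (IsLocalRing.ResidueField ↥(s18q_A0 P L₀)) M)
    (D.r_mem_fullCW i)

@[simp] theorem coe_rbW (i : Fin 3) (y : D.V i) :
    ((D.rbW i y : ↥(modularFunctionFieldFullC (IsLocalRing.ResidueField ↥(s18q_A0 P L₀)) M)) :
      LaurentSeries (IsLocalRing.ResidueField ↥(s18q_A0 P L₀))) = D.r i y := rfl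

theorem rbW_eq_zero_iff (i : Fin 3) (y : D.V i) :
    D.rbW i y = 0 ↔ (y : s34m_F ↥L₀ (M * q * q)) ∈ (D.V i).nonunits := by
  rw [← D.r_ker i y]
  constructor
  · intro h
    have := congrArg (fun z : ↥(modularFunctionFieldFullC (IsLocalRing.ResidueField ↥(s18q_A0 P L₀)) M) =>
      (z : LaurentSeries (IsLocalRing.ResidueField ↥(s18q_A0 P L₀)))) h
    simpa using this
  · intro h
    apply Subtype.ext
    rw [coe_rbW, h]
    rfl

variable (C : s59b_ChartU M q hqM P hP L₀ hunr)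

/-- `rb 0 (α' x) = red_∞ x`. -/
theorem rbW0α (x : s34m_F ↥L₀ (M * q)) (hx : x ∈ s34m_Vinf (s59m_GU q P hP L₀ hunr) (M * q))
    (h : s36g_alpha M q x ∈ D.V 0) :
    D.rbW 0 ⟨_, h⟩ = (s59b_ZUW M q hqM P hP L₀ hunr C).Ci.red ⟨x, hx⟩ :=
  Subtype.ext (D.r0α ⟨x, hx⟩ h)

/-- `rb 1 (α' x) = red_∞ x`. -/
theorem rbW1α (x : s34m_F ↥L₀ (M * q)) (hx : x ∈ s34m_Vinf (s59m_GU q P hP L₀ hunr) (M * q))
    (h : s36g_alpha M q x ∈ D.V 1) :
    D.rbW 1 ⟨_, h⟩ = (s59b_ZUW M q hqM P hP L₀ hunr C).Ci.red ⟨x, hx⟩ :=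
  Subtype.ext (D.r1α ⟨x, hx⟩ h)

/-- `rb 1 (β' x) = red_0 x`. -/
theorem rbW1β (x : s34m_F ↥L₀ (M * q))
    (hx : x ∈ s34m_Vzero (s59m_GU q P hP L₀ hunr) (algebraMap ↥L₀ Kb) M q hq.out hqM)
    (h : s36g_beta M q x ∈ D.V 1) :
    D.rbW 1 ⟨_, h⟩ = (s59b_ZUW M q hqM P hP L₀ hunr C).Cz.red ⟨x, hx⟩ :=
  Subtype.ext (D.r1β ⟨x, hx⟩ h)

/-- `rb 2 (β' x) = red_0 x`. -/
theorem rbW2β (x : s34m_F ↥L₀ (M * q))
    (hx : x ∈ s34m_Vzero (s59m_GU q P hP L₀ hunr) (algebraMap ↥L₀ Kb) M q hq.out hqM)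
    (h : s36g_beta M q x ∈ D.V 2) :
    D.rbW 2 ⟨_, h⟩ = (s59b_ZUW M q hqM P hP L₀ hunr C).Cz.red ⟨x, hx⟩ :=
  Subtype.ext (D.r2β ⟨x, hx⟩ h)

include C in
/-- the reduction of a constant. -/
theorem rbW_const (j : Fin 3) (c : (s59m_GU q P hP L₀ hunr).A) :
    D.rbW j ⟨algebraMap ↥L₀ (s34m_F ↥L₀ (M * q * q)) (c : ↥L₀), D.const_mem j c c.2⟩ =
      algebraMap (IsLocalRing.ResidueField ↥(s18q_A0 P L₀))
        ↥(modularFunctionFieldFullC (IsLocalRing.ResidueField ↥(s18q_A0 P L₀)) M)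
        ((s59m_GU q P hP L₀ hunr).π c) := by
  have eα : s36g_alpha M q (algebraMap ↥L₀ (s34m_F ↥L₀ (M * q)) (c : ↥L₀)) =
      algebraMap ↥L₀ (s34m_F ↥L₀ (M * q * q)) (c : ↥L₀) :=
    (heckeAlphaBar ↥L₀ (M * q) q).commutes _
  have eβ : s36g_beta M q (algebraMap ↥L₀ (s34m_F ↥L₀ (M * q)) (c : ↥L₀)) =
      algebraMap ↥L₀ (s34m_F ↥L₀ (M * q * q)) (c : ↥L₀) :=
    (heckeBetaBar ↥L₀ (M * q) q).commutes _
  have hi : algebraMap ↥L₀ (s34m_F ↥L₀ (M * q)) (c : ↥L₀) ∈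
      s34m_Vinf (s59m_GU q P hP L₀ hunr) (M * q) :=
    s34c_const_mem_VV (s59m_GU q P hP L₀ hunr) (algebraMap ↥L₀ Kb) M q hq.out hqM true c
  have hz : algebraMap ↥L₀ (s34m_F ↥L₀ (M * q)) (c : ↥L₀) ∈
      s34m_Vzero (s59m_GU q P hP L₀ hunr) (algebraMap ↥L₀ Kb) M q hq.out hqM :=
    s34c_const_mem_VV (s59m_GU q P hP L₀ hunr) (algebraMap ↥L₀ Kb) M q hq.out hqM false c
  fin_cases j
  · have hm : s36g_alpha M q (algebraMap ↥L₀ (s34m_F ↥L₀ (M * q)) (c : ↥L₀)) ∈ D.V 0 := by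
      rw [eα]; exact D.const_mem 0 c c.2
    have e1 : (⟨algebraMap ↥L₀ (s34m_F ↥L₀ (M * q * q)) (c : ↥L₀), D.const_mem 0 c c.2⟩ : D.V 0) =
        ⟨_, hm⟩ := Subtype.ext eα.symm
    show D.rbW 0 ⟨_, D.const_mem 0 c c.2⟩ = _
    rw [e1, D.rbW0α C _ hi hm]
    exact (s59b_ZUW M q hqM P hP L₀ hunr C).Ci.red_const c
  · have hm : s36g_alpha M q (algebraMap ↥L₀ (s34m_F ↥L₀ (M * q)) (c : ↥L₀)) ∈ D.V 1 := by
      rw [eα]; exact D.const_mem 1 c c.2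
    have e1 : (⟨algebraMap ↥L₀ (s34m_F ↥L₀ (M * q * q)) (c : ↥L₀), D.const_mem 1 c c.2⟩ : D.V 1) =
        ⟨_, hm⟩ := Subtype.ext eα.symm
    show D.rbW 1 ⟨_, D.const_mem 1 c c.2⟩ = _
    rw [e1, D.rbW1α C _ hi hm]
    exact (s59b_ZUW M q hqM P hP L₀ hunr C).Ci.red_const c
  · have hm : s36g_beta M q (algebraMap ↥L₀ (s34m_F ↥L₀ (M * q)) (c : ↥L₀)) ∈ D.V 2 := by
      rw [eβ]; exact D.const_mem 2 c c.2
    have e1 : (⟨algebraMap ↥L₀ (s34m_F ↥L₀ (M * q * q)) (c : ↥L₀), D.const_mem 2 c c.2⟩ : D.V 2) =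
        ⟨_, hm⟩ := Subtype.ext eβ.symm
    show D.rbW 2 ⟨_, D.const_mem 2 c c.2⟩ = _
    rw [e1, D.rbW2β C _ hz hm]
    exact (s59b_ZUW M q hqM P hP L₀ hunr C).Cz.red_const c

end s59m_L2Data

/-! ### The chart, the triple points, GLUE₃ and the concrete frame -/

variable [CharP (IsLocalRing.ResidueField ↥(s18q_A0 P L₀)) q]
  [PerfectField (IsLocalRing.ResidueField ↥(s18q_A0 P L₀))]
  (C : s59b_ChartU M q hqM P hP L₀ hunr)

/-- **the chart of level `M q²`** over the chart `C`: the places where `α' C.wN` is regular. -/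
abbrev s59m_S2W : Set (Place ↥L₀ (s34m_F ↥L₀ (M * q * q))) :=
  s18_chart1 (L₀ := ↥L₀) (s36g_alpha M q C.wN)

/-- **the places of the generic fibre through the triple points** of the chart. -/
def s59m_L2Data.N₃W (D : s59m_L2Data M q hqM P hP L₀ hunr) :
    Set (Place ↥L₀ (s34m_F ↥L₀ (M * q * q))) :=
  {Q | Q ∈ s59m_S2W C ∧
    ∃ 𝔫 : Ideal (s34x_ring (L₀ := ↥L₀) (s34x_infRing D.V) (s59m_S2W C)),
      s59m_IsMulti D.V (s59m_S2W C) 𝔫 ∧
      s34f_through (s34x_infRing D.V) (s59m_S2W C) 𝔫 Q}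

/-- **The contract GLUE₃ over the chart `C`**: the three residues of a function integral at the three rings and regular at
the places through the triple points lie in the `∞`-branch `Wi s` of every node `s` of level `M q`, with the same value. -/
def s59m_Glue3CW (D : s59m_L2Data M q hqM P hP L₀ hunr) : Prop :=
  ∀ (y : s34m_F ↥L₀ (M * q * q)) (hy : ∀ j, y ∈ D.V j), (∀ Q ∈ D.N₃W C, y ∈ Q.toValuationSubring) →
    ∀ (s : s59b_NodeUW M q hqM P hP L₀ hunr C) (j : Fin 3),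
      ∃ (hj : D.rbW j ⟨y, hy j⟩ ∈ (s59b_ZUW M q hqM P hP L₀ hunr C).Wi s)
        (h1 : D.rbW 1 ⟨y, hy 1⟩ ∈ (s59b_ZUW M q hqM P hP L₀ hunr C).Wi s),
        (s59b_ZUW M q hqM P hP L₀ hunr C).evi s ⟨_, hj⟩ =
          (s59b_ZUW M q hqM P hP L₀ hunr C).evi s ⟨_, h1⟩

/-- **THE CONCRETE FRAME** of level `M q²` over the chart `C`. -/
def s59m_frame3CW (D : s59m_L2Data M q hqM P hP L₀ hunr) (hglue : s59m_Glue3CW C D) :
    s59m_Frame3 (s59b_ZUW M q hqM P hP L₀ hunr C) (s34m_F ↥L₀ (M * q * q)) where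
  V := D.V
  r := D.rbW
  N₃ := D.N₃W C
  const_mem := fun j c hc => D.const_mem j c hc
  r_const := fun j c => D.rbW_const C j c
  glue₃ := hglue

@[simp] theorem s59m_frame3CW_V (D : s59m_L2Data M q hqM P hP L₀ hunr) (hglue : s59m_Glue3CW C D) :
    (s59m_frame3CW C D hglue).V = D.V := rfl

@[simp] theorem s59m_frame3CW_r (D : s59m_L2Data M q hqM P hP L₀ hunr) (hglue : s59m_Glue3CW C D)
    (j : Fin 3) : (s59m_frame3CW C D hglue).r j = D.rbW j := rfl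

@[simp] theorem s59m_frame3CW_N₃ (D : s59m_L2Data M q hqM P hP L₀ hunr) (hglue : s59m_Glue3CW C D) :
    (s59m_frame3CW C D hglue).N₃ = D.N₃W C := rfl

end Fermat.Agent.Lib.S59
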