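/-
Programme (R2) / node **[CAR]**, route R-DS′, W5 = the level `M q²` leaf (helper9, prefix `s59m_`):
**THE LOCAL GEOMETRY OF LEVEL `M q²` FOR THE EXPLICIT BASE FUNCTION `j`** (`q ≥ 5`, `ν₂(M) = ν₃(M) = 0`), and
**GLUE₃ FROM ITS LOCAL FORM.**

* `s59m_baseFull_j` : `s36g_BaseFull G φ M q _ hqM (j_M) _` for every Gauss datum (the `q ≥ 5` branch of `s36g_base_full`);
* **`s59m_geo_j`**  : the S36 local geometry `s36g_InGeo` with the EXPLICIT base function `w₁ = j_{M q}` (so that the chart is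
  `s59m_S2`): `s35g_BaseData`, saturation, (FIB), (TRIPLE), (ONE2), (REG1), (REG2) — all theorems at the good levels;
* `D.hB`, `D.hB₂`, `D.arch`, `D.F3` : base data of `j_{M q}` / `j_{M q²}`, rank one, finiteness of zeros and poles in the chart;
* `s59m_Over D 𝔫 s` : the triple point `𝔫` lies over the node `s`, in the form used by GLUE₃: the three residues of every
  element of the local ring `B_𝔫` lie in the branch `Wi s` with the same value;
* `s59m_Glue3Loc D` : **the contract [L2-6], local form** — every triple point lies over a node, every node lies under a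
  triple point;  **`s59m_glue3C_of_loc`** : the local form gives `s59m_Glue3C` (Hartogs at the triple point).
-/
import Fermat.Agent.Lib.S59.MCarL2F
import Fermat.Agent.Lib.S36.MCore

set_option autoImplicit false
set_option linter.style.haveILetI false
set_option linter.unusedSectionVars false
set_option linter.unusedVariables false
set_option synthInstance.maxHeartbeats 400000

noncomputable section

namespace Fermat.Agent.Lib.S59

open ModularCurve HahnSeries AlgebraicCurve Fermat.Agent.Lib.FF Fermat.Agent.Lib.S18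
  Fermat.Agent.Lib.S28 Fermat.Agent.Lib.S29 Fermat.Agent.Lib.S37 Fermat.Agent.Lib.S34
  Fermat.Agent.Lib.S35 Fermat.Agent.Lib.S33 Fermat.Agent.Lib.S44 Fermat.Agent.Lib.S36

local notation "Kb" => AlgebraicClosure ℚ

section BaseJ

variable {K₀ : Type} [Field K₀] [NumberField K₀] (φ : K₀ →+* Kb)
  (M q : ℕ) [NeZero M] [NeZero q] (hq : q.Prime) (hqM : ¬ q ∣ M) (h5 : 5 ≤ q)
  {κ : Type} [Field κ] [CharP κ q] [PerfectField κ]
  (G : s18g_GaussData K₀ κ) [IsDiscreteValuationRing G.A] (hπ : Function.Surjective G.π)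

include h5 hπ in
/-- **the base function `j`** has all the global properties at `q ≥ 5`. -/
theorem s59m_baseFull_j :
    s36g_BaseFull G φ M q hq hqM (s18g_jF (K := K₀) M) (s34m_jF_mem_Vinf G M) := by
  obtain ⟨x, hx, hBF⟩ := s36g_base_full K₀ φ M q hq hqM (Or.inl h5) κ G hπ
  obtain ⟨-, -, -, -, -, hdisj, -⟩ := id hBF
  rcases hdisj with ⟨-, hxj⟩ | ⟨h3, -⟩ | ⟨h2, -⟩
  · subst hxj
    exact hBF
  · omega
  · omega

end BaseJ

section Geo

variable {K₀ : Type} [Field K₀] [NumberField K₀] (φ : K₀ →+* Kb)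
  (M q : ℕ) [NeZero M] [NeZero q] (hq : q.Prime) (hqM : ¬ q ∣ M) (h5 : 5 ≤ q)
  (h2 : nuTwo M = 0) (h3 : nuThree M = 0)
  {κ : Type} [Field κ] [CharP κ q] [PerfectField κ]
  (G : s18g_GaussData K₀ κ) [IsDiscreteValuationRing G.A] (hπ : Function.Surjective G.π)
  (hϖ : ((G.ϖ : G.A) : K₀) = (q : K₀))
  {V : Fin 3 → ValuationSubring (s34m_F K₀ (M * q * q))}
  (hP : s36g_ValPkg G φ M q hq hqM V (s36m_t M q))

include h5 h2 h3 hπ hϖ in
/-- **the S36 local geometry with the explicit base function `w₁ = j_{M q}`.** -/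
theorem s59m_geo_j :
    ∃ (hB : s35g_BaseData G φ M q hq hqM (s18g_jF (K := K₀) (M * q)))
      (hsat : ∀ Q : Place K₀ (s34m_F K₀ (M * q * q)),
        s36g_alpha M q (s18g_jF (K := K₀) (M * q)) ∈ Q.toValuationSubring ↔
          s36g_beta M q (s18g_jF (K := K₀) (M * q)) ∈ Q.toValuationSubring),
      s36g_GeoFib G φ M q hq hqM hP.1 (s18g_jF (K := K₀) (M * q)) hB hsat ∧
      s36g_GeoTriple G φ M q hq hqM hP.1 (s18g_jF (K := K₀) (M * q)) hB hsat ∧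
      s36g_GeoOne2 G φ M q hq hqM hP.1 (s18g_jF (K := K₀) (M * q)) ∧
      ∀ m : ℕ, m ≠ 0 → ((m : K₀))⁻¹ ∈ G.A →
        s36g_GeoReg1 G φ M q hq hqM hP.1 (s18g_jF (K := K₀) (M * q)) m ∧
        s36g_GeoReg2 G φ M q hq hqM hP.1 (s18g_jF (K := K₀) (M * q)) m := by
  have hBF := s59m_baseFull_j φ M q hq hqM h5 G hπ
  have e : heckeAlphaBar K₀ M q (s18g_jF (K := K₀) M) = s18g_jF (K := K₀) (M * q) :=
    s34d2_alpha_j M q
  obtain ⟨hB, hsat, hfrob, hreg, -, -, -⟩ := id hBF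
  have hX' := s36b_leafCross M q hq hqM h2 h3 K₀ φ κ G hπ hϖ _ _ hBF
  have hR := s36m_leafReg_of_mid M q hq hqM h2 h3 (s36m_leafMid M q hq hqM h2 h3)
  have hFib := s36g_geoFib_of_crossReg G φ M q hq hqM hπ hP _ hB hsat hX'
  have hOne2 := s36g_geoOne2_of_base G φ M q hq hqM hP _ _ hB hfrob hreg
  have hTr := s36g_geoTriple_of_crossReg G φ M q hq hqM hπ hP _ hB hsat hX'
  have hReg : ∀ m : ℕ, m ≠ 0 → ((m : K₀))⁻¹ ∈ G.A →
      s36g_GeoReg1 G φ M q hq hqM hP.1 (heckeAlphaBar K₀ M q (s18g_jF (K := K₀) M)) m ∧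
      s36g_GeoReg2 G φ M q hq hqM hP.1 (heckeAlphaBar K₀ M q (s18g_jF (K := K₀) M)) m := by
    intro m hm0 hmA
    obtain ⟨hT, hO, hO2⟩ := hR K₀ φ κ G hπ hϖ V hP _ _ hBF hX' m hm0 hmA
    exact ⟨s36g_geoReg1_of_cases G φ M q hq hqM _ hP hB hsat hFib m hT hO,
      s36g_geoReg2_of_cases G φ M q hq hqM _ hP hB hOne2 m hO2⟩
  revert hB hsat hFib hOne2 hTr hReg
  rw [e]
  intro hB hsat hFib hOne2 hTr hReg
  exact ⟨hB, hsat, hFib, hTr, hOne2, hReg⟩

end Geo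

/-! ### The canonical base: base data, rank one, finiteness -/

section Canon

variable {M q : ℕ} [NeZero M] [hq : Fact q.Prime] {hqM : ¬ q ∣ M} (h5 : 5 ≤ q)
  {P : ValuationSubring Kb} {hP : P.LiesOverPrime q}
  {L₀ : IntermediateField ℚ Kb} [FiniteDimensional ℚ ↥L₀]
  {hunr : ∀ τ ∈ P.inertiaSubgroupIn ℚ, ∀ a ∈ L₀, τ a = a}
  [CharP (IsLocalRing.ResidueField ↥(s18q_A0 P L₀)) q]
  [PerfectField (IsLocalRing.ResidueField ↥(s18q_A0 P L₀))]

variable (M q hqM P hP L₀ hunr) in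
include h5 in
/-- the base data of `j_{M q}`. -/
theorem s59m_hB_j : s35g_BaseData (s59m_GU q P hP L₀ hunr) (algebraMap ↥L₀ Kb) M q hq.out hqM
    (s18g_jF (K := ↥L₀) (M * q)) := by
  haveI : NumberField ↥L₀ := ⟨⟩
  haveI : IsDiscreteValuationRing ↥(s59m_GU q P hP L₀ hunr).A := s18q_A0_dvr P L₀ hP
  have hBF := s59m_baseFull_j (algebraMap ↥L₀ Kb) M q hq.out hqM h5 (s59m_GU q P hP L₀ hunr)
    IsLocalRing.residue_surjective
  have e : heckeAlphaBar ↥L₀ M q (s18g_jF (K := ↥L₀) M) = s18g_jF (K := ↥L₀) (M * q) :=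
    s34d2_alpha_j M q
  have := hBF.1
  rwa [e] at this

namespace s59m_L2Data

variable (D : s59m_L2Data M q hqM P hP L₀ hunr)

include h5 in
/-- the base data of `j_{M q²} = α' j_{M q}`. -/
theorem hB₂ : s36b_BaseData₂ (s59m_GU q P hP L₀ hunr) M q D.V
    (s36g_alpha M q (s18g_jF (K := ↥L₀) (M * q))) := by
  haveI : IsDiscreteValuationRing ↥(s59m_GU q P hP L₀ hunr).A := s18q_A0_dvr P L₀ hP
  obtain ⟨hC, -, -, hCompl, hI, -, -⟩ := D.pkg
  exact s36b_baseData₂_of_base (s59m_GU q P hP L₀ hunr) (algebraMap ↥L₀ Kb) M q hq.out hqM hC hCompl hI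
    _ (s59m_hB_j M q hqM h5 P hP L₀ hunr)

/-- rank one. -/
theorem arch : s36q_Arch D.V := by
  haveI : IsDiscreteValuationRing ↥(s59m_GU q P hP L₀ hunr).A := s18q_A0_dvr P L₀ hP
  exact s36b_arch (s59m_GU q P hP L₀ hunr) M q hq.out D.pkg.2.1

include D h5 in
/-- finiteness of the zeros and poles in the chart. -/
theorem F3 : ∀ y : s34m_F ↥L₀ (M * q * q), y ≠ 0 →
    {Q : Place ↥L₀ (s34m_F ↥L₀ (M * q * q)) | Q ∈ s59m_S2 M q L₀ ∧ Q.ord y ≠ 0}.Finite := by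
  haveI : IsDiscreteValuationRing ↥(s59m_GU q P hP L₀ hunr).A := s18q_A0_dvr P L₀ hP
  exact (s36b_dict₁ (s59m_GU q P hP L₀ hunr) (algebraMap ↥L₀ Kb) M q hq.out hqM D.pkg.1 D.pkg.2.1 _
    (D.hB₂ h5)).2.2.2

end s59m_L2Data

/-! ### GLUE₃: the local form -/

/-- **the triple point `𝔫` lies over the node `s`** (in the form used by GLUE₃): the three residues of every element of the
local ring `B_𝔫` lie in the branch `Wi s` of the node, with the same value. -/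
def s59m_Over (D : s59m_L2Data M q hqM P hP L₀ hunr)
    (𝔫 : Ideal (s34x_ring (L₀ := ↥L₀) (s34x_infRing D.V) (s59m_S2 M q L₀)))
    (h𝔫 : s59m_IsMulti D.V (s59m_S2 M q L₀) 𝔫) (s : s59m_NodeU M q hqM P hP L₀ hunr) : Prop :=
  haveI := h𝔫.1.isPrime
  ∀ (z : Localization.AtPrime 𝔫) (j : Fin 3),
    ∃ (hj : D.rb h5 j ⟨s34f_iota (s34x_infRing D.V) (s59m_S2 M q L₀) 𝔫 z,
          s36q_iota_mem_comp D.V (s59m_S2 M q L₀) 𝔫 j (h𝔫.2 j) z⟩ ∈
        (s59m_ZU M q hqM h5 P hP L₀ hunr).Wi s)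
      (h1 : D.rb h5 1 ⟨s34f_iota (s34x_infRing D.V) (s59m_S2 M q L₀) 𝔫 z,
          s36q_iota_mem_comp D.V (s59m_S2 M q L₀) 𝔫 1 (h𝔫.2 1) z⟩ ∈
        (s59m_ZU M q hqM h5 P hP L₀ hunr).Wi s),
      (s59m_ZU M q hqM h5 P hP L₀ hunr).evi s ⟨_, hj⟩ =
        (s59m_ZU M q hqM h5 P hP L₀ hunr).evi s ⟨_, h1⟩

/-- **The contract [L2-6], local form**: every triple point lies over a node, and every node lies under a triple point. -/
def s59m_Glue3Loc (D : s59m_L2Data M q hqM P hP L₀ hunr) : Prop :=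
  (∀ (𝔫 : Ideal (s34x_ring (L₀ := ↥L₀) (s34x_infRing D.V) (s59m_S2 M q L₀)))
    (h𝔫 : s59m_IsMulti D.V (s59m_S2 M q L₀) 𝔫), ∃ s, s59m_Over h5 D 𝔫 h𝔫 s) ∧
  (∀ s : s59m_NodeU M q hqM P hP L₀ hunr,
    ∃ (𝔫 : Ideal (s34x_ring (L₀ := ↥L₀) (s34x_infRing D.V) (s59m_S2 M q L₀)))
      (h𝔫 : s59m_IsMulti D.V (s59m_S2 M q L₀) 𝔫), s59m_Over h5 D 𝔫 h𝔫 s)

/-- **GLUE₃ from its local form** (Hartogs at the triple points). -/
theorem s59m_glue3C_of_loc (D : s59m_L2Data M q hqM P hP L₀ hunr) (h : s59m_Glue3Loc h5 D) :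
    s59m_Glue3C h5 D := by
  intro y hy hreg s j
  obtain ⟨𝔫, h𝔫, hov⟩ := h.2 s
  haveI := h𝔫.1.isPrime
  have hfin : {Q : Place ↥L₀ (s34m_F ↥L₀ (M * q * q)) | Q ∈ s59m_S2 M q L₀ ∧ Q.ord y < 0}.Finite := by
    by_cases hy0 : y = 0
    · have : {Q : Place ↥L₀ (s34m_F ↥L₀ (M * q * q)) | Q ∈ s59m_S2 M q L₀ ∧ Q.ord y < 0} = ∅ := by
        ext Q
        simp [hy0]
      rw [this]
      exact Set.finite_empty
    · exact (D.F3 h5 y hy0).subset (fun Q hQ => ⟨hQ.1, ne_of_lt hQ.2⟩)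
  obtain ⟨z, hz⟩ := s36q_exists_iota_eq D.V (s59m_S2 M q L₀) 𝔫 D.arch y (fun i _ => hy i)
    (fun Q hQ hth => by
      by_cases hy0 : y = 0
      · rw [hy0, Place.ord_zero]
      · exact (ff_mem_iff_ord_nonneg Q hy0).mp (hreg Q ⟨hQ, 𝔫, h𝔫, hth⟩)) hfin
  obtain ⟨a1, a2, a3⟩ := hov z j
  have ej : (⟨y, hy j⟩ : D.V j) = ⟨s34f_iota (s34x_infRing D.V) (s59m_S2 M q L₀) 𝔫 z,
      s36q_iota_mem_comp D.V (s59m_S2 M q L₀) 𝔫 j (h𝔫.2 j) z⟩ := Subtype.ext hz.symm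
  have e1 : (⟨y, hy 1⟩ : D.V 1) = ⟨s34f_iota (s34x_infRing D.V) (s59m_S2 M q L₀) 𝔫 z,
      s36q_iota_mem_comp D.V (s59m_S2 M q L₀) 𝔫 1 (h𝔫.2 1) z⟩ := Subtype.ext hz.symm
  rw [ej, e1]
  exact ⟨a1, a2, a3⟩

end Canon

end Fermat.Agent.Lib.S59
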