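/-
Programme (R2) / node **[CAR]**, the ports to `q ∈ {2, 3}` — W5 over a CHART (helper9, prefix `s59m_`, suffix `W`):
**THE LOCAL GEOMETRY OF LEVEL `M q²` OVER A CHART `C`, AND GLUE₃ FROM ITS LOCAL FORM** — the twin of `MCarL2G.lean`.

* `s59m_geo_of_baseFull` : the S36 local geometry `s36g_InGeo` for ANY base function `x` with `s36g_BaseFull` (base function
  `w₁ = α x` of level `M q`) at the good levels: `s35g_BaseData`, saturation, (FIB), (TRIPLE), (ONE2), (REG1), (REG2);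
* `s59m_BaseFullW C` : the coordinate `C.w` of the chart has `s36g_BaseFull`;  **`s59m_baseFullW_t2`** (`q = 3`, `2 ∣ M`),
  **`s59m_baseFullW_t3`** (`q = 2`, `3 ∣ M`) : this holds for the charts of `t₂` / `t₃` (`s59b_ChartAt`);
* `s59m_NodePlacesEqW C`, **`s59m_ChartOK C`** (`geo`, `full`, `np`) : all the inputs on the chart used by the level-`M q²` leaf;
* `s59m_hB_W`, `D.hB₂W`, `D.F3W` : base data of `C.wN` / `α' C.wN`, finiteness of zeros and poles in the chart `s59m_S2W C`;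
* `s59m_OverW C D 𝔫 h𝔫 s`, `s59m_Glue3LocW C D` : **the contract [L2-6], local form, over `C`**;
  **`s59m_glue3CW_of_loc`** : the local form gives `s59m_Glue3CW C D` (Hartogs at the triple point).
-/
import Fermat.Agent.Lib.S59.MCarL2FW
import Fermat.Agent.Lib.S59.MCarL2G

set_option autoImplicit false
set_option linter.style.haveILetI false
set_option linter.unusedSectionVars false
set_option linter.unusedVariables false
set_option synthInstance.maxHeartbeats 400000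

noncomputable section

namespace Fermat.Agent.Lib.S59

open ModularCurve HahnSeries AlgebraicCurve Fermat.Agent.Lib.FF Fermat.Agent.Lib.S18
  Fermat.Agent.Lib.S28 Fermat.Agent.Lib.S29 Fermat.Agent.Lib.S37 Fermat.Agent.Lib.S34
  Fermat.Agent.Lib.S35 Fermat.Agent.Lib.S33 Fermat.Agent.Lib.S44 Fermat.Agent.Lib.S36

local notation "Kb" => AlgebraicClosure ℚ

section Geo

variable {K₀ : Type} [Field K₀] [NumberField K₀] (φ : K₀ →+* Kb)
  (M q : ℕ) [NeZero M] [NeZero q] (hq : q.Prime) (hqM : ¬ q ∣ M)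
  (h2 : nuTwo M = 0) (h3 : nuThree M = 0)
  {κ : Type} [Field κ] [CharP κ q] [PerfectField κ]
  (G : s18g_GaussData K₀ κ) [IsDiscreteValuationRing G.A] (hπ : Function.Surjective G.π)
  (hϖ : ((G.ϖ : G.A) : K₀) = (q : K₀))
  {V : Fin 3 → ValuationSubring (s34m_F K₀ (M * q * q))}
  (hP : s36g_ValPkg G φ M q hq hqM V (s36m_t M q))

include h2 h3 hπ hϖ in
/-- **the S36 local geometry for an arbitrary base function** `x` with `s36g_BaseFull` (`w₁ = α x`). -/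
theorem s59m_geo_of_baseFull (x : s34m_F K₀ M) (hx : x ∈ s34m_Vinf G M)
    (hBF : s36g_BaseFull G φ M q hq hqM x hx) (w₁ : s34m_F K₀ (M * q))
    (hw : heckeAlphaBar K₀ M q x = w₁) :
    ∃ (hB : s35g_BaseData G φ M q hq hqM w₁)
      (hsat : ∀ Q : Place K₀ (s34m_F K₀ (M * q * q)),
        s36g_alpha M q w₁ ∈ Q.toValuationSubring ↔ s36g_beta M q w₁ ∈ Q.toValuationSubring),
      s36g_GeoFib G φ M q hq hqM hP.1 w₁ hB hsat ∧
      s36g_GeoTriple G φ M q hq hqM hP.1 w₁ hB hsat ∧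
      s36g_GeoOne2 G φ M q hq hqM hP.1 w₁ ∧
      ∀ m : ℕ, m ≠ 0 → ((m : K₀))⁻¹ ∈ G.A →
        s36g_GeoReg1 G φ M q hq hqM hP.1 w₁ m ∧ s36g_GeoReg2 G φ M q hq hqM hP.1 w₁ m := by
  subst hw
  obtain ⟨hB, hsat, hfrob, hreg, -, -, -⟩ := id hBF
  have hX' := s36b_leafCross M q hq hqM h2 h3 K₀ φ κ G hπ hϖ _ _ hBF
  have hR := s36m_leafReg_of_mid M q hq hqM h2 h3 (s36m_leafMid M q hq hqM h2 h3)
  have hFib := s36g_geoFib_of_crossReg G φ M q hq hqM hπ hP _ hB hsat hX'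
  have hOne2 := s36g_geoOne2_of_base G φ M q hq hqM hP _ _ hB hfrob hreg
  have hTr := s36g_geoTriple_of_crossReg G φ M q hq hqM hπ hP _ hB hsat hX'
  refine ⟨hB, hsat, hFib, hTr, hOne2, ?_⟩
  intro m hm0 hmA
  obtain ⟨hT, hO, hO2⟩ := hR K₀ φ κ G hπ hϖ V hP _ _ hBF hX' m hm0 hmA
  exact ⟨s36g_geoReg1_of_cases G φ M q hq hqM _ hP hB hsat hFib m hT hO,
    s36g_geoReg2_of_cases G φ M q hq hqM _ hP hB hOne2 m hO2⟩

end Geo

/-! ### The chart: base data, finiteness -/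

section Canon

variable {M q : ℕ} [NeZero M] [hq : Fact q.Prime] {hqM : ¬ q ∣ M}
  {P : ValuationSubring Kb} {hP : P.LiesOverPrime q}
  {L₀ : IntermediateField ℚ Kb} [FiniteDimensional ℚ ↥L₀]
  {hunr : ∀ τ ∈ P.inertiaSubgroupIn ℚ, ∀ a ∈ L₀, τ a = a}
  [CharP (IsLocalRing.ResidueField ↥(s18q_A0 P L₀)) q]
  [PerfectField (IsLocalRing.ResidueField ↥(s18q_A0 P L₀))]
  (C : s59b_ChartU M q hqM P hP L₀ hunr)

/-- **the coordinate `C.w` of the chart has all the global properties of a base function.** -/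
abbrev s59m_BaseFullW : Prop :=
  s36g_BaseFull (s59m_GU q P hP L₀ hunr) (algebraMap ↥L₀ Kb) M q hq.out hqM C.w C.hwV

include C in
/-- the charts of `t₂` (`q = 3`, `2 ∣ M`). -/
theorem s59m_baseFullW_t2 (hq3 : q = 3) (h2M : 2 ∣ M)
    (hC : s59b_ChartAt M q hqM P hP L₀ hunr C (fun K _ => s18u_t2 K)) : s59m_BaseFullW C := by
  haveI : NumberField ↥L₀ := ⟨⟩
  haveI : IsDiscreteValuationRing ↥(s59m_GU q P hP L₀ hunr).A := s18q_A0_dvr P L₀ hP
  obtain ⟨x, hx, hBF⟩ := s36g_base_full ↥L₀ (algebraMap ↥L₀ Kb) M q hq.out hqM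
    (Or.inr (Or.inl ⟨hq3, h2M⟩)) (IsLocalRing.ResidueField ↥(s18q_A0 P L₀)) (s59m_GU q P hP L₀ hunr)
    IsLocalRing.residue_surjective
  have hxw : x = C.w := by
    rcases hBF.2.2.2.2.2.1 with h1 | h1 | h1
    · exact absurd h1.1 (by omega)
    · exact Subtype.ext (h1.2.2.trans hC.hw.symm)
    · exact absurd h1.1 (by omega)
  subst hxw
  exact hBF

include C in
/-- the charts of `t₃` (`q = 2`, `3 ∣ M`). -/
theorem s59m_baseFullW_t3 (hq2 : q = 2) (h3M : 3 ∣ M)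
    (hC : s59b_ChartAt M q hqM P hP L₀ hunr C (fun K _ => s18u_t3 K)) : s59m_BaseFullW C := by
  haveI : NumberField ↥L₀ := ⟨⟩
  haveI : IsDiscreteValuationRing ↥(s59m_GU q P hP L₀ hunr).A := s18q_A0_dvr P L₀ hP
  obtain ⟨x, hx, hBF⟩ := s36g_base_full ↥L₀ (algebraMap ↥L₀ Kb) M q hq.out hqM
    (Or.inr (Or.inr ⟨hq2, h3M⟩)) (IsLocalRing.ResidueField ↥(s18q_A0 P L₀)) (s59m_GU q P hP L₀ hunr)
    IsLocalRing.residue_surjective
  have hxw : x = C.w := by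
    rcases hBF.2.2.2.2.2.1 with h1 | h1 | h1
    · exact absurd h1.1 (by omega)
    · exact absurd h1.1 (by omega)
    · exact Subtype.ext (h1.2.2.trans hC.hw.symm)
  subst hxw
  exact hBF

/-- **the node places of the chart `{j regular}` of level `M q` are those of the chart `{C.wN regular}`** (helper2's
`s59b_nodePlaces_eq_j_t3/_t2`, `B4Hecke.lean`). -/
abbrev s59m_NodePlacesEqW : Prop :=
  s33s_nodePlaces (s34m_VV (s59m_GU q P hP L₀ hunr) (algebraMap ↥L₀ Kb) M q hq.out hqM)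
      (s34m_unif (s59m_GU q P hP L₀ hunr) (M * q))
      (s18_chart1 (L₀ := ↥L₀) (s18g_jF (K := ↥L₀) (M * q))) =
    s33s_nodePlaces (s34m_VV (s59m_GU q P hP L₀ hunr) (algebraMap ↥L₀ Kb) M q hq.out hqM)
      (s34m_unif (s59m_GU q P hP L₀ hunr) (M * q)) (s18_chart1 (L₀ := ↥L₀) C.wN)

/-- **ALL THE INPUTS ON THE CHART `C` USED BY THE LEVEL-`M q²` LEAF**: helper2's geometric inputs, `s36g_BaseFull` for the
coordinate, and the comparison of the node places with the `j`-chart. -/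
structure s59m_ChartOK : Prop where
  geo : s59b_ChartGeo C
  full : s59m_BaseFullW C
  np : s59m_NodePlacesEqW C

variable {C}

/-- the base data of `C.wN`. -/
theorem s59m_hB_W (hBF : s59m_BaseFullW C) :
    s35g_BaseData (s59m_GU q P hP L₀ hunr) (algebraMap ↥L₀ Kb) M q hq.out hqM C.wN := by
  have := hBF.1
  rwa [C.hwN] at this

namespace s59m_L2Data

variable (D : s59m_L2Data M q hqM P hP L₀ hunr)

/-- the base data of `α' C.wN`. -/
theorem hB₂W (hBF : s59m_BaseFullW C) :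
    s36b_BaseData₂ (s59m_GU q P hP L₀ hunr) M q D.V (s36g_alpha M q C.wN) := by
  haveI : IsDiscreteValuationRing ↥(s59m_GU q P hP L₀ hunr).A := s18q_A0_dvr P L₀ hP
  obtain ⟨hC, -, -, hCompl, hI, -, -⟩ := D.pkg
  exact s36b_baseData₂_of_base (s59m_GU q P hP L₀ hunr) (algebraMap ↥L₀ Kb) M q hq.out hqM hC hCompl hI
    _ (s59m_hB_W hBF)

include D in
/-- finiteness of the zeros and poles in the chart. -/
theorem F3W (hBF : s59m_BaseFullW C) : ∀ y : s34m_F ↥L₀ (M * q * q), y ≠ 0 →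
    {Q : Place ↥L₀ (s34m_F ↥L₀ (M * q * q)) | Q ∈ s59m_S2W C ∧ Q.ord y ≠ 0}.Finite := by
  haveI : IsDiscreteValuationRing ↥(s59m_GU q P hP L₀ hunr).A := s18q_A0_dvr P L₀ hP
  exact (s36b_dict₁ (s59m_GU q P hP L₀ hunr) (algebraMap ↥L₀ Kb) M q hq.out hqM D.pkg.1 D.pkg.2.1 _
    (D.hB₂W hBF)).2.2.2

end s59m_L2Data

/-! ### GLUE₃: the local form -/

variable (C)

/-- **the triple point `𝔫` lies over the node `s`** (in the form used by GLUE₃): the three residues of every element of the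
local ring `B_𝔫` lie in the branch `Wi s` of the node, with the same value. -/
def s59m_OverW (D : s59m_L2Data M q hqM P hP L₀ hunr)
    (𝔫 : Ideal (s34x_ring (L₀ := ↥L₀) (s34x_infRing D.V) (s59m_S2W C)))
    (h𝔫 : s59m_IsMulti D.V (s59m_S2W C) 𝔫) (s : s59b_NodeUW M q hqM P hP L₀ hunr C) : Prop :=
  haveI := h𝔫.1.isPrime
  ∀ (z : Localization.AtPrime 𝔫) (j : Fin 3),
    ∃ (hj : D.rbW j ⟨s34f_iota (s34x_infRing D.V) (s59m_S2W C) 𝔫 z,
          s36q_iota_mem_comp D.V (s59m_S2W C) 𝔫 j (h𝔫.2 j) z⟩ ∈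
        (s59b_ZUW M q hqM P hP L₀ hunr C).Wi s)
      (h1 : D.rbW 1 ⟨s34f_iota (s34x_infRing D.V) (s59m_S2W C) 𝔫 z,
          s36q_iota_mem_comp D.V (s59m_S2W C) 𝔫 1 (h𝔫.2 1) z⟩ ∈
        (s59b_ZUW M q hqM P hP L₀ hunr C).Wi s),
      (s59b_ZUW M q hqM P hP L₀ hunr C).evi s ⟨_, hj⟩ =
        (s59b_ZUW M q hqM P hP L₀ hunr C).evi s ⟨_, h1⟩

/-- **The contract [L2-6], local form, over the chart `C`**: every triple point lies over a node, and every node lies under a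
triple point. -/
def s59m_Glue3LocW (D : s59m_L2Data M q hqM P hP L₀ hunr) : Prop :=
  (∀ (𝔫 : Ideal (s34x_ring (L₀ := ↥L₀) (s34x_infRing D.V) (s59m_S2W C)))
    (h𝔫 : s59m_IsMulti D.V (s59m_S2W C) 𝔫), ∃ s, s59m_OverW C D 𝔫 h𝔫 s) ∧
  (∀ s : s59b_NodeUW M q hqM P hP L₀ hunr C,
    ∃ (𝔫 : Ideal (s34x_ring (L₀ := ↥L₀) (s34x_infRing D.V) (s59m_S2W C)))
      (h𝔫 : s59m_IsMulti D.V (s59m_S2W C) 𝔫), s59m_OverW C D 𝔫 h𝔫 s)

/-- **GLUE₃ from its local form** (Hartogs at the triple points). -/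
theorem s59m_glue3CW_of_loc (hBF : s59m_BaseFullW C) (D : s59m_L2Data M q hqM P hP L₀ hunr)
    (h : s59m_Glue3LocW C D) : s59m_Glue3CW C D := by
  intro y hy hreg s j
  obtain ⟨𝔫, h𝔫, hov⟩ := h.2 s
  haveI := h𝔫.1.isPrime
  have hfin : {Q : Place ↥L₀ (s34m_F ↥L₀ (M * q * q)) | Q ∈ s59m_S2W C ∧ Q.ord y < 0}.Finite := by
    by_cases hy0 : y = 0
    · have : {Q : Place ↥L₀ (s34m_F ↥L₀ (M * q * q)) | Q ∈ s59m_S2W C ∧ Q.ord y < 0} = ∅ := by
        ext Q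
        simp [hy0]
      rw [this]
      exact Set.finite_empty
    · exact (D.F3W hBF y hy0).subset (fun Q hQ => ⟨hQ.1, ne_of_lt hQ.2⟩)
  obtain ⟨z, hz⟩ := s36q_exists_iota_eq D.V (s59m_S2W C) 𝔫 D.arch y (fun i _ => hy i)
    (fun Q hQ hth => by
      by_cases hy0 : y = 0
      · rw [hy0, Place.ord_zero]
      · exact (ff_mem_iff_ord_nonneg Q hy0).mp (hreg Q ⟨hQ, 𝔫, h𝔫, hth⟩)) hfin
  obtain ⟨a1, a2, a3⟩ := hov z j
  have ej : (⟨y, hy j⟩ : D.V j) = ⟨s34f_iota (s34x_infRing D.V) (s59m_S2W C) 𝔫 z,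
      s36q_iota_mem_comp D.V (s59m_S2W C) 𝔫 j (h𝔫.2 j) z⟩ := Subtype.ext hz.symm
  have e1 : (⟨y, hy 1⟩ : D.V 1) = ⟨s34f_iota (s34x_infRing D.V) (s59m_S2W C) 𝔫 z,
      s36q_iota_mem_comp D.V (s59m_S2W C) 𝔫 1 (h𝔫.2 1) z⟩ := Subtype.ext hz.symm
  rw [ej, e1]
  exact ⟨a1, a2, a3⟩

end Canon

end Fermat.Agent.Lib.S59
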