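/-
Programme (R2) / node **[CAR]**, route R-DS′, W5 = the level `M q²` leaf (helper9, prefix `s59m_`):
**THE CONCRETE KUMMER FRAME OF LEVEL `M q²`** over `X = s59m_frame3C h5 D hglue` (`MCarL2F.lean`), exponent `p ≠ q`.

* `s59m_Inj3C h5 p D` : **the typed contract of leaf [L2-8 Σ-INJ₃]** (owner helper7): a Kummer generator over `L₀` which is a unit
  of the three rings, prime to the triple points, and whose three residues are ONE constant times the `p`-th powers of a triple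
  glued at every node, belongs to `x = 0`;
* **`s59m_kumFrame3C h5 p D hglue hinj : s59m_KumFrame3 (M * q * q) p (s59m_frame3C h5 D hglue)`** with
  `gen x h := s33d_IsKumGen p x (s18q_incl (M * q * q) L₀ h)` (`s59m_kumFrame3C_gen` is `Iff.rfl`); `gen_zsmul`
  (`s44c_isKumGen_zpow`), `gen_congr` (Hilbert 90: `s33d_kum0_of_same_class`), `norm` (order functions of `MCarU3.lean`,
  `V 0` unramified over `A₀`) are proved here.
-/
import Fermat.Agent.Lib.S59.MCarL2U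
import Fermat.Agent.Lib.S33.DescDict

set_option autoImplicit false
set_option linter.style.haveILetI false
set_option linter.unusedSectionVars false
set_option linter.unusedVariables false
set_option synthInstance.maxHeartbeats 400000

noncomputable section

namespace Fermat.Agent.Lib.S59

open ModularCurve HahnSeries AlgebraicCurve Fermat.Agent.Lib.FF Fermat.Agent.Lib.S18
  Fermat.Agent.Lib.S28 Fermat.Agent.Lib.S29 Fermat.Agent.Lib.S37 Fermat.Agent.Lib.S34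
  Fermat.Agent.Lib.S35 Fermat.Agent.Lib.S33 Fermat.Agent.Lib.S44 Fermat.Agent.Lib.S36

local notation "Kb" => AlgebraicClosure ℚ

variable {M q : ℕ} [NeZero M] [hq : Fact q.Prime] {hqM : ¬ q ∣ M} (h5 : 5 ≤ q)
  {P : ValuationSubring Kb} {hP : P.LiesOverPrime q}
  {L₀ : IntermediateField ℚ Kb} [FiniteDimensional ℚ ↥L₀]
  {hunr : ∀ τ ∈ P.inertiaSubgroupIn ℚ, ∀ a ∈ L₀, τ a = a}
  [CharP (IsLocalRing.ResidueField ↥(s18q_A0 P L₀)) q]
  [PerfectField (IsLocalRing.ResidueField ↥(s18q_A0 P L₀))]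
  (p : ℕ) [hp : Fact p.Prime]

/-- **The typed contract of leaf [L2-8 Σ-INJ₃]** (see the header). -/
def s59m_Inj3C (D : s59m_L2Data M q hqM P hP L₀ hunr) : Prop :=
  ∀ {x : JZero (M * q * q)} {h : s34m_F ↥L₀ (M * q * q)},
    s33d_IsKumGen p x (s18q_incl (M * q * q) L₀ h) →
    ∀ (hu : ∀ j, h ∈ D.V j ∧ h⁻¹ ∈ D.V j), (∀ Q ∈ D.N₃, Q.ord h = 0) →
    ∀ (c : IsLocalRing.ResidueField ↥(s18q_A0 P L₀))
      (b : Fin 3 → ↥(modularFunctionFieldFullC (IsLocalRing.ResidueField ↥(s18q_A0 P L₀)) M)),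
      c ≠ 0 → (∀ j, b j ≠ 0) →
      (∀ j, D.rb h5 j ⟨h, (hu j).1⟩ = algebraMap (IsLocalRing.ResidueField ↥(s18q_A0 P L₀))
        ↥(modularFunctionFieldFullC (IsLocalRing.ResidueField ↥(s18q_A0 P L₀)) M) c * b j ^ p) →
      (∀ (s : s59m_NodeU M q hqM P hP L₀ hunr) (j : Fin 3),
        ∃ (hj : b j ∈ (s59m_ZU M q hqM h5 P hP L₀ hunr).Wi s)
          (_ : (b j)⁻¹ ∈ (s59m_ZU M q hqM h5 P hP L₀ hunr).Wi s)
          (h1 : b 1 ∈ (s59m_ZU M q hqM h5 P hP L₀ hunr).Wi s),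
          (s59m_ZU M q hqM h5 P hP L₀ hunr).evi s ⟨b j, hj⟩ =
            (s59m_ZU M q hqM h5 P hP L₀ hunr).evi s ⟨b 1, h1⟩) → x = 0

/-- **normalisation**: a unit of the three rings of the shape `c g ^ p` is of this shape with `c` a unit of `A₀` and `g` a
unit of the three rings. -/
theorem s59m_L2Data.norm3 (D : s59m_L2Data M q hqM P hP L₀ hunr) (c : ↥L₀)
    (g w : s34m_F ↥L₀ (M * q * q)) (hc : c ≠ 0) (hg : g ≠ 0)
    (hw : ∀ j, w ∈ D.V j ∧ w⁻¹ ∈ D.V j) (hw0 : w ≠ 0)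
    (e : w = algebraMap ↥L₀ (s34m_F ↥L₀ (M * q * q)) c * g ^ p) :
    ∃ (c' : ↥L₀) (g' : s34m_F ↥L₀ (M * q * q)),
      c' ∈ (s59m_GU q P hP L₀ hunr).A ∧ c'⁻¹ ∈ (s59m_GU q P hP L₀ hunr).A ∧ c' ≠ 0 ∧
      (g' ≠ 0 ∧ ∀ j, g' ∈ D.V j ∧ g'⁻¹ ∈ D.V j) ∧
      w = algebraMap ↥L₀ (s34m_F ↥L₀ (M * q * q)) c' * g' ^ p := by
  have hp0 : p ≠ 0 := hp.out.ne_zero
  have hA := s59m_isUnif_A0 q P hP L₀ hunr
  obtain ⟨c₀, hc₀, hc₀', ec⟩ := hA.ord_spec hc
  set k : ℤ := hA.ord c with hk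
  have hc₀0 : c₀ ≠ 0 := by
    rintro rfl
    rw [mul_zero] at ec
    exact hc ec
  set Q : s34m_F ↥L₀ (M * q * q) := algebraMap ↥L₀ (s34m_F ↥L₀ (M * q * q)) ((q : ℕ) : ↥L₀) with hQ
  have hQ0 : Q ≠ 0 := by
    rw [hQ, Ne, map_eq_zero]
    exact hA.ne
  have hC₀0 : algebraMap ↥L₀ (s34m_F ↥L₀ (M * q * q)) c₀ ≠ 0 := by rwa [Ne, map_eq_zero]
  have hordQ : ∀ j, (D.isUnif j).ord Q = D.e j := by
    intro j
    obtain ⟨u, hu0, hu, hu', eϖ⟩ := D.q_eq j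
    refine (D.isUnif j).ord_eq hu hu' hu0 ?_
    have h1 : D.π j ^ ((D.e j : ℕ) : ℤ) = D.π j ^ D.e j := zpow_natCast _ _
    rw [h1]
    exact eϖ.trans (mul_comm _ _)
  have hordC₀ : ∀ j, (D.isUnif j).ord (algebraMap ↥L₀ (s34m_F ↥L₀ (M * q * q)) c₀) = 0 := fun j =>
    (D.isUnif j).ord_unit (D.const_mem j c₀ hc₀)
      (by rw [← map_inv₀]; exact D.const_mem j _ hc₀') hC₀0
  have eC : algebraMap ↥L₀ (s34m_F ↥L₀ (M * q * q)) c =
      Q ^ k * algebraMap ↥L₀ (s34m_F ↥L₀ (M * q * q)) c₀ := by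
    conv_lhs => rw [ec]
    rw [map_mul, map_zpow₀]
  -- the order at `V 0`
  have h0 : k + p * (D.isUnif 0).ord g = 0 := by
    have h1 : (D.isUnif 0).ord w = 0 := (D.isUnif 0).ord_unit (hw 0).1 (hw 0).2 hw0
    rw [e, eC, (D.isUnif 0).ord_mul (mul_ne_zero (zpow_ne_zero _ hQ0) hC₀0) (pow_ne_zero _ hg),
      (D.isUnif 0).ord_mul (zpow_ne_zero _ hQ0) hC₀0, (D.isUnif 0).ord_zpow hQ0, hordQ 0, hordC₀ 0,
      (D.isUnif 0).ord_pow hg] at h1
    have he0 : D.e 0 = 1 := rfl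
    rw [he0] at h1
    push_cast at h1
    linarith
  set n₀ : ℤ := (D.isUnif 0).ord g with hn₀
  set g' : s34m_F ↥L₀ (M * q * q) := Q ^ (-n₀) * g with hg'
  have hg'0 : g' ≠ 0 := mul_ne_zero (zpow_ne_zero _ hQ0) hg
  have ew : w = algebraMap ↥L₀ (s34m_F ↥L₀ (M * q * q)) c₀ * g' ^ p := by
    have hkk : k = -(p * n₀) := by linarith
    rw [e, eC, hg', mul_pow, ← zpow_natCast (Q ^ (-n₀)) p, ← zpow_mul, hkk]
    have : -n₀ * (p : ℤ) = -((p : ℤ) * n₀) := by ring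
    rw [this]
    ring
  refine ⟨c₀, g', hc₀, hc₀', hc₀0, ⟨hg'0, fun j => ?_⟩, ew⟩
  refine (D.isUnif j).unit_of_ord hg'0 ?_
  have h1 : (D.isUnif j).ord w = 0 := (D.isUnif j).ord_unit (hw j).1 (hw j).2 hw0
  rw [ew, (D.isUnif j).ord_mul hC₀0 (pow_ne_zero _ hg'0), hordC₀ j, zero_add,
    (D.isUnif j).ord_pow hg'0] at h1
  rcases mul_eq_zero.mp h1 with h2 | h2
  · exact absurd (by exact_mod_cast h2) hp0
  · exact h2

/-- **THE CONCRETE KUMMER FRAME** of level `M q²` ([Σ-INJ₃] is the leaf [L2-8]). -/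
def s59m_kumFrame3C (D : s59m_L2Data M q hqM P hP L₀ hunr) (hglue : s59m_Glue3C h5 D)
    (hinj : s59m_Inj3C h5 p D) :
    s59m_KumFrame3 (M * q * q) p (s59m_frame3C h5 D hglue) where
  gen x h := s33d_IsKumGen p x (s18q_incl (M * q * q) L₀ h)
  gen_zsmul := by
    intro x h hx a
    rw [map_zpow₀]
    exact s44c_isKumGen_zpow (M * q * q) p hx a
  gen_congr := by
    intro x h h' hx hx'
    exact s33d_kum0_of_same_class (M * q * q) p L₀ hx hx'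
  norm := by
    intro c g w hc hg hw e
    exact D.norm3 p c g w hc hg hw.2 hw.1 e
  inj := by
    intro x h hx hu hnf c b hc hb hr hgl
    exact hinj hx hu.2 hnf.2 c b hc hb hr hgl

theorem s59m_kumFrame3C_gen (D : s59m_L2Data M q hqM P hP L₀ hunr) (hglue : s59m_Glue3C h5 D)
    (hinj : s59m_Inj3C h5 p D) (x : JZero (M * q * q)) (h : s34m_F ↥L₀ (M * q * q)) :
    (s59m_kumFrame3C h5 p D hglue hinj).gen x h ↔
      s33d_IsKumGen p x (s18q_incl (M * q * q) L₀ h) := Iff.rfl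

end Fermat.Agent.Lib.S59
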