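/-
Programme (R2) / node **[CAR]**, the ports to `q ∈ {2, 3}` — W5 over a CHART (helper9, prefix `s59m_`, suffix `W`):
**THE CONCRETE KUMMER FRAME OF LEVEL `M q²` OVER A CHART `C`** (`X = s59m_frame3CW C D hglue`, `MCarL2FW.lean`), exponent
`p ≠ q` — the twin of `MCarL2K.lean`.

* `s59m_Inj3CW C p D` : **the typed contract of leaf [L2-8 Σ-INJ₃] over `C`**: a Kummer generator over `L₀` which is a unit of
  the three rings, prime to the triple points of the chart `s59m_S2W C`, and whose three residues are ONE constant times the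
  `p`-th powers of a triple glued at every node of the chart `C`, belongs to `x = 0`;
* **`s59m_kumFrame3CW C p D hglue hinj : s59m_KumFrame3 (M * q * q) p (s59m_frame3CW C D hglue)`** with
  `gen x h := s33d_IsKumGen p x (s18q_incl (M * q * q) L₀ h)` (`s59m_kumFrame3CW_gen` is `Iff.rfl`); the chart-free
  normalisation `D.norm3` of `MCarL2K.lean` is reused.
-/
import Fermat.Agent.Lib.S59.MCarL2FW
import Fermat.Agent.Lib.S59.MCarL2K

set_option autoImplicit false
set_option linter.style.haveILetI false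
set_option linter.unusedSectionVars false
set_option linter.unusedVariables false
set_option synthInstance.maxHeartbeats 400000

noncomputable section

namespace Fermat.Agent.Lib.S59

open ModularCurve HahnSeries AlgebraicCurve Fermat.Agent.Lib.FF Fermat.Agent.Lib.S18
  Fermat.Agent.Lib.S28 Fermat.Agent.Lib.S29 Fermat.Agent.Lib.S37 Fermat.Agent.Lib.S34
  Fermat.Agent.Lib.S35 Fermat.Agent.Lib.S33 Fermat.Agent.Lib.S44 Fermat.Agent.Lib.S36

local notation "Kb" => AlgebraicClosure ℚ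

variable {M q : ℕ} [NeZero M] [hq : Fact q.Prime] {hqM : ¬ q ∣ M}
  {P : ValuationSubring Kb} {hP : P.LiesOverPrime q}
  {L₀ : IntermediateField ℚ Kb} [FiniteDimensional ℚ ↥L₀]
  {hunr : ∀ τ ∈ P.inertiaSubgroupIn ℚ, ∀ a ∈ L₀, τ a = a}
  [CharP (IsLocalRing.ResidueField ↥(s18q_A0 P L₀)) q]
  [PerfectField (IsLocalRing.ResidueField ↥(s18q_A0 P L₀))]
  (C : s59b_ChartU M q hqM P hP L₀ hunr)
  (p : ℕ) [hp : Fact p.Prime]

/-- **The typed contract of leaf [L2-8 Σ-INJ₃] over the chart `C`** (see the header). -/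
def s59m_Inj3CW (D : s59m_L2Data M q hqM P hP L₀ hunr) : Prop :=
  ∀ {x : JZero (M * q * q)} {h : s34m_F ↥L₀ (M * q * q)},
    s33d_IsKumGen p x (s18q_incl (M * q * q) L₀ h) →
    ∀ (hu : ∀ j, h ∈ D.V j ∧ h⁻¹ ∈ D.V j), (∀ Q ∈ D.N₃W C, Q.ord h = 0) →
    ∀ (c : IsLocalRing.ResidueField ↥(s18q_A0 P L₀))
      (b : Fin 3 → ↥(modularFunctionFieldFullC (IsLocalRing.ResidueField ↥(s18q_A0 P L₀)) M)),
      c ≠ 0 → (∀ j, b j ≠ 0) →
      (∀ j, D.rbW j ⟨h, (hu j).1⟩ = algebraMap (IsLocalRing.ResidueField ↥(s18q_A0 P L₀))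
        ↥(modularFunctionFieldFullC (IsLocalRing.ResidueField ↥(s18q_A0 P L₀)) M) c * b j ^ p) →
      (∀ (s : s59b_NodeUW M q hqM P hP L₀ hunr C) (j : Fin 3),
        ∃ (hj : b j ∈ (s59b_ZUW M q hqM P hP L₀ hunr C).Wi s)
          (_ : (b j)⁻¹ ∈ (s59b_ZUW M q hqM P hP L₀ hunr C).Wi s)
          (h1 : b 1 ∈ (s59b_ZUW M q hqM P hP L₀ hunr C).Wi s),
          (s59b_ZUW M q hqM P hP L₀ hunr C).evi s ⟨b j, hj⟩ =
            (s59b_ZUW M q hqM P hP L₀ hunr C).evi s ⟨b 1, h1⟩) → x = 0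

/-- **THE CONCRETE KUMMER FRAME** of level `M q²` over the chart `C` ([Σ-INJ₃] is the leaf [L2-8]). -/
def s59m_kumFrame3CW (D : s59m_L2Data M q hqM P hP L₀ hunr) (hglue : s59m_Glue3CW C D)
    (hinj : s59m_Inj3CW C p D) :
    s59m_KumFrame3 (M * q * q) p (s59m_frame3CW C D hglue) where
  gen x h := s33d_IsKumGen p x (s18q_incl (M * q * q) L₀ h)
  gen_zsmul := by
    intro x h hx a
    rw [map_zpow₀]
    exact s44c_isKumGen_zpow (M * q * q) p hx a
  gen_congr := by
    intro x h h' hx hx'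
    exact s33d_kum0_of_same_class (M * q * q) p L₀ hx hx'
  norm := by
    intro c g w hc hg hw e
    exact D.norm3 p c g w hc hg hw.2 hw.1 e
  inj := by
    intro x h hx hu hnf c b hc hb hr hgl
    exact hinj hx hu.2 hnf.2 c b hc hb hr hgl

theorem s59m_kumFrame3CW_gen (D : s59m_L2Data M q hqM P hP L₀ hunr) (hglue : s59m_Glue3CW C D)
    (hinj : s59m_Inj3CW C p D) (x : JZero (M * q * q)) (h : s34m_F ↥L₀ (M * q * q)) :
    (s59m_kumFrame3CW C p D hglue hinj).gen x h ↔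
      s33d_IsKumGen p x (s18q_incl (M * q * q) L₀ h) := Iff.rfl

end Fermat.Agent.Lib.S59
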