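/-
Programme (R2) / node **[CAR]**, the ports to `q ∈ {2, 3}`, leaf W5/**[L2-7 HECKE₃]** over a chart (helper2, prefix `s59b_`),
final form: **THE HECKE FRAME OF LEVEL `M q²` OVER A CHART** — the twin of helper3's `s59u_heckeFrame3C` (`UCarHecke3F.lean`).

For helper9's concrete Kummer frame `s59m_kumFrame3CW C p D hglue hinj` of level `M q²` over the chart `C` (`MCarL2KW.lean`),
with the inputs `hOK : s59m_ChartOK C` on the chart (`MCarL2GW.lean`), every Hecke correspondence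
`H : s59m_HeckeOn (s59b_ZUW … C)` of level `M q` with `H.T = τ_ℓ = s59u_tauD (M q) ℓ _ L₀` (`ℓ ∤ M q`, `ℓ ≠ q`;
`ν₂(M) = ν₃(M) = 0`) lifts to a Hecke frame of level `M q²`:

  **`s59b_heckeFrame3CW : s59m_HeckeFrame3 (s59m_kumFrame3CW C p D hglue hinj) H ⟨ℓ, _⟩`**,  `T = s59u_tauD (M q²) ℓ _ L₀`.

Fields: `mem` = helper3's chart-free `s59u_hecke3_mem`, `red`, `nf` from `B5Hecke3B.lean`, `gen_hecke` = `s59u_isKumGen_tauD`.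
-/
import Fermat.Agent.Lib.S59.B5Hecke3B
import Fermat.Agent.Lib.S59.MCarL2KW
import Fermat.Agent.Lib.S59.MCarL2GW

set_option autoImplicit false
set_option linter.style.haveILetI false
set_option linter.unusedSectionVars false
set_option linter.unusedVariables false
set_option synthInstance.maxHeartbeats 400000

noncomputable section

namespace Fermat.Agent.Lib.S59

open ModularCurve HahnSeries AlgebraicCurve Fermat.Agent.Lib.FF Fermat.Agent.Lib.S18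
  Fermat.Agent.Lib.S28 Fermat.Agent.Lib.S29 Fermat.Agent.Lib.S37 Fermat.Agent.Lib.S34
  Fermat.Agent.Lib.S35 Fermat.Agent.Lib.S33 Fermat.Agent.Lib.S44 Fermat.Agent.Lib.S36

local notation "Kb" => AlgebraicClosure ℚ

variable (M q : ℕ) [NeZero M] [hq : Fact q.Prime] (hqM : ¬ q ∣ M)
  (P : ValuationSubring Kb) (hP : P.LiesOverPrime q)
  (L₀ : IntermediateField ℚ Kb) [FiniteDimensional ℚ ↥L₀]
  (hunr : ∀ τ ∈ P.inertiaSubgroupIn ℚ, ∀ a ∈ L₀, τ a = a)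
  [CharP (IsLocalRing.ResidueField ↥(s18q_A0 P L₀)) q]
  [PerfectField (IsLocalRing.ResidueField ↥(s18q_A0 P L₀))]
  (C : s59b_ChartU M q hqM P hP L₀ hunr) (hOK : s59m_ChartOK C)
  (p : ℕ) [hp : Fact p.Prime]
  (D : s59m_L2Data M q hqM P hP L₀ hunr) (hglue : s59m_Glue3CW C D) (hinj : s59m_Inj3CW C p D)
  (ℓ : ℕ) [hℓ : Fact ℓ.Prime] (hℓ1 : ¬ ℓ ∣ M * q) (hℓ2 : ¬ ℓ ∣ M * q * q) (hqℓ : q ≠ ℓ)

include hqℓ in
set_option maxHeartbeats 1600000 in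
/-- the leaf `red` for the corestricted reductions `D.rbW`. -/
theorem s59b_hecke3_red_rbW (H : s59m_HeckeOn (s59b_ZUW M q hqM P hP L₀ hunr C))
    (hHT : H.T = s59u_tauD (M * q) ℓ hℓ1 L₀) (j : Fin 3) (h : s34m_F ↥L₀ (M * q * q))
    (hh : h ∈ D.V j) (hh' : h⁻¹ ∈ D.V j)
    (hm : s59u_tauD (M * q * q) ℓ hℓ2 L₀ h ∈ D.V j) :
    D.rbW j ⟨s59u_tauD (M * q * q) ℓ hℓ2 L₀ h, hm⟩ = H.Ti (D.rbW j ⟨h, hh⟩) :=
  Subtype.ext (s59b_hecke3_redW M q hqM P hP L₀ hunr C D ℓ hℓ1 hℓ2 hqℓ H hHT j h hh hh' hm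
    (D.rbW j ⟨h, hh⟩) (D.coe_rbW j ⟨h, hh⟩))

include hOK hℓ1 in
set_option maxHeartbeats 1600000 in
/-- the leaf `nf` = [T-NODE₃] for `D.N₃W C`. -/
theorem s59b_hecke3_nf_N3W (h2 : nuTwo M = 0) (h3 : nuThree M = 0)
    (h : s34m_F ↥L₀ (M * q * q)) (hh0 : h ≠ 0) (hnf : ∀ Q ∈ D.N₃W C, Q.ord h = 0) :
    s59u_tauD (M * q * q) ℓ hℓ2 L₀ h ≠ 0 ∧
      ∀ Q ∈ D.N₃W C, Q.ord (s59u_tauD (M * q * q) ℓ hℓ2 L₀ h) = 0 :=
  s59b_hecke3_nfW M q hqM P hP L₀ hunr C D ℓ hℓ1 hℓ2 h2 h3 hOK.full hOK.np h hh0 hnf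

set_option maxHeartbeats 1600000 in
/-- **[L2-7 HECKE₃] over a chart: THE HECKE FRAME OF LEVEL `M q²`** at `ℓ` over a Hecke correspondence of level `M q` with
`H.T = τ_ℓ`. -/
def s59b_heckeFrame3CW (h2 : nuTwo M = 0) (h3 : nuThree M = 0)
    (H : s59m_HeckeOn (s59b_ZUW M q hqM P hP L₀ hunr C))
    (hHT : H.T = s59u_tauD (M * q) ℓ hℓ1 L₀) :
    s59m_HeckeFrame3 (s59m_kumFrame3CW C p D hglue hinj) H ⟨ℓ, hℓ.out⟩ where
  T := s59u_tauD (M * q * q) ℓ hℓ2 L₀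
  mem := fun j h hh => s59u_hecke3_mem M q hqM P hP L₀ hunr D ℓ hℓ2 hqℓ j h hh
  red := fun j h hh hh' =>
    s59b_hecke3_red_rbW M q hqM P hP L₀ hunr C D ℓ hℓ1 hℓ2 hqℓ H hHT j h hh hh' _
  nf := fun h hnf =>
    s59b_hecke3_nf_N3W M q hqM P hP L₀ hunr C hOK D ℓ hℓ1 hℓ2 h2 h3 h hnf.1 hnf.2
  gen_hecke := fun hx => s59u_isKumGen_tauD (M * q * q) ℓ hℓ2 L₀ p hx

set_option maxHeartbeats 1600000 in
@[simp] theorem s59b_heckeFrame3CW_T (h2 : nuTwo M = 0) (h3 : nuThree M = 0)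
    (H : s59m_HeckeOn (s59b_ZUW M q hqM P hP L₀ hunr C))
    (hHT : H.T = s59u_tauD (M * q) ℓ hℓ1 L₀) :
    (s59b_heckeFrame3CW M q hqM P hP L₀ hunr C hOK p D hglue hinj ℓ hℓ1 hℓ2 hqℓ h2 h3 H hHT).T =
      s59u_tauD (M * q * q) ℓ hℓ2 L₀ := rfl

end Fermat.Agent.Lib.S59
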