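/-
Programme (R2) / node [CAR], W5 = the level `M q²` leaf, leaf **[L2-8 Σ-INJ₃]** (helper7, prefix `s59nt_`), abstract part:
**MATCH AT A MULTIPLE POINT FROM GLUEDNESS.**

Setting (S36 `PCase.lean`): vertical valuation rings `O : ι' → ValuationSubring 𝓕`, chart `S`, a prime `𝔫` of the chart ring
through which ALL components pass, reductions `r i : O i →+* Fb` with kernel the non-units, one place `W` of `Fb` with an
evaluation `ev : W →+* k`, a reference component `i₁`, and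

* (OVER) the residues `r j (ι z)` of every `z ∈ B_𝔫` lie in `W` and have the same value as `r i₁ (ι z)`;
* `h = C · g ^ m · f` with `ord_Q h = ord_Q C = 0` at the places through `𝔫`, `g` a unit of every `O j` whose residues
  `b j = r j g` are GLUED: `b j, (b j)⁻¹ ∈ W`, `ev (b j) = ev (b i₁)`.

Then `s36p_Match O S 𝔫 f m`: for every generator datum `(Γ, u, s)` of `f` at `𝔫` the lifts `s i` agree at the closed point.
(Proof: `w = g Γ` is a unit of `B_𝔫`; `r j (ι (s j)) = r j w / b j`; apply `ev`.)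
-/
import Fermat.Agent.Lib.S36.PCase
import Fermat.Agent.Lib.S36.XLocLift

set_option autoImplicit false
set_option linter.style.haveILetI false
set_option linter.unusedSectionVars false
set_option linter.unusedVariables false
set_option synthInstance.maxHeartbeats 400000

noncomputable section

namespace Fermat.Agent.Lib.S59

open AlgebraicCurve Fermat.Agent.Lib.FF Fermat.Agent.Lib.S18 Fermat.Agent.Lib.S34
  Fermat.Agent.Lib.S36 IsLocalRing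

variable {L₀ 𝓕 : Type*} [Field L₀] [Field 𝓕] [Algebra L₀ 𝓕]
variable {ι' : Type*} [Fintype ι'] (O : ι' → ValuationSubring 𝓕) (S : Set (Place L₀ 𝓕))
  (𝔫 : Ideal (s34x_ring (s34x_infRing O) S)) [h𝔫 : 𝔫.IsPrime]

/-- the reduction of the local ring `B_𝔫` on a component through `𝔫`. -/
def s59nt_rho {Fb : Type*} [Field Fb] (i : ι') (hi : s36q_compThrough O S 𝔫 i) (r : O i →+* Fb) :
    Localization.AtPrime 𝔫 →+* Fb :=
  r.comp ((s34f_iota (s34x_infRing O) S 𝔫).codRestrict (O i) (s36q_iota_mem_comp O S 𝔫 i hi))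

theorem s59nt_rho_apply {Fb : Type*} [Field Fb] (i : ι') (hi : s36q_compThrough O S 𝔫 i)
    (r : O i →+* Fb) (z : Localization.AtPrime 𝔫) :
    s59nt_rho O S 𝔫 i hi r z =
      r ⟨s34f_iota (s34x_infRing O) S 𝔫 z, s36q_iota_mem_comp O S 𝔫 i hi z⟩ := rfl

set_option maxHeartbeats 1600000 in
/-- **MATCH at a multiple point from gluedness** (see the header). -/
theorem s59nt_match_of_glued (hA : s36q_Arch O)
    (F3 : ∀ y : 𝓕, y ≠ 0 → {Q : Place L₀ 𝓕 | Q ∈ S ∧ Q.ord y ≠ 0}.Finite)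
    (hall : ∀ i, s36q_compThrough O S 𝔫 i)
    {Fb : Type*} [Field Fb] (r : ∀ i, O i →+* Fb)
    (hrker : ∀ i (y : O i), (y : 𝓕) ∈ (O i).nonunits → r i y = 0)
    (i₁ : ι') {k : Type*} [Field k] (W : ValuationSubring Fb) (ev : W →+* k)
    (hOver : ∀ (z : Localization.AtPrime 𝔫) (j : ι'),
      ∃ (hj : r j ⟨s34f_iota (s34x_infRing O) S 𝔫 z, s36q_iota_mem_comp O S 𝔫 j (hall j) z⟩ ∈ W)
        (h1 : r i₁ ⟨s34f_iota (s34x_infRing O) S 𝔫 z,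
          s36q_iota_mem_comp O S 𝔫 i₁ (hall i₁) z⟩ ∈ W),
        ev ⟨_, hj⟩ = ev ⟨_, h1⟩)
    (m : ℕ) (hm0 : m ≠ 0) (h g C f : 𝓕)
    (hC0 : C ≠ 0) (hCord : ∀ Q ∈ S, s34f_through (s34x_infRing O) S 𝔫 Q → Q.ord C = 0)
    (hg0 : g ≠ 0) (hgu : ∀ j, g ∈ O j ∧ g⁻¹ ∈ O j)
    (b : ι' → Fb) (hgb : ∀ j, r j ⟨g, (hgu j).1⟩ = b j)
    (hbW : ∀ j, ∃ (hj : b j ∈ W) (_ : (b j)⁻¹ ∈ W) (h1 : b i₁ ∈ W), ev ⟨b j, hj⟩ = ev ⟨b i₁, h1⟩)
    (hh0 : h ≠ 0) (hhord : ∀ Q ∈ S, s34f_through (s34x_infRing O) S 𝔫 Q → Q.ord h = 0)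
    (hf : h = C * g ^ m * f) :
    s36p_Match O S 𝔫 f m := by
  classical
  intro Γ u s hΓ0 hΓord hΓu hu hfΓ hs i j hi hj
  -- the ring homomorphisms `ρ j : B_𝔫 → Fb`
  set ρ : ∀ j : ι', Localization.AtPrime 𝔫 →+* Fb :=
    fun j => s59nt_rho O S 𝔫 j (hall j) (r j) with hρ
  have hOver' : ∀ (z : Localization.AtPrime 𝔫) (j : ι'),
      ∃ (hj : ρ j z ∈ W) (h1 : ρ i₁ z ∈ W), ev ⟨_, hj⟩ = ev ⟨_, h1⟩ := hOver
  -- `ev` is multiplicative on products computed in `Fb`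
  have hevmul : ∀ (a b c : Fb) (ha : a ∈ W) (hb : b ∈ W) (hc : c ∈ W), a = b * c →
      ev ⟨a, ha⟩ = ev ⟨b, hb⟩ * ev ⟨c, hc⟩ := by
    intro a b c ha hb hc e
    rw [← map_mul]
    exact congrArg ev (Subtype.ext e)
  have hevsub : ∀ (a b c : Fb) (ha : a ∈ W) (hb : b ∈ W) (hc : c ∈ W), a = b - c →
      ev ⟨a, ha⟩ = ev ⟨b, hb⟩ - ev ⟨c, hc⟩ := by
    intro a b c ha hb hc e
    rw [← map_sub]
    exact congrArg ev (Subtype.ext e)
  have hevone : ∀ (h1 : (1 : Fb) ∈ W), ev ⟨1, h1⟩ = 1 := fun h1 => map_one ev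
  -- `w = g Γ` is a unit of `B_𝔫`
  have hw0 : g * Γ ≠ 0 := mul_ne_zero hg0 hΓ0
  have hwu : ∀ j, g * Γ ∈ O j ∧ (g * Γ)⁻¹ ∈ O j := fun j =>
    ⟨(O j).mul_mem _ _ (hgu j).1 (hΓu j (hall j)).1, by
      rw [mul_inv]
      exact (O j).mul_mem _ _ (hgu j).2 (hΓu j (hall j)).2⟩
  have hιu0 : s34f_iota (s34x_infRing O) S 𝔫 u ≠ 0 := by
    intro h0
    apply hh0
    rw [hf, hfΓ, h0, zero_mul, mul_zero]
  have hword : ∀ Q ∈ S, s34f_through (s34x_infRing O) S 𝔫 Q → Q.ord (g * Γ) = 0 := by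
    intro Q hQ hth
    have e : h = C * s34f_iota (s34x_infRing O) S 𝔫 u * (g * Γ) ^ m := by
      rw [hf, hfΓ, mul_pow]
      ring
    have h1 := hhord Q hQ hth
    rw [e, Q.ord_mul (mul_ne_zero hC0 hιu0) (pow_ne_zero m hw0), Q.ord_mul hC0 hιu0,
      hCord Q hQ hth, (s36y_ord_iota_unit O S 𝔫 u hu Q hQ hth).2, ← zpow_natCast, Q.ord_zpow,
      zero_add, zero_add] at h1
    rcases mul_eq_zero.mp h1 with h2 | h2
    · exact absurd (Nat.cast_eq_zero.mp h2) hm0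
    · exact h2
  obtain ⟨w', hw'u, hw'⟩ := s36q_exists_unit_iota_eq O S 𝔫 hA (g * Γ) hw0
    (fun j _ => hwu j) hword (F3 _ hw0)
  -- the residues
  have hres : ∀ j, ρ j w' = b j * ρ j (s j) := by
    intro j
    have hΓj := (hs j (hall j)).2
    have e1 : ρ j (s j) = r j ⟨Γ, (hΓu j (hall j)).1⟩ := by
      have h0 : r j (⟨Γ, (hΓu j (hall j)).1⟩ -
          ⟨s34f_iota (s34x_infRing O) S 𝔫 (s j), s36q_iota_mem_comp O S 𝔫 j (hall j) (s j)⟩) = 0 :=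
        hrker j _ hΓj
      rw [map_sub, sub_eq_zero] at h0
      exact h0.symm
    have e2 : ρ j w' = r j ⟨g * Γ, (hwu j).1⟩ := by
      show r j ⟨s34f_iota (s34x_infRing O) S 𝔫 w', _⟩ = _
      exact congrArg (r j) (Subtype.ext hw')
    have e3 : (⟨g * Γ, (hwu j).1⟩ : O j) = ⟨g, (hgu j).1⟩ * ⟨Γ, (hΓu j (hall j)).1⟩ :=
      Subtype.ext rfl
    rw [e2, e3, map_mul, hgb j, e1]
  -- the values at the node
  obtain ⟨hb1W, hb1W', -, -⟩ := hbW i₁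
  have hb10 : b i₁ ≠ 0 := by
    intro h0
    obtain ⟨w'', hw''⟩ := hw'u.exists_right_inv
    have h4 : ρ i₁ w' * ρ i₁ w'' = 1 := by rw [← map_mul, hw'', map_one]
    rw [hres i₁, h0, zero_mul, zero_mul] at h4
    exact zero_ne_one h4
  have hβ : ev ⟨b i₁, hb1W⟩ ≠ 0 := by
    have e := hevmul 1 (b i₁) (b i₁)⁻¹ W.one_mem hb1W hb1W' (mul_inv_cancel₀ hb10).symm
    rw [hevone] at e
    exact left_ne_zero_of_mul_eq_one e.symm
  -- the common value of `ev (ρ i₁ (s j))`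
  have hval : ∀ j, ∃ (hj1 : ρ i₁ (s j) ∈ W) (hw1 : ρ i₁ w' ∈ W),
      ev ⟨_, hw1⟩ = ev ⟨b i₁, hb1W⟩ * ev ⟨_, hj1⟩ := by
    intro j
    obtain ⟨hbj, hbj', hb1, hbev⟩ := hbW j
    obtain ⟨hsj, hsj1, hsev⟩ := hOver' (s j) j
    obtain ⟨hwj, hw1, hwev⟩ := hOver' w' j
    refine ⟨hsj1, hw1, ?_⟩
    rw [← hwev, hevmul _ _ _ hwj hbj hsj (hres j), hbev, hsev]
  obtain ⟨hi1, hwi, hei⟩ := hval i
  obtain ⟨hj1, hwj, hej⟩ := hval j
  have heq : ev ⟨ρ i₁ (s i), hi1⟩ = ev ⟨ρ i₁ (s j), hj1⟩ := by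
    have h1 : ev ⟨b i₁, hb1W⟩ * ev ⟨ρ i₁ (s i), hi1⟩ = ev ⟨b i₁, hb1W⟩ * ev ⟨ρ i₁ (s j), hj1⟩ := by
      rw [← hei, ← hej]
    exact mul_left_cancel₀ hβ h1
  -- `s i - s j` is not a unit
  rw [mem_maximalIdeal, mem_nonunits_iff]
  intro hunit
  obtain ⟨z', hz'⟩ := hunit.exists_right_inv
  obtain ⟨-, hzW, -⟩ := hOver' (s i - s j) i₁
  obtain ⟨-, hz'W, -⟩ := hOver' z' i₁
  have e1 : ev ⟨ρ i₁ (s i - s j), hzW⟩ = 0 := by
    rw [hevsub _ _ _ hzW hi1 hj1 (map_sub _ _ _), heq, sub_self]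
  have e2 := hevmul 1 (ρ i₁ (s i - s j)) (ρ i₁ z') W.one_mem hzW hz'W (by
    rw [← map_mul, hz', map_one])
  rw [hevone, e1, zero_mul] at e2
  exact one_ne_zero e2

end Fermat.Agent.Lib.S59
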