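/-
Programme (R2) / node **[CAR]**, the ports to `q ∈ {2, 3}`, leaf W5/**[L2-8 Σ-INJ₃]** over a chart (helper2, prefix `s59b_`):
the twin of helper7's `NWInj3.lean` / `NWInj3C.lean` over helper9's `W`-frame of level `M q²` (`MCarL2FW.lean`, `MCarL2GW.lean`,
`MCarL2KW.lean`; chart `C : s59b_ChartU …` with `s36g_BaseFull` for its coordinate, `q ∤ M`, `ν₂(M) = ν₃(M) = 0`, `p ≠ q`).

* `s59b_inj3_fieldW` : `f ≡ 1` on the three rings, `p ∣ div f`, MATCH at every triple point ⇒ `∃ x' ≠ 0, div f ≤ p · div x'`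
  (S36's `s36p_zero_of_cases` with helper9's `s59m_geo_of_baseFull`);
* `s59b_inj3_matchW` : MATCH at the triple points for `f = h / (C g ^ p)` from the local form `s59m_Glue3LocW` of GLUE₃ and
  the gluedness of the residues of `g` (helper7's abstract `s59nt_match_of_glued`);
* **`s59b_inj3_UW`**  : **[Σ-INJ₃]** over the chart;
* **`s59b_inj3CW`**   : the typed contract `s59m_Inj3CW C p D` from `hOK : s59m_ChartOK C`, `hloc : s59m_Glue3LocW C D`.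
-/
import Fermat.Agent.Lib.S59.NWInj3Match
import Fermat.Agent.Lib.S59.MCarL2GW
import Fermat.Agent.Lib.S59.MCarL2KW
import Fermat.Agent.Lib.S36.GFrameInst
import Fermat.Agent.Lib.S36.PClass

set_option autoImplicit false
set_option linter.style.haveILetI false
set_option linter.unusedSectionVars false
set_option linter.unusedVariables false
set_option synthInstance.maxHeartbeats 400000

noncomputable section

namespace Fermat.Agent.Lib.S59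

open ModularCurve HahnSeries AlgebraicCurve Fermat.Agent.Lib.FF Fermat.Agent.Lib.S18
  Fermat.Agent.Lib.S28 Fermat.Agent.Lib.S29 Fermat.Agent.Lib.S37 Fermat.Agent.Lib.S34
  Fermat.Agent.Lib.S35 Fermat.Agent.Lib.S33 Fermat.Agent.Lib.S44 Fermat.Agent.Lib.S36

local notation "Kb" => AlgebraicClosure ℚ

variable (M q : ℕ) [NeZero M] [hq : Fact q.Prime] (hqM : ¬ q ∣ M)
  (P : ValuationSubring Kb) (hP : P.LiesOverPrime q)
  (L₀ : IntermediateField ℚ Kb) [FiniteDimensional ℚ ↥L₀]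
  (hunr : ∀ τ ∈ P.inertiaSubgroupIn ℚ, ∀ a ∈ L₀, τ a = a)
  [CharP (IsLocalRing.ResidueField ↥(s18q_A0 P L₀)) q]
  [PerfectField (IsLocalRing.ResidueField ↥(s18q_A0 P L₀))]
  (C : s59b_ChartU M q hqM P hP L₀ hunr)

set_option maxHeartbeats 1600000 in
/-- **Theorem X₀ over the concrete frame**: `f ≡ 1` on the three rings, `p ∣ div f`, MATCH at every triple point ⇒
`div f ≤ p · div x'`. -/
theorem s59b_inj3_fieldW (hBF : s59m_BaseFullW C) (D : s59m_L2Data M q hqM P hP L₀ hunr)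
    (h2 : nuTwo M = 0) (h3 : nuThree M = 0)
    (p : ℕ) [hp : Fact p.Prime] (hpq : p ≠ q)
    (f : s34m_F ↥L₀ (M * q * q))
    (hdiv : ∀ Q : Place ↥L₀ (s34m_F ↥L₀ (M * q * q)), (p : ℤ) ∣ Q.ord f)
    (hf1 : ∀ i, f - 1 ∈ (D.V i).nonunits)
    (hMatch : ∀ (𝔫 : Ideal (s34x_ring (L₀ := ↥L₀) (s34x_infRing D.V) (s59m_S2W C)))
      (h𝔫 : s59m_IsMulti D.V (s59m_S2W C) 𝔫),
      s36p_Match D.V (s59m_S2W C) 𝔫 (h𝔫 := h𝔫.1.isPrime) f p) :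
    ∃ x' : s34m_F ↥L₀ (M * q * q), x' ≠ 0 ∧
      ∀ Q : Place ↥L₀ (s34m_F ↥L₀ (M * q * q)), Q.ord f ≤ (p : ℤ) * Q.ord x' := by
  classical
  haveI : NeZero q := ⟨hq.out.ne_zero⟩
  haveI : NumberField ↥L₀ := ⟨⟩
  haveI hdvr : IsDiscreteValuationRing ↥(s18q_A0 P L₀) := s18q_A0_dvr P L₀ hP
  haveI : IsDiscreteValuationRing ↥(s59m_GU q P hP L₀ hunr).A := hdvr
  have hπ : Function.Surjective (s59m_GU q P hP L₀ hunr).π := IsLocalRing.residue_surjective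
  have hqp : ¬ q ∣ p := fun hd => hpq ((Nat.prime_dvd_prime_iff_eq hq.out hp.out).mp hd).symm
  have hpA : ((p : ↥L₀))⁻¹ ∈ (s59m_GU q P hP L₀ hunr).A :=
    s34f_natCast_inv_mem (s18q_A0 P L₀) hq.out (s37rl_nonunit P hP L₀) p hqp
  have hϖ : (((s59m_GU q P hP L₀ hunr).ϖ : (s59m_GU q P hP L₀ hunr).A) : ↥L₀) = (q : ↥L₀) := rfl
  obtain ⟨hB, hsat, hFib, -, hOne2, hReg⟩ := s59m_geo_of_baseFull (algebraMap ↥L₀ Kb) M q hq.out hqM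
    h2 h3 (s59m_GU q P hP L₀ hunr) hπ hϖ D.pkg C.w C.hwV hBF C.wN C.hwN
  obtain ⟨hReg1, hReg2⟩ := hReg p hp.out.ne_zero hpA
  have hPk := D.pkg
  obtain ⟨hC, hU, -, hCompl, hI, -, -⟩ := hPk
  have hpL : (p : ↥L₀) ≠ 0 := Nat.cast_ne_zero.mpr hp.out.ne_zero
  obtain ⟨x', hx'0, -, hx'⟩ := s36p_zero_of_cases (s59m_GU q P hP L₀ hunr) (algebraMap ↥L₀ Kb) M q
    hq.out hqM hC hU (s36g_alpha M q (C.wN))
    (s36b_baseData₂_of_base (s59m_GU q P hP L₀ hunr) (algebraMap ↥L₀ Kb) M q hq.out hqM hC hCompl hI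
      _ hB) f p hp.out.ne_zero hpA hpL hdiv hf1
    (fun 𝔫 h𝔫 hπ𝔫 => by
      haveI := h𝔫.isPrime
      exact s36p_classify_chart1 (s59m_GU q P hP L₀ hunr) (algebraMap ↥L₀ Kb) M q hq.out hqM hC
        hCompl hI _ hB hsat 𝔫 (hFib 𝔫 h𝔫 hπ𝔫).1 (hFib 𝔫 h𝔫 hπ𝔫).2)
    (fun 𝔫 h𝔫 hπ𝔫 => hReg1 𝔫 h𝔫 hπ𝔫)
    (fun 𝔫 h𝔫 hπ𝔫 hall => hMatch 𝔫 ⟨h𝔫, hall⟩)
    (fun 𝔫 h𝔫 hπ𝔫 hpol => hOne2 𝔫 h𝔫 hπ𝔫 hpol)
    (fun 𝔫 h𝔫 hπ𝔫 hpol => hReg2 𝔫 h𝔫 hπ𝔫 hpol)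
  exact ⟨x', hx'0, hx'⟩

set_option maxHeartbeats 800000 in
/-- **MATCH at the triple points** for `f = h / (C g ^ p)`, from the local form of GLUE₃ and the gluedness of the residues
of `g`. -/
theorem s59b_inj3_matchW (hBF : s59m_BaseFullW C) (D : s59m_L2Data M q hqM P hP L₀ hunr)
    (hloc : s59m_Glue3LocW C D)
    (p : ℕ) (hp0 : p ≠ 0) (h g cst f : s34m_F ↥L₀ (M * q * q))
    (hC0 : cst ≠ 0) (hCord : ∀ Q : Place ↥L₀ (s34m_F ↥L₀ (M * q * q)), Q.ord cst = 0)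
    (hg0 : g ≠ 0) (hgu : ∀ j, g ∈ D.V j ∧ g⁻¹ ∈ D.V j)
    (b : Fin 3 → ↥(modularFunctionFieldFullC (IsLocalRing.ResidueField ↥(s18q_A0 P L₀)) M))
    (hgb : ∀ j, D.rbW j ⟨g, (hgu j).1⟩ = b j)
    (hglued : ∀ (s : s59b_NodeUW M q hqM P hP L₀ hunr C) (j : Fin 3),
      ∃ (hj : b j ∈ (s59b_ZUW M q hqM P hP L₀ hunr C).Wi s)
        (_ : (b j)⁻¹ ∈ (s59b_ZUW M q hqM P hP L₀ hunr C).Wi s)
        (h1 : b 1 ∈ (s59b_ZUW M q hqM P hP L₀ hunr C).Wi s),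
        (s59b_ZUW M q hqM P hP L₀ hunr C).evi s ⟨b j, hj⟩ =
          (s59b_ZUW M q hqM P hP L₀ hunr C).evi s ⟨b 1, h1⟩)
    (hh0 : h ≠ 0) (hN : ∀ Q ∈ D.N₃W C, Q.ord h = 0) (hf : h = cst * g ^ p * f)
    (𝔫 : Ideal (s34x_ring (L₀ := ↥L₀) (s34x_infRing D.V) (s59m_S2W C)))
    (h𝔫 : s59m_IsMulti D.V (s59m_S2W C) 𝔫) :
    s36p_Match D.V (s59m_S2W C) 𝔫 (h𝔫 := h𝔫.1.isPrime) f p := by
  haveI := h𝔫.1.isPrime
  obtain ⟨s, hov⟩ := hloc.1 𝔫 h𝔫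
  exact s59nt_match_of_glued D.V (s59m_S2W C) 𝔫 D.arch (D.F3W hBF) h𝔫.2 D.rbW
    (fun i y hy => (D.rbW_eq_zero_iff i y).mpr hy) 1
    ((s59b_ZUW M q hqM P hP L₀ hunr C).Wi s) ((s59b_ZUW M q hqM P hP L₀ hunr C).evi s) hov
    p hp0 h g cst f hC0 (fun Q _ _ => hCord Q) hg0 hgu b hgb (hglued s) hh0
    (fun Q hQ hth => hN Q ⟨hQ, 𝔫, h𝔫, hth⟩) hf

set_option maxHeartbeats 3200000 in
/-- **[L2-8 Σ-INJ₃] over the concrete frame** (see the header). -/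
theorem s59b_inj3_UW (hBF : s59m_BaseFullW C) (D : s59m_L2Data M q hqM P hP L₀ hunr)
    (h2 : nuTwo M = 0) (h3 : nuThree M = 0)
    (hloc : s59m_Glue3LocW C D) (p : ℕ) [hp : Fact p.Prime] (hpq : p ≠ q)
    {x : JZero (M * q * q)} {h : s34m_F ↥L₀ (M * q * q)}
    (hgen : s33d_IsKumGen p x (s18q_incl (M * q * q) L₀ h))
    (hu : ∀ j, h ∈ D.V j ∧ h⁻¹ ∈ D.V j) (hN : ∀ Q ∈ D.N₃W C, Q.ord h = 0)
    (c : IsLocalRing.ResidueField ↥(s18q_A0 P L₀))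
    (b : Fin 3 → ↥(modularFunctionFieldFullC (IsLocalRing.ResidueField ↥(s18q_A0 P L₀)) M))
    (hc : c ≠ 0) (hb : ∀ j, b j ≠ 0)
    (hres : ∀ j, D.rbW j ⟨h, (hu j).1⟩ =
      algebraMap (IsLocalRing.ResidueField ↥(s18q_A0 P L₀))
        ↥(modularFunctionFieldFullC (IsLocalRing.ResidueField ↥(s18q_A0 P L₀)) M) c * b j ^ p)
    (hglued : ∀ (s : s59b_NodeUW M q hqM P hP L₀ hunr C) (j : Fin 3),
      ∃ (hj : b j ∈ (s59b_ZUW M q hqM P hP L₀ hunr C).Wi s)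
        (_ : (b j)⁻¹ ∈ (s59b_ZUW M q hqM P hP L₀ hunr C).Wi s)
        (h1 : b 1 ∈ (s59b_ZUW M q hqM P hP L₀ hunr C).Wi s),
        (s59b_ZUW M q hqM P hP L₀ hunr C).evi s ⟨b j, hj⟩ =
          (s59b_ZUW M q hqM P hP L₀ hunr C).evi s ⟨b 1, h1⟩) :
    x = 0 := by
  classical
  haveI : NeZero q := ⟨hq.out.ne_zero⟩
  haveI : NumberField ↥L₀ := ⟨⟩
  haveI hdvr : IsDiscreteValuationRing ↥(s18q_A0 P L₀) := s18q_A0_dvr P L₀ hP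
  haveI : IsDiscreteValuationRing ↥(s59m_GU q P hP L₀ hunr).A := hdvr
  have hπ : Function.Surjective (s59m_GU q P hP L₀ hunr).π := IsLocalRing.residue_surjective
  have hPk := D.pkg
  obtain ⟨hC, hU, -, hCompl, hI, -, -⟩ := hPk
  obtain ⟨hh0, hdiv⟩ := s33d_kum_of_gen (M * q * q) p L₀ hgen
  have hp0 : p ≠ 0 := hp.out.ne_zero
  -- the constant
  obtain ⟨ct, hct⟩ := hπ c
  have hct0 : ((ct : (s59m_GU q P hP L₀ hunr).A) : ↥L₀) ≠ 0 := by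
    intro h0
    apply hc
    have : ct = 0 := Subtype.ext h0
    rw [← hct, this, map_zero]
  have hC0 : algebraMap ↥L₀ (s34m_F ↥L₀ (M * q * q)) (ct : ↥L₀) ≠ 0 := by
    rwa [Ne, map_eq_zero]
  have hCord : ∀ Q : Place ↥L₀ (s34m_F ↥L₀ (M * q * q)),
      Q.ord (algebraMap ↥L₀ (s34m_F ↥L₀ (M * q * q)) (ct : ↥L₀)) = 0 :=
    fun Q => ff_ord_algebraMap Q _
  have hCV : ∀ j, algebraMap ↥L₀ (s34m_F ↥L₀ (M * q * q)) (ct : ↥L₀) ∈ D.V j :=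
    fun j => D.const_mem j ct ct.2
  have hCres : ∀ j, D.rbW j ⟨_, hCV j⟩ =
      algebraMap (IsLocalRing.ResidueField ↥(s18q_A0 P L₀))
        ↥(modularFunctionFieldFullC (IsLocalRing.ResidueField ↥(s18q_A0 P L₀)) M) c := by
    intro j
    rw [← hct]
    exact D.rbW_const C j ct
  -- the lifts of the `b j`
  obtain ⟨y₀, hy₀⟩ := (s59b_ZUW M q hqM P hP L₀ hunr C).Ci.red_surjective (b 0)
  obtain ⟨y₁, hy₁⟩ := (s59b_ZUW M q hqM P hP L₀ hunr C).Ci.red_surjective (b 1)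
  obtain ⟨y₂, hy₂⟩ := (s59b_ZUW M q hqM P hP L₀ hunr C).Cz.red_surjective (b 2)
  obtain ⟨y₀, hy₀m⟩ := y₀
  obtain ⟨y₁, hy₁m⟩ := y₁
  obtain ⟨y₂, hy₂m⟩ := y₂
  have hy₀V : y₀ ∈ s34m_Vinf (s59m_GU q P hP L₀ hunr) (M * q) := hy₀m
  have hy₁V : y₁ ∈ s34m_Vinf (s59m_GU q P hP L₀ hunr) (M * q) := hy₁m
  have hy₂V : y₂ ∈ s34m_Vzero (s59m_GU q P hP L₀ hunr) (algebraMap ↥L₀ Kb) M q hq.out hqM := hy₂m
  have hm₀ : s36g_alpha M q y₀ ∈ D.V 0 :=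
    ((s36b_alpha_mem_iff (s59m_GU q P hP L₀ hunr) (algebraMap ↥L₀ Kb) M q hq.out hqM hC y₀).1).mpr hy₀V
  have hm₁ : s36g_alpha M q y₁ ∈ D.V 1 :=
    ((s36b_alpha_mem_iff (s59m_GU q P hP L₀ hunr) (algebraMap ↥L₀ Kb) M q hq.out hqM hC y₁).2.1).mpr
      hy₁V
  have hm₂ : s36g_beta M q y₂ ∈ D.V 2 :=
    ((s36p_beta_mem_iff (s59m_GU q P hP L₀ hunr) (algebraMap ↥L₀ Kb) M q hq.out hqM hC y₂).2.2).mpr
      hy₂V
  have hgj : ∀ i : Fin 3, (![s36g_alpha M q y₀, s36g_alpha M q y₁, s36g_beta M q y₂] :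
      Fin 3 → s34m_F ↥L₀ (M * q * q)) i ∈ D.V i := by
    intro i
    fin_cases i
    · exact hm₀
    · exact hm₁
    · exact hm₂
  obtain ⟨g, hg⟩ := s36g_pkg_approx (s59m_GU q P hP L₀ hunr) M q D.V _ hU hI _ hgj
  have hgV : ∀ j, g ∈ D.V j := by
    intro j
    have h1 : g - (![s36g_alpha M q y₀, s36g_alpha M q y₁, s36g_beta M q y₂] :
      Fin 3 → s34m_F ↥L₀ (M * q * q)) j ∈ D.V j := (D.V j).nonunits_le (hg j)
    have := (D.V j).add_mem _ _ h1 (hgj j)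
    rwa [sub_add_cancel] at this
  have hgres : ∀ j, D.rbW j ⟨g, hgV j⟩ = b j := by
    intro j
    have e1 : D.rbW j ⟨g, hgV j⟩ = D.rbW j ⟨_, hgj j⟩ :=
      Subtype.ext (D.r_congr j (hgV j) (hgj j) (hg j))
    rw [e1]
    fin_cases j
    · show D.rbW 0 ⟨s36g_alpha M q y₀, hm₀⟩ = b 0
      rw [D.rbW0α C y₀ hy₀V hm₀]
      exact hy₀
    · show D.rbW 1 ⟨s36g_alpha M q y₁, hm₁⟩ = b 1
      rw [D.rbW1α C y₁ hy₁V hm₁]
      exact hy₁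
    · show D.rbW 2 ⟨s36g_beta M q y₂, hm₂⟩ = b 2
      rw [D.rbW2β C y₂ hy₂V hm₂]
      exact hy₂
  have hgnu : ∀ j, g ∉ (D.V j).nonunits := by
    intro j hnu
    apply hb j
    rw [← hgres j]
    exact (D.rbW_eq_zero_iff j ⟨g, hgV j⟩).mpr hnu
  have hg0 : g ≠ 0 := by
    rintro rfl
    exact hgnu 0 ((D.V 0).mem_nonunits_iff_or.mpr (Or.inl rfl))
  have hgu : ∀ j, g ∈ D.V j ∧ g⁻¹ ∈ D.V j := by
    intro j
    refine ⟨hgV j, ?_⟩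
    by_contra hinv
    exact hgnu j ((D.V j).mem_nonunits_iff_or.mpr (Or.inr hinv))
  -- `u = C g ^ p` is a unit of the three rings with the residue of `h`
  have hu0 : algebraMap ↥L₀ (s34m_F ↥L₀ (M * q * q)) (ct : ↥L₀) * g ^ p ≠ 0 :=
    mul_ne_zero hC0 (pow_ne_zero p hg0)
  have huV : ∀ j, algebraMap ↥L₀ (s34m_F ↥L₀ (M * q * q)) (ct : ↥L₀) * g ^ p ∈ D.V j :=
    fun j => (D.V j).mul_mem _ _ (hCV j) (pow_mem (hgV j) p)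
  have hures : ∀ j, D.rbW j ⟨_, huV j⟩ = D.rbW j ⟨h, (hu j).1⟩ := by
    intro j
    have e : (⟨_, huV j⟩ : D.V j) = ⟨_, hCV j⟩ * ⟨g, hgV j⟩ ^ p := Subtype.ext rfl
    rw [e, map_mul, map_pow, hCres j, hgres j, hres j]
  have hhres0 : ∀ j, D.rbW j ⟨h, (hu j).1⟩ ≠ 0 := by
    intro j h0
    have := (D.rbW_eq_zero_iff j ⟨h, (hu j).1⟩).mp h0
    rcases (D.V j).mem_nonunits_iff_or.mp this with h1 | h1
    · exact hh0 h1
    · exact h1 (hu j).2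
  have huinv : ∀ j, (algebraMap ↥L₀ (s34m_F ↥L₀ (M * q * q)) (ct : ↥L₀) * g ^ p)⁻¹ ∈ D.V j := by
    intro j
    by_contra hinv
    apply hhres0 j
    rw [← hures j]
    exact (D.rbW_eq_zero_iff j ⟨_, huV j⟩).mpr ((D.V j).mem_nonunits_iff_or.mpr (Or.inr hinv))
  -- the function `f`
  have hf : h = algebraMap ↥L₀ (s34m_F ↥L₀ (M * q * q)) (ct : ↥L₀) * g ^ p *
      (h * (algebraMap ↥L₀ (s34m_F ↥L₀ (M * q * q)) (ct : ↥L₀) * g ^ p)⁻¹) := by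
    field_simp
  have hf0 : h * (algebraMap ↥L₀ (s34m_F ↥L₀ (M * q * q)) (ct : ↥L₀) * g ^ p)⁻¹ ≠ 0 :=
    mul_ne_zero hh0 (inv_ne_zero hu0)
  have hfV : ∀ j, h * (algebraMap ↥L₀ (s34m_F ↥L₀ (M * q * q)) (ct : ↥L₀) * g ^ p)⁻¹ ∈ D.V j :=
    fun j => (D.V j).mul_mem _ _ (hu j).1 (huinv j)
  have hf1 : ∀ j, h * (algebraMap ↥L₀ (s34m_F ↥L₀ (M * q * q)) (ct : ↥L₀) * g ^ p)⁻¹ - 1 ∈
      (D.V j).nonunits := by
    intro j
    have hone : (1 : s34m_F ↥L₀ (M * q * q)) ∈ D.V j := (D.V j).one_mem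
    have hsub : h * (algebraMap ↥L₀ (s34m_F ↥L₀ (M * q * q)) (ct : ↥L₀) * g ^ p)⁻¹ - 1 ∈ D.V j :=
      sub_mem (hfV j) hone
    refine (D.rbW_eq_zero_iff j ⟨_, hsub⟩).mp ?_
    have e1 : (⟨_, hsub⟩ : D.V j) = ⟨_, hfV j⟩ - 1 := Subtype.ext rfl
    have e2 : (⟨h, (hu j).1⟩ : D.V j) = ⟨_, huV j⟩ * ⟨_, hfV j⟩ := Subtype.ext hf
    have e3 : D.rbW j ⟨h, (hu j).1⟩ = D.rbW j ⟨_, huV j⟩ * D.rbW j ⟨_, hfV j⟩ := by
      rw [e2, map_mul]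
    rw [hures j] at e3
    have e4 : D.rbW j ⟨_, hfV j⟩ = 1 := by
      have := mul_left_cancel₀ (hhres0 j) (e3.symm.trans (mul_one _).symm)
      exact this
    rw [e1, map_sub, map_one, e4, sub_self]
  have hdivf : ∀ Q : Place ↥L₀ (s34m_F ↥L₀ (M * q * q)),
      (p : ℤ) ∣ Q.ord (h * (algebraMap ↥L₀ (s34m_F ↥L₀ (M * q * q)) (ct : ↥L₀) * g ^ p)⁻¹) := by
    intro Q
    rw [Q.ord_mul hh0 (inv_ne_zero hu0), Q.ord_inv, Q.ord_mul hC0 (pow_ne_zero p hg0), hCord Q,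
      zero_add, ← zpow_natCast, Q.ord_zpow]
    exact dvd_add (hdiv Q) (Dvd.dvd.neg_right (dvd_mul_right _ _))
  -- MATCH and Theorem X₀
  obtain ⟨x', hx'0, hx'⟩ := s59b_inj3_fieldW M q hqM P hP L₀ hunr C hBF D h2 h3 p hpq _ hdivf hf1
    (fun 𝔫 h𝔫 => s59b_inj3_matchW M q hqM P hP L₀ hunr C hBF D hloc p hp0 h g _ _ hC0 hCord hg0 hgu
      b hgres hglued hh0 hN hf 𝔫 h𝔫)
  -- the endgame over `ℚ̄`
  obtain ⟨ρ, -, hord⟩ := s18q_restrict_gen_bar (algebraMap ↥L₀ Kb)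
    (modularFunctionFieldFull (M * q * q))
  obtain ⟨c', hc'⟩ := s18x_endgame
    (s18q_map (algebraMap ↥L₀ Kb) (modularFunctionFieldFull (M * q * q))) ρ hord
    (fun g hg => s18e_const_of_ord_nonpos (M * q * q) g hg) _ x' p hx'0 hf0 hx'
  have hc'0 : c' ≠ 0 := by
    rintro rfl
    rw [map_zero, zero_mul] at hc'
    exact (_root_.map_ne_zero _).mpr hf0 hc'
  have hctK : algebraMap ↥L₀ Kb (ct : ↥L₀) ≠ 0 := (_root_.map_ne_zero _).mpr hct0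
  refine (s33d_kumGen_zero_iff (s33d_constOfOrdZero_bar (M * q * q)) hp0 hgen).mpr
    ⟨algebraMap ↥L₀ Kb (ct : ↥L₀) * c',
      s18q_incl (M * q * q) L₀ g * s18q_incl (M * q * q) L₀ x',
      mul_ne_zero hctK hc'0,
      mul_ne_zero ((_root_.map_ne_zero _).mpr hg0) ((_root_.map_ne_zero _).mpr hx'0), ?_⟩
  have e1 := congrArg (s18q_incl (M * q * q) L₀) hf
  rw [map_mul, map_mul, map_pow, s18q_incl_algebraMap] at e1
  have hc'' : s18q_incl (M * q * q) L₀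
      (h * (algebraMap ↥L₀ (s34m_F ↥L₀ (M * q * q)) (ct : ↥L₀) * g ^ p)⁻¹) =
      algebraMap Kb _ c' * s18q_incl (M * q * q) L₀ x' ^ p := hc'
  rw [e1, hc'', map_mul, mul_pow, IntermediateField.algebraMap_apply]
  ring

/-- **The typed contract [L2-8 Σ-INJ₃] over the chart `C`** from the local form of GLUE₃. -/
theorem s59b_inj3CW (hOK : s59m_ChartOK C) (p : ℕ) [hp : Fact p.Prime] (hpq : p ≠ q)
    (h2 : nuTwo M = 0) (h3 : nuThree M = 0)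
    (D : s59m_L2Data M q hqM P hP L₀ hunr) (hloc : s59m_Glue3LocW C D) : s59m_Inj3CW C p D :=
  fun hgen hu hN c b hc hb hres hglued =>
    s59b_inj3_UW M q hqM P hP L₀ hunr C hOK.full D h2 h3 hloc p hpq hgen hu hN c b hc hb hres hglued

end Fermat.Agent.Lib.S59
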