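/-
Programme (R) / node [MP], leaf [C] = TORIC-FROB, family N (helper7, prefix `s59n_`):
**[C3] FOR THE Σ-DATUM OF AN ARBITRARY COORDINATE `w` OF LEVEL `M`** (chart `{α w regular}`): the wiring of `NGeo.lean` with
`s33s_datum_five` replaced by `s33s_datumW`, `s59n_frobAL_five` by `s59n_frobAL_W`, `s59n_inj_kum` by `s59n_inj_kum_W`.
Inputs beyond those of `s33s_datumW`: `w` is fixed by the arithmetic Galois action, the chart `{α w regular}` is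
`w_q`-stable, `α w` is a base function with `s35g_BaseData`, the node places of its chart 2 lie on chart 1.
Instances: `w = j` (`q ≥ 5`; = `NGeo.lean`), `w = t₂` (`q = 3`, `2 ∣ M`; `NGeoT.lean`).
-/
import Fermat.Agent.Lib.S59.NGeo
import Fermat.Agent.Lib.S59.NInjW

set_option autoImplicit false
set_option linter.style.haveILetI false
set_option linter.unusedSectionVars false
set_option synthInstance.maxHeartbeats 400000

noncomputable section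

namespace Fermat.Agent.Lib.S59

open ModularCurve AlgebraicCurve HahnSeries Polynomial Fermat.Agent.Lib.FF Fermat.Agent.Lib.S18
  Fermat.Agent.Lib.S34 Fermat.Agent.Lib.S37 Fermat.Agent.Lib.S33 Fermat.Agent.Lib.S35

local notation "Kb" => AlgebraicClosure ℚ
local notation "Γℚ" => (AlgebraicClosure ℚ ≃ₐ[ℚ] AlgebraicClosure ℚ)

section Chart

variable {K₀ : Type} [Field K₀] [CharZero K₀] [Algebra ℚ K₀] (φ : K₀ →+* Kb) (M q : ℕ) [NeZero M]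
  [NeZero q] (hq : q.Prime) (hqM : ¬ q ∣ M)

/-- a chart `{t regular}` which is `w_q`-stable and whose function `t` is fixed by the arithmetic Galois action is stable
under `w_q ∘ σ₀`. -/
theorem s59n_chart_stable_of (t : s34m_F K₀ (M * q))
    (hal : ∀ Q : Place K₀ (s34m_F K₀ (M * q)), Q ∈ s18_chart1 (L₀ := K₀) t →
      SemilinearAut.ofAlgAut (s34m_al φ M q hq hqM) • Q ∈ s18_chart1 (L₀ := K₀) t)
    (σ₀ : K₀ ≃ₐ[ℚ] K₀)
    (htσ : arithmeticGalois (modularFunctionFieldFull (M * q)) σ₀ • t = t)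
    (Q : Place K₀ (s34m_F K₀ (M * q))) :
    Q ∈ s18_chart1 (L₀ := K₀) t ↔ s59n_gPsi φ M q hq hqM σ₀ • Q ∈ s18_chart1 (L₀ := K₀) t := by
  have hal' : ∀ Q : Place K₀ (s34m_F K₀ (M * q)), Q ∈ s18_chart1 (L₀ := K₀) t ↔
      SemilinearAut.ofAlgAut (s34m_al φ M q hq hqM) • Q ∈ s18_chart1 (L₀ := K₀) t := by
    intro Q
    refine ⟨hal Q, fun h => ?_⟩
    have h2 := hal _ h
    have e : SemilinearAut.ofAlgAut (s34m_al φ M q hq hqM) •
        SemilinearAut.ofAlgAut (s34m_al φ M q hq hqM) • Q = Q := by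
      rw [← mul_smul]
      have h1 : SemilinearAut.ofAlgAut (s34m_al φ M q hq hqM) *
          SemilinearAut.ofAlgAut (s34m_al φ M q hq hqM) = 1 := by
        rw [← map_mul]
        have : s34m_al φ M q hq hqM * s34m_al φ M q hq hqM = 1 :=
          AlgEquiv.ext fun y => s34m_al_al φ M q hq hqM y
        rw [this, map_one]
      rw [h1, one_smul]
    rwa [e] at h2
  rw [s59n_gPsi, mul_smul, ← hal']
  exact s34f_chart_stable_of_fixed _ _ htσ Q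

end Chart

section Inst

variable (M q : ℕ) [NeZero M] [hq : Fact q.Prime] (hqM : ¬ q ∣ M)
  (p : ℕ) [hp : Fact p.Prime] (hpq : p ≠ q)
  (P : ValuationSubring Kb) (hP : P.LiesOverPrime q)
  (L₀ : IntermediateField ℚ Kb) [FiniteDimensional ℚ ↥L₀] [Normal ℚ ↥L₀]
  [IsDiscreteValuationRing ↥(s18q_A0 P L₀)] (ϖ : ↥(s18q_A0 P L₀)) (hϖ : Irreducible ϖ)

set_option quotPrecheck false

local notation "κ₀" => IsLocalRing.ResidueField ↥(s18q_A0 P L₀)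
local notation "G₀" => s37r_G P L₀ ϖ hϖ
local notation "φ₀" => algebraMap ↥L₀ Kb
local notation "𝓕M" => laurentBaseChange ↥L₀ (modularFunctionFieldFull M)
local notation "𝓕N" => laurentBaseChange ↥L₀ (modularFunctionFieldFull (M * q))
local notation "hFM" => (fun (f : LaurentSeries ↥L₀)
  (hf : f ∈ laurentBaseChange ↥L₀ (modularFunctionFieldFull M)) => s18g_baseChange_mem_Frac G₀ M hf)

include hpq hP in
set_option maxHeartbeats 3200000 in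
/-- **[C3] over a fixed finite normal level `L₀`, coordinate `w`.** -/
theorem s59n_toric_geo_W_inst
    (hT : s18g_HT κ₀ M) (hdegM : s18g_HDeg ↥L₀ M)
    (w : ↥𝓕M) (hwV : w ∈ s18g_V G₀ 𝓕M hFM)
    (hcoord : s37b_Coord κ₀ q
      ((s18g_redF G₀ M hFM hT hdegM ⟨w, hwV⟩ : ↥(modularFunctionFieldFullC κ₀ M)) : LaurentSeries κ₀))
    (hwtw : ∀ τ : κ₀ ≃+* κ₀, ModularCurve.coeffMap (τ : κ₀ →+* κ₀)
      ((s18g_redF G₀ M hFM hT hdegM ⟨w, hwV⟩ : ↥(modularFunctionFieldFullC κ₀ M)) : LaurentSeries κ₀) =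
      ((s18g_redF G₀ M hFM hT hdegM ⟨w, hwV⟩ : ↥(modularFunctionFieldFullC κ₀ M)) : LaurentSeries κ₀))
    (hmain : letI := s18f_algF G₀ M hT hdegM w hwV
      ∀ z : ↥(modularFunctionFieldFullC κ₀ M), IsIntegral κ₀[X] z →
        ∃ (b : ↥𝓕M) (hb : b ∈ s18_ring (L₀ := ↥L₀) (s18g_V G₀ 𝓕M hFM) (s18_chart1 w)),
          s18g_redF G₀ M hFM hT hdegM ⟨b, hb.1⟩ = z)
    (wN : ↥𝓕N) (hwN : heckeAlphaBar ↥L₀ M q w = wN) [FFGen ↥L₀ wN]
    (hαN : ∀ y ∈ s34x_infRing (s34m_VV G₀ φ₀ M q hq.out hqM), ∃ s : (G₀).A[X], s.map (G₀).π ≠ 0 ∧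
      (s18b_ev G₀ 𝓕N wN).IsIntegralElem (s18b_ev G₀ 𝓕N wN s * y))
    (hαB : ∀ g ∈ (s18_ring (L₀ := ↥L₀) (s34m_Vinf G₀ M) (s18_chart1 w) : Set (s34m_F ↥L₀ M)),
      heckeAlphaBar ↥L₀ M q g ∈ s34x_ring (s34x_infRing (s34m_VV G₀ φ₀ M q hq.out hqM))
        (s18_chart1 (L₀ := ↥L₀) wN))
    (hβB : ∀ g ∈ (s18_ring (L₀ := ↥L₀) (s34m_Vinf G₀ M) (s18_chart1 w) : Set (s34m_F ↥L₀ M)),
      ∃ b' ∈ s34x_ring (s34x_infRing (s34m_VV G₀ φ₀ M q hq.out hqM)) (s18_chart1 (L₀ := ↥L₀) wN),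
      ∃ z, z ∈ s34m_Vinf G₀ (M * q) ∧ z ∈ s34m_Vzero G₀ φ₀ M q hq.out hqM ∧
        b' - heckeBetaBar ↥L₀ M q g = s34m_unif G₀ (M * q) * z)
    (hnodeE : ∃ 𝔫, s33s_IsNode (s34m_VV G₀ φ₀ M q hq.out hqM) (s34m_unif G₀ (M * q))
      (s18_chart1 (L₀ := ↥L₀) wN) 𝔫)
    (hwσ : ∀ σ₀ : ↥L₀ ≃ₐ[ℚ] ↥L₀, arithmeticGalois (modularFunctionFieldFull M) σ₀ • w = w)
    (hal : ∀ Q : Place ↥L₀ (s34m_F ↥L₀ (M * q)), Q ∈ s18_chart1 (L₀ := ↥L₀) wN →
      SemilinearAut.ofAlgAut (s34m_al φ₀ M q hq.out hqM) • Q ∈ s18_chart1 (L₀ := ↥L₀) wN)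
    (hB : haveI : NeZero q := ⟨hq.out.ne_zero⟩
      s35g_BaseData G₀ φ₀ M q hq.out hqM wN)
    (hsub : s33s_nodePlaces (s34m_VV G₀ φ₀ M q hq.out hqM) (s34m_unif G₀ (M * q))
        (s18_chart2 (L₀ := ↥L₀) wN) ⊆
      s33s_nodePlaces (s34m_VV G₀ φ₀ M q hq.out hqM) (s34m_unif G₀ (M * q))
        (s18_chart1 (L₀ := ↥L₀) wN))
    {x : JZero (M * q)} {h : s34m_F ↥L₀ (M * q)}
    (hK : s33d_IsKumGen p x (s18q_incl (M * q) L₀ h))
    (hI : h ∈ s34m_Vinf G₀ (M * q))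
    (hZ : h ∈ s34m_Vzero G₀ φ₀ M q hq.out hqM)
    (hI' : h⁻¹ ∈ s34m_Vinf G₀ (M * q))
    (hZ' : h⁻¹ ∈ s34m_Vzero G₀ φ₀ M q hq.out hqM)
    (hnode : ∀ Q ∈ s33s_nodePlaces (s34m_VV G₀ φ₀ M q hq.out hqM) (s34m_unif G₀ (M * q))
      (s18_chart1 (L₀ := ↥L₀) wN), Q.ord h = 0)
    {ci cz : κ₀} {ai az : LaurentSeries κ₀}
    (hci : ci ≠ 0) (hcz : cz ≠ 0)
    (hai : ai ∈ modularFunctionFieldFullC κ₀ M)
    (haz : az ∈ modularFunctionFieldFullC κ₀ M)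
    (ei : s34m_redInf G₀ (M * q) ⟨h, hI⟩ = HahnSeries.C ci * ai ^ p)
    (ez : s34m_redZero G₀ φ₀ M q hq.out hqM ⟨h, hZ⟩ = HahnSeries.C cz * az ^ p)
    {σ : Γℚ} (hσ : P.IsFrobeniusAt σ q) :
    haveI : NeZero q := ⟨hq.out.ne_zero⟩
    s59m_wq M q hq.out hqM (σ • x) + q • x = 0 := by
  classical
  haveI : NeZero q := ⟨hq.out.ne_zero⟩
  haveI : NumberField ↥L₀ := ⟨⟩
  haveI hchar₀ : CharP κ₀ q := s37rl_charP P hP L₀
  haveI hperf₀ : PerfectField κ₀ := s37rl_perfectField P hP L₀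
  haveI : PerfectRing κ₀ q := PerfectField.toPerfectRing q
  haveI : IsDiscreteValuationRing ↥(G₀).A :=
    (inferInstance : IsDiscreteValuationRing ↥(s18q_A0 P L₀))
  have hdeg : s34m_HDeg ↥L₀ M q := s34r_deg_HDeg φ₀ M q hq.out hqM
  have hπ : Function.Surjective (G₀).π := IsLocalRing.residue_surjective
  have hperf : ∀ c : κ₀, ∃ d, d ^ q = c := fun c => surjective_frobenius _ q c
  obtain ⟨e, ε, he, hε, hεinv, hε0, hqe⟩ := s33t_exists_e P L₀ hq.out hP ϖ hϖ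
  -- the Frobenius lift
  have hσD := hσ.mem_decompositionSubgroup
  have hσA := s59n_frob_mem P L₀ hσD
  have hσA' := s59n_frob_symm_mem P L₀ hσD
  have hσπ := s59n_frob_res P L₀ ϖ hϖ hσ
  have hBMσ := s59n_BM_stable G₀ M q w (σ.restrictNormal ↥L₀) hσA hσπ (hwσ _)
  have hwNσ : arithmeticGalois (modularFunctionFieldFull (M * q)) (σ.restrictNormal ↥L₀) • wN = wN :=
    hB.2.2.2.2.1 _
  have hSΨ := s59n_chart_stable_of φ₀ M q hq.out hqM wN hal (σ.restrictNormal ↥L₀) hwNσ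
  -- the datum and its Frobenius–Atkin–Lehner structure
  have hi : h ∈ (s33s_datumW G₀ φ₀ M q hqM hdeg hT hdegM hπ e ε he hε hεinv hε0 hqe hperf w hwV hcoord
      hwtw hmain wN hwN hαN hαB hβB hnodeE).Ci.O := hI
  have hi' : h⁻¹ ∈ (s33s_datumW G₀ φ₀ M q hqM hdeg hT hdegM hπ e ε he hε hεinv hε0 hqe hperf w hwV
      hcoord hwtw hmain wN hwN hαN hαB hβB hnodeE).Ci.O := hI'
  have hz : h ∈ (s33s_datumW G₀ φ₀ M q hqM hdeg hT hdegM hπ e ε he hε hεinv hε0 hqe hperf w hwV hcoord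
      hwtw hmain wN hwN hαN hαB hβB hnodeE).Cz.O := hZ
  have hz' : h⁻¹ ∈ (s33s_datumW G₀ φ₀ M q hqM hdeg hT hdegM hπ e ε he hε hεinv hε0 hqe hperf w hwV
      hcoord hwtw hmain wN hwN hαN hαB hβB hnodeE).Cz.O := hZ'
  have hh0 : h ≠ 0 := fun h0 => hK.1 (by rw [h0, map_zero])
  have hNF : s33z_NF (s33s_datumW G₀ φ₀ M q hqM hdeg hT hdegM hπ e ε he hε hεinv hε0 hqe hperf w hwV
      hcoord hwtw hmain wN hwN hαN hαB hβB hnodeE) h := ⟨hh0, hnode⟩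
  have ei' : (s33s_datumW G₀ φ₀ M q hqM hdeg hT hdegM hπ e ε he hε hεinv hε0 hqe hperf w hwV hcoord
      hwtw hmain wN hwN hαN hαB hβB hnodeE).Ci.red ⟨h, hi⟩ =
      algebraMap κ₀ ↥(modularFunctionFieldFullC κ₀ M) ci *
        (⟨ai, hai⟩ : ↥(modularFunctionFieldFullC κ₀ M)) ^ p := by
    apply Subtype.ext
    refine ei.trans ?_
    rw [MulMemClass.coe_mul, SubmonoidClass.coe_pow, ← s59n_C_eq_coe]
  have ez' : (s33s_datumW G₀ φ₀ M q hqM hdeg hT hdegM hπ e ε he hε hεinv hε0 hqe hperf w hwV hcoord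
      hwtw hmain wN hwN hαN hαB hβB hnodeE).Cz.red ⟨h, hz⟩ =
      algebraMap κ₀ ↥(modularFunctionFieldFullC κ₀ M) cz *
        (⟨az, haz⟩ : ↥(modularFunctionFieldFullC κ₀ M)) ^ p := by
    apply Subtype.ext
    refine ez.trans ?_
    rw [MulMemClass.coe_mul, SubmonoidClass.coe_pow, ← s59n_C_eq_coe]
  obtain ⟨Gf, u, c, hG0, hc0, hΨ, hcong, hNFu⟩ := s59n_toric_frob
    (s59n_frobAL_W G₀ φ₀ M q hqM hdeg hT hdegM hπ e ε he hε hεinv hε0 hqe hperf w hwV hcoord hwtw hmain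
      wN hwN hαN hαB hβB hnodeE (σ.restrictNormal ↥L₀) hσA hσA' hσπ hBMσ hSΨ)
    hp.out.ne_zero hi hi' hz hz' hNF hci hcz ei' ez'
  have hΨ' : s34m_al φ₀ M q hq.out hqM
      (arithmeticRingAut (modularFunctionFieldFull (M * q)) (σ.restrictNormal ↥L₀) h) * h ^ q =
      algebraMap ↥L₀ (s34m_F ↥L₀ (M * q)) c * Gf ^ p * u := hΨ
  clear hΨ
  -- Kummer generators
  have hK1 := s33d_isKumGen_galois (M * q) p L₀ σ hK
  have hK2 := s33d_kumGen_smul (SemilinearAut.ofAlgAut (s37w_al M q hq.out hqM)) hK1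
  have e2 : SemilinearAut.ofAlgAut (s37w_al M q hq.out hqM) • s18q_incl (M * q) L₀
      (arithmeticRingAut (modularFunctionFieldFull (M * q)) (σ.restrictNormal ↥L₀) h) =
      s18q_incl (M * q) L₀ (s34m_al φ₀ M q hq.out hqM
        (arithmeticRingAut (modularFunctionFieldFull (M * q)) (σ.restrictNormal ↥L₀) h)) := by
    rw [SemilinearAut.ofAlgAut_smul]
    exact (s34m_iota_al φ₀ M q hq.out hqM _).symm
  rw [e2] at hK2
  have hK3 := s33l_kumGen_pow hK q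
  have hK4 := s33d_kumGen_prod hK2 hK3
  rw [← map_pow, ← map_mul, hΨ'] at hK4
  have hu0 : u ≠ 0 := hNFu.1
  have hcK : ((c : ↥L₀) : Kb) ≠ 0 := fun h0 => hc0 (Subtype.ext h0)
  have hGK : s18q_incl (M * q) L₀ Gf⁻¹ ≠ 0 := (_root_.map_ne_zero _).mpr (inv_ne_zero hG0)
  have hK5 := s33d_kumGen_mul hK4 (inv_ne_zero hcK) hGK
  have e5 : algebraMap Kb (ffi_F (M * q)) ((c : ↥L₀) : Kb)⁻¹ * s18q_incl (M * q) L₀ Gf⁻¹ ^ p *
      s18q_incl (M * q) L₀ (algebraMap ↥L₀ (s34m_F ↥L₀ (M * q)) c * Gf ^ p * u) =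
      s18q_incl (M * q) L₀ u := by
    have hG1 : s18q_incl (M * q) L₀ Gf ≠ 0 := (_root_.map_ne_zero _).mpr hG0
    have hc1 : algebraMap Kb (ffi_F (M * q)) ((c : ↥L₀) : Kb) ≠ 0 :=
      (_root_.map_ne_zero _).mpr hcK
    rw [map_mul, map_mul, map_pow, s18q_incl_algebraMap, map_inv₀, map_inv₀, inv_pow]
    field_simp
  rw [e5] at hK5
  -- [Σ-INJ]
  obtain ⟨⟨zi, hzi, ezi⟩, ⟨zz, hzz, ezz⟩⟩ := hcong
  have hu1 : ∀ i, ∃ z ∈ s34m_VV G₀ φ₀ M q hq.out hqM i,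
      u - 1 = algebraMap ↥L₀ (s34m_F ↥L₀ (M * q)) ((ϖ : ↥(s18q_A0 P L₀)) : ↥L₀) * z := by
    intro i
    cases i
    · refine ⟨zz, hzz, ?_⟩
      rw [ezz, pow_one]
      rfl
    · refine ⟨zi, hzi, ?_⟩
      rw [ezi, pow_one]
      rfl
  exact s59n_inj_kum_W M q hqM p hpq P hP L₀ ϖ hϖ wN hB hsub hK5 hu1 hNFu.2

end Inst

end Fermat.Agent.Lib.S59
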