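/-
Programme (R2) = S59, case (P) (owner helper7, prefix `s59x_`), leaf **[P1b] = NODE-GEN⁺**.

Port of `s33u_exists_Phi` (`Lib/S33/UnipGen.lean`) and of the stability lemmas of `Lib/S34/FGen.lean` to a semilinear
automorphism `g` which is NOT trivial modulo `π` (an element of the decomposition group acting on the residue field by
a power of the Frobenius): `s34f_Stable` (which contains `g b ≡ b mod π`) is replaced by

  `s59x_StableW O S 𝔫 g` : `g` stabilises the chart ring `B`, the chart `S` and the prime `𝔫` (in both directions).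

* `s59x_StableW.of_maximal` : for `𝔫` maximal, `g 𝔫 ⊆ 𝔫` suffices;
* `s59x_StableW.through_smul`, `.locEq_smul` : "through `𝔫`" and "has a local equation at `𝔫`" are `g`-stable;
* **`s59x_exists_Phi`** : the product `Φ` of the local equations of the places through `𝔫` in the support of `f`, with
  exponents `ord f / m`: the defect `ord f / m - ord Φ` is `g⁻¹`-invariant at the places through `𝔫`;
* `s59x_ord_fd_Phi` : hence `ord_Q (gΦ/Φ) = ord_Q (g f / f) / m` at every place `Q ∈ S` through `𝔫`.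
-/
import Fermat.Agent.Lib.S33.UnipGen

set_option autoImplicit false

noncomputable section

namespace Fermat.Agent.Lib.S59

open AlgebraicCurve Fermat.Agent.Lib.FF Fermat.Agent.Lib.S18 Fermat.Agent.Lib.S34
  Fermat.Agent.Lib.S33 IsLocalRing

variable {L₀ 𝓕 : Type*} [Field L₀] [Field 𝓕] [Algebra L₀ 𝓕]

section Stab

variable (O : Subring 𝓕) (S : Set (Place L₀ 𝓕))

/-- **Weak stability**: `g` stabilises the chart ring, the chart and the prime `𝔫`. -/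
structure s59x_StableW (𝔫 : Ideal (s34x_ring O S)) (g : SemilinearAut L₀ 𝓕) : Prop where
  mem_iff : ∀ y : 𝓕, y ∈ s34x_ring O S ↔ g • y ∈ s34x_ring O S
  chart : ∀ Q : Place L₀ 𝓕, Q ∈ S ↔ g • Q ∈ S
  smul_mem : ∀ (b : s34x_ring O S) (hgb : g • (b : 𝓕) ∈ s34x_ring O S), b ∈ 𝔫 →
    (⟨g • (b : 𝓕), hgb⟩ : s34x_ring O S) ∈ 𝔫
  inv_smul_mem : ∀ (b : s34x_ring O S) (hgb : g⁻¹ • (b : 𝓕) ∈ s34x_ring O S), b ∈ 𝔫 →
    (⟨g⁻¹ • (b : 𝓕), hgb⟩ : s34x_ring O S) ∈ 𝔫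

variable {O S}
variable {𝔫 : Ideal (s34x_ring O S)} {g : SemilinearAut L₀ 𝓕}

theorem s59x_StableW.inv (h : s59x_StableW O S 𝔫 g) : s59x_StableW O S 𝔫 g⁻¹ where
  mem_iff y := by
    have := h.mem_iff (g⁻¹ • y)
    rw [smul_inv_smul] at this
    exact this.symm
  chart Q := by
    have := h.chart (g⁻¹ • Q)
    rw [smul_inv_smul] at this
    exact this.symm
  smul_mem := h.inv_smul_mem
  inv_smul_mem b hgb hb := by
    have hgb' : g • (b : 𝓕) ∈ s34x_ring O S := by rw [inv_inv] at hgb; exact hgb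
    have := h.smul_mem b hgb' hb
    have e : (⟨g⁻¹⁻¹ • (b : 𝓕), hgb⟩ : s34x_ring O S) = ⟨g • (b : 𝓕), hgb'⟩ := by
      apply Subtype.ext
      show g⁻¹⁻¹ • (b : 𝓕) = g • (b : 𝓕)
      rw [inv_inv]
    rw [e]
    exact this

/-- For a MAXIMAL ideal, `g 𝔫 ⊆ 𝔫` implies `g⁻¹ 𝔫 ⊆ 𝔫`. -/
theorem s59x_StableW.of_maximal (h𝔫 : 𝔫.IsMaximal)
    (hmem : ∀ y : 𝓕, y ∈ s34x_ring O S ↔ g • y ∈ s34x_ring O S)
    (hchart : ∀ Q : Place L₀ 𝓕, Q ∈ S ↔ g • Q ∈ S)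
    (hsm : ∀ (b : s34x_ring O S) (hgb : g • (b : 𝓕) ∈ s34x_ring O S), b ∈ 𝔫 →
      (⟨g • (b : 𝓕), hgb⟩ : s34x_ring O S) ∈ 𝔫) : s59x_StableW O S 𝔫 g where
  mem_iff := hmem
  chart := hchart
  smul_mem := hsm
  inv_smul_mem b hgb hb := by
    by_contra hnot
    -- `𝔫 + (g⁻¹ b) = ⊤`
    obtain ⟨c, n, hn, e⟩ := h𝔫.exists_inv hnot
    -- apply `g`
    have hgc : g • ((c : s34x_ring O S) : 𝓕) ∈ s34x_ring O S := (hmem _).mp c.2
    have hgn : g • ((n : s34x_ring O S) : 𝓕) ∈ s34x_ring O S := (hmem _).mp n.2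
    have h1 : (⟨g • ((n : s34x_ring O S) : 𝓕), hgn⟩ : s34x_ring O S) ∈ 𝔫 := hsm n hgn hn
    have e' : (c : 𝓕) * (g⁻¹ • (b : 𝓕)) + (n : 𝓕) = 1 := by
      have := congrArg (fun x : s34x_ring O S => (x : 𝓕)) e
      simpa using this
    have e'' : g • ((c : 𝓕) * (g⁻¹ • (b : 𝓕)) + (n : 𝓕)) = 1 := by rw [e', smul_one]
    rw [smul_add, smul_mul', smul_inv_smul] at e''
    have h2 : (⟨g • ((c : s34x_ring O S) : 𝓕), hgc⟩ : s34x_ring O S) * b +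
        ⟨g • ((n : s34x_ring O S) : 𝓕), hgn⟩ = 1 := Subtype.ext e''
    have h3 : (1 : s34x_ring O S) ∈ 𝔫 := by
      rw [← h2]
      exact 𝔫.add_mem (𝔫.mul_mem_left _ hb) h1
    exact h𝔫.ne_top ((Ideal.eq_top_iff_one _).mpr h3)

/-- "through `𝔫`" is stable under `g`. -/
theorem s59x_StableW.through_smul (h : s59x_StableW O S 𝔫 g) {Q : Place L₀ 𝓕}
    (hth : s34f_through O S 𝔫 Q) : s34f_through O S 𝔫 (g • Q) := by
  intro b hb0 hbpos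
  have hb' : g⁻¹ • (b : 𝓕) ∈ s34x_ring O S := (h.inv.mem_iff _).mp b.2
  have hord : Q.ord (g⁻¹ • (b : 𝓕)) = (g • Q).ord (b : 𝓕) := by
    have := SemilinearAut.ord_smul g Q (g⁻¹ • (b : 𝓕))
    rw [smul_inv_smul] at this
    exact this.symm
  have hb'0 : g⁻¹ • (b : 𝓕) ≠ 0 := s34r_smul_ne_zero g⁻¹ hb0
  have hmem : (⟨g⁻¹ • (b : 𝓕), hb'⟩ : s34x_ring O S) ∈ 𝔫 :=
    hth ⟨g⁻¹ • (b : 𝓕), hb'⟩ hb'0 (by rw [hord]; exact hbpos)
  have hgb : g • ((⟨g⁻¹ • (b : 𝓕), hb'⟩ : s34x_ring O S) : 𝓕) ∈ s34x_ring O S := by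
    show g • (g⁻¹ • (b : 𝓕)) ∈ s34x_ring O S
    rw [smul_inv_smul]; exact b.2
  have := h.smul_mem _ hgb hmem
  have heq : (⟨g • ((⟨g⁻¹ • (b : 𝓕), hb'⟩ : s34x_ring O S) : 𝓕), hgb⟩ : s34x_ring O S) = b := by
    apply Subtype.ext
    show g • (g⁻¹ • (b : 𝓕)) = b
    rw [smul_inv_smul]
  rwa [heq] at this

/-- Local equations are transported by `g`. -/
theorem s59x_StableW.locEq_smul (h : s59x_StableW O S 𝔫 g) {Q : Place L₀ 𝓕}
    (hQ : s34f_LocEq O S 𝔫 Q) : s34f_LocEq O S 𝔫 (g • Q) := by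
  obtain ⟨φ, hφ0, hφ1, hφ⟩ := hQ
  refine ⟨g • φ, s34r_smul_ne_zero g hφ0, ?_, ?_⟩
  · rw [SemilinearAut.ord_smul]; exact hφ1
  · intro Q' hQ'S hne hth'
    rw [s34r_ord_smul]
    refine hφ (g⁻¹ • Q') ((h.inv.chart Q').mp hQ'S) ?_ (h.inv.through_smul hth')
    intro heq
    apply hne
    rw [← heq, smul_inv_smul]

end Stab

/-! ### The product of local equations -/

/-- **[P1b], NODE-GEN⁺.**  The product `Φ` of the local equations of the places through `𝔫` in the support of `f`, with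
exponents `e = ord f / m`: the defect `e - ord Φ` is `g⁻¹`-invariant at the places through `𝔫` (the exceptional place
is `g`-fixed).  Copy of `s33u_exists_Phi` with `s34f_Stable` weakened to `s59x_StableW`. -/
theorem s59x_exists_Phi (O : Subring 𝓕)
    (S : Set (Place L₀ 𝓕))
    (F3 : ∀ y : 𝓕, y ≠ 0 → {Q : Place L₀ 𝓕 | Q ∈ S ∧ Q.ord y ≠ 0}.Finite)
    (𝔫 : Ideal (s34x_ring O S))
    (g : SemilinearAut L₀ 𝓕) (hst : s59x_StableW O S 𝔫 g)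
    (hAA : s34f_AlmostAll O S 𝔫)
    (f : 𝓕) (hf0 : f ≠ 0) (m : ℕ)
    (hdeg : ∀ Q ∈ S, Q.ord f ≠ 0 → Q.deg = 1) :
    ∃ Φ : 𝓕, Φ ≠ 0 ∧ ∀ Q ∈ S, s34f_through O S 𝔫 Q →
      (g⁻¹ • Q).ord f / (m : ℤ) - (g⁻¹ • Q).ord Φ = Q.ord f / (m : ℤ) - Q.ord Φ := by
  classical
  set e : Place L₀ 𝓕 → ℤ := fun P => P.ord f / (m : ℤ) with he
  have he0 : ∀ P : Place L₀ 𝓕, e P ≠ 0 → P.ord f ≠ 0 := by
    intro P hP h0
    apply hP
    rw [he]
    show P.ord f / (m : ℤ) = 0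
    rw [h0, Int.zero_ediv]
  have hfinf := F3 f hf0
  set T : Finset (Place L₀ 𝓕) := hfinf.toFinset.filter fun P =>
    s34f_through O S 𝔫 P ∧ s34f_LocEq O S 𝔫 P with hT
  have hTmem : ∀ P, P ∈ T ↔ (P ∈ S ∧ P.ord f ≠ 0) ∧
      s34f_through O S 𝔫 P ∧ s34f_LocEq O S 𝔫 P := by
    intro P
    rw [hT, Finset.mem_filter, Set.Finite.mem_toFinset]
    rfl
  have hchoose : ∀ P : Place L₀ 𝓕, ∃ φ : 𝓕, P ∈ T → (φ ≠ 0 ∧ P.ord φ = 1 ∧
      ∀ Q' ∈ S, Q' ≠ P → s34f_through O S 𝔫 Q' → Q'.ord φ = 0) := by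
    intro P
    by_cases hP : P ∈ T
    · obtain ⟨φ, h1, h2, h3⟩ := ((hTmem P).mp hP).2.2
      exact ⟨φ, fun _ => ⟨h1, h2, h3⟩⟩
    · exact ⟨0, fun h => absurd h hP⟩
  choose φ hφ using hchoose
  have hφ0 : ∀ P ∈ T, φ P ≠ 0 := fun P hP => (hφ P hP).1
  set Φ : 𝓕 := ∏ P ∈ T, φ P ^ e P with hΦ
  have hΦ0 : Φ ≠ 0 := Finset.prod_ne_zero_iff.mpr fun P hP => zpow_ne_zero _ (hφ0 P hP)
  have hordΦ : ∀ Q ∈ S, s34f_through O S 𝔫 Q →
      Q.ord Φ = if Q ∈ T then e Q else 0 := by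
    intro Q hQS hth
    rw [hΦ, s18i_ord_prod_zpow Q T φ e hφ0]
    by_cases hQT : Q ∈ T
    · rw [if_pos hQT, Finset.sum_eq_single_of_mem Q hQT, (hφ Q hQT).2.1, mul_one]
      intro P hP hne
      rw [(hφ P hP).2.2 Q hQS (Ne.symm hne) hth, mul_zero]
    · rw [if_neg hQT]
      refine Finset.sum_eq_zero fun P hP => ?_
      have hne : Q ≠ P := fun h => hQT (h ▸ hP)
      rw [(hφ P hP).2.2 Q hQS hne hth, mul_zero]
  have hΔ : ∀ Q ∈ S, s34f_through O S 𝔫 Q →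
      e Q - Q.ord Φ = if s34f_LocEq O S 𝔫 Q then 0 else e Q := by
    intro Q hQS hth
    rw [hordΦ Q hQS hth]
    by_cases hQT : Q ∈ T
    · rw [if_pos hQT, if_pos ((hTmem Q).mp hQT).2.2, sub_self]
    · rw [if_neg hQT, sub_zero]
      by_cases hloc : s34f_LocEq O S 𝔫 Q
      · rw [if_pos hloc]
        by_contra hne
        exact hQT ((hTmem Q).mpr ⟨⟨hQS, he0 Q hne⟩, hth, hloc⟩)
      · rw [if_neg hloc]
  refine ⟨Φ, hΦ0, ?_⟩
  intro Q hQS hth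
  show e (g⁻¹ • Q) - (g⁻¹ • Q).ord Φ = e Q - Q.ord Φ
  have hQ1S : g⁻¹ • Q ∈ S := (hst.inv.chart Q).mp hQS
  have hth1 : s34f_through O S 𝔫 (g⁻¹ • Q) := hst.inv.through_smul hth
  rw [hΔ Q hQS hth, hΔ _ hQ1S hth1]
  by_cases hloc : s34f_LocEq O S 𝔫 Q
  · rw [if_pos hloc, if_pos (hst.inv.locEq_smul hloc)]
  · have hloc1 : ¬ s34f_LocEq O S 𝔫 (g⁻¹ • Q) := by
      intro h1
      apply hloc
      have := hst.locEq_smul h1
      rwa [smul_inv_smul] at this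
    rw [if_neg hloc, if_neg hloc1]
    by_cases hz : e Q = 0 ∧ e (g⁻¹ • Q) = 0
    · rw [hz.1, hz.2]
    · have hdeg1 : Q.deg = 1 := by
        by_cases h1 : e Q = 0
        · have h2 : e (g⁻¹ • Q) ≠ 0 := fun h2 => hz ⟨h1, h2⟩
          have := hdeg _ hQ1S (he0 _ h2)
          rwa [SemilinearAut.deg_smul] at this
        · exact hdeg Q hQS (he0 Q h1)
      have hdeg2 : (g⁻¹ • Q).deg = 1 := by rw [SemilinearAut.deg_smul]; exact hdeg1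
      have := hAA Q hQS _ hQ1S hth hth1 hdeg1 hdeg2 hloc hloc1
      rw [← this]

/-- The first difference of `Φ` has the orders of the first difference of `f`, divided by `m`, at the places through
`𝔫`. -/
theorem s59x_ord_fd_Phi (O : Subring 𝓕) (S : Set (Place L₀ 𝓕)) (𝔫 : Ideal (s34x_ring O S))
    (g : SemilinearAut L₀ 𝓕) (f : 𝓕) (hf0 : f ≠ 0) (m : ℕ) (hm0 : m ≠ 0)
    (hdiv : ∀ Q : Place L₀ 𝓕, (m : ℤ) ∣ Q.ord f) (Φ : 𝓕) (hΦ0 : Φ ≠ 0)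
    (hΦ : ∀ Q ∈ S, s34f_through O S 𝔫 Q →
      (g⁻¹ • Q).ord f / (m : ℤ) - (g⁻¹ • Q).ord Φ = Q.ord f / (m : ℤ) - Q.ord Φ)
    (Q : Place L₀ 𝓕) (hQS : Q ∈ S) (hth : s34f_through O S 𝔫 Q) :
    Q.ord (s33u_fd g Φ) = s18_E (s33u_fd g f) m Q := by
  have hmZ : (m : ℤ) ≠ 0 := by exact_mod_cast hm0
  have h1 := hΦ Q hQS hth
  obtain ⟨a, ha⟩ := hdiv (g⁻¹ • Q)
  obtain ⟨b, hb⟩ := hdiv Q
  rw [s33u_ord_fd g Q hΦ0, s18_E, s33u_ord_fd g Q hf0, ha, hb, ← mul_sub,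
    Int.mul_ediv_cancel_left _ hmZ]
  rw [ha, hb, Int.mul_ediv_cancel_left _ hmZ, Int.mul_ediv_cancel_left _ hmZ] at h1
  omega

end Fermat.Agent.Lib.S59
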