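/-
Programme (R2) / [S35±] (helper2, prefix `s59b_`): **THE LOCAL GENERATOR OF `(1 + Ψ) D` AT A `Ψ`-FIXED NODE** (abstract,
S34 X″ vocabulary).

`Ψ` a semilinear automorphism which stabilises the chart ring `B`, the chart `S` and the prime `𝔫` (`s59x_StableW`, helper7's
`NXNodeGen.lean`) and SWAPS the two Gauss valuations (`Ψ = w_q ∘ σ₀`).  If EVERY place of degree one through `𝔫` has a local
equation (no "bad place": helper8's [NB]), then for `f` with `m ∣ div f` and rational zeros and poles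

* `s59b_exists_PhiAll` : a product `Φ` of local equations with `ord_Q Φ = ord_Q f / m` at EVERY place `Q ∈ S` through `𝔫`;
* `s59b_ord_upsilon`   : `υ := f · Ψ f / (Φ · Ψ Φ) ^ m` has order `0` at every place of `S` through `𝔫`;
* `s59b_balanced`      : for every `y ≠ 0` the function `y · Ψ y` is `π ^ n ·` (a unit of BOTH Gauss rings), same `n` on both
  sides (the vertical parts of `y` and `Ψ y` are exchanged);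
* `s59b_upsilon_unit`  : hence `υ · π ^ (-a)` is a unit of both Gauss rings for one `a`.

These are the local inputs `hloc` of helper8's (G6) `s44e_glob` for `f · Ψ f`.
-/
import Fermat.Agent.Lib.S59.NXNodeGen
import Fermat.Agent.Lib.S34.RTop

set_option autoImplicit false

noncomputable section

namespace Fermat.Agent.Lib.S59

open AlgebraicCurve Fermat.Agent.Lib.FF Fermat.Agent.Lib.S18 Fermat.Agent.Lib.S34
  Fermat.Agent.Lib.S33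

variable {L₀ 𝓕 : Type*} [Field L₀] [Field 𝓕] [Algebra L₀ 𝓕]

/-- **the product of ALL local equations**: if every place of degree one through `𝔫` has a local equation, the product `Φ`
of the local equations of the places through `𝔫` in the support of `f`, with exponents `ord f / m`, has
`ord_Q Φ = ord_Q f / m` at every place `Q ∈ S` through `𝔫`. -/
theorem s59b_exists_PhiAll (O : Subring 𝓕) (S : Set (Place L₀ 𝓕))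
    (F3 : ∀ y : 𝓕, y ≠ 0 → {Q : Place L₀ 𝓕 | Q ∈ S ∧ Q.ord y ≠ 0}.Finite)
    (𝔫 : Ideal (s34x_ring O S))
    (hLE : ∀ Q ∈ S, s34f_through O S 𝔫 Q → Q.deg = 1 → s34f_LocEq O S 𝔫 Q)
    (f : 𝓕) (hf0 : f ≠ 0) (m : ℕ)
    (hdeg : ∀ Q ∈ S, Q.ord f ≠ 0 → Q.deg = 1) :
    ∃ Φ : 𝓕, Φ ≠ 0 ∧ ∀ Q ∈ S, s34f_through O S 𝔫 Q → Q.ord Φ = Q.ord f / (m : ℤ) := by
  classical
  set e : Place L₀ 𝓕 → ℤ := fun P => P.ord f / (m : ℤ) with he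
  have he0 : ∀ P : Place L₀ 𝓕, e P ≠ 0 → P.ord f ≠ 0 := by
    intro P hP h0
    apply hP
    rw [he]
    show P.ord f / (m : ℤ) = 0
    rw [h0, Int.zero_ediv]
  have hfinf := F3 f hf0
  set T : Finset (Place L₀ 𝓕) := hfinf.toFinset.filter fun P =>
    s34f_through O S 𝔫 P ∧ s34f_LocEq O S 𝔫 P with hT
  have hTmem : ∀ P, P ∈ T ↔ (P ∈ S ∧ P.ord f ≠ 0) ∧
      s34f_through O S 𝔫 P ∧ s34f_LocEq O S 𝔫 P := by
    intro P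
    rw [hT, Finset.mem_filter, Set.Finite.mem_toFinset]
    rfl
  have hchoose : ∀ P : Place L₀ 𝓕, ∃ φ : 𝓕, P ∈ T → (φ ≠ 0 ∧ P.ord φ = 1 ∧
      ∀ Q' ∈ S, Q' ≠ P → s34f_through O S 𝔫 Q' → Q'.ord φ = 0) := by
    intro P
    by_cases hP : P ∈ T
    · obtain ⟨φ, h1, h2, h3⟩ := ((hTmem P).mp hP).2.2
      exact ⟨φ, fun _ => ⟨h1, h2, h3⟩⟩
    · exact ⟨0, fun h => absurd h hP⟩
  choose φ hφ using hchoose
  have hφ0 : ∀ P ∈ T, φ P ≠ 0 := fun P hP => (hφ P hP).1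
  set Φ : 𝓕 := ∏ P ∈ T, φ P ^ e P with hΦ
  have hΦ0 : Φ ≠ 0 := Finset.prod_ne_zero_iff.mpr fun P hP => zpow_ne_zero _ (hφ0 P hP)
  refine ⟨Φ, hΦ0, ?_⟩
  intro Q hQS hth
  rw [hΦ, s18i_ord_prod_zpow Q T φ e hφ0]
  by_cases hQT : Q ∈ T
  · rw [Finset.sum_eq_single_of_mem Q hQT, (hφ Q hQT).2.1, mul_one]
    intro P hP hne
    rw [(hφ P hP).2.2 Q hQS (Ne.symm hne) hth, mul_zero]
  · have h0 : ∑ P ∈ T, e P * Q.ord (φ P) = 0 := by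
      refine Finset.sum_eq_zero fun P hP => ?_
      have hne : Q ≠ P := fun h => hQT (h ▸ hP)
      rw [(hφ P hP).2.2 Q hQS hne hth, mul_zero]
    rw [h0]
    by_contra hne
    have hne' : e Q ≠ 0 := fun h => hne h.symm
    have hf' : Q.ord f ≠ 0 := he0 Q hne'
    exact hQT ((hTmem Q).mpr ⟨⟨hQS, hf'⟩, hth, hLE Q hQS hth (hdeg Q hQS hf')⟩)

/-- **the local quotient has no zero or pole through `𝔫`.** -/
theorem s59b_ord_upsilon (O : Subring 𝓕) (S : Set (Place L₀ 𝓕)) (𝔫 : Ideal (s34x_ring O S))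
    (Ψ : SemilinearAut L₀ 𝓕) (hst : s59x_StableW O S 𝔫 Ψ)
    (f : 𝓕) (hf0 : f ≠ 0) (m : ℕ) (hm0 : m ≠ 0)
    (hdiv : ∀ Q : Place L₀ 𝓕, (m : ℤ) ∣ Q.ord f) (Φ : 𝓕) (hΦ0 : Φ ≠ 0)
    (hΦ : ∀ Q ∈ S, s34f_through O S 𝔫 Q → Q.ord Φ = Q.ord f / (m : ℤ))
    (Q : Place L₀ 𝓕) (hQS : Q ∈ S) (hth : s34f_through O S 𝔫 Q) :
    Q.ord (f * Ψ • f * ((Φ * Ψ • Φ) ^ m)⁻¹) = 0 := by
  have hmZ : (m : ℤ) ≠ 0 := by exact_mod_cast hm0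
  have hΨf : Ψ • f ≠ 0 := s34r_smul_ne_zero Ψ hf0
  have hΨΦ : Ψ • Φ ≠ 0 := s34r_smul_ne_zero Ψ hΦ0
  have hQ1S : Ψ⁻¹ • Q ∈ S := (hst.inv.chart Q).mp hQS
  have hth1 : s34f_through O S 𝔫 (Ψ⁻¹ • Q) := hst.inv.through_smul hth
  have h1 := hΦ Q hQS hth
  have h2 := hΦ _ hQ1S hth1
  obtain ⟨a, ha⟩ := hdiv Q
  obtain ⟨b, hb⟩ := hdiv (Ψ⁻¹ • Q)
  rw [ha, Int.mul_ediv_cancel_left _ hmZ] at h1
  rw [hb, Int.mul_ediv_cancel_left _ hmZ] at h2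
  have hg0 : Φ * Ψ • Φ ≠ 0 := mul_ne_zero hΦ0 hΨΦ
  rw [Q.ord_mul (mul_ne_zero hf0 hΨf) (inv_ne_zero (pow_ne_zero m hg0)), Q.ord_mul hf0 hΨf,
    Q.ord_inv, ← zpow_natCast, Q.ord_zpow, Q.ord_mul hΦ0 hΨΦ, s34r_ord_smul Ψ Q f,
    s34r_ord_smul Ψ Q Φ, h1, h2, ha, hb]
  ring

section Balanced

variable (O : Bool → ValuationSubring 𝓕) (π : 𝓕)

omit O in
/-- the two expressions of `y · Ψ y · π ^ (-(a + b))` for `y = π ^ a u = π ^ b v`, `Ψ π = π ū`. -/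
theorem s59b_balanced_eq (hπ0 : π ≠ 0) (Ψ : SemilinearAut L₀ 𝓕) (ū : 𝓕) (hΨπ : Ψ • π = π * ū)
    (y u v : 𝓕) (a b : ℤ) (eu : y = π ^ a * u) (ev : y = π ^ b * v) :
    y * Ψ • y * π ^ (-(a + b)) = u * (ū ^ b * Ψ • v) ∧
      y * Ψ • y * π ^ (-(a + b)) = v * (ū ^ a * Ψ • u) := by
  have hΨpow : ∀ n : ℤ, Ψ • (π ^ n) = π ^ n * ū ^ n := by
    intro n
    have h1 : Ψ • (π ^ n) = (Ψ • π) ^ n :=
      map_zpow₀ (MulSemiringAction.toRingHom (SemilinearAut L₀ 𝓕) 𝓕 Ψ) π n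
    rw [h1, hΨπ, mul_zpow]
  have e1 : Ψ • y = π ^ b * (ū ^ b * Ψ • v) := by
    conv_lhs => rw [ev]
    rw [smul_mul', hΨpow]
    ring
  have e2 : Ψ • y = π ^ a * (ū ^ a * Ψ • u) := by
    conv_lhs => rw [eu]
    rw [smul_mul', hΨpow]
    ring
  have hπa : π ^ a ≠ 0 := zpow_ne_zero _ hπ0
  have hπb : π ^ b ≠ 0 := zpow_ne_zero _ hπ0
  constructor
  · conv_lhs => rw [e1]
    conv_lhs => rw [eu]
    rw [neg_add, zpow_add₀ hπ0, zpow_neg, zpow_neg]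
    field_simp
  · conv_lhs => rw [e2]
    conv_lhs => rw [ev]
    rw [neg_add, zpow_add₀ hπ0, zpow_neg, zpow_neg]
    field_simp

/-- a quotient `F / g ^ m` of two functions which are `π ^ n ·` (a unit of both Gauss rings) is of the same shape. -/
theorem s59b_quot_unit (hπ0 : π ≠ 0) (F g : 𝓕) (m : ℕ) (n₁ n₂ : ℤ)
    (h₁ : ∀ i, F * π ^ (-n₁) ∈ O i ∧ (F * π ^ (-n₁))⁻¹ ∈ O i)
    (h₂ : ∀ i, g * π ^ (-n₂) ∈ O i ∧ (g * π ^ (-n₂))⁻¹ ∈ O i) (i : Bool) :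
    F * (g ^ m)⁻¹ * π ^ (-(n₁ - m * n₂)) ∈ O i ∧ (F * (g ^ m)⁻¹ * π ^ (-(n₁ - m * n₂)))⁻¹ ∈ O i := by
  have hπ2 : π ^ n₂ ≠ 0 := zpow_ne_zero _ hπ0
  have e : F * (g ^ m)⁻¹ * π ^ (-(n₁ - m * n₂)) = (F * π ^ (-n₁)) * ((g * π ^ (-n₂))⁻¹) ^ m := by
    have h3 : π ^ (-(n₁ - (m : ℤ) * n₂)) = π ^ (-n₁) * (π ^ n₂) ^ m := by
      rw [← zpow_natCast (π ^ n₂) m, ← zpow_mul, ← zpow_add₀ hπ0]
      congr 1
      ring
    have h4 : ((g * π ^ (-n₂))⁻¹) ^ m = (g ^ m)⁻¹ * (π ^ n₂) ^ m := by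
      rw [zpow_neg, mul_inv, inv_inv, mul_pow, inv_pow]
    rw [h3, h4]
    ring
  rw [e]
  refine ⟨(O i).mul_mem _ _ (h₁ i).1 ((O i).pow_mem (h₂ i).2 m), ?_⟩
  rw [mul_inv, ← inv_pow, inv_inv]
  exact (O i).mul_mem _ _ (h₁ i).2 ((O i).pow_mem (h₂ i).1 m)

/-- **`Ψ π / π` is a unit of both Gauss rings** (because `Ψ` is an automorphism swapping them). -/
theorem s59b_unif_unit (hπ0 : π ≠ 0) (hπO : ∀ i, π ∈ O i) (hπnu : ∀ i, π⁻¹ ∉ O i)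
    (hUi : ∀ i, ∀ U : 𝓕, U ≠ 0 → ∃ (n : ℤ) (u : 𝓕), u ∈ O i ∧ u⁻¹ ∈ O i ∧ U = π ^ n * u)
    (Ψ : SemilinearAut L₀ 𝓕)
    (hswap : ∀ (i : Bool) (y : 𝓕), y ∈ O i ↔ Ψ • y ∈ O (!i))
    (ū : 𝓕) (hΨπ : Ψ • π = π * ū) (i : Bool) : ū⁻¹ ∈ O i := by
  set j : Bool := !i with hj
  have hji : (!j) = i := by rw [hj, Bool.not_not]
  set y : 𝓕 := Ψ⁻¹ • π with hy
  have hΨy : Ψ • y = π := by rw [hy, smul_inv_smul]
  have hy0 : y ≠ 0 := s34r_smul_ne_zero Ψ⁻¹ hπ0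
  obtain ⟨n, u, hu, hu', e⟩ := hUi j y hy0
  -- `n ≥ 1`
  have hn : 1 ≤ n := by
    by_contra hlt
    push Not at hlt
    have hyinv : y⁻¹ ∈ O j := by
      have e' : y⁻¹ = π ^ (-n).toNat * u⁻¹ := by
        rw [e, mul_inv, ← zpow_neg, ← zpow_natCast]
        congr 2
        omega
      rw [e']
      exact (O j).mul_mem _ _ ((O j).pow_mem (hπO j) _) hu'
    have := (hswap j y⁻¹).mp hyinv
    rw [smul_inv'', hΨy, hji] at this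
    exact hπnu i this
  -- `y = π z`
  set z : 𝓕 := π ^ (n - 1).toNat * u with hz
  have hzO : z ∈ O j := (O j).mul_mem _ _ ((O j).pow_mem (hπO j) _) hu
  have eyz : y = π * z := by
    rw [e, hz, ← mul_assoc, ← zpow_natCast, ← zpow_one_add₀ hπ0]
    congr 2
    omega
  have hΨz : Ψ • z ∈ O i := by
    have := (hswap j z).mp hzO
    rwa [hji] at this
  have h1 : π = π * ū * Ψ • z := by
    conv_lhs => rw [← hΨy, eyz, smul_mul', hΨπ]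
  have h2 : ū * Ψ • z = 1 := by
    have h3 : π * (ū * Ψ • z) = π * 1 := by rw [mul_one, ← mul_assoc]; exact h1.symm
    exact mul_left_cancel₀ hπ0 h3
  have h4 : ū⁻¹ = Ψ • z := by
    rw [eq_comm, ← mul_eq_one_iff_eq_inv₀]
    · rw [mul_comm]; exact h2
    · intro h0
      rw [h0, zero_mul] at h2
      exact zero_ne_one h2
  rw [h4]
  exact hΨz

/-- `y · Ψ y · π ^ (-(a + b))` is a unit of both Gauss rings, for `y = π ^ a u = π ^ b v`. -/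
theorem s59b_balanced_of (hπ0 : π ≠ 0) (Ψ : SemilinearAut L₀ 𝓕)
    (hswap : ∀ (i : Bool) (y : 𝓕), y ∈ O i ↔ Ψ • y ∈ O (!i))
    (ū : 𝓕) (hū : ∀ i, ū ∈ O i ∧ ū⁻¹ ∈ O i) (hΨπ : Ψ • π = π * ū)
    (y u v : 𝓕) (a b : ℤ) (hu : u ∈ O true) (hu' : u⁻¹ ∈ O true) (hv : v ∈ O false)
    (hv' : v⁻¹ ∈ O false) (eu : y = π ^ a * u) (ev : y = π ^ b * v) (i : Bool) :
    y * Ψ • y * π ^ (-(a + b)) ∈ O i ∧ (y * Ψ • y * π ^ (-(a + b)))⁻¹ ∈ O i := by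
  obtain ⟨e1, e2⟩ := s59b_balanced_eq π hπ0 Ψ ū hΨπ y u v a b eu ev
  have hūpow : ∀ (i : Bool) (n : ℤ), ū ^ n ∈ O i ∧ (ū ^ n)⁻¹ ∈ O i := by
    intro i n
    rcases Int.eq_nat_or_neg n with ⟨k, rfl | rfl⟩
    · rw [zpow_natCast, ← inv_pow]
      exact ⟨(O i).pow_mem (hū i).1 k, (O i).pow_mem (hū i).2 k⟩
    · rw [zpow_neg, zpow_natCast, inv_inv, ← inv_pow]
      exact ⟨(O i).pow_mem (hū i).2 k, (O i).pow_mem (hū i).1 k⟩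
  have hΨv : Ψ • v ∈ O true ∧ (Ψ • v)⁻¹ ∈ O true := by
    refine ⟨(hswap false v).mp hv, ?_⟩
    have := (hswap false v⁻¹).mp hv'
    rwa [smul_inv''] at this
  have hΨu : Ψ • u ∈ O false ∧ (Ψ • u)⁻¹ ∈ O false := by
    refine ⟨(hswap true u).mp hu, ?_⟩
    have := (hswap true u⁻¹).mp hu'
    rwa [smul_inv''] at this
  cases i
  · rw [e2]
    refine ⟨(O false).mul_mem _ _ hv ((O false).mul_mem _ _ (hūpow false a).1 hΨu.1), ?_⟩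
    rw [mul_inv, mul_inv]
    exact (O false).mul_mem _ _ hv' ((O false).mul_mem _ _ (hūpow false a).2 hΨu.2)
  · rw [e1]
    refine ⟨(O true).mul_mem _ _ hu ((O true).mul_mem _ _ (hūpow true b).1 hΨv.1), ?_⟩
    rw [mul_inv, mul_inv]
    exact (O true).mul_mem _ _ hu' ((O true).mul_mem _ _ (hūpow true b).2 hΨv.2)

/-- **the vertical parts are exchanged**: `y · Ψ y = π ^ n ·` (a unit of both Gauss rings). -/
theorem s59b_balanced (hπ0 : π ≠ 0)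
    (hUi : ∀ i, ∀ U : 𝓕, U ≠ 0 → ∃ (n : ℤ) (u : 𝓕), u ∈ O i ∧ u⁻¹ ∈ O i ∧ U = π ^ n * u)
    (Ψ : SemilinearAut L₀ 𝓕)
    (hswap : ∀ (i : Bool) (y : 𝓕), y ∈ O i ↔ Ψ • y ∈ O (!i))
    (ū : 𝓕) (hū : ∀ i, ū ∈ O i ∧ ū⁻¹ ∈ O i) (hΨπ : Ψ • π = π * ū)
    (y : 𝓕) (hy : y ≠ 0) :
    ∃ n : ℤ, ∀ i, y * Ψ • y * π ^ (-n) ∈ O i ∧ (y * Ψ • y * π ^ (-n))⁻¹ ∈ O i := by
  obtain ⟨a, u, hu, hu', eu⟩ := hUi true y hy
  obtain ⟨b, v, hv, hv', ev⟩ := hUi false y hy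
  exact ⟨a + b, fun i =>
    s59b_balanced_of O π hπ0 Ψ hswap ū hū hΨπ y u v a b hu hu' hv hv' eu ev i⟩

/-- **the local quotient is `π ^ a ·` (a unit of both Gauss rings).** -/
theorem s59b_upsilon_unit (hπ0 : π ≠ 0)
    (hUi : ∀ i, ∀ U : 𝓕, U ≠ 0 → ∃ (n : ℤ) (u : 𝓕), u ∈ O i ∧ u⁻¹ ∈ O i ∧ U = π ^ n * u)
    (Ψ : SemilinearAut L₀ 𝓕)
    (hswap : ∀ (i : Bool) (y : 𝓕), y ∈ O i ↔ Ψ • y ∈ O (!i))
    (ū : 𝓕) (hū : ∀ i, ū ∈ O i ∧ ū⁻¹ ∈ O i) (hΨπ : Ψ • π = π * ū)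
    (f Φ : 𝓕) (hf : f ≠ 0) (hΦ : Φ ≠ 0) (m : ℕ) :
    ∃ a : ℤ, ∀ i, f * Ψ • f * ((Φ * Ψ • Φ) ^ m)⁻¹ * π ^ (-a) ∈ O i ∧
      (f * Ψ • f * ((Φ * Ψ • Φ) ^ m)⁻¹ * π ^ (-a))⁻¹ ∈ O i := by
  obtain ⟨n₁, h₁⟩ := s59b_balanced O π hπ0 hUi Ψ hswap ū hū hΨπ f hf
  obtain ⟨n₂, h₂⟩ := s59b_balanced O π hπ0 hUi Ψ hswap ū hū hΨπ Φ hΦ
  exact ⟨n₁ - m * n₂, fun i => s59b_quot_unit O π hπ0 _ _ m n₁ n₂ h₁ h₂ i⟩

end Balanced

end Fermat.Agent.Lib.S59
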