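/-
Programme (R2) / [S35±] (helper2, prefix `s59b_`): **"NEW ⟹ `(1 + w_q σ)`-TORIC" OVER A NUMBER FIELD WITH A GAUSS DATUM**
(the geometric half of the SIGNED NEW-WEIGHT `(σ + q w_q)(σ + w_q) = 0` on the `q`-new part of `J₀(M q)`).

`Ψ := w_q ∘ σ₀` (helper7's `s59n_gPsi`), `σ₀` a Frobenius lift at the place over `q`; `f₀ ∈ 𝓕_{K₀}(M q)` with `m ∣ div f₀`,
rational zeros and poles on the chart `S`, and norms along `α`, `β` of the form `c · h ^ m` (i.e. the class of `div f₀ / m`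
is `q`-new).  Then the Kummer function `f₀ · Ψ f₀` of `(1 + w_q σ) z` is

  `f₀ · Ψ f₀ = G ^ m · (ϖ ^ e · h)`,

`h` a unit of both Gauss rings, of order `0` at all node places of the chart, with both reductions of the form `c · a ^ m`,
`a ∈ F̄_M` (= the function of `s59n_ToricN`).

Inputs: helper8's (G6) `s44e_glob_modular` (local ⇒ global at the nodes), the local generators `Φ · Ψ Φ` of `B7Abs.lean`
(hypotheses: [NB] every rational place through a node has a local equation; [Ψ-FIXED] `Ψ` stabilises every node), my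
`s35nm_reduced_relations` (main) and helper7's `s59n_Psi_red_i/_z`.
-/
import Fermat.Agent.Lib.S59.B7Abs
import Fermat.Agent.Lib.S59.NFrob
import Fermat.Agent.Lib.S44.EGlobInst
import Fermat.Agent.Lib.S35.NormUnit
import Fermat.Agent.Lib.S35.MFrac

set_option autoImplicit false
set_option linter.style.haveILetI false
set_option linter.unusedSectionVars false
set_option synthInstance.maxHeartbeats 400000

noncomputable section

namespace Fermat.Agent.Lib.S59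

open ModularCurve AlgebraicCurve HahnSeries Polynomial Fermat.Agent.Lib.FF Fermat.Agent.Lib.S18
  Fermat.Agent.Lib.S34 Fermat.Agent.Lib.S37 Fermat.Agent.Lib.S33 Fermat.Agent.Lib.S35
  Fermat.Agent.Lib.S44

local notation "Kb" => AlgebraicClosure ℚ

section Core

variable {K₀ : Type} [Field K₀] [CharZero K₀] [Algebra ℚ K₀] {κ : Type} [Field κ]
  (G : s18g_GaussData K₀ κ) (φ : K₀ →+* Kb) (M q : ℕ) [NeZero M] [hq : Fact q.Prime]
  (hqM : ¬ q ∣ M) [CharP κ q] [PerfectField κ]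
  (σ₀ : K₀ ≃ₐ[ℚ] K₀) (hσA : ∀ a : K₀, a ∈ G.A → (σ₀ : K₀ ≃+* K₀) a ∈ G.A)
  (hσA' : ∀ a : K₀, a ∈ G.A → (σ₀.symm : K₀ ≃+* K₀) a ∈ G.A)
  (hσπ : ∀ a : G.A, G.π (s34m_sigmaA G (σ₀ : K₀ ≃+* K₀) hσA a) = G.π a ^ q)

include hσπ in
/-- `Ψ` exchanges the two reductions (relational form), `0 → ∞`. -/
theorem s59b_RedV_Psi_i {y : s34m_F K₀ (M * q)} {s : LaurentSeries κ}
    (hy : haveI : NeZero q := ⟨hq.out.ne_zero⟩
      s35v_RedV G φ M q hq.out hqM false y s) :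
    haveI : NeZero q := ⟨hq.out.ne_zero⟩
    s35v_RedV G φ M q hq.out hqM true (s59n_gPsi φ M q hq.out hqM σ₀ • y)
      (coeffMap (frobenius κ q) s) := by
  haveI : NeZero q := ⟨hq.out.ne_zero⟩
  haveI : PerfectRing κ q := PerfectField.toPerfectRing q
  obtain ⟨h, e⟩ := hy
  rw [← s59n_Psi_eq_smul]
  refine ⟨s59n_Psi_mem_i G φ M q hqM σ₀ hσA hσπ y h, ?_⟩
  rw [← e]
  exact s59n_Psi_red_i G φ M q hqM σ₀ hσA hσπ y h

include hσπ in
/-- `Ψ` exchanges the two reductions (relational form), `∞ → 0`. -/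
theorem s59b_RedV_Psi_z {y : s34m_F K₀ (M * q)} {s : LaurentSeries κ}
    (hy : haveI : NeZero q := ⟨hq.out.ne_zero⟩
      s35v_RedV G φ M q hq.out hqM true y s) :
    haveI : NeZero q := ⟨hq.out.ne_zero⟩
    s35v_RedV G φ M q hq.out hqM false (s59n_gPsi φ M q hq.out hqM σ₀ • y)
      (coeffMap (frobenius κ q) s) := by
  haveI : NeZero q := ⟨hq.out.ne_zero⟩
  haveI : PerfectRing κ q := PerfectField.toPerfectRing q
  obtain ⟨h, e⟩ := hy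
  rw [← s59n_Psi_eq_smul]
  refine ⟨s59n_Psi_mem_z G φ M q hqM σ₀ hσA hσπ y h, ?_⟩
  rw [← e]
  exact s59n_Psi_red_z G φ M q hqM σ₀ hσA hσπ y h

include hσπ in
/-- `Ψ ϖ = ϖ · ū`, `ū` the image of a constant `u_c ∈ A`. -/
theorem s59b_Psi_unif_const :
    ∃ uc : G.A, s59n_gPsi φ M q hq.out hqM σ₀ • s34m_unif G (M * q) =
      s34m_unif G (M * q) * algebraMap K₀ (s34m_F K₀ (M * q)) (uc : K₀) := by
  have h0 : G.π (s34m_sigmaA G (σ₀ : K₀ ≃+* K₀) hσA G.ϖ) = 0 := by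
    rw [hσπ, s18g_pi_unif, zero_pow hq.out.ne_zero]
  obtain ⟨u, hu⟩ := (G.π_eq_zero_iff _).mp h0
  refine ⟨u, ?_⟩
  rw [← s59n_Psi_eq_smul, s59n_Psi_apply, s34m_unif, arithmeticRingAut_algebraMap,
    AlgEquiv.commutes, ← map_mul]
  congr 1
  have := congrArg (fun a : G.A => (a : K₀)) hu
  exact this

variable (hdeg : s34m_HDeg K₀ M q) (hT : s18g_HT κ M) (hdegM : s18g_HDeg K₀ M)
  (S : Set (Place K₀ (s34m_F K₀ (M * q))))

include hσA' hσπ hdeg hT hdegM in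
set_option maxHeartbeats 3200000 in
/-- **"new ⟹ `(1 + w_q σ)`-toric" over `K₀`.** -/
theorem s59b_newtoric_core
    [Finite (s33s_Node (s34m_VV G φ M q hq.out hqM) (s34m_unif G (M * q)) S)]
    (hnode : ∃ 𝔫, s33s_IsNode (s34m_VV G φ M q hq.out hqM) (s34m_unif G (M * q)) S 𝔫)
    (hLE : ∀ 𝔫, s33s_IsNode (s34m_VV G φ M q hq.out hqM) (s34m_unif G (M * q)) S 𝔫 →
      ∀ Q ∈ S, s34f_through (s34x_infRing (s34m_VV G φ M q hq.out hqM)) S 𝔫 Q → Q.deg = 1 →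
        s34f_LocEq (s34x_infRing (s34m_VV G φ M q hq.out hqM)) S 𝔫 Q)
    (hΨfix : ∀ 𝔫, s33s_IsNode (s34m_VV G φ M q hq.out hqM) (s34m_unif G (M * q)) S 𝔫 →
      s59x_StableW (s34x_infRing (s34m_VV G φ M q hq.out hqM)) S 𝔫
        (s59n_gPsi φ M q hq.out hqM σ₀))
    (ζ : K₀ˣ) (hζ : IsPrimitiveRoot (ζ : K₀) q)
    (m : ℕ) (hm0 : m ≠ 0) (f₀ : s34m_F K₀ (M * q)) (hf₀ : f₀ ≠ 0)
    (hdiv : ∀ Q : Place K₀ (s34m_F K₀ (M * q)), (m : ℤ) ∣ Q.ord f₀)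
    (hrat : ∀ Q ∈ S, Q.ord f₀ ≠ 0 → Q.deg = 1)
    (hnα : ∃ (c : K₀) (h : s34m_F K₀ M),
      s35r_normAlong (heckeAlphaBar K₀ M q) f₀ = algebraMap K₀ _ c * h ^ m)
    (hnβ : ∃ (c : K₀) (h : s34m_F K₀ M),
      s35r_normAlong (heckeBetaBar K₀ M q) f₀ = algebraMap K₀ _ c * h ^ m) :
    ∃ (Gg h : s34m_F K₀ (M * q)) (e : ℤ), Gg ≠ 0 ∧
      f₀ * s59n_gPsi φ M q hq.out hqM σ₀ • f₀ = Gg ^ m * (s34m_unif G (M * q) ^ e * h) ∧
      ∃ (hI : h ∈ s34m_Vinf G (M * q)) (hZ : h ∈ s34m_Vzero G φ M q hq.out hqM),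
        h⁻¹ ∈ s34m_Vinf G (M * q) ∧ h⁻¹ ∈ s34m_Vzero G φ M q hq.out hqM ∧
        (∀ Q ∈ s33s_nodePlaces (s34m_VV G φ M q hq.out hqM) (s34m_unif G (M * q)) S,
          Q.ord h = 0) ∧
        (∃ (c : κ) (a₀ : LaurentSeries κ), c ≠ 0 ∧ a₀ ∈ modularFunctionFieldFullC κ M ∧
          s34m_redInf G (M * q) ⟨h, hI⟩ = HahnSeries.C c * a₀ ^ m) ∧
        (∃ (c : κ) (a₀ : LaurentSeries κ), c ≠ 0 ∧ a₀ ∈ modularFunctionFieldFullC κ M ∧
          s34m_redZero G φ M q hq.out hqM ⟨h, hZ⟩ = HahnSeries.C c * a₀ ^ m) := by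
  classical
  haveI : NeZero q := ⟨hq.out.ne_zero⟩
  haveI : PerfectRing κ q := PerfectField.toPerfectRing q
  set Ψ : SemilinearAut K₀ (s34m_F K₀ (M * q)) := s59n_gPsi φ M q hq.out hqM σ₀ with hΨdef
  set π : s34m_F K₀ (M * q) := s34m_unif G (M * q) with hπdef
  have hπ0 : π ≠ 0 := s34m_unif_ne_zero G (M * q)
  have hπO : ∀ i, π ∈ s34m_VV G φ M q hq.out hqM i := s34m_unif_mem_VV G φ M q hq.out hqM
  have hπnu : ∀ i, π⁻¹ ∉ s34m_VV G φ M q hq.out hqM i := s44e_unif_inv_not_mem G φ M q hqM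
  have hUi : ∀ i, ∀ U : s34m_F K₀ (M * q), U ≠ 0 → ∃ (n : ℤ) (u : s34m_F K₀ (M * q)),
      u ∈ s34m_VV G φ M q hq.out hqM i ∧ u⁻¹ ∈ s34m_VV G φ M q hq.out hqM i ∧ U = π ^ n * u :=
    fun i U hU => s34m_exists_zpow_VV G φ M q hq.out hqM i U hU
  have hswap : ∀ (i : Bool) (y : s34m_F K₀ (M * q)),
      y ∈ s34m_VV G φ M q hq.out hqM i ↔ Ψ • y ∈ s34m_VV G φ M q hq.out hqM (!i) :=
    s59n_Psi_swap G φ M q hqM σ₀ hσA hσA' hσπ
  have hfin : ∀ y : s34m_F K₀ (M * q), y ≠ 0 →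
      {Q : Place K₀ (s34m_F K₀ (M * q)) | Q ∈ S ∧ Q.ord y ≠ 0}.Finite :=
    s33s_inst_hfin φ M q S
  -- the constant `ū`
  obtain ⟨uc, hΨπ⟩ := s59b_Psi_unif_const G φ M q hqM σ₀ hσA hσπ
  set ū : s34m_F K₀ (M * q) := algebraMap K₀ (s34m_F K₀ (M * q)) (uc : K₀) with hūdef
  have hūO : ∀ i, ū ∈ s34m_VV G φ M q hq.out hqM i :=
    fun i => s34c_const_mem_VV G φ M q hq.out hqM i uc
  have hū : ∀ i, ū ∈ s34m_VV G φ M q hq.out hqM i ∧ ū⁻¹ ∈ s34m_VV G φ M q hq.out hqM i :=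
    fun i => ⟨hūO i, s59b_unif_unit (s34m_VV G φ M q hq.out hqM) π hπ0 hπO hπnu hUi Ψ hswap ū hΨπ i⟩
  have hū0 : ū ≠ 0 := by
    intro h0
    have h1 : Ψ • π = 0 := by rw [hΨπ, h0, mul_zero]
    exact s34r_smul_ne_zero Ψ hπ0 h1
  have hūred : ∀ i, s35v_RedV G φ M q hq.out hqM i ū (HahnSeries.C (G.π uc)) :=
    fun i => s35v_RedV_const G φ M q hq.out hqM i uc
  have hcū : G.π uc ≠ 0 := by
    have := (hūred true).ne_zero hū0 (hū true).2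
    intro h0
    apply this
    rw [h0, map_zero]
  have hCcū : (HahnSeries.C (G.π uc) : LaurentSeries κ) ≠ 0 := by
    intro h0
    apply hcū
    have := congrArg (fun x : LaurentSeries κ => x.coeff 0) h0
    simpa using this
  -- the decomposition of `f₀`
  obtain ⟨a, u, hu, hu', eu⟩ := hUi true f₀ hf₀
  obtain ⟨b, v, hv, hv', ev⟩ := hUi false f₀ hf₀
  have hΨf₀ : Ψ • f₀ ≠ 0 := s34r_smul_ne_zero Ψ hf₀
  set F₁ : s34m_F K₀ (M * q) := f₀ * Ψ • f₀ with hF₁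
  have hF₁0 : F₁ ≠ 0 := mul_ne_zero hf₀ hΨf₀
  have hbal : ∀ i, F₁ * π ^ (-(a + b)) ∈ s34m_VV G φ M q hq.out hqM i ∧
      (F₁ * π ^ (-(a + b)))⁻¹ ∈ s34m_VV G φ M q hq.out hqM i := fun i =>
    s59b_balanced_of (s34m_VV G φ M q hq.out hqM) π hπ0 Ψ hswap ū hū hΨπ f₀ u v a b hu hu' hv hv'
      eu ev i
  obtain ⟨eF1, eF2⟩ := s59b_balanced_eq π hπ0 Ψ ū hΨπ f₀ u v a b eu ev
  -- the local data at the nodes
  have hloc : ∀ s : s33s_Node (s34m_VV G φ M q hq.out hqM) (s34m_unif G (M * q)) S,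
      ∃ (g υ : s34m_F K₀ (M * q)) (a' : ℤ), F₁ = g ^ m * υ ∧
        (∀ i, υ * s34m_unif G (M * q) ^ (-a') ∈ s34m_VV G φ M q hq.out hqM i ∧
          (υ * s34m_unif G (M * q) ^ (-a'))⁻¹ ∈ s34m_VV G φ M q hq.out hqM i) ∧
        ∀ Q ∈ S, s34f_through (s34x_infRing (s34m_VV G φ M q hq.out hqM)) S s.1 Q →
          Q.ord υ = 0 := by
    intro s
    obtain ⟨Φ, hΦ0, hΦ⟩ := s59b_exists_PhiAll (s34x_infRing (s34m_VV G φ M q hq.out hqM)) S hfin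
      s.1 (hLE s.1 s.2) f₀ hf₀ m hrat
    have hΨΦ : Ψ • Φ ≠ 0 := s34r_smul_ne_zero Ψ hΦ0
    have hg0 : Φ * Ψ • Φ ≠ 0 := mul_ne_zero hΦ0 hΨΦ
    obtain ⟨n₂, h₂⟩ := s59b_balanced (s34m_VV G φ M q hq.out hqM) π hπ0 hUi Ψ hswap ū hū hΨπ Φ hΦ0
    refine ⟨Φ * Ψ • Φ, F₁ * ((Φ * Ψ • Φ) ^ m)⁻¹, (a + b) - m * n₂, ?_, ?_, ?_⟩
    · rw [mul_comm F₁ ((Φ * Ψ • Φ) ^ m)⁻¹, mul_inv_cancel_left₀ (pow_ne_zero m hg0)]
    · exact fun i => s59b_quot_unit (s34m_VV G φ M q hq.out hqM) π hπ0 F₁ (Φ * Ψ • Φ) m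
        (a + b) n₂ hbal h₂ i
    · intro Q hQS hth
      exact s59b_ord_upsilon (s34x_infRing (s34m_VV G φ M q hq.out hqM)) S s.1 Ψ (hΨfix s.1 s.2)
        f₀ hf₀ m hm0 hdiv Φ hΦ0 hΦ Q hQS hth
  -- (G6)
  obtain ⟨Gg, h, e, hG0, eF, hO, hNF⟩ := s44e_glob_modular G φ M q hqM S hnode m hm0 F₁ hF₁0 hloc
  have eF' : F₁ = Gg ^ m * (π ^ e * h) := eF
  have hh0 : h ≠ 0 := by
    rintro rfl
    rw [mul_zero, mul_zero] at eF
    exact hF₁0 eF
  -- the reduced norm relations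
  obtain ⟨h₁, h₂, H, H', c, c', hH, hH', hH0, hH'0, hc0, hc'0, hA0, hB0, R1, R2⟩ :=
    s35nm_reduced_relations G φ M q hq.out hqM ζ hζ f₀ hf₀ m hm0 hnα hnβ a b u v hu hu' hv hv'
      eu ev
  have hHF : H ∈ modularFunctionFieldFullC κ M := by
    obtain ⟨hm', e'⟩ := hH
    rw [← e']
    exact s34df_redM_mem_fullC G M hT hdegM _
  have hH'F : H' ∈ modularFunctionFieldFullC κ M := by
    obtain ⟨hm', e'⟩ := hH'
    rw [← e']
    exact s34df_redM_mem_fullC G M hT hdegM _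
  -- the reductions of `F := F₁ π ^ (-(a + b))`
  have hRu : s35v_RedV G φ M q hq.out hqM true u (s34m_redInf G (M * q) ⟨u, hu⟩) :=
    s35v_Red.of_mem hu
  have hRv : s35v_RedV G φ M q hq.out hqM false v (s34m_redZero G φ M q hq.out hqM ⟨v, hv⟩) :=
    s35v_Red.of_mem hv
  have hRF : ∀ i, ∃ (ci : κ) (Hi : LaurentSeries κ), ci ≠ 0 ∧ Hi ∈ modularFunctionFieldFullC κ M ∧
      s35v_RedV G φ M q hq.out hqM i (F₁ * π ^ (-(a + b))) (HahnSeries.C ci * Hi ^ m) := by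
    intro i
    cases i
    · -- the `0`-side
      refine ⟨c' * G.π uc ^ a, H', mul_ne_zero hc'0 (zpow_ne_zero _ hcū), hH'F, ?_⟩
      have h1 := hRv.mul (((hūred false).zpow (s35v_kerV G φ M q hq.out hqM false) hCcū a).mul
        (s59b_RedV_Psi_z G φ M q hqM σ₀ hσA hσπ hRu))
      refine h1.congr eF2.symm ?_
      rw [map_mul, map_zpow₀]
      rw [mul_comm (coeffMap (frobenius κ q) _)] at R2
      calc s34m_redZero G φ M q hq.out hqM ⟨v, hv⟩ * (HahnSeries.C (G.π uc) ^ a *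
            coeffMap (frobenius κ q) (s34m_redInf G (M * q) ⟨u, hu⟩))
          = (s34m_redZero G φ M q hq.out hqM ⟨v, hv⟩ *
              coeffMap (frobenius κ q) (s34m_redInf G (M * q) ⟨u, hu⟩)) *
              HahnSeries.C (G.π uc) ^ a := by ring
        _ = HahnSeries.C c' * H' ^ m * HahnSeries.C (G.π uc) ^ a := by rw [R2]
        _ = HahnSeries.C c' * HahnSeries.C (G.π uc) ^ a * H' ^ m := by ring
    · refine ⟨c * G.π uc ^ b, H, mul_ne_zero hc0 (zpow_ne_zero _ hcū), hHF, ?_⟩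
      have h1 := hRu.mul (((hūred true).zpow (s35v_kerV G φ M q hq.out hqM true) hCcū b).mul
        (s59b_RedV_Psi_i G φ M q hqM σ₀ hσA hσπ hRv))
      refine h1.congr eF1.symm ?_
      rw [map_mul, map_zpow₀]
      calc s34m_redInf G (M * q) ⟨u, hu⟩ * (HahnSeries.C (G.π uc) ^ b *
            coeffMap (frobenius κ q) (s34m_redZero G φ M q hq.out hqM ⟨v, hv⟩))
          = (s34m_redInf G (M * q) ⟨u, hu⟩ *
              coeffMap (frobenius κ q) (s34m_redZero G φ M q hq.out hqM ⟨v, hv⟩)) *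
              HahnSeries.C (G.π uc) ^ b := by ring
        _ = HahnSeries.C c * H ^ m * HahnSeries.C (G.π uc) ^ b := by rw [R1]
        _ = HahnSeries.C c * HahnSeries.C (G.π uc) ^ b * H ^ m := by ring
  -- the reductions of `h`
  have hRh : ∀ i, ∃ (ci : κ) (ai : LaurentSeries κ), ci ≠ 0 ∧ ai ∈ modularFunctionFieldFullC κ M ∧
      s35v_RedV G φ M q hq.out hqM i h (HahnSeries.C ci * ai ^ m) := by
    intro i
    obtain ⟨ci, Hi, hci, hHi, hRed⟩ := hRF i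
    obtain ⟨k, γ, hγ, hγ', eγ⟩ := hUi i Gg hG0
    have hγ0 : γ ≠ 0 := by
      rintro rfl
      rw [mul_zero] at eγ
      exact hG0 eγ
    -- the exponent vanishes
    have hπk : π ^ k ≠ 0 := zpow_ne_zero _ hπ0
    have hπe : π ^ e ≠ 0 := zpow_ne_zero _ hπ0
    have hπab : π ^ (a + b) ≠ 0 := zpow_ne_zero _ hπ0
    have hF0 : F₁ * π ^ (-(a + b)) ≠ 0 := mul_ne_zero hF₁0 (zpow_ne_zero _ hπ0)
    have hγm : γ ^ m ≠ 0 := pow_ne_zero m hγ0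
    have e1 : π ^ ((a + b) - m * k - e) = γ ^ m * h * (F₁ * π ^ (-(a + b)))⁻¹ := by
      have h3 : π ^ (a + b) = π ^ ((a + b) - (m : ℤ) * k - e) * (π ^ k) ^ m * π ^ e := by
        rw [← zpow_natCast (π ^ k) m, ← zpow_mul, ← zpow_add₀ hπ0, ← zpow_add₀ hπ0]
        congr 1
        ring
      have hX : π ^ ((a + b) - (m : ℤ) * k - e) ≠ 0 := zpow_ne_zero _ hπ0
      have hπkm : (π ^ k) ^ m ≠ 0 := pow_ne_zero m hπk
      rw [zpow_neg, mul_inv, inv_inv, h3, eF', eγ, mul_pow]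
      field_simp
    have hexp : (a + b) - m * k - e = 0 := by
      refine s44e_zpow_unit π (s34m_VV G φ M q hq.out hqM i) hπ0 (hπO i) (hπnu i) _ ?_ ?_
      · rw [e1]
        exact (s34m_VV G φ M q hq.out hqM i).mul_mem _ _
          ((s34m_VV G φ M q hq.out hqM i).mul_mem _ _ (pow_mem hγ m) (hO i).1) (hbal i).2
      · rw [e1, mul_inv, mul_inv, inv_inv, ← inv_pow]
        exact (s34m_VV G φ M q hq.out hqM i).mul_mem _ _
          ((s34m_VV G φ M q hq.out hqM i).mul_mem _ _ (pow_mem hγ' m) (hO i).2) (hbal i).1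
    have e2 : h = F₁ * π ^ (-(a + b)) * (γ⁻¹) ^ m := by
      rw [hexp, zpow_zero] at e1
      have h5 : F₁ * π ^ (-(a + b)) = γ ^ m * h := by
        have h6 := congrArg (· * (F₁ * π ^ (-(a + b)))) e1
        simp only [one_mul] at h6
        rw [h6, inv_mul_cancel_right₀ hF0]
      rw [h5, inv_pow, mul_comm (γ ^ m) h, mul_inv_cancel_right₀ hγm]
    have hRγ : s35v_RedV G φ M q hq.out hqM i γ⁻¹
        (s35m_redVV G φ M q hq.out hqM i ⟨γ⁻¹, hγ'⟩) := s35v_Red.of_mem hγ'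
    refine ⟨ci, Hi * s35m_redVV G φ M q hq.out hqM i ⟨γ⁻¹, hγ'⟩, hci,
      mul_mem hHi (s35m_redVV_mem_fullC G φ M q hq.out hqM hdeg hT hdegM i _), ?_⟩
    refine (hRed.mul (hRγ.pow m)).congr e2.symm ?_
    rw [mul_pow]
    ring
  obtain ⟨ci, ai, hci, hai, ⟨hI, ei⟩⟩ := hRh true
  obtain ⟨cz, az, hcz, haz, ⟨hZ, ez⟩⟩ := hRh false
  exact ⟨Gg, h, e, hG0, eF, hI, hZ, (hO true).2, (hO false).2, hNF, ⟨ci, ai, hci, hai, ei⟩,
    ⟨cz, az, hcz, haz, ez⟩⟩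

end Core

end Fermat.Agent.Lib.S59
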