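/-
S59 (helper2), package [NB]: NO BAD PLACES on a NORMAL chart.

* `s59b_bad_principal` : `R` a Noetherian NORMAL local domain over a DVR `A`, `𝔪_R = (u₀, w₀, ϖ)`,
  `u₀ w₀ ∈ ϖ R`; the kernel of a section `ev : R →ₐ[A] A` which is not good (`s34n_Good`) is
  PRINCIPAL.  (stage-`j` pairs in `ker ev` for all `j`, Krull's intersection theorem, and
  integrality of the root `ϖ A ξ / η` of `X² - X + ϖ² A B`.)
* `s59b_isIntegrallyClosed_loc` : local rings of a subring of a field which contains all elements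
  integral over it are normal.
* `s59b_locEq_all` : under the chart contract `s34f_ChartContract`, EVERY place of degree one
  through a maximal ideal `𝔫 ∋ ϖ` of the chart ring has a local equation (`s34f_LocEq`).
-/
import Fermat.Agent.Lib.S34.FAssembly

set_option autoImplicit false
set_option linter.style.haveILetI false
set_option linter.unusedSectionVars false

noncomputable section

namespace Fermat.Agent.Lib.S59

open IsLocalRing AlgebraicCurve Fermat.Agent.Lib.FF Fermat.Agent.Lib.S18 Fermat.Agent.Lib.S34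

theorem s59b_mem_of_forall_pow {R : Type*} [CommRing R] [IsLocalRing R] [IsNoetherianRing R]
    (I : Ideal R) (ϖ : R) (hϖ : ϖ ∈ maximalIdeal R) (x : R)
    (h : ∀ j : ℕ, ∃ y ∈ I, ∃ z, x = y + ϖ ^ j * z) : x ∈ I := by
  have hne : Ideal.span {ϖ} ≠ ⊤ := by
    intro htop
    have h1 : Ideal.span {ϖ} ≤ maximalIdeal R := by
      rw [Ideal.span_le]; rintro z rfl; exact hϖ
    rw [htop] at h1
    exact (maximalIdeal.isMaximal R).ne_top (top_le_iff.mp h1)
  have hK := Ideal.iInf_pow_smul_eq_bot_of_isLocalRing (R := R) (M := R ⧸ I) (Ideal.span {ϖ}) hne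
  have hx : (Ideal.Quotient.mk I x : R ⧸ I) ∈
      (⨅ i : ℕ, Ideal.span {ϖ} ^ i • ⊤ : Submodule R (R ⧸ I)) := by
    rw [Submodule.mem_iInf]
    intro j
    obtain ⟨y, hy, z, rfl⟩ := h j
    have h1 : (Ideal.Quotient.mk I (y + ϖ ^ j * z) : R ⧸ I) =
        (ϖ ^ j) • (Ideal.Quotient.mk I z : R ⧸ I) := by
      rw [map_add, Ideal.Quotient.eq_zero_iff_mem.mpr hy, zero_add, map_mul]
      rfl
    rw [h1]
    have h2 : ϖ ^ j ∈ Ideal.span {ϖ} ^ j :=
      Ideal.pow_mem_pow (Ideal.subset_span (Set.mem_singleton ϖ)) j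
    exact Submodule.smul_mem_smul h2 Submodule.mem_top
  rw [hK, Submodule.mem_bot] at hx
  exact Ideal.Quotient.eq_zero_iff_mem.mp hx

theorem s59b_quadratic_field {K : Type*} [Field K] (x e p a b : K) (he : e ≠ 0)
    (h : x * e = p * (a * x ^ 2 + b * e ^ 2)) :
    (p * a * x / e) ^ 2 - p * a * x / e + p ^ 2 * a * b = 0 := by
  field_simp
  linear_combination (-p * a) * h

/-- In an integrally closed domain: `ξ η = P (A ξ² + B η²)` with `η ≠ 0` gives `s` with
`s η = P A ξ` (and then `(1 - s) ξ = P B η`). -/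
theorem s59b_quadratic_split {R : Type*} [CommRing R] [IsDomain R] [IsIntegrallyClosed R]
    (ξ η P A B : R) (hη : η ≠ 0) (h : ξ * η = P * (A * ξ ^ 2 + B * η ^ 2)) :
    ∃ s : R, s * η = P * A * ξ ∧ (1 - s) * ξ = P * B * η := by
  have hηK : algebraMap R (FractionRing R) η ≠ 0 := by
    intro h0
    exact hη ((IsFractionRing.injective R (FractionRing R)) (by rw [h0, map_zero]))
  have hint : IsIntegral R
      (algebraMap R (FractionRing R) (P * A * ξ) / algebraMap R (FractionRing R) η) := by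
    refine ⟨Polynomial.X ^ 2 - Polynomial.X + Polynomial.C (P ^ 2 * A * B), ?_, ?_⟩
    · monicity!
    · rw [Polynomial.eval₂_add, Polynomial.eval₂_sub, Polynomial.eval₂_pow, Polynomial.eval₂_X,
        Polynomial.eval₂_C]
      have hK : algebraMap R (FractionRing R) ξ * algebraMap R (FractionRing R) η =
          algebraMap R (FractionRing R) P *
          (algebraMap R (FractionRing R) A * algebraMap R (FractionRing R) ξ ^ 2 +
            algebraMap R (FractionRing R) B * algebraMap R (FractionRing R) η ^ 2) := by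
        rw [← map_mul, h]; simp only [map_mul, map_add, map_pow]
      simp only [map_mul, map_pow]
      exact s59b_quadratic_field _ _ _ _ _ hηK hK
  obtain ⟨s, hs⟩ := IsIntegrallyClosed.algebraMap_eq_of_integral hint
  have h1 : s * η = P * A * ξ := by
    apply IsFractionRing.injective R (FractionRing R)
    rw [map_mul, hs, div_mul_cancel₀ _ hηK]
  refine ⟨s, h1, ?_⟩
  apply mul_right_cancel₀ hη
  linear_combination h - ξ * h1

section Bad

variable {A R : Type*} [CommRing A] [IsDomain A] [IsDiscreteValuationRing A]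
  [CommRing R] [IsLocalRing R] [IsNoetherianRing R] [IsDomain R] [IsIntegrallyClosed R]
  [Algebra A R]

/-- **A bad section of a node of a NORMAL local ring has a principal kernel.** -/
theorem s59b_bad_principal {ϖ : A} (hϖ : Irreducible ϖ) {u₀ w₀ : R}
    (hm : maximalIdeal R = Ideal.span {u₀, w₀, algebraMap A R ϖ})
    (h0 : ∃ β, u₀ * w₀ = algebraMap A R ϖ * β) (ev : R →ₐ[A] A)
    (hbad : ¬ s34n_Good ϖ u₀ w₀ ev) :
    ∃ φ ∈ RingHom.ker (ev : R →+* A), ∀ y ∈ RingHom.ker (ev : R →+* A), ∃ z, y = φ * z := by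
  obtain ⟨ξ, η, hp, hξ, hη⟩ := s34n_exists_pair_in_ker hϖ hm h0 ev hbad 0
  have hk := s34n_ker_eq_span_pair hϖ hm ev hp
  rw [hξ, hη, map_zero, sub_zero, sub_zero] at hk
  obtain ⟨⟨x, hx⟩, ⟨y, hy⟩, β₁, hξη⟩ := hp
  rw [zero_add, pow_one] at hξη
  set P := algebraMap A R ϖ with hP
  have hevP : ev P = ϖ := by rw [hP, AlgHom.commutes]; rfl
  have hP0 : P ≠ 0 := by
    intro h; rw [h, map_zero] at hevP; exact hϖ.ne_zero hevP.symm
  have hPm : P ∈ maximalIdeal R := by
    rw [hm]; exact Ideal.subset_span (by simp)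
  have hker_of_P : ∀ d : R, ev (P * d) = 0 → d ∈ RingHom.ker (ev : R →+* A) := by
    intro d hd
    rw [map_mul, hevP] at hd
    rcases mul_eq_zero.mp hd with h | h
    · exact absurd h hϖ.ne_zero
    · exact h
  -- Krull
  have hβ : β₁ ∈ Ideal.span {ξ ^ 2, η ^ 2} := by
    apply s59b_mem_of_forall_pow _ P hPm
    intro j
    obtain ⟨ξj, ηj, hpj, hξj, hηj⟩ := s34n_exists_pair_in_ker hϖ hm h0 ev hbad j
    obtain ⟨⟨xj, hxj⟩, ⟨yj, hyj⟩, βj, hj⟩ := hpj
    have h1 : xj - x ∈ RingHom.ker (ev : R →+* A) := by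
      apply hker_of_P
      have : P * (xj - x) = ξj - ξ := by linear_combination hx - hxj
      rw [this, map_sub, hξj, hξ, sub_zero]
    have h2 : yj - y ∈ RingHom.ker (ev : R →+* A) := by
      apply hker_of_P
      have : P * (yj - y) = ηj - η := by linear_combination hy - hyj
      rw [this, map_sub, hηj, hη, sub_zero]
    rw [hk, Ideal.mem_span_pair] at h1 h2
    obtain ⟨a, b, hab⟩ := h1
    obtain ⟨c, d, hcd⟩ := h2
    have hξj' : ξj = ξ + P * (a * ξ + b * η) := by linear_combination hxj - hx - P * hab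
    have hηj' : ηj = η + P * (c * ξ + d * η) := by linear_combination hyj - hy - P * hcd
    set t := -((a + d) + P * (a * d + b * c)) with ht
    have hU : IsUnit (1 - P * t) := by
      apply IsLocalRing.isUnit_one_sub_self_of_mem_nonunits
      exact Ideal.mul_mem_right _ _ hPm
    obtain ⟨V, hV⟩ := hU.exists_left_inv
    have hmain : P ^ j * βj = β₁ * (1 - P * t) + ξ ^ 2 * (c + P * a * c) +
        η ^ 2 * (b + P * b * d) := by
      apply mul_left_cancel₀ hP0
      have e1 : P * (P ^ j * βj) = ξj * ηj := by rw [hj, pow_succ]; ring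
      rw [e1, hξj', hηj', ht]
      linear_combination (1 + P * (a + d) + P ^ 2 * (a * d + b * c)) * hξη
    refine ⟨-(V * (c + P * a * c)) * ξ ^ 2 + -(V * (b + P * b * d)) * η ^ 2,
      Ideal.mem_span_pair.mpr ⟨_, _, rfl⟩, V * βj, ?_⟩
    linear_combination (-β₁) * hV + (-V) * hmain
  rw [Ideal.mem_span_pair] at hβ
  obtain ⟨Aa, Bb, hAB⟩ := hβ
  have hrel : ξ * η = P * (Aa * ξ ^ 2 + Bb * η ^ 2) := by rw [hAB, hξη]
  have hξk : ξ ∈ RingHom.ker (ev : R →+* A) := hξ
  have hηk : η ∈ RingHom.ker (ev : R →+* A) := hη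
  by_cases hη0 : η = 0
  · refine ⟨ξ, hξk, fun z hz => ?_⟩
    rw [hk, Ideal.mem_span_pair] at hz
    obtain ⟨l, m, rfl⟩ := hz
    exact ⟨l, by rw [hη0]; ring⟩
  obtain ⟨s, hs1, hs2⟩ := s59b_quadratic_split ξ η P Aa Bb hη0 hrel
  by_cases hsu : IsUnit s
  · obtain ⟨s', hs'⟩ := hsu.exists_left_inv
    refine ⟨ξ, hξk, fun z hz => ?_⟩
    rw [hk, Ideal.mem_span_pair] at hz
    obtain ⟨l, m, rfl⟩ := hz
    have hηξ : η = s' * P * Aa * ξ := by linear_combination (-η) * hs' + s' * hs1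
    exact ⟨l + m * (s' * P * Aa), by rw [hηξ]; ring⟩
  · have hsu' : IsUnit (1 - s) := IsLocalRing.isUnit_one_sub_self_of_mem_nonunits s hsu
    obtain ⟨s', hs'⟩ := hsu'.exists_left_inv
    refine ⟨η, hηk, fun z hz => ?_⟩
    rw [hk, Ideal.mem_span_pair] at hz
    obtain ⟨l, m, rfl⟩ := hz
    have hξη' : ξ = s' * P * Bb * η := by linear_combination (-ξ) * hs' + s' * hs2
    exact ⟨m + l * (s' * P * Bb), by rw [hξη']; ring⟩

end Bad

theorem s59b_mem_valSubring_of_isIntegral {𝓕 : Type*} [Field 𝓕] (V : ValuationSubring 𝓕)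
    (B : Subring 𝓕) (hBV : B ≤ V.toSubring) (x : 𝓕) (hx : IsIntegral B x) : x ∈ V := by
  obtain ⟨p, hp, hpx⟩ := hx
  have hint : IsIntegral V x := by
    refine ⟨p.map (Subring.inclusion hBV), hp.map _, ?_⟩
    rw [Polynomial.eval₂_map]
    exact hpx
  obtain ⟨y, hy⟩ := IsIntegrallyClosed.algebraMap_eq_of_integral hint
  rw [← hy]
  exact y.2

theorem s59b_isIntegrallyClosed_of_forall {𝓕 : Type*} [Field 𝓕] (B : Subring 𝓕)
    (h : ∀ x : 𝓕, IsIntegral B x → x ∈ B) : IsIntegrallyClosed B := by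
  haveI : IsIntegrallyClosedIn B 𝓕 := by
    rw [isIntegrallyClosedIn_iff]
    refine ⟨Subtype.val_injective, fun {x} hx => ⟨⟨x, h x hx⟩, rfl⟩⟩
  exact IsIntegrallyClosed.of_isIntegrallyClosedIn B 𝓕

theorem s59b_isIntegrallyClosed_loc {𝓕 : Type*} [Field 𝓕] (B : Subring 𝓕)
    (h : ∀ x : 𝓕, IsIntegral B x → x ∈ B) (𝔫 : Ideal B) [𝔫.IsPrime] :
    IsIntegrallyClosed (Localization.AtPrime 𝔫) := by
  haveI := s59b_isIntegrallyClosed_of_forall B h
  exact isIntegrallyClosed_of_isLocalization (Localization.AtPrime 𝔫) 𝔫.primeCompl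
    𝔫.primeCompl_le_nonZeroDivisors

section Chart

variable {L₀ 𝓕 : Type*} [Field L₀] [Field 𝓕] [Algebra L₀ 𝓕]

/-- The chart ring contains every element of `𝓕` integral over it. -/
theorem s59b_chartRing_integral {ι : Type*} (O : ι → ValuationSubring 𝓕)
    (S : Set (Place L₀ 𝓕)) (x : 𝓕) (hx : IsIntegral (s34x_ring (s34x_infRing O) S) x) :
    x ∈ s34x_ring (s34x_infRing O) S := by
  refine ⟨(s34x_mem_infRing O x).mpr fun i => ?_, fun Q hQ => ?_⟩
  · refine s59b_mem_valSubring_of_isIntegral (O i) _ (fun y hy => ?_) x hx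
    exact (s34x_mem_infRing O y).mp hy.1 i
  · refine s59b_mem_valSubring_of_isIntegral Q.toValuationSubring _ (fun y hy => ?_) x hx
    exact hy.2 Q hQ

variable (A₀ : ValuationSubring L₀) [IsDiscreteValuationRing A₀] {ι : Type*}
  (O : ι → ValuationSubring 𝓕)
  (hAO : ∀ i, ∀ a : A₀, algebraMap L₀ 𝓕 (a : L₀) ∈ O i) (ϖ : A₀) (S : Set (Place L₀ 𝓕))
  (g : SemilinearAut L₀ 𝓕)

/-- **[NB]** Under the chart contract EVERY place of degree one through a maximal ideal over `ϖ`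
has a local equation: the chart ring is normal, so bad sections have principal kernels. -/
theorem s59b_locEq_all (hϖ : Irreducible ϖ)
    (hC : s34f_ChartContract A₀ O hAO ϖ S g)
    (𝔫 : Ideal (s34x_ring (s34x_infRing O) S)) [h𝔫 : 𝔫.IsMaximal]
    (hπ𝔫 : s34f_constHom A₀ (s34x_infRing O) (s34x_inf_const_mem O A₀ hAO) S ϖ ∈ 𝔫)
    (Q : Place L₀ 𝓕) (hQS : Q ∈ S) (hth : s34f_through (s34x_infRing O) S 𝔫 Q)
    (hdeg : Q.deg = 1) : s34f_LocEq (s34x_infRing O) S 𝔫 Q := by
  obtain ⟨hnoeth, F1, F2, -, -, hstruct⟩ := hC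
  haveI := hnoeth
  haveI : 𝔫.IsPrime := h𝔫.isPrime
  rcases hstruct 𝔫 hπ𝔫 with ⟨t, hm⟩ | ⟨u, w, h0, hm⟩
  · exact s34f_locEq_of_smooth A₀ (s34x_infRing O) (s34x_inf_const_mem O A₀ hAO) S 𝔫 ϖ hϖ hπ𝔫 Q
      hQS hdeg hth t hm (F1 Q hQS) (F2 Q hQS)
  · by_cases hgood : s34f_Good A₀ (s34x_infRing O) (s34x_inf_const_mem O A₀ hAO) S 𝔫 ϖ hϖ hπ𝔫 Q
        hQS hdeg hth u w
    · exact s34f_locEq_of_good A₀ (s34x_infRing O) (s34x_inf_const_mem O A₀ hAO) S 𝔫 ϖ hϖ hπ𝔫 Q
        hQS hdeg hth u w hm hgood (F1 Q hQS) (F2 Q hQS)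
    · letI := s34f_algR A₀ (s34x_infRing O) (s34x_inf_const_mem O A₀ hAO) S 𝔫
      haveI : IsNoetherianRing (Localization.AtPrime 𝔫) :=
        IsLocalization.isNoetherianRing 𝔫.primeCompl _ hnoeth
      haveI : IsIntegrallyClosed (Localization.AtPrime 𝔫) :=
        s59b_isIntegrallyClosed_loc _ (s59b_chartRing_integral O S) 𝔫
      have h0' : ∃ β, algebraMap (s34x_ring (s34x_infRing O) S) (Localization.AtPrime 𝔫) u *
          algebraMap (s34x_ring (s34x_infRing O) S) (Localization.AtPrime 𝔫) w =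
            algebraMap A₀ (Localization.AtPrime 𝔫) ϖ * β := by
        obtain ⟨β, hβ⟩ := h0
        refine ⟨algebraMap _ _ β, ?_⟩
        rw [← map_mul, hβ, map_mul]
        rfl
      obtain ⟨φ, hφ, hprin⟩ := s59b_bad_principal (A := A₀) (R := Localization.AtPrime 𝔫) hϖ hm
        h0' (s34f_evA A₀ (s34x_infRing O) (s34x_inf_const_mem O A₀ hAO) S 𝔫 ϖ hϖ hπ𝔫 Q hQS hdeg
          hth) hgood
      refine s34f_locEq_of_LN A₀ (s34x_infRing O) (s34x_inf_const_mem O A₀ hAO) S 𝔫 ϖ hϖ hπ𝔫 Q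
        hQS hdeg hth (F1 Q hQS) (F2 Q hQS) φ hφ 0 (fun y hy => ?_)
      obtain ⟨z, hz⟩ := hprin y hy
      exact ⟨z, by rw [pow_zero, one_mul, hz]⟩

end Chart

end Fermat.Agent.Lib.S59
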