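/-
Programme (R2) / [S35±] (helper2, prefix `s59b_`): **[Ψ-FIXED] — `Ψ = w_q ∘ σ₀` FIXES EVERY NODE OF `X₀(M q)`**
(`σ₀` a Frobenius lift at the place over `q`), the `Ψ`-twin of helper8's [NODE-FIXED] (`CNodeFixed.lean`, for `σ₀²`).

For every node `s` of a chart `S` of the S33/S34 model (Build frame of `Lib/S33/SSDatum.lean`) and `b` in the chart ring `B`
with `Ψ b ∈ B`:

  `mk_s (Ψ b) = mk_s (b) ^ q`   in `k(s) = B ⧸ 𝔫_s`        (`s59b_node_psi_frob`),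
  `b ∈ 𝔫_s → Ψ b ∈ 𝔫_s`                                    (`s59b_node_psi_fixed`).

Argument: `red_∞ (Ψ b) = Fr (red_0 b)` (helper7's `s59n_Psi_red_i`); the Kronecker lift `α(g₀)` of `red_∞ (Ψ b)` has
`red_0 = F (Fr (red_0 b)) = (red_0 b) ^ q` (`F ψ = ψ(t^q)`), and `mk_s` factors through both reductions.

* `s59b_stableW_psi`   : hence `s59x_StableW B S 𝔫_s Ψ` (helper7's `NXNodeGen.lean`) when the chart is `Ψ`-stable;
* `s59b_stableW_psi_w` : the chart `{α w regular}` (inputs of `s33s_datumW`).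
-/
import Fermat.Agent.Lib.S59.NXNodeGen
import Fermat.Agent.Lib.S59.NFrob
import Fermat.Agent.Lib.S33.SSFive
import Fermat.Agent.Lib.S34.FAssembly

set_option autoImplicit false
set_option linter.unusedSectionVars false
set_option linter.style.haveILetI false
set_option linter.unusedVariables false
set_option synthInstance.maxHeartbeats 400000
set_option maxHeartbeats 1600000

noncomputable section

namespace Fermat.Agent.Lib.S59

open ModularCurve AlgebraicCurve HahnSeries Polynomial Fermat.Agent.Lib.FF Fermat.Agent.Lib.S18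
  Fermat.Agent.Lib.S34 Fermat.Agent.Lib.S35 Fermat.Agent.Lib.S37 Fermat.Agent.Lib.S33

local notation "Kb" => AlgebraicClosure ℚ

section Abs

/-- **the abstract [Ψ-FIXED]**: two reductions `r₁, r₂` of `B` killing `ker mk`, with the lifts `(x, F x)`; if
`r₁ b' = τ̃ (r₂ b)` and `F ∘ τ̃ = (·) ^ Q` then `mk b' = (mk b) ^ Q`. -/
theorem s59b_node_psi_abs {B k L : Type*} [CommRing B] [Field k] [CommRing L]
    (mk : B →+* k)
    (r1 r2 : B →+* L) (h1 : ∀ b, r1 b = 0 → mk b = 0) (h2 : ∀ b, r2 b = 0 → mk b = 0)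
    (F : L → L)
    (hA : ∀ b : B, ∃ g : B, r1 g = r1 b ∧ r2 g = F (r1 b))
    (τt : L → L) (Q : ℕ) (hF : ∀ x : L, F (τt x) = x ^ Q)
    (b b' : B) (hb' : r1 b' = τt (r2 b)) : mk b' = mk b ^ Q := by
  have hf1 : ∀ b b', r1 b = r1 b' → mk b = mk b' := fun b b' h => by
    have := h1 (b - b') (by rw [map_sub, h, sub_self])
    rwa [map_sub, sub_eq_zero] at this
  have hf2 : ∀ b b', r2 b = r2 b' → mk b = mk b' := fun b b' h => by
    have := h2 (b - b') (by rw [map_sub, h, sub_self])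
    rwa [map_sub, sub_eq_zero] at this
  obtain ⟨g, hg1, hg2⟩ := hA b'
  rw [hb', hF] at hg2
  have e1 : mk g = mk b' := hf1 g b' hg1
  have e2 : mk g = mk (b ^ Q) := hf2 g (b ^ Q) (by rw [hg2, map_pow])
  rw [← e1, e2, map_pow]

end Abs

section Build

variable {K₀ : Type} [Field K₀] [CharZero K₀] [Algebra ℚ K₀] {κ : Type} [Field κ]
  (G : s18g_GaussData K₀ κ) (φ : K₀ →+* Kb) (M p : ℕ) [NeZero M] [hp : Fact p.Prime]
  (hpM : ¬ p ∣ M) [CharP κ p] [PerfectRing κ p]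
  (hπ : Function.Surjective G.π)
  (S : Set (Place K₀ (s34m_F K₀ (M * p))))

local notation "OO" => s34m_VV G φ M p hp.out hpM
local notation "ϖF" => s34m_unif G (M * p)

variable {D : Type*} [CommRing D] [IsDedekindDomain D] [Algebra D ↥(modularFunctionFieldFullC κ M)]
  [IsFractionRing D ↥(modularFunctionFieldFullC κ M)]
  (hF : ∀ i y, s33s_redL G φ M p hp.out hpM i y ∈ modularFunctionFieldFullC κ M)
  (hint : ∀ (i : Bool) (b : s34x_ring (s34x_infRing (s34m_VV G φ M p hp.out hpM)) S),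
    ∃ d : D, algebraMap D ↥(modularFunctionFieldFullC κ M) d =
      s33s_redO G φ M p hp.out hpM (modularFunctionFieldFullC κ M) hF i
        ⟨(b : s34m_F K₀ (M * p)), b.2.1⟩)
  (BM : Set (s34m_F K₀ M)) (hBMV : ∀ g ∈ BM, g ∈ s34m_Vinf G M)
  (hαB : ∀ g ∈ BM, heckeAlphaBar K₀ M p g ∈
    s34x_ring (s34x_infRing (s34m_VV G φ M p hp.out hpM)) S)
  (hlift : ∀ d : D, ∃ g, ∃ hg : g ∈ BM,
    s34m_redInf G M ⟨g, hBMV g hg⟩ =
      ((algebraMap D ↥(modularFunctionFieldFullC κ M) d : ↥(modularFunctionFieldFullC κ M)) :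
        LaurentSeries κ))
  (σ₀ : K₀ ≃ₐ[ℚ] K₀)
  (hσA : ∀ a : K₀, a ∈ G.A → (σ₀ : K₀ ≃+* K₀) a ∈ G.A)
  (hσπ : ∀ a : G.A, G.π (s34m_sigmaA G (σ₀ : K₀ ≃+* K₀) hσA a) = G.π a ^ p)

include hαB hlift hF hint hσπ in
/-- **[Ψ-FIXED], Build frame, value form**: `mk_s (Ψ b) = mk_s (b) ^ p`. -/
theorem s59b_node_psi_frob (s : s33s_Node OO ϖF S)
    (b : s34x_ring (s34x_infRing (s34m_VV G φ M p hp.out hpM)) S)
    (hgb : s59n_gPsi φ M p hp.out hpM σ₀ • (b : s34m_F K₀ (M * p)) ∈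
      s34x_ring (s34x_infRing (s34m_VV G φ M p hp.out hpM)) S) :
    s33s_kGmk G φ M p hpM hπ S s ⟨_, hgb⟩ = (s33s_kGmk G φ M p hpM hπ S s b) ^ p := by
  haveI : NeZero p := ⟨hp.out.ne_zero⟩
  have hc := s33s_coe_rhoD G φ M p hp.out hpM (modularFunctionFieldFullC κ M) S hF hint
  have hα₁ : ∀ g (hg : g ∈ BM), s34df_r1 G φ M p hp.out hpM S ⟨_, hαB g hg⟩ =
      s34m_redInf G M ⟨g, hBMV g hg⟩ := fun g hg =>
    (s34df_r1_eq G φ M p hp.out hpM S _ _ (s34m_alpha_mem_Vinf G M p (hBMV g hg)) rfl).trans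
      (s34m_redInf_alpha G M p ⟨g, hBMV g hg⟩)
  have hα₂ : ∀ g (hg : g ∈ BM), s34df_r2 G φ M p hp.out hpM S ⟨_, hαB g hg⟩ =
      qExpand κ p (s34m_redInf G M ⟨g, hBMV g hg⟩) := fun g hg =>
    (s34df_r2_eq G φ M p hp.out hpM S _ _
      (s34m_alpha_mem_Vzero G φ M p hp.out hpM (hBMV g hg)) rfl).trans
      (s34m_redZero_alpha G φ M p hp.out hpM ⟨g, hBMV g hg⟩)
  refine s59b_node_psi_abs (s33s_kGmk G φ M p hpM hπ S s)
    (s34df_r1 G φ M p hp.out hpM S) (s34df_r2 G φ M p hp.out hpM S) ?_ ?_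
    (qExpand κ p) ?_ (coeffMap (frobenius κ p)) p ?_ b ⟨_, hgb⟩ ?_
  · intro b hb
    rw [s33s_kGmk_eq_zero_iff]
    refine s.2.2.1 ?_
    rw [s33s_mem_comp]
    rw [s34df_r1_apply, s34m_redInf_eq_zero_iff] at hb
    exact hb
  · intro b hb
    rw [s33s_kGmk_eq_zero_iff]
    refine s.2.2.2 ?_
    rw [s33s_mem_comp]
    rw [s34df_r2_apply, s34m_redZero_eq_zero_iff] at hb
    exact hb
  · intro b
    obtain ⟨g₀, hg₀, e₀⟩ := hlift (s33s_rhoD G φ M p hp.out hpM (modularFunctionFieldFullC κ M) S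
      hF hint true b)
    rw [(hc b).1] at e₀
    exact ⟨⟨_, hαB g₀ hg₀⟩, by rw [hα₁ g₀ hg₀, e₀], by rw [hα₂ g₀ hg₀, e₀]⟩
  · intro x
    exact (s37e_pow_char p x).symm
  · rw [s34df_r1_apply, s34df_r2_apply]
    have hb0 : (b : s34m_F K₀ (M * p)) ∈ s34m_Vzero G φ M p hp.out hpM :=
      ((s34df_mem_O_iff G φ M p hp.out hpM _).mp b.2.1).2
    have := s59n_Psi_red_i G φ M p hpM σ₀ hσA hσπ (b : s34m_F K₀ (M * p)) hb0
    refine Eq.trans ?_ this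
    congr 1

include hαB hlift hF hint hσπ hπ in
/-- **[Ψ-FIXED], Build frame**: `Ψ = w_p ∘ σ₀` maps every node into itself. -/
theorem s59b_node_psi_fixed (s : s33s_Node OO ϖF S)
    (b : s34x_ring (s34x_infRing (s34m_VV G φ M p hp.out hpM)) S)
    (hgb : s59n_gPsi φ M p hp.out hpM σ₀ • (b : s34m_F K₀ (M * p)) ∈
      s34x_ring (s34x_infRing (s34m_VV G φ M p hp.out hpM)) S)
    (hb : b ∈ s.1) :
    (⟨_, hgb⟩ : s34x_ring (s34x_infRing (s34m_VV G φ M p hp.out hpM)) S) ∈ s.1 := by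
  rw [← s33s_kGmk_eq_zero_iff G φ M p hpM hπ S s,
    s59b_node_psi_frob G φ M p hpM hπ S hF hint BM hBMV hαB hlift σ₀ hσA hσπ s b hgb,
    (s33s_kGmk_eq_zero_iff G φ M p hpM hπ S s b).mpr hb]
  exact zero_pow hp.out.ne_zero

variable (hσA' : ∀ a : K₀, a ∈ G.A → (σ₀.symm : K₀ ≃+* K₀) a ∈ G.A)
  (hSΨ : ∀ Q : Place K₀ (s34m_F K₀ (M * p)),
    Q ∈ S ↔ s59n_gPsi φ M p hp.out hpM σ₀ • Q ∈ S)

include hσA' hσπ hSΨ in
/-- the chart ring is `Ψ`-stable. -/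
theorem s59b_ring_psi_iff (y : s34m_F K₀ (M * p)) :
    y ∈ s34x_ring (s34x_infRing (s34m_VV G φ M p hp.out hpM)) S ↔
      s59n_gPsi φ M p hp.out hpM σ₀ • y ∈
        s34x_ring (s34x_infRing (s34m_VV G φ M p hp.out hpM)) S := by
  have hswap := s59n_Psi_swap G φ M p hpM σ₀ hσA hσA' hσπ
  rw [s34x_mem_ring, s34x_mem_ring, s34x_mem_infRing, s34x_mem_infRing]
  constructor
  · rintro ⟨h1, h2⟩
    refine ⟨fun i => ?_, fun Q hQ => ?_⟩
    · have := (hswap (!i) y).mp (h1 (!i))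
      rwa [Bool.not_not] at this
    · rw [s34f_smul_mem_iff]
      refine h2 _ ?_
      have := (hSΨ ((s59n_gPsi φ M p hp.out hpM σ₀)⁻¹ • Q)).mpr (by rw [smul_inv_smul]; exact hQ)
      exact this
  · rintro ⟨h1, h2⟩
    refine ⟨fun i => (hswap i y).mpr (h1 (!i)), fun Q hQ => ?_⟩
    have := h2 _ ((hSΨ Q).mp hQ)
    rw [s34f_smul_mem_iff, inv_smul_smul] at this
    exact this

include hαB hlift hF hint hσπ hπ hσA' hSΨ in
/-- **[Ψ-FIXED] as weak stability** of every node of a `Ψ`-stable chart. -/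
theorem s59b_stableW_psi
    (𝔫 : Ideal (s34x_ring (s34x_infRing (s34m_VV G φ M p hp.out hpM)) S))
    (h𝔫 : s33s_IsNode OO ϖF S 𝔫) :
    s59x_StableW (s34x_infRing (s34m_VV G φ M p hp.out hpM)) S 𝔫
      (s59n_gPsi φ M p hp.out hpM σ₀) :=
  s59x_StableW.of_maximal h𝔫.1
    (s59b_ring_psi_iff G φ M p hpM S σ₀ hσA hσπ hσA' hSΨ) hSΨ
    (fun b hgb hb => s59b_node_psi_fixed G φ M p hpM hπ S hF hint BM hBMV hαB hlift σ₀ hσA hσπ
      ⟨𝔫, h𝔫⟩ b hgb hb)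

end Build

section Wrap

variable {K₀ : Type} [Field K₀] [CharZero K₀] [Algebra ℚ K₀] {κ : Type} [Field κ]
  (G : s18g_GaussData K₀ κ) (φ : K₀ →+* Kb) (M p : ℕ) [NeZero M] [hp : Fact p.Prime]
  (hpM : ¬ p ∣ M) [CharP κ p] [PerfectField κ]

local notation "𝓕M" => laurentBaseChange K₀ (modularFunctionFieldFull M)
local notation "𝓕N" => laurentBaseChange K₀ (modularFunctionFieldFull (M * p))
local notation "hFM" => (fun (f : LaurentSeries K₀)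
  (hf : f ∈ laurentBaseChange K₀ (modularFunctionFieldFull M)) => s18g_baseChange_mem_Frac G M hf)
local notation "OO" => s34m_VV G φ M p hp.out hpM
local notation "ϖF" => s34m_unif G (M * p)

variable (hdeg : s34m_HDeg K₀ M p) (hT : s18g_HT κ M) (hdegM : s18g_HDeg K₀ M)
  (hπ : Function.Surjective G.π)

variable [IsDiscreteValuationRing G.A]
  (σ₀ : K₀ ≃ₐ[ℚ] K₀)
  (hσA : ∀ a : K₀, a ∈ G.A → (σ₀ : K₀ ≃+* K₀) a ∈ G.A)
  (hσA' : ∀ a : K₀, a ∈ G.A → (σ₀.symm : K₀ ≃+* K₀) a ∈ G.A)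
  (hσπ : ∀ a : G.A, G.π (s34m_sigmaA G (σ₀ : K₀ ≃+* K₀) hσA a) = G.π a ^ p)

include hπ hdeg hσπ hσA' in
/-- **[Ψ-FIXED] for the chart `{α w regular}`** (the inputs of `s33s_datumW`). -/
theorem s59b_stableW_psi_w (w : ↥𝓕M) (hwV : w ∈ s18g_V G 𝓕M hFM)
    (hcoord : s37b_Coord κ p
      ((s18g_redF G M hFM hT hdegM ⟨w, hwV⟩ : ↥(modularFunctionFieldFullC κ M)) : LaurentSeries κ))
    (hwtw : ∀ τ : κ ≃+* κ, ModularCurve.coeffMap (τ : κ →+* κ)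
      ((s18g_redF G M hFM hT hdegM ⟨w, hwV⟩ : ↥(modularFunctionFieldFullC κ M)) : LaurentSeries κ) =
      ((s18g_redF G M hFM hT hdegM ⟨w, hwV⟩ : ↥(modularFunctionFieldFullC κ M)) : LaurentSeries κ))
    (hmain : letI := s18f_algF G M hT hdegM w hwV
      ∀ z : ↥(modularFunctionFieldFullC κ M), IsIntegral κ[X] z →
        ∃ (b : ↥𝓕M) (hb : b ∈ s18_ring (L₀ := K₀) (s18g_V G 𝓕M hFM) (s18_chart1 w)),
          s18g_redF G M hFM hT hdegM ⟨b, hb.1⟩ = z)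
    (wN : ↥𝓕N) (hwN : heckeAlphaBar K₀ M p w = wN) [FFGen K₀ wN]
    (hαN : ∀ y ∈ s34x_infRing (s34m_VV G φ M p hp.out hpM), ∃ s : G.A[X], s.map G.π ≠ 0 ∧
      (s18b_ev G 𝓕N wN).IsIntegralElem (s18b_ev G 𝓕N wN s * y))
    (hαB : ∀ g ∈ (s18_ring (L₀ := K₀) (s34m_Vinf G M) (s18_chart1 w) : Set (s34m_F K₀ M)),
      heckeAlphaBar K₀ M p g ∈ s34x_ring (s34x_infRing (s34m_VV G φ M p hp.out hpM))
        (s18_chart1 (L₀ := K₀) wN))
    (hSΨ : ∀ Q : Place K₀ (s34m_F K₀ (M * p)),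
      Q ∈ s18_chart1 (L₀ := K₀) wN ↔ s59n_gPsi φ M p hp.out hpM σ₀ • Q ∈ s18_chart1 (L₀ := K₀) wN)
    (𝔫 : Ideal (s34x_ring (s34x_infRing (s34m_VV G φ M p hp.out hpM)) (s18_chart1 (L₀ := K₀) wN)))
    (h𝔫 : s33s_IsNode OO ϖF (s18_chart1 (L₀ := K₀) wN) 𝔫) :
    s59x_StableW (s34x_infRing (s34m_VV G φ M p hp.out hpM)) (s18_chart1 (L₀ := K₀) wN) 𝔫
      (s59n_gPsi φ M p hp.out hpM σ₀) := by
  letI := s18f_algF G M hT hdegM w hwV
  haveI : PerfectRing κ p := PerfectField.toPerfectRing p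
  have hA : ∀ P : κ[X], algebraMap κ[X] ↥(modularFunctionFieldFullC κ M) P =
      Polynomial.aeval (s18g_redF G M hFM hT hdegM ⟨w, hwV⟩) P :=
    s18f_algF_apply G M hT hdegM w hwV
  haveI := (s37b_dedekind_of_coord κ p M (s18g_redF G M hFM hT hdegM ⟨w, hwV⟩) hcoord hA).1
  haveI := (s37b_dedekind_of_coord κ p M (s18g_redF G M hFM hT hdegM ⟨w, hwV⟩) hcoord hA).2
  have hF := s33s_w_hF G φ M p hpM hdeg hT hdegM
  have hint := s33s_w_hint G φ M p hpM hdeg hT hdegM w hwV hwtw wN hwN hαN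
  have hlift := s33s_w_hlift G M hT hdegM w hwV hmain
  exact s59b_stableW_psi G φ M p hpM hπ (s18_chart1 (L₀ := K₀) wN)
    (D := ↥(integralClosure κ[X] ↥(modularFunctionFieldFullC κ M))) hF hint
    (s18_ring (L₀ := K₀) (s34m_Vinf G M) (s18_chart1 w) : Set (s34m_F K₀ M))
    (fun _ hg => hg.1) hαB hlift σ₀ hσA hσπ hσA' hSΨ 𝔫 h𝔫

end Wrap

end Fermat.Agent.Lib.S59
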