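/-
Programme (R2) / [S35±] (helper2, prefix `s59b_`): **"NEW ⟹ `(1 + w_q σ)`-TORIC" OVER A FIXED FINITE NORMAL LEVEL `L₀`, ON THE
CHART OF AN ARBITRARY COORDINATE `w`** — `s59b_newtoric_core` (`B7Core.lean`) instantiated with the frame of `s33s_datumW`:

* [NB] (`s59b_locEq_all`, `B7NoBad.lean`) from the chart contract `s34f_ChartContract`;
* [Ψ-FIXED] (`s59b_stableW_psi_w`, `B7PsiFix.lean`);
* finiteness of the set of nodes (`s44e_finite_node_W`, helper8);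

and the Kummer bookkeeping: if `f₀` is a Kummer generator of `z` over `L₀` then `h = f₀ · Ψ f₀ / (G ^ m ϖ ^ e)` is a Kummer
generator of `z + w_q (σ z)`.
-/
import Fermat.Agent.Lib.S59.B7Core
import Fermat.Agent.Lib.S59.B7PsiFix
import Fermat.Agent.Lib.S59.B7NoBad
import Fermat.Agent.Lib.S59.NGeoW
import Fermat.Agent.Lib.S44.QAlmost

set_option autoImplicit false
set_option linter.style.haveILetI false
set_option linter.unusedSectionVars false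
set_option synthInstance.maxHeartbeats 400000

noncomputable section

namespace Fermat.Agent.Lib.S59

open ModularCurve AlgebraicCurve HahnSeries Polynomial Fermat.Agent.Lib.FF Fermat.Agent.Lib.S18
  Fermat.Agent.Lib.S34 Fermat.Agent.Lib.S37 Fermat.Agent.Lib.S33 Fermat.Agent.Lib.S35
  Fermat.Agent.Lib.S44

local notation "Kb" => AlgebraicClosure ℚ
local notation "Γℚ" => (AlgebraicClosure ℚ ≃ₐ[ℚ] AlgebraicClosure ℚ)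

section InstW

variable (M q : ℕ) [NeZero M] [hq : Fact q.Prime] (hqM : ¬ q ∣ M)
  (P : ValuationSubring Kb) (hP : P.LiesOverPrime q)
  (L₀ : IntermediateField ℚ Kb) [FiniteDimensional ℚ ↥L₀] [Normal ℚ ↥L₀]
  [IsDiscreteValuationRing ↥(s18q_A0 P L₀)] (ϖ : ↥(s18q_A0 P L₀)) (hϖ : Irreducible ϖ)

set_option quotPrecheck false

local notation "κ₀" => IsLocalRing.ResidueField ↥(s18q_A0 P L₀)
local notation "G₀" => s37r_G P L₀ ϖ hϖ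
local notation "φ₀" => algebraMap ↥L₀ Kb
local notation "𝓕M" => laurentBaseChange ↥L₀ (modularFunctionFieldFull M)
local notation "𝓕N" => laurentBaseChange ↥L₀ (modularFunctionFieldFull (M * q))
local notation "hFM" => (fun (f : LaurentSeries ↥L₀)
  (hf : f ∈ laurentBaseChange ↥L₀ (modularFunctionFieldFull M)) => s18g_baseChange_mem_Frac G₀ M hf)

include hP in
set_option maxHeartbeats 3200000 in
/-- **"new ⟹ `(1 + w_q σ)`-toric" over a fixed finite normal level `L₀`, coordinate `w`.** -/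
theorem s59b_newtoric_W_inst
    (hT : s18g_HT κ₀ M) (hdegM : s18g_HDeg ↥L₀ M)
    (w : ↥𝓕M) (hwV : w ∈ s18g_V G₀ 𝓕M hFM)
    (hcoord : s37b_Coord κ₀ q
      ((s18g_redF G₀ M hFM hT hdegM ⟨w, hwV⟩ : ↥(modularFunctionFieldFullC κ₀ M)) : LaurentSeries κ₀))
    (hwtw : ∀ τ : κ₀ ≃+* κ₀, ModularCurve.coeffMap (τ : κ₀ →+* κ₀)
      ((s18g_redF G₀ M hFM hT hdegM ⟨w, hwV⟩ : ↥(modularFunctionFieldFullC κ₀ M)) : LaurentSeries κ₀) =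
      ((s18g_redF G₀ M hFM hT hdegM ⟨w, hwV⟩ : ↥(modularFunctionFieldFullC κ₀ M)) : LaurentSeries κ₀))
    (hmain : letI := s18f_algF G₀ M hT hdegM w hwV
      ∀ z : ↥(modularFunctionFieldFullC κ₀ M), IsIntegral κ₀[X] z →
        ∃ (b : ↥𝓕M) (hb : b ∈ s18_ring (L₀ := ↥L₀) (s18g_V G₀ 𝓕M hFM) (s18_chart1 w)),
          s18g_redF G₀ M hFM hT hdegM ⟨b, hb.1⟩ = z)
    (wN : ↥𝓕N) (hwN : heckeAlphaBar ↥L₀ M q w = wN) [FFGen ↥L₀ wN]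
    (hαN : ∀ y ∈ s34x_infRing (s34m_VV G₀ φ₀ M q hq.out hqM), ∃ s : (G₀).A[X], s.map (G₀).π ≠ 0 ∧
      (s18b_ev G₀ 𝓕N wN).IsIntegralElem (s18b_ev G₀ 𝓕N wN s * y))
    (hαB : ∀ g ∈ (s18_ring (L₀ := ↥L₀) (s34m_Vinf G₀ M) (s18_chart1 w) : Set (s34m_F ↥L₀ M)),
      heckeAlphaBar ↥L₀ M q g ∈ s34x_ring (s34x_infRing (s34m_VV G₀ φ₀ M q hq.out hqM))
        (s18_chart1 (L₀ := ↥L₀) wN))
    (hβB : ∀ g ∈ (s18_ring (L₀ := ↥L₀) (s34m_Vinf G₀ M) (s18_chart1 w) : Set (s34m_F ↥L₀ M)),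
      ∃ b' ∈ s34x_ring (s34x_infRing (s34m_VV G₀ φ₀ M q hq.out hqM)) (s18_chart1 (L₀ := ↥L₀) wN),
      ∃ z, z ∈ s34m_Vinf G₀ (M * q) ∧ z ∈ s34m_Vzero G₀ φ₀ M q hq.out hqM ∧
        b' - heckeBetaBar ↥L₀ M q g = s34m_unif G₀ (M * q) * z)
    (hnodeE : ∃ 𝔫, s33s_IsNode (s34m_VV G₀ φ₀ M q hq.out hqM) (s34m_unif G₀ (M * q))
      (s18_chart1 (L₀ := ↥L₀) wN) 𝔫)
    (hal : ∀ Q : Place ↥L₀ (s34m_F ↥L₀ (M * q)), Q ∈ s18_chart1 (L₀ := ↥L₀) wN →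
      SemilinearAut.ofAlgAut (s34m_al φ₀ M q hq.out hqM) • Q ∈ s18_chart1 (L₀ := ↥L₀) wN)
    (hfix : ∀ σ₀ : ↥L₀ ≃ₐ[ℚ] ↥L₀,
      arithmeticGalois (modularFunctionFieldFull (M * q)) σ₀ • wN = wN)
    (g : SemilinearAut ↥L₀ (s34m_F ↥L₀ (M * q)))
    (hC : haveI : NeZero q := ⟨hq.out.ne_zero⟩
      s34f_ChartContract (G₀).A (s34m_VV G₀ φ₀ M q hq.out hqM)
        (s34c_const_mem_VV G₀ φ₀ M q hq.out hqM) (G₀).ϖ (s18_chart1 (L₀ := ↥L₀) wN) g)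
    (ζ : (↥L₀)ˣ) (hζ : IsPrimitiveRoot (ζ : ↥L₀) q)
    (m : ℕ) (hm0 : m ≠ 0) (f₀ : s34m_F ↥L₀ (M * q)) (hf₀ : f₀ ≠ 0)
    (hdiv : ∀ Q : Place ↥L₀ (s34m_F ↥L₀ (M * q)), (m : ℤ) ∣ Q.ord f₀)
    (hrat : ∀ Q ∈ s18_chart1 (L₀ := ↥L₀) wN, Q.ord f₀ ≠ 0 → Q.deg = 1)
    (hnα : ∃ (c : ↥L₀) (h : s34m_F ↥L₀ M),
      s35r_normAlong (heckeAlphaBar ↥L₀ M q) f₀ = algebraMap ↥L₀ _ c * h ^ m)
    (hnβ : ∃ (c : ↥L₀) (h : s34m_F ↥L₀ M),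
      s35r_normAlong (heckeBetaBar ↥L₀ M q) f₀ = algebraMap ↥L₀ _ c * h ^ m)
    {z : JZero (M * q)} (hK : s33d_IsKumGen m z (s18q_incl (M * q) L₀ f₀))
    {σ : Γℚ} (hσ : P.IsFrobeniusAt σ q) :
    haveI : NeZero q := ⟨hq.out.ne_zero⟩
    ∃ h : s34m_F ↥L₀ (M * q),
      s33d_IsKumGen m (z + s59m_wq M q hq.out hqM (σ • z)) (s18q_incl (M * q) L₀ h) ∧
      ∃ (hI : h ∈ s34m_Vinf G₀ (M * q)) (hZ : h ∈ s34m_Vzero G₀ φ₀ M q hq.out hqM),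
        h⁻¹ ∈ s34m_Vinf G₀ (M * q) ∧ h⁻¹ ∈ s34m_Vzero G₀ φ₀ M q hq.out hqM ∧
        (∀ Q ∈ s33s_nodePlaces (s34m_VV G₀ φ₀ M q hq.out hqM) (s34m_unif G₀ (M * q))
          (s18_chart1 (L₀ := ↥L₀) wN), Q.ord h = 0) ∧
        (∃ (c : κ₀) (a₀ : LaurentSeries κ₀), c ≠ 0 ∧ a₀ ∈ modularFunctionFieldFullC κ₀ M ∧
          s34m_redInf G₀ (M * q) ⟨h, hI⟩ = HahnSeries.C c * a₀ ^ m) ∧
        (∃ (c : κ₀) (a₀ : LaurentSeries κ₀), c ≠ 0 ∧ a₀ ∈ modularFunctionFieldFullC κ₀ M ∧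
          s34m_redZero G₀ φ₀ M q hq.out hqM ⟨h, hZ⟩ = HahnSeries.C c * a₀ ^ m) := by
  classical
  haveI : NeZero q := ⟨hq.out.ne_zero⟩
  haveI : NumberField ↥L₀ := ⟨⟩
  haveI hchar₀ : CharP κ₀ q := s37rl_charP P hP L₀
  haveI hperf₀ : PerfectField κ₀ := s37rl_perfectField P hP L₀
  haveI : PerfectRing κ₀ q := PerfectField.toPerfectRing q
  haveI : IsDiscreteValuationRing ↥(G₀).A :=
    (inferInstance : IsDiscreteValuationRing ↥(s18q_A0 P L₀))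
  have hdeg : s34m_HDeg ↥L₀ M q := s34r_deg_HDeg φ₀ M q hq.out hqM
  have hπ : Function.Surjective (G₀).π := IsLocalRing.residue_surjective
  -- the Frobenius lift
  have hσD := hσ.mem_decompositionSubgroup
  have hσA := s59n_frob_mem P L₀ hσD
  have hσA' := s59n_frob_symm_mem P L₀ hσD
  have hσπ := s59n_frob_res P L₀ ϖ hϖ hσ
  have hSΨ := s59n_chart_stable_of φ₀ M q hq.out hqM wN hal (σ.restrictNormal ↥L₀) (hfix _)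
  haveI hfinN : Finite (s33s_Node (s34m_VV G₀ φ₀ M q hq.out hqM) (s34m_unif G₀ (M * q))
      (s18_chart1 (L₀ := ↥L₀) wN)) :=
    s44e_finite_node_W G₀ φ₀ M q hqM hdeg hT hdegM w hwV hcoord hwtw hmain wN hwN hαN hαB hβB
  have hirr := s44q_irreducible_unif G₀
  -- [NB]
  have hLE : ∀ 𝔫, s33s_IsNode (s34m_VV G₀ φ₀ M q hq.out hqM) (s34m_unif G₀ (M * q))
      (s18_chart1 (L₀ := ↥L₀) wN) 𝔫 →
      ∀ Q ∈ s18_chart1 (L₀ := ↥L₀) wN,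
        s34f_through (s34x_infRing (s34m_VV G₀ φ₀ M q hq.out hqM)) (s18_chart1 (L₀ := ↥L₀) wN) 𝔫 Q →
        Q.deg = 1 →
        s34f_LocEq (s34x_infRing (s34m_VV G₀ φ₀ M q hq.out hqM)) (s18_chart1 (L₀ := ↥L₀) wN) 𝔫 Q := by
    intro 𝔫 h𝔫 Q hQS hth hdegQ
    haveI := h𝔫.1
    have hπ𝔫 : s34f_constHom (G₀).A (s34x_infRing (s34m_VV G₀ φ₀ M q hq.out hqM))
        (s34x_inf_const_mem (s34m_VV G₀ φ₀ M q hq.out hqM) (G₀).A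
          (s34c_const_mem_VV G₀ φ₀ M q hq.out hqM)) (s18_chart1 (L₀ := ↥L₀) wN) (G₀).ϖ ∈ 𝔫 := by
      apply h𝔫.2.1
      refine ⟨1, ((s34m_VV G₀ φ₀ M q hq.out hqM) true).one_mem, ?_⟩
      rw [mul_one]
      rfl
    exact s59b_locEq_all (G₀).A (s34m_VV G₀ φ₀ M q hq.out hqM)
      (s34c_const_mem_VV G₀ φ₀ M q hq.out hqM) (G₀).ϖ (s18_chart1 (L₀ := ↥L₀) wN) g hirr hC 𝔫 hπ𝔫
      Q hQS hth hdegQ
  -- [Ψ-FIXED]
  have hΨfix : ∀ 𝔫, s33s_IsNode (s34m_VV G₀ φ₀ M q hq.out hqM) (s34m_unif G₀ (M * q))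
      (s18_chart1 (L₀ := ↥L₀) wN) 𝔫 →
      s59x_StableW (s34x_infRing (s34m_VV G₀ φ₀ M q hq.out hqM)) (s18_chart1 (L₀ := ↥L₀) wN) 𝔫
        (s59n_gPsi φ₀ M q hq.out hqM (σ.restrictNormal ↥L₀)) := fun 𝔫 h𝔫 =>
    s59b_stableW_psi_w G₀ φ₀ M q hqM hdeg hT hdegM hπ (σ.restrictNormal ↥L₀) hσA hσA' hσπ w hwV
      hcoord hwtw hmain wN hwN hαN hαB hSΨ 𝔫 h𝔫
  obtain ⟨Gg, h, e, hG0, hfact, hI, hZ, hI', hZ', hnode, hri, hrz⟩ :=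
    s59b_newtoric_core G₀ φ₀ M q hqM (σ.restrictNormal ↥L₀) hσA hσA' hσπ hdeg hT hdegM
      (s18_chart1 (L₀ := ↥L₀) wN) hnodeE hLE hΨfix ζ hζ m hm0 f₀ hf₀ hdiv hrat hnα hnβ
  refine ⟨h, ?_, hI, hZ, hI', hZ', hnode, hri, hrz⟩
  -- Kummer generators
  have hK1 := s33d_isKumGen_galois_gen (M * q) m L₀ σ hK
  have hK2 := s33d_kumGen_smul (SemilinearAut.ofAlgAut (s37w_al M q hq.out hqM)) hK1
  have e2 : SemilinearAut.ofAlgAut (s37w_al M q hq.out hqM) • s18q_incl (M * q) L₀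
      (arithmeticRingAut (modularFunctionFieldFull (M * q)) (σ.restrictNormal ↥L₀) f₀) =
      s18q_incl (M * q) L₀ (s59n_gPsi φ₀ M q hq.out hqM (σ.restrictNormal ↥L₀) • f₀) := by
    rw [SemilinearAut.ofAlgAut_smul, s59n_gPsi_smul]
    exact (s34m_iota_al φ₀ M q hq.out hqM _).symm
  rw [e2] at hK2
  have hK4 := s33d_kumGen_prod hK hK2
  rw [← map_mul, hfact] at hK4
  have hϖ0 : (((G₀).ϖ : (G₀).A) : ↥L₀) ≠ 0 := s18g_unifK_ne_zero G₀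
  have hcK : ((((G₀).ϖ : (G₀).A) : ↥L₀) : Kb) ^ (-e) ≠ 0 :=
    zpow_ne_zero _ (fun h0 => hϖ0 (Subtype.ext h0))
  have hGK : s18q_incl (M * q) L₀ Gg⁻¹ ≠ 0 := (_root_.map_ne_zero _).mpr (inv_ne_zero hG0)
  have hK5 := s33d_kumGen_mul hK4 hcK hGK
  have e5 : algebraMap Kb (ffi_F (M * q)) (((((G₀).ϖ : (G₀).A) : ↥L₀) : Kb) ^ (-e)) *
      s18q_incl (M * q) L₀ Gg⁻¹ ^ m *
      s18q_incl (M * q) L₀ (Gg ^ m * (s34m_unif G₀ (M * q) ^ e * h)) =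
      s18q_incl (M * q) L₀ h := by
    have hG1 : s18q_incl (M * q) L₀ Gg ≠ 0 := (_root_.map_ne_zero _).mpr hG0
    have hc1 : algebraMap Kb (ffi_F (M * q)) ((((G₀).ϖ : (G₀).A) : ↥L₀) : Kb) ≠ 0 :=
      (_root_.map_ne_zero _).mpr (fun h0 => hϖ0 (Subtype.ext h0))
    have e6 : s18q_incl (M * q) L₀ (s34m_unif G₀ (M * q)) =
        algebraMap Kb (ffi_F (M * q)) ((((G₀).ϖ : (G₀).A) : ↥L₀) : Kb) := by
      rw [s34m_unif, s18q_incl_algebraMap]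
    simp only [map_mul, map_pow, map_zpow₀, map_inv₀, e6, zpow_neg, inv_pow]
    field_simp
  rw [e5] at hK5
  exact hK5

end InstW

end Fermat.Agent.Lib.S59
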