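/-
Programme (R2) / [S35±] (helper2, prefix `s59b_`): **THE SIGNED NEW-WEIGHT `(σ + q w_q)(σ + w_q) = 0` ON THE `q`-NEW PART OF
`J₀(M q)[m]`, BRANCH `q = 2`, `3 ∣ M`** (chart `t₃`).

* `s59b_newtoric_t3_inst` : `s59b_newtoric_W_inst` (`B7NewW.lean`) for the coordinate `t₃`;
* `s59b_newtoric_t3`      : `z ∈ J₀(M q)[m]` killed by `α_*` and `β_*`, `σ` a Frobenius element at `P ∣ q` ⇒ `z + w_q (σ z)` is
  toric of exponent `m` for the `t₃`-node family (descent to number fields as in `s35q_kummerNW_of_nf`);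
* **`s59b_NW_signed_t3`** : `σ² z + (q + 1) w_q (σ z) + q z = 0` (with TORIC-FROB `s59b_toric_geo_t3_n`, `B6GeoTN.lean`).
-/
import Fermat.Agent.Lib.S59.B7NewW
import Fermat.Agent.Lib.S59.B6GeoTN
import Fermat.Agent.Lib.S35.RGood

set_option autoImplicit false
set_option linter.style.haveILetI false
set_option linter.unusedSectionVars false
set_option synthInstance.maxHeartbeats 400000

noncomputable section

namespace Fermat.Agent.Lib.S59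

open ModularCurve AlgebraicCurve HahnSeries Polynomial Fermat.Agent.Lib.FF Fermat.Agent.Lib.S18
  Fermat.Agent.Lib.S34 Fermat.Agent.Lib.S37 Fermat.Agent.Lib.S33 Fermat.Agent.Lib.S35
  Fermat.Agent.Lib.S44 Fermat.Agent.Lib.S29

local notation "Kb" => AlgebraicClosure ℚ
local notation "Γℚ" => (AlgebraicClosure ℚ ≃ₐ[ℚ] AlgebraicClosure ℚ)

section InstT3

variable (M q : ℕ) [NeZero M] [hq : Fact q.Prime] (hqM : ¬ q ∣ M) (hq2 : q = 2) (h3M : 3 ∣ M)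
  (P : ValuationSubring Kb) (hP : P.LiesOverPrime q)
  (L₀ : IntermediateField ℚ Kb) [FiniteDimensional ℚ ↥L₀] [Normal ℚ ↥L₀]
  [IsDiscreteValuationRing ↥(s18q_A0 P L₀)] (ϖ : ↥(s18q_A0 P L₀)) (hϖ : Irreducible ϖ)

include hq2 h3M hP in
set_option maxHeartbeats 3200000 in
/-- **"new ⟹ `(1 + w_q σ)`-toric" over `L₀`, branch `q = 2`, `3 ∣ M`.** -/
theorem s59b_newtoric_t3_inst
    (ζ : (↥L₀)ˣ) (hζ : IsPrimitiveRoot (ζ : ↥L₀) q)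
    (m : ℕ) (hm0 : m ≠ 0) (f₀ : s34m_F ↥L₀ (M * q)) (hf₀ : f₀ ≠ 0)
    (hdiv : ∀ Q : Place ↥L₀ (s34m_F ↥L₀ (M * q)), (m : ℤ) ∣ Q.ord f₀)
    (hrat : ∀ Q : Place ↥L₀ (s34m_F ↥L₀ (M * q)), Q.ord f₀ ≠ 0 → Q.deg = 1)
    (hnα : ∃ (c : ↥L₀) (h : s34m_F ↥L₀ M),
      s35r_normAlong (heckeAlphaBar ↥L₀ M q) f₀ = algebraMap ↥L₀ _ c * h ^ m)
    (hnβ : ∃ (c : ↥L₀) (h : s34m_F ↥L₀ M),
      s35r_normAlong (heckeBetaBar ↥L₀ M q) f₀ = algebraMap ↥L₀ _ c * h ^ m)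
    {z : JZero (M * q)} (hK : s33d_IsKumGen m z (s18q_incl (M * q) L₀ f₀))
    {σ : Γℚ} (hσ : P.IsFrobeniusAt σ q) :
    haveI : NeZero q := ⟨hq.out.ne_zero⟩
    ∃ h : s34m_F ↥L₀ (M * q),
      s33d_IsKumGen m (z + s59m_wq M q hq.out hqM (σ • z)) (s18q_incl (M * q) L₀ h) ∧
      ∃ (hI : h ∈ s34m_Vinf (s37r_G P L₀ ϖ hϖ) (M * q))
        (hZ : h ∈ s34m_Vzero (s37r_G P L₀ ϖ hϖ) (algebraMap ↥L₀ Kb) M q hq.out hqM),
        h⁻¹ ∈ s34m_Vinf (s37r_G P L₀ ϖ hϖ) (M * q) ∧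
        h⁻¹ ∈ s34m_Vzero (s37r_G P L₀ ϖ hϖ) (algebraMap ↥L₀ Kb) M q hq.out hqM ∧
        (∀ Q ∈ s33t_nodeN_t3 M q hqM P L₀ ϖ hϖ, Q.ord h = 0) ∧
        (∃ (c : IsLocalRing.ResidueField ↥(s18q_A0 P L₀))
          (a₀ : LaurentSeries (IsLocalRing.ResidueField ↥(s18q_A0 P L₀))), c ≠ 0 ∧
          a₀ ∈ modularFunctionFieldFullC (IsLocalRing.ResidueField ↥(s18q_A0 P L₀)) M ∧
          s34m_redInf (s37r_G P L₀ ϖ hϖ) (M * q) ⟨h, hI⟩ = HahnSeries.C c * a₀ ^ m) ∧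
        (∃ (c : IsLocalRing.ResidueField ↥(s18q_A0 P L₀))
          (a₀ : LaurentSeries (IsLocalRing.ResidueField ↥(s18q_A0 P L₀))), c ≠ 0 ∧
          a₀ ∈ modularFunctionFieldFullC (IsLocalRing.ResidueField ↥(s18q_A0 P L₀)) M ∧
          s34m_redZero (s37r_G P L₀ ϖ hϖ) (algebraMap ↥L₀ Kb) M q hq.out hqM ⟨h, hZ⟩ =
            HahnSeries.C c * a₀ ^ m) := by
  classical
  haveI : NeZero q := ⟨hq.out.ne_zero⟩
  have hq3 : q ≠ 3 := by omega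
  haveI : NumberField ↥L₀ := ⟨⟩
  haveI hchar₀ : CharP (IsLocalRing.ResidueField ↥(s18q_A0 P L₀)) q := s37rl_charP P hP L₀
  haveI hperf₀ : PerfectField (IsLocalRing.ResidueField ↥(s18q_A0 P L₀)) :=
    s37rl_perfectField P hP L₀
  haveI : IsDiscreteValuationRing ↥(s37r_G P L₀ ϖ hϖ).A :=
    (inferInstance : IsDiscreteValuationRing ↥(s18q_A0 P L₀))
  have hT : s18g_HT (IsLocalRing.ResidueField ↥(s18q_A0 P L₀)) M := s18t_indep_j q M hqM _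
  have hdegM : s18g_HDeg ↥L₀ M := fun n b hb hn =>
    s18g_exists_relation M (algebraMap ↥L₀ Kb) hn b hb
  have hπ : Function.Surjective (s37r_G P L₀ ϖ hϖ).π := IsLocalRing.residue_surjective
  -- the coordinate `t₃`
  obtain ⟨tM, htM, ⟨hwV, hred⟩, hwinvV, hgen, hgeninv, hwt, hw0, hgenN, hwO, hwO', hfix, hα, hα'⟩ :=
    s34m_base_t3 (s37r_G P L₀ ϖ hϖ) (algebraMap ↥L₀ Kb) M q hq.out hqM h3M hq3
  haveI := hgen
  haveI := hgeninv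
  haveI := hgenN
  haveI : FFGen ↥L₀ (s18g_jF (K := ↥L₀) (M * q)) :=
    s18b_ffGen_jF (M * q) (fun _ b hb hn => s18g_exists_relation (M * q) (algebraMap ↥L₀ Kb) hn b hb)
  have htM0 : tM ≠ 0 := by
    intro h0
    apply s18b_t3_ne_zero ↥L₀
    rw [← htM, h0]; rfl
  have hFM : ∀ f ∈ laurentBaseChange ↥L₀ (modularFunctionFieldFull M),
      f ∈ s18g_Frac (s37r_G P L₀ ϖ hϖ) := fun _ hf => s18g_baseChange_mem_Frac _ M hf
  have hred' : ((s18g_redF (s37r_G P L₀ ϖ hϖ) M hFM hT hdegM ⟨tM, hwV⟩ :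
      ↥(modularFunctionFieldFullC (IsLocalRing.ResidueField ↥(s18q_A0 P L₀)) M)) :
      LaurentSeries (IsLocalRing.ResidueField ↥(s18q_A0 P L₀))) = s18u_t3 _ := hred
  have hclaim : ∀ Q : Place ↥L₀ (s34m_F ↥L₀ (M * q)),
      (0 ≤ Q.ord (heckeAlphaBar ↥L₀ M q tM) → 0 ≤ Q.ord (heckeBetaBar ↥L₀ M q tM)) ∧
      (Q.ord (heckeAlphaBar ↥L₀ M q tM) ≤ 0 → Q.ord (heckeBetaBar ↥L₀ M q tM) ≤ 0) :=
    fun Q => s34e_cusp_hclaim_t3 (s37r_G P L₀ ϖ hϖ) (algebraMap ↥L₀ Kb) M q hq.out hqM hq3 tM htM Q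
  have helem := s34d_elem_t3_1 M q hq.out hqM ↥L₀ (algebraMap ↥L₀ Kb) _ (s37r_G P L₀ ϖ hϖ) hπ hq2
    h3M tM htM hwV hred
  have hC := s34f_chartContract_w1 (s37r_G P L₀ ϖ hϖ) (algebraMap ↥L₀ Kb) M q hq.out hqM _ hwO hα 1
    (hfix 1) helem
  have hNeq := s33t_nodeN_t3_eq M q hqM P L₀ ϖ hϖ (heckeAlphaBar ↥L₀ M q tM) hwt
  have key := s59b_newtoric_W_inst M q hqM P hP L₀ ϖ hϖ hT hdegM tM hwV
    (by rw [hred']; exact s37b_coord_t3 _ q)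
    (by intro τ; rw [hred']; exact s18u_coeffMap_t3 _)
    (s34dt_hmain_t3 M q hqM ↥L₀ (algebraMap ↥L₀ Kb) _ (s37r_G P L₀ ϖ hϖ) hπ hT hdegM hq2 h3M tM htM)
    (heckeAlphaBar ↥L₀ M q tM) rfl hα
    (s34e_ch_alpha₁' (s37r_G P L₀ ϖ hϖ) (algebraMap ↥L₀ Kb) M q hq.out hqM tM _ rfl)
    (s34e_ch_beta₁' (s37r_G P L₀ ϖ hϖ) (algebraMap ↥L₀ Kb) M q hq.out hqM htM0 _ rfl hclaim)
    (s33k_sd_exists_node_t3 (s37r_G P L₀ ϖ hϖ) (algebraMap ↥L₀ Kb) M q hq.out hqM h3M hq3 _ hwt)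
    (fun Q hQ => s59n_chart_al_t3 (s37r_G P L₀ ϖ hϖ) (algebraMap ↥L₀ Kb) M q hq.out hqM hq3 tM htM Q
      hQ)
    hfix _ hC ζ hζ m hm0 f₀ hf₀ hdiv (fun Q _ => hrat Q) hnα hnβ hK hσ
  obtain ⟨h, hKh, hI, hZ, hI', hZ', hnode, hri, hrz⟩ := key
  exact ⟨h, hKh, hI, hZ, hI', hZ', by rw [hNeq]; exact hnode, hri, hrz⟩

end InstT3

section Descent

variable (M q : ℕ) [NeZero M] [hq : Fact q.Prime] (hqM : ¬ q ∣ M) (hq2 : q = 2) (h3M : 3 ∣ M)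
  (m : ℕ) (hm0 : m ≠ 0) (P : ValuationSubring Kb) (hP : P.LiesOverPrime q)

include hq2 h3M hm0 hP in
set_option maxHeartbeats 3200000 in
/-- **"new ⟹ `(1 + w_q σ)`-toric"**, branch `q = 2`, `3 ∣ M`. -/
theorem s59b_newtoric_t3 {σ : Γℚ} (hσ : P.IsFrobeniusAt σ q)
    (z : JZero (M * q)) (hz : m • z = 0)
    (h1 : haveI : NeZero q := ⟨hq.out.ne_zero⟩
      s35c_alphaPush M q hq.out hqM z = 0)
    (h2 : haveI : NeZero q := ⟨hq.out.ne_zero⟩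
      s35c_betaPush M q hq.out hqM z = 0) :
    haveI : NeZero q := ⟨hq.out.ne_zero⟩
    s59n_ToricN M q m hqM P (s33t_nodeN_t3 M q hqM P)
      (z + s59m_wq M q hq.out hqM (σ • z)) := by
  classical
  haveI : NeZero q := ⟨hq.out.ne_zero⟩
  haveI : NeZero (M * q) := ⟨mul_ne_zero (NeZero.ne M) (NeZero.ne q)⟩
  obtain ⟨D, rfl⟩ := Pic0.mk_surjective z
  -- `m • D` is principal
  have hmD : (Pic0.mk (m • D) : JZero (M * q)) = 0 := by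
    rw [← hz]
    exact map_nsmul (QuotientAddGroup.mk' _) m D
  have hmD' : ((m • D : Divisor.degZero (K := Kb) (F := ffi_F (M * q))) :
      Divisor Kb (ffi_F (M * q))) ∈ Divisor.principal (K := Kb) (F := ffi_F (M * q)) :=
    (QuotientAddGroup.eq_zero_iff (m • D)).mp hmD
  obtain ⟨f, hf, hfD⟩ := hmD'
  have hfD' : ∀ v : Place Kb (ffi_F (M * q)),
      (m : ℤ) * (D : Divisor Kb (ffi_F (M * q))) v = v.ord f := by
    intro v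
    rw [← hfD v, AddSubgroupClass.coe_nsmul, Finsupp.smul_apply, nsmul_eq_mul]
  have hdivf : ∀ v : Place Kb (ffi_F (M * q)), (m : ℤ) ∣ v.ord f := fun v => ⟨_, (hfD' v).symm⟩
  obtain ⟨c₁, h₁, hc₁⟩ := s35r_norm_of_pushforward (heckeAlphaBar Kb M q)
    (s37l_isIntegral_of_finite _ (s37w_finite_alpha M q hq.out hqM))
    (s37w_finite_alpha M q hq.out hqM) (s37l_normFormulaAlong _ _) (s35r_const M) m _ hf hfD'
    (s35c_principal_of_alphaPush_eq_zero M q hq.out hqM _ D h1)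
  obtain ⟨c₂, h₂, hc₂⟩ := s35r_norm_of_pushforward (heckeBetaBar Kb M q)
    (s37l_isIntegral_of_finite _ (s37w_finite_beta M q hq.out hqM))
    (s37w_finite_beta M q hq.out hqM) (s37l_normFormulaAlong _ _) (s35r_const M) m _ hf hfD'
    (s35c_principal_of_betaPush_eq_zero M q hq.out hqM _ D h2)
  -- a primitive `q`-th root of unity
  obtain ⟨ζ, hζ⟩ := HasEnoughRootsOfUnity.exists_primitiveRoot Kb q
  -- the fields
  obtain ⟨L₁, hfd₁, hL₁⟩ := s18q_exists_field (M * q) {f}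
  obtain ⟨L₁', hfd₁', hL₁'⟩ := s18q_exists_field M {h₁, h₂}
  obtain ⟨L₁'', hfd₁'', hL₁''⟩ := s35q_exists_field_const {c₁, c₂, ζ}
  obtain ⟨L₂, hfd₂, hL₂⟩ := s34q_exists_field_rat (M * q) f hf
  refine ⟨L₁ ⊔ L₁' ⊔ L₁'' ⊔ L₂, inferInstance, ?_⟩
  intro L₀ hfd₀ hnorm hdvr ϖ hϖ hLx
  have hL₁₀ : L₁ ≤ L₀ := le_trans (le_trans (le_trans le_sup_left le_sup_left) le_sup_left) hLx
  have hL₁'₀ : L₁' ≤ L₀ := le_trans (le_trans (le_trans le_sup_right le_sup_left) le_sup_left) hLx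
  have hL₁''₀ : L₁'' ≤ L₀ := le_trans (le_trans le_sup_right le_sup_left) hLx
  have hL₂₀ : L₂ ≤ L₀ := le_trans le_sup_right hLx
  -- the models
  obtain ⟨f₀, hf₀⟩ := s18q_incl_range_mono (M * q) hL₁₀ (hL₁ f (Finset.mem_singleton_self f))
  obtain ⟨h₁₀, hh₁₀⟩ := s18q_incl_range_mono M hL₁'₀ (hL₁' h₁ (by simp))
  obtain ⟨h₂₀, hh₂₀⟩ := s18q_incl_range_mono M hL₁'₀ (hL₁' h₂ (by simp))
  have hc₁₀ : c₁ ∈ L₀ := hL₁''₀ (hL₁'' c₁ (by simp))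
  have hc₂₀ : c₂ ∈ L₀ := hL₁''₀ (hL₁'' c₂ (by simp))
  have hζ₀ : ζ ∈ L₀ := hL₁''₀ (hL₁'' ζ (by simp))
  have hf₀0 : f₀ ≠ 0 := by
    rintro rfl
    exact hf (by rw [← hf₀, map_zero])
  -- the root of unity in `L₀`
  have hζ₁ : IsPrimitiveRoot (⟨ζ, hζ₀⟩ : ↥L₀) q := by
    have : IsPrimitiveRoot (algebraMap ↥L₀ Kb ⟨ζ, hζ₀⟩) q := hζ
    exact this.of_map_of_injective (algebraMap ↥L₀ Kb).injective
  have hζ' : ∃ ζ₀ : ↥L₀, IsPrimitiveRoot ζ₀ q := ⟨_, hζ₁⟩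
  have hζu : IsUnit (⟨ζ, hζ₀⟩ : ↥L₀) := hζ₁.isUnit (NeZero.ne q)
  -- the norms over `L₀`
  obtain ⟨hNCα, hNCβ⟩ := s35q_normCompat M q hq.out hqM L₀ hζ' f₀
  have hnα : s35r_normAlong (heckeAlphaBar ↥L₀ M q) f₀ =
      algebraMap ↥L₀ _ ⟨c₁, hc₁₀⟩ * h₁₀ ^ m := by
    apply s18q_incl_injective M L₀
    rw [hNCα, hf₀, hc₁, map_mul, map_pow, hh₁₀]
    congr 1
    exact (s18q_map_algebraMap (algebraMap ↥L₀ Kb) (modularFunctionFieldFull M) ⟨c₁, hc₁₀⟩).symm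
  have hnβ : s35r_normAlong (heckeBetaBar ↥L₀ M q) f₀ =
      algebraMap ↥L₀ _ ⟨c₂, hc₂₀⟩ * h₂₀ ^ m := by
    apply s18q_incl_injective M L₀
    rw [hNCβ, hf₀, hc₂, map_mul, map_pow, hh₂₀]
    congr 1
    exact (s18q_map_algebraMap (algebraMap ↥L₀ Kb) (modularFunctionFieldFull M) ⟨c₂, hc₂₀⟩).symm
  -- divisibility and rationality over `L₀`
  have hdiv₀ : ∀ Q : Place ↥L₀ ↥(laurentBaseChange ↥L₀ (modularFunctionFieldFull (M * q))),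
      (m : ℤ) ∣ Q.ord f₀ :=
    s18q_dvd_ord_descend (M * q) L₀ m f₀ (fun P => by rw [hf₀]; exact hdivf P)
  have hrat : ∀ Q : Place ↥L₀ ↥(laurentBaseChange ↥L₀ (modularFunctionFieldFull (M * q))),
      Q.ord f₀ ≠ 0 → Q.deg = 1 := hL₂ L₀ hL₂₀ f₀ hf₀
  -- the Kummer generator
  have hK : s33d_IsKumGen m (Pic0.mk D : JZero (M * q)) (s18q_incl (M * q) L₀ f₀) := by
    rw [hf₀]
    exact ⟨hf, D, rfl, fun v => (hfD' v).symm⟩
  exact s59b_newtoric_t3_inst M q hqM hq2 h3M P hP L₀ ϖ hϖ hζu.unit hζ₁ m hm0 f₀ hf₀0 hdiv₀ hrat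
    ⟨_, _, hnα⟩ ⟨_, _, hnβ⟩ hK hσ

end Descent

section Signed

variable (M q : ℕ) [NeZero M] [NeZero q]

/-- **SIGNED NEW-WEIGHT on `J₀(M q)[m]`, branch `q = 2`, `3 ∣ M`**: a class killed by `m`, `α_*` and `β_*` satisfies
`(σ + q w_q)(σ + w_q) z = 0` for every Frobenius element `σ` at a place over `q`. -/
theorem s59b_NW_signed_t3 (hq : q.Prime) (hqM : ¬ q ∣ M) (hq2 : q = 2) (h3M : 3 ∣ M)
    (m : ℕ) (hm : ¬ q ∣ m)
    (A : ValuationSubring Kb) (hA : A.LiesOverPrime q) (σ : s29k_G) (hσ : A.IsFrobeniusAt σ q)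
    (z : JZero (M * q)) (hz : m • z = 0)
    (h1 : s35c_alphaPush M q hq hqM z = 0) (h2 : s35c_betaPush M q hq hqM z = 0) :
    σ • σ • z + (q + 1) • s59m_wq M q hq hqM (σ • z) + q • z = 0 := by
  haveI : Fact q.Prime := ⟨hq⟩
  have hm0 : m ≠ 0 := by
    rintro rfl
    exact hm (dvd_zero q)
  have hx := s59b_newtoric_t3 M q hqM hq2 h3M m hm0 A hA hσ z hz h1 h2
  have key := s59b_toric_geo_t3_n M q hqM hq2 h3M m hm0 hm A hA hx hσ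
  -- `σ x' = -q w x'` with `x' = z + w σ z`
  have e1 : σ • (z + s59m_wq M q hq hqM (σ • z)) =
      σ • z + s59m_wq M q hq hqM (σ • σ • z) := by
    rw [smul_add, ← s59m_wq_smul]
  have e2 : s59m_wq M q hq hqM (z + s59m_wq M q hq hqM (σ • z)) =
      s59m_wq M q hq hqM z + σ • z := by
    rw [map_add, s59m_wq_wq]
  have key' : σ • z + s59m_wq M q hq hqM (σ • σ • z) =
      (-(q : ℤ)) • (s59m_wq M q hq hqM z + σ • z) := by
    rw [← e1, ← e2]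
    exact key
  have h3 := congrArg (s59m_wq M q hq hqM) key'
  rw [map_add, s59m_wq_wq, map_zsmul, map_add, s59m_wq_wq] at h3
  -- `w σ z + σ² z = -q (z + w σ z)`
  rw [neg_smul, natCast_zsmul, nsmul_add] at h3
  have h4 : σ • σ • z + (q + 1) • s59m_wq M q hq hqM (σ • z) + q • z =
      (s59m_wq M q hq hqM (σ • z) + σ • σ • z) +
        (q • z + q • s59m_wq M q hq hqM (σ • z)) := by
    rw [add_smul, one_smul]
    abel
  rw [h4, h3, neg_add_cancel]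

end Signed

end Fermat.Agent.Lib.S59
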