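/-
Programme (R2) / [S35±] (helper2, prefix `s59b_`): **CHANGE OF LEVEL FOR THE SIGNED NEW-WEIGHT** `(σ + q w_q)(σ + w_q) = 0`
on the `q`-new part of `J₀(M q)[m]`: from level `(d M) q` to level `M q`, `d` a prime with `d ∤ M q`,
`(q + 1, d + 1) = 1 = (d + 1, m)` (signed twin of `s35r_levelChange`, done on Kummer generators).

* `s59b_incl_al_lvl`    : the inclusion `F̄(M q) ⊆ F̄(d M q)` intertwines the two Atkin–Lehner involutions `w_q`;
* `s59b_push_principal_of_norm` : `m D = div f`, `N_φ f = c h ^ m` ⇒ `φ_* D` principal (converse of `s35r_norm_of_pushforward`);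
* `s59b_kumGen_signed` : the Kummer generator of `g² z + (q + 1) W g z + q z`;
* `s59b_NW_signed_levelChange` : the change of level;
* **`s59b_NW_signed`** : the SIGNED NEW-WEIGHT for `q = 2` at ALL odd levels `M` (from `s59b_NW_signed_t3`, `B7NewT.lean`).
-/
import Fermat.Agent.Lib.S59.B7NewT
import Fermat.Agent.Lib.S33.LPull
import Fermat.Agent.Lib.S35.RLevel

set_option autoImplicit false
set_option linter.style.haveILetI false
set_option linter.unusedSectionVars false
set_option synthInstance.maxHeartbeats 400000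

noncomputable section

namespace Fermat.Agent.Lib.S59

open ModularCurve AlgebraicCurve Fermat.Agent.Lib.FF Fermat.Agent.Lib.S18
  Fermat.Agent.Lib.S37 Fermat.Agent.Lib.S33 Fermat.Agent.Lib.S35 Fermat.Agent.Lib.S29
  Fermat.Agent.Lib.S28 Module

local notation "Kb" => AlgebraicClosure ℚ
local notation "Γℚ" => (AlgebraicClosure ℚ ≃ₐ[ℚ] AlgebraicClosure ℚ)

section AL

variable (M q d : ℕ) [NeZero M] [NeZero q] [NeZero (d * M)]

/-- **The inclusion of levels intertwines the Atkin–Lehner involutions `w_q`.** -/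
theorem s59b_incl_al_lvl (hq : q.Prime) (hqM : ¬ q ∣ M) (hqdM : ¬ q ∣ d * M) (y : ffi_F (M * q)) :
    s37l_incl (M * q) (d * M * q) (s37l_dvd_level M d q) (s37w_al M q hq hqM y) =
      s37w_al (d * M) q hq hqdM (s37l_incl (M * q) (d * M * q) (s37l_dvd_level M d q) y) := by
  have key : (s37l_incl (M * q) (d * M * q) (s37l_dvd_level M d q)).comp
      (s37w_al M q hq hqM : ffi_F (M * q) →ₐ[Kb] ffi_F (M * q)) =
      (s37w_al (d * M) q hq hqdM : ffi_F (d * M * q) →ₐ[Kb] ffi_F (d * M * q)).comp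
        (s37l_incl (M * q) (d * M * q) (s37l_dvd_level M d q)) := by
    refine s37w_algHom_ext (M * q) _ _ fun D x hx => ?_
    apply Subtype.ext
    rw [AlgHom.comp_apply, AlgHom.comp_apply]
    show ((s37l_incl (M * q) (d * M * q) (s37l_dvd_level M d q) (s37w_al M q hq hqM x) :
        ffi_F (d * M * q)) : LaurentSeries Kb) =
      ((s37w_al (d * M) q hq hqdM (s37l_incl (M * q) (d * M * q) (s37l_dvd_level M d q) x) :
        ffi_F (d * M * q)) : LaurentSeries Kb)
    let D' : s28w_Idx (d * M * q) := ⟨D.1, D.2.trans (s37l_dvd_level M d q)⟩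
    have h1 : ((s37l_incl (M * q) (d * M * q) (s37l_dvd_level M d q) x : ffi_F (d * M * q)) :
        LaurentSeries Kb) = s37w_gen (d * M * q) D' := by
      rw [s37l_coe_incl, hx]; rfl
    rw [s37l_coe_incl, s37w_al_gen M q hq hqM D x hx, s37w_al_gen (d * M) q hq hqdM D' _ h1,
      s37w_gen, s37w_gen]
    have h2 : (s37w_alCo M q hq D).1 = (s37w_alCo (d * M) q hq D').1 := by
      by_cases h : q ∣ D.1
      · rw [s37w_alCo_of_dvd M q hq D h, s37w_alCo_of_dvd (d * M) q hq D' h]
      · rw [s37w_alCo_of_not_dvd M q hq D h, s37w_alCo_of_not_dvd (d * M) q hq D' h]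
    exact congrArg _ (qExpand_congr h2 jq)
  exact AlgHom.congr_fun key y

end AL

section Generic

variable {K F F₀ : Type*} [Field K] [Field F] [Field F₀] [Algebra K F] [Algebra K F₀]
  [HasPrincipalDivisors K F] [HasPrincipalDivisors K F₀]

/-- if `m D = div f` and the norm of `f` along `φ` is `c h ^ m`, then `φ_* D = div h`. -/
theorem s59b_push_principal_of_norm (φ : F₀ →ₐ[K] F) (hφ : φ.toRingHom.IsIntegral)
    (hfin : FiniteAlong K φ) (hN : NormFormulaAlong K φ hfin)
    (m : ℕ) (hm : m ≠ 0) (D : Divisor K F) {f : F} (hf : f ≠ 0)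
    (hfD : ∀ v : Place K F, (m : ℤ) * D v = v.ord f)
    (hn : ∃ (c : K) (h : F₀), s35r_normAlong φ f = algebraMap K F₀ c * h ^ m) :
    (Divisor.pushforwardAlong φ hφ D).IsPrincipal := by
  obtain ⟨c, h, hch⟩ := hn
  have hnf : s35r_normAlong φ f ≠ 0 := by
    letI := algebraAlong φ
    haveI : Module.Finite F₀ F := hfin
    exact Algebra.norm_ne_zero_iff.mpr hf
  have hc : algebraMap K F₀ c ≠ 0 := by
    intro h0
    rw [h0, zero_mul] at hch
    exact hnf hch
  have hh : h ≠ 0 := by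
    intro h0
    rw [h0, zero_pow hm, mul_zero] at hch
    exact hnf hch
  refine ⟨h, hh, fun v => ?_⟩
  have h2 := s37l_normFormulaAlong_apply φ hφ hfin hN hf (D := m • D)
    (fun w => by rw [Finsupp.smul_apply, nsmul_eq_mul]; exact hfD w) v
  have h3 : v.ord (s35r_normAlong φ f) = (m : ℤ) * v.ord h := by
    rw [hch, v.ord_mul hc (pow_ne_zero m hh), ff_ord_algebraMap, zero_add, ← zpow_natCast h m,
      v.ord_zpow]
  rw [map_nsmul, Finsupp.smul_apply, nsmul_eq_mul] at h2
  have h4 : (m : ℤ) * Divisor.pushforwardAlong φ hφ D v = (m : ℤ) * v.ord h := h2.trans h3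
  have hm' : (m : ℤ) ≠ 0 := by exact_mod_cast hm
  exact mul_left_cancel₀ hm' h4

omit [HasPrincipalDivisors K F] [HasPrincipalDivisors K F₀] in
/-- the Kummer generator of `g² z + (q + 1) W g z + q z`. -/
theorem s59b_kumGen_signed (g W : SemilinearAut K F) {m : ℕ} {z : Pic0 K F} {f : F}
    (hf : s33d_IsKumGen m z f) (q : ℕ) :
    s33d_IsKumGen m (g • g • z + (q + 1) • (W • (g • z)) + q • z)
      ((g • g • f) * (W • (g • f)) ^ (q + 1) * f ^ q) :=
  s33d_kumGen_prod
    (s33d_kumGen_prod (s33d_kumGen_smul g (s33d_kumGen_smul g hf))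
      (s33l_kumGen_pow (s33d_kumGen_smul W (s33d_kumGen_smul g hf)) (q + 1)))
    (s33l_kumGen_pow hf q)

end Generic

section Change

variable (M q d : ℕ) [NeZero M] [NeZero q] [NeZero (d * M)]

set_option maxHeartbeats 1600000 in
/-- **Change of level for the signed NEW-WEIGHT.** -/
theorem s59b_NW_signed_levelChange (hq : q.Prime) (hqM : ¬ q ∣ M) (hd : d.Prime) (hdM : ¬ d ∣ M)
    (hdq : d ≠ q) (hqdM : ¬ q ∣ d * M) (hcop : (q + 1).Coprime (d + 1)) (m : ℕ) (hm : m ≠ 0)
    (hcopm : (d + 1).Coprime m) (σ : Γℚ)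
    (H : ∀ z' : JZero (d * M * q), m • z' = 0 → s35c_alphaPush (d * M) q hq hqdM z' = 0 →
      s35c_betaPush (d * M) q hq hqdM z' = 0 →
      σ • σ • z' + (q + 1) • s59m_wq (d * M) q hq hqdM (σ • z') + q • z' = 0)
    (z : JZero (M * q)) (hz : m • z = 0)
    (h1 : s35c_alphaPush M q hq hqM z = 0) (h2 : s35c_betaPush M q hq hqM z = 0) :
    σ • σ • z + (q + 1) • s59m_wq M q hq hqM (σ • z) + q • z = 0 := by
  have hdMq : ¬ d ∣ M * q := by
    intro hdvd
    rcases (Nat.Prime.dvd_mul hd).mp hdvd with h | h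
    · exact hdM h
    · exact hdq ((Nat.prime_dvd_prime_iff_eq hd hq).mp h)
  -- the maps
  set α := heckeAlphaBar Kb M q with hαdef
  set β := heckeBetaBar Kb M q with hβdef
  set α' := heckeAlphaBar Kb (d * M) q with hα'def
  set β' := heckeBetaBar Kb (d * M) q with hβ'def
  set π₀ := s37l_incl M (d * M) (dvd_mul_left M d) with hπ₀def
  set π := s37l_incl (M * q) (d * M * q) (s37l_dvd_level M d q) with hπdef
  have hsqα : α'.comp π₀ = π.comp α := s37l_sq_alpha M d q
  have hsqβ : β'.comp π₀ = π.comp β := s37l_sq_beta M d q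
  have hfinα : FiniteAlong Kb α := s37w_finite_alpha M q hq hqM
  have hfinβ : FiniteAlong Kb β := s37w_finite_beta M q hq hqM
  have hfinα' : FiniteAlong Kb α' := s37w_finite_alpha (d * M) q hq hqdM
  have hfinβ' : FiniteAlong Kb β' := s37w_finite_beta (d * M) q hq hqdM
  have hfinπ₀ : FiniteAlong Kb π₀ := s37l_finite_incl M d hd hdM
  have hdegα : finrankAlong Kb α = q + 1 := s37w_finrank_alpha M q hq hqM
  have hdegβ : finrankAlong Kb β = q + 1 := s37w_finrank_beta M q hq hqM
  have hdegα' : finrankAlong Kb α' = q + 1 := s37w_finrank_alpha (d * M) q hq hqdM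
  have hdegβ' : finrankAlong Kb β' = q + 1 := s37w_finrank_beta (d * M) q hq hqdM
  have hdegπ₀ : finrankAlong Kb π₀ = d + 1 := s37l_finrank_incl M d hd hdM
  obtain ⟨hfinπ, hdegπ⟩ := s35r_incl_data (M * q) (d * M * q) d hd hdMq (by ring)
    (s37l_dvd_level M d q)
  have hn₁ : ∀ f : ffi_F (M * q), s35r_normAlong α' (π f) = π₀ (s35r_normAlong α f) := fun f =>
    s37l_norm_baseChangeAlong α π₀ α' π hsqα hfinα hfinπ₀ (by rw [hdegα, hdegπ₀]; exact hcop)
      (by rw [hdegα', hdegα]) f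
  have hn₂ : ∀ f : ffi_F (M * q), s35r_normAlong β' (π f) = π₀ (s35r_normAlong β f) := fun f =>
    s37l_norm_baseChangeAlong β π₀ β' π hsqβ hfinβ hfinπ₀ (by rw [hdegβ, hdegπ₀]; exact hcop)
      (by rw [hdegβ', hdegβ]) f
  have hroots : ∀ ζ : ffi_F (d * M * q), ζ ^ m = 1 → ζ ∈ π.toRingHom.range := by
    intro ζ hζ
    obtain ⟨μ, hμ⟩ := s18l_root_of_unity_const m hm (ζ : LaurentSeries Kb) (by
      have := congrArg Subtype.val hζ
      simpa using this)
    refine ⟨algebraMap Kb (ffi_F (M * q)) μ, ?_⟩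
    show π _ = ζ
    rw [AlgHom.commutes]
    exact Subtype.ext hμ
  -- the semilinear automorphisms
  set g := arithmeticGalois (L := Kb) (modularFunctionFieldFull (M * q)) σ with hgdef
  set g' := arithmeticGalois (L := Kb) (modularFunctionFieldFull (d * M * q)) σ with hg'def
  set W := SemilinearAut.ofAlgAut (s37w_al M q hq hqM) with hWdef
  set W' := SemilinearAut.ofAlgAut (s37w_al (d * M) q hq hqdM) with hW'def
  have hπg : ∀ y : ffi_F (M * q), π (g • y) = g' • π y := fun y =>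
    (s37l_incl_intertwines (M * q) (d * M * q) (s37l_dvd_level M d q) σ y).symm
  have hπW : ∀ y : ffi_F (M * q), π (W • y) = W' • π y := by
    intro y
    rw [hWdef, hW'def, SemilinearAut.ofAlgAut_smul, SemilinearAut.ofAlgAut_smul]
    exact s59b_incl_al_lvl M q d hq hqM hqdM y
  -- a Kummer generator of `z` and its pull-back
  obtain ⟨f, hKf⟩ := s33d_exists_kumGen m z hz
  have hf0 : f ≠ 0 := hKf.1
  have hdvd : M * q ∣ d * M * q := s37l_dvd_level M d q
  set z' : JZero (d * M * q) := s33l_pull hdvd z with hz'def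
  have hKf' : s33d_IsKumGen m z' (π f) :=
    s33l_kumGen_pull (s33l_incl hdvd) (s33l_integral hdvd) (s33l_FI hdvd) hKf
  have hz' : m • z' = 0 := by rw [hz'def, ← map_nsmul, hz, map_zero]
  -- the norm conditions
  have hnα : ∃ (c : Kb) (h : ffi_F M), s35r_normAlong α f = algebraMap Kb _ c * h ^ m := by
    obtain ⟨-, D, rfl, hD⟩ := hKf
    exact s35r_norm_of_pushforward α (s37l_isIntegral_of_finite _ hfinα) hfinα
      (s37l_normFormulaAlong _ _) (s35r_const M) m _ hf0 (fun v => (hD v).symm)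
      (s35c_principal_of_alphaPush_eq_zero M q hq hqM _ D h1)
  have hnβ : ∃ (c : Kb) (h : ffi_F M), s35r_normAlong β f = algebraMap Kb _ c * h ^ m := by
    obtain ⟨-, D, rfl, hD⟩ := hKf
    exact s35r_norm_of_pushforward β (s37l_isIntegral_of_finite _ hfinβ) hfinβ
      (s37l_normFormulaAlong _ _) (s35r_const M) m _ hf0 (fun v => (hD v).symm)
      (s35c_principal_of_betaPush_eq_zero M q hq hqM _ D h2)
  have hπf0 : π f ≠ 0 := (map_ne_zero _).mpr hf0
  have h1' : s35c_alphaPush (d * M) q hq hqdM z' = 0 := by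
    obtain ⟨c, h, hch⟩ := hnα
    obtain ⟨-, D', hD'z, hD'⟩ := hKf'
    rw [← hD'z]
    refine s35c_alphaPush_eq_zero_of_principal (d * M) q hq hqdM
      (s37l_isIntegral_of_finite _ hfinα') D' ?_
    exact s59b_push_principal_of_norm α' _ hfinα' (s37l_normFormulaAlong _ _) m hm _ hπf0
      (fun v => (hD' v).symm) ⟨c, π₀ h, by rw [hn₁, hch, map_mul, map_pow, AlgHom.commutes]⟩
  have h2' : s35c_betaPush (d * M) q hq hqdM z' = 0 := by
    obtain ⟨c, h, hch⟩ := hnβ
    obtain ⟨-, D', hD'z, hD'⟩ := hKf'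
    rw [← hD'z]
    refine s35c_betaPush_eq_zero_of_principal (d * M) q hq hqdM
      (s37l_isIntegral_of_finite _ hfinβ') D' ?_
    exact s59b_push_principal_of_norm β' _ hfinβ' (s37l_normFormulaAlong _ _) m hm _ hπf0
      (fun v => (hD' v).symm) ⟨c, π₀ h, by rw [hn₂, hch, map_mul, map_pow, AlgHom.commutes]⟩
  -- the relation at the top level, on Kummer generators
  have hR' := H z' hz' h1' h2'
  have hKR' := s59b_kumGen_signed g' W' hKf' q
  have hR'' : g' • g' • z' + (q + 1) • (W' • (g' • z')) + q • z' = 0 := hR'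
  rw [hR''] at hKR'
  obtain ⟨c, x', hc, hx'0, hx'⟩ := (s33d_kumGen_zero_iff
    (fun u _ hord => s18e_const_of_ord_nonpos (d * M * q) u (fun P => (hord P).le)) hm hKR').1 rfl
  -- descent of the `m`-th root
  set Ff : ffi_F (M * q) := (g • g • f) * (W • (g • f)) ^ (q + 1) * f ^ q with hFf
  have hπF : π Ff = (g' • g' • π f) * (W' • (g' • π f)) ^ (q + 1) * π f ^ q := by
    rw [hFf, map_mul, map_mul, map_pow, map_pow, hπg, hπg, hπW, hπg]
  rw [← hπF] at hx'
  letI : Algebra (ffi_F (M * q)) (ffi_F (d * M * q)) := algebraAlong π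
  haveI : IsScalarTower Kb (ffi_F (M * q)) (ffi_F (d * M * q)) := isScalarTower_along π
  haveI : FiniteDimensional (ffi_F (M * q)) (ffi_F (d * M * q)) := hfinπ
  have hπalg : ∀ y : ffi_F (M * q), algebraMap (ffi_F (M * q)) (ffi_F (d * M * q)) y = π y :=
    fun y => rfl
  have hc' : algebraMap Kb (ffi_F (d * M * q)) c ≠ 0 := (map_ne_zero _).mpr hc
  have hxpow : x' ^ m ∈ (algebraMap (ffi_F (M * q)) (ffi_F (d * M * q))).range := by
    refine ⟨algebraMap Kb (ffi_F (M * q)) c⁻¹ * Ff, ?_⟩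
    rw [hπalg, map_mul, hx', AlgHom.commutes, map_inv₀, ← mul_assoc, inv_mul_cancel₀ hc', one_mul]
  obtain ⟨x, rfl⟩ := s18l_mem_of_pow_mem m hm
    (by show (finrankAlong Kb π).Coprime m; rw [hdegπ]; exact hcopm) hroots _ hxpow
  have hx0 : x ≠ 0 := by
    rintro rfl
    exact hx'0 (map_zero _)
  have hFx : Ff = algebraMap Kb (ffi_F (M * q)) c * x ^ m := by
    apply π.toRingHom.injective
    show π _ = π _
    rw [hx', map_mul, map_pow, AlgHom.commutes]
    rfl
  -- conclusion
  have hKR := s59b_kumGen_signed g W hKf q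
  have hzero := (s33d_kumGen_zero_iff
    (fun u _ hord => s18e_const_of_ord_nonpos (M * q) u (fun P => (hord P).le)) hm hKR).2
    ⟨c, x, hc, hx0, hFx⟩
  exact hzero

end Change

section Final

variable (M q : ℕ) [NeZero M] [NeZero q]

/-- **SIGNED NEW-WEIGHT on `J₀(M q)[m]` for `q = 2`, ALL levels `M` prime to `q`**: a class killed by `m` (odd), `α_*` and
`β_*` satisfies `(σ + q w_q)(σ + w_q) z = 0` for every Frobenius element `σ` at a place over `q`. -/
theorem s59b_NW_signed (hq : q.Prime) (hqM : ¬ q ∣ M) (hq2 : q = 2) (m : ℕ) (hm : ¬ q ∣ m)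
    (A : ValuationSubring Kb) (hA : A.LiesOverPrime q) (σ : s29k_G) (hσ : A.IsFrobeniusAt σ q)
    (z : JZero (M * q)) (hz : m • z = 0)
    (h1 : s35c_alphaPush M q hq hqM z = 0) (h2 : s35c_betaPush M q hq hqM z = 0) :
    σ • σ • z + (q + 1) • s59m_wq M q hq hqM (σ • z) + q • z = 0 := by
  have hm0 : m ≠ 0 := by
    rintro rfl
    exact hm (dvd_zero q)
  by_cases h3 : 3 ∣ M
  · exact s59b_NW_signed_t3 M q hq hqM hq2 h3 m hm A hA σ hσ z hz h1 h2
  · haveI : NeZero (3 * M) := ⟨mul_ne_zero (by norm_num) (NeZero.ne M)⟩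
    have hq3M : ¬ q ∣ 3 * M := by
      intro hdvd
      rcases (Nat.Prime.dvd_mul hq).mp hdvd with h | h
      · rw [hq2] at h; norm_num at h
      · exact hqM h
    refine s59b_NW_signed_levelChange M q 3 hq hqM (by norm_num) h3 (by omega) hq3M
      (by rw [hq2]; norm_num) m hm0 ?_ σ ?_ z hz h1 h2
    · have h2m : Nat.Coprime 2 m :=
        (Nat.Prime.coprime_iff_not_dvd Nat.prime_two).mpr (by rw [← hq2]; exact hm)
      exact Nat.Coprime.pow_left 2 h2m
    · intro z' hz' h1' h2'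
      exact s59b_NW_signed_t3 (3 * M) q hq hq3M hq2 (dvd_mul_right 3 M) m hm A hA σ hσ z' hz' h1'
        h2'

end Final

end Fermat.Agent.Lib.S59
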