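/-
S59 (helper5, prefix `s59e_`), (H3)(c) file 3: **abstract locality**.  `M` a nonzero finite free
module over a local ring `𝒪`; an endomorphism `x` is *locally scalar with constant `c`* if the
reduction of `x - c` modulo `𝔪` is nilpotent.  A commutative `𝒪`-algebra of locally scalar
endomorphisms is a local ring with residue field `k_𝒪` (units by Cayley–Hamilton).  Mathlib only.
-/
import Mathlib

set_option autoImplicit false
set_option linter.unusedSectionVars false
set_option linter.style.haveILetI false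

noncomputable section

namespace Fermat.Agent.Lib.S59

open IsLocalRing Polynomial
open scoped TensorProduct

/-! ### The algebra generated by the image of a commutative ring -/

section Adj

variable (𝒪 : Type*) [CommRing 𝒪] {A : Type*} [Semiring A] [IsMulCommutative A] {E : Type*}
  [Ring E] [Algebra 𝒪 E] (a : A →+* E)

/-- the `𝒪`-subalgebra generated by the image of a ring homomorphism from a commutative ring. -/
def s59e_adj : Subalgebra 𝒪 E := Algebra.adjoin 𝒪 (Set.range a)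

theorem s59e_adj_comm : ∀ x ∈ Set.range a, ∀ y ∈ Set.range a, x * y = y * x := by
  rintro _ ⟨s, rfl⟩ _ ⟨t, rfl⟩
  rw [← map_mul, ← map_mul, mul_comm']

instance s59e_adj_isMulCommutative : IsMulCommutative (s59e_adj 𝒪 a) :=
  Algebra.isMulCommutative_adjoin 𝒪 (s59e_adj_comm a)

open scoped IsMulCommutative in
instance s59e_adj_commRing : CommRing (s59e_adj 𝒪 a) := inferInstance

/-- the corestriction `A → 𝒪[a(A)]`. -/
def s59e_adjHom : A →+* s59e_adj 𝒪 a :=
  a.codRestrict (s59e_adj 𝒪 a) fun t => Algebra.subset_adjoin ⟨t, rfl⟩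

theorem s59e_adjHom_coe (t : A) : ((s59e_adjHom 𝒪 a t : s59e_adj 𝒪 a) : E) = a t := rfl

theorem s59e_adjHom_gen : Algebra.adjoin 𝒪 (Set.range (s59e_adjHom 𝒪 a)) = ⊤ := by
  have h := Algebra.adjoin_adjoin_coe_preimage (R := 𝒪) (s := Set.range a)
  have h2 : ((↑) ⁻¹' Set.range a : Set (Algebra.adjoin 𝒪 (Set.range a)))
      = Set.range (s59e_adjHom 𝒪 a) := by
    ext x
    constructor
    · rintro ⟨t, ht⟩
      exact ⟨t, Subtype.ext ht⟩
    · rintro ⟨t, rfl⟩
      exact ⟨t, rfl⟩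
  rw [h2] at h
  exact h

theorem s59e_adj_commute {x y : E} (hx : x ∈ s59e_adj 𝒪 a) (hy : y ∈ s59e_adj 𝒪 a) :
    Commute x y :=
  congrArg Subtype.val (mul_comm (⟨x, hx⟩ : s59e_adj 𝒪 a) ⟨y, hy⟩)

end Adj

/-! ### Locally scalar endomorphisms -/

section LocScalar

variable {𝒪 : Type*} [CommRing 𝒪] [IsLocalRing 𝒪] {M : Type*} [AddCommGroup M] [Module 𝒪 M]

/-- reduction modulo `𝔪` of endomorphisms. -/
abbrev s59e_red : Module.End 𝒪 M →ₐ[𝒪] Module.End (ResidueField 𝒪) (ResidueField 𝒪 ⊗[𝒪] M) :=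
  Module.End.baseChangeHom 𝒪 (ResidueField 𝒪) M

/-- `x` is locally scalar with constant `c`: the reduction of `x - c` is nilpotent. -/
def s59e_IsLocScalar (x : Module.End 𝒪 M) (c : 𝒪) : Prop :=
  IsNilpotent (s59e_red (x - c • (1 : Module.End 𝒪 M)))

theorem s59e_isLocScalar_smul_one (c : 𝒪) : s59e_IsLocScalar (c • (1 : Module.End 𝒪 M)) c := by
  unfold s59e_IsLocScalar
  rw [sub_self, map_zero]
  exact IsNilpotent.zero

theorem s59e_isLocScalar_one : s59e_IsLocScalar (1 : Module.End 𝒪 M) 1 := by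
  have := s59e_isLocScalar_smul_one (M := M) (1 : 𝒪)
  rwa [one_smul] at this

theorem s59e_IsLocScalar.add {x y : Module.End 𝒪 M} {c d : 𝒪} (hx : s59e_IsLocScalar x c)
    (hy : s59e_IsLocScalar y d) (hxy : Commute x y) : s59e_IsLocScalar (x + y) (c + d) := by
  unfold s59e_IsLocScalar at *
  have h1 : x + y - (c + d) • (1 : Module.End 𝒪 M) = (x - c • 1) + (y - d • 1) := by
    rw [add_smul]; abel
  rw [h1, map_add]
  refine Commute.isNilpotent_add ?_ hx hy
  have h2 : Commute (x - c • (1 : Module.End 𝒪 M)) (y - d • 1) := by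
    refine Commute.sub_left (Commute.sub_right hxy ?_) (Commute.sub_right ?_ ?_)
    · exact (Commute.one_right x).smul_right d
    · exact (Commute.one_left y).smul_left c
    · exact ((Commute.one_left _).smul_left c).smul_right d
  exact h2.map s59e_red

theorem s59e_IsLocScalar.neg {x : Module.End 𝒪 M} {c : 𝒪} (hx : s59e_IsLocScalar x c) :
    s59e_IsLocScalar (-x) (-c) := by
  unfold s59e_IsLocScalar at *
  have h1 : -x - (-c) • (1 : Module.End 𝒪 M) = (-1 : 𝒪) • (x - c • 1) := by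
    rw [neg_smul, neg_smul, one_smul]; abel
  rw [h1, map_smul]
  exact IsNilpotent.smul hx (-1)

theorem s59e_IsLocScalar.mul {x y : Module.End 𝒪 M} {c d : 𝒪} (hx : s59e_IsLocScalar x c)
    (hy : s59e_IsLocScalar y d) (hxy : Commute x y) : s59e_IsLocScalar (x * y) (c * d) := by
  unfold s59e_IsLocScalar at *
  have h1 : x * y - (c * d) • (1 : Module.End 𝒪 M) = (x - c • 1) * y + c • (y - d • 1) := by
    rw [sub_mul, smul_mul_assoc, one_mul, smul_sub, smul_smul]; abel
  have hc1 : Commute (x - c • (1 : Module.End 𝒪 M)) y :=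
    Commute.sub_left hxy ((Commute.one_left y).smul_left c)
  have hc2 : Commute (x - c • (1 : Module.End 𝒪 M)) (y - d • 1) := by
    refine Commute.sub_right hc1 ?_
    exact (Commute.one_right _).smul_right d
  rw [h1, map_add, map_mul, map_smul]
  refine Commute.isNilpotent_add ?_ ?_ ?_
  · refine Commute.smul_right ?_ c
    have hc3 : Commute y (y - d • (1 : Module.End 𝒪 M)) :=
      Commute.sub_right (Commute.refl y) ((Commute.one_right y).smul_right d)
    exact Commute.mul_left (hc2.map s59e_red) (hc3.map s59e_red)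
  · exact Commute.isNilpotent_mul_right (hc1.map s59e_red) hx
  · exact IsNilpotent.smul hy c

theorem s59e_red_apply (f : Module.End 𝒪 M) :
    s59e_red f = f.baseChange (ResidueField 𝒪) := rfl

/-- `a ⊗ y = 0` in `k ⊗ M` for `y ∈ 𝔪 M`. -/
theorem s59e_tmul_eq_zero_of_mem {y : M} (hy : y ∈ maximalIdeal 𝒪 • (⊤ : Submodule 𝒪 M))
    (a : ResidueField 𝒪) : a ⊗ₜ[𝒪] y = 0 := by
  refine Submodule.smul_induction_on
    (p := fun x => a ⊗ₜ[𝒪] x = (0 : ResidueField 𝒪 ⊗[𝒪] M)) hy ?_ ?_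
  · intro r hr w _
    rw [TensorProduct.tmul_smul, TensorProduct.smul_tmul', Algebra.smul_def,
      IsLocalRing.ResidueField.algebraMap_eq, (IsLocalRing.residue_eq_zero_iff r).mpr hr,
      zero_mul, TensorProduct.zero_tmul]
  · intro x y hx hy
    rw [TensorProduct.tmul_add, hx, hy, add_zero]

/-- the elementary criterion: `(x - c)ⁿ M ⊆ 𝔪 M`. -/
theorem s59e_isLocScalar_of_pow {x : Module.End 𝒪 M} {c : 𝒪} {n : ℕ}
    (h : ∀ y : M, ((x - c • (1 : Module.End 𝒪 M)) ^ n) y ∈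
      maximalIdeal 𝒪 • (⊤ : Submodule 𝒪 M)) : s59e_IsLocScalar x c := by
  refine ⟨n, ?_⟩
  rw [← map_pow, s59e_red_apply]
  refine LinearMap.ext fun w => ?_
  induction w using TensorProduct.induction_on with
  | zero => rw [map_zero, map_zero]
  | tmul a y =>
    rw [LinearMap.baseChange_tmul, LinearMap.zero_apply]
    exact s59e_tmul_eq_zero_of_mem (h y) a
  | add u v hu hv => rw [map_add, hu, hv]; simp

theorem s59e_red_smul_one (c : 𝒪) :
    s59e_red (c • (1 : Module.End 𝒪 M)) =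
      (residue 𝒪 c) • (1 : Module.End (ResidueField 𝒪) (ResidueField 𝒪 ⊗[𝒪] M)) := by
  rw [map_smul, map_one]
  refine LinearMap.ext fun w => ?_
  rw [LinearMap.smul_apply, LinearMap.smul_apply, Module.End.one_apply,
    ← IsLocalRing.ResidueField.algebraMap_eq, algebraMap_smul]

variable [Module.Free 𝒪 M] [Module.Finite 𝒪 M]

theorem s59e_nontrivial_tensor [Nontrivial M] : Nontrivial (ResidueField 𝒪 ⊗[𝒪] M) := by
  have h1 : 0 < Module.finrank 𝒪 M := (Module.finrank_pos_iff_of_free 𝒪 M).mpr inferInstance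
  have h2 : Module.finrank (ResidueField 𝒪) (ResidueField 𝒪 ⊗[𝒪] M) = Module.finrank 𝒪 M :=
    Module.finrank_baseChange
  rw [← h2] at h1
  exact Module.nontrivial_of_finrank_pos h1

/-- a locally scalar endomorphism with non-unit constant is not a unit. -/
theorem s59e_IsLocScalar.not_isUnit [Nontrivial M] {x : Module.End 𝒪 M} {c : 𝒪}
    (hx : s59e_IsLocScalar x c) (hc : c ∈ maximalIdeal 𝒪) : ¬ IsUnit x := by
  intro hu
  haveI := s59e_nontrivial_tensor (𝒪 := 𝒪) (M := M)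
  have h1 : s59e_red x = s59e_red (x - c • (1 : Module.End 𝒪 M)) := by
    have h2 : x = (x - c • (1 : Module.End 𝒪 M)) + c • 1 := by abel
    conv_lhs => rw [h2]
    rw [map_add, s59e_red_smul_one, (IsLocalRing.residue_eq_zero_iff c).mpr hc, zero_smul,
      add_zero]
  have h3 : IsUnit (s59e_red x) := hu.map s59e_red
  rw [h1] at h3
  have hx' : IsNilpotent (s59e_red (x - c • (1 : Module.End 𝒪 M))) := hx
  exact IsUnit.not_isNilpotent (R := Module.End (ResidueField 𝒪) (ResidueField 𝒪 ⊗[𝒪] M)) h3 hx'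

/-- **units**: a locally scalar endomorphism with unit constant is invertible, with inverse in
`𝒪[x]` (Cayley–Hamilton). -/
theorem s59e_IsLocScalar.exists_inv {x : Module.End 𝒪 M} {c : 𝒪}
    (hx : s59e_IsLocScalar x c) (hc : IsUnit c) :
    ∃ y ∈ Algebra.adjoin 𝒪 ({x} : Set (Module.End 𝒪 M)), x * y = 1 ∧ y * x = 1 := by
  -- the reduction is a unit
  have h1 : s59e_red x = (residue 𝒪 c) • (1 : Module.End (ResidueField 𝒪) (ResidueField 𝒪 ⊗[𝒪] M))
      + s59e_red (x - c • (1 : Module.End 𝒪 M)) := by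
    have h2 : x = c • (1 : Module.End 𝒪 M) + (x - c • 1) := by abel
    conv_lhs => rw [h2]
    rw [map_add, s59e_red_smul_one]
  have hcu : IsUnit ((residue 𝒪 c) •
      (1 : Module.End (ResidueField 𝒪) (ResidueField 𝒪 ⊗[𝒪] M))) := by
    rw [← Algebra.algebraMap_eq_smul_one]
    exact (hc.map (residue 𝒪)).map _
  have h3 : IsUnit (s59e_red x) := by
    rw [h1]
    have hx' : IsNilpotent (s59e_red (x - c • (1 : Module.End 𝒪 M))) := hx
    refine IsNilpotent.isUnit_add_left_of_commute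
      (R := Module.End (ResidueField 𝒪) (ResidueField 𝒪 ⊗[𝒪] M)) hx' hcu ?_
    exact (Commute.one_right _).smul_right _
  have h4 : IsUnit (LinearMap.det (s59e_red x)) := LinearMap.isUnit_det _ h3
  rw [s59e_red_apply, LinearMap.det_baseChange] at h4
  have h5 : IsUnit (LinearMap.det x) := by
    by_contra hnu
    have h6 : LinearMap.det x ∈ maximalIdeal 𝒪 := by
      rwa [mem_maximalIdeal, mem_nonunits_iff]
    rw [IsLocalRing.ResidueField.algebraMap_eq,
      (IsLocalRing.residue_eq_zero_iff _).mpr h6] at h4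
    exact not_isUnit_zero h4
  -- Cayley–Hamilton
  have h7 : IsUnit (x.charpoly.coeff 0) := by
    rw [LinearMap.det_eq_sign_charpoly_coeff] at h5
    exact isUnit_of_mul_isUnit_right h5
  obtain ⟨u, hu⟩ := h7
  have h8 := LinearMap.aeval_self_charpoly x
  rw [← divX_mul_X_add x.charpoly, map_add, map_mul, aeval_X, aeval_C, ← hu,
    Algebra.algebraMap_eq_smul_one] at h8
  set z := aeval x (divX x.charpoly) with hz
  have hzx : z * x = -((u : 𝒪) • (1 : Module.End 𝒪 M)) := eq_neg_of_add_eq_zero_left h8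
  have hxz : x * z = z * x := by
    have h9 : z * x = aeval x (divX x.charpoly * X) := by rw [map_mul, aeval_X]
    have h10 : x * z = aeval x (X * divX x.charpoly) := by rw [map_mul, aeval_X]
    rw [h9, h10, mul_comm]
  have huinv : ((u⁻¹ : 𝒪ˣ) : 𝒪) * (u : 𝒪) = 1 := Units.inv_mul u
  refine ⟨-(((u⁻¹ : 𝒪ˣ) : 𝒪) • z), ?_, ?_, ?_⟩
  · refine Subalgebra.neg_mem _ (Subalgebra.smul_mem _ ?_ _)
    exact Polynomial.aeval_mem_adjoin_singleton 𝒪 x
  · rw [mul_neg, mul_smul_comm, hxz, hzx, smul_neg, neg_neg, smul_smul, huinv, one_smul]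
  · rw [neg_mul, smul_mul_assoc, hzx, smul_neg, neg_neg, smul_smul, huinv, one_smul]

/-- a commuting family of locally scalar endomorphisms generates an algebra of locally scalar
endomorphisms. -/
theorem s59e_locScalar_adjoin {I : Type*} (g : I → Module.End 𝒪 M)
    (hcomm : ∀ i j, Commute (g i) (g j)) (c : I → 𝒪) (hg : ∀ i, s59e_IsLocScalar (g i) (c i))
    {x : Module.End 𝒪 M} (hx : x ∈ Algebra.adjoin 𝒪 (Set.range g)) :
    ∃ d : 𝒪, s59e_IsLocScalar x d := by
  have hmc : IsMulCommutative (Algebra.adjoin 𝒪 (Set.range g)) :=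
    Algebra.isMulCommutative_adjoin 𝒪 (by
      rintro _ ⟨i, rfl⟩ _ ⟨j, rfl⟩
      exact hcomm i j)
  have hc : ∀ x y : Module.End 𝒪 M, x ∈ Algebra.adjoin 𝒪 (Set.range g) →
      y ∈ Algebra.adjoin 𝒪 (Set.range g) → Commute x y := fun x y hx hy =>
    congrArg Subtype.val (mul_comm' (⟨x, hx⟩ : Algebra.adjoin 𝒪 (Set.range g)) ⟨y, hy⟩)
  induction hx using Algebra.adjoin_induction with
  | mem x hx =>
    obtain ⟨i, rfl⟩ := hx
    exact ⟨c i, hg i⟩
  | algebraMap r =>
    rw [Algebra.algebraMap_eq_smul_one]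
    exact ⟨r, s59e_isLocScalar_smul_one r⟩
  | add x y hx hy hx' hy' =>
    obtain ⟨d, hd⟩ := hx'
    obtain ⟨e, he⟩ := hy'
    exact ⟨d + e, hd.add he (hc x y hx hy)⟩
  | mul x y hx hy hx' hy' =>
    obtain ⟨d, hd⟩ := hx'
    obtain ⟨e, he⟩ := hy'
    exact ⟨d * e, hd.mul he (hc x y hx hy)⟩

end LocScalar

/-! ### The local ring -/

section Local

variable {𝒪 : Type*} [CommRing 𝒪] [IsLocalRing 𝒪] {M : Type*} [AddCommGroup M] [Module 𝒪 M]
  [Module.Free 𝒪 M] [Module.Finite 𝒪 M] [Nontrivial M] {A : Type*} [Semiring A]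
  [IsMulCommutative A] (a : A →+* Module.End 𝒪 M)
  (hloc : ∀ x ∈ s59e_adj 𝒪 a, ∃ d : 𝒪, s59e_IsLocScalar x d)

include hloc

/-- **locality**: a commutative algebra of locally scalar endomorphisms of a nonzero finite free
module is a local ring. -/
theorem s59e_adj_isLocalRing : IsLocalRing (s59e_adj 𝒪 a) := by
  haveI : Nontrivial (s59e_adj 𝒪 a) := by
    refine ⟨⟨0, 1, fun h => ?_⟩⟩
    have h1 : (0 : Module.End 𝒪 M) = 1 := congrArg Subtype.val h
    obtain ⟨y, hy⟩ := exists_ne (0 : M)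
    have h2 := LinearMap.congr_fun h1 y
    rw [LinearMap.zero_apply, Module.End.one_apply] at h2
    exact hy h2.symm
  refine IsLocalRing.of_isUnit_or_isUnit_one_sub_self fun x => ?_
  obtain ⟨x, hx⟩ := x
  obtain ⟨d, hd⟩ := hloc x hx
  have hsub : Algebra.adjoin 𝒪 ({x} : Set (Module.End 𝒪 M)) ≤ s59e_adj 𝒪 a :=
    Algebra.adjoin_le (Set.singleton_subset_iff.mpr hx)
  by_cases hdu : IsUnit d
  · left
    obtain ⟨y, hy, hxy, -⟩ := hd.exists_inv hdu
    exact IsUnit.of_mul_eq_one (⟨y, hsub hy⟩ : s59e_adj 𝒪 a) (Subtype.ext hxy)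
  · right
    have hdm : d ∈ maximalIdeal 𝒪 := by rwa [mem_maximalIdeal, mem_nonunits_iff]
    have h1 : s59e_IsLocScalar (1 - x) (1 - d) := by
      have := s59e_isLocScalar_one.add hd.neg ((Commute.one_left x).neg_right)
      rwa [← sub_eq_add_neg, ← sub_eq_add_neg] at this
    have h1x : (1 - x) ∈ s59e_adj 𝒪 a := Subalgebra.sub_mem _ (Subalgebra.one_mem _) hx
    have hsub' : Algebra.adjoin 𝒪 ({1 - x} : Set (Module.End 𝒪 M)) ≤ s59e_adj 𝒪 a :=
      Algebra.adjoin_le (Set.singleton_subset_iff.mpr h1x)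
    obtain ⟨y, hy, hxy, -⟩ := h1.exists_inv
      (IsLocalRing.isUnit_one_sub_self_of_mem_nonunits d hdm)
    exact IsUnit.of_mul_eq_one (a := (1 - ⟨x, hx⟩ : s59e_adj 𝒪 a))
      (⟨y, hsub' hy⟩ : s59e_adj 𝒪 a) (Subtype.ext hxy)

/-- the structure map `𝒪 → 𝒪[a(A)]` is local. -/
theorem s59e_adj_isLocalHom : IsLocalHom (algebraMap 𝒪 (s59e_adj 𝒪 a)) := by
  refine ⟨fun u hu => ?_⟩
  by_contra hnu
  have hum : u ∈ maximalIdeal 𝒪 := by rwa [mem_maximalIdeal, mem_nonunits_iff]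
  have h1 : IsUnit ((algebraMap 𝒪 (s59e_adj 𝒪 a) u : s59e_adj 𝒪 a) : Module.End 𝒪 M) :=
    hu.map (s59e_adj 𝒪 a).val
  have h2 : ((algebraMap 𝒪 (s59e_adj 𝒪 a) u : s59e_adj 𝒪 a) : Module.End 𝒪 M)
      = u • (1 : Module.End 𝒪 M) := by
    rw [← Algebra.algebraMap_eq_smul_one]
    rfl
  rw [h2] at h1
  exact (s59e_isLocScalar_smul_one (M := M) u).not_isUnit hum h1

omit hloc in
/-- the residue class of a locally scalar element is its constant. -/
theorem s59e_adj_residue [IsLocalRing (s59e_adj 𝒪 a)]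
    [IsLocalHom (algebraMap 𝒪 (s59e_adj 𝒪 a))] {x : Module.End 𝒪 M} (hx : x ∈ s59e_adj 𝒪 a)
    {d : 𝒪} (hd : s59e_IsLocScalar x d) :
    residue (s59e_adj 𝒪 a) ⟨x, hx⟩
      = ResidueField.map (algebraMap 𝒪 (s59e_adj 𝒪 a)) (residue 𝒪 d) := by
  rw [IsLocalRing.ResidueField.map_residue, ← sub_eq_zero, ← map_sub,
    IsLocalRing.residue_eq_zero_iff, mem_maximalIdeal, mem_nonunits_iff]
  intro hu
  have h1 : IsUnit (((⟨x, hx⟩ - algebraMap 𝒪 (s59e_adj 𝒪 a) d : s59e_adj 𝒪 a)) :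
      Module.End 𝒪 M) := hu.map (s59e_adj 𝒪 a).val
  have h2 : (((⟨x, hx⟩ - algebraMap 𝒪 (s59e_adj 𝒪 a) d : s59e_adj 𝒪 a)) : Module.End 𝒪 M)
      = x - d • (1 : Module.End 𝒪 M) := by
    rw [← Algebra.algebraMap_eq_smul_one]
    rfl
  rw [h2] at h1
  have h3 : s59e_IsLocScalar (x - d • (1 : Module.End 𝒪 M)) 0 := by
    unfold s59e_IsLocScalar at hd ⊢
    rwa [zero_smul, sub_zero]
  exact h3.not_isUnit (zero_mem _) h1

/-- the residue field of `𝒪[a(A)]` is `k_𝒪`. -/
theorem s59e_adj_residueField_bijective [IsLocalRing (s59e_adj 𝒪 a)]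
    [IsLocalHom (algebraMap 𝒪 (s59e_adj 𝒪 a))] :
    Function.Bijective (ResidueField.map (algebraMap 𝒪 (s59e_adj 𝒪 a))) := by
  refine ⟨RingHom.injective _, fun y => ?_⟩
  obtain ⟨⟨x, hx⟩, rfl⟩ := IsLocalRing.residue_surjective y
  obtain ⟨d, hd⟩ := hloc x hx
  exact ⟨residue 𝒪 d, (s59e_adj_residue a hx hd).symm⟩

/-- **the residual eigensystem** `θ : A → k_𝒪` of `𝒪[a(A)]`: `residue (a t) = θ t` under
`k_𝒪 ≅ k_{T'}`, and `θ t = c mod 𝔪` whenever `a t` is locally scalar with constant `c`. -/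
theorem s59e_adj_theta [IsLocalRing (s59e_adj 𝒪 a)]
    [IsLocalHom (algebraMap 𝒪 (s59e_adj 𝒪 a))] :
    ∃ θ : A →+* ResidueField 𝒪,
      (∀ t, residue (s59e_adj 𝒪 a) (s59e_adjHom 𝒪 a t) =
        ResidueField.map (algebraMap 𝒪 (s59e_adj 𝒪 a)) (θ t)) ∧
      ∀ (t : A) (d : 𝒪), s59e_IsLocScalar (a t) d → θ t = residue 𝒪 d := by
  have hbij := s59e_adj_residueField_bijective a hloc
  obtain ⟨e, he⟩ : ∃ e : ResidueField 𝒪 ≃+* ResidueField (s59e_adj 𝒪 a),
      ∀ x, e x = ResidueField.map (algebraMap 𝒪 (s59e_adj 𝒪 a)) x :=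
    ⟨RingEquiv.ofBijective _ hbij, fun _ => rfl⟩
  refine ⟨e.symm.toRingHom.comp ((residue (s59e_adj 𝒪 a)).comp (s59e_adjHom 𝒪 a)),
    fun t => ?_, fun t d hd => ?_⟩
  · rw [← he]
    show _ = e (e.symm _)
    rw [RingEquiv.apply_symm_apply]
    rfl
  · show e.symm (residue (s59e_adj 𝒪 a) (s59e_adjHom 𝒪 a t)) = _
    rw [RingEquiv.symm_apply_eq, he]
    exact s59e_adj_residue a (Algebra.subset_adjoin ⟨t, rfl⟩) hd

end Local

end Fermat.Agent.Lib.S59
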