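/-
Programme R (S59), node (H3) (helper5, prefix `s59e_`), file 3: THE DETERMINANT OF A CONTINUOUS
REPRESENTATION WITH `det ρ(Frob_ℓ) = ℓ` IS CYCLOTOMIC.

`s59e_detCyc_of_frob` : `A` a noetherian local ring with `p ∈ 𝔪_A`, `ρ : GaloisRepAdic A` with
`det ρ(Frob_ℓ) = ℓ` for all primes `ℓ` outside a finite set ⟹ `ρ.DetIsCyclotomic p`.
Ingredients: Frobenius density (`s29d_frobDensity`, main), the cyclotomic character (`Lib/S30/CycB`,
main), Krull's intersection theorem (the ideal `(pⁿ)` is closed).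
-/
import Mathlib
import Fermat.Prelude.Def_GaloisRep_LocalConditions
import Fermat.Agent.Lib.S30.CycB
import Fermat.Agent.Lib.S29.FDPlace

set_option autoImplicit false
set_option linter.unusedSectionVars false
set_option linter.style.haveILetI false

noncomputable section

namespace Fermat.Agent.Lib.S59

open IsLocalRing Fermat.Agent.Lib.S29 Fermat.Agent.Lib.S30

local notation "Qbar" => AlgebraicClosure ℚ
local notation "GQ" => (AlgebraicClosure ℚ ≃ₐ[ℚ] AlgebraicClosure ℚ)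

/-- Frobenius density: modulo any finite level `L`, every `g` is a power of a Frobenius element at
a prime outside `S`, times an element fixing `L`. -/
theorem s59e_density (L : IntermediateField ℚ Qbar) (hL : FiniteDimensional ℚ L)
    (S : Finset ℕ) (g : GQ) :
    ∃ (ℓ : ℕ) (A : ValuationSubring Qbar) (σ : GQ) (j : ℕ) (h : GQ),
      ℓ.Prime ∧ ℓ ∉ S ∧ A.LiesOverPrime ℓ ∧ A.IsFrobeniusAt σ ℓ ∧ g = σ ^ j * h ∧
        ∀ x ∈ L, h x = x := by
  set L' : IntermediateField ℚ Qbar := IntermediateField.normalClosure ℚ L Qbar with hL'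
  have hle : L ≤ L' := IntermediateField.le_normalClosure L
  have hnorm : Normal ℚ L' := normalClosure.normal ℚ L Qbar
  have hfd : FiniteDimensional ℚ L' := normalClosure.is_finiteDimensional ℚ L Qbar
  have hstab : ∀ σ : GQ, ∀ x ∈ L', σ x ∈ L' := by
    intro σ y hy
    have h1 := IntermediateField.normal_iff_forall_map_le'.mp hnorm σ
    exact h1 ((IntermediateField.mem_map _).mpr ⟨y, hy, rfl⟩)
  obtain ⟨ℓ, A, σ, j, hℓ, hℓS, hA, hFr, hj⟩ := s29d_frobDensity L' hfd hstab S g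
  refine ⟨ℓ, A, σ, j, (σ ^ j)⁻¹ * g, hℓ, hℓS, hA, hFr, by rw [mul_inv_cancel_left], ?_⟩
  intro x hx
  rw [AlgEquiv.mul_apply, ← hj x (hle hx)]
  exact (σ ^ j).symm_apply_apply x

section Det

variable {A : Type*} [CommRing A] {V : Type*} [AddCommGroup V] [Module A V]

/-- an endomorphism of a free module of rank two congruent to the identity modulo `J` has
determinant congruent to `1` modulo `J`. -/
theorem s59e_det_sub_one_mem (J : Ideal A) (b : Module.Basis (Fin 2) A V) (f : Module.End A V)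
    (hf : ∀ v : V, f v - v ∈ J • (⊤ : Submodule A V)) : LinearMap.det f - 1 ∈ J := by
  have hrepr : ∀ x : V, x ∈ J • (⊤ : Submodule A V) → ∀ i, b.repr x i ∈ J := by
    intro x hx
    refine Submodule.smul_induction_on hx ?_ ?_
    · intro a ha w _ i
      rw [map_smul, Finsupp.smul_apply, smul_eq_mul]
      exact J.mul_mem_right _ ha
    · intro x y hx hy i
      rw [map_add, Finsupp.add_apply]
      exact J.add_mem (hx i) (hy i)
  have hent : ∀ i j, LinearMap.toMatrix b b f i j - (1 : Matrix (Fin 2) (Fin 2) A) i j ∈ J := by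
    intro i j
    have h1 := hrepr _ (hf (b j)) i
    rw [map_sub, Finsupp.sub_apply, b.repr_self, Finsupp.single_apply] at h1
    rw [LinearMap.toMatrix_apply, Matrix.one_apply]
    by_cases hij : i = j
    · rw [if_pos hij]
      rwa [if_pos hij.symm] at h1
    · rw [if_neg hij]
      rwa [if_neg (Ne.symm hij)] at h1
  rw [← LinearMap.det_toMatrix b, Matrix.det_fin_two]
  set M := LinearMap.toMatrix b b f with hM
  have h00 : M 0 0 - 1 ∈ J := by simpa using hent 0 0
  have h11 : M 1 1 - 1 ∈ J := by simpa using hent 1 1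
  have h01 : M 0 1 ∈ J := by simpa using hent 0 1
  have h10 : M 1 0 ∈ J := by simpa using hent 1 0
  have e : M 0 0 * M 1 1 - M 0 1 * M 1 0 - 1 =
      (M 0 0 - 1) * M 1 1 + (M 1 1 - 1) - M 0 1 * M 1 0 := by ring
  rw [e]
  exact J.sub_mem (J.add_mem (J.mul_mem_right _ h00) h11) (J.mul_mem_right _ h01)

end Det

section Krull

variable {A : Type*} [CommRing A] [IsLocalRing A] [IsNoetherianRing A]

/-- ideals of a noetherian local ring are closed. -/
theorem s59e_mem_of_forall_mem_sup_pow (I : Ideal A) (x : A)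
    (h : ∀ m : ℕ, x ∈ I ⊔ maximalIdeal A ^ m) : x ∈ I := by
  have hK := Ideal.iInf_pow_smul_eq_bot_of_isLocalRing (M := A ⧸ I) (maximalIdeal A)
    (Ideal.IsPrime.ne_top inferInstance)
  have hx : (Ideal.Quotient.mk I x : A ⧸ I) ∈
      (⨅ i : ℕ, maximalIdeal A ^ i • ⊤ : Submodule A (A ⧸ I)) := by
    rw [Submodule.mem_iInf]
    intro m
    obtain ⟨i, hi, y, hy, rfl⟩ := Submodule.mem_sup.mp (h m)
    have h1 : (Ideal.Quotient.mk I (i + y) : A ⧸ I) = y • (1 : A ⧸ I) := by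
      rw [map_add, Ideal.Quotient.eq_zero_iff_mem.mpr hi, zero_add, Algebra.smul_def, mul_one]
      rfl
    rw [h1]
    exact Submodule.smul_mem_smul hy Submodule.mem_top
  rw [hK, Submodule.mem_bot] at hx
  exact Ideal.Quotient.eq_zero_iff_mem.mp hx

end Krull

section Main

variable {A : Type} [CommRing A] [IsLocalRing A] [IsNoetherianRing A]

/-- **The determinant is cyclotomic.** -/
theorem s59e_detCyc_of_frob (p : ℕ) [Fact p.Prime] (ρ : GaloisRepAdic A)
    (hp : (p : A) ∈ maximalIdeal A) (S : Finset ℕ)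
    (hdet : ∀ ℓ : ℕ, ℓ.Prime → ℓ ∉ S → ∀ P : ValuationSubring Qbar, P.LiesOverPrime ℓ →
      ∀ σ : GQ, P.IsFrobeniusAt σ ℓ → LinearMap.det (ρ.ρ σ) = (ℓ : A)) :
    ρ.DetIsCyclotomic p := by
  classical
  refine ⟨hp, fun n g a ha => ?_⟩
  apply s59e_mem_of_forall_mem_sup_pow
  intro m
  obtain ⟨L₁, hL₁, h₁⟩ := ρ.isAdicContinuous m
  obtain ⟨L₂, hL₂, -, h₂⟩ := s30y_cont p n
  have hfd : FiniteDimensional ℚ (L₁ ⊔ L₂ : IntermediateField ℚ Qbar) :=
    IntermediateField.finiteDimensional_sup L₁ L₂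
  obtain ⟨ℓ, P, σ, j, h, hℓ, hℓS, hP, hFr, hg, hfix⟩ :=
    s59e_density (L₁ ⊔ L₂) hfd (insert p S) g
  have hℓp : ℓ ≠ p := fun e => hℓS (e ▸ Finset.mem_insert_self p S)
  have hℓS' : ℓ ∉ S := fun e => hℓS (Finset.mem_insert_of_mem e)
  -- the determinant of `ρ h`
  let b : Module.Basis (Fin 2) A ρ.V := Module.finBasisOfFinrankEq A ρ.V ρ.finrank_eq
  have hdh : LinearMap.det (ρ.ρ h) - 1 ∈ maximalIdeal A ^ m :=
    s59e_det_sub_one_mem _ b (ρ.ρ h)
      (h₁ h fun x hx => hfix x (le_sup_left (a := L₁) hx))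
  -- the cyclotomic character
  obtain ⟨w, hw⟩ := h₂ h fun x hx => hfix x (le_sup_right (b := L₂) hx)
  have hεσ := s30y_frob p ℓ hℓ hℓp P hP σ hFr
  obtain ⟨ζ, hζ⟩ := s30y_exists_primitiveRoot p n
  have hεg := s30y_toZModPow_eq p g n hζ a (ha ζ hζ.pow_eq_one)
  have e2 : ((s30y_eps p g : ℤ_[p]ˣ) : ℤ_[p]) = (ℓ : ℤ_[p]) ^ j * (1 + (p : ℤ_[p]) ^ n * w) := by
    rw [hg, map_mul, map_pow, Units.val_mul, Units.val_pow_eq_pow_val, hεσ]
    congr 1
    linear_combination hw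
  have e3 : ((ℓ ^ j : ℕ) : ZMod (p ^ n)) = (a : ZMod (p ^ n)) := by
    rw [← hεg, e2]
    simp only [map_mul, map_pow, map_add, map_one, map_natCast]
    have : ((p : ZMod (p ^ n))) ^ n = 0 := by
      rw [← Nat.cast_pow, ZMod.natCast_self]
    rw [this, zero_mul, add_zero, mul_one, Nat.cast_pow]
  -- hence `pⁿ ∣ a - ℓ^j` in `A`
  have e4 : ((ℓ ^ j : ℕ) : A) - (a : A) ∈ Ideal.span {((p ^ n : ℕ) : A)} := by
    have h5 : (((ℓ ^ j : ℕ) : ℤ) : ZMod (p ^ n)) = (((a : ℕ) : ℤ) : ZMod (p ^ n)) := by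
      push_cast
      exact_mod_cast e3
    rw [ZMod.intCast_eq_intCast_iff_dvd_sub] at h5
    obtain ⟨c, hc⟩ := h5
    rw [Ideal.mem_span_singleton]
    refine ⟨-(c : A), ?_⟩
    have := congrArg (fun z : ℤ => (z : A)) hc
    simp only [Int.cast_sub, Int.cast_natCast, Int.cast_mul] at this
    rw [mul_neg, ← this]
    ring
  -- assemble
  have e5 : LinearMap.det (ρ.ρ g) = ((ℓ ^ j : ℕ) : A) * LinearMap.det (ρ.ρ h) := by
    rw [hg, map_mul, map_mul, map_pow, map_pow, hdet ℓ hℓ hℓS' P hP σ hFr, Nat.cast_pow]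
  have e6 : LinearMap.det (ρ.ρ g) - (a : A) =
      (((ℓ ^ j : ℕ) : A) - (a : A)) + ((ℓ ^ j : ℕ) : A) * (LinearMap.det (ρ.ρ h) - 1) := by
    rw [e5]; ring
  rw [e6]
  exact Submodule.add_mem_sup e4 (Ideal.mul_mem_left _ _ hdh)

end Main

end Fermat.Agent.Lib.S59

end
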