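/-
Programme R (S59), node (H3) (helper5, prefix `s59e_`), file 4: BRAUER–NESBITT FOR ODD
TWO-DIMENSIONAL REPRESENTATIONS.

* `s59e_bn2_mat` : matrix form — `m₁, m₂ : Γ →* M₂(k)` with the same traces, `m₁ c = m₂ c =
  diag(1,-1)`, `m₁` with non-vanishing off-diagonal entries ⇒ `m₂ = D m₁ D⁻¹`, `D = diag(λ,1)`;
* `s59e_bn2`     : `r₁, r₂` two-dimensional with the same traces, `r₁` irreducible, `c² = 1`,
  `det r₁(c) = -1`, `2 ≠ 0` ⇒ `r₁ ≃ r₂` (eigenbases of `c`: `s58r_exists_eigenbasis`, main);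
* `s59e_residual_isEquiv_of_frob` : two residual Galois representations with the same Frobenius
  characteristic polynomials outside a finite set, one of them absolutely irreducible and odd, are
  equivalent (Frobenius density `s29d_frobDensity` + Lucas polynomials).
This is the hypothesis `hres` of S54 for a Hecke–Galois datum.
-/
import Mathlib
import Fermat.Prelude.Def_GaloisRep_ResidualEquiv
import Fermat.Prelude.Def_GaloisRep_ComplexConjugation
import Fermat.Agent.Lib.S58.RHresCore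
import Fermat.Agent.Lib.S59.EHDet

set_option autoImplicit false
set_option linter.unusedSectionVars false
set_option linter.style.haveILetI false

noncomputable section

namespace Fermat.Agent.Lib.S59

open Matrix

local notation "Qbar" => AlgebraicClosure ℚ
local notation "GQ" => (AlgebraicClosure ℚ ≃ₐ[ℚ] AlgebraicClosure ℚ)

section Mat

variable {k : Type*} [Field k] {Γ : Type*} [Group Γ]

/-- **Brauer–Nesbitt, matrix form.** -/
theorem s59e_bn2_mat (h2 : (2 : k) ≠ 0) (m₁ m₂ : Γ →* Matrix (Fin 2) (Fin 2) k) (c : Γ)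
    (hc₁ : m₁ c = !![1, 0; 0, -1]) (hc₂ : m₂ c = !![1, 0; 0, -1])
    (htr : ∀ g, (m₂ g).trace = (m₁ g).trace)
    (hb : ∃ g, m₁ g 0 1 ≠ 0) (hcc : ∃ g, m₁ g 1 0 ≠ 0) :
    ∃ l : k, l ≠ 0 ∧ ∀ g, m₂ g 0 0 = m₁ g 0 0 ∧ m₂ g 1 1 = m₁ g 1 1 ∧
      m₂ g 0 1 = l * m₁ g 0 1 ∧ l * m₂ g 1 0 = m₁ g 1 0 := by
  -- diagonal entries
  have hdiag : ∀ g, m₂ g 0 0 = m₁ g 0 0 ∧ m₂ g 1 1 = m₁ g 1 1 := by
    intro g
    have h1 := htr g
    have h3 := htr (g * c)
    rw [map_mul, map_mul, hc₁, hc₂] at h3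
    simp only [Matrix.trace_fin_two, Matrix.mul_apply, Fin.sum_univ_two, Matrix.of_apply,
      Matrix.cons_val', Matrix.cons_val_zero, Matrix.cons_val_one, Matrix.cons_val_fin_one,
      mul_one, mul_zero, add_zero, zero_add, mul_neg] at h1 h3
    constructor
    · have : (2 : k) * (m₂ g 0 0 - m₁ g 0 0) = 0 := by linear_combination h1 + h3
      have := (mul_eq_zero.mp this).resolve_left h2
      exact sub_eq_zero.mp this
    · have : (2 : k) * (m₂ g 1 1 - m₁ g 1 1) = 0 := by linear_combination h1 - h3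
      have := (mul_eq_zero.mp this).resolve_left h2
      exact sub_eq_zero.mp this
  -- products of off-diagonal entries
  have hprod : ∀ g h, m₂ g 0 1 * m₂ h 1 0 = m₁ g 0 1 * m₁ h 1 0 := by
    intro g h
    have h1 := (hdiag (g * h)).1
    rw [map_mul, map_mul] at h1
    simp only [Matrix.mul_apply, Fin.sum_univ_two] at h1
    rw [(hdiag g).1, (hdiag h).1] at h1
    linear_combination h1
  obtain ⟨g₀, hg₀⟩ := hb
  obtain ⟨h₀, hh₀⟩ := hcc
  have hne : m₂ g₀ 0 1 * m₂ h₀ 1 0 ≠ 0 := by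
    rw [hprod]
    exact mul_ne_zero hg₀ hh₀
  have hb₂ : m₂ g₀ 0 1 ≠ 0 := left_ne_zero_of_mul hne
  have hc₂' : m₂ h₀ 1 0 ≠ 0 := right_ne_zero_of_mul hne
  refine ⟨m₂ g₀ 0 1 / m₁ g₀ 0 1, div_ne_zero hb₂ hg₀, fun g => ⟨(hdiag g).1, (hdiag g).2, ?_, ?_⟩⟩
  · -- `b₂ g = l b₁ g`
    have e1 := hprod g h₀
    have e2 := hprod g₀ h₀
    field_simp
    have : m₂ g 0 1 * m₁ g₀ 0 1 * (m₂ h₀ 1 0 * m₁ h₀ 1 0) =
        m₂ g₀ 0 1 * m₁ g 0 1 * (m₂ h₀ 1 0 * m₁ h₀ 1 0) := by
      linear_combination (m₁ g₀ 0 1 * m₁ h₀ 1 0) * e1 - (m₁ g 0 1 * m₁ h₀ 1 0) * e2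
    exact mul_right_cancel₀ (mul_ne_zero hc₂' hh₀) this
  · have e1 := hprod g₀ g
    field_simp
    linear_combination e1

end Mat

section Lin

open Fermat.Agent.Lib.S58

variable {k : Type*} [Field k] {Γ : Type*} [Group Γ]
  {V₁ V₂ : Type*} [AddCommGroup V₁] [Module k V₁] [AddCommGroup V₂] [Module k V₂]

/-- an involution of trace zero of a plane has determinant `-1`. -/
theorem s59e_det_of_invol (h₂ : Module.finrank k V₂ = 2) (C : Module.End k V₂) (hCC : C * C = 1)
    (htr : LinearMap.trace k V₂ C = 0) : LinearMap.det C = -1 := by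
  haveI : Module.Finite k V₂ := Module.finite_of_finrank_eq_succ h₂
  let B : Module.Basis (Fin 2) k V₂ := Module.finBasisOfFinrankEq k V₂ h₂
  set M := LinearMap.toMatrix B B C with hM
  have hMM : M * M = 1 := by
    rw [hM, ← LinearMap.toMatrix_mul, hCC, LinearMap.toMatrix_one]
  have htrM : M.trace = 0 := by
    rw [hM, ← LinearMap.trace_eq_matrix_trace k B C, htr]
  rw [← LinearMap.det_toMatrix B, Matrix.det_fin_two]
  have h00 := congrFun (congrFun hMM 0) 0
  simp only [Matrix.mul_apply, Fin.sum_univ_two, Matrix.one_apply_eq] at h00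
  rw [Matrix.trace_fin_two] at htrM
  have hd : M 1 1 = -M 0 0 := by linear_combination htrM
  rw [← hM, hd]
  linear_combination -h00

/-- the matrix of an endomorphism in an eigenbasis of an involution `C` with `C B₀ = B₀`,
`C B₁ = -B₁`. -/
theorem s59e_toMatrix_invol (B : Module.Basis (Fin 2) k V₁) (C : Module.End k V₁)
    (h0 : C (B 0) = B 0) (h1 : C (B 1) = -B 1) :
    LinearMap.toMatrix B B C = !![1, 0; 0, -1] := by
  ext i j
  rw [LinearMap.toMatrix_apply]
  fin_cases j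
  · simp only [Fin.zero_eta]
    rw [h0, B.repr_self]
    fin_cases i <;> simp
  · simp only [Fin.mk_one]
    rw [h1, map_neg, B.repr_self]
    fin_cases i <;> simp

/-- **Brauer–Nesbitt** for two-dimensional representations with an odd involution. -/
theorem s59e_bn2 (h2 : (2 : k) ≠ 0) (h₁ : Module.finrank k V₁ = 2) (h₂ : Module.finrank k V₂ = 2)
    (r₁ : Γ →* Module.End k V₁) (r₂ : Γ →* Module.End k V₂)
    (htr : ∀ g, LinearMap.trace k V₂ (r₂ g) = LinearMap.trace k V₁ (r₁ g))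
    (c : Γ) (hc : c * c = 1) (hdet : LinearMap.det (r₁ c) = -1)
    (hirr : ∀ W : Submodule k V₁, (∀ g, ∀ x ∈ W, r₁ g x ∈ W) → W = ⊥ ∨ W = ⊤) :
    ∃ e : V₁ ≃ₗ[k] V₂, ∀ g x, e (r₁ g x) = r₂ g (e x) := by
  classical
  haveI : Module.Finite k V₁ := Module.finite_of_finrank_eq_succ h₁
  haveI : Module.Finite k V₂ := Module.finite_of_finrank_eq_succ h₂
  have hCC₁ : r₁ c * r₁ c = 1 := by rw [← map_mul, hc, map_one]
  have hCC₂ : r₂ c * r₂ c = 1 := by rw [← map_mul, hc, map_one]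
  obtain ⟨B₁, hB₁0, hB₁1⟩ := s58r_exists_eigenbasis h₁ h2 (r₁ c) hCC₁ hdet
  have hJ₁ := s59e_toMatrix_invol B₁ (r₁ c) hB₁0 hB₁1
  have htr₁ : LinearMap.trace k V₁ (r₁ c) = 0 := by
    rw [LinearMap.trace_eq_matrix_trace k B₁, hJ₁, Matrix.trace_fin_two]
    simp
  have hdet₂ : LinearMap.det (r₂ c) = -1 :=
    s59e_det_of_invol h₂ (r₂ c) hCC₂ (by rw [htr, htr₁])
  obtain ⟨B₂, hB₂0, hB₂1⟩ := s58r_exists_eigenbasis h₂ h2 (r₂ c) hCC₂ hdet₂
  have hJ₂ := s59e_toMatrix_invol B₂ (r₂ c) hB₂0 hB₂1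
  -- the matrix representations
  let m₁ : Γ →* Matrix (Fin 2) (Fin 2) k :=
    ((LinearMap.toMatrixAlgEquiv B₁ : Module.End k V₁ ≃ₐ[k] _) : Module.End k V₁ →* _).comp r₁
  let m₂ : Γ →* Matrix (Fin 2) (Fin 2) k :=
    ((LinearMap.toMatrixAlgEquiv B₂ : Module.End k V₂ ≃ₐ[k] _) : Module.End k V₂ →* _).comp r₂
  have hm₁ : ∀ g, m₁ g = LinearMap.toMatrix B₁ B₁ (r₁ g) := fun g => rfl
  have hm₂ : ∀ g, m₂ g = LinearMap.toMatrix B₂ B₂ (r₂ g) := fun g => rfl
  have htrm : ∀ g, (m₂ g).trace = (m₁ g).trace := by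
    intro g
    rw [hm₁, hm₂, ← LinearMap.trace_eq_matrix_trace k B₂, ← LinearMap.trace_eq_matrix_trace k B₁,
      htr]
  -- off-diagonal entries do not vanish identically
  have hb : ∃ g, m₁ g 0 1 ≠ 0 := by
    by_contra hcon
    push Not at hcon
    have hst : ∀ g, ∀ x ∈ Submodule.span k {B₁ 1}, r₁ g x ∈ Submodule.span k {B₁ 1} := by
      intro g x hx
      obtain ⟨a, rfl⟩ := Submodule.mem_span_singleton.mp hx
      rw [map_smul]
      refine Submodule.smul_mem _ _ ?_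
      rw [Submodule.mem_span_singleton]
      refine ⟨m₁ g 1 1, ?_⟩
      have h3 := B₁.sum_repr (r₁ g (B₁ 1))
      rw [Fin.sum_univ_two] at h3
      have h4 : B₁.repr (r₁ g (B₁ 1)) 0 = 0 := by
        have := hcon g
        rwa [hm₁, LinearMap.toMatrix_apply] at this
      rw [h4, zero_smul, zero_add] at h3
      rw [hm₁, LinearMap.toMatrix_apply]
      exact h3
    rcases hirr _ hst with h | h
    · have : B₁ 1 ∈ (⊥ : Submodule k V₁) := h ▸ Submodule.mem_span_singleton_self _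
      exact B₁.ne_zero 1 ((Submodule.mem_bot k).mp this)
    · have : B₁ 0 ∈ Submodule.span k {B₁ 1} := h ▸ Submodule.mem_top
      obtain ⟨a, ha⟩ := Submodule.mem_span_singleton.mp this
      have h5 := congrArg (fun v => B₁.repr v 0) ha
      simp only [map_smul, B₁.repr_self, Finsupp.smul_apply, Finsupp.single_apply] at h5
      simp at h5
  have hcc : ∃ g, m₁ g 1 0 ≠ 0 := by
    by_contra hcon
    push Not at hcon
    have hst : ∀ g, ∀ x ∈ Submodule.span k {B₁ 0}, r₁ g x ∈ Submodule.span k {B₁ 0} := by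
      intro g x hx
      obtain ⟨a, rfl⟩ := Submodule.mem_span_singleton.mp hx
      rw [map_smul]
      refine Submodule.smul_mem _ _ ?_
      rw [Submodule.mem_span_singleton]
      refine ⟨m₁ g 0 0, ?_⟩
      have h3 := B₁.sum_repr (r₁ g (B₁ 0))
      rw [Fin.sum_univ_two] at h3
      have h4 : B₁.repr (r₁ g (B₁ 0)) 1 = 0 := by
        have := hcon g
        rwa [hm₁, LinearMap.toMatrix_apply] at this
      rw [h4, zero_smul, add_zero] at h3
      rw [hm₁, LinearMap.toMatrix_apply]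
      exact h3
    rcases hirr _ hst with h | h
    · have : B₁ 0 ∈ (⊥ : Submodule k V₁) := h ▸ Submodule.mem_span_singleton_self _
      exact B₁.ne_zero 0 ((Submodule.mem_bot k).mp this)
    · have : B₁ 1 ∈ Submodule.span k {B₁ 0} := h ▸ Submodule.mem_top
      obtain ⟨a, ha⟩ := Submodule.mem_span_singleton.mp this
      have h5 := congrArg (fun v => B₁.repr v 1) ha
      simp only [map_smul, B₁.repr_self, Finsupp.smul_apply, Finsupp.single_apply] at h5
      simp at h5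
  obtain ⟨l, hl, hent⟩ := s59e_bn2_mat h2 m₁ m₂ c (by rw [hm₁, hJ₁]) (by rw [hm₂, hJ₂]) htrm hb hcc
  -- the intertwiner with matrix `diag(l, 1)`
  set D : Matrix (Fin 2) (Fin 2) k := !![l, 0; 0, 1] with hD
  set f : V₁ →ₗ[k] V₂ := (LinearMap.toMatrix B₁ B₂).symm D with hf
  have hfD : LinearMap.toMatrix B₁ B₂ f = D := by rw [hf, LinearEquiv.apply_symm_apply]
  have hdetD : IsUnit (LinearMap.toMatrix B₁ B₂ f).det := by
    rw [hfD, hD, Matrix.det_fin_two_of, mul_one, mul_zero, sub_zero]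
    exact isUnit_iff_ne_zero.mpr hl
  have hcomm : ∀ g, f ∘ₗ r₁ g = r₂ g ∘ₗ f := by
    intro g
    apply (LinearMap.toMatrix B₁ B₂).injective
    rw [LinearMap.toMatrix_comp B₁ B₁ B₂, LinearMap.toMatrix_comp B₁ B₂ B₂, hfD, ← hm₁, ← hm₂]
    obtain ⟨e00, e11, e01, e10⟩ := hent g
    ext i j
    fin_cases i <;> fin_cases j <;>
      simp [hD, Matrix.mul_apply, Fin.sum_univ_two, e00, e11, e01, ← e10, mul_comm]
  refine ⟨LinearEquiv.ofIsUnitDet hdetD, fun g x => ?_⟩
  show f (r₁ g x) = r₂ g (f x)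
  exact LinearMap.congr_fun (hcomm g) x

end Lin

section Pow

variable {R : Type*} [CommRing R]

theorem s59e_sq_fin_two (M : Matrix (Fin 2) (Fin 2) R) :
    M * M = M.trace • M - M.det • (1 : Matrix (Fin 2) (Fin 2) R) := by
  ext i j
  fin_cases i <;> fin_cases j <;>
    simp [Matrix.mul_apply, Fin.sum_univ_two, Matrix.trace_fin_two, Matrix.det_fin_two] <;> ring

/-- traces of powers of `2 × 2` matrices depend only on trace and determinant. -/
theorem s59e_trace_pow_congr (M N : Matrix (Fin 2) (Fin 2) R) (ht : M.trace = N.trace)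
    (hd : M.det = N.det) (j : ℕ) : (M ^ j).trace = (N ^ j).trace := by
  induction j using Nat.strong_induction_on with
  | _ j ih =>
    match j with
    | 0 => simp
    | 1 => simpa using ht
    | (j + 2) =>
      have h1 : ∀ P : Matrix (Fin 2) (Fin 2) R,
          P ^ (j + 2) = P.trace • P ^ (j + 1) - P.det • P ^ j := by
        intro P
        rw [pow_add, pow_two, s59e_sq_fin_two, mul_sub, mul_smul_comm, mul_smul_comm, mul_one,
          ← pow_succ]
      rw [h1 M, h1 N, Matrix.trace_sub, Matrix.trace_sub, Matrix.trace_smul, Matrix.trace_smul,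
        Matrix.trace_smul, Matrix.trace_smul, ih (j + 1) (by omega), ih j (by omega), ht, hd]

/-- two quadratic polynomials `X² - t X + d` coincide iff their coefficients do. -/
theorem s59e_coeffs_of_quadratic_eq [Nontrivial R] {t d t' d' : R}
    (h : (Polynomial.X ^ 2 - Polynomial.C t * Polynomial.X + Polynomial.C d : Polynomial R) =
      Polynomial.X ^ 2 - Polynomial.C t' * Polynomial.X + Polynomial.C d') : t = t' ∧ d = d' := by
  have h1 := congrArg (fun P : Polynomial R => P.coeff 1) h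
  have h0 := congrArg (fun P : Polynomial R => P.coeff 0) h
  simp only [Polynomial.coeff_add, Polynomial.coeff_sub, Polynomial.coeff_X_pow,
    Polynomial.coeff_C_mul, Polynomial.coeff_X_one, Polynomial.coeff_X_zero, Polynomial.coeff_C_zero,
    mul_one, mul_zero, sub_zero] at h1 h0
  norm_num at h1 h0
  exact ⟨h1, h0⟩

end Pow

section Gal

open TensorProduct Fermat.Agent.Lib.S29

variable {k : Type} [Field k]

/-- an absolutely irreducible residual representation is irreducible. -/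
theorem s59e_irr_of_absIrr (ρ : ResidualGaloisRep k) (habs : ρ.IsAbsolutelyIrreducible) :
    ρ.IsIrreducible := by
  intro W hW
  by_contra hcon
  push Not at hcon
  obtain ⟨hbot, htop⟩ := hcon
  set K := AlgebraicClosure k with hK
  -- the base change of `W`
  set WK : Submodule K (K ⊗[k] ρ.V) :=
    Submodule.span K ((TensorProduct.mk k K ρ.V 1) '' (W : Set ρ.V)) with hWK
  have hst : ∀ σ : GQ, ∀ x ∈ WK, (ρ.baseChange K).ρ σ x ∈ WK := by
    intro σ x hx
    refine Submodule.span_induction ?_ ?_ ?_ ?_ hx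
    · rintro _ ⟨w, hw, rfl⟩
      show (ρ.ρ σ).baseChange K ((1 : K) ⊗ₜ[k] w) ∈ WK
      rw [LinearMap.baseChange_tmul]
      exact Submodule.subset_span ⟨ρ.ρ σ w, hW σ w hw, rfl⟩
    · rw [map_zero]; exact Submodule.zero_mem _
    · intro x y _ _ hx hy
      rw [map_add]; exact Submodule.add_mem _ hx hy
    · intro a x _ hx
      rw [map_smul]; exact Submodule.smul_mem _ _ hx
  rcases habs WK hst with h | h
  · -- `WK ≠ ⊥`
    obtain ⟨w, hw, hw0⟩ := (Submodule.ne_bot_iff W).mp hbot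
    have h1 : (1 : K) ⊗ₜ[k] w ∈ WK := Submodule.subset_span ⟨w, hw, rfl⟩
    rw [h, Submodule.mem_bot] at h1
    have hinj : Function.Injective (TensorProduct.mk k K ρ.V 1) :=
      Module.FaithfullyFlat.tensorProduct_mk_injective (A := k) (B := K) ρ.V
    exact hw0 (hinj (by rw [map_zero]; exact h1))
  · -- `WK ≠ ⊤`
    obtain ⟨f, hf0, hf⟩ := Submodule.exists_le_ker_of_lt_top W (lt_top_iff_ne_top.mpr htop)
    obtain ⟨v, hv⟩ : ∃ v, f v ≠ 0 := by
      by_contra hcon
      push Not at hcon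
      exact hf0 (LinearMap.ext hcon)
    have h1 : WK ≤ LinearMap.ker (f.baseChange K) := by
      refine Submodule.span_le.mpr ?_
      rintro _ ⟨w, hw, rfl⟩
      show f.baseChange K ((1 : K) ⊗ₜ[k] w) = 0
      rw [LinearMap.baseChange_tmul, LinearMap.mem_ker.mp (hf hw), TensorProduct.tmul_zero]
    have h3 : (1 : K) ⊗ₜ[k] v ∈ LinearMap.ker (f.baseChange K) := h1 (h ▸ Submodule.mem_top)
    rw [LinearMap.mem_ker, LinearMap.baseChange_tmul] at h3
    have h4 := congrArg (TensorProduct.rid k K) h3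
    rw [TensorProduct.rid_tmul, map_zero] at h4
    have h5 : f v • (1 : K) ≠ 0 := by
      rw [Algebra.smul_def, mul_one]
      exact (map_ne_zero_iff _ (algebraMap k K).injective).mpr hv
    exact h5 h4

/-- **Brauer–Nesbitt for residual Galois representations**: the same Frobenius characteristic
polynomials outside a finite set, `ρ₁` irreducible with an odd involution ⇒ `ρ₁ ≃ ρ₂`. -/
theorem s59e_residual_isEquiv_of_frob (h2 : (2 : k) ≠ 0) (ρ₁ ρ₂ : ResidualGaloisRep k)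
    (hirr : ρ₁.IsIrreducible) (c : GQ) (hc : c * c = 1) (hodd : LinearMap.det (ρ₁.ρ c) = -1)
    (S : Finset ℕ)
    (hfrob : ∀ ℓ : ℕ, ℓ.Prime → ℓ ∉ S → ∀ P : ValuationSubring Qbar, P.LiesOverPrime ℓ →
      ∀ σ : GQ, P.IsFrobeniusAt σ ℓ →
        LinearMap.charpoly (ρ₂.ρ σ) = LinearMap.charpoly (ρ₁.ρ σ)) :
    ρ₁.IsEquiv ρ₂ := by
  classical
  -- equality of all traces
  have htr : ∀ g : GQ, LinearMap.trace k ρ₂.V (ρ₂.ρ g) = LinearMap.trace k ρ₁.V (ρ₁.ρ g) := by
    intro g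
    obtain ⟨L₁, hL₁, h₁⟩ := ρ₁.factorsThroughFiniteLevel
    obtain ⟨L₂, hL₂, h₂⟩ := ρ₂.factorsThroughFiniteLevel
    have hfd : FiniteDimensional ℚ (L₁ ⊔ L₂ : IntermediateField ℚ Qbar) :=
      IntermediateField.finiteDimensional_sup L₁ L₂
    obtain ⟨ℓ, P, σ, j, h, hℓ, hℓS, hP, hFr, hg, hfix⟩ := s59e_density (L₁ ⊔ L₂) hfd S g
    have e₁ : ρ₁.ρ g = ρ₁.ρ σ ^ j := by
      rw [hg, map_mul, map_pow, h₁ h fun x hx => hfix x (le_sup_left (a := L₁) hx), mul_one]
    have e₂ : ρ₂.ρ g = ρ₂.ρ σ ^ j := by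
      rw [hg, map_mul, map_pow, h₂ h fun x hx => hfix x (le_sup_right (b := L₂) hx), mul_one]
    let B₁ : Module.Basis (Fin 2) k ρ₁.V := Module.finBasisOfFinrankEq k ρ₁.V ρ₁.finrank_eq
    let B₂ : Module.Basis (Fin 2) k ρ₂.V := Module.finBasisOfFinrankEq k ρ₂.V ρ₂.finrank_eq
    have hcp := hfrob ℓ hℓ hℓS P hP σ hFr
    rw [← LinearMap.charpoly_toMatrix (ρ₂.ρ σ) B₂, ← LinearMap.charpoly_toMatrix (ρ₁.ρ σ) B₁,
      Matrix.charpoly_fin_two, Matrix.charpoly_fin_two] at hcp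
    obtain ⟨ht, hd⟩ := s59e_coeffs_of_quadratic_eq hcp
    rw [e₁, e₂, LinearMap.trace_eq_matrix_trace k B₂, LinearMap.trace_eq_matrix_trace k B₁,
      ← LinearMap.toMatrix_pow, ← LinearMap.toMatrix_pow]
    exact s59e_trace_pow_congr _ _ ht hd j
  obtain ⟨e, he⟩ := s59e_bn2 h2 ρ₁.finrank_eq ρ₂.finrank_eq ρ₁.ρ ρ₂.ρ htr c hc hodd hirr
  exact ⟨⟨e, fun σ x => he σ x⟩⟩

end Gal

end Fermat.Agent.Lib.S59

end
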