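/-
Programme R (S59), node (H3) (helper5, prefix `s59e_`), file 5: `R_𝒟 ↠ T'`.

For a Hecke–Galois datum `H` over ANY `T` (level `N`, `S ⊇ {p} ∪ primes of N`):
* `s59e_hecke_det_frob`, `s59e_hecke_detCyc` : `det H.ρ` is the cyclotomic character;
* `s59e_hecke_odd`   : the residual representation is odd at complex conjugation;
* `s59e_hecke_hres`  : `H.ρ.residual ≃ ρbar ⊗ k_T` for every `ρbar` with eigensystem `θ`
  (Brauer–Nesbitt `EHBN`) — the hypothesis `hres` of S54;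
* `s59e_hecke_flatCondition`, `s59e_hecke_ordinaryCondition`, `s59e_hecke_unip` : the deformation
  conditions of `H.ρ` from frozen S31–S34 (main);
* **`s59e_R_to_T'`** : for `H` over `heckeLocal N S 𝒪 θ` with `H.π = heckeLocal.π`, a deformation
  ring `D` of type `𝒟 ∋ H.ρ` and a quotient datum `(T', a)` as in `EHPush`: a surjection
  `φ : D.R ↠ T'` with `charpoly (D.ρ ⊗_φ T')(Frob_ℓ) = X² - a(T_ℓ) X + ℓ` (S54, main).
-/
import Fermat.Agent.Lib.S59.EHPush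
import Fermat.Agent.Lib.S59.EHBN
import Fermat.Agent.S31
import Fermat.Agent.S32
import Fermat.Agent.S33
import Fermat.Agent.S34
import Fermat.Agent.S54

set_option autoImplicit false
set_option linter.style.haveILetI false
set_option linter.unusedSectionVars false
set_option synthInstance.maxHeartbeats 400000
set_option maxHeartbeats 1000000

noncomputable section

namespace Fermat.Agent.Lib.S59

open IsLocalRing Polynomial CuspForm Fermat.Agent.Lib.S30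

local notation "Qbar" => AlgebraicClosure ℚ
local notation "GQ" => (AlgebraicClosure ℚ ≃ₐ[ℚ] AlgebraicClosure ℚ)

section Datum

variable {p : ℕ} [Fact p.Prime] {N : ℕ} [NeZero N] {S : Finset ℕ}
  {𝒪 : Type} [CommRing 𝒪] [IsDomain 𝒪] [IsDiscreteValuationRing 𝒪]
  [IsAdicComplete (maximalIdeal 𝒪) 𝒪]
  {θ : heckeAlgebra N 2 (↑S : Set ℕ) →+* ResidueField 𝒪}
  {T : Type} [CommRing T] [IsLocalRing T] [IsNoetherianRing T]
  [IsAdicComplete (maximalIdeal T) T] [Algebra 𝒪 T] [IsLocalHom (algebraMap 𝒪 T)]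
  [Module.Finite 𝒪 T] [Module.Free 𝒪 T]
  (H : HeckeGaloisRepDatum N (↑S : Set ℕ) 𝒪 θ T)

/-- `det ρ(Frob_ℓ) = ℓ`. -/
theorem s59e_hecke_det_frob (hNS : ∀ q : ℕ, q.Prime → q ∣ N → q ∈ S)
    (ℓ : ℕ) (hℓ : ℓ.Prime) (hℓS : ℓ ∉ S) (P : ValuationSubring Qbar) (hP : P.LiesOverPrime ℓ)
    (σ : GQ) (hσ : P.IsFrobeniusAt σ ℓ) : LinearMap.det (H.ρ.ρ σ) = (ℓ : T) := by
  have hℓN : ¬ ℓ ∣ N := fun h => hℓS (hNS ℓ hℓ h)
  have h1 := H.charpoly_frob ℓ hℓ hℓN (by exact_mod_cast hℓS) P hP σ hσ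
  let b : Module.Basis (Fin 2) T H.ρ.V := Module.finBasisOfFinrankEq T H.ρ.V H.ρ.finrank_eq
  rw [← LinearMap.charpoly_toMatrix (H.ρ.ρ σ) b, Matrix.charpoly_fin_two] at h1
  rw [← LinearMap.det_toMatrix b]
  exact (s59e_coeffs_of_quadratic_eq h1).2

include H in
theorem s59e_hecke_p_mem (hp𝒪 : (p : 𝒪) ∈ maximalIdeal 𝒪) : (p : T) ∈ maximalIdeal T := by
  have := map_nonunit (algebraMap 𝒪 T) (p : 𝒪) hp𝒪
  rwa [map_natCast] at this

/-- **the determinant of a Hecke–Galois datum is cyclotomic.** -/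
theorem s59e_hecke_detCyc (hp𝒪 : (p : 𝒪) ∈ maximalIdeal 𝒪)
    (hNS : ∀ q : ℕ, q.Prime → q ∣ N → q ∈ S) : H.ρ.DetIsCyclotomic p :=
  s59e_detCyc_of_frob p H.ρ (s59e_hecke_p_mem H hp𝒪) S
    (fun ℓ hℓ hℓS P hP σ hσ => s59e_hecke_det_frob H hNS ℓ hℓ hℓS P hP σ hσ)

/-- **oddness** of the residual representation. -/
theorem s59e_hecke_odd (hp𝒪 : (p : 𝒪) ∈ maximalIdeal 𝒪)
    (hNS : ∀ q : ℕ, q.Prime → q ∣ N → q ∈ S) :
    LinearMap.det (H.ρ.residual.ρ complexConjugation) = -1 := by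
  have hp0 : p ≠ 0 := (Fact.out : p.Prime).ne_zero
  rw [s59e_residual_det p H.ρ (s59e_hecke_detCyc H hp𝒪 hNS) complexConjugation (p - 1)
    (fun μ hμ => s30y_conj_root p hp0 μ hμ)]
  have h1 : ((p : ℕ) : ResidueField T) = 0 := by
    rw [← map_natCast (residue T), residue_eq_zero_iff]
    exact s59e_hecke_p_mem H hp𝒪
  rw [Nat.cast_sub (Nat.one_le_iff_ne_zero.mpr hp0), h1, Nat.cast_one, zero_sub]

/-- **`hres` of S54**: the residual representation of a Hecke–Galois datum is the given `ρbar`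
(with eigensystem `θ`), by Brauer–Nesbitt. -/
theorem s59e_hecke_hres (hp2 : p ≠ 2) (hp𝒪 : (p : 𝒪) ∈ maximalIdeal 𝒪)
    (hNS : ∀ q : ℕ, q.Prime → q ∣ N → q ∈ S)
    (ρbar : ResidualGaloisRep (ResidueField 𝒪))
    (hEig : ∀ (ℓ : ℕ) (hℓ : ℓ.Prime) (hℓN : ¬ ℓ ∣ N) (hℓS : ℓ ∉ (↑S : Set ℕ)),
      ∀ A : ValuationSubring Qbar, A.LiesOverPrime ℓ →
      ∀ σ : GQ, A.IsFrobeniusAt σ ℓ →
        LinearMap.charpoly (ρbar.ρ σ) =
          X ^ 2 - C (θ (heckeAlgebra.T hℓ hℓN hℓS)) * X + C ((ℓ : ResidueField 𝒪))) :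
    H.ρ.residual.IsEquiv (ρbar.baseChangeAlong (ResidueField.map (algebraMap 𝒪 T))) := by
  have hpT : (p : T) ∈ maximalIdeal T := s59e_hecke_p_mem H hp𝒪
  have hpk : ((p : ℕ) : ResidueField T) = 0 := by
    rw [← map_natCast (residue T), residue_eq_zero_iff]
    exact hpT
  have h2 : (2 : ResidueField T) ≠ 0 := by
    intro h
    have hcop : Nat.Coprime 2 p :=
      (Nat.coprime_primes Nat.prime_two (Fact.out : p.Prime)).mpr (Ne.symm hp2)
    obtain ⟨u, v, huv⟩ := Nat.isCoprime_iff_coprime.mpr hcop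
    have := congrArg (fun z : ℤ => (z : ResidueField T)) huv
    push_cast at this
    rw [hpk, h, mul_zero, mul_zero, add_zero] at this
    exact zero_ne_one this
  refine s59e_residual_isEquiv_of_frob h2 H.ρ.residual _
    (s59e_irr_of_absIrr _ H.residual_absIrr) complexConjugation complexConjugation_mul_self
    (s59e_hecke_odd H hp𝒪 hNS) S ?_
  intro ℓ hℓ hℓS P hP σ hσ
  have hℓN : ¬ ℓ ∣ N := fun h => hℓS (hNS ℓ hℓ h)
  have hℓS' : ℓ ∉ (↑S : Set ℕ) := by exact_mod_cast hℓS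
  -- the right-hand side
  have e1 : LinearMap.charpoly (H.ρ.residual.ρ σ) =
      (LinearMap.charpoly (H.ρ.ρ σ)).map (residue T) := by
    show LinearMap.charpoly ((H.ρ.ρ σ).baseChange (ResidueField T)) = _
    rw [LinearMap.charpoly_baseChange]
    rfl
  -- the left-hand side
  have e2 : LinearMap.charpoly
        ((ρbar.baseChangeAlong (ResidueField.map (algebraMap 𝒪 T))).ρ σ) =
      (LinearMap.charpoly (ρbar.ρ σ)).map (ResidueField.map (algebraMap 𝒪 T)) := by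
    letI : Algebra (ResidueField 𝒪) (ResidueField T) :=
      (ResidueField.map (algebraMap 𝒪 T)).toAlgebra
    show LinearMap.charpoly ((ρbar.ρ σ).baseChange (ResidueField T)) = _
    rw [LinearMap.charpoly_baseChange]
    rfl
  rw [e1, e2, H.charpoly_frob ℓ hℓ hℓN hℓS' P hP σ hσ, hEig ℓ hℓ hℓN hℓS' P hP σ hσ]
  simp only [Polynomial.map_add, Polynomial.map_sub, Polynomial.map_mul, Polynomial.map_pow,
    Polynomial.map_X, Polynomial.map_C, map_natCast, Polynomial.map_natCast, H.residue_π]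

/-- the flat deformation condition for a Hecke–Galois datum of level prime to `p` (S31, S32). -/
theorem s59e_hecke_flatCondition [Finite (ResidueField 𝒪)] [CharZero 𝒪] (hp2 : p ≠ 2)
    (hp𝒪 : (p : 𝒪) ∈ maximalIdeal 𝒪) (hpN : ¬ p ∣ N) (hpS : p ∈ S)
    (hNS : ∀ q : ℕ, q.Prime → q ∣ N → q ∈ S) :
    GaloisRep.flatCondition 𝒪 p S H.ρ :=
  ⟨s59e_hecke_detCyc H hp𝒪 hNS,
    Fermat.Agent.S32.result (Fact.out : p.Prime) hp2 hp𝒪 hpN hpS hNS H,
    fun q hq hqS => Fermat.Agent.S31.result (Fact.out : p.Prime) hp𝒪 hpS hNS H q hq hqS⟩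

/-- the ordinary deformation condition for a Hecke–Galois datum of level `p ∥ N` which is
residually ordinary (S31, S33). -/
theorem s59e_hecke_ordinaryCondition [Finite (ResidueField 𝒪)] [CharZero 𝒪] (hp2 : p ≠ 2)
    (hp𝒪 : (p : 𝒪) ∈ maximalIdeal 𝒪) (hN : p ∣ N ∧ ¬ p ^ 2 ∣ N)
    (hNS : ∀ q : ℕ, q.Prime → q ∣ N → q ∈ S)
    (hres : (GaloisRepAdic.ofResidualGaloisRep H.ρ.residual).IsOrdinaryAt p) :
    GaloisRep.ordinaryCondition 𝒪 p S H.ρ :=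
  ⟨s59e_hecke_detCyc H hp𝒪 hNS,
    Fermat.Agent.S33.result (Fact.out : p.Prime) hp2 hp𝒪 hN hNS H hres,
    fun q hq hqS => Fermat.Agent.S31.result (Fact.out : p.Prime) hp𝒪
      (hNS p (Fact.out : p.Prime) hN.1) hNS H q hq hqS⟩

/-- unipotence on inertia at the primes `q ∥ N`, `q ≠ p` (S34). -/
theorem s59e_hecke_unip [Finite (ResidueField 𝒪)] [CharZero 𝒪]
    (hp𝒪 : (p : 𝒪) ∈ maximalIdeal 𝒪) (hpS : p ∈ S)
    (hNS : ∀ q : ℕ, q.Prime → q ∣ N → q ∈ S)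
    (q : ℕ) (hq : q.Prime) (hqp : q ≠ p) (hqN : q ∣ N) (hq2 : ¬ q ^ 2 ∣ N) :
    H.ρ.IsUnipotentOnInertiaAt q :=
  Fermat.Agent.S34.result (Fact.out : p.Prime) hp𝒪 hpS hNS H q hq hqp hqN hq2

end Datum

section Equiv

variable {A : Type} [CommRing A] [IsLocalRing A]

/-- equivalent representations have the same characteristic polynomials. -/
theorem s59e_charpoly_of_isEquiv {ρ₁ ρ₂ : GaloisRepAdic A} (h : ρ₁.IsEquiv ρ₂) (σ : GQ) :
    LinearMap.charpoly (ρ₂.ρ σ) = LinearMap.charpoly (ρ₁.ρ σ) := by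
  obtain ⟨e⟩ := h
  have h1 : ρ₂.ρ σ = e.toLinearEquiv.conj (ρ₁.ρ σ) := by
    refine LinearMap.ext fun y => ?_
    rw [LinearEquiv.conj_apply_apply, e.map_apply, LinearEquiv.apply_symm_apply]
  rw [h1, LinearEquiv.charpoly_conj]

/-- `cancelBaseChange` intertwines the base changes of an endomorphism. -/
theorem s59e_cancelBaseChange_baseChange {A B C : Type*} [CommRing A] [CommRing B] [CommRing C]
    [Algebra A B] [Algebra B C] [Algebra A C] [IsScalarTower A B C]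
    {V : Type*} [AddCommGroup V] [Module A V] (f : Module.End A V)
    (x : TensorProduct B C (TensorProduct A B V)) :
    TensorProduct.AlgebraTensorModule.cancelBaseChange A B C C V
      (((f.baseChange B).baseChange C) x) =
    (f.baseChange C) (TensorProduct.AlgebraTensorModule.cancelBaseChange A B C C V x) := by
  induction x using TensorProduct.induction_on with
  | zero => simp only [map_zero]
  | tmul c y =>
    induction y using TensorProduct.induction_on with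
    | zero => simp only [TensorProduct.tmul_zero, map_zero]
    | tmul b v =>
      rw [LinearMap.baseChange_tmul, LinearMap.baseChange_tmul,
        TensorProduct.AlgebraTensorModule.cancelBaseChange_tmul,
        TensorProduct.AlgebraTensorModule.cancelBaseChange_tmul, LinearMap.baseChange_tmul]
    | add y z hy hz =>
      simp only [TensorProduct.tmul_add, map_add, hy, hz]
  | add x y hx hy => simp only [map_add, hx, hy]

/-- iterated base change is base change along the composite. -/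
theorem s59e_bc_comp_isEquiv {B C : Type} [CommRing B] [IsLocalRing B] [CommRing C]
    [IsLocalRing C] (φ : A →+* B) (hφ : IsLocalHom φ) (ψ : B →+* C) (hψ : IsLocalHom ψ)
    (hψφ : IsLocalHom (ψ.comp φ)) (ρ : GaloisRepAdic A) :
    ((ρ.baseChangeAlong φ hφ).baseChangeAlong ψ hψ).IsEquiv (ρ.baseChangeAlong (ψ.comp φ) hψφ) := by
  letI : Algebra A B := φ.toAlgebra
  letI : Algebra B C := ψ.toAlgebra
  letI : Algebra A C := (ψ.comp φ).toAlgebra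
  haveI : IsScalarTower A B C := IsScalarTower.of_algebraMap_eq fun _ => rfl
  exact ⟨⟨TensorProduct.AlgebraTensorModule.cancelBaseChange A B C C ρ.V, fun σ x =>
    s59e_cancelBaseChange_baseChange (ρ.ρ σ) x⟩⟩

end Equiv

section Final

variable {p : ℕ} [Fact p.Prime] {N : ℕ} [NeZero N] [Fact (HasIntegralStructure N 2)]
  {S : Finset ℕ}
  {𝒪 : Type} [CommRing 𝒪] [IsDomain 𝒪] [IsDiscreteValuationRing 𝒪]
  [IsAdicComplete (maximalIdeal 𝒪) 𝒪]
  {θ : heckeAlgebra N 2 (↑S : Set ℕ) →+* ResidueField 𝒪}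
  {T' : Type} [CommRing T'] [IsLocalRing T'] [Algebra 𝒪 T'] [IsLocalHom (algebraMap 𝒪 T')]

/-- **`R_𝒟 ↠ T'`**: a deformation ring of a type satisfied by the Hecke–Galois datum over the full
local Hecke algebra surjects onto every quotient datum `(T', a)`, compatibly with Frobenius
characteristic polynomials. -/
theorem s59e_R_to_T' {ρbar : ResidualGaloisRep (ResidueField 𝒪)}
    {𝒟 : ∀ ⦃A : Type⦄ [CommRing A] [IsLocalRing A] [Algebra 𝒪 A], GaloisRepAdic A → Prop}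
    (D : GaloisRep.DeformationRingData 𝒪 ρbar 𝒟)
    (H : HeckeGaloisRepDatum N (↑S : Set ℕ) 𝒪 θ (heckeLocal N (↑S : Set ℕ) 𝒪 θ))
    (hπ : H.π = heckeLocal.π N (↑S : Set ℕ) 𝒪 θ)
    (hNS : ∀ q : ℕ, q.Prime → q ∣ N → q ∈ S) (h𝒟 : 𝒟 H.ρ)
    (hres : H.ρ.residual.IsEquiv (ρbar.baseChangeAlong
      (ResidueField.map (algebraMap 𝒪 (heckeLocal N (↑S : Set ℕ) 𝒪 θ)))))
    (a : heckeAlgebra N 2 (↑S : Set ℕ) →+* T')
    (ha_res : ∀ t, residue T' (a t) = ResidueField.map (algebraMap 𝒪 T') (θ t))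
    (ha_gen : Algebra.adjoin 𝒪 (Set.range a) = ⊤) :
    ∃ (φ : D.R →ₐ[𝒪] T') (hφ : IsLocalHom (φ : D.R →+* T')), Function.Surjective φ ∧
      ∀ (ℓ : ℕ) (hℓ : ℓ.Prime) (hℓN : ¬ ℓ ∣ N) (hℓS : ℓ ∉ (↑S : Set ℕ))
        (A : ValuationSubring Qbar), A.LiesOverPrime ℓ → ∀ σ : GQ, A.IsFrobeniusAt σ ℓ →
        LinearMap.charpoly ((D.ρ.baseChangeAlong (φ : D.R →+* T') hφ).ρ σ) =
          X ^ 2 - C (a (heckeAlgebra.T hℓ hℓN hℓS)) * X + C ((ℓ : T')) := by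
  obtain ⟨φ₀, hφ₀surj, hφ₀, hequiv⟩ := Fermat.Agent.S54.result D H hNS h𝒟 hres
  obtain ⟨Ψ, hΨ, hΨsurj, hΨa, hΨcp⟩ := s59e_push N (↑S : Set ℕ) 𝒪 θ H hπ a ha_res ha_gen
  have hsurj : Function.Surjective (Ψ.comp φ₀) := hΨsurj.comp hφ₀surj
  have hloc : IsLocalHom ((Ψ.comp φ₀ : D.R →ₐ[𝒪] T') : D.R →+* T') :=
    Function.Surjective.isLocalHom _ hsurj
  refine ⟨Ψ.comp φ₀, hloc, hsurj, fun ℓ hℓ hℓN hℓS A hA σ hσ => ?_⟩
  have h1 := hΨcp ℓ hℓ hℓN hℓS A hA σ hσ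
  rw [s59e_bc_charpoly] at h1
  rw [s59e_bc_charpoly, ← h1, s59e_charpoly_of_isEquiv hequiv σ, s59e_bc_charpoly,
    Polynomial.map_map]
  rfl

/-- the same with the comparison of the representations: `D.ρ ⊗_φ T' ≃ H.ρ ⊗_Ψ T'`. -/
theorem s59e_R_to_T'_full {ρbar : ResidualGaloisRep (ResidueField 𝒪)}
    {𝒟 : ∀ ⦃A : Type⦄ [CommRing A] [IsLocalRing A] [Algebra 𝒪 A], GaloisRepAdic A → Prop}
    (D : GaloisRep.DeformationRingData 𝒪 ρbar 𝒟)
    (H : HeckeGaloisRepDatum N (↑S : Set ℕ) 𝒪 θ (heckeLocal N (↑S : Set ℕ) 𝒪 θ))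
    (hπ : H.π = heckeLocal.π N (↑S : Set ℕ) 𝒪 θ)
    (hNS : ∀ q : ℕ, q.Prime → q ∣ N → q ∈ S) (h𝒟 : 𝒟 H.ρ)
    (hres : H.ρ.residual.IsEquiv (ρbar.baseChangeAlong
      (ResidueField.map (algebraMap 𝒪 (heckeLocal N (↑S : Set ℕ) 𝒪 θ)))))
    (a : heckeAlgebra N 2 (↑S : Set ℕ) →+* T')
    (ha_res : ∀ t, residue T' (a t) = ResidueField.map (algebraMap 𝒪 T') (θ t))
    (ha_gen : Algebra.adjoin 𝒪 (Set.range a) = ⊤) :
    ∃ (Ψ : heckeLocal N (↑S : Set ℕ) 𝒪 θ →ₐ[𝒪] T')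
      (hΨ : IsLocalHom (Ψ : heckeLocal N (↑S : Set ℕ) 𝒪 θ →+* T'))
      (φ : D.R →ₐ[𝒪] T') (hφ : IsLocalHom (φ : D.R →+* T')),
      Function.Surjective Ψ ∧ (∀ t, Ψ (heckeLocal.π N (↑S : Set ℕ) 𝒪 θ t) = a t) ∧
      Function.Surjective φ ∧
      (D.ρ.baseChangeAlong (φ : D.R →+* T') hφ).IsEquiv
        (H.ρ.baseChangeAlong (Ψ : heckeLocal N (↑S : Set ℕ) 𝒪 θ →+* T') hΨ) ∧
      ∀ (ℓ : ℕ) (hℓ : ℓ.Prime) (hℓN : ¬ ℓ ∣ N) (hℓS : ℓ ∉ (↑S : Set ℕ))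
        (A : ValuationSubring Qbar), A.LiesOverPrime ℓ → ∀ σ : GQ, A.IsFrobeniusAt σ ℓ →
        LinearMap.charpoly ((H.ρ.baseChangeAlong
          (Ψ : heckeLocal N (↑S : Set ℕ) 𝒪 θ →+* T') hΨ).ρ σ) =
          X ^ 2 - C (a (heckeAlgebra.T hℓ hℓN hℓS)) * X + C ((ℓ : T')) := by
  obtain ⟨φ₀, hφ₀surj, hφ₀, ⟨e₀⟩⟩ := Fermat.Agent.S54.result D H hNS h𝒟 hres
  obtain ⟨Ψ, hΨ, hΨsurj, hΨa, hΨcp⟩ := s59e_push N (↑S : Set ℕ) 𝒪 θ H hπ a ha_res ha_gen
  have hsurj : Function.Surjective (Ψ.comp φ₀) := hΨsurj.comp hφ₀surj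
  have hloc : IsLocalHom ((Ψ.comp φ₀ : D.R →ₐ[𝒪] T') : D.R →+* T') :=
    Function.Surjective.isLocalHom _ hsurj
  refine ⟨Ψ, hΨ, Ψ.comp φ₀, hloc, hΨsurj, hΨa, hsurj, ?_, hΨcp⟩
  obtain ⟨e₁⟩ := s59e_bc_comp_isEquiv (φ₀ : D.R →+* heckeLocal N (↑S : Set ℕ) 𝒪 θ) hφ₀
    (Ψ : heckeLocal N (↑S : Set ℕ) 𝒪 θ →+* T') hΨ hloc D.ρ
  exact ⟨e₁.symm.trans (GaloisRepAdic.Equiv.baseChangeAlong
    (Ψ : heckeLocal N (↑S : Set ℕ) 𝒪 θ →+* T') hΨ e₀)⟩

end Final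

end Fermat.Agent.Lib.S59

end
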