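/-
Programme (R) = S59, node (H1) (helper3), file 7: THE TWIST CONTRACT `s59u_TwistES`.

* `s59u_St_final`: a state on `G(Lev, D)` with trivial diamond character gives a nonzero cusp form
  `f ∈ S₂(Γ₀(Lev))` with `T_ℓ f = x_ℓ f` for all primes `ℓ ∤ Lev` (extension by invariance + S21 +
  Hecke equivariance of the period pairing).
-/
import Mathlib
import Fermat.Agent.Lib.S30.EigLattice
import Fermat.Agent.Lib.S48.HDS
import Fermat.Agent.Lib.S59.UState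

set_option autoImplicit false
set_option linter.unusedSectionVars false
set_option linter.style.haveILetI false

noncomputable section

namespace Fermat.Agent.Lib.S59

open Fermat.Agent.Lib.S48 Fermat.Agent.Lib.ES Fermat.Agent.Lib.S29 Fermat.Agent.Lib.S30
  CongruenceSubgroup ModularCurve ModularCurve.Period
open P2MW.S_ModularForm_heckeT_slash_eq_self_of_mem_Gamma0.ModularForm.HeckeSlashInvariance
open scoped MatrixGroups OnePoint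

local notation "Mat2" => Matrix (Fin 2) (Fin 2) ℤ

/-- From a parabolic eigenclass on `Γ₀(M)` to an eigenform (S21). -/
theorem s59u_exists_eigenform {M : ℕ} [NeZero M] (Φ : Additive (Gamma0 M) →+ ℂ) (hΦ0 : Φ ≠ 0)
    (hΦ : IsParabolicHom (Gamma0 M) Φ) (x : ℕ → ℂ)
    (heig : ∀ (ℓ : ℕ) [Fact ℓ.Prime], ¬ ℓ ∣ M → s29h_heckeHom M ℓ ℂ Φ = x ℓ • Φ) :
    ∃ f : CuspForm (Gamma0 M) 2, f ≠ 0 ∧ ∀ (ℓ : ℕ) (hℓ : ℓ.Prime) (hℓM : ¬ ℓ ∣ M),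
      CuspForm.heckeTLin 2 hℓ hℓM f = x ℓ • f := by
  obtain ⟨X, hX⟩ := (s30e_Phi M).surjective ⟨Φ, mem_parabolicHoms_iff.mpr hΦ⟩
  have hX' : periodHomPair M X = Φ := by rw [← s30e_Phi_coe, hX]
  have hinj : Function.Injective (periodHomPair M) := fun a b h =>
    (s30e_Phi M).injective (Subtype.ext h)
  have hT : ∀ (ℓ : ℕ) (hℓ : ℓ.Prime) (hℓM : ¬ ℓ ∣ M),
      CuspForm.heckeTLin 2 hℓ hℓM X.1 = x ℓ • X.1 ∧ CuspForm.heckeTLin 2 hℓ hℓM X.2 = x ℓ • X.2 := by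
    intro ℓ hℓ hℓM
    have : Fact ℓ.Prime := ⟨hℓ⟩
    have h1 := s30e_heckeHom_periodHomPair hℓ hℓM X.1 X.2
    have h2 : periodHomPair M (X.1, X.2) = Φ := hX'
    rw [h2, heig ℓ hℓM, ← hX', ← map_smul] at h1
    have h3 := hinj h1
    exact ⟨(congrArg Prod.fst h3).symm, (congrArg Prod.snd h3).symm⟩
  have hXne : X ≠ 0 := by
    rintro rfl
    rw [map_zero] at hX'
    exact hΦ0 hX'.symm
  by_cases h1 : X.1 = 0
  · refine ⟨X.2, fun h2 => hXne (Prod.ext h1 h2), fun ℓ hℓ hℓM => (hT ℓ hℓ hℓM).2⟩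
  · exact ⟨X.1, h1, fun ℓ hℓ hℓM => (hT ℓ hℓ hℓM).1⟩

/-- **The final step.** -/
theorem s59u_St_final {Lev D : ℕ} [NeZero Lev] (ψ : ℤ → ℂ) (x : ℕ → ℂ)
    (hψ1 : ∀ d : ℤ, IsCoprime d (Lev : ℤ) → ψ d = 1) (h : s59u_St D ℂ Lev ψ x) :
    ∃ f : CuspForm (Gamma0 Lev) 2, f ≠ 0 ∧ ∀ (ℓ : ℕ) (hℓ : ℓ.Prime) (hℓN : ¬ ℓ ∣ Lev),
      CuspForm.heckeTLin 2 hℓ hℓN f = x ℓ • f := by
  obtain ⟨hD, φ, h0, hpar, hdiam, heig⟩ := h
  obtain ⟨Φ, hΦ⟩ := s59u_ext φ (fun σ hσ => by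
    rw [hdiam σ hσ, hψ1 _ (s59u_coprime_lowerRight hσ), one_smul])
  have hinj := s59u_res_injective (A := ℂ) (s59u_G_le_gamma0 (hD := hD)) s59u_G_index_ne_zero
  refine s59u_exists_eigenform Φ ?_ ?_ x ?_
  · rintro rfl
    rw [map_zero] at hΦ
    exact h0 hΦ.symm
  · exact s59u_parabolic_of_res (s59u_G_le_gamma0 (hD := hD)) s59u_G_index_ne_zero Φ
      (by rw [hΦ]; exact hpar)
  · intro ℓ _ hℓ
    obtain ⟨σ, hσ, hσ11⟩ := s48h_exists_sigma_p (M := Lev) hℓ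
    apply hinj
    have h1 := s59u_res_s29h (s59u_ker Lev D hD) hℓ σ hσ hσ11 Φ
    have h2 : s59u_res (s48h_GammaH_le_Gamma0 (H := s59u_ker Lev D hD)) ℂ Φ = φ := hΦ
    rw [h2, heig ℓ hℓ σ hσ hσ11] at h1
    rw [s59u_res_smul, hΦ]
    exact h1

/-! ### Arithmetic lemmas for the induction -/

theorem s59u_exists_d (L₀ q : ℕ) (hcop : Nat.Coprime L₀ q) (a : ZMod q) :
    ∃ d : ℤ, (L₀ : ℤ) ∣ d - 1 ∧ ((d : ℤ) : ZMod q) = a := by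
  obtain ⟨u, v, huv⟩ : IsCoprime (L₀ : ℤ) (q : ℤ) := Nat.isCoprime_iff_coprime.mpr hcop
  refine ⟨1 + u * L₀ * ((a.cast : ℤ) - 1), ⟨u * ((a.cast : ℤ) - 1), by ring⟩, ?_⟩
  have h1 : ((u * L₀ : ℤ) : ZMod q) = 1 := by
    have := congrArg (Int.cast : ℤ → ZMod q) huv
    push_cast at this
    rw [ZMod.natCast_self, mul_zero, add_zero] at this
    push_cast
    exact this
  push_cast at h1 ⊢
  rw [h1]
  ring

theorem s59u_cast_eq_one_of_dvd {L₀ q' : ℕ} (hq' : q' ∣ L₀) {d : ℤ} (hd : (L₀ : ℤ) ∣ d - 1) :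
    ((d : ℤ) : ZMod q') = 1 := by
  have h1 : (((d - 1 : ℤ)) : ZMod q') = 0 :=
    (ZMod.intCast_zmod_eq_zero_iff_dvd _ _).mpr ((Int.natCast_dvd_natCast.mpr hq').trans hd)
  push_cast at h1
  exact sub_eq_zero.mp h1

theorem s59u_isCoprime_of_dvd_sub_one {A : ℕ} {d : ℤ} (hd : (A : ℤ) ∣ d - 1) :
    IsCoprime d (A : ℤ) := by
  obtain ⟨k, hk⟩ := hd
  exact ⟨1, -k, by linear_combination hk⟩

theorem s59u_isUnit_cast_of_isCoprime {q : ℕ} {n : ℕ} (hq : q ∣ n) {d : ℤ}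
    (hd : IsCoprime d (n : ℤ)) : IsUnit ((d : ℤ) : ZMod q) := by
  rw [ZMod.coe_int_isUnit_iff_isCoprime]
  exact (hd.of_isCoprime_of_dvd_right (Int.natCast_dvd_natCast.mpr hq)).symm

/-! ### The induction over the primes of `Q` -/

section Main

variable (N : ℕ) [NeZero N] (Q : Finset ℕ)

theorem s59u_prod_ne_zero (hQ : ∀ q ∈ Q, q.Prime ∧ ¬ q ∣ N) (S : Finset ℕ) (hS : S ⊆ Q) :
    ∏ q ∈ S, q ≠ 0 :=
  Finset.prod_ne_zero_iff.mpr fun q hq => (hQ q (hS hq)).1.ne_zero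

/-- `q` is prime to `N ∏_{Q∖q} ∏_S` for `q ∈ Q ∖ S`. -/
theorem s59u_coprime_L0 (hQ : ∀ q ∈ Q, q.Prime ∧ ¬ q ∣ N) (S : Finset ℕ) (hS : S ⊆ Q) {q : ℕ}
    (hqQ : q ∈ Q) (hqS : q ∉ S) :
    Nat.Coprime (N * (∏ q' ∈ Q.erase q, q') * ∏ q' ∈ S, q') q := by
  have hq := (hQ q hqQ).1
  have h1 : ∀ T : Finset ℕ, T ⊆ Q → q ∉ T → Nat.Coprime (∏ q' ∈ T, q') q := by
    intro T hT hqT
    refine Nat.Coprime.prod_left fun q' hq' => ?_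
    refine (Nat.coprime_primes (hQ q' (hT hq')).1 hq).mpr ?_
    rintro rfl
    exact hqT hq'
  refine Nat.Coprime.mul_left (Nat.Coprime.mul_left ?_ ?_) (h1 S hS hqS)
  · exact ((Nat.Prime.coprime_iff_not_dvd hq).mpr (hQ q hqQ).2).symm
  · exact h1 _ (Finset.erase_subset _ _) (Finset.notMem_erase q Q)

theorem s59u_TwistES_aux (hQ : ∀ q ∈ Q, q.Prime ∧ ¬ q ∣ N)
    (χ : ∀ q : ℕ, MulChar (ZMod q) ℂ) (hχ : ∀ q ∈ Q, χ q = 1 ∨ (χ q) ^ 2 ≠ 1)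
    (ψ : ℤ → ℂ) (hψper : ∀ a b : ℤ, ((N * ∏ q ∈ Q, q : ℕ) : ℤ) ∣ a - b → ψ a = ψ b)
    (hψχ : ∀ d : ℤ, IsCoprime d ((N * ∏ q ∈ Q, q : ℕ) : ℤ) →
      ψ d * ∏ q ∈ Q, (χ q ((d : ℤ) : ZMod q)) ^ 2 = 1)
    (x : ℕ → ℂ) (h0 : s59u_St (∏ q ∈ Q, q) ℂ (N * ∏ q ∈ Q, q) ψ x) :
    ∀ S : Finset ℕ, S ⊆ Q → s59u_St (∏ q ∈ Q, q) ℂ (N * (∏ q ∈ Q, q) * ∏ q ∈ S, q)
      (fun d => ψ d * ∏ q ∈ S, (χ q ((d : ℤ) : ZMod q)) ^ 2)
      (fun ℓ => (∏ q ∈ S, χ q (ℓ : ZMod q)) * x ℓ) := by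
  classical
  intro S
  induction S using Finset.induction_on with
  | empty =>
    intro _
    simpa using h0
  | insert q S hqS ih =>
    intro hsub
    have hqQ : q ∈ Q := hsub (Finset.mem_insert_self q S)
    have hSQ : S ⊆ Q := fun a ha => hsub (Finset.mem_insert_of_mem ha)
    have ih' := ih hSQ
    haveI : Fact q.Prime := ⟨(hQ q hqQ).1⟩
    set L₀ : ℕ := N * (∏ q' ∈ Q.erase q, q') * ∏ q' ∈ S, q' with hL₀
    haveI : NeZero L₀ := ⟨mul_ne_zero (mul_ne_zero (NeZero.ne N)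
      (s59u_prod_ne_zero N Q hQ _ (Finset.erase_subset _ _))) (s59u_prod_ne_zero N Q hQ S hSQ)⟩
    have hQq : q * ∏ q' ∈ Q.erase q, q' = ∏ q' ∈ Q, q' := Finset.mul_prod_erase Q (fun q' => q') hqQ
    have hLev : N * (∏ q ∈ Q, q) * ∏ q ∈ S, q = L₀ * q := by rw [hL₀, ← hQq]; ring
    have hLev' : N * (∏ q ∈ Q, q) * ∏ q ∈ insert q S, q = L₀ * q * q := by
      rw [Finset.prod_insert hqS, ← hLev]; ring
    have hqD : q ∣ ∏ q' ∈ Q, q' := Finset.dvd_prod_of_mem (fun q' => q') hqQ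
    have hcop : Nat.Coprime L₀ q := s59u_coprime_L0 N Q hQ S hSQ hqQ hqS
    rw [hLev] at ih'
    rw [hLev']
    -- values at units
    have hunit : ∀ d : ℤ, IsCoprime d ((L₀ * q * q : ℕ) : ℤ) → IsUnit ((d : ℤ) : ZMod q) :=
      fun d hd => s59u_isUnit_cast_of_isCoprime (dvd_mul_left q (L₀ * q)) hd
    have hunitℓ : ∀ ℓ : ℕ, ℓ.Prime → ¬ ℓ ∣ L₀ * q * q → IsUnit ((ℓ : ℕ) : ZMod q) := by
      intro ℓ hℓ hℓL
      rw [ZMod.isUnit_iff_coprime]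
      refine (Nat.coprime_primes hℓ (hQ q hqQ).1).mpr ?_
      rintro rfl
      exact hℓL (dvd_mul_left _ _)
    rcases hχ q hqQ with h1 | h2
    · -- restriction step
      refine s59u_St_congr (fun d hd => ?_) (fun ℓ hℓ hℓL => ?_) (s59u_St_step_res _ _ ih')
      · show ψ d * _ = ψ d * _
        rw [Finset.prod_insert hqS, h1, MulChar.one_apply (hunit d hd), one_pow, one_mul]
      · show _ * x ℓ = _ * x ℓ
        rw [Finset.prod_insert hqS, h1, MulChar.one_apply (hunitℓ ℓ hℓ hℓL), one_mul]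
    · -- twist step
      have hχ1 : χ q ≠ 1 := by
        rintro h
        rw [h, one_pow] at h2
        exact h2 rfl
      obtain ⟨a, ha⟩ := MulChar.ne_one_iff.mp h2
      rw [MulChar.pow_apply_coe] at ha
      obtain ⟨d, hd1, hda⟩ := s59u_exists_d L₀ q hcop (a : ZMod q)
      have hMdvd : N * (∏ q' ∈ Q, q') ∣ L₀ * q := ⟨∏ q' ∈ S, q', hLev.symm⟩
      have hper : ∀ a b : ℤ, ((L₀ * q : ℕ) : ℤ) ∣ a - b →
          (fun d => ψ d * ∏ q' ∈ S, (χ q' ((d : ℤ) : ZMod q')) ^ 2) a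
            = (fun d => ψ d * ∏ q' ∈ S, (χ q' ((d : ℤ) : ZMod q')) ^ 2) b := by
        intro a b hab
        show ψ a * _ = ψ b * _
        rw [hψper a b ((Int.natCast_dvd_natCast.mpr hMdvd).trans hab)]
        congr 1
        refine Finset.prod_congr rfl fun q' hq' => ?_
        have hq'L : q' ∣ L₀ * q :=
          (Finset.dvd_prod_of_mem (fun q' => q') hq').trans ⟨N * ∏ q' ∈ Q, q', by rw [← hLev]; ring⟩
        have : ((a : ℤ) : ZMod q') = ((b : ℤ) : ZMod q') := by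
          have h3 : (((a - b : ℤ)) : ZMod q') = 0 :=
            (ZMod.intCast_zmod_eq_zero_iff_dvd _ _).mpr
              ((Int.natCast_dvd_natCast.mpr hq'L).trans hab)
          push_cast at h3
          exact sub_eq_zero.mp h3
        rw [this]
      have hψd : ∃ d : ℤ, (L₀ : ℤ) ∣ d - 1 ∧ IsCoprime d (q : ℤ) ∧
          (fun d => ψ d * ∏ q' ∈ S, (χ q' ((d : ℤ) : ZMod q')) ^ 2) d ≠ 1 := by
        refine ⟨d, hd1, ?_, ?_⟩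
        · have hu : IsUnit ((d : ℤ) : ZMod q) := hda ▸ a.isUnit
          exact ((ZMod.coe_int_isUnit_iff_isCoprime d q).mp hu).symm
        · show ψ d * _ ≠ 1
          have hS1 : ∏ q' ∈ S, (χ q' ((d : ℤ) : ZMod q')) ^ 2 = 1 := by
            refine Finset.prod_eq_one fun q' hq' => ?_
            rw [s59u_cast_eq_one_of_dvd ((Finset.dvd_prod_of_mem (fun q' => q') hq').trans
              (dvd_mul_left _ _)) hd1, map_one, one_pow]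
          rw [hS1, mul_one]
          -- `ψ d * χ_q(a)² = 1`
          have hcopM : IsCoprime d ((N * ∏ q' ∈ Q, q' : ℕ) : ℤ) := by
            have h3 : IsCoprime d ((N * ∏ q' ∈ Q.erase q, q' : ℕ) : ℤ) :=
              s59u_isCoprime_of_dvd_sub_one
                ((Int.natCast_dvd_natCast.mpr (dvd_mul_right _ _)).trans hd1)
            have h4 : IsCoprime d (q : ℤ) := by
              have hu : IsUnit ((d : ℤ) : ZMod q) := hda ▸ a.isUnit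
              exact ((ZMod.coe_int_isUnit_iff_isCoprime d q).mp hu).symm
            have h5 : ((N * ∏ q' ∈ Q, q' : ℕ) : ℤ)
                = ((N * ∏ q' ∈ Q.erase q, q' : ℕ) : ℤ) * (q : ℤ) := by
              rw [← hQq]; push_cast; ring
            rw [h5]
            exact h3.mul_right h4
          have h6 := hψχ d hcopM
          rw [← Finset.mul_prod_erase Q _ hqQ] at h6
          have hE1 : ∏ q' ∈ Q.erase q, (χ q' ((d : ℤ) : ZMod q')) ^ 2 = 1 := by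
            refine Finset.prod_eq_one fun q' hq' => ?_
            rw [s59u_cast_eq_one_of_dvd (((Finset.dvd_prod_of_mem (fun q' => q') hq').trans
              (dvd_mul_left _ N)).trans (dvd_mul_right _ _)) hd1, map_one, one_pow]
          rw [hE1, mul_one, hda] at h6
          intro h7
          rw [h7, one_mul] at h6
          exact ha h6
      refine s59u_St_congr (fun d _ => ?_) (fun ℓ _ _ => ?_)
        (s59u_St_step_tw hqD (χ q) hχ1 _ _ hper hψd ih')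
      · show ψ d * _ * _ = ψ d * _
        rw [Finset.prod_insert hqS]
        ring
      · show _ * (_ * x ℓ) = _ * x ℓ
        rw [Finset.prod_insert hqS]
        ring

/-- **THE TWIST CONTRACT.**  `Q` a finite set of primes not dividing `N`, `M = N ∏_{q ∈ Q} q`,
`H ≤ (ℤ/M)ˣ` containing the units `≡ 1 mod ∏ Q`; `φ ≠ 0` a parabolic class on `Γ_H(M)`, eigenvector
of the `T_ℓ` (`ℓ ∤ M`) with eigenvalues `x_ℓ` and of the diamond operators with character `ψ`;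
`χ_q` (`q ∈ Q`) characters of `(ℤ/q)ˣ`, each trivial or with `χ_q² ≠ 1`, such that `ψ ∏_q χ_q² = 1`.
Then there is a nonzero `f ∈ S₂(Γ₀(N ∏ q²))` with `T_ℓ f = (∏_q χ_q(ℓ)) x_ℓ f` for all `ℓ ∤ M`. -/
theorem s59u_TwistES (hQ : ∀ q ∈ Q, q.Prime ∧ ¬ q ∣ N)
    (H : Subgroup (ZMod (N * ∏ q ∈ Q, q))ˣ)
    (hH : s59u_ker (N * ∏ q ∈ Q, q) (∏ q ∈ Q, q) (dvd_mul_left _ _) ≤ H)
    (χ : ∀ q : ℕ, MulChar (ZMod q) ℂ) (hχ : ∀ q ∈ Q, χ q = 1 ∨ (χ q) ^ 2 ≠ 1)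
    (ψ : ℤ → ℂ) (hψper : ∀ a b : ℤ, ((N * ∏ q ∈ Q, q : ℕ) : ℤ) ∣ a - b → ψ a = ψ b)
    (hψχ : ∀ d : ℤ, IsCoprime d ((N * ∏ q ∈ Q, q : ℕ) : ℤ) →
      ψ d * ∏ q ∈ Q, (χ q ((d : ℤ) : ZMod q)) ^ 2 = 1)
    (x : ℕ → ℂ) (φ : Additive (s48h_GammaH (N * ∏ q ∈ Q, q) H) →+ ℂ) (hφ0 : φ ≠ 0)
    (hpar : IsParabolicHom (s48h_GammaH (N * ∏ q ∈ Q, q) H) φ)
    (hdiam : ∀ (σ : SL(2, ℤ)) (hσ : σ ∈ Gamma0 (N * ∏ q ∈ Q, q)),
      s48h_diamondH H σ hσ ℂ φ = ψ (σ 1 1) • φ)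
    (heig : ∀ (ℓ : ℕ) [Fact ℓ.Prime] (hℓ : ¬ ℓ ∣ N * ∏ q ∈ Q, q) (σ : SL(2, ℤ))
      (hσ : σ ∈ Gamma0 (N * ∏ q ∈ Q, q))
      (hσ11 : ((σ 1 1 : ℤ) : ZMod (N * ∏ q ∈ Q, q)) = (ℓ : ZMod (N * ∏ q ∈ Q, q))),
      s48h_TpH H hℓ σ hσ hσ11 ℂ φ = x ℓ • φ) :
    ∃ f : CuspForm (Gamma0 (N * (∏ q ∈ Q, q) * ∏ q ∈ Q, q)) 2, f ≠ 0 ∧
      ∀ (ℓ : ℕ) (hℓ : ℓ.Prime) (hℓN : ¬ ℓ ∣ N * (∏ q ∈ Q, q) * ∏ q ∈ Q, q),
        CuspForm.heckeTLin 2 hℓ hℓN f = ((∏ q ∈ Q, χ q (ℓ : ZMod q)) * x ℓ) • f := by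
  have hP : ∏ q ∈ Q, q ≠ 0 := s59u_prod_ne_zero N Q hQ Q (Finset.Subset.refl Q)
  haveI : NeZero (N * ∏ q ∈ Q, q) := ⟨mul_ne_zero (NeZero.ne N) hP⟩
  haveI : NeZero (N * (∏ q ∈ Q, q) * ∏ q ∈ Q, q) := ⟨mul_ne_zero (NeZero.ne _) hP⟩
  have h0 := s59u_St_init (dvd_mul_left (∏ q ∈ Q, q) N) H hH ψ x φ hφ0 hpar hdiam heig
  have h1 := s59u_TwistES_aux N Q hQ χ hχ ψ hψper hψχ x h0 Q (Finset.Subset.refl Q)
  refine s59u_St_final _ _ (fun d hd => ?_) h1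
  exact hψχ d (hd.of_isCoprime_of_dvd_right (Int.natCast_dvd_natCast.mpr (dvd_mul_right _ _)))

/-- The same with the level written as `N ∏ q²`. -/
theorem s59u_TwistES' (hQ : ∀ q ∈ Q, q.Prime ∧ ¬ q ∣ N)
    (H : Subgroup (ZMod (N * ∏ q ∈ Q, q))ˣ)
    (hH : s59u_ker (N * ∏ q ∈ Q, q) (∏ q ∈ Q, q) (dvd_mul_left _ _) ≤ H)
    (χ : ∀ q : ℕ, MulChar (ZMod q) ℂ) (hχ : ∀ q ∈ Q, χ q = 1 ∨ (χ q) ^ 2 ≠ 1)
    (ψ : ℤ → ℂ) (hψper : ∀ a b : ℤ, ((N * ∏ q ∈ Q, q : ℕ) : ℤ) ∣ a - b → ψ a = ψ b)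
    (hψχ : ∀ d : ℤ, IsCoprime d ((N * ∏ q ∈ Q, q : ℕ) : ℤ) →
      ψ d * ∏ q ∈ Q, (χ q ((d : ℤ) : ZMod q)) ^ 2 = 1)
    (x : ℕ → ℂ) (φ : Additive (s48h_GammaH (N * ∏ q ∈ Q, q) H) →+ ℂ) (hφ0 : φ ≠ 0)
    (hpar : IsParabolicHom (s48h_GammaH (N * ∏ q ∈ Q, q) H) φ)
    (hdiam : ∀ (σ : SL(2, ℤ)) (hσ : σ ∈ Gamma0 (N * ∏ q ∈ Q, q)),
      s48h_diamondH H σ hσ ℂ φ = ψ (σ 1 1) • φ)
    (heig : ∀ (ℓ : ℕ) [Fact ℓ.Prime] (hℓ : ¬ ℓ ∣ N * ∏ q ∈ Q, q) (σ : SL(2, ℤ))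
      (hσ : σ ∈ Gamma0 (N * ∏ q ∈ Q, q))
      (hσ11 : ((σ 1 1 : ℤ) : ZMod (N * ∏ q ∈ Q, q)) = (ℓ : ZMod (N * ∏ q ∈ Q, q))),
      s48h_TpH H hℓ σ hσ hσ11 ℂ φ = x ℓ • φ)
    (M' : ℕ) (hM' : M' = N * ∏ q ∈ Q, q ^ 2) :
    ∃ f : CuspForm (Gamma0 M') 2, f ≠ 0 ∧
      ∀ (ℓ : ℕ) (hℓ : ℓ.Prime) (hℓN : ¬ ℓ ∣ M'),
        CuspForm.heckeTLin 2 hℓ hℓN f = ((∏ q ∈ Q, χ q (ℓ : ZMod q)) * x ℓ) • f := by
  have h : M' = N * (∏ q ∈ Q, q) * ∏ q ∈ Q, q := by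
    rw [hM', mul_assoc, ← Finset.prod_mul_distrib]
    congr 1
    exact Finset.prod_congr rfl fun q _ => pow_two q
  subst h
  exact s59u_TwistES N Q hQ H hH χ hχ ψ hψper hψχ x φ hφ0 hpar hdiam heig

end Main

end Fermat.Agent.Lib.S59
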