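/-
Programme (R) = S59 (helper3), W-files, file 5: ABSTRACT linear algebra for the transfer of
semisimplicity.

`s59w_SSOn E f` : the endomorphism `f` of `V` preserves the subspace `E` and is semisimple on it.
* `s59w_ss_of_inj`      : `j` injective, `j ∘ f = c • f' ∘ j`, `f'` semisimple ⇒ `f` semisimple;
* `s59w_ssOn_of_inj`    : the same on invariant subspaces;
* `s59w_ssOn_mono`      : semisimplicity passes to invariant subspaces;
* `s59w_ss_of_iSup`     : `⨆ E i = ⊤`, `f` semisimple on every `E i` ⇒ `f` semisimple;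
* `s59w_ssOn_top_iff`.
-/
import Mathlib

set_option autoImplicit false
set_option linter.unusedSectionVars false

noncomputable section

namespace Fermat.Agent.Lib.S59

open Module Polynomial

variable {K : Type*} [Field K] {V V' : Type*} [AddCommGroup V] [Module K V] [AddCommGroup V']
  [Module K V']

/-- **Transfer of semisimplicity along an injective intertwiner.** -/
theorem s59w_ss_of_inj (j : V →ₗ[K] V') (hj : Function.Injective j) (f : Module.End K V)
    (f' : Module.End K V') (c : K) (h : ∀ v, j (f v) = c • f' (j v)) (hf' : f'.IsSemisimple) :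
    f.IsSemisimple := by
  set g : Module.End K V' := c • f' with hg
  have hgs : g.IsSemisimple := Module.End.IsSemisimple_smul c hf'
  have hp : LinearMap.range j ∈ Module.End.invtSubmodule g := by
    rw [Module.End.mem_invtSubmodule]
    rintro w ⟨v, rfl⟩
    show g (j v) ∈ LinearMap.range j
    exact ⟨f v, by rw [h v, hg]; rfl⟩
  have hres := hgs.restrict hp
  let e : V ≃ₗ[K] LinearMap.range j := LinearEquiv.ofInjective j hj
  refine (LinearEquiv.isSemisimple_iff f (LinearMap.restrict g hp) e ?_).mpr hres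
  refine LinearMap.ext fun v => Subtype.ext ?_
  show j (f v) = g (j v)
  rw [h v, hg]
  rfl

/-- `f` preserves `E` and is semisimple on it. -/
def s59w_SSOn (E : Submodule K V) (f : Module.End K V) : Prop :=
  ∃ hE : ∀ v ∈ E, f v ∈ E, Module.End.IsSemisimple (LinearMap.restrict f hE)

/-- transfer along an injective intertwiner defined on `E` only. -/
theorem s59w_ssOn_of_inj' {E : Submodule K V} {E' : Submodule K V'} (j : E →ₗ[K] V')
    (hjE : ∀ v, j v ∈ E') (hinj : Function.Injective j) (f : Module.End K V)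
    (f' : Module.End K V') (c : K) (hfE : ∀ v ∈ E, f v ∈ E)
    (h : ∀ v : E, j ⟨f v, hfE v v.2⟩ = c • f' (j v)) (hf' : s59w_SSOn E' f') : s59w_SSOn E f := by
  obtain ⟨hE', hss⟩ := hf'
  refine ⟨hfE, s59w_ss_of_inj (LinearMap.codRestrict E' j hjE) ?_ (f.restrict hfE)
    (f'.restrict hE') c ?_ hss⟩
  · intro v w hvw
    exact hinj (congrArg Subtype.val hvw)
  · intro v
    exact Subtype.ext (h v)

theorem s59w_ssOn_of_inj {E : Submodule K V} {E' : Submodule K V'} (j : V →ₗ[K] V')
    (hjE : ∀ v ∈ E, j v ∈ E') (hinj : ∀ v ∈ E, j v = 0 → v = 0) (f : Module.End K V)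
    (f' : Module.End K V') (c : K) (hfE : ∀ v ∈ E, f v ∈ E)
    (h : ∀ v ∈ E, j (f v) = c • f' (j v)) (hf' : s59w_SSOn E' f') : s59w_SSOn E f := by
  refine s59w_ssOn_of_inj' (j ∘ₗ E.subtype) (fun v => hjE v v.2) ?_ f f' c hfE
    (fun v => h v v.2) hf'
  intro ⟨v, hv⟩ ⟨w, hw⟩ hvw
  have h1 : j v = j w := hvw
  have h2 : v - w = 0 := hinj (v - w) (E.sub_mem hv hw) (by rw [map_sub, h1, sub_self])
  exact Subtype.ext (sub_eq_zero.mp h2)

theorem s59w_ssOn_mono {E₁ E₂ : Submodule K V} (hE : E₁ ≤ E₂) (f : Module.End K V)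
    (hf₁ : ∀ v ∈ E₁, f v ∈ E₁) (h : s59w_SSOn E₂ f) : s59w_SSOn E₁ f :=
  s59w_ssOn_of_inj LinearMap.id (fun v hv => hE hv) (fun _ _ h => h) f f 1 hf₁
    (fun v _ => by rw [one_smul]; rfl) h

theorem s59w_ssOn_top_iff (f : Module.End K V) : s59w_SSOn ⊤ f ↔ f.IsSemisimple := by
  constructor
  · rintro ⟨hE, hss⟩
    refine s59w_ss_of_inj (V' := (⊤ : Submodule K V))
      (LinearMap.codRestrict ⊤ LinearMap.id fun _ => Submodule.mem_top) ?_ f
      (f.restrict hE) 1 ?_ hss
    · intro v w hvw
      exact congrArg Subtype.val hvw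
    · intro v
      rw [one_smul]
      rfl
  · intro hss
    refine ⟨fun _ _ => Submodule.mem_top, ?_⟩
    refine s59w_ss_of_inj (Submodule.subtype ⊤) (Submodule.injective_subtype _) _ f 1 ?_ hss
    intro v
    rw [one_smul]
    rfl

/-- Semisimplicity on a family of invariant subspaces spanning `V` gives semisimplicity. -/
theorem s59w_ss_of_iSup {ι : Type*} (E : ι → Submodule K V) (f : Module.End K V)
    (hE : ⨆ i, E i = ⊤) (h : ∀ i, s59w_SSOn (E i) f) : f.IsSemisimple := by
  have hinv : ∀ i, E i ∈ Module.End.invtSubmodule f := fun i => by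
    rw [Module.End.mem_invtSubmodule]
    exact (h i).choose
  show IsSemisimpleModule K[X] (AEval' f)
  refine isSemisimpleModule_of_isSemisimpleModule_submodule'
    (p := fun i => (AEval.mapSubmodule K V f ⟨E i, hinv i⟩ : Submodule K[X] (AEval' f))) ?_ ?_
  · intro i
    have hss : IsSemisimpleModule K[X] (AEval' (f.restrict (hinv i))) := (h i).choose_spec
    exact (AEval.restrict_equiv_mapSubmodule f (E i) (hinv i)).isSemisimpleModule_iff.mp hss
  · rw [eq_top_iff]
    rintro x -
    obtain ⟨v, rfl⟩ := (AEval'.of f).surjective x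
    have hv : v ∈ ⨆ i, E i := by rw [hE]; exact Submodule.mem_top
    induction hv using Submodule.iSup_induction' with
    | mem i w hw =>
      exact Submodule.mem_iSup_of_mem i ⟨w, hw, rfl⟩
    | zero => rw [map_zero]; exact Submodule.zero_mem _
    | add w₁ w₂ _ _ h₁ h₂ => rw [map_add]; exact Submodule.add_mem _ h₁ h₂

end Fermat.Agent.Lib.S59
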