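/-
Programme (R) = S59 (helper3), W-files, file 6: **the twist chain at OPERATOR level.**

`s59w_E hD ψ`  : the space of parabolic classes on `G(Lev, D)` with diamond character `ψ`;
`s59w_SS hD ψ` : every `T_ℓ` (`ℓ ∤ Lev`) is semisimple on `s59w_E hD ψ`.
Steps (mirroring `UState.lean`): `s59w_SS_step_res`, `s59w_SS_step_tw` go DOWN from level
`L₀ q²` to level `L₀ q`; `s59w_SS_final`: at trivial character, from `Γ₀(Lev)` (ES + Petersson).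
-/
import Mathlib
import Fermat.Agent.Lib.S59.UTwES
import Fermat.Agent.Lib.S59.WSemi

set_option autoImplicit false
set_option linter.unusedSectionVars false

noncomputable section

namespace Fermat.Agent.Lib.S59

open Matrix.SpecialLinearGroup CongruenceSubgroup ModularCurve.Period
open Fermat.Agent.Lib.S48 Fermat.Agent.Lib.ES Fermat.Agent.Lib.S29 Fermat.Agent.Lib.S30
open P2MW.S_ModularForm_heckeT_slash_eq_self_of_mem_Gamma0.ModularForm.HeckeSlashInvariance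
open scoped MatrixGroups OnePoint

local notation "Mat2" => Matrix (Fin 2) (Fin 2) ℤ

/-! ### Linear versions of restriction and twist -/

section Lin

variable {F : Type*} [Field F]

/-- restriction, as a linear map. -/
def s59w_resL {K G : Subgroup SL(2, ℤ)} (hKG : K ≤ G) (F : Type*) [Field F] :
    (Additive G →+ F) →ₗ[F] (Additive K →+ F) where
  toFun := s59u_res hKG F
  map_add' := map_add _
  map_smul' c φ := s59u_res_smul hKG c φ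

theorem s59w_resL_apply {K G : Subgroup SL(2, ℤ)} (hKG : K ≤ G) (φ : Additive G →+ F) :
    s59w_resL hKG F φ = s59u_res hKG F φ := rfl

variable {K : Subgroup SL(2, ℤ)} {q : ℕ} [NeZero q]

theorem s59w_tw_add (hK : s59u_TwSetting K q) (χ : MulChar (ZMod q) F) (φ₁ φ₂ : Additive K →+ F) :
    s59u_tw hK χ (φ₁ + φ₂) = s59u_tw hK χ φ₁ + s59u_tw hK χ φ₂ := by
  rw [s59u_tw, s59u_tw, s59u_tw, ← Finset.sum_add_distrib]
  refine Finset.sum_congr rfl fun u _ => ?_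
  rw [map_add, smul_add]

/-- the twist, as a linear map. -/
def s59w_twL (hK : s59u_TwSetting K q) (χ : MulChar (ZMod q) F) :
    (Additive K →+ F) →ₗ[F] (Additive K →+ F) where
  toFun := s59u_tw hK χ
  map_add' := s59w_tw_add hK χ
  map_smul' a φ := s59u_tw_smul hK χ a φ

end Lin

/-! ### The spaces `E(Lev, ψ)` -/

section E

variable {Lev D : ℕ} {F : Type*} [Field F]

/-- parabolic classes on `G(Lev, D)` with diamond character `ψ`. -/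
def s59w_E (hD : D ∣ Lev) (ψ : ℤ → F) : Submodule F (Additive (s59u_G Lev D hD) →+ F) where
  carrier := {φ | IsParabolicHom (s59u_G Lev D hD) φ ∧ s59u_HasDiam ψ φ}
  zero_mem' := ⟨fun _ _ => rfl, fun σ hσ => by rw [map_zero, smul_zero]⟩
  add_mem' := by
    rintro φ₁ φ₂ ⟨h1, h1'⟩ ⟨h2, h2'⟩
    refine ⟨(parabolicHoms F (s59u_G Lev D hD) F).add_mem h1 h2, fun σ hσ => ?_⟩
    rw [map_add, h1' σ hσ, h2' σ hσ, smul_add]
  smul_mem' := by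
    rintro c φ ⟨h1, h1'⟩
    refine ⟨(parabolicHoms F (s59u_G Lev D hD) F).smul_mem c h1, fun σ hσ => ?_⟩
    rw [s59u_conj_smul, h1' σ hσ, smul_comm]

theorem s59w_mem_E {hD : D ∣ Lev} {ψ : ℤ → F} {φ : Additive (s59u_G Lev D hD) →+ F} :
    φ ∈ s59w_E hD ψ ↔ IsParabolicHom (s59u_G Lev D hD) φ ∧ s59u_HasDiam ψ φ := Iff.rfl

/-- `E(Lev, ψ)` only depends on the values of `ψ` at the integers prime to `Lev`. -/
theorem s59w_E_congr (hD : D ∣ Lev) {ψ ψ' : ℤ → F}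
    (hψ : ∀ d : ℤ, IsCoprime d (Lev : ℤ) → ψ d = ψ' d) : s59w_E hD ψ = s59w_E hD ψ' := by
  ext φ
  rw [s59w_mem_E, s59w_mem_E]
  refine and_congr_right fun _ => ⟨fun h σ hσ => ?_, fun h σ hσ => ?_⟩
  · rw [h σ hσ, hψ _ (s59u_coprime_lowerRight hσ)]
  · rw [h σ hσ, hψ _ (s59u_coprime_lowerRight hσ)]

variable {ℓ : ℕ} [Fact ℓ.Prime]

/-- `T_ℓ` as a linear endomorphism of `Hom(G(Lev, D), F)`. -/
def s59w_TL (hD : D ∣ Lev) (hℓ : ¬ ℓ ∣ Lev) (σ : SL(2, ℤ)) (hσ : σ ∈ Gamma0 Lev)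
    (hσ11 : ((σ 1 1 : ℤ) : ZMod Lev) = (ℓ : ZMod Lev)) (F : Type*) [Field F] :
    Module.End F (Additive (s59u_G Lev D hD) →+ F) :=
  (s48h_TpDatum (s59u_ker Lev D hD) hℓ σ hσ hσ11).heckeLin F

theorem s59w_TL_apply (hD : D ∣ Lev) (hℓ : ¬ ℓ ∣ Lev) (σ : SL(2, ℤ)) (hσ : σ ∈ Gamma0 Lev)
    (hσ11 : ((σ 1 1 : ℤ) : ZMod Lev) = (ℓ : ZMod Lev)) (φ : Additive (s59u_G Lev D hD) →+ F) :
    s59w_TL hD hℓ σ hσ hσ11 F φ = s48h_TpH (s59u_ker Lev D hD) hℓ σ hσ hσ11 F φ := rfl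

/-- `T_ℓ` preserves `E(Lev, ψ)`. -/
theorem s59w_TL_mem_E (hD : D ∣ Lev) (ψ : ℤ → F) (hℓ : ¬ ℓ ∣ Lev) (σ : SL(2, ℤ))
    (hσ : σ ∈ Gamma0 Lev) (hσ11 : ((σ 1 1 : ℤ) : ZMod Lev) = (ℓ : ZMod Lev))
    (φ : Additive (s59u_G Lev D hD) →+ F) (hφ : φ ∈ s59w_E hD ψ) :
    s59w_TL hD hℓ σ hσ hσ11 F φ ∈ s59w_E hD ψ := by
  obtain ⟨h1, h2⟩ := hφ
  refine ⟨s48h_MatDatum.heckeHom_isParabolic _ h1, fun τ hτ => ?_⟩
  rw [s59w_TL_apply]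
  have h3 := s48h_diamond_Tp_comm (H := s59u_ker Lev D hD) hℓ hσ hσ11 hτ φ
  rw [s59u_diamondH_eq_conj] at h3
  rw [h3, h2 τ hτ]
  exact s48h_MatDatum.heckeHom_smul _ _ _

/-- **`T_ℓ` is semisimple on `E(Lev, ψ)` for all `ℓ ∤ Lev`.** -/
def s59w_SS (hD : D ∣ Lev) (ψ : ℤ → F) : Prop :=
  ∀ (ℓ : ℕ) [Fact ℓ.Prime] (hℓ : ¬ ℓ ∣ Lev) (σ : SL(2, ℤ)) (hσ : σ ∈ Gamma0 Lev)
    (hσ11 : ((σ 1 1 : ℤ) : ZMod Lev) = (ℓ : ZMod Lev)),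
    s59w_SSOn (s59w_E hD ψ) (s59w_TL hD hℓ σ hσ hσ11 F)

theorem s59w_SS_congr (hD : D ∣ Lev) {ψ ψ' : ℤ → F}
    (hψ : ∀ d : ℤ, IsCoprime d (Lev : ℤ) → ψ d = ψ' d) (h : s59w_SS hD ψ) : s59w_SS hD ψ' := by
  intro ℓ _ hℓ σ hσ hσ11
  rw [← s59w_E_congr hD hψ]
  exact h ℓ hℓ σ hσ hσ11

end E

/-! ### The steps -/

section Steps

variable {L₀ q D : ℕ} [NeZero L₀] [Fact q.Prime] {F : Type*} [Field F] [CharZero F]

/-- The restriction step, downwards. -/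
theorem s59w_SS_step_res (hD : D ∣ L₀ * q) (ψ : ℤ → F)
    (h : s59w_SS (hD.mul_right q) ψ) : s59w_SS hD ψ := by
  intro ℓ _ hℓ σ hσ hσ11
  have hℓ' : ¬ ℓ ∣ L₀ * q * q := by
    intro h1
    rcases (Nat.Prime.dvd_mul Fact.out).mp h1 with h2 | h2
    · exact hℓ h2
    · exact hℓ (h2.mul_left _)
  -- a common `σ'` for the two levels
  obtain ⟨σ', hσ', hσ11'⟩ := s48h_exists_sigma_p (M := L₀ * q * q) hℓ'
  have hσ'0 : σ' ∈ Gamma0 (L₀ * q) := s59u_gamma0_mono (dvd_mul_right _ _) hσ'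
  have hσ11'0 := s59u_cast_lowerRight (dvd_mul_right (L₀ * q) q) hσ11'
  have hTeq : s59w_TL hD hℓ σ hσ hσ11 F = s59w_TL hD hℓ σ' hσ'0 hσ11'0 F := by
    refine LinearMap.ext fun φ => ?_
    rw [s59w_TL_apply, s59w_TL_apply, s48h_TpH_eq hℓ hσ hσ11 hσ'0 hσ11'0 F]
  rw [hTeq]
  refine s59w_ssOn_of_inj (s59w_resL (s59u_K_le_G hD) F) ?_ ?_ _
    (s59w_TL (hD.mul_right q) hℓ' σ' hσ' hσ11' F) 1
    (s59w_TL_mem_E hD ψ hℓ σ' hσ'0 hσ11'0) ?_ (h ℓ hℓ' σ' hσ' hσ11')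
  · rintro φ ⟨hpar, hdiam⟩
    refine ⟨s59u_res_isParabolic (s59u_K_le_G hD) hpar, fun t ht => ?_⟩
    exact s59u_conj_res_of_hasDiam hD ψ φ hdiam (s59u_gamma0_mono (dvd_mul_right _ _) ht)
      (s59u_gamma0_normG ht)
  · intro φ _ h0
    exact s59u_res_injective (A := F) (s59u_K_le_G hD) s59u_G_index_ne_zero
      (by rw [map_zero]; exact h0)
  · intro φ _
    rw [one_smul]
    exact s59u_res_Tp (dvd_mul_right (L₀ * q) q) (hD := hD) (hD' := hD.mul_right q) hℓ hℓ' σ'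
      hσ'0 hσ11'0 hσ' hσ11' φ

/-- The twist step, downwards. -/
theorem s59w_SS_step_tw (hD : D ∣ L₀ * q) (hqD : q ∣ D) (χ : MulChar (ZMod q) F) (hχ : χ ≠ 1)
    (ψ : ℤ → F) (hψper : ∀ a b : ℤ, ((L₀ * q : ℕ) : ℤ) ∣ a - b → ψ a = ψ b)
    (hψ : ∃ d : ℤ, (L₀ : ℤ) ∣ d - 1 ∧ IsCoprime d (q : ℤ) ∧ ψ d ≠ 1)
    (h : s59w_SS (hD.mul_right q) (fun d => ψ d * χ ((d : ℤ) : ZMod q) ^ 2)) :
    s59w_SS hD ψ := by
  intro ℓ _ hℓ σ hσ hσ11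
  have hℓ' : ¬ ℓ ∣ L₀ * q * q := by
    intro h1
    rcases (Nat.Prime.dvd_mul Fact.out).mp h1 with h2 | h2
    · exact hℓ h2
    · exact hℓ (h2.mul_left _)
  have hℓq : ¬ ℓ ∣ q := fun h1 => hℓ (h1.mul_left _)
  have hℓ0 : ((ℓ : ℕ) : ZMod q) ≠ 0 := by
    rw [Ne, ZMod.natCast_eq_zero_iff]
    intro h1
    rcases (Nat.prime_dvd_prime_iff_eq (Fact.out : q.Prime) (Fact.out : ℓ.Prime)).mp h1 with h2
    exact hℓq (h2 ▸ dvd_rfl)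
  have hχℓ : χ (ℓ : ZMod q) ≠ 0 := (IsUnit.map χ (IsUnit.mk0 _ hℓ0)).ne_zero
  obtain ⟨σ', hσ', hσ11'⟩ := s48h_exists_sigma_p (M := L₀ * q * q) hℓ'
  have hσ'0 : σ' ∈ Gamma0 (L₀ * q) := s59u_gamma0_mono (dvd_mul_right _ _) hσ'
  have hσ11'0 := s59u_cast_lowerRight (dvd_mul_right (L₀ * q) q) hσ11'
  have hTeq : s59w_TL hD hℓ σ hσ hσ11 F = s59w_TL hD hℓ σ' hσ'0 hσ11'0 F := by
    refine LinearMap.ext fun φ => ?_
    rw [s59w_TL_apply, s59w_TL_apply, s48h_TpH_eq hℓ hσ hσ11 hσ'0 hσ11'0 F]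
  rw [hTeq]
  refine s59w_ssOn_of_inj
    ((s59w_twL (s59u_twSetting hD hqD) χ⁻¹).comp (s59w_resL (s59u_K_le_G hD) F)) ?_ ?_ _
    (s59w_TL (hD.mul_right q) hℓ' σ' hσ' hσ11' F) (χ (ℓ : ZMod q))⁻¹
    (s59w_TL_mem_E hD ψ hℓ σ' hσ'0 hσ11'0) ?_ (h ℓ hℓ' σ' hσ' hσ11')
  · rintro φ ⟨hpar, hdiam⟩
    exact ⟨s59u_tw_isParabolic _ _ (s59u_res_isParabolic (s59u_K_le_G hD) hpar),
      s59u_diam_tw hD hqD χ ψ hψper φ hdiam⟩
  · rintro φ ⟨_, hdiam⟩ h0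
    exact s59u_tw_injective hD hqD χ hχ ψ hψper hψ φ hdiam h0
  · intro φ _
    show s59u_tw (s59u_twSetting hD hqD) χ⁻¹ (s59u_res (s59u_K_le_G hD) F
        (s48h_TpH (s59u_ker (L₀ * q) D hD) hℓ σ' hσ'0 hσ11'0 F φ))
      = (χ (ℓ : ZMod q))⁻¹ • s48h_TpH (s59u_ker (L₀ * q * q) D (hD.mul_right q)) hℓ' σ' hσ' hσ11' F
          (s59u_tw (s59u_twSetting hD hqD) χ⁻¹ (s59u_res (s59u_K_le_G hD) F φ))
    rw [s59u_Tp_tw hD hqD hℓ' σ' hσ' hσ11' χ, smul_smul, inv_mul_cancel₀ hχℓ, one_smul]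
    congr 1
    exact s59u_res_Tp (dvd_mul_right (L₀ * q) q) (hD := hD) (hD' := hD.mul_right q) hℓ hℓ' σ'
      hσ'0 hσ11'0 hσ' hσ11' φ

end Steps

end Fermat.Agent.Lib.S59
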