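/-
Programme (R) = S59 (helper3), W-files, file 7: the bottom of the chain (`Γ₀(Lev)`: Eichler–Shimura
+ Petersson) and the induction over the primes of `Q`.

* `s59w_PetSS`        : the ℂ-semisimplicity form of [PET] (helper6), as a hypothesis;
* `s59w_ss_gamma0`    : `T_ℓ` is semisimple on `Hom_par(Γ₀(Lev), ℂ)`;
* `s59w_SS_final`     : `s59w_SS hD ψ` for `ψ` trivial on the units mod `Lev`;
* `s59w_SS_chain`     : `s59w_SS` at level `N ∏ Q` for `ψ = ∏ χ_q⁻²`.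
-/
import Mathlib
import Fermat.Agent.Lib.S59.WChain

set_option autoImplicit false
set_option linter.unusedSectionVars false

noncomputable section

namespace Fermat.Agent.Lib.S59

open Matrix.SpecialLinearGroup CongruenceSubgroup ModularCurve.Period Polynomial
open Fermat.Agent.Lib.S48 Fermat.Agent.Lib.ES Fermat.Agent.Lib.S29 Fermat.Agent.Lib.S30
open P2MW.S_ModularForm_heckeT_slash_eq_self_of_mem_Gamma0.ModularForm.HeckeSlashInvariance
open scoped MatrixGroups OnePoint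

local notation "Mat2" => Matrix (Fin 2) (Fin 2) ℤ

/-- **[PET], ℂ-semisimplicity form** (helper6): every `T_p`, `p ∤ N`, is a semisimple endomorphism
of `S₂(Γ₀(N))`. -/
def s59w_PetSS : Prop :=
  ∀ (N : ℕ) [NeZero N] (p : ℕ) (hp : p.Prime) (hpN : ¬ p ∣ N),
    Module.End.IsSemisimple
      (CuspForm.heckeTLin 2 hp hpN : Module.End ℂ (CuspForm (Gamma0 N) 2))

/-! ### Semisimplicity of `f × f` -/

theorem s59w_aeval_prodMap {K V W : Type*} [Field K] [AddCommGroup V] [Module K V]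
    [AddCommGroup W] [Module K W] (f : Module.End K V) (g : Module.End K W) (p : K[X]) :
    aeval (f.prodMap g) p = (aeval f p).prodMap (aeval g p) := by
  have h1 : f.prodMap g = LinearMap.prodMapAlgHom K V W (f, g) := rfl
  rw [h1, aeval_algHom_apply]
  have h2 : aeval (f, g) p = (aeval f p, aeval g p) := by
    refine Prod.ext ?_ ?_
    · exact (aeval_algHom_apply (AlgHom.fst K (Module.End K V) (Module.End K W)) (f, g) p).symm
    · exact (aeval_algHom_apply (AlgHom.snd K (Module.End K V) (Module.End K W)) (f, g) p).symm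
  rw [h2]
  rfl

theorem s59w_ss_prodMap {K V : Type*} [Field K] [AddCommGroup V] [Module K V]
    [FiniteDimensional K V] (f : Module.End K V) (hf : f.IsSemisimple) :
    Module.End.IsSemisimple (f.prodMap f) := by
  refine Module.End.isSemisimple_of_squarefree_aeval_eq_zero hf.minpoly_squarefree ?_
  rw [s59w_aeval_prodMap, minpoly.aeval]
  exact LinearMap.prodMap_zero

/-! ### `Γ₀(Lev)` -/

section Gamma0

variable (Lev : ℕ) [NeZero Lev]

theorem s59w_finiteDimensional_S2 : FiniteDimensional ℂ (CuspForm (Gamma0 Lev) 2) := by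
  haveI := s30e_finiteDimensional_P (N := Lev) (Module.finBasis ℤ (s29s_M Lev))
  have h : FiniteDimensional ℂ (CuspForm (Gamma0 Lev) 2 × CuspForm (Gamma0 Lev) 2) :=
    (s30e_Phi Lev).symm.finiteDimensional
  exact FiniteDimensional.of_injective
    (LinearMap.inl ℂ (CuspForm (Gamma0 Lev) 2) (CuspForm (Gamma0 Lev) 2)) LinearMap.inl_injective

variable {Lev}

/-- **`T_ℓ` is semisimple on `Hom_par(Γ₀(Lev), ℂ)`.** -/
theorem s59w_ss_gamma0 (hpet : s59w_PetSS) {ℓ : ℕ} [Fact ℓ.Prime] (hℓ : ¬ ℓ ∣ Lev) :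
    s59w_SSOn (s30e_P Lev) (s29h_heckeLin Lev ℓ ℂ ℂ) := by
  have hℓp : ℓ.Prime := Fact.out
  haveI := s59w_finiteDimensional_S2 Lev
  set T := CuspForm.heckeTLin 2 hℓp hℓ with hT
  have hint : ∀ x : CuspForm (Gamma0 Lev) 2 × CuspForm (Gamma0 Lev) 2,
      s29h_heckeLin Lev ℓ ℂ ℂ ((s30e_Phi Lev x : s30e_P Lev) : Additive (Gamma0 Lev) →+ ℂ)
        = ((s30e_Phi Lev (T.prodMap T x) : s30e_P Lev) : Additive (Gamma0 Lev) →+ ℂ) := by
    rintro ⟨f, g⟩
    rw [s30e_Phi_coe, s30e_Phi_coe, s29h_heckeLin_apply]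
    exact s30e_heckeHom_periodHomPair hℓp hℓ f g
  have hP : ∀ v ∈ s30e_P Lev, s29h_heckeLin Lev ℓ ℂ ℂ v ∈ s30e_P Lev := by
    intro v hv
    obtain ⟨x, hx⟩ := (s30e_Phi Lev).surjective ⟨v, hv⟩
    have h1 : v = ((s30e_Phi Lev x : s30e_P Lev) : Additive (Gamma0 Lev) →+ ℂ) := by rw [hx]
    rw [h1, hint x]
    exact (s30e_Phi Lev _).2
  refine ⟨hP, ?_⟩
  refine (LinearEquiv.isSemisimple_iff (T.prodMap T) _ (s30e_Phi Lev) ?_).mp
    (s59w_ss_prodMap T (hpet Lev ℓ hℓp hℓ))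
  refine LinearMap.ext fun x => Subtype.ext ?_
  exact (hint x).symm

end Gamma0

/-! ### The bottom of the chain -/

/-- **The final step**: trivial diamond character. -/
theorem s59w_SS_final (hpet : s59w_PetSS) {Lev D : ℕ} [NeZero Lev] (hD : D ∣ Lev) (ψ : ℤ → ℂ)
    (hψ1 : ∀ d : ℤ, IsCoprime d (Lev : ℤ) → ψ d = 1) : s59w_SS hD ψ := by
  intro ℓ _ hℓ σ hσ hσ11
  have hKG : s59u_G Lev D hD ≤ Gamma0 Lev := s59u_G_le_gamma0
  have hinj := s59u_res_injective (A := ℂ) hKG (s59u_G_index_ne_zero (hD := hD))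
  -- `R := res(Hom_par(Γ₀))`, on which `T_ℓ` is semisimple
  set resP : s30e_P Lev →ₗ[ℂ] (Additive (s59u_G Lev D hD) →+ ℂ) :=
    (s59w_resL hKG ℂ).comp (s30e_P Lev).subtype with hresP
  have hresP_inj : Function.Injective resP := fun x y hxy => Subtype.ext (hinj hxy)
  have hTres : ∀ Φ : Additive (Gamma0 Lev) →+ ℂ,
      s59w_TL hD hℓ σ hσ hσ11 ℂ (s59u_res hKG ℂ Φ) = s59u_res hKG ℂ (s29h_heckeHom Lev ℓ ℂ Φ) :=
    fun Φ => (s59u_res_s29h (s59u_ker Lev D hD) hℓ σ hσ hσ11 Φ).symm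
  obtain ⟨hP, hssP⟩ := s59w_ss_gamma0 hpet (Lev := Lev) hℓ
  have hRinv : ∀ v ∈ LinearMap.range resP, s59w_TL hD hℓ σ hσ hσ11 ℂ v ∈ LinearMap.range resP := by
    rintro _ ⟨x, rfl⟩
    refine ⟨⟨s29h_heckeHom Lev ℓ ℂ x, hP x x.2⟩, ?_⟩
    exact (hTres x).symm
  have hR : s59w_SSOn (LinearMap.range resP) (s59w_TL hD hℓ σ hσ hσ11 ℂ) := by
    let e : s30e_P Lev ≃ₗ[ℂ] LinearMap.range resP := LinearEquiv.ofInjective resP hresP_inj
    refine s59w_ssOn_of_inj' (E' := s30e_P Lev)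
      ((s30e_P Lev).subtype.comp (e.symm : LinearMap.range resP →ₗ[ℂ] s30e_P Lev))
      (fun v => (e.symm v).2) ?_ _ (s29h_heckeLin Lev ℓ ℂ ℂ) 1 hRinv ?_ ⟨hP, hssP⟩
    · intro v w hvw
      exact e.symm.injective (Subtype.ext hvw)
    · intro v
      obtain ⟨x, rfl⟩ := e.surjective v
      rw [one_smul]
      show ((e.symm ⟨s59w_TL hD hℓ σ hσ hσ11 ℂ (e x), _⟩ : s30e_P Lev) :
          Additive (Gamma0 Lev) →+ ℂ)
        = s29h_heckeLin Lev ℓ ℂ ℂ ((e.symm (e x) : s30e_P Lev) : Additive (Gamma0 Lev) →+ ℂ)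
      rw [e.symm_apply_apply]
      have h1 : (⟨s59w_TL hD hℓ σ hσ hσ11 ℂ (e x), hRinv _ (e x).2⟩ : LinearMap.range resP)
          = e ⟨s29h_heckeHom Lev ℓ ℂ x, hP x x.2⟩ := Subtype.ext (hTres x)
      rw [h1, e.symm_apply_apply]
      rfl
  refine s59w_ssOn_mono ?_ _ (s59w_TL_mem_E hD ψ hℓ σ hσ hσ11) hR
  -- `E ≤ res(Hom_par(Γ₀))`
  rintro φ ⟨hpar, hdiam⟩
  obtain ⟨Φ, hΦ⟩ := s59u_ext φ (fun τ hτ => by
    rw [hdiam τ hτ, hψ1 _ (s59u_coprime_lowerRight hτ), one_smul])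
  have hΦpar : IsParabolicHom (Gamma0 Lev) Φ :=
    s59u_parabolic_of_res hKG (s59u_G_index_ne_zero (hD := hD)) Φ (by rw [hΦ]; exact hpar)
  exact ⟨⟨Φ, hΦpar⟩, hΦ⟩


/-! ### The induction over the primes of `Q` -/

/-- `s59w_SS` with the divisibility proof quantified (so that the level can be rewritten). -/
def s59w_SSL (D Lev : ℕ) (ψ : ℤ → ℂ) : Prop := ∀ hD : D ∣ Lev, s59w_SS hD ψ

section Main

variable (N : ℕ) [NeZero N] (Q : Finset ℕ)

/-- one step of the downward induction. -/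
theorem s59w_SS_chain_step (hQ : ∀ q ∈ Q, q.Prime ∧ ¬ q ∣ N)
    (χ : ∀ q : ℕ, MulChar (ZMod q) ℂ) (hχ : ∀ q ∈ Q, χ q = 1 ∨ (χ q) ^ 2 ≠ 1)
    (ψ : ℤ → ℂ) (hψper : ∀ a b : ℤ, ((N * ∏ q ∈ Q, q : ℕ) : ℤ) ∣ a - b → ψ a = ψ b)
    (hψχ : ∀ d : ℤ, IsCoprime d ((N * ∏ q ∈ Q, q : ℕ) : ℤ) →
      ψ d * ∏ q ∈ Q, (χ q ((d : ℤ) : ZMod q)) ^ 2 = 1)
    (S : Finset ℕ) (q : ℕ) (hqS : q ∉ S) (hsub : insert q S ⊆ Q)
    (h : s59w_SSL (∏ q ∈ Q, q) (N * (∏ q ∈ Q, q) * ∏ q ∈ insert q S, q)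
      (fun d => ψ d * ∏ q ∈ insert q S, (χ q ((d : ℤ) : ZMod q)) ^ 2)) :
    s59w_SSL (∏ q ∈ Q, q) (N * (∏ q ∈ Q, q) * ∏ q ∈ S, q)
      (fun d => ψ d * ∏ q ∈ S, (χ q ((d : ℤ) : ZMod q)) ^ 2) := by
  classical
  have hqQ : q ∈ Q := hsub (Finset.mem_insert_self q S)
  have hSQ : S ⊆ Q := fun a ha => hsub (Finset.mem_insert_of_mem ha)
  haveI : Fact q.Prime := ⟨(hQ q hqQ).1⟩
  set L₀ : ℕ := N * (∏ q' ∈ Q.erase q, q') * ∏ q' ∈ S, q' with hL₀
  haveI : NeZero L₀ := ⟨mul_ne_zero (mul_ne_zero (NeZero.ne N)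
    (s59u_prod_ne_zero N Q hQ _ (Finset.erase_subset _ _))) (s59u_prod_ne_zero N Q hQ S hSQ)⟩
  have hQq : q * ∏ q' ∈ Q.erase q, q' = ∏ q' ∈ Q, q' := Finset.mul_prod_erase Q (fun q' => q') hqQ
  have hLev : N * (∏ q ∈ Q, q) * ∏ q ∈ S, q = L₀ * q := by rw [hL₀, ← hQq]; ring
  have hLev' : N * (∏ q ∈ Q, q) * ∏ q ∈ insert q S, q = L₀ * q * q := by
    rw [Finset.prod_insert hqS, ← hLev]; ring
  have hqD : q ∣ ∏ q' ∈ Q, q' := Finset.dvd_prod_of_mem (fun q' => q') hqQ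
  have hcop : Nat.Coprime L₀ q := s59u_coprime_L0 N Q hQ S hSQ hqQ hqS
  rw [hLev'] at h
  rw [hLev]
  intro hD
  have h' := h (hD.mul_right q)
  have hunit : ∀ d : ℤ, IsCoprime d ((L₀ * q * q : ℕ) : ℤ) → IsUnit ((d : ℤ) : ZMod q) :=
    fun d hd => s59u_isUnit_cast_of_isCoprime (dvd_mul_left q (L₀ * q)) hd
  rcases hχ q hqQ with h1 | h2
  · -- restriction step
    refine s59w_SS_step_res hD _ (s59w_SS_congr _ (fun d hd => ?_) h')
    show ψ d * _ = ψ d * _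
    rw [Finset.prod_insert hqS, h1, MulChar.one_apply (hunit d hd), one_pow, one_mul]
  · -- twist step
    have hχ1 : χ q ≠ 1 := by
      rintro h
      rw [h, one_pow] at h2
      exact h2 rfl
    obtain ⟨a, ha⟩ := MulChar.ne_one_iff.mp h2
    rw [MulChar.pow_apply_coe] at ha
    obtain ⟨d, hd1, hda⟩ := s59u_exists_d L₀ q hcop (a : ZMod q)
    have hMdvd : N * (∏ q' ∈ Q, q') ∣ L₀ * q := ⟨∏ q' ∈ S, q', hLev.symm⟩
    have hper : ∀ a b : ℤ, ((L₀ * q : ℕ) : ℤ) ∣ a - b →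
        (fun d => ψ d * ∏ q' ∈ S, (χ q' ((d : ℤ) : ZMod q')) ^ 2) a
          = (fun d => ψ d * ∏ q' ∈ S, (χ q' ((d : ℤ) : ZMod q')) ^ 2) b := by
      intro a b hab
      show ψ a * _ = ψ b * _
      rw [hψper a b ((Int.natCast_dvd_natCast.mpr hMdvd).trans hab)]
      congr 1
      refine Finset.prod_congr rfl fun q' hq' => ?_
      have hq'L : q' ∣ L₀ * q :=
        (Finset.dvd_prod_of_mem (fun q' => q') hq').trans ⟨N * ∏ q' ∈ Q, q', by rw [← hLev]; ring⟩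
      have : ((a : ℤ) : ZMod q') = ((b : ℤ) : ZMod q') := by
        have h3 : (((a - b : ℤ)) : ZMod q') = 0 :=
          (ZMod.intCast_zmod_eq_zero_iff_dvd _ _).mpr
            ((Int.natCast_dvd_natCast.mpr hq'L).trans hab)
        push_cast at h3
        exact sub_eq_zero.mp h3
      rw [this]
    have hψd : ∃ d : ℤ, (L₀ : ℤ) ∣ d - 1 ∧ IsCoprime d (q : ℤ) ∧
        (fun d => ψ d * ∏ q' ∈ S, (χ q' ((d : ℤ) : ZMod q')) ^ 2) d ≠ 1 := by
      refine ⟨d, hd1, ?_, ?_⟩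
      · have hu : IsUnit ((d : ℤ) : ZMod q) := hda ▸ a.isUnit
        exact ((ZMod.coe_int_isUnit_iff_isCoprime d q).mp hu).symm
      · show ψ d * _ ≠ 1
        have hS1 : ∏ q' ∈ S, (χ q' ((d : ℤ) : ZMod q')) ^ 2 = 1 := by
          refine Finset.prod_eq_one fun q' hq' => ?_
          rw [s59u_cast_eq_one_of_dvd ((Finset.dvd_prod_of_mem (fun q' => q') hq').trans
            (dvd_mul_left _ _)) hd1, map_one, one_pow]
        rw [hS1, mul_one]
        have hcopM : IsCoprime d ((N * ∏ q' ∈ Q, q' : ℕ) : ℤ) := by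
          have h3 : IsCoprime d ((N * ∏ q' ∈ Q.erase q, q' : ℕ) : ℤ) :=
            s59u_isCoprime_of_dvd_sub_one
              ((Int.natCast_dvd_natCast.mpr (dvd_mul_right _ _)).trans hd1)
          have h4 : IsCoprime d (q : ℤ) := by
            have hu : IsUnit ((d : ℤ) : ZMod q) := hda ▸ a.isUnit
            exact ((ZMod.coe_int_isUnit_iff_isCoprime d q).mp hu).symm
          have h5 : ((N * ∏ q' ∈ Q, q' : ℕ) : ℤ)
              = ((N * ∏ q' ∈ Q.erase q, q' : ℕ) : ℤ) * (q : ℤ) := by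
            rw [← hQq]; push_cast; ring
          rw [h5]
          exact h3.mul_right h4
        have h6 := hψχ d hcopM
        rw [← Finset.mul_prod_erase Q _ hqQ] at h6
        have hE1 : ∏ q' ∈ Q.erase q, (χ q' ((d : ℤ) : ZMod q')) ^ 2 = 1 := by
          refine Finset.prod_eq_one fun q' hq' => ?_
          rw [s59u_cast_eq_one_of_dvd (((Finset.dvd_prod_of_mem (fun q' => q') hq').trans
            (dvd_mul_left _ N)).trans (dvd_mul_right _ _)) hd1, map_one, one_pow]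
        rw [hE1, mul_one, hda] at h6
        intro h7
        rw [h7, one_mul] at h6
        exact ha h6
    refine s59w_SS_step_tw hD hqD (χ q) hχ1 _ hper hψd (s59w_SS_congr _ (fun d _ => ?_) h')
    show ψ d * _ = ψ d * _ * _
    rw [Finset.prod_insert hqS]
    ring

/-- **The chain**: `T_ℓ` is semisimple on the `ψ`-part of `Hom_par(G(N ∏ Q, ∏ Q), ℂ)`,
`ψ = ∏ χ_q⁻²`. -/
theorem s59w_SS_chain (hpet : s59w_PetSS) (hQ : ∀ q ∈ Q, q.Prime ∧ ¬ q ∣ N)
    (χ : ∀ q : ℕ, MulChar (ZMod q) ℂ) (hχ : ∀ q ∈ Q, χ q = 1 ∨ (χ q) ^ 2 ≠ 1)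
    (ψ : ℤ → ℂ) (hψper : ∀ a b : ℤ, ((N * ∏ q ∈ Q, q : ℕ) : ℤ) ∣ a - b → ψ a = ψ b)
    (hψχ : ∀ d : ℤ, IsCoprime d ((N * ∏ q ∈ Q, q : ℕ) : ℤ) →
      ψ d * ∏ q ∈ Q, (χ q ((d : ℤ) : ZMod q)) ^ 2 = 1) :
    s59w_SS (Lev := N * ∏ q ∈ Q, q) (D := ∏ q ∈ Q, q) (dvd_mul_left _ _) ψ := by
  classical
  have hP : ∏ q ∈ Q, q ≠ 0 := s59u_prod_ne_zero N Q hQ Q (Finset.Subset.refl Q)
  have key : ∀ T : Finset ℕ, T ⊆ Q →
      s59w_SSL (∏ q ∈ Q, q) (N * (∏ q ∈ Q, q) * ∏ q ∈ Q \ T, q)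
        (fun d => ψ d * ∏ q ∈ Q \ T, (χ q ((d : ℤ) : ZMod q)) ^ 2) := by
    intro T
    induction T using Finset.induction_on with
    | empty =>
      intro _
      rw [Finset.sdiff_empty]
      intro hD
      haveI : NeZero (N * (∏ q ∈ Q, q) * ∏ q ∈ Q, q) :=
        ⟨mul_ne_zero (mul_ne_zero (NeZero.ne N) hP) hP⟩
      refine s59w_SS_final hpet hD _ fun d hd => ?_
      exact hψχ d (hd.of_isCoprime_of_dvd_right (Int.natCast_dvd_natCast.mpr (dvd_mul_right _ _)))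
    | insert q T hqT ih =>
      intro hsub
      have hqQ : q ∈ Q := hsub (Finset.mem_insert_self q T)
      have hTQ : T ⊆ Q := fun a ha => hsub (Finset.mem_insert_of_mem ha)
      have hqS : q ∉ Q \ insert q T := by
        rw [Finset.mem_sdiff]
        exact fun h => h.2 (Finset.mem_insert_self q T)
      have hins : insert q (Q \ insert q T) = Q \ T := by
        ext a
        simp only [Finset.mem_insert, Finset.mem_sdiff]
        constructor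
        · rintro (rfl | ⟨h1, h2⟩)
          · exact ⟨hqQ, hqT⟩
          · exact ⟨h1, fun h => h2 (Or.inr h)⟩
        · rintro ⟨h1, h2⟩
          by_cases ha : a = q
          · exact Or.inl ha
          · exact Or.inr ⟨h1, fun h => h.elim ha h2⟩
      refine s59w_SS_chain_step N Q hQ χ hχ ψ hψper hψχ (Q \ insert q T) q hqS ?_ ?_
      · rw [hins]
        exact Finset.sdiff_subset
      · rw [hins]
        exact ih hTQ
  have h := key Q (Finset.Subset.refl Q)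
  rw [Finset.sdiff_self, Finset.prod_empty, mul_one] at h
  refine s59w_SS_congr _ (fun d _ => ?_) (h (dvd_mul_left _ _))
  show ψ d * ∏ q ∈ (∅ : Finset ℕ), _ = ψ d
  rw [Finset.prod_empty, mul_one]

end Main

end Fermat.Agent.Lib.S59
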