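/-
Programme (R) = S59 (helper3), W-files, file 9: ARITHMETIC of characters of odd order.

`ψ : ℤ → ℂ` periodic mod `M = N ∏ Q`, multiplicative, of exponent `n` (odd) on the integers prime to
`M` and trivial on those `≡ 1 mod ∏ Q`.  Then there are characters `χ_q` of `(ℤ/q)ˣ`, `q ∈ Q`, each
trivial or with `χ_q² ≠ 1`, such that `ψ(d) ∏_q χ_q(d)² = 1` for all `d` prime to `M`
(`s59w_exists_chi`): the input of the twist chain.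
-/
import Mathlib
import Fermat.Agent.Lib.S59.UTwES

set_option autoImplicit false
set_option linter.unusedSectionVars false

noncomputable section

namespace Fermat.Agent.Lib.S59

/-! ### One prime -/

section One

variable {L₀ q : ℕ} [Fact q.Prime] (hcop : Nat.Coprime L₀ q) (ψ : ℤ → ℂ)
  (hper : ∀ a b : ℤ, ((L₀ * q : ℕ) : ℤ) ∣ a - b → ψ a = ψ b)
  (hmul : ∀ a b : ℤ, ψ (a * b) = ψ a * ψ b)
  {n m : ℕ} (hnm : 2 * m = n + 1)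
  (hpow : ∀ d : ℤ, IsCoprime d ((L₀ * q : ℕ) : ℤ) → ψ d ^ n = 1)

include hcop in
theorem s59w_crt {x y : ℤ} (h1 : (L₀ : ℤ) ∣ x - y) (h2 : (q : ℤ) ∣ x - y) :
    ((L₀ * q : ℕ) : ℤ) ∣ x - y := by
  push_cast
  exact (Nat.isCoprime_iff_coprime.mpr hcop).mul_dvd h1 h2

theorem s59w_dvd_of_cast_eq {x y : ℤ} (h : ((x : ℤ) : ZMod q) = ((y : ℤ) : ZMod q)) :
    (q : ℤ) ∣ x - y := by
  rw [← ZMod.intCast_zmod_eq_zero_iff_dvd]
  push_cast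
  rw [h, sub_self]

include hcop in
theorem s59w_coprime_of {d : ℤ} (h1 : (L₀ : ℤ) ∣ d - 1) (h2 : IsCoprime d (q : ℤ)) :
    IsCoprime d ((L₀ * q : ℕ) : ℤ) := by
  push_cast
  exact (s59u_isCoprime_of_dvd_sub_one h1).mul_right h2

include hpow in
theorem s59w_psi_ne_zero (hn0 : n ≠ 0) {d : ℤ} (hd : IsCoprime d ((L₀ * q : ℕ) : ℤ)) :
    ψ d ≠ 0 := by
  intro h0
  have := hpow d hd
  rw [h0, zero_pow hn0] at this
  exact zero_ne_one this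

include hmul hpow in
theorem s59w_psi_one (hn0 : n ≠ 0) : ψ 1 = 1 := by
  have h1 : ψ 1 ≠ 0 := s59w_psi_ne_zero ψ hpow hn0 isCoprime_one_left
  have h2 : ψ 1 * ψ 1 = ψ 1 * 1 := by rw [← hmul, mul_one, mul_one]
  exact mul_left_cancel₀ h1 h2

/-- the chosen integer `≡ a mod q`, `≡ 1 mod L₀`. -/
def s59w_dq (L₀ q : ℕ) (hcop : Nat.Coprime L₀ q) (a : ZMod q) : ℤ :=
  Classical.choose (s59u_exists_d L₀ q hcop a)

theorem s59w_dq_spec (a : ZMod q) :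
    (L₀ : ℤ) ∣ s59w_dq L₀ q hcop a - 1 ∧ ((s59w_dq L₀ q hcop a : ℤ) : ZMod q) = a :=
  Classical.choose_spec (s59u_exists_d L₀ q hcop a)

theorem s59w_dq_coprime (a : (ZMod q)ˣ) :
    IsCoprime (s59w_dq L₀ q hcop (a : ZMod q)) ((L₀ * q : ℕ) : ℤ) := by
  refine s59w_coprime_of hcop (s59w_dq_spec hcop _).1 ?_
  have hu : IsUnit (((s59w_dq L₀ q hcop (a : ZMod q) : ℤ)) : ZMod q) := by
    rw [(s59w_dq_spec hcop _).2]; exact a.isUnit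
  exact ((ZMod.coe_int_isUnit_iff_isCoprime _ q).mp hu).symm

include hper in
/-- `ψ(d) = ψ(d_a)` for `d ≡ 1 mod L₀`, `d ≡ a mod q`. -/
theorem s59w_psi_eq_dq {d : ℤ} (h1 : (L₀ : ℤ) ∣ d - 1) (a : ZMod q)
    (h2 : ((d : ℤ) : ZMod q) = a) : ψ d = ψ (s59w_dq L₀ q hcop a) := by
  refine hper _ _ (s59w_crt hcop ?_ ?_)
  · have := (s59w_dq_spec hcop a).1
    have h3 : d - s59w_dq L₀ q hcop a = (d - 1) - (s59w_dq L₀ q hcop a - 1) := by ring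
    rw [h3]
    exact dvd_sub h1 this
  · exact s59w_dvd_of_cast_eq (by rw [h2, (s59w_dq_spec hcop a).2])

include hper hmul hpow in
/-- the unit homomorphism `a ↦ ψ(d_a)`. -/
def s59w_unitHom (hn0 : n ≠ 0) : (ZMod q)ˣ →* ℂˣ where
  toFun a := Units.mk0 (ψ (s59w_dq L₀ q hcop (a : ZMod q)))
    (s59w_psi_ne_zero ψ hpow hn0 (s59w_dq_coprime hcop a))
  map_one' := by
    apply Units.ext
    show ψ (s59w_dq L₀ q hcop ((1 : (ZMod q)ˣ) : ZMod q)) = 1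
    rw [← s59w_psi_eq_dq hcop ψ hper (d := 1) (by simp) _ (by simp)]
    exact s59w_psi_one ψ hmul hpow hn0
  map_mul' a b := by
    apply Units.ext
    show ψ (s59w_dq L₀ q hcop ((a * b : (ZMod q)ˣ) : ZMod q))
      = ψ (s59w_dq L₀ q hcop (a : ZMod q)) * ψ (s59w_dq L₀ q hcop (b : ZMod q))
    rw [← hmul]
    symm
    refine s59w_psi_eq_dq hcop ψ hper ?_ _ ?_
    · obtain ⟨x, hx⟩ := (s59w_dq_spec hcop (a : ZMod q)).1
      obtain ⟨y, hy⟩ := (s59w_dq_spec hcop (b : ZMod q)).1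
      exact ⟨x + y + (L₀ : ℤ) * x * y, by
        have h1 : s59w_dq L₀ q hcop (a : ZMod q) = 1 + L₀ * x := by linear_combination hx
        have h2 : s59w_dq L₀ q hcop (b : ZMod q) = 1 + L₀ * y := by linear_combination hy
        rw [h1, h2]; ring⟩
    · push_cast
      rw [(s59w_dq_spec hcop _).2, (s59w_dq_spec hcop _).2]

include hper hmul hpow in
theorem s59w_unitHom_coe (hn0 : n ≠ 0) (a : (ZMod q)ˣ) :
    ((s59w_unitHom hcop ψ hper hmul hpow hn0 a : ℂˣ) : ℂ)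
      = ψ (s59w_dq L₀ q hcop (a : ZMod q)) := rfl

include hper hmul hpow in
theorem s59w_unitHom_pow (hn0 : n ≠ 0) (a : (ZMod q)ˣ) :
    (s59w_unitHom hcop ψ hper hmul hpow hn0 a) ^ n = 1 := by
  apply Units.ext
  rw [Units.val_pow_eq_pow_val, s59w_unitHom_coe, Units.val_one]
  exact hpow _ (s59w_dq_coprime hcop a)

include hcop hper hmul hpow hnm in
/-- **one prime**: a character `χ` of `(ℤ/q)ˣ`, trivial or with `χ² ≠ 1`, such that `ψ χ² = 1` on the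
integers `≡ 1 mod L₀` prime to `q`. -/
theorem s59w_chi_one_pow :
    ∃ χ : MulChar (ZMod q) ℂ, (χ = 1 ∨ χ ^ 2 ≠ 1) ∧
      (∀ d : ℤ, (L₀ : ℤ) ∣ d - 1 → IsCoprime d (q : ℤ) →
        ψ d * χ ((d : ℤ) : ZMod q) ^ 2 = 1) ∧
      ∀ d : ℤ, (L₀ : ℤ) ∣ d - 1 → IsCoprime d (q : ℤ) →
        χ ((d : ℤ) : ZMod q) * ψ d ^ m = 1 := by
  have hn0 : n ≠ 0 := by omega
  obtain ⟨u, hu⟩ : ∃ u, u = s59w_unitHom hcop ψ hper hmul hpow hn0 := ⟨_, rfl⟩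
  have hun : ∀ a, u a ^ n = 1 := fun a => by rw [hu]; exact s59w_unitHom_pow hcop ψ hper hmul hpow hn0 a
  have hsq : ∀ a : (ZMod q)ˣ, ((u a ^ m)⁻¹) ^ 2 = (u a)⁻¹ := by
    intro a
    rw [inv_pow, ← pow_mul, mul_comm, hnm, pow_succ, hun a, one_mul]
  refine ⟨MulChar.ofUnitHom ((u ^ m)⁻¹), ?_, ?_, ?_⟩
  · by_cases h : (MulChar.ofUnitHom ((u ^ m)⁻¹) : MulChar (ZMod q) ℂ) ^ 2 = 1
    · left
      have h1 : ∀ a : (ZMod q)ˣ, u a = 1 := by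
        intro a
        have h2 := congrArg (fun χ : MulChar (ZMod q) ℂ => χ (a : ZMod q)) h
        simp only [MulChar.pow_apply_coe, MulChar.ofUnitHom_coe, MulChar.one_apply_coe] at h2
        have h3 : (((u ^ m)⁻¹ a : ℂˣ)) ^ 2 = 1 := by
          apply Units.ext
          rw [Units.val_pow_eq_pow_val, Units.val_one]
          exact h2
        have h4 : ((u ^ m)⁻¹ a : ℂˣ) = (u a ^ m)⁻¹ := rfl
        rw [h4, hsq a] at h3
        exact inv_eq_one.mp h3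
      refine MulChar.ext fun a => ?_
      rw [MulChar.ofUnitHom_coe, MulChar.one_apply_coe]
      have h4 : ((u ^ m)⁻¹ a : ℂˣ) = (u a ^ m)⁻¹ := rfl
      rw [h4, h1 a, one_pow, inv_one, Units.val_one]
    · right; exact h
  · intro d h1 h2
    have hunit : IsUnit ((d : ℤ) : ZMod q) :=
      (ZMod.coe_int_isUnit_iff_isCoprime _ q).mpr h2.symm
    obtain ⟨a, ha⟩ := hunit
    rw [← ha, MulChar.ofUnitHom_coe, s59w_psi_eq_dq hcop ψ hper h1 (a : ZMod q) ha.symm]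
    have h4 : ((u ^ m)⁻¹ a : ℂˣ) = (u a ^ m)⁻¹ := rfl
    rw [h4, ← Units.val_pow_eq_pow_val, hsq a, hu, ← s59w_unitHom_coe hcop ψ hper hmul hpow hn0 a,
      ← Units.val_mul, mul_inv_cancel, Units.val_one]
  · intro d h1 h2
    have hunit : IsUnit ((d : ℤ) : ZMod q) :=
      (ZMod.coe_int_isUnit_iff_isCoprime _ q).mpr h2.symm
    obtain ⟨a, ha⟩ := hunit
    rw [← ha, MulChar.ofUnitHom_coe, s59w_psi_eq_dq hcop ψ hper h1 (a : ZMod q) ha.symm]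
    have h4 : ((u ^ m)⁻¹ a : ℂˣ) = (u a ^ m)⁻¹ := rfl
    rw [h4, hu, ← s59w_unitHom_coe hcop ψ hper hmul hpow hn0 a, ← Units.val_pow_eq_pow_val,
      ← Units.val_mul, inv_mul_cancel, Units.val_one]

include hcop hper hmul hpow hnm in
/-- **one prime** (the form used by (W2)). -/
theorem s59w_chi_one :
    ∃ χ : MulChar (ZMod q) ℂ, (χ = 1 ∨ χ ^ 2 ≠ 1) ∧
      ∀ d : ℤ, (L₀ : ℤ) ∣ d - 1 → IsCoprime d (q : ℤ) →
        ψ d * χ ((d : ℤ) : ZMod q) ^ 2 = 1 := by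
  obtain ⟨χ, h1, h2, -⟩ := s59w_chi_one_pow hcop ψ hper hmul hnm hpow
  exact ⟨χ, h1, h2⟩

end One

/-! ### All primes -/

section All

variable (N : ℕ) [NeZero N] (Q : Finset ℕ)

theorem s59w_psi_prod (ψ : ℤ → ℂ) (h1 : ψ 1 = 1) (hmul : ∀ a b : ℤ, ψ (a * b) = ψ a * ψ b)
    (T : Finset ℕ) (f : ℕ → ℤ) : ψ (∏ q ∈ T, f q) = ∏ q ∈ T, ψ (f q) := by
  classical
  induction T using Finset.induction_on with
  | empty => simpa using h1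
  | insert q T hq ih => rw [Finset.prod_insert hq, Finset.prod_insert hq, hmul, ih]

theorem s59w_coprime_erase (hQ : ∀ q ∈ Q, q.Prime ∧ ¬ q ∣ N) {q : ℕ} (hqQ : q ∈ Q) :
    Nat.Coprime (N * ∏ r ∈ Q.erase q, r) q := by
  have := s59u_coprime_L0 N Q hQ ∅ (Finset.empty_subset _) hqQ (Finset.notMem_empty _)
  simpa using this

theorem s59w_erase_mul {q : ℕ} (hqQ : q ∈ Q) :
    (N * ∏ r ∈ Q.erase q, r) * q = N * ∏ r ∈ Q, r := by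
  rw [← Finset.mul_prod_erase Q (fun r => r) hqQ]; ring

theorem s59w_prodQ_dvd (hQ : ∀ q ∈ Q, q.Prime ∧ ¬ q ∣ N) {z : ℤ}
    (h : ∀ q ∈ Q, (q : ℤ) ∣ z) : ((∏ q ∈ Q, q : ℕ) : ℤ) ∣ z := by
  rw [Nat.cast_prod]
  refine Finset.prod_dvd_of_coprime ?_ h
  intro q hq r hr hqr
  exact Nat.isCoprime_iff_coprime.mpr ((Nat.coprime_primes (hQ q hq).1 (hQ r hr).1).mpr hqr)

/-- **the characters `χ_q`**: for `ψ` of odd exponent, trivial on the integers `≡ 1 mod ∏ Q`. -/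
theorem s59w_exists_chi_pow (hQ : ∀ q ∈ Q, q.Prime ∧ ¬ q ∣ N) (ψ : ℤ → ℂ)
    (hper : ∀ a b : ℤ, ((N * ∏ q ∈ Q, q : ℕ) : ℤ) ∣ a - b → ψ a = ψ b)
    (hmul : ∀ a b : ℤ, ψ (a * b) = ψ a * ψ b) {n m : ℕ} (hnm : 2 * m = n + 1)
    (hpow : ∀ d : ℤ, IsCoprime d ((N * ∏ q ∈ Q, q : ℕ) : ℤ) → ψ d ^ n = 1)
    (hker : ∀ d : ℤ, IsCoprime d ((N * ∏ q ∈ Q, q : ℕ) : ℤ) →
      ((∏ q ∈ Q, q : ℕ) : ℤ) ∣ d - 1 → ψ d = 1) :
    ∃ χ : ∀ q : ℕ, MulChar (ZMod q) ℂ, (∀ q ∈ Q, χ q = 1 ∨ (χ q) ^ 2 ≠ 1) ∧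
      ∀ d : ℤ, IsCoprime d ((N * ∏ q ∈ Q, q : ℕ) : ℤ) →
        ψ d * ∏ q ∈ Q, (χ q ((d : ℤ) : ZMod q)) ^ 2 = 1 ∧
        (∏ q ∈ Q, χ q ((d : ℤ) : ZMod q)) * ψ d ^ m = 1 := by
  classical
  have hn0 : n ≠ 0 := by omega
  have hψ1 : ψ 1 = 1 := by
    have h1 : ψ 1 ≠ 0 := fun h0 => by
      have := hpow 1 isCoprime_one_left
      rw [h0, zero_pow hn0] at this
      exact zero_ne_one this
    have h2 : ψ 1 * ψ 1 = ψ 1 * 1 := by rw [← hmul, mul_one, mul_one]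
    exact mul_left_cancel₀ h1 h2
  have hone : ∀ q ∈ Q, ∃ χ : MulChar (ZMod q) ℂ, (χ = 1 ∨ χ ^ 2 ≠ 1) ∧
      (∀ d : ℤ, ((N * ∏ r ∈ Q.erase q, r : ℕ) : ℤ) ∣ d - 1 → IsCoprime d (q : ℤ) →
        ψ d * χ ((d : ℤ) : ZMod q) ^ 2 = 1) ∧
      ∀ d : ℤ, ((N * ∏ r ∈ Q.erase q, r : ℕ) : ℤ) ∣ d - 1 → IsCoprime d (q : ℤ) →
        χ ((d : ℤ) : ZMod q) * ψ d ^ m = 1 := by
    intro q hqQ
    haveI : Fact q.Prime := ⟨(hQ q hqQ).1⟩
    have hmulq := s59w_erase_mul N Q hqQ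
    refine s59w_chi_one_pow (s59w_coprime_erase N Q hQ hqQ) ψ ?_ hmul hnm ?_
    · intro a b hab; rw [hmulq] at hab; exact hper a b hab
    · intro d hd; rw [hmulq] at hd; exact hpow d hd
  choose! χ hχ1 hχ2 hχ3 using hone
  refine ⟨χ, hχ1, fun d hd => ?_⟩
  have hd' : ∀ q ∈ Q, ∃ x : ℤ, ((N * ∏ r ∈ Q.erase q, r : ℕ) : ℤ) ∣ x - 1 ∧
      ((x : ℤ) : ZMod q) = ((d : ℤ) : ZMod q) := fun q hq =>
    s59u_exists_d _ q (s59w_coprime_erase N Q hQ hq) _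
  choose! dd hdd1 hdd2 using hd'
  -- `dd q` is prime to `q` and to `M`
  have hddq : ∀ q ∈ Q, IsCoprime (dd q) (q : ℤ) := by
    intro q hq
    have hu : IsUnit (((dd q : ℤ)) : ZMod q) := by
      rw [hdd2 q hq]
      exact s59u_isUnit_cast_of_isCoprime (Dvd.intro_left _ (s59w_erase_mul N Q hq)) hd
    exact ((ZMod.coe_int_isUnit_iff_isCoprime _ q).mp hu).symm
  have hddM : ∀ q ∈ Q, IsCoprime (dd q) ((N * ∏ r ∈ Q, r : ℕ) : ℤ) := by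
    intro q hq
    haveI : Fact q.Prime := ⟨(hQ q hq).1⟩
    rw [← s59w_erase_mul N Q hq]
    exact s59w_coprime_of (s59w_coprime_erase N Q hQ hq) (hdd1 q hq) (hddq q hq)
  have hterm : ∀ q ∈ Q, ψ (dd q) * (χ q ((d : ℤ) : ZMod q)) ^ 2 = 1 := by
    intro q hq
    have := hχ2 q hq (dd q) (hdd1 q hq) (hddq q hq)
    rw [hdd2 q hq] at this
    exact this
  have hterm' : ∀ q ∈ Q, χ q ((d : ℤ) : ZMod q) * ψ (dd q) ^ m = 1 := by
    intro q hq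
    have := hχ3 q hq (dd q) (hdd1 q hq) (hddq q hq)
    rw [hdd2 q hq] at this
    exact this
  obtain ⟨e, he⟩ : ∃ e : ℤ, e = ∏ q ∈ Q, dd q := ⟨_, rfl⟩
  have heM : IsCoprime e ((N * ∏ r ∈ Q, r : ℕ) : ℤ) := by
    rw [he]; exact IsCoprime.prod_left hddM
  -- `e ≡ d mod q`
  have heq : ∀ q ∈ Q, (q : ℤ) ∣ e - d := by
    intro q hq
    haveI : Fact q.Prime := ⟨(hQ q hq).1⟩
    refine s59w_dvd_of_cast_eq ?_
    rw [he, Int.cast_prod, ← Finset.mul_prod_erase Q _ hq, hdd2 q hq]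
    have h1 : ∏ r ∈ Q.erase q, ((dd r : ℤ) : ZMod q) = 1 := by
      refine Finset.prod_eq_one fun r hr => ?_
      have hrQ : r ∈ Q := Finset.mem_of_mem_erase hr
      have hqr : q ∈ Q.erase r := Finset.mem_erase.mpr ⟨(Finset.ne_of_mem_erase hr).symm, hq⟩
      refine s59u_cast_eq_one_of_dvd (L₀ := N * ∏ r' ∈ Q.erase r, r') ?_ (hdd1 r hrQ)
      exact Dvd.dvd.mul_left (Finset.dvd_prod_of_mem (fun r' => r') hqr) N
    rw [h1, mul_one]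
  -- an inverse `u` of `d` mod `M`
  obtain ⟨u, v, huv⟩ := hd
  have huM : IsCoprime u ((N * ∏ r ∈ Q, r : ℕ) : ℤ) := ⟨d, v, by linear_combination huv⟩
  have hdu : ψ (d * u) = 1 := by
    rw [← hψ1]
    exact hper _ _ ⟨-v, by linear_combination huv⟩
  have heu : ψ (e * u) = 1 := by
    refine hker _ (heM.mul_left huM) ?_
    have h1 : ((∏ q ∈ Q, q : ℕ) : ℤ) ∣ e - d := s59w_prodQ_dvd N Q hQ heq
    have h2 : ((∏ q ∈ Q, q : ℕ) : ℤ) ∣ d * u - 1 := by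
      refine Dvd.dvd.trans ?_ (⟨-v, by linear_combination huv⟩ :
        ((N * ∏ r ∈ Q, r : ℕ) : ℤ) ∣ d * u - 1)
      exact Int.natCast_dvd_natCast.mpr (dvd_mul_left _ _)
    have h3 : e * u - 1 = (e - d) * u + (d * u - 1) := by ring
    rw [h3]
    exact dvd_add (Dvd.dvd.mul_right h1 u) h2
  have hed : ψ e = ψ d := by
    rw [hmul] at hdu heu
    have hu0 : ψ u ≠ 0 := fun h0 => by rw [h0, mul_zero] at hdu; exact zero_ne_one hdu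
    exact mul_right_cancel₀ hu0 (heu.trans hdu.symm)
  rw [← hed, he, s59w_psi_prod ψ hψ1 hmul]
  constructor
  · rw [← Finset.prod_mul_distrib]
    exact Finset.prod_eq_one hterm
  · rw [← Finset.prod_pow, ← Finset.prod_mul_distrib]
    exact Finset.prod_eq_one hterm'

/-- **the characters `χ_q`** (the form used by (W2)). -/
theorem s59w_exists_chi (hQ : ∀ q ∈ Q, q.Prime ∧ ¬ q ∣ N) (ψ : ℤ → ℂ)
    (hper : ∀ a b : ℤ, ((N * ∏ q ∈ Q, q : ℕ) : ℤ) ∣ a - b → ψ a = ψ b)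
    (hmul : ∀ a b : ℤ, ψ (a * b) = ψ a * ψ b) {n m : ℕ} (hnm : 2 * m = n + 1)
    (hpow : ∀ d : ℤ, IsCoprime d ((N * ∏ q ∈ Q, q : ℕ) : ℤ) → ψ d ^ n = 1)
    (hker : ∀ d : ℤ, IsCoprime d ((N * ∏ q ∈ Q, q : ℕ) : ℤ) →
      ((∏ q ∈ Q, q : ℕ) : ℤ) ∣ d - 1 → ψ d = 1) :
    ∃ χ : ∀ q : ℕ, MulChar (ZMod q) ℂ, (∀ q ∈ Q, χ q = 1 ∨ (χ q) ^ 2 ≠ 1) ∧
      ∀ d : ℤ, IsCoprime d ((N * ∏ q ∈ Q, q : ℕ) : ℤ) →
        ψ d * ∏ q ∈ Q, (χ q ((d : ℤ) : ZMod q)) ^ 2 = 1 := by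
  obtain ⟨χ, h1, h2⟩ := s59w_exists_chi_pow N Q hQ ψ hper hmul hnm hpow hker
  exact ⟨χ, h1, fun d hd => (h2 d hd).1⟩

end All

end Fermat.Agent.Lib.S59
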