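/-
Programme (R) = S59 (helper3), W-files = the Hecke algebra core at `Γ_H`-levels.
File 1: ABSTRACT commutation criterion in the `s48h_MatDatum` formalism.

* `s59w_Irred D`: the representatives of `D` are pairwise `Γ`-inequivalent;
* `s59w_heckeHom_eq_of_match`: two irredundant data of the same cardinality whose representatives
  match up to `Γ` define the same operator (the compatibility of the coset permutations is
  automatic);
* `s59w_Irr D m`: `A * α_y = A' * α_y'` with `det A'` prime to `m` forces `y = y'`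
  (for the data of `T_p`, `U_p` this holds with `m = p`); `s59w_irred_prod`;
* `s59w_comm_of_match`: the criterion for `T_D T_E = T_E T_D`.
-/
import Mathlib
import Fermat.Agent.Lib.S48.HHom

set_option autoImplicit false
set_option linter.unusedSectionVars false

noncomputable section

namespace Fermat.Agent.Lib.S59

open Fermat.Agent.Lib.S48
open scoped MatrixGroups

local notation "Mat2" => Matrix (Fin 2) (Fin 2) ℤ

theorem s59w_coe_inv_mul (a : SL(2, ℤ)) (M : Mat2) :
    ((a⁻¹ : SL(2, ℤ)) : Mat2) * ((a : Mat2) * M) = M := by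
  rw [← Matrix.mul_assoc, ← Matrix.SpecialLinearGroup.coe_mul, inv_mul_cancel,
    Matrix.SpecialLinearGroup.coe_one, Matrix.one_mul]

theorem s59w_eq_inv_mul {a b : SL(2, ℤ)} {M M' : Mat2} (h : (a : Mat2) * M = (b : Mat2) * M') :
    M = ((a⁻¹ * b : SL(2, ℤ)) : Mat2) * M' := by
  rw [Matrix.SpecialLinearGroup.coe_mul, Matrix.mul_assoc, ← h, s59w_coe_inv_mul]

variable {Γ : Subgroup SL(2, ℤ)}

/-- The representatives of `D` are pairwise `Γ`-inequivalent. -/
def s59w_Irred {X : Type*} (D : s48h_MatDatum Γ X) : Prop :=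
  ∀ (x y : X) (k : Γ), D.α x = ((k : SL(2, ℤ)) : Mat2) * D.α y → x = y

/-- `A * α_y = A' * α_y'` with `det A'` prime to `m` forces `y = y'`. -/
def s59w_Irr {X : Type*} (D : s48h_MatDatum Γ X) (m : ℤ) : Prop :=
  ∀ (A A' : Mat2) (y y' : X), IsCoprime A'.det m → A * D.α y = A' * D.α y' → y = y'

theorem s59w_Irr.irred {X : Type*} {D : s48h_MatDatum Γ X} {m : ℤ} (h : s59w_Irr D m) :
    s59w_Irred D := by
  intro x y k hk
  refine h 1 ((k : SL(2, ℤ)) : Mat2) x y ?_ (by rw [Matrix.one_mul]; exact hk)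
  rw [Matrix.SpecialLinearGroup.det_coe]
  exact isCoprime_one_left

/-- Irredundancy of a product datum. -/
theorem s59w_irred_prod {X Y : Type*} {D : s48h_MatDatum Γ X} {E : s48h_MatDatum Γ Y} {m m' : ℤ}
    (hD : s59w_Irr D m') (hE : s59w_Irr E m) (hdet : ∀ x, IsCoprime (D.α x).det m) :
    s59w_Irred (D.prod E) := by
  rintro ⟨x, y⟩ ⟨x', y'⟩ k hk
  have hk' : D.α x * E.α y = (((k : SL(2, ℤ)) : Mat2) * D.α x') * E.α y' := by
    rw [Matrix.mul_assoc]; exact hk
  have hy : y = y' := by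
    refine hE _ _ y y' ?_ hk'
    rw [Matrix.det_mul, Matrix.SpecialLinearGroup.det_coe, one_mul]
    exact hdet x'
  subst hy
  have hx : x = x' := hD.irred x x' k (s48h_mul_right_cancel (E.det_ne y) hk')
  rw [hx]

/-- **Matching representatives give the same operator.** -/
theorem s59w_heckeHom_eq_of_match {X X' : Type*} [Fintype X] [Fintype X']
    (D : s48h_MatDatum Γ X) (D' : s48h_MatDatum Γ X') {A : Type*} [AddCommGroup A]
    (hcard : Fintype.card X = Fintype.card X') (hirr : s59w_Irred D) (hirr' : s59w_Irred D')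
    (hmatch : ∀ x, ∃ (x' : X') (k : Γ), D.α x = ((k : SL(2, ℤ)) : Mat2) * D'.α x') :
    D.heckeHom A = D'.heckeHom A := by
  classical
  choose f g hfg using hmatch
  have hinj : Function.Injective f := by
    intro x y hxy
    have h1 := hfg x
    have h2 := hfg y
    rw [hxy] at h1
    have h3 : D'.α (f y) = ((((g y)⁻¹ : Γ) : SL(2, ℤ)) : Mat2) * D.α y := by
      rw [h2, InvMemClass.coe_inv, s59w_coe_inv_mul]
    refine hirr x y (g x * (g y)⁻¹) ?_
    rw [h1, h3, MulMemClass.coe_mul, Matrix.SpecialLinearGroup.coe_mul, Matrix.mul_assoc]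
  have hbij : Function.Bijective f :=
    (Fintype.bijective_iff_injective_and_card f).mpr ⟨hinj, hcard⟩
  refine D.heckeHom_eq_of_equiv D' (Equiv.ofBijective f hbij) g hfg fun γ x => ?_
  show D'.perm γ (f x) = f (D.perm γ x)
  have h1 := D.fam_spec γ x
  have h2 := D'.fam_spec γ (f x)
  rw [hfg x, hfg (D.perm γ x), Matrix.mul_assoc, h2, ← Matrix.mul_assoc, ← Matrix.mul_assoc,
    ← Matrix.SpecialLinearGroup.coe_mul, ← Matrix.SpecialLinearGroup.coe_mul] at h1
  have h3 := s59w_eq_inv_mul h1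
  refine hirr' _ _ ((g x * D'.fam γ (f x))⁻¹ * (D.fam γ x * g (D.perm γ x))) ?_
  rw [h3]
  rfl

/-- **The commutation criterion.** -/
theorem s59w_comm_of_match {X Y : Type*} [Fintype X] [Fintype Y] (D : s48h_MatDatum Γ X)
    (E : s48h_MatDatum Γ Y) {A : Type*} [AddCommGroup A]
    (hDE : s59w_Irred (D.prod E)) (hED : s59w_Irred (E.prod D))
    (hmatch : ∀ x y, ∃ (y' : Y) (x' : X) (k : Γ),
      D.α x * E.α y = ((k : SL(2, ℤ)) : Mat2) * (E.α y' * D.α x'))
    (χ : Additive Γ →+ A) :
    E.heckeHom A (D.heckeHom A χ) = D.heckeHom A (E.heckeHom A χ) := by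
  rw [← s48h_MatDatum.heckeHom_prod, ← s48h_MatDatum.heckeHom_prod]
  refine DFunLike.congr_fun (s59w_heckeHom_eq_of_match (D.prod E) (E.prod D) ?_ hDE hED ?_) χ
  · rw [Fintype.card_prod, Fintype.card_prod, mul_comm]
  · rintro ⟨x, y⟩
    obtain ⟨y', x', k, hk⟩ := hmatch x y
    exact ⟨(y', x'), k, hk⟩

end Fermat.Agent.Lib.S59
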