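/-
Programme (R) = S59 (helper3), W-files, file 2: the two MATRIX lemmas behind the commutativity of
the Hecke operators.

* `s59w_ker_lemma`: `A * R_r(y) = A' * R_r(y')` with `det A'` prime to `r` forces `y = y'`
  (the right kernel mod `r` of `R_r(y)` determines `y ∈ ℙ¹(𝔽_r)`);
* `s59w_table`: `R_p(x) R_r(y) = (1 t; 0 1) R_r(y₂) R_p(x₂)` with `y₂`, `x₂` of the same types
  (finite / infinite) as `y`, `x`.
-/
import Mathlib
import Fermat.Agent.Lib.S48.HRep
import Fermat.Agent.Lib.ES.HeckeCosets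

set_option autoImplicit false
set_option linter.unusedSectionVars false

noncomputable section

namespace Fermat.Agent.Lib.S59

open Fermat.Agent.Lib.S48 Fermat.Agent.Lib.ES
open scoped MatrixGroups OnePoint

local notation "Mat2" => Matrix (Fin 2) (Fin 2) ℤ

theorem s59w_repZ_infty (p : ℕ) : heckeRepZ p (∞ : OnePoint (ZMod p)) = !![(p : ℤ), 0; 0, 1] := rfl

theorem s59w_repZ_coe (p : ℕ) (j : ZMod p) :
    heckeRepZ p (j : OnePoint (ZMod p)) = !![1, (j.val : ℤ); 0, (p : ℤ)] := rfl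

/-- The unipotent matrix `(1 t; 0 1)`. -/
def s59w_unip (t : ℤ) : SL(2, ℤ) := ⟨!![1, t; 0, 1], by simp [Matrix.det_fin_two_of]⟩

theorem s59w_unip_coe (t : ℤ) : ((s59w_unip t : SL(2, ℤ)) : Mat2) = !![1, t; 0, 1] := rfl

theorem s59w_unip_mem (N : ℕ) (t : ℤ) : s59w_unip t ∈ CongruenceSubgroup.Gamma0 N := by
  rw [CongruenceSubgroup.Gamma0_mem]
  simp [s59w_unip]

theorem s59w_unip_lr (N : ℕ) (t : ℤ) : (((s59w_unip t) 1 1 : ℤ) : ZMod N) = 1 := by
  simp [s59w_unip]

/-! ### Integer matrix identities -/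

theorem s59w_K1 (B : Mat2) (d r j j' : ℤ)
    (h : B * !![1, j; 0, r] = d • (!![1, j'; 0, r] : Mat2)) : r ∣ d * (j' - j) := by
  have h00 := congrFun (congrFun h 0) 0
  have h01 := congrFun (congrFun h 0) 1
  simp [Matrix.mul_apply, Fin.sum_univ_two] at h00 h01
  rw [h00] at h01
  exact ⟨B 0 1, by linear_combination -h01⟩

theorem s59w_K2 (B : Mat2) (d r j : ℤ) (h : B * !![1, j; 0, r] = d • (!![r, 0; 0, 1] : Mat2)) :
    r ∣ d := by
  have h10 := congrFun (congrFun h 1) 0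
  have h11 := congrFun (congrFun h 1) 1
  simp [Matrix.mul_apply, Fin.sum_univ_two] at h10 h11
  rw [h10] at h11
  exact ⟨B 1 1, by linear_combination -h11⟩

theorem s59w_K3 (B : Mat2) (d r j' : ℤ) (h : B * !![r, 0; 0, 1] = d • (!![1, j'; 0, r] : Mat2)) :
    r ∣ d := by
  have h00 := congrFun (congrFun h 0) 0
  simp [Matrix.mul_apply, Fin.sum_univ_two] at h00
  exact ⟨B 0 0, by linear_combination -h00⟩

theorem s59w_mat_ij (p r a t j : ℤ) (h : a + t * r = p * j) :
    (!![p, 0; 0, 1] : Mat2) * !![1, j; 0, r]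
      = !![1, t; 0, 1] * (!![1, a; 0, r] * !![p, 0; 0, 1]) := by
  rw [Matrix.mul_fin_two, Matrix.mul_fin_two, Matrix.mul_fin_two]
  ext i k
  fin_cases i <;> fin_cases k <;> simp
  · linear_combination -h

theorem s59w_mat_ji (p r b t j : ℤ) (h : r * b + t * p = j) :
    (!![1, j; 0, p] : Mat2) * !![r, 0; 0, 1]
      = !![1, t; 0, 1] * (!![r, 0; 0, 1] * !![1, b; 0, p]) := by
  rw [Matrix.mul_fin_two, Matrix.mul_fin_two, Matrix.mul_fin_two]
  ext i k
  fin_cases i <;> fin_cases k <;> simp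
  · linear_combination -h

theorem s59w_mat_ii (p r : ℤ) :
    (!![p, 0; 0, 1] : Mat2) * !![r, 0; 0, 1]
      = !![1, 0; 0, 1] * (!![r, 0; 0, 1] * !![p, 0; 0, 1]) := by
  rw [Matrix.mul_fin_two, Matrix.mul_fin_two, Matrix.mul_fin_two]
  ext i k
  fin_cases i <;> fin_cases k <;> simp
  · ring

theorem s59w_mat_jj (p r a b t j j' : ℤ) (h : b + a * p + t * r * p = j' + j * r) :
    (!![1, j; 0, p] : Mat2) * !![1, j'; 0, r]
      = !![1, t; 0, 1] * (!![1, a; 0, r] * !![1, b; 0, p]) := by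
  rw [Matrix.mul_fin_two, Matrix.mul_fin_two, Matrix.mul_fin_two]
  ext i k
  fin_cases i <;> fin_cases k <;> simp
  · linear_combination -h
  · ring

theorem s59w_mod_add_div (n r : ℕ) :
    (n : ℤ) = ((n % r : ℕ) : ℤ) + ((n / r : ℕ) : ℤ) * (r : ℤ) := by
  have h := Nat.mod_add_div n r
  have h2 : ((n % r : ℕ) : ℤ) + (r : ℤ) * ((n / r : ℕ) : ℤ) = (n : ℤ) := by exact_mod_cast h
  linear_combination -h2

/-- **The kernel lemma.** -/
theorem s59w_ker_lemma {r : ℕ} [Fact r.Prime] (A A' : Mat2) (hcop : IsCoprime A'.det (r : ℤ))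
    (y y' : OnePoint (ZMod r)) (h : A * heckeRepZ r y = A' * heckeRepZ r y') : y = y' := by
  have hr0 : r ≠ 0 := (Fact.out : r.Prime).ne_zero
  have : NeZero r := ⟨hr0⟩
  set B := A'.adjugate * A with hB
  have hBd : B * heckeRepZ r y = A'.det • heckeRepZ r y' := by
    rw [hB, Matrix.mul_assoc, h, ← Matrix.mul_assoc, Matrix.adjugate_mul, Matrix.smul_mul,
      Matrix.one_mul]
  have hr : ¬ (r : ℤ) ∣ A'.det := by
    intro hd
    have h1 : IsUnit (r : ℤ) := hcop.symm.isUnit_of_dvd' (dvd_refl _) hd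
    have h2 := Int.isUnit_iff.mp h1
    have h3 : 2 ≤ r := (Fact.out : r.Prime).two_le
    omega
  induction y using OnePoint.rec with
  | infty =>
    induction y' using OnePoint.rec with
    | infty => rfl
    | coe j' =>
      exfalso
      rw [s59w_repZ_infty, s59w_repZ_coe] at hBd
      exact hr (s59w_K3 B _ _ _ hBd)
  | coe j =>
    induction y' using OnePoint.rec with
    | infty =>
      exfalso
      rw [s59w_repZ_infty, s59w_repZ_coe] at hBd
      exact hr (s59w_K2 B _ _ _ hBd)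
    | coe j' =>
      rw [s59w_repZ_coe, s59w_repZ_coe] at hBd
      have hdvd := s59w_K1 B _ _ _ _ hBd
      have hdvd' : (r : ℤ) ∣ (j'.val : ℤ) - (j.val : ℤ) := hcop.symm.dvd_of_dvd_mul_left hdvd
      have h2 := (ZMod.intCast_zmod_eq_zero_iff_dvd _ r).mpr hdvd'
      push_cast at h2
      rw [ZMod.natCast_zmod_val, ZMod.natCast_zmod_val, sub_eq_zero] at h2
      rw [h2]

/-- **The table.** -/
theorem s59w_table {p r : ℕ} [Fact p.Prime] [Fact r.Prime] (hpr : p ≠ r) (x : OnePoint (ZMod p))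
    (y : OnePoint (ZMod r)) :
    ∃ (y₂ : OnePoint (ZMod r)) (x₂ : OnePoint (ZMod p)) (t : ℤ),
      heckeRepZ p x * heckeRepZ r y
        = ((s59w_unip t : SL(2, ℤ)) : Mat2) * (heckeRepZ r y₂ * heckeRepZ p x₂) ∧
      s48h_sfac r y₂ = s48h_sfac r y ∧ s48h_sfac p x₂ = s48h_sfac p x := by
  have hp0 : p ≠ 0 := (Fact.out : p.Prime).ne_zero
  have hr0 : r ≠ 0 := (Fact.out : r.Prime).ne_zero
  have : NeZero p := ⟨hp0⟩
  have : NeZero r := ⟨hr0⟩
  induction x using OnePoint.rec with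
  | infty =>
    induction y using OnePoint.rec with
    | infty =>
      refine ⟨∞, ∞, 0, ?_, rfl, rfl⟩
      rw [s59w_repZ_infty, s59w_repZ_infty, s59w_unip_coe]
      exact s59w_mat_ii _ _
    | coe j' =>
      -- `(p 0; 0 1)(1 j'; 0 r) = (1 t; 0 1)(1 a; 0 r)(p 0; 0 1)`, `a + t r = p j'`
      refine ⟨(((p * j'.val : ℕ) : ZMod r) : OnePoint (ZMod r)), ∞, ((p * j'.val / r : ℕ) : ℤ), ?_,
        rfl, rfl⟩
      rw [s59w_repZ_infty, s59w_repZ_coe, s59w_repZ_coe, s59w_unip_coe, ZMod.val_natCast]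
      refine s59w_mat_ij _ _ _ _ _ ?_
      have h := s59w_mod_add_div (p * j'.val) r
      rw [← h]
      push_cast
      ring
  | coe j =>
    induction y using OnePoint.rec with
    | infty =>
      -- `(1 j; 0 p)(r 0; 0 1) = (1 t; 0 1)(r 0; 0 1)(1 b; 0 p)`, `r b + t p = j`
      have hrp : (r : ZMod p) ≠ 0 := by
        intro h0
        have h1 := (ZMod.natCast_eq_zero_iff r p).mp h0
        have h2 := (Nat.prime_dvd_prime_iff_eq (Fact.out : p.Prime) (Fact.out : r.Prime)).mp h1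
        exact hpr h2
      have hdvd : (p : ℤ) ∣ (j.val : ℤ) - (r : ℤ) * ((j * (r : ZMod p)⁻¹).val : ℤ) := by
        rw [← ZMod.intCast_zmod_eq_zero_iff_dvd]
        push_cast
        rw [ZMod.natCast_zmod_val, ZMod.natCast_zmod_val]
        field_simp
        ring
      obtain ⟨t, ht⟩ := hdvd
      refine ⟨∞, ((j * (r : ZMod p)⁻¹ : ZMod p) : OnePoint (ZMod p)), t, ?_, rfl, rfl⟩
      rw [s59w_repZ_infty, s59w_repZ_coe, s59w_repZ_coe, s59w_unip_coe]
      refine s59w_mat_ji _ _ _ _ _ ?_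
      linear_combination -ht
    | coe j' =>
      -- `(1 j; 0 p)(1 j'; 0 r) = (1 t; 0 1)(1 a; 0 r)(1 b; 0 p)`, `b + a p + t r p = j' + j r`
      set n : ℕ := j'.val + j.val * r with hn
      refine ⟨(((n / p : ℕ) : ZMod r) : OnePoint (ZMod r)),
        (((n : ℕ) : ZMod p) : OnePoint (ZMod p)), ((n / p / r : ℕ) : ℤ), ?_, rfl, rfl⟩
      rw [s59w_repZ_coe, s59w_repZ_coe, s59w_repZ_coe, s59w_repZ_coe, s59w_unip_coe,
        ZMod.val_natCast, ZMod.val_natCast]
      refine s59w_mat_jj _ _ _ _ _ _ _ ?_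
      have h1 := s59w_mod_add_div n p
      have h2 := s59w_mod_add_div (n / p) r
      have h3 : (n : ℤ) = (j'.val : ℤ) + (j.val : ℤ) * (r : ℤ) := by
        rw [hn]; push_cast; ring
      rw [← h3, h1]
      linear_combination -(p : ℤ) * h2

end Fermat.Agent.Lib.S59
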