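/-
Programme (R) = S59 (helper3), W-files, file 3: **`T_p T_r = T_r T_p` on `Hom(Γ_H, A)`**
(`p ≠ r` primes not dividing `N`, any `H ≤ (ℤ/N)ˣ`, any coefficient group `A`), and the
commutativity of the diamond operators.
-/
import Mathlib
import Fermat.Agent.Lib.S48.HHomH
import Fermat.Agent.Lib.S59.WMatch
import Fermat.Agent.Lib.S59.WTable

set_option autoImplicit false
set_option linter.unusedSectionVars false

noncomputable section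

namespace Fermat.Agent.Lib.S59

open Matrix.SpecialLinearGroup CongruenceSubgroup
open Fermat.Agent.Lib.S48 Fermat.Agent.Lib.ES
open scoped MatrixGroups OnePoint

local notation "Mat2" => Matrix (Fin 2) (Fin 2) ℤ

variable {N : ℕ} {H : Subgroup (ZMod N)ˣ} {p r : ℕ} [Fact p.Prime] [Fact r.Prime]

theorem s59w_TpDatum_α (hpN : ¬ p ∣ N) (σp : SL(2, ℤ)) (hσp : σp ∈ Gamma0 N)
    (hσp11 : ((σp 1 1 : ℤ) : ZMod N) = (p : ZMod N)) (x : OnePoint (ZMod p)) :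
    (s48h_TpDatum H hpN σp hσp hσp11).α x = (s48h_tw p σp x : Mat2) * heckeRepZ p x := rfl

theorem s59w_TpDatum_det (hpN : ¬ p ∣ N) (σp : SL(2, ℤ)) (hσp : σp ∈ Gamma0 N)
    (hσp11 : ((σp 1 1 : ℤ) : ZMod N) = (p : ZMod N)) (x : OnePoint (ZMod p)) :
    ((s48h_TpDatum H hpN σp hσp hσp11).α x).det = p := by
  rw [s59w_TpDatum_α, Matrix.det_mul, Matrix.SpecialLinearGroup.det_coe, one_mul, det_heckeRepZ]

/-- The representatives of `T_p` are determined by their right kernels mod `p`. -/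
theorem s59w_Tp_irr (hpN : ¬ p ∣ N) (σp : SL(2, ℤ)) (hσp : σp ∈ Gamma0 N)
    (hσp11 : ((σp 1 1 : ℤ) : ZMod N) = (p : ZMod N)) :
    s59w_Irr (s48h_TpDatum H hpN σp hσp hσp11) (p : ℤ) := by
  intro A A' x x' hcop h
  refine s59w_ker_lemma (A * (s48h_tw p σp x : Mat2)) (A' * (s48h_tw p σp x' : Mat2)) ?_ x x' ?_
  · rw [Matrix.det_mul, Matrix.SpecialLinearGroup.det_coe, mul_one]
    exact hcop
  · rw [Matrix.mul_assoc, Matrix.mul_assoc]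
    exact h

theorem s59w_isCoprime_primes (hpr : p ≠ r) : IsCoprime (p : ℤ) (r : ℤ) := by
  rw [Nat.isCoprime_iff_coprime]
  exact (Nat.coprime_primes Fact.out Fact.out).mpr hpr

theorem s59w_coe_mul_inv_mul (a b : SL(2, ℤ)) (M : Mat2) :
    ((a * b⁻¹ : SL(2, ℤ)) : Mat2) * ((b : Mat2) * M) = (a : Mat2) * M := by
  rw [Matrix.SpecialLinearGroup.coe_mul, Matrix.mul_assoc, s59w_coe_inv_mul]

/-- The matching of the representatives of `T_p T_r` and `T_r T_p`. -/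
theorem s59w_Tp_match (hpr : p ≠ r) (hpN : ¬ p ∣ N) (hrN : ¬ r ∣ N) (σp : SL(2, ℤ))
    (hσp : σp ∈ Gamma0 N) (hσp11 : ((σp 1 1 : ℤ) : ZMod N) = (p : ZMod N)) (σr : SL(2, ℤ))
    (hσr : σr ∈ Gamma0 N) (hσr11 : ((σr 1 1 : ℤ) : ZMod N) = (r : ZMod N))
    (x : OnePoint (ZMod p)) (y : OnePoint (ZMod r)) :
    ∃ (y' : OnePoint (ZMod r)) (x' : OnePoint (ZMod p)) (k : s48h_GammaH N H),
      (s48h_TpDatum H hpN σp hσp hσp11).α x * (s48h_TpDatum H hrN σr hσr hσr11).α y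
        = ((k : SL(2, ℤ)) : Mat2) * ((s48h_TpDatum H hrN σr hσr hσr11).α y'
            * (s48h_TpDatum H hpN σp hσp hσp11).α x') := by
  obtain ⟨g₁, hg₁, hlr₁, hmul₁⟩ := s48h_heckeRepZ_mul hpN (s48h_tw r σr y) (s48h_tw_mem hσr y) x
  set x₁ := heckePermT p (s48h_tw r σr y) x with hx₁
  obtain ⟨y₂, x₂, t, htab, hsy, hsx⟩ := s59w_table hpr x₁ y
  set y' := (heckePermT r (s48h_tw p σp x₂)).symm y₂ with hy'
  obtain ⟨g₃, hg₃, hlr₃, hmul₃⟩ := s48h_heckeRepZ_mul hrN (s48h_tw p σp x₂) (s48h_tw_mem hσp x₂) y'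
  have hy₂ : heckePermT r (s48h_tw p σp x₂) y' = y₂ := by rw [hy', Equiv.apply_symm_apply]
  rw [hy₂] at hlr₃ hmul₃
  obtain ⟨a, ha⟩ : ∃ a : SL(2, ℤ), a = s48h_tw p σp x * g₁ * s59w_unip t := ⟨_, rfl⟩
  obtain ⟨b, hb⟩ : ∃ b : SL(2, ℤ), b = s48h_tw r σr y' * g₃ := ⟨_, rfl⟩
  have ha0 : s48h_tw p σp x * g₁ ∈ Gamma0 N := mul_mem (s48h_tw_mem hσp x) hg₁
  have ha1 : a ∈ Gamma0 N := ha ▸ mul_mem ha0 (s59w_unip_mem N t)
  have hb1 : b ∈ Gamma0 N := hb ▸ mul_mem (s48h_tw_mem hσr y') hg₃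
  have hlra : ((a 1 1 : ℤ) : ZMod N) = (s48h_sfac r y : ZMod N) * (s48h_sfac p x₁ : ZMod N) := by
    rw [ha, s48h_lowerRight_mul ha0, s48h_lowerRight_mul (s48h_tw_mem hσp x), s59w_unip_lr, mul_one,
      s48h_tw_lowerRight hσp11, mul_comm, hlr₁, s48h_tw_lowerRight hσr11]
  have hlrb : ((b 1 1 : ℤ) : ZMod N) = (s48h_sfac r y : ZMod N) * (s48h_sfac p x₁ : ZMod N) := by
    rw [hb, s48h_lowerRight_mul (s48h_tw_mem hσr y'), s48h_tw_lowerRight hσr11, mul_comm, hlr₃,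
      s48h_tw_lowerRight hσp11, hsy, hsx, mul_comm]
  have hk : a * b⁻¹ ∈ s48h_GammaH N H := by
    refine s48h_mem_GammaH_of_one (mul_mem ha1 (inv_mem hb1)) ?_
    rw [s48h_lowerRight_mul ha1, hlra, ← hlrb, mul_comm]
    exact s48h_lowerRight_inv_mul hb1
  refine ⟨y', x₂, ⟨a * b⁻¹, hk⟩, ?_⟩
  rw [s59w_TpDatum_α, s59w_TpDatum_α, s59w_TpDatum_α, s59w_TpDatum_α]
  show _ = ((a * b⁻¹ : SL(2, ℤ)) : Mat2) * _
  have hL : (s48h_tw p σp x : Mat2) * heckeRepZ p x * ((s48h_tw r σr y : Mat2) * heckeRepZ r y)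
      = (a : Mat2) * (heckeRepZ r y₂ * heckeRepZ p x₂) := by
    rw [Matrix.mul_assoc, ← Matrix.mul_assoc (heckeRepZ p x), hmul₁, Matrix.mul_assoc (g₁ : Mat2),
      htab, ha, Matrix.SpecialLinearGroup.coe_mul, Matrix.SpecialLinearGroup.coe_mul]
    simp only [Matrix.mul_assoc]
  have hR : (s48h_tw r σr y' : Mat2) * heckeRepZ r y' * ((s48h_tw p σp x₂ : Mat2) * heckeRepZ p x₂)
      = (b : Mat2) * (heckeRepZ r y₂ * heckeRepZ p x₂) := by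
    rw [Matrix.mul_assoc, ← Matrix.mul_assoc (heckeRepZ r y'), hmul₃, hb,
      Matrix.SpecialLinearGroup.coe_mul]
    simp only [Matrix.mul_assoc]
  rw [hL, hR, s59w_coe_mul_inv_mul]

/-- **`T_p` and `T_r` commute on `Hom(Γ_H, A)`.** -/
theorem s59w_TpH_comm (hpr : p ≠ r) (hpN : ¬ p ∣ N) (hrN : ¬ r ∣ N) (σp : SL(2, ℤ))
    (hσp : σp ∈ Gamma0 N) (hσp11 : ((σp 1 1 : ℤ) : ZMod N) = (p : ZMod N)) (σr : SL(2, ℤ))
    (hσr : σr ∈ Gamma0 N) (hσr11 : ((σr 1 1 : ℤ) : ZMod N) = (r : ZMod N))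
    {A : Type*} [AddCommGroup A] (χ : Additive (s48h_GammaH N H) →+ A) :
    s48h_TpH H hrN σr hσr hσr11 A (s48h_TpH H hpN σp hσp hσp11 A χ)
      = s48h_TpH H hpN σp hσp hσp11 A (s48h_TpH H hrN σr hσr hσr11 A χ) := by
  refine s59w_comm_of_match (s48h_TpDatum H hpN σp hσp hσp11) (s48h_TpDatum H hrN σr hσr hσr11)
    ?_ ?_ (s59w_Tp_match hpr hpN hrN σp hσp hσp11 σr hσr hσr11) χ
  · refine s59w_irred_prod (s59w_Tp_irr hpN σp hσp hσp11) (s59w_Tp_irr hrN σr hσr hσr11) fun x => ?_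
    rw [s59w_TpDatum_det]
    exact s59w_isCoprime_primes hpr
  · refine s59w_irred_prod (s59w_Tp_irr hrN σr hσr hσr11) (s59w_Tp_irr hpN σp hσp hσp11) fun x => ?_
    rw [s59w_TpDatum_det]
    exact s59w_isCoprime_primes (Ne.symm hpr)

/-! ### The diamond operators commute -/

theorem s59w_diamondH_comm {σ τ : SL(2, ℤ)} (hσ : σ ∈ Gamma0 N) (hτ : τ ∈ Gamma0 N) {A : Type*}
    [AddCommGroup A] (χ : Additive (s48h_GammaH N H) →+ A) :
    s48h_diamondH H τ hτ A (s48h_diamondH H σ hσ A χ)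
      = s48h_diamondH H σ hσ A (s48h_diamondH H τ hτ A χ) := by
  rw [s48h_diamondH_mul, s48h_diamondH_mul]
  -- `σ τ = k (τ σ)` with `k = σ τ σ⁻¹ τ⁻¹ ∈ Γ_H`
  have hk0 : σ * τ * (τ * σ)⁻¹ ∈ Gamma0 N := mul_mem (mul_mem hσ hτ) (inv_mem (mul_mem hτ hσ))
  have hk : σ * τ * (τ * σ)⁻¹ ∈ s48h_GammaH N H := by
    refine s48h_mem_GammaH_of_one hk0 ?_
    have h1 := s48h_lowerRight_inv_mul (mul_mem hτ hσ)
    rw [s48h_lowerRight_mul (mul_mem hσ hτ), s48h_lowerRight_mul hσ, mul_comm ((σ 1 1 : ℤ) : ZMod N),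
      ← s48h_lowerRight_mul hτ, mul_comm]
    exact h1
  have h2 := s48h_diamondH_mul (H := H) hk.1 (mul_mem hτ hσ) χ
  rw [s48h_diamondH_of_mem hk] at h2
  rw [h2]
  congr 1
  group

end Fermat.Agent.Lib.S59
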