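/-
Programme (R) = S59 (helper3), W-files, file 8: the diamond operators on `V = H_par(Γ_H, ℂ)` and the
decomposition of `V` into their joint eigenspaces.

* `s59w_dia H σ`, `σ ∈ Γ₀(M)`: `⟨σ⟩` on `V`; they commute, `⟨σ⟩⟨τ⟩ = ⟨στ⟩`, `⟨k⟩ = 1` for `k ∈ Γ_H`;
* `s59w_dia_pow_eq_one`: `⟨σ⟩ⁿ = 1` if `uⁿ ∈ H` for all units `u`;
* `s59w_joint`: `V = ⨆_c ⨅_σ ker(⟨σ⟩ - c(σ))`;
* `s59w_eigen_mul`, `s59w_eigen_of_mem`, `s59w_eigen_pow`: the eigenvalue function of a nonzero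
  joint eigenvector is a character of `Γ₀(M)/Γ_H` of exponent `n`.
-/
import Mathlib
import Fermat.Agent.Lib.ES.FG
import Fermat.Agent.Lib.S16.CRank
import Fermat.Agent.Lib.S48.HHomH
import Fermat.Agent.Lib.S59.WComm

set_option autoImplicit false
set_option linter.unusedSectionVars false

noncomputable section

namespace Fermat.Agent.Lib.S59

open Matrix.SpecialLinearGroup CongruenceSubgroup ModularCurve.Period Polynomial
open Fermat.Agent.Lib.S48 Fermat.Agent.Lib.ES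
open scoped MatrixGroups

local notation "Mat2" => Matrix (Fin 2) (Fin 2) ℤ

variable {M : ℕ} [NeZero M] (H : Subgroup (ZMod M)ˣ)

/-- `V = H_par(Γ_H, ℂ)`. -/
abbrev s59w_V : Submodule ℂ (Additive (s48h_GammaH M H) →+ ℂ) :=
  s48h_Hpar ℂ (s48h_GammaH M H) ℂ

theorem s59w_GammaH_index_ne_zero : (s48h_GammaH M H).index ≠ 0 := by
  have h1 : Gamma1 M ≤ s48h_GammaH M H := s48h_Gamma1_le_GammaH
  have h2 : (Gamma1 M).index ≠ 0 := Subgroup.FiniteIndex.index_ne_zero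
  exact fun h0 => h2 (Nat.eq_zero_of_zero_dvd (h0 ▸ Subgroup.index_dvd_of_le h1))

instance s59w_fg_GammaH : Group.FG (s48h_GammaH M H) := by
  haveI : (s48h_GammaH M H).FiniteIndex := ⟨s59w_GammaH_index_ne_zero H⟩
  exact Subgroup.fg_of_index_ne_zero (s48h_GammaH M H)

instance s59w_finiteDimensional_V : FiniteDimensional ℂ (s59w_V H) := by
  haveI : Module.Finite ℂ (Additive (s48h_GammaH M H) →+ ℂ) :=
    Fermat.Agent.Lib.S16.s16c_finite_hom ℂ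
  infer_instance

/-- the diamond operator `⟨σ⟩` on `V`. -/
def s59w_dia (σ : Gamma0 M) : Module.End ℂ (s59w_V H) :=
  (s48h_diamondDatum H (σ : SL(2, ℤ)) σ.2).heckeHpar ℂ

theorem s59w_dia_coe (σ : Gamma0 M) (v : s59w_V H) :
    ((s59w_dia H σ v : s59w_V H) : Additive (s48h_GammaH M H) →+ ℂ)
      = s48h_diamondH H (σ : SL(2, ℤ)) σ.2 ℂ v := rfl

theorem s59w_dia_comm (σ τ : Gamma0 M) : Commute (s59w_dia H σ) (s59w_dia H τ) := by
  refine LinearMap.ext fun v => Subtype.ext ?_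
  show s48h_diamondH H (σ : SL(2, ℤ)) σ.2 ℂ (s48h_diamondH H (τ : SL(2, ℤ)) τ.2 ℂ v)
    = s48h_diamondH H (τ : SL(2, ℤ)) τ.2 ℂ (s48h_diamondH H (σ : SL(2, ℤ)) σ.2 ℂ v)
  exact s59w_diamondH_comm τ.2 σ.2 _

theorem s59w_dia_mul (σ τ : Gamma0 M) : s59w_dia H τ * s59w_dia H σ = s59w_dia H (σ * τ) := by
  refine LinearMap.ext fun v => Subtype.ext ?_
  show s48h_diamondH H (τ : SL(2, ℤ)) τ.2 ℂ (s48h_diamondH H (σ : SL(2, ℤ)) σ.2 ℂ v)
    = s48h_diamondH H ((σ * τ : Gamma0 M) : SL(2, ℤ)) (σ * τ).2 ℂ v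
  exact s48h_diamondH_mul σ.2 τ.2 _

theorem s59w_dia_of_mem (σ : Gamma0 M) (hσ : (σ : SL(2, ℤ)) ∈ s48h_GammaH M H) :
    s59w_dia H σ = 1 := by
  refine LinearMap.ext fun v => Subtype.ext ?_
  show s48h_diamondH H (σ : SL(2, ℤ)) σ.2 ℂ v = v
  exact s48h_diamondH_of_mem hσ _

theorem s59w_dia_one : s59w_dia H (1 : Gamma0 M) = 1 :=
  s59w_dia_of_mem H 1 (one_mem _)

theorem s59w_dia_pow (σ : Gamma0 M) (k : ℕ) : s59w_dia H σ ^ k = s59w_dia H (σ ^ k) := by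
  induction k with
  | zero => rw [pow_zero, pow_zero, s59w_dia_one]
  | succ k ih => rw [pow_succ', pow_succ, ih, s59w_dia_mul]

/-- the lower right entry of `σ ∈ Γ₀(M)` as a unit mod `M`. -/
def s59w_lrUnit (σ : Gamma0 M) : (ZMod M)ˣ :=
  Units.mkOfMulEqOne ((((σ : SL(2, ℤ)) 1 1 : ℤ)) : ZMod M) (((((σ : SL(2, ℤ))⁻¹) 1 1 : ℤ)) : ZMod M)
    (by rw [mul_comm]; exact s48h_lowerRight_inv_mul σ.2)

theorem s59w_lrUnit_coe (σ : Gamma0 M) :
    ((s59w_lrUnit σ : (ZMod M)ˣ) : ZMod M) = (((σ : SL(2, ℤ)) 1 1 : ℤ) : ZMod M) := rfl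

theorem s59w_lrUnit_mul (σ τ : Gamma0 M) : s59w_lrUnit (σ * τ) = s59w_lrUnit σ * s59w_lrUnit τ := by
  apply Units.ext
  rw [Units.val_mul, s59w_lrUnit_coe, s59w_lrUnit_coe, s59w_lrUnit_coe]
  exact s48h_lowerRight_mul σ.2

/-- the lower right entry, as a homomorphism `Γ₀(M) → (ℤ/M)ˣ`. -/
def s59w_lrHom : Gamma0 M →* (ZMod M)ˣ where
  toFun := s59w_lrUnit
  map_one' := by
    apply Units.ext
    rw [s59w_lrUnit_coe]
    simp
  map_mul' := s59w_lrUnit_mul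

theorem s59w_mem_GammaH_iff (σ : Gamma0 M) :
    (σ : SL(2, ℤ)) ∈ s48h_GammaH M H ↔ s59w_lrUnit σ ∈ H := by
  constructor
  · rintro ⟨_, u, hu, hσu⟩
    have : s59w_lrUnit σ = u := Units.ext (by rw [s59w_lrUnit_coe, hσu])
    rw [this]
    exact hu
  · intro h
    exact ⟨σ.2, s59w_lrUnit σ, h, rfl⟩

theorem s59w_dia_pow_eq_one {n : ℕ} (hn : ∀ u : (ZMod M)ˣ, u ^ n ∈ H) (σ : Gamma0 M) :
    s59w_dia H σ ^ n = 1 := by
  rw [s59w_dia_pow]
  refine s59w_dia_of_mem H _ ((s59w_mem_GammaH_iff H _).mpr ?_)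
  have h1 : s59w_lrUnit (σ ^ n) = s59w_lrUnit σ ^ n := map_pow s59w_lrHom σ n
  rw [h1]
  exact hn _

theorem s59w_dia_isSemisimple {n : ℕ} (hn0 : n ≠ 0) (hn : ∀ u : (ZMod M)ˣ, u ^ n ∈ H)
    (σ : Gamma0 M) : (s59w_dia H σ).IsSemisimple := by
  have hsq : Squarefree (X ^ n - C (1 : ℂ)) :=
    (separable_X_pow_sub_C (1 : ℂ) (by exact_mod_cast hn0) one_ne_zero).squarefree
  refine Module.End.isSemisimple_of_squarefree_aeval_eq_zero hsq ?_
  rw [map_sub, map_pow, aeval_X, aeval_C, s59w_dia_pow_eq_one H hn σ, map_one, sub_self]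

/-- **`V` is the sum of the joint eigenspaces of the diamond operators.** -/
theorem s59w_joint {n : ℕ} (hn0 : n ≠ 0) (hn : ∀ u : (ZMod M)ˣ, u ^ n ∈ H) :
    ⨆ c : Gamma0 M → ℂ, ⨅ σ : Gamma0 M, (s59w_dia H σ).eigenspace (c σ) = ⊤ := by
  have h1 := Module.End.iSup_iInf_maxGenEigenspace_eq_top_of_iSup_maxGenEigenspace_eq_top_of_commute
    (s59w_dia H) (fun σ τ _ => s59w_dia_comm H σ τ)
    (fun σ => Module.End.iSup_maxGenEigenspace_eq_top (s59w_dia H σ))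
  have h2 : ∀ (σ : Gamma0 M) (μ : ℂ),
      (s59w_dia H σ).maxGenEigenspace μ = (s59w_dia H σ).eigenspace μ := fun σ μ =>
    (s59w_dia_isSemisimple H hn0 hn σ).isFinitelySemisimple.maxGenEigenspace_eq_eigenspace μ
  simpa only [h2] using h1

/-! ### The eigenvalue function of a joint eigenvector -/

section Eigen

variable {H}
variable {c : Gamma0 M → ℂ} {v : s59w_V H} (hv0 : v ≠ 0)
  (hv : ∀ σ : Gamma0 M, s59w_dia H σ v = c σ • v)

include hv0 hv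

theorem s59w_eigen_mul (σ τ : Gamma0 M) : c (σ * τ) = c σ * c τ := by
  have h1 : s59w_dia H (σ * τ) v = (c σ * c τ) • v := by
    rw [← s59w_dia_mul, Module.End.mul_apply, hv σ, map_smul, hv τ, smul_smul]
  rw [hv (σ * τ)] at h1
  exact smul_left_injective ℂ hv0 h1

theorem s59w_eigen_of_mem (σ : Gamma0 M) (hσ : (σ : SL(2, ℤ)) ∈ s48h_GammaH M H) : c σ = 1 := by
  have h1 := hv σ
  rw [s59w_dia_of_mem H σ hσ, Module.End.one_apply] at h1
  have h2 : (1 : ℂ) • v = c σ • v := by rw [one_smul]; exact h1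
  exact (smul_left_injective ℂ hv0 h2).symm

theorem s59w_eigen_one : c 1 = 1 := s59w_eigen_of_mem hv0 hv 1 (one_mem _)

theorem s59w_eigen_pow (σ : Gamma0 M) (k : ℕ) : c (σ ^ k) = c σ ^ k := by
  induction k with
  | zero => rw [pow_zero, pow_zero, s59w_eigen_one hv0 hv]
  | succ k ih => rw [pow_succ, pow_succ, s59w_eigen_mul hv0 hv, ih]

/-- `c` only depends on the class of the lower right entry modulo `H`. -/
theorem s59w_eigen_congr (σ τ : Gamma0 M) (h : s59w_lrUnit σ * (s59w_lrUnit τ)⁻¹ ∈ H) :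
    c σ = c τ := by
  have h1 : ((σ * τ⁻¹ : Gamma0 M) : SL(2, ℤ)) ∈ s48h_GammaH M H := by
    rw [s59w_mem_GammaH_iff]
    have h2 : s59w_lrUnit (σ * τ⁻¹) = s59w_lrUnit σ * (s59w_lrUnit τ)⁻¹ := by
      have := map_mul s59w_lrHom σ τ⁻¹
      rw [map_inv] at this
      exact this
    rw [h2]
    exact h
  have h3 := s59w_eigen_mul hv0 hv (σ * τ⁻¹) τ
  rw [inv_mul_cancel_right, s59w_eigen_of_mem hv0 hv _ h1, one_mul] at h3
  exact h3

theorem s59w_eigen_pow_eq_one {n : ℕ} (hn : ∀ u : (ZMod M)ˣ, u ^ n ∈ H) (σ : Gamma0 M) :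
    c σ ^ n = 1 := by
  rw [← s59w_eigen_pow hv0 hv]
  refine s59w_eigen_of_mem hv0 hv _ ((s59w_mem_GammaH_iff H _).mpr ?_)
  have h1 : s59w_lrUnit (σ ^ n) = s59w_lrUnit σ ^ n := map_pow s59w_lrHom σ n
  rw [h1]
  exact hn _

end Eigen

end Fermat.Agent.Lib.S59
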