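/-
Programme (R) = S59 (helper3), W-files, file 10: **`T_ℓ` is semisimple on `H_par(Γ_H, ℂ)`**
(`M = N ∏ Q`, `H ⊇ ker((ℤ/M)ˣ → (ℤ/∏Q)ˣ)`, `(ℤ/M)ˣ/H` of odd exponent).

`V = ⨁_c W_c` (joint eigenspaces of the diamond operators, `WDia.lean`); on `W_c ≠ 0` the function
`c` is a character of odd order, `c(σ) = ψ(σ₁₁)`; `WChar.lean` gives the characters `χ_q`, the twist
chain `s59w_SS_chain` gives the semisimplicity of `T_ℓ` on the `ψ`-part of `Hom_par(G(M, ∏Q), ℂ)`,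
and restriction `Γ_H → G(M, ∏Q)` is injective and Hecke equivariant.
-/
import Mathlib
import Fermat.Agent.Lib.S59.WChainTop
import Fermat.Agent.Lib.S59.WDia
import Fermat.Agent.Lib.S59.WChar

set_option autoImplicit false
set_option linter.unusedSectionVars false

noncomputable section

namespace Fermat.Agent.Lib.S59

open Matrix.SpecialLinearGroup CongruenceSubgroup ModularCurve.Period Polynomial
open Fermat.Agent.Lib.S48 Fermat.Agent.Lib.ES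
open scoped MatrixGroups

local notation "Mat2" => Matrix (Fin 2) (Fin 2) ℤ

/-! ### A section of the lower right entry -/

section Sig

variable {M : ℕ} [NeZero M]

theorem s59w_exists_sig (u : (ZMod M)ˣ) : ∃ σ : Gamma0 M, s59w_lrUnit σ = u := by
  obtain ⟨σ, h1, -, h3⟩ := s48h_exists_sigma M 1 (Nat.coprime_one_left M) u
  have hσ : σ ∈ Gamma0 M := by
    rw [Gamma0_mem, ZMod.intCast_zmod_eq_zero_iff_dvd]
    exact dvd_trans (Dvd.intro _ rfl) h1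
  exact ⟨⟨σ, hσ⟩, Units.ext (by rw [s59w_lrUnit_coe]; exact h3)⟩

/-- a chosen `σ_u ∈ Γ₀(M)` with lower right entry `u`. -/
def s59w_sig (u : (ZMod M)ˣ) : Gamma0 M := Classical.choose (s59w_exists_sig u)

theorem s59w_sig_spec (u : (ZMod M)ˣ) : s59w_lrUnit (s59w_sig u) = u :=
  Classical.choose_spec (s59w_exists_sig u)

variable (c : Gamma0 M → ℂ) (hc1 : c 1 = 1) (hcm : ∀ σ τ : Gamma0 M, c (σ * τ) = c σ * c τ)
  (hcc : ∀ σ τ : Gamma0 M, s59w_lrUnit σ = s59w_lrUnit τ → c σ = c τ)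

/-- the character of `(ℤ/M)ˣ` defined by `c`. -/
def s59w_cuHom : (ZMod M)ˣ →* ℂ where
  toFun u := c (s59w_sig u)
  map_one' := by
    rw [← hc1]
    refine hcc _ _ ?_
    rw [s59w_sig_spec]
    exact (map_one s59w_lrHom).symm
  map_mul' u w := by
    rw [← hcm]
    refine hcc _ _ ?_
    rw [s59w_sig_spec, s59w_lrUnit_mul, s59w_sig_spec, s59w_sig_spec]

/-- the function `ψ_c : ℤ → ℂ`. -/
def s59w_psi : ℤ → ℂ := fun d =>
  (MulChar.ofUnitHom (s59w_cuHom c hc1 hcm hcc).toHomUnits : MulChar (ZMod M) ℂ) ((d : ℤ) : ZMod M)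

theorem s59w_psi_unit (d : ℤ) (u : (ZMod M)ˣ) (hu : ((d : ℤ) : ZMod M) = u) :
    s59w_psi c hc1 hcm hcc d = c (s59w_sig u) := by
  rw [s59w_psi, hu, MulChar.ofUnitHom_coe, MonoidHom.coe_toHomUnits]
  rfl

theorem s59w_psi_lr (σ : Gamma0 M) : s59w_psi c hc1 hcm hcc ((σ : SL(2, ℤ)) 1 1) = c σ := by
  rw [s59w_psi_unit c hc1 hcm hcc _ (s59w_lrUnit σ) (s59w_lrUnit_coe σ).symm]
  exact hcc _ _ (s59w_sig_spec _)

theorem s59w_psi_per (a b : ℤ) (hab : (M : ℤ) ∣ a - b) :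
    s59w_psi c hc1 hcm hcc a = s59w_psi c hc1 hcm hcc b := by
  have h : ((a : ℤ) : ZMod M) = ((b : ℤ) : ZMod M) := by
    have h3 : (((a - b : ℤ)) : ZMod M) = 0 := (ZMod.intCast_zmod_eq_zero_iff_dvd _ _).mpr hab
    push_cast at h3
    exact sub_eq_zero.mp h3
  rw [s59w_psi, s59w_psi, h]

theorem s59w_psi_mul (a b : ℤ) :
    s59w_psi c hc1 hcm hcc (a * b) = s59w_psi c hc1 hcm hcc a * s59w_psi c hc1 hcm hcc b := by
  rw [s59w_psi, s59w_psi, s59w_psi, Int.cast_mul, map_mul]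

theorem s59w_exists_unit {d : ℤ} (hd : IsCoprime d (M : ℤ)) :
    ∃ u : (ZMod M)ˣ, ((d : ℤ) : ZMod M) = u := by
  obtain ⟨u, hu⟩ := (ZMod.coe_int_isUnit_iff_isCoprime d M).mpr hd.symm
  exact ⟨u, hu.symm⟩

end Sig

/-! ### `T_ℓ` on a joint eigenspace of the diamond operators -/

section Main

variable (N : ℕ) [NeZero N] (Q : Finset ℕ)

theorem s59w_Tp_ssOn_joint (hpet : s59w_PetSS) (hQ : ∀ q ∈ Q, q.Prime ∧ ¬ q ∣ N)
    {M : ℕ} [NeZero M] (hM : M = N * ∏ q ∈ Q, q) {D : ℕ} (hDQ : D = ∏ q ∈ Q, q) (hD : D ∣ M)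
    (H : Subgroup (ZMod M)ˣ) (hH : s59u_ker M D hD ≤ H)
    {n m : ℕ} (hnm : 2 * m = n + 1) (hn : ∀ u : (ZMod M)ˣ, u ^ n ∈ H)
    {ℓ : ℕ} [Fact ℓ.Prime] (hℓ : ¬ ℓ ∣ M) (σ : SL(2, ℤ)) (hσ : σ ∈ Gamma0 M)
    (hσ11 : ((σ 1 1 : ℤ) : ZMod M) = (ℓ : ZMod M)) (c : Gamma0 M → ℂ) :
    s59w_SSOn (⨅ τ : Gamma0 M, (s59w_dia H τ).eigenspace (c τ))
      ((s48h_TpDatum H hℓ σ hσ hσ11).heckeHpar ℂ : Module.End ℂ (s59w_V H)) := by
  subst hM hDQ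
  obtain ⟨T, hT⟩ : ∃ T : Module.End ℂ (s59w_V H),
      T = (s48h_TpDatum H hℓ σ hσ hσ11).heckeHpar ℂ := ⟨_, rfl⟩
  rw [← hT]
  have hTcoe : ∀ v : s59w_V H, ((T v : s59w_V H) : Additive (s48h_GammaH _ H) →+ ℂ)
      = s48h_TpH H hℓ σ hσ hσ11 ℂ v := by
    intro v; rw [hT]; rfl
  have hTW : ∀ v ∈ (⨅ τ : Gamma0 (N * ∏ q ∈ Q, q), (s59w_dia H τ).eigenspace (c τ)),
      T v ∈ ⨅ τ : Gamma0 (N * ∏ q ∈ Q, q), (s59w_dia H τ).eigenspace (c τ) := by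
    intro v hv
    rw [Submodule.mem_iInf] at hv ⊢
    intro τ
    have h1 := Module.End.mem_eigenspace_iff.mp (hv τ)
    rw [Module.End.mem_eigenspace_iff]
    have hcomm : s59w_dia H τ (T v) = T (s59w_dia H τ v) := by
      refine Subtype.ext ?_
      rw [s59w_dia_coe, hTcoe, hTcoe, s59w_dia_coe]
      exact s48h_diamond_Tp_comm hℓ hσ hσ11 τ.2 _
    rw [hcomm, h1, map_smul]
  by_cases hW : (⨅ τ : Gamma0 (N * ∏ q ∈ Q, q), (s59w_dia H τ).eigenspace (c τ)) = ⊥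
  · refine ⟨hTW, ?_⟩
    haveI : Subsingleton ↥(⨅ τ : Gamma0 (N * ∏ q ∈ Q, q), (s59w_dia H τ).eigenspace (c τ)) := by
      rw [hW]; infer_instance
    have h0 : T.restrict hTW = 0 := LinearMap.ext fun x => Subsingleton.elim _ _
    rw [h0]
    exact Module.End.isSemisimple_zero
  obtain ⟨v, hvW, hv0⟩ := (Submodule.ne_bot_iff _).mp hW
  have hv : ∀ τ : Gamma0 (N * ∏ q ∈ Q, q), s59w_dia H τ v = c τ • v := fun τ =>
    Module.End.mem_eigenspace_iff.mp ((Submodule.mem_iInf _).mp hvW τ)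
  have hc1 := s59w_eigen_one hv0 hv
  have hcm := s59w_eigen_mul hv0 hv
  have hcc : ∀ σ τ : Gamma0 (N * ∏ q ∈ Q, q), s59w_lrUnit σ = s59w_lrUnit τ → c σ = c τ :=
    fun σ τ h => s59w_eigen_congr hv0 hv σ τ (by rw [h, mul_inv_cancel]; exact one_mem _)
  obtain ⟨ψ, hψ⟩ : ∃ ψ, ψ = s59w_psi c hc1 hcm hcc := ⟨_, rfl⟩
  have hper : ∀ a b : ℤ, ((N * ∏ q ∈ Q, q : ℕ) : ℤ) ∣ a - b → ψ a = ψ b := fun a b hab => by
    rw [hψ]; exact s59w_psi_per c hc1 hcm hcc a b hab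
  have hmul : ∀ a b : ℤ, ψ (a * b) = ψ a * ψ b := fun a b => by
    rw [hψ]; exact s59w_psi_mul c hc1 hcm hcc a b
  have hpow : ∀ d : ℤ, IsCoprime d ((N * ∏ q ∈ Q, q : ℕ) : ℤ) → ψ d ^ n = 1 := by
    intro d hd
    obtain ⟨u, hu⟩ := s59w_exists_unit hd
    rw [hψ, s59w_psi_unit c hc1 hcm hcc d u hu]
    exact s59w_eigen_pow_eq_one hv0 hv hn _
  have hker : ∀ d : ℤ, IsCoprime d ((N * ∏ q ∈ Q, q : ℕ) : ℤ) →
      ((∏ q ∈ Q, q : ℕ) : ℤ) ∣ d - 1 → ψ d = 1 := by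
    intro d hd hd1
    obtain ⟨u, hu⟩ := s59w_exists_unit hd
    rw [hψ, s59w_psi_unit c hc1 hcm hcc d u hu]
    refine s59w_eigen_of_mem hv0 hv _ ((s59w_mem_GammaH_iff H _).mpr ?_)
    rw [s59w_sig_spec]
    refine hH ?_
    show ZMod.unitsMap hD u = 1
    apply Units.ext
    rw [ZMod.unitsMap_def, Units.coe_map, MonoidHom.coe_coe, ← hu, map_intCast, Units.val_one]
    exact s59u_cast_eq_one_of_dvd (dvd_refl _) hd1
  obtain ⟨χ, hχ1, hχ2⟩ := s59w_exists_chi N Q hQ ψ hper hmul hnm hpow hker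
  have hSS := s59w_SS_chain N Q hpet hQ χ hχ1 ψ hper hχ2
  have hss := hSS ℓ hℓ σ hσ hσ11
  have hKG : s59u_G (N * ∏ q ∈ Q, q) (∏ q ∈ Q, q) hD ≤ s48h_GammaH (N * ∏ q ∈ Q, q) H :=
    s59u_GammaH_mono hH
  refine s59w_ssOn_of_inj ((s59w_resL hKG ℂ) ∘ₗ (s59w_V H).subtype) ?_ ?_ T _ 1 hTW ?_ hss
  · intro w hw
    refine ⟨s59u_res_isParabolic hKG w.2.1, fun τ hτ => ?_⟩
    have h1 := s59u_res_heckeHom hKG (s48h_diamondDatum H τ hτ)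
      (s59u_conjDatum (s59u_G (N * ∏ q ∈ Q, q) (∏ q ∈ Q, q) hD) (τ : Mat2) (s59u_coe_det_ne τ)
        (s59u_gamma0_normG hτ))
      (fun _ => rfl) (fun _ _ => rfl) (w : Additive (s48h_GammaH _ H) →+ ℂ)
    have h2 : (s48h_diamondDatum H τ hτ).heckeHom ℂ (w : Additive (s48h_GammaH _ H) →+ ℂ)
        = ψ (τ 1 1) • (w : Additive (s48h_GammaH _ H) →+ ℂ) := by
      have h3 := Module.End.mem_eigenspace_iff.mp ((Submodule.mem_iInf _).mp hw ⟨τ, hτ⟩)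
      have h4 := congrArg Subtype.val h3
      rw [hψ, s59w_psi_lr c hc1 hcm hcc ⟨τ, hτ⟩]
      exact h4
    rw [h2, s59u_res_smul] at h1
    exact h1.symm
  · intro w _ hw0
    refine Subtype.ext ?_
    refine s59u_res_injective (A := ℂ) hKG s59u_G_index_ne_zero ?_
    show s59u_res hKG ℂ (w : Additive (s48h_GammaH _ H) →+ ℂ)
      = s59u_res hKG ℂ (0 : Additive (s48h_GammaH _ H) →+ ℂ)
    rw [map_zero]
    exact hw0
  · intro w _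
    rw [one_smul]
    show s59u_res hKG ℂ ((T w : s59w_V H) : Additive (s48h_GammaH _ H) →+ ℂ) = _
    rw [hTcoe]
    exact s59u_res_heckeHom hKG (s48h_TpDatum H hℓ σ hσ hσ11)
      (s48h_TpDatum (s59u_ker _ _ hD) hℓ σ hσ hσ11) (fun _ => rfl) (fun _ _ => rfl) _

/-- **`T_ℓ` is semisimple on `H_par(Γ_H, ℂ)`.** -/
theorem s59w_Tp_isSemisimple (hpet : s59w_PetSS) (hQ : ∀ q ∈ Q, q.Prime ∧ ¬ q ∣ N)
    {M : ℕ} [NeZero M] (hM : M = N * ∏ q ∈ Q, q) {D : ℕ} (hDQ : D = ∏ q ∈ Q, q) (hD : D ∣ M)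
    (H : Subgroup (ZMod M)ˣ) (hH : s59u_ker M D hD ≤ H)
    {n m : ℕ} (hnm : 2 * m = n + 1) (hn : ∀ u : (ZMod M)ˣ, u ^ n ∈ H)
    {ℓ : ℕ} [Fact ℓ.Prime] (hℓ : ¬ ℓ ∣ M) (σ : SL(2, ℤ)) (hσ : σ ∈ Gamma0 M)
    (hσ11 : ((σ 1 1 : ℤ) : ZMod M) = (ℓ : ZMod M)) :
    ((s48h_TpDatum H hℓ σ hσ hσ11).heckeHpar ℂ : Module.End ℂ (s59w_V H)).IsSemisimple :=
  s59w_ss_of_iSup (fun c : Gamma0 M → ℂ => ⨅ τ : Gamma0 M, (s59w_dia H τ).eigenspace (c τ)) _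
    (s59w_joint H (by omega) hn)
    (fun c => s59w_Tp_ssOn_joint N Q hpet hQ hM hDQ hD H hH hnm hn hℓ σ hσ hσ11 c)

end Main

end Fermat.Agent.Lib.S59
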