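/-
Programme (R) = S59 (helper3), W-files, file 11: **the anemic Hecke algebra at `Γ_H`-level is
semisimple over `ℂ`.**

* `s59w_TIdx M`, `s59w_AIdx M`: the index set of the anemic generators (`T_ℓ`, `ℓ ∤ M`, with a choice
  of `σ_ℓ`; diamond operators `⟨σ⟩`, `σ ∈ Γ₀(M)`);
* `s59w_op H R i`: the operator of index `i` on `H_par(Γ_H, R)`; they commute (`s59w_op_comm`);
* `s59w_ss_adjoin`: the algebra generated by commuting semisimple endomorphisms consists of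
  semisimple endomorphisms;
* `s59w_op_isSemisimple`, **`s59w_adjoin_isSemisimple`**: over `ℂ`, for `M = N ∏ Q`,
  `H ⊇ ker((ℤ/M)ˣ → (ℤ/∏Q)ˣ)`, `(ℤ/M)ˣ/H` of odd exponent.
-/
import Mathlib
import Fermat.Agent.Lib.S59.WRed

set_option autoImplicit false
set_option linter.unusedSectionVars false
set_option linter.style.haveILetI false

noncomputable section

namespace Fermat.Agent.Lib.S59

open Matrix.SpecialLinearGroup CongruenceSubgroup ModularCurve.Period Polynomial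
open Fermat.Agent.Lib.S48 Fermat.Agent.Lib.ES
open scoped MatrixGroups

local notation "Mat2" => Matrix (Fin 2) (Fin 2) ℤ

/-! ### Commuting semisimple endomorphisms -/

theorem s59w_ss_adjoin {K V : Type*} [Field K] [PerfectField K] [AddCommGroup V] [Module K V]
    [FiniteDimensional K V] (S : Set (Module.End K V)) (hcomm : ∀ a ∈ S, ∀ b ∈ S, a * b = b * a)
    (hss : ∀ a ∈ S, a.IsSemisimple) {t : Module.End K V} (ht : t ∈ Algebra.adjoin K S) :
    t.IsSemisimple := by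
  have hmc : IsMulCommutative (Algebra.adjoin K S) := Algebra.isMulCommutative_adjoin K hcomm
  have hc : ∀ x y : Module.End K V, x ∈ Algebra.adjoin K S → y ∈ Algebra.adjoin K S →
      Commute x y := fun x y hx hy =>
    congrArg Subtype.val (mul_comm' (⟨x, hx⟩ : Algebra.adjoin K S) ⟨y, hy⟩)
  induction ht using Algebra.adjoin_induction with
  | mem x hx => exact hss x hx
  | algebraMap r =>
    rw [Algebra.algebraMap_eq_smul_one]
    exact Module.End.IsSemisimple_smul r Module.End.isSemisimple_id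
  | add x y hx hy hx' hy' => exact Module.End.IsSemisimple.add_of_commute (hc x y hx hy) hx' hy'
  | mul x y hx hy hx' hy' => exact Module.End.IsSemisimple.mul_of_commute (hc x y hx hy) hx' hy'

/-! ### The anemic generators -/

/-- index of a `T_ℓ`: a prime `ℓ ∤ M` and a `σ_ℓ ∈ Γ₀(M)` with lower right entry `≡ ℓ`. -/
structure s59w_TIdx (M : ℕ) where
  ell : ℕ
  prime : ell.Prime
  ndvd : ¬ ell ∣ M
  sig : SL(2, ℤ)
  mem : sig ∈ Gamma0 M
  lr : ((sig 1 1 : ℤ) : ZMod M) = (ell : ZMod M)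

/-- index set of the anemic generators. -/
abbrev s59w_AIdx (M : ℕ) := s59w_TIdx M ⊕ Gamma0 M

variable {M : ℕ} [NeZero M] (H : Subgroup (ZMod M)ˣ)

/-- the anemic generators as operators on `H_par(Γ_H, R)`. -/
def s59w_op (R : Type*) [CommRing R] :
    s59w_AIdx M → Module.End R (s48h_Hpar R (s48h_GammaH M H) R)
  | Sum.inl i =>
    haveI : Fact i.ell.Prime := ⟨i.prime⟩
    (s48h_TpDatum H i.ndvd i.sig i.mem i.lr).heckeHpar R
  | Sum.inr τ => (s48h_diamondDatum H (τ : SL(2, ℤ)) τ.2).heckeHpar R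

theorem s59w_op_comm (R : Type*) [CommRing R] (i j : s59w_AIdx M) :
    s59w_op H R i * s59w_op H R j = s59w_op H R j * s59w_op H R i := by
  refine LinearMap.ext fun v => Subtype.ext ?_
  rcases i with i | τ <;> rcases j with j | τ'
  · obtain ⟨ℓ, hp, hℓ, σ, hσ, h11⟩ := i
    obtain ⟨ℓ', hp', hℓ', σ', hσ', h11'⟩ := j
    haveI : Fact ℓ.Prime := ⟨hp⟩
    haveI : Fact ℓ'.Prime := ⟨hp'⟩
    by_cases h : ℓ = ℓ'
    · subst h
      show s48h_TpH H hℓ σ hσ h11 R (s48h_TpH H hℓ' σ' hσ' h11' R v)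
        = s48h_TpH H hℓ' σ' hσ' h11' R (s48h_TpH H hℓ σ hσ h11 R v)
      rw [s48h_TpH_eq hℓ hσ h11 hσ' h11' R]
    · exact s59w_TpH_comm (Ne.symm h) hℓ' hℓ σ' hσ' h11' σ hσ h11 _
  · obtain ⟨ℓ, hp, hℓ, σ, hσ, h11⟩ := i
    haveI : Fact ℓ.Prime := ⟨hp⟩
    exact (s48h_diamond_Tp_comm hℓ hσ h11 τ'.2 _).symm
  · obtain ⟨ℓ, hp, hℓ, σ, hσ, h11⟩ := j
    haveI : Fact ℓ.Prime := ⟨hp⟩
    exact s48h_diamond_Tp_comm hℓ hσ h11 τ.2 _
  · exact s59w_diamondH_comm τ'.2 τ.2 _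

/-! ### Semisimplicity over `ℂ` -/

section Complex

variable (N : ℕ) [NeZero N] (Q : Finset ℕ)

instance s59w_finiteDimensional_Hpar :
    FiniteDimensional ℂ (s48h_Hpar ℂ (s48h_GammaH M H) ℂ) := s59w_finiteDimensional_V H

/-- every anemic generator is semisimple on `H_par(Γ_H, ℂ)`. -/
theorem s59w_op_isSemisimple (hpet : s59w_PetSS) (hQ : ∀ q ∈ Q, q.Prime ∧ ¬ q ∣ N)
    (hM : M = N * ∏ q ∈ Q, q) {D : ℕ} (hDQ : D = ∏ q ∈ Q, q) (hD : D ∣ M)
    (hH : s59u_ker M D hD ≤ H) {n m : ℕ} (hnm : 2 * m = n + 1) (hn : ∀ u : (ZMod M)ˣ, u ^ n ∈ H)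
    (i : s59w_AIdx M) : (s59w_op H ℂ i).IsSemisimple := by
  rcases i with i | τ
  · obtain ⟨ℓ, hp, hℓ, σ, hσ, h11⟩ := i
    haveI : Fact ℓ.Prime := ⟨hp⟩
    exact s59w_Tp_isSemisimple N Q hpet hQ hM hDQ hD H hH hnm hn hℓ σ hσ h11
  · exact s59w_dia_isSemisimple H (by omega) hn τ

/-- **every element of the anemic Hecke algebra is semisimple on `H_par(Γ_H, ℂ)`.** -/
theorem s59w_adjoin_isSemisimple (hpet : s59w_PetSS) (hQ : ∀ q ∈ Q, q.Prime ∧ ¬ q ∣ N)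
    (hM : M = N * ∏ q ∈ Q, q) {D : ℕ} (hDQ : D = ∏ q ∈ Q, q) (hD : D ∣ M)
    (hH : s59u_ker M D hD ≤ H) {n m : ℕ} (hnm : 2 * m = n + 1) (hn : ∀ u : (ZMod M)ˣ, u ^ n ∈ H)
    {t : Module.End ℂ (s48h_Hpar ℂ (s48h_GammaH M H) ℂ)}
    (ht : t ∈ Algebra.adjoin ℂ (Set.range (s59w_op H ℂ))) : t.IsSemisimple := by
  refine s59w_ss_adjoin (Set.range (s59w_op H ℂ)) ?_ ?_ ht
  · rintro _ ⟨i, rfl⟩ _ ⟨j, rfl⟩
    exact s59w_op_comm H ℂ i j
  · rintro _ ⟨i, rfl⟩
    exact s59w_op_isSemisimple H N Q hpet hQ hM hDQ hD hH hnm hn i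

end Complex

end Fermat.Agent.Lib.S59
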