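/-
Programme (R) = S59 (helper3), W-files, file 13: ABSTRACT — semisimplicity of matrices and extension
of the base field (Mathlib only).

`s59w_SqKill F x` : `x` (in an `F`-algebra) is killed by a squarefree polynomial over `F`.
* `s59w_sqKill_iff_isSemisimple` : for endomorphisms of a finite-dimensional space this is
  semisimplicity; `s59w_sqKill_toLin'` : for matrices;
* `s59w_sqKill_map` (UP)   : `M` squarefree-killed over a perfect field `F` ⇒ `M ⊗ F'` is over `F'`;
* `s59w_sqKill_of_map` (DOWN) : the converse (Jordan–Chevalley over `F`);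
* `s59w_sqKill_adjoin` : commuting squarefree-killed matrices generate an algebra of such;
* `s59w_sqKill_mul_eq_zero` : `x` squarefree-killed, `x ^ k * s = 0` ⇒ `x * s = 0`.
-/
import Mathlib

set_option autoImplicit false
set_option linter.unusedSectionVars false

noncomputable section

namespace Fermat.Agent.Lib.S59

open Polynomial Module

/-- `x` is killed by a squarefree polynomial. -/
def s59w_SqKill (F : Type*) [Field F] {C : Type*} [Ring C] [Algebra F C] (x : C) : Prop :=
  ∃ P : F[X], Squarefree P ∧ aeval x P = 0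

section Basic

variable {F : Type*} [Field F]

theorem s59w_sqKill_iff_isSemisimple {V : Type*} [AddCommGroup V] [Module F V]
    [FiniteDimensional F V] (f : Module.End F V) : s59w_SqKill F f ↔ f.IsSemisimple := by
  constructor
  · rintro ⟨P, hP, h0⟩
    exact Module.End.isSemisimple_of_squarefree_aeval_eq_zero hP h0
  · intro h
    exact ⟨minpoly F f, h.minpoly_squarefree, minpoly.aeval F f⟩

theorem s59w_sqKill_algHom {C D : Type*} [Ring C] [Algebra F C] [Ring D] [Algebra F D]
    (g : C →ₐ[F] D) {x : C} (h : s59w_SqKill F x) : s59w_SqKill F (g x) := by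
  obtain ⟨P, hP, h0⟩ := h
  exact ⟨P, hP, by rw [aeval_algHom_apply, h0, map_zero]⟩

theorem s59w_sqKill_of_algHom {C D : Type*} [Ring C] [Algebra F C] [Ring D] [Algebra F D]
    (g : C →ₐ[F] D) (hg : Function.Injective g) {x : C} (h : s59w_SqKill F (g x)) :
    s59w_SqKill F x := by
  obtain ⟨P, hP, h0⟩ := h
  refine ⟨P, hP, hg ?_⟩
  rw [← aeval_algHom_apply, h0, map_zero]

variable {ι : Type*} [Fintype ι] [DecidableEq ι]

theorem s59w_sqKill_toLin' (M : Matrix ι ι F) :
    s59w_SqKill F M ↔ Module.End.IsSemisimple (Matrix.toLin' M : Module.End F (ι → F)) := by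
  rw [← s59w_sqKill_iff_isSemisimple]
  constructor
  · intro h
    exact s59w_sqKill_algHom (Matrix.toLinAlgEquiv' : Matrix ι ι F ≃ₐ[F] _).toAlgHom h
  · intro h
    exact s59w_sqKill_of_algHom (Matrix.toLinAlgEquiv' : Matrix ι ι F ≃ₐ[F] _).toAlgHom
      (Matrix.toLinAlgEquiv' : Matrix ι ι F ≃ₐ[F] _).injective h

/-- **`x` squarefree-killed, `x ^ k * s = 0` ⇒ `x * s = 0`.** -/
theorem s59w_sqKill_mul_eq_zero {C : Type*} [Ring C] [Algebra F C] {x : C}
    (h : s59w_SqKill F x) (s : C) (k : ℕ) (hk : x ^ k * s = 0) : x * s = 0 := by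
  classical
  obtain ⟨P, hP, h0⟩ := h
  -- `X ∈ (X ^ k, P)`
  have hgcd := EuclideanDomain.gcd_eq_gcd_ab (X ^ k : F[X]) P
  obtain ⟨d, hd⟩ : ∃ d, d = EuclideanDomain.gcd (X ^ k : F[X]) P := ⟨_, rfl⟩
  rw [← hd] at hgcd
  have hd1 : d ∣ X ^ k := hd ▸ EuclideanDomain.gcd_dvd_left _ _
  have hd2 : d ∣ P := hd ▸ EuclideanDomain.gcd_dvd_right _ _
  obtain ⟨j, -, hj⟩ := (dvd_prime_pow (prime_X (R := F)) k).mp hd1
  have hj1 : j ≤ 1 := by
    by_contra hj2
    push Not at hj2
    have h2 : (X : F[X]) * X ∣ P := by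
      refine Dvd.dvd.trans ?_ (hj.symm.dvd.trans hd2)
      rw [← pow_two]
      exact pow_dvd_pow X hj2
    exact not_isUnit_X (hP X h2)
  have hdX : d ∣ X := by
    refine hj.dvd.trans ?_
    interval_cases j
    · rw [pow_zero]; exact one_dvd _
    · rw [pow_one]
  obtain ⟨c, hc⟩ := hdX
  -- evaluate
  have h1 : aeval x (X : F[X]) = aeval x (d * c) := by rw [← hc]
  rw [hgcd, aeval_X, map_mul, map_add, map_mul, map_mul, map_pow, aeval_X, h0, zero_mul,
    add_zero, mul_assoc, ← map_mul] at h1
  have hcomm : Commute (x ^ k) (aeval x (EuclideanDomain.gcdA (X ^ k) P * c)) :=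
    Algebra.commute_of_mem_adjoin_singleton_of_commute (aeval_mem_adjoin_singleton F x)
      ((Commute.refl x).pow_left k)
  rw [h1, hcomm.eq, mul_assoc, hk, mul_zero]

end Basic

/-! ### Extension of the base field -/

section Ext

variable {F F' : Type*} [Field F] [PerfectField F] [Field F'] [Algebra F F']
  {ι : Type*} [Fintype ι] [DecidableEq ι]

theorem s59w_mapMatrix_apply (M : Matrix ι ι F) :
    (Algebra.ofId F F').mapMatrix M = M.map (algebraMap F F') := rfl

/-- **(UP)** squarefree-killed over a perfect field `F` ⇒ squarefree-killed over `F' ⊇ F`. -/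
theorem s59w_sqKill_map (M : Matrix ι ι F) (h : s59w_SqKill F M) :
    s59w_SqKill F' (M.map (algebraMap F F')) := by
  obtain ⟨P, hP, h0⟩ := h
  refine ⟨P.map (algebraMap F F'), ?_, ?_⟩
  · exact ((PerfectField.separable_iff_squarefree.mpr hP).map).squarefree
  · have h1 := aeval_algHom_apply ((Algebra.ofId F F').mapMatrix (m := ι)) M P
    rw [s59w_mapMatrix_apply] at h1
    rw [aeval_map_algebraMap, h1, h0, map_zero]

/-- **(DOWN)** `M ⊗ F'` squarefree-killed over `F'` ⇒ `M` squarefree-killed over the perfect field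
`F` (Jordan–Chevalley over `F`). -/
theorem s59w_sqKill_of_map [PerfectField F'] (M : Matrix ι ι F)
    (h : s59w_SqKill F' (M.map (algebraMap F F'))) : s59w_SqKill F M := by
  obtain ⟨e, he⟩ : ∃ e : Matrix ι ι F ≃ₐ[F] Module.End F (ι → F), e = Matrix.toLinAlgEquiv' :=
    ⟨_, rfl⟩
  obtain ⟨n, hn, s, hs, hnil, hss, hsum⟩ :=
    Module.End.exists_isNilpotent_isSemisimple (K := F) (f := e M)
  obtain ⟨N, rfl⟩ := e.surjective n
  obtain ⟨S, rfl⟩ := e.surjective s
  have hM : M = N + S := e.injective (by rw [map_add]; exact hsum)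
  have hNnil : IsNilpotent N := by
    obtain ⟨k, hk⟩ := hnil
    exact ⟨k, e.injective (by rw [map_pow, hk, map_zero])⟩
  have hS : s59w_SqKill F S := by
    refine s59w_sqKill_of_algHom e.toAlgHom e.injective ?_
    exact (s59w_sqKill_iff_isSemisimple _).mpr hss
  have hcomm : Commute N S := by
    have h1 : Commute (e M) (e N) :=
      Algebra.commute_of_mem_adjoin_singleton_of_commute hn (Commute.refl _)
    have h2 : Commute (e N) (e S) :=
      Algebra.commute_of_mem_adjoin_singleton_of_commute hs h1.symm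
    have h3 : e (N * S) = e (S * N) := by rw [map_mul, map_mul]; exact h2
    exact e.injective h3
  -- over `F'`
  obtain ⟨g, hg⟩ : ∃ g : Matrix ι ι F →ₐ[F] Matrix ι ι F', g = (Algebra.ofId F F').mapMatrix :=
    ⟨_, rfl⟩
  have hgM : g M = M.map (algebraMap F F') := by rw [hg]; rfl
  have hginj : Function.Injective g := by
    rw [hg]
    intro A B hAB
    exact Matrix.map_injective (algebraMap F F').injective hAB
  have hS' : s59w_SqKill F' (g S) := by
    have := s59w_sqKill_map (F' := F') S hS
    rw [hg]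
    exact this
  have hM' : s59w_SqKill F' (g M) := by rw [hgM]; exact h
  have hN' : g N = g M - g S := by rw [hM, map_add, add_sub_cancel_right]
  have hcomm' : Commute (g M) (g S) := by
    have h1 : Commute M S := by
      rw [hM]
      exact (hcomm.add_left (Commute.refl S))
    have h2 : g (M * S) = g (S * M) := by rw [h1.eq]
    rw [map_mul, map_mul] at h2
    exact h2
  obtain ⟨e', he'⟩ : ∃ e' : Matrix ι ι F' ≃ₐ[F'] Module.End F' (ι → F'),
      e' = Matrix.toLinAlgEquiv' := ⟨_, rfl⟩
  have hssM : (e' (g M)).IsSemisimple :=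
    (s59w_sqKill_iff_isSemisimple _).mp (s59w_sqKill_algHom e'.toAlgHom hM')
  have hssS : (e' (g S)).IsSemisimple :=
    (s59w_sqKill_iff_isSemisimple _).mp (s59w_sqKill_algHom e'.toAlgHom hS')
  have hssN : (e' (g N)).IsSemisimple := by
    rw [hN', map_sub]
    refine Module.End.IsSemisimple.sub_of_commute ?_ hssM hssS
    have h3 : e' (g M * g S) = e' (g S * g M) := by rw [hcomm'.eq]
    rw [map_mul, map_mul] at h3
    exact h3
  have hnilN : IsNilpotent (e' (g N)) := by
    obtain ⟨k, hk⟩ := hNnil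
    exact ⟨k, by rw [← map_pow, ← map_pow, hk, map_zero, map_zero]⟩
  have h0 : e' (g N) = 0 := Module.End.eq_zero_of_isNilpotent_isSemisimple hnilN hssN
  have hN0 : N = 0 := by
    refine hginj ?_
    rw [map_zero]
    exact e'.injective (by rw [h0, map_zero])
  rw [hM, hN0, zero_add]
  exact hS

end Ext

/-! ### Algebras generated by commuting squarefree-killed matrices -/

section Adjoin

variable {F : Type*} [Field F] [PerfectField F] {ι : Type*} [Fintype ι] [DecidableEq ι]

theorem s59w_sqKill_adjoin (S : Set (Matrix ι ι F)) (hcomm : ∀ a ∈ S, ∀ b ∈ S, a * b = b * a)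
    (hss : ∀ a ∈ S, s59w_SqKill F a) {T : Matrix ι ι F} (hT : T ∈ Algebra.adjoin F S) :
    s59w_SqKill F T := by
  have hmc : IsMulCommutative (Algebra.adjoin F S) := Algebra.isMulCommutative_adjoin F hcomm
  have hc : ∀ x y : Matrix ι ι F, x ∈ Algebra.adjoin F S → y ∈ Algebra.adjoin F S →
      Commute (Matrix.toLin' x : Module.End F (ι → F)) (Matrix.toLin' y) := by
    intro x y hx hy
    have h1 : x * y = y * x :=
      congrArg Subtype.val (mul_comm' (⟨x, hx⟩ : Algebra.adjoin F S) ⟨y, hy⟩)
    show (Matrix.toLin' x : Module.End F (ι → F)) * Matrix.toLin' y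
      = Matrix.toLin' y * Matrix.toLin' x
    rw [Module.End.mul_eq_comp, Module.End.mul_eq_comp, ← Matrix.toLin'_mul, ← Matrix.toLin'_mul,
      h1]
  induction hT using Algebra.adjoin_induction with
  | mem x hx => exact hss x hx
  | algebraMap r =>
    refine ⟨X - C r, (irreducible_X_sub_C r).squarefree, ?_⟩
    rw [map_sub, aeval_X, aeval_C, sub_self]
  | add x y hx hy hx' hy' =>
    rw [s59w_sqKill_toLin'] at hx' hy' ⊢
    rw [map_add]
    exact Module.End.IsSemisimple.add_of_commute (hc x y hx hy) hx' hy'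
  | mul x y hx hy hx' hy' =>
    rw [s59w_sqKill_toLin'] at hx' hy' ⊢
    rw [Matrix.toLin'_mul, ← Module.End.mul_eq_comp]
    exact Module.End.IsSemisimple.mul_of_commute (hc x y hx hy) hx' hy'

end Adjoin

end Fermat.Agent.Lib.S59
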