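import Mathlib

set_option autoImplicit false
set_option linter.unusedSectionVars false

namespace Fermat.Agent.Lib.S59

open MeasureTheory Set Pointwise

section abstractFD

variable {A X : Type*} [Group A] [MulAction A X] [MeasurableSpace X] {μ : Measure X}
  [MeasurableConstSMul A X] [SMulInvariantMeasure A X μ]

/-- Coset lemma: if `H = ⊔ H₁ rᵢ` and `D` is a fundamental domain for `H`, then `⋃ rᵢ • D` is a
fundamental domain for `H₁`. -/
theorem s59q_fd_of_cosets {H H₁ : Subgroup A} {D : Set X}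
    (hD : IsFundamentalDomain H D μ) {I : Type*} [Countable I] (r : I → A) (hr : ∀ i, r i ∈ H)
    (hdec : ∀ h ∈ H, ∃ i, h * (r i)⁻¹ ∈ H₁) (huniq : ∀ i j, r i * (r j)⁻¹ ∈ H₁ → i = j)
    (hle : H₁ ≤ H) :
    IsFundamentalDomain H₁ (⋃ i, r i • D) μ := by
  refine IsFundamentalDomain.mk'' ?_ ?_ ?_ ?_
  · exact NullMeasurableSet.iUnion fun i => hD.nullMeasurableSet.smul (r i)
  · filter_upwards [hD.ae_covers] with x hx
    obtain ⟨g, hg⟩ := hx
    obtain ⟨i, hi⟩ := hdec (g : A)⁻¹ (H.inv_mem g.2)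
    refine ⟨⟨_, H₁.inv_mem hi⟩, mem_iUnion.2 ⟨i, ?_⟩⟩
    have : ((⟨_, H₁.inv_mem hi⟩ : H₁) • x) = r i • ((g : A) • x) := by
      rw [Subgroup.mk_smul, mul_inv_rev, inv_inv, inv_inv, mul_smul]
    rw [this]
    exact smul_mem_smul_set hg
  · intro g hg
    rw [smul_set_iUnion]
    refine (AEDisjoint.iUnion_left_iff).2 fun i => (AEDisjoint.iUnion_right_iff).2 fun j => ?_
    have h1 : (g : A) * r i ∈ H := H.mul_mem (hle g.2) (hr i)
    have hne : (⟨(g : A) * r i, h1⟩ : H) ≠ ⟨r j, hr j⟩ := by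
      intro heq
      have heq' : (g : A) * r i = r j := congrArg Subtype.val heq
      have hij : j = i := huniq j i (by
        rw [← heq', mul_inv_cancel_right]; exact g.2)
      subst hij
      apply hg
      apply Subtype.ext
      simpa using heq'
    have := hD.aedisjoint hne
    simp only [Function.onFun] at this
    have e1 : (⟨(g : A) * r i, h1⟩ : H) • D = g • r i • D := by
      show ((g : A) * r i) • D = (g : A) • r i • D
      rw [mul_smul]
    have e2 : (⟨r j, hr j⟩ : H) • D = r j • D := rfl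
    rwa [e1, e2] at this
  · intro g
    exact (measurePreserving_smul g μ).quasiMeasurePreserving

/-- Conjugation lemma: if `D` is a fundamental domain for `H` and `H' = a H a⁻¹`, then `a • D` is
a fundamental domain for `H'`. -/
theorem s59q_fd_conj {H H' : Subgroup A} (a : A) (hconj : ∀ h, h ∈ H' ↔ a⁻¹ * h * a ∈ H)
    {D : Set X} (hD : IsFundamentalDomain H D μ) : IsFundamentalDomain H' (a • D) μ := by
  let e : H' ≃ H :=
    { toFun := fun h => ⟨a⁻¹ * h * a, (hconj h).1 h.2⟩
      invFun := fun g => ⟨a * g * a⁻¹, (hconj _).2 (by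
        have : a⁻¹ * (a * (g : A) * a⁻¹) * a = g := by group
        rw [this]; exact g.2)⟩
      left_inv := fun h => by
        apply Subtype.ext
        show a * (a⁻¹ * (h : A) * a) * a⁻¹ = h
        group
      right_inv := fun g => by
        apply Subtype.ext
        show a⁻¹ * (a * (g : A) * a⁻¹) * a = g
        group }
  have := hD.image_of_equiv (ν := μ) (MulAction.toPerm a)
    (measurePreserving_smul a⁻¹ μ).quasiMeasurePreserving e (fun g x => by
      show a • ((a⁻¹ * (g : A) * a) • x) = (g : A) • (a • x)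
      rw [smul_smul, smul_smul]
      congr 1
      group)
  rwa [show (MulAction.toPerm a : X → X) '' D = a • D from rfl] at this

variable {E : Type*} [NormedAddCommGroup E] [NormedSpace ℝ E]

/-- Change of variables under the action of a group element. -/
theorem s59q_setIntegral_smul (a : A) (D : Set X) (K : X → E) :
    ∫ x in a • D, K x ∂μ = ∫ x in D, K (a • x) ∂μ := by
  have := (measurePreserving_smul a μ).setIntegral_preimage_emb
    (measurableEmbedding_const_smul a) K (a • D)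
  rw [← this, preimage_smul, inv_smul_smul]

/-- The integral over the union of translates is the sum of the translated integrals. -/
theorem s59q_integral_cosets {H H₁ : Subgroup A} {D : Set X}
    (hD : IsFundamentalDomain H D μ) {I : Type*} [Fintype I] (r : I → A) (hr : ∀ i, r i ∈ H)
    (huniq : ∀ i j, r i * (r j)⁻¹ ∈ H₁ → i = j)
    (K : X → E) (hint : IntegrableOn K (⋃ i, r i • D) μ) :
    ∫ x in ⋃ i, r i • D, K x ∂μ = ∑ i, ∫ x in D, K (r i • x) ∂μ := by
  rw [integral_iUnion_ae (fun i => hD.nullMeasurableSet.smul (r i)) ?_ hint, tsum_fintype]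
  · exact Finset.sum_congr rfl fun i _ => s59q_setIntegral_smul (r i) D K
  · intro i j hij
    have hne : (⟨r i, hr i⟩ : H) ≠ ⟨r j, hr j⟩ := by
      intro heq
      have heq' : r i = r j := congrArg Subtype.val heq
      exact hij (huniq i j (by rw [heq', mul_inv_cancel]; exact H₁.one_mem))
    exact hD.aedisjoint hne

/-- Finite unions of translates of a set of finite measure have finite measure. -/
theorem s59q_measure_iUnion_smul_ne_top {D : Set X} (hfin : μ D ≠ ⊤) {I : Type*} [Fintype I]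
    (r : I → A) : μ (⋃ i, r i • D) ≠ ⊤ := by
  refine ((measure_iUnion_le _).trans_lt ?_).ne
  rw [tsum_fintype]
  refine ENNReal.sum_lt_top.2 fun i _ => ?_
  rw [measure_smul]
  exact hfin.lt_top

/-- Bounded measurable functions are integrable on sets of finite measure. -/
theorem s59q_integrableOn_of_bounded {S : Set X} (hS : μ S ≠ ⊤) {K : X → E}
    (hKm : AEStronglyMeasurable K μ) {C : ℝ} (hKb : ∀ x, ‖K x‖ ≤ C) : IntegrableOn K S μ :=
  Measure.integrableOn_of_bounded hS hKm (Filter.Eventually.of_forall hKb)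

/-- The abstract unfolding identity behind the self-adjointness of Hecke operators. -/
theorem s59q_abstract_adjoint {H H₁ H₂ : Subgroup A} [Countable H] {D : Set X}
    (hD : IsFundamentalDomain H D μ) (hfin : μ D ≠ ⊤)
    (a : A) (hconj : ∀ h, h ∈ H₂ ↔ a⁻¹ * h * a ∈ H₁)
    {I J : Type*} [Fintype I] [Fintype J] (r : I → A) (s : J → A)
    (hr : ∀ i, r i ∈ H) (hrdec : ∀ h ∈ H, ∃ i, h * (r i)⁻¹ ∈ H₁)
    (hruniq : ∀ i j, r i * (r j)⁻¹ ∈ H₁ → i = j) (hle₁ : H₁ ≤ H)
    (hs : ∀ j, s j ∈ H) (hsdec : ∀ h ∈ H, ∃ j, h * (s j)⁻¹ ∈ H₂)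
    (hsuniq : ∀ i j, s i * (s j)⁻¹ ∈ H₂ → i = j) (hle₂ : H₂ ≤ H)
    (K : X → E) (hKinv : ∀ h ∈ H₁, ∀ x, K (h • x) = K x)
    (hKm : AEStronglyMeasurable K μ) {C : ℝ} (hKb : ∀ x, ‖K x‖ ≤ C) :
    ∑ i, ∫ x in D, K (r i • x) ∂μ = ∑ j, ∫ x in D, K (a⁻¹ • s j • x) ∂μ := by
  have : Countable H₂ := (Subgroup.inclusion_injective hle₂).countable
  have hD₁ := s59q_fd_of_cosets hD r hr hrdec hruniq hle₁
  have hD₂ := s59q_fd_of_cosets hD s hs hsdec hsuniq hle₂
  have hD₂' := s59q_fd_conj a hconj hD₁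
  set K' : X → E := fun x => K (a⁻¹ • x) with hK'
  have hK'm : AEStronglyMeasurable K' μ :=
    hKm.comp_quasiMeasurePreserving (measurePreserving_smul a⁻¹ μ).quasiMeasurePreserving
  have hK'b : ∀ x, ‖K' x‖ ≤ C := fun x => hKb _
  have hK'inv : ∀ (h : H₂) (x : X), K' (h • x) = K' x := by
    intro h x
    have h1 := hKinv _ ((hconj h).1 h.2) (a⁻¹ • x)
    show K (a⁻¹ • (h : A) • x) = K (a⁻¹ • x)
    rw [← h1, smul_smul, smul_smul]
    congr 2
    group
  calc ∑ i, ∫ x in D, K (r i • x) ∂μ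
      = ∫ x in ⋃ i, r i • D, K x ∂μ :=
        (s59q_integral_cosets hD r hr hruniq K (s59q_integrableOn_of_bounded
          (s59q_measure_iUnion_smul_ne_top hfin r) hKm hKb)).symm
    _ = ∫ x in a • ⋃ i, r i • D, K' x ∂μ := by
        rw [s59q_setIntegral_smul a _ K']
        simp only [hK', inv_smul_smul]
    _ = ∫ x in ⋃ j, s j • D, K' x ∂μ := hD₂'.setIntegral_eq hD₂ hK'inv
    _ = ∑ j, ∫ x in D, K' (s j • x) ∂μ :=
        s59q_integral_cosets hD s hs hsuniq K' (s59q_integrableOn_of_bounded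
          (s59q_measure_iUnion_smul_ne_top hfin s) hK'm hK'b)
    _ = ∑ j, ∫ x in D, K (a⁻¹ • s j • x) ∂μ := rfl

end abstractFD

end Fermat.Agent.Lib.S59
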