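import Mathlib

set_option autoImplicit false

namespace Fermat.Agent.Lib.S59

open MeasureTheory Set UpperHalfPlane
open scoped Modular NNReal ENNReal

/-- Nonempty open subsets of `ℍ` have positive hyperbolic measure. -/
theorem s59q_volume_pos_of_isOpen {U : Set ℍ} (hU : IsOpen U) (hne : U.Nonempty) :
    0 < (volume : Measure ℍ) U := by
  rw [volume_eq_lintegral]
  have hopen : IsOpen ((↑) '' U : Set ℂ) := isOpenEmbedding_coe.isOpenMap U hU
  have hpos : 0 < (volume : Measure ℂ) ((↑) '' U) := hopen.measure_pos volume (hne.image _)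
  rw [lintegral_pos_iff_support (by fun_prop)]
  refine lt_of_lt_of_le hpos ?_
  rw [Measure.restrict_apply' hopen.measurableSet]
  apply measure_mono
  rintro _ ⟨z, hz, rfl⟩
  refine ⟨?_, z, hz, rfl⟩
  simp [Function.mem_support, z.im_ne_zero]

/-- Sets whose image in `ℂ` is Lebesgue-null are null for the hyperbolic measure. -/
theorem s59q_volume_eq_zero_of_image {s : Set ℍ} (hs : (volume : Measure ℂ) ((↑) '' s) = 0) :
    (volume : Measure ℍ) s = 0 := by
  rw [volume_eq_lintegral]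
  exact setLIntegral_measure_zero _ _ hs

/-- Vertical lines in `ℂ` are Lebesgue-null. -/
theorem s59q_volume_re_eq (c : ℝ) : (volume : Measure ℂ) {z : ℂ | z.re = c} = 0 := by
  have h : {z : ℂ | z.re = c} = Complex.measurableEquivRealProd ⁻¹' ({c} ×ˢ univ) := by
    ext z
    simp [Complex.measurableEquivRealProd_apply]
  rw [h, Complex.volume_preserving_equiv_real_prod.measure_preimage
    ((measurableSet_singleton c).prod MeasurableSet.univ).nullMeasurableSet]
  rw [Measure.volume_eq_prod, Measure.prod_prod]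
  simp

/-- The boundary of the standard fundamental domain is null. -/
theorem s59q_volume_fd_diff_fdo : (volume : Measure ℍ) (𝒟 \ 𝒟ᵒ) = 0 := by
  apply s59q_volume_eq_zero_of_image
  refine measure_mono_null (t := Metric.sphere (0 : ℂ) 1 ∪ ({z : ℂ | z.re = 1 / 2} ∪
    {z : ℂ | z.re = -(1 / 2)})) ?_ ?_
  · rintro _ ⟨z, ⟨hz1, hz2⟩, rfl⟩
    by_contra hcon
    simp only [mem_union, mem_sphere_iff_norm, sub_zero, mem_ofPred_eq, not_or] at hcon
    obtain ⟨h1, h2, h3⟩ := hcon
    apply hz2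
    obtain ⟨hn, hre⟩ := hz1
    refine ⟨lt_of_le_of_ne hn ?_, lt_of_le_of_ne hre ?_⟩
    · intro heq
      apply h1
      rw [Complex.normSq_eq_norm_sq] at heq
      have h0 : (0 : ℝ) ≤ ‖(z : ℂ)‖ := norm_nonneg _
      nlinarith
    · intro heq
      rcases abs_eq (by norm_num : (0:ℝ) ≤ 1/2) |>.1 heq with h | h
      · exact h2 h
      · exact h3 h
  · rw [measure_union_null_iff, measure_union_null_iff]
    exact ⟨Measure.addHaar_sphere _ _ _, s59q_volume_re_eq _, s59q_volume_re_eq _⟩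

theorem s59q_lintegral_Ioi_inv_sq_lt_top :
    ∫⁻ y in Ioi (1 / 2 : ℝ), (((1 / ‖y‖₊) ^ 2 : ℝ≥0) : ℝ≥0∞) < ⊤ := by
  have h := (integrableOn_Ioi_rpow_of_lt (by norm_num : (-2 : ℝ) < -1)
    (by norm_num : (0 : ℝ) < 1 / 2)).2
  rw [HasFiniteIntegral] at h
  refine lt_of_le_of_lt (le_of_eq ?_) h
  refine setLIntegral_congr_fun measurableSet_Ioi fun y hy => ?_
  have hy0 : (0 : ℝ) < y := lt_trans (by norm_num) hy
  rw [enorm_eq_nnnorm]
  congr 1
  ext
  simp only [NNReal.coe_pow, NNReal.coe_div, NNReal.coe_one, coe_nnnorm, Real.norm_eq_abs,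
    abs_of_pos hy0]
  rw [abs_of_pos (Real.rpow_pos_of_pos hy0 _), Real.rpow_neg hy0.le, Real.rpow_two]
  field_simp

theorem s59q_volume_fd_ne_top : (volume : Measure ℍ) 𝒟 ≠ ⊤ := by
  rw [volume_eq_lintegral]
  have hsub : ((↑) '' 𝒟 : Set ℂ) ⊆
      Complex.measurableEquivRealProd ⁻¹' (Icc (-(1 / 2) : ℝ) (1 / 2) ×ˢ Ioi (1 / 2 : ℝ)) := by
    rintro _ ⟨z, hz, rfl⟩
    have h3 := ModularGroup.three_le_four_mul_im_sq_of_mem_fd hz
    have him : 0 < z.im := z.im_pos
    refine ⟨abs_le.1 hz.2, ?_⟩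
    show (1 / 2 : ℝ) < z.im
    nlinarith
  refine ((lintegral_mono_set hsub).trans_lt ?_).ne
  have := Complex.volume_preserving_equiv_real_prod.setLIntegral_comp_preimage_emb
    Complex.measurableEquivRealProd.measurableEmbedding
    (fun p : ℝ × ℝ => (((1 / ‖p.2‖₊) ^ 2 : ℝ≥0) : ℝ≥0∞))
    (Icc (-(1 / 2) : ℝ) (1 / 2) ×ˢ Ioi (1 / 2 : ℝ))
  simp only [Complex.measurableEquivRealProd_apply] at this
  rw [this, Measure.volume_eq_prod, ← Measure.prod_restrict, lintegral_prod _ (by fun_prop)]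
  simp only [lintegral_const, Measure.restrict_apply_univ, Real.volume_Icc]
  exact ENNReal.mul_lt_top s59q_lintegral_Ioi_inv_sq_lt_top ENNReal.ofReal_lt_top

end Fermat.Agent.Lib.S59
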