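import Mathlib
import Fermat.Agent.Lib.S59.QFD
import Fermat.Agent.Lib.S59.QMeasure

set_option autoImplicit false

noncomputable section

namespace Fermat.Agent.Lib.S59

open MeasureTheory Set UpperHalfPlane Matrix.SpecialLinearGroup
open scoped Modular MatrixGroups Pointwise

/-- The image of `GL₂(ℝ)` in the permutations of `ℍ`. -/
def s59q_A : Subgroup (Equiv.Perm ℍ) := (MulAction.toPermHom (GL (Fin 2) ℝ) ℍ).range

/-- The projection from `GL₂(ℝ)`. -/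
def s59q_φ : GL (Fin 2) ℝ →* s59q_A := (MulAction.toPermHom (GL (Fin 2) ℝ) ℍ).rangeRestrict

theorem s59q_φ_smul (g : GL (Fin 2) ℝ) (τ : ℍ) : s59q_φ g • τ = g • τ := rfl

theorem s59q_φ_surj : Function.Surjective s59q_φ := MonoidHom.rangeRestrict_surjective _

instance s59q_instMeasurableConstSMul : MeasurableConstSMul s59q_A ℍ := ⟨fun a => by
  obtain ⟨g, rfl⟩ := s59q_φ_surj a
  exact measurable_const_smul g⟩

instance s59q_instSMulInvariantMeasure : SMulInvariantMeasure s59q_A ℍ volume := ⟨fun a s hs => by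
  obtain ⟨g, rfl⟩ := s59q_φ_surj a
  exact measure_preimage_smul volume g s⟩

/-- The projection from `SL₂(ℤ)`. -/
def s59q_ψ : SL(2, ℤ) →* s59q_A := s59q_φ.comp (mapGL ℝ)

theorem s59q_ψ_smul (g : SL(2, ℤ)) (τ : ℍ) : s59q_ψ g • τ = g • τ := rfl

theorem s59q_two_I_mem_fdo : (⟨2 * Complex.I, by simp⟩ : ℍ) ∈ 𝒟ᵒ := by
  constructor
  · simp [Complex.normSq_apply]; norm_num
  · simp [UpperHalfPlane.re]

theorem s59q_ψ_eq_one_iff (g : SL(2, ℤ)) : s59q_ψ g = 1 ↔ g = 1 ∨ g = -1 := by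
  constructor
  · intro h
    have h2 : g • (⟨2 * Complex.I, by simp⟩ : ℍ) = ⟨2 * Complex.I, by simp⟩ := by
      rw [← s59q_ψ_smul, h, one_smul]
    exact ModularGroup.eq_one_or_neg_one_of_mem_fdo_mem_fd s59q_two_I_mem_fdo
      (h2.symm ▸ ModularGroup.fdo_subset_fd s59q_two_I_mem_fdo)
  · rintro (rfl | rfl)
    · exact map_one _
    · apply Subtype.ext
      apply Equiv.ext
      intro τ
      show (-1 : SL(2, ℤ)) • τ = τ
      rw [ModularGroup.SL_neg_smul, one_smul]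

/-- The image of a subgroup of `SL₂(ℤ)`. -/
def s59q_bar (Γ : Subgroup SL(2, ℤ)) : Subgroup s59q_A := Γ.map s59q_ψ

instance s59q_instCountableSL : Countable SL(2, ℤ) :=
  haveI : Countable (Matrix (Fin 2) (Fin 2) ℤ) := inferInstanceAs (Countable (Fin 2 → Fin 2 → ℤ))
  Function.Injective.countable (f := fun g : SL(2, ℤ) => (g : Matrix (Fin 2) (Fin 2) ℤ))
    Subtype.val_injective

instance s59q_instCountableBar (Γ : Subgroup SL(2, ℤ)) : Countable (s59q_bar Γ) := by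
  have h : (Γ : Set SL(2, ℤ)).Countable := Set.to_countable _
  exact (h.image s59q_ψ).to_subtype

theorem s59q_mem_bar_of_mem {Γ : Subgroup SL(2, ℤ)} {γ : SL(2, ℤ)} (h : γ ∈ Γ) :
    s59q_ψ γ ∈ s59q_bar Γ := Subgroup.mem_map_of_mem _ h

theorem s59q_mem_bar {Γ : Subgroup SL(2, ℤ)} (hneg : -1 ∈ Γ) {γ : SL(2, ℤ)} :
    s59q_ψ γ ∈ s59q_bar Γ ↔ γ ∈ Γ := by
  refine ⟨fun h => ?_, s59q_mem_bar_of_mem⟩
  obtain ⟨g, hg, hgγ⟩ := Subgroup.mem_map.1 h
  have h1 : s59q_ψ (g⁻¹ * γ) = 1 := by rw [map_mul, map_inv, hgγ, inv_mul_cancel]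
  rcases (s59q_ψ_eq_one_iff _).1 h1 with h2 | h2
  · rw [inv_mul_eq_one] at h2
    exact h2 ▸ hg
  · have : γ = g * -1 := by rw [← h2, mul_inv_cancel_left]
    rw [this]
    exact Γ.mul_mem hg hneg

theorem s59q_bar_mono {Γ Γ' : Subgroup SL(2, ℤ)} (h : Γ' ≤ Γ) : s59q_bar Γ' ≤ s59q_bar Γ :=
  Subgroup.map_mono h

/-- The standard fundamental domain is a fundamental domain for `PSL₂(ℤ)`. -/
theorem s59q_isFundamentalDomain_fd :
    IsFundamentalDomain (s59q_bar ⊤) 𝒟 (volume : Measure ℍ) := by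
  refine IsFundamentalDomain.mk'' ModularGroup.isClosed_fd.measurableSet.nullMeasurableSet ?_ ?_ ?_
  · refine Filter.Eventually.of_forall fun x => ?_
    obtain ⟨g, hg⟩ := ModularGroup.exists_smul_mem_fd x
    exact ⟨⟨s59q_ψ g, s59q_mem_bar_of_mem (Subgroup.mem_top g)⟩, hg⟩
  · rintro ⟨a, ha⟩ hne
    obtain ⟨g, -, rfl⟩ := Subgroup.mem_map.1 ha
    have hsub : ((⟨s59q_ψ g, ha⟩ : s59q_bar ⊤) • 𝒟) ∩ 𝒟 ⊆ s59q_ψ g • (𝒟 \ 𝒟ᵒ) := by
      rintro x ⟨⟨w, hw, rfl⟩, hx⟩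
      refine ⟨w, ⟨hw, fun hwo => hne ?_⟩, rfl⟩
      have h1 : g • w ∈ 𝒟 := hx
      have h2 := ModularGroup.eq_one_or_neg_one_of_mem_fdo_mem_fd hwo h1
      apply Subtype.ext
      exact (s59q_ψ_eq_one_iff g).2 h2
    refine measure_mono_null hsub ?_
    rw [measure_smul]
    exact s59q_volume_fd_diff_fdo
  · intro g
    exact (measurePreserving_smul g volume).quasiMeasurePreserving

/-- Finite-index subgroups of `SL₂(ℤ)` containing `-1` have fundamental domains of finite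
measure. -/
theorem s59q_exists_fd (Γ : Subgroup SL(2, ℤ)) [Γ.FiniteIndex] (hneg : -1 ∈ Γ) :
    ∃ D : Set ℍ, IsFundamentalDomain (s59q_bar Γ) D (volume : Measure ℍ) ∧
      (volume : Measure ℍ) D ≠ ⊤ := by
  let _ : Fintype (SL(2, ℤ) ⧸ Γ) := Subgroup.fintypeQuotientOfFiniteIndex
  let r : SL(2, ℤ) ⧸ Γ → s59q_A := fun i => s59q_ψ (Quotient.out i)⁻¹
  refine ⟨⋃ i, r i • 𝒟, ?_, s59q_measure_iUnion_smul_ne_top s59q_volume_fd_ne_top r⟩
  refine s59q_fd_of_cosets s59q_isFundamentalDomain_fd r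
    (fun i => s59q_mem_bar_of_mem (Subgroup.mem_top _)) ?_ ?_ (s59q_bar_mono le_top)
  · intro h hh
    obtain ⟨γ, -, rfl⟩ := Subgroup.mem_map.1 hh
    obtain ⟨g₀, hg₀⟩ := QuotientGroup.mk_out_eq_mul Γ γ⁻¹
    refine ⟨(γ⁻¹ : SL(2, ℤ)), ?_⟩
    show s59q_ψ γ * (s59q_ψ (Quotient.out ((γ⁻¹ : SL(2, ℤ)) : SL(2, ℤ) ⧸ Γ))⁻¹)⁻¹ ∈ s59q_bar Γ
    rw [map_inv, inv_inv, ← map_mul, hg₀, mul_inv_cancel_left]
    exact s59q_mem_bar_of_mem g₀.2
  · intro i j hij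
    have h1 : s59q_ψ ((Quotient.out i)⁻¹ * Quotient.out j) ∈ s59q_bar Γ := by
      have : r i * (r j)⁻¹ = s59q_ψ ((Quotient.out i)⁻¹ * Quotient.out j) := by
        simp only [r, map_inv, inv_inv, map_mul]
      rwa [this] at hij
    rw [s59q_mem_bar hneg] at h1
    have h2 : ((Quotient.out i : SL(2, ℤ)) : SL(2, ℤ) ⧸ Γ) = (Quotient.out j : SL(2, ℤ)) :=
      QuotientGroup.eq.2 h1
    rwa [QuotientGroup.out_eq', QuotientGroup.out_eq'] at h2

end Fermat.Agent.Lib.S59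

end
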