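import Mathlib
import Fermat.Agent.Lib.S59.QBase

set_option autoImplicit false
set_option linter.unusedSectionVars false

noncomputable section

namespace Fermat.Agent.Lib.S59

open MeasureTheory Set UpperHalfPlane Matrix.SpecialLinearGroup CongruenceSubgroup
open scoped Modular MatrixGroups Pointwise ModularForm ComplexConjugate

theorem s59q_neg_one_mem_Gamma0 (N : ℕ) : (-1 : SL(2, ℤ)) ∈ Gamma0 N := by
  simp [Gamma0_mem]

/-- Pointwise Cauchy–Schwarz for the Petersson integrand (an equality). -/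
theorem s59q_petersson_norm_sq (k : ℤ) (h₁ h₂ : ℍ → ℂ) (τ : ℍ) :
    ‖petersson k h₁ h₂ τ‖ ^ 2 = ‖petersson k h₁ h₁ τ‖ * ‖petersson k h₂ h₂ τ‖ := by
  simp only [petersson, norm_mul, Complex.norm_conj, norm_zpow]
  ring

theorem s59q_petersson_bounded_of {k : ℤ} {h₁ h₂ : ℍ → ℂ} {C₁ C₂ : ℝ}
    (b₁ : ∀ τ, ‖petersson k h₁ h₁ τ‖ ≤ C₁) (b₂ : ∀ τ, ‖petersson k h₂ h₂ τ‖ ≤ C₂) (τ : ℍ) :
    ‖petersson k h₁ h₂ τ‖ ≤ Real.sqrt (C₁ * C₂) := by
  apply Real.le_sqrt_of_sq_le
  rw [s59q_petersson_norm_sq]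
  exact mul_le_mul (b₁ τ) (b₂ τ) (norm_nonneg _) ((norm_nonneg _).trans (b₁ τ))

variable {N : ℕ} [NeZero N]

/-- Slash-translates of weight two cusp forms have bounded Petersson norm. -/
theorem s59q_petersson_slash_self_bounded (f : CuspForm (Gamma0 N) 2) (α : GL (Fin 2) ℝ) :
    ∃ C, ∀ τ, ‖petersson 2 (⇑f ∣[(2 : ℤ)] α) (⇑f ∣[(2 : ℤ)] α) τ‖ ≤ C := by
  obtain ⟨C, hC⟩ := CuspFormClass.petersson_bounded_left 2
    ((Gamma0 N : Subgroup SL(2, ℤ)) : Subgroup (GL (Fin 2) ℝ)) f f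
  refine ⟨C, fun τ => ?_⟩
  rw [petersson_slash]
  simpa [norm_σ] using hC (α • τ)

/-- The mixed kernel is bounded. -/
theorem s59q_petersson_slash_bounded (f g : CuspForm (Gamma0 N) 2) (α β : GL (Fin 2) ℝ) :
    ∃ C, ∀ τ, ‖petersson 2 (⇑f ∣[(2 : ℤ)] α) (⇑g ∣[(2 : ℤ)] β) τ‖ ≤ C := by
  obtain ⟨C₁, h₁⟩ := s59q_petersson_slash_self_bounded f α
  obtain ⟨C₂, h₂⟩ := s59q_petersson_slash_self_bounded g β
  exact ⟨_, s59q_petersson_bounded_of h₁ h₂⟩

theorem s59q_continuous_slash (f : CuspForm (Gamma0 N) 2) (α : GL (Fin 2) ℝ) :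
    Continuous (⇑f ∣[(2 : ℤ)] α) :=
  (MDifferentiable.slash (CuspFormClass.holo f) 2 α).continuous

theorem s59q_continuous_petersson_slash (f g : CuspForm (Gamma0 N) 2) (α β : GL (Fin 2) ℝ) :
    Continuous (petersson 2 (⇑f ∣[(2 : ℤ)] α) (⇑g ∣[(2 : ℤ)] β)) :=
  petersson_continuous 2 (s59q_continuous_slash f α) (s59q_continuous_slash g β)

/-- The mixed kernel is integrable on sets of finite measure. -/
theorem s59q_integrableOn_petersson_slash (f g : CuspForm (Gamma0 N) 2) (α β : GL (Fin 2) ℝ)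
    {S : Set ℍ} (hS : (volume : Measure ℍ) S ≠ ⊤) :
    IntegrableOn (petersson 2 (⇑f ∣[(2 : ℤ)] α) (⇑g ∣[(2 : ℤ)] β)) S volume := by
  obtain ⟨C, hC⟩ := s59q_petersson_slash_bounded f g α β
  exact s59q_integrableOn_of_bounded hS
    (s59q_continuous_petersson_slash f g α β).aestronglyMeasurable hC

theorem s59q_integrableOn_petersson (f g : CuspForm (Gamma0 N) 2)
    {S : Set ℍ} (hS : (volume : Measure ℍ) S ≠ ⊤) :
    IntegrableOn (petersson 2 ⇑f ⇑g) S volume := by
  simpa using s59q_integrableOn_petersson_slash f g 1 1 hS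

variable (N)

/-- A chosen fundamental domain of finite measure for `Γ₀(N)`. -/
def s59q_D : Set ℍ := Classical.choose (s59q_exists_fd (Gamma0 N) (s59q_neg_one_mem_Gamma0 N))

theorem s59q_D_isFD : IsFundamentalDomain (s59q_bar (Gamma0 N)) (s59q_D N) (volume : Measure ℍ) :=
  (Classical.choose_spec (s59q_exists_fd (Gamma0 N) (s59q_neg_one_mem_Gamma0 N))).1

theorem s59q_D_ne_top : (volume : Measure ℍ) (s59q_D N) ≠ ⊤ :=
  (Classical.choose_spec (s59q_exists_fd (Gamma0 N) (s59q_neg_one_mem_Gamma0 N))).2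

variable {N}

/-- The Petersson product on `S₂(Γ₀(N))`. -/
def s59q_pet (f g : CuspForm (Gamma0 N) 2) : ℂ := ∫ τ in s59q_D N, petersson 2 ⇑f ⇑g τ

theorem s59q_pet_add_left (f₁ f₂ g : CuspForm (Gamma0 N) 2) :
    s59q_pet (f₁ + f₂) g = s59q_pet f₁ g + s59q_pet f₂ g := by
  unfold s59q_pet
  rw [← integral_add (s59q_integrableOn_petersson f₁ g (s59q_D_ne_top N))
    (s59q_integrableOn_petersson f₂ g (s59q_D_ne_top N))]
  refine integral_congr_ae (Filter.Eventually.of_forall fun τ => ?_)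
  simp only [petersson, FunLike.coe_add, Pi.add_apply, map_add]
  ring

theorem s59q_pet_add_right (f g₁ g₂ : CuspForm (Gamma0 N) 2) :
    s59q_pet f (g₁ + g₂) = s59q_pet f g₁ + s59q_pet f g₂ := by
  unfold s59q_pet
  rw [← integral_add (s59q_integrableOn_petersson f g₁ (s59q_D_ne_top N))
    (s59q_integrableOn_petersson f g₂ (s59q_D_ne_top N))]
  refine integral_congr_ae (Filter.Eventually.of_forall fun τ => ?_)
  simp only [petersson, FunLike.coe_add, Pi.add_apply]
  ring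

/-- Functions invariant under a subgroup of `SL₂(ℤ)` are invariant under its image. -/
theorem s59q_invariant_bar {E : Type*} {Γ : Subgroup SL(2, ℤ)} {F : ℍ → E}
    (hF : ∀ γ ∈ Γ, ∀ τ, F (γ • τ) = F τ) (h : s59q_A) (hh : h ∈ s59q_bar Γ) (τ : ℍ) :
    F (h • τ) = F τ := by
  obtain ⟨γ, hγ, rfl⟩ := Subgroup.mem_map.1 hh
  exact hF γ hγ τ

theorem s59q_petersson_smul (f g : CuspForm (Gamma0 N) 2) (γ : SL(2, ℤ)) (hγ : γ ∈ Gamma0 N)
    (τ : ℍ) : petersson 2 ⇑f ⇑g (γ • τ) = petersson 2 ⇑f ⇑g τ :=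
  SlashInvariantFormClass.petersson_smul
    (Γ := ((Gamma0 N : Subgroup SL(2, ℤ)) : Subgroup (GL (Fin 2) ℝ)))
    (Subgroup.mem_map_of_mem _ hγ)

/-- Positive definiteness of the Petersson product. -/
theorem s59q_pet_self_eq_zero (f : CuspForm (Gamma0 N) 2) (h : s59q_pet f f = 0) : f = 0 := by
  set F : ℍ → ℝ := fun τ => Complex.normSq (f τ) * τ.im ^ 2 with hF
  have hpF : ∀ τ, petersson 2 ⇑f ⇑f τ = (F τ : ℂ) := by
    intro τ
    simp only [petersson, hF, Complex.ofReal_mul, Complex.ofReal_pow,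
      Complex.normSq_eq_conj_mul_self]
    norm_cast
  have hFc : Continuous F := by
    have : Continuous (⇑f) := (CuspFormClass.holo f).continuous
    fun_prop
  have hF0 : ∀ τ, 0 ≤ F τ := fun τ => mul_nonneg (Complex.normSq_nonneg _) (sq_nonneg _)
  have hint : IntegrableOn F (s59q_D N) volume := by
    have := (s59q_integrableOn_petersson f f (s59q_D_ne_top N)).re
    refine this.congr (Filter.Eventually.of_forall fun τ => ?_)
    simp [hpF]
  have hzero : ∫ τ in s59q_D N, F τ = 0 := by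
    have h1 : s59q_pet f f = ((∫ τ in s59q_D N, F τ : ℝ) : ℂ) := by
      unfold s59q_pet
      rw [← integral_complex_ofReal]
      exact integral_congr_ae (Filter.Eventually.of_forall hpF)
    rw [h1] at h
    exact_mod_cast h
  have hae : F =ᵐ[volume.restrict (s59q_D N)] 0 :=
    (integral_eq_zero_iff_of_nonneg hF0 hint).1 hzero
  set t : Set ℍ := {τ | F τ ≠ 0} with ht
  have hFinv : ∀ γ ∈ Gamma0 N, ∀ τ, F (γ • τ) = F τ := by
    intro γ hγ τ
    have := s59q_petersson_smul f f γ hγ τ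
    rw [hpF, hpF] at this
    exact_mod_cast this
  have htinv : ∀ g : s59q_bar (Gamma0 N), g • t = t := by
    intro g
    ext τ
    rw [mem_smul_set_iff_inv_smul_mem]
    have := s59q_invariant_bar hFinv (g⁻¹ : s59q_bar (Gamma0 N)) (g⁻¹).2 τ
    simp only [ht, mem_ofPred_eq]
    rw [← this]
    rfl
  have hts : (volume : Measure ℍ) (t ∩ s59q_D N) = 0 := by
    have h1 := ae_iff.1 hae
    rwa [Measure.restrict_apply₀' (s59q_D_isFD N).nullMeasurableSet] at h1
  have htnull : (volume : Measure ℍ) t = 0 :=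
    (s59q_D_isFD N).measure_zero_of_invariant t htinv hts
  have htopen : IsOpen t := isOpen_ne_fun hFc continuous_const
  have htempty : t = ∅ := by
    by_contra hne
    exact (s59q_volume_pos_of_isOpen htopen (nonempty_iff_ne_empty.2 hne)).ne' htnull
  ext τ
  have : τ ∉ t := by rw [htempty]; exact notMem_empty τ
  simp only [ht, mem_ofPred_eq, not_not, hF, mul_eq_zero, Complex.normSq_eq_zero] at this
  rcases this with h0 | h0
  · simpa using h0
  · exact absurd h0 (pow_ne_zero 2 τ.im_ne_zero)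

end Fermat.Agent.Lib.S59

end
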