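import Mathlib
import Fermat.Agent.Lib.ES.HeckeCosets
import Fermat.Agent.Lib.S59.QPet

set_option autoImplicit false
set_option linter.unusedSectionVars false

noncomputable section

namespace Fermat.Agent.Lib.S59

open MeasureTheory Set UpperHalfPlane Matrix.SpecialLinearGroup CongruenceSubgroup ModularForm
open P2MW.S_ModularForm_heckeT_slash_eq_self_of_mem_Gamma0.ModularForm.HeckeSlashInvariance
open scoped Modular MatrixGroups Pointwise ModularForm ComplexConjugate OnePoint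

variable {p : ℕ} [Fact p.Prime]

theorem s59q_redMatrix_mul (g h : SL(2, ℤ)) :
    redMatrix p (g * h) = redMatrix p h * redMatrix p g := by
  apply Units.ext
  ext i j
  fin_cases i <;> fin_cases j <;>
    simp [redMatrix, Matrix.mul_apply, Fin.sum_univ_two] <;> ring

theorem s59q_redMatrix_one : redMatrix p (1 : SL(2, ℤ)) = 1 := by
  apply Units.ext
  ext i j
  fin_cases i <;> fin_cases j <;> simp [redMatrix]

variable (p) in
/-- The right action of `SL₂(ℤ)` on `ℙ¹(𝔽_p)` permuting the Hecke representatives. -/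
def s59q_act (γ : SL(2, ℤ)) (x : OnePoint (ZMod p)) : OnePoint (ZMod p) := redMatrix p γ • x

theorem s59q_act_mul (g h : SL(2, ℤ)) (x : OnePoint (ZMod p)) :
    s59q_act p (g * h) x = s59q_act p h (s59q_act p g x) := by
  simp only [s59q_act, s59q_redMatrix_mul, mul_smul]

theorem s59q_act_one (x : OnePoint (ZMod p)) : s59q_act p 1 x = x := by
  simp only [s59q_act, s59q_redMatrix_one, one_smul]

theorem s59q_act_inv_act (g : SL(2, ℤ)) (x : OnePoint (ZMod p)) :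
    s59q_act p g⁻¹ (s59q_act p g x) = x := by
  rw [← s59q_act_mul, mul_inv_cancel, s59q_act_one]

theorem s59q_act_act_inv (g : SL(2, ℤ)) (x : OnePoint (ZMod p)) :
    s59q_act p g (s59q_act p g⁻¹ x) = x := by
  rw [← s59q_act_mul, inv_mul_cancel, s59q_act_one]

theorem s59q_act_neg_one (x : OnePoint (ZMod p)) : s59q_act p (-1) x = x := by
  induction x using OnePoint.rec with
  | infty => simp [s59q_act, OnePoint.smul_infty_eq_ite]
  | coe j => simp [s59q_act, OnePoint.smul_some_eq_ite]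

variable {N : ℕ} [NeZero N]

theorem s59q_dvd_of_mem_Gamma0 {γ : SL(2, ℤ)} (hγ : γ ∈ Gamma0 N) : (N : ℤ) ∣ γ 1 0 :=
  (ZMod.intCast_zmod_eq_zero_iff_dvd _ _).mp (Gamma0_mem.mp hγ)

theorem s59q_mem_Gamma0_of_dvd {γ : SL(2, ℤ)} (h : (N : ℤ) ∣ γ 1 0) : γ ∈ Gamma0 N :=
  Gamma0_mem.mpr ((ZMod.intCast_zmod_eq_zero_iff_dvd _ _).mpr h)

/-- The Hecke representatives are permuted by `Γ₀(N)` under the slash action. -/
theorem s59q_slash_heckeRep_slash (hpN : ¬ p ∣ N) {k : ℤ} (f : CuspForm (Gamma0 N) k)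
    (γ : SL(2, ℤ)) (hγ : γ ∈ Gamma0 N) (x : OnePoint (ZMod p)) :
    (⇑f ∣[k] heckeRep p x) ∣[k] (mapGL ℝ γ) = ⇑f ∣[k] heckeRep p (s59q_act p γ x) := by
  obtain ⟨g', hg', hmul⟩ := heckeRep_mul hpN γ (s59q_dvd_of_mem_Gamma0 hγ) x
  rw [← SlashAction.slash_mul, hmul, SlashAction.slash_mul,
    SlashInvariantFormClass.slash_action_eq f _
      (Subgroup.mem_map_of_mem (mapGL ℝ) (s59q_mem_Gamma0_of_dvd hg'))]
  rfl

/-- An element of `Γ₀(N)` moving `∞` to `0`. -/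
theorem s59q_exists_eta (hpN : ¬ p ∣ N) :
    ∃ w : SL(2, ℤ), w ∈ Gamma0 N ∧ s59q_act p w ∞ = ((0 : ZMod p) : OnePoint (ZMod p)) := by
  have hcop : IsCoprime (p : ℤ) (N : ℤ) :=
    Nat.isCoprime_iff_coprime.mpr ((Nat.Prime.coprime_iff_not_dvd Fact.out).mpr hpN)
  obtain ⟨a, b, hab⟩ := hcop
  have hdet : (!![a, -b; (N : ℤ), (p : ℤ)] : Matrix (Fin 2) (Fin 2) ℤ).det = 1 := by
    rw [Matrix.det_fin_two_of]
    linear_combination hab
  let w : SL(2, ℤ) := ⟨!![a, -b; (N : ℤ), (p : ℤ)], hdet⟩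
  have h10 : w 1 0 = (N : ℤ) := rfl
  have h11 : w 1 1 = (p : ℤ) := rfl
  refine ⟨w, ?_, ?_⟩
  · apply s59q_mem_Gamma0_of_dvd
    rw [h10]
  · have hN : ((N : ℤ) : ZMod p) ≠ 0 := by
      rw [Ne, ZMod.intCast_zmod_eq_zero_iff_dvd]
      exact_mod_cast hpN
    rw [s59q_act, OnePoint.smul_infty_eq_ite, redMatrix_apply_one_zero, redMatrix_apply_zero_zero,
      h10, h11, if_neg hN]
    simp

/-- The translation matrices. -/
def s59q_T (p : ℕ) (j : ZMod p) : SL(2, ℤ) :=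
  ⟨!![1, (j.val : ℤ); 0, 1], by simp [Matrix.det_fin_two_of]⟩

theorem s59q_T_mem (j : ZMod p) : s59q_T p j ∈ Gamma0 N := by
  apply s59q_mem_Gamma0_of_dvd
  simp [s59q_T]

theorem s59q_act_T (j : ZMod p) :
    s59q_act p (s59q_T p j) ((0 : ZMod p) : OnePoint (ZMod p)) = (j : OnePoint (ZMod p)) := by
  have h00 : s59q_T p j 0 0 = 1 := rfl
  have h01 : s59q_T p j 0 1 = (j.val : ℤ) := rfl
  have h10 : s59q_T p j 1 0 = 0 := rfl
  have h11 : s59q_T p j 1 1 = 1 := rfl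
  rw [s59q_act, OnePoint.smul_some_eq_ite, redMatrix_apply_zero_zero, redMatrix_apply_zero_one,
    redMatrix_apply_one_zero, redMatrix_apply_one_one, h00, h01, h10, h11]
  simp

/-- Coset representatives of the stabiliser of `∞`. -/
def s59q_r (w : SL(2, ℤ)) (x : OnePoint (ZMod p)) : SL(2, ℤ) :=
  x.elim 1 (fun j => w * s59q_T p j)

/-- Coset representatives of the stabiliser of `0`. -/
def s59q_s (w : SL(2, ℤ)) (x : OnePoint (ZMod p)) : SL(2, ℤ) :=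
  x.elim w⁻¹ (fun j => s59q_T p j)

theorem s59q_r_mem {w : SL(2, ℤ)} (hw : w ∈ Gamma0 N) (x : OnePoint (ZMod p)) :
    s59q_r w x ∈ Gamma0 N := by
  induction x using OnePoint.rec with
  | infty => exact (Gamma0 N).one_mem
  | coe j => exact (Gamma0 N).mul_mem hw (s59q_T_mem j)

theorem s59q_s_mem {w : SL(2, ℤ)} (hw : w ∈ Gamma0 N) (x : OnePoint (ZMod p)) :
    s59q_s w x ∈ Gamma0 N := by
  induction x using OnePoint.rec with
  | infty => exact (Gamma0 N).inv_mem hw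
  | coe j => exact s59q_T_mem j

theorem s59q_act_r {w : SL(2, ℤ)}
    (hw0 : s59q_act p w ∞ = ((0 : ZMod p) : OnePoint (ZMod p))) (x : OnePoint (ZMod p)) :
    s59q_act p (s59q_r w x) ∞ = x := by
  induction x using OnePoint.rec with
  | infty => exact s59q_act_one _
  | coe j =>
    show s59q_act p (w * s59q_T p j) ∞ = _
    rw [s59q_act_mul, hw0, s59q_act_T]

theorem s59q_act_s {w : SL(2, ℤ)}
    (hw0 : s59q_act p w ∞ = ((0 : ZMod p) : OnePoint (ZMod p))) (x : OnePoint (ZMod p)) :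
    s59q_act p (s59q_s w x) ((0 : ZMod p) : OnePoint (ZMod p)) = x := by
  induction x using OnePoint.rec with
  | infty =>
    show s59q_act p w⁻¹ _ = _
    rw [← hw0, s59q_act_inv_act]
  | coe j => exact s59q_act_T j

variable (N) in
/-- The stabiliser in `Γ₀(N)` of a point of `ℙ¹(𝔽_p)`. -/
def s59q_stab (x₀ : OnePoint (ZMod p)) : Subgroup SL(2, ℤ) where
  carrier := {γ | γ ∈ Gamma0 N ∧ s59q_act p γ x₀ = x₀}
  mul_mem' := by
    rintro a b ⟨ha, ha'⟩ ⟨hb, hb'⟩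
    exact ⟨(Gamma0 N).mul_mem ha hb, by rw [s59q_act_mul, ha', hb']⟩
  one_mem' := ⟨(Gamma0 N).one_mem, s59q_act_one _⟩
  inv_mem' := by
    rintro a ⟨ha, ha'⟩
    refine ⟨(Gamma0 N).inv_mem ha, ?_⟩
    conv_lhs => rw [← ha']
    exact s59q_act_inv_act a x₀

theorem s59q_mem_stab {x₀ : OnePoint (ZMod p)} {γ : SL(2, ℤ)} :
    γ ∈ s59q_stab N x₀ ↔ γ ∈ Gamma0 N ∧ s59q_act p γ x₀ = x₀ := Iff.rfl

theorem s59q_stab_le (x₀ : OnePoint (ZMod p)) : s59q_stab N x₀ ≤ Gamma0 N := fun _ h => h.1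

theorem s59q_neg_one_mem_stab (x₀ : OnePoint (ZMod p)) : (-1 : SL(2, ℤ)) ∈ s59q_stab N x₀ :=
  ⟨s59q_neg_one_mem_Gamma0 N, s59q_act_neg_one x₀⟩

theorem s59q_coset_dec (x₀ : OnePoint (ZMod p)) (r : OnePoint (ZMod p) → SL(2, ℤ))
    (hr : ∀ x, r x ∈ Gamma0 N) (hrx : ∀ x, s59q_act p (r x) x₀ = x) (γ : SL(2, ℤ))
    (hγ : γ ∈ Gamma0 N) : ∃ x, γ * (r x)⁻¹ ∈ s59q_stab N x₀ := by
  refine ⟨s59q_act p γ x₀, s59q_mem_stab.2
    ⟨(Gamma0 N).mul_mem hγ ((Gamma0 N).inv_mem (hr _)), ?_⟩⟩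
  rw [s59q_act_mul]
  have h1 := s59q_act_inv_act (r (s59q_act p γ x₀)) x₀
  rwa [hrx] at h1

theorem s59q_coset_uniq (x₀ : OnePoint (ZMod p)) (r : OnePoint (ZMod p) → SL(2, ℤ))
    (hrx : ∀ x, s59q_act p (r x) x₀ = x) (x y : OnePoint (ZMod p))
    (h : r x * (r y)⁻¹ ∈ s59q_stab N x₀) : x = y := by
  have h1 := (s59q_mem_stab.1 h).2
  rw [s59q_act_mul, hrx] at h1
  have h2 := congrArg (s59q_act p (r y)) h1
  rwa [s59q_act_act_inv, hrx] at h2

theorem s59q_mem_stab_infty {γ : SL(2, ℤ)} :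
    γ ∈ s59q_stab N (∞ : OnePoint (ZMod p)) ↔ γ ∈ Gamma0 N ∧ (p : ℤ) ∣ γ 1 0 := by
  rw [s59q_mem_stab, s59q_act, OnePoint.smul_infty_eq_self_iff, redMatrix_apply_one_zero,
    ZMod.intCast_zmod_eq_zero_iff_dvd]

theorem s59q_mem_stab_zero {γ : SL(2, ℤ)} :
    γ ∈ s59q_stab N ((0 : ZMod p) : OnePoint (ZMod p)) ↔ γ ∈ Gamma0 N ∧ (p : ℤ) ∣ γ 0 1 := by
  rw [s59q_mem_stab, s59q_act, OnePoint.smul_some_eq_ite, redMatrix_apply_zero_zero,
    redMatrix_apply_zero_one, redMatrix_apply_one_zero, redMatrix_apply_one_one]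
  simp only [mul_zero, zero_add]
  refine and_congr_right fun _ => ?_
  have hdet := congrArg (Int.cast : ℤ → ZMod p) (det_eq γ)
  push_cast at hdet
  rw [← ZMod.intCast_zmod_eq_zero_iff_dvd]
  split_ifs with h
  · constructor
    · intro h'
      exact absurd h' (OnePoint.infty_ne_coe _)
    · intro hb
      rw [h, hb] at hdet
      simp at hdet
  · rw [OnePoint.coe_eq_coe, div_eq_zero_iff]
    simp [h]

theorem s59q_conj_infty_zero (hpN : ¬ p ∣ N) {γ : SL(2, ℤ)}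
    (hγ : γ ∈ s59q_stab N (∞ : OnePoint (ZMod p))) :
    ∃ γ' ∈ s59q_stab N ((0 : ZMod p) : OnePoint (ZMod p)),
      heckeDiagMatrix p * mapGL ℝ γ = mapGL ℝ γ' * heckeDiagMatrix p := by
  have hp : p ≠ 0 := (Fact.out : p.Prime).ne_zero
  obtain ⟨hγN, e, he⟩ := s59q_mem_stab_infty.1 hγ
  have hdet := det_eq γ
  have hdet' : (!![γ 0 0, (p : ℤ) * γ 0 1; e, γ 1 1] : Matrix (Fin 2) (Fin 2) ℤ).det = 1 := by
    rw [Matrix.det_fin_two_of]
    linear_combination hdet + (γ 0 1) * he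
  let γ' : SL(2, ℤ) := ⟨!![γ 0 0, (p : ℤ) * γ 0 1; e, γ 1 1], hdet'⟩
  have h00 : γ' 0 0 = γ 0 0 := rfl
  have h01 : γ' 0 1 = (p : ℤ) * γ 0 1 := rfl
  have h10 : γ' 1 0 = e := rfl
  have h11 : γ' 1 1 = γ 1 1 := rfl
  clear_value γ'
  refine ⟨γ', s59q_mem_stab_zero.2 ⟨?_, ?_⟩, ?_⟩
  · apply s59q_mem_Gamma0_of_dvd
    rw [h10]
    have hcop : IsCoprime (N : ℤ) (p : ℤ) :=
      Nat.isCoprime_iff_coprime.mpr ((Nat.Prime.coprime_iff_not_dvd Fact.out).mpr hpN).symm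
    exact hcop.dvd_of_dvd_mul_left (he ▸ s59q_dvd_of_mem_Gamma0 hγN)
  · rw [h01]
    exact dvd_mul_right _ _
  · ext i j
    fin_cases i <;> fin_cases j <;>
      simp [hp, Matrix.mul_apply, Fin.sum_univ_two, h00, h01, h10, h11]
    all_goals first
      | (have := congrArg (Int.cast : ℤ → ℝ) he; push_cast at this ⊢; linear_combination this)
      | (have := congrArg (Int.cast : ℤ → ℝ) he; push_cast at this ⊢; linear_combination -this)
      | ring1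

theorem s59q_conj_zero_infty {γ' : SL(2, ℤ)}
    (hγ' : γ' ∈ s59q_stab N ((0 : ZMod p) : OnePoint (ZMod p))) :
    ∃ γ ∈ s59q_stab N (∞ : OnePoint (ZMod p)),
      heckeDiagMatrix p * mapGL ℝ γ = mapGL ℝ γ' * heckeDiagMatrix p := by
  have hp : p ≠ 0 := (Fact.out : p.Prime).ne_zero
  obtain ⟨hγN, e, he⟩ := s59q_mem_stab_zero.1 hγ'
  have hdet := det_eq γ'
  have hdet' : (!![γ' 0 0, e; (p : ℤ) * γ' 1 0, γ' 1 1] : Matrix (Fin 2) (Fin 2) ℤ).det = 1 := by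
    rw [Matrix.det_fin_two_of]
    linear_combination hdet + (γ' 1 0) * he
  let γ : SL(2, ℤ) := ⟨!![γ' 0 0, e; (p : ℤ) * γ' 1 0, γ' 1 1], hdet'⟩
  have h00 : γ 0 0 = γ' 0 0 := rfl
  have h01 : γ 0 1 = e := rfl
  have h10 : γ 1 0 = (p : ℤ) * γ' 1 0 := rfl
  have h11 : γ 1 1 = γ' 1 1 := rfl
  clear_value γ
  refine ⟨γ, s59q_mem_stab_infty.2 ⟨?_, ?_⟩, ?_⟩
  · apply s59q_mem_Gamma0_of_dvd
    rw [h10]
    exact dvd_mul_of_dvd_right (s59q_dvd_of_mem_Gamma0 hγN) _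
  · rw [h10]
    exact dvd_mul_right _ _
  · ext i j
    fin_cases i <;> fin_cases j <;>
      simp [hp, Matrix.mul_apply, Fin.sum_univ_two, h00, h01, h10, h11]
    all_goals first
      | (have := congrArg (Int.cast : ℤ → ℝ) he; push_cast at this ⊢; linear_combination this)
      | (have := congrArg (Int.cast : ℤ → ℝ) he; push_cast at this ⊢; linear_combination -this)
      | ring1

end Fermat.Agent.Lib.S59

end
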