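import Mathlib
import Fermat.Agent.Lib.S59.QHecke

set_option autoImplicit false
set_option linter.unusedSectionVars false

noncomputable section

namespace Fermat.Agent.Lib.S59

open MeasureTheory Set UpperHalfPlane Matrix.SpecialLinearGroup CongruenceSubgroup ModularForm
open P2MW.S_ModularForm_heckeT_slash_eq_self_of_mem_Gamma0.ModularForm.HeckeSlashInvariance
open Fermat.Agent.Lib.ES
open scoped Modular MatrixGroups Pointwise ModularForm ComplexConjugate OnePoint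

variable {p : ℕ} [Fact p.Prime]

theorem s59q_heckeDiag_smul_heckeMatrix_zero (τ : ℍ) :
    heckeDiagMatrix p • heckeMatrix p 0 • τ = τ := by
  have hp : p ≠ 0 := (Fact.out : p.Prime).ne_zero
  have hp' : (p : ℂ) ≠ 0 := by exact_mod_cast hp
  apply UpperHalfPlane.ext
  rw [coe_heckeDiagMatrix_smul hp, coe_heckeMatrix_smul hp]
  field_simp
  simp

theorem s59q_slash_heckeDiag_slash_heckeMatrix_zero (F : ℍ → ℂ) :
    (F ∣[(2 : ℤ)] heckeDiagMatrix p) ∣[(2 : ℤ)] heckeMatrix p 0 = F := by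
  have hp : p ≠ 0 := (Fact.out : p.Prime).ne_zero
  have hp' : (p : ℂ) ≠ 0 := by exact_mod_cast hp
  funext τ
  rw [slash_heckeMatrix_apply 2 hp, slash_heckeDiagMatrix_apply 2 hp,
    s59q_heckeDiag_smul_heckeMatrix_zero]
  simp only [show (2 : ℤ) - 1 = 1 by norm_num, zpow_one]
  field_simp

theorem s59q_φ_heckeDiag_inv :
    (s59q_φ (heckeDiagMatrix p))⁻¹ = s59q_φ (heckeMatrix p 0) := by
  rw [inv_eq_iff_mul_eq_one]
  apply Subtype.ext
  apply Equiv.ext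
  intro τ
  exact s59q_heckeDiag_smul_heckeMatrix_zero τ

/-- The Petersson integrand is additive over finite sums in the first variable. -/
theorem s59q_petersson_sum_left {ι : Type*} (s : Finset ι) (k : ℤ) (F : ι → ℍ → ℂ) (G : ℍ → ℂ)
    (τ : ℍ) : petersson k (∑ i ∈ s, F i) G τ = ∑ i ∈ s, petersson k (F i) G τ := by
  simp only [petersson, Finset.sum_apply, map_sum, Finset.sum_mul]

theorem s59q_petersson_sum_right {ι : Type*} (s : Finset ι) (k : ℤ) (F : ℍ → ℂ) (G : ι → ℍ → ℂ)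
    (τ : ℍ) : petersson k F (∑ i ∈ s, G i) τ = ∑ i ∈ s, petersson k F (G i) τ := by
  simp only [petersson, Finset.sum_apply, Finset.mul_sum, Finset.sum_mul]

variable {N : ℕ} [NeZero N]

theorem s59q_pet_heckeT_left (hp : p.Prime) (hpN : ¬ p ∣ N) (f g : CuspForm (Gamma0 N) 2) :
    s59q_pet (CuspForm.heckeTLin 2 hp hpN f) g =
      ∑ x : OnePoint (ZMod p), ∫ τ in s59q_D N, petersson 2 (⇑f ∣[(2 : ℤ)] heckeRep p x) ⇑g τ := by
  unfold s59q_pet
  rw [coe_heckeTLin_eq_sum 2 hp hpN f]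
  simp only [s59q_petersson_sum_left]
  rw [integral_finsetSum]
  intro x _
  have := s59q_integrableOn_petersson_slash f g (heckeRep p x) 1 (s59q_D_ne_top N)
  simp only [SlashAction.slash_one] at this
  exact this

theorem s59q_pet_heckeT_right (hp : p.Prime) (hpN : ¬ p ∣ N) (f g : CuspForm (Gamma0 N) 2) :
    s59q_pet f (CuspForm.heckeTLin 2 hp hpN g) =
      ∑ x : OnePoint (ZMod p), ∫ τ in s59q_D N, petersson 2 ⇑f (⇑g ∣[(2 : ℤ)] heckeRep p x) τ := by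
  unfold s59q_pet
  rw [coe_heckeTLin_eq_sum 2 hp hpN g]
  simp only [s59q_petersson_sum_right]
  rw [integral_finsetSum]
  intro x _
  have := s59q_integrableOn_petersson_slash f g 1 (heckeRep p x) (s59q_D_ne_top N)
  simp only [SlashAction.slash_one] at this
  exact this

theorem s59q_slash_SL_invariant (g : CuspForm (Gamma0 N) 2) (γ : SL(2, ℤ)) (hγ : γ ∈ Gamma0 N) :
    ⇑g ∣[(2 : ℤ)] γ = ⇑g :=
  SlashInvariantFormClass.slash_action_eq g _ (Subgroup.mem_map_of_mem (mapGL ℝ) hγ)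

theorem s59q_K_smul_left (hpN : ¬ p ∣ N) (f g : CuspForm (Gamma0 N) 2) (γ : SL(2, ℤ))
    (hγ : γ ∈ Gamma0 N) (x : OnePoint (ZMod p)) (τ : ℍ) :
    petersson 2 (⇑f ∣[(2 : ℤ)] heckeRep p x) ⇑g (γ • τ) =
      petersson 2 (⇑f ∣[(2 : ℤ)] heckeRep p (s59q_act p γ x)) ⇑g τ := by
  rw [← petersson_slash_SL, s59q_slash_SL_invariant g γ hγ,
    show (⇑f ∣[(2 : ℤ)] heckeRep p x) ∣[(2 : ℤ)] γ = ⇑f ∣[(2 : ℤ)] heckeRep p (s59q_act p γ x)
      from s59q_slash_heckeRep_slash hpN f γ hγ x]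

theorem s59q_K_smul_right (hpN : ¬ p ∣ N) (f g : CuspForm (Gamma0 N) 2) (γ : SL(2, ℤ))
    (hγ : γ ∈ Gamma0 N) (x : OnePoint (ZMod p)) (τ : ℍ) :
    petersson 2 ⇑f (⇑g ∣[(2 : ℤ)] heckeRep p x) (γ • τ) =
      petersson 2 ⇑f (⇑g ∣[(2 : ℤ)] heckeRep p (s59q_act p γ x)) τ := by
  rw [← petersson_slash_SL, s59q_slash_SL_invariant f γ hγ,
    show (⇑g ∣[(2 : ℤ)] heckeRep p x) ∣[(2 : ℤ)] γ = ⇑g ∣[(2 : ℤ)] heckeRep p (s59q_act p γ x)
      from s59q_slash_heckeRep_slash hpN g γ hγ x]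

theorem s59q_K_heckeMatrix_zero (F G : ℍ → ℂ) (τ : ℍ) :
    petersson 2 (F ∣[(2 : ℤ)] heckeDiagMatrix p) G (heckeMatrix p 0 • τ) =
      petersson 2 F (G ∣[(2 : ℤ)] heckeMatrix p 0) τ := by
  have h := petersson_slash 2 (F ∣[(2 : ℤ)] heckeDiagMatrix p) G (heckeMatrix p 0) τ
  rw [s59q_slash_heckeDiag_slash_heckeMatrix_zero, σ_heckeMatrix] at h
  rw [h]
  simp

theorem s59q_hconj (hpN : ¬ p ∣ N) (h : s59q_A) :
    h ∈ s59q_bar (s59q_stab N ((0 : ZMod p) : OnePoint (ZMod p))) ↔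
      (s59q_φ (heckeDiagMatrix p))⁻¹ * h * s59q_φ (heckeDiagMatrix p) ∈
        s59q_bar (s59q_stab N (∞ : OnePoint (ZMod p))) := by
  constructor
  · intro hh
    obtain ⟨γ', hγ', rfl⟩ := Subgroup.mem_map.1 hh
    obtain ⟨γ, hγ, hmul⟩ := s59q_conj_zero_infty hγ'
    have h1 : s59q_φ (heckeDiagMatrix p) * s59q_ψ γ = s59q_ψ γ' * s59q_φ (heckeDiagMatrix p) := by
      simp only [s59q_ψ, MonoidHom.comp_apply, ← map_mul, hmul]
    have h2 : (s59q_φ (heckeDiagMatrix p))⁻¹ * s59q_ψ γ' * s59q_φ (heckeDiagMatrix p) =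
        s59q_ψ γ := by
      rw [mul_assoc, ← h1, inv_mul_cancel_left]
    rw [h2]
    exact s59q_mem_bar_of_mem hγ
  · intro hh
    obtain ⟨γ, hγ, hγh⟩ := Subgroup.mem_map.1 hh
    obtain ⟨γ', hγ', hmul⟩ := s59q_conj_infty_zero hpN hγ
    have h1 : s59q_φ (heckeDiagMatrix p) * s59q_ψ γ = s59q_ψ γ' * s59q_φ (heckeDiagMatrix p) := by
      simp only [s59q_ψ, MonoidHom.comp_apply, ← map_mul, hmul]
    have h2 : h = s59q_ψ γ' := by
      rw [hγh, ← mul_assoc, ← mul_assoc, mul_inv_cancel, one_mul] at h1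
      exact mul_right_cancel h1
    rw [h2]
    exact s59q_mem_bar_of_mem hγ'

/-- Self-adjointness of `T_p` (for `p ∤ N`) with respect to the Petersson product. -/
theorem s59q_heckeT_adjoint (hp : p.Prime) (hpN : ¬ p ∣ N) (f g : CuspForm (Gamma0 N) 2) :
    s59q_pet (CuspForm.heckeTLin 2 hp hpN f) g = s59q_pet f (CuspForm.heckeTLin 2 hp hpN g) := by
  obtain ⟨w, hw, hw0⟩ := s59q_exists_eta (p := p) hpN
  obtain ⟨C, hC⟩ := s59q_petersson_slash_bounded f g (heckeDiagMatrix p) 1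
  simp only [SlashAction.slash_one] at hC
  have hKm : AEStronglyMeasurable (petersson 2 (⇑f ∣[(2 : ℤ)] heckeDiagMatrix p) ⇑g)
      (volume : Measure ℍ) := by
    have := (s59q_continuous_petersson_slash f g (heckeDiagMatrix p) 1).aestronglyMeasurable
      (μ := (volume : Measure ℍ))
    simpa only [SlashAction.slash_one] using this
  have hKinv : ∀ h ∈ s59q_bar (s59q_stab N (∞ : OnePoint (ZMod p))), ∀ τ : ℍ,
      petersson 2 (⇑f ∣[(2 : ℤ)] heckeDiagMatrix p) ⇑g (h • τ) =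
        petersson 2 (⇑f ∣[(2 : ℤ)] heckeDiagMatrix p) ⇑g τ := by
    refine s59q_invariant_bar fun γ hγ τ => ?_
    have h1 := s59q_K_smul_left hpN f g γ hγ.1 ∞ τ
    rw [hγ.2] at h1
    exact h1
  have key := s59q_abstract_adjoint (μ := (volume : Measure ℍ)) (H := s59q_bar (Gamma0 N))
    (H₁ := s59q_bar (s59q_stab N (∞ : OnePoint (ZMod p))))
    (H₂ := s59q_bar (s59q_stab N ((0 : ZMod p) : OnePoint (ZMod p))))
    (s59q_D_isFD N) (s59q_D_ne_top N) (s59q_φ (heckeDiagMatrix p)) (s59q_hconj hpN)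
    (fun x => s59q_ψ (s59q_r w x)) (fun x => s59q_ψ (s59q_s w x))
    (fun x => s59q_mem_bar_of_mem (s59q_r_mem hw x))
    (by
      intro h hh
      obtain ⟨γ, hγ, rfl⟩ := Subgroup.mem_map.1 hh
      obtain ⟨x, hx⟩ := s59q_coset_dec ∞ (s59q_r w) (s59q_r_mem hw) (s59q_act_r hw0) γ hγ
      exact ⟨x, by rw [← map_inv, ← map_mul]; exact s59q_mem_bar_of_mem hx⟩)
    (by
      intro x y hxy
      rw [← map_inv, ← map_mul, s59q_mem_bar (s59q_neg_one_mem_stab _)] at hxy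
      exact s59q_coset_uniq ∞ _ (s59q_act_r hw0) x y hxy)
    (s59q_bar_mono (s59q_stab_le _))
    (fun x => s59q_mem_bar_of_mem (s59q_s_mem hw x))
    (by
      intro h hh
      obtain ⟨γ, hγ, rfl⟩ := Subgroup.mem_map.1 hh
      obtain ⟨x, hx⟩ := s59q_coset_dec _ (s59q_s w) (s59q_s_mem hw) (s59q_act_s hw0) γ hγ
      exact ⟨x, by rw [← map_inv, ← map_mul]; exact s59q_mem_bar_of_mem hx⟩)
    (by
      intro x y hxy
      rw [← map_inv, ← map_mul, s59q_mem_bar (s59q_neg_one_mem_stab _)] at hxy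
      exact s59q_coset_uniq _ _ (s59q_act_s hw0) x y hxy)
    (s59q_bar_mono (s59q_stab_le _))
    (petersson 2 (⇑f ∣[(2 : ℤ)] heckeDiagMatrix p) ⇑g) hKinv hKm hC
  rw [s59q_pet_heckeT_left, s59q_pet_heckeT_right]
  have hL : ∀ x : OnePoint (ZMod p), ∀ τ : ℍ,
      petersson 2 (⇑f ∣[(2 : ℤ)] heckeDiagMatrix p) ⇑g (s59q_ψ (s59q_r w x) • τ) =
        petersson 2 (⇑f ∣[(2 : ℤ)] heckeRep p x) ⇑g τ := by
    intro x τ
    have h1 := s59q_K_smul_left hpN f g (s59q_r w x) (s59q_r_mem hw x) ∞ τ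
    rw [s59q_act_r hw0] at h1
    exact h1
  have hR : ∀ y : OnePoint (ZMod p), ∀ τ : ℍ,
      petersson 2 (⇑f ∣[(2 : ℤ)] heckeDiagMatrix p) ⇑g
        ((s59q_φ (heckeDiagMatrix p))⁻¹ • s59q_ψ (s59q_s w y) • τ) =
        petersson 2 ⇑f (⇑g ∣[(2 : ℤ)] heckeRep p y) τ := by
    intro y τ
    rw [s59q_φ_heckeDiag_inv, s59q_φ_smul, s59q_K_heckeMatrix_zero]
    have h1 := s59q_K_smul_right hpN f g (s59q_s w y) (s59q_s_mem hw y)
      ((0 : ZMod p) : OnePoint (ZMod p)) τ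
    rw [s59q_act_s hw0] at h1
    have h0 : heckeRep p ((0 : ZMod p) : OnePoint (ZMod p)) = heckeMatrix p 0 := by
      rw [heckeRep_coe, ZMod.val_zero]
    rw [h0] at h1
    exact h1
  simp only [hL, hR] at key
  exact key

end Fermat.Agent.Lib.S59

end
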