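import Mathlib
import Fermat.Agent.Lib.S59.QAdj
import Fermat.Agent.Lib.Period.Assembly

set_option autoImplicit false
set_option linter.unusedSectionVars false
set_option linter.style.haveILetI false

noncomputable section

namespace Fermat.Agent.Lib.S59

open MeasureTheory Set UpperHalfPlane CongruenceSubgroup
open scoped MatrixGroups ModularForm ComplexConjugate

variable {N : ℕ} [NeZero N]

/-- conjugate symmetry of the Petersson product. -/
theorem s59q_pet_conj_symm (f g : CuspForm (Gamma0 N) 2) :
    conj (s59q_pet g f) = s59q_pet f g := by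
  unfold s59q_pet
  rw [← integral_conj]
  refine integral_congr_ae (Filter.Eventually.of_forall fun τ => ?_)
  exact (petersson_symm 2 ⇑g ⇑f τ).symm

/-- conjugate linearity in the first variable. -/
theorem s59q_pet_smul_left (c : ℂ) (f g : CuspForm (Gamma0 N) 2) :
    s59q_pet (c • f) g = conj c * s59q_pet f g := by
  unfold s59q_pet
  rw [← integral_const_mul]
  refine integral_congr_ae (Filter.Eventually.of_forall fun τ => ?_)
  simp only [petersson, FunLike.coe_smul, Pi.smul_apply, smul_eq_mul, map_mul]
  ring

/-- linearity in the second variable. -/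
theorem s59q_pet_smul_right (c : ℂ) (f g : CuspForm (Gamma0 N) 2) :
    s59q_pet f (c • g) = c * s59q_pet f g := by
  unfold s59q_pet
  rw [← integral_const_mul]
  refine integral_congr_ae (Filter.Eventually.of_forall fun τ => ?_)
  simp only [petersson, FunLike.coe_smul, Pi.smul_apply, smul_eq_mul]
  ring

/-- non-negativity. -/
theorem s59q_pet_self_re_nonneg (f : CuspForm (Gamma0 N) 2) : 0 ≤ (s59q_pet f f).re := by
  unfold s59q_pet
  have h1 : ∀ τ : ℍ, petersson 2 ⇑f ⇑f τ = ((Complex.normSq (f τ) * τ.im ^ 2 : ℝ) : ℂ) := by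
    intro τ
    simp only [petersson, Complex.ofReal_mul, Complex.ofReal_pow, Complex.normSq_eq_conj_mul_self]
    norm_cast
  have h2 : ∫ τ in s59q_D N, petersson 2 ⇑f ⇑f τ =
      ((∫ τ in s59q_D N, Complex.normSq (f τ) * τ.im ^ 2 : ℝ) : ℂ) := by
    rw [← integral_complex_ofReal]
    exact integral_congr_ae (Filter.Eventually.of_forall h1)
  rw [h2, Complex.ofReal_re]
  exact integral_nonneg fun τ => mul_nonneg (Complex.normSq_nonneg _) (sq_nonneg _)

/-- The Petersson product as an inner product space core. -/
@[instance_reducible]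
def s59q_core : InnerProductSpace.Core ℂ (CuspForm (Gamma0 N) 2) where
  inner := s59q_pet
  conj_inner_symm := s59q_pet_conj_symm
  re_inner_nonneg := s59q_pet_self_re_nonneg
  add_left := s59q_pet_add_left
  smul_left := fun f g c => s59q_pet_smul_left c f g
  definite := s59q_pet_self_eq_zero

/-- **The Hecke operators `T_p`, `p ∤ N`, on `S₂(Γ₀(N))` are semisimple.** -/
theorem s59q_heckeT_isSemisimple {p : ℕ} (hp : p.Prime) (hpN : ¬ p ∣ N) :
    Module.End.IsSemisimple
      (CuspForm.heckeTLin 2 hp hpN : Module.End ℂ (CuspForm (Gamma0 N) 2)) := by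
  letI core : InnerProductSpace.Core ℂ (CuspForm (Gamma0 N) 2) := s59q_core
  letI : NormedAddCommGroup (CuspForm (Gamma0 N) 2) :=
    InnerProductSpace.Core.toNormedAddCommGroup (𝕜 := ℂ)
  letI : InnerProductSpace ℂ (CuspForm (Gamma0 N) 2) := InnerProductSpace.ofCore _
  have : Fact p.Prime := ⟨hp⟩
  have hsym : (CuspForm.heckeTLin 2 hp hpN :
      Module.End ℂ (CuspForm (Gamma0 N) 2)).IsSymmetric :=
    fun f g => s59q_heckeT_adjoint hp hpN f g
  exact Module.End.isFinitelySemisimple_iff_isSemisimple.mp hsym.isFinitelySemisimple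

end Fermat.Agent.Lib.S59

end
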