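/-
Programme (R) = S59 (helper3), W-files, file 12: the hypothesis `s59w_PetSS` is helper6's theorem
`s59q_heckeT_isSemisimple` (Petersson self-adjointness of `T_p`, `p ∤ N`, on `S₂(Γ₀(N))`).
-/
import Mathlib
import Fermat.Agent.Lib.S59.QSemi
import Fermat.Agent.Lib.S59.WChainTop

set_option autoImplicit false

namespace Fermat.Agent.Lib.S59

theorem s59w_petSS : s59w_PetSS := fun _ _ _ hp hpN => s59q_heckeT_isSemisimple hp hpN

end Fermat.Agent.Lib.S59
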