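/-
Programme (R) = S59 (helper3), W-files, file 14: **(W3) — the anemic Hecke algebra at `Γ_H`-level is
REDUCED over every coefficient ring of characteristic zero.**

`Y = H_par(Γ_H, R)` with an `R`-basis given by the casts of a `ℤ`-basis `b` of the lattice
`H_par(Γ_H, ℤ)` (`cB`, `hcB`; for a DVR: helper8's `s59t_castBasis`), `f : R →+* K` injective into a
field of characteristic zero.  For every `t` in the `R`-algebra generated by the anemic generators
`s59w_op H R i`: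
* `s59w_W3_sqKill`  : the matrix of `t` (over `K`) is killed by a squarefree polynomial over `K`;
* **`s59w_W3_mul`** : `t ^ k * s = 0 ⇒ t * s = 0` for EVERY endomorphism `s` of `Y`
  (`s` = an idempotent: the image of the anemic algebra on any stable summand is reduced);
* `s59w_W3_apply`   : `(t ^ k) w = 0 ⇒ t w = 0`;
* `s59w_W3_isReduced` : the algebra itself is reduced.
Route: integer matrices `s59w_mat` ⇒ squarefree-killed over `ℂ` ((W2), `WAlg.lean`) ⇒ over `ℚ`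
(Jordan–Chevalley descent, `WDesc.lean`) ⇒ over `K` ⇒ the generated `K`-algebra.
-/
import Mathlib
import Fermat.Agent.Lib.S48.HLat
import Fermat.Agent.Lib.S59.WAlg
import Fermat.Agent.Lib.S59.WPet
import Fermat.Agent.Lib.S59.WDesc

set_option autoImplicit false
set_option linter.unusedSectionVars false
set_option linter.style.haveILetI false

noncomputable section

namespace Fermat.Agent.Lib.S59

open Matrix.SpecialLinearGroup CongruenceSubgroup ModularCurve.Period Polynomial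
open Fermat.Agent.Lib.S48 Fermat.Agent.Lib.ES
open scoped MatrixGroups

/-! ### Hecke operators in a cast basis -/

section CastBasis

variable {Γ : Subgroup SL(2, ℤ)} {ι : Type*} [Fintype ι] [DecidableEq ι]
  (b : Module.Basis ι ℤ (s48h_M Γ)) {R : Type*} [CommRing R]
  (cB : Module.Basis ι R (s48h_Hpar R Γ R))
  (hcB : ∀ i, ((cB i : s48h_Hpar R Γ R) : Additive Γ →+ R) = s48h_castB b R i)

include hcB in
theorem s59w_heckeHpar_cB {X : Type*} [Fintype X] (D : s48h_MatDatum Γ X) (j : ι) :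
    D.heckeHpar R (cB j) = ∑ i, ((s48h_heckeMat b D i j : ℤ) : R) • cB i := by
  apply Subtype.ext
  rw [s48h_MatDatum.heckeHpar_coe, Submodule.coe_sum, hcB, s48h_heckeHom_castB]
  refine Finset.sum_congr rfl fun i _ => ?_
  rw [Submodule.coe_smul, hcB]

include hcB in
/-- the matrix of a Hecke operator in a cast basis is the integer matrix. -/
theorem s59w_toMatrix_heckeHpar {X : Type*} [Fintype X] (D : s48h_MatDatum Γ X) :
    LinearMap.toMatrix cB cB (D.heckeHpar R) = (s48h_heckeMat b D).map (Int.cast : ℤ → R) := by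
  ext i j
  rw [LinearMap.toMatrix_apply, s59w_heckeHpar_cB b cB hcB, map_sum, Finsupp.coe_finsetSum,
    Finset.sum_apply, Matrix.map_apply]
  rw [Finset.sum_eq_single i]
  · rw [_root_.map_smul, Module.Basis.repr_self, Finsupp.smul_apply, Finsupp.single_eq_same,
      smul_eq_mul, mul_one]
  · intro k _ hk
    rw [_root_.map_smul, Module.Basis.repr_self, Finsupp.smul_apply,
      Finsupp.single_eq_of_ne (Ne.symm hk), smul_zero]
  · intro h; exact absurd (Finset.mem_univ i) h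

/-- the cast family in `H_par(Γ, ℂ)`. -/
def s59w_cBCfam (i : ι) : s48h_Hpar ℂ Γ ℂ :=
  ⟨s48h_castB b ℂ i, s48h_cast_mem_Hpar ℂ ℂ (b i).2⟩

/-- **the `ℂ`-basis of `H_par(Γ, ℂ)`** given by the casts of a `ℤ`-basis of the lattice. -/
def s59w_cBC [Group.FG Γ] : Module.Basis ι ℂ (s48h_Hpar ℂ Γ ℂ) :=
  Module.Basis.mk (v := s59w_cBCfam b)
    (LinearIndependent.of_comp (s48h_Hpar ℂ Γ ℂ).subtype
      (s48h_castB_linearIndependent_complex b))
    (by
      rintro x -
      obtain ⟨c, hc⟩ := s48h_exists_coeffs b (x : Additive Γ →+ ℂ) x.2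
      have hx : x = ∑ i, c i • s59w_cBCfam b i := by
        apply Subtype.ext
        rw [hc, Submodule.coe_sum]
        refine Finset.sum_congr rfl fun i _ => ?_
        rw [Submodule.coe_smul]
        rfl
      rw [hx]
      exact Submodule.sum_mem _ fun i _ =>
        Submodule.smul_mem _ _ (Submodule.subset_span ⟨i, rfl⟩))

theorem s59w_cBC_apply [Group.FG Γ] (i : ι) :
    ((s59w_cBC b i : s48h_Hpar ℂ Γ ℂ) : Additive Γ →+ ℂ) = s48h_castB b ℂ i := by
  rw [s59w_cBC, Module.Basis.mk_apply]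
  rfl

end CastBasis

/-! ### The integer matrices of the anemic generators -/

section Mat

variable {M : ℕ} [NeZero M] (H : Subgroup (ZMod M)ˣ) {ι : Type*} [Fintype ι] [DecidableEq ι]
  (b : Module.Basis ι ℤ (s48h_M (s48h_GammaH M H)))

/-- the integer matrix of the anemic generator of index `i`. -/
def s59w_mat (i : s59w_AIdx M) : Matrix ι ι ℤ := LinearMap.toMatrix b b (s59w_op H ℤ i)

theorem s59w_mat_comm (i j : s59w_AIdx M) :
    s59w_mat H b i * s59w_mat H b j = s59w_mat H b j * s59w_mat H b i := by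
  rw [s59w_mat, s59w_mat, ← LinearMap.toMatrix_mul, ← LinearMap.toMatrix_mul, s59w_op_comm]

variable {R : Type*} [CommRing R] (cB : Module.Basis ι R (s48h_Hpar R (s48h_GammaH M H) R))
  (hcB : ∀ i, ((cB i : s48h_Hpar R (s48h_GammaH M H) R) : Additive (s48h_GammaH M H) →+ R)
    = s48h_castB b R i)

include hcB in
/-- the matrix of an anemic generator over `R` in a cast basis. -/
theorem s59w_toMatrix_op (i : s59w_AIdx M) :
    LinearMap.toMatrix cB cB (s59w_op H R i) = (s59w_mat H b i).map (Int.cast : ℤ → R) := by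
  rcases i with i | τ
  · obtain ⟨ℓ, hp, hℓ, σ, hσ, h11⟩ := i
    haveI : Fact ℓ.Prime := ⟨hp⟩
    exact s59w_toMatrix_heckeHpar b cB hcB (s48h_TpDatum H hℓ σ hσ h11)
  · exact s59w_toMatrix_heckeHpar b cB hcB (s48h_diamondDatum H (τ : SL(2, ℤ)) τ.2)

end Mat

/-! ### Squarefree-killed over `ℂ`, `ℚ` and every field of characteristic zero -/

section Fields

variable (N : ℕ) [NeZero N] (Q : Finset ℕ) {M : ℕ} [NeZero M] (H : Subgroup (ZMod M)ˣ)
  {ι : Type*} [Fintype ι] [DecidableEq ι] (b : Module.Basis ι ℤ (s48h_M (s48h_GammaH M H)))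

theorem s59w_mat_sqKill_complex (hQ : ∀ q ∈ Q, q.Prime ∧ ¬ q ∣ N)
    (hM : M = N * ∏ q ∈ Q, q) {D : ℕ} (hDQ : D = ∏ q ∈ Q, q) (hD : D ∣ M)
    (hH : s59u_ker M D hD ≤ H) {n m : ℕ} (hnm : 2 * m = n + 1) (hn : ∀ u : (ZMod M)ˣ, u ^ n ∈ H)
    (i : s59w_AIdx M) : s59w_SqKill ℂ ((s59w_mat H b i).map (Int.cast : ℤ → ℂ)) := by
  have hss := s59w_op_isSemisimple H N Q s59w_petSS hQ hM hDQ hD hH hnm hn i
  have h1 := (s59w_sqKill_iff_isSemisimple _).mpr hss
  have h2 := s59w_sqKill_algHom (LinearMap.toMatrixAlgEquiv (s59w_cBC b)).toAlgHom h1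
  have h3 : (LinearMap.toMatrixAlgEquiv (s59w_cBC b)).toAlgHom (s59w_op H ℂ i)
      = LinearMap.toMatrix (s59w_cBC b) (s59w_cBC b) (s59w_op H ℂ i) := rfl
  rw [h3, s59w_toMatrix_op H b (s59w_cBC b) (s59w_cBC_apply b)] at h2
  exact h2

theorem s59w_mat_sqKill_rat (hQ : ∀ q ∈ Q, q.Prime ∧ ¬ q ∣ N)
    (hM : M = N * ∏ q ∈ Q, q) {D : ℕ} (hDQ : D = ∏ q ∈ Q, q) (hD : D ∣ M)
    (hH : s59u_ker M D hD ≤ H) {n m : ℕ} (hnm : 2 * m = n + 1) (hn : ∀ u : (ZMod M)ˣ, u ^ n ∈ H)
    (i : s59w_AIdx M) : s59w_SqKill ℚ ((s59w_mat H b i).map (Int.cast : ℤ → ℚ)) := by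
  refine s59w_sqKill_of_map (F' := ℂ) _ ?_
  have h := s59w_mat_sqKill_complex N Q H b hQ hM hDQ hD hH hnm hn i
  have h1 : ((s59w_mat H b i).map (Int.cast : ℤ → ℚ)).map (algebraMap ℚ ℂ)
      = (s59w_mat H b i).map (Int.cast : ℤ → ℂ) := by
    rw [Matrix.map_map]
    congr 1
  rw [h1]
  exact h

theorem s59w_mat_sqKill (hQ : ∀ q ∈ Q, q.Prime ∧ ¬ q ∣ N)
    (hM : M = N * ∏ q ∈ Q, q) {D : ℕ} (hDQ : D = ∏ q ∈ Q, q) (hD : D ∣ M)
    (hH : s59u_ker M D hD ≤ H) {n m : ℕ} (hnm : 2 * m = n + 1) (hn : ∀ u : (ZMod M)ˣ, u ^ n ∈ H)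
    (K : Type*) [Field K] [CharZero K]
    (i : s59w_AIdx M) : s59w_SqKill K ((s59w_mat H b i).map (Int.cast : ℤ → K)) := by
  have h := s59w_sqKill_map (F' := K) _ (s59w_mat_sqKill_rat N Q H b hQ hM hDQ hD hH hnm hn i)
  have h1 : ((s59w_mat H b i).map (Int.cast : ℤ → ℚ)).map (algebraMap ℚ K)
      = (s59w_mat H b i).map (Int.cast : ℤ → K) := by
    rw [Matrix.map_map]
    congr 1
    funext z
    simp
  rw [h1] at h
  exact h

/-- every element of the `K`-algebra generated by the integer matrices is squarefree-killed. -/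
theorem s59w_matAlg_sqKill (hQ : ∀ q ∈ Q, q.Prime ∧ ¬ q ∣ N)
    (hM : M = N * ∏ q ∈ Q, q) {D : ℕ} (hDQ : D = ∏ q ∈ Q, q) (hD : D ∣ M)
    (hH : s59u_ker M D hD ≤ H) {n m : ℕ} (hnm : 2 * m = n + 1) (hn : ∀ u : (ZMod M)ˣ, u ^ n ∈ H)
    (K : Type*) [Field K] [CharZero K] {T : Matrix ι ι K}
    (hT : T ∈ Algebra.adjoin K
      (Set.range fun i : s59w_AIdx M => (s59w_mat H b i).map (Int.cast : ℤ → K))) :
    s59w_SqKill K T := by
  refine s59w_sqKill_adjoin _ ?_ ?_ hT
  · rintro _ ⟨i, rfl⟩ _ ⟨j, rfl⟩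
    have h := congrArg (fun A : Matrix ι ι ℤ => (Int.castRingHom K).mapMatrix A)
      (s59w_mat_comm H b i j)
    simp only [map_mul] at h
    exact h
  · rintro _ ⟨i, rfl⟩
    exact s59w_mat_sqKill N Q H b hQ hM hDQ hD hH hnm hn K i

end Fields

/-! ### The main theorem -/

section Main

variable (N : ℕ) [NeZero N] (Q : Finset ℕ) {M : ℕ} [NeZero M] (H : Subgroup (ZMod M)ˣ)
  {ι : Type*} [Fintype ι] [DecidableEq ι] (b : Module.Basis ι ℤ (s48h_M (s48h_GammaH M H)))
  {R : Type*} [CommRing R] (cB : Module.Basis ι R (s48h_Hpar R (s48h_GammaH M H) R))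
  (hcB : ∀ i, ((cB i : s48h_Hpar R (s48h_GammaH M H) R) : Additive (s48h_GammaH M H) →+ R)
    = s48h_castB b R i)
  {K : Type*} [Field K] [CharZero K] (f : R →+* K)

/-- the matrix over `K` of an endomorphism of `H_par(Γ_H, R)`. -/
def s59w_rho : Module.End R (s48h_Hpar R (s48h_GammaH M H) R) →+* Matrix ι ι K :=
  f.mapMatrix.comp (LinearMap.toMatrixAlgEquiv cB).toRingEquiv.toRingHom

theorem s59w_rho_apply (t : Module.End R (s48h_Hpar R (s48h_GammaH M H) R)) :
    s59w_rho H cB f t = (LinearMap.toMatrix cB cB t).map f := rfl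

theorem s59w_rho_injective (hf : Function.Injective f) :
    Function.Injective (s59w_rho H cB f) := by
  intro s t hst
  rw [s59w_rho_apply, s59w_rho_apply] at hst
  exact (LinearMap.toMatrix cB cB).injective (Matrix.map_injective hf hst)

include hcB in
theorem s59w_rho_op (i : s59w_AIdx M) :
    s59w_rho H cB f (s59w_op H R i) = (s59w_mat H b i).map (Int.cast : ℤ → K) := by
  rw [s59w_rho_apply, s59w_toMatrix_op H b cB hcB, Matrix.map_map]
  congr 1
  funext z
  simp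

theorem s59w_rho_algebraMap (r : R) :
    s59w_rho H cB f (algebraMap R _ r) = algebraMap K (Matrix ι ι K) (f r) := by
  rw [s59w_rho_apply]
  have h1 : LinearMap.toMatrix cB cB (algebraMap R (Module.End R _) r)
      = algebraMap R (Matrix ι ι R) r :=
    (LinearMap.toMatrixAlgEquiv cB).commutes r
  rw [h1]
  ext i j
  rw [Matrix.map_apply, Matrix.algebraMap_matrix_apply, Matrix.algebraMap_matrix_apply]
  split_ifs
  · rfl
  · exact map_zero f

include hcB in
/-- the matrix of an element of the anemic algebra lies in the `K`-algebra generated by the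
integer matrices. -/
theorem s59w_rho_mem {t : Module.End R (s48h_Hpar R (s48h_GammaH M H) R)}
    (ht : t ∈ Algebra.adjoin R (Set.range (s59w_op H R))) :
    s59w_rho H cB f t ∈ Algebra.adjoin K
      (Set.range fun i : s59w_AIdx M => (s59w_mat H b i).map (Int.cast : ℤ → K)) := by
  induction ht using Algebra.adjoin_induction with
  | mem x hx =>
    obtain ⟨i, rfl⟩ := hx
    rw [s59w_rho_op H b cB hcB f i]
    exact Algebra.subset_adjoin ⟨i, rfl⟩
  | algebraMap r =>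
    rw [s59w_rho_algebraMap]
    exact Subalgebra.algebraMap_mem _ _
  | add x y _ _ hx hy => rw [map_add]; exact Subalgebra.add_mem _ hx hy
  | mul x y _ _ hx hy => rw [map_mul]; exact Subalgebra.mul_mem _ hx hy

include hcB in
/-- **(W3), squarefree form.** -/
theorem s59w_W3_sqKill (hQ : ∀ q ∈ Q, q.Prime ∧ ¬ q ∣ N)
    (hM : M = N * ∏ q ∈ Q, q) {D : ℕ} (hDQ : D = ∏ q ∈ Q, q) (hD : D ∣ M)
    (hH : s59u_ker M D hD ≤ H) {n m : ℕ} (hnm : 2 * m = n + 1) (hn : ∀ u : (ZMod M)ˣ, u ^ n ∈ H)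
    {t : Module.End R (s48h_Hpar R (s48h_GammaH M H) R)}
    (ht : t ∈ Algebra.adjoin R (Set.range (s59w_op H R))) :
    s59w_SqKill K (s59w_rho H cB f t) :=
  s59w_matAlg_sqKill N Q H b hQ hM hDQ hD hH hnm hn K (s59w_rho_mem H b cB hcB f ht)

include hcB in
/-- **(W3), main form**: `t ^ k * s = 0 ⇒ t * s = 0` for `t` in the anemic algebra and ANY
endomorphism `s`. -/
theorem s59w_W3_mul (hf : Function.Injective f) (hQ : ∀ q ∈ Q, q.Prime ∧ ¬ q ∣ N)
    (hM : M = N * ∏ q ∈ Q, q) {D : ℕ} (hDQ : D = ∏ q ∈ Q, q) (hD : D ∣ M)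
    (hH : s59u_ker M D hD ≤ H) {n m : ℕ} (hnm : 2 * m = n + 1) (hn : ∀ u : (ZMod M)ˣ, u ^ n ∈ H)
    {t : Module.End R (s48h_Hpar R (s48h_GammaH M H) R)}
    (ht : t ∈ Algebra.adjoin R (Set.range (s59w_op H R)))
    (s : Module.End R (s48h_Hpar R (s48h_GammaH M H) R)) (k : ℕ) (hk : t ^ k * s = 0) :
    t * s = 0 := by
  refine s59w_rho_injective H cB f hf ?_
  rw [map_mul, map_zero]
  refine s59w_sqKill_mul_eq_zero
    (s59w_W3_sqKill N Q H b cB hcB f hQ hM hDQ hD hH hnm hn ht) _ k ?_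
  rw [← map_pow, ← map_mul, hk, map_zero]

include hcB in
/-- **(W3), pointwise form**: `(t ^ k) w = 0 ⇒ t w = 0`. -/
theorem s59w_W3_apply (hf : Function.Injective f) (hQ : ∀ q ∈ Q, q.Prime ∧ ¬ q ∣ N)
    (hM : M = N * ∏ q ∈ Q, q) {D : ℕ} (hDQ : D = ∏ q ∈ Q, q) (hD : D ∣ M)
    (hH : s59u_ker M D hD ≤ H) {n m : ℕ} (hnm : 2 * m = n + 1) (hn : ∀ u : (ZMod M)ˣ, u ^ n ∈ H)
    {t : Module.End R (s48h_Hpar R (s48h_GammaH M H) R)}
    (ht : t ∈ Algebra.adjoin R (Set.range (s59w_op H R)))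
    (w : s48h_Hpar R (s48h_GammaH M H) R) (k : ℕ) (hk : (t ^ k) w = 0) : t w = 0 := by
  by_cases hι : IsEmpty ι
  · have hsub : Subsingleton (s48h_Hpar R (s48h_GammaH M H) R) := by
      refine ⟨fun x y => cB.repr.injective (Finsupp.ext fun i => (hι.false i).elim)⟩
    exact Subsingleton.elim _ _
  · rw [not_isEmpty_iff] at hι
    obtain ⟨i₀⟩ := hι
    have h1 := s59w_W3_mul N Q H b cB hcB f hf hQ hM hDQ hD hH hnm hn ht
      ((cB.coord i₀).smulRight w) k (by
        refine LinearMap.ext fun y => ?_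
        rw [Module.End.mul_apply, LinearMap.smulRight_apply, map_smul, hk, smul_zero]
        rfl)
    have h2 := LinearMap.congr_fun h1 (cB i₀)
    rw [Module.End.mul_apply, LinearMap.smulRight_apply, Module.Basis.coord_apply,
      Module.Basis.repr_self, Finsupp.single_eq_same, one_smul] at h2
    exact h2

include hcB in
/-- **(W3): the anemic Hecke algebra over `R` is reduced.** -/
theorem s59w_W3_isReduced (hf : Function.Injective f) (hQ : ∀ q ∈ Q, q.Prime ∧ ¬ q ∣ N)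
    (hM : M = N * ∏ q ∈ Q, q) {D : ℕ} (hDQ : D = ∏ q ∈ Q, q) (hD : D ∣ M)
    (hH : s59u_ker M D hD ≤ H) {n m : ℕ} (hnm : 2 * m = n + 1) (hn : ∀ u : (ZMod M)ˣ, u ^ n ∈ H) :
    IsReduced ↥(Algebra.adjoin R (Set.range (s59w_op H R))) := by
  refine ⟨fun x hx => ?_⟩
  obtain ⟨k, hk⟩ := hx
  have h1 : ((x : Module.End R (s48h_Hpar R (s48h_GammaH M H) R))) ^ k * 1 = 0 := by
    rw [mul_one, ← SubmonoidClass.coe_pow, hk]
    rfl
  have h2 := s59w_W3_mul N Q H b cB hcB f hf hQ hM hDQ hD hH hnm hn x.2 1 k h1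
  rw [mul_one] at h2
  exact Subtype.ext h2

end Main

/-! ### The case `R = ℤ` -/

section IntCase

variable (N : ℕ) [NeZero N] (Q : Finset ℕ) {M : ℕ} [NeZero M] (H : Subgroup (ZMod M)ˣ)

theorem s59w_castB_int {Γ : Subgroup SL(2, ℤ)} {ι : Type*} [Fintype ι] [DecidableEq ι]
    (b : Module.Basis ι ℤ (s48h_M Γ)) (i : ι) :
    ((b i : s48h_M Γ) : Additive Γ →+ ℤ) = s48h_castB b ℤ i := by
  refine AddMonoidHom.ext fun γ => ?_
  rw [s48h_castB_apply, Int.cast_id]

/-- **the anemic Hecke algebra `𝕋_ℤ ⊂ End_ℤ H_par(Γ_H, ℤ)` is reduced.** -/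
theorem s59w_W3_int_isReduced (hQ : ∀ q ∈ Q, q.Prime ∧ ¬ q ∣ N)
    (hM : M = N * ∏ q ∈ Q, q) {D : ℕ} (hDQ : D = ∏ q ∈ Q, q) (hD : D ∣ M)
    (hH : s59u_ker M D hD ≤ H) {n m : ℕ} (hnm : 2 * m = n + 1) (hn : ∀ u : (ZMod M)ˣ, u ^ n ∈ H) :
    IsReduced ↥(Algebra.adjoin ℤ (Set.range (s59w_op H ℤ))) := by
  classical
  haveI : Group.FG (s48h_GammaH M H) := s59w_fg_GammaH H
  exact s59w_W3_isReduced N Q H (Module.Free.chooseBasis ℤ (s48h_M (s48h_GammaH M H)))
    (Module.Free.chooseBasis ℤ (s48h_M (s48h_GammaH M H)))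
    (s59w_castB_int _) (Int.castRingHom ℚ) Int.cast_injective hQ hM hDQ hD hH hnm hn

end IntCase

end Fermat.Agent.Lib.S59
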