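/-
S59 (helper5, prefix `s59e_`), (H3)(c) file 1: joint eigenvectors of the anemic Hecke algebra on
`V = H_par(Γ_H, ℂ)`, the twisted operators `T'_ℓ = ⟨σ_ℓ⟩^{(n-1)m} T_ℓ` (`= ⟨ℓ⟩^{-1/2} T_ℓ`), and the
companion eigenform at level `Γ₀(N ∏ q²)` of a joint eigenvector (from helper3's `s59u_TwistES'`).
-/
import Mathlib
import Fermat.Agent.Lib.S59.WInt
import Fermat.Agent.Lib.S59.UTwES

set_option autoImplicit false
set_option linter.unusedSectionVars false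
set_option linter.style.haveILetI false

noncomputable section

namespace Fermat.Agent.Lib.S59

open Matrix.SpecialLinearGroup CongruenceSubgroup ModularCurve.Period Polynomial
open Fermat.Agent.Lib.S48 Fermat.Agent.Lib.ES
open scoped MatrixGroups

/-! ### Characters of exponent `n` with prescribed product -/

section Chi

variable (N : ℕ) [NeZero N] (Q : Finset ℕ)

/-- **the characters `χ_q`, with the product formula**: `∏_q χ_q(d) = ψ(d)^{-m}`. -/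
theorem s59e_exists_chi (hQ : ∀ q ∈ Q, q.Prime ∧ ¬ q ∣ N) (ψ : ℤ → ℂ)
    (hper : ∀ a b : ℤ, ((N * ∏ q ∈ Q, q : ℕ) : ℤ) ∣ a - b → ψ a = ψ b)
    (hmul : ∀ a b : ℤ, ψ (a * b) = ψ a * ψ b) {n m : ℕ} (hnm : 2 * m = n + 1)
    (hpow : ∀ d : ℤ, IsCoprime d ((N * ∏ q ∈ Q, q : ℕ) : ℤ) → ψ d ^ n = 1)
    (hker : ∀ d : ℤ, IsCoprime d ((N * ∏ q ∈ Q, q : ℕ) : ℤ) →
      ((∏ q ∈ Q, q : ℕ) : ℤ) ∣ d - 1 → ψ d = 1) :
    ∃ χ : ∀ q : ℕ, MulChar (ZMod q) ℂ, (∀ q ∈ Q, χ q = 1 ∨ (χ q) ^ 2 ≠ 1) ∧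
      (∀ d : ℤ, IsCoprime d ((N * ∏ q ∈ Q, q : ℕ) : ℤ) →
        ψ d * ∏ q ∈ Q, (χ q ((d : ℤ) : ZMod q)) ^ 2 = 1) ∧
      (∀ d : ℤ, IsCoprime d ((N * ∏ q ∈ Q, q : ℕ) : ℤ) →
        ∏ q ∈ Q, χ q ((d : ℤ) : ZMod q) = (ψ d ^ m)⁻¹) := by
  classical
  obtain ⟨χ₀, hχ1, hχ2⟩ := s59w_exists_chi N Q hQ ψ hper hmul hnm hpow hker
  have hn1 : n + 1 ≠ 0 := Nat.succ_ne_zero n
  have hψ0 : ∀ d : ℤ, IsCoprime d ((N * ∏ q ∈ Q, q : ℕ) : ℤ) → ψ d ≠ 0 := by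
    intro d hd h0
    have := hpow d hd
    have hn0 : n ≠ 0 := by omega
    rw [h0, zero_pow hn0] at this
    exact zero_ne_one this
  -- the product of the squares
  have hprod : ∀ d : ℤ, IsCoprime d ((N * ∏ q ∈ Q, q : ℕ) : ℤ) →
      ∏ q ∈ Q, (χ₀ q ((d : ℤ) : ZMod q)) ^ 2 = (ψ d)⁻¹ := fun d hd =>
    eq_inv_of_mul_eq_one_right (hχ2 d hd)
  -- every `χ₀ q` has exponent `2 n`
  have h2n : ∀ q ∈ Q, ∀ a : (ZMod q)ˣ, ((χ₀ q (a : ZMod q)) ^ 2) ^ n = 1 := by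
    intro q hqQ a
    haveI : Fact q.Prime := ⟨(hQ q hqQ).1⟩
    have hcop := s59w_coprime_erase N Q hQ hqQ
    obtain ⟨d, hd1, hda⟩ := s59u_exists_d _ q hcop (a : ZMod q)
    have hdq : IsCoprime d (q : ℤ) := by
      have hu : IsUnit (((d : ℤ)) : ZMod q) := by rw [hda]; exact a.isUnit
      exact ((ZMod.coe_int_isUnit_iff_isCoprime _ q).mp hu).symm
    have hdM : IsCoprime d ((N * ∏ r ∈ Q, r : ℕ) : ℤ) := by
      rw [← s59w_erase_mul N Q hqQ]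
      exact s59w_coprime_of hcop hd1 hdq
    have h1 := hprod d hdM
    rw [← Finset.mul_prod_erase Q _ hqQ] at h1
    have h2 : ∏ r ∈ Q.erase q, (χ₀ r ((d : ℤ) : ZMod r)) ^ 2 = 1 := by
      refine Finset.prod_eq_one fun r hr => ?_
      have hqr : r ∣ N * ∏ r' ∈ Q.erase q, r' :=
        Dvd.dvd.mul_left (Finset.dvd_prod_of_mem (fun r' => r') hr) N
      rw [s59u_cast_eq_one_of_dvd hqr hd1, map_one, one_pow]
    rw [h2, mul_one, hda] at h1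
    rw [h1, inv_pow, hpow d hdM, inv_one]
  refine ⟨fun q => (χ₀ q) ^ (n + 1), ?_, ?_, ?_⟩
  · intro q hqQ
    rcases hχ1 q hqQ with h1 | h2
    · left
      show (χ₀ q) ^ (n + 1) = 1
      rw [h1, one_pow]
    · right
      show ((χ₀ q) ^ (n + 1)) ^ 2 ≠ 1
      have h3 : ((χ₀ q) ^ (n + 1)) ^ 2 = (χ₀ q) ^ 2 := by
        refine MulChar.ext fun a => ?_
        rw [MulChar.pow_apply_coe, MulChar.pow_apply_coe, MulChar.pow_apply_coe, ← pow_mul,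
          show (n + 1) * 2 = 2 * n + 2 by ring, pow_add, pow_mul, h2n q hqQ a, one_mul]
      rw [h3]
      exact h2
  · intro d hd
    have h1 : ∀ q ∈ Q, (((χ₀ q) ^ (n + 1) : MulChar (ZMod q) ℂ) ((d : ℤ) : ZMod q)) ^ 2
        = ((χ₀ q ((d : ℤ) : ZMod q)) ^ 2) ^ (n + 1) := by
      intro q _
      rw [MulChar.pow_apply' _ hn1, ← pow_mul, ← pow_mul, mul_comm]
    rw [Finset.prod_congr rfl h1, Finset.prod_pow, hprod d hd, inv_pow, pow_succ, hpow d hd,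
      one_mul]
    exact mul_inv_cancel₀ (hψ0 d hd)
  · intro d hd
    have h1 : ∀ q ∈ Q, ((χ₀ q) ^ (n + 1) : MulChar (ZMod q) ℂ) ((d : ℤ) : ZMod q)
        = ((χ₀ q ((d : ℤ) : ZMod q)) ^ 2) ^ m := by
      intro q _
      rw [MulChar.pow_apply' _ hn1, ← pow_mul, hnm]
    rw [Finset.prod_congr rfl h1, Finset.prod_pow, hprod d hd, inv_pow]

end Chi

/-! ### Joint eigenvectors -/

section Joint

variable (N : ℕ) [NeZero N] (Q : Finset ℕ) {M : ℕ} [NeZero M] (H : Subgroup (ZMod M)ˣ)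

/-- nonzero joint eigenvectors of all the anemic generators on `V = H_par(Γ_H, ℂ)`. -/
def s59e_IsJoint (v : s59w_V H) : Prop :=
  v ≠ 0 ∧ ∀ i : s59w_AIdx M, ∃ μ : ℂ, s59w_op H ℂ i v = μ • v

/-- **the joint eigenvectors span `V`.** -/
theorem s59e_span_joint (hpet : s59w_PetSS) (hQ : ∀ q ∈ Q, q.Prime ∧ ¬ q ∣ N)
    (hM : M = N * ∏ q ∈ Q, q) {D : ℕ} (hDQ : D = ∏ q ∈ Q, q) (hD : D ∣ M)
    (hH : s59u_ker M D hD ≤ H) {n m : ℕ} (hnm : 2 * m = n + 1) (hn : ∀ u : (ZMod M)ˣ, u ^ n ∈ H) :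
    Submodule.span ℂ {v : s59w_V H | s59e_IsJoint H v} = ⊤ := by
  have h1 := Module.End.iSup_iInf_maxGenEigenspace_eq_top_of_iSup_maxGenEigenspace_eq_top_of_commute
    (s59w_op H ℂ) (fun i j _ => s59w_op_comm H ℂ i j)
    (fun i => Module.End.iSup_maxGenEigenspace_eq_top (s59w_op H ℂ i))
  have h2 : ∀ (i : s59w_AIdx M) (μ : ℂ),
      (s59w_op H ℂ i).maxGenEigenspace μ = (s59w_op H ℂ i).eigenspace μ := fun i μ =>
    (s59w_op_isSemisimple H N Q hpet hQ hM hDQ hD hH hnm hn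
      i).isFinitelySemisimple.maxGenEigenspace_eq_eigenspace μ
  simp only [h2] at h1
  rw [eq_top_iff, ← h1]
  refine iSup_le fun χ v hv => ?_
  by_cases hv0 : v = 0
  · rw [hv0]; exact zero_mem _
  · refine Submodule.subset_span ⟨hv0, fun i => ⟨χ i, ?_⟩⟩
    exact Module.End.mem_eigenspace_iff.mp ((Submodule.mem_iInf _).mp hv i)

/-- the `T_ℓ`-generator only depends on `ℓ`. -/
theorem s59e_op_inl_congr (R : Type*) [CommRing R] {i j : s59w_TIdx M} (h : i.ell = j.ell) :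
    s59w_op H R (Sum.inl i) = s59w_op H R (Sum.inl j) := by
  obtain ⟨ℓ, hp, hℓ, σ, hσ, h11⟩ := i
  obtain ⟨ℓ', hp', hℓ', σ', hσ', h11'⟩ := j
  have h' : ℓ = ℓ' := h
  subst h'
  haveI : Fact ℓ.Prime := ⟨hp⟩
  refine LinearMap.ext fun v => Subtype.ext ?_
  show s48h_TpH H hℓ σ hσ h11 R v = s48h_TpH H hℓ' σ' hσ' h11' R v
  rw [s48h_TpH_eq hℓ hσ h11 hσ' h11' R]

/-- the element `σ_ℓ ^ k` of `Γ₀(M)`. -/
def s59e_tau (i : s59w_TIdx M) (k : ℕ) : Gamma0 M := (⟨i.sig, i.mem⟩ : Gamma0 M) ^ k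

/-- **the twisted Hecke operator** `T'_ℓ = ⟨σ_ℓ^k⟩ T_ℓ` (used with `k = (n-1) m`, so that
`⟨σ_ℓ^k⟩ = ⟨ℓ⟩^{-1/2}`). -/
def s59e_Tp' (R : Type*) [CommRing R] (k : ℕ) (i : s59w_TIdx M) :
    Module.End R (s48h_Hpar R (s48h_GammaH M H) R) :=
  s59w_op H R (Sum.inr (s59e_tau i k)) * s59w_op H R (Sum.inl i)

theorem s59e_Tp'_comm (R : Type*) [CommRing R] (k : ℕ) (i j : s59w_TIdx M) :
    s59e_Tp' H R k i * s59e_Tp' H R k j = s59e_Tp' H R k j * s59e_Tp' H R k i := by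
  have hc : ∀ a b : s59w_AIdx M, Commute (s59w_op H R a) (s59w_op H R b) :=
    fun a b => s59w_op_comm H R a b
  exact ((hc _ _).mul_right (hc _ _)).mul_left ((hc _ _).mul_right (hc _ _))

/-- **the companion eigenform of a joint eigenvector**: `v ≠ 0` a joint eigenvector of the anemic
generators on `H_par(Γ_H(N∏Q), ℂ)`; then there are `y : ℕ → ℂ` and `f ≠ 0` in `S₂(Γ₀(N ∏ q²))`
with `T'_ℓ v = y_ℓ v` and `T_ℓ f = y_ℓ f`. -/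
theorem s59e_joint_companion (hQ : ∀ q ∈ Q, q.Prime ∧ ¬ q ∣ N)
    (hM : M = N * ∏ q ∈ Q, q) {D : ℕ} (hDQ : D = ∏ q ∈ Q, q) (hD : D ∣ M)
    (hH : s59u_ker M D hD ≤ H) {n m : ℕ} (hnm : 2 * m = n + 1) (hn : ∀ u : (ZMod M)ˣ, u ^ n ∈ H)
    {v : s59w_V H} (hv : s59e_IsJoint H v) (M' : ℕ) (hM' : M' = N * ∏ q ∈ Q, q ^ 2) :
    ∃ (y : ℕ → ℂ) (f : CuspForm (Gamma0 M') 2), f ≠ 0 ∧
      (∀ i : s59w_TIdx M, s59e_Tp' H ℂ ((n - 1) * m) i v = y i.ell • v) ∧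
      ∀ (ℓ : ℕ) (hℓ : ℓ.Prime) (hℓN : ¬ ℓ ∣ M'), CuspForm.heckeTLin 2 hℓ hℓN f = y ℓ • f := by
  classical
  subst hM hDQ
  obtain ⟨hv0, hve⟩ := hv
  choose μ hμ using hve
  obtain ⟨c, hc⟩ : ∃ c : Gamma0 (N * ∏ q ∈ Q, q) → ℂ, c = fun σ => μ (Sum.inr σ) := ⟨_, rfl⟩
  have hvd : ∀ σ : Gamma0 (N * ∏ q ∈ Q, q), s59w_dia H σ v = c σ • v := fun σ => by
    rw [hc]; exact hμ (Sum.inr σ)
  have hc1 := s59w_eigen_one hv0 hvd
  have hcm := s59w_eigen_mul hv0 hvd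
  have hcc : ∀ σ τ : Gamma0 (N * ∏ q ∈ Q, q), s59w_lrUnit σ = s59w_lrUnit τ → c σ = c τ :=
    fun σ τ h => s59w_eigen_congr hv0 hvd σ τ (by rw [h, mul_inv_cancel]; exact one_mem _)
  obtain ⟨ψ, hψ⟩ : ∃ ψ, ψ = s59w_psi c hc1 hcm hcc := ⟨_, rfl⟩
  have hper : ∀ a b : ℤ, ((N * ∏ q ∈ Q, q : ℕ) : ℤ) ∣ a - b → ψ a = ψ b := fun a b hab => by
    rw [hψ]; exact s59w_psi_per c hc1 hcm hcc a b hab
  have hmul : ∀ a b : ℤ, ψ (a * b) = ψ a * ψ b := fun a b => by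
    rw [hψ]; exact s59w_psi_mul c hc1 hcm hcc a b
  have hpow : ∀ d : ℤ, IsCoprime d ((N * ∏ q ∈ Q, q : ℕ) : ℤ) → ψ d ^ n = 1 := by
    intro d hd
    obtain ⟨u, hu⟩ := s59w_exists_unit hd
    rw [hψ, s59w_psi_unit c hc1 hcm hcc d u hu]
    exact s59w_eigen_pow_eq_one hv0 hvd hn _
  have hker : ∀ d : ℤ, IsCoprime d ((N * ∏ q ∈ Q, q : ℕ) : ℤ) →
      ((∏ q ∈ Q, q : ℕ) : ℤ) ∣ d - 1 → ψ d = 1 := by
    intro d hd hd1
    obtain ⟨u, hu⟩ := s59w_exists_unit hd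
    rw [hψ, s59w_psi_unit c hc1 hcm hcc d u hu]
    refine s59w_eigen_of_mem hv0 hvd _ ((s59w_mem_GammaH_iff H _).mpr ?_)
    rw [s59w_sig_spec]
    refine hH ?_
    show ZMod.unitsMap hD u = 1
    apply Units.ext
    rw [ZMod.unitsMap_def, Units.coe_map, MonoidHom.coe_coe, ← hu, map_intCast, Units.val_one]
    exact s59u_cast_eq_one_of_dvd (dvd_refl _) hd1
  obtain ⟨χ, hχ1, hχ2, hχ3⟩ := s59e_exists_chi N Q hQ ψ hper hmul hnm hpow hker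
  -- the eigenvalues of the `T_ℓ`
  obtain ⟨x, hxdef⟩ : ∃ x : ℕ → ℂ, x = fun ℓ =>
      if h : ∃ i : s59w_TIdx (N * ∏ q ∈ Q, q), i.ell = ℓ then μ (Sum.inl (Classical.choose h))
      else 0 := ⟨_, rfl⟩
  have hx : ∀ i : s59w_TIdx (N * ∏ q ∈ Q, q), s59w_op H ℂ (Sum.inl i) v = x i.ell • v := by
    intro i
    have h : ∃ j : s59w_TIdx (N * ∏ q ∈ Q, q), j.ell = i.ell := ⟨i, rfl⟩
    rw [hxdef]
    simp only [dif_pos h]
    rw [← hμ, s59e_op_inl_congr H ℂ (Classical.choose_spec h)]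
  -- the eigenvalue of the diamond part
  have hcσ : ∀ i : s59w_TIdx (N * ∏ q ∈ Q, q), c ⟨i.sig, i.mem⟩ = ψ (i.ell : ℤ) := by
    intro i
    rw [hψ, ← s59w_psi_lr c hc1 hcm hcc ⟨i.sig, i.mem⟩]
    refine s59w_psi_per c hc1 hcm hcc _ _ ?_
    rw [← ZMod.intCast_zmod_eq_zero_iff_dvd]
    push_cast
    rw [i.lr, sub_self]
  have hℓcop : ∀ i : s59w_TIdx (N * ∏ q ∈ Q, q),
      IsCoprime (i.ell : ℤ) ((N * ∏ q ∈ Q, q : ℕ) : ℤ) := fun i =>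
    Nat.isCoprime_iff_coprime.mpr ((Nat.Prime.coprime_iff_not_dvd i.prime).mpr i.ndvd)
  have hn1 : 1 ≤ n := by omega
  have hcτ : ∀ i : s59w_TIdx (N * ∏ q ∈ Q, q),
      c (s59e_tau i ((n - 1) * m)) = ∏ q ∈ Q, χ q ((i.ell : ℕ) : ZMod q) := by
    intro i
    have h1 := hχ3 (i.ell : ℤ) (hℓcop i)
    simp only [Int.cast_natCast] at h1
    rw [h1, s59e_tau, s59w_eigen_pow hv0 hvd, hcσ i]
    refine eq_inv_of_mul_eq_one_left ?_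
    rw [pow_mul, ← mul_pow, ← pow_succ, Nat.sub_add_cancel hn1, hpow _ (hℓcop i), one_pow]
  have hM'eq : M' = N * (∏ q ∈ Q, q) * ∏ q ∈ Q, q := by
    rw [hM', mul_assoc, ← Finset.prod_mul_distrib]
    congr 1
    exact Finset.prod_congr rfl fun q _ => pow_two q
  -- the companion form
  obtain ⟨f, hf0, hf⟩ := s59u_TwistES' N Q hQ H hH χ hχ1 ψ hper hχ2 x
    (v : Additive (s48h_GammaH (N * ∏ q ∈ Q, q) H) →+ ℂ)
    (fun h0 => hv0 (Subtype.ext h0)) v.2.1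
    (fun σ hσ => by
      have h1 := congrArg Subtype.val (hvd ⟨σ, hσ⟩)
      rw [hψ, s59w_psi_lr c hc1 hcm hcc ⟨σ, hσ⟩]
      exact h1)
    (fun ℓ _ hℓ σ hσ hσ11 => by
      have h1 := congrArg Subtype.val (hx ⟨ℓ, Fact.out, hℓ, σ, hσ, hσ11⟩)
      exact h1) M' hM'
  refine ⟨fun ℓ => (∏ q ∈ Q, χ q (ℓ : ZMod q)) * x ℓ, f, hf0, fun i => ?_, hf⟩
  show s59w_op H ℂ (Sum.inr (s59e_tau i ((n - 1) * m))) (s59w_op H ℂ (Sum.inl i) v) = _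
  rw [hx i, map_smul]
  have h2 : s59w_op H ℂ (Sum.inr (s59e_tau i ((n - 1) * m))) v
      = c (s59e_tau i ((n - 1) * m)) • v := hvd _
  rw [h2, hcτ i, smul_smul]
  exact congrArg (· • v) (mul_comm _ _)

end Joint

end Fermat.Agent.Lib.S59
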