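/-
S59 (helper5, prefix `s59e_`), (H3)(c) file 2: **[REL]** — the ring homomorphism
`𝕋(Γ₀(N ∏ q²))^{S} → End_R H_par(Γ_H(N ∏ q), R)`, `T_ℓ ↦ T'_ℓ = ⟨ℓ⟩^{-1/2} T_ℓ`, for every coefficient
ring `R` with a cast basis.  Graph trick: the subring of `𝕋 × Mat_ι(ℤ)` generated by the pairs
`(T_ℓ, ℳ'_ℓ)` is the graph of a ring homomorphism, because a pair `(0, m)` in it kills every joint
eigenvector (each has a companion eigenform by `s59e_joint_companion`), and these span.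
-/
import Mathlib
import Fermat.Agent.Lib.S59.EHRel1

set_option autoImplicit false
set_option linter.unusedSectionVars false
set_option linter.style.haveILetI false

noncomputable section

namespace Fermat.Agent.Lib.S59

open Matrix.SpecialLinearGroup CongruenceSubgroup ModularCurve.Period Polynomial CuspForm
open Fermat.Agent.Lib.S48 Fermat.Agent.Lib.ES
open scoped MatrixGroups

/-! ### Abstract lemmas -/

section Abstract

/-- the subring of pairs acting by a common scalar on two given vectors. -/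
def s59e_eigSubring {K A B V₁ V₂ : Type*} [CommRing K] [Ring A] [Ring B] [AddCommGroup V₁]
    [Module K V₁] [AddCommGroup V₂] [Module K V₂] (Φ₁ : A →+* Module.End K V₁)
    (Φ₂ : B →+* Module.End K V₂) (f : V₁) (v : V₂) : Subring (A × B) where
  carrier := {x | ∃ z : K, Φ₁ x.1 f = z • f ∧ Φ₂ x.2 v = z • v}
  mul_mem' := by
    rintro x x' ⟨z, h1, h2⟩ ⟨z', h1', h2'⟩
    refine ⟨z * z', ?_, ?_⟩
    · rw [Prod.fst_mul, map_mul, Module.End.mul_apply, h1', map_smul, h1, smul_smul, mul_comm]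
    · rw [Prod.snd_mul, map_mul, Module.End.mul_apply, h2', map_smul, h2, smul_smul, mul_comm]
  one_mem' := ⟨1, by simp, by simp⟩
  add_mem' := by
    rintro x x' ⟨z, h1, h2⟩ ⟨z', h1', h2'⟩
    refine ⟨z + z', ?_, ?_⟩
    · rw [Prod.fst_add, map_add, LinearMap.add_apply, h1, h1', add_smul]
    · rw [Prod.snd_add, map_add, LinearMap.add_apply, h2, h2', add_smul]
  zero_mem' := ⟨0, by simp, by simp⟩
  neg_mem' := by
    rintro x ⟨z, h1, h2⟩
    refine ⟨-z, ?_, ?_⟩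
    · rw [Prod.fst_neg, map_neg, LinearMap.neg_apply, h1, neg_smul]
    · rw [Prod.snd_neg, map_neg, LinearMap.neg_apply, h2, neg_smul]

/-- a subring of `A × B` which is the graph of a function is the graph of a ring homomorphism. -/
theorem s59e_ringHom_of_graph {A B : Type*} [Ring A] [Ring B] (G : Subring (A × B))
    (hsurj : ∀ a : A, ∃ b : B, (a, b) ∈ G) (hinj : ∀ b : B, ((0 : A), b) ∈ G → b = 0) :
    ∃ φ : A →+* B, ∀ a b, (a, b) ∈ G → φ a = b := by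
  choose g hg using hsurj
  have huniq : ∀ a b b', (a, b) ∈ G → (a, b') ∈ G → b = b' := by
    intro a b b' h h'
    have h1 := G.sub_mem h h'
    rw [Prod.mk_sub_mk, sub_self] at h1
    exact sub_eq_zero.mp (hinj _ h1)
  refine ⟨{ toFun := g, map_one' := ?_, map_mul' := ?_, map_zero' := ?_, map_add' := ?_ },
    fun a b h => huniq a _ _ (hg a) h⟩
  · exact huniq 1 _ _ (hg 1) G.one_mem
  · intro a a'
    refine huniq _ _ _ (hg _) ?_
    have := G.mul_mem (hg a) (hg a')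
    rwa [Prod.mk_mul_mk] at this
  · exact huniq 0 _ _ (hg 0) G.zero_mem
  · intro a a'
    refine huniq _ _ _ (hg _) ?_
    have := G.add_mem (hg a) (hg a')
    rwa [Prod.mk_add_mk] at this

end Abstract

/-! ### The integer matrices of the twisted operators -/

section Mat

variable {M : ℕ} [NeZero M] (H : Subgroup (ZMod M)ˣ) {ι : Type*} [Fintype ι] [DecidableEq ι]
  (b : Module.Basis ι ℤ (s48h_M (s48h_GammaH M H)))

/-- the integer matrix of `T'_ℓ`. -/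
def s59e_mat' (k : ℕ) (i : s59w_TIdx M) : Matrix ι ι ℤ :=
  s59w_mat H b (Sum.inr (s59e_tau i k)) * s59w_mat H b (Sum.inl i)

variable {R : Type*} [CommRing R] (cB : Module.Basis ι R (s48h_Hpar R (s48h_GammaH M H) R))
  (hcB : ∀ i, ((cB i : s48h_Hpar R (s48h_GammaH M H) R) : Additive (s48h_GammaH M H) →+ R)
    = s48h_castB b R i)

/-- integer matrices acting on `H_par(Γ_H, R)` through a basis. -/
def s59e_matAct : Matrix ι ι ℤ →+* Module.End R (s48h_Hpar R (s48h_GammaH M H) R) :=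
  ((Matrix.toLinAlgEquiv cB).toRingEquiv.toRingHom).comp (Int.castRingHom R).mapMatrix

theorem s59e_matAct_apply (m : Matrix ι ι ℤ) :
    s59e_matAct H cB m = Matrix.toLin cB cB (m.map (Int.cast : ℤ → R)) := rfl

include hcB in
theorem s59e_matAct_mat (i : s59w_AIdx M) : s59e_matAct H cB (s59w_mat H b i) = s59w_op H R i := by
  rw [s59e_matAct_apply, ← s59w_toMatrix_op H b cB hcB i, Matrix.toLin_toMatrix]

include hcB in
theorem s59e_matAct_mat' (k : ℕ) (i : s59w_TIdx M) :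
    s59e_matAct H cB (s59e_mat' H b k i) = s59e_Tp' H R k i := by
  rw [s59e_mat', map_mul, s59e_matAct_mat H b cB hcB, s59e_matAct_mat H b cB hcB]
  rfl

theorem s59e_matAct_injective [CharZero R] : Function.Injective (s59e_matAct H cB) := by
  intro m m' h
  rw [s59e_matAct_apply, s59e_matAct_apply] at h
  have h1 := (Matrix.toLin cB cB).injective h
  ext i j
  have h2 := congrFun (congrFun h1 i) j
  simpa using h2

end Mat

/-! ### The graph -/

section Graph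

variable (N : ℕ) [NeZero N] (Q : Finset ℕ) {M : ℕ} [NeZero M] (H : Subgroup (ZMod M)ˣ)
  {ι : Type*} [Fintype ι] [DecidableEq ι] (b : Module.Basis ι ℤ (s48h_M (s48h_GammaH M H)))
  (M' : ℕ) [NeZero M'] (S : Set ℕ)

/-- the generating pairs `(T_ℓ, ℳ'_ℓ)`. -/
def s59e_relGens (k : ℕ) : Set (heckeAlgebra M' 2 S × Matrix ι ι ℤ) :=
  {x | ∃ (ℓ : ℕ) (hℓ : ℓ.Prime) (hℓN : ¬ ℓ ∣ M') (hℓS : ℓ ∉ S) (i : s59w_TIdx M), i.ell = ℓ ∧
    x = (heckeAlgebra.T hℓ hℓN hℓS, s59e_mat' H b k i)}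

/-- an index `i` with `i.ell = ℓ` for every prime `ℓ ∤ M`. -/
theorem s59e_exists_TIdx {ℓ : ℕ} (hℓ : ℓ.Prime) (hℓM : ¬ ℓ ∣ M) :
    ∃ i : s59w_TIdx M, i.ell = ℓ := by
  have hcop : Nat.Coprime ℓ M := (Nat.Prime.coprime_iff_not_dvd hℓ).mpr hℓM
  obtain ⟨σ, hσ⟩ := s59w_exists_sig (ZMod.unitOfCoprime ℓ hcop)
  refine ⟨⟨ℓ, hℓ, hℓM, σ, σ.2, ?_⟩, rfl⟩
  have h1 := congrArg (fun u : (ZMod M)ˣ => (u : ZMod M)) hσ
  simp only [s59w_lrUnit_coe, ZMod.coe_unitOfCoprime] at h1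
  exact h1

/-- **[REL] over `ℤ`**: the ring homomorphism `T_ℓ ↦ ℳ'_ℓ`. -/
theorem s59e_REL_int (hpet : s59w_PetSS) (hQ : ∀ q ∈ Q, q.Prime ∧ ¬ q ∣ N)
    (hM : M = N * ∏ q ∈ Q, q) {D : ℕ} (hDQ : D = ∏ q ∈ Q, q) (hD : D ∣ M)
    (hH : s59u_ker M D hD ≤ H) {n m : ℕ} (hnm : 2 * m = n + 1) (hn : ∀ u : (ZMod M)ˣ, u ^ n ∈ H)
    (hM' : M' = N * ∏ q ∈ Q, q ^ 2) (hS : ∀ q : ℕ, q.Prime → q ∣ M' → q ∈ S) :
    ∃ a : heckeAlgebra M' 2 S →+* Matrix ι ι ℤ,
      (∀ (ℓ : ℕ) (hℓ : ℓ.Prime) (hℓN : ¬ ℓ ∣ M') (hℓS : ℓ ∉ S) (i : s59w_TIdx M), i.ell = ℓ →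
        a (heckeAlgebra.T hℓ hℓN hℓS) = s59e_mat' H b ((n - 1) * m) i) ∧
      ∀ t, a t ∈ Subring.closure (Set.range (s59e_mat' H b ((n - 1) * m))) := by
  classical
  set k := (n - 1) * m with hk
  set G : Subring (heckeAlgebra M' 2 S × Matrix ι ι ℤ) :=
    Subring.closure (s59e_relGens H b M' S k) with hG
  have hMM' : M ∣ M' := by
    rw [hM, hM']
    refine Nat.mul_dvd_mul_left N (Finset.prod_dvd_prod_of_dvd _ _ fun q _ => ?_)
    exact Dvd.intro _ (pow_two q).symm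
  -- `fst` is surjective on `G`
  have hsurj : ∀ t : heckeAlgebra M' 2 S, ∃ mm : Matrix ι ι ℤ, (t, mm) ∈ G := by
    rintro ⟨e, he⟩
    induction he using Algebra.adjoin_induction with
    | mem e he =>
      rcases he with ⟨ℓ, hℓ, hℓN, hℓS, rfl⟩ | ⟨q, hqN, hq, hqS, rfl⟩
      · obtain ⟨i, hi⟩ := s59e_exists_TIdx (M := M) hℓ (fun h => hℓN (dvd_trans h hMM'))
        exact ⟨s59e_mat' H b k i, Subring.subset_closure ⟨ℓ, hℓ, hℓN, hℓS, i, hi, rfl⟩⟩
      · exact absurd (hS q hq hqN) hqS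
    | algebraMap r =>
      refine ⟨(r : Matrix ι ι ℤ), ?_⟩
      have h1 : ((r : ℤ) : heckeAlgebra M' 2 S × Matrix ι ι ℤ) ∈ G := intCast_mem G r
      convert h1 using 1
      refine Prod.ext (Subtype.ext ?_) rfl
      show algebraMap ℤ _ r = (((r : ℤ) : heckeAlgebra M' 2 S × Matrix ι ι ℤ).1 :
        Module.End ℂ (CuspForm (Gamma0 M') 2))
      rw [Prod.fst_intCast, eq_intCast]
      rfl
    | add x y hx hy hx' hy' =>
      obtain ⟨m1, h1⟩ := hx'
      obtain ⟨m2, h2⟩ := hy'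
      exact ⟨m1 + m2, G.add_mem h1 h2⟩
    | mul x y hx hy hx' hy' =>
      obtain ⟨m1, h1⟩ := hx'
      obtain ⟨m2, h2⟩ := hy'
      exact ⟨m1 * m2, G.mul_mem h1 h2⟩
  -- `(0, m) ∈ G` implies `m = 0`
  have hinj : ∀ mm : Matrix ι ι ℤ, ((0 : heckeAlgebra M' 2 S), mm) ∈ G → mm = 0 := by
    intro mm hmm
    have hcBC := s59w_cBC_apply b
    have hkill : ∀ v : s59w_V H, s59e_IsJoint H v → s59e_matAct H (s59w_cBC b) mm v = 0 := by
      intro v hv
      obtain ⟨y, f, hf0, hyv, hyf⟩ := s59e_joint_companion N Q H hQ hM hDQ hD hH hnm hn hv M' hM'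
      have hle : G ≤ s59e_eigSubring (heckeAlgebra M' 2 S).val.toRingHom
          (s59e_matAct H (s59w_cBC b)) f v := by
        refine Subring.closure_le.mpr ?_
        rintro _ ⟨ℓ, hℓ, hℓN, hℓS, i, hi, rfl⟩
        refine ⟨y ℓ, hyf ℓ hℓ hℓN, ?_⟩
        show s59e_matAct H (s59w_cBC b) (s59e_mat' H b k i) v = y ℓ • v
        rw [s59e_matAct_mat' H b (s59w_cBC b) hcBC, hyv i, hi]
      obtain ⟨z, hz1, hz2⟩ := hle hmm
      have hz0 : z = 0 := by
        have h1 : (0 : CuspForm (Gamma0 M') 2) = z • f := by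
          rw [← hz1]; simp
        by_contra hz
        exact hf0 ((smul_eq_zero.mp h1.symm).resolve_left hz)
      rw [hz0, zero_smul] at hz2
      exact hz2
    have h0 : s59e_matAct H (s59w_cBC b) mm = 0 := by
      have hspan := s59e_span_joint N Q H hpet hQ hM hDQ hD hH hnm hn
      refine LinearMap.ext fun v => ?_
      have hv : v ∈ Submodule.span ℂ {v : s59w_V H | s59e_IsJoint H v} := by
        rw [hspan]; exact Submodule.mem_top
      rw [LinearMap.zero_apply]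
      refine Submodule.span_induction (p := fun v _ => s59e_matAct H (s59w_cBC b) mm v = 0)
        (fun v hv => hkill v hv) (map_zero _) (fun x y _ _ hx hy => ?_)
        (fun c x _ hx => ?_) hv
      · rw [map_add, hx, hy, add_zero]
      · rw [map_smul, hx, smul_zero]
    exact s59e_matAct_injective H (s59w_cBC b) (by rw [h0, map_zero])
  obtain ⟨a, ha⟩ := s59e_ringHom_of_graph G hsurj hinj
  refine ⟨a, fun ℓ hℓ hℓN hℓS i hi => ?_, fun t => ?_⟩
  · exact ha _ _ (Subring.subset_closure ⟨ℓ, hℓ, hℓN, hℓS, i, hi, rfl⟩)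
  · obtain ⟨mm, hmm⟩ := hsurj t
    rw [ha t mm hmm]
    have hle : G ≤ Subring.prod ⊤ (Subring.closure (Set.range (s59e_mat' H b k))) := by
      refine Subring.closure_le.mpr ?_
      rintro _ ⟨ℓ, hℓ, hℓN, hℓS, i, hi, rfl⟩
      exact ⟨Subring.mem_top _, Subring.subset_closure ⟨i, rfl⟩⟩
    exact (hle hmm).2

/-- **[REL]**: for every coefficient ring `R` with a cast basis, the ring homomorphism
`𝕋(Γ₀(N ∏ q²))^S → End_R H_par(Γ_H, R)`, `T_ℓ ↦ T'_ℓ`. -/
theorem s59e_REL (hpet : s59w_PetSS) (hQ : ∀ q ∈ Q, q.Prime ∧ ¬ q ∣ N)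
    (hM : M = N * ∏ q ∈ Q, q) {D : ℕ} (hDQ : D = ∏ q ∈ Q, q) (hD : D ∣ M)
    (hH : s59u_ker M D hD ≤ H) {n m : ℕ} (hnm : 2 * m = n + 1) (hn : ∀ u : (ZMod M)ˣ, u ^ n ∈ H)
    (hM' : M' = N * ∏ q ∈ Q, q ^ 2) (hS : ∀ q : ℕ, q.Prime → q ∣ M' → q ∈ S)
    {R : Type*} [CommRing R] (cB : Module.Basis ι R (s48h_Hpar R (s48h_GammaH M H) R))
    (hcB : ∀ i, ((cB i : s48h_Hpar R (s48h_GammaH M H) R) : Additive (s48h_GammaH M H) →+ R)
      = s48h_castB b R i) :
    ∃ a : heckeAlgebra M' 2 S →+* Module.End R (s48h_Hpar R (s48h_GammaH M H) R),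
      (∀ (ℓ : ℕ) (hℓ : ℓ.Prime) (hℓN : ¬ ℓ ∣ M') (hℓS : ℓ ∉ S) (i : s59w_TIdx M), i.ell = ℓ →
        a (heckeAlgebra.T hℓ hℓN hℓS) = s59e_Tp' H R ((n - 1) * m) i) ∧
      ∀ t, a t ∈ Subring.closure (Set.range (s59e_Tp' H R ((n - 1) * m))) := by
  obtain ⟨a, ha1, ha2⟩ := s59e_REL_int N Q H b M' S hpet hQ hM hDQ hD hH hnm hn hM' hS
  refine ⟨(s59e_matAct H cB).comp a, fun ℓ hℓ hℓN hℓS i hi => ?_, fun t => ?_⟩
  · rw [RingHom.comp_apply, ha1 ℓ hℓ hℓN hℓS i hi, s59e_matAct_mat' H b cB hcB]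
  · rw [RingHom.comp_apply]
    refine Subring.closure_induction (p := fun x _ => s59e_matAct H cB x ∈
      Subring.closure (Set.range (s59e_Tp' H R ((n - 1) * m)))) ?_ ?_ ?_ ?_ ?_ ?_ (ha2 t)
    · rintro _ ⟨i, rfl⟩
      rw [s59e_matAct_mat' H b cB hcB]
      exact Subring.subset_closure ⟨i, rfl⟩
    · rw [map_zero]; exact zero_mem _
    · rw [map_one]; exact one_mem _
    · intro x y _ _ hx hy; rw [map_add]; exact add_mem hx hy
    · intro x _ hx; rw [map_neg]; exact neg_mem hx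
    · intro x y _ _ hx hy; rw [map_mul]; exact mul_mem hx hy

end Graph

end Fermat.Agent.Lib.S59
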