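/-
Programme R, node (H0) [GLUE] (helper6, prefix `s59h_`), core part A: pure algebra.
Lucas polynomials for traces of powers of `2 × 2` matrices, congruences for traces and
determinants, finite local algebras over a Noetherian local ring (local structure map, comparison
of adic topologies), closedness of submodules (Krull), Artin–Rees for an injective map from the
ring, and descent of Wiles' identities along a jointly injective family of ring homomorphisms.
-/
import Mathlib
import Fermat.Agent.Lib.S30.WilesTwo

set_option autoImplicit false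

noncomputable section

namespace Fermat.Agent.Lib.S59

open IsLocalRing Fermat.Agent.Lib.S30

section Lucas

variable {R : Type*} [CommRing R]

/-- The Lucas sequence `L_j(x,y)`: `L₀ = 2`, `L₁ = x`, `L_{j+2} = x L_{j+1} - y L_j`; it computes
`tr (M ^ j)` from `x = tr M`, `y = det M` for a `2 × 2` matrix. -/
def s59h_luc (x y : R) : ℕ → R
  | 0 => 2
  | 1 => x
  | (j + 2) => x * s59h_luc x y (j + 1) - y * s59h_luc x y j

theorem s59h_luc_map {S : Type*} [CommRing S] (f : R →+* S) (x y : R) (j : ℕ) :
    f (s59h_luc x y j) = s59h_luc (f x) (f y) j := by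
  induction j using Nat.strong_induction_on with
  | _ j ih =>
    match j with
    | 0 => simp only [s59h_luc, map_ofNat]
    | 1 => simp only [s59h_luc]
    | (j + 2) =>
      simp only [s59h_luc, map_sub, map_mul]
      rw [ih (j + 1) (by omega), ih j (by omega)]

theorem s59h_sq_fin_two (M : Matrix (Fin 2) (Fin 2) R) :
    M * M = M.trace • M - M.det • (1 : Matrix (Fin 2) (Fin 2) R) := by
  ext i j
  fin_cases i <;> fin_cases j <;>
    simp [Matrix.mul_apply, Fin.sum_univ_two, Matrix.trace_fin_two, Matrix.det_fin_two] <;> ring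

theorem s59h_trace_pow (M : Matrix (Fin 2) (Fin 2) R) (j : ℕ) :
    (M ^ j).trace = s59h_luc M.trace M.det j := by
  induction j using Nat.strong_induction_on with
  | _ j ih =>
    match j with
    | 0 => simp [s59h_luc]
    | 1 => simp [s59h_luc]
    | (j + 2) =>
      have h1 : M ^ (j + 2) = M.trace • M ^ (j + 1) - M.det • M ^ j := by
        rw [pow_add, pow_two, s59h_sq_fin_two, mul_sub, mul_smul_comm, mul_smul_comm, mul_one,
          ← pow_succ]
      rw [h1, Matrix.trace_sub, Matrix.trace_smul, Matrix.trace_smul, ih (j + 1) (by omega),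
        ih j (by omega)]
      simp [s59h_luc]

end Lucas

section TwoByTwo

variable {R : Type*} [CommRing R]

/-- `tr (M (N - 1))` lies in `I` when the entries of `N - 1` do. -/
theorem s59h_trace_mul_sub_mem (I : Ideal R) (M N : Matrix (Fin 2) (Fin 2) R)
    (h : ∀ i j, (N - 1) i j ∈ I) : (M * N).trace - M.trace ∈ I := by
  have : (M * N).trace - M.trace = (M * (N - 1)).trace := by
    rw [mul_sub, mul_one, Matrix.trace_sub]
  rw [this, Matrix.trace_fin_two]
  simp only [Matrix.mul_apply, Fin.sum_univ_two]
  exact I.add_mem (I.add_mem (I.mul_mem_left _ (h 0 0)) (I.mul_mem_left _ (h 1 0)))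
    (I.add_mem (I.mul_mem_left _ (h 0 1)) (I.mul_mem_left _ (h 1 1)))

theorem s59h_trace_sub_mul_mem (I : Ideal R) (M N : Matrix (Fin 2) (Fin 2) R)
    (h : ∀ i j, (N - 1) i j ∈ I) : (N * M).trace - M.trace ∈ I := by
  rw [Matrix.trace_mul_comm]
  exact s59h_trace_mul_sub_mem I M N h

/-- `det N - 1` lies in `I` when the entries of `N - 1` do. -/
theorem s59h_det_sub_one_mem (I : Ideal R) (N : Matrix (Fin 2) (Fin 2) R)
    (h : ∀ i j, (N - 1) i j ∈ I) : N.det - 1 ∈ I := by
  have h00 : N 0 0 - 1 ∈ I := by simpa using h 0 0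
  have h01 : N 0 1 ∈ I := by simpa using h 0 1
  have h11 : N 1 1 - 1 ∈ I := by simpa using h 1 1
  have : N.det - 1 = (N 0 0 - 1) * N 1 1 + (N 1 1 - 1) - N 0 1 * N 1 0 := by
    rw [Matrix.det_fin_two]; ring
  rw [this]
  exact I.sub_mem (I.add_mem (I.mul_mem_right _ h00) h11) (I.mul_mem_right _ h01)

/-- The polarised Cayley–Hamilton identity against a traceless matrix. -/
theorem s59h_pol (M P : Matrix (Fin 2) (Fin 2) R) (hP : P.trace = 0) :
    M * P + P * M = M.trace • P + (M * P).trace • (1 : Matrix (Fin 2) (Fin 2) R) := by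
  rw [Matrix.trace_fin_two] at hP
  have h11 : P 1 1 = - P 0 0 := by linear_combination hP
  ext i j
  fin_cases i <;> fin_cases j <;>
    simp [Matrix.mul_apply, Fin.sum_univ_two, Matrix.trace_fin_two, h11] <;> ring

/-- `M + det M • M' = tr M • 1` when `M'` is inverse to `M`. -/
theorem s59h_add_det_smul_inv (M M' : Matrix (Fin 2) (Fin 2) R) (h : M * M' = 1) :
    M + M.det • M' = M.trace • (1 : Matrix (Fin 2) (Fin 2) R) := by
  have h1 : M.det • M' = M.adjugate := by
    have := congrArg (fun Z => M.adjugate * Z) h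
    simp only [← mul_assoc, Matrix.adjugate_mul, mul_one, Matrix.smul_mul, one_mul] at this
    exact this
  rw [h1, Matrix.adjugate_fin_two]
  ext i j
  fin_cases i <;> fin_cases j <;> simp [Matrix.trace_fin_two] <;> ring

end TwoByTwo

section LocalAlg

variable {T : Type*} [CommRing T] [IsLocalRing T]
  {R : Type*} [CommRing R] [IsLocalRing R] [Algebra T R] [Module.Finite T R]

/-- a finite algebra over a local ring, itself local, has a local structure map -/
theorem s59h_map_maximalIdeal_le :
    (maximalIdeal T).map (algebraMap T R) ≤ maximalIdeal R := by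
  apply IsLocalRing.le_maximalIdeal
  intro htop
  have h1 : (maximalIdeal T • ⊤ : Submodule T R) = ⊤ := by
    rw [Ideal.smul_top_eq_map, htop]
    rfl
  have h2 := Submodule.eq_bot_of_le_smul_of_le_jacobson_bot (maximalIdeal T)
    (⊤ : Submodule T R) Module.Finite.fg_top (le_of_eq h1.symm)
    (IsLocalRing.maximalIdeal_le_jacobson _)
  have h3 : (1 : R) ∈ (⊥ : Submodule T R) := h2 ▸ Submodule.mem_top
  exact one_ne_zero ((Submodule.mem_bot T).mp h3)

theorem s59h_algebraMap_mem_maximalIdeal {x : T} (hx : x ∈ maximalIdeal T) :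
    algebraMap T R x ∈ maximalIdeal R :=
  s59h_map_maximalIdeal_le (Ideal.mem_map_of_mem _ hx)

omit [Module.Finite T R] in
theorem s59h_mem_maximalIdeal_of_algebraMap {x : T} (hx : algebraMap T R x ∈ maximalIdeal R) :
    x ∈ maximalIdeal T := by
  rw [mem_maximalIdeal, mem_nonunits_iff] at hx ⊢
  exact fun h => hx (h.map _)

variable [IsNoetherianRing T]

/-- the adic topologies of `R` and of `T` on `R` coincide -/
theorem s59h_exists_pow_le_map (n : ℕ) :
    ∃ m : ℕ, maximalIdeal R ^ m ≤ (maximalIdeal T ^ n).map (algebraMap T R) := by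
  have hN : IsNoetherianRing R := IsNoetherianRing.of_finite T R
  set J := (maximalIdeal T).map (algebraMap T R) with hJ
  have hrad : J.radical = maximalIdeal R := by
    apply le_antisymm
    · exact (Ideal.IsPrime.radical_le_iff (inferInstance : (maximalIdeal R).IsPrime)).mpr
        s59h_map_maximalIdeal_le
    · rw [Ideal.radical_eq_sInf]
      refine le_sInf fun P hP => ?_
      obtain ⟨hJP, hPp⟩ := hP
      have hc : maximalIdeal T ≤ P.comap (algebraMap T R) := Ideal.map_le_iff_le_comap.mp hJP
      have hne : P.comap (algebraMap T R) ≠ ⊤ := (Ideal.comap_isPrime _ P).ne_top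
      have heq : maximalIdeal T = P.comap (algebraMap T R) :=
        (maximalIdeal.isMaximal T).eq_of_le hne hc
      have hmax : (P.comap (algebraMap T R)).IsMaximal := heq ▸ maximalIdeal.isMaximal T
      have hPm : P.IsMaximal := Ideal.isMaximal_of_isIntegral_of_isMaximal_comap P hmax
      rw [IsLocalRing.eq_maximalIdeal hPm]
  obtain ⟨e, he⟩ := Ideal.exists_radical_pow_le_of_fg J
    (IsNoetherian.noetherian _)
  rw [hrad] at he
  refine ⟨e * n, ?_⟩
  rw [pow_mul, Ideal.map_pow]
  exact Ideal.pow_right_mono he n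

end LocalAlg

section Closed

variable {T : Type*} [CommRing T] [IsLocalRing T] [IsNoetherianRing T]
  {P : Type*} [AddCommGroup P] [Module T P] [Module.Finite T P]

/-- submodules of a finite module over a Noetherian local ring are closed -/
theorem s59h_mem_of_approx (N : Submodule T P) (y : P)
    (h : ∀ n : ℕ, ∃ z ∈ N, y - z ∈ (maximalIdeal T ^ n) • (⊤ : Submodule T P)) : y ∈ N := by
  have hK := Ideal.iInf_pow_smul_eq_bot_of_isLocalRing (maximalIdeal T) (M := P ⧸ N)
    (Ideal.IsPrime.ne_top inferInstance)
  have hy : N.mkQ y ∈ (⨅ i : ℕ, maximalIdeal T ^ i • ⊤ : Submodule T (P ⧸ N)) := by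
    rw [Submodule.mem_iInf]
    intro n
    obtain ⟨z, hz, hyz⟩ := h n
    have h1 : N.mkQ y = N.mkQ (y - z) := by
      have hz0 : N.mkQ z = 0 := (Submodule.Quotient.mk_eq_zero N).mpr hz
      rw [map_sub, hz0, sub_zero]
    rw [h1]
    have h2 : N.mkQ (y - z) ∈ Submodule.map N.mkQ (maximalIdeal T ^ n • ⊤) :=
      Submodule.mem_map_of_mem hyz
    rw [Submodule.map_smul''] at h2
    exact Submodule.smul_mono le_rfl le_top h2
  rw [hK, Submodule.mem_bot] at hy
  exact (Submodule.Quotient.mk_eq_zero N).mp hy

/-- Artin–Rees for an injective linear map from the ring itself. -/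
theorem s59h_artinRees (f : T →ₗ[T] P) (hf : Function.Injective f) :
    ∃ k₀ : ℕ, ∀ (n : ℕ) (x : T),
      f x ∈ (maximalIdeal T ^ (n + k₀)) • (⊤ : Submodule T P) → x ∈ maximalIdeal T ^ n := by
  obtain ⟨k₀, hk⟩ := Ideal.exists_pow_inf_eq_pow_smul (maximalIdeal T) (LinearMap.range f)
  refine ⟨k₀, fun n x hx => ?_⟩
  have h1 : f x ∈ maximalIdeal T ^ (n + k₀) • ⊤ ⊓ LinearMap.range f :=
    ⟨hx, LinearMap.mem_range_self f x⟩
  rw [hk (n + k₀) (Nat.le_add_left _ _), Nat.add_sub_cancel] at h1
  have h2 : f x ∈ maximalIdeal T ^ n • LinearMap.range f :=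
    Submodule.smul_mono le_rfl inf_le_right h1
  rw [LinearMap.range_eq_map, ← Submodule.map_smul''] at h2
  obtain ⟨x', hx', hxx⟩ := h2
  have h3 : x' ∈ maximalIdeal T ^ n := by
    rwa [smul_eq_mul, Ideal.mul_top] at hx'
  rw [← hf hxx]
  exact h3

end Closed

section Pi

variable {T : Type*} [CommRing T] {ι : Type*} [Fintype ι] [DecidableEq ι]
  {R : ι → Type*} [∀ i, CommRing (R i)] [∀ i, Algebra T (R i)]

/-- componentwise membership gives membership in `I • ⊤` of the product -/
theorem s59h_pi_mem_smul_top (I : Ideal T) (w : ∀ i, R i)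
    (hw : ∀ i, w i ∈ I.map (algebraMap T (R i))) :
    w ∈ I • (⊤ : Submodule T (∀ i, R i)) := by
  rw [← Finset.univ_sum_single w]
  refine Submodule.sum_mem _ fun i _ => ?_
  have h1 : w i ∈ (I • ⊤ : Submodule T (R i)) := by
    rw [Ideal.smul_top_eq_map]
    exact hw i
  have h2 : LinearMap.single T R i (w i) ∈ Submodule.map (LinearMap.single T R i) (I • ⊤) :=
    Submodule.mem_map_of_mem h1
  rw [Submodule.map_smul''] at h2
  exact Submodule.smul_mono le_rfl le_top h2

end Pi

section Ident

variable {T : Type*} [CommRing T] {ι : Type*} {R : ι → Type*} [∀ i, CommRing (R i)]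
  (f : ∀ i, T →+* R i) (hf : ∀ x y : T, (∀ i, f i x = f i y) → x = y)
  {G : Type*} [Group G] {t e : G → T} {c : G}

include hf in
/-- Wiles' identities descend along a jointly injective family of ring homomorphisms. -/
theorem s59h_ident_of_forall
    (H : ∀ i, s30w_Ident (fun g => f i (t g)) (fun g => f i (e g)) c) : s30w_Ident t e c where
  t_one := hf _ _ fun i => by
    have := (H i).t_one
    simpa only [map_ofNat] using this
  t_c := hf _ _ fun i => by
    have := (H i).t_c
    simpa only [map_zero] using this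
  comm g k := hf _ _ fun i => (H i).comm g k
  det g := hf _ _ fun i => by
    have := (H i).det g
    simp only [s30w_A_map, s30w_D_map, s30w_X_map] at this
    simp only [map_sub, map_mul, map_ofNat]
    exact this
  r1 g k g' k' := hf _ _ fun i => by
    have := (H i).r1 g k g' k'
    simp only [s30w_X_map] at this
    simp only [map_mul]
    exact this
  m12 g k l := hf _ _ fun i => by
    have := (H i).m12 g k l
    simp only [s30w_A_map, s30w_D_map, s30w_X_map] at this
    simp only [map_add, map_mul, map_ofNat]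
    exact this
  m21 l g k := hf _ _ fun i => by
    have := (H i).m21 l g k
    simp only [s30w_A_map, s30w_D_map, s30w_X_map] at this
    simp only [map_add, map_mul, map_ofNat]
    exact this
  sym g k := hf _ _ fun i => by
    have := (H i).sym g k
    simp only [s30w_Y_map, s30w_X_map] at this
    exact this

end Ident

end Fermat.Agent.Lib.S59
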