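/-
Programme R, node (H0) [GLUE] (helper6, prefix `s59h_`), core part U: if all the values
`X(g,h)` of Wiles' construction vanish for the trace of a two-dimensional matrix representation
`u` over a field of characteristic `≠ 2` with an odd involution `c`, then `u` has a common
eigenvector.  (Used to produce the unit `X(g₀,h₀)` from the irreducibility of the residual
representation.)
-/
import Mathlib
import Fermat.Agent.Lib.S30.WilesTwo
import Fermat.Agent.Lib.S59.H0CoreA

set_option autoImplicit false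

noncomputable section

namespace Fermat.Agent.Lib.S59

open Fermat.Agent.Lib.S30

variable {k : Type*} [Field k] {G : Type*} [Group G]

/-- a nonzero matrix all of whose left multiples by `u g` are proportional to it gives a common
eigenvector -/
theorem s59h_eigenvector_of_matrix (u : G →* Matrix (Fin 2) (Fin 2) k)
    (N₀ : Matrix (Fin 2) (Fin 2) k) (hN : N₀ ≠ 0) (h : ∀ g, ∃ μ : k, u g * N₀ = μ • N₀) :
    ∃ w : Fin 2 → k, w ≠ 0 ∧ ∀ g, ∃ μ : k, (u g).mulVec w = μ • w := by
  obtain ⟨i₀, j₀, hij⟩ : ∃ i₀ j₀, N₀ i₀ j₀ ≠ 0 := by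
    by_contra hcon
    push Not at hcon
    exact hN (Matrix.ext fun i j => by rw [hcon i j]; rfl)
  refine ⟨fun i => N₀ i j₀, fun h0 => hij (congrFun h0 i₀), fun g => ?_⟩
  obtain ⟨μ, hμ⟩ := h g
  refine ⟨μ, ?_⟩
  ext i
  have := congrFun (congrFun hμ i) j₀
  rw [Matrix.mul_apply, Matrix.smul_apply] at this
  rw [Matrix.mulVec, dotProduct, Pi.smul_apply]
  exact this

/-- **vanishing of all `X(g,h)` forces a common eigenvector** -/
theorem s59h_common_eigenvector (h2 : (2 : k) ≠ 0) (u : G →* Matrix (Fin 2) (Fin 2) k)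
    (c : G) (hc : c * c = 1) (hdet : (u c).det = -1)
    (hX : ∀ g h, s30w_X (fun x => (u x).trace) c g h = 0) :
    ∃ w : Fin 2 → k, w ≠ 0 ∧ ∀ g, ∃ μ : k, (u g).mulVec w = μ • w := by
  set t : G → k := fun x => (u x).trace with ht
  set P := u c with hPdef
  have hP : P * P = 1 := by rw [hPdef, ← map_mul, hc, map_one]
  have htr : P.trace = 0 := by
    have h1 := s59h_sq_fin_two P
    rw [hP, hdet, neg_smul, sub_neg_eq_add, one_smul] at h1
    have h3 : P.trace • P = 0 := by
      have : P.trace • P + 1 = 0 + 1 := by rw [zero_add]; exact h1.symm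
      exact add_right_cancel this
    have h4 : P.trace • (P * P) = 0 := by rw [← Matrix.smul_mul, h3, zero_mul]
    rw [hP] at h4
    have := congrFun (congrFun h4 0) 0
    simpa using this
  have hpol : ∀ g, u g * P + P * u g = t g • P + t (g * c) • (1 : Matrix (Fin 2) (Fin 2) k) := by
    intro g
    rw [s59h_pol (u g) P htr, ht, hPdef, ← map_mul]
  have hA : ∀ g, (1 + P) * u g * (1 + P) = s30w_A t c g • (1 + P) := fun g =>
    s30w_corner_plus hP (hpol g)
  have hD : ∀ g, (1 - P) * u g * (1 - P) = s30w_D t c g • (1 - P) := fun g =>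
    s30w_corner_minus hP (hpol g)
  have hsum : (1 + P) + (1 - P) = 2 := by rw [add_add_sub_cancel, one_add_one_eq_two]
  have hO3 : ∀ g h, (1 + P) * u g * (1 - P) * u h * (1 + P) = 0 := by
    intro g h
    rw [s30w_O3 u hsum hA g h]
    have := hX g h
    rw [s30w_X] at this
    rw [this, zero_smul]
  have hdet1 : (1 : Matrix (Fin 2) (Fin 2) k).det ≠ -1 := by
    rw [Matrix.det_one]
    intro h
    apply h2
    linear_combination h
  have hEm : (1 - P) ≠ 0 := by
    intro h
    have : P = 1 := (sub_eq_zero.mp h).symm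
    rw [this] at hdet
    exact hdet1 hdet
  have hEp : (1 + P) ≠ 0 := by
    intro h
    have : P = -1 := by rw [eq_neg_iff_add_eq_zero, add_comm]; exact h
    rw [this, Matrix.det_neg, Matrix.det_one] at hdet
    simp only [Fintype.card_fin, even_two, Even.neg_pow, one_pow, mul_one] at hdet
    apply h2
    linear_combination hdet
  have h2u : IsUnit (2 : k) := isUnit_iff_ne_zero.mpr h2
  by_cases hcase : ∀ h, (1 - P) * u h * (1 + P) = 0
  · -- the `+`-eigenline is stable
    refine s59h_eigenvector_of_matrix u (1 + P) hEp fun g => ⟨2⁻¹ * s30w_A t c g, ?_⟩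
    have h1 : (2 : Matrix (Fin 2) (Fin 2) k) * (u g * (1 + P)) = s30w_A t c g • (1 + P) := by
      rw [← hsum, add_mul, ← mul_assoc, ← mul_assoc, hA g, hcase g, add_zero]
    have h3 : (2 : k) • (u g * (1 + P)) = s30w_A t c g • (1 + P) := by
      rw [← h1, two_smul, two_mul]
    rw [mul_smul, ← h3, smul_smul, inv_mul_cancel₀ h2, one_smul]
  · push Not at hcase
    obtain ⟨h₁, hh₁⟩ := hcase
    set N₀ := (1 - P) * u h₁ * (1 + P) with hN₀
    refine s59h_eigenvector_of_matrix u N₀ hh₁ fun g => ⟨2⁻¹ * s30w_D t c g, ?_⟩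
    have e1 : (1 + P) * (u g * N₀) = 0 := by
      rw [hN₀, ← hO3 g h₁]
      simp only [mul_assoc]
    have e2 : (1 - P) * (u g * N₀) = s30w_D t c g • N₀ := by
      have : (1 - P) * (u g * N₀) = ((1 - P) * u g * (1 - P)) * (u h₁ * (1 + P)) := by
        rw [hN₀]; simp only [mul_assoc]
      rw [this, hD g, Matrix.smul_mul, hN₀, mul_assoc]
    have h1 : (2 : Matrix (Fin 2) (Fin 2) k) * (u g * N₀) = s30w_D t c g • N₀ := by
      rw [← hsum, add_mul, e1, e2, zero_add]
    have h3 : (2 : k) • (u g * N₀) = s30w_D t c g • N₀ := by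
      rw [← h1, two_smul, two_mul]
    rw [mul_smul, ← h3, smul_smul, inv_mul_cancel₀ h2, one_smul]

end Fermat.Agent.Lib.S59
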