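/-
Programme R, node (H0) [GLUE] (helper6, prefix `s59h_`), part W: **Wiles' construction over a
commutative ring** in which `2` and one value `X g₀ h₀` are invertible.  From a function
`t : G → R` satisfying the identities `s30w_Ident t e c` (Lib/S30/WilesTwo) the matrices
`!![A g / 2, X g h₀ / 4; X g₀ g / X g₀ h₀, D g / 2]` form a representation `G →* M₂(R)` with trace
`t` and determinant `e`; its entries are congruent to those of `1` modulo any ideal modulo which
`t (σ g) ≡ t g`.  (The field version is `s30w_mat`; here no division, so that `R` may be a local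
ring such as a Hecke algebra.)
-/
import Mathlib
import Fermat.Agent.Lib.S30.WilesTwo

set_option autoImplicit false

noncomputable section

namespace Fermat.Agent.Lib.S59

open Fermat.Agent.Lib.S30

variable {R : Type*} [CommRing R] {G : Type*} [Group G]

/-- Wiles' matrix, with explicit inverses `i2` of `2` and `iu` of `X g₀ h₀`. -/
def s59h_mat (t : G → R) (c g₀ h₀ : G) (i2 iu : R) (g : G) : Matrix (Fin 2) (Fin 2) R :=
  !![i2 * s30w_A t c g, i2 * i2 * s30w_X t c g h₀;
     iu * s30w_X t c g₀ g, i2 * s30w_D t c g]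

variable {t e : G → R} {c g₀ h₀ : G} {i2 iu : R}

theorem s59h_mat_trace (h2 : 2 * i2 = 1) (g : G) :
    (s59h_mat t c g₀ h₀ i2 iu g).trace = t g := by
  rw [Matrix.trace_fin_two]
  simp only [s59h_mat, Matrix.of_apply, Matrix.cons_val', Matrix.cons_val_zero,
    Matrix.cons_val_one, Matrix.cons_val_fin_one, s30w_A, s30w_D]
  linear_combination t g * h2

theorem s59h_key (H : s30w_Ident t e c) (hu : s30w_X t c g₀ h₀ * iu = 1) (g k : G) :
    iu * (s30w_X t c g h₀ * s30w_X t c g₀ k) = s30w_X t c g k := by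
  have := H.r1 g h₀ g₀ k
  linear_combination iu * this + s30w_X t c g k * hu

theorem s59h_mat_det (H : s30w_Ident t e c) (h2 : 2 * i2 = 1)
    (hu : s30w_X t c g₀ h₀ * iu = 1) (g : G) :
    (s59h_mat t c g₀ h₀ i2 iu g).det = e g := by
  rw [Matrix.det_fin_two]
  simp only [s59h_mat, Matrix.of_apply, Matrix.cons_val', Matrix.cons_val_zero,
    Matrix.cons_val_one, Matrix.cons_val_fin_one]
  have k := s59h_key H hu g g
  have d := H.det g
  have h4 : 4 * (i2 * i2) = 1 := by linear_combination (2 * i2 + 1) * h2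
  linear_combination (i2 * i2) * d + e g * h4 - (i2 * i2) * k

theorem s59h_mat_one (H : s30w_Ident t e c) (h2 : 2 * i2 = 1) :
    s59h_mat t c g₀ h₀ i2 iu 1 = 1 := by
  have hA : s30w_A t c 1 = 2 := by rw [s30w_A, one_mul, H.t_one, H.t_c, add_zero]
  have hD : s30w_D t c 1 = 2 := by rw [s30w_D, one_mul, H.t_one, H.t_c, sub_zero]
  have hX1 : s30w_X t c 1 h₀ = 0 := by rw [s30w_X, one_mul, hA]; ring
  have hX2 : s30w_X t c g₀ 1 = 0 := by rw [s30w_X, mul_one, hA]; ring
  rw [s59h_mat, hA, hD, hX1, hX2, mul_zero, mul_zero, mul_comm i2 2, h2]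
  exact Matrix.one_fin_two.symm

theorem s59h_mat_mul (H : s30w_Ident t e c) (h2 : 2 * i2 = 1)
    (hu : s30w_X t c g₀ h₀ * iu = 1) (g k : G) :
    s59h_mat t c g₀ h₀ i2 iu (g * k) =
      s59h_mat t c g₀ h₀ i2 iu g * s59h_mat t c g₀ h₀ i2 iu k := by
  have k1 := s59h_key H hu g k
  have k2 := s59h_key H hu k g
  have m12 := H.m12 g k h₀
  have m21 := H.m21 g₀ g k
  have sy := H.sym g k
  have dX : s30w_X t c g k = 2 * s30w_A t c (g * k) - s30w_A t c g * s30w_A t c k := rfl
  have dY : s30w_Y t c g k = 2 * s30w_D t c (g * k) - s30w_D t c g * s30w_D t c k := rfl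
  rw [s59h_mat, s59h_mat, s59h_mat, Matrix.mul_fin_two]
  congr 1
  ext i j
  fin_cases i <;> fin_cases j
  · simp only [Fin.zero_eta, Fin.isValue, Matrix.cons_val', Matrix.cons_val_zero,
      Matrix.cons_val_fin_one]
    linear_combination (-(i2 * i2)) * dX - (i2 * i2) * k1 - (i2 * s30w_A t c (g * k)) * h2
  · simp only [Fin.zero_eta, Fin.isValue, Fin.mk_one, Matrix.cons_val',
      Matrix.cons_val_zero, Matrix.cons_val_one, Matrix.cons_val_fin_one]
    linear_combination (i2 * i2 * i2) * m12 -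
      (i2 * i2 * s30w_X t c (g * k) h₀) * h2
  · simp only [Fin.zero_eta, Fin.isValue, Fin.mk_one, Matrix.cons_val',
      Matrix.cons_val_zero, Matrix.cons_val_one, Matrix.cons_val_fin_one]
    linear_combination (iu * i2) * m21 - (iu * s30w_X t c g₀ (g * k)) * h2
  · simp only [Fin.mk_one, Fin.isValue, Matrix.cons_val', Matrix.cons_val_one,
      Matrix.cons_val_fin_one]
    linear_combination (-(i2 * i2)) * dY + (i2 * i2) * sy - (i2 * i2) * k2 -
      (i2 * s30w_D t c (g * k)) * h2

/-- **Wiles' representation over a ring.** -/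
def s59h_rep (H : s30w_Ident t e c) (h2 : 2 * i2 = 1) (hu : s30w_X t c g₀ h₀ * iu = 1) :
    G →* Matrix (Fin 2) (Fin 2) R where
  toFun := s59h_mat t c g₀ h₀ i2 iu
  map_one' := s59h_mat_one H h2
  map_mul' := s59h_mat_mul H h2 hu

/-- the entries of `ρ σ - 1` lie in `I` as soon as `t (σ g) ≡ t g` modulo `I`. -/
theorem s59h_mat_sub_one_mem (H : s30w_Ident t e c) (h2 : 2 * i2 = 1) (I : Ideal R) {σ : G}
    (hσ : ∀ g, t (σ * g) - t g ∈ I) (i j : Fin 2) :
    (s59h_mat t c g₀ h₀ i2 iu σ - 1) i j ∈ I := by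
  fin_cases i <;> fin_cases j
  · have h := s30w_A_sub_two_mem H I hσ
    have : (s59h_mat t c g₀ h₀ i2 iu σ - 1) 0 0 = i2 * (s30w_A t c σ - 2) := by
      simp only [s59h_mat, Matrix.sub_apply, Matrix.of_apply, Matrix.cons_val',
        Matrix.cons_val_zero, Matrix.cons_val_fin_one, Matrix.one_apply_eq]
      linear_combination h2
    simp only [Fin.zero_eta]
    rw [this]
    exact I.mul_mem_left _ h
  · have h := s30w_X_left_mem H I hσ h₀
    have : (s59h_mat t c g₀ h₀ i2 iu σ - 1) 0 1 = i2 * i2 * s30w_X t c σ h₀ := by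
      simp [s59h_mat]
    simp only [Fin.zero_eta, Fin.mk_one]
    rw [this]
    exact I.mul_mem_left _ h
  · have h := s30w_X_right_mem H I hσ g₀
    have : (s59h_mat t c g₀ h₀ i2 iu σ - 1) 1 0 = iu * s30w_X t c g₀ σ := by
      simp [s59h_mat]
    simp only [Fin.zero_eta, Fin.mk_one]
    rw [this]
    exact I.mul_mem_left _ h
  · have h := s30w_D_sub_two_mem H I hσ
    have : (s59h_mat t c g₀ h₀ i2 iu σ - 1) 1 1 = i2 * (s30w_D t c σ - 2) := by
      simp only [s59h_mat, Matrix.sub_apply, Matrix.of_apply, Matrix.cons_val',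
        Matrix.cons_val_one, Matrix.cons_val_fin_one, Matrix.one_apply_eq]
      linear_combination h2
    simp only [Fin.mk_one]
    rw [this]
    exact I.mul_mem_left _ h

/-- Wiles' matrix at the involution `c` is `diag (1, -1)`. -/
theorem s59h_mat_c (H : s30w_Ident t e c) (h2 : 2 * i2 = 1) (hc : c * c = 1) :
    s59h_mat t c g₀ h₀ i2 iu c = !![1, 0; 0, -1] := by
  have hA : s30w_A t c c = 2 := by rw [s30w_A, hc, H.t_one, H.t_c, zero_add]
  have hD : s30w_D t c c = -2 := by rw [s30w_D, hc, H.t_one, H.t_c, zero_sub]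
  have hA1 : s30w_A t c 1 = 2 := by rw [s30w_A, one_mul, H.t_one, H.t_c, add_zero]
  have hcc : ∀ g, t (g * c * c) = t g := fun g => by rw [mul_assoc, hc, mul_one]
  have hAgc : ∀ g, s30w_A t c (g * c) = s30w_A t c g := fun g => by
    simp only [s30w_A, hcc]; ring
  have hX1 : s30w_X t c c h₀ = 0 := by
    have e1 : t (c * h₀) = t (h₀ * c) := H.comm c h₀
    have e2 : t (c * h₀ * c) = t h₀ := by rw [mul_assoc, H.comm c (h₀ * c), hcc]
    have h1 : s30w_A t c (c * h₀) = s30w_A t c h₀ := by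
      simp only [s30w_A, e1, e2]; ring
    rw [s30w_X, h1, hA]; ring
  have hX2 : s30w_X t c g₀ c = 0 := by rw [s30w_X, hAgc, hA]; ring
  have h3 : i2 * -2 = -1 := by linear_combination (-1 : R) * h2
  rw [s59h_mat, hA, hD, hX1, hX2, mul_zero, mul_zero, mul_comm i2 2, h2, h3]

end Fermat.Agent.Lib.S59
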