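/-
Programme R, node (H0) [GLUE] (helper6, prefix `s59h_`), core part B: **the gluing theorem in
matrix form** (`s59h_core`).  A finite family of continuous representations
`r i : Γℚ →* M₂(R i)` over finite local `T`-algebras which are domains, jointly injective over the
Noetherian local ring `T` (with `2 ∈ Tˣ`), whose traces and determinants at Frobenius elements
outside `S` are the images of elements `a ℓ`, `d ℓ` of `T`, which are odd at an involution `c` and
whose common reduction is an irreducible `rbar`, glue to a continuous `r₀ : Γℚ →* M₂(T)` with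
`tr r₀ = tr r i`, `det r₀ = det r i` in every `R i`, `r₀ c = diag (1,-1)` and unit off-diagonal
entries.  Ingredients: Frobenius density (`s29d_frobDensity`), Lucas polynomials, Krull
intersection (closedness of `T` in `∏ R i`), Artin–Rees (continuity), Wiles' construction over a
ring (`H0Wiles`).
-/
import Mathlib
import Fermat.Agent.Lib.S59.H0CoreA
import Fermat.Agent.Lib.S59.H0CoreU
import Fermat.Agent.Lib.S59.H0Wiles
import Fermat.Agent.Lib.S53.MatrixRep
import Fermat.Agent.Lib.S29.FDPlace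

set_option autoImplicit false
set_option linter.unusedSectionVars false

noncomputable section

namespace Fermat.Agent.Lib.S59

open IsLocalRing Fermat.Agent.Lib.S30 Fermat.Agent.Lib.S53 Fermat.Agent.Lib.S29

local notation "Γℚ" => (AlgebraicClosure ℚ ≃ₐ[ℚ] AlgebraicClosure ℚ)
local notation "Qbar" => AlgebraicClosure ℚ

/-- Frobenius density, in the form used below: modulo any finite level `L`, every `g` is a power
of a Frobenius element at a prime outside `S`. -/
theorem s59h_density (L : IntermediateField ℚ Qbar) (hL : FiniteDimensional ℚ L)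
    (S : Finset ℕ) (g : Γℚ) :
    ∃ (ℓ : ℕ) (A : ValuationSubring Qbar) (σ : Γℚ) (j : ℕ) (h : Γℚ),
      ℓ.Prime ∧ ℓ ∉ S ∧ A.LiesOverPrime ℓ ∧ A.IsFrobeniusAt σ ℓ ∧ g = σ ^ j * h ∧
        ∀ x ∈ L, h x = x := by
  have hcl : IsAlgClosure ℚ Qbar := ⟨inferInstance, AlgebraicClosure.isAlgebraic ℚ⟩
  have hnQ : Normal ℚ Qbar := IsAlgClosure.normal ℚ Qbar
  set L' : IntermediateField ℚ Qbar := IntermediateField.normalClosure ℚ L Qbar with hL'
  have hle : L ≤ L' := IntermediateField.le_normalClosure L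
  have hnorm : Normal ℚ L' := normalClosure.normal ℚ L Qbar
  have hfd : FiniteDimensional ℚ L' := normalClosure.is_finiteDimensional ℚ L Qbar
  have hstab : ∀ σ : Γℚ, ∀ x ∈ L', σ x ∈ L' := by
    intro σ y hy
    have h1 := IntermediateField.normal_iff_forall_map_le'.mp hnorm σ
    exact h1 ((IntermediateField.mem_map _).mpr ⟨y, hy, rfl⟩)
  obtain ⟨ℓ, A, σ, j, hℓ, hℓS, hA, hFr, hj⟩ := s29d_frobDensity L' hfd hstab S g
  refine ⟨ℓ, A, σ, j, (σ ^ j)⁻¹ * g, hℓ, hℓS, hA, hFr, by rw [mul_inv_cancel_left], ?_⟩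
  intro x hx
  rw [AlgEquiv.mul_apply, ← hj x (hle hx)]
  exact (σ ^ j).symm_apply_apply x

section Level

variable {R : Type} [CommRing R]

/-- `r` is trivial modulo `I` on the elements fixing `L`. -/
def s59h_Level (L : IntermediateField ℚ Qbar) (r : Γℚ →* Matrix (Fin 2) (Fin 2) R)
    (I : Ideal R) : Prop :=
  ∀ σ : Γℚ, (∀ x ∈ L, σ x = x) → ∀ i j, (r σ - 1) i j ∈ I

theorem s59h_Level.mono {L L' : IntermediateField ℚ Qbar} {r : Γℚ →* Matrix (Fin 2) (Fin 2) R}
    {I I' : Ideal R} (h : s59h_Level L r I) (hL : L ≤ L') (hI : I ≤ I') : s59h_Level L' r I' :=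
  fun σ hσ i j => hI (h σ (fun x hx => hσ x (hL hx)) i j)

end Level

/-- Wiles' identities for the trace and determinant of a two-dimensional matrix representation
over a domain with an odd involution. -/
theorem s59h_ident_matrix {R : Type*} [CommRing R] [IsDomain R] (h2 : (2 : R) ≠ 0)
    {G : Type*} [Group G] (u : G →* Matrix (Fin 2) (Fin 2) R) (c : G) (hc : c * c = 1)
    (hdet : (u c).det = -1) :
    s30w_Ident (fun g => (u g).trace) (fun g => (u g).det) c := by
  set ρ : G →* Module.End R (Fin 2 → R) :=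
    ((Matrix.toLinAlgEquiv' : Matrix (Fin 2) (Fin 2) R ≃ₐ[R] Module.End R (Fin 2 → R)) :
      Matrix (Fin 2) (Fin 2) R →* Module.End R (Fin 2 → R)).comp u with hρ
  set ε : G →* Rˣ := (Matrix.detMonoidHom.comp u).toHomUnits with hε
  have hεv : ∀ g, ((ε g : Rˣ) : R) = (u g).det := fun g => by
    rw [hε, MonoidHom.coe_toHomUnits]; rfl
  have h : ∀ g, ρ g + ((ε g : Rˣ) : R) • ρ g⁻¹ = (u g).trace • (1 : Module.End R (Fin 2 → R)) := by
    intro g
    have h1 := s59h_add_det_smul_inv (u g) (u g⁻¹) (by rw [← map_mul, mul_inv_cancel, map_one])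
    have h3 := congrArg
      (Matrix.toLinAlgEquiv' : Matrix (Fin 2) (Fin 2) R ≃ₐ[R] Module.End R (Fin 2 → R)) h1
    rw [map_add, map_smul, map_smul, map_one] at h3
    rw [hεv]
    exact h3
  have hεc : ε c = -1 := by
    apply Units.ext
    rw [hεv, hdet, Units.val_neg, Units.val_one]
  have H := s30w_ident h hc hεc h2
  have : (fun g => ((ε g : Rˣ) : R)) = fun g => (u g).det := funext hεv
  rw [this] at H
  exact H

section Core

variable {T : Type} [CommRing T] [IsLocalRing T] [IsNoetherianRing T]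
  {ι : Type} [Fintype ι] [DecidableEq ι]
  {R : ι → Type} [∀ i, CommRing (R i)] [∀ i, IsLocalRing (R i)]
  [∀ i, Algebra T (R i)] [∀ i, Module.Finite T (R i)]
  (r : ∀ i, Γℚ →* Matrix (Fin 2) (Fin 2) (R i)) (hr : ∀ i, MatContinuous (r i))

include hr in
/-- a common finite level for the whole family modulo `𝔪_T ^ n` -/
theorem s59h_exists_level (n : ℕ) :
    ∃ L : IntermediateField ℚ Qbar, FiniteDimensional ℚ L ∧
      ∀ i, s59h_Level L (r i) ((maximalIdeal T ^ n).map (algebraMap T (R i))) := by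
  choose m hm using fun i => s59h_exists_pow_le_map (T := T) (R := R i) n
  choose Li hLi hlev using fun i => hr i (m i)
  have : ∀ i, FiniteDimensional ℚ (Li i) := hLi
  refine ⟨⨆ i, Li i, IntermediateField.finiteDimensional_iSup_of_finite, fun i => ?_⟩
  exact s59h_Level.mono (hlev i) (le_iSup Li i) (hm i)

variable (S : Finset ℕ) (a d : ℕ → T)

include hr in
/-- Frobenius approximation: modulo a finite level `L₀` and modulo `𝔪_T ^ n` in the whole
family, `g` is a power of a Frobenius element outside `S` -/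
theorem s59h_frob_approx (L₀ : IntermediateField ℚ Qbar) (hL₀ : FiniteDimensional ℚ L₀)
    (g : Γℚ) (n : ℕ) :
    ∃ (ℓ : ℕ) (A : ValuationSubring Qbar) (σ : Γℚ) (j : ℕ) (h : Γℚ),
      ℓ.Prime ∧ ℓ ∉ S ∧ A.LiesOverPrime ℓ ∧ A.IsFrobeniusAt σ ℓ ∧ g = σ ^ j * h ∧
        (∀ x ∈ L₀, h x = x) ∧
        ∀ i i' j', (r i h - 1) i' j' ∈ (maximalIdeal T ^ n).map (algebraMap T (R i)) := by
  obtain ⟨L, hL, hlev⟩ := s59h_exists_level (T := T) r hr n
  have hfd : FiniteDimensional ℚ (L₀ ⊔ L : IntermediateField ℚ Qbar) :=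
    IntermediateField.finiteDimensional_sup L₀ L
  obtain ⟨ℓ, A, σ, j, h, hℓ, hℓS, hA, hFr, hg, hfix⟩ := s59h_density (L₀ ⊔ L) hfd S g
  exact ⟨ℓ, A, σ, j, h, hℓ, hℓS, hA, hFr, hg, fun x hx => hfix x (le_sup_left (a := L₀) hx),
    fun i => hlev i h fun x hx => hfix x (le_sup_right (b := L) hx)⟩

variable
  (hfrob : ∀ (i : ι) (ℓ : ℕ), ℓ.Prime → ℓ ∉ S →
    ∀ A : ValuationSubring Qbar, A.LiesOverPrime ℓ → ∀ σ : Γℚ, A.IsFrobeniusAt σ ℓ →
      (r i σ).trace = algebraMap T (R i) (a ℓ) ∧ (r i σ).det = algebraMap T (R i) (d ℓ))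

include hr hfrob in
/-- traces and determinants of the family are approximated by elements of `T` -/
theorem s59h_approx (g : Γℚ) (n : ℕ) :
    ∃ τ δ : T, ∀ i,
      (r i g).trace - algebraMap T (R i) τ ∈ (maximalIdeal T ^ n).map (algebraMap T (R i)) ∧
      (r i g).det - algebraMap T (R i) δ ∈ (maximalIdeal T ^ n).map (algebraMap T (R i)) := by
  obtain ⟨ℓ, A, σ, j, h, hℓ, hℓS, hA, hFr, hg, -, hlev⟩ :=
    s59h_frob_approx (T := T) r hr S ⊥ inferInstance g n
  refine ⟨s59h_luc (a ℓ) (d ℓ) j, d ℓ ^ j, fun i => ?_⟩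
  obtain ⟨htr, hdet⟩ := hfrob i ℓ hℓ hℓS A hA σ hFr
  have hh := hlev i
  rw [hg, map_mul, map_pow]
  constructor
  · rw [s59h_luc_map, ← htr, ← hdet, ← s59h_trace_pow]
    exact s59h_trace_mul_sub_mem _ _ _ hh
  · rw [Matrix.det_mul, Matrix.det_pow, map_pow, ← hdet]
    have : (r i σ).det ^ j * (r i h).det - (r i σ).det ^ j =
        (r i σ).det ^ j * ((r i h).det - 1) := by ring
    rw [this]
    exact Ideal.mul_mem_left _ _ (s59h_det_sub_one_mem _ _ hh)

include hr hfrob in
/-- the trace and the determinant of the family take values in `T` -/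
theorem s59h_exists_te :
    ∃ t e : Γℚ → T, ∀ g i, algebraMap T (R i) (t g) = (r i g).trace ∧
      algebraMap T (R i) (e g) = (r i g).det := by
  have key : ∀ g : Γℚ, ∃ τ δ : T, ∀ i, algebraMap T (R i) τ = (r i g).trace ∧
      algebraMap T (R i) δ = (r i g).det := by
    intro g
    set N : Submodule T (∀ i, R i) := LinearMap.range (Algebra.linearMap T (∀ i, R i)) with hN
    have h1 : (fun i => (r i g).trace) ∈ N := by
      refine s59h_mem_of_approx N _ fun n => ?_
      obtain ⟨τ, δ, h⟩ := s59h_approx r hr S a d hfrob g n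
      refine ⟨algebraMap T (∀ i, R i) τ, ⟨τ, rfl⟩, s59h_pi_mem_smul_top _ _ fun i => ?_⟩
      exact (h i).1
    have h2 : (fun i => (r i g).det) ∈ N := by
      refine s59h_mem_of_approx N _ fun n => ?_
      obtain ⟨τ, δ, h⟩ := s59h_approx r hr S a d hfrob g n
      refine ⟨algebraMap T (∀ i, R i) δ, ⟨δ, rfl⟩, s59h_pi_mem_smul_top _ _ fun i => ?_⟩
      exact (h i).2
    obtain ⟨τ, hτ⟩ := h1
    obtain ⟨δ, hδ⟩ := h2
    exact ⟨τ, δ, fun i => ⟨congrFun hτ i, congrFun hδ i⟩⟩
  choose t e hte using key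
  exact ⟨t, e, hte⟩

variable [∀ i, IsDomain (R i)]
  (hinj : ∀ x : T, (∀ i, algebraMap T (R i) x = 0) → x = 0)
  (h2 : IsUnit (2 : T)) (c : Γℚ) (hc : c * c = 1) (hodd : ∀ i, (r i c).det = -1)
  {t e : Γℚ → T}
  (hte : ∀ g i, algebraMap T (R i) (t g) = (r i g).trace ∧
    algebraMap T (R i) (e g) = (r i g).det)

include hinj in
theorem s59h_family_ext {x y : T} (h : ∀ i, algebraMap T (R i) x = algebraMap T (R i) y) :
    x = y :=
  sub_eq_zero.mp (hinj _ fun i => by rw [map_sub, h i, sub_self])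

include hinj h2 hc hodd hte in
/-- Wiles' identities for the `T`-valued trace -/
theorem s59h_ident_T : s30w_Ident t e c := by
  refine s59h_ident_of_forall (fun i => algebraMap T (R i))
    (fun x y h => s59h_family_ext hinj h) fun i => ?_
  have h2i : (2 : R i) ≠ 0 := by
    have := h2.map (algebraMap T (R i))
    rw [map_ofNat] at this
    exact this.ne_zero
  have H := s59h_ident_matrix h2i (r i) c hc (hodd i)
  have e1 : (fun g => algebraMap T (R i) (t g)) = fun g => (r i g).trace :=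
    funext fun g => (hte g i).1
  have e2 : (fun g => algebraMap T (R i) (e g)) = fun g => (r i g).det :=
    funext fun g => (hte g i).2
  show s30w_Ident (fun g => algebraMap T (R i) (t g)) (fun g => algebraMap T (R i) (e g)) c
  rw [e1, e2]
  exact H

include hinj hr hte in
/-- continuity of the `T`-valued trace -/
theorem s59h_t_cont (n : ℕ) :
    ∃ L : IntermediateField ℚ Qbar, FiniteDimensional ℚ L ∧
      ∀ σ : Γℚ, (∀ x ∈ L, σ x = x) → ∀ g, t (σ * g) - t g ∈ maximalIdeal T ^ n := by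
  have hf : Function.Injective (Algebra.linearMap T (∀ i, R i)) :=
    (injective_iff_map_eq_zero _).mpr fun x hx => hinj x fun i => congrFun hx i
  obtain ⟨k₀, hk⟩ := s59h_artinRees (Algebra.linearMap T (∀ i, R i)) hf
  obtain ⟨L, hL, hlev⟩ := s59h_exists_level (T := T) r hr (n + k₀)
  refine ⟨L, hL, fun σ hσ g => hk n _ (s59h_pi_mem_smul_top _ _ fun i => ?_)⟩
  show algebraMap T (R i) (t (σ * g) - t g) ∈ _
  rw [map_sub, (hte _ i).1, (hte _ i).1, map_mul]
  exact s59h_trace_sub_mul_mem _ (r i g) (r i σ) (hlev i σ hσ)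

variable {k : Type} [Field k] (θ : T →+* k) (hθ : ∀ x ∈ maximalIdeal T, θ x = 0)
  (rbar : Γℚ →* Matrix (Fin 2) (Fin 2) k)
  (hbarfin : ∃ L : IntermediateField ℚ Qbar, FiniteDimensional ℚ L ∧
    ∀ σ : Γℚ, (∀ x ∈ L, σ x = x) → rbar σ = 1)
  (hbarfrob : ∀ (ℓ : ℕ), ℓ.Prime → ℓ ∉ S →
    ∀ A : ValuationSubring Qbar, A.LiesOverPrime ℓ → ∀ σ : Γℚ, A.IsFrobeniusAt σ ℓ →
      (rbar σ).trace = θ (a ℓ) ∧ (rbar σ).det = θ (d ℓ))

include hr hfrob hte hθ hbarfin hbarfrob in
/-- the `T`-valued trace and determinant reduce to those of the residual representation -/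
theorem s59h_theta_te [Nonempty ι] (g : Γℚ) :
    θ (t g) = (rbar g).trace ∧ θ (e g) = (rbar g).det := by
  obtain ⟨i⟩ := (inferInstance : Nonempty ι)
  obtain ⟨L₀, hL₀, hbar⟩ := hbarfin
  obtain ⟨ℓ, A, σ, j, h, hℓ, hℓS, hA, hFr, hg, hfix, hlev⟩ :=
    s59h_frob_approx (T := T) r hr S L₀ hL₀ g 1
  obtain ⟨htr, hdet⟩ := hfrob i ℓ hℓ hℓS A hA σ hFr
  obtain ⟨htrb, hdetb⟩ := hbarfrob ℓ hℓ hℓS A hA σ hFr
  have hh : ∀ i' j', (r i h - 1) i' j' ∈ maximalIdeal (R i) := fun i' j' => by
    have := hlev i i' j'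
    rw [pow_one] at this
    exact s59h_map_maximalIdeal_le this
  have hbh : rbar h = 1 := hbar h hfix
  have e1 : rbar g = rbar σ ^ j := by rw [hg, map_mul, map_pow, hbh, mul_one]
  constructor
  · have h1 : t g - s59h_luc (a ℓ) (d ℓ) j ∈ maximalIdeal T := by
      apply s59h_mem_maximalIdeal_of_algebraMap (R := R i)
      rw [map_sub, (hte g i).1, s59h_luc_map, ← htr, ← hdet, ← s59h_trace_pow, hg, map_mul,
        map_pow]
      exact s59h_trace_mul_sub_mem _ _ _ hh
    have h3 := hθ _ h1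
    rw [map_sub, sub_eq_zero] at h3
    rw [h3, s59h_luc_map, ← htrb, ← hdetb, ← s59h_trace_pow, e1]
  · have h1 : e g - d ℓ ^ j ∈ maximalIdeal T := by
      apply s59h_mem_maximalIdeal_of_algebraMap (R := R i)
      rw [map_sub, (hte g i).2, map_pow, ← hdet, hg, map_mul, map_pow, Matrix.det_mul,
        Matrix.det_pow]
      have : (r i σ).det ^ j * (r i h).det - (r i σ).det ^ j =
          (r i σ).det ^ j * ((r i h).det - 1) := by ring
      rw [this]
      exact Ideal.mul_mem_left _ _ (s59h_det_sub_one_mem _ _ hh)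
    have h3 := hθ _ h1
    rw [map_sub, sub_eq_zero] at h3
    rw [h3, map_pow, ← hdetb, ← Matrix.det_pow, e1]

include hinj hr hfrob hte hθ hbarfin hbarfrob h2 hodd hc in
/-- a unit value `X(g₀,h₀)`, from the irreducibility of the residual representation -/
theorem s59h_exists_unit [Nonempty ι]
    (hirr : ¬ ∃ w : Fin 2 → k, w ≠ 0 ∧ ∀ g, ∃ μ : k, (rbar g).mulVec w = μ • w) :
    ∃ g₀ h₀ : Γℚ, IsUnit (s30w_X t c g₀ h₀) := by
  by_contra hcon
  push Not at hcon
  apply hirr
  have hcomp := s59h_theta_te r hr S a d hfrob hte θ hθ rbar hbarfin hbarfrob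
  have h2k : (2 : k) ≠ 0 := by
    have := h2.map θ
    rw [map_ofNat] at this
    exact this.ne_zero
  have hec : e c = -1 := by
    apply s59h_family_ext hinj
    intro i
    rw [(hte c i).2, hodd i, map_neg, map_one]
  have hdetc : (rbar c).det = -1 := by
    rw [← (hcomp c).2, hec, map_neg, map_one]
  refine s59h_common_eigenvector h2k rbar c hc hdetc fun g h => ?_
  have e1 : (fun x => (rbar x).trace) = fun x => θ (t x) := funext fun x => ((hcomp x).1).symm
  rw [e1, s30w_X_map]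
  apply hθ
  have := hcon g h
  rwa [mem_maximalIdeal, mem_nonunits_iff]

include hinj hr hfrob hte hθ hbarfin hbarfrob h2 hc in
/-- oddness of the family follows from oddness of the residual representation -/
theorem s59h_odd_of_residual [Nonempty ι] (hoddbar : (rbar c).det = -1) (i : ι) :
    (r i c).det = -1 := by
  have hcomp := s59h_theta_te r hr S a d hfrob hte θ hθ rbar hbarfin hbarfrob
  have hmul : e c * e c = 1 := by
    apply s59h_family_ext hinj
    intro i
    rw [map_mul, (hte c i).2, ← Matrix.det_mul, ← map_mul, hc, map_one, Matrix.det_one, map_one]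
  have hθec : θ (e c) = -1 := by rw [(hcomp c).2, hoddbar]
  have h2k : (2 : k) ≠ 0 := by
    have := h2.map θ
    rw [map_ofNat] at this
    exact this.ne_zero
  have hunit : IsUnit (e c - 1) := by
    by_contra hnu
    have : e c - 1 ∈ maximalIdeal T := by rwa [mem_maximalIdeal, mem_nonunits_iff]
    have h0 := hθ _ this
    rw [map_sub, hθec, map_one] at h0
    apply h2k
    linear_combination -h0
  have hfac : (e c - 1) * (e c + 1) = 0 := by linear_combination hmul
  have hec : e c + 1 = 0 := (hunit.mul_right_eq_zero).mp hfac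
  rw [← (hte c i).2, eq_neg_of_add_eq_zero_left hec, map_neg, map_one]

include hinj hr hfrob hθ hbarfin hbarfrob h2 hodd hc in
/-- **Core gluing theorem** (matrix form): a family of continuous two-dimensional matrix
representations over finite local `T`-algebras `R i` (domains) whose traces and determinants at
Frobenius elements come from `T`, jointly injective, odd at `c`, with residually irreducible
reduction, glues to a continuous representation over `T`. -/
theorem s59h_core [Nonempty ι]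
    (hirr : ¬ ∃ w : Fin 2 → k, w ≠ 0 ∧ ∀ g, ∃ μ : k, (rbar g).mulVec w = μ • w) :
    ∃ r₀ : Γℚ →* Matrix (Fin 2) (Fin 2) T, MatContinuous r₀ ∧
      (∀ g i, algebraMap T (R i) (r₀ g).trace = (r i g).trace ∧
        algebraMap T (R i) (r₀ g).det = (r i g).det) ∧
      r₀ c = !![1, 0; 0, -1] ∧
      ∃ g₀ h₀ : Γℚ, IsUnit (r₀ g₀ 0 1) ∧ IsUnit (r₀ h₀ 1 0) := by
  obtain ⟨t, e, hte⟩ := s59h_exists_te r hr S a d hfrob
  have H : s30w_Ident t e c := s59h_ident_T r hinj h2 c hc hodd hte
  obtain ⟨g₀, h₀, hu⟩ := s59h_exists_unit r hr S a d hfrob hinj h2 c hc hodd hte θ hθ rbar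
    hbarfin hbarfrob hirr
  obtain ⟨i2, hi2⟩ := h2.exists_right_inv
  obtain ⟨iu, hiu⟩ := hu.exists_right_inv
  refine ⟨s59h_rep H hi2 hiu, ?_, ?_, s59h_mat_c H hi2 hc, g₀, h₀, ?_, ?_⟩
  · intro n
    obtain ⟨L, hL, hcont⟩ := s59h_t_cont r hr hinj hte n
    exact ⟨L, hL, fun σ hσ i j => s59h_mat_sub_one_mem H hi2 _ (hcont σ hσ) i j⟩
  · intro g i
    have e1 : (s59h_rep H hi2 hiu g).trace = t g := s59h_mat_trace hi2 g
    have e2 : (s59h_rep H hi2 hiu g).det = e g := s59h_mat_det H hi2 hiu g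
    rw [e1, e2]
    exact hte g i
  · have e1 : s59h_rep H hi2 hiu g₀ 0 1 = i2 * i2 * s30w_X t c g₀ h₀ := by
      simp [s59h_rep, s59h_mat]
    rw [e1]
    have hi2u : IsUnit i2 := IsUnit.of_mul_eq_one _ (by rw [mul_comm]; exact hi2)
    exact (hi2u.mul hi2u).mul hu
  · have e1 : s59h_rep H hi2 hiu h₀ 1 0 = iu * s30w_X t c g₀ h₀ := by
      simp [s59h_rep, s59h_mat]
    rw [e1, mul_comm, hiu]
    exact isUnit_one

include hinj hr hfrob hθ hbarfin hbarfrob h2 hc in
/-- the core gluing theorem with oddness assumed only for the residual representation -/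
theorem s59h_core' [Nonempty ι] (hoddbar : (rbar c).det = -1)
    (hirr : ¬ ∃ w : Fin 2 → k, w ≠ 0 ∧ ∀ g, ∃ μ : k, (rbar g).mulVec w = μ • w) :
    ∃ r₀ : Γℚ →* Matrix (Fin 2) (Fin 2) T, MatContinuous r₀ ∧
      (∀ g i, algebraMap T (R i) (r₀ g).trace = (r i g).trace ∧
        algebraMap T (R i) (r₀ g).det = (r i g).det) ∧
      r₀ c = !![1, 0; 0, -1] ∧
      ∃ g₀ h₀ : Γℚ, IsUnit (r₀ g₀ 0 1) ∧ IsUnit (r₀ h₀ 1 0) := by
  obtain ⟨t, e, hte⟩ := s59h_exists_te r hr S a d hfrob
  exact s59h_core r hr S a d hfrob hinj h2 c hc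
    (s59h_odd_of_residual r hr S a d hfrob hinj h2 c hc hte θ hθ rbar hbarfin hbarfrob hoddbar)
    θ hθ rbar hbarfin hbarfrob hirr

end Core

end Fermat.Agent.Lib.S59
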