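/-
Programme R, node (H0) [GLUE] (helper6, prefix `s59h_`), core part I: absolute irreducibility of
the residual representation of `toRep r` read off the shape of the matrices `r`.
-/
import Mathlib
import Fermat.Agent.Lib.S53.MatrixRep

set_option autoImplicit false

noncomputable section

namespace Fermat.Agent.Lib.S59

open IsLocalRing Fermat.Agent.Lib.S53 Module

local notation "Γℚ" => (AlgebraicClosure ℚ ≃ₐ[ℚ] AlgebraicClosure ℚ)

/-- a two-dimensional representation containing `diag (1,-1)` and matrices with non-zero upper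
right, resp. lower left, entry is irreducible (characteristic `≠ 2`) -/
theorem s59h_irreducible_of_matrix {K : Type*} [Field K] (h2 : (2 : K) ≠ 0)
    {V : Type*} [AddCommGroup V] [Module K V] (b : Basis (Fin 2) K V) {G : Type*}
    (ρ : G → Module.End K V) (c g₀ h₀ : G)
    (hc : LinearMap.toMatrix b b (ρ c) = !![1, 0; 0, -1])
    (hg : LinearMap.toMatrix b b (ρ g₀) 0 1 ≠ 0) (hh : LinearMap.toMatrix b b (ρ h₀) 1 0 ≠ 0)
    (W : Submodule K V) (hW : ∀ g, ∀ x ∈ W, ρ g x ∈ W) : W = ⊥ ∨ W = ⊤ := by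
  have hexp : ∀ x : V, b.repr x 0 • b 0 + b.repr x 1 • b 1 = x := fun x => by
    conv_rhs => rw [← b.sum_repr x, Fin.sum_univ_two]
  have hc0 : ρ c (b 0) = b 0 := by
    rw [← hexp (ρ c (b 0)), ← LinearMap.toMatrix_apply, ← LinearMap.toMatrix_apply, hc]
    simp
  have hc1 : ρ c (b 1) = - b 1 := by
    rw [← hexp (ρ c (b 1)), ← LinearMap.toMatrix_apply, ← LinearMap.toMatrix_apply, hc]
    simp
  have hsplit : ∀ x ∈ W, b.repr x 0 • b 0 ∈ W ∧ b.repr x 1 • b 1 ∈ W := by
    intro x hx
    set x₀ := b.repr x 0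
    set x₁ := b.repr x 1
    have hx' : x₀ • b 0 + x₁ • b 1 = x := hexp x
    have h1 : ρ c x = x₀ • b 0 - x₁ • b 1 := by
      rw [← hx', map_add, map_smul, map_smul, hc0, hc1, smul_neg, sub_eq_add_neg]
    have h3 : ρ c x ∈ W := hW c x hx
    have e0 : x₀ • b 0 = (2 : K)⁻¹ • (x + ρ c x) := by
      have : x + ρ c x = (2 : K) • (x₀ • b 0) := by rw [h1, ← hx']; module
      rw [this, smul_smul, inv_mul_cancel₀ h2, one_smul]
    have e1 : x₁ • b 1 = (2 : K)⁻¹ • (x - ρ c x) := by
      have : x - ρ c x = (2 : K) • (x₁ • b 1) := by rw [h1, ← hx']; module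
      rw [this, smul_smul, inv_mul_cancel₀ h2, one_smul]
    exact ⟨e0 ▸ W.smul_mem _ (W.add_mem hx h3), e1 ▸ W.smul_mem _ (W.sub_mem hx h3)⟩
  have hof : ∀ {a : K} {v : V}, a ≠ 0 → a • v ∈ W → v ∈ W := by
    intro a v ha h
    have := W.smul_mem a⁻¹ h
    rwa [smul_smul, inv_mul_cancel₀ ha, one_smul] at this
  have h01 : b 0 ∈ W → b 1 ∈ W := by
    intro h0
    have := (hsplit _ (hW h₀ _ h0)).2
    rw [← LinearMap.toMatrix_apply] at this
    exact hof hh this
  have h10 : b 1 ∈ W → b 0 ∈ W := by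
    intro h1
    have := (hsplit _ (hW g₀ _ h1)).1
    rw [← LinearMap.toMatrix_apply] at this
    exact hof hg this
  by_cases hbot : W = ⊥
  · exact Or.inl hbot
  · right
    obtain ⟨x, hx, hx0⟩ := (Submodule.ne_bot_iff W).mp hbot
    have hboth : b 0 ∈ W ∧ b 1 ∈ W := by
      by_cases hx₀ : b.repr x 0 = 0
      · have hx₁ : b.repr x 1 ≠ 0 := by
          intro hx₁
          apply hx0
          rw [← hexp x, hx₀, hx₁, zero_smul, zero_smul, add_zero]
        have h1 := hof hx₁ (hsplit x hx).2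
        exact ⟨h10 h1, h1⟩
      · have h0 := hof hx₀ (hsplit x hx).1
        exact ⟨h0, h01 h0⟩
    rw [eq_top_iff]
    intro v _
    rw [← hexp v]
    exact W.add_mem (W.smul_mem _ hboth.1) (W.smul_mem _ hboth.2)

/-- **absolute irreducibility of the residual representation** of `toRep r` from the shape of
`r`: `r c = diag (1,-1)` and unit off-diagonal entries. -/
theorem s59h_residual_absIrr {T : Type} [CommRing T] [IsLocalRing T] (h2 : IsUnit (2 : T))
    (r : Γℚ →* Matrix (Fin 2) (Fin 2) T) (hr : MatContinuous r) (c g₀ h₀ : Γℚ)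
    (hrc : r c = !![1, 0; 0, -1]) (hg : IsUnit (r g₀ 0 1)) (hh : IsUnit (r h₀ 1 0)) :
    (toRep r hr).residual.IsAbsolutelyIrreducible := by
  set ρ := toRep r hr with hρ
  obtain ⟨b', hb'⟩ := exists_basis_residual ρ (toRepBasis r hr)
  obtain ⟨b'', hb''⟩ := exists_basis_baseChange_res
    (K := AlgebraicClosure (ResidueField T)) ρ.residual b'
  set φ : T →+* AlgebraicClosure (ResidueField T) :=
    (algebraMap (ResidueField T) (AlgebraicClosure (ResidueField T))).comp (residue T) with hφ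
  have hM : ∀ σ, LinearMap.toMatrix b'' b''
      ((ρ.residual.baseChange (AlgebraicClosure (ResidueField T))).ρ σ) = (r σ).map φ := by
    intro σ
    have h1 := hb'' σ
    rw [matOfRes_apply, matOfRes_apply, hb' σ, matOf_toRep] at h1
    rw [h1, Matrix.map_map]
    rfl
  have hφu : ∀ {x : T}, IsUnit x → φ x ≠ 0 := fun hx => (hx.map φ).ne_zero
  have h2K : (2 : AlgebraicClosure (ResidueField T)) ≠ 0 := by
    have := hφu h2
    rwa [map_ofNat] at this
  intro W hW
  refine s59h_irreducible_of_matrix h2K b''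
    (fun σ => (ρ.residual.baseChange (AlgebraicClosure (ResidueField T))).ρ σ) c g₀ h₀
    ?_ ?_ ?_ W hW
  · rw [hM, hrc]
    ext i j
    fin_cases i <;> fin_cases j <;> simp
  · rw [hM, Matrix.map_apply]
    exact hφu hg
  · rw [hM, Matrix.map_apply]
    exact hφu hh

end Fermat.Agent.Lib.S59
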