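/-
Programme R, node (H0) [GLUE] (helper6, prefix `s59h_`), core part C: the gluing theorem at the
level of `GaloisRepAdic` (`s59h_core_rep`).  Input: a finite family of *points* `s59h_Point`
(a finite local `T`-algebra which is a domain, with a continuous two-dimensional matrix
representation whose Frobenius traces and determinants are the images of `a ℓ`, `d ℓ ∈ T`),
jointly injective, and an absolutely irreducible odd residual representation with the reduced
Frobenius characteristic polynomials.  Output: `ρ : GaloisRepAdic T` with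
`charpoly ρ(Frob_ℓ) = X² - a ℓ X + d ℓ` and absolutely irreducible residual representation.
-/
import Mathlib
import Fermat.Agent.Lib.S59.H0CoreB
import Fermat.Agent.Lib.S59.H0Irr
import Fermat.Agent.Lib.S53.NormData

set_option autoImplicit false
set_option linter.unusedSectionVars false

noncomputable section

namespace Fermat.Agent.Lib.S59

open IsLocalRing Polynomial Fermat.Agent.Lib.S30 Fermat.Agent.Lib.S53 Fermat.Agent.Lib.S29

local notation "Γℚ" => (AlgebraicClosure ℚ ≃ₐ[ℚ] AlgebraicClosure ℚ)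
local notation "Qbar" => AlgebraicClosure ℚ

/-- comparing the coefficients of two monic quadratic polynomials -/
theorem s59h_coeffs_of_quadratic_eq {R : Type*} [CommRing R] {t d α β : R}
    (h : (X ^ 2 - C t * X + C d : R[X]) = X ^ 2 - C α * X + C β) : t = α ∧ d = β := by
  have h1 := congrArg (fun p : R[X] => p.coeff 1) h
  have h0 := congrArg (fun p : R[X] => p.coeff 0) h
  simp only [coeff_add, coeff_sub, coeff_X_pow, coeff_C_mul, coeff_X_one, coeff_C_succ,
    coeff_X_zero, coeff_C_zero, mul_one, mul_zero] at h1 h0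
  norm_num at h1 h0
  exact ⟨h1, h0⟩

/-- the characteristic polynomial of `toRep r` -/
theorem s59h_charpoly_toRep {A : Type} [CommRing A] [IsLocalRing A]
    (r : Γℚ →* Matrix (Fin 2) (Fin 2) A) (hr : MatContinuous r) (σ : Γℚ) :
    LinearMap.charpoly ((toRep r hr).ρ σ) = X ^ 2 - C (r σ).trace * X + C (r σ).det := by
  rw [← LinearMap.charpoly_toMatrix ((toRep r hr).ρ σ) (toRepBasis r hr), ← matOf_apply,
    matOf_toRep, Matrix.charpoly_fin_two]

theorem s59h_trace_toRep {A : Type} [CommRing A] [IsLocalRing A]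
    (r : Γℚ →* Matrix (Fin 2) (Fin 2) A) (hr : MatContinuous r) (σ : Γℚ) :
    LinearMap.trace A (toRep r hr).V ((toRep r hr).ρ σ) = (r σ).trace := by
  rw [LinearMap.trace_eq_matrix_trace A (toRepBasis r hr), ← matOf_apply, matOf_toRep]

/-- A *point* of `T`: a finite local `T`-algebra `R` which is a domain, with a continuous
two-dimensional matrix representation over `R` whose traces and determinants at the Frobenius
elements outside `S` are the images of `a ℓ`, `d ℓ`. -/
structure s59h_Point (T : Type) [CommRing T] (S : Finset ℕ) (a d : ℕ → T) : Type 1 where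
  /-- the coefficient ring -/
  R : Type
  [instCommRing : CommRing R]
  [instIsDomain : IsDomain R]
  [instIsLocalRing : IsLocalRing R]
  [instAlgebra : Algebra T R]
  [instFinite : Module.Finite T R]
  /-- the representation -/
  r : Γℚ →* Matrix (Fin 2) (Fin 2) R
  cont : MatContinuous r
  frob : ∀ (ℓ : ℕ), ℓ.Prime → ℓ ∉ S →
    ∀ A : ValuationSubring Qbar, A.LiesOverPrime ℓ → ∀ σ : Γℚ, A.IsFrobeniusAt σ ℓ →
      (r σ).trace = algebraMap T R (a ℓ) ∧ (r σ).det = algebraMap T R (d ℓ)

attribute [instance] s59h_Point.instCommRing s59h_Point.instIsDomain s59h_Point.instIsLocalRing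
  s59h_Point.instAlgebra s59h_Point.instFinite

section Rep

variable {T : Type} [CommRing T] [IsLocalRing T] [IsNoetherianRing T] (h2 : IsUnit (2 : T))
  (S : Finset ℕ) (a d : ℕ → T) {ι : Type} [Finite ι] [Nonempty ι]
  (pt : ι → s59h_Point T S a d)
  (hinj : ∀ x : T, (∀ i, algebraMap T (pt i).R x = 0) → x = 0)
  (c : Γℚ) (hc : c * c = 1)
  {k : Type} [Field k] (θ : T →+* k) (hθ : ∀ x ∈ maximalIdeal T, θ x = 0)
  (ρbar : ResidualGaloisRep k) (habs : ρbar.IsAbsolutelyIrreducible)
  (hoddbar : LinearMap.det (ρbar.ρ c) = -1)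
  (hbar : ∀ (ℓ : ℕ), ℓ.Prime → ℓ ∉ S →
    ∀ A : ValuationSubring Qbar, A.LiesOverPrime ℓ → ∀ σ : Γℚ, A.IsFrobeniusAt σ ℓ →
      LinearMap.charpoly (ρbar.ρ σ) = X ^ 2 - C (θ (a ℓ)) * X + C (θ (d ℓ)))

include h2 hinj hc hθ habs hoddbar hbar in
/-- **Gluing theorem** (`GaloisRepAdic` form). -/
theorem s59h_core_rep :
    ∃ ρ : GaloisRepAdic T,
      (∀ (ℓ : ℕ), ℓ.Prime → ℓ ∉ S →
        ∀ A : ValuationSubring Qbar, A.LiesOverPrime ℓ → ∀ σ : Γℚ, A.IsFrobeniusAt σ ℓ →
          LinearMap.charpoly (ρ.ρ σ) = X ^ 2 - C (a ℓ) * X + C (d ℓ)) ∧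
      ρ.residual.IsAbsolutelyIrreducible ∧
      ∀ g i, algebraMap T (pt i).R (LinearMap.trace T ρ.V (ρ.ρ g)) = ((pt i).r g).trace := by
  classical
  haveI : Fintype ι := Fintype.ofFinite ι
  set b := ResidualGaloisRep.someBasis ρbar with hb
  set rbar := matOfRes ρbar b with hrbar
  have hbarfin : ∃ L : IntermediateField ℚ Qbar, FiniteDimensional ℚ L ∧
      ∀ σ : Γℚ, (∀ x ∈ L, σ x = x) → rbar σ = 1 := by
    obtain ⟨L, hL, h⟩ := ρbar.factorsThroughFiniteLevel
    refine ⟨L, hL, fun σ hσ => ?_⟩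
    rw [hrbar, matOfRes_apply, h σ hσ]
    exact LinearMap.toMatrix_one b
  have hbarfrob : ∀ (ℓ : ℕ), ℓ.Prime → ℓ ∉ S →
      ∀ A : ValuationSubring Qbar, A.LiesOverPrime ℓ → ∀ σ : Γℚ, A.IsFrobeniusAt σ ℓ →
        (rbar σ).trace = θ (a ℓ) ∧ (rbar σ).det = θ (d ℓ) := by
    intro ℓ hℓ hℓS A hA σ hFr
    have h1 := hbar ℓ hℓ hℓS A hA σ hFr
    rw [← LinearMap.charpoly_toMatrix (ρbar.ρ σ) b, ← matOfRes_apply, Matrix.charpoly_fin_two]
      at h1
    exact s59h_coeffs_of_quadratic_eq h1
  have hdetc : (rbar c).det = -1 := by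
    rw [hrbar, matOfRes_apply, LinearMap.det_toMatrix]
    exact hoddbar
  have hirr : ¬ ∃ w : Fin 2 → k, w ≠ 0 ∧ ∀ g, ∃ μ : k, (rbar g).mulVec w = μ • w := by
    rintro ⟨w, hw, h⟩
    refine no_common_eigenvector ρbar habs b
      (fun i => algebraMap k (AlgebraicClosure k) (w i)) ?_ fun σ => ?_
    · intro h0
      apply hw
      funext i
      have := congrFun h0 i
      simp only [Pi.zero_apply] at this ⊢
      exact (map_eq_zero _).mp this
    · obtain ⟨μ, hμ⟩ := h σ
      refine ⟨algebraMap k (AlgebraicClosure k) μ, ?_⟩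
      have h1 := RingHom.map_mulVec (algebraMap k (AlgebraicClosure k)) (rbar σ) w
      funext i
      have h3 := h1 i
      rw [hμ] at h3
      simp only [Pi.smul_apply, smul_eq_mul, map_mul] at h3
      simp only [Pi.smul_apply, smul_eq_mul]
      rw [h3]
      rfl
  obtain ⟨r₀, hr₀, hcompat, hrc, g₀, h₀, hg, hh⟩ :=
    s59h_core' (R := fun i => (pt i).R) (fun i => (pt i).r) (fun i => (pt i).cont) S a d
      (fun i => (pt i).frob) hinj h2 c hc θ hθ rbar hbarfin hbarfrob hdetc hirr
  refine ⟨toRep r₀ hr₀, ?_, s59h_residual_absIrr h2 r₀ hr₀ c g₀ h₀ hrc hg hh, fun g i => ?_⟩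
  · intro ℓ hℓ hℓS A hA σ hFr
    rw [s59h_charpoly_toRep]
    have e1 : (r₀ σ).trace = a ℓ := by
      apply s59h_family_ext (R := fun i => (pt i).R) hinj
      intro i
      rw [(hcompat σ i).1, ((pt i).frob ℓ hℓ hℓS A hA σ hFr).1]
    have e2 : (r₀ σ).det = d ℓ := by
      apply s59h_family_ext (R := fun i => (pt i).R) hinj
      intro i
      rw [(hcompat σ i).2, ((pt i).frob ℓ hℓ hℓS A hA σ hFr).2]
    rw [e1, e2]
  · rw [s59h_trace_toRep]
    exact (hcompat g i).1

end Rep

end Fermat.Agent.Lib.S59
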