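/-
Programme R, node (H0) [GLUE] (helper6, prefix `s59h_`), part E: **normalisation**.  A domain which
is a finite algebra over a complete Noetherian local ring is local; a domain `D` finite over a
complete discrete valuation ring `𝒪` (characteristic zero, finite residue field) with
`𝒪 → D` injective embeds into the integral closure of `𝒪` in `Frac D`, which is again a complete
discrete valuation ring of characteristic zero with finite residue field, finite over `𝒪`.
-/
import Mathlib
import Fermat.Agent.Lib.S59.H0CoreA
import Fermat.Prelude.Thm_IsLocalRing_isAdicComplete_of_module_finite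
import Fermat.Prelude.Thm_Algebra_finite_maximalSpectrum_and_bijective_localization_of_module_finite

set_option autoImplicit false
set_option linter.style.haveILetI false

noncomputable section

open IsLocalRing

namespace Fermat.Agent.Lib.S59

/-- a domain which is a finite algebra over a complete Noetherian local ring is local. -/
theorem s59h_isLocalRing_of_finite_domain (𝒪 : Type) [CommRing 𝒪] [IsLocalRing 𝒪]
    [IsNoetherianRing 𝒪] [IsAdicComplete (maximalIdeal 𝒪) 𝒪]
    (C : Type) [CommRing C] [IsDomain C] [Algebra 𝒪 C] [Module.Finite 𝒪 C] : IsLocalRing C := by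
  classical
  obtain ⟨-, hbij, -, -⟩ :=
    Algebra.finite_maximalSpectrum_and_bijective_localization_of_module_finite (𝒪 := 𝒪) C
  refine IsLocalRing.of_unique_max_ideal ?_
  obtain ⟨Q, hQ⟩ := Ideal.exists_maximal C
  refine ⟨Q, hQ, fun Q' hQ' => ?_⟩
  by_contra hne
  set P : MaximalSpectrum C := ⟨Q, hQ⟩
  set P' : MaximalSpectrum C := ⟨Q', hQ'⟩
  have hPP' : P ≠ P' := fun h => hne (congrArg MaximalSpectrum.asIdeal h).symm
  obtain ⟨e, he⟩ := hbij.2 (Function.update 0 P 1)
  obtain ⟨e', he'⟩ := hbij.2 (Function.update 0 P' 1)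
  have hee' : e * e' = 0 := by
    apply hbij.1
    rw [map_mul, he, he', map_zero]
    funext R
    by_cases hR : R = P
    · subst hR
      simp [Function.update_of_ne hPP']
    · simp [Function.update_of_ne hR]
  have he0 : e ≠ 0 := by
    intro h0
    have := congrFun he P
    rw [h0, map_zero] at this
    simp only [Pi.zero_apply, Function.update_self] at this
    exact zero_ne_one this
  have he'0 : e' ≠ 0 := by
    intro h0
    have := congrFun he' P'
    rw [h0, map_zero] at this
    simp only [Pi.zero_apply, Function.update_self] at this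
    exact zero_ne_one this
  exact (mul_ne_zero he0 he'0) hee'

section Ext

variable (𝒪 : Type) [CommRing 𝒪] [IsDomain 𝒪] [IsDiscreteValuationRing 𝒪]
  [IsAdicComplete (maximalIdeal 𝒪) 𝒪] [Finite (ResidueField 𝒪)] [CharZero 𝒪]
  (D : Type) [CommRing D] [IsDomain D] [Algebra 𝒪 D] [Module.Finite 𝒪 D]

attribute [local instance] FractionRing.liftAlgebra

/-- **normalisation**: a domain finite over a complete discrete valuation ring `𝒪` of
characteristic zero with finite residue field, containing `𝒪`, embeds into a ring of the same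
kind which is finite over `𝒪`. -/
theorem s59h_exists_dvr_extension (hinj : Function.Injective (algebraMap 𝒪 D)) :
    ∃ (𝒪' : Type) (_ : CommRing 𝒪') (_ : IsDomain 𝒪') (_ : IsDiscreteValuationRing 𝒪')
      (_ : IsAdicComplete (maximalIdeal 𝒪') 𝒪') (_ : Finite (ResidueField 𝒪')) (_ : CharZero 𝒪')
      (_ : Algebra 𝒪 𝒪') (_ : Module.Finite 𝒪 𝒪') (_ : IsLocalHom (algebraMap 𝒪 𝒪')),
      ∃ j : D →ₐ[𝒪] 𝒪', Function.Injective j := by
  haveI : FaithfulSMul 𝒪 D := (faithfulSMul_iff_algebraMap_injective 𝒪 D).mpr hinj
  let K := FractionRing 𝒪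
  let L := FractionRing D
  haveI : Algebra.IsIntegral 𝒪 D := inferInstance
  haveI : Algebra.IsAlgebraic 𝒪 D := inferInstance
  haveI : Module.Finite K L := Module.Finite.of_isLocalization 𝒪 D (nonZeroDivisors 𝒪)
  haveI : CharZero K := inferInstance
  haveI : Algebra.IsSeparable K L := inferInstance
  let C := integralClosure 𝒪 L
  haveI : Module.Finite 𝒪 C := IsIntegralClosure.finite 𝒪 K L C
  haveI hded : IsDedekindDomain C := integralClosure.isDedekindDomain 𝒪 K L
  haveI : IsNoetherianRing 𝒪 := inferInstance
  haveI hloc : IsLocalRing C := s59h_isLocalRing_of_finite_domain 𝒪 C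
  have hCinj : Function.Injective (algebraMap 𝒪 C) := by
    have h1 : Function.Injective (algebraMap 𝒪 L) := FaithfulSMul.algebraMap_injective 𝒪 L
    intro x y hxy
    apply h1
    have := congrArg (algebraMap C L) hxy
    rwa [← IsScalarTower.algebraMap_apply, ← IsScalarTower.algebraMap_apply] at this
  haveI hlh : IsLocalHom (algebraMap 𝒪 C) := by
    refine ⟨fun x hx => ?_⟩
    by_contra hnu
    have hxm : x ∈ maximalIdeal 𝒪 := by rwa [mem_maximalIdeal, mem_nonunits_iff]
    have := s59h_algebraMap_mem_maximalIdeal (R := C) hxm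
    rw [mem_maximalIdeal, mem_nonunits_iff] at this
    exact this hx
  have hnf : ¬ IsField C := by
    intro hf
    obtain ⟨ϖ, hϖ⟩ := IsDiscreteValuationRing.exists_irreducible 𝒪
    have h1 : algebraMap 𝒪 C ϖ ∈ maximalIdeal C :=
      s59h_algebraMap_mem_maximalIdeal (R := C)
        (by rw [mem_maximalIdeal, mem_nonunits_iff]; exact hϖ.not_isUnit)
    rw [IsLocalRing.isField_iff_maximalIdeal_eq.mp hf, Ideal.mem_bot] at h1
    exact hϖ.ne_zero (hCinj (by rw [h1, map_zero]))
  haveI hdvr : IsDiscreteValuationRing C :=
    ((IsDiscreteValuationRing.TFAE C hnf).out 0 2).mpr hded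
  haveI hcomp : IsAdicComplete (maximalIdeal C) C :=
    IsLocalRing.isAdicComplete_of_module_finite (𝒪 := 𝒪)
  haveI hfin : Finite (ResidueField C) :=
    Module.finite_of_finite (ResidueField 𝒪)
  haveI hchar : CharZero C :=
    charZero_of_injective_algebraMap hCinj
  let j : D →ₐ[𝒪] C := (IsScalarTower.toAlgHom 𝒪 D L).codRestrict C fun d =>
    (Algebra.IsIntegral.isIntegral (R := 𝒪) d).map (IsScalarTower.toAlgHom 𝒪 D L)
  refine ⟨C, inferInstance, inferInstance, hdvr, hcomp, hfin, hchar, inferInstance, inferInstance,
    hlh, j, ?_⟩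
  intro x y hxy
  have := congrArg (fun z : C => (z : L)) hxy
  exact IsFractionRing.injective D L this

end Ext

end Fermat.Agent.Lib.S59
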