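/-
Programme R, node (H0) [GLUE] (helper6, prefix `s59h_`): **the abstract gluing theorem `s59h_glue`** for a
reduced finite free local algebra `T` over a complete discrete valuation ring: points above the
minimal primes (normalisation `H0Ext`), then the core theorem `s59h_core_rep`.
-/
import Mathlib
import Fermat.Agent.Lib.S59.H0CoreC
import Fermat.Agent.Lib.S59.H0Ext

set_option autoImplicit false
set_option linter.unusedSectionVars false
set_option linter.style.haveILetI false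

noncomputable section

namespace Fermat.Agent.Lib.S59

open IsLocalRing Polynomial Fermat.Agent.Lib.S30 Fermat.Agent.Lib.S53 Fermat.Agent.Lib.S29

local notation "Γℚ" => (AlgebraicClosure ℚ ≃ₐ[ℚ] AlgebraicClosure ℚ)
local notation "Qbar" => AlgebraicClosure ℚ

section Glue

variable {𝒪 : Type} [CommRing 𝒪] [IsDomain 𝒪] [IsDiscreteValuationRing 𝒪]
  [IsAdicComplete (maximalIdeal 𝒪) 𝒪] [Finite (ResidueField 𝒪)] [CharZero 𝒪]
  {T : Type} [CommRing T] [IsLocalRing T] [Algebra 𝒪 T] [Module.Finite 𝒪 T] [Module.Free 𝒪 T]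
  (S : Finset ℕ) (a d : ℕ → T)

/-- The hypothesis of the gluing theorem: every point of `T` with values in a complete discrete
valuation ring finite over `𝒪` carries, after a finite extension of the coefficients, a Galois
representation with the prescribed Frobenius characteristic polynomials (the shape of S30). -/
def s59h_HasPoints : Prop :=
  ∀ (𝒪' : Type) [CommRing 𝒪'] [IsDomain 𝒪'] [IsDiscreteValuationRing 𝒪']
    [IsAdicComplete (maximalIdeal 𝒪') 𝒪'] [Finite (ResidueField 𝒪')] [CharZero 𝒪']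
    [Algebra 𝒪 𝒪'] [Module.Finite 𝒪 𝒪'] [IsLocalHom (algebraMap 𝒪 𝒪')]
    (x : T →ₐ[𝒪] 𝒪'),
    ∃ (𝒪'' : Type) (_ : CommRing 𝒪'') (_ : IsDomain 𝒪'') (_ : IsDiscreteValuationRing 𝒪'')
      (_ : Algebra 𝒪' 𝒪'') (_ : Module.Finite 𝒪' 𝒪''),
      Function.Injective (algebraMap 𝒪' 𝒪'') ∧
      ∃ ρ : GaloisRepAdic 𝒪'',
        ∀ (ℓ : ℕ), ℓ.Prime → ℓ ∉ S →
          ∀ A : ValuationSubring Qbar, A.LiesOverPrime ℓ → ∀ σ : Γℚ, A.IsFrobeniusAt σ ℓ →
            LinearMap.charpoly (ρ.ρ σ) =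
              X ^ 2 - C (algebraMap 𝒪' 𝒪'' (x (a ℓ))) * X + C (algebraMap 𝒪' 𝒪'' (x (d ℓ)))

variable {S a d}

/-- a point of `T` above every minimal prime -/
theorem s59h_point_of_minimalPrime (hpt : s59h_HasPoints (𝒪 := 𝒪) S a d) {𝔭 : Ideal T}
    (h𝔭 : 𝔭 ∈ minimalPrimes T) :
    ∃ P : s59h_Point T S a d, RingHom.ker (algebraMap T P.R) = 𝔭 := by
  haveI : 𝔭.IsPrime := Ideal.IsMinimalPrime.isPrime h𝔭
  -- `𝒪 → T ⧸ 𝔭` is injective
  have hinj : Function.Injective (algebraMap 𝒪 (T ⧸ 𝔭)) := by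
    rw [injective_iff_map_eq_zero]
    intro o ho
    by_contra hne
    have h1 : algebraMap 𝒪 T o ∈ 𝔭 := by
      rw [IsScalarTower.algebraMap_apply 𝒪 T (T ⧸ 𝔭)] at ho
      exact Ideal.Quotient.eq_zero_iff_mem.mp ho
    have h3 : algebraMap 𝒪 T o ∈ nonZeroDivisors T := by
      rw [mem_nonZeroDivisors_iff_right]
      intro t ht
      rw [mul_comm, ← Algebra.smul_def] at ht
      exact (smul_eq_zero.mp ht).resolve_left hne
    exact (Set.disjoint_left.mp (Ideal.disjoint_nonZeroDivisors_of_mem_minimalPrimes h𝔭)) h1 h3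
  obtain ⟨𝒪', _, _, _, _, _, _, _, _, _, j, hj⟩ := s59h_exists_dvr_extension 𝒪 (T ⧸ 𝔭) hinj
  set x : T →ₐ[𝒪] 𝒪' := j.comp (Ideal.Quotient.mkₐ 𝒪 𝔭) with hx
  obtain ⟨𝒪'', _, _, _, _, _, hinj'', ρ, hρ⟩ := hpt 𝒪' x
  set f : T →+* 𝒪'' := (algebraMap 𝒪' 𝒪'').comp x.toRingHom with hf
  letI : Algebra T 𝒪'' := f.toAlgebra
  have hfin : Module.Finite T 𝒪'' := by
    have h1 : ((algebraMap 𝒪' 𝒪'').comp (algebraMap 𝒪 𝒪')).Finite :=
      RingHom.Finite.comp (RingHom.finite_algebraMap.mpr inferInstance)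
        (RingHom.finite_algebraMap.mpr inferInstance)
    have h3 : (algebraMap 𝒪' 𝒪'').comp (algebraMap 𝒪 𝒪') = f.comp (algebraMap 𝒪 T) := by
      ext o
      simp only [RingHom.comp_apply, hf, AlgHom.toRingHom_eq_coe, RingHom.coe_coe,
        AlgHom.commutes]
    rw [h3] at h1
    exact RingHom.Finite.of_comp_finite h1
  set b := Module.finBasisOfFinrankEq 𝒪'' ρ.V ρ.finrank_eq with hb
  refine ⟨{ R := 𝒪'', r := matOf ρ b, cont := matContinuous_matOf ρ b, frob := ?_ }, ?_⟩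
  · intro ℓ hℓ hℓS A hA σ hFr
    have h1 := hρ ℓ hℓ hℓS A hA σ hFr
    rw [← LinearMap.charpoly_toMatrix (ρ.ρ σ) b, ← matOf_apply, Matrix.charpoly_fin_two] at h1
    exact s59h_coeffs_of_quadratic_eq h1
  · show RingHom.ker f = 𝔭
    ext t
    rw [RingHom.mem_ker, hf, RingHom.comp_apply, map_eq_zero_iff _ hinj'']
    show x t = 0 ↔ t ∈ 𝔭
    rw [hx, AlgHom.comp_apply, map_eq_zero_iff _ hj, Ideal.Quotient.mkₐ_eq_mk,
      Ideal.Quotient.eq_zero_iff_mem]

variable [IsReduced T]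

/-- **The gluing theorem** [GLUE] (abstract form): `T` a reduced local `𝒪`-algebra, finite and
free over the complete discrete valuation ring `𝒪`, with `2 ∈ Tˣ`; `a ℓ, d ℓ ∈ T`; every
`𝒪̄`-point of `T` carries a Galois representation with Frobenius characteristic polynomials
`X² - x(a ℓ) X + x(d ℓ)`; `ρbar` absolutely irreducible, odd at the involution `c`, with Frobenius
characteristic polynomials `X² - θ(a ℓ) X + θ(d ℓ)` for a ring homomorphism `θ : T → k` killing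
the maximal ideal.  Then there is `ρ : GaloisRepAdic T` with
`charpoly ρ(Frob_ℓ) = X² - a ℓ X + d ℓ` and absolutely irreducible residual representation. -/
theorem s59h_glue (h2 : IsUnit (2 : T)) (hpt : s59h_HasPoints (𝒪 := 𝒪) S a d)
    (c : Γℚ) (hc : c * c = 1)
    {k : Type} [Field k] (θ : T →+* k) (hθ : ∀ x ∈ maximalIdeal T, θ x = 0)
    (ρbar : ResidualGaloisRep k) (habs : ρbar.IsAbsolutelyIrreducible)
    (hoddbar : LinearMap.det (ρbar.ρ c) = -1)
    (hbar : ∀ (ℓ : ℕ), ℓ.Prime → ℓ ∉ S →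
      ∀ A : ValuationSubring Qbar, A.LiesOverPrime ℓ → ∀ σ : Γℚ, A.IsFrobeniusAt σ ℓ →
        LinearMap.charpoly (ρbar.ρ σ) = X ^ 2 - C (θ (a ℓ)) * X + C (θ (d ℓ))) :
    ∃ ρ : GaloisRepAdic T,
      (∀ (ℓ : ℕ), ℓ.Prime → ℓ ∉ S →
        ∀ A : ValuationSubring Qbar, A.LiesOverPrime ℓ → ∀ σ : Γℚ, A.IsFrobeniusAt σ ℓ →
          LinearMap.charpoly (ρ.ρ σ) = X ^ 2 - C (a ℓ) * X + C (d ℓ)) ∧
      ρ.residual.IsAbsolutelyIrreducible := by
  haveI : IsNoetherianRing T := IsNoetherianRing.of_finite 𝒪 T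
  set ι := {𝔭 : Ideal T // 𝔭 ∈ minimalPrimes T} with hι
  haveI : Finite ι := (minimalPrimes.finite_of_isNoetherianRing T).to_subtype
  haveI : Nonempty ι := by
    obtain ⟨𝔭, h𝔭⟩ := Ideal.nonempty_minimalPrimes (I := (⊥ : Ideal T)) bot_ne_top
    exact ⟨⟨𝔭, h𝔭⟩⟩
  choose pt hker using fun i : ι => s59h_point_of_minimalPrime hpt i.2
  have hinj : ∀ x : T, (∀ i, algebraMap T (pt i).R x = 0) → x = 0 := by
    intro x hx
    have h1 : x ∈ sInf (minimalPrimes T) := by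
      rw [Ideal.mem_sInf]
      intro 𝔭 h𝔭
      have h5 := hker ⟨𝔭, h𝔭⟩
      have h6 : x ∈ RingHom.ker (algebraMap T (pt ⟨𝔭, h𝔭⟩).R) := hx ⟨𝔭, h𝔭⟩
      rw [h5] at h6
      exact h6
    have h3 : sInf (minimalPrimes T) = ⊥ := by
      rw [minimalPrimes, Ideal.sInf_minimalPrimes]
      exact nilradical_eq_zero T
    rwa [h3, Ideal.mem_bot] at h1
  obtain ⟨ρ, h1, h3, -⟩ := s59h_core_rep h2 S a d pt hinj c hc θ hθ ρbar habs hoddbar hbar
  exact ⟨ρ, h1, h3⟩

end Glue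

end Fermat.Agent.Lib.S59
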