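/-
Programme R, node (H0) [GLUE] (helper6, prefix `s59h_`), part R: the ring-theoretic fields of the
`HeckeGaloisRepDatum` over `T = heckeLocal N S 𝒪 θ`:  `T` is a quotient of `𝒪 ⊗ 𝕋` (a finite algebra
over a complete local ring is the product of its localisations), its residue field is that of `𝒪`,
`heckeLocal.π` reduces to `θ`, and every lift `χ : 𝕋 → 𝒪` of `θ` factors through `T`.
-/
import Mathlib
import Fermat.Prelude.Def_CuspForm_HeckeLocal

set_option autoImplicit false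
set_option synthInstance.maxHeartbeats 400000
set_option maxHeartbeats 1000000

noncomputable section

open scoped TensorProduct
open IsLocalRing CuspForm

namespace Fermat.Agent.Lib.S59

variable (N : ℕ) [NeZero N] (S : Set ℕ)
variable (𝒪 : Type) [CommRing 𝒪] [IsDomain 𝒪] [IsDiscreteValuationRing 𝒪]
  [IsAdicComplete (maximalIdeal 𝒪) 𝒪]
variable (θ : heckeAlgebra N 2 S →+* ResidueField 𝒪)

/-- `𝒪 ⊗ 𝕋_latt` is a finite `𝒪`-module. -/
theorem s59h_base_finite : Module.Finite 𝒪 (heckeBaseAlgebra N S 𝒪) :=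
  inferInstanceAs (Module.Finite 𝒪 (𝒪 ⊗[ℤ] ↥(heckeLatticeAlgebra N S)))

variable [Fact (HasIntegralStructure N 2)]

/-- `𝒪 ⊗ 𝕋_latt → T` is surjective. -/
theorem s59h_algebraMap_surjective :
    Function.Surjective (algebraMap (heckeBaseAlgebra N S 𝒪) (heckeLocal N S 𝒪 θ)) := by
  classical
  haveI := s59h_base_finite N S 𝒪
  obtain ⟨-, hbij, -, -⟩ :=
    Algebra.finite_maximalSpectrum_and_bijective_localization_of_module_finite (𝒪 := 𝒪)
      (heckeBaseAlgebra N S 𝒪)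
  set P : MaximalSpectrum (heckeBaseAlgebra N S 𝒪) :=
    ⟨heckeLocalIdeal N S 𝒪 θ, inferInstance⟩ with hP
  have e := IsLocalization.algEquiv (heckeLocalIdeal N S 𝒪 θ).primeCompl
    (Localization.AtPrime (heckeLocalIdeal N S 𝒪 θ)) (heckeLocal N S 𝒪 θ)
  intro z
  obtain ⟨b, hb⟩ := hbij.2 (Function.update 0 P (e.symm z))
  refine ⟨b, ?_⟩
  have h := congrFun hb P
  simp only [Function.update_self] at h
  have h2 : algebraMap (heckeBaseAlgebra N S 𝒪)
      (Localization.AtPrime (heckeLocalIdeal N S 𝒪 θ)) b = e.symm z := h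
  have h3 := congrArg e h2
  rw [AlgEquiv.apply_symm_apply, AlgEquiv.commutes] at h3
  exact h3

/-- `heckeLocal.π` in terms of the tensor product. -/
theorem s59h_pi_eq (t : heckeAlgebra N 2 S) :
    heckeLocal.π N S 𝒪 θ t = algebraMap (heckeBaseAlgebra N S 𝒪) (heckeLocal N S 𝒪 θ)
      (latticeBaseChange N S 𝒪 ((1 : 𝒪) ⊗ₜ[ℤ] t)) := rfl

/-- the structure map of `T` in terms of the tensor product. -/
theorem s59h_algebraMap_eq (a : 𝒪) :
    algebraMap 𝒪 (heckeLocal N S 𝒪 θ) a =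
      algebraMap (heckeBaseAlgebra N S 𝒪) (heckeLocal N S 𝒪 θ)
        (latticeBaseChange N S 𝒪 (algebraMap 𝒪 _ a)) := by
  rw [latticeBaseChange_algebraMap, ← IsScalarTower.algebraMap_apply]

/-- the composite `𝒪 ⊗ 𝕋 → T`. -/
def s59h_toLocal : (𝒪 ⊗[ℤ] ↥(heckeAlgebra N 2 S)) →+* heckeLocal N S 𝒪 θ :=
  (algebraMap (heckeBaseAlgebra N S 𝒪) (heckeLocal N S 𝒪 θ)).comp (latticeBaseChange N S 𝒪)

theorem s59h_toLocal_surjective : Function.Surjective (s59h_toLocal N S 𝒪 θ) :=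
  (s59h_algebraMap_surjective N S 𝒪 θ).comp (latticeBaseChange_surjective N S 𝒪)

theorem s59h_toLocal_tmul (a : 𝒪) (t : heckeAlgebra N 2 S) :
    s59h_toLocal N S 𝒪 θ (a ⊗ₜ[ℤ] t) = a • heckeLocal.π N S 𝒪 θ t := by
  have h1 : (a ⊗ₜ[ℤ] t : 𝒪 ⊗[ℤ] ↥(heckeAlgebra N 2 S)) =
      algebraMap 𝒪 _ a * ((1 : 𝒪) ⊗ₜ[ℤ] t) := by
    rw [Algebra.TensorProduct.algebraMap_apply, Algebra.algebraMap_self, RingHom.id_apply,
      Algebra.TensorProduct.tmul_mul_tmul, mul_one, one_mul]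
  rw [h1, map_mul, Algebra.smul_def, s59h_algebraMap_eq]
  rfl

theorem s59h_toLocal_algebraMap (a : 𝒪) :
    s59h_toLocal N S 𝒪 θ (algebraMap 𝒪 _ a) = algebraMap 𝒪 (heckeLocal N S 𝒪 θ) a :=
  (s59h_algebraMap_eq N S 𝒪 θ a).symm

/-- elements of the kernel of the residual character go to the maximal ideal of `T`. -/
theorem s59h_toLocal_mem_maximalIdeal {x : 𝒪 ⊗[ℤ] ↥(heckeAlgebra N 2 S)}
    (hx : x ∈ heckeCharKernel N S 𝒪 θ) :
    s59h_toLocal N S 𝒪 θ x ∈ maximalIdeal (heckeLocal N S 𝒪 θ) := by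
  haveI := heckeLocal.isLocalRing N S 𝒪 θ
  have h1 : latticeBaseChange N S 𝒪 x ∈ heckeLocalIdeal N S 𝒪 θ := Ideal.mem_map_of_mem _ hx
  exact (IsLocalization.AtPrime.to_map_mem_maximal_iff (heckeLocal N S 𝒪 θ)
    (heckeLocalIdeal N S 𝒪 θ) _).mpr h1

/-- the residue of the image of `x` is the residual character of `x`. -/
theorem s59h_residue_toLocal (x : 𝒪 ⊗[ℤ] ↥(heckeAlgebra N 2 S)) :
    residue (heckeLocal N S 𝒪 θ) (s59h_toLocal N S 𝒪 θ x) =
      ResidueField.map (algebraMap 𝒪 (heckeLocal N S 𝒪 θ)) (residualCharacter N S 𝒪 θ x) := by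
  obtain ⟨a, ha⟩ := residue_surjective (residualCharacter N S 𝒪 θ x)
  have hker : x - algebraMap 𝒪 _ a ∈ heckeCharKernel N S 𝒪 θ := by
    rw [mem_heckeCharKernel_iff, map_sub, residualCharacter_algebraMap, ha, sub_self]
  have h1 := s59h_toLocal_mem_maximalIdeal N S 𝒪 θ hker
  rw [map_sub, s59h_toLocal_algebraMap, ← residue_eq_zero_iff, map_sub, sub_eq_zero] at h1
  rw [h1, ← ha]
  rfl

/-- **`residue_π`**. -/
theorem s59h_residue_pi (t : heckeAlgebra N 2 S) :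
    residue (heckeLocal N S 𝒪 θ) (heckeLocal.π N S 𝒪 θ t) =
      ResidueField.map (algebraMap 𝒪 (heckeLocal N S 𝒪 θ)) (θ t) := by
  have h := s59h_residue_toLocal N S 𝒪 θ ((1 : 𝒪) ⊗ₜ[ℤ] t)
  rw [residualCharacter_tmul, map_one, one_mul] at h
  exact h

/-- **`residue_surjective`**. -/
theorem s59h_residue_surjective :
    Function.Surjective
      (residue (heckeLocal N S 𝒪 θ) ∘ algebraMap 𝒪 (heckeLocal N S 𝒪 θ)) := by
  intro y
  obtain ⟨z, rfl⟩ := residue_surjective y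
  obtain ⟨x, rfl⟩ := s59h_toLocal_surjective N S 𝒪 θ z
  obtain ⟨a, ha⟩ := residue_surjective (residualCharacter N S 𝒪 θ x)
  refine ⟨a, ?_⟩
  rw [Function.comp_apply, s59h_residue_toLocal, ← ha]
  rfl

/-- **`adjoin_range_π`**. -/
theorem s59h_adjoin_range_pi :
    Algebra.adjoin 𝒪 (Set.range (heckeLocal.π N S 𝒪 θ)) = ⊤ := by
  rw [eq_top_iff]
  intro y _
  obtain ⟨x, rfl⟩ := s59h_toLocal_surjective N S 𝒪 θ y
  clear * -
  induction x using TensorProduct.induction_on with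
  | zero => rw [map_zero]; exact Subalgebra.zero_mem _
  | tmul a t =>
    rw [s59h_toLocal_tmul]
    exact Subalgebra.smul_mem _ (Algebra.subset_adjoin (Set.mem_range_self t)) a
  | add x y hx hy => rw [map_add]; exact Subalgebra.add_mem _ hx hy

end Fermat.Agent.Lib.S59
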