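/-
Programme R, node (H0) [GLUE] (helper6, prefix `s59h_`), part P: **`exists_point`** — every ring
homomorphism `χ : 𝕋 → 𝒪'` into a local `𝒪`-algebra lifting `θ` factors through
`T = heckeLocal N S 𝒪 θ`.
-/
import Mathlib
import Fermat.Agent.Lib.S59.H0Ring

set_option autoImplicit false
set_option synthInstance.maxHeartbeats 400000
set_option maxHeartbeats 1000000

noncomputable section

open scoped TensorProduct
open IsLocalRing CuspForm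

namespace Fermat.Agent.Lib.S59

variable (N : ℕ) [NeZero N] (S : Set ℕ)
variable (𝒪 : Type) [CommRing 𝒪] [IsDomain 𝒪] [IsDiscreteValuationRing 𝒪]
  [IsAdicComplete (maximalIdeal 𝒪) 𝒪]
variable (θ : heckeAlgebra N 2 S →+* ResidueField 𝒪)
variable [Fact (HasIntegralStructure N 2)]

/-- `𝒪 ⊗ 𝕋 ≃ 𝒪 ⊗ 𝕋_latt`. -/
def s59h_baseEquiv : (𝒪 ⊗[ℤ] ↥(heckeAlgebra N 2 S)) ≃+* heckeBaseAlgebra N S 𝒪 :=
  RingEquiv.ofBijective (latticeBaseChange N S 𝒪)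
    ⟨latticeBaseChange_injective N S 𝒪 Fact.out, latticeBaseChange_surjective N S 𝒪⟩

theorem s59h_baseEquiv_apply (x : 𝒪 ⊗[ℤ] ↥(heckeAlgebra N 2 S)) :
    s59h_baseEquiv N S 𝒪 x = latticeBaseChange N S 𝒪 x := rfl

variable {𝒪' : Type} [CommRing 𝒪'] [IsLocalRing 𝒪'] [Algebra 𝒪 𝒪'] [IsLocalHom (algebraMap 𝒪 𝒪')]

/-- the map `a ⊗ t ↦ a • χ t`. -/
def s59h_prodMap (χ : heckeAlgebra N 2 S →+* 𝒪') : (𝒪 ⊗[ℤ] ↥(heckeAlgebra N 2 S)) →+* 𝒪' :=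
  (Algebra.TensorProduct.productMap (Algebra.ofId 𝒪 𝒪').toRingHom.toIntAlgHom
    χ.toIntAlgHom).toRingHom

theorem s59h_prodMap_tmul (χ : heckeAlgebra N 2 S →+* 𝒪') (a : 𝒪) (t : heckeAlgebra N 2 S) :
    s59h_prodMap N S 𝒪 χ (a ⊗ₜ[ℤ] t) = algebraMap 𝒪 𝒪' a * χ t := rfl

/-- compatibility of `s59h_prodMap` with the residual character. -/
theorem s59h_residue_prodMap (χ : heckeAlgebra N 2 S →+* 𝒪')
    (hχ : ∀ t, residue 𝒪' (χ t) = ResidueField.map (algebraMap 𝒪 𝒪') (θ t))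
    (x : 𝒪 ⊗[ℤ] ↥(heckeAlgebra N 2 S)) :
    residue 𝒪' (s59h_prodMap N S 𝒪 χ x) =
      ResidueField.map (algebraMap 𝒪 𝒪') (residualCharacter N S 𝒪 θ x) := by
  induction x using TensorProduct.induction_on with
  | zero => simp only [map_zero]
  | tmul a t =>
    rw [s59h_prodMap_tmul, residualCharacter_tmul, map_mul, map_mul, hχ]
    rfl
  | add x y hx hy => simp only [map_add, hx, hy]

/-- elements outside the kernel of the residual character go to units. -/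
theorem s59h_isUnit_prodMap (χ : heckeAlgebra N 2 S →+* 𝒪')
    (hχ : ∀ t, residue 𝒪' (χ t) = ResidueField.map (algebraMap 𝒪 𝒪') (θ t))
    {x : 𝒪 ⊗[ℤ] ↥(heckeAlgebra N 2 S)} (hx : x ∉ heckeCharKernel N S 𝒪 θ) :
    IsUnit (s59h_prodMap N S 𝒪 χ x) := by
  rw [mem_heckeCharKernel_iff] at hx
  by_contra hnu
  have h1 : residue 𝒪' (s59h_prodMap N S 𝒪 χ x) = 0 :=
    (residue_eq_zero_iff _).mpr ((mem_maximalIdeal _).mpr hnu)
  rw [s59h_residue_prodMap N S 𝒪 θ χ hχ] at h1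
  exact hx ((map_eq_zero_iff _ (RingHom.injective _)).mp h1)

/-- **the point of `T` attached to a lift of `θ`.** -/
theorem s59h_exists_point (χ : heckeAlgebra N 2 S →+* 𝒪')
    (hχ : ∀ t, residue 𝒪' (χ t) = ResidueField.map (algebraMap 𝒪 𝒪') (θ t)) :
    ∃ ψ : heckeLocal N S 𝒪 θ →ₐ[𝒪] 𝒪', ∀ t, ψ (heckeLocal.π N S 𝒪 θ t) = χ t := by
  set g : heckeBaseAlgebra N S 𝒪 →+* 𝒪' :=
    (s59h_prodMap N S 𝒪 χ).comp (s59h_baseEquiv N S 𝒪).symm.toRingHom with hg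
  have hgl : ∀ x, g (latticeBaseChange N S 𝒪 x) = s59h_prodMap N S 𝒪 χ x := by
    intro x
    rw [hg, RingHom.comp_apply, ← s59h_baseEquiv_apply]
    simp
  have hunit : ∀ y : heckeLocalSubmonoid N S 𝒪 θ, IsUnit (g y) := by
    rintro ⟨y, x, hx, rfl⟩
    change IsUnit (g (latticeBaseChange N S 𝒪 x))
    rw [hgl]
    exact s59h_isUnit_prodMap N S 𝒪 θ χ hχ (Ideal.mem_primeCompl_iff.mp hx)
  set ψ₀ : heckeLocal N S 𝒪 θ →+* 𝒪' :=
    IsLocalization.lift (M := heckeLocalSubmonoid N S 𝒪 θ) hunit with hψ₀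
  have hψ₀_eq : ∀ b, ψ₀ (algebraMap (heckeBaseAlgebra N S 𝒪) (heckeLocal N S 𝒪 θ) b) = g b :=
    fun b => IsLocalization.lift_eq hunit b
  refine ⟨{ ψ₀ with commutes' := fun a => ?_ }, fun t => ?_⟩
  · change ψ₀ (algebraMap 𝒪 (heckeLocal N S 𝒪 θ) a) = algebraMap 𝒪 𝒪' a
    rw [s59h_algebraMap_eq, hψ₀_eq, hgl, Algebra.TensorProduct.algebraMap_apply,
      Algebra.algebraMap_self, RingHom.id_apply, s59h_prodMap_tmul, map_one, mul_one]
  · change ψ₀ (heckeLocal.π N S 𝒪 θ t) = χ t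
    rw [s59h_pi_eq, hψ₀_eq, hgl, s59h_prodMap_tmul, map_one, one_mul]

end Fermat.Agent.Lib.S59
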