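/-
Programme R, node (H0) [GLUE] (helper6, prefix `s59h_`), part Red: **reducedness passes from the
Hecke algebra `𝕋` to `T = heckeLocal N S 𝒪 θ`.**  `K ⊗_ℤ A` is reduced for a reduced, finite,
torsion-free `ℤ`-algebra `A` and a field `K` of characteristic zero (left multiplications are
commuting semisimple endomorphisms: squarefree minimal polynomials over `ℚ` stay squarefree over
`K`), `𝒪 ⊗ A ⊆ K ⊗ A`, and localisations of reduced rings are reduced.
-/
import Mathlib
import Fermat.Prelude.Def_CuspForm_HeckeLocal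

set_option autoImplicit false
set_option linter.unusedSectionVars false
set_option linter.style.haveILetI false

noncomputable section

open scoped TensorProduct
open Polynomial

namespace Fermat.Agent.Lib.S59

/-- in a reduced algebra over a field the minimal polynomial of an integral element is
squarefree. -/
theorem s59h_minpoly_squarefree {k A : Type*} [Field k] [CommRing A] [Algebra k A] [IsReduced A]
    [Nontrivial A] {a : A} (ha : IsIntegral k a) : Squarefree (minpoly k a) := by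
  refine IsRadical.squarefree (minpoly.ne_zero ha) ?_
  rw [isRadical_iff_span_singleton, Ideal.span, ← minpoly.ker_aeval_eq_span_minpoly]
  intro p hp
  obtain ⟨n, hn⟩ := hp
  rw [RingHom.mem_ker, map_pow] at hn
  rw [RingHom.mem_ker]
  exact IsReduced.eq_zero _ ⟨n, hn⟩

/-- every element of `ℚ ⊗ M` is of the form `(1/n) ⊗ m`. -/
theorem s59h_exists_inv_tmul {M : Type*} [AddCommGroup M] (x : ℚ ⊗[ℤ] M) :
    ∃ (n : ℕ) (m : M), n ≠ 0 ∧ x = ((n : ℚ)⁻¹) ⊗ₜ[ℤ] m := by
  induction x using TensorProduct.induction_on with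
  | zero => exact ⟨1, 0, one_ne_zero, by rw [TensorProduct.tmul_zero]⟩
  | tmul q m =>
    refine ⟨q.den, q.num • m, q.den_nz, ?_⟩
    rw [TensorProduct.tmul_smul, TensorProduct.smul_tmul', zsmul_eq_mul]
    congr 1
    rw [← div_eq_mul_inv]
    exact (Rat.num_div_den q).symm
  | add x y hx hy =>
    obtain ⟨n, m, hn, rfl⟩ := hx
    obtain ⟨n', m', hn', rfl⟩ := hy
    refine ⟨n * n', n' • m + n • m', Nat.mul_ne_zero hn hn', ?_⟩
    rw [TensorProduct.tmul_add, TensorProduct.tmul_smul, TensorProduct.tmul_smul,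
      TensorProduct.smul_tmul', TensorProduct.smul_tmul']
    congr 2
    · rw [nsmul_eq_mul]; push_cast; field_simp
    · rw [nsmul_eq_mul]; push_cast; field_simp

/-- `ℚ ⊗ A` is reduced if `A` is reduced and torsion-free. -/
theorem s59h_isReduced_rat_tensor (A : Type*) [CommRing A] [IsReduced A]
    [Module.Flat ℤ A] : IsReduced (ℚ ⊗[ℤ] A) := by
  constructor
  intro x hx
  obtain ⟨n, a, hn, rfl⟩ := s59h_exists_inv_tmul x
  obtain ⟨k, hk⟩ := hx
  rw [Algebra.TensorProduct.tmul_pow] at hk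
  have hinj : Function.Injective (Algebra.TensorProduct.includeRight : A →ₐ[ℤ] ℚ ⊗[ℤ] A) :=
    Algebra.TensorProduct.includeRight_injective (Int.cast_injective (α := ℚ))
  have h1 : (1 : ℚ) ⊗ₜ[ℤ] (a ^ k) = 0 := by
    have h2 : ((n : ℚ) ^ k) • (((n : ℚ)⁻¹ ^ k) ⊗ₜ[ℤ] (a ^ k)) = 0 := by rw [hk, smul_zero]
    rw [TensorProduct.smul_tmul', smul_eq_mul, ← mul_pow,
      mul_inv_cancel₀ (Nat.cast_ne_zero.mpr hn), one_pow] at h2
    exact h2
  have h3 : a ^ k = 0 := hinj (by
    rw [map_zero]; exact h1)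
  have h4 : a = 0 := IsReduced.eq_zero _ ⟨k, h3⟩
  rw [h4, TensorProduct.tmul_zero]

section

variable (K : Type*) [Field K] [CharZero K] (A : Type*) [CommRing A] [IsReduced A]
  [Module.Flat ℤ A] [Module.Finite ℤ A]

/-- the `ℚ`-algebra map `ℚ ⊗ A → K ⊗ A`. -/
def s59h_ratToK : (ℚ ⊗[ℤ] A) →ₐ[ℚ] (K ⊗[ℤ] A) :=
  Algebra.TensorProduct.map (Algebra.ofId ℚ K) (AlgHom.id ℤ A)

theorem s59h_ratToK_tmul (q : ℚ) (a : A) :
    s59h_ratToK K A (q ⊗ₜ[ℤ] a) = (algebraMap ℚ K q) ⊗ₜ[ℤ] a := rfl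

/-- left multiplication by `1 ⊗ a` on `K ⊗ A` is semisimple. -/
theorem s59h_lmul_one_tmul_semisimple (a : A) :
    (Algebra.lmul K (K ⊗[ℤ] A) ((1 : K) ⊗ₜ[ℤ] a)).IsSemisimple := by
  haveI := s59h_isReduced_rat_tensor A
  by_cases hnt : Nontrivial (ℚ ⊗[ℤ] A)
  · have hint : IsIntegral ℚ ((1 : ℚ) ⊗ₜ[ℤ] a : ℚ ⊗[ℤ] A) := Algebra.IsIntegral.isIntegral _
    have hsq := s59h_minpoly_squarefree hint
    set p := minpoly ℚ ((1 : ℚ) ⊗ₜ[ℤ] a : ℚ ⊗[ℤ] A) with hp
    have hsqK : Squarefree (p.map (algebraMap ℚ K)) :=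
      ((PerfectField.separable_iff_squarefree.mpr hsq).map).squarefree
    refine Module.End.isSemisimple_of_squarefree_aeval_eq_zero hsqK ?_
    -- `p (1 ⊗ a) = 0` in `K ⊗ A`
    have h1 : aeval ((1 : K) ⊗ₜ[ℤ] a : K ⊗[ℤ] A) p = 0 := by
      have h2 : s59h_ratToK K A ((1 : ℚ) ⊗ₜ[ℤ] a) = (1 : K) ⊗ₜ[ℤ] a := by
        rw [s59h_ratToK_tmul, map_one]
      rw [← h2, aeval_algHom_apply, minpoly.aeval, map_zero]
    have h3 : aeval (Algebra.lmul K (K ⊗[ℤ] A) ((1 : K) ⊗ₜ[ℤ] a)) (p.map (algebraMap ℚ K)) =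
        Algebra.lmul K (K ⊗[ℤ] A)
          (aeval ((1 : K) ⊗ₜ[ℤ] a : K ⊗[ℤ] A) (p.map (algebraMap ℚ K))) :=
      aeval_algHom_apply _ _ _
    rw [h3, aeval_map_algebraMap, h1, map_zero]
  · rw [not_nontrivial_iff_subsingleton] at hnt
    -- then `A` is trivial
    have hinj : Function.Injective (Algebra.TensorProduct.includeRight : A →ₐ[ℤ] ℚ ⊗[ℤ] A) :=
      Algebra.TensorProduct.includeRight_injective (Int.cast_injective (α := ℚ))
    have hA : Subsingleton A := hinj.subsingleton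
    have hKA : Subsingleton (K ⊗[ℤ] A) := by
      refine ⟨fun x y => ?_⟩
      have : ∀ z : K ⊗[ℤ] A, z = 0 := by
        intro z
        induction z using TensorProduct.induction_on with
        | zero => rfl
        | tmul c b => rw [Subsingleton.elim b 0, TensorProduct.tmul_zero]
        | add x y hx hy => rw [hx, hy, add_zero]
      rw [this x, this y]
    have : Algebra.lmul K (K ⊗[ℤ] A) ((1 : K) ⊗ₜ[ℤ] a) = 0 := Subsingleton.elim _ _
    rw [this]
    exact Module.End.isSemisimple_zero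

/-- left multiplication by any element of `K ⊗ A` is semisimple. -/
theorem s59h_lmul_semisimple (x : K ⊗[ℤ] A) :
    (Algebra.lmul K (K ⊗[ℤ] A) x).IsSemisimple := by
  induction x using TensorProduct.induction_on with
  | zero => rw [map_zero]; exact Module.End.isSemisimple_zero
  | tmul c a =>
    have h1 : (c ⊗ₜ[ℤ] a : K ⊗[ℤ] A) = c • ((1 : K) ⊗ₜ[ℤ] a) := by
      rw [TensorProduct.smul_tmul', smul_eq_mul, mul_one]
    rw [h1, map_smul]
    exact Module.End.IsSemisimple_smul c (s59h_lmul_one_tmul_semisimple K A a)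
  | add x y hx hy =>
    rw [map_add]
    refine Module.End.IsSemisimple.add_of_commute ?_ hx hy
    show Commute (Algebra.lmul K (K ⊗[ℤ] A) x) (Algebra.lmul K (K ⊗[ℤ] A) y)
    rw [Commute, SemiconjBy, ← map_mul, ← map_mul, mul_comm]

/-- **`K ⊗ A` is reduced.** -/
theorem s59h_isReduced_field_tensor : IsReduced (K ⊗[ℤ] A) := by
  constructor
  intro x hx
  have h1 : IsNilpotent (Algebra.lmul K (K ⊗[ℤ] A) x) := hx.map _
  have h2 := Module.End.eq_zero_of_isNilpotent_isSemisimple h1 (s59h_lmul_semisimple K A x)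
  have h3 := LinearMap.congr_fun h2 1
  simpa using h3

end


section Hecke

open CuspForm IsLocalRing

set_option synthInstance.maxHeartbeats 400000
set_option maxHeartbeats 1000000

variable (N : ℕ) [NeZero N] (S : Set ℕ)
variable (𝒪 : Type) [CommRing 𝒪] [IsDomain 𝒪] [IsDiscreteValuationRing 𝒪]
  [IsAdicComplete (maximalIdeal 𝒪) 𝒪] [CharZero 𝒪]
variable (θ : heckeAlgebra N 2 S →+* ResidueField 𝒪)

/-- the lattice Hecke algebra is reduced if the Hecke algebra is. -/
theorem s59h_isReduced_lattice [Fact (HasIntegralStructure N 2)]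
    [IsReduced (heckeAlgebra N 2 S)] : IsReduced ↥(heckeLatticeAlgebra N S) := by
  set e := RingEquiv.ofBijective (latticeRestrictHom N S)
    (latticeRestrictHom_bijective N S Fact.out) with he
  exact isReduced_of_injective e.symm.toRingHom e.symm.injective

/-- `𝒪 ⊗ A ⊆ K ⊗ A` is reduced for a reduced finite flat `ℤ`-algebra `A`. -/
theorem s59h_isReduced_tensor_aux (K : Type*) [Field K] [Algebra 𝒪 K] [IsFractionRing 𝒪 K]
    (A : Type*) [CommRing A] [IsReduced A] [Module.Flat ℤ A]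
    [Module.Finite ℤ A] : IsReduced (𝒪 ⊗[ℤ] A) := by
  haveI : CharZero K := charZero_of_injective_algebraMap (IsFractionRing.injective 𝒪 K)
  haveI := s59h_isReduced_field_tensor K A
  set f : (𝒪 ⊗[ℤ] A) →ₐ[ℤ] (K ⊗[ℤ] A) :=
    Algebra.TensorProduct.map (IsScalarTower.toAlgHom ℤ 𝒪 K) (AlgHom.id ℤ A)
    with hf
  refine isReduced_of_injective f ?_
  have h := Module.Flat.rTensor_preserves_injective_linearMap (M := A)
    ((IsScalarTower.toAlgHom ℤ 𝒪 K).toLinearMap) (IsFractionRing.injective 𝒪 K)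
  intro x y hxy
  apply h
  have : ∀ z : 𝒪 ⊗[ℤ] A, LinearMap.rTensor A
      ((IsScalarTower.toAlgHom ℤ 𝒪 K).toLinearMap) z = f z := by
    intro z
    induction z using TensorProduct.induction_on with
    | zero => simp
    | tmul a b => rfl
    | add x y hx hy => rw [map_add, map_add, hx, hy]
  rw [this, this, hxy]

/-- `𝒪 ⊗ A` is reduced for a reduced finite flat `ℤ`-algebra `A`. -/
theorem s59h_isReduced_tensor (A : Type*) [CommRing A] [IsReduced A] [Module.Flat ℤ A]
    [Module.Finite ℤ A] : IsReduced (𝒪 ⊗[ℤ] A) :=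
  s59h_isReduced_tensor_aux 𝒪 (FractionRing 𝒪) A

/-- **`T` is reduced if `𝕋` is.** -/
theorem s59h_isReduced_heckeLocal [Fact (HasIntegralStructure N 2)]
    [IsReduced (heckeAlgebra N 2 S)] : IsReduced (heckeLocal N S 𝒪 θ) := by
  haveI := s59h_isReduced_lattice N S
  haveI : IsReduced (heckeBaseAlgebra N S 𝒪) :=
    s59h_isReduced_tensor 𝒪 ↥(heckeLatticeAlgebra N S)
  exact inferInstanceAs (IsReduced (Localization (heckeLocalSubmonoid N S 𝒪 θ)))

end Hecke

end Fermat.Agent.Lib.S59
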