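/-
Programme R, node (H0) (helper6, prefix `s59h_`): **`s59h_H0 : [PET] → (H0)`**.  The
Hecke–Galois datum over the full local Hecke algebra `T = heckeLocal N S 𝒪 θ` at a non-Eisenstein
maximal ideal of residue characteristic `p ≠ 2`, from the reducedness of the anemic Hecke algebra
(`s59h_HeckeReduced`, node [PET]): the abstract gluing theorem `s59h_glue` applied to the points
of `T` (S30 on main), with the ring-theoretic fields from `H0Ring`/`H0Point`/`H0Red`; oddness of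
the residual representation from its Frobenius determinants (cyclotomic character, `CycB`).
-/
import Mathlib
import Fermat.Agent.Lib.S59.H0Glue
import Fermat.Agent.Lib.S30.CycB
import Fermat.Agent.Lib.S59.H0Ring
import Fermat.Agent.Lib.S59.H0Point
import Fermat.Agent.Lib.S59.H0Red
import Fermat.Agent.S30

set_option autoImplicit false
set_option linter.unusedSectionVars false
set_option linter.style.haveILetI false
set_option synthInstance.maxHeartbeats 400000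
set_option maxHeartbeats 1000000

noncomputable section

namespace Fermat.Agent.Lib.S59

open IsLocalRing Polynomial CuspForm Fermat.Agent.Lib.S30 Fermat.Agent.Lib.S53 Fermat.Agent.Lib.S29

local notation "Γℚ" => (AlgebraicClosure ℚ ≃ₐ[ℚ] AlgebraicClosure ℚ)
local notation "Qbar" => AlgebraicClosure ℚ

/-- a residual representation in characteristic `p` whose determinant at the Frobenius elements
outside a finite set `S ∋ p` is `ℓ` is odd at complex conjugation -/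
theorem s59h_det_conj (p : ℕ) [Fact p.Prime] {k : Type} [Field k] (hpk : (p : k) = 0)
    (ρbar : ResidualGaloisRep k) (S : Finset ℕ)
    (hdet : ∀ (ℓ : ℕ), ℓ.Prime → ℓ ∉ S →
      ∀ A : ValuationSubring Qbar, A.LiesOverPrime ℓ → ∀ σ : Γℚ, A.IsFrobeniusAt σ ℓ →
        LinearMap.det (ρbar.ρ σ) = (ℓ : k)) (hpS : p ∈ S) :
    LinearMap.det (ρbar.ρ complexConjugation) = -1 := by
  obtain ⟨L₁, hL₁, h₁⟩ := ρbar.factorsThroughFiniteLevel
  obtain ⟨L₂, hL₂, -, h₂⟩ := s30y_cont p 1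
  have hfd : FiniteDimensional ℚ (L₁ ⊔ L₂ : IntermediateField ℚ Qbar) :=
    IntermediateField.finiteDimensional_sup L₁ L₂
  obtain ⟨ℓ, A, σ, j, h, hℓ, hℓS, hA, hFr, hg, hfix⟩ :=
    s59h_density (L₁ ⊔ L₂) hfd S complexConjugation
  have hℓp : ℓ ≠ p := fun e => hℓS (e ▸ hpS)
  have hρh : ρbar.ρ h = 1 := h₁ h fun x hx => hfix x (le_sup_left (a := L₁) hx)
  obtain ⟨w, hw⟩ := h₂ h fun x hx => hfix x (le_sup_right (b := L₂) hx)
  have hεσ := s30y_frob p ℓ hℓ hℓp A hA σ hFr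
  have hεc := s30y_conj p
  -- the determinant
  have e1 : LinearMap.det (ρbar.ρ complexConjugation) = (ℓ : k) ^ j := by
    rw [hg, map_mul, map_pow, hρh, mul_one, map_pow, hdet ℓ hℓ hℓS A hA σ hFr]
  -- the cyclotomic character
  have e2 : (-1 : ℤ_[p]) = (ℓ : ℤ_[p]) ^ j * (1 + (p : ℤ_[p]) ^ 1 * w) := by
    have h3 : ((s30y_eps p complexConjugation : ℤ_[p]ˣ) : ℤ_[p]) = -1 := by
      rw [hεc, Units.val_neg, Units.val_one]
    rw [← h3, hg, map_mul, map_pow, Units.val_mul, Units.val_pow_eq_pow_val, hεσ]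
    congr 1
    linear_combination hw
  have e3 : ((ℓ ^ j + 1 : ℕ) : ZMod p) = 0 := by
    have h4 := congrArg (PadicInt.toZMod (p := p)) e2
    simp only [map_neg, map_one, map_mul, map_pow, map_add, map_natCast, ZMod.natCast_self,
      pow_one, zero_mul, add_zero, mul_one] at h4
    push_cast
    rw [← h4]
    ring
  obtain ⟨m, hm⟩ := (ZMod.natCast_eq_zero_iff _ _).mp e3
  have e4 : (ℓ : k) ^ j + 1 = 0 := by
    have := congrArg (fun n : ℕ => (n : k)) hm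
    simp only [Nat.cast_add, Nat.cast_pow, Nat.cast_one, Nat.cast_mul, hpk, zero_mul] at this
    exact this
  rw [e1]
  linear_combination e4

/-- **[PET]** (input): the anemic Hecke algebra of weight `2` and level `Γ₀(N)`, generated by
the `T_ℓ`, `ℓ ∤ N`, `ℓ ∉ S`, is reduced. -/
def s59h_HeckeReduced : Prop :=
  ∀ (N : ℕ) [NeZero N] (S : Set ℕ), (∀ q : ℕ, q.Prime → q ∣ N → q ∈ S) →
    IsReduced (heckeAlgebra N 2 S)

section H0

variable (p : ℕ) [Fact p.Prime] (N : ℕ) [NeZero N] [Fact (HasIntegralStructure N 2)]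
  (S : Finset ℕ)
  (𝒪 : Type) [CommRing 𝒪] [IsDomain 𝒪] [IsDiscreteValuationRing 𝒪]
  [IsAdicComplete (maximalIdeal 𝒪) 𝒪] [Finite (ResidueField 𝒪)] [CharZero 𝒪]
  (θ : heckeAlgebra N 2 (↑S : Set ℕ) →+* ResidueField 𝒪)

open Classical in
/-- the Hecke operators `T_ℓ` in `T`, indexed by all natural numbers -/
def s59h_a (ℓ : ℕ) : heckeLocal N (↑S : Set ℕ) 𝒪 θ :=
  if h : ℓ.Prime ∧ ¬ ℓ ∣ N ∧ ℓ ∉ (↑S : Set ℕ) then
    heckeLocal.π N (↑S : Set ℕ) 𝒪 θ (heckeAlgebra.T h.1 h.2.1 h.2.2)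
  else 0

theorem s59h_a_eq {ℓ : ℕ} (hℓ : ℓ.Prime) (hℓN : ¬ ℓ ∣ N) (hℓS : ℓ ∉ (↑S : Set ℕ)) :
    s59h_a N S 𝒪 θ ℓ = heckeLocal.π N (↑S : Set ℕ) 𝒪 θ (heckeAlgebra.T hℓ hℓN hℓS) :=
  dif_pos ⟨hℓ, hℓN, hℓS⟩

theorem s59h_resMap_bijective :
    Function.Bijective (ResidueField.map (algebraMap 𝒪 (heckeLocal N (↑S : Set ℕ) 𝒪 θ))) := by
  refine ⟨RingHom.injective _, fun y => ?_⟩
  obtain ⟨a, ha⟩ := s59h_residue_surjective N (↑S : Set ℕ) 𝒪 θ y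
  exact ⟨residue 𝒪 a, ha⟩

/-- the reduction `T → k` -/
def s59h_thetaT : heckeLocal N (↑S : Set ℕ) 𝒪 θ →+* ResidueField 𝒪 :=
  ((RingEquiv.ofBijective _ (s59h_resMap_bijective N S 𝒪 θ)).symm :
    ResidueField (heckeLocal N (↑S : Set ℕ) 𝒪 θ) →+* ResidueField 𝒪).comp
    (residue (heckeLocal N (↑S : Set ℕ) 𝒪 θ))

theorem s59h_thetaT_pi (t : heckeAlgebra N 2 (↑S : Set ℕ)) :
    s59h_thetaT N S 𝒪 θ (heckeLocal.π N (↑S : Set ℕ) 𝒪 θ t) = θ t := by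
  rw [s59h_thetaT, RingHom.comp_apply, s59h_residue_pi]
  exact (RingEquiv.ofBijective _ (s59h_resMap_bijective N S 𝒪 θ)).symm_apply_apply (θ t)

theorem s59h_thetaT_mem {x : heckeLocal N (↑S : Set ℕ) 𝒪 θ}
    (hx : x ∈ maximalIdeal (heckeLocal N (↑S : Set ℕ) 𝒪 θ)) : s59h_thetaT N S 𝒪 θ x = 0 := by
  rw [s59h_thetaT, RingHom.comp_apply, (residue_eq_zero_iff x).mpr hx, map_zero]

/-- the points of `T` carry Galois representations: S30 -/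
theorem s59h_hasPoints (hpS : p ∈ S) (hNS : ∀ q : ℕ, q.Prime → q ∣ N → q ∈ S)
    (hp𝒪 : (p : 𝒪) ∈ maximalIdeal 𝒪) :
    s59h_HasPoints (𝒪 := 𝒪) S (s59h_a N S 𝒪 θ)
      (fun ℓ => (ℓ : heckeLocal N (↑S : Set ℕ) 𝒪 θ)) := by
  intro 𝒪' _ _ _ _ _ _ _ _ _ x
  have hp𝒪' : (p : 𝒪') ∈ maximalIdeal 𝒪' := by
    have h1 : algebraMap 𝒪 𝒪' (p : 𝒪) ∈ maximalIdeal 𝒪' := by
      rw [mem_maximalIdeal, mem_nonunits_iff] at hp𝒪 ⊢
      exact fun h => hp𝒪 (isUnit_of_map_unit _ _ h)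
    rwa [map_natCast] at h1
  obtain ⟨𝒪'', i1, i2, i3, i4, i5, i6, i7, i8, i9, hinj, ρ, hρ, -⟩ :=
    Fermat.Agent.S30.result p N S hpS hNS 𝒪' hp𝒪'
      (x.toRingHom.comp (heckeLocal.π N (↑S : Set ℕ) 𝒪 θ))
  refine ⟨𝒪'', i1, i2, i3, i7, i8, hinj, ρ, ?_⟩
  intro ℓ hℓ hℓS A hA σ hFr
  have hℓN : ¬ ℓ ∣ N := fun h => hℓS (hNS ℓ hℓ h)
  have hℓS' : ℓ ∉ (↑S : Set ℕ) := hℓS
  have e : algebraMap 𝒪' 𝒪'' (x ((ℓ : heckeLocal N (↑S : Set ℕ) 𝒪 θ))) = (ℓ : 𝒪'') := by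
    rw [map_natCast, map_natCast]
  rw [hρ ℓ hℓ hℓN hℓS' A hA σ hFr, s59h_a_eq N S 𝒪 θ hℓ hℓN hℓS', e]
  rfl

/-- **(H0)** from **[PET]**: the Hecke–Galois datum over the full local Hecke algebra `T_𝔪` at a
non-Eisenstein maximal ideal of residue characteristic `p ≠ 2`. -/
theorem s59h_H0 (hred : s59h_HeckeReduced) (hp2 : p ≠ 2)
    (hpS : p ∈ S) (hNS : ∀ q : ℕ, q.Prime → q ∣ N → q ∈ S)
    (hp𝒪 : (p : 𝒪) ∈ maximalIdeal 𝒪)
    (ρbar : ResidualGaloisRep (ResidueField 𝒪)) (habs : ρbar.IsAbsolutelyIrreducible)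
    (hEig : ∀ (ℓ : ℕ) (hℓ : ℓ.Prime) (hℓN : ¬ ℓ ∣ N) (hℓS : ℓ ∉ (↑S : Set ℕ)),
      ∀ A : ValuationSubring Qbar, A.LiesOverPrime ℓ →
      ∀ σ : Γℚ, A.IsFrobeniusAt σ ℓ →
        LinearMap.charpoly (ρbar.ρ σ) =
          X ^ 2 - C (θ (heckeAlgebra.T hℓ hℓN hℓS)) * X + C ((ℓ : ResidueField 𝒪))) :
    Nonempty (HeckeGaloisRepDatum N (↑S : Set ℕ) 𝒪 θ (heckeLocal N (↑S : Set ℕ) 𝒪 θ)) := by
  haveI : IsReduced (heckeAlgebra N 2 (↑S : Set ℕ)) :=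
    hred N (↑S : Set ℕ) fun q hq hqN => hNS q hq hqN
  haveI : IsReduced (heckeLocal N (↑S : Set ℕ) 𝒪 θ) := s59h_isReduced_heckeLocal N _ 𝒪 θ
  -- `2` is a unit
  have h2𝒪 : IsUnit (2 : 𝒪) := by
    by_contra hnu
    have h2m : (2 : 𝒪) ∈ maximalIdeal 𝒪 := by rwa [mem_maximalIdeal, mem_nonunits_iff]
    have hcop : Nat.Coprime 2 p :=
      (Nat.coprime_primes Nat.prime_two (Fact.out : p.Prime)).mpr (Ne.symm hp2)
    obtain ⟨u, v, huv⟩ := Nat.isCoprime_iff_coprime.mpr hcop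
    have h1 : (1 : 𝒪) ∈ maximalIdeal 𝒪 := by
      have := congrArg (fun z : ℤ => (z : 𝒪)) huv
      simp only [Int.cast_add, Int.cast_mul, Int.cast_natCast, Int.cast_one] at this
      have h2m' : ((2 : ℕ) : 𝒪) ∈ maximalIdeal 𝒪 := by rwa [Nat.cast_ofNat]
      rw [← this]
      exact Ideal.add_mem _ (Ideal.mul_mem_left _ _ h2m') (Ideal.mul_mem_left _ _ hp𝒪)
    exact (Ideal.ne_top_iff_one _).mp (maximalIdeal.isMaximal 𝒪).ne_top h1
  have h2 : IsUnit (2 : heckeLocal N (↑S : Set ℕ) 𝒪 θ) := by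
    have := h2𝒪.map (algebraMap 𝒪 (heckeLocal N (↑S : Set ℕ) 𝒪 θ))
    rwa [map_ofNat] at this
  have hpk : (p : ResidueField 𝒪) = 0 := by
    rw [← map_natCast (residue 𝒪), residue_eq_zero_iff]
    exact hp𝒪
  have hbar : ∀ (ℓ : ℕ), ℓ.Prime → ℓ ∉ S →
      ∀ A : ValuationSubring Qbar, A.LiesOverPrime ℓ → ∀ σ : Γℚ, A.IsFrobeniusAt σ ℓ →
        LinearMap.charpoly (ρbar.ρ σ) =
          X ^ 2 - C (s59h_thetaT N S 𝒪 θ (s59h_a N S 𝒪 θ ℓ)) * X +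
            C (s59h_thetaT N S 𝒪 θ ((ℓ : heckeLocal N (↑S : Set ℕ) 𝒪 θ))) := by
    intro ℓ hℓ hℓS A hA σ hFr
    have hℓN : ¬ ℓ ∣ N := fun h => hℓS (hNS ℓ hℓ h)
    have hℓS' : ℓ ∉ (↑S : Set ℕ) := hℓS
    have e : s59h_thetaT N S 𝒪 θ ((ℓ : heckeLocal N (↑S : Set ℕ) 𝒪 θ)) =
        (ℓ : ResidueField 𝒪) := map_natCast _ ℓ
    rw [hEig ℓ hℓ hℓN hℓS' A hA σ hFr, s59h_a_eq N S 𝒪 θ hℓ hℓN hℓS', s59h_thetaT_pi, e]
  have hdet : ∀ (ℓ : ℕ), ℓ.Prime → ℓ ∉ S →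
      ∀ A : ValuationSubring Qbar, A.LiesOverPrime ℓ → ∀ σ : Γℚ, A.IsFrobeniusAt σ ℓ →
        LinearMap.det (ρbar.ρ σ) = (ℓ : ResidueField 𝒪) := by
    intro ℓ hℓ hℓS A hA σ hFr
    have hℓN : ¬ ℓ ∣ N := fun h => hℓS (hNS ℓ hℓ h)
    have hℓS' : ℓ ∉ (↑S : Set ℕ) := hℓS
    have h1 := hEig ℓ hℓ hℓN hℓS' A hA σ hFr
    set b := ResidualGaloisRep.someBasis ρbar
    rw [← LinearMap.charpoly_toMatrix (ρbar.ρ σ) b, Matrix.charpoly_fin_two] at h1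
    rw [← LinearMap.det_toMatrix b]
    exact (s59h_coeffs_of_quadratic_eq h1).2
  have hoddbar := s59h_det_conj p hpk ρbar S hdet hpS
  obtain ⟨ρ, hρ, hirr⟩ := s59h_glue (𝒪 := 𝒪) h2 (s59h_hasPoints p N S 𝒪 θ hpS hNS hp𝒪)
    complexConjugation complexConjugation_mul_self (s59h_thetaT N S 𝒪 θ)
    (fun x hx => s59h_thetaT_mem N S 𝒪 θ hx) ρbar habs hoddbar hbar
  refine ⟨{ π := heckeLocal.π N (↑S : Set ℕ) 𝒪 θ
            residue_π := s59h_residue_pi N _ 𝒪 θ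
            adjoin_range_π := s59h_adjoin_range_pi N _ 𝒪 θ
            exists_point := fun χ hχ => ?_
            residue_surjective := s59h_residue_surjective N _ 𝒪 θ
            ρ := ρ
            charpoly_frob := fun ℓ hℓ hℓN hℓS A hA σ hFr => ?_
            residual_absIrr := hirr }⟩
  · refine s59h_exists_point N (↑S : Set ℕ) 𝒪 θ χ fun t => ?_
    rw [hχ t]
    exact (congrFun (congrArg DFunLike.coe (ResidueField.map_id (R := 𝒪))) (θ t)).symm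
  · have hℓS' : ℓ ∉ S := hℓS
    rw [hρ ℓ hℓ hℓS' A hA σ hFr, s59h_a_eq N S 𝒪 θ hℓ hℓN hℓS]

end H0

end Fermat.Agent.Lib.S59
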