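import Mathlib
import Fermat.Agent.Lib.S59.QAdj
import Fermat.Prelude.Def_CuspForm_HeckeAlgebra

set_option autoImplicit false
set_option linter.unusedSectionVars false

noncomputable section

namespace Fermat.Agent.Lib.S59

open CongruenceSubgroup CuspForm
open scoped MatrixGroups

variable {N : ℕ} [NeZero N]

theorem s59q_pet_zero_right (f : CuspForm (Gamma0 N) 2) : s59q_pet f 0 = 0 := by
  have h := s59q_pet_add_right f 0 0
  rw [add_zero] at h
  exact left_eq_add.mp h

theorem s59q_pet_zsmul_left (r : ℤ) (f g : CuspForm (Gamma0 N) 2) :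
    s59q_pet (r • f) g = r • s59q_pet f g :=
  map_zsmul (AddMonoidHom.mk' (fun f => s59q_pet f g) fun a b => s59q_pet_add_left a b g) r f

theorem s59q_pet_zsmul_right (r : ℤ) (f g : CuspForm (Gamma0 N) 2) :
    s59q_pet f (r • g) = r • s59q_pet f g :=
  map_zsmul (AddMonoidHom.mk' (fun g => s59q_pet f g) fun a b => s59q_pet_add_right f a b) r g

/-- Every element of the anemic Hecke algebra is self-adjoint for the Petersson product. -/
theorem s59q_selfAdjoint_of_mem (S : Set ℕ) (hNS : ∀ q : ℕ, q.Prime → q ∣ N → q ∈ S)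
    (T : Module.End ℂ (CuspForm (Gamma0 N) 2)) (hT : T ∈ heckeAlgebra N 2 S)
    (f g : CuspForm (Gamma0 N) 2) : s59q_pet (T f) g = s59q_pet f (T g) := by
  revert f g
  refine Algebra.adjoin_induction (p := fun T _ => ∀ f g : CuspForm (Gamma0 N) 2,
    s59q_pet (T f) g = s59q_pet f (T g)) ?_ ?_ ?_ ?_ hT
  · rintro T (⟨ℓ, hℓ, hℓN, -, rfl⟩ | ⟨q, hqN, hq, hqS, rfl⟩) f g
    · have : Fact ℓ.Prime := ⟨hℓ⟩
      exact s59q_heckeT_adjoint hℓ hℓN f g
    · exact absurd (hNS q hq hqN) hqS
  · intro r f g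
    rw [Module.algebraMap_end_apply, Module.algebraMap_end_apply, s59q_pet_zsmul_left,
      s59q_pet_zsmul_right]
  · intro x y _ _ hx hy f g
    rw [LinearMap.add_apply, LinearMap.add_apply, s59q_pet_add_left, s59q_pet_add_right, hx, hy]
  · intro x y hx hy hx' hy' f g
    have hcomm : x * y = y * x := by
      have := mul_comm (⟨x, hx⟩ : heckeAlgebra N 2 S) ⟨y, hy⟩
      exact congrArg Subtype.val this
    rw [Module.End.mul_apply, hx', hy', ← Module.End.mul_apply, ← hcomm]

/-- **[PET]**: the anemic Hecke algebra of weight two is reduced. -/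
theorem s59q_isReduced_heckeAlgebra (S : Set ℕ) (hNS : ∀ q : ℕ, q.Prime → q ∣ N → q ∈ S) :
    IsReduced (heckeAlgebra N 2 S) := by
  rw [isReduced_iff_pow_one_lt 2 one_lt_two]
  intro x hx
  apply Subtype.ext
  apply LinearMap.ext
  intro f
  have hx2 : (x : Module.End ℂ (CuspForm (Gamma0 N) 2)) * x = 0 := by
    have := congrArg Subtype.val hx
    rwa [pow_two] at this
  have h1 : s59q_pet ((x : Module.End ℂ (CuspForm (Gamma0 N) 2)) f)
      ((x : Module.End ℂ (CuspForm (Gamma0 N) 2)) f) = 0 := by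
    rw [s59q_selfAdjoint_of_mem S hNS x x.2, ← Module.End.mul_apply, hx2, LinearMap.zero_apply,
      s59q_pet_zero_right]
  exact s59q_pet_self_eq_zero _ h1

end Fermat.Agent.Lib.S59

end
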