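/-
Programme R, nodes [PET] and (H0) (helper6, prefixes `s59q_`, `s59h_`).

**[PET]** `s59q_heckeReduced : s59h_HeckeReduced`: the anemic Hecke algebra of weight two and level
`Γ₀(N)` is reduced.  Proof: Petersson product on `S₂(Γ₀(N))` (integral of Mathlib's `petersson`
over a fundamental domain of finite hyperbolic measure, `QPet`), positive definite; the `T_p`,
`p ∤ N`, are self-adjoint (`QAdj`, via the abstract unfolding identity of `QFD` and the coset
combinatorics of `QHecke`); commuting self-adjoint operators generate a reduced algebra (`QRed`).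

**(H0)** `s59q_H0`: the unconditional Hecke–Galois datum over the full local Hecke algebra.
-/
import Mathlib
import Fermat.Agent.Lib.S59.H0
import Fermat.Agent.Lib.S59.QRed

set_option autoImplicit false

noncomputable section

namespace Fermat.Agent.Lib.S59

open IsLocalRing Polynomial CuspForm

local notation "Γℚ" => (AlgebraicClosure ℚ ≃ₐ[ℚ] AlgebraicClosure ℚ)
local notation "Qbar" => AlgebraicClosure ℚ

/-- **[PET]**: the anemic Hecke algebras of weight two are reduced. -/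
theorem s59q_heckeReduced : s59h_HeckeReduced :=
  fun _ _ S hNS => s59q_isReduced_heckeAlgebra S hNS

/-- **(H0)**, unconditionally: the Hecke–Galois datum over the full local Hecke algebra `T_𝔪` at
a non-Eisenstein maximal ideal of residue characteristic `p ≠ 2`. -/
theorem s59q_H0 (p : ℕ) [Fact p.Prime] (N : ℕ) [NeZero N] [Fact (HasIntegralStructure N 2)]
    (S : Finset ℕ)
    (𝒪 : Type) [CommRing 𝒪] [IsDomain 𝒪] [IsDiscreteValuationRing 𝒪]
    [IsAdicComplete (maximalIdeal 𝒪) 𝒪] [Finite (ResidueField 𝒪)] [CharZero 𝒪]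
    (θ : heckeAlgebra N 2 (↑S : Set ℕ) →+* ResidueField 𝒪)
    (hp2 : p ≠ 2) (hpS : p ∈ S) (hNS : ∀ q : ℕ, q.Prime → q ∣ N → q ∈ S)
    (hp𝒪 : (p : 𝒪) ∈ maximalIdeal 𝒪)
    (ρbar : ResidualGaloisRep (ResidueField 𝒪)) (habs : ρbar.IsAbsolutelyIrreducible)
    (hEig : ∀ (ℓ : ℕ) (hℓ : ℓ.Prime) (hℓN : ¬ ℓ ∣ N) (hℓS : ℓ ∉ (↑S : Set ℕ)),
      ∀ A : ValuationSubring Qbar, A.LiesOverPrime ℓ →
      ∀ σ : Γℚ, A.IsFrobeniusAt σ ℓ →
        LinearMap.charpoly (ρbar.ρ σ) =
          X ^ 2 - C (θ (heckeAlgebra.T hℓ hℓN hℓS)) * X + C ((ℓ : ResidueField 𝒪))) :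
    Nonempty (HeckeGaloisRepDatum N (↑S : Set ℕ) 𝒪 θ (heckeLocal N (↑S : Set ℕ) 𝒪 θ)) :=
  s59h_H0 p N S 𝒪 θ s59q_heckeReduced hp2 hpS hNS hp𝒪 ρbar habs hEig

end Fermat.Agent.Lib.S59

end
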