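/-
Programme R, node (H0) (helper6): **the Hecke–Galois datum of (H0) WITH its structure map exposed**
(request of helper5, (H3)): `∃ H : HeckeGaloisRepDatum …, H.π = heckeLocal.π N S 𝒪 θ`.
Same proof as `s59h_H0` (H0.lean is left untouched so that byte copies stay valid).
-/
import Mathlib
import Fermat.Agent.Lib.S59.H0Final

set_option autoImplicit false
set_option linter.unusedSectionVars false
set_option linter.style.haveILetI false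
set_option synthInstance.maxHeartbeats 400000
set_option maxHeartbeats 1000000

noncomputable section

namespace Fermat.Agent.Lib.S59

open IsLocalRing Polynomial CuspForm Fermat.Agent.Lib.S30 Fermat.Agent.Lib.S53 Fermat.Agent.Lib.S29

local notation "Γℚ" => (AlgebraicClosure ℚ ≃ₐ[ℚ] AlgebraicClosure ℚ)
local notation "Qbar" => AlgebraicClosure ℚ

section H0

variable (p : ℕ) [Fact p.Prime] (N : ℕ) [NeZero N] [Fact (HasIntegralStructure N 2)]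
  (S : Finset ℕ)
  (𝒪 : Type) [CommRing 𝒪] [IsDomain 𝒪] [IsDiscreteValuationRing 𝒪]
  [IsAdicComplete (maximalIdeal 𝒪) 𝒪] [Finite (ResidueField 𝒪)] [CharZero 𝒪]
  (θ : heckeAlgebra N 2 (↑S : Set ℕ) →+* ResidueField 𝒪)

/-- **(H0)** from **[PET]**, with `H.π = heckeLocal.π`. -/
theorem s59h_H0_pi (hred : s59h_HeckeReduced) (hp2 : p ≠ 2)
    (hpS : p ∈ S) (hNS : ∀ q : ℕ, q.Prime → q ∣ N → q ∈ S)
    (hp𝒪 : (p : 𝒪) ∈ maximalIdeal 𝒪)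
    (ρbar : ResidualGaloisRep (ResidueField 𝒪)) (habs : ρbar.IsAbsolutelyIrreducible)
    (hEig : ∀ (ℓ : ℕ) (hℓ : ℓ.Prime) (hℓN : ¬ ℓ ∣ N) (hℓS : ℓ ∉ (↑S : Set ℕ)),
      ∀ A : ValuationSubring Qbar, A.LiesOverPrime ℓ →
      ∀ σ : Γℚ, A.IsFrobeniusAt σ ℓ →
        LinearMap.charpoly (ρbar.ρ σ) =
          X ^ 2 - C (θ (heckeAlgebra.T hℓ hℓN hℓS)) * X + C ((ℓ : ResidueField 𝒪))) :
    ∃ H : HeckeGaloisRepDatum N (↑S : Set ℕ) 𝒪 θ (heckeLocal N (↑S : Set ℕ) 𝒪 θ),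
      H.π = heckeLocal.π N (↑S : Set ℕ) 𝒪 θ := by
  haveI : IsReduced (heckeAlgebra N 2 (↑S : Set ℕ)) :=
    hred N (↑S : Set ℕ) fun q hq hqN => hNS q hq hqN
  haveI : IsReduced (heckeLocal N (↑S : Set ℕ) 𝒪 θ) := s59h_isReduced_heckeLocal N _ 𝒪 θ
  -- `2` is a unit
  have h2𝒪 : IsUnit (2 : 𝒪) := by
    by_contra hnu
    have h2m : (2 : 𝒪) ∈ maximalIdeal 𝒪 := by rwa [mem_maximalIdeal, mem_nonunits_iff]
    have hcop : Nat.Coprime 2 p :=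
      (Nat.coprime_primes Nat.prime_two (Fact.out : p.Prime)).mpr (Ne.symm hp2)
    obtain ⟨u, v, huv⟩ := Nat.isCoprime_iff_coprime.mpr hcop
    have h1 : (1 : 𝒪) ∈ maximalIdeal 𝒪 := by
      have := congrArg (fun z : ℤ => (z : 𝒪)) huv
      simp only [Int.cast_add, Int.cast_mul, Int.cast_natCast, Int.cast_one] at this
      have h2m' : ((2 : ℕ) : 𝒪) ∈ maximalIdeal 𝒪 := by rwa [Nat.cast_ofNat]
      rw [← this]
      exact Ideal.add_mem _ (Ideal.mul_mem_left _ _ h2m') (Ideal.mul_mem_left _ _ hp𝒪)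
    exact (Ideal.ne_top_iff_one _).mp (maximalIdeal.isMaximal 𝒪).ne_top h1
  have h2 : IsUnit (2 : heckeLocal N (↑S : Set ℕ) 𝒪 θ) := by
    have := h2𝒪.map (algebraMap 𝒪 (heckeLocal N (↑S : Set ℕ) 𝒪 θ))
    rwa [map_ofNat] at this
  have hpk : (p : ResidueField 𝒪) = 0 := by
    rw [← map_natCast (residue 𝒪), residue_eq_zero_iff]
    exact hp𝒪
  have hbar : ∀ (ℓ : ℕ), ℓ.Prime → ℓ ∉ S →
      ∀ A : ValuationSubring Qbar, A.LiesOverPrime ℓ → ∀ σ : Γℚ, A.IsFrobeniusAt σ ℓ →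
        LinearMap.charpoly (ρbar.ρ σ) =
          X ^ 2 - C (s59h_thetaT N S 𝒪 θ (s59h_a N S 𝒪 θ ℓ)) * X +
            C (s59h_thetaT N S 𝒪 θ ((ℓ : heckeLocal N (↑S : Set ℕ) 𝒪 θ))) := by
    intro ℓ hℓ hℓS A hA σ hFr
    have hℓN : ¬ ℓ ∣ N := fun h => hℓS (hNS ℓ hℓ h)
    have hℓS' : ℓ ∉ (↑S : Set ℕ) := hℓS
    have e : s59h_thetaT N S 𝒪 θ ((ℓ : heckeLocal N (↑S : Set ℕ) 𝒪 θ)) =
        (ℓ : ResidueField 𝒪) := map_natCast _ ℓ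
    rw [hEig ℓ hℓ hℓN hℓS' A hA σ hFr, s59h_a_eq N S 𝒪 θ hℓ hℓN hℓS', s59h_thetaT_pi, e]
  have hdet : ∀ (ℓ : ℕ), ℓ.Prime → ℓ ∉ S →
      ∀ A : ValuationSubring Qbar, A.LiesOverPrime ℓ → ∀ σ : Γℚ, A.IsFrobeniusAt σ ℓ →
        LinearMap.det (ρbar.ρ σ) = (ℓ : ResidueField 𝒪) := by
    intro ℓ hℓ hℓS A hA σ hFr
    have hℓN : ¬ ℓ ∣ N := fun h => hℓS (hNS ℓ hℓ h)
    have hℓS' : ℓ ∉ (↑S : Set ℕ) := hℓS
    have h1 := hEig ℓ hℓ hℓN hℓS' A hA σ hFr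
    set b := ResidualGaloisRep.someBasis ρbar
    rw [← LinearMap.charpoly_toMatrix (ρbar.ρ σ) b, Matrix.charpoly_fin_two] at h1
    rw [← LinearMap.det_toMatrix b]
    exact (s59h_coeffs_of_quadratic_eq h1).2
  have hoddbar := s59h_det_conj p hpk ρbar S hdet hpS
  obtain ⟨ρ, hρ, hirr⟩ := s59h_glue (𝒪 := 𝒪) h2 (s59h_hasPoints p N S 𝒪 θ hpS hNS hp𝒪)
    complexConjugation complexConjugation_mul_self (s59h_thetaT N S 𝒪 θ)
    (fun x hx => s59h_thetaT_mem N S 𝒪 θ hx) ρbar habs hoddbar hbar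
  refine ⟨{ π := heckeLocal.π N (↑S : Set ℕ) 𝒪 θ
            residue_π := s59h_residue_pi N _ 𝒪 θ
            adjoin_range_π := s59h_adjoin_range_pi N _ 𝒪 θ
            exists_point := fun χ hχ => ?_
            residue_surjective := s59h_residue_surjective N _ 𝒪 θ
            ρ := ρ
            charpoly_frob := fun ℓ hℓ hℓN hℓS A hA σ hFr => ?_
            residual_absIrr := hirr }, rfl⟩
  · refine s59h_exists_point N (↑S : Set ℕ) 𝒪 θ χ fun t => ?_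
    rw [hχ t]
    exact (congrFun (congrArg DFunLike.coe (ResidueField.map_id (R := 𝒪))) (θ t)).symm
  · have hℓS' : ℓ ∉ S := hℓS
    rw [hρ ℓ hℓ hℓS' A hA σ hFr, s59h_a_eq N S 𝒪 θ hℓ hℓN hℓS]


/-- **(H0)**, unconditionally, with `H.π = heckeLocal.π`. -/
theorem s59q_H0_pi (hp2 : p ≠ 2) (hpS : p ∈ S) (hNS : ∀ q : ℕ, q.Prime → q ∣ N → q ∈ S)
    (hp𝒪 : (p : 𝒪) ∈ maximalIdeal 𝒪)
    (ρbar : ResidualGaloisRep (ResidueField 𝒪)) (habs : ρbar.IsAbsolutelyIrreducible)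
    (hEig : ∀ (ℓ : ℕ) (hℓ : ℓ.Prime) (hℓN : ¬ ℓ ∣ N) (hℓS : ℓ ∉ (↑S : Set ℕ)),
      ∀ A : ValuationSubring Qbar, A.LiesOverPrime ℓ →
      ∀ σ : Γℚ, A.IsFrobeniusAt σ ℓ →
        LinearMap.charpoly (ρbar.ρ σ) =
          X ^ 2 - C (θ (heckeAlgebra.T hℓ hℓN hℓS)) * X + C ((ℓ : ResidueField 𝒪))) :
    ∃ H : HeckeGaloisRepDatum N (↑S : Set ℕ) 𝒪 θ (heckeLocal N (↑S : Set ℕ) 𝒪 θ),
      H.π = heckeLocal.π N (↑S : Set ℕ) 𝒪 θ :=
  s59h_H0_pi p N S 𝒪 θ s59q_heckeReduced hp2 hpS hNS hp𝒪 ρbar habs hEig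

end H0

end Fermat.Agent.Lib.S59

end
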