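/-
S59 (helper5, prefix `s59e_`), (H3)(c) file 4: **the assembly `R_Q ↠ T'_Q`**.

Input: level `M = N ∏ Q`, `H ⊇ ker((ℤ/M)ˣ → (ℤ/∏Q)ˣ)` of odd exponent index; an idempotent `ε` of
`End_𝒪 H_par(Γ_H, 𝒪)` commuting with the anemic generators, `ε ≠ 0`, on whose range every generator
`t_i` is congruent to a constant `c_i ∈ 𝒪` modulo topologically nilpotent operators; `ρbar`
absolutely irreducible with Frobenius eigensystem `(c(⟨σ_ℓ⟩^k) c(T_ℓ) mod 𝔪)_ℓ`; a deformation ring `D`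
of a type `𝒟` satisfied by all Hecke–Galois data of level `N ∏ q²` lifting `ρbar`.
Output: the ring homomorphism `a_M : 𝕋(Γ₀(N ∏ q²))^S → End_𝒪(ε H_par)`, `T_ℓ ↦ T'_ℓ|_{M_Q}`; the local
`𝒪`-algebra `T'_Q = 𝒪[a_M(𝕋)] ⊂ End_𝒪(M_Q)`; the eigensystem `θ`, the Hecke–Galois datum over the
full local Hecke algebra of level `N ∏ q²`, `Ψ : 𝕋_𝔪 ↠ T'_Q`, `φ : D.R ↠ T'_Q`, the comparison
`D.ρ ⊗_φ T'_Q ≃ ρ_𝕋 ⊗_Ψ T'_Q` and the Frobenius characteristic polynomials.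
-/
import Mathlib
import Fermat.Agent.Lib.S59.EHRel2
import Fermat.Agent.Lib.S59.EHLoc
import Fermat.Agent.Lib.S59.EHRT
import Fermat.Agent.Lib.S59.H0Pi

set_option autoImplicit false
set_option linter.unusedSectionVars false
set_option linter.style.haveILetI false
set_option synthInstance.maxHeartbeats 400000
set_option maxHeartbeats 1000000

noncomputable section

namespace Fermat.Agent.Lib.S59

open Matrix.SpecialLinearGroup CongruenceSubgroup ModularCurve.Period Polynomial CuspForm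
open Fermat.Agent.Lib.S48 Fermat.Agent.Lib.ES IsLocalRing
open scoped MatrixGroups

local notation "Qbar" => AlgebraicClosure ℚ
local notation "GQ" => (AlgebraicClosure ℚ ≃ₐ[ℚ] AlgebraicClosure ℚ)

/-! ### Restriction to the range of an idempotent -/

/-- helper instance: for an endomorphism `f` of a SUBMODULE `p`, instance search does not find the
ring structure of `End (range f)` by itself when `p` is a concrete nested submodule (the defeq check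
of the two `AddCommMonoid` structures is too expensive); for generic `p` it is immediate. -/
instance s59e_ringEndRange {R Y : Type*} [CommRing R] [AddCommGroup Y] [Module R Y]
    (p : Submodule R Y) (f : Module.End R p) : Ring (Module.End R ↥(LinearMap.range f)) :=
  Module.End.instRing

section Restr

variable {R : Type*} [CommRing R] {Y : Type*} [AddCommGroup Y] [Module R Y]

/-- restriction to `ε Y` of the endomorphisms commuting with `ε`. -/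
def s59e_restr (ε : Module.End R Y) :
    Subalgebra.centralizer R ({ε} : Set (Module.End R Y)) →ₐ[R]
      Module.End R (LinearMap.range ε) where
  toFun x := (x : Module.End R Y).restrict (p := LinearMap.range ε) (q := LinearMap.range ε) (by
    rintro _ ⟨z, rfl⟩
    exact ⟨(x : Module.End R Y) z, LinearMap.congr_fun (x.2 ε rfl) z⟩)
  map_one' := LinearMap.ext fun z => Subtype.ext rfl
  map_mul' _ _ := LinearMap.ext fun z => Subtype.ext rfl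
  map_zero' := LinearMap.ext fun z => Subtype.ext rfl
  map_add' _ _ := LinearMap.ext fun z => Subtype.ext rfl
  commutes' _ := LinearMap.ext fun z => Subtype.ext rfl

theorem s59e_restr_coe (ε : Module.End R Y)
    (x : Subalgebra.centralizer R ({ε} : Set (Module.End R Y))) (z : LinearMap.range ε) :
    ((s59e_restr ε x z : LinearMap.range ε) : Y) = (x : Module.End R Y) (z : Y) := rfl

theorem s59e_part_smul_top_iff (I : Ideal R) {ε : Module.End R Y} (hε : ε * ε = ε)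
    (x : LinearMap.range ε) :
    x ∈ (I • ⊤ : Submodule R (LinearMap.range ε)) ↔ (x : Y) ∈ (I • ⊤ : Submodule R Y) := by
  constructor
  · intro h
    exact Submodule.smul_top_le_comap_smul_top I (LinearMap.range ε).subtype h
  · intro h
    have h1 := Submodule.smul_top_le_comap_smul_top I ε.rangeRestrict h
    rw [Submodule.mem_comap] at h1
    have h2 : ε.rangeRestrict (x : Y) = x := by
      obtain ⟨z, hz⟩ := x.2
      refine Subtype.ext ?_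
      show ε (x : Y) = x
      rw [← hz, ← Module.End.mul_apply, hε]
    rwa [h2] at h1

end Restr

section RestrLoc

variable {𝒪 : Type*} [CommRing 𝒪] [IsLocalRing 𝒪] {Y : Type*} [AddCommGroup Y] [Module 𝒪 Y]

/-- an endomorphism commuting with `ε` and congruent to `c` modulo topological nilpotents on `ε Y`
restricts to a locally scalar endomorphism of `ε Y`. -/
theorem s59e_restr_locScalar {ε : Module.End 𝒪 Y} (hε : ε * ε = ε)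
    (x : Subalgebra.centralizer 𝒪 ({ε} : Set (Module.End 𝒪 Y))) (c : 𝒪) {k : ℕ}
    (h : ∀ z : Y, (((x : Module.End 𝒪 Y) - c • 1) ^ k) (ε z) ∈
      maximalIdeal 𝒪 • (⊤ : Submodule 𝒪 Y)) :
    s59e_IsLocScalar (s59e_restr ε x) c := by
  refine s59e_isLocScalar_of_pow (n := k) fun y => ?_
  have h1 : (s59e_restr ε x - c • (1 : Module.End 𝒪 (LinearMap.range ε))) ^ k
      = s59e_restr ε ((x - c • 1) ^ k) := by
    rw [map_pow, map_sub, map_smul, map_one]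
  rw [h1, s59e_part_smul_top_iff (maximalIdeal 𝒪) hε, s59e_restr_coe]
  obtain ⟨z, hz⟩ := y.2
  rw [← hz]
  exact h z

end RestrLoc

/-! ### Generators of the anemic Hecke algebra at `Γ₀`-level -/

section Gen

variable (M' : ℕ) [NeZero M'] (S : Set ℕ)

/-- if `S` contains the primes dividing the level, the `T_ℓ` generate `𝕋^S` as a ring. -/
theorem s59e_hecke_closure (hS : ∀ q : ℕ, q.Prime → q ∣ M' → q ∈ S) :
    Subring.closure {t : heckeAlgebra M' 2 S | ∃ (ℓ : ℕ) (hℓ : ℓ.Prime) (hℓN : ¬ ℓ ∣ M')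
      (hℓS : ℓ ∉ S), t = heckeAlgebra.T hℓ hℓN hℓS} = ⊤ := by
  rw [eq_top_iff]
  rintro ⟨e, he⟩ -
  induction he using Algebra.adjoin_induction with
  | mem e he =>
    rcases he with ⟨ℓ, hℓ, hℓN, hℓS, rfl⟩ | ⟨q, hqN, hq, hqS, rfl⟩
    · exact Subring.subset_closure ⟨ℓ, hℓ, hℓN, hℓS, rfl⟩
    · exact absurd (hS q hq hqN) hqS
  | algebraMap r =>
    have h1 : ((r : ℤ) : heckeAlgebra M' 2 S) ∈ Subring.closure {t : heckeAlgebra M' 2 S |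
        ∃ (ℓ : ℕ) (hℓ : ℓ.Prime) (hℓN : ¬ ℓ ∣ M') (hℓS : ℓ ∉ S),
          t = heckeAlgebra.T hℓ hℓN hℓS} := intCast_mem _ r
    convert h1 using 1
    refine Subtype.ext ?_
    show algebraMap ℤ _ r = (((r : ℤ) : heckeAlgebra M' 2 S) :
      Module.End ℂ (CuspForm (Gamma0 M') 2))
    rw [eq_intCast]
    rfl
  | add x y hx hy hx' hy' => exact Subring.add_mem _ hx' hy'
  | mul x y hx hy hx' hy' => exact Subring.mul_mem _ hx' hy'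

end Gen

/-! ### The assembly, abstract form -/

section Abs

variable {p : ℕ} [Fact p.Prime] (M' : ℕ) [NeZero M'] [Fact (HasIntegralStructure M' 2)]
  (S : Finset ℕ)
  {𝒪 : Type} [CommRing 𝒪] [IsDomain 𝒪] [IsDiscreteValuationRing 𝒪]
  [IsAdicComplete (maximalIdeal 𝒪) 𝒪] [Finite (ResidueField 𝒪)] [CharZero 𝒪]
  {Y : Type} [AddCommGroup Y] [Module 𝒪 Y] [Module.Free 𝒪 Y] [Module.Finite 𝒪 Y]

/-- **the conclusion of (H3)**: for `a : 𝕋(Γ₀(M'))^S → End_𝒪 Y`, an idempotent `ε` and constants `cT`,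
the restriction `aM` of `a` to `ε Y`, the local ring `T' = 𝒪[aM(𝕋)]`, the eigensystem `θ ≡ cT`, the
Hecke–Galois datum `Hd` over the full local Hecke algebra, `Ψ : 𝕋_𝔪 ↠ T'`, `φ : D.R ↠ T'`, the
comparison of the two representations over `T'` and the Frobenius characteristic polynomials. -/
def s59e_H3Concl (a : heckeAlgebra M' 2 (↑S : Set ℕ) →+* Module.End 𝒪 Y) (ε : Module.End 𝒪 Y)
    (cT : ℕ → 𝒪) (ρbar : ResidualGaloisRep (ResidueField 𝒪))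
    {𝒟 : ∀ ⦃A : Type⦄ [CommRing A] [IsLocalRing A] [Algebra 𝒪 A], GaloisRepAdic A → Prop}
    (D : GaloisRep.DeformationRingData 𝒪 ρbar 𝒟) : Prop :=
    ∃ aM : heckeAlgebra M' 2 (↑S : Set ℕ) →+* Module.End 𝒪 (LinearMap.range ε),
      (∀ t (z : LinearMap.range ε), ((aM t z : LinearMap.range ε) : Y) = a t (z : Y)) ∧
      ∃ (_ : IsLocalRing (s59e_adj 𝒪 aM)) (_ : IsLocalHom (algebraMap 𝒪 (s59e_adj 𝒪 aM)))
        (θ : heckeAlgebra M' 2 (↑S : Set ℕ) →+* ResidueField 𝒪)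
        (Hd : HeckeGaloisRepDatum M' (↑S : Set ℕ) 𝒪 θ (heckeLocal M' (↑S : Set ℕ) 𝒪 θ))
        (Ψ : heckeLocal M' (↑S : Set ℕ) 𝒪 θ →ₐ[𝒪] s59e_adj 𝒪 aM)
        (hΨ : IsLocalHom (Ψ : heckeLocal M' (↑S : Set ℕ) 𝒪 θ →+* s59e_adj 𝒪 aM))
        (φ : D.R →ₐ[𝒪] s59e_adj 𝒪 aM) (hφ : IsLocalHom (φ : D.R →+* s59e_adj 𝒪 aM)),
        Hd.π = heckeLocal.π M' (↑S : Set ℕ) 𝒪 θ ∧
        (∀ t, residue (s59e_adj 𝒪 aM) (s59e_adjHom 𝒪 aM t) =
          ResidueField.map (algebraMap 𝒪 (s59e_adj 𝒪 aM)) (θ t)) ∧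
        (∀ (ℓ : ℕ) (hℓ : ℓ.Prime) (hℓN : ¬ ℓ ∣ M') (hℓS : ℓ ∉ (↑S : Set ℕ)),
          θ (heckeAlgebra.T hℓ hℓN hℓS) = residue 𝒪 (cT ℓ)) ∧
        Function.Surjective Ψ ∧
        (∀ t, Ψ (heckeLocal.π M' (↑S : Set ℕ) 𝒪 θ t) = s59e_adjHom 𝒪 aM t) ∧
        Function.Surjective φ ∧
        (D.ρ.baseChangeAlong (φ : D.R →+* s59e_adj 𝒪 aM) hφ).IsEquiv
          (Hd.ρ.baseChangeAlong (Ψ : heckeLocal M' (↑S : Set ℕ) 𝒪 θ →+* s59e_adj 𝒪 aM) hΨ) ∧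
        ∀ (ℓ : ℕ) (hℓ : ℓ.Prime) (hℓN : ¬ ℓ ∣ M') (hℓS : ℓ ∉ (↑S : Set ℕ))
          (A : ValuationSubring Qbar), A.LiesOverPrime ℓ → ∀ σ : GQ, A.IsFrobeniusAt σ ℓ →
          LinearMap.charpoly ((D.ρ.baseChangeAlong (φ : D.R →+* s59e_adj 𝒪 aM) hφ).ρ σ) =
            X ^ 2 - C (s59e_adjHom 𝒪 aM (heckeAlgebra.T hℓ hℓN hℓS)) * X +
              C ((ℓ : s59e_adj 𝒪 aM))

/-- **(H3), abstract form.**  `a : 𝕋(Γ₀(M'))^S → End_𝒪 Y` a ring homomorphism into the endomorphisms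
of a finite free module, `ε` an idempotent commuting with a commuting family `g_j` of endomorphisms,
each congruent to a constant `c_j` modulo topological nilpotents on `ε Y ≠ 0`, every `a(T_ℓ)` a
product `g_{j₁} g_{j₂}`.  Then `T' = 𝒪[a(𝕋)|_{εY}]` is local and receives `D.R`. -/
theorem s59e_H3_abs (hp2 : p ≠ 2) (hp𝒪 : (p : 𝒪) ∈ maximalIdeal 𝒪) (hpS : p ∈ S)
    (hS : ∀ q : ℕ, q.Prime → q ∣ M' → q ∈ S)
    (a : heckeAlgebra M' 2 (↑S : Set ℕ) →+* Module.End 𝒪 Y)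
    (ε : Module.End 𝒪 Y) (hε : ε * ε = ε) (hε0 : ε ≠ 0)
    {J : Type*} (g : J → Module.End 𝒪 Y) (hgg : ∀ i j, g i * g j = g j * g i)
    (hεg : ∀ j, ε * g j = g j * ε) (c : J → 𝒪)
    (hnil : ∀ j, ∃ k : ℕ, ∀ z, ((g j - c j • 1) ^ k) (ε z) ∈
      maximalIdeal 𝒪 • (⊤ : Submodule 𝒪 Y))
    (cT : ℕ → 𝒪)
    (ha : ∀ (ℓ : ℕ) (hℓ : ℓ.Prime) (hℓN : ¬ ℓ ∣ M') (hℓS : ℓ ∉ (↑S : Set ℕ)),
      ∃ j₁ j₂ : J, a (heckeAlgebra.T hℓ hℓN hℓS) = g j₁ * g j₂ ∧ cT ℓ = c j₁ * c j₂)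
    (ρbar : ResidualGaloisRep (ResidueField 𝒪))
    (hEig : ∀ (ℓ : ℕ) (_ : ℓ.Prime) (_ : ¬ ℓ ∣ M') (_ : ℓ ∉ S),
      ∀ A : ValuationSubring Qbar, A.LiesOverPrime ℓ → ∀ σ : GQ, A.IsFrobeniusAt σ ℓ →
        LinearMap.charpoly (ρbar.ρ σ) = X ^ 2 - C (residue 𝒪 (cT ℓ)) * X +
          C ((ℓ : ResidueField 𝒪)))
    {𝒟 : ∀ ⦃A : Type⦄ [CommRing A] [IsLocalRing A] [Algebra 𝒪 A], GaloisRepAdic A → Prop}
    (D : GaloisRep.DeformationRingData 𝒪 ρbar 𝒟)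
    (h𝒟 : ∀ (θ : heckeAlgebra M' 2 (↑S : Set ℕ) →+* ResidueField 𝒪)
      (Hd : HeckeGaloisRepDatum M' (↑S : Set ℕ) 𝒪 θ (heckeLocal M' (↑S : Set ℕ) 𝒪 θ)),
      Hd.ρ.residual.IsEquiv (ρbar.baseChangeAlong
        (ResidueField.map (algebraMap 𝒪 (heckeLocal M' (↑S : Set ℕ) 𝒪 θ)))) → 𝒟 Hd.ρ) :
    s59e_H3Concl M' S a ε cT ρbar D := by
  classical
  unfold s59e_H3Concl
  have hgen := s59e_hecke_closure M' (↑S : Set ℕ) hS
  -- `a` commutes with `ε`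
  have haε : ∀ t, ε * a t = a t * ε := by
    intro t
    have ht : t ∈ Subring.closure {t : heckeAlgebra M' 2 (↑S : Set ℕ) | ∃ (ℓ : ℕ) (hℓ : ℓ.Prime)
        (hℓN : ¬ ℓ ∣ M') (hℓS : ℓ ∉ (↑S : Set ℕ)), t = heckeAlgebra.T hℓ hℓN hℓS} := by
      rw [hgen]; exact Subring.mem_top t
    induction ht using Subring.closure_induction with
    | mem t ht =>
      obtain ⟨ℓ, hℓ, hℓN, hℓS, rfl⟩ := ht
      obtain ⟨j₁, j₂, h12, -⟩ := ha ℓ hℓ hℓN hℓS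
      rw [h12, ← mul_assoc, hεg, mul_assoc, hεg, mul_assoc]
    | zero => rw [map_zero, mul_zero, zero_mul]
    | one => rw [map_one, mul_one, one_mul]
    | add x y _ _ hx hy => rw [map_add, mul_add, add_mul, hx, hy]
    | neg x _ hx => rw [map_neg, mul_neg, neg_mul, hx]
    | mul x y _ _ hx hy => rw [map_mul, ← mul_assoc, hx, mul_assoc, hy, mul_assoc]
  have hcent : ∀ x : Module.End 𝒪 Y, ε * x = x * ε →
      x ∈ Subalgebra.centralizer 𝒪 ({ε} : Set (Module.End 𝒪 Y)) := by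
    intro x hx
    rw [Subalgebra.mem_centralizer_iff]
    rintro _ rfl
    exact hx
  -- the restricted homomorphism
  obtain ⟨aM, haM⟩ : ∃ aM : heckeAlgebra M' 2 (↑S : Set ℕ) →+* Module.End 𝒪 (LinearMap.range ε),
      ∀ t, aM t = s59e_restr ε ⟨a t, hcent _ (haε t)⟩ :=
    ⟨(s59e_restr ε).toRingHom.comp
      (a.codRestrict (Subalgebra.centralizer 𝒪 ({ε} : Set (Module.End 𝒪 Y)))
        fun t => hcent _ (haε t)), fun t => rfl⟩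
  refine ⟨aM, fun t z => by rw [haM t]; rfl, ?_⟩
  -- the module `ε Y`
  haveI : Module.Finite 𝒪 (LinearMap.range ε) := Module.Finite.range ε
  haveI : Module.Free 𝒪 (LinearMap.range ε) := by
    haveI : Module.Projective 𝒪 (LinearMap.range ε) :=
      Module.Projective.of_split (LinearMap.range ε).subtype ε.rangeRestrict
        (LinearMap.ext fun x => by
          obtain ⟨z, hz⟩ := x.2
          refine Subtype.ext ?_
          show ε (x : Y) = x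
          rw [← hz, ← Module.End.mul_apply, hε])
    exact Module.free_of_flat_of_isLocalRing
  haveI : Nontrivial (LinearMap.range ε) := by
    obtain ⟨z, hz⟩ : ∃ z, ε z ≠ 0 := by
      by_contra h
      exact hε0 (LinearMap.ext fun z => not_not.mp fun hz => h ⟨z, hz⟩)
    exact ⟨⟨⟨ε z, z, rfl⟩, 0, fun h => hz (congrArg Subtype.val h)⟩⟩
  -- the restricted generators
  obtain ⟨G, hG⟩ : ∃ G : J → Module.End 𝒪 (LinearMap.range ε),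
      ∀ j, G j = s59e_restr ε ⟨g j, hcent _ (hεg j)⟩ := ⟨_, fun _ => rfl⟩
  have hgloc : ∀ j, s59e_IsLocScalar (G j) (c j) := by
    intro j
    obtain ⟨k, hk⟩ := hnil j
    rw [hG]
    exact s59e_restr_locScalar hε _ (c j) hk
  have hGG : ∀ i j, Commute (G i) (G j) := fun i j => by
    show G i * G j = G j * G i
    rw [hG, hG, ← map_mul, ← map_mul]
    congr 1
    exact Subtype.ext (hgg i j)
  have hTG : ∀ (ℓ : ℕ) (hℓ : ℓ.Prime) (hℓN : ¬ ℓ ∣ M') (hℓS : ℓ ∉ (↑S : Set ℕ)),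
      ∃ j₁ j₂ : J, aM (heckeAlgebra.T hℓ hℓN hℓS) = G j₁ * G j₂ ∧ cT ℓ = c j₁ * c j₂ := by
    intro ℓ hℓ hℓN hℓS
    obtain ⟨j₁, j₂, h12, hc12⟩ := ha ℓ hℓ hℓN hℓS
    refine ⟨j₁, j₂, ?_, hc12⟩
    rw [haM, hG, hG, ← map_mul]
    congr 1
    exact Subtype.ext h12
  -- every element of `T'` is locally scalar
  have hle : s59e_adj 𝒪 aM ≤ Algebra.adjoin 𝒪 (Set.range G) := by
    refine Algebra.adjoin_le ?_
    rintro _ ⟨t, rfl⟩
    have ht : t ∈ Subring.closure {t : heckeAlgebra M' 2 (↑S : Set ℕ) | ∃ (ℓ : ℕ) (hℓ : ℓ.Prime)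
        (hℓN : ¬ ℓ ∣ M') (hℓS : ℓ ∉ (↑S : Set ℕ)), t = heckeAlgebra.T hℓ hℓN hℓS} := by
      rw [hgen]; exact Subring.mem_top t
    induction ht using Subring.closure_induction with
    | mem t ht =>
      obtain ⟨ℓ, hℓ, hℓN, hℓS, rfl⟩ := ht
      obtain ⟨j₁, j₂, h12, -⟩ := hTG ℓ hℓ hℓN hℓS
      rw [h12]
      exact Subalgebra.mul_mem _ (Algebra.subset_adjoin ⟨j₁, rfl⟩)
        (Algebra.subset_adjoin ⟨j₂, rfl⟩)
    | zero => rw [map_zero]; exact Subalgebra.zero_mem _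
    | one => rw [map_one]; exact Subalgebra.one_mem _
    | add x y _ _ hx hy => rw [map_add]; exact Subalgebra.add_mem _ hx hy
    | neg x _ hx => rw [map_neg]; exact Subalgebra.neg_mem _ hx
    | mul x y _ _ hx hy => rw [map_mul]; exact Subalgebra.mul_mem _ hx hy
  have hloc : ∀ x ∈ s59e_adj 𝒪 aM, ∃ d : 𝒪, s59e_IsLocScalar x d := fun x hx =>
    s59e_locScalar_adjoin G hGG c hgloc (hle hx)
  have hlr : IsLocalRing (s59e_adj 𝒪 aM) := s59e_adj_isLocalRing aM hloc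
  have hlh : IsLocalHom (algebraMap 𝒪 (s59e_adj 𝒪 aM)) := s59e_adj_isLocalHom aM hloc
  have hTloc : ∀ (ℓ : ℕ) (hℓ : ℓ.Prime) (hℓN : ¬ ℓ ∣ M') (hℓS : ℓ ∉ (↑S : Set ℕ)),
      s59e_IsLocScalar (aM (heckeAlgebra.T hℓ hℓN hℓS)) (cT ℓ) := by
    intro ℓ hℓ hℓN hℓS
    obtain ⟨j₁, j₂, h12, hc12⟩ := hTG ℓ hℓ hℓN hℓS
    rw [h12, hc12]
    exact (hgloc j₁).mul (hgloc j₂) (hGG j₁ j₂)
  -- the eigensystem
  obtain ⟨θ, hθres, hθc⟩ := s59e_adj_theta aM hloc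
  have hθT : ∀ (ℓ : ℕ) (hℓ : ℓ.Prime) (hℓN : ¬ ℓ ∣ M') (hℓS : ℓ ∉ (↑S : Set ℕ)),
      θ (heckeAlgebra.T hℓ hℓN hℓS) = residue 𝒪 (cT ℓ) := fun ℓ hℓ hℓN hℓS =>
    hθc _ _ (hTloc ℓ hℓ hℓN hℓS)
  have hEigθ : ∀ (ℓ : ℕ) (hℓ : ℓ.Prime) (hℓN : ¬ ℓ ∣ M') (hℓS : ℓ ∉ (↑S : Set ℕ)),
      ∀ A : ValuationSubring Qbar, A.LiesOverPrime ℓ → ∀ σ : GQ, A.IsFrobeniusAt σ ℓ →
        LinearMap.charpoly (ρbar.ρ σ) =
          X ^ 2 - C (θ (heckeAlgebra.T hℓ hℓN hℓS)) * X + C ((ℓ : ResidueField 𝒪)) := by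
    intro ℓ hℓ hℓN hℓS A hA σ hσ
    rw [hθT]
    exact hEig ℓ hℓ hℓN hℓS A hA σ hσ
  -- the Hecke–Galois datum over the full local Hecke algebra
  have hH0 := s59q_H0_pi p M' S 𝒪 θ hp2 hpS hS hp𝒪 ρbar D.absIrr hEigθ
  obtain ⟨Hd, hπ⟩ := hH0
  have hres := s59e_hecke_hres Hd hp2 hp𝒪 hS ρbar hEigθ
  have hfull := s59e_R_to_T'_full D Hd hπ hS
    (h𝒟 θ Hd hres) hres (s59e_adjHom 𝒪 aM) hθres (s59e_adjHom_gen 𝒪 aM)
  obtain ⟨Ψ, hΨ, φ, hφ, hΨs, hΨa, hφs, hequiv, hcp⟩ := hfull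
  exact ⟨hlr, hlh, θ, Hd, Ψ, hΨ, φ, hφ, hπ, hθres, hθT, hΨs, hΨa, hφs, hequiv,
    fun ℓ hℓ hℓN hℓS A hA σ hσ =>
      (s59e_charpoly_of_isEquiv hequiv σ).symm.trans (hcp ℓ hℓ hℓN hℓS A hA σ hσ)⟩

end Abs

/-! ### The concrete corollary at `Γ_H(N ∏ q)` -/

section Concrete

variable {p : ℕ} [Fact p.Prime] (N : ℕ) [NeZero N] (Q : Finset ℕ) {M : ℕ} [NeZero M]
  (H : Subgroup (ZMod M)ˣ) {ι : Type*} [Fintype ι] [DecidableEq ι]
  (b : Module.Basis ι ℤ (s48h_M (s48h_GammaH M H)))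
  (M' : ℕ) [NeZero M'] [Fact (HasIntegralStructure M' 2)] (S : Finset ℕ)
  {𝒪 : Type} [CommRing 𝒪] [IsDomain 𝒪] [IsDiscreteValuationRing 𝒪]
  [IsAdicComplete (maximalIdeal 𝒪) 𝒪] [Finite (ResidueField 𝒪)] [CharZero 𝒪]

/-- **(H3), concrete form.**  `Y = H_par(Γ_H(N ∏ q), 𝒪)`, `a` the ring homomorphism of [REL]
(`T_ℓ ↦ T'_ℓ = ⟨ℓ⟩^{-1/2} T_ℓ`), `ε` an idempotent commuting with the anemic generators, each
generator congruent to a constant `c i` modulo topological nilpotents on `ε Y ≠ 0`. -/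
theorem s59e_H3 (hp2 : p ≠ 2) (hp𝒪 : (p : 𝒪) ∈ maximalIdeal 𝒪) (hpS : p ∈ S)
    (hQ : ∀ q ∈ Q, q.Prime ∧ ¬ q ∣ N)
    (hM : M = N * ∏ q ∈ Q, q) {D : ℕ} (hDQ : D = ∏ q ∈ Q, q) (hD : D ∣ M)
    (hH : s59u_ker M D hD ≤ H) {n m : ℕ} (hnm : 2 * m = n + 1) (hn : ∀ u : (ZMod M)ˣ, u ^ n ∈ H)
    (hM' : M' = N * ∏ q ∈ Q, q ^ 2) (hS : ∀ q : ℕ, q.Prime → q ∣ M' → q ∈ S)
    (cB : Module.Basis ι 𝒪 (s48h_Hpar 𝒪 (s48h_GammaH M H) 𝒪))
    (hcB : ∀ i, ((cB i : s48h_Hpar 𝒪 (s48h_GammaH M H) 𝒪) : Additive (s48h_GammaH M H) →+ 𝒪)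
      = s48h_castB b 𝒪 i)
    (ε : Module.End 𝒪 (s48h_Hpar 𝒪 (s48h_GammaH M H) 𝒪)) (hε : ε * ε = ε) (hε0 : ε ≠ 0)
    (hεc : ∀ i, ε * s59w_op H 𝒪 i = s59w_op H 𝒪 i * ε) (c : s59w_AIdx M → 𝒪)
    (hnil : ∀ i, ∃ k : ℕ, ∀ z, ((s59w_op H 𝒪 i - c i • 1) ^ k) (ε z) ∈
      maximalIdeal 𝒪 • (⊤ : Submodule 𝒪 (s48h_Hpar 𝒪 (s48h_GammaH M H) 𝒪)))
    (ρbar : ResidualGaloisRep (ResidueField 𝒪))
    (hEig : ∀ (ℓ : ℕ) (_ : ℓ.Prime) (_ : ¬ ℓ ∣ M') (_ : ℓ ∉ S) (i : s59w_TIdx M), i.ell = ℓ →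
      ∀ A : ValuationSubring Qbar, A.LiesOverPrime ℓ → ∀ σ : GQ, A.IsFrobeniusAt σ ℓ →
        LinearMap.charpoly (ρbar.ρ σ) = X ^ 2 - C (residue 𝒪
          (c (Sum.inr (s59e_tau i ((n - 1) * m))) * c (Sum.inl i))) * X +
          C ((ℓ : ResidueField 𝒪)))
    {𝒟 : ∀ ⦃A : Type⦄ [CommRing A] [IsLocalRing A] [Algebra 𝒪 A], GaloisRepAdic A → Prop}
    (Dd : GaloisRep.DeformationRingData 𝒪 ρbar 𝒟)
    (h𝒟 : ∀ (θ : heckeAlgebra M' 2 (↑S : Set ℕ) →+* ResidueField 𝒪)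
      (Hd : HeckeGaloisRepDatum M' (↑S : Set ℕ) 𝒪 θ (heckeLocal M' (↑S : Set ℕ) 𝒪 θ)),
      Hd.ρ.residual.IsEquiv (ρbar.baseChangeAlong
        (ResidueField.map (algebraMap 𝒪 (heckeLocal M' (↑S : Set ℕ) 𝒪 θ)))) → 𝒟 Hd.ρ) :
    ∃ (a : heckeAlgebra M' 2 (↑S : Set ℕ) →+*
        Module.End 𝒪 (s48h_Hpar 𝒪 (s48h_GammaH M H) 𝒪)) (cT : ℕ → 𝒪),
      (∀ (ℓ : ℕ) (hℓ : ℓ.Prime) (hℓN : ¬ ℓ ∣ M') (hℓS : ℓ ∉ (↑S : Set ℕ)) (i : s59w_TIdx M),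
        i.ell = ℓ → a (heckeAlgebra.T hℓ hℓN hℓS) = s59e_Tp' H 𝒪 ((n - 1) * m) i) ∧
      (∀ t, a t ∈ Subring.closure (Set.range (s59e_Tp' H 𝒪 ((n - 1) * m)))) ∧
      (∀ (ℓ : ℕ), ℓ.Prime → ¬ ℓ ∣ M' → ∃ i : s59w_TIdx M, i.ell = ℓ ∧
        cT ℓ = c (Sum.inr (s59e_tau i ((n - 1) * m))) * c (Sum.inl i)) ∧
      s59e_H3Concl M' S a ε cT ρbar Dd := by
  classical
  haveI : Module.Free 𝒪 (s48h_Hpar 𝒪 (s48h_GammaH M H) 𝒪) := Module.Free.of_basis cB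
  haveI : Module.Finite 𝒪 (s48h_Hpar 𝒪 (s48h_GammaH M H) 𝒪) := Module.Finite.of_basis cB
  have hREL := s59e_REL N Q H b M' (↑S : Set ℕ) s59w_petSS hQ hM hDQ hD hH hnm hn hM' hS cB hcB
  obtain ⟨a, ha⟩ := hREL
  have ha1 := ha.1
  have ha2 := ha.2
  have hMM' : M ∣ M' := by
    rw [hM, hM']
    refine Nat.mul_dvd_mul_left N (Finset.prod_dvd_prod_of_dvd _ _ fun q _ => ?_)
    exact Dvd.intro _ (pow_two q).symm
  have hidx : ∀ ℓ : ℕ, ℓ.Prime → ¬ ℓ ∣ M' → ∃ i : s59w_TIdx M, i.ell = ℓ := fun ℓ hℓ hℓN =>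
    s59e_exists_TIdx (M := M) hℓ (fun h => hℓN (dvd_trans h hMM'))
  -- the constants `cT`
  let cT : ℕ → 𝒪 := fun ℓ =>
    if h : ∃ i : s59w_TIdx M, i.ell = ℓ then
      c (Sum.inr (s59e_tau (Classical.choose h) ((n - 1) * m))) * c (Sum.inl (Classical.choose h))
    else 0
  have hcT : ∀ ℓ : ℕ, ℓ.Prime → ¬ ℓ ∣ M' → ∃ i : s59w_TIdx M, i.ell = ℓ ∧
      cT ℓ = c (Sum.inr (s59e_tau i ((n - 1) * m))) * c (Sum.inl i) := by
    intro ℓ hℓ hℓN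
    have h := hidx ℓ hℓ hℓN
    refine ⟨Classical.choose h, Classical.choose_spec h, ?_⟩
    show (if h : ∃ i : s59w_TIdx M, i.ell = ℓ then _ else _) = _
    rw [dif_pos h]
  refine ⟨a, cT, ha1, ha2, hcT, ?_⟩
  refine s59e_H3_abs M' S hp2 hp𝒪 hpS hS a ε hε hε0 (s59w_op H 𝒪) (s59w_op_comm H 𝒪) hεc c hnil cT
    ?_ ρbar ?_ Dd h𝒟
  · intro ℓ hℓ hℓN hℓS
    obtain ⟨i, hi, hci⟩ := hcT ℓ hℓ hℓN
    exact ⟨Sum.inr (s59e_tau i ((n - 1) * m)), Sum.inl i, ha1 ℓ hℓ hℓN hℓS i hi, hci⟩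
  · intro ℓ hℓ hℓN hℓS A hA σ hσ
    obtain ⟨i, hi, hci⟩ := hcT ℓ hℓ hℓN
    rw [hci]
    exact hEig ℓ hℓ hℓN hℓS i hi A hA σ hσ

end Concrete

end Fermat.Agent.Lib.S59
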