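/-
Programme R (S59), case (P), item [P7-c] (helper9 #3873), three algebra leaves (helper2, prefix `s59b_`):
**Hecke rings acting on a STABLE SATURATED submodule `Z`** (e.g. `Z = ker cor_A ⊓ ker cor_B` inside the `ε`-part).

* (A1) `s59b_mem_smul_top_sat` : for `Z` saturated in `Y` (`𝒪` a DVR), `𝔪 Y ∩ Z = 𝔪 Z`;
       **`s59b_restrict_locScalar_sat`** : `(x - c)^k Z ⊆ 𝔪 Y` ⟹ `x|_Z` is locally scalar with constant `c`;
* (A2) **`s59b_isReduced_of_anemic`** : a subalgebra of `End Z`, `Z ≤ H_par(Γ_H(M), R)`, every element of which is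
       induced by an element of the anemic algebra `R[s59w_op]`, is reduced (from (W3) `s59w_W3_apply`);
* (A3) **`s59b_restr_hloc_sat`** : twin of helper6's `s59q_restr_hloc` for a stable saturated `Z` on which `ε = 1`.
-/
import Mathlib
import Fermat.Agent.Lib.S59.EHTop
import Fermat.Agent.Lib.S59.WInt

set_option autoImplicit false
set_option linter.unusedSectionVars false
set_option linter.unusedVariables false
set_option linter.style.haveILetI false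
set_option synthInstance.maxHeartbeats 400000
set_option maxHeartbeats 1600000

noncomputable section

namespace Fermat.Agent.Lib.S59

open CuspForm IsLocalRing
open Fermat.Agent.Lib.S48
open scoped MatrixGroups

/-! ### (A1) -/

section A1

variable {𝒪 : Type*} [CommRing 𝒪] [IsDomain 𝒪] [IsDiscreteValuationRing 𝒪]
  {Y : Type*} [AddCommGroup Y] [Module 𝒪 Y] (Z : Submodule 𝒪 Y)
  (hsat : ∀ (c : 𝒪) (y : Y), c ≠ 0 → c • y ∈ Z → y ∈ Z)

include hsat in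
/-- `𝔪 Y ∩ Z = 𝔪 Z` for a saturated submodule. -/
theorem s59b_mem_smul_top_sat (w : Z)
    (hw : (w : Y) ∈ maximalIdeal 𝒪 • (⊤ : Submodule 𝒪 Y)) :
    w ∈ maximalIdeal 𝒪 • (⊤ : Submodule 𝒪 Z) := by
  obtain ⟨ϖ, hϖ⟩ := IsDiscreteValuationRing.exists_irreducible 𝒪
  have hm := hϖ.maximalIdeal_eq
  rw [hm, Submodule.ideal_span_singleton_smul, Submodule.mem_smul_pointwise_iff_exists] at hw
  obtain ⟨w', -, hw'⟩ := hw
  have hw'Z : w' ∈ Z := hsat ϖ w' hϖ.ne_zero (by rw [hw']; exact w.2)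
  have e : w = ϖ • (⟨w', hw'Z⟩ : Z) := Subtype.ext hw'.symm
  rw [e]
  refine Submodule.smul_mem_smul ?_ Submodule.mem_top
  rw [hm]
  exact Ideal.subset_span (Set.mem_singleton ϖ)

theorem s59b_restrict_pow_coe (f : Module.End 𝒪 Y) (hf : ∀ z ∈ Z, f z ∈ Z) (k : ℕ) (y : Z) :
    (((f.restrict hf) ^ k) y : Y) = (f ^ k) (y : Y) := by
  induction k generalizing y with
  | zero => rfl
  | succ k ih =>
    rw [pow_succ, pow_succ, Module.End.mul_apply, Module.End.mul_apply, ih]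
    rfl

include hsat in
/-- **(A1)**: `(x - c)^k Z ⊆ 𝔪 Y` implies that `x|_Z` is locally scalar with constant `c`. -/
theorem s59b_restrict_locScalar_sat (x : Module.End 𝒪 Y) (hx : ∀ z ∈ Z, x z ∈ Z) (c : 𝒪) {k : ℕ}
    (h : ∀ z ∈ Z, ((x - c • (1 : Module.End 𝒪 Y)) ^ k) z ∈
      maximalIdeal 𝒪 • (⊤ : Submodule 𝒪 Y)) :
    s59e_IsLocScalar (x.restrict hx) c := by
  refine s59e_isLocScalar_of_pow (n := k) fun y => ?_
  have hx' : ∀ z ∈ Z, (x - c • (1 : Module.End 𝒪 Y)) z ∈ Z := by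
    intro z hz
    rw [LinearMap.sub_apply, LinearMap.smul_apply, Module.End.one_apply]
    exact Z.sub_mem (hx z hz) (Z.smul_mem c hz)
  have e : x.restrict hx - c • (1 : Module.End 𝒪 Z) =
      (x - c • (1 : Module.End 𝒪 Y)).restrict hx' := by
    refine LinearMap.ext fun z => Subtype.ext ?_
    rfl
  rw [e]
  apply s59b_mem_smul_top_sat Z hsat
  rw [s59b_restrict_pow_coe]
  exact h _ y.2

end A1

/-! ### (A2) -/

section A2

variable (N : ℕ) [NeZero N] (Q : Finset ℕ) {M : ℕ} [NeZero M] (H : Subgroup (ZMod M)ˣ)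
  {ι : Type*} [Fintype ι] [DecidableEq ι] (b : Module.Basis ι ℤ (s48h_M (s48h_GammaH M H)))
  {R : Type*} [CommRing R] (cB : Module.Basis ι R (s48h_Hpar R (s48h_GammaH M H) R))
  (hcB : ∀ i, ((cB i : s48h_Hpar R (s48h_GammaH M H) R) : Additive (s48h_GammaH M H) →+ R)
    = s48h_castB b R i)
  {K : Type*} [Field K] [CharZero K] (f : R →+* K)

include hcB in
/-- **(A2)**: reducedness of a ring of endomorphisms of a submodule `Z ≤ H_par(Γ_H(M), R)` induced by the anemic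
algebra. -/
theorem s59b_isReduced_of_anemic (hf : Function.Injective f) (hQ : ∀ q ∈ Q, q.Prime ∧ ¬ q ∣ N)
    (hM : M = N * ∏ q ∈ Q, q) {D : ℕ} (hDQ : D = ∏ q ∈ Q, q) (hD : D ∣ M)
    (hH : s59u_ker M D hD ≤ H) {n m : ℕ} (hnm : 2 * m = n + 1) (hn : ∀ u : (ZMod M)ˣ, u ^ n ∈ H)
    (Z : Submodule R (s48h_Hpar R (s48h_GammaH M H) R)) (A : Subalgebra R (Module.End R Z))
    (hA : ∀ x ∈ A, ∃ t ∈ Algebra.adjoin R (Set.range (s59w_op H R)),
      ∀ z : Z, ((x z : Z) : s48h_Hpar R (s48h_GammaH M H) R) = t z) :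
    IsReduced A := by
  refine ⟨fun x hx => ?_⟩
  obtain ⟨k, hk⟩ := hx
  obtain ⟨t, ht, hxt⟩ := hA x x.2
  have hpow : ∀ (j : ℕ) (z : Z),
      ((((x : Module.End R Z) ^ j) z : Z) : s48h_Hpar R (s48h_GammaH M H) R) = (t ^ j) z := by
    intro j
    induction j with
    | zero => intro z; rfl
    | succ j ih =>
      intro z
      rw [pow_succ, pow_succ, Module.End.mul_apply, Module.End.mul_apply, ih, hxt]
  have hk' : ((x : Module.End R Z)) ^ k = 0 := by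
    rw [← SubmonoidClass.coe_pow, hk]
    rfl
  apply Subtype.ext
  refine LinearMap.ext fun z => Subtype.ext ?_
  rw [hxt z]
  refine s59w_W3_apply N Q H b cB hcB f hf hQ hM hDQ hD hH hnm hn ht z k ?_
  rw [← hpow k z, hk']
  rfl

end A2

/-! ### (A3) -/

section A3

variable (M' : ℕ) [NeZero M'] (S : Finset ℕ)
  {𝒪 : Type} [CommRing 𝒪] [IsDomain 𝒪] [IsDiscreteValuationRing 𝒪]
  {Y : Type} [AddCommGroup Y] [Module 𝒪 Y] [Module.Free 𝒪 Y] [Module.Finite 𝒪 Y]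

/-- **(A3)**: local scalarity of the Hecke ring acting on a stable saturated submodule `Z` of `ε Y`. -/
theorem s59b_restr_hloc_sat (hS : ∀ q : ℕ, q.Prime → q ∣ M' → q ∈ S)
    (a : heckeAlgebra M' 2 (↑S : Set ℕ) →+* Module.End 𝒪 Y)
    (ε : Module.End 𝒪 Y) (hε : ε * ε = ε)
    {J : Type*} (g : J → Module.End 𝒪 Y) (hgg : ∀ i j, g i * g j = g j * g i)
    (hεg : ∀ j, ε * g j = g j * ε) (c : J → 𝒪)
    (hnil : ∀ j, ∃ k : ℕ, ∀ z, ((g j - c j • 1) ^ k) (ε z) ∈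
      maximalIdeal 𝒪 • (⊤ : Submodule 𝒪 Y))
    (cT : ℕ → 𝒪)
    (ha : ∀ (ℓ : ℕ) (hℓ : ℓ.Prime) (hℓN : ¬ ℓ ∣ M') (hℓS : ℓ ∉ (↑S : Set ℕ)),
      ∃ j₁ j₂ : J, a (heckeAlgebra.T hℓ hℓN hℓS) = g j₁ * g j₂ ∧ cT ℓ = c j₁ * c j₂)
    (Z : Submodule 𝒪 Y) (hZε : ∀ z ∈ Z, ε z = z) (hZg : ∀ j, ∀ z ∈ Z, g j z ∈ Z)
    (hsat : ∀ (c : 𝒪) (y : Y), c ≠ 0 → c • y ∈ Z → y ∈ Z)
    (aZ : heckeAlgebra M' 2 (↑S : Set ℕ) →+* Module.End 𝒪 Z)
    (haZ : ∀ t (z : Z), ((aZ t z : Z) : Y) = a t (z : Y)) :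
    (∀ x ∈ s59e_adj 𝒪 aZ, ∃ d : 𝒪, s59e_IsLocScalar x d) ∧
      ∀ (ℓ : ℕ) (hℓ : ℓ.Prime) (hℓN : ¬ ℓ ∣ M') (hℓS : ℓ ∉ (↑S : Set ℕ)),
        s59e_IsLocScalar (aZ (heckeAlgebra.T hℓ hℓN hℓS)) (cT ℓ) := by
  classical
  have hgen := s59e_hecke_closure M' (↑S : Set ℕ) hS
  -- the restricted generators
  obtain ⟨G, hG⟩ : ∃ G : J → Module.End 𝒪 Z, ∀ j, G j = (g j).restrict (hZg j) :=
    ⟨_, fun _ => rfl⟩
  have hgloc : ∀ j, s59e_IsLocScalar (G j) (c j) := by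
    intro j
    obtain ⟨k, hk⟩ := hnil j
    rw [hG]
    refine s59b_restrict_locScalar_sat Z hsat (g j) (hZg j) (c j) (k := k) fun z hz => ?_
    have := hk z
    rwa [hZε z hz] at this
  have hGG : ∀ i j, Commute (G i) (G j) := fun i j => by
    show G i * G j = G j * G i
    rw [hG, hG]
    refine LinearMap.ext fun z => Subtype.ext ?_
    show g i (g j z) = g j (g i z)
    rw [← Module.End.mul_apply, ← Module.End.mul_apply, hgg i j]
  have hTG : ∀ (ℓ : ℕ) (hℓ : ℓ.Prime) (hℓN : ¬ ℓ ∣ M') (hℓS : ℓ ∉ (↑S : Set ℕ)),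
      ∃ j₁ j₂ : J, aZ (heckeAlgebra.T hℓ hℓN hℓS) = G j₁ * G j₂ ∧ cT ℓ = c j₁ * c j₂ := by
    intro ℓ hℓ hℓN hℓS
    obtain ⟨j₁, j₂, h12, hc12⟩ := ha ℓ hℓ hℓN hℓS
    refine ⟨j₁, j₂, ?_, hc12⟩
    refine LinearMap.ext fun z => Subtype.ext ?_
    rw [haZ, h12, hG, hG]
    rfl
  have hle : s59e_adj 𝒪 aZ ≤ Algebra.adjoin 𝒪 (Set.range G) := by
    refine Algebra.adjoin_le ?_
    rintro _ ⟨t, rfl⟩
    have ht : t ∈ Subring.closure {t : heckeAlgebra M' 2 (↑S : Set ℕ) | ∃ (ℓ : ℕ) (hℓ : ℓ.Prime)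
        (hℓN : ¬ ℓ ∣ M') (hℓS : ℓ ∉ (↑S : Set ℕ)), t = heckeAlgebra.T hℓ hℓN hℓS} := by
      rw [hgen]; exact Subring.mem_top t
    induction ht using Subring.closure_induction with
    | mem t ht =>
      obtain ⟨ℓ, hℓ, hℓN, hℓS, rfl⟩ := ht
      obtain ⟨j₁, j₂, h12, -⟩ := hTG ℓ hℓ hℓN hℓS
      rw [h12]
      exact Subalgebra.mul_mem _ (Algebra.subset_adjoin ⟨j₁, rfl⟩)
        (Algebra.subset_adjoin ⟨j₂, rfl⟩)
    | zero => rw [map_zero]; exact Subalgebra.zero_mem _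
    | one => rw [map_one]; exact Subalgebra.one_mem _
    | add x y _ _ hx hy => rw [map_add]; exact Subalgebra.add_mem _ hx hy
    | neg x _ hx => rw [map_neg]; exact Subalgebra.neg_mem _ hx
    | mul x y _ _ hx hy => rw [map_mul]; exact Subalgebra.mul_mem _ hx hy
  refine ⟨fun x hx => s59e_locScalar_adjoin G hGG c hgloc (hle hx), ?_⟩
  intro ℓ hℓ hℓN hℓS
  obtain ⟨j₁, j₂, h12, hc12⟩ := hTG ℓ hℓ hℓN hℓS
  rw [h12, hc12]
  exact (hgloc j₁).mul (hgloc j₂) (hGG j₁ j₂)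

end A3

end Fermat.Agent.Lib.S59
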