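/-
Programme R (S59), node (E6) (helper5, prefix `s59e_`), part 2b: UNIVERSAL IRREDUCIBILITY.
Mathlib only.

`s59e_univ_irr` (Lemma X): an irreducible plane `V` over `k` (char `≠ 2`) carrying an involution
of determinant `-1` (complex conjugation) stays irreducible over every field extension `K / k`:
a stable `K`-line is an eigenline of the involution, hence rational.
-/
import Mathlib

set_option autoImplicit false
set_option linter.style.haveILetI false

namespace Fermat.Agent.Lib.S59

open Module TensorProduct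

section

variable {k : Type*} [Field k] {V : Type*} [AddCommGroup V] [Module k V]
  {Γ : Type*} [Group Γ] (R : Γ →* Module.End k V)
  (K : Type*) [Field K] [Algebra k K]

/-- a rational vector of a stable proper subspace of `K ⊗ V` spans a stable `k`-line. -/
theorem s59e_rational_line (hdim : Module.finrank k V = 2) {v v' : V}
    (hli : LinearIndependent k ![v, v'])
    (U : Submodule K (K ⊗[k] V)) (hU : ∀ g : Γ, ∀ x ∈ U, (R g).baseChange K x ∈ U)
    (hUtop : U ≠ ⊤) (hv : (1 : K) ⊗ₜ[k] v ∈ U) (g : Γ) : R g v ∈ Submodule.span k {v} := by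
  haveI : Module.Finite k V := Module.finite_of_finrank_eq_succ hdim
  -- coordinates of `R g v`
  have htop : Submodule.span k (Set.range ![v, v']) = ⊤ :=
    hli.span_eq_top_of_card_eq_finrank' (by rw [hdim]; rfl)
  have hx : R g v ∈ Submodule.span k (Set.range ![v, v']) := by rw [htop]; exact Submodule.mem_top
  rw [Matrix.range_cons, Matrix.range_cons, Matrix.range_empty, Set.union_empty,
    ← Set.insert_eq, Submodule.mem_span_pair] at hx
  obtain ⟨x, y, hxy⟩ := hx
  by_cases hy : y = 0
  · rw [← hxy, hy, zero_smul, add_zero]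
    exact Submodule.smul_mem _ _ (Submodule.mem_span_singleton_self v)
  · exfalso
    apply hUtop
    -- `1 ⊗ v'` lies in `U`
    have h1 : (R g).baseChange K ((1 : K) ⊗ₜ[k] v) ∈ U := hU g _ hv
    rw [LinearMap.baseChange_tmul, ← hxy, TensorProduct.tmul_add, TensorProduct.tmul_smul,
      TensorProduct.tmul_smul] at h1
    have h2 : y • ((1 : K) ⊗ₜ[k] v') ∈ U := by
      have := U.sub_mem h1 (U.smul_of_tower_mem x hv)
      simpa using this
    have h3 : (1 : K) ⊗ₜ[k] v' ∈ U := by
      have := U.smul_of_tower_mem y⁻¹ h2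
      rwa [smul_smul, inv_mul_cancel₀ hy, one_smul] at this
    -- the two rational vectors span
    have hliK : LinearIndependent K (fun i => (1 : K) ⊗ₜ[k] (![v, v'] i)) :=
      Module.Flat.linearIndependent_one_tmul hli
    have htopK : Submodule.span K (Set.range (fun i => (1 : K) ⊗ₜ[k] (![v, v'] i))) = ⊤ :=
      hliK.span_eq_top_of_card_eq_finrank' (by
        rw [Module.finrank_baseChange, hdim]; rfl)
    rw [eq_top_iff, ← htopK, Submodule.span_le]
    rintro _ ⟨i, rfl⟩
    fin_cases i
    · exact hv
    · exact h3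

/-- **Lemma X**: an irreducible plane with an involution of determinant `-1` (char `≠ 2`) is
universally irreducible. -/
theorem s59e_univ_irr (h2 : (2 : k) ≠ 0) (hdim : Module.finrank k V = 2)
    (hirr : ∀ W : Submodule k V, (∀ g : Γ, ∀ x ∈ W, R g x ∈ W) → W = ⊥ ∨ W = ⊤)
    (c : Γ) (hc : c * c = 1) (hdet : LinearMap.det (R c) = -1)
    (U : Submodule K (K ⊗[k] V)) (hU : ∀ g : Γ, ∀ x ∈ U, (R g).baseChange K x ∈ U) :
    U = ⊥ ∨ U = ⊤ := by
  classical
  haveI : Module.Finite k V := Module.finite_of_finrank_eq_succ hdim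
  by_contra hcon
  push Not at hcon
  obtain ⟨hU0, hUtop⟩ := hcon
  set s := R c with hs
  have hss : s * s = 1 := by rw [hs, ← map_mul, hc, map_one]
  have hssv : ∀ v, s (s v) = v := fun v => by
    rw [← Module.End.mul_apply, hss, Module.End.one_apply]
  have h11 : (1 : k) ≠ -1 := by
    intro h
    apply h2
    have : (2 : k) = 1 + 1 := by norm_num
    rw [this]
    nth_rewrite 1 [h]
    ring
  -- eigenvectors
  have hplus : ∃ v, v + s v ≠ 0 := by
    by_contra hcon
    push Not at hcon
    have hsn : s = (-1 : k) • (1 : Module.End k V) := by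
      ext v
      rw [LinearMap.smul_apply, Module.End.one_apply, neg_smul, one_smul]
      exact eq_neg_of_add_eq_zero_right (hcon v)
    rw [hsn, LinearMap.det_smul, hdim, map_one] at hdet
    apply h11
    rw [← hdet]; ring
  have hminus : ∃ v, v - s v ≠ 0 := by
    by_contra hcon
    push Not at hcon
    have hsn : s = 1 := by
      ext v
      rw [Module.End.one_apply]
      exact (sub_eq_zero.mp (hcon v)).symm
    rw [hsn, map_one] at hdet
    exact h11 hdet
  obtain ⟨v₁, hv₁⟩ := hplus
  obtain ⟨v₂, hv₂⟩ := hminus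
  set vp := v₁ + s v₁ with hvp
  set vm := v₂ - s v₂ with hvm
  have hsp : s vp = vp := by rw [hvp, map_add, hssv, add_comm]
  have hsm : s vm = -vm := by rw [hvm, map_sub, hssv]; abel
  have hli : LinearIndependent k ![vp, vm] := by
    rw [LinearIndependent.pair_iff' hv₁]
    intro a ha
    have h1 : s vm = vm := by rw [← ha, map_smul, hsp]
    rw [hsm] at h1
    have h3 : (2 : k) • vm = 0 := by
      rw [two_smul]
      nth_rewrite 1 [← h1]
      exact neg_add_cancel vm
    rcases smul_eq_zero.mp h3 with h | h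
    · exact h2 h
    · exact hv₂ h
  have hli' : LinearIndependent k ![vm, vp] := by
    have := hli
    rw [LinearIndependent.pair_iff] at this ⊢
    intro a b hab
    have := this b a (by rw [add_comm]; exact hab)
    exact ⟨this.2, this.1⟩
  -- the rational frame of `K ⊗ V`
  have hliK : LinearIndependent K (fun i => (1 : K) ⊗ₜ[k] (![vp, vm] i)) :=
    Module.Flat.linearIndependent_one_tmul hli
  have htopK : Submodule.span K (Set.range (fun i => (1 : K) ⊗ₜ[k] (![vp, vm] i))) = ⊤ :=
    hliK.span_eq_top_of_card_eq_finrank' (by rw [Module.finrank_baseChange, hdim]; rfl)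
  have hrange : Set.range (fun i => (1 : K) ⊗ₜ[k] (![vp, vm] i)) =
      {(1 : K) ⊗ₜ[k] vp, (1 : K) ⊗ₜ[k] vm} := by
    ext x
    simp only [Set.mem_range, Set.mem_insert_iff, Set.mem_singleton_iff]
    constructor
    · rintro ⟨i, rfl⟩
      fin_cases i
      · left; rfl
      · right; rfl
    · rintro (rfl | rfl)
      · exact ⟨0, rfl⟩
      · exact ⟨1, rfl⟩
  -- a nonzero vector of `U`
  obtain ⟨w, hwU, hw0⟩ := (Submodule.ne_bot_iff U).mp hU0
  have hw : w ∈ Submodule.span K (Set.range (fun i => (1 : K) ⊗ₜ[k] (![vp, vm] i))) := by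
    rw [htopK]; exact Submodule.mem_top
  rw [hrange, Submodule.mem_span_pair] at hw
  obtain ⟨α, β, hαβ⟩ := hw
  have hsw : s.baseChange K w = α • ((1 : K) ⊗ₜ[k] vp) - β • ((1 : K) ⊗ₜ[k] vm) := by
    rw [← hαβ, map_add, map_smul, map_smul, LinearMap.baseChange_tmul, LinearMap.baseChange_tmul,
      hsp, hsm, TensorProduct.tmul_neg, smul_neg, sub_eq_add_neg]
  have hswU : s.baseChange K w ∈ U := hU c w hwU
  have h2K : (2 : K) ≠ 0 := by
    intro h
    apply h2
    apply (algebraMap k K).injective
    rw [map_ofNat, h, map_zero]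
  -- one of the two rational vectors is in `U`
  have hone : (1 : K) ⊗ₜ[k] vp ∈ U ∨ (1 : K) ⊗ₜ[k] vm ∈ U := by
    by_cases hα : α = 0
    · right
      have hβ : β ≠ 0 := by
        intro hβ
        apply hw0
        rw [← hαβ, hα, hβ, zero_smul, zero_smul, add_zero]
      have h1 : β • ((1 : K) ⊗ₜ[k] vm) ∈ U := by
        have : w = β • ((1 : K) ⊗ₜ[k] vm) := by rw [← hαβ, hα, zero_smul, zero_add]
        rwa [← this]
      have := U.smul_mem β⁻¹ h1
      rwa [smul_smul, inv_mul_cancel₀ hβ, one_smul] at this
    · left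
      have h1 : (2 * α) • ((1 : K) ⊗ₜ[k] vp) ∈ U := by
        have h := U.add_mem hwU hswU
        rw [hsw] at h
        nth_rewrite 1 [← hαβ] at h
        have e : α • ((1 : K) ⊗ₜ[k] vp) + β • ((1 : K) ⊗ₜ[k] vm) +
            (α • ((1 : K) ⊗ₜ[k] vp) - β • ((1 : K) ⊗ₜ[k] vm)) =
            (2 * α) • ((1 : K) ⊗ₜ[k] vp) := by
          rw [mul_smul, two_smul]; abel
        rwa [e] at h
      have := U.smul_mem (2 * α)⁻¹ h1
      rwa [smul_smul, inv_mul_cancel₀ (mul_ne_zero h2K hα), one_smul] at this
  -- the corresponding `k`-line is stable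
  have hline : ∀ v v' : V, LinearIndependent k ![v, v'] → (1 : K) ⊗ₜ[k] v ∈ U → False := by
    intro v v' hl hvU
    have hst := s59e_rational_line R K hdim hl U hU hUtop hvU
    have hv0 : v ≠ 0 := by
      have := hl.ne_zero 0
      simpa using this
    rcases hirr (Submodule.span k {v}) (fun g x hx => by
      obtain ⟨a, rfl⟩ := Submodule.mem_span_singleton.mp hx
      rw [map_smul]
      exact Submodule.smul_mem _ _ (hst g)) with h | h
    · exact hv0 (Submodule.span_singleton_eq_bot.mp h)
    · have h1 : Module.finrank k (Submodule.span k {v}) = 1 := finrank_span_singleton hv0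
      rw [h, finrank_top, hdim] at h1
      norm_num at h1
  rcases hone with h | h
  · exact hline vp vm hli h
  · exact hline vm vp hli' h

end

/-- **matrix transport of irreducibility**: two actions with the same matrices in two bases are
isomorphic, so irreducibility passes from one to the other. -/
theorem s59e_irr_transport {K : Type*} [Field K] {M M' : Type*} [AddCommGroup M] [Module K M]
    [AddCommGroup M'] [Module K M'] {Γ : Type*} (R : Γ → Module.End K M)
    (R' : Γ → Module.End K M') {ι : Type*} [Fintype ι] [DecidableEq ι]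
    (b : Module.Basis ι K M) (b' : Module.Basis ι K M')
    (hmat : ∀ g, LinearMap.toMatrix b b (R g) = LinearMap.toMatrix b' b' (R' g))
    (hirr' : ∀ W' : Submodule K M', (∀ g : Γ, ∀ x ∈ W', R' g x ∈ W') → W' = ⊥ ∨ W' = ⊤)
    (W : Submodule K M) (hW : ∀ g : Γ, ∀ x ∈ W, R g x ∈ W) : W = ⊥ ∨ W = ⊤ := by
  set e : M ≃ₗ[K] M' := b.equiv b' (Equiv.refl ι) with he
  have heb : ∀ i, e (b i) = b' i := fun i => by rw [he, Module.Basis.equiv_apply]; rfl
  have hequiv : ∀ g x, e (R g x) = R' g (e x) := by
    intro g
    have : (e : M →ₗ[K] M') ∘ₗ R g = R' g ∘ₗ (e : M →ₗ[K] M') := by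
      apply b.ext
      intro j
      rw [LinearMap.comp_apply, LinearMap.comp_apply, LinearEquiv.coe_coe, heb]
      have h1 : R g (b j) = ∑ i, LinearMap.toMatrix b b (R g) i j • b i := by
        simp_rw [LinearMap.toMatrix_apply]
        exact (b.sum_repr _).symm
      have h2 : R' g (b' j) = ∑ i, LinearMap.toMatrix b' b' (R' g) i j • b' i := by
        simp_rw [LinearMap.toMatrix_apply]
        exact (b'.sum_repr _).symm
      rw [h1, h2, map_sum]
      refine Finset.sum_congr rfl fun i _ => ?_
      rw [map_smul, heb, hmat]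
    intro x
    exact LinearMap.congr_fun this x
  rcases hirr' (W.map (e : M →ₗ[K] M')) (by
    rintro g _ ⟨x, hx, rfl⟩
    rw [LinearEquiv.coe_coe, ← hequiv]
    exact ⟨R g x, hW g x hx, rfl⟩) with h | h
  · left
    rw [Submodule.map_eq_bot_iff] at h
    · exact h
  · right
    rw [eq_top_iff]
    intro x _
    have hx : e x ∈ W.map (e : M →ₗ[K] M') := by rw [h]; exact Submodule.mem_top
    obtain ⟨y, hy, hyx⟩ := hx
    have : y = x := e.injective hyx
    rwa [← this]

end Fermat.Agent.Lib.S59
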