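/-
Programme R (S59), node (E6) (helper5, prefix `s59e_`), part 4: RESIDUAL REPRESENTATIONS AND
BASE CHANGE.  Formal transports along `GaloisRepAdic.baseChangeAlong` and `.residual`:
characteristic polynomial, determinant, trace, `DetIsCyclotomic`, unramified, unipotent; the
residual determinant is the mod `p` cyclotomic character; residual traces of a base change of a
`ℤ_p`-representation lie in the prime field; irreducibility over field extensions of the residue
field is inherited from the `ℤ_p`-level (matrix transport).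
-/
import Fermat.Agent.Lib.S59.ETWIrr
import Fermat.Prelude.Def_GaloisRep_LocalConditions

set_option autoImplicit false
set_option linter.style.haveILetI false

namespace Fermat.Agent.Lib.S59

open IsLocalRing TensorProduct Polynomial

local notation "Qbar" => AlgebraicClosure ℚ
local notation "GQ" => (AlgebraicClosure ℚ ≃ₐ[ℚ] AlgebraicClosure ℚ)

/-- the residue field of a local ring with `p` in the maximal ideal has characteristic `p`. -/
theorem s59e_charP_residue {A : Type} [CommRing A] [IsLocalRing A] (p : ℕ) [Fact p.Prime]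
    (hp : (p : A) ∈ maximalIdeal A) : CharP (ResidueField A) p := by
  have h0 : ((p : ℕ) : ResidueField A) = 0 := by
    have := (residue_eq_zero_iff (p : A)).mpr hp
    rwa [map_natCast] at this
  obtain ⟨q, hq⟩ := CharP.exists (ResidueField A)
  have hdvd : q ∣ p := (CharP.cast_eq_zero_iff (ResidueField A) q p).mp h0
  rcases (Nat.dvd_prime (Fact.out : p.Prime)).mp hdvd with h | h
  · exact absurd h (CharP.char_ne_one (ResidueField A) q)
  · rwa [h] at hq

/-- the image of a `p`-adic integer in a field of characteristic `p` lies in the prime field. -/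
theorem s59e_padic_frob (p : ℕ) [Fact p.Prime] {k : Type*} [Field k] [CharP k p]
    (ψ : ℤ_[p] →+* k) (x : ℤ_[p]) : ψ x ^ p = ψ x := by
  have h1 := PadicInt.appr_spec 1 x
  rw [pow_one, Ideal.mem_span_singleton] at h1
  obtain ⟨y, hy⟩ := h1
  have hx : x = (x.appr 1 : ℤ_[p]) + (p : ℤ_[p]) * y := by rw [← hy]; ring
  have h2 : ψ x = ((x.appr 1 : ℕ) : k) := by
    conv_lhs => rw [hx]
    rw [map_add, map_mul, map_natCast, map_natCast, CharP.cast_eq_zero k p, zero_mul, add_zero]
  rw [h2]
  have h3 : ((x.appr 1 : ℕ) : k) = ZMod.castHom (dvd_refl p) k ((x.appr 1 : ℕ) : ZMod p) := by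
    rw [map_natCast]
  rw [h3, ← map_pow, ZMod.pow_card]

/-- base change of a unipotent endomorphism. -/
theorem s59e_baseChange_unip {R : Type*} [CommRing R] {M : Type*} [AddCommGroup M] [Module R M]
    (B : Type*) [CommRing B] [Algebra R B] (f : Module.End R M) (h : (f - 1) ^ 2 = 0) :
    (f.baseChange B - 1) ^ 2 = 0 := by
  rw [← LinearMap.baseChange_one (R := R) (A := B) (M := M), ← LinearMap.baseChange_sub,
    ← LinearMap.baseChange_pow, h, LinearMap.baseChange_zero]

section Residual

variable {A : Type} [CommRing A] [IsLocalRing A] (p : ℕ) (ρ : GaloisRepAdic A)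

theorem s59e_residual_rho (σ : GQ) :
    ρ.residual.ρ σ = (ρ.ρ σ).baseChange (ResidueField A) := rfl

/-- the determinant of the residual representation is the mod `p` cyclotomic character. -/
theorem s59e_residual_det (hdet : ρ.DetIsCyclotomic p) (σ : GQ) (a : ℕ)
    (ha : ∀ μ : Qbar, μ ^ p = 1 → σ μ = μ ^ a) :
    LinearMap.det (ρ.residual.ρ σ) = (a : ResidueField A) := by
  show LinearMap.det ((ρ.ρ σ).baseChange (ResidueField A)) = _
  rw [LinearMap.det_baseChange, ResidueField.algebraMap_eq]
  have h1 := hdet.2 1 σ a (fun μ hμ => ha μ (by rwa [pow_one] at hμ))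
  rw [pow_one, Ideal.mem_span_singleton] at h1
  obtain ⟨y, hy⟩ := h1
  have h2 : LinearMap.det (ρ.ρ σ) = (a : A) + (p : A) * y := by rw [← hy]; ring
  rw [h2, map_add, map_mul, map_natCast, (residue_eq_zero_iff (p : A)).mpr hdet.1, zero_mul,
    add_zero]

/-- unipotent on inertia passes to the residual representation. -/
theorem s59e_residual_unip (q : ℕ) (h : ρ.IsUnipotentOnInertiaAt q)
    (P : ValuationSubring Qbar) (hP : P.LiesOverPrime q) (σ : GQ)
    (hσ : σ ∈ P.inertiaSubgroupIn ℚ) : (ρ.residual.ρ σ - 1) ^ 2 = 0 := by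
  have h1 := h P hP σ hσ
  have h2 : (ρ.ρ σ - 1) ^ 2 = 0 := by
    have := LinearMap.aeval_self_charpoly (ρ.ρ σ)
    rw [h1] at this
    simpa using this
  exact s59e_baseChange_unip (ResidueField A) (ρ.ρ σ) h2

end Residual

section BaseChange

variable {A₀ A : Type} [CommRing A₀] [IsLocalRing A₀] [CommRing A] [IsLocalRing A]
  (φ : A₀ →+* A) (hφ : IsLocalHom φ) (ρ₀ : GaloisRepAdic A₀)

theorem s59e_bc_rho (σ : GQ) :
    (ρ₀.baseChangeAlong φ hφ).ρ σ =
      letI : Algebra A₀ A := φ.toAlgebra
      (ρ₀.ρ σ).baseChange A := rfl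

theorem s59e_bc_charpoly (σ : GQ) :
    LinearMap.charpoly ((ρ₀.baseChangeAlong φ hφ).ρ σ) = (LinearMap.charpoly (ρ₀.ρ σ)).map φ := by
  letI : Algebra A₀ A := φ.toAlgebra
  exact LinearMap.charpoly_baseChange (A := A) (ρ₀.ρ σ)

theorem s59e_bc_det (σ : GQ) :
    LinearMap.det ((ρ₀.baseChangeAlong φ hφ).ρ σ) = φ (LinearMap.det (ρ₀.ρ σ)) := by
  letI : Algebra A₀ A := φ.toAlgebra
  exact LinearMap.det_baseChange (A := A) (ρ₀.ρ σ)

theorem s59e_bc_trace (σ : GQ) :
    LinearMap.trace A _ ((ρ₀.baseChangeAlong φ hφ).ρ σ) = φ (LinearMap.trace A₀ _ (ρ₀.ρ σ)) := by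
  letI : Algebra A₀ A := φ.toAlgebra
  exact LinearMap.trace_baseChange (ρ₀.ρ σ) A

include hφ in
theorem s59e_bc_p_mem (p : ℕ) (hp : (p : A₀) ∈ maximalIdeal A₀) : (p : A) ∈ maximalIdeal A := by
  haveI := hφ
  have := map_nonunit φ (p : A₀) hp
  rwa [map_natCast] at this

theorem s59e_bc_detCyc (p : ℕ) (h : ρ₀.DetIsCyclotomic p) :
    (ρ₀.baseChangeAlong φ hφ).DetIsCyclotomic p := by
  refine ⟨s59e_bc_p_mem φ hφ p h.1, fun n σ a ha => ?_⟩
  rw [s59e_bc_det]
  have h1 := h.2 n σ a ha
  rw [Ideal.mem_span_singleton] at h1 ⊢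
  obtain ⟨y, hy⟩ := h1
  refine ⟨φ y, ?_⟩
  have := congrArg φ hy
  rw [map_sub, map_natCast, map_mul, map_natCast] at this
  exact this

theorem s59e_bc_unram (q : ℕ) (h : ρ₀.IsUnramifiedAt q) :
    (ρ₀.baseChangeAlong φ hφ).IsUnramifiedAt q := by
  intro P hP σ hσ
  letI : Algebra A₀ A := φ.toAlgebra
  show (ρ₀.ρ σ).baseChange A = 1
  rw [h P hP σ hσ]
  exact LinearMap.baseChange_one _ _

theorem s59e_bc_unip (q : ℕ) (h : ρ₀.IsUnipotentOnInertiaAt q) :
    (ρ₀.baseChangeAlong φ hφ).IsUnipotentOnInertiaAt q := by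
  intro P hP σ hσ
  rw [s59e_bc_charpoly, h P hP σ hσ]
  simp

end BaseChange

section Trace

variable {A : Type} [CommRing A] [IsLocalRing A]

theorem s59e_residual_trace (ρ : GaloisRepAdic A) (σ : GQ) :
    LinearMap.trace (ResidueField A) _ (ρ.residual.ρ σ) =
      residue A (LinearMap.trace A _ (ρ.ρ σ)) := by
  show LinearMap.trace (ResidueField A) _ ((ρ.ρ σ).baseChange (ResidueField A)) = _
  rw [LinearMap.trace_baseChange, ResidueField.algebraMap_eq]

theorem s59e_residual_det_eq (ρ : GaloisRepAdic A) (σ : GQ) :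
    LinearMap.det (ρ.residual.ρ σ) = residue A (LinearMap.det (ρ.ρ σ)) := by
  show LinearMap.det ((ρ.ρ σ).baseChange (ResidueField A)) = _
  rw [LinearMap.det_baseChange, ResidueField.algebraMap_eq]

/-- residual traces of a base change of a `ℤ_p`-representation lie in the prime field. -/
theorem s59e_residual_trace_frob (p : ℕ) [Fact p.Prime] [CharP (ResidueField A) p]
    (φ : ℤ_[p] →+* A) (hφ : IsLocalHom φ) (ρ₀ : GaloisRepAdic ℤ_[p]) (σ : GQ) :
    LinearMap.trace (ResidueField A) _ ((ρ₀.baseChangeAlong φ hφ).residual.ρ σ) ^ p =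
      LinearMap.trace (ResidueField A) _ ((ρ₀.baseChangeAlong φ hφ).residual.ρ σ) := by
  rw [s59e_residual_trace, s59e_bc_trace]
  exact s59e_padic_frob p ((residue A).comp φ) _

end Trace

section Transport

variable {A₀ A : Type} [CommRing A₀] [IsLocalRing A₀] [CommRing A] [IsLocalRing A]
  (φ : A₀ →+* A) (hφ : IsLocalHom φ) (ρ₀ : GaloisRepAdic A₀)

/-- irreducibility of the residual representation of a base change, over an extension `K` of the
residue field, from that of the original residual representation. -/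
theorem s59e_residual_irr_transport (K : Type) [Field K] [Algebra (ResidueField A) K]
    (h : letI : Algebra (ResidueField A₀) K :=
        ((algebraMap (ResidueField A) K).comp (haveI := hφ; ResidueField.map φ)).toAlgebra
      (ρ₀.residual.baseChange K).IsIrreducible) :
    ((ρ₀.baseChangeAlong φ hφ).residual.baseChange K).IsIrreducible := by
  haveI := hφ
  letI : Algebra A₀ A := φ.toAlgebra
  letI : Algebra (ResidueField A₀) K :=
    ((algebraMap (ResidueField A) K).comp (ResidueField.map φ)).toAlgebra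
  let b : Module.Basis (Fin 2) A₀ ρ₀.V := Module.finBasisOfFinrankEq A₀ ρ₀.V ρ₀.finrank_eq
  let b₁ := Algebra.TensorProduct.basis A b
  let b₂ := Algebra.TensorProduct.basis (ResidueField A) b₁
  let b₃ := Algebra.TensorProduct.basis K b₂
  let c₁ := Algebra.TensorProduct.basis (ResidueField A₀) b
  let c₂ := Algebra.TensorProduct.basis K c₁
  intro W hW
  refine s59e_irr_transport (fun g => ((ρ₀.baseChangeAlong φ hφ).residual.baseChange K).ρ g)
    (fun g => (ρ₀.residual.baseChange K).ρ g) b₃ c₂ ?_ h W hW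
  intro g
  show LinearMap.toMatrix b₃ b₃
      ((((ρ₀.ρ g).baseChange A).baseChange (ResidueField A)).baseChange K) =
    LinearMap.toMatrix c₂ c₂ (((ρ₀.ρ g).baseChange (ResidueField A₀)).baseChange K)
  rw [LinearMap.toMatrix_baseChange, LinearMap.toMatrix_baseChange, LinearMap.toMatrix_baseChange,
    LinearMap.toMatrix_baseChange, LinearMap.toMatrix_baseChange, Matrix.map_map, Matrix.map_map,
    Matrix.map_map]
  congr 1

end Transport

end Fermat.Agent.Lib.S59
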