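/-
S59 (helper5, prefix `s59e_`): **absolute irreducibility of the residual representation is preserved
by base change along a local homomorphism.**

* `s59e_res_span_eq_top` : the image of an absolutely irreducible residual representation spans
  `End_k V` (Burnside, main's `Lib/S31/TraceOne`);
* `s59e_irr_baseChange_of_absIrr` : an absolutely irreducible residual representation stays
  irreducible over EVERY field extension `K / k`;
* `s59e_bc_absIrr` : `ρ₀.residual` absolutely irreducible ⇒ `(ρ₀.baseChangeAlong φ hφ).residual`
  absolutely irreducible (any local homomorphism `φ : A₀ → A` of local rings).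
-/
import Mathlib
import Fermat.Agent.Lib.S59.ETWRes
import Fermat.Agent.Lib.S31.TraceOne

set_option autoImplicit false
set_option linter.unusedSectionVars false
set_option linter.style.haveILetI false

noncomputable section

namespace Fermat.Agent.Lib.S59

open IsLocalRing Fermat.Agent.Lib.S31
open scoped TensorProduct

local notation "GQ" => (AlgebraicClosure ℚ ≃ₐ[ℚ] AlgebraicClosure ℚ)

section Field

variable {k : Type} [Field k]

/-- the image of an absolutely irreducible residual representation spans `End_k V`. -/
theorem s59e_res_span_eq_top (ρ : ResidualGaloisRep k) (habs : ρ.IsAbsolutelyIrreducible) :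
    Submodule.span k (Set.range ρ.ρ) = ⊤ := by
  haveI : Nontrivial ρ.V := by
    apply Module.nontrivial_of_finrank_pos (R := k)
    rw [ρ.finrank_eq]
    norm_num
  apply s31a_span_eq_top_of_trace (V := ρ.V) (fun g : GQ => ρ.ρ g)
  intro y hy
  exact s31a_eq_zero_of_trace_absIrr (AlgebraicClosure k) ρ.ρ habs y hy

/-- an absolutely irreducible residual representation is irreducible over every extension of the
coefficient field. -/
theorem s59e_irr_baseChange_of_absIrr (ρ : ResidualGaloisRep k) (habs : ρ.IsAbsolutelyIrreducible)
    (K : Type) [Field K] [Algebra k K] : (ρ.baseChange K).IsIrreducible := by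
  classical
  intro U hU
  -- `U` is stable under `y ⊗ K` for every `k`-endomorphism `y`
  have hall : ∀ y : Module.End k ρ.V, ∀ x ∈ U, y.baseChange K x ∈ U := by
    intro y
    have hy : y ∈ Submodule.span k (Set.range ρ.ρ) := by
      rw [s59e_res_span_eq_top ρ habs]; trivial
    induction hy using Submodule.span_induction with
    | mem y hy =>
      obtain ⟨g, rfl⟩ := hy
      exact fun x hx => hU g x hx
    | zero =>
      intro x _
      rw [LinearMap.baseChange_zero, LinearMap.zero_apply]
      exact U.zero_mem
    | add y z _ _ hy hz =>
      intro x hx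
      rw [LinearMap.baseChange_add, LinearMap.add_apply]
      exact U.add_mem (hy x hx) (hz x hx)
    | smul c y _ hy =>
      intro x hx
      rw [LinearMap.baseChange_smul, LinearMap.smul_apply, algebra_compatible_smul K c]
      exact U.smul_mem _ (hy x hx)
  by_cases hbot : U = ⊥
  · exact Or.inl hbot
  right
  obtain ⟨u, huU, hu0⟩ := (Submodule.ne_bot_iff U).mp hbot
  let b : Module.Basis (Fin 2) k ρ.V := Module.finBasisOfFinrankEq k ρ.V ρ.finrank_eq
  let B : Module.Basis (Fin 2) K (K ⊗[k] ρ.V) := Algebra.TensorProduct.basis K b
  obtain ⟨i₀, hi₀⟩ : ∃ i, B.repr u i ≠ 0 := by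
    by_contra h
    push Not at h
    exact hu0 (B.repr.injective (by ext i; rw [h i]; simp))
  -- every `1 ⊗ v` lies in `U`
  have hv : ∀ v : ρ.V, (1 : K) ⊗ₜ[k] v ∈ U := by
    intro v
    set y : Module.End k ρ.V := b.constr k (fun i => if i = i₀ then v else 0) with hy
    have h1 : y.baseChange K u = B.repr u i₀ • ((1 : K) ⊗ₜ[k] v) := by
      conv_lhs => rw [← B.sum_repr u]
      rw [map_sum]
      rw [Finset.sum_eq_single i₀]
      · rw [map_smul, Algebra.TensorProduct.basis_apply, LinearMap.baseChange_tmul, hy,
          Module.Basis.constr_basis, if_pos rfl]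
      · intro j _ hj
        rw [map_smul, Algebra.TensorProduct.basis_apply, LinearMap.baseChange_tmul, hy,
          Module.Basis.constr_basis, if_neg hj, TensorProduct.tmul_zero, smul_zero]
      · intro h
        exact absurd (Finset.mem_univ i₀) h
    have h2 := hall y u huU
    rw [h1] at h2
    have h3 := U.smul_mem (B.repr u i₀)⁻¹ h2
    rwa [smul_smul, inv_mul_cancel₀ hi₀, one_smul] at h3
  rw [eq_top_iff]
  rintro x -
  induction x using TensorProduct.induction_on with
  | zero => exact U.zero_mem
  | tmul c v =>
    have : c ⊗ₜ[k] v = c • ((1 : K) ⊗ₜ[k] v) := by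
      rw [TensorProduct.smul_tmul', smul_eq_mul, mul_one]
    rw [this]
    exact U.smul_mem c (hv v)
  | add x y hx hy => exact U.add_mem hx hy

end Field

section Transport

variable {A₀ A : Type} [CommRing A₀] [IsLocalRing A₀] [CommRing A] [IsLocalRing A]

/-- **absolute irreducibility of the residual representation is preserved by base change along a
local homomorphism.** -/
theorem s59e_bc_absIrr (φ : A₀ →+* A) (hφ : IsLocalHom φ) (ρ₀ : GaloisRepAdic A₀)
    (habs : ρ₀.residual.IsAbsolutelyIrreducible) :
    (ρ₀.baseChangeAlong φ hφ).residual.IsAbsolutelyIrreducible := by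
  haveI := hφ
  show ((ρ₀.baseChangeAlong φ hφ).residual.baseChange (AlgebraicClosure (ResidueField A))).IsIrreducible
  refine s59e_residual_irr_transport φ hφ ρ₀ (AlgebraicClosure (ResidueField A)) ?_
  letI : Algebra (ResidueField A₀) (AlgebraicClosure (ResidueField A)) :=
    ((algebraMap (ResidueField A) (AlgebraicClosure (ResidueField A))).comp
      (ResidueField.map φ)).toAlgebra
  exact s59e_irr_baseChange_of_absIrr ρ₀.residual habs (AlgebraicClosure (ResidueField A))

end Transport

end Fermat.Agent.Lib.S59
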