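/-
S59 (helper2, prefix `s59b_`), (B1) the base Hecke data, part 1: **the residual representation by Brauer–Nesbitt**
(generic form of helper5's `s59e_hecke_hres`, EHRT): a representation `ρ` over a local `𝒪`-algebra `A` (`p ∈ 𝔪_A`,
`p ≠ 2`), residually absolutely irreducible, whose Frobenius polynomials are `X² − t_ℓ X + ℓ` (`ℓ ∉ S`) with
`t_ℓ ≡ c_ℓ mod 𝔪_A`, has residual representation `ρ̄ ⊗ k_A` for every `ρ̄` over `k_𝒪` with Frobenius polynomials
`X² − c̄_ℓ X + ℓ`.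
-/
import Mathlib
import Fermat.Agent.Lib.S59.EHBN
import Fermat.Agent.Lib.S59.ETWRes
import Fermat.Agent.Lib.S59.EAbsIrr

set_option autoImplicit false
set_option linter.unusedSectionVars false
set_option linter.unusedVariables false
set_option linter.style.haveILetI false
set_option synthInstance.maxHeartbeats 400000
set_option maxHeartbeats 1000000

noncomputable section

namespace Fermat.Agent.Lib.S59

open IsLocalRing Polynomial Fermat.Agent.Lib.S30

local notation "Qbar" => AlgebraicClosure ℚ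
local notation "GQ" => (AlgebraicClosure ℚ ≃ₐ[ℚ] AlgebraicClosure ℚ)

section Gen

variable {A : Type} [CommRing A] [IsLocalRing A]

/-- the determinant from the characteristic polynomial. -/
theorem s59b_det_of_charpoly (ρ : GaloisRepAdic A) (σ : GQ) (t d : A)
    (h : LinearMap.charpoly (ρ.ρ σ) = X ^ 2 - C t * X + C d) : LinearMap.det (ρ.ρ σ) = d := by
  let b : Module.Basis (Fin 2) A ρ.V := Module.finBasisOfFinrankEq A ρ.V ρ.finrank_eq
  rw [← LinearMap.charpoly_toMatrix (ρ.ρ σ) b, Matrix.charpoly_fin_two] at h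
  rw [← LinearMap.det_toMatrix b]
  exact (s59e_coeffs_of_quadratic_eq h).2

variable [IsNoetherianRing A]

/-- **the determinant is cyclotomic** as soon as the Frobenius polynomials have constant term `ℓ`. -/
theorem s59b_detCyc_of_charpoly_res (p : ℕ) [Fact p.Prime] (ρ : GaloisRepAdic A)
    (hpA : (p : A) ∈ maximalIdeal A) (S : Finset ℕ) (t : ℕ → A)
    (hfrob : ∀ ℓ : ℕ, ℓ.Prime → ℓ ∉ S → ∀ P : ValuationSubring Qbar, P.LiesOverPrime ℓ →
      ∀ σ : GQ, P.IsFrobeniusAt σ ℓ →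
        LinearMap.charpoly (ρ.ρ σ) = X ^ 2 - C (t ℓ) * X + C (ℓ : A)) :
    ρ.DetIsCyclotomic p :=
  s59e_detCyc_of_frob p ρ hpA S fun ℓ hℓ hℓS P hP σ hσ =>
    s59b_det_of_charpoly ρ σ _ _ (hfrob ℓ hℓ hℓS P hP σ hσ)

/-- **oddness** of the residual representation. -/
theorem s59b_odd_of_charpoly (p : ℕ) [Fact p.Prime] (ρ : GaloisRepAdic A)
    (hpA : (p : A) ∈ maximalIdeal A) (S : Finset ℕ) (t : ℕ → A)
    (hfrob : ∀ ℓ : ℕ, ℓ.Prime → ℓ ∉ S → ∀ P : ValuationSubring Qbar, P.LiesOverPrime ℓ →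
      ∀ σ : GQ, P.IsFrobeniusAt σ ℓ →
        LinearMap.charpoly (ρ.ρ σ) = X ^ 2 - C (t ℓ) * X + C (ℓ : A)) :
    LinearMap.det (ρ.residual.ρ complexConjugation) = -1 := by
  have hp0 : p ≠ 0 := (Fact.out : p.Prime).ne_zero
  rw [s59e_residual_det p ρ (s59b_detCyc_of_charpoly_res p ρ hpA S t hfrob) complexConjugation (p - 1)
    (fun μ hμ => s30y_conj_root p hp0 μ hμ)]
  have h1 : ((p : ℕ) : ResidueField A) = 0 := by
    rw [← map_natCast (residue A), residue_eq_zero_iff]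
    exact hpA
  rw [Nat.cast_sub (Nat.one_le_iff_ne_zero.mpr hp0), h1, Nat.cast_one, zero_sub]

variable {𝒪 : Type} [CommRing 𝒪] [IsLocalRing 𝒪] [Algebra 𝒪 A] [IsLocalHom (algebraMap 𝒪 A)]

/-- **Brauer–Nesbitt**: the residual representation of `ρ` is `ρ̄ ⊗ k_A`. -/
theorem s59b_hres_of_frob (p : ℕ) [Fact p.Prime] (hp2 : p ≠ 2) (hpA : (p : A) ∈ maximalIdeal A)
    (ρ : GaloisRepAdic A) (habs : ρ.residual.IsAbsolutelyIrreducible)
    (S : Finset ℕ) (t : ℕ → A) (cT : ℕ → 𝒪)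
    (hfrob : ∀ ℓ : ℕ, ℓ.Prime → ℓ ∉ S → ∀ P : ValuationSubring Qbar, P.LiesOverPrime ℓ →
      ∀ σ : GQ, P.IsFrobeniusAt σ ℓ →
        LinearMap.charpoly (ρ.ρ σ) = X ^ 2 - C (t ℓ) * X + C (ℓ : A))
    (hcong : ∀ ℓ : ℕ, ℓ.Prime → ℓ ∉ S → t ℓ - algebraMap 𝒪 A (cT ℓ) ∈ maximalIdeal A)
    (ρbar : ResidualGaloisRep (ResidueField 𝒪))
    (hEig : ∀ ℓ : ℕ, ℓ.Prime → ℓ ∉ S → ∀ P : ValuationSubring Qbar, P.LiesOverPrime ℓ →
      ∀ σ : GQ, P.IsFrobeniusAt σ ℓ →
        LinearMap.charpoly (ρbar.ρ σ) =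
          X ^ 2 - C (residue 𝒪 (cT ℓ)) * X + C ((ℓ : ResidueField 𝒪))) :
    ρ.residual.IsEquiv (ρbar.baseChangeAlong (ResidueField.map (algebraMap 𝒪 A))) := by
  have hpk : ((p : ℕ) : ResidueField A) = 0 := by
    rw [← map_natCast (residue A), residue_eq_zero_iff]
    exact hpA
  have h2 : (2 : ResidueField A) ≠ 0 := by
    intro h
    have hcop : Nat.Coprime 2 p :=
      (Nat.coprime_primes Nat.prime_two (Fact.out : p.Prime)).mpr (Ne.symm hp2)
    obtain ⟨u, v, huv⟩ := Nat.isCoprime_iff_coprime.mpr hcop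
    have := congrArg (fun z : ℤ => (z : ResidueField A)) huv
    push_cast at this
    rw [hpk, h, mul_zero, mul_zero, add_zero] at this
    exact zero_ne_one this
  refine s59e_residual_isEquiv_of_frob h2 ρ.residual _
    (s59e_irr_of_absIrr _ habs) complexConjugation complexConjugation_mul_self
    (s59b_odd_of_charpoly p ρ hpA S t hfrob) S ?_
  intro ℓ hℓ hℓS P hP σ hσ
  have e1 : LinearMap.charpoly (ρ.residual.ρ σ) =
      (LinearMap.charpoly (ρ.ρ σ)).map (residue A) := by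
    show LinearMap.charpoly ((ρ.ρ σ).baseChange (ResidueField A)) = _
    rw [LinearMap.charpoly_baseChange]
    rfl
  have e2 : LinearMap.charpoly
        ((ρbar.baseChangeAlong (ResidueField.map (algebraMap 𝒪 A))).ρ σ) =
      (LinearMap.charpoly (ρbar.ρ σ)).map (ResidueField.map (algebraMap 𝒪 A)) := by
    letI : Algebra (ResidueField 𝒪) (ResidueField A) :=
      (ResidueField.map (algebraMap 𝒪 A)).toAlgebra
    show LinearMap.charpoly ((ρbar.ρ σ).baseChange (ResidueField A)) = _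
    rw [LinearMap.charpoly_baseChange]
    rfl
  have e3 : residue A (t ℓ) = ResidueField.map (algebraMap 𝒪 A) (residue 𝒪 (cT ℓ)) := by
    rw [ResidueField.map_residue]
    have := (residue_eq_zero_iff _).mpr (hcong ℓ hℓ hℓS)
    rw [map_sub, sub_eq_zero] at this
    exact this
  rw [e1, e2, hfrob ℓ hℓ hℓS P hP σ hσ, hEig ℓ hℓ hℓS P hP σ hσ]
  simp only [Polynomial.map_add, Polynomial.map_sub, Polynomial.map_mul, Polynomial.map_pow,
    Polynomial.map_X, Polynomial.map_C, map_natCast, Polynomial.map_natCast, e3]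

end Gen

section Quot

variable {𝒪 : Type} [CommRing 𝒪] [IsLocalRing 𝒪]
  {R' : Type} [CommRing R'] [IsLocalRing R'] [Algebra 𝒪 R']
  {R : Type} [CommRing R] [IsLocalRing R] [Algebra 𝒪 R]

/-- `𝒪 → R` is local if `𝒪 → R'` and `f : R' → R` are. -/
theorem s59b_isLocalHom_algebraMap_of_algHom [IsLocalHom (algebraMap 𝒪 R')] (f : R' →ₐ[𝒪] R)
    (hfl : IsLocalHom (f : R' →+* R)) : IsLocalHom (algebraMap 𝒪 R) := by
  haveI := hfl
  refine ⟨fun x hx => ?_⟩
  by_contra hnu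
  have h1 : algebraMap 𝒪 R' x ∈ maximalIdeal R' := map_nonunit (algebraMap 𝒪 R') x hnu
  have h2 : (f : R' →+* R) (algebraMap 𝒪 R' x) ∈ maximalIdeal R :=
    map_nonunit (f : R' →+* R) _ h1
  have h3 : (f : R' →+* R) (algebraMap 𝒪 R' x) = algebraMap 𝒪 R x := f.commutes x
  rw [h3] at h2
  exact h2 hx

/-- a congruence `t ≡ c mod 𝔪_{R'}` is preserved by a local `𝒪`-algebra homomorphism. -/
theorem s59b_map_sub_algebraMap_mem (f : R' →ₐ[𝒪] R) (hfl : IsLocalHom (f : R' →+* R)) (t : R')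
    (c : 𝒪) (h : t - algebraMap 𝒪 R' c ∈ maximalIdeal R') :
    f t - algebraMap 𝒪 R c ∈ maximalIdeal R := by
  haveI := hfl
  have h2 : (f : R' →+* R) (t - algebraMap 𝒪 R' c) ∈ maximalIdeal R :=
    map_nonunit (f : R' →+* R) _ h
  have h3 : (f : R' →+* R) (t - algebraMap 𝒪 R' c) = f t - algebraMap 𝒪 R c := by
    rw [map_sub]
    congr 1
    exact f.commutes c
  rw [h3] at h2
  exact h2

/-- the same with an integer constant, for an element `x = f t`. -/
theorem s59b_sub_intCast_mem (f : R' →ₐ[𝒪] R) (hfl : IsLocalHom (f : R' →+* R)) (t : R') (x : R)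
    (hx : x = f t) (c : ℤ) (h : t - algebraMap 𝒪 R' ((c : ℤ) : 𝒪) ∈ maximalIdeal R') :
    x - ((c : ℤ) : R) ∈ maximalIdeal R := by
  have h1 := s59b_map_sub_algebraMap_mem f hfl t _ h
  rw [map_intCast] at h1
  rw [hx]
  exact h1

/-- the congruence `t ≡ c` from the equality of the residues. -/
theorem s59b_sub_algebraMap_mem_of_residue [IsLocalHom (algebraMap 𝒪 R')] (t : R') (c : 𝒪)
    (h : residue R' t = ResidueField.map (algebraMap 𝒪 R') (residue 𝒪 c)) :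
    t - algebraMap 𝒪 R' c ∈ maximalIdeal R' := by
  rw [← residue_eq_zero_iff, map_sub, h, ResidueField.map_residue, sub_self]

variable [IsNoetherianRing R] [IsLocalHom (algebraMap 𝒪 R)]

/-- **`hresR`**: the residual representation of `ρ' ⊗_f R` by Brauer–Nesbitt. -/
theorem s59b_hresR_of_frob (p : ℕ) [Fact p.Prime] (hp2 : p ≠ 2) (hp𝒪 : (p : 𝒪) ∈ maximalIdeal 𝒪)
    (f : R' →ₐ[𝒪] R) (hfl : IsLocalHom (f : R' →+* R))
    (ρ' : GaloisRepAdic R') (habs : ρ'.residual.IsAbsolutelyIrreducible)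
    (S : Finset ℕ) (t : ℕ → R') (cT : ℕ → 𝒪)
    (hfrob : ∀ ℓ : ℕ, ℓ.Prime → ℓ ∉ S → ∀ P : ValuationSubring Qbar, P.LiesOverPrime ℓ →
      ∀ σ : GQ, P.IsFrobeniusAt σ ℓ →
        LinearMap.charpoly (ρ'.ρ σ) = X ^ 2 - C (t ℓ) * X + C (ℓ : R'))
    (hcong : ∀ ℓ : ℕ, ℓ.Prime → ℓ ∉ S → t ℓ - algebraMap 𝒪 R' (cT ℓ) ∈ maximalIdeal R')
    (ρbar : ResidualGaloisRep (ResidueField 𝒪))
    (hEig : ∀ ℓ : ℕ, ℓ.Prime → ℓ ∉ S → ∀ P : ValuationSubring Qbar, P.LiesOverPrime ℓ →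
      ∀ σ : GQ, P.IsFrobeniusAt σ ℓ →
        LinearMap.charpoly (ρbar.ρ σ) =
          X ^ 2 - C (residue 𝒪 (cT ℓ)) * X + C ((ℓ : ResidueField 𝒪))) :
    (ρ'.baseChangeAlong (f : R' →+* R) hfl).residual.IsEquiv
      (ρbar.baseChangeAlong (ResidueField.map (algebraMap 𝒪 R))) := by
  have hpR : (p : R) ∈ maximalIdeal R := by
    have := map_nonunit (algebraMap 𝒪 R) (p : 𝒪) hp𝒪
    rwa [map_natCast] at this
  refine s59b_hres_of_frob p hp2 hpR (ρ'.baseChangeAlong (f : R' →+* R) hfl)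
    (s59e_bc_absIrr (f : R' →+* R) hfl ρ' habs) S (fun ℓ => f (t ℓ)) cT ?_ ?_ ρbar hEig
  · intro ℓ hℓ hℓS P hP σ hσ
    rw [s59e_bc_charpoly, hfrob ℓ hℓ hℓS P hP σ hσ]
    simp only [Polynomial.map_add, Polynomial.map_sub, Polynomial.map_mul, Polynomial.map_pow,
      Polynomial.map_X, Polynomial.map_C, map_natCast, Polynomial.map_natCast, RingHom.coe_coe]
  · intro ℓ hℓ hℓS
    exact s59b_map_sub_algebraMap_mem f hfl (t ℓ) (cT ℓ) (hcong ℓ hℓ hℓS)

end Quot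

end Fermat.Agent.Lib.S59
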