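/-
S59 (helper5, prefix `s59e_`), [T-SIDE] rings: **the Hecke ring `T = T′[B]`.**
`Y` a nonzero finite free module over a complete noetherian local ring `𝒪`, `a : A → End_𝒪 Y` a ring
homomorphism from a commutative ring (the trace ring is `T′ = s59e_adj 𝒪 a = 𝒪[a(A)]`),
`ρB : B →* End_𝒪 Y` a commutative group of automorphisms commuting with `a(A)` (the diamond operators at
the Taylor–Wiles primes).  `T := s59e_adj 𝒪 (s59e_aB a ρB hcomm) = 𝒪[a(A), ρB(B)]`.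

* `s59e_aB`, `s59e_adjB_eq` (`T = adjoin 𝒪 (range a ∪ range ρB)`), `s59e_adj_le_adjB` (`T′ ≤ T`);
* `s59e_adjB_locScalar` : `T` consists of locally scalar endomorphisms if `T′` does and every `ρB β`
  is; hence `T` is local (`s59e_adj_isLocalRing`), `𝒪 → T` is local;
* `s59e_isLocScalar_of_pow_eq_one` : an automorphism of `p`-power order is locally scalar with constant `1`;
* `s59e_adj_finite`, `s59e_adj_noeth`, `s59e_adj_complete` : finite over `𝒪`, noetherian, complete;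
* `s59e_incl : T′ →ₐ[𝒪] T`, `s59e_incl_maximal` (`hlocT`), `s59e_incl_finite`;
* `s59e_dia : B →* T`, `s59e_dia_sub_one_mem` (`huu`), `s59e_adjB_gen` (`hgen`).
-/
import Mathlib
import Fermat.Prelude.Thm_IsLocalRing_isAdicComplete_of_module_finite
import Fermat.Agent.Lib.S59.EHLoc

set_option autoImplicit false
set_option linter.unusedSectionVars false
set_option linter.unusedVariables false
set_option linter.style.haveILetI false

noncomputable section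

namespace Fermat.Agent.Lib.S59

open IsLocalRing Polynomial

/-! ### Automorphisms of `p`-power order -/

section PPow

/-- `(X - 1)^(p^k) ≡ X^(p^k) - 1` modulo `p`. -/
theorem s59e_sub_one_pow_char (p k : ℕ) [hp : Fact p.Prime] :
    ∃ f : ℤ[X], (X - 1 : ℤ[X]) ^ (p ^ k) = X ^ (p ^ k) - 1 + (p : ℤ[X]) * f := by
  have h1 : C (p : ℤ) ∣ (X - 1 : ℤ[X]) ^ (p ^ k) - (X ^ (p ^ k) - 1) := by
    rw [Polynomial.C_dvd_iff_dvd_coeff]
    intro i
    rw [← ZMod.intCast_zmod_eq_zero_iff_dvd]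
    have h2 : (((X - 1 : ℤ[X]) ^ (p ^ k) - (X ^ (p ^ k) - 1)).map
        (Int.castRingHom (ZMod p))) = 0 := by
      simp only [Polynomial.map_sub, Polynomial.map_pow, Polynomial.map_X, Polynomial.map_one]
      rw [sub_pow_char_pow, one_pow, sub_self]
    have h3 := congrArg (fun q => Polynomial.coeff q i) h2
    simp only [Polynomial.coeff_map, Polynomial.coeff_zero] at h3
    exact h3
  obtain ⟨f, hf⟩ := h1
  refine ⟨f, ?_⟩
  have h4 : (C (p : ℤ) : ℤ[X]) = (p : ℤ[X]) := map_natCast C p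
  rw [← h4, ← hf]
  ring

variable {𝒪 : Type*} [CommRing 𝒪] [IsLocalRing 𝒪] {M : Type*} [AddCommGroup M] [Module 𝒪 M]

/-- an endomorphism of `p`-power order (`p ∈ 𝔪`) is locally scalar with constant `1`. -/
theorem s59e_isLocScalar_of_pow_eq_one (p k : ℕ) [hp : Fact p.Prime]
    (hp𝒪 : (p : 𝒪) ∈ maximalIdeal 𝒪) (x : Module.End 𝒪 M) (hx : x ^ (p ^ k) = 1) :
    s59e_IsLocScalar x 1 := by
  obtain ⟨f, hf⟩ := s59e_sub_one_pow_char p k
  refine s59e_isLocScalar_of_pow (n := p ^ k) fun y => ?_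
  have h1 : (x - (1 : 𝒪) • (1 : Module.End 𝒪 M)) ^ (p ^ k) =
      ((p : ℕ) : Module.End 𝒪 M) * Polynomial.aeval x f := by
    have h2 := congrArg (Polynomial.aeval x) hf
    rw [map_pow, map_sub, map_add, map_mul, map_sub, map_pow, Polynomial.aeval_X, map_one,
      map_natCast] at h2
    rw [one_smul, h2, hx, sub_self, zero_add]
  rw [h1, Module.End.mul_apply]
  have h3 : ((p : ℕ) : Module.End 𝒪 M) = (p : 𝒪) • (1 : Module.End 𝒪 M) := by
    rw [Nat.cast_smul_eq_nsmul, nsmul_eq_mul, mul_one]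
  rw [h3, LinearMap.smul_apply, Module.End.one_apply]
  exact Submodule.smul_mem_smul hp𝒪 Submodule.mem_top

end PPow

/-! ### The ring `𝒪[a(A), ρB(B)]` -/

section AdjB

variable {𝒪 : Type*} [CommRing 𝒪] {E : Type*} [Ring E] [Algebra 𝒪 E]
  {A : Type*} [CommRing A] (a : A →+* E) {B : Type*} [CommGroup B] (ρB : B →* E)
  (hcomm : ∀ (t : A) (β : B), Commute (a t) (ρB β))

/-- the joint homomorphism `A[B] → E`. -/
def s59e_aB : MonoidAlgebra A B →+* E := MonoidAlgebra.liftNCRingHom a ρB hcomm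

theorem s59e_aB_single (t : A) (β : B) :
    s59e_aB a ρB hcomm (MonoidAlgebra.single β t) = a t * ρB β := by
  unfold s59e_aB
  rw [MonoidAlgebra.liftNCRingHom]
  exact MonoidAlgebra.liftNC_single _ _ _ _

theorem s59e_aB_a (t : A) : s59e_aB a ρB hcomm (MonoidAlgebra.single 1 t) = a t := by
  rw [s59e_aB_single, map_one, mul_one]

theorem s59e_aB_rho (β : B) : s59e_aB a ρB hcomm (MonoidAlgebra.single β 1) = ρB β := by
  rw [s59e_aB_single, map_one, one_mul]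

theorem s59e_a_mem_adjB (t : A) : a t ∈ s59e_adj 𝒪 (s59e_aB a ρB hcomm) :=
  Algebra.subset_adjoin ⟨MonoidAlgebra.single 1 t, s59e_aB_a a ρB hcomm t⟩

theorem s59e_rho_mem_adjB (β : B) : ρB β ∈ s59e_adj 𝒪 (s59e_aB a ρB hcomm) :=
  Algebra.subset_adjoin ⟨MonoidAlgebra.single β 1, s59e_aB_rho a ρB hcomm β⟩

/-- `T′ ≤ T`. -/
theorem s59e_adj_le_adjB : s59e_adj 𝒪 a ≤ s59e_adj 𝒪 (s59e_aB a ρB hcomm) := by
  refine Algebra.adjoin_le ?_
  rintro _ ⟨t, rfl⟩
  exact s59e_a_mem_adjB a ρB hcomm t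

/-- `T` is the smallest subalgebra containing `a(A)` and `ρB(B)`. -/
theorem s59e_adjB_le (S : Subalgebra 𝒪 E) (h1 : ∀ t, a t ∈ S) (h2 : ∀ β, ρB β ∈ S) :
    s59e_adj 𝒪 (s59e_aB a ρB hcomm) ≤ S := by
  refine Algebra.adjoin_le ?_
  rintro _ ⟨x, rfl⟩
  induction x using MonoidAlgebra.induction_on with
  | of β =>
    have h3 : (MonoidAlgebra.of A B β) = MonoidAlgebra.single β 1 := rfl
    rw [h3, s59e_aB_rho]
    exact h2 β
  | add x y hx hy =>
    rw [map_add]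
    exact S.add_mem hx hy
  | smul r x hx =>
    have h3 : r • x = MonoidAlgebra.single 1 r * x := by
      rw [Algebra.smul_def, MonoidAlgebra.coe_algebraMap]
      rfl
    rw [h3, map_mul, s59e_aB_a]
    exact S.mul_mem (h1 r) hx

theorem s59e_adjB_eq :
    s59e_adj 𝒪 (s59e_aB a ρB hcomm) = Algebra.adjoin 𝒪 (Set.range a ∪ Set.range ρB) := by
  refine le_antisymm (s59e_adjB_le a ρB hcomm _ ?_ ?_) (Algebra.adjoin_le ?_)
  · exact fun t => Algebra.subset_adjoin (Or.inl ⟨t, rfl⟩)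
  · exact fun β => Algebra.subset_adjoin (Or.inr ⟨β, rfl⟩)
  · rintro _ (⟨t, rfl⟩ | ⟨β, rfl⟩)
    · exact s59e_a_mem_adjB a ρB hcomm t
    · exact s59e_rho_mem_adjB a ρB hcomm β

include hcomm in
/-- every element of `T′` commutes with every `ρB β`. -/
theorem s59e_adj_commute_rho {x : E} (hx : x ∈ s59e_adj 𝒪 a) (β : B) : Commute x (ρB β) := by
  have h1 : s59e_adj 𝒪 a ≤ Subalgebra.centralizer 𝒪 ({ρB β} : Set E) := by
    refine Algebra.adjoin_le ?_
    rintro _ ⟨t, rfl⟩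
    rw [SetLike.mem_coe, Subalgebra.mem_centralizer_iff]
    intro g hg
    rw [Set.mem_singleton_iff] at hg
    rw [hg]
    exact (hcomm t β).symm
  have h2 := h1 hx
  rw [Subalgebra.mem_centralizer_iff] at h2
  exact (h2 (ρB β) rfl).symm

/-- the inclusion `T′ → T`. -/
def s59e_incl : s59e_adj 𝒪 a →ₐ[𝒪] s59e_adj 𝒪 (s59e_aB a ρB hcomm) :=
  Subalgebra.inclusion (s59e_adj_le_adjB a ρB hcomm)

theorem s59e_incl_coe (x : s59e_adj 𝒪 a) :
    ((s59e_incl a ρB hcomm x : s59e_adj 𝒪 (s59e_aB a ρB hcomm)) : E) = (x : E) := by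
  unfold s59e_incl
  exact Subalgebra.coe_inclusion _ x

theorem s59e_incl_injective : Function.Injective (s59e_incl (𝒪 := 𝒪) a ρB hcomm) :=
  Subalgebra.inclusion_injective _

/-- the diamond operators as elements of `T`. -/
def s59e_dia : B →* s59e_adj 𝒪 (s59e_aB a ρB hcomm) where
  toFun β := ⟨ρB β, s59e_rho_mem_adjB a ρB hcomm β⟩
  map_one' := Subtype.ext (map_one ρB)
  map_mul' β γ := Subtype.ext (map_mul ρB β γ)

theorem s59e_dia_coe (β : B) :
    ((s59e_dia (𝒪 := 𝒪) a ρB hcomm β : s59e_adj 𝒪 (s59e_aB a ρB hcomm)) : E) = ρB β := rfl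

/-- **`hgen`**: `T` is generated over `T′` by the `dia (h i)^{±1}`, `h` a generating family of `B`. -/
theorem s59e_adjB_gen {ι : Type*} (h : ι → B) (hh : Subgroup.closure (Set.range h) = ⊤)
    (S : Subalgebra 𝒪 (s59e_adj 𝒪 (s59e_aB a ρB hcomm)))
    (hS1 : ∀ x : s59e_adj 𝒪 a, s59e_incl a ρB hcomm x ∈ S)
    (hS2 : ∀ i, s59e_dia a ρB hcomm (h i) ∈ S) (hS3 : ∀ i, s59e_dia a ρB hcomm (h i)⁻¹ ∈ S) :
    S = ⊤ := by
  have hB2 : ∀ β : B, s59e_dia (𝒪 := 𝒪) a ρB hcomm β ∈ S ∧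
      s59e_dia (𝒪 := 𝒪) a ρB hcomm β⁻¹ ∈ S := by
    intro β
    have hβ : β ∈ Subgroup.closure (Set.range h) := by rw [hh]; exact Subgroup.mem_top β
    induction hβ using Subgroup.closure_induction with
    | mem x hx =>
      obtain ⟨i, rfl⟩ := hx
      exact ⟨hS2 i, hS3 i⟩
    | one =>
      rw [inv_one, map_one]
      exact ⟨S.one_mem, S.one_mem⟩
    | mul x y _ _ hx hy =>
      rw [mul_inv, map_mul, map_mul]
      exact ⟨S.mul_mem hx.1 hy.1, S.mul_mem hx.2 hy.2⟩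
    | inv x _ hx =>
      rw [inv_inv]
      exact ⟨hx.2, hx.1⟩
  have hB : ∀ β : B, s59e_dia (𝒪 := 𝒪) a ρB hcomm β ∈ S := fun β => (hB2 β).1
  have hmem : ∀ z, z ∈ Algebra.adjoin 𝒪 (Set.range a ∪ Set.range ρB) →
      z ∈ s59e_adj 𝒪 (s59e_aB a ρB hcomm) := fun z hz => by
    rw [s59e_adjB_eq a ρB hcomm]; exact hz
  have key : ∀ (y : E) (hy' : y ∈ Algebra.adjoin 𝒪 (Set.range a ∪ Set.range ρB)),
      ∀ hy0 : y ∈ s59e_adj 𝒪 (s59e_aB a ρB hcomm),
        (⟨y, hy0⟩ : s59e_adj 𝒪 (s59e_aB a ρB hcomm)) ∈ S := by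
    intro y hy'
    induction hy' using Algebra.adjoin_induction with
    | mem z hz =>
      intro hy0
      rcases hz with ⟨t, rfl⟩ | ⟨β, rfl⟩
      · exact hS1 ⟨a t, Algebra.subset_adjoin ⟨t, rfl⟩⟩
      · exact hB β
    | algebraMap r =>
      intro hy0
      exact S.algebraMap_mem r
    | add z w hz hw hz' hw' =>
      intro hy0
      exact S.add_mem (hz' (hmem z hz)) (hw' (hmem w hw))
    | mul z w hz hw hz' hw' =>
      intro hy0
      exact S.mul_mem (hz' (hmem z hz)) (hw' (hmem w hw))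
  rw [eq_top_iff]
  rintro ⟨x, hx⟩ -
  exact key x (by rw [← s59e_adjB_eq a ρB hcomm]; exact hx) hx

end AdjB

/-! ### Locality, finiteness, completeness -/

section Loc

variable {𝒪 : Type*} [CommRing 𝒪] [IsLocalRing 𝒪] {Y : Type*} [AddCommGroup Y] [Module 𝒪 Y]
  [Module.Free 𝒪 Y] [Module.Finite 𝒪 Y]
  {A : Type*} [CommRing A] (a : A →+* Module.End 𝒪 Y) {B : Type*} [CommGroup B]
  (ρB : B →* Module.End 𝒪 Y) (hcomm : ∀ (t : A) (β : B), Commute (a t) (ρB β))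

/-- `T` consists of locally scalar endomorphisms. -/
theorem s59e_adjB_locScalar
    (hlocA : ∀ x ∈ s59e_adj 𝒪 a, ∃ d : 𝒪, s59e_IsLocScalar x d)
    (hlocB : ∀ β, ∃ d : 𝒪, s59e_IsLocScalar (ρB β) d) :
    ∀ x ∈ s59e_adj 𝒪 (s59e_aB a ρB hcomm), ∃ d : 𝒪, s59e_IsLocScalar x d := by
  classical
  intro x hx
  let g : (s59e_adj 𝒪 a) ⊕ B → Module.End 𝒪 Y := Sum.elim (fun t => (t : Module.End 𝒪 Y)) ρB
  have hgc : ∀ i j, Commute (g i) (g j) := by
    rintro (s | β) (t | γ)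
    · exact s59e_adj_commute 𝒪 a s.2 t.2
    · exact s59e_adj_commute_rho a ρB hcomm s.2 γ
    · exact (s59e_adj_commute_rho a ρB hcomm t.2 β).symm
    · show Commute (ρB β) (ρB γ)
      unfold Commute SemiconjBy
      rw [← map_mul, ← map_mul, mul_comm]
  choose cA hcA using fun t : s59e_adj 𝒪 a => hlocA t.1 t.2
  choose cB hcB using hlocB
  have hg : ∀ i, s59e_IsLocScalar (g i) (Sum.elim cA cB i) := by
    rintro (s | β)
    · exact hcA s
    · exact hcB β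
  refine s59e_locScalar_adjoin g hgc (Sum.elim cA cB) hg ?_
  refine s59e_adjB_le a ρB hcomm (Algebra.adjoin 𝒪 (Set.range g)) ?_ ?_ hx
  · intro t
    exact Algebra.subset_adjoin ⟨Sum.inl ⟨a t, Algebra.subset_adjoin ⟨t, rfl⟩⟩, rfl⟩
  · intro β
    exact Algebra.subset_adjoin ⟨Sum.inr β, rfl⟩

end Loc

section Fin

variable {𝒪 : Type*} [CommRing 𝒪] [IsNoetherianRing 𝒪] {Y : Type*} [AddCommGroup Y] [Module 𝒪 Y]
  [Module.Free 𝒪 Y] [Module.Finite 𝒪 Y]
  {A : Type*} [Semiring A] [IsMulCommutative A] (a : A →+* Module.End 𝒪 Y)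

/-- `𝒪[a(A)]` is a finite `𝒪`-module. -/
theorem s59e_adj_finite : Module.Finite 𝒪 (s59e_adj 𝒪 a) := by
  haveI : IsNoetherian 𝒪 (Module.End 𝒪 Y) := isNoetherian_of_isNoetherianRing_of_finite 𝒪 _
  exact Module.Finite.of_injective (s59e_adj 𝒪 a).val.toLinearMap Subtype.val_injective

/-- `𝒪[a(A)]` is noetherian. -/
theorem s59e_adj_noeth : IsNoetherianRing (s59e_adj 𝒪 a) := by
  haveI := s59e_adj_finite a
  exact IsNoetherianRing.of_finite 𝒪 _

/-- `𝒪[a(A)]` is complete if it is local. -/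
theorem s59e_adj_complete [IsLocalRing 𝒪] [IsAdicComplete (maximalIdeal 𝒪) 𝒪]
    [IsLocalRing (s59e_adj 𝒪 a)] [IsLocalHom (algebraMap 𝒪 (s59e_adj 𝒪 a))] :
    IsAdicComplete (maximalIdeal (s59e_adj 𝒪 a)) (s59e_adj 𝒪 a) := by
  haveI := s59e_adj_finite a
  exact IsLocalRing.isAdicComplete_of_module_finite (𝒪 := 𝒪) (T := s59e_adj 𝒪 a)

end Fin

/-! ### The inclusion `T′ → T` is local and finite; the diamonds are `≡ 1` -/

section Incl

variable {𝒪 : Type*} [CommRing 𝒪] [IsLocalRing 𝒪] {Y : Type*} [AddCommGroup Y] [Module 𝒪 Y]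
  [Module.Free 𝒪 Y] [Module.Finite 𝒪 Y] [Nontrivial Y]
  {A : Type*} [CommRing A] (a : A →+* Module.End 𝒪 Y) {B : Type*} [CommGroup B]
  (ρB : B →* Module.End 𝒪 Y) (hcomm : ∀ (t : A) (β : B), Commute (a t) (ρB β))

/-- membership in the maximal ideal of `𝒪[a(A)]` in terms of the constant. -/
theorem s59e_adj_mem_maximalIdeal_iff {A' : Type*} [Semiring A'] [IsMulCommutative A']
    (a' : A' →+* Module.End 𝒪 Y) [IsLocalRing (s59e_adj 𝒪 a')]
    [IsLocalHom (algebraMap 𝒪 (s59e_adj 𝒪 a'))] {x : Module.End 𝒪 Y} (hx : x ∈ s59e_adj 𝒪 a')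
    {d : 𝒪} (hd : s59e_IsLocScalar x d) :
    (⟨x, hx⟩ : s59e_adj 𝒪 a') ∈ maximalIdeal (s59e_adj 𝒪 a') ↔ d ∈ maximalIdeal 𝒪 := by
  rw [← IsLocalRing.residue_eq_zero_iff, s59e_adj_residue a' hx hd,
    ← IsLocalRing.residue_eq_zero_iff]
  constructor
  · intro h
    exact (RingHom.injective _) (by rw [h, map_zero])
  · intro h
    rw [h, map_zero]

/-- **`hlocT`**: the inclusion `T′ → T` maps the maximal ideal into the maximal ideal. -/
theorem s59e_incl_maximal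
    (hlocA : ∀ x ∈ s59e_adj 𝒪 a, ∃ d : 𝒪, s59e_IsLocScalar x d)
    [IsLocalRing (s59e_adj 𝒪 a)] [IsLocalHom (algebraMap 𝒪 (s59e_adj 𝒪 a))]
    [IsLocalRing (s59e_adj 𝒪 (s59e_aB a ρB hcomm))]
    [IsLocalHom (algebraMap 𝒪 (s59e_adj 𝒪 (s59e_aB a ρB hcomm)))]
    (x : s59e_adj 𝒪 a) (hx : x ∈ maximalIdeal (s59e_adj 𝒪 a)) :
    s59e_incl a ρB hcomm x ∈ maximalIdeal (s59e_adj 𝒪 (s59e_aB a ρB hcomm)) := by
  obtain ⟨x, hx0⟩ := x
  obtain ⟨d, hd⟩ := hlocA x hx0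
  have h1 := (s59e_adj_mem_maximalIdeal_iff a hx0 hd).mp hx
  exact (s59e_adj_mem_maximalIdeal_iff (s59e_aB a ρB hcomm)
    (s59e_adj_le_adjB a ρB hcomm hx0) hd).mpr h1

/-- **`huu`**: a diamond operator of `p`-power order is `≡ 1`. -/
theorem s59e_dia_sub_one_mem (p : ℕ) [Fact p.Prime] (hp𝒪 : (p : 𝒪) ∈ maximalIdeal 𝒪)
    [IsLocalRing (s59e_adj 𝒪 (s59e_aB a ρB hcomm))]
    [IsLocalHom (algebraMap 𝒪 (s59e_adj 𝒪 (s59e_aB a ρB hcomm)))]
    (β : B) (k : ℕ) (hβ : β ^ (p ^ k) = 1) :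
    s59e_dia a ρB hcomm β - 1 ∈ maximalIdeal (s59e_adj 𝒪 (s59e_aB a ρB hcomm)) := by
  have h1 : s59e_IsLocScalar (ρB β) (1 : 𝒪) :=
    s59e_isLocScalar_of_pow_eq_one p k hp𝒪 (ρB β) (by rw [← map_pow, hβ, map_one])
  have h2 := s59e_adj_residue (s59e_aB a ρB hcomm) (s59e_rho_mem_adjB a ρB hcomm β) h1
  rw [← IsLocalRing.residue_eq_zero_iff, map_sub, map_one]
  have h3 : residue (s59e_adj 𝒪 (s59e_aB a ρB hcomm)) (s59e_dia a ρB hcomm β) =
      residue (s59e_adj 𝒪 (s59e_aB a ρB hcomm)) ⟨ρB β, s59e_rho_mem_adjB a ρB hcomm β⟩ := rfl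
  rw [h3, h2, map_one, map_one, sub_self]

end Incl

end Fermat.Agent.Lib.S59
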