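/-
S59 (helper5, prefix `s59e_`), `T`-side package: **the instance package of the rings `T′ ⊆ T`** of `ERing.lean`
(`T′ = s59e_adj 𝒪 a`, `T = s59e_adj 𝒪 (s59e_aB a ρB hcomm)`), in the binder shapes of `s59e_TLevel_abs`:
* `s59e_algTT` : THE `T′`-algebra structure of `T` (use `letI := s59e_algTT a ρB hcomm`), `s59e_algTT_apply`;
* `s59e_towerTT`, `s59e_finiteTT` : `IsScalarTower 𝒪 T′ T`, `Module.Finite T′ T`;
* `s59e_hgenT`   : `Algebra.adjoin T′ (range dia) = ⊤`;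
* `s59e_smul_def`, `s59e_hTρ`, `s59e_hdia` : the action of `T` on `Y` (`t • y = t y`), it commutes with every
  endomorphism commuting with the generators; `ρB β y = dia β • y`;
* `s59e_testAlgebra` : `IsTestAlgebra 𝒪 T′` from local scalarity.
-/
import Mathlib
import Fermat.Agent.Lib.S59.ERing
import Fermat.Agent.Lib.Deform.Defs

set_option autoImplicit false
set_option linter.unusedSectionVars false
set_option linter.unusedVariables false
set_option linter.style.haveILetI false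

noncomputable section

namespace Fermat.Agent.Lib.S59

open IsLocalRing
open Fermat.Agent.Lib.Deform (IsTestAlgebra)

section Alg

variable {𝒪 : Type*} [CommRing 𝒪] {Y : Type*} [AddCommGroup Y] [Module 𝒪 Y]
  {A : Type*} [CommRing A] (a : A →+* Module.End 𝒪 Y) {B : Type*} [CommGroup B]
  (ρB : B →* Module.End 𝒪 Y) (hcomm : ∀ (t : A) (β : B), Commute (a t) (ρB β))

/-- **THE `T′`-algebra structure of `T`.** -/
@[reducible] def s59e_algTT :
    Algebra (s59e_adj 𝒪 a) (s59e_adj 𝒪 (s59e_aB a ρB hcomm)) :=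
  (s59e_incl a ρB hcomm).toRingHom.toAlgebra

theorem s59e_algTT_apply (x : s59e_adj 𝒪 a) :
    letI := s59e_algTT a ρB hcomm
    algebraMap (s59e_adj 𝒪 a) (s59e_adj 𝒪 (s59e_aB a ρB hcomm)) x = s59e_incl a ρB hcomm x := rfl

theorem s59e_algTT_coe (x : s59e_adj 𝒪 a) :
    letI := s59e_algTT a ρB hcomm
    ((algebraMap (s59e_adj 𝒪 a) (s59e_adj 𝒪 (s59e_aB a ρB hcomm)) x :
      s59e_adj 𝒪 (s59e_aB a ρB hcomm)) : Module.End 𝒪 Y) = (x : Module.End 𝒪 Y) :=
  s59e_incl_coe a ρB hcomm x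

theorem s59e_towerTT :
    letI := s59e_algTT a ρB hcomm
    IsScalarTower 𝒪 (s59e_adj 𝒪 a) (s59e_adj 𝒪 (s59e_aB a ρB hcomm)) := by
  letI := s59e_algTT a ρB hcomm
  exact IsScalarTower.of_algebraMap_eq fun o => ((s59e_incl a ρB hcomm).commutes o).symm

/-- the action of `T` on `Y`. -/
theorem s59e_smul_def (t : s59e_adj 𝒪 (s59e_aB a ρB hcomm)) (y : Y) :
    t • y = (t : Module.End 𝒪 Y) y := rfl

/-- **`hdia`**. -/
theorem s59e_hdia (β : B) (y : Y) : ρB β y = s59e_dia (𝒪 := 𝒪) a ρB hcomm β • y := rfl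

/-- **`hTρ`**: an endomorphism commuting with the generators of `T` commutes with `T`. -/
theorem s59e_hTρ (F : Module.End 𝒪 Y) (hFa : ∀ t, Commute (a t) F) (hFB : ∀ β, Commute (ρB β) F)
    (t : s59e_adj 𝒪 (s59e_aB a ρB hcomm)) (y : Y) : t • F y = F (t • y) := by
  have h1 : (t : Module.End 𝒪 Y) ∈ Subalgebra.centralizer 𝒪 ({F} : Set (Module.End 𝒪 Y)) := by
    refine s59e_adjB_le a ρB hcomm _ (fun s => ?_) (fun β => ?_) t.2
    · rw [Subalgebra.mem_centralizer_iff]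
      rintro _ rfl
      exact (hFa s).symm
    · rw [Subalgebra.mem_centralizer_iff]
      rintro _ rfl
      exact (hFB β).symm
  rw [Subalgebra.mem_centralizer_iff] at h1
  have h2 : F * (t : Module.End 𝒪 Y) = (t : Module.End 𝒪 Y) * F := h1 F rfl
  show (t : Module.End 𝒪 Y) (F y) = F ((t : Module.End 𝒪 Y) y)
  rw [← Module.End.mul_apply, ← h2, Module.End.mul_apply]

/-- **`hgenT`**: `T` is generated over `T′` by the diamonds. -/
theorem s59e_hgenT :
    letI := s59e_algTT a ρB hcomm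
    Algebra.adjoin (s59e_adj 𝒪 a) (Set.range fun β : B =>
      (s59e_dia (𝒪 := 𝒪) a ρB hcomm β : s59e_adj 𝒪 (s59e_aB a ρB hcomm))) = ⊤ := by
  letI := s59e_algTT a ρB hcomm
  haveI := s59e_towerTT a ρB hcomm
  obtain ⟨S', hS'⟩ : ∃ S' : Subalgebra (s59e_adj 𝒪 a) (s59e_adj 𝒪 (s59e_aB a ρB hcomm)),
      S' = Algebra.adjoin (s59e_adj 𝒪 a) (Set.range fun β : B =>
        (s59e_dia (𝒪 := 𝒪) a ρB hcomm β : s59e_adj 𝒪 (s59e_aB a ρB hcomm))) := ⟨_, rfl⟩
  rw [← hS']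
  have hd : ∀ β : B, s59e_dia (𝒪 := 𝒪) a ρB hcomm β ∈ S' := by
    intro β
    rw [hS']
    exact Algebra.subset_adjoin ⟨β, rfl⟩
  have key : (S'.restrictScalars 𝒪) = ⊤ := by
    refine s59e_adjB_gen a ρB hcomm (fun β : B => β) ?_ _ ?_ ?_ ?_
    · rw [eq_top_iff]
      intro β _
      exact Subgroup.subset_closure ⟨β, rfl⟩
    · intro x
      exact S'.algebraMap_mem x
    · intro β
      exact hd β
    · intro β
      exact hd β⁻¹
  rw [eq_top_iff]
  intro x _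
  have : x ∈ S'.restrictScalars 𝒪 := by rw [key]; exact Algebra.mem_top
  exact this

end Alg

section Fin

variable {𝒪 : Type*} [CommRing 𝒪] [IsNoetherianRing 𝒪] {Y : Type*} [AddCommGroup Y] [Module 𝒪 Y]
  [Module.Free 𝒪 Y] [Module.Finite 𝒪 Y]
  {A : Type*} [CommRing A] (a : A →+* Module.End 𝒪 Y) {B : Type*} [CommGroup B]
  (ρB : B →* Module.End 𝒪 Y) (hcomm : ∀ (t : A) (β : B), Commute (a t) (ρB β))

/-- `T` is a finite `T′`-module. -/
theorem s59e_finiteTT :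
    letI := s59e_algTT a ρB hcomm
    Module.Finite (s59e_adj 𝒪 a) (s59e_adj 𝒪 (s59e_aB a ρB hcomm)) := by
  letI := s59e_algTT a ρB hcomm
  haveI := s59e_towerTT a ρB hcomm
  haveI : Module.Finite 𝒪 (s59e_adj 𝒪 (s59e_aB a ρB hcomm)) := s59e_adj_finite _
  exact Module.Finite.of_restrictScalars_finite 𝒪 _ _

end Fin

section Test

variable {𝒪 : Type} [CommRing 𝒪] [IsLocalRing 𝒪] {Y : Type*} [AddCommGroup Y] [Module 𝒪 Y]
  [Module.Free 𝒪 Y] [Module.Finite 𝒪 Y] [Nontrivial Y]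
  {A : Type*} [CommRing A] (a : A →+* Module.End 𝒪 Y)

/-- **`hT'`**: a local ring of locally scalar endomorphisms is a test algebra. -/
theorem s59e_testAlgebra {T' : Type} [CommRing T'] [IsLocalRing T'] [Algebra 𝒪 T']
    (e : T' ≃ₐ[𝒪] s59e_adj 𝒪 a)
    (hloc : ∀ x ∈ s59e_adj 𝒪 a, ∃ d : 𝒪, s59e_IsLocScalar x d) : IsTestAlgebra 𝒪 T' := by
  haveI : IsLocalRing (s59e_adj 𝒪 a) := s59e_adj_isLocalRing a hloc
  haveI : IsLocalHom (algebraMap 𝒪 (s59e_adj 𝒪 a)) := s59e_adj_isLocalHom a hloc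
  have hlh : IsLocalHom (algebraMap 𝒪 T') := by
    refine ⟨fun u hu => ?_⟩
    have h1 : IsUnit (e (algebraMap 𝒪 T' u)) := hu.map e
    rw [e.commutes] at h1
    exact isUnit_of_map_unit (algebraMap 𝒪 (s59e_adj 𝒪 a)) u h1
  refine ⟨hlh, fun y => ?_⟩
  obtain ⟨t, rfl⟩ := IsLocalRing.residue_surjective y
  obtain ⟨d, hd⟩ := hloc (e t : Module.End 𝒪 Y) (e t).2
  refine ⟨d, ?_⟩
  show residue T' (algebraMap 𝒪 T' d) = residue T' t
  rw [← sub_eq_zero, ← map_sub, IsLocalRing.residue_eq_zero_iff]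
  have h2 := s59e_adj_residue a (e t).2 hd
  have h3 : e (algebraMap 𝒪 T' d - t) ∈ maximalIdeal (s59e_adj 𝒪 a) := by
    rw [map_sub, e.commutes, ← IsLocalRing.residue_eq_zero_iff, map_sub, sub_eq_zero]
    rw [IsLocalRing.ResidueField.map_residue] at h2
    exact h2.symm
  by_contra hne
  have hu : IsUnit (algebraMap 𝒪 T' d - t) := by
    rwa [mem_maximalIdeal, mem_nonunits_iff, not_not] at hne
  exact h3 (hu.map e)

end Test

end Fermat.Agent.Lib.S59
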