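/-
Programme (R) = S59, node (E) module half (helper8), file 67: **descent of a Hecke ring along the
control map** (abstract, Mathlib only).  `π : Y' ↠ Y` linear and surjective, `S ⊆ End Y'` a set of
operators each of which descends along `π` to an element of a subalgebra `R ⊆ End Y`.  Then there
is a (unique) `𝒪`-algebra homomorphism `ψ : 𝒪[S] → R` with `π (t y) = ψ t (π y)`
(`s59t_exists_descent`); it is surjective as soon as `R` is generated by descents of elements of
`S` (`s59t_descent_surjective`).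
-/
import Mathlib

set_option autoImplicit false
set_option linter.unusedSectionVars false
set_option linter.style.haveILetI false

noncomputable section

namespace Fermat.Agent.Lib.S59

section Descent

variable {𝒪 : Type*} [CommRing 𝒪] {Y' Y : Type*} [AddCommGroup Y'] [Module 𝒪 Y']
  [AddCommGroup Y] [Module 𝒪 Y] (π : Y' →ₗ[𝒪] Y) (hπ : Function.Surjective π)
  (S : Set (Module.End 𝒪 Y')) (R : Subalgebra 𝒪 (Module.End 𝒪 Y))

/-- `t̄` is a descent of `t` along `π`. -/
def s59t_IsDescent (t : Module.End 𝒪 Y') (t' : Module.End 𝒪 Y) : Prop :=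
  ∀ y, π (t y) = t' (π y)

include hπ in
theorem s59t_isDescent_unique {t : Module.End 𝒪 Y'} {t₁ t₂ : Module.End 𝒪 Y}
    (h₁ : s59t_IsDescent π t t₁) (h₂ : s59t_IsDescent π t t₂) : t₁ = t₂ := by
  refine LinearMap.ext fun x => ?_
  obtain ⟨y, rfl⟩ := hπ x
  rw [← h₁ y, ← h₂ y]

theorem s59t_isDescent_one : s59t_IsDescent π (1 : Module.End 𝒪 Y') 1 := fun _ => rfl

theorem s59t_isDescent_mul {t u : Module.End 𝒪 Y'} {t' u' : Module.End 𝒪 Y}
    (ht : s59t_IsDescent π t t') (hu : s59t_IsDescent π u u') :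
    s59t_IsDescent π (t * u) (t' * u') := by
  intro y
  rw [Module.End.mul_apply, Module.End.mul_apply, ht, hu]

theorem s59t_isDescent_add {t u : Module.End 𝒪 Y'} {t' u' : Module.End 𝒪 Y}
    (ht : s59t_IsDescent π t t') (hu : s59t_IsDescent π u u') :
    s59t_IsDescent π (t + u) (t' + u') := by
  intro y
  rw [LinearMap.add_apply, LinearMap.add_apply, map_add, ht, hu]

theorem s59t_isDescent_algebraMap (r : 𝒪) :
    s59t_IsDescent π (algebraMap 𝒪 (Module.End 𝒪 Y') r) (algebraMap 𝒪 (Module.End 𝒪 Y) r) := by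
  intro y
  rw [Module.algebraMap_end_apply, Module.algebraMap_end_apply, map_smul]

/-- every element of `𝒪[S]` descends to an element of `R`. -/
theorem s59t_exists_isDescent
    (hS : ∀ s ∈ S, ∃ s' ∈ R, s59t_IsDescent π s s')
    {t : Module.End 𝒪 Y'} (ht : t ∈ Algebra.adjoin 𝒪 S) :
    ∃ t' ∈ R, s59t_IsDescent π t t' := by
  induction ht using Algebra.adjoin_induction with
  | mem x hx => exact hS x hx
  | algebraMap r => exact ⟨_, Subalgebra.algebraMap_mem R r, s59t_isDescent_algebraMap π r⟩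
  | add x y _ _ hx hy =>
    obtain ⟨x', hx', hxx'⟩ := hx
    obtain ⟨y', hy', hyy'⟩ := hy
    exact ⟨x' + y', Subalgebra.add_mem R hx' hy', s59t_isDescent_add π hxx' hyy'⟩
  | mul x y _ _ hx hy =>
    obtain ⟨x', hx', hxx'⟩ := hx
    obtain ⟨y', hy', hyy'⟩ := hy
    exact ⟨x' * y', Subalgebra.mul_mem R hx' hy', s59t_isDescent_mul π hxx' hyy'⟩

include hπ in
/-- **the descent homomorphism `ψ : 𝒪[S] → R`.** -/
theorem s59t_exists_descent (hS : ∀ s ∈ S, ∃ s' ∈ R, s59t_IsDescent π s s') :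
    ∃ ψ : ↥(Algebra.adjoin 𝒪 S) →ₐ[𝒪] ↥R, ∀ (t : ↥(Algebra.adjoin 𝒪 S)),
      s59t_IsDescent π (t : Module.End 𝒪 Y') ((ψ t : ↥R) : Module.End 𝒪 Y) := by
  classical
  have key : ∀ t : ↥(Algebra.adjoin 𝒪 S), ∃ t' : ↥R,
      s59t_IsDescent π (t : Module.End 𝒪 Y') (t' : Module.End 𝒪 Y) := by
    intro t
    obtain ⟨t', ht', h⟩ := s59t_exists_isDescent π S R hS t.2
    exact ⟨⟨t', ht'⟩, h⟩
  choose f hf using key
  have huniq : ∀ (t : ↥(Algebra.adjoin 𝒪 S)) (t' : ↥R),
      s59t_IsDescent π (t : Module.End 𝒪 Y') (t' : Module.End 𝒪 Y) → f t = t' := by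
    intro t t' h
    exact Subtype.ext (s59t_isDescent_unique π hπ (hf t) h)
  refine ⟨{ toFun := f
            map_one' := huniq 1 1 (s59t_isDescent_one π)
            map_mul' := fun t u => huniq (t * u) (f t * f u)
              (s59t_isDescent_mul π (hf t) (hf u))
            map_zero' := huniq 0 0 (fun y => by
              show π ((0 : Module.End 𝒪 Y') y) = (0 : Module.End 𝒪 Y) (π y)
              rw [LinearMap.zero_apply, LinearMap.zero_apply, map_zero])
            map_add' := fun t u => huniq (t + u) (f t + f u)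
              (s59t_isDescent_add π (hf t) (hf u))
            commutes' := fun r => huniq (algebraMap 𝒪 _ r) (algebraMap 𝒪 _ r)
              (s59t_isDescent_algebraMap π r) }, hf⟩

include hπ in
/-- the descent homomorphism is surjective if `R` is generated by descents of elements of `S`. -/
theorem s59t_descent_surjective
    (ψ : ↥(Algebra.adjoin 𝒪 S) →ₐ[𝒪] ↥R)
    (hψ : ∀ (t : ↥(Algebra.adjoin 𝒪 S)),
      s59t_IsDescent π (t : Module.End 𝒪 Y') ((ψ t : ↥R) : Module.End 𝒪 Y))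
    (hR : ∀ r ∈ R, r ∈ Algebra.adjoin 𝒪 {s' : Module.End 𝒪 Y | ∃ s ∈ S, s59t_IsDescent π s s'}) :
    Function.Surjective ψ := by
  have key : ∀ r ∈ Algebra.adjoin 𝒪 {s' : Module.End 𝒪 Y | ∃ s ∈ S, s59t_IsDescent π s s'},
      ∃ t : ↥(Algebra.adjoin 𝒪 S), ((ψ t : ↥R) : Module.End 𝒪 Y) = r := by
    intro r hr
    induction hr using Algebra.adjoin_induction with
    | mem x hx =>
      obtain ⟨s, hs, hsx⟩ := hx
      refine ⟨⟨s, Algebra.subset_adjoin hs⟩, ?_⟩
      exact s59t_isDescent_unique π hπ (hψ ⟨s, Algebra.subset_adjoin hs⟩) hsx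
    | algebraMap r =>
      refine ⟨algebraMap 𝒪 _ r, ?_⟩
      rw [AlgHom.commutes]
      rfl
    | add x y _ _ hx hy =>
      obtain ⟨t, rfl⟩ := hx
      obtain ⟨u, rfl⟩ := hy
      exact ⟨t + u, by rw [map_add]; rfl⟩
    | mul x y _ _ hx hy =>
      obtain ⟨t, rfl⟩ := hx
      obtain ⟨u, rfl⟩ := hy
      exact ⟨t * u, by rw [map_mul]; rfl⟩
  intro r
  obtain ⟨t, ht⟩ := key r.1 (hR r.1 r.2)
  exact ⟨t, Subtype.ext ht⟩

end Descent

end Fermat.Agent.Lib.S59
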