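/-
S59 (helper7, prefix `s59n_`), `T`-side package, item (B3): **THE DESCENT `ψ : T → R'`, abstract half.**

`π : Y' ↠ Y` the control map, `T = 𝒪[aM'(A), ρB(Bq)] ⊆ End_𝒪 Y'` (helper5's `ERing`),
`R' = 𝒪[aM(A₁)] ⊆ End_𝒪 Y`.

* `s59n_hecke_induction` : a property of the values `a t` of a ring homomorphism out of an ANEMIC Hecke algebra
  (`S` contains the primes of the level, so there is no `U`-generator) follows from the property at the `T_ℓ`;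
* `s59n_isDescent_neg`, `s59n_isDescent_intCast` : two closure properties missing in `TDesc`;
* `s59n_descent_abs` : if every `aM' t` descends along `π` to an element of `R'` and every `ρB β` descends to `1`,
  there is `ψ : T →ₐ[𝒪] R'` with `π (t • y) = ψ t • π y`, `ψ (dia β) = 1`, and `ψ (aM' t) = aM s` whenever
  `aM s` is a descent of `aM' t`;
* `s59n_descent_isLocalHom` : `ψ` is local (both rings local, `R'` finite over `𝒪`).
-/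
import Mathlib
import Fermat.Prelude.Def_CuspForm_HeckeAlgebra
import Fermat.Agent.Lib.S59.TDesc
import Fermat.Agent.Lib.S59.ERing2

set_option autoImplicit false
set_option linter.unusedSectionVars false
set_option linter.unusedVariables false
set_option linter.style.haveILetI false

noncomputable section

namespace Fermat.Agent.Lib.S59

open CuspForm IsLocalRing

/-! ### Induction over an anemic Hecke algebra -/

section HeckeInd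

variable {M' : ℕ} [NeZero M'] {k : ℤ} {S : Set ℕ} {E : Type*} [Ring E]

/-- **induction over an anemic Hecke algebra**: `S` contains the primes of the level `M'`, so the Hecke algebra is
generated by the `T_ℓ`, `ℓ ∤ M'`, `ℓ ∉ S`. -/
theorem s59n_hecke_induction (hS : ∀ q : ℕ, q.Prime → q ∣ M' → q ∈ S)
    (a : heckeAlgebra M' k S →+* E) (P : E → Prop)
    (hint : ∀ n : ℤ, P (n : E))
    (hadd : ∀ x y, P x → P y → P (x + y)) (hmul : ∀ x y, P x → P y → P (x * y))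
    (hT : ∀ (ℓ : ℕ) (hℓ : ℓ.Prime) (hℓN : ¬ ℓ ∣ M') (hℓS : ℓ ∉ S),
      P (a (heckeAlgebra.T hℓ hℓN hℓS))) (t : heckeAlgebra M' k S) : P (a t) := by
  obtain ⟨x, hx⟩ := t
  have key : ∀ (x : Module.End ℂ (CuspForm (CongruenceSubgroup.Gamma0 M') k))
      (hx' : x ∈ Algebra.adjoin ℤ (heckeGenerators M' k S)),
      ∀ hx0 : x ∈ heckeAlgebra M' k S, P (a ⟨x, hx0⟩) := by
    intro x hx'
    induction hx' using Algebra.adjoin_induction with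
    | mem z hz =>
      intro hx0
      rcases hz with ⟨ℓ, hℓ, hℓN, hℓS, rfl⟩ | ⟨q, hqN, hq, hqS, rfl⟩
      · exact hT ℓ hℓ hℓN hℓS
      · exact absurd (hS q hq hqN) hqS
    | algebraMap r =>
      intro hx0
      have h1 : (⟨algebraMap ℤ _ r, hx0⟩ : heckeAlgebra M' k S) = ((r : ℤ) : heckeAlgebra M' k S) :=
        Subtype.ext ((eq_intCast _ r).trans (SubringClass.coe_intCast _ r).symm)
      rw [h1, map_intCast]
      exact hint r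
    | add z w hz hw hz' hw' =>
      intro hx0
      have h1 : (⟨z + w, hx0⟩ : heckeAlgebra M' k S) = ⟨z, hz⟩ + ⟨w, hw⟩ := rfl
      rw [h1, map_add]
      exact hadd _ _ (hz' hz) (hw' hw)
    | mul z w hz hw hz' hw' =>
      intro hx0
      have h1 : (⟨z * w, hx0⟩ : heckeAlgebra M' k S) = ⟨z, hz⟩ * ⟨w, hw⟩ := rfl
      rw [h1, map_mul]
      exact hmul _ _ (hz' hz) (hw' hw)
  exact key x hx hx

end HeckeInd

/-! ### Two more closure properties of descents -/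

section Closure

variable {𝒪 : Type*} [CommRing 𝒪] {Y' Y : Type*} [AddCommGroup Y'] [Module 𝒪 Y']
  [AddCommGroup Y] [Module 𝒪 Y] (π : Y' →ₗ[𝒪] Y)

theorem s59n_isDescent_neg {t : Module.End 𝒪 Y'} {t' : Module.End 𝒪 Y}
    (ht : s59t_IsDescent π t t') : s59t_IsDescent π (-t) (-t') := by
  intro y
  rw [LinearMap.neg_apply, LinearMap.neg_apply, map_neg, ht]

theorem s59n_isDescent_intCast (n : ℤ) :
    s59t_IsDescent π ((n : ℤ) : Module.End 𝒪 Y') ((n : ℤ) : Module.End 𝒪 Y) := by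
  have h1 : ((n : ℤ) : Module.End 𝒪 Y') = algebraMap 𝒪 (Module.End 𝒪 Y') (n : 𝒪) := by
    rw [map_intCast]
  have h2 : ((n : ℤ) : Module.End 𝒪 Y) = algebraMap 𝒪 (Module.End 𝒪 Y) (n : 𝒪) := by
    rw [map_intCast]
  rw [h1, h2]
  exact s59t_isDescent_algebraMap π _

end Closure

/-! ### The descent homomorphism -/

section Abs

variable {𝒪 : Type*} [CommRing 𝒪] {Y' Y : Type*} [AddCommGroup Y'] [Module 𝒪 Y']
  [AddCommGroup Y] [Module 𝒪 Y] (π : Y' →ₗ[𝒪] Y) (hπ : Function.Surjective π)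
  {A : Type*} [CommRing A] (aM' : A →+* Module.End 𝒪 Y') {Bq : Type*} [CommGroup Bq]
  (ρB : Bq →* Module.End 𝒪 Y') (hcomm : ∀ (t : A) (β : Bq), Commute (aM' t) (ρB β))
  {A₁ : Type*} [CommRing A₁] (aM : A₁ →+* Module.End 𝒪 Y)

include hπ in
/-- **(B3), abstract form: the descent `ψ : T → R'`.** -/
theorem s59n_descent_abs
    (hA : ∀ t : A, ∃ s' ∈ s59e_adj 𝒪 aM, s59t_IsDescent π (aM' t) s')
    (hB : ∀ (β : Bq) (y : Y'), π (ρB β y) = π y) :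
    ∃ ψ : s59e_adj 𝒪 (s59e_aB aM' ρB hcomm) →ₐ[𝒪] s59e_adj 𝒪 aM,
      (∀ (t : s59e_adj 𝒪 (s59e_aB aM' ρB hcomm)) (y : Y'), π (t • y) = ψ t • π y) ∧
      (∀ β : Bq, ψ (s59e_dia aM' ρB hcomm β) = 1) ∧
      (∀ (t : A) (s : A₁), s59t_IsDescent π (aM' t) (aM s) →
        ψ (s59e_incl aM' ρB hcomm (s59e_adjHom 𝒪 aM' t)) = s59e_adjHom 𝒪 aM s) := by
  classical
  have hS : ∀ s ∈ (Set.range aM' ∪ Set.range ρB : Set (Module.End 𝒪 Y')),
      ∃ s' ∈ s59e_adj 𝒪 aM, s59t_IsDescent π s s' := by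
    rintro _ (⟨t, rfl⟩ | ⟨β, rfl⟩)
    · exact hA t
    · refine ⟨1, Subalgebra.one_mem _, fun y => ?_⟩
      rw [hB β y, Module.End.one_apply]
  have hS' : ∀ s ∈ Set.range (s59e_aB aM' ρB hcomm),
      ∃ s' ∈ s59e_adj 𝒪 aM, s59t_IsDescent π s s' := by
    rintro _ ⟨x, rfl⟩
    refine s59t_exists_isDescent π _ (s59e_adj 𝒪 aM) hS ?_
    rw [← s59e_adjB_eq aM' ρB hcomm]
    exact Algebra.subset_adjoin ⟨x, rfl⟩
  obtain ⟨ψ, hψ⟩ := s59t_exists_descent π hπ _ (s59e_adj 𝒪 aM) hS'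
  have huniq : ∀ (t : s59e_adj 𝒪 (s59e_aB aM' ρB hcomm)) (s : s59e_adj 𝒪 aM),
      s59t_IsDescent π (t : Module.End 𝒪 Y') (s : Module.End 𝒪 Y) → ψ t = s := fun t s h =>
    Subtype.ext (s59t_isDescent_unique π hπ (hψ t) h)
  refine ⟨ψ, fun t y => hψ t y, fun β => ?_, fun t s h => ?_⟩
  · refine huniq _ 1 fun y => ?_
    rw [s59e_dia_coe, hB β y]
    exact (Module.End.one_apply _).symm
  · refine huniq _ _ fun y => ?_
    rw [s59e_incl_coe]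
    exact h y

end Abs

/-! ### The descent homomorphism for Hecke algebras -/

section Hecke

variable {𝒪 : Type*} [CommRing 𝒪] {Y' Y : Type*} [AddCommGroup Y'] [Module 𝒪 Y']
  [AddCommGroup Y] [Module 𝒪 Y] (π : Y' →ₗ[𝒪] Y) (hπ : Function.Surjective π)
  {M' : ℕ} [NeZero M'] {S : Set ℕ} (hS : ∀ q : ℕ, q.Prime → q ∣ M' → q ∈ S)
  {M₀ : ℕ} [NeZero M₀] {S₀ : Set ℕ} (hM₀ : M₀ ∣ M') (hS₀ : S₀ ⊆ S)
  (aM' : heckeAlgebra M' 2 S →+* Module.End 𝒪 Y') {Bq : Type*} [CommGroup Bq]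
  (ρB : Bq →* Module.End 𝒪 Y') (hcomm : ∀ (t : heckeAlgebra M' 2 S) (β : Bq), Commute (aM' t) (ρB β))
  (aM : heckeAlgebra M₀ 2 S₀ →+* Module.End 𝒪 Y)

include hπ hS hM₀ hS₀ in
/-- **(B3), Hecke form**: `aM' (T_ℓ)` descends to `aM (T_ℓ)` for all `ℓ ∤ M'`, `ℓ ∉ S`, and the `ρB β` descend to
`1` ⇒ the descent `ψ : 𝒪[aM'(𝕋), ρB(Bq)] → 𝒪[aM(𝕋₀)]`. -/
theorem s59n_descent_hecke
    (hT : ∀ (ℓ : ℕ) (hℓ : ℓ.Prime) (h1 : ¬ ℓ ∣ M') (h2 : ℓ ∉ S) (h3 : ¬ ℓ ∣ M₀) (h4 : ℓ ∉ S₀)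
      (y : Y'), π (aM' (heckeAlgebra.T hℓ h1 h2) y) = aM (heckeAlgebra.T hℓ h3 h4) (π y))
    (hB : ∀ (β : Bq) (y : Y'), π (ρB β y) = π y) :
    ∃ ψ : s59e_adj 𝒪 (s59e_aB aM' ρB hcomm) →ₐ[𝒪] s59e_adj 𝒪 aM,
      (∀ (t : s59e_adj 𝒪 (s59e_aB aM' ρB hcomm)) (y : Y'), π (t • y) = ψ t • π y) ∧
      (∀ β : Bq, ψ (s59e_dia aM' ρB hcomm β) = 1) ∧
      (∀ (ℓ : ℕ) (hℓ : ℓ.Prime) (h1 : ¬ ℓ ∣ M') (h2 : ℓ ∉ S) (h3 : ¬ ℓ ∣ M₀) (h4 : ℓ ∉ S₀),
        ψ (s59e_incl aM' ρB hcomm (s59e_adjHom 𝒪 aM' (heckeAlgebra.T hℓ h1 h2))) =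
          s59e_adjHom 𝒪 aM (heckeAlgebra.T hℓ h3 h4)) := by
  classical
  have hA : ∀ t : heckeAlgebra M' 2 S, ∃ s' ∈ s59e_adj 𝒪 aM, s59t_IsDescent π (aM' t) s' := by
    intro t
    refine s59n_hecke_induction hS aM'
      (fun x => ∃ s' ∈ s59e_adj 𝒪 aM, s59t_IsDescent π x s') ?_ ?_ ?_ ?_ t
    · intro n
      exact ⟨((n : ℤ) : Module.End 𝒪 Y), intCast_mem _ n, s59n_isDescent_intCast π n⟩
    · rintro x y ⟨x', hx', hxx'⟩ ⟨y', hy', hyy'⟩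
      exact ⟨x' + y', Subalgebra.add_mem _ hx' hy', s59t_isDescent_add π hxx' hyy'⟩
    · rintro x y ⟨x', hx', hxx'⟩ ⟨y', hy', hyy'⟩
      exact ⟨x' * y', Subalgebra.mul_mem _ hx' hy', s59t_isDescent_mul π hxx' hyy'⟩
    · intro ℓ hℓ h1 h2
      have h3 : ¬ ℓ ∣ M₀ := fun h => h1 (dvd_trans h hM₀)
      have h4 : ℓ ∉ S₀ := fun h => h2 (hS₀ h)
      exact ⟨aM (heckeAlgebra.T hℓ h3 h4), Algebra.subset_adjoin ⟨_, rfl⟩,
        fun y => hT ℓ hℓ h1 h2 h3 h4 y⟩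
  obtain ⟨ψ, g1, g2, g3⟩ := s59n_descent_abs π hπ aM' ρB hcomm aM hA hB
  exact ⟨ψ, g1, g2, fun ℓ hℓ h1 h2 h3 h4 => g3 _ _ (fun y => hT ℓ hℓ h1 h2 h3 h4 y)⟩

end Hecke

/-! ### The same for the parts of two idempotents (the form used at concrete levels) -/

section HeckeRange

variable {𝒪 : Type*} [CommRing 𝒪] {Y₀' Y₀ : Type*} [AddCommGroup Y₀'] [Module 𝒪 Y₀']
  [AddCommGroup Y₀] [Module 𝒪 Y₀] (ε' : Module.End 𝒪 Y₀') (ε : Module.End 𝒪 Y₀)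
  (π : LinearMap.range ε' →ₗ[𝒪] LinearMap.range ε) (hπ : Function.Surjective π)
  {M' : ℕ} [NeZero M'] {S : Set ℕ} (hS : ∀ q : ℕ, q.Prime → q ∣ M' → q ∈ S)
  {M₀ : ℕ} [NeZero M₀] {S₀ : Set ℕ} (hM₀ : M₀ ∣ M') (hS₀ : S₀ ⊆ S)
  (aM' : heckeAlgebra M' 2 S →+* Module.End 𝒪 (LinearMap.range ε')) {Bq : Type*} [CommGroup Bq]
  (ρB : Bq →* Module.End 𝒪 (LinearMap.range ε'))
  (hcomm : ∀ (t : heckeAlgebra M' 2 S) (β : Bq), Commute (aM' t) (ρB β))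
  (aM : heckeAlgebra M₀ 2 S₀ →+* Module.End 𝒪 (LinearMap.range ε))

include hπ hS hM₀ hS₀ in
/-- **(B3), Hecke form, on the parts `ε' Y₀'`, `ε Y₀`** (keep `Y₀'`, `Y₀` abstract when applying this). -/
theorem s59n_descent_hecke_range
    (hT : ∀ (ℓ : ℕ) (hℓ : ℓ.Prime) (h1 : ¬ ℓ ∣ M') (h2 : ℓ ∉ S) (h3 : ¬ ℓ ∣ M₀) (h4 : ℓ ∉ S₀)
      (y : LinearMap.range ε'),
      π (aM' (heckeAlgebra.T hℓ h1 h2) y) = aM (heckeAlgebra.T hℓ h3 h4) (π y))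
    (hB : ∀ (β : Bq) (y : LinearMap.range ε'), π (ρB β y) = π y) :
    ∃ ψ : s59e_adj 𝒪 (s59e_aB aM' ρB hcomm) →ₐ[𝒪] s59e_adj 𝒪 aM,
      (∀ (t : s59e_adj 𝒪 (s59e_aB aM' ρB hcomm)) (y : LinearMap.range ε'),
        π (t • y) = ψ t • π y) ∧
      (∀ β : Bq, ψ (s59e_dia aM' ρB hcomm β) = 1) ∧
      (∀ (ℓ : ℕ) (hℓ : ℓ.Prime) (h1 : ¬ ℓ ∣ M') (h2 : ℓ ∉ S) (h3 : ¬ ℓ ∣ M₀) (h4 : ℓ ∉ S₀),
        ψ (s59e_incl aM' ρB hcomm (s59e_adjHom 𝒪 aM' (heckeAlgebra.T hℓ h1 h2))) =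
          s59e_adjHom 𝒪 aM (heckeAlgebra.T hℓ h3 h4)) :=
  s59n_descent_hecke π hπ hS hM₀ hS₀ aM' ρB hcomm aM hT hB

end HeckeRange

/-! ### Locality -/

section Loc

variable {𝒪 : Type} [CommRing 𝒪] [IsLocalRing 𝒪]

/-- an `𝒪`-algebra homomorphism from a local ring to a local ring finite over `𝒪` is local. -/
theorem s59n_descent_isLocalHom (T : Type) [CommRing T] [IsLocalRing T] [Algebra 𝒪 T]
    (R' : Type) [CommRing R'] [IsLocalRing R'] [Algebra 𝒪 R'] [Module.Finite 𝒪 R']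
    (ψ : T →ₐ[𝒪] R') : IsLocalHom (ψ : T →+* R') := by
  letI : Algebra T R' := (ψ : T →+* R').toAlgebra
  haveI : IsScalarTower 𝒪 T R' := IsScalarTower.of_algebraMap_eq fun o => (ψ.commutes o).symm
  haveI : Algebra.IsIntegral 𝒪 R' := Algebra.IsIntegral.of_finite 𝒪 R'
  haveI : Algebra.IsIntegral T R' := Algebra.IsIntegral.tower_top (S := T) (T := R') 𝒪
  have hmax : ((maximalIdeal R').comap (algebraMap T R')).IsMaximal :=
    Ideal.isMaximal_comap_of_isIntegral_of_isMaximal (maximalIdeal R')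
  have heq : (maximalIdeal R').comap (algebraMap T R') = maximalIdeal T :=
    IsLocalRing.eq_maximalIdeal hmax
  refine ⟨fun t ht => ?_⟩
  by_contra hnu
  have h1 : t ∈ maximalIdeal T := (mem_maximalIdeal t).mpr hnu
  rw [← heq, Ideal.mem_comap] at h1
  exact (mem_maximalIdeal _).mp h1 ht

end Loc

end Fermat.Agent.Lib.S59
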