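/-
S59 project, case (P), item [P7] (helper9): **the `p`-new (H3): `R_𝒟 ↠ T'` when the type `𝒟` only holds on the quotient.**

helper5's `s59e_R_to_T'_full` / `s59e_H3_abs` (EHRT.lean, EHTop.lean) ask the type `𝒟` of the Hecke–Galois datum `Hd` over the
FULL local Hecke algebra.  In case (P) the type (strictly ordinary at `p`) only holds for the push-forward of `Hd.ρ` to the
Hecke ring `T' = 𝒪[a_Z]` of a `p`-new module `Z`.  The proof of S54 (`Fermat/Agent/S54/Core.lean`) never uses `exists_point`,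
so it goes through for the pair `(T', Hd.ρ ⊗_Ψ T')`:

* `s59m_R_to_Tnew`  : twin of `s59e_R_to_T'_full`, the type being asked of `Hd.ρ ⊗_Ψ T'` only;
* `s59m_H3newConcl` : the conclusion of the `p`-new (H3) for a module `(Z, aZ)` (twin of `s59e_H3Concl`, no idempotent);
* `s59m_H3new_abs`  : twin of `s59e_H3_abs` for an abstract finite free module `Z` with a ring homomorphism
  `aZ : 𝕋(Γ₀(M'))^S → End_𝒪 Z` all of whose values are locally scalar.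
-/
import Mathlib
import Fermat.Agent.Lib.S59.EHTop
import Fermat.Agent.Lib.S59.NDescPsi
import Fermat.Agent.Lib.S59.BBaseRes

set_option autoImplicit false
set_option linter.unusedSectionVars false
set_option linter.unusedVariables false
set_option linter.style.haveILetI false
set_option synthInstance.maxHeartbeats 400000
set_option maxHeartbeats 1000000

noncomputable section

namespace Fermat.Agent.Lib.S59

open Polynomial CuspForm IsLocalRing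

local notation "Qbar" => AlgebraicClosure ℚ
local notation "GQ" => (AlgebraicClosure ℚ ≃ₐ[ℚ] AlgebraicClosure ℚ)

section RT

variable {p : ℕ} [Fact p.Prime] {N : ℕ} [NeZero N] [Fact (HasIntegralStructure N 2)]
  {S : Finset ℕ}
  {𝒪 : Type} [CommRing 𝒪] [IsDomain 𝒪] [IsDiscreteValuationRing 𝒪]
  [IsAdicComplete (maximalIdeal 𝒪) 𝒪]
  {θ : heckeAlgebra N 2 (↑S : Set ℕ) →+* ResidueField 𝒪}
  {T' : Type} [CommRing T'] [IsLocalRing T'] [IsNoetherianRing T']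
  [IsAdicComplete (maximalIdeal T') T'] [Algebra 𝒪 T'] [IsLocalHom (algebraMap 𝒪 T')]

/-- **`R_𝒟 ↠ T'` when the type holds on the quotient**: `Hd` a Hecke–Galois datum over the full local Hecke algebra,
`a : 𝕋 → T'` a quotient datum; if the push-forward `Hd.ρ ⊗_Ψ T'` is of type `𝒟` and lifts `ρ̄`, the deformation ring `D.R`
surjects onto `T'`, compatibly with the representations and the Frobenius characteristic polynomials. -/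
theorem s59m_R_to_Tnew {ρbar : ResidualGaloisRep (ResidueField 𝒪)}
    {𝒟 : ∀ ⦃A : Type⦄ [CommRing A] [IsLocalRing A] [Algebra 𝒪 A], GaloisRepAdic A → Prop}
    (D : GaloisRep.DeformationRingData 𝒪 ρbar 𝒟)
    (H : HeckeGaloisRepDatum N (↑S : Set ℕ) 𝒪 θ (heckeLocal N (↑S : Set ℕ) 𝒪 θ))
    (hπ : H.π = heckeLocal.π N (↑S : Set ℕ) 𝒪 θ)
    (hNS : ∀ q : ℕ, q.Prime → q ∣ N → q ∈ S)
    (hT'res : Function.Surjective (residue T' ∘ algebraMap 𝒪 T'))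
    (a : heckeAlgebra N 2 (↑S : Set ℕ) →+* T')
    (ha_res : ∀ t, residue T' (a t) = ResidueField.map (algebraMap 𝒪 T') (θ t))
    (ha_gen : Algebra.adjoin 𝒪 (Set.range a) = ⊤)
    (h𝒟 : ∀ (Ψ : heckeLocal N (↑S : Set ℕ) 𝒪 θ →ₐ[𝒪] T')
      (hΨ : IsLocalHom (Ψ : heckeLocal N (↑S : Set ℕ) 𝒪 θ →+* T')), Function.Surjective Ψ →
      (∀ t, Ψ (heckeLocal.π N (↑S : Set ℕ) 𝒪 θ t) = a t) →
      𝒟 (H.ρ.baseChangeAlong (Ψ : heckeLocal N (↑S : Set ℕ) 𝒪 θ →+* T') hΨ))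
    (hres : ∀ (Ψ : heckeLocal N (↑S : Set ℕ) 𝒪 θ →ₐ[𝒪] T')
      (hΨ : IsLocalHom (Ψ : heckeLocal N (↑S : Set ℕ) 𝒪 θ →+* T')), Function.Surjective Ψ →
      (∀ t, Ψ (heckeLocal.π N (↑S : Set ℕ) 𝒪 θ t) = a t) →
      (H.ρ.baseChangeAlong (Ψ : heckeLocal N (↑S : Set ℕ) 𝒪 θ →+* T') hΨ).residual.IsEquiv
        (ρbar.baseChangeAlong (ResidueField.map (algebraMap 𝒪 T')))) :
    ∃ (Ψ : heckeLocal N (↑S : Set ℕ) 𝒪 θ →ₐ[𝒪] T')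
      (hΨ : IsLocalHom (Ψ : heckeLocal N (↑S : Set ℕ) 𝒪 θ →+* T'))
      (φ : D.R →ₐ[𝒪] T') (hφ : IsLocalHom (φ : D.R →+* T')),
      Function.Surjective Ψ ∧ (∀ t, Ψ (heckeLocal.π N (↑S : Set ℕ) 𝒪 θ t) = a t) ∧
      Function.Surjective φ ∧
      (D.ρ.baseChangeAlong (φ : D.R →+* T') hφ).IsEquiv
        (H.ρ.baseChangeAlong (Ψ : heckeLocal N (↑S : Set ℕ) 𝒪 θ →+* T') hΨ) ∧
      ∀ (ℓ : ℕ) (hℓ : ℓ.Prime) (hℓN : ¬ ℓ ∣ N) (hℓS : ℓ ∉ (↑S : Set ℕ))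
        (A : ValuationSubring Qbar), A.LiesOverPrime ℓ → ∀ σ : GQ, A.IsFrobeniusAt σ ℓ →
        LinearMap.charpoly ((H.ρ.baseChangeAlong
          (Ψ : heckeLocal N (↑S : Set ℕ) 𝒪 θ →+* T') hΨ).ρ σ) =
          X ^ 2 - C (a (heckeAlgebra.T hℓ hℓN hℓS)) * X + C ((ℓ : T')) := by
  obtain ⟨Ψ, hΨ, hΨsurj, hΨa, hΨcp⟩ := s59e_push N (↑S : Set ℕ) 𝒪 θ H hπ a ha_res ha_gen
  obtain ⟨φ, ⟨hφ, ⟨e⟩⟩, -⟩ := D.universal T' hT'res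
    (H.ρ.baseChangeAlong (Ψ : heckeLocal N (↑S : Set ℕ) 𝒪 θ →+* T') hΨ)
    (h𝒟 Ψ hΨ hΨsurj hΨa) (hres Ψ hΨ hΨsurj hΨa)
  refine ⟨Ψ, hΨ, φ, hφ, hΨsurj, hΨa, ?_, ⟨e⟩, hΨcp⟩
  -- surjectivity: the traces of Frobenius generate `T'`
  have hrange : ∀ t, a t ∈ φ.range := by
    intro t
    refine s59n_hecke_induction (S := (↑S : Set ℕ)) hNS a (fun x => x ∈ φ.range) ?_ ?_ ?_ ?_ t
    · intro n
      exact ⟨(n : D.R), map_intCast φ n⟩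
    · intro x y hx hy
      exact Subalgebra.add_mem _ hx hy
    · intro x y hx hy
      exact Subalgebra.mul_mem _ hx hy
    · intro ℓ hℓ hℓN hℓS
      obtain ⟨A, σ, hA, hσ⟩ := Fermat.Agent.Lib.Frobenius.exists_isFrobeniusAt ℓ hℓ
      have h1 := hΨcp ℓ hℓ hℓN hℓS A hA σ hσ
      have h2 : LinearMap.charpoly ((H.ρ.baseChangeAlong
          (Ψ : heckeLocal N (↑S : Set ℕ) 𝒪 θ →+* T') hΨ).ρ σ) =
          (LinearMap.charpoly (D.ρ.ρ σ)).map (φ : D.R →+* T') := by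
        rw [Fermat.Agent.S54.charpoly_eq_of_equiv e σ, Fermat.Agent.S54.charpoly_baseChangeAlong]
      have h3 := congrArg (fun P => Polynomial.coeff P 1) (h1.symm.trans h2)
      simp only [Fermat.Agent.S54.coeff_one_quadratic, coeff_map] at h3
      refine ⟨-(LinearMap.charpoly (D.ρ.ρ σ)).coeff 1, ?_⟩
      rw [map_neg]
      have h4 : a (heckeAlgebra.T hℓ hℓN hℓS) =
          -((φ : D.R →+* T') ((LinearMap.charpoly (D.ρ.ρ σ)).coeff 1)) := by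
        rw [← h3, neg_neg]
      exact h4.symm
  intro y
  have hy : y ∈ Algebra.adjoin 𝒪 (Set.range a) := by rw [ha_gen]; exact Algebra.mem_top
  have hle : Algebra.adjoin 𝒪 (Set.range a) ≤ φ.range := by
    refine Algebra.adjoin_le ?_
    rintro _ ⟨t, rfl⟩
    exact hrange t
  obtain ⟨x, hx⟩ := hle hy
  exact ⟨x, hx⟩

end RT

/-! ### The `p`-new (H3), abstract form -/

section Abs

variable {p : ℕ} [Fact p.Prime] (M' : ℕ) [NeZero M'] [Fact (HasIntegralStructure M' 2)]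
  (S : Finset ℕ)
  {𝒪 : Type} [CommRing 𝒪] [IsDomain 𝒪] [IsDiscreteValuationRing 𝒪]
  [IsAdicComplete (maximalIdeal 𝒪) 𝒪] [Finite (ResidueField 𝒪)] [CharZero 𝒪]
  {Z : Type} [AddCommGroup Z] [Module 𝒪 Z] [Module.Free 𝒪 Z] [Module.Finite 𝒪 Z]

/-- **the conclusion of the `p`-new (H3)** for a module `Z` with `aZ : 𝕋(Γ₀(M'))^S → End_𝒪 Z`: the ring `T' = 𝒪[aZ(𝕋)]` is
local, with eigensystem `θ ≡ cT`; the Hecke–Galois datum `Hd` over the full local Hecke algebra, `Ψ : 𝕋_𝔪 ↠ T'`,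
`φ : D.R ↠ T'`, the comparison of the two representations over `T'` and the Frobenius characteristic polynomials. -/
def s59m_H3newConcl (aZ : heckeAlgebra M' 2 (↑S : Set ℕ) →+* Module.End 𝒪 Z)
    (cT : ℕ → 𝒪) (ρbar : ResidualGaloisRep (ResidueField 𝒪))
    {𝒟 : ∀ ⦃A : Type⦄ [CommRing A] [IsLocalRing A] [Algebra 𝒪 A], GaloisRepAdic A → Prop}
    (D : GaloisRep.DeformationRingData 𝒪 ρbar 𝒟) : Prop :=
    ∃ (_ : IsLocalRing (s59e_adj 𝒪 aZ)) (_ : IsLocalHom (algebraMap 𝒪 (s59e_adj 𝒪 aZ)))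
      (θ : heckeAlgebra M' 2 (↑S : Set ℕ) →+* ResidueField 𝒪)
      (Hd : HeckeGaloisRepDatum M' (↑S : Set ℕ) 𝒪 θ (heckeLocal M' (↑S : Set ℕ) 𝒪 θ))
      (Ψ : heckeLocal M' (↑S : Set ℕ) 𝒪 θ →ₐ[𝒪] s59e_adj 𝒪 aZ)
      (hΨ : IsLocalHom (Ψ : heckeLocal M' (↑S : Set ℕ) 𝒪 θ →+* s59e_adj 𝒪 aZ))
      (φ : D.R →ₐ[𝒪] s59e_adj 𝒪 aZ) (hφ : IsLocalHom (φ : D.R →+* s59e_adj 𝒪 aZ)),
      Hd.π = heckeLocal.π M' (↑S : Set ℕ) 𝒪 θ ∧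
      (∀ t, residue (s59e_adj 𝒪 aZ) (s59e_adjHom 𝒪 aZ t) =
        ResidueField.map (algebraMap 𝒪 (s59e_adj 𝒪 aZ)) (θ t)) ∧
      (∀ (ℓ : ℕ) (hℓ : ℓ.Prime) (hℓN : ¬ ℓ ∣ M') (hℓS : ℓ ∉ (↑S : Set ℕ)),
        θ (heckeAlgebra.T hℓ hℓN hℓS) = residue 𝒪 (cT ℓ)) ∧
      Function.Surjective Ψ ∧
      (∀ t, Ψ (heckeLocal.π M' (↑S : Set ℕ) 𝒪 θ t) = s59e_adjHom 𝒪 aZ t) ∧
      Function.Surjective φ ∧
      (D.ρ.baseChangeAlong (φ : D.R →+* s59e_adj 𝒪 aZ) hφ).IsEquiv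
        (Hd.ρ.baseChangeAlong (Ψ : heckeLocal M' (↑S : Set ℕ) 𝒪 θ →+* s59e_adj 𝒪 aZ) hΨ) ∧
      ∀ (ℓ : ℕ) (hℓ : ℓ.Prime) (hℓN : ¬ ℓ ∣ M') (hℓS : ℓ ∉ (↑S : Set ℕ))
        (A : ValuationSubring Qbar), A.LiesOverPrime ℓ → ∀ σ : GQ, A.IsFrobeniusAt σ ℓ →
        LinearMap.charpoly ((D.ρ.baseChangeAlong (φ : D.R →+* s59e_adj 𝒪 aZ) hφ).ρ σ) =
          X ^ 2 - C (s59e_adjHom 𝒪 aZ (heckeAlgebra.T hℓ hℓN hℓS)) * X +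
            C ((ℓ : s59e_adj 𝒪 aZ))

/-- **the `p`-new (H3), abstract form.**  `Z ≠ 0` finite free, `aZ : 𝕋(Γ₀(M'))^S → End_𝒪 Z` with locally scalar values
(`aZ (T_ℓ) ≡ cT ℓ`), `ρ̄` absolutely irreducible with Frobenius eigensystem `cT mod 𝔪`; `D` a deformation ring of a type `𝒟`
which is satisfied by the push-forward to `T' = 𝒪[aZ(𝕋)]` of every Hecke–Galois datum over the full local Hecke algebra lifting
`ρ̄`.  Then `D.R ↠ T'`. -/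
theorem s59m_H3new_abs [Nontrivial Z] (hp2 : p ≠ 2) (hp𝒪 : (p : 𝒪) ∈ maximalIdeal 𝒪) (hpS : p ∈ S)
    (hS : ∀ q : ℕ, q.Prime → q ∣ M' → q ∈ S)
    (aZ : heckeAlgebra M' 2 (↑S : Set ℕ) →+* Module.End 𝒪 Z)
    (hloc : ∀ x ∈ s59e_adj 𝒪 aZ, ∃ d : 𝒪, s59e_IsLocScalar x d)
    (cT : ℕ → 𝒪)
    (hTloc : ∀ (ℓ : ℕ) (hℓ : ℓ.Prime) (hℓN : ¬ ℓ ∣ M') (hℓS : ℓ ∉ (↑S : Set ℕ)),
      s59e_IsLocScalar (aZ (heckeAlgebra.T hℓ hℓN hℓS)) (cT ℓ))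
    (ρbar : ResidualGaloisRep (ResidueField 𝒪))
    (hEig : ∀ (ℓ : ℕ) (_ : ℓ.Prime) (_ : ¬ ℓ ∣ M') (_ : ℓ ∉ S),
      ∀ A : ValuationSubring Qbar, A.LiesOverPrime ℓ → ∀ σ : GQ, A.IsFrobeniusAt σ ℓ →
        LinearMap.charpoly (ρbar.ρ σ) = X ^ 2 - C (residue 𝒪 (cT ℓ)) * X +
          C ((ℓ : ResidueField 𝒪)))
    {𝒟 : ∀ ⦃A : Type⦄ [CommRing A] [IsLocalRing A] [Algebra 𝒪 A], GaloisRepAdic A → Prop}
    (D : GaloisRep.DeformationRingData 𝒪 ρbar 𝒟)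
    (h𝒟 : ∀ [IsLocalRing (s59e_adj 𝒪 aZ)]
      (θ : heckeAlgebra M' 2 (↑S : Set ℕ) →+* ResidueField 𝒪)
      (Hd : HeckeGaloisRepDatum M' (↑S : Set ℕ) 𝒪 θ (heckeLocal M' (↑S : Set ℕ) 𝒪 θ))
      (Ψ : heckeLocal M' (↑S : Set ℕ) 𝒪 θ →ₐ[𝒪] s59e_adj 𝒪 aZ)
      (hΨ : IsLocalHom (Ψ : heckeLocal M' (↑S : Set ℕ) 𝒪 θ →+* s59e_adj 𝒪 aZ)),
      Hd.π = heckeLocal.π M' (↑S : Set ℕ) 𝒪 θ →
      Hd.ρ.residual.IsEquiv (ρbar.baseChangeAlong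
        (ResidueField.map (algebraMap 𝒪 (heckeLocal M' (↑S : Set ℕ) 𝒪 θ)))) →
      Function.Surjective Ψ →
      (∀ t, Ψ (heckeLocal.π M' (↑S : Set ℕ) 𝒪 θ t) = s59e_adjHom 𝒪 aZ t) →
      𝒟 (Hd.ρ.baseChangeAlong (Ψ : heckeLocal M' (↑S : Set ℕ) 𝒪 θ →+* s59e_adj 𝒪 aZ) hΨ)) :
    s59m_H3newConcl M' S aZ cT ρbar D := by
  classical
  unfold s59m_H3newConcl
  have hlr : IsLocalRing (s59e_adj 𝒪 aZ) := s59e_adj_isLocalRing aZ hloc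
  have hlh : IsLocalHom (algebraMap 𝒪 (s59e_adj 𝒪 aZ)) := s59e_adj_isLocalHom aZ hloc
  haveI := hlr
  haveI := hlh
  -- the eigensystem
  obtain ⟨θ, hθres, hθc⟩ := s59e_adj_theta aZ hloc
  have hθT : ∀ (ℓ : ℕ) (hℓ : ℓ.Prime) (hℓN : ¬ ℓ ∣ M') (hℓS : ℓ ∉ (↑S : Set ℕ)),
      θ (heckeAlgebra.T hℓ hℓN hℓS) = residue 𝒪 (cT ℓ) := fun ℓ hℓ hℓN hℓS =>
    hθc _ _ (hTloc ℓ hℓ hℓN hℓS)
  have hEigθ : ∀ (ℓ : ℕ) (hℓ : ℓ.Prime) (hℓN : ¬ ℓ ∣ M') (hℓS : ℓ ∉ (↑S : Set ℕ)),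
      ∀ A : ValuationSubring Qbar, A.LiesOverPrime ℓ → ∀ σ : GQ, A.IsFrobeniusAt σ ℓ →
        LinearMap.charpoly (ρbar.ρ σ) =
          X ^ 2 - C (θ (heckeAlgebra.T hℓ hℓN hℓS)) * X + C ((ℓ : ResidueField 𝒪)) := by
    intro ℓ hℓ hℓN hℓS A hA σ hσ
    rw [hθT]
    exact hEig ℓ hℓ hℓN (fun h => hℓS (Finset.mem_coe.mpr h)) A hA σ hσ
  -- the Hecke–Galois datum over the full local Hecke algebra
  obtain ⟨Hd, hπ⟩ := s59q_H0_pi p M' S 𝒪 θ hp2 hpS hS hp𝒪 ρbar D.absIrr hEigθ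
  have hresH := s59e_hecke_hres Hd hp2 hp𝒪 hS ρbar hEigθ
  -- the ring `T'`
  haveI : IsNoetherianRing (s59e_adj 𝒪 aZ) := s59e_adj_noeth aZ
  haveI : IsAdicComplete (maximalIdeal (s59e_adj 𝒪 aZ)) (s59e_adj 𝒪 aZ) := s59e_adj_complete aZ
  have hT' : Fermat.Agent.Lib.Deform.IsTestAlgebra 𝒪 (s59e_adj 𝒪 aZ) :=
    s59e_testAlgebra aZ AlgEquiv.refl hloc
  have hpT' : ((p : ℕ) : s59e_adj 𝒪 aZ) ∈ maximalIdeal (s59e_adj 𝒪 aZ) := by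
    have := map_nonunit (algebraMap 𝒪 (s59e_adj 𝒪 aZ)) ((p : ℕ) : 𝒪) hp𝒪
    rwa [map_natCast] at this
  -- the congruences of the generators
  have hcong : ∀ (ℓ : ℕ) (hℓ : ℓ.Prime) (hℓN : ¬ ℓ ∣ M') (hℓS : ℓ ∉ (↑S : Set ℕ)),
      s59e_adjHom 𝒪 aZ (heckeAlgebra.T hℓ hℓN hℓS) -
        algebraMap 𝒪 (s59e_adj 𝒪 aZ) (cT ℓ) ∈ maximalIdeal (s59e_adj 𝒪 aZ) := by
    intro ℓ hℓ hℓN hℓS
    rw [← IsLocalRing.residue_eq_zero_iff, map_sub, hθres, hθT ℓ hℓ hℓN hℓS,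
      IsLocalRing.ResidueField.map_residue, sub_self]
  have hfull := s59m_R_to_Tnew D Hd hπ hS hT'.residue_surjective (s59e_adjHom 𝒪 aZ) hθres
    (s59e_adjHom_gen 𝒪 aZ)
    (fun Ψ hΨ hΨs hΨa => h𝒟 θ Hd Ψ hΨ hπ hresH hΨs hΨa)
    (fun Ψ hΨ hΨs hΨa => by
      -- Brauer–Nesbitt for the push-forward
      classical
      let tZ : ℕ → s59e_adj 𝒪 aZ := fun ℓ =>
        if h : ℓ.Prime ∧ ¬ ℓ ∣ M' ∧ ℓ ∉ (↑S : Set ℕ) then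
          s59e_adjHom 𝒪 aZ (heckeAlgebra.T h.1 h.2.1 h.2.2) else 0
      have htZ : ∀ (ℓ : ℕ) (hℓ : ℓ.Prime) (hℓN : ¬ ℓ ∣ M') (hℓS : ℓ ∉ (↑S : Set ℕ)),
          tZ ℓ = s59e_adjHom 𝒪 aZ (heckeAlgebra.T hℓ hℓN hℓS) := by
        intro ℓ hℓ hℓN hℓS
        show (if h : ℓ.Prime ∧ ¬ ℓ ∣ M' ∧ ℓ ∉ (↑S : Set ℕ) then _ else _) = _
        rw [dif_pos ⟨hℓ, hℓN, hℓS⟩]
      refine s59b_hres_of_frob p hp2 hpT' _
        (s59e_bc_absIrr (Ψ : heckeLocal M' (↑S : Set ℕ) 𝒪 θ →+* s59e_adj 𝒪 aZ) hΨ Hd.ρ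
          Hd.residual_absIrr) S tZ cT ?_ ?_ ρbar ?_
      · intro ℓ hℓ hℓS P hP σ hσ
        have hℓN : ¬ ℓ ∣ M' := fun h => hℓS (hS ℓ hℓ h)
        have hℓS' : ℓ ∉ (↑S : Set ℕ) := fun h => hℓS (Finset.mem_coe.mp h)
        rw [htZ ℓ hℓ hℓN hℓS', s59e_bc_charpoly,
          Hd.charpoly_frob ℓ hℓ hℓN hℓS' P hP σ hσ, hπ]
        simp only [Polynomial.map_add, Polynomial.map_sub, Polynomial.map_mul, Polynomial.map_pow,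
          Polynomial.map_X, Polynomial.map_C, RingHom.coe_coe, map_natCast,
          Polynomial.map_natCast, hΨa]
      · intro ℓ hℓ hℓS
        have hℓN : ¬ ℓ ∣ M' := fun h => hℓS (hS ℓ hℓ h)
        have hℓS' : ℓ ∉ (↑S : Set ℕ) := fun h => hℓS (Finset.mem_coe.mp h)
        rw [htZ ℓ hℓ hℓN hℓS']
        exact hcong ℓ hℓ hℓN hℓS'
      · intro ℓ hℓ hℓS P hP σ hσ
        have hℓN : ¬ ℓ ∣ M' := fun h => hℓS (hS ℓ hℓ h)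
        exact hEig ℓ hℓ hℓN hℓS P hP σ hσ)
  obtain ⟨Ψ, hΨ, φ, hφ, hΨs, hΨa, hφs, hequiv, hcp⟩ := hfull
  exact ⟨hlr, hlh, θ, Hd, Ψ, hΨ, φ, hφ, hπ, hθres, hθT, hΨs, hΨa, hφs, hequiv,
    fun ℓ hℓ hℓN hℓS A hA σ hσ =>
      (s59e_charpoly_of_isEquiv hequiv σ).symm.trans (hcp ℓ hℓ hℓN hℓS A hA σ hσ)⟩

end Abs

end Fermat.Agent.Lib.S59

end
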