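/-
Programme (R), node (EV) (helper2, prefix `s59b_`): **eigenvectors at characteristic-zero points.**

Mathlib only.  `R` a commutative ring, `T` a commutative `R`-algebra, finite as an `R`-module, acting
faithfully on a finitely presented `R`-module `M` (`act : T →ₐ[R] End_R M` injective); `B` a
noetherian domain, flat over `R`; `x : T →ₐ[R] B`.  Then there is `v ≠ 0` in `B ⊗_R M` with
`(act t ⊗ B) v = x t • v` for all `t`.

Proof: `A' := B ⊗_R T` is a finite `B`-algebra acting faithfully on `N := B ⊗_R M` (flatness + base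
change of `Hom` for finitely presented modules); `x' : A' → B`, `b ⊗ t ↦ b x(t)`; its kernel is a
minimal prime of `A'` (incomparability, `B` a domain), hence an associated prime of `N`
(`minimalPrimes_annihilator_subset_associatedPrimes`): `ker x' = Ann v`.

* `s59b_exists_killed_of_minimal` : the associated-prime step;
* `s59b_ker_mem_minimalPrimes` : the kernel of a section `A' →ₐ[B] B` of an integral algebra over a
  domain is a minimal prime;
* `s59b_tensorProductEnd_injective` : `B ⊗ End_R M → End_B (B ⊗ M)` is injective (`B` flat, `M` f.p.);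
* **`s59b_EV_fp`** : the eigenvector (`M` finitely presented); **`s59b_EV`** : the same for `R` noetherian
  and `M` finite; `s59b_EV_sub` : the same for a commutative subalgebra of `End_R M`.
-/
import Mathlib

set_option autoImplicit false
set_option linter.style.haveILetI false
set_option linter.unusedSectionVars false

noncomputable section

namespace Fermat.Agent.Lib.S59

open TensorProduct

section Core

/-- **the associated-prime step**: a finite faithful module over a noetherian ring contains, for
every minimal prime `𝔭`, a non-zero vector killed by `𝔭`. -/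
theorem s59b_exists_killed_of_minimal {A : Type*} [CommRing A] [IsNoetherianRing A]
    {N : Type*} [AddCommGroup N] [Module A N] [Module.Finite A N]
    (hfaith : ∀ a : A, (∀ n : N, a • n = 0) → a = 0) (𝔭 : Ideal A) (h𝔭 : 𝔭 ∈ minimalPrimes A) :
    ∃ v : N, v ≠ 0 ∧ ∀ a ∈ 𝔭, a • v = 0 := by
  have hann : Module.annihilator A N = ⊥ := by
    rw [eq_bot_iff]
    intro a ha
    rw [Ideal.mem_bot]
    exact hfaith a fun n => Module.mem_annihilator.mp ha n
  have h1 : 𝔭 ∈ (Module.annihilator A N).minimalPrimes := by
    rw [hann]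
    exact h𝔭
  have h2 : IsAssociatedPrime 𝔭 N :=
    Module.associatedPrimes.minimalPrimes_annihilator_subset_associatedPrimes A N h1
  obtain ⟨hprime, v, hv⟩ := isAssociatedPrime_iff.mp h2
  refine ⟨v, ?_, ?_⟩
  · rintro rfl
    apply hprime.ne_top
    rw [hv, eq_top_iff]
    intro a _
    rw [Submodule.mem_colon_singleton, smul_zero]
    exact Submodule.zero_mem _
  · intro a ha
    rw [hv, Submodule.mem_colon_singleton, Submodule.mem_bot] at ha
    exact ha

/-- the kernel of a `B`-algebra section `A →ₐ[B] B` of an integral algebra over a domain `B` is a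
minimal prime of `A`. -/
theorem s59b_ker_mem_minimalPrimes {B A : Type*} [CommRing B] [IsDomain B] [CommRing A]
    [Algebra B A] [Algebra.IsIntegral B A] (y : A →ₐ[B] B) :
    RingHom.ker (y : A →+* B) ∈ minimalPrimes A := by
  haveI hprime : (RingHom.ker (y : A →+* B)).IsPrime := RingHom.ker_isPrime _
  refine ⟨⟨hprime, bot_le⟩, ?_⟩
  rintro 𝔮 ⟨h𝔮, -⟩ hle
  by_contra hnot
  obtain ⟨a, ha, hna⟩ := Set.not_subset.mp hnot
  haveI := h𝔮
  have hlt := Ideal.comap_lt_comap_of_integral_mem_sdiff (R := B) hle ⟨ha, hna⟩
    (Algebra.IsIntegral.isIntegral a)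
  have hbot : (RingHom.ker (y : A →+* B)).comap (algebraMap B A) = ⊥ := by
    rw [eq_bot_iff]
    intro b hb
    rw [Ideal.mem_comap, RingHom.mem_ker] at hb
    have : y (algebraMap B A b) = b := by rw [AlgHom.commutes]; rfl
    rw [Ideal.mem_bot, ← this]
    exact hb
  rw [hbot] at hlt
  exact not_lt_bot hlt

end Core

section BaseChange

variable (R : Type*) [CommRing R] (M : Type*) [AddCommGroup M] [Module R M]
  [Module.FinitePresentation R M] (B : Type*) [CommRing B] [Algebra R B] [Module.Flat R B]

/-- `B ⊗ End_R M → End_B (B ⊗ M)` is injective for `B` flat and `M` finitely presented. -/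
theorem s59b_tensorProductEnd_injective :
    Function.Injective (LinearMap.tensorProductEnd R B M) := by
  have hbc := Module.FinitePresentation.isBaseChange_map R M M B
  have heq : ∀ z : B ⊗[R] (Module.End R M),
      LinearMap.tensorProductEnd R B M z = hbc.equiv z := by
    intro z
    induction z using TensorProduct.induction_on with
    | zero => rw [map_zero, map_zero]
    | tmul b f =>
      rw [IsBaseChange.equiv_tmul]
      rfl
    | add z w hz hw => rw [map_add, map_add, hz, hw]
  intro z w hzw
  rw [heq, heq] at hzw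
  exact hbc.equiv.injective hzw

end BaseChange

section EV

variable {R : Type*} [CommRing R] {T : Type*} [CommRing T] [Algebra R T] [Module.Finite R T]
  {M : Type*} [AddCommGroup M] [Module R M] [Module.Finite R M] [Module.FinitePresentation R M]
  {B : Type*} [CommRing B] [IsDomain B] [IsNoetherianRing B] [Algebra R B] [Module.Flat R B]

/-- **(EV): eigenvectors at points.**  `T` finite over `R`, acting faithfully on the finitely
presented `R`-module `M`; `B` a noetherian domain flat over `R`; `x : T →ₐ[R] B`.  Then `B ⊗_R M`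
contains a non-zero `x`-eigenvector. -/
theorem s59b_EV_fp (act : T →ₐ[R] Module.End R M) (hact : Function.Injective act) (x : T →ₐ[R] B) :
    ∃ v : B ⊗[R] M, v ≠ 0 ∧ ∀ t : T, (act t).baseChange B v = x t • v := by
  -- the finite `B`-algebra `A' = B ⊗ T`
  haveI : Module.Finite B (B ⊗[R] T) := Module.Finite.base_change R B T
  haveI : Module.Finite B (B ⊗[R] M) := Module.Finite.base_change R B M
  haveI : IsNoetherianRing (B ⊗[R] T) := Algebra.FiniteType.isNoetherianRing B (B ⊗[R] T)
  haveI : Algebra.IsIntegral B (B ⊗[R] T) := Algebra.IsIntegral.of_finite B (B ⊗[R] T)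
  -- the point
  let x' : B ⊗[R] T →ₐ[B] B :=
    Algebra.TensorProduct.lift (AlgHom.id B B) x (fun _ _ => Commute.all _ _)
  -- the action
  let act' : B ⊗[R] T →ₐ[B] Module.End B (B ⊗[R] M) :=
    (LinearMap.tensorProductEnd R B M).comp (Algebra.TensorProduct.map (AlgHom.id B B) act)
  have hact' : Function.Injective act' := by
    have h1 : Function.Injective (Algebra.TensorProduct.map (AlgHom.id B B) act) := by
      have h2 := Module.Flat.lTensor_preserves_injective_linearMap (M := B) act.toLinearMap hact
      intro z w hzw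
      apply h2
      have e : ∀ u : B ⊗[R] T, (act.toLinearMap.lTensor B) u =
          Algebra.TensorProduct.map (AlgHom.id B B) act u := by
        intro u
        induction u using TensorProduct.induction_on with
        | zero => rw [map_zero, map_zero]
        | tmul b t => rfl
        | add u u' hu hu' => rw [map_add, map_add, hu, hu']
      rw [e, e]
      exact hzw
    exact (s59b_tensorProductEnd_injective R M B).comp h1
  have hact'_tmul : ∀ (b : B) (t : T) (v : B ⊗[R] M),
      act' (b ⊗ₜ[R] t) v = b • (act t).baseChange B v := fun b t v => rfl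
  -- `N = B ⊗ M` as a module over `A'`
  letI : Module (B ⊗[R] T) (B ⊗[R] M) := Module.compHom (B ⊗[R] M) act'.toRingHom
  have hsmul : ∀ (a : B ⊗[R] T) (n : B ⊗[R] M), a • n = act' a n := fun _ _ => rfl
  haveI : IsScalarTower B (B ⊗[R] T) (B ⊗[R] M) := by
    refine IsScalarTower.of_algebraMap_smul fun b n => ?_
    rw [hsmul, AlgHom.commutes]
    rfl
  haveI : Module.Finite (B ⊗[R] T) (B ⊗[R] M) :=
    Module.Finite.of_restrictScalars_finite B (B ⊗[R] T) (B ⊗[R] M)
  have hfaith : ∀ a : B ⊗[R] T, (∀ n : B ⊗[R] M, a • n = 0) → a = 0 := by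
    intro a ha
    apply hact'
    rw [map_zero]
    exact LinearMap.ext fun n => ha n
  obtain ⟨v, hv0, hv⟩ := s59b_exists_killed_of_minimal hfaith _ (s59b_ker_mem_minimalPrimes x')
  refine ⟨v, hv0, fun t => ?_⟩
  have hmem : ((1 : B) ⊗ₜ[R] t - x t ⊗ₜ[R] (1 : T) : B ⊗[R] T) ∈ RingHom.ker (x' : B ⊗[R] T →+* B) := by
    rw [RingHom.mem_ker]
    show x' ((1 : B) ⊗ₜ[R] t - x t ⊗ₜ[R] (1 : T)) = 0
    rw [map_sub, Algebra.TensorProduct.lift_tmul, Algebra.TensorProduct.lift_tmul, map_one, map_one,
      mul_one, AlgHom.id_apply, one_mul, sub_self]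
  have h1 := hv _ hmem
  rw [hsmul, map_sub, LinearMap.sub_apply, hact'_tmul, hact'_tmul, one_smul, map_one,
    LinearMap.baseChange_one, Module.End.one_apply, sub_eq_zero] at h1
  exact h1

end EV

section EVNoeth

variable {R : Type*} [CommRing R] [IsNoetherianRing R] {T : Type*} [CommRing T] [Algebra R T]
  [Module.Finite R T] {M : Type*} [AddCommGroup M] [Module R M] [Module.Finite R M]
  {B : Type*} [CommRing B] [IsDomain B] [IsNoetherianRing B] [Algebra R B] [Module.Flat R B]

/-- **(EV), noetherian base** (`R` noetherian, `M` finite): the form for the consumers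
(`R = 𝒪`, `ℤ_[p]` or `ℤ`). -/
theorem s59b_EV (act : T →ₐ[R] Module.End R M) (hact : Function.Injective act) (x : T →ₐ[R] B) :
    ∃ v : B ⊗[R] M, v ≠ 0 ∧ ∀ t : T, (act t).baseChange B v = x t • v := by
  haveI : Module.FinitePresentation R M := Module.finitePresentation_of_finite R M
  exact s59b_EV_fp act hact x

/-- **(EV) for a commutative subalgebra of `End_R M`.** -/
theorem s59b_EV_sub (𝕋 : Subalgebra R (Module.End R M)) [Module.Finite R 𝕋]
    (hcomm : ∀ a b : 𝕋, a * b = b * a) (x : 𝕋 →ₐ[R] B) :
    ∃ v : B ⊗[R] M, v ≠ 0 ∧ ∀ t : 𝕋, (t : Module.End R M).baseChange B v = x t • v := by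
  letI : CommRing 𝕋 := { (inferInstance : Ring 𝕋) with mul_comm := hcomm }
  exact s59b_EV (T := 𝕋) 𝕋.val Subtype.val_injective x

end EVNoeth

end Fermat.Agent.Lib.S59
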