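/-
S59 (helper5, prefix `s59e_`), node [PTS]: **DVR-valued points of finite flat algebras.**

* `s59e_isLocalRing_of_finite_domain`, `s59e_isAdicComplete_of_finite_domain` : a DOMAIN finite over a
  complete noetherian local ring is local and complete (from the Prelude decomposition theorem
  `Algebra.finite_maximalSpectrum_and_bijective_localization_of_module_finite`);
* `s59e_exists_dvr_point` : `𝒪` a complete DVR of characteristic `0` with finite residue field, `D` a
  domain, finite and torsion-free over `𝒪` ⇒ there is a complete DVR `𝒪'`, finite over `𝒪`, of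
  characteristic `0` with finite residue field and an injective `𝒪`-algebra map `D → 𝒪'`
  (`𝒪'` = the integral closure of `𝒪` in `Frac D`);
* `s59e_exists_dvr_point_of_minimalPrime` : the same for `T/𝔭`, `𝔭` a minimal prime of a finite
  `𝒪`-torsion-free algebra `T`: a point `x : T →ₐ[𝒪] 𝒪'` with `ker x = 𝔭`.
-/
import Mathlib
import Fermat.Prelude.Thm_Algebra_finite_maximalSpectrum_and_bijective_localization_of_module_finite

set_option autoImplicit false
set_option linter.unusedSectionVars false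
set_option linter.unusedVariables false
set_option linter.style.haveILetI false

noncomputable section

namespace Fermat.Agent.Lib.S59

open IsLocalRing

section Local

variable {𝒪 : Type} [CommRing 𝒪] [IsLocalRing 𝒪] [IsNoetherianRing 𝒪]
  [IsAdicComplete (maximalIdeal 𝒪) 𝒪]

/-- a domain finite over a complete noetherian local ring is local. -/
theorem s59e_isLocalRing_of_finite_domain (B : Type) [CommRing B] [IsDomain B] [Algebra 𝒪 B]
    [Module.Finite 𝒪 B] : IsLocalRing B := by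
  classical
  obtain ⟨-, hbij, -, -⟩ :=
    Algebra.finite_maximalSpectrum_and_bijective_localization_of_module_finite (𝒪 := 𝒪) B
  refine IsLocalRing.of_unique_max_ideal ?_
  obtain ⟨I, hI⟩ := Ideal.exists_maximal B
  refine ⟨I, hI, fun J hJ => ?_⟩
  by_contra hne
  set P₁ : MaximalSpectrum B := ⟨I, hI⟩
  set P₂ : MaximalSpectrum B := ⟨J, hJ⟩
  have hP : P₂ ≠ P₁ := fun h => hne (congrArg MaximalSpectrum.asIdeal h)
  obtain ⟨b₁, hb₁⟩ := hbij.2 (Pi.single P₁ 1)
  obtain ⟨b₂, hb₂⟩ := hbij.2 (Pi.single P₂ 1)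
  have h0 : b₁ * b₂ = 0 := by
    apply hbij.1
    rw [map_mul, hb₁, hb₂, map_zero]
    funext Q
    rw [Pi.mul_apply, Pi.zero_apply]
    by_cases hQ : Q = P₁
    · subst hQ
      rw [Pi.single_eq_of_ne (Ne.symm hP), mul_zero]
    · rw [Pi.single_eq_of_ne hQ, zero_mul]
  rcases mul_eq_zero.mp h0 with h | h
  · rw [h, map_zero] at hb₁
    have := congrFun hb₁ P₁
    rw [Pi.zero_apply, Pi.single_eq_same] at this
    exact zero_ne_one this
  · rw [h, map_zero] at hb₂
    have := congrFun hb₂ P₂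
    rw [Pi.zero_apply, Pi.single_eq_same] at this
    exact zero_ne_one this

/-- a local ring finite over a complete noetherian local ring is complete. -/
theorem s59e_isAdicComplete_of_finite_local (B : Type) [CommRing B] [IsLocalRing B] [Algebra 𝒪 B]
    [Module.Finite 𝒪 B] : IsAdicComplete (maximalIdeal B) B := by
  classical
  obtain ⟨-, -, -, hcomp⟩ :=
    Algebra.finite_maximalSpectrum_and_bijective_localization_of_module_finite (𝒪 := 𝒪) B
  set P : MaximalSpectrum B := ⟨maximalIdeal B, maximalIdeal.isMaximal B⟩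
  have h1 := hcomp P
  have hu : (maximalIdeal B).primeCompl ≤ IsUnit.submonoid B := by
    intro x hx
    exact (IsLocalRing.notMem_maximalIdeal.mp hx)
  set e : B ≃ₐ[B] Localization.AtPrime (maximalIdeal B) :=
    IsLocalization.atUnits B (maximalIdeal B).primeCompl hu
  have h2 : (maximalIdeal B).map (e : B ≃+* Localization.AtPrime (maximalIdeal B)) =
      maximalIdeal (Localization.AtPrime (maximalIdeal B)) := by
    have he : ((e : B ≃+* Localization.AtPrime (maximalIdeal B)) :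
        B →+* Localization.AtPrime (maximalIdeal B)) =
        algebraMap B (Localization.AtPrime (maximalIdeal B)) := RingHom.ext fun x => e.commutes x
    show Ideal.map ((e : B ≃+* Localization.AtPrime (maximalIdeal B)) :
        B →+* Localization.AtPrime (maximalIdeal B)) (maximalIdeal B) = _
    rw [he]
    exact Localization.AtPrime.map_eq_maximalIdeal
  have h3 : IsAdicComplete ((maximalIdeal B).map
      (e : B ≃+* Localization.AtPrime (maximalIdeal B))) (Localization.AtPrime (maximalIdeal B)) := by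
    rw [h2]
    exact h1
  exact (IsAdicComplete.congr_ringEquiv (maximalIdeal B)
    (e : B ≃+* Localization.AtPrime (maximalIdeal B))).mp h3

end Local

/-! ### DVR-valued points -/

section Pts

attribute [local instance] FractionRing.liftAlgebra

variable {𝒪 : Type} [CommRing 𝒪] [IsDomain 𝒪] [IsDiscreteValuationRing 𝒪]
  [IsAdicComplete (maximalIdeal 𝒪) 𝒪] [Finite (ResidueField 𝒪)] [CharZero 𝒪]

/-- **[PTS], domain form.** -/
theorem s59e_exists_dvr_point (D : Type) [CommRing D] [IsDomain D] [Algebra 𝒪 D]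
    [Module.Finite 𝒪 D] (hinj : Function.Injective (algebraMap 𝒪 D)) :
    ∃ (𝒪' : Type) (_ : CommRing 𝒪') (_ : IsDomain 𝒪') (_ : IsDiscreteValuationRing 𝒪')
      (_ : IsAdicComplete (maximalIdeal 𝒪') 𝒪') (_ : Finite (ResidueField 𝒪')) (_ : CharZero 𝒪')
      (_ : Algebra 𝒪 𝒪') (_ : Module.Finite 𝒪 𝒪') (_ : IsLocalHom (algebraMap 𝒪 𝒪'))
      (x : D →ₐ[𝒪] 𝒪'), Function.Injective x := by
  classical
  haveI : Module.IsTorsionFree 𝒪 D := Module.isTorsionFree_iff_algebraMap_injective.mpr hinj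
  set K := FractionRing 𝒪 with hK
  set L := FractionRing D with hL
  haveI : CharZero K := charZero_of_injective_algebraMap (IsFractionRing.injective 𝒪 K)
  haveI : FiniteDimensional K L := inferInstance
  haveI : Algebra.IsSeparable K L := inferInstance
  set 𝒪' := integralClosure 𝒪 L with h𝒪'
  haveI : IsIntegralClosure 𝒪' 𝒪 L := inferInstance
  haveI hded : IsDedekindDomain 𝒪' := integralClosure.isDedekindDomain 𝒪 K L
  haveI hfin : Module.Finite 𝒪 𝒪' := IsIntegralClosure.finite 𝒪 K L 𝒪'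
  haveI hloc : IsLocalRing 𝒪' := s59e_isLocalRing_of_finite_domain (𝒪 := 𝒪) 𝒪'
  haveI hcomp : IsAdicComplete (maximalIdeal 𝒪') 𝒪' :=
    s59e_isAdicComplete_of_finite_local (𝒪 := 𝒪) 𝒪'
  have hinj' : Function.Injective (algebraMap 𝒪 𝒪') := by
    intro a b hab
    have h1 := congrArg (algebraMap 𝒪' L) hab
    rw [← IsScalarTower.algebraMap_apply, ← IsScalarTower.algebraMap_apply] at h1
    have h2 : Function.Injective (algebraMap 𝒪 L) := by
      rw [IsScalarTower.algebraMap_eq 𝒪 D L]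
      exact (IsFractionRing.injective D L).comp hinj
    exact h2 h1
  haveI hchar : CharZero 𝒪' := charZero_of_injective_algebraMap hinj'
  haveI hint : Algebra.IsIntegral 𝒪 𝒪' := Algebra.IsIntegral.of_finite 𝒪 𝒪'
  have hnf : ¬ IsField 𝒪' := fun hF =>
    IsDiscreteValuationRing.not_isField 𝒪 (isField_of_isIntegral_of_isField hinj' hF)
  haveI hdvr : IsDiscreteValuationRing 𝒪' :=
    ((IsDiscreteValuationRing.TFAE 𝒪' hnf).out 0 2).mpr hded
  haveI hlh : IsLocalHom (algebraMap 𝒪 𝒪') := by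
    refine ⟨fun a ha => ?_⟩
    by_contra hna
    have ham : a ∈ maximalIdeal 𝒪 := hna
    obtain ⟨Q, hQ, hQc⟩ := Ideal.exists_ideal_over_maximal_of_isIntegral (S := 𝒪')
      (maximalIdeal 𝒪) (by
        rw [(RingHom.injective_iff_ker_eq_bot _).mp hinj']
        exact bot_le)
    have h1 : algebraMap 𝒪 𝒪' a ∈ Q := by
      have : a ∈ Q.comap (algebraMap 𝒪 𝒪') := by rw [hQc]; exact ham
      exact this
    exact hQ.ne_top (Ideal.eq_top_of_isUnit_mem _ h1 ha)
  haveI hres : Finite (ResidueField 𝒪') := by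
    haveI : Module.Finite (ResidueField 𝒪) (ResidueField 𝒪') := inferInstance
    exact Module.finite_of_finite (ResidueField 𝒪)
  -- the point
  have hD : ∀ d : D, IsIntegral 𝒪 (algebraMap D L d) := fun d =>
    (Algebra.IsIntegral.isIntegral (R := 𝒪) d).map (IsScalarTower.toAlgHom 𝒪 D L)
  set x : D →ₐ[𝒪] 𝒪' :=
    (IsScalarTower.toAlgHom 𝒪 D L).codRestrict (integralClosure 𝒪 L) hD with hx
  refine ⟨𝒪', inferInstance, inferInstance, hdvr, hcomp, hres, hchar, inferInstance, hfin, hlh,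
    x, ?_⟩
  intro d d' hdd
  have h1 := congrArg (fun z : 𝒪' => (z : L)) hdd
  exact IsFractionRing.injective D L h1

/-- **[PTS], prime form**: a point with kernel a given prime `𝔭` of characteristic `0`. -/
theorem s59e_exists_dvr_point_of_prime (T : Type) [CommRing T] [Algebra 𝒪 T] [Module.Finite 𝒪 T]
    (𝔭 : Ideal T) [h𝔭 : 𝔭.IsPrime] (h0 : ∀ o : 𝒪, algebraMap 𝒪 T o ∈ 𝔭 → o = 0) :
    ∃ (𝒪' : Type) (_ : CommRing 𝒪') (_ : IsDomain 𝒪') (_ : IsDiscreteValuationRing 𝒪')
      (_ : IsAdicComplete (maximalIdeal 𝒪') 𝒪') (_ : Finite (ResidueField 𝒪')) (_ : CharZero 𝒪')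
      (_ : Algebra 𝒪 𝒪') (_ : Module.Finite 𝒪 𝒪') (_ : IsLocalHom (algebraMap 𝒪 𝒪'))
      (x : T →ₐ[𝒪] 𝒪'), RingHom.ker x = 𝔭 := by
  haveI : IsDomain (T ⧸ 𝔭) := Ideal.Quotient.isDomain 𝔭
  have hinj : Function.Injective (algebraMap 𝒪 (T ⧸ 𝔭)) := by
    rw [injective_iff_map_eq_zero]
    intro o ho
    rw [IsScalarTower.algebraMap_apply 𝒪 T (T ⧸ 𝔭), Ideal.Quotient.algebraMap_eq,
      Ideal.Quotient.eq_zero_iff_mem] at ho
    exact h0 o ho
  obtain ⟨𝒪', i1, i2, i3, i4, i5, i6, i7, i8, i9, x, hx⟩ := s59e_exists_dvr_point (𝒪 := 𝒪) (T ⧸ 𝔭) hinj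
  refine ⟨𝒪', i1, i2, i3, i4, i5, i6, i7, i8, i9, x.comp (Ideal.Quotient.mkₐ 𝒪 𝔭), ?_⟩
  ext t
  rw [RingHom.mem_ker]
  show x (Ideal.Quotient.mk 𝔭 t) = 0 ↔ _
  rw [map_eq_zero_iff x hx, Ideal.Quotient.eq_zero_iff_mem]

/-- **[PTS], minimal prime form**: `T` finite and `𝒪`-torsion-free, `𝔭` a minimal prime. -/
theorem s59e_exists_dvr_point_of_minimalPrime (T : Type) [CommRing T] [Algebra 𝒪 T]
    [Module.Finite 𝒪 T]
    (htf : ∀ o : 𝒪, o ≠ 0 → ∀ t : T, algebraMap 𝒪 T o * t = 0 → t = 0)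
    (𝔭 : Ideal T) (h𝔭 : 𝔭 ∈ minimalPrimes T) :
    ∃ (𝒪' : Type) (_ : CommRing 𝒪') (_ : IsDomain 𝒪') (_ : IsDiscreteValuationRing 𝒪')
      (_ : IsAdicComplete (maximalIdeal 𝒪') 𝒪') (_ : Finite (ResidueField 𝒪')) (_ : CharZero 𝒪')
      (_ : Algebra 𝒪 𝒪') (_ : Module.Finite 𝒪 𝒪') (_ : IsLocalHom (algebraMap 𝒪 𝒪'))
      (x : T →ₐ[𝒪] 𝒪'), RingHom.ker x = 𝔭 := by
  haveI := h𝔭.1.1
  refine s59e_exists_dvr_point_of_prime (𝒪 := 𝒪) T 𝔭 fun o ho => ?_
  by_contra hne
  have h3 : algebraMap 𝒪 T o ∈ nonZeroDivisors T := by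
    rw [mem_nonZeroDivisors_iff_right]
    intro y hy
    refine htf o hne y ?_
    rw [mul_comm]
    exact hy
  exact Set.disjoint_left.mp (Ideal.disjoint_nonZeroDivisors_of_mem_minimalPrimes h𝔭) ho h3

end Pts

end Fermat.Agent.Lib.S59
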