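/-
S59 (helper5, prefix `s59e_`), node B7 / [TR-χ] (also C8): **points of a Hecke ring and their
eigenvectors.**

* `s59e_exists_minimalPrime_over` : lying-over for minimal primes along an injective integral map.
* `s59e_algebraMap_injective_of_charZero` : `𝒪` a DVR with finite residue field, `𝒪'` a domain of
  characteristic `0` ⇒ `𝒪 → 𝒪'` is injective (hence `𝒪'` is torsion-free, flat, and free if finite).
* `s59e_point_eigen` : `T ⊂ 𝔸` commutative `𝒪`-algebras, `𝔸` finite over `𝒪` acting faithfully on a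
  finite free `𝒪`-module `Z`; `𝔭` a minimal prime of `T`.  Then there are a complete DVR `𝒪' ⊇ 𝒪`
  (finite, characteristic `0`, finite residue field), a point `x̃ : 𝔸 →ₐ[𝒪] 𝒪'` with
  `ker (x̃|_T) = 𝔭` and a non-zero `v ∈ 𝒪' ⊗_𝒪 Z` with `a v = x̃(a) v` for all `a ∈ 𝔸`
  ([PTS] `EPts.lean` + helper2's (EV) `BEv.lean`).
  (Use: `T = 𝒪[T'_ℓ]`, `𝔸 = 𝒪[T_ℓ, ⟨d⟩]` — the eigenclass needed by (NN) must be an eigenvector of all
  `T_ℓ` and all diamond operators, which do not lie in `T`.)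
-/
import Mathlib
import Fermat.Agent.Lib.S59.EPts
import Fermat.Agent.Lib.S59.BEv

set_option autoImplicit false
set_option linter.unusedSectionVars false
set_option linter.unusedVariables false
set_option linter.style.haveILetI false

noncomputable section

namespace Fermat.Agent.Lib.S59

open IsLocalRing
open scoped TensorProduct

section LyingOver

/-- **lying-over for minimal primes**: `T → A` injective and integral, `𝔭` a minimal prime of `T` ⇒
some minimal prime of `A` contracts to `𝔭`. -/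
theorem s59e_exists_minimalPrime_over {T A : Type*} [CommRing T] [CommRing A] [Algebra T A]
    [Algebra.IsIntegral T A] (hinj : Function.Injective (algebraMap T A)) (𝔭 : Ideal T)
    (h𝔭 : 𝔭 ∈ minimalPrimes T) :
    ∃ 𝔓 : Ideal A, 𝔓 ∈ minimalPrimes A ∧ 𝔓.comap (algebraMap T A) = 𝔭 := by
  haveI := h𝔭.1.1
  obtain ⟨𝔔, -, h𝔔, h𝔔𝔭⟩ := Ideal.exists_ideal_over_prime_of_isIntegral 𝔭 (⊥ : Ideal A) (by
    intro x hx
    rw [Ideal.mem_comap, Ideal.mem_bot] at hx
    have : x = 0 := hinj (by rw [hx, map_zero])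
    rw [this]
    exact zero_mem _)
  obtain ⟨𝔓, h𝔓, h𝔓𝔔⟩ := Ideal.exists_minimalPrimes_le (I := (⊥ : Ideal A)) (J := 𝔔) bot_le
  refine ⟨𝔓, h𝔓, ?_⟩
  haveI := h𝔓.1.1
  have hle : 𝔓.comap (algebraMap T A) ≤ 𝔭 := by
    rw [← h𝔔𝔭]
    exact Ideal.comap_mono h𝔓𝔔
  exact le_antisymm hle (h𝔭.2 ⟨Ideal.comap_isPrime _ _, bot_le⟩ hle)

end LyingOver

section Inj

variable {𝒪 : Type*} [CommRing 𝒪] [IsDomain 𝒪] [IsDiscreteValuationRing 𝒪]
  [Finite (ResidueField 𝒪)]

/-- a DVR with finite residue field injects into every domain of characteristic `0` over it. -/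
theorem s59e_algebraMap_injective_of_charZero (𝒪' : Type*) [CommRing 𝒪'] [IsDomain 𝒪']
    [CharZero 𝒪'] [Algebra 𝒪 𝒪'] : Function.Injective (algebraMap 𝒪 𝒪') := by
  classical
  rw [injective_iff_map_eq_zero]
  intro x hx
  by_contra hx0
  obtain ⟨ϖ, hϖ⟩ := IsDiscreteValuationRing.exists_irreducible 𝒪
  obtain ⟨k, u, hxu⟩ := IsDiscreteValuationRing.eq_unit_mul_pow_irreducible hx0 hϖ
  -- `ϖ ↦ 0`
  have hϖ0 : algebraMap 𝒪 𝒪' ϖ = 0 := by
    rw [hxu, map_mul, map_pow] at hx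
    rcases mul_eq_zero.mp hx with h | h
    · exact absurd h ((u.isUnit.map (algebraMap 𝒪 𝒪')).ne_zero)
    · exact pow_eq_zero_iff (n := k) (by
        rintro rfl
        rw [pow_zero] at h
        exact one_ne_zero h) |>.mp h
  -- the cardinality `n` of the residue field lies in `𝔪 = (ϖ)`
  haveI : Fintype (ResidueField 𝒪) := Fintype.ofFinite _
  set n : ℕ := Fintype.card (ResidueField 𝒪) with hn
  have hn0 : n ≠ 0 := Fintype.card_ne_zero
  have hnk : ((n : ℕ) : ResidueField 𝒪) = 0 := by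
    rw [hn]
    exact Nat.cast_card_eq_zero (ResidueField 𝒪)
  have hnm : ((n : ℕ) : 𝒪) ∈ maximalIdeal 𝒪 := by
    rw [← residue_eq_zero_iff, map_natCast]
    exact hnk
  rw [(IsDiscreteValuationRing.irreducible_iff_uniformizer ϖ).mp hϖ,
    Ideal.mem_span_singleton] at hnm
  obtain ⟨y, hy⟩ := hnm
  have h0 : ((n : ℕ) : 𝒪') = 0 := by
    rw [← map_natCast (algebraMap 𝒪 𝒪'), hy, map_mul, hϖ0, zero_mul]
  exact hn0 (Nat.cast_eq_zero.mp h0)

end Inj

section PointEigen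

variable {𝒪 : Type} [CommRing 𝒪] [IsDomain 𝒪] [IsDiscreteValuationRing 𝒪]
  [IsAdicComplete (maximalIdeal 𝒪) 𝒪] [Finite (ResidueField 𝒪)] [CharZero 𝒪]
  {Z : Type} [AddCommGroup Z] [Module 𝒪 Z] [Module.Finite 𝒪 Z] [Module.Free 𝒪 Z]

/-- **points and eigenvectors.** -/
theorem s59e_point_eigen (T A : Type) [CommRing T] [CommRing A] [Algebra 𝒪 T] [Algebra 𝒪 A]
    [Module.Finite 𝒪 A] (j : T →ₐ[𝒪] A) (hj : Function.Injective j)
    (act : A →ₐ[𝒪] Module.End 𝒪 Z) (hact : Function.Injective act)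
    (𝔭 : Ideal T) (h𝔭 : 𝔭 ∈ minimalPrimes T) :
    ∃ (𝒪' : Type) (_ : CommRing 𝒪') (_ : IsDomain 𝒪') (_ : IsDiscreteValuationRing 𝒪')
      (_ : IsAdicComplete (maximalIdeal 𝒪') 𝒪') (_ : Finite (ResidueField 𝒪')) (_ : CharZero 𝒪')
      (_ : Algebra 𝒪 𝒪') (_ : Module.Finite 𝒪 𝒪') (_ : IsLocalHom (algebraMap 𝒪 𝒪'))
      (x : A →ₐ[𝒪] 𝒪'), RingHom.ker (x.comp j) = 𝔭 ∧
      ∃ v : 𝒪' ⊗[𝒪] Z, v ≠ 0 ∧ ∀ a : A, (act a).baseChange 𝒪' v = x a • v := by
  classical
  -- `A` is torsion-free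
  have htf : ∀ o : 𝒪, o ≠ 0 → ∀ a : A, algebraMap 𝒪 A o * a = 0 → a = 0 := by
    intro o ho a h
    apply hact
    rw [map_zero]
    refine LinearMap.ext fun z => ?_
    have h1 : act (algebraMap 𝒪 A o * a) z = 0 := by rw [h, map_zero, LinearMap.zero_apply]
    rw [map_mul, AlgHom.commutes, Module.End.mul_apply, Module.algebraMap_end_apply] at h1
    rw [LinearMap.zero_apply]
    exact (smul_eq_zero.mp h1).resolve_left ho
  -- a minimal prime of `A` over `𝔭`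
  letI : Algebra T A := j.toRingHom.toAlgebra
  haveI : IsScalarTower 𝒪 T A := IsScalarTower.of_algebraMap_eq fun o => (j.commutes o).symm
  haveI : Algebra.IsIntegral 𝒪 A := Algebra.IsIntegral.of_finite 𝒪 A
  haveI : Algebra.IsIntegral T A := Algebra.IsIntegral.tower_top (S := T) (T := A) 𝒪
  obtain ⟨𝔓, h𝔓, h𝔓𝔭⟩ := s59e_exists_minimalPrime_over (T := T) (A := A) hj 𝔭 h𝔭
  obtain ⟨𝒪', i1, i2, i3, i4, i5, i6, i7, i8, i9, x, hx⟩ :=
    s59e_exists_dvr_point_of_minimalPrime (𝒪 := 𝒪) A htf 𝔓 h𝔓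
  refine ⟨𝒪', i1, i2, i3, i4, i5, i6, i7, i8, i9, x, ?_, ?_⟩
  · rw [← h𝔓𝔭, ← hx]
    ext t
    rw [RingHom.mem_ker, Ideal.mem_comap, RingHom.mem_ker]
    rfl
  · have hinj := s59e_algebraMap_injective_of_charZero (𝒪 := 𝒪) 𝒪'
    haveI : NoZeroSMulDivisors 𝒪 𝒪' := by
      refine ⟨fun {c y} hcy => ?_⟩
      rw [Algebra.smul_def, mul_eq_zero] at hcy
      rcases hcy with h1 | h1
      · left; exact hinj (by rw [h1, map_zero])
      · right; exact h1
    exact s59b_EV act hact x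

end PointEigen

end Fermat.Agent.Lib.S59
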