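/-
S59 (helper5, prefix `s59e_`), node B7 / [TR-χ] (also C8): **from an eigenvector in `𝒪' ⊗_𝒪 Z`,
`Z ⊂ Hom(G, 𝒪)`, to an eigen-homomorphism `G → 𝒪'`.**

* `s59e_homBC emb : 𝒪' ⊗_𝒪 Z →ₗ[𝒪'] (Additive G →+ 𝒪')`, `c ⊗ z ↦ c • (alg ∘ emb z)`;
* `s59e_homBC_injective` : injective if `emb` is and `𝒪'` is free over `𝒪`;
* `s59e_homBC_comm` : compatibility with pairs of operators natural in the coefficients (Hecke
  operators `D.heckeHom`: `s59e_homBC_hecke`);
* `s59e_homBC_vanish` : vanishing conditions (`IsParabolicHom`, finite order) are preserved.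
-/
import Mathlib
import Fermat.Agent.Lib.S48.HHom

set_option autoImplicit false
set_option linter.unusedSectionVars false
set_option linter.unusedVariables false
set_option linter.style.haveILetI false

noncomputable section

namespace Fermat.Agent.Lib.S59

open scoped TensorProduct
open Fermat.Agent.Lib.S48

section HomBC

variable {𝒪 𝒪' : Type*} [CommRing 𝒪] [CommRing 𝒪'] [Algebra 𝒪 𝒪'] {G : Type*} [Group G]
  {Z : Type*} [AddCommGroup Z] [Module 𝒪 Z]

/-- post-composition with `𝒪 → 𝒪'`. -/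
def s59e_post (𝒪 𝒪' : Type*) [CommRing 𝒪] [CommRing 𝒪'] [Algebra 𝒪 𝒪'] (G : Type*) [Group G] :
    (Additive G →+ 𝒪) →ₗ[𝒪] (Additive G →+ 𝒪') where
  toFun χ := (algebraMap 𝒪 𝒪' : 𝒪 →+ 𝒪').comp χ
  map_add' χ ψ := by
    ext g
    simp
  map_smul' c χ := by
    ext g
    simp [Algebra.smul_def]

@[simp] theorem s59e_post_apply (χ : Additive G →+ 𝒪) (g : Additive G) :
    s59e_post 𝒪 𝒪' G χ g = algebraMap 𝒪 𝒪' (χ g) := rfl

/-- base change of homomorphisms. -/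
def s59e_homBC (emb : Z →ₗ[𝒪] (Additive G →+ 𝒪)) : 𝒪' ⊗[𝒪] Z →ₗ[𝒪'] (Additive G →+ 𝒪') :=
  LinearMap.liftBaseChange 𝒪' ((s59e_post 𝒪 𝒪' G).comp emb)

theorem s59e_homBC_tmul (emb : Z →ₗ[𝒪] (Additive G →+ 𝒪)) (c : 𝒪') (z : Z) :
    s59e_homBC emb (c ⊗ₜ[𝒪] z) = c • s59e_post 𝒪 𝒪' G (emb z) := by
  rw [s59e_homBC, LinearMap.liftBaseChange_tmul]
  rfl

theorem s59e_homBC_tmul_apply (emb : Z →ₗ[𝒪] (Additive G →+ 𝒪)) (c : 𝒪') (z : Z)
    (g : Additive G) : s59e_homBC emb (c ⊗ₜ[𝒪] z) g = c * algebraMap 𝒪 𝒪' (emb z g) := by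
  rw [s59e_homBC_tmul]
  rfl

/-- **injectivity**, `𝒪'` free over `𝒪`. -/
theorem s59e_homBC_injective [Module.Free 𝒪 𝒪'] (emb : Z →ₗ[𝒪] (Additive G →+ 𝒪))
    (hemb : Function.Injective emb) :
    Function.Injective (s59e_homBC (𝒪' := 𝒪') emb) := by
  classical
  rw [injective_iff_map_eq_zero]
  intro v hv
  let e := Module.Free.chooseBasis 𝒪 𝒪'
  obtain ⟨c, rfl⟩ := TensorProduct.eq_repr_basis_left e v
  have hc : c = 0 := by
    ext k
    rw [Finsupp.zero_apply]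
    apply hemb
    rw [map_zero]
    refine AddMonoidHom.ext fun g => ?_
    rw [AddMonoidHom.zero_apply]
    -- evaluate at `g`
    have h1 := congrArg (fun f : Additive G →+ 𝒪' => f g) hv
    simp only [AddMonoidHom.zero_apply] at h1
    rw [Finsupp.sum, map_sum, AddMonoidHom.finsetSum_apply] at h1
    have h2 : ∑ i ∈ c.support, s59e_homBC (𝒪' := 𝒪') emb (e i ⊗ₜ[𝒪] c i) g =
        Finsupp.linearCombination 𝒪 e (c.mapRange (fun z => emb z g) (by simp)) := by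
      rw [Finsupp.linearCombination_apply, Finsupp.sum_mapRange_index (by simp)]
      rw [Finsupp.sum]
      refine Finset.sum_congr rfl fun i _ => ?_
      rw [s59e_homBC_tmul_apply, Algebra.smul_def, mul_comm]
    rw [h2] at h1
    have h3 := congrArg e.repr h1
    rw [e.repr_linearCombination] at h3
    have h3' : e.repr (0 : 𝒪') = 0 := map_zero _
    rw [h3'] at h3
    have h4 := DFunLike.congr_fun h3 k
    rw [Finsupp.mapRange_apply, Finsupp.zero_apply] at h4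
    exact h4
  rw [hc, Finsupp.sum_zero_index]

/-- **compatibility with operators natural in the coefficients.** -/
theorem s59e_homBC_comm (emb : Z →ₗ[𝒪] (Additive G →+ 𝒪)) (t : Module.End 𝒪 Z)
    (D : (Additive G →+ 𝒪) →+ (Additive G →+ 𝒪)) (D' : (Additive G →+ 𝒪') →+ (Additive G →+ 𝒪'))
    (hnat : ∀ χ, D' (s59e_post 𝒪 𝒪' G χ) = s59e_post 𝒪 𝒪' G (D χ))
    (hlin : ∀ (c : 𝒪') χ, D' (c • χ) = c • D' χ)
    (ht : ∀ z, emb (t z) = D (emb z)) (v : 𝒪' ⊗[𝒪] Z) :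
    s59e_homBC emb (t.baseChange 𝒪' v) = D' (s59e_homBC emb v) := by
  induction v using TensorProduct.induction_on with
  | zero => rw [map_zero, map_zero, map_zero]
  | tmul c z =>
    rw [LinearMap.baseChange_tmul, s59e_homBC_tmul, s59e_homBC_tmul, hlin, hnat, ht]
  | add x y hx hy =>
    rw [map_add, map_add, hx, hy, map_add]
    exact (map_add D' _ _).symm

/-- Hecke operators. -/
theorem s59e_homBC_hecke {Γ : Subgroup (Matrix.SpecialLinearGroup (Fin 2) ℤ)} {X : Type*}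
    [Fintype X] (D : s48h_MatDatum Γ X) (emb : Z →ₗ[𝒪] (Additive Γ →+ 𝒪)) (t : Module.End 𝒪 Z)
    (ht : ∀ z, emb (t z) = D.heckeHom 𝒪 (emb z)) (v : 𝒪' ⊗[𝒪] Z) :
    s59e_homBC emb (t.baseChange 𝒪' v) = D.heckeHom 𝒪' (s59e_homBC emb v) :=
  s59e_homBC_comm emb t (D.heckeHom 𝒪) (D.heckeHom 𝒪')
    (fun χ => D.heckeHom_comp (algebraMap 𝒪 𝒪' : 𝒪 →+ 𝒪') χ)
    (fun c χ => D.heckeHom_smul c χ) ht v

/-- vanishing conditions are preserved. -/
theorem s59e_homBC_vanish (emb : Z →ₗ[𝒪] (Additive G →+ 𝒪)) (g : Additive G)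
    (hg : ∀ z, emb z g = 0) (v : 𝒪' ⊗[𝒪] Z) : s59e_homBC emb v g = 0 := by
  induction v using TensorProduct.induction_on with
  | zero => rw [map_zero, AddMonoidHom.zero_apply]
  | tmul c z => rw [s59e_homBC_tmul_apply, hg, map_zero, mul_zero]
  | add x y hx hy => rw [map_add, AddMonoidHom.add_apply, hx, hy, add_zero]

end HomBC

end Fermat.Agent.Lib.S59
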