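/-
S59 (helper5, prefix `s59e_`), node B7 / [TR-χ] / C8-input: **the eigenclass attached to a minimal prime
of a Hecke ring acting on a Hecke-stable submodule `W ⊆ H_par(Γ_H(M), 𝒪)`.**

* `s59e_famAlg` : the (commutative) `𝒪`-algebra generated by a commuting family of endomorphisms;
* `s59e_point_family` : `T' ↪ 𝒪[g_j] ⊆ End_𝒪 Z`, `𝔭` a minimal prime of `T'` ⇒ a complete DVR `𝒪'` finite
  over `𝒪`, a point `x' : T' → 𝒪'` with kernel `𝔭` and a joint eigenvector `v ≠ 0` in `𝒪' ⊗ Z` of all the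
  `g_j` (eigenvalues `c j`) on which `T'` acts through `x'`;
* `s59e_isLocalHom_of_finite` : such a point of a LOCAL `T'` (finite over `𝒪`) is a local homomorphism;
* `s59e_eigenclass_of_minimalPrime` : for `Z = W` and `g = ` the anemic generators (all `T_ℓ`, `ℓ ∤ M`, and
  diamonds) restricted to `W`: the eigenclass `φ : Γ_H → 𝒪'`, `φ ≠ 0`, parabolic, the character
  `θ : (ℤ/M)ˣ → 𝒪'ˣ` (`θ² =` the nebentypus, `θ|_H = 1`, `θⁿ = 1`), the eigenvalues `a ℓ`, in the EXACT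
  shape of the binders `(θ, hθH, a, φ, hφ0, hpar, hdiam, heig)` of helper3's `s59u_hNN(_strong)` and
  helper2's `s59b_C8`, and the value of `x'` on the elements of `T'` acting as `T'_ℓ = ⟨ℓ⟩^k T_ℓ`.
-/
import Mathlib
import Fermat.Agent.Lib.S59.EPtEig
import Fermat.Agent.Lib.S59.EPtHom
import Fermat.Agent.Lib.S59.EHRel1
import Fermat.Agent.Lib.S59.WRed

set_option autoImplicit false
set_option linter.unusedSectionVars false
set_option linter.unusedVariables false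
set_option linter.style.haveILetI false
set_option synthInstance.maxHeartbeats 400000
set_option maxHeartbeats 1000000

noncomputable section

namespace Fermat.Agent.Lib.S59

open Matrix.SpecialLinearGroup CongruenceSubgroup ModularCurve.Period Polynomial
open Fermat.Agent.Lib.S48 Fermat.Agent.Lib.ES IsLocalRing
open scoped MatrixGroups TensorProduct

/-! ### The algebra generated by a commuting family -/

section FamAlg

variable (𝒪 : Type*) [CommRing 𝒪] {E : Type*} [Ring E] [Algebra 𝒪 E] {J : Type*}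

/-- the `𝒪`-subalgebra generated by a commuting family. -/
def s59e_famAlg (g : J → E) (_hg : ∀ i j, g i * g j = g j * g i) : Subalgebra 𝒪 E :=
  Algebra.adjoin 𝒪 (Set.range g)

instance s59e_famAlg_isMulCommutative (g : J → E) (hg : ∀ i j, g i * g j = g j * g i) :
    IsMulCommutative (s59e_famAlg 𝒪 g hg) :=
  Algebra.isMulCommutative_adjoin 𝒪 (by
    rintro _ ⟨i, rfl⟩ _ ⟨j, rfl⟩
    exact hg i j)

open scoped IsMulCommutative in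
instance s59e_famAlg_commRing (g : J → E) (hg : ∀ i j, g i * g j = g j * g i) :
    CommRing (s59e_famAlg 𝒪 g hg) := inferInstance

/-- the generators, as elements of the algebra. -/
def s59e_famGen (g : J → E) (hg : ∀ i j, g i * g j = g j * g i) (j : J) : s59e_famAlg 𝒪 g hg :=
  ⟨g j, Algebra.subset_adjoin ⟨j, rfl⟩⟩

end FamAlg

/-! ### Points and joint eigenvectors -/

section PointFamily

variable {𝒪 : Type} [CommRing 𝒪] [IsDomain 𝒪] [IsDiscreteValuationRing 𝒪]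
  [IsAdicComplete (maximalIdeal 𝒪) 𝒪] [Finite (ResidueField 𝒪)] [CharZero 𝒪]
  {Z : Type} [AddCommGroup Z] [Module 𝒪 Z] [Module.Finite 𝒪 Z] [Module.Free 𝒪 Z]

/-- **points and joint eigenvectors for a commuting family.** -/
theorem s59e_point_family {J : Type*} (g : J → Module.End 𝒪 Z)
    (hg : ∀ i j, g i * g j = g j * g i)
    (T' : Type) [CommRing T'] [Algebra 𝒪 T'] (jT : T' →ₐ[𝒪] Module.End 𝒪 Z)
    (hjT : Function.Injective jT) (hjTg : ∀ t, jT t ∈ Algebra.adjoin 𝒪 (Set.range g))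
    (𝔭 : Ideal T') (h𝔭 : 𝔭 ∈ minimalPrimes T') :
    ∃ (𝒪' : Type) (_ : CommRing 𝒪') (_ : IsDomain 𝒪') (_ : IsDiscreteValuationRing 𝒪')
      (_ : IsAdicComplete (maximalIdeal 𝒪') 𝒪') (_ : Finite (ResidueField 𝒪')) (_ : CharZero 𝒪')
      (_ : Algebra 𝒪 𝒪') (_ : Module.Finite 𝒪 𝒪') (_ : IsLocalHom (algebraMap 𝒪 𝒪'))
      (x' : T' →ₐ[𝒪] 𝒪') (c : J → 𝒪') (v : 𝒪' ⊗[𝒪] Z),
      RingHom.ker x' = 𝔭 ∧ v ≠ 0 ∧ (∀ j, (g j).baseChange 𝒪' v = c j • v) ∧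
      ∀ t, (jT t).baseChange 𝒪' v = x' t • v := by
  classical
  haveI : IsNoetherian 𝒪 (Module.End 𝒪 Z) := isNoetherian_of_isNoetherianRing_of_finite 𝒪 _
  haveI : Module.Finite 𝒪 (s59e_famAlg 𝒪 g hg) :=
    Module.Finite.of_injective (s59e_famAlg 𝒪 g hg).val.toLinearMap Subtype.val_injective
  let j : T' →ₐ[𝒪] s59e_famAlg 𝒪 g hg := jT.codRestrict (s59e_famAlg 𝒪 g hg) hjTg
  have hj : Function.Injective j := fun s t h => hjT (congrArg Subtype.val h)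
  have hpt := s59e_point_eigen (𝒪 := 𝒪) (Z := Z) T' (s59e_famAlg 𝒪 g hg) j hj
    (s59e_famAlg 𝒪 g hg).val Subtype.val_injective 𝔭 h𝔭
  obtain ⟨𝒪', i1, i2, i3, i4, i5, i6, i7, i8, i9, x, hx, v, hv0, hv⟩ := hpt
  exact ⟨𝒪', i1, i2, i3, i4, i5, i6, i7, i8, i9, x.comp j,
    fun i => x (s59e_famGen 𝒪 g hg i), v, hx, hv0, fun i => hv (s59e_famGen 𝒪 g hg i),
    fun t => hv (j t)⟩

end PointFamily

/-! ### Locality of a point, uniqueness of eigenvalues -/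

section PointLocal

variable {𝒪 : Type} [CommRing 𝒪] [IsDomain 𝒪] [IsDiscreteValuationRing 𝒪]

/-- a point `x' : T' → 𝒪'` of a local `𝒪`-algebra with values in a local ring `𝒪'` finite over `𝒪`
is a local homomorphism. -/
theorem s59e_isLocalHom_of_finite (T' : Type) [CommRing T'] [IsLocalRing T'] [Algebra 𝒪 T']
    (𝒪' : Type) [CommRing 𝒪'] [IsLocalRing 𝒪'] [Algebra 𝒪 𝒪'] [Module.Finite 𝒪 𝒪']
    (x' : T' →ₐ[𝒪] 𝒪') : IsLocalHom (x' : T' →+* 𝒪') := by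
  letI : Algebra T' 𝒪' := (x' : T' →+* 𝒪').toAlgebra
  haveI : IsScalarTower 𝒪 T' 𝒪' := IsScalarTower.of_algebraMap_eq fun o => (x'.commutes o).symm
  haveI : Algebra.IsIntegral 𝒪 𝒪' := Algebra.IsIntegral.of_finite 𝒪 𝒪'
  haveI : Algebra.IsIntegral T' 𝒪' := Algebra.IsIntegral.tower_top (S := T') (T := 𝒪') 𝒪
  have hmax : ((maximalIdeal 𝒪').comap (algebraMap T' 𝒪')).IsMaximal :=
    Ideal.isMaximal_comap_of_isIntegral_of_isMaximal (maximalIdeal 𝒪')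
  have heq : (maximalIdeal 𝒪').comap (algebraMap T' 𝒪') = maximalIdeal T' :=
    IsLocalRing.eq_maximalIdeal hmax
  refine ⟨fun t ht => ?_⟩
  by_contra hnu
  have h1 : t ∈ maximalIdeal T' := (mem_maximalIdeal t).mpr hnu
  rw [← heq, Ideal.mem_comap] at h1
  exact (mem_maximalIdeal _).mp h1 ht

end PointLocal

section EigUnique

variable {𝒪 𝒪' : Type} [CommRing 𝒪] [CommRing 𝒪'] [IsDomain 𝒪'] [Algebra 𝒪 𝒪']
  {Z : Type} [AddCommGroup Z] [Module 𝒪 Z] [Module.Free 𝒪 Z]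

/-- eigenvalues on a nonzero vector of `𝒪' ⊗ Z` (`Z` free, `𝒪'` a domain) are unique. -/
theorem s59e_eig_unique {v : 𝒪' ⊗[𝒪] Z} (hv : v ≠ 0) {c c' : 𝒪'} (h : c • v = c' • v) : c = c' := by
  have h1 : (c - c') • v = 0 := by
    have h2 := _root_.sub_smul c c' v
    rw [h, sub_self] at h2
    exact h2
  exact sub_eq_zero.mp ((smul_eq_zero.mp h1).resolve_right hv)

end EigUnique

/-! ### The eigenclass at a minimal prime -/

section Concrete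

variable {M : ℕ} [NeZero M] (H : Subgroup (ZMod M)ˣ)
  {𝒪 : Type} [CommRing 𝒪] [IsDomain 𝒪] [IsDiscreteValuationRing 𝒪]
  [IsAdicComplete (maximalIdeal 𝒪) 𝒪] [Finite (ResidueField 𝒪)] [CharZero 𝒪]

/-- the anemic generators restricted to a stable submodule. -/
def s59e_opW (W : Submodule 𝒪 (s48h_Hpar 𝒪 (s48h_GammaH M H) 𝒪))
    (hW : ∀ (j : s59w_AIdx M), ∀ y ∈ W, s59w_op H 𝒪 j y ∈ W) (j : s59w_AIdx M) :
    Module.End 𝒪 W :=
  (s59w_op H 𝒪 j).restrict (hW j)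

theorem s59e_opW_coe (W : Submodule 𝒪 (s48h_Hpar 𝒪 (s48h_GammaH M H) 𝒪))
    (hW : ∀ (j : s59w_AIdx M), ∀ y ∈ W, s59w_op H 𝒪 j y ∈ W) (j : s59w_AIdx M) (w : W) :
    ((s59e_opW H W hW j w : W) : s48h_Hpar 𝒪 (s48h_GammaH M H) 𝒪) =
      s59w_op H 𝒪 j (w : s48h_Hpar 𝒪 (s48h_GammaH M H) 𝒪) := rfl

theorem s59e_opW_comm (W : Submodule 𝒪 (s48h_Hpar 𝒪 (s48h_GammaH M H) 𝒪))
    (hW : ∀ (j : s59w_AIdx M), ∀ y ∈ W, s59w_op H 𝒪 j y ∈ W) (i j : s59w_AIdx M) :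
    s59e_opW H W hW i * s59e_opW H W hW j = s59e_opW H W hW j * s59e_opW H W hW i := by
  refine LinearMap.ext fun w => Subtype.ext ?_
  rw [Module.End.mul_apply, Module.End.mul_apply, s59e_opW_coe, s59e_opW_coe, s59e_opW_coe,
    s59e_opW_coe]
  exact LinearMap.congr_fun (s59w_op_comm H 𝒪 i j) (w : s48h_Hpar 𝒪 (s48h_GammaH M H) 𝒪)

theorem s59e_opW_hop (W : Submodule 𝒪 (s48h_Hpar 𝒪 (s48h_GammaH M H) 𝒪))
    (hW : ∀ (j : s59w_AIdx M), ∀ y ∈ W, s59w_op H 𝒪 j y ∈ W) (j : s59w_AIdx M) (z : W) :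
    W.subtype (s59e_opW H W hW j z) = s59w_op H 𝒪 j (W.subtype z) := rfl

/-- the embedding of a submodule of `H_par` into the homomorphisms. -/
def s59e_embW (W : Submodule 𝒪 (s48h_Hpar 𝒪 (s48h_GammaH M H) 𝒪)) :
    W →ₗ[𝒪] (Additive (s48h_GammaH M H) →+ 𝒪) :=
  (s48h_Hpar 𝒪 (s48h_GammaH M H) 𝒪).subtype.comp W.subtype

theorem s59e_embW_injective (W : Submodule 𝒪 (s48h_Hpar 𝒪 (s48h_GammaH M H) 𝒪)) :
    Function.Injective (s59e_embW H W) :=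
  fun _ _ h => Subtype.ext (Subtype.ext h)

/-- the diamond operators: `⟨σ τ⟩ = ⟨τ⟩ ⟨σ⟩`. -/
theorem s59e_op_inr_mul (R : Type*) [CommRing R] (σ τ : Gamma0 M) :
    s59w_op H R (Sum.inr (σ * τ)) = s59w_op H R (Sum.inr τ) * s59w_op H R (Sum.inr σ) := by
  refine LinearMap.ext fun χ => Subtype.ext ?_
  exact (s48h_diamondH_mul (H := H) σ.2 τ.2 (χ : Additive (s48h_GammaH M H) →+ R)).symm

/-- the diamond operator of an element of `Γ_H` is trivial. -/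
theorem s59e_op_inr_of_mem (R : Type*) [CommRing R] (σ : Gamma0 M)
    (hσ : (σ : SL(2, ℤ)) ∈ s48h_GammaH M H) : s59w_op H R (Sum.inr σ) = 1 := by
  refine LinearMap.ext fun χ => Subtype.ext ?_
  exact s48h_diamondH_of_mem hσ (χ : Additive (s48h_GammaH M H) →+ R)

/-! #### Base change of endomorphisms, pointwise -/

section BC

variable {𝒪 𝒪' : Type} [CommRing 𝒪] [CommRing 𝒪'] [Algebra 𝒪 𝒪']
  {Z : Type} [AddCommGroup Z] [Module 𝒪 Z]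

theorem s59e_bc_one_apply (v : 𝒪' ⊗[𝒪] Z) : (1 : Module.End 𝒪 Z).baseChange 𝒪' v = v := by
  rw [LinearMap.baseChange_one]
  rfl

theorem s59e_bc_mul_apply (f g : Module.End 𝒪 Z) (v : 𝒪' ⊗[𝒪] Z) :
    (f * g).baseChange 𝒪' v = f.baseChange 𝒪' (g.baseChange 𝒪' v) := by
  rw [LinearMap.baseChange_mul]
  rfl

theorem s59e_bc_smul_one_apply (c₀ : 𝒪) (v : 𝒪' ⊗[𝒪] Z) :
    (c₀ • (1 : Module.End 𝒪 Z)).baseChange 𝒪' v = algebraMap 𝒪 𝒪' c₀ • v := by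
  rw [LinearMap.baseChange_smul, LinearMap.baseChange_one, LinearMap.smul_apply,
    algebraMap_smul]
  rfl

end BC

/-! #### The eigenvalues of a joint eigenvector -/

section EigC

variable {𝒪' : Type} [CommRing 𝒪'] [IsDomain 𝒪'] [Algebra 𝒪 𝒪']
  {Z : Type} [AddCommGroup Z] [Module 𝒪 Z] [Module.Free 𝒪 Z]
  (emb : Z →ₗ[𝒪] s48h_Hpar 𝒪 (s48h_GammaH M H) 𝒪) (hemb : Function.Injective emb)
  (op : s59w_AIdx M → Module.End 𝒪 Z)
  (hop : ∀ j z, emb (op j z) = s59w_op H 𝒪 j (emb z))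
  (v : 𝒪' ⊗[𝒪] Z) (hv0 : v ≠ 0) (c : s59w_AIdx M → 𝒪')
  (hvc : ∀ j, (op j).baseChange 𝒪' v = c j • v)

/-- the embedding into the homomorphisms. -/
def s59e_embH : Z →ₗ[𝒪] (Additive (s48h_GammaH M H) →+ 𝒪) :=
  (s48h_Hpar 𝒪 (s48h_GammaH M H) 𝒪).subtype.comp emb

include hemb in
omit [IsDomain 𝒪] [IsDiscreteValuationRing 𝒪] [IsAdicComplete (maximalIdeal 𝒪) 𝒪]
  [Finite (ResidueField 𝒪)] [CharZero 𝒪] [Module.Free 𝒪 Z] in
theorem s59e_embH_injective : Function.Injective (s59e_embH H emb) :=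
  fun _ _ h => hemb (Subtype.ext h)

include hemb hop hv0 hvc

theorem s59e_eigc_one (τ : Gamma0 M) (hτ : (τ : SL(2, ℤ)) ∈ s48h_GammaH M H) :
    c (Sum.inr τ) = 1 := by
  have h1 : op (Sum.inr τ) = 1 := by
    refine LinearMap.ext fun w => hemb ?_
    rw [hop, s59e_op_inr_of_mem H 𝒪 τ hτ]
    rfl
  have h2 := hvc (Sum.inr τ)
  rw [h1] at h2
  have h3 := s59e_bc_one_apply (𝒪 := 𝒪) (𝒪' := 𝒪') (Z := Z) v
  refine s59e_eig_unique (𝒪 := 𝒪) (Z := Z) hv0 ?_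
  rw [← h2, one_smul]
  exact h3

theorem s59e_eigc_prod (j₁ j₂ : s59w_AIdx M) (t : Module.End 𝒪 Z)
    (ht : t = op j₁ * op j₂) (x : 𝒪')
    (hx : t.baseChange 𝒪' v = x • v) : x = c j₁ * c j₂ := by
  refine s59e_eig_unique (𝒪 := 𝒪) (Z := Z) hv0 ?_
  rw [← hx, ht, s59e_bc_mul_apply, hvc, map_smul, hvc, smul_smul, mul_comm]

theorem s59e_eigc_mul (σ τ : Gamma0 M) :
    c (Sum.inr (σ * τ)) = c (Sum.inr σ) * c (Sum.inr τ) := by
  have h1 : op (Sum.inr (σ * τ)) = op (Sum.inr τ) * op (Sum.inr σ) := by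
    refine LinearMap.ext fun w => hemb ?_
    rw [hop, s59e_op_inr_mul H 𝒪 σ τ, Module.End.mul_apply, Module.End.mul_apply, hop, hop]
  rw [mul_comm]
  exact s59e_eigc_prod H emb hemb op hop v hv0 c hvc _ _ _ h1 _ (hvc _)

theorem s59e_eigc_inl (i j : s59w_TIdx M) (hij : i.ell = j.ell) :
    c (Sum.inl i) = c (Sum.inl j) := by
  have h1 : op (Sum.inl i) = op (Sum.inl j) := by
    refine LinearMap.ext fun w => hemb ?_
    rw [hop, hop, s59e_op_inl_congr H 𝒪 hij]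
  refine s59e_eig_unique (𝒪 := 𝒪) (Z := Z) hv0 ?_
  rw [← hvc, ← hvc, h1]

theorem s59e_eigc_scalar (j : s59w_AIdx M) (c₀ : 𝒪)
    (hsc : ∀ z, s59w_op H 𝒪 j (emb z) = c₀ • emb z) : c j = algebraMap 𝒪 𝒪' c₀ := by
  have h2 : op j = c₀ • (1 : Module.End 𝒪 Z) := by
    refine LinearMap.ext fun w => hemb ?_
    rw [hop, hsc, LinearMap.smul_apply, Module.End.one_apply, map_smul]
  refine s59e_eig_unique (𝒪 := 𝒪) (Z := Z) hv0 ?_
  rw [← hvc, h2, s59e_bc_smul_one_apply]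

omit hv0 hemb in
theorem s59e_eigc_dia (τ : Gamma0 M) :
    s48h_diamondH H (τ : SL(2, ℤ)) τ.2 𝒪' (s59e_homBC (𝒪' := 𝒪') (s59e_embH H emb) v) =
      c (Sum.inr τ) • s59e_homBC (𝒪' := 𝒪') (s59e_embH H emb) v := by
  have h1 := s59e_homBC_hecke (𝒪' := 𝒪') (s48h_diamondDatum H (τ : SL(2, ℤ)) τ.2)
    (s59e_embH H emb) (op (Sum.inr τ))
    (fun z => congrArg Subtype.val (hop (Sum.inr τ) z)) v
  rw [hvc, map_smul] at h1
  exact h1.symm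

omit hv0 hemb in
theorem s59e_eigc_Tp (i : s59w_TIdx M) :
    (haveI : Fact i.ell.Prime := ⟨i.prime⟩
     s48h_TpH H i.ndvd i.sig i.mem i.lr 𝒪' (s59e_homBC (𝒪' := 𝒪') (s59e_embH H emb) v)) =
      c (Sum.inl i) • s59e_homBC (𝒪' := 𝒪') (s59e_embH H emb) v := by
  haveI : Fact i.ell.Prime := ⟨i.prime⟩
  have h1 := s59e_homBC_hecke (𝒪' := 𝒪') (s48h_TpDatum H i.ndvd i.sig i.mem i.lr)
    (s59e_embH H emb) (op (Sum.inl i))
    (fun z => congrArg Subtype.val (hop (Sum.inl i) z)) v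
  rw [hvc, map_smul] at h1
  exact h1.symm

end EigC

/-! #### The square root of the nebentypus -/

section Theta

variable {R : Type*} [CommRing R]

/-- a multiplicative function of the diamond operators, trivial on `Γ_H`, is the square of a
character `θ` of `(ℤ/M)ˣ`, trivial on `H` and of exponent `n` (`n` odd, `u ↦ uⁿ` kills
`(ℤ/M)ˣ/H`). -/
theorem s59e_exists_theta {n m : ℕ} (hnm : 2 * m = n + 1) (hn : ∀ u : (ZMod M)ˣ, u ^ n ∈ H)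
    (cD : Gamma0 M →* R) (hcD : ∀ τ : Gamma0 M, (τ : SL(2, ℤ)) ∈ s48h_GammaH M H → cD τ = 1) :
    ∃ θ : (ZMod M)ˣ →* Rˣ, (∀ d ∈ H, θ d = 1) ∧ (∀ d, θ d ^ n = 1) ∧
      ∀ τ : Gamma0 M, ((θ (s59w_lrUnit τ) : Rˣ) : R) ^ 2 = cD τ := by
  let cDu : Gamma0 M →* Rˣ := cD.toHomUnits
  have hcDu : ∀ τ : Gamma0 M, ((cDu τ : Rˣ) : R) = cD τ := fun τ => rfl
  have hker : (s59w_lrHom (M := M)).ker ≤ cDu.ker := by
    intro τ hτ
    rw [MonoidHom.mem_ker] at hτ ⊢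
    apply Units.ext
    rw [hcDu, Units.val_one]
    refine hcD τ ((s59w_mem_GammaH_iff H τ).mpr ?_)
    have h1 : s59w_lrUnit τ = 1 := hτ
    rw [h1]
    exact one_mem H
  let ψ : (ZMod M)ˣ →* Rˣ :=
    (s59w_lrHom (M := M)).liftOfRightInverse s59w_sig s59w_sig_spec ⟨cDu, hker⟩
  have hψ : ∀ τ : Gamma0 M, ((ψ (s59w_lrUnit τ) : Rˣ) : R) = cD τ := by
    intro τ
    have h1 := MonoidHom.liftOfRightInverse_comp_apply (s59w_lrHom (M := M)) s59w_sig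
      s59w_sig_spec ⟨cDu, hker⟩ τ
    have h2 : ψ (s59w_lrUnit τ) = cDu τ := h1
    rw [h2, hcDu]
  have hψH : ∀ d ∈ H, ψ d = 1 := by
    intro d hd
    apply Units.ext
    rw [← s59w_sig_spec d, hψ, Units.val_one]
    refine hcD _ ((s59w_mem_GammaH_iff H _).mpr ?_)
    rw [s59w_sig_spec]
    exact hd
  have hψn : ∀ d, ψ d ^ n = 1 := fun d => by
    rw [← map_pow]
    exact hψH _ (hn d)
  refine ⟨(powMonoidHom m).comp ψ, fun d hd => ?_, fun d => ?_, fun τ => ?_⟩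
  · show ψ d ^ m = 1
    rw [hψH d hd, one_pow]
  · show (ψ d ^ m) ^ n = 1
    rw [← pow_mul, mul_comm, pow_mul, hψn, one_pow]
  · show ((ψ (s59w_lrUnit τ) ^ m : Rˣ) : R) ^ 2 = cD τ
    rw [← Units.val_pow_eq_pow_val, ← pow_mul, mul_comm, hnm, pow_succ, hψn, one_mul, hψ]

end Theta

/-- **the eigenclass attached to a joint eigenvector.** -/
theorem s59e_eigenclass_of_joint {n m : ℕ} (hnm : 2 * m = n + 1)
    (hn : ∀ u : (ZMod M)ˣ, u ^ n ∈ H)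
    {𝒪' : Type} [CommRing 𝒪'] [IsDomain 𝒪'] [Algebra 𝒪 𝒪'] [Module.Free 𝒪 𝒪']
    {Z : Type} [AddCommGroup Z] [Module 𝒪 Z] [Module.Free 𝒪 Z]
    (emb : Z →ₗ[𝒪] s48h_Hpar 𝒪 (s48h_GammaH M H) 𝒪) (hemb : Function.Injective emb)
    (op : s59w_AIdx M → Module.End 𝒪 Z)
    (hop : ∀ j z, emb (op j z) = s59w_op H 𝒪 j (emb z))
    (v : 𝒪' ⊗[𝒪] Z) (hv0 : v ≠ 0) (c : s59w_AIdx M → 𝒪')
    (hvc : ∀ j, (op j).baseChange 𝒪' v = c j • v) :
    ∃ (θ : (ZMod M)ˣ →* 𝒪'ˣ) (a : ℕ → 𝒪') (φ : Additive (s48h_GammaH M H) →+ 𝒪'),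
      φ ≠ 0 ∧ IsParabolicHom (s48h_GammaH M H) φ ∧
      (∀ d ∈ H, θ d = 1) ∧ (∀ d, θ d ^ n = 1) ∧
      (∀ (σ : SL(2, ℤ)) (hσ : σ ∈ Gamma0 M) (du : (ZMod M)ˣ),
        ((du : (ZMod M)ˣ) : ZMod M) = ((σ 1 1 : ℤ) : ZMod M) →
        s48h_diamondH H σ hσ 𝒪' φ = (((θ du : 𝒪'ˣ) : 𝒪') ^ 2) • φ) ∧
      (∀ (ℓ : ℕ) [Fact ℓ.Prime] (hℓ : ¬ ℓ ∣ M) (σ : SL(2, ℤ)) (hσ : σ ∈ Gamma0 M)
        (hσ11 : ((σ 1 1 : ℤ) : ZMod M) = (ℓ : ZMod M)),
        s48h_TpH H hℓ σ hσ hσ11 𝒪' φ = a ℓ • φ) ∧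
      (∀ (t : Module.End 𝒪 Z) (x : 𝒪') (i : s59w_TIdx M) (k : ℕ) (ℓu : (ZMod M)ˣ),
        ((ℓu : (ZMod M)ˣ) : ZMod M) = (i.ell : ZMod M) →
        t = op (Sum.inr (s59e_tau i k)) * op (Sum.inl i) →
        t.baseChange 𝒪' v = x • v →
        x = ((θ ℓu : 𝒪'ˣ) : 𝒪') ^ (2 * k) * a i.ell) ∧
      (∀ (τ : Gamma0 M) (c₀ : 𝒪) (du : (ZMod M)ˣ),
        ((du : (ZMod M)ˣ) : ZMod M) = (((τ : SL(2, ℤ)) 1 1 : ℤ) : ZMod M) →
        (∀ z, s59w_op H 𝒪 (Sum.inr τ) (emb z) = c₀ • emb z) →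
        ((θ du : 𝒪'ˣ) : 𝒪') ^ 2 = algebraMap 𝒪 𝒪' c₀) ∧
      (∀ (t : Module.End 𝒪 Z) (x : 𝒪') (τ : Gamma0 M) (du : (ZMod M)ˣ),
        ((du : (ZMod M)ˣ) : ZMod M) = (((τ : SL(2, ℤ)) 1 1 : ℤ) : ZMod M) →
        t = op (Sum.inr τ) → t.baseChange 𝒪' v = x • v →
        x = ((θ du : 𝒪'ˣ) : 𝒪') ^ 2) := by
  classical
  -- the character
  let cD : Gamma0 M →* 𝒪' :=
    { toFun := fun τ => c (Sum.inr τ)
      map_one' := s59e_eigc_one H emb hemb op hop v hv0 c hvc 1 (one_mem _)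
      map_mul' := s59e_eigc_mul H emb hemb op hop v hv0 c hvc }
  have hcD : ∀ τ : Gamma0 M, cD τ = c (Sum.inr τ) := fun τ => rfl
  obtain ⟨θ, hθH, hθn, hθ2⟩ := s59e_exists_theta H hnm hn cD
    (fun τ hτ => s59e_eigc_one H emb hemb op hop v hv0 c hvc τ hτ)
  -- the eigenvalues of the `T_ℓ`
  let a : ℕ → 𝒪' := fun ℓ =>
    if h : ∃ i : s59w_TIdx M, i.ell = ℓ then c (Sum.inl (Classical.choose h)) else 0
  have ha : ∀ i : s59w_TIdx M, a i.ell = c (Sum.inl i) := by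
    intro i
    have h : ∃ i' : s59w_TIdx M, i'.ell = i.ell := ⟨i, rfl⟩
    show (if h : ∃ i' : s59w_TIdx M, i'.ell = i.ell then _ else _) = _
    rw [dif_pos h]
    exact s59e_eigc_inl H emb hemb op hop v hv0 c hvc _ _ (Classical.choose_spec h)
  -- the eigenclass
  have hφ0 : s59e_homBC (𝒪' := 𝒪') (s59e_embH H emb) v ≠ 0 := by
    intro h
    apply hv0
    apply s59e_homBC_injective (𝒪' := 𝒪') (s59e_embH H emb) (s59e_embH_injective H emb hemb)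
    rw [map_zero]
    exact h
  have hpar : IsParabolicHom (s48h_GammaH M H)
      (s59e_homBC (𝒪' := 𝒪') (s59e_embH H emb) v) := by
    intro γ hγ
    refine s59e_homBC_vanish (s59e_embH H emb) _ (fun z => ?_) v
    exact (emb z).2.1 γ hγ
  refine ⟨θ, a, s59e_homBC (𝒪' := 𝒪') (s59e_embH H emb) v, hφ0, hpar, hθH, hθn, ?_, ?_, ?_, ?_,
    ?_⟩
  · intro σ hσ du hdu
    have h1 : du = s59w_lrUnit (⟨σ, hσ⟩ : Gamma0 M) := Units.ext (by rw [hdu, s59w_lrUnit_coe])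
    rw [h1, hθ2, hcD]
    exact s59e_eigc_dia H emb op hop v c hvc ⟨σ, hσ⟩
  · intro ℓ hℓF hℓ σ hσ hσ11
    have h1 := s59e_eigc_Tp H emb op hop v c hvc ⟨ℓ, hℓF.out, hℓ, σ, hσ, hσ11⟩
    rw [← ha] at h1
    exact h1
  · intro t x i k ℓu hℓu hjt hx
    have h0 := s59e_eigc_prod H emb hemb op hop v hv0 c hvc _ _ t hjt x hx
    rw [h0, ha]
    congr 1
    have h1 : ℓu = s59w_lrUnit (⟨i.sig, i.mem⟩ : Gamma0 M) :=
      Units.ext (by rw [hℓu, s59w_lrUnit_coe, i.lr])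
    rw [h1, pow_mul, hθ2, ← hcD]
    exact map_pow cD _ k
  · intro τ c₀ du hdu hsc
    have h1 : du = s59w_lrUnit τ := Units.ext (by rw [hdu, s59w_lrUnit_coe])
    rw [h1, hθ2, hcD]
    exact s59e_eigc_scalar H emb hemb op hop v hv0 c hvc _ c₀ hsc
  · intro t x τ du hdu ht hx
    have h1 : du = s59w_lrUnit τ := Units.ext (by rw [hdu, s59w_lrUnit_coe])
    rw [h1, hθ2, hcD]
    refine s59e_eig_unique (𝒪 := 𝒪) (Z := Z) hv0 ?_
    rw [← hx, ht, hvc]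

/-- a submodule of `H_par` is torsion-free, hence free if finite. -/
theorem s59e_free_of_sub (W : Submodule 𝒪 (s48h_Hpar 𝒪 (s48h_GammaH M H) 𝒪))
    [Module.Finite 𝒪 W] : Module.Free 𝒪 W := by
  haveI : Module.IsTorsionFree 𝒪 W := by
    refine Module.IsTorsionFree.of_smul_eq_zero (R := 𝒪) (M := W) fun r w h => ?_
    by_cases hr : r = 0
    · exact Or.inl hr
    · right
      apply s59e_embW_injective H W
      rw [map_zero]
      refine AddMonoidHom.ext fun g => ?_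
      have h1 := congrArg (fun w' : W => s59e_embW H W w' g) h
      simp only [map_smul, map_zero, AddMonoidHom.zero_apply] at h1
      have h2 : r * s59e_embW H W w g = 0 := h1
      rw [AddMonoidHom.zero_apply]
      exact (mul_eq_zero.mp h2).resolve_left hr
  exact @Module.free_of_finite_type_torsion_free' 𝒪 _ W _ _ _ _ _ _

/-- a finite extension `𝒪'` of `𝒪` in characteristic zero (`𝒪'` a domain) is free. -/
theorem s59e_free_of_finite_domain (𝒪' : Type) [CommRing 𝒪'] [IsDomain 𝒪'] [CharZero 𝒪']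
    [Algebra 𝒪 𝒪'] [Module.Finite 𝒪 𝒪'] : Module.Free 𝒪 𝒪' := by
  have hinj := s59e_algebraMap_injective_of_charZero (𝒪 := 𝒪) 𝒪'
  haveI : Module.IsTorsionFree 𝒪 𝒪' := by
    refine Module.IsTorsionFree.of_smul_eq_zero (R := 𝒪) (M := 𝒪') fun r y h => ?_
    rw [Algebra.smul_def, mul_eq_zero] at h
    rcases h with h | h
    · left; exact hinj (by rw [h, map_zero])
    · right; exact h
  exact @Module.free_of_finite_type_torsion_free' 𝒪 _ 𝒪' _ _ _ _ _ _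

/-- **the eigenclass attached to a minimal prime.** -/
theorem s59e_eigenclass_of_minimalPrime {n m : ℕ} (hnm : 2 * m = n + 1)
    (hn : ∀ u : (ZMod M)ˣ, u ^ n ∈ H)
    (W : Submodule 𝒪 (s48h_Hpar 𝒪 (s48h_GammaH M H) 𝒪)) [Module.Finite 𝒪 W]
    (hW : ∀ (j : s59w_AIdx M), ∀ y ∈ W, s59w_op H 𝒪 j y ∈ W)
    (T' : Type) [CommRing T'] [Algebra 𝒪 T'] (jT : T' →ₐ[𝒪] Module.End 𝒪 W)
    (hjT : Function.Injective jT)
    (hjTg : ∀ t, jT t ∈ Algebra.adjoin 𝒪 (Set.range (s59e_opW H W hW)))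
    (𝔭 : Ideal T') (h𝔭 : 𝔭 ∈ minimalPrimes T') :
    ∃ (𝒪' : Type) (_ : CommRing 𝒪') (_ : IsDomain 𝒪') (_ : IsDiscreteValuationRing 𝒪')
      (_ : IsAdicComplete (maximalIdeal 𝒪') 𝒪') (_ : Finite (ResidueField 𝒪')) (_ : CharZero 𝒪')
      (_ : Algebra 𝒪 𝒪') (_ : Module.Finite 𝒪 𝒪') (_ : IsLocalHom (algebraMap 𝒪 𝒪'))
      (x' : T' →ₐ[𝒪] 𝒪') (θ : (ZMod M)ˣ →* 𝒪'ˣ) (a : ℕ → 𝒪')
      (φ : Additive (s48h_GammaH M H) →+ 𝒪'),
      RingHom.ker x' = 𝔭 ∧ φ ≠ 0 ∧ IsParabolicHom (s48h_GammaH M H) φ ∧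
      (∀ d ∈ H, θ d = 1) ∧ (∀ d, θ d ^ n = 1) ∧
      (∀ (σ : SL(2, ℤ)) (hσ : σ ∈ Gamma0 M) (du : (ZMod M)ˣ),
        ((du : (ZMod M)ˣ) : ZMod M) = ((σ 1 1 : ℤ) : ZMod M) →
        s48h_diamondH H σ hσ 𝒪' φ = (((θ du : 𝒪'ˣ) : 𝒪') ^ 2) • φ) ∧
      (∀ (ℓ : ℕ) [Fact ℓ.Prime] (hℓ : ¬ ℓ ∣ M) (σ : SL(2, ℤ)) (hσ : σ ∈ Gamma0 M)
        (hσ11 : ((σ 1 1 : ℤ) : ZMod M) = (ℓ : ZMod M)),
        s48h_TpH H hℓ σ hσ hσ11 𝒪' φ = a ℓ • φ) ∧
      (∀ (t : T') (i : s59w_TIdx M) (k : ℕ) (ℓu : (ZMod M)ˣ),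
        ((ℓu : (ZMod M)ˣ) : ZMod M) = (i.ell : ZMod M) →
        jT t = s59e_opW H W hW (Sum.inr (s59e_tau i k)) * s59e_opW H W hW (Sum.inl i) →
        x' t = ((θ ℓu : 𝒪'ˣ) : 𝒪') ^ (2 * k) * a i.ell) ∧
      (∀ (τ : Gamma0 M) (c₀ : 𝒪) (du : (ZMod M)ˣ),
        ((du : (ZMod M)ˣ) : ZMod M) = (((τ : SL(2, ℤ)) 1 1 : ℤ) : ZMod M) →
        (∀ w ∈ W, s59w_op H 𝒪 (Sum.inr τ) w = c₀ • w) →
        ((θ du : 𝒪'ˣ) : 𝒪') ^ 2 = algebraMap 𝒪 𝒪' c₀) ∧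
      (∀ (t : T') (τ : Gamma0 M) (du : (ZMod M)ˣ),
        ((du : (ZMod M)ˣ) : ZMod M) = (((τ : SL(2, ℤ)) 1 1 : ℤ) : ZMod M) →
        jT t = s59e_opW H W hW (Sum.inr τ) → x' t = ((θ du : 𝒪'ˣ) : 𝒪') ^ 2) := by
  classical
  haveI : Module.Free 𝒪 W := s59e_free_of_sub H W
  have hpt := s59e_point_family (𝒪 := 𝒪) (Z := W) (s59e_opW H W hW) (s59e_opW_comm H W hW) T' jT
    hjT hjTg 𝔭 h𝔭
  obtain ⟨𝒪', i1, i2, i3, i4, i5, i6, i7, i8, i9, x', c, v, hx', hv0, hvc, hvT⟩ := hpt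
  haveI : Module.Free 𝒪 𝒪' := s59e_free_of_finite_domain (𝒪 := 𝒪) 𝒪'
  have key0 := fun v hv0 c hvc =>
    s59e_eigenclass_of_joint H hnm hn (𝒪' := 𝒪') (Z := W) W.subtype W.subtype_injective
      (s59e_opW H W hW) (s59e_opW_hop H W hW) v hv0 c hvc
  have key1 := key0 v
  have key2 := key1 hv0
  have key3 := key2 c
  obtain ⟨θ, a, φ, hφ0, hpar, hθH, hθn, hdia, heig, hprod, hsc, hdd⟩ := key3 hvc
  refine ⟨𝒪', i1, i2, i3, i4, i5, i6, i7, i8, i9, x', θ, a, φ, hx', hφ0, hpar, hθH, hθn, hdia,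
    heig, ?_, ?_, ?_⟩
  · intro t i k ℓu hℓu hjt
    exact hprod (jT t) (x' t) i k ℓu hℓu hjt (hvT t)
  · intro τ c₀ du hdu hw
    exact hsc τ c₀ du hdu (fun z => hw z z.2)
  · intro t τ du hdu hjt
    exact hdd (jT t) (x' t) τ du hdu hjt (hvT t)

end Concrete

end Fermat.Agent.Lib.S59
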