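/-
S59 / [PATCH-FLR] / (T6), part (III-e) (helper4, prefix `s59f_`): **the eigenclass at a minimal prime, with the
class exposed as `s59e_homBC … v`** — helper9's `s59m_eigenclass_of_joint` / `s59m_eigenclass_of_minimalPrime_abs`
(MC8Eig.lean, copied verbatim) with ONE more clause `φ = s59e_homBC (s59e_embH H emb) v`, so that identities
`Ω (emb z) = 0` for operators `Ω` natural in the coefficients pass to `φ` (`s59f_homBC_kill`).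
-/
import Mathlib
import Fermat.Agent.Lib.S59.MC8Eig

set_option autoImplicit false
set_option linter.unusedSectionVars false
set_option linter.unusedVariables false
set_option linter.style.haveILetI false
set_option synthInstance.maxHeartbeats 400000
set_option maxHeartbeats 1000000

noncomputable section

namespace Fermat.Agent.Lib.S59

open Matrix.SpecialLinearGroup CongruenceSubgroup ModularCurve.Period Polynomial
open Fermat.Agent.Lib.S48 Fermat.Agent.Lib.ES IsLocalRing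
open scoped MatrixGroups TensorProduct

section Kill

variable {𝒪 𝒪' : Type*} [CommRing 𝒪] [CommRing 𝒪'] [Algebra 𝒪 𝒪'] {G G' : Type*} [Group G] [Group G']
  {Z : Type*} [AddCommGroup Z] [Module 𝒪 Z]

/-- an operator natural in the coefficients which kills `emb z` for all `z` kills `s59e_homBC emb v`. -/
theorem s59f_homBC_kill (emb : Z →ₗ[𝒪] (Additive G →+ 𝒪))
    (Ω : (Additive G →+ 𝒪) →+ (Additive G' →+ 𝒪)) (Ω' : (Additive G →+ 𝒪') →+ (Additive G' →+ 𝒪'))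
    (hnat : ∀ χ, Ω' (s59e_post 𝒪 𝒪' G χ) = s59e_post 𝒪 𝒪' G' (Ω χ))
    (hlin : ∀ (c : 𝒪') χ, Ω' (c • χ) = c • Ω' χ)
    (hkill : ∀ z, Ω (emb z) = 0) (v : 𝒪' ⊗[𝒪] Z) : Ω' (s59e_homBC emb v) = 0 := by
  induction v using TensorProduct.induction_on with
  | zero => rw [map_zero, map_zero]
  | tmul c z => rw [s59e_homBC_tmul, hlin, hnat, hkill, map_zero, smul_zero]
  | add x y hx hy => rw [map_add, map_add, hx, hy, add_zero]

end Kill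

section Concrete

variable {M : ℕ} [NeZero M] (H : Subgroup (ZMod M)ˣ)
  {𝒪 : Type} [CommRing 𝒪] [IsDomain 𝒪] [IsDiscreteValuationRing 𝒪]
  [IsAdicComplete (maximalIdeal 𝒪) 𝒪] [Finite (ResidueField 𝒪)] [CharZero 𝒪]

/-- **the eigenclass attached to a joint eigenvector**, with the pure diamond clause. -/
theorem s59f_eigenclass_of_joint {n m : ℕ} (hnm : 2 * m = n + 1)
    (hn : ∀ u : (ZMod M)ˣ, u ^ n ∈ H)
    {𝒪' : Type} [CommRing 𝒪'] [IsDomain 𝒪'] [Algebra 𝒪 𝒪'] [Module.Free 𝒪 𝒪']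
    {Z : Type} [AddCommGroup Z] [Module 𝒪 Z] [Module.Free 𝒪 Z]
    (emb : Z →ₗ[𝒪] s48h_Hpar 𝒪 (s48h_GammaH M H) 𝒪) (hemb : Function.Injective emb)
    (op : s59w_AIdx M → Module.End 𝒪 Z)
    (hop : ∀ j z, emb (op j z) = s59w_op H 𝒪 j (emb z))
    (v : 𝒪' ⊗[𝒪] Z) (hv0 : v ≠ 0) (c : s59w_AIdx M → 𝒪')
    (hvc : ∀ j, (op j).baseChange 𝒪' v = c j • v) :
    ∃ (θ : (ZMod M)ˣ →* 𝒪'ˣ) (a : ℕ → 𝒪') (φ : Additive (s48h_GammaH M H) →+ 𝒪'),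
      φ ≠ 0 ∧ IsParabolicHom (s48h_GammaH M H) φ ∧
      (∀ d ∈ H, θ d = 1) ∧ (∀ d, θ d ^ n = 1) ∧
      (∀ (σ : SL(2, ℤ)) (hσ : σ ∈ Gamma0 M) (du : (ZMod M)ˣ),
        ((du : (ZMod M)ˣ) : ZMod M) = ((σ 1 1 : ℤ) : ZMod M) →
        s48h_diamondH H σ hσ 𝒪' φ = (((θ du : 𝒪'ˣ) : 𝒪') ^ 2) • φ) ∧
      (∀ (ℓ : ℕ) [Fact ℓ.Prime] (hℓ : ¬ ℓ ∣ M) (σ : SL(2, ℤ)) (hσ : σ ∈ Gamma0 M)
        (hσ11 : ((σ 1 1 : ℤ) : ZMod M) = (ℓ : ZMod M)),
        s48h_TpH H hℓ σ hσ hσ11 𝒪' φ = a ℓ • φ) ∧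
      (∀ (t : Module.End 𝒪 Z) (x : 𝒪') (i : s59w_TIdx M) (k : ℕ) (ℓu : (ZMod M)ˣ),
        ((ℓu : (ZMod M)ˣ) : ZMod M) = (i.ell : ZMod M) →
        t = op (Sum.inr (s59e_tau i k)) * op (Sum.inl i) →
        t.baseChange 𝒪' v = x • v →
        x = ((θ ℓu : 𝒪'ˣ) : 𝒪') ^ (2 * k) * a i.ell) ∧
      (∀ (t : Module.End 𝒪 Z) (x : 𝒪') (τ : Gamma0 M),
        t = op (Sum.inr τ) → t.baseChange 𝒪' v = x • v →
        x = ((θ (s59w_lrUnit τ) : 𝒪'ˣ) : 𝒪') ^ 2) ∧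
      φ = s59e_homBC (𝒪' := 𝒪') (s59e_embH H emb) v := by
  classical
  -- the character
  let cD : Gamma0 M →* 𝒪' :=
    { toFun := fun τ => c (Sum.inr τ)
      map_one' := s59e_eigc_one H emb hemb op hop v hv0 c hvc 1 (one_mem _)
      map_mul' := s59e_eigc_mul H emb hemb op hop v hv0 c hvc }
  have hcD : ∀ τ : Gamma0 M, cD τ = c (Sum.inr τ) := fun τ => rfl
  obtain ⟨θ, hθH, hθn, hθ2⟩ := s59e_exists_theta H hnm hn cD
    (fun τ hτ => s59e_eigc_one H emb hemb op hop v hv0 c hvc τ hτ)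
  -- the eigenvalues of the `T_ℓ`
  let a : ℕ → 𝒪' := fun ℓ =>
    if h : ∃ i : s59w_TIdx M, i.ell = ℓ then c (Sum.inl (Classical.choose h)) else 0
  have ha : ∀ i : s59w_TIdx M, a i.ell = c (Sum.inl i) := by
    intro i
    have h : ∃ i' : s59w_TIdx M, i'.ell = i.ell := ⟨i, rfl⟩
    show (if h : ∃ i' : s59w_TIdx M, i'.ell = i.ell then _ else _) = _
    rw [dif_pos h]
    exact s59e_eigc_inl H emb hemb op hop v hv0 c hvc _ _ (Classical.choose_spec h)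
  -- the eigenclass
  have hφ0 : s59e_homBC (𝒪' := 𝒪') (s59e_embH H emb) v ≠ 0 := by
    intro h
    apply hv0
    apply s59e_homBC_injective (𝒪' := 𝒪') (s59e_embH H emb) (s59e_embH_injective H emb hemb)
    rw [map_zero]
    exact h
  have hpar : IsParabolicHom (s48h_GammaH M H)
      (s59e_homBC (𝒪' := 𝒪') (s59e_embH H emb) v) := by
    intro γ hγ
    refine s59e_homBC_vanish (s59e_embH H emb) _ (fun z => ?_) v
    exact (emb z).2.1 γ hγ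
  refine ⟨θ, a, s59e_homBC (𝒪' := 𝒪') (s59e_embH H emb) v, hφ0, hpar, hθH, hθn, ?_, ?_, ?_, ?_, rfl⟩
  · intro σ hσ du hdu
    have h1 : du = s59w_lrUnit (⟨σ, hσ⟩ : Gamma0 M) := Units.ext (by rw [hdu, s59w_lrUnit_coe])
    rw [h1, hθ2, hcD]
    exact s59e_eigc_dia H emb op hop v c hvc ⟨σ, hσ⟩
  · intro ℓ hℓF hℓ σ hσ hσ11
    have h1 := s59e_eigc_Tp H emb op hop v c hvc ⟨ℓ, hℓF.out, hℓ, σ, hσ, hσ11⟩
    rw [← ha] at h1
    exact h1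
  · intro t x i k ℓu hℓu hjt hx
    have h0 := s59e_eigc_prod H emb hemb op hop v hv0 c hvc _ _ t hjt x hx
    rw [h0, ha]
    congr 1
    have h1 : ℓu = s59w_lrUnit (⟨i.sig, i.mem⟩ : Gamma0 M) :=
      Units.ext (by rw [hℓu, s59w_lrUnit_coe, i.lr])
    rw [h1, pow_mul, hθ2, ← hcD]
    exact map_pow cD _ k
  · intro t x τ ht hx
    rw [hθ2, hcD]
    refine s59e_eig_unique (𝒪 := 𝒪) (Z := Z) hv0 ?_
    rw [← hx, ht, hvc]

/-- **the eigenclass attached to a minimal prime over the kernel of the action on `Z`** (`Z` an abstract finite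
free module embedded Hecke-equivariantly into `H_par`). -/
theorem s59f_eigenclass_of_minimalPrime_abs {n m : ℕ} (hnm : 2 * m = n + 1)
    (hn : ∀ u : (ZMod M)ˣ, u ^ n ∈ H)
    {Z : Type} [AddCommGroup Z] [Module 𝒪 Z] [Module.Finite 𝒪 Z] [Module.Free 𝒪 Z]
    (emb : Z →ₗ[𝒪] s48h_Hpar 𝒪 (s48h_GammaH M H) 𝒪) (hemb : Function.Injective emb)
    (op : s59w_AIdx M → Module.End 𝒪 Z)
    (hop : ∀ j z, emb (op j z) = s59w_op H 𝒪 j (emb z))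
    (T : Type) [CommRing T] [Algebra 𝒪 T] (jT : T →ₐ[𝒪] Module.End 𝒪 Z)
    (hjTg : ∀ t, jT t ∈ Algebra.adjoin 𝒪 (Set.range op))
    (𝔓 : Ideal T) (h𝔓 : 𝔓 ∈ (RingHom.ker jT).minimalPrimes) :
    ∃ (𝒪' : Type) (_ : CommRing 𝒪') (_ : IsDomain 𝒪') (_ : IsDiscreteValuationRing 𝒪')
      (_ : IsAdicComplete (maximalIdeal 𝒪') 𝒪') (_ : Finite (ResidueField 𝒪')) (_ : CharZero 𝒪')
      (_ : Algebra 𝒪 𝒪') (_ : Module.Finite 𝒪 𝒪') (_ : IsLocalHom (algebraMap 𝒪 𝒪'))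
      (x : T →ₐ[𝒪] 𝒪') (θ : (ZMod M)ˣ →* 𝒪'ˣ) (a : ℕ → 𝒪')
      (φ : Additive (s48h_GammaH M H) →+ 𝒪'),
      RingHom.ker x = 𝔓 ∧ φ ≠ 0 ∧ IsParabolicHom (s48h_GammaH M H) φ ∧
      (∀ d ∈ H, θ d = 1) ∧ (∀ d, θ d ^ n = 1) ∧
      (∀ (σ : SL(2, ℤ)) (hσ : σ ∈ Gamma0 M) (du : (ZMod M)ˣ),
        ((du : (ZMod M)ˣ) : ZMod M) = ((σ 1 1 : ℤ) : ZMod M) →
        s48h_diamondH H σ hσ 𝒪' φ = (((θ du : 𝒪'ˣ) : 𝒪') ^ 2) • φ) ∧
      (∀ (ℓ : ℕ) [Fact ℓ.Prime] (hℓ : ¬ ℓ ∣ M) (σ : SL(2, ℤ)) (hσ : σ ∈ Gamma0 M)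
        (hσ11 : ((σ 1 1 : ℤ) : ZMod M) = (ℓ : ZMod M)),
        s48h_TpH H hℓ σ hσ hσ11 𝒪' φ = a ℓ • φ) ∧
      (∀ (t : T) (i : s59w_TIdx M) (k : ℕ) (ℓu : (ZMod M)ˣ),
        ((ℓu : (ZMod M)ˣ) : ZMod M) = (i.ell : ZMod M) →
        jT t = op (Sum.inr (s59e_tau i k)) * op (Sum.inl i) →
        x t = ((θ ℓu : 𝒪'ˣ) : 𝒪') ^ (2 * k) * a i.ell) ∧
      (∀ (t : T) (τ : Gamma0 M), jT t = op (Sum.inr τ) →
        x t = ((θ (s59w_lrUnit τ) : 𝒪'ˣ) : 𝒪') ^ 2) ∧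
      ∃ v : 𝒪' ⊗[𝒪] Z, φ = s59e_homBC (𝒪' := 𝒪') (s59e_embH H emb) v := by
  classical
  -- the operators commute
  have hopc : ∀ i j, op i * op j = op j * op i := by
    intro i j
    refine LinearMap.ext fun z => hemb ?_
    rw [Module.End.mul_apply, Module.End.mul_apply, hop, hop, hop, hop]
    exact LinearMap.congr_fun (s59w_op_comm H 𝒪 i j) (emb z)
  -- the faithful quotient
  set I : Ideal T := RingHom.ker jT with hI
  let jQ : (T ⧸ I) →ₐ[𝒪] Module.End 𝒪 Z := Ideal.Quotient.liftₐ I jT (fun t ht => ht)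
  have hjQ : ∀ t : T, jQ (Ideal.Quotient.mk I t) = jT t := fun t => rfl
  have hjQinj : Function.Injective jQ := by
    rw [injective_iff_map_eq_zero]
    intro z hz
    obtain ⟨t, rfl⟩ := Ideal.Quotient.mk_surjective z
    rw [hjQ] at hz
    exact Ideal.Quotient.eq_zero_iff_mem.mpr hz
  have hjQg : ∀ z, jQ z ∈ Algebra.adjoin 𝒪 (Set.range op) := by
    intro z
    obtain ⟨t, rfl⟩ := Ideal.Quotient.mk_surjective z
    rw [hjQ]
    exact hjTg t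
  -- the minimal prime of the quotient
  rw [Ideal.minimalPrimes_eq_comap] at h𝔓
  obtain ⟨𝔭, h𝔭, rfl⟩ := h𝔓
  have hpt := s59e_point_family (𝒪 := 𝒪) (Z := Z) op hopc (T ⧸ I) jQ hjQinj hjQg 𝔭 h𝔭
  obtain ⟨𝒪', i1, i2, i3, i4, i5, i6, i7, i8, i9, x', c, v, hx', hv0, hvc, hvT⟩ := hpt
  haveI : Module.Free 𝒪 𝒪' := s59e_free_of_finite_domain (𝒪 := 𝒪) 𝒪'
  have key0 := fun v hv0 c hvc =>
    s59f_eigenclass_of_joint H hnm hn (𝒪' := 𝒪') (Z := Z) emb hemb op hop v hv0 c hvc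
  have key1 := key0 v
  have key2 := key1 hv0
  have key3 := key2 c
  obtain ⟨θ, a, φ, hφ0, hpar, hθH, hθn, hdia, heig, hprod, hpure, hφv⟩ := key3 hvc
  refine ⟨𝒪', i1, i2, i3, i4, i5, i6, i7, i8, i9, x'.comp (Ideal.Quotient.mkₐ 𝒪 I), θ, a, φ, ?_,
    hφ0, hpar, hθH, hθn, hdia, heig, ?_, ?_, ⟨v, hφv⟩⟩
  · ext t
    rw [RingHom.mem_ker, Ideal.mem_comap, ← hx', RingHom.mem_ker]
    rfl
  · intro t i k ℓu hℓu hjt
    exact hprod (jT t) (x' (Ideal.Quotient.mk I t)) i k ℓu hℓu hjt (hvT (Ideal.Quotient.mk I t))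
  · intro t τ hjt
    exact hpure (jT t) (x' (Ideal.Quotient.mk I t)) τ hjt (hvT (Ideal.Quotient.mk I t))

end Concrete

end Fermat.Agent.Lib.S59
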