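/-
S59 / [PATCH-FLR] / (T6), part (III-a) (helper4, prefix `s59f_`): **Eichler–Shimura at a GOOD prime `r`
for an eigenclass on `Γ₀(M)`, for ANY Galois representation with the right Frobenius polynomials outside
a finite set `S` (which may contain `r`).**

* `s59f_core2` : the abstract core of S30/S35 (form C) exporting, for EVERY `σ`, the implication
  "`σ² w − b σ w + q w = 0` for some `w ≠ 0` of the eigen-module, `d σ = q`  ⟹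
  `charpoly ρ''(σ) = X² − b X + q`" (from the scalar relation `ρ g + d g • ρ g⁻¹ = t g` of [DENS]);
* `s59f_eigvec0` : an eigenclass in `H_par(Γ₀(N), 𝒪)` gives an eigenvector in `𝒪 ⊗ T_p J₀(N)`;
* `s59f_ES0` : `Φ ≠ 0` parabolic on `Γ₀(M)`, `T_ℓ Φ = y_ℓ Φ` (`ℓ ∉ S`) and `T_r Φ = y_r Φ` (`r ∤ M p`),
  `ρ` with `charpoly ρ(Frob_ℓ) = X² − y_ℓ X + ℓ` (`ℓ ∉ S`)  ⟹  `charpoly ρ(Frob_r) = X² − y_r X + r`.
-/
import Mathlib
import Fermat.Agent.Lib.S59.FNewPt2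

set_option autoImplicit false
set_option linter.unusedSectionVars false
set_option linter.unusedVariables false
set_option linter.style.haveILetI false

open Polynomial IsLocalRing
open AlgebraicCurve ModularCurve CongruenceSubgroup ModularCurve.Period
open scoped TensorProduct MatrixGroups

namespace Fermat.Agent.Lib.S59

open Fermat.Agent.Lib.S29 Fermat.Agent.Lib.S30 Fermat.Agent.Lib.S35
  Fermat.Agent.Lib.S36 Fermat.Agent.Lib.S41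

noncomputable section

local notation "Qbar" => AlgebraicClosure ℚ
local notation "GQ" => (AlgebraicClosure ℚ ≃ₐ[ℚ] AlgebraicClosure ℚ)

section Core2

variable {𝒪 : Type} [CommRing 𝒪] [IsDomain 𝒪] [IsDiscreteValuationRing 𝒪]
  {M : Type} [AddCommGroup M] [Module 𝒪 M] [Module.Free 𝒪 M] [Module.Finite 𝒪 M]
  [IsAdicComplete (maximalIdeal 𝒪) 𝒪] [Finite (ResidueField 𝒪)] [CharZero 𝒪]

/-- **The abstract core, exporting the quadratic relation at every `σ`.** -/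
theorem s59f_core2 (hDens : s30_DensContract) (hTwo : s30_TwoContractC) (p : ℕ) [Fact p.Prime]
    (hp : (p : 𝒪) ∈ maximalIdeal 𝒪)
    (ρ : s29k_G →* Module.End 𝒪 M) (hcont : GaloisActionIsAdicContinuous 𝒪 ρ)
    (d : s29k_G →* 𝒪ˣ) (hd : s30_CharContinuous d)
    (cc : s29k_G) (hcc : cc * cc = 1) (hdcc : d cc = -1)
    {ι : Type} (T : ι → Module.End 𝒪 M) (c : ι → 𝒪)
    (hcomm : ∀ (σ : s29k_G) (i : ι), Commute (ρ σ) (T i))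
    (v : M) (hv0 : v ≠ 0) (hv : v ∈ s30f_eigen T c)
    (S₀ : Finset ℕ) (a : ℕ → 𝒪)
    (hfrob : ∀ ℓ : ℕ, ℓ.Prime → ℓ ∉ S₀ →
      ∀ A : ValuationSubring (AlgebraicClosure ℚ), A.LiesOverPrime ℓ →
        ∀ σ : s29k_G, A.IsFrobeniusAt σ ℓ →
          (∀ w ∈ s30f_eigen T c, ρ σ (ρ σ w) - a ℓ • ρ σ w + (ℓ : 𝒪) • w = 0) ∧
            ((d σ : 𝒪ˣ) : 𝒪) = (ℓ : 𝒪)) :
    ∃ ρ'' : GaloisRepAdic 𝒪,
      (∀ ℓ : ℕ, ℓ.Prime → ℓ ∉ S₀ →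
        ∀ A : ValuationSubring (AlgebraicClosure ℚ), A.LiesOverPrime ℓ →
          ∀ σ : s29k_G, A.IsFrobeniusAt σ ℓ →
            LinearMap.charpoly (ρ''.ρ σ) = X ^ 2 - C (a ℓ) * X + C ((ℓ : 𝒪))) ∧
      ∀ (σ : s29k_G) (q b : 𝒪), ((d σ : 𝒪ˣ) : 𝒪) = q →
        (∃ w ∈ s30f_eigen T c, w ≠ 0 ∧ ρ σ (ρ σ w) - b • ρ σ w + q • w = 0) →
        LinearMap.charpoly (ρ''.ρ σ) = X ^ 2 - C b * X + C q := by
  -- the eigen-submodule and the restricted representation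
  set E : Submodule 𝒪 M := s30f_eigen T c with hEdef
  have hE : ∀ (g : s29k_G) (w : M), w ∈ E → ρ g w ∈ E := fun g w hw =>
    s30f_map_mem_eigen (fun i => hcomm g i) hw
  have hsat : ∀ (r : 𝒪), r ≠ 0 → ∀ m : M, r • m ∈ E → m ∈ E := fun r hr m hm =>
    s30f_eigen_saturated hr hm
  haveI : Module.Finite 𝒪 E := s30f_finite_submodule E
  haveI : Module.Free 𝒪 E := s30f_free_submodule E
  haveI : Nontrivial E := ⟨⟨⟨v, hv⟩, 0, fun h => hv0 (congrArg Subtype.val h)⟩⟩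
  set ρE : s29k_G →* Module.End 𝒪 E := s30f_restrict ρ E hE with hρE
  have hcontE : GaloisActionIsAdicContinuous 𝒪 ρE := s30f_continuous_restrict ρ hcont E hE hsat
  -- [DENS]
  obtain ⟨t, ht, htfrob⟩ := hDens 𝒪 E ρE hcontE d hd S₀ a (by
    intro ℓ hℓ hℓS A hA σ hσ
    obtain ⟨h1, h2⟩ := hfrob ℓ hℓ hℓS A hA σ hσ
    refine ⟨?_, h2⟩
    apply LinearMap.ext
    intro w
    apply Subtype.ext
    exact h1 (w : M) w.2)
  -- [TWO], form C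
  obtain ⟨ρ'', hchar, -⟩ := hTwo p 𝒪 hp E ρE hcontE d hd t ht cc hcc hdcc
  refine ⟨ρ'', ?_, ?_⟩
  · intro ℓ hℓ hℓS A hA σ hσ
    rw [hchar σ, htfrob ℓ hℓ hℓS A hA σ hσ, (hfrob ℓ hℓ hℓS A hA σ hσ).2]
  · intro σ q b hdq ⟨w, hwE, hw0, hw⟩
    have hinv : ρE σ⁻¹ * ρE σ = 1 := by rw [← map_mul, inv_mul_cancel, map_one]
    have hrel : ρE σ + q • ρE σ⁻¹ = t σ • 1 := by rw [← hdq]; exact ht σ
    set w' : E := ⟨w, hwE⟩ with hw'def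
    have hw0' : w' ≠ 0 := fun h => hw0 (congrArg Subtype.val h)
    have hsinv : ∀ x : E, ρE σ⁻¹ (ρE σ x) = x := fun x => LinearMap.congr_fun hinv x
    -- the relation of [DENS] on `σ w`
    have h1 : ρE σ (ρE σ w') + q • w' = t σ • ρE σ w' := by
      have := congrArg (fun f : Module.End 𝒪 E => f (ρE σ w')) hrel
      simp only [LinearMap.add_apply, LinearMap.smul_apply, Module.End.one_apply] at this
      rw [hsinv] at this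
      exact this
    -- the given relation
    have h2 : ρE σ (ρE σ w') - b • ρE σ w' + q • w' = 0 := by
      apply Subtype.ext
      exact hw
    have h3 : (t σ - b) • ρE σ w' = 0 := by
      rw [sub_smul, ← h1]
      rw [← h2]
      abel
    have h4 : (t σ - b) • w' = 0 := by
      have := congrArg (ρE σ⁻¹) h3
      rw [map_smul, hsinv, map_zero] at this
      exact this
    have h5 : t σ = b := by
      rcases smul_eq_zero.mp h4 with h | h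
      · exact sub_eq_zero.mp h
      · exact absurd h hw0'
    rw [hchar σ, h5, hdq]

end Core2

section Eig0

variable (N : ℕ) [NeZero N] (p : ℕ) [Fact p.Prime]

/-- an eigenclass in `H_par(Γ₀(N), 𝒪)` gives an eigenvector in `𝒪 ⊗ T_p J₀(N)`. -/
theorem s59f_eigvec0 (S : Set ℕ) (𝒪 : Type*) [CommRing 𝒪] [IsDomain 𝒪] [CharZero 𝒪] [Algebra ℤ_[p] 𝒪]
    (Φ : Additive (Gamma0 N) →+ 𝒪) (hΦ : IsParabolicHom (Gamma0 N) Φ) (hΦ0 : Φ ≠ 0)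
    (y : ℕ → 𝒪)
    (hT : ∀ (ℓ : ℕ) [Fact ℓ.Prime], ¬ ℓ ∣ N → ℓ ∉ S → s29h_heckeHom N ℓ 𝒪 Φ = y ℓ • Φ) :
    ∃ v : 𝒪 ⊗[ℤ_[p]] s30a_TJ N p, v ≠ 0 ∧
      (∀ (ℓ : ℕ) (hℓ : ℓ.Prime), ¬ ℓ ∣ N → ℓ ∉ S →
        (s30a_Tz N p ⟨ℓ, hℓ⟩).baseChange 𝒪 v = y ℓ • v) := by
  classical
  haveI : Module.Flat ℤ_[p] 𝒪 := s30e_flat_padicInt p 𝒪
  haveI : IsAddTorsionFree 𝒪 := inferInstance
  let b₁ := Module.finBasis ℤ ↥(s29s_M N)
  have hΦH : Φ ∈ s29h_Hpar 𝒪 N 𝒪 := s29h_mem_Hpar_of_parabolic hΦ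
  obtain ⟨c, hc⟩ := s59b_exists_coeffs0 b₁ 𝒪 Φ hΦH
  have hc0 : c ≠ 0 := by
    rintro rfl
    apply hΦ0
    rw [hc]
    simp
  have hli : LinearIndependent ℤ_[p] (fun i => s30i_iota N p (b₁ i)) :=
    s30e_iota_linearIndependent N p (s30u_kinf N p)
      (fun x k γ => s30u_kinf_spec N p x k γ) b₁
  refine ⟨∑ i, c i ⊗ₜ[ℤ_[p]] s30i_iota N p (b₁ i),
    s30e_tensor_sum_ne_zero _ hli c hc0, ?_⟩
  intro ℓ hℓ hℓN hℓS
  haveI : Fact ℓ.Prime := ⟨hℓ⟩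
  have hTz : ∀ j, s30a_Tz N p ⟨ℓ, hℓ⟩ (s30i_iota N p (b₁ j)) =
      ∑ i, ((s29s_heckeMat b₁ ℓ).map (Int.cast : ℤ → ℤ_[p])) i j •
        s30i_iota N p (b₁ i) := by
    intro j
    rw [← s30e_iota_hecke_Tz N p ℓ hℓ hℓN (b₁ j)]
    have h1 : s29h_heckeHpar N ℓ ℤ ℤ (b₁ j) = ∑ i, s29s_heckeMat b₁ ℓ i j • b₁ i := by
      have h := b₁.sum_repr (s29h_heckeHpar N ℓ ℤ ℤ (b₁ j))
      rw [← h]
      refine Finset.sum_congr rfl fun i _ => ?_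
      rw [s29s_heckeMat, LinearMap.toMatrix_apply]
    rw [h1, map_sum]
    refine Finset.sum_congr rfl fun i _ => ?_
    rw [map_zsmul, Matrix.map_apply]
    exact (Int.cast_smul_eq_zsmul ℤ_[p] _ _).symm
  rw [s30e_baseChange_sum (s30a_Tz N p ⟨ℓ, hℓ⟩) (fun i => s30i_iota N p (b₁ i)) _
    hTz c]
  have hmat : ((s29s_heckeMat b₁ ℓ).map (Int.cast : ℤ → ℤ_[p])).map (algebraMap ℤ_[p] 𝒪) =
      (s29s_heckeMat b₁ ℓ).map (Int.cast : ℤ → 𝒪) := by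
    ext i j
    simp
  have hev := hT ℓ hℓN hℓS
  rw [hc] at hev
  rw [hmat, s59b_mulVec_of_eigen0 b₁ 𝒪 ℓ c (y ℓ) hev, Finset.smul_sum]
  refine Finset.sum_congr rfl fun i _ => ?_
  exact (TensorProduct.smul_tmul' (y ℓ) (c i) (s30i_iota N p (b₁ i))).symm

end Eig0

section ES0

variable (p : ℕ) [Fact p.Prime]

/-- **Eichler–Shimura at a good prime `r`** (`r ∤ M p`; `r ∈ S` allowed) for an eigenclass on `Γ₀(M)` and
any `ρ` with the Frobenius polynomials of the class outside `S`. -/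
theorem s59f_ES0 (M r : ℕ) [NeZero M] (hr : r.Prime) (hrp : r ≠ p) (hrM : ¬ r ∣ M)
    (S : Finset ℕ) (hpS : p ∈ S) (hNS : ∀ q : ℕ, q.Prime → q ∣ M → q ∈ S)
    (𝒪' : Type) [CommRing 𝒪'] [IsDomain 𝒪'] [IsDiscreteValuationRing 𝒪']
    [IsAdicComplete (maximalIdeal 𝒪') 𝒪'] [Finite (ResidueField 𝒪')]
    [CharZero 𝒪'] [Algebra ℤ_[p] 𝒪'] (hp𝒪' : (p : 𝒪') ∈ maximalIdeal 𝒪')
    (y : ℕ → 𝒪')
    (Φ : Additive (Gamma0 M) →+ 𝒪') (hΦ : IsParabolicHom (Gamma0 M) Φ) (hΦ0 : Φ ≠ 0)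
    (hT : ∀ (ℓ : ℕ) [Fact ℓ.Prime], ¬ ℓ ∣ M → ℓ ∉ S → s29h_heckeHom M ℓ 𝒪' Φ = y ℓ • Φ)
    (hTr : (haveI : Fact r.Prime := ⟨hr⟩; s29h_heckeHom M r 𝒪' Φ) = y r • Φ)
    (ρ : GaloisRepAdic 𝒪')
    (hρ : ∀ ℓ : ℕ, ℓ.Prime → ℓ ∉ S → ∀ P : ValuationSubring Qbar, P.LiesOverPrime ℓ →
      ∀ σ : GQ, P.IsFrobeniusAt σ ℓ →
        LinearMap.charpoly (ρ.ρ σ) = X ^ 2 - C (y ℓ) * X + C ((ℓ : 𝒪')))
    (A : ValuationSubring Qbar) (hA : A.LiesOverPrime r) (σ : GQ) (hσ : A.IsFrobeniusAt σ r) :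
    LinearMap.charpoly (ρ.ρ σ) = X ^ 2 - C (y r) * X + C ((r : 𝒪')) := by
  classical
  have hDens := s30d_densContract
  have hTwo := s30t2_twoC_of s30w_wilContract s30l_lattContract
  set Cy := s30y_cycDatum p with hCy
  have hconj := s30y_conj_datum p
  set f : ℤ_[p] →+* 𝒪' := algebraMap ℤ_[p] 𝒪' with hf
  have hfnat : ∀ m : ℕ, algebraMap ℤ_[p] 𝒪' (m : ℤ_[p]) = (m : 𝒪') := fun m => map_natCast _ m
  -- the base-changed Tate module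
  set ρT : s29k_G →* Module.End 𝒪' (𝒪' ⊗[ℤ_[p]] s30a_TJ M p) :=
    s30f_baseChange 𝒪' (s30a_rho M p) with hρT
  have hcont : GaloisActionIsAdicContinuous 𝒪' ρT :=
    s30f_continuous_baseChange p hp𝒪' (s30a_rho M p) (s30a_cont M p)
  -- the cyclotomic character
  set d : s29k_G →* 𝒪'ˣ := (Units.map (f : ℤ_[p] →* 𝒪')).comp Cy.ε with hd
  have hdval : ∀ τ : s29k_G, ((d τ : 𝒪'ˣ) : 𝒪') = f ((Cy.ε τ : ℤ_[p]ˣ) : ℤ_[p]) := fun τ => rfl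
  have hdcont : s30_CharContinuous d := by
    intro n
    obtain ⟨L, hL, -, h1⟩ := Cy.cont n
    refine ⟨L, hL, fun τ hτ => ?_⟩
    obtain ⟨w, hw⟩ := h1 τ hτ
    have : ((d τ : 𝒪'ˣ) : 𝒪') - 1 = (p : 𝒪') ^ n * f w := by
      rw [hdval, ← map_one f, ← map_sub, hw, map_mul, map_pow, map_natCast]
    rw [this]
    exact Ideal.mul_mem_right _ _ (Ideal.pow_mem_pow hp𝒪' n)
  have hdcc : d complexConjugation = -1 := by
    apply Units.ext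
    rw [hdval, hconj]
    simp
  -- the eigen-system: all `ℓ ∉ S`, and `r`
  let ι : Type := {ℓ : ℕ // ℓ.Prime ∧ ¬ ℓ ∣ M ∧ (ℓ ∉ (↑S : Set ℕ) ∨ ℓ = r)}
  let T₀ : ι → Module.End ℤ_[p] (s30a_TJ M p) := fun i => s30a_Tz M p ⟨i.1, i.2.1⟩
  let T : ι → Module.End 𝒪' (𝒪' ⊗[ℤ_[p]] s30a_TJ M p) := fun i => (T₀ i).baseChange 𝒪'
  let c : ι → 𝒪' := fun i => y i.1
  have hcomm₀ : ∀ (τ : s29k_G) (i : ι), Commute (s30a_rho M p τ) (T₀ i) := fun τ i =>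
    s30a_Tz_comm M p ⟨i.1, i.2.1⟩ τ
  have hcomm : ∀ (τ : s29k_G) (i : ι), Commute (ρT τ) (T i) := fun τ i =>
    s30f_baseChange_commute 𝒪' (hcomm₀ τ i)
  -- the eigenvector
  obtain ⟨v, hv0, hv⟩ := s59f_eigvec0 M p ({ℓ : ℕ | ℓ ∈ S ∧ ℓ ≠ r} : Set ℕ) 𝒪' Φ hΦ hΦ0 y
    (fun ℓ inst hℓN hℓS => by
      by_cases hℓr : ℓ = r
      · subst hℓr
        exact hTr
      · exact hT ℓ hℓN (fun h => hℓS ⟨h, hℓr⟩))
  have hvE : v ∈ s30f_eigen T c := fun i => hv i.1 i.2.1 i.2.2.1 (by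
    rintro ⟨h1, h2⟩
    rcases i.2.2.2 with h | h
    · exact h (Finset.mem_coe.mpr h1)
    · exact h2 h)
  -- the Frobenius data
  have hgood : ∀ ℓ : ℕ, ℓ.Prime → ℓ ∉ S → ¬ ℓ ∣ M ∧ ℓ ≠ p := by
    intro ℓ hℓ hℓS
    exact ⟨fun h => hℓS (hNS ℓ hℓ h), fun h => hℓS (h ▸ hpS)⟩
  have hndvd : ∀ ℓ : ℕ, ℓ.Prime → ¬ ℓ ∣ M → ℓ ≠ p → ¬ ℓ ∣ M * p := by
    intro ℓ hℓ h1 h2 h3
    rcases (Nat.Prime.dvd_mul hℓ).mp h3 with h | h
    · exact h1 h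
    · exact h2 ((Nat.prime_dvd_prime_iff_eq hℓ (Fact.out : p.Prime)).mp h)
  -- the quadratic relation at a Frobenius of any `ℓ` in the index set
  have hquad : ∀ (ℓ : ℕ) (hℓ : ℓ.Prime) (hℓN : ¬ ℓ ∣ M) (hℓp : ℓ ≠ p)
      (hℓi : ℓ ∉ (↑S : Set ℕ) ∨ ℓ = r)
      (P : ValuationSubring (AlgebraicClosure ℚ)) (hP : P.LiesOverPrime ℓ)
      (τ : s29k_G) (hτ : P.IsFrobeniusAt τ ℓ),
      ∀ w ∈ s30f_eigen T c, ρT τ (ρT τ w) - y ℓ • ρT τ w + (ℓ : 𝒪') • w = 0 := by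
    intro ℓ hℓ hℓN hℓp hℓi P hP τ hτ w hw
    have hq := s30a_Tz_frobQuad M p ⟨ℓ, hℓ⟩ (hndvd ℓ hℓ hℓN hℓp) P hP τ hτ
    have hq' := congrArg (fun g : Module.End ℤ_[p] (s30a_TJ M p) => g.baseChange 𝒪' w) hq
    simp only [LinearMap.baseChange_add, LinearMap.baseChange_sub, LinearMap.baseChange_mul,
      LinearMap.baseChange_smul, LinearMap.baseChange_one, LinearMap.baseChange_zero,
      LinearMap.add_apply, LinearMap.sub_apply, Module.End.mul_apply, LinearMap.smul_apply,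
      Module.End.one_apply, LinearMap.zero_apply] at hq'
    have hTw : (s30a_Tz M p ⟨ℓ, hℓ⟩).baseChange 𝒪' (ρT τ w) = y ℓ • ρT τ w :=
      s30f_map_mem_eigen (fun i => hcomm τ i) hw ⟨ℓ, hℓ, hℓN, hℓi⟩
    have hsm : (((ℓ : ℕ) : ℤ_[p])) • w = (ℓ : 𝒪') • w := by
      rw [algebra_compatible_smul 𝒪' ((ℓ : ℕ) : ℤ_[p]) w, hfnat]
    rw [s30f_baseChange_apply] at hTw ⊢
    rw [hTw, hsm] at hq'
    exact hq'
  have hfrob : ∀ ℓ : ℕ, ℓ.Prime → ℓ ∉ S →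
      ∀ P : ValuationSubring (AlgebraicClosure ℚ), P.LiesOverPrime ℓ →
        ∀ τ : s29k_G, P.IsFrobeniusAt τ ℓ →
          (∀ w ∈ s30f_eigen T c, ρT τ (ρT τ w) - y ℓ • ρT τ w + (ℓ : 𝒪') • w = 0) ∧
            ((d τ : 𝒪'ˣ) : 𝒪') = (ℓ : 𝒪') := by
    intro ℓ hℓ hℓS P hP τ hτ
    obtain ⟨hℓN, hℓp⟩ := hgood ℓ hℓ hℓS
    have hℓS' : ℓ ∉ (↑S : Set ℕ) := fun h => hℓS (Finset.mem_coe.mp h)
    refine ⟨hquad ℓ hℓ hℓN hℓp (Or.inl hℓS') P hP τ hτ, ?_⟩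
    rw [hdval, Cy.frob ℓ hℓ hℓp P hP τ hτ, map_natCast]
  obtain ⟨ρ'', hchar, hloc⟩ :=
    s59f_core2 hDens hTwo p hp𝒪' ρT hcont d hdcont complexConjugation complexConjugation_mul_self
      hdcc T c hcomm v hv0 hvE S y hfrob
  -- the statement for `ρ''` at `σ`
  have hdr : ((d σ : 𝒪'ˣ) : 𝒪') = (r : 𝒪') := by
    rw [hdval, Cy.frob r hr hrp A hA σ hσ, map_natCast]
  have hloc' := hloc σ (r : 𝒪') (y r) hdr
    ⟨v, hvE, hv0, hquad r hr hrM hrp (Or.inr rfl) A hA σ hσ v hvE⟩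
  -- transfer to `ρ`
  have huniq : LinearMap.charpoly (ρ''.ρ σ) = LinearMap.charpoly (ρ.ρ σ) := by
    refine s59k_charpoly_unique' ρ'' ρ S ?_ σ
    intro ℓ hℓ hℓS P hP τ hτ
    rw [hchar ℓ hℓ hℓS P hP τ hτ, hρ ℓ hℓ hℓS P hP τ hτ]
  rw [← huniq]
  exact hloc'

end ES0

end

end Fermat.Agent.Lib.S59
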