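/-
Programme (R) = S59, node (H2) (helper8), file 18: **the `a`-part projector of an endomorphism**
(the `(𝔪, U - a)`-adic Fitting decomposition, axiomatised).

`R` noetherian local, `Z` a finite `R`-module, `U ∈ End_R Z`, `a ∈ R`.  `E ∈ End_R Z` is an
`a`-part projector (`s59t_IsAlpha U a E`) if it is an idempotent commuting with `U`, `U - a` is
topologically nilpotent on `E Z` (`(U - a)ⁿ E Z ⊆ 𝔪 Z`) and `U - a` is surjective on `(1 - E) Z`.
* `s59t_alpha_natural` : every `R`-linear `f : Z₁ → Z₂` with `f U₁ = U₂ f` satisfies `f E₁ = E₂ f`;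
* `s59t_alpha_unique` : the `a`-part projector is unique;
* `s59t_alpha_commute` : it commutes with every endomorphism commuting with `U`.
Mathlib only.
-/
import Mathlib

set_option autoImplicit false
set_option linter.unusedSectionVars false

open IsLocalRing

namespace Fermat.Agent.Lib.S59

variable {R : Type*} [CommRing R] [IsLocalRing R]

/-- `E` is the projector onto the part of `Z` where `U ≡ a`. -/
structure s59t_IsAlpha {Z : Type*} [AddCommGroup Z] [Module R Z] (U : Module.End R Z) (a : R)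
    (E : Module.End R Z) : Prop where
  idem : E * E = E
  comm : E * U = U * E
  nil : ∃ n : ℕ, ∀ z, ((U - a • 1) ^ n) (E z) ∈ (maximalIdeal R • ⊤ : Submodule R Z)
  surj : ∀ z, ∃ z', (U - a • 1) ((1 - E) z') = (1 - E) z

section Basic

variable {Z : Type*} [AddCommGroup Z] [Module R Z] {U : Module.End R Z} {a : R}
  {E : Module.End R Z}

theorem s59t_IsAlpha.commN (h : s59t_IsAlpha U a E) : Commute E (U - a • 1) := by
  have h1 : Commute E U := h.comm
  exact h1.sub_right ((Commute.one_right E).smul_right a)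

theorem s59t_IsAlpha.commN_pow (h : s59t_IsAlpha U a E) (k : ℕ) (z : Z) :
    E (((U - a • 1) ^ k) z) = ((U - a • 1) ^ k) (E z) := by
  have := (h.commN.pow_right k).eq
  exact LinearMap.congr_fun this z

theorem s59t_IsAlpha.idem_apply (h : s59t_IsAlpha U a E) (z : Z) : E (E z) = E z :=
  LinearMap.congr_fun h.idem z

/-- a linear map with values in `𝔪 Z'` maps `𝔪ʲ Z` into `𝔪ʲ⁺¹ Z'`. -/
theorem s59t_map_pow_smul {Z' : Type*} [AddCommGroup Z'] [Module R Z'] (I : Ideal R)
    (g : Z →ₗ[R] Z') (hg : ∀ z, g z ∈ (I • ⊤ : Submodule R Z')) (j : ℕ) (z : Z)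
    (hz : z ∈ (I ^ j • ⊤ : Submodule R Z)) : g z ∈ (I ^ (j + 1) • ⊤ : Submodule R Z') := by
  have h1 : Submodule.map g (I ^ j • ⊤) ≤ (I ^ (j + 1) • ⊤ : Submodule R Z') := by
    rw [Submodule.map_smul'', pow_succ, mul_smul]
    refine Submodule.smul_mono le_rfl ?_
    rintro _ ⟨z, -, rfl⟩
    exact hg z
  exact h1 (Submodule.mem_map_of_mem hz)

/-- a linear map maps `𝔪ʲ Z` into `𝔪ʲ Z'`. -/
theorem s59t_map_pow_smul' {Z' : Type*} [AddCommGroup Z'] [Module R Z'] (I : Ideal R)
    (g : Z →ₗ[R] Z') (z : Z) (hz : z ∈ (I • ⊤ : Submodule R Z)) :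
    g z ∈ (I • ⊤ : Submodule R Z') :=
  Submodule.smul_top_le_comap_smul_top I g hz

/-- `(U - a)^{n m} E Z ⊆ 𝔪ᵐ Z`. -/
theorem s59t_IsAlpha.nil_pow (h : s59t_IsAlpha U a E) :
    ∃ n : ℕ, ∀ (m : ℕ) (z : Z),
      ((U - a • 1) ^ (n * m)) (E z) ∈ (maximalIdeal R ^ m • ⊤ : Submodule R Z) := by
  obtain ⟨n, hn⟩ := h.nil
  refine ⟨n, fun m => ?_⟩
  induction m with
  | zero =>
    intro z
    rw [pow_zero, Ideal.one_eq_top, Submodule.top_smul]
    exact Submodule.mem_top
  | succ m ih =>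
    intro z
    have h1 : ((U - a • 1) ^ (n * (m + 1))) (E z) =
        (((U - a • 1) ^ n) * E) (((U - a • 1) ^ (n * m)) (E z)) := by
      rw [Module.End.mul_apply, h.commN_pow, h.idem_apply, Nat.mul_succ, add_comm, pow_add,
        Module.End.mul_apply]
    rw [h1]
    exact s59t_map_pow_smul (maximalIdeal R) (((U - a • 1) ^ n) * E)
      (fun z => hn z) m _ (ih z)

/-- `(1 - E)` is an idempotent commuting with `U - a`. -/
theorem s59t_IsAlpha.compl_apply (h : s59t_IsAlpha U a E) (z : Z) :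
    (1 - E) ((1 - E) z) = (1 - E) z := by
  simp only [LinearMap.sub_apply, Module.End.one_apply, map_sub, h.idem_apply]
  abel

theorem s59t_IsAlpha.compl_commN_pow (h : s59t_IsAlpha U a E) (k : ℕ) (z : Z) :
    (1 - E) (((U - a • 1) ^ k) z) = ((U - a • 1) ^ k) ((1 - E) z) := by
  simp only [LinearMap.sub_apply, Module.End.one_apply, map_sub, h.commN_pow]

/-- iterating `surj`. -/
theorem s59t_IsAlpha.surj_pow (h : s59t_IsAlpha U a E) (k : ℕ) (z : Z) :
    ∃ z', ((U - a • 1) ^ k) ((1 - E) z') = (1 - E) z := by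
  induction k generalizing z with
  | zero => exact ⟨z, by rw [pow_zero, Module.End.one_apply]⟩
  | succ k ih =>
    obtain ⟨z₁, hz₁⟩ := h.surj z
    obtain ⟨z₂, hz₂⟩ := ih z₁
    refine ⟨z₂, ?_⟩
    rw [pow_succ', Module.End.mul_apply, hz₂, hz₁]

end Basic

section Inj

variable [IsNoetherianRing R] {Z : Type*} [AddCommGroup Z] [Module R Z] [Module.Finite R Z]
  {U : Module.End R Z} {a : R} {E : Module.End R Z}

/-- on `(1 - E) Z` the powers of `U - a` reflect membership in `I Z`. -/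
theorem s59t_IsAlpha.reflect (h : s59t_IsAlpha U a E) (I : Ideal R) (k : ℕ) (w : Z)
    (hw : (1 - E) w = w) (hk : ((U - a • 1) ^ k) w ∈ (I • ⊤ : Submodule R Z)) :
    w ∈ (I • ⊤ : Submodule R Z) := by
  classical
  set C : Submodule R Z := LinearMap.range (1 - E) with hC
  have hmemC : ∀ z, z ∈ C ↔ (1 - E) z = z := by
    intro z
    constructor
    · rintro ⟨y, rfl⟩
      exact h.compl_apply y
    · intro hz
      exact ⟨z, hz⟩
  have hstab : ∀ z ∈ C, ((U - a • 1) ^ k) z ∈ C := by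
    intro z hz
    rw [hmemC] at hz ⊢
    rw [h.compl_commN_pow, hz]
  let NC : C →ₗ[R] C := ((U - a • 1) ^ k).restrict hstab
  have hsurj : Function.Surjective NC := by
    rintro ⟨z, hz⟩
    obtain ⟨z', hz'⟩ := h.surj_pow k z
    rw [(hmemC z).mp hz] at hz'
    exact ⟨⟨(1 - E) z', ⟨z', rfl⟩⟩, Subtype.ext hz'⟩
  have hinj : Function.Injective NC := OrzechProperty.injective_of_surjective_endomorphism NC hsurj
  let e : C ≃ₗ[R] C := LinearEquiv.ofBijective NC ⟨hinj, hsurj⟩
  have hwC : w ∈ C := (hmemC w).mpr hw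
  -- `N^k w ∈ I • C`
  have h1 : ((U - a • 1) ^ k) w ∈ (I • C : Submodule R Z) := by
    have h2 : Submodule.map (1 - E) (I • ⊤ : Submodule R Z) = I • C := by
      rw [Submodule.map_smul'', Submodule.map_top]
    have h3 : (1 - E) (((U - a • 1) ^ k) w) = ((U - a • 1) ^ k) w := by
      rw [h.compl_commN_pow, hw]
    rw [← h3, ← h2]
    exact Submodule.mem_map_of_mem hk
  have h4 : NC ⟨w, hwC⟩ ∈ (I • ⊤ : Submodule R C) := by
    rw [Submodule.mem_smul_top_iff]
    exact h1
  have h5 : e.symm (NC ⟨w, hwC⟩) ∈ (I • ⊤ : Submodule R C) :=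
    Submodule.smul_top_le_comap_smul_top I (e.symm : C →ₗ[R] C) h4
  have h6 : e.symm (NC ⟨w, hwC⟩) = ⟨w, hwC⟩ := e.symm_apply_apply _
  rw [h6, Submodule.mem_smul_top_iff] at h5
  exact Submodule.smul_mono le_rfl le_top h5

theorem s59t_krull (z : Z)
    (hz : ∀ m : ℕ, z ∈ (maximalIdeal R ^ m • ⊤ : Submodule R Z)) : z = 0 := by
  have h := Ideal.iInf_pow_smul_eq_bot_of_isLocalRing (R := R) (M := Z) (maximalIdeal R)
    Ideal.IsPrime.ne_top'
  have h1 : z ∈ (⨅ i : ℕ, maximalIdeal R ^ i • ⊤ : Submodule R Z) :=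
    (Submodule.mem_iInf _).mpr hz
  rw [h] at h1
  exact (Submodule.mem_bot R).mp h1

end Inj

section Natural

variable [IsNoetherianRing R]
  {Z₁ : Type*} [AddCommGroup Z₁] [Module R Z₁] [Module.Finite R Z₁]
  {Z₂ : Type*} [AddCommGroup Z₂] [Module R Z₂] [Module.Finite R Z₂]
  {U₁ : Module.End R Z₁} {U₂ : Module.End R Z₂} {a : R}
  {E₁ : Module.End R Z₁} {E₂ : Module.End R Z₂}

theorem s59t_intertwine_pow (f : Z₁ →ₗ[R] Z₂) (hf : ∀ z, f (U₁ z) = U₂ (f z)) (k : ℕ) (z : Z₁) :
    f (((U₁ - a • 1) ^ k) z) = ((U₂ - a • 1) ^ k) (f z) := by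
  induction k generalizing z with
  | zero => simp
  | succ k ih =>
    have e1 : ((U₁ - a • 1) ^ (k + 1)) z = ((U₁ - a • 1) ^ k) ((U₁ - a • 1) z) := by
      rw [pow_succ, Module.End.mul_apply]
    have e2 : ((U₂ - a • 1) ^ (k + 1)) (f z) = ((U₂ - a • 1) ^ k) ((U₂ - a • 1) (f z)) := by
      rw [pow_succ, Module.End.mul_apply]
    rw [e1, e2, ih]
    congr 1
    simp only [LinearMap.sub_apply, LinearMap.smul_apply, Module.End.one_apply, map_sub, map_smul,
      hf]

/-- **naturality of the `a`-part projector.** -/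
theorem s59t_alpha_natural (h₁ : s59t_IsAlpha U₁ a E₁) (h₂ : s59t_IsAlpha U₂ a E₂)
    (f : Z₁ →ₗ[R] Z₂) (hf : ∀ z, f (U₁ z) = U₂ (f z)) (z : Z₁) : f (E₁ z) = E₂ (f z) := by
  -- claim 1
  have c1 : ∀ z, (1 - E₂) (f (E₁ z)) = 0 := by
    intro z
    obtain ⟨n, hn⟩ := h₁.nil_pow
    apply s59t_krull (R := R)
    intro m
    refine h₂.reflect _ (n * m) _ (h₂.compl_apply _) ?_
    rw [← h₂.compl_commN_pow, ← s59t_intertwine_pow f hf]
    have h3 := hn m z
    generalize maximalIdeal R ^ m = I at h3 ⊢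
    exact s59t_map_pow_smul' I ((1 - E₂) ∘ₗ f) _ h3
  -- claim 2
  have c2 : ∀ z, E₂ (f ((1 - E₁) z)) = 0 := by
    intro z
    obtain ⟨n, hn⟩ := h₂.nil_pow
    apply s59t_krull (R := R)
    intro m
    obtain ⟨z', hz'⟩ := h₁.surj_pow (n * m) z
    rw [← hz', s59t_intertwine_pow f hf, h₂.commN_pow]
    exact hn m _
  have h4 : f (E₁ z) = E₂ (f (E₁ z)) := by
    have := c1 z
    rw [LinearMap.sub_apply, Module.End.one_apply, sub_eq_zero] at this
    exact this
  have h5 : E₂ (f z) = E₂ (f (E₁ z)) + E₂ (f ((1 - E₁) z)) := by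
    rw [← map_add, ← map_add]
    congr 2
    simp
  rw [h5, c2, add_zero]
  exact h4

end Natural

section Unique

variable [IsNoetherianRing R] {Z : Type*} [AddCommGroup Z] [Module R Z] [Module.Finite R Z]
  {U : Module.End R Z} {a : R} {E E' : Module.End R Z}

/-- **uniqueness of the `a`-part projector.** -/
theorem s59t_alpha_unique (h : s59t_IsAlpha U a E) (h' : s59t_IsAlpha U a E') : E = E' :=
  LinearMap.ext fun z => s59t_alpha_natural h h' LinearMap.id (fun _ => rfl) z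

/-- the `a`-part projector commutes with every endomorphism commuting with `U`. -/
theorem s59t_alpha_commute (h : s59t_IsAlpha U a E) (f : Module.End R Z)
    (hf : ∀ z, f (U z) = U (f z)) (z : Z) : f (E z) = E (f z) :=
  s59t_alpha_natural h h f hf z

end Unique

end Fermat.Agent.Lib.S59
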