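/-
Programme (R) = S59, node (H2) (helper8), file 19: **[TWLEMMA], abstract part** — the `q`-old/`q`-new
decomposition of level `M q` when `T_q² - (q+1)²` is invertible, and the `U_q ≡ α` part.

Data (`s59t_Old`): `R`-modules `Y` (level `M`), `Z` (level `M q`), the degeneracy maps
`resA, resB : Y → Z`, `corA, corB : Z → Y`, `T = T_q` on `Y`, `U = U_q` and `w = w_q` on `Z` with the
relations of `Lib/S41/LVIds.lean`:
 `corA resA = corB resB = q + 1`, `corA resB = corB resA = T`, `w² = 1`, `resB = w resA`,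
 `corB = corA w`, `resA corB = U + w`.
A commutative `R`-algebra `𝕃` acting on `Y` with `al, be ∈ 𝕃`, `al + be = T`, `al be = q`, and `be - al`,
`1 - al²`, `1 - be²` units.  Then with `ι_x = resB - resA x`:
 `Z = ι_al(Y) ⊕ ι_be(Y) ⊕ (ker corA ∩ ker corB)`, `U ι_al = ι_al al`, `U ι_be = ι_be be`, `U² = 1` on the third
summand; and (`s59t_Old.isAlpha`) the projector `P_al` onto `ι_al(Y)` is the `a`-part projector of
`U` when `al - a` is topologically nilpotent, `be - a` a unit and `1 - a² ∈ Rˣ`.  Mathlib + `TAlpha`.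
-/
import Mathlib
import Fermat.Agent.Lib.S59.TAlpha

set_option autoImplicit false
set_option linter.unusedSectionVars false

open IsLocalRing

namespace Fermat.Agent.Lib.S59

/-- the level-`M`/level-`M q` package. -/
structure s59t_Old (R : Type*) [CommRing R] (Y Z : Type*) [AddCommGroup Y] [Module R Y]
    [AddCommGroup Z] [Module R Z] where
  qq : R
  resA : Y →ₗ[R] Z
  resB : Y →ₗ[R] Z
  corA : Z →ₗ[R] Y
  corB : Z →ₗ[R] Y
  T : Module.End R Y
  U : Module.End R Z
  w : Module.End R Z
  corA_resA : ∀ y, corA (resA y) = (qq + 1) • y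
  corB_resB : ∀ y, corB (resB y) = (qq + 1) • y
  corA_resB : ∀ y, corA (resB y) = T y
  corB_resA : ∀ y, corB (resA y) = T y
  w_w : ∀ z, w (w z) = z
  resB_eq : ∀ y, resB y = w (resA y)
  corB_eq : ∀ z, corB z = corA (w z)
  resA_corB : ∀ z, resA (corB z) = U z + w z

namespace s59t_Old

variable {R : Type*} [CommRing R] {Y Z : Type*} [AddCommGroup Y] [Module R Y]
  [AddCommGroup Z] [Module R Z] (D : s59t_Old R Y Z)

theorem U_eq (z : Z) : D.U z = D.resA (D.corB z) - D.w z := by
  rw [D.resA_corB]; abel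

theorem U_resA (y : Y) : D.U (D.resA y) = D.resA (D.T y) - D.resB y := by
  rw [D.U_eq, D.corB_resA, D.resB_eq]

theorem U_resB (y : Y) : D.U (D.resB y) = D.qq • D.resA y := by
  rw [D.U_eq, D.corB_resB, D.resB_eq, D.w_w, map_smul, add_smul, one_smul]
  abel

theorem corA_w (z : Z) : D.corA (D.w z) = D.corB z := (D.corB_eq z).symm

theorem corB_w (z : Z) : D.corB (D.w z) = D.corA z := by
  rw [D.corB_eq, D.w_w]

theorem corA_U (z : Z) : D.corA (D.U z) = D.qq • D.corB z := by
  rw [D.U_eq, map_sub, D.corA_resA, D.corA_w, add_smul, one_smul]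
  abel

theorem corB_U (z : Z) : D.corB (D.U z) = D.T (D.corB z) - D.corA z := by
  rw [D.U_eq, map_sub, D.corB_resA, D.corB_w]

/-- `U² = 1` on the new part. -/
theorem U_U_of_ker (z : Z) (hA : D.corA z = 0) (hB : D.corB z = 0) : D.U (D.U z) = z := by
  have h1 : D.U z = -D.w z := by rw [D.U_eq, hB, map_zero, zero_sub]
  rw [h1, map_neg, D.U_eq, D.corB_w, hA, map_zero, zero_sub, D.w_w, neg_neg]

/-- `U` preserves the new part. -/
theorem cor_U_of_ker (z : Z) (hA : D.corA z = 0) (hB : D.corB z = 0) :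
    D.corA (D.U z) = 0 ∧ D.corB (D.U z) = 0 := by
  rw [D.corA_U, D.corB_U, hA, hB, map_zero, smul_zero, sub_zero]
  exact ⟨rfl, rfl⟩

section Alg

variable {𝕃 : Type*} [CommRing 𝕃] [Algebra R 𝕃] (c : 𝕃 →ₐ[R] Module.End R Y)

/-- `ι_x = resB - resA ∘ x`. -/
def iota (x : 𝕃) : Y →ₗ[R] Z := D.resB - D.resA ∘ₗ c x

/-- `λ_x = corA - x ∘ corB`. -/
def lam (x : 𝕃) : Z →ₗ[R] Y := D.corA - c x ∘ₗ D.corB

theorem iota_apply (x : 𝕃) (y : Y) : D.iota c x y = D.resB y - D.resA (c x y) := rfl

theorem lam_apply (x : 𝕃) (z : Z) : D.lam c x z = D.corA z - c x (D.corB z) := rfl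


/-- `ι_x` intertwines every pair of operators compatible with `resA`, `resB` and commuting with
`x`. -/
theorem iota_comm (x : 𝕃) (tY : Module.End R Y) (tZ : Module.End R Z)
    (hA : ∀ y, tZ (D.resA y) = D.resA (tY y)) (hB : ∀ y, tZ (D.resB y) = D.resB (tY y))
    (hx : ∀ y, tY (c x y) = c x (tY y)) (y : Y) :
    tZ (D.iota c x y) = D.iota c x (tY y) := by
  rw [iota_apply, iota_apply, map_sub, hA, hB, hx]

variable {c} {al be : 𝕃} (hT : c (al + be) = D.T) (hq : al * be = algebraMap R 𝕃 D.qq)

include hq in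
theorem qq_smul (y : Y) : D.qq • y = c (al * be) y := by
  rw [hq, AlgHom.commutes, Module.algebraMap_end_apply]

include hT hq in
theorem corA_iota (x : 𝕃) (y : Y) : D.corA (D.iota c x y) = c (al + be - (al * be + 1) * x) y := by
  rw [iota_apply, map_sub, D.corA_resB, D.corA_resA, add_smul, one_smul, D.qq_smul (c := c) hq, ← hT]
  simp only [map_sub, map_add, map_mul, map_one, LinearMap.sub_apply, LinearMap.add_apply,
    Module.End.mul_apply, Module.End.one_apply]

include hT hq in
theorem corB_iota (x : 𝕃) (y : Y) : D.corB (D.iota c x y) = c (al * be + 1 - (al + be) * x) y := by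
  rw [iota_apply, map_sub, D.corB_resB, D.corB_resA, add_smul, one_smul, D.qq_smul (c := c) hq, ← hT]
  simp only [map_sub, map_add, map_mul, map_one, LinearMap.sub_apply, LinearMap.add_apply,
    Module.End.mul_apply, Module.End.one_apply]

include hT hq in
theorem lam_iota (x x' : 𝕃) (y : Y) :
    D.lam c x (D.iota c x' y) =
      c (al + be - (al * be + 1) * x' - x * (al * be + 1 - (al + be) * x')) y := by
  rw [lam_apply, D.corA_iota hT hq, D.corB_iota hT hq, ← Module.End.mul_apply, ← map_mul,
    ← LinearMap.sub_apply, ← map_sub]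

include hT hq in
/-- `U ι_al = ι_al al`. -/
theorem U_iota_a (y : Y) : D.U (D.iota c al y) = D.iota c al (c al y) := by
  rw [iota_apply, iota_apply, map_sub, D.U_resB, D.U_resA, ← hT, ← map_smul,
    D.qq_smul (c := c) hq]
  have h1 : c (al + be) (c al y) = c (al * be) y + c al (c al y) := by
    have h2 : c ((al + be) * al) y = c (al * be + al * al) y := by
      congr 2
      ring
    simpa only [map_mul, map_add, Module.End.mul_apply, LinearMap.add_apply] using h2
  rw [h1, map_add]
  abel

include hT hq in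
/-- `λ_al U = al λ_al`. -/
theorem lam_a_U (z : Z) : D.lam c al (D.U z) = c al (D.lam c al z) := by
  rw [lam_apply, lam_apply, D.corA_U, D.corB_U, ← hT, D.qq_smul (c := c) hq, map_sub, map_sub]
  have h1 : c al (c (al + be) (D.corB z)) = c (al * be) (D.corB z) + c al (c al (D.corB z)) := by
    have h2 : c (al * (al + be)) (D.corB z) = c (al * be + al * al) (D.corB z) := by
      congr 2
      ring
    simpa only [map_mul, map_add, Module.End.mul_apply, LinearMap.add_apply] using h2
  rw [h1]
  abel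

/-! ### The projectors -/

section Proj

variable (c al be) (d sa sb : 𝕃)

/-- `π_al = ((be - al)(1 - al²))⁻¹ λ_al`. -/
def piA : Z →ₗ[R] Y := c (d * sa) ∘ₗ D.lam c al

/-- `π_be = ((al - be)(1 - be²))⁻¹ λ_be`. -/
def piB : Z →ₗ[R] Y := c (-(d * sb)) ∘ₗ D.lam c be

/-- the projector onto `ι_al(Y)`. -/
def PA : Module.End R Z := D.iota c al ∘ₗ D.piA c al d sa

/-- the projector onto `ι_be(Y)`. -/
def PB : Module.End R Z := D.iota c be ∘ₗ D.piB c be d sb

variable {c al be d sa sb}

theorem piA_apply (z : Z) : D.piA c al d sa z = c (d * sa) (D.lam c al z) := rfl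

theorem piB_apply (z : Z) : D.piB c be d sb z = c (-(d * sb)) (D.lam c be z) := rfl

theorem PA_apply (z : Z) : D.PA c al d sa z = D.iota c al (D.piA c al d sa z) := rfl

theorem PB_apply (z : Z) : D.PB c be d sb z = D.iota c be (D.piB c be d sb z) := rfl

variable (hd : (be - al) * d = 1) (hsa : (1 - al ^ 2) * sa = 1) (hsb : (1 - be ^ 2) * sb = 1)

theorem c_congr {x x' : 𝕃} (h : x = x') (y : Y) : c x y = c x' y := by rw [h]

include hT hq hd hsa in
theorem piA_iota_a (y : Y) : D.piA c al d sa (D.iota c al y) = y := by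
  rw [piA_apply, D.lam_iota hT hq, ← Module.End.mul_apply, ← map_mul]
  have h : d * sa * (al + be - (al * be + 1) * al - al * (al * be + 1 - (al + be) * al)) = 1 := by
    linear_combination ((1 - al ^ 2) * sa) * hd + hsa
  rw [h, map_one, Module.End.one_apply]

include hT hq in
theorem piA_iota_b (y : Y) : D.piA c al d sa (D.iota c be y) = 0 := by
  rw [piA_apply, D.lam_iota hT hq]
  have h : al + be - (al * be + 1) * be - al * (al * be + 1 - (al + be) * be) = 0 := by ring
  rw [h, map_zero, LinearMap.zero_apply, map_zero]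

include hT hq hd hsb in
theorem piB_iota_b (y : Y) : D.piB c be d sb (D.iota c be y) = y := by
  rw [piB_apply, D.lam_iota hT hq, ← Module.End.mul_apply, ← map_mul]
  have h : -(d * sb) * (al + be - (al * be + 1) * be - be * (al * be + 1 - (al + be) * be)) =
      1 := by
    linear_combination ((1 - be ^ 2) * sb) * hd + hsb
  rw [h, map_one, Module.End.one_apply]

include hT hq in
theorem piB_iota_a (y : Y) : D.piB c be d sb (D.iota c al y) = 0 := by
  rw [piB_apply, D.lam_iota hT hq]
  have h : al + be - (al * be + 1) * al - be * (al * be + 1 - (al + be) * al) = 0 := by ring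
  rw [h, map_zero, LinearMap.zero_apply, map_zero]

include hT hq in
theorem piA_U (z : Z) : D.piA c al d sa (D.U z) = c al (D.piA c al d sa z) := by
  rw [piA_apply, piA_apply, D.lam_a_U hT hq, ← Module.End.mul_apply, ← Module.End.mul_apply,
    ← map_mul, ← map_mul, mul_comm]

theorem piA_of_ker (z : Z) (hA : D.corA z = 0) (hB : D.corB z = 0) :
    D.piA c al d sa z = 0 := by
  rw [piA_apply, lam_apply, hA, hB, map_zero, sub_zero, map_zero]

theorem piB_of_ker (z : Z) (hA : D.corA z = 0) (hB : D.corB z = 0) :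
    D.piB c be d sb z = 0 := by
  rw [piB_apply, lam_apply, hA, hB, map_zero, sub_zero, map_zero]

/-- the new-part component. -/
def Pnew (c : 𝕃 →ₐ[R] Module.End R Y) (al be d sa sb : 𝕃) : Module.End R Z :=
  1 - D.PA c al d sa - D.PB c be d sb

theorem Pnew_apply (z : Z) :
    D.Pnew c al be d sa sb z = z - D.PA c al d sa z - D.PB c be d sb z := rfl

/-- a combination `c x₁ (λ_al z) + c x₂ (λ_be z)` in terms of `corA z`, `corB z`. -/
theorem lam_comb (x₁ x₂ : 𝕃) (z : Z) :
    c x₁ (D.lam c al z) + c x₂ (D.lam c be z) =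
      c (x₁ + x₂) (D.corA z) - c (x₁ * al + x₂ * be) (D.corB z) := by
  simp only [lam_apply, map_sub, map_add, map_mul, LinearMap.add_apply, Module.End.mul_apply]
  abel

include hT hq hd hsa hsb in
theorem corA_PA_add_PB (z : Z) :
    D.corA (D.PA c al d sa z + D.PB c be d sb z) = D.corA z := by
  rw [map_add, PA_apply, PB_apply, D.corA_iota hT hq, D.corA_iota hT hq, piA_apply, piB_apply,
    ← Module.End.mul_apply, ← Module.End.mul_apply, ← map_mul, ← map_mul, D.lam_comb]
  have h1 : (al + be - (al * be + 1) * al) * (d * sa) +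
      (al + be - (al * be + 1) * be) * -(d * sb) = 1 := by
    linear_combination (be * d) * hsa - (al * d) * hsb + hd
  have h2 : (al + be - (al * be + 1) * al) * (d * sa) * al +
      (al + be - (al * be + 1) * be) * -(d * sb) * be = 0 := by
    linear_combination (be * d * al) * hsa - (al * d * be) * hsb
  rw [h1, h2, map_one, map_zero, Module.End.one_apply, LinearMap.zero_apply, sub_zero]

include hT hq hd hsa hsb in
theorem corB_PA_add_PB (z : Z) :
    D.corB (D.PA c al d sa z + D.PB c be d sb z) = D.corB z := by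
  rw [map_add, PA_apply, PB_apply, D.corB_iota hT hq, D.corB_iota hT hq, piA_apply, piB_apply,
    ← Module.End.mul_apply, ← Module.End.mul_apply, ← map_mul, ← map_mul, D.lam_comb]
  have h1 : (al * be + 1 - (al + be) * al) * (d * sa) +
      (al * be + 1 - (al + be) * be) * -(d * sb) = 0 := by
    linear_combination d * hsa - d * hsb
  have h2 : (al * be + 1 - (al + be) * al) * (d * sa) * al +
      (al * be + 1 - (al + be) * be) * -(d * sb) * be = -1 := by
    linear_combination (d * al) * hsa - (d * be) * hsb - hd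
  rw [h1, h2, map_zero, map_neg, map_one, LinearMap.zero_apply, LinearMap.neg_apply,
    Module.End.one_apply, zero_sub, neg_neg]

include hT hq hd hsa hsb in
theorem cor_Pnew (z : Z) :
    D.corA (D.Pnew c al be d sa sb z) = 0 ∧ D.corB (D.Pnew c al be d sa sb z) = 0 := by
  have e : D.Pnew c al be d sa sb z = z - (D.PA c al d sa z + D.PB c be d sb z) := by
    rw [Pnew_apply]; abel
  rw [e, map_sub, map_sub, D.corA_PA_add_PB hT hq hd hsa hsb, D.corB_PA_add_PB hT hq hd hsa hsb,
    sub_self, sub_self]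
  exact ⟨rfl, rfl⟩

include hT hq hd hsa in
theorem PA_idem (z : Z) : D.PA c al d sa (D.PA c al d sa z) = D.PA c al d sa z := by
  rw [PA_apply, PA_apply, D.piA_iota_a hT hq hd hsa]

include hT hq in
theorem PA_U (z : Z) : D.PA c al d sa (D.U z) = D.U (D.PA c al d sa z) := by
  rw [PA_apply, PA_apply, D.piA_U hT hq, D.U_iota_a hT hq]

include hT hq hd hsa hsb in
theorem piA_Pnew (z : Z) : D.piA c al d sa (D.Pnew c al be d sa sb z) = 0 := by
  obtain ⟨h1, h2⟩ := D.cor_Pnew hT hq hd hsa hsb z
  exact D.piA_of_ker _ h1 h2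

end Proj

/-! ### `P_al` is the `a`-part projector of `U` -/

section Alpha

variable {d sa sb gb : 𝕃} {a r : R}
  (hd : (be - al) * d = 1) (hsa : (1 - al ^ 2) * sa = 1) (hsb : (1 - be ^ 2) * sb = 1)
  (hgb : (be - algebraMap R 𝕃 a) * gb = 1) (hr : (1 - a ^ 2) * r = 1)

include hT hq in
theorem U_iota_b (y : Y) : D.U (D.iota c be y) = D.iota c be (c be y) :=
  D.U_iota_a (al := be) (be := al) (by rw [add_comm]; exact hT) (by rw [mul_comm]; exact hq) y

include hT hq in
theorem N_iota_a (y : Y) :
    (D.U - a • 1) (D.iota c al y) = D.iota c al (c (al - algebraMap R 𝕃 a) y) := by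
  rw [LinearMap.sub_apply, LinearMap.smul_apply, Module.End.one_apply, D.U_iota_a hT hq, map_sub,
    AlgHom.commutes, LinearMap.sub_apply, Module.algebraMap_end_apply, map_sub, map_smul]

include hT hq in
theorem N_iota_b (y : Y) :
    (D.U - a • 1) (D.iota c be y) = D.iota c be (c (be - algebraMap R 𝕃 a) y) := by
  rw [LinearMap.sub_apply, LinearMap.smul_apply, Module.End.one_apply, D.U_iota_b hT hq, map_sub,
    AlgHom.commutes, LinearMap.sub_apply, Module.algebraMap_end_apply, map_sub, map_smul]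

include hT hq in
theorem N_pow_iota_a (k : ℕ) (y : Y) :
    ((D.U - a • 1) ^ k) (D.iota c al y) =
      D.iota c al (((c (al - algebraMap R 𝕃 a)) ^ k) y) := by
  induction k generalizing y with
  | zero => simp
  | succ k ih =>
    rw [pow_succ, Module.End.mul_apply, D.N_iota_a hT hq, ih, pow_succ, Module.End.mul_apply]

variable [IsLocalRing R]

include hT hq hd hsa hsb hgb hr in
/-- **`P_al` is the `a`-part projector of `U`.** -/
theorem isAlpha
    (hnil : ∃ n : ℕ, ∀ y : Y,
      ((c (al - algebraMap R 𝕃 a)) ^ n) y ∈ (maximalIdeal R • ⊤ : Submodule R Y)) :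
    s59t_IsAlpha D.U a (D.PA c al d sa) := by
  refine ⟨?_, ?_, ?_, ?_⟩
  · exact LinearMap.ext fun z => D.PA_idem hT hq hd hsa z
  · exact LinearMap.ext fun z => D.PA_U hT hq z
  · obtain ⟨n, hn⟩ := hnil
    refine ⟨n, fun z => ?_⟩
    rw [PA_apply, D.N_pow_iota_a hT hq]
    exact s59t_map_pow_smul' (maximalIdeal R) (D.iota c al) _ (hn _)
  · intro z
    set vN := D.Pnew c al be d sa sb z with hvN
    obtain ⟨hNA, hNB⟩ := D.cor_Pnew hT hq hd hsa hsb z
    rw [← hvN] at hNA hNB
    set z' : Z := D.iota c be (c gb (D.piB c be d sb z)) + r • (D.U vN + a • vN) with hz'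
    have hPA : D.PA c al d sa z' = 0 := by
      obtain ⟨hUA, hUB⟩ := D.cor_U_of_ker vN hNA hNB
      have hpi : D.piA c al d sa z' = 0 := by
        rw [hz', map_add, D.piA_iota_b hT hq, map_smul, map_add, map_smul,
          D.piA_of_ker _ hUA hUB, D.piA_of_ker _ hNA hNB]
        simp
      rw [PA_apply, hpi, map_zero]
    have h1 : (1 - D.PA c al d sa) z' = z' := by
      rw [LinearMap.sub_apply, Module.End.one_apply, hPA, sub_zero]
    have h2 : (1 - D.PA c al d sa) z = D.PB c be d sb z + vN := by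
      rw [hvN, Pnew_apply, LinearMap.sub_apply, Module.End.one_apply]
      abel
    refine ⟨z', ?_⟩
    rw [h1, h2, hz', map_add, D.N_iota_b hT hq, map_smul]
    congr 1
    · rw [PB_apply, ← Module.End.mul_apply, ← map_mul, hgb, map_one, Module.End.one_apply]
    · have h3 : (D.U - a • 1) (D.U vN + a • vN) = (1 - a ^ 2) • vN := by
        simp only [LinearMap.sub_apply, LinearMap.smul_apply, Module.End.one_apply, map_add,
          map_smul, D.U_U_of_ker vN hNA hNB]
        module
      rw [h3, smul_smul, mul_comm, hr, one_smul]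

include hT hq hd hsa in
theorem iota_a_injective : Function.Injective (D.iota c al) := by
  intro y y' h
  have := congrArg (D.piA c al d sa) h
  rwa [D.piA_iota_a hT hq hd hsa, D.piA_iota_a hT hq hd hsa] at this

include hT hq hd hsa in
theorem range_PA : LinearMap.range (D.PA c al d sa) = LinearMap.range (D.iota c al) := by
  apply le_antisymm
  · rintro _ ⟨z, rfl⟩
    exact ⟨_, rfl⟩
  · rintro _ ⟨y, rfl⟩
    exact ⟨D.iota c al y, by rw [PA_apply, D.piA_iota_a hT hq hd hsa]⟩

include hT hq hd hsa hsb hgb hr in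
/-- **[TWLEMMA], abstract form**: every `a`-part projector `E` of `U` on `Z` has range `ι_al(Y)`,
and `ι_al : Y → Z` is injective with `U ι_al = ι_al al`. -/
theorem range_of_isAlpha [IsNoetherianRing R] [Module.Finite R Z]
    (hnil : ∃ n : ℕ, ∀ y : Y,
      ((c (al - algebraMap R 𝕃 a)) ^ n) y ∈ (maximalIdeal R • ⊤ : Submodule R Y))
    {E : Module.End R Z} (hE : s59t_IsAlpha D.U a E) :
    LinearMap.range E = LinearMap.range (D.iota c al) := by
  rw [s59t_alpha_unique hE (D.isAlpha hT hq hd hsa hsb hgb hr hnil), D.range_PA hT hq hd hsa]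

include hT hq hd hsa hsb hgb hr in
/-- **[TWLEMMA], abstract form, as an isomorphism** `Y ≃ E Z`, `y ↦ ι_al y`. -/
theorem exists_equiv [IsNoetherianRing R] [Module.Finite R Z]
    (hnil : ∃ n : ℕ, ∀ y : Y,
      ((c (al - algebraMap R 𝕃 a)) ^ n) y ∈ (maximalIdeal R • ⊤ : Submodule R Y))
    {E : Module.End R Z} (hE : s59t_IsAlpha D.U a E) :
    ∃ Φ : Y ≃ₗ[R] LinearMap.range E, ∀ y, ((Φ y : LinearMap.range E) : Z) = D.iota c al y := by
  have hrange := D.range_of_isAlpha hT hq hd hsa hsb hgb hr hnil hE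
  refine ⟨(LinearEquiv.ofInjective (D.iota c al) (D.iota_a_injective hT hq hd hsa)).trans
    (LinearEquiv.ofEq _ _ hrange.symm), fun y => rfl⟩

end Alpha

end Alg

end s59t_Old

end Fermat.Agent.Lib.S59
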