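/-
Programme (R) = S59, node (H2) (helper8), file 20: **[TWLEMMA], concrete part** — the level
`M → M q` package `s59t_Old` for `H(Γ₀(M), A)`, `H(Γ₀(M q), A)` (from `Lib/S41/LV*.lean`), its
restriction to the parts of compatible idempotents, and the Taylor–Wiles isomorphism
`ε H(Γ₀(M), 𝒪) ≃ E ε' H(Γ₀(M q), 𝒪)`, `y ↦ resB y - resA (al y)`, for any `a`-part projector `E`
of `U_q`.
-/
import Mathlib
import Fermat.Agent.Lib.S41.LVNew
import Fermat.Agent.Lib.S59.TOld
import Fermat.Agent.Lib.S59.TWrap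

set_option autoImplicit false
set_option linter.unusedSectionVars false
set_option linter.style.haveILetI false

noncomputable section

namespace Fermat.Agent.Lib.S59

open CongruenceSubgroup IsLocalRing
open Fermat.Agent.Lib.S29 Fermat.Agent.Lib.S41

/-! ### Restriction of an `s59t_Old` package to the parts of idempotents -/

section Restrict

variable {R : Type*} [CommRing R] {Y Z : Type*} [AddCommGroup Y] [Module R Y]
  [AddCommGroup Z] [Module R Z] (D : s59t_Old R Y Z)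
  (ε : Module.End R Y) (ε' : Module.End R Z)

/-- the idempotents commute with the seven operators. -/
structure s59t_Old.Compat : Prop where
  resA : ∀ y, ε' (D.resA y) = D.resA (ε y)
  resB : ∀ y, ε' (D.resB y) = D.resB (ε y)
  corA : ∀ z, ε (D.corA z) = D.corA (ε' z)
  corB : ∀ z, ε (D.corB z) = D.corB (ε' z)
  T : ∀ y, ε (D.T y) = D.T (ε y)
  U : ∀ z, ε' (D.U z) = D.U (ε' z)
  w : ∀ z, ε' (D.w z) = D.w (ε' z)

variable {D ε ε'}

/-- the restricted package. -/
def s59t_Old.restrict (h : D.Compat ε ε') : s59t_Old R (s59t_part ε) (s59t_part ε') where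
  qq := D.qq
  resA := s59t_partMap D.resA h.resA
  resB := s59t_partMap D.resB h.resB
  corA := s59t_partMap D.corA h.corA
  corB := s59t_partMap D.corB h.corB
  T := s59t_partMap D.T h.T
  U := s59t_partMap D.U h.U
  w := s59t_partMap D.w h.w
  corA_resA y := Subtype.ext (D.corA_resA y.1)
  corB_resB y := Subtype.ext (D.corB_resB y.1)
  corA_resB y := Subtype.ext (D.corA_resB y.1)
  corB_resA y := Subtype.ext (D.corB_resA y.1)
  w_w z := Subtype.ext (D.w_w z.1)
  resB_eq y := Subtype.ext (D.resB_eq y.1)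
  corB_eq z := Subtype.ext (D.corB_eq z.1)
  resA_corB z := Subtype.ext (D.resA_corB z.1)

end Restrict

/-! ### The concrete package -/

section Concrete

variable {N₁ N₂ : ℕ} {ι : Type*} [Fintype ι] (R : Type*) [CommRing R] (A : Type*)
  [AddCommGroup A] [Module R A]

/-- a coset family as an `R`-linear map `H(Γ₀(N₁), A) → H(Γ₀(N₂), A)`. -/
def s59t_opHpar (F : s41l_Fam (s41l_i N₁) (s41l_i N₂) ι) (hdet : ∀ i, (F.g i).det ≠ 0) :
    s29h_Hpar R N₁ A →ₗ[R] s29h_Hpar R N₂ A where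
  toFun ψ := ⟨F.op A ψ.1, s41l_op_mem_Hpar R F hdet ψ.2⟩
  map_add' ψ ψ' := Subtype.ext (map_add (F.op A) ψ.1 ψ'.1)
  map_smul' c ψ := Subtype.ext (F.op_natural (DistribSMul.toAddMonoidHom A c) ψ.1)

theorem s59t_opHpar_coe (F : s41l_Fam (s41l_i N₁) (s41l_i N₂) ι) (hdet : ∀ i, (F.g i).det ≠ 0)
    (ψ : s29h_Hpar R N₁ A) :
    ((s59t_opHpar R A F hdet ψ : s29h_Hpar R N₂ A) : Additive (Gamma0 N₂) →+ A) = F.op A ψ.1 :=
  rfl

end Concrete

section Data

variable (M q : ℕ) [hq : Fact q.Prime] (hqM : ¬ q ∣ M) (R : Type*) [CommRing R] (A : Type*)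
  [AddCommGroup A] [Module R A]

theorem s59t_op_smul {N₁ N₂ : ℕ} {ι : Type*} [Fintype ι]
    (F : s41l_Fam (s41l_i N₁) (s41l_i N₂) ι) (c : R) (ψ : Additive (Gamma0 N₁) →+ A) :
    F.op A (c • ψ) = c • F.op A ψ :=
  F.op_natural (DistribSMul.toAddMonoidHom A c) ψ

/-- an additive operator preserving `H` and commuting with scalars, as a linear map. -/
def s59t_linOf {N₁ N₂ : ℕ}
    (op : (Additive (Gamma0 N₁) →+ A) →+ (Additive (Gamma0 N₂) →+ A))
    (hmem : ∀ ψ ∈ s29h_Hpar R N₁ A, op ψ ∈ s29h_Hpar R N₂ A)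
    (hsmul : ∀ (c : R) (ψ : Additive (Gamma0 N₁) →+ A), op (c • ψ) = c • op ψ) :
    s29h_Hpar R N₁ A →ₗ[R] s29h_Hpar R N₂ A where
  toFun ψ := ⟨op ψ.1, hmem ψ.1 ψ.2⟩
  map_add' ψ ψ' := Subtype.ext (map_add op ψ.1 ψ'.1)
  map_smul' c ψ := Subtype.ext (hsmul c ψ.1)

theorem s59t_linOf_coe {N₁ N₂ : ℕ}
    (op : (Additive (Gamma0 N₁) →+ A) →+ (Additive (Gamma0 N₂) →+ A))
    (hmem : ∀ ψ ∈ s29h_Hpar R N₁ A, op ψ ∈ s29h_Hpar R N₂ A)
    (hsmul : ∀ (c : R) (ψ : Additive (Gamma0 N₁) →+ A), op (c • ψ) = c • op ψ)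
    (ψ : s29h_Hpar R N₁ A) :
    ((s59t_linOf R A op hmem hsmul ψ : s29h_Hpar R N₂ A) : Additive (Gamma0 N₂) →+ A) =
      op ψ.1 := rfl

/-- **the level `M → M q` package on `H(Γ₀(M), A)`, `H(Γ₀(M q), A)`.** -/
def s59t_oldData : s59t_Old R (s29h_Hpar R M A) (s29h_Hpar R (M * q) A) where
  qq := (q : R)
  resA := s59t_linOf R A (s41l_resA M q A) (fun _ h => s41l_resA_mem_Hpar M q R h)
    (fun c ψ => s59t_op_smul R A (s41l_famResA M q) c ψ)
  resB := s59t_linOf R A (s41l_resB M q hqM A) (fun _ h => s41l_resB_mem_Hpar M q hqM R h)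
    (fun c ψ => s59t_op_smul R A (s41l_famResB M q hqM) c ψ)
  corA := s59t_linOf R A (s41l_corA M q hqM A) (fun _ h => s41l_corA_mem_Hpar M q hqM R h)
    (fun c ψ => s59t_op_smul R A (s41l_famCorA M q hqM) c ψ)
  corB := s59t_linOf R A (s41l_corB M q hqM A) (fun _ h => s41l_corB_mem_Hpar M q hqM R h)
    (fun c ψ => s59t_op_smul R A (s41l_famCorB M q hqM) c ψ)
  T := s29h_heckeHpar M q A R
  U := s59t_linOf R A (s41l_U M q A) (fun _ h => s41l_U_mem_Hpar M q R h)
    (fun c ψ => s59t_op_smul R A (s41l_famU M q) c ψ)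
  w := s59t_linOf R A (s41l_w M q hqM A) (fun _ h => s41l_w_mem_Hpar M q hqM R h)
    (fun c ψ => s59t_op_smul R A (s41l_famW M q hqM) c ψ)
  corA_resA y := by
    apply Subtype.ext
    show s41l_corA M q hqM A (s41l_resA M q A y.1) = ((q : R) + 1) • y.1
    rw [s41l_corA_resA, succ_nsmul, add_smul (q : R), one_smul, Nat.cast_smul_eq_nsmul]
  corB_resB y := by
    apply Subtype.ext
    show s41l_corB M q hqM A (s41l_resB M q hqM A y.1) = ((q : R) + 1) • y.1
    rw [s41l_corB_resB, succ_nsmul, add_smul (q : R), one_smul, Nat.cast_smul_eq_nsmul]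
  corA_resB y := Subtype.ext (s41l_corA_resB M q hqM y.1)
  corB_resA y := Subtype.ext (s41l_corB_resA M q hqM y.1)
  w_w z := Subtype.ext (s41l_w_w M q hqM z.1)
  resB_eq y := Subtype.ext (s41l_resB_eq M q hqM y.1)
  corB_eq z := Subtype.ext (s41l_corB_eq M q hqM z.1)
  resA_corB z := Subtype.ext (s41l_resA_corB M q hqM z.1)

end Data

end Fermat.Agent.Lib.S59
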