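/-
PROGRAMME R2 = S59, node [FLR], `T`-side, **the old/new package at `Γ_H`-level** (helper4, prefix
`s59f_`).  `Y = H(Γ_H(L), A)`, `Z = H(Γ_{H'}(L q), A)` (`H'` the preimage of `H`), any coefficient
ring `R` and `R`-module `A`.
* `s59f_oldOfW` : the formal construction of an `s59t_Old` package from `(res, cor, w̃)` with
  `cor ∘ res = q + 1`, `w̃² = 1`: `resB = w̃ res`, `corB = cor w̃`, `T = cor w̃ res`,
  `U = res cor w̃ − w̃`; `s59f_oldOfW_compat` : a pair `(X, X')` commuting with `res`, `cor`, `w̃`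
  commutes with all seven maps (`s59t_Old.Compat`);
* `s59f_resL`, `s59f_corL`, `s59f_wL`, `s59f_diaL`, `s59f_wtL e = ⟨e⟩ ∘ w` (`e ∈ Γ₀(L q)` with
  `γ_W e e ∈ Γ_{H'}`, i.e. `⟨e⟩ = ⟨q⟩^{-1/2}`);
* **`s59f_oldH`** : the package; `s59f_oldH_T : T = ⟨e⟩ T_q`, `s59f_oldH_U : U = U_q ⟨e⟩`;
* `s59f_oldH_compat_Tp/_diamond/_Uq` : all seven maps commute with `T_ℓ` (`ℓ ∤ L q`), the diamond
  operators and `U_{q'}` (`q' ∣ L`).
-/
import Mathlib
import Fermat.Agent.Lib.S59.FOldH6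
import Fermat.Agent.Lib.S59.TNew

set_option autoImplicit false
set_option linter.unusedSectionVars false
set_option linter.unusedVariables false
set_option linter.style.haveILetI false

noncomputable section

namespace Fermat.Agent.Lib.S59

open CongruenceSubgroup ModularCurve.Period
open Fermat.Agent.Lib.ES Fermat.Agent.Lib.S29 Fermat.Agent.Lib.S41 Fermat.Agent.Lib.S48
open scoped MatrixGroups OnePoint

local notation "Mat2" => Matrix (Fin 2) (Fin 2) ℤ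

/-! ### The formal construction -/

section Abstract

variable {R : Type*} [CommRing R] {Y Z : Type*} [AddCommGroup Y] [Module R Y]
  [AddCommGroup Z] [Module R Z]

/-- the package of `(res, cor, w̃)`. -/
def s59f_oldOfW (qq : R) (res : Y →ₗ[R] Z) (cor : Z →ₗ[R] Y) (w : Module.End R Z)
    (hcr : ∀ y, cor (res y) = (qq + 1) • y) (hww : ∀ z, w (w z) = z) : s59t_Old R Y Z where
  qq := qq
  resA := res
  resB := w ∘ₗ res
  corA := cor
  corB := cor ∘ₗ w
  T := cor ∘ₗ w ∘ₗ res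
  U := res ∘ₗ cor ∘ₗ w - w
  w := w
  corA_resA := hcr
  corB_resB y := by
    rw [LinearMap.comp_apply, LinearMap.comp_apply, hww, hcr]
  corA_resB y := rfl
  corB_resA y := rfl
  w_w := hww
  resB_eq y := rfl
  corB_eq z := rfl
  resA_corB z := by
    rw [LinearMap.sub_apply, LinearMap.comp_apply, LinearMap.comp_apply, LinearMap.comp_apply,
      sub_add_cancel]

/-- a pair commuting with `res`, `cor`, `w̃` commutes with everything. -/
theorem s59f_oldOfW_compat (qq : R) (res : Y →ₗ[R] Z) (cor : Z →ₗ[R] Y) (w : Module.End R Z)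
    (hcr : ∀ y, cor (res y) = (qq + 1) • y) (hww : ∀ z, w (w z) = z)
    (X : Module.End R Y) (X' : Module.End R Z) (hres : ∀ y, X' (res y) = res (X y))
    (hcor : ∀ z, X (cor z) = cor (X' z)) (hw : ∀ z, X' (w z) = w (X' z)) :
    (s59f_oldOfW qq res cor w hcr hww).Compat X X' where
  resA := hres
  resB y := by
    show X' (w (res y)) = w (res (X y))
    rw [hw, hres]
  corA := hcor
  corB z := by
    show X (cor (w z)) = cor (w (X' z))
    rw [hcor, hw]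
  T y := by
    show X (cor (w (res y))) = cor (w (res (X y)))
    rw [hcor, hw, hres]
  U z := by
    show X' (res (cor (w z)) - w z) = res (cor (w (X' z))) - w (X' z)
    rw [map_sub, hres, hcor, hw]
  w := hw

end Abstract

/-! ### The concrete maps -/

section Concrete

variable {L q : ℕ} [NeZero L] [hq : Fact q.Prime] (hqL : ¬ q ∣ L) {H : Subgroup (ZMod L)ˣ}
  {H' : Subgroup (ZMod (L * q))ˣ} (hG' : s59f_IsG' L q H (s48h_GammaH (L * q) H'))
  (R : Type*) [CommRing R] (A : Type*) [AddCommGroup A] [Module R A]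

/-- restriction `H(Γ_H(L), A) → H(Γ_{H'}(L q), A)`. -/
def s59f_resL :
    s48h_Hpar R (s48h_GammaH L H) A →ₗ[R] s48h_Hpar R (s48h_GammaH (L * q) H') A :=
  s59t_resGHpar (hG'.le (s59f_isG_GammaH L H)) R A

theorem s59f_resL_coe (y : s48h_Hpar R (s48h_GammaH L H) A) :
    ((s59f_resL hG' R A y : s48h_Hpar R (s48h_GammaH (L * q) H') A) :
      Additive (s48h_GammaH (L * q) H') →+ A) =
      s59t_resG (hG'.le (s59f_isG_GammaH L H)) A y.1 := rfl

/-- the transfer `H(Γ_{H'}(L q), A) → H(Γ_H(L), A)`. -/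
def s59f_corL :
    s48h_Hpar R (s48h_GammaH (L * q) H') A →ₗ[R] s48h_Hpar R (s48h_GammaH L H) A :=
  s59f_opHpar R (s59f_famCorA hqL (s59f_isG_GammaH L H) hG')
    (fun x => by rw [s59f_famCorA_g, s59f_rA_det]; exact one_ne_zero)

theorem s59f_corL_coe (z : s48h_Hpar R (s48h_GammaH (L * q) H') A) :
    ((s59f_corL hqL hG' R A z : s48h_Hpar R (s48h_GammaH L H) A) :
      Additive (s48h_GammaH L H) →+ A) =
      s59f_corH hqL (s59f_isG_GammaH L H) hG' A z.1 := rfl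

/-- the Atkin–Lehner operator on `H(Γ_{H'}(L q), A)`. -/
def s59f_wL : Module.End R (s48h_Hpar R (s48h_GammaH (L * q) H') A) :=
  (s59f_WDatum hqL hG').heckeHpar R

theorem s59f_wL_coe (z : s48h_Hpar R (s48h_GammaH (L * q) H') A) :
    ((s59f_wL hqL hG' R A z : s48h_Hpar R (s48h_GammaH (L * q) H') A) :
      Additive (s48h_GammaH (L * q) H') →+ A) = s59f_wH hqL hG' A z.1 := rfl

/-- the diamond operator `⟨e⟩` on `H(Γ_H(N), A)`. -/
def s59f_diaL {N : ℕ} (K : Subgroup (ZMod N)ˣ) (e : SL(2, ℤ)) (he : e ∈ Gamma0 N) :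
    Module.End R (s48h_Hpar R (s48h_GammaH N K) A) :=
  (s48h_diamondDatum K e he).heckeHpar R

theorem s59f_diaL_coe {N : ℕ} (K : Subgroup (ZMod N)ˣ) (e : SL(2, ℤ)) (he : e ∈ Gamma0 N)
    (z : s48h_Hpar R (s48h_GammaH N K) A) :
    ((s59f_diaL R A K e he z : s48h_Hpar R (s48h_GammaH N K) A) :
      Additive (s48h_GammaH N K) →+ A) = s48h_diamondH K e he A z.1 := rfl

/-- `cor ∘ res = q + 1`. -/
theorem s59f_corL_resL (y : s48h_Hpar R (s48h_GammaH L H) A) :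
    s59f_corL hqL hG' R A (s59f_resL hG' R A y) = ((q : R) + 1) • y := by
  apply Subtype.ext
  rw [s59f_corL_coe, s59f_resL_coe, s59f_corH_resG]
  have h1 : ((q : R) + 1) = ((q + 1 : ℕ) : R) := by push_cast; rfl
  rw [h1, Nat.cast_smul_eq_nsmul]
  rfl

/-- `w` commutes with the diamond operators. -/
theorem s59f_wL_diaL (e : SL(2, ℤ)) (he' : e ∈ Gamma0 (L * q))
    (z : s48h_Hpar R (s48h_GammaH (L * q) H') A) :
    s59f_wL hqL hG' R A (s59f_diaL R A H' e he' z) =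
      s59f_diaL R A H' e he' (s59f_wL hqL hG' R A z) :=
  Subtype.ext (s59f_wH_diamond hqL hG' he' z.1)

/-- the normalised Atkin–Lehner operator `w̃ = ⟨e⟩ ∘ w`. -/
def s59f_wtL (e : SL(2, ℤ)) (he' : e ∈ Gamma0 (L * q)) :
    Module.End R (s48h_Hpar R (s48h_GammaH (L * q) H') A) :=
  s59f_diaL R A H' e he' ∘ₗ s59f_wL hqL hG' R A

theorem s59f_wtL_apply (e : SL(2, ℤ)) (he' : e ∈ Gamma0 (L * q))
    (z : s48h_Hpar R (s48h_GammaH (L * q) H') A) :
    s59f_wtL hqL hG' R A e he' z = s59f_diaL R A H' e he' (s59f_wL hqL hG' R A z) := rfl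

/-- **`w̃` is an involution** when `γ_W e e ∈ Γ_{H'}`. -/
theorem s59f_wtL_wtL (e : SL(2, ℤ)) (he' : e ∈ Gamma0 (L * q))
    (hee : s59f_gW hqL * e * e ∈ s48h_GammaH (L * q) H')
    (z : s48h_Hpar R (s48h_GammaH (L * q) H') A) :
    s59f_wtL hqL hG' R A e he' (s59f_wtL hqL hG' R A e he' z) = z := by
  rw [s59f_wtL_apply, s59f_wtL_apply, s59f_wL_diaL]
  apply Subtype.ext
  rw [s59f_diaL_coe, s59f_diaL_coe, s59f_wL_coe, s59f_wL_coe, s59f_wH_wH_diamond,
    s48h_diamondH_mul, s48h_diamondH_mul]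
  have hee' : s59f_gW hqL * (e * e) ∈ s48h_GammaH (L * q) H' := by rwa [← mul_assoc]
  exact s48h_diamondH_of_mem hee' z.1

/-- **the old/new package at `Γ_H`-level.** -/
def s59f_oldH (e : SL(2, ℤ)) (he' : e ∈ Gamma0 (L * q))
    (hee : s59f_gW hqL * e * e ∈ s48h_GammaH (L * q) H') :
    s59t_Old R (s48h_Hpar R (s48h_GammaH L H) A) (s48h_Hpar R (s48h_GammaH (L * q) H') A) :=
  s59f_oldOfW (q : R) (s59f_resL hG' R A) (s59f_corL hqL hG' R A) (s59f_wtL hqL hG' R A e he')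
    (s59f_corL_resL hqL hG' R A) (s59f_wtL_wtL hqL hG' R A e he' hee)

variable {R A}

@[simp] theorem s59f_oldH_qq (e : SL(2, ℤ)) (he' : e ∈ Gamma0 (L * q))
    (hee : s59f_gW hqL * e * e ∈ s48h_GammaH (L * q) H') :
    (s59f_oldH hqL hG' R A e he' hee).qq = (q : R) := rfl

@[simp] theorem s59f_oldH_resA (e : SL(2, ℤ)) (he' : e ∈ Gamma0 (L * q))
    (hee : s59f_gW hqL * e * e ∈ s48h_GammaH (L * q) H') :
    (s59f_oldH hqL hG' R A e he' hee).resA = s59f_resL hG' R A := rfl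

@[simp] theorem s59f_oldH_corA (e : SL(2, ℤ)) (he' : e ∈ Gamma0 (L * q))
    (hee : s59f_gW hqL * e * e ∈ s48h_GammaH (L * q) H') :
    (s59f_oldH hqL hG' R A e he' hee).corA = s59f_corL hqL hG' R A := rfl

@[simp] theorem s59f_oldH_w (e : SL(2, ℤ)) (he' : e ∈ Gamma0 (L * q))
    (hee : s59f_gW hqL * e * e ∈ s48h_GammaH (L * q) H') :
    (s59f_oldH hqL hG' R A e he' hee).w = s59f_wtL hqL hG' R A e he' := rfl

/-- **`T = ⟨e⟩ ∘ T_q`** (`T_q` with `σ_q = γ_W`). -/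
theorem s59f_oldH_T (e : SL(2, ℤ)) (he' : e ∈ Gamma0 (L * q))
    (hee : s59f_gW hqL * e * e ∈ s48h_GammaH (L * q) H') (he : e ∈ Gamma0 L)
    (y : s48h_Hpar R (s48h_GammaH L H) A) :
    (s59f_oldH hqL hG' R A e he' hee).T y =
      s59f_diaL R A H e he
        ((s48h_TpDatum H hqL (s59f_gW hqL) (s59f_gW_mem_L hqL) (s59f_gW_lr hqL)).heckeHpar R y) := by
  show s59f_corL hqL hG' R A (s59f_wtL hqL hG' R A e he' (s59f_resL hG' R A y)) = _
  apply Subtype.ext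
  rw [s59f_corL_coe, s59f_wtL_apply, s59f_diaL_coe, s59f_wL_coe, s59f_resL_coe,
    s59f_corH_diamond hqL rfl hG' he' he, s59f_diaL_coe,
    s59f_cor_w_res_Tq hqL hG' (s59f_gW_mem_L hqL) (s59f_gW_lr hqL)]
  rfl

/-- **`U = U_q ∘ ⟨e⟩`.** -/
theorem s59f_oldH_U (e : SL(2, ℤ)) (he' : e ∈ Gamma0 (L * q))
    (hee : s59f_gW hqL * e * e ∈ s48h_GammaH (L * q) H') (hqN' : q ∣ L * q)
    (z : s48h_Hpar R (s48h_GammaH (L * q) H') A) :
    (s59f_oldH hqL hG' R A e he' hee).U z =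
      (s59w_UqDatum H' hqN').heckeHpar R (s59f_diaL R A H' e he' z) := by
  show s59f_resL hG' R A (s59f_corL hqL hG' R A (s59f_wtL hqL hG' R A e he' z)) -
    s59f_wtL hqL hG' R A e he' z = _
  rw [s59f_wtL_apply, ← s59f_wL_diaL]
  apply Subtype.ext
  rw [AddSubgroupClass.coe_sub, s59f_resL_coe, s59f_corL_coe, s59f_wL_coe,
    s59f_res_cor_w_Uq hqL hG' hqN', add_sub_cancel_right]
  rfl

end Concrete

/-! ### Commutation with the Hecke operators -/

section Compat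

variable {L q : ℕ} [NeZero L] [hq : Fact q.Prime] (hqL : ¬ q ∣ L) {H : Subgroup (ZMod L)ˣ}
  {H' : Subgroup (ZMod (L * q))ˣ} (hG' : s59f_IsG' L q H (s48h_GammaH (L * q) H'))
  {R : Type*} [CommRing R] {A : Type*} [AddCommGroup A] [Module R A]
  (e : SL(2, ℤ)) (he' : e ∈ Gamma0 (L * q))
  (hee : s59f_gW hqL * e * e ∈ s48h_GammaH (L * q) H')

/-- a pair commuting with `res`, `cor`, `w` and `⟨e⟩` commutes with the package. -/
theorem s59f_oldH_compat (X : Module.End R (s48h_Hpar R (s48h_GammaH L H) A))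
    (X' : Module.End R (s48h_Hpar R (s48h_GammaH (L * q) H') A))
    (hres : ∀ y, X' (s59f_resL hG' R A y) = s59f_resL hG' R A (X y))
    (hcor : ∀ z, X (s59f_corL hqL hG' R A z) = s59f_corL hqL hG' R A (X' z))
    (hw : ∀ z, X' (s59f_wL hqL hG' R A z) = s59f_wL hqL hG' R A (X' z))
    (hE : ∀ z, X' (s59f_diaL R A H' e he' z) = s59f_diaL R A H' e he' (X' z)) :
    (s59f_oldH hqL hG' R A e he' hee).Compat X X' :=
  s59f_oldOfW_compat _ _ _ _ _ _ X X' hres hcor (fun z => by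
    rw [s59f_wtL_apply, hE, hw]
    rfl)

/-- **the package commutes with `T_ℓ`**, `ℓ ∤ L q`. -/
theorem s59f_oldH_compat_Tp {ℓ : ℕ} [Fact ℓ.Prime] (hℓ' : ¬ ℓ ∣ L * q) (hℓ : ¬ ℓ ∣ L)
    {σ : SL(2, ℤ)} (hσ' : σ ∈ Gamma0 (L * q))
    (hσ11' : ((σ 1 1 : ℤ) : ZMod (L * q)) = (ℓ : ZMod (L * q)))
    (hσ : σ ∈ Gamma0 L) (hσ11 : ((σ 1 1 : ℤ) : ZMod L) = (ℓ : ZMod L)) :
    (s59f_oldH hqL hG' R A e he' hee).Compat ((s48h_TpDatum H hℓ σ hσ hσ11).heckeHpar R)
      ((s48h_TpDatum H' hℓ' σ hσ' hσ11').heckeHpar R) := by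
  haveI : NeZero (L * q) := ⟨Nat.mul_ne_zero (NeZero.ne L) hq.out.ne_zero⟩
  refine s59f_oldH_compat hqL hG' e he' hee _ _ (fun y => Subtype.ext ?_)
    (fun z => Subtype.ext ?_) (fun z => Subtype.ext ?_) (fun z => Subtype.ext ?_)
  · exact (s59t_resG_Tp (hG'.le (s59f_isG_GammaH L H)) hℓ' hℓ hσ' hσ11' hσ hσ11 y.1).symm
  · exact (s59f_corH_Tp hqL rfl hG' hℓ' hℓ hσ' hσ11' hσ hσ11 z.1).symm
  · exact (s59f_wH_Tp hqL hG' hℓ' hσ' hσ11' z.1).symm
  · exact (s48h_diamond_Tp_comm hℓ' hσ' hσ11' he' z.1).symm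

/-- **the package commutes with the diamond operators.** -/
theorem s59f_oldH_compat_diamond {σ : SL(2, ℤ)} (hσ' : σ ∈ Gamma0 (L * q)) (hσ : σ ∈ Gamma0 L) :
    (s59f_oldH hqL hG' R A e he' hee).Compat (s59f_diaL R A H σ hσ)
      (s59f_diaL R A H' σ hσ') := by
  haveI : NeZero (L * q) := ⟨Nat.mul_ne_zero (NeZero.ne L) hq.out.ne_zero⟩
  refine s59f_oldH_compat hqL hG' e he' hee _ _ (fun y => Subtype.ext ?_)
    (fun z => Subtype.ext ?_) (fun z => Subtype.ext ?_) (fun z => Subtype.ext ?_)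
  · exact (s59t_resG_diamond (hG'.le (s59f_isG_GammaH L H)) hσ' hσ y.1).symm
  · exact (s59f_corH_diamond hqL rfl hG' hσ' hσ z.1).symm
  · exact (s59f_wH_diamond hqL hG' hσ' z.1).symm
  · exact s59w_diamondH_comm he' hσ' z.1

/-- **the package commutes with `U_{q'}`**, `q' ∣ L`. -/
theorem s59f_oldH_compat_Uq {q' : ℕ} [hq' : Fact q'.Prime] (hq'N : q' ∣ L * q) (hq'L : q' ∣ L) :
    (s59f_oldH hqL hG' R A e he' hee).Compat ((s59w_UqDatum H hq'L).heckeHpar R)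
      ((s59w_UqDatum H' hq'N).heckeHpar R) := by
  haveI : NeZero (L * q) := ⟨Nat.mul_ne_zero (NeZero.ne L) hq.out.ne_zero⟩
  refine s59f_oldH_compat hqL hG' e he' hee _ _ (fun y => Subtype.ext ?_)
    (fun z => Subtype.ext ?_) (fun z => Subtype.ext ?_) (fun z => Subtype.ext ?_)
  · exact (s59t_resG_Uq (hG'.le (s59f_isG_GammaH L H)) hq'N hq'L y.1).symm
  · exact (s59f_corH_Uq hqL rfl hG' hq'N hq'L z.1).symm
  · exact (s59f_wH_Uq hqL hG' hq'N hq'L z.1).symm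
  · exact s59w_diamond_UqH_comm hq'N he' z.1

end Compat

end Fermat.Agent.Lib.S59
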