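/-
PROGRAMME R2 = S59, node [FLR], `T`-side, **level maps at `Γ_H`-level: compatibility with the
restriction between two levels `L₀ ∣ L`** (helper4, prefix `s59f_`).
Setting: `L₀ ∣ L`, `q ∤ L`, groups `G₀, G₀'` for `(L₀, H₀)` and `G, G'` for `(L, H)` with `G ≤ G₀`.
* `s59f_gX` : `W_L = g_X W_{L₀}` with `g_X ∈ G₀'`;
* **`s59f_wH_resX : w ∘ res = res ∘ w₀`** (`res : Hom(G₀', A) → Hom(G', A)`);
* `s59f_famX` : the transfer family of `G₀' \ G₀` with the representatives of level `L`;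
* **`s59f_corH_resX : res ∘ cor₀ = cor ∘ res`** (Mackey);
* `s59f_gW_cross` : `γ_{W_L} γ_{W_{L₀}}⁻¹ ∈ G₀'`.
-/
import Mathlib
import Fermat.Agent.Lib.S59.FOldH7

set_option autoImplicit false
set_option linter.unusedSectionVars false
set_option linter.unusedVariables false
set_option linter.style.haveILetI false

noncomputable section

namespace Fermat.Agent.Lib.S59

open CongruenceSubgroup ModularCurve.Period
open Fermat.Agent.Lib.ES Fermat.Agent.Lib.S29 Fermat.Agent.Lib.S41 Fermat.Agent.Lib.S48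
open scoped MatrixGroups OnePoint

local notation "Mat2" => Matrix (Fin 2) (Fin 2) ℤ

section Cross

variable {L₀ L q : ℕ} [NeZero L₀] [NeZero L] [hq : Fact q.Prime] (hqL₀ : ¬ q ∣ L₀) (hqL : ¬ q ∣ L)
  {H₀ : Subgroup (ZMod L₀)ˣ} {H : Subgroup (ZMod L)ˣ} {G₀ G₀' G G' : Subgroup SL(2, ℤ)}

/-- `g_X = W_L W_{L₀}⁻¹`. -/
def s59f_gX : Mat2 :=
  !![(q : ℤ) * s41l_t L q hqL + (L₀ : ℤ) * s41l_s L q hqL,
      s41l_t L q hqL * s41l_s L₀ q hqL₀ - s41l_s L q hqL * s41l_t L₀ q hqL₀;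
    (q : ℤ) * ((L : ℤ) - (L₀ : ℤ)), (L : ℤ) * s41l_s L₀ q hqL₀ + (q : ℤ) * s41l_t L₀ q hqL₀]

theorem s59f_gX_mul : s59f_gX hqL₀ hqL * s41l_W L₀ q hqL₀ = s41l_W L q hqL := by
  have h0 := s41l_st L₀ q hqL₀
  have h1 := s41l_st L q hqL
  rw [s59f_gX, s41l_W, s41l_W, Matrix.mul_fin_two]
  have e00 : ((q : ℤ) * s41l_t L q hqL + (L₀ : ℤ) * s41l_s L q hqL) *
      ((q : ℤ) * s41l_t L₀ q hqL₀) +
      (s41l_t L q hqL * s41l_s L₀ q hqL₀ - s41l_s L q hqL * s41l_t L₀ q hqL₀) *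
        ((q : ℤ) * (L₀ : ℤ)) = (q : ℤ) * s41l_t L q hqL := by
    linear_combination ((q : ℤ) * s41l_t L q hqL) * h0
  have e01 : ((q : ℤ) * s41l_t L q hqL + (L₀ : ℤ) * s41l_s L q hqL) * (-s41l_s L₀ q hqL₀) +
      (s41l_t L q hqL * s41l_s L₀ q hqL₀ - s41l_s L q hqL * s41l_t L₀ q hqL₀) * (q : ℤ) =
      -s41l_s L q hqL := by
    linear_combination (-s41l_s L q hqL) * h0
  have e10 : (q : ℤ) * ((L : ℤ) - (L₀ : ℤ)) * ((q : ℤ) * s41l_t L₀ q hqL₀) +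
      ((L : ℤ) * s41l_s L₀ q hqL₀ + (q : ℤ) * s41l_t L₀ q hqL₀) * ((q : ℤ) * (L₀ : ℤ)) =
      (q : ℤ) * (L : ℤ) := by
    linear_combination ((q : ℤ) * (L : ℤ)) * h0
  have e11 : (q : ℤ) * ((L : ℤ) - (L₀ : ℤ)) * (-s41l_s L₀ q hqL₀) +
      ((L : ℤ) * s41l_s L₀ q hqL₀ + (q : ℤ) * s41l_t L₀ q hqL₀) * (q : ℤ) = (q : ℤ) := by
    linear_combination (q : ℤ) * h0
  rw [e00, e01, e10, e11]

theorem s59f_gX_det : (s59f_gX hqL₀ hqL).det = 1 := by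
  have h := congrArg Matrix.det (s59f_gX_mul hqL₀ hqL)
  rw [Matrix.det_mul, s41l_W_det, s41l_W_det] at h
  have hq0 : (q : ℤ) ≠ 0 := s41l_l_ne_zero q
  exact mul_right_cancel₀ hq0 (by rw [h, one_mul])

theorem s59f_gX_dvd : (q : ℤ) ∣ (s59f_gX hqL₀ hqL) 1 0 := by
  rw [s59f_gX]
  exact ⟨_, rfl⟩

variable (H₀) in
theorem s59f_gX_cls (hL : L₀ ∣ L) : s59f_cls L₀ H₀ 1 (s59f_gX hqL₀ hqL) := by
  obtain ⟨k, hk⟩ := hL
  have hLz : (L : ℤ) = (L₀ : ℤ) * (k : ℤ) := by rw [hk]; push_cast; ring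
  have h1 := s41l_st L q hqL
  refine ⟨?_, 1, one_mem _, ?_⟩
  · rw [s59f_gX]
    simp only [Matrix.of_apply, Matrix.cons_val_zero, Matrix.cons_val_one,
      Matrix.cons_val', Matrix.empty_val', Matrix.cons_val_fin_one]
    exact ⟨(q : ℤ) * ((k : ℤ) - 1), by rw [hLz]; ring⟩
  · rw [s59f_gX]
    simp only [Matrix.of_apply, Matrix.cons_val_zero,
      Matrix.cons_val', Matrix.empty_val', Matrix.cons_val_fin_one]
    have e : (q : ℤ) * s41l_t L q hqL + (L₀ : ℤ) * s41l_s L q hqL =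
        1 + (L₀ : ℤ) * (s41l_s L q hqL * (1 - (k : ℤ))) := by
      rw [hLz] at h1
      linear_combination h1
    rw [e, Int.cast_add, Int.cast_mul, Int.cast_natCast, ZMod.natCast_self, zero_mul, add_zero,
      Int.cast_one, Units.val_one, mul_one]

/-- `g_X` as an element of `G₀'`. -/
def s59f_gXel (hL : L₀ ∣ L) (hG₀' : s59f_IsG' L₀ q H₀ G₀') : G₀' :=
  s59f_mkG' hG₀' (s59f_gX hqL₀ hqL) (s59f_gX_det hqL₀ hqL) (s59f_gX_dvd hqL₀ hqL)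
    (s59f_gX_cls hqL₀ hqL H₀ hL)

theorem s59f_i_gXel (hL : L₀ ∣ L) (hG₀' : s59f_IsG' L₀ q H₀ G₀') :
    s59f_i G₀' (s59f_gXel hqL₀ hqL hL hG₀') = s59f_gX hqL₀ hqL := rfl

/-- `c_W γ = g_X (c_{W₀} γ) g_X⁻¹`. -/
theorem s59f_cW_cross (hL : L₀ ∣ L) (hG₀' : s59f_IsG' L₀ q H₀ G₀') (hG' : s59f_IsG' L q H G')
    (hle' : G' ≤ G₀') (γ : G') :
    (⟨((s59f_cW hqL hG' γ : G') : SL(2, ℤ)), hle' (s59f_cW hqL hG' γ).2⟩ : G₀') =
      s59f_gXel hqL₀ hqL hL hG₀' * s59f_cW hqL₀ hG₀' ⟨(γ : SL(2, ℤ)), hle' γ.2⟩ *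
        (s59f_gXel hqL₀ hqL hL hG₀')⁻¹ := by
  have h1 := s59f_cW_spec hqL hG' γ
  have h2 := s59f_cW_spec hqL₀ hG₀' ⟨(γ : SL(2, ℤ)), hle' γ.2⟩
  have hX := s59f_gX_mul hqL₀ hqL
  rw [eq_mul_inv_iff_mul_eq]
  apply s59f_i_injective G₀'
  rw [map_mul, map_mul, s59f_i_gXel]
  have h3 : s59f_i G₀' ⟨((s59f_cW hqL hG' γ : G') : SL(2, ℤ)), hle' (s59f_cW hqL hG' γ).2⟩ =
      s59f_i G' (s59f_cW hqL hG' γ) := rfl
  have h4 : s59f_i G₀' ⟨(γ : SL(2, ℤ)), hle' γ.2⟩ = s59f_i G' γ := rfl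
  rw [h3]
  refine s48h_mul_right_cancel (s59f_W_det_ne hqL₀) ?_
  rw [Matrix.mul_assoc, hX, ← h1, ← hX, Matrix.mul_assoc, Matrix.mul_assoc, ← h4, h2]

/-- **`w ∘ res = res ∘ w₀`.** -/
theorem s59f_wH_resX (hL : L₀ ∣ L) (hG₀' : s59f_IsG' L₀ q H₀ G₀') (hG' : s59f_IsG' L q H G')
    (hle' : G' ≤ G₀') {A : Type*} [AddCommGroup A] (ψ : Additive G₀' →+ A) :
    s59f_wH hqL hG' A (s59t_resG hle' A ψ) = s59t_resG hle' A (s59f_wH hqL₀ hG₀' A ψ) := by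
  refine AddMonoidHom.ext fun a => ?_
  obtain ⟨γ, rfl⟩ := Additive.ofMul.surjective a
  rw [s59f_wH_apply, s59t_resG_apply, s59t_resG_apply, s59f_wH_apply,
    s59f_cW_cross hqL₀ hqL hL hG₀' hG' hle' γ, ofMul_mul, ofMul_mul, map_add, map_add,
    ofMul_inv, map_neg]
  abel

/-! ### The transfer -/

variable (H₀) in
/-- the representatives of level `L` have class `1` at level `L₀`. -/
theorem s59f_rA_clsX (hL : L₀ ∣ L) (x : OnePoint (ZMod q)) :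
    s59f_cls L₀ H₀ 1 (s59f_rA L q hqL x) := by
  have hLz : (L₀ : ℤ) ∣ (L : ℤ) := Int.natCast_dvd_natCast.mpr hL
  induction x using OnePoint.rec with
  | infty =>
    rw [s59f_rA_infty]
    exact ⟨by simpa using hLz, 1, one_mem _, by simp⟩
  | coe j =>
    rw [s59f_rA_coe]
    refine ⟨?_, 1, one_mem _, by simp⟩
    simp only [Matrix.of_apply, Matrix.cons_val_zero, Matrix.cons_val_one,
      Matrix.cons_val', Matrix.empty_val', Matrix.cons_val_fin_one]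
    exact Dvd.dvd.mul_right hLz _

theorem s59f_rA_injX (hG₀' : s59f_IsG' L₀ q H₀ G₀') (x x' : OnePoint (ZMod q)) (h : G₀')
    (hx : s59f_rA L q hqL x = s59f_i G₀' h * s59f_rA L q hqL x') : x = x' := by
  have hc := s41l_cross_bot (s59f_i G₀' h) (s59f_rA L q hqL x')
  rw [← hx, s59f_rA_det, mul_one] at hc
  exact s59f_rA_inj_of_dvd L q hqL x x' (hc ▸ hG₀'.dvd h)

theorem s59f_dec_X (hL : L₀ ∣ L) (hG₀' : s59f_IsG' L₀ q H₀ G₀') (m : Mat2) (hdet : m.det = 1)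
    (hc : s59f_cls L₀ H₀ 1 m) :
    ∃ (x : OnePoint (ZMod q)) (h : G₀'), m = s59f_i G₀' h * s59f_rA L q hqL x := by
  obtain ⟨x, hx⟩ := s59f_dec_row L q hqL (m 1 0) (m 1 1)
  have hr := s59f_rA_det L q hqL x
  have hmul := s59f_mul_adj_mul m (s59f_rA L q hqL x) hr
  have hcls : s59f_cls L₀ H₀ 1 (m * (s59f_rA L q hqL x).adjugate) := by
    have := s59f_cls_cancel (a := m * (s59f_rA L q hqL x).adjugate)
      (s59f_rA_clsX hqL H₀ hL x) (by rw [hmul]; exact hc)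
    simpa using this
  refine ⟨x, s59f_mkG' hG₀' (m * (s59f_rA L q hqL x).adjugate)
    ((s59f_det_mul_adj m _ hr).trans hdet) (by rw [s59f_mul_adj_10]; exact hx) hcls, ?_⟩
  rw [s59f_i_mkG', hmul]

/-- the transfer family of `G₀' \ G₀` with the representatives of level `L`. -/
def s59f_famX (hL : L₀ ∣ L) (hG₀ : s59f_IsG L₀ H₀ G₀) (hG₀' : s59f_IsG' L₀ q H₀ G₀') :
    s41l_Fam (s59f_i G₀') (s59f_i G₀) (OnePoint (ZMod q)) :=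
  s41l_Fam.ofDecomp (s59f_i_injective G₀') (s59f_rA L q hqL)
    (fun x _ _ h => s48h_mul_right_cancel (by rw [s59f_rA_det]; exact one_ne_zero) h)
    (fun x x' h hx => s59f_rA_injX hqL hG₀' x x' h hx)
    {m : Mat2 | m.det = 1 ∧ s59f_cls L₀ H₀ 1 m}
    (fun x => ⟨s59f_rA_det L q hqL x, s59f_rA_clsX hqL H₀ hL x⟩)
    (fun m hm γ => ⟨by rw [Matrix.det_mul, s59f_i_det, mul_one]; exact hm.1, by
      have := s59f_cls_mul hm.2 (hG₀.cls γ)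
      simpa using this⟩)
    (fun m hm => s59f_dec_X hqL hL hG₀' m hm.1 hm.2)

theorem s59f_famX_g (hL : L₀ ∣ L) (hG₀ : s59f_IsG L₀ H₀ G₀) (hG₀' : s59f_IsG' L₀ q H₀ G₀')
    (x : OnePoint (ZMod q)) : (s59f_famX hqL hL hG₀ hG₀').g x = s59f_rA L q hqL x := rfl

/-- the transfer of level `L₀` is the operator of `s59f_famX`. -/
theorem s59f_famX_op (hL : L₀ ∣ L) (hG₀ : s59f_IsG L₀ H₀ G₀) (hG₀' : s59f_IsG' L₀ q H₀ G₀')
    (A : Type*) [AddCommGroup A] :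
    (s59f_famCorA hqL₀ hG₀ hG₀').op A = (s59f_famX hqL hL hG₀ hG₀').op A := by
  refine s41l_Fam.op_eq_of_cosets (s59f_famX hqL hL hG₀ hG₀') (s59f_famCorA hqL₀ hG₀ hG₀') 1
    (fun m => by rw [one_mul, mul_one]) (fun a b hab => by rwa [one_mul, one_mul] at hab) rfl ?_
  intro x
  obtain ⟨y, h, hy⟩ := s59f_dec_A hqL₀ hG₀' (s59f_rA L q hqL x) (s59f_rA_det L q hqL x)
    (s59f_rA_clsX hqL H₀ hL x)
  refine ⟨y, h⁻¹, ?_⟩
  rw [one_mul]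
  exact s59f_eq_inv_mul G₀' hy

/-- `G' ≤ G₀'` from `G ≤ G₀`. -/
theorem s59f_le'_of_le (hG₀ : s59f_IsG L₀ H₀ G₀) (hG₀' : s59f_IsG' L₀ q H₀ G₀')
    (hG : s59f_IsG L H G) (hG' : s59f_IsG' L q H G') (hle : G ≤ G₀) : G' ≤ G₀' := by
  intro γ hγ
  obtain ⟨h1, h2⟩ := (hG' γ).mp hγ
  exact (hG₀' γ).mpr ⟨h1, (hG₀ γ).mp (hle ((hG γ).mpr h2))⟩

/-- **`res ∘ cor₀ = cor ∘ res`** (Mackey). -/
theorem s59f_corH_resX (hL : L₀ ∣ L) (hG₀ : s59f_IsG L₀ H₀ G₀) (hG₀' : s59f_IsG' L₀ q H₀ G₀')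
    (hG : s59f_IsG L H G) (hG' : s59f_IsG' L q H G') (hle : G ≤ G₀) (hle' : G' ≤ G₀')
    {A : Type*} [AddCommGroup A] (ψ : Additive G₀' →+ A) :
    s59t_resG hle A (s59f_corH hqL₀ hG₀ hG₀' A ψ) =
      s59f_corH hqL hG hG' A (s59t_resG hle' A ψ) := by
  rw [s59f_corH, s59f_corH, s59f_famX_op hqL₀ hqL hL hG₀ hG₀']
  exact s59f_op_resG hle' hle (s59f_famX hqL hL hG₀ hG₀') (s59f_famCorA hqL hG hG')
    (fun x => rfl) ψ

/-! ### `γ_W` at the two levels -/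

/-- `γ_{W_L} = g_X (c_{W₀} g_X) γ_{W_{L₀}}`. -/
theorem s59f_gW_cross_eq (hL : L₀ ∣ L) (hG₀' : s59f_IsG' L₀ q H₀ G₀') :
    s59f_gW hqL = ((s59f_gXel hqL₀ hqL hL hG₀' *
      s59f_cW hqL₀ hG₀' (s59f_gXel hqL₀ hqL hL hG₀') : G₀') : SL(2, ℤ)) * s59f_gW hqL₀ := by
  have hX := s59f_gX_mul hqL₀ hqL
  have h2 := s59f_cW_spec hqL₀ hG₀' (s59f_gXel hqL₀ hqL hL hG₀')
  rw [s59f_i_gXel] at h2
  have h3 : s41l_W L q hqL * s41l_W L q hqL =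
      s59f_gX hqL₀ hqL * s59f_i G₀' (s59f_cW hqL₀ hG₀' (s59f_gXel hqL₀ hqL hL hG₀')) *
        (s41l_W L₀ q hqL₀ * s41l_W L₀ q hqL₀) := by
    rw [← hX, Matrix.mul_assoc, ← Matrix.mul_assoc (s41l_W L₀ q hqL₀), h2]
    simp only [Matrix.mul_assoc]
  rw [s59f_W_sq, s59f_W_sq, Matrix.mul_smul] at h3
  have h4 := s41l_smul_cancel (s41l_l_ne_zero q) h3
  apply Subtype.ext
  rw [Matrix.SpecialLinearGroup.coe_mul, h4]
  rfl

/-- **`γ_{W_L} γ_{W_{L₀}}⁻¹ ∈ G₀'`.** -/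
theorem s59f_gW_cross (hL : L₀ ∣ L) (hG₀' : s59f_IsG' L₀ q H₀ G₀') :
    s59f_gW hqL * (s59f_gW hqL₀)⁻¹ ∈ G₀' := by
  rw [s59f_gW_cross_eq hqL₀ hqL hL hG₀', mul_inv_cancel_right]
  exact SetLike.coe_mem _

/-- the condition `γ_W e e ∈ G'` passes from the level `L` to the level `L₀`. -/
theorem s59f_hee_cross (hL : L₀ ∣ L) (hG₀' : s59f_IsG' L₀ q H₀ G₀') (hle' : G' ≤ G₀')
    {e : SL(2, ℤ)} (hee : s59f_gW hqL * e * e ∈ G') : s59f_gW hqL₀ * e * e ∈ G₀' := by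
  have h1 := inv_mem (s59f_gW_cross hqL₀ hqL hL hG₀')
  have h2 := mul_mem h1 (hle' hee)
  have e1 : (s59f_gW hqL * (s59f_gW hqL₀)⁻¹)⁻¹ * (s59f_gW hqL * e * e) =
      s59f_gW hqL₀ * e * e := by group
  rwa [e1] at h2

end Cross

/-! ### Morphisms of packages -/

section Hom

variable {R : Type*} [CommRing R] {Y₀ Z₀ Y Z : Type*} [AddCommGroup Y₀] [Module R Y₀]
  [AddCommGroup Z₀] [Module R Z₀] [AddCommGroup Y] [Module R Y] [AddCommGroup Z] [Module R Z]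

/-- a pair of maps intertwining two packages. -/
structure s59f_OldHom (D₀ : s59t_Old R Y₀ Z₀) (D : s59t_Old R Y Z) (ρY : Y₀ →ₗ[R] Y)
    (ρZ : Z₀ →ₗ[R] Z) : Prop where
  resA : ∀ y, ρZ (D₀.resA y) = D.resA (ρY y)
  resB : ∀ y, ρZ (D₀.resB y) = D.resB (ρY y)
  corA : ∀ z, ρY (D₀.corA z) = D.corA (ρZ z)
  corB : ∀ z, ρY (D₀.corB z) = D.corB (ρZ z)
  T : ∀ y, ρY (D₀.T y) = D.T (ρY y)
  U : ∀ z, ρZ (D₀.U z) = D.U (ρZ z)
  w : ∀ z, ρZ (D₀.w z) = D.w (ρZ z)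

/-- it suffices to intertwine `resA`, `corA` and `w`. -/
theorem s59f_OldHom.of_three (D₀ : s59t_Old R Y₀ Z₀) (D : s59t_Old R Y Z) (ρY : Y₀ →ₗ[R] Y)
    (ρZ : Z₀ →ₗ[R] Z) (hres : ∀ y, ρZ (D₀.resA y) = D.resA (ρY y))
    (hcor : ∀ z, ρY (D₀.corA z) = D.corA (ρZ z)) (hw : ∀ z, ρZ (D₀.w z) = D.w (ρZ z)) :
    s59f_OldHom D₀ D ρY ρZ where
  resA := hres
  resB y := by rw [D₀.resB_eq, D.resB_eq, hw, hres]
  corA := hcor
  corB z := by rw [D₀.corB_eq, D.corB_eq, hcor, hw]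
  T y := by rw [← D₀.corA_resB, ← D.corA_resB, hcor, D₀.resB_eq, D.resB_eq, hw, hres]
  U z := by rw [D₀.U_eq, D.U_eq, map_sub, hres, D₀.corB_eq, D.corB_eq, hcor, hw]
  w := hw

end Hom

/-! ### The two concrete packages -/

section Concrete

variable {L₀ L q : ℕ} [NeZero L₀] [NeZero L] [hq : Fact q.Prime] (hqL₀ : ¬ q ∣ L₀) (hqL : ¬ q ∣ L)
  (hL : L₀ ∣ L) {H₀ : Subgroup (ZMod L₀)ˣ} {H : Subgroup (ZMod L)ˣ}
  {H₀' : Subgroup (ZMod (L₀ * q))ˣ} {H' : Subgroup (ZMod (L * q))ˣ}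
  (hG₀' : s59f_IsG' L₀ q H₀ (s48h_GammaH (L₀ * q) H₀'))
  (hG' : s59f_IsG' L q H (s48h_GammaH (L * q) H'))
  (hle : s48h_GammaH L H ≤ s48h_GammaH L₀ H₀)
  (hle' : s48h_GammaH (L * q) H' ≤ s48h_GammaH (L₀ * q) H₀')
  (R : Type*) [CommRing R] (A : Type*) [AddCommGroup A] [Module R A]
  (e : SL(2, ℤ)) (he₀' : e ∈ Gamma0 (L₀ * q)) (he' : e ∈ Gamma0 (L * q))
  (hee₀ : s59f_gW hqL₀ * e * e ∈ s48h_GammaH (L₀ * q) H₀')
  (hee : s59f_gW hqL * e * e ∈ s48h_GammaH (L * q) H')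

include hL in
/-- **restriction from the level `(L₀, H₀)` to the level `(L, H)` intertwines the two old/new
packages.** -/
theorem s59f_oldH_hom :
    s59f_OldHom (s59f_oldH hqL₀ hG₀' R A e he₀' hee₀) (s59f_oldH hqL hG' R A e he' hee)
      (s59t_resGHpar hle R A) (s59t_resGHpar hle' R A) := by
  haveI : NeZero (L * q) := ⟨Nat.mul_ne_zero (NeZero.ne L) hq.out.ne_zero⟩
  haveI : NeZero (L₀ * q) := ⟨Nat.mul_ne_zero (NeZero.ne L₀) hq.out.ne_zero⟩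
  refine s59f_OldHom.of_three _ _ _ _ (fun y => rfl) (fun z => Subtype.ext ?_)
    (fun z => Subtype.ext ?_)
  · exact s59f_corH_resX hqL₀ hqL hL (s59f_isG_GammaH L₀ H₀) hG₀' (s59f_isG_GammaH L H) hG'
      hle hle' z.1
  · show s59t_resG hle' A (s48h_diamondH H₀' e he₀' A (s59f_wH hqL₀ hG₀' A z.1)) =
      s48h_diamondH H' e he' A (s59f_wH hqL hG' A (s59t_resG hle' A z.1))
    rw [s59t_resG_diamond hle' he' he₀', s59f_wH_resX hqL₀ hqL hL hG₀' hG' hle']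

end Concrete

end Fermat.Agent.Lib.S59
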