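/-
Programme (R) = S59, node (H1) (helper3), file 1: CONJUGATION OPERATORS on `Hom(K, A)` for an
arbitrary subgroup `K ≤ SL(2, ℤ)`, in the `s48h_MatDatum` formalism of `Lib/S48/HHom.lean`.

* `s59u_Norm K g` : the integral matrix `g` (`det ≠ 0`) conjugates `K` into itself (`g K ⊆ K g`);
* `s59u_conj K g hdet h A` : the operator `(c_g φ)(k) = φ(g k g⁻¹)` on `Hom(K, A)`
  (`s59u_conj_apply_of`); it only depends on `g` up to a scalar (`s59u_conj_eq_of_smul`), is the
  identity for `g ∈ K` (`s59u_conj_of_mem`), composes (`s59u_conj_conj`), is additive and commutes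
  with scalars, and preserves parabolic homomorphisms;
* restriction `s59u_res : Hom(G, A) → Hom(K, A)` for `K ≤ G`, its injectivity for `K` of finite
  index and torsion free `A` (`s59u_res_injective`), and its compatibility with the Hecke operators
  of two data with the same representatives (`s59u_res_heckeHom`).
-/
import Mathlib
import Fermat.Agent.Lib.S48.HHom

set_option autoImplicit false
set_option linter.unusedSectionVars false

noncomputable section

namespace Fermat.Agent.Lib.S59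

open Fermat.Agent.Lib.S48 ModularCurve.Period
open scoped MatrixGroups

local notation "Mat2" => Matrix (Fin 2) (Fin 2) ℤ

/-! ### Conjugation data -/

/-- The integral matrix `g` conjugates `K` into itself: `g K ⊆ K g`. -/
def s59u_Norm (K : Subgroup SL(2, ℤ)) (g : Mat2) : Prop :=
  ∀ k : K, ∃ k' : K, g * ((k : SL(2, ℤ)) : Mat2) = ((k' : SL(2, ℤ)) : Mat2) * g

/-- The one-point datum of the conjugation by `g`. -/
def s59u_conjDatum (K : Subgroup SL(2, ℤ)) (g : Mat2) (hdet : g.det ≠ 0) (h : s59u_Norm K g) :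
    s48h_MatDatum K Unit where
  α _ := g
  det_ne _ := hdet
  perm _ := 1
  perm_mul _ _ _ := rfl
  ex k _ := h k

/-- **The conjugation operator** `(c_g φ)(k) = φ(g k g⁻¹)` on `Hom(K, A)`. -/
def s59u_conj (K : Subgroup SL(2, ℤ)) (g : Mat2) (hdet : g.det ≠ 0) (h : s59u_Norm K g)
    (A : Type*) [AddCommGroup A] : (Additive K →+ A) →+ (Additive K →+ A) :=
  (s59u_conjDatum K g hdet h).heckeHom A

variable {K : Subgroup SL(2, ℤ)} {A : Type*} [AddCommGroup A]

theorem s59u_conj_apply_of {g : Mat2} (hdet : g.det ≠ 0) (h : s59u_Norm K g)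
    (φ : Additive K →+ A) (k k' : K)
    (hk : g * ((k : SL(2, ℤ)) : Mat2) = ((k' : SL(2, ℤ)) : Mat2) * g) :
    s59u_conj K g hdet h A φ (Additive.ofMul k) = φ (Additive.ofMul k') := by
  rw [s59u_conj, s48h_MatDatum.heckeHom_apply_of_family _ φ k (fun _ => k') (fun _ => hk)]
  simp

/-- `c_g` only depends on `g` up to a nonzero scalar. -/
theorem s59u_conj_eq_of_smul {g g' : Mat2} (hdet : g.det ≠ 0) (h : s59u_Norm K g)
    (hdet' : g'.det ≠ 0) (h' : s59u_Norm K g') (c c' : ℤ) (hc : c ≠ 0) (hcc : c • g = c' • g') :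
    s59u_conj K g hdet h A = s59u_conj K g' hdet' h' A := by
  refine AddMonoidHom.ext fun φ => AddMonoidHom.ext fun k => ?_
  obtain ⟨k, rfl⟩ := Additive.ofMul.surjective k
  obtain ⟨k', hk'⟩ := h' k
  have hc' : c' ≠ 0 := by
    rintro rfl
    rw [zero_smul] at hcc
    have h0 : (c • g).det = 0 := by rw [hcc]; simp
    rw [Matrix.det_smul, Fintype.card_fin] at h0
    exact hdet ((mul_eq_zero.mp h0).resolve_left (pow_ne_zero 2 hc))
  rw [s59u_conj_apply_of hdet' h' φ k k' hk']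
  refine s59u_conj_apply_of hdet h φ k k' ?_
  have h1 : c • (g * ((k : SL(2, ℤ)) : Mat2)) = c • (((k' : SL(2, ℤ)) : Mat2) * g) := by
    rw [← Matrix.smul_mul, hcc, Matrix.smul_mul, hk', ← Matrix.mul_smul, ← hcc, Matrix.mul_smul]
  exact smul_right_injective _ hc h1

/-- `c_g = 1` for `g ∈ K`. -/
theorem s59u_conj_of_mem (k₀ : K) (h : s59u_Norm K ((k₀ : SL(2, ℤ)) : Mat2))
    (hdet : (((k₀ : SL(2, ℤ)) : Mat2)).det ≠ 0) (φ : Additive K →+ A) :
    s59u_conj K ((k₀ : SL(2, ℤ)) : Mat2) hdet h A φ = φ := by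
  refine AddMonoidHom.ext fun k => ?_
  obtain ⟨k, rfl⟩ := Additive.ofMul.surjective k
  rw [s59u_conj_apply_of hdet h φ k (k₀ * k * k₀⁻¹)]
  · rw [ofMul_mul, ofMul_mul, map_add, map_add, ofMul_inv, map_neg]
    abel
  · rw [← Matrix.SpecialLinearGroup.coe_mul, ← MulMemClass.coe_mul,
      ← Matrix.SpecialLinearGroup.coe_mul, ← MulMemClass.coe_mul, inv_mul_cancel_right]

theorem s59u_norm_one (K : Subgroup SL(2, ℤ)) : s59u_Norm K (1 : Mat2) := fun k =>
  ⟨k, by rw [Matrix.one_mul, Matrix.mul_one]⟩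

theorem s59u_norm_mul {g g' : Mat2} (h : s59u_Norm K g) (h' : s59u_Norm K g') :
    s59u_Norm K (g * g') := by
  intro k
  obtain ⟨k₁, hk₁⟩ := h' k
  obtain ⟨k₂, hk₂⟩ := h k₁
  exact ⟨k₂, by rw [Matrix.mul_assoc, hk₁, ← Matrix.mul_assoc, hk₂, Matrix.mul_assoc]⟩

/-- `c_{g'} (c_g φ) = c_{g g'} φ`. -/
theorem s59u_conj_conj {g g' : Mat2} (hdet : g.det ≠ 0) (h : s59u_Norm K g)
    (hdet' : g'.det ≠ 0) (h' : s59u_Norm K g') (hdet'' : (g * g').det ≠ 0)
    (h'' : s59u_Norm K (g * g')) (φ : Additive K →+ A) :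
    s59u_conj K g' hdet' h' A (s59u_conj K g hdet h A φ) = s59u_conj K (g * g') hdet'' h'' A φ := by
  refine AddMonoidHom.ext fun k => ?_
  obtain ⟨k, rfl⟩ := Additive.ofMul.surjective k
  obtain ⟨k₁, hk₁⟩ := h' k
  obtain ⟨k₂, hk₂⟩ := h k₁
  rw [s59u_conj_apply_of hdet' h' _ k k₁ hk₁, s59u_conj_apply_of hdet h φ k₁ k₂ hk₂]
  refine (s59u_conj_apply_of hdet'' h'' φ k k₂ ?_).symm
  rw [Matrix.mul_assoc, hk₁, ← Matrix.mul_assoc, hk₂, Matrix.mul_assoc]

theorem s59u_conj_smul {R : Type*} [Semiring R] [Module R A] {g : Mat2} (hdet : g.det ≠ 0)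
    (h : s59u_Norm K g) (c : R) (φ : Additive K →+ A) :
    s59u_conj K g hdet h A (c • φ) = c • s59u_conj K g hdet h A φ :=
  (s59u_conjDatum K g hdet h).heckeHom_smul c φ

theorem s59u_conj_isParabolic {g : Mat2} (hdet : g.det ≠ 0) (h : s59u_Norm K g)
    {φ : Additive K →+ A} (hφ : IsParabolicHom K φ) :
    IsParabolicHom K (s59u_conj K g hdet h A φ) :=
  (s59u_conjDatum K g hdet h).heckeHom_isParabolic hφ

/-! ### Restriction -/

/-- Restriction `Hom(G, A) → Hom(K, A)` for `K ≤ G`. -/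
def s59u_res {K G : Subgroup SL(2, ℤ)} (hKG : K ≤ G) (A : Type*) [AddCommGroup A] :
    (Additive G →+ A) →+ (Additive K →+ A) where
  toFun φ := φ.comp (MonoidHom.toAdditive (Subgroup.inclusion hKG))
  map_zero' := rfl
  map_add' _ _ := rfl

theorem s59u_res_apply {K G : Subgroup SL(2, ℤ)} (hKG : K ≤ G) (φ : Additive G →+ A) (k : K) :
    s59u_res hKG A φ (Additive.ofMul k) = φ (Additive.ofMul (Subgroup.inclusion hKG k)) := rfl

theorem s59u_res_smul {K G : Subgroup SL(2, ℤ)} (hKG : K ≤ G) {R : Type*} [Semiring R]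
    [Module R A] (c : R) (φ : Additive G →+ A) :
    s59u_res hKG A (c • φ) = c • s59u_res hKG A φ := rfl

theorem s59u_res_isParabolic {K G : Subgroup SL(2, ℤ)} (hKG : K ≤ G) {φ : Additive G →+ A}
    (hφ : IsParabolicHom G φ) : IsParabolicHom K (s59u_res hKG A φ) := fun k hk =>
  hφ (Subgroup.inclusion hKG k) hk

/-- Restriction to a subgroup of finite index is injective on `Hom(·, A)`, `A` torsion free. -/
theorem s59u_res_injective {K G : Subgroup SL(2, ℤ)} (hKG : K ≤ G) (hK : K.index ≠ 0)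
    [IsAddTorsionFree A] : Function.Injective (s59u_res hKG A) := by
  refine (injective_iff_map_eq_zero _).mpr fun φ hφ => ?_
  refine AddMonoidHom.ext fun γ => ?_
  obtain ⟨γ, rfl⟩ := Additive.ofMul.surjective γ
  obtain ⟨n, hn, -, hγn⟩ := Subgroup.exists_pow_mem_of_index_ne_zero hK (γ : SL(2, ℤ))
  have h1 : φ (Additive.ofMul (γ ^ n)) = 0 := by
    have h2 := DFunLike.congr_fun hφ (Additive.ofMul (⟨(γ : SL(2, ℤ)) ^ n, hγn⟩ : K))
    rw [s59u_res_apply] at h2
    have h3 : Subgroup.inclusion hKG (⟨(γ : SL(2, ℤ)) ^ n, hγn⟩ : K) = γ ^ n := Subtype.ext rfl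
    rw [h3] at h2
    exact h2
  rw [ofMul_pow, map_nsmul] at h1
  refine (nsmul_right_injective hn.ne') ?_
  show n • φ (Additive.ofMul γ) = n • (0 : Additive G →+ A) (Additive.ofMul γ)
  rw [h1, AddMonoidHom.zero_apply, nsmul_zero]

/-- Hecke operators of two data with the same representatives commute with restriction. -/
theorem s59u_res_heckeHom {K G : Subgroup SL(2, ℤ)} (hKG : K ≤ G) {X : Type*} [Fintype X]
    (D : s48h_MatDatum G X) (D' : s48h_MatDatum K X) (hα : ∀ x, D'.α x = D.α x)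
    (hperm : ∀ (k : K) x, D'.perm k x = D.perm (Subgroup.inclusion hKG k) x)
    (φ : Additive G →+ A) :
    s59u_res hKG A (D.heckeHom A φ) = D'.heckeHom A (s59u_res hKG A φ) := by
  refine AddMonoidHom.ext fun k => ?_
  obtain ⟨k, rfl⟩ := Additive.ofMul.surjective k
  rw [s59u_res_apply, D.heckeHom_apply, D'.heckeHom_apply]
  refine Finset.sum_congr rfl fun x _ => ?_
  rw [s59u_res_apply]
  congr 2
  refine (D.fam_unique _ x _ ?_).symm
  have h := D'.fam_spec k x
  rw [hα, hα, hperm] at h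
  exact h

end Fermat.Agent.Lib.S59
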