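/-
Programme (R) = S59, node (H1) (helper3), file 2: the GROUPS of the cohomological twist.

* `s59u_G Lev D hD = Γ₀(Lev) ∩ {d ≡ 1 mod D}` (`D ∣ Lev`), as `s48h_GammaH Lev (ker ((ℤ/Lev)ˣ → (ℤ/D)ˣ))`
  so that the Hecke data of `Lib/S48/HHomH.lean` apply verbatim; entrywise membership
  `s59u_mem_G`; monotonicity, finite index;
* `s59u_alpha q u = (q u; 0 q)` (the scaled `α_u = (1 u/q; 0 1)`): products, translation by `q`,
  and **`s59u_alpha_norm`**: `α_u` normalises `K = s59u_G (Lev q) D` when `q ∣ Lev`, `q ∣ D`;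
* `s59u_gamma0_norm`: every `σ ∈ Γ₀(Lev)` normalises `K = s59u_G (Lev q) D` (`q ∣ Lev`, `q ∣ D`);
* `s59u_twist_rel`: for `t ∈ Γ₀(Lev q)`, `α_u t = σ α_{u'}` with `σ ∈ Γ₀(Lev)`, `σ₁₁ ≡ t₁₁ mod Lev`,
  whenever `q ∣ u t₁₁ − u' t₀₀`;
* `s59u_P`: the element `P = α_1 (1 0; Lev z 1) α_b ∈ Γ₀(Lev)` with lower right entry `1 + L₀ z b`.
-/
import Mathlib
import Fermat.Agent.Lib.S48.HHomH
import Fermat.Agent.Lib.S59.UConj

set_option autoImplicit false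
set_option linter.unusedSectionVars false

noncomputable section

namespace Fermat.Agent.Lib.S59

open Fermat.Agent.Lib.S48 CongruenceSubgroup
open scoped MatrixGroups

local notation "Mat2" => Matrix (Fin 2) (Fin 2) ℤ

/-! ### The groups `G(Lev, D)` -/

/-- The units of `ℤ/Lev` which are `1` modulo `D`. -/
def s59u_ker (Lev D : ℕ) (hD : D ∣ Lev) : Subgroup (ZMod Lev)ˣ := (ZMod.unitsMap hD).ker

/-- `G(Lev, D) = Γ₀(Lev) ∩ {d ≡ 1 mod D}`. -/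
abbrev s59u_G (Lev D : ℕ) (hD : D ∣ Lev) : Subgroup SL(2, ℤ) :=
  s48h_GammaH Lev (s59u_ker Lev D hD)

variable {Lev D : ℕ} {hD : D ∣ Lev}

theorem s59u_gamma0_iff {N : ℕ} {γ : SL(2, ℤ)} : γ ∈ Gamma0 N ↔ (N : ℤ) ∣ γ 1 0 := by
  rw [Gamma0_mem, ZMod.intCast_zmod_eq_zero_iff_dvd]

theorem s59u_mem_G [NeZero Lev] {γ : SL(2, ℤ)} :
    γ ∈ s59u_G Lev D hD ↔ (Lev : ℤ) ∣ γ 1 0 ∧ (D : ℤ) ∣ γ 1 1 - 1 := by
  constructor
  · rintro ⟨h0, u, hu, hγu⟩
    refine ⟨s59u_gamma0_iff.mp h0, ?_⟩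
    have h1 : ZMod.unitsMap hD u = 1 := hu
    have h2 : ((ZMod.unitsMap hD u : (ZMod D)ˣ) : ZMod D) = 1 := by rw [h1]; rfl
    rw [ZMod.unitsMap_def, Units.coe_map, MonoidHom.coe_coe, ← hγu, map_intCast] at h2
    have h3 : (((γ 1 1 - 1 : ℤ)) : ZMod D) = 0 := by
      push_cast
      rw [h2, sub_self]
    exact (ZMod.intCast_zmod_eq_zero_iff_dvd _ _).mp h3
  · rintro ⟨h0, h1⟩
    have hγ0 : γ ∈ Gamma0 Lev := s59u_gamma0_iff.mpr h0
    have hinv := s48h_lowerRight_inv_mul hγ0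
    refine ⟨hγ0, ⟨((γ 1 1 : ℤ) : ZMod Lev), (((γ⁻¹) 1 1 : ℤ) : ZMod Lev), ?_, hinv⟩, ?_, rfl⟩
    · rw [mul_comm]; exact hinv
    · show ZMod.unitsMap hD _ = 1
      apply Units.ext
      rw [ZMod.unitsMap_def, Units.coe_map, MonoidHom.coe_coe]
      show (ZMod.castHom hD (ZMod D)) ((γ 1 1 : ℤ) : ZMod Lev) = 1
      rw [map_intCast]
      have h3 : (((γ 1 1 - 1 : ℤ)) : ZMod D) = 0 :=
        (ZMod.intCast_zmod_eq_zero_iff_dvd _ _).mpr h1
      push_cast at h3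
      exact sub_eq_zero.mp h3

theorem s59u_G_le_gamma0 : s59u_G Lev D hD ≤ Gamma0 Lev := s48h_GammaH_le_Gamma0

theorem s59u_G_mono [NeZero Lev] {Lev' D' : ℕ} [NeZero Lev'] {hD' : D' ∣ Lev'} (h1 : Lev ∣ Lev')
    (h2 : D ∣ D') : s59u_G Lev' D' hD' ≤ s59u_G Lev D hD := by
  intro γ hγ
  rw [s59u_mem_G] at hγ ⊢
  exact ⟨(Int.natCast_dvd_natCast.mpr h1).trans hγ.1, (Int.natCast_dvd_natCast.mpr h2).trans hγ.2⟩

theorem s59u_G_index_ne_zero [NeZero Lev] : (s59u_G Lev D hD).index ≠ 0 := by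
  have h1 : Gamma1 Lev ≤ s59u_G Lev D hD := s48h_Gamma1_le_GammaH
  have h2 : (Gamma1 Lev).index ≠ 0 := Subgroup.FiniteIndex.index_ne_zero
  exact fun h0 => h2 (Nat.eq_zero_of_zero_dvd (h0 ▸ Subgroup.index_dvd_of_le h1))

/-! ### Small matrix tools -/

/-- An element of `SL(2, ℤ)` from its entries. -/
def s59u_mk (a b c d : ℤ) (h : a * d - b * c = 1) : SL(2, ℤ) :=
  ⟨!![a, b; c, d], by rw [Matrix.det_fin_two_of]; exact h⟩

@[simp] theorem s59u_mk_00 (a b c d : ℤ) (h : a * d - b * c = 1) : s59u_mk a b c d h 0 0 = a := rfl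
@[simp] theorem s59u_mk_01 (a b c d : ℤ) (h : a * d - b * c = 1) : s59u_mk a b c d h 0 1 = b := rfl
@[simp] theorem s59u_mk_10 (a b c d : ℤ) (h : a * d - b * c = 1) : s59u_mk a b c d h 1 0 = c := rfl
@[simp] theorem s59u_mk_11 (a b c d : ℤ) (h : a * d - b * c = 1) : s59u_mk a b c d h 1 1 = d := rfl

theorem s59u_mk_coe (a b c d : ℤ) (h : a * d - b * c = 1) :
    ((s59u_mk a b c d h : SL(2, ℤ)) : Mat2) = !![a, b; c, d] := rfl

theorem s59u_det_eq (γ : SL(2, ℤ)) : γ 0 0 * γ 1 1 - γ 0 1 * γ 1 0 = 1 := by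
  have h := γ.det_coe
  rw [Matrix.det_fin_two] at h
  exact h

theorem s59u_coe_eq (γ : SL(2, ℤ)) : (γ : Mat2) = !![γ 0 0, γ 0 1; γ 1 0, γ 1 1] := by
  ext i j
  fin_cases i <;> fin_cases j <;> rfl

/-! ### The matrices `α_u` -/

/-- `α_u = (q u; 0 q)`, the scaled `(1 u/q; 0 1)`. -/
def s59u_alpha (q : ℕ) (u : ℤ) : Mat2 := !![(q : ℤ), u; 0, (q : ℤ)]

theorem s59u_alpha_det (q : ℕ) (u : ℤ) : (s59u_alpha q u).det = (q : ℤ) ^ 2 := by
  rw [s59u_alpha, Matrix.det_fin_two_of]; ring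

theorem s59u_alpha_det_ne {q : ℕ} (hq : q ≠ 0) (u : ℤ) : (s59u_alpha q u).det ≠ 0 := by
  rw [s59u_alpha_det]
  exact pow_ne_zero 2 (by exact_mod_cast hq)

theorem s59u_alpha_mul (q : ℕ) (u v : ℤ) :
    s59u_alpha q u * s59u_alpha q v = (q : ℤ) • s59u_alpha q (u + v) := by
  ext i j
  fin_cases i <;> fin_cases j <;>
    simp [s59u_alpha, Matrix.mul_apply, Fin.sum_univ_two] <;> ring

/-- the translation `(1 1; 0 1)`. -/
def s59u_T : SL(2, ℤ) := s59u_mk 1 1 0 1 (by norm_num)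

theorem s59u_alpha_add_q (q : ℕ) (u : ℤ) :
    s59u_alpha q (u + q) = s59u_alpha q u * (s59u_T : Mat2) := by
  ext i j
  fin_cases i <;> fin_cases j <;>
    simp [s59u_alpha, s59u_T, s59u_mk_coe, Matrix.mul_apply, Fin.sum_univ_two] <;> ring

theorem s59u_T_mem [NeZero Lev] : s59u_T ∈ s59u_G Lev D hD := by
  rw [s59u_mem_G]
  exact ⟨by simp [s59u_T], by simp [s59u_T]⟩

/-- **`α_u` normalises `K = G(Lev q, D)`** when `q ∣ Lev` and `q ∣ D`. -/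
theorem s59u_alpha_norm [NeZero Lev] {q : ℕ} [NeZero q] (hqL : q ∣ Lev) (hqD : q ∣ D) (u : ℤ) :
    s59u_Norm (s59u_G (Lev * q) D (hD.mul_right q)) (s59u_alpha q u) := by
  rintro ⟨k, hk⟩
  rw [s59u_mem_G] at hk
  obtain ⟨hk0, hk1⟩ := hk
  -- `c = q² c₂`, `d − a = q e`
  have hq2 : ((q : ℤ) ^ 2) ∣ k 1 0 := by
    refine Dvd.dvd.trans ?_ hk0
    push_cast
    rw [pow_two]
    exact mul_dvd_mul_right (Int.natCast_dvd_natCast.mpr hqL) _
  obtain ⟨c₂, hc₂⟩ := hq2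
  have hdet := s59u_det_eq k
  have hqd : (q : ℤ) ∣ k 1 1 - 1 := (Int.natCast_dvd_natCast.mpr hqD).trans hk1
  have hqc : (q : ℤ) ∣ k 1 0 := ⟨(q : ℤ) * c₂, by rw [hc₂]; ring⟩
  have hqa : (q : ℤ) ∣ k 0 0 - 1 := by
    have h1 : k 0 0 - 1 = -(k 0 0 * (k 1 1 - 1)) + k 0 1 * k 1 0 := by linear_combination hdet
    rw [h1]
    exact dvd_add ((hqd.mul_left _).neg_right) (hqc.mul_left _)
  obtain ⟨e, he⟩ : (q : ℤ) ∣ k 1 1 - k 0 0 := by
    have h1 : k 1 1 - k 0 0 = (k 1 1 - 1) - (k 0 0 - 1) := by ring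
    rw [h1]
    exact dvd_sub hqd hqa
  have hdet' : (k 0 0 + u * q * c₂) * (k 1 1 - u * q * c₂)
      - (k 0 1 + u * e - u ^ 2 * c₂) * k 1 0 = 1 := by
    have h2 : k 1 1 = k 0 0 + q * e := by linear_combination he
    rw [hc₂, h2]
    rw [hc₂, h2] at hdet
    linear_combination hdet
  refine ⟨⟨s59u_mk (k 0 0 + u * q * c₂) (k 0 1 + u * e - u ^ 2 * c₂) (k 1 0)
    (k 1 1 - u * q * c₂) hdet', ?_⟩, ?_⟩
  · rw [s59u_mem_G]
    refine ⟨hk0, ?_⟩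
    have h3 : (D : ℤ) ∣ (q : ℤ) * c₂ := by
      -- `Lev ∣ c / q`
      have h4 : ((Lev * q : ℕ) : ℤ) ∣ ((q : ℤ) * c₂) * q := by
        have : ((q : ℤ) * c₂) * q = k 1 0 := by rw [hc₂]; ring
        rw [this]; exact hk0
      have h5 : (Lev : ℤ) ∣ (q : ℤ) * c₂ := by
        push_cast at h4
        exact Int.dvd_of_mul_dvd_mul_right (by exact_mod_cast NeZero.ne q) h4
      exact (Int.natCast_dvd_natCast.mpr hD).trans h5
    simp only [s59u_mk_11]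
    have h7 : k 1 1 - u * q * c₂ - 1 = (k 1 1 - 1) - u * ((q : ℤ) * c₂) := by ring
    rw [h7]
    exact dvd_sub hk1 (h3.mul_left _)
  · rw [s59u_mk_coe, s59u_coe_eq k]
    have h2 : k 1 1 = k 0 0 + q * e := by linear_combination he
    ext i j
    fin_cases i <;> fin_cases j <;>
      simp [s59u_alpha, Matrix.mul_apply, Fin.sum_univ_two] <;>
      first
        | ring1
        | (rw [hc₂]; ring1)
        | (rw [h2]; ring1)

/-- **Every `σ ∈ Γ₀(Lev)` normalises `K = G(Lev q, D)`** when `q ∣ Lev` and `q ∣ D`. -/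
theorem s59u_gamma0_norm [NeZero Lev] {q : ℕ} [NeZero q] (hqL : q ∣ Lev) (hqD : q ∣ D)
    {σ : SL(2, ℤ)} (hσ : σ ∈ Gamma0 Lev) :
    s59u_Norm (s59u_G (Lev * q) D (hD.mul_right q)) (σ : Mat2) := by
  rintro ⟨k, hk⟩
  rw [s59u_mem_G] at hk
  obtain ⟨hk0, hk1⟩ := hk
  have hσ0 : (Lev : ℤ) ∣ σ 1 0 := s59u_gamma0_iff.mp hσ
  have hdetσ := s59u_det_eq σ
  have hdetk := s59u_det_eq k
  have hqd : (q : ℤ) ∣ k 1 1 - 1 := (Int.natCast_dvd_natCast.mpr hqD).trans hk1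
  have hLc : (Lev : ℤ) ∣ k 1 0 := by
    refine Dvd.dvd.trans ?_ hk0
    push_cast
    exact dvd_mul_right _ _
  have hqc : (q : ℤ) ∣ k 1 0 := (Int.natCast_dvd_natCast.mpr hqL).trans hLc
  have hqa : (q : ℤ) ∣ k 0 0 - 1 := by
    have h1 : k 0 0 - 1 = -(k 0 0 * (k 1 1 - 1)) + k 0 1 * k 1 0 := by linear_combination hdetk
    rw [h1]
    exact dvd_add ((hqd.mul_left _).neg_right) (hqc.mul_left _)
  have hqad : (q : ℤ) ∣ k 0 0 - k 1 1 := by
    have h1 : k 0 0 - k 1 1 = (k 0 0 - 1) - (k 1 1 - 1) := by ring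
    rw [h1]
    exact dvd_sub hqa hqd
  set a := k 0 0 with ha
  set b := k 0 1 with hb
  set c := k 1 0 with hc
  set d := k 1 1 with hd
  set s00 := σ 0 0 with hs00
  set s01 := σ 0 1 with hs01
  set s10 := σ 1 0 with hs10
  set s11 := σ 1 1 with hs11
  have hdet' : ((s00 * a + s01 * c) * s11 - (s00 * b + s01 * d) * s10)
        * (-(s10 * a + s11 * c) * s01 + (s10 * b + s11 * d) * s00)
      - (-(s00 * a + s01 * c) * s01 + (s00 * b + s01 * d) * s00)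
        * ((s10 * a + s11 * c) * s11 - (s10 * b + s11 * d) * s10) = 1 := by
    linear_combination ((a * d - b * c) * (s00 * s11 - s01 * s10 + 1)) * hdetσ + hdetk
  refine ⟨⟨s59u_mk _ _ _ _ hdet', ?_⟩, ?_⟩
  · rw [s59u_mem_G]
    simp only [s59u_mk_10, s59u_mk_11]
    constructor
    · have h1 : (s10 * a + s11 * c) * s11 - (s10 * b + s11 * d) * s10
          = s10 * s11 * (a - d) + s11 ^ 2 * c - s10 ^ 2 * b := by ring
      rw [h1]
      have hLq : ((Lev * q : ℕ) : ℤ) = (Lev : ℤ) * (q : ℤ) := by push_cast; ring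
      rw [hLq]
      refine dvd_sub (dvd_add ?_ ?_) ?_
      · have : s10 * s11 * (a - d) = s10 * (a - d) * s11 := by ring
        rw [this]
        exact (mul_dvd_mul hσ0 hqad).mul_right _
      · rw [← hLq]
        exact hk0.mul_left _
      · have hq10 : (q : ℤ) ∣ s10 := (Int.natCast_dvd_natCast.mpr hqL).trans hσ0
        rw [pow_two]
        exact (mul_dvd_mul hσ0 hq10).mul_right _
    · have h1 : -(s10 * a + s11 * c) * s01 + (s10 * b + s11 * d) * s00 - 1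
          = s00 * s11 * (d - 1) - s01 * s10 * (a - 1) + s00 * s10 * b - s01 * s11 * c := by
        linear_combination hdetσ
      rw [h1]
      have hD10 : (D : ℤ) ∣ s10 := (Int.natCast_dvd_natCast.mpr hD).trans hσ0
      have hDc : (D : ℤ) ∣ c := (Int.natCast_dvd_natCast.mpr hD).trans hLc
      refine dvd_sub (dvd_add (dvd_sub ?_ ?_) ?_) ?_
      · exact hk1.mul_left _
      · exact ((hD10.mul_left _).mul_right _)
      · exact ((hD10.mul_left _).mul_right _)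
      · exact hDc.mul_left _
  · rw [s59u_mk_coe, s59u_coe_eq k, s59u_coe_eq σ]
    ext i j
    fin_cases i <;> fin_cases j <;>
      simp [Matrix.mul_apply, Fin.sum_univ_two] <;>
      first
        | linear_combination (-(s00 * a + s01 * c)) * hdetσ
        | linear_combination (-(s00 * b + s01 * d)) * hdetσ
        | linear_combination (-(s10 * a + s11 * c)) * hdetσ
        | linear_combination (-(s10 * b + s11 * d)) * hdetσ

/-- **The twisting relation**: for `t` with `Lev q ∣ t₁₀` and `q m = u t₁₁ − u' t₀₀`,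
`α_u t = σ α_{u'}` with `σ ∈ Γ₀(Lev)`, `σ₁₁ ≡ t₁₁` modulo `Lev`. -/
theorem s59u_twist_rel_strong [NeZero Lev] {q : ℕ} [NeZero q] (hqL : q ∣ Lev) {t : SL(2, ℤ)}
    (ht : ((Lev * q : ℕ) : ℤ) ∣ t 1 0) (u u' m : ℤ) (hm : (q : ℤ) * m = u * t 1 1 - u' * t 0 0) :
    ∃ σ : SL(2, ℤ), σ 1 0 = t 1 0 ∧ (Lev : ℤ) ∣ σ 1 1 - t 1 1 ∧
      s59u_alpha q u * (t : Mat2) = (σ : Mat2) * s59u_alpha q u' := by
  have hq2 : ((q : ℤ) ^ 2) ∣ t 1 0 := by
    refine Dvd.dvd.trans ?_ ht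
    push_cast
    rw [pow_two]
    exact mul_dvd_mul_right (Int.natCast_dvd_natCast.mpr hqL) _
  obtain ⟨c₂, hc₂⟩ := hq2
  have hdet := s59u_det_eq t
  have hLqc : (Lev : ℤ) ∣ (q : ℤ) * c₂ := by
    have h4 : ((Lev * q : ℕ) : ℤ) ∣ ((q : ℤ) * c₂) * q := by
      have : ((q : ℤ) * c₂) * q = t 1 0 := by rw [hc₂]; ring
      rw [this]; exact ht
    push_cast at h4
    exact Int.dvd_of_mul_dvd_mul_right (by exact_mod_cast NeZero.ne q) h4
  have hdet' : (t 0 0 + u * q * c₂) * (t 1 1 - u' * q * c₂)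
      - (t 0 1 + m - u * u' * c₂) * t 1 0 = 1 := by
    rw [hc₂]
    rw [hc₂] at hdet
    linear_combination hdet - ((q : ℤ) * c₂) * hm
  refine ⟨s59u_mk _ _ _ _ hdet', ?_, ?_, ?_⟩
  · simp only [s59u_mk_10]
  · simp only [s59u_mk_11]
    have h1 : t 1 1 - u' * q * c₂ - t 1 1 = -(u' * ((q : ℤ) * c₂)) := by ring
    rw [h1]
    exact (hLqc.mul_left _).neg_right
  · rw [s59u_mk_coe, s59u_coe_eq t]
    ext i j
    fin_cases i <;> fin_cases j <;>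
      simp [s59u_alpha, Matrix.mul_apply, Fin.sum_univ_two] <;>
      first
        | ring1
        | (rw [hc₂]; ring1)
        | linear_combination hm
        | linear_combination (-1 : ℤ) * hm
        | (rw [hc₂]; linear_combination hm)
        | (rw [hc₂]; linear_combination (-1 : ℤ) * hm)

/-- The twisting relation, weak form (`σ ∈ Γ₀(Lev)`). -/
theorem s59u_twist_rel [NeZero Lev] {q : ℕ} [NeZero q] (hqL : q ∣ Lev) {t : SL(2, ℤ)}
    (ht : ((Lev * q : ℕ) : ℤ) ∣ t 1 0) (u u' m : ℤ) (hm : (q : ℤ) * m = u * t 1 1 - u' * t 0 0) :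
    ∃ σ : SL(2, ℤ), σ ∈ Gamma0 Lev ∧ (Lev : ℤ) ∣ σ 1 1 - t 1 1 ∧
      s59u_alpha q u * (t : Mat2) = (σ : Mat2) * s59u_alpha q u' := by
  obtain ⟨σ, h1, h2, h3⟩ := s59u_twist_rel_strong hqL ht u u' m hm
  refine ⟨σ, ?_, h2, h3⟩
  rw [s59u_gamma0_iff, h1]
  refine Dvd.dvd.trans ?_ ht
  push_cast
  exact dvd_mul_right _ _

/-! ### The lower unipotent elements and the element `P` -/

/-- `(1 0; c 1)`. -/
def s59u_lo (c : ℤ) : SL(2, ℤ) := s59u_mk 1 0 c 1 (by ring)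

theorem s59u_lo_mem [NeZero Lev] {c : ℤ} (hc : (Lev : ℤ) ∣ c) : s59u_lo c ∈ s59u_G Lev D hD := by
  rw [s59u_mem_G]
  exact ⟨by simpa [s59u_lo] using hc, by simp [s59u_lo]⟩

/-- `P = (1 + L₀ z, w; L₀ q z, L₀ z b + 1)` with `q w = (1 + L₀ z) b + 1`. -/
def s59u_P (L₀ : ℕ) (q : ℕ) (z b w : ℤ) (hw : (q : ℤ) * w = (1 + L₀ * z) * b + 1) : SL(2, ℤ) :=
  s59u_mk (1 + L₀ * z) w (L₀ * q * z) (L₀ * z * b + 1) (by linear_combination (-(L₀ : ℤ) * z) * hw)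

theorem s59u_P_mem {L₀ q : ℕ} (z b w : ℤ) (hw : (q : ℤ) * w = (1 + L₀ * z) * b + 1) :
    s59u_P L₀ q z b w hw ∈ Gamma0 (L₀ * q) := by
  rw [s59u_gamma0_iff]
  simp only [s59u_P, s59u_mk_10]
  push_cast
  exact dvd_mul_right _ _

@[simp] theorem s59u_P_11 {L₀ q : ℕ} (z b w : ℤ) (hw : (q : ℤ) * w = (1 + L₀ * z) * b + 1) :
    s59u_P L₀ q z b w hw 1 1 = L₀ * z * b + 1 := rfl

/-- `α_1 · (1 0; L₀ q z, 1) · α_b = q² P`. -/
theorem s59u_P_eq {L₀ q : ℕ} (z b w : ℤ) (hw : (q : ℤ) * w = (1 + L₀ * z) * b + 1) :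
    s59u_alpha q 1 * ((s59u_lo (L₀ * q * z) : SL(2, ℤ)) : Mat2) * s59u_alpha q b
      = ((q : ℤ) ^ 2) • ((s59u_P L₀ q z b w hw : SL(2, ℤ)) : Mat2) := by
  rw [s59u_P, s59u_lo, s59u_mk_coe, s59u_mk_coe]
  ext i j
  fin_cases i <;> fin_cases j <;>
    simp [s59u_alpha, Matrix.mul_apply, Fin.sum_univ_two] <;>
    first
      | ring1
      | linear_combination ((q : ℤ)) * hw
      | linear_combination (-(q : ℤ)) * hw

end Fermat.Agent.Lib.S59
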