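/-
Programme (R) = S59, node (H1) (helper3), file 3: THE COHOMOLOGICAL TWIST, abstract part.

`K ≤ SL(2, ℤ)` a subgroup normalised by all `α_u = (q u; 0 q)` and containing `T = (1 1; 0 1)`
(`s59u_TwSetting K q`).  Then `u ↦ c_u := s59u_conj K α_u` is an action of `ℤ/q` on `Hom(K, A)`
(`s59u_cZ`, `s59u_c`, `s59u_c_add`, `s59u_c_zero`), and for a multiplicative character `χ` of
`(ℤ/q)` with values in a field `F` we have the twist
  `s59u_tw χ φ = ∑_u χ(u) • c_u φ`  on `Hom(K, F)`,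
with the CONVOLUTION IDENTITY (`s59u_tw_tw_inv`, a Jacobi sum):
  `tw χ (tw χ⁻¹ φ) = χ(-1) • (q • φ − ∑_w c_w φ)`   (`χ ≠ 1`),
and its consequence `s59u_c_one_of_tw_eq_zero`: `tw χ⁻¹ φ = 0 → c_1 φ = φ` in characteristic zero.
-/
import Mathlib
import Fermat.Agent.Lib.S59.UGrp

set_option autoImplicit false
set_option linter.unusedSectionVars false

noncomputable section

namespace Fermat.Agent.Lib.S59

open Fermat.Agent.Lib.S48 ModularCurve.Period
open scoped MatrixGroups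

local notation "Mat2" => Matrix (Fin 2) (Fin 2) ℤ

/-- The setting of the twist: all `α_u` normalise `K` and `T ∈ K`. -/
structure s59u_TwSetting (K : Subgroup SL(2, ℤ)) (q : ℕ) : Prop where
  norm : ∀ u : ℤ, s59u_Norm K (s59u_alpha q u)
  T_mem : s59u_T ∈ K

variable {K : Subgroup SL(2, ℤ)} {q : ℕ} [NeZero q]

/-- `c_u`, `u ∈ ℤ`. -/
def s59u_cZ (hK : s59u_TwSetting K q) (A : Type*) [AddCommGroup A] (u : ℤ) :
    (Additive K →+ A) →+ (Additive K →+ A) :=
  s59u_conj K (s59u_alpha q u) (s59u_alpha_det_ne (NeZero.ne q) u) (hK.norm u) A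

variable {A : Type*} [AddCommGroup A]

theorem s59u_cZ_add (hK : s59u_TwSetting K q) (u v : ℤ) (φ : Additive K →+ A) :
    s59u_cZ hK A v (s59u_cZ hK A u φ) = s59u_cZ hK A (u + v) φ := by
  have hdet : (s59u_alpha q u * s59u_alpha q v).det ≠ 0 := by
    rw [Matrix.det_mul]
    exact mul_ne_zero (s59u_alpha_det_ne (NeZero.ne q) u) (s59u_alpha_det_ne (NeZero.ne q) v)
  rw [s59u_cZ, s59u_cZ, s59u_conj_conj _ _ _ _ hdet (s59u_norm_mul (hK.norm u) (hK.norm v))]
  rw [s59u_cZ]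
  exact DFunLike.congr_fun (s59u_conj_eq_of_smul hdet _ _ _ 1 (q : ℤ) one_ne_zero
    (by rw [one_smul, s59u_alpha_mul])) φ

theorem s59u_cZ_zero (hK : s59u_TwSetting K q) (φ : Additive K →+ A) :
    s59u_cZ hK A 0 φ = φ := by
  refine AddMonoidHom.ext fun k => ?_
  obtain ⟨k, rfl⟩ := Additive.ofMul.surjective k
  rw [s59u_cZ]
  refine s59u_conj_apply_of _ _ φ k k ?_
  rw [s59u_coe_eq (k : SL(2, ℤ))]
  ext i j
  fin_cases i <;> fin_cases j <;>
    simp [s59u_alpha, Matrix.mul_apply, Fin.sum_univ_two] <;> ring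

theorem s59u_cZ_add_q (hK : s59u_TwSetting K q) (u : ℤ) :
    s59u_cZ hK A (u + q) = s59u_cZ hK A u := by
  refine AddMonoidHom.ext fun φ => ?_
  have hdetT : ((s59u_T : SL(2, ℤ)) : Mat2).det ≠ 0 := by
    rw [Matrix.SpecialLinearGroup.det_coe]; exact one_ne_zero
  have hnT : s59u_Norm K ((s59u_T : SL(2, ℤ)) : Mat2) := by
    intro k
    refine ⟨⟨s59u_T, hK.T_mem⟩ * k * ⟨s59u_T, hK.T_mem⟩⁻¹, ?_⟩
    show ((s59u_T : SL(2, ℤ)) : Mat2) * ((k : SL(2, ℤ)) : Mat2)
      = ((s59u_T * (k : SL(2, ℤ)) * s59u_T⁻¹ : SL(2, ℤ)) : Mat2) * ((s59u_T : SL(2, ℤ)) : Mat2)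
    rw [← Matrix.SpecialLinearGroup.coe_mul, ← Matrix.SpecialLinearGroup.coe_mul,
      inv_mul_cancel_right]
  have hdet : (s59u_alpha q u * ((s59u_T : SL(2, ℤ)) : Mat2)).det ≠ 0 := by
    rw [Matrix.det_mul]
    exact mul_ne_zero (s59u_alpha_det_ne (NeZero.ne q) u) hdetT
  have h1 : s59u_cZ hK A (u + q) φ
      = s59u_conj K (s59u_alpha q u * ((s59u_T : SL(2, ℤ)) : Mat2)) hdet
          (s59u_norm_mul (hK.norm u) hnT) A φ := by
    rw [s59u_cZ]
    exact DFunLike.congr_fun (s59u_conj_eq_of_smul _ _ hdet _ 1 1 one_ne_zero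
      (by rw [s59u_alpha_add_q])) φ
  rw [h1, ← s59u_conj_conj (s59u_alpha_det_ne (NeZero.ne q) u) (hK.norm u) hdetT hnT]
  exact s59u_conj_of_mem (⟨s59u_T, hK.T_mem⟩ : K) hnT hdetT _

theorem s59u_cZ_add_mul (hK : s59u_TwSetting K q) (u m : ℤ) :
    s59u_cZ hK A (u + q * m) = s59u_cZ hK A u := by
  induction m using Int.induction_on with
  | zero => rw [mul_zero, add_zero]
  | succ m ih =>
    have h : u + (q : ℤ) * ((m : ℤ) + 1) = (u + q * m) + q := by ring
    rw [h, s59u_cZ_add_q, ih]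
  | pred m ih =>
    have h : u + (q : ℤ) * (-(m : ℤ)) = (u + q * (-(m : ℤ) - 1)) + q := by ring
    rw [h, s59u_cZ_add_q] at ih
    exact ih

theorem s59u_cZ_congr (hK : s59u_TwSetting K q) {u u' : ℤ} (h : (q : ℤ) ∣ u - u') :
    s59u_cZ hK A u = s59u_cZ hK A u' := by
  obtain ⟨m, hm⟩ := h
  have h1 : u = u' + q * m := by linear_combination hm
  rw [h1, s59u_cZ_add_mul]

/-- `c_u`, `u ∈ ℤ/q`. -/
def s59u_c (hK : s59u_TwSetting K q) (A : Type*) [AddCommGroup A] (u : ZMod q) :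
    (Additive K →+ A) →+ (Additive K →+ A) :=
  s59u_cZ hK A ((u.cast : ℤ))

theorem s59u_c_intCast (hK : s59u_TwSetting K q) (n : ℤ) :
    s59u_c hK A ((n : ℤ) : ZMod q) = s59u_cZ hK A n := by
  rw [s59u_c]
  refine s59u_cZ_congr hK ?_
  rw [← ZMod.intCast_zmod_eq_zero_iff_dvd]
  push_cast
  simp

theorem s59u_c_add (hK : s59u_TwSetting K q) (u v : ZMod q) (φ : Additive K →+ A) :
    s59u_c hK A v (s59u_c hK A u φ) = s59u_c hK A (u + v) φ := by
  have h : u + v = (((u.cast : ℤ) + (v.cast : ℤ) : ℤ) : ZMod q) := by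
    simp
  rw [h, s59u_c_intCast, s59u_c, s59u_c, s59u_cZ_add]

theorem s59u_c_zero (hK : s59u_TwSetting K q) (φ : Additive K →+ A) :
    s59u_c hK A 0 φ = φ := by
  have h : (0 : ZMod q) = ((0 : ℤ) : ZMod q) := by simp
  rw [h, s59u_c_intCast, s59u_cZ_zero]

theorem s59u_c_isParabolic (hK : s59u_TwSetting K q) (u : ZMod q) {φ : Additive K →+ A}
    (hφ : IsParabolicHom K φ) : IsParabolicHom K (s59u_c hK A u φ) :=
  s59u_conj_isParabolic _ _ hφ

theorem s59u_c_smul (hK : s59u_TwSetting K q) {R : Type*} [Semiring R] [Module R A] (u : ZMod q)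
    (a : R) (φ : Additive K →+ A) : s59u_c hK A u (a • φ) = a • s59u_c hK A u φ :=
  s59u_conj_smul _ _ a φ

/-! ### The twist -/

section Twist

variable {F : Type*} [Field F]

/-- **The twist** `tw χ φ = ∑_u χ(u) • c_u φ`. -/
def s59u_tw (hK : s59u_TwSetting K q) (χ : MulChar (ZMod q) F) (φ : Additive K →+ F) :
    Additive K →+ F :=
  ∑ u : ZMod q, χ u • s59u_c hK F u φ

theorem s59u_tw_zero (hK : s59u_TwSetting K q) (χ : MulChar (ZMod q) F) :
    s59u_tw hK χ (0 : Additive K →+ F) = 0 := by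
  rw [s59u_tw]
  exact Finset.sum_eq_zero fun u _ => by rw [map_zero, smul_zero]

theorem s59u_tw_smul (hK : s59u_TwSetting K q) (χ : MulChar (ZMod q) F) (a : F)
    (φ : Additive K →+ F) : s59u_tw hK χ (a • φ) = a • s59u_tw hK χ φ := by
  rw [s59u_tw, s59u_tw, Finset.smul_sum]
  refine Finset.sum_congr rfl fun u _ => ?_
  rw [s59u_c_smul, smul_comm]

theorem s59u_tw_isParabolic (hK : s59u_TwSetting K q) (χ : MulChar (ZMod q) F)
    {φ : Additive K →+ F} (hφ : IsParabolicHom K φ) : IsParabolicHom K (s59u_tw hK χ φ) := by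
  have h : s59u_tw hK χ φ ∈ parabolicHoms F K F := by
    rw [s59u_tw]
    refine Submodule.sum_mem _ fun u _ => Submodule.smul_mem _ _ ?_
    exact s59u_c_isParabolic hK u hφ
  exact h

variable [Fact q.Prime]

/-- The character sum behind the convolution identity. -/
theorem s59u_conv_sum (χ : MulChar (ZMod q) F) (hχ : χ ≠ 1) (w : ZMod q) :
    ∑ v : ZMod q, χ v * χ⁻¹ (w - v)
      = if w = 0 then χ (-1) * ((q : F) - 1) else -χ (-1) := by
  classical
  by_cases hw : w = 0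
  · subst hw
    rw [if_pos rfl]
    have h1 : ∀ v : ZMod q, χ v * χ⁻¹ (0 - v) = if v = 0 then 0 else χ (-1) := by
      intro v
      by_cases hv : v = 0
      · subst hv
        rw [if_pos rfl, MulChar.map_zero, zero_mul]
      · rw [if_neg hv, MulChar.inv_apply', ← map_mul, zero_sub]
        congr 1
        field_simp
    rw [Finset.sum_congr rfl fun v _ => h1 v, Finset.sum_ite, Finset.sum_const_zero, zero_add,
      Finset.sum_const, Finset.filter_ne' Finset.univ (0 : ZMod q), Finset.card_erase_of_mem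
      (Finset.mem_univ _), Finset.card_univ, ZMod.card, nsmul_eq_mul,
      Nat.cast_sub (Fact.out : q.Prime).one_le, Nat.cast_one, mul_comm]
  · rw [if_neg hw, ← jacobiSum_nontrivial_inv hχ, jacobiSum]
    rw [← Fintype.sum_equiv (Equiv.mulLeft₀ w hw) (fun x => χ x * χ⁻¹ (1 - x))
      (fun v => χ v * χ⁻¹ (w - v))]
    intro x
    have hχw : χ w * χ⁻¹ w = 1 := by
      rw [MulChar.inv_apply_eq_inv']
      exact mul_inv_cancel₀ (IsUnit.map χ (IsUnit.mk0 w hw)).ne_zero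
    have h2 : w - w * x = w * (1 - x) := by ring
    rw [Equiv.mulLeft₀_apply, h2, map_mul, map_mul]
    calc χ x * χ⁻¹ (1 - x) = (χ w * χ⁻¹ w) * (χ x * χ⁻¹ (1 - x)) := by rw [hχw, one_mul]
      _ = χ w * χ x * (χ⁻¹ w * χ⁻¹ (1 - x)) := by ring

/-- **The convolution identity.** -/
theorem s59u_tw_tw_inv (hK : s59u_TwSetting K q) (χ : MulChar (ZMod q) F) (hχ : χ ≠ 1)
    (φ : Additive K →+ F) :
    s59u_tw hK χ (s59u_tw hK χ⁻¹ φ)
      = χ (-1) • ((q : F) • φ - ∑ w : ZMod q, s59u_c hK F w φ) := by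
  classical
  have h1 : s59u_tw hK χ (s59u_tw hK χ⁻¹ φ)
      = ∑ v : ZMod q, ∑ w : ZMod q, (χ v * χ⁻¹ (w - v)) • s59u_c hK F w φ := by
    rw [s59u_tw]
    refine Finset.sum_congr rfl fun v _ => ?_
    rw [s59u_tw, map_sum, Finset.smul_sum]
    rw [← Fintype.sum_equiv (Equiv.addRight v)
      (fun u => χ v • s59u_c hK F v (χ⁻¹ u • s59u_c hK F u φ))
      (fun w => (χ v * χ⁻¹ (w - v)) • s59u_c hK F w φ)]
    intro u
    rw [Equiv.coe_addRight, add_sub_cancel_right, s59u_c_smul, s59u_c_add, smul_smul]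
  rw [h1, Finset.sum_comm]
  have h2 : ∀ w : ZMod q, ∑ v : ZMod q, (χ v * χ⁻¹ (w - v)) • s59u_c hK F w φ
      = (-χ (-1)) • s59u_c hK F w φ
        + (if w = 0 then χ (-1) * (q : F) else 0) • s59u_c hK F w φ := by
    intro w
    rw [← Finset.sum_smul, s59u_conv_sum χ hχ w, ← add_smul]
    congr 1
    split_ifs <;> ring
  have h3 : ∑ w : ZMod q, (if w = 0 then χ (-1) * (q : F) else 0) • s59u_c hK F w φ
      = (χ (-1) * (q : F)) • φ := by
    rw [Finset.sum_eq_single (0 : ZMod q) (fun w _ hw => by rw [if_neg hw, zero_smul])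
      (fun h => absurd (Finset.mem_univ _) h), if_pos rfl, s59u_c_zero]
  rw [Finset.sum_congr rfl fun w _ => h2 w, Finset.sum_add_distrib, h3, ← Finset.smul_sum,
    smul_sub, smul_smul, neg_smul]
  abel

/-- If the twist by `χ⁻¹` (`χ ≠ 1`) of `φ` vanishes, then `c_1 φ = φ` (characteristic zero). -/
theorem s59u_c_one_of_tw_eq_zero [CharZero F] (hK : s59u_TwSetting K q)
    (χ : MulChar (ZMod q) F) (hχ : χ ≠ 1) (φ : Additive K →+ F)
    (h : s59u_tw hK χ⁻¹ φ = 0) : s59u_c hK F 1 φ = φ := by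
  have h1 := s59u_tw_tw_inv hK χ hχ φ
  rw [h, s59u_tw_zero] at h1
  have hχ1 : χ (-1) ≠ 0 := (IsUnit.map χ (isUnit_one.neg)).ne_zero
  have h2 : (q : F) • φ = ∑ w : ZMod q, s59u_c hK F w φ := by
    have := (smul_eq_zero.mp h1.symm).resolve_left hχ1
    exact sub_eq_zero.mp this
  have h3 : s59u_c hK F 1 (∑ w : ZMod q, s59u_c hK F w φ) = ∑ w : ZMod q, s59u_c hK F w φ := by
    rw [map_sum]
    rw [← Fintype.sum_equiv (Equiv.addRight (1 : ZMod q))
      (fun w => s59u_c hK F 1 (s59u_c hK F w φ)) (fun w => s59u_c hK F w φ)]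
    intro w
    rw [s59u_c_add, Equiv.coe_addRight]
  rw [← h2, s59u_c_smul] at h3
  have hq : (q : F) ≠ 0 := by exact_mod_cast (Fact.out : q.Prime).ne_zero
  have h4 := congrArg (fun ψ => (q : F)⁻¹ • ψ) h3
  simp only [smul_smul, inv_mul_cancel₀ hq, one_smul] at h4
  exact h4

/-- `c_u φ = φ` for all `u` as soon as `c_1 φ = φ`. -/
theorem s59u_c_all_of_c_one (hK : s59u_TwSetting K q) (φ : Additive K →+ A)
    (h : s59u_c hK A 1 φ = φ) (n : ℕ) : s59u_cZ hK A (n : ℤ) φ = φ := by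
  induction n with
  | zero => rw [Nat.cast_zero, s59u_cZ_zero]
  | succ n ih =>
    have h1 : s59u_cZ hK A 1 φ = φ := by
      have := s59u_c_intCast (A := A) hK 1
      rw [Int.cast_one] at this
      rw [← this]; exact h
    rw [Nat.cast_succ, ← s59u_cZ_add, ih, h1]

end Twist

end Fermat.Agent.Lib.S59
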