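/-
Programme (R) = S59, node (H1) (helper3), file 4: ONE STEP of the cohomological twist.

`Lev = L₀ q`, `q` prime, `q ∣ D ∣ Lev`, `G = G(Lev, D)`, `K = G(Lev q, D)`.
* `s59u_HasDiam ψ φ`: `φ ∈ Hom(G(Lev, D), A)` is an eigenvector of all diamond operators `⟨σ⟩`,
  `σ ∈ Γ₀(Lev)`, with eigenvalue `ψ(σ₁₁)` (`ψ : ℤ → R` any function).
* `s59u_twSetting`: `K` is a twist setting.
* `s59u_diam_tw`: the twist `tw χ⁻¹ (res φ)` has diamond character `ψ χ²` on `Γ₀(Lev q)`.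
* `s59u_tw_injective`: if `ψ(d) ≠ 1` for some `d ≡ 1 mod L₀` prime to `q` then `tw χ⁻¹ (res φ) = 0`
  implies `φ = 0` (`χ ≠ 1`, characteristic zero).
* `s59u_Tp_c`: `T_ℓ (c_u φ) = c_{u ℓ} (T_ℓ φ)` on `Hom(K, A)`, hence `s59u_Tp_tw`:
  `T_ℓ (tw χ⁻¹ φ) = χ(ℓ) • tw χ⁻¹ (T_ℓ φ)`.
-/
import Mathlib
import Fermat.Agent.Lib.S48.HHomH
import Fermat.Agent.Lib.S59.UTwist

set_option autoImplicit false
set_option linter.unusedSectionVars false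

noncomputable section

namespace Fermat.Agent.Lib.S59

open Fermat.Agent.Lib.S48 Fermat.Agent.Lib.ES Fermat.Agent.Lib.S29 CongruenceSubgroup
  ModularCurve.Period
open P2MW.S_ModularForm_heckeT_slash_eq_self_of_mem_Gamma0.ModularForm.HeckeSlashInvariance
open scoped MatrixGroups OnePoint

local notation "Mat2" => Matrix (Fin 2) (Fin 2) ℤ

/-! ### Entries of `a b⁻¹` -/

theorem s59u_mul_inv_10 (a b : SL(2, ℤ)) : (a * b⁻¹) 1 0 = a 1 0 * b 1 1 - a 1 1 * b 1 0 := by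
  rw [Matrix.SpecialLinearGroup.coe_mul, Matrix.SpecialLinearGroup.coe_inv,
    Matrix.adjugate_fin_two, Matrix.mul_apply, Fin.sum_univ_two]
  simp
  ring

theorem s59u_mul_inv_11 (a b : SL(2, ℤ)) : (a * b⁻¹) 1 1 = -(a 1 0 * b 0 1) + a 1 1 * b 0 0 := by
  rw [Matrix.SpecialLinearGroup.coe_mul, Matrix.SpecialLinearGroup.coe_inv,
    Matrix.adjugate_fin_two, Matrix.mul_apply, Fin.sum_univ_two]
  simp

variable {Lev D : ℕ} {hD : D ∣ Lev}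

theorem s59u_mul_inv_mem_G [NeZero Lev] {a b : SL(2, ℤ)} (ha : (Lev : ℤ) ∣ a 1 0)
    (hb : (Lev : ℤ) ∣ b 1 0) (hab : (D : ℤ) ∣ a 1 1 - b 1 1) : a * b⁻¹ ∈ s59u_G Lev D hD := by
  rw [s59u_mem_G, s59u_mul_inv_10, s59u_mul_inv_11]
  refine ⟨dvd_sub (ha.mul_right _) (hb.mul_left _), ?_⟩
  have hdet := s59u_det_eq b
  have h1 : -(a 1 0 * b 0 1) + a 1 1 * b 0 0 - 1
      = -(a 1 0 * b 0 1) + (a 1 1 - b 1 1) * b 0 0 + b 0 1 * b 1 0 := by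
    linear_combination hdet
  rw [h1]
  have hDL : (D : ℤ) ∣ (Lev : ℤ) := Int.natCast_dvd_natCast.mpr hD
  exact dvd_add (dvd_add ((hDL.trans ha).mul_right _).neg_right (hab.mul_right _))
    ((hDL.trans hb).mul_left _)

/-! ### Diamond characters -/

/-- `φ ∈ Hom(G(Lev, D), A)` is an eigenvector of the diamond operators with character `ψ`. -/
theorem s59u_coe_det_ne (σ : SL(2, ℤ)) : ((σ : SL(2, ℤ)) : Mat2).det ≠ 0 := by
  rw [Matrix.SpecialLinearGroup.det_coe]; exact one_ne_zero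

/-- `Γ₀(Lev)` normalises `G(Lev, D)`. -/
theorem s59u_gamma0_normG {σ : SL(2, ℤ)} (hσ : σ ∈ Gamma0 Lev) :
    s59u_Norm (s59u_G Lev D hD) (σ : Mat2) :=
  fun k => (s48h_diamondDatum (s59u_ker Lev D hD) σ hσ).ex k ()

/-- `φ ∈ Hom(G(Lev, D), A)` is an eigenvector of the diamond operators `⟨σ⟩`, `σ ∈ Γ₀(Lev)`, with
character `ψ` (stated with the conjugation operators; see `s59u_hasDiam_iff`). -/
def s59u_HasDiam {R A : Type*} [Semiring R] [AddCommGroup A] [Module R A] (ψ : ℤ → R)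
    (φ : Additive (s59u_G Lev D hD) →+ A) : Prop :=
  ∀ (σ : SL(2, ℤ)) (hσ : σ ∈ Gamma0 Lev),
    s59u_conj (s59u_G Lev D hD) (σ : Mat2) (s59u_coe_det_ne σ) (s59u_gamma0_normG hσ) A φ
      = ψ (σ 1 1) • φ

/-- The diamond operator is a conjugation operator. -/
theorem s59u_diamondH_eq_conj {σ : SL(2, ℤ)} (hσ : σ ∈ Gamma0 Lev) (A : Type*) [AddCommGroup A] :
    s48h_diamondH (s59u_ker Lev D hD) σ hσ A
      = s59u_conj (s59u_G Lev D hD) (σ : Mat2) (s59u_coe_det_ne σ) (s59u_gamma0_normG hσ) A := rfl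

/-- `s59u_HasDiam` in terms of the diamond operators of `Lib/S48/HHomH.lean`. -/
theorem s59u_hasDiam_iff {R A : Type*} [Semiring R] [AddCommGroup A] [Module R A] (ψ : ℤ → R)
    (φ : Additive (s59u_G Lev D hD) →+ A) :
    s59u_HasDiam ψ φ ↔ ∀ (σ : SL(2, ℤ)) (hσ : σ ∈ Gamma0 Lev),
      s48h_diamondH (s59u_ker Lev D hD) σ hσ A φ = ψ (σ 1 1) • φ := Iff.rfl

/-- restriction commutes with conjugation operators. -/
theorem s59u_res_conj {K G : Subgroup SL(2, ℤ)} (hKG : K ≤ G) {A : Type*} [AddCommGroup A]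
    {g : Mat2} (hdet : g.det ≠ 0) (hG : s59u_Norm G g) (hK : s59u_Norm K g)
    (φ : Additive G →+ A) :
    s59u_res hKG A (s59u_conj G g hdet hG A φ) = s59u_conj K g hdet hK A (s59u_res hKG A φ) :=
  s59u_res_heckeHom hKG (s59u_conjDatum G g hdet hG) (s59u_conjDatum K g hdet hK)
    (fun _ => rfl) (fun _ _ => rfl) φ

/-! ### The step setting -/

section Step

variable {L₀ q : ℕ} {D : ℕ} [NeZero L₀] [Fact q.Prime] (hD : D ∣ L₀ * q)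

/-- `K = G(L₀ q², D)` is a twist setting. -/
theorem s59u_twSetting (hqD : q ∣ D) : s59u_TwSetting (s59u_G (L₀ * q * q) D (hD.mul_right q)) q :=
  ⟨fun u => s59u_alpha_norm (hD := hD) (dvd_mul_left q L₀) hqD u, s59u_T_mem⟩

/-- `K ≤ G`. -/
theorem s59u_K_le_G : s59u_G (L₀ * q * q) D (hD.mul_right q) ≤ s59u_G (L₀ * q) D hD :=
  s59u_G_mono (dvd_mul_right _ _) dvd_rfl

theorem s59u_gamma0_of_dvd {N : ℕ} {σ : SL(2, ℤ)} (h : (N : ℤ) ∣ σ 1 0) : σ ∈ Gamma0 N :=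
  s59u_gamma0_iff.mpr h

theorem s59u_gamma0_mono {N N' : ℕ} (hN : N ∣ N') {σ : SL(2, ℤ)} (h : σ ∈ Gamma0 N') :
    σ ∈ Gamma0 N :=
  s59u_gamma0_iff.mpr ((Int.natCast_dvd_natCast.mpr hN).trans (s59u_gamma0_iff.mp h))

variable {F : Type*} [Field F]

/-- The diamond operator of `σ ∈ Γ₀(L₀ q)` on the restriction to `K` of a `ψ`-eigenvector. -/
theorem s59u_conj_res_of_hasDiam (ψ : ℤ → F) (φ : Additive (s59u_G (L₀ * q) D hD) →+ F)
    (hφ : s59u_HasDiam ψ φ) {σ : SL(2, ℤ)} (hσ : σ ∈ Gamma0 (L₀ * q))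
    (hn : s59u_Norm (s59u_G (L₀ * q * q) D (hD.mul_right q)) (σ : Mat2)) :
    s59u_conj _ (σ : Mat2) (s59u_coe_det_ne σ) hn F (s59u_res (s59u_K_le_G hD) F φ)
      = ψ (σ 1 1) • s59u_res (s59u_K_le_G hD) F φ := by
  rw [← s59u_res_conj (s59u_K_le_G hD) (s59u_coe_det_ne σ) (s59u_gamma0_normG hσ) hn,
    hφ σ hσ, s59u_res_smul]

/-- `q ∣ 1 - t₀₀ t₁₁` for `t ∈ Γ₀(L₀ q²)`. -/
theorem s59u_unit_of_gamma0 {t : SL(2, ℤ)} (ht : t ∈ Gamma0 (L₀ * q * q)) :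
    ((t 0 0 : ℤ) : ZMod q) * ((t 1 1 : ℤ) : ZMod q) = 1 := by
  have h1 : ((L₀ * q * q : ℕ) : ℤ) ∣ t 1 0 := s59u_gamma0_iff.mp ht
  have h2 : (q : ℤ) ∣ t 1 0 := by
    refine Dvd.dvd.trans ?_ h1
    push_cast
    exact dvd_mul_left _ _
  have h3 : ((t 1 0 : ℤ) : ZMod q) = 0 := (ZMod.intCast_zmod_eq_zero_iff_dvd _ _).mpr h2
  have h4 := congrArg (Int.cast : ℤ → ZMod q) (s59u_det_eq t)
  push_cast at h4
  rw [h3, mul_zero, sub_zero] at h4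
  exact h4

/-- **The twisted class has diamond character `ψ χ²`.** -/
theorem s59u_diam_tw (hqD : q ∣ D) (χ : MulChar (ZMod q) F) (ψ : ℤ → F)
    (hψper : ∀ a b : ℤ, ((L₀ * q : ℕ) : ℤ) ∣ a - b → ψ a = ψ b)
    (φ : Additive (s59u_G (L₀ * q) D hD) →+ F) (hφ : s59u_HasDiam ψ φ) :
    s59u_HasDiam (hD := hD.mul_right q) (fun d => ψ d * χ ((d : ℤ) : ZMod q) ^ 2)
      (s59u_tw (s59u_twSetting hD hqD) χ⁻¹ (s59u_res (s59u_K_le_G hD) F φ)) := by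
  intro t ht
  set hK := s59u_twSetting hD hqD with hhK
  set φK := s59u_res (s59u_K_le_G hD) F φ with hφK
  have ht10 : ((L₀ * q * q : ℕ) : ℤ) ∣ t 1 0 := s59u_gamma0_iff.mp ht
  obtain ⟨c, hc⟩ : (q : ℤ) ∣ t 1 0 := by
    refine Dvd.dvd.trans ?_ ht10
    push_cast
    exact dvd_mul_left _ _
  have hdet := s59u_det_eq t
  -- the key relation
  have key : ∀ u : ZMod q,
      s59u_conj _ (t : Mat2) (s59u_coe_det_ne t) (s59u_gamma0_normG ht) F (s59u_c hK F u φK)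
        = ψ (t 1 1) • s59u_c hK F (u * ((t 1 1 : ℤ) : ZMod q) ^ 2) φK := by
    intro u
    set n : ℤ := (u.cast : ℤ) with hn
    have hm : (q : ℤ) * (-(n * t 1 1 * t 0 1 * c)) = n * t 1 1 - n * t 1 1 ^ 2 * t 0 0 := by
      have hdet' := hdet
      rw [hc] at hdet'
      linear_combination (n * t 1 1) * hdet'
    obtain ⟨σ, hσ10, hσ11, hσ⟩ := s59u_twist_rel_strong (Lev := L₀ * q) (dvd_mul_left q L₀) ht10
      n (n * t 1 1 ^ 2) (-(n * t 1 1 * t 0 1 * c)) hm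
    have hσ0 : σ ∈ Gamma0 (L₀ * q * q) := s59u_gamma0_of_dvd (by rw [hσ10]; exact ht10)
    have hσ0' : σ ∈ Gamma0 (L₀ * q) := s59u_gamma0_mono (dvd_mul_right _ _) hσ0
    have hdet1 : (s59u_alpha q n * (t : Mat2)).det ≠ 0 := by
      rw [Matrix.det_mul]
      exact mul_ne_zero (s59u_alpha_det_ne (NeZero.ne q) n) (s59u_coe_det_ne t)
    have hdet2 : ((σ : Mat2) * s59u_alpha q (n * t 1 1 ^ 2)).det ≠ 0 := by
      rw [Matrix.det_mul]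
      exact mul_ne_zero (s59u_coe_det_ne σ) (s59u_alpha_det_ne (NeZero.ne q) _)
    have h1 : s59u_conj _ (t : Mat2) (s59u_coe_det_ne t) (s59u_gamma0_normG ht) F
        (s59u_c hK F u φK)
        = s59u_conj _ (s59u_alpha q n * (t : Mat2)) hdet1
            (s59u_norm_mul (hK.norm n) (s59u_gamma0_normG ht)) F φK := by
      rw [s59u_c, s59u_cZ, s59u_conj_conj]
    have h2 : s59u_conj _ (s59u_alpha q n * (t : Mat2)) hdet1
            (s59u_norm_mul (hK.norm n) (s59u_gamma0_normG ht)) F φK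
        = s59u_conj _ ((σ : Mat2) * s59u_alpha q (n * t 1 1 ^ 2)) hdet2
            (s59u_norm_mul (s59u_gamma0_normG hσ0) (hK.norm _)) F φK :=
      DFunLike.congr_fun (s59u_conj_eq_of_smul hdet1 _ hdet2 _ 1 1 one_ne_zero (by rw [hσ])) φK
    have h3 : s59u_conj _ ((σ : Mat2) * s59u_alpha q (n * t 1 1 ^ 2)) hdet2
            (s59u_norm_mul (s59u_gamma0_normG hσ0) (hK.norm _)) F φK
        = s59u_cZ hK F (n * t 1 1 ^ 2) (ψ (σ 1 1) • φK) := by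
      rw [← s59u_conj_res_of_hasDiam hD ψ φ hφ hσ0' (s59u_gamma0_normG hσ0), s59u_cZ,
        s59u_conj_conj]
    have h4 : ψ (σ 1 1) = ψ (t 1 1) := hψper _ _ (by exact_mod_cast hσ11)
    have h5 : s59u_cZ hK F (n * t 1 1 ^ 2) = s59u_c hK F (u * ((t 1 1 : ℤ) : ZMod q) ^ 2) := by
      rw [← s59u_c_intCast]
      congr 1
      push_cast
      rw [hn, ZMod.intCast_zmod_cast]
    rw [h1, h2, h3, h4, h5, s59u_c_smul]
  -- the sum
  have hd : (((t 1 1 : ℤ) : ZMod q)) ^ 2 ≠ 0 := by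
    refine pow_ne_zero 2 fun h0 => ?_
    have := s59u_unit_of_gamma0 ht
    rw [h0, mul_zero] at this
    exact zero_ne_one this
  rw [s59u_tw, map_sum, Finset.smul_sum]
  rw [← Fintype.sum_equiv (Equiv.mulRight₀ _ hd)
    (fun u => s59u_conj _ (t : Mat2) (s59u_coe_det_ne t) (s59u_gamma0_normG ht) F
      (χ⁻¹ u • s59u_c hK F u φK))
    (fun u' => (ψ (t 1 1) * χ ((t 1 1 : ℤ) : ZMod q) ^ 2) • (χ⁻¹ u' • s59u_c hK F u' φK))]
  intro u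
  rw [Equiv.mulRight₀_apply]
  beta_reduce
  rw [s59u_conj_smul, key, smul_smul, smul_smul]
  congr 1
  have hχd : χ ((t 1 1 : ℤ) : ZMod q) * χ⁻¹ ((t 1 1 : ℤ) : ZMod q) = 1 := by
    rw [MulChar.inv_apply_eq_inv']
    refine mul_inv_cancel₀ (IsUnit.map χ (IsUnit.mk0 _ fun h0 => hd ?_)).ne_zero
    rw [h0]; ring
  rw [map_mul, map_pow]
  calc χ⁻¹ u * ψ (t 1 1)
      = ψ (t 1 1) * (χ ((t 1 1 : ℤ) : ZMod q) * χ⁻¹ ((t 1 1 : ℤ) : ZMod q)) ^ 2 * χ⁻¹ u := by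
        rw [hχd]; ring
    _ = ψ (t 1 1) * χ ((t 1 1 : ℤ) : ZMod q) ^ 2 * (χ⁻¹ u * χ⁻¹ ((t 1 1 : ℤ) : ZMod q) ^ 2) := by
        ring

/-- **Injectivity of the twist** on the `ψ`-eigenspace, when `ψ(d) ≠ 1` for some `d ≡ 1 mod L₀`
prime to `q`. -/
theorem s59u_tw_injective [CharZero F] (hqD : q ∣ D) (χ : MulChar (ZMod q) F) (hχ : χ ≠ 1)
    (ψ : ℤ → F) (hψper : ∀ a b : ℤ, ((L₀ * q : ℕ) : ℤ) ∣ a - b → ψ a = ψ b)
    (hψ : ∃ d : ℤ, (L₀ : ℤ) ∣ d - 1 ∧ IsCoprime d (q : ℤ) ∧ ψ d ≠ 1)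
    (φ : Additive (s59u_G (L₀ * q) D hD) →+ F) (hφ : s59u_HasDiam ψ φ)
    (h0 : s59u_tw (s59u_twSetting hD hqD) χ⁻¹ (s59u_res (s59u_K_le_G hD) F φ) = 0) : φ = 0 := by
  set hK := s59u_twSetting hD hqD with hhK
  set φK := s59u_res (s59u_K_le_G hD) F φ with hφK
  -- `c_u φ_K = φ_K` for all `u`
  have hc1 : s59u_c hK F 1 φK = φK := s59u_c_one_of_tw_eq_zero hK χ hχ φK h0
  have hcZ : ∀ b : ℤ, s59u_cZ hK F b φK = φK := by
    intro b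
    rw [← s59u_c_intCast, s59u_c, ← ZMod.natCast_val]
    exact s59u_c_all_of_c_one hK φK hc1 _
  obtain ⟨d, ⟨e, he⟩, ⟨b'', s', hbs⟩, hψd⟩ := hψ
  -- the parameters of `P`
  set b : ℤ := -d with hb
  set z : ℤ := e * (-b'') with hz
  set w : ℤ := (L₀ : ℤ) * e * (-s') with hw'
  have hw : (q : ℤ) * w = (1 + L₀ * z) * b + 1 := by
    rw [hw', hz, hb]
    linear_combination he + (-(L₀ : ℤ) * e) * hbs
  set P := s59u_P L₀ q z b w hw with hP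
  have hPmem : P ∈ Gamma0 (L₀ * q) := s59u_P_mem z b w hw
  have hP11 : ((L₀ * q : ℕ) : ℤ) ∣ P 1 1 - d := by
    rw [hP, s59u_P_11]
    refine ⟨e * (-s'), ?_⟩
    push_cast
    rw [hz, hb]
    linear_combination ((L₀ : ℤ) * e) * hbs - he
  -- the lower unipotent element
  set lo := s59u_lo ((L₀ : ℤ) * q * z) with hlo
  have hlomem : lo ∈ s59u_G (L₀ * q) D hD :=
    s59u_lo_mem ⟨z, by push_cast; ring⟩
  have hlo0 : lo ∈ Gamma0 (L₀ * q) := s59u_G_le_gamma0 hlomem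
  have hnlo : s59u_Norm (s59u_G (L₀ * q * q) D (hD.mul_right q)) (lo : Mat2) :=
    s59u_gamma0_norm (hD := hD) (dvd_mul_left q L₀) hqD hlo0
  have hclo : s59u_conj _ (lo : Mat2) (s59u_coe_det_ne lo) hnlo F φK = φK := by
    rw [hφK, ← s59u_res_conj (s59u_K_le_G hD) (s59u_coe_det_ne lo) (s59u_gamma0_normG hlo0) hnlo]
    congr 1
    exact s59u_conj_of_mem (⟨lo, hlomem⟩ : s59u_G (L₀ * q) D hD) (s59u_gamma0_normG hlo0)
      (s59u_coe_det_ne lo) φ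
  -- `c_P φ_K = φ_K`
  have hnP : s59u_Norm (s59u_G (L₀ * q * q) D (hD.mul_right q)) (P : Mat2) :=
    s59u_gamma0_norm (hD := hD) (dvd_mul_left q L₀) hqD hPmem
  have hdet1 : (s59u_alpha q 1 * (lo : Mat2)).det ≠ 0 := by
    rw [Matrix.det_mul]
    exact mul_ne_zero (s59u_alpha_det_ne (NeZero.ne q) 1) (s59u_coe_det_ne lo)
  have hdet2 : (s59u_alpha q 1 * (lo : Mat2) * s59u_alpha q b).det ≠ 0 := by
    rw [Matrix.det_mul]
    exact mul_ne_zero hdet1 (s59u_alpha_det_ne (NeZero.ne q) b)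
  have hcP : s59u_conj _ (P : Mat2) (s59u_coe_det_ne P) hnP F φK = φK := by
    have h1 : s59u_conj _ (s59u_alpha q 1 * (lo : Mat2) * s59u_alpha q b) hdet2
        (s59u_norm_mul (s59u_norm_mul (hK.norm 1) hnlo) (hK.norm b)) F φK = φK := by
      rw [← s59u_conj_conj hdet1 (s59u_norm_mul (hK.norm 1) hnlo)
        (s59u_alpha_det_ne (NeZero.ne q) b) (hK.norm b),
        ← s59u_conj_conj (s59u_alpha_det_ne (NeZero.ne q) 1) (hK.norm 1) (s59u_coe_det_ne lo) hnlo]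
      have h2 := hcZ 1
      rw [s59u_cZ] at h2
      rw [h2, hclo]
      exact hcZ b
    rw [← DFunLike.congr_fun (s59u_conj_eq_of_smul hdet2 _ (s59u_coe_det_ne P) hnP 1
      ((q : ℤ) ^ 2) one_ne_zero (by rw [one_smul, hlo, hP, s59u_P_eq])) φK]
    exact h1
  -- but `c_P φ_K = ψ(d) φ_K`
  have hcP' := s59u_conj_res_of_hasDiam hD ψ φ hφ hPmem hnP
  rw [← hφK, hcP, hψper _ _ hP11] at hcP'
  have h3 : (ψ d - 1) • φK = 0 := by rw [sub_smul, one_smul, ← hcP', sub_self]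
  have h4 : φK = 0 := (smul_eq_zero.mp h3).resolve_left (sub_ne_zero.mpr hψd)
  have hinj := s59u_res_injective (A := F) (s59u_K_le_G hD) s59u_G_index_ne_zero
  exact hinj (by rw [← hφK, h4, map_zero])

end Step

/-! ### Hecke operators and the `c_u` -/

section Hecke

variable {Lev q D : ℕ} [NeZero Lev] [Fact q.Prime] {ℓ : ℕ} [Fact ℓ.Prime]

/-- `α_{vℓ} γ = γ'' α_{vℓ}` implies `γ'' ≡ γ` modulo `ℓ` (`ℓ ≠ q`). -/
theorem s59u_redMatrix_eq (hℓq : ¬ ℓ ∣ q) {γ γ'' : SL(2, ℤ)} (v : ℤ)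
    (h : s59u_alpha q (v * ℓ) * (γ : Mat2) = (γ'' : Mat2) * s59u_alpha q (v * ℓ)) :
    redMatrix ℓ γ'' = redMatrix ℓ γ := by
  have hq0 : ((q : ℕ) : ZMod ℓ) ≠ 0 := by
    rw [Ne, ZMod.natCast_eq_zero_iff]
    exact hℓq
  rw [s59u_coe_eq γ, s59u_coe_eq γ''] at h
  have e00 := congrFun (congrFun h 0) 0
  have e01 := congrFun (congrFun h 0) 1
  have e10 := congrFun (congrFun h 1) 0
  have e11 := congrFun (congrFun h 1) 1
  simp [s59u_alpha, Matrix.mul_apply, Fin.sum_univ_two] at e00 e01 e10 e11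
  have c00 := congrArg (Int.cast : ℤ → ZMod ℓ) e00
  have c01 := congrArg (Int.cast : ℤ → ZMod ℓ) e01
  have c10 := congrArg (Int.cast : ℤ → ZMod ℓ) e10
  have c11 := congrArg (Int.cast : ℤ → ZMod ℓ) e11
  push_cast at c00 c01 c10 c11
  simp only [ZMod.natCast_self, mul_zero, zero_mul, add_zero, zero_add] at c00 c01 c10 c11
  have hc : ∀ a b : ZMod ℓ, ((q : ℕ) : ZMod ℓ) * a = b * ((q : ℕ) : ZMod ℓ) → b = a :=
    fun a b h => (mul_left_cancel₀ hq0 (by rw [h, mul_comm])).symm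
  have h00 := hc _ _ c00
  have h01 := hc _ _ c01
  have h10 := hc _ _ c10
  have h11 := hc _ _ c11
  apply Matrix.GeneralLinearGroup.ext
  intro i j
  fin_cases i <;> fin_cases j <;>
    simp [redMatrix_apply_zero_zero, redMatrix_apply_zero_one, redMatrix_apply_one_zero,
      redMatrix_apply_one_one, h00, h01, h10, h11]

theorem s59u_alpha_heckeMat (u : ℤ) (j : ℕ) :
    s59u_alpha q u * heckeMatZ ℓ j = heckeMatZ ℓ j * s59u_alpha q (u * ℓ) := by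
  ext a b
  fin_cases a <;> fin_cases b <;>
    simp [s59u_alpha, heckeMatZ, Matrix.mul_apply, Fin.sum_univ_two] <;> ring

theorem s59u_heckeDiag_alpha (u : ℤ) :
    heckeDiagZ ℓ * s59u_alpha q (u * ℓ) = s59u_alpha q (u * ℓ ^ 2) * heckeDiagZ ℓ := by
  ext a b
  fin_cases a <;> fin_cases b <;>
    simp [s59u_alpha, heckeDiagZ, Matrix.mul_apply, Fin.sum_univ_two] <;> ring

variable {L₀ : ℕ} [NeZero L₀]

/-- **`T_ℓ (c_u φ) = c_{uℓ} (T_ℓ φ)`** on `Hom(K, A)`, `K = G(L₀ q², D)`, `ℓ ∤ L₀ q`. -/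
theorem s59u_Tp_cZ (hD : D ∣ L₀ * q) (hqD : q ∣ D) (hℓ : ¬ ℓ ∣ L₀ * q * q) (σ : SL(2, ℤ))
    (hσ : σ ∈ Gamma0 (L₀ * q * q))
    (hσ11 : ((σ 1 1 : ℤ) : ZMod (L₀ * q * q)) = (ℓ : ZMod (L₀ * q * q)))
    {A : Type*} [AddCommGroup A] (u : ℤ)
    (φ : Additive (s59u_G (L₀ * q * q) D (hD.mul_right q)) →+ A) :
    s48h_TpH (s59u_ker (L₀ * q * q) D (hD.mul_right q)) hℓ σ hσ hσ11 A
        (s59u_cZ (s59u_twSetting hD hqD) A u φ)
      = s59u_cZ (s59u_twSetting hD hqD) A (u * ℓ)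
          (s48h_TpH (s59u_ker (L₀ * q * q) D (hD.mul_right q)) hℓ σ hσ hσ11 A φ) := by
  set hK := s59u_twSetting hD hqD with hhK
  have hℓq : ¬ ℓ ∣ q := fun h => hℓ (h.mul_left _)
  set E := s48h_TpDatum (s59u_ker (L₀ * q * q) D (hD.mul_right q)) hℓ σ hσ hσ11 with hE
  set Du := s59u_conjDatum (s59u_G (L₀ * q * q) D (hD.mul_right q)) (s59u_alpha q u) (s59u_alpha_det_ne (NeZero.ne q) u) (hK.norm u)
    with hDu
  set Du' := s59u_conjDatum (s59u_G (L₀ * q * q) D (hD.mul_right q)) (s59u_alpha q (u * ℓ)) (s59u_alpha_det_ne (NeZero.ne q) (u * ℓ))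
    (hK.norm (u * ℓ)) with hDu'
  show E.heckeHom A (Du.heckeHom A φ) = Du'.heckeHom A (E.heckeHom A φ)
  rw [← s48h_MatDatum.heckeHom_prod, ← s48h_MatDatum.heckeHom_prod]
  -- the element at `∞`
  have hσ10 : ((L₀ * q * q : ℕ) : ℤ) ∣ σ 1 0 := s59u_gamma0_iff.mp hσ
  obtain ⟨c, hc⟩ : (q : ℤ) ∣ σ 1 0 := by
    refine Dvd.dvd.trans ?_ hσ10
    push_cast
    exact dvd_mul_left _ _
  obtain ⟨a, ha⟩ : (q : ℤ) ∣ σ 1 1 - ℓ := by
    have h1 : ((L₀ * q * q : ℕ) : ℤ) ∣ σ 1 1 - ℓ := by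
      rw [← ZMod.intCast_zmod_eq_zero_iff_dvd]
      push_cast
      rw [hσ11, sub_self]
    refine Dvd.dvd.trans ?_ h1
    push_cast
    exact dvd_mul_left _ _
  have hdet := s59u_det_eq σ
  have hm : (q : ℤ) * (u * (a + ℓ * (a * σ 0 0 - c * σ 0 1)))
      = u * σ 1 1 - u * ℓ ^ 2 * σ 0 0 := by
    have h1 : σ 1 1 = ℓ + q * a := by linear_combination ha
    rw [hc, h1] at hdet
    rw [h1]
    linear_combination (u * (ℓ : ℤ)) * hdet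
  obtain ⟨σ', hσ'10, hσ'11, hσ'⟩ := s59u_twist_rel_strong (Lev := L₀ * q) (dvd_mul_left q L₀)
    hσ10 u (u * ℓ ^ 2) _ hm
  have hgmem : σ' * σ⁻¹ ∈ s59u_G (L₀ * q * q) D (hD.mul_right q) := by
    refine s59u_mul_inv_mem_G (by rw [hσ'10]; exact hσ10) hσ10 ?_
    exact (Int.natCast_dvd_natCast.mpr hD).trans hσ'11
  set gg : OnePoint (ZMod ℓ) → s59u_G (L₀ * q * q) D (hD.mul_right q) := fun x => x.elim ⟨σ' * σ⁻¹, hgmem⟩ (fun _ => 1) with hgg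
  let e : Unit × OnePoint (ZMod ℓ) ≃ OnePoint (ZMod ℓ) × Unit := Equiv.prodComm _ _
  have hα : ∀ ux : Unit × OnePoint (ZMod ℓ),
      (Du.prod E).α ux = ((gg ux.2 : s59u_G (L₀ * q * q) D (hD.mul_right q)) : SL(2, ℤ)).1 * (E.prod Du').α (e ux) := by
    rintro ⟨⟨⟩, x⟩
    show s59u_alpha q u * ((s48h_tw ℓ σ x : Mat2) * heckeRepZ ℓ x)
      = ((gg x : s59u_G (L₀ * q * q) D (hD.mul_right q)) : SL(2, ℤ)).1 * ((s48h_tw ℓ σ x : Mat2) * heckeRepZ ℓ x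
        * s59u_alpha q (u * ℓ))
    induction x using OnePoint.rec with
    | infty =>
      show s59u_alpha q u * ((σ : Mat2) * heckeDiagZ ℓ)
        = ((σ' * σ⁻¹ : SL(2, ℤ)) : Mat2) * ((σ : Mat2) * heckeDiagZ ℓ * s59u_alpha q (u * ℓ))
      have h1 : ((σ' * σ⁻¹ : SL(2, ℤ)) : Mat2) * (σ : Mat2) = (σ' : Mat2) := by
        rw [← Matrix.SpecialLinearGroup.coe_mul, inv_mul_cancel_right]
      calc s59u_alpha q u * ((σ : Mat2) * heckeDiagZ ℓ)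
          = (s59u_alpha q u * (σ : Mat2)) * heckeDiagZ ℓ := by rw [Matrix.mul_assoc]
        _ = ((σ' : Mat2) * s59u_alpha q (u * ℓ ^ 2)) * heckeDiagZ ℓ := by rw [hσ']
        _ = (((σ' * σ⁻¹ : SL(2, ℤ)) : Mat2) * (σ : Mat2)) * s59u_alpha q (u * ℓ ^ 2)
              * heckeDiagZ ℓ := by rw [h1]
        _ = ((σ' * σ⁻¹ : SL(2, ℤ)) : Mat2)
              * ((σ : Mat2) * heckeDiagZ ℓ * s59u_alpha q (u * ℓ)) := by
            rw [Matrix.mul_assoc (σ : Mat2) (heckeDiagZ ℓ), s59u_heckeDiag_alpha]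
            simp only [Matrix.mul_assoc]
    | coe j =>
      show s59u_alpha q u * (((1 : SL(2, ℤ)) : Mat2) * heckeMatZ ℓ j.val)
        = (((1 : s59u_G (L₀ * q * q) D (hD.mul_right q)) : SL(2, ℤ)) : Mat2) * (((1 : SL(2, ℤ)) : Mat2) * heckeMatZ ℓ j.val
          * s59u_alpha q (u * ℓ))
      rw [OneMemClass.coe_one, Matrix.SpecialLinearGroup.coe_one, Matrix.one_mul, Matrix.one_mul,
        s59u_alpha_heckeMat]
  have hperm : ∀ (γ : s59u_G (L₀ * q * q) D (hD.mul_right q)) (ux : Unit × OnePoint (ZMod ℓ)),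
      (E.prod Du').perm γ (e ux) = e ((Du.prod E).perm γ ux) := by
    rintro γ ⟨⟨⟩, x⟩
    show (heckePermT ℓ ((Du'.fam γ () : s59u_G (L₀ * q * q) D (hD.mul_right q)) : SL(2, ℤ)) x, ())
      = (heckePermT ℓ (γ : SL(2, ℤ)) x, ())
    rw [heckePermT_apply, heckePermT_apply,
      s59u_redMatrix_eq hℓq u (Du'.fam_spec γ ())]
  exact DFunLike.congr_fun (s48h_MatDatum.heckeHom_eq_of_equiv (A := A) (Du.prod E) (E.prod Du')
    e (fun ux => gg ux.2) hα hperm) φ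

/-- **`T_ℓ (tw χ⁻¹ φ) = χ(ℓ) • tw χ⁻¹ (T_ℓ φ)`.** -/
theorem s59u_Tp_tw (hD : D ∣ L₀ * q) (hqD : q ∣ D) (hℓ : ¬ ℓ ∣ L₀ * q * q) (σ : SL(2, ℤ))
    (hσ : σ ∈ Gamma0 (L₀ * q * q))
    (hσ11 : ((σ 1 1 : ℤ) : ZMod (L₀ * q * q)) = (ℓ : ZMod (L₀ * q * q)))
    {F : Type*} [Field F] (χ : MulChar (ZMod q) F)
    (φ : Additive (s59u_G (L₀ * q * q) D (hD.mul_right q)) →+ F) :
    s48h_TpH (s59u_ker (L₀ * q * q) D (hD.mul_right q)) hℓ σ hσ hσ11 F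
        (s59u_tw (s59u_twSetting hD hqD) χ⁻¹ φ)
      = χ (ℓ : ZMod q) • s59u_tw (s59u_twSetting hD hqD) χ⁻¹
          (s48h_TpH (s59u_ker (L₀ * q * q) D (hD.mul_right q)) hℓ σ hσ hσ11 F φ) := by
  set hK := s59u_twSetting hD hqD with hhK
  set T := s48h_TpH (s59u_ker (L₀ * q * q) D (hD.mul_right q)) hℓ σ hσ hσ11 F with hT
  have hℓq : ¬ ℓ ∣ q := fun h => hℓ (h.mul_left _)
  have hℓ0 : ((ℓ : ℕ) : ZMod q) ≠ 0 := by
    rw [Ne, ZMod.natCast_eq_zero_iff]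
    intro h
    rcases (Nat.prime_dvd_prime_iff_eq (Fact.out : q.Prime) (Fact.out : ℓ.Prime)).mp h with h1
    exact hℓq (h1 ▸ dvd_rfl)
  have hTsmul : ∀ (a : F) (ψ : Additive (s59u_G (L₀ * q * q) D (hD.mul_right q)) →+ F),
      T (a • ψ) = a • T ψ := fun a ψ => s48h_MatDatum.heckeHom_smul _ a ψ
  have key : ∀ u : ZMod q, T (s59u_c hK F u φ) = s59u_c hK F (u * (ℓ : ZMod q)) (T φ) := by
    intro u
    rw [s59u_c, hT, s59u_Tp_cZ hD hqD hℓ σ hσ hσ11, ← s59u_c_intCast]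
    congr 2
    simp
  rw [s59u_tw, map_sum, s59u_tw, Finset.smul_sum]
  rw [← Fintype.sum_equiv (Equiv.mulRight₀ _ hℓ0)
    (fun u => T (χ⁻¹ u • s59u_c hK F u φ))
    (fun u' => χ (ℓ : ZMod q) • (χ⁻¹ u' • s59u_c hK F u' (T φ)))]
  intro u
  rw [Equiv.mulRight₀_apply]
  beta_reduce
  rw [hTsmul, key, smul_smul]
  congr 1
  have hχℓ : χ (ℓ : ZMod q) * χ⁻¹ (ℓ : ZMod q) = 1 := by
    rw [MulChar.inv_apply_eq_inv']
    exact mul_inv_cancel₀ (IsUnit.map χ (IsUnit.mk0 _ hℓ0)).ne_zero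
  rw [map_mul]
  calc χ⁻¹ u = (χ (ℓ : ZMod q) * χ⁻¹ (ℓ : ZMod q)) * χ⁻¹ u := by rw [hχℓ, one_mul]
    _ = χ (ℓ : ZMod q) * (χ⁻¹ u * χ⁻¹ (ℓ : ZMod q)) := by ring

end Hecke

/-! ### `T_ℓ` and restriction -/

section ResTp

variable {Lev Lev' D : ℕ} {ℓ : ℕ} [Fact ℓ.Prime]

theorem s59u_cast_lowerRight (hLL : Lev ∣ Lev') {σ : SL(2, ℤ)}
    (h : ((σ 1 1 : ℤ) : ZMod Lev') = (ℓ : ZMod Lev')) : ((σ 1 1 : ℤ) : ZMod Lev) = (ℓ : ZMod Lev) := by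
  have := congrArg (ZMod.castHom hLL (ZMod Lev)) h
  rwa [map_intCast, map_natCast] at this

/-- `res ∘ T_ℓ = T_ℓ ∘ res` between `G(Lev, D)` and `G(Lev', D)`, `Lev ∣ Lev'`, for a common `σ_ℓ`. -/
theorem s59u_res_Tp [NeZero Lev] [NeZero Lev'] (hLL : Lev ∣ Lev') {hD : D ∣ Lev} {hD' : D ∣ Lev'}
    (hℓ : ¬ ℓ ∣ Lev) (hℓ' : ¬ ℓ ∣ Lev') (σ : SL(2, ℤ)) (hσ : σ ∈ Gamma0 Lev)
    (hσ11 : ((σ 1 1 : ℤ) : ZMod Lev) = (ℓ : ZMod Lev)) (hσ' : σ ∈ Gamma0 Lev')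
    (hσ11' : ((σ 1 1 : ℤ) : ZMod Lev') = (ℓ : ZMod Lev')) {A : Type*} [AddCommGroup A]
    (φ : Additive (s59u_G Lev D hD) →+ A) :
    s59u_res (s59u_G_mono (hD := hD) (hD' := hD') hLL dvd_rfl) A
        (s48h_TpH (s59u_ker Lev D hD) hℓ σ hσ hσ11 A φ)
      = s48h_TpH (s59u_ker Lev' D hD') hℓ' σ hσ' hσ11' A
          (s59u_res (s59u_G_mono (hD := hD) (hD' := hD') hLL dvd_rfl) A φ) :=
  s59u_res_heckeHom _ (s48h_TpDatum (s59u_ker Lev D hD) hℓ σ hσ hσ11)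
    (s48h_TpDatum (s59u_ker Lev' D hD') hℓ' σ hσ' hσ11') (fun _ => rfl) (fun _ _ => rfl) φ

end ResTp

end Fermat.Agent.Lib.S59
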