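/-
Programme (R) = S59, node (H1) (helper3), file 5: EXTENSION BY INVARIANCE.

* `s59u_ext_abs`: `H ⊴ G` of finite index, `ρ : H → A` a homomorphism invariant under conjugation
  by `G`; then the transfer `Φ : G → A` satisfies `Φ|_H = [G : H] • ρ`.
* `s59u_ext`: for `ρ ∈ Hom(G(Lev, D), F)` (`F` a field of characteristic zero) fixed by all diamond
  operators there is `Φ ∈ Hom(Γ₀(Lev), F)` with `Φ|_{G(Lev, D)} = ρ`.
* `s59u_res_s29h`: `res ∘ T_ℓ^{Γ₀(N)} = T_ℓ^{Γ_H} ∘ res` (`s29h_heckeHom` versus `s48h_TpH`).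
* `s59u_parabolic_of_res`: `Φ` is parabolic as soon as its restriction to a subgroup of finite
  index is (torsion free coefficients).
-/
import Mathlib
import Fermat.Agent.Lib.S48.HHomH
import Fermat.Agent.Lib.S59.UStep

set_option autoImplicit false
set_option linter.unusedSectionVars false
set_option linter.style.haveILetI false

noncomputable section

namespace Fermat.Agent.Lib.S59

open Fermat.Agent.Lib.S48 Fermat.Agent.Lib.ES Fermat.Agent.Lib.S29 CongruenceSubgroup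
  ModularCurve.Period
open P2MW.S_ModularForm_heckeT_slash_eq_self_of_mem_Gamma0.ModularForm.HeckeSlashInvariance
open scoped MatrixGroups OnePoint

local notation "Mat2" => Matrix (Fin 2) (Fin 2) ℤ

/-! ### The abstract transfer -/

section Abs

variable {G : Type*} [Group G] (H : Subgroup G) [hN : H.Normal] [H.FiniteIndex]
  {A : Type*} [AddCommGroup A]

/-- the coset family of the transfer: `s(x) g s(x π(g))⁻¹ ∈ H`. -/
theorem s59u_tr_mem (g : G) (x : G ⧸ H) :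
    (Quotient.out x : G) * g * (Quotient.out (x * (g : G ⧸ H)) : G)⁻¹ ∈ H := by
  rw [← QuotientGroup.eq_one_iff, QuotientGroup.mk_mul, QuotientGroup.mk_mul, QuotientGroup.mk_inv,
    QuotientGroup.out_eq', QuotientGroup.out_eq', mul_inv_cancel]

/-- **The transfer of a `G`-invariant homomorphism** `ρ : H → A`. -/
theorem s59u_ext_abs (ρ : Additive H →+ A)
    (hinv : ∀ (g : G) (k : H),
      ρ (Additive.ofMul ⟨g * k * g⁻¹, hN.conj_mem k k.2 g⟩) = ρ (Additive.ofMul k)) :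
    ∃ Φ : Additive G →+ A, ∀ k : H, Φ (Additive.ofMul (k : G)) = H.index • ρ (Additive.ofMul k) := by
  classical
  let _ : Fintype (G ⧸ H) := H.fintypeQuotientOfFiniteIndex
  let fam : G → G ⧸ H → H := fun g x => ⟨_, s59u_tr_mem H g x⟩
  have hfam : ∀ g h x, fam (g * h) x = fam g x * fam h (x * (g : G ⧸ H)) := by
    intro g h x
    apply Subtype.ext
    show (Quotient.out x : G) * (g * h) * (Quotient.out (x * ((g * h : G) : G ⧸ H)) : G)⁻¹
      = ((Quotient.out x : G) * g * (Quotient.out (x * (g : G ⧸ H)) : G)⁻¹)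
        * ((Quotient.out (x * (g : G ⧸ H)) : G) * h
          * (Quotient.out (x * (g : G ⧸ H) * (h : G ⧸ H)) : G)⁻¹)
    rw [QuotientGroup.mk_mul, ← mul_assoc x]
    group
  refine ⟨{ toFun := fun g => ∑ x : G ⧸ H, ρ (Additive.ofMul (fam (Additive.toMul g) x))
            map_zero' := ?_
            map_add' := ?_ }, ?_⟩
  · refine Finset.sum_eq_zero fun x _ => ?_
    have : fam (Additive.toMul (0 : Additive G)) x = 1 := by
      apply Subtype.ext
      show (Quotient.out x : G) * 1 * (Quotient.out (x * ((1 : G) : G ⧸ H)) : G)⁻¹ = 1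
      rw [QuotientGroup.mk_one, mul_one, mul_one, mul_inv_cancel]
    rw [this, ofMul_one, map_zero]
  · intro g h
    rw [← Equiv.sum_comp (Equiv.mulRight ((Additive.toMul g : G) : G ⧸ H))
      (fun x => ρ (Additive.ofMul (fam (Additive.toMul h) x))), ← Finset.sum_add_distrib]
    refine Finset.sum_congr rfl fun x _ => ?_
    rw [toMul_add, hfam, ofMul_mul, map_add, Equiv.coe_mulRight]
  · intro k
    show ∑ x : G ⧸ H, ρ (Additive.ofMul (fam (k : G) x)) = _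
    have h1 : ∀ x : G ⧸ H, ρ (Additive.ofMul (fam (k : G) x)) = ρ (Additive.ofMul k) := by
      intro x
      rw [← hinv (Quotient.out x : G) k]
      congr 2
      apply Subtype.ext
      show (Quotient.out x : G) * k * (Quotient.out (x * ((k : G) : G ⧸ H)) : G)⁻¹
        = (Quotient.out x : G) * k * (Quotient.out x : G)⁻¹
      rw [(QuotientGroup.eq_one_iff (k : G)).mpr k.2, mul_one]
    rw [Finset.sum_congr rfl fun x _ => h1 x, Finset.sum_const, Finset.card_univ,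
      ← Nat.card_eq_fintype_card, Subgroup.index]

end Abs

/-! ### The concrete extension -/

section Ext

variable {Lev D : ℕ} [NeZero Lev] {hD : D ∣ Lev} {F : Type*} [Field F] [CharZero F]

/-- **Extension by invariance**: a homomorphism on `G(Lev, D)` fixed by all diamond operators is
the restriction of a homomorphism on `Γ₀(Lev)`. -/
theorem s59u_ext (ρ : Additive (s59u_G Lev D hD) →+ F)
    (hρ : ∀ (σ : SL(2, ℤ)) (hσ : σ ∈ Gamma0 Lev),
      s59u_conj (s59u_G Lev D hD) (σ : Mat2) (s59u_coe_det_ne σ) (s59u_gamma0_normG hσ) F ρ = ρ) :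
    ∃ Φ : Additive (Gamma0 Lev) →+ F, s59u_res (s59u_G_le_gamma0 (hD := hD)) F Φ = ρ := by
  have hKG : s59u_G Lev D hD ≤ Gamma0 Lev := s59u_G_le_gamma0
  set H : Subgroup (Gamma0 Lev) := (s59u_G Lev D hD).subgroupOf (Gamma0 Lev) with hH
  have hnorm : H.Normal := ⟨fun n hn g => by
    rw [hH, Subgroup.mem_subgroupOf] at hn ⊢
    exact s48h_conj_mem_GammaH g.2 hn⟩
  have hfin : H.FiniteIndex := ⟨by
    have h1 := Subgroup.relIndex_mul_index hKG
    intro h0
    have h2 : (s59u_G Lev D hD).relIndex (Gamma0 Lev) = 0 := h0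
    rw [h2, zero_mul] at h1
    exact s59u_G_index_ne_zero (hD := hD) h1.symm⟩
  let e : H ≃* s59u_G Lev D hD := Subgroup.subgroupOfEquivOfLe hKG
  let ρ' : Additive H →+ F := ρ.comp (MonoidHom.toAdditive e.toMonoidHom)
  have hρ' : ∀ k : H, ρ' (Additive.ofMul k) = ρ (Additive.ofMul (e k)) := fun k => rfl
  have hinv : ∀ (g : Gamma0 Lev) (k : H),
      ρ' (Additive.ofMul ⟨g * k * g⁻¹, hnorm.conj_mem k k.2 g⟩) = ρ' (Additive.ofMul k) := by
    intro g k
    rw [hρ', hρ']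
    have h1 := DFunLike.congr_fun (hρ (g : SL(2, ℤ)) g.2) (Additive.ofMul (e k))
    rw [← h1]
    refine (s59u_conj_apply_of _ _ ρ (e k) _ ?_).symm
    show ((g : SL(2, ℤ)) : Mat2) * (((k : Gamma0 Lev) : SL(2, ℤ)) : Mat2)
      = (((g : SL(2, ℤ)) * ((k : Gamma0 Lev) : SL(2, ℤ)) * (g : SL(2, ℤ))⁻¹ : SL(2, ℤ)) : Mat2)
        * ((g : SL(2, ℤ)) : Mat2)
    rw [← Matrix.SpecialLinearGroup.coe_mul, ← Matrix.SpecialLinearGroup.coe_mul,
      inv_mul_cancel_right]
  obtain ⟨Φ₀, hΦ₀⟩ := s59u_ext_abs H ρ' hinv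
  have hn : ((H.index : ℕ) : F) ≠ 0 := by exact_mod_cast hfin.index_ne_zero
  refine ⟨((H.index : ℕ) : F)⁻¹ • Φ₀, ?_⟩
  refine AddMonoidHom.ext fun k => ?_
  obtain ⟨k, rfl⟩ := Additive.ofMul.surjective k
  rw [s59u_res_apply, AddMonoidHom.smul_apply]
  have h2 := hΦ₀ (e.symm k)
  have h3 : ((e.symm k : H) : Gamma0 Lev) = Subgroup.inclusion hKG k := by
    apply Subtype.ext
    have := congrArg (fun t : s59u_G Lev D hD => (t : SL(2, ℤ))) (e.apply_symm_apply k)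
    exact this
  rw [h3, hρ', e.apply_symm_apply] at h2
  rw [h2, ← Nat.cast_smul_eq_nsmul F, smul_smul, inv_mul_cancel₀ hn, one_smul]

end Ext

/-! ### `T_ℓ` on `Γ₀(N)` and on `Γ_H` -/

section ResS29

variable {N : ℕ} {ℓ : ℕ} [Fact ℓ.Prime] {A : Type*} [AddCommGroup A]

/-- **`res ∘ T_ℓ^{Γ₀(N)} = T_ℓ^{Γ_H} ∘ res`.** -/
theorem s59u_res_s29h (H : Subgroup (ZMod N)ˣ) (hℓ : ¬ ℓ ∣ N) (σ : SL(2, ℤ)) (hσ : σ ∈ Gamma0 N)
    (hσ11 : ((σ 1 1 : ℤ) : ZMod N) = (ℓ : ZMod N)) (Φ : Additive (Gamma0 N) →+ A) :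
    s59u_res (s48h_GammaH_le_Gamma0 (H := H)) A (s29h_heckeHom N ℓ A Φ)
      = s48h_TpH H hℓ σ hσ hσ11 A (s59u_res (s48h_GammaH_le_Gamma0 (H := H)) A Φ) := by
  refine AddMonoidHom.ext fun k => ?_
  obtain ⟨k, rfl⟩ := Additive.ofMul.surjective k
  set E := s48h_TpDatum H hℓ σ hσ hσ11 with hE
  set k₀ : Gamma0 N := Subgroup.inclusion s48h_GammaH_le_Gamma0 k with hk₀
  rw [s59u_res_apply, s29h_heckeHom_apply hℓ]
  show _ = E.heckeHom A _ (Additive.ofMul k)
  rw [E.heckeHom_apply]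
  -- the two coset families
  have hfam : ∀ x : OnePoint (ZMod ℓ),
      ((s29h_fam hℓ k₀ x : Gamma0 N) : SL(2, ℤ))
        = (s48h_tw ℓ σ x)⁻¹ * ((E.fam k x : s48h_GammaH N H) : SL(2, ℤ))
          * s48h_tw ℓ σ (heckePermT ℓ (k : SL(2, ℤ)) x) := by
    intro x
    refine (s29h_fam_unique hℓ k₀ x _ ?_).symm
    have h1 := E.fam_spec k x
    show heckeRepZ ℓ x * ((k : SL(2, ℤ)) : Mat2) = _ * heckeRepZ ℓ (heckePermT ℓ (k : SL(2, ℤ)) x)
    have h2 : (s48h_tw ℓ σ x : Mat2) * (heckeRepZ ℓ x * ((k : SL(2, ℤ)) : Mat2))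
        = ((E.fam k x : s48h_GammaH N H) : SL(2, ℤ)).1
          * ((s48h_tw ℓ σ (heckePermT ℓ (k : SL(2, ℤ)) x) : Mat2)
            * heckeRepZ ℓ (heckePermT ℓ (k : SL(2, ℤ)) x)) := by
      rw [← Matrix.mul_assoc]
      exact h1
    have h3 := congrArg (fun M : Mat2 => ((s48h_tw ℓ σ x)⁻¹ : SL(2, ℤ)).1 * M) h2
    simp only [s48h_inv_mul_cancel_left_coe] at h3
    rw [h3, Matrix.SpecialLinearGroup.coe_mul, Matrix.SpecialLinearGroup.coe_mul]
    simp only [Matrix.mul_assoc]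
  have hterm : ∀ x : OnePoint (ZMod ℓ),
      Φ (Additive.ofMul (s29h_fam hℓ k₀ x))
        = (s59u_res (s48h_GammaH_le_Gamma0 (H := H)) A Φ) (Additive.ofMul (E.fam k x))
          + (Φ (Additive.ofMul (⟨s48h_tw ℓ σ (heckePermT ℓ (k : SL(2, ℤ)) x),
              s48h_tw_mem hσ _⟩ : Gamma0 N))
            - Φ (Additive.ofMul (⟨s48h_tw ℓ σ x, s48h_tw_mem hσ _⟩ : Gamma0 N))) := by
    intro x
    have h1 : s29h_fam hℓ k₀ x
        = (⟨s48h_tw ℓ σ x, s48h_tw_mem hσ _⟩ : Gamma0 N)⁻¹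
          * Subgroup.inclusion s48h_GammaH_le_Gamma0 (E.fam k x)
          * (⟨s48h_tw ℓ σ (heckePermT ℓ (k : SL(2, ℤ)) x), s48h_tw_mem hσ _⟩ : Gamma0 N) :=
      Subtype.ext (hfam x)
    rw [h1, ofMul_mul, ofMul_mul, map_add, map_add, ofMul_inv, map_neg, s59u_res_apply]
    abel
  rw [Finset.sum_congr rfl fun x _ => hterm x, Finset.sum_add_distrib, Finset.sum_sub_distrib,
    Equiv.sum_comp (heckePermT ℓ (k : SL(2, ℤ)))
      (fun x => Φ (Additive.ofMul (⟨s48h_tw ℓ σ x, s48h_tw_mem hσ _⟩ : Gamma0 N))),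
    sub_self, add_zero]

end ResS29

/-! ### Parabolicity -/

theorem s59u_parabolic_of_res {K G : Subgroup SL(2, ℤ)} (hKG : K ≤ G) (hK : K.index ≠ 0)
    {A : Type*} [AddCommGroup A] [IsAddTorsionFree A] (Φ : Additive G →+ A)
    (h : IsParabolicHom K (s59u_res hKG A Φ)) : IsParabolicHom G Φ := by
  intro γ hγ
  obtain ⟨n, hn, -, hγn⟩ := Subgroup.exists_pow_mem_of_index_ne_zero hK (γ : SL(2, ℤ))
  have h1 := h ⟨(γ : SL(2, ℤ)) ^ n, hγn⟩ (s48h_trace_pow_sq (γ : SL(2, ℤ)) hγ n)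
  rw [s59u_res_apply] at h1
  have h3 : Subgroup.inclusion hKG (⟨(γ : SL(2, ℤ)) ^ n, hγn⟩ : K) = γ ^ n := Subtype.ext rfl
  rw [h3, ofMul_pow, map_nsmul] at h1
  refine (nsmul_right_injective hn.ne') ?_
  show n • Φ (Additive.ofMul γ) = n • (0 : A)
  rw [h1, nsmul_zero]

end Fermat.Agent.Lib.S59
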