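/-
Programme (R) = S59, node (H1) (helper3), file 6: the STATE of the iterated twist and its steps.

`s59u_St D F Lev ψ x`: there is a nonzero parabolic `φ ∈ Hom(G(Lev, D), F)` with diamond character
`ψ` and `T_ℓ φ = x_ℓ φ` for all primes `ℓ ∤ Lev`.
* `s59u_St_congr`: only the values of `ψ` at integers prime to `Lev` and of `x` at primes `ℓ ∤ Lev`
  matter;
* `s59u_St_init`: from an eigenvector on `Γ_H(M)`, `H ⊇ ker((ℤ/M)ˣ → (ℤ/D)ˣ)`;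
* `s59u_St_step_res` (restriction) and `s59u_St_step_tw` (twist) from level `L₀ q` to `L₀ q²`;
* `s59u_St_step`: the uniform step.
-/
import Mathlib
import Fermat.Agent.Lib.S48.HHomH
import Fermat.Agent.Lib.S59.UExt

set_option autoImplicit false
set_option linter.unusedSectionVars false

noncomputable section

namespace Fermat.Agent.Lib.S59

open Fermat.Agent.Lib.S48 Fermat.Agent.Lib.ES Fermat.Agent.Lib.S29 CongruenceSubgroup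
  ModularCurve.Period
open P2MW.S_ModularForm_heckeT_slash_eq_self_of_mem_Gamma0.ModularForm.HeckeSlashInvariance
open scoped MatrixGroups OnePoint

local notation "Mat2" => Matrix (Fin 2) (Fin 2) ℤ

/-- **The state of the iterated twist.** -/
def s59u_St (D : ℕ) (F : Type*) [Field F] (Lev : ℕ) (ψ : ℤ → F) (x : ℕ → F) : Prop :=
  ∃ (hD : D ∣ Lev) (φ : Additive (s59u_G Lev D hD) →+ F), φ ≠ 0 ∧
    IsParabolicHom (s59u_G Lev D hD) φ ∧ s59u_HasDiam ψ φ ∧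
    ∀ (ℓ : ℕ) [Fact ℓ.Prime] (hℓ : ¬ ℓ ∣ Lev) (σ : SL(2, ℤ)) (hσ : σ ∈ Gamma0 Lev)
      (hσ11 : ((σ 1 1 : ℤ) : ZMod Lev) = (ℓ : ZMod Lev)),
      s48h_TpH (s59u_ker Lev D hD) hℓ σ hσ hσ11 F φ = x ℓ • φ

/-- the lower right entry of `σ ∈ Γ₀(Lev)` is prime to `Lev`. -/
theorem s59u_coprime_lowerRight {Lev : ℕ} {σ : SL(2, ℤ)} (hσ : σ ∈ Gamma0 Lev) :
    IsCoprime (σ 1 1) (Lev : ℤ) := by
  obtain ⟨c, hc⟩ := s59u_gamma0_iff.mp hσ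
  have hdet := s59u_det_eq σ
  exact ⟨σ 0 0, -(σ 0 1 * c), by rw [hc] at hdet; linear_combination hdet⟩

theorem s59u_St_congr {D : ℕ} {F : Type*} [Field F] {Lev : ℕ} {ψ ψ' : ℤ → F} {x x' : ℕ → F}
    (hψ : ∀ d : ℤ, IsCoprime d (Lev : ℤ) → ψ d = ψ' d)
    (hx : ∀ ℓ : ℕ, ℓ.Prime → ¬ ℓ ∣ Lev → x ℓ = x' ℓ) (h : s59u_St D F Lev ψ x) :
    s59u_St D F Lev ψ' x' := by
  obtain ⟨hD, φ, h0, hpar, hdiam, heig⟩ := h
  refine ⟨hD, φ, h0, hpar, fun σ hσ => ?_, fun ℓ _ hℓ σ hσ hσ11 => ?_⟩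
  · rw [hdiam σ hσ, hψ _ (s59u_coprime_lowerRight hσ)]
  · rw [heig ℓ hℓ σ hσ hσ11, hx ℓ Fact.out hℓ]

/-! ### The initial state -/

theorem s59u_GammaH_mono {N : ℕ} {H H' : Subgroup (ZMod N)ˣ} (h : H ≤ H') :
    s48h_GammaH N H ≤ s48h_GammaH N H' := by
  rintro γ ⟨h0, u, hu, hγu⟩
  exact ⟨h0, u, h hu, hγu⟩

theorem s59u_St_init {M D : ℕ} [NeZero M] (hD : D ∣ M) (H : Subgroup (ZMod M)ˣ)
    (hH : s59u_ker M D hD ≤ H) {F : Type*} [Field F] [CharZero F] (ψ : ℤ → F) (x : ℕ → F)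
    (φ : Additive (s48h_GammaH M H) →+ F) (h0 : φ ≠ 0) (hpar : IsParabolicHom (s48h_GammaH M H) φ)
    (hdiam : ∀ (σ : SL(2, ℤ)) (hσ : σ ∈ Gamma0 M), s48h_diamondH H σ hσ F φ = ψ (σ 1 1) • φ)
    (heig : ∀ (ℓ : ℕ) [Fact ℓ.Prime] (hℓ : ¬ ℓ ∣ M) (σ : SL(2, ℤ)) (hσ : σ ∈ Gamma0 M)
      (hσ11 : ((σ 1 1 : ℤ) : ZMod M) = (ℓ : ZMod M)), s48h_TpH H hℓ σ hσ hσ11 F φ = x ℓ • φ) :
    s59u_St D F M ψ x := by
  have hKG : s59u_G M D hD ≤ s48h_GammaH M H := s59u_GammaH_mono hH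
  refine ⟨hD, s59u_res hKG F φ, ?_, s59u_res_isParabolic hKG hpar, fun σ hσ => ?_,
    fun ℓ _ hℓ σ hσ hσ11 => ?_⟩
  · intro h
    exact h0 (s59u_res_injective (A := F) hKG s59u_G_index_ne_zero (by rw [h, map_zero]))
  · have h1 := s59u_res_heckeHom hKG (s48h_diamondDatum H σ hσ)
      (s59u_conjDatum (s59u_G M D hD) (σ : Mat2) (s59u_coe_det_ne σ) (s59u_gamma0_normG hσ))
      (fun _ => rfl) (fun _ _ => rfl) φ
    have h2 : (s48h_diamondDatum H σ hσ).heckeHom F φ = ψ (σ 1 1) • φ := hdiam σ hσ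
    rw [h2, s59u_res_smul] at h1
    exact h1.symm
  · have h1 := s59u_res_heckeHom hKG (s48h_TpDatum H hℓ σ hσ hσ11)
      (s48h_TpDatum (s59u_ker M D hD) hℓ σ hσ hσ11) (fun _ => rfl) (fun _ _ => rfl) φ
    have h2 : (s48h_TpDatum H hℓ σ hσ hσ11).heckeHom F φ = x ℓ • φ := heig ℓ hℓ σ hσ hσ11
    rw [h2, s59u_res_smul] at h1
    exact h1.symm

/-! ### The steps -/

section Steps

variable {L₀ q D : ℕ} [NeZero L₀] [Fact q.Prime] {F : Type*} [Field F] [CharZero F]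

/-- The restriction step. -/
theorem s59u_St_step_res (ψ : ℤ → F) (x : ℕ → F) (h : s59u_St D F (L₀ * q) ψ x) :
    s59u_St D F (L₀ * q * q) ψ x := by
  obtain ⟨hD, φ, h0, hpar, hdiam, heig⟩ := h
  refine ⟨hD.mul_right q, s59u_res (s59u_K_le_G hD) F φ, ?_,
    s59u_res_isParabolic (s59u_K_le_G hD) hpar, fun t ht => ?_, fun ℓ _ hℓ σ hσ hσ11 => ?_⟩
  · intro h
    exact h0 (s59u_res_injective (A := F) (s59u_K_le_G hD) s59u_G_index_ne_zero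
      (by rw [h, map_zero]))
  · exact s59u_conj_res_of_hasDiam hD ψ φ hdiam (s59u_gamma0_mono (dvd_mul_right _ _) ht)
      (s59u_gamma0_normG ht)
  · have hℓ' : ¬ ℓ ∣ L₀ * q := fun h => hℓ (h.mul_right q)
    have hσ' : σ ∈ Gamma0 (L₀ * q) := s59u_gamma0_mono (dvd_mul_right _ _) hσ
    have hσ11' := s59u_cast_lowerRight (dvd_mul_right (L₀ * q) q) hσ11
    have h1 := s59u_res_Tp (dvd_mul_right (L₀ * q) q) (hD := hD) (hD' := hD.mul_right q) hℓ' hℓ σ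
      hσ' hσ11' hσ hσ11 φ
    rw [heig ℓ hℓ' σ hσ' hσ11', s59u_res_smul] at h1
    exact h1.symm

/-- The twist step. -/
theorem s59u_St_step_tw (hqD : q ∣ D) (χ : MulChar (ZMod q) F) (hχ : χ ≠ 1) (ψ : ℤ → F)
    (x : ℕ → F) (hψper : ∀ a b : ℤ, ((L₀ * q : ℕ) : ℤ) ∣ a - b → ψ a = ψ b)
    (hψ : ∃ d : ℤ, (L₀ : ℤ) ∣ d - 1 ∧ IsCoprime d (q : ℤ) ∧ ψ d ≠ 1)
    (h : s59u_St D F (L₀ * q) ψ x) :
    s59u_St D F (L₀ * q * q) (fun d => ψ d * χ ((d : ℤ) : ZMod q) ^ 2)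
      (fun ℓ => χ (ℓ : ZMod q) * x ℓ) := by
  obtain ⟨hD, φ, h0, hpar, hdiam, heig⟩ := h
  refine ⟨hD.mul_right q,
    s59u_tw (s59u_twSetting hD hqD) χ⁻¹ (s59u_res (s59u_K_le_G hD) F φ), ?_,
    s59u_tw_isParabolic _ _ (s59u_res_isParabolic (s59u_K_le_G hD) hpar),
    s59u_diam_tw hD hqD χ ψ hψper φ hdiam, fun ℓ _ hℓ σ hσ hσ11 => ?_⟩
  · intro h
    exact h0 (s59u_tw_injective hD hqD χ hχ ψ hψper hψ φ hdiam h)
  · have hℓ' : ¬ ℓ ∣ L₀ * q := fun h => hℓ (h.mul_right q)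
    have hσ' : σ ∈ Gamma0 (L₀ * q) := s59u_gamma0_mono (dvd_mul_right _ _) hσ
    have hσ11' := s59u_cast_lowerRight (dvd_mul_right (L₀ * q) q) hσ11
    have h1 := s59u_res_Tp (dvd_mul_right (L₀ * q) q) (hD := hD) (hD' := hD.mul_right q) hℓ' hℓ σ
      hσ' hσ11' hσ hσ11 φ
    rw [heig ℓ hℓ' σ hσ' hσ11', s59u_res_smul] at h1
    rw [s59u_Tp_tw hD hqD hℓ σ hσ hσ11 χ]
    have h2 : s48h_TpH (s59u_ker (L₀ * q * q) D (hD.mul_right q)) hℓ σ hσ hσ11 F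
        (s59u_res (s59u_K_le_G hD) F φ) = x ℓ • s59u_res (s59u_K_le_G hD) F φ := h1.symm
    rw [h2, s59u_tw_smul, smul_smul]

end Steps

end Fermat.Agent.Lib.S59
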