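/-
PROGRAMME R2 = S59, node [FLR], `T`-side, leaf [NEW-q], part (II) **the twist chain carries
kernel-newness at an auxiliary prime**, file 1 (helper4, prefix `s59f_`): the two commutation rules.

Setting: twisting prime `q`, level `Lev = L₁ q²` (without the auxiliary prime `r`), `N' = Lev r`,
`K = G(Lev, D)`, `K' = G(N', D)` (helper3's groups `s59u_G`), transfer `cor : Hom(K', A) → Hom(K, A)`
and Atkin–Lehner operator `w` at `r` (`s59f_corH`, `s59f_wH`, FOldH2/3).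
* `s59f_isG'_uG` : `K'` is a group `G'` of the FOldH package for `(Lev, s59u_ker Lev D)`;
* `s59f_corH_conj` : the transfer commutes with the conjugation by a matrix normalising `K` and
  `K'`, upper triangular mod `r` with unit lower right entry;
* `s59f_W_alpha` : `W α_u = k₀ α_{u'} W`, `u' = r t² u`, `k₀ ∈ K'`;
* `s59f_wH_cZ` : `w (c_v φ) = c_{r v} (w φ)`;
* `s59f_corH_tw`, `s59f_corH_wH_tw` : the twist preserves `ker cor` and `ker cor ∘ w`.
-/
import Mathlib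
import Fermat.Agent.Lib.S59.FOldH8
import Fermat.Agent.Lib.S59.UState

set_option autoImplicit false
set_option linter.unusedSectionVars false
set_option linter.unusedVariables false
set_option linter.style.haveILetI false

noncomputable section

namespace Fermat.Agent.Lib.S59

open CongruenceSubgroup ModularCurve.Period
open Fermat.Agent.Lib.ES Fermat.Agent.Lib.S29 Fermat.Agent.Lib.S41 Fermat.Agent.Lib.S48
open scoped MatrixGroups OnePoint

local notation "Mat2" => Matrix (Fin 2) (Fin 2) ℤ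

/-! ### The groups -/

section Groups

variable {Lev r D : ℕ} [NeZero Lev] [hr : Fact r.Prime] (hrL : ¬ r ∣ Lev)

/-- `G(Lev, D)` is a group `G` of the FOldH package. -/
theorem s59f_isG_uG (hD : D ∣ Lev) : s59f_IsG Lev (s59u_ker Lev D hD) (s59u_G Lev D hD) :=
  s59f_isG_GammaH Lev _

include hrL in
/-- `G(Lev r, D)` is a group `G'` of the FOldH package. -/
theorem s59f_isG'_uG {N' : ℕ} [NeZero N'] (hN' : N' = Lev * r) (hD : D ∣ Lev) (hD' : D ∣ N') :
    s59f_IsG' Lev r (s59u_ker Lev D hD) (s59u_G N' D hD') := by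
  have hLN : Lev ∣ N' := hN' ▸ dvd_mul_right Lev r
  refine s59f_isG'_GammaH hrL hN' hLN (fun u => ?_)
  show ZMod.unitsMap hD' u = 1 ↔ ZMod.unitsMap hD (ZMod.unitsMap hLN u) = 1
  rw [← MonoidHom.comp_apply, ZMod.unitsMap_comp]

end Groups

/-! ### The transfer commutes with conjugations -/

section CorConj

variable {L r : ℕ} [NeZero L] [hr : Fact r.Prime] (hrL : ¬ r ∣ L) {H : Subgroup (ZMod L)ˣ}
  {G G' : Subgroup SL(2, ℤ)}

/-- **the transfer commutes with the conjugation by a matrix normalising both groups**, upper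
triangular mod `r` with unit lower right entry. -/
theorem s59f_corH_conj (hG : s59f_IsG L H G) (hG' : s59f_IsG' L r H G') (g : Mat2)
    (hdet : g.det ≠ 0) (hn : s59u_Norm G g) (hn' : s59u_Norm G' g)
    (hB : (r : ℤ) ∣ g 1 0 ∧ ¬ (r : ℤ) ∣ g 1 1) {A : Type*} [AddCommGroup A]
    (ψ : Additive G' →+ A) :
    s59f_corH hrL hG hG' A (s59u_conj G' g hdet hn' A ψ) =
      s59u_conj G g hdet hn A (s59f_corH hrL hG hG' A ψ) :=
  s59f_corH_datum hrL hG hG' (s59u_conjDatum G g hdet hn) (s59u_conjDatum G' g hdet hn')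
    (fun _ => rfl) (fun _ _ _ _ => rfl) (fun _ _ _ _ => rfl) (fun _ => hB) ψ

/-- `w` is the conjugation by `W`. -/
theorem s59f_wH_eq_conj (hG' : s59f_IsG' L r H G') (A : Type*) [AddCommGroup A] :
    s59f_wH hrL hG' A =
      s59u_conj G' (s41l_W L r hrL) (s59f_W_det_ne hrL) (s59f_W_ex hrL hG') A := rfl

end CorConj

/-! ### Conjugations and left multiplication by elements of the group -/

section LeftMul

variable {K : Subgroup SL(2, ℤ)} {A : Type*} [AddCommGroup A]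

/-- `c_{k₀ g} = c_g` for `k₀ ∈ K`. -/
theorem s59f_conj_left_mul {g g' : Mat2} (hdet : g.det ≠ 0) (h : s59u_Norm K g)
    (hdet' : g'.det ≠ 0) (h' : s59u_Norm K g') (k₀ : K)
    (hg : g = ((k₀ : SL(2, ℤ)) : Mat2) * g') :
    s59u_conj K g hdet h A = s59u_conj K g' hdet' h' A := by
  refine AddMonoidHom.ext fun φ => AddMonoidHom.ext fun k => ?_
  obtain ⟨k, rfl⟩ := Additive.ofMul.surjective k
  obtain ⟨k', hk'⟩ := h' k
  rw [s59u_conj_apply_of hdet' h' φ k k' hk']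
  rw [s59u_conj_apply_of hdet h φ k (k₀ * k' * k₀⁻¹)]
  · rw [ofMul_mul, ofMul_mul, map_add, map_add, ofMul_inv, map_neg]
    abel
  · rw [hg, Matrix.mul_assoc, hk', ← Matrix.mul_assoc, ← Matrix.mul_assoc]
    congr 1
    rw [← Matrix.SpecialLinearGroup.coe_mul, ← MulMemClass.coe_mul,
      ← Matrix.SpecialLinearGroup.coe_mul, ← MulMemClass.coe_mul, inv_mul_cancel_right]

end LeftMul


/-! ### `W α_u = k₀ α_{u'} W` -/

section Alpha

variable {L₁ q r : ℕ} [NeZero L₁] [hq : Fact q.Prime] [hr : Fact r.Prime] [NeZero (L₁ * q * q)]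
  (hrL : ¬ r ∣ L₁ * q * q)

/-- the element `k₀ = W α_u W⁻¹ α_{u'}⁻¹`, `u' = r t² u`. -/
def s59f_k0 (u : ℤ) : SL(2, ℤ) :=
  s59u_mk (1 - (r : ℤ) * s41l_t (L₁ * q * q) r hrL * u * L₁ * q)
    ((r : ℤ) ^ 2 * s41l_t (L₁ * q * q) r hrL ^ 3 * u ^ 2 * L₁)
    (-((r : ℤ) * u * (L₁ : ℤ) ^ 2 * (q : ℤ) ^ 3))
    (1 + (r : ℤ) * s41l_t (L₁ * q * q) r hrL * u * L₁ * q +
      ((r : ℤ) * s41l_t (L₁ * q * q) r hrL * u * L₁ * q) ^ 2) (by ring)

theorem s59f_W_alpha (u : ℤ) :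
    s41l_W (L₁ * q * q) r hrL * s59u_alpha q u =
      ((s59f_k0 hrL u : SL(2, ℤ)) : Mat2) *
        (s59u_alpha q ((r : ℤ) * s41l_t (L₁ * q * q) r hrL ^ 2 * u) *
          s41l_W (L₁ * q * q) r hrL) := by
  have hst := s41l_st (L₁ * q * q) r hrL
  push_cast at hst
  rw [s59f_k0, s59u_mk_coe, s41l_W, s59u_alpha, s59u_alpha, Matrix.mul_fin_two, Matrix.mul_fin_two,
    Matrix.mul_fin_two]
  push_cast
  congr 1
  · congr 1
    · congr 1
      · ring
      · congr 1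
        · linear_combination (-((r : ℤ) * s41l_t (L₁ * q * q) r hrL * u)) * hst
    · congr 1
      · congr 1
        · ring
        · congr 1
          · linear_combination (-((r : ℤ) * u * (L₁ * q * q))) * hst

end Alpha


/-! ### `w` and the `c_u` -/

section WC

variable {L₁ q r : ℕ} [NeZero L₁] [hq : Fact q.Prime] [hr : Fact r.Prime] [NeZero (L₁ * q * q)]
  (hrL : ¬ r ∣ L₁ * q * q)

theorem s59f_k0_mem {N' D : ℕ} [NeZero N'] (hN' : N' = L₁ * q * q * r) (hD : D ∣ L₁ * q)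
    (hD' : D ∣ N') (u : ℤ) : s59f_k0 hrL u ∈ s59u_G N' D hD' := by
  rw [s59u_mem_G]
  constructor
  · show (N' : ℤ) ∣ -((r : ℤ) * u * (L₁ : ℤ) ^ 2 * (q : ℤ) ^ 3)
    rw [hN']
    push_cast
    exact ⟨-(u * L₁ * q), by ring⟩
  · obtain ⟨k, hk⟩ := hD
    have hk' : ((L₁ : ℤ) * (q : ℤ)) = (D : ℤ) * (k : ℤ) := by exact_mod_cast hk
    show (D : ℤ) ∣ (1 + (r : ℤ) * s41l_t (L₁ * q * q) r hrL * u * L₁ * q +
      ((r : ℤ) * s41l_t (L₁ * q * q) r hrL * u * L₁ * q) ^ 2) - 1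
    refine ⟨(k : ℤ) * ((r : ℤ) * s41l_t (L₁ * q * q) r hrL * u) *
      (1 + (r : ℤ) * s41l_t (L₁ * q * q) r hrL * u * L₁ * q), ?_⟩
    linear_combination ((r : ℤ) * s41l_t (L₁ * q * q) r hrL * u *
      (1 + (r : ℤ) * s41l_t (L₁ * q * q) r hrL * u * L₁ * q)) * hk'

variable {H : Subgroup (ZMod (L₁ * q * q))ˣ} {K' : Subgroup SL(2, ℤ)} {A : Type*} [AddCommGroup A]

/-- **`w (c_v φ) = c_{r v} (w φ)`.** -/
theorem s59f_wH_cZ (hK' : s59u_TwSetting K' q) (hG' : s59f_IsG' (L₁ * q * q) r H K')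
    (hk0 : ∀ u : ℤ, s59f_k0 hrL u ∈ K') (v : ℤ) (φ : Additive K' →+ A) :
    s59f_wH hrL hG' A (s59u_cZ hK' A v φ) =
      s59u_cZ hK' A ((r : ℤ) * v) (s59f_wH hrL hG' A φ) := by
  haveI : NeZero q := ⟨hq.out.ne_zero⟩
  have hst := s41l_st (L₁ * q * q) r hrL
  push_cast at hst
  set t := s41l_t (L₁ * q * q) r hrL with ht
  set W := s41l_W (L₁ * q * q) r hrL with hW
  have hdW : W.det ≠ 0 := s59f_W_det_ne hrL
  have hnW : s59u_Norm K' W := s59f_W_ex hrL hG'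
  -- `u = r v`, `u' = r t² u`
  set u : ℤ := (r : ℤ) * v with hu
  set u' : ℤ := (r : ℤ) * t ^ 2 * u with hu'
  have hda : ∀ x : ℤ, (s59u_alpha q x).det ≠ 0 := fun x => s59u_alpha_det_ne (NeZero.ne q) x
  have hcong : s59u_cZ hK' A v = s59u_cZ hK' A u' := by
    refine s59u_cZ_congr hK' ?_
    refine ⟨v * ((r : ℤ) * t + 1) * (s41l_s (L₁ * q * q) r hrL * (L₁ * q)), ?_⟩
    rw [hu', hu]
    linear_combination (-(v * ((r : ℤ) * t + 1))) * hst
  have hd1 : (W * s59u_alpha q u).det ≠ 0 := by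
    rw [Matrix.det_mul]; exact mul_ne_zero hdW (hda u)
  have hd2 : (s59u_alpha q u' * W).det ≠ 0 := by
    rw [Matrix.det_mul]; exact mul_ne_zero (hda u') hdW
  have hn1 : s59u_Norm K' (W * s59u_alpha q u) := s59u_norm_mul hnW (hK'.norm u)
  have hn2 : s59u_Norm K' (s59u_alpha q u' * W) := s59u_norm_mul (hK'.norm u') hnW
  rw [hcong, s59f_wH_eq_conj, s59u_cZ, s59u_cZ,
    s59u_conj_conj (hda u') (hK'.norm u') hdW hnW hd2 hn2,
    s59u_conj_conj hdW hnW (hda u) (hK'.norm u) hd1 hn1]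
  refine (DFunLike.congr_fun (s59f_conj_left_mul hd1 hn1 hd2 hn2 ⟨s59f_k0 hrL u, hk0 u⟩ ?_) φ).symm
  exact s59f_W_alpha hrL u

end WC


/-! ### The twist preserves the kernels of the two transfers -/

section Tw

variable {L₁ q r D : ℕ} [NeZero L₁] [hq : Fact q.Prime] [hr : Fact r.Prime]
  [NeZero (L₁ * q * q)] [NeZero (L₁ * r)] [NeZero (L₁ * r * q * q)]
  (hrL : ¬ r ∣ L₁ * q * q) (hD : D ∣ L₁ * q) (hD' : D ∣ L₁ * r * q) (hqD : q ∣ D)
  {F : Type*} [Field F]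

theorem s59f_lev_eq : L₁ * r * q * q = L₁ * q * q * r := by ring

include hrL in
theorem s59f_r_not_dvd_q : ¬ (r : ℤ) ∣ (q : ℤ) := by
  intro h
  exact hrL (Dvd.dvd.mul_left (Int.natCast_dvd_natCast.mp h) _)

include hrL in
/-- the group `K' = G(L₁ r q², D)` as a group `G'` over `K = G(L₁ q², D)`. -/
theorem s59f_isG'_K' :
    s59f_IsG' (L₁ * q * q) r (s59u_ker (L₁ * q * q) D (hD.mul_right q))
      (s59u_G (L₁ * r * q * q) D (hD'.mul_right q)) :=
  s59f_isG'_uG hrL s59f_lev_eq (hD.mul_right q) (hD'.mul_right q)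

/-- **`cor ∘ c_u = c_u ∘ cor`.** -/
theorem s59f_corH_cZ (u : ℤ) (φ : Additive (s59u_G (L₁ * r * q * q) D (hD'.mul_right q)) →+ F) :
    s59f_corH hrL (s59f_isG_uG (hD.mul_right q)) (s59f_isG'_K' hrL hD hD') F
        (s59u_cZ (s59u_twSetting hD' hqD) F u φ) =
      s59u_cZ (s59u_twSetting hD hqD) F u
        (s59f_corH hrL (s59f_isG_uG (hD.mul_right q)) (s59f_isG'_K' hrL hD hD') F φ) := by
  haveI : NeZero q := ⟨hq.out.ne_zero⟩
  rw [s59u_cZ, s59u_cZ]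
  refine s59f_corH_conj hrL _ _ (s59u_alpha q u) _ _ _ ⟨?_, ?_⟩ φ
  · show (r : ℤ) ∣ (0 : ℤ)
    exact dvd_zero _
  · show ¬ (r : ℤ) ∣ (q : ℤ)
    exact s59f_r_not_dvd_q hrL

/-- **`cor ∘ tw = tw ∘ cor`.** -/
theorem s59f_corH_tw (χ : MulChar (ZMod q) F)
    (φ : Additive (s59u_G (L₁ * r * q * q) D (hD'.mul_right q)) →+ F) :
    s59f_corH hrL (s59f_isG_uG (hD.mul_right q)) (s59f_isG'_K' hrL hD hD') F
        (s59u_tw (s59u_twSetting hD' hqD) χ φ) =
      s59u_tw (s59u_twSetting hD hqD) χ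
        (s59f_corH hrL (s59f_isG_uG (hD.mul_right q)) (s59f_isG'_K' hrL hD hD') F φ) := by
  haveI : NeZero q := ⟨hq.out.ne_zero⟩
  rw [s59u_tw, s59u_tw, map_sum]
  refine Finset.sum_congr rfl fun u _ => ?_
  rw [s59f_corH, s59f_op_smul, ← s59f_corH, s59u_c, s59u_c, s59f_corH_cZ hrL hD hD' hqD]

/-- **the twist preserves `ker (cor ∘ w)`.** -/
theorem s59f_corH_wH_tw (χ : MulChar (ZMod q) F)
    (φ : Additive (s59u_G (L₁ * r * q * q) D (hD'.mul_right q)) →+ F)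
    (h : s59f_corH hrL (s59f_isG_uG (hD.mul_right q)) (s59f_isG'_K' hrL hD hD') F
      (s59f_wH hrL (s59f_isG'_K' hrL hD hD') F φ) = 0) :
    s59f_corH hrL (s59f_isG_uG (hD.mul_right q)) (s59f_isG'_K' hrL hD hD') F
      (s59f_wH hrL (s59f_isG'_K' hrL hD hD') F (s59u_tw (s59u_twSetting hD' hqD) χ φ)) = 0 := by
  haveI : NeZero q := ⟨hq.out.ne_zero⟩
  have hk0 : ∀ u : ℤ, s59f_k0 hrL u ∈ s59u_G (L₁ * r * q * q) D (hD'.mul_right q) :=
    fun u => s59f_k0_mem hrL s59f_lev_eq hD (hD'.mul_right q) u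
  rw [s59u_tw, map_sum, map_sum]
  refine Finset.sum_eq_zero fun u _ => ?_
  rw [s59f_wH, s48h_MatDatum.heckeHom_smul, ← s59f_wH, s59f_corH, s59f_op_smul, ← s59f_corH,
    s59u_c, s59f_wH_cZ hrL (s59u_twSetting hD' hqD) (s59f_isG'_K' hrL hD hD') hk0,
    s59f_corH_cZ hrL hD hD' hqD, h, map_zero, smul_zero]

end Tw

end Fermat.Agent.Lib.S59
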