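/-
PROGRAMME R2 = S59, node [FLR], `T`-side, leaf [NEW-q], part (II) **the twist chain carries
kernel-newness at an auxiliary prime**, file 2 (helper4, prefix `s59f_`): the state and its steps.

`s59f_IsStN hrL hLev hD₁ hD ψ x φ` : `φ ≠ 0` is a parabolic class on `K' = G(Lev, D)`, `Lev = Lev₁ r`,
with diamond character `ψ`, `T_ℓ φ = x_ℓ φ` (`ℓ ∤ Lev`), killed by the two transfers to
`K = G(Lev₁, D)`: `cor φ = 0`, `cor (w φ) = 0` (helper3's state `s59u_St` + kernel-newness at `r`).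
* `s59f_isStN_res` : the restriction step `(L₁ q, L₁ r q) → (L₁ q², L₁ r q²)`;
* `s59f_isStN_tw`  : the twist step, `φ ↦ tw χ⁻¹ (res φ)`;
* `s59f_StN` : the existential form; `s59f_StN_congr`, `s59f_StN_step_res`, `s59f_StN_step_tw`.
-/
import Mathlib
import Fermat.Agent.Lib.S59.FTwNew1

set_option autoImplicit false
set_option linter.unusedSectionVars false
set_option linter.unusedVariables false
set_option linter.style.haveILetI false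

noncomputable section

namespace Fermat.Agent.Lib.S59

open CongruenceSubgroup ModularCurve.Period
open Fermat.Agent.Lib.ES Fermat.Agent.Lib.S29 Fermat.Agent.Lib.S41 Fermat.Agent.Lib.S48
open scoped MatrixGroups OnePoint

local notation "Mat2" => Matrix (Fin 2) (Fin 2) ℤ

/-! ### The explicit state -/

section Def

variable {D : ℕ} {F : Type*} [Field F] {r : ℕ} [hr : Fact r.Prime] {Lev₁ Lev : ℕ} [NeZero Lev₁]
  [NeZero Lev]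

/-- **the state with kernel-newness at `r`**, explicit form. -/
def s59f_IsStN (hrL : ¬ r ∣ Lev₁) (hLev : Lev = Lev₁ * r) (hD₁ : D ∣ Lev₁) (hD : D ∣ Lev)
    (ψ : ℤ → F) (x : ℕ → F) (φ : Additive (s59u_G Lev D hD) →+ F) : Prop :=
  φ ≠ 0 ∧ IsParabolicHom (s59u_G Lev D hD) φ ∧ s59u_HasDiam ψ φ ∧
    (∀ (ℓ : ℕ) [Fact ℓ.Prime] (hℓ : ¬ ℓ ∣ Lev) (σ : SL(2, ℤ)) (hσ : σ ∈ Gamma0 Lev)
      (hσ11 : ((σ 1 1 : ℤ) : ZMod Lev) = (ℓ : ZMod Lev)),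
      s48h_TpH (s59u_ker Lev D hD) hℓ σ hσ hσ11 F φ = x ℓ • φ) ∧
    s59f_corH hrL (s59f_isG_uG hD₁) (s59f_isG'_uG hrL hLev hD₁ hD) F φ = 0 ∧
    s59f_corH hrL (s59f_isG_uG hD₁) (s59f_isG'_uG hrL hLev hD₁ hD) F
      (s59f_wH hrL (s59f_isG'_uG hrL hLev hD₁ hD) F φ) = 0

end Def

/-! ### The steps, explicit form -/

section Steps

variable {L₁ q r D : ℕ} [NeZero L₁] [hq : Fact q.Prime] [hr : Fact r.Prime]
  (hrL₀ : ¬ r ∣ L₁ * q) (hrL : ¬ r ∣ L₁ * q * q) (hD : D ∣ L₁ * q) (hD' : D ∣ L₁ * r * q)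
  {F : Type*} [Field F] [CharZero F]

theorem s59f_lev_eq₀ : L₁ * r * q = L₁ * q * r := by ring

/-- `res ∘ cor₀ = cor ∘ res` and `res ∘ cor₀ ∘ w₀ = cor ∘ w ∘ res` between the two pairs. -/
theorem s59f_new_res (φ : Additive (s59u_G (L₁ * r * q) D hD') →+ F)
    (hA : s59f_corH hrL₀ (s59f_isG_uG hD) (s59f_isG'_uG hrL₀ s59f_lev_eq₀ hD hD') F φ = 0)
    (hB : s59f_corH hrL₀ (s59f_isG_uG hD) (s59f_isG'_uG hrL₀ s59f_lev_eq₀ hD hD') F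
      (s59f_wH hrL₀ (s59f_isG'_uG hrL₀ s59f_lev_eq₀ hD hD') F φ) = 0) :
    s59f_corH hrL (s59f_isG_uG (hD.mul_right q)) (s59f_isG'_K' hrL hD hD') F
        (s59u_res (s59u_K_le_G hD') F φ) = 0 ∧
      s59f_corH hrL (s59f_isG_uG (hD.mul_right q)) (s59f_isG'_K' hrL hD hD') F
        (s59f_wH hrL (s59f_isG'_K' hrL hD hD') F (s59u_res (s59u_K_le_G hD') F φ)) = 0 := by
  have hL : L₁ * q ∣ L₁ * q * q := dvd_mul_right _ _
  have hG₀ := s59f_isG_uG (Lev := L₁ * q) hD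
  have hG₀' := s59f_isG'_uG hrL₀ s59f_lev_eq₀ hD hD'
  have hG := s59f_isG_uG (Lev := L₁ * q * q) (hD.mul_right q)
  have hG' := s59f_isG'_K' hrL hD hD'
  have hle : s59u_G (L₁ * q * q) D (hD.mul_right q) ≤ s59u_G (L₁ * q) D hD := s59u_K_le_G hD
  have hle' : s59u_G (L₁ * r * q * q) D (hD'.mul_right q) ≤ s59u_G (L₁ * r * q) D hD' :=
    s59u_K_le_G hD'
  have h1 := s59f_corH_resX hrL₀ hrL hL hG₀ hG₀' hG hG' hle hle' φ
  have h2 := s59f_wH_resX hrL₀ hrL hL hG₀' hG' hle' φ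
  have h3 := s59f_corH_resX hrL₀ hrL hL hG₀ hG₀' hG hG' hle hle' (s59f_wH hrL₀ hG₀' F φ)
  refine ⟨?_, ?_⟩
  · have : s59f_corH hrL hG hG' F (s59t_resG hle' F φ) = 0 := by rw [← h1, hA, map_zero]
    exact this
  · have : s59f_corH hrL hG hG' F (s59f_wH hrL hG' F (s59t_resG hle' F φ)) = 0 := by
      rw [h2, ← h3, hB, map_zero]
    exact this


/-- **the restriction step.** -/
theorem s59f_isStN_res (ψ : ℤ → F) (x : ℕ → F) (φ : Additive (s59u_G (L₁ * r * q) D hD') →+ F)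
    (h : s59f_IsStN hrL₀ s59f_lev_eq₀ hD hD' ψ x φ) :
    s59f_IsStN hrL s59f_lev_eq (hD.mul_right q) (hD'.mul_right q) ψ x
      (s59u_res (s59u_K_le_G hD') F φ) := by
  obtain ⟨h0, hpar, hdiam, heig, hA, hB⟩ := h
  obtain ⟨hA', hB'⟩ := s59f_new_res hrL₀ hrL hD hD' φ hA hB
  refine ⟨?_, s59u_res_isParabolic (s59u_K_le_G hD') hpar, fun t ht => ?_,
    fun ℓ _ hℓ σ hσ hσ11 => ?_, hA', hB'⟩
  · intro h
    exact h0 (s59u_res_injective (A := F) (s59u_K_le_G hD') s59u_G_index_ne_zero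
      (by rw [h, map_zero]))
  · exact s59u_conj_res_of_hasDiam hD' ψ φ hdiam (s59u_gamma0_mono (dvd_mul_right _ _) ht)
      (s59u_gamma0_normG ht)
  · have hℓ' : ¬ ℓ ∣ L₁ * r * q := fun h => hℓ (h.mul_right q)
    have hσ' : σ ∈ Gamma0 (L₁ * r * q) := s59u_gamma0_mono (dvd_mul_right _ _) hσ
    have hσ11' := s59u_cast_lowerRight (dvd_mul_right (L₁ * r * q) q) hσ11
    have h1 := s59u_res_Tp (dvd_mul_right (L₁ * r * q) q) (hD := hD') (hD' := hD'.mul_right q)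
      hℓ' hℓ σ hσ' hσ11' hσ hσ11 φ
    rw [heig ℓ hℓ' σ hσ' hσ11', s59u_res_smul] at h1
    exact h1.symm

/-- **the twist step.** -/
theorem s59f_isStN_tw (hqD : q ∣ D) (χ : MulChar (ZMod q) F) (hχ : χ ≠ 1) (ψ : ℤ → F)
    (x : ℕ → F) (hψper : ∀ a b : ℤ, ((L₁ * r * q : ℕ) : ℤ) ∣ a - b → ψ a = ψ b)
    (hψ : ∃ d : ℤ, ((L₁ * r : ℕ) : ℤ) ∣ d - 1 ∧ IsCoprime d (q : ℤ) ∧ ψ d ≠ 1)
    (φ : Additive (s59u_G (L₁ * r * q) D hD') →+ F)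
    (h : s59f_IsStN hrL₀ s59f_lev_eq₀ hD hD' ψ x φ) :
    s59f_IsStN hrL s59f_lev_eq (hD.mul_right q) (hD'.mul_right q)
      (fun d => ψ d * χ ((d : ℤ) : ZMod q) ^ 2) (fun ℓ => χ (ℓ : ZMod q) * x ℓ)
      (s59u_tw (s59u_twSetting hD' hqD) χ⁻¹ (s59u_res (s59u_K_le_G hD') F φ)) := by
  obtain ⟨h0, hpar, hdiam, heig, hA, hB⟩ := h
  obtain ⟨hA', hB'⟩ := s59f_new_res hrL₀ hrL hD hD' φ hA hB
  refine ⟨?_, s59u_tw_isParabolic _ _ (s59u_res_isParabolic (s59u_K_le_G hD') hpar),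
    s59u_diam_tw hD' hqD χ ψ hψper φ hdiam, fun ℓ _ hℓ σ hσ hσ11 => ?_, ?_, ?_⟩
  · intro h
    exact h0 (s59u_tw_injective hD' hqD χ hχ ψ hψper hψ φ hdiam h)
  · have hℓ' : ¬ ℓ ∣ L₁ * r * q := fun h => hℓ (h.mul_right q)
    have hσ' : σ ∈ Gamma0 (L₁ * r * q) := s59u_gamma0_mono (dvd_mul_right _ _) hσ
    have hσ11' := s59u_cast_lowerRight (dvd_mul_right (L₁ * r * q) q) hσ11
    have h1 := s59u_res_Tp (dvd_mul_right (L₁ * r * q) q) (hD := hD') (hD' := hD'.mul_right q)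
      hℓ' hℓ σ hσ' hσ11' hσ hσ11 φ
    rw [heig ℓ hℓ' σ hσ' hσ11', s59u_res_smul] at h1
    rw [s59u_Tp_tw hD' hqD hℓ σ hσ hσ11 χ]
    have h2 : s48h_TpH (s59u_ker (L₁ * r * q * q) D (hD'.mul_right q)) hℓ σ hσ hσ11 F
        (s59u_res (s59u_K_le_G hD') F φ) = x ℓ • s59u_res (s59u_K_le_G hD') F φ := h1.symm
    rw [h2, s59u_tw_smul, smul_smul]
  · have h3 := s59f_corH_tw hrL hD hD' hqD χ⁻¹ (s59u_res (s59u_K_le_G hD') F φ)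
    rw [hA', s59u_tw_zero] at h3
    exact h3
  · exact s59f_corH_wH_tw hrL hD hD' hqD χ⁻¹ (s59u_res (s59u_K_le_G hD') F φ) hB'

end Steps


/-! ### The existential state -/

section Ex

variable {D : ℕ} {F : Type*} [Field F] {r : ℕ} [hr : Fact r.Prime]

/-- **the state with kernel-newness at `r`** at the level `Lev` (which contains `r` exactly once). -/
def s59f_StN (D : ℕ) (F : Type*) [Field F] (r : ℕ) [Fact r.Prime] (Lev : ℕ) (ψ : ℤ → F)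
    (x : ℕ → F) : Prop :=
  ∃ (Lev₁ : ℕ) (_ : NeZero Lev₁) (_ : NeZero Lev) (hrL : ¬ r ∣ Lev₁) (hLev : Lev = Lev₁ * r)
    (hD₁ : D ∣ Lev₁) (hD : D ∣ Lev) (φ : Additive (s59u_G Lev D hD) →+ F),
    s59f_IsStN hrL hLev hD₁ hD ψ x φ

theorem s59f_StN_congr {Lev : ℕ} {ψ ψ' : ℤ → F} {x x' : ℕ → F}
    (hψ : ∀ d : ℤ, IsCoprime d (Lev : ℤ) → ψ d = ψ' d)
    (hx : ∀ ℓ : ℕ, ℓ.Prime → ¬ ℓ ∣ Lev → x ℓ = x' ℓ) (h : s59f_StN D F r Lev ψ x) :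
    s59f_StN D F r Lev ψ' x' := by
  obtain ⟨Lev₁, i1, i2, hrL, hLev, hD₁, hD, φ, h0, hpar, hdiam, heig, hA, hB⟩ := h
  refine ⟨Lev₁, i1, i2, hrL, hLev, hD₁, hD, φ, h0, hpar, fun σ hσ => ?_,
    fun ℓ _ hℓ σ hσ hσ11 => ?_, hA, hB⟩
  · rw [hdiam σ hσ, hψ _ (s59u_coprime_lowerRight hσ)]
  · rw [heig ℓ hℓ σ hσ hσ11, hx ℓ Fact.out hℓ]

variable [CharZero F]

/-- extraction of the shape of the levels. -/
theorem s59f_lev_shape {L₀ q Lev₁ : ℕ} [hq : Fact q.Prime] (hrL₀ : r ∣ L₀)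
    (hLev : L₀ * q = Lev₁ * r) : ∃ L₁ : ℕ, L₀ = L₁ * r ∧ Lev₁ = L₁ * q := by
  obtain ⟨L₁, hL₁⟩ := hrL₀
  refine ⟨L₁, by rw [hL₁, mul_comm], ?_⟩
  have hr0 : 0 < r := hr.out.pos
  apply Nat.eq_of_mul_eq_mul_right hr0
  rw [← hLev, hL₁]
  ring

theorem s59f_not_dvd_qq {L₁ q : ℕ} (h : ¬ r ∣ L₁ * q) : ¬ r ∣ L₁ * q * q := by
  intro h1
  rcases (Nat.Prime.dvd_mul hr.out).mp h1 with h2 | h2
  · exact h h2
  · exact h (h2.mul_left _)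

/-- **the restriction step**, existential form. -/
theorem s59f_StN_step_res {L₀ q : ℕ} [hq : Fact q.Prime] (hrL₀ : r ∣ L₀) (ψ : ℤ → F)
    (x : ℕ → F) (h : s59f_StN D F r (L₀ * q) ψ x) : s59f_StN D F r (L₀ * q * q) ψ x := by
  obtain ⟨Lev₁, i1, i2, hrL, hLev, hD₁, hD, φ, h⟩ := h
  obtain ⟨L₁, rfl, rfl⟩ := s59f_lev_shape hrL₀ hLev
  haveI : NeZero L₁ := ⟨fun h0 => i1.out (by rw [h0, zero_mul])⟩
  exact ⟨L₁ * q * q, inferInstance, inferInstance, s59f_not_dvd_qq hrL, s59f_lev_eq,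
    hD₁.mul_right q, hD.mul_right q, _,
    s59f_isStN_res hrL (s59f_not_dvd_qq hrL) hD₁ hD ψ x φ h⟩

/-- **the twist step**, existential form. -/
theorem s59f_StN_step_tw {L₀ q : ℕ} [hq : Fact q.Prime] (hrL₀ : r ∣ L₀) (hqD : q ∣ D)
    (χ : MulChar (ZMod q) F) (hχ : χ ≠ 1) (ψ : ℤ → F) (x : ℕ → F)
    (hψper : ∀ a b : ℤ, ((L₀ * q : ℕ) : ℤ) ∣ a - b → ψ a = ψ b)
    (hψ : ∃ d : ℤ, (L₀ : ℤ) ∣ d - 1 ∧ IsCoprime d (q : ℤ) ∧ ψ d ≠ 1)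
    (h : s59f_StN D F r (L₀ * q) ψ x) :
    s59f_StN D F r (L₀ * q * q) (fun d => ψ d * χ ((d : ℤ) : ZMod q) ^ 2)
      (fun ℓ => χ (ℓ : ZMod q) * x ℓ) := by
  obtain ⟨Lev₁, i1, i2, hrL, hLev, hD₁, hD, φ, h⟩ := h
  obtain ⟨L₁, rfl, rfl⟩ := s59f_lev_shape hrL₀ hLev
  haveI : NeZero L₁ := ⟨fun h0 => i1.out (by rw [h0, zero_mul])⟩
  exact ⟨L₁ * q * q, inferInstance, inferInstance, s59f_not_dvd_qq hrL, s59f_lev_eq,
    hD₁.mul_right q, hD.mul_right q, _,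
    s59f_isStN_tw hrL (s59f_not_dvd_qq hrL) hD₁ hD hqD χ hχ ψ x hψper hψ φ h⟩

end Ex

end Fermat.Agent.Lib.S59
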