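/-
Programme (R) = S59, node (H4′)/(NN)-2 (helper3), file T6: **clearing denominators**: a `q`-new
eigenclass with values in the fraction field `F` of a domain `𝒪` gives a `q`-new eigenclass with values
in `𝒪` (same eigenvalues, same vanishing of the two transfers).  This is the bridge from
`s59u_new_step`/`s59u_TwistNew` (field valued) to the hypotheses of helper2's `s59b_hnew_chi`
(BNEig.lean).

* `s59u_exists_integral` : `G` finitely generated, `Φ : G → F = Frac 𝒪` a homomorphism ⟹ there are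
  `d ≠ 0` in `𝒪` and `Φ' : G → 𝒪` with `Φ' = d Φ`;
* `s59u_new_descend` : the descent of a `q`-new eigenclass, eigenvalues `y ℓ` (`Fact ℓ.Prime` form);
* `s59u_new_descend_chi` : the same in the binder form of `s59b_hnew_chi` (eigenvalues given by any
  function of `ℓ` and the three proofs, e.g. `χ (CuspForm.heckeAlgebra.T hℓ hℓN hℓS)`).
-/
import Mathlib
import Fermat.Prelude.Def_CuspForm_HeckeAlgebra
import Fermat.Agent.Lib.S29.KFinite
import Fermat.Agent.Lib.S59.UTrace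

set_option autoImplicit false
set_option linter.unusedSectionVars false
set_option linter.style.haveILetI false

noncomputable section

namespace Fermat.Agent.Lib.S59

open CongruenceSubgroup Fermat.Agent.Lib.ES Fermat.Agent.Lib.S29 Fermat.Agent.Lib.S41
  ModularCurve.Period
open scoped MatrixGroups

section Integral

variable {G : Type*} [Group G] [Group.FG G] (R : Type*) [CommRing R] {F : Type*} [Field F]
  [Algebra R F] [IsFractionRing R F]

/-- **clearing denominators**: a homomorphism from a finitely generated group to the fraction field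
of `R` becomes `R`-valued after multiplication by a nonzero element of `R`. -/
theorem s59u_exists_integral (Φ : Additive G →+ F) :
    ∃ (d : R) (Φ' : Additive G →+ R), d ≠ 0 ∧ algebraMap R F d ≠ 0 ∧
      ∀ γ, algebraMap R F (Φ' γ) = algebraMap R F d * Φ γ := by
  classical
  haveI : IsDomain R := (IsFractionRing.injective R F).isDomain (algebraMap R F)
  obtain ⟨S, hS⟩ := Group.fg_def.mp (inferInstance : Group.FG G)
  obtain ⟨b, hb⟩ := IsLocalization.exist_integer_multiples_of_finset (nonZeroDivisors R)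
    (S.image fun g => Φ (Additive.ofMul g))
  have hinj : Function.Injective (algebraMap R F) := IsFractionRing.injective R F
  have hb0 : (b : R) ≠ 0 := nonZeroDivisors.coe_ne_zero b
  have hbF : algebraMap R F (b : R) ≠ 0 := by
    intro h
    exact hb0 (hinj (by rw [h, map_zero]))
  -- the subgroup of `G` on which `b Φ` is integral
  let T : Subgroup G :=
    { carrier := {g | ∃ r : R, algebraMap R F r = algebraMap R F (b : R) * Φ (Additive.ofMul g)}
      one_mem' := ⟨0, by rw [map_zero, ofMul_one, map_zero, mul_zero]⟩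
      mul_mem' := by
        rintro g h ⟨r, hr⟩ ⟨s, hs⟩
        exact ⟨r + s, by rw [map_add, hr, hs, ofMul_mul, map_add, mul_add]⟩
      inv_mem' := by
        rintro g ⟨r, hr⟩
        exact ⟨-r, by rw [map_neg, hr, ofMul_inv, map_neg, mul_neg]⟩ }
  have hT : T = ⊤ := by
    rw [eq_top_iff, ← hS, Subgroup.closure_le]
    intro g hg
    obtain ⟨r, hr⟩ := hb (Φ (Additive.ofMul g)) (Finset.mem_image_of_mem _ hg)
    exact ⟨r, by rw [hr, Algebra.smul_def]⟩
  have hall : ∀ γ : Additive G, ∃ r : R, algebraMap R F r = algebraMap R F (b : R) * Φ γ := by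
    intro γ
    have h : γ.toMul ∈ T := by rw [hT]; exact Subgroup.mem_top _
    exact h
  choose f hf using hall
  refine ⟨b, ⟨⟨f, ?_⟩, ?_⟩, hb0, hbF, hf⟩
  · apply hinj
    rw [hf, map_zero, map_zero, mul_zero]
  · intro x y
    apply hinj
    rw [map_add, hf, hf, hf, map_add, mul_add]

end Integral

section Descend

variable (M q : ℕ) [NeZero M] [hq : Fact q.Prime] (hqM : q ∣ M)
  (R : Type*) [CommRing R] [IsDomain R] {F : Type*} [Field F] [Algebra R F] [IsFractionRing R F]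

/-- **descent of a `q`-new eigenclass from `Frac R` to `R`**, general form: `P` is any index type of
"admissible Hecke operators" (`ℓ` together with whatever proofs), `y` the eigenvalues in `R`. -/
theorem s59u_new_descend_gen {P : Type*} (ℓ : P → ℕ) (hℓ : ∀ i, Fact (ℓ i).Prime) (y : P → R)
    (Φ : Additive (Gamma0 (M * q)) →+ F) (hΦ0 : Φ ≠ 0)
    (hpar : IsParabolicHom (Gamma0 (M * q)) Φ)
    (hT : ∀ i, (haveI := hℓ i; s29h_heckeHom (M * q) (ℓ i) F Φ) = algebraMap R F (y i) • Φ)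
    (hA : s59u_corA2 M q hqM F Φ = 0) (hB : s59u_corB2 M q hqM F Φ = 0) :
    ∃ Φ' : Additive (Gamma0 (M * q)) →+ R, Φ' ≠ 0 ∧ IsParabolicHom (Gamma0 (M * q)) Φ' ∧
      (∀ i, (haveI := hℓ i; s29h_heckeHom (M * q) (ℓ i) R Φ') = y i • Φ') ∧
      s59u_corA2 M q hqM R Φ' = 0 ∧ s59u_corB2 M q hqM R Φ' = 0 := by
  classical
  haveI : NeZero (M * q) := ⟨mul_ne_zero (NeZero.ne M) hq.out.ne_zero⟩
  obtain ⟨d, Φ', hd0, hdF, hΦ'⟩ := s59u_exists_integral (G := Gamma0 (M * q)) R Φ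
  have hinj : Function.Injective (algebraMap R F) := IsFractionRing.injective R F
  let ι : R →+ F := (algebraMap R F).toAddMonoidHom
  have hιinj : Function.Injective ι := hinj
  have hcomp : ι.comp Φ' = algebraMap R F d • Φ := by
    refine AddMonoidHom.ext fun γ => ?_
    rw [AddMonoidHom.comp_apply, AddMonoidHom.smul_apply, smul_eq_mul]
    exact hΦ' γ
  -- post-composition with `ι` is injective
  have hpost : ∀ {Γ : Subgroup SL(2, ℤ)} (a b : Additive Γ →+ R), ι.comp a = ι.comp b → a = b := by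
    intro Γ a b h
    refine AddMonoidHom.ext fun γ => hιinj ?_
    have := DFunLike.congr_fun h γ
    simpa using this
  refine ⟨Φ', ?_, ?_, ?_, ?_, ?_⟩
  · rintro rfl
    apply hΦ0
    refine AddMonoidHom.ext fun γ => ?_
    have h := hΦ' γ
    rw [AddMonoidHom.zero_apply, map_zero] at h
    rcases mul_eq_zero.mp h.symm with h | h
    · exact absurd h hdF
    · rw [h, AddMonoidHom.zero_apply]
  · intro γ hγ
    apply hinj
    rw [hΦ' (Additive.ofMul γ), hpar γ hγ, mul_zero, map_zero]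
  · intro i
    haveI := hℓ i
    apply hpost
    rw [← s29h_heckeHom_comp, hcomp, s29h_heckeHom_smul, hT i]
    refine AddMonoidHom.ext fun γ => ?_
    simp only [AddMonoidHom.comp_apply, AddMonoidHom.smul_apply, smul_eq_mul]
    have h1 : ι (y i * Φ' γ) = algebraMap R F (y i) * ι (Φ' γ) := map_mul (algebraMap R F) _ _
    have h2 : ι (Φ' γ) = algebraMap R F d * Φ γ := hΦ' γ
    rw [h1, h2]
    ring
  · apply hpost
    have h := (s59u_famCorA2 M q hqM).op_natural ι Φ'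
    change s59u_corA2 M q hqM F (ι.comp Φ') = ι.comp (s59u_corA2 M q hqM R Φ') at h
    rw [← h, hcomp]
    have hs : s59u_corA2 M q hqM F (algebraMap R F d • Φ) =
        algebraMap R F d • s59u_corA2 M q hqM F Φ := by
      refine AddMonoidHom.ext fun γ => ?_
      obtain ⟨γ, rfl⟩ := Additive.ofMul.surjective γ
      rw [AddMonoidHom.smul_apply]
      change (s59u_famCorA2 M q hqM).op F _ _ = _ • (s59u_famCorA2 M q hqM).op F _ _
      rw [s41l_Fam.op_apply, s41l_Fam.op_apply, Finset.smul_sum]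
      rfl
    rw [hs, hA, smul_zero, AddMonoidHom.comp_zero]
  · apply hpost
    have h := (s59u_famCorB2 M q hqM).op_natural ι Φ'
    change s59u_corB2 M q hqM F (ι.comp Φ') = ι.comp (s59u_corB2 M q hqM R Φ') at h
    rw [← h, hcomp]
    have hs : s59u_corB2 M q hqM F (algebraMap R F d • Φ) =
        algebraMap R F d • s59u_corB2 M q hqM F Φ := by
      refine AddMonoidHom.ext fun γ => ?_
      obtain ⟨γ, rfl⟩ := Additive.ofMul.surjective γ
      rw [AddMonoidHom.smul_apply]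
      change (s59u_famCorB2 M q hqM).op F _ _ = _ • (s59u_famCorB2 M q hqM).op F _ _
      rw [s41l_Fam.op_apply, s41l_Fam.op_apply, Finset.smul_sum]
      rfl
    rw [hs, hB, smul_zero, AddMonoidHom.comp_zero]

/-- **descent of a `q`-new eigenclass**, `Fact ℓ.Prime` form (the hypotheses of `s59b_hnew`). -/
theorem s59u_new_descend (S : Set ℕ) (y : ℕ → R)
    (Φ : Additive (Gamma0 (M * q)) →+ F) (hΦ0 : Φ ≠ 0)
    (hpar : IsParabolicHom (Gamma0 (M * q)) Φ)
    (hT : ∀ (ℓ : ℕ) [Fact ℓ.Prime], ¬ ℓ ∣ M * q → ℓ ∉ S →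
      s29h_heckeHom (M * q) ℓ F Φ = algebraMap R F (y ℓ) • Φ)
    (hA : s59u_corA2 M q hqM F Φ = 0) (hB : s59u_corB2 M q hqM F Φ = 0) :
    ∃ Φ' : Additive (Gamma0 (M * q)) →+ R, IsParabolicHom (Gamma0 (M * q)) Φ' ∧ Φ' ≠ 0 ∧
      (∀ (ℓ : ℕ) [Fact ℓ.Prime], ¬ ℓ ∣ M * q → ℓ ∉ S →
        s29h_heckeHom (M * q) ℓ R Φ' = y ℓ • Φ') ∧
      s59u_corA2 M q hqM R Φ' = 0 ∧ s59u_corB2 M q hqM R Φ' = 0 := by
  obtain ⟨Φ', h0, hp, hT', hA', hB'⟩ := s59u_new_descend_gen M q hqM R
    (P := {ℓ : ℕ // ℓ.Prime ∧ ¬ ℓ ∣ M * q ∧ ℓ ∉ S}) (fun i => i.1) (fun i => ⟨i.2.1⟩)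
    (fun i => y i.1) Φ hΦ0 hpar
    (fun i => by
      haveI : Fact (i.1).Prime := ⟨i.2.1⟩
      exact hT i.1 i.2.2.1 i.2.2.2) hA hB
  refine ⟨Φ', hp, h0, ?_, hA', hB'⟩
  intro ℓ inst hℓN hℓS
  have h := hT' ⟨ℓ, inst.out, hℓN, hℓS⟩
  exact h

/-- **descent of a `q`-new eigenclass**, in the binder form of helper2's `s59b_hnew_chi`: the
eigenvalues are given by a character `χ` of the Hecke algebra with values in `R`. -/
theorem s59u_new_descend_chi (S : Set ℕ) (χ : ↥(CuspForm.heckeAlgebra (M * q) 2 S) →+* R)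
    (Φ : Additive (Gamma0 (M * q)) →+ F) (hΦ0 : Φ ≠ 0)
    (hpar : IsParabolicHom (Gamma0 (M * q)) Φ)
    (hT : ∀ (ℓ : ℕ) (hℓ : ℓ.Prime) (hℓN : ¬ ℓ ∣ M * q) (hℓS : ℓ ∉ S),
      (haveI : Fact ℓ.Prime := ⟨hℓ⟩; s29h_heckeHom (M * q) ℓ F Φ) =
        algebraMap R F (χ (CuspForm.heckeAlgebra.T hℓ hℓN hℓS)) • Φ)
    (hA : s59u_corA2 M q hqM F Φ = 0) (hB : s59u_corB2 M q hqM F Φ = 0) :
    ∃ Φ' : Additive (Gamma0 (M * q)) →+ R, IsParabolicHom (Gamma0 (M * q)) Φ' ∧ Φ' ≠ 0 ∧
      (∀ (ℓ : ℕ) (hℓ : ℓ.Prime) (hℓN : ¬ ℓ ∣ M * q) (hℓS : ℓ ∉ S),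
        (haveI : Fact ℓ.Prime := ⟨hℓ⟩; s29h_heckeHom (M * q) ℓ R Φ') =
          χ (CuspForm.heckeAlgebra.T hℓ hℓN hℓS) • Φ') ∧
      s59u_corA2 M q hqM R Φ' = 0 ∧ s59u_corB2 M q hqM R Φ' = 0 := by
  obtain ⟨Φ', h0, hp, hT', hA', hB'⟩ := s59u_new_descend_gen M q hqM R
    (P := {ℓ : ℕ // ℓ.Prime ∧ ¬ ℓ ∣ M * q ∧ ℓ ∉ S}) (fun i => i.1) (fun i => ⟨i.2.1⟩)
    (fun i => χ (CuspForm.heckeAlgebra.T i.2.1 i.2.2.1 i.2.2.2)) Φ hΦ0 hpar
    (fun i => hT i.1 i.2.1 i.2.2.1 i.2.2.2) hA hB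
  refine ⟨Φ', hp, h0, ?_, hA', hB'⟩
  intro ℓ hℓ hℓN hℓS
  exact hT' ⟨ℓ, hℓ, hℓN, hℓS⟩

end Descend

end Fermat.Agent.Lib.S59
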