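/-
Programme (R) = S59, node (H4′)/(NN)-2(a) (helper3), file T1: **the two degeneracy transfers at a level
`M q` with `q ∣ M`** (`q² ∣ M q`), on `Hom(Γ₀(·), A)`.

For `ℓ ∤ M` main has `s41l_corA M ℓ hℓM`, `s41l_corB M ℓ hℓM` (Lib/S41/LVFam, `ℓ + 1` cosets).  For
`q ∣ M` there are only `q` cosets:
* `Γ₀(M) = ⊔_{j mod q} Γ₀(M q) r_j`, `r_j = (1 0; M j 1)`                         (`s59u_dec_A2`);
* `{m : det m = q, M q ∣ m₁₀, q ∣ m₁₁} = ⊔_{j mod q} Γ₀(M q) g_j`, `g_j = (1 j; 0 q)`  (`s59u_dec_B2`);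
* `s59u_famCorA2`, `s59u_famCorB2` : the coset families (`s41l_Fam`, Lib/S41/LVAbs);
* `s59u_corA2, s59u_corB2 : Hom(Γ₀(M q), A) → Hom(Γ₀(M), A)` : the transfer along the inclusion
  and along `z ↦ q z` (the `Hom`-avatars of `α_*`, `β_* : J₀(M q) → J₀(M)`, `s36w_alphaPush M q`,
  `s36w_betaPush M q` of Lib/S36/Defs);
* `s59u_corA2_apply_of`, `s59u_corB2_apply_of` : evaluation with any valid system;
* both preserve parabolic homomorphisms (`s59u_corA2_isParabolic`, `s59u_corB2_isParabolic`).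
-/
import Mathlib
import Fermat.Agent.Lib.S41.LVFam

set_option autoImplicit false
set_option linter.unusedSectionVars false
set_option linter.style.haveILetI false

noncomputable section

namespace Fermat.Agent.Lib.S59

open CongruenceSubgroup Fermat.Agent.Lib.ES Fermat.Agent.Lib.S29 Fermat.Agent.Lib.S41
  ModularCurve.Period
open scoped MatrixGroups

local notation "Mat2" => Matrix (Fin 2) (Fin 2) ℤ

section Dec

variable (M q : ℕ) [hq : Fact q.Prime] (hqM : q ∣ M)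

/-- the representatives `r_j = (1 0; M j 1)` of `Γ₀(M q) \ Γ₀(M)` (`q ∣ M`). -/
def s59u_rA2 (j : ZMod q) : Mat2 := !![1, 0; (M : ℤ) * (j.val : ℤ), 1]

/-- the representatives `g_j = (1 j; 0 q)`. -/
def s59u_rB2 (j : ZMod q) : Mat2 := !![1, (j.val : ℤ); 0, (q : ℤ)]

theorem s59u_rA2_00 (j : ZMod q) : s59u_rA2 M q j 0 0 = 1 := rfl
theorem s59u_rA2_01 (j : ZMod q) : s59u_rA2 M q j 0 1 = 0 := rfl
theorem s59u_rA2_10 (j : ZMod q) : s59u_rA2 M q j 1 0 = (M : ℤ) * (j.val : ℤ) := rfl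
theorem s59u_rA2_11 (j : ZMod q) : s59u_rA2 M q j 1 1 = 1 := rfl
theorem s59u_rB2_00 (j : ZMod q) : s59u_rB2 q j 0 0 = 1 := rfl
theorem s59u_rB2_01 (j : ZMod q) : s59u_rB2 q j 0 1 = (j.val : ℤ) := rfl
theorem s59u_rB2_10 (j : ZMod q) : s59u_rB2 q j 1 0 = 0 := rfl
theorem s59u_rB2_11 (j : ZMod q) : s59u_rB2 q j 1 1 = (q : ℤ) := rfl

theorem s59u_rA2_det (j : ZMod q) : (s59u_rA2 M q j).det = 1 := by
  rw [s59u_rA2, Matrix.det_fin_two_of]; ring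

theorem s59u_rB2_det (j : ZMod q) : (s59u_rB2 q j).det = (q : ℤ) := by
  rw [s59u_rB2, Matrix.det_fin_two_of]; ring

theorem s59u_q_ne_zero : ((q : ℕ) : ℤ) ≠ 0 := by exact_mod_cast hq.out.ne_zero

include hqM in
/-- for `det m = 1`, `M ∣ m₁₀` and `q ∣ M`: `q ∤ m₁₁`. -/
theorem s59u_not_dvd_d {m : Mat2} (hdet : m.det = 1) (hM : (M : ℤ) ∣ m 1 0) :
    ¬ (q : ℤ) ∣ m 1 1 := by
  intro h
  rw [Matrix.det_fin_two] at hdet
  have hqc : (q : ℤ) ∣ m 1 0 := (Int.natCast_dvd_natCast.mpr hqM).trans hM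
  refine s41l_not_dvd_one q ?_
  rw [← hdet]
  exact dvd_sub (Dvd.dvd.mul_left h _) (Dvd.dvd.mul_left hqc _)

include hqM in
/-- **`Γ₀(M) = ⊔_j Γ₀(M q) r_j`** (`q ∣ M`). -/
theorem s59u_dec_A2 (m : Mat2) (hdet : m.det = 1) (hM : (M : ℤ) ∣ m 1 0) :
    ∃ (j : ZMod q) (h : Gamma0 (M * q)), m = s41l_i (M * q) h * s59u_rA2 M q j := by
  have hd := s59u_not_dvd_d M q hqM hdet hM
  rw [Matrix.det_fin_two] at hdet
  obtain ⟨c', hc'⟩ := hM
  obtain ⟨j, ⟨e, he⟩⟩ := s41l_exists_quot q c' (m 1 1) hd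
  have hdvd : ((M * q : ℕ) : ℤ) ∣ m 1 0 - m 1 1 * ((M : ℤ) * (j.val : ℤ)) := by
    rw [Nat.cast_mul]
    exact ⟨e, by rw [hc']; linear_combination (M : ℤ) * he⟩
  have hdet' : (m 0 0 - m 0 1 * ((M : ℤ) * (j.val : ℤ))) * m 1 1 -
      m 0 1 * (m 1 0 - m 1 1 * ((M : ℤ) * (j.val : ℤ))) = 1 := by
    linear_combination hdet
  refine ⟨j, s41l_mk (M * q) _ _ _ _ hdet' hdvd, ?_⟩
  rw [s41l_i_mk, s59u_rA2, s41l_eq_mul_lit]
  refine ⟨?_, ?_, ?_, ?_⟩ <;> ring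

/-- the cosets `Γ₀(M q) r_j` are pairwise distinct. -/
theorem s59u_rA2_inj [NeZero M] (i j : ZMod q) (h : Gamma0 (M * q))
    (e : s59u_rA2 M q i = s41l_i (M * q) h * s59u_rA2 M q j) : i = j := by
  have hM0 : (M : ℤ) ≠ 0 := by exact_mod_cast NeZero.ne M
  rw [s41l_i_apply, s41l_eta (h : SL(2, ℤ)), s41l_eq_mul_iff] at e
  simp only [s59u_rA2_00, s59u_rA2_01, s59u_rA2_10, s59u_rA2_11] at e
  obtain ⟨h00, h01, h10, h11⟩ := e
  have hc := s41l_dvd_c h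
  rw [Nat.cast_mul] at hc
  obtain ⟨c'', hc''⟩ := hc
  -- `h₀₁ = 0`, `h₁₁ = 1`, `h₁₀ = M (i - j)`
  have hb : ((h : SL(2, ℤ)) : Mat2) 0 1 = 0 := by linear_combination -h01
  have hd : ((h : SL(2, ℤ)) : Mat2) 1 1 = 1 := by linear_combination -h11
  have h3 : (M : ℤ) * ((i.val : ℤ) - (j.val : ℤ)) = (M : ℤ) * ((q : ℤ) * c'') := by
    rw [hd] at h10
    linear_combination h10 + hc''
  have h4 := mul_left_cancel₀ hM0 h3
  exact s41l_val_inj q ⟨c'', h4⟩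

include hqM in
/-- **`{m : det m = q, M q ∣ m₁₀, q ∣ m₁₁} = ⊔_j Γ₀(M q) g_j`** (`q ∣ M`). -/
theorem s59u_dec_B2 (m : Mat2) (hdet : m.det = q) (hC : ((M * q : ℕ) : ℤ) ∣ m 1 0)
    (hD : (q : ℤ) ∣ m 1 1) :
    ∃ (j : ZMod q) (h : Gamma0 (M * q)), m = s41l_i (M * q) h * s59u_rB2 q j := by
  have hq0 := s59u_q_ne_zero q
  rw [Matrix.det_fin_two] at hdet
  obtain ⟨D', hD'⟩ := hD
  obtain ⟨C'', hC''⟩ := hC
  have hdvd : ((M * q : ℕ) : ℤ) ∣ m 1 0 := ⟨C'', hC''⟩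
  rw [Nat.cast_mul] at hC''
  obtain ⟨M', hM'⟩ := hqM
  -- `q ∤ m₀₀`
  have hA : ¬ (q : ℤ) ∣ m 0 0 := by
    rintro ⟨A', hA'⟩
    refine s41l_not_dvd_one q ⟨A' * D' - m 0 1 * ((M' : ℤ) * C''), ?_⟩
    apply mul_left_cancel₀ hq0
    rw [hA', hD', hC'', hM'] at hdet
    push_cast at hdet
    linear_combination (-1 : ℤ) * hdet
  obtain ⟨j, ⟨e, he⟩⟩ := s41l_exists_quot q (m 0 1) (m 0 0) hA
  have hdet' : m 0 0 * (D' - (j.val : ℤ) * M * C'') - e * m 1 0 = 1 := by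
    apply mul_left_cancel₀ hq0
    rw [hC'', hD'] at hdet
    rw [hC'']
    linear_combination hdet + (M : ℤ) * q * C'' * he
  refine ⟨j, s41l_mk (M * q) _ _ _ _ hdet' hdvd, ?_⟩
  rw [s41l_i_mk, s59u_rB2, s41l_eq_mul_lit]
  refine ⟨?_, ?_, ?_, ?_⟩
  · ring
  · linear_combination he
  · ring
  · rw [hD', hC'']; ring

/-- the cosets `Γ₀(M q) g_j` are pairwise distinct. -/
theorem s59u_rB2_inj (i j : ZMod q) (h : Gamma0 (M * q))
    (e : s59u_rB2 q i = s41l_i (M * q) h * s59u_rB2 q j) : i = j := by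
  rw [s41l_i_apply, s41l_eta (h : SL(2, ℤ)), s41l_eq_mul_iff] at e
  simp only [s59u_rB2_00, s59u_rB2_01, s59u_rB2_10, s59u_rB2_11] at e
  obtain ⟨h00, h01, h10, h11⟩ := e
  have ha : ((h : SL(2, ℤ)) : Mat2) 0 0 = 1 := by linear_combination -h00
  rw [ha] at h01
  exact s41l_val_inj q ⟨((h : SL(2, ℤ)) : Mat2) 0 1, by linear_combination h01⟩

end Dec

/-! ### The families and the operators -/

section Fam

variable (M q : ℕ) [NeZero M] [hq : Fact q.Prime] (hqM : q ∣ M)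

/-- the family of `cor_A` at a level with `q ∣ M`: representatives `r_j`. -/
def s59u_famCorA2 : s41l_Fam (s41l_i (M * q)) (s41l_i M) (ZMod q) :=
  s41l_Fam.ofDecomp (s41l_i_injective (M * q)) (s59u_rA2 M q)
    (fun j _ _ h => s29h_mul_right_cancel (by rw [s59u_rA2_det]; exact one_ne_zero) h)
    (fun i j h e => s59u_rA2_inj M q i j h e)
    {m : Mat2 | m.det = 1 ∧ (M : ℤ) ∣ m 1 0}
    (fun j => ⟨s59u_rA2_det M q j, by rw [s59u_rA2]; simp⟩)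
    (fun m hm γ => by
      obtain ⟨-, -, h10, -⟩ := s41l_mul_apply m (s41l_i M γ)
      refine ⟨by rw [s41l_det_mul_i]; exact hm.1, ?_⟩
      rw [h10]
      exact dvd_add (Dvd.dvd.mul_right hm.2 _) (Dvd.dvd.mul_left (s41l_i_dvd γ) _))
    (fun m hm => s59u_dec_A2 M q hqM m hm.1 hm.2)

/-- the family of `cor_B` at a level with `q ∣ M`: representatives `g_j`. -/
def s59u_famCorB2 : s41l_Fam (s41l_i (M * q)) (s41l_i M) (ZMod q) :=
  s41l_Fam.ofDecomp (s41l_i_injective (M * q)) (s59u_rB2 q)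
    (fun j _ _ h => s29h_mul_right_cancel (by rw [s59u_rB2_det]; exact s59u_q_ne_zero q) h)
    (fun i j h e => s59u_rB2_inj M q i j h e)
    {m : Mat2 | m.det = q ∧ ((M * q : ℕ) : ℤ) ∣ m 1 0 ∧ (q : ℤ) ∣ m 1 1}
    (fun j => ⟨s59u_rB2_det q j, by rw [s59u_rB2]; simp, by rw [s59u_rB2]; simp⟩)
    (fun m hm γ => by
      obtain ⟨-, -, h10, h11⟩ := s41l_mul_apply m (s41l_i M γ)
      have hmq : (q : ℤ) ∣ m 1 0 := by
        refine Dvd.dvd.trans ?_ hm.2.1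
        rw [Nat.cast_mul]
        exact dvd_mul_left _ _
      refine ⟨by rw [s41l_det_mul_i]; exact hm.1, ?_, ?_⟩
      · rw [h10]
        refine dvd_add (Dvd.dvd.mul_right hm.2.1 _) ?_
        rw [Nat.cast_mul, mul_comm (M : ℤ)]
        exact mul_dvd_mul hm.2.2 (s41l_i_dvd γ)
      · rw [h11]
        exact dvd_add (Dvd.dvd.mul_right hmq _) (Dvd.dvd.mul_right hm.2.2 _))
    (fun m hm => s59u_dec_B2 M q hqM m hm.1 hm.2.1 hm.2.2)

theorem s59u_famCorA2_g (j : ZMod q) : (s59u_famCorA2 M q hqM).g j = s59u_rA2 M q j := rfl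

theorem s59u_famCorB2_g (j : ZMod q) : (s59u_famCorB2 M q hqM).g j = s59u_rB2 q j := rfl

variable (A : Type*) [AddCommGroup A]

/-- **`cor_A : Hom(Γ₀(M q), A) → Hom(Γ₀(M), A)`** for `q ∣ M`: the transfer. -/
def s59u_corA2 : (Additive (Gamma0 (M * q)) →+ A) →+ (Additive (Gamma0 M) →+ A) :=
  (s59u_famCorA2 M q hqM).op A

/-- **`cor_B : Hom(Γ₀(M q), A) → Hom(Γ₀(M), A)`** for `q ∣ M`: the transfer along `z ↦ q z`. -/
def s59u_corB2 : (Additive (Gamma0 (M * q)) →+ A) →+ (Additive (Gamma0 M) →+ A) :=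
  (s59u_famCorB2 M q hqM).op A

variable {A}

/-- evaluation of `cor_A` with any valid system. -/
theorem s59u_corA2_apply_of (ψ : Additive (Gamma0 (M * q)) →+ A) (γ : Gamma0 M)
    (σ : ZMod q → ZMod q) (γ' : ZMod q → Gamma0 (M * q))
    (h : ∀ j, s59u_rA2 M q j * s41l_i M γ = s41l_i (M * q) (γ' j) * s59u_rA2 M q (σ j)) :
    s59u_corA2 M q hqM A ψ (Additive.ofMul γ) = ∑ j : ZMod q, ψ (Additive.ofMul (γ' j)) :=
  (s59u_famCorA2 M q hqM).op_apply_of_family ψ γ σ γ' h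

/-- evaluation of `cor_B` with any valid system. -/
theorem s59u_corB2_apply_of (ψ : Additive (Gamma0 (M * q)) →+ A) (γ : Gamma0 M)
    (σ : ZMod q → ZMod q) (γ' : ZMod q → Gamma0 (M * q))
    (h : ∀ j, s59u_rB2 q j * s41l_i M γ = s41l_i (M * q) (γ' j) * s59u_rB2 q (σ j)) :
    s59u_corB2 M q hqM A ψ (Additive.ofMul γ) = ∑ j : ZMod q, ψ (Additive.ofMul (γ' j)) :=
  (s59u_famCorB2 M q hqM).op_apply_of_family ψ γ σ γ' h

theorem s59u_corA2_isParabolic {ψ : Additive (Gamma0 (M * q)) →+ A}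
    (hψ : IsParabolicHom (Gamma0 (M * q)) ψ) :
    IsParabolicHom (Gamma0 M) (s59u_corA2 M q hqM A ψ) :=
  s41l_op_isParabolic _ (fun j => by
    rw [s59u_famCorA2_g, s59u_rA2_det]; exact one_ne_zero) hψ

theorem s59u_corB2_isParabolic {ψ : Additive (Gamma0 (M * q)) →+ A}
    (hψ : IsParabolicHom (Gamma0 (M * q)) ψ) :
    IsParabolicHom (Gamma0 M) (s59u_corB2 M q hqM A ψ) :=
  s41l_op_isParabolic _ (fun j => by
    rw [s59u_famCorB2_g, s59u_rB2_det]; exact s59u_q_ne_zero q) hψ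

end Fam

end Fermat.Agent.Lib.S59
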