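/-
Programme (R) = S59, node (H4′)/(NN)-2(a) (helper3), file T2: **the twisted class is `q`-new.**

`Lev = L₀ q`, `q` prime, `q ∤ L₀`, `q ∣ D ∣ Lev`, `G = G(Lev, D)`, `K = G(Lev q, D)`.  Let
`φ ∈ Hom(G, F)` have diamond character `ψ` with `ψ χ² = 1` (`χ ≠ 1` a character of `(ℤ/q)ˣ`), and
let `Φ ∈ Hom(Γ₀(L₀ q²), F)` restrict on `K` to the twist `tw χ⁻¹ (res φ)`.  Then both transfers of
`Φ` to the level `L₀ q` vanish (`s59u_new`):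
  `s59u_corA2 (L₀ q) q Φ = 0`  and  `s59u_corB2 (L₀ q) q Φ = 0`.
* `s59u_val φ m g`: the value `φ(m g m⁻¹)` when `m g m⁻¹ ∈ G` (`s59u_val_eq`, `s59u_val_smul`,
  `s59u_val_mul_left`);
* `s59u_alpha_lo`: `α_u (1 0; L₀ q t 1) = σ α_{u'}`, `σ ∈ Γ₀(L₀ q)`, `σ₁₁ = 1 − u' L₀ t`;
* `s59u_combA`, `s59u_combB`: the two character sum identities.
-/
import Mathlib
import Fermat.Agent.Lib.S59.UTrace
import Fermat.Agent.Lib.S59.UTwES

set_option autoImplicit false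
set_option linter.unusedSectionVars false
set_option linter.style.haveILetI false
set_option linter.unnecessarySeqFocus false

noncomputable section

namespace Fermat.Agent.Lib.S59

open Fermat.Agent.Lib.S48 Fermat.Agent.Lib.ES Fermat.Agent.Lib.S29 Fermat.Agent.Lib.S41
  CongruenceSubgroup ModularCurve.Period
open scoped MatrixGroups

local notation "Mat2" => Matrix (Fin 2) (Fin 2) ℤ

/-! ### The value `φ(m g m⁻¹)` -/

section Val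

variable {G : Subgroup SL(2, ℤ)} {A : Type*} [AddCommGroup A]

open Classical in
/-- `φ(m g m⁻¹)` if `m g m⁻¹ ∈ G` (and `0` otherwise). -/
def s59u_val (φ : Additive G →+ A) (m : Mat2) (g : SL(2, ℤ)) : A :=
  if h : ∃ k : G, m * (g : Mat2) = ((k : SL(2, ℤ)) : Mat2) * m then
    φ (Additive.ofMul h.choose) else 0

theorem s59u_val_eq (φ : Additive G →+ A) {m : Mat2} (hm : m.det ≠ 0) {g : SL(2, ℤ)} (k : G)
    (h : m * (g : Mat2) = ((k : SL(2, ℤ)) : Mat2) * m) :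
    s59u_val φ m g = φ (Additive.ofMul k) := by
  have hex : ∃ k : G, m * (g : Mat2) = ((k : SL(2, ℤ)) : Mat2) * m := ⟨k, h⟩
  rw [s59u_val, dif_pos hex]
  congr 2
  apply Subtype.ext
  apply Subtype.ext
  exact s29h_mul_right_cancel hm (hex.choose_spec.symm.trans h)

theorem s59u_val_smul (φ : Additive G →+ A) {m : Mat2} (hm : m.det ≠ 0) {g : SL(2, ℤ)} (k : G)
    (h : m * (g : Mat2) = ((k : SL(2, ℤ)) : Mat2) * m) {c : ℤ} (hc : c ≠ 0) :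
    s59u_val φ (c • m) g = φ (Additive.ofMul k) := by
  refine s59u_val_eq φ ?_ k ?_
  · rw [Matrix.det_smul, Fintype.card_fin]
    exact mul_ne_zero (pow_ne_zero 2 hc) hm
  · rw [Matrix.smul_mul, h, Matrix.mul_smul]

/-- `val φ (m r) g = val φ m (r g r⁻¹)`. -/
theorem s59u_val_mul_right (φ : Additive G →+ A) {m : Mat2} (hm : m.det ≠ 0) {g r : SL(2, ℤ)}
    (k : G) (h : m * ((r * g * r⁻¹ : SL(2, ℤ)) : Mat2) = ((k : SL(2, ℤ)) : Mat2) * m) :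
    s59u_val φ (m * (r : Mat2)) g = φ (Additive.ofMul k) := by
  refine s59u_val_eq φ ?_ k ?_
  · rw [Matrix.det_mul, Matrix.SpecialLinearGroup.det_coe, mul_one]
    exact hm
  · have h1 : ((r * g * r⁻¹ : SL(2, ℤ)) : Mat2) * (r : Mat2) = (r : Mat2) * (g : Mat2) := by
      rw [← Matrix.SpecialLinearGroup.coe_mul, ← Matrix.SpecialLinearGroup.coe_mul,
        inv_mul_cancel_right]
    rw [Matrix.mul_assoc, ← h1, ← Matrix.mul_assoc, h, Matrix.mul_assoc]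

end Val

section ValDiam

variable {Lev D : ℕ} {hD : D ∣ Lev} {F : Type*} [Field F]

/-- `val φ (σ m) g = ψ(σ₁₁) val φ m g` for `σ ∈ Γ₀(Lev)`. -/
theorem s59u_val_mul_left (ψ : ℤ → F) (φ : Additive (s59u_G Lev D hD) →+ F)
    (hφ : s59u_HasDiam ψ φ) {m : Mat2} (hm : m.det ≠ 0) {g : SL(2, ℤ)} (k : s59u_G Lev D hD)
    (h : m * (g : Mat2) = ((k : SL(2, ℤ)) : Mat2) * m) {σ : SL(2, ℤ)} (hσ : σ ∈ Gamma0 Lev) :
    s59u_val φ ((σ : Mat2) * m) g = ψ (σ 1 1) * φ (Additive.ofMul k) := by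
  obtain ⟨k', hk'⟩ := s59u_gamma0_normG (hD := hD) hσ k
  have h1 := DFunLike.congr_fun (hφ σ hσ) (Additive.ofMul k)
  rw [s59u_conj_apply_of _ _ φ k k' hk', AddMonoidHom.smul_apply, smul_eq_mul] at h1
  rw [← h1]
  refine s59u_val_eq φ ?_ k' ?_
  · rw [Matrix.det_mul, Matrix.SpecialLinearGroup.det_coe, one_mul]
    exact hm
  · rw [Matrix.mul_assoc, h, ← Matrix.mul_assoc, hk', Matrix.mul_assoc]

end ValDiam

/-! ### The relation `α_u (1 0; L₀ q t 1) = σ α_{u'}` -/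

theorem s59u_alpha_lo (L₀ q : ℕ) (u u' t b c : ℤ) (hc : c = L₀ * q * t)
    (hb : (q : ℤ) * b = u - u' * (1 + u * L₀ * t)) :
    ∃ σ : SL(2, ℤ), σ ∈ Gamma0 (L₀ * q) ∧ σ 1 1 = 1 - u' * L₀ * t ∧
      s59u_alpha q u * ((s59u_lo c : SL(2, ℤ)) : Mat2) = (σ : Mat2) * s59u_alpha q u' := by
  have hdet : (1 + u * L₀ * t) * (1 - u' * L₀ * t) - b * (L₀ * q * t) = 1 := by
    linear_combination (-(L₀ : ℤ) * t) * hb
  refine ⟨s59u_mk _ _ _ _ hdet, ?_, rfl, ?_⟩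
  · rw [s59u_gamma0_iff]
    simp only [s59u_mk_10]
    exact ⟨t, by push_cast; ring⟩
  · subst hc
    rw [s59u_mk_coe, s59u_lo, s59u_mk_coe]
    ext i j
    fin_cases i <;> fin_cases j <;>
      simp [s59u_alpha, Matrix.mul_apply, Fin.sum_univ_two] <;>
      first
        | ring1
        | linear_combination hb
        | linear_combination (-1 : ℤ) * hb

theorem s59u_lo_mul (a b : ℤ) : s59u_lo a * s59u_lo b = s59u_lo (a + b) := by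
  apply Subtype.ext
  rw [Matrix.SpecialLinearGroup.coe_mul, s59u_lo, s59u_lo, s59u_lo, s59u_mk_coe, s59u_mk_coe,
    s59u_mk_coe]
  ext i j
  fin_cases i <;> fin_cases j <;> simp [Matrix.mul_apply, Fin.sum_univ_two]

/-! ### The two character sums -/

section Comb

variable {q : ℕ} [Fact q.Prime] {F : Type*} [Field F]

theorem s59u_inv_mul_sq (χ : MulChar (ZMod q) F) (u : ZMod q) : χ⁻¹ u * χ u ^ 2 = χ u := by
  by_cases hu : u = 0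
  · subst hu
    rw [MulChar.map_zero χ, MulChar.map_zero, zero_mul]
  · have h1 : χ u ≠ 0 := (IsUnit.map χ (IsUnit.mk0 u hu)).ne_zero
    rw [MulChar.inv_apply_eq_inv', pow_two, ← mul_assoc, inv_mul_cancel₀ h1, one_mul]

/-- the character sum of the `α`-transfer. -/
theorem s59u_combA (χ : MulChar (ZMod q) F) (hχ : χ ≠ 1) (a : ZMod q) (ha : a ≠ 0)
    (V : ZMod q → ZMod q → F) (W : ZMod q → F) (B : F)
    (h1 : ∀ u j, 1 + u * a * j ≠ 0 →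
      V u j = χ (1 + u * a * j) ^ 2 * W (u * (1 + u * a * j)⁻¹))
    (h2 : ∀ u j, 1 + u * a * j = 0 → V u j = χ u ^ 2 * B) :
    ∑ j : ZMod q, ∑ u : ZMod q, χ⁻¹ u * V u j = 0 := by
  classical
  rw [Finset.sum_comm]
  set f : ZMod q → ZMod q → F := fun u v =>
    if v = 0 then χ u ^ 2 * B else χ v ^ 2 * W (u * v⁻¹) with hf
  have hV : ∀ u j, V u j = f u (1 + u * a * j) := by
    intro u j
    by_cases h : 1 + u * a * j = 0
    · rw [hf]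
      beta_reduce
      rw [if_pos h, h2 u j h]
    · rw [hf]
      beta_reduce
      rw [if_neg h, h1 u j h]
  have step1 : ∀ u : ZMod q, ∑ j : ZMod q, χ⁻¹ u * V u j = ∑ v : ZMod q, χ⁻¹ u * f u v := by
    intro u
    by_cases hu : u = 0
    · subst hu
      simp [MulChar.map_zero]
    · rw [← Equiv.sum_comp ((Equiv.mulLeft₀ (u * a) (mul_ne_zero hu ha)).trans (Equiv.addLeft 1))
        (fun v => χ⁻¹ u * f u v)]
      refine Finset.sum_congr rfl fun j _ => ?_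
      rw [hV]
      rfl
  rw [Finset.sum_congr rfl fun u _ => step1 u, Finset.sum_comm]
  set C : F := ∑ w : ZMod q, χ⁻¹ w * W w with hC
  have step2 : ∀ v : ZMod q, ∑ u : ZMod q, χ⁻¹ u * f u v
      = χ v * (if v = 0 then B else C) := by
    intro v
    by_cases hv : v = 0
    · subst hv
      rw [MulChar.map_zero, zero_mul]
      have h3 : ∀ u : ZMod q, χ⁻¹ u * f u 0 = χ u * B := by
        intro u
        rw [hf]
        beta_reduce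
        rw [if_pos rfl, ← mul_assoc, s59u_inv_mul_sq]
      rw [Finset.sum_congr rfl fun u _ => h3 u, ← Finset.sum_mul,
        MulChar.sum_eq_zero_of_ne_one hχ, zero_mul]
    · rw [if_neg hv, hC, Finset.mul_sum,
        ← Equiv.sum_comp (Equiv.mulRight₀ v hv) (fun u => χ⁻¹ u * f u v)]
      refine Finset.sum_congr rfl fun w _ => ?_
      rw [Equiv.mulRight₀_apply, hf]
      beta_reduce
      rw [if_neg hv, mul_assoc w, mul_inv_cancel₀ hv, mul_one, map_mul]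
      calc χ⁻¹ w * χ⁻¹ v * (χ v ^ 2 * W w) = (χ⁻¹ v * χ v ^ 2) * (χ⁻¹ w * W w) := by ring
        _ = χ v * (χ⁻¹ w * W w) := by rw [s59u_inv_mul_sq]
  rw [Finset.sum_congr rfl fun v _ => step2 v]
  have step3 : ∀ v : ZMod q, χ v * (if v = 0 then B else C) = χ v * C := by
    intro v
    by_cases hv : v = 0
    · subst hv
      rw [MulChar.map_zero, zero_mul, zero_mul]
    · rw [if_neg hv]
  rw [Finset.sum_congr rfl fun v _ => step3 v, ← Finset.sum_mul,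
    MulChar.sum_eq_zero_of_ne_one hχ, zero_mul]

/-- the character sum of the `β`-transfer. -/
theorem s59u_combB (χ : MulChar (ZMod q) F) (hχ : χ ≠ 1) (Y : ZMod q → F) :
    ∑ j : ZMod q, ∑ u : ZMod q, χ⁻¹ u * Y (j + u) = 0 := by
  rw [Finset.sum_comm]
  have h1 : ∀ u : ZMod q, ∑ j : ZMod q, χ⁻¹ u * Y (j + u) = χ⁻¹ u * ∑ x : ZMod q, Y x := by
    intro u
    rw [Finset.mul_sum, ← Equiv.sum_comp (Equiv.addRight u) (fun x => χ⁻¹ u * Y x)]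
    rfl
  have hχ' : χ⁻¹ ≠ 1 := by
    intro h
    exact hχ (by rw [← inv_inv χ, h, inv_one])
  rw [Finset.sum_congr rfl fun u _ => h1 u, ← Finset.sum_mul,
    MulChar.sum_eq_zero_of_ne_one hχ', zero_mul]

end Comb

/-! ### The deep subgroup `Γ(L₀ q²)` -/

theorem s59u_Gamma_dvd {N : ℕ} {g : SL(2, ℤ)} (hg : g ∈ Gamma N) :
    (N : ℤ) ∣ g 0 0 - 1 ∧ (N : ℤ) ∣ g 0 1 ∧ (N : ℤ) ∣ g 1 0 ∧ (N : ℤ) ∣ g 1 1 - 1 := by
  rw [Gamma_mem] at hg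
  obtain ⟨h00, h01, h10, h11⟩ := hg
  refine ⟨?_, (ZMod.intCast_zmod_eq_zero_iff_dvd _ _).mp h01,
    (ZMod.intCast_zmod_eq_zero_iff_dvd _ _).mp h10, ?_⟩
  · rw [← ZMod.intCast_zmod_eq_zero_iff_dvd]
    push_cast
    rw [h00, sub_self]
  · rw [← ZMod.intCast_zmod_eq_zero_iff_dvd]
    push_cast
    rw [h11, sub_self]

theorem s59u_Gamma_le_gamma0 {N N' : ℕ} (h : N' ∣ N) : Gamma N ≤ Gamma0 N' := by
  intro g hg
  rw [s59u_gamma0_iff]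
  exact (Int.natCast_dvd_natCast.mpr h).trans (s59u_Gamma_dvd hg).2.2.1

/-- `(1 n; 0 q)`. -/
def s59u_beta (q : ℕ) (n : ℤ) : Mat2 := !![1, n; 0, (q : ℤ)]

theorem s59u_beta_det (q : ℕ) (n : ℤ) : (s59u_beta q n).det = (q : ℤ) := by
  rw [s59u_beta, Matrix.det_fin_two_of]; ring

theorem s59u_alpha_beta (q : ℕ) (u n : ℤ) :
    s59u_alpha q u * s59u_beta q n = (q : ℤ) • s59u_beta q (n + u) := by
  ext i j
  fin_cases i <;> fin_cases j <;>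
    simp [s59u_alpha, s59u_beta, Matrix.mul_apply, Fin.sum_univ_two] <;> ring

theorem s59u_beta_add (q : ℕ) (n m : ℤ) :
    s59u_beta q (n + q * m)
      = ((s59u_mk 1 m 0 1 (by ring) : SL(2, ℤ)) : Mat2) * s59u_beta q n := by
  rw [s59u_mk_coe]
  ext i j
  fin_cases i <;> fin_cases j <;>
    simp [s59u_beta, Matrix.mul_apply, Fin.sum_univ_two] <;> ring

section New

variable {L₀ q D : ℕ} [NeZero L₀] [Fact q.Prime] {F : Type*} [Field F] (hD : D ∣ L₀ * q)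

/-- `Γ(L₀ q²) ≤ K = G(L₀ q², D)`. -/
theorem s59u_Gamma_le_K : Gamma (L₀ * q * q) ≤ s59u_G (L₀ * q * q) D (hD.mul_right q) := by
  intro g hg
  obtain ⟨-, -, h10, h11⟩ := s59u_Gamma_dvd hg
  rw [s59u_mem_G]
  exact ⟨h10, (Int.natCast_dvd_natCast.mpr (hD.mul_right q)).trans h11⟩

/-- `(1 n; 0 q)` conjugates `Γ(L₀ q²)` into `K`. -/
theorem s59u_beta_norm {g : SL(2, ℤ)} (hg : g ∈ Gamma (L₀ * q * q)) (n : ℤ) :
    ∃ k : s59u_G (L₀ * q * q) D (hD.mul_right q),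
      s59u_beta q n * (g : Mat2) = ((k : SL(2, ℤ)) : Mat2) * s59u_beta q n := by
  obtain ⟨h00, h01, h10, h11⟩ := s59u_Gamma_dvd hg
  have hqN : (q : ℤ) ∣ ((L₀ * q * q : ℕ) : ℤ) := ⟨(L₀ : ℤ) * q, by push_cast; ring⟩
  obtain ⟨b', hb'⟩ := hqN.trans h01
  obtain ⟨c₁, hc₁⟩ := hqN.trans h10
  obtain ⟨e, he⟩ : (q : ℤ) ∣ g 1 1 - g 0 0 := by
    have h1 : g 1 1 - g 0 0 = (g 1 1 - 1) - (g 0 0 - 1) := by ring
    rw [h1]
    exact dvd_sub (hqN.trans h11) (hqN.trans h00)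
  have hdet := s59u_det_eq g
  have hdet' : (g 0 0 + n * g 1 0) * (g 1 1 - n * g 1 0)
      - (b' + n * e - n ^ 2 * c₁) * ((q : ℤ) * g 1 0) = 1 := by
    have h2 : g 1 1 = g 0 0 + q * e := by linear_combination he
    rw [hb', hc₁, h2] at hdet
    rw [hc₁, h2]
    linear_combination hdet
  refine ⟨⟨s59u_mk _ _ _ _ hdet', ?_⟩, ?_⟩
  · rw [s59u_mem_G]
    simp only [s59u_mk_10, s59u_mk_11]
    refine ⟨h10.mul_left _, ?_⟩
    have hDN : (D : ℤ) ∣ ((L₀ * q * q : ℕ) : ℤ) := Int.natCast_dvd_natCast.mpr (hD.mul_right q)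
    have h3 : g 1 1 - n * g 1 0 - 1 = (g 1 1 - 1) - n * g 1 0 := by ring
    rw [h3]
    exact dvd_sub (hDN.trans h11) ((hDN.trans h10).mul_left _)
  · rw [s59u_mk_coe, s59u_coe_eq g]
    have h2 : g 1 1 = g 0 0 + q * e := by linear_combination he
    ext i j
    fin_cases i <;> fin_cases j <;>
      simp [s59u_beta, Matrix.mul_apply, Fin.sum_univ_two] <;>
      first
        | ring1
        | (rw [hb', hc₁, h2]; ring1)

variable (hqD : q ∣ D)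

include hqD in
/-- `α_n` conjugates `Γ(L₀ q²)` into `K ≤ G`. -/
theorem s59u_exists_alpha {g : SL(2, ℤ)} (hg : g ∈ Gamma (L₀ * q * q)) (n : ℤ) :
    ∃ k : s59u_G (L₀ * q) D hD,
      s59u_alpha q n * (g : Mat2) = ((k : SL(2, ℤ)) : Mat2) * s59u_alpha q n := by
  obtain ⟨k', hk'⟩ := (s59u_twSetting hD hqD).norm n ⟨g, s59u_Gamma_le_K hD hg⟩
  exact ⟨Subgroup.inclusion (s59u_K_le_G hD) k', hk'⟩

/-- **the values of `Φ` on `K`.** -/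
theorem s59u_Phi_apply (χ : MulChar (ZMod q) F) (φ : Additive (s59u_G (L₀ * q) D hD) →+ F)
    (Φ : Additive (Gamma0 (L₀ * q * q)) →+ F)
    (hΦ : s59u_res (s59u_G_le_gamma0 (hD := hD.mul_right q)) F Φ
      = s59u_tw (s59u_twSetting hD hqD) χ⁻¹ (s59u_res (s59u_K_le_G hD) F φ))
    (k : s59u_G (L₀ * q * q) D (hD.mul_right q)) :
    Φ (Additive.ofMul (Subgroup.inclusion s59u_G_le_gamma0 k))
      = ∑ u : ZMod q, χ⁻¹ u * s59u_val φ (s59u_alpha q ((u.cast : ℤ))) (k : SL(2, ℤ)) := by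
  have h1 := DFunLike.congr_fun hΦ (Additive.ofMul k)
  rw [s59u_res_apply] at h1
  rw [h1, s59u_tw, AddMonoidHom.finsetSum_apply]
  refine Finset.sum_congr rfl fun u _ => ?_
  rw [AddMonoidHom.smul_apply, smul_eq_mul]
  congr 1
  obtain ⟨k', hk'⟩ := (s59u_twSetting hD hqD).norm (u.cast : ℤ) k
  rw [s59u_c, s59u_cZ, s59u_conj_apply_of _ _ _ k k' hk', s59u_res_apply]
  exact (s59u_val_eq φ (s59u_alpha_det_ne (NeZero.ne q) _)
    (Subgroup.inclusion (s59u_K_le_G hD) k') hk').symm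

end New

/-! ### The `α`-transfer -/

/-- the representatives of `cor_A` as elements of `SL(2, ℤ)`. -/
def s59u_rA (L₀ q : ℕ) (j : ZMod q) : SL(2, ℤ) := s59u_lo (((L₀ * q : ℕ) : ℤ) * (j.val : ℤ))

theorem s59u_rA_coe (L₀ q : ℕ) [Fact q.Prime] (j : ZMod q) :
    ((s59u_rA L₀ q j : SL(2, ℤ)) : Mat2) = s59u_rA2 (L₀ * q) q j := rfl

section NewA

variable {L₀ q D : ℕ} [NeZero L₀] [Fact q.Prime] {F : Type*} [Field F] (hD : D ∣ L₀ * q)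
  (hqD : q ∣ D)

/-- `cor_A Φ` on the deep subgroup. -/
theorem s59u_corA2_deep (χ : MulChar (ZMod q) F) (φ : Additive (s59u_G (L₀ * q) D hD) →+ F)
    (Φ : Additive (Gamma0 (L₀ * q * q)) →+ F)
    (hΦ : s59u_res (s59u_G_le_gamma0 (hD := hD.mul_right q)) F Φ
      = s59u_tw (s59u_twSetting hD hqD) χ⁻¹ (s59u_res (s59u_K_le_G hD) F φ))
    {g : SL(2, ℤ)} (hg : g ∈ Gamma (L₀ * q * q)) :
    s59u_corA2 (L₀ * q) q (dvd_mul_left q L₀) F Φ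
        (Additive.ofMul ⟨g, s59u_Gamma_le_gamma0 (dvd_mul_right _ _) hg⟩)
      = ∑ j : ZMod q, ∑ u : ZMod q, χ⁻¹ u *
          s59u_val φ (s59u_alpha q ((u.cast : ℤ)) * ((s59u_rA L₀ q j : SL(2, ℤ)) : Mat2)) g := by
  have hconj : ∀ j : ZMod q, s59u_rA L₀ q j * g * (s59u_rA L₀ q j)⁻¹ ∈ Gamma (L₀ * q * q) :=
    fun j => (Gamma_normal _).conj_mem g hg _
  let kk : ZMod q → s59u_G (L₀ * q * q) D (hD.mul_right q) :=
    fun j => ⟨_, s59u_Gamma_le_K hD (hconj j)⟩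
  rw [s59u_corA2_apply_of (L₀ * q) q _ Φ ⟨g, _⟩ id
    (fun j => Subgroup.inclusion s59u_G_le_gamma0 (kk j)) ?_]
  · refine Finset.sum_congr rfl fun j _ => ?_
    rw [s59u_Phi_apply hD hqD χ φ Φ hΦ (kk j)]
    refine Finset.sum_congr rfl fun u _ => ?_
    congr 1
    obtain ⟨k', hk'⟩ := s59u_exists_alpha hD hqD (hconj j) (u.cast : ℤ)
    rw [s59u_val_eq φ (s59u_alpha_det_ne (NeZero.ne q) _) k' hk',
      s59u_val_mul_right φ (s59u_alpha_det_ne (NeZero.ne q) _) k' hk']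
  · intro j
    show s59u_rA2 (L₀ * q) q j * (g : Mat2)
      = ((s59u_rA L₀ q j * g * (s59u_rA L₀ q j)⁻¹ : SL(2, ℤ)) : Mat2) * s59u_rA2 (L₀ * q) q j
    rw [← s59u_rA_coe, ← Matrix.SpecialLinearGroup.coe_mul, ← Matrix.SpecialLinearGroup.coe_mul,
      inv_mul_cancel_right]

end NewA

/-! ### Vanishing of the `α`-transfer -/

theorem s59u_rel_mul_right {m : Mat2} {g r k : SL(2, ℤ)}
    (h : m * ((r * g * r⁻¹ : SL(2, ℤ)) : Mat2) = (k : Mat2) * m) :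
    (m * (r : Mat2)) * (g : Mat2) = (k : Mat2) * (m * (r : Mat2)) := by
  have h1 : ((r * g * r⁻¹ : SL(2, ℤ)) : Mat2) * (r : Mat2) = (r : Mat2) * (g : Mat2) := by
    rw [← Matrix.SpecialLinearGroup.coe_mul, ← Matrix.SpecialLinearGroup.coe_mul,
      inv_mul_cancel_right]
  rw [Matrix.mul_assoc, ← h1, ← Matrix.mul_assoc, h, Matrix.mul_assoc]

section Arith

variable {q : ℕ} [Fact q.Prime]

theorem s59u_arith1 (u a j : ZMod q) (hv : 1 + u * a * j ≠ 0) :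
    u - u * (1 + u * a * j)⁻¹ * (1 + u * a * j) = 0 ∧
      (1 - u * (1 + u * a * j)⁻¹ * a * j) * (1 + u * a * j) = 1 := by
  have h1 : (1 + u * a * j)⁻¹ * (1 + u * a * j) = 1 := inv_mul_cancel₀ hv
  constructor
  · rw [mul_assoc, h1, mul_one, sub_self]
  · calc (1 - u * (1 + u * a * j)⁻¹ * a * j) * (1 + u * a * j)
        = (1 + u * a * j) - u * a * j * ((1 + u * a * j)⁻¹ * (1 + u * a * j)) := by ring
      _ = 1 := by rw [h1]; ring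

theorem s59u_arith2 (u a j : ZMod q) (ha : a ≠ 0) (hv : 1 + u * a * j = 0) :
    u - 1 * (1 + u * a * (j - -a⁻¹)) = 0 ∧ (1 - 1 * a * (j - -a⁻¹)) * u = 1 := by
  have h1 : a * a⁻¹ = 1 := mul_inv_cancel₀ ha
  have h2 : u * a * j = -1 := by linear_combination hv
  constructor
  · calc u - 1 * (1 + u * a * (j - -a⁻¹)) = u - 1 - u * a * j - u * (a * a⁻¹) := by ring
      _ = 0 := by rw [h1, h2]; ring
  · calc (1 - 1 * a * (j - -a⁻¹)) * u = u - u * a * j - (a * a⁻¹) * u := by ring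
      _ = 1 := by rw [h1, h2]; ring

end Arith

section NewA2

variable {L₀ q D : ℕ} [NeZero L₀] [Fact q.Prime] {F : Type*} [Field F] (hD : D ∣ L₀ * q)
  (hqD : q ∣ D)

theorem s59u_psi_eq (χ : MulChar (ZMod q) F) (ψ : ℤ → F)
    (hψχ : ∀ d : ℤ, IsCoprime d ((L₀ * q : ℕ) : ℤ) → ψ d * χ ((d : ℤ) : ZMod q) ^ 2 = 1)
    {σ : SL(2, ℤ)} (hσ : σ ∈ Gamma0 (L₀ * q)) (x : ZMod q)
    (hx : ((σ 1 1 : ℤ) : ZMod q) * x = 1) : ψ (σ 1 1) = χ x ^ 2 := by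
  have h1 := hψχ _ (s59u_coprime_lowerRight hσ)
  have h2 : χ ((σ 1 1 : ℤ) : ZMod q) * χ x = 1 := by rw [← map_mul, hx, map_one]
  calc ψ (σ 1 1) = ψ (σ 1 1) * (χ ((σ 1 1 : ℤ) : ZMod q) * χ x) ^ 2 := by
        rw [h2, one_pow, mul_one]
    _ = (ψ (σ 1 1) * χ ((σ 1 1 : ℤ) : ZMod q) ^ 2) * χ x ^ 2 := by ring
    _ = χ x ^ 2 := by rw [h1, one_mul]

/-- **The `α`-transfer of the twisted class vanishes.** -/
theorem s59u_corA2_new [CharZero F] (hcop : Nat.Coprime L₀ q) (χ : MulChar (ZMod q) F)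
    (hχ : χ ≠ 1) (ψ : ℤ → F)
    (hψχ : ∀ d : ℤ, IsCoprime d ((L₀ * q : ℕ) : ℤ) → ψ d * χ ((d : ℤ) : ZMod q) ^ 2 = 1)
    (φ : Additive (s59u_G (L₀ * q) D hD) →+ F) (hdiam : s59u_HasDiam ψ φ)
    (Φ : Additive (Gamma0 (L₀ * q * q)) →+ F)
    (hΦ : s59u_res (s59u_G_le_gamma0 (hD := hD.mul_right q)) F Φ
      = s59u_tw (s59u_twSetting hD hqD) χ⁻¹ (s59u_res (s59u_K_le_G hD) F φ)) :
    s59u_corA2 (L₀ * q) q (dvd_mul_left q L₀) F Φ = 0 := by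
  have hle : Gamma (L₀ * q * q) ≤ Gamma0 (L₀ * q) := s59u_Gamma_le_gamma0 (dvd_mul_right _ _)
  have hidx : (Gamma (L₀ * q * q)).index ≠ 0 := Subgroup.FiniteIndex.index_ne_zero
  apply s59u_res_injective (A := F) hle hidx
  rw [map_zero]
  refine AddMonoidHom.ext fun g => ?_
  obtain ⟨⟨g, hg⟩, rfl⟩ := Additive.ofMul.surjective g
  rw [s59u_res_apply, AddMonoidHom.zero_apply]
  show s59u_corA2 _ _ _ F Φ (Additive.ofMul ⟨g, _⟩) = 0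
  rw [s59u_corA2_deep hD hqD χ φ Φ hΦ hg]
  have ha : ((L₀ : ℕ) : ZMod q) ≠ 0 := by
    intro h
    rw [ZMod.natCast_eq_zero_iff] at h
    exact (Nat.Prime.coprime_iff_not_dvd Fact.out).mp hcop.symm h
  have hdα : ∀ n : ℤ, (s59u_alpha q n).det ≠ 0 := fun n => s59u_alpha_det_ne (NeZero.ne q) n
  refine s59u_combA χ hχ ((L₀ : ℕ) : ZMod q) ha
    (fun u j => s59u_val φ (s59u_alpha q ((u.cast : ℤ))
      * ((s59u_rA L₀ q j : SL(2, ℤ)) : Mat2)) g)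
    (fun w => s59u_val φ (s59u_alpha q ((w.cast : ℤ))) g)
    (s59u_val φ (s59u_alpha q 1
      * ((s59u_rA L₀ q (-((L₀ : ℕ) : ZMod q)⁻¹) : SL(2, ℤ)) : Mat2)) g) ?_ ?_
  · intro u j hv
    obtain ⟨e1, e2⟩ := s59u_arith1 u ((L₀ : ℕ) : ZMod q) j hv
    have hdvd : (q : ℤ) ∣ (u.cast : ℤ)
        - ((u * (1 + u * ((L₀ : ℕ) : ZMod q) * j)⁻¹ : ZMod q).cast : ℤ)
          * (1 + (u.cast : ℤ) * L₀ * (j.val : ℤ)) := by
      rw [← ZMod.intCast_zmod_eq_zero_iff_dvd]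
      push_cast
      simp only [ZMod.natCast_zmod_val]
      exact e1
    obtain ⟨b, hb⟩ := hdvd
    obtain ⟨σ, hσ, hσ11, hrel⟩ := s59u_alpha_lo L₀ q (u.cast : ℤ)
      ((u * (1 + u * ((L₀ : ℕ) : ZMod q) * j)⁻¹ : ZMod q).cast : ℤ) (j.val : ℤ) b
      (((L₀ * q : ℕ) : ℤ) * (j.val : ℤ)) (by push_cast; ring) hb.symm
    obtain ⟨k, hk⟩ := s59u_exists_alpha hD hqD hg
      ((u * (1 + u * ((L₀ : ℕ) : ZMod q) * j)⁻¹ : ZMod q).cast : ℤ)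
    rw [s59u_rA, hrel, s59u_val_mul_left ψ φ hdiam (hdα _) k hk hσ, s59u_val_eq φ (hdα _) k hk]
    congr 1
    refine s59u_psi_eq χ ψ hψχ hσ _ ?_
    rw [hσ11]
    push_cast
    simp only [ZMod.natCast_zmod_val]
    exact e2
  · intro u j hv
    obtain ⟨e1, e2⟩ := s59u_arith2 u ((L₀ : ℕ) : ZMod q) j ha hv
    have hdvd : (q : ℤ) ∣ (u.cast : ℤ) - 1 * (1 + (u.cast : ℤ) * L₀
        * ((j.val : ℤ) - ((-((L₀ : ℕ) : ZMod q)⁻¹ : ZMod q).val : ℤ))) := by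
      rw [← ZMod.intCast_zmod_eq_zero_iff_dvd]
      push_cast
      simp only [ZMod.natCast_zmod_val]
      exact e1
    obtain ⟨b, hb⟩ := hdvd
    obtain ⟨σ, hσ, hσ11, hrel⟩ := s59u_alpha_lo L₀ q (u.cast : ℤ) 1
      ((j.val : ℤ) - ((-((L₀ : ℕ) : ZMod q)⁻¹ : ZMod q).val : ℤ)) b _ rfl hb.symm
    have hlo : s59u_lo ((L₀ : ℤ) * q
        * ((j.val : ℤ) - ((-((L₀ : ℕ) : ZMod q)⁻¹ : ZMod q).val : ℤ)))
        * s59u_rA L₀ q (-((L₀ : ℕ) : ZMod q)⁻¹) = s59u_rA L₀ q j := by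
      rw [s59u_rA, s59u_rA, s59u_lo_mul]
      congr 1
      push_cast
      ring
    have hmat : s59u_alpha q ((u.cast : ℤ)) * ((s59u_rA L₀ q j : SL(2, ℤ)) : Mat2)
        = (σ : Mat2) * (s59u_alpha q 1
          * ((s59u_rA L₀ q (-((L₀ : ℕ) : ZMod q)⁻¹) : SL(2, ℤ)) : Mat2)) := by
      rw [← hlo, Matrix.SpecialLinearGroup.coe_mul, ← Matrix.mul_assoc, hrel, Matrix.mul_assoc]
    have hconj := (Gamma_normal _).conj_mem g hg (s59u_rA L₀ q (-((L₀ : ℕ) : ZMod q)⁻¹))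
    obtain ⟨k, hk⟩ := s59u_exists_alpha hD hqD hconj 1
    have hk' := s59u_rel_mul_right hk
    have hdet : (s59u_alpha q 1
        * ((s59u_rA L₀ q (-((L₀ : ℕ) : ZMod q)⁻¹) : SL(2, ℤ)) : Mat2)).det ≠ 0 := by
      rw [Matrix.det_mul, Matrix.SpecialLinearGroup.det_coe, mul_one]
      exact hdα 1
    rw [hmat, s59u_val_mul_left ψ φ hdiam hdet k hk' hσ, s59u_val_eq φ hdet k hk']
    congr 1
    refine s59u_psi_eq χ ψ hψχ hσ _ ?_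
    rw [hσ11]
    push_cast
    simp only [ZMod.natCast_zmod_val]
    exact e2

end NewA2

/-! ### Vanishing of the `β`-transfer -/

section NewB

variable {L₀ q D : ℕ} [NeZero L₀] [Fact q.Prime] {F : Type*} [Field F] (hD : D ∣ L₀ * q)
  (hqD : q ∣ D)

theorem s59u_beta_det_ne (n : ℤ) : (s59u_beta q n).det ≠ 0 := by
  rw [s59u_beta_det]
  exact s59u_q_ne_zero q

/-- `(1 n; 0 q)` conjugates `Γ(L₀ q²)` into `G`. -/
theorem s59u_exists_beta {g : SL(2, ℤ)} (hg : g ∈ Gamma (L₀ * q * q)) (n : ℤ) :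
    ∃ k : s59u_G (L₀ * q) D hD,
      s59u_beta q n * (g : Mat2) = ((k : SL(2, ℤ)) : Mat2) * s59u_beta q n := by
  obtain ⟨k', hk'⟩ := s59u_beta_norm hD hg n
  exact ⟨Subgroup.inclusion (s59u_K_le_G hD) k', hk'⟩

/-- `cor_B Φ` on the deep subgroup. -/
theorem s59u_corB2_deep (χ : MulChar (ZMod q) F) (φ : Additive (s59u_G (L₀ * q) D hD) →+ F)
    (Φ : Additive (Gamma0 (L₀ * q * q)) →+ F)
    (hΦ : s59u_res (s59u_G_le_gamma0 (hD := hD.mul_right q)) F Φ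
      = s59u_tw (s59u_twSetting hD hqD) χ⁻¹ (s59u_res (s59u_K_le_G hD) F φ))
    {g : SL(2, ℤ)} (hg : g ∈ Gamma (L₀ * q * q)) :
    s59u_corB2 (L₀ * q) q (dvd_mul_left q L₀) F Φ
        (Additive.ofMul ⟨g, s59u_Gamma_le_gamma0 (dvd_mul_right _ _) hg⟩)
      = ∑ j : ZMod q, ∑ u : ZMod q, χ⁻¹ u *
          s59u_val φ (s59u_beta q ((j.val : ℤ) + (u.cast : ℤ))) g := by
  choose kk hkk using fun j : ZMod q => s59u_beta_norm hD hg (j.val : ℤ)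
  rw [s59u_corB2_apply_of (L₀ * q) q _ Φ ⟨g, _⟩ id
    (fun j => Subgroup.inclusion s59u_G_le_gamma0 (kk j)) (fun j => hkk j)]
  refine Finset.sum_congr rfl fun j _ => ?_
  rw [s59u_Phi_apply hD hqD χ φ Φ hΦ (kk j)]
  refine Finset.sum_congr rfl fun u _ => ?_
  congr 1
  obtain ⟨k', hk'⟩ := (s59u_twSetting hD hqD).norm (u.cast : ℤ) (kk j)
  obtain ⟨k'', hk''⟩ := s59u_exists_beta hD hg ((j.val : ℤ) + (u.cast : ℤ))
  have hdX : (s59u_alpha q ((u.cast : ℤ)) * s59u_beta q (j.val : ℤ)).det ≠ 0 := by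
    rw [Matrix.det_mul]
    exact mul_ne_zero (s59u_alpha_det_ne (NeZero.ne q) _) (s59u_beta_det_ne _)
  have hX1 : (s59u_alpha q ((u.cast : ℤ)) * s59u_beta q (j.val : ℤ)) * (g : Mat2)
      = (((Subgroup.inclusion (s59u_K_le_G hD) k' : s59u_G (L₀ * q) D hD) : SL(2, ℤ)) : Mat2)
        * (s59u_alpha q ((u.cast : ℤ)) * s59u_beta q (j.val : ℤ)) := by
    rw [Matrix.mul_assoc, hkk j, ← Matrix.mul_assoc, hk', Matrix.mul_assoc]
    rfl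
  have hX2 : (s59u_alpha q ((u.cast : ℤ)) * s59u_beta q (j.val : ℤ)) * (g : Mat2)
      = ((k'' : SL(2, ℤ)) : Mat2)
        * (s59u_alpha q ((u.cast : ℤ)) * s59u_beta q (j.val : ℤ)) := by
    rw [s59u_alpha_beta, Matrix.smul_mul, hk'', Matrix.mul_smul]
  rw [s59u_val_eq φ (s59u_alpha_det_ne (NeZero.ne q) _)
      (Subgroup.inclusion (s59u_K_le_G hD) k') hk',
    s59u_val_eq φ (s59u_beta_det_ne _) k'' hk'', ← s59u_val_eq φ hdX _ hX1,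
    s59u_val_eq φ hdX _ hX2]

/-- **The `β`-transfer of the twisted class vanishes.** -/
theorem s59u_corB2_new [CharZero F] (χ : MulChar (ZMod q) F) (hχ : χ ≠ 1) (ψ : ℤ → F)
    (hψχ : ∀ d : ℤ, IsCoprime d ((L₀ * q : ℕ) : ℤ) → ψ d * χ ((d : ℤ) : ZMod q) ^ 2 = 1)
    (φ : Additive (s59u_G (L₀ * q) D hD) →+ F) (hdiam : s59u_HasDiam ψ φ)
    (Φ : Additive (Gamma0 (L₀ * q * q)) →+ F)
    (hΦ : s59u_res (s59u_G_le_gamma0 (hD := hD.mul_right q)) F Φ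
      = s59u_tw (s59u_twSetting hD hqD) χ⁻¹ (s59u_res (s59u_K_le_G hD) F φ)) :
    s59u_corB2 (L₀ * q) q (dvd_mul_left q L₀) F Φ = 0 := by
  have hle : Gamma (L₀ * q * q) ≤ Gamma0 (L₀ * q) := s59u_Gamma_le_gamma0 (dvd_mul_right _ _)
  have hidx : (Gamma (L₀ * q * q)).index ≠ 0 := Subgroup.FiniteIndex.index_ne_zero
  apply s59u_res_injective (A := F) hle hidx
  rw [map_zero]
  refine AddMonoidHom.ext fun g => ?_
  obtain ⟨⟨g, hg⟩, rfl⟩ := Additive.ofMul.surjective g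
  rw [s59u_res_apply, AddMonoidHom.zero_apply]
  show s59u_corB2 _ _ _ F Φ (Additive.ofMul ⟨g, _⟩) = 0
  rw [s59u_corB2_deep hD hqD χ φ Φ hΦ hg]
  have hψ1 : ψ 1 = 1 := by
    have h1 := hψχ 1 isCoprime_one_left
    rw [Int.cast_one, map_one, one_pow, mul_one] at h1
    exact h1
  have hY : ∀ n : ℤ, s59u_val φ (s59u_beta q n) g
      = s59u_val φ (s59u_beta q ((((n : ℤ) : ZMod q).val : ℤ))) g := by
    intro n
    obtain ⟨m, hm⟩ : (q : ℤ) ∣ n - ((((n : ℤ) : ZMod q).val : ℕ) : ℤ) := by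
      rw [← ZMod.intCast_zmod_eq_zero_iff_dvd]
      push_cast
      rw [ZMod.natCast_zmod_val, sub_self]
    have hn : n = ((((n : ℤ) : ZMod q).val : ℕ) : ℤ) + q * m := by linear_combination hm
    obtain ⟨k, hk⟩ := s59u_exists_beta hD hg ((((n : ℤ) : ZMod q).val : ℕ) : ℤ)
    have hT : (s59u_mk 1 m 0 1 (by ring) : SL(2, ℤ)) ∈ Gamma0 (L₀ * q) := by
      rw [s59u_gamma0_iff]
      simp
    conv_lhs => rw [hn, s59u_beta_add]
    rw [s59u_val_mul_left ψ φ hdiam (s59u_beta_det_ne _) k hk hT,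
      s59u_val_eq φ (s59u_beta_det_ne _) k hk, s59u_mk_11, hψ1, one_mul]
  have hcast : ∀ j u : ZMod q, ((((j.val : ℤ) + (u.cast : ℤ) : ℤ)) : ZMod q) = j + u := by
    intro j u
    push_cast
    simp
  rw [Finset.sum_congr rfl fun j _ => Finset.sum_congr rfl fun u _ => by
    rw [hY ((j.val : ℤ) + (u.cast : ℤ)), hcast j u]]
  exact s59u_combB χ hχ (fun x => s59u_val φ (s59u_beta q ((x.val : ℕ) : ℤ)) g)

end NewB

/-! ### The last twist step, with the `q`-new conclusion -/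

section NewStep

variable {L₀ q D : ℕ} [NeZero L₀] [Fact q.Prime] {F : Type*} [Field F] [CharZero F]

/-- **The twist step, `q`-new form.**  From a state on `G(L₀ q, D)` with diamond character `ψ`,
`ψ χ² = 1`, `χ² ≠ 1`: a nonzero parabolic class `Φ` on `Γ₀(L₀ q²)` with the twisted eigenvalues
`χ(ℓ) x_ℓ`, killed by both transfers to the level `L₀ q`. -/
theorem s59u_new_step (hqD : q ∣ D) (hcop : Nat.Coprime L₀ q) (χ : MulChar (ZMod q) F)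
    (hχ2 : χ ^ 2 ≠ 1) (ψ : ℤ → F) (x : ℕ → F)
    (hψper : ∀ a b : ℤ, ((L₀ * q : ℕ) : ℤ) ∣ a - b → ψ a = ψ b)
    (hψχ : ∀ d : ℤ, IsCoprime d ((L₀ * q : ℕ) : ℤ) → ψ d * χ ((d : ℤ) : ZMod q) ^ 2 = 1)
    (h : s59u_St D F (L₀ * q) ψ x) :
    ∃ Φ : Additive (Gamma0 (L₀ * q * q)) →+ F, Φ ≠ 0 ∧
      IsParabolicHom (Gamma0 (L₀ * q * q)) Φ ∧
      (∀ (ℓ : ℕ) [Fact ℓ.Prime], ¬ ℓ ∣ L₀ * q * q →
        s29h_heckeHom (L₀ * q * q) ℓ F Φ = (χ (ℓ : ZMod q) * x ℓ) • Φ) ∧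
      s59u_corA2 (L₀ * q) q (dvd_mul_left q L₀) F Φ = 0 ∧
      s59u_corB2 (L₀ * q) q (dvd_mul_left q L₀) F Φ = 0 := by
  have hχ1 : χ ≠ 1 := by
    rintro rfl
    exact hχ2 (one_pow 2)
  -- a unit where `ψ ≠ 1`
  obtain ⟨a, ha⟩ := MulChar.ne_one_iff.mp hχ2
  rw [MulChar.pow_apply_coe] at ha
  obtain ⟨d, hd1, hda⟩ := s59u_exists_d L₀ q hcop (a : ZMod q)
  have hdq : IsCoprime d (q : ℤ) := by
    have hu : IsUnit ((d : ℤ) : ZMod q) := hda ▸ a.isUnit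
    exact ((ZMod.coe_int_isUnit_iff_isCoprime d q).mp hu).symm
  have hdL : IsCoprime d ((L₀ * q : ℕ) : ℤ) := by
    push_cast
    exact (s59u_isCoprime_of_dvd_sub_one hd1).mul_right hdq
  have hψd : ψ d ≠ 1 := by
    intro h7
    have h6 := hψχ d hdL
    rw [h7, one_mul, hda] at h6
    exact ha h6
  have hψ : ∃ d : ℤ, (L₀ : ℤ) ∣ d - 1 ∧ IsCoprime d (q : ℤ) ∧ ψ d ≠ 1 := ⟨d, hd1, hdq, hψd⟩
  obtain ⟨hD, φ, h0, hpar, hdiam, heig⟩ := h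
  set φ' := s59u_tw (s59u_twSetting hD hqD) χ⁻¹ (s59u_res (s59u_K_le_G hD) F φ) with hφ'
  have hφ'0 : φ' ≠ 0 := fun h => h0 (s59u_tw_injective hD hqD χ hχ1 ψ hψper hψ φ hdiam h)
  have hφ'par : IsParabolicHom _ φ' :=
    s59u_tw_isParabolic _ _ (s59u_res_isParabolic (s59u_K_le_G hD) hpar)
  have hφ'diam := s59u_diam_tw hD hqD χ ψ hψper φ hdiam
  have hφ'eig : ∀ (ℓ : ℕ) [Fact ℓ.Prime] (hℓ : ¬ ℓ ∣ L₀ * q * q) (σ : SL(2, ℤ))
      (hσ : σ ∈ Gamma0 (L₀ * q * q))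
      (hσ11 : ((σ 1 1 : ℤ) : ZMod (L₀ * q * q)) = (ℓ : ZMod (L₀ * q * q))),
      s48h_TpH (s59u_ker (L₀ * q * q) D (hD.mul_right q)) hℓ σ hσ hσ11 F φ'
        = (χ (ℓ : ZMod q) * x ℓ) • φ' := by
    intro ℓ _ hℓ σ hσ hσ11
    have hℓ' : ¬ ℓ ∣ L₀ * q := fun h => hℓ (h.mul_right q)
    have hσ' : σ ∈ Gamma0 (L₀ * q) := s59u_gamma0_mono (dvd_mul_right _ _) hσ
    have hσ11' := s59u_cast_lowerRight (dvd_mul_right (L₀ * q) q) hσ11
    have h1 := s59u_res_Tp (dvd_mul_right (L₀ * q) q) (hD := hD) (hD' := hD.mul_right q) hℓ' hℓ σ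
      hσ' hσ11' hσ hσ11 φ
    rw [heig ℓ hℓ' σ hσ' hσ11', s59u_res_smul] at h1
    rw [hφ', s59u_Tp_tw hD hqD hℓ σ hσ hσ11 χ]
    have h2 : s48h_TpH (s59u_ker (L₀ * q * q) D (hD.mul_right q)) hℓ σ hσ hσ11 F
        (s59u_res (s59u_K_le_G hD) F φ) = x ℓ • s59u_res (s59u_K_le_G hD) F φ := h1.symm
    rw [h2, s59u_tw_smul, smul_smul]
  obtain ⟨Φ, hΦ⟩ := s59u_ext φ' (fun σ hσ => by
    rw [hφ'diam σ hσ]
    beta_reduce
    rw [hψχ _ ((s59u_coprime_lowerRight hσ).of_isCoprime_of_dvd_right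
      (Int.natCast_dvd_natCast.mpr (dvd_mul_right _ _))), one_smul])
  have hinj := s59u_res_injective (A := F) (s59u_G_le_gamma0 (hD := hD.mul_right q))
    s59u_G_index_ne_zero
  refine ⟨Φ, ?_, ?_, ?_, s59u_corA2_new hD hqD hcop χ hχ1 ψ hψχ φ hdiam Φ hΦ,
    s59u_corB2_new hD hqD χ hχ1 ψ hψχ φ hdiam Φ hΦ⟩
  · rintro rfl
    rw [map_zero] at hΦ
    exact hφ'0 hΦ.symm
  · exact s59u_parabolic_of_res (s59u_G_le_gamma0 (hD := hD.mul_right q)) s59u_G_index_ne_zero Φ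
      (by rw [hΦ]; exact hφ'par)
  · intro ℓ _ hℓ
    obtain ⟨σ, hσ, hσ11⟩ := s48h_exists_sigma_p (M := L₀ * q * q) hℓ
    apply hinj
    have h1 := s59u_res_s29h (s59u_ker (L₀ * q * q) D (hD.mul_right q)) hℓ σ hσ hσ11 Φ
    have h2 : s59u_res (s48h_GammaH_le_Gamma0 (H := s59u_ker (L₀ * q * q) D (hD.mul_right q))) F Φ
        = φ' := hΦ
    rw [h2, hφ'eig ℓ hℓ σ hσ hσ11] at h1
    rw [s59u_res_smul, hΦ]
    exact h1

end NewStep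

/-! ### The twist contract, `q₀`-new form -/

section MainNew

variable (N : ℕ) [NeZero N] (Q : Finset ℕ)

/-- **THE TWIST CONTRACT, `q₀`-NEW FORM.**  In the setting of `s59u_TwistES`, let `q₀ ∈ Q` with
`χ_{q₀}² ≠ 1` and `M' = N ∏_{q ∈ Q ∖ q₀} q²`.  Then there is a nonzero parabolic class `Φ` on
`Γ₀(M' q₀²)` with `T_ℓ Φ = (∏_q χ_q(ℓ)) x_ℓ Φ` for all primes `ℓ ∤ M' q₀²` which is killed by both
transfers `s59u_corA2`, `s59u_corB2` to the level `M' q₀`. -/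
theorem s59u_TwistNew (hQ : ∀ q ∈ Q, q.Prime ∧ ¬ q ∣ N)
    (H : Subgroup (ZMod (N * ∏ q ∈ Q, q))ˣ)
    (hH : s59u_ker (N * ∏ q ∈ Q, q) (∏ q ∈ Q, q) (dvd_mul_left _ _) ≤ H)
    (χ : ∀ q : ℕ, MulChar (ZMod q) ℂ) (hχ : ∀ q ∈ Q, χ q = 1 ∨ (χ q) ^ 2 ≠ 1)
    (ψ : ℤ → ℂ) (hψper : ∀ a b : ℤ, ((N * ∏ q ∈ Q, q : ℕ) : ℤ) ∣ a - b → ψ a = ψ b)
    (hψχ : ∀ d : ℤ, IsCoprime d ((N * ∏ q ∈ Q, q : ℕ) : ℤ) →
      ψ d * ∏ q ∈ Q, (χ q ((d : ℤ) : ZMod q)) ^ 2 = 1)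
    (x : ℕ → ℂ) (φ : Additive (s48h_GammaH (N * ∏ q ∈ Q, q) H) →+ ℂ) (hφ0 : φ ≠ 0)
    (hpar : IsParabolicHom (s48h_GammaH (N * ∏ q ∈ Q, q) H) φ)
    (hdiam : ∀ (σ : SL(2, ℤ)) (hσ : σ ∈ Gamma0 (N * ∏ q ∈ Q, q)),
      s48h_diamondH H σ hσ ℂ φ = ψ (σ 1 1) • φ)
    (heig : ∀ (ℓ : ℕ) [Fact ℓ.Prime] (hℓ : ¬ ℓ ∣ N * ∏ q ∈ Q, q) (σ : SL(2, ℤ))
      (hσ : σ ∈ Gamma0 (N * ∏ q ∈ Q, q))
      (hσ11 : ((σ 1 1 : ℤ) : ZMod (N * ∏ q ∈ Q, q)) = (ℓ : ZMod (N * ∏ q ∈ Q, q))),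
      s48h_TpH H hℓ σ hσ hσ11 ℂ φ = x ℓ • φ)
    (q₀ : ℕ) [Fact q₀.Prime] (hq₀ : q₀ ∈ Q) (hχq₀ : (χ q₀) ^ 2 ≠ 1)
    (M' : ℕ) [NeZero M'] (hM' : M' = N * (∏ q ∈ Q.erase q₀, q) * ∏ q ∈ Q.erase q₀, q) :
    ∃ Φ : Additive (Gamma0 (M' * q₀ * q₀)) →+ ℂ, Φ ≠ 0 ∧
      IsParabolicHom (Gamma0 (M' * q₀ * q₀)) Φ ∧
      (∀ (ℓ : ℕ) [Fact ℓ.Prime], ¬ ℓ ∣ M' * q₀ * q₀ →
        s29h_heckeHom (M' * q₀ * q₀) ℓ ℂ Φ = ((∏ q ∈ Q, χ q (ℓ : ZMod q)) * x ℓ) • Φ) ∧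
      s59u_corA2 (M' * q₀) q₀ (dvd_mul_left q₀ M') ℂ Φ = 0 ∧
      s59u_corB2 (M' * q₀) q₀ (dvd_mul_left q₀ M') ℂ Φ = 0 := by
  classical
  have hP : ∏ q ∈ Q, q ≠ 0 := s59u_prod_ne_zero N Q hQ Q (Finset.Subset.refl Q)
  haveI : NeZero (N * ∏ q ∈ Q, q) := ⟨mul_ne_zero (NeZero.ne N) hP⟩
  have h0 := s59u_St_init (dvd_mul_left (∏ q ∈ Q, q) N) H hH ψ x φ hφ0 hpar hdiam heig
  have hSQ : Q.erase q₀ ⊆ Q := Finset.erase_subset _ _
  have h1 := s59u_TwistES_aux N Q hQ χ hχ ψ hψper hψχ x h0 (Q.erase q₀) hSQ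
  have hQq : q₀ * ∏ q' ∈ Q.erase q₀, q' = ∏ q' ∈ Q, q' :=
    Finset.mul_prod_erase Q (fun q' => q') hq₀
  have hLev : N * (∏ q ∈ Q, q) * ∏ q ∈ Q.erase q₀, q = M' * q₀ := by
    rw [hM', ← hQq]; ring
  rw [hLev] at h1
  have hqD : q₀ ∣ ∏ q' ∈ Q, q' := Finset.dvd_prod_of_mem (fun q' => q') hq₀
  have hcop : Nat.Coprime M' q₀ := by
    rw [hM']
    exact s59u_coprime_L0 N Q hQ (Q.erase q₀) hSQ hq₀ (Finset.notMem_erase q₀ Q)
  have hMdvd : N * (∏ q' ∈ Q, q') ∣ M' * q₀ := ⟨∏ q' ∈ Q.erase q₀, q', hLev.symm⟩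
  have hper : ∀ a b : ℤ, ((M' * q₀ : ℕ) : ℤ) ∣ a - b →
      (fun d => ψ d * ∏ q' ∈ Q.erase q₀, (χ q' ((d : ℤ) : ZMod q')) ^ 2) a
        = (fun d => ψ d * ∏ q' ∈ Q.erase q₀, (χ q' ((d : ℤ) : ZMod q')) ^ 2) b := by
    intro a b hab
    show ψ a * _ = ψ b * _
    rw [hψper a b ((Int.natCast_dvd_natCast.mpr hMdvd).trans hab)]
    congr 1
    refine Finset.prod_congr rfl fun q' hq' => ?_
    have hq'L : q' ∣ M' * q₀ :=
      ((Finset.dvd_prod_of_mem (fun q' => q') (hSQ hq')).trans (dvd_mul_left _ N)).trans hMdvd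
    have : ((a : ℤ) : ZMod q') = ((b : ℤ) : ZMod q') := by
      have h3 : (((a - b : ℤ)) : ZMod q') = 0 :=
        (ZMod.intCast_zmod_eq_zero_iff_dvd _ _).mpr
          ((Int.natCast_dvd_natCast.mpr hq'L).trans hab)
      push_cast at h3
      exact sub_eq_zero.mp h3
    rw [this]
  have hψχ' : ∀ d : ℤ, IsCoprime d ((M' * q₀ : ℕ) : ℤ) →
      (fun d => ψ d * ∏ q' ∈ Q.erase q₀, (χ q' ((d : ℤ) : ZMod q')) ^ 2) d
        * χ q₀ ((d : ℤ) : ZMod q₀) ^ 2 = 1 := by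
    intro d hd
    have h6 := hψχ d (hd.of_isCoprime_of_dvd_right (Int.natCast_dvd_natCast.mpr hMdvd))
    rw [← Finset.mul_prod_erase Q _ hq₀] at h6
    show ψ d * _ * _ = 1
    rw [← h6]
    ring
  obtain ⟨Φ, hΦ0, hΦpar, hΦeig, hA, hB⟩ :=
    s59u_new_step hqD hcop (χ q₀) hχq₀ _ _ hper hψχ' h1
  refine ⟨Φ, hΦ0, hΦpar, fun ℓ _ hℓ => ?_, hA, hB⟩
  rw [hΦeig ℓ hℓ]
  congr 1
  rw [← Finset.mul_prod_erase Q _ hq₀]
  ring

end MainNew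

end Fermat.Agent.Lib.S59
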