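/-
Programme (R) = S59, node (H4′)/(NN)-2 (helper3), file T7: **the `q₀`-new twist contract over an
arbitrary field of characteristic zero, and over a domain of characteristic zero.**

`s59u_TwistES_aux`/`s59u_TwistNew` (UTwES.lean, UNew.lean) were stated over `ℂ`; nothing in their
proofs uses `ℂ`.  Here:
* `s59u_TwistES_auxF`, `s59u_TwistNewF` : the same over any field `F` of characteristic zero;
* `s59u_TwistNew_int` : **the integral form**: `R` a domain of characteristic zero (e.g. the ring of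
  integers `𝒪'` of a finite extension of `ℚ_p`), all data (`χ_q`, `ψ`, `x`, the class `φ` on `Γ_H`)
  with values in `R`  ⟹  a nonzero parabolic `R`-valued class `Φ` on `Γ₀(M' q₀²)` with
  `T_ℓ Φ = (∏_q χ_q(ℓ)) x_ℓ Φ`, `cor_A2 Φ = 0 = cor_B2 Φ` — exactly the hypotheses of helper2's
  `s59b_hnew` (BNEig.lean).  No complex numbers anywhere.
-/
import Mathlib
import Fermat.Agent.Lib.S59.UNew
import Fermat.Agent.Lib.S59.UInt

set_option autoImplicit false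
set_option linter.unusedSectionVars false
set_option linter.style.haveILetI false
set_option linter.unnecessarySeqFocus false

noncomputable section

namespace Fermat.Agent.Lib.S59

open Fermat.Agent.Lib.S48 Fermat.Agent.Lib.ES Fermat.Agent.Lib.S29 Fermat.Agent.Lib.S41
  CongruenceSubgroup ModularCurve.Period
open scoped MatrixGroups

local notation "Mat2" => Matrix (Fin 2) (Fin 2) ℤ

section MainNewF

variable (N : ℕ) [NeZero N] (Q : Finset ℕ) {F : Type*} [Field F] [CharZero F]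

/-- `s59u_TwistES_aux` over an arbitrary field of characteristic zero. -/
theorem s59u_TwistES_auxF (hQ : ∀ q ∈ Q, q.Prime ∧ ¬ q ∣ N)
    (χ : ∀ q : ℕ, MulChar (ZMod q) F) (hχ : ∀ q ∈ Q, χ q = 1 ∨ (χ q) ^ 2 ≠ 1)
    (ψ : ℤ → F) (hψper : ∀ a b : ℤ, ((N * ∏ q ∈ Q, q : ℕ) : ℤ) ∣ a - b → ψ a = ψ b)
    (hψχ : ∀ d : ℤ, IsCoprime d ((N * ∏ q ∈ Q, q : ℕ) : ℤ) →
      ψ d * ∏ q ∈ Q, (χ q ((d : ℤ) : ZMod q)) ^ 2 = 1)
    (x : ℕ → F) (h0 : s59u_St (∏ q ∈ Q, q) F (N * ∏ q ∈ Q, q) ψ x) :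
    ∀ S : Finset ℕ, S ⊆ Q → s59u_St (∏ q ∈ Q, q) F (N * (∏ q ∈ Q, q) * ∏ q ∈ S, q)
      (fun d => ψ d * ∏ q ∈ S, (χ q ((d : ℤ) : ZMod q)) ^ 2)
      (fun ℓ => (∏ q ∈ S, χ q (ℓ : ZMod q)) * x ℓ) := by
  classical
  intro S
  induction S using Finset.induction_on with
  | empty =>
    intro _
    simpa using h0
  | insert q S hqS ih =>
    intro hsub
    have hqQ : q ∈ Q := hsub (Finset.mem_insert_self q S)
    have hSQ : S ⊆ Q := fun a ha => hsub (Finset.mem_insert_of_mem ha)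
    have ih' := ih hSQ
    haveI : Fact q.Prime := ⟨(hQ q hqQ).1⟩
    set L₀ : ℕ := N * (∏ q' ∈ Q.erase q, q') * ∏ q' ∈ S, q' with hL₀
    haveI : NeZero L₀ := ⟨mul_ne_zero (mul_ne_zero (NeZero.ne N)
      (s59u_prod_ne_zero N Q hQ _ (Finset.erase_subset _ _))) (s59u_prod_ne_zero N Q hQ S hSQ)⟩
    have hQq : q * ∏ q' ∈ Q.erase q, q' = ∏ q' ∈ Q, q' := Finset.mul_prod_erase Q (fun q' => q') hqQ
    have hLev : N * (∏ q ∈ Q, q) * ∏ q ∈ S, q = L₀ * q := by rw [hL₀, ← hQq]; ring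
    have hLev' : N * (∏ q ∈ Q, q) * ∏ q ∈ insert q S, q = L₀ * q * q := by
      rw [Finset.prod_insert hqS, ← hLev]; ring
    have hqD : q ∣ ∏ q' ∈ Q, q' := Finset.dvd_prod_of_mem (fun q' => q') hqQ
    have hcop : Nat.Coprime L₀ q := s59u_coprime_L0 N Q hQ S hSQ hqQ hqS
    rw [hLev] at ih'
    rw [hLev']
    -- values at units
    have hunit : ∀ d : ℤ, IsCoprime d ((L₀ * q * q : ℕ) : ℤ) → IsUnit ((d : ℤ) : ZMod q) :=
      fun d hd => s59u_isUnit_cast_of_isCoprime (dvd_mul_left q (L₀ * q)) hd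
    have hunitℓ : ∀ ℓ : ℕ, ℓ.Prime → ¬ ℓ ∣ L₀ * q * q → IsUnit ((ℓ : ℕ) : ZMod q) := by
      intro ℓ hℓ hℓL
      rw [ZMod.isUnit_iff_coprime]
      refine (Nat.coprime_primes hℓ (hQ q hqQ).1).mpr ?_
      rintro rfl
      exact hℓL (dvd_mul_left _ _)
    rcases hχ q hqQ with h1 | h2
    · -- restriction step
      refine s59u_St_congr (fun d hd => ?_) (fun ℓ hℓ hℓL => ?_) (s59u_St_step_res _ _ ih')
      · show ψ d * _ = ψ d * _
        rw [Finset.prod_insert hqS, h1, MulChar.one_apply (hunit d hd), one_pow, one_mul]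
      · show _ * x ℓ = _ * x ℓ
        rw [Finset.prod_insert hqS, h1, MulChar.one_apply (hunitℓ ℓ hℓ hℓL), one_mul]
    · -- twist step
      have hχ1 : χ q ≠ 1 := by
        rintro h
        rw [h, one_pow] at h2
        exact h2 rfl
      obtain ⟨a, ha⟩ := MulChar.ne_one_iff.mp h2
      rw [MulChar.pow_apply_coe] at ha
      obtain ⟨d, hd1, hda⟩ := s59u_exists_d L₀ q hcop (a : ZMod q)
      have hMdvd : N * (∏ q' ∈ Q, q') ∣ L₀ * q := ⟨∏ q' ∈ S, q', hLev.symm⟩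
      have hper : ∀ a b : ℤ, ((L₀ * q : ℕ) : ℤ) ∣ a - b →
          (fun d => ψ d * ∏ q' ∈ S, (χ q' ((d : ℤ) : ZMod q')) ^ 2) a
            = (fun d => ψ d * ∏ q' ∈ S, (χ q' ((d : ℤ) : ZMod q')) ^ 2) b := by
        intro a b hab
        show ψ a * _ = ψ b * _
        rw [hψper a b ((Int.natCast_dvd_natCast.mpr hMdvd).trans hab)]
        congr 1
        refine Finset.prod_congr rfl fun q' hq' => ?_
        have hq'L : q' ∣ L₀ * q :=
          (Finset.dvd_prod_of_mem (fun q' => q') hq').trans ⟨N * ∏ q' ∈ Q, q', by rw [← hLev]; ring⟩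
        have : ((a : ℤ) : ZMod q') = ((b : ℤ) : ZMod q') := by
          have h3 : (((a - b : ℤ)) : ZMod q') = 0 :=
            (ZMod.intCast_zmod_eq_zero_iff_dvd _ _).mpr
              ((Int.natCast_dvd_natCast.mpr hq'L).trans hab)
          push_cast at h3
          exact sub_eq_zero.mp h3
        rw [this]
      have hψd : ∃ d : ℤ, (L₀ : ℤ) ∣ d - 1 ∧ IsCoprime d (q : ℤ) ∧
          (fun d => ψ d * ∏ q' ∈ S, (χ q' ((d : ℤ) : ZMod q')) ^ 2) d ≠ 1 := by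
        refine ⟨d, hd1, ?_, ?_⟩
        · have hu : IsUnit ((d : ℤ) : ZMod q) := hda ▸ a.isUnit
          exact ((ZMod.coe_int_isUnit_iff_isCoprime d q).mp hu).symm
        · show ψ d * _ ≠ 1
          have hS1 : ∏ q' ∈ S, (χ q' ((d : ℤ) : ZMod q')) ^ 2 = 1 := by
            refine Finset.prod_eq_one fun q' hq' => ?_
            rw [s59u_cast_eq_one_of_dvd ((Finset.dvd_prod_of_mem (fun q' => q') hq').trans
              (dvd_mul_left _ _)) hd1, map_one, one_pow]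
          rw [hS1, mul_one]
          -- `ψ d * χ_q(a)² = 1`
          have hcopM : IsCoprime d ((N * ∏ q' ∈ Q, q' : ℕ) : ℤ) := by
            have h3 : IsCoprime d ((N * ∏ q' ∈ Q.erase q, q' : ℕ) : ℤ) :=
              s59u_isCoprime_of_dvd_sub_one
                ((Int.natCast_dvd_natCast.mpr (dvd_mul_right _ _)).trans hd1)
            have h4 : IsCoprime d (q : ℤ) := by
              have hu : IsUnit ((d : ℤ) : ZMod q) := hda ▸ a.isUnit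
              exact ((ZMod.coe_int_isUnit_iff_isCoprime d q).mp hu).symm
            have h5 : ((N * ∏ q' ∈ Q, q' : ℕ) : ℤ)
                = ((N * ∏ q' ∈ Q.erase q, q' : ℕ) : ℤ) * (q : ℤ) := by
              rw [← hQq]; push_cast; ring
            rw [h5]
            exact h3.mul_right h4
          have h6 := hψχ d hcopM
          rw [← Finset.mul_prod_erase Q _ hqQ] at h6
          have hE1 : ∏ q' ∈ Q.erase q, (χ q' ((d : ℤ) : ZMod q')) ^ 2 = 1 := by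
            refine Finset.prod_eq_one fun q' hq' => ?_
            rw [s59u_cast_eq_one_of_dvd (((Finset.dvd_prod_of_mem (fun q' => q') hq').trans
              (dvd_mul_left _ N)).trans (dvd_mul_right _ _)) hd1, map_one, one_pow]
          rw [hE1, mul_one, hda] at h6
          intro h7
          rw [h7, one_mul] at h6
          exact ha h6
      refine s59u_St_congr (fun d _ => ?_) (fun ℓ _ _ => ?_)
        (s59u_St_step_tw hqD (χ q) hχ1 _ _ hper hψd ih')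
      · show ψ d * _ * _ = ψ d * _
        rw [Finset.prod_insert hqS]
        ring
      · show _ * (_ * x ℓ) = _ * x ℓ
        rw [Finset.prod_insert hqS]
        ring


/-- **THE TWIST CONTRACT, `q₀`-NEW FORM, over an arbitrary field of characteristic zero.** -/
theorem s59u_TwistNewF (hQ : ∀ q ∈ Q, q.Prime ∧ ¬ q ∣ N)
    (H : Subgroup (ZMod (N * ∏ q ∈ Q, q))ˣ)
    (hH : s59u_ker (N * ∏ q ∈ Q, q) (∏ q ∈ Q, q) (dvd_mul_left _ _) ≤ H)
    (χ : ∀ q : ℕ, MulChar (ZMod q) F) (hχ : ∀ q ∈ Q, χ q = 1 ∨ (χ q) ^ 2 ≠ 1)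
    (ψ : ℤ → F) (hψper : ∀ a b : ℤ, ((N * ∏ q ∈ Q, q : ℕ) : ℤ) ∣ a - b → ψ a = ψ b)
    (hψχ : ∀ d : ℤ, IsCoprime d ((N * ∏ q ∈ Q, q : ℕ) : ℤ) →
      ψ d * ∏ q ∈ Q, (χ q ((d : ℤ) : ZMod q)) ^ 2 = 1)
    (x : ℕ → F) (φ : Additive (s48h_GammaH (N * ∏ q ∈ Q, q) H) →+ F) (hφ0 : φ ≠ 0)
    (hpar : IsParabolicHom (s48h_GammaH (N * ∏ q ∈ Q, q) H) φ)
    (hdiam : ∀ (σ : SL(2, ℤ)) (hσ : σ ∈ Gamma0 (N * ∏ q ∈ Q, q)),
      s48h_diamondH H σ hσ F φ = ψ (σ 1 1) • φ)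
    (heig : ∀ (ℓ : ℕ) [Fact ℓ.Prime] (hℓ : ¬ ℓ ∣ N * ∏ q ∈ Q, q) (σ : SL(2, ℤ))
      (hσ : σ ∈ Gamma0 (N * ∏ q ∈ Q, q))
      (hσ11 : ((σ 1 1 : ℤ) : ZMod (N * ∏ q ∈ Q, q)) = (ℓ : ZMod (N * ∏ q ∈ Q, q))),
      s48h_TpH H hℓ σ hσ hσ11 F φ = x ℓ • φ)
    (q₀ : ℕ) [Fact q₀.Prime] (hq₀ : q₀ ∈ Q) (hχq₀ : (χ q₀) ^ 2 ≠ 1)
    (M' : ℕ) [NeZero M'] (hM' : M' = N * (∏ q ∈ Q.erase q₀, q) * ∏ q ∈ Q.erase q₀, q) :
    ∃ Φ : Additive (Gamma0 (M' * q₀ * q₀)) →+ F, Φ ≠ 0 ∧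
      IsParabolicHom (Gamma0 (M' * q₀ * q₀)) Φ ∧
      (∀ (ℓ : ℕ) [Fact ℓ.Prime], ¬ ℓ ∣ M' * q₀ * q₀ →
        s29h_heckeHom (M' * q₀ * q₀) ℓ F Φ = ((∏ q ∈ Q, χ q (ℓ : ZMod q)) * x ℓ) • Φ) ∧
      s59u_corA2 (M' * q₀) q₀ (dvd_mul_left q₀ M') F Φ = 0 ∧
      s59u_corB2 (M' * q₀) q₀ (dvd_mul_left q₀ M') F Φ = 0 := by
  classical
  have hP : ∏ q ∈ Q, q ≠ 0 := s59u_prod_ne_zero N Q hQ Q (Finset.Subset.refl Q)
  haveI : NeZero (N * ∏ q ∈ Q, q) := ⟨mul_ne_zero (NeZero.ne N) hP⟩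
  have h0 := s59u_St_init (dvd_mul_left (∏ q ∈ Q, q) N) H hH ψ x φ hφ0 hpar hdiam heig
  have hSQ : Q.erase q₀ ⊆ Q := Finset.erase_subset _ _
  have h1 := s59u_TwistES_auxF N Q hQ χ hχ ψ hψper hψχ x h0 (Q.erase q₀) hSQ
  have hQq : q₀ * ∏ q' ∈ Q.erase q₀, q' = ∏ q' ∈ Q, q' :=
    Finset.mul_prod_erase Q (fun q' => q') hq₀
  have hLev : N * (∏ q ∈ Q, q) * ∏ q ∈ Q.erase q₀, q = M' * q₀ := by
    rw [hM', ← hQq]; ring
  rw [hLev] at h1
  have hqD : q₀ ∣ ∏ q' ∈ Q, q' := Finset.dvd_prod_of_mem (fun q' => q') hq₀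
  have hcop : Nat.Coprime M' q₀ := by
    rw [hM']
    exact s59u_coprime_L0 N Q hQ (Q.erase q₀) hSQ hq₀ (Finset.notMem_erase q₀ Q)
  have hMdvd : N * (∏ q' ∈ Q, q') ∣ M' * q₀ := ⟨∏ q' ∈ Q.erase q₀, q', hLev.symm⟩
  have hper : ∀ a b : ℤ, ((M' * q₀ : ℕ) : ℤ) ∣ a - b →
      (fun d => ψ d * ∏ q' ∈ Q.erase q₀, (χ q' ((d : ℤ) : ZMod q')) ^ 2) a
        = (fun d => ψ d * ∏ q' ∈ Q.erase q₀, (χ q' ((d : ℤ) : ZMod q')) ^ 2) b := by
    intro a b hab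
    show ψ a * _ = ψ b * _
    rw [hψper a b ((Int.natCast_dvd_natCast.mpr hMdvd).trans hab)]
    congr 1
    refine Finset.prod_congr rfl fun q' hq' => ?_
    have hq'L : q' ∣ M' * q₀ :=
      ((Finset.dvd_prod_of_mem (fun q' => q') (hSQ hq')).trans (dvd_mul_left _ N)).trans hMdvd
    have : ((a : ℤ) : ZMod q') = ((b : ℤ) : ZMod q') := by
      have h3 : (((a - b : ℤ)) : ZMod q') = 0 :=
        (ZMod.intCast_zmod_eq_zero_iff_dvd _ _).mpr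
          ((Int.natCast_dvd_natCast.mpr hq'L).trans hab)
      push_cast at h3
      exact sub_eq_zero.mp h3
    rw [this]
  have hψχ' : ∀ d : ℤ, IsCoprime d ((M' * q₀ : ℕ) : ℤ) →
      (fun d => ψ d * ∏ q' ∈ Q.erase q₀, (χ q' ((d : ℤ) : ZMod q')) ^ 2) d
        * χ q₀ ((d : ℤ) : ZMod q₀) ^ 2 = 1 := by
    intro d hd
    have h6 := hψχ d (hd.of_isCoprime_of_dvd_right (Int.natCast_dvd_natCast.mpr hMdvd))
    rw [← Finset.mul_prod_erase Q _ hq₀] at h6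
    show ψ d * _ * _ = 1
    rw [← h6]
    ring
  obtain ⟨Φ, hΦ0, hΦpar, hΦeig, hA, hB⟩ :=
    s59u_new_step hqD hcop (χ q₀) hχq₀ _ _ hper hψχ' h1
  refine ⟨Φ, hΦ0, hΦpar, fun ℓ _ hℓ => ?_, hA, hB⟩
  rw [hΦeig ℓ hℓ]
  congr 1
  rw [← Finset.mul_prod_erase Q _ hq₀]
  ring


end MainNewF

/-! ### The integral form -/

section MainNewInt

variable (N : ℕ) [NeZero N] (Q : Finset ℕ) (R : Type*) [CommRing R] [IsDomain R] [CharZero R]

/-- **THE TWIST CONTRACT, `q₀`-NEW FORM, over a domain `R` of characteristic zero**: all the data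
(`χ_q`, `ψ`, `x`, `φ`) have values in `R`, and so has the resulting `q₀`-new class `Φ`. -/
theorem s59u_TwistNew_int (hQ : ∀ q ∈ Q, q.Prime ∧ ¬ q ∣ N)
    (H : Subgroup (ZMod (N * ∏ q ∈ Q, q))ˣ)
    (hH : s59u_ker (N * ∏ q ∈ Q, q) (∏ q ∈ Q, q) (dvd_mul_left _ _) ≤ H)
    (χ : ∀ q : ℕ, MulChar (ZMod q) R) (hχ : ∀ q ∈ Q, χ q = 1 ∨ (χ q) ^ 2 ≠ 1)
    (ψ : ℤ → R) (hψper : ∀ a b : ℤ, ((N * ∏ q ∈ Q, q : ℕ) : ℤ) ∣ a - b → ψ a = ψ b)
    (hψχ : ∀ d : ℤ, IsCoprime d ((N * ∏ q ∈ Q, q : ℕ) : ℤ) →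
      ψ d * ∏ q ∈ Q, (χ q ((d : ℤ) : ZMod q)) ^ 2 = 1)
    (x : ℕ → R) (φ : Additive (s48h_GammaH (N * ∏ q ∈ Q, q) H) →+ R) (hφ0 : φ ≠ 0)
    (hpar : IsParabolicHom (s48h_GammaH (N * ∏ q ∈ Q, q) H) φ)
    (hdiam : ∀ (σ : SL(2, ℤ)) (hσ : σ ∈ Gamma0 (N * ∏ q ∈ Q, q)),
      s48h_diamondH H σ hσ R φ = ψ (σ 1 1) • φ)
    (heig : ∀ (ℓ : ℕ) [Fact ℓ.Prime] (hℓ : ¬ ℓ ∣ N * ∏ q ∈ Q, q) (σ : SL(2, ℤ))
      (hσ : σ ∈ Gamma0 (N * ∏ q ∈ Q, q))
      (hσ11 : ((σ 1 1 : ℤ) : ZMod (N * ∏ q ∈ Q, q)) = (ℓ : ZMod (N * ∏ q ∈ Q, q))),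
      s48h_TpH H hℓ σ hσ hσ11 R φ = x ℓ • φ)
    (q₀ : ℕ) [Fact q₀.Prime] (hq₀ : q₀ ∈ Q) (hχq₀ : (χ q₀) ^ 2 ≠ 1)
    (M' : ℕ) [NeZero M'] (hM' : M' = N * (∏ q ∈ Q.erase q₀, q) * ∏ q ∈ Q.erase q₀, q) :
    ∃ Φ : Additive (Gamma0 (M' * q₀ * q₀)) →+ R,
      IsParabolicHom (Gamma0 (M' * q₀ * q₀)) Φ ∧ Φ ≠ 0 ∧
      (∀ (ℓ : ℕ) [Fact ℓ.Prime], ¬ ℓ ∣ M' * q₀ * q₀ →
        s29h_heckeHom (M' * q₀ * q₀) ℓ R Φ = ((∏ q ∈ Q, χ q (ℓ : ZMod q)) * x ℓ) • Φ) ∧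
      s59u_corA2 (M' * q₀) q₀ (dvd_mul_left q₀ M') R Φ = 0 ∧
      s59u_corB2 (M' * q₀) q₀ (dvd_mul_left q₀ M') R Φ = 0 := by
  classical
  let F := FractionRing R
  have hinj : Function.Injective (algebraMap R F) := IsFractionRing.injective R F
  haveI : CharZero F := charZero_of_injective_algebraMap hinj
  let ι : R →+ F := (algebraMap R F).toAddMonoidHom
  have hιinj : Function.Injective ι := hinj
  have hιsmul : ∀ {Γ : Subgroup SL(2, ℤ)} (c : R) (a : Additive Γ →+ R),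
      ι.comp (c • a) = algebraMap R F c • ι.comp a := by
    intro Γ c a
    refine AddMonoidHom.ext fun γ => ?_
    simp only [AddMonoidHom.comp_apply, AddMonoidHom.smul_apply, smul_eq_mul]
    exact map_mul (algebraMap R F) _ _
  have hMq : M' * q₀ * q₀ = (M' * q₀) * q₀ := rfl
  haveI : NeZero (M' * q₀) := ⟨mul_ne_zero (NeZero.ne M') (Fact.out : q₀.Prime).ne_zero⟩
  obtain ⟨Φ, hΦ0, hΦpar, hΦeig, hA, hB⟩ := s59u_TwistNewF N Q (F := F) hQ H hH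
    (fun q => (χ q).ringHomComp (algebraMap R F))
    (fun q hq => by
      rcases hχ q hq with h | h
      · left
        show (χ q).ringHomComp (algebraMap R F) = 1
        rw [h, MulChar.ringHomComp_one]
      · right
        show ((χ q).ringHomComp (algebraMap R F)) ^ 2 ≠ 1
        rw [MulChar.ringHomComp_pow]
        exact (MulChar.ringHomComp_ne_one_iff hinj).mpr h)
    (fun d => algebraMap R F (ψ d))
    (fun a b hab => by
      show algebraMap R F (ψ a) = algebraMap R F (ψ b)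
      rw [hψper a b hab])
    (fun d hd => by
      show algebraMap R F (ψ d) * ∏ q ∈ Q,
        ((χ q).ringHomComp (algebraMap R F) ((d : ℤ) : ZMod q)) ^ 2 = 1
      simp only [MulChar.ringHomComp_apply]
      rw [← map_one (algebraMap R F), ← hψχ d hd, map_mul, map_prod]
      congr 1
      refine Finset.prod_congr rfl fun q _ => ?_
      rw [map_pow])
    (fun ℓ => algebraMap R F (x ℓ)) (ι.comp φ)
    (fun h => hφ0 (by
      refine AddMonoidHom.ext fun γ => hιinj ?_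
      have := DFunLike.congr_fun h γ
      simpa using this))
    (fun γ hγ => by
      rw [AddMonoidHom.comp_apply, hpar γ hγ, map_zero])
    (fun σ hσ => by
      show (s48h_diamondDatum H σ hσ).heckeHom F (ι.comp φ) = _
      rw [s48h_MatDatum.heckeHom_comp]
      have h := hdiam σ hσ
      change (s48h_diamondDatum H σ hσ).heckeHom R φ = _ at h
      rw [h]
      exact hιsmul _ _)
    (fun ℓ _ hℓ σ hσ hσ11 => by
      show (s48h_TpDatum H hℓ σ hσ hσ11).heckeHom F (ι.comp φ) = _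
      rw [s48h_MatDatum.heckeHom_comp]
      have h := heig ℓ hℓ σ hσ hσ11
      change (s48h_TpDatum H hℓ σ hσ hσ11).heckeHom R φ = _ at h
      rw [h]
      exact hιsmul _ _)
    q₀ hq₀
    (by
      show ((χ q₀).ringHomComp (algebraMap R F)) ^ 2 ≠ 1
      rw [MulChar.ringHomComp_pow]
      exact (MulChar.ringHomComp_ne_one_iff hinj).mpr hχq₀)
    M' hM'
  refine s59u_new_descend (M' * q₀) q₀ (dvd_mul_left q₀ M') R (∅ : Set ℕ)
    (fun ℓ => (∏ q ∈ Q, χ q (ℓ : ZMod q)) * x ℓ) Φ hΦ0 hΦpar ?_ hA hB |>.imp fun Φ' h => ?_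
  · intro ℓ _ hℓ _
    rw [hΦeig ℓ hℓ]
    congr 1
    simp only [MulChar.ringHomComp_apply]
    rw [map_mul, map_prod]
  · obtain ⟨h1, h2, h3, h4, h5⟩ := h
    exact ⟨h1, h2, fun ℓ _ hℓ => h3 ℓ hℓ (Set.notMem_empty _), h4, h5⟩

end MainNewInt

end Fermat.Agent.Lib.S59
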