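/-
PROGRAMME R2 = S59, node [FLR], `T`-side, leaf [NEW-q], part (II) **the twist chain carries
kernel-newness at an auxiliary prime**, file 3 (helper4, prefix `s59f_`): the induction.

`s59f_TwistNew_aux` : helper3's induction `s59u_TwistES_auxF` (UNewF.lean) for the state `s59f_StN`
(the level `N` contains the auxiliary prime `r`, `r ∣ N`).
-/
import Mathlib
import Fermat.Agent.Lib.S59.FTwNew2
import Fermat.Agent.Lib.S59.UNewF

set_option autoImplicit false
set_option linter.unusedSectionVars false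
set_option linter.unusedVariables false
set_option linter.style.haveILetI false
set_option linter.unnecessarySeqFocus false

noncomputable section

namespace Fermat.Agent.Lib.S59

open CongruenceSubgroup ModularCurve.Period
open Fermat.Agent.Lib.ES Fermat.Agent.Lib.S29 Fermat.Agent.Lib.S41 Fermat.Agent.Lib.S48
open scoped MatrixGroups OnePoint

local notation "Mat2" => Matrix (Fin 2) (Fin 2) ℤ

section Ind

variable (N : ℕ) [NeZero N] (Q : Finset ℕ) {F : Type*} [Field F] [CharZero F]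
  (r : ℕ) [hr : Fact r.Prime]

/-- **the induction of the twist chain for the state with kernel-newness at `r`.** -/
theorem s59f_TwistNew_aux (hrN : r ∣ N) (hQ : ∀ q ∈ Q, q.Prime ∧ ¬ q ∣ N)
    (χ : ∀ q : ℕ, MulChar (ZMod q) F) (hχ : ∀ q ∈ Q, χ q = 1 ∨ (χ q) ^ 2 ≠ 1)
    (ψ : ℤ → F) (hψper : ∀ a b : ℤ, ((N * ∏ q ∈ Q, q : ℕ) : ℤ) ∣ a - b → ψ a = ψ b)
    (hψχ : ∀ d : ℤ, IsCoprime d ((N * ∏ q ∈ Q, q : ℕ) : ℤ) →
      ψ d * ∏ q ∈ Q, (χ q ((d : ℤ) : ZMod q)) ^ 2 = 1)
    (x : ℕ → F) (h0 : s59f_StN (∏ q ∈ Q, q) F r (N * ∏ q ∈ Q, q) ψ x) :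
    ∀ S : Finset ℕ, S ⊆ Q → s59f_StN (∏ q ∈ Q, q) F r (N * (∏ q ∈ Q, q) * ∏ q ∈ S, q)
      (fun d => ψ d * ∏ q ∈ S, (χ q ((d : ℤ) : ZMod q)) ^ 2)
      (fun ℓ => (∏ q ∈ S, χ q (ℓ : ZMod q)) * x ℓ) := by
  classical
  intro S
  induction S using Finset.induction_on with
  | empty =>
    intro _
    simpa using h0
  | insert q S hqS ih =>
    intro hsub
    have hqQ : q ∈ Q := hsub (Finset.mem_insert_self q S)
    have hSQ : S ⊆ Q := fun a ha => hsub (Finset.mem_insert_of_mem ha)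
    have ih' := ih hSQ
    haveI : Fact q.Prime := ⟨(hQ q hqQ).1⟩
    set L₀ : ℕ := N * (∏ q' ∈ Q.erase q, q') * ∏ q' ∈ S, q' with hL₀
    haveI : NeZero L₀ := ⟨mul_ne_zero (mul_ne_zero (NeZero.ne N)
      (s59u_prod_ne_zero N Q hQ _ (Finset.erase_subset _ _))) (s59u_prod_ne_zero N Q hQ S hSQ)⟩
    have hrL₀ : r ∣ L₀ := (hrN.mul_right _).mul_right _
    have hQq : q * ∏ q' ∈ Q.erase q, q' = ∏ q' ∈ Q, q' := Finset.mul_prod_erase Q (fun q' => q') hqQ
    have hLev : N * (∏ q ∈ Q, q) * ∏ q ∈ S, q = L₀ * q := by rw [hL₀, ← hQq]; ring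
    have hLev' : N * (∏ q ∈ Q, q) * ∏ q ∈ insert q S, q = L₀ * q * q := by
      rw [Finset.prod_insert hqS, ← hLev]; ring
    have hqD : q ∣ ∏ q' ∈ Q, q' := Finset.dvd_prod_of_mem (fun q' => q') hqQ
    have hcop : Nat.Coprime L₀ q := s59u_coprime_L0 N Q hQ S hSQ hqQ hqS
    rw [hLev] at ih'
    rw [hLev']
    -- values at units
    have hunit : ∀ d : ℤ, IsCoprime d ((L₀ * q * q : ℕ) : ℤ) → IsUnit ((d : ℤ) : ZMod q) :=
      fun d hd => s59u_isUnit_cast_of_isCoprime (dvd_mul_left q (L₀ * q)) hd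
    have hunitℓ : ∀ ℓ : ℕ, ℓ.Prime → ¬ ℓ ∣ L₀ * q * q → IsUnit ((ℓ : ℕ) : ZMod q) := by
      intro ℓ hℓ hℓL
      rw [ZMod.isUnit_iff_coprime]
      refine (Nat.coprime_primes hℓ (hQ q hqQ).1).mpr ?_
      rintro rfl
      exact hℓL (dvd_mul_left _ _)
    rcases hχ q hqQ with h1 | h2
    · -- restriction step
      refine s59f_StN_congr (fun d hd => ?_) (fun ℓ hℓ hℓL => ?_)
        (s59f_StN_step_res hrL₀ _ _ ih')
      · show ψ d * _ = ψ d * _
        rw [Finset.prod_insert hqS, h1, MulChar.one_apply (hunit d hd), one_pow, one_mul]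
      · show _ * x ℓ = _ * x ℓ
        rw [Finset.prod_insert hqS, h1, MulChar.one_apply (hunitℓ ℓ hℓ hℓL), one_mul]
    · -- twist step
      have hχ1 : χ q ≠ 1 := by
        rintro h
        rw [h, one_pow] at h2
        exact h2 rfl
      obtain ⟨a, ha⟩ := MulChar.ne_one_iff.mp h2
      rw [MulChar.pow_apply_coe] at ha
      obtain ⟨d, hd1, hda⟩ := s59u_exists_d L₀ q hcop (a : ZMod q)
      have hMdvd : N * (∏ q' ∈ Q, q') ∣ L₀ * q := ⟨∏ q' ∈ S, q', hLev.symm⟩
      have hper : ∀ a b : ℤ, ((L₀ * q : ℕ) : ℤ) ∣ a - b →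
          (fun d => ψ d * ∏ q' ∈ S, (χ q' ((d : ℤ) : ZMod q')) ^ 2) a
            = (fun d => ψ d * ∏ q' ∈ S, (χ q' ((d : ℤ) : ZMod q')) ^ 2) b := by
        intro a b hab
        show ψ a * _ = ψ b * _
        rw [hψper a b ((Int.natCast_dvd_natCast.mpr hMdvd).trans hab)]
        congr 1
        refine Finset.prod_congr rfl fun q' hq' => ?_
        have hq'L : q' ∣ L₀ * q :=
          (Finset.dvd_prod_of_mem (fun q' => q') hq').trans ⟨N * ∏ q' ∈ Q, q', by rw [← hLev]; ring⟩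
        have : ((a : ℤ) : ZMod q') = ((b : ℤ) : ZMod q') := by
          have h3 : (((a - b : ℤ)) : ZMod q') = 0 :=
            (ZMod.intCast_zmod_eq_zero_iff_dvd _ _).mpr
              ((Int.natCast_dvd_natCast.mpr hq'L).trans hab)
          push_cast at h3
          exact sub_eq_zero.mp h3
        rw [this]
      have hψd : ∃ d : ℤ, (L₀ : ℤ) ∣ d - 1 ∧ IsCoprime d (q : ℤ) ∧
          (fun d => ψ d * ∏ q' ∈ S, (χ q' ((d : ℤ) : ZMod q')) ^ 2) d ≠ 1 := by
        refine ⟨d, hd1, ?_, ?_⟩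
        · have hu : IsUnit ((d : ℤ) : ZMod q) := hda ▸ a.isUnit
          exact ((ZMod.coe_int_isUnit_iff_isCoprime d q).mp hu).symm
        · show ψ d * _ ≠ 1
          have hS1 : ∏ q' ∈ S, (χ q' ((d : ℤ) : ZMod q')) ^ 2 = 1 := by
            refine Finset.prod_eq_one fun q' hq' => ?_
            rw [s59u_cast_eq_one_of_dvd ((Finset.dvd_prod_of_mem (fun q' => q') hq').trans
              (dvd_mul_left _ _)) hd1, map_one, one_pow]
          rw [hS1, mul_one]
          -- `ψ d * χ_q(a)² = 1`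
          have hcopM : IsCoprime d ((N * ∏ q' ∈ Q, q' : ℕ) : ℤ) := by
            have h3 : IsCoprime d ((N * ∏ q' ∈ Q.erase q, q' : ℕ) : ℤ) :=
              s59u_isCoprime_of_dvd_sub_one
                ((Int.natCast_dvd_natCast.mpr (dvd_mul_right _ _)).trans hd1)
            have h4 : IsCoprime d (q : ℤ) := by
              have hu : IsUnit ((d : ℤ) : ZMod q) := hda ▸ a.isUnit
              exact ((ZMod.coe_int_isUnit_iff_isCoprime d q).mp hu).symm
            have h5 : ((N * ∏ q' ∈ Q, q' : ℕ) : ℤ)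
                = ((N * ∏ q' ∈ Q.erase q, q' : ℕ) : ℤ) * (q : ℤ) := by
              rw [← hQq]; push_cast; ring
            rw [h5]
            exact h3.mul_right h4
          have h6 := hψχ d hcopM
          rw [← Finset.mul_prod_erase Q _ hqQ] at h6
          have hE1 : ∏ q' ∈ Q.erase q, (χ q' ((d : ℤ) : ZMod q')) ^ 2 = 1 := by
            refine Finset.prod_eq_one fun q' hq' => ?_
            rw [s59u_cast_eq_one_of_dvd (((Finset.dvd_prod_of_mem (fun q' => q') hq').trans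
              (dvd_mul_left _ N)).trans (dvd_mul_right _ _)) hd1, map_one, one_pow]
          rw [hE1, mul_one, hda] at h6
          intro h7
          rw [h7, one_mul] at h6
          exact ha h6
      refine s59f_StN_congr (fun d _ => ?_) (fun ℓ _ _ => ?_)
        (s59f_StN_step_tw hrL₀ hqD (χ q) hχ1 _ _ hper hψd ih')
      · show ψ d * _ * _ = ψ d * _
        rw [Finset.prod_insert hqS]
        ring
      · show _ * (_ * x ℓ) = _ * x ℓ
        rw [Finset.prod_insert hqS]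
        ring

end Ind

end Fermat.Agent.Lib.S59
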