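/-
PROGRAMME R2 = S59, node [FLR], `T`-side, leaf [NEW-q], part (II) **the twist chain carries
kernel-newness at an auxiliary prime**, file 4 (helper4, prefix `s59f_`): the `Γ₀`-level instance of
the FOldH package and its comparison with the operators of `Lib/S41/LVFam`.

* `s59f_isG_Gamma0`, `s59f_isG'_Gamma0` : `Γ₀(M)`, `Γ₀(M r)` are groups `G`, `G'` for `(M, ⊤)`;
* `s59f_corH_Gamma0 : s59f_corH … = s41l_corA M r hrM A` (same cosets), `s59f_wH_Gamma0 : s59f_wH … =
  s41l_w M r hrM A`;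
* `s59f_ker_Gamma0` : `cor Φ = 0`, `cor (w Φ) = 0` ⟹ `s41l_corA Φ = 0`, `s41l_corB Φ = 0`.
-/
import Mathlib
import Fermat.Agent.Lib.S59.FTwNew3

set_option autoImplicit false
set_option linter.unusedSectionVars false
set_option linter.unusedVariables false
set_option linter.style.haveILetI false

noncomputable section

namespace Fermat.Agent.Lib.S59

open CongruenceSubgroup ModularCurve.Period
open Fermat.Agent.Lib.ES Fermat.Agent.Lib.S29 Fermat.Agent.Lib.S41 Fermat.Agent.Lib.S48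
open scoped MatrixGroups OnePoint

local notation "Mat2" => Matrix (Fin 2) (Fin 2) ℤ

section G0

variable {M r : ℕ} [NeZero M] [hr : Fact r.Prime] (hrM : ¬ r ∣ M)

theorem s59f_Gamma0_le_top : Gamma0 M ≤ s48h_GammaH M (⊤ : Subgroup (ZMod M)ˣ) := by
  intro γ h0
  have hcop : IsCoprime (γ 1 1) (M : ℤ) := s59u_coprime_lowerRight h0
  have hu : IsUnit (((γ 1 1 : ℤ)) : ZMod M) :=
    (ZMod.coe_int_isUnit_iff_isCoprime _ M).mpr hcop.symm
  exact ⟨h0, hu.unit, Subgroup.mem_top _, hu.unit_spec.symm⟩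

/-- `Γ₀(M)` is a group `G` for `(M, ⊤)`. -/
theorem s59f_isG_Gamma0 : s59f_IsG M (⊤ : Subgroup (ZMod M)ˣ) (Gamma0 M) := fun γ =>
  ⟨fun h => (s59f_mem_GammaH_iff γ).mp (s59f_Gamma0_le_top h),
    fun h => s48h_GammaH_le_Gamma0 ((s59f_mem_GammaH_iff γ).mpr h)⟩

include hrM in
/-- `Γ₀(M r)` is a group `G'` for `(M, ⊤)`. -/
theorem s59f_isG'_Gamma0 : s59f_IsG' M r (⊤ : Subgroup (ZMod M)ˣ) (Gamma0 (M * r)) := by
  intro γ
  constructor
  · intro h
    have h1 : ((M * r : ℕ) : ℤ) ∣ (γ : Mat2) 1 0 := s59u_gamma0_iff.mp h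
    obtain ⟨hM, hr'⟩ := s41l_dvd_of_Ml_dvd M r h1
    exact ⟨hr', (s59f_isG_Gamma0 γ).mp (s59u_gamma0_iff.mpr hM)⟩
  · rintro ⟨hr', hc⟩
    exact s59u_gamma0_iff.mpr (s41l_Ml_dvd M r hrM hc.1 hr')

theorem s59f_i_Gamma0 (N : ℕ) : s59f_i (Gamma0 N) = s41l_i N := rfl

variable {A : Type*} [AddCommGroup A]

/-- **`w` at `Γ₀`-level is `s41l_w`.** -/
theorem s59f_wH_Gamma0 (ψ : Additive (Gamma0 (M * r)) →+ A) :
    s59f_wH hrM (s59f_isG'_Gamma0 hrM) A ψ = s41l_w M r hrM A ψ := by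
  refine AddMonoidHom.ext fun a => ?_
  obtain ⟨γ, rfl⟩ := Additive.ofMul.surjective a
  rw [s59f_wH_apply, s41l_w_apply,
    s59f_cW_eq hrM (s59f_isG'_Gamma0 hrM) γ _ (s41l_cW_spec M r hrM γ)]

end G0


section CorA

variable {M r : ℕ} [NeZero M] [hr : Fact r.Prime] (hrM : ¬ r ∣ M) {A : Type*} [AddCommGroup A]

/-- the element `h = r'_∞ r_∞⁻¹ ∈ Γ₀(M r)` comparing the two representatives at `∞`. -/
def s59f_hInf : Gamma0 (M * r) :=
  s41l_mk (M * r) ((r : ℤ) + s41l_s M r hrM * M) (s41l_s M r hrM - s41l_s M r hrM * s41l_t M r hrM)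
    ((M : ℤ) * r * (1 - s41l_t M r hrM)) ((M : ℤ) * s41l_s M r hrM + r * s41l_t M r hrM ^ 2)
    (by linear_combination (s41l_s M r hrM * M + s41l_t M r hrM * r + 1) * s41l_st M r hrM)
    (by push_cast; exact Dvd.intro _ rfl)

/-- **the transfer at `Γ₀`-level is `s41l_corA`.** -/
theorem s59f_corH_Gamma0 (ψ : Additive (Gamma0 (M * r)) →+ A) :
    s59f_corH hrM s59f_isG_Gamma0 (s59f_isG'_Gamma0 hrM) A ψ = s41l_corA M r hrM A ψ := by
  have hst := s41l_st M r hrM
  have h := s41l_Fam.op_eq_of_cosets (A := A) (s41l_famCorA M r hrM)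
    (s59f_famCorA hrM s59f_isG_Gamma0 (s59f_isG'_Gamma0 hrM)) 1
    (fun m => by rw [one_mul, mul_one]) (fun a b hab => by rwa [one_mul, one_mul] at hab) rfl ?_
  · exact DFunLike.congr_fun h ψ
  · intro x
    induction x using OnePoint.rec with
    | infty =>
      refine ⟨OnePoint.infty, s59f_hInf hrM, ?_⟩
      show 1 * s59f_rA M r hrM OnePoint.infty =
        s41l_i (M * r) (s59f_hInf hrM) * s41l_rA M r hrM OnePoint.infty
      rw [one_mul, s59f_rA_infty, s41l_rA_infty, s59f_hInf, s41l_i_mk, Matrix.mul_fin_two]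
      ext i j
      fin_cases i <;> fin_cases j
      · simp only [Fin.zero_eta, Fin.isValue, Matrix.of_apply, Matrix.cons_val', Matrix.cons_val_zero,
          Matrix.cons_val_fin_one]
        linear_combination -hst
      · simp only [Fin.zero_eta, Fin.mk_one, Fin.isValue, Matrix.of_apply, Matrix.cons_val',
          Matrix.cons_val_zero, Matrix.cons_val_one, Matrix.cons_val_fin_one]
        linear_combination (s41l_s M r hrM) * hst
      · simp only [Fin.zero_eta, Fin.mk_one, Fin.isValue, Matrix.of_apply, Matrix.cons_val',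
          Matrix.cons_val_zero, Matrix.cons_val_one, Matrix.cons_val_fin_one]
        linear_combination (-(M : ℤ)) * hst
      · simp only [Fin.mk_one, Fin.isValue, Matrix.of_apply, Matrix.cons_val',
          Matrix.cons_val_one, Matrix.cons_val_fin_one]
        linear_combination (-((r : ℤ) * s41l_t M r hrM)) * hst
    | coe j =>
      refine ⟨((j : ZMod r) : OnePoint (ZMod r)), 1, ?_⟩
      show 1 * s59f_rA M r hrM ((j : ZMod r) : OnePoint (ZMod r)) =
        s41l_i (M * r) 1 * s41l_rA M r hrM ((j : ZMod r) : OnePoint (ZMod r))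
      rw [map_one, s59f_rA_coe, s41l_rA_coe]

/-- **kernel-newness in the vocabulary of `Lib/S41`.** -/
theorem s59f_ker_Gamma0 (Φ : Additive (Gamma0 (M * r)) →+ A)
    (hA : s59f_corH hrM s59f_isG_Gamma0 (s59f_isG'_Gamma0 hrM) A Φ = 0)
    (hB : s59f_corH hrM s59f_isG_Gamma0 (s59f_isG'_Gamma0 hrM) A
      (s59f_wH hrM (s59f_isG'_Gamma0 hrM) A Φ) = 0) :
    s41l_corA M r hrM A Φ = 0 ∧ s41l_corB M r hrM A Φ = 0 := by
  rw [s59f_corH_Gamma0] at hA hB
  rw [s59f_wH_Gamma0] at hB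
  exact ⟨hA, by rw [s41l_corB_eq]; exact hB⟩

end CorA

end Fermat.Agent.Lib.S59
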