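/-
S59 / [PATCH-FLR] / (T6), part (III-b) (helper4, prefix `s59f_`): **the plain twist chain with values in
`Hom(Γ₀(N ∏ q²), R)`** (helper3's `s59u_TwistES` ends in `S₂(Γ₀(N ∏ q²))` over `ℂ`; here the end is the
parabolic class itself, over a field `F` of characteristic zero, and then over a domain `R`).

* `s59f_St_finalF` : a state with trivial diamond character gives an eigenclass on `Γ₀(Lev)`;
* `s59f_TwistESF`, `s59f_TwistES_int` : the contract.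
-/
import Mathlib
import Fermat.Agent.Lib.S59.UNewF
import Fermat.Agent.Lib.S59.FTwNew5

set_option autoImplicit false
set_option linter.unusedSectionVars false
set_option linter.unusedVariables false
set_option linter.style.haveILetI false

noncomputable section

namespace Fermat.Agent.Lib.S59

open Fermat.Agent.Lib.S48 Fermat.Agent.Lib.ES Fermat.Agent.Lib.S29 Fermat.Agent.Lib.S30
  CongruenceSubgroup ModularCurve ModularCurve.Period
open scoped MatrixGroups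

section Final

variable {F : Type*} [Field F] [CharZero F]

/-- **The final step, with values in `Hom(Γ₀(Lev), F)`.** -/
theorem s59f_St_finalF {Lev D : ℕ} [NeZero Lev] (ψ : ℤ → F) (x : ℕ → F)
    (hψ1 : ∀ d : ℤ, IsCoprime d (Lev : ℤ) → ψ d = 1) (h : s59u_St D F Lev ψ x) :
    ∃ Φ : Additive (Gamma0 Lev) →+ F, Φ ≠ 0 ∧ IsParabolicHom (Gamma0 Lev) Φ ∧
      ∀ (ℓ : ℕ) [Fact ℓ.Prime], ¬ ℓ ∣ Lev → s29h_heckeHom Lev ℓ F Φ = x ℓ • Φ := by
  obtain ⟨hD, φ, h0, hpar, hdiam, heig⟩ := h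
  obtain ⟨Φ, hΦ⟩ := s59u_ext φ (fun σ hσ => by
    rw [hdiam σ hσ, hψ1 _ (s59u_coprime_lowerRight hσ), one_smul])
  have hinj := s59u_res_injective (A := F) (s59u_G_le_gamma0 (hD := hD)) s59u_G_index_ne_zero
  refine ⟨Φ, ?_, ?_, ?_⟩
  · rintro rfl
    rw [map_zero] at hΦ
    exact h0 hΦ.symm
  · exact s59u_parabolic_of_res (s59u_G_le_gamma0 (hD := hD)) s59u_G_index_ne_zero Φ
      (by rw [hΦ]; exact hpar)
  · intro ℓ _ hℓ
    obtain ⟨σ, hσ, hσ11⟩ := s48h_exists_sigma_p (M := Lev) hℓ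
    apply hinj
    have h1 := s59u_res_s29h (s59u_ker Lev D hD) hℓ σ hσ hσ11 Φ
    have h2 : s59u_res (s48h_GammaH_le_Gamma0 (H := s59u_ker Lev D hD)) F Φ = φ := hΦ
    rw [h2, heig ℓ hℓ σ hσ hσ11] at h1
    rw [s59u_res_smul, hΦ]
    exact h1

end Final

section MainF

variable (N : ℕ) [NeZero N] (Q : Finset ℕ) {F : Type*} [Field F] [CharZero F]

/-- **THE TWIST CONTRACT with values in `Hom(Γ₀(N ∏ q²), F)`.** -/
theorem s59f_TwistESF (hQ : ∀ q ∈ Q, q.Prime ∧ ¬ q ∣ N)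
    (H : Subgroup (ZMod (N * ∏ q ∈ Q, q))ˣ)
    (hH : s59u_ker (N * ∏ q ∈ Q, q) (∏ q ∈ Q, q) (dvd_mul_left _ _) ≤ H)
    (χ : ∀ q : ℕ, MulChar (ZMod q) F) (hχ : ∀ q ∈ Q, χ q = 1 ∨ (χ q) ^ 2 ≠ 1)
    (ψ : ℤ → F) (hψper : ∀ a b : ℤ, ((N * ∏ q ∈ Q, q : ℕ) : ℤ) ∣ a - b → ψ a = ψ b)
    (hψχ : ∀ d : ℤ, IsCoprime d ((N * ∏ q ∈ Q, q : ℕ) : ℤ) →
      ψ d * ∏ q ∈ Q, (χ q ((d : ℤ) : ZMod q)) ^ 2 = 1)
    (x : ℕ → F) (φ : Additive (s48h_GammaH (N * ∏ q ∈ Q, q) H) →+ F) (hφ0 : φ ≠ 0)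
    (hpar : IsParabolicHom (s48h_GammaH (N * ∏ q ∈ Q, q) H) φ)
    (hdiam : ∀ (σ : SL(2, ℤ)) (hσ : σ ∈ Gamma0 (N * ∏ q ∈ Q, q)),
      s48h_diamondH H σ hσ F φ = ψ (σ 1 1) • φ)
    (heig : ∀ (ℓ : ℕ) [Fact ℓ.Prime] (hℓ : ¬ ℓ ∣ N * ∏ q ∈ Q, q) (σ : SL(2, ℤ))
      (hσ : σ ∈ Gamma0 (N * ∏ q ∈ Q, q))
      (hσ11 : ((σ 1 1 : ℤ) : ZMod (N * ∏ q ∈ Q, q)) = (ℓ : ZMod (N * ∏ q ∈ Q, q))),
      s48h_TpH H hℓ σ hσ hσ11 F φ = x ℓ • φ)
    (M' : ℕ) [NeZero M'] (hM' : M' = N * (∏ q ∈ Q, q) * ∏ q ∈ Q, q) :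
    ∃ Φ : Additive (Gamma0 M') →+ F, Φ ≠ 0 ∧ IsParabolicHom (Gamma0 M') Φ ∧
      ∀ (ℓ : ℕ) [Fact ℓ.Prime], ¬ ℓ ∣ M' →
        s29h_heckeHom M' ℓ F Φ = ((∏ q ∈ Q, χ q (ℓ : ZMod q)) * x ℓ) • Φ := by
  classical
  subst hM'
  have hP : ∏ q ∈ Q, q ≠ 0 := s59u_prod_ne_zero N Q hQ Q (Finset.Subset.refl Q)
  haveI : NeZero (N * ∏ q ∈ Q, q) := ⟨mul_ne_zero (NeZero.ne N) hP⟩
  have h0 := s59u_St_init (dvd_mul_left (∏ q ∈ Q, q) N) H hH ψ x φ hφ0 hpar hdiam heig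
  have h1 := s59u_TwistES_auxF N Q hQ χ hχ ψ hψper hψχ x h0 Q (Finset.Subset.refl Q)
  refine s59f_St_finalF _ _ (fun d hd => ?_) h1
  exact hψχ d (hd.of_isCoprime_of_dvd_right (Int.natCast_dvd_natCast.mpr (dvd_mul_right _ _)))

end MainF

section MainInt

variable (N : ℕ) [NeZero N] (Q : Finset ℕ) (R : Type*) [CommRing R] [IsDomain R] [CharZero R]

/-- clearing denominators (no newness condition). -/
theorem s59f_descend0 (M' : ℕ) [NeZero M'] (y : ℕ → R)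
    (Φ : Additive (Gamma0 M') →+ FractionRing R) (hΦ0 : Φ ≠ 0)
    (hpar : IsParabolicHom (Gamma0 M') Φ)
    (hT : ∀ (ℓ : ℕ) [Fact ℓ.Prime], ¬ ℓ ∣ M' →
      s29h_heckeHom M' ℓ (FractionRing R) Φ = algebraMap R (FractionRing R) (y ℓ) • Φ) :
    ∃ Φ' : Additive (Gamma0 M') →+ R, Φ' ≠ 0 ∧ IsParabolicHom (Gamma0 M') Φ' ∧
      ∀ (ℓ : ℕ) [Fact ℓ.Prime], ¬ ℓ ∣ M' → s29h_heckeHom M' ℓ R Φ' = y ℓ • Φ' := by
  classical
  haveI : Group.FG (Gamma0 M') := Fermat.Agent.Lib.ES.groupFG_Gamma0 M'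
  obtain ⟨d, Φ', hd0, hdF, hΦ'⟩ := s59u_exists_integral (G := Gamma0 M') R Φ
  have hinj : Function.Injective (algebraMap R (FractionRing R)) :=
    IsFractionRing.injective R (FractionRing R)
  let ι : R →+ FractionRing R := (algebraMap R (FractionRing R)).toAddMonoidHom
  have hιinj : Function.Injective ι := hinj
  have hcomp : ι.comp Φ' = algebraMap R (FractionRing R) d • Φ := by
    refine AddMonoidHom.ext fun γ => ?_
    rw [AddMonoidHom.comp_apply, AddMonoidHom.smul_apply, smul_eq_mul]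
    exact hΦ' γ
  have hpost : ∀ (a b : Additive (Gamma0 M') →+ R), ι.comp a = ι.comp b → a = b := by
    intro a b h
    refine AddMonoidHom.ext fun γ => hιinj ?_
    have := DFunLike.congr_fun h γ
    simpa using this
  refine ⟨Φ', ?_, ?_, ?_⟩
  · rintro rfl
    apply hΦ0
    refine AddMonoidHom.ext fun γ => ?_
    have h := hΦ' γ
    rw [AddMonoidHom.zero_apply, map_zero] at h
    rcases mul_eq_zero.mp h.symm with h | h
    · exact absurd h hdF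
    · rw [h, AddMonoidHom.zero_apply]
  · intro γ hγ
    apply hinj
    rw [hΦ' (Additive.ofMul γ), hpar γ hγ, mul_zero, map_zero]
  · intro ℓ _ hℓ
    apply hpost
    rw [← s29h_heckeHom_comp, hcomp, s29h_heckeHom_smul, hT ℓ hℓ]
    refine AddMonoidHom.ext fun γ => ?_
    simp only [AddMonoidHom.comp_apply, AddMonoidHom.smul_apply, smul_eq_mul]
    have h1 : ι (y ℓ * Φ' γ) = algebraMap R (FractionRing R) (y ℓ) * ι (Φ' γ) :=
      map_mul (algebraMap R (FractionRing R)) _ _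
    have h2 : ι (Φ' γ) = algebraMap R (FractionRing R) d * Φ γ := hΦ' γ
    rw [h1, h2]
    ring

/-- **THE TWIST CONTRACT with values in `Hom(Γ₀(N ∏ q²), R)`, `R` a domain of characteristic zero.** -/
theorem s59f_TwistES_int (hQ : ∀ q ∈ Q, q.Prime ∧ ¬ q ∣ N)
    (H : Subgroup (ZMod (N * ∏ q ∈ Q, q))ˣ)
    (hH : s59u_ker (N * ∏ q ∈ Q, q) (∏ q ∈ Q, q) (dvd_mul_left _ _) ≤ H)
    (χ : ∀ q : ℕ, MulChar (ZMod q) R) (hχ : ∀ q ∈ Q, χ q = 1 ∨ (χ q) ^ 2 ≠ 1)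
    (ψ : ℤ → R) (hψper : ∀ a b : ℤ, ((N * ∏ q ∈ Q, q : ℕ) : ℤ) ∣ a - b → ψ a = ψ b)
    (hψχ : ∀ d : ℤ, IsCoprime d ((N * ∏ q ∈ Q, q : ℕ) : ℤ) →
      ψ d * ∏ q ∈ Q, (χ q ((d : ℤ) : ZMod q)) ^ 2 = 1)
    (x : ℕ → R) (φ : Additive (s48h_GammaH (N * ∏ q ∈ Q, q) H) →+ R) (hφ0 : φ ≠ 0)
    (hpar : IsParabolicHom (s48h_GammaH (N * ∏ q ∈ Q, q) H) φ)
    (hdiam : ∀ (σ : SL(2, ℤ)) (hσ : σ ∈ Gamma0 (N * ∏ q ∈ Q, q)),
      s48h_diamondH H σ hσ R φ = ψ (σ 1 1) • φ)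
    (heig : ∀ (ℓ : ℕ) [Fact ℓ.Prime] (hℓ : ¬ ℓ ∣ N * ∏ q ∈ Q, q) (σ : SL(2, ℤ))
      (hσ : σ ∈ Gamma0 (N * ∏ q ∈ Q, q))
      (hσ11 : ((σ 1 1 : ℤ) : ZMod (N * ∏ q ∈ Q, q)) = (ℓ : ZMod (N * ∏ q ∈ Q, q))),
      s48h_TpH H hℓ σ hσ hσ11 R φ = x ℓ • φ)
    (M' : ℕ) [NeZero M'] (hM' : M' = N * (∏ q ∈ Q, q) * ∏ q ∈ Q, q) :
    ∃ Φ : Additive (Gamma0 M') →+ R, Φ ≠ 0 ∧ IsParabolicHom (Gamma0 M') Φ ∧
      ∀ (ℓ : ℕ) [Fact ℓ.Prime], ¬ ℓ ∣ M' →
        s29h_heckeHom M' ℓ R Φ = ((∏ q ∈ Q, χ q (ℓ : ZMod q)) * x ℓ) • Φ := by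
  classical
  let F := FractionRing R
  have hinj : Function.Injective (algebraMap R F) := IsFractionRing.injective R F
  haveI : CharZero F := charZero_of_injective_algebraMap hinj
  let ι : R →+ F := (algebraMap R F).toAddMonoidHom
  have hιinj : Function.Injective ι := hinj
  have hιsmul : ∀ {Γ : Subgroup SL(2, ℤ)} (c : R) (a : Additive Γ →+ R),
      ι.comp (c • a) = algebraMap R F c • ι.comp a := by
    intro Γ c a
    refine AddMonoidHom.ext fun γ => ?_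
    simp only [AddMonoidHom.comp_apply, AddMonoidHom.smul_apply, smul_eq_mul]
    exact map_mul (algebraMap R F) _ _
  obtain ⟨Φ, hΦ0, hΦpar, hΦeig⟩ := s59f_TwistESF N Q (F := F) hQ H hH
    (fun q => (χ q).ringHomComp (algebraMap R F))
    (fun q hq => by
      rcases hχ q hq with h | h
      · left
        show (χ q).ringHomComp (algebraMap R F) = 1
        rw [h, MulChar.ringHomComp_one]
      · right
        show ((χ q).ringHomComp (algebraMap R F)) ^ 2 ≠ 1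
        rw [MulChar.ringHomComp_pow]
        exact (MulChar.ringHomComp_ne_one_iff hinj).mpr h)
    (fun d => algebraMap R F (ψ d))
    (fun a b hab => by
      show algebraMap R F (ψ a) = algebraMap R F (ψ b)
      rw [hψper a b hab])
    (fun d hd => by
      show algebraMap R F (ψ d) * ∏ q ∈ Q,
        ((χ q).ringHomComp (algebraMap R F) ((d : ℤ) : ZMod q)) ^ 2 = 1
      simp only [MulChar.ringHomComp_apply]
      rw [← map_one (algebraMap R F), ← hψχ d hd, map_mul, map_prod]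
      congr 1
      refine Finset.prod_congr rfl fun q _ => ?_
      rw [map_pow])
    (fun ℓ => algebraMap R F (x ℓ)) (ι.comp φ)
    (fun h => hφ0 (by
      refine AddMonoidHom.ext fun γ => hιinj ?_
      have := DFunLike.congr_fun h γ
      simpa using this))
    (fun γ hγ => by
      rw [AddMonoidHom.comp_apply, hpar γ hγ, map_zero])
    (fun σ hσ => by
      show (s48h_diamondDatum H σ hσ).heckeHom F (ι.comp φ) = _
      rw [s48h_MatDatum.heckeHom_comp]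
      have h := hdiam σ hσ
      change (s48h_diamondDatum H σ hσ).heckeHom R φ = _ at h
      rw [h]
      exact hιsmul _ _)
    (fun ℓ _ hℓ σ hσ hσ11 => by
      show (s48h_TpDatum H hℓ σ hσ hσ11).heckeHom F (ι.comp φ) = _
      rw [s48h_MatDatum.heckeHom_comp]
      have h := heig ℓ hℓ σ hσ hσ11
      change (s48h_TpDatum H hℓ σ hσ hσ11).heckeHom R φ = _ at h
      rw [h]
      exact hιsmul _ _)
    M' hM'
  exact s59f_descend0 R M' (fun ℓ => (∏ q ∈ Q, χ q (ℓ : ZMod q)) * x ℓ) Φ hΦ0 hΦpar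
    (fun ℓ _ hℓ => by
      rw [hΦeig ℓ hℓ]
      congr 1
      rw [map_mul, map_prod]
      rfl)

end MainInt

end Fermat.Agent.Lib.S59
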