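/-
Programme (R) = S59, node C3-rest / (NN)-input (helper3), file 2: **the characters `χ_q` of a
character `θ` of `(ℤ/M)ˣ`, `M = N ∏ Q`, over an arbitrary commutative ring.**

`θ : (ℤ/M)ˣ →* Rˣ` trivial on the units `≡ 1 mod ∏ Q`.  Then there are `χ_q : MulChar (ZMod q) R`
(`q ∈ Q`), with values among the values of `θ`, such that `(∏_q χ_q(d)) θ(d) = 1` for every `d` prime
to `M` (`s59u_exists_chi_theta`).  If the values of `θ` lie in a subgroup without `2`-torsion, each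
`χ_q` is trivial or has `χ_q² ≠ 1` (`s59u_chi_dichotomy`).
-/
import Mathlib
import Fermat.Agent.Lib.S59.WChar

set_option autoImplicit false
set_option linter.unusedSectionVars false
set_option linter.style.haveILetI false

noncomputable section

namespace Fermat.Agent.Lib.S59

/-! ### Units of `ℤ/M` from integers -/

/-- the unit of `ℤ/M` defined by an integer prime to `M`. -/
def s59u_intUnit (M : ℕ) (d : ℤ) (h : IsCoprime d (M : ℤ)) : (ZMod M)ˣ :=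
  ((ZMod.coe_int_isUnit_iff_isCoprime d M).mpr h.symm).unit

theorem s59u_intUnit_coe (M : ℕ) (d : ℤ) (h : IsCoprime d (M : ℤ)) :
    ((s59u_intUnit M d h : (ZMod M)ˣ) : ZMod M) = ((d : ℤ) : ZMod M) :=
  IsUnit.unit_spec _

theorem s59u_unit_ext {M : ℕ} {u v : (ZMod M)ˣ} {a b : ℤ}
    (hu : ((u : (ZMod M)ˣ) : ZMod M) = ((a : ℤ) : ZMod M))
    (hv : ((v : (ZMod M)ˣ) : ZMod M) = ((b : ℤ) : ZMod M)) (h : (M : ℤ) ∣ a - b) : u = v := by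
  apply Units.ext
  rw [hu, hv, ZMod.intCast_eq_intCast_iff_dvd_sub]
  have h1 : b - a = -(a - b) := by ring
  rw [h1]
  exact (dvd_neg).mpr h

theorem s59u_isCoprime_of_unit {M : ℕ} {u : (ZMod M)ˣ} {d : ℤ}
    (hu : ((u : (ZMod M)ˣ) : ZMod M) = ((d : ℤ) : ZMod M)) : IsCoprime d (M : ℤ) := by
  have h1 : IsUnit ((d : ℤ) : ZMod M) := hu ▸ u.isUnit
  exact ((ZMod.coe_int_isUnit_iff_isCoprime d M).mp h1).symm

/-! ### One prime -/

section One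

variable {L₀ q M : ℕ} [Fact q.Prime] (hcop : Nat.Coprime L₀ q) (hM : M = L₀ * q)

include hM in
theorem s59u_dq_coprime' (a : (ZMod q)ˣ) :
    IsCoprime (s59w_dq L₀ q hcop (a : ZMod q)) (M : ℤ) := by
  rw [hM]; exact s59w_dq_coprime hcop a

/-- the unit of `ℤ/M` which is `≡ a mod q` and `≡ 1 mod L₀`. -/
def s59u_jq (a : (ZMod q)ˣ) : (ZMod M)ˣ :=
  s59u_intUnit M (s59w_dq L₀ q hcop (a : ZMod q)) (s59u_dq_coprime' hcop hM a)

theorem s59u_jq_coe (a : (ZMod q)ˣ) :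
    ((s59u_jq hcop hM a : (ZMod M)ˣ) : ZMod M)
      = ((s59w_dq L₀ q hcop (a : ZMod q) : ℤ) : ZMod M) :=
  s59u_intUnit_coe _ _ _

/-- uniqueness: a unit `≡ 1 mod L₀`, `≡ a mod q` is `j_q(a)`. -/
theorem s59u_jq_eq {d : ℤ} (du : (ZMod M)ˣ)
    (hdu : ((du : (ZMod M)ˣ) : ZMod M) = ((d : ℤ) : ZMod M))
    (h1 : (L₀ : ℤ) ∣ d - 1) (a : (ZMod q)ˣ) (h2 : ((d : ℤ) : ZMod q) = (a : ZMod q)) :
    du = s59u_jq hcop hM a := by
  refine s59u_unit_ext hdu (s59u_jq_coe hcop hM a) ?_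
  have h5 : ((L₀ * q : ℕ) : ℤ) ∣ d - s59w_dq L₀ q hcop (a : ZMod q) := by
    refine s59w_crt hcop ?_ ?_
    · have h4 := (s59w_dq_spec hcop (a : ZMod q)).1
      have h3 : d - s59w_dq L₀ q hcop (a : ZMod q)
          = (d - 1) - (s59w_dq L₀ q hcop (a : ZMod q) - 1) := by ring
      rw [h3]
      exact dvd_sub h1 h4
    · exact s59w_dvd_of_cast_eq (by rw [h2, (s59w_dq_spec hcop (a : ZMod q)).2])
  rw [hM]
  exact h5

variable {G : Type*} [CommGroup G] (θ : (ZMod M)ˣ →* G)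

/-- the `q`-component `a ↦ θ(j_q(a))` of `θ`. -/
def s59u_uq : (ZMod q)ˣ →* G where
  toFun a := θ (s59u_jq hcop hM a)
  map_one' := by
    have h1 : (1 : (ZMod M)ˣ) = s59u_jq hcop hM 1 :=
      s59u_jq_eq hcop hM 1 (d := 1) (by simp) (by simp) 1 (by simp)
    rw [← h1, map_one]
  map_mul' a b := by
    rw [← map_mul]
    congr 1
    symm
    refine s59u_jq_eq hcop hM _
      (d := s59w_dq L₀ q hcop (a : ZMod q) * s59w_dq L₀ q hcop (b : ZMod q)) ?_ ?_ _ ?_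
    · rw [Units.val_mul, s59u_jq_coe, s59u_jq_coe, Int.cast_mul]
    · obtain ⟨x, hx⟩ := (s59w_dq_spec hcop (a : ZMod q)).1
      obtain ⟨y, hy⟩ := (s59w_dq_spec hcop (b : ZMod q)).1
      exact ⟨x + y + (L₀ : ℤ) * x * y, by
        have h1 : s59w_dq L₀ q hcop (a : ZMod q) = 1 + L₀ * x := by linear_combination hx
        have h2 : s59w_dq L₀ q hcop (b : ZMod q) = 1 + L₀ * y := by linear_combination hy
        rw [h1, h2]; ring⟩
    · rw [Int.cast_mul, (s59w_dq_spec hcop _).2, (s59w_dq_spec hcop _).2, Units.val_mul]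

theorem s59u_uq_apply (a : (ZMod q)ˣ) : s59u_uq hcop hM θ a = θ (s59u_jq hcop hM a) := rfl

variable {R : Type*} [CommRing R]

include hcop hM in
/-- **one prime**: the character `χ = (θ ∘ j_q)⁻¹` of `(ℤ/q)ˣ`. -/
theorem s59u_chi_one_theta (θ : (ZMod M)ˣ →* Rˣ) :
    ∃ χ : MulChar (ZMod q) R,
      (∀ a : (ZMod q)ˣ, ∃ d : (ZMod M)ˣ, χ (a : ZMod q) = ((θ d : Rˣ) : R)) ∧
      ∀ (d : ℤ) (du : (ZMod M)ˣ), ((du : (ZMod M)ˣ) : ZMod M) = ((d : ℤ) : ZMod M) →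
        (L₀ : ℤ) ∣ d - 1 → χ ((d : ℤ) : ZMod q) * ((θ du : Rˣ) : R) = 1 := by
  refine ⟨MulChar.ofUnitHom ((s59u_uq hcop hM θ)⁻¹), fun a => ⟨(s59u_jq hcop hM a)⁻¹, ?_⟩,
    fun d du hdu h1 => ?_⟩
  · rw [MulChar.ofUnitHom_coe, MonoidHom.inv_apply, s59u_uq_apply, map_inv]
  · have hdM : IsCoprime d (M : ℤ) := s59u_isCoprime_of_unit hdu
    have hqM : q ∣ M := by rw [hM]; exact dvd_mul_left q L₀
    have hunit : IsUnit ((d : ℤ) : ZMod q) := s59u_isUnit_cast_of_isCoprime hqM hdM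
    obtain ⟨a, ha⟩ := hunit
    have h3 : du = s59u_jq hcop hM a := s59u_jq_eq hcop hM du hdu h1 a ha.symm
    rw [← ha, MulChar.ofUnitHom_coe, MonoidHom.inv_apply, s59u_uq_apply, h3]
    exact Units.inv_mul _

end One

/-! ### The dichotomy -/

theorem s59u_chi_dichotomy {q : ℕ} {R : Type*} [CommRing R] (μ : Subgroup Rˣ)
    (hμ : ∀ x ∈ μ, x ^ 2 = 1 → x = 1) (χ : MulChar (ZMod q) R)
    (hχμ : ∀ a : (ZMod q)ˣ, ∃ x ∈ μ, χ (a : ZMod q) = ((x : Rˣ) : R)) : χ = 1 ∨ χ ^ 2 ≠ 1 := by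
  by_cases h : χ ^ 2 = 1
  · left
    refine MulChar.ext fun a => ?_
    obtain ⟨x, hx, hxa⟩ := hχμ a
    have h2 := congrArg (fun χ' : MulChar (ZMod q) R => χ' (a : ZMod q)) h
    simp only [MulChar.pow_apply_coe, MulChar.one_apply_coe] at h2
    rw [hxa] at h2
    have h3 : x ^ 2 = 1 := by
      apply Units.ext
      rw [Units.val_pow_eq_pow_val, Units.val_one]
      exact h2
    rw [MulChar.one_apply_coe, hxa, hμ x hx h3, Units.val_one]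
  · right; exact h

/-! ### All primes -/

section All

variable (N : ℕ) [NeZero N] (Q : Finset ℕ) {R : Type*} [CommRing R]

/-- **the characters `χ_q` of `θ`.** -/
theorem s59u_exists_chi_theta (hQ : ∀ q ∈ Q, q.Prime ∧ ¬ q ∣ N)
    (θ : (ZMod (N * ∏ q ∈ Q, q))ˣ →* Rˣ)
    (hker : ∀ d ∈ s59u_ker (N * ∏ q ∈ Q, q) (∏ q ∈ Q, q) (dvd_mul_left _ _), θ d = 1) :
    ∃ χ : ∀ q : ℕ, MulChar (ZMod q) R,
      (∀ q ∈ Q, ∀ a : (ZMod q)ˣ, ∃ d : (ZMod (N * ∏ q ∈ Q, q))ˣ,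
        χ q (a : ZMod q) = ((θ d : Rˣ) : R)) ∧
      ∀ (d : ℤ) (du : (ZMod (N * ∏ q ∈ Q, q))ˣ),
        ((du : (ZMod (N * ∏ q ∈ Q, q))ˣ) : ZMod (N * ∏ q ∈ Q, q))
          = ((d : ℤ) : ZMod (N * ∏ q ∈ Q, q)) →
        (∏ q ∈ Q, χ q ((d : ℤ) : ZMod q)) * ((θ du : Rˣ) : R) = 1 := by
  classical
  have hone : ∀ q ∈ Q, ∃ χ : MulChar (ZMod q) R,
      (∀ a : (ZMod q)ˣ, ∃ d : (ZMod (N * ∏ q ∈ Q, q))ˣ, χ (a : ZMod q) = ((θ d : Rˣ) : R)) ∧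
      ∀ (d : ℤ) (du : (ZMod (N * ∏ q ∈ Q, q))ˣ),
        ((du : (ZMod (N * ∏ q ∈ Q, q))ˣ) : ZMod (N * ∏ q ∈ Q, q))
          = ((d : ℤ) : ZMod (N * ∏ q ∈ Q, q)) →
        ((N * ∏ r ∈ Q.erase q, r : ℕ) : ℤ) ∣ d - 1 →
          χ ((d : ℤ) : ZMod q) * ((θ du : Rˣ) : R) = 1 := by
    intro q hqQ
    haveI : Fact q.Prime := ⟨(hQ q hqQ).1⟩
    exact s59u_chi_one_theta (s59w_coprime_erase N Q hQ hqQ) (s59w_erase_mul N Q hqQ).symm θ
  choose! χ hχ1 hχ2 using hone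
  refine ⟨χ, hχ1, fun d du hdu => ?_⟩
  have hd : IsCoprime d ((N * ∏ q ∈ Q, q : ℕ) : ℤ) := s59u_isCoprime_of_unit hdu
  have hd' : ∀ q ∈ Q, ∃ x : ℤ, ((N * ∏ r ∈ Q.erase q, r : ℕ) : ℤ) ∣ x - 1 ∧
      ((x : ℤ) : ZMod q) = ((d : ℤ) : ZMod q) := fun q hq =>
    s59u_exists_d _ q (s59w_coprime_erase N Q hQ hq) _
  choose! dd hdd1 hdd2 using hd'
  -- `dd q` is prime to `q` and to `M`
  have hddq : ∀ q ∈ Q, IsCoprime (dd q) (q : ℤ) := by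
    intro q hq
    have hu : IsUnit (((dd q : ℤ)) : ZMod q) := by
      rw [hdd2 q hq]
      exact s59u_isUnit_cast_of_isCoprime (Dvd.intro_left _ (s59w_erase_mul N Q hq)) hd
    exact ((ZMod.coe_int_isUnit_iff_isCoprime _ q).mp hu).symm
  have hddM : ∀ q ∈ Q, IsCoprime (dd q) ((N * ∏ r ∈ Q, r : ℕ) : ℤ) := by
    intro q hq
    haveI : Fact q.Prime := ⟨(hQ q hq).1⟩
    rw [← s59w_erase_mul N Q hq]
    exact s59w_coprime_of (s59w_coprime_erase N Q hQ hq) (hdd1 q hq) (hddq q hq)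
  -- the units `ddu q`
  let ddu : ℕ → (ZMod (N * ∏ q ∈ Q, q))ˣ := fun q =>
    if hq : q ∈ Q then s59u_intUnit (N * ∏ q ∈ Q, q) (dd q) (hddM q hq) else 1
  have hddu : ∀ q ∈ Q, ((ddu q : (ZMod (N * ∏ q ∈ Q, q))ˣ) : ZMod (N * ∏ q ∈ Q, q))
      = ((dd q : ℤ) : ZMod (N * ∏ q ∈ Q, q)) := by
    intro q hq
    show (((if hq : q ∈ Q then s59u_intUnit (N * ∏ q ∈ Q, q) (dd q) (hddM q hq) else 1 :
      (ZMod (N * ∏ q ∈ Q, q))ˣ)) : ZMod (N * ∏ q ∈ Q, q)) = _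
    rw [dif_pos hq, s59u_intUnit_coe]
  have hterm : ∀ q ∈ Q, χ q ((d : ℤ) : ZMod q) * ((θ (ddu q) : Rˣ) : R) = 1 := by
    intro q hq
    have h1 := hχ2 q hq (dd q) (ddu q) (hddu q hq) (hdd1 q hq)
    rw [hdd2 q hq] at h1
    exact h1
  obtain ⟨e, he⟩ : ∃ e : (ZMod (N * ∏ q ∈ Q, q))ˣ, e = ∏ q ∈ Q, ddu q := ⟨_, rfl⟩
  have hecoe : ((e : (ZMod (N * ∏ q ∈ Q, q))ˣ) : ZMod (N * ∏ q ∈ Q, q))
      = (((∏ q ∈ Q, dd q : ℤ)) : ZMod (N * ∏ q ∈ Q, q)) := by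
    rw [he, Units.coe_prod, Int.cast_prod]
    exact Finset.prod_congr rfl hddu
  -- `∏ dd ≡ d mod q`
  have heq : ∀ q ∈ Q, (q : ℤ) ∣ (∏ r ∈ Q, dd r) - d := by
    intro q hq
    haveI : Fact q.Prime := ⟨(hQ q hq).1⟩
    refine s59w_dvd_of_cast_eq ?_
    rw [Int.cast_prod, ← Finset.mul_prod_erase Q _ hq, hdd2 q hq]
    have h1 : ∏ r ∈ Q.erase q, ((dd r : ℤ) : ZMod q) = 1 := by
      refine Finset.prod_eq_one fun r hr => ?_
      have hrQ : r ∈ Q := Finset.mem_of_mem_erase hr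
      have hqr : q ∈ Q.erase r := Finset.mem_erase.mpr ⟨(Finset.ne_of_mem_erase hr).symm, hq⟩
      refine s59u_cast_eq_one_of_dvd (L₀ := N * ∏ r' ∈ Q.erase r, r') ?_ (hdd1 r hrQ)
      exact Dvd.dvd.mul_left (Finset.dvd_prod_of_mem (fun r' => r') hqr) N
    rw [h1, mul_one]
  have hQd : ((∏ q ∈ Q, q : ℕ) : ℤ) ∣ (∏ r ∈ Q, dd r) - d := s59w_prodQ_dvd N Q hQ heq
  -- `du e⁻¹` is in the kernel
  have hmem : du * e⁻¹ ∈ s59u_ker (N * ∏ q ∈ Q, q) (∏ q ∈ Q, q) (dvd_mul_left _ _) := by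
    show ZMod.unitsMap _ (du * e⁻¹) = 1
    rw [map_mul, map_inv, mul_inv_eq_one]
    apply Units.ext
    simp only [ZMod.unitsMap_def, Units.coe_map, MonoidHom.coe_coe]
    rw [hdu, hecoe, map_intCast, map_intCast, ZMod.intCast_eq_intCast_iff_dvd_sub]
    exact hQd
  have hθ : θ du = θ e := by
    have h1 := hker _ hmem
    rw [map_mul, map_inv, mul_inv_eq_one] at h1
    exact h1
  rw [hθ, he, map_prod, Units.coe_prod, ← Finset.prod_mul_distrib]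
  exact Finset.prod_eq_one hterm

end All

end Fermat.Agent.Lib.S59
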