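/-
S59 / [PATCH-FLR] / (T6), part (III-c) (helper4, prefix `s59f_`): **Eichler–Shimura at a GOOD prime `r`,
pointwise, at `Γ_H`-level.**

An eigenclass `(θ, a, φ)` over `𝒪` at level `Γ_H(M)`, `M = N ∏ Q` (binders of helper3's `s59u_hNN`), any `ρ`
with Frobenius polynomials `X² − θ(ℓ)⁻¹ a_ℓ X + ℓ` (`ℓ ∉ S`), and a prime `r ∤ M p` (`r ∈ S` allowed):
`charpoly ρ(Frob_r) = X² − θ(r)⁻¹ a_r X + r`.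

Chain: `s59u_exists_chi_theta` (the `χ_q`) → `s59f_TwistES_int` (FNewPt4: an eigenclass on `Γ₀(N ∏ q²)` with
eigenvalues `θ(ℓ)⁻¹ a_ℓ`, ALL `ℓ ∤ N ∏ q²`, in particular `ℓ = r`) → `s59f_ES0` (FNewPt3).
-/
import Mathlib
import Fermat.Agent.Lib.S59.FNewPt3
import Fermat.Agent.Lib.S59.FNewPt4
import Fermat.Agent.Lib.S59.UNNChi

set_option autoImplicit false
set_option linter.unusedSectionVars false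
set_option linter.unusedVariables false
set_option linter.style.haveILetI false

noncomputable section

namespace Fermat.Agent.Lib.S59

open Polynomial IsLocalRing
open Fermat.Agent.Lib.S48 Fermat.Agent.Lib.ES Fermat.Agent.Lib.S29 Fermat.Agent.Lib.S30
  Fermat.Agent.Lib.S35 Fermat.Agent.Lib.S36 Fermat.Agent.Lib.S41
  CongruenceSubgroup ModularCurve.Period
open scoped MatrixGroups TensorProduct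

local notation "Qbar" => AlgebraicClosure ℚ
local notation "GQ" => (AlgebraicClosure ℚ ≃ₐ[ℚ] AlgebraicClosure ℚ)

section PsiZ

variable {Lev : ℕ} [NeZero Lev] {𝒪 : Type*} [CommRing 𝒪]

/-- `ψ = θ²` on the integers (zero off the units). -/
def s59f_psiZ (θ : (ZMod Lev)ˣ →* 𝒪ˣ) (d : ℤ) : 𝒪 := by
  classical
  exact if h : IsCoprime d ((Lev : ℕ) : ℤ) then (((θ (s59u_intUnit Lev d h) : 𝒪ˣ) : 𝒪) ^ 2) else 0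

theorem s59f_psiZ_eq (θ : (ZMod Lev)ˣ →* 𝒪ˣ) (d : ℤ) (du : (ZMod Lev)ˣ)
    (hdu : ((du : (ZMod Lev)ˣ) : ZMod Lev) = ((d : ℤ) : ZMod Lev)) :
    s59f_psiZ θ d = ((θ du : 𝒪ˣ) : 𝒪) ^ 2 := by
  classical
  have hd := s59u_isCoprime_of_unit hdu
  rw [s59f_psiZ, dif_pos hd]
  have h3 : s59u_intUnit Lev d hd = du :=
    s59u_unit_ext (s59u_intUnit_coe _ d hd) hdu (by simp)
  rw [h3]

theorem s59f_psiZ_per (θ : (ZMod Lev)ˣ →* 𝒪ˣ) (x y : ℤ) (hxy : ((Lev : ℕ) : ℤ) ∣ x - y) :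
    s59f_psiZ θ x = s59f_psiZ θ y := by
  classical
  have hcast : ((x : ℤ) : ZMod Lev) = ((y : ℤ) : ZMod Lev) := by
    rw [ZMod.intCast_eq_intCast_iff_dvd_sub]
    have h1 : y - x = -(x - y) := by ring
    rw [h1]
    exact (dvd_neg).mpr hxy
  have hiff : IsCoprime x ((Lev : ℕ) : ℤ) ↔ IsCoprime y ((Lev : ℕ) : ℤ) := by
    constructor
    · intro h
      have h2 := (ZMod.coe_int_isUnit_iff_isCoprime x Lev).mpr h.symm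
      rw [hcast] at h2
      exact ((ZMod.coe_int_isUnit_iff_isCoprime y Lev).mp h2).symm
    · intro h
      have h2 := (ZMod.coe_int_isUnit_iff_isCoprime y Lev).mpr h.symm
      rw [← hcast] at h2
      exact ((ZMod.coe_int_isUnit_iff_isCoprime x Lev).mp h2).symm
  by_cases hx : IsCoprime x ((Lev : ℕ) : ℤ)
  · rw [s59f_psiZ_eq θ x (s59u_intUnit _ x hx) (s59u_intUnit_coe _ x hx),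
      s59f_psiZ_eq θ y (s59u_intUnit _ x hx) (by rw [s59u_intUnit_coe, hcast])]
  · have hy : ¬ IsCoprime y ((Lev : ℕ) : ℤ) := fun h => hx (hiff.mpr h)
    rw [s59f_psiZ, s59f_psiZ, dif_neg hx, dif_neg hy]

end PsiZ

section Core

variable (p : ℕ) [Fact p.Prime] (N : ℕ) [NeZero N] (Q : Finset ℕ) [NeZero (N * ∏ q ∈ Q, q)]

/-- **Eichler–Shimura at a good prime, pointwise, level written `N ∏ Q`.** -/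
theorem s59f_ESpt_core (hQ : ∀ q ∈ Q, q.Prime ∧ ¬ q ∣ N)
    (H : Subgroup (ZMod (N * ∏ q ∈ Q, q))ˣ)
    (hH : s59u_ker (N * ∏ q ∈ Q, q) (∏ q ∈ Q, q) (dvd_mul_left _ _) ≤ H)
    (𝒪 : Type) [CommRing 𝒪] [IsDomain 𝒪] [IsDiscreteValuationRing 𝒪]
    [IsAdicComplete (maximalIdeal 𝒪) 𝒪] [Finite (ResidueField 𝒪)] [CharZero 𝒪] [Algebra ℤ_[p] 𝒪]
    (hp𝒪 : (p : 𝒪) ∈ maximalIdeal 𝒪)
    (θ : (ZMod (N * ∏ q ∈ Q, q))ˣ →* 𝒪ˣ) (hθH : ∀ d ∈ H, θ d = 1)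
    (μ : Subgroup 𝒪ˣ) (hμ : ∀ x ∈ μ, x ^ 2 = 1 → x = 1)
    (hθμ : ∀ d : (ZMod (N * ∏ q ∈ Q, q))ˣ, θ d ∈ μ)
    (a : ℕ → 𝒪)
    (φ : Additive (s48h_GammaH (N * ∏ q ∈ Q, q) H) →+ 𝒪) (hφ0 : φ ≠ 0)
    (hpar : IsParabolicHom (s48h_GammaH (N * ∏ q ∈ Q, q) H) φ)
    (hdiam : ∀ (σ : SL(2, ℤ)) (hσ : σ ∈ Gamma0 (N * ∏ q ∈ Q, q))
      (du : (ZMod (N * ∏ q ∈ Q, q))ˣ),
      ((du : (ZMod (N * ∏ q ∈ Q, q))ˣ) : ZMod (N * ∏ q ∈ Q, q))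
        = ((σ 1 1 : ℤ) : ZMod (N * ∏ q ∈ Q, q)) →
      s48h_diamondH H σ hσ 𝒪 φ = (((θ du : 𝒪ˣ) : 𝒪) ^ 2) • φ)
    (heig : ∀ (ℓ : ℕ) [Fact ℓ.Prime] (hℓ : ¬ ℓ ∣ N * ∏ q ∈ Q, q) (σ : SL(2, ℤ))
      (hσ : σ ∈ Gamma0 (N * ∏ q ∈ Q, q))
      (hσ11 : ((σ 1 1 : ℤ) : ZMod (N * ∏ q ∈ Q, q)) = (ℓ : ZMod (N * ∏ q ∈ Q, q))),
      s48h_TpH H hℓ σ hσ hσ11 𝒪 φ = a ℓ • φ)
    (S : Finset ℕ) (hpS : p ∈ S) (hMS : ∀ r : ℕ, r.Prime → r ∣ N * ∏ q ∈ Q, q → r ∈ S)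
    (ρ : GaloisRepAdic 𝒪)
    (hρ : ∀ ℓ : ℕ, ℓ.Prime → ℓ ∉ S → ∀ ℓu : (ZMod (N * ∏ q ∈ Q, q))ˣ,
        ((ℓu : (ZMod (N * ∏ q ∈ Q, q))ˣ) : ZMod (N * ∏ q ∈ Q, q)) = (ℓ : ZMod (N * ∏ q ∈ Q, q)) →
        ∀ P : ValuationSubring Qbar, P.LiesOverPrime ℓ → ∀ σ : GQ, P.IsFrobeniusAt σ ℓ →
          (ρ.ρ σ).charpoly = X ^ 2 - C ((((θ ℓu)⁻¹ : 𝒪ˣ) : 𝒪) * a ℓ) * X + C (ℓ : 𝒪))
    (r : ℕ) (hr : r.Prime) (hrp : r ≠ p) (hrM : ¬ r ∣ N * ∏ q ∈ Q, q)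
    (ru : (ZMod (N * ∏ q ∈ Q, q))ˣ)
    (hru : ((ru : (ZMod (N * ∏ q ∈ Q, q))ˣ) : ZMod (N * ∏ q ∈ Q, q)) = (r : ZMod (N * ∏ q ∈ Q, q)))
    (A : ValuationSubring Qbar) (hA : A.LiesOverPrime r) (σ : GQ) (hσ : A.IsFrobeniusAt σ r) :
    (ρ.ρ σ).charpoly = X ^ 2 - C ((((θ ru)⁻¹ : 𝒪ˣ) : 𝒪) * a r) * X + C (r : 𝒪) := by
  classical
  obtain ⟨χ, hχ1, hχ2⟩ := s59u_exists_chi_theta N Q hQ θ (fun d hd => hθH d (hH hd))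
  have hdich : ∀ q ∈ Q, χ q = 1 ∨ (χ q) ^ 2 ≠ 1 := fun q hq =>
    s59u_chi_dichotomy μ hμ (χ q) (fun b => by
      obtain ⟨d, hd⟩ := hχ1 q hq b
      exact ⟨θ d, hθμ d, hd⟩)
  -- `ψ = θ²` on the integers
  have hψχ : ∀ d : ℤ, IsCoprime d ((N * ∏ q ∈ Q, q : ℕ) : ℤ) →
      s59f_psiZ θ d * ∏ q ∈ Q, (χ q ((d : ℤ) : ZMod q)) ^ 2 = 1 := by
    intro d hd
    have h1 := hχ2 d (s59u_intUnit _ d hd) (s59u_intUnit_coe _ d hd)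
    rw [s59f_psiZ_eq θ d _ (s59u_intUnit_coe _ d hd), Finset.prod_pow, ← mul_pow, mul_comm, h1,
      one_pow]
  have hdiamZ : ∀ (σ : SL(2, ℤ)) (hσ : σ ∈ Gamma0 (N * ∏ q ∈ Q, q)),
      s48h_diamondH H σ hσ 𝒪 φ = s59f_psiZ θ (σ 1 1) • φ := by
    intro σ hσ
    have hcσ : IsCoprime (σ 1 1) ((N * ∏ q ∈ Q, q : ℕ) : ℤ) := s59u_coprime_lowerRight hσ
    rw [s59f_psiZ_eq θ (σ 1 1) (s59u_intUnit _ _ hcσ) (s59u_intUnit_coe _ _ hcσ)]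
    exact hdiam σ hσ _ (s59u_intUnit_coe _ _ hcσ)
  -- the level `N ∏ q²`
  obtain ⟨M', hM'⟩ : ∃ M' : ℕ, M' = N * (∏ q ∈ Q, q) * ∏ q ∈ Q, q := ⟨_, rfl⟩
  have hprod0 : (∏ q ∈ Q, q) ≠ 0 :=
    Finset.prod_ne_zero_iff.mpr fun q hq => (hQ q hq).1.ne_zero
  haveI : NeZero M' := ⟨by
    rw [hM']; exact mul_ne_zero (mul_ne_zero (NeZero.ne N) hprod0) hprod0⟩
  have hdvdM' : ∀ ℓ : ℕ, ℓ.Prime → ℓ ∣ M' → ℓ ∣ N * ∏ q ∈ Q, q := by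
    intro ℓ hℓ h
    rw [hM'] at h
    rcases (hℓ.dvd_mul).mp h with h' | h'
    · exact h'
    · exact Dvd.dvd.mul_left h' N
  have hrM' : ¬ r ∣ M' := fun h => hrM (hdvdM' r hr h)
  have hNS : ∀ ℓ : ℕ, ℓ.Prime → ℓ ∣ M' → ℓ ∈ S := fun ℓ hℓ h => hMS ℓ hℓ (hdvdM' ℓ hℓ h)
  obtain ⟨Φ, hΦ0, hΦpar, hΦeig⟩ := s59f_TwistES_int N Q 𝒪 hQ H hH χ hdich (s59f_psiZ θ)
    (s59f_psiZ_per θ) hψχ a φ hφ0 hpar hdiamZ heig M' hM'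
  -- the eigenvalues
  obtain ⟨y, hy⟩ : ∃ y : ℕ → 𝒪, y = fun ℓ => (∏ q ∈ Q, χ q (ℓ : ZMod q)) * a ℓ := ⟨_, rfl⟩
  have hyθ : ∀ (ℓ : ℕ) (ℓu : (ZMod (N * ∏ q ∈ Q, q))ˣ),
      ((ℓu : (ZMod (N * ∏ q ∈ Q, q))ˣ) : ZMod (N * ∏ q ∈ Q, q)) = (ℓ : ZMod (N * ∏ q ∈ Q, q)) →
      y ℓ = (((θ ℓu)⁻¹ : 𝒪ˣ) : 𝒪) * a ℓ := by
    intro ℓ ℓu hℓu
    have h1 := hχ2 (ℓ : ℤ) ℓu (by rw [hℓu, Int.cast_natCast])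
    simp only [Int.cast_natCast] at h1
    have h2 : (∏ q ∈ Q, χ q (ℓ : ZMod q)) = (((θ ℓu)⁻¹ : 𝒪ˣ) : 𝒪) := by
      calc (∏ q ∈ Q, χ q (ℓ : ZMod q))
          = (∏ q ∈ Q, χ q (ℓ : ZMod q)) * (((θ ℓu : 𝒪ˣ) : 𝒪) * (((θ ℓu)⁻¹ : 𝒪ˣ) : 𝒪)) := by
            rw [Units.mul_inv, mul_one]
        _ = (((θ ℓu)⁻¹ : 𝒪ˣ) : 𝒪) := by rw [← mul_assoc, h1, one_mul]
    rw [hy]
    show (∏ q ∈ Q, χ q (ℓ : ZMod q)) * a ℓ = _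
    rw [h2]
  have hunit : ∀ ℓ : ℕ, ℓ.Prime → ℓ ∉ S → ∃ ℓu : (ZMod (N * ∏ q ∈ Q, q))ˣ,
      ((ℓu : (ZMod (N * ∏ q ∈ Q, q))ˣ) : ZMod (N * ∏ q ∈ Q, q)) = (ℓ : ZMod (N * ∏ q ∈ Q, q)) := by
    intro ℓ hℓ hℓS
    have hℓM : ¬ ℓ ∣ N * ∏ q ∈ Q, q := fun h => hℓS (hMS ℓ hℓ h)
    have hcopℓ : Nat.Coprime ℓ (N * ∏ q ∈ Q, q) := (Nat.Prime.coprime_iff_not_dvd hℓ).mpr hℓM
    exact ⟨ZMod.unitOfCoprime ℓ hcopℓ, ZMod.coe_unitOfCoprime ℓ hcopℓ⟩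
  have key := s59f_ES0 p M' r hr hrp hrM' S hpS hNS 𝒪 hp𝒪 y Φ hΦpar hΦ0
    (fun ℓ _ hℓN _ => by rw [hy]; exact hΦeig ℓ hℓN)
    (by
      haveI : Fact r.Prime := ⟨hr⟩
      rw [hy]
      exact hΦeig r hrM')
    ρ
    (fun ℓ hℓ hℓS P hP τ hτ => by
      obtain ⟨ℓu, hℓu⟩ := hunit ℓ hℓ hℓS
      rw [hρ ℓ hℓ hℓS ℓu hℓu P hP τ hτ, hyθ ℓ ℓu hℓu])
    A hA σ hσ
  rw [key, hyθ r ru hru]

end Core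

section General

variable (p : ℕ) [Fact p.Prime]

/-- **Eichler–Shimura at a good prime, pointwise, level `M = N ∏ Q`.** -/
theorem s59f_ESpt (M : ℕ) [NeZero M] (N : ℕ) [NeZero N] (Q : Finset ℕ)
    (hMeq : M = N * ∏ q ∈ Q, q) (hQ : ∀ q ∈ Q, q.Prime ∧ ¬ q ∣ N)
    (H : Subgroup (ZMod M)ˣ)
    (hH : ∀ (x : ℤ) (u : (ZMod M)ˣ), ((x : ℤ) : ZMod (∏ q ∈ Q, q)) = 1 →
      ((u : (ZMod M)ˣ) : ZMod M) = ((x : ℤ) : ZMod M) → u ∈ H)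
    (𝒪 : Type) [CommRing 𝒪] [IsDomain 𝒪] [IsDiscreteValuationRing 𝒪]
    [IsAdicComplete (maximalIdeal 𝒪) 𝒪] [Finite (ResidueField 𝒪)] [CharZero 𝒪] [Algebra ℤ_[p] 𝒪]
    (hp𝒪 : (p : 𝒪) ∈ maximalIdeal 𝒪)
    (θ : (ZMod M)ˣ →* 𝒪ˣ) (hθH : ∀ d ∈ H, θ d = 1)
    (μ : Subgroup 𝒪ˣ) (hμ : ∀ x ∈ μ, x ^ 2 = 1 → x = 1) (hθμ : ∀ d : (ZMod M)ˣ, θ d ∈ μ)
    (a : ℕ → 𝒪)
    (φ : Additive (s48h_GammaH M H) →+ 𝒪) (hφ0 : φ ≠ 0)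
    (hpar : IsParabolicHom (s48h_GammaH M H) φ)
    (hdiam : ∀ (σ : SL(2, ℤ)) (hσ : σ ∈ Gamma0 M) (du : (ZMod M)ˣ),
      ((du : (ZMod M)ˣ) : ZMod M) = ((σ 1 1 : ℤ) : ZMod M) →
      s48h_diamondH H σ hσ 𝒪 φ = (((θ du : 𝒪ˣ) : 𝒪) ^ 2) • φ)
    (heig : ∀ (ℓ : ℕ) [Fact ℓ.Prime] (hℓ : ¬ ℓ ∣ M) (σ : SL(2, ℤ)) (hσ : σ ∈ Gamma0 M)
      (hσ11 : ((σ 1 1 : ℤ) : ZMod M) = (ℓ : ZMod M)),
      s48h_TpH H hℓ σ hσ hσ11 𝒪 φ = a ℓ • φ)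
    (S : Finset ℕ) (hpS : p ∈ S) (hMS : ∀ r : ℕ, r.Prime → r ∣ M → r ∈ S)
    (ρ : GaloisRepAdic 𝒪)
    (hρ : ∀ ℓ : ℕ, ℓ.Prime → ℓ ∉ S → ∀ ℓu : (ZMod M)ˣ,
        ((ℓu : (ZMod M)ˣ) : ZMod M) = (ℓ : ZMod M) →
        ∀ P : ValuationSubring Qbar, P.LiesOverPrime ℓ → ∀ σ : GQ, P.IsFrobeniusAt σ ℓ →
          (ρ.ρ σ).charpoly = X ^ 2 - C ((((θ ℓu)⁻¹ : 𝒪ˣ) : 𝒪) * a ℓ) * X + C (ℓ : 𝒪))
    (r : ℕ) (hr : r.Prime) (hrp : r ≠ p) (hrM : ¬ r ∣ M)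
    (ru : (ZMod M)ˣ) (hru : ((ru : (ZMod M)ˣ) : ZMod M) = (r : ZMod M))
    (A : ValuationSubring Qbar) (hA : A.LiesOverPrime r) (σ : GQ) (hσ : A.IsFrobeniusAt σ r) :
    (ρ.ρ σ).charpoly = X ^ 2 - C ((((θ ru)⁻¹ : 𝒪ˣ) : 𝒪) * a r) * X + C (r : 𝒪) := by
  subst hMeq
  refine s59f_ESpt_core p N Q hQ H ?_ 𝒪 hp𝒪 θ hθH μ hμ hθμ a φ hφ0 hpar hdiam heig S hpS hMS ρ hρ
    r hr hrp hrM ru hru A hA σ hσ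
  intro u hu
  refine hH ((((u : (ZMod (N * ∏ q ∈ Q, q))ˣ) : ZMod (N * ∏ q ∈ Q, q)).val : ℕ) : ℤ) u ?_ ?_
  · have h1 : ZMod.unitsMap (dvd_mul_left (∏ q ∈ Q, q) N) u = 1 := hu
    have h2 := congrArg (fun v : (ZMod (∏ q ∈ Q, q))ˣ => (v : ZMod (∏ q ∈ Q, q))) h1
    simp only [ZMod.unitsMap_def, Units.coe_map, MonoidHom.coe_coe, Units.val_one,
      ZMod.castHom_apply] at h2
    rw [Int.cast_natCast, ZMod.natCast_val]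
    exact h2
  · rw [Int.cast_natCast, ZMod.natCast_zmod_val]

end General

end Fermat.Agent.Lib.S59
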