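/-
S59 / [PATCH-FLR] / (T6), part (III-d) (helper4, prefix `s59f_`): **[NEW-q], pointwise, at `Γ_{H'}`-level.**

An eigenclass `(θ, a, φ)` over `𝒪` at level `Γ_{H'}(L r)`, `L = N₁ ∏ Q`, `r ∤ L` an auxiliary prime, `H'` the
preimage of `H ⊇ ker((ℤ/L)ˣ → (ℤ/∏Q)ˣ)`, which is KERNEL-NEW at `r` (`cor φ = 0 = cor (w φ)`, the operators
of FOldH1–9), and any `ρ` with Frobenius polynomials `X² − θ(ℓ)⁻¹ a_ℓ X + ℓ` (`ℓ ∉ S`):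
`charpoly ρ(Frob_r) = X² ∓ (r + 1) X + r`.

Chain: `θ` factors through `(ℤ/L)ˣ` → `s59u_exists_chi_theta` (the `χ_q`) → `s59f_TwistKerNew_int` (FTwNew5: a
kernel-new eigenclass on `Γ₀(N₁ ∏ q² · r)` with eigenvalues `θ(ℓ)⁻¹ a_ℓ`) → `s59f_NEW0` (FNewPt2).
-/
import Mathlib
import Fermat.Agent.Lib.S59.FNewPt5

set_option autoImplicit false
set_option linter.unusedSectionVars false
set_option linter.unusedVariables false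
set_option linter.style.haveILetI false

noncomputable section

namespace Fermat.Agent.Lib.S59

open Polynomial IsLocalRing
open Fermat.Agent.Lib.S48 Fermat.Agent.Lib.ES Fermat.Agent.Lib.S29 Fermat.Agent.Lib.S30
  Fermat.Agent.Lib.S35 Fermat.Agent.Lib.S36 Fermat.Agent.Lib.S41
  CongruenceSubgroup ModularCurve.Period
open scoped MatrixGroups TensorProduct

local notation "Qbar" => AlgebraicClosure ℚ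
local notation "GQ" => (AlgebraicClosure ℚ ≃ₐ[ℚ] AlgebraicClosure ℚ)

section Factor

/-- a character of `(ℤ/m)ˣ` trivial on the kernel of the reduction to `(ℤ/n)ˣ` factors through it. -/
theorem s59f_exists_factor {n m : ℕ} [NeZero m] (h : n ∣ m) {A : Type*} [Group A]
    (θ : (ZMod m)ˣ →* A) (hθ : ∀ u : (ZMod m)ˣ, ZMod.unitsMap h u = 1 → θ u = 1) :
    ∃ θ₀ : (ZMod n)ˣ →* A, ∀ u : (ZMod m)ˣ, θ₀ (ZMod.unitsMap h u) = θ u := by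
  have hsurj := ZMod.unitsMap_surjective h
  have hker : (ZMod.unitsMap h).ker ≤ θ.ker := fun u hu =>
    MonoidHom.mem_ker.mpr (hθ u (MonoidHom.mem_ker.mp hu))
  refine ⟨(ZMod.unitsMap h).liftOfRightInverse (Function.surjInv hsurj)
    (Function.rightInverse_surjInv hsurj) ⟨θ, hker⟩, fun u => ?_⟩
  exact MonoidHom.liftOfRightInverse_comp_apply _ _ _ ⟨θ, hker⟩ u

end Factor

section NewPt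

variable (p : ℕ) [Fact p.Prime] (N₁ : ℕ) [NeZero N₁] (r : ℕ) [NeZero r] [hr : Fact r.Prime]
  (Q : Finset ℕ)

/-- **[NEW-q], pointwise, at `Γ_{H'}(L r)`.** -/
theorem s59f_NEWpt (hrp : r ≠ p) (hQ : ∀ q ∈ Q, q.Prime ∧ ¬ q ∣ N₁ * r)
    {L : ℕ} [NeZero L] (hL : L = N₁ * ∏ q ∈ Q, q) (hrL : ¬ r ∣ L)
    (H : Subgroup (ZMod L)ˣ) (hD₁ : (∏ q ∈ Q, q) ∣ L)
    (hHker : s59u_ker L (∏ q ∈ Q, q) hD₁ ≤ H)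
    (H' : Subgroup (ZMod (L * r))ˣ)
    (hH' : ∀ u : (ZMod (L * r))ˣ, u ∈ H' ↔ ZMod.unitsMap (dvd_mul_right L r) u ∈ H)
    (𝒪 : Type) [CommRing 𝒪] [IsDomain 𝒪] [IsDiscreteValuationRing 𝒪]
    [IsAdicComplete (maximalIdeal 𝒪) 𝒪] [Finite (ResidueField 𝒪)] [CharZero 𝒪] [Algebra ℤ_[p] 𝒪]
    (hp𝒪 : (p : 𝒪) ∈ maximalIdeal 𝒪)
    (θ : (ZMod (L * r))ˣ →* 𝒪ˣ) (hθH : ∀ d ∈ H', θ d = 1)
    (μ : Subgroup 𝒪ˣ) (hμ : ∀ x ∈ μ, x ^ 2 = 1 → x = 1)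
    (hθμ : ∀ d : (ZMod (L * r))ˣ, θ d ∈ μ)
    (a : ℕ → 𝒪)
    (φ : Additive (s48h_GammaH (L * r) H') →+ 𝒪) (hφ0 : φ ≠ 0)
    (hpar : IsParabolicHom (s48h_GammaH (L * r) H') φ)
    (hdiam : ∀ (σ : SL(2, ℤ)) (hσ : σ ∈ Gamma0 (L * r)) (du : (ZMod (L * r))ˣ),
      ((du : (ZMod (L * r))ˣ) : ZMod (L * r)) = ((σ 1 1 : ℤ) : ZMod (L * r)) →
      s48h_diamondH H' σ hσ 𝒪 φ = (((θ du : 𝒪ˣ) : 𝒪) ^ 2) • φ)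
    (heig : ∀ (ℓ : ℕ) [Fact ℓ.Prime] (hℓ : ¬ ℓ ∣ L * r) (σ : SL(2, ℤ)) (hσ : σ ∈ Gamma0 (L * r))
      (hσ11 : ((σ 1 1 : ℤ) : ZMod (L * r)) = (ℓ : ZMod (L * r))),
      s48h_TpH H' hℓ σ hσ hσ11 𝒪 φ = a ℓ • φ)
    (hcA : s59f_corH hrL (s59f_isG_GammaH L H)
      (s59f_isG'_GammaH hrL rfl (dvd_mul_right L r) hH') 𝒪 φ = 0)
    (hcB : s59f_corH hrL (s59f_isG_GammaH L H)
      (s59f_isG'_GammaH hrL rfl (dvd_mul_right L r) hH') 𝒪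
      (s59f_wH hrL (s59f_isG'_GammaH hrL rfl (dvd_mul_right L r) hH') 𝒪 φ) = 0)
    (S : Finset ℕ) (hpS : p ∈ S) (hMS : ∀ q : ℕ, q.Prime → q ∣ L * r → q ∈ S)
    (ρ : GaloisRepAdic 𝒪)
    (hρ : ∀ ℓ : ℕ, ℓ.Prime → ℓ ∉ S → ∀ ℓu : (ZMod (L * r))ˣ,
        ((ℓu : (ZMod (L * r))ˣ) : ZMod (L * r)) = (ℓ : ZMod (L * r)) →
        ∀ P : ValuationSubring Qbar, P.LiesOverPrime ℓ → ∀ σ : GQ, P.IsFrobeniusAt σ ℓ →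
          (ρ.ρ σ).charpoly = X ^ 2 - C ((((θ ℓu)⁻¹ : 𝒪ˣ) : 𝒪) * a ℓ) * X + C (ℓ : 𝒪))
    (A : ValuationSubring Qbar) (hA : A.LiesOverPrime r) (σ : GQ) (hσ : A.IsFrobeniusAt σ r) :
    (ρ.ρ σ).charpoly = X ^ 2 - C ((r : 𝒪) + 1) * X + C (r : 𝒪) ∨
      (ρ.ρ σ).charpoly = X ^ 2 + C ((r : 𝒪) + 1) * X + C (r : 𝒪) := by
  classical
  subst hL
  haveI : NeZero ((N₁ * ∏ q ∈ Q, q) * r) := ⟨mul_ne_zero (NeZero.ne _) (NeZero.ne r)⟩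
  have hQ' : ∀ q ∈ Q, q.Prime ∧ ¬ q ∣ N₁ := fun q hq =>
    ⟨(hQ q hq).1, fun h => (hQ q hq).2 (Dvd.dvd.mul_right h r)⟩
  -- `θ` factors through `(ℤ/L)ˣ`
  obtain ⟨θ₀, hθ₀⟩ := s59f_exists_factor (dvd_mul_right (N₁ * ∏ q ∈ Q, q) r) θ (fun u hu =>
    hθH u ((hH' u).mpr (by rw [hu]; exact one_mem H)))
  have hsurj := ZMod.unitsMap_surjective (dvd_mul_right (N₁ * ∏ q ∈ Q, q) r)
  have hθ₀H : ∀ d ∈ H, θ₀ d = 1 := by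
    intro d hd
    obtain ⟨u, rfl⟩ := hsurj d
    rw [hθ₀]
    exact hθH u ((hH' u).mpr hd)
  have hθ₀μ : ∀ d, θ₀ d ∈ μ := by
    intro d
    obtain ⟨u, rfl⟩ := hsurj d
    rw [hθ₀]
    exact hθμ u
  have hkerH : s59u_ker (N₁ * ∏ q ∈ Q, q) (∏ q ∈ Q, q) (dvd_mul_left _ _) ≤ H := hHker
  obtain ⟨χ, hχ1, hχ2⟩ := s59u_exists_chi_theta N₁ Q hQ' θ₀ (fun d hd => hθ₀H d (hkerH hd))
  have hdich : ∀ q ∈ Q, χ q = 1 ∨ (χ q) ^ 2 ≠ 1 := fun q hq =>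
    s59u_chi_dichotomy μ hμ (χ q) (fun b => by
      obtain ⟨d, hd⟩ := hχ1 q hq b
      exact ⟨θ₀ d, hθ₀μ d, hd⟩)
  -- the product formula at level `L r`
  have hχ3 : ∀ (d : ℤ) (du : (ZMod ((N₁ * ∏ q ∈ Q, q) * r))ˣ),
      ((du : (ZMod ((N₁ * ∏ q ∈ Q, q) * r))ˣ) : ZMod ((N₁ * ∏ q ∈ Q, q) * r))
        = ((d : ℤ) : ZMod ((N₁ * ∏ q ∈ Q, q) * r)) →
      (∏ q ∈ Q, χ q ((d : ℤ) : ZMod q)) * ((θ du : 𝒪ˣ) : 𝒪) = 1 := by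
    intro d du hdu
    rw [← hθ₀]
    refine hχ2 d _ ?_
    rw [ZMod.unitsMap_def, Units.coe_map, MonoidHom.coe_coe, hdu, map_intCast]
  have hψχ : ∀ d : ℤ, IsCoprime d (((N₁ * ∏ q ∈ Q, q) * r : ℕ) : ℤ) →
      s59f_psiZ θ d * ∏ q ∈ Q, (χ q ((d : ℤ) : ZMod q)) ^ 2 = 1 := by
    intro d hd
    have h1 := hχ3 d (s59u_intUnit _ d hd) (s59u_intUnit_coe _ d hd)
    rw [s59f_psiZ_eq θ d _ (s59u_intUnit_coe _ d hd), Finset.prod_pow, ← mul_pow, mul_comm, h1,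
      one_pow]
  have hdiamZ : ∀ (σ : SL(2, ℤ)) (hσ : σ ∈ Gamma0 ((N₁ * ∏ q ∈ Q, q) * r)),
      s48h_diamondH H' σ hσ 𝒪 φ = s59f_psiZ θ (σ 1 1) • φ := by
    intro σ hσ
    have hcσ : IsCoprime (σ 1 1) (((N₁ * ∏ q ∈ Q, q) * r : ℕ) : ℤ) := s59u_coprime_lowerRight hσ
    rw [s59f_psiZ_eq θ (σ 1 1) (s59u_intUnit _ _ hcσ) (s59u_intUnit_coe _ _ hcσ)]
    exact hdiam σ hσ _ (s59u_intUnit_coe _ _ hcσ)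
  -- the level `N₁ ∏ q² · r`
  obtain ⟨M', hM'⟩ : ∃ M' : ℕ, M' = N₁ * (∏ q ∈ Q, q) * ∏ q ∈ Q, q := ⟨_, rfl⟩
  have hprod0 : (∏ q ∈ Q, q) ≠ 0 :=
    Finset.prod_ne_zero_iff.mpr fun q hq => (hQ q hq).1.ne_zero
  haveI : NeZero M' := ⟨by
    rw [hM']; exact mul_ne_zero (mul_ne_zero (NeZero.ne N₁) hprod0) hprod0⟩
  obtain ⟨hrM, Φ, hΦ0, hΦpar, hΦeig, hA0, hB0⟩ := s59f_TwistKerNew_int N₁ r Q 𝒪 hQ rfl hrL H hD₁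
    hHker H' hH' χ hdich (s59f_psiZ θ) (s59f_psiZ_per θ) hψχ a φ hφ0 hpar hdiamZ heig hcA hcB M' hM'
  have hdvdM' : ∀ ℓ : ℕ, ℓ.Prime → ℓ ∣ M' * r → ℓ ∣ (N₁ * ∏ q ∈ Q, q) * r := by
    intro ℓ hℓ h
    rcases (hℓ.dvd_mul).mp h with h' | h'
    · rw [hM'] at h'
      rcases (hℓ.dvd_mul).mp h' with h'' | h''
      · exact Dvd.dvd.mul_right h'' r
      · exact Dvd.dvd.mul_right (Dvd.dvd.mul_left h'' N₁) r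
    · exact Dvd.dvd.mul_left h' _
  have hNS : ∀ ℓ : ℕ, ℓ.Prime → ℓ ∣ M' * r → ℓ ∈ S := fun ℓ hℓ h => hMS ℓ hℓ (hdvdM' ℓ hℓ h)
  -- the eigenvalues
  obtain ⟨y, hy⟩ : ∃ y : ℕ → 𝒪, y = fun ℓ => (∏ q ∈ Q, χ q (ℓ : ZMod q)) * a ℓ := ⟨_, rfl⟩
  have hyθ : ∀ (ℓ : ℕ) (ℓu : (ZMod ((N₁ * ∏ q ∈ Q, q) * r))ˣ),
      ((ℓu : (ZMod ((N₁ * ∏ q ∈ Q, q) * r))ˣ) : ZMod ((N₁ * ∏ q ∈ Q, q) * r))
        = (ℓ : ZMod ((N₁ * ∏ q ∈ Q, q) * r)) →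
      y ℓ = (((θ ℓu)⁻¹ : 𝒪ˣ) : 𝒪) * a ℓ := by
    intro ℓ ℓu hℓu
    have h1 := hχ3 (ℓ : ℤ) ℓu (by rw [hℓu, Int.cast_natCast])
    simp only [Int.cast_natCast] at h1
    have h2 : (∏ q ∈ Q, χ q (ℓ : ZMod q)) = (((θ ℓu)⁻¹ : 𝒪ˣ) : 𝒪) := by
      calc (∏ q ∈ Q, χ q (ℓ : ZMod q))
          = (∏ q ∈ Q, χ q (ℓ : ZMod q)) * (((θ ℓu : 𝒪ˣ) : 𝒪) * (((θ ℓu)⁻¹ : 𝒪ˣ) : 𝒪)) := by
            rw [Units.mul_inv, mul_one]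
        _ = (((θ ℓu)⁻¹ : 𝒪ˣ) : 𝒪) := by rw [← mul_assoc, h1, one_mul]
    rw [hy]
    show (∏ q ∈ Q, χ q (ℓ : ZMod q)) * a ℓ = _
    rw [h2]
  have hunit : ∀ ℓ : ℕ, ℓ.Prime → ℓ ∉ S → ∃ ℓu : (ZMod ((N₁ * ∏ q ∈ Q, q) * r))ˣ,
      ((ℓu : (ZMod ((N₁ * ∏ q ∈ Q, q) * r))ˣ) : ZMod ((N₁ * ∏ q ∈ Q, q) * r))
        = (ℓ : ZMod ((N₁ * ∏ q ∈ Q, q) * r)) := by
    intro ℓ hℓ hℓS
    have hℓM : ¬ ℓ ∣ (N₁ * ∏ q ∈ Q, q) * r := fun h => hℓS (hMS ℓ hℓ h)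
    have hcopℓ : Nat.Coprime ℓ ((N₁ * ∏ q ∈ Q, q) * r) :=
      (Nat.Prime.coprime_iff_not_dvd hℓ).mpr hℓM
    exact ⟨ZMod.unitOfCoprime ℓ hcopℓ, ZMod.coe_unitOfCoprime ℓ hcopℓ⟩
  exact s59f_NEW0 p M' r hrp hrM S hpS hNS 𝒪 hp𝒪 y Φ hΦpar hΦ0
    (fun ℓ _ hℓN _ => by rw [hy]; exact hΦeig ℓ hℓN) hA0 hB0 ρ
    (fun ℓ hℓ hℓS P hP τ hτ => by
      obtain ⟨ℓu, hℓu⟩ := hunit ℓ hℓ hℓS
      rw [hρ ℓ hℓ hℓS ℓu hℓu P hP τ hτ, hyθ ℓ ℓu hℓu])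
    A hA σ hσ

end NewPt

end Fermat.Agent.Lib.S59
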