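/-
Programme (R), Taylor–Wiles primes, arithmetic input (helper9, prefix `s59m_`):
**THE CYCLOTOMIC CHARACTER IS SURJECTIVE ON THE INERTIA GROUP AT `q`** (`ℚ(ζ_q)/ℚ` is totally ramified at `q`).

`q` a prime, `P` a valuation subring of `ℚ̄` over `q`, `ζ` a primitive `q`-th root of unity.
* `s59m_inertia_cyc_transitive` : every primitive `q`-th root of unity is `σ ζ` for some `σ ∈ I_P`;
* `s59m_inertia_cyc_pow`        : for every `a` prime to `q` there is `σ ∈ I_P` with `σ ξ = ξ ^ a` for ALL `q`-th roots of unity `ξ`;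
* `s59m_inertia_autToPow_surj`  : `∀ u : (ZMod q)ˣ, ∃ σ ∈ I_P, hζ.autToPow ℚ σ = u`.

Proof: `S` := the `I_P`-orbit of `ζ`; `x := ∏_{μ ∈ S} (1 - μ)` is `I_P`-fixed and `P`-integral, so `x = qⁿ · unit` (main's
`s56o_Our_factor`: the inertia field is unramified); all `1 - μ` (`μ` primitive) have the same valuation `c`, `c^(q-1) = v(q)`,
so `c^|S| = c^((q-1) n)`, whence `|S| = (q - 1) n ≥ q - 1`.
-/
import Fermat.Agent.Lib.S56.FArith

set_option autoImplicit false
set_option linter.unusedSectionVars false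
set_option linter.style.haveILetI false

noncomputable section

namespace Fermat.Agent.Lib.S59

open Polynomial Fermat.Agent.Lib.S56

local notation "Ω" => AlgebraicClosure ℚ
local notation "Γℚ" => (AlgebraicClosure ℚ ≃ₐ[ℚ] AlgebraicClosure ℚ)

/-- powers with exponents in a linearly ordered group with zero: `c ≠ 0`, `c < 1`, `c ^ a = c ^ b` ⇒ `a = b`. -/
theorem s59m_pow_inj_of_lt_one {Γ : Type*} [LinearOrderedCommGroupWithZero Γ] (c : Γ) (h0 : c ≠ 0)
    (h1 : c < 1) (a b : ℕ) (h : c ^ a = c ^ b) : a = b := by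
  have hpos : 0 < c := zero_lt_iff.mpr h0
  rcases lt_trichotomy a b with hab | hab | hab
  · exact absurd h (ne_of_gt (pow_lt_pow_right_of_lt_one₀ hpos h1 hab))
  · exact hab
  · exact absurd h (ne_of_lt (pow_lt_pow_right_of_lt_one₀ hpos h1 hab))

/-- a root of unity lies in every valuation subring. -/
theorem s59m_root_mem {K : Type*} [Field K] (A : ValuationSubring K) {n : ℕ} (hn : n ≠ 0) {ξ : K}
    (hξ : ξ ^ n = 1) : ξ ∈ A := by
  rcases A.mem_or_inv_mem ξ with h | h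
  · exact h
  · have e : ξ = (ξ⁻¹) ^ (n - 1) := by
      have hξ0 : ξ ≠ 0 := by
        rintro rfl
        rw [zero_pow hn] at hξ
        exact zero_ne_one hξ
      have h1 : ξ ^ (n - 1) * ξ = 1 := by rw [← pow_succ, Nat.sub_add_cancel (Nat.pos_of_ne_zero hn), hξ]
      rw [inv_pow]
      exact (eq_inv_of_mul_eq_one_right h1)
    rw [e]
    exact A.pow_mem h _

section Main

variable {q : ℕ} (hq : q.Prime) (P : ValuationSubring Ω) (hP : P.LiesOverPrime q) {ζ : Ω}
  (hζ : IsPrimitiveRoot ζ q)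

include hq in
/-- `1 - μ'` is a multiple of `1 - μ` in `P`, for `μ` primitive and `μ'` any `q`-th root of unity. -/
theorem s59m_one_sub_dvd {μ μ' : Ω} (hμ : IsPrimitiveRoot μ q) (hμ' : μ' ^ q = 1) :
    P.valuation (1 - μ') ≤ P.valuation (1 - μ) := by
  haveI : NeZero q := ⟨hq.ne_zero⟩
  obtain ⟨i, -, hi⟩ := hμ.eq_pow_of_pow_eq_one hμ'
  rw [← hi, ← mul_neg_geom_sum μ i, map_mul]
  have hw : (∑ j ∈ Finset.range i, μ ^ j) ∈ P := by
    refine Subring.sum_mem P.toSubring (fun j _ => ?_)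
    exact P.pow_mem (s59m_root_mem P hq.ne_zero hμ.pow_eq_one) j
  calc P.valuation (1 - μ) * P.valuation (∑ j ∈ Finset.range i, μ ^ j)
      ≤ P.valuation (1 - μ) * 1 :=
        mul_le_mul_right ((P.valuation_le_one_iff _).mpr hw) _
    _ = P.valuation (1 - μ) := mul_one _

include hq in
/-- all `1 - μ`, `μ` primitive, have the same valuation. -/
theorem s59m_one_sub_val_eq {μ μ' : Ω} (hμ : IsPrimitiveRoot μ q) (hμ' : IsPrimitiveRoot μ' q) :
    P.valuation (1 - μ') = P.valuation (1 - μ) :=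
  le_antisymm (s59m_one_sub_dvd hq P hμ hμ'.pow_eq_one) (s59m_one_sub_dvd hq P hμ' hμ.pow_eq_one)

include hq hζ in
/-- `q = ∏_{μ primitive} (1 - μ)`. -/
theorem s59m_prod_one_sub : ∏ μ ∈ primitiveRoots q Ω, (1 - μ) = (q : Ω) := by
  haveI : Fact q.Prime := ⟨hq⟩
  have h1 := cyclotomic_eq_prod_X_sub_primitiveRoots (K := Ω) hζ
  have h2 := congrArg (eval 1) h1
  rw [eval_one_cyclotomic_prime, eval_prod] at h2
  rw [h2]
  refine Finset.prod_congr rfl (fun μ _ => ?_)
  rw [eval_sub, eval_X, eval_C]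

include hq hP hζ in
/-- **inertia at `q` is transitive on the primitive `q`-th roots of unity.** -/
theorem s59m_inertia_cyc_transitive {μ : Ω} (hμ : IsPrimitiveRoot μ q) :
    ∃ σ ∈ P.inertiaSubgroupIn ℚ, σ ζ = μ := by
  classical
  set I : Subgroup Γℚ := P.inertiaSubgroupIn ℚ with hI
  -- the orbit of `ζ`
  set S : Finset Ω := (primitiveRoots q Ω).filter (fun ν => ∃ σ ∈ I, σ ζ = ν) with hS
  have hSsub : S ⊆ primitiveRoots q Ω := Finset.filter_subset _ _
  have hmemS : ∀ ν : Ω, ν ∈ S ↔ IsPrimitiveRoot ν q ∧ ∃ σ ∈ I, σ ζ = ν := by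
    intro ν
    rw [hS, Finset.mem_filter, mem_primitiveRoots hq.pos]
  have hζS : ζ ∈ S := (hmemS ζ).mpr ⟨hζ, 1, I.one_mem, rfl⟩
  -- it suffices to show that the orbit is everything
  suffices hcard : (primitiveRoots q Ω).card ≤ S.card by
    have hSeq : S = primitiveRoots q Ω := Finset.eq_of_subset_of_card_le hSsub hcard
    have : μ ∈ S := by rw [hSeq, mem_primitiveRoots hq.pos]; exact hμ
    exact ((hmemS μ).mp this).2
  -- the product over the orbit
  set x : Ω := ∏ ν ∈ S, (1 - ν) with hx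
  have hprim_mem : ∀ ν : Ω, IsPrimitiveRoot ν q → ν ∈ P := fun ν hν =>
    s59m_root_mem P hq.ne_zero hν.pow_eq_one
  have hxP : x ∈ P := by
    refine Subring.prod_mem P.toSubring (fun ν hν => ?_)
    exact P.toSubring.sub_mem P.one_mem (hprim_mem ν ((hmemS ν).mp hν).1)
  have hxfix : ∀ σ ∈ I, σ x = x := by
    intro σ hσ
    rw [hx, map_prod]
    refine Finset.prod_bij' (fun ν _ => σ ν) (fun ν _ => σ⁻¹ ν) ?_ ?_ ?_ ?_ ?_
    · intro ν hν
      obtain ⟨hν1, τ, hτ, hτν⟩ := (hmemS ν).mp hν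
      refine (hmemS _).mpr ⟨hν1.map_of_injective σ.injective, σ * τ, I.mul_mem hσ hτ, ?_⟩
      rw [← hτν]
      rfl
    · intro ν hν
      obtain ⟨hν1, τ, hτ, hτν⟩ := (hmemS ν).mp hν
      refine (hmemS _).mpr ⟨hν1.map_of_injective σ⁻¹.injective, σ⁻¹ * τ,
        I.mul_mem (I.inv_mem hσ) hτ, ?_⟩
      rw [← hτν]
      rfl
    · intro ν _
      exact AlgEquiv.symm_apply_apply σ ν
    · intro ν _
      exact AlgEquiv.apply_symm_apply σ ν
    · intro ν _
      rw [map_sub, map_one]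
  have hx0 : x ≠ 0 := by
    rw [hx, Finset.prod_ne_zero_iff]
    intro ν hν h0
    have hν1 := ((hmemS ν).mp hν).1
    have : ν = 1 := (sub_eq_zero.mp h0).symm
    rw [this] at hν1
    exact hq.one_lt.ne' (hν1.unique IsPrimitiveRoot.one)
  -- `x = qⁿ · unit`
  obtain ⟨n, u, hu, hu', hxu⟩ := s56o_Our_factor hq P hP x ⟨hxP, hxfix⟩ hx0
  -- valuations
  set v := P.valuation with hv
  set c := v (1 - ζ) with hc
  have hvu : v u = 1 := by
    have h1 : v u ≤ 1 := (P.valuation_le_one_iff u).mpr hu.1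
    have h2 : v u⁻¹ ≤ 1 := (P.valuation_le_one_iff _).mpr hu'.1
    have hu0 : u ≠ 0 := by
      rintro rfl
      rw [mul_zero] at hxu
      exact hx0 hxu
    have h3 : v u * v u⁻¹ = 1 := by rw [← map_mul, mul_inv_cancel₀ hu0, map_one]
    by_contra hne
    have hlt : v u < 1 := lt_of_le_of_ne h1 hne
    have hpos : 0 < v u := zero_lt_iff.mpr ((_root_.map_ne_zero v).mpr hu0)
    have : v u * v u⁻¹ < 1 := by
      calc v u * v u⁻¹ ≤ v u * 1 := mul_le_mul_right h2 _
        _ = v u := mul_one _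
        _ < 1 := hlt
    exact absurd h3 (ne_of_lt this)
  have hvq : v (q : Ω) = c ^ (primitiveRoots q Ω).card := by
    rw [← s59m_prod_one_sub hq hζ, map_prod, Finset.prod_eq_pow_card]
    intro ν hν
    exact s59m_one_sub_val_eq hq P hζ ((mem_primitiveRoots hq.pos).mp hν)
  have hvx : v x = c ^ S.card := by
    rw [hx, map_prod, Finset.prod_eq_pow_card]
    intro ν hν
    exact s59m_one_sub_val_eq hq P hζ ((hmemS ν).mp hν).1
  have hvx' : v x = c ^ ((primitiveRoots q Ω).card * n) := by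
    rw [hxu, map_mul, map_pow, hvq, hvu, mul_one, ← pow_mul]
  have hvq1 : v (q : Ω) < 1 := by
    have hqP : (q : Ω) ∈ P := P.nonunits_le hP
    have := (P.valuation_lt_one_iff ⟨(q : Ω), hqP⟩).mp
      ((ValuationSubring.coe_mem_nonunits_iff (A := P)).mp hP)
    exact this
  have hcard_pos : 0 < (primitiveRoots q Ω).card :=
    Finset.card_pos.mpr ⟨ζ, (mem_primitiveRoots hq.pos).mpr hζ⟩
  have hc0 : c ≠ 0 := by
    rw [hc, _root_.map_ne_zero, sub_ne_zero]
    intro h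
    rw [← h] at hζ
    exact hq.one_lt.ne' (hζ.unique IsPrimitiveRoot.one)
  have hc1 : c < 1 := by
    by_contra hge
    rw [not_lt] at hge
    have : 1 ≤ c ^ (primitiveRoots q Ω).card := one_le_pow₀ hge
    rw [← hvq] at this
    exact absurd hvq1 (not_lt.mpr this)
  have hcardeq : S.card = (primitiveRoots q Ω).card * n :=
    s59m_pow_inj_of_lt_one c hc0 hc1 _ _ (hvx.symm.trans hvx')
  have hn : n ≠ 0 := by
    rintro rfl
    rw [mul_zero] at hcardeq
    exact (Finset.card_pos.mpr ⟨ζ, hζS⟩).ne' hcardeq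
  rw [hcardeq]
  exact Nat.le_mul_of_pos_right _ (Nat.pos_of_ne_zero hn)

include hq hP in
/-- **for every `a` prime to `q` some element of the inertia group at `q` raises all `q`-th roots of unity to the `a`-th power.** -/
theorem s59m_inertia_cyc_pow (a : ℕ) (ha : ¬ q ∣ a) :
    ∃ σ ∈ P.inertiaSubgroupIn ℚ, ∀ ξ : Ω, ξ ^ q = 1 → σ ξ = ξ ^ a := by
  haveI : NeZero q := ⟨hq.ne_zero⟩
  obtain ⟨ζ₀, hζ₀⟩ := HasEnoughRootsOfUnity.exists_primitiveRoot Ω q
  have hcop : a.Coprime q := ((Nat.Prime.coprime_iff_not_dvd hq).mpr ha).symm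
  obtain ⟨σ, hσ, hσζ⟩ := s59m_inertia_cyc_transitive hq P hP hζ₀ (hζ₀.pow_of_coprime a hcop)
  refine ⟨σ, hσ, fun ξ hξ => ?_⟩
  obtain ⟨i, -, hi⟩ := hζ₀.eq_pow_of_pow_eq_one hξ
  rw [← hi, map_pow, hσζ, ← pow_mul, ← pow_mul, mul_comm]

include hq hP in
/-- **the mod `q` cyclotomic character is surjective on the inertia group at `q`.** -/
theorem s59m_inertia_autToPow_surj (u : (ZMod q)ˣ) :
    haveI : NeZero q := ⟨hq.ne_zero⟩
    ∃ σ ∈ P.inertiaSubgroupIn ℚ, hζ.autToPow ℚ σ = u := by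
  haveI : NeZero q := ⟨hq.ne_zero⟩
  haveI : Fact q.Prime := ⟨hq⟩
  have hu0 : ((u : (ZMod q)ˣ) : ZMod q) ≠ 0 := u.ne_zero
  have hndvd : ¬ q ∣ ((u : (ZMod q)ˣ) : ZMod q).val := by
    intro h
    apply hu0
    rw [← ZMod.natCast_zmod_val ((u : (ZMod q)ˣ) : ZMod q)]
    exact (ZMod.natCast_eq_zero_iff _ _).mpr h
  obtain ⟨σ, hσ, hσξ⟩ := s59m_inertia_cyc_pow hq P hP _ hndvd
  refine ⟨σ, hσ, ?_⟩
  have h1 := hζ.autToPow_spec ℚ σ
  rw [hσξ ζ hζ.pow_eq_one] at h1
  have h2 := hζ.pow_inj (ZMod.val_lt _) (ZMod.val_lt _) h1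
  exact Units.ext (ZMod.val_injective q h2)

end Main

end Fermat.Agent.Lib.S59
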