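/-
Programme R (S59), node (GEN) (helper2, prefix `s59b_`): **the cyclotomic character modulo `M`.**

* `s59b_epsM M : G_ℚ →* (ZMod M)ˣ`, the action on a fixed primitive `M`-th root of unity
  `s59b_zetaM M`;
* `s59b_epsM_frob` : a Frobenius element at a prime `ℓ ∤ M` goes to `ℓ`;
* `s59b_epsM_eq_one` : elements fixing `s59b_zetaM M` go to `1`;
* `s59b_epsM_level` : the finite level `ℚ(ζ_M)`.
-/
import Mathlib
import Fermat.Agent.Lib.S30.Cyc

set_option autoImplicit false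
set_option linter.unusedSectionVars false
set_option linter.unusedVariables false

noncomputable section

namespace Fermat.Agent.Lib.S59

open Fermat.Agent.Lib.S29 Fermat.Agent.Lib.S30 IntermediateField

local notation "Qbar" => AlgebraicClosure ℚ
local notation "GQ" => (AlgebraicClosure ℚ ≃ₐ[ℚ] AlgebraicClosure ℚ)

variable (M : ℕ) [NeZero M]

theorem s59b_exists_primRoot : ∃ ζ : Qbar, IsPrimitiveRoot ζ M :=
  HasEnoughRootsOfUnity.exists_primitiveRoot Qbar M

/-- a fixed primitive `M`-th root of unity in `ℚ̄`. -/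
def s59b_zetaM : Qbar := (s59b_exists_primRoot M).choose

theorem s59b_zetaM_spec : IsPrimitiveRoot (s59b_zetaM M) M := (s59b_exists_primRoot M).choose_spec

/-- the cyclotomic character modulo `M`. -/
def s59b_epsM : GQ →* (ZMod M)ˣ := (s59b_zetaM_spec M).autToPow ℚ

theorem s59b_epsM_spec (g : GQ) :
    g (s59b_zetaM M) = s59b_zetaM M ^ ((s59b_epsM M g : (ZMod M)ˣ) : ZMod M).val :=
  ((s59b_zetaM_spec M).autToPow_spec ℚ g).symm

variable {M}

/-- the character is determined by the action on `ζ_M`. -/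
theorem s59b_epsM_eq_of_pow (g : GQ) (j : ℕ) (h : g (s59b_zetaM M) = s59b_zetaM M ^ j) :
    ((s59b_epsM M g : (ZMod M)ˣ) : ZMod M) = (j : ZMod M) := by
  have hζ := s59b_zetaM_spec M
  have h1 := s59b_epsM_spec M g
  rw [h, pow_eq_pow_mod j hζ.pow_eq_one] at h1
  have h2 := hζ.pow_inj (Nat.mod_lt _ (Nat.pos_of_ne_zero (NeZero.ne _))) (ZMod.val_lt _) h1
  apply ZMod.val_injective
  rw [← h2, ZMod.val_natCast]

/-- `ε_M(Frob_ℓ) = ℓ` for `ℓ ∤ M`. -/
theorem s59b_epsM_frob (ℓ : ℕ) (hℓ : ℓ.Prime) (hℓM : ¬ ℓ ∣ M)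
    (A : ValuationSubring Qbar) (hA : A.LiesOverPrime ℓ) (σ : GQ) (hσ : A.IsFrobeniusAt σ ℓ) :
    ((s59b_epsM M σ : (ZMod M)ˣ) : ZMod M) = (ℓ : ZMod M) := by
  have hζ := s59b_zetaM_spec M
  have hM0 : M ≠ 0 := NeZero.ne M
  have hζM := hζ.pow_eq_one
  apply s59b_epsM_eq_of_pow σ ℓ
  have hmem := s29g_root_mem A hM0 hζM
  have hcong := s29g_frob_congr A hσ hmem
  refine s30c_root_sep A hM0 ?_ hA ?_ ?_ hcong
  · exact (Nat.Coprime.symm ((Nat.Prime.coprime_iff_not_dvd hℓ).mpr hℓM))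
  · rw [← map_pow, hζM, map_one]
  · rw [← pow_mul, mul_comm, pow_mul, hζM, one_pow]

/-- elements fixing `ζ_M` are in the kernel. -/
theorem s59b_epsM_eq_one (h : GQ) (hfix : h (s59b_zetaM M) = s59b_zetaM M) : s59b_epsM M h = 1 := by
  apply Units.ext
  rw [Units.val_one, s59b_epsM_eq_of_pow h 1 (by rw [hfix, pow_one]), Nat.cast_one]

variable (M)

/-- the level of `ε_M`. -/
theorem s59b_epsM_level : ∃ L : IntermediateField ℚ Qbar, FiniteDimensional ℚ L ∧
    ∀ h : GQ, (∀ x ∈ L, h x = x) → s59b_epsM M h = 1 := by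
  have hζ := s59b_zetaM_spec M
  refine ⟨ℚ⟮s59b_zetaM M⟯, ?_, fun h hfix => ?_⟩
  · exact adjoin.finiteDimensional (hζ.isIntegral (Nat.pos_of_ne_zero (NeZero.ne M))).tower_top
  · exact s59b_epsM_eq_one h (hfix _ (mem_adjoin_simple_self ℚ _))

end Fermat.Agent.Lib.S59
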