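/-
Programme (R) = S59, node C3-rest / (NN)-input (helper3), file 3: **the cyclotomic character mod `M`
on the inertia group at `q₀ ‖ M`**: for `M = L₀ q₀`, `(L₀, q₀) = 1`, and `σ` in the inertia group at a
place over `q₀`, `ε_M(σ) ≡ 1 mod L₀` (`s59u_epsM_inertia`).
-/
import Mathlib
import Fermat.Agent.Lib.S59.BGenCyc

set_option autoImplicit false
set_option linter.unusedSectionVars false
set_option linter.unusedVariables false

noncomputable section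

namespace Fermat.Agent.Lib.S59

open Fermat.Agent.Lib.S29 Fermat.Agent.Lib.S30

local notation "Qbar" => AlgebraicClosure ℚ
local notation "GQ" => (AlgebraicClosure ℚ ≃ₐ[ℚ] AlgebraicClosure ℚ)

/-- **inertia at `q₀` acts trivially on the roots of unity of order prime to `q₀`**: `ε_M(σ) ≡ 1` modulo
the prime-to-`q₀` part `L₀` of `M`. -/
theorem s59u_epsM_inertia {M L₀ q₀ : ℕ} [NeZero M] (hM : M = L₀ * q₀) (hcop : Nat.Coprime L₀ q₀)
    (A : ValuationSubring Qbar) (hA : A.LiesOverPrime q₀) (σ : GQ)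
    (hσ : σ ∈ A.inertiaSubgroupIn ℚ) :
    (L₀ : ℤ) ∣ ((((s59b_epsM M σ : (ZMod M)ˣ) : ZMod M).val : ℕ) : ℤ) - 1 := by
  have hζ := s59b_zetaM_spec M
  have hM0 : M ≠ 0 := NeZero.ne M
  have hL0 : L₀ ≠ 0 := by
    rintro rfl
    rw [zero_mul] at hM
    exact hM0 hM
  have hq0 : q₀ ≠ 0 := by
    rintro rfl
    rw [mul_zero] at hM
    exact hM0 hM
  set j : ℕ := ((s59b_epsM M σ : (ZMod M)ˣ) : ZMod M).val with hj
  have hσζ : σ (s59b_zetaM M) = s59b_zetaM M ^ j := s59b_epsM_spec M σ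
  set η : Qbar := s59b_zetaM M ^ q₀ with hη
  have hηL : η ^ L₀ = 1 := by
    rw [hη, ← pow_mul, mul_comm, ← hM]
    exact hζ.pow_eq_one
  have hmem : η ∈ A := s29g_root_mem A hL0 hηL
  have hcong := s29g_inertia_congr A hσ hmem
  have hfix : σ η = η := by
    refine s30c_root_sep A hL0 hcop hA ?_ hηL hcong
    rw [← map_pow, hηL, map_one]
  have h1 : s59b_zetaM M ^ (q₀ * j) = s59b_zetaM M ^ q₀ := by
    have h2 : σ η = s59b_zetaM M ^ (q₀ * j) := by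
      rw [hη, map_pow, hσζ, ← pow_mul, mul_comm]
    rw [← h2, hfix]
  have hζ0 : s59b_zetaM M ≠ 0 := hζ.ne_zero hM0
  have h5 : (M : ℤ) ∣ ((q₀ * j : ℕ) : ℤ) - (q₀ : ℤ) := by
    rw [← hζ.zpow_eq_one_iff_dvd, zpow_sub₀ hζ0, zpow_natCast, zpow_natCast, h1]
    exact div_self (pow_ne_zero _ hζ0)
  have h6 : ((q₀ : ℤ) * (L₀ : ℤ)) ∣ (q₀ : ℤ) * ((j : ℤ) - 1) := by
    have h7 : (q₀ : ℤ) * ((j : ℤ) - 1) = ((q₀ * j : ℕ) : ℤ) - (q₀ : ℤ) := by
      push_cast; ring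
    rw [h7]
    have h8 : ((q₀ : ℤ) * (L₀ : ℤ)) = (M : ℤ) := by
      rw [hM]; push_cast; ring
    rw [h8]
    exact h5
  exact (mul_dvd_mul_iff_left (Int.natCast_ne_zero.mpr hq0)).mp h6

end Fermat.Agent.Lib.S59
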