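/-
Programme (R), Taylor–Wiles primes, arithmetic input (helper9, prefix `s59m_`):
**the cyclotomic character mod `M = L₀ q₀` maps the inertia group at `q₀` ONTO the units `≡ 1 mod L₀`**
(the converse of helper3's `s59u_epsM_inertia`), for helper2's `s59b_epsM M`.

* `s59m_epsM_inertia_surj` : `M = L₀ q₀`, `(L₀, q₀) = 1`, `q₀` prime, `A | q₀`, `u ∈ (ℤ/M)ˣ` with `u ≡ 1 mod L₀`
  ⇒ `∃ σ ∈ I_A, ε_M(σ) = u`;
* `s59m_epsM_inertia_surj'` : the same with the hypothesis in the form `ZMod.unitsMap (L₀ ∣ M) u = 1`.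
So the classes of `ε_M(σ)`, `σ ∈ I_A`, fill the whole `q₀`-component `ker((ℤ/M)ˣ → (ℤ/L₀)ˣ) ≅ (ℤ/q₀)ˣ` of `(ℤ/M)ˣ`: the diamond operators
`⟨g⟩`, `g` in the Taylor–Wiles group `Δ_{q₀}`, are all of the form `⟨ε_M(σ)⟩`, `σ` in the inertia group at `q₀`.
-/
import Fermat.Agent.Lib.S59.MCycIn
import Fermat.Agent.Lib.S59.UNNEps

set_option autoImplicit false
set_option linter.unusedSectionVars false
set_option linter.style.haveILetI false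

noncomputable section

namespace Fermat.Agent.Lib.S59

local notation "Qbar" => AlgebraicClosure ℚ
local notation "GQ" => (AlgebraicClosure ℚ ≃ₐ[ℚ] AlgebraicClosure ℚ)

/-- **the cyclotomic character mod `M` is onto the `q₀`-component on the inertia group at `q₀ ∥ M`.** -/
theorem s59m_epsM_inertia_surj {M L₀ q₀ : ℕ} [NeZero M] (hM : M = L₀ * q₀)
    (hcop : Nat.Coprime L₀ q₀) (hq₀ : q₀.Prime)
    (A : ValuationSubring Qbar) (hA : A.LiesOverPrime q₀) (u : (ZMod M)ˣ)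
    (hu : (L₀ : ℤ) ∣ ((((u : (ZMod M)ˣ) : ZMod M).val : ℕ) : ℤ) - 1) :
    ∃ σ ∈ A.inertiaSubgroupIn ℚ, s59b_epsM M σ = u := by
  have hζ := s59b_zetaM_spec M
  have hM0 : M ≠ 0 := NeZero.ne M
  have hζ0 : s59b_zetaM M ≠ 0 := hζ.ne_zero hM0
  set a : ℕ := ((u : (ZMod M)ˣ) : ZMod M).val with ha
  -- `q₀ ∤ a`
  have haM : a.Coprime M := ZMod.val_coe_unit_coprime u
  have hq₀M : q₀ ∣ M := hM ▸ Dvd.intro_left L₀ rfl
  have hndvd : ¬ q₀ ∣ a := by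
    intro h
    have h1 : q₀ ∣ Nat.gcd a M := Nat.dvd_gcd h hq₀M
    rw [haM] at h1
    exact hq₀.one_lt.ne' (Nat.dvd_one.mp h1)
  obtain ⟨σ, hσ, hσξ⟩ := s59m_inertia_cyc_pow hq₀ A hA a hndvd
  refine ⟨σ, hσ, ?_⟩
  -- the exponent of `σ`
  set j : ℕ := ((s59b_epsM M σ : (ZMod M)ˣ) : ZMod M).val with hj
  have hσζ : σ (s59b_zetaM M) = s59b_zetaM M ^ j := s59b_epsM_spec M σ
  have hjL : (L₀ : ℤ) ∣ (j : ℤ) - 1 := s59u_epsM_inertia hM hcop A hA σ hσ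
  -- `ξ = ζ ^ L₀` is a `q₀`-th root of unity
  set ξ : Qbar := s59b_zetaM M ^ L₀ with hξ
  have hξq : ξ ^ q₀ = 1 := by
    rw [hξ, ← pow_mul, ← hM]
    exact hζ.pow_eq_one
  have h1 : s59b_zetaM M ^ (L₀ * j) = s59b_zetaM M ^ (L₀ * a) := by
    have h2 : σ ξ = s59b_zetaM M ^ (L₀ * j) := by
      rw [hξ, map_pow, hσζ, ← pow_mul, mul_comm]
    have h3 : σ ξ = s59b_zetaM M ^ (L₀ * a) := by
      rw [hσξ ξ hξq, hξ, ← pow_mul]
    rw [← h2, h3]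
  have h5 : (M : ℤ) ∣ ((L₀ * j : ℕ) : ℤ) - ((L₀ * a : ℕ) : ℤ) := by
    rw [← hζ.zpow_eq_one_iff_dvd, zpow_sub₀ hζ0, zpow_natCast, zpow_natCast, h1]
    exact div_self (pow_ne_zero _ hζ0)
  have hL0 : L₀ ≠ 0 := by
    rintro rfl
    rw [zero_mul] at hM
    exact hM0 hM
  have hjq : (q₀ : ℤ) ∣ (j : ℤ) - (a : ℤ) := by
    have h6 : ((L₀ : ℤ) * (q₀ : ℤ)) ∣ (L₀ : ℤ) * ((j : ℤ) - (a : ℤ)) := by
      have h7 : (L₀ : ℤ) * ((j : ℤ) - (a : ℤ)) = ((L₀ * j : ℕ) : ℤ) - ((L₀ * a : ℕ) : ℤ) := by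
        push_cast; ring
      have h8 : ((L₀ : ℤ) * (q₀ : ℤ)) = (M : ℤ) := by
        rw [hM]; push_cast; ring
      rw [h7, h8]
      exact h5
    exact (mul_dvd_mul_iff_left (Int.natCast_ne_zero.mpr hL0)).mp h6
  have hjL' : (L₀ : ℤ) ∣ (j : ℤ) - (a : ℤ) := by
    have : (j : ℤ) - (a : ℤ) = ((j : ℤ) - 1) - ((a : ℤ) - 1) := by ring
    rw [this]
    exact dvd_sub hjL hu
  have hcopZ : IsCoprime (L₀ : ℤ) (q₀ : ℤ) := Nat.isCoprime_iff_coprime.mpr hcop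
  have hMdvd : (M : ℤ) ∣ (j : ℤ) - (a : ℤ) := by
    have h8 : (M : ℤ) = (L₀ : ℤ) * (q₀ : ℤ) := by rw [hM]; push_cast; ring
    rw [h8]
    exact hcopZ.mul_dvd hjL' hjq
  -- conclusion
  apply Units.ext
  have h9 : ((j : ℕ) : ZMod M) = ((a : ℕ) : ZMod M) := by
    have := (ZMod.intCast_eq_intCast_iff_dvd_sub (a : ℤ) (j : ℤ) M).mpr hMdvd
    push_cast at this
    exact this.symm
  rw [hj, ha, ZMod.natCast_zmod_val, ZMod.natCast_zmod_val] at h9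
  exact h9

/-- the same, with the congruence condition in the form `ZMod.unitsMap`. -/
theorem s59m_epsM_inertia_surj' {M L₀ q₀ : ℕ} [NeZero M] (hM : M = L₀ * q₀)
    (hcop : Nat.Coprime L₀ q₀) (hq₀ : q₀.Prime)
    (A : ValuationSubring Qbar) (hA : A.LiesOverPrime q₀) (u : (ZMod M)ˣ)
    (hu : ZMod.unitsMap (hM ▸ Dvd.intro q₀ rfl : L₀ ∣ M) u = 1) :
    ∃ σ ∈ A.inertiaSubgroupIn ℚ, s59b_epsM M σ = u := by
  have hLM : L₀ ∣ M := hM ▸ Dvd.intro q₀ rfl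
  refine s59m_epsM_inertia_surj hM hcop hq₀ A hA u ?_
  have h1 := congrArg (fun v : (ZMod L₀)ˣ => (v : ZMod L₀)) hu
  simp only [ZMod.unitsMap_def, Units.coe_map, MonoidHom.coe_coe, Units.val_one,
    ZMod.castHom_apply] at h1
  have h2 : ((((u : (ZMod M)ˣ) : ZMod M).val : ℕ) : ZMod L₀) = 1 := by
    rw [ZMod.natCast_val]
    exact h1
  have h3 : (((((u : (ZMod M)ˣ) : ZMod M).val : ℕ) : ℤ) : ZMod L₀) = ((1 : ℤ) : ZMod L₀) := by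
    push_cast
    exact h2
  exact (ZMod.intCast_eq_intCast_iff_dvd_sub _ _ L₀).mp h3.symm

end Fermat.Agent.Lib.S59
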