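/-
PROGRAMME (R), final wiring of [IA'] (helper6, prefix `s59q_`): **the Taylor-Wiles image condition from a non-trivial
unipotent element** (all odd `p`; replaces the `p ∈ {3, 5}` argument of (E6) for Frey curves, where inertia at `2`
supplies the unipotent element).

`s59q_twimage_of_unip`: `ρ̄` universally irreducible, `char k = p` odd, `τ` with `(ρ̄ τ - 1)² = 0 ≠ ρ̄ τ - 1`.  Then
`ρ̄ | G` is irreducible over every extension `K` of `k`, for every subgroup `G` of index two.

Proof: `ρ̄ τ` has order `p` (odd), so `τ ∈ G` unless `ker ρ̄ ⊄ G` (in which case `G · ker ρ̄ = Γ` and a `G`-stable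
subspace is `Γ`-stable).  A `G`-stable line is then the unique `ρ̄ τ`-stable line `ker (ρ̄ τ - 1)`; `G` being normal,
the translate `g V` is also `G`-stable, hence equal to `V`.
-/
import Mathlib
import Fermat.Prelude.Def_GaloisRep_Residual

set_option autoImplicit false
set_option linter.style.haveILetI false
set_option linter.unusedSectionVars false

noncomputable section

namespace Fermat.Agent.Lib.S59

open scoped TensorProduct

local notation "Γℚ" => (AlgebraicClosure ℚ ≃ₐ[ℚ] AlgebraicClosure ℚ)

section LinAlg

variable {K : Type*} [Field K] {M : Type*} [AddCommGroup M] [Module K M]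

/-- in a plane, a proper non-zero subspace stable under a non-zero endomorphism `N` of square zero is `ker N`. -/
theorem s59q_eq_ker_of_stable (hdim : Module.finrank K M = 2) (N : Module.End K M) (hN2 : N * N = 0)
    (hN : N ≠ 0) (V : Submodule K M) (hV0 : V ≠ ⊥) (hVtop : V ≠ ⊤) (hst : ∀ x ∈ V, N x ∈ V) :
    V = LinearMap.ker N := by
  haveI : Module.Finite K M := Module.finite_of_finrank_eq_succ hdim
  -- `V ≤ ker N`
  have hle : V ≤ LinearMap.ker N := by
    intro x hx
    rw [LinearMap.mem_ker]
    by_contra hNx
    -- `x, N x` are independent, both in `V`, so `V = ⊤`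
    apply hVtop
    have hli : LinearIndependent K ![x, N x] := by
      rw [LinearIndependent.pair_iff]
      intro a b hab
      have h1 : N (a • x + b • N x) = 0 := by rw [hab, map_zero]
      rw [map_add, map_smul, map_smul, ← Module.End.mul_apply, hN2, LinearMap.zero_apply,
        smul_zero, add_zero] at h1
      have ha : a = 0 := by
        rcases smul_eq_zero.mp h1 with h | h
        · exact h
        · exact absurd h hNx
      rw [ha, zero_smul, zero_add] at hab
      have hb : b = 0 := by
        rcases smul_eq_zero.mp hab with h | h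
        · exact h
        · exact absurd h hNx
      exact ⟨ha, hb⟩
    have hspan : Submodule.span K (Set.range ![x, N x]) = ⊤ :=
      hli.span_eq_top_of_card_eq_finrank' (by rw [hdim]; rfl)
    rw [eq_top_iff, ← hspan, Submodule.span_le]
    rintro _ ⟨i, rfl⟩
    fin_cases i
    · exact hx
    · exact hst x hx
  -- dimensions
  have hker_ne : LinearMap.ker N ≠ ⊤ := by
    intro h
    apply hN
    exact LinearMap.ker_eq_top.mp h
  have h1 : Module.finrank K V ≤ Module.finrank K (LinearMap.ker N) := Submodule.finrank_mono hle
  have h2 : Module.finrank K (LinearMap.ker N) < Module.finrank K M :=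
    Submodule.finrank_lt hker_ne
  have h3 : 0 < Module.finrank K V := by
    rw [Module.finrank_pos_iff]
    exact Submodule.nontrivial_iff_ne_bot.mpr hV0
  rw [hdim] at h2
  exact Submodule.eq_of_le_of_finrank_eq hle (by omega)

end LinAlg

section Group

variable {G₀ : Type*} [Group G₀]

/-- odd powers of a non-member of an index-two subgroup are non-members. -/
theorem s59q_pow_not_mem_of_index_two (G : Subgroup G₀) (hG : G.index = 2) {g : G₀} (hg : g ∉ G)
    (j : ℕ) : g ^ (2 * j + 1) ∉ G := by
  have hsq : g * g ∈ G := (Subgroup.mul_mem_iff_of_index_two hG).mpr Iff.rfl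
  have h2 : g ^ (2 * j) ∈ G := by
    rw [pow_mul, pow_two]
    exact pow_mem hsq j
  intro h
  rw [pow_succ] at h
  exact hg ((Subgroup.mul_mem_cancel_left G h2).mp h)

end Group

/-- **the Taylor-Wiles image condition from a non-trivial unipotent element.** -/
theorem s59q_twimage_of_unip {k : Type} [Field k] (p : ℕ) [hpF : Fact p.Prime] [CharP k p] (hp2 : p ≠ 2)
    (ρb : ResidualGaloisRep k)
    (hirr : ∀ (K : Type) [Field K] [Algebra k K], (ρb.baseChange K).IsIrreducible)
    (τ : Γℚ) (hτ : (ρb.ρ τ - 1) * (ρb.ρ τ - 1) = 0) (hτ1 : ρb.ρ τ ≠ 1) :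
    ∀ (K : Type) [Field K] [Algebra k K] (G : Subgroup Γℚ), G.index = 2 →
      ∀ V : Submodule K (ρb.baseChange K).V,
        (∀ σ ∈ G, ∀ x ∈ V, (ρb.baseChange K).ρ σ x ∈ V) → V = ⊥ ∨ V = ⊤ := by
  intro K _ _ G hG V hstab
  by_contra hcon
  push Not at hcon
  obtain ⟨hV0, hVtop⟩ := hcon
  haveI : CharP K p := charP_of_injective_algebraMap (algebraMap k K).injective p
  set R := (ρb.baseChange K).ρ with hR
  have hRdef : ∀ g, R g = (ρb.ρ g).baseChange K := fun g => rfl
  have hdim : Module.finrank K (ρb.baseChange K).V = 2 := (ρb.baseChange K).finrank_eq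
  haveI hGn : G.Normal := Subgroup.normal_of_index_eq_two hG
  -- the nilpotent `N = R τ - 1`
  set N : Module.End K (ρb.baseChange K).V := R τ - 1 with hNdef
  have hN2 : N * N = 0 := by
    have h1 : N = (ρb.ρ τ - 1).baseChange K := by
      rw [hNdef, hRdef, LinearMap.baseChange_sub, LinearMap.baseChange_one]
    rw [h1, ← LinearMap.baseChange_mul, hτ, LinearMap.baseChange_zero]
  have hN : N ≠ 0 := by
    intro h0
    apply hτ1
    have h1 : (ρb.ρ τ).baseChange K = (1 : Module.End k ρb.V).baseChange K := by
      rw [LinearMap.baseChange_one, ← hRdef]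
      exact sub_eq_zero.mp h0
    exact LinearMap.baseChangeHom_injective (R := k) (S := K) (M := ρb.V) (N := ρb.V) h1
  -- `R τ ^ p = 1`
  have hpow : R τ ^ p = 1 := by
    have h1 : R τ = 1 + N := by rw [hNdef]; abel
    have h2 : ∀ n : ℕ, (1 + N) ^ n = 1 + n • N := by
      intro n
      induction n with
      | zero => simp
      | succ n ih =>
        rw [pow_succ, ih, add_mul, mul_add, mul_add, one_mul, mul_one, one_mul, smul_mul_assoc, hN2,
          smul_zero, add_zero, succ_nsmul]
        abel
    rw [h1, h2, ← Nat.cast_smul_eq_nsmul K, CharP.cast_eq_zero, zero_smul, add_zero]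
  -- it suffices to show that `V` is stable under everything
  suffices hall : ∀ g : Γℚ, ∀ x ∈ V, R g x ∈ V by
    rcases hirr K V hall with h | h
    · exact hV0 h
    · exact hVtop h
  by_cases hker : R.ker ≤ G
  · -- `τ ∈ G`
    have hτG : τ ∈ G := by
      by_contra hτG
      obtain ⟨j, hj⟩ : ∃ j, p = 2 * j + 1 := by
        rcases Nat.Prime.eq_two_or_odd' hpF.out with h | h
        · exact absurd h hp2
        · exact h
      have h1 : τ ^ p ∈ R.ker := by rw [MonoidHom.mem_ker, map_pow, hpow]
      have h2 := hker h1
      rw [hj] at h2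
      exact s59q_pow_not_mem_of_index_two G hG hτG j h2
    -- every `G`-stable proper non-zero subspace is `ker N`
    have hkey : ∀ V' : Submodule K (ρb.baseChange K).V, V' ≠ ⊥ → V' ≠ ⊤ →
        (∀ σ ∈ G, ∀ x ∈ V', R σ x ∈ V') → V' = LinearMap.ker N := by
      intro V' h0 htop hst
      refine s59q_eq_ker_of_stable hdim N hN2 hN V' h0 htop fun x hx => ?_
      rw [hNdef, LinearMap.sub_apply, Module.End.one_apply]
      exact V'.sub_mem (hst τ hτG x hx) hx
    have hVker := hkey V hV0 hVtop hstab
    intro g x hx
    by_cases hg : g ∈ G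
    · exact hstab g hg x hx
    · -- the translate `g V`
      have hginv : R g⁻¹ * R g = 1 := by rw [← map_mul, inv_mul_cancel, map_one]
      have hginv' : R g * R g⁻¹ = 1 := by rw [← map_mul, mul_inv_cancel, map_one]
      set V' : Submodule K (ρb.baseChange K).V := V.map (R g) with hV'
      have hV'0 : V' ≠ ⊥ := by
        intro h
        apply hV0
        rw [eq_bot_iff]
        intro y hy
        have h1 : R g y ∈ V' := Submodule.mem_map_of_mem hy
        rw [h, Submodule.mem_bot] at h1
        have h2 : y = (R g⁻¹ * R g) y := by rw [hginv, Module.End.one_apply]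
        rw [h2, Module.End.mul_apply, h1, map_zero]
        exact Submodule.zero_mem _
      have hV'top : V' ≠ ⊤ := by
        intro h
        apply hVtop
        rw [eq_top_iff]
        intro y _
        have h1 : R g y ∈ V' := by rw [h]; exact Submodule.mem_top
        obtain ⟨z, hz, hzy⟩ := Submodule.mem_map.mp h1
        have h2 : y = z := by
          have e1 : (R g⁻¹ * R g) y = (R g⁻¹ * R g) z := by
            rw [Module.End.mul_apply, Module.End.mul_apply, hzy]
          rw [hginv, Module.End.one_apply, Module.End.one_apply] at e1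
          exact e1
        rw [h2]
        exact hz
      have hV'st : ∀ σ ∈ G, ∀ y ∈ V', R σ y ∈ V' := by
        rintro σ hσ _ ⟨z, hz, rfl⟩
        have h1 : g⁻¹ * σ * g ∈ G := by
          have := hGn.conj_mem σ hσ g⁻¹
          rwa [inv_inv] at this
        have h2 : R σ (R g z) = R g (R (g⁻¹ * σ * g) z) := by
          rw [← Module.End.mul_apply, ← Module.End.mul_apply, ← map_mul, ← map_mul]
          congr 2
          group
        rw [h2]
        exact Submodule.mem_map_of_mem (hstab _ h1 z hz)
      have hV'ker := hkey V' hV'0 hV'top hV'st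
      have h3 : R g x ∈ V' := Submodule.mem_map_of_mem hx
      rw [hV'ker, ← hVker] at h3
      exact h3
  · -- `ker R ⊄ G`
    obtain ⟨n, hnk, hnG⟩ := SetLike.not_le_iff_exists.mp hker
    have hn1 : R n = 1 := MonoidHom.mem_ker.mp hnk
    intro g x hx
    by_cases hg : g ∈ G
    · exact hstab g hg x hx
    · have hnG' : n⁻¹ ∉ G := fun h => hnG (by simpa using G.inv_mem h)
      have h1 : g * n⁻¹ ∈ G :=
        (Subgroup.mul_mem_iff_of_index_two hG).mpr (iff_of_false hg hnG')
      have h2 : R g = R (g * n⁻¹) := by
        have : g = g * n⁻¹ * n := by group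
        nth_rewrite 1 [this]
        rw [map_mul, hn1, mul_one]
      rw [h2]
      exact hstab _ h1 x hx

end Fermat.Agent.Lib.S59
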