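/-
PROGRAMME (R), final wiring of [IA'] (helper6, prefix `s59q_`): **the `p`-torsion of a nodal cubic has at most `p`
elements.**

`W` a Weierstrass cubic over an algebraically closed field with `Δ = 0`, `c₄ ≠ 0`.  Main's `Lib/S58/MultNode.lean`
gives the additive map `φ : Fˣ → W_ns`, `u ↦ P(d/(1-u))` in the normal form `y² + a₁xy = x³ + a₂x²`; here: `φ` is
surjective, so `{z | p • z = 0} ⊆ φ(μ_p)`.
-/
import Mathlib
import Fermat.Agent.Lib.S58.MultNodePt

set_option autoImplicit false
set_option linter.style.haveILetI false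
set_option linter.unusedSectionVars false

noncomputable section

namespace Fermat.Agent.Lib.S59

open WeierstrassCurve WeierstrassCurve.Affine Fermat.Agent.Lib.S58 Fermat.Agent.Lib.Frey

variable {F : Type*} [Field F] [DecidableEq F]

/-- every non-singular point of a nodal cubic in normal form is `φ(u)` for some `u ≠ 0`. -/
theorem s59q_nodal_phi_surj {W : WeierstrassCurve F} {β d : F} (hW : s58m_Nodal W β d)
    (z : W.toAffine.Point) : ∃ u : F, u ≠ 0 ∧ s58m_phi hW u = z := by
  rcases z with _ | ⟨x, y, h⟩
  · exact ⟨1, one_ne_zero, s58m_phi_one hW⟩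
  · have hns := (Affine.nonsingular_iff _ _).mp h
    obtain ⟨heq, hsing⟩ := hns
    rw [Affine.equation_iff, hW.a₁, hW.a₂, hW.a₃, hW.a₄, hW.a₆] at heq
    rw [hW.a₁, hW.a₂, hW.a₃, hW.a₄] at hsing
    have hx : x ≠ 0 := by
      intro hx0
      rw [hx0] at heq hsing
      have hy : y = 0 := by
        have : y ^ 2 = 0 := by linear_combination heq
        exact pow_eq_zero_iff (two_ne_zero) |>.mp this
      rw [hy] at hsing
      rcases hsing with h1 | h1
      · apply h1; ring
      · apply h1; ring
    set r : F := y / x - β with hr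
    have hyr : y = (β + r) * x := by
      rw [hr]; field_simp; ring
    have hxr : x = r * (r - d) := by
      have h1 : x ^ 2 * (r * (r - d)) = x ^ 2 * x := by
        rw [hyr] at heq
        linear_combination heq
      exact (mul_left_cancel₀ (pow_ne_zero 2 hx) h1).symm
    have hr0 : r ≠ 0 := by
      intro h0
      rw [h0, zero_mul] at hxr
      exact hx hxr
    have hrd : r ≠ d := by
      intro h0
      rw [h0, sub_self, mul_zero] at hxr
      exact hx hxr
    have hdr : d / r ≠ 0 := div_ne_zero hW.d_ne hr0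
    refine ⟨1 - d / r, ?_, ?_⟩
    · intro h0
      have h1 : d / r = 1 := by linear_combination -h0
      rw [div_eq_one_iff_eq hr0] at h1
      exact hrd h1.symm
    · have hu : ¬(1 - d / r = 1 ∨ 1 - d / r = 0) := by
        rintro (h0 | h0)
        · apply hdr; linear_combination -h0
        · have h1 : d / r = 1 := by linear_combination -h0
          rw [div_eq_one_iff_eq hr0] at h1
          exact hrd h1.symm
      rw [s58m_phi_of_ne hW hu]
      unfold s58m_P
      refine s58m_some_congr ?_ ?_ _ _
      · have e : d / (1 - (1 - d / r)) = r := by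
          rw [sub_sub_cancel, div_div_eq_mul_div]
          field_simp [hW.d_ne]
        rw [e, s58m_PX, ← hxr]
      · have e : d / (1 - (1 - d / r)) = r := by
          rw [sub_sub_cancel, div_div_eq_mul_div]
          field_simp [hW.d_ne]
        rw [e, s58m_PY, ← hxr, ← hyr]

/-- **the `p`-torsion of a nodal cubic in normal form has at most `p` elements.** -/
theorem s59q_nodal_torsion_le {W : WeierstrassCurve F} {β d : F} (hW : s58m_Nodal W β d) {p : ℕ}
    (hp : 0 < p) : ∃ T : Finset W.toAffine.Point, T.card ≤ p ∧ ∀ z : W.toAffine.Point, p • z = 0 → z ∈ T := by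
  classical
  refine ⟨(Polynomial.nthRootsFinset p (1 : F)).image (s58m_phi hW), ?_, ?_⟩
  · refine le_trans Finset.card_image_le ?_
    rw [Polynomial.nthRootsFinset_def]
    exact le_trans (Multiset.toFinset_card_le _) (Polynomial.card_nthRoots p 1)
  · intro z hz
    obtain ⟨u, hu0, rfl⟩ := s59q_nodal_phi_surj hW z
    rw [Finset.mem_image]
    refine ⟨u, ?_, rfl⟩
    rw [Polynomial.mem_nthRootsFinset hp]
    by_contra hne
    rw [← s58m_phi_pow hW hu0] at hz
    exact s58m_phi_ne_zero hW (pow_ne_zero p hu0) hne hz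

/-- **the `p`-torsion of a nodal cubic (long form, algebraically closed field) has at most `p` elements.** -/
theorem s59q_node_torsion_le [IsAlgClosed F] (W : WeierstrassCurve F) (hΔ : W.Δ = 0) (hc₄ : W.c₄ ≠ 0) {p : ℕ}
    (hp : 0 < p) : ∃ T : Finset W.toAffine.Point, T.card ≤ p ∧ ∀ z : W.toAffine.Point, p • z = 0 → z ∈ T := by
  classical
  obtain ⟨β, d, hW'⟩ := s58m_nodal_of_node W hΔ hc₄
  obtain ⟨T', hT', hmem⟩ := s59q_nodal_torsion_le hW' hp
  refine ⟨T'.image (fvc_pointEquiv W (s58m_nodeC W)), le_trans Finset.card_image_le hT', fun z hz => ?_⟩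
  rw [Finset.mem_image]
  refine ⟨(fvc_pointEquiv W (s58m_nodeC W)).symm z, hmem _ ?_, AddEquiv.apply_symm_apply _ z⟩
  rw [← map_nsmul, hz, map_zero]

end Fermat.Agent.Lib.S59
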