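/-
PROGRAMME (R), final wiring of [IA'] (helper6, prefix `s59q_`): **`p`-torsion points with non-singular reduction on a
curve with NODAL special fibre: at most `p` of them.**

Frame of `Lib/S58/GRed.lean`: `A` a valuation subring of a field `K` with algebraically closed residue field, `W` a
Weierstrass curve over `A` whose special fibre is a nodal cubic (`Δ̄ = 0`, `c̄₄ ≠ 0`), `p` an odd prime with `v(p) = 1`.
The reduction relation restricted to the `p`-torsion is (the graph of) an injective homomorphism
(`s58g_red_add`, `s58g_red_add_self`, the difference lemma `s58g_sub_mem_E1`, `E₁[p] = 0`), and the `p`-torsion of the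
nodal cubic has at most `p` elements (`QTwNode.lean`).
-/
import Mathlib
import Fermat.Agent.Lib.S59.QTwNode
import Fermat.Agent.Lib.S58.GRed
import Fermat.Agent.Lib.S58.E1Inertia

set_option autoImplicit false
set_option linter.style.haveILetI false
set_option linter.unusedSectionVars false

noncomputable section

namespace Fermat.Agent.Lib.S59

open WeierstrassCurve WeierstrassCurve.Affine Fermat.Agent.Lib.S58 Fermat.Agent.Lib.Frey
  Fermat.Agent.Lib.S41 IsLocalRing

variable {K : Type*} [Field K] [DecidableEq K] {A : ValuationSubring K} {W : WeierstrassCurve A}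
  [DecidableEq (ResidueField A)]

/-- the kernel of reduction has no `p`-torsion (`p` odd, `v(p) = 1`), in the `frd_E1` form. -/
theorem s59q_E1_torsion_free {p : ℕ} (hp : p.Prime) (hp2 : p ≠ 2) (hvp : A.valuation (p : K) = 1)
    {Q : (s41a_WK A W).toAffine.Point} (hQ : frd_E1 A.valuation (s41a_WK A W).toAffine Q)
    (hpQ : p • Q = 0) : Q = 0 := by
  obtain ⟨hb2, hb4, hb6, hb8⟩ := s58e_b_integral A.valuation (s41a_WK A W) (s41a_frd_integral A W)
  exact s58e_E1_torsion_free (s41a_WK A W) A.valuation hb2 hb4 hb6 hb8 hp hp2 hvp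
    ((s58e_E1_iff A.valuation (s41a_WK A W) Q).mp hQ) hpQ

/-- two `p`-torsion points with the same reduction are equal. -/
theorem s59q_red_inj {p : ℕ} (hp : p.Prime) (hp2 : p ≠ 2) (hvp : A.valuation (p : K) = 1)
    {x y : (s41a_WK A W).toAffine.Point} {xt : (s41a_Wk A W).toAffine.Point}
    (hx : s58g_Red A W x xt) (hy : s58g_Red A W y xt) (hpx : p • x = 0) (hpy : p • y = 0) : x = y := by
  have h1 := s58g_sub_mem_E1 hx hy
  have h2 : p • (x - y) = 0 := by rw [nsmul_sub, hpx, hpy, sub_zero]
  exact sub_eq_zero.mp (s59q_E1_torsion_free hp hp2 hvp h1 h2)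

/-- **the multiples of a `p`-torsion point with non-singular reduction reduce to the multiples of its reduction.** -/
theorem s59q_red_nsmul_torsion {p : ℕ} (hp : p.Prime) (hp2 : p ≠ 2) (hvp : A.valuation (p : K) = 1)
    {x : (s41a_WK A W).toAffine.Point} {xt : (s41a_Wk A W).toAffine.Point}
    (hx : s58g_Red A W x xt) (hpx : p • x = 0) (k : ℕ) :
    (k • x = 0 ∧ k • xt = 0) ∨ s58g_Red A W (k • x) (k • xt) := by
  have hx0 : x ≠ 0 := (s58g_red_ne_zero hx).1
  induction k with
  | zero => left; exact ⟨zero_nsmul _, zero_nsmul _⟩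
  | succ k ih =>
    rcases ih with ⟨h1, h2⟩ | hP
    · right
      rw [succ_nsmul, succ_nsmul, h1, h2, zero_add, zero_add]
      exact hx
    · have hpP : p • (k • x) = 0 := by rw [smul_comm, hpx, smul_zero]
      by_cases h1 : k • xt = xt
      · -- `k • x = x`
        rw [h1] at hP
        have hPx : k • x = x := s59q_red_inj hp hp2 hvp hP hx hpP hpx
        have hne : xt ≠ -xt := by
          intro hneg
          have hnx := s58g_red_neg hx
          rw [← hneg] at hnx
          have h3 : -x = x := s59q_red_inj hp hp2 hvp hnx hx (by rw [smul_neg, hpx, neg_zero]) hpx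
          have h4 : 2 • x = 0 := by
            rw [two_nsmul]
            nth_rewrite 1 [← h3]
            exact neg_add_cancel x
          have hcop : Nat.Coprime 2 p := by
            rw [Nat.coprime_comm]
            exact (Nat.Prime.coprime_iff_not_dvd hp).mpr (fun hd =>
              hp2 ((Nat.prime_dvd_prime_iff_eq hp Nat.prime_two).mp hd))
          apply hx0
          have h5 : (1 : ℤ) • x = 0 := by
            have hb := Nat.gcd_eq_gcd_ab 2 p
            rw [hcop] at hb
            have h6 : ((2 : ℕ) : ℤ) • x = 0 := by rw [natCast_zsmul]; exact h4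
            have h7 : ((p : ℕ) : ℤ) • x = 0 := by rw [natCast_zsmul]; exact hpx
            have : ((1 : ℕ) : ℤ) • x = 0 := by
              rw [hb, add_smul, mul_comm, mul_smul, h6, smul_zero, mul_comm, mul_smul, h7, smul_zero,
                add_zero]
            simpa using this
          simpa using h5
        right
        rw [succ_nsmul, succ_nsmul, hPx, h1]
        exact s58g_red_add_self hx hne
      · by_cases h2 : k • xt = -xt
        · left
          have hnx := s58g_red_neg hx
          rw [h2] at hP
          have hPx : k • x = -x :=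
            s59q_red_inj hp hp2 hvp hP hnx hpP (by rw [smul_neg, hpx, neg_zero])
          refine ⟨?_, ?_⟩
          · rw [succ_nsmul, hPx, neg_add_cancel]
          · rw [succ_nsmul, h2, neg_add_cancel]
        · right
          rw [succ_nsmul, succ_nsmul]
          exact s58g_red_add hP hx h1 h2

/-- the reduction of a `p`-torsion point is `p`-torsion. -/
theorem s59q_red_torsion {p : ℕ} (hp : p.Prime) (hp2 : p ≠ 2) (hvp : A.valuation (p : K) = 1)
    {x : (s41a_WK A W).toAffine.Point} {xt : (s41a_Wk A W).toAffine.Point}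
    (hx : s58g_Red A W x xt) (hpx : p • x = 0) : p • xt = 0 := by
  rcases s59q_red_nsmul_torsion hp hp2 hvp hx hpx p with ⟨-, h⟩ | h
  · exact h
  · exact absurd hpx (s58g_red_ne_zero h).1

/-- **at most `p` points of `p`-torsion with non-singular reduction, if the special fibre is a nodal cubic.** -/
theorem s59q_card_torsion_red_le [IsAlgClosed (ResidueField A)] {p : ℕ} (hp : p.Prime) (hp2 : p ≠ 2)
    (hvp : A.valuation (p : K) = 1) (hΔ : (s41a_Wk A W).Δ = 0) (hc₄ : (s41a_Wk A W).c₄ ≠ 0)
    (S : Finset (s41a_WK A W).toAffine.Point)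
    (hS : ∀ x ∈ S, p • x = 0 ∧ (x = 0 ∨ ∃ xt, s58g_Red A W x xt)) : S.card ≤ p := by
  classical
  obtain ⟨T, hT, hmem⟩ := s59q_node_torsion_le (s41a_Wk A W) hΔ hc₄ hp.pos
  let f : (s41a_WK A W).toAffine.Point → (s41a_Wk A W).toAffine.Point := fun x =>
    if h : ∃ xt, s58g_Red A W x xt then h.choose else 0
  have hf : ∀ x (h : ∃ xt, s58g_Red A W x xt), s58g_Red A W x (f x) := by
    intro x h
    simp only [f, dif_pos h]
    exact h.choose_spec
  have hf0 : ∀ x, (¬ ∃ xt, s58g_Red A W x xt) → f x = 0 := by
    intro x h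
    simp only [f, dif_neg h]
  refine le_trans (Finset.card_le_card_of_injOn f ?_ ?_) hT
  · intro x hxS
    obtain ⟨hpx, -⟩ := hS x hxS
    apply hmem
    by_cases h : ∃ xt, s58g_Red A W x xt
    · exact s59q_red_torsion hp hp2 hvp (hf x h) hpx
    · rw [hf0 x h, nsmul_zero]
  · intro x hxS y hyS hxy
    obtain ⟨hpx, hx⟩ := hS x hxS
    obtain ⟨hpy, hy⟩ := hS y hyS
    by_cases h : ∃ xt, s58g_Red A W x xt
    · by_cases h' : ∃ yt, s58g_Red A W y yt
      · have h1 := hf x h
        have h2 := hf y h'
        rw [← hxy] at h2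
        exact s59q_red_inj hp hp2 hvp h1 h2 hpx hpy
      · have h1 := hf x h
        rw [hxy, hf0 y h'] at h1
        exact absurd rfl (s58g_red_ne_zero h1).2
    · by_cases h' : ∃ yt, s58g_Red A W y yt
      · have h2 := hf y h'
        rw [← hxy, hf0 x h] at h2
        exact absurd rfl (s58g_red_ne_zero h2).2
      · rw [hx.resolve_right h, hy.resolve_right h']

end Fermat.Agent.Lib.S59
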