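/-
PROGRAMME (R), final wiring of [IA'] (helper6, prefix `s59q_`): **[FREY-2] the mod-`p` representation of the Frey
curve is RAMIFIED at `2`** (at every place `A` of `ℚ̄` over `2` some element of the inertia group moves a point of
`E[p]`).

Proof.  If the inertia group `I_A` fixed `E[p]` pointwise, every abscissa of a point of `E[p]` would have an INTEGRAL
`2`-adic valuation (`s56r_inertia_int`, main), so by the level law at `2` (`ftx_noRat_level`, main; `gcd(p, 2m) = 1`,
`m = v₂(a₄) = p v₂(b) - 4`) no point of `E[p]` reduces to the node: all of `E[p]` has non-singular reduction.  But at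
most `p` points of `p`-torsion have non-singular reduction when the special fibre is a nodal cubic
(`s59q_card_torsion_red_le`), and `#E[p] = p²`.
-/
import Mathlib
import Fermat.Agent.Lib.S59.QTwRed
import Fermat.Agent.Lib.S12.CL2b
import Fermat.Agent.Lib.S12.NArith
import Fermat.Agent.Lib.EN.FreyCard
import Fermat.Agent.Lib.S58.MultFix
import Fermat.Agent.Lib.Mz.Places

set_option autoImplicit false
set_option linter.style.haveILetI false
set_option linter.unusedSectionVars false

noncomputable section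

namespace Fermat.Agent.Lib.S59

open WeierstrassCurve WeierstrassCurve.Affine WeierstrassCurve.Affine.Point Fermat.Agent.Lib.S58
  Fermat.Agent.Lib.Frey Fermat.Agent.Lib.S41 Fermat.Agent.Lib.F2 Fermat.Agent.Lib.S12
  Fermat.Agent.Lib.S56 Fermat.Agent.Lib.EN Fermat.Agent.Lib.S13 IsLocalRing

local notation "Kb" => AlgebraicClosure ℚ
local notation "GQ" => (AlgebraicClosure ℚ ≃ₐ[ℚ] AlgebraicClosure ℚ)

/-- **a `p`-torsion point of the Frey curve whose abscissa is fixed by the inertia group at `A ∣ 2` has integral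
coordinates and non-singular reduction at `A`.** -/
theorem s59q_frey_red_of_fixed (P : FreyPackage) (A : ValuationSubring Kb) (hA : A.LiesOverPrime 2)
    {X Y : Kb} (h : (s58e_EK P.freyCurveInt).Nonsingular X Y)
    (hpx : P.p • (Point.some X Y h : (s58e_EK P.freyCurveInt).Point) = 0)
    (hfix : ∀ σ ∈ A.inertiaSubgroupIn ℚ, σ X = X) :
    ∃ (hX : X ∈ A) (hY : Y ∈ A),
      (P.freyCurveInt.map (Int.castRingHom (ResidueField A))).toAffine.Nonsingular
        (residue A ⟨X, hX⟩) (residue A ⟨Y, hY⟩) := by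
  have hq := Nat.prime_two
  have hp2 : P.p ≠ 2 := by have := P.hp5; omega
  set v := ford_vQ A hq hA with hv
  have hv2 : v (2 : Kb) = 1 := by
    have := ford_vQ_q hq hA
    simpa using this
  have hpos2 : (0 : WithTop ℚ) < v (2 : Kb) := by rw [hv2]; exact zero_lt_one
  have hint : ∀ z : ℤ, 0 ≤ v (z : Kb) := ford_vQ_intCast_nonneg hq hA
  -- integrality
  obtain ⟨hXv, hYv⟩ := s58e_torsion_integral (W := P.freyCurveInt) hq hA P.pp hp2 hp2 1 h
    (by rw [pow_one]; exact hpx)
  have hXA : X ∈ A := (A.valuation_le_one_iff X).mp hXv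
  have hYA : Y ∈ A := (A.valuation_le_one_iff Y).mp hYv
  have hX0 : 0 ≤ v X := (ford_vQ_nonneg_iff hq hA X).mpr hXA
  -- the model
  set a₂ : Kb := algebraMap ℚ Kb P.freyCurve.a₂ with ha₂
  set a₄ : Kb := algebraMap ℚ Kb P.freyCurve.a₄ with ha₄
  have heq : (P.freyCurveInt.map (Int.castRingHom ℚ)).baseChange Kb = ftw_curve a₂ a₄ := by
    rw [s12c_freyInt_map]
    exact ftx_frey_baseChange P Kb
  have hva₂ : 0 ≤ v a₂ := by
    obtain ⟨k, hk⟩ := ftx_a₂_int P
    rw [ha₂, hk]
    have : algebraMap ℚ Kb (k : ℚ) = (k : Kb) := map_intCast _ k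
    rw [this]
    exact hint k
  have hva₄ : v a₄ = (((ftx_m P : ℕ) : ℚ) : WithTop ℚ) := by
    rw [ha₄, hv, ford_vQ_algebraMap hq hA (ftx_a₄_ne_zero P), ftx_padicValRat_a₄]
    norm_cast
  have h' : (ftw_curve a₂ a₄).toAffine.Nonsingular X Y := heq ▸ h
  have hpx' : P.p • (Point.some X Y h' : (ftw_curve a₂ a₄).toAffine.Point) = 0 := by
    have := congrArg (fab_congr heq) hpx
    rwa [map_nsmul, fab_congr_some, _root_.map_zero] at this
  -- `v X ≤ 0`
  have hvX : v X ≤ 0 := by
    by_contra hpos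
    rw [not_le] at hpos
    refine ftx_noRat_level v hpos2 hva₂ hva₄ (ftx_m_pos P) (ftx_coprime P) h' hpx' hpos ?_
    intro hXne
    exact s56r_inertia_int hq A hA X hfix hXne
  have hvX0 : v X = 0 := le_antisymm hvX hX0
  refine ⟨hXA, hYA, ?_⟩
  -- the reduction is non-singular
  have hmap1 : (P.freyCurveInt.map (Int.castRingHom A)).map A.subtype =
      (P.freyCurveInt.map (Int.castRingHom ℚ)).baseChange Kb := by
    rw [WeierstrassCurve.baseChange, WeierstrassCurve.map_map, WeierstrassCurve.map_map]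
    congr 1
  have hmap2 : (P.freyCurveInt.map (Int.castRingHom A)).map (IsLocalRing.residue A) =
      P.freyCurveInt.map (Int.castRingHom (IsLocalRing.ResidueField A)) := by
    rw [WeierstrassCurve.map_map]
    congr 1
  have hE1 : ((P.freyCurveInt.map (Int.castRingHom A)).map A.subtype).toAffine.Equation X Y := by
    rw [hmap1]; exact h.1
  have hEA : (P.freyCurveInt.map (Int.castRingHom A)).toAffine.Equation
      (⟨X, hXA⟩ : A) ⟨Y, hYA⟩ :=
    (Affine.map_equation (W := (P.freyCurveInt.map (Int.castRingHom A)).toAffine)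
      (f := A.subtype) Subtype.val_injective ⟨X, hXA⟩ ⟨Y, hYA⟩).mp hE1
  have hEk : (P.freyCurveInt.map
      (Int.castRingHom (IsLocalRing.ResidueField A))).toAffine.Equation
      (IsLocalRing.residue A ⟨X, hXA⟩) (IsLocalRing.residue A ⟨Y, hYA⟩) := by
    rw [← hmap2]; exact hEA.map (IsLocalRing.residue A)
  rw [Affine.nonsingular_iff']
  refine ⟨hEk, Or.inr ?_⟩
  have h2k : (2 : IsLocalRing.ResidueField A) = 0 := by
    have h2A : ((2 : A) : Kb) ∈ A.nonunits := by
      have h2N : ((2 : ℕ) : Kb) ∈ A.nonunits := hA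
      have e : ((2 : A) : Kb) = (2 : Kb) := map_ofNat A.subtype 2
      rw [e]
      simpa using h2N
    have : (2 : A) ∈ IsLocalRing.maximalIdeal A :=
      (ValuationSubring.coe_mem_nonunits_iff (A := A)).mp h2A
    have h3 := (IsLocalRing.residue_eq_zero_iff (2 : A)).mpr this
    rwa [map_ofNat] at h3
  have hxk : IsLocalRing.residue A ⟨X, hXA⟩ ≠ 0 := by
    intro h0
    have hmem : (⟨X, hXA⟩ : A) ∈ IsLocalRing.maximalIdeal A :=
      (IsLocalRing.residue_eq_zero_iff _).mp h0
    have : X ∈ A.nonunits := (ValuationSubring.coe_mem_nonunits_iff (A := A)).mpr hmem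
    have := (ford_vQ_pos_iff hq hA X).mpr this
    rw [← hv, hvX0] at this
    exact lt_irrefl _ this
  have ha1 : (P.freyCurveInt.map (Int.castRingHom (IsLocalRing.ResidueField A))).a₁ = 1 := by
    simp [FreyPackage.freyCurveInt]
  have ha3 : (P.freyCurveInt.map (Int.castRingHom (IsLocalRing.ResidueField A))).a₃ = 0 := by
    simp [FreyPackage.freyCurveInt]
  rw [ha1, ha3, h2k, zero_mul, zero_add, one_mul, add_zero]
  exact hxk

/-- **[FREY-2], integral-model frame**: at every place `A ∣ 2` some element of the inertia group moves a point of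
order `p` of the Frey curve. -/
theorem s59q_frey_ramified_two_int (P : FreyPackage) (A : ValuationSubring Kb)
    (hA : A.LiesOverPrime 2) :
    ∃ σ ∈ A.inertiaSubgroupIn ℚ, ∃ x : (s58e_EK P.freyCurveInt).Point, P.p • x = 0 ∧ σ • x ≠ x := by
  classical
  by_contra hcon
  push Not at hcon
  have hq := Nat.prime_two
  have hp5 := P.hp5
  have hp2 : P.p ≠ 2 := by omega
  obtain ⟨hmapW, -, hbad, hc4⟩ := s12s_Arith P
  have h2Δ : ((2 : ℕ) : ℤ) ∣ P.freyCurveInt.Δ :=
    (hbad 2 hq).mpr (by exact_mod_cast P.two_dvd_abc)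
  have h2c₄ : ¬ ((2 : ℕ) : ℤ) ∣ P.freyCurveInt.c₄ := hc4 2 hq h2Δ
  -- the `p`-torsion has `p²` elements
  haveI hell : (s58e_EK P.freyCurveInt).IsElliptic := by
    show ((P.freyCurveInt.map (Int.castRingHom ℚ)).map (algebraMap ℚ Kb)).IsElliptic
    rw [hmapW]
    infer_instance
  have hcard : Nat.card {x : (s58e_EK P.freyCurveInt).Point // P.p • x = 0} = P.p ^ 2 :=
    ent_natCard_torsion (s58e_EK P.freyCurveInt) P.p P.pp.one_le
  haveI hfin : Finite {x : (s58e_EK P.freyCurveInt).Point // P.p • x = 0} :=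
    Nat.finite_of_card_ne_zero (by rw [hcard]; exact pow_ne_zero 2 P.pp.ne_zero)
  letI : Fintype {x : (s58e_EK P.freyCurveInt).Point // P.p • x = 0} := Fintype.ofFinite _
  -- transport to the frame of the reduction relation
  have heq : s58e_EK P.freyCurveInt = s41a_WK A (s41a_WA P.freyCurveInt A) :=
    (s58m_curve_eq P.freyCurveInt A).symm
  set Ψ := fab_congr heq with hΨ
  set S : Finset (s41a_WK A (s41a_WA P.freyCurveInt A)).toAffine.Point :=
    Finset.univ.image (fun x : {x : (s58e_EK P.freyCurveInt).Point // P.p • x = 0} => Ψ x.1) with hSdef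
  have hScard : S.card = P.p ^ 2 := by
    rw [hSdef, Finset.card_image_of_injective, Finset.card_univ, ← Nat.card_eq_fintype_card, hcard]
    intro x y hxy
    exact Subtype.ext (Ψ.injective hxy)
  haveI : IsAlgClosed (ResidueField A) := s41a_isAlgClosed_residueField A
  haveI hch : CharP (ResidueField A) 2 := s41a_charP_residueField A hq hA
  have hvp : A.valuation (P.p : Kb) = 1 :=
    s41a_valuation_natCast_eq_one A hq hA (fun hd =>
      hp2 ((Nat.prime_dvd_prime_iff_eq hq P.pp).mp hd).symm)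
  have hΔ : (s41a_Wk A (s41a_WA P.freyCurveInt A)).Δ = 0 := by
    rw [s41a_Wk_eq, map_Δ, eq_intCast]
    exact (CharP.intCast_eq_zero_iff (ResidueField A) 2 P.freyCurveInt.Δ).mpr h2Δ
  have hc₄ : (s41a_Wk A (s41a_WA P.freyCurveInt A)).c₄ ≠ 0 := by
    rw [s41a_Wk_eq, map_c₄, eq_intCast]
    intro h0
    exact h2c₄ ((CharP.intCast_eq_zero_iff (ResidueField A) 2 P.freyCurveInt.c₄).mp h0)
  have hS : ∀ y ∈ S, P.p • y = 0 ∧ (y = 0 ∨ ∃ yt, s58g_Red A (s41a_WA P.freyCurveInt A) y yt) := by
    intro y hy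
    rw [hSdef, Finset.mem_image] at hy
    obtain ⟨⟨x, hpx⟩, -, rfl⟩ := hy
    refine ⟨by rw [← map_nsmul, hpx, _root_.map_zero], ?_⟩
    rcases x with _ | ⟨X, Y, h⟩
    · left
      exact _root_.map_zero Ψ
    · right
      have hfixX : ∀ σ ∈ A.inertiaSubgroupIn ℚ, σ X = X := by
        intro σ hσ
        have h1 := hcon σ hσ (Point.some X Y h) hpx
        obtain ⟨h', e⟩ : ∃ h', σ • (Point.some X Y h : (s58e_EK P.freyCurveInt).Point) =
            Point.some (σ X) (σ Y) h' := ⟨_, rfl⟩
        rw [e, Point.some.injEq] at h1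
        exact h1.1
      obtain ⟨hX, hY, hns⟩ := s59q_frey_red_of_fixed P A hA h hpx hfixX
      have hns' : (s41a_Wk A (s41a_WA P.freyCurveInt A)).toAffine.Nonsingular
          (residue A ⟨X, hX⟩) (residue A ⟨Y, hY⟩) := by
        rw [s41a_Wk_eq]; exact hns
      have hK : (s41a_WK A (s41a_WA P.freyCurveInt A)).toAffine.Nonsingular
          (((⟨X, hX⟩ : A) : Kb)) (((⟨Y, hY⟩ : A) : Kb)) := heq ▸ h
      have he := s58g_equation_of_nonsingular (A := A) (W := s41a_WA P.freyCurveInt A) hK
      have hred := s58g_red_mk (A := A) (W := s41a_WA P.freyCurveInt A) he hns'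
      have e1 : Ψ (Point.some X Y h) = Point.some (((⟨X, hX⟩ : A) : Kb)) (((⟨Y, hY⟩ : A) : Kb))
          (s58g_nonsingular_of_red he hns') := by
        rw [hΨ, fab_congr_some]
      rw [e1]
      exact ⟨_, hred⟩
  have hle := s59q_card_torsion_red_le (A := A) (W := s41a_WA P.freyCurveInt A) P.pp hp2 hvp hΔ hc₄
    S hS
  rw [hScard] at hle
  nlinarith

/-- **[FREY-2], any rational model equal to the integral one** (for `subst`). -/
theorem s59q_frey_ramified_two_aux (P : FreyPackage) (W' : WeierstrassCurve ℚ)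
    (hW' : P.freyCurveInt.map (Int.castRingHom ℚ) = W') (A : ValuationSubring Kb)
    (hA : A.LiesOverPrime 2) :
    ∃ σ ∈ A.inertiaSubgroupIn ℚ, ∃ x : Submodule.torsionBy ℤ (W'⁄Kb).Point P.p, σ • x ≠ x := by
  subst hW'
  obtain ⟨σ, hσ, x, hpx, hne⟩ := s59q_frey_ramified_two_int P A hA
  refine ⟨σ, hσ, ⟨x, ?_⟩, ?_⟩
  · rw [Submodule.mem_torsionBy_iff, natCast_zsmul]
    exact hpx
  · intro h
    exact hne (congrArg Subtype.val h)

/-- **[FREY-2]: the mod-`p` representation of the Frey curve is ramified at `2`**, at every place over `2`. -/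
theorem s59q_frey_ramified_two (P : FreyPackage) (A : ValuationSubring Kb) (hA : A.LiesOverPrime 2) :
    ∃ σ ∈ A.inertiaSubgroupIn ℚ, ∃ x : s13_V P, σ • x ≠ x :=
  s59q_frey_ramified_two_aux P P.freyCurve (s12c_freyInt_map P) A hA

/-- the Prelude form: `¬ P.GaloisRepUnramifiedAt 2`. -/
theorem s59q_frey_not_unramified_two (P : FreyPackage) : ¬ P.GaloisRepUnramifiedAt 2 := by
  intro hunr
  obtain ⟨A, hA⟩ := Fermat.Agent.Lib.Mz.ptm_exists_liesOverPrime 2 Nat.prime_two
  obtain ⟨σ, hσ, x, hne⟩ := s59q_frey_ramified_two P A hA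
  exact hne (hunr A hA σ hσ x)

end Fermat.Agent.Lib.S59
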