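/-
Programme (R), wiring W4-(c) (helper2, prefix `s59b_`): **the Taylor-Wiles image condition for the
Frey representation, every `p ≥ 5`.**

helper6's `s59q_twimage_of_unip` (QTwAbs) gives the Taylor-Wiles image condition from universal
irreducibility and ONE non-trivial unipotent element in the image; `s59q_frey_ramified_two`
(QTwFrey) gives an element of an inertia group at `2` moving a `p`-torsion point of the Frey curve.
Here we wire these to `ρ_W ⊗ 𝒪` (`ρ_W = s59b_rhoW W p hΔ`, `W` a semistable integral model of the Frey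
curve), exactly in the shape of helper5's `s59e_E6` (which needed `p ∈ {3, 5}`):

* `s59b_mem_of_residual_zero` : a vector of a finite free module killed in `k ⊗ (A ⊗ V)` lies in `𝔪 V`;
* `s59b_fix_of_residual_one` : `ρ̄(τ) = 1` implies that `τ` fixes `W[p]` pointwise;
* `s59b_modRep_irr` : irreducibility of `E[p]` gives `W.ModRepIsIrreducible p` (along `s44s_Psi`);
* `s59b_moves_of_moves` : a `τ` moving a point of `E[p]` moves a point of `W[p]`;
* `s59b_TW_of_unip` : (E6) for `ρ_W ⊗ 𝒪` from a `τ` in an inertia group at `q ≠ p` moving a point of `W[p]`;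
* **`s59b_frey_TW`** : (E6) for the Frey curve, every `p`.
-/
import Fermat.Agent.Lib.S59.ETWTop
import Fermat.Agent.Lib.S59.QTwAbs
import Fermat.Agent.Lib.S59.QTwFrey
import Fermat.Agent.Lib.S44.SoftTransport

set_option autoImplicit false
set_option linter.style.haveILetI false
set_option linter.unusedSectionVars false

noncomputable section

namespace Fermat.Agent.Lib.S59

open Fermat.Agent.Lib.S30 Fermat.Agent.Lib.S58 Fermat.Agent.Lib.S56 Fermat.Agent.Lib.S44 ExtCitation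
open WeierstrassCurve WeierstrassCurve.Affine IsLocalRing TensorProduct

local notation "Kb" => AlgebraicClosure ℚ
local notation "GQ" => (AlgebraicClosure ℚ ≃ₐ[ℚ] AlgebraicClosure ℚ)

section Abs

variable {A₀ A : Type} [CommRing A₀] [IsLocalRing A₀] [CommRing A] [IsLocalRing A]

/-- a vector of a finite free module which dies in `k ⊗ (A ⊗ V)` lies in `𝔪 V`. -/
theorem s59b_mem_of_residual_zero (φ : A₀ →+* A)
    {V : Type} [AddCommGroup V] [Module A₀ V] [Module.Free A₀ V] [Module.Finite A₀ V] (s : V)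
    (h : letI : Algebra A₀ A := φ.toAlgebra
      (1 : ResidueField A) ⊗ₜ[A] ((1 : A) ⊗ₜ[A₀] s) = 0) :
    s ∈ maximalIdeal A₀ • (⊤ : Submodule A₀ V) := by
  letI : Algebra A₀ A := φ.toAlgebra
  let b := Module.Free.chooseBasis A₀ V
  let b₁ := Algebra.TensorProduct.basis A b
  let b₂ := Algebra.TensorProduct.basis (ResidueField A) b₁
  have hcoord : ∀ i, b.repr s i ∈ maximalIdeal A₀ := by
    intro i
    have h1 : b₂.repr ((1 : ResidueField A) ⊗ₜ[A] ((1 : A) ⊗ₜ[A₀] s)) i = 0 := by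
      rw [h, map_zero, Finsupp.zero_apply]
    rw [Algebra.TensorProduct.basis_repr_tmul, Algebra.TensorProduct.basis_repr_tmul, one_smul,
      one_smul] at h1
    have h2 : residue A (φ (b.repr s i)) = 0 := h1
    rw [residue_eq_zero_iff] at h2
    rw [mem_maximalIdeal, mem_nonunits_iff] at h2 ⊢
    intro hu
    exact h2 (hu.map φ)
  rw [← b.sum_repr s]
  exact Submodule.sum_mem _ fun i _ => Submodule.smul_mem_smul (hcoord i) Submodule.mem_top

end Abs

variable {W : WeierstrassCurve ℤ} {p : ℕ} [hp : Fact p.Prime]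

/-- **`ρ̄(τ) = 1` implies that `τ` fixes `W[p]` pointwise** (`ρ̄` the residual representation of
`ρ_W ⊗ 𝒪`). -/
theorem s59b_fix_of_residual_one (hΔ : W.Δ ≠ 0) {𝒪 : Type} [CommRing 𝒪] [IsLocalRing 𝒪]
    (φ : ℤ_[p] →+* 𝒪) (hφ : IsLocalHom φ) (τ : GQ)
    (h : ((s59b_rhoW W p hΔ).baseChangeAlong φ hφ).residual.ρ τ = 1)
    (Q : s58_Pt W) (hQ : p • Q = 0) : τ • Q = Q := by
  letI : Algebra ℤ_[p] 𝒪 := φ.toAlgebra
  haveI : Module.Free ℤ_[p] (s59b_TW W p) := (s59b_rhoW W p hΔ).instFree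
  haveI : Module.Finite ℤ_[p] (s59b_TW W p) := (s59b_rhoW W p hΔ).instFinite
  obtain ⟨t, ht⟩ := s59b_rhoW_proj_surj hΔ 1 Q (by rwa [pow_one])
  have h0 : (1 : ResidueField 𝒪) ⊗ₜ[𝒪] ((1 : 𝒪) ⊗ₜ[ℤ_[p]] (s59b_rhoFun W p τ t - t)) = 0 := by
    have h1 := LinearMap.congr_fun h ((1 : ResidueField 𝒪) ⊗ₜ[𝒪] ((1 : 𝒪) ⊗ₜ[ℤ_[p]] t))
    have h2 : ((s59b_rhoW W p hΔ).baseChangeAlong φ hφ).residual.ρ τ
        ((1 : ResidueField 𝒪) ⊗ₜ[𝒪] ((1 : 𝒪) ⊗ₜ[ℤ_[p]] t)) =
        (1 : ResidueField 𝒪) ⊗ₜ[𝒪] ((1 : 𝒪) ⊗ₜ[ℤ_[p]] (s59b_rhoFun W p τ t)) := rfl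
    rw [h2] at h1
    rw [TensorProduct.tmul_sub, TensorProduct.tmul_sub, sub_eq_zero]
    exact h1
  have hmem := s59b_mem_of_residual_zero φ (s59b_rhoFun W p τ t - t) h0
  rw [PadicInt.maximalIdeal_eq_span_p, Submodule.ideal_span_singleton_smul] at hmem
  obtain ⟨w, -, hw⟩ := (Submodule.mem_smul_pointwise_iff_exists _ _ _).mp hmem
  have h3 := congrArg (fun x : s59b_TW W p => (x : ℕ → s58_Pt W) 1) hw
  simp only [s30a_natCast_smul_apply, s30a_sub_apply, s59b_rhoFun_apply] at h3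
  have h4 := s30a_pow_smul w 1
  rw [pow_one] at h4
  rw [h4, ht] at h3
  exact (sub_eq_zero.mp h3.symm)

section Transport

variable (E : WeierstrassCurve ℚ) (W)
  (C : VariableChange ℚ) (hC : C • E = W.map (Int.castRingHom ℚ)) (p)

include hC in
/-- irreducibility of `E[p]` gives `W.ModRepIsIrreducible p`. -/
theorem s59b_modRep_irr (hirr : Point.GaloisRepIsIrreducible (K := Kb) ℚ E.toAffine p) :
    W.ModRepIsIrreducible p := by
  set Ψ := s44s_Psi E W C hC with hΨ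
  set TE := Submodule.torsionBy ℤ (E.toAffine⁄Kb).Point ((p : ℕ) : ℤ) with hTE
  set TW := Submodule.torsionBy ℤ (s58_Pt W) ((p : ℕ) : ℤ) with hTW
  have hWE : ∀ v : s58_Pt W, v ∈ TW → Ψ v ∈ TE := by
    intro v hv
    rw [hTE, Submodule.mem_torsionBy_iff, natCast_zsmul]
    rw [hTW, Submodule.mem_torsionBy_iff, natCast_zsmul] at hv
    exact (s44s_Psi_nsmul_eq_zero E W C hC p v).mpr hv
  have hEW : ∀ v : s58_Pt W, Ψ v ∈ TE → v ∈ TW := by
    intro v hv
    rw [hTW, Submodule.mem_torsionBy_iff, natCast_zsmul]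
    rw [hTE, Submodule.mem_torsionBy_iff, natCast_zsmul] at hv
    exact (s44s_Psi_nsmul_eq_zero E W C hC p v).mp hv
  refine ⟨?_, ?_⟩
  · obtain ⟨x, y, hxy⟩ := hirr.1
    refine ⟨⟨⟨Ψ.symm x, hEW _ (by rw [AddEquiv.apply_symm_apply]; exact x.2)⟩,
      ⟨Ψ.symm y, hEW _ (by rw [AddEquiv.apply_symm_apply]; exact y.2)⟩, ?_⟩⟩
    intro hxy'
    apply hxy
    apply Subtype.ext
    have := congrArg Subtype.val hxy'
    exact Ψ.symm.injective this
  · intro N hN
    set N' : Submodule (ZMod p) ↥TE :=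
      AddSubgroup.toZModSubmodule p
        (((N.toAddSubgroup.map TW.toAddSubgroup.subtype).map Ψ.toAddMonoidHom).comap
          TE.toAddSubgroup.subtype) with hN'
    have hmem : ∀ x : ↥TE, x ∈ N' ↔ ∃ u : ↥TW, u ∈ N ∧ Ψ (u : s58_Pt W) = (x : (E.toAffine⁄Kb).Point) := by
      intro x
      constructor
      · rintro ⟨_, ⟨u, hu, rfl⟩, hux⟩
        exact ⟨u, hu, hux⟩
      · rintro ⟨u, hu, hux⟩
        exact ⟨_, ⟨u, hu, rfl⟩, hux⟩
    have hst : Point.IsGaloisStable (K := Kb) ℚ N' := by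
      intro σ x hx
      rw [hmem] at hx ⊢
      obtain ⟨u, hu, hux⟩ := hx
      refine ⟨σ • u, hN σ u hu, ?_⟩
      show Ψ (σ • (u : s58_Pt W)) = σ • (x : (E.toAffine⁄Kb).Point)
      rw [hΨ, s44s_Psi_sigma, ← hΨ, hux]
    rcases hirr.2 N' hst with h | h
    · left
      rw [eq_bot_iff]
      intro u hu
      have h1 : (⟨Ψ (u : s58_Pt W), hWE _ u.2⟩ : ↥TE) ∈ N' := (hmem _).mpr ⟨u, hu, rfl⟩
      rw [h, Submodule.mem_bot] at h1
      rw [Submodule.mem_bot]
      apply Subtype.ext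
      have h2 : Ψ (u : s58_Pt W) = 0 := congrArg Subtype.val h1
      exact (AddEquiv.map_eq_zero_iff Ψ).mp h2
    · right
      rw [eq_top_iff]
      intro u _
      have h1 : (⟨Ψ (u : s58_Pt W), hWE _ u.2⟩ : ↥TE) ∈ N' := by
        rw [h]
        exact Submodule.mem_top
      obtain ⟨u', hu', huu⟩ := (hmem _).mp h1
      have : u' = u := Subtype.ext (Ψ.injective huu)
      rw [← this]
      exact hu'

include hC in
/-- a `τ` moving a point of `E[p]` moves a point of `W[p]`. -/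
theorem s59b_moves_of_moves (τ : GQ)
    (h : ∃ x : Submodule.torsionBy ℤ (E.toAffine⁄Kb).Point p, τ • x ≠ x) :
    ∃ Q : s58_Pt W, p • Q = 0 ∧ τ • Q ≠ Q := by
  obtain ⟨x, hx⟩ := h
  refine ⟨(s44s_Psi E W C hC).symm (x : (E.toAffine⁄Kb).Point), ?_, ?_⟩
  · rw [← s44s_Psi_nsmul_eq_zero E W C hC, AddEquiv.apply_symm_apply]
    have := x.2
    rwa [Submodule.mem_torsionBy_iff, natCast_zsmul] at this
  · intro hfix
    apply hx
    apply Subtype.ext
    show τ • (x : (E.toAffine⁄Kb).Point) = x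
    rw [← s44s_Psi_symm_sigma] at hfix
    exact (s44s_Psi E W C hC).symm.injective hfix

end Transport

/-- **(E6) for `ρ_W ⊗ 𝒪`, every odd `p`, from ONE element of an inertia group at some `q ≠ p` which moves
a point of `W[p]`**: the residual representation is absolutely irreducible and satisfies the
Taylor-Wiles image condition (shape of `s59e_E6`). -/
theorem s59b_TW_of_unip (hp2 : p ≠ 2) (hΔ : W.Δ ≠ 0) (hirr : W.ModRepIsIrreducible p)
    (hss : W.IsSemistableModel) (q : ℕ) (hq : q.Prime) (hqp : q ≠ p)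
    (Pl : ValuationSubring Kb) (hPl : Pl.LiesOverPrime q) (τ : GQ)
    (hτ : τ ∈ Pl.inertiaSubgroupIn ℚ) (Q : s58_Pt W) (hQ : p • Q = 0) (hτQ : τ • Q ≠ Q)
    {𝒪 : Type} [CommRing 𝒪] [IsLocalRing 𝒪] (φ : ℤ_[p] →+* 𝒪) (hφ : IsLocalHom φ) :
    ((s59b_rhoW W p hΔ).baseChangeAlong φ hφ).residual.IsAbsolutelyIrreducible ∧
    ∀ (K : Type) [Field K] [Algebra (ResidueField 𝒪) K] (G : Subgroup GQ), G.index = 2 →
      ∀ V : Submodule K
        (((s59b_rhoW W p hΔ).baseChangeAlong φ hφ).residual.baseChange K).V,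
        (∀ σ ∈ G, ∀ x ∈ V,
          (((s59b_rhoW W p hΔ).baseChangeAlong φ hφ).residual.baseChange K).ρ σ x ∈ V) →
        V = ⊥ ∨ V = ⊤ := by
  have hpp : p.Prime := hp.out
  set ρ₀ := s59b_rhoW W p hΔ with hρ₀
  have hdet₀ : ρ₀.DetIsCyclotomic p := s59b_rhoW_detCyc hΔ hp2 hirr
  set ρ := ρ₀.baseChangeAlong φ hφ with hρ
  have hdet : ρ.DetIsCyclotomic p := s59e_bc_detCyc φ hφ ρ₀ p hdet₀
  haveI : CharP (ResidueField 𝒪) p := s59e_charP_residue p hdet.1
  haveI hc₀ : CharP (ResidueField ℤ_[p]) p := s59e_charP_residue p hdet₀.1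
  have h2 : (2 : ResidueField ℤ_[p]) ≠ 0 := by
    intro h0
    have h1 : ((2 : ℕ) : ResidueField ℤ_[p]) = 0 := by exact_mod_cast h0
    have := (CharP.cast_eq_zero_iff (ResidueField ℤ_[p]) p 2).mp h1
    have := (Nat.prime_dvd_prime_iff_eq hpp Nat.prime_two).mp this
    exact hp2 this
  have hdetc : LinearMap.det (ρ₀.residual.ρ complexConjugation) = -1 := by
    rw [s59e_residual_det p ρ₀ hdet₀ complexConjugation (p - 1)
      (fun μ hμ => s30y_conj_root p hpp.ne_zero μ hμ),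
      Nat.cast_sub hpp.one_le, CharP.cast_eq_zero, Nat.cast_one, zero_sub]
  -- universal irreducibility
  have huniv : ∀ (K : Type) [Field K] [Algebra (ResidueField 𝒪) K],
      (ρ.residual.baseChange K).IsIrreducible := by
    intro K _ _
    apply s59e_residual_irr_transport φ hφ ρ₀ K
    haveI := hφ
    letI : Algebra (ResidueField ℤ_[p]) K :=
      ((algebraMap (ResidueField 𝒪) K).comp (ResidueField.map φ)).toAlgebra
    intro U hU
    exact s59e_univ_irr ρ₀.residual.ρ K h2 ρ₀.residual.finrank_eq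
      (s59e_rhoW_residual_irr hΔ hirr) complexConjugation complexConjugation_mul_self hdetc U hU
  refine ⟨huniv (AlgebraicClosure (ResidueField 𝒪)), ?_⟩
  refine s59q_twimage_of_unip p hp2 ρ.residual huniv τ ?_ ?_
  · have h1 := s59e_residual_unip ρ q
      (s59e_bc_unip φ hφ ρ₀ q (s59b_rhoW_unip hΔ hp2 hirr hss q hq hqp)) Pl hPl τ hτ
    rw [pow_two] at h1
    exact h1
  · intro h1
    exact hτQ (s59b_fix_of_residual_one hΔ φ hφ τ h1 Q hQ)

/-- **(E6) for the Frey curve, every `p`** (`W` a semistable integral model of the Frey curve of `P`,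
`E[p]` irreducible): the residual representation of `ρ_W ⊗ 𝒪` is absolutely irreducible and satisfies
the Taylor-Wiles image condition. -/
theorem s59b_frey_TW (P : FreyPackage) [hpP : Fact P.p.Prime] (W : WeierstrassCurve ℤ)
    (hW : W.IsIntegralModelOf P.freyCurve) (hΔ : W.Δ ≠ 0) (hss : W.IsSemistableModel)
    (hirr : Point.GaloisRepIsIrreducible (K := Kb) ℚ P.freyCurve P.p)
    {𝒪 : Type} [CommRing 𝒪] [IsLocalRing 𝒪] (φ : ℤ_[P.p] →+* 𝒪) (hφ : IsLocalHom φ) :
    ((s59b_rhoW W P.p hΔ).baseChangeAlong φ hφ).residual.IsAbsolutelyIrreducible ∧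
    ∀ (K : Type) [Field K] [Algebra (ResidueField 𝒪) K] (G : Subgroup GQ), G.index = 2 →
      ∀ V : Submodule K
        (((s59b_rhoW W P.p hΔ).baseChangeAlong φ hφ).residual.baseChange K).V,
        (∀ σ ∈ G, ∀ x ∈ V,
          (((s59b_rhoW W P.p hΔ).baseChangeAlong φ hφ).residual.baseChange K).ρ σ x ∈ V) →
        V = ⊥ ∨ V = ⊤ := by
  obtain ⟨C, hC⟩ := hW
  have hp5 := P.hp5
  have hp2 : P.p ≠ 2 := by omega
  obtain ⟨Pl, hPl⟩ := Fermat.Agent.Lib.Mz.ptm_exists_liesOverPrime 2 Nat.prime_two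
  obtain ⟨τ, hτ, x, hx⟩ := s59q_frey_ramified_two P Pl hPl
  obtain ⟨Q, hQ, hτQ⟩ := s59b_moves_of_moves W P.p P.freyCurve C hC τ ⟨x, hx⟩
  exact s59b_TW_of_unip hp2 hΔ (s59b_modRep_irr W P.p P.freyCurve C hC hirr) hss 2 Nat.prime_two
    (by omega) Pl hPl τ hτ Q hQ hτQ φ hφ

end Fermat.Agent.Lib.S59
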