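/-
Programme (R), node `hres` (helper2, prefix `s59b_`): **residual absolute irreducibility of every
`𝒪`-adic representation with the (twisted) Frobenius polynomials of the Frey curve.**

This is the hypothesis `hres` of helper3's `s59u_hNN`, of `s59b_KEND_theta` and of helper1's
`s59k_main_new_all`: every `ρ : GaloisRepAdic 𝒪` whose Frobenius characteristic polynomials are
`X² − θ(ℓ)⁻¹ a_ℓ X + ℓ` with `θ ≡ 1` and `a_ℓ ≡ a_ℓ(W)` modulo the maximal ideal has an absolutely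
irreducible residual representation.  Proof: Brauer–Nesbitt (helper5's
`s59e_residual_isEquiv_of_frob`) against the reference representation `ρ_W ⊗ 𝒪`, whose residual
representation is absolutely irreducible by `s59b_frey_TW`.

* `s59b_absIrr_of_isEquiv` : absolute irreducibility is invariant under equivalence;
* `s59b_hres_gen` : the generic comparison (reference `ρ₀`, congruent traces);
* `s59b_isLocalHom_padic` : a ring homomorphism `ℤ_p → 𝒪` with `p ∈ 𝔪` is local;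
* `s59b_residue_one_of_pow` : `u ^ (p ^ n) = 1` implies `u ≡ 1` modulo `𝔪`;
* `s59b_hres_curve`, **`s59b_hres_frey`** : the hypothesis `hres`, verbatim.
-/
import Fermat.Agent.Lib.S59.EHBN
import Fermat.Agent.Lib.S59.BTwFrey

set_option autoImplicit false
set_option linter.style.haveILetI false
set_option linter.unusedSectionVars false

noncomputable section

namespace Fermat.Agent.Lib.S59

open Fermat.Agent.Lib.S30 Fermat.Agent.Lib.S58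
open WeierstrassCurve WeierstrassCurve.Affine IsLocalRing TensorProduct Polynomial

local notation "Kb" => AlgebraicClosure ℚ
local notation "GQ" => (AlgebraicClosure ℚ ≃ₐ[ℚ] AlgebraicClosure ℚ)

section Equiv

variable {k : Type} [Field k]

/-- absolute irreducibility is invariant under equivalence of residual representations. -/
theorem s59b_absIrr_of_isEquiv (ρ₁ ρ₂ : ResidualGaloisRep k) (h : ρ₁.IsEquiv ρ₂)
    (habs : ρ₁.IsAbsolutelyIrreducible) : ρ₂.IsAbsolutelyIrreducible := by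
  obtain ⟨e⟩ := h
  intro W hW
  let E : AlgebraicClosure k ⊗[k] ρ₁.V ≃ₗ[AlgebraicClosure k] AlgebraicClosure k ⊗[k] ρ₂.V :=
    e.toLinearEquiv.baseChange k (AlgebraicClosure k) ρ₁.V ρ₂.V
  have hE : ∀ (σ : GQ) (x : AlgebraicClosure k ⊗[k] ρ₁.V),
      E ((ρ₁.ρ σ).baseChange (AlgebraicClosure k) x) =
        (ρ₂.ρ σ).baseChange (AlgebraicClosure k) (E x) := by
    intro σ x
    induction x using TensorProduct.induction_on with
    | zero => simp only [map_zero]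
    | tmul b v =>
      show e.toLinearEquiv.baseChange k _ ρ₁.V ρ₂.V ((ρ₁.ρ σ).baseChange _ (b ⊗ₜ[k] v)) =
        (ρ₂.ρ σ).baseChange _ (e.toLinearEquiv.baseChange k _ ρ₁.V ρ₂.V (b ⊗ₜ[k] v))
      rw [LinearMap.baseChange_tmul, LinearEquiv.baseChange_tmul, LinearEquiv.baseChange_tmul,
        LinearMap.baseChange_tmul, e.map_apply]
    | add x y hx hy => simp only [map_add, hx, hy]
  have hst : ∀ σ : GQ, ∀ x ∈ W.comap E.toLinearMap,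
      (ρ₁.baseChange (AlgebraicClosure k)).ρ σ x ∈ W.comap E.toLinearMap := by
    intro σ x hx
    show E ((ρ₁.ρ σ).baseChange (AlgebraicClosure k) x) ∈ W
    rw [hE]
    exact hW σ _ hx
  rcases habs (W.comap E.toLinearMap) hst with h | h
  · left
    rw [eq_bot_iff]
    intro w hw
    have h1 : E.symm w ∈ W.comap E.toLinearMap := by
      show E (E.symm w) ∈ W
      rw [LinearEquiv.apply_symm_apply]
      exact hw
    rw [h, Submodule.mem_bot] at h1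
    rw [Submodule.mem_bot, ← LinearEquiv.apply_symm_apply E w, h1, map_zero]
  · right
    rw [eq_top_iff]
    intro w _
    have h1 : E.symm w ∈ W.comap E.toLinearMap := by rw [h]; exact Submodule.mem_top
    have h2 : E (E.symm w) ∈ W := h1
    rwa [LinearEquiv.apply_symm_apply] at h2

end Equiv

section Gen

variable {𝒪 : Type} [CommRing 𝒪] [IsLocalRing 𝒪]

/-- the characteristic polynomial of the residual representation. -/
theorem s59b_residual_charpoly (ρ : GaloisRepAdic 𝒪) (σ : GQ) :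
    LinearMap.charpoly (ρ.residual.ρ σ) = (LinearMap.charpoly (ρ.ρ σ)).map (residue 𝒪) := by
  show LinearMap.charpoly ((ρ.ρ σ).baseChange (ResidueField 𝒪)) = _
  rw [LinearMap.charpoly_baseChange]
  rfl

/-- `2 ≠ 0` in the residue field (`p` odd). -/
theorem s59b_two_ne_zero_residue (p : ℕ) [Fact p.Prime] (hp2 : p ≠ 2)
    (hp𝒪 : (p : 𝒪) ∈ maximalIdeal 𝒪) : (2 : ResidueField 𝒪) ≠ 0 := by
  have hpk : ((p : ℕ) : ResidueField 𝒪) = 0 := by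
    rw [← map_natCast (residue 𝒪), residue_eq_zero_iff]
    exact hp𝒪
  intro h
  have hcop : Nat.Coprime 2 p :=
    (Nat.coprime_primes Nat.prime_two (Fact.out : p.Prime)).mpr (Ne.symm hp2)
  obtain ⟨u, v, huv⟩ := Nat.isCoprime_iff_coprime.mpr hcop
  have := congrArg (fun z : ℤ => (z : ResidueField 𝒪)) huv
  push_cast at this
  rw [hpk, h, mul_zero, mul_zero, add_zero] at this
  exact zero_ne_one this

/-- **generic `hres`**: a representation whose Frobenius polynomials are congruent to those of a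
reference representation `ρ₀` with absolutely irreducible residual representation has an
absolutely irreducible residual representation (Brauer–Nesbitt + oddness of `ρ₀`). -/
theorem s59b_hres_gen [IsNoetherianRing 𝒪] (p : ℕ) [Fact p.Prime] (hp2 : p ≠ 2)
    (hp𝒪 : (p : 𝒪) ∈ maximalIdeal 𝒪) (ρ₀ ρ : GaloisRepAdic 𝒪)
    (habs : ρ₀.residual.IsAbsolutelyIrreducible) (S : Finset ℕ) (t t' : ℕ → 𝒪)
    (h₀ : ∀ ℓ : ℕ, ℓ.Prime → ℓ ∉ S → ∀ P : ValuationSubring Kb, P.LiesOverPrime ℓ →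
      ∀ σ : GQ, P.IsFrobeniusAt σ ℓ →
        LinearMap.charpoly (ρ₀.ρ σ) = X ^ 2 - C (t ℓ) * X + C (ℓ : 𝒪))
    (h : ∀ ℓ : ℕ, ℓ.Prime → ℓ ∉ S → ∀ P : ValuationSubring Kb, P.LiesOverPrime ℓ →
      ∀ σ : GQ, P.IsFrobeniusAt σ ℓ →
        LinearMap.charpoly (ρ.ρ σ) = X ^ 2 - C (t' ℓ) * X + C (ℓ : 𝒪))
    (hcong : ∀ ℓ : ℕ, ℓ.Prime → ℓ ∉ S → residue 𝒪 (t' ℓ) = residue 𝒪 (t ℓ)) :
    ρ.residual.IsAbsolutelyIrreducible := by
  have hp0 : p ≠ 0 := (Fact.out : p.Prime).ne_zero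
  have hpk : ((p : ℕ) : ResidueField 𝒪) = 0 := by
    rw [← map_natCast (residue 𝒪), residue_eq_zero_iff]
    exact hp𝒪
  -- the determinant of `ρ₀` is cyclotomic
  have hdet : ρ₀.DetIsCyclotomic p := by
    refine s59e_detCyc_of_frob p ρ₀ hp𝒪 S (fun ℓ hℓ hℓS P hP σ hσ => ?_)
    have h1 := h₀ ℓ hℓ hℓS P hP σ hσ
    let b : Module.Basis (Fin 2) 𝒪 ρ₀.V := Module.finBasisOfFinrankEq 𝒪 ρ₀.V ρ₀.finrank_eq
    rw [← LinearMap.charpoly_toMatrix (ρ₀.ρ σ) b, Matrix.charpoly_fin_two] at h1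
    rw [← LinearMap.det_toMatrix b]
    exact (s59e_coeffs_of_quadratic_eq h1).2
  have hodd : LinearMap.det (ρ₀.residual.ρ complexConjugation) = -1 := by
    rw [s59e_residual_det p ρ₀ hdet complexConjugation (p - 1)
      (fun μ hμ => s30y_conj_root p hp0 μ hμ)]
    rw [Nat.cast_sub (Nat.one_le_iff_ne_zero.mpr hp0), hpk, Nat.cast_one, zero_sub]
  refine s59b_absIrr_of_isEquiv ρ₀.residual ρ.residual ?_ habs
  refine s59e_residual_isEquiv_of_frob (s59b_two_ne_zero_residue p hp2 hp𝒪) ρ₀.residual ρ.residual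
    (s59e_irr_of_absIrr _ habs) complexConjugation complexConjugation_mul_self hodd S ?_
  intro ℓ hℓ hℓS P hP σ hσ
  rw [s59b_residual_charpoly, s59b_residual_charpoly, h ℓ hℓ hℓS P hP σ hσ,
    h₀ ℓ hℓ hℓS P hP σ hσ]
  simp only [Polynomial.map_add, Polynomial.map_sub, Polynomial.map_mul, Polynomial.map_pow,
    Polynomial.map_X, Polynomial.map_C, hcong ℓ hℓ hℓS]

/-- a ring homomorphism from `ℤ_p` to a local ring with `p` in the maximal ideal is local. -/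
theorem s59b_isLocalHom_padic (p : ℕ) [Fact p.Prime] (φ : ℤ_[p] →+* 𝒪)
    (hp𝒪 : (p : 𝒪) ∈ maximalIdeal 𝒪) : IsLocalHom φ := by
  refine ⟨fun a ha => ?_⟩
  by_contra hna
  have h1 : a ∈ maximalIdeal ℤ_[p] := hna
  rw [PadicInt.maximalIdeal_eq_span_p, Ideal.mem_span_singleton] at h1
  obtain ⟨b, rfl⟩ := h1
  have h2 : φ ((p : ℤ_[p]) * b) ∈ maximalIdeal 𝒪 := by
    rw [map_mul, map_natCast]
    exact Ideal.mul_mem_right _ _ hp𝒪
  exact h2 ha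

/-- an element of `p`-power order of a local ring of residue characteristic `p` is `≡ 1`. -/
theorem s59b_residue_one_of_pow (p : ℕ) [Fact p.Prime] (hp𝒪 : (p : 𝒪) ∈ maximalIdeal 𝒪)
    (u : 𝒪) (n : ℕ) (hu : u ^ (p ^ n) = 1) : residue 𝒪 u = 1 := by
  haveI : CharP (ResidueField 𝒪) p := s59e_charP_residue p hp𝒪
  have h1 : (residue 𝒪 u - 1) ^ (p ^ n) = 0 := by
    rw [sub_pow_char_pow, one_pow, ← map_pow, hu, map_one, sub_self]
  exact sub_eq_zero.mp (pow_eq_zero_iff (pow_ne_zero n (Fact.out : p.Prime).ne_zero) |>.mp h1)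

end Gen

section Curve

variable (W : WeierstrassCurve ℤ) (p : ℕ) [hp : Fact p.Prime]
  {𝒪 : Type} [CommRing 𝒪] [IsLocalRing 𝒪] [IsNoetherianRing 𝒪]

/-- **`hres` for a curve**: reference representation `ρ_W ⊗ 𝒪` with absolutely irreducible residual
representation; the conclusion is VERBATIM the binder `hres` of `s59u_hNN` / `s59b_KEND_theta`. -/
theorem s59b_hres_curve (hΔ : W.Δ ≠ 0) (hp2 : p ≠ 2) (hirr : W.ModRepIsIrreducible p)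
    (φ : ℤ_[p] →+* 𝒪) (hφ : IsLocalHom φ)
    (habs : ((s59b_rhoW W p hΔ).baseChangeAlong φ hφ).residual.IsAbsolutelyIrreducible)
    (M : ℕ) (θ : (ZMod M)ˣ →* 𝒪ˣ) (hθ1 : ∀ d : (ZMod M)ˣ, residue 𝒪 ((θ d : 𝒪ˣ) : 𝒪) = 1)
    (a : ℕ → 𝒪) (S : Finset ℕ) (hpS : p ∈ S) (hMS : ∀ r : ℕ, r.Prime → r ∣ M → r ∈ S)
    (hgood : ∀ ℓ : ℕ, ℓ.Prime → ℓ ∉ S → W.IsGoodPrimeFor ℓ)
    (ha : ∀ ℓ : ℕ, ℓ.Prime → ℓ ∉ S →
      residue 𝒪 (a ℓ) = ((W.apOfModel ℓ : ℤ) : ResidueField 𝒪))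
    (ρ : GaloisRepAdic 𝒪)
    (hρ : ∀ ℓ : ℕ, ℓ.Prime → ℓ ∉ S → ∀ ℓu : (ZMod M)ˣ,
      ((ℓu : (ZMod M)ˣ) : ZMod M) = (ℓ : ZMod M) →
      ∀ P : ValuationSubring Kb, P.LiesOverPrime ℓ → ∀ σ : GQ, P.IsFrobeniusAt σ ℓ →
        (ρ.ρ σ).charpoly = X ^ 2 - C ((((θ ℓu)⁻¹ : 𝒪ˣ) : 𝒪) * a ℓ) * X + C (ℓ : 𝒪)) :
    ρ.residual.IsAbsolutelyIrreducible := by
  classical
  have hp𝒪 : (p : 𝒪) ∈ maximalIdeal 𝒪 := s59e_bc_p_mem φ hφ p (s59b_p_mem p)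
  -- the unit attached to a prime outside `S`
  have hcop : ∀ ℓ : ℕ, ℓ.Prime → ℓ ∉ S → Nat.Coprime ℓ M := by
    intro ℓ hℓ hℓS
    rw [Nat.Prime.coprime_iff_not_dvd hℓ]
    exact fun hd => hℓS (hMS ℓ hℓ hd)
  let t' : ℕ → 𝒪 := fun ℓ =>
    if hc : Nat.Coprime ℓ M then (((θ (ZMod.unitOfCoprime ℓ hc))⁻¹ : 𝒪ˣ) : 𝒪) * a ℓ else 0
  refine s59b_hres_gen p hp2 hp𝒪 ((s59b_rhoW W p hΔ).baseChangeAlong φ hφ) ρ habs S
    (fun ℓ => φ ((W.apOfModel ℓ : ℤ) : ℤ_[p])) t' ?_ ?_ ?_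
  · intro ℓ hℓ hℓS P hP σ hσ
    have hℓp : ℓ ≠ p := fun e => hℓS (e ▸ hpS)
    rw [s59e_bc_charpoly, s59b_rhoW_charpoly hΔ hp2 hirr ℓ hℓ (hgood ℓ hℓ hℓS) hℓp P hP σ hσ]
    simp only [Polynomial.map_add, Polynomial.map_sub, Polynomial.map_mul, Polynomial.map_pow,
      Polynomial.map_X, Polynomial.map_C, map_natCast, Polynomial.map_natCast]
  · intro ℓ hℓ hℓS P hP σ hσ
    have hc := hcop ℓ hℓ hℓS
    rw [hρ ℓ hℓ hℓS (ZMod.unitOfCoprime ℓ hc) (ZMod.coe_unitOfCoprime ℓ hc) P hP σ hσ]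
    show _ = X ^ 2 - C (t' ℓ) * X + C (ℓ : 𝒪)
    rw [show t' ℓ = (((θ (ZMod.unitOfCoprime ℓ hc))⁻¹ : 𝒪ˣ) : 𝒪) * a ℓ from dif_pos hc]
  · intro ℓ hℓ hℓS
    have hc := hcop ℓ hℓ hℓS
    rw [show t' ℓ = (((θ (ZMod.unitOfCoprime ℓ hc))⁻¹ : 𝒪ˣ) : 𝒪) * a ℓ from dif_pos hc, map_mul,
      ha ℓ hℓ hℓS, map_intCast, map_intCast]
    have h1 : residue 𝒪 (((θ (ZMod.unitOfCoprime ℓ hc))⁻¹ : 𝒪ˣ) : 𝒪) = 1 := by
      have h2 : residue 𝒪 ((θ (ZMod.unitOfCoprime ℓ hc) : 𝒪ˣ) : 𝒪) *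
          residue 𝒪 (((θ (ZMod.unitOfCoprime ℓ hc))⁻¹ : 𝒪ˣ) : 𝒪) = 1 := by
        rw [← map_mul, Units.mul_inv, map_one]
      rwa [hθ1, one_mul] at h2
    rw [h1, one_mul]

end Curve

/-- **`hres` for the Frey curve** (every `p ≥ 5`): `W` an integral semistable model. -/
theorem s59b_hres_frey (P : FreyPackage) [hpP : Fact P.p.Prime] (W : WeierstrassCurve ℤ)
    (hW : W.IsIntegralModelOf P.freyCurve) (hΔ : W.Δ ≠ 0) (hss : W.IsSemistableModel)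
    (hirr : Point.GaloisRepIsIrreducible (K := Kb) ℚ P.freyCurve P.p)
    {𝒪 : Type} [CommRing 𝒪] [IsLocalRing 𝒪] [IsNoetherianRing 𝒪]
    (φ : ℤ_[P.p] →+* 𝒪) (hp𝒪 : (P.p : 𝒪) ∈ maximalIdeal 𝒪)
    (M : ℕ) (θ : (ZMod M)ˣ →* 𝒪ˣ) (hθ1 : ∀ d : (ZMod M)ˣ, residue 𝒪 ((θ d : 𝒪ˣ) : 𝒪) = 1)
    (a : ℕ → 𝒪) (S : Finset ℕ) (hpS : P.p ∈ S) (hMS : ∀ r : ℕ, r.Prime → r ∣ M → r ∈ S)
    (hgood : ∀ ℓ : ℕ, ℓ.Prime → ℓ ∉ S → W.IsGoodPrimeFor ℓ)
    (ha : ∀ ℓ : ℕ, ℓ.Prime → ℓ ∉ S →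
      residue 𝒪 (a ℓ) = ((W.apOfModel ℓ : ℤ) : ResidueField 𝒪)) :
    ∀ ρ : GaloisRepAdic 𝒪,
      (∀ ℓ : ℕ, ℓ.Prime → ℓ ∉ S → ∀ ℓu : (ZMod M)ˣ,
        ((ℓu : (ZMod M)ˣ) : ZMod M) = (ℓ : ZMod M) →
        ∀ P' : ValuationSubring Kb, P'.LiesOverPrime ℓ → ∀ σ : GQ, P'.IsFrobeniusAt σ ℓ →
          (ρ.ρ σ).charpoly = X ^ 2 - C ((((θ ℓu)⁻¹ : 𝒪ˣ) : 𝒪) * a ℓ) * X + C (ℓ : 𝒪)) →
      ρ.residual.IsAbsolutelyIrreducible := by
  intro ρ hρ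
  have hp5 := P.hp5
  have hp2 : P.p ≠ 2 := by omega
  have hφ : IsLocalHom φ := s59b_isLocalHom_padic P.p φ hp𝒪
  obtain ⟨Cv, hCv⟩ := hW
  exact s59b_hres_curve W P.p hΔ hp2 (s59b_modRep_irr W P.p P.freyCurve Cv hCv hirr) φ hφ
    (s59b_frey_TW P W ⟨Cv, hCv⟩ hΔ hss hirr φ hφ).1 M θ hθ1 a S hpS hMS hgood ha ρ hρ

/-- the same with the congruences in the shape of `hcong` of `s59b_KEND_theta` and `θ` of `p`-power
order. -/
theorem s59b_hres_frey' (P : FreyPackage) [hpP : Fact P.p.Prime] (W : WeierstrassCurve ℤ)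
    (hW : W.IsIntegralModelOf P.freyCurve) (hΔ : W.Δ ≠ 0) (hss : W.IsSemistableModel)
    (hirr : Point.GaloisRepIsIrreducible (K := Kb) ℚ P.freyCurve P.p)
    {𝒪 : Type} [CommRing 𝒪] [IsLocalRing 𝒪] [IsNoetherianRing 𝒪]
    (φ : ℤ_[P.p] →+* 𝒪) (hp𝒪 : (P.p : 𝒪) ∈ maximalIdeal 𝒪)
    (M : ℕ) (θ : (ZMod M)ˣ →* 𝒪ˣ) (hθp : ∀ d : (ZMod M)ˣ, ∃ n : ℕ, θ d ^ (P.p ^ n) = 1)
    (a : ℕ → 𝒪) (S : Finset ℕ) (hpS : P.p ∈ S) (hMS : ∀ r : ℕ, r.Prime → r ∣ M → r ∈ S)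
    (hgood : ∀ ℓ : ℕ, ℓ.Prime → ℓ ∉ S → W.IsGoodPrimeFor ℓ)
    (ha : ∀ ℓ : ℕ, ℓ.Prime → ℓ ∉ S →
      a ℓ - ((W.apOfModel ℓ : ℤ) : 𝒪) ∈ maximalIdeal 𝒪) :
    ∀ ρ : GaloisRepAdic 𝒪,
      (∀ ℓ : ℕ, ℓ.Prime → ℓ ∉ S → ∀ ℓu : (ZMod M)ˣ,
        ((ℓu : (ZMod M)ˣ) : ZMod M) = (ℓ : ZMod M) →
        ∀ P' : ValuationSubring Kb, P'.LiesOverPrime ℓ → ∀ σ : GQ, P'.IsFrobeniusAt σ ℓ →
          (ρ.ρ σ).charpoly = X ^ 2 - C ((((θ ℓu)⁻¹ : 𝒪ˣ) : 𝒪) * a ℓ) * X + C (ℓ : 𝒪)) →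
      ρ.residual.IsAbsolutelyIrreducible := by
  refine s59b_hres_frey P W hW hΔ hss hirr φ hp𝒪 M θ (fun d => ?_) a S hpS hMS hgood
    (fun ℓ hℓ hℓS => ?_)
  · obtain ⟨n, hn⟩ := hθp d
    refine s59b_residue_one_of_pow P.p hp𝒪 _ n ?_
    rw [← Units.val_pow_eq_pow_val, hn, Units.val_one]
  · have h1 := (residue_eq_zero_iff _).mpr (ha ℓ hℓ hℓS)
    rw [map_sub, map_intCast, sub_eq_zero] at h1
    exact h1

end Fermat.Agent.Lib.S59
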