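/-
Programme (R) / node (K-T) (helper2, prefix `s59b_`), file 2: **the model inputs, the Hecke inputs and
twisted [W] of the `Γ_H`-layer at EVERY level `(M, H)` with `1 < M`, `-1 ∈ H`.**

The S48 wrappers `s48wg_modelInputs`, `s48h_heckeInputsH`, `s48wg_twistedW` are stated at the levels of
`s48k_Level`, but their proofs only use `1 < M` and `-1 ∈ H`; here they are repeated with these two
hypotheses (no new mathematics).
-/
import Mathlib
import Fermat.Agent.Lib.S48.WGF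
import Fermat.Agent.Lib.S48.WGT
import Fermat.Agent.Lib.S48.EIntH3
import Fermat.Agent.Lib.S48.EIntTop

set_option autoImplicit false
set_option linter.unusedSectionVars false
set_option linter.style.haveILetI false

namespace Fermat.Agent.Lib.S59

open ModularCurve CongruenceSubgroup IntermediateField AlgebraicCurve HahnSeries
open Fermat.Agent.Lib.FF Fermat.Agent.Lib.S29 Fermat.Agent.Lib.S37 Fermat.Agent.Lib.S28
open Fermat.Agent.Lib.S48
open scoped MatrixGroups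

noncomputable section

local notation "Kb" => AlgebraicClosure ℚ

variable {M : ℕ} [NeZero M] (H : Subgroup (ZMod M)ˣ)

/-- `F_H` has a generator. -/
theorem s59b_inputs_ffGen (hM : 1 < M) (hneg : (-1 : (ZMod M)ˣ) ∈ H) :
    ∃ x : ↥(s48k_FH M H), FFGen Kb x :=
  s48wg_ffGen_FH H hM hneg

/-- the diamond automorphisms exist. -/
theorem s59b_inputs_diamond (hM : 1 < M) (hneg : (-1 : (ZMod M)ˣ) ∈ H) (d : (ZMod M)ˣ) :
    ∃ e, s48k_IsDiamondAut M H d e :=
  s48wg_exists_diamondAut H hM hneg d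

/-- the `p`-part of the model inputs. -/
theorem s59b_inputs_p (hM : 1 < M) (hneg : (-1 : (ZMod M)ˣ) ∈ H) (p : ℕ) [NeZero p]
    (hp : p.Prime) (hpM : ¬ p ∣ M) :
    (∃ x' : ↥(laurentBaseChange Kb (s48k_FHQp M H p)), FFGen Kb x') ∧
      FiniteAlong Kb (s48k_heckeAlphaH M H p) ∧ FiniteAlong Kb (s48k_heckeBetaH M H p) ∧
      finrankAlong Kb (s48k_heckeBetaH M H p) = p + 1 :=
  ⟨s48wg_ffGen_FHp H p hM hneg, s48wg_finiteAlong_alpha H p hM hneg hp hpM,
    s48wg_finiteAlong_beta H p hM hneg hp hpM, s48wg_finrankAlong_beta H p hM hneg hp hpM⟩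

/-- **The Hecke inputs of `KIfaceH`** at every prime `p ∤ M`. -/
theorem s59b_heckeInputsH (hM : 1 < M) (hneg : (-1 : (ZMod M)ˣ) ∈ H) (p : ℕ) [NeZero p]
    (hp : p.Prime) (hpM : ¬ p ∣ M) : s48k_HeckeInputsH M H p := by
  obtain ⟨x, hx⟩ := s59b_inputs_ffGen H hM hneg
  obtain ⟨⟨x', hx'⟩, hfa, hfb, -⟩ := s59b_inputs_p H hM hneg p hp hpM
  haveI := hx
  haveI := hx'
  exact s48e_heckeInputsH_of M H x p x' hfa hfb

/-- **Twisted [W].** -/
theorem s59b_twistedW (hM : 1 < M) (hneg : (-1 : (ZMod M)ˣ) ∈ H) (p : ℕ) [NeZero p]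
    (pu : (ZMod M)ˣ) (hp : p.Prime) (hpM : ¬ p ∣ M)
    (hpu : ((pu : (ZMod M)ˣ) : ZMod M) = (p : ZMod M))
    (ζ : Kbˣ) (hζ : IsPrimitiveRoot (ζ : Kb) p) (y : ↥(s48k_FH M H)) :
    qExpand Kb p ((s48e_normAlong (s48k_heckeAlphaH M H p) (s48k_heckeBetaH M H p y) :
        ↥(s48k_FH M H)) : LaurentSeries Kb) =
      qExpand Kb (p * p) (y : LaurentSeries Kb) *
        s37e_prodTw p ζ
          ((s48k_diamondAut M H pu⁻¹ y : ↥(s48k_FH M H)) : LaurentSeries Kb) :=
  s48w_twisted_norm M H p hp hpM pu ζ hζ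
    (s48wg_finrankAlong_alpha H p hM hneg hp hpM)
    (s48wg_isDiamondAut H hM hneg pu⁻¹)
    (fun χ hχ => s48wg_hF H p hM hneg hp hpM pu hpu χ hχ) y

end

end Fermat.Agent.Lib.S59
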