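/-
Programme (R) / node (K-T) (helper2, prefix `s59b_`): **the Kummer map of `Γ_H` for EVERY modulus `n ≠ 0`
and every level `(M, H)` with `1 < M`, `-1 ∈ H`.**

Twin of `Lib/S48/HKF8.lean` (`s48h_modelC`) and `Lib/S48/DescKappa.lean` (`s48desc_kappaH`), where the
level enters through `s48k_Level` (only `1 < M`, `-1 ∈ H` are used) and the modulus through a cosmetic
`Fact ℓ.Prime` (only `NeZero` is used).

* `s59b_modelC hM hneg n : s48desc_ModelC M H n`;
* `s59b_kappaH D : J_H(ℚ̄)[n] →+ (Γ_H → ℤ/n)` for `D : s48desc_ModelC M H n`, `[NeZero n]`: injective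
  (`s59b_kappaH_injective`), onto `H_par(Γ_H, ℤ/n)` (`s59b_kappaH_surj`), function-level characterisation
  (`s59b_kappaH_eq_of_fun`).
-/
import Mathlib
import Fermat.Agent.Lib.S48.HKF8
import Fermat.Agent.Lib.S48.DescKappa

set_option autoImplicit false
set_option linter.unusedSectionVars false
set_option linter.style.haveILetI false

noncomputable section

namespace Fermat.Agent.Lib.S59

open UpperHalfPlane hiding I
open AlgebraicCurve ModularCurve IntermediateField CongruenceSubgroup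
open Fermat.Agent.Lib.FF Fermat.Agent.Lib.S18 Fermat.Agent.Lib.S29 Fermat.Agent.Lib.S48
open scoped MatrixGroups Manifold

local notation "Qbar" => AlgebraicClosure ℚ

attribute [local instance] s29a_algebraC

variable {M : ℕ} [NeZero M] {H : Subgroup (ZMod M)ˣ}

/-- **The model data of `Γ_H`** at every level with `1 < M`, `-1 ∈ H` and for every modulus. -/
def s59b_modelC (hM : 1 < M) (hneg : (-1 : (ZMod M)ˣ) ∈ H) (n : ℕ) : s48desc_ModelC M H n :=
  s48desc_modelC_of M H n hneg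
    (s48h_phiH (RingHom.id ℂ) H hM hneg) (s48h_j0 H)
    (s48h_ffGen_jK (algebraMap Qbar ℂ) hM hneg)
    (s48h_phiH_gbridge (RingHom.id ℂ) hM hneg)
    (by
      rw [s48h_map_j0]
      exact s48h_phiH_gdegHyp (RingHom.id ℂ) hM hneg)
    (s48h_phiH_fixed hM hneg)

theorem s59b_modelC_phi (hM : 1 < M) (hneg : (-1 : (ZMod M)ˣ) ∈ H) (n : ℕ) :
    (s59b_modelC hM hneg n).φ = s48h_phiH (RingHom.id ℂ) H hM hneg := rfl

variable {n : ℕ} [NeZero n]

/-- The base change `J_H(ℚ̄)[n] → Pic⁰(F_{H,ℂ})[n]`. -/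
def s59b_ctH (D : s48desc_ModelC M H n) :
    s48k_JHl M H n →+ Pic0.torsion ℂ ↥(laurentBaseChange ℂ (s48k_FHQ M H)) n :=
  haveI := D.gen0
  haveI := D.gen1
  s48desc_ct (K0 := Qbar) (K1 := ℂ) (s48k_FHQ M H) D.x0 D.x1 n

/-- **`κ_n = κ_{Γ_H} ∘ c_t`** on `J_H(ℚ̄)[n]`. -/
def s59b_kappaH (D : s48desc_ModelC M H n) :
    s48k_JHl M H n →+ (Additive (s48h_GammaH M H) →+ ZMod n) :=
  (s48h_kappaG D.grp.le D.bridge).comp (s59b_ctH D)

theorem s59b_kappaH_apply (D : s48desc_ModelC M H n) (x : s48k_JHl M H n) :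
    s59b_kappaH D x = s48h_kappaG D.grp.le D.bridge (s59b_ctH D x) := rfl

theorem s59b_kappaH_injective (D : s48desc_ModelC M H n) :
    Function.Injective (s59b_kappaH D) := by
  haveI := D.gen0
  haveI := D.gen1
  exact (s48h_kappaG_injective D.grp.le D.bridge).comp
    (s48desc_ct_injective (K0 := Qbar) (K1 := ℂ) (s48k_FHQ M H) D.x0 D.x1 n)

theorem s59b_kappaH_surj (D : s48desc_ModelC M H n)
    (χ : Additive (s48h_GammaH M H) →+ ZMod n)
    (hχ : χ ∈ s48h_Hpar (ZMod n) (s48h_GammaH M H) (ZMod n)) :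
    ∃ x, s59b_kappaH D x = χ := by
  haveI := D.gen0
  haveI := D.gen1
  obtain ⟨y, hy⟩ := s48h_lambda_Hpar (K := ℂ) D.x1 D.grp D.bridge D.places χ hχ
  have hfin : Finite (Pic0.torsion ℂ ↥(laurentBaseChange ℂ (s48k_FHQ M H)) n) :=
    s48h_finite_torsionG D.grp.le D.bridge
  obtain ⟨x, rfl⟩ := s48desc_ct_surjective (K0 := Qbar) (K1 := ℂ) (s48k_FHQ M H) D.x0 D.x1
    D.hx n hfin y
  exact ⟨x, hy⟩

/-- `J_H(ℚ̄)[n]` is finite. -/
theorem s59b_finite_JHl (D : s48desc_ModelC M H n) : Finite (s48k_JHl M H n) :=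
  haveI := s29m_finite_addHom (s48h_GammaH M H) (ZMod n)
  Finite.of_injective _ (s59b_kappaH_injective D)

/-- **Function-level characterisation of `κ_n`.** -/
theorem s59b_kappaH_eq_of_fun (D : s48desc_ModelC M H n) (x : s48k_JHl M H n)
    (D₀ : Divisor.degZero (K := Qbar) (F := ↥(s48k_FH M H)))
    (hDx : Pic0.mk D₀ = (x : s48k_JH M H)) (f : ↥(s48k_FH M H)) (hf : f ≠ 0)
    (hD : ∀ v : Place Qbar ↥(s48k_FH M H),
      v.ord f = (n : ℤ) * (D₀ : Divisor Qbar ↥(s48k_FH M H)) v)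
    {a b A : ℍ → ℂ} (ha : MDiff a) (hb : MDiff b) (hA : MDiff A) (hb0 : ∃ τ, b τ ≠ 0)
    (hab : s29m_inclE M (D.φ (s18q_map (algebraMap Qbar ℂ) (s48k_FHQ M H) f)) * s29m_ofFun b hb =
      s29m_ofFun a ha)
    (hbinv : ∀ γ : SL(2, ℤ), γ ∈ s48h_GammaH M H → ∀ z : ℍ, b (γ • z) = b z)
    (hAp : ∀ τ, A τ ^ n = a τ * b τ ^ (n - 1)) (γ : s48h_GammaH M H) (e : ZMod n)
    (hAγ : ∀ τ, A ((γ : SL(2, ℤ)) • τ) =
      Complex.exp (2 * Real.pi * Complex.I / n) ^ e.val * A τ) :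
    s59b_kappaH D x (Additive.ofMul γ) = e := by
  haveI := D.gen0
  haveI := D.gen1
  obtain ⟨D', hcD', hord⟩ := s48desc_hc (K0 := Qbar) (K1 := ℂ) (s48k_FHQ M H) D.x0 D.x1 n D₀ f hf hD
  have hDx' : Pic0.mk D' =
      ((s59b_ctH D x : Pic0.torsion ℂ ↥(laurentBaseChange ℂ (s48k_FHQ M H)) n) :
        Pic0 ℂ ↥(laurentBaseChange ℂ (s48k_FHQ M H))) := by
    rw [← hcD', hDx]
    rfl
  rw [s59b_kappaH_apply]
  exact s48h_kappaG_eq_of_fun D.grp.le D.bridge (s59b_ctH D x) D' hDx'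
    (s18q_map (algebraMap Qbar ℂ) (s48k_FHQ M H) f) ((map_ne_zero _).mpr hf) hord ha hb hA hb0 hab
    hbinv hAp γ e hAγ

end Fermat.Agent.Lib.S59
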