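/-
Programme (R) / node (K-T) (helper2, prefix `s59b_`): **the equivariance clauses (EQ) of the Kummer map
`κ_n` of `Γ_H` for EVERY modulus `n ≠ 0`** (twin of `Lib/S48/HKEqH.lean`, where the modulus is a prime by a
cosmetic `Fact ℓ.Prime`).

* `s59b_EqHyp D` : the analytic interface of the bridge (clauses `qexp`, `diam`; they only involve `D.φ`);
  `s59b_eqHyp_modelC` : it holds for `s59b_modelC hM hneg n`;
* `s59b_EQ_diamond` : `κ_n (⟨d⟩ x) = ⟨σ⟩ (κ_n x)`;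
* `s59b_EQ_Tp` : `κ_n (T_p x) = T_p^H (κ_n x)` for the classical `T_p` (`s48k_TpJ`).
-/
import Mathlib
import Fermat.Agent.Lib.S48.HKEqG
import Fermat.Agent.Lib.S59.BKModel
import Fermat.Agent.Lib.S59.BKInputs

set_option autoImplicit false
set_option linter.unusedSectionVars false
set_option linter.style.haveILetI false

noncomputable section

namespace Fermat.Agent.Lib.S59

open UpperHalfPlane hiding I
open AlgebraicCurve ModularCurve IntermediateField CongruenceSubgroup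
open Fermat.Agent.Lib.FF Fermat.Agent.Lib.S18 Fermat.Agent.Lib.S29 Fermat.Agent.Lib.S37
open Fermat.Agent.Lib.S28 Fermat.Agent.Lib.S48
open scoped MatrixGroups Manifold

local notation "Qbar" => AlgebraicClosure ℚ

attribute [local instance] s29a_algebraC

variable {M : ℕ} [NeZero M] {H : Subgroup (ZMod M)ˣ}

/-- **The analytic interface of the bridge `φ_H`** needed by (EQ), for any modulus. -/
structure s59b_EqHyp {n : ℕ} (D : s48desc_ModelC M H n) : Prop where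
  /-- the meromorphic function `φ_H h` has `q`-expansion `h`. -/
  qexp : ∀ h : ↥(laurentBaseChange ℂ (s48k_FHQ M H)),
    s48h_HasQExp (s29m_inclE M (D.φ h)) (h : LaurentSeries ℂ)
  /-- the diamond automorphism `⟨d⟩` is `h ↦ h ∘ σ`, `σ ∈ Γ₀(M)` with lower right entry `≡ d`. -/
  diam : ∀ (d : (ZMod M)ˣ) (σ : SL(2, ℤ)), σ ∈ Gamma0 M →
    ((σ 1 1 : ℤ) : ZMod M) = ((d : (ZMod M)ˣ) : ZMod M) → ∀ f : ↥(s48k_FH M H),
      D.φ (s18q_map (algebraMap Qbar ℂ) (s48k_FHQ M H) (s48k_diamondAut M H d f)) =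
        σ⁻¹ • D.φ (s18q_map (algebraMap Qbar ℂ) (s48k_FHQ M H) f)

/-- the interface at the modulus `2` (in the S48 shape). -/
theorem s59b_eqHyp_two (hM : 1 < M) (hneg : (-1 : (ZMod M)ˣ) ∈ H) :
    s48h_EqHyp (ℓ := 2) (s59b_modelC hM hneg 2) := by
  refine s48h_eqHyp_of_gens (ℓ := 2) (s59b_modelC hM hneg 2) ?_ ?_ ?_ ?_ ?_ ?_
  · intro c
    exact s48h_phiH_const (RingHom.id ℂ) hM hneg c
  · intro y hy
    exact s48h_phiHC_qexp hM hneg _
  · intro u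
    exact s48h_phiHC_qexp hM hneg _
  · exact s48h_isDiamondAut_diamondAut hM hneg
  · exact s48h_phiH_hJinv hM hneg
  · exact s48h_phiH_hsinv hM hneg

/-- **The analytic interface of the bridge**, every modulus. -/
theorem s59b_eqHyp_modelC (hM : 1 < M) (hneg : (-1 : (ZMod M)ˣ) ∈ H) (n : ℕ) :
    s59b_EqHyp (s59b_modelC hM hneg n) :=
  ⟨(s59b_eqHyp_two hM hneg).qexp, (s59b_eqHyp_two hM hneg).diam⟩

variable {n : ℕ} [NeZero n]

/-- **(EQ), diamond clause.** -/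
theorem s59b_EQ_diamond (D : s48desc_ModelC M H n) (hE : s59b_EqHyp D) (d : (ZMod M)ˣ)
    (σ : SL(2, ℤ)) (hσ : σ ∈ Gamma0 M)
    (hσd : ((σ 1 1 : ℤ) : ZMod M) = ((d : (ZMod M)ˣ) : ZMod M)) (x : s48k_JHl M H n) :
    s59b_kappaH D (s48k_torsionEnd M H n (s48k_diamondJ M H d) x) =
      (s48h_diamondDatum H σ hσ).heckeHom (ZMod n) (s59b_kappaH D x) := by
  haveI := D.gen0
  haveI := D.gen1
  rw [s59b_kappaH_apply, s59b_kappaH_apply]
  refine s48h_EQ D.grp.le D.bridge (s48h_diamondDatum H σ hσ)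
    (s48h_diamondDatum_det_pos H σ hσ)
    (s18q_map (algebraMap Qbar ℂ) (s48k_FHQ M H))
    (fun z => s29c_c (K1 := ℂ) (s48k_FHQ M H) D.x0 D.x1 z)
    (fun D₀ f hf hD₀ => s48desc_hc (K0 := Qbar) (K1 := ℂ) (s48k_FHQ M H) D.x0 D.x1 n D₀ f hf hD₀)
    (fun z => s48k_diamondJ M H d z) (fun f => s48k_diamondAut M H d f)
    (s48h_THyp_smul n (SemilinearAut.ofAlgAut (s48k_diamondAut M H d)))
    (fun f _ => ?_) (x : s48k_JH M H) (Pic0.mem_torsion.mp x.2) _ _ rfl rfl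
  rw [s48h_hprodM_diamond, hE.diam d σ hσ hσd f, s29m_inclE_smul]

/-- `⟨d⁻¹⟩ ⟨d⟩ = 1` on `F_H`, from the analytic description of the diamonds. -/
theorem s59b_diamondAut_inv_apply (D : s48desc_ModelC M H n) (hE : s59b_EqHyp D) (d : (ZMod M)ˣ)
    (σ : SL(2, ℤ)) (hσ : σ ∈ Gamma0 M)
    (hσd : ((σ 1 1 : ℤ) : ZMod M) = ((d : (ZMod M)ˣ) : ZMod M)) (f : ↥(s48k_FH M H)) :
    s48k_diamondAut M H d⁻¹ (s48k_diamondAut M H d f) = f := by
  have hinv : (((σ⁻¹) 1 1 : ℤ) : ZMod M) = ((d⁻¹ : (ZMod M)ˣ) : ZMod M) := by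
    have h1 := s48h_lowerRight_inv_mul hσ
    rw [hσd] at h1
    calc (((σ⁻¹) 1 1 : ℤ) : ZMod M)
        = (((σ⁻¹) 1 1 : ℤ) : ZMod M) * (((d : (ZMod M)ˣ) : ZMod M) * ((d⁻¹ : (ZMod M)ˣ) : ZMod M)) := by
          rw [← Units.val_mul, mul_inv_cancel, Units.val_one, mul_one]
      _ = ((d⁻¹ : (ZMod M)ˣ) : ZMod M) := by rw [← mul_assoc, h1, one_mul]
  apply (s18q_map (algebraMap Qbar ℂ) (s48k_FHQ M H)).injective
  apply D.φ.injective
  rw [hE.diam d⁻¹ σ⁻¹ (inv_mem hσ) hinv, hE.diam d σ hσ hσd, inv_inv, smul_inv_smul]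

/-- **(EQ), `T_p` clause.** -/
theorem s59b_EQ_Tp (D : s48desc_ModelC M H n) (hE : s59b_EqHyp D) (p : ℕ) [NeZero p]
    [hp : Fact p.Prime] (pu : (ZMod M)ˣ) (hpM : ¬ p ∣ M)
    (hpu : ((pu : (ZMod M)ˣ) : ZMod M) = (p : ZMod M)) (hInp : s48k_HeckeInputsH M H p)
    (hW : ∀ ζ : Qbarˣ, IsPrimitiveRoot (ζ : Qbar) p → ∀ y : ↥(s48k_FH M H),
      qExpand Qbar p (((letI := algebraAlong (s48k_heckeAlphaH M H p)
          Algebra.norm ↥(s48k_FH M H) (s48k_heckeBetaH M H p y) : ↥(s48k_FH M H)) :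
            LaurentSeries Qbar)) =
        qExpand Qbar (p * p) (y : LaurentSeries Qbar) *
          s37e_prodTw p ζ ((s48k_diamondAut M H pu⁻¹ y : ↥(s48k_FH M H)) : LaurentSeries Qbar))
    (σp : SL(2, ℤ)) (hσp : σp ∈ Gamma0 M) (hσp11 : ((σp 1 1 : ℤ) : ZMod M) = (p : ZMod M))
    (x : s48k_JHl M H n) :
    s59b_kappaH D (s48k_torsionEnd M H n (s48k_TpJ M H p pu) x) =
      (s48h_TpDatum H hpM σp hσp hσp11).heckeHom (ZMod n) (s59b_kappaH D x) := by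
  haveI := D.gen0
  haveI := D.gen1
  have hσpu : ((σp 1 1 : ℤ) : ZMod M) = ((pu : (ZMod M)ˣ) : ZMod M) := hσp11.trans hpu.symm
  obtain ⟨ζ, hζ, hζι⟩ := s29q_exists_zeta p (algebraMap Qbar ℂ)
  -- (Q1)
  have hQ1 : ∀ f : ↥(s48k_FH M H), f ≠ 0 →
      s29m_inclE M (D.φ (s18q_map (algebraMap Qbar ℂ) (s48k_FHQ M H) (s48h_tpFun M H p pu f))) =
        s48h_hprodM (s48h_TpDatum H hpM σp hσp hσp11) (s48h_TpDatum_det_pos H hpM σp hσp hσp11)
          (s29m_inclE M (D.φ (s18q_map (algebraMap Qbar ℂ) (s48k_FHQ M H) f))) := by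
    intro f _
    refine s48h_Q1_of_norm p H hpM σp hσp hσp11
      (fun g : ↥(s48k_FH M H) =>
        s29m_inclE M (D.φ (s18q_map (algebraMap Qbar ℂ) (s48k_FHQ M H) g)))
      (fun g : ↥(s48k_FH M H) => coeffMap (algebraMap Qbar ℂ) (g : LaurentSeries Qbar))
      (fun g => hE.qexp (s18q_map (algebraMap Qbar ℂ) (s48k_FHQ M H) g))
      (fun g => s48k_diamondAut M H pu g) (s48h_tpFun M H p pu) (fun g => ?_) (fun g => ?_) _ f
    · show s29m_inclE M (D.φ (s18q_map (algebraMap Qbar ℂ) (s48k_FHQ M H)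
        (s48k_diamondAut M H pu g))) = _
      rw [hE.diam pu σp hσp hσpu g, s29m_inclE_smul]
    · have h := congrArg (coeffMap (algebraMap Qbar ℂ)) (hW ζ hζ (s48k_diamondAut M H pu g))
      rw [map_mul, ffb_coeffMap_qExpand, ffb_coeffMap_qExpand, s29q_coeffMap_prodTw, hζι,
        s59b_diamondAut_inv_apply D hE pu σp hσp hσpu g] at h
      exact h
  rw [s59b_kappaH_apply, s59b_kappaH_apply]
  exact s48h_EQ D.grp.le D.bridge (s48h_TpDatum H hpM σp hσp hσp11)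
    (s48h_TpDatum_det_pos H hpM σp hσp hσp11)
    (s18q_map (algebraMap Qbar ℂ) (s48k_FHQ M H))
    (fun z => s29c_c (K1 := ℂ) (s48k_FHQ M H) D.x0 D.x1 z)
    (fun D₀ f hf hD₀ => s48desc_hc (K0 := Qbar) (K1 := ℂ) (s48k_FHQ M H) D.x0 D.x1 n D₀ f hf hD₀)
    (fun z => s48k_TpJ M H p pu z) (s48h_tpFun M H p pu)
    (s48h_THyp_TpJ M H p pu n hInp) hQ1 (x : s48k_JH M H) (Pic0.mem_torsion.mp x.2) _ _ rfl rfl

end Fermat.Agent.Lib.S59
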