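/-
Programme (R) / node (K-T) (helper2, prefix `s59b_`): **`κ_n : J_H(M)(ℚ̄)[n] ≅ H_par(Γ_H, ℤ/n)` packaged**,
for every level `(M, H)` with `1 < M`, `-1 ∈ H` and every modulus `n ≠ 0`:

* `s59b_kapH hM hneg n`, `s59b_kapH_injective`, `s59b_kapH_surj` (onto `s48h_Hpar (ZMod n) Γ_H (ZMod n)`),
  `s59b_finite_JH` (finiteness of `J_H[n]`);
* `s59b_kapH_Tp` : `κ_n (T_p x) = T_p^H (κ_n x)` for every prime `p ∤ M` (classical `T_p = s48k_TpJ`, helper3's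
  datum `s48h_TpDatum`, any `σ_p ∈ Γ₀(M)` with lower right entry `≡ p`);  NO condition `p ∤ n`;
* `s59b_kapH_diamond` : `κ_n (⟨d⟩ x) = ⟨σ⟩ (κ_n x)`, `σ ∈ Γ₀(M)` with lower right entry `≡ d`;
* `s59b_kapH_eq_of_fun` : the function-level characterisation.
-/
import Mathlib
import Fermat.Agent.Lib.S59.BKEq

set_option autoImplicit false
set_option linter.unusedSectionVars false
set_option linter.style.haveILetI false

noncomputable section

namespace Fermat.Agent.Lib.S59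

open UpperHalfPlane hiding I
open AlgebraicCurve ModularCurve IntermediateField CongruenceSubgroup
open Fermat.Agent.Lib.FF Fermat.Agent.Lib.S18 Fermat.Agent.Lib.S29 Fermat.Agent.Lib.S37
open Fermat.Agent.Lib.S28 Fermat.Agent.Lib.S48
open scoped MatrixGroups Manifold

local notation "Qbar" => AlgebraicClosure ℚ

attribute [local instance] s29a_algebraC

variable {M : ℕ} [NeZero M] {H : Subgroup (ZMod M)ˣ}

/-- **The Kummer map `κ_n` of `Γ_H`.** -/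
def s59b_kapH (hM : 1 < M) (hneg : (-1 : (ZMod M)ˣ) ∈ H) (n : ℕ) [NeZero n] :
    s48k_JHl M H n →+ (Additive (s48h_GammaH M H) →+ ZMod n) :=
  s59b_kappaH (s59b_modelC hM hneg n)

variable (hM : 1 < M) (hneg : (-1 : (ZMod M)ˣ) ∈ H) (n : ℕ) [NeZero n]

theorem s59b_kapH_injective : Function.Injective (s59b_kapH hM hneg n) :=
  s59b_kappaH_injective _

theorem s59b_kapH_surj (χ : Additive (s48h_GammaH M H) →+ ZMod n)
    (hχ : χ ∈ s48h_Hpar (ZMod n) (s48h_GammaH M H) (ZMod n)) :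
    ∃ x, s59b_kapH hM hneg n x = χ :=
  s59b_kappaH_surj _ χ hχ

include hM hneg in
/-- `J_H(ℚ̄)[n]` is finite. -/
theorem s59b_finite_JH : Finite (s48k_JHl M H n) :=
  s59b_finite_JHl (s59b_modelC hM hneg n)

/-- **Hecke equivariance.** -/
theorem s59b_kapH_Tp (p : ℕ) [NeZero p] [hp : Fact p.Prime] (hpM : ¬ p ∣ M) (pu : (ZMod M)ˣ)
    (hpu : ((pu : (ZMod M)ˣ) : ZMod M) = (p : ZMod M))
    (σp : SL(2, ℤ)) (hσp : σp ∈ Gamma0 M) (hσp11 : ((σp 1 1 : ℤ) : ZMod M) = (p : ZMod M))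
    (x : s48k_JHl M H n) :
    s59b_kapH hM hneg n (s48k_torsionEnd M H n (s48k_TpJ M H p pu) x) =
      (s48h_TpDatum H hpM σp hσp hσp11).heckeHom (ZMod n) (s59b_kapH hM hneg n x) :=
  s59b_EQ_Tp _ (s59b_eqHyp_modelC hM hneg n) p pu hpM hpu
    (s59b_heckeInputsH H hM hneg p hp.out hpM)
    (fun ζ hζ y => s59b_twistedW H hM hneg p pu hp.out hpM hpu ζ hζ y) σp hσp hσp11 x

/-- **Diamond equivariance.** -/
theorem s59b_kapH_diamond (d : (ZMod M)ˣ) (σ : SL(2, ℤ)) (hσ : σ ∈ Gamma0 M)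
    (hσd : ((σ 1 1 : ℤ) : ZMod M) = ((d : (ZMod M)ˣ) : ZMod M)) (x : s48k_JHl M H n) :
    s59b_kapH hM hneg n (s48k_torsionEnd M H n (s48k_diamondJ M H d) x) =
      (s48h_diamondDatum H σ hσ).heckeHom (ZMod n) (s59b_kapH hM hneg n x) :=
  s59b_EQ_diamond _ (s59b_eqHyp_modelC hM hneg n) d σ hσ hσd x

/-- **Function-level characterisation of `κ_n`.** -/
theorem s59b_kapH_eq_of_fun (x : s48k_JHl M H n)
    (D₀ : Divisor.degZero (K := Qbar) (F := ↥(s48k_FH M H)))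
    (hDx : Pic0.mk D₀ = (x : s48k_JH M H)) (f : ↥(s48k_FH M H)) (hf : f ≠ 0)
    (hD : ∀ v : Place Qbar ↥(s48k_FH M H),
      v.ord f = (n : ℤ) * (D₀ : Divisor Qbar ↥(s48k_FH M H)) v)
    {a b A : ℍ → ℂ} (ha : MDiff a) (hb : MDiff b) (hA : MDiff A) (hb0 : ∃ τ, b τ ≠ 0)
    (hab : s29m_inclE M (s48h_phiH (RingHom.id ℂ) H hM hneg
        (s18q_map (algebraMap Qbar ℂ) (s48k_FHQ M H) f)) * s29m_ofFun b hb = s29m_ofFun a ha)
    (hbinv : ∀ γ : SL(2, ℤ), γ ∈ s48h_GammaH M H → ∀ z : ℍ, b (γ • z) = b z)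
    (hAp : ∀ τ, A τ ^ n = a τ * b τ ^ (n - 1)) (γ : s48h_GammaH M H) (e : ZMod n)
    (hAγ : ∀ τ, A ((γ : SL(2, ℤ)) • τ) =
      Complex.exp (2 * Real.pi * Complex.I / n) ^ e.val * A τ) :
    s59b_kapH hM hneg n x (Additive.ofMul γ) = e :=
  s59b_kappaH_eq_of_fun (s59b_modelC hM hneg n) x D₀ hDx f hf hD ha hb hA hb0 hab hbinv hAp γ e hAγ

end Fermat.Agent.Lib.S59
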