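/-
Programme (R) / node (K-T) (helper2, prefix `s59b_`): **level compatibility of the Kummer maps `κ_n` of
`Γ_H`**:   `κ_n (m • x) = (κ_{nm} x  mod n)`   for `x ∈ J_H(ℚ̄)[n m]`
(twin of `Lib/S30/KComp.lean`, `KCompJ.lean`; the abstract form `s30k_kappaAbs_compat` is group-generic).
-/
import Mathlib
import Fermat.Agent.Lib.S30.KComp
import Fermat.Agent.Lib.S59.BKKap

set_option autoImplicit false
set_option linter.unusedSectionVars false
set_option linter.style.haveILetI false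

noncomputable section

namespace Fermat.Agent.Lib.S59

open AlgebraicCurve ModularCurve IntermediateField CongruenceSubgroup
open Fermat.Agent.Lib.FF Fermat.Agent.Lib.S18 Fermat.Agent.Lib.S29 Fermat.Agent.Lib.S30
open Fermat.Agent.Lib.S48
open scoped MatrixGroups

local notation "Qbar" => AlgebraicClosure ℚ

attribute [local instance] s29a_algebraC

section Abstract

variable {K : Type*} {N n m : ℕ} [NeZero n] [NeZero m] {Γ : Subgroup SL(2, ℤ)} {F : Type*}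
  [Field K] [Field F] [Algebra K F] {φ : F →+* ffm_E N}

/-- **Level compatibility of `s48h_kappaG`.** -/
theorem s59b_kappaG_compat (hΓ : CongruenceSubgroup.Gamma N ≤ Γ)
    (hBn : s48h_BridgeHyp K N Γ n φ) (hBnm : s48h_BridgeHyp K N Γ (n * m) φ)
    (x : Pic0.torsion K F (n * m)) (hx : (m : ℤ) • (x : Pic0 K F) ∈ Pic0.torsion K F n)
    (γ : Additive Γ) :
    s48h_kappaG hΓ hBn ⟨(m : ℤ) • (x : Pic0 K F), hx⟩ γ =
      ZMod.castHom (dvd_mul_right n m) (ZMod n) (s48h_kappaG hΓ hBnm x γ) :=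
  s30k_kappaAbs_compat (s48h_kappaHyp_of_bridge hΓ hBn) (s48h_kappaHyp_of_bridge hΓ hBnm)
    (s30k_zetaM_pow n m) x hx (Additive.toMul γ)

end Abstract

variable {M : ℕ} [NeZero M] {H : Subgroup (ZMod M)ˣ} (hM : 1 < M)
  (hneg : (-1 : (ZMod M)ˣ) ∈ H) (n m : ℕ) [NeZero n] [NeZero m]

/-- `m • x ∈ J_H[n]` for `x ∈ J_H[n m]`. -/
theorem s59b_smul_mem_JH (x : s48k_JHl M H (n * m)) :
    (m : ℤ) • (x : s48k_JH M H) ∈ Pic0.torsion Qbar (s48k_FH M H) n :=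
  s30k_smul_mem_torsion x.2

/-- **Level compatibility of `κ_n` on `J_H`.** -/
theorem s59b_kapH_compat (x : s48k_JHl M H (n * m))
    (hx : (m : ℤ) • (x : s48k_JH M H) ∈ Pic0.torsion Qbar (s48k_FH M H) n)
    (γ : Additive (s48h_GammaH M H)) :
    s59b_kapH hM hneg n ⟨(m : ℤ) • (x : s48k_JH M H), hx⟩ γ =
      ZMod.castHom (dvd_mul_right n m) (ZMod n) (s59b_kapH hM hneg (n * m) x γ) := by
  set Dn := s59b_modelC hM hneg n with hDn
  set Dnm := s59b_modelC hM hneg (n * m) with hDnm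
  show s48h_kappaG Dn.grp.le Dn.bridge (s59b_ctH Dn ⟨(m : ℤ) • (x : s48k_JH M H), hx⟩) γ =
    ZMod.castHom (dvd_mul_right n m) (ZMod n)
      (s48h_kappaG Dnm.grp.le Dnm.bridge (s59b_ctH Dnm x) γ)
  have hmem : (m : ℤ) • ((s59b_ctH Dnm x :
      Pic0.torsion ℂ ↥(laurentBaseChange ℂ (s48k_FHQ M H)) (n * m)) :
        Pic0 ℂ ↥(laurentBaseChange ℂ (s48k_FHQ M H))) ∈
      Pic0.torsion ℂ ↥(laurentBaseChange ℂ (s48k_FHQ M H)) n :=
    s30k_smul_mem_torsion (s59b_ctH Dnm x).2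
  have h1 : s59b_ctH Dn ⟨(m : ℤ) • (x : s48k_JH M H), hx⟩ =
      ⟨(m : ℤ) • ((s59b_ctH Dnm x :
        Pic0.torsion ℂ ↥(laurentBaseChange ℂ (s48k_FHQ M H)) (n * m)) :
          Pic0 ℂ ↥(laurentBaseChange ℂ (s48k_FHQ M H))), hmem⟩ := by
    apply Subtype.ext
    haveI := Dn.gen0
    haveI := Dn.gen1
    show s29c_c (K1 := ℂ) (s48k_FHQ M H) Dn.x0 Dn.x1 ((m : ℤ) • (x : s48k_JH M H)) = (m : ℤ) • _
    rw [map_zsmul]
    rfl
  rw [h1]
  exact s59b_kappaG_compat Dn.grp.le Dn.bridge Dnm.bridge (s59b_ctH Dnm x) hmem γ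

/-- The special case used for the Tate module: `κ_{p^k} (p • x) = (κ_{p^(k+1)} x mod p^k)`. -/
theorem s59b_kapH_compat_pow (p : ℕ) [NeZero p] (k : ℕ) (x : s48k_JHl M H (p ^ k * p))
    (hx : (p : ℤ) • (x : s48k_JH M H) ∈ Pic0.torsion Qbar (s48k_FH M H) (p ^ k))
    (γ : Additive (s48h_GammaH M H)) :
    s59b_kapH hM hneg (p ^ k) ⟨(p : ℤ) • (x : s48k_JH M H), hx⟩ γ =
      ZMod.castHom (dvd_mul_right (p ^ k) p) (ZMod (p ^ k)) (s59b_kapH hM hneg (p ^ k * p) x γ) :=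
  s59b_kapH_compat hM hneg (p ^ k) p x hx γ

end Fermat.Agent.Lib.S59
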