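/-
Programme (R) / node (K-T) (helper2, prefix `s59b_`), file 1: **the weak level structure of the
`Γ_H`-layer.**

The S48 layer (`Lib/S48`, levels `s48k_Level M N₁ ℓ₀ H`, `M = N₁² ℓ₀`) uses its level hypotheses in exactly
five ways: `1 < M`; `-1 ∈ H`; the finite-order elements of `Γ₀(M)` have lower right entry in `H` (there
they are `± 1`); the parabolic elements of `Γ₀(M)` have lower right entry in `H`; every prime `p ∤ M` is
a good prime (`s18_GoodLevel`).  These five facts are the structure `s59b_Lvl M H`; it holds at the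
levels of `s48k_Level` (`s59b_lvl_of_s48k`), at the Taylor–Wiles levels `M = N₁² L`, `L` squarefree prime
to `N₁` and divisible by a prime `≡ 11 (mod 12)`, `H ⊇ {u ≡ 1 (mod N₁ L)}` (`s59b_lvl_sq`), and at the
squarefree levels divisible by `2` or `3` with `(ℤ/M)ˣ/H` a `p`-group, `p ≥ 5` (`s59b_lvl_pgroup`).
-/
import Mathlib
import Fermat.Agent.Lib.S48.KIfaceH
import Fermat.Agent.Lib.S48.HKEll
import Fermat.Agent.Lib.S48.PlEll
import Fermat.Agent.Lib.S18.XFinal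

set_option autoImplicit false
set_option linter.unusedSectionVars false

namespace Fermat.Agent.Lib.S59

open Matrix.SpecialLinearGroup CongruenceSubgroup ModularGroup
open Fermat.Agent.Lib.S18 Fermat.Agent.Lib.S48
open scoped MatrixGroups

/-- **The weak level hypotheses of the `Γ_H`-layer.** -/
structure s59b_Lvl (M : ℕ) (H : Subgroup (ZMod M)ˣ) : Prop where
  one_lt : 1 < M
  neg_one : (-1 : (ZMod M)ˣ) ∈ H
  /-- the elements of finite order of `Γ₀(M)` have lower right entry in `H` -/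
  finOrd : ∀ g : SL(2, ℤ), g ∈ Gamma0 M → IsOfFinOrder g → ∀ u : (ZMod M)ˣ,
    ((u : (ZMod M)ˣ) : ZMod M) = ((g 1 1 : ℤ) : ZMod M) → u ∈ H
  /-- the parabolic elements of `Γ₀(M)` have lower right entry in `H` -/
  par : ∀ (σ : SL(2, ℤ)) (k : ℕ), σ⁻¹ * T ^ k * σ ∈ Gamma0 M → ∀ u : (ZMod M)ˣ,
    ((u : (ZMod M)ˣ) : ZMod M) = (((σ⁻¹ * T ^ k * σ) 1 1 : ℤ) : ZMod M) → u ∈ H
  /-- every prime not dividing `M` is good -/
  good : ∀ p : ℕ, p.Prime → ¬ p ∣ M → s18_GoodLevel p M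

/-- good primes from `2 ∣ M ∨ 3 ∣ M`-type information. -/
theorem s59b_good_of {M : ℕ} (h2 : 2 ∣ M ∨ 3 ∣ M) {p : ℕ} (hp : p.Prime) (hpM : ¬ p ∣ M) :
    s18_GoodLevel p M := by
  refine ⟨hpM, ?_⟩
  by_cases h5 : 5 ≤ p
  · exact Or.inl h5
  · have hp2 := hp.two_le
    have hcases : p = 2 ∨ p = 3 := by
      have : p < 5 := by omega
      interval_cases p
      · left; rfl
      · right; rfl
      · exact absurd hp (by norm_num)
    rcases hcases with rfl | rfl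
    · rcases h2 with h2 | h3
      · exact absurd h2 hpM
      · exact Or.inr (Or.inr ⟨rfl, h3⟩)
    · rcases h2 with h2 | h3
      · exact Or.inr (Or.inl ⟨rfl, h2⟩)
      · exact absurd h3 hpM

/-- the lower right entries of `± 1` lie in every `H ∋ -1`. -/
theorem s59b_finOrd_of_pm {M : ℕ} {H : Subgroup (ZMod M)ˣ} (hneg : (-1 : (ZMod M)ˣ) ∈ H)
    {g : SL(2, ℤ)} (hg : g = 1 ∨ g = -1) (u : (ZMod M)ˣ)
    (hu : ((u : (ZMod M)ˣ) : ZMod M) = ((g 1 1 : ℤ) : ZMod M)) : u ∈ H := by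
  rcases hg with rfl | rfl
  · have : u = 1 := by
      apply Units.ext
      rw [hu]
      simp
    rw [this]
    exact H.one_mem
  · have : u = -1 := by
      apply Units.ext
      rw [hu]
      simp
    rw [this]
    exact hneg

/-- the levels of the S48 layer. -/
theorem s59b_lvl_of_s48k {M N₁ ℓ₀ : ℕ} [NeZero M] {H : Subgroup (ZMod M)ˣ}
    (hL : s48k_Level M N₁ ℓ₀ H) : s59b_Lvl M H := by
  have hdvd : ℓ₀ ∣ M := ⟨N₁ ^ 2, by rw [hL.eq]; ring⟩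
  have hN : ∀ q : ℕ, q ∣ N₁ → q ∣ M := fun q hq => by
    rw [hL.eq]
    exact Dvd.dvd.mul_right (Dvd.dvd.trans hq (dvd_pow_self N₁ (by norm_num))) ℓ₀
  refine ⟨?_, hL.neg_one, fun g hg h u hu => s59b_finOrd_of_pm hL.neg_one
    (s48h_finOrd_Gamma0 hL.prime hL.mod12 hdvd hg h) u hu, ?_, ?_⟩
  · have h2 := hL.prime.two_le
    have h3 := Nat.le_of_dvd (Nat.pos_of_ne_zero (NeZero.ne M)) hdvd
    omega
  · intro σ k hmem u hu
    obtain ⟨h11, -⟩ := s48c_conj_T_pow_diag hL.eq hL.prime hL.ndvd σ k hmem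
    exact hL.cond _ u h11 hu
  · intro p hp hpM
    exact s59b_good_of (hL.two_or_three.imp (hN 2) (hN 3)) hp hpM

/-- the parabolic elements of `Γ₀(N₁² L)`, `L` squarefree prime to `N₁`, are unipotent modulo `N₁ L`. -/
theorem s59b_diag_of_trace_two {M N₁ L : ℕ} (hM : M = N₁ ^ 2 * L) (hL : Squarefree L)
    (hcop : Nat.Coprime N₁ L) {γ : SL(2, ℤ)} (hγ : γ ∈ Gamma0 M) (htr : γ 0 0 + γ 1 1 = 2) :
    ((γ 1 1 : ℤ) : ZMod (N₁ * L)) = 1 := by
  have hdet := Matrix.SpecialLinearGroup.det_coe γ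
  rw [Matrix.det_fin_two] at hdet
  have hc : (M : ℤ) ∣ γ 1 0 := by
    rw [Gamma0_mem] at hγ
    exact (ZMod.intCast_zmod_eq_zero_iff_dvd _ _).mp hγ
  have hsq : (γ 1 1 - 1) ^ 2 = -(γ 0 1 * γ 1 0) := by
    have ha : γ 0 0 = 2 - γ 1 1 := by linarith
    rw [ha] at hdet
    linear_combination -hdet
  have hMdvd : (M : ℤ) ∣ (γ 1 1 - 1) ^ 2 := by
    rw [hsq]
    exact (hc.mul_left _).neg_right
  have hN1 : (N₁ : ℤ) ∣ γ 1 1 - 1 := by
    have h1 : ((N₁ : ℤ)) ^ 2 ∣ (γ 1 1 - 1) ^ 2 := by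
      refine Dvd.dvd.trans ?_ hMdvd
      rw [hM]
      push_cast
      exact Dvd.intro _ rfl
    exact (Int.pow_dvd_pow_iff (by norm_num)).mp h1
  have hl : (L : ℤ) ∣ γ 1 1 - 1 := by
    have h1 : ((L : ℤ)) ∣ (γ 1 1 - 1) ^ 2 := by
      refine Dvd.dvd.trans ?_ hMdvd
      rw [hM]
      push_cast
      exact Dvd.intro_left _ rfl
    have hsqf : Squarefree (L : ℤ) := Int.squarefree_natCast.mpr hL
    exact (hsqf.dvd_pow_iff_dvd (by norm_num)).mp h1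
  have hcopZ : IsCoprime (N₁ : ℤ) (L : ℤ) := by
    rw [Int.isCoprime_iff_gcd_eq_one, Int.gcd_natCast_natCast]
    exact hcop
  have hNl : ((N₁ * L : ℕ) : ℤ) ∣ γ 1 1 - 1 := by
    push_cast
    exact hcopZ.mul_dvd hN1 hl
  have := (ZMod.intCast_zmod_eq_zero_iff_dvd (γ 1 1 - 1) (N₁ * L)).mpr hNl
  rw [Int.cast_sub, Int.cast_one, sub_eq_zero] at this
  exact this

/-- **The Taylor–Wiles levels**: `M = N₁² L`, `L` squarefree prime to `N₁` and divisible by a prime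
`ℓ₀ ≡ 11 (mod 12)`; `-1 ∈ H ⊇ {u ≡ 1 (mod N₁ L)}`; `2 ∣ N₁` or `3 ∣ N₁`. -/
theorem s59b_lvl_sq {M N₁ L ℓ₀ : ℕ} [NeZero M] {H : Subgroup (ZMod M)ˣ}
    (hM : M = N₁ ^ 2 * L) (hL : Squarefree L) (hcop : Nat.Coprime N₁ L)
    (hℓ : ℓ₀.Prime) (h12 : ℓ₀ % 12 = 11) (hℓL : ℓ₀ ∣ L)
    (hneg : (-1 : (ZMod M)ˣ) ∈ H)
    (hcond : ∀ (x : ℤ) (u : (ZMod M)ˣ), ((x : ℤ) : ZMod (N₁ * L)) = 1 →
      ((u : (ZMod M)ˣ) : ZMod M) = ((x : ℤ) : ZMod M) → u ∈ H)
    (h23 : 2 ∣ N₁ ∨ 3 ∣ N₁) : s59b_Lvl M H := by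
  have hdvd : ℓ₀ ∣ M := by rw [hM]; exact Dvd.dvd.mul_left hℓL _
  have hN : ∀ q : ℕ, q ∣ N₁ → q ∣ M := fun q hq => by
    rw [hM]
    exact Dvd.dvd.mul_right (Dvd.dvd.trans hq (dvd_pow_self N₁ (by norm_num))) L
  refine ⟨?_, hneg, fun g hg h u hu => s59b_finOrd_of_pm hneg
    (s48h_finOrd_Gamma0 hℓ h12 hdvd hg h) u hu, ?_, ?_⟩
  · have h2 := hℓ.two_le
    have h3 := Nat.le_of_dvd (Nat.pos_of_ne_zero (NeZero.ne M)) hdvd
    omega
  · intro σ k hmem u hu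
    have h11 := s59b_diag_of_trace_two hM hL hcop hmem
      (by rw [s48c_trace_conj, s48c_T_pow_trace])
    exact hcond _ u h11 hu
  · intro p hp hpM
    exact s59b_good_of (h23.imp (hN 2) (hN 3)) hp hpM

end Fermat.Agent.Lib.S59
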