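/-
Programme (R) / node (K-T) (helper2): twin of `Lib/S48/ATStep.lean` over the weak level structure
`s59b_Lvl` (BKLvl): only the level-dependent declarations are repeated, renamed `s48x_foo ↦ s59b_x_foo`;
proofs unchanged.
-/
import Fermat.Agent.Lib.S48.GTowerS
import Fermat.Agent.Lib.S48.WGY
import Fermat.Agent.Lib.S48.WGX
import Fermat.Agent.Lib.S48.HKDivT
import Fermat.Agent.Lib.S48.ATGrp
import Fermat.Agent.Lib.S48.ATStep
import Fermat.Agent.Lib.S59.BKLvl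
import Fermat.Agent.Lib.S59.BKDivT

set_option autoImplicit false
set_option linter.unusedSectionVars false
set_option linter.style.haveILetI false

noncomputable section

namespace Fermat.Agent.Lib.S59

open Fermat.Agent.Lib.S48

open ModularCurve HahnSeries AlgebraicCurve IntermediateField Fermat.Agent.Lib.S18
  Fermat.Agent.Lib.FF

local notation "Qbar" => AlgebraicClosure ℚ

variable {M : ℕ} [NeZero M]

set_option synthInstance.maxHeartbeats 400000 in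
set_option maxHeartbeats 1600000 in
/-- **the concrete tame step.** -/
theorem s59b_a_tame_step_conc {H : Subgroup (ZMod M)ˣ} (hL : s59b_Lvl M H)
    {p : ℕ} [Fact p.Prime] (A : ValuationSubring Qbar) (hA : A.LiesOverPrime p)
    {H' : Subgroup (ZMod M)ˣ} (hHH' : H ≤ H') (g : (ZMod M)ˣ) {r : ℕ} (hr : r.Prime)
    (hg : g ∉ H') (hgr : g ^ r ∈ H') (hpr : p ≠ r)
    (hP : s48a_TowerP M H A (H' ⊔ Subgroup.zpowers g)) : s48a_TowerP M H A H' := by
  classical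
  obtain ⟨w, hw0, htop, hfin⟩ := hP
  obtain ⟨χ, hLay⟩ := s48wg_exists_layer H' g r hr hg hgr
  have hM : 1 < M := hL.one_lt
  have hneg : (-1 : (ZMod M)ˣ) ∈ H' := hHH' hL.neg_one
  have hp : p.Prime := Fact.out
  haveI : NeZero r := ⟨hr.ne_zero⟩
  letI alg := s48wg_layerAlgebra hLay.le
  haveI := s48wg_layer_isScalarTower hLay.le
  haveI := hLay.finiteDimensional hM hneg
  have halg : ∀ a : ↥(s48k_FH M (H' ⊔ Subgroup.zpowers g)),
      ((algebraMap ↥(s48k_FH M (H' ⊔ Subgroup.zpowers g)) ↥(s48k_FH M H') a : ↥(s48k_FH M H')) :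
        LaurentSeries Qbar) = (a : LaurentSeries Qbar) := fun a => s48wg_layerAlgebra_coe hLay.le a
  obtain ⟨S₂, hS₂, hS₂mem⟩ := s48wg_exists_finset_gens H'
  have hpr' : ¬ p ∣ r := fun h => hpr ((Nat.prime_dvd_prime_iff_eq hp hr).mp h)
  have hrA : ((r : Qbar))⁻¹ ∈ A := s18x_natCast_inv_mem A hp hA r hpr'
  have hχH : χ ∈ s48wg_XH H := s48wg_XH_anti H H' hHH' hLay.chi_mem
  have hT2 : coeffMap A.subtype (s48wg_TA A χ) ∈ s48k_FH M H' := by
    rw [s48wg_iota_TA]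
    exact s48wg_tq_mem_FH H' χ hLay.chi_mem
  have htau : hLay.tau = (⟨coeffMap A.subtype (s48wg_TA A χ), hT2⟩ : ↥(s48k_FH M H')) :=
    Subtype.ext (s48wg_iota_TA A χ).symm
  have hb : ∀ i : Fin r, hLay.basis hM hneg i =
      (⟨coeffMap A.subtype (s48wg_TA A χ), hT2⟩ : ↥(s48k_FH M H')) ^ (i : ℕ) := by
    intro i
    rw [hLay.basis_apply hM hneg i, htau]
  have hh : (⟨coeffMap A.subtype (s48wg_TA A χ), hT2⟩ : ↥(s48k_FH M H')) ^ r =
      algebraMap ↥(s48k_FH M (H' ⊔ Subgroup.zpowers g)) ↥(s48k_FH M H') (hLay.h hM hneg) := by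
    rw [← htau]
    exact hLay.hpow hM hneg
  have hdiv : ∀ P : Place Qbar ↥(s48k_FH M (H' ⊔ Subgroup.zpowers g)),
      (r : ℤ) ∣ P.ord (hLay.h hM hneg) := fun P =>
    s59b_h_kdiv_layer hL (hHH'.trans hLay.le) χ ((s48wg_mem_XH H).mp hχH) r (hLay.h hM hneg) rfl P
  have hres := s48g_tame_step (Gb := s48e_GbZ M H (IsLocalRing.ResidueField ↥A)) hA halg
    (s48k_full_le_FHQ M (H' ⊔ Subgroup.zpowers g))
    (s48wg_FHQ_anti H' (H' ⊔ Subgroup.zpowers g) hLay.le) S₂ hS₂ hS₂mem w hw0 hr hpr' hrA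
    (s48wg_TA A χ) hT2 (s48wg_rho_TA_ne_zero A χ) (s48wg_rho_TA_mem_GbZ A H χ hχH)
    (hLay.basis hM hneg) hb (hLay.h hM hneg) hh hdiv
    (fun L₀ _ ϖ hϖ f hf => s48wg_FHK_mem_Frac _ H' f hf) ⟨htop, hfin⟩
  refine ⟨algebraMap ↥(s48k_FH M (H' ⊔ Subgroup.zpowers g)) ↥(s48k_FH M H') w, ?_, hres.1, hres.2⟩
  exact (map_ne_zero_iff _ (algebraMap ↥(s48k_FH M (H' ⊔ Subgroup.zpowers g))
    ↥(s48k_FH M H')).injective).mpr hw0

end Fermat.Agent.Lib.S59

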