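/-
Programme (R) / node (K-T) (helper2, prefix `s59b_`), file: **the Galois/Hecke/diamond structure of `J_H`
at every level `s59b_Lvl M H`** (twin of the S48 contract `s48k_S37IntH`, per level).

* `s59b_towerP_lvl`, `s59b_topPack_lvl` : the reduction tower at `A ∣ p ∤ M`;
* `s59b_S37H M H` : commD, commT, frobQuad (on ALL torsion), unram, openStab;
* `s59b_S37H_of_lvl : s59b_Lvl M H → s59b_S37H M H`.
-/
import Mathlib
import Fermat.Agent.Lib.S48.EIntTopQ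
import Fermat.Agent.Lib.S48.EIntRedQ
import Fermat.Agent.Lib.S48.EIntGlue
import Fermat.Agent.Lib.S48.EIntGlueZ
import Fermat.Agent.Lib.S59.BKInputs
import Fermat.Agent.Lib.S59.BKATWild

set_option autoImplicit false
set_option linter.unusedSectionVars false
set_option linter.style.haveILetI false
set_option synthInstance.maxHeartbeats 400000

noncomputable section

namespace Fermat.Agent.Lib.S59

open AlgebraicCurve ModularCurve HahnSeries IntermediateField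
open Fermat.Agent.Lib.FF Fermat.Agent.Lib.S37 Fermat.Agent.Lib.S28 Fermat.Agent.Lib.S18
open Fermat.Agent.Lib.S48

local notation "Qbar" => AlgebraicClosure ℚ

variable {M : ℕ} [NeZero M] {H : Subgroup (ZMod M)ˣ}

/-- the induction predicate of the concrete tower at the bottom subgroup. -/
theorem s59b_towerP_lvl (hL : s59b_Lvl M H) {p : ℕ} [Fact p.Prime] (hpM : ¬ p ∣ M)
    (A : ValuationSubring Qbar) (hA : A.LiesOverPrime p) : s48a_TowerP M H A H :=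
  s59b_a_towerP s59b_a_wildStep hL hpM A hA

/-- the top package of the tower. -/
theorem s59b_topPack_lvl (hL : s59b_Lvl M H) {p : ℕ} [Fact p.Prime] (hpM : ¬ p ∣ M)
    (A : ValuationSubring Qbar) (hA : A.LiesOverPrime p) : s48e_TopPack M H A := by
  obtain ⟨w, hw0, htop, hfin⟩ := s59b_towerP_lvl hL hpM A hA
  exact s48e_topPack_of_IH M H A (s48e_GbZ M H (IsLocalRing.ResidueField ↥A)) (s48e_TZ M H)
    le_rfl (s48e_TZ_mem_FHQ M H) w hw0 htop hfin

/-- **The Galois/Hecke/diamond structure of `J_H(M)`.** -/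
structure s59b_S37H (M : ℕ) [NeZero M] (H : Subgroup (ZMod M)ˣ) : Prop where
  /-- Galois commutes with the diamonds. -/
  commD : ∀ (d : (ZMod M)ˣ) (σ : s48k_G) (x : s48k_JH M H),
    σ • s48k_diamondJ M H d x = s48k_diamondJ M H d (σ • x)
  /-- Galois commutes with `T_p`. -/
  commT : ∀ (p : ℕ) [NeZero p] (pu : (ZMod M)ˣ), p.Prime → ¬ p ∣ M →
    ((pu : (ZMod M)ˣ) : ZMod M) = (p : ZMod M) →
    ∀ (σ : s48k_G) (x : s48k_JH M H), σ • s48k_TpJ M H p pu x = s48k_TpJ M H p pu (σ • x)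
  /-- Eichler–Shimura on `ℓ`-torsion (any modulus `ℓ`): `Frob² - T_p Frob + p ⟨p⟩ = 0`. -/
  frobQuad : ∀ (ℓ p : ℕ) [NeZero p] (pu : (ZMod M)ˣ), p.Prime → ¬ p ∣ M * ℓ →
    ((pu : (ZMod M)ˣ) : ZMod M) = (p : ZMod M) →
    ∀ A : ValuationSubring Qbar, A.LiesOverPrime p →
      ∀ σ : s48k_G, A.IsFrobeniusAt σ p → ∀ x : s48k_JH M H, (ℓ : ℤ) • x = 0 →
        σ • σ • x - s48k_TpJ M H p pu (σ • x) + (p : ℤ) • s48k_diamondJ M H pu x = 0
  /-- Inertia at `p ∤ Mℓ` acts trivially on `ℓ`-torsion. -/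
  unram : ∀ (ℓ p : ℕ), p.Prime → ¬ p ∣ M * ℓ →
    ∀ A : ValuationSubring Qbar, A.LiesOverPrime p →
      ∀ σ ∈ A.inertiaSubgroupIn ℚ, ∀ x : s48k_JH M H, (ℓ : ℤ) • x = 0 → σ • x = x
  /-- Open stabilisers. -/
  openStab : ∀ x : s48k_JH M H, ∃ L : IntermediateField ℚ Qbar, FiniteDimensional ℚ L ∧
    ∀ σ : s48k_G, (∀ y ∈ L, σ y = y) → σ • x = x

set_option maxHeartbeats 1600000 in
/-- **`s59b_S37H`** at every level `s59b_Lvl`. -/
theorem s59b_S37H_of_lvl (hL : s59b_Lvl M H) : s59b_S37H M H where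
  commD := fun d σ x => s48e_commD M H d σ x
  commT := by
    intro p _ pu hp hpM hpu σ x
    obtain ⟨x₀, hx₀⟩ := s59b_inputs_ffGen H hL.one_lt hL.neg_one
    haveI := hx₀
    exact s48e_commT M H p
      (fun v => by rw [ff_deg_eq_one Qbar x₀ v]; exact one_ne_zero) pu σ x
  frobQuad := by
    intro ℓ p _ pu hp hpMℓ hpu A hA σ hσ z hz
    have hpM : ¬ p ∣ M := fun h => hpMℓ (Dvd.dvd.mul_right h ℓ)
    have hpℓ : ¬ p ∣ ℓ := fun h' => hpMℓ (Dvd.dvd.mul_left h' M)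
    obtain ⟨x₀, hx₀⟩ := s59b_inputs_ffGen H hL.one_lt hL.neg_one
    have hdia := s59b_inputs_diamond H hL.one_lt hL.neg_one
    obtain ⟨⟨x', hx'⟩, hfinα, hfinβ, hrank⟩ := s59b_inputs_p H hL.one_lt hL.neg_one p hp hpM
    haveI : Fact p.Prime := ⟨hp⟩
    obtain ⟨Fb, hFb, r, hrQ, hgen, h3, hinj, hS⟩ :=
      s48e_redInputsQ_body M H A hA ℓ hpℓ (s59b_topPack_lvl hL hpM A hA)
    obtain ⟨δ, hc⟩ := hS pu hpu
    haveI := hx₀
    haveI := hx'
    haveI := s18n_charP_residueField A hp hA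
    haveI : IsAlgClosed (IsLocalRing.ResidueField ↥A) := s18n_isAlgClosed_residueField A
    haveI : PerfectRing (IsLocalRing.ResidueField ↥A) p := inferInstance
    obtain ⟨ζ, hζ⟩ : ∃ ζ : Qbarˣ, IsPrimitiveRoot (ζ : Qbar) p := by
      haveI : NeZero ((p : ℕ) : Qbar) := ⟨Nat.cast_ne_zero.mpr (NeZero.ne p)⟩
      obtain ⟨ζ0, hζ0⟩ := HasEnoughRootsOfUnity.exists_primitiveRoot Qbar p
      exact ⟨(hζ0.isUnit (NeZero.ne p)).unit, by rw [IsUnit.unit_spec]; exact hζ0⟩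
    exact s48e_frobQuad_ofQ M H ℓ A (IsLocalRing.residue ↥A) (fun _ h => h) hFb x₀ r
      hrQ.isPlaceRed hgen hrQ h3 hinj p pu x' hfinα hfinβ hrank (hdia pu) δ hc ζ hζ
      (s59b_twistedW H hL.one_lt hL.neg_one p pu hp hpM hpu ζ hζ) σ hσ z hz
  unram := by
    intro ℓ p hp hpMℓ A hA σ hσ z hz
    have hpM : ¬ p ∣ M := fun h => hpMℓ (Dvd.dvd.mul_right h ℓ)
    have hpℓ : ¬ p ∣ ℓ := fun h' => hpMℓ (Dvd.dvd.mul_left h' M)
    obtain ⟨x₀, hx₀⟩ := s59b_inputs_ffGen H hL.one_lt hL.neg_one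
    haveI : Fact p.Prime := ⟨hp⟩
    obtain ⟨Fb, hFb, r, hrQ, hgen, h3, hinj, -⟩ :=
      s48e_redInputsQ_body M H A hA ℓ hpℓ (s59b_topPack_lvl hL hpM A hA)
    haveI := hx₀
    exact s48e_unram_of M H ℓ A (IsLocalRing.residue ↥A) (fun _ h => h) hFb x₀ r hrQ.isPlaceRed
      hgen h3 hinj σ hσ z hz
  openStab := by
    intro x
    obtain ⟨x₀, hx₀⟩ := s59b_inputs_ffGen H hL.one_lt hL.neg_one
    haveI := hx₀
    haveI : HasPrincipalDivisors Qbar ↥(s48k_FH M H) := s48e_hasPrincipalDivisors x₀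
    exact s48e_openStab M H x

end Fermat.Agent.Lib.S59
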