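/-
Programme (R) / node (K-T) (helper2, prefix `s59b_`): **the `p`-adic Tate module of `J_H(M)` with its Galois,
Hecke and diamond actions** (twin of `Lib/S30/TateGal.lean`, `TateLevel.lean` for `Γ_H`).

`s59b_TJH M H p = s30a_Tp (s48k_JH M H) p` (landed abstract Tate module), and for `S : s59b_S37H M H`
(BKS37; holds at every level `s59b_Lvl M H`):
* `s59b_rhoH`, `s59b_TH p' pu` (classical `T_{p'}`), `s59b_DH d` (diamond);
* `s59b_rhoH_comm_T`, `s59b_rhoH_comm_D` : Galois commutes with Hecke and diamonds;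
* `s59b_rhoH_unram` : inertia at `q ∤ M p` acts trivially;
* `s59b_rhoH_frobQuad` : `ρ(Frob_ℓ)² - T_ℓ ρ(Frob_ℓ) + ℓ ⟨ℓ⟩ = 0` for `ℓ ∤ M p`;
* `s59b_exists_levelH`, `s59b_rhoH_cont` : continuity.
-/
import Mathlib
import Fermat.Agent.Lib.S30.TateMod
import Fermat.Agent.Lib.CFT.GalRedChi
import Fermat.Agent.Lib.S59.BKS37
import Fermat.Agent.Lib.S59.BKKap

set_option autoImplicit false
set_option linter.unusedSectionVars false
set_option linter.style.haveILetI false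

namespace Fermat.Agent.Lib.S59

open ModularCurve AlgebraicCurve IntermediateField
open Fermat.Agent.Lib.S29 Fermat.Agent.Lib.S30 Fermat.Agent.Lib.S48

noncomputable section

local notation "Qbar" => AlgebraicClosure ℚ

variable (M : ℕ) [NeZero M] (H : Subgroup (ZMod M)ˣ) (p : ℕ) [Fact p.Prime]

/-- The `p`-adic Tate module of `J_H(M)(ℚ̄)`. -/
abbrev s59b_TJH : Type := s30a_Tp (s48k_JH M H) p

/-- The Galois action on the Tate module. -/
def s59b_rhoH : s48k_G →* Module.End ℤ_[p] (s59b_TJH M H p) :=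
  (s30a_map (s48k_JH M H) p :
    AddMonoid.End (s48k_JH M H) →* Module.End ℤ_[p] (s59b_TJH M H p)).comp
    (DistribMulAction.toAddMonoidEnd s48k_G (s48k_JH M H))

@[simp] theorem s59b_rhoH_apply (σ : s48k_G) (x : s59b_TJH M H p) (n : ℕ) :
    ((s59b_rhoH M H p σ x : s59b_TJH M H p) : ℕ → s48k_JH M H) n =
      σ • (x : ℕ → s48k_JH M H) n := rfl

/-- The classical Hecke operator `T_{p'}` on the Tate module. -/
def s59b_TH (p' : ℕ) [NeZero p'] (pu : (ZMod M)ˣ) : Module.End ℤ_[p] (s59b_TJH M H p) :=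
  s30a_map (s48k_JH M H) p (s48k_TpJ M H p' pu)

@[simp] theorem s59b_TH_apply (p' : ℕ) [NeZero p'] (pu : (ZMod M)ˣ) (x : s59b_TJH M H p) (n : ℕ) :
    ((s59b_TH M H p p' pu x : s59b_TJH M H p) : ℕ → s48k_JH M H) n =
      s48k_TpJ M H p' pu ((x : ℕ → s48k_JH M H) n) := rfl

/-- The diamond operator `⟨d⟩` on the Tate module. -/
def s59b_DH (d : (ZMod M)ˣ) : Module.End ℤ_[p] (s59b_TJH M H p) :=
  s30a_map (s48k_JH M H) p (s48k_diamondJ M H d)

@[simp] theorem s59b_DH_apply (d : (ZMod M)ˣ) (x : s59b_TJH M H p) (n : ℕ) :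
    ((s59b_DH M H p d x : s59b_TJH M H p) : ℕ → s48k_JH M H) n =
      s48k_diamondJ M H d ((x : ℕ → s48k_JH M H) n) := rfl

variable {M H}

/-- the components of an element of the Tate module are `p^n`-torsion, in the `ℤ`-form. -/
theorem s59b_TJH_zsmul (x : s59b_TJH M H p) (n : ℕ) :
    ((p ^ n : ℕ) : ℤ) • (x : ℕ → s48k_JH M H) n = 0 := by
  rw [natCast_zsmul]
  exact s30a_pow_smul x n

/-- Galois commutes with the Hecke operators. -/
theorem s59b_rhoH_comm_T (S : s59b_S37H M H) (p' : ℕ) [NeZero p'] (pu : (ZMod M)ˣ)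
    (hp' : p'.Prime) (hp'M : ¬ p' ∣ M) (hpu : ((pu : (ZMod M)ˣ) : ZMod M) = (p' : ZMod M))
    (σ : s48k_G) : Commute (s59b_rhoH M H p σ) (s59b_TH M H p p' pu) := by
  refine s30a_end_ext fun x n => ?_
  show σ • s48k_TpJ M H p' pu ((x : ℕ → s48k_JH M H) n) =
    s48k_TpJ M H p' pu (σ • (x : ℕ → s48k_JH M H) n)
  exact S.commT p' pu hp' hp'M hpu σ _

/-- Galois commutes with the diamonds. -/
theorem s59b_rhoH_comm_D (S : s59b_S37H M H) (d : (ZMod M)ˣ) (σ : s48k_G) :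
    Commute (s59b_rhoH M H p σ) (s59b_DH M H p d) := by
  refine s30a_end_ext fun x n => ?_
  show σ • s48k_diamondJ M H d ((x : ℕ → s48k_JH M H) n) =
    s48k_diamondJ M H d (σ • (x : ℕ → s48k_JH M H) n)
  exact S.commD d σ _

/-- A prime `ℓ ∤ M p` does not divide `M p ^ k`. -/
theorem s59b_not_dvd_pow {ℓ : ℕ} (hℓ : ℓ.Prime) (k : ℕ) (h : ¬ ℓ ∣ M * p) :
    ¬ ℓ ∣ M * p ^ k := by
  intro h1
  rcases (Nat.Prime.dvd_mul hℓ).mp h1 with h2 | h2
  · exact h (Dvd.dvd.mul_right h2 p)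
  · exact h (Dvd.dvd.mul_left (hℓ.dvd_of_dvd_pow h2) M)

/-- Inertia at `q ∤ M p` acts trivially. -/
theorem s59b_rhoH_unram (S : s59b_S37H M H) (q : ℕ) (hq : q.Prime) (hqMp : ¬ q ∣ M * p)
    (P : ValuationSubring Qbar) (hP : P.LiesOverPrime q)
    (σ : s48k_G) (hσ : σ ∈ P.inertiaSubgroupIn ℚ) : s59b_rhoH M H p σ = 1 := by
  refine s30a_end_ext fun x n => ?_
  show σ • (x : ℕ → s48k_JH M H) n = (x : ℕ → s48k_JH M H) n
  exact S.unram (p ^ n) q hq (s59b_not_dvd_pow p hq n hqMp) P hP σ hσ _ (s59b_TJH_zsmul p x n)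

/-- **Eichler–Shimura on the Tate module**: `ρ(Frob_ℓ)² - T_ℓ ρ(Frob_ℓ) + ℓ ⟨ℓ⟩ = 0`. -/
theorem s59b_rhoH_frobQuad (S : s59b_S37H M H) (ℓ : ℕ) [NeZero ℓ] (ℓu : (ZMod M)ˣ)
    (hℓ : ℓ.Prime) (hℓMp : ¬ ℓ ∣ M * p) (hℓu : ((ℓu : (ZMod M)ˣ) : ZMod M) = (ℓ : ZMod M))
    (A : ValuationSubring Qbar) (hA : A.LiesOverPrime ℓ)
    (σ : s48k_G) (hσ : A.IsFrobeniusAt σ ℓ) :
    s59b_rhoH M H p σ * s59b_rhoH M H p σ - s59b_TH M H p ℓ ℓu * s59b_rhoH M H p σ +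
      ((ℓ : ℤ_[p])) • s59b_DH M H p ℓu = 0 := by
  refine s30a_end_ext fun x n => ?_
  show σ • σ • (x : ℕ → s48k_JH M H) n - s48k_TpJ M H ℓ ℓu (σ • (x : ℕ → s48k_JH M H) n) +
    ((((ℓ : ℕ) : ℤ_[p]) • s59b_DH M H p ℓu x : s59b_TJH M H p) : ℕ → s48k_JH M H) n = 0
  rw [s30a_natCast_smul_apply, s59b_DH_apply, ← natCast_zsmul]
  exact S.frobQuad (p ^ n) ℓ ℓu hℓ (s59b_not_dvd_pow p hℓ n hℓMp) hℓu A hA σ hσ _
    (s59b_TJH_zsmul p x n)

/-- **The level of `J_H(ℚ̄)[n]`**: a finite Galois-stable subfield `L ⊆ ℚ̄` such that `Gal(ℚ̄/L)`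
fixes every `n`-torsion point. -/
theorem s59b_exists_levelH (S : s59b_S37H M H) (hM : 1 < M) (hneg : (-1 : (ZMod M)ˣ) ∈ H)
    (n : ℕ) [NeZero n] :
    ∃ L : IntermediateField ℚ Qbar, FiniteDimensional ℚ L ∧
      (∀ σ : s48k_G, ∀ y ∈ L, σ y ∈ L) ∧
      ∀ σ : s48k_G, (∀ y ∈ L, σ y = y) → ∀ x : s48k_JH M H, (n : ℤ) • x = 0 → σ • x = x := by
  haveI := s59b_finite_JH hM hneg n
  choose L₀ hL₀fd hL₀ using fun x : s48k_JHl M H n => S.openStab (x : s48k_JH M H)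
  haveI : ∀ x, FiniteDimensional ℚ (L₀ x) := hL₀fd
  set L₁ : IntermediateField ℚ Qbar := ⨆ x, L₀ x with hL₁
  haveI : FiniteDimensional ℚ L₁ := IntermediateField.finiteDimensional_iSup_of_finite
  set L : IntermediateField ℚ Qbar := IntermediateField.normalClosure ℚ L₁ Qbar with hL
  have hle : L₁ ≤ L := IntermediateField.le_normalClosure L₁
  have hnorm : Normal ℚ L := normalClosure.normal ℚ L₁ Qbar
  refine ⟨L, normalClosure.is_finiteDimensional ℚ L₁ Qbar,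
    fun σ y hy => ?_, fun σ hσ x hx => ?_⟩
  · have h1 := IntermediateField.normal_iff_forall_map_le'.mp hnorm σ
    exact h1 ((IntermediateField.mem_map _).mpr ⟨y, hy, rfl⟩)
  · have hxt : x ∈ Pic0.torsion Qbar (s48k_FH M H) n := Pic0.mem_torsion.mpr hx
    refine hL₀ ⟨x, hxt⟩ σ (fun y hy => hσ y (hle ?_))
    exact (le_iSup L₀ ⟨x, hxt⟩) hy

/-- **Continuity** of the Galois action on the Tate module. -/
theorem s59b_rhoH_cont (S : s59b_S37H M H) (hM : 1 < M) (hneg : (-1 : (ZMod M)ˣ) ∈ H) (k : ℕ) :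
    ∃ L : IntermediateField ℚ Qbar, FiniteDimensional ℚ L ∧
      (∀ σ : s48k_G, ∀ x ∈ L, σ x ∈ L) ∧
      ∀ σ : s48k_G, (∀ x ∈ L, σ x = x) → ∀ v : s59b_TJH M H p,
        ∃ w : s59b_TJH M H p, s59b_rhoH M H p σ v - v = (p : ℤ_[p]) ^ k • w := by
  haveI : NeZero (p ^ k) := ⟨pow_ne_zero k (Fact.out : p.Prime).ne_zero⟩
  obtain ⟨L, hfd, hstab, hL⟩ := s59b_exists_levelH S hM hneg (p ^ k)
  refine ⟨L, hfd, hstab, fun σ hσ v => ?_⟩
  refine s30a_map_sub_mem (DistribMulAction.toAddMonoidEnd s48k_G (s48k_JH M H) σ) k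
    (fun y hy => hL σ hσ y ?_) v
  rw [natCast_zsmul]
  exact hy

end

end Fermat.Agent.Lib.S59
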