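/-
Programme (R) / node (K-T) (helper2, prefix `s59b_`): **the embedding of the integral lattice of `Γ_H` into
the Tate module of `J_H`** (twin of `Lib/S30/TateIota.lean`):

  `ι : H(ℤ) = s48h_M Γ_H →ₗ[ℤ] T_p J_H = s59b_TJH M H p`,   `(ι φ) k = κ_{p^k}⁻¹ (φ mod p^k)`.

* `s59b_levelH hM hneg p k φ : J_H[p^k]` : the unique class with `κ_{p^k} x = φ mod p^k`;
* `s59b_iotaH`, `s59b_iotaH_apply`, `s59b_kapH_iotaH`;
* `s59b_iotaH_Tp`, `s59b_iotaH_diamond` : Hecke and diamond equivariance;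
* `s59b_kappaInf_iotaH` : for ANY ruler `κ_∞` reducing to `κ_{p^k}` mod `p^k`, `κ_∞ (ι φ) = (φ : Γ_H → ℤ_p)`.
-/
import Mathlib
import Fermat.Agent.Lib.S48.HLat
import Fermat.Agent.Lib.S59.BKComp
import Fermat.Agent.Lib.S59.BKTate

set_option autoImplicit false
set_option linter.unusedSectionVars false
set_option linter.style.haveILetI false

open AlgebraicCurve ModularCurve CongruenceSubgroup

namespace Fermat.Agent.Lib.S59

open Fermat.Agent.Lib.S29 Fermat.Agent.Lib.S30 Fermat.Agent.Lib.S48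
open scoped MatrixGroups

noncomputable section

local notation "Kb" => AlgebraicClosure ℚ

variable {M : ℕ} [NeZero M] {H : Subgroup (ZMod M)ˣ} (hM : 1 < M)
  (hneg : (-1 : (ZMod M)ˣ) ∈ H)

/-! ### Transport of `κ_n` along an equality of moduli -/

theorem s59b_kapH_congr {n n' : ℕ} [i : NeZero n] [i' : NeZero n'] (h : n = n')
    (x : s48k_JH M H) (hx : x ∈ Pic0.torsion Kb (s48k_FH M H) n)
    (hx' : x ∈ Pic0.torsion Kb (s48k_FH M H) n')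
    (χ : Additive (s48h_GammaH M H) →+ ℤ)
    (hκ : s59b_kapH hM hneg n ⟨x, hx⟩ = s48h_cast (ZMod n) χ) :
    s59b_kapH hM hneg n' ⟨x, hx'⟩ = s48h_cast (ZMod n') χ := by
  subst h
  obtain rfl : i = i' := Subsingleton.elim _ _
  exact hκ

/-- If `κ_{nm} x = χ mod nm` then `κ_n (m • x) = χ mod n`. -/
theorem s59b_kapH_smul {n m : ℕ} [NeZero n] [NeZero m] (x : s48k_JHl M H (n * m))
    (hx : (m : ℤ) • (x : s48k_JH M H) ∈ Pic0.torsion Kb (s48k_FH M H) n)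
    (χ : Additive (s48h_GammaH M H) →+ ℤ)
    (hκ : s59b_kapH hM hneg (n * m) x = s48h_cast (ZMod (n * m)) χ) :
    s59b_kapH hM hneg n ⟨(m : ℤ) • (x : s48k_JH M H), hx⟩ = s48h_cast (ZMod n) χ := by
  refine AddMonoidHom.ext fun γ => ?_
  rw [s59b_kapH_compat hM hneg n m x hx γ, hκ, s48h_cast_apply, s48h_cast_apply, map_intCast]

variable (p : ℕ) [Fact p.Prime]

/-! ### The components -/

theorem s59b_cast_memH (k : ℕ) (φ : s48h_M (s48h_GammaH M H)) :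
    s48h_cast (ZMod (p ^ k)) (φ : Additive (s48h_GammaH M H) →+ ℤ) ∈
      s48h_Hpar (ZMod (p ^ k)) (s48h_GammaH M H) (ZMod (p ^ k)) :=
  s48h_cast_mem_Hpar (ZMod (p ^ k)) (ZMod (p ^ k)) φ.2

/-- The component of `ι φ` at level `p ^ k`. -/
def s59b_levelH (k : ℕ) (φ : s48h_M (s48h_GammaH M H)) : s48k_JHl M H (p ^ k) :=
  (s59b_kapH_surj hM hneg (p ^ k) _ (s59b_cast_memH p k φ)).choose

theorem s59b_levelH_spec (k : ℕ) (φ : s48h_M (s48h_GammaH M H)) :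
    s59b_kapH hM hneg (p ^ k) (s59b_levelH hM hneg p k φ) =
      s48h_cast (ZMod (p ^ k)) (φ : Additive (s48h_GammaH M H) →+ ℤ) :=
  (s59b_kapH_surj hM hneg (p ^ k) _ (s59b_cast_memH p k φ)).choose_spec

theorem s59b_levelH_unique (k : ℕ) (φ : s48h_M (s48h_GammaH M H)) (x : s48k_JHl M H (p ^ k))
    (hx : s59b_kapH hM hneg (p ^ k) x =
      s48h_cast (ZMod (p ^ k)) (φ : Additive (s48h_GammaH M H) →+ ℤ)) :
    x = s59b_levelH hM hneg p k φ :=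
  s59b_kapH_injective hM hneg (p ^ k) (hx.trans (s59b_levelH_spec hM hneg p k φ).symm)

theorem s59b_levelH_zero (φ : s48h_M (s48h_GammaH M H)) :
    ((s59b_levelH hM hneg p 0 φ : s48k_JHl M H (p ^ 0)) : s48k_JH M H) = 0 := by
  have h := Pic0.mem_torsion.mp (s59b_levelH hM hneg p 0 φ).2
  have h1 : ((p ^ 0 : ℕ) : ℤ) = 1 := by norm_num
  rw [h1, one_smul] at h
  exact h

theorem s59b_levelH_succ (k : ℕ) (φ : s48h_M (s48h_GammaH M H)) :
    p • ((s59b_levelH hM hneg p (k + 1) φ : s48k_JHl M H (p ^ (k + 1))) : s48k_JH M H) =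
      ((s59b_levelH hM hneg p k φ : s48k_JHl M H (p ^ k)) : s48k_JH M H) := by
  set y : s48k_JH M H :=
    ((s59b_levelH hM hneg p (k + 1) φ : s48k_JHl M H (p ^ (k + 1))) : s48k_JH M H) with hy
  have hy1 : y ∈ Pic0.torsion Kb (s48k_FH M H) (p ^ (k + 1)) :=
    (s59b_levelH hM hneg p (k + 1) φ).2
  have hy2 : y ∈ Pic0.torsion Kb (s48k_FH M H) (p ^ k * p) := by
    rw [← pow_succ]; exact hy1
  have h1 : s59b_kapH hM hneg (p ^ k * p) ⟨y, hy2⟩ =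
      s48h_cast (ZMod (p ^ k * p)) (φ : Additive (s48h_GammaH M H) →+ ℤ) :=
    s59b_kapH_congr hM hneg (pow_succ p k) y hy1 hy2 _ (s59b_levelH_spec hM hneg p (k + 1) φ)
  have hmem : (p : ℤ) • y ∈ Pic0.torsion Kb (s48k_FH M H) (p ^ k) :=
    s59b_smul_mem_JH (p ^ k) p ⟨y, hy2⟩
  have h2 := s59b_kapH_smul hM hneg (n := p ^ k) (m := p) ⟨y, hy2⟩ hmem _ h1
  have h3 := s59b_levelH_unique hM hneg p k φ ⟨(p : ℤ) • y, hmem⟩ h2
  have h4 := congrArg Subtype.val h3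
  rw [← natCast_zsmul]
  exact h4

/-! ### The embedding `ι` -/

/-- The underlying element of the Tate module. -/
def s59b_iotaFunH (φ : s48h_M (s48h_GammaH M H)) : s59b_TJH M H p :=
  ⟨fun k => ((s59b_levelH hM hneg p k φ : s48k_JHl M H (p ^ k)) : s48k_JH M H),
    s59b_levelH_zero hM hneg p φ, fun k => s59b_levelH_succ hM hneg p k φ⟩

@[simp]
theorem s59b_iotaFunH_apply (φ : s48h_M (s48h_GammaH M H)) (k : ℕ) :
    ((s59b_iotaFunH hM hneg p φ : s59b_TJH M H p) : ℕ → s48k_JH M H) k =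
      ((s59b_levelH hM hneg p k φ : s48k_JHl M H (p ^ k)) : s48k_JH M H) := rfl

theorem s59b_levelH_add (k : ℕ) (φ ψ : s48h_M (s48h_GammaH M H)) :
    s59b_levelH hM hneg p k (φ + ψ) = s59b_levelH hM hneg p k φ + s59b_levelH hM hneg p k ψ := by
  symm
  apply s59b_levelH_unique
  rw [map_add, s59b_levelH_spec, s59b_levelH_spec, Submodule.coe_add, map_add]

/-- **The embedding `ι : H(ℤ) →ₗ[ℤ] T_p J_H`.** -/
def s59b_iotaH : ↥(s48h_M (s48h_GammaH M H)) →ₗ[ℤ] s59b_TJH M H p :=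
  (AddMonoidHom.mk' (s59b_iotaFunH hM hneg p) (fun φ ψ => by
    apply s30a_ext
    intro k
    rw [s30a_add_apply, s59b_iotaFunH_apply, s59b_iotaFunH_apply, s59b_iotaFunH_apply,
      s59b_levelH_add]
    rfl)).toIntLinearMap

@[simp]
theorem s59b_iotaH_apply (φ : s48h_M (s48h_GammaH M H)) (k : ℕ) :
    ((s59b_iotaH hM hneg p φ : s59b_TJH M H p) : ℕ → s48k_JH M H) k =
      ((s59b_levelH hM hneg p k φ : s48k_JHl M H (p ^ k)) : s48k_JH M H) := rfl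

/-- The components of an element of the Tate module are `p ^ k`-torsion (`Pic0.mem_torsion` form). -/
theorem s59b_mem_JHl (x : s59b_TJH M H p) (k : ℕ) :
    (x : ℕ → s48k_JH M H) k ∈ Pic0.torsion Kb (s48k_FH M H) (p ^ k) := by
  rw [Pic0.mem_torsion, natCast_zsmul]
  exact s30a_pow_smul x k

/-- `κ_{p^k}` of the `k`-th component of `ι φ` is `φ mod p^k`. -/
theorem s59b_kapH_iotaH (φ : s48h_M (s48h_GammaH M H)) (k : ℕ) :
    s59b_kapH hM hneg (p ^ k)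
        ⟨(s59b_iotaH hM hneg p φ : ℕ → s48k_JH M H) k, s59b_mem_JHl p _ k⟩ =
      s48h_cast (ZMod (p ^ k)) (φ : Additive (s48h_GammaH M H) →+ ℤ) :=
  s59b_levelH_spec hM hneg p k φ

/-! ### Hecke and diamond equivariance -/

/-- `ι (T_ℓ^H φ) = T_ℓ (ι φ)` for every prime `ℓ ∤ M`. -/
theorem s59b_iotaH_Tp (ℓ : ℕ) [NeZero ℓ] [hℓ : Fact ℓ.Prime] (hℓM : ¬ ℓ ∣ M) (ℓu : (ZMod M)ˣ)
    (hℓu : ((ℓu : (ZMod M)ˣ) : ZMod M) = (ℓ : ZMod M))
    (σℓ : SL(2, ℤ)) (hσℓ : σℓ ∈ Gamma0 M) (hσℓ11 : ((σℓ 1 1 : ℤ) : ZMod M) = (ℓ : ZMod M))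
    (φ : s48h_M (s48h_GammaH M H)) :
    s59b_iotaH hM hneg p ((s48h_TpDatum H hℓM σℓ hσℓ hσℓ11).heckeHpar ℤ φ) =
      s59b_TH M H p ℓ ℓu (s59b_iotaH hM hneg p φ) := by
  apply s30a_ext
  intro k
  rw [s59b_iotaH_apply, s59b_TH_apply, s59b_iotaH_apply]
  have h1 : s48k_torsionEnd M H (p ^ k) (s48k_TpJ M H ℓ ℓu) (s59b_levelH hM hneg p k φ) =
      s59b_levelH hM hneg p k ((s48h_TpDatum H hℓM σℓ hσℓ hσℓ11).heckeHpar ℤ φ) := by
    apply s59b_levelH_unique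
    rw [s59b_kapH_Tp hM hneg (p ^ k) ℓ hℓM ℓu hℓu σℓ hσℓ hσℓ11, s59b_levelH_spec,
      s48h_heckeHom_cast, s48h_MatDatum.heckeHpar_coe]
  rw [← h1]
  rfl

/-- `ι (⟨σ⟩ φ) = ⟨d⟩ (ι φ)` for `σ ∈ Γ₀(M)` with lower right entry `≡ d`. -/
theorem s59b_iotaH_diamond (d : (ZMod M)ˣ) (σ : SL(2, ℤ)) (hσ : σ ∈ Gamma0 M)
    (hσd : ((σ 1 1 : ℤ) : ZMod M) = ((d : (ZMod M)ˣ) : ZMod M))
    (φ : s48h_M (s48h_GammaH M H)) :
    s59b_iotaH hM hneg p ((s48h_diamondDatum H σ hσ).heckeHpar ℤ φ) =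
      s59b_DH M H p d (s59b_iotaH hM hneg p φ) := by
  apply s30a_ext
  intro k
  rw [s59b_iotaH_apply, s59b_DH_apply, s59b_iotaH_apply]
  have h1 : s48k_torsionEnd M H (p ^ k) (s48k_diamondJ M H d) (s59b_levelH hM hneg p k φ) =
      s59b_levelH hM hneg p k ((s48h_diamondDatum H σ hσ).heckeHpar ℤ φ) := by
    apply s59b_levelH_unique
    rw [s59b_kapH_diamond hM hneg (p ^ k) d σ hσ hσd, s59b_levelH_spec,
      s48h_heckeHom_cast, s48h_MatDatum.heckeHpar_coe]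
  rw [← h1]
  rfl

/-! ### Compatibility with a ruler `κ_∞` -/

/-- For any ruler `κ_∞` reducing to `κ_{p^k}` modulo `p ^ k`: `κ_∞ (ι φ) = (γ ↦ (φ γ : ℤ_[p]))`. -/
theorem s59b_kappaInf_iotaH
    (κinf : s59b_TJH M H p → (Additive (s48h_GammaH M H) →+ ℤ_[p]))
    (hκ : ∀ (x : s59b_TJH M H p) (k : ℕ) (γ : Additive (s48h_GammaH M H)),
      PadicInt.toZModPow k (κinf x γ) =
        s59b_kapH hM hneg (p ^ k) ⟨(x : ℕ → s48k_JH M H) k, s59b_mem_JHl p x k⟩ γ)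
    (φ : s48h_M (s48h_GammaH M H)) :
    κinf (s59b_iotaH hM hneg p φ) =
      s48h_cast ℤ_[p] (φ : Additive (s48h_GammaH M H) →+ ℤ) := by
  refine AddMonoidHom.ext fun γ => ?_
  apply PadicInt.ext_of_toZModPow.mp
  intro k
  rw [hκ, s59b_kapH_iotaH, s48h_cast_apply, s48h_cast_apply, map_intCast]

end

end Fermat.Agent.Lib.S59
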