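/-
Programme (R) / node (K-T) (helper2, prefix `s59b_`): **the ruler `κ_∞` of the Tate module of `J_H`**
(twin of `Lib/S30/TateKinf.lean`):

  `s59b_kinfH hM hneg p : T_p J_H = s59b_TJH M H p →ₗ[ℤ_[p]] (Additive Γ_H →+ ℤ_[p])`,
  `toZModPow k (κ_∞ x γ) = κ_{p^k} (x k) γ`   (`s59b_kinfH_spec`),

injective, hence the Tate module is finite free over `ℤ_[p]` (`s59b_TJH_finite`, `s59b_TJH_free`,
`s59b_TJH_isTorsionFree`), and `κ_∞ ∘ ι = cast` (`s59b_kinfH_iotaH`).
-/
import Mathlib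
import Fermat.Agent.Lib.S30.TateKinf
import Fermat.Agent.Lib.S30.EigFree
import Fermat.Agent.Lib.S48.HDS
import Fermat.Agent.Lib.S59.BKIota

set_option autoImplicit false
set_option linter.unusedSectionVars false
set_option linter.style.haveILetI false

open AlgebraicCurve ModularCurve CongruenceSubgroup

namespace Fermat.Agent.Lib.S59

open Fermat.Agent.Lib.S29 Fermat.Agent.Lib.S30 Fermat.Agent.Lib.S48
open scoped MatrixGroups

noncomputable section

local notation "Kb" => AlgebraicClosure ℚ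

variable {M : ℕ} [NeZero M] {H : Subgroup (ZMod M)ˣ} (hM : 1 < M)
  (hneg : (-1 : (ZMod M)ˣ) ∈ H)

theorem s59b_kapH_cast_congr {n n' m : ℕ} [i : NeZero n] [i' : NeZero n'] (h : n = n')
    (hm : m ∣ n) (hm' : m ∣ n') (x : s48k_JH M H)
    (hx : x ∈ Pic0.torsion Kb (s48k_FH M H) n)
    (hx' : x ∈ Pic0.torsion Kb (s48k_FH M H) n') (γ : Additive (s48h_GammaH M H)) :
    ZMod.castHom hm (ZMod m) (s59b_kapH hM hneg n ⟨x, hx⟩ γ) =
      ZMod.castHom hm' (ZMod m) (s59b_kapH hM hneg n' ⟨x, hx'⟩ γ) := by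
  subst h
  obtain rfl : i = i' := Subsingleton.elim _ _
  rfl

variable (p : ℕ) [Fact p.Prime]

/-- The `k`-th component of an element of the Tate module, as an element of `J_H[p ^ k]`. -/
def s59b_compH (x : s59b_TJH M H p) (k : ℕ) : s48k_JHl M H (p ^ k) :=
  ⟨(x : ℕ → s48k_JH M H) k, s59b_mem_JHl p x k⟩

@[simp]
theorem s59b_compH_coe (x : s59b_TJH M H p) (k : ℕ) :
    ((s59b_compH p x k : s48k_JHl M H (p ^ k)) : s48k_JH M H) = (x : ℕ → s48k_JH M H) k := rfl

theorem s59b_compH_add (x y : s59b_TJH M H p) (k : ℕ) :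
    s59b_compH p (x + y) k = s59b_compH p x k + s59b_compH p y k := Subtype.ext rfl

theorem s59b_compH_smul (a : ℤ_[p]) (x : s59b_TJH M H p) (k : ℕ) :
    s59b_compH p (a • x) k = a.appr k • s59b_compH p x k := by
  apply Subtype.ext
  rw [s59b_compH_coe, s30a_smul_apply, AddSubgroup.coe_nsmul, s59b_compH_coe]

/-- Compatibility of the levels. -/
theorem s59b_kapH_step (x : s59b_TJH M H p) (k : ℕ) (γ : Additive (s48h_GammaH M H)) :
    ZMod.castHom (pow_dvd_pow p (Nat.le_succ k)) (ZMod (p ^ k))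
        (s59b_kapH hM hneg (p ^ (k + 1)) (s59b_compH p x (k + 1)) γ) =
      s59b_kapH hM hneg (p ^ k) (s59b_compH p x k) γ := by
  set y : s48k_JH M H := (x : ℕ → s48k_JH M H) (k + 1) with hy
  have hy1 : y ∈ Pic0.torsion Kb (s48k_FH M H) (p ^ (k + 1)) := s59b_mem_JHl p x (k + 1)
  have hy2 : y ∈ Pic0.torsion Kb (s48k_FH M H) (p ^ k * p) := by
    rw [← pow_succ]; exact hy1
  have hmem : (p : ℤ) • y ∈ Pic0.torsion Kb (s48k_FH M H) (p ^ k) :=
    s59b_smul_mem_JH (p ^ k) p ⟨y, hy2⟩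
  have h1 := s59b_kapH_compat hM hneg (p ^ k) p ⟨y, hy2⟩ hmem γ
  have h2 : (⟨(p : ℤ) • y, hmem⟩ : s48k_JHl M H (p ^ k)) = s59b_compH p x k := by
    apply Subtype.ext
    show (p : ℤ) • y = (x : ℕ → s48k_JH M H) k
    rw [natCast_zsmul, hy, s30a_succ]
  rw [h2] at h1
  rw [h1]
  exact s59b_kapH_cast_congr hM hneg (pow_succ p k) _ _ y hy1 hy2 γ

/-- The compatible sequence `k ↦ κ_{p^k} (x k) γ`. -/
def s59b_kseqH (x : s59b_TJH M H p) (γ : Additive (s48h_GammaH M H)) : s30u_Seq p :=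
  ⟨fun k => s59b_kapH hM hneg (p ^ k) (s59b_compH p x k) γ,
    fun k => s59b_kapH_step hM hneg p x k γ⟩

/-! ### The ruler `κ_∞` -/

/-- `κ_∞ x` as a homomorphism `Γ_H → ℤ_[p]`. -/
def s59b_kinfFunH (x : s59b_TJH M H p) : Additive (s48h_GammaH M H) →+ ℤ_[p] where
  toFun γ := s30u_lim p (s59b_kseqH hM hneg p x γ)
  map_zero' := by
    apply PadicInt.ext_of_toZModPow.mp
    intro k
    rw [s30u_lim_spec, map_zero]
    exact map_zero _
  map_add' γ γ' := by
    apply PadicInt.ext_of_toZModPow.mp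
    intro k
    rw [map_add, s30u_lim_spec, s30u_lim_spec, s30u_lim_spec]
    exact map_add _ γ γ'

theorem s59b_kinfFunH_spec (x : s59b_TJH M H p) (γ : Additive (s48h_GammaH M H)) (k : ℕ) :
    PadicInt.toZModPow k (s59b_kinfFunH hM hneg p x γ) =
      s59b_kapH hM hneg (p ^ k) (s59b_compH p x k) γ :=
  s30u_lim_spec p _ k

/-- **The ruler `κ_∞`.** -/
def s59b_kinfH : s59b_TJH M H p →ₗ[ℤ_[p]] (Additive (s48h_GammaH M H) →+ ℤ_[p]) where
  toFun := s59b_kinfFunH hM hneg p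
  map_add' x y := by
    refine AddMonoidHom.ext fun γ => ?_
    apply PadicInt.ext_of_toZModPow.mp
    intro k
    rw [AddMonoidHom.add_apply, map_add, s59b_kinfFunH_spec, s59b_kinfFunH_spec,
      s59b_kinfFunH_spec, s59b_compH_add, map_add, AddMonoidHom.add_apply]
  map_smul' a x := by
    refine AddMonoidHom.ext fun γ => ?_
    apply PadicInt.ext_of_toZModPow.mp
    intro k
    rw [RingHom.id_apply, AddMonoidHom.smul_apply, smul_eq_mul, map_mul, s59b_kinfFunH_spec,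
      s59b_kinfFunH_spec, s59b_compH_smul, map_nsmul, AddMonoidHom.nsmul_apply, nsmul_eq_mul]
    rfl

theorem s59b_kinfH_spec (x : s59b_TJH M H p) (k : ℕ) (γ : Additive (s48h_GammaH M H)) :
    PadicInt.toZModPow k (s59b_kinfH hM hneg p x γ) =
      s59b_kapH hM hneg (p ^ k) ⟨(x : ℕ → s48k_JH M H) k, s59b_mem_JHl p x k⟩ γ :=
  s59b_kinfFunH_spec hM hneg p x γ k

/-- `κ_∞` is injective. -/
theorem s59b_kinfH_injective : Function.Injective (s59b_kinfH hM hneg p) := by
  rw [injective_iff_map_eq_zero]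
  intro x hx
  apply s30a_ext
  intro k
  have h1 : s59b_kapH hM hneg (p ^ k) (s59b_compH p x k) = 0 := by
    refine AddMonoidHom.ext fun γ => ?_
    rw [← s59b_kinfFunH_spec]
    have : s59b_kinfFunH hM hneg p x γ = 0 := DFunLike.congr_fun hx γ
    rw [this, map_zero]
    rfl
  have h2 : s59b_compH p x k = 0 :=
    s59b_kapH_injective hM hneg (p ^ k) (h1.trans (map_zero _).symm)
  exact congrArg Subtype.val h2

/-- `κ_∞ ∘ ι = cast`. -/
theorem s59b_kinfH_iotaH (φ : s48h_M (s48h_GammaH M H)) :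
    s59b_kinfH hM hneg p (s59b_iotaH hM hneg p φ) =
      s48h_cast ℤ_[p] (φ : Additive (s48h_GammaH M H) →+ ℤ) :=
  s59b_kappaInf_iotaH hM hneg p (fun x => s59b_kinfH hM hneg p x)
    (fun x k γ => s59b_kinfH_spec hM hneg p x k γ) φ

/-! ### The Tate module is finite free over `ℤ_[p]` -/

include hM hneg in
theorem s59b_TJH_finite : Module.Finite ℤ_[p] (s59b_TJH M H p) :=
  s30e_finite_of_injective_hom (s59b_kinfH hM hneg p) (s59b_kinfH_injective hM hneg p)

include hM hneg in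
theorem s59b_TJH_isTorsionFree : Module.IsTorsionFree ℤ_[p] (s59b_TJH M H p) :=
  s30e_isTorsionFree_of_injective_hom (s59b_kinfH hM hneg p) (s59b_kinfH_injective hM hneg p)

include hM hneg in
theorem s59b_TJH_free : Module.Free ℤ_[p] (s59b_TJH M H p) :=
  s30e_free_of_injective_hom (s59b_kinfH hM hneg p) (s59b_kinfH_injective hM hneg p)

end

end Fermat.Agent.Lib.S59
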