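/-
Programme (R) / node (K-T) (helper2, prefix `s59b_`): **`eig` for `Γ_H`: every system of eigenvalues
occurring in `H_par(Γ_H, 𝒪)` occurs in `𝒪 ⊗[ℤ_p] T_p J_H`** (𝒪 any domain of characteristic zero over `ℤ_p`).

* `s59b_exists_decomp`, `s59b_exists_coeffs` : every `ψ ∈ s48h_Hpar R Γ R` (`R` a domain of characteristic
  zero, `Γ` finitely generated) is an `R`-combination of the integral basis vectors `s48h_castB b R i`;
* `s59b_castB_linearIndependent` : these are `R`-linearly independent;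
* `s59b_eig_abs` : abstract form (a lattice embedding `ι : s48h_M Γ → Λ` carrying a basis to a
  `ℤ_[p]`-independent family, intertwining a family of Hecke data with endomorphisms of `Λ`);
* `s59b_eigH` : **the concrete statement for `T_p J_H`**, the classical `T_ℓ` (`ℓ ∤ M`, `ℓ ∉ S`) and the
  diamonds.
-/
import Mathlib
import Fermat.Agent.Lib.S30.EigEmbed
import Fermat.Agent.Lib.S59.BKKinf

set_option autoImplicit false
set_option linter.unusedSectionVars false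
set_option linter.style.haveILetI false

open AlgebraicCurve ModularCurve CongruenceSubgroup
open scoped TensorProduct MatrixGroups

namespace Fermat.Agent.Lib.S59

open Fermat.Agent.Lib.S29 Fermat.Agent.Lib.S30 Fermat.Agent.Lib.S48
open Matrix

noncomputable section

/-! ### Decomposition over a domain of characteristic zero -/

section Decomp

variable {G : Type*} [Group G] (R : Type*) [CommRing R] [IsDomain R] [CharZero R]

/-- The image of a hom from a finitely generated group to `R` is a finite `ℤ`-module. -/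
theorem s59b_finite_range [Group.FG G] (ψ : Additive G →+ R) :
    Module.Finite ℤ (AddMonoidHom.range ψ).toIntSubmodule := by
  have h1 : (AddMonoidHom.range ψ).FG := by
    rw [← AddGroup.fg_iff_addSubgroup_fg]
    exact AddGroup.fg_of_surjective (f := ψ.rangeRestrict) ψ.rangeRestrict_surjective
  rw [Module.Finite.iff_fg, Submodule.fg_iff_addSubgroup_fg]
  simpa using h1

/-- Decomposition of a hom `ψ : G → R` (`G` finitely generated, `R` a domain of characteristic zero) as a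
finite `R`-combination of `ℤ`-valued homs, each vanishing wherever `ψ` does. -/
theorem s59b_exists_decomp [Group.FG G] (ψ : Additive G →+ R) :
    ∃ (ι : Type) (_ : Fintype ι) (ω : ι → R) (χ : ι → (Additive G →+ ℤ)),
      (∀ g, ψ g = ∑ j, ω j * (χ j g : R)) ∧ (∀ j g, ψ g = 0 → χ j g = 0) := by
  classical
  set R' : Submodule ℤ R := (AddMonoidHom.range ψ).toIntSubmodule with hR'
  have : Module.Finite ℤ R' := s59b_finite_range R ψ
  have : Module.Free ℤ R' := Module.free_of_finite_type_torsion_free'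
  let b := Module.finBasis ℤ R'
  let ψR : Additive G →+ R' :=
    { toFun := fun g => ⟨ψ g, ⟨g, rfl⟩⟩
      map_zero' := by ext; simp
      map_add' := fun x y => by ext; simp }
  refine ⟨Fin (Module.finrank ℤ R'), inferInstance, fun j => (b j : R),
    fun j => (b.coord j).toAddMonoidHom.comp ψR, ?_, ?_⟩
  · intro g
    have h := b.sum_repr (ψR g)
    have h2 := congrArg (fun x : R' => (x : R)) h
    simp only [Submodule.coe_sum, Submodule.coe_smul] at h2
    have h3 : ((ψR g : R') : R) = ψ g := rfl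
    rw [← h3, ← h2]
    refine Finset.sum_congr rfl fun j _ => ?_
    rw [zsmul_eq_mul, mul_comm]
    rfl
  · intro j g hg
    have : ψR g = 0 := by ext; exact hg
    simp [this]

end Decomp

section Span

variable {Γ : Subgroup SL(2, ℤ)} {ι : Type*} [Fintype ι] [DecidableEq ι]
  (b : Module.Basis ι ℤ (s48h_M Γ)) (R : Type*) [CommRing R] [IsDomain R] [CharZero R]

/-- Every `ψ ∈ H(R)` is an `R`-linear combination of the `castB R b i`. -/
theorem s59b_exists_coeffs [Group.FG Γ] (ψ : Additive Γ →+ R) (hψ : ψ ∈ s48h_Hpar R Γ R) :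
    ∃ c : ι → R, ψ = ∑ i, c i • s48h_castB b R i := by
  obtain ⟨J, _, ω, χ, hsum, hvan⟩ := s59b_exists_decomp R ψ
  have hχM : ∀ j, χ j ∈ s48h_M Γ := fun j =>
    ⟨fun γ hγ => hvan j _ (hψ.1 γ hγ), fun γ hγ => hvan j _ (hψ.2 γ hγ)⟩
  have hrepr : ∀ j, χ j = ∑ i, b.repr ⟨χ j, hχM j⟩ i • (b i : Additive Γ →+ ℤ) := by
    intro j
    have h := b.sum_repr ⟨χ j, hχM j⟩
    have h2 := congrArg (fun x : s48h_M Γ => (x : Additive Γ →+ ℤ)) h
    simp only [Submodule.coe_sum, Submodule.coe_smul] at h2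
    exact h2.symm
  refine ⟨fun i => ∑ j, ω j * ((b.repr ⟨χ j, hχM j⟩ i : ℤ) : R), ?_⟩
  refine AddMonoidHom.ext fun γ => ?_
  rw [hsum γ, AddMonoidHom.finsetSum_apply]
  simp only [AddMonoidHom.smul_apply, s48h_castB_apply, smul_eq_mul, Finset.sum_mul]
  rw [Finset.sum_comm]
  refine Finset.sum_congr rfl fun j _ => ?_
  conv_lhs => rw [hrepr j]
  rw [AddMonoidHom.finsetSum_apply, Int.cast_sum, Finset.mul_sum]
  refine Finset.sum_congr rfl fun i _ => ?_
  rw [AddMonoidHom.smul_apply, smul_eq_mul, Int.cast_mul, mul_assoc]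

/-- the basis vectors of the lattice with coefficients extended to a domain `R` of characteristic zero are
`R`-linearly independent. -/
theorem s59b_castB_linearIndependent : LinearIndependent R (s48h_castB b R) := by
  let coeLin : (Additive Γ →+ R) →ₗ[R] (Additive Γ → R) :=
    { toFun := fun χ => (χ : Additive Γ → R)
      map_add' := fun _ _ => rfl
      map_smul' := fun _ _ => rfl }
  refine LinearIndependent.of_comp coeLin ?_
  exact s30e_linearIndependent_domain_of_int R _ (s48h_basis_fun_linearIndependent b)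

/-- the coefficient vector of an eigenvector is an eigenvector of the integral Hecke matrix. -/
theorem s59b_mulVec_of_eigen {X : Type*} [Fintype X] (D : s48h_MatDatum Γ X) (c : ι → R) (a : R)
    (h : D.heckeHom R (∑ j, c j • s48h_castB b R j) = a • ∑ j, c j • s48h_castB b R j) :
    ((s48h_heckeMat b D).map (Int.cast : ℤ → R)) *ᵥ c = a • c := by
  rw [s48h_heckeHom_sum_castB, Finset.smul_sum] at h
  simp_rw [smul_smul] at h
  have hli := s59b_castB_linearIndependent b R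
  rw [Fintype.linearIndependent_iff] at hli
  funext i
  have h2 : ∑ i, (((s48h_heckeMat b D).map (Int.cast : ℤ → R) *ᵥ c) i - a * c i) •
      s48h_castB b R i = 0 := by
    simp_rw [sub_smul]
    rw [Finset.sum_sub_distrib, h, sub_self]
  have h3 := hli _ h2 i
  rw [Pi.smul_apply, smul_eq_mul]
  exact sub_eq_zero.mp h3

end Span

/-! ### The abstract `eig` -/

section Abs

variable {Γ : Subgroup SL(2, ℤ)} {ι : Type*} [Fintype ι] [DecidableEq ι]
  (b : Module.Basis ι ℤ (s48h_M Γ)) (p : ℕ) [Fact p.Prime]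
  {Λ : Type*} [AddCommGroup Λ] [Module ℤ_[p] Λ] (iota : ↥(s48h_M Γ) →ₗ[ℤ] Λ)
  (𝒪 : Type*) [CommRing 𝒪] [IsDomain 𝒪] [CharZero 𝒪] [Algebra ℤ_[p] 𝒪]

/-- the candidate eigenvector in `𝒪 ⊗ Λ` with coefficient vector `c`. -/
def s59b_eigVec (c : ι → 𝒪) : 𝒪 ⊗[ℤ_[p]] Λ := ∑ i, c i ⊗ₜ[ℤ_[p]] iota (b i)

theorem s59b_eigVec_ne_zero (hli : LinearIndependent ℤ_[p] (fun i => iota (b i))) (c : ι → 𝒪)
    (hc : c ≠ 0) : s59b_eigVec b p iota 𝒪 c ≠ 0 := by
  have : Module.Flat ℤ_[p] 𝒪 := s30e_flat_padicInt p 𝒪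
  exact s30e_tensor_sum_ne_zero _ hli c hc

/-- **Abstract `eig`**: an intertwined pair (`D` on the lattice, `TΛ` on `Λ`) and an eigen-equation on
the coefficient vector give an eigen-equation in `𝒪 ⊗ Λ`. -/
theorem s59b_eig_abs {X : Type*} [Fintype X] (D : s48h_MatDatum Γ X) (TΛ : Module.End ℤ_[p] Λ)
    (hint : ∀ φ : ↥(s48h_M Γ), iota (D.heckeHpar ℤ φ) = TΛ (iota φ))
    (c : ι → 𝒪) (a : 𝒪)
    (h : D.heckeHom 𝒪 (∑ j, c j • s48h_castB b 𝒪 j) = a • ∑ j, c j • s48h_castB b 𝒪 j) :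
    TΛ.baseChange 𝒪 (s59b_eigVec b p iota 𝒪 c) = a • s59b_eigVec b p iota 𝒪 c := by
  classical
  have hT : ∀ j, TΛ (iota (b j)) =
      ∑ i, ((s48h_heckeMat b D).map (Int.cast : ℤ → ℤ_[p])) i j • iota (b i) := by
    intro j
    rw [← hint (b j)]
    have h1 : D.heckeHpar ℤ (b j) = ∑ i, s48h_heckeMat b D i j • b i := by
      have h := b.sum_repr (D.heckeHpar ℤ (b j))
      rw [← h]
      refine Finset.sum_congr rfl fun i _ => ?_
      rw [s48h_heckeMat, LinearMap.toMatrix_apply]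
    rw [h1, map_sum]
    refine Finset.sum_congr rfl fun i _ => ?_
    rw [map_zsmul, Matrix.map_apply, Int.cast_smul_eq_zsmul]
  rw [s59b_eigVec, s30e_baseChange_sum TΛ (fun i => iota (b i)) _ hT c]
  have hmat : ((s48h_heckeMat b D).map (Int.cast : ℤ → ℤ_[p])).map (algebraMap ℤ_[p] 𝒪) =
      (s48h_heckeMat b D).map (Int.cast : ℤ → 𝒪) := by
    ext i j
    simp
  rw [hmat, s59b_mulVec_of_eigen b 𝒪 D c a h, Finset.smul_sum]
  refine Finset.sum_congr rfl fun i _ => ?_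
  rw [TensorProduct.smul_tmul', Pi.smul_apply]

end Abs

/-! ### The concrete `eig` for `T_p J_H` -/

section Conc

variable {M : ℕ} [NeZero M] {H : Subgroup (ZMod M)ˣ} (hM : 1 < M)
  (hneg : (-1 : (ZMod M)ˣ) ∈ H) (p : ℕ) [Fact p.Prime]

/-- the images of a lattice basis in the Tate module are `ℤ_[p]`-linearly independent. -/
theorem s59b_iotaH_linearIndependent {ι : Type*} [Fintype ι] [DecidableEq ι]
    (b : Module.Basis ι ℤ (s48h_M (s48h_GammaH M H))) :
    LinearIndependent ℤ_[p] (fun i => s59b_iotaH hM hneg p (b i)) := by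
  refine LinearIndependent.of_comp (s59b_kinfH hM hneg p) ?_
  have h : (⇑(s59b_kinfH hM hneg p) ∘ fun i => s59b_iotaH hM hneg p (b i)) =
      s48h_castB b ℤ_[p] := by
    funext i
    exact s59b_kinfH_iotaH hM hneg p (b i)
  rw [h]
  exact s59b_castB_linearIndependent b ℤ_[p]

include hM hneg in
/-- **`eig` for `Γ_H`.**  `𝒪` a domain of characteristic zero over `ℤ_[p]`, `v ≠ 0` in
`H_par(Γ_H, 𝒪)`; `a ℓ` an eigenvalue of (some representative datum of) `T_ℓ` for the primes `ℓ ∤ M`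
outside a set `S`, `ψ d` an eigenvalue of the diamond `⟨d⟩`.  Then there is `w ≠ 0` in `𝒪 ⊗ T_p J_H` with
the same eigenvalues for the classical `T_ℓ` and the diamonds `⟨d⟩` of the Tate module. -/
theorem s59b_eigH (S : Set ℕ) (𝒪 : Type*) [CommRing 𝒪] [IsDomain 𝒪] [CharZero 𝒪] [Algebra ℤ_[p] 𝒪]
    (v : Additive (s48h_GammaH M H) →+ 𝒪) (hv : v ∈ s48h_Hpar 𝒪 (s48h_GammaH M H) 𝒪) (hv0 : v ≠ 0)
    (a : ℕ → 𝒪) (ψ : (ZMod M)ˣ → 𝒪)
    (hT : ∀ (ℓ : ℕ) [Fact ℓ.Prime] (hℓM : ¬ ℓ ∣ M), ℓ ∉ S →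
      ∃ (σℓ : SL(2, ℤ)) (hσℓ : σℓ ∈ Gamma0 M) (hσℓ11 : ((σℓ 1 1 : ℤ) : ZMod M) = (ℓ : ZMod M)),
        (s48h_TpDatum H hℓM σℓ hσℓ hσℓ11).heckeHom 𝒪 v = a ℓ • v)
    (hD : ∀ d : (ZMod M)ˣ, ∃ (σ : SL(2, ℤ)) (hσ : σ ∈ Gamma0 M)
      (_ : ((σ 1 1 : ℤ) : ZMod M) = ((d : (ZMod M)ˣ) : ZMod M)),
        (s48h_diamondDatum H σ hσ).heckeHom 𝒪 v = ψ d • v) :
    ∃ w : 𝒪 ⊗[ℤ_[p]] s59b_TJH M H p, w ≠ 0 ∧
      (∀ (ℓ : ℕ) [NeZero ℓ] (ℓu : (ZMod M)ˣ), ℓ.Prime → ¬ ℓ ∣ M → ℓ ∉ S →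
        ((ℓu : (ZMod M)ˣ) : ZMod M) = (ℓ : ZMod M) →
          (s59b_TH M H p ℓ ℓu).baseChange 𝒪 w = a ℓ • w) ∧
      ∀ d : (ZMod M)ˣ, (s59b_DH M H p d).baseChange 𝒪 w = ψ d • w := by
  classical
  let b := Module.finBasis ℤ ↥(s48h_M (s48h_GammaH M H))
  obtain ⟨c, hc⟩ := s59b_exists_coeffs b 𝒪 v hv
  have hc0 : c ≠ 0 := by
    rintro rfl
    apply hv0
    rw [hc]
    simp
  refine ⟨s59b_eigVec b p (s59b_iotaH hM hneg p) 𝒪 c,
    s59b_eigVec_ne_zero b p _ 𝒪 (s59b_iotaH_linearIndependent hM hneg p b) c hc0, ?_, ?_⟩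
  · intro ℓ _ ℓu hℓ hℓM hℓS hℓu
    haveI : Fact ℓ.Prime := ⟨hℓ⟩
    obtain ⟨σℓ, hσℓ, hσℓ11, hev⟩ := hT ℓ hℓM hℓS
    refine s59b_eig_abs b p (s59b_iotaH hM hneg p) 𝒪 (s48h_TpDatum H hℓM σℓ hσℓ hσℓ11)
      (s59b_TH M H p ℓ ℓu) (fun φ => s59b_iotaH_Tp hM hneg p ℓ hℓM ℓu hℓu σℓ hσℓ hσℓ11 φ) c (a ℓ) ?_
    rw [← hc]
    exact hev
  · intro d
    obtain ⟨σ, hσ, hσd, hev⟩ := hD d
    refine s59b_eig_abs b p (s59b_iotaH hM hneg p) 𝒪 (s48h_diamondDatum H σ hσ)
      (s59b_DH M H p d) (fun φ => s59b_iotaH_diamond hM hneg p d σ hσ hσd φ) c (ψ d) ?_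
    rw [← hc]
    exact hev

end Conc

end

end Fermat.Agent.Lib.S59
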