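/-
Programme (R) / node (K-T) (helper2, prefix `s59b_`): **(F) the transfer principle from finite level to
the eigen-part of `𝒪 ⊗ T_p A`** (abstract: `A` any abelian group, Mathlib + `Lib/S30/TateMod.lean`).

`A` an abelian group with endomorphisms `τ i` ("Hecke operators"), integers `a i`, a `ℤ_[p]`-algebra `𝒪`
which is free as a module, elements `a' i ∈ 𝒪` with `(a' i - a i) ^ e = p y` for some `e`, `y` (i.e.
`a' i ≡ a i` modulo the radical of `p 𝒪`), and `w ∈ 𝒪 ⊗[ℤ_p] T_p A` with `(T_p τ_i ⊗ 1) w = a' i • w`.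
If an endomorphism `E` of `A` kills, for every `k`, every `z ∈ A[p^k]` in the generalised eigenspace
`{z | ∀ i ∃ N, (τ i - a i)^N z = 0}`, then `(T_p E ⊗ 1) w = 0` (`s59b_transfer_abs`).
-/
import Mathlib
import Fermat.Agent.Lib.S30.TateMod

set_option autoImplicit false
set_option linter.unusedSectionVars false
set_option linter.style.haveILetI false

open scoped TensorProduct

namespace Fermat.Agent.Lib.S59

open Fermat.Agent.Lib.S30

noncomputable section

section Coord

variable {R : Type*} [CommRing R] {𝒪 : Type*} [CommRing 𝒪] [Algebra R 𝒪]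
  {V : Type*} [AddCommGroup V] [Module R V] {ι : Type*} [DecidableEq ι] (ℬ : Module.Basis ι R 𝒪)

/-- the coordinates of a base-changed endomorphism are the endomorphism of the coordinates. -/
theorem s59b_coord_baseChange (G : Module.End R V) (u : 𝒪 ⊗[R] V) (j : ι) :
    TensorProduct.equivFinsuppOfBasisLeft ℬ (G.baseChange 𝒪 u) j =
      G (TensorProduct.equivFinsuppOfBasisLeft ℬ u j) := by
  induction u using TensorProduct.induction_on with
  | zero => simp
  | tmul m n =>
    rw [LinearMap.baseChange_tmul, TensorProduct.equivFinsuppOfBasisLeft_apply_tmul_apply,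
      TensorProduct.equivFinsuppOfBasisLeft_apply_tmul_apply, map_smul]
  | add x y hx hy =>
    rw [map_add, map_add, Finsupp.add_apply, hx, hy, map_add, Finsupp.add_apply, map_add]

/-- an element of `𝒪 ⊗ V` all of whose coordinates vanish is zero. -/
theorem s59b_eq_zero_of_coord (u : 𝒪 ⊗[R] V)
    (h : ∀ j, TensorProduct.equivFinsuppOfBasisLeft ℬ u j = 0) : u = 0 := by
  apply (TensorProduct.equivFinsuppOfBasisLeft ℬ).injective
  rw [map_zero]
  ext j
  exact h j

end Coord

section Transfer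

variable {A : Type*} [AddCommGroup A] {p : ℕ} [Fact p.Prime]
  {𝒪 : Type*} [CommRing 𝒪] [Algebra ℤ_[p] 𝒪] [Module.Free ℤ_[p] 𝒪]
  {I : Type*} (τ : I → AddMonoid.End A) (a : I → ℤ) (a' : I → 𝒪)

/-- the action of an integer (as an endomorphism of the Tate module) after base change. -/
theorem s59b_baseChange_intCast (n : ℤ) (w : 𝒪 ⊗[ℤ_[p]] s30a_Tp A p) :
    ((n : Module.End ℤ_[p] (s30a_Tp A p))).baseChange 𝒪 w = (n : 𝒪) • w := by
  have h1 : (n : Module.End ℤ_[p] (s30a_Tp A p)) = (n : ℤ_[p]) • (1 : Module.End ℤ_[p] _) := by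
    rw [← Algebra.algebraMap_eq_smul_one, map_intCast]
  rw [h1, LinearMap.baseChange_smul, LinearMap.baseChange_one, LinearMap.smul_apply,
    Module.End.one_apply, ← algebraMap_smul 𝒪 (n : ℤ_[p]) w, map_intCast]

/-- **(F) the transfer principle, abstract form.** -/
theorem s59b_transfer_abs
    (hcong : ∀ i, ∃ (e : ℕ) (y : 𝒪), (a' i - (a i : 𝒪)) ^ e = (p : 𝒪) * y)
    (w : 𝒪 ⊗[ℤ_[p]] s30a_Tp A p)
    (hw : ∀ i, (s30a_map A p (τ i)).baseChange 𝒪 w = a' i • w)
    (E : AddMonoid.End A)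
    (hE : ∀ (k : ℕ) (z : A), p ^ k • z = 0 →
      (∀ i, ∃ N : ℕ, ((τ i - (a i : AddMonoid.End A)) ^ N) z = 0) → E z = 0) :
    (s30a_map A p E).baseChange 𝒪 w = 0 := by
  classical
  let ℬ := Module.Free.chooseBasis ℤ_[p] 𝒪
  refine s59b_eq_zero_of_coord ℬ _ fun j => ?_
  rw [s59b_coord_baseChange]
  set t : s30a_Tp A p := TensorProduct.equivFinsuppOfBasisLeft ℬ w j with ht
  refine s30a_ext fun k => ?_
  rw [s30a_map_apply, s30a_zero_apply]
  refine hE k _ (s30a_pow_smul t k) fun i => ?_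
  obtain ⟨e, y, hey⟩ := hcong i
  refine ⟨e * k, ?_⟩
  -- the endomorphism `G = T_p (τ i - a i)`
  set G : Module.End ℤ_[p] (s30a_Tp A p) := s30a_map A p (τ i - (a i : AddMonoid.End A)) with hG
  have hG1 : G.baseChange 𝒪 w = (a' i - (a i : 𝒪)) • w := by
    rw [hG, map_sub, map_intCast, LinearMap.baseChange_sub, LinearMap.sub_apply, hw i,
      s59b_baseChange_intCast]
    exact (sub_smul _ _ _).symm
  have hGN : ∀ N : ℕ, (G ^ N).baseChange 𝒪 w = (a' i - (a i : 𝒪)) ^ N • w := by
    intro N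
    induction N with
    | zero => rw [pow_zero, pow_zero, LinearMap.baseChange_one, Module.End.one_apply, one_smul]
    | succ N ih =>
      rw [pow_succ, LinearMap.baseChange_mul, Module.End.mul_apply, hG1, map_smul, ih, smul_smul,
        ← pow_succ']
  have h2 : (a' i - (a i : 𝒪)) ^ (e * k) • w = ((p : ℤ_[p]) ^ k) • (y ^ k • w) := by
    rw [pow_mul, hey, mul_pow, mul_smul, ← algebraMap_smul 𝒪 ((p : ℤ_[p]) ^ k) (y ^ k • w),
      map_pow, map_natCast]
  have h3 : (G ^ (e * k)) t =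
      ((p : ℤ_[p]) ^ k) • TensorProduct.equivFinsuppOfBasisLeft ℬ (y ^ k • w) j := by
    rw [ht, ← s59b_coord_baseChange, hGN, h2, map_smul, Finsupp.smul_apply]
  have h4 : ((G ^ (e * k)) t : ℕ → A) k =
      ((((p : ℤ_[p]) ^ k) • TensorProduct.equivFinsuppOfBasisLeft ℬ (y ^ k • w) j :
        s30a_Tp A p) : ℕ → A) k := by rw [h3]
  rw [s30a_pow_smul_apply_eq_zero, hG, ← map_pow, s30a_map_apply] at h4
  exact h4

end Transfer

end

end Fermat.Agent.Lib.S59
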