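/-
Programme (R) / node (K-T) (helper2, prefix `s59b_`): **the realisation `Λ_x`** (final deliverables of (K-T)).

`M`, `H` with `1 < M`, `-1 ∈ H`; `S37 : s59b_S37H M H` (holds at every level `s59b_Lvl M H`, BKS37);
`𝒪` a `ℤ_[p]`-algebra; `x = (a, ψ)` a system of eigenvalues (`a ℓ` for the primes `ℓ ∤ M`, `ℓ ∉ S`,
`ψ d` for the diamonds).

* `s59b_transferH` : **(F) the transfer principle for `J_H`**: an endomorphism `E` of `J_H(ℚ̄)` killing, for every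
  `k`, the generalised eigenspace `{z ∈ J_H[p^k] : ∀ ℓ ∉ S ∃ N, (T_ℓ - a_ℓ)^N z = 0}` (`a_ℓ ∈ ℤ`) kills every
  eigenvector `w ∈ 𝒪 ⊗ T_p J_H` whose eigenvalues `a'_ℓ` are topologically congruent to the `a_ℓ`;
* `s59b_transfer_K` : the case `E = (σ - 1)(σ - ⟨δ⟩)`;
* `s59b_LamX M H p S 𝒪 a ψ` : the simultaneous eigen-submodule of `𝒪 ⊗[ℤ_p] T_p J_H`; `s59b_mem_LamX`;
  `s59b_LamX_ne_bot` (from an eigenvector in `H_par(Γ_H, 𝒪)`, BKEig), `s59b_LamX_stable`, the Galois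
  representation `s59b_rhoX` on it, `s59b_rhoX_cont`, `s59b_rhoX_frobQuad`
  (`ρ(Frob_ℓ)² - a_ℓ ρ(Frob_ℓ) + ℓ ψ(ℓ) = 0`), `s59b_rhoX_unram`, `s59b_rhoX_K` ((K) on `Λ_x`),
  `s59b_LamX_finite`, `s59b_LamX_free`, `s59b_LamX_torsionFree`.
-/
import Mathlib
import Fermat.Agent.Lib.S30.LFinal
import Fermat.Agent.Lib.S59.BKEig
import Fermat.Agent.Lib.S59.BKTransfer

set_option autoImplicit false
set_option linter.unusedSectionVars false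
set_option linter.style.haveILetI false

open AlgebraicCurve ModularCurve CongruenceSubgroup IsLocalRing
open scoped TensorProduct MatrixGroups

namespace Fermat.Agent.Lib.S59

open Fermat.Agent.Lib.S29 Fermat.Agent.Lib.S30 Fermat.Agent.Lib.S48

noncomputable section

local notation "Qbar" => AlgebraicClosure ℚ

/-! ### (F) the transfer principle for `J_H` -/

section Transfer

variable {M : ℕ} [NeZero M] {H : Subgroup (ZMod M)ˣ} (p : ℕ) [Fact p.Prime]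

/-- The index type of the good Hecke operators: pairs `(ℓ, ℓu)` with `ℓ ∤ M` a prime outside `S` and
`ℓu` the class of `ℓ` in `(ℤ/M)ˣ`. -/
def s59b_Idx (M : ℕ) (S : Set ℕ) : Type :=
  {ℓu : ℕ × (ZMod M)ˣ // ℓu.1.Prime ∧ ¬ ℓu.1 ∣ M ∧ ℓu.1 ∉ S ∧
    ((ℓu.2 : (ZMod M)ˣ) : ZMod M) = (ℓu.1 : ZMod M)}

/-- the base change of `T_p((σ - 1)(σ - δ))`, elementwise. -/
theorem s59b_map_K_abs {A : Type*} [AddCommGroup A] (q : ℕ) [Fact q.Prime]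
    {𝒪 : Type*} [CommRing 𝒪] [Algebra ℤ_[q] 𝒪] (σE δE : AddMonoid.End A)
    (w : 𝒪 ⊗[ℤ_[q]] s30a_Tp A q) :
    (s30a_map A q ((σE - 1) * (σE - δE))).baseChange 𝒪 w =
      (s30a_map A q σE).baseChange 𝒪
          ((s30a_map A q σE).baseChange 𝒪 w - (s30a_map A q δE).baseChange 𝒪 w) -
        ((s30a_map A q σE).baseChange 𝒪 w - (s30a_map A q δE).baseChange 𝒪 w) := by
  rw [map_mul, map_sub, map_sub, map_one, LinearMap.baseChange_mul, LinearMap.baseChange_sub,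
    LinearMap.baseChange_sub, LinearMap.baseChange_one, Module.End.mul_apply, LinearMap.sub_apply,
    LinearMap.sub_apply, Module.End.one_apply]

/-- the base change of a quadratic relation, elementwise. -/
theorem s59b_baseChange_quad {R : Type*} [CommRing R] {𝒪 : Type*} [CommRing 𝒪] [Algebra R 𝒪]
    {Λ : Type*} [AddCommGroup Λ] [Module R Λ] (f T D : Module.End R Λ) (c : R)
    (h : f * f - T * f + c • D = 0) (w : 𝒪 ⊗[R] Λ) :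
    f.baseChange 𝒪 (f.baseChange 𝒪 w) - T.baseChange 𝒪 (f.baseChange 𝒪 w) +
      algebraMap R 𝒪 c • D.baseChange 𝒪 w = 0 := by
  have h' := congrArg (fun g : Module.End R Λ => g.baseChange 𝒪 w) h
  simp only [LinearMap.baseChange_add, LinearMap.baseChange_sub, LinearMap.baseChange_mul,
    LinearMap.baseChange_smul, LinearMap.baseChange_zero,
    LinearMap.add_apply, LinearMap.sub_apply, Module.End.mul_apply, LinearMap.smul_apply,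
    LinearMap.zero_apply] at h'
  rw [algebraMap_smul]
  exact h'

/-- `(f - 1)(f - D) w = 0` and `D w = c w` give `f² w - (1 + c) f w + c w = 0`. -/
theorem s59b_K_rearrange {𝒪 V : Type*} [CommRing 𝒪] [AddCommGroup V] [Module 𝒪 V]
    (f D : Module.End 𝒪 V) (c : 𝒪) (w : V) (hD : D w = c • w)
    (h : f (f w - D w) - (f w - D w) = 0) : f (f w) - (1 + c) • f w + c • w = 0 := by
  rw [hD, map_sub, map_smul] at h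
  rw [← h]
  module

/-- `T_ℓ` as an element of the ring `AddMonoid.End J_H`. -/
abbrev s59b_TEnd (M : ℕ) [NeZero M] (H : Subgroup (ZMod M)ˣ) (ℓ : ℕ) [NeZero ℓ] (ℓu : (ZMod M)ˣ) :
    AddMonoid.End (s48k_JH M H) := s48k_TpJ M H ℓ ℓu

/-- **The `𝔪`-part**: `z` is a generalised eigenvector of every good `T_ℓ` (`ℓ ∤ M` prime, `ℓ ∉ S`) with
the integer eigenvalue `a ℓ`. -/
def s59b_GenEig (M : ℕ) [NeZero M] (H : Subgroup (ZMod M)ˣ) (S : Set ℕ) (a : ℕ → ℤ)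
    (z : s48k_JH M H) : Prop :=
  ∀ (ℓ : ℕ) [NeZero ℓ] (ℓu : (ZMod M)ˣ), ℓ.Prime → ¬ ℓ ∣ M → ℓ ∉ S →
    ((ℓu : (ZMod M)ˣ) : ZMod M) = (ℓ : ZMod M) →
      ∃ N : ℕ, ((s59b_TEnd M H ℓ ℓu - (a ℓ : AddMonoid.End (s48k_JH M H))) ^ N) z = 0

/-- powers of `τ - a` in `AddMonoid.End A`, elementwise. -/
theorem s59b_pow_sub_apply {A : Type*} [AddCommGroup A] (τ : AddMonoid.End A) (a : ℤ) (N : ℕ)
    (z : A) : ((τ - (a : AddMonoid.End A)) ^ N) z = (fun y => τ y - a • y)^[N] z := by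
  induction N generalizing z with
  | zero => rfl
  | succ N ih =>
    rw [pow_succ, Function.iterate_succ_apply, ← ih]
    show ((τ - (a : AddMonoid.End A)) ^ N) ((τ - (a : AddMonoid.End A)) z) = _
    congr 1

/-- the `𝔪`-part, elementwise form. -/
theorem s59b_genEig_iff {S : Set ℕ} {a : ℕ → ℤ} {z : s48k_JH M H} :
    s59b_GenEig M H S a z ↔
      ∀ (ℓ : ℕ) [NeZero ℓ] (ℓu : (ZMod M)ˣ), ℓ.Prime → ¬ ℓ ∣ M → ℓ ∉ S →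
        ((ℓu : (ZMod M)ˣ) : ZMod M) = (ℓ : ZMod M) →
          ∃ N : ℕ, (fun y => s48k_TpJ M H ℓ ℓu y - a ℓ • y)^[N] z = 0 := by
  constructor
  · intro h ℓ _ ℓu h1 h2 h3 h4
    obtain ⟨N, hN⟩ := h ℓ ℓu h1 h2 h3 h4
    exact ⟨N, by rw [← hN, s59b_pow_sub_apply]; rfl⟩
  · intro h ℓ _ ℓu h1 h2 h3 h4
    obtain ⟨N, hN⟩ := h ℓ ℓu h1 h2 h3 h4
    exact ⟨N, by rw [s59b_pow_sub_apply]; exact hN⟩

/-- **(F) the transfer principle for `J_H`.** -/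
theorem s59b_transferH (S : Set ℕ) {𝒪 : Type*} [CommRing 𝒪] [Algebra ℤ_[p] 𝒪]
    [Module.Free ℤ_[p] 𝒪] (a : ℕ → ℤ) (a' : ℕ → 𝒪)
    (hcong : ∀ ℓ : ℕ, ℓ.Prime → ¬ ℓ ∣ M → ℓ ∉ S →
      ∃ (e : ℕ) (y : 𝒪), (a' ℓ - (a ℓ : 𝒪)) ^ e = (p : 𝒪) * y)
    (w : 𝒪 ⊗[ℤ_[p]] s59b_TJH M H p)
    (hw : ∀ (ℓ : ℕ) [NeZero ℓ] (ℓu : (ZMod M)ˣ), ℓ.Prime → ¬ ℓ ∣ M → ℓ ∉ S →
      ((ℓu : (ZMod M)ˣ) : ZMod M) = (ℓ : ZMod M) →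
        (s59b_TH M H p ℓ ℓu).baseChange 𝒪 w = a' ℓ • w)
    (E : AddMonoid.End (s48k_JH M H))
    (hE : ∀ (k : ℕ) (z : s48k_JH M H), p ^ k • z = 0 →
      s59b_GenEig M H S a z →
      E z = 0) :
    (s30a_map (s48k_JH M H) p E).baseChange 𝒪 w = 0 := by
  refine s59b_transfer_abs (p := p) (A := s48k_JH M H) (I := s59b_Idx M S)
    (fun i => haveI : NeZero i.1.1 := ⟨i.2.1.ne_zero⟩
      s59b_TEnd M H i.1.1 i.1.2)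
    (fun i => a i.1.1) (fun i => a' i.1.1)
    (fun i => hcong i.1.1 i.2.1 i.2.2.1 i.2.2.2.1) w
    (fun i => haveI : NeZero i.1.1 := ⟨i.2.1.ne_zero⟩
      hw i.1.1 i.1.2 i.2.1 i.2.2.1 i.2.2.2.1 i.2.2.2.2) E ?_
  intro k z hz hgen
  refine hE k z hz ?_
  intro ℓ _ ℓu h1 h2 h3 h4
  exact hgen ⟨(ℓ, ℓu), h1, h2, h3, h4⟩

/-- **(F) for `E = (σ - 1)(σ - ⟨δ⟩)`.** -/
theorem s59b_transfer_K (S : Set ℕ) {𝒪 : Type*} [CommRing 𝒪] [Algebra ℤ_[p] 𝒪]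
    [Module.Free ℤ_[p] 𝒪] (a : ℕ → ℤ) (a' : ℕ → 𝒪)
    (hcong : ∀ ℓ : ℕ, ℓ.Prime → ¬ ℓ ∣ M → ℓ ∉ S →
      ∃ (e : ℕ) (y : 𝒪), (a' ℓ - (a ℓ : 𝒪)) ^ e = (p : 𝒪) * y)
    (w : 𝒪 ⊗[ℤ_[p]] s59b_TJH M H p)
    (hw : ∀ (ℓ : ℕ) [NeZero ℓ] (ℓu : (ZMod M)ˣ), ℓ.Prime → ¬ ℓ ∣ M → ℓ ∉ S →
      ((ℓu : (ZMod M)ˣ) : ZMod M) = (ℓ : ZMod M) →
        (s59b_TH M H p ℓ ℓu).baseChange 𝒪 w = a' ℓ • w)
    (σ : s48k_G) (δ : (ZMod M)ˣ)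
    (hK : ∀ (k : ℕ) (z : s48k_JH M H), p ^ k • z = 0 →
      s59b_GenEig M H S a z →
      σ • (σ • z - s48k_diamondJ M H δ z) - (σ • z - s48k_diamondJ M H δ z) = 0) :
    (s59b_rhoH M H p σ).baseChange 𝒪
        ((s59b_rhoH M H p σ).baseChange 𝒪 w - (s59b_DH M H p δ).baseChange 𝒪 w) -
      ((s59b_rhoH M H p σ).baseChange 𝒪 w - (s59b_DH M H p δ).baseChange 𝒪 w) = 0 := by
  let σE : AddMonoid.End (s48k_JH M H) :=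
    DistribMulAction.toAddMonoidEnd s48k_G (s48k_JH M H) σ
  let δE : AddMonoid.End (s48k_JH M H) := s48k_diamondJ M H δ
  have hEz : ∀ z : s48k_JH M H, ((σE - 1) * (σE - δE)) z =
      σ • (σ • z - s48k_diamondJ M H δ z) - (σ • z - s48k_diamondJ M H δ z) := fun z => rfl
  have h := s59b_transferH p S a a' hcong w hw ((σE - 1) * (σE - δE))
    (fun k z hz hgen => (hEz z).trans (hK k z hz hgen))
  rw [s59b_map_K_abs] at h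
  exact h

end Transfer

/-! ### The eigen-submodule `Λ_x` -/

section LamX

variable (M : ℕ) [NeZero M] (H : Subgroup (ZMod M)ˣ) (p : ℕ) [Fact p.Prime]
  (S : Set ℕ) (𝒪 : Type) [CommRing 𝒪] [Algebra ℤ_[p] 𝒪] (a : ℕ → 𝒪) (ψ : (ZMod M)ˣ → 𝒪)

/-- The operators cutting out `Λ_x`: the good Hecke operators and the diamonds on `𝒪 ⊗ T_p J_H`. -/
def s59b_opX : s59b_Idx M S ⊕ (ZMod M)ˣ → Module.End 𝒪 (𝒪 ⊗[ℤ_[p]] s59b_TJH M H p)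
  | Sum.inl i =>
    haveI : NeZero i.1.1 := ⟨i.2.1.ne_zero⟩
    (s59b_TH M H p i.1.1 i.1.2).baseChange 𝒪
  | Sum.inr d => (s59b_DH M H p d).baseChange 𝒪

/-- The eigenvalues cutting out `Λ_x`. -/
def s59b_evX : s59b_Idx M S ⊕ (ZMod M)ˣ → 𝒪
  | Sum.inl i => a i.1.1
  | Sum.inr d => ψ d

/-- **`Λ_x`**: the `(a, ψ)`-eigen-submodule of `𝒪 ⊗[ℤ_p] T_p J_H`. -/
def s59b_LamX : Submodule 𝒪 (𝒪 ⊗[ℤ_[p]] s59b_TJH M H p) :=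
  s30f_eigen (s59b_opX M H p S 𝒪) (s59b_evX M S 𝒪 a ψ)

variable {M H p S 𝒪 a ψ}

theorem s59b_mem_LamX {w : 𝒪 ⊗[ℤ_[p]] s59b_TJH M H p} :
    w ∈ s59b_LamX M H p S 𝒪 a ψ ↔
      (∀ (ℓ : ℕ) [NeZero ℓ] (ℓu : (ZMod M)ˣ), ℓ.Prime → ¬ ℓ ∣ M → ℓ ∉ S →
        ((ℓu : (ZMod M)ˣ) : ZMod M) = (ℓ : ZMod M) →
          (s59b_TH M H p ℓ ℓu).baseChange 𝒪 w = a ℓ • w) ∧
      ∀ d : (ZMod M)ˣ, (s59b_DH M H p d).baseChange 𝒪 w = ψ d • w := by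
  constructor
  · intro h
    exact ⟨fun ℓ _ ℓu h1 h2 h3 h4 => h (Sum.inl ⟨(ℓ, ℓu), h1, h2, h3, h4⟩), fun d => h (Sum.inr d)⟩
  · rintro ⟨h1, h2⟩ (i | d)
    · haveI : NeZero i.1.1 := ⟨i.2.1.ne_zero⟩
      exact h1 i.1.1 i.1.2 i.2.1 i.2.2.1 i.2.2.2.1 i.2.2.2.2
    · exact h2 d

/-- the diamonds act on `Λ_x` through `ψ`. -/
theorem s59b_LamX_diamond {w : 𝒪 ⊗[ℤ_[p]] s59b_TJH M H p} (hw : w ∈ s59b_LamX M H p S 𝒪 a ψ)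
    (d : (ZMod M)ˣ) : (s59b_DH M H p d).baseChange 𝒪 w = ψ d • w :=
  (s59b_mem_LamX.mp hw).2 d

/-- the good Hecke operators act on `Λ_x` through `a`. -/
theorem s59b_LamX_hecke {w : 𝒪 ⊗[ℤ_[p]] s59b_TJH M H p} (hw : w ∈ s59b_LamX M H p S 𝒪 a ψ)
    (ℓ : ℕ) [NeZero ℓ] (ℓu : (ZMod M)ˣ) (hℓ : ℓ.Prime) (hℓM : ¬ ℓ ∣ M) (hℓS : ℓ ∉ S)
    (hℓu : ((ℓu : (ZMod M)ˣ) : ZMod M) = (ℓ : ZMod M)) :
    (s59b_TH M H p ℓ ℓu).baseChange 𝒪 w = a ℓ • w :=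
  (s59b_mem_LamX.mp hw).1 ℓ ℓu hℓ hℓM hℓS hℓu

/-- **`Λ_x ≠ 0`** as soon as the system of eigenvalues occurs in `H_par(Γ_H, 𝒪)`. -/
theorem s59b_LamX_ne_bot (hM : 1 < M) (hneg : (-1 : (ZMod M)ˣ) ∈ H) [IsDomain 𝒪] [CharZero 𝒪]
    (v : Additive (s48h_GammaH M H) →+ 𝒪) (hv : v ∈ s48h_Hpar 𝒪 (s48h_GammaH M H) 𝒪) (hv0 : v ≠ 0)
    (hT : ∀ (ℓ : ℕ) [Fact ℓ.Prime] (hℓM : ¬ ℓ ∣ M), ℓ ∉ S →
      ∃ (σℓ : SL(2, ℤ)) (hσℓ : σℓ ∈ Gamma0 M) (hσℓ11 : ((σℓ 1 1 : ℤ) : ZMod M) = (ℓ : ZMod M)),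
        (s48h_TpDatum H hℓM σℓ hσℓ hσℓ11).heckeHom 𝒪 v = a ℓ • v)
    (hD : ∀ d : (ZMod M)ˣ, ∃ (σ : SL(2, ℤ)) (hσ : σ ∈ Gamma0 M)
      (_ : ((σ 1 1 : ℤ) : ZMod M) = ((d : (ZMod M)ˣ) : ZMod M)),
        (s48h_diamondDatum H σ hσ).heckeHom 𝒪 v = ψ d • v) :
    ∃ w : 𝒪 ⊗[ℤ_[p]] s59b_TJH M H p, w ≠ 0 ∧ w ∈ s59b_LamX M H p S 𝒪 a ψ := by
  obtain ⟨w, hw0, hwT, hwD⟩ := s59b_eigH hM hneg p S 𝒪 v hv hv0 a ψ hT hD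
  exact ⟨w, hw0, s59b_mem_LamX.mpr ⟨hwT, hwD⟩⟩

/-- **`Λ_x` is Galois-stable.** -/
theorem s59b_LamX_stable (S37 : s59b_S37H M H) (σ : s48k_G) (w : 𝒪 ⊗[ℤ_[p]] s59b_TJH M H p)
    (hw : w ∈ s59b_LamX M H p S 𝒪 a ψ) :
    s30f_baseChange 𝒪 (s59b_rhoH M H p) σ w ∈ s59b_LamX M H p S 𝒪 a ψ := by
  refine s30f_map_mem_eigen (fun i => ?_) hw
  rcases i with i | d
  · haveI : NeZero i.1.1 := ⟨i.2.1.ne_zero⟩
    exact s30f_baseChange_commute 𝒪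
      (s59b_rhoH_comm_T p S37 i.1.1 i.1.2 i.2.1 i.2.2.1 i.2.2.2.2 σ)
  · exact s30f_baseChange_commute 𝒪 (s59b_rhoH_comm_D p S37 d σ)

variable (M H p S 𝒪 a ψ)

/-- **The Galois representation on `Λ_x`.** -/
def s59b_rhoX (S37 : s59b_S37H M H) : s48k_G →* Module.End 𝒪 (s59b_LamX M H p S 𝒪 a ψ) :=
  s30f_restrict (s30f_baseChange 𝒪 (s59b_rhoH M H p)) (s59b_LamX M H p S 𝒪 a ψ)
    (fun σ w hw => s59b_LamX_stable S37 σ w hw)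

variable {M H p S 𝒪 a ψ}

@[simp] theorem s59b_rhoX_apply (S37 : s59b_S37H M H) (σ : s48k_G)
    (w : s59b_LamX M H p S 𝒪 a ψ) :
    ((s59b_rhoX M H p S 𝒪 a ψ S37 σ w : s59b_LamX M H p S 𝒪 a ψ) :
      𝒪 ⊗[ℤ_[p]] s59b_TJH M H p) = (s59b_rhoH M H p σ).baseChange 𝒪 (w : 𝒪 ⊗[ℤ_[p]] s59b_TJH M H p) :=
  rfl

/-- **Eichler–Shimura on `Λ_x`**: `ρ(Frob_ℓ)² - a_ℓ ρ(Frob_ℓ) + ℓ ψ(ℓ) = 0` for `ℓ ∤ M p`, `ℓ ∉ S`. -/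
theorem s59b_rhoX_frobQuad (S37 : s59b_S37H M H) (ℓ : ℕ) (ℓu : (ZMod M)ˣ)
    (hℓ : ℓ.Prime) (hℓMp : ¬ ℓ ∣ M * p) (hℓS : ℓ ∉ S)
    (hℓu : ((ℓu : (ZMod M)ˣ) : ZMod M) = (ℓ : ZMod M))
    (A : ValuationSubring Qbar) (hA : A.LiesOverPrime ℓ)
    (σ : s48k_G) (hσ : A.IsFrobeniusAt σ ℓ) (w : s59b_LamX M H p S 𝒪 a ψ) :
    s59b_rhoX M H p S 𝒪 a ψ S37 σ (s59b_rhoX M H p S 𝒪 a ψ S37 σ w) -
      a ℓ • s59b_rhoX M H p S 𝒪 a ψ S37 σ w + ((ℓ : 𝒪) * ψ ℓu) • w = 0 := by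
  haveI : NeZero ℓ := ⟨hℓ.ne_zero⟩
  have hℓM : ¬ ℓ ∣ M := fun h => hℓMp (Dvd.dvd.mul_right h p)
  apply Subtype.ext
  have hq := s59b_rhoH_frobQuad p S37 ℓ ℓu hℓ hℓMp hℓu A hA σ hσ
  have hq' := s59b_baseChange_quad (𝒪 := 𝒪) _ _ _ _ hq (w : 𝒪 ⊗[ℤ_[p]] s59b_TJH M H p)
  have hσw : (s59b_rhoH M H p σ).baseChange 𝒪 (w : 𝒪 ⊗[ℤ_[p]] s59b_TJH M H p) ∈
      s59b_LamX M H p S 𝒪 a ψ :=
    s59b_LamX_stable (p := p) (S := S) (𝒪 := 𝒪) (a := a) (ψ := ψ) S37 σ w w.2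
  rw [s59b_LamX_hecke hσw ℓ ℓu hℓ hℓM hℓS hℓu, s59b_LamX_diamond w.2 ℓu] at hq'
  have hc : algebraMap ℤ_[p] 𝒪 ((ℓ : ℕ) : ℤ_[p]) = (ℓ : 𝒪) := map_natCast _ _
  have key : ((ℓ : 𝒪) * ψ ℓu) • (w : 𝒪 ⊗[ℤ_[p]] s59b_TJH M H p) =
      algebraMap ℤ_[p] 𝒪 ((ℓ : ℕ) : ℤ_[p]) • ψ ℓu • (w : 𝒪 ⊗[ℤ_[p]] s59b_TJH M H p) := by
    rw [hc, smul_smul]
  show (s59b_rhoH M H p σ).baseChange 𝒪 ((s59b_rhoH M H p σ).baseChange 𝒪 w) -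
    a ℓ • (s59b_rhoH M H p σ).baseChange 𝒪 w +
      ((ℓ : 𝒪) * ψ ℓu) • (w : 𝒪 ⊗[ℤ_[p]] s59b_TJH M H p) = 0
  exact (congrArg (fun t => (s59b_rhoH M H p σ).baseChange 𝒪
    ((s59b_rhoH M H p σ).baseChange 𝒪 (w : 𝒪 ⊗[ℤ_[p]] s59b_TJH M H p)) -
      a ℓ • (s59b_rhoH M H p σ).baseChange 𝒪 (w : 𝒪 ⊗[ℤ_[p]] s59b_TJH M H p) + t) key).trans hq'

/-- inertia at `q ∤ M p` acts trivially on `Λ_x`. -/
theorem s59b_rhoX_unram (S37 : s59b_S37H M H) (q : ℕ) (hq : q.Prime) (hqMp : ¬ q ∣ M * p)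
    (P : ValuationSubring Qbar) (hP : P.LiesOverPrime q)
    (σ : s48k_G) (hσ : σ ∈ P.inertiaSubgroupIn ℚ) : s59b_rhoX M H p S 𝒪 a ψ S37 σ = 1 := by
  have h1 : s59b_rhoH M H p σ = 1 := s59b_rhoH_unram p S37 q hq hqMp P hP σ hσ
  apply LinearMap.ext
  intro w
  apply Subtype.ext
  show (s59b_rhoH M H p σ).baseChange 𝒪 (w : 𝒪 ⊗[ℤ_[p]] s59b_TJH M H p) = w
  rw [h1, LinearMap.baseChange_one, Module.End.one_apply]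

/-- **(K) on `Λ_x`** from (K) on the generalised eigenspaces of the `J_H[p^k]`
(the integers `a₀ ℓ` are topologically congruent to the eigenvalues `a ℓ`). -/
theorem s59b_rhoX_K [Module.Free ℤ_[p] 𝒪] (S37 : s59b_S37H M H) (a₀ : ℕ → ℤ)
    (hcong : ∀ ℓ : ℕ, ℓ.Prime → ¬ ℓ ∣ M → ℓ ∉ S →
      ∃ (e : ℕ) (y : 𝒪), (a ℓ - (a₀ ℓ : 𝒪)) ^ e = (p : 𝒪) * y)
    (σ : s48k_G) (δ : (ZMod M)ˣ)
    (hK : ∀ (k : ℕ) (z : s48k_JH M H), p ^ k • z = 0 →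
      s59b_GenEig M H S a₀ z →
      σ • (σ • z - s48k_diamondJ M H δ z) - (σ • z - s48k_diamondJ M H δ z) = 0)
    (w : s59b_LamX M H p S 𝒪 a ψ) :
    s59b_rhoX M H p S 𝒪 a ψ S37 σ (s59b_rhoX M H p S 𝒪 a ψ S37 σ w) -
      (1 + ψ δ) • s59b_rhoX M H p S 𝒪 a ψ S37 σ w + ψ δ • w = 0 := by
  apply Subtype.ext
  have h := s59b_transfer_K p S a₀ a hcong (w : 𝒪 ⊗[ℤ_[p]] s59b_TJH M H p)
    (fun ℓ _ ℓu h1 h2 h3 h4 => s59b_LamX_hecke w.2 ℓ ℓu h1 h2 h3 h4) σ δ hK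
  show (s59b_rhoH M H p σ).baseChange 𝒪 ((s59b_rhoH M H p σ).baseChange 𝒪 w) -
    (1 + ψ δ) • (s59b_rhoH M H p σ).baseChange 𝒪 w + ψ δ • (w : 𝒪 ⊗[ℤ_[p]] s59b_TJH M H p) = 0
  exact s59b_K_rearrange _ _ _ _ (s59b_LamX_diamond w.2 δ) h

end LamX

/-! ### `Λ_x` over a discrete valuation ring: finiteness, continuity, congruences -/

section DVR

variable {M : ℕ} [NeZero M] {H : Subgroup (ZMod M)ˣ} {p : ℕ} [Fact p.Prime]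
  {S : Set ℕ} {𝒪 : Type} [CommRing 𝒪] [Algebra ℤ_[p] 𝒪] {a : ℕ → 𝒪} {ψ : (ZMod M)ˣ → 𝒪}

/-- `Λ_x` is torsion-free (over a domain). -/
theorem s59b_LamX_isTorsionFree [IsDomain 𝒪] (hM : 1 < M) (hneg : (-1 : (ZMod M)ˣ) ∈ H) :
    Module.IsTorsionFree 𝒪 (s59b_LamX M H p S 𝒪 a ψ) := by
  haveI := s59b_TJH_finite hM hneg p
  haveI := s59b_TJH_free hM hneg p
  infer_instance

/-- `Λ_x` has no zero-smul-divisors (over a domain). -/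
theorem s59b_LamX_noZeroSMulDivisors [IsDomain 𝒪] (hM : 1 < M) (hneg : (-1 : (ZMod M)ˣ) ∈ H) :
    NoZeroSMulDivisors 𝒪 (s59b_LamX M H p S 𝒪 a ψ) := by
  haveI := s59b_LamX_isTorsionFree (p := p) (S := S) (𝒪 := 𝒪) (a := a) (ψ := ψ) hM hneg
  exact ⟨fun {c x} h => smul_eq_zero.mp h⟩

/-- `Λ_x` is nontrivial as soon as it contains a non-zero vector (`s59b_LamX_ne_bot`). -/
theorem s59b_LamX_nontrivial {w : 𝒪 ⊗[ℤ_[p]] s59b_TJH M H p} (hw0 : w ≠ 0)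
    (hw : w ∈ s59b_LamX M H p S 𝒪 a ψ) : Nontrivial (s59b_LamX M H p S 𝒪 a ψ) :=
  ⟨⟨⟨w, hw⟩, 0, fun h => hw0 (congrArg Subtype.val h)⟩⟩

/-- `Λ_x` is saturated in `𝒪 ⊗ T_p J_H`. -/
theorem s59b_LamX_saturated [IsDomain 𝒪] (hM : 1 < M) (hneg : (-1 : (ZMod M)ˣ) ∈ H)
    (r : 𝒪) (hr : r ≠ 0) (m : 𝒪 ⊗[ℤ_[p]] s59b_TJH M H p)
    (hm : r • m ∈ s59b_LamX M H p S 𝒪 a ψ) : m ∈ s59b_LamX M H p S 𝒪 a ψ := by
  haveI := s59b_TJH_finite hM hneg p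
  haveI := s59b_TJH_free hM hneg p
  exact s30f_eigen_saturated hr hm

variable [IsDomain 𝒪] [IsDiscreteValuationRing 𝒪]

/-- `Λ_x` is a finite `𝒪`-module. -/
theorem s59b_LamX_finite (hM : 1 < M) (hneg : (-1 : (ZMod M)ˣ) ∈ H) :
    Module.Finite 𝒪 (s59b_LamX M H p S 𝒪 a ψ) := by
  haveI := s59b_TJH_finite hM hneg p
  haveI := s59b_TJH_free hM hneg p
  exact s30f_finite_submodule _

/-- `Λ_x` is a free `𝒪`-module. -/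
theorem s59b_LamX_free (hM : 1 < M) (hneg : (-1 : (ZMod M)ˣ) ∈ H) :
    Module.Free 𝒪 (s59b_LamX M H p S 𝒪 a ψ) := by
  haveI := s59b_TJH_finite hM hneg p
  haveI := s59b_TJH_free hM hneg p
  exact s30f_free_submodule _

/-- **Continuity** of the Galois action on `Λ_x`. -/
theorem s59b_rhoX_cont (S37 : s59b_S37H M H) (hM : 1 < M) (hneg : (-1 : (ZMod M)ˣ) ∈ H)
    (hp𝒪 : (p : 𝒪) ∈ maximalIdeal 𝒪) :
    GaloisActionIsAdicContinuous 𝒪 (V := s59b_LamX M H p S 𝒪 a ψ)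
      (s59b_rhoX M H p S 𝒪 a ψ S37) := by
  haveI := s59b_TJH_finite hM hneg p
  haveI := s59b_TJH_free hM hneg p
  exact s30f_continuous_restrict _
    (s30f_continuous_baseChange p hp𝒪 (s59b_rhoH M H p) (s59b_rhoH_cont p S37 hM hneg)) _ _
    (fun r hr m hm => s59b_LamX_saturated hM hneg r hr m hm)

/-- an element of the maximal ideal has a power divisible by `p`. -/
theorem s59b_exists_pow_eq_p_mul (hp0 : (p : 𝒪) ≠ 0) {x : 𝒪} (hx : x ∈ maximalIdeal 𝒪) :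
    ∃ (e : ℕ) (y : 𝒪), x ^ e = (p : 𝒪) * y := by
  obtain ⟨ϖ, hϖ⟩ := IsDiscreteValuationRing.exists_irreducible 𝒪
  obtain ⟨n, u, hu⟩ := IsDiscreteValuationRing.associated_pow_irreducible hp0 hϖ
  rw [hϖ.maximalIdeal_eq, Ideal.mem_span_singleton'] at hx
  obtain ⟨z, rfl⟩ := hx
  exact ⟨n, (u : 𝒪) * z ^ n, by rw [mul_pow, ← hu]; ring⟩

/-- `𝒪` finite over `ℤ_[p]` and of characteristic zero is free over `ℤ_[p]`. -/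
theorem s59b_free_of_finite [CharZero 𝒪] [Module.Finite ℤ_[p] 𝒪] : Module.Free ℤ_[p] 𝒪 := by
  haveI := s30e_isTorsionFree_padicInt p 𝒪
  exact Module.free_of_finite_type_torsion_free'

/-- **(K) on `Λ_x`**, with the congruence `a ℓ ≡ a₀ ℓ` modulo the maximal ideal. -/
theorem s59b_rhoX_K' [CharZero 𝒪] [Module.Finite ℤ_[p] 𝒪] (S37 : s59b_S37H M H) (a₀ : ℕ → ℤ)
    (hcong : ∀ ℓ : ℕ, ℓ.Prime → ¬ ℓ ∣ M → ℓ ∉ S → a ℓ - (a₀ ℓ : 𝒪) ∈ maximalIdeal 𝒪)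
    (σ : s48k_G) (δ : (ZMod M)ˣ)
    (hK : ∀ (k : ℕ) (z : s48k_JH M H), p ^ k • z = 0 →
      s59b_GenEig M H S a₀ z →
      σ • (σ • z - s48k_diamondJ M H δ z) - (σ • z - s48k_diamondJ M H δ z) = 0)
    (w : s59b_LamX M H p S 𝒪 a ψ) :
    s59b_rhoX M H p S 𝒪 a ψ S37 σ (s59b_rhoX M H p S 𝒪 a ψ S37 σ w) -
      (1 + ψ δ) • s59b_rhoX M H p S 𝒪 a ψ S37 σ w + ψ δ • w = 0 := by
  haveI : Module.Free ℤ_[p] 𝒪 := s59b_free_of_finite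
  have hp0 : (p : 𝒪) ≠ 0 := Nat.cast_ne_zero.mpr (Fact.out : p.Prime).ne_zero
  exact s59b_rhoX_K S37 a₀
    (fun ℓ h1 h2 h3 => s59b_exists_pow_eq_p_mul hp0 (hcong ℓ h1 h2 h3)) σ δ hK w

end DVR

end

end Fermat.Agent.Lib.S59
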