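/-
Programme R (S59), node (H4′)/(NN)-3 (helper1, prefix `s59k_`): Mathlib + main only.

* `s59k_density`         : Frobenius density modulo a finite level (helper5's `s59e_density`, restated
                           here so that this file only depends on main);
* `s59k_cayley_two`, `s59k_trace_pow` : rank two: `f² = tr f • f − det f`, and `tr (f ^ j)` is the
                           `j`-th power-trace polynomial `s59k_ptr (tr f) (det f) j`;
* `s59k_trace_det_cong`  : congruent endomorphisms of a free module of rank two have congruent trace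
                           and determinant;
* **[CHAR-UNIQ]** `s59k_charpoly_unique` : two `GaloisRepAdic` over a noetherian local ring with the
                           same Frobenius characteristic polynomials outside a finite set have the
                           same characteristic polynomial at EVERY element of `G_ℚ`;
* **(NS)** `s59k_exists_ne_field` : an irreducible two-dimensional representation over a field of
                           characteristic `≠ 2` has an element `g` with `1 − tr g + det g ≠ 0`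
                           (i.e. without the eigenvalue `1`); `s59k_NS` : the adic version with a
                           twisting character: `c(g)² − tr ρ(g) c(g) + det ρ(g)` is a unit for some `g`.
-/
import Mathlib
import Fermat.Prelude.Def_GaloisRep_LocalConditions
import Fermat.Agent.Lib.S29.FDPlace
import Fermat.Agent.Lib.S36.KChain

set_option autoImplicit false
set_option linter.unusedSectionVars false
set_option linter.unusedVariables false
set_option linter.style.haveILetI false

noncomputable section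

namespace Fermat.Agent.Lib.S59

open IsLocalRing Polynomial Fermat.Agent.Lib.S29 Fermat.Agent.Lib.S36

local notation "Qbar" => AlgebraicClosure ℚ
local notation "GQ" => (AlgebraicClosure ℚ ≃ₐ[ℚ] AlgebraicClosure ℚ)

/-- Frobenius density: modulo any finite level `L`, every `g` is a power of a Frobenius element at
a prime outside `S`, times an element fixing `L`. -/
theorem s59k_density (L : IntermediateField ℚ Qbar) (hL : FiniteDimensional ℚ L)
    (S : Finset ℕ) (g : GQ) :
    ∃ (ℓ : ℕ) (A : ValuationSubring Qbar) (σ : GQ) (j : ℕ) (h : GQ),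
      ℓ.Prime ∧ ℓ ∉ S ∧ A.LiesOverPrime ℓ ∧ A.IsFrobeniusAt σ ℓ ∧ g = σ ^ j * h ∧
        ∀ x ∈ L, h x = x := by
  haveI hcl : IsAlgClosure ℚ Qbar := ⟨inferInstance, AlgebraicClosure.isAlgebraic ℚ⟩
  haveI : Normal ℚ Qbar := IsAlgClosure.normal ℚ Qbar
  set L' : IntermediateField ℚ Qbar := IntermediateField.normalClosure ℚ L Qbar with hL'
  have hle : L ≤ L' := IntermediateField.le_normalClosure L
  have hnorm : Normal ℚ L' := normalClosure.normal ℚ L Qbar
  have hfd : FiniteDimensional ℚ L' := normalClosure.is_finiteDimensional ℚ L Qbar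
  have hstab : ∀ σ : GQ, ∀ x ∈ L', σ x ∈ L' := by
    intro σ y hy
    have h1 := IntermediateField.normal_iff_forall_map_le'.mp hnorm σ
    exact h1 ((IntermediateField.mem_map _).mpr ⟨y, hy, rfl⟩)
  obtain ⟨ℓ, A, σ, j, hℓ, hℓS, hA, hFr, hj⟩ := s29d_frobDensity L' hfd hstab S g
  refine ⟨ℓ, A, σ, j, (σ ^ j)⁻¹ * g, hℓ, hℓS, hA, hFr, by rw [mul_inv_cancel_left], ?_⟩
  intro x hx
  rw [AlgEquiv.mul_apply, ← hj x (hle hx)]
  exact (σ ^ j).symm_apply_apply x

section Two

variable {A : Type*} [CommRing A] [Nontrivial A] {V : Type*} [AddCommGroup V] [Module A V]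

/-- the power-trace sequence: `s₀ = 2`, `s₁ = t`, `s_{j+2} = t s_{j+1} − d s_j`. -/
def s59k_ptr (t d : A) : ℕ → A
  | 0 => 2
  | 1 => t
  | (n + 2) => t * s59k_ptr t d (n + 1) - d * s59k_ptr t d n

/-- the characteristic polynomial in rank two (no domain hypothesis). -/
theorem s59k_charpoly_two (b : Module.Basis (Fin 2) A V) (f : Module.End A V) :
    haveI := Module.Free.of_basis b
    haveI := Module.Finite.of_basis b
    f.charpoly = X ^ 2 - C (LinearMap.trace A V f) * X + C (LinearMap.det f) := by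
  haveI := Module.Free.of_basis b
  haveI := Module.Finite.of_basis b
  rw [← LinearMap.charpoly_toMatrix f b, Matrix.charpoly_fin_two,
    ← LinearMap.trace_eq_matrix_trace A b f, LinearMap.det_toMatrix b f]

/-- Cayley–Hamilton in rank two. -/
theorem s59k_cayley_two (b : Module.Basis (Fin 2) A V) (f : Module.End A V) :
    f * f = (LinearMap.trace A V f) • f - (LinearMap.det f) • (1 : Module.End A V) := by
  haveI := Module.Free.of_basis b
  haveI := Module.Finite.of_basis b
  have h1 := LinearMap.aeval_self_charpoly f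
  rw [s59k_charpoly_two b f] at h1
  simp only [map_add, map_sub, map_mul, map_pow, aeval_X, aeval_C, Algebra.algebraMap_eq_smul_one,
    smul_mul_assoc, one_mul] at h1
  rw [pow_two] at h1
  rw [eq_sub_iff_add_eq, ← sub_eq_zero]
  rw [← h1]
  abel

/-- the trace of a power, in rank two. -/
theorem s59k_trace_pow (b : Module.Basis (Fin 2) A V) (f : Module.End A V) (j : ℕ) :
    LinearMap.trace A V (f ^ j) = s59k_ptr (LinearMap.trace A V f) (LinearMap.det f) j := by
  haveI := Module.Free.of_basis b
  haveI := Module.Finite.of_basis b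
  induction j using Nat.twoStepInduction with
  | zero =>
    rw [pow_zero, LinearMap.trace_one, Module.finrank_eq_card_basis b]
    simp [s59k_ptr]
  | one => rw [pow_one]; rfl
  | more n h0 h1 =>
    have hCH := s59k_cayley_two b f
    have e : f ^ (n + 2) = (LinearMap.trace A V f) • f ^ (n + 1) - (LinearMap.det f) • f ^ n := by
      rw [pow_succ, pow_succ, mul_assoc, hCH, mul_sub, mul_smul_comm, mul_smul_comm, mul_one,
        ← pow_succ]
    rw [e, map_sub, map_smul, map_smul, h0, h1]
    rfl

/-- congruent endomorphisms have congruent trace and determinant (rank two). -/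
theorem s59k_trace_det_cong (J : Ideal A) (b : Module.Basis (Fin 2) A V) (f f' : Module.End A V)
    (hf : ∀ v : V, f v - f' v ∈ J • (⊤ : Submodule A V)) :
    LinearMap.trace A V f - LinearMap.trace A V f' ∈ J ∧
      LinearMap.det f - LinearMap.det f' ∈ J := by
  have hrepr : ∀ x : V, x ∈ J • (⊤ : Submodule A V) → ∀ i, b.repr x i ∈ J := by
    intro x hx
    refine Submodule.smul_induction_on hx ?_ ?_
    · intro a ha w _ i
      rw [map_smul, Finsupp.smul_apply, smul_eq_mul]
      exact J.mul_mem_right _ ha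
    · intro x y hx hy i
      rw [map_add, Finsupp.add_apply]
      exact J.add_mem (hx i) (hy i)
  set M := LinearMap.toMatrix b b f with hM
  set M' := LinearMap.toMatrix b b f' with hM'
  have hent : ∀ i j, M i j - M' i j ∈ J := by
    intro i j
    have h1 := hrepr _ (hf (b j)) i
    rw [map_sub, Finsupp.sub_apply] at h1
    rw [hM, hM', LinearMap.toMatrix_apply, LinearMap.toMatrix_apply]
    exact h1
  constructor
  · rw [LinearMap.trace_eq_matrix_trace A b f, LinearMap.trace_eq_matrix_trace A b f',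
      Matrix.trace_fin_two, Matrix.trace_fin_two]
    have e : M 0 0 + M 1 1 - (M' 0 0 + M' 1 1) = (M 0 0 - M' 0 0) + (M 1 1 - M' 1 1) := by ring
    rw [e]
    exact J.add_mem (hent 0 0) (hent 1 1)
  · rw [← LinearMap.det_toMatrix b f, ← LinearMap.det_toMatrix b f', Matrix.det_fin_two,
      Matrix.det_fin_two]
    have e : M 0 0 * M 1 1 - M 0 1 * M 1 0 - (M' 0 0 * M' 1 1 - M' 0 1 * M' 1 0) =
        (M 0 0 - M' 0 0) * M 1 1 + M' 0 0 * (M 1 1 - M' 1 1) - (M 0 1 - M' 0 1) * M 1 0 -
          M' 0 1 * (M 1 0 - M' 1 0) := by ring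
    rw [e]
    exact J.sub_mem (J.sub_mem (J.add_mem (J.mul_mem_right _ (hent 0 0))
      (J.mul_mem_left _ (hent 1 1))) (J.mul_mem_right _ (hent 0 1))) (J.mul_mem_left _ (hent 1 0))

/-- linear maps preserve `J • ⊤`. -/
theorem s59k_map_smul_top (J : Ideal A) (f : Module.End A V) {x : V}
    (hx : x ∈ J • (⊤ : Submodule A V)) : f x ∈ J • (⊤ : Submodule A V) := by
  refine Submodule.smul_induction_on hx ?_ ?_
  · intro a ha w _
    rw [map_smul]
    exact Submodule.smul_mem_smul ha Submodule.mem_top
  · intro x y hx hy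
    rw [map_add]
    exact Submodule.add_mem _ hx hy

end Two

section CharUniq

variable {A : Type} [CommRing A] [IsLocalRing A] [IsNoetherianRing A]

/-- an element in all powers of the maximal ideal is zero. -/
theorem s59k_eq_of_forall_sub_mem {x y : A} (h : ∀ m : ℕ, x - y ∈ maximalIdeal A ^ m) : x = y := by
  have hK := Ideal.iInf_pow_eq_bot_of_isLocalRing (maximalIdeal A)
    (Ideal.IsPrime.ne_top inferInstance)
  have : x - y ∈ (⨅ i : ℕ, maximalIdeal A ^ i) := by
    rw [Ideal.mem_iInf]
    exact h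
  rw [hK, Ideal.mem_bot] at this
  exact sub_eq_zero.mp this

/-- trace and determinant of `ρ g` are congruent to the power-trace expressions at a Frobenius. -/
theorem s59k_trdet_approx (ρ : GaloisRepAdic A) (m : ℕ) (σ h : GQ) (j : ℕ)
    (hh : ∀ v : ρ.V, ρ.ρ h v - v ∈ (maximalIdeal A ^ m) • (⊤ : Submodule A ρ.V)) :
    LinearMap.trace A ρ.V (ρ.ρ (σ ^ j * h)) -
        s59k_ptr (LinearMap.trace A ρ.V (ρ.ρ σ)) (LinearMap.det (ρ.ρ σ)) j ∈ maximalIdeal A ^ m ∧
      LinearMap.det (ρ.ρ (σ ^ j * h)) - LinearMap.det (ρ.ρ σ) ^ j ∈ maximalIdeal A ^ m := by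
  let b : Module.Basis (Fin 2) A ρ.V := Module.finBasisOfFinrankEq A ρ.V ρ.finrank_eq
  have hc := s59k_trace_det_cong (maximalIdeal A ^ m) b (ρ.ρ (σ ^ j * h)) (ρ.ρ σ ^ j) (by
    intro v
    rw [map_mul, map_pow, Module.End.mul_apply, ← map_sub]
    exact s59k_map_smul_top _ _ (hh v))
  rw [s59k_trace_pow b, map_pow] at hc
  exact hc

/-- **[CHAR-UNIQ]**: the Frobenius characteristic polynomials outside a finite set determine all
characteristic polynomials. -/
theorem s59k_charpoly_unique (ρ₁ ρ₂ : GaloisRepAdic A) (S : Finset ℕ)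
    (h : ∀ ℓ : ℕ, ℓ.Prime → ℓ ∉ S → ∀ P : ValuationSubring Qbar, P.LiesOverPrime ℓ →
      ∀ σ : GQ, P.IsFrobeniusAt σ ℓ → (ρ₁.ρ σ).charpoly = (ρ₂.ρ σ).charpoly) (g : GQ) :
    LinearMap.trace A ρ₁.V (ρ₁.ρ g) = LinearMap.trace A ρ₂.V (ρ₂.ρ g) ∧
      LinearMap.det (ρ₁.ρ g) = LinearMap.det (ρ₂.ρ g) := by
  classical
  let b₁ : Module.Basis (Fin 2) A ρ₁.V := Module.finBasisOfFinrankEq A ρ₁.V ρ₁.finrank_eq
  let b₂ : Module.Basis (Fin 2) A ρ₂.V := Module.finBasisOfFinrankEq A ρ₂.V ρ₂.finrank_eq
  have key : ∀ m : ℕ,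
      LinearMap.trace A ρ₁.V (ρ₁.ρ g) - LinearMap.trace A ρ₂.V (ρ₂.ρ g) ∈ maximalIdeal A ^ m ∧
      LinearMap.det (ρ₁.ρ g) - LinearMap.det (ρ₂.ρ g) ∈ maximalIdeal A ^ m := by
    intro m
    obtain ⟨L₁, hL₁, h₁⟩ := ρ₁.isAdicContinuous m
    obtain ⟨L₂, hL₂, h₂⟩ := ρ₂.isAdicContinuous m
    have hfd : FiniteDimensional ℚ (L₁ ⊔ L₂ : IntermediateField ℚ Qbar) :=
      IntermediateField.finiteDimensional_sup L₁ L₂
    obtain ⟨ℓ, P, σ, j, k, hℓ, hℓS, hP, hFr, hg, hfix⟩ := s59k_density (L₁ ⊔ L₂) hfd S g
    have hch := h ℓ hℓ hℓS P hP σ hFr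
    rw [s59k_charpoly_two b₁, s59k_charpoly_two b₂] at hch
    have htr : LinearMap.trace A ρ₁.V (ρ₁.ρ σ) = LinearMap.trace A ρ₂.V (ρ₂.ρ σ) := by
      have := congrArg (fun f : A[X] => f.coeff 1) hch
      simp only [coeff_add, coeff_sub, coeff_X_pow, coeff_C_mul, coeff_X_one, coeff_C] at this
      simpa using this
    have hdet : LinearMap.det (ρ₁.ρ σ) = LinearMap.det (ρ₂.ρ σ) := by
      have := congrArg (fun f : A[X] => f.coeff 0) hch
      simp only [coeff_add, coeff_sub, coeff_X_pow, coeff_C_mul, coeff_X_zero, coeff_C_zero] at this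
      simpa using this
    obtain ⟨a1, a2⟩ := s59k_trdet_approx ρ₁ m σ k j
      (h₁ k fun x hx => hfix x (le_sup_left (a := L₁) hx))
    obtain ⟨c1, c2⟩ := s59k_trdet_approx ρ₂ m σ k j
      (h₂ k fun x hx => hfix x (le_sup_right (b := L₂) hx))
    rw [← hg] at a1 a2 c1 c2
    rw [htr, hdet] at a1
    rw [hdet] at a2
    constructor
    · have := Ideal.sub_mem _ a1 c1
      rwa [sub_sub_sub_cancel_right] at this
    · have := Ideal.sub_mem _ a2 c2
      rwa [sub_sub_sub_cancel_right] at this
  exact ⟨s59k_eq_of_forall_sub_mem fun m => (key m).1, s59k_eq_of_forall_sub_mem fun m => (key m).2⟩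

/-- [CHAR-UNIQ], characteristic-polynomial form. -/
theorem s59k_charpoly_unique' (ρ₁ ρ₂ : GaloisRepAdic A) (S : Finset ℕ)
    (h : ∀ ℓ : ℕ, ℓ.Prime → ℓ ∉ S → ∀ P : ValuationSubring Qbar, P.LiesOverPrime ℓ →
      ∀ σ : GQ, P.IsFrobeniusAt σ ℓ → (ρ₁.ρ σ).charpoly = (ρ₂.ρ σ).charpoly) (g : GQ) :
    (ρ₁.ρ g).charpoly = (ρ₂.ρ g).charpoly := by
  let b₁ : Module.Basis (Fin 2) A ρ₁.V := Module.finBasisOfFinrankEq A ρ₁.V ρ₁.finrank_eq
  let b₂ : Module.Basis (Fin 2) A ρ₂.V := Module.finBasisOfFinrankEq A ρ₂.V ρ₂.finrank_eq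
  obtain ⟨h1, h2⟩ := s59k_charpoly_unique ρ₁ ρ₂ S h g
  rw [s59k_charpoly_two b₁, s59k_charpoly_two b₂, h1, h2]

end CharUniq

section NS

variable {k : Type*} [Field k] {V : Type*} [AddCommGroup V] [Module k V]
  {G : Type*} [Group G]

/-- **(NS), field form.**  An irreducible two-dimensional representation over a field of
characteristic `≠ 2` contains an element without the eigenvalue `1`. -/
theorem s59k_exists_ne_field (h2 : (2 : k) ≠ 0) (hV : Module.finrank k V = 2)
    (r : G →* Module.End k V)
    (hirr : ∀ W : Submodule k V, (∀ g : G, ∀ x ∈ W, r g x ∈ W) → W = ⊥ ∨ W = ⊤) :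
    ∃ g : G, 1 - LinearMap.trace k V (r g) + LinearMap.det (r g) ≠ 0 := by
  classical
  by_contra hcon
  push Not at hcon
  haveI : Module.Finite k V := Module.finite_of_finrank_eq_succ hV
  haveI : Nontrivial V := Module.nontrivial_of_finrank_pos (R := k) (by rw [hV]; norm_num)
  let b : Module.Basis (Fin 2) k V := Module.finBasisOfFinrankEq k V hV
  -- (a) the factorisation
  have hfac : ∀ g : G, (r g - 1) * (r g - LinearMap.det (r g) • (1 : Module.End k V)) = 0 := by
    intro g
    have hCH := s59k_cayley_two b (r g)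
    have ht : LinearMap.trace k V (r g) = 1 + LinearMap.det (r g) := by
      linear_combination -(hcon g)
    rw [ht] at hCH
    simp only [sub_mul, mul_sub, one_mul, mul_one, mul_smul_comm]
    rw [hCH]
    module
  -- (b) the kernel of the determinant
  let dhom : G →* k := (LinearMap.det : Module.End k V →* k).comp r
  have hdunit : ∀ g : G, LinearMap.det (r g) ≠ 0 := by
    intro g h0
    have : LinearMap.det (r g) * LinearMap.det (r g⁻¹) = 1 := by
      rw [← map_mul, ← map_mul, mul_inv_cancel, map_one, map_one]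
    rw [h0, zero_mul] at this
    exact zero_ne_one this
  let H : Subgroup G :=
    { carrier := {g | LinearMap.det (r g) = 1}
      mul_mem' := by
        intro a c ha hc
        simp only [Set.mem_setOf_eq] at ha hc ⊢
        rw [map_mul, map_mul, ha, hc, one_mul]
      one_mem' := by simp
      inv_mem' := by
        intro a ha
        simp only [Set.mem_setOf_eq] at ha ⊢
        have : LinearMap.det (r a) * LinearMap.det (r a⁻¹) = 1 := by
          rw [← map_mul, ← map_mul, mul_inv_cancel, map_one, map_one]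
        rwa [ha, one_mul] at this }
  have hHmem : ∀ g : G, g ∈ H ↔ LinearMap.det (r g) = 1 := fun g => Iff.rfl
  have hH : ∀ h ∈ H, (r h - 1) * (r h - 1) = 0 := by
    intro h hh
    have := hfac h
    rwa [(hHmem h).mp hh, one_smul] at this
  have hconjH : ∀ (g : G) (h : G), h ∈ H → g⁻¹ * h * g ∈ H := by
    intro g h hh
    rw [hHmem] at hh ⊢
    rw [map_mul, map_mul, map_mul, map_mul, hh, mul_one, ← map_mul, ← map_mul, inv_mul_cancel,
      map_one, map_one]
  -- (c) the chain: `H` acts trivially
  have h2V : ∀ x : V, x + x = 0 → x = 0 := by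
    intro x hx
    have : (2 : k) • x = 0 := by rw [two_smul]; exact hx
    rcases smul_eq_zero.mp this with h | h
    · exact absurd h h2
    · exact h
  obtain ⟨l, -, hQ, hl⟩ := s36k_chain r h2V H hH
  let W : Submodule k V :=
    { carrier := {v | ∀ h ∈ H, r h v = v}
      add_mem' := by
        intro x y hx hy h hh
        rw [map_add, hx h hh, hy h hh]
      zero_mem' := by
        intro h hh
        rw [map_zero]
      smul_mem' := by
        intro c x hx h hh
        rw [map_smul, hx h hh] }
  have hWmem : ∀ v : V, v ∈ W ↔ ∀ h ∈ H, r h v = v := fun v => Iff.rfl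
  have hWstab : ∀ g : G, ∀ x ∈ W, r g x ∈ W := by
    intro g x hx h hh
    have h1 := hx _ (hconjH g h hh)
    have h3 : r h (r g x) = r g (r (g⁻¹ * h * g) x) := by
      rw [← Module.End.mul_apply, ← Module.End.mul_apply, ← map_mul, ← map_mul]
      congr 2
      group
    rw [h3, h1]
  have hWne : W ≠ ⊥ := by
    intro hbot
    apply hQ
    apply LinearMap.ext
    intro v
    have hv : s36k_word r l v ∈ W := by
      intro h hh
      have := congrArg (fun f : Module.End k V => f v) (hl h hh)
      simp only [Module.End.mul_apply, LinearMap.sub_apply, Module.End.one_apply,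
        LinearMap.zero_apply] at this
      exact sub_eq_zero.mp this
    rw [hbot, Submodule.mem_bot] at hv
    rw [hv, LinearMap.zero_apply]
  have hWtop : W = ⊤ := (hirr W hWstab).resolve_left hWne
  have hHtriv : ∀ h ∈ H, r h = 1 := by
    intro h hh
    apply LinearMap.ext
    intro v
    have hv : v ∈ W := by rw [hWtop]; exact Submodule.mem_top
    rw [hv h hh, Module.End.one_apply]
  -- (d) commutativity
  have hcomm : ∀ g₁ g₂ : G, r g₁ * r g₂ = r g₂ * r g₁ := by
    intro g₁ g₂
    have hmem : g₁ * g₂ * g₁⁻¹ * g₂⁻¹ ∈ H := by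
      rw [hHmem]
      have e1 : LinearMap.det (r g₁) * LinearMap.det (r g₁⁻¹) = 1 := by
        rw [← map_mul, ← map_mul, mul_inv_cancel, map_one, map_one]
      have e2 : LinearMap.det (r g₂) * LinearMap.det (r g₂⁻¹) = 1 := by
        rw [← map_mul, ← map_mul, mul_inv_cancel, map_one, map_one]
      rw [map_mul, map_mul, map_mul, map_mul, map_mul, map_mul]
      linear_combination (LinearMap.det (r g₂) * LinearMap.det (r g₂⁻¹)) * e1 + e2
    have h1 := hHtriv _ hmem
    have h3 : r g₁ * r g₂ = r (g₁ * g₂ * g₁⁻¹ * g₂⁻¹) * (r g₂ * r g₁) := by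
      rw [← map_mul, ← map_mul, ← map_mul]
      congr 1
      group
    rw [h3, h1, one_mul]
  -- (e) an invariant line
  by_cases hall : ∀ g : G, r g = 1
  · obtain ⟨v, hv⟩ := exists_ne (0 : V)
    have hst : ∀ g : G, ∀ x ∈ (k ∙ v), r g x ∈ (k ∙ v) := by
      intro g x hx
      rw [hall g, Module.End.one_apply]
      exact hx
    rcases hirr (k ∙ v) hst with h | h
    · rw [Submodule.span_singleton_eq_bot] at h
      exact hv h
    · have h3 : Module.finrank k (k ∙ v) = 1 := finrank_span_singleton hv
      rw [h, finrank_top, hV] at h3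
      norm_num at h3
  · push Not at hall
    obtain ⟨g₀, hg₀⟩ := hall
    let W₁ : Submodule k V := LinearMap.ker (r g₀ - 1)
    have hst : ∀ g : G, ∀ x ∈ W₁, r g x ∈ W₁ := by
      intro g x hx
      rw [LinearMap.mem_ker] at hx ⊢
      have h3 : (r g₀ - 1) (r g x) = r g ((r g₀ - 1) x) := by
        have := congrArg (fun f : Module.End k V => f x) (hcomm g₀ g)
        simp only [Module.End.mul_apply] at this
        rw [LinearMap.sub_apply, LinearMap.sub_apply, Module.End.one_apply, Module.End.one_apply,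
          map_sub, this]
      rw [h3, hx, map_zero]
    rcases hirr W₁ hst with h | h
    · -- the kernel is non-zero
      by_cases hsc : r g₀ - LinearMap.det (r g₀) • (1 : Module.End k V) = 0
      · have hsc' : r g₀ = LinearMap.det (r g₀) • (1 : Module.End k V) := sub_eq_zero.mp hsc
        have ht : LinearMap.trace k V (r g₀) = 2 * LinearMap.det (r g₀) := by
          conv_lhs => rw [hsc']
          rw [map_smul, LinearMap.trace_one, hV, smul_eq_mul]
          push_cast
          ring
        have hd : LinearMap.det (r g₀) = 1 := by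
          have := hcon g₀
          rw [ht] at this
          linear_combination -this
        rw [hd, one_smul] at hsc'
        exact hg₀ hsc'
      · obtain ⟨v, hv⟩ : ∃ v : V, (r g₀ - LinearMap.det (r g₀) • (1 : Module.End k V)) v ≠ 0 := by
          by_contra hc
          push Not at hc
          exact hsc (LinearMap.ext hc)
        have hmem : (r g₀ - LinearMap.det (r g₀) • (1 : Module.End k V)) v ∈ W₁ := by
          rw [LinearMap.mem_ker, ← Module.End.mul_apply, hfac g₀, LinearMap.zero_apply]
        rw [h, Submodule.mem_bot] at hmem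
        exact hv hmem
    · apply hg₀
      apply LinearMap.ext
      intro v
      have hv : v ∈ W₁ := by rw [h]; exact Submodule.mem_top
      rw [LinearMap.mem_ker, LinearMap.sub_apply, sub_eq_zero] at hv
      exact hv

end NS

section NSAdic

open scoped TensorProduct

variable {A : Type} [CommRing A] [IsLocalRing A]

/-- **(NS), adic form.**  If the residual representation of `ρ` is absolutely irreducible and `2` is
a unit, then for every character `c` some `g` has `c(g)² − tr ρ(g) c(g) + det ρ(g)` a unit, i.e.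
`c(g)` is not (even residually) an eigenvalue of `ρ(g)`. -/
theorem s59k_NS (ρ : GaloisRepAdic A) (hirr : ρ.residual.IsAbsolutelyIrreducible)
    (h2 : IsUnit (2 : A)) (c : GQ →* Aˣ) :
    ∃ g : GQ, IsUnit (((c g : Aˣ) : A) ^ 2 - LinearMap.trace A ρ.V (ρ.ρ g) * ((c g : Aˣ) : A) +
      LinearMap.det (ρ.ρ g)) := by
  classical
  let k := ResidueField A
  let K := AlgebraicClosure k
  let φ : A →+* K := (algebraMap k K).comp (algebraMap A k)
  have hφ : ∀ x : A, φ x = algebraMap k K (algebraMap A k x) := fun x => rfl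
  let V₂ := K ⊗[k] (k ⊗[A] ρ.V)
  let rbar : GQ → Module.End K V₂ := fun g => ((ρ.ρ g).baseChange k).baseChange K
  have hrbar_one : rbar 1 = 1 := by
    show ((ρ.ρ 1).baseChange k).baseChange K = 1
    rw [map_one, LinearMap.baseChange_one, LinearMap.baseChange_one]
  have hrbar_mul : ∀ g h : GQ, rbar (g * h) = rbar g * rbar h := by
    intro g h
    show ((ρ.ρ (g * h)).baseChange k).baseChange K = _
    rw [map_mul, LinearMap.baseChange_mul, LinearMap.baseChange_mul]
  have hfr : Module.finrank K V₂ = 2 := by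
    show Module.finrank K (K ⊗[k] (k ⊗[A] ρ.V)) = 2
    rw [Module.finrank_baseChange, Module.finrank_baseChange, ρ.finrank_eq]
  have hirr0 : ∀ W : Submodule K V₂, (∀ σ : GQ, ∀ x ∈ W, rbar σ x ∈ W) → W = ⊥ ∨ W = ⊤ := hirr
  -- the unit `φ (c g)`
  have hcu : ∀ g : GQ, φ ((c g : Aˣ) : A) ≠ 0 := fun g =>
    ((c g).isUnit.map φ).ne_zero
  -- the twisted representation
  let r' : GQ →* Module.End K V₂ :=
    { toFun := fun g => (φ ((c g : Aˣ) : A))⁻¹ • rbar g
      map_one' := by
        rw [hrbar_one]
        simp only [map_one, Units.val_one, inv_one, one_smul]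
      map_mul' := by
        intro g h
        rw [hrbar_mul]
        simp only [map_mul, Units.val_mul, mul_inv_rev, smul_mul_smul_comm]
        congr 1
        exact mul_comm _ _ }
  have hr' : ∀ g : GQ, r' g = (φ ((c g : Aˣ) : A))⁻¹ • rbar g := fun g => rfl
  have hirr' : ∀ W : Submodule K V₂, (∀ g : GQ, ∀ x ∈ W, r' g x ∈ W) → W = ⊥ ∨ W = ⊤ := by
    intro W hW
    refine hirr0 W fun σ x hx => ?_
    have h1 := W.smul_mem (φ ((c σ : Aˣ) : A)) (hW σ x hx)
    rw [hr', LinearMap.smul_apply, smul_smul, mul_inv_cancel₀ (hcu σ), one_smul] at h1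
    exact h1
  have h2K : (2 : K) ≠ 0 := by
    have := (h2.map φ).ne_zero
    rwa [map_ofNat] at this
  obtain ⟨g, hg⟩ := s59k_exists_ne_field h2K hfr r' hirr'
  refine ⟨g, ?_⟩
  -- trace and determinant of the base change
  have htr : LinearMap.trace K V₂ (rbar g) = φ (LinearMap.trace A ρ.V (ρ.ρ g)) := by
    show LinearMap.trace K (K ⊗[k] (k ⊗[A] ρ.V)) (((ρ.ρ g).baseChange k).baseChange K) = _
    rw [LinearMap.trace_baseChange, LinearMap.trace_baseChange, hφ]
  have hdet : LinearMap.det (rbar g) = φ (LinearMap.det (ρ.ρ g)) := by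
    show LinearMap.det (((ρ.ρ g).baseChange k).baseChange K) = _
    rw [LinearMap.det_baseChange, LinearMap.det_baseChange, hφ]
  rw [hr', map_smul, LinearMap.det_smul, hfr, htr, hdet, smul_eq_mul] at hg
  -- clear denominators
  set x : A := ((c g : Aˣ) : A) ^ 2 - LinearMap.trace A ρ.V (ρ.ρ g) * ((c g : Aˣ) : A) +
      LinearMap.det (ρ.ρ g) with hx
  have hφx : φ x ≠ 0 := by
    intro h0
    apply hg
    have e : φ x = φ ((c g : Aˣ) : A) ^ 2 - φ (LinearMap.trace A ρ.V (ρ.ρ g)) * φ ((c g : Aˣ) : A) +
        φ (LinearMap.det (ρ.ρ g)) := by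
      rw [hx, map_add, map_sub, map_mul, map_pow]
    rw [e] at h0
    have hc0 := hcu g
    set y := φ ((c g : Aˣ) : A) with hy
    have e2 : 1 - y⁻¹ * φ (LinearMap.trace A ρ.V (ρ.ρ g)) + y⁻¹ ^ 2 * φ (LinearMap.det (ρ.ρ g)) =
        y⁻¹ ^ 2 * (y ^ 2 - φ (LinearMap.trace A ρ.V (ρ.ρ g)) * y + φ (LinearMap.det (ρ.ρ g))) := by
      have hy1 : y⁻¹ * y = 1 := inv_mul_cancel₀ hc0
      linear_combination (-(1 + y⁻¹ * y) + y⁻¹ * φ (LinearMap.trace A ρ.V (ρ.ρ g))) * hy1
    rw [e2, h0, mul_zero]
  by_contra hnu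
  have hm : x ∈ maximalIdeal A := (IsLocalRing.mem_maximalIdeal x).mpr hnu
  apply hφx
  rw [hφ, IsLocalRing.ResidueField.algebraMap_eq, (IsLocalRing.residue_eq_zero_iff x).mpr hm,
    map_zero]

end NSAdic

end Fermat.Agent.Lib.S59
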