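/-
Programme R (S59), node C8a (helper2, prefix `s59b_`): **(Q) by density**.

A quadratic relation `ρΛ(σ)² − (s(σ) tr ρ(σ)) ρΛ(σ) + s(σ)² det ρ(σ) = 0` at the Frobenius elements
outside a finite set of primes (`ρ` a rank-two `GaloisRepAdic`, `s` a continuous character, `ρΛ` a
continuous action on a finite module over a noetherian local ring) holds at EVERY element of `G_ℚ`:
this is the hypothesis `hQ` of `s59k_KEND_abs`.

* `s59b_ptr_scale`   : `ptr (c t) (c² d) j = c^j ptr t d j`;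
* `s59b_pow_quad`    : `f² = t f − d  ⟹  (f^j)² = ptr t d j • f^j − d^j`;
* `s59b_eq_zero_of_forall_mem` : Krull separatedness of a finite module;
* **`s59b_Q_of_frob`**  : the abstract density statement;
* **`s59b_rhoX_Q`**  : the instance on the eigen-lattice `Λ_x` (`s59b_rhoX`), from Eichler–Shimura
                       (`s59b_rhoX_frobQuad`) and the matching of Frobenius characteristic polynomials.
-/
import Mathlib
import Fermat.Agent.Lib.S30.LIface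
import Fermat.Agent.Lib.S59.KChar
import Fermat.Agent.Lib.S59.BKFinal

set_option autoImplicit false
set_option linter.unusedSectionVars false
set_option linter.unusedVariables false

noncomputable section

namespace Fermat.Agent.Lib.S59

open IsLocalRing Fermat.Agent.Lib.S29 Fermat.Agent.Lib.S30

local notation "Qbar" => AlgebraicClosure ℚ
local notation "GQ" => (AlgebraicClosure ℚ ≃ₐ[ℚ] AlgebraicClosure ℚ)

section Alg

variable {A : Type*} [CommRing A] [Nontrivial A] {V : Type*} [AddCommGroup V] [Module A V]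

/-- scaling of the power-trace sequence. -/
theorem s59b_ptr_scale (c t d : A) :
    ∀ j : ℕ, s59k_ptr (c * t) (c ^ 2 * d) j = c ^ j * s59k_ptr t d j := by
  have key : ∀ j : ℕ, s59k_ptr (c * t) (c ^ 2 * d) j = c ^ j * s59k_ptr t d j ∧
      s59k_ptr (c * t) (c ^ 2 * d) (j + 1) = c ^ (j + 1) * s59k_ptr t d (j + 1) := by
    intro j
    induction j with
    | zero =>
      refine ⟨?_, ?_⟩
      · simp [s59k_ptr]
      · simp [s59k_ptr]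
    | succ n ih =>
      refine ⟨ih.2, ?_⟩
      show (c * t) * s59k_ptr (c * t) (c ^ 2 * d) (n + 1) -
          (c ^ 2 * d) * s59k_ptr (c * t) (c ^ 2 * d) n =
        c ^ (n + 1 + 1) * (t * s59k_ptr t d (n + 1) - d * s59k_ptr t d n)
      rw [ih.1, ih.2]
      ring
  exact fun j => (key j).1

/-- if `f² = t f − d` then `(f^j)² = ptr t d j • f^j − d^j`. -/
theorem s59b_pow_quad (f : Module.End A V) (t d : A)
    (h : ∀ x : V, f (f x) - t • f x + d • x = 0) (j : ℕ) (x : V) :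
    (f ^ j) ((f ^ j) x) - s59k_ptr t d j • (f ^ j) x + d ^ j • x = 0 := by
  set G : Module.End A V := t • (1 : Module.End A V) - f with hG
  have hff : ∀ x : V, f (f x) = t • f x - d • x := by
    intro x
    have := h x
    rw [sub_add, sub_eq_zero] at this
    exact this
  have hFG : f * G = d • (1 : Module.End A V) := by
    apply LinearMap.ext
    intro x
    rw [Module.End.mul_apply, hG, LinearMap.sub_apply, LinearMap.smul_apply, Module.End.one_apply,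
      map_sub, map_smul, hff, LinearMap.smul_apply, Module.End.one_apply]
    abel
  have hGF : G * f = d • (1 : Module.End A V) := by
    apply LinearMap.ext
    intro x
    rw [Module.End.mul_apply, hG, LinearMap.sub_apply, LinearMap.smul_apply, Module.End.one_apply,
      hff, LinearMap.smul_apply, Module.End.one_apply]
    abel
  have hc : Commute f G := hFG.trans hGF.symm
  have hsum : f + G = t • (1 : Module.End A V) := by rw [hG]; abel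
  have key : ∀ j : ℕ, f ^ (j + 1 + 1) + G ^ (j + 1 + 1) =
      (f + G) * (f ^ (j + 1) + G ^ (j + 1)) - (f * G) * (f ^ j + G ^ j) := by
    intro j
    have e1 : G * f ^ (j + 1) = f * G * f ^ j := by rw [pow_succ', ← mul_assoc, hc.eq]
    have e2 : f * G ^ (j + 1) = f * G * G ^ j := by rw [pow_succ', mul_assoc]
    rw [add_mul, mul_add, mul_add, mul_add, e1, e2, ← pow_succ', ← pow_succ']
    abel
  have hP : ∀ j : ℕ, f ^ j + G ^ j = s59k_ptr t d j • (1 : Module.End A V) ∧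
      f ^ (j + 1) + G ^ (j + 1) = s59k_ptr t d (j + 1) • (1 : Module.End A V) := by
    intro j
    induction j with
    | zero =>
      refine ⟨?_, ?_⟩
      · rw [pow_zero, pow_zero]
        show (1 : Module.End A V) + 1 = (2 : A) • (1 : Module.End A V)
        rw [two_smul]
      · rw [zero_add, pow_one, pow_one, hsum]
        rfl
    | succ n ih =>
      refine ⟨ih.2, ?_⟩
      rw [key n, ih.1, ih.2, hsum, hFG]
      show _ = (t * s59k_ptr t d (n + 1) - d * s59k_ptr t d n) • (1 : Module.End A V)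
      rw [smul_mul_smul_comm, smul_mul_smul_comm, one_mul, sub_smul]
  have hfin : f ^ j * f ^ j - s59k_ptr t d j • f ^ j + d ^ j • (1 : Module.End A V) = 0 := by
    have h1 : s59k_ptr t d j • f ^ j = (f ^ j + G ^ j) * f ^ j := by
      rw [(hP j).1, smul_mul_assoc, one_mul]
    have h2 : d ^ j • (1 : Module.End A V) = f ^ j * G ^ j := by
      rw [← hc.mul_pow, hFG, smul_pow, one_pow]
    rw [h1, h2, add_mul, (hc.pow_pow j j).eq]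
    abel
  have := LinearMap.congr_fun hfin x
  rw [LinearMap.add_apply, LinearMap.sub_apply, Module.End.mul_apply, LinearMap.smul_apply,
    LinearMap.smul_apply, Module.End.one_apply, LinearMap.zero_apply] at this
  exact this

end Alg

section Dens

variable {𝒪 : Type} [CommRing 𝒪] [IsLocalRing 𝒪] [IsNoetherianRing 𝒪]
  {Λ : Type} [AddCommGroup Λ] [Module 𝒪 Λ] [Module.Finite 𝒪 Λ]

/-- Krull: a vector of a finite module lying in all `𝔪^m Λ` is zero. -/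
theorem s59b_eq_zero_of_forall_mem {x : Λ}
    (h : ∀ m : ℕ, x ∈ (maximalIdeal 𝒪 ^ m) • (⊤ : Submodule 𝒪 Λ)) : x = 0 := by
  have hK := Ideal.iInf_pow_smul_eq_bot_of_isLocalRing (M := Λ) (maximalIdeal 𝒪)
    (Ideal.IsPrime.ne_top inferInstance)
  have hx : x ∈ (⨅ i : ℕ, (maximalIdeal 𝒪 ^ i) • (⊤ : Submodule 𝒪 Λ)) := by
    rw [Submodule.mem_iInf]
    exact h
  rw [hK, Submodule.mem_bot] at hx
  exact hx

/-- the quadratic expression is stable under congruences. -/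
theorem s59b_quad_cong (J : Ideal 𝒪) (G E : Module.End 𝒪 Λ) (T T' D D' : 𝒪)
    (hGE : ∀ x : Λ, G x - E x ∈ J • (⊤ : Submodule 𝒪 Λ)) (hT : T - T' ∈ J) (hD : D - D' ∈ J)
    (hE : ∀ x : Λ, E (E x) - T' • E x + D' • x = 0) (x : Λ) :
    G (G x) - T • G x + D • x ∈ J • (⊤ : Submodule 𝒪 Λ) := by
  have e : G (G x) - T • G x + D • x =
      G (G x - E x) + (G (E x) - E (E x)) - T • (G x - E x) - (T - T') • E x + (D - D') • x +
        (E (E x) - T' • E x + D' • x) := by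
    rw [map_sub, smul_sub, sub_smul, sub_smul]
    abel
  rw [e, hE x, add_zero]
  refine Submodule.add_mem _ (Submodule.sub_mem _ (Submodule.sub_mem _ (Submodule.add_mem _
    (s59k_map_smul_top J G (hGE x)) (hGE (E x))) (Submodule.smul_mem _ _ (hGE x)))
    (Submodule.smul_mem_smul hT Submodule.mem_top)) (Submodule.smul_mem_smul hD Submodule.mem_top)

/-- **(Q) by density.**  A Frobenius-wise quadratic relation with the characteristic polynomial of a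
twist of a rank-two representation propagates to all of `G_ℚ`. -/
theorem s59b_Q_of_frob (ρ : GaloisRepAdic 𝒪) (stw : GQ →* 𝒪ˣ) (hstw : s30_CharContinuous stw)
    (ρΛ : GQ →* Module.End 𝒪 Λ) (hρΛ : GaloisActionIsAdicContinuous 𝒪 ρΛ) (S : Finset ℕ)
    (hfrob : ∀ ℓ : ℕ, ℓ.Prime → ℓ ∉ S → ∀ P : ValuationSubring Qbar, P.LiesOverPrime ℓ →
      ∀ σ : GQ, P.IsFrobeniusAt σ ℓ → ∀ x : Λ,
        ρΛ σ (ρΛ σ x) - (((stw σ : 𝒪ˣ) : 𝒪) * LinearMap.trace 𝒪 ρ.V (ρ.ρ σ)) • ρΛ σ x +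
          (((stw σ : 𝒪ˣ) : 𝒪) ^ 2 * LinearMap.det (ρ.ρ σ)) • x = 0)
    (g : GQ) (x : Λ) :
    ρΛ g (ρΛ g x) - (((stw g : 𝒪ˣ) : 𝒪) * LinearMap.trace 𝒪 ρ.V (ρ.ρ g)) • ρΛ g x +
      (((stw g : 𝒪ˣ) : 𝒪) ^ 2 * LinearMap.det (ρ.ρ g)) • x = 0 := by
  apply s59b_eq_zero_of_forall_mem (𝒪 := 𝒪)
  intro m
  obtain ⟨L₁, hL₁, h₁⟩ := hρΛ m
  obtain ⟨L₂, hL₂, h₂⟩ := ρ.isAdicContinuous m
  obtain ⟨L₃, hL₃, h₃⟩ := hstw m
  have hfd12 : FiniteDimensional ℚ (L₁ ⊔ L₂ : IntermediateField ℚ Qbar) :=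
    IntermediateField.finiteDimensional_sup L₁ L₂
  have hfd : FiniteDimensional ℚ ((L₁ ⊔ L₂) ⊔ L₃ : IntermediateField ℚ Qbar) :=
    IntermediateField.finiteDimensional_sup (L₁ ⊔ L₂) L₃
  obtain ⟨ℓ, P, σ, j, k, hℓ, hℓS, hP, hFr, hg, hfix⟩ := s59k_density ((L₁ ⊔ L₂) ⊔ L₃) hfd S g
  have hk₁ := h₁ k fun y hy => hfix y (le_sup_left (b := L₃) (le_sup_left (b := L₂) hy))
  have hk₂ := h₂ k fun y hy => hfix y (le_sup_left (b := L₃) (le_sup_right (a := L₁) hy))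
  have hk₃ := h₃ k fun y hy => hfix y (le_sup_right (a := L₁ ⊔ L₂) hy)
  obtain ⟨a1, a2⟩ := s59k_trdet_approx ρ m σ k j hk₂
  rw [← hg] at a1 a2
  set c : 𝒪 := ((stw σ : 𝒪ˣ) : 𝒪) with hc
  set u : 𝒪 := ((stw k : 𝒪ˣ) : 𝒪) with hu
  set τ : 𝒪 := LinearMap.trace 𝒪 ρ.V (ρ.ρ σ) with hτ
  set δ : 𝒪 := LinearMap.det (ρ.ρ σ) with hδ
  have hsg : ((stw g : 𝒪ˣ) : 𝒪) = c ^ j * u := by
    rw [hg, map_mul, map_pow, Units.val_mul, Units.val_pow_eq_pow_val]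
  have hE := s59b_pow_quad (ρΛ σ) (c * τ) (c ^ 2 * δ) (hfrob ℓ hℓ hℓS P hP σ hFr) j
  rw [s59b_ptr_scale] at hE
  refine s59b_quad_cong (maximalIdeal 𝒪 ^ m) (ρΛ g) (ρΛ σ ^ j) _ (c ^ j * s59k_ptr τ δ j) _
    ((c ^ 2 * δ) ^ j) ?_ ?_ ?_ hE x
  · intro y
    rw [hg, map_mul, map_pow, Module.End.mul_apply, ← map_sub]
    exact s59k_map_smul_top _ _ (hk₁ y)
  · rw [hsg]
    have e : c ^ j * u * LinearMap.trace 𝒪 ρ.V (ρ.ρ g) - c ^ j * s59k_ptr τ δ j =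
        c ^ j * ((u - 1) * LinearMap.trace 𝒪 ρ.V (ρ.ρ g) +
          (LinearMap.trace 𝒪 ρ.V (ρ.ρ g) - s59k_ptr τ δ j)) := by ring
    rw [e]
    exact Ideal.mul_mem_left _ _ (Ideal.add_mem _ (Ideal.mul_mem_right _ _ hk₃) a1)
  · rw [hsg]
    have e : (c ^ j * u) ^ 2 * LinearMap.det (ρ.ρ g) - (c ^ 2 * δ) ^ j =
        (c ^ j) ^ 2 * ((u - 1) * ((u + 1) * LinearMap.det (ρ.ρ g)) +
          (LinearMap.det (ρ.ρ g) - δ ^ j)) := by ring
    rw [e]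
    exact Ideal.mul_mem_left _ _ (Ideal.add_mem _ (Ideal.mul_mem_right _ _ hk₃) a2)

/-- `s59b_Q_of_frob` for an action on a submodule (instance paths as produced by elaboration on a
coerced submodule). -/
theorem s59b_Q_of_frob_sub {W : Type} [AddCommGroup W] [Module 𝒪 W] (N : Submodule 𝒪 W)
    (hN : Module.Finite 𝒪 N)
    (ρ : GaloisRepAdic 𝒪) (stw : GQ →* 𝒪ˣ) (hstw : s30_CharContinuous stw)
    (ρΛ : GQ →* Module.End 𝒪 N) (hρΛ : GaloisActionIsAdicContinuous 𝒪 (V := N) ρΛ) (S : Finset ℕ)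
    (hfrob : ∀ ℓ : ℕ, ℓ.Prime → ℓ ∉ S → ∀ P : ValuationSubring Qbar, P.LiesOverPrime ℓ →
      ∀ σ : GQ, P.IsFrobeniusAt σ ℓ → ∀ x : N,
        ρΛ σ (ρΛ σ x) - (((stw σ : 𝒪ˣ) : 𝒪) * LinearMap.trace 𝒪 ρ.V (ρ.ρ σ)) • ρΛ σ x +
          (((stw σ : 𝒪ˣ) : 𝒪) ^ 2 * LinearMap.det (ρ.ρ σ)) • x = 0)
    (g : GQ) (x : N) :
    ρΛ g (ρΛ g x) - (((stw g : 𝒪ˣ) : 𝒪) * LinearMap.trace 𝒪 ρ.V (ρ.ρ g)) • ρΛ g x +
      (((stw g : 𝒪ˣ) : 𝒪) ^ 2 * LinearMap.det (ρ.ρ g)) • x = 0 :=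
  s59b_Q_of_frob (Λ := N) ρ stw hstw ρΛ hρΛ S hfrob g x

/-- variant of `s59b_Q_of_frob_sub` with the Frobenius relation given with auxiliary coefficients. -/
theorem s59b_Q_of_frob_sub' {W : Type} [AddCommGroup W] [Module 𝒪 W] (N : Submodule 𝒪 W)
    (hN : Module.Finite 𝒪 N)
    (ρ : GaloisRepAdic 𝒪) (stw : GQ →* 𝒪ˣ) (hstw : s30_CharContinuous stw)
    (ρΛ : GQ →* Module.End 𝒪 N) (hρΛ : GaloisActionIsAdicContinuous 𝒪 (V := N) ρΛ) (S : Finset ℕ)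
    (hfrob : ∀ ℓ : ℕ, ℓ.Prime → ℓ ∉ S → ∀ P : ValuationSubring Qbar, P.LiesOverPrime ℓ →
      ∀ σ : GQ, P.IsFrobeniusAt σ ℓ → ∃ t d : 𝒪,
        t = ((stw σ : 𝒪ˣ) : 𝒪) * LinearMap.trace 𝒪 ρ.V (ρ.ρ σ) ∧
        d = ((stw σ : 𝒪ˣ) : 𝒪) ^ 2 * LinearMap.det (ρ.ρ σ) ∧
        ∀ x : N, ρΛ σ (ρΛ σ x) - t • ρΛ σ x + d • x = 0)
    (g : GQ) (x : N) :
    ρΛ g (ρΛ g x) - (((stw g : 𝒪ˣ) : 𝒪) * LinearMap.trace 𝒪 ρ.V (ρ.ρ g)) • ρΛ g x +
      (((stw g : 𝒪ˣ) : 𝒪) ^ 2 * LinearMap.det (ρ.ρ g)) • x = 0 := by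
  refine s59b_Q_of_frob_sub N hN ρ stw hstw ρΛ hρΛ S ?_ g x
  intro ℓ hℓ hℓS P hP σ hσ y
  obtain ⟨t, d, rfl, rfl, h⟩ := hfrob ℓ hℓ hℓS P hP σ hσ
  exact h y

end Dens

section RhoX

variable {M : ℕ} [NeZero M] {H : Subgroup (ZMod M)ˣ} {p : ℕ} [Fact p.Prime]
  {S : Set ℕ} {𝒪 : Type} [CommRing 𝒪] [Algebra ℤ_[p] 𝒪] {a : ℕ → 𝒪} {ψ : (ZMod M)ˣ → 𝒪}
  [IsDomain 𝒪] [IsDiscreteValuationRing 𝒪]

/-- **(Q) on `Λ_x`**: Eichler–Shimura at the good primes and the matching of the Frobenius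
characteristic polynomials with those of `stw ⊗ ρ` give the quadratic relation at every element of
`G_ℚ` — the hypothesis `hQ` of `s59k_KEND_abs` for `ρΛ := s59b_rhoX`. -/
theorem s59b_rhoX_Q (S37 : s59b_S37H M H) (hM : 1 < M) (hneg : (-1 : (ZMod M)ˣ) ∈ H)
    (hp𝒪 : (p : 𝒪) ∈ maximalIdeal 𝒪)
    (ρ : GaloisRepAdic 𝒪) (stw : GQ →* 𝒪ˣ) (hstw : s30_CharContinuous stw) (S' : Finset ℕ)
    (hS' : ∀ ℓ : ℕ, ℓ.Prime → ℓ ∉ S' → ¬ ℓ ∣ M * p ∧ ℓ ∉ S)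
    (htr : ∀ ℓ : ℕ, ℓ.Prime → ℓ ∉ S' → ∀ P : ValuationSubring Qbar, P.LiesOverPrime ℓ →
      ∀ σ : GQ, P.IsFrobeniusAt σ ℓ →
        a ℓ = ((stw σ : 𝒪ˣ) : 𝒪) * LinearMap.trace 𝒪 ρ.V (ρ.ρ σ))
    (hdet : ∀ ℓ : ℕ, ℓ.Prime → ℓ ∉ S' → ∀ ℓu : (ZMod M)ˣ,
      ((ℓu : (ZMod M)ˣ) : ZMod M) = (ℓ : ZMod M) →
      ∀ P : ValuationSubring Qbar, P.LiesOverPrime ℓ → ∀ σ : GQ, P.IsFrobeniusAt σ ℓ →
        (ℓ : 𝒪) * ψ ℓu = ((stw σ : 𝒪ˣ) : 𝒪) ^ 2 * LinearMap.det (ρ.ρ σ))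
    (g : GQ) (w : s59b_LamX M H p S 𝒪 a ψ) :
    s59b_rhoX M H p S 𝒪 a ψ S37 g (s59b_rhoX M H p S 𝒪 a ψ S37 g w) -
      (((stw g : 𝒪ˣ) : 𝒪) * LinearMap.trace 𝒪 ρ.V (ρ.ρ g)) • s59b_rhoX M H p S 𝒪 a ψ S37 g w +
      (((stw g : 𝒪ˣ) : 𝒪) ^ 2 * LinearMap.det (ρ.ρ g)) • w = 0 := by
  have hfin : Module.Finite 𝒪 (s59b_LamX M H p S 𝒪 a ψ) := s59b_LamX_finite hM hneg
  have hcont : GaloisActionIsAdicContinuous 𝒪 (V := s59b_LamX M H p S 𝒪 a ψ)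
      (s59b_rhoX M H p S 𝒪 a ψ S37) := s59b_rhoX_cont S37 hM hneg hp𝒪
  have hcop : ∀ ℓ : ℕ, ℓ.Prime → ℓ ∉ S' → Nat.Coprime ℓ M := fun ℓ hℓ hℓS' =>
    (Nat.Prime.coprime_iff_not_dvd hℓ).mpr fun h => (hS' ℓ hℓ hℓS').1 (Dvd.dvd.mul_right h p)
  exact s59b_Q_of_frob_sub' (s59b_LamX M H p S 𝒪 a ψ) hfin ρ stw hstw
    (s59b_rhoX M H p S 𝒪 a ψ S37) hcont S'
    (fun ℓ hℓ hℓS' P hP σ hσ => ⟨a ℓ, (ℓ : 𝒪) * ψ (ZMod.unitOfCoprime ℓ (hcop ℓ hℓ hℓS')),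
      htr ℓ hℓ hℓS' P hP σ hσ,
      hdet ℓ hℓ hℓS' _ (ZMod.coe_unitOfCoprime ℓ (hcop ℓ hℓ hℓS')) P hP σ hσ,
      fun x => s59b_rhoX_frobQuad S37 ℓ (ZMod.unitOfCoprime ℓ (hcop ℓ hℓ hℓS')) hℓ
        (hS' ℓ hℓ hℓS').1 (hS' ℓ hℓ hℓS').2 (ZMod.coe_unitOfCoprime ℓ (hcop ℓ hℓ hℓS'))
        P hP σ hσ x⟩) g w

end RhoX

end Fermat.Agent.Lib.S59
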