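/-
Programme (R) / node (H4′) (exact inertial type at Taylor–Wiles primes), family K (helper1, prefix `s59k_`):
**THE ENDGAME, ABSTRACT LINEAR ALGEBRA** (Mathlib only).

`R` a domain, `Λ` a non-zero torsion-free `R`-module with a linear action `ρ` of a group `G` such that
  (Q) `g² − t(g) g + d(g) = 0` on `Λ` for every `g` (`d` multiplicative with unit values),
and a subgroup `I` (inertia) with
  (K) for every `σ ∈ I` there is `u_σ` with `(σ − 1)(σ − u_σ) = 0` on `Λ`
      (output of the Kummer-kernel analysis (K-V) + (G2)),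
`μ ≤ Rˣ` a subgroup without elements of order two containing the `u_σ` and a square root `s_σ` of `d(σ)`,
  (NS) some element of `G` acts non-scalarly,
  (NN) [NN₁-tw]: if the twist `s⁻¹ ρ` is unipotent on `I`, then `d = 1` on `I`.
Then `t(σ) = 1 + d(σ)` for every `σ ∈ I` (`s59k_exact_type`): the characteristic polynomial of `σ` is
`(X − 1)(X − d(σ))`.
-/
import Mathlib

set_option autoImplicit false
set_option linter.unusedSectionVars false

namespace Fermat.Agent.Lib.S59

variable {R Λ : Type*} [CommRing R] [IsDomain R] [AddCommGroup Λ] [Module R Λ]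
  [NoZeroSMulDivisors R Λ] [Nontrivial Λ]

/-- `f` and the identity are linearly independent over `R`. -/
def s59k_NonScalar (f : Λ →ₗ[R] Λ) : Prop :=
  ∀ a b : R, (∀ x : Λ, a • f x + b • x = 0) → a = 0 ∧ b = 0

/-- a scalar acting as zero is zero. -/
theorem s59k_scalar_eq_zero {r : R} (h : ∀ x : Λ, r • x = 0) : r = 0 := by
  obtain ⟨x, hx⟩ := exists_ne (0 : Λ)
  exact (smul_eq_zero.mp (h x)).resolve_right hx

/-- dichotomy: non-scalar, or a non-trivial relation `a f = b`. -/
theorem s59k_nonScalar_or (f : Λ →ₗ[R] Λ) :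
    s59k_NonScalar f ∨ ∃ a b : R, a ≠ 0 ∧ ∀ x : Λ, a • f x = b • x := by
  classical
  by_cases h : s59k_NonScalar f
  · exact Or.inl h
  · right
    unfold s59k_NonScalar at h
    push Not at h
    obtain ⟨a, b, hab, hne⟩ := h
    refine ⟨a, -b, ?_, fun x => ?_⟩
    · intro ha
      apply hne ha
      subst ha
      apply s59k_scalar_eq_zero (Λ := Λ)
      intro x
      have := hab x
      rwa [zero_smul, zero_add] at this
    · have := hab x
      rw [neg_smul]
      exact eq_neg_of_add_eq_zero_left this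

/-- **(E0)** a scalar endomorphism killed by `(X − 1)(X − u)` is `1` or `u`. -/
theorem s59k_scalar_cases {f : Λ →ₗ[R] Λ} {u a b : R} (ha : a ≠ 0)
    (hab : ∀ x : Λ, a • f x = b • x)
    (hK : ∀ x : Λ, f (f x) - (1 + u) • f x + u • x = 0) :
    (∀ x : Λ, f x = x) ∨ ∀ x : Λ, f x = u • x := by
  have key : (b - a) * (b - u * a) = 0 := by
    apply s59k_scalar_eq_zero (Λ := Λ)
    intro x
    have h1 : a • f (f x) = b • f x := hab (f x)
    have h2 := hab x
    have h3 : (a * a) • (f (f x) - (1 + u) • f x + u • x) = 0 := by rw [hK x, smul_zero]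
    have h4 : (a * a) • f (f x) = (b * b) • x := by
      rw [mul_smul, h1, smul_comm, h2, ← mul_smul]
    have h5 : (a * a) • f x = (a * b) • x := by rw [mul_smul, h2, ← mul_smul]
    calc ((b - a) * (b - u * a)) • x
        = (b * b) • x - (1 + u) • ((a * b) • x) + u • ((a * a) • x) := by module
      _ = (a * a) • f (f x) - (1 + u) • ((a * a) • f x) + u • ((a * a) • x) := by rw [h4, h5]
      _ = (a * a) • (f (f x) - (1 + u) • f x + u • x) := by module
      _ = 0 := h3
  rcases mul_eq_zero.mp key with h | h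
  · left
    intro x
    have hb : b = a := by linear_combination h
    have := hab x
    rw [hb] at this
    exact smul_right_injective Λ ha this
  · right
    intro x
    have hb : b = u * a := by linear_combination h
    have := hab x
    rw [hb, mul_comm, mul_smul] at this
    exact smul_right_injective Λ ha this

omit [IsDomain R] [NoZeroSMulDivisors R Λ] [Nontrivial Λ] in
/-- **(E1)** a non-scalar endomorphism satisfying two monic quadratic relations: the relations agree. -/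
theorem s59k_quad_unique {f : Λ →ₗ[R] Λ} (hf : s59k_NonScalar f) {t d t' d' : R}
    (h1 : ∀ x : Λ, f (f x) - t • f x + d • x = 0)
    (h2 : ∀ x : Λ, f (f x) - t' • f x + d' • x = 0) : t = t' ∧ d = d' := by
  have := hf (t' - t) (d - d') (fun x => by
    have e1 := h1 x
    have e2 := h2 x
    calc (t' - t) • f x + (d - d') • x
        = (f (f x) - t • f x + d • x) - (f (f x) - t' • f x + d' • x) := by module
      _ = 0 := by rw [e1, e2, sub_zero])
  exact ⟨by linear_combination -this.1, by linear_combination this.2⟩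

variable {G : Type*} [Group G] (ρ : G →* (Λ →ₗ[R] Λ)) (t : G → R) (d : G →* Rˣ)

omit [NoZeroSMulDivisors R Λ] [Nontrivial Λ] in
/-- **(E2)** a scalar `c` in the image: `c² = d`, as soon as some element acts non-scalarly. -/
theorem s59k_scalar_sq (hQ : ∀ (g : G) (x : Λ), ρ g (ρ g x) - t g • ρ g x + (d g : R) • x = 0)
    {h : G} (hh : s59k_NonScalar (ρ h)) {σ : G} {c : R} (hc : ∀ x : Λ, ρ σ x = c • x) :
    c ^ 2 = (d σ : R) := by
  have hσh : ∀ x : Λ, ρ (σ * h) x = c • ρ h x := fun x => by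
    rw [map_mul, Module.End.mul_apply, hc]
  have key := hh (c ^ 2 * t h - c * t (σ * h)) (((d σ : R) - c ^ 2) * (d h : R)) (fun x => by
    have e1 := hQ (σ * h) x
    have e2 := hQ h x
    have e3 : ρ (σ * h) (ρ (σ * h) x) = (c ^ 2) • ρ h (ρ h x) := by
      rw [hσh, hσh, map_smul, ← mul_smul, pow_two]
    rw [e3, hσh, map_mul, Units.val_mul] at e1
    calc (c ^ 2 * t h - c * t (σ * h)) • ρ h x + (((d σ : R) - c ^ 2) * (d h : R)) • x
        = ((c ^ 2) • ρ h (ρ h x) - t (σ * h) • c • ρ h x + ((d σ : R) * (d h : R)) • x)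
          - (c ^ 2) • (ρ h (ρ h x) - t h • ρ h x + (d h : R) • x) := by module
      _ = 0 := by rw [e1, e2, smul_zero, sub_zero])
  have h0 : ((d σ : R) - c ^ 2) * (d h : R) = 0 := key.2
  rcases mul_eq_zero.mp h0 with h1 | h1
  · linear_combination -h1
  · exact absurd h1 (d h).ne_zero

/-- **(E3)** `σ` scalar `= u ≠ 1`, `σ₀ ∈ I` non-scalar: then `u · d(σ₀) = 1`. -/
theorem s59k_scalar_mul_nonScalar
    (hQ : ∀ (g : G) (x : Λ), ρ g (ρ g x) - t g • ρ g x + (d g : R) • x = 0)
    (I : Subgroup G) (u : G → Rˣ)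
    (hI : ∀ σ ∈ I, ∀ x : Λ, ρ σ (ρ σ x) - (1 + (u σ : R)) • ρ σ x + (u σ : R) • x = 0)
    {σ σ₀ : G} (hσ : σ ∈ I) (hσ₀ : σ₀ ∈ I) (h0 : s59k_NonScalar (ρ σ₀))
    {c : Rˣ} (hc : ∀ x : Λ, ρ σ x = (c : R) • x) (hc1 : c ≠ 1) : (c : R) * (d σ₀ : R) = 1 := by
  -- relations of `σ₀`
  obtain ⟨ht0, hd0⟩ := s59k_quad_unique h0 (hQ σ₀) (hI σ₀ hσ₀)
  -- `σ σ₀` is non-scalar
  have hσσ₀ : ∀ x : Λ, ρ (σ * σ₀) x = (c : R) • ρ σ₀ x := fun x => by
    rw [map_mul, Module.End.mul_apply, hc]
  have hns : s59k_NonScalar (ρ (σ * σ₀)) := by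
    intro a b hab
    have := h0 (a * c) b (fun x => by
      have := hab x
      rw [hσσ₀, ← mul_smul] at this
      exact this)
    refine ⟨?_, this.2⟩
    rcases mul_eq_zero.mp this.1 with h | h
    · exact h
    · exact absurd h c.ne_zero
  obtain ⟨ht1, hd1⟩ := s59k_quad_unique hns (hQ (σ * σ₀)) (hI (σ * σ₀) (I.mul_mem hσ hσ₀))
  -- `c² = d σ`
  have hcs : (c : R) ^ 2 = (d σ : R) := s59k_scalar_sq ρ t d hQ h0 hc
  -- expand the relation of `σ σ₀`
  have hdprod : (d (σ * σ₀) : R) = (c : R) ^ 2 * (d σ₀ : R) := by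
    rw [map_mul, Units.val_mul, hcs]
  have key := h0 ((c : R) * ((c : R) - 1) * (1 - (c : R) * (d σ₀ : R))) 0 (fun x => by
    have e1 := hQ (σ * σ₀) x
    have e2 := hQ σ₀ x
    have e3 : ρ (σ * σ₀) (ρ (σ * σ₀) x) = ((c : R) ^ 2) • ρ σ₀ (ρ σ₀ x) := by
      rw [hσσ₀, hσσ₀, map_smul, ← mul_smul, pow_two]
    have ht1' : t (σ * σ₀) = 1 + (c : R) ^ 2 * (d σ₀ : R) := by rw [ht1, ← hd1, hdprod]
    have ht0' : t σ₀ = 1 + (d σ₀ : R) := by rw [ht0, ← hd0]
    rw [e3, hσσ₀, hdprod, ht1'] at e1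
    rw [ht0'] at e2
    calc ((c : R) * ((c : R) - 1) * (1 - (c : R) * (d σ₀ : R))) • ρ σ₀ x + (0 : R) • x
        = (((c : R) ^ 2) • ρ σ₀ (ρ σ₀ x) - (1 + (c : R) ^ 2 * (d σ₀ : R)) • (c : R) • ρ σ₀ x
            + ((c : R) ^ 2 * (d σ₀ : R)) • x)
          - ((c : R) ^ 2) • (ρ σ₀ (ρ σ₀ x) - (1 + (d σ₀ : R)) • ρ σ₀ x + (d σ₀ : R) • x) := by
          module
      _ = 0 := by rw [e1, e2, smul_zero, sub_zero])
  have h1 : (c : R) * ((c : R) - 1) * (1 - (c : R) * (d σ₀ : R)) = 0 := key.1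
  rcases mul_eq_zero.mp h1 with h2 | h2
  · rcases mul_eq_zero.mp h2 with h3 | h3
    · exact absurd h3 c.ne_zero
    · exact absurd (Units.ext (by rw [Units.val_one]; linear_combination h3)) hc1
  · linear_combination -h2

/-- **The exact type.** -/
theorem s59k_exact_type
    (hQ : ∀ (g : G) (x : Λ), ρ g (ρ g x) - t g • ρ g x + (d g : R) • x = 0)
    (I : Subgroup G) (μ : Subgroup Rˣ) (hμ : ∀ x ∈ μ, x ^ 2 = 1 → x = 1)
    (u : G → Rˣ) (hu : ∀ σ ∈ I, u σ ∈ μ)
    (hI : ∀ σ ∈ I, ∀ x : Λ, ρ σ (ρ σ x) - (1 + (u σ : R)) • ρ σ x + (u σ : R) • x = 0)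
    (s : G → Rˣ) (hs : ∀ σ ∈ I, s σ ∈ μ ∧ s σ ^ 2 = d σ)
    (hns : ∃ h : G, s59k_NonScalar (ρ h))
    (hNN : (∀ σ ∈ I, ∀ x : Λ,
        ρ σ (ρ σ x) - (2 * (s σ : R)) • ρ σ x + ((s σ : R) ^ 2) • x = 0) → ∀ σ ∈ I, d σ = 1) :
    ∀ σ ∈ I, t σ = 1 + (d σ : R) := by
  classical
  obtain ⟨h, hh⟩ := hns
  -- the three types of elements of `I`
  have hcases : ∀ σ ∈ I, s59k_NonScalar (ρ σ) ∨ (∀ x : Λ, ρ σ x = x) ∨
      ∀ x : Λ, ρ σ x = (u σ : R) • x := by
    intro σ hσ
    rcases s59k_nonScalar_or (ρ σ) with h1 | ⟨a, b, ha, hab⟩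
    · exact Or.inl h1
    · exact Or.inr (s59k_scalar_cases ha hab (hI σ hσ))
  -- non-scalar elements have the exact type
  have hE1 : ∀ σ ∈ I, s59k_NonScalar (ρ σ) → t σ = 1 + (u σ : R) ∧ (d σ : R) = (u σ : R) :=
    fun σ hσ h1 => s59k_quad_unique h1 (hQ σ) (hI σ hσ)
  -- the identity has `t = 1 + d`
  have hE0 : ∀ σ : G, (∀ x : Λ, ρ σ x = x) → t σ = 1 + (d σ : R) := by
    intro σ h1
    have : (1 - t σ + (d σ : R)) = 0 := by
      apply s59k_scalar_eq_zero (Λ := Λ)
      intro x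
      have := hQ σ x
      rw [h1, h1] at this
      calc (1 - t σ + (d σ : R)) • x = x - t σ • x + (d σ : R) • x := by module
        _ = 0 := this
    linear_combination -this
  -- `d σ ∈ μ`
  have hdμ : ∀ σ ∈ I, d σ ∈ μ := fun σ hσ => by
    rw [← (hs σ hσ).2]
    exact μ.pow_mem (hs σ hσ).1 2
  by_cases hA : ∃ σ₀ ∈ I, s59k_NonScalar (ρ σ₀) ∧ d σ₀ ≠ 1
  · -- Case A
    obtain ⟨σ₀, hσ₀, h0, hd0⟩ := hA
    intro σ hσ
    rcases hcases σ hσ with h1 | h1 | h1
    · rw [(hE1 σ hσ h1).1, (hE1 σ hσ h1).2]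
    · exact hE0 σ h1
    · by_cases hu1 : u σ = 1
      · apply hE0 σ
        intro x
        rw [h1, hu1, Units.val_one, one_smul]
      · exfalso
        have e1 := s59k_scalar_mul_nonScalar ρ t d hQ I u hI hσ hσ₀ h0 h1 hu1
        -- the same with `σ₀⁻¹`
        have h0' : s59k_NonScalar (ρ σ₀⁻¹) := by
          intro a b hab
          have := h0 b a (fun x => by
            have := hab (ρ σ₀ x)
            have e : ρ σ₀⁻¹ (ρ σ₀ x) = x := by
              rw [← Module.End.mul_apply, ← map_mul, inv_mul_cancel, map_one, Module.End.one_apply]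
            rw [e] at this
            rw [add_comm]
            exact this)
          exact ⟨this.2, this.1⟩
        have e2 := s59k_scalar_mul_nonScalar ρ t d hQ I u hI hσ (I.inv_mem hσ₀) h0' h1 hu1
        rw [map_inv] at e2
        have hsq : (d σ₀ : R) ^ 2 = 1 := by
          have e3 : (u σ : R) = (d σ₀ : R) := by
            calc (u σ : R) = (u σ : R) * (((d σ₀)⁻¹ : Rˣ) * (d σ₀ : R)) := by
                  rw [Units.inv_mul, mul_one]
              _ = ((u σ : R) * ((d σ₀)⁻¹ : Rˣ)) * (d σ₀ : R) := by ring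
              _ = (d σ₀ : R) := by rw [e2, one_mul]
          rw [e3] at e1
          rw [pow_two]
          exact e1
        apply hd0
        apply hμ _ (hdμ σ₀ hσ₀)
        apply Units.ext
        rw [Units.val_pow_eq_pow_val, Units.val_one]
        exact hsq
  · -- Case B
    push Not at hA
    have hunip : ∀ σ ∈ I, ∀ x : Λ,
        ρ σ (ρ σ x) - (2 * (s σ : R)) • ρ σ x + ((s σ : R) ^ 2) • x = 0 := by
      intro σ hσ x
      have hs1 : d σ = 1 → s σ = 1 := fun hd => by
        apply hμ _ (hs σ hσ).1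
        rw [(hs σ hσ).2, hd]
      rcases hcases σ hσ with h1 | h1 | h1
      · have hd1 := hA σ hσ h1
        have hu1 : (u σ : R) = 1 := by rw [← (hE1 σ hσ h1).2, hd1, Units.val_one]
        have := hI σ hσ x
        rw [hu1] at this
        rw [hs1 hd1, Units.val_one]
        calc ρ σ (ρ σ x) - (2 * (1 : R)) • ρ σ x + ((1 : R) ^ 2) • x
            = ρ σ (ρ σ x) - (1 + (1 : R)) • ρ σ x + (1 : R) • x := by module
          _ = 0 := this
      · have hc : ∀ x : Λ, ρ σ x = (1 : R) • x := fun x => by rw [h1, one_smul]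
        have hd1 : d σ = 1 := by
          have := s59k_scalar_sq ρ t d hQ hh hc
          apply Units.ext
          rw [← this, Units.val_one, one_pow]
        rw [h1, h1, hs1 hd1, Units.val_one]
        module
      · have hd1 : (u σ : R) ^ 2 = (d σ : R) := s59k_scalar_sq ρ t d hQ hh h1
        have hsu : s σ = u σ := by
          have h2 : (s σ * (u σ)⁻¹) ^ 2 = 1 := by
            rw [mul_pow, (hs σ hσ).2, inv_pow]
            apply Units.ext
            rw [Units.val_mul, Units.val_one, ← hd1, ← Units.val_pow_eq_pow_val,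
              Units.mul_inv]
          have h3 := hμ _ (μ.mul_mem (hs σ hσ).1 (μ.inv_mem (hu σ hσ))) h2
          exact mul_inv_eq_one.mp h3
        rw [h1, h1, hsu]
        module
    have hd1 := hNN hunip
    intro σ hσ
    rcases hcases σ hσ with h1 | h1 | h1
    · rw [(hE1 σ hσ h1).1, (hE1 σ hσ h1).2]
    · exact hE0 σ h1
    · apply hE0 σ
      have hsq : (u σ : R) ^ 2 = (d σ : R) := s59k_scalar_sq ρ t d hQ hh h1
      have hu1 : u σ = 1 := by
        apply hμ _ (hu σ hσ)
        apply Units.ext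
        rw [Units.val_pow_eq_pow_val, hsq, hd1 σ hσ]
      intro x
      rw [h1, hu1, Units.val_one, one_smul]

end Fermat.Agent.Lib.S59
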