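/-
Programme (R) / node (H4′), family K (helper1, prefix `s59k_`): **(NN) = [NN₁-tw], part 1.**

`s59k_core`  : helper3's abstract core `s36k_core` (Lib/S36/KSkel.lean) for an ARBITRARY saturated
               Galois-stable submodule `E` of the module (there: a joint eigen-submodule).
`s59k_main_new` : **the S36 conclusion for a system of eigenvalues `χ` of level `M' q²` which has a
               `q`-NEW eigenvector** (`w ≠ 0` in `𝒪' ⊗ T_p J₀(M' q²)`, `χ`-eigen, killed by `α_*` and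
               `β_*` to level `M' q`) instead of "`χ` is the system of a newform": there is a
               `GaloisRepAdic` with the Frobenius polynomials of `χ` which is NOT unipotent on inertia
               at `q`.  Inputs from main: `s36b_NN1` (geometry of S36), `s36w_baseChange_frobFix`,
               the S30 contracts.
-/
import Fermat.Agent.Lib.S36.KTop
import Fermat.Agent.Lib.S36.WFrobFix
import Fermat.Agent.Lib.S36.XCore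

set_option autoImplicit false
set_option linter.unusedSectionVars false
set_option linter.style.haveILetI false

open Polynomial IsLocalRing
open scoped TensorProduct

namespace Fermat.Agent.Lib.S59

open Fermat.Agent.Lib.S29 Fermat.Agent.Lib.S30 Fermat.Agent.Lib.S31 Fermat.Agent.Lib.S35
  Fermat.Agent.Lib.S36

noncomputable section

section CoreC

variable {𝒪 : Type} [CommRing 𝒪] [IsDomain 𝒪] [IsDiscreteValuationRing 𝒪]
  {M : Type} [AddCommGroup M] [Module 𝒪 M] [Module.Free 𝒪 M] [Module.Finite 𝒪 M]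
  [IsAdicComplete (maximalIdeal 𝒪) 𝒪] [Finite (ResidueField 𝒪)] [CharZero 𝒪]

/-- **The abstract core of S36 for an arbitrary saturated Galois-stable submodule `E`**
(verbatim the proof of `s36k_core`, where `E` was a joint eigen-submodule). -/
theorem s59k_core (hDens : s30_DensContract) (hTwo : s30_TwoContractC) (p : ℕ) [Fact p.Prime]
    (hp : (p : 𝒪) ∈ maximalIdeal 𝒪)
    (ρ : s29k_G →* Module.End 𝒪 M) (hcont : GaloisActionIsAdicContinuous 𝒪 ρ)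
    (d : s29k_G →* 𝒪ˣ) (hd : s30_CharContinuous d)
    (cc : s29k_G) (hcc : cc * cc = 1) (hdcc : d cc = -1)
    (E : Submodule 𝒪 M) (hE : ∀ (g : s29k_G) (w : M), w ∈ E → ρ g w ∈ E)
    (hsat : ∀ (r : 𝒪), r ≠ 0 → ∀ m : M, r • m ∈ E → m ∈ E)
    (v : M) (hv0 : v ≠ 0) (hv : v ∈ E)
    (S₀ : Finset ℕ) (a : ℕ → 𝒪)
    (hfrob : ∀ ℓ : ℕ, ℓ.Prime → ℓ ∉ S₀ →
      ∀ A : ValuationSubring (AlgebraicClosure ℚ), A.LiesOverPrime ℓ →
        ∀ σ : s29k_G, A.IsFrobeniusAt σ ℓ →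
          (∀ w ∈ E, ρ σ (ρ σ w) - a ℓ • ρ σ w + (ℓ : 𝒪) • w = 0) ∧
            ((d σ : 𝒪ˣ) : 𝒪) = (ℓ : 𝒪)) :
    ∃ ρ'' : GaloisRepAdic 𝒪,
      (∀ ℓ : ℕ, ℓ.Prime → ℓ ∉ S₀ →
        ∀ A : ValuationSubring (AlgebraicClosure ℚ), A.LiesOverPrime ℓ →
          ∀ σ : s29k_G, A.IsFrobeniusAt σ ℓ →
            LinearMap.charpoly (ρ''.ρ σ) = X ^ 2 - C (a ℓ) * X + C ((ℓ : 𝒪))) ∧
      ∀ (A : ValuationSubring (AlgebraicClosure ℚ)) (q : ℕ), q.Prime → A.LiesOverPrime q →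
        IsUnit (q : 𝒪) → ∀ φ : s29k_G, A.IsFrobeniusAt φ q → ((d φ : 𝒪ˣ) : 𝒪) = (q : 𝒪) →
        ρ''.residual.IsAbsolutelyIrreducible →
        (∀ w ∈ E, (∀ τ ∈ A.inertiaSubgroupIn ℚ, ρ τ w = w) → ρ φ w = w) →
        ¬ ∀ τ ∈ A.inertiaSubgroupIn ℚ, LinearMap.charpoly (ρ''.ρ τ) = (X - 1) ^ 2 := by
  haveI : Module.Finite 𝒪 E := s30f_finite_submodule E
  haveI : Module.Free 𝒪 E := s30f_free_submodule E
  haveI : Nontrivial E := ⟨⟨⟨v, hv⟩, 0, fun h => hv0 (congrArg Subtype.val h)⟩⟩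
  set ρE : s29k_G →* Module.End 𝒪 E := s30f_restrict ρ E hE with hρE
  have hρEval : ∀ (g : s29k_G) (w : E), ((ρE g w : E) : M) = ρ g (w : M) := fun g w => rfl
  have hcontE : GaloisActionIsAdicContinuous 𝒪 ρE := s30f_continuous_restrict ρ hcont E hE hsat
  -- [DENS]
  obtain ⟨t, ht, htfrob⟩ := hDens 𝒪 E ρE hcontE d hd S₀ a (by
    intro ℓ hℓ hℓS A hA σ hσ
    obtain ⟨h1, h2⟩ := hfrob ℓ hℓ hℓS A hA σ hσ
    refine ⟨?_, h2⟩
    apply LinearMap.ext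
    intro w
    apply Subtype.ext
    exact h1 (w : M) w.2)
  -- [TWO], form C
  obtain ⟨ρ'', hchar, hthird⟩ := hTwo p 𝒪 hp E ρE hcontE d hd t ht cc hcc hdcc
  refine ⟨ρ'', ?_, ?_⟩
  · intro ℓ hℓ hℓS A hA σ hσ
    rw [hchar σ, htfrob ℓ hℓ hℓS A hA σ hσ, (hfrob ℓ hℓ hℓS A hA σ hσ).2]
  · intro A q hq hA hqO φ hφ hdφ habs hfixM hU
    -- `t τ = 2`, `d τ = 1` on inertia
    have htd : ∀ τ ∈ A.inertiaSubgroupIn ℚ, t τ = 2 ∧ ((d τ : 𝒪ˣ) : 𝒪) = 1 := by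
      intro τ hτ
      have h1 := hU τ hτ
      rw [hchar τ] at h1
      have h2 : ((X : 𝒪[X]) - 1) ^ 2 = X ^ 2 - C (2 : 𝒪) * X + C (1 : 𝒪) := by
        simp only [map_ofNat, map_one]
        ring
      rw [h2] at h1
      exact s36k_quad_inj h1
    -- unipotence on `E`
    have hUE : ∀ τ ∈ A.inertiaSubgroupIn ℚ, (ρE τ - 1) * (ρE τ - 1) = 0 := by
      intro τ hτ
      obtain ⟨h1, h2⟩ := htd τ hτ
      have h3 := ht τ
      rw [h1, h2, one_smul] at h3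
      have hinv : ρE τ⁻¹ * ρE τ = 1 := by rw [← map_mul, inv_mul_cancel, map_one]
      have h4 := congrArg (fun f : Module.End 𝒪 E => f * ρE τ) h3
      simp only [add_mul, hinv, smul_mul_assoc, one_mul] at h4
      -- h4 : ρE τ * ρE τ + 1 = 2 • ρE τ
      have h5 : (ρE τ - 1) * (ρE τ - 1) = (ρE τ * ρE τ + 1) - (2 : 𝒪) • ρE τ := by
        simp only [mul_sub, sub_mul, mul_one, one_mul, two_smul]
        abel
      rw [h5, h4, sub_self]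
    -- the tame relation on `E`
    have htame : ∀ τ ∈ A.inertiaSubgroupIn ℚ, ρE (φ * τ * φ⁻¹) = ρE τ ^ q := fun τ hτ =>
      s35t_tame_gen ρE hcontE A hq hA hqO hUE φ τ hφ hτ
    have hrel : ρE φ + (q : 𝒪) • ρE φ⁻¹ = t φ • 1 := by rw [← hdφ]; exact ht φ
    have hfixE : ∀ w : E, (∀ τ ∈ A.inertiaSubgroupIn ℚ, ρE τ w = w) → ρE φ w = w := by
      intro w hw
      apply Subtype.ext
      rw [hρEval]
      refine hfixM (w : M) w.2 (fun τ hτ => ?_)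
      have := congrArg Subtype.val (hw τ hτ)
      rw [hρEval] at this
      exact this
    haveI : IsNoetherian 𝒪 E := isNoetherian_of_isNoetherianRing_of_finite 𝒪 E
    obtain ⟨hτ1, hφ1⟩ := s36k_endgame ρE (A.inertiaSubgroupIn ℚ) hUE hq.two_le htame hrel hfixE
    -- `t φ = 1 + q`
    have hφinv : ρE φ⁻¹ = 1 := by
      have hinv : ρE φ⁻¹ * ρE φ = 1 := by rw [← map_mul, inv_mul_cancel, map_one]
      rw [hφ1, mul_one] at hinv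
      exact hinv
    have htφ : t φ = 1 + (q : 𝒪) := by
      rw [hφ1, hφinv] at hrel
      obtain ⟨w, hw⟩ := exists_ne (0 : E)
      have h1 := congrArg (fun f : Module.End 𝒪 E => f w) hrel
      simp only [LinearMap.add_apply, LinearMap.smul_apply, Module.End.one_apply] at h1
      have h0 : (1 + (q : 𝒪) - t φ) • w = 0 := by
        rw [sub_smul, add_smul, one_smul, h1, sub_self]
      rcases smul_eq_zero.mp h0 with h | h
      · exact (sub_eq_zero.mp h).symm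
      · exact absurd h hw
    -- `ρ''(φ)` commutes with the image of `ρ''`
    have hcommφ : ∀ h : s29k_G, ρ''.ρ φ * ρ''.ρ h = ρ''.ρ h * ρ''.ρ φ := by
      intro h
      have hg : ρ''.ρ (φ * h * φ⁻¹ * h⁻¹) = 1 := by
        apply hthird
        · rw [map_mul, map_mul, map_mul, hφ1, hφinv, one_mul, mul_one, ← map_mul, mul_inv_cancel,
            map_one]
        · rw [map_mul, map_mul, map_mul, map_inv, map_inv]
          rw [mul_comm (d φ) (d h), mul_assoc (d h), mul_inv_cancel, mul_one, mul_inv_cancel]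
      have h1 : ρ''.ρ (φ * h * φ⁻¹ * h⁻¹) * (ρ''.ρ h * ρ''.ρ φ) = ρ''.ρ φ * ρ''.ρ h := by
        rw [← map_mul, ← map_mul, ← map_mul]
        congr 1
        group
      rw [hg, one_mul] at h1
      exact h1.symm
    have hspan := s31a_span_rho_eq_top ρ'' habs
    have hcen : ∀ B : Module.End 𝒪 ρ''.V, ρ''.ρ φ * B = B * ρ''.ρ φ := by
      intro B
      have hB : B ∈ Submodule.span 𝒪 (Set.range ρ''.ρ) := by rw [hspan]; trivial
      induction hB using Submodule.span_induction with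
      | mem x hx =>
        obtain ⟨g, rfl⟩ := hx
        exact hcommφ g
      | zero => rw [mul_zero, zero_mul]
      | add x y _ _ hx hy => rw [mul_add, add_mul, hx, hy]
      | smul r x _ hx => rw [mul_smul_comm, smul_mul_assoc, hx]
    have hq1 : (q : 𝒪) ≠ 1 := by
      intro h
      have : ((q : ℕ) : 𝒪) = ((1 : ℕ) : 𝒪) := by rw [h]; norm_num
      exact hq.one_lt.ne' (Nat.cast_injective this)
    have hcharφ : LinearMap.charpoly (ρ''.ρ φ) = X ^ 2 - C (1 + (q : 𝒪)) * X + C (q : 𝒪) := by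
      rw [hchar φ, htφ, hdφ]
    exact s36k_central_contra ρ''.finrank_eq (ρ''.ρ φ) hcen hq1 hcharφ

end CoreC

section MainNew

variable (p : ℕ) [Fact p.Prime]

/-- a kernel of a linear map into a torsion-free module is saturated. -/
theorem s59k_ker_saturated {𝒪 : Type*} [CommRing 𝒪] [IsDomain 𝒪] {M M₁ : Type*} [AddCommGroup M]
    [Module 𝒪 M] [AddCommGroup M₁] [Module 𝒪 M₁] [Module.IsTorsionFree 𝒪 M₁] (f : M →ₗ[𝒪] M₁)
    {r : 𝒪} (hr : r ≠ 0) {m : M} (hm : f (r • m) = 0) : f m = 0 := by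
  rw [map_smul] at hm
  exact (smul_eq_zero.mp hm).resolve_left hr

set_option maxHeartbeats 1600000 in
/-- **S36 for a system of eigenvalues with a `q`-new eigenvector.**  Level `N = M' q²`, `q ∤ M'`,
`q ≠ p`; `χ : 𝕋 →+* 𝒪'` a system of eigenvalues of level `N` which occurs in
`𝒪' ⊗ T_p J₀(N)` on a non-zero vector killed by both push-forwards to level `M' q`; `hres'`
residual absolute irreducibility.  Then some `GaloisRepAdic` with the Frobenius polynomials of `χ`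
is not unipotent on inertia at `q`. -/
theorem s59k_main_new_all (M' q : ℕ) [NeZero M'] [NeZero q] (hq : q.Prime) (hqp : q ≠ p)
    (hqM' : ¬ q ∣ M')
    (S : Finset ℕ) (hpS : p ∈ S) (hNS : ∀ r : ℕ, r.Prime → r ∣ M' * q * q → r ∈ S)
    (𝒪' : Type) [CommRing 𝒪'] [IsDomain 𝒪'] [IsDiscreteValuationRing 𝒪']
    [IsAdicComplete (maximalIdeal 𝒪') 𝒪'] [Finite (ResidueField 𝒪')]
    [CharZero 𝒪'] [Algebra ℤ_[p] 𝒪'] (hp𝒪' : (p : 𝒪') ∈ maximalIdeal 𝒪')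
    (χ : CuspForm.heckeAlgebra (M' * q * q) 2 (↑S : Set ℕ) →+* 𝒪')
    (hres' : ∀ ρ : GaloisRepAdic 𝒪',
      (∀ (ℓ : ℕ) (hℓ : ℓ.Prime) (hℓN : ¬ ℓ ∣ M' * q * q) (hℓS : ℓ ∉ (↑S : Set ℕ)),
        ∀ A : ValuationSubring (AlgebraicClosure ℚ), A.LiesOverPrime ℓ →
          ∀ σ : AlgebraicClosure ℚ ≃ₐ[ℚ] AlgebraicClosure ℚ, A.IsFrobeniusAt σ ℓ →
            LinearMap.charpoly (ρ.ρ σ) =
              X ^ 2 - C (χ (CuspForm.heckeAlgebra.T hℓ hℓN hℓS)) * X + C ((ℓ : 𝒪'))) →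
      ρ.residual.IsAbsolutelyIrreducible)
    (hnew : ∃ v : 𝒪' ⊗[ℤ_[p]] s30a_TJ (M' * q * q) p, v ≠ 0 ∧
      (∀ (ℓ : ℕ) (hℓ : ℓ.Prime) (hℓN : ¬ ℓ ∣ M' * q * q) (hℓS : ℓ ∉ (↑S : Set ℕ)),
        (s30a_Tz (M' * q * q) p ⟨ℓ, hℓ⟩).baseChange 𝒪' v =
          χ (CuspForm.heckeAlgebra.T hℓ hℓN hℓS) • v) ∧
      (s36w_alphaT (M' * q) q p).baseChange 𝒪' v = 0 ∧
      (s36w_betaT (M' * q) q p).baseChange 𝒪' v = 0) :
    ∃ ρ : GaloisRepAdic 𝒪',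
      (∀ (ℓ : ℕ) (hℓ : ℓ.Prime) (hℓN : ¬ ℓ ∣ M' * q * q) (hℓS : ℓ ∉ (↑S : Set ℕ)),
        ∀ A : ValuationSubring (AlgebraicClosure ℚ), A.LiesOverPrime ℓ →
          ∀ σ : AlgebraicClosure ℚ ≃ₐ[ℚ] AlgebraicClosure ℚ, A.IsFrobeniusAt σ ℓ →
            LinearMap.charpoly (ρ.ρ σ) =
              X ^ 2 - C (χ (CuspForm.heckeAlgebra.T hℓ hℓN hℓS)) * X + C ((ℓ : 𝒪'))) ∧
      ∀ A : ValuationSubring (AlgebraicClosure ℚ), A.LiesOverPrime q →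
        ¬ ∀ σ ∈ A.inertiaSubgroupIn ℚ, LinearMap.charpoly (ρ.ρ σ) = (X - 1) ^ 2 := by
  classical
  set N : ℕ := M' * q * q with hN
  have hDens := s30d_densContract
  have hTwo := s30t2_twoC_of s30w_wilContract s30l_lattContract
  set Cy := s30y_cycDatum p with hCy
  have hconj := s30y_conj_datum p
  set f : ℤ_[p] →+* 𝒪' := algebraMap ℤ_[p] 𝒪' with hf
  have hfnat : ∀ m : ℕ, algebraMap ℤ_[p] 𝒪' (m : ℤ_[p]) = (m : 𝒪') := fun m => map_natCast _ m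
  -- the base-changed Tate module
  set ρ : s29k_G →* Module.End 𝒪' (𝒪' ⊗[ℤ_[p]] s30a_TJ N p) :=
    s30f_baseChange 𝒪' (s30a_rho N p) with hρ
  have hcont : GaloisActionIsAdicContinuous 𝒪' ρ :=
    s30f_continuous_baseChange p hp𝒪' (s30a_rho N p) (s30a_cont N p)
  -- the cyclotomic character
  set d : s29k_G →* 𝒪'ˣ := (Units.map (f : ℤ_[p] →* 𝒪')).comp Cy.ε with hd
  have hdval : ∀ σ : s29k_G, ((d σ : 𝒪'ˣ) : 𝒪') = f ((Cy.ε σ : ℤ_[p]ˣ) : ℤ_[p]) := fun σ => rfl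
  have hdcont : s30_CharContinuous d := by
    intro n
    obtain ⟨L, hL, -, h1⟩ := Cy.cont n
    refine ⟨L, hL, fun σ hσ => ?_⟩
    obtain ⟨w, hw⟩ := h1 σ hσ
    have : ((d σ : 𝒪'ˣ) : 𝒪') - 1 = (p : 𝒪') ^ n * f w := by
      rw [hdval, ← map_one f, ← map_sub, hw, map_mul, map_pow, map_natCast]
    rw [this]
    exact Ideal.mul_mem_right _ _ (Ideal.pow_mem_pow hp𝒪' n)
  have hdcc : d complexConjugation = -1 := by
    apply Units.ext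
    rw [hdval, hconj]
    simp
  -- the eigen-system
  let ι : Type := {ℓ : ℕ // ℓ.Prime ∧ ¬ ℓ ∣ N ∧ ℓ ∉ (↑S : Set ℕ)}
  let T : ι → Module.End 𝒪' (𝒪' ⊗[ℤ_[p]] s30a_TJ N p) :=
    fun i => (s30a_Tz N p ⟨i.1, i.2.1⟩).baseChange 𝒪'
  let c : ι → 𝒪' := fun i => χ (CuspForm.heckeAlgebra.T i.2.1 i.2.2.1 i.2.2.2)
  have hcomm : ∀ (σ : s29k_G) (i : ι), Commute (ρ σ) (T i) := fun σ i =>
    s30f_baseChange_commute 𝒪' (s30a_Tz_comm N p ⟨i.1, i.2.1⟩ σ)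
  -- the two push-forwards, base-changed
  set αO : (𝒪' ⊗[ℤ_[p]] s30a_TJ N p) →ₗ[𝒪'] (𝒪' ⊗[ℤ_[p]] s30a_TJ (M' * q) p) :=
    (s36w_alphaT (M' * q) q p).baseChange 𝒪' with hαO
  set βO : (𝒪' ⊗[ℤ_[p]] s30a_TJ N p) →ₗ[𝒪'] (𝒪' ⊗[ℤ_[p]] s30a_TJ (M' * q) p) :=
    (s36w_betaT (M' * q) q p).baseChange 𝒪' with hβO
  have hαρ : ∀ (g : s29k_G) (w : 𝒪' ⊗[ℤ_[p]] s30a_TJ N p),
      αO (ρ g w) = (s30a_rho (M' * q) p g).baseChange 𝒪' (αO w) := by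
    intro g w
    have h1 : (s36w_alphaT (M' * q) q p) ∘ₗ (s30a_rho N p g) =
        (s30a_rho (M' * q) p g) ∘ₗ (s36w_alphaT (M' * q) q p) :=
      LinearMap.ext fun x => s36w_alphaT_rho (M' * q) q p g x
    have h2 := congrArg (fun F => (LinearMap.baseChange 𝒪' F) w) h1
    simp only [LinearMap.baseChange_comp, LinearMap.comp_apply] at h2
    exact h2
  have hβρ : ∀ (g : s29k_G) (w : 𝒪' ⊗[ℤ_[p]] s30a_TJ N p),
      βO (ρ g w) = (s30a_rho (M' * q) p g).baseChange 𝒪' (βO w) := by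
    intro g w
    have h1 : (s36w_betaT (M' * q) q p) ∘ₗ (s30a_rho N p g) =
        (s30a_rho (M' * q) p g) ∘ₗ (s36w_betaT (M' * q) q p) :=
      LinearMap.ext fun x => s36w_betaT_rho (M' * q) q p g x
    have h2 := congrArg (fun F => (LinearMap.baseChange 𝒪' F) w) h1
    simp only [LinearMap.baseChange_comp, LinearMap.comp_apply] at h2
    exact h2
  -- the `q`-new part of the eigen-module
  set E : Submodule 𝒪' (𝒪' ⊗[ℤ_[p]] s30a_TJ N p) :=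
    s30f_eigen T c ⊓ LinearMap.ker αO ⊓ LinearMap.ker βO with hEdef
  have hEmem : ∀ w, w ∈ E ↔ (w ∈ s30f_eigen T c ∧ αO w = 0) ∧ βO w = 0 := by
    intro w
    rw [hEdef, Submodule.mem_inf, Submodule.mem_inf, LinearMap.mem_ker, LinearMap.mem_ker]
  have hE : ∀ (g : s29k_G) (w : 𝒪' ⊗[ℤ_[p]] s30a_TJ N p), w ∈ E → ρ g w ∈ E := by
    intro g w hw
    obtain ⟨⟨h1, h2⟩, h3⟩ := (hEmem w).mp hw
    refine (hEmem _).mpr ⟨⟨s30f_map_mem_eigen (fun i => hcomm g i) h1, ?_⟩, ?_⟩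
    · rw [hαρ, h2, map_zero]
    · rw [hβρ, h3, map_zero]
  have hsat : ∀ (r : 𝒪'), r ≠ 0 → ∀ m : 𝒪' ⊗[ℤ_[p]] s30a_TJ N p, r • m ∈ E → m ∈ E := by
    intro r hr m hm
    obtain ⟨⟨h1, h2⟩, h3⟩ := (hEmem _).mp hm
    exact (hEmem m).mpr ⟨⟨s30f_eigen_saturated hr h1, s59k_ker_saturated αO hr h2⟩,
      s59k_ker_saturated βO hr h3⟩
  obtain ⟨v, hv0, hv, hvα, hvβ⟩ := hnew
  have hvE : v ∈ E :=
    (hEmem v).mpr ⟨⟨fun i => hv i.1 i.2.1 i.2.2.1 i.2.2.2, hvα⟩, hvβ⟩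
  -- the Frobenius data
  let a : ℕ → 𝒪' := fun ℓ =>
    if h : ℓ.Prime ∧ ¬ ℓ ∣ N ∧ ℓ ∉ (↑S : Set ℕ) then
      χ (CuspForm.heckeAlgebra.T h.1 h.2.1 h.2.2) else 0
  have hgood : ∀ ℓ : ℕ, ℓ.Prime → ℓ ∉ S → ¬ ℓ ∣ N ∧ ℓ ≠ p := by
    intro ℓ hℓ hℓS
    exact ⟨fun h => hℓS (hNS ℓ hℓ h), fun h => hℓS (h ▸ hpS)⟩
  have hndvd : ∀ ℓ : ℕ, ℓ.Prime → ¬ ℓ ∣ N → ℓ ≠ p → ¬ ℓ ∣ N * p := by
    intro ℓ hℓ h1 h2 h3
    rcases (Nat.Prime.dvd_mul hℓ).mp h3 with h | h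
    · exact h1 h
    · exact h2 ((Nat.prime_dvd_prime_iff_eq hℓ (Fact.out : p.Prime)).mp h)
  have hfrob : ∀ ℓ : ℕ, ℓ.Prime → ℓ ∉ S →
      ∀ A : ValuationSubring (AlgebraicClosure ℚ), A.LiesOverPrime ℓ →
        ∀ σ : s29k_G, A.IsFrobeniusAt σ ℓ →
          (∀ w ∈ E, ρ σ (ρ σ w) - a ℓ • ρ σ w + (ℓ : 𝒪') • w = 0) ∧
            ((d σ : 𝒪'ˣ) : 𝒪') = (ℓ : 𝒪') := by
    intro ℓ hℓ hℓS A hA σ hσ
    obtain ⟨hℓN, hℓp⟩ := hgood ℓ hℓ hℓS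
    have hℓS' : ℓ ∉ (↑S : Set ℕ) := fun h => hℓS (Finset.mem_coe.mp h)
    refine ⟨fun w hwE => ?_, ?_⟩
    · have hw : w ∈ s30f_eigen T c := ((hEmem w).mp hwE).1.1
      have hq := s30a_Tz_frobQuad N p ⟨ℓ, hℓ⟩ (hndvd ℓ hℓ hℓN hℓp) A hA σ hσ
      have hq' := congrArg (fun g : Module.End ℤ_[p] (s30a_TJ N p) => g.baseChange 𝒪' w) hq
      simp only [LinearMap.baseChange_add, LinearMap.baseChange_sub, LinearMap.baseChange_mul,
        LinearMap.baseChange_smul, LinearMap.baseChange_one, LinearMap.baseChange_zero,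
        LinearMap.add_apply, LinearMap.sub_apply, Module.End.mul_apply, LinearMap.smul_apply,
        Module.End.one_apply, LinearMap.zero_apply] at hq'
      have hTw : (s30a_Tz N p ⟨ℓ, hℓ⟩).baseChange 𝒪' (ρ σ w) = a ℓ • ρ σ w := by
        have h1 := s30f_map_mem_eigen (fun i => hcomm σ i) hw ⟨ℓ, hℓ, hℓN, hℓS'⟩
        have ha : a ℓ = c ⟨ℓ, hℓ, hℓN, hℓS'⟩ := by
          show (if h : ℓ.Prime ∧ ¬ ℓ ∣ N ∧ ℓ ∉ (↑S : Set ℕ) then
            χ (CuspForm.heckeAlgebra.T h.1 h.2.1 h.2.2) else 0) = _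
          rw [dif_pos ⟨hℓ, hℓN, hℓS'⟩]
        rw [ha]
        exact h1
      have hsm : (((ℓ : ℕ) : ℤ_[p])) • w = (ℓ : 𝒪') • w := by
        rw [algebra_compatible_smul 𝒪' ((ℓ : ℕ) : ℤ_[p]) w, hfnat]
      rw [s30f_baseChange_apply] at hTw ⊢
      rw [hTw, hsm] at hq'
      exact hq'
    · rw [hdval, Cy.frob ℓ hℓ hℓp A hA σ hσ, map_natCast]
  obtain ⟨ρ'', hchar, hloc⟩ :=
    s59k_core hDens hTwo p hp𝒪' ρ hcont d hdcont complexConjugation complexConjugation_mul_self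
      hdcc E hE hsat v hv0 hvE S a hfrob
  have hcharχ : ∀ (ℓ : ℕ) (hℓ : ℓ.Prime) (hℓN : ¬ ℓ ∣ N) (hℓS : ℓ ∉ (↑S : Set ℕ)),
      ∀ A : ValuationSubring (AlgebraicClosure ℚ), A.LiesOverPrime ℓ →
        ∀ σ : AlgebraicClosure ℚ ≃ₐ[ℚ] AlgebraicClosure ℚ, A.IsFrobeniusAt σ ℓ →
          LinearMap.charpoly (ρ''.ρ σ) =
            X ^ 2 - C (χ (CuspForm.heckeAlgebra.T hℓ hℓN hℓS)) * X + C ((ℓ : 𝒪')) := by
    intro ℓ hℓ hℓN hℓS A hA σ hσ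
    have hℓS' : ℓ ∉ S := fun h => hℓS (Finset.mem_coe.mpr h)
    rw [hchar ℓ hℓ hℓS' A hA σ hσ]
    have ha : a ℓ = χ (CuspForm.heckeAlgebra.T hℓ hℓN hℓS) := by
      show (if h : ℓ.Prime ∧ ¬ ℓ ∣ N ∧ ℓ ∉ (↑S : Set ℕ) then
        χ (CuspForm.heckeAlgebra.T h.1 h.2.1 h.2.2) else 0) = _
      rw [dif_pos ⟨hℓ, hℓN, hℓS⟩]
    rw [ha]
  refine ⟨ρ'', hcharχ, ?_⟩
  intro A hA hU
  obtain ⟨φ, hφ⟩ := Fermat.Agent.Lib.Frobenius.exists_isFrobeniusAt_of_liesOverPrime A q hq hA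
  have hqO : IsUnit (q : 𝒪') := s36k_isUnit_natCast (Fact.out : p.Prime) hq hqp hp𝒪'
  have hdq : ((d φ : 𝒪'ˣ) : 𝒪') = (q : 𝒪') := by
    rw [hdval, Cy.frob q hq hqp A hA φ hφ, map_natCast]
  refine hloc A q hq hA hqO φ hφ hdq (hres' ρ'' hcharχ) ?_ hU
  intro w hwE hwI
  obtain ⟨⟨-, h2⟩, h3⟩ := (hEmem w).mp hwE
  exact s36w_baseChange_frobFix s36b_NN1 M' q p hq hqp hqM' A hA φ hφ 𝒪' w
    (fun σ hσ => hwI σ hσ) h2 h3

/-- the original form: some place over `q` where `ρ` is not unipotent on inertia. -/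
theorem s59k_main_new (M' q : ℕ) [NeZero M'] [NeZero q] (hq : q.Prime) (hqp : q ≠ p)
    (hqM' : ¬ q ∣ M')
    (S : Finset ℕ) (hpS : p ∈ S) (hNS : ∀ r : ℕ, r.Prime → r ∣ M' * q * q → r ∈ S)
    (𝒪' : Type) [CommRing 𝒪'] [IsDomain 𝒪'] [IsDiscreteValuationRing 𝒪']
    [IsAdicComplete (maximalIdeal 𝒪') 𝒪'] [Finite (ResidueField 𝒪')]
    [CharZero 𝒪'] [Algebra ℤ_[p] 𝒪'] (hp𝒪' : (p : 𝒪') ∈ maximalIdeal 𝒪')
    (χ : CuspForm.heckeAlgebra (M' * q * q) 2 (↑S : Set ℕ) →+* 𝒪')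
    (hres' : ∀ ρ : GaloisRepAdic 𝒪',
      (∀ (ℓ : ℕ) (hℓ : ℓ.Prime) (hℓN : ¬ ℓ ∣ M' * q * q) (hℓS : ℓ ∉ (↑S : Set ℕ)),
        ∀ A : ValuationSubring (AlgebraicClosure ℚ), A.LiesOverPrime ℓ →
          ∀ σ : AlgebraicClosure ℚ ≃ₐ[ℚ] AlgebraicClosure ℚ, A.IsFrobeniusAt σ ℓ →
            LinearMap.charpoly (ρ.ρ σ) =
              X ^ 2 - C (χ (CuspForm.heckeAlgebra.T hℓ hℓN hℓS)) * X + C ((ℓ : 𝒪'))) →
      ρ.residual.IsAbsolutelyIrreducible)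
    (hnew : ∃ v : 𝒪' ⊗[ℤ_[p]] s30a_TJ (M' * q * q) p, v ≠ 0 ∧
      (∀ (ℓ : ℕ) (hℓ : ℓ.Prime) (hℓN : ¬ ℓ ∣ M' * q * q) (hℓS : ℓ ∉ (↑S : Set ℕ)),
        (s30a_Tz (M' * q * q) p ⟨ℓ, hℓ⟩).baseChange 𝒪' v =
          χ (CuspForm.heckeAlgebra.T hℓ hℓN hℓS) • v) ∧
      (s36w_alphaT (M' * q) q p).baseChange 𝒪' v = 0 ∧
      (s36w_betaT (M' * q) q p).baseChange 𝒪' v = 0) :
    ∃ ρ : GaloisRepAdic 𝒪',
      (∀ (ℓ : ℕ) (hℓ : ℓ.Prime) (hℓN : ¬ ℓ ∣ M' * q * q) (hℓS : ℓ ∉ (↑S : Set ℕ)),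
        ∀ A : ValuationSubring (AlgebraicClosure ℚ), A.LiesOverPrime ℓ →
          ∀ σ : AlgebraicClosure ℚ ≃ₐ[ℚ] AlgebraicClosure ℚ, A.IsFrobeniusAt σ ℓ →
            LinearMap.charpoly (ρ.ρ σ) =
              X ^ 2 - C (χ (CuspForm.heckeAlgebra.T hℓ hℓN hℓS)) * X + C ((ℓ : 𝒪'))) ∧
      ¬ ρ.IsUnipotentOnInertiaAt q := by
  obtain ⟨ρ, h1, h2⟩ := s59k_main_new_all p M' q hq hqp hqM' S hpS hNS 𝒪' hp𝒪' χ hres' hnew
  refine ⟨ρ, h1, fun hU => ?_⟩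
  obtain ⟨A, hA⟩ := Fermat.Agent.Lib.Frobenius.exists_liesOverPrime q hq
  exact h2 A hA (hU A hA)

end MainNew


end

end Fermat.Agent.Lib.S59
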