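/-
Programme (R) / node (H4′), family K (helper1, prefix `s59k_`): **(NN)-3 and the abstract (K-END).**

* `s59k_NN`       : (NN) for ANY `GaloisRepAdic` with the Frobenius polynomials of `χ` (level `M' q²`,
                    `χ` has a `q`-new eigenvector, residually absolutely irreducible): at EVERY place
                    `A` over `q` some element of the inertia group has characteristic polynomial
                    `≠ (X − 1)²`.  [= `s59k_main_new_all` + [CHAR-UNIQ] `s59k_charpoly_unique'`.]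
* `s59k_scalar_of_not_nonScalar` : over a discrete valuation ring, an endomorphism of a torsion-free
                    module which satisfies a monic quadratic relation and is not `s59k_NonScalar` is
                    multiplication by a root of the relation;
* `s59k_exists_nonScalar` : **(NS)** for a torsion-free module `Λ` with `g² − (s̃ tr ρ)(g) g +
                    (s̃² det ρ)(g) = 0`, `ρ` residually absolutely irreducible;
* `s59k_KEND_abs` : **the abstract (K-END)**: `ρ` (the twisted representation at a characteristic-zero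
                    point, determinant trivial on `I`), `Λ` (the eigen-lattice in the Tate module) with
                    (Q), (K) and (NN) `⟹  tr ρ(σ) = s̃(σ) + s̃(σ)⁻¹` for every `σ ∈ I`, in the form
                    `s̃(σ) · tr ρ(σ) = 1 + s̃(σ)²`.
-/
import Fermat.Agent.Lib.S59.KNNCore
import Fermat.Agent.Lib.S59.KChar
import Fermat.Agent.Lib.S59.KEnd

set_option autoImplicit false
set_option linter.unusedSectionVars false
set_option linter.unusedVariables false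
set_option linter.style.haveILetI false

open Polynomial IsLocalRing
open scoped TensorProduct

namespace Fermat.Agent.Lib.S59

open Fermat.Agent.Lib.S29 Fermat.Agent.Lib.S30 Fermat.Agent.Lib.S31 Fermat.Agent.Lib.S35
  Fermat.Agent.Lib.S36

noncomputable section

local notation "Qbar" => AlgebraicClosure ℚ
local notation "GQ" => (AlgebraicClosure ℚ ≃ₐ[ℚ] AlgebraicClosure ℚ)

section NN

variable (p : ℕ) [Fact p.Prime]

/-- **(NN)** for every `GaloisRepAdic` with the Frobenius polynomials of a system `χ` of level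
`M' q²` with a `q`-new eigenvector. -/
theorem s59k_NN (M' q : ℕ) [NeZero M'] [NeZero q] (hq : q.Prime) (hqp : q ≠ p)
    (hqM' : ¬ q ∣ M')
    (S : Finset ℕ) (hpS : p ∈ S) (hNS : ∀ r : ℕ, r.Prime → r ∣ M' * q * q → r ∈ S)
    (𝒪' : Type) [CommRing 𝒪'] [IsDomain 𝒪'] [IsDiscreteValuationRing 𝒪']
    [IsAdicComplete (maximalIdeal 𝒪') 𝒪'] [Finite (ResidueField 𝒪')]
    [CharZero 𝒪'] [Algebra ℤ_[p] 𝒪'] (hp𝒪' : (p : 𝒪') ∈ maximalIdeal 𝒪')
    (χ : CuspForm.heckeAlgebra (M' * q * q) 2 (↑S : Set ℕ) →+* 𝒪')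
    (hres' : ∀ ρ : GaloisRepAdic 𝒪',
      (∀ (ℓ : ℕ) (hℓ : ℓ.Prime) (hℓN : ¬ ℓ ∣ M' * q * q) (hℓS : ℓ ∉ (↑S : Set ℕ)),
        ∀ A : ValuationSubring (AlgebraicClosure ℚ), A.LiesOverPrime ℓ →
          ∀ σ : AlgebraicClosure ℚ ≃ₐ[ℚ] AlgebraicClosure ℚ, A.IsFrobeniusAt σ ℓ →
            LinearMap.charpoly (ρ.ρ σ) =
              X ^ 2 - C (χ (CuspForm.heckeAlgebra.T hℓ hℓN hℓS)) * X + C ((ℓ : 𝒪'))) →
      ρ.residual.IsAbsolutelyIrreducible)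
    (hnew : ∃ v : 𝒪' ⊗[ℤ_[p]] s30a_TJ (M' * q * q) p, v ≠ 0 ∧
      (∀ (ℓ : ℕ) (hℓ : ℓ.Prime) (hℓN : ¬ ℓ ∣ M' * q * q) (hℓS : ℓ ∉ (↑S : Set ℕ)),
        (s30a_Tz (M' * q * q) p ⟨ℓ, hℓ⟩).baseChange 𝒪' v =
          χ (CuspForm.heckeAlgebra.T hℓ hℓN hℓS) • v) ∧
      (s36w_alphaT (M' * q) q p).baseChange 𝒪' v = 0 ∧
      (s36w_betaT (M' * q) q p).baseChange 𝒪' v = 0)
    (ρ : GaloisRepAdic 𝒪')
    (hρ : ∀ (ℓ : ℕ) (hℓ : ℓ.Prime) (hℓN : ¬ ℓ ∣ M' * q * q) (hℓS : ℓ ∉ (↑S : Set ℕ)),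
        ∀ A : ValuationSubring (AlgebraicClosure ℚ), A.LiesOverPrime ℓ →
          ∀ σ : AlgebraicClosure ℚ ≃ₐ[ℚ] AlgebraicClosure ℚ, A.IsFrobeniusAt σ ℓ →
            LinearMap.charpoly (ρ.ρ σ) =
              X ^ 2 - C (χ (CuspForm.heckeAlgebra.T hℓ hℓN hℓS)) * X + C ((ℓ : 𝒪')))
    (A : ValuationSubring (AlgebraicClosure ℚ)) (hA : A.LiesOverPrime q) :
    ∃ σ ∈ A.inertiaSubgroupIn ℚ, LinearMap.charpoly (ρ.ρ σ) ≠ (X - 1) ^ 2 := by
  obtain ⟨ρ', h1, h2⟩ := s59k_main_new_all p M' q hq hqp hqM' S hpS hNS 𝒪' hp𝒪' χ hres' hnew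
  by_contra hcon
  push Not at hcon
  apply h2 A hA
  intro σ hσ
  rw [← hcon σ hσ]
  refine s59k_charpoly_unique' ρ' ρ S ?_ σ
  intro ℓ hℓ hℓS P hP τ hτ
  have hℓN : ¬ ℓ ∣ M' * q * q := fun h => hℓS (hNS ℓ hℓ h)
  have hℓS' : ℓ ∉ (↑S : Set ℕ) := fun h => hℓS (Finset.mem_coe.mp h)
  rw [h1 ℓ hℓ hℓN hℓS' P hP τ hτ, hρ ℓ hℓ hℓN hℓS' P hP τ hτ]

end NN

section KEnd

variable {𝒪 : Type} [CommRing 𝒪] [IsDomain 𝒪] [IsDiscreteValuationRing 𝒪]
  {Λ : Type*} [AddCommGroup Λ] [Module 𝒪 Λ] [NoZeroSMulDivisors 𝒪 Λ] [Nontrivial Λ]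

/-- over a discrete valuation ring: an endomorphism of a torsion-free module with a monic quadratic
relation which is not `s59k_NonScalar` is the multiplication by a root of the relation. -/
theorem s59k_scalar_of_not_nonScalar {f : Λ →ₗ[𝒪] Λ} {t d : 𝒪}
    (hQ : ∀ x : Λ, f (f x) - t • f x + d • x = 0) (hf : ¬ s59k_NonScalar f) :
    ∃ c : 𝒪, (∀ x : Λ, f x = c • x) ∧ c ^ 2 - t * c + d = 0 := by
  rcases s59k_nonScalar_or f with h | ⟨a, b, ha, hab⟩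
  · exact absurd h hf
  -- `b² − t a b + d a² = 0`
  have hrel : b ^ 2 - t * a * b + d * a ^ 2 = 0 := by
    apply s59k_scalar_eq_zero (Λ := Λ)
    intro x
    have h1 : a • f (f x) = b • f x := hab (f x)
    have h2 := hab x
    have h4 : (a * a) • f (f x) = (b * b) • x := by
      rw [mul_smul, h1, smul_comm, h2, ← mul_smul]
    have h5 : (a * a) • f x = (a * b) • x := by rw [mul_smul, h2, ← mul_smul]
    calc (b ^ 2 - t * a * b + d * a ^ 2) • x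
        = (b * b) • x - t • ((a * b) • x) + d • ((a * a) • x) := by module
      _ = (a * a) • f (f x) - t • ((a * a) • f x) + d • ((a * a) • x) := by rw [h4, h5]
      _ = (a * a) • (f (f x) - t • f x + d • x) := by module
      _ = 0 := by rw [hQ x, smul_zero]
  -- `a ∣ b`
  have hdvd : a ∣ b := by
    rcases ValuationRing.dvd_total a b with h | ⟨e, he⟩
    · exact h
    · -- `a = b e`
      have hb0 : b ≠ 0 := by
        intro hb
        rw [hb, zero_mul] at he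
        exact ha he
      have h1 : b ^ 2 * (1 - t * e + d * e ^ 2) = 0 := by
        rw [he] at hrel
        linear_combination hrel
      have h2 : 1 - t * e + d * e ^ 2 = 0 :=
        (mul_eq_zero.mp h1).resolve_left (pow_ne_zero 2 hb0)
      have h3 : e * (t - d * e) = 1 := by linear_combination -h2
      exact ⟨t - d * e, by rw [he, mul_assoc, h3, mul_one]⟩
  obtain ⟨c, hc⟩ := hdvd
  refine ⟨c, fun x => ?_, ?_⟩
  · have := hab x
    rw [hc, mul_smul] at this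
    exact smul_right_injective Λ ha this
  · have h1 : a ^ 2 * (c ^ 2 - t * c + d) = 0 := by
      rw [hc] at hrel
      linear_combination hrel
    exact (mul_eq_zero.mp h1).resolve_left (pow_ne_zero 2 ha)

/-- **(NS)**: if `Λ` satisfies the quadratic relations of the twist `s̃ ⊗ ρ` of a residually
absolutely irreducible `ρ`, some element acts non-scalarly on `Λ`. -/
theorem s59k_exists_nonScalar (h2 : IsUnit (2 : 𝒪)) (ρ : GaloisRepAdic 𝒪)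
    (hirr : ρ.residual.IsAbsolutelyIrreducible) (stw : GQ →* 𝒪ˣ) (ρΛ : GQ →* (Λ →ₗ[𝒪] Λ))
    (hQ : ∀ (g : GQ) (x : Λ), ρΛ g (ρΛ g x) -
        (((stw g : 𝒪ˣ) : 𝒪) * LinearMap.trace 𝒪 ρ.V (ρ.ρ g)) • ρΛ g x +
        (((stw g : 𝒪ˣ) : 𝒪) ^ 2 * LinearMap.det (ρ.ρ g)) • x = 0) :
    ∃ h : GQ, s59k_NonScalar (ρΛ h) := by
  classical
  by_contra hcon
  push Not at hcon
  -- the scalars
  have hex : ∀ g : GQ, ∃ c : 𝒪, (∀ x : Λ, ρΛ g x = c • x) ∧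
      c ^ 2 - (((stw g : 𝒪ˣ) : 𝒪) * LinearMap.trace 𝒪 ρ.V (ρ.ρ g)) * c +
        (((stw g : 𝒪ˣ) : 𝒪) ^ 2 * LinearMap.det (ρ.ρ g)) = 0 :=
    fun g => s59k_scalar_of_not_nonScalar (hQ g) (hcon g)
  choose c hc hcrel using hex
  have hcmul : ∀ g h : GQ, c (g * h) = c g * c h := by
    intro g h
    have : c (g * h) - c g * c h = 0 := by
      apply s59k_scalar_eq_zero (Λ := Λ)
      intro x
      have h1 := hc (g * h) x
      rw [map_mul, Module.End.mul_apply, hc h, map_smul, hc g, ← mul_smul] at h1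
      rw [sub_smul, ← h1, mul_comm, sub_self]
    exact sub_eq_zero.mp this
  have hc1 : c 1 = 1 := by
    have : c 1 - 1 = 0 := by
      apply s59k_scalar_eq_zero (Λ := Λ)
      intro x
      have h1 := hc 1 x
      rw [map_one, Module.End.one_apply] at h1
      rw [sub_smul, one_smul, ← h1, sub_self]
    exact sub_eq_zero.mp this
  let cm : GQ →* 𝒪 := { toFun := c, map_one' := hc1, map_mul' := hcmul }
  let cu : GQ →* 𝒪ˣ := cm.toHomUnits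
  have hcu : ∀ g : GQ, ((cu g : 𝒪ˣ) : 𝒪) = c g := fun g => rfl
  obtain ⟨g, hg⟩ := s59k_NS ρ hirr h2 (cu * stw⁻¹)
  have hzero : (((cu * stw⁻¹) g : 𝒪ˣ) : 𝒪) ^ 2 - LinearMap.trace 𝒪 ρ.V (ρ.ρ g) *
      (((cu * stw⁻¹) g : 𝒪ˣ) : 𝒪) + LinearMap.det (ρ.ρ g) = 0 := by
    have e : (((cu * stw⁻¹) g : 𝒪ˣ) : 𝒪) = c g * (((stw g)⁻¹ : 𝒪ˣ) : 𝒪) := by
      rw [MonoidHom.mul_apply, MonoidHom.inv_apply, Units.val_mul, hcu]
    rw [e]
    have hs : ((stw g : 𝒪ˣ) : 𝒪) * (((stw g)⁻¹ : 𝒪ˣ) : 𝒪) = 1 := Units.mul_inv _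
    have := hcrel g
    set s := ((stw g : 𝒪ˣ) : 𝒪)
    set si := (((stw g)⁻¹ : 𝒪ˣ) : 𝒪)
    set t := LinearMap.trace 𝒪 ρ.V (ρ.ρ g)
    set d := LinearMap.det (ρ.ρ g)
    linear_combination si ^ 2 * this + (t * c g * si - d * (1 + s * si)) * hs
  rw [hzero] at hg
  exact not_isUnit_zero hg

/-- **The abstract (K-END).** -/
theorem s59k_KEND_abs (h2 : IsUnit (2 : 𝒪)) (ρ : GaloisRepAdic 𝒪)
    (hirr : ρ.residual.IsAbsolutelyIrreducible) (stw : GQ →* 𝒪ˣ) (ρΛ : GQ →* (Λ →ₗ[𝒪] Λ))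
    (hQ : ∀ (g : GQ) (x : Λ), ρΛ g (ρΛ g x) -
        (((stw g : 𝒪ˣ) : 𝒪) * LinearMap.trace 𝒪 ρ.V (ρ.ρ g)) • ρΛ g x +
        (((stw g : 𝒪ˣ) : 𝒪) ^ 2 * LinearMap.det (ρ.ρ g)) • x = 0)
    (I : Subgroup GQ) (μ : Subgroup 𝒪ˣ) (hμ : ∀ x ∈ μ, x ^ 2 = 1 → x = 1)
    (hdetI : ∀ σ ∈ I, LinearMap.det (ρ.ρ σ) = 1) (hsI : ∀ σ ∈ I, stw σ ∈ μ)
    (u : GQ → 𝒪ˣ) (hu : ∀ σ ∈ I, u σ ∈ μ)
    (hK : ∀ σ ∈ I, ∀ x : Λ,
      ρΛ σ (ρΛ σ x) - (1 + ((u σ : 𝒪ˣ) : 𝒪)) • ρΛ σ x + ((u σ : 𝒪ˣ) : 𝒪) • x = 0)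
    (hNN : (∀ σ ∈ I, stw σ = 1) ∨ ∃ σ ∈ I, (ρ.ρ σ).charpoly ≠ (X - 1) ^ 2) :
    ∀ σ ∈ I, ((stw σ : 𝒪ˣ) : 𝒪) * LinearMap.trace 𝒪 ρ.V (ρ.ρ σ) = 1 + ((stw σ : 𝒪ˣ) : 𝒪) ^ 2 := by
  classical
  let b : Module.Basis (Fin 2) 𝒪 ρ.V := Module.finBasisOfFinrankEq 𝒪 ρ.V ρ.finrank_eq
  let t : GQ → 𝒪 := fun g => ((stw g : 𝒪ˣ) : 𝒪) * LinearMap.trace 𝒪 ρ.V (ρ.ρ g)
  let d : GQ →* 𝒪ˣ := stw ^ 2 * ρ.det
  have hdval : ∀ g : GQ, ((d g : 𝒪ˣ) : 𝒪) = ((stw g : 𝒪ˣ) : 𝒪) ^ 2 * LinearMap.det (ρ.ρ g) := by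
    intro g
    show (((stw ^ 2 * ρ.det) g : 𝒪ˣ) : 𝒪) = _
    rw [MonoidHom.mul_apply, MonoidHom.pow_apply, Units.val_mul, Units.val_pow_eq_pow_val]
    rfl
  have hQ' : ∀ (g : GQ) (x : Λ), ρΛ g (ρΛ g x) - t g • ρΛ g x + ((d g : 𝒪ˣ) : 𝒪) • x = 0 := by
    intro g x
    rw [hdval]
    exact hQ g x
  have hdI : ∀ σ ∈ I, ((d σ : 𝒪ˣ) : 𝒪) = ((stw σ : 𝒪ˣ) : 𝒪) ^ 2 := by
    intro σ hσ
    rw [hdval, hdetI σ hσ, mul_one]
  have hs : ∀ σ ∈ I, stw σ ∈ μ ∧ stw σ ^ 2 = d σ := by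
    intro σ hσ
    refine ⟨hsI σ hσ, ?_⟩
    apply Units.ext
    rw [hdI σ hσ, Units.val_pow_eq_pow_val]
  have hns := s59k_exists_nonScalar h2 ρ hirr stw ρΛ hQ
  have hfin := s59k_exact_type ρΛ t d hQ' I μ hμ u hu hK (fun g => stw g) hs hns ?_
  · intro σ hσ
    have := hfin σ hσ
    rw [hdI σ hσ] at this
    exact this
  -- (NN)
  intro hprem σ hσ
  rcases hNN with h1 | ⟨σ₀, hσ₀, hne⟩
  · apply Units.ext
    rw [hdI σ hσ, h1 σ hσ, Units.val_one, one_pow]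
  · exfalso
    apply hne
    -- `t σ₀ = 2 s`
    have hts : t σ₀ = 2 * ((stw σ₀ : 𝒪ˣ) : 𝒪) := by
      by_cases hsc : s59k_NonScalar (ρΛ σ₀)
      · exact (s59k_quad_unique hsc (hQ' σ₀) (hprem σ₀ hσ₀)).1
      · obtain ⟨c, hc, hcrel⟩ := s59k_scalar_of_not_nonScalar (hQ' σ₀) hsc
        obtain ⟨c', hc', hcrel'⟩ := s59k_scalar_of_not_nonScalar (hprem σ₀ hσ₀) hsc
        have hcc : c = c' := by
          have : c - c' = 0 := by
            apply s59k_scalar_eq_zero (Λ := Λ)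
            intro x
            rw [sub_smul, ← hc x, ← hc' x, sub_self]
          exact sub_eq_zero.mp this
        have hcs : c' = ((stw σ₀ : 𝒪ˣ) : 𝒪) := by
          have : (c' - ((stw σ₀ : 𝒪ˣ) : 𝒪)) ^ 2 = 0 := by linear_combination hcrel'
          exact sub_eq_zero.mp (pow_eq_zero_iff two_ne_zero |>.mp this)
        rw [hcc, hcs, hdI σ₀ hσ₀] at hcrel
        have hsne : ((stw σ₀ : 𝒪ˣ) : 𝒪) ≠ 0 := (stw σ₀).ne_zero
        have : ((stw σ₀ : 𝒪ˣ) : 𝒪) * (2 * ((stw σ₀ : 𝒪ˣ) : 𝒪) - t σ₀) = 0 := by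
          linear_combination hcrel
        have := (mul_eq_zero.mp this).resolve_left hsne
        linear_combination -this
    have htr : LinearMap.trace 𝒪 ρ.V (ρ.ρ σ₀) = 2 := by
      have hsne : ((stw σ₀ : 𝒪ˣ) : 𝒪) ≠ 0 := (stw σ₀).ne_zero
      have : ((stw σ₀ : 𝒪ˣ) : 𝒪) * (LinearMap.trace 𝒪 ρ.V (ρ.ρ σ₀) - 2) = 0 := by
        linear_combination hts
      exact sub_eq_zero.mp ((mul_eq_zero.mp this).resolve_left hsne)
    rw [s59k_charpoly_two b, htr, hdetI σ₀ hσ₀]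
    simp only [map_ofNat, map_one]
    ring

end KEnd

end

end Fermat.Agent.Lib.S59
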