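/-
Programme R (S59), node C8 (helper2, prefix `s59b_`): **(K-END) at a characteristic-zero point, on the
eigen-lattice `Λ_x`.**

`s59b_KEND_rhoX` : helper1's abstract `s59k_KEND_abs` instantiated at `Λ := s59b_LamX` with
* (Q) = `s59b_rhoX_Q` (Eichler–Shimura + density, BQDens),
* (K) = `s59b_rhoX_K'` (transfer of the Kummer-theoretic relation `(σ − 1)(σ − ⟨δ_σ⟩) = 0` on the
  generalised eigenspaces of `J_H[p^k]`, BKFinal),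
* torsion-freeness and non-triviality of `Λ_x`.
Output: `s̃(σ) · tr ρ(σ) = 1 + s̃(σ)²` for every `σ` in the inertia group `I`.
-/
import Mathlib
import Fermat.Agent.Lib.S59.KNN
import Fermat.Agent.Lib.S59.BQDens

set_option autoImplicit false
set_option linter.unusedSectionVars false
set_option linter.unusedVariables false
set_option linter.style.haveILetI false

noncomputable section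

namespace Fermat.Agent.Lib.S59

open IsLocalRing Polynomial
open scoped TensorProduct
open Fermat.Agent.Lib.S29 Fermat.Agent.Lib.S30 Fermat.Agent.Lib.S48

local notation "Qbar" => AlgebraicClosure ℚ
local notation "GQ" => (AlgebraicClosure ℚ ≃ₐ[ℚ] AlgebraicClosure ℚ)

theorem s59b_K_subst {𝒪 W : Type*} [CommRing 𝒪] [AddCommGroup W] [Module 𝒪 W] (N : Submodule 𝒪 W)
    (X Y x : N) (c c' : 𝒪) (h : c' = c) (hq : X - (1 + c) • Y + c • x = 0) :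
    X - (1 + c') • Y + c' • x = 0 := by
  subst h
  exact hq

/-- `s59k_KEND_abs` for an action on a submodule (instance paths as elaborated on a coerced
submodule). -/
theorem s59b_KEND_sub {𝒪 : Type} [CommRing 𝒪] [IsDomain 𝒪] [IsDiscreteValuationRing 𝒪]
    {W : Type} [AddCommGroup W] [Module 𝒪 W] (N : Submodule 𝒪 W)
    (hN1 : NoZeroSMulDivisors 𝒪 N) (hN2 : Nontrivial N)
    (h2 : IsUnit (2 : 𝒪)) (ρ : GaloisRepAdic 𝒪)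
    (hirr : ρ.residual.IsAbsolutelyIrreducible) (stw : GQ →* 𝒪ˣ) (ρΛ : GQ →* Module.End 𝒪 N)
    (hQ : ∀ (g : GQ) (x : N), ρΛ g (ρΛ g x) -
        (((stw g : 𝒪ˣ) : 𝒪) * LinearMap.trace 𝒪 ρ.V (ρ.ρ g)) • ρΛ g x +
        (((stw g : 𝒪ˣ) : 𝒪) ^ 2 * LinearMap.det (ρ.ρ g)) • x = 0)
    (I : Subgroup GQ) (μ : Subgroup 𝒪ˣ) (hμ : ∀ x ∈ μ, x ^ 2 = 1 → x = 1)
    (hdetI : ∀ σ ∈ I, LinearMap.det (ρ.ρ σ) = 1) (hsI : ∀ σ ∈ I, stw σ ∈ μ)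
    (u : GQ → 𝒪ˣ) (hu : ∀ σ ∈ I, u σ ∈ μ)
    (hK : ∀ σ ∈ I, ∀ x : N,
      ρΛ σ (ρΛ σ x) - (1 + ((u σ : 𝒪ˣ) : 𝒪)) • ρΛ σ x + ((u σ : 𝒪ˣ) : 𝒪) • x = 0)
    (hNN : (∀ σ ∈ I, stw σ = 1) ∨ ∃ σ ∈ I, (ρ.ρ σ).charpoly ≠ (X - 1) ^ 2) :
    ∀ σ ∈ I, ((stw σ : 𝒪ˣ) : 𝒪) * LinearMap.trace 𝒪 ρ.V (ρ.ρ σ) = 1 + ((stw σ : 𝒪ˣ) : 𝒪) ^ 2 :=
  s59k_KEND_abs (Λ := N) h2 ρ hirr stw ρΛ hQ I μ hμ hdetI hsI u hu hK hNN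

section

variable {M : ℕ} [NeZero M] {H : Subgroup (ZMod M)ˣ} {p : ℕ} [Fact p.Prime]
  {S : Set ℕ} {𝒪 : Type} [CommRing 𝒪] [Algebra ℤ_[p] 𝒪] {a : ℕ → 𝒪} {ψ : (ZMod M)ˣ → 𝒪}
  [IsDomain 𝒪] [IsDiscreteValuationRing 𝒪] [CharZero 𝒪] [Module.Finite ℤ_[p] 𝒪]

/-- **(K-END) on `Λ_x`.** -/
theorem s59b_KEND_rhoX (S37 : s59b_S37H M H) (hM : 1 < M) (hneg : (-1 : (ZMod M)ˣ) ∈ H)
    (hp𝒪 : (p : 𝒪) ∈ maximalIdeal 𝒪) (h2 : IsUnit (2 : 𝒪))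
    (w₀ : 𝒪 ⊗[ℤ_[p]] s59b_TJH M H p) (hw₀ : w₀ ≠ 0) (hw₀m : w₀ ∈ s59b_LamX M H p S 𝒪 a ψ)
    (ρ : GaloisRepAdic 𝒪) (hirr : ρ.residual.IsAbsolutelyIrreducible)
    (stw : GQ →* 𝒪ˣ) (hstw : s30_CharContinuous stw) (S' : Finset ℕ)
    (hS' : ∀ ℓ : ℕ, ℓ.Prime → ℓ ∉ S' → ¬ ℓ ∣ M * p ∧ ℓ ∉ S)
    (htr : ∀ ℓ : ℕ, ℓ.Prime → ℓ ∉ S' → ∀ P : ValuationSubring Qbar, P.LiesOverPrime ℓ →
      ∀ σ : GQ, P.IsFrobeniusAt σ ℓ →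
        a ℓ = ((stw σ : 𝒪ˣ) : 𝒪) * LinearMap.trace 𝒪 ρ.V (ρ.ρ σ))
    (hdet : ∀ ℓ : ℕ, ℓ.Prime → ℓ ∉ S' → ∀ ℓu : (ZMod M)ˣ,
      ((ℓu : (ZMod M)ˣ) : ZMod M) = (ℓ : ZMod M) →
      ∀ P : ValuationSubring Qbar, P.LiesOverPrime ℓ → ∀ σ : GQ, P.IsFrobeniusAt σ ℓ →
        (ℓ : 𝒪) * ψ ℓu = ((stw σ : 𝒪ˣ) : 𝒪) ^ 2 * LinearMap.det (ρ.ρ σ))
    (I : Subgroup GQ) (μ : Subgroup 𝒪ˣ) (hμ : ∀ x ∈ μ, x ^ 2 = 1 → x = 1)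
    (hdetI : ∀ σ ∈ I, LinearMap.det (ρ.ρ σ) = 1) (hsI : ∀ σ ∈ I, stw σ ∈ μ)
    (δ : GQ → (ZMod M)ˣ) (u : GQ → 𝒪ˣ) (hu : ∀ σ ∈ I, u σ ∈ μ)
    (huψ : ∀ σ ∈ I, ((u σ : 𝒪ˣ) : 𝒪) = ψ (δ σ))
    (a₀ : ℕ → ℤ)
    (hcong : ∀ ℓ : ℕ, ℓ.Prime → ¬ ℓ ∣ M → ℓ ∉ S → a ℓ - (a₀ ℓ : 𝒪) ∈ maximalIdeal 𝒪)
    (hK : ∀ σ ∈ I, ∀ (k : ℕ) (z : s48k_JH M H), p ^ k • z = 0 → s59b_GenEig M H S a₀ z →
      σ • (σ • z - s48k_diamondJ M H (δ σ) z) - (σ • z - s48k_diamondJ M H (δ σ) z) = 0)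
    (hNN : (∀ σ ∈ I, stw σ = 1) ∨ ∃ σ ∈ I, (ρ.ρ σ).charpoly ≠ (X - 1) ^ 2) :
    ∀ σ ∈ I, ((stw σ : 𝒪ˣ) : 𝒪) * LinearMap.trace 𝒪 ρ.V (ρ.ρ σ) =
      1 + ((stw σ : 𝒪ˣ) : 𝒪) ^ 2 := by
  have hN1 : NoZeroSMulDivisors 𝒪 (s59b_LamX M H p S 𝒪 a ψ) :=
    s59b_LamX_noZeroSMulDivisors hM hneg
  have hN2 : Nontrivial (s59b_LamX M H p S 𝒪 a ψ) := s59b_LamX_nontrivial hw₀ hw₀m
  exact s59b_KEND_sub (s59b_LamX M H p S 𝒪 a ψ) hN1 hN2 h2 ρ hirr stw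
    (s59b_rhoX M H p S 𝒪 a ψ S37)
    (fun g x => s59b_rhoX_Q S37 hM hneg hp𝒪 ρ stw hstw S' hS' htr hdet g x)
    I μ hμ hdetI hsI u hu
    (fun σ hσ x => s59b_K_subst (s59b_LamX M H p S 𝒪 a ψ) _ _ _ _ _ (huψ σ hσ)
      (s59b_rhoX_K' S37 a₀ hcong σ (δ σ) (hK σ hσ) x))
    hNN

end

end Fermat.Agent.Lib.S59
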