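/-
Programme R (S59), node C8 (helper2, prefix `s59b_`): **the twisting character and the Frobenius
matching**, feeding `s59b_KEND_rhoX` (BQEnd).

* `s59b_trdet_of_charpoly` : trace and determinant from a characteristic polynomial `X² − tX + d`;
* `s59b_stwM θ := θ ∘ ε_M : G_ℚ →* 𝒪ˣ` for a character `θ` of `(ℤ/M)ˣ`; `s59b_stwM_cont`
  (`s30_CharContinuous`), `s59b_stwM_frob` (`Frob_ℓ ↦ θ(ℓ)`);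
* `s59b_match_of_charpoly` : if `θ² = ψ` and `ρ(Frob_ℓ)` has characteristic polynomial
  `X² − θ(ℓ)⁻¹ a_ℓ X + ℓ` (the twisted eigenvalues) for the primes outside a finite set, then the two
  matching hypotheses `htr`, `hdet` of `s59b_rhoX_Q` / `s59b_KEND_rhoX` hold for `stw := s59b_stwM θ`;
* **`s59b_KEND_theta`** : (K-END) on `Λ_x` in that form.
-/
import Mathlib
import Fermat.Agent.Lib.S59.BGenCyc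
import Fermat.Agent.Lib.S59.BQEnd

set_option autoImplicit false
set_option linter.unusedSectionVars false
set_option linter.unusedVariables false
set_option linter.style.haveILetI false

noncomputable section

namespace Fermat.Agent.Lib.S59

open IsLocalRing Polynomial
open scoped TensorProduct
open Fermat.Agent.Lib.S29 Fermat.Agent.Lib.S30 Fermat.Agent.Lib.S48

local notation "Qbar" => AlgebraicClosure ℚ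
local notation "GQ" => (AlgebraicClosure ℚ ≃ₐ[ℚ] AlgebraicClosure ℚ)

/-- trace and determinant from the characteristic polynomial. -/
theorem s59b_trdet_of_charpoly {A : Type} [CommRing A] [IsLocalRing A] (ρ : GaloisRepAdic A)
    (g : GQ) (t d : A) (h : (ρ.ρ g).charpoly = X ^ 2 - C t * X + C d) :
    LinearMap.trace A ρ.V (ρ.ρ g) = t ∧ LinearMap.det (ρ.ρ g) = d := by
  let b : Module.Basis (Fin 2) A ρ.V := Module.finBasisOfFinrankEq A ρ.V ρ.finrank_eq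
  rw [s59k_charpoly_two b] at h
  constructor
  · have := congrArg (fun f : A[X] => f.coeff 1) h
    simp only [coeff_add, coeff_sub, coeff_X_pow, coeff_C_mul, coeff_X_one, coeff_C] at this
    simpa using this
  · have := congrArg (fun f : A[X] => f.coeff 0) h
    simp only [coeff_add, coeff_sub, coeff_X_pow, coeff_C_mul, coeff_X_zero, coeff_C_zero] at this
    simpa using this

section Stw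

variable {M : ℕ} [NeZero M] {𝒪 : Type} [CommRing 𝒪] [IsLocalRing 𝒪]

/-- the Galois character `θ ∘ ε_M`. -/
def s59b_stwM (θ : (ZMod M)ˣ →* 𝒪ˣ) : GQ →* 𝒪ˣ := θ.comp (s59b_epsM M)

theorem s59b_stwM_apply (θ : (ZMod M)ˣ →* 𝒪ˣ) (g : GQ) :
    s59b_stwM θ g = θ (s59b_epsM M g) := rfl

theorem s59b_stwM_cont (θ : (ZMod M)ˣ →* 𝒪ˣ) : s30_CharContinuous (s59b_stwM θ) := by
  intro n
  obtain ⟨L, hL, h1⟩ := s59b_epsM_level M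
  refine ⟨L, hL, fun σ hσ => ?_⟩
  rw [s59b_stwM_apply, h1 σ hσ, map_one, Units.val_one, sub_self]
  exact Ideal.zero_mem _

theorem s59b_stwM_frob (θ : (ZMod M)ˣ →* 𝒪ˣ) (ℓ : ℕ) (hℓ : ℓ.Prime) (hℓM : ¬ ℓ ∣ M)
    (ℓu : (ZMod M)ˣ) (hℓu : ((ℓu : (ZMod M)ˣ) : ZMod M) = (ℓ : ZMod M))
    (A : ValuationSubring Qbar) (hA : A.LiesOverPrime ℓ) (σ : GQ) (hσ : A.IsFrobeniusAt σ ℓ) :
    s59b_stwM θ σ = θ ℓu := by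
  have e : s59b_epsM M σ = ℓu := by
    apply Units.ext
    rw [s59b_epsM_frob ℓ hℓ hℓM A hA σ hσ, hℓu]
  rw [s59b_stwM_apply, e]

/-- the Frobenius matching from the twisted characteristic polynomials. -/
theorem s59b_match_of_charpoly (p : ℕ) (θ : (ZMod M)ˣ →* 𝒪ˣ) (ψ : (ZMod M)ˣ → 𝒪)
    (hθψ : ∀ d : (ZMod M)ˣ, ((θ d : 𝒪ˣ) : 𝒪) ^ 2 = ψ d) (a : ℕ → 𝒪) (ρ : GaloisRepAdic 𝒪)
    (S' : Finset ℕ) (hS' : ∀ ℓ : ℕ, ℓ.Prime → ℓ ∉ S' → ¬ ℓ ∣ M * p)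
    (hχ : ∀ ℓ : ℕ, ℓ.Prime → ℓ ∉ S' → ∀ ℓu : (ZMod M)ˣ,
      ((ℓu : (ZMod M)ˣ) : ZMod M) = (ℓ : ZMod M) →
      ∀ P : ValuationSubring Qbar, P.LiesOverPrime ℓ → ∀ σ : GQ, P.IsFrobeniusAt σ ℓ →
        (ρ.ρ σ).charpoly = X ^ 2 - C ((((θ ℓu)⁻¹ : 𝒪ˣ) : 𝒪) * a ℓ) * X + C (ℓ : 𝒪)) :
    (∀ ℓ : ℕ, ℓ.Prime → ℓ ∉ S' → ∀ P : ValuationSubring Qbar, P.LiesOverPrime ℓ →
      ∀ σ : GQ, P.IsFrobeniusAt σ ℓ →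
        a ℓ = ((s59b_stwM θ σ : 𝒪ˣ) : 𝒪) * LinearMap.trace 𝒪 ρ.V (ρ.ρ σ)) ∧
    (∀ ℓ : ℕ, ℓ.Prime → ℓ ∉ S' → ∀ ℓu : (ZMod M)ˣ,
      ((ℓu : (ZMod M)ˣ) : ZMod M) = (ℓ : ZMod M) →
      ∀ P : ValuationSubring Qbar, P.LiesOverPrime ℓ → ∀ σ : GQ, P.IsFrobeniusAt σ ℓ →
        (ℓ : 𝒪) * ψ ℓu = ((s59b_stwM θ σ : 𝒪ˣ) : 𝒪) ^ 2 * LinearMap.det (ρ.ρ σ)) := by
  constructor
  · intro ℓ hℓ hℓS P hP σ hσ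
    have hℓM : ¬ ℓ ∣ M := fun h => hS' ℓ hℓ hℓS (Dvd.dvd.mul_right h p)
    have hcop : Nat.Coprime ℓ M := (Nat.Prime.coprime_iff_not_dvd hℓ).mpr hℓM
    have hℓu := ZMod.coe_unitOfCoprime ℓ hcop
    obtain ⟨htr, -⟩ := s59b_trdet_of_charpoly ρ σ _ _
      (hχ ℓ hℓ hℓS (ZMod.unitOfCoprime ℓ hcop) hℓu P hP σ hσ)
    rw [htr, s59b_stwM_frob θ ℓ hℓ hℓM _ hℓu P hP σ hσ, ← mul_assoc, Units.mul_inv, one_mul]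
  · intro ℓ hℓ hℓS ℓu hℓu P hP σ hσ
    have hℓM : ¬ ℓ ∣ M := fun h => hS' ℓ hℓ hℓS (Dvd.dvd.mul_right h p)
    obtain ⟨-, hdet⟩ := s59b_trdet_of_charpoly ρ σ _ _ (hχ ℓ hℓ hℓS ℓu hℓu P hP σ hσ)
    rw [hdet, s59b_stwM_frob θ ℓ hℓ hℓM ℓu hℓu P hP σ hσ, hθψ, mul_comm]

end Stw

section

variable {M : ℕ} [NeZero M] {H : Subgroup (ZMod M)ˣ} {p : ℕ} [Fact p.Prime]
  {S : Set ℕ} {𝒪 : Type} [CommRing 𝒪] [Algebra ℤ_[p] 𝒪] {a : ℕ → 𝒪} {ψ : (ZMod M)ˣ → 𝒪}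
  [IsDomain 𝒪] [IsDiscreteValuationRing 𝒪] [CharZero 𝒪] [Module.Finite ℤ_[p] 𝒪]

/-- **(K-END) on `Λ_x`, with the twist `θ ∘ ε_M`, `θ² = ψ`.** -/
theorem s59b_KEND_theta (S37 : s59b_S37H M H) (hM : 1 < M) (hneg : (-1 : (ZMod M)ˣ) ∈ H)
    (hp𝒪 : (p : 𝒪) ∈ maximalIdeal 𝒪) (h2 : IsUnit (2 : 𝒪))
    (w₀ : 𝒪 ⊗[ℤ_[p]] s59b_TJH M H p) (hw₀ : w₀ ≠ 0) (hw₀m : w₀ ∈ s59b_LamX M H p S 𝒪 a ψ)
    (ρ : GaloisRepAdic 𝒪) (hirr : ρ.residual.IsAbsolutelyIrreducible)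
    (θ : (ZMod M)ˣ →* 𝒪ˣ) (hθψ : ∀ d : (ZMod M)ˣ, ((θ d : 𝒪ˣ) : 𝒪) ^ 2 = ψ d)
    (S' : Finset ℕ) (hS' : ∀ ℓ : ℕ, ℓ.Prime → ℓ ∉ S' → ¬ ℓ ∣ M * p ∧ ℓ ∉ S)
    (hχ : ∀ ℓ : ℕ, ℓ.Prime → ℓ ∉ S' → ∀ ℓu : (ZMod M)ˣ,
      ((ℓu : (ZMod M)ˣ) : ZMod M) = (ℓ : ZMod M) →
      ∀ P : ValuationSubring Qbar, P.LiesOverPrime ℓ → ∀ σ : GQ, P.IsFrobeniusAt σ ℓ →
        (ρ.ρ σ).charpoly = X ^ 2 - C ((((θ ℓu)⁻¹ : 𝒪ˣ) : 𝒪) * a ℓ) * X + C (ℓ : 𝒪))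
    (I : Subgroup GQ) (μ : Subgroup 𝒪ˣ) (hμ : ∀ x ∈ μ, x ^ 2 = 1 → x = 1)
    (hdetI : ∀ σ ∈ I, LinearMap.det (ρ.ρ σ) = 1) (hθμ : ∀ d : (ZMod M)ˣ, θ d ∈ μ)
    (δ : GQ → (ZMod M)ˣ)
    (a₀ : ℕ → ℤ)
    (hcong : ∀ ℓ : ℕ, ℓ.Prime → ¬ ℓ ∣ M → ℓ ∉ S → a ℓ - (a₀ ℓ : 𝒪) ∈ maximalIdeal 𝒪)
    (hK : ∀ σ ∈ I, ∀ (k : ℕ) (z : s48k_JH M H), p ^ k • z = 0 → s59b_GenEig M H S a₀ z →
      σ • (σ • z - s48k_diamondJ M H (δ σ) z) - (σ • z - s48k_diamondJ M H (δ σ) z) = 0)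
    (hNN : (∀ σ ∈ I, s59b_stwM θ σ = 1) ∨ ∃ σ ∈ I, (ρ.ρ σ).charpoly ≠ (X - 1) ^ 2) :
    ∀ σ ∈ I, ((s59b_stwM θ σ : 𝒪ˣ) : 𝒪) * LinearMap.trace 𝒪 ρ.V (ρ.ρ σ) =
      1 + ((s59b_stwM θ σ : 𝒪ˣ) : 𝒪) ^ 2 := by
  obtain ⟨htr, hdet⟩ := s59b_match_of_charpoly p θ ψ hθψ a ρ S' (fun ℓ hℓ hℓS => (hS' ℓ hℓ hℓS).1) hχ
  refine s59b_KEND_rhoX S37 hM hneg hp𝒪 h2 w₀ hw₀ hw₀m ρ hirr (s59b_stwM θ) (s59b_stwM_cont θ) S' hS'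
    htr hdet I μ hμ hdetI (fun σ _ => hθμ _) δ (fun σ => θ (δ σ) ^ 2) (fun σ _ => μ.pow_mem (hθμ _) 2)
    (fun σ _ => ?_) a₀ hcong hK hNN
  rw [Units.val_pow_eq_pow_val, hθψ]

end

end Fermat.Agent.Lib.S59
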