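/-
Programme (R), node C8, ASSEMBLY (helper2, prefix `s59b_`): **the trace of `ρ_x` on the inertia group
at a prime `q₀ ∈ Q` is `θ + θ⁻¹`**, for every point `x` (eigenclass `φ` on `Γ_H(M)` with eigenvalues
`a_ℓ`, nebentypus `θ²`) congruent to the Frey curve.

`s59b_C8` = `s59b_KEND_theta` (BQTw) with all hypotheses discharged except `hK` (= C6 + C7):
* the eigenvector `w₀ ∈ Λ_x` from `s59b_LamX_ne_bot` (BKFinal);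
* `hres` / `hirr` from `s59b_hres_frey'` (BHres);
* `hNN` from helper3's `s59u_hNN` (UNN);
* `hdetI` from the cyclotomic determinant (`s59e_detCyc_of_frob`, EHDet) and the triviality of the
  `p`-adic cyclotomic character on inertia at `q₀ ≠ p` (`pts_inertia_fixes_pow_root`, main);
* `μ :=` the `p`-power torsion of `𝒪ˣ` (`s59b_muP`).
-/
import Fermat.Agent.Lib.S59.BQTw
import Fermat.Agent.Lib.S59.BHres
import Fermat.Agent.Lib.S59.UNN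
import Fermat.Agent.Lib.S48.DescAsm
import Fermat.Agent.Lib.PT.CycloTower

set_option autoImplicit false
set_option linter.style.haveILetI false
set_option linter.unusedSectionVars false
set_option linter.unusedVariables false

noncomputable section

namespace Fermat.Agent.Lib.S59

open Fermat.Agent.Lib.S29 Fermat.Agent.Lib.S30 Fermat.Agent.Lib.S48 Fermat.Agent.Lib.PT
open WeierstrassCurve WeierstrassCurve.Affine IsLocalRing TensorProduct Polynomial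
open CongruenceSubgroup ModularCurve.Period
open scoped MatrixGroups

local notation "Qbar" => AlgebraicClosure ℚ
local notation "GQ" => (AlgebraicClosure ℚ ≃ₐ[ℚ] AlgebraicClosure ℚ)

section Small

/-- a homomorphism to a torsion-free group kills the elements of finite order. -/
theorem s59b_finOrd_zero {Γ : Type*} [Group Γ] {A : Type*} [AddCommGroup A]
    [NoZeroSMulDivisors ℕ A] (χ : Additive Γ →+ A) (γ : Γ) (hγ : IsOfFinOrder γ) :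
    χ (Additive.ofMul γ) = 0 := by
  obtain ⟨n, hn, hγn⟩ := isOfFinOrder_iff_pow_eq_one.mp hγ
  have h1 : n • χ (Additive.ofMul γ) = 0 := by
    rw [← map_nsmul, ← ofMul_pow, hγn, ofMul_one, map_zero]
  exact (smul_eq_zero.mp h1).resolve_left hn.ne'

/-- a parabolic homomorphism to a domain of characteristic `0` lies in `H_par`. -/
theorem s59b_mem_Hpar_of_parabolic {Γ : Subgroup SL(2, ℤ)} {𝒪 : Type} [CommRing 𝒪] [IsDomain 𝒪]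
    [CharZero 𝒪] (χ : Additive Γ →+ 𝒪) (hχ : IsParabolicHom Γ χ) : χ ∈ s48h_Hpar 𝒪 Γ 𝒪 :=
  s48h_mem_Hpar_iff.mpr ⟨hχ, fun γ hγ => s59b_finOrd_zero χ γ hγ⟩

variable {A : Type} [CommRing A] [IsLocalRing A] [IsNoetherianRing A]

/-- Krull: an element of all `(pⁿ)`, `p ∈ 𝔪`, vanishes. -/
theorem s59b_eq_zero_of_forall_mem_span_pow {p : ℕ} (hpA : (p : A) ∈ maximalIdeal A) (x : A)
    (h : ∀ n : ℕ, x ∈ Ideal.span {((p ^ n : ℕ) : A)}) : x = 0 := by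
  have h1 : x ∈ ⨅ n : ℕ, maximalIdeal A ^ n := by
    rw [Ideal.mem_iInf]
    intro n
    have h2 : Ideal.span {((p ^ n : ℕ) : A)} ≤ maximalIdeal A ^ n := by
      rw [Ideal.span_singleton_le_iff_mem]
      push_cast
      exact Ideal.pow_mem_pow hpA n
    exact h2 (h n)
  rw [Ideal.iInf_pow_eq_bot_of_isLocalRing _ (maximalIdeal.isMaximal A).ne_top] at h1
  exact h1

/-- inertia at `q ≠ p` has determinant `1` (cyclotomic determinant). -/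
theorem s59b_det_inertia (ρ : GaloisRepAdic A) {p q : ℕ} [Fact p.Prime]
    (hdet : ρ.DetIsCyclotomic p) (hq : q.Prime) (hqp : q ≠ p) (P : ValuationSubring Qbar)
    (hP : P.LiesOverPrime q) (σ : GQ) (hσ : σ ∈ P.inertiaSubgroupIn ℚ) :
    LinearMap.det (ρ.ρ σ) = 1 := by
  obtain ⟨hpA, hd⟩ := hdet
  have h1 : LinearMap.det (ρ.ρ σ) - 1 = 0 := by
    refine s59b_eq_zero_of_forall_mem_span_pow hpA _ fun n => ?_
    have := hd n σ 1 (fun μ hμ => by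
      rw [pow_one]
      exact pts_inertia_fixes_pow_root hq hqp P hP σ hσ hμ)
    simpa using this
  exact sub_eq_zero.mp h1

/-- the determinant of a representation with Frobenius polynomials `X² − tX + ℓ` is cyclotomic. -/
theorem s59b_detCyc_of_charpoly (p : ℕ) [Fact p.Prime] (ρ : GaloisRepAdic A)
    (hp : (p : A) ∈ maximalIdeal A) (S : Finset ℕ) (t : ℕ → A)
    (h : ∀ ℓ : ℕ, ℓ.Prime → ℓ ∉ S → ∀ P : ValuationSubring Qbar, P.LiesOverPrime ℓ →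
      ∀ σ : GQ, P.IsFrobeniusAt σ ℓ →
        LinearMap.charpoly (ρ.ρ σ) = X ^ 2 - C (t ℓ) * X + C (ℓ : A)) :
    ρ.DetIsCyclotomic p :=
  s59e_detCyc_of_frob p ρ hp S fun ℓ hℓ hℓS P hP σ hσ =>
    (s59b_trdet_of_charpoly ρ σ _ _ (h ℓ hℓ hℓS P hP σ hσ)).2

end Small

section MuP

variable (p : ℕ) (𝒪 : Type) [CommRing 𝒪]

/-- the `p`-power torsion of `𝒪ˣ`. -/
def s59b_muP : Subgroup 𝒪ˣ where
  carrier := {u | ∃ n : ℕ, u ^ (p ^ n) = 1}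
  one_mem' := ⟨0, one_pow _⟩
  mul_mem' := by
    rintro u v ⟨n, hn⟩ ⟨m, hm⟩
    refine ⟨n + m, ?_⟩
    rw [mul_pow, pow_add, pow_mul, hn, one_pow, mul_comm (p ^ n), pow_mul, hm, one_pow, one_mul]
  inv_mem' := by
    rintro u ⟨n, hn⟩
    exact ⟨n, by rw [inv_pow, hn, inv_one]⟩

theorem s59b_mem_muP {u : 𝒪ˣ} : u ∈ s59b_muP p 𝒪 ↔ ∃ n : ℕ, u ^ (p ^ n) = 1 := Iff.rfl

/-- for `p` odd, `μ_{p^∞}(𝒪)` has no element of order `2`. -/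
theorem s59b_muP_sq (hp : p.Prime) (hp2 : p ≠ 2) (x : 𝒪ˣ) (hx : x ∈ s59b_muP p 𝒪)
    (h2 : x ^ 2 = 1) : x = 1 := by
  obtain ⟨n, hn⟩ := hx
  have hcop : Nat.Coprime (p ^ n) 2 :=
    Nat.Coprime.pow_left n ((Nat.coprime_primes hp Nat.prime_two).mpr hp2)
  have h1 : orderOf x ∣ Nat.gcd (p ^ n) 2 :=
    Nat.dvd_gcd (orderOf_dvd_of_pow_eq_one hn) (orderOf_dvd_of_pow_eq_one h2)
  rw [hcop, Nat.dvd_one, orderOf_eq_one_iff] at h1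
  exact h1

end MuP

section Main

/-- **C8, assembled**: `tr ρ(σ) = θ(σ) + θ(σ)⁻¹` for `σ` in an inertia group at `q₀ ∈ Q`; the only
remaining hypothesis is `hK` (C6 + C7). -/
theorem s59b_C8 (P : FreyPackage) [hpP : Fact P.p.Prime] (W : WeierstrassCurve ℤ)
    (hW : W.IsIntegralModelOf P.freyCurve) (hΔ : W.Δ ≠ 0) (hss : W.IsSemistableModel)
    (hirr : Point.GaloisRepIsIrreducible (K := Qbar) ℚ P.freyCurve P.p)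
    (M : ℕ) [NeZero M] (N : ℕ) [NeZero N] (Q : Finset ℕ)
    (hMeq : M = N * ∏ q ∈ Q, q) (hQ : ∀ q ∈ Q, q.Prime ∧ ¬ q ∣ N)
    (H : Subgroup (ZMod M)ˣ)
    (hH : ∀ (x : ℤ) (u : (ZMod M)ˣ), ((x : ℤ) : ZMod (∏ q ∈ Q, q)) = 1 →
      ((u : (ZMod M)ˣ) : ZMod M) = ((x : ℤ) : ZMod M) → u ∈ H)
    (hM : 1 < M) (hneg : (-1 : (ZMod M)ˣ) ∈ H) (S37 : s59b_S37H M H)
    (𝒪 : Type) [CommRing 𝒪] [IsDomain 𝒪] [IsDiscreteValuationRing 𝒪]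
    [IsAdicComplete (maximalIdeal 𝒪) 𝒪] [Finite (ResidueField 𝒪)] [CharZero 𝒪] [Algebra ℤ_[P.p] 𝒪]
    [Module.Finite ℤ_[P.p] 𝒪]
    (hp𝒪 : (P.p : 𝒪) ∈ maximalIdeal 𝒪)
    (θ : (ZMod M)ˣ →* 𝒪ˣ) (hθH : ∀ d ∈ H, θ d = 1)
    (hθp : ∀ d : (ZMod M)ˣ, ∃ n : ℕ, θ d ^ (P.p ^ n) = 1)
    (a : ℕ → 𝒪)
    (φ : Additive (s48h_GammaH M H) →+ 𝒪) (hφ0 : φ ≠ 0)
    (hpar : IsParabolicHom (s48h_GammaH M H) φ)
    (hdiam : ∀ (σ : SL(2, ℤ)) (hσ : σ ∈ Gamma0 M) (du : (ZMod M)ˣ),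
      ((du : (ZMod M)ˣ) : ZMod M) = ((σ 1 1 : ℤ) : ZMod M) →
      s48h_diamondH H σ hσ 𝒪 φ = (((θ du : 𝒪ˣ) : 𝒪) ^ 2) • φ)
    (heig : ∀ (ℓ : ℕ) [Fact ℓ.Prime] (hℓ : ¬ ℓ ∣ M) (σ : SL(2, ℤ)) (hσ : σ ∈ Gamma0 M)
      (hσ11 : ((σ 1 1 : ℤ) : ZMod M) = (ℓ : ZMod M)),
      s48h_TpH H hℓ σ hσ hσ11 𝒪 φ = a ℓ • φ)
    (S : Finset ℕ) (hpS : P.p ∈ S) (hMS : ∀ r : ℕ, r.Prime → r ∣ M → r ∈ S)
    (hgood : ∀ ℓ : ℕ, ℓ.Prime → ℓ ∉ S → W.IsGoodPrimeFor ℓ)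
    (ha : ∀ ℓ : ℕ, ℓ.Prime → ℓ ∉ S → a ℓ - ((W.apOfModel ℓ : ℤ) : 𝒪) ∈ maximalIdeal 𝒪)
    (ρ : GaloisRepAdic 𝒪)
    (hρ : ∀ ℓ : ℕ, ℓ.Prime → ℓ ∉ S → ∀ ℓu : (ZMod M)ˣ,
        ((ℓu : (ZMod M)ˣ) : ZMod M) = (ℓ : ZMod M) →
        ∀ P' : ValuationSubring Qbar, P'.LiesOverPrime ℓ → ∀ σ : GQ, P'.IsFrobeniusAt σ ℓ →
          (ρ.ρ σ).charpoly = X ^ 2 - C ((((θ ℓu)⁻¹ : 𝒪ˣ) : 𝒪) * a ℓ) * X + C (ℓ : 𝒪))
    (q₀ : ℕ) (hq₀ : q₀ ∈ Q) (hq₀p : q₀ ≠ P.p)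
    (A : ValuationSubring Qbar) (hA : A.LiesOverPrime q₀)
    (δ : GQ → (ZMod M)ˣ)
    (hK : ∀ σ ∈ A.inertiaSubgroupIn ℚ, ∀ (k : ℕ) (z : s48k_JH M H), P.p ^ k • z = 0 →
      s59b_GenEig M H (↑S : Set ℕ) (fun ℓ => W.apOfModel ℓ) z →
      σ • (σ • z - s48k_diamondJ M H (δ σ) z) - (σ • z - s48k_diamondJ M H (δ σ) z) = 0) :
    ∀ σ ∈ A.inertiaSubgroupIn ℚ,
      ((θ (s59b_epsM M σ) : 𝒪ˣ) : 𝒪) * LinearMap.trace 𝒪 ρ.V (ρ.ρ σ) =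
        1 + ((θ (s59b_epsM M σ) : 𝒪ˣ) : 𝒪) ^ 2 := by
  have hp5 := P.hp5
  have hp2 : P.p ≠ 2 := by omega
  have hpprime : P.p.Prime := hpP.out
  -- `2` is a unit
  have h2 : IsUnit (2 : 𝒪) := by
    have h := s59b_two_ne_zero_residue (𝒪 := 𝒪) P.p hp2 hp𝒪
    by_contra hcon
    apply h
    have h3 : (2 : 𝒪) ∈ maximalIdeal 𝒪 := hcon
    have h4 := (residue_eq_zero_iff (2 : 𝒪)).mpr h3
    rwa [map_ofNat] at h4
  -- the residual irreducibility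
  have hres := s59b_hres_frey' P W hW hΔ hss hirr (algebraMap ℤ_[P.p] 𝒪) hp𝒪 M θ hθp a S hpS hMS
    hgood ha
  -- the eigenvector in `Λ_x`
  obtain ⟨w₀, hw₀, hw₀m⟩ := s59b_LamX_ne_bot (p := P.p) (S := (↑S : Set ℕ)) (a := a)
    (ψ := fun d => ((θ d : 𝒪ˣ) : 𝒪) ^ 2) hM hneg φ (s59b_mem_Hpar_of_parabolic φ hpar) hφ0
    (fun ℓ inst hℓM _ => by
      obtain ⟨σℓ, hσℓ, hσℓ11⟩ := s48h_exists_sigma_p (M := M) hℓM
      exact ⟨σℓ, hσℓ, hσℓ11, heig ℓ hℓM σℓ hσℓ hσℓ11⟩)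
    (fun d => by
      obtain ⟨σ, hσ, hσ11⟩ := s48desc_exists_sigma M d
      exact ⟨σ, hσ, hσ11, hdiam σ hσ d hσ11.symm⟩)
  -- the determinant on inertia
  have hdetCyc : ρ.DetIsCyclotomic P.p := by
    classical
    refine s59b_detCyc_of_charpoly P.p ρ hp𝒪 S
      (fun ℓ => if hc : Nat.Coprime ℓ M then
        (((θ (ZMod.unitOfCoprime ℓ hc))⁻¹ : 𝒪ˣ) : 𝒪) * a ℓ else 0) ?_
    intro ℓ hℓ hℓS P' hP' σ hσ
    have hc : Nat.Coprime ℓ M :=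
      (Nat.Prime.coprime_iff_not_dvd hℓ).mpr fun hd => hℓS (hMS ℓ hℓ hd)
    rw [dif_pos hc]
    exact hρ ℓ hℓ hℓS (ZMod.unitOfCoprime ℓ hc) (ZMod.coe_unitOfCoprime ℓ hc) P' hP' σ hσ
  have hq₀prime : q₀.Prime := (hQ q₀ hq₀).1
  have hS' : ∀ ℓ : ℕ, ℓ.Prime → ℓ ∉ S → ¬ ℓ ∣ M * P.p ∧ ℓ ∉ (↑S : Set ℕ) := by
    intro ℓ hℓ hℓS
    refine ⟨fun hd => ?_, by exact_mod_cast hℓS⟩
    rcases (Nat.Prime.dvd_mul hℓ).mp hd with h | h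
    · exact hℓS (hMS ℓ hℓ h)
    · rw [(Nat.prime_dvd_prime_iff_eq hℓ hpprime).mp h] at hℓS
      exact hℓS hpS
  -- (NN)
  have hNN := s59u_hNN M N Q hMeq hQ H hH P.p 𝒪 hp𝒪 θ hθH (s59b_muP P.p 𝒪)
    (s59b_muP_sq P.p 𝒪 hpprime hp2) hθp a φ hφ0 hpar hdiam heig S hpS hMS hres ρ hρ q₀ hq₀ hq₀p A hA
  exact s59b_KEND_theta (S := (↑S : Set ℕ)) (a := a) (ψ := fun d => ((θ d : 𝒪ˣ) : 𝒪) ^ 2)
    S37 hM hneg hp𝒪 h2 w₀ hw₀ hw₀m ρ (hres ρ hρ) θ (fun d => rfl) S hS' hρ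
    (A.inertiaSubgroupIn ℚ) (s59b_muP P.p 𝒪) (s59b_muP_sq P.p 𝒪 hpprime hp2)
    (fun σ hσ => s59b_det_inertia ρ hdetCyc hq₀prime hq₀p A hA σ hσ) hθp δ
    (fun ℓ => W.apOfModel ℓ)
    (fun ℓ hℓ hℓM hℓS => ha ℓ hℓ (by exact_mod_cast hℓS)) hK hNN

end Main

end Fermat.Agent.Lib.S59
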