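/-
Programme (R), node W5 (LEVELS) (helper2, prefix `s59b_`): **the patching levels satisfy `s59b_Lvl`.**

* `s59b_finOrd_pow12` : an element of finite order of `SL(2, ℤ)` satisfies `g ^ 12 = 1`;
* `s59b_lowerRight_pow12` : its lower right entry modulo `M` is a `12`-th root of unity (`g ∈ Γ₀(M)`);
* `s59b_mem_of_pow12` : `u ^ 12 = 1` and `u ^ (p ^ n) ∈ H`, `p ≥ 5` prime, give `u ∈ H`;
* **`s59b_lvl_pgroup`** : `M` squarefree, `1 < M`, `-1 ∈ H`, `2 ∣ M ∨ 3 ∣ M`, `(ℤ/M)ˣ/H` a `p`-group with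
  `p ≥ 5` ⇒ `s59b_Lvl M H` (hence `s59b_S37H M H` by `s59b_S37H_of_lvl`).
-/
import Mathlib
import Fermat.Agent.Lib.S48.HNeben
import Fermat.Agent.Lib.S59.BKLvl

set_option autoImplicit false
set_option linter.unusedSectionVars false

namespace Fermat.Agent.Lib.S59

open Matrix.SpecialLinearGroup CongruenceSubgroup ModularGroup
open Fermat.Agent.Lib.S18 Fermat.Agent.Lib.S48
open scoped MatrixGroups

local notation "Mat2" => Matrix (Fin 2) (Fin 2) ℤ

/-- **an element of finite order of `SL(2, ℤ)` has order dividing `12`.** -/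
theorem s59b_finOrd_pow12 (g : SL(2, ℤ)) (h : IsOfFinOrder g) : g ^ 12 = 1 := by
  rcases s48h_finOrd_trace g h with rfl | rfl | h1
  · exact one_pow 12
  · rw [show (12 : ℕ) = 2 * 6 from rfl, pow_mul, neg_sq, one_pow, one_pow]
  · have hsq := s48h_sq_eq g
    have ht : (g : Mat2).trace = 0 ∨ (g : Mat2).trace = 1 ∨ (g : Mat2).trace = -1 := by
      rw [abs_le] at h1
      omega
    apply Subtype.ext
    rw [Matrix.SpecialLinearGroup.coe_pow, Matrix.SpecialLinearGroup.coe_one]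
    generalize (g : Mat2) = A at hsq ht
    rcases ht with ht | ht | ht
    · rw [ht, zero_smul, zero_sub] at hsq
      calc A ^ 12 = (A * A) ^ 6 := by rw [← pow_two, ← pow_mul]
        _ = 1 := by rw [hsq]; exact Even.neg_one_pow (by decide)
    · rw [ht, one_smul] at hsq
      have h3 : A ^ 3 = -1 := by
        calc A ^ 3 = A * (A * A) := by rw [pow_succ, pow_two, mul_assoc]
          _ = A * A - A := by rw [hsq, mul_sub, mul_one, hsq]
          _ = -1 := by rw [hsq]; abel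
      calc A ^ 12 = (A ^ 3) ^ 4 := by rw [← pow_mul]
        _ = 1 := by rw [h3]; exact Even.neg_one_pow (by decide)
    · rw [ht, neg_one_smul] at hsq
      have h3 : A ^ 3 = 1 := by
        calc A ^ 3 = A * (A * A) := by rw [pow_succ, pow_two, mul_assoc]
          _ = -(A * A) - A := by rw [hsq, mul_sub, mul_neg, mul_one, hsq]
          _ = 1 := by rw [hsq]; abel
      calc A ^ 12 = (A ^ 3) ^ 4 := by rw [← pow_mul]
        _ = 1 := by rw [h3, one_pow]

/-- the lower right entry of an element of finite order of `Γ₀(M)` is a `12`-th root of unity mod `M`. -/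
theorem s59b_lowerRight_pow12 {M : ℕ} {g : SL(2, ℤ)} (hg : g ∈ Gamma0 M) (h : IsOfFinOrder g) :
    (((g 1 1 : ℤ)) : ZMod M) ^ 12 = 1 := by
  rw [← s48h_lowerRight_pow hg 12, s59b_finOrd_pow12 g h]
  simp

/-- `u ^ 12 = 1` and `u ^ (p ^ n) ∈ H` with `p ≥ 5` prime give `u ∈ H`. -/
theorem s59b_mem_of_pow12 {G : Type*} [Group G] (H : Subgroup G) {p : ℕ} (hp : p.Prime)
    (hp5 : 5 ≤ p) (u : G) (h12 : u ^ 12 = 1) (n : ℕ) (hn : u ^ (p ^ n) ∈ H) : u ∈ H := by
  have hcop : Nat.Coprime 12 (p ^ n) := by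
    apply Nat.Coprime.pow_right
    rw [Nat.coprime_comm, Nat.Prime.coprime_iff_not_dvd hp]
    intro hd
    have h1 : p ∣ 2 ∨ p ∣ 2 ∨ p ∣ 3 := by
      have h12' : (12 : ℕ) = 2 * (2 * 3) := by norm_num
      rw [h12'] at hd
      rcases (Nat.Prime.dvd_mul hp).mp hd with h | h
      · exact Or.inl h
      · rcases (Nat.Prime.dvd_mul hp).mp h with h | h
        · exact Or.inr (Or.inl h)
        · exact Or.inr (Or.inr h)
    rcases h1 with h | h | h
    · have := Nat.le_of_dvd (by norm_num) h; omega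
    · have := Nat.le_of_dvd (by norm_num) h; omega
    · have := Nat.le_of_dvd (by norm_num) h; omega
  have hbez := Nat.gcd_eq_gcd_ab 12 (p ^ n)
  rw [hcop.gcd_eq_one] at hbez
  have hu : u = (u ^ 12) ^ (Nat.gcdA 12 (p ^ n)) * (u ^ (p ^ n)) ^ (Nat.gcdB 12 (p ^ n)) := by
    rw [← zpow_natCast u 12, ← zpow_natCast u (p ^ n), ← zpow_mul, ← zpow_mul, ← zpow_add]
    have : ((12 : ℕ) : ℤ) * Nat.gcdA 12 (p ^ n) + ((p ^ n : ℕ) : ℤ) * Nat.gcdB 12 (p ^ n) = 1 := by
      rw [← hbez]; rfl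
    rw [this, zpow_one]
  rw [hu, h12, one_zpow, one_mul]
  exact H.zpow_mem hn _

/-- **the patching levels**: `M` squarefree, divisible by `2` or `3`, `(ℤ/M)ˣ/H` a `p`-group, `p ≥ 5`. -/
theorem s59b_lvl_pgroup {M : ℕ} [NeZero M] {H : Subgroup (ZMod M)ˣ} (hsq : Squarefree M)
    (hM : 1 < M) (hneg : (-1 : (ZMod M)ˣ) ∈ H) (h23 : 2 ∣ M ∨ 3 ∣ M) {p : ℕ} (hp : p.Prime)
    (hp5 : 5 ≤ p) (hpgrp : ∀ u : (ZMod M)ˣ, ∃ n : ℕ, u ^ (p ^ n) ∈ H) : s59b_Lvl M H := by
  refine ⟨hM, hneg, ?_, ?_, fun q hq hqM => s59b_good_of h23 hq hqM⟩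
  · intro g hg hfin u hu
    obtain ⟨n, hn⟩ := hpgrp u
    refine s59b_mem_of_pow12 H hp hp5 u ?_ n hn
    apply Units.ext
    rw [Units.val_pow_eq_pow_val, hu, s59b_lowerRight_pow12 hg hfin, Units.val_one]
  · intro σ k hmem u hu
    have h11 := s59b_diag_of_trace_two (M := M) (N₁ := 1) (L := M) (by rw [one_pow, one_mul]) hsq
      (Nat.coprime_one_left M) hmem (by rw [s48c_trace_conj, s48c_T_pow_trace])
    have h1 : ((1 * M : ℕ) : ℤ) ∣ (σ⁻¹ * T ^ k * σ) 1 1 - 1 := by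
      rw [← ZMod.intCast_zmod_eq_zero_iff_dvd, Int.cast_sub, Int.cast_one, h11, sub_self]
    rw [one_mul] at h1
    have h2 : (((σ⁻¹ * T ^ k * σ) 1 1 : ℤ) : ZMod M) = 1 := by
      have := (ZMod.intCast_zmod_eq_zero_iff_dvd _ M).mpr h1
      rw [Int.cast_sub, Int.cast_one, sub_eq_zero] at this
      exact this
    have hu1 : u = 1 := by
      apply Units.ext
      rw [hu, h2, Units.val_one]
    rw [hu1]
    exact H.one_mem

end Fermat.Agent.Lib.S59
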