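/-
Programme (R), node C8, ASSEMBLY at the patching levels (helper2, prefix `s59b_`): `s59b_C8` with the
hypothesis `S37 : s59b_S37H M H` discharged by `s59b_S37H_of_lvl (s59b_lvl_pgroup …)`:
`M` squarefree, divisible by `2` or `3`, `(ℤ/M)ˣ/H` a `p`-group.

* `s59b_S37H_pgroup` : `s59b_S37H M H` at these levels;
* **`s59b_C8_lvl`** : C8 at these levels; the only non-elementary hypothesis left is `hK` (C6 + C7).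
-/
import Fermat.Agent.Lib.S59.BC8
import Fermat.Agent.Lib.S59.BLvlP
import Fermat.Agent.Lib.S59.BKS37

set_option autoImplicit false
set_option linter.style.haveILetI false
set_option linter.unusedSectionVars false
set_option linter.unusedVariables false

noncomputable section

namespace Fermat.Agent.Lib.S59

open Fermat.Agent.Lib.S29 Fermat.Agent.Lib.S30 Fermat.Agent.Lib.S48 Fermat.Agent.Lib.PT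
open WeierstrassCurve WeierstrassCurve.Affine IsLocalRing TensorProduct Polynomial
open CongruenceSubgroup ModularCurve.Period
open scoped MatrixGroups

local notation "Qbar" => AlgebraicClosure ℚ
local notation "GQ" => (AlgebraicClosure ℚ ≃ₐ[ℚ] AlgebraicClosure ℚ)

/-- **the Galois/Hecke/diamond structure of `J_H(M)` at the patching levels.** -/
theorem s59b_S37H_pgroup {M : ℕ} [NeZero M] {H : Subgroup (ZMod M)ˣ} (hsq : Squarefree M)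
    (hM : 1 < M) (hneg : (-1 : (ZMod M)ˣ) ∈ H) (h23 : 2 ∣ M ∨ 3 ∣ M) {p : ℕ} (hp : p.Prime)
    (hp5 : 5 ≤ p) (hpgrp : ∀ u : (ZMod M)ˣ, ∃ n : ℕ, u ^ (p ^ n) ∈ H) : s59b_S37H M H :=
  s59b_S37H_of_lvl (s59b_lvl_pgroup hsq hM hneg h23 hp hp5 hpgrp)

/-- **C8 at the patching levels.** -/
theorem s59b_C8_lvl (P : FreyPackage) [hpP : Fact P.p.Prime] (W : WeierstrassCurve ℤ)
    (hW : W.IsIntegralModelOf P.freyCurve) (hΔ : W.Δ ≠ 0) (hss : W.IsSemistableModel)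
    (hirr : Point.GaloisRepIsIrreducible (K := Qbar) ℚ P.freyCurve P.p)
    (M : ℕ) [NeZero M] (N : ℕ) [NeZero N] (Q : Finset ℕ)
    (hMeq : M = N * ∏ q ∈ Q, q) (hQ : ∀ q ∈ Q, q.Prime ∧ ¬ q ∣ N)
    (H : Subgroup (ZMod M)ˣ)
    (hH : ∀ (x : ℤ) (u : (ZMod M)ˣ), ((x : ℤ) : ZMod (∏ q ∈ Q, q)) = 1 →
      ((u : (ZMod M)ˣ) : ZMod M) = ((x : ℤ) : ZMod M) → u ∈ H)
    (hsq : Squarefree M) (hM : 1 < M) (hneg : (-1 : (ZMod M)ˣ) ∈ H) (h23 : 2 ∣ M ∨ 3 ∣ M)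
    (hpgrp : ∀ u : (ZMod M)ˣ, ∃ n : ℕ, u ^ (P.p ^ n) ∈ H)
    (𝒪 : Type) [CommRing 𝒪] [IsDomain 𝒪] [IsDiscreteValuationRing 𝒪]
    [IsAdicComplete (maximalIdeal 𝒪) 𝒪] [Finite (ResidueField 𝒪)] [CharZero 𝒪] [Algebra ℤ_[P.p] 𝒪]
    [Module.Finite ℤ_[P.p] 𝒪]
    (hp𝒪 : (P.p : 𝒪) ∈ maximalIdeal 𝒪)
    (θ : (ZMod M)ˣ →* 𝒪ˣ) (hθH : ∀ d ∈ H, θ d = 1)
    (a : ℕ → 𝒪)
    (φ : Additive (s48h_GammaH M H) →+ 𝒪) (hφ0 : φ ≠ 0)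
    (hpar : IsParabolicHom (s48h_GammaH M H) φ)
    (hdiam : ∀ (σ : SL(2, ℤ)) (hσ : σ ∈ Gamma0 M) (du : (ZMod M)ˣ),
      ((du : (ZMod M)ˣ) : ZMod M) = ((σ 1 1 : ℤ) : ZMod M) →
      s48h_diamondH H σ hσ 𝒪 φ = (((θ du : 𝒪ˣ) : 𝒪) ^ 2) • φ)
    (heig : ∀ (ℓ : ℕ) [Fact ℓ.Prime] (hℓ : ¬ ℓ ∣ M) (σ : SL(2, ℤ)) (hσ : σ ∈ Gamma0 M)
      (hσ11 : ((σ 1 1 : ℤ) : ZMod M) = (ℓ : ZMod M)),
      s48h_TpH H hℓ σ hσ hσ11 𝒪 φ = a ℓ • φ)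
    (S : Finset ℕ) (hpS : P.p ∈ S) (hMS : ∀ r : ℕ, r.Prime → r ∣ M → r ∈ S)
    (hgood : ∀ ℓ : ℕ, ℓ.Prime → ℓ ∉ S → W.IsGoodPrimeFor ℓ)
    (ha : ∀ ℓ : ℕ, ℓ.Prime → ℓ ∉ S → a ℓ - ((W.apOfModel ℓ : ℤ) : 𝒪) ∈ maximalIdeal 𝒪)
    (ρ : GaloisRepAdic 𝒪)
    (hρ : ∀ ℓ : ℕ, ℓ.Prime → ℓ ∉ S → ∀ ℓu : (ZMod M)ˣ,
        ((ℓu : (ZMod M)ˣ) : ZMod M) = (ℓ : ZMod M) →
        ∀ P' : ValuationSubring Qbar, P'.LiesOverPrime ℓ → ∀ σ : GQ, P'.IsFrobeniusAt σ ℓ →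
          (ρ.ρ σ).charpoly = X ^ 2 - C ((((θ ℓu)⁻¹ : 𝒪ˣ) : 𝒪) * a ℓ) * X + C (ℓ : 𝒪))
    (q₀ : ℕ) (hq₀ : q₀ ∈ Q) (hq₀p : q₀ ≠ P.p)
    (A : ValuationSubring Qbar) (hA : A.LiesOverPrime q₀)
    (δ : GQ → (ZMod M)ˣ)
    (hK : ∀ σ ∈ A.inertiaSubgroupIn ℚ, ∀ (k : ℕ) (z : s48k_JH M H), P.p ^ k • z = 0 →
      s59b_GenEig M H (↑S : Set ℕ) (fun ℓ => W.apOfModel ℓ) z →
      σ • (σ • z - s48k_diamondJ M H (δ σ) z) - (σ • z - s48k_diamondJ M H (δ σ) z) = 0) :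
    ∀ σ ∈ A.inertiaSubgroupIn ℚ,
      ((θ (s59b_epsM M σ) : 𝒪ˣ) : 𝒪) * LinearMap.trace 𝒪 ρ.V (ρ.ρ σ) =
        1 + ((θ (s59b_epsM M σ) : 𝒪ˣ) : 𝒪) ^ 2 := by
  -- `θ` has `p`-power order since it factors through the `p`-group `(ℤ/M)ˣ/H`
  have hθp : ∀ d : (ZMod M)ˣ, ∃ n : ℕ, θ d ^ (P.p ^ n) = 1 := by
    intro d
    obtain ⟨n, hn⟩ := hpgrp d
    exact ⟨n, by rw [← map_pow]; exact hθH _ hn⟩
  exact s59b_C8 P W hW hΔ hss hirr M N Q hMeq hQ H hH hM hneg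
    (s59b_S37H_pgroup hsq hM hneg h23 hpP.out P.hp5 hpgrp) 𝒪 hp𝒪 θ hθH hθp a φ hφ0 hpar hdiam heig
    S hpS hMS hgood ha ρ hρ q₀ hq₀ hq₀p A hA δ hK

end Fermat.Agent.Lib.S59
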