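import Fermat.Agent.Lib.S59.NKFin
import Fermat.Agent.Lib.S59.BC8Lvl

/-
NC8 (helper7): helper2's C8 at the patching levels (s59b_C8_lvl) WITH THE HYPOTHESIS hK DISCHARGED by the K-END relation
NKFin.s59n_exists_delta (C6 + C7).  The new hypotheses on the auxiliary prime q0 in Q are: 5 <= q0, q0 good for W, and q0 not a
level-raising prime (p does not divide a_q0(W)^2 - (q0+1)^2); Taylor-Wiles variant: q0 = 1 mod p and p does not divide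
a_q0(W)^2 - 4.
* s59n_C8_final, s59n_C8_final_TW.
-/

set_option autoImplicit false
set_option linter.style.haveILetI false
set_option linter.unusedSectionVars false
set_option linter.unusedVariables false
set_option synthInstance.maxHeartbeats 400000

noncomputable section

namespace Fermat.Agent.Lib.S59

open Fermat.Agent.Lib.S29 Fermat.Agent.Lib.S30 Fermat.Agent.Lib.S48 Fermat.Agent.Lib.PT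
open WeierstrassCurve WeierstrassCurve.Affine IsLocalRing TensorProduct Polynomial
open CongruenceSubgroup ModularCurve.Period
open scoped MatrixGroups

local notation "Qbar" => AlgebraicClosure ℚ
local notation "GQ" => (AlgebraicClosure ℚ ≃ₐ[ℚ] AlgebraicClosure ℚ)

/-- **C8 at the patching levels, with `hK` discharged (C6 + C7).** -/
theorem s59n_C8_final (P : FreyPackage) [hpP : Fact P.p.Prime] (W : WeierstrassCurve ℤ)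
    (hW : W.IsIntegralModelOf P.freyCurve) (hΔ : W.Δ ≠ 0) (hss : W.IsSemistableModel)
    (hirr : Point.GaloisRepIsIrreducible (K := Qbar) ℚ P.freyCurve P.p)
    (M : ℕ) [NeZero M] (N : ℕ) [NeZero N] (Q : Finset ℕ)
    (hMeq : M = N * ∏ q ∈ Q, q) (hQ : ∀ q ∈ Q, q.Prime ∧ ¬ q ∣ N)
    (H : Subgroup (ZMod M)ˣ)
    (hH : ∀ (x : ℤ) (u : (ZMod M)ˣ), ((x : ℤ) : ZMod (∏ q ∈ Q, q)) = 1 →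
      ((u : (ZMod M)ˣ) : ZMod M) = ((x : ℤ) : ZMod M) → u ∈ H)
    (hsq : Squarefree M) (hM : 1 < M) (hneg : (-1 : (ZMod M)ˣ) ∈ H) (h23 : 2 ∣ M ∨ 3 ∣ M)
    (hpgrp : ∀ u : (ZMod M)ˣ, ∃ n : ℕ, u ^ (P.p ^ n) ∈ H)
    (𝒪 : Type) [CommRing 𝒪] [IsDomain 𝒪] [IsDiscreteValuationRing 𝒪]
    [IsAdicComplete (maximalIdeal 𝒪) 𝒪] [Finite (ResidueField 𝒪)] [CharZero 𝒪] [Algebra ℤ_[P.p] 𝒪]
    [Module.Finite ℤ_[P.p] 𝒪]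
    (hp𝒪 : (P.p : 𝒪) ∈ maximalIdeal 𝒪)
    (θ : (ZMod M)ˣ →* 𝒪ˣ) (hθH : ∀ d ∈ H, θ d = 1)
    (a : ℕ → 𝒪)
    (φ : Additive (s48h_GammaH M H) →+ 𝒪) (hφ0 : φ ≠ 0)
    (hpar : IsParabolicHom (s48h_GammaH M H) φ)
    (hdiam : ∀ (σ : SL(2, ℤ)) (hσ : σ ∈ Gamma0 M) (du : (ZMod M)ˣ),
      ((du : (ZMod M)ˣ) : ZMod M) = ((σ 1 1 : ℤ) : ZMod M) →
      s48h_diamondH H σ hσ 𝒪 φ = (((θ du : 𝒪ˣ) : 𝒪) ^ 2) • φ)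
    (heig : ∀ (ℓ : ℕ) [Fact ℓ.Prime] (hℓ : ¬ ℓ ∣ M) (σ : SL(2, ℤ)) (hσ : σ ∈ Gamma0 M)
      (hσ11 : ((σ 1 1 : ℤ) : ZMod M) = (ℓ : ZMod M)),
      s48h_TpH H hℓ σ hσ hσ11 𝒪 φ = a ℓ • φ)
    (S : Finset ℕ) (hpS : P.p ∈ S) (hMS : ∀ r : ℕ, r.Prime → r ∣ M → r ∈ S)
    (hgood : ∀ ℓ : ℕ, ℓ.Prime → ℓ ∉ S → W.IsGoodPrimeFor ℓ)
    (ha : ∀ ℓ : ℕ, ℓ.Prime → ℓ ∉ S → a ℓ - ((W.apOfModel ℓ : ℤ) : 𝒪) ∈ maximalIdeal 𝒪)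
    (ρ : GaloisRepAdic 𝒪)
    (hρ : ∀ ℓ : ℕ, ℓ.Prime → ℓ ∉ S → ∀ ℓu : (ZMod M)ˣ,
        ((ℓu : (ZMod M)ˣ) : ZMod M) = (ℓ : ZMod M) →
        ∀ P' : ValuationSubring Qbar, P'.LiesOverPrime ℓ → ∀ σ : GQ, P'.IsFrobeniusAt σ ℓ →
          (ρ.ρ σ).charpoly = X ^ 2 - C ((((θ ℓu)⁻¹ : 𝒪ˣ) : 𝒪) * a ℓ) * X + C (ℓ : 𝒪))
    (q₀ : ℕ) (hq₀ : q₀ ∈ Q) (hq₀p : q₀ ≠ P.p)
    (hq₀5 : 5 ≤ q₀) (hq₀g : ¬ (q₀ : ℤ) ∣ W.Δ)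
    (hq₀LR : ¬ (P.p : ℤ) ∣ W.apOfModel q₀ ^ 2 - ((q₀ : ℤ) + 1) ^ 2)
    (A : ValuationSubring Qbar) (hA : A.LiesOverPrime q₀) :
    ∀ σ ∈ A.inertiaSubgroupIn ℚ,
      ((θ (s59b_epsM M σ) : 𝒪ˣ) : 𝒪) * LinearMap.trace 𝒪 ρ.V (ρ.ρ σ) =
        1 + ((θ (s59b_epsM M σ) : 𝒪ˣ) : 𝒪) ^ 2 := by
  classical
  -- the level is `M₁ * q₀`
  obtain ⟨hq₀pr, hq₀N⟩ := hQ q₀ hq₀
  set M₁ : ℕ := N * ∏ q ∈ Q.erase q₀, q with hM₁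
  have hMM₁ : M = M₁ * q₀ := by
    rw [hMeq, hM₁, ← Finset.mul_prod_erase Q (fun q => q) hq₀]
    ring
  have hqM₁ : ¬ q₀ ∣ M₁ := by
    intro hdvd
    have h2 : q₀ * q₀ ∣ M := by
      rw [hMM₁, mul_comm M₁ q₀]
      exact Nat.mul_dvd_mul_left q₀ hdvd
    have h3 : IsUnit q₀ := hsq q₀ h2
    exact hq₀pr.one_lt.ne' (Nat.isUnit_iff.mp h3)
  -- substitute the level
  subst hMM₁
  haveI : NeZero q₀ := ⟨hq₀pr.ne_zero⟩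
  haveI : NeZero M₁ := ⟨fun h0 => by
    have : M₁ * q₀ = 0 := by rw [h0, zero_mul]
    exact (NeZero.ne (M₁ * q₀)) this⟩
  haveI : Fact q₀.Prime := ⟨hq₀pr⟩
  have hL : s59b_Lvl (M₁ * q₀) H := s59b_lvl_pgroup hsq hM hneg h23 hpP.out P.hp5 hpgrp
  obtain ⟨δ, hδ⟩ := s59n_exists_delta M₁ q₀ hqM₁ hq₀5 hL hpP.out P.hp5 (fun h => hq₀p h.symm) hpgrp A hA
    P.freyCurve W hW hirr S hpS hgood hq₀g hq₀LR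
  exact s59b_C8_lvl P W hW hΔ hss hirr (M₁ * q₀) N Q hMeq hQ H hH hsq hM hneg h23 hpgrp 𝒪 hp𝒪 θ hθH a φ
    hφ0 hpar hdiam heig S hpS hMS hgood ha ρ hρ q₀ hq₀ hq₀p A hA δ
    (fun σ hσ k z hz hgen => hδ σ hσ k z hz hgen)

/-- **C8 at the patching levels, with `hK` discharged, Taylor–Wiles primes**: `q₀ ≡ 1 (mod p)`, `p ∤ a_{q₀}(W)² - 4`. -/
theorem s59n_C8_final_TW (P : FreyPackage) [hpP : Fact P.p.Prime] (W : WeierstrassCurve ℤ)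
    (hW : W.IsIntegralModelOf P.freyCurve) (hΔ : W.Δ ≠ 0) (hss : W.IsSemistableModel)
    (hirr : Point.GaloisRepIsIrreducible (K := Qbar) ℚ P.freyCurve P.p)
    (M : ℕ) [NeZero M] (N : ℕ) [NeZero N] (Q : Finset ℕ)
    (hMeq : M = N * ∏ q ∈ Q, q) (hQ : ∀ q ∈ Q, q.Prime ∧ ¬ q ∣ N)
    (H : Subgroup (ZMod M)ˣ)
    (hH : ∀ (x : ℤ) (u : (ZMod M)ˣ), ((x : ℤ) : ZMod (∏ q ∈ Q, q)) = 1 →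
      ((u : (ZMod M)ˣ) : ZMod M) = ((x : ℤ) : ZMod M) → u ∈ H)
    (hsq : Squarefree M) (hM : 1 < M) (hneg : (-1 : (ZMod M)ˣ) ∈ H) (h23 : 2 ∣ M ∨ 3 ∣ M)
    (hpgrp : ∀ u : (ZMod M)ˣ, ∃ n : ℕ, u ^ (P.p ^ n) ∈ H)
    (𝒪 : Type) [CommRing 𝒪] [IsDomain 𝒪] [IsDiscreteValuationRing 𝒪]
    [IsAdicComplete (maximalIdeal 𝒪) 𝒪] [Finite (ResidueField 𝒪)] [CharZero 𝒪] [Algebra ℤ_[P.p] 𝒪]
    [Module.Finite ℤ_[P.p] 𝒪]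
    (hp𝒪 : (P.p : 𝒪) ∈ maximalIdeal 𝒪)
    (θ : (ZMod M)ˣ →* 𝒪ˣ) (hθH : ∀ d ∈ H, θ d = 1)
    (a : ℕ → 𝒪)
    (φ : Additive (s48h_GammaH M H) →+ 𝒪) (hφ0 : φ ≠ 0)
    (hpar : IsParabolicHom (s48h_GammaH M H) φ)
    (hdiam : ∀ (σ : SL(2, ℤ)) (hσ : σ ∈ Gamma0 M) (du : (ZMod M)ˣ),
      ((du : (ZMod M)ˣ) : ZMod M) = ((σ 1 1 : ℤ) : ZMod M) →
      s48h_diamondH H σ hσ 𝒪 φ = (((θ du : 𝒪ˣ) : 𝒪) ^ 2) • φ)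
    (heig : ∀ (ℓ : ℕ) [Fact ℓ.Prime] (hℓ : ¬ ℓ ∣ M) (σ : SL(2, ℤ)) (hσ : σ ∈ Gamma0 M)
      (hσ11 : ((σ 1 1 : ℤ) : ZMod M) = (ℓ : ZMod M)),
      s48h_TpH H hℓ σ hσ hσ11 𝒪 φ = a ℓ • φ)
    (S : Finset ℕ) (hpS : P.p ∈ S) (hMS : ∀ r : ℕ, r.Prime → r ∣ M → r ∈ S)
    (hgood : ∀ ℓ : ℕ, ℓ.Prime → ℓ ∉ S → W.IsGoodPrimeFor ℓ)
    (ha : ∀ ℓ : ℕ, ℓ.Prime → ℓ ∉ S → a ℓ - ((W.apOfModel ℓ : ℤ) : 𝒪) ∈ maximalIdeal 𝒪)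
    (ρ : GaloisRepAdic 𝒪)
    (hρ : ∀ ℓ : ℕ, ℓ.Prime → ℓ ∉ S → ∀ ℓu : (ZMod M)ˣ,
        ((ℓu : (ZMod M)ˣ) : ZMod M) = (ℓ : ZMod M) →
        ∀ P' : ValuationSubring Qbar, P'.LiesOverPrime ℓ → ∀ σ : GQ, P'.IsFrobeniusAt σ ℓ →
          (ρ.ρ σ).charpoly = X ^ 2 - C ((((θ ℓu)⁻¹ : 𝒪ˣ) : 𝒪) * a ℓ) * X + C (ℓ : 𝒪))
    (q₀ : ℕ) (hq₀ : q₀ ∈ Q) (hq₀p : q₀ ≠ P.p)
    (hq₀5 : 5 ≤ q₀) (hq₀g : ¬ (q₀ : ℤ) ∣ W.Δ)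
    (hq₀1 : (P.p : ℤ) ∣ (q₀ : ℤ) - 1) (hq₀TW : ¬ (P.p : ℤ) ∣ W.apOfModel q₀ ^ 2 - 4)
    (A : ValuationSubring Qbar) (hA : A.LiesOverPrime q₀) :
    ∀ σ ∈ A.inertiaSubgroupIn ℚ,
      ((θ (s59b_epsM M σ) : 𝒪ˣ) : 𝒪) * LinearMap.trace 𝒪 ρ.V (ρ.ρ σ) =
        1 + ((θ (s59b_epsM M σ) : 𝒪ˣ) : 𝒪) ^ 2 := by
  have hLR : ¬ (P.p : ℤ) ∣ W.apOfModel q₀ ^ 2 - ((q₀ : ℤ) + 1) ^ 2 := by
    intro hd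
    apply hq₀TW
    obtain ⟨c, hc⟩ := hq₀1
    have e : W.apOfModel q₀ ^ 2 - 4 =
        (W.apOfModel q₀ ^ 2 - ((q₀ : ℤ) + 1) ^ 2) + (P.p : ℤ) * (c * ((q₀ : ℤ) + 3)) := by
      have hq' : (q₀ : ℤ) = 1 + (P.p : ℤ) * c := by linarith
      rw [hq']
      ring
    rw [e]
    exact dvd_add hd (Dvd.intro _ rfl)
  exact s59n_C8_final P W hW hΔ hss hirr M N Q hMeq hQ H hH hsq hM hneg h23 hpgrp 𝒪 hp𝒪 θ hθH a φ hφ0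
    hpar hdiam heig S hpS hMS hgood ha ρ hρ q₀ hq₀ hq₀p hq₀5 hq₀g hLR A hA

end Fermat.Agent.Lib.S59
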