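/-
S59 (helper9, prefix `s59m_`), **the field `hC8` of `s59i_TLevel`**: at a Taylor–Wiles prime `q₀`, the square of
`uu − uu⁻¹` (`uu` = the square root of the diamond operator of a generator of the `q₀`-component of the
Taylor–Wiles group) is, modulo the annihilator `Iχ` of the module `W`, an element of the maximal ideal of the
trace ring `T′`, namely `tr ρ_{T′}(σ₀) − 2` for a suitable `σ₀` in the inertia group at `q₀`.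

Inputs: helper7's `s59n_C8_final_TW` (C8 pointwise, `hK` discharged), the eigenclass at a minimal prime
(`s59m_eigenclass_of_minimalPrime`, from helper5's ETRChiPt), the surjectivity of the cyclotomic character on
inertia (`s59m_epsM_inertia_surj'`), radicality of `Iχ` (helper3's `s59u_hrad_subalgebra`, a hypothesis here).

* `s59m_mem_of_minimalPrimes` : an element lying in every minimal prime over a radical ideal lies in the ideal;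
* `s59m_trace_sub_two_mem` : `tr ρ(σ) − 2 ∈ 𝔪` if the residual representation is trivial at `σ`;
* `s59m_C8_point` : the identity at one point;
* `s59m_hC8` : the field `hC8`.
-/
import Mathlib
import Fermat.Agent.Lib.S59.MC8Eig
import Fermat.Agent.Lib.S59.NC8
import Fermat.Agent.Lib.S59.MCycInM
import Fermat.Agent.Lib.Frobenius.Exists

set_option autoImplicit false
set_option linter.unusedSectionVars false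
set_option linter.unusedVariables false
set_option linter.style.haveILetI false
set_option synthInstance.maxHeartbeats 400000
set_option maxHeartbeats 8000000

noncomputable section

namespace Fermat.Agent.Lib.S59

open Fermat.Agent.Lib.S29 Fermat.Agent.Lib.S30 Fermat.Agent.Lib.S48 Fermat.Agent.Lib.PT
open WeierstrassCurve WeierstrassCurve.Affine IsLocalRing TensorProduct Polynomial
open CongruenceSubgroup ModularCurve.Period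
open scoped MatrixGroups

local notation "Qbar" => AlgebraicClosure ℚ
local notation "GQ" => (AlgebraicClosure ℚ ≃ₐ[ℚ] AlgebraicClosure ℚ)

/-- an element lying in every minimal prime over a radical ideal lies in the ideal. -/
theorem s59m_mem_of_minimalPrimes {T : Type*} [CommRing T] (I : Ideal T) (hrad : I.IsRadical) (z : T)
    (h : ∀ 𝔓 ∈ I.minimalPrimes, z ∈ 𝔓) : z ∈ I := by
  rw [← hrad.radical, ← Ideal.sInf_minimalPrimes]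
  exact (Submodule.mem_sInf).mpr h

/-- `tr ρ(σ) − 2 ∈ 𝔪` if the residual representation is trivial at `σ`. -/
theorem s59m_trace_sub_two_mem {A : Type} [CommRing A] [IsLocalRing A] (ρ : GaloisRepAdic A) (σ : GQ)
    (h : ρ.residual.ρ σ = 1) : LinearMap.trace A ρ.V (ρ.ρ σ) - 2 ∈ maximalIdeal A := by
  have h1 : LinearMap.trace (ResidueField A) _ (ρ.residual.ρ σ) =
      residue A (LinearMap.trace A ρ.V (ρ.ρ σ)) := by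
    show LinearMap.trace (ResidueField A) _ ((ρ.ρ σ).baseChange (ResidueField A)) = _
    rw [LinearMap.trace_baseChange]
    rfl
  rw [h, LinearMap.trace_one, ρ.residual.finrank_eq] at h1
  rw [← residue_eq_zero_iff, map_sub, ← h1, map_ofNat]
  norm_num

/-- `(n - 1)(n + 1) + 1 = n²`. -/
theorem s59m_exp_aux {n m : ℕ} (hn : 0 < n) (hnm : 2 * m = n + 1) :
    2 * ((n - 1) * m) + 1 = n * n := by
  obtain ⟨k, rfl⟩ : ∃ k, n = k + 1 := ⟨n - 1, by omega⟩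
  have : k + 1 - 1 = k := by omega
  rw [this]
  calc 2 * (k * m) + 1 = k * (2 * m) + 1 := by ring
    _ = k * (k + 1 + 1) + 1 := by rw [hnm]
    _ = (k + 1) * (k + 1) := by ring

/-- **`hC8`**: see the header. -/
theorem s59m_hC8_abs (P : FreyPackage) [hpP : Fact P.p.Prime] (W : WeierstrassCurve ℤ)
    (hW : W.IsIntegralModelOf P.freyCurve) (hΔ : W.Δ ≠ 0) (hss : W.IsSemistableModel)
    (hirr : Point.GaloisRepIsIrreducible (K := Qbar) ℚ P.freyCurve P.p)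
    (M : ℕ) [NeZero M] (N : ℕ) [NeZero N] (Q : Finset ℕ)
    (hMeq : M = N * ∏ q ∈ Q, q) (hQ : ∀ q ∈ Q, q.Prime ∧ ¬ q ∣ N)
    (H : Subgroup (ZMod M)ˣ)
    (hH : ∀ (x : ℤ) (u : (ZMod M)ˣ), ((x : ℤ) : ZMod (∏ q ∈ Q, q)) = 1 →
      ((u : (ZMod M)ˣ) : ZMod M) = ((x : ℤ) : ZMod M) → u ∈ H)
    (hsq : Squarefree M) (hM : 1 < M) (hneg : (-1 : (ZMod M)ˣ) ∈ H) (h23 : 2 ∣ M ∨ 3 ∣ M)
    {e m : ℕ} (hnm : 2 * m = P.p ^ e + 1) (hn : ∀ u : (ZMod M)ˣ, u ^ (P.p ^ e) ∈ H)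
    (𝒪 : Type) [CommRing 𝒪] [IsDomain 𝒪] [IsDiscreteValuationRing 𝒪]
    [IsAdicComplete (maximalIdeal 𝒪) 𝒪] [Finite (ResidueField 𝒪)] [CharZero 𝒪] [Algebra ℤ_[P.p] 𝒪]
    [Module.Finite ℤ_[P.p] 𝒪]
    (hp𝒪 : (P.p : 𝒪) ∈ maximalIdeal 𝒪)
    (S : Finset ℕ) (hpS : P.p ∈ S) (hMS : ∀ r : ℕ, r.Prime → r ∣ M → r ∈ S)
    (hgood : ∀ ℓ : ℕ, ℓ.Prime → ℓ ∉ S → W.IsGoodPrimeFor ℓ)
    -- the module
    {Z : Type} [AddCommGroup Z] [Module 𝒪 Z] [Module.Finite 𝒪 Z] [Module.Free 𝒪 Z]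
    (emb : Z →ₗ[𝒪] s48h_Hpar 𝒪 (s48h_GammaH M H) 𝒪) (hemb : Function.Injective emb)
    (op : s59w_AIdx M → Module.End 𝒪 Z)
    (hop : ∀ j z, emb (op j z) = s59w_op H 𝒪 j (emb z))
    -- the rings
    (T' : Type) [CommRing T'] [IsLocalRing T'] [Algebra 𝒪 T']
    (T : Type) [CommRing T] [Algebra 𝒪 T] [Algebra T' T] [IsScalarTower 𝒪 T' T]
    (jT : T →ₐ[𝒪] Module.End 𝒪 Z)
    (hjTg : ∀ t, jT t ∈ Algebra.adjoin 𝒪 (Set.range op))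
    (Iχ : Ideal T) (hIχ : ∀ t, t ∈ Iχ ↔ jT t = 0) (hrad : Iχ.IsRadical)
    -- the Galois representation over `T'`
    (ρT : GaloisRepAdic T') (tr : ℕ → T')
    (htr : ∀ i : s59w_TIdx M, i.ell ∉ S → jT (algebraMap T' T (tr i.ell)) =
      op (Sum.inr (s59e_tau i ((P.p ^ e - 1) * m))) * op (Sum.inl i))
    (hfrob : ∀ ℓ : ℕ, ℓ.Prime → ℓ ∉ S → ∀ P' : ValuationSubring Qbar, P'.LiesOverPrime ℓ →
      ∀ σ : GQ, P'.IsFrobeniusAt σ ℓ →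
        LinearMap.charpoly (ρT.ρ σ) = X ^ 2 - C (tr ℓ) * X + C (ℓ : T'))
    (hcong : ∀ ℓ : ℕ, ℓ.Prime → ℓ ∉ S →
      tr ℓ - algebraMap 𝒪 T' ((W.apOfModel ℓ : ℤ) : 𝒪) ∈ maximalIdeal T')
    -- the Taylor–Wiles prime
    (q₀ : ℕ) (hq₀ : q₀ ∈ Q) (hq₀p : q₀ ≠ P.p) (hq₀5 : 5 ≤ q₀) (hq₀g : ¬ (q₀ : ℤ) ∣ W.Δ)
    (hq₀1 : (P.p : ℤ) ∣ (q₀ : ℤ) - 1) (hq₀TW : ¬ (P.p : ℤ) ∣ W.apOfModel q₀ ^ 2 - 4)
    (hunr : ρT.residual.IsUnramifiedAt q₀)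
    -- the square root of the diamond operator
    (uu : Tˣ) (τ₀ : Gamma0 M) (L₀ : ℕ) (hL₀ : M = L₀ * q₀)
    (hτ₀ : ZMod.unitsMap (hL₀ ▸ Dvd.intro q₀ rfl : L₀ ∣ M) (s59w_lrUnit τ₀) = 1)
    (huu : jT ((uu : Tˣ) : T) = op (Sum.inr τ₀)) :
    ∃ τ ∈ maximalIdeal T',
      (((uu : Tˣ) : T) - ((uu⁻¹ : Tˣ) : T)) ^ 2 - algebraMap T' T τ ∈ Iχ := by
  classical
  have hIeq : Iχ = RingHom.ker jT := Ideal.ext fun t => by rw [hIχ, RingHom.mem_ker]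
  subst hIeq
  obtain ⟨hq₀pr, hq₀N⟩ := hQ q₀ hq₀
  have hn0 : 0 < P.p ^ e := pow_pos hpP.out.pos e
  -- the inertia element
  have hcop : Nat.Coprime L₀ q₀ := by
    rw [hL₀] at hsq
    exact Nat.coprime_of_squarefree_mul hsq
  obtain ⟨A, hA⟩ := Fermat.Agent.Lib.Frobenius.exists_liesOverPrime q₀ hq₀pr
  obtain ⟨σ₀, hσ₀I, hσ₀ε⟩ := s59m_epsM_inertia_surj' hL₀ hcop hq₀pr A hA (s59w_lrUnit τ₀ ^ 4)
    (by rw [map_pow, hτ₀, one_pow])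
  refine ⟨LinearMap.trace T' ρT.V (ρT.ρ σ₀) - 2,
    s59m_trace_sub_two_mem ρT σ₀ (hunr A hA σ₀ hσ₀I), ?_⟩
  refine s59m_mem_of_minimalPrimes _ hrad _ fun 𝔓 h𝔓 => ?_
  -- the point
  obtain ⟨𝒪', i1, i2, i3, i4, i5, i6, i7, i8, i9, x, θ, a, φ, hker, hφ0, hpar, hθH, hθn, hdia, heig,
    hprod, hpure⟩ := s59m_eigenclass_of_minimalPrime_abs H hnm hn emb hemb op hop T jT hjTg 𝔓 h𝔓
  letI : Algebra ℤ_[P.p] 𝒪' := ((algebraMap 𝒪 𝒪').comp (algebraMap ℤ_[P.p] 𝒪)).toAlgebra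
  haveI : IsScalarTower ℤ_[P.p] 𝒪 𝒪' := IsScalarTower.of_algebraMap_eq fun _ => rfl
  haveI : Module.Finite ℤ_[P.p] 𝒪' := Module.Finite.trans 𝒪 𝒪'
  have hp𝒪' : (P.p : 𝒪') ∈ maximalIdeal 𝒪' := by
    have h1 := map_nonunit (algebraMap 𝒪 𝒪') _ hp𝒪
    rwa [map_natCast] at h1
  -- `θ ≡ 1`
  have hθ1 : ∀ d, ((θ d : 𝒪'ˣ) : 𝒪') - 1 ∈ maximalIdeal 𝒪' := by
    intro d
    have h1 : ((θ d : 𝒪'ˣ) : 𝒪') ^ (P.p ^ e) = 1 := by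
      rw [← Units.val_pow_eq_pow_val, hθn, Units.val_one]
    have h2 := s59b_residue_one_of_pow P.p hp𝒪' _ e h1
    rw [← residue_eq_zero_iff, map_sub, h2, map_one, sub_self]
  -- `θ ^ (2k) = θ⁻¹`
  have hθinv : ∀ d, ((θ d : 𝒪'ˣ) : 𝒪') ^ (2 * ((P.p ^ e - 1) * m)) = (((θ d)⁻¹ : 𝒪'ˣ) : 𝒪') := by
    intro d
    rw [← Units.val_pow_eq_pow_val]
    congr 1
    refine eq_inv_of_mul_eq_one_left ?_
    rw [← pow_succ, s59m_exp_aux hn0 hnm, pow_mul, hθn, one_pow]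
  -- the point of `T'`
  let y : T' →ₐ[𝒪] 𝒪' := x.comp (IsScalarTower.toAlgHom 𝒪 T' T)
  have hy : IsLocalHom (y : T' →+* 𝒪') := s59e_isLocalHom_of_finite T' 𝒪' y
  have hyx : ∀ t : T', y t = x (algebraMap T' T t) := fun t => rfl
  -- the index of a prime outside `S`
  have hℓM : ∀ ℓ : ℕ, ℓ.Prime → ℓ ∉ S → ¬ ℓ ∣ M := fun ℓ hℓ hℓS hd => hℓS (hMS ℓ hℓ hd)
  have hytr : ∀ ℓ : ℕ, ℓ.Prime → ℓ ∉ S → ∀ ℓu : (ZMod M)ˣ,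
      ((ℓu : (ZMod M)ˣ) : ZMod M) = (ℓ : ZMod M) →
      y (tr ℓ) = (((θ ℓu)⁻¹ : 𝒪'ˣ) : 𝒪') * a ℓ := by
    intro ℓ hℓ hℓS ℓu hℓu
    let i : s59w_TIdx M := ⟨ℓ, hℓ, hℓM ℓ hℓ hℓS, (s59w_sig ℓu : SL(2, ℤ)), (s59w_sig ℓu).2, by
      rw [← s59w_lrUnit_coe, s59w_sig_spec, hℓu]⟩
    have h1 := hprod (algebraMap T' T (tr ℓ)) i ((P.p ^ e - 1) * m) ℓu hℓu (htr i hℓS)
    rw [hyx, h1, hθinv]
  -- the representation at the point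
  set ρ : GaloisRepAdic 𝒪' := ρT.baseChangeAlong (y : T' →+* 𝒪') hy with hρdef
  have hρ : ∀ ℓ : ℕ, ℓ.Prime → ℓ ∉ S → ∀ ℓu : (ZMod M)ˣ,
      ((ℓu : (ZMod M)ˣ) : ZMod M) = (ℓ : ZMod M) →
      ∀ P' : ValuationSubring Qbar, P'.LiesOverPrime ℓ → ∀ σ : GQ, P'.IsFrobeniusAt σ ℓ →
        (ρ.ρ σ).charpoly = X ^ 2 - C ((((θ ℓu)⁻¹ : 𝒪'ˣ) : 𝒪') * a ℓ) * X + C (ℓ : 𝒪') := by
    intro ℓ hℓ hℓS ℓu hℓu P' hP' σ hσ
    rw [hρdef, s59e_bc_charpoly, hfrob ℓ hℓ hℓS P' hP' σ hσ, ← hytr ℓ hℓ hℓS ℓu hℓu]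
    simp only [Polynomial.map_add, Polynomial.map_sub, Polynomial.map_mul, Polynomial.map_pow,
      Polynomial.map_X, Polynomial.map_C, map_natCast, Polynomial.map_natCast]
    rfl
  -- the congruence of the eigenvalues
  have ha : ∀ ℓ : ℕ, ℓ.Prime → ℓ ∉ S →
      a ℓ - ((W.apOfModel ℓ : ℤ) : 𝒪') ∈ maximalIdeal 𝒪' := by
    intro ℓ hℓ hℓS
    have hcopℓ : Nat.Coprime ℓ M := (Nat.Prime.coprime_iff_not_dvd hℓ).mpr (hℓM ℓ hℓ hℓS)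
    set ℓu : (ZMod M)ˣ := ZMod.unitOfCoprime ℓ hcopℓ with hℓudef
    have hℓu : ((ℓu : (ZMod M)ˣ) : ZMod M) = (ℓ : ZMod M) := ZMod.coe_unitOfCoprime ℓ hcopℓ
    have h1 := hytr ℓ hℓ hℓS ℓu hℓu
    have h2 : a ℓ = ((θ ℓu : 𝒪'ˣ) : 𝒪') * y (tr ℓ) := by
      rw [h1, ← mul_assoc, ← Units.val_mul, mul_inv_cancel, Units.val_one, one_mul]
    have h3 : y (tr ℓ - algebraMap 𝒪 T' ((W.apOfModel ℓ : ℤ) : 𝒪)) ∈ maximalIdeal 𝒪' :=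
      haveI := hy
      map_nonunit (y : T' →+* 𝒪') _ (hcong ℓ hℓ hℓS)
    rw [map_sub, AlgHom.commutes, map_intCast] at h3
    have h4 : a ℓ - ((W.apOfModel ℓ : ℤ) : 𝒪') =
        ((θ ℓu : 𝒪'ˣ) : 𝒪') * (y (tr ℓ) - ((W.apOfModel ℓ : ℤ) : 𝒪')) +
          (((θ ℓu : 𝒪'ˣ) : 𝒪') - 1) * ((W.apOfModel ℓ : ℤ) : 𝒪') := by
      rw [h2]; ring
    rw [h4]
    exact Ideal.add_mem _ (Ideal.mul_mem_left _ _ h3) (Ideal.mul_mem_right _ _ (hθ1 ℓu))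
  -- C8 at the point
  have hpgrp : ∀ u : (ZMod M)ˣ, ∃ n : ℕ, u ^ (P.p ^ n) ∈ H := fun u => ⟨e, hn u⟩
  have hC8 := s59n_C8_final_TW P W hW hΔ hss hirr M N Q hMeq hQ H hH hsq hM hneg h23 hpgrp 𝒪' hp𝒪' θ
    hθH a φ hφ0 hpar hdia heig S hpS hMS hgood ha ρ hρ q₀ hq₀ hq₀p hq₀5 hq₀g hq₀1 hq₀TW A hA σ₀ hσ₀I
  rw [hσ₀ε, map_pow, Units.val_pow_eq_pow_val, hρdef, s59e_bc_trace] at hC8
  -- the values of the point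
  set ξ : 𝒪' := ((θ (s59w_lrUnit τ₀) : 𝒪'ˣ) : 𝒪') with hξ
  have hxu : x ((uu : Tˣ) : T) = ξ ^ 2 := hpure _ τ₀ huu
  have hxw : ξ ^ 2 * x ((uu⁻¹ : Tˣ) : T) = 1 := by
    rw [← hxu, ← map_mul, ← Units.val_mul, mul_inv_cancel, Units.val_one, map_one]
  have hξ0 : ξ ^ 4 ≠ 0 := pow_ne_zero 4 (Units.ne_zero _)
  rw [← hker, RingHom.mem_ker, map_sub, map_pow, map_sub, hxu, ← hyx, map_sub, map_ofNat]
  refine mul_left_cancel₀ hξ0 ?_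
  rw [mul_zero]
  have hC8' : ξ ^ 4 * (y (LinearMap.trace T' ρT.V (ρT.ρ σ₀))) = 1 + (ξ ^ 4) ^ 2 := hC8
  linear_combination (ξ ^ 2 * x ((uu⁻¹ : Tˣ) : T) + 1 - 2 * ξ ^ 4) * hxw - hC8'

/-- **`hC8`** for a Hecke-stable submodule `Wm ⊆ H_par(Γ_H(M), 𝒪)`. -/
theorem s59m_hC8 (P : FreyPackage) [hpP : Fact P.p.Prime] (W : WeierstrassCurve ℤ)
    (hW : W.IsIntegralModelOf P.freyCurve) (hΔ : W.Δ ≠ 0) (hss : W.IsSemistableModel)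
    (hirr : Point.GaloisRepIsIrreducible (K := Qbar) ℚ P.freyCurve P.p)
    (M : ℕ) [NeZero M] (N : ℕ) [NeZero N] (Q : Finset ℕ)
    (hMeq : M = N * ∏ q ∈ Q, q) (hQ : ∀ q ∈ Q, q.Prime ∧ ¬ q ∣ N)
    (H : Subgroup (ZMod M)ˣ)
    (hH : ∀ (x : ℤ) (u : (ZMod M)ˣ), ((x : ℤ) : ZMod (∏ q ∈ Q, q)) = 1 →
      ((u : (ZMod M)ˣ) : ZMod M) = ((x : ℤ) : ZMod M) → u ∈ H)
    (hsq : Squarefree M) (hM : 1 < M) (hneg : (-1 : (ZMod M)ˣ) ∈ H) (h23 : 2 ∣ M ∨ 3 ∣ M)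
    {e m : ℕ} (hnm : 2 * m = P.p ^ e + 1) (hn : ∀ u : (ZMod M)ˣ, u ^ (P.p ^ e) ∈ H)
    (𝒪 : Type) [CommRing 𝒪] [IsDomain 𝒪] [IsDiscreteValuationRing 𝒪]
    [IsAdicComplete (maximalIdeal 𝒪) 𝒪] [Finite (ResidueField 𝒪)] [CharZero 𝒪] [Algebra ℤ_[P.p] 𝒪]
    [Module.Finite ℤ_[P.p] 𝒪]
    (hp𝒪 : (P.p : 𝒪) ∈ maximalIdeal 𝒪)
    (S : Finset ℕ) (hpS : P.p ∈ S) (hMS : ∀ r : ℕ, r.Prime → r ∣ M → r ∈ S)
    (hgood : ∀ ℓ : ℕ, ℓ.Prime → ℓ ∉ S → W.IsGoodPrimeFor ℓ)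
    (Wm : Submodule 𝒪 (s48h_Hpar 𝒪 (s48h_GammaH M H) 𝒪)) [Module.Finite 𝒪 Wm]
    (hWm : ∀ (j : s59w_AIdx M), ∀ y ∈ Wm, s59w_op H 𝒪 j y ∈ Wm)
    (T' : Type) [CommRing T'] [IsLocalRing T'] [Algebra 𝒪 T']
    (T : Type) [CommRing T] [Algebra 𝒪 T] [Algebra T' T] [IsScalarTower 𝒪 T' T]
    (jT : T →ₐ[𝒪] Module.End 𝒪 Wm)
    (hjTg : ∀ t, jT t ∈ Algebra.adjoin 𝒪 (Set.range (s59e_opW H Wm hWm)))
    (Iχ : Ideal T) (hIχ : ∀ t, t ∈ Iχ ↔ jT t = 0) (hrad : Iχ.IsRadical)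
    (ρT : GaloisRepAdic T') (tr : ℕ → T')
    (htr : ∀ i : s59w_TIdx M, i.ell ∉ S → jT (algebraMap T' T (tr i.ell)) =
      s59e_opW H Wm hWm (Sum.inr (s59e_tau i ((P.p ^ e - 1) * m))) *
        s59e_opW H Wm hWm (Sum.inl i))
    (hfrob : ∀ ℓ : ℕ, ℓ.Prime → ℓ ∉ S → ∀ P' : ValuationSubring Qbar, P'.LiesOverPrime ℓ →
      ∀ σ : GQ, P'.IsFrobeniusAt σ ℓ →
        LinearMap.charpoly (ρT.ρ σ) = X ^ 2 - C (tr ℓ) * X + C (ℓ : T'))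
    (hcong : ∀ ℓ : ℕ, ℓ.Prime → ℓ ∉ S →
      tr ℓ - algebraMap 𝒪 T' ((W.apOfModel ℓ : ℤ) : 𝒪) ∈ maximalIdeal T')
    (q₀ : ℕ) (hq₀ : q₀ ∈ Q) (hq₀p : q₀ ≠ P.p) (hq₀5 : 5 ≤ q₀) (hq₀g : ¬ (q₀ : ℤ) ∣ W.Δ)
    (hq₀1 : (P.p : ℤ) ∣ (q₀ : ℤ) - 1) (hq₀TW : ¬ (P.p : ℤ) ∣ W.apOfModel q₀ ^ 2 - 4)
    (hunr : ρT.residual.IsUnramifiedAt q₀)
    (uu : Tˣ) (τ₀ : Gamma0 M) (L₀ : ℕ) (hL₀ : M = L₀ * q₀)
    (hτ₀ : ZMod.unitsMap (hL₀ ▸ Dvd.intro q₀ rfl : L₀ ∣ M) (s59w_lrUnit τ₀) = 1)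
    (huu : jT ((uu : Tˣ) : T) = s59e_opW H Wm hWm (Sum.inr τ₀)) :
    ∃ τ ∈ maximalIdeal T',
      (((uu : Tˣ) : T) - ((uu⁻¹ : Tˣ) : T)) ^ 2 - algebraMap T' T τ ∈ Iχ := by
  haveI : Module.Free 𝒪 Wm := s59e_free_of_sub H Wm
  exact s59m_hC8_abs (Z := Wm) P W hW hΔ hss hirr M N Q hMeq hQ H hH hsq hM hneg h23 hnm hn 𝒪 hp𝒪 S hpS hMS
    hgood Wm.subtype Wm.subtype_injective (s59e_opW H Wm hWm) (s59e_opW_hop H Wm hWm) T' T jT hjTg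
    Iχ hIχ hrad ρT tr htr hfrob hcong q₀ hq₀ hq₀p hq₀5 hq₀g hq₀1 hq₀TW hunr uu τ₀ L₀ hL₀ hτ₀ huu

end Fermat.Agent.Lib.S59
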