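/-
S59 / [PATCH-FLR] / (T6), part (III-f) (helper4, prefix `s59f_`): **[NEW-q] and [ES-good-q] IN FAMILY** — the
two arithmetic inputs `hnew`, `hT` of `s59f_TStep_of_new` (FStepNew.lean), in the binder shapes of helper9's
`s59m_hC8_abs` (MC8Pt.lean).

Setting: `Z` a finite free `𝒪`-module with a Hecke-equivariant embedding `emb` into `H_par(Γ, 𝒪)`; `T′` local,
`T` commutative `𝒪`-algebras, `jT : T → End_𝒪 Z` with image in `𝒪[T_ℓ, ⟨τ⟩]`, `Iχ = ker jT` RADICAL (helper3's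
`s59u_hrad_subalgebra`); `ρT : GaloisRepAdic T′` with `charpoly ρT(Frob_ℓ) = X² − tr ℓ · X + ℓ` (`ℓ ∉ S`), and
`tr ℓ` acting on `Z` as `T′_ℓ = ⟨ℓ⟩^{(n-1)m} T_ℓ` (`n = p^e`, `2m = n + 1`).

* `s59f_NEW_abs` : `Γ = Γ_{H'}(L r)`, every `emb z` KERNEL-NEW at `r` (`cor (emb z) = 0 = cor (w (emb z))`) ⟹
  `(r + 1)² − (tr ρT(σ_r))² ∈ Iχ` for every Frobenius `σ_r` at `r`;
* `s59f_ES_abs`  : `Γ = Γ_H(M)`, `r ∤ M p`, `t_r ∈ T` acting as `T′_r` ⟹ `t_r − tr ρT(σ_r) ∈ Iχ`.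
-/
import Mathlib
import Fermat.Agent.Lib.S59.FNewPt6
import Fermat.Agent.Lib.S59.FNewFam1
import Fermat.Agent.Lib.S59.MC8Pt

set_option autoImplicit false
set_option linter.unusedSectionVars false
set_option linter.unusedVariables false
set_option linter.style.haveILetI false
set_option synthInstance.maxHeartbeats 400000
set_option maxHeartbeats 4000000

noncomputable section

namespace Fermat.Agent.Lib.S59

open Fermat.Agent.Lib.S29 Fermat.Agent.Lib.S30 Fermat.Agent.Lib.S48 Fermat.Agent.Lib.S41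
open IsLocalRing TensorProduct Polynomial
open CongruenceSubgroup ModularCurve.Period
open scoped MatrixGroups

local notation "Qbar" => AlgebraicClosure ℚ
local notation "GQ" => (AlgebraicClosure ℚ ≃ₐ[ℚ] AlgebraicClosure ℚ)

section Trace

variable {A : Type} [CommRing A] [IsLocalRing A]

/-- the trace from the characteristic polynomial. -/
theorem s59f_trace_of_charpoly (ρ : GaloisRepAdic A) (σ : GQ) (t d : A)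
    (h : LinearMap.charpoly (ρ.ρ σ) = X ^ 2 - C t * X + C d) :
    LinearMap.trace A ρ.V (ρ.ρ σ) = t := by
  let b : Module.Basis (Fin 2) A ρ.V := Module.finBasisOfFinrankEq A ρ.V ρ.finrank_eq
  rw [s59k_charpoly_two b] at h
  have := congrArg (fun f : A[X] => f.coeff 1) h
  simp only [coeff_add, coeff_sub, coeff_X_pow, coeff_C_mul, coeff_X_one, coeff_C] at this
  simpa using this

/-- the square of the trace from the two-sided alternative. -/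
theorem s59f_trace_sq_of_charpoly (ρ : GaloisRepAdic A) (σ : GQ) (c d : A)
    (h : LinearMap.charpoly (ρ.ρ σ) = X ^ 2 - C c * X + C d ∨
      LinearMap.charpoly (ρ.ρ σ) = X ^ 2 + C c * X + C d) :
    (LinearMap.trace A ρ.V (ρ.ρ σ)) ^ 2 = c ^ 2 := by
  rcases h with h | h
  · rw [s59f_trace_of_charpoly ρ σ c d h]
  · have h' : LinearMap.charpoly (ρ.ρ σ) = X ^ 2 - C (-c) * X + C d := by
      rw [h, C_neg]; ring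
    rw [s59f_trace_of_charpoly ρ σ (-c) d h', neg_sq]

end Trace

section NewFam

variable (p : ℕ) [hpP : Fact p.Prime] (N₁ : ℕ) [NeZero N₁] (r : ℕ) [NeZero r] [hr : Fact r.Prime]
  (Q : Finset ℕ)

/-- **[NEW-q] in family.** -/
theorem s59f_NEW_abs (hp2 : p ≠ 2) (hrp : r ≠ p) (hQ : ∀ q ∈ Q, q.Prime ∧ ¬ q ∣ N₁ * r)
    {L : ℕ} [NeZero L] (hL : L = N₁ * ∏ q ∈ Q, q) (hrL : ¬ r ∣ L)
    (H : Subgroup (ZMod L)ˣ) (hD₁ : (∏ q ∈ Q, q) ∣ L)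
    (hHker : s59u_ker L (∏ q ∈ Q, q) hD₁ ≤ H)
    (H' : Subgroup (ZMod (L * r))ˣ)
    (hH' : ∀ u : (ZMod (L * r))ˣ, u ∈ H' ↔ ZMod.unitsMap (dvd_mul_right L r) u ∈ H)
    {e m : ℕ} (hnm : 2 * m = p ^ e + 1) (hn : ∀ u : (ZMod (L * r))ˣ, u ^ (p ^ e) ∈ H')
    (𝒪 : Type) [CommRing 𝒪] [IsDomain 𝒪] [IsDiscreteValuationRing 𝒪]
    [IsAdicComplete (maximalIdeal 𝒪) 𝒪] [Finite (ResidueField 𝒪)] [CharZero 𝒪] [Algebra ℤ_[p] 𝒪]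
    (hp𝒪 : (p : 𝒪) ∈ maximalIdeal 𝒪)
    (S : Finset ℕ) (hpS : p ∈ S) (hMS : ∀ q : ℕ, q.Prime → q ∣ L * r → q ∈ S)
    -- the module
    {Z : Type} [AddCommGroup Z] [Module 𝒪 Z] [Module.Finite 𝒪 Z] [Module.Free 𝒪 Z]
    [NeZero (L * r)]
    (emb : Z →ₗ[𝒪] s48h_Hpar 𝒪 (s48h_GammaH (L * r) H') 𝒪) (hemb : Function.Injective emb)
    (op : s59w_AIdx (L * r) → Module.End 𝒪 Z)
    (hop : ∀ j z, emb (op j z) = s59w_op H' 𝒪 j (emb z))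
    -- kernel-newness
    (hnewA : ∀ z, s59f_corH hrL (s59f_isG_GammaH L H)
      (s59f_isG'_GammaH hrL rfl (dvd_mul_right L r) hH') 𝒪
      ((emb z : s48h_Hpar 𝒪 (s48h_GammaH (L * r) H') 𝒪) :
        Additive (s48h_GammaH (L * r) H') →+ 𝒪) = 0)
    (hnewB : ∀ z, s59f_corH hrL (s59f_isG_GammaH L H)
      (s59f_isG'_GammaH hrL rfl (dvd_mul_right L r) hH') 𝒪
      (s59f_wH hrL (s59f_isG'_GammaH hrL rfl (dvd_mul_right L r) hH') 𝒪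
        ((emb z : s48h_Hpar 𝒪 (s48h_GammaH (L * r) H') 𝒪) :
          Additive (s48h_GammaH (L * r) H') →+ 𝒪)) = 0)
    -- the rings
    (T' : Type) [CommRing T'] [IsLocalRing T'] [Algebra 𝒪 T']
    (T : Type) [CommRing T] [Algebra 𝒪 T] [Algebra T' T] [IsScalarTower 𝒪 T' T]
    (jT : T →ₐ[𝒪] Module.End 𝒪 Z)
    (hjTg : ∀ t, jT t ∈ Algebra.adjoin 𝒪 (Set.range op))
    (Iχ : Ideal T) (hIχ : ∀ t, t ∈ Iχ ↔ jT t = 0) (hrad : Iχ.IsRadical)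
    -- the Galois representation over `T'`
    (ρT : GaloisRepAdic T') (tr : ℕ → T')
    (htr : ∀ i : s59w_TIdx (L * r), i.ell ∉ S → jT (algebraMap T' T (tr i.ell)) =
      op (Sum.inr (s59e_tau i ((p ^ e - 1) * m))) * op (Sum.inl i))
    (hfrob : ∀ ℓ : ℕ, ℓ.Prime → ℓ ∉ S → ∀ P' : ValuationSubring Qbar, P'.LiesOverPrime ℓ →
      ∀ σ : GQ, P'.IsFrobeniusAt σ ℓ →
        LinearMap.charpoly (ρT.ρ σ) = X ^ 2 - C (tr ℓ) * X + C (ℓ : T'))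
    (A : ValuationSubring Qbar) (hA : A.LiesOverPrime r) (σ : GQ) (hσ : A.IsFrobeniusAt σ r) :
    ((r : T) + 1) ^ 2 - (algebraMap T' T (LinearMap.trace T' ρT.V (ρT.ρ σ))) ^ 2 ∈ Iχ := by
  classical
  have hIeq : Iχ = RingHom.ker jT := Ideal.ext fun t => by rw [hIχ, RingHom.mem_ker]
  subst hIeq
  have hn0 : 0 < p ^ e := pow_pos hpP.out.pos e
  refine s59m_mem_of_minimalPrimes _ hrad _ fun 𝔓 h𝔓 => ?_
  -- the point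
  obtain ⟨𝒪', i1, i2, i3, i4, i5, i6, i7, i8, i9, x, θ, a, φ, hker, hφ0, hpar, hθH, hθn, hdia, heig,
    hprod, hpure, v, hφv⟩ :=
    s59f_eigenclass_of_minimalPrime_abs H' hnm hn emb hemb op hop T jT hjTg 𝔓 h𝔓
  letI : Algebra ℤ_[p] 𝒪' := ((algebraMap 𝒪 𝒪').comp (algebraMap ℤ_[p] 𝒪)).toAlgebra
  haveI : IsScalarTower ℤ_[p] 𝒪 𝒪' := IsScalarTower.of_algebraMap_eq fun _ => rfl
  have hp𝒪' : (p : 𝒪') ∈ maximalIdeal 𝒪' := by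
    have h1 := map_nonunit (algebraMap 𝒪 𝒪') _ hp𝒪
    rwa [map_natCast] at h1
  -- `θ ^ (2k) = θ⁻¹`
  have hθinv : ∀ d, ((θ d : 𝒪'ˣ) : 𝒪') ^ (2 * ((p ^ e - 1) * m)) = (((θ d)⁻¹ : 𝒪'ˣ) : 𝒪') := by
    intro d
    rw [← Units.val_pow_eq_pow_val]
    congr 1
    refine eq_inv_of_mul_eq_one_left ?_
    rw [← pow_succ, s59m_exp_aux hn0 hnm, pow_mul, hθn, one_pow]
  -- the point of `T'`
  let y : T' →ₐ[𝒪] 𝒪' := x.comp (IsScalarTower.toAlgHom 𝒪 T' T)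
  have hy : IsLocalHom (y : T' →+* 𝒪') := s59e_isLocalHom_of_finite T' 𝒪' y
  have hyx : ∀ t : T', y t = x (algebraMap T' T t) := fun t => rfl
  have hℓM : ∀ ℓ : ℕ, ℓ.Prime → ℓ ∉ S → ¬ ℓ ∣ L * r := fun ℓ hℓ hℓS hd => hℓS (hMS ℓ hℓ hd)
  have hytr : ∀ ℓ : ℕ, ℓ.Prime → ℓ ∉ S → ∀ ℓu : (ZMod (L * r))ˣ,
      ((ℓu : (ZMod (L * r))ˣ) : ZMod (L * r)) = (ℓ : ZMod (L * r)) →
      y (tr ℓ) = (((θ ℓu)⁻¹ : 𝒪'ˣ) : 𝒪') * a ℓ := by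
    intro ℓ hℓ hℓS ℓu hℓu
    let i : s59w_TIdx (L * r) := ⟨ℓ, hℓ, hℓM ℓ hℓ hℓS, (s59w_sig ℓu : SL(2, ℤ)), (s59w_sig ℓu).2, by
      rw [← s59w_lrUnit_coe, s59w_sig_spec, hℓu]⟩
    have h1 := hprod (algebraMap T' T (tr ℓ)) i ((p ^ e - 1) * m) ℓu hℓu (htr i hℓS)
    rw [hyx, h1, hθinv]
  -- the representation at the point
  set ρ : GaloisRepAdic 𝒪' := ρT.baseChangeAlong (y : T' →+* 𝒪') hy with hρdef
  have hρ : ∀ ℓ : ℕ, ℓ.Prime → ℓ ∉ S → ∀ ℓu : (ZMod (L * r))ˣ,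
      ((ℓu : (ZMod (L * r))ˣ) : ZMod (L * r)) = (ℓ : ZMod (L * r)) →
      ∀ P' : ValuationSubring Qbar, P'.LiesOverPrime ℓ → ∀ τ : GQ, P'.IsFrobeniusAt τ ℓ →
        (ρ.ρ τ).charpoly = X ^ 2 - C ((((θ ℓu)⁻¹ : 𝒪'ˣ) : 𝒪') * a ℓ) * X + C (ℓ : 𝒪') := by
    intro ℓ hℓ hℓS ℓu hℓu P' hP' τ hτ
    rw [hρdef, s59e_bc_charpoly, hfrob ℓ hℓ hℓS P' hP' τ hτ, ← hytr ℓ hℓ hℓS ℓu hℓu]
    simp only [Polynomial.map_add, Polynomial.map_sub, Polynomial.map_mul, Polynomial.map_pow,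
      Polynomial.map_X, Polynomial.map_C, map_natCast, Polynomial.map_natCast]
    rfl
  -- the roots of unity
  have hθμ : ∀ d, θ d ∈ s59b_muP p 𝒪' := fun d => ⟨e, hθn d⟩
  -- kernel-newness of `φ`
  have hG := s59f_isG_GammaH L H
  have hG' := s59f_isG'_GammaH hrL rfl (dvd_mul_right L r) hH'
  have hnatA : ∀ χ : Additive (s48h_GammaH (L * r) H') →+ 𝒪,
      s59f_corH hrL hG hG' 𝒪' (s59e_post 𝒪 𝒪' _ χ) =
        s59e_post 𝒪 𝒪' _ (s59f_corH hrL hG hG' 𝒪 χ) := fun χ =>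
    (s59f_famCorA hrL hG hG').op_natural (algebraMap 𝒪 𝒪' : 𝒪 →+ 𝒪') χ
  have hlinA : ∀ (c : 𝒪') (χ : Additive (s48h_GammaH (L * r) H') →+ 𝒪'),
      s59f_corH hrL hG hG' 𝒪' (c • χ) = c • s59f_corH hrL hG hG' 𝒪' χ := fun c χ =>
    s59f_op_smul (s59f_famCorA hrL hG hG') c χ
  have hnatW : ∀ χ : Additive (s48h_GammaH (L * r) H') →+ 𝒪,
      s59f_wH hrL hG' 𝒪' (s59e_post 𝒪 𝒪' _ χ) = s59e_post 𝒪 𝒪' _ (s59f_wH hrL hG' 𝒪 χ) := fun χ =>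
    s48h_MatDatum.heckeHom_comp _ (algebraMap 𝒪 𝒪' : 𝒪 →+ 𝒪') χ
  have hlinW : ∀ (c : 𝒪') (χ : Additive (s48h_GammaH (L * r) H') →+ 𝒪'),
      s59f_wH hrL hG' 𝒪' (c • χ) = c • s59f_wH hrL hG' 𝒪' χ := fun c χ =>
    s48h_MatDatum.heckeHom_smul _ c χ
  have hφA : s59f_corH hrL hG hG' 𝒪' φ = 0 := by
    rw [hφv]
    exact s59f_homBC_kill (s59e_embH H' emb) (s59f_corH hrL hG hG' 𝒪) (s59f_corH hrL hG hG' 𝒪')
      hnatA hlinA (fun z => hnewA z) v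
  have hφB : s59f_corH hrL hG hG' 𝒪' (s59f_wH hrL hG' 𝒪' φ) = 0 := by
    rw [hφv]
    exact s59f_homBC_kill (s59e_embH H' emb)
      ((s59f_corH hrL hG hG' 𝒪).comp (s59f_wH hrL hG' 𝒪))
      ((s59f_corH hrL hG hG' 𝒪').comp (s59f_wH hrL hG' 𝒪'))
      (fun χ => by
        rw [AddMonoidHom.comp_apply, AddMonoidHom.comp_apply, hnatW, hnatA])
      (fun c χ => by
        rw [AddMonoidHom.comp_apply, AddMonoidHom.comp_apply, hlinW, hlinA])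
      (fun z => hnewB z) v
  -- [NEW-q] at the point
  have key := s59f_NEWpt p N₁ r Q hrp hQ hL hrL H hD₁ hHker H' hH' 𝒪' hp𝒪' θ hθH (s59b_muP p 𝒪')
    (s59b_muP_sq p 𝒪' hpP.out hp2) hθμ a φ hφ0 hpar hdia heig hφA hφB S hpS hMS ρ hρ A hA σ hσ
  have hsq := s59f_trace_sq_of_charpoly ρ σ ((r : 𝒪') + 1) (r : 𝒪') key
  rw [hρdef, s59e_bc_trace] at hsq
  -- the values of the point
  rw [← hker, RingHom.mem_ker, map_sub, map_pow, map_pow, map_add, map_one, map_natCast, ← hyx]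
  rw [sub_eq_zero]
  exact hsq.symm

end NewFam

section ESFam

variable (p : ℕ) [hpP : Fact p.Prime]

/-- **[ES-good-q] in family**: Eichler–Shimura at a good prime `r` (possibly in `S`). -/
theorem s59f_ES_abs (hp2 : p ≠ 2) (M : ℕ) [NeZero M] (N : ℕ) [NeZero N] (Q : Finset ℕ)
    (hMeq : M = N * ∏ q ∈ Q, q) (hQ : ∀ q ∈ Q, q.Prime ∧ ¬ q ∣ N)
    (H : Subgroup (ZMod M)ˣ)
    (hH : ∀ (x : ℤ) (u : (ZMod M)ˣ), ((x : ℤ) : ZMod (∏ q ∈ Q, q)) = 1 →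
      ((u : (ZMod M)ˣ) : ZMod M) = ((x : ℤ) : ZMod M) → u ∈ H)
    {e m : ℕ} (hnm : 2 * m = p ^ e + 1) (hn : ∀ u : (ZMod M)ˣ, u ^ (p ^ e) ∈ H)
    (𝒪 : Type) [CommRing 𝒪] [IsDomain 𝒪] [IsDiscreteValuationRing 𝒪]
    [IsAdicComplete (maximalIdeal 𝒪) 𝒪] [Finite (ResidueField 𝒪)] [CharZero 𝒪] [Algebra ℤ_[p] 𝒪]
    (hp𝒪 : (p : 𝒪) ∈ maximalIdeal 𝒪)
    (S : Finset ℕ) (hpS : p ∈ S) (hMS : ∀ q : ℕ, q.Prime → q ∣ M → q ∈ S)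
    -- the module
    {Z : Type} [AddCommGroup Z] [Module 𝒪 Z] [Module.Finite 𝒪 Z] [Module.Free 𝒪 Z]
    (emb : Z →ₗ[𝒪] s48h_Hpar 𝒪 (s48h_GammaH M H) 𝒪) (hemb : Function.Injective emb)
    (op : s59w_AIdx M → Module.End 𝒪 Z)
    (hop : ∀ j z, emb (op j z) = s59w_op H 𝒪 j (emb z))
    -- the rings
    (T' : Type) [CommRing T'] [IsLocalRing T'] [Algebra 𝒪 T']
    (T : Type) [CommRing T] [Algebra 𝒪 T] [Algebra T' T] [IsScalarTower 𝒪 T' T]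
    (jT : T →ₐ[𝒪] Module.End 𝒪 Z)
    (hjTg : ∀ t, jT t ∈ Algebra.adjoin 𝒪 (Set.range op))
    (Iχ : Ideal T) (hIχ : ∀ t, t ∈ Iχ ↔ jT t = 0) (hrad : Iχ.IsRadical)
    -- the Galois representation over `T'`
    (ρT : GaloisRepAdic T') (tr : ℕ → T')
    (htr : ∀ i : s59w_TIdx M, i.ell ∉ S → jT (algebraMap T' T (tr i.ell)) =
      op (Sum.inr (s59e_tau i ((p ^ e - 1) * m))) * op (Sum.inl i))
    (hfrob : ∀ ℓ : ℕ, ℓ.Prime → ℓ ∉ S → ∀ P' : ValuationSubring Qbar, P'.LiesOverPrime ℓ →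
      ∀ σ : GQ, P'.IsFrobeniusAt σ ℓ →
        LinearMap.charpoly (ρT.ρ σ) = X ^ 2 - C (tr ℓ) * X + C (ℓ : T'))
    -- the good prime
    (i₀ : s59w_TIdx M) (hi₀p : i₀.ell ≠ p) (tr₀ : T)
    (htr₀ : jT tr₀ = op (Sum.inr (s59e_tau i₀ ((p ^ e - 1) * m))) * op (Sum.inl i₀))
    (A : ValuationSubring Qbar) (hA : A.LiesOverPrime i₀.ell) (σ : GQ)
    (hσ : A.IsFrobeniusAt σ i₀.ell) :
    tr₀ - algebraMap T' T (LinearMap.trace T' ρT.V (ρT.ρ σ)) ∈ Iχ := by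
  classical
  have hIeq : Iχ = RingHom.ker jT := Ideal.ext fun t => by rw [hIχ, RingHom.mem_ker]
  subst hIeq
  have hn0 : 0 < p ^ e := pow_pos hpP.out.pos e
  refine s59m_mem_of_minimalPrimes _ hrad _ fun 𝔓 h𝔓 => ?_
  -- the point
  obtain ⟨𝒪', i1, i2, i3, i4, i5, i6, i7, i8, i9, x, θ, a, φ, hker, hφ0, hpar, hθH, hθn, hdia, heig,
    hprod, hpure⟩ := s59m_eigenclass_of_minimalPrime_abs H hnm hn emb hemb op hop T jT hjTg 𝔓 h𝔓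
  letI : Algebra ℤ_[p] 𝒪' := ((algebraMap 𝒪 𝒪').comp (algebraMap ℤ_[p] 𝒪)).toAlgebra
  haveI : IsScalarTower ℤ_[p] 𝒪 𝒪' := IsScalarTower.of_algebraMap_eq fun _ => rfl
  have hp𝒪' : (p : 𝒪') ∈ maximalIdeal 𝒪' := by
    have h1 := map_nonunit (algebraMap 𝒪 𝒪') _ hp𝒪
    rwa [map_natCast] at h1
  have hθinv : ∀ d, ((θ d : 𝒪'ˣ) : 𝒪') ^ (2 * ((p ^ e - 1) * m)) = (((θ d)⁻¹ : 𝒪'ˣ) : 𝒪') := by
    intro d
    rw [← Units.val_pow_eq_pow_val]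
    congr 1
    refine eq_inv_of_mul_eq_one_left ?_
    rw [← pow_succ, s59m_exp_aux hn0 hnm, pow_mul, hθn, one_pow]
  let y : T' →ₐ[𝒪] 𝒪' := x.comp (IsScalarTower.toAlgHom 𝒪 T' T)
  have hy : IsLocalHom (y : T' →+* 𝒪') := s59e_isLocalHom_of_finite T' 𝒪' y
  have hyx : ∀ t : T', y t = x (algebraMap T' T t) := fun t => rfl
  have hℓM : ∀ ℓ : ℕ, ℓ.Prime → ℓ ∉ S → ¬ ℓ ∣ M := fun ℓ hℓ hℓS hd => hℓS (hMS ℓ hℓ hd)
  have hytr : ∀ ℓ : ℕ, ℓ.Prime → ℓ ∉ S → ∀ ℓu : (ZMod M)ˣ,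
      ((ℓu : (ZMod M)ˣ) : ZMod M) = (ℓ : ZMod M) →
      y (tr ℓ) = (((θ ℓu)⁻¹ : 𝒪'ˣ) : 𝒪') * a ℓ := by
    intro ℓ hℓ hℓS ℓu hℓu
    let i : s59w_TIdx M := ⟨ℓ, hℓ, hℓM ℓ hℓ hℓS, (s59w_sig ℓu : SL(2, ℤ)), (s59w_sig ℓu).2, by
      rw [← s59w_lrUnit_coe, s59w_sig_spec, hℓu]⟩
    have h1 := hprod (algebraMap T' T (tr ℓ)) i ((p ^ e - 1) * m) ℓu hℓu (htr i hℓS)
    rw [hyx, h1, hθinv]
  set ρ : GaloisRepAdic 𝒪' := ρT.baseChangeAlong (y : T' →+* 𝒪') hy with hρdef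
  have hρ : ∀ ℓ : ℕ, ℓ.Prime → ℓ ∉ S → ∀ ℓu : (ZMod M)ˣ,
      ((ℓu : (ZMod M)ˣ) : ZMod M) = (ℓ : ZMod M) →
      ∀ P' : ValuationSubring Qbar, P'.LiesOverPrime ℓ → ∀ τ : GQ, P'.IsFrobeniusAt τ ℓ →
        (ρ.ρ τ).charpoly = X ^ 2 - C ((((θ ℓu)⁻¹ : 𝒪'ˣ) : 𝒪') * a ℓ) * X + C (ℓ : 𝒪') := by
    intro ℓ hℓ hℓS ℓu hℓu P' hP' τ hτ
    rw [hρdef, s59e_bc_charpoly, hfrob ℓ hℓ hℓS P' hP' τ hτ, ← hytr ℓ hℓ hℓS ℓu hℓu]
    simp only [Polynomial.map_add, Polynomial.map_sub, Polynomial.map_mul, Polynomial.map_pow,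
      Polynomial.map_X, Polynomial.map_C, map_natCast, Polynomial.map_natCast]
    rfl
  have hθμ : ∀ d, θ d ∈ s59b_muP p 𝒪' := fun d => ⟨e, hθn d⟩
  -- the unit of `r`
  set ru : (ZMod M)ˣ := s59w_lrUnit (⟨i₀.sig, i₀.mem⟩ : Gamma0 M) with hrudef
  have hru : ((ru : (ZMod M)ˣ) : ZMod M) = (i₀.ell : ZMod M) := by
    rw [hrudef, s59w_lrUnit_coe, i₀.lr]
  -- [ES] at the point
  have key := s59f_ESpt p M N Q hMeq hQ H hH 𝒪' hp𝒪' θ hθH (s59b_muP p 𝒪')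
    (s59b_muP_sq p 𝒪' hpP.out hp2) hθμ a φ hφ0 hpar hdia heig S hpS hMS ρ hρ
    i₀.ell i₀.prime hi₀p i₀.ndvd ru hru A hA σ hσ
  have htrace := s59f_trace_of_charpoly ρ σ _ _ key
  rw [hρdef, s59e_bc_trace] at htrace
  have hx0 := hprod tr₀ i₀ ((p ^ e - 1) * m) ru hru htr₀
  rw [hθinv] at hx0
  rw [← hker, RingHom.mem_ker, map_sub, hx0, ← hyx, sub_eq_zero]
  exact htrace.symm

end ESFam

end Fermat.Agent.Lib.S59
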