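/-
S59, case (P) (helper7, prefix `s59x_`): THE RESIDUE FIELD OF `A₀ = A ∩ L₀` (`L₀` a number field) IS FINITE, and the ring
automorphisms of a finite field of characteristic `p` are the powers of Frobenius.

* `s59x_comap_eq_atPrime` : `A.comap φ` is the localisation of `𝓞 K₀` at a nonzero prime (the equality hidden inside
  the proof of `s18q_comap_dvr`);
* `s59x_finite_residue_comap`, `s59x_finite_residue_A0` : finiteness of the residue field;
* `s59x_ringAut_eq_pow`   : `s : κ ≃+* κ`, `κ` finite of characteristic `p` ⇒ `∃ j, ∀ x, s x = x ^ p ^ j`;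
* `s59x_pow_card_pow`     : `x ^ p ^ (d * n) = x` for `d = [κ : 𝔽_p]` — in the form `∃ d > 0, ∀ n x, …`.
-/
import Mathlib
import Fermat.Agent.Lib.S18.QDvr

set_option autoImplicit false
set_option linter.style.haveILetI false

noncomputable section

namespace Fermat.Agent.Lib.S59

open IsDedekindDomain NumberField Fermat.Agent.Lib.S18

section Gen

variable {K₀ K : Type*} [Field K₀] [NumberField K₀] [Field K] (φ : K₀ →+* K)
  (A : ValuationSubring K)

/-- the pull-back of a valuation ring of `K` in which a nonzero natural number is not a unit to a number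
field `K₀` is the localisation of `𝓞 K₀` at a nonzero prime. -/
theorem s59x_comap_eq_atPrime (ℓ : ℕ) (hℓ : ℓ ≠ 0) (hA : (ℓ : K) ∈ A.nonunits) :
    ∃ v : HeightOneSpectrum (𝓞 K₀), HeightOneSpectrum.valuationSubringAtPrime K₀ v = A.comap φ := by
  set A₀ := A.comap φ with hA₀
  set f := s18q_intHom φ A with hf
  have hfcoe : ∀ x : 𝓞 K₀, ((f x : A₀) : K₀) = algebraMap (𝓞 K₀) K₀ x := fun x => rfl
  have hℓK₀ : (ℓ : K₀) ≠ 0 := Nat.cast_ne_zero.mpr hℓ
  have hℓK : (ℓ : K) ≠ 0 := by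
    have := (map_ne_zero φ).mpr hℓK₀
    rwa [map_natCast] at this
  have hℓinv : ((ℓ : K₀))⁻¹ ∉ A₀ := by
    intro h
    rw [hA₀, ValuationSubring.mem_comap, map_inv₀, map_natCast] at h
    rcases (ValuationSubring.mem_nonunits_iff_or A).mp hA with h0 | h0
    · exact hℓK h0
    · exact h0 h
  have hne_top : A₀ ≠ ⊤ := by
    intro h
    apply hℓinv
    rw [h]
    exact ValuationSubring.mem_top _
  let 𝔭 : Ideal (𝓞 K₀) := Ideal.comap f (IsLocalRing.maximalIdeal A₀)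
  have h𝔭prime : 𝔭.IsPrime := Ideal.comap_isPrime f _
  have h𝔭ne : 𝔭 ≠ ⊥ := by
    intro h
    have h1 : ((ℓ : ℕ) : 𝓞 K₀) ∈ 𝔭 := by
      show f ((ℓ : ℕ) : 𝓞 K₀) ∈ IsLocalRing.maximalIdeal A₀
      rw [IsLocalRing.mem_maximalIdeal, mem_nonunits_iff]
      intro hu
      obtain ⟨u, hu⟩ := hu
      apply hℓinv
      have h2 : ((u⁻¹ : A₀ˣ) : A₀) * f ((ℓ : ℕ) : 𝓞 K₀) = 1 := by
        rw [← hu]; exact Units.inv_mul u
      have h3 : (((u⁻¹ : A₀ˣ) : A₀) : K₀) * (ℓ : K₀) = 1 := by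
        have := congrArg (Subtype.val) h2
        simpa [hfcoe] using this
      have h4 : ((ℓ : K₀))⁻¹ = (((u⁻¹ : A₀ˣ) : A₀) : K₀) := by
        rw [eq_comm, ← mul_eq_one_iff_eq_inv₀ hℓK₀]
        exact h3
      rw [h4]
      exact ((u⁻¹ : A₀ˣ) : A₀).2
    rw [h, Ideal.mem_bot] at h1
    have h2 : ((ℓ : ℕ) : K₀) = 0 := by
      have := congrArg (algebraMap (𝓞 K₀) K₀) h1
      simpa using this
    exact hℓK₀ h2
  obtain ⟨v, hv⟩ : ∃ v : HeightOneSpectrum (𝓞 K₀), v.asIdeal = 𝔭 := ⟨⟨𝔭, h𝔭prime, h𝔭ne⟩, rfl⟩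
  have hle : HeightOneSpectrum.valuationSubringAtPrime K₀ v ≤ A₀ := by
    rw [HeightOneSpectrum.valuationSubringAtPrime_eq_valuationSubring]
    intro x hx
    obtain ⟨n, d, hnd⟩ := v.exists_primeCompl_mul_eq_of_integer x
      ((Valuation.mem_valuationSubring_iff _ _).mp hx)
    have hd : IsUnit (f d) := by
      have h1 : (d : 𝓞 K₀) ∉ 𝔭 := by
        have h0 : (d : 𝓞 K₀) ∉ v.asIdeal := d.2
        have key : ∀ y : 𝓞 K₀, y ∈ 𝔭 → y ∈ v.asIdeal := fun y hy => by rw [hv]; exact hy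
        exact fun h => h0 (key _ h)
      have h2 : f d ∉ IsLocalRing.maximalIdeal A₀ := h1
      rw [IsLocalRing.mem_maximalIdeal, mem_nonunits_iff, not_not] at h2
      exact h2
    obtain ⟨u, hu⟩ := hd
    have h1 : (((u⁻¹ : A₀ˣ) : A₀) : K₀) * algebraMap (𝓞 K₀) K₀ d = 1 := by
      have h2 : ((u⁻¹ : A₀ˣ) : A₀) * f d = 1 := by
        rw [← hu]; exact Units.inv_mul u
      have := congrArg (Subtype.val) h2
      simpa [hfcoe] using this
    have h3 : x = (f n : A₀) * (((u⁻¹ : A₀ˣ) : A₀) : K₀) := by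
      rw [hfcoe]
      calc x = x * ((((u⁻¹ : A₀ˣ) : A₀) : K₀) * algebraMap (𝓞 K₀) K₀ d) := by rw [h1, mul_one]
        _ = (x * algebraMap (𝓞 K₀) K₀ d) * (((u⁻¹ : A₀ˣ) : A₀) : K₀) := by ring
        _ = _ := by rw [hnd]
    rw [h3]
    exact A₀.mul_mem _ _ (f n).2 ((u⁻¹ : A₀ˣ) : A₀).2
  exact ⟨v, ValuationSubring.eq_of_le_of_ne_top _ hle hne_top⟩

/-- the residue field of the localisation of `𝓞 K₀` at a nonzero prime is finite. -/
theorem s59x_finite_residue_atPrime (v : HeightOneSpectrum (𝓞 K₀)) :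
    Finite (IsLocalRing.ResidueField ↥(HeightOneSpectrum.valuationSubringAtPrime K₀ v)) := by
  haveI : v.asIdeal.IsMaximal := v.isMaximal
  haveI : Finite (𝓞 K₀ ⧸ v.asIdeal) := v.asIdeal.finiteQuotientOfFreeOfNeBot v.ne_bot
  exact Finite.of_equiv _
    (IsLocalization.AtPrime.equivQuotMaximalIdeal v.asIdeal
      ↥(HeightOneSpectrum.valuationSubringAtPrime K₀ v)).toEquiv

/-- **the residue field of `A ∩ K₀` is finite.** -/
theorem s59x_finite_residue_comap (ℓ : ℕ) (hℓ : ℓ ≠ 0) (hA : (ℓ : K) ∈ A.nonunits) :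
    Finite (IsLocalRing.ResidueField ↥(A.comap φ)) := by
  obtain ⟨v, hv⟩ := s59x_comap_eq_atPrime φ A ℓ hℓ hA
  rw [← hv]
  exact s59x_finite_residue_atPrime v

end Gen

/-- **the residue field of `A₀ = A ∩ L₀` is finite.** -/
theorem s59x_finite_residue_A0 (A : ValuationSubring (AlgebraicClosure ℚ)) {ℓ : ℕ} [Fact ℓ.Prime]
    (hA : A.LiesOverPrime ℓ) (L₀ : IntermediateField ℚ (AlgebraicClosure ℚ))
    [FiniteDimensional ℚ ↥L₀] : Finite (IsLocalRing.ResidueField ↥(s18q_A0 A L₀)) := by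
  haveI : NumberField ↥L₀ := ⟨⟩
  exact s59x_finite_residue_comap (algebraMap ↥L₀ (AlgebraicClosure ℚ)) A ℓ
    (Fact.out : ℓ.Prime).ne_zero hA

section Frob

variable (κ : Type*) [Field κ] [Finite κ] (p : ℕ) [hp : Fact p.Prime] [CharP κ p]

/-- **every ring automorphism of a finite field of characteristic `p` is a power of Frobenius.** -/
theorem s59x_ringAut_eq_pow (s : κ ≃+* κ) : ∃ j : ℕ, ∀ x : κ, s x = x ^ p ^ j := by
  letI : Algebra (ZMod p) κ := ZMod.algebra κ p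
  haveI : Algebra.IsAlgebraic (ZMod p) κ := Algebra.IsAlgebraic.of_finite (ZMod p) κ
  let s' : κ ≃ₐ[ZMod p] κ := AlgEquiv.ofRingEquiv (f := s) (fun c => by
    rw [← ZMod.natCast_zmod_val c, map_natCast, map_natCast])
  obtain ⟨n, hn⟩ := (FiniteField.bijective_frobeniusAlgEquivOfAlgebraic_pow (ZMod p) κ).2 s'
  refine ⟨n.1, fun x => ?_⟩
  have h1 : s x = s' x := rfl
  have h2 : (FiniteField.frobeniusAlgEquivOfAlgebraic (ZMod p) κ ^ n.1) x = s' x := by
    have := congrArg (fun g : κ ≃ₐ[ZMod p] κ => g x) hn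
    exact this
  rw [h1, ← h2, AlgEquiv.coe_pow, FiniteField.coe_frobeniusAlgEquivOfAlgebraic_iterate,
    ZMod.card]

/-- some positive power of the `p`-Frobenius is the identity on a finite field of characteristic `p`. -/
theorem s59x_exists_frob_order : ∃ d : ℕ, 0 < d ∧ ∀ (n : ℕ) (x : κ), x ^ p ^ (d * n) = x := by
  haveI := Fintype.ofFinite κ
  obtain ⟨d, -, hd⟩ := FiniteField.card κ p
  refine ⟨(d : ℕ), d.2, fun n x => ?_⟩
  induction n with
  | zero => rw [Nat.mul_zero, pow_zero, pow_one]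
  | succ n ih =>
    rw [Nat.mul_succ, pow_add, pow_mul, ih, ← hd]
    exact FiniteField.pow_card x

end Frob

end Fermat.Agent.Lib.S59
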