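/-
S59, case (P) (helper7, prefix `s59x_`): THE SUBGROUP `D′ ≤ D_P` OF ELEMENTS OF EVEN RESIDUAL DEGREE.

`s59x_ActsByPow P p L₀ σ m` : `σ|_{L₀}` induces `x ↦ x ^ p ^ m` on the residue field of `A₀ = P ∩ L₀`.
`s59x_Dp P p hP` : the subgroup of the `σ ∈ D_P` which, on the residue field of every finite normal level `L₀`, induce an
EVEN power of Frobenius.  Properties:
* `s59x_inertia_le_Dp`, `s59x_Dp_le_decomp` : `I_P ≤ D′ ≤ D_P`;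
* `s59x_sq_mem_Dp`  : `σ ∈ D_P ⇒ σ * σ ∈ D′`;
* `s59x_Dp_normal`  : `D′` is normalised by `D_P`;
* `s59x_Dp_spec`    : the inputs `hσA`, `hσA'`, `hσπ` (with `iterateFrobenius κ p (2 * n)`) of `s59x_depth0` and of helper8's
  `s59c_node_fixed` for `σ₀ = σ.restrictNormal L₀`, `σ ∈ D′`.
-/
import Fermat.Agent.Lib.S59.NXResFin
import Fermat.Agent.Lib.S59.NFrobRes
import Fermat.Agent.Lib.S37.RLevel
import Fermat.Agent.Lib.Frey.OrdInertia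
import Fermat.Agent.Lib.S34.MValSigma

set_option autoImplicit false
set_option linter.style.haveILetI false
set_option linter.unusedSectionVars false

noncomputable section

namespace Fermat.Agent.Lib.S59

open Pointwise ModularCurve Fermat.Agent.Lib.S18 Fermat.Agent.Lib.S37 Fermat.Agent.Lib.S34
  Fermat.Agent.Lib.Frey IsLocalRing

local notation "Kb" => AlgebraicClosure ℚ
local notation "Γℚ" => (AlgebraicClosure ℚ ≃ₐ[ℚ] AlgebraicClosure ℚ)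

section Basic

variable (P : ValuationSubring Kb) (p : ℕ) (L₀ : IntermediateField ℚ Kb) [Normal ℚ ↥L₀]

/-- `σ|_{L₀}` induces `x ↦ x ^ p ^ m` on the residue field of `A₀ = P ∩ L₀`. -/
def s59x_ActsByPow (σ : Γℚ) (m : ℕ) : Prop :=
  ∀ (a : ↥(s18q_A0 P L₀)) (h : (σ.restrictNormal ↥L₀) (a : ↥L₀) ∈ s18q_A0 P L₀),
    residue ↥(s18q_A0 P L₀) ⟨(σ.restrictNormal ↥L₀) (a : ↥L₀), h⟩ =
      residue ↥(s18q_A0 P L₀) a ^ p ^ m

theorem s59x_restrict_mul (σ τ : Γℚ) (a : ↥L₀) :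
    (σ * τ).restrictNormal ↥L₀ a = σ.restrictNormal ↥L₀ (τ.restrictNormal ↥L₀ a) := by
  apply Subtype.ext
  rw [s59n_restrict_coe, s59n_restrict_coe, s59n_restrict_coe]
  rfl

theorem s59x_restrict_inv (σ : Γℚ) (a : ↥L₀) :
    σ.restrictNormal ↥L₀ (σ⁻¹.restrictNormal ↥L₀ a) = a := by
  apply Subtype.ext
  rw [s59n_restrict_coe, s59n_restrict_coe]
  exact σ.apply_symm_apply _

theorem s59x_restrict_one (a : ↥L₀) : (1 : Γℚ).restrictNormal ↥L₀ a = a := by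
  apply Subtype.ext
  rw [s59n_restrict_coe]
  rfl

theorem s59x_actsByPow_one : s59x_ActsByPow P p L₀ 1 0 := by
  intro a h
  rw [pow_zero, pow_one]
  congr 1
  exact Subtype.ext (s59x_restrict_one L₀ _)

variable {P p L₀}

theorem s59x_actsByPow_mul {σ τ : Γℚ} (hτ : τ ∈ P.decompositionSubgroup ℚ) {m n : ℕ}
    (h1 : s59x_ActsByPow P p L₀ σ m) (h2 : s59x_ActsByPow P p L₀ τ n) :
    s59x_ActsByPow P p L₀ (σ * τ) (n + m) := by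
  intro a h
  have hτa : (τ.restrictNormal ↥L₀) (a : ↥L₀) ∈ s18q_A0 P L₀ := s59n_frob_mem P L₀ hτ _ a.2
  have e : (⟨((σ * τ).restrictNormal ↥L₀) (a : ↥L₀), h⟩ : ↥(s18q_A0 P L₀)) =
      ⟨(σ.restrictNormal ↥L₀) ((⟨(τ.restrictNormal ↥L₀) (a : ↥L₀), hτa⟩ : ↥(s18q_A0 P L₀)) : ↥L₀),
        by rw [← s59x_restrict_mul]; exact h⟩ :=
    Subtype.ext (s59x_restrict_mul L₀ σ τ _)
  rw [e, h1 ⟨_, hτa⟩, h2 a hτa, ← pow_mul, ← pow_add]

/-- the inertia group acts trivially on the residue fields. -/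
theorem s59x_actsByPow_inertia {σ : Γℚ} (hσ : σ ∈ P.inertiaSubgroupIn ℚ) :
    s59x_ActsByPow P p L₀ σ 0 := by
  intro a h
  rw [pow_zero, pow_one]
  obtain ⟨-, hI⟩ := ford_inertia_spec P σ hσ
  have h1 : (σ.restrictNormal ↥L₀) (a : ↥L₀) - (a : ↥L₀) ∈ (s18q_A0 P L₀).nonunits := by
    show (σ.restrictNormal ↥L₀) (a : ↥L₀) - (a : ↥L₀) ∈
      (P.comap (algebraMap ↥L₀ Kb)).nonunits
    rw [ValuationSubring.mem_nonunits_iff_or, ValuationSubring.mem_comap, map_inv₀, map_sub]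
    have h2 : algebraMap ↥L₀ Kb ((σ.restrictNormal ↥L₀) (a : ↥L₀)) = σ ((a : ↥L₀) : Kb) :=
      s59n_restrict_coe L₀ σ _
    rw [h2]
    have h3 := hI ((a : ↥L₀) : Kb) a.2
    rcases (ValuationSubring.mem_nonunits_iff_or (A := P)).mp h3 with h4 | h4
    · left
      apply (algebraMap ↥L₀ Kb).injective
      rw [map_sub, map_zero, h2]
      exact h4
    · right
      exact h4
  obtain ⟨hmem, hmax⟩ := ((s18q_A0 P L₀).mem_nonunits_iff_exists_mem_maximalIdeal).mp h1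
  have e : (⟨(σ.restrictNormal ↥L₀) (a : ↥L₀), h⟩ : ↥(s18q_A0 P L₀)) - a =
      ⟨(σ.restrictNormal ↥L₀) (a : ↥L₀) - (a : ↥L₀), hmem⟩ := Subtype.ext rfl
  have h0 : residue ↥(s18q_A0 P L₀)
      ((⟨(σ.restrictNormal ↥L₀) (a : ↥L₀), h⟩ : ↥(s18q_A0 P L₀)) - a) = 0 := by
    rw [e]
    exact (residue_eq_zero_iff _).mpr hmax
  rw [map_sub, sub_eq_zero] at h0
  exact h0

end Basic

section Finite

variable (P : ValuationSubring Kb) (p : ℕ) [hp : Fact p.Prime] (hP : P.LiesOverPrime p)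
  (L₀ : IntermediateField ℚ Kb) [Normal ℚ ↥L₀] [FiniteDimensional ℚ ↥L₀]

/-- the ring automorphism of `A₀ = P ∩ L₀` induced by an element of the decomposition group. -/
def s59x_autA0 {σ : Γℚ} (hσ : σ ∈ P.decompositionSubgroup ℚ) :
    ↥(s18q_A0 P L₀) ≃+* ↥(s18q_A0 P L₀) where
  toFun a := ⟨(σ.restrictNormal ↥L₀) (a : ↥L₀), s59n_frob_mem P L₀ hσ _ a.2⟩
  invFun a := ⟨(σ⁻¹.restrictNormal ↥L₀) (a : ↥L₀), s59n_frob_mem P L₀ (inv_mem hσ) _ a.2⟩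
  left_inv a := by
    apply Subtype.ext
    have := s59x_restrict_inv L₀ σ⁻¹ (a : ↥L₀)
    rw [inv_inv] at this
    exact this
  right_inv a := Subtype.ext (s59x_restrict_inv L₀ σ (a : ↥L₀))
  map_mul' a b := Subtype.ext (map_mul (σ.restrictNormal ↥L₀) (a : ↥L₀) (b : ↥L₀))
  map_add' a b := Subtype.ext (map_add (σ.restrictNormal ↥L₀) (a : ↥L₀) (b : ↥L₀))

include hP in
/-- **every element of the decomposition group induces a power of Frobenius on the residue field of a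
finite normal level.** -/
theorem s59x_actsByPow_decomp {σ : Γℚ} (hσ : σ ∈ P.decompositionSubgroup ℚ) :
    ∃ j : ℕ, s59x_ActsByPow P p L₀ σ j := by
  haveI : Finite (ResidueField ↥(s18q_A0 P L₀)) := s59x_finite_residue_A0 P hP L₀
  haveI : CharP (ResidueField ↥(s18q_A0 P L₀)) p := s37rl_charP P hP L₀
  obtain ⟨j, hj⟩ := s59x_ringAut_eq_pow (ResidueField ↥(s18q_A0 P L₀)) p
    (ResidueField.mapEquiv (s59x_autA0 P L₀ hσ))
  refine ⟨j, fun a h => ?_⟩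
  have := hj (residue ↥(s18q_A0 P L₀) a)
  rw [← this]
  rfl

include hP in
/-- the inverse of an element acting through an even power of Frobenius does so too. -/
theorem s59x_actsByPow_inv {σ : Γℚ} (hσ : σ ∈ P.decompositionSubgroup ℚ) {n : ℕ}
    (h : s59x_ActsByPow P p L₀ σ (2 * n)) : ∃ n' : ℕ, s59x_ActsByPow P p L₀ σ⁻¹ (2 * n') := by
  haveI : Finite (ResidueField ↥(s18q_A0 P L₀)) := s59x_finite_residue_A0 P hP L₀
  haveI : CharP (ResidueField ↥(s18q_A0 P L₀)) p := s37rl_charP P hP L₀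
  obtain ⟨d, hd, hord⟩ := s59x_exists_frob_order (ResidueField ↥(s18q_A0 P L₀)) p
  obtain ⟨d', rfl⟩ : ∃ d', d = d' + 1 := ⟨d - 1, by omega⟩
  refine ⟨n * d', fun a h' => ?_⟩
  set b : ↥(s18q_A0 P L₀) := ⟨(σ⁻¹.restrictNormal ↥L₀) (a : ↥L₀), h'⟩ with hb
  have hσb : (σ.restrictNormal ↥L₀) (b : ↥L₀) ∈ s18q_A0 P L₀ := by
    rw [hb]
    show (σ.restrictNormal ↥L₀) ((σ⁻¹.restrictNormal ↥L₀) (a : ↥L₀)) ∈ s18q_A0 P L₀
    rw [s59x_restrict_inv]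
    exact a.2
  have e1 : (⟨(σ.restrictNormal ↥L₀) (b : ↥L₀), hσb⟩ : ↥(s18q_A0 P L₀)) = a :=
    Subtype.ext (s59x_restrict_inv L₀ σ (a : ↥L₀))
  have h1 := h b hσb
  rw [e1] at h1
  -- `π a = (π b) ^ p ^ (2 n)`, hence `(π a) ^ p ^ (2 n d') = (π b) ^ p ^ (2 n (d' + 1)) = π b`
  rw [h1, ← pow_mul, ← pow_add]
  have e2 : 2 * n + 2 * (n * d') = (d' + 1) * (2 * n) := by ring
  rw [e2, hord]

end Finite

section Subgroup

variable (P : ValuationSubring Kb) (p : ℕ) [hp : Fact p.Prime] (hP : P.LiesOverPrime p)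

/-- **`D′`**: the elements of the decomposition group at `P` which act on the residue field of every finite
normal level through an EVEN power of Frobenius. -/
def s59x_Dp : Subgroup Γℚ where
  carrier := {σ | σ ∈ P.decompositionSubgroup ℚ ∧
    ∀ (L₀ : IntermediateField ℚ Kb) [Normal ℚ ↥L₀] [FiniteDimensional ℚ ↥L₀],
      ∃ n : ℕ, s59x_ActsByPow P p L₀ σ (2 * n)}
  mul_mem' := by
    rintro σ τ ⟨hσ, Hσ⟩ ⟨hτ, Hτ⟩
    refine ⟨mul_mem hσ hτ, fun L₀ _ _ => ?_⟩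
    obtain ⟨m, hm⟩ := Hσ L₀
    obtain ⟨n, hn⟩ := Hτ L₀
    refine ⟨n + m, ?_⟩
    have := s59x_actsByPow_mul hτ hm hn
    rwa [← mul_add] at this
  one_mem' := ⟨one_mem _, fun L₀ _ _ => ⟨0, by rw [mul_zero]; exact s59x_actsByPow_one P p L₀⟩⟩
  inv_mem' := by
    rintro σ ⟨hσ, Hσ⟩
    refine ⟨inv_mem hσ, fun L₀ _ _ => ?_⟩
    obtain ⟨n, hn⟩ := Hσ L₀
    exact s59x_actsByPow_inv P p hP L₀ hσ hn

theorem s59x_mem_Dp {σ : Γℚ} : σ ∈ s59x_Dp P p hP ↔ σ ∈ P.decompositionSubgroup ℚ ∧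
    ∀ (L₀ : IntermediateField ℚ Kb) [Normal ℚ ↥L₀] [FiniteDimensional ℚ ↥L₀],
      ∃ n : ℕ, s59x_ActsByPow P p L₀ σ (2 * n) := Iff.rfl

theorem s59x_Dp_le_decomp : s59x_Dp P p hP ≤ P.decompositionSubgroup ℚ := fun _ h => h.1

theorem s59x_inertia_le_Dp : P.inertiaSubgroupIn ℚ ≤ s59x_Dp P p hP := by
  intro σ hσ
  refine ⟨(ford_inertia_spec P σ hσ).1, fun L₀ _ _ => ⟨0, ?_⟩⟩
  rw [mul_zero]
  exact s59x_actsByPow_inertia hσ

/-- **squares of elements of the decomposition group lie in `D′`.** -/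
theorem s59x_sq_mem_Dp {σ : Γℚ} (hσ : σ ∈ P.decompositionSubgroup ℚ) :
    σ * σ ∈ s59x_Dp P p hP := by
  refine ⟨mul_mem hσ hσ, fun L₀ _ _ => ?_⟩
  obtain ⟨j, hj⟩ := s59x_actsByPow_decomp P p hP L₀ hσ
  refine ⟨j, ?_⟩
  have := s59x_actsByPow_mul hσ hj hj
  rwa [← two_mul] at this

/-- **`D′` is normalised by the decomposition group.** -/
theorem s59x_Dp_normal (δ : Γℚ) (hδ : δ ∈ P.decompositionSubgroup ℚ) (σ : Γℚ)
    (hσ : σ ∈ s59x_Dp P p hP) : δ * σ * δ⁻¹ ∈ s59x_Dp P p hP := by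
  obtain ⟨hσD, Hσ⟩ := hσ
  have hδi : δ⁻¹ ∈ P.decompositionSubgroup ℚ := inv_mem hδ
  refine ⟨mul_mem (mul_mem hδ hσD) hδi, fun L₀ _ _ => ?_⟩
  obtain ⟨n, hn⟩ := Hσ L₀
  obtain ⟨j, hj⟩ := s59x_actsByPow_decomp P p hP L₀ hδ
  refine ⟨n, fun a h => ?_⟩
  -- `b := δ⁻¹ a`
  have hb : (δ⁻¹.restrictNormal ↥L₀) (a : ↥L₀) ∈ s18q_A0 P L₀ := s59n_frob_mem P L₀ hδi _ a.2
  set b : ↥(s18q_A0 P L₀) := ⟨(δ⁻¹.restrictNormal ↥L₀) (a : ↥L₀), hb⟩ with hbdef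
  have hσb : (σ.restrictNormal ↥L₀) (b : ↥L₀) ∈ s18q_A0 P L₀ := s59n_frob_mem P L₀ hσD _ b.2
  have hδb : (δ.restrictNormal ↥L₀) (b : ↥L₀) ∈ s18q_A0 P L₀ := s59n_frob_mem P L₀ hδ _ b.2
  have e1 : (⟨(δ.restrictNormal ↥L₀) (b : ↥L₀), hδb⟩ : ↥(s18q_A0 P L₀)) = a :=
    Subtype.ext (s59x_restrict_inv L₀ δ (a : ↥L₀))
  have hδσb : (δ.restrictNormal ↥L₀)
      ((⟨(σ.restrictNormal ↥L₀) (b : ↥L₀), hσb⟩ : ↥(s18q_A0 P L₀)) : ↥L₀) ∈ s18q_A0 P L₀ :=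
    s59n_frob_mem P L₀ hδ _ hσb
  have e2 : (⟨((δ * σ * δ⁻¹).restrictNormal ↥L₀) (a : ↥L₀), h⟩ : ↥(s18q_A0 P L₀)) =
      ⟨(δ.restrictNormal ↥L₀)
        ((⟨(σ.restrictNormal ↥L₀) (b : ↥L₀), hσb⟩ : ↥(s18q_A0 P L₀)) : ↥L₀), hδσb⟩ := by
    apply Subtype.ext
    show ((δ * σ * δ⁻¹).restrictNormal ↥L₀) (a : ↥L₀) =
      (δ.restrictNormal ↥L₀) ((σ.restrictNormal ↥L₀) ((δ⁻¹.restrictNormal ↥L₀) (a : ↥L₀)))
    rw [s59x_restrict_mul, s59x_restrict_mul]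
  have h1 := hj b hδb
  rw [e1] at h1
  rw [e2, hj _ hδσb, hn b hσb, h1, ← pow_mul, ← pow_mul, mul_comm]

variable (L₀ : IntermediateField ℚ Kb) [Normal ℚ ↥L₀] [FiniteDimensional ℚ ↥L₀]
  [IsDiscreteValuationRing ↥(s18q_A0 P L₀)] (ϖ : ↥(s18q_A0 P L₀)) (hϖ : Irreducible ϖ)

/-- **the inputs `hσπ` of `s59x_depth0` / `s59c_node_fixed` for `σ ∈ D′`.** -/
theorem s59x_Dp_spec {σ : Γℚ} (hσ : σ ∈ s59x_Dp P p hP)
    [CharP (ResidueField ↥(s18q_A0 P L₀)) p] :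
    ∃ n : ℕ, ∀ a : (s37r_G P L₀ ϖ hϖ).A,
      (s37r_G P L₀ ϖ hϖ).π (s34m_sigmaA (s37r_G P L₀ ϖ hϖ)
        ((σ.restrictNormal ↥L₀ : ↥L₀ ≃ₐ[ℚ] ↥L₀) : ↥L₀ ≃+* ↥L₀)
        (s59n_frob_mem P L₀ hσ.1) a) =
      iterateFrobenius (ResidueField ↥(s18q_A0 P L₀)) p (2 * n) ((s37r_G P L₀ ϖ hϖ).π a) := by
  obtain ⟨n, hn⟩ := hσ.2 L₀
  refine ⟨n, fun a => ?_⟩
  rw [iterateFrobenius_def]
  exact hn a _

end Subgroup

end Fermat.Agent.Lib.S59
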