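/-
S59, case (P) (helper7, prefix `s59x_`), brick [P1′] : THE J-SIDE WRAPPER OF [UNIP-K⁺].

`Dp` is a SET of elements of `G_ℚ` (later: the index-two subgroup `D′` of the decomposition group at `P`
whose elements act on the residue fields through EVEN powers of Frobenius).

* `s59x_Jnew M p hpM`        : the `p`-new subgroup `ker α_* ⊓ ker β_* ≤ J₀(M p)(ℚ̄)`;
* `s59x_J1P M p hpM Dp`      : the subgroup generated by the `σ • y - y`, `σ ∈ Dp`, `y ∈ J^new[p^∞]`;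
* `s59x_UnipKP M p hpM P N Dp` : the contract [UNIP-K⁺] = `s33u_UnipKN` with `σ ∈ Dp` and the two NORM
  hypotheses `N_α f, N_β f ∈ (constants) · (p ^ k-th powers)` (the shape of S35's `s35r_KummerNW`);
* `s59x_norm_alpha/_beta`    : the norm hypotheses for a Kummer generator of a class killed by `α_*`, `β_*`;
* `s59x_good_gen`, `s59x_good_of_mem` : [UNIP-K⁺] ⇒ every `x ∈ J1P` is `s33u_Good`;
* **`s59x_unipJ`**           : [UNIP-K⁺] ⇒ the body of `s33t_UnipJ` for `J1P` (a `p`-Kummer generator `≡ 1 mod ϖ` on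
  both components of the special fibre, without zeros or poles at the node places).
-/
import Fermat.Agent.Lib.S33.UnipJ
import Fermat.Agent.Lib.S35.RLevel

set_option autoImplicit false
set_option linter.style.haveILetI false
set_option linter.unusedSectionVars false
set_option synthInstance.maxHeartbeats 400000

noncomputable section

namespace Fermat.Agent.Lib.S59

open ModularCurve HahnSeries AlgebraicCurve Fermat.Agent.Lib.S18 Fermat.Agent.Lib.S37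
  Fermat.Agent.Lib.FF Fermat.Agent.Lib.S34 Fermat.Agent.Lib.S33 Fermat.Agent.Lib.S35

local notation "Kb" => AlgebraicClosure ℚ
local notation "Γℚ" => (AlgebraicClosure ℚ ≃ₐ[ℚ] AlgebraicClosure ℚ)

section Contracts

variable (M p : ℕ) [NeZero M] [hp : Fact p.Prime] (hpM : ¬ p ∣ M) (P : ValuationSubring Kb)

/-- **the `p`-new subgroup** `ker α_* ⊓ ker β_*` of `J₀(M p)(ℚ̄)`. -/
def s59x_Jnew : AddSubgroup (JZero (M * p)) :=
  (s35c_alphaPush M p hp.out hpM).ker ⊓ (s35c_betaPush M p hp.out hpM).ker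

theorem s59x_mem_Jnew {y : JZero (M * p)} : y ∈ s59x_Jnew M p hpM ↔
    s35c_alphaPush M p hp.out hpM y = 0 ∧ s35c_betaPush M p hp.out hpM y = 0 := Iff.rfl

/-- the `p`-new subgroup is Galois stable. -/
theorem s59x_Jnew_smul (σ : Γℚ) {y : JZero (M * p)} (hy : y ∈ s59x_Jnew M p hpM) :
    σ • y ∈ s59x_Jnew M p hpM := by
  obtain ⟨h1, h2⟩ := hy
  have h1' : s35c_alphaPush M p hp.out hpM y = 0 := h1
  have h2' : s35c_betaPush M p hp.out hpM y = 0 := h2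
  refine ⟨?_, ?_⟩
  · show s35c_alphaPush M p hp.out hpM (σ • y) = 0
    rw [s35c_alphaPush_smul, h1']
    exact smul_zero (A := JZero M) σ
  · show s35c_betaPush M p hp.out hpM (σ • y) = 0
    rw [s35c_betaPush_smul, h2']
    exact smul_zero (A := JZero M) σ

/-- **the toric subgroup relative to `Dp`**: generated by the differences `σ • y - y`, `σ ∈ Dp`, `y` a
`p`-power torsion point of the `p`-new subgroup. -/
def s59x_J1P (Dp : Set Γℚ) : AddSubgroup (JZero (M * p)) :=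
  AddSubgroup.closure {z : JZero (M * p) | ∃ σ ∈ Dp, ∃ y ∈ s59x_Jnew M p hpM,
    (∃ k : ℕ, p ^ k • y = 0) ∧ z = σ • y - y}

theorem s59x_J1P_le_Jnew (Dp : Set Γℚ) : s59x_J1P M p hpM Dp ≤ s59x_Jnew M p hpM := by
  unfold s59x_J1P
  rw [AddSubgroup.closure_le]
  rintro z ⟨σ, -, y, hy, -, rfl⟩
  exact (s59x_Jnew M p hpM).sub_mem (s59x_Jnew_smul M p hpM σ hy) hy

/-- property (U⁺). -/
theorem s59x_J1P_propU (Dp : Set Γℚ) (j : ℕ) (y : JZero (M * p)) (hy : y ∈ s59x_Jnew M p hpM)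
    (hj : p ^ j • y = 0) (σ : Γℚ) (hσ : σ ∈ Dp) : σ • y - y ∈ s59x_J1P M p hpM Dp :=
  AddSubgroup.subset_closure ⟨σ, hσ, y, hy, ⟨j, hj⟩, rfl⟩

/-- **Contract [UNIP-K⁺]** relative to a family `N` of node places and a set `Dp` of automorphisms. -/
def s59x_UnipKP (N : s33u_NodeFam M p P) (Dp : Set Γℚ) : Prop :=
  ∀ (k : ℕ) (f : ffi_F (M * p)), f ≠ 0 →
    (∀ v : Place Kb (ffi_F (M * p)), ((p ^ k : ℕ) : ℤ) ∣ v.ord f) →
    (∃ (c : Kb) (h : ffi_F M),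
      s35r_normAlong (heckeAlphaBar Kb M p) f = algebraMap Kb (ffi_F M) c * h ^ (p ^ k)) →
    (∃ (c : Kb) (h : ffi_F M),
      s35r_normAlong (heckeBetaBar Kb M p) f = algebraMap Kb (ffi_F M) c * h ^ (p ^ k)) →
    ∀ σ : Γℚ, σ ∈ Dp →
    ∃ Lf : IntermediateField ℚ Kb, FiniteDimensional ℚ ↥Lf ∧
      ∀ (L₀ : IntermediateField ℚ Kb) [FiniteDimensional ℚ ↥L₀] [Normal ℚ ↥L₀]
        [IsDiscreteValuationRing ↥(s18q_A0 P L₀)] (ϖ : ↥(s18q_A0 P L₀)) (hϖ : Irreducible ϖ),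
        Lf ≤ L₀ →
        ∃ f₀ : s34m_F ↥L₀ (M * p), s18q_incl (M * p) L₀ f₀ = f ∧
          ∃ (c : ↥L₀) (a : s34m_F ↥L₀ (M * p)), c ≠ 0 ∧ a ≠ 0 ∧
            s33u_UnipN (s37r_G P L₀ ϖ hϖ) (algebraMap ↥L₀ Kb) M p hpM (N L₀ ϖ hϖ)
              (s33u_F (M * p) (σ.restrictNormal ↥L₀) (p ^ k) f₀ c a)

end Contracts

section Norms

variable (M p : ℕ) [NeZero M] [hp : Fact p.Prime] (hpM : ¬ p ∣ M)

/-- the norm condition along `α` for a Kummer generator of a class killed by `α_*`. -/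
theorem s59x_norm_alpha {m : ℕ} {y : JZero (M * p)} {f : ffi_F (M * p)}
    (hf : s33d_IsKumGen m y f) (hy : s35c_alphaPush M p hp.out hpM y = 0) :
    ∃ (c : Kb) (h : ffi_F M),
      s35r_normAlong (heckeAlphaBar Kb M p) f = algebraMap Kb (ffi_F M) c * h ^ m := by
  obtain ⟨hf0, D, rfl, hD⟩ := hf
  exact s35r_norm_of_pushforward (heckeAlphaBar Kb M p) (s35c_alphaIntegral M p hp.out hpM)
    (s37w_finite_alpha M p hp.out hpM) (s37l_normFormulaAlong _ _) (s35r_const M) m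
    (D : Divisor Kb (ffi_F (M * p))) hf0 (fun v => (hD v).symm)
    (s35c_principal_of_alphaPush_eq_zero M p hp.out hpM _ D hy)

/-- the norm condition along `β` for a Kummer generator of a class killed by `β_*`. -/
theorem s59x_norm_beta {m : ℕ} {y : JZero (M * p)} {f : ffi_F (M * p)}
    (hf : s33d_IsKumGen m y f) (hy : s35c_betaPush M p hp.out hpM y = 0) :
    ∃ (c : Kb) (h : ffi_F M),
      s35r_normAlong (heckeBetaBar Kb M p) f = algebraMap Kb (ffi_F M) c * h ^ m := by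
  obtain ⟨hf0, D, rfl, hD⟩ := hf
  exact s35r_norm_of_pushforward (heckeBetaBar Kb M p) (s35c_betaIntegral M p hp.out hpM)
    (s37w_finite_beta M p hp.out hpM) (s37l_normFormulaAlong _ _) (s35r_const M) m
    (D : Divisor Kb (ffi_F (M * p))) hf0 (fun v => (hD v).symm)
    (s35c_principal_of_betaPush_eq_zero M p hp.out hpM _ D hy)

end Norms

section Good

variable {M p : ℕ} [NeZero M] [hp : Fact p.Prime] {hpM : ¬ p ∣ M} {P : ValuationSubring Kb}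
variable {N : s33u_NodeFam M p P} {Dp : Set Γℚ}

/-- **[UNIP-K⁺] ⇒ the generators of `J1P` are `Good`.** -/
theorem s59x_good_gen (hK : s59x_UnipKP M p hpM P N Dp) {σ : Γℚ} (hσ : σ ∈ Dp)
    {y : JZero (M * p)} (hyn : y ∈ s59x_Jnew M p hpM) {k : ℕ} (hy : p ^ k • y = 0) :
    s33u_Good M p hpM P N (σ • y - y) := by
  obtain ⟨f, hf⟩ := s33d_exists_kumGen (p ^ k) y hy
  have hf0 : f ≠ 0 := hf.1
  have hdiv : ∀ v : Place Kb (ffi_F (M * p)), ((p ^ k : ℕ) : ℤ) ∣ v.ord f := by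
    obtain ⟨-, D, -, hD⟩ := hf
    exact fun v => ⟨_, hD v⟩
  obtain ⟨Lf, hfd, H⟩ := hK k f hf0 hdiv (s59x_norm_alpha M p hpM hf hyn.1)
    (s59x_norm_beta M p hpM hf hyn.2) σ hσ
  refine ⟨k, Lf, hfd, fun L₀ _ _ _ ϖ hϖ hle => ?_⟩
  obtain ⟨f₀, hf₀, c, a, hc, ha, hU⟩ := H L₀ ϖ hϖ hle
  refine ⟨_, ?_, hU⟩
  have hf' : s33d_IsKumGen (p ^ k) y (s18q_incl (M * p) L₀ f₀) := by rw [hf₀]; exact hf
  have g₁ := s33d_isKumGen_galois_gen (M * p) (p ^ k) L₀ σ hf'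
  have g₂ := s33d_kumGen_prod g₁ (s33d_kumGen_inv hf')
  have ha' : (s18q_incl (M * p) L₀ a)⁻¹ ≠ 0 := by
    rw [Ne, inv_eq_zero, map_eq_zero]
    exact ha
  have hc' : ((c : ↥L₀) : Kb) ≠ 0 := fun h0 => hc (Subtype.ext h0)
  have g₃ := s33d_kumGen_mul g₂ hc' ha'
  rw [sub_eq_add_neg]
  convert g₃ using 1
  unfold s33u_F
  rw [map_mul, map_mul, map_inv₀, map_pow, map_div₀, s18q_incl_algebraMap, inv_pow, div_eq_mul_inv]
  ring

/-- **[UNIP-K⁺] ⇒ every element of `J1P` is `Good`.** -/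
theorem s59x_good_of_mem (hK : s59x_UnipKP M p hpM P N Dp) {x : JZero (M * p)}
    (hx : x ∈ s59x_J1P M p hpM Dp) : s33u_Good M p hpM P N x := by
  unfold s59x_J1P at hx
  induction hx using AddSubgroup.closure_induction with
  | mem z hz =>
    obtain ⟨σ, hσ, y, hyn, ⟨k, hy⟩, rfl⟩ := hz
    exact s59x_good_gen hK hσ hyn hy
  | zero => exact s33u_good_zero M p hpM P N
  | add z₁ z₂ _ _ h₁ h₂ => exact s33u_good_add h₁ h₂
  | neg z _ h => exact s33u_good_neg h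

end Good

section Contract1

variable (M p : ℕ) [NeZero M] [hp : Fact p.Prime] (hpM : ¬ p ∣ M) (P : ValuationSubring Kb)

/-- **[P1′]**: under [UNIP-K⁺] every `x ∈ J1P` with `p • x = 0` has, over every big enough finite normal
number field, a `p`-Kummer generator `h ≡ 1 mod ϖ (V_∞ ⊓ V_0)` without zeros or poles at the node places
(the body of `s33t_UnipJ`, with `J1P` in place of `s33_J1`). -/
theorem s59x_unipJ (hP : P.LiesOverPrime p) (N : s33u_NodeFam M p P) (Dp : Set Γℚ)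
    (hK : s59x_UnipKP M p hpM P N Dp) :
    ∀ x ∈ s59x_J1P M p hpM Dp, p • x = 0 →
      ∃ Lx : IntermediateField ℚ Kb, FiniteDimensional ℚ ↥Lx ∧
        ∀ (L₀ : IntermediateField ℚ Kb) [FiniteDimensional ℚ ↥L₀] [Normal ℚ ↥L₀]
          [IsDiscreteValuationRing ↥(s18q_A0 P L₀)] (ϖ : ↥(s18q_A0 P L₀)) (hϖ : Irreducible ϖ),
          Lx ≤ L₀ →
          ∃ h : s34m_F ↥L₀ (M * p),
            s33d_IsKumGen p x (s18q_incl (M * p) L₀ h) ∧
            (∃ y : s34m_F ↥L₀ (M * p), y ∈ s34m_Vinf (s37r_G P L₀ ϖ hϖ) (M * p) ∧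
              y ∈ s34m_Vzero (s37r_G P L₀ ϖ hϖ) (algebraMap ↥L₀ Kb) M p hp.out hpM ∧
              h - 1 = s34m_unif (s37r_G P L₀ ϖ hϖ) (M * p) * y) ∧
            ∀ Q ∈ N L₀ ϖ hϖ, Q.ord h = 0 := by
  intro x hxJ hpx
  obtain ⟨k, Lx, hfd, H⟩ := s59x_good_of_mem hK hxJ
  refine ⟨Lx, hfd, fun L₀ _ _ _ ϖ hϖ hle => ?_⟩
  obtain ⟨F, hF, hU⟩ := H L₀ ϖ hϖ hle
  haveI : NumberField ↥L₀ := ⟨⟩
  haveI hchar₀ : CharP (IsLocalRing.ResidueField ↥(s18q_A0 P L₀)) p := s37rl_charP P hP L₀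
  haveI hperf₀ : PerfectField (IsLocalRing.ResidueField ↥(s18q_A0 P L₀)) :=
    s37rl_perfectField P hP L₀
  haveI : PerfectRing (IsLocalRing.ResidueField ↥(s18q_A0 P L₀)) p := PerfectField.toPerfectRing p
  have hT : s18g_HT (IsLocalRing.ResidueField ↥(s18q_A0 P L₀)) M := s18t_indep_j p M hpM _
  have hdegM : s18g_HDeg ↥L₀ M := fun n b hb hn =>
    s18g_exists_relation M (algebraMap ↥L₀ Kb) hn b hb
  have hdeg : s34m_HDeg ↥L₀ M p := s34r_deg_HDeg (algebraMap ↥L₀ Kb) M p hp.out hpM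
  have hπ : Function.Surjective (s37r_G P L₀ ϖ hϖ).π := IsLocalRing.residue_surjective
  obtain ⟨e, ε, he, hε, hεinv, hε0, hpe⟩ := s33u_exists_e P L₀ hp.out hP ϖ hϖ
  have hperf : ∀ c : IsLocalRing.ResidueField ↥(s18q_A0 P L₀), ∃ d, d ^ p = c :=
    fun c => surjective_frobenius _ p c
  obtain ⟨h, hgen, ⟨z₁, hz₁, e₁⟩, ⟨z₂, hz₂, e₂⟩, -, hnode⟩ :=
    s33u_dev_final L₀ (s37r_G P L₀ ϖ hϖ) M p hpM hdeg hT hdegM hπ e ε he hε hεinv hε0 hpe hperf
      (N L₀ ϖ hϖ) hpx k F hF hU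
  refine ⟨h, hgen, ⟨z₁, hz₁, ?_, ?_⟩, hnode⟩
  · have hπ0 : s34m_unif (s37r_G P L₀ ϖ hϖ) (M * p) ≠ 0 := s34m_unif_ne_zero _ _
    have e12 : s34m_unif (s37r_G P L₀ ϖ hϖ) (M * p) * z₁ =
        s34m_unif (s37r_G P L₀ ϖ hϖ) (M * p) * z₂ := by
      rw [pow_one] at e₁ e₂
      exact e₁.symm.trans e₂
    rw [mul_left_cancel₀ hπ0 e12]
    exact hz₂
  · rw [pow_one] at e₁
    exact e₁

end Contract1

end Fermat.Agent.Lib.S59
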