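/-
S59, case (P) (helper7, prefix `s59x_`), bricks [P2]+[P3] : **STRICTNESS AT `p` FROM THE `p`-NEW TATE MODULE.**

`J^new = ker α_* ⊓ ker β_* ≤ J₀(M p)(ℚ̄)` (`s59x_Jnew`), `Λ^new := T_p J^new = s30a_Tp ↥J^new p` (finite free over `ℤ_[p]`,
`G_ℚ`-module).  For ANY commutative `ℤ_[p]`-algebra `A` acting faithfully on `Λ^new` and commuting with `G_ℚ`, with the
Cayley–Hamilton scalars `t g ∈ A` (`ρ g + ε g ρ g⁻¹ = t g`), and any local ring `T` with `πA : A →+* T` and a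
representation `rT : GaloisRepAdic T` (residually irreducible, spanning) with `tr rT(g) = πA (t g)`, `det rT(g) = πA (ε g)`,
residually ordinary at the inertia group (`hres`), whose `πA`-primary part `Wθ ≤ Λ^new` is as in `s33g_main`:

  **`s59x_strictAt`** : at `P ∣ p` there is a line `L ≤ rT.V` with ALL FOUR clauses of the frozen
  `GaloisRepAdic.IsStrictOrdinaryAt` (basis, `D_P`-stable, inertia trivial on `V / L`, and the strict clause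
  `x - a z ∈ (p ^ n)`).

Inputs from the geometry: the contract [UNIP-K⁺] `s59x_UnipKP M p _ P N D′` for `D′ = s59x_Dp P p hP` and helper3's
[SS-pack] `s33t_SSPack M p _ P N`.  Route: (U⁺) + (M⁺) ⇒ [HALF] for `(Λ^new, D′)` (`s33g_half_abs`) ⇒ the line
(`s33g_main` with `I := D′`, `D := D_P`) ⇒ strict clause (`s59x_strict_of_line`, squares of `D_P` lie in `D′`).
-/
import Fermat.Agent.Lib.S59.NXPropM
import Fermat.Agent.Lib.S59.NXDp
import Fermat.Agent.Lib.S59.NXStrictAlg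
import Fermat.Agent.Lib.S33.GHalf
import Fermat.Agent.Lib.S33.GMain
import Fermat.Agent.Lib.S33.GTau0
import Fermat.Agent.Lib.S33.GRes
import Fermat.Agent.Lib.S30.TateKinf

set_option autoImplicit false
set_option linter.style.haveILetI false
set_option linter.unusedSectionVars false
set_option synthInstance.maxHeartbeats 400000

noncomputable section

namespace Fermat.Agent.Lib.S59

open ModularCurve AlgebraicCurve IsLocalRing Module Fermat.Agent.Lib.S18 Fermat.Agent.Lib.S29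
  Fermat.Agent.Lib.S30 Fermat.Agent.Lib.S33 Fermat.Agent.Lib.S35

local notation "Kb" => AlgebraicClosure ℚ
local notation "Γℚ" => (AlgebraicClosure ℚ ≃ₐ[ℚ] AlgebraicClosure ℚ)

section Jnew

variable (M p : ℕ) [NeZero M] [hp : Fact p.Prime] (hpM : ¬ p ∣ M)

instance s59x_instSMulJnew : SMul Γℚ ↥(s59x_Jnew M p hpM) :=
  ⟨fun σ y => ⟨σ • (y : JZero (M * p)), s59x_Jnew_smul M p hpM σ y.2⟩⟩

theorem s59x_coe_smul_Jnew (σ : Γℚ) (y : ↥(s59x_Jnew M p hpM)) :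
    ((σ • y : ↥(s59x_Jnew M p hpM)) : JZero (M * p)) = σ • (y : JZero (M * p)) := rfl

instance s59x_instActionJnew : DistribMulAction Γℚ ↥(s59x_Jnew M p hpM) where
  one_smul y := Subtype.ext (one_smul Γℚ (y : JZero (M * p)))
  mul_smul σ τ y := Subtype.ext (mul_smul σ τ (y : JZero (M * p)))
  smul_zero σ := Subtype.ext (smul_zero (A := JZero (M * p)) σ)
  smul_add σ x y := Subtype.ext (smul_add σ (x : JZero (M * p)) (y : JZero (M * p)))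

/-- the inclusion `T_p J^new → T_p J₀(M p)`. -/
def s59x_TpIncl : s30a_Tp ↥(s59x_Jnew M p hpM) p →ₗ[ℤ_[p]] s30a_TJ (M * p) p :=
  s35c_TpMap (p := p) (s59x_Jnew M p hpM).subtype

theorem s59x_TpIncl_apply (x : s30a_Tp ↥(s59x_Jnew M p hpM) p) (n : ℕ) :
    ((s59x_TpIncl M p hpM x : s30a_TJ (M * p) p) : ℕ → JZero (M * p)) n =
      ((x : ℕ → ↥(s59x_Jnew M p hpM)) n : JZero (M * p)) := rfl

theorem s59x_TpIncl_injective : Function.Injective (s59x_TpIncl M p hpM) := by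
  intro x y h
  refine s30a_ext fun n => Subtype.ext ?_
  have := congrArg (fun z : s30a_TJ (M * p) p => (z : ℕ → JZero (M * p)) n) h
  exact this

instance s59x_instFiniteTpJnew : Module.Finite ℤ_[p] (s30a_Tp ↥(s59x_Jnew M p hpM) p) :=
  Module.Finite.of_injective (s59x_TpIncl M p hpM) (s59x_TpIncl_injective M p hpM)

instance s59x_instFreeTpJnew : Module.Free ℤ_[p] (s30a_Tp ↥(s59x_Jnew M p hpM) p) := by
  haveI : Module.IsTorsionFree ℤ_[p] (s30a_Tp ↥(s59x_Jnew M p hpM) p) :=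
    (s59x_TpIncl_injective M p hpM).moduleIsTorsionFree _ (fun r m => map_smul _ r m)
  exact Module.free_of_finite_type_torsion_free'

/-- the toric subgroup `J1P` as a subgroup of `J^new`. -/
def s59x_J1sub (Dp : Set Γℚ) : AddSubgroup ↥(s59x_Jnew M p hpM) :=
  (s59x_J1P M p hpM Dp).comap (s59x_Jnew M p hpM).subtype

end Jnew

section Main

variable (M p : ℕ) [NeZero M] [hp : Fact p.Prime]

/-- **[P2]+[P3]: all four clauses of `IsStrictOrdinaryAt` at `P`, from the `p`-new Tate module.** -/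
theorem s59x_strictAt (hp2 : p ≠ 2) (hM : s18_GoodLevel p M) (P : ValuationSubring Kb)
    (hP : P.LiesOverPrime p) (N : s33t_NodeFam M p P)
    (hK : s59x_UnipKP M p hM.1 P N (↑(s59x_Dp P p hP) : Set Γℚ))
    (hS : s33t_SSPack M p hM.1 P N)
    {A : Type} [CommRing A] [Algebra ℤ_[p] A] {T : Type} [CommRing T] [IsLocalRing T]
    (act : A →ₐ[ℤ_[p]] Module.End ℤ_[p] (s30a_Tp ↥(s59x_Jnew M p hM.1) p))
    (hact : Function.Injective act)
    (πA : A →+* T) (hpT : (p : T) ∈ maximalIdeal T) (rT : GaloisRepAdic T)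
    (hirr : ∀ W : Submodule (ResidueField T) rT.residual.V,
      (∀ g : Γℚ, ∀ x ∈ W, rT.residual.ρ g x ∈ W) → W = ⊥ ∨ W = ⊤)
    (hspan : Submodule.span T (Set.range rT.ρ) = ⊤)
    (hcomm : ∀ (g : Γℚ) (a : A) (w : s30a_Tp ↥(s59x_Jnew M p hM.1) p),
      s33w_rho ↥(s59x_Jnew M p hM.1) p Γℚ g (act a w) =
        act a (s33w_rho ↥(s59x_Jnew M p hM.1) p Γℚ g w))
    (tA : Γℚ → A)
    (hCH : ∀ (g : Γℚ) (w : s30a_Tp ↥(s59x_Jnew M p hM.1) p),
      s33w_rho ↥(s59x_Jnew M p hM.1) p Γℚ g w +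
        (((s30y_cycDatum p).ε g : ℤ_[p]ˣ) : ℤ_[p]) • s33w_rho ↥(s59x_Jnew M p hM.1) p Γℚ g⁻¹ w =
          act (tA g) w)
    (htr : ∀ g : Γℚ, πA (tA g) = LinearMap.trace T rT.V (rT.ρ g))
    (hdet : ∀ g : Γℚ, πA (algebraMap ℤ_[p] A (((s30y_cycDatum p).ε g : ℤ_[p]ˣ) : ℤ_[p])) =
      LinearMap.det (rT.ρ g))
    (hres : ∀ τ₀ ∈ P.inertiaSubgroupIn ℚ,
      LinearMap.trace T rT.V (rT.ρ τ₀) - 1 - LinearMap.det (rT.ρ τ₀) ∈ maximalIdeal T)
    (Wθ : Submodule ℤ_[p] (s30a_Tp ↥(s59x_Jnew M p hM.1) p))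
    (hWθ : ∀ w : s30a_Tp ↥(s59x_Jnew M p hM.1) p, w ∈ Wθ ↔ ∀ a : A, πA a ∈ maximalIdeal T →
      ∀ m : ℕ, ∃ j : ℕ, ∃ w' : s30a_Tp ↥(s59x_Jnew M p hM.1) p,
        (act a ^ j) w = (p : ℤ_[p]) ^ m • w') :
    ∃ L : Submodule T rT.V,
      (∃ b : Module.Basis (Fin 2) T rT.V, L = T ∙ b 0) ∧
      (∀ σ ∈ P.decompositionSubgroup ℚ, ∀ v ∈ L, rT.ρ σ v ∈ L) ∧
      (∀ σ ∈ P.inertiaSubgroupIn ℚ, ∀ v : rT.V, rT.ρ σ v - v ∈ L) ∧
      (∀ σ ∈ P.decompositionSubgroup ℚ, ∃ x z : T,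
        (∀ w ∈ L, rT.ρ σ w = x • w) ∧ (∀ v : rT.V, rT.ρ σ v - z • v ∈ L) ∧
        ∀ (n a : ℕ), (∀ μ : Kb, μ ^ p ^ n = 1 → σ μ = μ ^ a) →
          x - (a : T) * z ∈ Ideal.span {((p ^ n : ℕ) : T)}) := by
  have hpM : ¬ p ∣ M := hM.1
  obtain ⟨τ₀, hτ₀, hζ, hunit⟩ := s33g_tau0_unit p hp2 P hP
  have hτ₀D : τ₀ ∈ s59x_Dp P p hP := s59x_inertia_le_Dp P p hP hτ₀
  -- (U⁺) and (M⁺)
  have hU : ∀ (j : ℕ) (x : ↥(s59x_Jnew M p hpM)), p ^ j • x = 0 →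
      ∀ σ ∈ (↑(s59x_Dp P p hP) : Set Γℚ), σ • x - x ∈
        s59x_J1sub M p hpM (↑(s59x_Dp P p hP) : Set Γℚ) := by
    intro j x hx σ hσ
    have hx' : p ^ j • (x : JZero (M * p)) = 0 := by
      have := congrArg (fun y : ↥(s59x_Jnew M p hpM) => (y : JZero (M * p))) hx
      simpa using this
    exact s59x_J1P_propU M p hpM _ j (x : JZero (M * p)) x.2 hx' σ hσ
  have hMp : ∀ x ∈ s59x_J1sub M p hpM (↑(s59x_Dp P p hP) : Set Γℚ), p • x = 0 →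
      (∃ w ∈ Wθ, (w : ℕ → ↥(s59x_Jnew M p hpM)) 1 = x) → τ₀ • x = 2 • x := by
    intro x hx hpx _
    have hpx' : p • (x : JZero (M * p)) = 0 := by
      have := congrArg (fun y : ↥(s59x_Jnew M p hpM) => (y : JZero (M * p))) hpx
      simpa using this
    have := s59x_propM_of M p hp2 hM P hP N _ hK hS τ₀ hτ₀ 2 hζ (x : JZero (M * p)) hx hpx'
    apply Subtype.ext
    rw [s59x_coe_smul_Jnew, this]
    simp
  -- [HALF]
  obtain ⟨Λ', h1, h2⟩ := s33g_half_abs (J := ↥(s59x_Jnew M p hpM)) act hact πA hpT rT hirr hcomm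
    (s30y_cycDatum p).ε tA hCH htr hdet (↑(s59x_Dp P p hP) : Set Γℚ) τ₀ hτ₀D hunit 2
    (s33g_eps_sub_of_zeta p τ₀ 2 hζ) (hres τ₀ hτ₀) Wθ hWθ
    (s59x_J1sub M p hpM (↑(s59x_Dp P p hP) : Set Γℚ)) hU hMp
  -- the line
  obtain ⟨L, ⟨b, hL⟩, hD, hD'⟩ := s33g_main act hact πA hpT rT hspan
    (s33w_rho ↥(s59x_Jnew M p hpM) p Γℚ) hcomm (s30y_cycDatum p).ε tA hCH htr hdet
    (P.decompositionSubgroup ℚ) (s59x_Dp P p hP) (s59x_Dp_le_decomp P p hP)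
    (fun δ hδ σ hσ => s59x_Dp_normal P p hP δ hδ σ hσ) τ₀ hτ₀D hunit (hres τ₀ hτ₀) Wθ hWθ Λ'
    (fun σ hσ w => h1 σ hσ w) h2.le
  refine ⟨L, ⟨b, hL⟩, hD, fun σ hσ v => hD' σ (s59x_inertia_le_Dp P p hP hσ) v, ?_⟩
  intro σ hσ
  refine s59x_strict_of_line rT p (P.decompositionSubgroup ℚ) (s59x_Dp P p hP)
    (fun σ hσ => s59x_sq_mem_Dp P p hP hσ)
    (fun g => πA (algebraMap ℤ_[p] A (((s30y_cycDatum p).ε g : ℤ_[p]ˣ) : ℤ_[p]))) hdet ?_
    L b hL hD hD' σ hσ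
  -- the cyclotomic congruence
  intro σ n a ha
  obtain ⟨μ, hμ⟩ := s30y_exists_primitiveRoot p n
  have h3 : PadicInt.toZModPow n (((s30y_cycDatum p).ε σ : ℤ_[p]ˣ) : ℤ_[p]) =
      ((a : ℕ) : ZMod (p ^ n)) := s30y_toZModPow_eq p σ n hμ a (ha μ hμ.pow_eq_one)
  have hker : ((((s30y_cycDatum p).ε σ : ℤ_[p]ˣ) : ℤ_[p]) - (a : ℤ_[p])) ∈
      RingHom.ker (PadicInt.toZModPow (p := p) n) := by
    rw [RingHom.mem_ker, map_sub, h3, map_natCast, sub_self]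
  rw [PadicInt.ker_toZModPow, Ideal.mem_span_singleton] at hker
  obtain ⟨c, hc⟩ := hker
  have e : πA (algebraMap ℤ_[p] A (((s30y_cycDatum p).ε σ : ℤ_[p]ˣ) : ℤ_[p])) - (a : T) =
      ((p ^ n : ℕ) : T) * πA (algebraMap ℤ_[p] A c) := by
    have h4 : (((s30y_cycDatum p).ε σ : ℤ_[p]ˣ) : ℤ_[p]) = (a : ℤ_[p]) + (p : ℤ_[p]) ^ n * c := by
      rw [← hc]; ring
    rw [h4, map_add, map_add, map_mul, map_mul, map_pow, map_pow, map_natCast, map_natCast,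
      map_natCast, map_natCast]
    push_cast
    ring
  rw [e]
  exact Ideal.mul_mem_right _ _ (Ideal.mem_span_singleton_self _)

end Main

end Fermat.Agent.Lib.S59
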