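/-
S59, case (P) (helper7, prefix `s59x_`): **THE CLOSED HECKE ALGEBRA ON THE `p`-NEW TATE MODULE, AND STRICTNESS OF EVERY
QUOTIENT THROUGH WHICH IT ACTS.**

`N = M p`, `Λ = T_p J₀(N)`, `Λ^new = T_p J^new` (`NXLambda.lean`), `ι = s59x_TpIncl : Λ^new → Λ` with range
`ker α_T ⊓ ker β_T`.
* `s59x_mem_range_TpIncl` : the range of `ι`;
* `s59x_A_stable`  : every element of main's closed Hecke algebra `s33g_A N p S` (GConc.lean) preserves the range of `ι`
  (generators: `s35c_alphaT_hecke`; ring operations; `p`-adic limits: `Λ_M` is separated);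
* `s59x_resA`      : the restriction `s33g_A N p S →ₐ[ℤ_[p]] End Λ^new`, `ι (resA a w) = a (ι w)`;
* `s59x_primary`   : the `πA`-primary part of a module over a Hecke algebra (the `Wθ` of `s33g_main`);
* **`s59x_strict_of_quot`** : `H` a Hecke–Galois datum at level `M p` with values in `T`, `q : T →+* T′`,
  `rT′ : GaloisRepAdic T′` with `tr rT′ = q ∘ tr H.ρ`, `det rT′ = q ∘ det H.ρ`, residually irreducible, spanning,
  residually ordinary at `p`, and **(7a)** `resA a = 0 → q (π̂ a) = 0`.  Then `rT′.IsStrictOrdinaryAt p`.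
-/
import Fermat.Agent.Lib.S59.NXLambda
import Fermat.Agent.Lib.S33.GTrace
import Fermat.Agent.Lib.S35.B3Eigen

set_option autoImplicit false
set_option linter.style.haveILetI false
set_option linter.unusedSectionVars false
set_option synthInstance.maxHeartbeats 400000

noncomputable section

namespace Fermat.Agent.Lib.S59

open ModularCurve AlgebraicCurve IsLocalRing Module CuspForm Fermat.Agent.Lib.S18
  Fermat.Agent.Lib.S29 Fermat.Agent.Lib.S30 Fermat.Agent.Lib.S31 Fermat.Agent.Lib.S33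
  Fermat.Agent.Lib.S35

local notation "Kb" => AlgebraicClosure ℚ
local notation "Γℚ" => (AlgebraicClosure ℚ ≃ₐ[ℚ] AlgebraicClosure ℚ)

section Range

variable (M p : ℕ) [NeZero M] [hp : Fact p.Prime] (hpM : ¬ p ∣ M)

/-- the range of `T_p J^new → T_p J₀(M p)` is `ker α_T ⊓ ker β_T`. -/
theorem s59x_mem_range_TpIncl (w : s30a_TJ (M * p) p) :
    w ∈ LinearMap.range (s59x_TpIncl M p hpM) ↔
      s35c_alphaT M p hp.out hpM p w = 0 ∧ s35c_betaT M p hp.out hpM p w = 0 := by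
  constructor
  · rintro ⟨x, rfl⟩
    refine ⟨s30a_ext fun n => ?_, s30a_ext fun n => ?_⟩
    · show s35c_alphaPush M p hp.out hpM (((x : ℕ → ↥(s59x_Jnew M p hpM)) n : JZero (M * p))) = 0
      exact ((x : ℕ → ↥(s59x_Jnew M p hpM)) n).2.1
    · show s35c_betaPush M p hp.out hpM (((x : ℕ → ↥(s59x_Jnew M p hpM)) n : JZero (M * p))) = 0
      exact ((x : ℕ → ↥(s59x_Jnew M p hpM)) n).2.2
  · rintro ⟨h1, h2⟩
    have hmem : ∀ n, (w : ℕ → JZero (M * p)) n ∈ s59x_Jnew M p hpM := by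
      intro n
      refine ⟨?_, ?_⟩
      · have := congrArg (fun y : s30a_TJ M p => (y : ℕ → JZero M) n) h1
        exact this
      · have := congrArg (fun y : s30a_TJ M p => (y : ℕ → JZero M) n) h2
        exact this
    refine ⟨⟨fun n => ⟨(w : ℕ → JZero (M * p)) n, hmem n⟩, ?_, ?_⟩, ?_⟩
    · exact Subtype.ext (s30a_zero w)
    · intro n
      exact Subtype.ext (s30a_succ w n)
    · exact s30a_ext fun n => rfl

end Range

section Stable

variable (M p : ℕ) [NeZero M] [hp : Fact p.Prime] (hpM : ¬ p ∣ M) (S : Finset ℕ)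

/-- the second component of a Hecke pair preserves `ker α_T` and `ker β_T`. -/
theorem s59x_pairs_stable {z : heckeAlgebra (M * p) 2 (↑S : Set ℕ) ×
      Module.End ℤ_[p] (s30a_TJ (M * p) p)} (hz : z ∈ s33g_pairs (M * p) p S) :
    ∃ Za Zb : Module.End ℤ_[p] (s30a_TJ M p),
      (∀ w, s35c_alphaT M p hp.out hpM p (z.2 w) = Za (s35c_alphaT M p hp.out hpM p w)) ∧
      (∀ w, s35c_betaT M p hp.out hpM p (z.2 w) = Zb (s35c_betaT M p hp.out hpM p w)) := by
  unfold s33g_pairs at hz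
  induction hz using Subring.closure_induction with
  | mem x hx =>
    obtain ⟨ℓ, hℓ, hℓN, -, rfl⟩ := hx
    have hℓ' : ¬ ((⟨ℓ, hℓ⟩ : Nat.Primes) : ℕ) ∣ M * p * p := by
      intro h
      rcases (Nat.Prime.dvd_mul hℓ).mp h with h1 | h1
      · exact hℓN h1
      · exact hℓN (Dvd.dvd.mul_left h1 M)
    have e : s31e_TL (M * p) p ℓ = s30a_Tz (M * p) p ⟨ℓ, hℓ⟩ :=
      (s31e_TL_of (M * p) p hℓ).trans (s30a_Tz_of_not_dvd (M * p) p (ℓ := ⟨ℓ, hℓ⟩) hℓN).symm
    refine ⟨s30a_Tz M p ⟨ℓ, hℓ⟩, s30a_Tz M p ⟨ℓ, hℓ⟩, fun w => ?_, fun w => ?_⟩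
    · exact (congrArg (fun X : Module.End ℤ_[p] (s30a_TJ (M * p) p) =>
        s35c_alphaT M p hp.out hpM p (X w)) e).trans
          (s35c_alphaT_hecke M p hp.out hpM p ⟨ℓ, hℓ⟩ hℓ' w)
    · exact (congrArg (fun X : Module.End ℤ_[p] (s30a_TJ (M * p) p) =>
        s35c_betaT M p hp.out hpM p (X w)) e).trans
          (s35c_betaT_hecke M p hp.out hpM p ⟨ℓ, hℓ⟩ hℓ' w)
  | zero =>
    exact ⟨0, 0, fun w => map_zero (s35c_alphaT M p hp.out hpM p),
      fun w => map_zero (s35c_betaT M p hp.out hpM p)⟩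
  | one => exact ⟨1, 1, fun w => rfl, fun w => rfl⟩
  | add x y _ _ hx hy =>
    obtain ⟨a1, b1, h1, h2⟩ := hx
    obtain ⟨a2, b2, h3, h4⟩ := hy
    exact ⟨a1 + a2, b1 + b2,
      fun w => (map_add (s35c_alphaT M p hp.out hpM p) (x.2 w) (y.2 w)).trans
        (congrArg₂ (· + ·) (h1 w) (h3 w)),
      fun w => (map_add (s35c_betaT M p hp.out hpM p) (x.2 w) (y.2 w)).trans
        (congrArg₂ (· + ·) (h2 w) (h4 w))⟩
  | neg x _ hx =>
    obtain ⟨a1, b1, h1, h2⟩ := hx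
    exact ⟨-a1, -b1,
      fun w => (map_neg (s35c_alphaT M p hp.out hpM p) (x.2 w)).trans (congrArg Neg.neg (h1 w)),
      fun w => (map_neg (s35c_betaT M p hp.out hpM p) (x.2 w)).trans (congrArg Neg.neg (h2 w))⟩
  | mul x y _ _ hx hy =>
    obtain ⟨a1, b1, h1, h2⟩ := hx
    obtain ⟨a2, b2, h3, h4⟩ := hy
    exact ⟨a1 * a2, b1 * b2,
      fun w => (h1 (y.2 w)).trans (congrArg a1 (h3 w)),
      fun w => (h2 (y.2 w)).trans (congrArg b1 (h4 w))⟩

/-- **the closed Hecke algebra preserves `ker α_T ⊓ ker β_T`.** -/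
theorem s59x_A_stable (a : s33g_A (M * p) p S) (w : s30a_TJ (M * p) p)
    (hw : w ∈ LinearMap.range (s59x_TpIncl M p hpM)) :
    (a : Module.End ℤ_[p] (s30a_TJ (M * p) p)) w ∈ LinearMap.range (s59x_TpIncl M p hpM) := by
  have hr := (s59x_mem_range_TpIncl M p hpM w).mp hw
  obtain ⟨hwa, hwb⟩ := hr
  refine (s59x_mem_range_TpIncl M p hpM _).mpr ⟨?_, ?_⟩
  · apply s33g_sep (p := p)
    intro m
    have ham := a.2 m
    obtain ⟨z, hz, hd⟩ := ham
    have hps := s59x_pairs_stable M p hpM S hz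
    obtain ⟨Za, -, h1, -⟩ := hps
    have hdw := hd w
    obtain ⟨w', hw'⟩ := hdw
    refine ⟨s35c_alphaT M p hp.out hpM p w', ?_⟩
    have e : (a : Module.End ℤ_[p] (s30a_TJ (M * p) p)) w =
        ((a : Module.End ℤ_[p] (s30a_TJ (M * p) p)) - z.2) w + z.2 w :=
      (sub_add_cancel ((a : Module.End ℤ_[p] (s30a_TJ (M * p) p)) w) (z.2 w)).symm
    calc s35c_alphaT M p hp.out hpM p ((a : Module.End ℤ_[p] (s30a_TJ (M * p) p)) w)
        = s35c_alphaT M p hp.out hpM p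
            (((a : Module.End ℤ_[p] (s30a_TJ (M * p) p)) - z.2) w + z.2 w) := congrArg _ e
      _ = s35c_alphaT M p hp.out hpM p
            (((a : Module.End ℤ_[p] (s30a_TJ (M * p) p)) - z.2) w) +
          s35c_alphaT M p hp.out hpM p (z.2 w) := map_add _ _ _
      _ = s35c_alphaT M p hp.out hpM p ((p : ℤ_[p]) ^ m • w') +
          Za (s35c_alphaT M p hp.out hpM p w) := congrArg₂ (· + ·) (congrArg _ hw') (h1 w)
      _ = (p : ℤ_[p]) ^ m • s35c_alphaT M p hp.out hpM p w' + Za 0 :=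
          congrArg₂ (· + ·) (map_smul _ _ _) (congrArg Za hwa)
      _ = (p : ℤ_[p]) ^ m • s35c_alphaT M p hp.out hpM p w' := by rw [map_zero, add_zero]
  · apply s33g_sep (p := p)
    intro m
    have ham := a.2 m
    obtain ⟨z, hz, hd⟩ := ham
    have hps := s59x_pairs_stable M p hpM S hz
    obtain ⟨-, Zb, -, h1⟩ := hps
    have hdw := hd w
    obtain ⟨w', hw'⟩ := hdw
    refine ⟨s35c_betaT M p hp.out hpM p w', ?_⟩
    have e : (a : Module.End ℤ_[p] (s30a_TJ (M * p) p)) w =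
        ((a : Module.End ℤ_[p] (s30a_TJ (M * p) p)) - z.2) w + z.2 w :=
      (sub_add_cancel ((a : Module.End ℤ_[p] (s30a_TJ (M * p) p)) w) (z.2 w)).symm
    calc s35c_betaT M p hp.out hpM p ((a : Module.End ℤ_[p] (s30a_TJ (M * p) p)) w)
        = s35c_betaT M p hp.out hpM p
            (((a : Module.End ℤ_[p] (s30a_TJ (M * p) p)) - z.2) w + z.2 w) := congrArg _ e
      _ = s35c_betaT M p hp.out hpM p
            (((a : Module.End ℤ_[p] (s30a_TJ (M * p) p)) - z.2) w) +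
          s35c_betaT M p hp.out hpM p (z.2 w) := map_add _ _ _
      _ = s35c_betaT M p hp.out hpM p ((p : ℤ_[p]) ^ m • w') +
          Zb (s35c_betaT M p hp.out hpM p w) := congrArg₂ (· + ·) (congrArg _ hw') (h1 w)
      _ = (p : ℤ_[p]) ^ m • s35c_betaT M p hp.out hpM p w' + Zb 0 :=
          congrArg₂ (· + ·) (map_smul _ _ _) (congrArg Zb hwb)
      _ = (p : ℤ_[p]) ^ m • s35c_betaT M p hp.out hpM p w' := by rw [map_zero, add_zero]

/-- the restriction of an element of the closed Hecke algebra to `Λ^new`, as a function. -/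
def s59x_resFun (a : s33g_A (M * p) p S) (w : s30a_Tp ↥(s59x_Jnew M p hpM) p) :
    s30a_Tp ↥(s59x_Jnew M p hpM) p :=
  (s59x_A_stable M p hpM S a (s59x_TpIncl M p hpM w) ⟨w, rfl⟩).choose

theorem s59x_resFun_spec (a : s33g_A (M * p) p S) (w : s30a_Tp ↥(s59x_Jnew M p hpM) p) :
    s59x_TpIncl M p hpM (s59x_resFun M p hpM S a w) =
      (a : Module.End ℤ_[p] (s30a_TJ (M * p) p)) (s59x_TpIncl M p hpM w) :=
  (s59x_A_stable M p hpM S a (s59x_TpIncl M p hpM w) ⟨w, rfl⟩).choose_spec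

/-- the restriction of an element of the closed Hecke algebra to `Λ^new`, as a linear map. -/
def s59x_resLin (a : s33g_A (M * p) p S) : Module.End ℤ_[p] (s30a_Tp ↥(s59x_Jnew M p hpM) p) where
  toFun := s59x_resFun M p hpM S a
  map_add' := fun x y => s59x_TpIncl_injective M p hpM
    ((s59x_resFun_spec M p hpM S a (x + y)).trans
      ((congrArg (a : Module.End ℤ_[p] (s30a_TJ (M * p) p))
        (map_add (s59x_TpIncl M p hpM) x y)).trans
      ((map_add (a : Module.End ℤ_[p] (s30a_TJ (M * p) p)) _ _).trans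
      ((congrArg₂ (· + ·) (s59x_resFun_spec M p hpM S a x)
        (s59x_resFun_spec M p hpM S a y)).symm.trans
      (map_add (s59x_TpIncl M p hpM) _ _).symm))))
  map_smul' := fun c x => s59x_TpIncl_injective M p hpM
    ((s59x_resFun_spec M p hpM S a (c • x)).trans
      ((congrArg (a : Module.End ℤ_[p] (s30a_TJ (M * p) p))
        (map_smul (s59x_TpIncl M p hpM) c x)).trans
      ((map_smul (a : Module.End ℤ_[p] (s30a_TJ (M * p) p)) c _).trans
      ((congrArg (c • ·) (s59x_resFun_spec M p hpM S a x)).symm.trans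
      (map_smul (s59x_TpIncl M p hpM) c _).symm))))

theorem s59x_resLin_spec (a : s33g_A (M * p) p S) (w : s30a_Tp ↥(s59x_Jnew M p hpM) p) :
    s59x_TpIncl M p hpM (s59x_resLin M p hpM S a w) =
      (a : Module.End ℤ_[p] (s30a_TJ (M * p) p)) (s59x_TpIncl M p hpM w) :=
  s59x_resFun_spec M p hpM S a w

theorem s59x_resLin_one : s59x_resLin M p hpM S 1 = 1 := by
  refine LinearMap.ext fun w => s59x_TpIncl_injective M p hpM ?_
  exact s59x_resLin_spec M p hpM S 1 w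

theorem s59x_resLin_mul (a b : s33g_A (M * p) p S) :
    s59x_resLin M p hpM S (a * b) = s59x_resLin M p hpM S a * s59x_resLin M p hpM S b := by
  refine LinearMap.ext fun w => s59x_TpIncl_injective M p hpM ?_
  exact (s59x_resLin_spec M p hpM S (a * b) w).trans
    ((congrArg (a : Module.End ℤ_[p] (s30a_TJ (M * p) p))
      (s59x_resLin_spec M p hpM S b w)).symm.trans
        (s59x_resLin_spec M p hpM S a (s59x_resLin M p hpM S b w)).symm)

theorem s59x_resLin_zero : s59x_resLin M p hpM S 0 = 0 := by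
  refine LinearMap.ext fun w => s59x_TpIncl_injective M p hpM ?_
  exact (s59x_resLin_spec M p hpM S 0 w).trans (map_zero (s59x_TpIncl M p hpM)).symm

theorem s59x_resLin_add (a b : s33g_A (M * p) p S) :
    s59x_resLin M p hpM S (a + b) = s59x_resLin M p hpM S a + s59x_resLin M p hpM S b := by
  refine LinearMap.ext fun w => s59x_TpIncl_injective M p hpM ?_
  exact (s59x_resLin_spec M p hpM S (a + b) w).trans
    ((congrArg₂ (· + ·) (s59x_resLin_spec M p hpM S a w)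
      (s59x_resLin_spec M p hpM S b w)).symm.trans
        (map_add (s59x_TpIncl M p hpM) _ _).symm)

theorem s59x_resLin_algebraMap (c : ℤ_[p]) :
    s59x_resLin M p hpM S (algebraMap ℤ_[p] (s33g_A (M * p) p S) c) =
      algebraMap ℤ_[p] (Module.End ℤ_[p] (s30a_Tp ↥(s59x_Jnew M p hpM) p)) c := by
  refine LinearMap.ext fun w => s59x_TpIncl_injective M p hpM ?_
  exact (s59x_resLin_spec M p hpM S _ w).trans (map_smul (s59x_TpIncl M p hpM) c w).symm

/-- **the restriction `s33g_A (M p) p S →ₐ[ℤ_[p]] End (T_p J^new)`.** -/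
def s59x_resA : s33g_A (M * p) p S →ₐ[ℤ_[p]]
    Module.End ℤ_[p] (s30a_Tp ↥(s59x_Jnew M p hpM) p) where
  toFun := s59x_resLin M p hpM S
  map_one' := s59x_resLin_one M p hpM S
  map_mul' := s59x_resLin_mul M p hpM S
  map_zero' := s59x_resLin_zero M p hpM S
  map_add' := s59x_resLin_add M p hpM S
  commutes' := s59x_resLin_algebraMap M p hpM S

theorem s59x_resA_spec (a : s33g_A (M * p) p S) (w : s30a_Tp ↥(s59x_Jnew M p hpM) p) :
    s59x_TpIncl M p hpM (s59x_resA M p hpM S a w) =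
      (a : Module.End ℤ_[p] (s30a_TJ (M * p) p)) (s59x_TpIncl M p hpM w) :=
  s59x_resFun_spec M p hpM S a w

/-- `resA a = 0` iff `a` kills `ker α_T ⊓ ker β_T`. -/
theorem s59x_resA_eq_zero_iff (a : s33g_A (M * p) p S) :
    s59x_resA M p hpM S a = 0 ↔ ∀ w : s30a_TJ (M * p) p,
      s35c_alphaT M p hp.out hpM p w = 0 → s35c_betaT M p hp.out hpM p w = 0 →
        (a : Module.End ℤ_[p] (s30a_TJ (M * p) p)) w = 0 := by
  constructor
  · intro h w h1 h2
    have hr := (s59x_mem_range_TpIncl M p hpM w).mpr ⟨h1, h2⟩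
    obtain ⟨x, hx⟩ := hr
    have h3 : s59x_resA M p hpM S a x = 0 := LinearMap.congr_fun h x
    exact (congrArg (a : Module.End ℤ_[p] (s30a_TJ (M * p) p)) hx.symm).trans
      ((s59x_resA_spec M p hpM S a x).symm.trans
        ((congrArg (s59x_TpIncl M p hpM) h3).trans (map_zero (s59x_TpIncl M p hpM))))
  · intro h
    refine LinearMap.ext fun w => s59x_TpIncl_injective M p hpM ?_
    have hr := (s59x_mem_range_TpIncl M p hpM _).mp ⟨w, rfl⟩
    obtain ⟨h1, h2⟩ := hr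
    exact (s59x_resA_spec M p hpM S a w).trans
      ((h _ h1 h2).trans (map_zero (s59x_TpIncl M p hpM)).symm)

end Stable

section Primary

variable {p : ℕ} [Fact p.Prime] {Λ : Type*} [AddCommGroup Λ] [Module ℤ_[p] Λ]
  {A : Type*} [CommRing A] [Algebra ℤ_[p] A] {T : Type*} [CommRing T] [IsLocalRing T]

/-- **the `πA`-primary part** of a module over a Hecke algebra `A`: the `w` on which every `a` with
`πA a ∈ 𝔪_T` acts topologically nilpotently (the `Wθ` of `s33g_main`). -/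
def s59x_primary (act : A →ₐ[ℤ_[p]] Module.End ℤ_[p] Λ) (πA : A →+* T) : Submodule ℤ_[p] Λ where
  carrier := {w | ∀ a : A, πA a ∈ maximalIdeal T →
    ∀ m : ℕ, ∃ j : ℕ, ∃ w' : Λ, (act a ^ j) w = (p : ℤ_[p]) ^ m • w'}
  add_mem' := by
    intro x y hx hy a ha m
    obtain ⟨j₁, x', hx'⟩ := hx a ha m
    obtain ⟨j₂, y', hy'⟩ := hy a ha m
    refine ⟨j₁ + j₂, (act a ^ j₂) x' + (act a ^ j₁) y', ?_⟩
    have e1 : (act a ^ (j₁ + j₂)) x = (p : ℤ_[p]) ^ m • (act a ^ j₂) x' := by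
      rw [add_comm j₁ j₂, pow_add, Module.End.mul_apply, hx', map_smul]
    have e2 : (act a ^ (j₁ + j₂)) y = (p : ℤ_[p]) ^ m • (act a ^ j₁) y' := by
      rw [pow_add, Module.End.mul_apply, hy', map_smul]
    rw [map_add, smul_add, e1, e2]
  zero_mem' := by
    intro a _ m
    exact ⟨0, 0, by rw [map_zero, smul_zero]⟩
  smul_mem' := by
    intro c x hx a ha m
    obtain ⟨j, x', hx'⟩ := hx a ha m
    exact ⟨j, c • x', by rw [map_smul, hx', smul_comm]⟩

theorem s59x_mem_primary (act : A →ₐ[ℤ_[p]] Module.End ℤ_[p] Λ) (πA : A →+* T) (w : Λ) :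
    w ∈ s59x_primary act πA ↔ ∀ a : A, πA a ∈ maximalIdeal T →
      ∀ m : ℕ, ∃ j : ℕ, ∃ w' : Λ, (act a ^ j) w = (p : ℤ_[p]) ^ m • w' := Iff.rfl

end Primary

section Quot

variable (M p : ℕ) [NeZero M] [hp : Fact p.Prime] (hpM : ¬ p ∣ M) (S : Finset ℕ)

/-- **the closed Hecke algebra of the `p`-new Tate module**: the image of `s33g_A (M p) p S` in `End Λ^new`,
as a quotient of `s33g_A (M p) p S`. -/
def s59x_Anew : Type := s33g_A (M * p) p S ⧸ RingHom.ker (s59x_resA M p hpM S)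

instance s59x_instCommRingAnew : CommRing (s59x_Anew M p hpM S) :=
  Ideal.Quotient.commRing _

instance s59x_instAlgebraAnew : Algebra ℤ_[p] (s59x_Anew M p hpM S) :=
  Ideal.Quotient.algebra ℤ_[p]

/-- the projection `s33g_A (M p) p S → A^new`. -/
def s59x_mkNew : s33g_A (M * p) p S →ₐ[ℤ_[p]] s59x_Anew M p hpM S :=
  Ideal.Quotient.mkₐ ℤ_[p] (RingHom.ker (s59x_resA M p hpM S))

theorem s59x_mkNew_surjective : Function.Surjective (s59x_mkNew M p hpM S) :=
  Ideal.Quotient.mkₐ_surjective ℤ_[p] _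

/-- the action of `A^new` on `Λ^new`. -/
def s59x_actNew : s59x_Anew M p hpM S →ₐ[ℤ_[p]]
    Module.End ℤ_[p] (s30a_Tp ↥(s59x_Jnew M p hpM) p) :=
  Ideal.kerLiftAlg (s59x_resA M p hpM S)

theorem s59x_actNew_mk (a : s33g_A (M * p) p S) :
    s59x_actNew M p hpM S (s59x_mkNew M p hpM S a) = s59x_resA M p hpM S a := rfl

theorem s59x_actNew_injective : Function.Injective (s59x_actNew M p hpM S) :=
  Ideal.kerLiftAlg_injective (s59x_resA M p hpM S)

/-- a ring homomorphism out of `s33g_A` which kills the kernel of the restriction factors through `A^new`. -/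
def s59x_liftNew {T' : Type*} [CommRing T'] (f : s33g_A (M * p) p S →+* T')
    (hf : ∀ a : s33g_A (M * p) p S, s59x_resA M p hpM S a = 0 → f a = 0) :
    s59x_Anew M p hpM S →+* T' :=
  Ideal.Quotient.lift (RingHom.ker (s59x_resA M p hpM S)) f
    (fun a ha => hf a ((RingHom.mem_ker).mp ha))

theorem s59x_liftNew_mk {T' : Type*} [CommRing T'] (f : s33g_A (M * p) p S →+* T')
    (hf : ∀ a : s33g_A (M * p) p S, s59x_resA M p hpM S a = 0 → f a = 0)
    (a : s33g_A (M * p) p S) :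
    s59x_liftNew M p hpM S f hf (s59x_mkNew M p hpM S a) = f a := rfl

theorem s59x_mkNew_algebraMap (c : ℤ_[p]) :
    algebraMap ℤ_[p] (s59x_Anew M p hpM S) c =
      s59x_mkNew M p hpM S (algebraMap ℤ_[p] (s33g_A (M * p) p S) c) :=
  ((s59x_mkNew M p hpM S).commutes c).symm

/-- the Galois action on `Λ^new` through `ι`. -/
theorem s59x_TpIncl_rho (g : Γℚ) (w : s30a_Tp ↥(s59x_Jnew M p hpM) p) :
    s59x_TpIncl M p hpM (s33w_rho ↥(s59x_Jnew M p hpM) p Γℚ g w) =
      s30a_rho (M * p) p g (s59x_TpIncl M p hpM w) := rfl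

/-- `A^new` commutes with the Galois action. -/
theorem s59x_actNew_comm (g : Γℚ) (a : s59x_Anew M p hpM S)
    (w : s30a_Tp ↥(s59x_Jnew M p hpM) p) :
    s33w_rho ↥(s59x_Jnew M p hpM) p Γℚ g (s59x_actNew M p hpM S a w) =
      s59x_actNew M p hpM S a (s33w_rho ↥(s59x_Jnew M p hpM) p Γℚ g w) := by
  have hs := s59x_mkNew_surjective M p hpM S a
  obtain ⟨b, hb⟩ := hs
  have e : s59x_actNew M p hpM S a = s59x_resA M p hpM S b :=
    (congrArg (s59x_actNew M p hpM S) hb.symm).trans (s59x_actNew_mk M p hpM S b)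
  have key : s33w_rho ↥(s59x_Jnew M p hpM) p Γℚ g (s59x_resA M p hpM S b w) =
      s59x_resA M p hpM S b (s33w_rho ↥(s59x_Jnew M p hpM) p Γℚ g w) := by
    apply s59x_TpIncl_injective M p hpM
    have h1 := s59x_resA_spec M p hpM S b (s33w_rho ↥(s59x_Jnew M p hpM) p Γℚ g w)
    have h2 := s59x_resA_spec M p hpM S b w
    have h3 := s59x_TpIncl_rho M p hpM g (s59x_resA M p hpM S b w)
    have h4 := s59x_TpIncl_rho M p hpM g w
    have h5 := s33g_hcomm g b (s59x_TpIncl M p hpM w)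
    exact h3.trans ((congrArg (s30a_rho (M * p) p g) h2).trans (h5.trans
      ((congrArg (b : Module.End ℤ_[p] (s30a_TJ (M * p) p)) h4.symm).trans h1.symm)))
  exact (congrArg (fun X : Module.End ℤ_[p] (s30a_Tp ↥(s59x_Jnew M p hpM) p) =>
      s33w_rho ↥(s59x_Jnew M p hpM) p Γℚ g (X w)) e).trans
    (key.trans (congrArg (fun X : Module.End ℤ_[p] (s30a_Tp ↥(s59x_Jnew M p hpM) p) =>
      X (s33w_rho ↥(s59x_Jnew M p hpM) p Γℚ g w)) e.symm))

end Quot

section Top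

variable (M p : ℕ) [NeZero M] [hp : Fact p.Prime] {S : Finset ℕ}
  {𝒪 : Type} [CommRing 𝒪] [IsDomain 𝒪] [IsDiscreteValuationRing 𝒪]
  [IsAdicComplete (IsLocalRing.maximalIdeal 𝒪) 𝒪]
  {θ : CuspForm.heckeAlgebra (M * p) 2 (↑S : Set ℕ) →+* IsLocalRing.ResidueField 𝒪}
  {T : Type} [CommRing T] [IsLocalRing T] [IsNoetherianRing T]
  [IsAdicComplete (IsLocalRing.maximalIdeal T) T] [Algebra 𝒪 T] [IsLocalHom (algebraMap 𝒪 T)]
  [Module.Finite 𝒪 T] [Module.Free 𝒪 T]

/-- Cayley–Hamilton on `Λ^new` with the scalars of main's `s33g_tA`. -/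
theorem s59x_actNew_CH (hpM : ¬ p ∣ M) (hpS : p ∈ S)
    (hNS : ∀ q : ℕ, q.Prime → q ∣ M * p → q ∈ S)
    (H : CuspForm.HeckeGaloisRepDatum (M * p) (↑S : Set ℕ) 𝒪 θ T) (g : Γℚ)
    (w : s30a_Tp ↥(s59x_Jnew M p hpM) p) :
    s33w_rho ↥(s59x_Jnew M p hpM) p Γℚ g w +
      (((s30y_cycDatum p).ε g : ℤ_[p]ˣ) : ℤ_[p]) • s33w_rho ↥(s59x_Jnew M p hpM) p Γℚ g⁻¹ w =
        s59x_actNew M p hpM S (s59x_mkNew M p hpM S (s33g_tA hpS hNS H g)) w := by
  apply s59x_TpIncl_injective M p hpM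
  have h1 := s59x_resA_spec M p hpM S (s33g_tA hpS hNS H g) w
  have h2 := s33g_hCH hpS hNS H g (s59x_TpIncl M p hpM w)
  have h3 : s59x_TpIncl M p hpM (s33w_rho ↥(s59x_Jnew M p hpM) p Γℚ g w +
      (((s30y_cycDatum p).ε g : ℤ_[p]ˣ) : ℤ_[p]) • s33w_rho ↥(s59x_Jnew M p hpM) p Γℚ g⁻¹ w) =
      s30a_rho (M * p) p g (s59x_TpIncl M p hpM w) +
        (((s30y_cycDatum p).ε g : ℤ_[p]ˣ) : ℤ_[p]) •
          s30a_rho (M * p) p g⁻¹ (s59x_TpIncl M p hpM w) :=
    (map_add (s59x_TpIncl M p hpM) _ _).trans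
      (congrArg₂ (· + ·) (s59x_TpIncl_rho M p hpM g w)
        ((map_smul (s59x_TpIncl M p hpM) _ _).trans
          (congrArg ((((s30y_cycDatum p).ε g : ℤ_[p]ˣ) : ℤ_[p]) • ·)
            (s59x_TpIncl_rho M p hpM g⁻¹ w))))
  exact h3.trans (h2.trans h1.symm)

/-- **STRICTNESS OF A QUOTIENT THROUGH WHICH THE `p`-NEW HECKE ALGEBRA ACTS.** -/
theorem s59x_strict_of_quot (hp2 : p ≠ 2) (hM : s18_GoodLevel p M)
    (hKS : ∀ (P : ValuationSubring Kb) (hP : P.LiesOverPrime p), ∃ N : s33t_NodeFam M p P,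
      s59x_UnipKP M p hM.1 P N (↑(s59x_Dp P p hP) : Set Γℚ) ∧ s33t_SSPack M p hM.1 P N)
    (hpS : p ∈ S) (hNS : ∀ q : ℕ, q.Prime → q ∣ M * p → q ∈ S)
    (H : CuspForm.HeckeGaloisRepDatum (M * p) (↑S : Set ℕ) 𝒪 θ T)
    (hpT : (p : T) ∈ maximalIdeal T)
    {T' : Type} [CommRing T'] [IsLocalRing T'] (q : T →+* T') (hpT' : (p : T') ∈ maximalIdeal T')
    (rT' : GaloisRepAdic T')
    (h7a : ∀ a : s33g_A (M * p) p S, s59x_resA M p hM.1 S a = 0 → q (s33g_piT hpT H.π a) = 0)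
    (htr : ∀ g : Γℚ, LinearMap.trace T' rT'.V (rT'.ρ g) = q (LinearMap.trace T H.ρ.V (H.ρ.ρ g)))
    (hdet : ∀ g : Γℚ, LinearMap.det (rT'.ρ g) = q (LinearMap.det (H.ρ.ρ g)))
    (hirr : ∀ W : Submodule (ResidueField T') rT'.residual.V,
      (∀ g : Γℚ, ∀ x ∈ W, rT'.residual.ρ g x ∈ W) → W = ⊥ ∨ W = ⊤)
    (hspan : Submodule.span T' (Set.range rT'.ρ) = ⊤)
    (hres : ∀ P : ValuationSubring Kb, P.LiesOverPrime p → ∀ τ₀ ∈ P.inertiaSubgroupIn ℚ,
      LinearMap.trace T' rT'.V (rT'.ρ τ₀) - 1 - LinearMap.det (rT'.ρ τ₀) ∈ maximalIdeal T') :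
    rT'.IsStrictOrdinaryAt p := by
  have hpM : ¬ p ∣ M := hM.1
  refine ⟨hpT', fun P hP => ?_⟩
  obtain ⟨N, hK, hSS⟩ := hKS P hP
  have h7a' : ∀ a : s33g_A (M * p) p S, s59x_resA M p hpM S a = 0 →
      (q.comp (s33g_piT hpT H.π)) a = 0 := fun a ha => h7a a ha
  have htr' : ∀ g : Γℚ, s59x_liftNew M p hpM S (q.comp (s33g_piT hpT H.π)) h7a'
      (s59x_mkNew M p hpM S (s33g_tA hpS hNS H g)) = LinearMap.trace T' rT'.V (rT'.ρ g) := by
    intro g
    exact (s59x_liftNew_mk M p hpM S _ h7a' _).trans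
      ((congrArg q (s33g_piT_tA hpS hNS H hpT g)).trans (htr g).symm)
  have hdet' : ∀ g : Γℚ, s59x_liftNew M p hpM S (q.comp (s33g_piT hpT H.π)) h7a'
      (algebraMap ℤ_[p] (s59x_Anew M p hpM S) (((s30y_cycDatum p).ε g : ℤ_[p]ˣ) : ℤ_[p])) =
        LinearMap.det (rT'.ρ g) := by
    intro g
    exact (congrArg (s59x_liftNew M p hpM S (q.comp (s33g_piT hpT H.π)) h7a')
        (s59x_mkNew_algebraMap M p hpM S _)).trans
      ((s59x_liftNew_mk M p hpM S _ h7a' _).trans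
        ((congrArg q (s33g_piT_eps hpS hNS H hpT g)).trans (hdet g).symm))
  exact s59x_strictAt M p hp2 hM P hP N hK hSS (s59x_actNew M p hpM S)
    (s59x_actNew_injective M p hpM S)
    (s59x_liftNew M p hpM S (q.comp (s33g_piT hpT H.π)) h7a') hpT' rT' hirr hspan
    (s59x_actNew_comm M p hpM S) (fun g => s59x_mkNew M p hpM S (s33g_tA hpS hNS H g))
    (s59x_actNew_CH M p hpM hpS hNS H) htr' hdet' (hres P hP)
    (s59x_primary (s59x_actNew M p hpM S)
      (s59x_liftNew M p hpM S (q.comp (s33g_piT hpT H.π)) h7a')) (fun w => Iff.rfl)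

end Top

end Fermat.Agent.Lib.S59
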