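/-
S59 project, case (P), item [P7] (helper9, prefix `s59m_`), file 1: **(7a) POINTWISE.**

`N = M p`, `Λ = T_p J₀(N)`, `A = s33g_A N p S` main's closed Hecke algebra on `Λ`, `π̂ = s33g_piT hpT π : A →+* T`
(GTrace.lean), `resA : A → End (T_p J^new)` helper7's restriction (NXHeckeNew.lean).  Let `lam : T →+* R'` be a point with
values in a noetherian local domain `R'`, flat over `ℤ_[p]`, carrying a KERNEL-NEW eigenvector `v ≠ 0` of
`R' ⊗[ℤ_p] Λ`: `T_ℓ v = lam (π T_ℓ) • v` (`ℓ ∤ N`, `ℓ ∉ S`), `α_T v = 0 = β_T v`.  Then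

  **`s59m_h7a_pt`** : `resA a = 0 → lam (π̂ a) = 0`,

i.e. hypothesis (7a) of helper7's `s59x_strict_of_quot` holds for `q := lam`.

* `s59m_pairs_eig`   : every Hecke pair `(x, X)` acts on `v` through `lam (π x)`;
* `s59m_mem_range_bc` : flatness: `ker (α_T ⊗ 1) ⊓ ker (β_T ⊗ 1)` is the range of `ι ⊗ 1`, `ι = s59x_TpIncl`;
* `s59m_div_bc`      : `X ∈ p ^ m End Λ ⇒ (X ⊗ 1) v ∈ p ^ m (R' ⊗ Λ)`.
-/
import Mathlib
import Fermat.Agent.Lib.S59.NXHeckeNew

set_option autoImplicit false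
set_option linter.unusedSectionVars false
set_option linter.unusedVariables false
set_option linter.style.haveILetI false
set_option synthInstance.maxHeartbeats 400000

noncomputable section

namespace Fermat.Agent.Lib.S59

open ModularCurve AlgebraicCurve IsLocalRing Module CuspForm Fermat.Agent.Lib.S18
  Fermat.Agent.Lib.S29 Fermat.Agent.Lib.S30 Fermat.Agent.Lib.S31 Fermat.Agent.Lib.S33
  Fermat.Agent.Lib.S35
open scoped TensorProduct

section Pairs

variable (N : ℕ) [NeZero N] (p : ℕ) [Fact p.Prime] (S : Finset ℕ)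
  {T : Type} [CommRing T] (π : heckeAlgebra N 2 (↑S : Set ℕ) →+* T)
  {R' : Type*} [CommRing R'] [Algebra ℤ_[p] R'] (lam : T →+* R')

/-- every Hecke pair acts on an eigenvector of the generators through `lam ∘ π`. -/
theorem s59m_pairs_eig (v : R' ⊗[ℤ_[p]] s30a_TJ N p)
    (hT : ∀ (ℓ : ℕ) (hℓ : ℓ.Prime) (hℓN : ¬ ℓ ∣ N) (hℓS : ℓ ∉ (↑S : Set ℕ)),
      (s30a_Tz N p ⟨ℓ, hℓ⟩).baseChange R' v = lam (π (heckeAlgebra.T hℓ hℓN hℓS)) • v)
    {z : heckeAlgebra N 2 (↑S : Set ℕ) × Module.End ℤ_[p] (s30a_TJ N p)}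
    (hz : z ∈ s33g_pairs N p S) :
    (z.2).baseChange R' v = lam (π z.1) • v := by
  unfold s33g_pairs at hz
  induction hz using Subring.closure_induction with
  | mem x hx =>
    obtain ⟨ℓ, hℓ, hℓN, hℓS, rfl⟩ := hx
    have hℓS' : ℓ ∉ (↑S : Set ℕ) := fun h => hℓS (Finset.mem_coe.mp h)
    show (s31e_TL N p ℓ).baseChange R' v = lam (π (s31e_tau N S ℓ)) • v
    rw [s31e_TL_of N p hℓ, s31e_tau_of N S hℓ hℓN hℓS', ← s30a_Tz_of_not_dvd N p (ℓ := ⟨ℓ, hℓ⟩) hℓN]
    exact hT ℓ hℓ hℓN hℓS'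
  | zero =>
    rw [Prod.snd_zero, Prod.fst_zero, map_zero, map_zero, zero_smul, LinearMap.baseChange_zero,
      LinearMap.zero_apply]
  | one =>
    rw [Prod.snd_one, Prod.fst_one, map_one, map_one, one_smul]
    show (LinearMap.id : s30a_TJ N p →ₗ[ℤ_[p]] s30a_TJ N p).baseChange R' v = v
    rw [LinearMap.baseChange_id, LinearMap.id_apply]
  | add x y _ _ hx hy =>
    rw [Prod.snd_add, Prod.fst_add, map_add, map_add, add_smul, LinearMap.baseChange_add,
      LinearMap.add_apply, hx, hy]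
  | neg x _ hx =>
    rw [Prod.snd_neg, Prod.fst_neg, LinearMap.baseChange_neg, LinearMap.neg_apply, hx, map_neg,
      map_neg]
    exact (neg_smul _ _).symm
  | mul x y _ _ hx hy =>
    rw [Prod.snd_mul, Prod.fst_mul, map_mul, map_mul]
    show (x.2 ∘ₗ y.2).baseChange R' v = _
    rw [LinearMap.baseChange_comp, LinearMap.comp_apply, hy, map_smul, hx, smul_smul, mul_comm]

end Pairs

section Flat

variable {R : Type*} [CommRing R] {R' : Type*} [CommRing R'] [Algebra R R'] [Module.Flat R R']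
  {Λ₀ Λ Λ₁ Λ₂ : Type*} [AddCommGroup Λ₀] [Module R Λ₀] [AddCommGroup Λ] [Module R Λ]
  [AddCommGroup Λ₁] [Module R Λ₁] [AddCommGroup Λ₂] [Module R Λ₂]

/-- flat base change of "range = intersection of two kernels". -/
theorem s59m_mem_range_bc (ι : Λ₀ →ₗ[R] Λ) (f : Λ →ₗ[R] Λ₁) (g : Λ →ₗ[R] Λ₂)
    (hι : ∀ w, w ∈ LinearMap.range ι ↔ f w = 0 ∧ g w = 0)
    (v : R' ⊗[R] Λ) (hf : f.baseChange R' v = 0) (hg : g.baseChange R' v = 0) :
    ∃ u : R' ⊗[R] Λ₀, ι.baseChange R' u = v := by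
  have hex : Function.Exact ι (f.prod g) := by
    intro w
    have e : (f.prod g) w = (f w, g w) := rfl
    rw [e, Prod.mk_eq_zero, ← hι w]
    rfl
  have hex' := Module.Flat.lTensor_exact R' hex
  have h0 : (f.prod g).lTensor R' v = 0 := by
    apply (TensorProduct.prodRight R R R' Λ₁ Λ₂).injective
    rw [map_zero]
    have h1 : ∀ x : R' ⊗[R] Λ, TensorProduct.prodRight R R R' Λ₁ Λ₂ ((f.prod g).lTensor R' x) =
        (f.lTensor R' x, g.lTensor R' x) := by
      intro x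
      induction x using TensorProduct.induction_on with
      | zero => rw [map_zero, map_zero, map_zero, map_zero]; rfl
      | tmul r w => simp
      | add x y hx hy => rw [map_add, map_add, hx, hy, map_add, map_add, Prod.mk_add_mk]
    rw [h1]
    have e1 : f.lTensor R' v = 0 := by
      rw [← hf]; exact (congrFun (LinearMap.baseChange_eq_ltensor (A := R') f) v).symm
    have e2 : g.lTensor R' v = 0 := by
      rw [← hg]; exact (congrFun (LinearMap.baseChange_eq_ltensor (A := R') g) v).symm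
    rw [e1, e2]
    rfl
  obtain ⟨u, hu⟩ := (hex' v).mp h0
  exact ⟨u, (congrFun (LinearMap.baseChange_eq_ltensor (A := R') ι) u).trans hu⟩

end Flat

section Div

variable {p : ℕ} [Fact p.Prime] {Λ : Type*} [AddCommGroup Λ] [Module ℤ_[p] Λ]
  {R' : Type*} [CommRing R'] [Algebra ℤ_[p] R']

/-- divisibility by `p ^ m` passes to the base change. -/
theorem s59m_div_bc (m : ℕ) (X : Module.End ℤ_[p] Λ) (hX : s31c_Div m X) (v : R' ⊗[ℤ_[p]] Λ) :
    ∃ v' : R' ⊗[ℤ_[p]] Λ, X.baseChange R' v = ((p : R') ^ m) • v' := by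
  induction v using TensorProduct.induction_on with
  | zero => exact ⟨0, by rw [map_zero, smul_zero]⟩
  | tmul r w =>
    obtain ⟨w', hw'⟩ := hX w
    refine ⟨r ⊗ₜ[ℤ_[p]] w', ?_⟩
    rw [LinearMap.baseChange_tmul, hw', TensorProduct.tmul_smul, ← algebraMap_smul R'
      ((p : ℤ_[p]) ^ m) (r ⊗ₜ[ℤ_[p]] w'), map_pow, map_natCast]
  | add x y hx hy =>
    obtain ⟨x', hx'⟩ := hx
    obtain ⟨y', hy'⟩ := hy
    exact ⟨x' + y', by rw [map_add, hx', hy', smul_add]⟩

end Div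

section Main

variable (M p : ℕ) [NeZero M] [hp : Fact p.Prime] (hpM : ¬ p ∣ M) (S : Finset ℕ)
  {T : Type} [CommRing T] [IsLocalRing T] [IsNoetherianRing T] [IsAdicComplete (maximalIdeal T) T]
  (hpT : (p : T) ∈ maximalIdeal T) (π : heckeAlgebra (M * p) 2 (↑S : Set ℕ) →+* T)
  {R' : Type*} [CommRing R'] [IsDomain R'] [IsLocalRing R'] [IsNoetherianRing R']
  [Algebra ℤ_[p] R'] [Module.Flat ℤ_[p] R']

/-- **(7a) at a point carrying a kernel-new eigenvector.** -/
theorem s59m_h7a_pt (lam : T →+* R') (hlam : ∀ t ∈ maximalIdeal T, lam t ∈ maximalIdeal R')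
    (v : R' ⊗[ℤ_[p]] s30a_TJ (M * p) p) (hv0 : v ≠ 0)
    (hT : ∀ (ℓ : ℕ) (hℓ : ℓ.Prime) (hℓN : ¬ ℓ ∣ M * p) (hℓS : ℓ ∉ (↑S : Set ℕ)),
      (s30a_Tz (M * p) p ⟨ℓ, hℓ⟩).baseChange R' v = lam (π (heckeAlgebra.T hℓ hℓN hℓS)) • v)
    (hα : (s35c_alphaT M p hp.out hpM p).baseChange R' v = 0)
    (hβ : (s35c_betaT M p hp.out hpM p).baseChange R' v = 0)
    (a : s33g_A (M * p) p S) (ha : s59x_resA M p hpM S a = 0) :
    lam (s33g_piT hpT π a) = 0 := by
  classical
  -- `v` comes from the new part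
  obtain ⟨u, hu⟩ := s59m_mem_range_bc (R' := R') (s59x_TpIncl M p hpM)
    (s35c_alphaT M p hp.out hpM p) (s35c_betaT M p hp.out hpM p)
    (fun w => s59x_mem_range_TpIncl M p hpM w) v hα hβ
  -- `a ⊗ 1` kills `v`
  have hav : (a : Module.End ℤ_[p] (s30a_TJ (M * p) p)).baseChange R' v = 0 := by
    have hcomp : (a : Module.End ℤ_[p] (s30a_TJ (M * p) p)) ∘ₗ s59x_TpIncl M p hpM = 0 := by
      refine LinearMap.ext fun w => ?_
      rw [LinearMap.comp_apply, ← s59x_resA_spec M p hpM S a w, ha, LinearMap.zero_apply, map_zero,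
        LinearMap.zero_apply]
    rw [← hu, ← LinearMap.comp_apply, ← LinearMap.baseChange_comp, hcomp, LinearMap.baseChange_zero,
      LinearMap.zero_apply]
  -- `p ∈ 𝔪_{R'}`
  have hpR : (p : R') ∈ maximalIdeal R' := by
    have := hlam _ hpT
    rwa [map_natCast] at this
  have hpow : ∀ n : ℕ, ∀ t ∈ maximalIdeal T ^ n, lam t ∈ maximalIdeal R' ^ n := by
    intro n t ht
    have h1 : Ideal.map lam (maximalIdeal T ^ n) ≤ maximalIdeal R' ^ n := by
      rw [Ideal.map_pow]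
      exact Ideal.pow_right_mono (Ideal.map_le_iff_le_comap.mpr fun t ht =>
        Ideal.mem_comap.mpr (hlam t ht)) n
    exact h1 (Ideal.mem_map_of_mem lam ht)
  -- the limit argument
  have hmem : ∀ n : ℕ, lam (s33g_piT hpT π a) • v ∈
      (maximalIdeal R' ^ n • ⊤ : Submodule R' (R' ⊗[ℤ_[p]] s30a_TJ (M * p) p)) := by
    intro n
    obtain ⟨z, hz, hd, ht⟩ := s33g_piT_spec hpT π a n
    obtain ⟨v', hv'⟩ := s59m_div_bc (R' := R') _ _ hd v
    have e1 : lam (s33g_piT hpT π a) • v =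
        lam (s33g_piT hpT π a - π z.1) • v - ((p : R') ^ (n + s33g_c hpT π)) • v' := by
      rw [← hv', LinearMap.baseChange_sub, LinearMap.sub_apply, hav,
        s59m_pairs_eig (M * p) p S π lam v hT hz, map_sub]
      have e2 : (lam (s33g_piT hpT π a) - lam (π z.1)) • v =
          lam (s33g_piT hpT π a) • v - lam (π z.1) • v :=
        sub_smul (lam (s33g_piT hpT π a)) (lam (π z.1)) v
      rw [e2]
      abel
    rw [e1]
    refine Submodule.sub_mem _ (Submodule.smul_mem_smul (hpow n _ ht) Submodule.mem_top) ?_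
    refine Submodule.smul_mem_smul ?_ Submodule.mem_top
    exact Ideal.pow_le_pow_right (Nat.le_add_right n _) (Ideal.pow_mem_pow hpR _)
  have hzero : lam (s33g_piT hpT π a) • v = 0 := by
    have h1 : lam (s33g_piT hpT π a) • v ∈
        (⨅ i : ℕ, maximalIdeal R' ^ i • ⊤ : Submodule R' (R' ⊗[ℤ_[p]] s30a_TJ (M * p) p)) :=
      (Submodule.mem_iInf _).mpr hmem
    rw [Ideal.iInf_pow_smul_eq_bot_of_isLocalRing _ (maximalIdeal.isMaximal R').ne_top] at h1
    exact (Submodule.mem_bot R').mp h1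
  exact (smul_eq_zero.mp hzero).resolve_right hv0

end Main

end Fermat.Agent.Lib.S59
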