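/-
S59 project, case (P), item [P7] (helper9, prefix `s59m_`), file 2: **(7a) IN FAMILY, at `Γ_{H'}(L p)`-level.**

* `s59m_newPt_vec` : an eigenclass `(θ, a, φ)` over `𝒪` on `Γ_{H'}(L r)`, `L = N₁ ∏ Q`, KERNEL-NEW at the auxiliary prime
  `r ∤ L` (`r = p` allowed), gives a kernel-new eigenvector `v ≠ 0` of `𝒪 ⊗ T_p J₀(M' r)`, `M' = N₁ ∏ q²`, with eigenvalues
  `θ(ℓ)⁻¹ a_ℓ` (helper4's chain of `s59f_NEWpt`: `s59u_exists_chi_theta` → `s59f_TwistKerNew_int` → `s59f_hnewR`, none of which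
  needs `r ≠ p`);
* **`s59m_h7a_fam`** : `Z` a finite free `𝒪`-module of kernel-new classes on `Γ_{H'}(L p)`, `T` a commutative `𝒪`-algebra acting
  on `Z` through `𝒪[T_ℓ, ⟨τ⟩]` with RADICAL kernel, `Hd` a Hecke–Galois datum at level `Γ₀(M' p)` over `T₀`, `q : T₀ →ₐ[𝒪] T` with
  `q (π T_ℓ)` acting as the twisted operator `T'_ℓ = ⟨ℓ⟩^{(n-1)m} T_ℓ`.  Then (7a) of helper7's `s59x_strict_of_quot` holds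
  modulo the kernel: `resA a = 0 → jT (q (π̂ a)) = 0`.
-/
import Mathlib
import Fermat.Agent.Lib.S59.FNewFam2
import Fermat.Agent.Lib.S59.MPNew1

set_option autoImplicit false
set_option linter.unusedSectionVars false
set_option linter.unusedVariables false
set_option linter.style.haveILetI false
set_option synthInstance.maxHeartbeats 400000
set_option maxHeartbeats 4000000

noncomputable section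

namespace Fermat.Agent.Lib.S59

open Polynomial IsLocalRing CuspForm
open Fermat.Agent.Lib.S48 Fermat.Agent.Lib.ES Fermat.Agent.Lib.S29 Fermat.Agent.Lib.S30
  Fermat.Agent.Lib.S31 Fermat.Agent.Lib.S33
  Fermat.Agent.Lib.S35 Fermat.Agent.Lib.S36 Fermat.Agent.Lib.S41
  CongruenceSubgroup ModularCurve.Period
open scoped MatrixGroups TensorProduct

local notation "Qbar" => AlgebraicClosure ℚ
local notation "GQ" => (AlgebraicClosure ℚ ≃ₐ[ℚ] AlgebraicClosure ℚ)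

section NewVec

variable (p : ℕ) [Fact p.Prime] (N₁ : ℕ) [NeZero N₁] (r : ℕ) [NeZero r] [hr : Fact r.Prime]
  (Q : Finset ℕ)

/-- **the kernel-new eigenvector of `𝒪 ⊗ T_p J₀(N₁ ∏ q² · r)` attached to a kernel-new eigenclass on `Γ_{H'}(L r)`.** -/
theorem s59m_newPt_vec (hQ : ∀ q ∈ Q, q.Prime ∧ ¬ q ∣ N₁ * r)
    {L : ℕ} [NeZero L] (hL : L = N₁ * ∏ q ∈ Q, q) (hrL : ¬ r ∣ L)
    (H : Subgroup (ZMod L)ˣ) (hD₁ : (∏ q ∈ Q, q) ∣ L)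
    (hHker : s59u_ker L (∏ q ∈ Q, q) hD₁ ≤ H)
    (H' : Subgroup (ZMod (L * r))ˣ)
    (hH' : ∀ u : (ZMod (L * r))ˣ, u ∈ H' ↔ ZMod.unitsMap (dvd_mul_right L r) u ∈ H)
    (𝒪 : Type) [CommRing 𝒪] [IsDomain 𝒪] [IsDiscreteValuationRing 𝒪]
    [IsAdicComplete (maximalIdeal 𝒪) 𝒪] [Finite (ResidueField 𝒪)] [CharZero 𝒪] [Algebra ℤ_[p] 𝒪]
    (θ : (ZMod (L * r))ˣ →* 𝒪ˣ) (hθH : ∀ d ∈ H', θ d = 1)
    (μ : Subgroup 𝒪ˣ) (hμ : ∀ x ∈ μ, x ^ 2 = 1 → x = 1)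
    (hθμ : ∀ d : (ZMod (L * r))ˣ, θ d ∈ μ)
    (a : ℕ → 𝒪)
    (φ : Additive (s48h_GammaH (L * r) H') →+ 𝒪) (hφ0 : φ ≠ 0)
    (hpar : IsParabolicHom (s48h_GammaH (L * r) H') φ)
    (hdiam : ∀ (σ : SL(2, ℤ)) (hσ : σ ∈ Gamma0 (L * r)) (du : (ZMod (L * r))ˣ),
      ((du : (ZMod (L * r))ˣ) : ZMod (L * r)) = ((σ 1 1 : ℤ) : ZMod (L * r)) →
      s48h_diamondH H' σ hσ 𝒪 φ = (((θ du : 𝒪ˣ) : 𝒪) ^ 2) • φ)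
    (heig : ∀ (ℓ : ℕ) [Fact ℓ.Prime] (hℓ : ¬ ℓ ∣ L * r) (σ : SL(2, ℤ)) (hσ : σ ∈ Gamma0 (L * r))
      (hσ11 : ((σ 1 1 : ℤ) : ZMod (L * r)) = (ℓ : ZMod (L * r))),
      s48h_TpH H' hℓ σ hσ hσ11 𝒪 φ = a ℓ • φ)
    (hcA : s59f_corH hrL (s59f_isG_GammaH L H)
      (s59f_isG'_GammaH hrL rfl (dvd_mul_right L r) hH') 𝒪 φ = 0)
    (hcB : s59f_corH hrL (s59f_isG_GammaH L H)
      (s59f_isG'_GammaH hrL rfl (dvd_mul_right L r) hH') 𝒪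
      (s59f_wH hrL (s59f_isG'_GammaH hrL rfl (dvd_mul_right L r) hH') 𝒪 φ) = 0)
    (M' : ℕ) [NeZero M'] (hM' : M' = N₁ * (∏ q ∈ Q, q) * ∏ q ∈ Q, q) :
    ∃ (hrM : ¬ r ∣ M') (v : 𝒪 ⊗[ℤ_[p]] s30a_TJ (M' * r) p), v ≠ 0 ∧
      (∀ (ℓ : ℕ) (hℓ : ℓ.Prime), ¬ ℓ ∣ M' * r → ∀ ℓu : (ZMod (L * r))ˣ,
        ((ℓu : (ZMod (L * r))ˣ) : ZMod (L * r)) = (ℓ : ZMod (L * r)) →
        (s30a_Tz (M' * r) p ⟨ℓ, hℓ⟩).baseChange 𝒪 v = ((((θ ℓu)⁻¹ : 𝒪ˣ) : 𝒪) * a ℓ) • v) ∧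
      (s35c_alphaT M' r hr.out hrM p).baseChange 𝒪 v = 0 ∧
      (s35c_betaT M' r hr.out hrM p).baseChange 𝒪 v = 0 := by
  classical
  subst hL
  haveI : NeZero ((N₁ * ∏ q ∈ Q, q) * r) := ⟨mul_ne_zero (NeZero.ne _) (NeZero.ne r)⟩
  have hQ' : ∀ q ∈ Q, q.Prime ∧ ¬ q ∣ N₁ := fun q hq =>
    ⟨(hQ q hq).1, fun h => (hQ q hq).2 (Dvd.dvd.mul_right h r)⟩
  -- `θ` factors through `(ℤ/L)ˣ`
  obtain ⟨θ₀, hθ₀⟩ := s59f_exists_factor (dvd_mul_right (N₁ * ∏ q ∈ Q, q) r) θ (fun u hu =>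
    hθH u ((hH' u).mpr (by rw [hu]; exact one_mem H)))
  have hsurj := ZMod.unitsMap_surjective (dvd_mul_right (N₁ * ∏ q ∈ Q, q) r)
  have hθ₀H : ∀ d ∈ H, θ₀ d = 1 := by
    intro d hd
    obtain ⟨u, rfl⟩ := hsurj d
    rw [hθ₀]
    exact hθH u ((hH' u).mpr hd)
  have hθ₀μ : ∀ d, θ₀ d ∈ μ := by
    intro d
    obtain ⟨u, rfl⟩ := hsurj d
    rw [hθ₀]
    exact hθμ u
  have hkerH : s59u_ker (N₁ * ∏ q ∈ Q, q) (∏ q ∈ Q, q) (dvd_mul_left _ _) ≤ H := hHker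
  obtain ⟨χ, hχ1, hχ2⟩ := s59u_exists_chi_theta N₁ Q hQ' θ₀ (fun d hd => hθ₀H d (hkerH hd))
  have hdich : ∀ q ∈ Q, χ q = 1 ∨ (χ q) ^ 2 ≠ 1 := fun q hq =>
    s59u_chi_dichotomy μ hμ (χ q) (fun b => by
      obtain ⟨d, hd⟩ := hχ1 q hq b
      exact ⟨θ₀ d, hθ₀μ d, hd⟩)
  -- the product formula at level `L r`
  have hχ3 : ∀ (d : ℤ) (du : (ZMod ((N₁ * ∏ q ∈ Q, q) * r))ˣ),
      ((du : (ZMod ((N₁ * ∏ q ∈ Q, q) * r))ˣ) : ZMod ((N₁ * ∏ q ∈ Q, q) * r))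
        = ((d : ℤ) : ZMod ((N₁ * ∏ q ∈ Q, q) * r)) →
      (∏ q ∈ Q, χ q ((d : ℤ) : ZMod q)) * ((θ du : 𝒪ˣ) : 𝒪) = 1 := by
    intro d du hdu
    rw [← hθ₀]
    refine hχ2 d _ ?_
    rw [ZMod.unitsMap_def, Units.coe_map, MonoidHom.coe_coe, hdu, map_intCast]
  have hψχ : ∀ d : ℤ, IsCoprime d (((N₁ * ∏ q ∈ Q, q) * r : ℕ) : ℤ) →
      s59f_psiZ θ d * ∏ q ∈ Q, (χ q ((d : ℤ) : ZMod q)) ^ 2 = 1 := by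
    intro d hd
    have h1 := hχ3 d (s59u_intUnit _ d hd) (s59u_intUnit_coe _ d hd)
    rw [s59f_psiZ_eq θ d _ (s59u_intUnit_coe _ d hd), Finset.prod_pow, ← mul_pow, mul_comm, h1,
      one_pow]
  have hdiamZ : ∀ (σ : SL(2, ℤ)) (hσ : σ ∈ Gamma0 ((N₁ * ∏ q ∈ Q, q) * r)),
      s48h_diamondH H' σ hσ 𝒪 φ = s59f_psiZ θ (σ 1 1) • φ := by
    intro σ hσ
    have hcσ : IsCoprime (σ 1 1) (((N₁ * ∏ q ∈ Q, q) * r : ℕ) : ℤ) := s59u_coprime_lowerRight hσ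
    rw [s59f_psiZ_eq θ (σ 1 1) (s59u_intUnit _ _ hcσ) (s59u_intUnit_coe _ _ hcσ)]
    exact hdiam σ hσ _ (s59u_intUnit_coe _ _ hcσ)
  obtain ⟨hrM, Φ, hΦ0, hΦpar, hΦeig, hA0, hB0⟩ := s59f_TwistKerNew_int N₁ r Q 𝒪 hQ rfl hrL H hD₁
    hHker H' hH' χ hdich (s59f_psiZ θ) (s59f_psiZ_per θ) hψχ a φ hφ0 hpar hdiamZ heig hcA hcB M' hM'
  -- the eigenvalues
  obtain ⟨y, hy⟩ : ∃ y : ℕ → 𝒪, y = fun ℓ => (∏ q ∈ Q, χ q (ℓ : ZMod q)) * a ℓ := ⟨_, rfl⟩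
  have hyθ : ∀ (ℓ : ℕ) (ℓu : (ZMod ((N₁ * ∏ q ∈ Q, q) * r))ˣ),
      ((ℓu : (ZMod ((N₁ * ∏ q ∈ Q, q) * r))ˣ) : ZMod ((N₁ * ∏ q ∈ Q, q) * r))
        = (ℓ : ZMod ((N₁ * ∏ q ∈ Q, q) * r)) →
      y ℓ = (((θ ℓu)⁻¹ : 𝒪ˣ) : 𝒪) * a ℓ := by
    intro ℓ ℓu hℓu
    have h1 := hχ3 (ℓ : ℤ) ℓu (by rw [hℓu, Int.cast_natCast])
    simp only [Int.cast_natCast] at h1
    have h2 : (∏ q ∈ Q, χ q (ℓ : ZMod q)) = (((θ ℓu)⁻¹ : 𝒪ˣ) : 𝒪) := by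
      calc (∏ q ∈ Q, χ q (ℓ : ZMod q))
          = (∏ q ∈ Q, χ q (ℓ : ZMod q)) * (((θ ℓu : 𝒪ˣ) : 𝒪) * (((θ ℓu)⁻¹ : 𝒪ˣ) : 𝒪)) := by
            rw [Units.mul_inv, mul_one]
        _ = (((θ ℓu)⁻¹ : 𝒪ˣ) : 𝒪) := by rw [← mul_assoc, h1, one_mul]
    rw [hy]
    show (∏ q ∈ Q, χ q (ℓ : ZMod q)) * a ℓ = _
    rw [h2]
  obtain ⟨v, hv0, hvT, hvα, hvβ⟩ := s59f_hnewR M' r hrM p (∅ : Set ℕ) 𝒪 Φ hΦpar hΦ0 y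
    (fun ℓ _ hℓN _ => by rw [hy]; exact hΦeig ℓ hℓN) hA0 hB0
  refine ⟨hrM, v, hv0, fun ℓ hℓ hℓN ℓu hℓu => ?_, hvα, hvβ⟩
  rw [hvT ℓ hℓ hℓN (Set.notMem_empty ℓ), hyθ ℓ ℓu hℓu]

end NewVec

section Fam

variable (p : ℕ) [hpP : Fact p.Prime] [NeZero p] (N₁ : ℕ) [NeZero N₁] (Q : Finset ℕ)

/-- **(7a) in family, at `Γ_{H'}(L p)`-level.** -/
theorem s59m_h7a_fam (hp2 : p ≠ 2) (hQ : ∀ q ∈ Q, q.Prime ∧ ¬ q ∣ N₁ * p)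
    {L : ℕ} [NeZero L] (hL : L = N₁ * ∏ q ∈ Q, q) (hpL : ¬ p ∣ L)
    (H : Subgroup (ZMod L)ˣ) (hD₁ : (∏ q ∈ Q, q) ∣ L)
    (hHker : s59u_ker L (∏ q ∈ Q, q) hD₁ ≤ H)
    (H' : Subgroup (ZMod (L * p))ˣ)
    (hH' : ∀ u : (ZMod (L * p))ˣ, u ∈ H' ↔ ZMod.unitsMap (dvd_mul_right L p) u ∈ H)
    {e m : ℕ} (hnm : 2 * m = p ^ e + 1) (hn : ∀ u : (ZMod (L * p))ˣ, u ^ (p ^ e) ∈ H')
    (𝒪 : Type) [CommRing 𝒪] [IsDomain 𝒪] [IsDiscreteValuationRing 𝒪]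
    [IsAdicComplete (maximalIdeal 𝒪) 𝒪] [Finite (ResidueField 𝒪)] [CharZero 𝒪] [Algebra ℤ_[p] 𝒪]
    (hp𝒪 : (p : 𝒪) ∈ maximalIdeal 𝒪)
    (S : Finset ℕ) (hMS : ∀ q : ℕ, q.Prime → q ∣ L * p → q ∈ S)
    -- the module
    {Z : Type} [AddCommGroup Z] [Module 𝒪 Z] [Module.Finite 𝒪 Z] [Module.Free 𝒪 Z]
    [NeZero (L * p)]
    (emb : Z →ₗ[𝒪] s48h_Hpar 𝒪 (s48h_GammaH (L * p) H') 𝒪) (hemb : Function.Injective emb)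
    (op : s59w_AIdx (L * p) → Module.End 𝒪 Z)
    (hop : ∀ j z, emb (op j z) = s59w_op H' 𝒪 j (emb z))
    -- kernel-newness
    (hnewA : ∀ z, s59f_corH hpL (s59f_isG_GammaH L H)
      (s59f_isG'_GammaH hpL rfl (dvd_mul_right L p) hH') 𝒪
      ((emb z : s48h_Hpar 𝒪 (s48h_GammaH (L * p) H') 𝒪) :
        Additive (s48h_GammaH (L * p) H') →+ 𝒪) = 0)
    (hnewB : ∀ z, s59f_corH hpL (s59f_isG_GammaH L H)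
      (s59f_isG'_GammaH hpL rfl (dvd_mul_right L p) hH') 𝒪
      (s59f_wH hpL (s59f_isG'_GammaH hpL rfl (dvd_mul_right L p) hH') 𝒪
        ((emb z : s48h_Hpar 𝒪 (s48h_GammaH (L * p) H') 𝒪) :
          Additive (s48h_GammaH (L * p) H') →+ 𝒪)) = 0)
    -- the Hecke–Galois datum at level `Γ₀(M' p)`
    (M' : ℕ) [NeZero M'] (hM' : M' = N₁ * (∏ q ∈ Q, q) * ∏ q ∈ Q, q) (hpM' : ¬ p ∣ M')
    {T₀ : Type} [CommRing T₀] [IsLocalRing T₀] [IsNoetherianRing T₀]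
    [IsAdicComplete (maximalIdeal T₀) T₀] [Algebra 𝒪 T₀]
    (hpT₀ : (p : T₀) ∈ maximalIdeal T₀)
    (π₀ : heckeAlgebra (M' * p) 2 (↑S : Set ℕ) →+* T₀)
    -- the ring acting on `Z`
    (T : Type) [CommRing T] [Algebra 𝒪 T]
    (jT : T →ₐ[𝒪] Module.End 𝒪 Z)
    (hjTg : ∀ t, jT t ∈ Algebra.adjoin 𝒪 (Set.range op))
    (hrad : (RingHom.ker jT).IsRadical)
    (q : T₀ →ₐ[𝒪] T)
    (hq : ∀ (ℓ : ℕ) (hℓ : ℓ.Prime) (hℓN : ¬ ℓ ∣ M' * p) (hℓS : ℓ ∉ (↑S : Set ℕ))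
      (i : s59w_TIdx (L * p)), i.ell = ℓ →
      jT (q (π₀ (heckeAlgebra.T hℓ hℓN hℓS))) =
        op (Sum.inr (s59e_tau i ((p ^ e - 1) * m))) * op (Sum.inl i))
    (a : s33g_A (M' * p) p S) (ha : s59x_resA M' p hpM' S a = 0) :
    jT (q (s33g_piT hpT₀ π₀ a)) = 0 := by
  classical
  have hn0 : 0 < p ^ e := pow_pos hpP.out.pos e
  rw [← RingHom.mem_ker]
  refine s59m_mem_of_minimalPrimes _ hrad _ fun 𝔓 h𝔓 => ?_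
  -- the point
  obtain ⟨𝒪', i1, i2, i3, i4, i5, i6, i7, i8, i9, x, θ, c, φ, hker, hφ0, hpar, hθH, hθn, hdia, heig,
    hprod, hpure, v, hφv⟩ :=
    s59f_eigenclass_of_minimalPrime_abs H' hnm hn emb hemb op hop T jT hjTg 𝔓 h𝔓
  letI : Algebra ℤ_[p] 𝒪' := ((algebraMap 𝒪 𝒪').comp (algebraMap ℤ_[p] 𝒪)).toAlgebra
  haveI : IsScalarTower ℤ_[p] 𝒪 𝒪' := IsScalarTower.of_algebraMap_eq fun _ => rfl
  haveI : Module.Flat ℤ_[p] 𝒪' := s30e_flat_padicInt p 𝒪'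
  -- `θ ^ (2k) = θ⁻¹`
  have hθinv : ∀ d, ((θ d : 𝒪'ˣ) : 𝒪') ^ (2 * ((p ^ e - 1) * m)) = (((θ d)⁻¹ : 𝒪'ˣ) : 𝒪') := by
    intro d
    rw [← Units.val_pow_eq_pow_val]
    congr 1
    refine eq_inv_of_mul_eq_one_left ?_
    rw [← pow_succ, s59m_exp_aux hn0 hnm, pow_mul, hθn, one_pow]
  -- the point of `T₀`
  let y : T₀ →ₐ[𝒪] 𝒪' := x.comp q
  have hy : IsLocalHom (y : T₀ →+* 𝒪') := s59e_isLocalHom_of_finite T₀ 𝒪' y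
  have hylam : ∀ t ∈ maximalIdeal T₀, (y : T₀ →+* 𝒪') t ∈ maximalIdeal 𝒪' := fun t ht =>
    map_nonunit (y : T₀ →+* 𝒪') t ht
  have hθμ : ∀ d, θ d ∈ s59b_muP p 𝒪' := fun d => ⟨e, hθn d⟩
  -- kernel-newness of `φ`
  have hG := s59f_isG_GammaH L H
  have hG' := s59f_isG'_GammaH hpL rfl (dvd_mul_right L p) hH'
  have hnatA : ∀ χ : Additive (s48h_GammaH (L * p) H') →+ 𝒪,
      s59f_corH hpL hG hG' 𝒪' (s59e_post 𝒪 𝒪' _ χ) =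
        s59e_post 𝒪 𝒪' _ (s59f_corH hpL hG hG' 𝒪 χ) := fun χ =>
    (s59f_famCorA hpL hG hG').op_natural (algebraMap 𝒪 𝒪' : 𝒪 →+ 𝒪') χ
  have hlinA : ∀ (c : 𝒪') (χ : Additive (s48h_GammaH (L * p) H') →+ 𝒪'),
      s59f_corH hpL hG hG' 𝒪' (c • χ) = c • s59f_corH hpL hG hG' 𝒪' χ := fun c χ =>
    s59f_op_smul (s59f_famCorA hpL hG hG') c χ
  have hnatW : ∀ χ : Additive (s48h_GammaH (L * p) H') →+ 𝒪,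
      s59f_wH hpL hG' 𝒪' (s59e_post 𝒪 𝒪' _ χ) = s59e_post 𝒪 𝒪' _ (s59f_wH hpL hG' 𝒪 χ) := fun χ =>
    s48h_MatDatum.heckeHom_comp _ (algebraMap 𝒪 𝒪' : 𝒪 →+ 𝒪') χ
  have hlinW : ∀ (c : 𝒪') (χ : Additive (s48h_GammaH (L * p) H') →+ 𝒪'),
      s59f_wH hpL hG' 𝒪' (c • χ) = c • s59f_wH hpL hG' 𝒪' χ := fun c χ =>
    s48h_MatDatum.heckeHom_smul _ c χ
  have hφA : s59f_corH hpL hG hG' 𝒪' φ = 0 := by
    rw [hφv]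
    exact s59f_homBC_kill (s59e_embH H' emb) (s59f_corH hpL hG hG' 𝒪) (s59f_corH hpL hG hG' 𝒪')
      hnatA hlinA (fun z => hnewA z) v
  have hφB : s59f_corH hpL hG hG' 𝒪' (s59f_wH hpL hG' 𝒪' φ) = 0 := by
    rw [hφv]
    exact s59f_homBC_kill (s59e_embH H' emb)
      ((s59f_corH hpL hG hG' 𝒪).comp (s59f_wH hpL hG' 𝒪))
      ((s59f_corH hpL hG hG' 𝒪').comp (s59f_wH hpL hG' 𝒪'))
      (fun χ => by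
        rw [AddMonoidHom.comp_apply, AddMonoidHom.comp_apply, hnatW, hnatA])
      (fun c χ => by
        rw [AddMonoidHom.comp_apply, AddMonoidHom.comp_apply, hlinW, hlinA])
      (fun z => hnewB z) v
  -- the kernel-new eigenvector of `𝒪' ⊗ T_p J₀(M' p)`
  obtain ⟨hpM'', w, hw0, hwT, hwα, hwβ⟩ := s59m_newPt_vec p N₁ p Q hQ hL hpL H hD₁ hHker H' hH' 𝒪'
    θ hθH (s59b_muP p 𝒪') (s59b_muP_sq p 𝒪' hpP.out hp2) hθμ c φ hφ0 hpar hdia heig hφA hφB M' hM'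
  -- (7a) at the point
  have hℓM : ∀ ℓ : ℕ, ℓ.Prime → ¬ ℓ ∣ M' * p → ¬ ℓ ∣ L * p := by
    intro ℓ hℓ hℓN hd
    apply hℓN
    rcases (hℓ.dvd_mul).mp hd with h' | h'
    · rw [hL] at h'
      rw [hM']
      rcases (hℓ.dvd_mul).mp h' with h'' | h''
      · exact Dvd.dvd.mul_right (Dvd.dvd.mul_right (Dvd.dvd.mul_right h'' _) _) p
      · exact Dvd.dvd.mul_right (Dvd.dvd.mul_left h'' _) p
    · exact Dvd.dvd.mul_left h' _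
  have key := s59m_h7a_pt M' p hpM' S hpT₀ π₀ (y : T₀ →+* 𝒪') hylam w hw0
    (fun ℓ hℓ hℓN hℓS => by
      have hℓL : ¬ ℓ ∣ L * p := hℓM ℓ hℓ hℓN
      have hcopℓ : Nat.Coprime ℓ (L * p) := (Nat.Prime.coprime_iff_not_dvd hℓ).mpr hℓL
      let ℓu : (ZMod (L * p))ˣ := ZMod.unitOfCoprime ℓ hcopℓ
      have hℓu : ((ℓu : (ZMod (L * p))ˣ) : ZMod (L * p)) = (ℓ : ZMod (L * p)) :=
        ZMod.coe_unitOfCoprime ℓ hcopℓ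
      let i : s59w_TIdx (L * p) := ⟨ℓ, hℓ, hℓL, (s59w_sig ℓu : SL(2, ℤ)), (s59w_sig ℓu).2, by
        rw [← s59w_lrUnit_coe, s59w_sig_spec, hℓu]⟩
      have h1 := hprod (q (π₀ (heckeAlgebra.T hℓ hℓN hℓS))) i ((p ^ e - 1) * m) ℓu hℓu
        (hq ℓ hℓ hℓN hℓS i rfl)
      rw [hθinv] at h1
      rw [hwT ℓ hℓ hℓN ℓu hℓu]
      congr 1
      exact h1.symm)
    hwα hwβ a ha
  rw [← hker, RingHom.mem_ker]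
  exact key

end Fam

end Fermat.Agent.Lib.S59
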