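/-
Programme (R2) = S59, case (P) (owner helper7, prefix `s59x_`), leaf **[P1a] = DEPTH 0 OF THE `p`-NEW KUMMER
FUNCTIONS AT `p`.**

`N = M p`, `p ∤ M`, `K₀ ∋ ζ_p` a number field with a Gauss datum `G` (residue field `κ` of characteristic `p`),
`V_∞`, `V_0 = w V_∞` the two Gauss valuation rings of `𝓕_{K₀}(M p)`, `red_∞`, `red_0 = red_∞ ∘ w`.

* `s59x_red_of_prod`       : the Laurent-series core of `s35nm_red_normAlpha_of_mem` for arbitrary series;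
* `s59x_normAlpha_gen`     : **the norm along `α` of a NON-unit** — for `f = ϖ ^ a u` (`u ∈ V_∞ˣ`), `w f = ϖ ^ b u''`
  (`u'' ∈ V_∞ˣ`): `Nm_α f = ϖ ^ (a + p b) X`, `X ∈ V_Mˣ`, `red_M X = red_∞ u · Fr (red_∞ u'')`;
  `s59x_normBeta_gen`      : `Nm_β f = ϖ ^ (b + p a) Y`, `red_M Y = red_∞ u'' · Fr (red_∞ u)`.
-/
import Fermat.Agent.Lib.S35.NormRed
import Fermat.Agent.Lib.S35.MSigma
import Fermat.Agent.Lib.S35.MPoly

set_option autoImplicit false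
set_option linter.unusedSectionVars false
set_option linter.style.haveILetI false
set_option synthInstance.maxHeartbeats 400000

noncomputable section

namespace Fermat.Agent.Lib.S59

open ModularCurve AlgebraicCurve Fermat.Agent.Lib.FF Fermat.Agent.Lib.S18 Fermat.Agent.Lib.S28
  Fermat.Agent.Lib.S37 Fermat.Agent.Lib.S34 Fermat.Agent.Lib.S35

local notation "Kb" => AlgebraicClosure ℚ

variable {K₀ : Type*} [Field K₀] [Algebra ℚ K₀] {κ : Type*} [Field κ] (G : s18g_GaussData K₀ κ)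

/-- **Laurent-series core**: if `X(T^q) = U(T^q) · ∏_{i<q} U''(ζ^i T)` with `X, U, U''` Gauss-integral, then
`red X = red U · Fr (red U'')`. -/
theorem s59x_red_of_prod (q : ℕ) [NeZero q] [hq : Fact q.Prime] [CharP κ q] (ζ : K₀ˣ) (hζ : ζ ^ q = 1)
    {X U U'' : LaurentSeries K₀} (hX : X ∈ s18g_O G) (hU : U ∈ s18g_O G) (hU'' : U'' ∈ s18g_O G)
    (hprod : qExpand K₀ q X = qExpand K₀ q U * s37e_prodTw q ζ U'') :
    s18g_red G ⟨X, hX⟩ = s18g_red G ⟨U, hU⟩ * coeffMap (frobenius κ q) (s18g_red G ⟨U'', hU''⟩) := by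
  obtain ⟨hP, eP⟩ := s35nm_prodTw_mem_O G q ζ hζ hU''
  have e1 := s34m_red_qExpand G q ⟨_, hX⟩
  have e2 := s34m_red_qExpand G q ⟨_, hU⟩
  have e3 : (⟨qExpand K₀ q X, s34m_qExpand_mem_O G q hX⟩ : s18g_O G) =
      ⟨qExpand K₀ q U, s34m_qExpand_mem_O G q hU⟩ * ⟨_, hP⟩ := Subtype.ext hprod
  have e4 := congrArg (s18g_red G) e3
  rw [map_mul, eP] at e4
  have e1' : s18g_red G ⟨qExpand K₀ q X, s34m_qExpand_mem_O G q hX⟩ =
      qExpand κ q (s18g_red G ⟨_, hX⟩) := e1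
  have e2' : s18g_red G ⟨qExpand K₀ q U, s34m_qExpand_mem_O G q hU⟩ =
      qExpand κ q (s18g_red G ⟨_, hU⟩) := e2
  rw [e1', e2', s37e_pow_char q (s18g_red G ⟨_, hU''⟩), ← map_mul] at e4
  exact s34m_qExpand_injective κ q e4

/-! ### `prodTw` is multiplicative and fixes constants up to the `q`-th power -/

section ProdTw

variable {R : Type*} [Field R]

theorem s59x_prodTw_mul (q : ℕ) (ζ : Rˣ) (x y : LaurentSeries R) :
    s37e_prodTw q ζ (x * y) = s37e_prodTw q ζ x * s37e_prodTw q ζ y := by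
  unfold s37e_prodTw
  rw [← Finset.prod_mul_distrib]
  exact Finset.prod_congr rfl fun b _ => map_mul _ _ _

theorem s59x_prodTw_C_zpow (q : ℕ) (ζ : Rˣ) (c : R) (b : ℤ) :
    s37e_prodTw q ζ ((HahnSeries.C c : LaurentSeries R) ^ b) =
      (HahnSeries.C c : LaurentSeries R) ^ (b * q) := by
  unfold s37e_prodTw
  have h : ∀ i ∈ Finset.range q, s28m_tw (ζ ^ i) ((HahnSeries.C c : LaurentSeries R) ^ b) =
      (HahnSeries.C c : LaurentSeries R) ^ b := by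
    intro i _
    rw [map_zpow₀, s28m_tw_C]
  rw [Finset.prod_congr rfl h, Finset.prod_const, Finset.card_range, ← zpow_natCast, ← zpow_mul]

end ProdTw

/-! ### The norm along `α` of a non-unit -/

section NormGen

theorem s59x_coe_unif_zpow (N : ℕ) [NeZero N] (a : ℤ) :
    ((s34m_unif G N ^ a : s34m_F K₀ N) : LaurentSeries K₀) =
      (HahnSeries.C ((G.ϖ : G.A) : K₀) : LaurentSeries K₀) ^ a := by
  have h : ((s34m_unif G N : s34m_F K₀ N) : LaurentSeries K₀) =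
      HahnSeries.C ((G.ϖ : G.A) : K₀) := by
    rw [s34m_unif, IntermediateField.coe_algebraMap_apply]
    exact LaurentSeries.algebraMap_apply K₀ _
  rw [← h]
  rfl

variable (φ : K₀ →+* Kb) (M q : ℕ) [NeZero M] [NeZero q]

/-- the `q`-expansion form: `(Nm_α f / ϖ ^ (a + q b))(T^q) = u(T^q) · ∏ u''(ζ^i T)`. -/
theorem s59x_qExpand_normAlpha_gen (hq : q.Prime) (hqM : ¬ q ∣ M) (ζ : K₀ˣ)
    (hζ : IsPrimitiveRoot (ζ : K₀) q) (f u u'' : s34m_F K₀ (M * q)) (a b : ℤ)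
    (e1 : f = s34m_unif G (M * q) ^ a * u)
    (e2 : s34m_al φ M q hq hqM f = s34m_unif G (M * q) ^ b * u'') :
    qExpand K₀ q (((s35nm_normAlpha M q f * (s34m_unif G M ^ (a + b * q))⁻¹ : s34m_F K₀ M)) :
        LaurentSeries K₀) =
      qExpand K₀ q (u : LaurentSeries K₀) * s37e_prodTw q ζ (u'' : LaurentSeries K₀) := by
  have hprod := s35nm_norm φ M q hq hqM ζ hζ f
  have hϖ0 : (HahnSeries.C ((G.ϖ : G.A) : K₀) : LaurentSeries K₀) ≠ 0 := by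
    intro h
    have h1 : ((G.ϖ : G.A) : K₀) = 0 := by
      have := congrArg (fun x : LaurentSeries K₀ => x.coeff 0) h
      simpa using this
    exact s18g_unifK_ne_zero G h1
  have c1 : ((f : s34m_F K₀ (M * q)) : LaurentSeries K₀) =
      (HahnSeries.C ((G.ϖ : G.A) : K₀) : LaurentSeries K₀) ^ a * (u : LaurentSeries K₀) := by
    rw [e1, IntermediateField.coe_mul, s59x_coe_unif_zpow]
  have c2 : ((s34m_al φ M q hq hqM f : s34m_F K₀ (M * q)) : LaurentSeries K₀) =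
      (HahnSeries.C ((G.ϖ : G.A) : K₀) : LaurentSeries K₀) ^ b * (u'' : LaurentSeries K₀) := by
    rw [e2, IntermediateField.coe_mul, s59x_coe_unif_zpow]
  have c3 : (((s35nm_normAlpha M q f * (s34m_unif G M ^ (a + b * q))⁻¹ : s34m_F K₀ M)) :
      LaurentSeries K₀) = ((s35nm_normAlpha M q f : s34m_F K₀ M) : LaurentSeries K₀) *
        ((HahnSeries.C ((G.ϖ : G.A) : K₀) : LaurentSeries K₀) ^ (a + b * q))⁻¹ := by
    rw [IntermediateField.coe_mul, IntermediateField.coe_inv, s59x_coe_unif_zpow]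
  have hprod' : qExpand K₀ q ((s35nm_normAlpha M q f : s34m_F K₀ M) : LaurentSeries K₀) =
      qExpand K₀ q ((f : s34m_F K₀ (M * q)) : LaurentSeries K₀) *
        s37e_prodTw q ζ ((s34m_al φ M q hq hqM f : s34m_F K₀ (M * q)) : LaurentSeries K₀) := hprod
  rw [c3, map_mul, hprod', c1, c2, map_mul, map_inv₀, map_zpow₀, map_zpow₀, qExpand_C,
    s59x_prodTw_mul, s59x_prodTw_C_zpow, zpow_add₀ hϖ0]
  have h1 := zpow_ne_zero a hϖ0
  have h2 := zpow_ne_zero (b * q) hϖ0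
  field_simp

variable [Fact q.Prime] [CharP κ q]

/-- the reduction of `X = Nm_α f / ϖ ^ (a + q b)`, assuming `X` Gauss-integral. -/
theorem s59x_red_normAlpha_gen_of_mem (hq : q.Prime) (hqM : ¬ q ∣ M) (ζ : K₀ˣ)
    (hζ : IsPrimitiveRoot (ζ : K₀) q) (f u u'' : s34m_F K₀ (M * q)) (a b : ℤ)
    (hu : u ∈ s34m_Vinf G (M * q)) (hw : u'' ∈ s34m_Vinf G (M * q))
    (e1 : f = s34m_unif G (M * q) ^ a * u)
    (e2 : s34m_al φ M q hq hqM f = s34m_unif G (M * q) ^ b * u'')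
    (hX : s35nm_normAlpha M q f * (s34m_unif G M ^ (a + b * q))⁻¹ ∈ s34m_Vinf G M) :
    s34m_redInf G M ⟨_, hX⟩ = s34m_redInf G (M * q) ⟨u, hu⟩ *
      coeffMap (frobenius κ q) (s34m_redInf G (M * q) ⟨u'', hw⟩) := by
  have hpow : ζ ^ q = 1 := by
    apply Units.ext
    rw [Units.val_pow_eq_pow_val, hζ.pow_eq_one, Units.val_one]
  exact s59x_red_of_prod G q ζ hpow hX hu hw
    (s59x_qExpand_normAlpha_gen G φ M q hq hqM ζ hζ f u u'' a b e1 e2)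

/-- **THE NORM ALONG `α` OF A NON-UNIT**: `f = ϖ ^ a u`, `w f = ϖ ^ b u''` with `u, u''` units of `V_∞`.  Then
`Nm_α f = ϖ ^ (a + q b) X` with `X` a unit of `V_M` and `red_M X = red_∞ u · Fr (red_∞ u'')`. -/
theorem s59x_normAlpha_gen (hq : q.Prime) (hqM : ¬ q ∣ M) (ζ : K₀ˣ)
    (hζ : IsPrimitiveRoot (ζ : K₀) q) (f u u'' : s34m_F K₀ (M * q)) (a b : ℤ)
    (hu : u ∈ s34m_Vinf G (M * q)) (hu' : u⁻¹ ∈ s34m_Vinf G (M * q)) (hu0 : u ≠ 0)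
    (hw : u'' ∈ s34m_Vinf G (M * q)) (hw' : u''⁻¹ ∈ s34m_Vinf G (M * q)) (hw0 : u'' ≠ 0)
    (e1 : f = s34m_unif G (M * q) ^ a * u)
    (e2 : s34m_al φ M q hq hqM f = s34m_unif G (M * q) ^ b * u'') :
    ∃ X : s34m_F K₀ M, ∃ hX : X ∈ s34m_Vinf G M, X⁻¹ ∈ s34m_Vinf G M ∧
      s35nm_normAlpha M q f = s34m_unif G M ^ (a + b * q) * X ∧
      s34m_redInf G M ⟨X, hX⟩ = s34m_redInf G (M * q) ⟨u, hu⟩ *
        coeffMap (frobenius κ q) (s34m_redInf G (M * q) ⟨u'', hw⟩) := by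
  have hϖ0 : s34m_unif G (M * q) ≠ 0 := s34m_unif_ne_zero G (M * q)
  have hϖM0 : s34m_unif G M ≠ 0 := s34m_unif_ne_zero G M
  have hf0 : f ≠ 0 := by
    rw [e1]; exact mul_ne_zero (zpow_ne_zero _ hϖ0) hu0
  set X : s34m_F K₀ M := s35nm_normAlpha M q f * (s34m_unif G M ^ (a + b * q))⁻¹ with hXdef
  have hmain : ∀ hX : X ∈ s34m_Vinf G M, X⁻¹ ∈ s34m_Vinf G M ∧
      s34m_redInf G M ⟨X, hX⟩ = s34m_redInf G (M * q) ⟨u, hu⟩ *
        coeffMap (frobenius κ q) (s34m_redInf G (M * q) ⟨u'', hw⟩) := by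
    intro hX
    have hr := s59x_red_normAlpha_gen_of_mem G φ M q hq hqM ζ hζ f u u'' a b hu hw e1 e2 hX
    refine ⟨?_, hr⟩
    apply s35nm_inv_mem_of_redInf_ne_zero G M hX
    rw [hr]
    exact mul_ne_zero (s35nm_redInf_ne_zero G (M * q) hu hu' hu0)
      (s35nm_frob_ne_zero q (s35nm_redInf_ne_zero G (M * q) hw hw' hw0))
  have hXM : X ∈ s34m_Vinf G M := by
    rcases (s34m_Vinf G M).mem_or_inv_mem X with h | h
    · exact h
    · -- apply the integral case to `f⁻¹`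
      have e1' : f⁻¹ = s34m_unif G (M * q) ^ (-a) * u⁻¹ := by
        rw [e1, mul_inv, zpow_neg]
      have e2' : s34m_al φ M q hq hqM f⁻¹ = s34m_unif G (M * q) ^ (-b) * u''⁻¹ := by
        rw [map_inv₀, e2, mul_inv, zpow_neg]
      have hXinv : X⁻¹ = s35nm_normAlpha M q f⁻¹ * (s34m_unif G M ^ (-a + -b * q))⁻¹ := by
        rw [hXdef, s35nm_normAlpha_inv M q f hf0, mul_inv, inv_inv]
        have : (-a + -b * (q : ℤ)) = -(a + b * q) := by ring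
        rw [this, zpow_neg, inv_inv]
      have hX' : s35nm_normAlpha M q f⁻¹ * (s34m_unif G M ^ (-a + -b * q))⁻¹ ∈ s34m_Vinf G M := by
        rw [← hXinv]; exact h
      have hr := s59x_red_normAlpha_gen_of_mem G φ M q hq hqM ζ hζ f⁻¹ u⁻¹ u''⁻¹ (-a) (-b) hu' hw'
        e1' e2' hX'
      have hne : s34m_redInf G M ⟨_, hX'⟩ ≠ 0 := by
        rw [hr]
        exact mul_ne_zero
          (s35nm_redInf_ne_zero G (M * q) hu' (by rw [inv_inv]; exact hu) (inv_ne_zero hu0))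
          (s35nm_frob_ne_zero q
            (s35nm_redInf_ne_zero G (M * q) hw' (by rw [inv_inv]; exact hw) (inv_ne_zero hw0)))
      have := s35nm_inv_mem_of_redInf_ne_zero G M hX' hne
      rw [← hXinv, inv_inv] at this
      exact this
  obtain ⟨h1, h2⟩ := hmain hXM
  refine ⟨X, hXM, h1, ?_, h2⟩
  rw [hXdef, mul_comm (s35nm_normAlpha M q f), ← mul_assoc,
    mul_inv_cancel₀ (zpow_ne_zero _ hϖM0), one_mul]

/-- **THE NORM ALONG `β` OF A NON-UNIT**: `Nm_β f = ϖ ^ (b + q a) Y`, `Y` a unit of `V_M`,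
`red_M Y = red_∞ u'' · Fr (red_∞ u)`. -/
theorem s59x_normBeta_gen (hq : q.Prime) (hqM : ¬ q ∣ M) (ζ : K₀ˣ)
    (hζ : IsPrimitiveRoot (ζ : K₀) q) (f u u'' : s34m_F K₀ (M * q)) (a b : ℤ)
    (hu : u ∈ s34m_Vinf G (M * q)) (hu' : u⁻¹ ∈ s34m_Vinf G (M * q)) (hu0 : u ≠ 0)
    (hw : u'' ∈ s34m_Vinf G (M * q)) (hw' : u''⁻¹ ∈ s34m_Vinf G (M * q)) (hw0 : u'' ≠ 0)
    (e1 : f = s34m_unif G (M * q) ^ a * u)
    (e2 : s34m_al φ M q hq hqM f = s34m_unif G (M * q) ^ b * u'') :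
    ∃ Y : s34m_F K₀ M, ∃ hY : Y ∈ s34m_Vinf G M, Y⁻¹ ∈ s34m_Vinf G M ∧
      s35nm_normBeta M q f = s34m_unif G M ^ (b + a * q) * Y ∧
      s34m_redInf G M ⟨Y, hY⟩ = s34m_redInf G (M * q) ⟨u'', hw⟩ *
        coeffMap (frobenius κ q) (s34m_redInf G (M * q) ⟨u, hu⟩) := by
  have e2' : s34m_al φ M q hq hqM (s34m_al φ M q hq hqM f) = s34m_unif G (M * q) ^ a * u := by
    rw [s34m_al_al]; exact e1
  obtain ⟨Y, hY, hY', eY, rY⟩ := s59x_normAlpha_gen G φ M q hq hqM ζ hζ (s34m_al φ M q hq hqM f) u'' u b a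
    hw hw' hw0 hu hu' hu0 e2 e2'
  exact ⟨Y, hY, hY', by rw [s35nm_normBeta_eq φ M q hq hqM f]; exact eY, rY⟩

end NormGen

/-! ### The group `κˣ · (𝔉ˣ) ^ m` of "constants times `m`-th powers" in the residue function field -/

section PK

variable {k : Type*} [Field k] (𝔉 : Subfield (LaurentSeries k)) (m : ℕ)

/-- `x = c · r ^ m` with `c ∈ kˣ` a constant and `r ∈ 𝔉ˣ`. -/
def s59x_PK (x : LaurentSeries k) : Prop :=
  ∃ (c : k) (r : LaurentSeries k), c ≠ 0 ∧ r ≠ 0 ∧ r ∈ 𝔉 ∧ x = HahnSeries.C c * r ^ m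

theorem s59x_C_ne_zero {c : k} (hc : c ≠ 0) : (HahnSeries.C c : LaurentSeries k) ≠ 0 := by
  intro h
  have := congrArg (fun x : LaurentSeries k => x.coeff 0) h
  exact hc (by simpa using this)

variable {𝔉 m}

theorem s59x_PK.ne_zero {x : LaurentSeries k} (h : s59x_PK 𝔉 m x) : x ≠ 0 := by
  obtain ⟨c, r, hc, hr, -, rfl⟩ := h
  exact mul_ne_zero (s59x_C_ne_zero hc) (pow_ne_zero m hr)

theorem s59x_PK.one : s59x_PK 𝔉 m (1 : LaurentSeries k) :=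
  ⟨1, 1, one_ne_zero, one_ne_zero, 𝔉.one_mem, by rw [map_one, one_pow, one_mul]⟩

theorem s59x_PK.const {c : k} (hc : c ≠ 0) : s59x_PK 𝔉 m (HahnSeries.C c : LaurentSeries k) :=
  ⟨c, 1, hc, one_ne_zero, 𝔉.one_mem, by rw [one_pow, mul_one]⟩

theorem s59x_PK.pow_mem {r : LaurentSeries k} (hr : r ≠ 0) (hr𝔉 : r ∈ 𝔉) :
    s59x_PK 𝔉 m (r ^ m) :=
  ⟨1, r, one_ne_zero, hr, hr𝔉, by rw [map_one, one_mul]⟩

theorem s59x_PK.mul {x y : LaurentSeries k} (hx : s59x_PK 𝔉 m x) (hy : s59x_PK 𝔉 m y) :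
    s59x_PK 𝔉 m (x * y) := by
  obtain ⟨c, r, hc, hr, hr𝔉, rfl⟩ := hx
  obtain ⟨c', r', hc', hr', hr𝔉', rfl⟩ := hy
  refine ⟨c * c', r * r', mul_ne_zero hc hc', mul_ne_zero hr hr', 𝔉.mul_mem hr𝔉 hr𝔉', ?_⟩
  rw [map_mul, mul_pow]
  ring

theorem s59x_PK.inv {x : LaurentSeries k} (hx : s59x_PK 𝔉 m x) : s59x_PK 𝔉 m x⁻¹ := by
  obtain ⟨c, r, hc, hr, hr𝔉, rfl⟩ := hx
  refine ⟨c⁻¹, r⁻¹, inv_ne_zero hc, inv_ne_zero hr, 𝔉.inv_mem hr𝔉, ?_⟩
  rw [mul_inv, inv_pow, map_inv₀]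

theorem s59x_PK.div {x y : LaurentSeries k} (hx : s59x_PK 𝔉 m x) (hy : s59x_PK 𝔉 m y) :
    s59x_PK 𝔉 m (x / y) := by
  rw [div_eq_mul_inv]
  exact hx.mul hy.inv

theorem s59x_coeffMap_C (ψ : k →+* k) (c : k) :
    coeffMap ψ (HahnSeries.C c : LaurentSeries k) = HahnSeries.C (ψ c) := by
  have h : ∀ a : k, (HahnSeries.C a : LaurentSeries k) = HahnSeries.single 0 a := fun _ => rfl
  rw [h, h, coeffMap_single]

theorem s59x_PK.map (ψ : k →+* k) (h𝔉 : ∀ x ∈ 𝔉, coeffMap ψ x ∈ 𝔉) {x : LaurentSeries k}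
    (hx : s59x_PK 𝔉 m x) : s59x_PK 𝔉 m (coeffMap ψ x) := by
  obtain ⟨c, r, hc, hr, hr𝔉, rfl⟩ := hx
  refine ⟨ψ c, coeffMap ψ r, (map_ne_zero ψ).mpr hc, (map_ne_zero (coeffMap ψ)).mpr hr,
    h𝔉 r hr𝔉, ?_⟩
  rw [map_mul, map_pow, s59x_coeffMap_C]

/-- **The square of the coefficientwise Frobenius fixes the classes**: if `ū · Fr ū''` and `ū'' · Fr ū` are
constants times `m`-th powers, so are `Fr² ū / ū` and `Fr² ū'' / ū''`. -/
theorem s59x_PK_frob_sq (q : ℕ) [Fact q.Prime] [CharP k q]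
    (h𝔉 : ∀ (ψ : k →+* k), ∀ x ∈ 𝔉, coeffMap ψ x ∈ 𝔉) {x y : LaurentSeries k}
    (hx : x ≠ 0) (hy : y ≠ 0)
    (h1 : s59x_PK 𝔉 m (x * coeffMap (frobenius k q) y))
    (h2 : s59x_PK 𝔉 m (y * coeffMap (frobenius k q) x)) :
    s59x_PK 𝔉 m (coeffMap (frobenius k q) (coeffMap (frobenius k q) x) / x) := by
  have h3 := (h2.map (frobenius k q) (h𝔉 _)).div h1
  have hy' : coeffMap (frobenius k q) y ≠ 0 := (map_ne_zero _).mpr hy
  have e : coeffMap (frobenius k q) (y * coeffMap (frobenius k q) x) /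
      (x * coeffMap (frobenius k q) y) =
      coeffMap (frobenius k q) (coeffMap (frobenius k q) x) / x := by
    rw [map_mul]
    field_simp
  rwa [e] at h3

/-- iteration: `Fr² x / x` a constant times an `m`-th power ⇒ so is `Fr^{2n} x / x`. -/
theorem s59x_PK_iter (q : ℕ) [Fact q.Prime] [CharP k q]
    (h𝔉 : ∀ (ψ : k →+* k), ∀ x ∈ 𝔉, coeffMap ψ x ∈ 𝔉) {x : LaurentSeries k} (hx : x ≠ 0)
    (h : s59x_PK 𝔉 m (coeffMap (frobenius k q) (coeffMap (frobenius k q) x) / x)) (n : ℕ) :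
    s59x_PK 𝔉 m (coeffMap (iterateFrobenius k q (2 * n)) x / x) := by
  induction n with
  | zero =>
    rw [Nat.mul_zero, iterateFrobenius_zero, coeffMap_id, div_self hx]
    exact s59x_PK.one
  | succ n ih =>
    have e2 : iterateFrobenius k q 2 = (frobenius k q).comp (frobenius k q) := by
      rw [show (2 : ℕ) = 1 + 1 from rfl, iterateFrobenius_add, iterateFrobenius_one]
    have e1 : iterateFrobenius k q (2 * (n + 1)) =
        (iterateFrobenius k q (2 * n)).comp ((frobenius k q).comp (frobenius k q)) := by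
      rw [show 2 * (n + 1) = 2 * n + 2 by ring, iterateFrobenius_add, e2]
    have h3 := (h.map (iterateFrobenius k q (2 * n)) (h𝔉 _)).mul ih
    have hx' : coeffMap (iterateFrobenius k q (2 * n)) x ≠ 0 := (map_ne_zero _).mpr hx
    have e : coeffMap (iterateFrobenius k q (2 * n))
          (coeffMap (frobenius k q) (coeffMap (frobenius k q) x) / x) *
        (coeffMap (iterateFrobenius k q (2 * n)) x / x) =
        coeffMap (iterateFrobenius k q (2 * (n + 1))) x / x := by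
      rw [e1, ← coeffMap_coeffMap, ← coeffMap_coeffMap, map_div₀]
      field_simp
    rwa [e] at h3

end PK

/-! ### Sub-lemma S3: a unit `X` with `ϖ ^ j X = d γ ^ m` reduces into `κˣ · (𝔉ˣ) ^ m` -/

section S3

theorem s59x_redInf_const (N : ℕ) [NeZero N] (c : K₀) (hc : c ∈ G.A) :
    ∃ h : algebraMap K₀ (s34m_F K₀ N) c ∈ s34m_Vinf G N,
      s34m_redInf G N ⟨_, h⟩ = HahnSeries.C (G.π ⟨c, hc⟩) :=
  ⟨(s18g_algebraMap_mem_V_iff G _ (s34m_hF G N) c).mpr hc,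
    s18g_redV_constV G _ (s34m_hF G N) ⟨c, hc⟩⟩

theorem s59x_PK_of_pow (N : ℕ) [NeZero N] (𝔉 : Subfield (LaurentSeries κ))
    (h𝔉 : ∀ y : s34m_Vinf G N, s34m_redInf G N y ∈ 𝔉) (m : ℕ)
    (X : s34m_F K₀ N) (hX : X ∈ s34m_Vinf G N) (hX' : X⁻¹ ∈ s34m_Vinf G N) (j : ℤ)
    (d : K₀) (γ : s34m_F K₀ N) (hd : d ≠ 0) (hγ : γ ≠ 0)
    (e : s34m_unif G N ^ j * X = algebraMap K₀ (s34m_F K₀ N) d * γ ^ m) :
    s59x_PK 𝔉 m (s34m_redInf G N ⟨X, hX⟩) := by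
  obtain ⟨c, v, hv, hv', ev⟩ := s34m_exists_zpow_Vinf G N γ hγ
  have hϖ0 : s34m_unif G N ≠ 0 := s34m_unif_ne_zero G N
  have hv0 : v ≠ 0 := by
    rintro rfl
    rw [mul_zero] at ev
    exact hγ ev
  set c₀ : K₀ := d * ((G.ϖ : G.A) : K₀) ^ (c * m - j) with hc₀
  have hc₀0 : c₀ ≠ 0 := mul_ne_zero hd (zpow_ne_zero _ (s18g_unifK_ne_zero G))
  have hmap : algebraMap K₀ (s34m_F K₀ N) c₀ =
      algebraMap K₀ (s34m_F K₀ N) d * s34m_unif G N ^ (c * m - j) := by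
    rw [hc₀, map_mul, map_zpow₀]; rfl
  have h1 : X = algebraMap K₀ (s34m_F K₀ N) c₀ * v ^ m := by
    rw [hmap, zpow_sub₀ hϖ0]
    have e' : s34m_unif G N ^ j * X =
        algebraMap K₀ (s34m_F K₀ N) d * (s34m_unif G N ^ (c * (m : ℤ)) * v ^ m) := by
      rw [e, ev, mul_pow, ← zpow_natCast (s34m_unif G N ^ c) m, ← zpow_mul]
    have hj := zpow_ne_zero j hϖ0
    field_simp
    rw [mul_comm X, e']
    ring
  have hvm : (v ^ m)⁻¹ ∈ s34m_Vinf G N := by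
    rw [← inv_pow]; exact (s34m_Vinf G N).pow_mem hv' m
  have hvm' : v ^ m ∈ s34m_Vinf G N := (s34m_Vinf G N).pow_mem hv m
  have hvm0 : v ^ m ≠ 0 := pow_ne_zero m hv0
  have h2 : algebraMap K₀ (s34m_F K₀ N) c₀ ∈ s34m_Vinf G N := by
    have : algebraMap K₀ (s34m_F K₀ N) c₀ = X * (v ^ m)⁻¹ := by
      rw [h1, mul_assoc, mul_inv_cancel₀ hvm0, mul_one]
    rw [this]; exact (s34m_Vinf G N).mul_mem _ _ hX hvm
  have h3 : algebraMap K₀ (s34m_F K₀ N) c₀⁻¹ ∈ s34m_Vinf G N := by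
    have : algebraMap K₀ (s34m_F K₀ N) c₀⁻¹ = X⁻¹ * v ^ m := by
      rw [map_inv₀, h1, mul_inv, mul_assoc, inv_mul_cancel₀ hvm0, mul_one]
    rw [this]; exact (s34m_Vinf G N).mul_mem _ _ hX' hvm'
  have hcA : c₀ ∈ G.A := (s18g_algebraMap_mem_V_iff G _ (s34m_hF G N) c₀).mp h2
  have hcA' : c₀⁻¹ ∈ G.A := (s18g_algebraMap_mem_V_iff G _ (s34m_hF G N) c₀⁻¹).mp h3
  have hπ : G.π ⟨c₀, hcA⟩ ≠ 0 := by
    intro h0
    have h4 : (⟨c₀, hcA⟩ : G.A) * ⟨c₀⁻¹, hcA'⟩ = 1 := Subtype.ext (mul_inv_cancel₀ hc₀0)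
    have h5 := congrArg G.π h4
    rw [map_mul, h0, zero_mul, map_one] at h5
    exact zero_ne_one h5
  obtain ⟨hmem, hred⟩ := s59x_redInf_const G N c₀ hcA
  refine ⟨G.π ⟨c₀, hcA⟩, s34m_redInf G N ⟨v, hv⟩, hπ, s35nm_redInf_ne_zero G N hv hv' hv0,
    h𝔉 _, ?_⟩
  have h6 : (⟨X, hX⟩ : s34m_Vinf G N) = ⟨_, hmem⟩ * ⟨v, hv⟩ ^ m := Subtype.ext h1
  rw [h6, map_mul, map_pow, hred]

end S3

/-! ### Sub-lemma S5: `τ g / g` for `g = ϖ ^ c v`, `v` a unit of `V_i` -/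

section S5

/-- Integer powers of a unit of a valuation subring. -/
theorem s59x_zpow_mem_val {F : Type*} [Field F] (V : ValuationSubring F) (x : F) (hx : x ∈ V)
    (hx' : x⁻¹ ∈ V) (r : ℤ) : x ^ r ∈ V := by
  rcases r with r | r
  · rw [Int.ofNat_eq_natCast, zpow_natCast]; exact V.pow_mem hx r
  · rw [zpow_negSucc, ← inv_pow]; exact V.pow_mem hx' _

variable (φ : K₀ →+* Kb) (M q : ℕ) [NeZero M] [NeZero q] (hq : q.Prime) (hqM : ¬ q ∣ M)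
variable (σ₀ : K₀ ≃ₐ[ℚ] K₀)
  (hσA : ∀ a : K₀, a ∈ G.A → (σ₀ : K₀ ≃+* K₀) a ∈ G.A)
  (hσA' : ∀ a : K₀, a ∈ G.A → (σ₀.symm : K₀ ≃+* K₀) a ∈ G.A)
  (ψ : κ →+* κ)
  (hσπ : ∀ a : G.A, G.π (s34m_sigmaA G (σ₀ : K₀ ≃+* K₀) hσA a) = ψ (G.π a))

include hσπ hσA' in
/-- `g = ϖ ^ c v` with `v ∈ V_iˣ`: then `τ g / g ∈ V_iˣ` and `red_i (τ g / g) = C c' · ψ̃ (v̄) / v̄` for a non-zero
constant `c'`. -/
theorem s59x_galois_quot (i : Bool) (g v : s34m_F K₀ (M * q)) (c : ℤ)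
    (hv : v ∈ s34m_VV G φ M q hq hqM i) (hv' : v⁻¹ ∈ s34m_VV G φ M q hq hqM i) (hv0 : v ≠ 0)
    (e : g = s34m_unif G (M * q) ^ c * v) :
    ∃ (c' : κ), c' ≠ 0 ∧
      ∃ hG : arithmeticRingAut (modularFunctionFieldFull (M * q)) σ₀ g / g ∈
          s34m_VV G φ M q hq hqM i,
        (arithmeticRingAut (modularFunctionFieldFull (M * q)) σ₀ g / g)⁻¹ ∈
          s34m_VV G φ M q hq hqM i ∧
        s35m_redVV G φ M q hq hqM i ⟨_, hG⟩ = HahnSeries.C c' *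
          (coeffMap ψ (s35m_redVV G φ M q hq hqM i ⟨v, hv⟩) /
            s35m_redVV G φ M q hq hqM i ⟨v, hv⟩) := by
  obtain ⟨w₀, hwA, hwA', hw⟩ := s35m_unif_unit G (σ₀ : K₀ ≃+* K₀) hσA hσA' ψ hσπ
  have hϖK0 : ((G.ϖ : G.A) : K₀) ≠ 0 := s18g_unifK_ne_zero G
  have hw0 : w₀ ≠ 0 := by
    rintro rfl
    rw [zero_mul] at hw
    exact hϖK0 ((map_eq_zero _).mp hw)
  set τ := arithmeticRingAut (L := K₀) (modularFunctionFieldFull (M * q)) σ₀ with hτ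
  have hϖ0 : s34m_unif G (M * q) ≠ 0 := s34m_unif_ne_zero G (M * q)
  -- the constant `w₀ ^ c`
  have hwcA : w₀ ^ c ∈ G.A := s59x_zpow_mem_val G.A w₀ hwA hwA' c
  have hwcA' : (w₀ ^ c)⁻¹ ∈ G.A := by
    rw [← zpow_neg]; exact s59x_zpow_mem_val G.A w₀ hwA hwA' (-c)
  have hπc : G.π ⟨w₀ ^ c, hwcA⟩ ≠ 0 := by
    intro h0
    have h4 : (⟨w₀ ^ c, hwcA⟩ : G.A) * ⟨(w₀ ^ c)⁻¹, hwcA'⟩ = 1 :=
      Subtype.ext (mul_inv_cancel₀ (zpow_ne_zero c hw0))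
    have h5 := congrArg G.π h4
    rw [map_mul, h0, zero_mul, map_one] at h5
    exact zero_ne_one h5
  have hτϖ : τ (s34m_unif G (M * q)) =
      algebraMap K₀ (s34m_F K₀ (M * q)) w₀ * s34m_unif G (M * q) := by
    rw [s34m_unif, hτ, arithmeticRingAut_algebraMap, ← map_mul]
    congr 1
  have hτv : τ v ∈ s34m_VV G φ M q hq hqM i :=
    s35m_galois_mem_VV G σ₀ hσA ψ hσπ φ M q hq hqM i hv
  have hτv' : (τ v)⁻¹ ∈ s34m_VV G φ M q hq hqM i := by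
    rw [← map_inv₀]
    exact s35m_galois_mem_VV G σ₀ hσA ψ hσπ φ M q hq hqM i hv'
  have hτv0 : τ v ≠ 0 := (map_ne_zero τ).mpr hv0
  have hcst : algebraMap K₀ (s34m_F K₀ (M * q)) (w₀ ^ c) ∈ s34m_VV G φ M q hq hqM i :=
    s34c_const_mem_VV G φ M q hq hqM i ⟨w₀ ^ c, hwcA⟩
  have hcst' : (algebraMap K₀ (s34m_F K₀ (M * q)) (w₀ ^ c))⁻¹ ∈ s34m_VV G φ M q hq hqM i := by
    rw [← map_inv₀]
    exact s34c_const_mem_VV G φ M q hq hqM i ⟨(w₀ ^ c)⁻¹, hwcA'⟩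
  have hquot : τ g / g = algebraMap K₀ (s34m_F K₀ (M * q)) (w₀ ^ c) * τ v * v⁻¹ := by
    rw [e, map_mul, map_zpow₀, hτϖ, mul_zpow, map_zpow₀]
    have := zpow_ne_zero c hϖ0
    field_simp
  have hG : τ g / g ∈ s34m_VV G φ M q hq hqM i := by
    rw [hquot]
    exact (s34m_VV G φ M q hq hqM i).mul_mem _ _
      ((s34m_VV G φ M q hq hqM i).mul_mem _ _ hcst hτv) hv'
  have hG' : (τ g / g)⁻¹ ∈ s34m_VV G φ M q hq hqM i := by
    rw [hquot, mul_inv, mul_inv, inv_inv]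
    exact (s34m_VV G φ M q hq hqM i).mul_mem _ _
      ((s34m_VV G φ M q hq hqM i).mul_mem _ _ hcst' hτv') hv
  refine ⟨G.π ⟨w₀ ^ c, hwcA⟩, hπc, hG, hG', ?_⟩
  have h6 : (⟨τ g / g, hG⟩ : ↥(s34m_VV G φ M q hq hqM i)) =
      ⟨_, hcst⟩ * ⟨τ v, hτv⟩ * ⟨v⁻¹, hv'⟩ := Subtype.ext hquot
  have h7 : s35m_redVV G φ M q hq hqM i ⟨v⁻¹, hv'⟩ =
      (s35m_redVV G φ M q hq hqM i ⟨v, hv⟩)⁻¹ := by
    apply eq_inv_of_mul_eq_one_left
    rw [← map_mul]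
    have : (⟨v⁻¹, hv'⟩ : ↥(s34m_VV G φ M q hq hqM i)) * ⟨v, hv⟩ = 1 :=
      Subtype.ext (inv_mul_cancel₀ hv0)
    rw [this, map_one]
  rw [h6, map_mul, map_mul, h7, s35m_redVV_galois G φ M q hq hqM σ₀ hσA ψ hσπ i ⟨v, hv⟩,
    s35m_redVV_const G φ M q hq hqM i ⟨w₀ ^ c, hwcA⟩, div_eq_mul_inv, mul_assoc]

end S5

/-! ### DEPTH 0 -/

section Main

variable (φ : K₀ →+* Kb) (M q : ℕ) [NeZero M] [NeZero q] (hq : q.Prime) (hqM : ¬ q ∣ M)
variable [Fact q.Prime] [CharP κ q]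
variable (σ₀ : K₀ ≃ₐ[ℚ] K₀)
  (hσA : ∀ a : K₀, a ∈ G.A → (σ₀ : K₀ ≃+* K₀) a ∈ G.A)
  (hσA' : ∀ a : K₀, a ∈ G.A → (σ₀.symm : K₀ ≃+* K₀) a ∈ G.A)
  (n : ℕ)
  (hσπ : ∀ a : G.A, G.π (s34m_sigmaA G (σ₀ : K₀ ≃+* K₀) hσA a) =
    iterateFrobenius κ q (2 * n) (G.π a))

/-- `red_0 z = red_∞ (w z)`, in a form that the kernel checks quickly (`w z` generalised to a variable). -/
theorem s59x_redVV_false_eq (z : s34m_F K₀ (M * q)) (hz : z ∈ s34m_VV G φ M q hq hqM false)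
    (y : s34m_F K₀ (M * q)) (hy : y ∈ s34m_Vinf G (M * q)) (e : s34m_al φ M q hq hqM z = y) :
    s35m_redVV G φ M q hq hqM false ⟨z, hz⟩ = s34m_redInf G (M * q) ⟨y, hy⟩ := by
  subst e
  exact (s35m_redVV_false G φ M q hq hqM ⟨z, hz⟩).trans
    (s34m_redZero_apply G φ M q hq hqM ⟨z, hz⟩)

include hσπ hσA' in
/-- **[P1a] DEPTH 0 OF THE `p`-NEW KUMMER FUNCTIONS.**  `σ₀` in the decomposition group of `A` acting on the residue
field by an EVEN power `Fr^{2n}` of the Frobenius (e.g. `σ₀` fixing `μ_{p²−1}`), `f ≠ 0` of level `M q` whose norms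
along `α` and along `β` are constants times `q^k`-th powers (e.g. the Kummer function of a `q^k`-torsion class of
`J₀(M q)` killed by `α_*` and `β_*`).  Then, at BOTH Gauss valuations `V_∞`, `V_0`, the quotient `τ f / f` is a
unit whose reduction is a non-zero constant times the `q^k`-th power of a non-zero element of the residue
function field `𝔉` of level `M`. -/
theorem s59x_depth0 (ζ : K₀ˣ) (hζ : IsPrimitiveRoot (ζ : K₀) q)
    (𝔉 : Subfield (LaurentSeries κ))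
    (h𝔉 : ∀ (ψ : κ →+* κ), ∀ x ∈ 𝔉, coeffMap ψ x ∈ 𝔉)
    (h𝔉M : ∀ y : s34m_Vinf G M, s34m_redInf G M y ∈ 𝔉) (k : ℕ)
    (f : s34m_F K₀ (M * q)) (hf : f ≠ 0)
    (hα : ∃ (d : K₀) (γ : s34m_F K₀ M), d ≠ 0 ∧ γ ≠ 0 ∧
      s35nm_normAlpha M q f = algebraMap K₀ (s34m_F K₀ M) d * γ ^ (q ^ k))
    (hβ : ∃ (d : K₀) (γ : s34m_F K₀ M), d ≠ 0 ∧ γ ≠ 0 ∧
      s35nm_normBeta M q f = algebraMap K₀ (s34m_F K₀ M) d * γ ^ (q ^ k)) (i : Bool) :
    ∃ hG : arithmeticRingAut (modularFunctionFieldFull (M * q)) σ₀ f / f ∈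
        s34m_VV G φ M q hq hqM i,
      (arithmeticRingAut (modularFunctionFieldFull (M * q)) σ₀ f / f)⁻¹ ∈
        s34m_VV G φ M q hq hqM i ∧
      s59x_PK 𝔉 (q ^ k) (s35m_redVV G φ M q hq hqM i ⟨_, hG⟩) := by
  set w := s34m_al φ M q hq hqM with hwdef
  obtain ⟨a, u, hu, hu', e1⟩ := s34m_exists_zpow_Vinf G (M * q) f hf
  have hu0 : u ≠ 0 := by
    rintro rfl
    rw [mul_zero] at e1
    exact hf e1
  have hwf : w f ≠ 0 := (map_ne_zero w).mpr hf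
  obtain ⟨b, u'', hw, hw', e2⟩ := s34m_exists_zpow_Vinf G (M * q) (w f) hwf
  have hw0 : u'' ≠ 0 := by
    rintro rfl
    rw [mul_zero] at e2
    exact hwf e2
  obtain ⟨X, hX, hX', eX, rX⟩ :=
    s59x_normAlpha_gen G φ M q hq hqM ζ hζ f u u'' a b hu hu' hu0 hw hw' hw0 e1 e2
  obtain ⟨Y, hY, hY', eY, rY⟩ :=
    s59x_normBeta_gen G φ M q hq hqM ζ hζ f u u'' a b hu hu' hu0 hw hw' hw0 e1 e2
  obtain ⟨d, γ, hd, hγ, eα⟩ := hα
  obtain ⟨d', γ', hd', hγ', eβ⟩ := hβ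
  have pX := s59x_PK_of_pow G M 𝔉 h𝔉M (q ^ k) X hX hX' (a + b * q) d γ hd hγ (by rw [← eX, eα])
  have pY := s59x_PK_of_pow G M 𝔉 h𝔉M (q ^ k) Y hY hY' (b + a * q) d' γ' hd' hγ'
    (by rw [← eY, eβ])
  rw [rX] at pX
  rw [rY] at pY
  have hū : s34m_redInf G (M * q) ⟨u, hu⟩ ≠ 0 := s35nm_redInf_ne_zero G (M * q) hu hu' hu0
  have hū'' : s34m_redInf G (M * q) ⟨u'', hw⟩ ≠ 0 := s35nm_redInf_ne_zero G (M * q) hw hw' hw0
  have q1 := s59x_PK_iter q h𝔉 hū (s59x_PK_frob_sq q h𝔉 hū hū'' pX pY) n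
  have q2 := s59x_PK_iter q h𝔉 hū'' (s59x_PK_frob_sq q h𝔉 hū'' hū pY pX) n
  cases i
  · -- `V_0`
    have hv : w u'' ∈ s34m_VV G φ M q hq hqM false :=
      (s34m_al_mem_Vinf_iff G φ M q hq hqM u'').mpr hw
    have hv' : (w u'')⁻¹ ∈ s34m_VV G φ M q hq hqM false := by
      rw [← map_inv₀]
      exact (s34m_al_mem_Vinf_iff G φ M q hq hqM u''⁻¹).mpr hw'
    have hv0 : w u'' ≠ 0 := (map_ne_zero w).mpr hw0
    have e3 : f = s34m_unif G (M * q) ^ b * w u'' := by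
      have := congrArg w e2
      rw [hwdef, s34m_al_al, map_mul, map_zpow₀, s34m_al_unif] at this
      exact this
    obtain ⟨c', hc', hG, hG', hr⟩ := s59x_galois_quot G φ M q hq hqM σ₀ hσA hσA'
      (iterateFrobenius κ q (2 * n)) hσπ false f (w u'') b hv hv' hv0 e3
    refine ⟨hG, hG', ?_⟩
    rw [hr]
    have e4 : s35m_redVV G φ M q hq hqM false ⟨w u'', hv⟩ =
        s34m_redInf G (M * q) ⟨u'', hw⟩ :=
      s59x_redVV_false_eq G φ M q hq hqM (w u'') hv u'' hw (s34m_al_al φ M q hq hqM u'')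
    rw [e4]
    exact (s59x_PK.const hc').mul q2
  · -- `V_∞`
    obtain ⟨c', hc', hG, hG', hr⟩ := s59x_galois_quot G φ M q hq hqM σ₀ hσA hσA'
      (iterateFrobenius κ q (2 * n)) hσπ true f u a hu hu' hu0 e1
    refine ⟨hG, hG', ?_⟩
    rw [hr]
    exact (s59x_PK.const hc').mul q1

end Main

end Fermat.Agent.Lib.S59
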