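/-
Programme (R2) = S59, case (P), leaf **[P1c-INST], part 1: THE REFERENCE `(c₀, a₀)`** (owner helper8, prefix `s59c_`;
consumer: helper7's generic chart theorem `s59x_unip_chart`, `Lib/S59/NXChartGen.lean`).

`σ₀` in the decomposition group acting on the residue field by an EVEN power of the Frobenius, `f ≠ 0` of level `M q`
whose norms along `α` and `β` are constants times `q^k`-th powers.  By helper7's `s59x_depth0`, at both Gauss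
valuations `τ f / f` is a unit with reduction `C c_i · r_i ^ (q^k)`, `r_i ∈ F̄_M`.  Here:

* `s59c_redM_surj`   : every element of `F̄_M` is a reduction `red_M R`, `R ∈ V_M`;
* `s59c_RedEq`       : the calculus "`x ∈ V_i` and `red_i x = z`" (`mul`, `add`, `pow`, `inv`, `div`, `of_cong`, `one`);
* `s59c_exists_idem` : weak approximation, `e₀ ≡ 0 mod ϖ V_∞`, `e₀ ≡ 1 mod ϖ V_0` (from `s33u_exists_approx`);
* **`s59c_ref`**     : there are a unit `c₀` of `A` and `a₀`, a unit of `V_∞` and of `V_0`, with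
  `c₀ (τ f / f) / a₀ ^ (q^k) ≡ 1` modulo `ϖ V_i` for both `i`
  (`a₀ = α^* R_∞ + e₀ (β^* R_0 - α^* R_∞)`, `red_M R_∞ = r_∞`, `red_M R_0 = d r_0`, `d ^ (q^k) = c_0 / c_∞`).
-/
import Fermat.Agent.Lib.S59.NXDepth0
import Fermat.Agent.Lib.S33.UnipInst
import Fermat.Agent.Lib.S33.SSModel

set_option autoImplicit false
set_option linter.style.haveILetI false

noncomputable section

namespace Fermat.Agent.Lib.S59

open ModularCurve AlgebraicCurve HahnSeries Polynomial Fermat.Agent.Lib.FF Fermat.Agent.Lib.S18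
  Fermat.Agent.Lib.S34 Fermat.Agent.Lib.S35 Fermat.Agent.Lib.S33 Fermat.Agent.Lib.S37

local notation "Kb" => AlgebraicClosure ℚ

variable {K₀ : Type*} [Field K₀] [Algebra ℚ K₀] {κ : Type*} [Field κ] (G : s18g_GaussData K₀ κ)
variable (φ : K₀ →+* Kb) (M q : ℕ) [NeZero M] [NeZero q] (hq : q.Prime) (hqM : ¬ q ∣ M)

/-- every element of `F̄_M` is a reduction. -/
theorem s59c_redM_surj (hT : s18g_HT κ M) (hdegM : s18g_HDeg K₀ M) (hπ : Function.Surjective G.π)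
    (z : LaurentSeries κ) (hz : z ∈ modularFunctionFieldFullC κ M) :
    ∃ R : s34m_Vinf G M, s34m_redInf G M R = z := by
  obtain ⟨f, hf⟩ := s18g_redF_surjective G M (s34m_hF G M) hT hdegM hπ ⟨z, hz⟩
  refine ⟨f, ?_⟩
  have := congrArg (fun x : ↥(modularFunctionFieldFullC κ M) => (x : LaurentSeries κ)) hf
  exact this

/-- `red_i y = 0 ↔ y ∈ ϖ V_i`, uniformly in `i`. -/
theorem s59c_redVV_eq_zero_iff (i : Bool) (y : ↥(s34m_VV G φ M q hq hqM i)) :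
    s35m_redVV G φ M q hq hqM i y = 0 ↔
      ∃ z ∈ s34m_VV G φ M q hq hqM i, (y : s34m_F K₀ (M * q)) = s34m_unif G (M * q) * z := by
  cases i
  · exact s34m_redZero_eq_zero_iff G φ M q hq hqM y
  · exact s34m_redInf_eq_zero_iff G (M * q) y

/-- `x ∈ V_i` and `red_i x = z`. -/
def s59c_RedEq (i : Bool) (x : s34m_F K₀ (M * q)) (z : LaurentSeries κ) : Prop :=
  ∃ hx : x ∈ s34m_VV G φ M q hq hqM i, s35m_redVV G φ M q hq hqM i ⟨x, hx⟩ = z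

section RedEq

variable {G φ M q hq hqM}
variable {i : Bool} {x y : s34m_F K₀ (M * q)} {z w : LaurentSeries κ}

theorem s59c_RedEq.mem (h : s59c_RedEq G φ M q hq hqM i x z) : x ∈ s34m_VV G φ M q hq hqM i := h.1

theorem s59c_RedEq.of_mem (hx : x ∈ s34m_VV G φ M q hq hqM i) :
    s59c_RedEq G φ M q hq hqM i x (s35m_redVV G φ M q hq hqM i ⟨x, hx⟩) := ⟨hx, rfl⟩

theorem s59c_redEq_one : s59c_RedEq G φ M q hq hqM i 1 1 :=
  ⟨(s34m_VV G φ M q hq hqM i).one_mem, map_one _⟩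

theorem s59c_RedEq.mul (h : s59c_RedEq G φ M q hq hqM i x z) (h' : s59c_RedEq G φ M q hq hqM i y w) :
    s59c_RedEq G φ M q hq hqM i (x * y) (z * w) := by
  obtain ⟨hx, rfl⟩ := h
  obtain ⟨hy, rfl⟩ := h'
  exact ⟨(s34m_VV G φ M q hq hqM i).mul_mem _ _ hx hy,
    (s35m_redVV G φ M q hq hqM i).map_mul ⟨x, hx⟩ ⟨y, hy⟩⟩

theorem s59c_RedEq.add (h : s59c_RedEq G φ M q hq hqM i x z) (h' : s59c_RedEq G φ M q hq hqM i y w) :
    s59c_RedEq G φ M q hq hqM i (x + y) (z + w) := by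
  obtain ⟨hx, rfl⟩ := h
  obtain ⟨hy, rfl⟩ := h'
  exact ⟨(s34m_VV G φ M q hq hqM i).add_mem _ _ hx hy,
    (s35m_redVV G φ M q hq hqM i).map_add ⟨x, hx⟩ ⟨y, hy⟩⟩

theorem s59c_RedEq.pow (h : s59c_RedEq G φ M q hq hqM i x z) (n : ℕ) :
    s59c_RedEq G φ M q hq hqM i (x ^ n) (z ^ n) := by
  obtain ⟨hx, rfl⟩ := h
  exact ⟨(s34m_VV G φ M q hq hqM i).pow_mem hx n,
    (s35m_redVV G φ M q hq hqM i).map_pow ⟨x, hx⟩ n⟩

/-- congruent elements have the same reduction. -/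
theorem s59c_RedEq.of_cong (h : s59c_RedEq G φ M q hq hqM i y z)
    (hc : ∃ t ∈ s34m_VV G φ M q hq hqM i, x - y = s34m_unif G (M * q) * t) :
    s59c_RedEq G φ M q hq hqM i x z := by
  obtain ⟨hy, rfl⟩ := h
  obtain ⟨t, ht, e⟩ := hc
  have hx : x ∈ s34m_VV G φ M q hq hqM i := by
    have : x = y + s34m_unif G (M * q) * t := by rw [← e]; ring
    rw [this]
    exact (s34m_VV G φ M q hq hqM i).add_mem _ _ hy
      ((s34m_VV G φ M q hq hqM i).mul_mem _ _ (s34m_unif_mem_VV G φ M q hq hqM i) ht)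
  refine ⟨hx, ?_⟩
  have h0 : s35m_redVV G φ M q hq hqM i (⟨x, hx⟩ - ⟨y, hy⟩) = 0 :=
    (s59c_redVV_eq_zero_iff G φ M q hq hqM i _).mpr ⟨t, ht, e⟩
  rw [map_sub, sub_eq_zero] at h0
  exact h0

/-- an element with non-zero reduction is a unit of `V_i`. -/
theorem s59c_RedEq.inv_mem (h : s59c_RedEq G φ M q hq hqM i x z) (hz : z ≠ 0) :
    x⁻¹ ∈ s34m_VV G φ M q hq hqM i := by
  obtain ⟨hx, rfl⟩ := h
  have hx0 : x ≠ 0 := by
    rintro rfl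
    apply hz
    have : (⟨0, hx⟩ : ↥(s34m_VV G φ M q hq hqM i)) = 0 := rfl
    rw [this, map_zero]
  refine s33s_inv_mem_of_not_dvd (s34m_VV G φ M q hq hqM i) (s34m_unif G (M * q))
    (s34m_unif_ne_zero G (M * q)) (s34m_unif_mem_VV G φ M q hq hqM i)
    (fun U hU => s34m_exists_zpow_VV G φ M q hq hqM i U hU) x hx0 ?_
  intro hd
  exact hz ((s59c_redVV_eq_zero_iff G φ M q hq hqM i ⟨x, hx⟩).mpr hd)

theorem s59c_RedEq.ne_zero (h : s59c_RedEq G φ M q hq hqM i x z) (hz : z ≠ 0) : x ≠ 0 := by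
  obtain ⟨hx, rfl⟩ := h
  rintro rfl
  apply hz
  have : (⟨0, hx⟩ : ↥(s34m_VV G φ M q hq hqM i)) = 0 := rfl
  rw [this, map_zero]

theorem s59c_RedEq.inv (h : s59c_RedEq G φ M q hq hqM i x z) (hz : z ≠ 0) :
    s59c_RedEq G φ M q hq hqM i x⁻¹ z⁻¹ := by
  have hxi := h.inv_mem hz
  have hx0 := h.ne_zero hz
  obtain ⟨hx, rfl⟩ := h
  refine ⟨hxi, ?_⟩
  apply eq_inv_of_mul_eq_one_left
  rw [← map_mul]
  have : (⟨x⁻¹, hxi⟩ : ↥(s34m_VV G φ M q hq hqM i)) * ⟨x, hx⟩ = 1 :=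
    Subtype.ext (inv_mul_cancel₀ hx0)
  rw [this, map_one]

theorem s59c_RedEq.div (h : s59c_RedEq G φ M q hq hqM i x z) (h' : s59c_RedEq G φ M q hq hqM i y w)
    (hw : w ≠ 0) : s59c_RedEq G φ M q hq hqM i (x / y) (z / w) := by
  rw [div_eq_mul_inv, div_eq_mul_inv]
  exact h.mul (h'.inv hw)

theorem s59c_redEq_const (a : G.A) :
    s59c_RedEq G φ M q hq hqM i (algebraMap K₀ (s34m_F K₀ (M * q)) (a : K₀)) (HahnSeries.C (G.π a)) :=
  ⟨s34c_const_mem_VV G φ M q hq hqM i a, s35m_redVV_const G φ M q hq hqM i a⟩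

/-- reduction `1` means `≡ 1 mod ϖ V_i`. -/
theorem s59c_RedEq.one (h : s59c_RedEq G φ M q hq hqM i x 1) :
    s33u_One (s34m_VV G φ M q hq hqM i) (algebraMap K₀ (s34m_F K₀ (M * q)) ((G.ϖ : G.A) : K₀)) x := by
  obtain ⟨hx, e⟩ := h
  have h0 : s35m_redVV G φ M q hq hqM i (⟨x, hx⟩ - 1) = 0 := by
    rw [map_sub, e, map_one, sub_self]
  obtain ⟨t, ht, e'⟩ := (s59c_redVV_eq_zero_iff G φ M q hq hqM i _).mp h0
  exact ⟨t, ht, e'⟩

end RedEq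


/-! ### Weak approximation -/

/-- **Weak approximation**: `e₀ ≡ 0 mod ϖ V_∞`, `e₀ ≡ 1 mod ϖ V_0`. -/
theorem s59c_exists_idem [CharP κ q] :
    ∃ e₀ : s34m_F K₀ (M * q),
      (∃ t ∈ s34m_VV G φ M q hq hqM true, e₀ = s34m_unif G (M * q) * t) ∧
      (∃ t ∈ s34m_VV G φ M q hq hqM false, e₀ - 1 = s34m_unif G (M * q) * t) := by
  obtain ⟨h, u, hh0, hhI, hhI', hu0, hu, hu', e⟩ := s33u_exists_approx G φ M q hq hqM
  set ϖ := s34m_unif G (M * q) with hϖdef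
  have hϖ0 : ϖ ≠ 0 := s34m_unif_ne_zero G (M * q)
  have hϖI : ϖ ∈ s34m_Vinf G (M * q) := s34m_unif_mem_Vinf G (M * q)
  have hϖZ : ϖ ∈ s34m_Vzero G φ M q hq hqM := s34m_unif_mem_Vzero G φ M q hq hqM
  have hnI := s34f_unif_not_unit_VV G φ M q hq hqM true
  have hnZ := s34f_unif_not_unit_VV G φ M q hq hqM false
  -- `1 + ϖ u²` and `1 + ϖ h⁻²`
  have h1 : (1 + ϖ * u ^ 2)⁻¹ ∈ s34m_Vzero G φ M q hq hqM :=
    s34x_val_one_add_inv_mem (s34m_Vzero G φ M q hq hqM) ϖ hϖZ hnZ (pow_mem hu 2)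
  have h2 : (1 + ϖ * (h⁻¹) ^ 2)⁻¹ ∈ s34m_Vinf G (M * q) :=
    s34x_val_one_add_inv_mem (s34m_Vinf G (M * q)) ϖ hϖI hnI (pow_mem hhI' 2)
  have h10 : 1 + ϖ * u ^ 2 ≠ 0 := by
    intro h0
    apply hnZ
    refine ⟨-u ^ 2, neg_mem (pow_mem hu 2), ?_⟩
    have : (1 : s34m_F K₀ (M * q)) = -(ϖ * u ^ 2) := by
      rw [eq_neg_iff_add_eq_zero]; exact h0
    rw [this]
    show -(ϖ * u ^ 2) = ϖ * -u ^ 2
    ring
  have h20 : 1 + ϖ * (h⁻¹) ^ 2 ≠ 0 := by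
    intro h0
    apply hnI
    refine ⟨-(h⁻¹) ^ 2, neg_mem (pow_mem hhI' 2), ?_⟩
    have : (1 : s34m_F K₀ (M * q)) = -(ϖ * (h⁻¹) ^ 2) := by
      rw [eq_neg_iff_add_eq_zero]; exact h0
    rw [this]
    show -(ϖ * (h⁻¹) ^ 2) = ϖ * -(h⁻¹) ^ 2
    ring
  refine ⟨ϖ / (ϖ + h ^ 2), ⟨(h⁻¹) ^ 2 * (1 + ϖ * (h⁻¹) ^ 2)⁻¹,
    (s34m_Vinf G (M * q)).mul_mem _ _ (pow_mem hhI' 2) h2, ?_⟩,
    ⟨-u ^ 2 * (1 + ϖ * u ^ 2)⁻¹,
      (s34m_Vzero G φ M q hq hqM).mul_mem _ _ (neg_mem (pow_mem hu 2)) h1, ?_⟩⟩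
  · have e1 : ϖ + h ^ 2 = h ^ 2 * (1 + ϖ * (h⁻¹) ^ 2) := by
      field_simp
      ring
    rw [e1]
    field_simp
  · have e1 : ϖ + h ^ 2 = ϖ * (1 + ϖ * u ^ 2) := by
      rw [e]; ring
    rw [e1]
    field_simp
    ring


/-! ### The reference -/

section Ref

variable [hqF : Fact q.Prime] [CharP κ q] [PerfectRing κ q] [IsDiscreteValuationRing G.A]
variable (hT : s18g_HT κ M) (hdegM : s18g_HDeg K₀ M) (hπ : Function.Surjective G.π)
variable (σ₀ : K₀ ≃ₐ[ℚ] K₀)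
  (hσA : ∀ a : K₀, a ∈ G.A → (σ₀ : K₀ ≃+* K₀) a ∈ G.A)
  (hσA' : ∀ a : K₀, a ∈ G.A → (σ₀.symm : K₀ ≃+* K₀) a ∈ G.A)
  (n : ℕ)
  (hσπ : ∀ a : G.A, G.π (s34m_sigmaA G (σ₀ : K₀ ≃+* K₀) hσA a) =
    iterateFrobenius κ q (2 * n) (G.π a))

include hπ in
/-- a unit of `A` with prescribed non-zero residue. -/
theorem s59c_exists_unit_lift (c : κ) (hc : c ≠ 0) : ∃ u : (↥G.A)ˣ, G.π (u : G.A) = c := by
  obtain ⟨a, rfl⟩ := hπ c
  have hu : IsUnit a := by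
    by_contra hnu
    exact hc ((s33u_not_isUnit_iff G a).mp hnu)
  exact ⟨hu.unit, rfl⟩

include hT hdegM hπ hσπ hσA' in
/-- **THE REFERENCE `(c₀, a₀)`**: `a₀` a unit of both Gauss valuation rings with
`c₀ (τ f / f) ≡ a₀ ^ (q ^ k)` on both components. -/
theorem s59c_ref (ζ : K₀ˣ) (hζ : IsPrimitiveRoot (ζ : K₀) q) (k : ℕ)
    (f : s34m_F K₀ (M * q)) (hf : f ≠ 0)
    (hα : ∃ (d : K₀) (γ : s34m_F K₀ M), d ≠ 0 ∧ γ ≠ 0 ∧
      s35nm_normAlpha M q f = algebraMap K₀ (s34m_F K₀ M) d * γ ^ (q ^ k))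
    (hβ : ∃ (d : K₀) (γ : s34m_F K₀ M), d ≠ 0 ∧ γ ≠ 0 ∧
      s35nm_normBeta M q f = algebraMap K₀ (s34m_F K₀ M) d * γ ^ (q ^ k)) :
    ∃ (c₀ : (↥G.A)ˣ) (a₀ : s34m_F K₀ (M * q)),
      (∀ i, a₀ ∈ s34m_VV G φ M q hq hqM i ∧ a₀⁻¹ ∈ s34m_VV G φ M q hq hqM i) ∧
      ∀ i, s33u_One (s34m_VV G φ M q hq hqM i)
        (algebraMap K₀ (s34m_F K₀ (M * q)) ((G.ϖ : G.A) : K₀))
        (s33u_cst G.A (c₀ : G.A) *
          s33u_fd (arithmeticGalois (modularFunctionFieldFull (M * q)) σ₀) f / a₀ ^ (q ^ k)) := by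
  set 𝔉 : Subfield (LaurentSeries κ) := (modularFunctionFieldFullC κ M).toSubfield with h𝔉def
  have h𝔉 : ∀ (ψ : κ →+* κ), ∀ x ∈ 𝔉, coeffMap ψ x ∈ 𝔉 := fun ψ x hx =>
    s37e_coeffMap_mem_fullC M ψ hx
  have h𝔉M : ∀ y : s34m_Vinf G M, s34m_redInf G M y ∈ 𝔉 := fun y =>
    s34df_redM_mem_fullC G M hT hdegM y
  set Gf := arithmeticRingAut (modularFunctionFieldFull (M * q)) σ₀ f / f with hGf
  have hfd : s33u_fd (arithmeticGalois (modularFunctionFieldFull (M * q)) σ₀) f = Gf := rfl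
  rw [hfd]
  obtain ⟨hGI, -, cI, rI, hcI, hrI, hrI𝔉, eI⟩ := s59x_depth0 G φ M q hq hqM σ₀ hσA hσA' n hσπ ζ hζ
    𝔉 h𝔉 h𝔉M k f hf hα hβ true
  obtain ⟨hGZ, -, cZ, rZ, hcZ, hrZ, hrZ𝔉, eZ⟩ := s59x_depth0 G φ M q hq hqM σ₀ hσA hσA' n hσπ ζ hζ
    𝔉 h𝔉 h𝔉M k f hf hα hβ false
  have RG_I : s59c_RedEq G φ M q hq hqM true Gf (HahnSeries.C cI * rI ^ q ^ k) := ⟨hGI, eI⟩
  have RG_Z : s59c_RedEq G φ M q hq hqM false Gf (HahnSeries.C cZ * rZ ^ q ^ k) := ⟨hGZ, eZ⟩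
  -- the constants
  obtain ⟨c₀, hc₀⟩ := s59c_exists_unit_lift G hπ cI⁻¹ (inv_ne_zero hcI)
  obtain ⟨d, hd⟩ : ∃ d : κ, d ^ q ^ k = cZ / cI := by
    refine ⟨(iterateFrobeniusEquiv κ q k).symm (cZ / cI), ?_⟩
    have := (iterateFrobeniusEquiv κ q k).apply_symm_apply (cZ / cI)
    rw [iterateFrobeniusEquiv_def] at this
    exact this
  have hd0 : d ≠ 0 := by
    rintro rfl
    rw [zero_pow (pow_pos hq.pos k).ne'] at hd
    exact div_ne_zero hcZ hcI hd.symm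
  -- the lifts
  obtain ⟨RI, hRI⟩ := s59c_redM_surj G M hT hdegM hπ rI hrI𝔉
  have hdr : HahnSeries.C d * rZ ∈ modularFunctionFieldFullC κ M := by
    refine mul_mem ?_ hrZ𝔉
    have : (HahnSeries.C d : LaurentSeries κ) = algebraMap κ (LaurentSeries κ) d := by
      rw [algebraMap_laurentSeries_eq_single, HahnSeries.C_apply]
    rw [this]
    exact (modularFunctionFieldFullC κ M).algebraMap_mem d
  obtain ⟨RZ, hRZ⟩ := s59c_redM_surj G M hT hdegM hπ _ hdr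
  set A := heckeAlphaBar K₀ M q (RI : s34m_F K₀ M) with hA
  set B := heckeBetaBar K₀ M q (RZ : s34m_F K₀ M) with hB
  have hAI : A ∈ s34m_VV G φ M q hq hqM true := s34m_alpha_mem_Vinf G M q RI.2
  have hAZ : A ∈ s34m_VV G φ M q hq hqM false := s34m_alpha_mem_Vzero G φ M q hq hqM RI.2
  have hBI : B ∈ s34m_VV G φ M q hq hqM true := s34m_beta_mem_Vinf G M q RZ.2
  have hBZ : B ∈ s34m_VV G φ M q hq hqM false := s34m_beta_mem_Vzero G φ M q hq hqM RZ.2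
  have RA : s59c_RedEq G φ M q hq hqM true A rI :=
    ⟨hAI, (s34m_redInf_alpha G M q RI).trans hRI⟩
  have RB : s59c_RedEq G φ M q hq hqM false B (HahnSeries.C d * rZ) :=
    ⟨hBZ, (s34m_redZero_beta G φ M q hq hqM RZ).trans hRZ⟩
  obtain ⟨e₀, ⟨t, ht, et⟩, ⟨t', ht', et'⟩⟩ := s59c_exists_idem G φ M q hq hqM
  set a₀ := A + e₀ * (B - A) with ha₀
  have Ra_I : s59c_RedEq G φ M q hq hqM true a₀ rI := by
    refine RA.of_cong ⟨t * (B - A), (s34m_VV G φ M q hq hqM true).mul_mem _ _ ht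
      (sub_mem hBI hAI), ?_⟩
    rw [ha₀, et]
    ring
  have Ra_Z : s59c_RedEq G φ M q hq hqM false a₀ (HahnSeries.C d * rZ) := by
    refine RB.of_cong ⟨t' * (B - A), (s34m_VV G φ M q hq hqM false).mul_mem _ _ ht'
      (sub_mem hBZ hAZ), ?_⟩
    have : a₀ - B = (e₀ - 1) * (B - A) := by rw [ha₀]; ring
    rw [this, et']
    ring
  have hCd0 : (HahnSeries.C d : LaurentSeries κ) * rZ ≠ 0 :=
    mul_ne_zero (s59x_C_ne_zero hd0) hrZ
  refine ⟨c₀, a₀, ?_, ?_⟩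
  · intro i
    cases i
    · exact ⟨Ra_Z.mem, Ra_Z.inv_mem hCd0⟩
    · exact ⟨Ra_I.mem, Ra_I.inv_mem hrI⟩
  · intro i
    have hcst : ∀ j, s59c_RedEq G φ M q hq hqM j (s33u_cst G.A (c₀ : G.A))
        (HahnSeries.C cI⁻¹) := by
      intro j
      have := s59c_redEq_const (G := G) (φ := φ) (M := M) (q := q) (hq := hq) (hqM := hqM)
        (i := j) (c₀ : G.A)
      rw [hc₀] at this
      exact this
    cases i
    · apply s59c_RedEq.one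
      have key := ((hcst false).mul RG_Z).div (Ra_Z.pow (q ^ k)) (pow_ne_zero _ hCd0)
      have e1 : (HahnSeries.C cI⁻¹ : LaurentSeries κ) * (HahnSeries.C cZ * rZ ^ q ^ k) /
          (HahnSeries.C d * rZ) ^ q ^ k = 1 := by
        rw [mul_pow, ← map_pow, hd, ← mul_assoc, ← map_mul]
        have : cI⁻¹ * cZ = cZ / cI := by rw [div_eq_mul_inv, mul_comm]
        rw [this]
        exact div_self (mul_ne_zero (s59x_C_ne_zero (div_ne_zero hcZ hcI)) (pow_ne_zero _ hrZ))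
      rw [e1] at key
      exact key
    · apply s59c_RedEq.one
      have key := ((hcst true).mul RG_I).div (Ra_I.pow (q ^ k)) (pow_ne_zero _ hrI)
      have e1 : (HahnSeries.C cI⁻¹ : LaurentSeries κ) * (HahnSeries.C cI * rI ^ q ^ k) /
          rI ^ q ^ k = 1 := by
        rw [← mul_assoc, ← map_mul, inv_mul_cancel₀ hcI, map_one, one_mul]
        exact div_self (pow_ne_zero _ hrI)
      rw [e1] at key
      exact key

end Ref

end Fermat.Agent.Lib.S59
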