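/-
Programme (R2), node [CAR] / count data, helper8 (prefix `s59c_`): **PRINCIPAL DIVISORS HAVE DEGREE ZERO OVER A
PERFECT (e.g. FINITE) CONSTANT FIELD.**

`Lib/FF` (characteristic zero) and `Lib/S44/RSepFF.lean`, `RSepDiv.lean` (characteristic `p`) prove the fundamental
identity `Σ_{P | x = 0} ord_P x = [F : K(x)]` and `deg div f = 0` only for an ALGEBRAICALLY CLOSED constant field
(all places of degree one).  Here the same statements with the degrees of the places, for an arbitrary constant field
`K` and a separating coordinate `x` (`[FFGen K x] [Algebra.IsSeparable K⟮x⟯ F]`):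

* `s59c_resB`, `s59c_resEquiv` : the residue field of the place of a prime `w` of `B = integralClosure K[x] F` is `B ⧸ w`;
* `s59c_deg_placeOf`           : `deg (place of w) = inertiaDeg' (x) w`;
* `s59c_fibreSum`, `s59c_fibreSum_poles` : `Σ_{zeros} ord_v x · deg v = [F : K(x)] = - Σ_{poles} ord_v x · deg v`;
* `s59c_exists_divisor_sep`    : the divisor of a separating element has degree zero;
* `s59c_exists_principal_divisor`, `s59c_hasPrincipalDivisors` : `K` PERFECT of characteristic `p`, `x` a coordinate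
  which is not a `p`-th power: every `f ≠ 0` has a divisor of degree zero;
* **`s59c_fbar_hasPrincipalDivisors`** : `HasPrincipalDivisors κ F_κ(M)` for `κ` perfect of characteristic `p`
  (the residue function field of a component of `X₀(M q)` over a finite residue field).
-/
import Fermat.Agent.Lib.S44.RSepDiv

set_option autoImplicit false
set_option linter.style.haveILetI false
set_option linter.unusedSectionVars false
set_option linter.deprecated false
set_option synthInstance.maxHeartbeats 400000

noncomputable section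

open IsDedekindDomain WithZero IsLocalRing AlgebraicCurve IntermediateField Polynomial
  Fermat.Agent.Lib.FF Fermat.Agent.Lib.S44 Fermat.Agent.Lib.S37
open scoped IntermediateField.algebraAdjoinAdjoin

namespace Fermat.Agent.Lib.S59

variable {K F : Type*} [Field K] [Field F] [Algebra K F]

section Residue

variable {x : F} [FFGen K x] [Algebra.IsSeparable K⟮x⟯ F]

/-- the reduction `B → k(v)` at the place of a prime `w` of `B`. -/
def s59c_resB (w : HeightOneSpectrum (ffB K x)) :
    ffB K x →+* (s44rq_placeOf K x w).ResidueField :=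
  (IsLocalRing.residue (s44rq_placeOf K x w).toValuationSubring).comp
    ((algebraMap (ffB K x) F).codRestrict (s44rq_placeOf K x w).toValuationSubring.toSubring
      (fun b => s44rq_coe_mem_placeOf w b))

theorem s59c_resB_eq_zero_iff (w : HeightOneSpectrum (ffB K x)) (b : ffB K x) :
    s59c_resB w b = 0 ↔ b ∈ w.asIdeal := by
  unfold s59c_resB
  rw [RingHom.comp_apply, IsLocalRing.residue_eq_zero_iff, IsLocalRing.mem_maximalIdeal,
    mem_nonunits_iff]
  have hval : w.valuation F (b : F) = w.intValuation b := w.valuation_of_algebraMap (K := F) b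
  constructor
  · intro hnu
    by_contra hb
    apply hnu
    have h1 : w.intValuation b = 1 := (w.intValuation_eq_one_iff_mem_primeCompl b).mpr hb
    have h2 : w.valuation F ((b : F)⁻¹) ≤ 1 := by
      rw [map_inv₀, hval, h1, inv_one]
    have hb0 : (b : F) ≠ 0 := by
      intro h0
      rw [h0, map_zero] at hval
      rw [h1] at hval
      exact zero_ne_one hval
    refine ⟨⟨⟨(b : F), s44rq_coe_mem_placeOf w b⟩, ⟨(b : F)⁻¹, h2⟩, ?_, ?_⟩, rfl⟩
    · exact Subtype.ext (mul_inv_cancel₀ hb0)
    · exact Subtype.ext (inv_mul_cancel₀ hb0)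
  · intro hb hu
    have h1 : w.intValuation b < 1 := (w.intValuation_lt_one_iff_mem b).mpr hb
    obtain ⟨u, hu⟩ := hu
    have h3 : ((u : (s44rq_placeOf K x w).toValuationSubring) : F) = (b : F) := by
      rw [hu]; rfl
    have h4 : (b : F) * ((u⁻¹ : ((s44rq_placeOf K x w).toValuationSubring)ˣ) :
        (s44rq_placeOf K x w).toValuationSubring) = 1 := by
      rw [← h3]
      have := congrArg Subtype.val u.mul_inv
      exact this
    have h5 : w.valuation F (((u⁻¹ : ((s44rq_placeOf K x w).toValuationSubring)ˣ) :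
        (s44rq_placeOf K x w).toValuationSubring) : F) ≤ 1 :=
      ((u⁻¹ : ((s44rq_placeOf K x w).toValuationSubring)ˣ) :
        (s44rq_placeOf K x w).toValuationSubring).2
    have h6 := congrArg (w.valuation F) h4
    rw [map_mul, map_one, hval] at h6
    have h7 : w.intValuation b * w.valuation F (((u⁻¹ : ((s44rq_placeOf K x w).toValuationSubring)ˣ) :
        (s44rq_placeOf K x w).toValuationSubring) : F) < 1 := by
      exact lt_of_le_of_lt (mul_le_of_le_one_right' h5) h1
    rw [h6] at h7
    exact lt_irrefl _ h7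

theorem s59c_resB_surjective (w : HeightOneSpectrum (ffB K x)) :
    Function.Surjective (s59c_resB w) := by
  intro y
  obtain ⟨a, rfl⟩ := IsLocalRing.residue_surjective y
  have ha : w.valuation F (a : F) ≤ 1 := a.2
  obtain ⟨n, d, hnd⟩ := w.exists_primeCompl_mul_eq_of_integer (a : F) ha
  haveI : w.asIdeal.IsMaximal := w.isMaximal
  obtain ⟨d', i, hi, e⟩ := Ideal.IsMaximal.exists_inv (I := w.asIdeal) ‹_› d.2
  refine ⟨n * d', ?_⟩
  -- `a = a * (d' * d + i) = n * d' + a * i`
  have h1 : s59c_resB w i = 0 := (s59c_resB_eq_zero_iff w i).mpr hi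
  have h2 : s59c_resB w (d' * d + i) = 1 := by rw [e, map_one]
  rw [map_add, h1, add_zero, map_mul] at h2
  have h3 : IsLocalRing.residue (s44rq_placeOf K x w).toValuationSubring a * s59c_resB w d =
      s59c_resB w n := by
    unfold s59c_resB
    rw [RingHom.comp_apply, RingHom.comp_apply, ← map_mul]
    congr 1
    exact Subtype.ext hnd
  rw [map_mul, ← h3, mul_assoc, mul_comm (s59c_resB w d), h2, mul_one]

theorem s59c_ker_resB (w : HeightOneSpectrum (ffB K x)) :
    RingHom.ker (s59c_resB w) = w.asIdeal := by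
  ext b
  rw [RingHom.mem_ker, s59c_resB_eq_zero_iff]

/-- `k(v) ≃ B ⧸ w`. -/
def s59c_resEquiv (w : HeightOneSpectrum (ffB K x)) :
    (s44rq_placeOf K x w).ResidueField ≃+* (ffB K x ⧸ w.asIdeal) :=
  (RingHom.quotientKerEquivOfSurjective (s59c_resB_surjective w)).symm.trans
    (Ideal.quotEquivOfEq (s59c_ker_resB w))

theorem s59c_resEquiv_resB (w : HeightOneSpectrum (ffB K x)) (b : ffB K x) :
    s59c_resEquiv w (s59c_resB w b) = Ideal.Quotient.mk w.asIdeal b := by
  unfold s59c_resEquiv
  rw [RingEquiv.trans_apply]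
  have h1 : (RingHom.quotientKerEquivOfSurjective (s59c_resB_surjective w)).symm (s59c_resB w b) =
      Ideal.Quotient.mk _ b := by
    rw [RingEquiv.symm_apply_eq]
    rfl
  rw [h1]
  rfl

/-- **the degree of the place of a prime over `(x)` is its inertia degree.** -/
theorem s59c_deg_placeOf (w : HeightOneSpectrum (ffB K x)) [w.asIdeal.LiesOver (ffP K x)] :
    (s44rq_placeOf K x w).deg = Ideal.inertiaDeg' (ffP K x) w.asIdeal := by
  rw [Ideal.inertiaDeg'_algebraMap, Place.deg]
  haveI : (ffP K x).IsMaximal := ffP_isMaximal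
  have hbij : Function.Bijective (algebraMap K (ffA K x ⧸ ffP K x)) := by
    refine ⟨(algebraMap K (ffA K x ⧸ ffP K x)).injective, ?_⟩
    intro y
    obtain ⟨a, rfl⟩ := Ideal.Quotient.mk_surjective y
    obtain ⟨c, hc⟩ := ffA_exists_const a
    refine ⟨c, ?_⟩
    rw [IsScalarTower.algebraMap_apply K (ffA K x) (ffA K x ⧸ ffP K x)]
    symm
    exact Ideal.Quotient.eq.mpr hc
  refine Algebra.finrank_eq_of_equiv_equiv (RingEquiv.ofBijective _ hbij) (s59c_resEquiv w) ?_
  ext c
  simp only [RingHom.comp_apply, RingEquiv.toRingHom_eq_coe, RingHom.coe_coe,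
    RingEquiv.ofBijective_apply]
  have h1 : algebraMap K (s44rq_placeOf K x w).ResidueField c =
      s59c_resB w (algebraMap K (ffB K x) c) := rfl
  rw [h1, s59c_resEquiv_resB]
  rw [← IsScalarTower.algebraMap_apply K (ffA K x ⧸ ffP K x) (ffB K x ⧸ w.asIdeal)]
  rfl

end Residue

section FibreSum

variable (K) (x : F) [FFGen K x] [Algebra.IsSeparable K⟮x⟯ F]

/-- **the fundamental identity for the zeros of `x`**, arbitrary constant field. -/
theorem s59c_fibreSum : ∃ P : Finset (Place K F),
    (∀ v, v ∈ P ↔ 0 < v.ord x) ∧ ∑ v ∈ P, v.ord x * (v.deg : ℤ) = Module.finrank K⟮x⟯ F := by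
  classical
  set S := IsDedekindDomain.primesOverFinset (ffP K x) (ffB K x) with hS
  have hmem : ∀ P : Ideal (ffB K x), P ∈ S ↔ P ∈ Ideal.primesOver (ffP K x) (ffB K x) :=
    fun P => IsDedekindDomain.mem_primesOverFinset_iff (A := ffA K x) (p := ffP K x)
      (ffP_ne_bot (K := K) (x := x)) (ffB K x)
  have hprime : ∀ P : {P // P ∈ S}, P.1.IsPrime := fun P => ((hmem P.1).mp P.2).1
  have hlies : ∀ P : {P // P ∈ S}, P.1.LiesOver (ffP K x) := fun P => ((hmem P.1).mp P.2).2
  have hnebot : ∀ P : {P // P ∈ S}, P.1 ≠ ⊥ := fun P h => by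
    haveI := hlies P
    have h1 := s44rq_mem_of_liesOver (K := K) (x := x) P.1
    rw [h, Ideal.mem_bot] at h1
    exact ffXB_ne_zero (K := K) (x := x) h1
  let φ : {P // P ∈ S} → HeightOneSpectrum (ffB K x) := fun P => ⟨P.1, hprime P, hnebot P⟩
  have hφinj : Function.Injective φ := by
    intro P Q h
    apply Subtype.ext
    exact congrArg HeightOneSpectrum.asIdeal h
  refine ⟨S.attach.image (fun P => s44rq_placeOf K x (φ P)), ?_, ?_⟩
  · intro v
    rw [Finset.mem_image]
    constructor
    · rintro ⟨P, _, rfl⟩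
      rw [s44rq_ord_x_pos_iff]
      haveI := hlies P
      exact s44rq_mem_of_liesOver P.1
    · intro hv
      have hx0 : x ≠ 0 := by
        have := ff_sub_ne_zero (K := K) (x := x) 0
        simpa using this
      have hx : x ∈ v.toValuationSubring := (ff_mem_iff_ord_nonneg v hx0).mpr hv.le
      set w := ff_primeOf v hx with hw
      have hvw : s44rq_placeOf K x w = v := s44rq_placeOf_primeOf v hx
      have hxw : ffXB K x ∈ w.asIdeal := by
        rw [← s44rq_ord_x_pos_iff, hvw]; exact hv
      have hwS : w.asIdeal ∈ S := by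
        rw [hmem]
        exact ⟨w.isPrime, s44rq_liesOver_of_mem w hxw⟩
      refine ⟨⟨w.asIdeal, hwS⟩, Finset.mem_attach _ _, ?_⟩
      rw [← hvw]
  · rw [Finset.sum_image (fun P _ Q _ h => hφinj (s44rq_placeOf_injective h))]
    have h1 : ∀ P ∈ S.attach, (s44rq_placeOf K x (φ P)).ord x * ((s44rq_placeOf K x (φ P)).deg : ℤ) =
        ((Ideal.ramificationIdx' (ffP K x) P.1 * Ideal.inertiaDeg' (ffP K x) P.1 : ℕ) : ℤ) := by
      intro P _
      haveI := hprime P
      haveI : (φ P).asIdeal.LiesOver (ffP K x) := hlies P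
      rw [s59c_deg_placeOf (φ P), ← s44rq_ramificationIdx_eq (φ P)]
      push_cast
      rfl
    rw [Finset.sum_congr rfl h1, ← Nat.cast_sum,
      Finset.sum_attach S (fun P => Ideal.ramificationIdx' (ffP K x) P * Ideal.inertiaDeg' (ffP K x) P)]
    congr 1
    exact Ideal.sum_ramification_inertia (R := ffA K x) (ffB K x) K⟮x⟯ F (p := ffP K x)
      (ffP_ne_bot (K := K) (x := x))

/-- **the fundamental identity for the poles of `x`**, arbitrary constant field. -/
theorem s59c_fibreSum_poles : ∃ P : Finset (Place K F),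
    (∀ v, v ∈ P ↔ v.ord x < 0) ∧
      ∑ v ∈ P, v.ord x * (v.deg : ℤ) = -(Module.finrank K⟮x⟯ F : ℤ) := by
  haveI : FFGen K x⁻¹ := ff_gen_of_transcendental (x := x) (ff_transcendental_inv FFGen.transc)
  haveI : Algebra.IsSeparable K⟮x⁻¹⟯ F := s44rq_isSeparable_of_eq (ff_adjoin_inv x)
  obtain ⟨P, h1, h2⟩ := s59c_fibreSum K x⁻¹
  refine ⟨P, fun v => ?_, ?_⟩
  · rw [h1, v.ord_inv]; omega
  · rw [ff_adjoin_inv] at h2
    rw [← h2, ← Finset.sum_neg_distrib]
    exact Finset.sum_congr rfl (fun v _ => by rw [v.ord_inv, neg_mul, neg_neg])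

/-- **the divisor of a separating element has degree zero**, arbitrary constant field. -/
theorem s59c_exists_divisor_sep :
    ∃ D : Divisor K F, (∀ v : Place K F, D v = v.ord x) ∧ Divisor.degree D = 0 := by
  classical
  obtain ⟨P₁, hP₁, hs₁⟩ := s59c_fibreSum K x
  obtain ⟨P₂, hP₂, hs₂⟩ := s59c_fibreSum_poles K x
  let D : Divisor K F := Finsupp.onFinset (P₁ ∪ P₂) (fun v => v.ord x) (by
    intro v hv
    rw [Finset.mem_union, hP₁, hP₂]
    omega)
  have hD : ∀ v : Place K F, D v = v.ord x := fun v => rfl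
  refine ⟨D, hD, ?_⟩
  have hdisj : Disjoint P₁ P₂ := by
    rw [Finset.disjoint_left]
    intro v h1 h2
    have := (hP₁ v).mp h1
    have := (hP₂ v).mp h2
    omega
  rw [Divisor.degree, Finsupp.liftAddHom_apply]
  rw [Finsupp.onFinset_sum _ (fun v => by simp)]
  simp only [AddMonoidHom.coe_mulRight]
  rw [Finset.sum_union hdisj, hs₁, hs₂]
  ring

end FibreSum

section CharP

variable (x : F) [FFGen K x] [PerfectField K] (p : ℕ) [hp : Fact p.Prime] [CharP K p]

/-- an element which is not a `p`-th power is transcendental (`K` perfect). -/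
theorem s59c_transcendental_of_not_pow {f : F} (hf : ∀ y : F, y ^ p ≠ f) : Transcendental K f := by
  intro halg
  haveI : Algebra.IsAlgebraic K K⟮f⟯ := IntermediateField.isAlgebraic_adjoin_simple halg.isIntegral
  haveI : PerfectField K⟮f⟯ := Algebra.IsAlgebraic.perfectField K
  haveI : CharP K⟮f⟯ p := charP_of_injective_algebraMap (algebraMap K K⟮f⟯).injective p
  haveI : PerfectRing K⟮f⟯ p := PerfectField.toPerfectRing p
  obtain ⟨g, hg⟩ := surjective_frobenius K⟮f⟯ p ⟨f, mem_adjoin_simple_self K f⟩
  refine hf (g : F) ?_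
  have := congrArg (fun z : K⟮f⟯ => (z : F)) hg
  simpa [frobenius_def] using this

include x in
/-- an element which is not a `p`-th power is separating (`K` perfect). -/
theorem s59c_sep_of_not_pow {f : F} (hf : ∀ y : F, y ^ p ≠ f) :
    ∃ _ : FFGen K f, Algebra.IsSeparable K⟮f⟯ F := by
  have htr := s59c_transcendental_of_not_pow (K := K) p hf
  have hgen : FFGen K f := ff_gen_of_transcendental (x := x) htr
  haveI : CharP F p := ((algebraMap K F).charP_iff_charP p).mp inferInstance
  haveI : Module.Finite ↥K⟮f⟯ F := hgen.finite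
  exact ⟨hgen, s37b_isSeparable_abs p f hf⟩

include x in
/-- **Every non-zero function has a divisor, of degree zero** (`K` perfect of characteristic `p`, `x` a coordinate
which is not a `p`-th power). -/
theorem s59c_exists_principal_divisor (hxpow : ∀ w : F, w ^ p ≠ x) (f : F) (hf : f ≠ 0) :
    ∃ D : Divisor K F, (∀ v : Place K F, D v = v.ord f) ∧ Divisor.degree D = 0 := by
  classical
  by_cases hpow : ∀ y : F, y ^ p ≠ f
  · obtain ⟨hgen, hsep⟩ := s59c_sep_of_not_pow (K := K) x p hpow
    exact s59c_exists_divisor_sep K f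
  · push Not at hpow
    obtain ⟨y, hy⟩ := hpow
    have hy0 : y ≠ 0 := by
      rintro rfl
      rw [zero_pow hp.out.ne_zero] at hy
      exact hf hy.symm
    have hx0 : x ≠ 0 := by
      rintro h0
      exact hxpow 0 (by rw [zero_pow hp.out.ne_zero, h0])
    have hfx : ∀ z : F, z ^ p ≠ f * x := by
      intro z hz
      refine hxpow (z / y) ?_
      rw [div_pow, hz, hy]
      field_simp
    obtain ⟨hgen₁, hsep₁⟩ := s59c_sep_of_not_pow (K := K) x p hfx
    obtain ⟨hgen₂, hsep₂⟩ := s59c_sep_of_not_pow (K := K) x p hxpow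
    obtain ⟨D₁, hD₁, hdeg₁⟩ := s59c_exists_divisor_sep K (f * x)
    obtain ⟨D₂, hD₂, hdeg₂⟩ := s59c_exists_divisor_sep K x
    refine ⟨D₁ - D₂, fun v => ?_, ?_⟩
    · rw [Finsupp.sub_apply, hD₁, hD₂, v.ord_mul hf hx0]
      ring
    · rw [map_sub, hdeg₁, hdeg₂, sub_zero]

include x in
/-- **`HasPrincipalDivisors`** over a PERFECT constant field of characteristic `p`. -/
theorem s59c_hasPrincipalDivisors (hxpow : ∀ w : F, w ^ p ≠ x) : HasPrincipalDivisors K F :=
  ⟨s59c_exists_principal_divisor x p hxpow⟩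

end CharP

section Fbar

open ModularCurve Fermat.Agent.Lib.S28

/-- **principal divisors of `F_κ(M)` have degree zero**, `κ` perfect of characteristic `p`. -/
theorem s59c_fbar_hasPrincipalDivisors (κ : Type*) [Field κ] [PerfectField κ] (M : ℕ) [NeZero M]
    (p : ℕ) [Fact p.Prime] [CharP κ p] :
    HasPrincipalDivisors κ ↥(modularFunctionFieldFullC κ M) := by
  haveI : FFGen κ (⟨jqModC κ, jqModC_mem_full κ M⟩ : ↥(modularFunctionFieldFullC κ M)) :=
    s37b_ffGen_jF κ M
  exact s59c_hasPrincipalDivisors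
    (⟨jqModC κ, jqModC_mem_full κ M⟩ : ↥(modularFunctionFieldFullC κ M)) p
    (s37b_not_pow κ M p _ (s37b_coord_jq κ p).2.1)

end Fbar

end Fermat.Agent.Lib.S59
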