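/-
Programme (R2-bg), node [CAR]/(R1), helper8 (prefix `s59c_`), part 1: **THE ABSTRACT ALGEBRA OF THE
NODE COUNT.**

* `s59c_finrank_step`     : `D` Dedekind, a `κ`-algebra, `𝔭` maximal, `d ≠ 0`, `d ∈ 𝔭 * I`, `D ⧸ (d)`
  finite over `κ` ⇒ `dim D ⧸ 𝔭 + dim D ⧸ I ≤ dim D ⧸ 𝔭 I`;
* `s59c_deg_bound`        : distinct maximal ideals `𝔭 i` (`i ∈ T`) with `d ∈ 𝔭 i ^ k` ⇒
  `k * ∑ i ∈ T, dim_κ D ⧸ 𝔭 i ≤ dim_κ D ⧸ (d)`;
* `s59c_pow_mem_of_loc`   : `ρ : B → E` surjective, `ker ρ ≤ 𝔫`, `𝔫` maximal, `x ∈ B` with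
  `x ∈ 𝔪 ^ k` in `B_𝔫` ⇒ `ρ x ∈ (ρ 𝔫) ^ k`;
* `s59c_finite_quot_basis`, `s59c_finrank_quot_poly` : `E` a domain, free of finite rank over `κ[X]`:
  `E ⧸ I` is finite over `κ` (`I ≠ ⊥`) and `dim_κ E ⧸ (P) = rank * deg P`.
-/
import Mathlib

set_option autoImplicit false
set_option linter.unusedSectionVars false
set_option linter.style.haveILetI false

noncomputable section

namespace Fermat.Agent.Lib.S59

open Module

section Deg

variable {κ D : Type*} [Field κ] [CommRing D] [IsDedekindDomain D] [Algebra κ D]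

theorem s59c_finite_quotD (d : D) [Module.Finite κ (D ⧸ Ideal.span {d})] (J : Ideal D)
    (hJ : d ∈ J) : Module.Finite κ (D ⧸ J) := by
  have hle : Ideal.span {d} ≤ J := (Ideal.span_singleton_le_iff_mem J).mpr hJ
  let f : (D ⧸ Ideal.span {d}) →ₐ[κ] D ⧸ J := Ideal.Quotient.factorₐ κ hle
  exact Module.Finite.of_surjective f.toLinearMap (Ideal.Quotient.factor_surjective hle)

theorem s59c_finrank_step (d : D) (hd : d ≠ 0) [Module.Finite κ (D ⧸ Ideal.span {d})]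
    (𝔭 I : Ideal D) [h𝔭 : 𝔭.IsMaximal] (hdI : d ∈ 𝔭 * I) :
    finrank κ (D ⧸ 𝔭) + finrank κ (D ⧸ I) ≤ finrank κ (D ⧸ 𝔭 * I) := by
  have hle : 𝔭 * I ≤ I := Ideal.mul_le_right
  have hI0 : I ≠ ⊥ := by
    rintro rfl
    exact hd (by simpa using hle hdI)
  have hlt : 𝔭 * I < I := by
    refine lt_of_le_of_ne hle fun h => ?_
    have h1 : 𝔭 * I = 1 * I := by rw [one_mul]; exact h
    have h2 : 𝔭 = 1 := mul_right_cancel₀ hI0 h1
    exact h𝔭.ne_top (by rw [h2, Ideal.one_eq_top])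
  obtain ⟨x, hxI, hxJ⟩ := SetLike.exists_of_lt hlt
  haveI := s59c_finite_quotD (κ := κ) d (𝔭 * I) hdI
  let f : (D ⧸ 𝔭 * I) →ₐ[κ] D ⧸ I := Ideal.Quotient.factorₐ κ hle
  have hfs : Function.Surjective f.toLinearMap := Ideal.Quotient.factor_surjective hle
  have h1 := LinearMap.finrank_range_add_finrank_ker f.toLinearMap
  rw [LinearMap.range_eq_top.mpr hfs, finrank_top] at h1
  let g : D →ₗ[κ] D ⧸ 𝔭 * I :=
    (Ideal.Quotient.mkₐ κ (𝔭 * I)).toLinearMap ∘ₗ (LinearMap.mulRight κ x)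
  have hg : ∀ a : D, g a = Ideal.Quotient.mk (𝔭 * I) (a * x) := fun a => rfl
  have hker : LinearMap.ker g = 𝔭.restrictScalars κ := by
    -- the annihilator ideal
    let K : Ideal D :=
      { carrier := {a | a * x ∈ 𝔭 * I}
        zero_mem' := by simp
        add_mem' := fun {a b} ha hb => by
          show (a + b) * x ∈ 𝔭 * I
          rw [add_mul]; exact Ideal.add_mem _ ha hb
        smul_mem' := fun c a ha => by
          show (c • a) * x ∈ 𝔭 * I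
          rw [smul_eq_mul, mul_assoc]; exact Ideal.mul_mem_left _ _ ha }
    have hKp : 𝔭 ≤ K := fun a ha => Ideal.mul_mem_mul ha hxI
    have hK1 : K ≠ ⊤ := by
      intro h
      have : (1 : D) ∈ K := by rw [h]; trivial
      exact hxJ (by simpa [K] using this)
    have hK : K = 𝔭 := (h𝔭.eq_of_le hK1 hKp).symm
    ext a
    have hmem : a ∈ K ↔ a * x ∈ 𝔭 * I := Iff.rfl
    rw [hK] at hmem
    rw [LinearMap.mem_ker, hg, Ideal.Quotient.eq_zero_iff_mem, Submodule.restrictScalars_mem]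
    exact hmem.symm
  have hrange : LinearMap.range g ≤ LinearMap.ker f.toLinearMap := by
    rintro _ ⟨a, rfl⟩
    rw [LinearMap.mem_ker, hg]
    show Ideal.Quotient.factor hle (Ideal.Quotient.mk (𝔭 * I) (a * x)) = 0
    rw [Ideal.Quotient.factor_mk, Ideal.Quotient.eq_zero_iff_mem]
    exact Ideal.mul_mem_left _ _ hxI
  have e1 : finrank κ (D ⧸ 𝔭) = finrank κ (LinearMap.range g) := by
    rw [← (LinearMap.quotKerEquivRange g).finrank_eq]
    rw [← (Submodule.Quotient.restrictScalarsEquiv κ 𝔭).finrank_eq]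
    exact (Submodule.quotEquivOfEq _ _ hker.symm).finrank_eq
  have e2 : finrank κ (LinearMap.range g) ≤ finrank κ (LinearMap.ker f.toLinearMap) :=
    Submodule.finrank_mono hrange
  omega

theorem s59c_finrank_step' (d : D) (hd : d ≠ 0) [Module.Finite κ (D ⧸ Ideal.span {d})]
    (𝔭 I J : Ideal D) [h𝔭 : 𝔭.IsMaximal] (hJ : J = 𝔭 * I) (hdI : d ∈ J) :
    finrank κ (D ⧸ 𝔭) + finrank κ (D ⧸ I) ≤ finrank κ (D ⧸ J) := by
  subst hJ
  exact s59c_finrank_step d hd 𝔭 I hdI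

theorem s59c_finrank_pow_step (d : D) (hd : d ≠ 0) [Module.Finite κ (D ⧸ Ideal.span {d})]
    (𝔭 I : Ideal D) [h𝔭 : 𝔭.IsMaximal] (m : ℕ) :
    ∀ J : Ideal D, J = 𝔭 ^ m * I → d ∈ J →
      m * finrank κ (D ⧸ 𝔭) + finrank κ (D ⧸ I) ≤ finrank κ (D ⧸ J) := by
  induction m with
  | zero =>
    intro J hJ hdJ
    have : J = I := by rw [hJ, pow_zero, one_mul]
    subst this
    simp
  | succ m ih =>
    intro J hJ hdJ
    have e : J = 𝔭 * (𝔭 ^ m * I) := by rw [hJ, pow_succ', mul_assoc]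
    have h1 := s59c_finrank_step' (κ := κ) d hd 𝔭 (𝔭 ^ m * I) J e hdJ
    have h2 := ih (𝔭 ^ m * I) rfl (by rw [e] at hdJ; exact Ideal.mul_le_right hdJ)
    have : (m + 1) * finrank κ (D ⧸ 𝔭) = m * finrank κ (D ⧸ 𝔭) + finrank κ (D ⧸ 𝔭) := by ring
    omega

theorem s59c_finrank_mono (d : D) [Module.Finite κ (D ⧸ Ideal.span {d})] (I J : Ideal D)
    (hI : d ∈ I) (hIJ : I ≤ J) : finrank κ (D ⧸ J) ≤ finrank κ (D ⧸ I) := by
  haveI := s59c_finite_quotD (κ := κ) d I hI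
  let f : (D ⧸ I) →ₐ[κ] D ⧸ J := Ideal.Quotient.factorₐ κ hIJ
  exact LinearMap.finrank_le_finrank_of_surjective (f := f.toLinearMap)
    (Ideal.Quotient.factor_surjective hIJ)

theorem s59c_deg_prod (d : D) (hd : d ≠ 0) [Module.Finite κ (D ⧸ Ideal.span {d})]
    {ι : Type*} [DecidableEq ι] (𝔭 : ι → Ideal D) (k : ℕ) (T : Finset ι) :
    (∀ i ∈ T, (𝔭 i).IsMaximal) → ∀ J : Ideal D, J = ∏ i ∈ T, 𝔭 i ^ k → d ∈ J →
      k * ∑ i ∈ T, finrank κ (D ⧸ 𝔭 i) ≤ finrank κ (D ⧸ J) := by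
  induction T using Finset.induction_on with
  | empty =>
    intro _ J _ _
    simp
  | insert a T ha ih =>
    intro hmax J hJ hdJ
    haveI : (𝔭 a).IsMaximal := hmax a (Finset.mem_insert_self a T)
    rw [Finset.prod_insert ha] at hJ
    have h1 := s59c_finrank_pow_step (κ := κ) d hd (𝔭 a) (∏ i ∈ T, 𝔭 i ^ k) k J hJ hdJ
    have h2 := ih (fun i hi => hmax i (Finset.mem_insert_of_mem hi)) _ rfl
      (by rw [hJ] at hdJ; exact Ideal.mul_le_right hdJ)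
    rw [Finset.sum_insert ha, mul_add]
    omega

theorem s59c_deg_bound (d : D) (hd : d ≠ 0) [Module.Finite κ (D ⧸ Ideal.span {d})]
    {ι : Type*} [DecidableEq ι] (T : Finset ι) (𝔭 : ι → Ideal D) (hmax : ∀ i ∈ T, (𝔭 i).IsMaximal)
    (hinj : ∀ i ∈ T, ∀ j ∈ T, i ≠ j → 𝔭 i ≠ 𝔭 j) (k : ℕ) (hk : ∀ i ∈ T, d ∈ 𝔭 i ^ k) :
    k * ∑ i ∈ T, finrank κ (D ⧸ 𝔭 i) ≤ finrank κ (D ⧸ Ideal.span {d}) := by
  by_cases hk0 : k = 0
  · subst hk0; simp
  have hprime : ∀ i ∈ T, Prime (𝔭 i) := fun i hi => by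
    refine Ideal.prime_of_isPrime ?_ (hmax i hi).isPrime
    intro h0
    have h1 := hk i hi
    rw [h0, Ideal.bot_pow hk0] at h1
    exact hd (by simpa using h1)
  have hinf := IsDedekindDomain.inf_pow_eq_prod_of_prime T 𝔭 (fun _ => k) hprime hinj
  have hmem : d ∈ ∏ i ∈ T, 𝔭 i ^ k := by
    rw [← hinf, Finset.inf_eq_iInf]
    simp only [Submodule.mem_iInf]
    exact fun i hi => hk i hi
  have h1 := s59c_deg_prod (κ := κ) d hd 𝔭 k T hmax _ rfl hmem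
  have h2 := s59c_finrank_mono (κ := κ) d (Ideal.span {d}) (∏ i ∈ T, 𝔭 i ^ k)
    (Ideal.mem_span_singleton_self d) ((Ideal.span_singleton_le_iff_mem _).mpr hmem)
  omega

end Deg

section Loc

variable {B E : Type*} [CommRing B] [CommRing E]

/-- the image of a maximal ideal containing the kernel under a surjection. -/
theorem s59c_not_mem_map (ρ : B →+* E) (hρ : Function.Surjective ρ) (𝔫 : Ideal B)
    (hker : RingHom.ker ρ ≤ 𝔫) (c : B) (hc : c ∉ 𝔫) : ρ c ∉ 𝔫.map ρ := by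
  intro h
  obtain ⟨n, hn, e⟩ := (Ideal.mem_map_iff_of_surjective ρ hρ).mp h
  have h1 : n - c ∈ RingHom.ker ρ := by rw [RingHom.mem_ker, map_sub, e, sub_self]
  have h2 : c = n - (n - c) := by ring
  apply hc
  rw [h2]
  exact 𝔫.sub_mem hn (hker h1)

theorem s59c_map_isMaximal (ρ : B →+* E) (hρ : Function.Surjective ρ) (𝔫 : Ideal B)
    [h𝔫 : 𝔫.IsMaximal] (hker : RingHom.ker ρ ≤ 𝔫) : (𝔫.map ρ).IsMaximal := by
  rcases Ideal.map_eq_top_or_isMaximal_of_surjective ρ hρ h𝔫 with h | h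
  · exfalso
    have h1 := s59c_not_mem_map ρ hρ 𝔫 hker 1 ((Ideal.ne_top_iff_one 𝔫).mp h𝔫.ne_top)
    rw [h] at h1
    exact h1 trivial
  · exact h

/-- **from the local ring at a node to the branch.** -/
theorem s59c_pow_mem_of_loc (ρ : B →+* E) (hρ : Function.Surjective ρ) (𝔫 : Ideal B)
    [h𝔫 : 𝔫.IsMaximal] (hker : RingHom.ker ρ ≤ 𝔫) (x : B) (k : ℕ)
    (hx : algebraMap B (Localization.AtPrime 𝔫) x ∈
      IsLocalRing.maximalIdeal (Localization.AtPrime 𝔫) ^ k) :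
    ρ x ∈ (𝔫.map ρ) ^ k := by
  rw [← Localization.AtPrime.map_eq_maximalIdeal (I := 𝔫), ← Ideal.map_pow,
    IsLocalization.mem_map_algebraMap_iff 𝔫.primeCompl] at hx
  obtain ⟨⟨⟨a, ha⟩, ⟨c, hc⟩⟩, e⟩ := hx
  simp only at e
  rw [← map_mul, IsLocalization.eq_iff_exists 𝔫.primeCompl] at e
  obtain ⟨⟨c', hc'⟩, e'⟩ := e
  simp only at e'
  -- `c' * c * x = c' * a ∈ 𝔫 ^ k`
  have hcc : c' * c ∉ 𝔫 := fun h => (h𝔫.isPrime.mem_or_mem h).elim hc' hc
  have h1 : ρ (c' * c) * ρ x ∈ (𝔫.map ρ) ^ k := by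
    rw [← map_mul, ← Ideal.map_pow]
    refine Ideal.mem_map_of_mem ρ ?_
    have : c' * c * x = c' * a := by rw [mul_assoc, mul_comm c x, e']
    rw [this]
    exact Ideal.mul_mem_left _ _ ha
  haveI hmax := s59c_map_isMaximal ρ hρ 𝔫 hker
  have hnm := s59c_not_mem_map ρ hρ 𝔫 hker _ hcc
  have hsup : (𝔫.map ρ) ^ k ⊔ Ideal.span {ρ (c' * c)} = ⊤ := by
    refine Ideal.pow_sup_eq_top ?_
    obtain ⟨y, i, hi, e⟩ := hmax.exists_inv hnm
    rw [Ideal.eq_top_iff_one, ← e]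
    exact Ideal.add_mem _ (Ideal.mem_sup_right (Ideal.mem_span_singleton'.mpr ⟨y, rfl⟩))
      (Ideal.mem_sup_left hi)
  have h1' : (1 : E) ∈ (𝔫.map ρ) ^ k ⊔ Ideal.span {ρ (c' * c)} := by rw [hsup]; trivial
  obtain ⟨p, hp, r, hr, epr⟩ := Submodule.mem_sup.mp h1'
  obtain ⟨r', rfl⟩ := Ideal.mem_span_singleton'.mp hr
  have : ρ x = p * ρ x + r' * (ρ (c' * c) * ρ x) := by
    linear_combination (-(ρ x)) * epr
  rw [this]
  exact Ideal.add_mem _ (Ideal.mul_mem_right _ _ hp) (Ideal.mul_mem_left _ _ h1)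

end Loc

section Poly

open Polynomial

variable {κ E ι : Type*} [Field κ] [CommRing E] [IsDomain E] [Algebra κ[X] E] [Algebra κ E]
  [IsScalarTower κ κ[X] E] [Finite ι]

/-- quotients by nonzero ideals are finite over `κ`. -/
theorem s59c_finite_quot_basis (b : Basis ι κ[X] E) (I : Ideal E) (hI : I ≠ ⊥) :
    Module.Finite κ (E ⧸ I) := by
  classical
  haveI := Fintype.ofFinite ι
  have e := Ideal.quotientEquivDirectSum κ b hI
  exact Module.Finite.equiv e.symm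

/-- `dim_κ E ⧸ (P) = rank * deg P`. -/
theorem s59c_finrank_quot_poly (b : Basis ι κ[X] E) (P : κ[X]) (hP : P ≠ 0) :
    finrank κ (E ⧸ Ideal.span {algebraMap κ[X] E P}) = Nat.card ι * P.natDegree := by
  classical
  haveI := Fintype.ofFinite ι
  have hinj : Function.Injective (algebraMap κ[X] E) := by
    haveI : Module.Free κ[X] E := Module.Free.of_basis b
    haveI : Nontrivial E := inferInstance
    exact FaithfulSMul.algebraMap_injective κ[X] E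
  have hf : algebraMap κ[X] E P ≠ 0 := fun h => hP (hinj (by rw [h, map_zero]))
  rw [finrank_quotient_span_eq_natDegree_norm b hf, Algebra.norm_algebraMap_of_basis b,
    natDegree_pow, Nat.card_eq_fintype_card]

end Poly

section Count

open Polynomial

variable {κ B E : Type*} [Field κ] [CommRing B] [CommRing E] [IsDedekindDomain E]
  [Algebra κ[X] E] [Algebra κ E] [IsScalarTower κ κ[X] E]

/-- **the abstract node count**: `E` Dedekind, free of finite rank over `κ[X]`; `ρ : B → E` surjective;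
`g ∈ B` with `ρ g = P ≠ 0` a polynomial; distinct maximal ideals `𝔫 i ⊇ ker ρ` of `B` with
`ρ g ∈ (ρ 𝔫 i) ^ k`.  Then `k * ∑ dim_κ E ⧸ ρ 𝔫 i ≤ rank * deg P`. -/
theorem s59c_count_abs {ι₀ : Type*} [Finite ι₀] (b : Basis ι₀ κ[X] E)
    (ρ : B →+* E) (hρ : Function.Surjective ρ) (g : B) (P : κ[X]) (hP : P ≠ 0)
    (hgP : ρ g = algebraMap κ[X] E P)
    {ι : Type*} [DecidableEq ι] (T : Finset ι) (𝔫 : ι → Ideal B)
    (hmax : ∀ i ∈ T, (𝔫 i).IsMaximal) (hker : ∀ i ∈ T, RingHom.ker ρ ≤ 𝔫 i)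
    (hinj : ∀ i ∈ T, ∀ j ∈ T, i ≠ j → 𝔫 i ≠ 𝔫 j) (k : ℕ)
    (hloc : ∀ i ∈ T, ρ g ∈ ((𝔫 i).map ρ) ^ k) :
    k * ∑ i ∈ T, finrank κ (E ⧸ (𝔫 i).map ρ) ≤ Nat.card ι₀ * P.natDegree := by
  have hinjA : Function.Injective (algebraMap κ[X] E) := by
    haveI : Module.Free κ[X] E := Module.Free.of_basis b
    exact FaithfulSMul.algebraMap_injective κ[X] E
  have hd0 : ρ g ≠ 0 := by
    rw [hgP]
    exact fun h => hP (hinjA (by rw [h, map_zero]))
  haveI : Module.Finite κ (E ⧸ Ideal.span {ρ g}) :=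
    s59c_finite_quot_basis b _ (by rwa [Ne, Ideal.span_singleton_eq_bot])
  have h1 := s59c_deg_bound (κ := κ) (ρ g) hd0 T (fun i => (𝔫 i).map ρ)
    (fun i hi => by
      haveI := hmax i hi
      exact s59c_map_isMaximal ρ hρ (𝔫 i) (hker i hi))
    (fun i hi j hj hij h => by
      apply hinj i hi j hj hij
      have e1 := Ideal.comap_map_of_surjective ρ hρ (𝔫 i)
      have e2 := Ideal.comap_map_of_surjective ρ hρ (𝔫 j)
      have k1 : Ideal.comap ρ ⊥ ≤ 𝔫 i := hker i hi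
      have k2 : Ideal.comap ρ ⊥ ≤ 𝔫 j := hker j hj
      rw [sup_eq_left.mpr k1] at e1
      rw [sup_eq_left.mpr k2] at e2
      rw [← e1, ← e2]
      exact congrArg (Ideal.comap ρ) h) k hloc
  have h2 : finrank κ (E ⧸ Ideal.span {ρ g}) = Nat.card ι₀ * P.natDegree := by
    rw [hgP]
    exact s59c_finrank_quot_poly b P hP
  omega

end Count

end Fermat.Agent.Lib.S59
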