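/-
Programme (R2-bg), node [CAR]/(R1), helper8 (prefix `s59c_`), part 2: **THE LOCAL STEP AT A REGULAR
CROSSING.**  Abstract frame of S34/S36: `O : Bool → ValuationSubring 𝓕` (`true ↦ V_∞`, `false ↦ V_0`),
chart `S`, chart ring `B = s34x_ring (s34x_infRing O) S`, `𝔫` a prime of `B` through which both
components pass, which is a REGULAR CROSSING (`s36q_RegCross`, helper4/helper5: `𝔪 = (u, w)`,
`u w = π · unit`, `u` the branch equation of `V_∞`, `w` of `V_0`).

* `s59c_iota_mem_comp` : `B_𝔫 ⊆ O i` for a component through `𝔫`;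
* **`s59c_mem_pow_of_regCross`** : `g ∈ B` with `g / π ^ k ∈ V_0` lies in `𝔪 ^ k` in `B_𝔫`
  (`g = w ^ k · (element of B_𝔫)`, by Hartogs).
-/
import Fermat.Agent.Lib.S36.QTriple2
import Fermat.Agent.Lib.S44.EGlob

set_option autoImplicit false
set_option linter.unusedSectionVars false
set_option linter.style.haveILetI false

noncomputable section

namespace Fermat.Agent.Lib.S59

open AlgebraicCurve Fermat.Agent.Lib.FF Fermat.Agent.Lib.S18 Fermat.Agent.Lib.S34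
  Fermat.Agent.Lib.S33 Fermat.Agent.Lib.S36 Fermat.Agent.Lib.S44 IsLocalRing

variable {L₀ 𝓕 : Type*} [Field L₀] [Field 𝓕] [Algebra L₀ 𝓕]
variable (O : Bool → ValuationSubring 𝓕) (S : Set (Place L₀ 𝓕))
  (𝔫 : Ideal (s34x_ring (s34x_infRing O) S)) [h𝔫 : 𝔫.IsPrime]

/-- the local ring at `𝔫` lies in the valuation ring of every component through `𝔫`. -/
theorem s59c_iota_mem_comp (i : Bool) (hi : s36q_compThrough O S 𝔫 i)
    (x : Localization.AtPrime 𝔫) : s34f_iota (s34x_infRing O) S 𝔫 x ∈ O i := by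
  obtain ⟨b, s, hs, h⟩ := s34f_exists_frac (s34x_infRing O) S 𝔫 x
  have h1 := congrArg (s34f_iota (s34x_infRing O) S 𝔫) h
  rw [map_mul, s34f_iota_algebraMap, s34f_iota_algebraMap] at h1
  have hs0 : (s : 𝓕) ≠ 0 := by
    intro h0
    apply hs
    have : s = 0 := Subtype.ext h0
    rw [this]; exact 𝔫.zero_mem
  have hsO : (s : 𝓕) ∈ O i := s33s_ring_mem O S i s
  have hbO : (b : 𝓕) ∈ O i := s33s_ring_mem O S i b
  have hsinv : (s : 𝓕)⁻¹ ∈ O i := by
    by_contra hni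
    apply hs
    apply hi s
    rw [ValuationSubring.mem_nonunits_iff_or]
    exact Or.inr hni
  have e : s34f_iota (s34x_infRing O) S 𝔫 x = (b : 𝓕) * (s : 𝓕)⁻¹ := by
    rw [← h1]; field_simp
  rw [e]
  exact (O i).mul_mem _ _ hbO hsinv

/-- **the local step**: an element of the chart ring divisible by `π ^ k` in `V_0` lies in the
`k`-th power of the maximal ideal of the local ring of a regular crossing. -/
theorem s59c_mem_pow_of_regCross (π : 𝓕) (hπ0 : π ≠ 0)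
    (hgen : ∀ y ∈ (O true).nonunits, ∃ c ∈ O true, y = π * c)
    (hπord : ∀ Q ∈ S, Q.ord π = 0)
    (hfin : ∀ y : 𝓕, y ≠ 0 → {Q : Place L₀ 𝓕 | Q ∈ S ∧ Q.ord y ≠ 0}.Finite)
    (hT : s36q_compThrough O S 𝔫 true) (hF : s36q_compThrough O S 𝔫 false)
    (hX : s36q_RegCross O S 𝔫 true false π)
    (g : s34x_ring (s34x_infRing O) S) (k : ℕ) (hg : (g : 𝓕) * (π ^ k)⁻¹ ∈ O false) :
    algebraMap (s34x_ring (s34x_infRing O) S) (Localization.AtPrime 𝔫) g ∈
      maximalIdeal (Localization.AtPrime 𝔫) ^ k := by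
  obtain ⟨u, w, β, hβ, hu, hw, huw, hm⟩ := hX
  obtain ⟨β', hβ'⟩ := hβ.exists_right_inv
  have hιβ : s34f_iota (s34x_infRing O) S 𝔫 β * s34f_iota (s34x_infRing O) S 𝔫 β' = 1 := by
    rw [← map_mul, hβ', map_one]
  obtain ⟨c, hc, huc⟩ := hgen _ hu
  have hιβ0 : s34f_iota (s34x_infRing O) S 𝔫 β ≠ 0 := left_ne_zero_of_mul_eq_one hιβ
  have hw0 : s34f_iota (s34x_infRing O) S 𝔫 w ≠ 0 := by
    intro h0
    rw [h0, mul_zero] at huw
    exact mul_ne_zero hπ0 hιβ0 huw.symm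
  -- `(ι w)⁻¹ = c * ι β'`
  have hcw : c * s34f_iota (s34x_infRing O) S 𝔫 w = s34f_iota (s34x_infRing O) S 𝔫 β := by
    rw [huc, mul_assoc] at huw
    exact mul_left_cancel₀ hπ0 huw
  have hwinv : (s34f_iota (s34x_infRing O) S 𝔫 w)⁻¹ =
      c * s34f_iota (s34x_infRing O) S 𝔫 β' := by
    apply inv_eq_of_mul_eq_one_right
    calc s34f_iota (s34x_infRing O) S 𝔫 w * (c * s34f_iota (s34x_infRing O) S 𝔫 β')
        = (c * s34f_iota (s34x_infRing O) S 𝔫 w) * s34f_iota (s34x_infRing O) S 𝔫 β' := by ring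
      _ = 1 := by rw [hcw, hιβ]
  have hπw : π * (s34f_iota (s34x_infRing O) S 𝔫 w)⁻¹ =
      s34f_iota (s34x_infRing O) S 𝔫 (u * β') := by
    rw [hwinv, ← mul_assoc, ← huc, map_mul]
  -- the quotient
  set y : 𝓕 := (g : 𝓕) * ((s34f_iota (s34x_infRing O) S 𝔫 w)⁻¹) ^ k with hy
  have hy2 : y = ((g : 𝓕) * (π ^ k)⁻¹) * (s34f_iota (s34x_infRing O) S 𝔫 (u * β')) ^ k := by
    rw [hy, ← hπw, mul_pow]
    have := pow_ne_zero k hπ0
    field_simp
  have hreg : s44e_RegAt O S 𝔫 y := by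
    refine ⟨fun i => ?_, fun Q hQ hth => ?_⟩
    · cases i
      · rw [hy2]
        exact (O false).mul_mem _ _ hg
          (pow_mem (s59c_iota_mem_comp O S 𝔫 false hF _) k)
      · rw [hy, hwinv]
        exact (O true).mul_mem _ _ (s33s_ring_mem O S true g)
          (pow_mem ((O true).mul_mem _ _ hc (s59c_iota_mem_comp O S 𝔫 true hT _)) k)
    · rw [hy2]
      have hπk0 : (π ^ k)⁻¹ ≠ 0 := inv_ne_zero (pow_ne_zero k hπ0)
      have h1 : (π ^ k)⁻¹ ∈ Q.toValuationSubring := by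
        rw [ff_mem_iff_ord_nonneg Q hπk0, Q.ord_inv, ← zpow_natCast, Q.ord_zpow, hπord Q hQ]
        simp
      have h2 : s34f_iota (s34x_infRing O) S 𝔫 (u * β') ∈ Q.toValuationSubring := by
        by_cases h0 : s34f_iota (s34x_infRing O) S 𝔫 (u * β') = 0
        · rw [h0]; exact Q.toValuationSubring.zero_mem
        · exact (ff_mem_iff_ord_nonneg Q h0).mpr
            (s34f_iota_ord_nonneg (s34x_infRing O) S 𝔫 _ Q hQ hth)
      exact Q.toValuationSubring.mul_mem _ _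
        (Q.toValuationSubring.mul_mem _ _ (g.2.2 Q hQ) h1) (pow_mem h2 k)
  obtain ⟨c₂, hc₂, hcy⟩ := s44e_regAt_frac O S hfin 𝔫 y hreg
  have hc₂0 : (c₂ : 𝓕) ≠ 0 := by
    intro h0
    apply hc₂
    have : c₂ = 0 := Subtype.ext h0
    rw [this]; exact 𝔫.zero_mem
  set y' : Localization.AtPrime 𝔫 :=
    IsLocalization.mk' (Localization.AtPrime 𝔫) (⟨_, hcy⟩ : s34x_ring (s34x_infRing O) S)
      (⟨c₂, hc₂⟩ : 𝔫.primeCompl) with hy'
  have hιy' : s34f_iota (s34x_infRing O) S 𝔫 y' = y := by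
    have h1 := IsLocalization.mk'_spec (Localization.AtPrime 𝔫)
      (⟨_, hcy⟩ : s34x_ring (s34x_infRing O) S) (⟨c₂, hc₂⟩ : 𝔫.primeCompl)
    have h2 := congrArg (s34f_iota (s34x_infRing O) S 𝔫) h1
    rw [map_mul, s34f_iota_algebraMap, s34f_iota_algebraMap] at h2
    have h3 : s34f_iota (s34x_infRing O) S 𝔫 y' * (c₂ : 𝓕) = (c₂ : 𝓕) * y := h2
    rw [mul_comm] at h3
    exact mul_left_cancel₀ hc₂0 h3
  have hfac : algebraMap (s34x_ring (s34x_infRing O) S) (Localization.AtPrime 𝔫) g =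
      w ^ k * y' := by
    apply s34f_iota_injective (s34x_infRing O) S 𝔫
    rw [s34f_iota_algebraMap, map_mul, map_pow, hιy', hy, inv_pow]
    have := pow_ne_zero k hw0
    field_simp
  rw [hfac]
  refine Ideal.mul_mem_right _ _ (Ideal.pow_mem_pow ?_ k)
  rw [hm]
  exact Ideal.subset_span (by simp)

end Fermat.Agent.Lib.S59
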