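/-
Programme (R2-bg), node [CAR]/(R1), helper8 (prefix `s59c_`), part 6: **THE NODE COUNT IN THE FRAME OF THE
Σ-DATUM** (`Lib/S33/SSDatum.lean`, section `Build`).

`D` a Dedekind domain with fraction field `F̄_M`, free of finite rank over `κ[X]`; `ρ = s33s_rhoD … true`
the `∞`-reduction of the chart ring `B` of the chart `S`; every crossing of `S` regular (helper4's (R-q));
`g ∈ B` with `g / ϖ ^ k ∈ V_0` and `ρ g = P` a nonzero polynomial.  Then for every finite set `T` of nodes

  `k * ∑ s ∈ T, [k_s : κ] ≤ rank * deg P`      (`s59c_count_build`).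
-/
import Fermat.Agent.Lib.S59.CNodeAlg
import Fermat.Agent.Lib.S59.CNodeLoc
import Fermat.Agent.Lib.S33.SSDatum
import Fermat.Agent.Lib.S36.QFibInst

set_option autoImplicit false
set_option linter.unusedSectionVars false
set_option linter.style.haveILetI false
set_option synthInstance.maxHeartbeats 400000

noncomputable section

namespace Fermat.Agent.Lib.S59

open ModularCurve AlgebraicCurve HahnSeries Polynomial Fermat.Agent.Lib.FF Fermat.Agent.Lib.S18
  Fermat.Agent.Lib.S34 Fermat.Agent.Lib.S37 Fermat.Agent.Lib.S33 Fermat.Agent.Lib.S36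

local notation "Kb" => AlgebraicClosure ℚ

section Build

variable {K₀ : Type} [Field K₀] [CharZero K₀] [Algebra ℚ K₀] {κ : Type} [Field κ]
  (G : s18g_GaussData K₀ κ) (φ : K₀ →+* Kb) (M p : ℕ) [NeZero M] [hp : Fact p.Prime]
  (hpM : ¬ p ∣ M) [CharP κ p] [PerfectRing κ p]
  (hπ : Function.Surjective G.π)
  (S : Set (Place K₀ (s34m_F K₀ (M * p))))

variable {D : Type*} [CommRing D] [IsDedekindDomain D] [Algebra D ↥(modularFunctionFieldFullC κ M)]
  [IsFractionRing D ↥(modularFunctionFieldFullC κ M)]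
  (hF : ∀ i y, s33s_redL G φ M p hp.out hpM i y ∈ modularFunctionFieldFullC κ M)
  (hint : ∀ (i : Bool) (b : s34x_ring (s34x_infRing (s34m_VV G φ M p hp.out hpM)) S),
    ∃ d : D, algebraMap D ↥(modularFunctionFieldFullC κ M) d =
      s33s_redO G φ M p hp.out hpM (modularFunctionFieldFullC κ M) hF i
        ⟨(b : s34m_F K₀ (M * p)), b.2.1⟩)
  (BM : Set (s34m_F K₀ M)) (hBMV : ∀ g ∈ BM, g ∈ s34m_Vinf G M)
  (hαB : ∀ g ∈ BM, heckeAlphaBar K₀ M p g ∈
    s34x_ring (s34x_infRing (s34m_VV G φ M p hp.out hpM)) S)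
  (hβB : ∀ g ∈ BM, ∃ b' ∈ s34x_ring (s34x_infRing (s34m_VV G φ M p hp.out hpM)) S,
    ∃ z, z ∈ s34m_Vinf G (M * p) ∧ z ∈ s34m_Vzero G φ M p hp.out hpM ∧
      b' - heckeBetaBar K₀ M p g = s34m_unif G (M * p) * z)
  (hlift : ∀ d : D, ∃ g, ∃ hg : g ∈ BM,
    s34m_redInf G M ⟨g, hBMV g hg⟩ =
      ((algebraMap D ↥(modularFunctionFieldFullC κ M) d : ↥(modularFunctionFieldFullC κ M)) :
        LaurentSeries κ))
  (htw : ∀ d : D, ∃ d' : D, qExpand κ p
    ((algebraMap D ↥(modularFunctionFieldFullC κ M) d : ↥(modularFunctionFieldFullC κ M)) :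
      LaurentSeries κ) =
    ((algebraMap D ↥(modularFunctionFieldFullC κ M) d' : ↥(modularFunctionFieldFullC κ M)) :
      LaurentSeries κ) ^ p)

/-- both components pass through a node. -/
theorem s59c_node_compThrough
    (s : s33s_Node (s34m_VV G φ M p hp.out hpM) (s34m_unif G (M * p)) S) (i : Bool) :
    s36q_compThrough (s34m_VV G φ M p hp.out hpM) S s.1 i := by
  intro b hb
  obtain ⟨c, hc, e⟩ := s36q_fi_gen G φ M p hp.out hpM i _ hb
  have hmem : b ∈ s33s_comp (s34m_VV G φ M p hp.out hpM) (s34m_unif G (M * p)) S i :=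
    (s33s_mem_comp _ _ S i b).mpr ⟨c, hc, e⟩
  cases i
  · exact s.2.2.2 hmem
  · exact s.2.2.1 hmem

include hαB hβB hlift htw in
/-- **the local step in the frame of the Σ-datum.** -/
theorem s59c_rho_pow_mem
    (hX : ∀ (𝔭 : Ideal (s34x_ring (s34x_infRing (s34m_VV G φ M p hp.out hpM)) S)) [𝔭.IsPrime],
      s36q_compThrough (s34m_VV G φ M p hp.out hpM) S 𝔭 true →
      s36q_compThrough (s34m_VV G φ M p hp.out hpM) S 𝔭 false →
      s36q_RegCross (s34m_VV G φ M p hp.out hpM) S 𝔭 true false (s34m_unif G (M * p)))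
    (s : s33s_Node (s34m_VV G φ M p hp.out hpM) (s34m_unif G (M * p)) S)
    (g : s34x_ring (s34x_infRing (s34m_VV G φ M p hp.out hpM)) S) (k : ℕ)
    (hg : (g : s34m_F K₀ (M * p)) * (s34m_unif G (M * p) ^ k)⁻¹ ∈ s34m_Vzero G φ M p hp.out hpM) :
    s33s_rhoD G φ M p hp.out hpM (modularFunctionFieldFullC κ M) S hF hint true g ∈
      (s.1.map (s33s_rhoD G φ M p hp.out hpM (modularFunctionFieldFullC κ M) S hF hint true)) ^ k := by
  haveI : s.1.IsMaximal := s.2.1
  have hT := s59c_node_compThrough G φ M p hpM S s true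
  have hF' := s59c_node_compThrough G φ M p hpM S s false
  refine s59c_pow_mem_of_loc _
    (s33s_inst_rho_surjective G φ M p hpM S hF hint BM hBMV hαB hβB hlift htw true) s.1
    (s33s_inst_ker_le G φ M p hpM S hF hint s true) g k ?_
  exact s59c_mem_pow_of_regCross (s34m_VV G φ M p hp.out hpM) S s.1 (s34m_unif G (M * p))
    (s34m_unif_ne_zero G (M * p))
    (fun y hy => s36q_fi_gen G φ M p hp.out hpM true y hy)
    (fun Q _ => ff_ord_algebraMap Q _)
    (s33s_inst_hfin φ M p S) hT hF' (hX s.1 hT hF') g k hg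

set_option maxHeartbeats 1600000 in
include hαB hβB hlift htw in
/-- **the residue field of a node is the residue field of its branch on the `∞`-component**,
compatibly with the `κ`-structures. -/
theorem s59c_finrank_kG [Algebra κ D]
    (hκ : ∀ c : κ, algebraMap D ↥(modularFunctionFieldFullC κ M) (algebraMap κ D c) =
      algebraMap κ ↥(modularFunctionFieldFullC κ M) c)
    (s : s33s_Node (s34m_VV G φ M p hp.out hpM) (s34m_unif G (M * p)) S) :
    Module.finrank κ (s33s_kG G φ M p hpM S hπ s) =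
      Module.finrank κ (D ⧸ s.1.map
        (s33s_rhoD G φ M p hp.out hpM (modularFunctionFieldFullC κ M) S hF hint true)) := by
  haveI : s.1.IsMaximal := s.2.1
  set ρ := s33s_rhoD G φ M p hp.out hpM (modularFunctionFieldFullC κ M) S hF hint true with hρdef
  have hsurj : Function.Surjective ρ :=
    s33s_inst_rho_surjective G φ M p hpM S hF hint BM hBMV hαB hβB hlift htw true
  have hker : RingHom.ker ρ ≤ s.1 := s33s_inst_ker_le G φ M p hpM S hF hint s true
  -- `ρ (const a) = π a`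
  have hconst : ∀ a : G.A, ρ (s34f_constHom G.A (s34x_infRing (s34m_VV G φ M p hp.out hpM))
      (s34x_inf_const_mem (s34m_VV G φ M p hp.out hpM) G.A
        (s34c_const_mem_VV G φ M p hp.out hpM)) S a) = algebraMap κ D (G.π a) := by
    intro a
    apply IsFractionRing.injective D ↥(modularFunctionFieldFullC κ M)
    rw [hκ]
    exact s33s_inst_r_const G φ M p hpM S hF hint true a
  let f : s34x_ring (s34x_infRing (s34m_VV G φ M p hp.out hpM)) S →+* D ⧸ s.1.map ρ :=
    (Ideal.Quotient.mk (s.1.map ρ)).comp ρ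
  have hfs : Function.Surjective f :=
    Ideal.Quotient.mk_surjective.comp hsurj
  have hkf : RingHom.ker f = s.1 := by
    ext b
    rw [RingHom.mem_ker, RingHom.comp_apply, Ideal.Quotient.eq_zero_iff_mem]
    constructor
    · intro h
      by_contra hb
      exact s59c_not_mem_map ρ hsurj s.1 hker b hb h
    · exact fun h => Ideal.mem_map_of_mem ρ h
  let e : (s34x_ring (s34x_infRing (s34m_VV G φ M p hp.out hpM)) S ⧸ s.1) ≃+* D ⧸ s.1.map ρ :=
    (Ideal.quotEquivOfEq hkf.symm).trans (RingHom.quotientKerEquivOfSurjective hfs)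
  have he : ∀ b, e (Ideal.Quotient.mk s.1 b) = Ideal.Quotient.mk (s.1.map ρ) (ρ b) := by
    intro b
    show RingHom.quotientKerEquivOfSurjective hfs (Ideal.quotEquivOfEq hkf.symm
      (Ideal.Quotient.mk s.1 b)) = _
    rw [Ideal.quotEquivOfEq_mk, RingHom.quotientKerEquivOfSurjective_apply_mk]
    rfl
  let e' : s33s_kG G φ M p hpM S hπ s ≃ₐ[κ] D ⧸ s.1.map ρ :=
    AlgEquiv.ofRingEquiv (f := e) (by
      intro c
      obtain ⟨a, rfl⟩ := hπ c
      rw [s33s_kG_algebraMap]
      show e (Ideal.Quotient.mk s.1 _) = _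
      rw [he, hconst]
      rfl)
  exact e'.toLinearEquiv.finrank_eq

include hαB hβB hlift htw in
/-- **THE NODE COUNT in the frame of the Σ-datum.** -/
theorem s59c_count_build [Algebra κ[X] D] [Algebra κ D] [IsScalarTower κ κ[X] D]
    {ι₀ : Type*} [Finite ι₀] (b : Module.Basis ι₀ κ[X] D)
    (hκ : ∀ c : κ, algebraMap D ↥(modularFunctionFieldFullC κ M) (algebraMap κ D c) =
      algebraMap κ ↥(modularFunctionFieldFullC κ M) c)
    (hX : ∀ (𝔭 : Ideal (s34x_ring (s34x_infRing (s34m_VV G φ M p hp.out hpM)) S)) [𝔭.IsPrime],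
      s36q_compThrough (s34m_VV G φ M p hp.out hpM) S 𝔭 true →
      s36q_compThrough (s34m_VV G φ M p hp.out hpM) S 𝔭 false →
      s36q_RegCross (s34m_VV G φ M p hp.out hpM) S 𝔭 true false (s34m_unif G (M * p)))
    (g : s34x_ring (s34x_infRing (s34m_VV G φ M p hp.out hpM)) S) (k : ℕ)
    (hg : (g : s34m_F K₀ (M * p)) * (s34m_unif G (M * p) ^ k)⁻¹ ∈ s34m_Vzero G φ M p hp.out hpM)
    (P : κ[X]) (hP : P ≠ 0)
    (hgP : s33s_rhoD G φ M p hp.out hpM (modularFunctionFieldFullC κ M) S hF hint true g =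
      algebraMap κ[X] D P)
    (T : Finset (s33s_Node (s34m_VV G φ M p hp.out hpM) (s34m_unif G (M * p)) S)) :
    k * ∑ s ∈ T, Module.finrank κ (s33s_kG G φ M p hpM S hπ s) ≤ Nat.card ι₀ * P.natDegree := by
  classical
  have e : ∑ s ∈ T, Module.finrank κ (s33s_kG G φ M p hpM S hπ s) =
      ∑ s ∈ T, Module.finrank κ (D ⧸ s.1.map
        (s33s_rhoD G φ M p hp.out hpM (modularFunctionFieldFullC κ M) S hF hint true)) :=
    Finset.sum_congr rfl (fun s _ =>
      s59c_finrank_kG G φ M p hpM hπ S hF hint BM hBMV hαB hβB hlift htw hκ s)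
  rw [e]
  exact s59c_count_abs b _
    (s33s_inst_rho_surjective G φ M p hpM S hF hint BM hBMV hαB hβB hlift htw true) g P hP hgP T
    (fun s => s.1) (fun s _ => s.2.1)
    (fun s _ => s33s_inst_ker_le G φ M p hpM S hF hint s true)
    (fun s _ s' _ hne h => hne (Subtype.ext h)) k
    (fun s _ => s59c_rho_pow_mem G φ M p hpM S hF hint BM hBMV hαB hβB hlift htw hX s g k hg)

end Build

end Fermat.Agent.Lib.S59
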