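/-
Programme (R2-bg), node [CAR]/(R1), helper8 (prefix `s59c_`), part 3: **THE ELEMENT `G₂ = g₀⁻¹ ϖ⁶` OF THE
CHART RING** of `X₀(M q)` (`q ≥ 5`, `q ∤ M`, UNRAMIFIED base `ϖ = q`), `g₀ = s44e_g0` the modular unit
`q⁶ Δ(q z)/Δ(z)`.

* `s59c_G2`            : the element (depends on the function `h` with `d j_q = h • d j`);
* `s59c_G2_Vinf`       : `G₂` is a unit of `V_∞`;
* `s59c_G2_Vzero_div`  : `G₂ / ϖ¹² ∈ V_0`;
* `s59c_G2_mem_ring`   : `G₂` lies in the chart ring of the `j`-chart;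
* `s59c_G2_coe`        : the `q`-expansion of `G₂` (level independent).
-/
import Fermat.Agent.Lib.S44.EUnit
import Fermat.Agent.Lib.S34.DFibre
import Fermat.Agent.Lib.S34.XKron
import Fermat.Agent.Lib.S44.RAnDict

set_option autoImplicit false
set_option linter.unusedSectionVars false
set_option linter.style.haveILetI false
set_option synthInstance.maxHeartbeats 200000

noncomputable section

namespace Fermat.Agent.Lib.S59

open AlgebraicCurve ModularCurve KaehlerDifferential HahnSeries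
open Fermat.Agent.Lib.FF Fermat.Agent.Lib.S18 Fermat.Agent.Lib.S37 Fermat.Agent.Lib.S36
  Fermat.Agent.Lib.S34 Fermat.Agent.Lib.S44

local notation "Kb" => AlgebraicClosure ℚ

variable {K₀ : Type*} [Field K₀] [CharZero K₀] [Algebra ℚ K₀] {κ : Type*} [Field κ]
  (G : s18g_GaussData K₀ κ) (φ : K₀ →+* Kb) (M q : ℕ) [NeZero M] [NeZero q]
  (hq : q.Prime) (hqM : ¬ q ∣ M)

local notation "𝓕" => s34m_F K₀ (M * q)
local notation "jA" => heckeAlphaBar K₀ M q (s18g_jF (K := K₀) M)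
local notation "jB" => heckeBetaBar K₀ M q (s18g_jF (K := K₀) M)

/-- **`G₂ = g₀⁻¹ ϖ⁶`.** -/
def s59c_G2 (h : 𝓕) : 𝓕 := (s44e_g0 M q h)⁻¹ * s34m_unif G (M * q) ^ 6

variable (hϖ : ((G.ϖ : G.A) : K₀) = (q : K₀))

include hϖ in
theorem s59c_unif_eq : s34m_unif G (M * q) = algebraMap K₀ 𝓕 ((q : ℕ) : K₀) := by
  rw [s34m_unif, hϖ]

include hq hqM φ hϖ in
/-- `G₂` is a unit of `V_∞`. -/
theorem s59c_G2_Vinf (h : 𝓕) (hrel : D K₀ 𝓕 (jB : 𝓕) = h • D K₀ 𝓕 (jA : 𝓕)) :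
    s59c_G2 G M q h ∈ s34m_Vinf G (M * q) ∧ (s59c_G2 G M q h)⁻¹ ∈ s34m_Vinf G (M * q) := by
  obtain ⟨h1, h2⟩ := s44e_g0_Vinf G φ M q hq hqM h hrel
  have e : s59c_G2 G M q h =
      (s44e_g0 M q h * (algebraMap K₀ 𝓕 ((q : ℕ) : K₀) ^ 6)⁻¹)⁻¹ := by
    rw [s59c_G2, s59c_unif_eq G M q hϖ, mul_inv, inv_inv]
  rw [e, inv_inv]
  exact ⟨h2, h1⟩

include hq hqM φ hϖ in
/-- `G₂ / ϖ¹² ∈ V_0`. -/
theorem s59c_G2_Vzero_div (h : 𝓕) (hrel : D K₀ 𝓕 (jB : 𝓕) = h • D K₀ 𝓕 (jA : 𝓕)) :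
    s59c_G2 G M q h * (s34m_unif G (M * q) ^ 12)⁻¹ ∈ s34m_Vzero G φ M q hq hqM := by
  obtain ⟨-, h2⟩ := s44e_g0_Vzero G φ M q hq hqM h hrel
  have hϖ0 := s34m_unif_ne_zero G (M * q)
  have e : s59c_G2 G M q h * (s34m_unif G (M * q) ^ 12)⁻¹ =
      (s44e_g0 M q h * algebraMap K₀ 𝓕 ((q : ℕ) : K₀) ^ 6)⁻¹ := by
    rw [s59c_G2, ← s59c_unif_eq G M q hϖ, mul_inv]
    have h6 := pow_ne_zero 6 hϖ0
    have h12 := pow_ne_zero 12 hϖ0
    field_simp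
  rw [e]
  exact h2

include hq hqM φ hϖ in
/-- `G₂ ∈ V_0`. -/
theorem s59c_G2_Vzero (h : 𝓕) (hrel : D K₀ 𝓕 (jB : 𝓕) = h • D K₀ 𝓕 (jA : 𝓕)) :
    s59c_G2 G M q h ∈ s34m_Vzero G φ M q hq hqM := by
  have h1 := s59c_G2_Vzero_div G φ M q hq hqM hϖ h hrel
  have hϖ0 := s34m_unif_ne_zero G (M * q)
  have e : s59c_G2 G M q h =
      s59c_G2 G M q h * (s34m_unif G (M * q) ^ 12)⁻¹ * s34m_unif G (M * q) ^ 12 := by
    have h12 := pow_ne_zero 12 hϖ0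
    field_simp
  rw [e]
  exact mul_mem h1 (pow_mem (s34c_const_mem_VV G φ M q hq hqM false G.ϖ) 12)

include hq hqM φ in
theorem s59c_G2_ne_zero (h : 𝓕) (hrel : D K₀ 𝓕 (jB : 𝓕) = h • D K₀ 𝓕 (jA : 𝓕)) :
    s59c_G2 G M q h ≠ 0 :=
  mul_ne_zero (inv_ne_zero (s44e_g0_ne_zero φ M q hq hqM h hrel))
    (pow_ne_zero 6 (s34m_unif_ne_zero G (M * q)))

include hq hqM φ in
/-- `ord_Q G₂ = 0` on the `j`-chart. -/
theorem s59c_G2_ord (h5 : 5 ≤ q) (h : 𝓕) (hrel : D K₀ 𝓕 (jB : 𝓕) = h • D K₀ 𝓕 (jA : 𝓕))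
    (Q : Place K₀ 𝓕) (hQ : Q ∈ s18_chart1 (L₀ := K₀) (s18g_jF (K := K₀) (M * q))) :
    Q.ord (s59c_G2 G M q h) = 0 := by
  have hj0 : s18g_jF (K := K₀) (M * q) ≠ 0 := s18g_jF_ne_zero (M * q)
  have hreg : 0 ≤ Q.ord (s18g_jF (K := K₀) (M * q)) := (ff_mem_iff_ord_nonneg Q hj0).mp hQ
  have h1 := s44e_g0_ord φ M q hq hqM h5 h hrel Q hreg
  have hg0 := s44e_g0_ne_zero φ M q hq hqM h hrel
  have hϖ0 := s34m_unif_ne_zero G (M * q)
  rw [s59c_G2, Q.ord_mul (inv_ne_zero hg0) (pow_ne_zero 6 hϖ0), Q.ord_inv, h1, s44e_ord_pow,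
    s34m_unif, ff_ord_algebraMap]
  simp

include hq hqM φ hϖ in
/-- **`G₂` lies in the chart ring of the `j`-chart.** -/
theorem s59c_G2_mem_ring (h5 : 5 ≤ q) (h : 𝓕)
    (hrel : D K₀ 𝓕 (jB : 𝓕) = h • D K₀ 𝓕 (jA : 𝓕)) :
    s59c_G2 G M q h ∈ s34x_ring (s34x_infRing (s34m_VV G φ M q hq hqM))
      (s18_chart1 (L₀ := K₀) (s18g_jF (K := K₀) (M * q))) := by
  refine ⟨(s34df_mem_O_iff G φ M q hq hqM _).mpr
    ⟨(s59c_G2_Vinf G φ M q hq hqM hϖ h hrel).1, s59c_G2_Vzero G φ M q hq hqM hϖ h hrel⟩,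
    fun Q hQ => ?_⟩
  rw [ff_mem_iff_ord_nonneg Q (s59c_G2_ne_zero G φ M q hq hqM h hrel),
    s59c_G2_ord G φ M q hq hqM h5 h hrel Q hQ]

/-! ### The `q`-expansion of `G₂` and its order -/

section Order

variable {K : Type*} [Field K]

theorem s59c_order_inv (x : LaurentSeries K) (hx : x ≠ 0) : x⁻¹.order = -x.order := by
  have h := HahnSeries.order_mul hx (inv_ne_zero hx)
  rw [mul_inv_cancel₀ hx, HahnSeries.order_one] at h
  omega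

theorem s59c_order_jq_sub (c : K) : (jqModC K - HahnSeries.C c).order = -1 := by
  have hne : jqModC K - HahnSeries.C c ≠ 0 := s44e_jq_sub_ne_zero K c
  have hC : ∀ n : ℤ, n < 0 → (HahnSeries.C c : LaurentSeries K).coeff n = 0 := fun n hn => by
    rw [HahnSeries.C_apply, HahnSeries.coeff_single_of_ne (by omega)]
  apply le_antisymm
  · apply HahnSeries.order_le_of_coeff_ne_zero
    rw [HahnSeries.coeff_sub, coeff_jqModC_neg_one, hC _ (by norm_num), sub_zero]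
    exact one_ne_zero
  · rw [HahnSeries.le_order_iff_forall hne]
    intro n hn
    rw [HahnSeries.coeff_sub, coeff_jqModC_of_lt K hn, hC n (by omega), sub_zero]

/-- `X = j⁴ (j - 1728)³` has order `-7`. -/
theorem s59c_order_X (c : K) :
    (jqModC K ^ 4 * (jqModC K - HahnSeries.C c) ^ 3).order = -7 := by
  have h1 : jqModC K ≠ 0 := jqModC_ne_zero_of_nontrivial K
  have h2 : jqModC K - HahnSeries.C c ≠ 0 := s44e_jq_sub_ne_zero K c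
  rw [HahnSeries.order_mul (pow_ne_zero 4 h1) (pow_ne_zero 3 h2), HahnSeries.order_pow,
    HahnSeries.order_pow, s18t_order_jqModC, s59c_order_jq_sub]
  norm_num

end Order

theorem s59c_coe_X (N : ℕ) [NeZero N] :
    ((s44e_X K₀ N : s34m_F K₀ N) : LaurentSeries K₀) =
      jqModC K₀ ^ 4 * (jqModC K₀ - HahnSeries.C (1728 : K₀)) ^ 3 := by
  rw [s44e_X]
  push_cast
  rw [s18g_coe_jF, algebraMap_laurentSeries_eq_single]
  rfl

/-- the `q`-expansion of `h` is `θ(j(T^q)) / θ j`: its order is `1 - q`. -/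
theorem s59c_order_h (h : 𝓕) (hrel : D K₀ 𝓕 (jB : 𝓕) = h • D K₀ 𝓕 (jA : 𝓕)) :
    ((h : 𝓕) : LaurentSeries K₀).order = 1 - (q : ℤ) := by
  have hθ := s36r_theta_of_D (laurentBaseChange K₀ (modularFunctionFieldFull (M * q))) hrel
  rw [s44e_coe_jA, s44e_coe_jB] at hθ
  have hq0 : (0 : ℤ) < q := by exact_mod_cast Nat.pos_of_ne_zero (NeZero.ne q)
  have hj0 : jqModC K₀ ≠ 0 := jqModC_ne_zero_of_nontrivial K₀
  have ho1 : (qExpand K₀ q (jqModC K₀)).order = -(q : ℤ) := by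
    rw [s34x_order_qExpand q hj0, s18t_order_jqModC]; ring
  have ho2 : (ffd_theta (qExpand K₀ q (jqModC K₀))).order = -(q : ℤ) := by
    rw [s44r_order_theta (by rw [ho1]; omega), ho1]
  have ho3 : (ffd_theta (jqModC K₀)).order = -1 := by
    rw [s44r_order_theta (by rw [s18t_order_jqModC]; omega), s18t_order_jqModC]
  have hθj0 : ffd_theta (jqModC K₀) ≠ 0 := s44e_theta_jq_ne_zero K₀
  have hh0 : ((h : 𝓕) : LaurentSeries K₀) ≠ 0 := by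
    intro h0
    rw [h0, zero_mul] at hθ
    rw [hθ, HahnSeries.order_zero] at ho2
    omega
  have := HahnSeries.order_mul hh0 hθj0
  rw [← hθ, ho2, ho3] at this
  omega

include hq hqM φ in
/-- **the order of the `q`-expansion of `G₂` is `1 - q`.** -/
theorem s59c_G2_order (h : 𝓕) (hrel : D K₀ 𝓕 (jB : 𝓕) = h • D K₀ 𝓕 (jA : 𝓕)) :
    ((s59c_G2 G M q h : 𝓕) : LaurentSeries K₀).order = 1 - (q : ℤ) := by
  have hq0 : (0 : ℤ) < q := by exact_mod_cast Nat.pos_of_ne_zero (NeZero.ne q)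
  have hh := s44e_h_ne_zero φ M q hq hqM h hrel
  have hh0 : ((h : 𝓕) : LaurentSeries K₀) ≠ 0 := fun h0 => hh (Subtype.ext h0)
  have hX0 : jqModC K₀ ^ 4 * (jqModC K₀ - HahnSeries.C (1728 : K₀)) ^ 3 ≠ 0 :=
    mul_ne_zero (pow_ne_zero 4 (jqModC_ne_zero_of_nontrivial K₀))
      (pow_ne_zero 3 (s44e_jq_sub_ne_zero K₀ _))
  have hXq0 : qExpand K₀ q (jqModC K₀ ^ 4 * (jqModC K₀ - HahnSeries.C (1728 : K₀)) ^ 3) ≠ 0 :=
    fun h0 => hX0 (s34m_qExpand_injective K₀ q (by rw [h0, map_zero]))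
  have hϖ0 : (HahnSeries.C ((G.ϖ : G.A) : K₀) : LaurentSeries K₀) ≠ 0 := by
    rw [Ne, ← s34m_coe_unif G (M * q)]
    exact fun h0 => s34m_unif_ne_zero G (M * q) (Subtype.ext h0)
  have ecoe : ((s59c_G2 G M q h : 𝓕) : LaurentSeries K₀) =
      (((h : 𝓕) : LaurentSeries K₀) ^ 6 *
        (jqModC K₀ ^ 4 * (jqModC K₀ - HahnSeries.C (1728 : K₀)) ^ 3 *
          (qExpand K₀ q (jqModC K₀ ^ 4 * (jqModC K₀ - HahnSeries.C (1728 : K₀)) ^ 3))⁻¹))⁻¹ *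
        (HahnSeries.C ((G.ϖ : G.A) : K₀)) ^ 6 := by
    rw [s59c_G2, s44e_g0]
    push_cast
    rw [coe_heckeAlphaBar, coe_heckeBetaBar, s59c_coe_X, s34m_coe_unif]
  rw [ecoe, HahnSeries.order_mul (inv_ne_zero (mul_ne_zero (pow_ne_zero 6 hh0)
      (mul_ne_zero hX0 (inv_ne_zero hXq0)))) (pow_ne_zero 6 hϖ0),
    s59c_order_inv _ (mul_ne_zero (pow_ne_zero 6 hh0) (mul_ne_zero hX0 (inv_ne_zero hXq0))),
    HahnSeries.order_mul (pow_ne_zero 6 hh0) (mul_ne_zero hX0 (inv_ne_zero hXq0)),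
    HahnSeries.order_mul hX0 (inv_ne_zero hXq0), s59c_order_inv _ hXq0,
    s34x_order_qExpand q hX0, s59c_order_X, HahnSeries.order_pow, HahnSeries.order_pow,
    s59c_order_h M q h hrel, HahnSeries.order_C]
  simp only [smul_eq_mul, nsmul_eq_mul]
  push_cast
  ring

/-- the `q`-expansion of `h`. -/
theorem s59c_coe_h (h : 𝓕) (hrel : D K₀ 𝓕 (jB : 𝓕) = h • D K₀ 𝓕 (jA : 𝓕)) :
    ((h : 𝓕) : LaurentSeries K₀) =
      ffd_theta (qExpand K₀ q (jqModC K₀)) * (ffd_theta (jqModC K₀))⁻¹ := by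
  have hθ := s36r_theta_of_D (laurentBaseChange K₀ (modularFunctionFieldFull (M * q))) hrel
  rw [s44e_coe_jA, s44e_coe_jB] at hθ
  rw [hθ, mul_assoc, mul_inv_cancel₀ (s44e_theta_jq_ne_zero K₀), mul_one]

/-- **the `q`-expansion of `G₂`** (visibly independent of the level `M`). -/
theorem s59c_G2_coe (h : 𝓕) (hrel : D K₀ 𝓕 (jB : 𝓕) = h • D K₀ 𝓕 (jA : 𝓕)) :
    ((s59c_G2 G M q h : 𝓕) : LaurentSeries K₀) =
      ((ffd_theta (qExpand K₀ q (jqModC K₀)) * (ffd_theta (jqModC K₀))⁻¹) ^ 6 *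
        (jqModC K₀ ^ 4 * (jqModC K₀ - HahnSeries.C (1728 : K₀)) ^ 3 *
          (qExpand K₀ q (jqModC K₀ ^ 4 * (jqModC K₀ - HahnSeries.C (1728 : K₀)) ^ 3))⁻¹))⁻¹ *
        (HahnSeries.C ((G.ϖ : G.A) : K₀)) ^ 6 := by
  rw [← s59c_coe_h M q h hrel, s59c_G2, s44e_g0]
  push_cast
  rw [coe_heckeAlphaBar, coe_heckeBetaBar, s59c_coe_X, s34m_coe_unif]

end Fermat.Agent.Lib.S59
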