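/-
Programme (R2-bg), node [CAR]/(R1), helper8 (prefix `s59c_`), part 4: **THE REDUCTION OF THE
`q`-EXPANSION OF `G₂`** (unramified base, `ϖ = q`).

`Yser G q` is the explicit Laurent series of `G₂` (`s59c_G2_coe`).  It lies in the Gauss ring and its
reduction `L` satisfies `L · (ā⁶ X̄) = X̄(T^q)`, `ā · θ j̄ = (θ j̄)(T^q)`; hence `L ≠ 0` has order `1 - q`
(`s59c_red_Yser_order`).
-/
import Fermat.Agent.Lib.S59.CNodeUnit

set_option autoImplicit false
set_option linter.unusedSectionVars false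
set_option linter.style.haveILetI false
set_option synthInstance.maxHeartbeats 200000

noncomputable section

namespace Fermat.Agent.Lib.S59

open AlgebraicCurve ModularCurve KaehlerDifferential HahnSeries
open Fermat.Agent.Lib.FF Fermat.Agent.Lib.S18 Fermat.Agent.Lib.S37 Fermat.Agent.Lib.S36
  Fermat.Agent.Lib.S34 Fermat.Agent.Lib.S44

section Series

variable {k : Type*} [Field k]

/-- `θ j` has order `-1` over any field. -/
theorem s59c_order_theta_jq : (ffd_theta (jqModC k)).order = -1 := by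
  have hc : (ffd_theta (jqModC k)).coeff (-1) ≠ 0 := by
    rw [ffd_theta_coeff, coeff_jqModC_neg_one, mul_one]
    norm_num
  have hne : ffd_theta (jqModC k) ≠ 0 := HahnSeries.ne_zero_of_coeff_ne_zero hc
  refine le_antisymm (HahnSeries.order_le_of_coeff_ne_zero hc) ?_
  rw [HahnSeries.le_order_iff_forall hne]
  intro n hn
  rw [ffd_theta_coeff, coeff_jqModC_of_lt k hn, mul_zero]

end Series

variable {K₀ : Type*} [Field K₀] [CharZero K₀] [Algebra ℚ K₀] {κ : Type*} [Field κ]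
  (G : s18g_GaussData K₀ κ) (q : ℕ) [NeZero q]

/-- the explicit `q`-expansion of `G₂`. -/
def s59c_Yser : LaurentSeries K₀ :=
  ((ffd_theta (qExpand K₀ q (jqModC K₀)) * (ffd_theta (jqModC K₀))⁻¹) ^ 6 *
    (jqModC K₀ ^ 4 * (jqModC K₀ - HahnSeries.C (1728 : K₀)) ^ 3 *
      (qExpand K₀ q (jqModC K₀ ^ 4 * (jqModC K₀ - HahnSeries.C (1728 : K₀)) ^ 3))⁻¹))⁻¹ *
    (HahnSeries.C ((G.ϖ : G.A) : K₀)) ^ 6

variable (hϖ : ((G.ϖ : G.A) : K₀) = (q : K₀))

include hϖ in
/-- **the reduction of the `q`-expansion of `G₂`**: it lies in the Gauss ring, and its reduction is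
nonzero of order `1 - q`. -/
theorem s59c_red_Yser :
    ∃ hY : s59c_Yser G q ∈ s18g_O G,
      s18g_red G ⟨s59c_Yser G q, hY⟩ ≠ 0 ∧
        (s18g_red G ⟨s59c_Yser G q, hY⟩).order = 1 - (q : ℤ) := by
  have hq0 : (0 : ℤ) < q := by exact_mod_cast Nat.pos_of_ne_zero (NeZero.ne q)
  have hqK : ((q : ℕ) : K₀) ≠ 0 := by exact_mod_cast NeZero.ne q
  -- the elements of the Gauss ring
  set jO : s18g_O G := ⟨jqModC K₀, s18g_jq_mem_O G⟩ with hjO
  have hjred : s18g_red G jO = jqModC κ := s18g_red_jq G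
  have hc : (HahnSeries.C (1728 : K₀) : LaurentSeries K₀) ∈ s18g_O G := by
    have := s18g_C_mem_O G (1728 : G.A)
    rwa [s44e_coe_1728] at this
  set cO : s18g_O G := ⟨HahnSeries.C (1728 : K₀), hc⟩ with hcO
  have hcred : s18g_red G cO = HahnSeries.C (1728 : κ) := by
    have h1 := s18g_red_C G (1728 : G.A)
    have e : (⟨HahnSeries.C (((1728 : G.A) : G.A) : K₀), s18g_C_mem_O G (1728 : G.A)⟩ :
        s18g_O G) = cO := Subtype.ext (congrArg HahnSeries.C (s44e_coe_1728 G))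
    rw [e] at h1
    rw [h1, map_ofNat]
  set XO : s18g_O G := jO ^ 4 * (jO - cO) ^ 3 with hXO
  have hXcoe : (XO : LaurentSeries K₀) =
      jqModC K₀ ^ 4 * (jqModC K₀ - HahnSeries.C (1728 : K₀)) ^ 3 := rfl
  have hXred : s18g_red G XO =
      jqModC κ ^ 4 * (jqModC κ - HahnSeries.C (1728 : κ)) ^ 3 := by
    rw [hXO, map_mul, map_pow, map_pow, map_sub, hjred, hcred]
  have hXbar0 : jqModC κ ^ 4 * (jqModC κ - HahnSeries.C (1728 : κ)) ^ 3 ≠ 0 :=
    mul_ne_zero (pow_ne_zero 4 (jqModC_ne_zero_of_nontrivial κ))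
      (pow_ne_zero 3 (s44e_jq_sub_ne_zero κ _))
  set XqO : s18g_O G := ⟨qExpand K₀ q (XO : LaurentSeries K₀), s34m_qExpand_mem_O G q XO.2⟩
    with hXqO
  have hXqred : s18g_red G XqO =
      qExpand κ q (jqModC κ ^ 4 * (jqModC κ - HahnSeries.C (1728 : κ)) ^ 3) := by
    rw [hXqO, s34m_red_qExpand G q XO, hXred]
  set θO : s18g_O G := ⟨ffd_theta (jqModC K₀), s36r_theta_mem_O G jO.2⟩ with hθO
  have hθred : s18g_red G θO = ffd_theta (jqModC κ) := by
    rw [hθO, s36r_red_theta G jO, hjred]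
  have hθbar0 : ffd_theta (jqModC κ) ≠ 0 := s44e_theta_jq_ne_zero κ
  set θqO : s18g_O G := ⟨qExpand K₀ q (θO : LaurentSeries K₀), s34m_qExpand_mem_O G q θO.2⟩
    with hθqO
  have hθqred : s18g_red G θqO = qExpand κ q (ffd_theta (jqModC κ)) := by
    rw [hθqO, s34m_red_qExpand G q θO, hθred]
  have hθ0 : ffd_theta (jqModC K₀) ≠ 0 := s44e_theta_jq_ne_zero K₀
  -- `a = (θ j)(T^q) / θ j`
  set a : LaurentSeries K₀ := qExpand K₀ q (ffd_theta (jqModC K₀)) * (ffd_theta (jqModC K₀))⁻¹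
    with ha
  have haθ : a * (θO : LaurentSeries K₀) = (θqO : LaurentSeries K₀) := by
    show a * ffd_theta (jqModC K₀) = qExpand K₀ q (ffd_theta (jqModC K₀))
    rw [ha, mul_assoc, inv_mul_cancel₀ hθ0, mul_one]
  obtain ⟨haO, hared⟩ := s36r_div_mem_O G θqO θO (by rw [hθred]; exact hθbar0) a haθ
  rw [hθred, hθqred] at hared
  set aO : s18g_O G := ⟨a, haO⟩ with haOdef
  have habar0 : s18g_red G aO ≠ 0 := by
    intro h0
    rw [h0, zero_mul] at hared
    exact hθbar0 (s34m_qExpand_injective κ q (by rw [← hared, map_zero]))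
  -- `U = a⁶ X`
  set UO : s18g_O G := aO ^ 6 * XO with hUO
  have hUred : s18g_red G UO = s18g_red G aO ^ 6 *
      (jqModC κ ^ 4 * (jqModC κ - HahnSeries.C (1728 : κ)) ^ 3) := by
    rw [hUO, map_mul, map_pow, hXred]
  have hUbar0 : s18g_red G UO ≠ 0 := by
    rw [hUred]; exact mul_ne_zero (pow_ne_zero 6 habar0) hXbar0
  -- `Yser * U = Xq`
  have hX0 : jqModC K₀ ^ 4 * (jqModC K₀ - HahnSeries.C (1728 : K₀)) ^ 3 ≠ 0 :=
    mul_ne_zero (pow_ne_zero 4 (jqModC_ne_zero_of_nontrivial K₀))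
      (pow_ne_zero 3 (s44e_jq_sub_ne_zero K₀ _))
  have hXq0 : qExpand K₀ q (jqModC K₀ ^ 4 * (jqModC K₀ - HahnSeries.C (1728 : K₀)) ^ 3) ≠ 0 :=
    fun h0 => hX0 (s34m_qExpand_injective K₀ q (by rw [h0, map_zero]))
  have hCq0 : (HahnSeries.C ((q : ℕ) : K₀) : LaurentSeries K₀) ≠ 0 := by
    rw [Ne, map_eq_zero]; exact hqK
  have hθq : ffd_theta (qExpand K₀ q (jqModC K₀)) =
      HahnSeries.C ((q : ℕ) : K₀) * qExpand K₀ q (ffd_theta (jqModC K₀)) := by
    rw [s36r_theta_qExpand, HahnSeries.C_mul_eq_smul]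
  have ha0 : a ≠ 0 := by
    intro h0
    apply habar0
    have : aO = 0 := Subtype.ext h0
    rw [this, map_zero]
  have hYU : s59c_Yser G q * (UO : LaurentSeries K₀) = (XqO : LaurentSeries K₀) := by
    show s59c_Yser G q * (a ^ 6 * (jqModC K₀ ^ 4 * (jqModC K₀ - HahnSeries.C (1728 : K₀)) ^ 3)) =
      qExpand K₀ q (jqModC K₀ ^ 4 * (jqModC K₀ - HahnSeries.C (1728 : K₀)) ^ 3)
    rw [s59c_Yser, hϖ, hθq, mul_assoc (HahnSeries.C ((q : ℕ) : K₀)), ← ha]
    generalize jqModC K₀ ^ 4 * (jqModC K₀ - HahnSeries.C (1728 : K₀)) ^ 3 = X at hX0 hXq0 ⊢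
    generalize qExpand K₀ q X = Xq at hXq0 ⊢
    have h6 := pow_ne_zero 6 ha0
    have hC6 := pow_ne_zero 6 hCq0
    field_simp
  obtain ⟨hY, hYred⟩ := s36r_div_mem_O G XqO UO hUbar0 (s59c_Yser G q) hYU
  rw [hXqred, hUred] at hYred
  refine ⟨hY, ?_, ?_⟩
  · intro h0
    rw [h0, zero_mul] at hYred
    exact hXbar0 (s34m_qExpand_injective κ q (by rw [← hYred, map_zero]))
  · have hL0 : s18g_red G ⟨s59c_Yser G q, hY⟩ ≠ 0 := by
      intro h0
      rw [h0, zero_mul] at hYred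
      exact hXbar0 (s34m_qExpand_injective κ q (by rw [← hYred, map_zero]))
    -- orders
    have o1 : (s18g_red G aO).order = 1 - (q : ℤ) := by
      have := HahnSeries.order_mul habar0 hθbar0
      rw [hared, s34x_order_qExpand q hθbar0, s59c_order_theta_jq] at this
      omega
    have o2 := HahnSeries.order_mul hL0 (mul_ne_zero (pow_ne_zero 6 habar0) hXbar0)
    rw [hYred, s34x_order_qExpand q hXbar0, s59c_order_X,
      HahnSeries.order_mul (pow_ne_zero 6 habar0) hXbar0, HahnSeries.order_pow, o1,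
      s59c_order_X] at o2
    simp only [nsmul_eq_mul] at o2
    push_cast at o2
    linarith

end Fermat.Agent.Lib.S59
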