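/-
Programme (R2-bg), node [CAR]/(R1), helper8 (prefix `s59c_`), part 5: **THE REDUCTION OF `G₂` IS A
POLYNOMIAL OF DEGREE `q - 1` IN `j̄`** (the supersingular polynomial to the power `12 / w`).

Level `(1, q)`: `G₂` is an element of the chart ring of `X₀(q)`, its `∞`-reduction lies in the integral
closure `D₁` of `κ[j̄]` in `F̄₁` (`s33s_w_hint`), and `D₁` is free of rank `ψ(1) = 1` over `κ[X]`
(`s18g_deg_j`), hence `D₁ = κ[j̄]`.  The degree is minus the order of the `q`-expansion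
(`s59c_red_Yser`).

* `s59c_order_aeval_jq` : `order P(j̄) = - deg P`;
* `s59c_rank_one`        : a domain with a `κ[X]`-basis indexed by a `Unique` type is `κ[X]`;
* **`s59c_red_Yser_poly`** : `red (Yser) = P(j̄)`, `deg P = q - 1`.
-/
import Fermat.Agent.Lib.S59.CNodeRed
import Fermat.Agent.Lib.S33.SSFive
import Fermat.Agent.Lib.S28.VTrans
import Fermat.Agent.Lib.S34.RDegH
import Fermat.Agent.Lib.S34.FFive

set_option autoImplicit false
set_option linter.unusedSectionVars false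
set_option linter.style.haveILetI false
set_option synthInstance.maxHeartbeats 400000

noncomputable section

namespace Fermat.Agent.Lib.S59

open AlgebraicCurve ModularCurve KaehlerDifferential HahnSeries Polynomial
open Fermat.Agent.Lib.FF Fermat.Agent.Lib.S18 Fermat.Agent.Lib.S37 Fermat.Agent.Lib.S36
  Fermat.Agent.Lib.S34 Fermat.Agent.Lib.S44 Fermat.Agent.Lib.S33 Fermat.Agent.Lib.S28

local notation "Kb" => AlgebraicClosure ℚ

section Order

variable (k : Type*) [Field k]

/-- `order P(j̄) = - deg P`. -/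
theorem s59c_order_aeval_jq {P : k[X]} (hP : P ≠ 0) :
    (Polynomial.aeval (jqModC k) P).order = -(P.natDegree : ℤ) := by
  have hQ : PowerSeries.constantCoeff ((jNum.map (Int.castRingHom k))) = 1 := by
    rw [← PowerSeries.coeff_zero_eq_constantCoeff_apply, PowerSeries.coeff_map,
      PowerSeries.coeff_zero_eq_constantCoeff_apply, constantCoeff_jNum, map_one]
  rw [s28v_jqModC_eq_pole]
  have h1 := s28c_aeval_pole_coeff_lead 1 le_rfl _ hQ P
  rw [one_mul] at h1
  have hc : (Polynomial.aeval (s28c_pole 1 (jNum.map (Int.castRingHom k))) P).coeff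
      (-(P.natDegree : ℤ)) ≠ 0 := by
    rw [h1]; exact Polynomial.leadingCoeff_ne_zero.mpr hP
  have hne := HahnSeries.ne_zero_of_coeff_ne_zero hc
  refine le_antisymm (HahnSeries.order_le_of_coeff_ne_zero hc) ?_
  rw [HahnSeries.le_order_iff_forall hne]
  intro n hn
  exact s28c_aeval_pole_coeff_of_lt 1 _ P (by rw [one_mul]; exact hn)

end Order

section RankOne

variable {k E ι : Type*} [Field k] [CommRing E] [IsDomain E] [Algebra k[X] E] [Unique ι]

/-- a domain with a one-element `k[X]`-basis is `k[X]`. -/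
theorem s59c_rank_one (bt : Module.Basis ι k[X] E) (d : E) :
    ∃ P : k[X], d = algebraMap k[X] E P := by
  have hrep : ∀ x : E, x = bt.repr x default • bt default := fun x => by
    conv_lhs => rw [← bt.sum_repr x]
    rw [Fintype.sum_unique]
  have hb0 : bt default ≠ 0 := bt.ne_zero default
  have h1 := hrep (bt default * bt default)
  rw [Algebra.smul_def] at h1
  have hb : bt default = algebraMap k[X] E (bt.repr (bt default * bt default) default) :=
    mul_right_cancel₀ hb0 h1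
  refine ⟨bt.repr d default * bt.repr (bt default * bt default) default, ?_⟩
  rw [map_mul, ← hb, ← Algebra.smul_def]
  exact hrep d

end RankOne

section Main

variable (q : ℕ) [NeZero q] (hq : q.Prime) (h5 : 5 ≤ q)
  (K₀ : Type) [Field K₀] [NumberField K₀] (φ : K₀ →+* Kb)
  (κ : Type) [Field κ] [CharP κ q] [PerfectField κ]
  (G : s18g_GaussData K₀ κ) [IsDiscreteValuationRing G.A] (hπ : Function.Surjective G.π)
  (hϖ : ((G.ϖ : G.A) : K₀) = (q : K₀))

include hq h5 φ hπ hϖ in
/-- **the reduction of the `q`-expansion of `G₂` is a polynomial of degree `q - 1` in `j̄`.** -/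
theorem s59c_red_Yser_poly :
    ∃ P : κ[X], P.natDegree = q - 1 ∧ ∀ hY : s59c_Yser G q ∈ s18g_O G,
      s18g_red G ⟨s59c_Yser G q, hY⟩ = Polynomial.aeval (jqModC κ) P := by
  haveI : Fact q.Prime := ⟨hq⟩
  have hq1 : ¬ q ∣ 1 := fun h => hq.one_lt.ne' (Nat.dvd_one.mp h)
  have hT : s18g_HT κ 1 := s18t_indep_j q 1 hq1 κ
  have hdegM : s18g_HDeg K₀ 1 := fun _ b hb hn => s18g_exists_relation 1 φ hn b hb
  have hdeg : s34m_HDeg K₀ 1 q := s34r_deg_HDeg φ 1 q hq hq1
  have hFM : ∀ f ∈ laurentBaseChange K₀ (modularFunctionFieldFull 1), f ∈ s18g_Frac G :=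
    fun f hf => s18g_baseChange_mem_Frac G 1 hf
  haveI : FFGen K₀ (s18g_jF (K := K₀) (1 * q)) :=
    s18b_ffGen_jF (1 * q) (fun n b hb hn => s18g_exists_relation (1 * q) φ hn b hb)
  obtain ⟨h, hrel⟩ := s36r_exists_D_eq (laurentBaseChange K₀ (modularFunctionFieldFull (1 * q)))
    (s18g_jF (K := K₀) (1 * q)) (heckeBetaBar K₀ 1 q (s18g_jF (K := K₀) 1))
    (heckeAlphaBar K₀ 1 q (s18g_jF (K := K₀) 1)) (s44e_theta_jA_ne_zero 1 q)
  have hmem := s59c_G2_mem_ring G φ 1 q hq hq1 hϖ h5 h hrel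
  have hcoe : ((s59c_G2 G 1 q h : s34m_F K₀ (1 * q)) : LaurentSeries K₀) = s59c_Yser G q :=
    s59c_G2_coe G 1 q h hrel
  obtain ⟨hY0, hL0, hLord⟩ := s59c_red_Yser G q hϖ
  letI algF := s18f_algF G 1 hT hdegM (s18g_jF (K := K₀) 1) (s18g_jF_mem_V G 1 hFM)
  have hA : ∀ p : κ[X], algebraMap κ[X] ↥(modularFunctionFieldFullC κ 1) p =
      Polynomial.aeval (s18g_redF G 1 hFM hT hdegM ⟨s18g_jF (K := K₀) 1, s18g_jF_mem_V G 1 hFM⟩) p :=
    s18f_algF_apply G 1 hT hdegM _ (s18g_jF_mem_V G 1 hFM)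
  have hred1 : s18g_redF G 1 hFM hT hdegM ⟨s18g_jF (K := K₀) 1, s18g_jF_mem_V G 1 hFM⟩ =
      s18g_jFbar κ 1 := s18g_redF_jV G 1 hFM hT hdegM
  obtain ⟨d, hd⟩ := s33s_w_hint G φ 1 q hq1 hdeg hT hdegM (s18g_jF (K := K₀) 1)
    (s18g_jF_mem_V G 1 hFM)
    (by
      intro τ
      rw [hred1]
      exact coeffMap_jqModC _)
    (s18g_jF (K := K₀) (1 * q)) (s34m_alpha_jF 1 q) (s34f_alpha_j G φ 1 q hq hq1) true
    ⟨_, hmem⟩
  obtain ⟨-, bt, -⟩ := s18g_deg_j G 1 hFM hT hdegM q hπ _ (Or.inl hred1) hA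
  haveI : Unique (Fin (dedekindPsi 1)) := by
    rw [dedekindPsi_one]; exact inferInstance
  obtain ⟨P, hP⟩ := s59c_rank_one bt d
  -- the Laurent series of `d`
  have hser : ((algebraMap ↥(integralClosure κ[X] ↥(modularFunctionFieldFullC κ 1))
      ↥(modularFunctionFieldFullC κ 1) d : ↥(modularFunctionFieldFullC κ 1)) : LaurentSeries κ) =
      s18g_red G ⟨s59c_Yser G q, hY0⟩ := by
    rw [hd, s33s_coe_redO, s33s_redL_true, s34m_redInf_apply]
    exact congrArg (s18g_red G) (Subtype.ext hcoe)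
  have hpoly : ((algebraMap ↥(integralClosure κ[X] ↥(modularFunctionFieldFullC κ 1))
      ↥(modularFunctionFieldFullC κ 1) d : ↥(modularFunctionFieldFullC κ 1)) : LaurentSeries κ) =
      Polynomial.aeval (jqModC κ) P := by
    rw [hP, ← IsScalarTower.algebraMap_apply, hA, hred1]
    exact (Polynomial.aeval_algHom_apply (modularFunctionFieldFullC κ 1).val
      (s18g_jFbar κ 1) P).symm
  have hLP : s18g_red G ⟨s59c_Yser G q, hY0⟩ = Polynomial.aeval (jqModC κ) P := by
    rw [← hser, hpoly]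
  have hP0 : P ≠ 0 := by
    rintro rfl
    rw [map_zero] at hLP
    exact hL0 hLP
  refine ⟨P, ?_, fun hY => hLP⟩
  have := s59c_order_aeval_jq κ hP0
  rw [← hLP, hLord] at this
  have hq1' : 1 ≤ q := hq.one_lt.le
  omega

end Main

end Fermat.Agent.Lib.S59
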