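/-
Programme (R2-bg), node [CAR]/(R1), helper8 (prefix `s59c_`), part 7: **(R1) — THE NODE COUNT OF
`X₀(M p)`, `p ≥ 5`, `p ∤ M`, `ν₂(M) = ν₃(M) = 0`, over a base UNRAMIFIED at `p`** (`ϖ = p`, S36's frame).

Nodes = `s33s_Node` of the `j`-chart of the S33/S34 model (the type of helper9's `s59m_CarPkg`).  For every
finite set `T` of nodes

  `12 * ∑ s ∈ T, [k_s : κ] ≤ (p - 1) * ψ(M)`        (**`s59c_node_count`**).

Inputs: helper4's regular crossings (`s36b_leafCross`), the modular unit `G₂ = g₀⁻¹ ϖ⁶`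
(`CNodeUnit.lean`), its reduction `P(j̄)`, `deg P = p - 1` (`CNodeLevelOne.lean`), the `κ[X]`-basis of size
`ψ(M)` of the Dedekind ring of the `∞`-component (`s18g_deg_j`), and the abstract count
(`CNodeCount.lean`, `CNodeAlg.lean`, `CNodeLoc.lean`).
-/
import Fermat.Agent.Lib.S59.CNodeCount
import Fermat.Agent.Lib.S59.CNodeLevelOne
import Fermat.Agent.Lib.S36.XLeafCross

set_option autoImplicit false
set_option linter.unusedSectionVars false
set_option linter.style.haveILetI false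
set_option synthInstance.maxHeartbeats 400000
set_option maxHeartbeats 1600000

noncomputable section

namespace Fermat.Agent.Lib.S59

open ModularCurve AlgebraicCurve HahnSeries Polynomial KaehlerDifferential
open Fermat.Agent.Lib.FF Fermat.Agent.Lib.S18 Fermat.Agent.Lib.S34 Fermat.Agent.Lib.S37
  Fermat.Agent.Lib.S33 Fermat.Agent.Lib.S36 Fermat.Agent.Lib.S44 Fermat.Agent.Lib.S28

local notation "Kb" => AlgebraicClosure ℚ

/-- **(R1): the node count.** -/
theorem s59c_node_count (M p : ℕ) [NeZero M] [hp : Fact p.Prime] (hpM : ¬ p ∣ M) (h5 : 5 ≤ p)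
    (h2 : nuTwo M = 0) (h3 : nuThree M = 0)
    (K₀ : Type) [Field K₀] [NumberField K₀] (φ : K₀ →+* Kb)
    (κ : Type) [Field κ] [CharP κ p] [PerfectField κ]
    (G : s18g_GaussData K₀ κ) [IsDiscreteValuationRing G.A] (hπ : Function.Surjective G.π)
    (hϖ : ((G.ϖ : G.A) : K₀) = (p : K₀))
    (T : Finset (s33s_Node (s34m_VV G φ M p hp.out hpM) (s34m_unif G (M * p))
      (s18_chart1 (L₀ := K₀) (s18g_jF (K := K₀) (M * p))))) :
    12 * ∑ s ∈ T, Module.finrank κ
        (s33s_kG G φ M p hpM (s18_chart1 (L₀ := K₀) (s18g_jF (K := K₀) (M * p))) hπ s) ≤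
      (p - 1) * dedekindPsi M := by
  haveI : NeZero p := ⟨hp.out.ne_zero⟩
  have hT : s18g_HT κ M := s18t_indep_j p M hpM κ
  have hdegM : s18g_HDeg K₀ M := fun _ b hb hn => s18g_exists_relation M φ hn b hb
  have hdeg : s34m_HDeg K₀ M p := s34r_deg_HDeg φ M p hp.out hpM
  have hFM : ∀ f ∈ laurentBaseChange K₀ (modularFunctionFieldFull M), f ∈ s18g_Frac G :=
    fun f hf => s18g_baseChange_mem_Frac G M hf
  haveI : FFGen K₀ (s18g_jF (K := K₀) (M * p)) :=
    s18b_ffGen_jF (M * p) (fun n b hb hn => s18g_exists_relation (M * p) φ hn b hb)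
  -- the Dedekind ring of the `∞`-component
  letI algF := s18f_algF G M hT hdegM (s18g_jF (K := K₀) M) (s18g_jF_mem_V G M hFM)
  have hA : ∀ P : κ[X], algebraMap κ[X] ↥(modularFunctionFieldFullC κ M) P =
      Polynomial.aeval (s18g_redF G M hFM hT hdegM ⟨s18g_jF (K := K₀) M, s18g_jF_mem_V G M hFM⟩) P :=
    s18f_algF_apply G M hT hdegM _ (s18g_jF_mem_V G M hFM)
  have hred1 : s18g_redF G M hFM hT hdegM ⟨s18g_jF (K := K₀) M, s18g_jF_mem_V G M hFM⟩ =
      s18g_jFbar κ M := s18g_redF_jV G M hFM hT hdegM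
  have hcoord : s37b_Coord κ p
      ((s18g_redF G M hFM hT hdegM ⟨s18g_jF (K := K₀) M, s18g_jF_mem_V G M hFM⟩ :
        ↥(modularFunctionFieldFullC κ M)) : LaurentSeries κ) := by
    rw [hred1]
    exact s37b_coord_jq κ p
  have hwtw : ∀ τ : κ ≃+* κ, ModularCurve.coeffMap (τ : κ →+* κ)
      ((s18g_redF G M hFM hT hdegM ⟨s18g_jF (K := K₀) M, s18g_jF_mem_V G M hFM⟩ :
        ↥(modularFunctionFieldFullC κ M)) : LaurentSeries κ) =
      ((s18g_redF G M hFM hT hdegM ⟨s18g_jF (K := K₀) M, s18g_jF_mem_V G M hFM⟩ :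
        ↥(modularFunctionFieldFullC κ M)) : LaurentSeries κ) := by
    intro τ
    rw [hred1]
    exact coeffMap_jqModC _
  haveI hDed := (s37b_dedekind_of_coord κ p M _ hcoord hA).1
  haveI hFrac := (s37b_dedekind_of_coord κ p M _ hcoord hA).2
  -- the `κ`-structure of `D`
  letI algκ : Algebra κ ↥(integralClosure κ[X] ↥(modularFunctionFieldFullC κ M)) :=
    ((algebraMap κ[X] ↥(integralClosure κ[X] ↥(modularFunctionFieldFullC κ M))).comp
      Polynomial.C).toAlgebra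
  haveI : IsScalarTower κ κ[X] ↥(integralClosure κ[X] ↥(modularFunctionFieldFullC κ M)) :=
    IsScalarTower.of_algebraMap_eq (fun _ => rfl)
  have hκ : ∀ c : κ, algebraMap ↥(integralClosure κ[X] ↥(modularFunctionFieldFullC κ M))
      ↥(modularFunctionFieldFullC κ M)
      (algebraMap κ ↥(integralClosure κ[X] ↥(modularFunctionFieldFullC κ M)) c) =
      algebraMap κ ↥(modularFunctionFieldFullC κ M) c := by
    intro c
    show algebraMap ↥(integralClosure κ[X] ↥(modularFunctionFieldFullC κ M))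
      ↥(modularFunctionFieldFullC κ M)
      (algebraMap κ[X] ↥(integralClosure κ[X] ↥(modularFunctionFieldFullC κ M))
        (Polynomial.C c)) = _
    rw [← IsScalarTower.algebraMap_apply, hA, Polynomial.aeval_C]
  obtain ⟨-, bt, -⟩ := s18g_deg_j G M hFM hT hdegM p hπ _ (Or.inl hred1) hA
  -- the crossings are regular
  obtain ⟨x, hx, hBF⟩ := s36g_base_full K₀ φ M p hp.out hpM (Or.inl h5) κ G hπ
  have hXreg := s36b_leafCross M p hp.out hpM h2 h3 K₀ φ κ G hπ hϖ x hx hBF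
  have hxj : x = s18g_jF (K := K₀) M := by
    obtain ⟨-, -, -, -, -, hbr, -⟩ := id hBF
    rcases hbr with ⟨-, h1⟩ | ⟨h3', -⟩ | ⟨h2', -⟩
    · exact h1
    · omega
    · omega
  rw [hxj, s34m_alpha_jF] at hXreg
  -- the element `G₂`
  obtain ⟨h, hrel⟩ := s36r_exists_D_eq (laurentBaseChange K₀ (modularFunctionFieldFull (M * p)))
    (s18g_jF (K := K₀) (M * p)) (heckeBetaBar K₀ M p (s18g_jF (K := K₀) M))
    (heckeAlphaBar K₀ M p (s18g_jF (K := K₀) M)) (s44e_theta_jA_ne_zero M p)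
  have hmem := s59c_G2_mem_ring G φ M p hp.out hpM hϖ h5 h hrel
  have hg12 := s59c_G2_Vzero_div G φ M p hp.out hpM hϖ h hrel
  have hcoe : ((s59c_G2 G M p h : s34m_F K₀ (M * p)) : LaurentSeries K₀) = s59c_Yser G p :=
    s59c_G2_coe G M p h hrel
  obtain ⟨P, hPdeg, hPred⟩ := s59c_red_Yser_poly p hp.out h5 K₀ φ κ G hπ hϖ
  have hP0 : P ≠ 0 := by
    rintro rfl
    rw [Polynomial.natDegree_zero] at hPdeg
    omega
  -- the frame of the Σ-datum
  have hF := s33s_w_hF G φ M p hpM hdeg hT hdegM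
  have hint := s33s_w_hint G φ M p hpM hdeg hT hdegM (s18g_jF (K := K₀) M)
    (s18g_jF_mem_V G M hFM) hwtw (s18g_jF (K := K₀) (M * p)) (s34m_alpha_jF M p)
    (s34f_alpha_j G φ M p hp.out hpM)
  have hmain := (s34df_hmain_five M p h5 K₀ φ κ G hπ hT hdegM).1
  have hlift := s33s_w_hlift G M hT hdegM (s18g_jF (K := K₀) M) (s18g_jF_mem_V G M hFM) hmain
  have htw := s33s_w_htw G M p hT hdegM (s18g_jF (K := K₀) M) (s18g_jF_mem_V G M hFM) hwtw
  -- `ρ G₂ = P(j̄)`
  have hgP : s33s_rhoD G φ M p hp.out hpM (modularFunctionFieldFullC κ M)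
      (s18_chart1 (L₀ := K₀) (s18g_jF (K := K₀) (M * p))) hF hint true
      ⟨s59c_G2 G M p h, hmem⟩ =
      algebraMap κ[X] ↥(integralClosure κ[X] ↥(modularFunctionFieldFullC κ M)) P := by
    apply IsFractionRing.injective ↥(integralClosure κ[X] ↥(modularFunctionFieldFullC κ M))
      ↥(modularFunctionFieldFullC κ M)
    apply Subtype.ext
    rw [(s33s_coe_rhoD G φ M p hp.out hpM (modularFunctionFieldFullC κ M)
      (s18_chart1 (L₀ := K₀) (s18g_jF (K := K₀) (M * p))) hF hint ⟨s59c_G2 G M p h, hmem⟩).1,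
      ← IsScalarTower.algebraMap_apply, hA, hred1]
    have e1 : s34df_r1 G φ M p hp.out hpM
        (s18_chart1 (L₀ := K₀) (s18g_jF (K := K₀) (M * p))) ⟨s59c_G2 G M p h, hmem⟩ =
        s18g_red G ⟨((s59c_G2 G M p h : s34m_F K₀ (M * p)) : LaurentSeries K₀),
          (s59c_G2_Vinf G φ M p hp.out hpM hϖ h hrel).1⟩ := rfl
    have hY : s59c_Yser G p ∈ s18g_O G := by
      rw [← hcoe]; exact (s59c_G2_Vinf G φ M p hp.out hpM hϖ h hrel).1
    have e2 : s18g_red G ⟨((s59c_G2 G M p h : s34m_F K₀ (M * p)) : LaurentSeries K₀),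
        (s59c_G2_Vinf G φ M p hp.out hpM hϖ h hrel).1⟩ = s18g_red G ⟨s59c_Yser G p, hY⟩ :=
      congrArg (s18g_red G) (Subtype.ext hcoe)
    rw [e1, e2, hPred hY]
    exact Polynomial.aeval_algHom_apply (modularFunctionFieldFullC κ M).val (s18g_jFbar κ M) P
  have key := s59c_count_build G φ M p hpM hπ
    (s18_chart1 (L₀ := K₀) (s18g_jF (K := K₀) (M * p))) hF hint
    (s18_ring (L₀ := K₀) (s34m_Vinf G M) (s18_chart1 (s18g_jF (K := K₀) M)) :
      Set (s34m_F K₀ M))
    (fun _ hg => hg.1)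
    (fun g hg => s34d_alpha_liftJ₁ G φ M p hp.out hpM g hg)
    (fun g hg => s34d_beta_liftJ₁ G φ M p hp.out hpM g hg)
    hlift htw bt hκ hXreg ⟨s59c_G2 G M p h, hmem⟩ 12 hg12 P hP0 hgP T
  rw [Nat.card_eq_fintype_card, Fintype.card_fin, hPdeg] at key
  rw [mul_comm (p - 1)]
  exact key

end Fermat.Agent.Lib.S59
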