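/-
Programme (R2-bg), node [CAR]/(R1), helper8 (prefix `s59c_`), part 8: **the genus side of (R1)**.

* `s59c_genusFF_eq`   : `(genusFF Q̄ Q̄(X₀(N)) : ℚ) = genusFormula N` for EVERY level `N`
  (helper4's `m15c_package` at one prime `ℓ₀ ∤ 6 N` ⇒ `rank Λ = 2 genusFF` (`m15k_rank_of_package`);
  `rank Λ = 2 genusFormula N` (`s15e_rank_lattice`, Eichler–Shimura + S20)).
* `s59c_cuspCount_mul_prime`, `s59c_nuTwo_mul`, `s59c_nuThree_mul` : numerics at level `M q`.
* `s59c_genus_arith`  : `genusFormula (M q) = 2 genusFormula M - 1 + (q - 1) ψ(M) / 12` for a prime `q ∤ M`,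
  `ν₂(M) = ν₃(M) = 0`.
* `s59c_r1_of_count`  : `12 n ≤ (q - 1) ψ(M)  ⇒  (n - 1) + 2 genusFF(M) ≤ genusFF(M q)` — helper9's field `r1`
  of `s59m_CountData`.
-/
import Fermat.Agent.Lib.S15.KPack
import Fermat.Agent.Lib.S15.AConj7
import Fermat.Agent.Lib.S15.EPar3
import Fermat.Agent.Lib.S18.LChange

set_option autoImplicit false
set_option linter.unusedSectionVars false
set_option linter.style.haveILetI false

noncomputable section

namespace Fermat.Agent.Lib.S59

open ModularCurve AlgebraicCurve Fermat.Agent.Lib.FF Fermat.Agent.Lib.S15 Fermat.Agent.Lib.S18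
  Fermat.Agent.Lib.S29 Fermat.Agent.Lib.S30

local notation "Kb" => AlgebraicClosure ℚ

/-- a prime not dividing a given non-zero integer. -/
theorem s59c_exists_prime_not_dvd (n : ℕ) (hn : n ≠ 0) : ∃ ℓ : ℕ, ℓ.Prime ∧ ¬ ℓ ∣ n := by
  obtain ⟨ℓ, hle, hℓ⟩ := Nat.exists_infinite_primes (n + 1)
  exact ⟨ℓ, hℓ, fun h => absurd (Nat.le_of_dvd (Nat.pos_of_ne_zero hn) h) (by omega)⟩

/-- **`genusFF = genusFormula`** for the function field of `X₀(N)` over `Q̄`. -/
theorem s59c_genusFF_eq (N : ℕ) [NeZero N] :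
    (genusFF Kb (ffi_F N) : ℚ) = genusFormula N := by
  obtain ⟨ℓ₀, hℓ₀, hnd⟩ := s59c_exists_prime_not_dvd (6 * N)
    (mul_ne_zero (by norm_num) (NeZero.ne N))
  haveI : Fact ℓ₀.Prime := ⟨hℓ₀⟩
  have h1 : Module.finrank ℤ ↥(s29s_M N) = 2 * genusFF Kb (ffi_F N) :=
    m15k_rank_of_package N ℓ₀ (m15c_package N ℓ₀ hnd 1)
  have h2 := s15e_rank_lattice N
  rw [h1] at h2
  push_cast at h2
  linarith

/-! ### Numerics at the level `M q` -/

/-- `c(M q) = 2 c(M)` for a prime `q ∤ M`. -/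
theorem s59c_cuspCount_mul_prime {M q : ℕ} (hq : q.Prime) (hqM : ¬ q ∣ M) :
    cuspCount (M * q) = 2 * cuspCount M := by
  have hcop : M.Coprime q := ((Nat.Prime.coprime_iff_not_dvd hq).mpr hqM).symm
  unfold cuspCount
  rw [Nat.Coprime.divisors_mul hcop, Finset.sum_map]
  have hatt := Finset.sum_attach (M.divisors ×ˢ q.divisors)
    (fun x => Nat.totient (Nat.gcd (x.1 * x.2) (M * q / (x.1 * x.2))))
  refine (show _ = ∑ x ∈ (M.divisors ×ˢ q.divisors).attach,
    Nat.totient (Nat.gcd ((x : ℕ × ℕ).1 * (x : ℕ × ℕ).2)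
      (M * q / ((x : ℕ × ℕ).1 * (x : ℕ × ℕ).2))) from rfl).trans ?_
  rw [hatt, Finset.sum_product, hq.divisors, two_mul, ← Finset.sum_add_distrib]
  refine Finset.sum_congr rfl fun d hd => ?_
  rw [Finset.sum_pair hq.one_lt.ne]
  have hdM : d ∣ M := Nat.dvd_of_mem_divisors hd
  have hM0 : M ≠ 0 := (Nat.mem_divisors.mp hd).2
  have hd0 : 0 < d := Nat.pos_of_dvd_of_pos hdM (Nat.pos_of_ne_zero hM0)
  obtain ⟨e, rfl⟩ := hdM
  have hdq : d.Coprime q := Nat.Coprime.coprime_dvd_left (dvd_mul_right d e) hcop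
  have heq : e.Coprime q := Nat.Coprime.coprime_dvd_left (dvd_mul_left e d) hcop
  have h1 : d * e * q / (d * 1) = e * q := by
    rw [mul_one, mul_assoc]
    exact Nat.mul_div_cancel_left _ hd0
  have h2 : d * e * q / (d * q) = e := by
    have : d * e * q = d * q * e := by ring
    rw [this]
    exact Nat.mul_div_cancel_left _ (Nat.mul_pos hd0 hq.pos)
  have h3 : d * e / d = e := Nat.mul_div_cancel_left _ hd0
  rw [h1, h2, h3, mul_one]
  congr 2
  · exact Nat.Coprime.gcd_mul_right_cancel_right e hdq.symm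
  · exact Nat.Coprime.gcd_mul_right_cancel d heq.symm

/-- no solution of `x² + 1 = 0` modulo `M` ⇒ none modulo `M q`. -/
theorem s59c_nuTwo_mul (M q : ℕ) [NeZero M] [NeZero q] (h : nuTwo M = 0) : nuTwo (M * q) = 0 := by
  unfold nuTwo at h ⊢
  rw [Nat.card_eq_zero] at h ⊢
  rcases h with h | h
  · left
    constructor
    rintro ⟨x, hx⟩
    refine h.false ⟨ZMod.castHom (dvd_mul_right M q) (ZMod M) x, ?_⟩
    rw [← map_pow, ← map_one (ZMod.castHom (dvd_mul_right M q) (ZMod M)), ← map_add, hx, map_zero]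
  · exact absurd (inferInstance : Finite {x : ZMod M // x ^ 2 + 1 = 0}) (not_finite_iff_infinite.mpr h)

/-- no solution of `x² + x + 1 = 0` modulo `M` ⇒ none modulo `M q`. -/
theorem s59c_nuThree_mul (M q : ℕ) [NeZero M] [NeZero q] (h : nuThree M = 0) :
    nuThree (M * q) = 0 := by
  unfold nuThree at h ⊢
  rw [Nat.card_eq_zero] at h ⊢
  rcases h with h | h
  · left
    constructor
    rintro ⟨x, hx⟩
    refine h.false ⟨ZMod.castHom (dvd_mul_right M q) (ZMod M) x, ?_⟩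
    rw [← map_pow, ← map_one (ZMod.castHom (dvd_mul_right M q) (ZMod M)), ← map_add, ← map_add, hx,
      map_zero]
  · exact absurd (inferInstance : Finite {x : ZMod M // x ^ 2 + x + 1 = 0})
      (not_finite_iff_infinite.mpr h)

/-- **the genus of `X₀(M q)`** for a prime `q ∤ M`, `ν₂(M) = ν₃(M) = 0`:
`g(M q) = 2 g(M) - 1 + (q - 1) ψ(M) / 12`. -/
theorem s59c_genus_arith (M q : ℕ) [NeZero M] [NeZero q] (hq : q.Prime) (hqM : ¬ q ∣ M)
    (h2 : nuTwo M = 0) (h3 : nuThree M = 0) :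
    genusFormula (M * q) = 2 * genusFormula M - 1 + ((q : ℚ) - 1) * (dedekindPsi M : ℚ) / 12 := by
  have hcop : M.Coprime q := ((Nat.Prime.coprime_iff_not_dvd hq).mpr hqM).symm
  unfold genusFormula
  rw [s59c_nuTwo_mul M q h2, s59c_nuThree_mul M q h3, h2, h3, s59c_cuspCount_mul_prime hq hqM,
    Fermat.Agent.Lib.RR.Cosets.dedekindPsi_mul hcop, s18l_dedekindPsi_prime hq]
  push_cast
  ring

/-- **(R1) in helper9's shape** from the node count `12 n ≤ (q - 1) ψ(M)`. -/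
theorem s59c_r1_of_count (M q : ℕ) [NeZero M] [NeZero q] (hq : q.Prime) (hqM : ¬ q ∣ M)
    (h2 : nuTwo M = 0) (h3 : nuThree M = 0) (n : ℕ) (hn : 12 * n ≤ (q - 1) * dedekindPsi M) :
    (n - 1) + 2 * genusFF Kb (ffi_F M) ≤ genusFF Kb (ffi_F (M * q)) := by
  have e1 := s59c_genusFF_eq M
  have e2 := s59c_genusFF_eq (M * q)
  have e3 := s59c_genus_arith M q hq hqM h2 h3
  rw [← e1, ← e2] at e3
  have hq1 : 1 ≤ q := hq.pos
  have hψ : 0 < dedekindPsi M := s18l_dedekindPsi_pos M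
  have hn' : (12 * n : ℚ) ≤ ((q : ℚ) - 1) * (dedekindPsi M : ℚ) := by
    have : ((12 * n : ℕ) : ℚ) ≤ (((q - 1) * dedekindPsi M : ℕ) : ℚ) := by exact_mod_cast hn
    rw [Nat.cast_mul, Nat.cast_mul, Nat.cast_sub hq1] at this
    simpa using this
  have hpos : (0 : ℚ) < ((q : ℚ) - 1) * (dedekindPsi M : ℚ) := by
    have h1 : (1 : ℚ) < q := by exact_mod_cast hq.one_lt
    have h2 : (0 : ℚ) < dedekindPsi M := by exact_mod_cast hψ
    exact mul_pos (by linarith) h2
  rcases Nat.eq_zero_or_pos n with rfl | hnpos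
  · -- `n = 0`: `g(M q) - 2 g(M) + 1 > 0` is an integer
    have h4 : ((2 * genusFF Kb (ffi_F M) : ℕ) : ℚ) < (genusFF Kb (ffi_F (M * q)) : ℚ) + 1 := by
      push_cast
      linarith
    have h5 : 2 * genusFF Kb (ffi_F M) < genusFF Kb (ffi_F (M * q)) + 1 := by exact_mod_cast h4
    omega
  · have h4 : (((n - 1) + 2 * genusFF Kb (ffi_F M) : ℕ) : ℚ) ≤ (genusFF Kb (ffi_F (M * q)) : ℚ) := by
      rw [Nat.cast_add, Nat.cast_sub hnpos]
      push_cast
      linarith
    exact_mod_cast h4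

end Fermat.Agent.Lib.S59
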