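/-
Programme (R2-bg), node [CAR]/(R1), helper8 (prefix `s59c_`), part 9: **(R1) in the shape of the field `r1` of
helper9's `s59m_CountData`**.

For `p ≥ 5` prime (the LEVEL prime, `q` of [CAR]), `p ∤ M`, `ν₂(M) = ν₃(M) = 0`, over a number field `K₀` with a
Gauss datum unramified at `p` (`ϖ = p`), if all the nodes of the `j`-chart of `X₀(M p)` are `κ`-rational then

  `(#nodes - 1) + 2 genusFF(X₀(M)) ≤ genusFF(X₀(M p))`        (**`s59c_r1`**),

the genera being those of the function fields over `Q̄` (`genusFF Kb (ffi_F _)`).  Also `s59c_finite_node`,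
`s59c_card_node_le` (`12 #nodes ≤ (p - 1) ψ(M)`).
-/
import Fermat.Agent.Lib.S59.CNodeFive
import Fermat.Agent.Lib.S59.CNodeGenus
import Fermat.Agent.Lib.S44.EGlobInst

set_option autoImplicit false
set_option linter.unusedSectionVars false
set_option linter.style.haveILetI false
set_option synthInstance.maxHeartbeats 400000
set_option maxHeartbeats 1600000

noncomputable section

namespace Fermat.Agent.Lib.S59

open ModularCurve AlgebraicCurve HahnSeries Polynomial
open Fermat.Agent.Lib.FF Fermat.Agent.Lib.S18 Fermat.Agent.Lib.S34 Fermat.Agent.Lib.S37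
  Fermat.Agent.Lib.S33 Fermat.Agent.Lib.S36 Fermat.Agent.Lib.S44 Fermat.Agent.Lib.S28

local notation "Kb" => AlgebraicClosure ℚ

section

variable (M p : ℕ) [NeZero M] [hp : Fact p.Prime] (hpM : ¬ p ∣ M) (h5 : 5 ≤ p)
  (K₀ : Type) [Field K₀] [NumberField K₀] (φ : K₀ →+* Kb)
  (κ : Type) [Field κ] [CharP κ p] [PerfectField κ]
  (G : s18g_GaussData K₀ κ) [IsDiscreteValuationRing G.A] (hπ : Function.Surjective G.π)

include h5 hπ in
/-- the `j`-chart of `X₀(M p)` has finitely many nodes. -/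
theorem s59c_finite_node :
    Finite (s33s_Node (s34m_VV G φ M p hp.out hpM) (s34m_unif G (M * p))
      (s18_chart1 (L₀ := K₀) (s18g_jF (K := K₀) (M * p)))) :=
  s44e_finite_node_five M p hpM h5 K₀ φ κ G (s34r_deg_HDeg φ M p hp.out hpM)
    (s18t_indep_j p M hpM κ) (fun _ b hb hn => s18g_exists_relation M φ hn b hb) hπ

include h5 in
/-- **the number of nodes**: `12 #nodes ≤ (p - 1) ψ(M)` when all nodes are `κ`-rational. -/
theorem s59c_card_node_le (h2 : nuTwo M = 0) (h3 : nuThree M = 0)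
    (hϖ : ((G.ϖ : G.A) : K₀) = (p : K₀))
    (hrat : ∀ s : s33s_Node (s34m_VV G φ M p hp.out hpM) (s34m_unif G (M * p))
        (s18_chart1 (L₀ := K₀) (s18g_jF (K := K₀) (M * p))),
      Function.Bijective (algebraMap κ
        (s33s_kG G φ M p hpM (s18_chart1 (L₀ := K₀) (s18g_jF (K := K₀) (M * p))) hπ s))) :
    12 * Nat.card (s33s_Node (s34m_VV G φ M p hp.out hpM) (s34m_unif G (M * p))
      (s18_chart1 (L₀ := K₀) (s18g_jF (K := K₀) (M * p)))) ≤ (p - 1) * dedekindPsi M := by
  classical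
  haveI := s59c_finite_node M p hpM h5 K₀ φ κ G hπ
  letI := Fintype.ofFinite (s33s_Node (s34m_VV G φ M p hp.out hpM) (s34m_unif G (M * p))
    (s18_chart1 (L₀ := K₀) (s18g_jF (K := K₀) (M * p))))
  have h := s59c_node_count M p hpM h5 h2 h3 K₀ φ κ G hπ hϖ Finset.univ
  have h1 : ∀ s : s33s_Node (s34m_VV G φ M p hp.out hpM) (s34m_unif G (M * p))
      (s18_chart1 (L₀ := K₀) (s18g_jF (K := K₀) (M * p))),
      Module.finrank κ
        (s33s_kG G φ M p hpM (s18_chart1 (L₀ := K₀) (s18g_jF (K := K₀) (M * p))) hπ s) = 1 := by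
    intro s
    rw [← (LinearEquiv.ofBijective (Algebra.linearMap κ
      (s33s_kG G φ M p hpM (s18_chart1 (L₀ := K₀) (s18g_jF (K := K₀) (M * p))) hπ s))
      (hrat s)).finrank_eq, Module.finrank_self]
  rw [Finset.sum_congr rfl (fun s _ => h1 s), Finset.sum_const, smul_eq_mul, mul_one,
    Finset.card_univ, ← Nat.card_eq_fintype_card] at h
  exact h

include h5 in
/-- **(R1)** in the shape of the field `r1` of `s59m_CountData`. -/
theorem s59c_r1 (h2 : nuTwo M = 0) (h3 : nuThree M = 0)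
    (hϖ : ((G.ϖ : G.A) : K₀) = (p : K₀))
    (hrat : ∀ s : s33s_Node (s34m_VV G φ M p hp.out hpM) (s34m_unif G (M * p))
        (s18_chart1 (L₀ := K₀) (s18g_jF (K := K₀) (M * p))),
      Function.Bijective (algebraMap κ
        (s33s_kG G φ M p hpM (s18_chart1 (L₀ := K₀) (s18g_jF (K := K₀) (M * p))) hπ s))) :
    haveI : NeZero p := ⟨hp.out.ne_zero⟩
    (Nat.card (s33s_Node (s34m_VV G φ M p hp.out hpM) (s34m_unif G (M * p))
      (s18_chart1 (L₀ := K₀) (s18g_jF (K := K₀) (M * p)))) - 1) +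
      2 * genusFF Kb (ffi_F M) ≤ genusFF Kb (ffi_F (M * p)) := by
  haveI : NeZero p := ⟨hp.out.ne_zero⟩
  exact s59c_r1_of_count M p hp.out hpM h2 h3 _
    (s59c_card_node_le M p hpM h5 K₀ φ κ G hπ h2 h3 hϖ hrat)

end

end Fermat.Agent.Lib.S59
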