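/-
Programme (R2), node [CAR] / count data, helper8 (prefix `s59c_`): **[DEG], part 2: THE DEGREE CONGRUENCE for
`X₀(M p)`, `p ≥ 5`, `p ∤ M`, `ν₂(M) = ν₃(M) = 0`, base unramified at `p`** (`ϖ = p`).

`f ∈ 𝓕_{K₀}(M p)`, `f ≠ 0`, a unit of `V_∞`, `V_0 (f) = a`, satisfying the exact (Q4) with exponent `e` at every closed
point of the special fibre (charts `{j regular}`, `{1 / j regular}`).  Then

  `e ∣ a · ∑_s [k_s : κ]`   (sum over ALL the nodes of the `j`-chart)        (**`s59c_deg_cong`**).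

Proof: the divisor of `red_∞ f` on the `∞`-component `X₀(M)_κ` has degree `0` (`CNodeDegK.lean`), its coefficients
are `≡ 0 mod e` away from the nodes (`s59c_divp_chart_cases`; no node over `j̄ = ∞`: `s33n_no_node_at_infty`) and
`≡ a mod e` at the nodes (regular crossings, `s59c_nodePlB_cong`); `deg v_s = [k_s : κ]`.

This is the specialisation map `J₀(M p)[e]^{I} → Φ / e` to the component group in disguise: `a · n' ≡ 0`, `n' = #nodes`.
-/
import Fermat.Agent.Lib.S59.CNodeDeg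
import Fermat.Agent.Lib.S59.CNodeFive
import Fermat.Agent.Lib.S59.CNodeDegK
import Fermat.Agent.Lib.S59.CNodeROne

set_option autoImplicit false
set_option linter.unusedSectionVars false
set_option linter.style.haveILetI false
set_option synthInstance.maxHeartbeats 400000
set_option maxHeartbeats 1600000

noncomputable section

namespace Fermat.Agent.Lib.S59

open ModularCurve AlgebraicCurve HahnSeries Polynomial Fermat.Agent.Lib.FF Fermat.Agent.Lib.S18
  Fermat.Agent.Lib.S34 Fermat.Agent.Lib.S37 Fermat.Agent.Lib.S33 Fermat.Agent.Lib.S36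
  Fermat.Agent.Lib.S44 Fermat.Agent.Lib.S28

local notation "Kb" => AlgebraicClosure ℚ

section Wrap

variable {K₀ : Type} [Field K₀] [CharZero K₀] [Algebra ℚ K₀] {κ : Type} [Field κ]
  (G : s18g_GaussData K₀ κ) (φ : K₀ →+* Kb) (M p : ℕ) [NeZero M] [hp : Fact p.Prime]
  (hpM : ¬ p ∣ M) [CharP κ p] [PerfectField κ]

local notation "𝓕M" => laurentBaseChange K₀ (modularFunctionFieldFull M)
local notation "𝓕N" => laurentBaseChange K₀ (modularFunctionFieldFull (M * p))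
local notation "hFM" => (fun (f : LaurentSeries K₀)
  (hf : f ∈ laurentBaseChange K₀ (modularFunctionFieldFull M)) => s18g_baseChange_mem_Frac G M hf)
local notation "FbM" => modularFunctionFieldFullC κ M
local notation "OO" => s34m_VV G φ M p hp.out hpM
local notation "ϖF" => s34m_unif G (M * p)

variable (hdeg : s34m_HDeg K₀ M p) (hT : s18g_HT κ M) (hdegM : s18g_HDeg K₀ M)
  (hπ : Function.Surjective G.π)

variable [IsDiscreteValuationRing G.A] (w : ↥(laurentBaseChange K₀ (modularFunctionFieldFull M))) (hwV : w ∈ s18g_V G (laurentBaseChange K₀ (modularFunctionFieldFull M)) (fun (f : LaurentSeries K₀) (hf : f ∈ laurentBaseChange K₀ (modularFunctionFieldFull M)) => s18g_baseChange_mem_Frac G M hf))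
    (hcoord : s37b_Coord κ p
      ((s18g_redF G M (fun (f : LaurentSeries K₀) (hf : f ∈ laurentBaseChange K₀ (modularFunctionFieldFull M)) => s18g_baseChange_mem_Frac G M hf) hT hdegM ⟨w, hwV⟩ : ↥(modularFunctionFieldFullC κ M)) : LaurentSeries κ))
    (hwtw : ∀ τ : κ ≃+* κ, ModularCurve.coeffMap (τ : κ →+* κ)
      ((s18g_redF G M (fun (f : LaurentSeries K₀) (hf : f ∈ laurentBaseChange K₀ (modularFunctionFieldFull M)) => s18g_baseChange_mem_Frac G M hf) hT hdegM ⟨w, hwV⟩ : ↥(modularFunctionFieldFullC κ M)) : LaurentSeries κ) =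
      ((s18g_redF G M (fun (f : LaurentSeries K₀) (hf : f ∈ laurentBaseChange K₀ (modularFunctionFieldFull M)) => s18g_baseChange_mem_Frac G M hf) hT hdegM ⟨w, hwV⟩ : ↥(modularFunctionFieldFullC κ M)) : LaurentSeries κ))
    (hmain : letI := s18f_algF G M hT hdegM w hwV
      ∀ z : ↥(modularFunctionFieldFullC κ M), IsIntegral κ[X] z →
        ∃ (b : ↥(laurentBaseChange K₀ (modularFunctionFieldFull M))) (hb : b ∈ s18_ring (L₀ := K₀) (s18g_V G (laurentBaseChange K₀ (modularFunctionFieldFull M)) (fun (f : LaurentSeries K₀) (hf : f ∈ laurentBaseChange K₀ (modularFunctionFieldFull M)) => s18g_baseChange_mem_Frac G M hf)) (s18_chart1 w)),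
          s18g_redF G M (fun (f : LaurentSeries K₀) (hf : f ∈ laurentBaseChange K₀ (modularFunctionFieldFull M)) => s18g_baseChange_mem_Frac G M hf) hT hdegM ⟨b, hb.1⟩ = z)
    (wN : ↥(laurentBaseChange K₀ (modularFunctionFieldFull (M * p)))) (hwN : heckeAlphaBar K₀ M p w = wN) [FFGen K₀ wN]
    (hαN : ∀ y ∈ s34x_infRing (s34m_VV G φ M p hp.out hpM), ∃ s : G.A[X], s.map G.π ≠ 0 ∧
      (s18b_ev G (laurentBaseChange K₀ (modularFunctionFieldFull (M * p))) wN).IsIntegralElem (s18b_ev G (laurentBaseChange K₀ (modularFunctionFieldFull (M * p))) wN s * y))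
    (hαB : ∀ g ∈ (s18_ring (L₀ := K₀) (s34m_Vinf G M) (s18_chart1 w) : Set (s34m_F K₀ M)),
      heckeAlphaBar K₀ M p g ∈ s34x_ring (s34x_infRing (s34m_VV G φ M p hp.out hpM))
        (s18_chart1 (L₀ := K₀) wN))
    (hβB : ∀ g ∈ (s18_ring (L₀ := K₀) (s34m_Vinf G M) (s18_chart1 w) : Set (s34m_F K₀ M)),
      ∃ b' ∈ s34x_ring (s34x_infRing (s34m_VV G φ M p hp.out hpM)) (s18_chart1 (L₀ := K₀) wN),
      ∃ z, z ∈ s34m_Vinf G (M * p) ∧ z ∈ s34m_Vzero G φ M p hp.out hpM ∧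
        b' - heckeBetaBar K₀ M p g = s34m_unif G (M * p) * z)

include hπ hcoord hwtw hmain hwN hαN hαB hβB in
/-- **the dichotomy for the chart `{α w regular}`**, at the places `v₀` with `w̄ ∈ O_{v₀}`, intrinsic form:
either `e ∣ ord_{v₀} (red_∞ f)`, or `v₀` is centred at a node `s` of the chart. -/
theorem s59c_divp_w_cases (e : ℕ) (v₀ : Place κ ↥FbM)
    (hwv : s18g_redF G M hFM hT hdegM ⟨w, hwV⟩ ∈ v₀.toValuationSubring)
    (f : s34m_F K₀ (M * p)) (hf0 : f ≠ 0)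
    (hfI : f ∈ s34m_Vinf G (M * p)) (hfI' : f⁻¹ ∈ s34m_Vinf G (M * p))
    (hQ4 : ∀ 𝔫 : Ideal (s34x_ring (s34x_infRing OO) (s18_chart1 (L₀ := K₀) wN)), 𝔫.IsMaximal →
      s34x_const (s34x_infRing OO) (s18_chart1 (L₀ := K₀) wN) ((G.ϖ : G.A) : K₀)
        (s34x_inf_const_mem OO G.A (s34c_const_mem_VV G φ M p hp.out hpM) G.ϖ) ∈ 𝔫 →
      ∃ Φ : s34m_F K₀ (M * p), Φ ≠ 0 ∧ ∀ Q ∈ s18_chart1 (L₀ := K₀) wN,
        s34f_through (s34x_infRing OO) (s18_chart1 (L₀ := K₀) wN) 𝔫 Q →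
        Q.ord f = ((e : ℕ) : ℤ) * Q.ord Φ) :
    (e : ℤ) ∣ v₀.ord (s33y_redI G φ M p hpM hdeg hT hdegM ⟨f, hfI⟩) ∨
      ∃ s : s33s_Node OO ϖF (s18_chart1 (L₀ := K₀) wN),
        ∀ b : s34x_ring (s34x_infRing OO) (s18_chart1 (L₀ := K₀) wN),
          s33y_redI G φ M p hpM hdeg hT hdegM
            ⟨(b : s34m_F K₀ (M * p)), s33s_ring_mem OO (s18_chart1 (L₀ := K₀) wN) true b⟩ ≠ 0 →
          0 < v₀.ord (s33y_redI G φ M p hpM hdeg hT hdegM
            ⟨(b : s34m_F K₀ (M * p)), s33s_ring_mem OO (s18_chart1 (L₀ := K₀) wN) true b⟩) →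
          b ∈ s.1 := by
  letI := s18f_algF G M hT hdegM w hwV
  have hA : ∀ P : κ[X], algebraMap κ[X] ↥(modularFunctionFieldFullC κ M) P =
      Polynomial.aeval (s18g_redF G M hFM hT hdegM ⟨w, hwV⟩) P :=
    s18f_algF_apply G M hT hdegM w hwV
  haveI := (s37b_dedekind_of_coord κ p M (s18g_redF G M hFM hT hdegM ⟨w, hwV⟩) hcoord hA).1
  haveI := (s37b_dedekind_of_coord κ p M (s18g_redF G M hFM hT hdegM ⟨w, hwV⟩) hcoord hA).2
  letI algκ : Algebra κ ↥(integralClosure κ[X] ↥(modularFunctionFieldFullC κ M)) :=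
    ((algebraMap κ[X] ↥(integralClosure κ[X] ↥(modularFunctionFieldFullC κ M))).comp
      Polynomial.C).toAlgebra
  have hκ : ∀ c : κ, algebraMap ↥(integralClosure κ[X] ↥(modularFunctionFieldFullC κ M))
      ↥(modularFunctionFieldFullC κ M)
      (algebraMap κ ↥(integralClosure κ[X] ↥(modularFunctionFieldFullC κ M)) c) =
      algebraMap κ ↥(modularFunctionFieldFullC κ M) c := by
    intro c
    show algebraMap ↥(integralClosure κ[X] ↥(modularFunctionFieldFullC κ M))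
      ↥(modularFunctionFieldFullC κ M)
      (algebraMap κ[X] ↥(integralClosure κ[X] ↥(modularFunctionFieldFullC κ M))
        (Polynomial.C c)) = _
    rw [← IsScalarTower.algebraMap_apply, hA, Polynomial.aeval_C]
  haveI : IsScalarTower κ ↥(integralClosure κ[X] ↥(modularFunctionFieldFullC κ M))
      ↥(modularFunctionFieldFullC κ M) :=
    IsScalarTower.of_algebraMap_eq (fun c => (hκ c).symm)
  have hD := s33s_w_hD G M p hT hdegM w hwV hcoord
  have hF := s33s_w_hF G φ M p hpM hdeg hT hdegM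
  have hint := s33s_w_hint G φ M p hpM hdeg hT hdegM w hwV hwtw wN hwN hαN
  have hlift := s33s_w_hlift G M hT hdegM w hwV hmain
  have htw := s33s_w_htw G M p hT hdegM w hwV hwtw
  rcases s59c_divp_chart_cases G φ M p hpM hdeg hT hdegM hπ (s18_chart1 (L₀ := K₀) wN)
    (D := ↥(integralClosure κ[X] ↥(modularFunctionFieldFullC κ M))) hD hF hint
    (s18_ring (L₀ := K₀) (s34m_Vinf G M) (s18_chart1 w) : Set (s34m_F K₀ M))
    (fun _ hg => hg.1) hαB hβB hlift htw e v₀ (s59m_D_le_place G M hT hdegM w hwV v₀ hwv)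
    f hf0 hfI hfI' hQ4 with h | ⟨s, hs⟩
  · exact Or.inl h
  · refine Or.inr ⟨s, fun b hb0 hpos => ?_⟩
    have hρ0 : s33s_rhoD G φ M p hp.out hpM (modularFunctionFieldFullC κ M)
        (s18_chart1 (L₀ := K₀) wN) hF hint true b ≠ 0 := by
      intro h0
      apply hb0
      rw [s44c_redI_ring G φ M p hpM hdeg hT hdegM (s18_chart1 (L₀ := K₀) wN) hF hint b,
        s33s_r_apply, h0, map_zero]
    rw [hs] at hpos
    exact (s59c_nodePlB_pos_iff G φ M p hpM hdeg hT hdegM (s18_chart1 (L₀ := K₀) wN) hD hF hint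
      (s18_ring (L₀ := K₀) (s34m_Vinf G M) (s18_chart1 w) : Set (s34m_F K₀ M))
      (fun _ hg => hg.1) hαB hβB hlift htw s b hρ0).mp hpos

end Wrap

section Five

variable (M p : ℕ) [NeZero M] [hp : Fact p.Prime] (hpM : ¬ p ∣ M) (h5 : 5 ≤ p)
  (K₀ : Type) [Field K₀] [NumberField K₀] (φ : K₀ →+* Kb)
  (κ : Type) [Field κ] [CharP κ p] [PerfectField κ]
  (G : s18g_GaussData K₀ κ) [IsDiscreteValuationRing G.A]
  (hdeg : s34m_HDeg K₀ M p) (hT : s18g_HT κ M) (hdegM : s18g_HDeg K₀ M)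
  (hπ : Function.Surjective G.π)

local notation "hFM" => (fun (f : LaurentSeries K₀)
  (hf : f ∈ laurentBaseChange K₀ (modularFunctionFieldFull M)) => s18g_baseChange_mem_Frac G M hf)
local notation "FbM" => modularFunctionFieldFullC κ M
local notation "OO" => s34m_VV G φ M p hp.out hpM
local notation "ϖF" => s34m_unif G (M * p)
local notation "jM" => s18g_jF (K := K₀) M
local notation "jN" => s18g_jF (K := K₀) (M * p)
local notation "S₁" => s18_chart1 (L₀ := K₀) (s18g_jF (K := K₀) (M * p))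
local notation "S₂" => s18_chart2 (L₀ := K₀) (s18g_jF (K := K₀) (M * p))

include h5 hπ in
/-- **[DIV-e] at the places over `j̄ = ∞`**: no node there, hence `e ∣ ord_{v₀} (red_∞ f)`. -/
theorem s59c_divp_chart2 (e : ℕ) (v₀ : Place κ ↥FbM)
    (hj : s18g_redF G M hFM hT hdegM ⟨jM, s18g_jF_mem_V G M hFM⟩ ∉ v₀.toValuationSubring)
    (f : s34m_F K₀ (M * p)) (hf0 : f ≠ 0)
    (hfI : f ∈ s34m_Vinf G (M * p)) (hfI' : f⁻¹ ∈ s34m_Vinf G (M * p))
    (hQ4₂ : ∀ 𝔫 : Ideal (s34x_ring (s34x_infRing OO) S₂), 𝔫.IsMaximal →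
      s34x_const (s34x_infRing OO) S₂ ((G.ϖ : G.A) : K₀)
        (s34x_inf_const_mem OO G.A (s34c_const_mem_VV G φ M p hp.out hpM) G.ϖ) ∈ 𝔫 →
      ∃ Φ : s34m_F K₀ (M * p), Φ ≠ 0 ∧ ∀ Q ∈ S₂,
        s34f_through (s34x_infRing OO) S₂ 𝔫 Q → Q.ord f = ((e : ℕ) : ℤ) * Q.ord Φ) :
    (e : ℤ) ∣ v₀.ord (s33y_redI G φ M p hpM hdeg hT hdegM ⟨f, hfI⟩) := by
  haveI : NeZero p := ⟨hp.out.ne_zero⟩
  haveI := s44c_ffGen1 M p K₀ φ
  haveI := s44c_ffGen2 M p K₀ φ
  have hinv : s18g_redF G M hFM hT hdegM ⟨jM⁻¹, s18g_jF_inv_mem_V G M hFM⟩ =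
      (s18g_redF G M hFM hT hdegM ⟨jM, s18g_jF_mem_V G M hFM⟩)⁻¹ :=
    s18f_redF_inv G M hT hdegM _ (s18g_jF_ne_zero M) (s18g_jF_mem_V G M hFM) _
  set X := s18g_redF G M hFM hT hdegM ⟨jM, s18g_jF_mem_V G M hFM⟩ with hX
  have hj' : s18g_redF G M hFM hT hdegM ⟨jM⁻¹, s18g_jF_inv_mem_V G M hFM⟩ ∈
      v₀.toValuationSubring := by
    rw [hinv]
    exact (v₀.toValuationSubring.mem_or_inv_mem X).resolve_left hj
  rcases s59c_divp_w_cases G φ M p hpM hdeg hT hdegM hπ jM⁻¹ (s18g_jF_inv_mem_V G M hFM)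
      (by rw [s44c_hred2]; exact s37b_coord_inv (s37b_coord_jq κ p))
      (by intro τ; rw [s44c_hred2, map_inv₀, coeffMap_jqModC])
      (s34df_hmain_five M p h5 K₀ φ κ G hπ hT hdegM).2
      jN⁻¹ (by rw [map_inv₀, s34m_alpha_jF])
      (s34f_alpha_inv G φ M p hp.out hpM)
      (fun g hg => s34d_alpha_liftJ₂ G φ M p hp.out hpM g hg)
      (fun g hg => s34d_beta_liftJ₂ G φ M p hp.out hpM g hg)
      e v₀ hj' f hf0 hfI hfI' hQ4₂ with h | ⟨s, hs⟩
  · exact h
  · exfalso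
    haveI : s.1.IsPrime := s.2.1.isPrime
    have hX0 : X ≠ 0 := by
      intro h0
      exact hj (h0 ▸ v₀.toValuationSubring.zero_mem)
    have hred : s33y_redI G φ M p hpM hdeg hT hdegM
        ⟨jN⁻¹, s33s_ring_mem OO S₂ true ⟨jN⁻¹, s33n_jinv_mem_ring G φ M p hp.out hpM⟩⟩ = X⁻¹ := by
      apply Subtype.ext
      rw [s33y_coe_redI, IntermediateField.coe_inv, hX, s44c_hred1]
      exact s33n_redInf_jinv G M p
    have hordX : v₀.ord X < 0 := by
      by_contra h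
      exact hj ((ff_mem_iff_ord_nonneg v₀ hX0).mpr (not_lt.mp h))
    have hmem := hs ⟨jN⁻¹, s33n_jinv_mem_ring G φ M p hp.out hpM⟩
      (by
        show s33y_redI G φ M p hpM hdeg hT hdegM
          ⟨jN⁻¹, s33s_ring_mem OO S₂ true ⟨jN⁻¹, s33n_jinv_mem_ring G φ M p hp.out hpM⟩⟩ ≠ 0
        rw [hred]; exact inv_ne_zero hX0)
      (by
        show 0 < v₀.ord (s33y_redI G φ M p hpM hdeg hT hdegM
          ⟨jN⁻¹, s33s_ring_mem OO S₂ true ⟨jN⁻¹, s33n_jinv_mem_ring G φ M p hp.out hpM⟩⟩)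
        rw [hred, v₀.ord_inv]; omega)
    exact s33n_no_node_at_infty G φ M p hp.out hpM s.1 (h𝔫 := s.2.1.isPrime) s.2.2.1 s.2.2.2 hmem

end Five

section Main

variable (M p : ℕ) [NeZero M] [hp : Fact p.Prime] (hpM : ¬ p ∣ M) (h5 : 5 ≤ p)
  (K₀ : Type) [Field K₀] [NumberField K₀] (φ : K₀ →+* Kb)
  (κ : Type) [Field κ] [CharP κ p] [PerfectField κ]
  (G : s18g_GaussData K₀ κ) [IsDiscreteValuationRing G.A]
  (hπ : Function.Surjective G.π)

local notation "hFM" => (fun (f : LaurentSeries K₀)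
  (hf : f ∈ laurentBaseChange K₀ (modularFunctionFieldFull M)) => s18g_baseChange_mem_Frac G M hf)
local notation "FbM" => modularFunctionFieldFullC κ M
local notation "OO" => s34m_VV G φ M p hp.out hpM
local notation "ϖF" => s34m_unif G (M * p)
local notation "jM" => s18g_jF (K := K₀) M
local notation "jN" => s18g_jF (K := K₀) (M * p)
local notation "S₁" => s18_chart1 (L₀ := K₀) (s18g_jF (K := K₀) (M * p))
local notation "S₂" => s18_chart2 (L₀ := K₀) (s18g_jF (K := K₀) (M * p))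

include h5 hπ in
/-- **[DEG] THE DEGREE CONGRUENCE.**  `f ≠ 0` a unit of `V_∞` with `V_0 (f) = a`, satisfying the exact (Q4) with exponent
`e` at every closed point of the special fibre (both charts).  Then `e ∣ a · ∑_s [k_s : κ]`, the sum over ALL nodes of
the `j`-chart. -/
theorem s59c_deg_cong (h2 : nuTwo M = 0) (h3 : nuThree M = 0)
    (hϖ : ((G.ϖ : G.A) : K₀) = (p : K₀))
    (e : ℕ) (f : s34m_F K₀ (M * p)) (hf0 : f ≠ 0)
    (hfI : f ∈ s34m_Vinf G (M * p)) (hfI' : f⁻¹ ∈ s34m_Vinf G (M * p))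
    (a : ℤ) (hfa : f * ϖF ^ (-a) ∈ s34m_Vzero G φ M p hp.out hpM)
    (hfa' : (f * ϖF ^ (-a))⁻¹ ∈ s34m_Vzero G φ M p hp.out hpM)
    (hQ4₁ : ∀ 𝔫 : Ideal (s34x_ring (s34x_infRing OO) S₁), 𝔫.IsMaximal →
      s34x_const (s34x_infRing OO) S₁ ((G.ϖ : G.A) : K₀)
        (s34x_inf_const_mem OO G.A (s34c_const_mem_VV G φ M p hp.out hpM) G.ϖ) ∈ 𝔫 →
      ∃ Φ : s34m_F K₀ (M * p), Φ ≠ 0 ∧ ∀ Q ∈ S₁,
        s34f_through (s34x_infRing OO) S₁ 𝔫 Q → Q.ord f = ((e : ℕ) : ℤ) * Q.ord Φ)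
    (hQ4₂ : ∀ 𝔫 : Ideal (s34x_ring (s34x_infRing OO) S₂), 𝔫.IsMaximal →
      s34x_const (s34x_infRing OO) S₂ ((G.ϖ : G.A) : K₀)
        (s34x_inf_const_mem OO G.A (s34c_const_mem_VV G φ M p hp.out hpM) G.ϖ) ∈ 𝔫 →
      ∃ Φ : s34m_F K₀ (M * p), Φ ≠ 0 ∧ ∀ Q ∈ S₂,
        s34f_through (s34x_infRing OO) S₂ 𝔫 Q → Q.ord f = ((e : ℕ) : ℤ) * Q.ord Φ)
    (T : Finset (s33s_Node OO ϖF S₁)) (hTall : ∀ s, s ∈ T) :
    (e : ℤ) ∣ a * ∑ s ∈ T, (Module.finrank κ (s33s_kG G φ M p hpM S₁ hπ s) : ℤ) := by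
  haveI : NeZero p := ⟨hp.out.ne_zero⟩
  haveI : FFGen K₀ (s18g_jF (K := K₀) (M * p)) := s44c_ffGen1 M p K₀ φ
  have hT : s18g_HT κ M := s18t_indep_j p M hpM κ
  have hdegM : s18g_HDeg K₀ M := fun _ b hb hn => s18g_exists_relation M φ hn b hb
  have hdeg : s34m_HDeg K₀ M p := s34r_deg_HDeg φ M p hp.out hpM
  -- the Dedekind ring of the `∞`-component
  letI algF := s18f_algF G M hT hdegM (s18g_jF (K := K₀) M) (s18g_jF_mem_V G M hFM)
  have hA : ∀ P : κ[X], algebraMap κ[X] ↥(modularFunctionFieldFullC κ M) P =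
      Polynomial.aeval (s18g_redF G M hFM hT hdegM ⟨s18g_jF (K := K₀) M, s18g_jF_mem_V G M hFM⟩) P :=
    s18f_algF_apply G M hT hdegM _ (s18g_jF_mem_V G M hFM)
  have hred1 : s18g_redF G M hFM hT hdegM ⟨s18g_jF (K := K₀) M, s18g_jF_mem_V G M hFM⟩ =
      s18g_jFbar κ M := s18g_redF_jV G M hFM hT hdegM
  have hcoord : s37b_Coord κ p
      ((s18g_redF G M hFM hT hdegM ⟨s18g_jF (K := K₀) M, s18g_jF_mem_V G M hFM⟩ :
        ↥(modularFunctionFieldFullC κ M)) : LaurentSeries κ) := by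
    rw [hred1]
    exact s37b_coord_jq κ p
  have hwtw : ∀ τ : κ ≃+* κ, ModularCurve.coeffMap (τ : κ →+* κ)
      ((s18g_redF G M hFM hT hdegM ⟨s18g_jF (K := K₀) M, s18g_jF_mem_V G M hFM⟩ :
        ↥(modularFunctionFieldFullC κ M)) : LaurentSeries κ) =
      ((s18g_redF G M hFM hT hdegM ⟨s18g_jF (K := K₀) M, s18g_jF_mem_V G M hFM⟩ :
        ↥(modularFunctionFieldFullC κ M)) : LaurentSeries κ) := by
    intro τ
    rw [hred1]
    exact coeffMap_jqModC _
  haveI hDed := (s37b_dedekind_of_coord κ p M _ hcoord hA).1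
  haveI hFrac := (s37b_dedekind_of_coord κ p M _ hcoord hA).2
  letI algκ : Algebra κ ↥(integralClosure κ[X] ↥(modularFunctionFieldFullC κ M)) :=
    ((algebraMap κ[X] ↥(integralClosure κ[X] ↥(modularFunctionFieldFullC κ M))).comp
      Polynomial.C).toAlgebra
  have hκ : ∀ c : κ, algebraMap ↥(integralClosure κ[X] ↥(modularFunctionFieldFullC κ M))
      ↥(modularFunctionFieldFullC κ M)
      (algebraMap κ ↥(integralClosure κ[X] ↥(modularFunctionFieldFullC κ M)) c) =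
      algebraMap κ ↥(modularFunctionFieldFullC κ M) c := by
    intro c
    show algebraMap ↥(integralClosure κ[X] ↥(modularFunctionFieldFullC κ M))
      ↥(modularFunctionFieldFullC κ M)
      (algebraMap κ[X] ↥(integralClosure κ[X] ↥(modularFunctionFieldFullC κ M))
        (Polynomial.C c)) = _
    rw [← IsScalarTower.algebraMap_apply, hA, Polynomial.aeval_C]
  haveI : IsScalarTower κ ↥(integralClosure κ[X] ↥(modularFunctionFieldFullC κ M))
      ↥(modularFunctionFieldFullC κ M) :=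
    IsScalarTower.of_algebraMap_eq (fun c => (hκ c).symm)
  -- the crossings are regular
  obtain ⟨x, hx, hBF⟩ := s36g_base_full K₀ φ M p hp.out hpM (Or.inl h5) κ G hπ
  have hXreg := s36b_leafCross M p hp.out hpM h2 h3 K₀ φ κ G hπ hϖ x hx hBF
  have hxj : x = s18g_jF (K := K₀) M := by
    obtain ⟨-, -, -, -, -, hbr, -⟩ := id hBF
    rcases hbr with ⟨-, h1⟩ | ⟨h3', -⟩ | ⟨h2', -⟩
    · exact h1
    · omega
    · omega
  rw [hxj, s34m_alpha_jF] at hXreg
  -- the frame of the Σ-datum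
  have hD := s33s_w_hD G M p hT hdegM (s18g_jF (K := K₀) M) (s18g_jF_mem_V G M hFM) hcoord
  have hF := s33s_w_hF G φ M p hpM hdeg hT hdegM
  have hint := s33s_w_hint G φ M p hpM hdeg hT hdegM (s18g_jF (K := K₀) M)
    (s18g_jF_mem_V G M hFM) hwtw (s18g_jF (K := K₀) (M * p)) (s34m_alpha_jF M p)
    (s34f_alpha_j G φ M p hp.out hpM)
  have hmain := (s34df_hmain_five M p h5 K₀ φ κ G hπ hT hdegM).1
  have hlift := s33s_w_hlift G M hT hdegM (s18g_jF (K := K₀) M) (s18g_jF_mem_V G M hFM) hmain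
  have htw := s33s_w_htw G M p hT hdegM (s18g_jF (K := K₀) M) (s18g_jF_mem_V G M hFM) hwtw
  have hαB := fun g hg => s34d_alpha_liftJ₁ G φ M p hp.out hpM g hg
  have hβB := fun g hg => s34d_beta_liftJ₁ G φ M p hp.out hpM g hg
  -- the node places
  set v : s33s_Node OO ϖF S₁ → Place κ ↥FbM :=
    s59c_nodePlB G φ M p hpM S₁ hD hF hint
      (s18_ring (L₀ := K₀) (s34m_Vinf G M) (s18_chart1 (s18g_jF (K := K₀) M)) :
        Set (s34m_F K₀ M)) (fun _ hg => hg.1) hαB hβB hlift htw with hv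
  have hvinj : Function.Injective v :=
    s59c_nodePlB_injective G φ M p hpM hdeg hT hdegM S₁ hD hF hint _ (fun _ hg => hg.1) hαB hβB
      hlift htw
  have hvdeg : ∀ s, (v s).deg = Module.finrank κ (s33s_kG G φ M p hpM S₁ hπ s) := fun s =>
    s59c_nodePlB_deg G φ M p hpM hπ S₁ hD hF hint _ (fun _ hg => hg.1) hαB hβB hlift htw s
  -- the divisor of `red_∞ f`
  haveI := s59c_fbar_hasPrincipalDivisors κ M p
  have hg0 : s33y_redI G φ M p hpM hdeg hT hdegM ⟨f, hfI⟩ ≠ 0 :=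
    (s59c_R_inv (s34m_Vinf G (M * p)) (s33y_redI G φ M p hpM hdeg hT hdegM) hf0 hfI hfI').2
  obtain ⟨Dv, hDv, hdeg0⟩ := HasPrincipalDivisors.exists_divisor (K := κ)
    (s33y_redI G φ M p hpM hdeg hT hdegM ⟨f, hfI⟩) hg0
  have key := s59c_dvd_deg_sum Dv hdeg0 (e : ℤ) a T v (hvinj.injOn) ?_ ?_
  · rw [Finset.sum_congr rfl (fun s _ => by rw [hvdeg s])] at key
    exact key
  · -- off the nodes
    intro w hw
    rw [hDv]
    by_cases hj : s18g_redF G M hFM hT hdegM ⟨jM, s18g_jF_mem_V G M hFM⟩ ∈ w.toValuationSubring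
    · rcases s59c_divp_chart_cases G φ M p hpM hdeg hT hdegM hπ S₁
        (D := ↥(integralClosure κ[X] ↥(modularFunctionFieldFullC κ M))) hD hF hint
        (s18_ring (L₀ := K₀) (s34m_Vinf G M) (s18_chart1 (s18g_jF (K := K₀) M)) :
          Set (s34m_F K₀ M))
        (fun _ hg => hg.1) hαB hβB hlift htw e w
        (s59m_D_le_place G M hT hdegM (s18g_jF (K := K₀) M) (s18g_jF_mem_V G M hFM) w hj)
        f hf0 hfI hfI' hQ4₁ with h | ⟨s, hs⟩
      · exact h
      · exact absurd hs (hw s (hTall s))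
    · exact s59c_divp_chart2 M p hpM h5 K₀ φ κ G hdeg hT hdegM hπ e w hj f hf0 hfI hfI' hQ4₂
  · -- at the nodes
    intro s _
    rw [hDv]
    haveI : s.1.IsMaximal := s.2.1
    haveI : s.1.IsPrime := s.2.1.isPrime
    have hcT := s59c_node_compThrough G φ M p hpM S₁ s true
    have hcF := s59c_node_compThrough G φ M p hpM S₁ s false
    exact s59c_nodePlB_cong G φ M p hpM hdeg hT hdegM hπ S₁ hD hF hint _ (fun _ hg => hg.1) hαB hβB
      hlift htw s (hXreg s.1 hcT hcF) e f hf0 hfI hfI' a hfa hfa'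
      (hQ4₁ s.1 s.2.1 (s.2.2.1 (s59m_unif_mem_comp G φ M p hpM S₁ true)))

end Main

end Fermat.Agent.Lib.S59
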