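/-
Programme (R2), node **[CAR]**, route R-DS′, leaf **[NODE-RAT]** of helper9's #3681, the ALGEBRA END (helper3,
prefix `s59u_`): a field `k` over a finite field `κ` all of whose elements satisfy `z ^ #κ = z` IS `κ`.

So for [NODE-RAT] no Galois descent is needed: with `κ = 𝔽_{q^{2d}}`, `Φ` the coefficientwise `q`-Frobenius of `κ((t))`
(`Φ^{2d} = id`) and `ev_P ∘ Φ² = (·)^{q²} ∘ ev_P` on `O_P`, one gets `ev_P(ȳ)^{q^{2d}} = ev_P(Φ^{2d} ȳ) = ev_P(ȳ)` for every
`ȳ ∈ O_P`, i.e. `z ^ #κ = z` for all `z ∈ k(s)` (`ev_P` is onto), and `s59u_bijective_of_pow_card` gives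
`Function.Bijective (algebraMap κ (k s))` — the hypothesis `hrat` of `s59u_Ygl_card'`.

* `s59u_bijective_of_pow_card`;  `s59u_pow_card_iter` : `(∀ z, f (g z) = (f z) ^ Q) → f (g^[d] z) = f z ^ (Q ^ d)`.
-/
import Mathlib

set_option autoImplicit false
set_option linter.unusedSectionVars false
set_option linter.unusedVariables false
set_option linter.style.haveILetI false

namespace Fermat.Agent.Lib.S59

open Polynomial in
/-- **a field over the finite field `κ` in which `z ^ #κ = z` identically is `κ`.** -/
theorem s59u_bijective_of_pow_card {κ k : Type*} [Field κ] [Finite κ] [Field k] [Algebra κ k]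
    (h : ∀ z : k, z ^ Nat.card κ = z) : Function.Bijective (algebraMap κ k) := by
  classical
  set N := Nat.card κ with hN
  have hN1 : 1 < N := Finite.one_lt_card
  set P : Polynomial k := Polynomial.X ^ N - Polynomial.X with hP
  have hP0 : P ≠ 0 := FiniteField.X_pow_card_sub_X_ne_zero k hN1
  have hdeg : P.natDegree = N := FiniteField.X_pow_card_sub_X_natDegree_eq k hN1
  have hroot : ∀ z : k, z ∈ P.roots.toFinset := fun z => by
    rw [Multiset.mem_toFinset, Polynomial.mem_roots hP0, Polynomial.IsRoot.def, hP,
      Polynomial.eval_sub, Polynomial.eval_pow, Polynomial.eval_X, h z, sub_self]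
  haveI : Finite k := Finite.of_injective (fun z : k => (⟨z, hroot z⟩ : P.roots.toFinset))
    (fun a b hab => congrArg Subtype.val hab)
  have hcard : Nat.card k ≤ N := by
    calc Nat.card k ≤ Nat.card P.roots.toFinset :=
          Nat.card_le_card_of_injective (fun z : k => (⟨z, hroot z⟩ : P.roots.toFinset))
            (fun a b hab => congrArg Subtype.val hab)
      _ = P.roots.toFinset.card := by rw [Nat.card_eq_fintype_card, Fintype.card_coe]
      _ ≤ Multiset.card P.roots := Multiset.toFinset_card_le _
      _ ≤ P.natDegree := Polynomial.card_roots' P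
      _ = N := hdeg
  exact Function.Injective.bijective_of_nat_card_le (algebraMap κ k).injective hcard

/-- iterating a `Q`-Frobenius-semilinear compatibility. -/
theorem s59u_pow_card_iter {X k : Type*} [Monoid k] (f : X → k) (g : X → X) (Q : ℕ)
    (h : ∀ z, f (g z) = f z ^ Q) (d : ℕ) (z : X) : f (g^[d] z) = f z ^ (Q ^ d) := by
  induction d generalizing z with
  | zero => rw [Function.iterate_zero, id, pow_zero, pow_one]
  | succ d ih => rw [Function.iterate_succ_apply, ih, h, ← pow_mul, pow_succ, mul_comm]

end Fermat.Agent.Lib.S59
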