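/-
Programme (R2) / node **[CAR]**, leaf **[L-e] = [NODE-RAT]** (helper8, prefix `s59c_`): **THE NODES OF THE `j`-CHART OF
`X₀(M q)` ARE RATIONAL OVER THE RESIDUE FIELD `κ` AS SOON AS `𝔽_{q²} ⊆ κ`** (`κ` finite).

No supersingular theory and no Frobenius lift: with `F ψ := ψ(t^q)` (`qExpand κ q`, `κ`-linear) the pairs of
reductions `(red_∞, red_0)` of `α^* g` and of (a chart-ring representative of) `β^* g`, `g` in the chart ring of level
`M`, are `(ψ, F ψ)` and `(F ψ, ψ)`; both reductions kill their kernels inside every node `𝔫`, so `ψ ↦ F (F ψ)` does not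
change the value in `k(𝔫) = B ⧸ 𝔫`; and `F^[2 f] ψ = ψ ^ #κ` when `#κ = q ^ (2 f)`.  Hence `z ^ #κ = z` on `k(𝔫)` and
`k(𝔫) = κ` (helper3's `s59u_bijective_of_pow_card`).

* `s59c_pow_card_abs`    : the abstract argument;
* `s59c_qExpand_iterate` : `(qExpand κ q)^[n] y = y ^ (q ^ n)` when `c ^ (q ^ n) = c` on `κ`;
* `s59c_node_pow_card`   : the Build frame of `Lib/S33/SSDatum.lean`;   `s59c_node_pow_card_w` : chart `{α w regular}`;
* `s59c_node_rat_five`   : chart `{j regular}`, `q ≥ 5`;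
* **`s59c_hrat`**        : the leaf `hrat` of helper9's `s59m_pkgEAt_of_leaves`, VERBATIM.
-/
import Fermat.Agent.Lib.S37.ESeries
import Fermat.Agent.Lib.S59.UCarNodeRat
import Fermat.Agent.Lib.S59.CNodeDegFive
import Fermat.Agent.Lib.S59.MCarTop

set_option autoImplicit false
set_option linter.unusedSectionVars false
set_option linter.style.haveILetI false
set_option linter.unusedVariables false
set_option synthInstance.maxHeartbeats 400000
set_option maxHeartbeats 1600000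

noncomputable section

namespace Fermat.Agent.Lib.S59

open ModularCurve AlgebraicCurve HahnSeries Polynomial Fermat.Agent.Lib.FF Fermat.Agent.Lib.S18
  Fermat.Agent.Lib.S34 Fermat.Agent.Lib.S37 Fermat.Agent.Lib.S33 Fermat.Agent.Lib.S36
  Fermat.Agent.Lib.S44 Fermat.Agent.Lib.S28

local notation "Kb" => AlgebraicClosure ℚ

section Abs

/-- **the abstract [NODE-RAT]**: two reductions `r₁, r₂` of a ring `B` killing `ker mk`, exchanged by an operator `F`
up to lifting (`(ψ, F ψ)` and `(F ψ, ψ)` are pairs of reductions), with `(F ∘ F)^[f] = (·)^Q`: every element of the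
residue field `k = mk B` is fixed by the `Q`-power map. -/
theorem s59c_pow_card_abs {B k L : Type*} [CommRing B] [Field k] [CommRing L]
    (mk : B →+* k) (hmk : Function.Surjective mk)
    (r1 r2 : B →+* L) (h1 : ∀ b, r1 b = 0 → mk b = 0) (h2 : ∀ b, r2 b = 0 → mk b = 0)
    (F : L → L)
    (hA : ∀ b : B, ∃ g : B, r1 g = r1 b ∧ r2 g = F (r1 b))
    (hB : ∀ b : B, ∃ g : B, r2 g = r2 b ∧ r1 g = F (r2 b))
    (Q f : ℕ) (hF : ∀ x : L, (F ∘ F)^[f] x = x ^ Q) (z : k) : z ^ Q = z := by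
  have hf1 : ∀ b b', r1 b = r1 b' → mk b = mk b' := fun b b' h => by
    have := h1 (b - b') (by rw [map_sub, h, sub_self])
    rwa [map_sub, sub_eq_zero] at this
  have hf2 : ∀ b b', r2 b = r2 b' → mk b = mk b' := fun b b' h => by
    have := h2 (b - b') (by rw [map_sub, h, sub_self])
    rwa [map_sub, sub_eq_zero] at this
  have step : ∀ b : B, ∃ g : B, r1 g = F (F (r1 b)) ∧ mk g = mk b := by
    intro b
    obtain ⟨g, hg1, hg2⟩ := hA b
    obtain ⟨g', hg'2, hg'1⟩ := hB g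
    exact ⟨g', by rw [hg'1, hg2], (hf2 g' g hg'2).trans (hf1 g b hg1)⟩
  have iter : ∀ n (b : B), ∃ g : B, r1 g = (F ∘ F)^[n] (r1 b) ∧ mk g = mk b := by
    intro n
    induction n with
    | zero => intro b; exact ⟨b, rfl, rfl⟩
    | succ n ih =>
      intro b
      obtain ⟨g, hg, hgm⟩ := ih b
      obtain ⟨g', hg', hgm'⟩ := step g
      refine ⟨g', ?_, hgm'.trans hgm⟩
      rw [Function.iterate_succ_apply', hg', hg]
      rfl
  obtain ⟨b, rfl⟩ := hmk z
  obtain ⟨g, hg, hgm⟩ := iter f b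
  rw [hF] at hg
  have := hf1 g (b ^ Q) (by rw [hg, map_pow])
  rw [← map_pow, ← this, hgm]

end Abs

section Frob

variable {κ : Type*} [CommRing κ] (q : ℕ) [hq : Fact q.Prime] [CharP κ q]

/-- `y ^ (q ^ n) = y (t ^ (q ^ n))` when the `q ^ n`-power map is the identity on the coefficients. -/
theorem s59c_qExpand_iterate (n : ℕ) (hfix : ∀ c : κ, c ^ (q ^ n) = c) (y : LaurentSeries κ) :
    haveI : NeZero q := ⟨hq.out.ne_zero⟩
    (qExpand κ q)^[n] y = y ^ (q ^ n) := by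
  haveI : NeZero q := ⟨hq.out.ne_zero⟩
  have hcomm : Function.Commute (qExpand κ q : LaurentSeries κ → LaurentSeries κ)
      (coeffMap (frobenius κ q)) := fun x => (coeffMap_qExpand (frobenius κ q) q x).symm
  have hpow : (fun x : LaurentSeries κ => x ^ q) =
      (qExpand κ q : LaurentSeries κ → LaurentSeries κ) ∘ (coeffMap (frobenius κ q)) :=
    funext fun x => s37e_pow_char q x
  have h1 : y ^ (q ^ n) = (fun x : LaurentSeries κ => x ^ q)^[n] y := by
    rw [pow_iterate]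
  rw [h1, hpow, hcomm.comp_iterate, Function.comp_apply]
  congr 1
  have h2 : ∀ m (x : LaurentSeries κ), (coeffMap (frobenius κ q))^[m] x =
      coeffMap ((frobenius κ q) ^ m) x := by
    intro m
    induction m with
    | zero => intro x; rw [Function.iterate_zero, id, pow_zero]; exact (coeffMap_id x).symm
    | succ m ih =>
      intro x
      rw [Function.iterate_succ_apply', ih, coeffMap_coeffMap, pow_succ']
      rfl
  rw [h2]
  have h3 : (frobenius κ q) ^ n = RingHom.id κ := by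
    ext c
    rw [RingHom.coe_pow, iterate_frobenius, hfix]
    rfl
  rw [h3, coeffMap_id]

end Frob

section Build

variable {K₀ : Type} [Field K₀] [CharZero K₀] [Algebra ℚ K₀] {κ : Type} [Field κ]
  (G : s18g_GaussData K₀ κ) (φ : K₀ →+* Kb) (M p : ℕ) [NeZero M] [hp : Fact p.Prime]
  (hpM : ¬ p ∣ M) [CharP κ p] [PerfectRing κ p]
  (hπ : Function.Surjective G.π)
  (S : Set (Place K₀ (s34m_F K₀ (M * p))))

local notation "FbM" => modularFunctionFieldFullC κ M
local notation "OO" => s34m_VV G φ M p hp.out hpM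
local notation "ϖF" => s34m_unif G (M * p)

variable {D : Type*} [CommRing D] [IsDedekindDomain D] [Algebra D ↥(modularFunctionFieldFullC κ M)]
  [IsFractionRing D ↥(modularFunctionFieldFullC κ M)]
  (hF : ∀ i y, s33s_redL G φ M p hp.out hpM i y ∈ modularFunctionFieldFullC κ M)
  (hint : ∀ (i : Bool) (b : s34x_ring (s34x_infRing (s34m_VV G φ M p hp.out hpM)) S),
    ∃ d : D, algebraMap D ↥(modularFunctionFieldFullC κ M) d =
      s33s_redO G φ M p hp.out hpM (modularFunctionFieldFullC κ M) hF i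
        ⟨(b : s34m_F K₀ (M * p)), b.2.1⟩)
  (BM : Set (s34m_F K₀ M)) (hBMV : ∀ g ∈ BM, g ∈ s34m_Vinf G M)
  (hαB : ∀ g ∈ BM, heckeAlphaBar K₀ M p g ∈
    s34x_ring (s34x_infRing (s34m_VV G φ M p hp.out hpM)) S)
  (hβB : ∀ g ∈ BM, ∃ b' ∈ s34x_ring (s34x_infRing (s34m_VV G φ M p hp.out hpM)) S,
    ∃ z, z ∈ s34m_Vinf G (M * p) ∧ z ∈ s34m_Vzero G φ M p hp.out hpM ∧
      b' - heckeBetaBar K₀ M p g = s34m_unif G (M * p) * z)
  (hlift : ∀ d : D, ∃ g, ∃ hg : g ∈ BM,
    s34m_redInf G M ⟨g, hBMV g hg⟩ =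
      ((algebraMap D ↥(modularFunctionFieldFullC κ M) d : ↥(modularFunctionFieldFullC κ M)) :
        LaurentSeries κ))

include hαB hβB hlift hF hint in
/-- **[NODE-RAT], Build frame**: if `#κ = p ^ (2 f)`, every element of the residue field of a node is fixed by the
`#κ`-power map. -/
theorem s59c_node_pow_card [Finite κ] (f : ℕ) (hcard : Nat.card κ = p ^ (2 * f))
    (s : s33s_Node OO ϖF S) (z : s33s_kG G φ M p hpM S hπ s) : z ^ Nat.card κ = z := by
  haveI : NeZero p := ⟨hp.out.ne_zero⟩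
  have hc := s33s_coe_rhoD G φ M p hp.out hpM (modularFunctionFieldFullC κ M) S hF hint
  have hα₁ : ∀ g (hg : g ∈ BM), s34df_r1 G φ M p hp.out hpM S ⟨_, hαB g hg⟩ =
      s34m_redInf G M ⟨g, hBMV g hg⟩ := fun g hg =>
    (s34df_r1_eq G φ M p hp.out hpM S _ _ (s34m_alpha_mem_Vinf G M p (hBMV g hg)) rfl).trans
      (s34m_redInf_alpha G M p ⟨g, hBMV g hg⟩)
  have hα₂ : ∀ g (hg : g ∈ BM), s34df_r2 G φ M p hp.out hpM S ⟨_, hαB g hg⟩ =
      qExpand κ p (s34m_redInf G M ⟨g, hBMV g hg⟩) := fun g hg =>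
    (s34df_r2_eq G φ M p hp.out hpM S _ _
      (s34m_alpha_mem_Vzero G φ M p hp.out hpM (hBMV g hg)) rfl).trans
      (s34m_redZero_alpha G φ M p hp.out hpM ⟨g, hBMV g hg⟩)
  have hβ₁ : ∀ g (hg : g ∈ BM) (b' : s34m_F K₀ (M * p))
      (hb' : b' ∈ s34x_ring (s34x_infRing (s34m_VV G φ M p hp.out hpM)) S)
      (z : s34m_F K₀ (M * p)), z ∈ s34m_Vinf G (M * p) →
      b' - heckeBetaBar K₀ M p g = s34m_unif G (M * p) * z →
      s34df_r1 G φ M p hp.out hpM S ⟨b', hb'⟩ = qExpand κ p (s34m_redInf G M ⟨g, hBMV g hg⟩) := by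
    intro g hg b' hb' z hz e
    rw [s34df_r1_apply, ← s34m_redInf_beta G M p ⟨g, hBMV g hg⟩]
    exact s34df_redInf_congr G M p _ _ hz e
  have hβ₂ : ∀ g (hg : g ∈ BM) (b' : s34m_F K₀ (M * p))
      (hb' : b' ∈ s34x_ring (s34x_infRing (s34m_VV G φ M p hp.out hpM)) S)
      (z : s34m_F K₀ (M * p)), z ∈ s34m_Vzero G φ M p hp.out hpM →
      b' - heckeBetaBar K₀ M p g = s34m_unif G (M * p) * z →
      s34df_r2 G φ M p hp.out hpM S ⟨b', hb'⟩ = s34m_redInf G M ⟨g, hBMV g hg⟩ := by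
    intro g hg b' hb' z hz e
    rw [s34df_r2_apply, ← s34m_redZero_beta G φ M p hp.out hpM ⟨g, hBMV g hg⟩]
    exact s34df_redZero_congr G φ M p hp.out hpM _ _ hz e
  have hfix : ∀ c : κ, c ^ (p ^ (2 * f)) = c := by
    intro c
    rw [← hcard]
    letI := Fintype.ofFinite κ
    rw [Nat.card_eq_fintype_card]
    exact FiniteField.pow_card c
  refine s59c_pow_card_abs (s33s_kGmk G φ M p hpM hπ S s) Ideal.Quotient.mk_surjective
    (s34df_r1 G φ M p hp.out hpM S) (s34df_r2 G φ M p hp.out hpM S) ?_ ?_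
    (qExpand κ p) ?_ ?_ (Nat.card κ) f ?_ z
  · intro b hb
    rw [s33s_kGmk_eq_zero_iff]
    refine s.2.2.1 ?_
    rw [s33s_mem_comp]
    rw [s34df_r1_apply, s34m_redInf_eq_zero_iff] at hb
    exact hb
  · intro b hb
    rw [s33s_kGmk_eq_zero_iff]
    refine s.2.2.2 ?_
    rw [s33s_mem_comp]
    rw [s34df_r2_apply, s34m_redZero_eq_zero_iff] at hb
    exact hb
  · intro b
    obtain ⟨g₀, hg₀, e₀⟩ := hlift (s33s_rhoD G φ M p hp.out hpM (modularFunctionFieldFullC κ M) S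
      hF hint true b)
    rw [(hc b).1] at e₀
    exact ⟨⟨_, hαB g₀ hg₀⟩, by rw [hα₁ g₀ hg₀, e₀], by rw [hα₂ g₀ hg₀, e₀]⟩
  · intro b
    obtain ⟨g₀, hg₀, e₀⟩ := hlift (s33s_rhoD G φ M p hp.out hpM (modularFunctionFieldFullC κ M) S
      hF hint false b)
    rw [(hc b).2] at e₀
    obtain ⟨b', hb', z, hzI, hz0, ez⟩ := hβB g₀ hg₀
    exact ⟨⟨b', hb'⟩, by rw [hβ₂ g₀ hg₀ b' hb' z hz0 ez, e₀],
      by rw [hβ₁ g₀ hg₀ b' hb' z hzI ez, e₀]⟩
  · intro x
    have h1 : ((qExpand κ p : LaurentSeries κ → LaurentSeries κ) ∘ (qExpand κ p))^[f] x =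
        (qExpand κ p)^[2 * f] x := by
      rw [Function.iterate_mul]
      rfl
    rw [h1, s59c_qExpand_iterate p (2 * f) hfix x, hcard]

end Build

section Wrap

variable {K₀ : Type} [Field K₀] [CharZero K₀] [Algebra ℚ K₀] {κ : Type} [Field κ]
  (G : s18g_GaussData K₀ κ) (φ : K₀ →+* Kb) (M p : ℕ) [NeZero M] [hp : Fact p.Prime]
  (hpM : ¬ p ∣ M) [CharP κ p] [PerfectField κ]

local notation "𝓕M" => laurentBaseChange K₀ (modularFunctionFieldFull M)
local notation "𝓕N" => laurentBaseChange K₀ (modularFunctionFieldFull (M * p))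
local notation "hFM" => (fun (f : LaurentSeries K₀)
  (hf : f ∈ laurentBaseChange K₀ (modularFunctionFieldFull M)) => s18g_baseChange_mem_Frac G M hf)
local notation "FbM" => modularFunctionFieldFullC κ M
local notation "OO" => s34m_VV G φ M p hp.out hpM
local notation "ϖF" => s34m_unif G (M * p)

variable (hdeg : s34m_HDeg K₀ M p) (hT : s18g_HT κ M) (hdegM : s18g_HDeg K₀ M)
  (hπ : Function.Surjective G.π)

variable [IsDiscreteValuationRing G.A] (w : ↥(laurentBaseChange K₀ (modularFunctionFieldFull M))) (hwV : w ∈ s18g_V G (laurentBaseChange K₀ (modularFunctionFieldFull M)) (fun (f : LaurentSeries K₀) (hf : f ∈ laurentBaseChange K₀ (modularFunctionFieldFull M)) => s18g_baseChange_mem_Frac G M hf))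
    (hcoord : s37b_Coord κ p
      ((s18g_redF G M (fun (f : LaurentSeries K₀) (hf : f ∈ laurentBaseChange K₀ (modularFunctionFieldFull M)) => s18g_baseChange_mem_Frac G M hf) hT hdegM ⟨w, hwV⟩ : ↥(modularFunctionFieldFullC κ M)) : LaurentSeries κ))
    (hwtw : ∀ τ : κ ≃+* κ, ModularCurve.coeffMap (τ : κ →+* κ)
      ((s18g_redF G M (fun (f : LaurentSeries K₀) (hf : f ∈ laurentBaseChange K₀ (modularFunctionFieldFull M)) => s18g_baseChange_mem_Frac G M hf) hT hdegM ⟨w, hwV⟩ : ↥(modularFunctionFieldFullC κ M)) : LaurentSeries κ) =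
      ((s18g_redF G M (fun (f : LaurentSeries K₀) (hf : f ∈ laurentBaseChange K₀ (modularFunctionFieldFull M)) => s18g_baseChange_mem_Frac G M hf) hT hdegM ⟨w, hwV⟩ : ↥(modularFunctionFieldFullC κ M)) : LaurentSeries κ))
    (hmain : letI := s18f_algF G M hT hdegM w hwV
      ∀ z : ↥(modularFunctionFieldFullC κ M), IsIntegral κ[X] z →
        ∃ (b : ↥(laurentBaseChange K₀ (modularFunctionFieldFull M))) (hb : b ∈ s18_ring (L₀ := K₀) (s18g_V G (laurentBaseChange K₀ (modularFunctionFieldFull M)) (fun (f : LaurentSeries K₀) (hf : f ∈ laurentBaseChange K₀ (modularFunctionFieldFull M)) => s18g_baseChange_mem_Frac G M hf)) (s18_chart1 w)),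
          s18g_redF G M (fun (f : LaurentSeries K₀) (hf : f ∈ laurentBaseChange K₀ (modularFunctionFieldFull M)) => s18g_baseChange_mem_Frac G M hf) hT hdegM ⟨b, hb.1⟩ = z)
    (wN : ↥(laurentBaseChange K₀ (modularFunctionFieldFull (M * p)))) (hwN : heckeAlphaBar K₀ M p w = wN) [FFGen K₀ wN]
    (hαN : ∀ y ∈ s34x_infRing (s34m_VV G φ M p hp.out hpM), ∃ s : G.A[X], s.map G.π ≠ 0 ∧
      (s18b_ev G (laurentBaseChange K₀ (modularFunctionFieldFull (M * p))) wN).IsIntegralElem (s18b_ev G (laurentBaseChange K₀ (modularFunctionFieldFull (M * p))) wN s * y))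
    (hαB : ∀ g ∈ (s18_ring (L₀ := K₀) (s34m_Vinf G M) (s18_chart1 w) : Set (s34m_F K₀ M)),
      heckeAlphaBar K₀ M p g ∈ s34x_ring (s34x_infRing (s34m_VV G φ M p hp.out hpM))
        (s18_chart1 (L₀ := K₀) wN))
    (hβB : ∀ g ∈ (s18_ring (L₀ := K₀) (s34m_Vinf G M) (s18_chart1 w) : Set (s34m_F K₀ M)),
      ∃ b' ∈ s34x_ring (s34x_infRing (s34m_VV G φ M p hp.out hpM)) (s18_chart1 (L₀ := K₀) wN),
      ∃ z, z ∈ s34m_Vinf G (M * p) ∧ z ∈ s34m_Vzero G φ M p hp.out hpM ∧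
        b' - heckeBetaBar K₀ M p g = s34m_unif G (M * p) * z)

include hπ hwtw hmain hwN hαN hαB hβB hcoord hdeg in
/-- **[NODE-RAT] for the chart `{α w regular}`.** -/
theorem s59c_node_pow_card_w [Finite κ] (f : ℕ) (hcard : Nat.card κ = p ^ (2 * f))
    (s : s33s_Node OO ϖF (s18_chart1 (L₀ := K₀) wN))
    (z : s33s_kG G φ M p hpM (s18_chart1 (L₀ := K₀) wN) hπ s) : z ^ Nat.card κ = z := by
  letI := s18f_algF G M hT hdegM w hwV
  have hA : ∀ P : κ[X], algebraMap κ[X] ↥(modularFunctionFieldFullC κ M) P =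
      Polynomial.aeval (s18g_redF G M hFM hT hdegM ⟨w, hwV⟩) P :=
    s18f_algF_apply G M hT hdegM w hwV
  haveI := (s37b_dedekind_of_coord κ p M (s18g_redF G M hFM hT hdegM ⟨w, hwV⟩) hcoord hA).1
  haveI := (s37b_dedekind_of_coord κ p M (s18g_redF G M hFM hT hdegM ⟨w, hwV⟩) hcoord hA).2
  have hF := s33s_w_hF G φ M p hpM hdeg hT hdegM
  have hint := s33s_w_hint G φ M p hpM hdeg hT hdegM w hwV hwtw wN hwN hαN
  have hlift := s33s_w_hlift G M hT hdegM w hwV hmain
  exact s59c_node_pow_card G φ M p hpM hπ (s18_chart1 (L₀ := K₀) wN)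
    (D := ↥(integralClosure κ[X] ↥(modularFunctionFieldFullC κ M))) hF hint
    (s18_ring (L₀ := K₀) (s34m_Vinf G M) (s18_chart1 w) : Set (s34m_F K₀ M))
    (fun _ hg => hg.1) hαB hβB hlift f hcard s z

end Wrap

section Five

variable (M p : ℕ) [NeZero M] [hp : Fact p.Prime] (hpM : ¬ p ∣ M) (h5 : 5 ≤ p)
  (K₀ : Type) [Field K₀] [NumberField K₀] (φ : K₀ →+* Kb)
  (κ : Type) [Field κ] [CharP κ p] [PerfectField κ]
  (G : s18g_GaussData K₀ κ) [IsDiscreteValuationRing G.A]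
  (hπ : Function.Surjective G.π)

local notation "hFM" => (fun (f : LaurentSeries K₀)
  (hf : f ∈ laurentBaseChange K₀ (modularFunctionFieldFull M)) => s18g_baseChange_mem_Frac G M hf)
local notation "FbM" => modularFunctionFieldFullC κ M
local notation "OO" => s34m_VV G φ M p hp.out hpM
local notation "ϖF" => s34m_unif G (M * p)
local notation "jM" => s18g_jF (K := K₀) M
local notation "jN" => s18g_jF (K := K₀) (M * p)
local notation "S₁" => s18_chart1 (L₀ := K₀) (s18g_jF (K := K₀) (M * p))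

include h5 in
/-- **[NODE-RAT], chart `{j regular}`, `p ≥ 5`**: over a finite residue field with `#κ = p ^ (2 f)` (i.e. `𝔽_{p²} ⊆ κ`)
every node is `κ`-rational. -/
theorem s59c_node_rat_five [Finite κ] (f : ℕ) (hcard : Nat.card κ = p ^ (2 * f))
    (s : s33s_Node OO ϖF S₁) :
    Function.Bijective (algebraMap κ (s33s_kG G φ M p hpM S₁ hπ s)) := by
  haveI : NeZero p := ⟨hp.out.ne_zero⟩
  haveI := s44c_ffGen1 M p K₀ φ
  have hdeg : s34m_HDeg K₀ M p := s34r_deg_HDeg φ M p hp.out hpM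
  have hT : s18g_HT κ M := s18t_indep_j p M hpM κ
  have hdegM : s18g_HDeg K₀ M := fun _ b hb hn => s18g_exists_relation M φ hn b hb
  refine s59u_bijective_of_pow_card fun z => ?_
  exact s59c_node_pow_card_w G φ M p hpM hdeg hT hdegM hπ jM (s18g_jF_mem_V G M hFM)
    (by rw [s44c_hred1]; exact s37b_coord_jq κ p)
    (by intro τ; rw [s44c_hred1]; exact coeffMap_jqModC _)
    (s34df_hmain_five M p h5 K₀ φ κ G hπ hT hdegM).1
    jN (s34m_alpha_jF M p)
    (s34f_alpha_j G φ M p hp.out hpM)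
    (fun g hg => s34d_alpha_liftJ₁ G φ M p hp.out hpM g hg)
    (fun g hg => s34d_beta_liftJ₁ G φ M p hp.out hpM g hg)
    f hcard s z

end Five

section Canon

/-- `q² - 1 ∣ qⁿ - 1` forces `n` even. -/
theorem s59c_even_of_dvd (q n : ℕ) (hq : 2 ≤ q) (h : q ^ 2 - 1 ∣ q ^ n - 1) : 2 ∣ n := by
  by_contra hodd
  obtain ⟨d, rfl⟩ : ∃ d, n = 2 * d + 1 := ⟨n / 2, by omega⟩
  have hm : 1 ≤ q ^ 2 := Nat.one_le_pow _ _ (by omega)
  have h1 : q ^ 2 ≡ 1 [MOD q ^ 2 - 1] := by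
    have e : q ^ 2 = (q ^ 2 - 1) + 1 := by omega
    conv_lhs => rw [e]
    exact Nat.add_modEq_left
  have h2 : q ^ (2 * d + 1) ≡ q [MOD q ^ 2 - 1] := by
    have e : q ^ (2 * d + 1) = (q ^ 2) ^ d * q := by rw [pow_succ, pow_mul]
    have := (h1.pow d).mul_right q
    rw [one_pow, one_mul] at this
    rw [e]
    exact this
  have h3 : 1 ≡ q ^ (2 * d + 1) [MOD q ^ 2 - 1] :=
    (Nat.modEq_iff_dvd' (Nat.one_le_pow _ _ (by omega))).mpr h
  have h4 : 1 ≡ q [MOD q ^ 2 - 1] := h3.trans h2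
  have h5 : q ^ 2 - 1 ∣ q - 1 := (Nat.modEq_iff_dvd' (by omega)).mp h4
  have h6 : q ^ 2 - 1 ≤ q - 1 := Nat.le_of_dvd (by omega) h5
  have h7 : q * 2 ≤ q ^ 2 := by rw [pow_two]; exact Nat.mul_le_mul_left q hq
  omega


variable (M q : ℕ) [NeZero M] [hq : Fact q.Prime] (hqM : ¬ q ∣ M) (h5 : 5 ≤ q)

include h5 in
/-- **[L-e] = the leaf `hrat` of `s59m_pkgEAt_of_leaves`**: over an inertia-fixed base field containing `μ_{q²-1}` every
node of the `j`-chart of `X₀(M q)` is rational over the residue field. -/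
theorem s59c_hrat :
    ∀ (P : ValuationSubring Kb) (hP : P.LiesOverPrime q) (L₀ : IntermediateField ℚ Kb)
      [FiniteDimensional ℚ ↥L₀] [CharP (IsLocalRing.ResidueField ↥(s18q_A0 P L₀)) q]
      [PerfectField (IsLocalRing.ResidueField ↥(s18q_A0 P L₀))]
      (hunr : ∀ τ ∈ P.inertiaSubgroupIn ℚ, ∀ a ∈ L₀, τ a = a),
      (∃ ζ : Kb, ζ ∈ L₀ ∧ IsPrimitiveRoot ζ (q ^ 2 - 1)) →
      ∀ s : s59m_NodeU M q hqM P hP L₀ hunr,
        Function.Bijective (algebraMap (IsLocalRing.ResidueField ↥(s18q_A0 P L₀))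
          (s33s_kG (@s37r_G P L₀ (s18q_A0_dvr P L₀ hP) ((q : ℕ) : ↥(s18q_A0 P L₀))
            (s59m_q_irreducible q P hP L₀ hunr)) (algebraMap ↥L₀ Kb) M q hqM
            (s18_chart1 (L₀ := ↥L₀) (s18g_jF (K := ↥L₀) (M * q))) IsLocalRing.residue_surjective s)) := by
  intro P hP L₀ _ _ _ hunr hζ s
  obtain ⟨ζ, hζL, hζ⟩ := hζ
  haveI : NumberField ↥L₀ := ⟨⟩
  haveI hfin : Finite (IsLocalRing.ResidueField ↥(s18q_A0 P L₀)) := s59m_residue_finite q P hP L₀
  have hq2 : 2 ≤ q := hq.out.two_le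
  have hn0 : q ^ 2 - 1 ≠ 0 := by
    have : 2 * 2 ≤ q ^ 2 := by rw [pow_two]; exact Nat.mul_le_mul hq2 hq2
    omega
  have hcop : Nat.Coprime (q ^ 2 - 1) q := by
    have h1 : Nat.Coprime (q ^ 2 - 1) (q ^ 2) := by
      have e : q ^ 2 = (q ^ 2 - 1) + 1 := by omega
      conv_rhs => rw [e]
      simp
    exact Nat.Coprime.coprime_dvd_right (Dvd.intro_left (q ^ 1) (by rw [← pow_succ])) h1
  have hdvd := s59m_dvd_card_units q P hP L₀ hn0 hcop hζL hζ
  letI := Fintype.ofFinite (IsLocalRing.ResidueField ↥(s18q_A0 P L₀))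
  obtain ⟨n, -, hn⟩ := FiniteField.card (IsLocalRing.ResidueField ↥(s18q_A0 P L₀)) q
  rw [Nat.card_units, Nat.card_eq_fintype_card, hn] at hdvd
  obtain ⟨f, hf⟩ := s59c_even_of_dvd q n hq2 hdvd
  have hcard : Nat.card (IsLocalRing.ResidueField ↥(s18q_A0 P L₀)) = q ^ (2 * f) := by
    rw [Nat.card_eq_fintype_card, hn, hf]
  haveI : IsDiscreteValuationRing ↥(s18q_A0 P L₀) := s18q_A0_dvr P L₀ hP
  haveI : IsDiscreteValuationRing ↥(s37r_G P L₀ ((q : ℕ) : ↥(s18q_A0 P L₀))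
      (s59m_q_irreducible q P hP L₀ hunr)).A := s18q_A0_dvr P L₀ hP
  exact s59c_node_rat_five M q hqM h5 ↥L₀ (algebraMap ↥L₀ Kb)
    (IsLocalRing.ResidueField ↥(s18q_A0 P L₀))
    (s37r_G P L₀ ((q : ℕ) : ↥(s18q_A0 P L₀)) (s59m_q_irreducible q P hP L₀ hunr))
    IsLocalRing.residue_surjective f hcard s

end Canon

end Fermat.Agent.Lib.S59
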