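/-
Programme (R2) = S59, case (P), leaf **[NODE-FIXED]** (helper8, prefix `s59c_`; helper7's request #3797):
**A GALOIS AUTOMORPHISM OF EVEN RESIDUAL DEGREE FIXES EVERY NODE OF `X₀(M p)`.**

`σ₀ : K₀ ≃ₐ[ℚ] K₀` preserving the Gauss ring `A` and inducing `Fr^{2n}` on the residue field `κ`;
`τ := arithmeticRingAut (modularFunctionFieldFull (M p)) σ₀`.  For every node `s` of a chart `S` of the S33/S34 model
(Build frame of `Lib/S33/SSDatum.lean` = the frame of `s59c_node_pow_card`) and every `b` in the chart ring `B` with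
`τ b ∈ B`:

  `mk_s (τ b) = mk_s (b) ^ (p ^ (2 n))`   in `k(s) = B ⧸ 𝔫_s`        (**`s59c_node_frob`**),
  `b ∈ 𝔫_s → τ b ∈ 𝔫_s`                                              (**`s59c_node_fixed`**).

No supersingular theory: with `F ψ := ψ(t^p)` the value in `k(s)` is invariant under `ψ ↦ F (F ψ)` (the argument of
[NODE-RAT], `CNodeRat.lean`), `red_∞ (τ b) = τ̃ (red_∞ b)` (`τ̃ = coeffMap Fr^{2n}`, main's `s35m_redInf_galois`), and
`F^[2n] (τ̃ x) = x ^ (p ^ (2n))`.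

* `s59c_node_fixed_abs`  : the abstract argument;   `s59c_pow_eq_qExpand_iterate` : `y ^ (q ^ m) = F^[m] (Fr^m y)`;
* `s59c_node_frob`, `s59c_node_fixed`, `s59c_node_fixed_smul` : the Build frame;
* `s59c_node_fixed_w`    : chart `{α w regular}`;  `s59c_node_fixed_chart` : a chart package `C : s59b_Chart …`;
* `s59c_node_fixed_five` : chart `{j regular}`, `p ≥ 5`;  `s59c_node_fixed_t2`, `s59c_node_fixed_t3` : chart `{t regular}` for
  ANY `t` of level `M p` with `q`-expansion `t₂` (`p = 3`, `2 ∣ M`), resp. `t₃` (`p = 2`, `3 ∣ M`).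
-/
import Fermat.Agent.Lib.S59.CNodeRat
import Fermat.Agent.Lib.S59.B4ChartT
import Fermat.Agent.Lib.S35.MSigma

set_option autoImplicit false
set_option linter.unusedSectionVars false
set_option linter.style.haveILetI false
set_option linter.unusedVariables false
set_option synthInstance.maxHeartbeats 400000
set_option maxHeartbeats 1600000

noncomputable section

namespace Fermat.Agent.Lib.S59

open ModularCurve AlgebraicCurve HahnSeries Polynomial Fermat.Agent.Lib.FF Fermat.Agent.Lib.S18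
  Fermat.Agent.Lib.S34 Fermat.Agent.Lib.S35 Fermat.Agent.Lib.S37 Fermat.Agent.Lib.S33
  Fermat.Agent.Lib.S36 Fermat.Agent.Lib.S44 Fermat.Agent.Lib.S28

local notation "Kb" => AlgebraicClosure ℚ

section Abs

/-- **the abstract [NODE-FIXED]**: two reductions `r₁, r₂` of a ring `B` killing `ker mk`, exchanged by an operator `F` up to
lifting, an operator `τ̃` with `(F ∘ F)^[n] ∘ τ̃ = (·)^Q`: if `r₁ b' = τ̃ (r₁ b)` then `mk b' = (mk b) ^ Q`. -/
theorem s59c_node_fixed_abs {B k L : Type*} [CommRing B] [Field k] [CommRing L]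
    (mk : B →+* k)
    (r1 r2 : B →+* L) (h1 : ∀ b, r1 b = 0 → mk b = 0) (h2 : ∀ b, r2 b = 0 → mk b = 0)
    (F : L → L)
    (hA : ∀ b : B, ∃ g : B, r1 g = r1 b ∧ r2 g = F (r1 b))
    (hB : ∀ b : B, ∃ g : B, r2 g = r2 b ∧ r1 g = F (r2 b))
    (τt : L → L) (Q n : ℕ) (hF : ∀ x : L, (F ∘ F)^[n] (τt x) = x ^ Q)
    (b b' : B) (hb' : r1 b' = τt (r1 b)) : mk b' = mk b ^ Q := by
  have hf1 : ∀ b b', r1 b = r1 b' → mk b = mk b' := fun b b' h => by
    have := h1 (b - b') (by rw [map_sub, h, sub_self])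
    rwa [map_sub, sub_eq_zero] at this
  have hf2 : ∀ b b', r2 b = r2 b' → mk b = mk b' := fun b b' h => by
    have := h2 (b - b') (by rw [map_sub, h, sub_self])
    rwa [map_sub, sub_eq_zero] at this
  have step : ∀ b : B, ∃ g : B, r1 g = F (F (r1 b)) ∧ mk g = mk b := by
    intro b
    obtain ⟨g, hg1, hg2⟩ := hA b
    obtain ⟨g', hg'2, hg'1⟩ := hB g
    exact ⟨g', by rw [hg'1, hg2], (hf2 g' g hg'2).trans (hf1 g b hg1)⟩
  have iter : ∀ m (b : B), ∃ g : B, r1 g = (F ∘ F)^[m] (r1 b) ∧ mk g = mk b := by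
    intro m
    induction m with
    | zero => intro b; exact ⟨b, rfl, rfl⟩
    | succ m ih =>
      intro b
      obtain ⟨g, hg, hgm⟩ := ih b
      obtain ⟨g', hg', hgm'⟩ := step g
      refine ⟨g', ?_, hgm'.trans hgm⟩
      rw [Function.iterate_succ_apply', hg', hg]
      rfl
  obtain ⟨g, hg, hgm⟩ := iter n b'
  rw [hb', hF] at hg
  have := hf1 g (b ^ Q) (by rw [hg, map_pow])
  rw [← hgm, this, map_pow]

end Abs

section Frob

variable {κ : Type*} [Field κ] (q : ℕ) [hq : Fact q.Prime] [CharP κ q]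

/-- `y ^ (q ^ m) = F^[m] (Fr^m y)`: the `q ^ m`-th power is the `m`-fold `t ↦ t ^ q` of the coefficientwise `q ^ m`-Frobenius. -/
theorem s59c_pow_eq_qExpand_iterate (m : ℕ) (y : LaurentSeries κ) :
    haveI : NeZero q := ⟨hq.out.ne_zero⟩
    y ^ (q ^ m) = (qExpand κ q)^[m] (coeffMap (iterateFrobenius κ q m) y) := by
  haveI : NeZero q := ⟨hq.out.ne_zero⟩
  have hcomm : Function.Commute (qExpand κ q : LaurentSeries κ → LaurentSeries κ)
      (coeffMap (frobenius κ q)) := fun x => (coeffMap_qExpand (frobenius κ q) q x).symm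
  have hpow : (fun x : LaurentSeries κ => x ^ q) =
      (qExpand κ q : LaurentSeries κ → LaurentSeries κ) ∘ (coeffMap (frobenius κ q)) :=
    funext fun x => s37e_pow_char q x
  have h1 : y ^ (q ^ m) = (fun x : LaurentSeries κ => x ^ q)^[m] y := by
    rw [pow_iterate]
  rw [h1, hpow, hcomm.comp_iterate, Function.comp_apply]
  congr 1
  have h2 : ∀ m (x : LaurentSeries κ), (coeffMap (frobenius κ q))^[m] x =
      coeffMap ((frobenius κ q) ^ m) x := by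
    intro m
    induction m with
    | zero => intro x; rw [Function.iterate_zero, id, pow_zero]; exact (coeffMap_id x).symm
    | succ m ih =>
      intro x
      rw [Function.iterate_succ_apply', ih, coeffMap_coeffMap, pow_succ']
      rfl
  rw [h2]
  have h3 : (frobenius κ q) ^ m = iterateFrobenius κ q m := by
    ext c
    rw [RingHom.coe_pow, iterate_frobenius, iterateFrobenius_def]
  rw [h3]

end Frob

section Build

variable {K₀ : Type} [Field K₀] [CharZero K₀] [Algebra ℚ K₀] {κ : Type} [Field κ]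
  (G : s18g_GaussData K₀ κ) (φ : K₀ →+* Kb) (M p : ℕ) [NeZero M] [hp : Fact p.Prime]
  (hpM : ¬ p ∣ M) [CharP κ p] [PerfectRing κ p]
  (hπ : Function.Surjective G.π)
  (S : Set (Place K₀ (s34m_F K₀ (M * p))))

local notation "FbM" => modularFunctionFieldFullC κ M
local notation "OO" => s34m_VV G φ M p hp.out hpM
local notation "ϖF" => s34m_unif G (M * p)

variable {D : Type*} [CommRing D] [IsDedekindDomain D] [Algebra D ↥(modularFunctionFieldFullC κ M)]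
  [IsFractionRing D ↥(modularFunctionFieldFullC κ M)]
  (hF : ∀ i y, s33s_redL G φ M p hp.out hpM i y ∈ modularFunctionFieldFullC κ M)
  (hint : ∀ (i : Bool) (b : s34x_ring (s34x_infRing (s34m_VV G φ M p hp.out hpM)) S),
    ∃ d : D, algebraMap D ↥(modularFunctionFieldFullC κ M) d =
      s33s_redO G φ M p hp.out hpM (modularFunctionFieldFullC κ M) hF i
        ⟨(b : s34m_F K₀ (M * p)), b.2.1⟩)
  (BM : Set (s34m_F K₀ M)) (hBMV : ∀ g ∈ BM, g ∈ s34m_Vinf G M)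
  (hαB : ∀ g ∈ BM, heckeAlphaBar K₀ M p g ∈
    s34x_ring (s34x_infRing (s34m_VV G φ M p hp.out hpM)) S)
  (hβB : ∀ g ∈ BM, ∃ b' ∈ s34x_ring (s34x_infRing (s34m_VV G φ M p hp.out hpM)) S,
    ∃ z, z ∈ s34m_Vinf G (M * p) ∧ z ∈ s34m_Vzero G φ M p hp.out hpM ∧
      b' - heckeBetaBar K₀ M p g = s34m_unif G (M * p) * z)
  (hlift : ∀ d : D, ∃ g, ∃ hg : g ∈ BM,
    s34m_redInf G M ⟨g, hBMV g hg⟩ =
      ((algebraMap D ↥(modularFunctionFieldFullC κ M) d : ↥(modularFunctionFieldFullC κ M)) :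
        LaurentSeries κ))
  (σ₀ : K₀ ≃ₐ[ℚ] K₀)
  (hσA : ∀ a : K₀, a ∈ G.A → (σ₀ : K₀ ≃+* K₀) a ∈ G.A)
  (n : ℕ)
  (hσπ : ∀ a : G.A, G.π (s34m_sigmaA G (σ₀ : K₀ ≃+* K₀) hσA a) =
    iterateFrobenius κ p (2 * n) (G.π a))

include hαB hβB hlift hF hint hσπ in
/-- **[NODE-FIXED], Build frame, value form**: `mk_s (τ b) = mk_s (b) ^ (p ^ (2 n))`. -/
theorem s59c_node_frob (s : s33s_Node OO ϖF S)
    (b : s34x_ring (s34x_infRing (s34m_VV G φ M p hp.out hpM)) S)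
    (hgb : arithmeticRingAut (modularFunctionFieldFull (M * p)) σ₀ (b : s34m_F K₀ (M * p)) ∈
      s34x_ring (s34x_infRing (s34m_VV G φ M p hp.out hpM)) S) :
    s33s_kGmk G φ M p hpM hπ S s ⟨_, hgb⟩ = (s33s_kGmk G φ M p hpM hπ S s b) ^ (p ^ (2 * n)) := by
  haveI : NeZero p := ⟨hp.out.ne_zero⟩
  have hc := s33s_coe_rhoD G φ M p hp.out hpM (modularFunctionFieldFullC κ M) S hF hint
  have hα₁ : ∀ g (hg : g ∈ BM), s34df_r1 G φ M p hp.out hpM S ⟨_, hαB g hg⟩ =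
      s34m_redInf G M ⟨g, hBMV g hg⟩ := fun g hg =>
    (s34df_r1_eq G φ M p hp.out hpM S _ _ (s34m_alpha_mem_Vinf G M p (hBMV g hg)) rfl).trans
      (s34m_redInf_alpha G M p ⟨g, hBMV g hg⟩)
  have hα₂ : ∀ g (hg : g ∈ BM), s34df_r2 G φ M p hp.out hpM S ⟨_, hαB g hg⟩ =
      qExpand κ p (s34m_redInf G M ⟨g, hBMV g hg⟩) := fun g hg =>
    (s34df_r2_eq G φ M p hp.out hpM S _ _
      (s34m_alpha_mem_Vzero G φ M p hp.out hpM (hBMV g hg)) rfl).trans
      (s34m_redZero_alpha G φ M p hp.out hpM ⟨g, hBMV g hg⟩)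
  have hβ₁ : ∀ g (hg : g ∈ BM) (b' : s34m_F K₀ (M * p))
      (hb' : b' ∈ s34x_ring (s34x_infRing (s34m_VV G φ M p hp.out hpM)) S)
      (z : s34m_F K₀ (M * p)), z ∈ s34m_Vinf G (M * p) →
      b' - heckeBetaBar K₀ M p g = s34m_unif G (M * p) * z →
      s34df_r1 G φ M p hp.out hpM S ⟨b', hb'⟩ = qExpand κ p (s34m_redInf G M ⟨g, hBMV g hg⟩) := by
    intro g hg b' hb' z hz e
    rw [s34df_r1_apply, ← s34m_redInf_beta G M p ⟨g, hBMV g hg⟩]
    exact s34df_redInf_congr G M p _ _ hz e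
  have hβ₂ : ∀ g (hg : g ∈ BM) (b' : s34m_F K₀ (M * p))
      (hb' : b' ∈ s34x_ring (s34x_infRing (s34m_VV G φ M p hp.out hpM)) S)
      (z : s34m_F K₀ (M * p)), z ∈ s34m_Vzero G φ M p hp.out hpM →
      b' - heckeBetaBar K₀ M p g = s34m_unif G (M * p) * z →
      s34df_r2 G φ M p hp.out hpM S ⟨b', hb'⟩ = s34m_redInf G M ⟨g, hBMV g hg⟩ := by
    intro g hg b' hb' z hz e
    rw [s34df_r2_apply, ← s34m_redZero_beta G φ M p hp.out hpM ⟨g, hBMV g hg⟩]
    exact s34df_redZero_congr G φ M p hp.out hpM _ _ hz e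
  refine s59c_node_fixed_abs (s33s_kGmk G φ M p hpM hπ S s)
    (s34df_r1 G φ M p hp.out hpM S) (s34df_r2 G φ M p hp.out hpM S) ?_ ?_
    (qExpand κ p) ?_ ?_ (coeffMap (iterateFrobenius κ p (2 * n))) (p ^ (2 * n)) n ?_ b ⟨_, hgb⟩ ?_
  · intro b hb
    rw [s33s_kGmk_eq_zero_iff]
    refine s.2.2.1 ?_
    rw [s33s_mem_comp]
    rw [s34df_r1_apply, s34m_redInf_eq_zero_iff] at hb
    exact hb
  · intro b hb
    rw [s33s_kGmk_eq_zero_iff]
    refine s.2.2.2 ?_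
    rw [s33s_mem_comp]
    rw [s34df_r2_apply, s34m_redZero_eq_zero_iff] at hb
    exact hb
  · intro b
    obtain ⟨g₀, hg₀, e₀⟩ := hlift (s33s_rhoD G φ M p hp.out hpM (modularFunctionFieldFullC κ M) S
      hF hint true b)
    rw [(hc b).1] at e₀
    exact ⟨⟨_, hαB g₀ hg₀⟩, by rw [hα₁ g₀ hg₀, e₀], by rw [hα₂ g₀ hg₀, e₀]⟩
  · intro b
    obtain ⟨g₀, hg₀, e₀⟩ := hlift (s33s_rhoD G φ M p hp.out hpM (modularFunctionFieldFullC κ M) S
      hF hint false b)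
    rw [(hc b).2] at e₀
    obtain ⟨b', hb', z, hzI, hz0, ez⟩ := hβB g₀ hg₀
    exact ⟨⟨b', hb'⟩, by rw [hβ₂ g₀ hg₀ b' hb' z hz0 ez, e₀],
      by rw [hβ₁ g₀ hg₀ b' hb' z hzI ez, e₀]⟩
  · intro x
    have h1 : ((qExpand κ p : LaurentSeries κ → LaurentSeries κ) ∘ (qExpand κ p))^[n]
        (coeffMap (iterateFrobenius κ p (2 * n)) x) =
        (qExpand κ p)^[2 * n] (coeffMap (iterateFrobenius κ p (2 * n)) x) := by
      rw [Function.iterate_mul]
      rfl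
    rw [h1, ← s59c_pow_eq_qExpand_iterate p (2 * n) x]
  · rw [s34df_r1_apply, s34df_r1_apply]
    exact s35m_redInf_galois G σ₀ hσA (iterateFrobenius κ p (2 * n)) hσπ (M * p)
      ⟨(b : s34m_F K₀ (M * p)), ((s34df_mem_O_iff G φ M p hp.out hpM _).mp b.2.1).1⟩

include hαB hβB hlift hF hint hσπ hπ in
/-- **[NODE-FIXED], Build frame**: `τ` of even residual degree maps every node into itself. -/
theorem s59c_node_fixed (s : s33s_Node OO ϖF S)
    (b : s34x_ring (s34x_infRing (s34m_VV G φ M p hp.out hpM)) S)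
    (hgb : arithmeticRingAut (modularFunctionFieldFull (M * p)) σ₀ (b : s34m_F K₀ (M * p)) ∈
      s34x_ring (s34x_infRing (s34m_VV G φ M p hp.out hpM)) S)
    (hb : b ∈ s.1) :
    (⟨_, hgb⟩ : s34x_ring (s34x_infRing (s34m_VV G φ M p hp.out hpM)) S) ∈ s.1 := by
  rw [← s33s_kGmk_eq_zero_iff G φ M p hpM hπ S s,
    s59c_node_frob G φ M p hpM hπ S hF hint BM hBMV hαB hβB hlift σ₀ hσA n hσπ s b hgb,
    (s33s_kGmk_eq_zero_iff G φ M p hpM hπ S s b).mpr hb]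
  exact zero_pow (pow_pos hp.out.pos _).ne'

include hαB hβB hlift hF hint hσπ hπ in
/-- **[NODE-FIXED], Build frame**, in the spelling `arithmeticGalois … σ₀ • b`. -/
theorem s59c_node_fixed_smul (s : s33s_Node OO ϖF S)
    (b : s34x_ring (s34x_infRing (s34m_VV G φ M p hp.out hpM)) S)
    (hgb : arithmeticGalois (modularFunctionFieldFull (M * p)) σ₀ • (b : s34m_F K₀ (M * p)) ∈
      s34x_ring (s34x_infRing (s34m_VV G φ M p hp.out hpM)) S)
    (hb : b ∈ s.1) :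
    (⟨_, hgb⟩ : s34x_ring (s34x_infRing (s34m_VV G φ M p hp.out hpM)) S) ∈ s.1 :=
  s59c_node_fixed G φ M p hpM hπ S hF hint BM hBMV hαB hβB hlift σ₀ hσA n hσπ s b hgb hb

end Build

section Wrap

variable {K₀ : Type} [Field K₀] [CharZero K₀] [Algebra ℚ K₀] {κ : Type} [Field κ]
  (G : s18g_GaussData K₀ κ) (φ : K₀ →+* Kb) (M p : ℕ) [NeZero M] [hp : Fact p.Prime]
  (hpM : ¬ p ∣ M) [CharP κ p] [PerfectField κ]

local notation "𝓕M" => laurentBaseChange K₀ (modularFunctionFieldFull M)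
local notation "𝓕N" => laurentBaseChange K₀ (modularFunctionFieldFull (M * p))
local notation "hFM" => (fun (f : LaurentSeries K₀)
  (hf : f ∈ laurentBaseChange K₀ (modularFunctionFieldFull M)) => s18g_baseChange_mem_Frac G M hf)
local notation "FbM" => modularFunctionFieldFullC κ M
local notation "OO" => s34m_VV G φ M p hp.out hpM
local notation "ϖF" => s34m_unif G (M * p)

variable (hdeg : s34m_HDeg K₀ M p) (hT : s18g_HT κ M) (hdegM : s18g_HDeg K₀ M)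
  (hπ : Function.Surjective G.π)

variable [IsDiscreteValuationRing G.A]
  (σ₀ : K₀ ≃ₐ[ℚ] K₀)
  (hσA : ∀ a : K₀, a ∈ G.A → (σ₀ : K₀ ≃+* K₀) a ∈ G.A)
  (n : ℕ)
  (hσπ : ∀ a : G.A, G.π (s34m_sigmaA G (σ₀ : K₀ ≃+* K₀) hσA a) =
    iterateFrobenius κ p (2 * n) (G.π a))

include hπ hdeg hσπ in
/-- **[NODE-FIXED] for the chart `{α w regular}`** (the inputs of `s33s_datumW`). -/
theorem s59c_node_fixed_w (w : ↥𝓕M) (hwV : w ∈ s18g_V G 𝓕M hFM)
    (hcoord : s37b_Coord κ p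
      ((s18g_redF G M hFM hT hdegM ⟨w, hwV⟩ : ↥(modularFunctionFieldFullC κ M)) : LaurentSeries κ))
    (hwtw : ∀ τ : κ ≃+* κ, ModularCurve.coeffMap (τ : κ →+* κ)
      ((s18g_redF G M hFM hT hdegM ⟨w, hwV⟩ : ↥(modularFunctionFieldFullC κ M)) : LaurentSeries κ) =
      ((s18g_redF G M hFM hT hdegM ⟨w, hwV⟩ : ↥(modularFunctionFieldFullC κ M)) : LaurentSeries κ))
    (hmain : letI := s18f_algF G M hT hdegM w hwV
      ∀ z : ↥(modularFunctionFieldFullC κ M), IsIntegral κ[X] z →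
        ∃ (b : ↥𝓕M) (hb : b ∈ s18_ring (L₀ := K₀) (s18g_V G 𝓕M hFM) (s18_chart1 w)),
          s18g_redF G M hFM hT hdegM ⟨b, hb.1⟩ = z)
    (wN : ↥𝓕N) (hwN : heckeAlphaBar K₀ M p w = wN) [FFGen K₀ wN]
    (hαN : ∀ y ∈ s34x_infRing (s34m_VV G φ M p hp.out hpM), ∃ s : G.A[X], s.map G.π ≠ 0 ∧
      (s18b_ev G 𝓕N wN).IsIntegralElem (s18b_ev G 𝓕N wN s * y))
    (hαB : ∀ g ∈ (s18_ring (L₀ := K₀) (s34m_Vinf G M) (s18_chart1 w) : Set (s34m_F K₀ M)),
      heckeAlphaBar K₀ M p g ∈ s34x_ring (s34x_infRing (s34m_VV G φ M p hp.out hpM))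
        (s18_chart1 (L₀ := K₀) wN))
    (hβB : ∀ g ∈ (s18_ring (L₀ := K₀) (s34m_Vinf G M) (s18_chart1 w) : Set (s34m_F K₀ M)),
      ∃ b' ∈ s34x_ring (s34x_infRing (s34m_VV G φ M p hp.out hpM)) (s18_chart1 (L₀ := K₀) wN),
      ∃ z, z ∈ s34m_Vinf G (M * p) ∧ z ∈ s34m_Vzero G φ M p hp.out hpM ∧
        b' - heckeBetaBar K₀ M p g = s34m_unif G (M * p) * z)
    (s : s33s_Node OO ϖF (s18_chart1 (L₀ := K₀) wN))
    (b : s34x_ring (s34x_infRing (s34m_VV G φ M p hp.out hpM)) (s18_chart1 (L₀ := K₀) wN))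
    (hgb : arithmeticRingAut (modularFunctionFieldFull (M * p)) σ₀ (b : s34m_F K₀ (M * p)) ∈
      s34x_ring (s34x_infRing (s34m_VV G φ M p hp.out hpM)) (s18_chart1 (L₀ := K₀) wN))
    (hb : b ∈ s.1) :
    (⟨_, hgb⟩ : s34x_ring (s34x_infRing (s34m_VV G φ M p hp.out hpM))
      (s18_chart1 (L₀ := K₀) wN)) ∈ s.1 := by
  letI := s18f_algF G M hT hdegM w hwV
  have hA : ∀ P : κ[X], algebraMap κ[X] ↥(modularFunctionFieldFullC κ M) P =
      Polynomial.aeval (s18g_redF G M hFM hT hdegM ⟨w, hwV⟩) P :=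
    s18f_algF_apply G M hT hdegM w hwV
  haveI := (s37b_dedekind_of_coord κ p M (s18g_redF G M hFM hT hdegM ⟨w, hwV⟩) hcoord hA).1
  haveI := (s37b_dedekind_of_coord κ p M (s18g_redF G M hFM hT hdegM ⟨w, hwV⟩) hcoord hA).2
  have hF := s33s_w_hF G φ M p hpM hdeg hT hdegM
  have hint := s33s_w_hint G φ M p hpM hdeg hT hdegM w hwV hwtw wN hwN hαN
  have hlift := s33s_w_hlift G M hT hdegM w hwV hmain
  exact s59c_node_fixed G φ M p hpM hπ (s18_chart1 (L₀ := K₀) wN)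
    (D := ↥(integralClosure κ[X] ↥(modularFunctionFieldFullC κ M))) hF hint
    (s18_ring (L₀ := K₀) (s34m_Vinf G M) (s18_chart1 w) : Set (s34m_F K₀ M))
    (fun _ hg => hg.1) hαB hβB hlift σ₀ hσA n hσπ s b hgb hb

include hπ hdeg hσπ in
/-- **[NODE-FIXED] for a chart package** `C : s59b_Chart …` (helper2's `B4Chart.lean`). -/
theorem s59c_node_fixed_chart (C : s59b_Chart G φ M p hpM hT hdegM)
    (s : s33s_Node OO ϖF (s18_chart1 (L₀ := K₀) C.wN))
    (b : s34x_ring (s34x_infRing (s34m_VV G φ M p hp.out hpM)) (s18_chart1 (L₀ := K₀) C.wN))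
    (hgb : arithmeticRingAut (modularFunctionFieldFull (M * p)) σ₀ (b : s34m_F K₀ (M * p)) ∈
      s34x_ring (s34x_infRing (s34m_VV G φ M p hp.out hpM)) (s18_chart1 (L₀ := K₀) C.wN))
    (hb : b ∈ s.1) :
    (⟨_, hgb⟩ : s34x_ring (s34x_infRing (s34m_VV G φ M p hp.out hpM))
      (s18_chart1 (L₀ := K₀) C.wN)) ∈ s.1 := by
  haveI := C.gen
  exact s59c_node_fixed_w G φ M p hpM hdeg hT hdegM hπ σ₀ hσA n hσπ C.w C.hwV C.hcoord C.hwtw
    C.hmain C.wN C.hwN C.hαN C.hαB C.hβB s b hgb hb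

end Wrap

section Inst

variable (M p : ℕ) [NeZero M] [hp : Fact p.Prime] (hpM : ¬ p ∣ M)
  (K₀ : Type) [Field K₀] [NumberField K₀] (φ : K₀ →+* Kb)
  (κ : Type) [Field κ] [CharP κ p] [PerfectField κ]
  (G : s18g_GaussData K₀ κ) [IsDiscreteValuationRing G.A]
  (hπ : Function.Surjective G.π)
  (σ₀ : K₀ ≃ₐ[ℚ] K₀)
  (hσA : ∀ a : K₀, a ∈ G.A → (σ₀ : K₀ ≃+* K₀) a ∈ G.A)
  (n : ℕ)
  (hσπ : ∀ a : G.A, G.π (s34m_sigmaA G (σ₀ : K₀ ≃+* K₀) hσA a) =
    iterateFrobenius κ p (2 * n) (G.π a))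

local notation "OO" => s34m_VV G φ M p hp.out hpM
local notation "ϖF" => s34m_unif G (M * p)

include hπ hσπ in
/-- **[NODE-FIXED], chart `{j regular}`, `p ≥ 5`.** -/
theorem s59c_node_fixed_five (h5 : 5 ≤ p)
    (s : s33s_Node OO ϖF (s18_chart1 (L₀ := K₀) (s18g_jF (K := K₀) (M * p))))
    (b : s34x_ring (s34x_infRing (s34m_VV G φ M p hp.out hpM))
      (s18_chart1 (L₀ := K₀) (s18g_jF (K := K₀) (M * p))))
    (hgb : arithmeticRingAut (modularFunctionFieldFull (M * p)) σ₀ (b : s34m_F K₀ (M * p)) ∈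
      s34x_ring (s34x_infRing (s34m_VV G φ M p hp.out hpM))
        (s18_chart1 (L₀ := K₀) (s18g_jF (K := K₀) (M * p))))
    (hb : b ∈ s.1) :
    (⟨_, hgb⟩ : s34x_ring (s34x_infRing (s34m_VV G φ M p hp.out hpM))
      (s18_chart1 (L₀ := K₀) (s18g_jF (K := K₀) (M * p)))) ∈ s.1 := by
  haveI : NeZero p := ⟨hp.out.ne_zero⟩
  have hdeg : s34m_HDeg K₀ M p := s34r_deg_HDeg φ M p hp.out hpM
  have hT : s18g_HT κ M := s18t_indep_j p M hpM κ
  have hdegM : s18g_HDeg K₀ M := fun _ b hb hn => s18g_exists_relation M φ hn b hb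
  exact s59c_node_fixed_chart G φ M p hpM hdeg hT hdegM hπ σ₀ hσA n hσπ
    (s59b_chartFive M p hpM h5 K₀ φ κ G hT hdegM hπ) s b hgb hb

include hπ hσπ in
/-- **[NODE-FIXED], chart `{t regular}`, `t` ANY function of level `M p` with `q`-expansion `t₂`** (`p = 3`, `2 ∣ M`). -/
theorem s59c_node_fixed_t2 (hp3 : p = 3) (h2M : 2 ∣ M)
    (t : s34m_F K₀ (M * p)) (ht : (t : LaurentSeries K₀) = s18u_t2 K₀)
    (s : s33s_Node OO ϖF (s18_chart1 (L₀ := K₀) t))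
    (b : s34x_ring (s34x_infRing (s34m_VV G φ M p hp.out hpM)) (s18_chart1 (L₀ := K₀) t))
    (hgb : arithmeticRingAut (modularFunctionFieldFull (M * p)) σ₀ (b : s34m_F K₀ (M * p)) ∈
      s34x_ring (s34x_infRing (s34m_VV G φ M p hp.out hpM)) (s18_chart1 (L₀ := K₀) t))
    (hb : b ∈ s.1) :
    (⟨_, hgb⟩ : s34x_ring (s34x_infRing (s34m_VV G φ M p hp.out hpM))
      (s18_chart1 (L₀ := K₀) t)) ∈ s.1 := by
  haveI : NeZero p := ⟨hp.out.ne_zero⟩
  have hdeg : s34m_HDeg K₀ M p := s34r_deg_HDeg φ M p hp.out hpM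
  have hT : s18g_HT κ M := s18t_indep_j p M hpM κ
  have hdegM : s18g_HDeg K₀ M := fun _ b hb hn => s18g_exists_relation M φ hn b hb
  obtain ⟨C, -, hwN⟩ := s59b_exists_chart_t2 M p hpM K₀ φ κ G hT hdegM hπ hp3 h2M
  have e : t = C.wN := Subtype.ext (ht.trans hwN.symm)
  subst e
  exact s59c_node_fixed_chart G φ M p hpM hdeg hT hdegM hπ σ₀ hσA n hσπ C s b hgb hb

include hπ hσπ in
/-- **[NODE-FIXED], chart `{t regular}`, `t` ANY function of level `M p` with `q`-expansion `t₃`** (`p = 2`, `3 ∣ M`). -/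
theorem s59c_node_fixed_t3 (hp2 : p = 2) (h3M : 3 ∣ M)
    (t : s34m_F K₀ (M * p)) (ht : (t : LaurentSeries K₀) = s18u_t3 K₀)
    (s : s33s_Node OO ϖF (s18_chart1 (L₀ := K₀) t))
    (b : s34x_ring (s34x_infRing (s34m_VV G φ M p hp.out hpM)) (s18_chart1 (L₀ := K₀) t))
    (hgb : arithmeticRingAut (modularFunctionFieldFull (M * p)) σ₀ (b : s34m_F K₀ (M * p)) ∈
      s34x_ring (s34x_infRing (s34m_VV G φ M p hp.out hpM)) (s18_chart1 (L₀ := K₀) t))
    (hb : b ∈ s.1) :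
    (⟨_, hgb⟩ : s34x_ring (s34x_infRing (s34m_VV G φ M p hp.out hpM))
      (s18_chart1 (L₀ := K₀) t)) ∈ s.1 := by
  haveI : NeZero p := ⟨hp.out.ne_zero⟩
  have hdeg : s34m_HDeg K₀ M p := s34r_deg_HDeg φ M p hp.out hpM
  have hT : s18g_HT κ M := s18t_indep_j p M hpM κ
  have hdegM : s18g_HDeg K₀ M := fun _ b hb hn => s18g_exists_relation M φ hn b hb
  obtain ⟨C, -, hwN⟩ := s59b_exists_chart_t3 M p hpM K₀ φ κ G hT hdegM hπ hp2 h3M
  have e : t = C.wN := Subtype.ext (ht.trans hwN.symm)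
  subst e
  exact s59c_node_fixed_chart G φ M p hpM hdeg hT hdegM hπ σ₀ hσA n hσπ C s b hgb hb

end Inst

end Fermat.Agent.Lib.S59
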