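/-
Programme (R2) = S59, case (P) (owner helper7, prefix `s59x_`), leaf **[P1c], part 3: AUXILIARY LEMMAS FOR THE
CHART THEOREM** (generic / semi-abstract; no modular objects).

* `s59x_exists_h_of_locEq` : the product `h` of the local equations of the places through `𝔫` in the support of a
  divisor `E` all of whose places through `𝔫` have local equations: `ord_Q h = E Q` at every place through `𝔫`;
* `s59x_purity`            : `B ∩ π (O true) ∩ π (O false) = π B`;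
* `s59x_smooth_span`       : a prime `𝔫 ∋ π` lying on ONE component only is a smooth point: `𝔫 B_𝔫 = (t, π)`
  (helper1's `s34d_smooth` in the vocabulary of helper8's `SSModel.lean`);
* `s59x_gx_of_lift`        : the local datum `gx = h β / s` from `h` with the right orders and a fraction `β / s`
  congruent to `a₀ / h` on the components through `𝔫`.
-/
import Fermat.Agent.Lib.S33.SSModel
import Fermat.Agent.Lib.S33.UnipGen

set_option autoImplicit false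

noncomputable section

namespace Fermat.Agent.Lib.S59

open AlgebraicCurve Fermat.Agent.Lib.FF Fermat.Agent.Lib.S18 Fermat.Agent.Lib.S34
  Fermat.Agent.Lib.S33 IsLocalRing

variable {L₀ 𝓕 : Type*} [Field L₀] [Field 𝓕] [Algebra L₀ 𝓕]

/-- **The product of the local equations.** -/
theorem s59x_exists_h_of_locEq (O : Subring 𝓕) (S : Set (Place L₀ 𝓕))
    (𝔫 : Ideal (s34x_ring O S)) (E : Place L₀ 𝓕 → ℤ)
    (hEfin : {Q : Place L₀ 𝓕 | Q ∈ S ∧ E Q ≠ 0}.Finite)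
    (hloc : ∀ Q ∈ S, s34f_through O S 𝔫 Q → E Q ≠ 0 → s34f_LocEq O S 𝔫 Q) :
    ∃ h : 𝓕, h ≠ 0 ∧ ∀ Q ∈ S, s34f_through O S 𝔫 Q → Q.ord h = E Q := by
  classical
  set T : Finset (Place L₀ 𝓕) := hEfin.toFinset.filter fun P => s34f_through O S 𝔫 P with hT
  have hTmem : ∀ P, P ∈ T ↔ (P ∈ S ∧ E P ≠ 0) ∧ s34f_through O S 𝔫 P := by
    intro P
    rw [hT, Finset.mem_filter, Set.Finite.mem_toFinset]
    rfl
  have hchoose : ∀ P : Place L₀ 𝓕, ∃ φ : 𝓕, P ∈ T → (φ ≠ 0 ∧ P.ord φ = 1 ∧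
      ∀ Q' ∈ S, Q' ≠ P → s34f_through O S 𝔫 Q' → Q'.ord φ = 0) := by
    intro P
    by_cases hP : P ∈ T
    · obtain ⟨⟨hPS, hE⟩, hth⟩ := (hTmem P).mp hP
      obtain ⟨φ, h1, h2, h3⟩ := hloc P hPS hth hE
      exact ⟨φ, fun _ => ⟨h1, h2, h3⟩⟩
    · exact ⟨0, fun h => absurd h hP⟩
  choose φ hφ using hchoose
  have hφ0 : ∀ P ∈ T, φ P ≠ 0 := fun P hP => (hφ P hP).1
  refine ⟨∏ P ∈ T, φ P ^ E P,
    Finset.prod_ne_zero_iff.mpr fun P hP => zpow_ne_zero _ (hφ0 P hP), ?_⟩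
  intro Q hQS hth
  rw [s18i_ord_prod_zpow Q T φ E hφ0]
  by_cases hQT : Q ∈ T
  · rw [Finset.sum_eq_single_of_mem Q hQT, (hφ Q hQT).2.1, mul_one]
    intro P hP hne
    rw [(hφ P hP).2.2 Q hQS (Ne.symm hne) hth, mul_zero]
  · have hE0 : E Q = 0 := by
      by_contra hne
      exact hQT ((hTmem Q).mpr ⟨⟨hQS, hne⟩, hth⟩)
    rw [hE0]
    refine Finset.sum_eq_zero fun P hP => ?_
    have hne : Q ≠ P := fun h => hQT (h ▸ hP)
    rw [(hφ P hP).2.2 Q hQS hne hth, mul_zero]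

section Model

variable {D Fb : Type*} [CommRing D] [IsDedekindDomain D] [Field Fb] [Algebra D Fb]
  [IsFractionRing D Fb]

variable (O : Bool → ValuationSubring 𝓕) (π : 𝓕) (S : Set (Place L₀ 𝓕))

/-- **Purity**: an element of the chart ring divisible by `π` in both `O i` is divisible by `π` in the chart
ring. -/
theorem s59x_purity (hπ0 : π ≠ 0) (hπL : ∀ Q : Place L₀ 𝓕, Q.ord π = 0)
    (πB : s34x_ring (s34x_infRing O) S) (hπB : (πB : 𝓕) = π)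
    (b : s34x_ring (s34x_infRing O) S) (hb : ∀ i, b ∈ s33s_comp O π S i) : πB ∣ b := by
  set z : 𝓕 := π⁻¹ * (b : 𝓕) with hz
  have hbz : (b : 𝓕) = π * z := by rw [hz, ← mul_assoc, mul_inv_cancel₀ hπ0, one_mul]
  have hzB : z ∈ s34x_ring (s34x_infRing O) S := by
    refine ⟨(s34x_mem_infRing O _).mpr fun i => ?_, fun Q hQ => ?_⟩
    · obtain ⟨z', hz', e⟩ := hb i
      have : z = z' := by rw [hz, e, ← mul_assoc, inv_mul_cancel₀ hπ0, one_mul]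
      rw [this]; exact hz'
    · by_cases hz0 : z = 0
      · rw [hz0]; exact Q.toValuationSubring.zero_mem
      have hb0 : (b : 𝓕) ≠ 0 := by rw [hbz]; exact mul_ne_zero hπ0 hz0
      rw [ff_mem_iff_ord_nonneg Q hz0]
      have h1 := (ff_mem_iff_ord_nonneg Q hb0).mp (b.2.2 Q hQ)
      rwa [hbz, Q.ord_mul hπ0 hz0, hπL, zero_add] at h1
  refine ⟨⟨z, hzB⟩, Subtype.ext ?_⟩
  push_cast
  rw [hπB]
  exact hbz

variable (red : Bool → (s34x_infRing O →+* Fb))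
  (ρ : Bool → (s34x_ring (s34x_infRing O) S →+* D))
  (hred0 : ∀ i (y : s34x_infRing O), red i y = 0 ↔ ∃ z ∈ O i, (y : 𝓕) = π * z)
  (hρ : ∀ i b, algebraMap D Fb (ρ i b) = red i ⟨(b : 𝓕), b.2.1⟩)
  (hρs : ∀ i, Function.Surjective (ρ i))

include hred0 hρ hρs in
/-- **A prime `𝔫 ∋ π` lying on one component only is a smooth point.** -/
theorem s59x_smooth_span (hπ0 : π ≠ 0) (hπL : ∀ Q : Place L₀ 𝓕, Q.ord π = 0)
    (πB : s34x_ring (s34x_infRing O) S) (hπB : (πB : 𝓕) = π)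
    (𝔫 : Ideal (s34x_ring (s34x_infRing O) S)) [h𝔫 : 𝔫.IsPrime] (hπ𝔫 : πB ∈ 𝔫)
    (i : Bool) (hk : RingHom.ker (ρ i) ≤ 𝔫)
    (t₀ : s34x_ring (s34x_infRing O) S) (ht₀ : ρ (!i) t₀ = 0) (ht₀𝔫 : t₀ ∉ 𝔫) :
    ∃ t : s34x_ring (s34x_infRing O) S, maximalIdeal (Localization.AtPrime 𝔫) =
      Ideal.span {algebraMap _ (Localization.AtPrime 𝔫) t,
        algebraMap _ (Localization.AtPrime 𝔫) πB} := by
  have hker : ∀ b, s33s_r (Fb := Fb) (ρ i) b = 0 → s33s_r (Fb := Fb) (ρ (!i)) b = 0 → πB ∣ b := by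
    intro b h1 h2
    rw [s33s_r_eq_zero_iff, s33s_rho_eq_zero_iff O π S red ρ hred0 hρ] at h1 h2
    refine s59x_purity O π S hπ0 hπL πB hπB b fun j => ?_
    cases i <;> cases j <;> first | exact h1 | exact h2
  have hl : ∀ d : D, ∃ g, s33s_r (Fb := Fb) (ρ i) g = algebraMap D Fb d := by
    intro d
    obtain ⟨g, hg⟩ := hρs i d
    exact ⟨g, by rw [s33s_r_apply, hg]⟩
  have hk' : RingHom.ker (s33s_r (Fb := Fb) (ρ i)) ≤ 𝔫 := by rw [s33s_ker_r]; exact hk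
  obtain ⟨d, hd⟩ := s34d_exists_locGenAt (s33s_r (Fb := Fb) (ρ i)) hl 𝔫 hk'
  obtain ⟨g, hg⟩ := hl d
  have hG := hd g hg
  have hsm := s34d_smooth πB (s33s_r (Fb := Fb) (ρ i)) (s33s_r (Fb := Fb) (ρ (!i))) hker 𝔫
    ((s33s_r_eq_zero_iff _ _).mpr ht₀) ht₀𝔫 hG
  exact ⟨g, s34d_maximalIdeal_eq_span_pair 𝔫 hG.1 hπ𝔫 hsm⟩

end Model

/-- **The local datum from a fraction.**  `h` has the orders of `E` at the places through `𝔫` and is a unit on the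
components `i` through `𝔫` (those with `I i`); `s (a₀ / h) ≡ β mod π (O i)` on these components, `s ∉ 𝔫`.  Then
`gx = h β / s` has `ord_Q gx ≥ E Q` through `𝔫` and `gx ≡ a₀ mod π (O i)` on the components through `𝔫`. -/
theorem s59x_gx_of_lift (O : Bool → ValuationSubring 𝓕) (π : 𝓕) (hπ0 : π ≠ 0)
    (hπO : ∀ i, π ∈ O i) (hπnu : ∀ i, ¬ ∃ y ∈ O i, (1 : 𝓕) = π * y)
    (hUi : ∀ i, ∀ U : 𝓕, U ≠ 0 → ∃ (n : ℤ) (u : 𝓕), u ∈ O i ∧ u⁻¹ ∈ O i ∧ U = π ^ n * u)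
    (S : Set (Place L₀ 𝓕)) (𝔫 : Ideal (s34x_ring (s34x_infRing O) S)) [h𝔫 : 𝔫.IsPrime]
    (E : Place L₀ 𝓕 → ℤ) (a₀ h : 𝓕) (ha₀0 : a₀ ≠ 0) (hh0 : h ≠ 0)
    (hhQ : ∀ Q ∈ S, s34f_through (s34x_infRing O) S 𝔫 Q → Q.ord h = E Q)
    (s β : s34x_ring (s34x_infRing O) S) (hs : s ∉ 𝔫)
    (I : Bool → Prop) (hex : ∃ i, I i) (hI : ∀ i, I i → s33s_comp O π S i ≤ 𝔫)
    (hhO : ∀ i, I i → h ∈ O i) (ha₀O : ∀ i, I i → a₀⁻¹ ∈ O i)
    (hcong : ∀ i, I i → ∃ z ∈ O i, (s : 𝓕) * (a₀ / h) - (β : 𝓕) = π * z) :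
    ∃ gx : 𝓕, gx ≠ 0 ∧
      (∀ Q ∈ S, s34f_through (s34x_infRing O) S 𝔫 Q → E Q ≤ Q.ord gx) ∧
      ∀ i, I i → ∃ y ∈ O i, gx - a₀ = π * y := by
  have hs0 : (s : 𝓕) ≠ 0 := by
    intro h0
    apply hs
    have : s = 0 := Subtype.ext h0
    rw [this]; exact 𝔫.zero_mem
  have hsO : ∀ i, (s : 𝓕) ∈ O i := fun i => (s34x_mem_infRing O _).mp s.2.1 i
  -- `s` is a unit on the components through `𝔫`
  have hsinv : ∀ i, I i → ((s : 𝓕))⁻¹ ∈ O i := by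
    intro i hi
    refine s33s_inv_mem_of_not_dvd (O i) π hπ0 (hπO i) (hUi i) _ hs0 ?_
    rintro ⟨z, hz, e⟩
    exact hs (hI i hi ((s33s_mem_comp O π S i s).mpr ⟨z, hz, e⟩))
  -- `β ≠ 0`
  have hβ0 : (β : 𝓕) ≠ 0 := by
    intro h0
    obtain ⟨i, hi⟩ := hex
    obtain ⟨z, hz, e⟩ := hcong i hi
    rw [h0, sub_zero] at e
    apply hπnu i
    refine ⟨z * (((s : 𝓕))⁻¹ * (a₀⁻¹ * h)), (O i).mul_mem _ _ hz
      ((O i).mul_mem _ _ (hsinv i hi) ((O i).mul_mem _ _ (ha₀O i hi) (hhO i hi))), ?_⟩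
    rw [← mul_assoc, ← e]
    field_simp
  refine ⟨h * (β : 𝓕) / (s : 𝓕), div_ne_zero (mul_ne_zero hh0 hβ0) hs0, ?_, ?_⟩
  · intro Q hQS hth
    rw [div_eq_mul_inv, Q.ord_mul (mul_ne_zero hh0 hβ0) (inv_ne_zero hs0), Q.ord_mul hh0 hβ0,
      Q.ord_inv, hhQ Q hQS hth, s33s_ord_eq_zero_of_not_mem (s34x_infRing O) S 𝔫 s hs Q hQS hth]
    have := s34x_ord_nonneg_of_mem_ring (s34x_infRing O) S β Q hQS
    omega
  · intro i hi
    obtain ⟨z, hz, e⟩ := hcong i hi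
    refine ⟨-(h * ((s : 𝓕))⁻¹ * z), (O i).neg_mem _
      ((O i).mul_mem _ _ ((O i).mul_mem _ _ (hhO i hi) (hsinv i hi)) hz), ?_⟩
    have e' : (β : 𝓕) = (s : 𝓕) * (a₀ / h) - π * z := by rw [← e]; ring
    rw [e']
    field_simp
    ring

end Fermat.Agent.Lib.S59
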