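/-
Programme (R2) = S59, case (P) (owner helper7, prefix `s59x_`), leaf **[P1c], part 1: LOCAL TO GLOBAL WITH A
REFERENCE FUNCTION** (generic in the function field `𝓕 / L₀`; no modular objects).

In `Lib/S33/UnipGen.lean` (inertia) the lattice element `a ≡ 1 mod π O` of `E = div (σf/f) / m` is glued from local
generators `gx ≡ 1` on the components through each closed point.  For an element of the DECOMPOSITION group the
first difference `σf / f` is no longer `≡ const`, and "`≡ 1`" is replaced by "`≡ a₀`" for a fixed REFERENCE function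
`a₀` (a unit of every component, with `a₀ ^ m ≡ c · σf/f` on every component); `a₀` only occurs inside congruences.

* `s59x_loc_of_gen_ref` : copy of `s33u_loc_of_gen` with `gx ≡ a₀` instead of `gx ≡ 1`: the lattice element is
  `s * gx ≡ s * a₀`, `s ∈ B ∖ 𝔫`;
* `s59x_refIdeal`       : the ideal `{b ∈ B | ∃ a ∈ lattice, a ≡ b * a₀ mod π O}` (copy of `s34x_congIdeal`);
* `s59x_ref_of_local`   : LOCAL TO GLOBAL (copy of `s34x_one_of_local`): local elements at every maximal ideal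
  `𝔫 ∋ π` give `a` in the lattice with `a ≡ a₀ mod π O`.
-/
import Fermat.Agent.Lib.S33.UnipGen

set_option autoImplicit false

noncomputable section

namespace Fermat.Agent.Lib.S59

open AlgebraicCurve Fermat.Agent.Lib.FF Fermat.Agent.Lib.S18 Fermat.Agent.Lib.S34
  Fermat.Agent.Lib.S33 IsLocalRing

variable {L₀ 𝓕 : Type*} [Field L₀] [Field 𝓕] [Algebra L₀ 𝓕]

/-- **(LOC) from a local generator, with a reference function `a₀`.**  If `g ≠ 0` has `ord_Q g ≥ E Q` at the places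
through `𝔫` and `g ≡ a₀ mod π (O i)` on the components through `𝔫`, then `s * g` lies in the lattice of `E` and
`s * g ≡ s * a₀ mod π O` for some `s ∈ B ∖ 𝔫`. -/
theorem s59x_loc_of_gen_ref {ι : Type*} [Fintype ι] (O : ι → ValuationSubring 𝓕)
    (S : Set (Place L₀ 𝓕)) (E : Place L₀ 𝓕 → ℤ) (π : 𝓕) (hπ0 : π ≠ 0) (hπO : ∀ i, π ∈ O i)
    (hU : ∀ i, ∀ y : 𝓕, ∃ k : ℕ, π ^ k * y ∈ O i)
    (𝔫 : Ideal (s34x_ring (s34x_infRing O) S)) [h𝔫 : 𝔫.IsPrime]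
    (a₀ : 𝓕) (ha₀ : ∀ i, a₀ ∈ O i)
    (g : 𝓕) (hg0 : g ≠ 0)
    (hgQ : ∀ Q ∈ S, s34f_through (s34x_infRing O) S 𝔫 Q → E Q ≤ Q.ord g)
    (hgC : ∀ i, (∀ b : s34x_ring (s34x_infRing O) S, (∃ y ∈ O i, (b : 𝓕) = π * y) → b ∈ 𝔫) →
      ∃ y ∈ O i, g - a₀ = π * y)
    (hfin : {Q : Place L₀ 𝓕 | Q ∈ S ∧ Q.ord g < E Q}.Finite) :
    ∃ s : s34x_ring (s34x_infRing O) S, s ∉ 𝔫 ∧ (s : 𝓕) ≠ 0 ∧
      (s : 𝓕) * g ∈ s34x_latSet (s34x_infRing O) S E ∧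
      ∃ y ∈ s34x_infRing O, (s : 𝓕) * g - (s : 𝓕) * a₀ = π * y := by
  classical
  have hBO : ∀ (b : s34x_ring (s34x_infRing O) S) (i : ι), (b : 𝓕) ∈ O i := fun b i =>
    (s34x_mem_infRing O _).mp b.2.1 i
  -- the bad places are not through `𝔫`
  obtain ⟨s₁, hs₁𝔫, hs₁0, hs₁⟩ := s34x_exists_kill_places (s34x_infRing O) S 𝔫
    (fun Q => E Q - Q.ord g) hfin.toFinset (by
      intro Q hQ
      rw [Set.Finite.mem_toFinset] at hQ
      refine ⟨hQ.1, ?_⟩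
      by_contra hcon
      push Not at hcon
      have := hgQ Q hQ.1 (fun b hb0 hbpos => hcon b hb0 hbpos)
      exact absurd hQ.2 (not_lt.mpr this))
  -- the components not through `𝔫`
  let I : Finset ι := Finset.univ.filter fun i =>
    ∃ b : s34x_ring (s34x_infRing O) S, (∃ y ∈ O i, (b : 𝓕) = π * y) ∧ b ∉ 𝔫
  obtain ⟨s₂, hs₂𝔫, hs₂⟩ := s34x_exists_kill_comps O S π hU 𝔫 g I (by
    intro i hi
    exact (Finset.mem_filter.mp hi).2)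
  have hs𝔫 : s₁ * s₂ ∉ 𝔫 := fun hmem => (h𝔫.mem_or_mem hmem).elim hs₁𝔫 hs₂𝔫
  have hs₂0 : (s₂ : 𝓕) ≠ 0 := by
    intro h0
    apply hs₂𝔫
    have : s₂ = 0 := Subtype.ext h0
    rw [this]; exact 𝔫.zero_mem
  -- componentwise statements for `s = s₁ s₂`
  have hcomp : ∀ i, (s₁ : 𝓕) * s₂ * g ∈ O i ∧ ∃ y' ∈ O i,
      (s₁ : 𝓕) * s₂ * g - (s₁ : 𝓕) * s₂ * a₀ = π * y' := by
    intro i
    by_cases hi : i ∈ I
    · obtain ⟨⟨y₁, hy₁, e₁⟩, ⟨y₂, hy₂, e₂⟩⟩ := hs₂ i hi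
      refine ⟨?_, (s₁ : 𝓕) * y₂ - (s₁ : 𝓕) * y₁ * a₀, (O i).sub_mem
        ((O i).mul_mem _ _ (hBO s₁ i) hy₂)
        ((O i).mul_mem _ _ ((O i).mul_mem _ _ (hBO s₁ i) hy₁) (ha₀ i)), ?_⟩
      · rw [mul_assoc, e₂]
        exact (O i).mul_mem _ _ (hBO s₁ i) ((O i).mul_mem _ _ (hπO i) hy₂)
      · rw [mul_assoc, e₂, e₁]; ring
    · -- through `𝔫`
      have hthrough : ∀ b : s34x_ring (s34x_infRing O) S,
          (∃ y ∈ O i, (b : 𝓕) = π * y) → b ∈ 𝔫 := by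
        intro b hb
        by_contra hb𝔫
        exact hi (Finset.mem_filter.mpr ⟨Finset.mem_univ _, b, hb, hb𝔫⟩)
      obtain ⟨y, hy, e⟩ := hgC i hthrough
      have hg : g = a₀ + π * y := by rw [← e]; ring
      have hgO : g ∈ O i := by
        rw [hg]; exact (O i).add_mem _ _ (ha₀ i) ((O i).mul_mem _ _ (hπO i) hy)
      refine ⟨(O i).mul_mem _ _ ((O i).mul_mem _ _ (hBO s₁ i) (hBO s₂ i)) hgO,
        (s₁ : 𝓕) * s₂ * y, (O i).mul_mem _ _ ((O i).mul_mem _ _ (hBO s₁ i) (hBO s₂ i)) hy, ?_⟩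
      rw [hg]; ring
  have hcoe : ((s₁ * s₂ : s34x_ring (s34x_infRing O) S) : 𝓕) = (s₁ : 𝓕) * s₂ := by
    push_cast; rfl
  refine ⟨s₁ * s₂, hs𝔫, ?_, ⟨?_, ?_⟩, ?_⟩
  · rw [hcoe]; exact mul_ne_zero hs₁0 hs₂0
  · rw [hcoe, s34x_mem_infRing]
    exact fun i => (hcomp i).1
  · intro Q hQ
    right
    rw [hcoe, Q.ord_mul (mul_ne_zero hs₁0 hs₂0) hg0, Q.ord_mul hs₁0 hs₂0]
    have h1 : 0 ≤ Q.ord (s₁ : 𝓕) := s34x_ord_nonneg_of_mem_ring _ S s₁ Q hQ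
    have h2 : 0 ≤ Q.ord (s₂ : 𝓕) := s34x_ord_nonneg_of_mem_ring _ S s₂ Q hQ
    by_cases hbad : Q.ord g < E Q
    · have := hs₁ Q ((Set.Finite.mem_toFinset hfin).mpr ⟨hQ, hbad⟩)
      omega
    · omega
  · rw [hcoe]
    exact (s34x_inf_cong O π hπ0 _).mpr fun i => (hcomp i).2

/-- The ideal of the chart ring of all `b` such that `b * a₀` is congruent mod `π O` to an element of the lattice. -/
def s59x_refIdeal (O : Subring 𝓕) (S : Set (Place L₀ 𝓕)) (E : Place L₀ 𝓕 → ℤ) (π a₀ : 𝓕) :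
    Ideal (s34x_ring O S) where
  carrier := {b | ∃ a ∈ s34x_latSet O S E, ∃ y ∈ O, a - (b : 𝓕) * a₀ = π * y}
  zero_mem' := ⟨0, (s34x_latAdd O S E).zero_mem, 0, O.zero_mem, by simp⟩
  add_mem' := by
    rintro b₁ b₂ ⟨a₁, ha₁, y₁, hy₁, e₁⟩ ⟨a₂, ha₂, y₂, hy₂, e₂⟩
    refine ⟨a₁ + a₂, (s34x_latAdd O S E).add_mem ha₁ ha₂, y₁ + y₂, O.add_mem hy₁ hy₂, ?_⟩
    push_cast
    rw [mul_add, ← e₁, ← e₂]; ring
  smul_mem' := by
    rintro r b ⟨a, ha, y, hy, e⟩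
    refine ⟨(r : 𝓕) * a, s34x_ring_mul_lat O S E r.2 ha, (r : 𝓕) * y, O.mul_mem r.2.1 hy, ?_⟩
    rw [smul_eq_mul]
    push_cast
    rw [mul_assoc, ← mul_sub, e]; ring

/-- **Local to global with a reference function.**  If at every maximal ideal `𝔫 ∋ π` of the chart ring some element
`a` of the lattice is congruent mod `π O` to `s * a₀` with `s` in the chart ring outside `𝔫`, the lattice contains an
element `≡ a₀ mod π O`. -/
theorem s59x_ref_of_local (O : Subring 𝓕) (S : Set (Place L₀ 𝓕)) (E : Place L₀ 𝓕 → ℤ)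
    (π : L₀) (hπO : algebraMap L₀ 𝓕 π ∈ O) (a₀ : 𝓕) (ha₀ : a₀ ∈ O)
    (hloc : ∀ 𝔫 : Ideal (s34x_ring O S), 𝔫.IsMaximal → s34x_const O S π hπO ∈ 𝔫 →
      ∃ a ∈ s34x_latSet O S E, ∃ s : s34x_ring O S, s ∉ 𝔫 ∧
        ∃ y ∈ O, a - (s : 𝓕) * a₀ = algebraMap L₀ 𝓕 π * y) :
    ∃ g ∈ s34x_latSet O S E, ∃ y ∈ O, g - a₀ = algebraMap L₀ 𝓕 π * y := by
  set 𝔞 := s59x_refIdeal O S E (algebraMap L₀ 𝓕 π) a₀ with h𝔞
  have hπ𝔞 : s34x_const O S π hπO ∈ 𝔞 := by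
    refine ⟨0, (s34x_latAdd O S E).zero_mem, -a₀, O.neg_mem ha₀, ?_⟩
    rw [s34x_const_coe]; ring
  have htop : 𝔞 = ⊤ := by
    by_contra hne
    obtain ⟨𝔫, h𝔫, hle⟩ := Ideal.exists_le_maximal 𝔞 hne
    obtain ⟨a, ha, s, hs, y, hy, e⟩ := hloc 𝔫 h𝔫 (hle hπ𝔞)
    exact hs (hle ⟨a, ha, y, hy, e⟩)
  have h1 : (1 : s34x_ring O S) ∈ 𝔞 := by rw [htop]; exact Submodule.mem_top
  obtain ⟨g, hg, y, hy, e⟩ := h1
  exact ⟨g, hg, y, hy, by simpa using e⟩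

end Fermat.Agent.Lib.S59
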