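/-
Programme (R2) = S59, case (P) (owner helper7, prefix `s59x_`), leaf **[P1c], part 4: THE CHART THEOREM FOR AN ELEMENT
OF THE DECOMPOSITION GROUP** (generic in the function field `𝓕 / L₀`; semi-abstract two-component frame of helper8's
`Lib/S33/SSModel.lean`; no modular objects).

`s59x_unip_chart` is the analogue of `s33u_unip_chart_F_of_Phi` (`Lib/S33/UnipGen.lean`, inertia) for a semilinear
automorphism `g` which is NOT trivial modulo `π`: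

* `g` stabilises the two vertical valuation rings (`hgO`), the chart (`hC`) and every NODE of the chart (`hfix`);
* every first difference `g U / U` is a unit of both vertical valuation rings (`hfdU`; in the application:
  `s59x_galois_quot`);
* `f ≠ 0`, `m ∣ div f`, rational support on the chart; a REFERENCE `(c₀, a₀)`: `a₀` a unit of both vertical valuation
  rings with `c₀ (g f / f) ≡ a₀ ^ m` on both components (`href`; in the application: `s59x_depth0` + weak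
  approximation);
* `m`-th roots are unique in the residue fields of the nodes (`hroot`; `m = p ^ k` in characteristic `p`).

Conclusion: there is `a ≠ 0` such that `F = c₀ (g f / f) / a ^ m` is `≡ 1` on both components and has neither zeros nor
poles at the places of the chart through the closed points of its special fibre (nodes included).
-/
import Fermat.Agent.Lib.S59.NXNodeGen
import Fermat.Agent.Lib.S59.NXGlueGen
import Fermat.Agent.Lib.S59.NXLocDatum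
import Fermat.Agent.Lib.S59.NXChartAux

set_option autoImplicit false
set_option linter.style.haveILetI false

noncomputable section

namespace Fermat.Agent.Lib.S59

open AlgebraicCurve Fermat.Agent.Lib.FF Fermat.Agent.Lib.S18 Fermat.Agent.Lib.S34
  Fermat.Agent.Lib.S33 IsLocalRing

variable {L₀ 𝓕 : Type*} [Field L₀] [Field 𝓕] [Algebra L₀ 𝓕]

/-- The chart ring is stable under a semilinear automorphism stabilising the components and the chart. -/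
theorem s59x_ring_smul_mem_iff {ι : Type*} (O : ι → ValuationSubring 𝓕) (S : Set (Place L₀ 𝓕))
    (g : SemilinearAut L₀ 𝓕) (hgO : ∀ i, ∀ y : 𝓕, y ∈ O i ↔ g • y ∈ O i)
    (hgS : ∀ Q : Place L₀ 𝓕, Q ∈ S ↔ g • Q ∈ S) (y : 𝓕) :
    y ∈ s34x_ring (s34x_infRing O) S ↔ g • y ∈ s34x_ring (s34x_infRing O) S := by
  have hinvS : ∀ Q : Place L₀ 𝓕, Q ∈ S → g⁻¹ • Q ∈ S := by
    intro Q hQ
    have := hgS (g⁻¹ • Q)
    rw [smul_inv_smul] at this
    exact this.mpr hQ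
  constructor
  · rintro ⟨hO, hS⟩
    refine ⟨(s34x_mem_infRing O _).mpr fun i => (hgO i y).mp ((s34x_mem_infRing O y).mp hO i),
      fun Q hQ => ?_⟩
    rw [s34f_smul_mem_iff]
    exact hS _ (hinvS Q hQ)
  · rintro ⟨hO, hS⟩
    refine ⟨(s34x_mem_infRing O _).mpr fun i => (hgO i y).mpr ((s34x_mem_infRing O _).mp hO i),
      fun Q hQ => ?_⟩
    have := hS (g • Q) ((hgS Q).mp hQ)
    rw [s34f_smul_mem_iff, inv_smul_smul] at this
    exact this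

set_option maxHeartbeats 1600000 in
/-- **[P1c], generic form on one chart.** -/
theorem s59x_unip_chart {D Fb : Type*} [CommRing D] [IsDedekindDomain D] [Field Fb] [Algebra D Fb]
    [IsFractionRing D Fb] (A₀ : ValuationSubring L₀) [IsDiscreteValuationRing A₀]
    (O : Bool → ValuationSubring 𝓕) (hAO : ∀ i, ∀ a : A₀, algebraMap L₀ 𝓕 (a : L₀) ∈ O i)
    (ϖ : A₀) (hϖ : Irreducible ϖ)
    (hϖO : ∀ i, ¬ ∃ y ∈ O i, (1 : 𝓕) = algebraMap L₀ 𝓕 (ϖ : L₀) * y)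
    (hU : ∀ i, ∀ y : 𝓕, ∃ k : ℕ, algebraMap L₀ 𝓕 (ϖ : L₀) ^ k * y ∈ O i)
    (hUi : ∀ i, ∀ U : 𝓕, U ≠ 0 → ∃ (n : ℤ) (u : 𝓕), u ∈ O i ∧ u⁻¹ ∈ O i ∧
      U = algebraMap L₀ 𝓕 (ϖ : L₀) ^ n * u)
    (g : SemilinearAut L₀ 𝓕)
    (hgO : ∀ i, ∀ y : 𝓕, y ∈ O i ↔ g • y ∈ O i)
    (hfdU : ∀ i, ∀ U : 𝓕, U ≠ 0 → s33u_fd g U ∈ O i ∧ (s33u_fd g U)⁻¹ ∈ O i)
    (S : Set (Place L₀ 𝓕)) (hC : s34f_ChartContract A₀ O hAO ϖ S g)
    (red : Bool → (s34x_infRing O →+* Fb))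
    (ρ : Bool → (s34x_ring (s34x_infRing O) S →+* D))
    (hred0 : ∀ i (y : s34x_infRing O), red i y = 0 ↔
      ∃ z ∈ O i, (y : 𝓕) = algebraMap L₀ 𝓕 (ϖ : L₀) * z)
    (hρ : ∀ i b, algebraMap D Fb (ρ i b) = red i ⟨(b : 𝓕), b.2.1⟩)
    (hD : ¬ IsField D) (q : ℕ) (hq : 2 ≤ q)
    (hα : ∀ d : D, ∃ g b, ρ true g = d ∧ ρ false g = ρ false b ^ q)
    (hβ : ∀ d : D, ∃ g b, ρ false g = d ∧ ρ true g = ρ true b ^ q)
    (hfix : ∀ 𝔫 : Ideal (s34x_ring (s34x_infRing O) S),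
      s33s_IsNode O (algebraMap L₀ 𝓕 (ϖ : L₀)) S 𝔫 →
      ∀ (b : s34x_ring (s34x_infRing O) S) (hgb : g • (b : 𝓕) ∈ s34x_ring (s34x_infRing O) S),
        b ∈ 𝔫 → (⟨g • (b : 𝓕), hgb⟩ : s34x_ring (s34x_infRing O) S) ∈ 𝔫)
    (m : ℕ) (hm0 : m ≠ 0)
    (hroot : ∀ 𝔫 : Ideal (s34x_ring (s34x_infRing O) S),
      s33s_IsNode O (algebraMap L₀ 𝓕 (ϖ : L₀)) S 𝔫 →
      ∀ x y : s34x_ring (s34x_infRing O) S ⧸ 𝔫, x ^ m = y ^ m → x = y)
    (f : 𝓕) (hf0 : f ≠ 0) (hdiv : ∀ Q : Place L₀ 𝓕, (m : ℤ) ∣ Q.ord f)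
    (hdeg : ∀ Q ∈ S, Q.ord f ≠ 0 → Q.deg = 1)
    (c₀ : (↥A₀)ˣ) (a₀ : 𝓕) (ha₀ : ∀ i, a₀ ∈ O i ∧ a₀⁻¹ ∈ O i)
    (href : ∀ i, s33u_One (O i) (algebraMap L₀ 𝓕 (ϖ : L₀))
      (s33u_cst A₀ (c₀ : A₀) * s33u_fd g f / a₀ ^ m)) :
    ∃ a : 𝓕, a ≠ 0 ∧
      (∀ i, s33u_One (O i) (algebraMap L₀ 𝓕 (ϖ : L₀))
        (s33u_cst A₀ (c₀ : A₀) * s33u_fd g f / a ^ m)) ∧
      ∀ 𝔫 : Ideal (s34x_ring (s34x_infRing O) S), 𝔫.IsMaximal →
        s34x_const (s34x_infRing O) S (ϖ : L₀) (s34x_inf_const_mem O A₀ hAO ϖ) ∈ 𝔫 →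
        ∀ Q ∈ S, s34f_through (s34x_infRing O) S 𝔫 Q →
          Q.ord (s33u_cst A₀ (c₀ : A₀) * s33u_fd g f / a ^ m) = 0 := by
  classical
  obtain ⟨hnoeth, F1, F2, F3, hgS, hstruct⟩ := hC
  haveI := hnoeth
  set π : 𝓕 := algebraMap L₀ 𝓕 (ϖ : L₀) with hπdef
  have hπ0 : π ≠ 0 := s34f_unif_ne_zero (𝓕 := 𝓕) A₀ ϖ hϖ
  have hπO : ∀ i, π ∈ O i := fun i => hAO i ϖ
  have hπL : ∀ Q : Place L₀ 𝓕, Q.ord π = 0 := fun Q => ff_ord_algebraMap Q _
  set πB : s34x_ring (s34x_infRing O) S :=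
    s34f_constHom A₀ (s34x_infRing O) (s34x_inf_const_mem O A₀ hAO) S ϖ with hπBdef
  have hπB : (πB : 𝓕) = π := rfl
  set G : 𝓕 := s33u_fd g f with hGdef
  have hG0 : G ≠ 0 := s33u_fd_ne_zero g hf0
  have hc0 := s33u_cst_unit_ne_zero (𝓕 := 𝓕) A₀ c₀
  set cG : 𝓕 := s33u_cst A₀ (c₀ : A₀) * G with hcGdef
  have hcG0 : cG ≠ 0 := mul_ne_zero hc0 hG0
  have hcGO : ∀ i, cG ∈ O i ∧ cG⁻¹ ∈ O i := by
    intro i
    obtain ⟨h1, h2⟩ := hfdU i f hf0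
    refine ⟨(O i).mul_mem _ _ (hAO i _) h1, ?_⟩
    rw [hcGdef, mul_inv, ← s33u_cst_unit_inv]
    exact (O i).mul_mem _ _ (hAO i _) h2
  have hordcG : ∀ Q : Place L₀ 𝓕, Q.ord cG = Q.ord G := by
    intro Q
    rw [hcGdef, Q.ord_mul hc0 hG0, s33u_ord_cst_unit, zero_add]
  set E := s18_E (L₀ := L₀) G m with hE
  have hmZ : (m : ℤ) ≠ 0 := by exact_mod_cast hm0
  have hdiv1 : ∀ Q : Place L₀ 𝓕, (m : ℤ) ∣ Q.ord G := by
    intro Q
    rw [hGdef, s33u_ord_fd g Q hf0]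
    exact dvd_sub (hdiv _) (hdiv _)
  have hρs : ∀ i, Function.Surjective (ρ i) := by
    intro i d
    cases i
    · obtain ⟨x, -, hx, -⟩ := hβ d
      exact ⟨x, hx⟩
    · obtain ⟨x, -, hx, -⟩ := hα d
      exact ⟨x, hx⟩
  have hkerI : ∀ i, RingHom.ker (ρ i) = s33s_comp O π S i := by
    intro i
    ext b
    rw [RingHom.mem_ker, s33s_rho_eq_zero_iff O π S red ρ hred0 hρ]
  have ha₀0 : a₀ ≠ 0 := by
    intro h0
    have := (ha₀ true).2
    apply hϖO true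
    refine ⟨0, (O true).zero_mem, ?_⟩
    exfalso
    -- `a₀ = 0` contradicts `href`
    obtain ⟨z, hz, e⟩ := href true
    rw [h0, zero_pow hm0, div_zero] at e
    exact hϖO true ⟨-z, (O true).neg_mem _ hz, by rw [mul_neg, ← e]; ring⟩
  have hinvS : ∀ Q : Place L₀ 𝓕, Q ∈ S → g⁻¹ • Q ∈ S := by
    intro Q hQ
    have := hgS (g⁻¹ • Q)
    rw [smul_inv_smul] at this
    exact this.mpr hQ
  -- rational support of `E`
  have hEdeg : ∀ Q ∈ S, E Q ≠ 0 → Q.deg = 1 := by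
    intro Q hQS hEQ
    have hGQ : Q.ord G ≠ 0 := by
      intro h0
      apply hEQ
      rw [hE, s18_E, h0, Int.zero_ediv]
    rw [hGdef, s33u_ord_fd g Q hf0] at hGQ
    by_cases h1 : Q.ord f = 0
    · have h2 : (g⁻¹ • Q).ord f ≠ 0 := by
        intro h2
        rw [h1, h2, sub_zero] at hGQ
        exact hGQ rfl
      have := hdeg _ (hinvS Q hQS) h2
      rwa [SemilinearAut.deg_smul] at this
    · exact hdeg Q hQS h1
  have hEfin : {Q : Place L₀ 𝓕 | Q ∈ S ∧ E Q ≠ 0}.Finite :=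
    (F3 G hG0).subset fun Q hQ => ⟨hQ.1, fun h0 => hQ.2 (by rw [hE, s18_E, h0, Int.zero_ediv])⟩
  -- the congruence `(a₀ / h) ^ m ≡ c G / h ^ m`
  have hcongI : ∀ (i : Bool) (h : 𝓕), h ≠ 0 → h⁻¹ ∈ O i →
      ∃ z ∈ O i, (a₀ / h) ^ m - cG / h ^ m = π * z := by
    intro i h hh0 hhinv
    obtain ⟨z, hz, e⟩ := href i
    refine ⟨-(z * a₀ ^ m * (h⁻¹) ^ m), (O i).neg_mem _ ((O i).mul_mem _ _
      ((O i).mul_mem _ _ hz (pow_mem (ha₀ i).1 m)) (pow_mem hhinv m)), ?_⟩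
    have ha₀m : a₀ ^ m ≠ 0 := pow_ne_zero m ha₀0
    have e' : cG = a₀ ^ m + π * z * a₀ ^ m := by
      have : cG / a₀ ^ m = 1 + π * z := by rw [← e]; ring
      rw [div_eq_iff ha₀m] at this
      rw [this]; ring
    rw [e', div_pow, inv_pow]
    have hhm : h ^ m ≠ 0 := pow_ne_zero m hh0
    field_simp
    ring
  -- regularity of `u = c G / h ^ m`
  have hureg : ∀ (𝔫 : Ideal (s34x_ring (s34x_infRing O) S)) (h : 𝓕), h ≠ 0 →
      (∀ Q ∈ S, s34f_through (s34x_infRing O) S 𝔫 Q → Q.ord h = E Q) →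
      ∀ Q ∈ S, s34f_through (s34x_infRing O) S 𝔫 Q → cG / h ^ m ∈ Q.toValuationSubring := by
    intro 𝔫 h hh0 hhQ Q hQS hth
    have hhm : h ^ m ≠ 0 := pow_ne_zero m hh0
    rw [ff_mem_iff_ord_nonneg Q (div_ne_zero hcG0 hhm), div_eq_mul_inv,
      Q.ord_mul hcG0 (inv_ne_zero hhm), Q.ord_inv, ← zpow_natCast, Q.ord_zpow, hordcG,
      hhQ Q hQS hth, s18_E_mul _ m hdiv1 Q]
    omega
  -- the local data at every closed point
  have key : ∀ 𝔫 : Ideal (s34x_ring (s34x_infRing O) S), 𝔫.IsMaximal → πB ∈ 𝔫 →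
      ∃ gx : 𝓕, gx ≠ 0 ∧
        (∀ Q ∈ S, s34f_through (s34x_infRing O) S 𝔫 Q → E Q ≤ Q.ord gx) ∧
        (∀ i, (∀ b : s34x_ring (s34x_infRing O) S, (∃ y ∈ O i, (b : 𝓕) = π * y) → b ∈ 𝔫) →
          ∃ y ∈ O i, gx - a₀ = π * y) := by
    intro 𝔫 h𝔫 hπ𝔫
    haveI := h𝔫
    haveI : 𝔫.IsPrime := h𝔫.isPrime
    -- a point on one component only
    have smooth : ∀ i : Bool, s33s_comp O π S i ≤ 𝔫 → ¬ s33s_comp O π S (!i) ≤ 𝔫 →
        ∃ gx : 𝓕, gx ≠ 0 ∧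
          (∀ Q ∈ S, s34f_through (s34x_infRing O) S 𝔫 Q → E Q ≤ Q.ord gx) ∧
          ∀ j, j = i → ∃ y ∈ O j, gx - a₀ = π * y := by
      intro i hi hni
      obtain ⟨t₀, ht₀c, ht₀𝔫⟩ := SetLike.not_le_iff_exists.mp hni
      have hk : RingHom.ker (ρ i) ≤ 𝔫 := by rw [hkerI]; exact hi
      have ht₀ρ : ρ (!i) t₀ = 0 := (s33s_rho_eq_zero_iff O π S red ρ hred0 hρ (!i) t₀).mpr ht₀c
      obtain ⟨t, hm⟩ := s59x_smooth_span O π S red ρ hred0 hρ hρs hπ0 hπL πB hπB 𝔫 hπ𝔫 i hk t₀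
        ht₀ρ ht₀𝔫
      obtain ⟨h₀, hh₀0, hh₀Q⟩ := s59x_exists_h_of_locEq (s34x_infRing O) S 𝔫 E hEfin
        (fun Q hQS hth hEQ => s34f_locEq_of_smooth A₀ (s34x_infRing O)
          (s34x_inf_const_mem O A₀ hAO) S 𝔫 ϖ hϖ hπ𝔫 Q hQS (hEdeg Q hQS hEQ) hth t hm (F1 Q hQS)
          (F2 Q hQS))
      -- normalise `h₀` on the component `i`
      obtain ⟨n, h, hhO, hhinv, eh⟩ := hUi i h₀ hh₀0
      have hh0 : h ≠ 0 := by
        rintro rfl
        exact hh₀0 (by rw [eh, mul_zero])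
      have hhQ : ∀ Q ∈ S, s34f_through (s34x_infRing O) S 𝔫 Q → Q.ord h = E Q := by
        intro Q hQS hth
        have := hh₀Q Q hQS hth
        rw [eh, Q.ord_mul (zpow_ne_zero _ hπ0) hh0, Q.ord_zpow, hπL, mul_zero, zero_add] at this
        exact this
      -- move `u`, `ρ₀` into `O true ⊓ O false`
      obtain ⟨z₀, hz₀, et₀⟩ := ht₀c
      obtain ⟨k₁, hk₁⟩ := hU (!i) (cG / h ^ m)
      obtain ⟨k₂, hk₂⟩ := hU (!i) (a₀ / h)
      have htO : ∀ j, ((t₀ ^ (k₁ + k₂) : s34x_ring (s34x_infRing O) S) : 𝓕) ∈ O j := fun j =>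
        (s34x_mem_infRing O _).mp (t₀ ^ (k₁ + k₂)).2.1 j
      have htcoe : ((t₀ ^ (k₁ + k₂) : s34x_ring (s34x_infRing O) S) : 𝓕) =
          (π * z₀) ^ (k₁ + k₂) := by
        push_cast
        rw [et₀]
      have hpowm : (h⁻¹) ^ m ∈ O i := pow_mem hhinv m
      have htu : ((t₀ ^ (k₁ + k₂) : s34x_ring (s34x_infRing O) S) : 𝓕) * (cG / h ^ m) ∈
          s34x_infRing O := by
        rw [s34x_mem_infRing]
        intro j
        rcases Bool.eq_or_eq_not j i with rfl | rfl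
        · refine (O j).mul_mem _ _ (htO j) ?_
          rw [div_eq_mul_inv, ← inv_pow]
          exact (O j).mul_mem _ _ (hcGO j).1 hpowm
        · rw [htcoe]
          have : (π * z₀) ^ (k₁ + k₂) * (cG / h ^ m) =
              z₀ ^ (k₁ + k₂) * π ^ k₂ * (π ^ k₁ * (cG / h ^ m)) := by ring
          rw [this]
          exact (O (!i)).mul_mem _ _ ((O (!i)).mul_mem _ _ (pow_mem hz₀ _)
            (pow_mem (hπO (!i)) _)) hk₁
      have htρ : ((t₀ ^ (k₁ + k₂) : s34x_ring (s34x_infRing O) S) : 𝓕) * (a₀ / h) ∈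
          s34x_infRing O := by
        rw [s34x_mem_infRing]
        intro j
        rcases Bool.eq_or_eq_not j i with rfl | rfl
        · refine (O j).mul_mem _ _ (htO j) ?_
          rw [div_eq_mul_inv]
          exact (O j).mul_mem _ _ (ha₀ j).1 hhinv
        · rw [htcoe]
          have : (π * z₀) ^ (k₁ + k₂) * (a₀ / h) =
              z₀ ^ (k₁ + k₂) * π ^ k₁ * (π ^ k₂ * (a₀ / h)) := by ring
          rw [this]
          exact (O (!i)).mul_mem _ _ ((O (!i)).mul_mem _ _ (pow_mem hz₀ _)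
            (pow_mem (hπO (!i)) _)) hk₂
      obtain ⟨c, b, hc, z, hz, e⟩ := s59x_comp_root O π S red ρ F3 hred0 hρ hρs hD 𝔫 i hk
        (t₀ ^ (k₁ + k₂)) (fun hmem => ht₀𝔫 (‹𝔫.IsPrime›.mem_of_pow_mem _ hmem))
        (cG / h ^ m) (a₀ / h) htu htρ (hureg 𝔫 h hh0 hhQ) m hm0 (hcongI i h hh0 hhinv)
      exact s59x_gx_of_lift O π hπ0 hπO hϖO hUi S 𝔫 E a₀ h ha₀0 hh0 hhQ c b hc (fun j => j = i)
        ⟨i, rfl⟩ (fun j hj => by rw [hj]; exact hi) (fun j hj => by rw [hj]; exact hhO)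
        (fun j hj => by rw [hj]; exact (ha₀ i).2) (fun j hj => by rw [hj]; exact ⟨z, hz, e⟩)
    by_cases h1 : s33s_comp O π S true ≤ 𝔫
    · by_cases h2 : s33s_comp O π S false ≤ 𝔫
      · -- a node
        have hnode : s33s_IsNode O π S 𝔫 := ⟨h𝔫, h1, h2⟩
        have hAA : s34f_AlmostAll (s34x_infRing O) S 𝔫 := by
          rcases hstruct 𝔫 hπ𝔫 with ⟨t, hm⟩ | ⟨u, w, h0, hm⟩
          · exact s34f_almostAll_of_smooth A₀ (s34x_infRing O) (s34x_inf_const_mem O A₀ hAO) S ϖ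
              hϖ 𝔫 hπ𝔫 F1 F2 t hm
          · exact s34f_almostAll_of_node A₀ (s34x_infRing O) (s34x_inf_const_mem O A₀ hAO) S ϖ
              hϖ 𝔫 hπ𝔫 F1 F2 u w hm h0
        have hst : s59x_StableW (s34x_infRing O) S 𝔫 g :=
          s59x_StableW.of_maximal h𝔫 (s59x_ring_smul_mem_iff O S g hgO hgS) hgS (hfix 𝔫 hnode)
        obtain ⟨Φ, hΦ0, hΦ⟩ := s59x_exists_Phi (s34x_infRing O) S F3 𝔫 g hst hAA f hf0 m hdeg
        set h : 𝓕 := s33u_fd g Φ with hh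
        have hh0 : h ≠ 0 := s33u_fd_ne_zero g hΦ0
        have hhQ : ∀ Q ∈ S, s34f_through (s34x_infRing O) S 𝔫 Q → Q.ord h = E Q :=
          fun Q hQS hth => s59x_ord_fd_Phi (s34x_infRing O) S 𝔫 g f hf0 m hm0 hdiv Φ hΦ0 hΦ Q hQS
            hth
        have hhO : ∀ i, h ∈ O i ∧ h⁻¹ ∈ O i := fun i => hfdU i Φ hΦ0
        have hu : cG / h ^ m ∈ s34x_infRing O := by
          rw [s34x_mem_infRing]
          intro i
          rw [div_eq_mul_inv, ← inv_pow]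
          exact (O i).mul_mem _ _ (hcGO i).1 (pow_mem (hhO i).2 m)
        have hρ₀ : a₀ / h ∈ s34x_infRing O := by
          rw [s34x_mem_infRing]
          intro i
          rw [div_eq_mul_inv]
          exact (O i).mul_mem _ _ (ha₀ i).1 (hhO i).2
        obtain ⟨s, β, hs, hsβ⟩ := s59x_node_root O π S red ρ F3 hred0 hρ hρs hD q hq hα hβ 𝔫
          (by rw [hkerI]; exact h1) (by rw [hkerI]; exact h2) (cG / h ^ m) (a₀ / h) hu hρ₀
          (hureg 𝔫 h hh0 hhQ) m hm0 (fun i => hcongI i h hh0 (hhO i).2) (hroot 𝔫 hnode)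
        obtain ⟨gx, hgx0, hgxQ, hgxC⟩ := s59x_gx_of_lift O π hπ0 hπO hϖO hUi S 𝔫 E a₀ h ha₀0 hh0
          hhQ s β hs (fun _ => True) ⟨true, trivial⟩
          (fun j _ => by cases j <;> assumption) (fun j _ => (hhO j).1) (fun j _ => (ha₀ j).2)
          (fun j _ => hsβ j)
        exact ⟨gx, hgx0, hgxQ, fun i _ => hgxC i trivial⟩
      · obtain ⟨gx, hgx0, hgxQ, hgxC⟩ := smooth true h1 h2
        refine ⟨gx, hgx0, hgxQ, fun i hi => ?_⟩
        cases i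
        · exact absurd (fun b hb => hi b hb) h2
        · exact hgxC true rfl
    · by_cases h2 : s33s_comp O π S false ≤ 𝔫
      · obtain ⟨gx, hgx0, hgxQ, hgxC⟩ := smooth false h2 h1
        refine ⟨gx, hgx0, hgxQ, fun i hi => ?_⟩
        cases i
        · exact hgxC false rfl
        · exact absurd (fun b hb => hi b hb) h1
      · -- impossible: `π ∈ 𝔫`
        exfalso
        obtain ⟨b₁, hb₁c, hb₁𝔫⟩ := SetLike.not_le_iff_exists.mp h1
        obtain ⟨b₂, hb₂c, hb₂𝔫⟩ := SetLike.not_le_iff_exists.mp h2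
        have hdvd : πB ∣ b₁ * b₂ := s59x_purity O π S hπ0 hπL πB hπB (b₁ * b₂) (fun j => by
          cases j
          · exact Ideal.mul_mem_left _ _ hb₂c
          · exact Ideal.mul_mem_right _ _ hb₁c)
        obtain ⟨x, hx⟩ := hdvd
        have hmem : b₁ * b₂ ∈ 𝔫 := by rw [hx]; exact 𝔫.mul_mem_right _ hπ𝔫
        exact (‹𝔫.IsPrime›.mem_or_mem hmem).elim hb₁𝔫 hb₂𝔫
  -- (LOC) at every closed point, then local to global
  have ha₀O : a₀ ∈ s34x_infRing O := (s34x_mem_infRing O _).mpr fun i => (ha₀ i).1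
  have hloc : ∀ 𝔫 : Ideal (s34x_ring (s34x_infRing O) S), 𝔫.IsMaximal →
      s34x_const (s34x_infRing O) S (ϖ : L₀) (s34x_inf_const_mem O A₀ hAO ϖ) ∈ 𝔫 →
      ∃ a ∈ s34x_latSet (s34x_infRing O) S E, ∃ s : s34x_ring (s34x_infRing O) S, s ∉ 𝔫 ∧
        ∃ y ∈ s34x_infRing O, a - (s : 𝓕) * a₀ = algebraMap L₀ 𝓕 (ϖ : L₀) * y := by
    intro 𝔫 h𝔫 hπ𝔫
    haveI : 𝔫.IsPrime := h𝔫.isPrime
    obtain ⟨gx, hgx0, hgxQ, hgxC⟩ := key 𝔫 h𝔫 hπ𝔫
    obtain ⟨s, hs𝔫, -, hlat, y, hy, e⟩ := s59x_loc_of_gen_ref O S E π hπ0 hπO hU 𝔫 a₀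
      (fun i => (ha₀ i).1) gx hgx0 hgxQ hgxC (by
        refine ((F3 gx hgx0).union (F3 _ hG0)).subset ?_
        rintro Q ⟨hQS, hlt⟩
        by_cases h0 : Q.ord G = 0
        · left
          refine ⟨hQS, fun h => ?_⟩
          rw [h, hE, s18_E, h0, Int.zero_ediv] at hlt
          exact lt_irrefl _ hlt
        · right
          exact ⟨hQS, h0⟩)
    exact ⟨_, hlat, s, hs𝔫, y, hy, e⟩
  obtain ⟨a, halat, y, hy, e⟩ := s59x_ref_of_local (s34x_infRing O) S E (ϖ : L₀)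
    (s34x_inf_const_mem O A₀ hAO ϖ) a₀ ha₀O hloc
  have hyO : ∀ i, y ∈ O i := fun i => (s34x_mem_infRing O y).mp hy i
  have ha0 : a ≠ 0 := by
    rintro rfl
    apply hϖO true
    refine ⟨-(y * a₀⁻¹), (O true).neg_mem _ ((O true).mul_mem _ _ (hyO true) (ha₀ true).2), ?_⟩
    have : a₀ = -(π * y) := by linear_combination -e
    rw [mul_neg, ← mul_assoc, ← neg_mul, ← this, mul_inv_cancel₀ ha₀0]
  -- `a / a₀ ≡ 1`
  have hquot : ∀ i, s33u_One (O i) π (a / a₀) := by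
    intro i
    refine ⟨y * a₀⁻¹, (O i).mul_mem _ _ (hyO i) (ha₀ i).2, ?_⟩
    rw [← mul_assoc, ← e]
    field_simp
  have hF1 : ∀ i, s33u_One (O i) π (cG / a ^ m) := by
    intro i
    have h3 := (href i).div (hπO i) (hϖO i) ((hquot i).pow (hπO i) m)
    have e3 : cG / a₀ ^ m / (a / a₀) ^ m = cG / a ^ m := by
      rw [div_pow]
      have ha₀m : a₀ ^ m ≠ 0 := pow_ne_zero m ha₀0
      have ham : a ^ m ≠ 0 := pow_ne_zero m ha0
      field_simp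
    rw [e3] at h3
    exact h3
  refine ⟨a, ha0, hF1, ?_⟩
  intro 𝔫 h𝔫 hπ𝔫 Q hQS hth
  haveI : 𝔫.IsPrime := h𝔫.isPrime
  have ham : a ^ m ≠ 0 := pow_ne_zero m ha0
  have hF0 : cG / a ^ m ≠ 0 := div_ne_zero hcG0 ham
  have hx0 : (cG / a ^ m)⁻¹ ≠ 0 := inv_ne_zero hF0
  have hordx : ∀ Q' : Place L₀ 𝓕, Q'.ord (cG / a ^ m)⁻¹ = (m : ℤ) * Q'.ord a - Q'.ord G := by
    intro Q'
    rw [Q'.ord_inv, div_eq_mul_inv, Q'.ord_mul hcG0 (inv_ne_zero ham), Q'.ord_inv,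
      ← zpow_natCast, Q'.ord_zpow, hordcG]
    ring
  have hπ𝔫' : πB ∈ 𝔫 := hπ𝔫
  have h0 := s33u_ord_eq_zero O S π hπ0 hπO hU hπL 𝔫
    (fun z b hb => by
      have : b = πB * z := by
        apply Subtype.ext
        push_cast
        rw [hb, hπB]
      rw [this]
      exact 𝔫.mul_mem_right _ hπ𝔫')
    (cG / a ^ m)⁻¹ hx0
    (fun Q' hQ' _ => by
      rw [hordx]
      have h1 := (halat.2 Q' hQ').resolve_left ha0
      have h2 := s18_E_mul G m hdiv1 Q'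
      have h3 : (m : ℤ) * E Q' ≤ (m : ℤ) * Q'.ord a :=
        mul_le_mul_of_nonneg_left h1 (by positivity)
      rw [hE] at h3
      omega)
    (fun i _ => (hF1 i).inv (hπO i) (hϖO i))
    ((F3 _ hx0).subset fun Q' hQ' => ⟨hQ'.1, fun h => by
      have h1 : Q'.ord (cG / a ^ m)⁻¹ < 0 := hQ'.2
      rw [h] at h1
      exact lt_irrefl _ h1⟩)
    Q hQS hth
  rw [Q.ord_inv] at h0
  omega

end Fermat.Agent.Lib.S59
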