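/-
Programme (R2) = S59, case (P), leaf **[P1c-INST], part 2: THE MODULAR INSTANCE OF helper7's GENERIC CHART THEOREM
`s59x_unip_chart`** (`Lib/S59/NXChartGen.lean`) (owner helper8, prefix `s59c_`; helper7's request #3819).

`σ₀ : K₀ ≃ₐ[ℚ] K₀` preserving the Gauss ring `A` and inducing `Fr^{2n}` on the residue field `κ` (an element of the
decomposition group of EVEN residual degree), `τ := arithmeticGalois (modularFunctionFieldFull (M p)) σ₀`; `f₀ ≠ 0` of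
level `M p` with `p^k ∣ div f₀`, rational support on the chart, and norms along `α` and `β` equal to constants times
`p^k`-th powers.  Then there are `a ≠ 0` and a unit `c₀` of `A` such that

  `F = c₀ · (τ f₀ / f₀) / a ^ (p ^ k)`

is `≡ 1` modulo `ϖ (V_∞ ⊓ V_0)` and has neither zeros nor poles at the places of the chart through the closed points of
its special fibre (= `s33n_UnipW`, resp. `s33u_Unip` on the chart of `j`).

* `s59c_nf_hgO`, `s59c_nf_hfdU`, `s59c_nf_hroot` : the hypotheses `hgO`, `hfdU`, `hroot` of `s59x_unip_chart`;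
* `s59c_nf_build` : the Build frame of `Lib/S33/SSDatum.lean` (reference `(c₀, a₀)` from `s59c_ref`, `CNfRef.lean`;
  `hfix` from `s59c_node_fixed_smul`, `CNodeFixed.lean`);
* **`s59c_nf_w`**   : chart `{α w regular}` (inputs of `s33s_datumW` + a chart contract);
* `s59c_nf_chart`   : a chart package `C : s59b_Chart …` (helper2's `B4Chart.lean`) + a chart contract;
* **`s59c_nf_five`** : chart `{j regular}`, `p ≥ 5`, NO hypothesis left; **`s59c_nf_t2`** : chart `{t regular}` for ANY `t`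
  of level `M p` with `q`-expansion `t₂` (`p = 3`, `2 ∣ M`).
-/
import Fermat.Agent.Lib.S59.CNfRef
import Fermat.Agent.Lib.S59.CNodeFixed
import Fermat.Agent.Lib.S59.NXChartGen
import Fermat.Agent.Lib.S33.UnipIfaceT

set_option autoImplicit false
set_option linter.unusedSectionVars false
set_option linter.style.haveILetI false
set_option linter.unusedVariables false
set_option synthInstance.maxHeartbeats 400000
set_option maxHeartbeats 1600000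

noncomputable section

namespace Fermat.Agent.Lib.S59

open ModularCurve AlgebraicCurve HahnSeries Polynomial Fermat.Agent.Lib.FF Fermat.Agent.Lib.S18
  Fermat.Agent.Lib.S34 Fermat.Agent.Lib.S35 Fermat.Agent.Lib.S37 Fermat.Agent.Lib.S33
  Fermat.Agent.Lib.S36 Fermat.Agent.Lib.S44 Fermat.Agent.Lib.S28

local notation "Kb" => AlgebraicClosure ℚ

section Build

variable {K₀ : Type} [Field K₀] [CharZero K₀] [Algebra ℚ K₀] {κ : Type} [Field κ]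
  (G : s18g_GaussData K₀ κ) (φ : K₀ →+* Kb) (M p : ℕ) [NeZero M] [hp : Fact p.Prime]
  (hpM : ¬ p ∣ M) [CharP κ p] [PerfectRing κ p]
  (hπ : Function.Surjective G.π)
  (S : Set (Place K₀ (s34m_F K₀ (M * p))))

local notation "FbM" => modularFunctionFieldFullC κ M
local notation "OO" => s34m_VV G φ M p hp.out hpM
local notation "ϖF" => s34m_unif G (M * p)

variable [IsDiscreteValuationRing G.A]
  (σ₀ : K₀ ≃ₐ[ℚ] K₀)
  (hσA : ∀ a : K₀, a ∈ G.A → (σ₀ : K₀ ≃+* K₀) a ∈ G.A)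
  (hσA' : ∀ a : K₀, a ∈ G.A → (σ₀.symm : K₀ ≃+* K₀) a ∈ G.A)
  (n : ℕ)
  (hσπ : ∀ a : G.A, G.π (s34m_sigmaA G (σ₀ : K₀ ≃+* K₀) hσA a) =
    iterateFrobenius κ p (2 * n) (G.π a))

include hσπ hσA' in
/-- `τ` stabilises both Gauss valuation rings, in both directions. -/
theorem s59c_nf_hgO (i : Bool) (y : s34m_F K₀ (M * p)) :
    y ∈ s34m_VV G φ M p hp.out hpM i ↔
      arithmeticGalois (modularFunctionFieldFull (M * p)) σ₀ • y ∈ s34m_VV G φ M p hp.out hpM i := by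
  haveI : NeZero p := ⟨hp.out.ne_zero⟩
  exact (s35m_galois_mem_VV_iff G σ₀ hσA hσA' (iterateFrobeniusEquiv κ p (2 * n))
    (fun a => by rw [hσπ a]; rfl) φ M p hp.out hpM i y).symm

include hσπ hσA' in
/-- every first difference `τ U / U` is a unit of both Gauss valuation rings. -/
theorem s59c_nf_hfdU (i : Bool) (U : s34m_F K₀ (M * p)) (hU : U ≠ 0) :
    s33u_fd (arithmeticGalois (modularFunctionFieldFull (M * p)) σ₀) U ∈
        s34m_VV G φ M p hp.out hpM i ∧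
      (s33u_fd (arithmeticGalois (modularFunctionFieldFull (M * p)) σ₀) U)⁻¹ ∈
        s34m_VV G φ M p hp.out hpM i := by
  haveI : NeZero p := ⟨hp.out.ne_zero⟩
  obtain ⟨c, v, hv, hv', e⟩ := s34m_exists_zpow_VV G φ M p hp.out hpM i U hU
  have hv0 : v ≠ 0 := by
    rintro rfl
    rw [mul_zero] at e
    exact hU e
  obtain ⟨c', -, hG, hG', -⟩ := s59x_galois_quot G φ M p hp.out hpM σ₀ hσA hσA'
    (iterateFrobenius κ p (2 * n)) hσπ i U v c hv hv' hv0 e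
  exact ⟨hG, hG'⟩

include hπ in
/-- `p ^ k`-th roots are unique in the residue field of a node. -/
theorem s59c_nf_hroot (k : ℕ) (𝔫 : Ideal (s34x_ring (s34x_infRing (s34m_VV G φ M p hp.out hpM)) S))
    (h𝔫 : s33s_IsNode (s34m_VV G φ M p hp.out hpM) (algebraMap K₀ (s34m_F K₀ (M * p))
      ((G.ϖ : G.A) : K₀)) S 𝔫)
    (x y : s34x_ring (s34x_infRing (s34m_VV G φ M p hp.out hpM)) S ⧸ 𝔫)
    (h : x ^ p ^ k = y ^ p ^ k) : x = y := by
  set s : s33s_Node OO ϖF S := ⟨𝔫, h𝔫⟩ with hs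
  haveI : 𝔫.IsMaximal := h𝔫.1
  letI : Field (s34x_ring (s34x_infRing (s34m_VV G φ M p hp.out hpM)) S ⧸ 𝔫) :=
    Ideal.Quotient.field 𝔫
  have hom : κ →+* (s34x_ring (s34x_infRing (s34m_VV G φ M p hp.out hpM)) S ⧸ 𝔫) :=
    s33s_kGhom G φ M p hpM hπ S s
  haveI : CharP (s34x_ring (s34x_infRing (s34m_VV G φ M p hp.out hpM)) S ⧸ 𝔫) p :=
    charP_of_injective_ringHom hom.injective p
  have h0 : (x - y) ^ p ^ k = 0 := by
    rw [sub_pow_char_pow, h, sub_self]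
  exact sub_eq_zero.mp (pow_eq_zero_iff (pow_pos hp.out.pos k).ne' |>.mp h0)

variable {D : Type*} [CommRing D] [IsDedekindDomain D] [Algebra D ↥(modularFunctionFieldFullC κ M)]
  [IsFractionRing D ↥(modularFunctionFieldFullC κ M)] (hD : ¬ IsField D)
  (hF : ∀ i y, s33s_redL G φ M p hp.out hpM i y ∈ modularFunctionFieldFullC κ M)
  (hint : ∀ (i : Bool) (b : s34x_ring (s34x_infRing (s34m_VV G φ M p hp.out hpM)) S),
    ∃ d : D, algebraMap D ↥(modularFunctionFieldFullC κ M) d =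
      s33s_redO G φ M p hp.out hpM (modularFunctionFieldFullC κ M) hF i
        ⟨(b : s34m_F K₀ (M * p)), b.2.1⟩)
  (BM : Set (s34m_F K₀ M)) (hBMV : ∀ g ∈ BM, g ∈ s34m_Vinf G M)
  (hαB : ∀ g ∈ BM, heckeAlphaBar K₀ M p g ∈
    s34x_ring (s34x_infRing (s34m_VV G φ M p hp.out hpM)) S)
  (hβB : ∀ g ∈ BM, ∃ b' ∈ s34x_ring (s34x_infRing (s34m_VV G φ M p hp.out hpM)) S,
    ∃ z, z ∈ s34m_Vinf G (M * p) ∧ z ∈ s34m_Vzero G φ M p hp.out hpM ∧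
      b' - heckeBetaBar K₀ M p g = s34m_unif G (M * p) * z)
  (hlift : ∀ d : D, ∃ g, ∃ hg : g ∈ BM,
    s34m_redInf G M ⟨g, hBMV g hg⟩ =
      ((algebraMap D ↥(modularFunctionFieldFullC κ M) d : ↥(modularFunctionFieldFullC κ M)) :
        LaurentSeries κ))
  (htw : ∀ d : D, ∃ d' : D, qExpand κ p
    ((algebraMap D ↥(modularFunctionFieldFullC κ M) d : ↥(modularFunctionFieldFullC κ M)) :
      LaurentSeries κ) =
    ((algebraMap D ↥(modularFunctionFieldFullC κ M) d' : ↥(modularFunctionFieldFullC κ M)) :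
      LaurentSeries κ) ^ p)
  (hT : s18g_HT κ M) (hdegM : s18g_HDeg K₀ M)

include hD hαB hβB hlift htw hF hint hσπ hσA' hπ hT hdegM in
/-- **[P1c-INST], Build frame.** -/
theorem s59c_nf_build
    (hC : s34f_ChartContract G.A (s34m_VV G φ M p hp.out hpM) (s34c_const_mem_VV G φ M p hp.out hpM)
      G.ϖ S (arithmeticGalois (modularFunctionFieldFull (M * p)) σ₀))
    (ζ : K₀ˣ) (hζ : IsPrimitiveRoot (ζ : K₀) p) (k : ℕ)
    (f₀ : s34m_F K₀ (M * p)) (hf₀ : f₀ ≠ 0)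
    (hdiv : ∀ Q : Place K₀ (s34m_F K₀ (M * p)), ((p ^ k : ℕ) : ℤ) ∣ Q.ord f₀)
    (hdeg : ∀ Q ∈ S, Q.ord f₀ ≠ 0 → Q.deg = 1)
    (hα : ∃ (d : K₀) (γ : s34m_F K₀ M), d ≠ 0 ∧ γ ≠ 0 ∧
      s35nm_normAlpha M p f₀ = algebraMap K₀ (s34m_F K₀ M) d * γ ^ (p ^ k))
    (hβ : ∃ (d : K₀) (γ : s34m_F K₀ M), d ≠ 0 ∧ γ ≠ 0 ∧
      s35nm_normBeta M p f₀ = algebraMap K₀ (s34m_F K₀ M) d * γ ^ (p ^ k)) :
    ∃ (a : s34m_F K₀ (M * p)) (c₀ : (↥G.A)ˣ), a ≠ 0 ∧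
      (∃ y ∈ s34x_infRing (s34m_VV G φ M p hp.out hpM),
        s33u_cst G.A (c₀ : G.A) *
          s33u_fd (arithmeticGalois (modularFunctionFieldFull (M * p)) σ₀) f₀ / a ^ p ^ k - 1 =
          s34m_unif G (M * p) * y) ∧
      ∀ 𝔫 : Ideal (s34x_ring (s34x_infRing (s34m_VV G φ M p hp.out hpM)) S), 𝔫.IsMaximal →
        s34x_const (s34x_infRing (s34m_VV G φ M p hp.out hpM)) S ((G.ϖ : G.A) : K₀)
          (s34x_inf_const_mem (s34m_VV G φ M p hp.out hpM) G.A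
            (s34c_const_mem_VV G φ M p hp.out hpM) G.ϖ) ∈ 𝔫 →
        ∀ Q ∈ S, s34f_through (s34x_infRing (s34m_VV G φ M p hp.out hpM)) S 𝔫 Q →
          Q.ord (s33u_cst G.A (c₀ : G.A) *
            s33u_fd (arithmeticGalois (modularFunctionFieldFull (M * p)) σ₀) f₀ / a ^ p ^ k) = 0 := by
  classical
  haveI : NeZero p := ⟨hp.out.ne_zero⟩
  have hirr : Irreducible G.ϖ := by
    have hker : RingHom.ker G.π = Ideal.span {G.ϖ} := by
      ext x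
      rw [RingHom.mem_ker, G.π_eq_zero_iff, Ideal.mem_span_singleton]
    have hprime : (Ideal.span {G.ϖ}).IsPrime := hker ▸ RingHom.ker_isPrime G.π
    exact ((Ideal.span_singleton_prime G.ϖ_ne_zero).mp hprime).irreducible
  obtain ⟨hkα, hkβ⟩ := s33s_inst_kronecker G φ M p hp.out hpM (modularFunctionFieldFullC κ M) S hF
    hint BM hBMV hαB hβB hlift htw
  obtain ⟨c₀, a₀, ha₀, href⟩ := s59c_ref G φ M p hp.out hpM hT hdegM hπ σ₀ hσA hσA' n hσπ ζ hζ k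
    f₀ hf₀ hα hβ
  obtain ⟨a, ha0, hone, hord⟩ := s59x_unip_chart (D := D)
    (Fb := ↥(modularFunctionFieldFullC κ M)) G.A
    (s34m_VV G φ M p hp.out hpM) (s34c_const_mem_VV G φ M p hp.out hpM) G.ϖ hirr
    (fun i => s34f_unif_not_unit_VV G φ M p hp.out hpM i)
    (fun i y => s34c_hU_VV G φ M p hp.out hpM i y)
    (fun i U hU => s34m_exists_zpow_VV G φ M p hp.out hpM i U hU)
    (arithmeticGalois (modularFunctionFieldFull (M * p)) σ₀)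
    (fun i y => s59c_nf_hgO G φ M p hpM σ₀ hσA hσA' n hσπ i y)
    (fun i U hU => s59c_nf_hfdU G φ M p hpM σ₀ hσA hσA' n hσπ i U hU)
    S hC
    (s33s_redO G φ M p hp.out hpM (modularFunctionFieldFullC κ M) hF)
    (s33s_rhoD G φ M p hp.out hpM (modularFunctionFieldFullC κ M) S hF hint)
    (s33s_redO_eq_zero_iff G φ M p hp.out hpM (modularFunctionFieldFullC κ M) hF)
    (s33s_rhoD_spec G φ M p hp.out hpM (modularFunctionFieldFullC κ M) S hF hint)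
    hD p hp.out.two_le hkα hkβ
    (fun 𝔫 h𝔫 b hgb hb => s59c_node_fixed_smul G φ M p hpM hπ S hF hint BM hBMV hαB hβB hlift σ₀
      hσA n hσπ ⟨𝔫, h𝔫⟩ b hgb hb)
    (p ^ k) (pow_ne_zero k hp.out.ne_zero)
    (fun 𝔫 h𝔫 x y h => s59c_nf_hroot G φ M p hpM hπ S k 𝔫 h𝔫 x y h)
    f₀ hf₀ hdiv hdeg c₀ a₀ ha₀ href
  refine ⟨a, c₀, ha0, ?_, hord⟩
  exact (s34x_inf_cong (s34m_VV G φ M p hp.out hpM) (s34m_unif G (M * p))
    (s34m_unif_ne_zero G (M * p)) _).mpr hone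

end Build

section Wrap

variable {K₀ : Type} [Field K₀] [CharZero K₀] [Algebra ℚ K₀] {κ : Type} [Field κ]
  (G : s18g_GaussData K₀ κ) (φ : K₀ →+* Kb) (M p : ℕ) [NeZero M] [hp : Fact p.Prime]
  (hpM : ¬ p ∣ M) [CharP κ p] [PerfectField κ]

local notation "𝓕M" => laurentBaseChange K₀ (modularFunctionFieldFull M)
local notation "𝓕N" => laurentBaseChange K₀ (modularFunctionFieldFull (M * p))
local notation "hFM" => (fun (f : LaurentSeries K₀)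
  (hf : f ∈ laurentBaseChange K₀ (modularFunctionFieldFull M)) => s18g_baseChange_mem_Frac G M hf)
local notation "FbM" => modularFunctionFieldFullC κ M
local notation "OO" => s34m_VV G φ M p hp.out hpM
local notation "ϖF" => s34m_unif G (M * p)

variable (hdeg : s34m_HDeg K₀ M p) (hT : s18g_HT κ M) (hdegM : s18g_HDeg K₀ M)
  (hπ : Function.Surjective G.π)

variable [IsDiscreteValuationRing G.A]
  (σ₀ : K₀ ≃ₐ[ℚ] K₀)
  (hσA : ∀ a : K₀, a ∈ G.A → (σ₀ : K₀ ≃+* K₀) a ∈ G.A)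
  (hσA' : ∀ a : K₀, a ∈ G.A → (σ₀.symm : K₀ ≃+* K₀) a ∈ G.A)
  (n : ℕ)
  (hσπ : ∀ a : G.A, G.π (s34m_sigmaA G (σ₀ : K₀ ≃+* K₀) hσA a) =
    iterateFrobenius κ p (2 * n) (G.π a))

include hπ hdeg hσπ hσA' in
/-- **[P1c-INST] for the chart `{α w regular}`** (the inputs of `s33s_datumW` + a chart contract). -/
theorem s59c_nf_w (w : ↥𝓕M) (hwV : w ∈ s18g_V G 𝓕M hFM)
    (hcoord : s37b_Coord κ p
      ((s18g_redF G M hFM hT hdegM ⟨w, hwV⟩ : ↥(modularFunctionFieldFullC κ M)) : LaurentSeries κ))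
    (hwtw : ∀ τ : κ ≃+* κ, ModularCurve.coeffMap (τ : κ →+* κ)
      ((s18g_redF G M hFM hT hdegM ⟨w, hwV⟩ : ↥(modularFunctionFieldFullC κ M)) : LaurentSeries κ) =
      ((s18g_redF G M hFM hT hdegM ⟨w, hwV⟩ : ↥(modularFunctionFieldFullC κ M)) : LaurentSeries κ))
    (hmain : letI := s18f_algF G M hT hdegM w hwV
      ∀ z : ↥(modularFunctionFieldFullC κ M), IsIntegral κ[X] z →
        ∃ (b : ↥𝓕M) (hb : b ∈ s18_ring (L₀ := K₀) (s18g_V G 𝓕M hFM) (s18_chart1 w)),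
          s18g_redF G M hFM hT hdegM ⟨b, hb.1⟩ = z)
    (wN : ↥𝓕N) (hwN : heckeAlphaBar K₀ M p w = wN) [FFGen K₀ wN]
    (hαN : ∀ y ∈ s34x_infRing (s34m_VV G φ M p hp.out hpM), ∃ s : G.A[X], s.map G.π ≠ 0 ∧
      (s18b_ev G 𝓕N wN).IsIntegralElem (s18b_ev G 𝓕N wN s * y))
    (hαB : ∀ g ∈ (s18_ring (L₀ := K₀) (s34m_Vinf G M) (s18_chart1 w) : Set (s34m_F K₀ M)),
      heckeAlphaBar K₀ M p g ∈ s34x_ring (s34x_infRing (s34m_VV G φ M p hp.out hpM))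
        (s18_chart1 (L₀ := K₀) wN))
    (hβB : ∀ g ∈ (s18_ring (L₀ := K₀) (s34m_Vinf G M) (s18_chart1 w) : Set (s34m_F K₀ M)),
      ∃ b' ∈ s34x_ring (s34x_infRing (s34m_VV G φ M p hp.out hpM)) (s18_chart1 (L₀ := K₀) wN),
      ∃ z, z ∈ s34m_Vinf G (M * p) ∧ z ∈ s34m_Vzero G φ M p hp.out hpM ∧
        b' - heckeBetaBar K₀ M p g = s34m_unif G (M * p) * z)
    (hC : s34f_ChartContract G.A (s34m_VV G φ M p hp.out hpM) (s34c_const_mem_VV G φ M p hp.out hpM)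
      G.ϖ (s18_chart1 (L₀ := K₀) wN) (arithmeticGalois (modularFunctionFieldFull (M * p)) σ₀))
    (ζ : K₀ˣ) (hζ : IsPrimitiveRoot (ζ : K₀) p) (k : ℕ)
    (f₀ : s34m_F K₀ (M * p)) (hf₀ : f₀ ≠ 0)
    (hdiv : ∀ Q : Place K₀ (s34m_F K₀ (M * p)), ((p ^ k : ℕ) : ℤ) ∣ Q.ord f₀)
    (hdegf : ∀ Q ∈ s18_chart1 (L₀ := K₀) wN, Q.ord f₀ ≠ 0 → Q.deg = 1)
    (hα : ∃ (d : K₀) (γ : s34m_F K₀ M), d ≠ 0 ∧ γ ≠ 0 ∧
      s35nm_normAlpha M p f₀ = algebraMap K₀ (s34m_F K₀ M) d * γ ^ (p ^ k))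
    (hβ : ∃ (d : K₀) (γ : s34m_F K₀ M), d ≠ 0 ∧ γ ≠ 0 ∧
      s35nm_normBeta M p f₀ = algebraMap K₀ (s34m_F K₀ M) d * γ ^ (p ^ k)) :
    ∃ (a : s34m_F K₀ (M * p)) (c₀ : (↥G.A)ˣ), a ≠ 0 ∧
      s33n_UnipW G φ M p hp.out hpM wN (s33u_cst G.A (c₀ : G.A) *
        s33u_fd (arithmeticGalois (modularFunctionFieldFull (M * p)) σ₀) f₀ / a ^ p ^ k) := by
  letI := s18f_algF G M hT hdegM w hwV
  have hA : ∀ P : κ[X], algebraMap κ[X] ↥(modularFunctionFieldFullC κ M) P =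
      Polynomial.aeval (s18g_redF G M hFM hT hdegM ⟨w, hwV⟩) P :=
    s18f_algF_apply G M hT hdegM w hwV
  haveI := (s37b_dedekind_of_coord κ p M (s18g_redF G M hFM hT hdegM ⟨w, hwV⟩) hcoord hA).1
  haveI := (s37b_dedekind_of_coord κ p M (s18g_redF G M hFM hT hdegM ⟨w, hwV⟩) hcoord hA).2
  have hF := s33s_w_hF G φ M p hpM hdeg hT hdegM
  have hint := s33s_w_hint G φ M p hpM hdeg hT hdegM w hwV hwtw wN hwN hαN
  have hlift := s33s_w_hlift G M hT hdegM w hwV hmain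
  exact s59c_nf_build G φ M p hpM hπ (s18_chart1 (L₀ := K₀) wN) σ₀ hσA hσA' n hσπ
    (D := ↥(integralClosure κ[X] ↥(modularFunctionFieldFullC κ M)))
    (s33s_w_hD G M p hT hdegM w hwV hcoord) hF hint
    (s18_ring (L₀ := K₀) (s34m_Vinf G M) (s18_chart1 w) : Set (s34m_F K₀ M))
    (fun _ hg => hg.1) hαB hβB hlift (s33s_w_htw G M p hT hdegM w hwV hwtw) hT hdegM hC ζ hζ k f₀
    hf₀ hdiv hdegf hα hβ

include hπ hdeg hσπ hσA' in
/-- **[P1c-INST] for a chart package** `C : s59b_Chart …` (helper2's `B4Chart.lean`) with a chart contract. -/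
theorem s59c_nf_chart (C : s59b_Chart G φ M p hpM hT hdegM)
    (hC : s34f_ChartContract G.A (s34m_VV G φ M p hp.out hpM) (s34c_const_mem_VV G φ M p hp.out hpM)
      G.ϖ (s18_chart1 (L₀ := K₀) C.wN) (arithmeticGalois (modularFunctionFieldFull (M * p)) σ₀))
    (ζ : K₀ˣ) (hζ : IsPrimitiveRoot (ζ : K₀) p) (k : ℕ)
    (f₀ : s34m_F K₀ (M * p)) (hf₀ : f₀ ≠ 0)
    (hdiv : ∀ Q : Place K₀ (s34m_F K₀ (M * p)), ((p ^ k : ℕ) : ℤ) ∣ Q.ord f₀)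
    (hdegf : ∀ Q ∈ s18_chart1 (L₀ := K₀) C.wN, Q.ord f₀ ≠ 0 → Q.deg = 1)
    (hα : ∃ (d : K₀) (γ : s34m_F K₀ M), d ≠ 0 ∧ γ ≠ 0 ∧
      s35nm_normAlpha M p f₀ = algebraMap K₀ (s34m_F K₀ M) d * γ ^ (p ^ k))
    (hβ : ∃ (d : K₀) (γ : s34m_F K₀ M), d ≠ 0 ∧ γ ≠ 0 ∧
      s35nm_normBeta M p f₀ = algebraMap K₀ (s34m_F K₀ M) d * γ ^ (p ^ k)) :
    ∃ (a : s34m_F K₀ (M * p)) (c₀ : (↥G.A)ˣ), a ≠ 0 ∧
      s33n_UnipW G φ M p hp.out hpM C.wN (s33u_cst G.A (c₀ : G.A) *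
        s33u_fd (arithmeticGalois (modularFunctionFieldFull (M * p)) σ₀) f₀ / a ^ p ^ k) := by
  haveI := C.gen
  exact s59c_nf_w G φ M p hpM hdeg hT hdegM hπ σ₀ hσA hσA' n hσπ C.w C.hwV C.hcoord C.hwtw
    C.hmain C.wN C.hwN C.hαN C.hαB C.hβB hC ζ hζ k f₀ hf₀ hdiv hdegf hα hβ

end Wrap

section Inst

/-- **[P1c-INST], chart `{j regular}`, `p ≥ 5`**: the analogue of `s33u_nf` for an element of the decomposition group of
EVEN residual degree and a function whose norms along `α`, `β` are constants times `p^k`-th powers. -/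
theorem s59c_nf_five (M p : ℕ) [NeZero M] [NeZero p] (hp : p.Prime) [Fact p.Prime] (hpM : ¬ p ∣ M)
    (h5 : 5 ≤ p)
    (K₀ : Type) [Field K₀] [NumberField K₀] (φ : K₀ →+* Kb)
    (κ : Type) [Field κ] [CharP κ p] [PerfectField κ]
    (G : s18g_GaussData K₀ κ) [IsDiscreteValuationRing G.A] (hπ : Function.Surjective G.π)
    (σ₀ : K₀ ≃ₐ[ℚ] K₀)
    (hσA : ∀ a : K₀, a ∈ G.A → (σ₀ : K₀ ≃+* K₀) a ∈ G.A)
    (hσA' : ∀ a : K₀, a ∈ G.A → (σ₀.symm : K₀ ≃+* K₀) a ∈ G.A)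
    (n : ℕ)
    (hσπ : ∀ a : G.A, G.π (s34m_sigmaA G (σ₀ : K₀ ≃+* K₀) hσA a) =
      iterateFrobenius κ p (2 * n) (G.π a))
    (ζ : K₀ˣ) (hζ : IsPrimitiveRoot (ζ : K₀) p) (k : ℕ)
    (f₀ : s34m_F K₀ (M * p)) (hf₀ : f₀ ≠ 0)
    (hdiv : ∀ Q : Place K₀ (s34m_F K₀ (M * p)), ((p ^ k : ℕ) : ℤ) ∣ Q.ord f₀)
    (hdegf : ∀ Q ∈ s18_chart1 (L₀ := K₀) (s18g_jF (K := K₀) (M * p)), Q.ord f₀ ≠ 0 → Q.deg = 1)
    (hα : ∃ (d : K₀) (γ : s34m_F K₀ M), d ≠ 0 ∧ γ ≠ 0 ∧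
      s35nm_normAlpha M p f₀ = algebraMap K₀ (s34m_F K₀ M) d * γ ^ (p ^ k))
    (hβ : ∃ (d : K₀) (γ : s34m_F K₀ M), d ≠ 0 ∧ γ ≠ 0 ∧
      s35nm_normBeta M p f₀ = algebraMap K₀ (s34m_F K₀ M) d * γ ^ (p ^ k)) :
    ∃ (a : s34m_F K₀ (M * p)) (c₀ : (↥G.A)ˣ), a ≠ 0 ∧
      s33u_Unip G φ M p hp hpM (s33u_cst G.A (c₀ : G.A) *
        s33u_fd (arithmeticGalois (modularFunctionFieldFull (M * p)) σ₀) f₀ / a ^ p ^ k) := by
  have hdeg : s34m_HDeg K₀ M p := s34r_deg_HDeg φ M p hp hpM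
  have hT : s18g_HT κ M := s18t_indep_j p M hpM κ
  have hdegM : s18g_HDeg K₀ M := fun _ b hb hn => s18g_exists_relation M φ hn b hb
  have hdegN : s18g_HDeg K₀ (M * p) := fun n b hb hn => s18g_exists_relation (M * p) φ hn b hb
  haveI : FFGen K₀ (s18g_jF (K := K₀) (M * p)) := s18b_ffGen_jF (M * p) hdegN
  obtain ⟨h1, -⟩ := s34df_contract_five M p hp hpM h5 K₀ φ κ G hπ
  have hC := s34f_chartContract_j1 G φ M p hp hpM (s34f_alpha_j G φ M p hp hpM) σ₀ h1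
  exact s59c_nf_chart G φ M p hpM hdeg hT hdegM hπ σ₀ hσA hσA' n hσπ
    (s59b_chartFive M p hpM h5 K₀ φ κ G hT hdegM hπ) hC ζ hζ k f₀ hf₀ hdiv hdegf hα hβ

/-- **[P1c-INST], chart `{t regular}`, `t` ANY function of level `M p` with `q`-expansion `t₂`** (`p = 3`, `2 ∣ M`). -/
theorem s59c_nf_t2 (M p : ℕ) [NeZero M] [NeZero p] (hp : p.Prime) [Fact p.Prime] (hpM : ¬ p ∣ M)
    (hp3 : p = 3) (h2M : 2 ∣ M)
    (K₀ : Type) [Field K₀] [NumberField K₀] (φ : K₀ →+* Kb)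
    (κ : Type) [Field κ] [CharP κ p] [PerfectField κ]
    (G : s18g_GaussData K₀ κ) [IsDiscreteValuationRing G.A] (hπ : Function.Surjective G.π)
    (σ₀ : K₀ ≃ₐ[ℚ] K₀)
    (hσA : ∀ a : K₀, a ∈ G.A → (σ₀ : K₀ ≃+* K₀) a ∈ G.A)
    (hσA' : ∀ a : K₀, a ∈ G.A → (σ₀.symm : K₀ ≃+* K₀) a ∈ G.A)
    (n : ℕ)
    (hσπ : ∀ a : G.A, G.π (s34m_sigmaA G (σ₀ : K₀ ≃+* K₀) hσA a) =
      iterateFrobenius κ p (2 * n) (G.π a))
    (t : s34m_F K₀ (M * p)) (ht : (t : LaurentSeries K₀) = s18u_t2 K₀)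
    (ζ : K₀ˣ) (hζ : IsPrimitiveRoot (ζ : K₀) p) (k : ℕ)
    (f₀ : s34m_F K₀ (M * p)) (hf₀ : f₀ ≠ 0)
    (hdiv : ∀ Q : Place K₀ (s34m_F K₀ (M * p)), ((p ^ k : ℕ) : ℤ) ∣ Q.ord f₀)
    (hdegf : ∀ Q ∈ s18_chart1 (L₀ := K₀) t, Q.ord f₀ ≠ 0 → Q.deg = 1)
    (hα : ∃ (d : K₀) (γ : s34m_F K₀ M), d ≠ 0 ∧ γ ≠ 0 ∧
      s35nm_normAlpha M p f₀ = algebraMap K₀ (s34m_F K₀ M) d * γ ^ (p ^ k))
    (hβ : ∃ (d : K₀) (γ : s34m_F K₀ M), d ≠ 0 ∧ γ ≠ 0 ∧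
      s35nm_normBeta M p f₀ = algebraMap K₀ (s34m_F K₀ M) d * γ ^ (p ^ k)) :
    ∃ (a : s34m_F K₀ (M * p)) (c₀ : (↥G.A)ˣ), a ≠ 0 ∧
      s33n_UnipW G φ M p hp hpM t (s33u_cst G.A (c₀ : G.A) *
        s33u_fd (arithmeticGalois (modularFunctionFieldFull (M * p)) σ₀) f₀ / a ^ p ^ k) := by
  have hdeg : s34m_HDeg K₀ M p := s34r_deg_HDeg φ M p hp hpM
  have hT : s18g_HT κ M := s18t_indep_j p M hpM κ
  have hdegM : s18g_HDeg K₀ M := fun _ b hb hn => s18g_exists_relation M φ hn b hb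
  have hC := s33n_chartContract_t2 M p hp hpM hp3 h2M K₀ φ κ G hπ σ₀ t ht
  obtain ⟨C, -, hwN⟩ := s59b_exists_chart_t2 M p hpM K₀ φ κ G hT hdegM hπ hp3 h2M
  have e : t = C.wN := Subtype.ext (ht.trans hwN.symm)
  subst e
  exact s59c_nf_chart G φ M p hpM hdeg hT hdegM hπ σ₀ hσA hσA' n hσπ C hC ζ hζ k f₀ hf₀ hdiv
    hdegf hα hβ

end Inst

end Fermat.Agent.Lib.S59
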