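/-
S59, case (P) (helper8, prefix `s59c_`): **THE CONTRACT [UNIP-K⁺] IS A THEOREM** (the descent).

helper7's contract `s59x_UnipKP M p hpM P N ↑(s59x_Dp P p hP)` (`NXUnipP.lean`): for a function `f` on
`X₀(M p)_{ℚ̄}` whose divisor is divisible by `p ^ k` and whose norms along `α`, `β` are constants times
`p ^ k`-th powers, and for `σ` in the index-two subgroup `D′ ≤ D_P` of elements of EVEN residual degree
(`NXDp.lean`), `c · (σ f₀ / f₀) / a ^ (p ^ k)` is in unipotent normal form over every big enough finite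
normal level `L₀`.

* `s59c_unipKP_of_nf` : the descent to number fields: `L_f := L₁ ⊔ L₁′ ⊔ L₁″ ⊔ L₂` (`L₁` a field of definition
  of `f`, `L₁′` of the two `p ^ k`-th roots of the norms, `L₁″ ∋` the two constants and `ζ_p`, `L₂` a field over
  which the support of `div f` is rational); the two norm identities descend by `s35q_norm_alpha_iota`,
  `s35q_norm_beta_iota` (norms commute with the extension of constants);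
* **`s59c_unipKP_five`** : `5 ≤ p`, node family `s33u_nodeJ` (chart `j ≠ ∞`), from `s59c_nf_five`;
* **`s59c_unipKP_t2`** : `p = 3`, `2 ∣ M`, node family `s33t_nodeN_t2` (chart `t₂ ≠ ∞`), from `s59c_nf_t2`.
-/
import Fermat.Agent.Lib.S59.CNfInst
import Fermat.Agent.Lib.S59.NXUnipP
import Fermat.Agent.Lib.S59.NXDp
import Fermat.Agent.Lib.S35.RNorm
import Fermat.Agent.Lib.S33.TPUnip

set_option autoImplicit false
set_option linter.style.haveILetI false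
set_option linter.unusedSectionVars false
set_option synthInstance.maxHeartbeats 400000

noncomputable section

namespace Fermat.Agent.Lib.S59

open ModularCurve HahnSeries AlgebraicCurve Polynomial Fermat.Agent.Lib.S18 Fermat.Agent.Lib.S37
  Fermat.Agent.Lib.FF Fermat.Agent.Lib.S34 Fermat.Agent.Lib.S33 Fermat.Agent.Lib.S35
  Fermat.Agent.Lib.Frey IsLocalRing

local notation "Kb" => AlgebraicClosure ℚ
local notation "Γℚ" => (AlgebraicClosure ℚ ≃ₐ[ℚ] AlgebraicClosure ℚ)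

section Descent

variable (M p : ℕ) [NeZero M] [hp : Fact p.Prime] (hpM : ¬ p ∣ M) (P : ValuationSubring Kb)
  (hP : P.LiesOverPrime p)

/-- the constant and the root in a norm identity of a nonzero function are nonzero. -/
theorem s59c_norm_parts_ne_zero {G₀ F₀ : Type*} [Field G₀] [Field F₀] (nm : F₀ →* G₀) {f : F₀}
    (hf : f ≠ 0) {C γ : G₀} {m : ℕ} (h : nm f = C * γ ^ m) (hm : m ≠ 0) : C ≠ 0 ∧ γ ≠ 0 := by
  have h0 : nm f ≠ 0 := by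
    intro h0
    have h1 : nm f * nm f⁻¹ = 1 := by rw [← map_mul, mul_inv_cancel₀ hf, map_one]
    rw [h0, zero_mul] at h1
    exact zero_ne_one h1
  rw [h] at h0
  refine ⟨left_ne_zero_of_mul h0, fun hγ => ?_⟩
  rw [hγ, zero_pow hm, mul_zero] at h0
  exact h0 rfl

set_option maxHeartbeats 1600000 in
/-- **The descent**: [UNIP-K⁺] from its number-field form. -/
theorem s59c_unipKP_of_nf (N : s33u_NodeFam M p P)
    (hNF : ∀ (L₀ : IntermediateField ℚ Kb) [FiniteDimensional ℚ ↥L₀] [Normal ℚ ↥L₀]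
      [IsDiscreteValuationRing ↥(s18q_A0 P L₀)] (ϖ : ↥(s18q_A0 P L₀)) (hϖ : Irreducible ϖ)
      (σ : Γℚ), σ ∈ s59x_Dp P p hP → ∀ (ζ : (↥L₀)ˣ), IsPrimitiveRoot (ζ : ↥L₀) p → ∀ (k : ℕ)
      (f₀ : s34m_F ↥L₀ (M * p)), f₀ ≠ 0 →
      (∀ Q : Place ↥L₀ (s34m_F ↥L₀ (M * p)), ((p ^ k : ℕ) : ℤ) ∣ Q.ord f₀) →
      (∀ Q : Place ↥L₀ (s34m_F ↥L₀ (M * p)), Q.ord f₀ ≠ 0 → Q.deg = 1) →
      (∃ (d : ↥L₀) (γ : s34m_F ↥L₀ M), d ≠ 0 ∧ γ ≠ 0 ∧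
        s35nm_normAlpha M p f₀ = algebraMap ↥L₀ (s34m_F ↥L₀ M) d * γ ^ (p ^ k)) →
      (∃ (d : ↥L₀) (γ : s34m_F ↥L₀ M), d ≠ 0 ∧ γ ≠ 0 ∧
        s35nm_normBeta M p f₀ = algebraMap ↥L₀ (s34m_F ↥L₀ M) d * γ ^ (p ^ k)) →
      ∃ (c : ↥L₀) (a : s34m_F ↥L₀ (M * p)), c ≠ 0 ∧ a ≠ 0 ∧
        s33u_UnipN (s37r_G P L₀ ϖ hϖ) (algebraMap ↥L₀ Kb) M p hpM (N L₀ ϖ hϖ)
          (s33u_F (M * p) (σ.restrictNormal ↥L₀) (p ^ k) f₀ c a)) :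
    s59x_UnipKP M p hpM P N ↑(s59x_Dp P p hP) := by
  classical
  haveI : NeZero p := ⟨hp.out.ne_zero⟩
  haveI := s34q_isAlgClosure_bar
  haveI : Normal ℚ Kb := IsAlgClosure.normal ℚ Kb
  intro k f hf hdiv hnα hnβ σ hσ
  obtain ⟨c₁, h₁, hc₁⟩ := hnα
  obtain ⟨c₂, h₂, hc₂⟩ := hnβ
  obtain ⟨ζ, hζ⟩ := HasEnoughRootsOfUnity.exists_primitiveRoot Kb p
  obtain ⟨L₁, hfd₁, hL₁⟩ := s18q_exists_field (M * p) {f}
  obtain ⟨L₁', hfd₁', hL₁'⟩ := s18q_exists_field M {h₁, h₂}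
  obtain ⟨L₁'', hfd₁'', hL₁''⟩ := s35q_exists_field_const {c₁, c₂, ζ}
  obtain ⟨L₂, hfd₂, hL₂⟩ := s34q_exists_field_rat (M * p) f hf
  refine ⟨L₁ ⊔ L₁' ⊔ L₁'' ⊔ L₂, inferInstance, ?_⟩
  intro L₀ hfd₀ hnorm hdvr ϖ hϖ hle
  have hL₁₀ : L₁ ≤ L₀ := le_trans (le_trans (le_trans le_sup_left le_sup_left) le_sup_left) hle
  have hL₁'₀ : L₁' ≤ L₀ := le_trans (le_trans (le_trans le_sup_right le_sup_left) le_sup_left) hle
  have hL₁''₀ : L₁'' ≤ L₀ := le_trans (le_trans le_sup_right le_sup_left) hle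
  have hL₂₀ : L₂ ≤ L₀ := le_trans le_sup_right hle
  obtain ⟨f₀, hf₀⟩ := s18q_incl_range_mono (M * p) hL₁₀ (hL₁ f (Finset.mem_singleton_self f))
  obtain ⟨h₁₀, hh₁₀⟩ := s18q_incl_range_mono M hL₁'₀ (hL₁' h₁ (by simp))
  obtain ⟨h₂₀, hh₂₀⟩ := s18q_incl_range_mono M hL₁'₀ (hL₁' h₂ (by simp))
  have hc₁₀ : c₁ ∈ L₀ := hL₁''₀ (hL₁'' c₁ (by simp))
  have hc₂₀ : c₂ ∈ L₀ := hL₁''₀ (hL₁'' c₂ (by simp))
  have hζ₀ : ζ ∈ L₀ := hL₁''₀ (hL₁'' ζ (by simp))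
  refine ⟨f₀, hf₀, ?_⟩
  have hf₀0 : f₀ ≠ 0 := by
    rintro rfl
    exact hf (by rw [← hf₀, map_zero])
  -- the root of unity in `L₀`
  have hζ' : IsPrimitiveRoot (⟨ζ, hζ₀⟩ : ↥L₀) p := by
    have : IsPrimitiveRoot (algebraMap ↥L₀ Kb ⟨ζ, hζ₀⟩) p := hζ
    exact this.of_map_of_injective (algebraMap ↥L₀ Kb).injective
  have hζ0 : (⟨ζ, hζ₀⟩ : ↥L₀) ≠ 0 := hζ'.ne_zero hp.out.ne_zero
  -- the norms over `L₀`
  have hpk : p ^ k ≠ 0 := pow_ne_zero k hp.out.ne_zero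
  have hnα : s35nm_normAlpha M p f₀ = algebraMap ↥L₀ (s34m_F ↥L₀ M) ⟨c₁, hc₁₀⟩ * h₁₀ ^ (p ^ k) := by
    apply s18q_incl_injective M L₀
    have e := s35q_norm_alpha_iota (algebraMap ↥L₀ Kb) M p hp.out hpM f₀
    have e' : s18q_incl M L₀ (s35nm_normAlpha M p f₀) =
        s35r_normAlong (heckeAlphaBar Kb M p) (s18q_incl (M * p) L₀ f₀) := e
    rw [e', hf₀, hc₁, map_mul, map_pow, hh₁₀]
    congr 1
    exact (s18q_map_algebraMap (algebraMap ↥L₀ Kb) (modularFunctionFieldFull M) ⟨c₁, hc₁₀⟩).symm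
  have hnβ : s35nm_normBeta M p f₀ = algebraMap ↥L₀ (s34m_F ↥L₀ M) ⟨c₂, hc₂₀⟩ * h₂₀ ^ (p ^ k) := by
    apply s18q_incl_injective M L₀
    have e := s35q_norm_beta_iota (algebraMap ↥L₀ Kb) M p hp.out hpM f₀
    have e' : s18q_incl M L₀ (s35nm_normBeta M p f₀) =
        s35r_normAlong (heckeBetaBar Kb M p) (s18q_incl (M * p) L₀ f₀) := e
    rw [e', hf₀, hc₂, map_mul, map_pow, hh₂₀]
    congr 1
    exact (s18q_map_algebraMap (algebraMap ↥L₀ Kb) (modularFunctionFieldFull M) ⟨c₂, hc₂₀⟩).symm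
  obtain ⟨hCα, hγα⟩ := s59c_norm_parts_ne_zero (s35nm_normAlpha M p) hf₀0 hnα hpk
  obtain ⟨hCβ, hγβ⟩ := s59c_norm_parts_ne_zero (s35nm_normBeta M p) hf₀0 hnβ hpk
  have hdα : (⟨c₁, hc₁₀⟩ : ↥L₀) ≠ 0 := fun h0 => hCα (by rw [h0, map_zero])
  have hdβ : (⟨c₂, hc₂₀⟩ : ↥L₀) ≠ 0 := fun h0 => hCβ (by rw [h0, map_zero])
  -- divisibility and rationality over `L₀`
  have hdiv₀ : ∀ Q : Place ↥L₀ (s34m_F ↥L₀ (M * p)), ((p ^ k : ℕ) : ℤ) ∣ Q.ord f₀ :=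
    s18q_dvd_ord_descend (M * p) L₀ ((p ^ k : ℕ) : ℤ) f₀ (fun Q => by rw [hf₀]; exact hdiv Q)
  have hrat : ∀ Q : Place ↥L₀ (s34m_F ↥L₀ (M * p)), Q.ord f₀ ≠ 0 → Q.deg = 1 :=
    hL₂ L₀ hL₂₀ f₀ hf₀
  exact hNF L₀ ϖ hϖ σ hσ (Units.mk0 _ hζ0) hζ' k f₀ hf₀0 hdiv₀ hrat
    ⟨_, _, hdα, hγα, hnα⟩ ⟨_, _, hdβ, hγβ, hnβ⟩

end Descent

section Instances

variable (M p : ℕ) [NeZero M] [hp : Fact p.Prime] (hpM : ¬ p ∣ M) (P : ValuationSubring Kb)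
  (hP : P.LiesOverPrime p)

/-- the function of the contract in terms of the first difference (the shape of `s59c_nf_five/_t2`). -/
theorem s59c_F_eq {K₀ : Type*} [Field K₀] [Algebra ℚ K₀] (N : ℕ) [NeZero N] (σ₀ : K₀ ≃ₐ[ℚ] K₀)
    (m : ℕ) (f₀ : s34m_F K₀ N) (A₀ : ValuationSubring K₀) (c₀ : A₀) (a : s34m_F K₀ N) :
    s33u_F N σ₀ m f₀ ((c₀ : A₀) : K₀) a =
      s33u_cst A₀ c₀ * s33u_fd (arithmeticGalois (modularFunctionFieldFull N) σ₀) f₀ / a ^ m := by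
  rw [s33u_F, s33u_fd, s33u_cst, div_eq_mul_inv _ (a ^ m)]
  rfl

set_option maxHeartbeats 1600000 in
/-- **[UNIP-K⁺] for `p ≥ 5`** (chart `j ≠ ∞`). -/
theorem s59c_unipKP_five (h5 : 5 ≤ p) :
    s59x_UnipKP M p hpM P (s33u_nodeJ M p hpM P) ↑(s59x_Dp P p hP) := by
  haveI : NeZero p := ⟨hp.out.ne_zero⟩
  refine s59c_unipKP_of_nf M p hpM P hP _ ?_
  intro L₀ hfd₀ hnorm hdvr ϖ hϖ σ hσ ζ hζ k f₀ hf₀ hdiv hrat hα hβ
  haveI hnf : NumberField ↥L₀ := ⟨⟩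
  haveI hchar : CharP (ResidueField ↥(s18q_A0 P L₀)) p := s37rl_charP P hP L₀
  haveI hperf : PerfectField (ResidueField ↥(s18q_A0 P L₀)) := s37rl_perfectField P hP L₀
  haveI hdvrG : IsDiscreteValuationRing ↥(s37r_G P L₀ ϖ hϖ).A := hdvr
  obtain ⟨n, hn⟩ := s59x_Dp_spec P p hP L₀ ϖ hϖ hσ
  obtain ⟨a, c₀, ha, hU⟩ := s59c_nf_five M p hp.out hpM h5 ↥L₀ (algebraMap ↥L₀ Kb)
    (ResidueField ↥(s18q_A0 P L₀)) (s37r_G P L₀ ϖ hϖ) residue_surjective (σ.restrictNormal ↥L₀)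
    (s59n_frob_mem P L₀ hσ.1) (s59n_frob_symm_mem P L₀ hσ.1) n hn ζ hζ k f₀ hf₀ hdiv
    (fun Q _ => hrat Q) hα hβ
  refine ⟨(((c₀ : (↥(s37r_G P L₀ ϖ hϖ).A)ˣ) : (s37r_G P L₀ ϖ hϖ).A) : ↥L₀), a, ?_, ha, ?_⟩
  · intro h0
    exact c₀.ne_zero (Subtype.ext h0)
  · rw [s59c_F_eq (M * p) (σ.restrictNormal ↥L₀) (p ^ k) f₀ (s37r_G P L₀ ϖ hϖ).A (c₀ : _) a]
    exact s33u_unipN_of_unip _ _ M p hpM hU

set_option maxHeartbeats 1600000 in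
/-- **[UNIP-K⁺] for `p = 3`, `2 ∣ M`** (chart `t₂ ≠ ∞`). -/
theorem s59c_unipKP_t2 (hp3 : p = 3) (h2M : 2 ∣ M) :
    s59x_UnipKP M p hpM P (s33t_nodeN_t2 M p hpM P) ↑(s59x_Dp P p hP) := by
  haveI : NeZero p := ⟨hp.out.ne_zero⟩
  have hp2 : p ≠ 2 := by omega
  refine s59c_unipKP_of_nf M p hpM P hP _ ?_
  intro L₀ hfd₀ hnorm hdvr ϖ hϖ σ hσ ζ hζ k f₀ hf₀ hdiv hrat hα hβ
  haveI hnf : NumberField ↥L₀ := ⟨⟩
  haveI hchar : CharP (ResidueField ↥(s18q_A0 P L₀)) p := s37rl_charP P hP L₀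
  haveI hperf : PerfectField (ResidueField ↥(s18q_A0 P L₀)) := s37rl_perfectField P hP L₀
  haveI hdvrG : IsDiscreteValuationRing ↥(s37r_G P L₀ ϖ hϖ).A := hdvr
  obtain ⟨n, hn⟩ := s59x_Dp_spec P p hP L₀ ϖ hϖ hσ
  obtain ⟨tM, -, -, -, -, -, hwt, -, -, -, -, -, -, -⟩ :=
    s34m_base_t2 (s37r_G P L₀ ϖ hϖ) (algebraMap ↥L₀ Kb) M p hp.out hpM h2M hp2
  obtain ⟨a, c₀, ha, hU⟩ := s59c_nf_t2 M p hp.out hpM hp3 h2M ↥L₀ (algebraMap ↥L₀ Kb)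
    (ResidueField ↥(s18q_A0 P L₀)) (s37r_G P L₀ ϖ hϖ) residue_surjective (σ.restrictNormal ↥L₀)
    (s59n_frob_mem P L₀ hσ.1) (s59n_frob_symm_mem P L₀ hσ.1) n hn
    (heckeAlphaBar ↥L₀ M p tM) hwt ζ hζ k f₀ hf₀ hdiv (fun Q _ => hrat Q) hα hβ
  refine ⟨(((c₀ : (↥(s37r_G P L₀ ϖ hϖ).A)ˣ) : (s37r_G P L₀ ϖ hϖ).A) : ↥L₀), a, ?_, ha, ?_⟩
  · intro h0
    exact c₀.ne_zero (Subtype.ext h0)
  · rw [s59c_F_eq (M * p) (σ.restrictNormal ↥L₀) (p ^ k) f₀ (s37r_G P L₀ ϖ hϖ).A (c₀ : _) a]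
    have hN := s33t_unipN_of_unipW M p hpM (s37r_G P L₀ ϖ hϖ) (algebraMap ↥L₀ Kb)
      (heckeAlphaBar ↥L₀ M p tM) hU
    rw [← s33t_nodeN_t2_eq M p hpM P L₀ ϖ hϖ (heckeAlphaBar ↥L₀ M p tM) hwt] at hN
    exact hN

end Instances

end Fermat.Agent.Lib.S59
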