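/-
S59, case (P) (helper8, prefix `s59c_`): **[P2]+[P3] WITHOUT GEOMETRIC HYPOTHESES.**

helper7's `s59x_strictAt` (`NXLambda.lean`) has two geometric inputs: the contract [UNIP-K⁺]
(`s59x_UnipKP … ↑(s59x_Dp P p hP)`) and helper3's [SS-pack] (`s33t_SSPack`), for one and the same node family `N`.
Both are theorems on the two good odd branches:

* `5 ≤ p`           : `N = s33t_nodeN` (chart `j ≠ ∞`), `s59c_unipKP_five` + `s33t_ssPack_five`/`s33t_ssDatum_five`;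
* `p = 3`, `2 ∣ M`  : `N = s33t_nodeN_t2` (chart `t₂ ≠ ∞`), `s59c_unipKP_t2` + `s33t_ssPack_three`/`s33k_sd_SSDatumC_three`.

* `s59c_exists_geo`  : `p ≠ 2`, `s18_GoodLevel p M`, `P ∣ p` ⇒ `∃ N, [UNIP-K⁺] for (N, D′) ∧ [SS-pack] for N`;
* **`s59c_strictAt`** : `s59x_strictAt` with `N`, `hK`, `hS` discharged.
-/
import Fermat.Agent.Lib.S59.CUnipKP
import Fermat.Agent.Lib.S59.NXLambda
import Fermat.Agent.Lib.S33.TPTop
import Fermat.Agent.Lib.S33.KumPSsPackT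

set_option autoImplicit false
set_option linter.style.haveILetI false
set_option linter.unusedSectionVars false
set_option synthInstance.maxHeartbeats 400000

noncomputable section

namespace Fermat.Agent.Lib.S59

open ModularCurve AlgebraicCurve IsLocalRing Module Fermat.Agent.Lib.S18 Fermat.Agent.Lib.S29
  Fermat.Agent.Lib.S30 Fermat.Agent.Lib.S33 Fermat.Agent.Lib.S35

local notation "Kb" => AlgebraicClosure ℚ
local notation "Γℚ" => (AlgebraicClosure ℚ ≃ₐ[ℚ] AlgebraicClosure ℚ)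

variable (M p : ℕ) [NeZero M] [hp : Fact p.Prime]

/-- **the two geometric inputs of `s59x_strictAt` exist** on the two good odd branches. -/
theorem s59c_exists_geo (hp2 : p ≠ 2) (hM : s18_GoodLevel p M) (P : ValuationSubring Kb)
    (hP : P.LiesOverPrime p) :
    ∃ N : s33t_NodeFam M p P,
      s59x_UnipKP M p hM.1 P N (↑(s59x_Dp P p hP) : Set Γℚ) ∧ s33t_SSPack M p hM.1 P N := by
  rcases hM.2 with h5 | ⟨hp3, h2M⟩ | ⟨h2, -⟩
  · exact ⟨s33t_nodeN M p hM.1 P, s59c_unipKP_five M p hM.1 P hP h5,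
      s33t_ssPack_five M p hM.1 P h5 (s33t_ssDatum_five M p hM.1 P h5)⟩
  · exact ⟨s33t_nodeN_t2 M p hM.1 P, s59c_unipKP_t2 M p hM.1 P hP hp3 h2M,
      s33t_ssPack_three M p hM.1 P hp3 h2M
        (s33y_ssDatumC_t2 M p hM.1 P hp2 h2M hP (s33k_sd_SSDatumC_three M p hM.1 P hp3 h2M))⟩
  · exact absurd h2 hp2

/-- **[P2]+[P3], hypothesis-free on the geometric side**: all four clauses of `IsStrictOrdinaryAt` at `P` from the
`p`-new Tate module. -/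
theorem s59c_strictAt (hp2 : p ≠ 2) (hM : s18_GoodLevel p M) (P : ValuationSubring Kb)
    (hP : P.LiesOverPrime p)
    {A : Type} [CommRing A] [Algebra ℤ_[p] A] {T : Type} [CommRing T] [IsLocalRing T]
    (act : A →ₐ[ℤ_[p]] Module.End ℤ_[p] (s30a_Tp ↥(s59x_Jnew M p hM.1) p))
    (hact : Function.Injective act)
    (πA : A →+* T) (hpT : (p : T) ∈ maximalIdeal T) (rT : GaloisRepAdic T)
    (hirr : ∀ W : Submodule (ResidueField T) rT.residual.V,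
      (∀ g : Γℚ, ∀ x ∈ W, rT.residual.ρ g x ∈ W) → W = ⊥ ∨ W = ⊤)
    (hspan : Submodule.span T (Set.range rT.ρ) = ⊤)
    (hcomm : ∀ (g : Γℚ) (a : A) (w : s30a_Tp ↥(s59x_Jnew M p hM.1) p),
      s33w_rho ↥(s59x_Jnew M p hM.1) p Γℚ g (act a w) =
        act a (s33w_rho ↥(s59x_Jnew M p hM.1) p Γℚ g w))
    (tA : Γℚ → A)
    (hCH : ∀ (g : Γℚ) (w : s30a_Tp ↥(s59x_Jnew M p hM.1) p),
      s33w_rho ↥(s59x_Jnew M p hM.1) p Γℚ g w +
        (((s30y_cycDatum p).ε g : ℤ_[p]ˣ) : ℤ_[p]) • s33w_rho ↥(s59x_Jnew M p hM.1) p Γℚ g⁻¹ w =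
          act (tA g) w)
    (htr : ∀ g : Γℚ, πA (tA g) = LinearMap.trace T rT.V (rT.ρ g))
    (hdet : ∀ g : Γℚ, πA (algebraMap ℤ_[p] A (((s30y_cycDatum p).ε g : ℤ_[p]ˣ) : ℤ_[p])) =
      LinearMap.det (rT.ρ g))
    (hres : ∀ τ₀ ∈ P.inertiaSubgroupIn ℚ,
      LinearMap.trace T rT.V (rT.ρ τ₀) - 1 - LinearMap.det (rT.ρ τ₀) ∈ maximalIdeal T)
    (Wθ : Submodule ℤ_[p] (s30a_Tp ↥(s59x_Jnew M p hM.1) p))
    (hWθ : ∀ w : s30a_Tp ↥(s59x_Jnew M p hM.1) p, w ∈ Wθ ↔ ∀ a : A, πA a ∈ maximalIdeal T →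
      ∀ m : ℕ, ∃ j : ℕ, ∃ w' : s30a_Tp ↥(s59x_Jnew M p hM.1) p,
        (act a ^ j) w = (p : ℤ_[p]) ^ m • w') :
    ∃ L : Submodule T rT.V,
      (∃ b : Module.Basis (Fin 2) T rT.V, L = T ∙ b 0) ∧
      (∀ σ ∈ P.decompositionSubgroup ℚ, ∀ v ∈ L, rT.ρ σ v ∈ L) ∧
      (∀ σ ∈ P.inertiaSubgroupIn ℚ, ∀ v : rT.V, rT.ρ σ v - v ∈ L) ∧
      (∀ σ ∈ P.decompositionSubgroup ℚ, ∃ x z : T,
        (∀ w ∈ L, rT.ρ σ w = x • w) ∧ (∀ v : rT.V, rT.ρ σ v - z • v ∈ L) ∧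
        ∀ (n a : ℕ), (∀ μ : Kb, μ ^ p ^ n = 1 → σ μ = μ ^ a) →
          x - (a : T) * z ∈ Ideal.span {((p ^ n : ℕ) : T)}) := by
  obtain ⟨N, hK, hS⟩ := s59c_exists_geo M p hp2 hM P hP
  exact s59x_strictAt M p hp2 hM P hP N hK hS act hact πA hpT rT hirr hspan hcomm tA hCH htr hdet
    hres Wθ hWθ

end Fermat.Agent.Lib.S59
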