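/-
S59, case (P) (helper7, prefix `s59x_`): **THE J-SIDE OF CASE (P), FREE OF GEOMETRIC HYPOTHESES.**

`s59x_strict_new` = `s59x_strict_of_quot` (`NXHeckeNew.lean`) with the geometric inputs discharged by helper8's
`s59c_exists_geo` (`CStrictAtP.lean`: [UNIP-K⁺] for `D′` on both good odd branches + [SS-pack]).

`M` good for the odd prime `p` (`s18_GoodLevel p M`), `H` a Hecke–Galois datum at level `M p` with values in `T`,
`q : T →+* T′`, `rT′ : GaloisRepAdic T′` with `tr rT′ = q ∘ tr H.ρ`, `det rT′ = q ∘ det H.ρ`, residually irreducible,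
spanning, residually ordinary on inertia, and **(7a)**: every element `a` of the closed Hecke algebra `s33g_A (M p) p S`
which kills `ker α_T ⊓ ker β_T ≤ T_p J₀(M p)` satisfies `q (π̂ a) = 0`.  Then `rT′.IsStrictOrdinaryAt p`.
-/
import Fermat.Agent.Lib.S59.NXHeckeNew
import Fermat.Agent.Lib.S59.CStrictAtP

set_option autoImplicit false
set_option linter.style.haveILetI false
set_option linter.unusedSectionVars false
set_option synthInstance.maxHeartbeats 400000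

noncomputable section

namespace Fermat.Agent.Lib.S59

open ModularCurve AlgebraicCurve IsLocalRing Module CuspForm Fermat.Agent.Lib.S18
  Fermat.Agent.Lib.S29 Fermat.Agent.Lib.S30 Fermat.Agent.Lib.S31 Fermat.Agent.Lib.S33
  Fermat.Agent.Lib.S35

local notation "Kb" => AlgebraicClosure ℚ
local notation "Γℚ" => (AlgebraicClosure ℚ ≃ₐ[ℚ] AlgebraicClosure ℚ)

variable (M p : ℕ) [NeZero M] [hp : Fact p.Prime] {S : Finset ℕ}
  {𝒪 : Type} [CommRing 𝒪] [IsDomain 𝒪] [IsDiscreteValuationRing 𝒪]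
  [IsAdicComplete (IsLocalRing.maximalIdeal 𝒪) 𝒪]
  {θ : CuspForm.heckeAlgebra (M * p) 2 (↑S : Set ℕ) →+* IsLocalRing.ResidueField 𝒪}
  {T : Type} [CommRing T] [IsLocalRing T] [IsNoetherianRing T]
  [IsAdicComplete (IsLocalRing.maximalIdeal T) T] [Algebra 𝒪 T] [IsLocalHom (algebraMap 𝒪 T)]
  [Module.Finite 𝒪 T] [Module.Free 𝒪 T]

/-- **STRICTNESS AT `p` OF EVERY `p`-NEW QUOTIENT** (the J-side deliverable of case (P)). -/
theorem s59x_strict_new (hp2 : p ≠ 2) (hM : s18_GoodLevel p M)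
    (hpS : p ∈ S) (hNS : ∀ q : ℕ, q.Prime → q ∣ M * p → q ∈ S)
    (H : CuspForm.HeckeGaloisRepDatum (M * p) (↑S : Set ℕ) 𝒪 θ T)
    (hpT : (p : T) ∈ maximalIdeal T)
    {T' : Type} [CommRing T'] [IsLocalRing T'] (q : T →+* T') (hpT' : (p : T') ∈ maximalIdeal T')
    (rT' : GaloisRepAdic T')
    (h7a : ∀ a : s33g_A (M * p) p S,
      (∀ w : s30a_TJ (M * p) p, s35c_alphaT M p hp.out hM.1 p w = 0 →
        s35c_betaT M p hp.out hM.1 p w = 0 →
          (a : Module.End ℤ_[p] (s30a_TJ (M * p) p)) w = 0) → q (s33g_piT hpT H.π a) = 0)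
    (htr : ∀ g : Γℚ, LinearMap.trace T' rT'.V (rT'.ρ g) = q (LinearMap.trace T H.ρ.V (H.ρ.ρ g)))
    (hdet : ∀ g : Γℚ, LinearMap.det (rT'.ρ g) = q (LinearMap.det (H.ρ.ρ g)))
    (hirr : ∀ W : Submodule (ResidueField T') rT'.residual.V,
      (∀ g : Γℚ, ∀ x ∈ W, rT'.residual.ρ g x ∈ W) → W = ⊥ ∨ W = ⊤)
    (hspan : Submodule.span T' (Set.range rT'.ρ) = ⊤)
    (hres : ∀ P : ValuationSubring Kb, P.LiesOverPrime p → ∀ τ₀ ∈ P.inertiaSubgroupIn ℚ,
      LinearMap.trace T' rT'.V (rT'.ρ τ₀) - 1 - LinearMap.det (rT'.ρ τ₀) ∈ maximalIdeal T') :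
    rT'.IsStrictOrdinaryAt p :=
  s59x_strict_of_quot M p hp2 hM (fun P hP => s59c_exists_geo M p hp2 hM P hP) hpS hNS H hpT q
    hpT' rT' (fun a ha => h7a a ((s59x_resA_eq_zero_iff M p hM.1 S a).mp ha)) htr hdet hirr hspan
    hres

end Fermat.Agent.Lib.S59
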