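/-
S59 project, case (P), item [P7] (helper9, prefix `s59m_`), file 4: **STRICTNESS AT `p` OF THE REPRESENTATION OVER THE HECKE RING
OF A KERNEL-NEW MODULE** (`s59m_STRICT_abs`).

`Z` a finite free `𝒪`-module of kernel-new classes on `Γ_{H'}(L p)` (`L = N₁ ∏ Q`, `p ∤ L`), `T` a commutative `𝒪`-algebra acting
FAITHFULLY on `Z` through `𝒪[T_ℓ, ⟨τ⟩]`, reduced; `Hd` a Hecke–Galois datum at level `Γ₀(M' p)`, `M' = N₁ ∏ q²`, over `T₀`,
`q : T₀ →ₐ[𝒪] T` local with `q (π T_ℓ)` acting as the twisted operator `T'_ℓ`.  If `M'` is a good level for `p` and the residual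
representation is ordinary at `p`, then `Hd.ρ ⊗_q T` is STRICTLY ordinary at `p`:
`s59m_h7a_fam` (MPNew2) + helper7's `s59x_strict_new` (NXStrictTop; helper8's geometric inputs inside).
-/
import Mathlib
import Fermat.Agent.Lib.S59.MPNew2
import Fermat.Agent.Lib.S59.NXStrictTop
import Fermat.Agent.Lib.S59.EAbsIrr
import Fermat.Agent.Lib.S33.GRes

set_option autoImplicit false
set_option linter.unusedSectionVars false
set_option linter.unusedVariables false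
set_option linter.style.haveILetI false
set_option synthInstance.maxHeartbeats 400000
set_option maxHeartbeats 4000000

noncomputable section

namespace Fermat.Agent.Lib.S59

open Polynomial IsLocalRing CuspForm
open Fermat.Agent.Lib.S48 Fermat.Agent.Lib.ES Fermat.Agent.Lib.S29 Fermat.Agent.Lib.S30
  Fermat.Agent.Lib.S31 Fermat.Agent.Lib.S33 Fermat.Agent.Lib.S18
  Fermat.Agent.Lib.S35 Fermat.Agent.Lib.S36 Fermat.Agent.Lib.S41
  CongruenceSubgroup ModularCurve.Period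
open scoped MatrixGroups TensorProduct

local notation "Qbar" => AlgebraicClosure ℚ
local notation "GQ" => (AlgebraicClosure ℚ ≃ₐ[ℚ] AlgebraicClosure ℚ)

section Strict

variable (p : ℕ) [hpP : Fact p.Prime] [NeZero p] (N₁ : ℕ) [NeZero N₁] (Q : Finset ℕ)

/-- **[STRICT-p] on the kernel-new quotient, abstract form.** -/
theorem s59m_STRICT_abs (hp2 : p ≠ 2) (hQ : ∀ q ∈ Q, q.Prime ∧ ¬ q ∣ N₁ * p)
    {L : ℕ} [NeZero L] (hL : L = N₁ * ∏ q ∈ Q, q) (hpL : ¬ p ∣ L)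
    (H : Subgroup (ZMod L)ˣ) (hD₁ : (∏ q ∈ Q, q) ∣ L)
    (hHker : s59u_ker L (∏ q ∈ Q, q) hD₁ ≤ H)
    (H' : Subgroup (ZMod (L * p))ˣ)
    (hH' : ∀ u : (ZMod (L * p))ˣ, u ∈ H' ↔ ZMod.unitsMap (dvd_mul_right L p) u ∈ H)
    {e m : ℕ} (hnm : 2 * m = p ^ e + 1) (hn : ∀ u : (ZMod (L * p))ˣ, u ^ (p ^ e) ∈ H')
    (𝒪 : Type) [CommRing 𝒪] [IsDomain 𝒪] [IsDiscreteValuationRing 𝒪]
    [IsAdicComplete (maximalIdeal 𝒪) 𝒪] [Finite (ResidueField 𝒪)] [CharZero 𝒪] [Algebra ℤ_[p] 𝒪]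
    (hp𝒪 : (p : 𝒪) ∈ maximalIdeal 𝒪)
    (S : Finset ℕ) (hpS : p ∈ S) (hMS : ∀ q : ℕ, q.Prime → q ∣ L * p → q ∈ S)
    -- the module
    {Z : Type} [AddCommGroup Z] [Module 𝒪 Z] [Module.Finite 𝒪 Z] [Module.Free 𝒪 Z]
    [NeZero (L * p)]
    (emb : Z →ₗ[𝒪] s48h_Hpar 𝒪 (s48h_GammaH (L * p) H') 𝒪) (hemb : Function.Injective emb)
    (op : s59w_AIdx (L * p) → Module.End 𝒪 Z)
    (hop : ∀ j z, emb (op j z) = s59w_op H' 𝒪 j (emb z))
    -- kernel-newness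
    (hnewA : ∀ z, s59f_corH hpL (s59f_isG_GammaH L H)
      (s59f_isG'_GammaH hpL rfl (dvd_mul_right L p) hH') 𝒪
      ((emb z : s48h_Hpar 𝒪 (s48h_GammaH (L * p) H') 𝒪) :
        Additive (s48h_GammaH (L * p) H') →+ 𝒪) = 0)
    (hnewB : ∀ z, s59f_corH hpL (s59f_isG_GammaH L H)
      (s59f_isG'_GammaH hpL rfl (dvd_mul_right L p) hH') 𝒪
      (s59f_wH hpL (s59f_isG'_GammaH hpL rfl (dvd_mul_right L p) hH') 𝒪
        ((emb z : s48h_Hpar 𝒪 (s48h_GammaH (L * p) H') 𝒪) :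
          Additive (s48h_GammaH (L * p) H') →+ 𝒪)) = 0)
    -- the Hecke–Galois datum at level `Γ₀(M' p)`
    (M' : ℕ) [NeZero M'] (hM' : M' = N₁ * (∏ q ∈ Q, q) * ∏ q ∈ Q, q) (hM : s18_GoodLevel p M')
    (hNS : ∀ q : ℕ, q.Prime → q ∣ M' * p → q ∈ S)
    {θ : heckeAlgebra (M' * p) 2 (↑S : Set ℕ) →+* ResidueField 𝒪}
    {T₀ : Type} [CommRing T₀] [IsLocalRing T₀] [IsNoetherianRing T₀]
    [IsAdicComplete (maximalIdeal T₀) T₀] [Algebra 𝒪 T₀] [IsLocalHom (algebraMap 𝒪 T₀)]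
    [Module.Finite 𝒪 T₀] [Module.Free 𝒪 T₀]
    (Hd : HeckeGaloisRepDatum (M' * p) (↑S : Set ℕ) 𝒪 θ T₀)
    -- the ring acting on `Z`
    (T : Type) [CommRing T] [IsLocalRing T] [Algebra 𝒪 T]
    (jT : T →ₐ[𝒪] Module.End 𝒪 Z) (hjTinj : Function.Injective jT)
    (hjTg : ∀ t, jT t ∈ Algebra.adjoin 𝒪 (Set.range op))
    (hred : IsReduced T)
    (q : T₀ →ₐ[𝒪] T) (hql : IsLocalHom (q : T₀ →+* T))
    (hq : ∀ (ℓ : ℕ) (hℓ : ℓ.Prime) (hℓN : ¬ ℓ ∣ M' * p) (hℓS : ℓ ∉ (↑S : Set ℕ))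
      (i : s59w_TIdx (L * p)), i.ell = ℓ →
      jT (q (Hd.π (heckeAlgebra.T hℓ hℓN hℓS))) =
        op (Sum.inr (s59e_tau i ((p ^ e - 1) * m))) * op (Sum.inl i))
    -- residual ordinarity
    (hord : (GaloisRepAdic.ofResidualGaloisRep
      (Hd.ρ.baseChangeAlong (q : T₀ →+* T) hql).residual).IsOrdinaryAt p) :
    (Hd.ρ.baseChangeAlong (q : T₀ →+* T) hql).IsStrictOrdinaryAt p := by
  classical
  have hpT₀ : (p : T₀) ∈ maximalIdeal T₀ := by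
    have := map_nonunit (algebraMap 𝒪 T₀) (p : 𝒪) hp𝒪
    rwa [map_natCast] at this
  have hpT : (p : T) ∈ maximalIdeal T := by
    haveI := hql
    have := map_nonunit (q : T₀ →+* T) (p : T₀) hpT₀
    rwa [map_natCast] at this
  have hrad : (RingHom.ker jT).IsRadical := by
    have hk : RingHom.ker jT = ⊥ := (RingHom.injective_iff_ker_eq_bot _).mp hjTinj
    rw [hk]
    intro x hx
    obtain ⟨n, hn'⟩ := hx
    rw [Ideal.mem_bot] at hn' ⊢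
    exact (IsReduced.eq_zero x ⟨n, hn'⟩)
  refine s59x_strict_new M' p hp2 hM hpS hNS Hd hpT₀ (q : T₀ →+* T) hpT
    (Hd.ρ.baseChangeAlong (q : T₀ →+* T) hql) ?_ ?_ ?_ ?_ ?_ ?_
  · -- (7a)
    intro a ha
    apply hjTinj
    rw [map_zero]
    exact s59m_h7a_fam p N₁ Q hp2 hQ hL hpL H hD₁ hHker H' hH' hnm hn 𝒪 hp𝒪 S hMS emb hemb op hop
      hnewA hnewB M' hM' hM.1 hpT₀ Hd.π T jT hjTg hrad q hq a
      ((s59x_resA_eq_zero_iff M' p hM.1 S a).mpr ha)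
  · intro g
    exact s59e_bc_trace (q : T₀ →+* T) hql Hd.ρ g
  · intro g
    exact s59e_bc_det (q : T₀ →+* T) hql Hd.ρ g
  · -- residual irreducibility
    intro W hW
    have habs := s59e_bc_absIrr (q : T₀ →+* T) hql Hd.ρ Hd.residual_absIrr
    have hspan := s59e_res_span_eq_top _ habs
    exact s33r_irr_of_span _ hspan W hW
  · exact s31a_span_rho_eq_top _ (s59e_bc_absIrr (q : T₀ →+* T) hql Hd.ρ Hd.residual_absIrr)
  · intro P hP τ₀ hτ₀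
    exact s33g_res_of_ordinary _ hord P hP τ₀ hτ₀

end Strict

end Fermat.Agent.Lib.S59

end
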