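/-
S59 (helper5, prefix `s59e_`), node B7 / [TR-1]: **the Hecke half of (H3)** — the same as
`s59e_H3_abs` without the deformation ring: `a : 𝕋(Γ₀(M'))^S → End_𝒪 Y`, an idempotent `ε`, every
`a(T_ℓ)` a product of two commuting locally scalar generators ⇒ `T' = 𝒪[aM(𝕋)] ⊂ End_𝒪(εY)` is local,
there is a Hecke–Galois datum `Hd` over the full local Hecke algebra and `Ψ : 𝕋_𝔪 ↠ T'`, with the
Frobenius characteristic polynomials of `Hd.ρ ⊗_Ψ T'`.  (Used for the second level in [TR-1], where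
no deformation ring is available / needed.)
-/
import Mathlib
import Fermat.Agent.Lib.S59.EHTop

set_option autoImplicit false
set_option linter.unusedSectionVars false
set_option linter.style.haveILetI false
set_option synthInstance.maxHeartbeats 400000
set_option maxHeartbeats 1000000

noncomputable section

namespace Fermat.Agent.Lib.S59

open Matrix.SpecialLinearGroup CongruenceSubgroup ModularCurve.Period Polynomial CuspForm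
open Fermat.Agent.Lib.S48 Fermat.Agent.Lib.ES IsLocalRing
open scoped MatrixGroups

local notation "Qbar" => AlgebraicClosure ℚ
local notation "GQ" => (AlgebraicClosure ℚ ≃ₐ[ℚ] AlgebraicClosure ℚ)

section Abs

variable {p : ℕ} [Fact p.Prime] (M' : ℕ) [NeZero M'] [Fact (HasIntegralStructure M' 2)]
  (S : Finset ℕ)
  {𝒪 : Type} [CommRing 𝒪] [IsDomain 𝒪] [IsDiscreteValuationRing 𝒪]
  [IsAdicComplete (maximalIdeal 𝒪) 𝒪] [Finite (ResidueField 𝒪)] [CharZero 𝒪]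
  {Y : Type} [AddCommGroup Y] [Module 𝒪 Y] [Module.Free 𝒪 Y] [Module.Finite 𝒪 Y]

/-- **the Hecke half of the conclusion of (H3)**. -/
def s59e_H3HeckeConcl (a : heckeAlgebra M' 2 (↑S : Set ℕ) →+* Module.End 𝒪 Y) (ε : Module.End 𝒪 Y)
    (cT : ℕ → 𝒪) (ρbar : ResidualGaloisRep (ResidueField 𝒪)) : Prop :=
    ∃ aM : heckeAlgebra M' 2 (↑S : Set ℕ) →+* Module.End 𝒪 (LinearMap.range ε),
      (∀ t (z : LinearMap.range ε), ((aM t z : LinearMap.range ε) : Y) = a t (z : Y)) ∧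
      ∃ (_ : IsLocalRing (s59e_adj 𝒪 aM)) (_ : IsLocalHom (algebraMap 𝒪 (s59e_adj 𝒪 aM)))
        (θ : heckeAlgebra M' 2 (↑S : Set ℕ) →+* ResidueField 𝒪)
        (Hd : HeckeGaloisRepDatum M' (↑S : Set ℕ) 𝒪 θ (heckeLocal M' (↑S : Set ℕ) 𝒪 θ))
        (Ψ : heckeLocal M' (↑S : Set ℕ) 𝒪 θ →ₐ[𝒪] s59e_adj 𝒪 aM)
        (hΨ : IsLocalHom (Ψ : heckeLocal M' (↑S : Set ℕ) 𝒪 θ →+* s59e_adj 𝒪 aM)),
        Hd.π = heckeLocal.π M' (↑S : Set ℕ) 𝒪 θ ∧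
        (∀ t, residue (s59e_adj 𝒪 aM) (s59e_adjHom 𝒪 aM t) =
          ResidueField.map (algebraMap 𝒪 (s59e_adj 𝒪 aM)) (θ t)) ∧
        (∀ (ℓ : ℕ) (hℓ : ℓ.Prime) (hℓN : ¬ ℓ ∣ M') (hℓS : ℓ ∉ (↑S : Set ℕ)),
          θ (heckeAlgebra.T hℓ hℓN hℓS) = residue 𝒪 (cT ℓ)) ∧
        Function.Surjective Ψ ∧
        (∀ t, Ψ (heckeLocal.π M' (↑S : Set ℕ) 𝒪 θ t) = s59e_adjHom 𝒪 aM t) ∧
        Hd.ρ.residual.IsEquiv (ρbar.baseChangeAlong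
          (ResidueField.map (algebraMap 𝒪 (heckeLocal M' (↑S : Set ℕ) 𝒪 θ)))) ∧
        ∀ (ℓ : ℕ) (hℓ : ℓ.Prime) (hℓN : ¬ ℓ ∣ M') (hℓS : ℓ ∉ (↑S : Set ℕ))
          (A : ValuationSubring Qbar), A.LiesOverPrime ℓ → ∀ σ : GQ, A.IsFrobeniusAt σ ℓ →
          LinearMap.charpoly ((Hd.ρ.baseChangeAlong
              (Ψ : heckeLocal M' (↑S : Set ℕ) 𝒪 θ →+* s59e_adj 𝒪 aM) hΨ).ρ σ) =
            X ^ 2 - C (s59e_adjHom 𝒪 aM (heckeAlgebra.T hℓ hℓN hℓS)) * X +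
              C ((ℓ : s59e_adj 𝒪 aM))

/-- **(H3), Hecke half, abstract form.** -/
theorem s59e_H3_hecke (hp2 : p ≠ 2) (hp𝒪 : (p : 𝒪) ∈ maximalIdeal 𝒪) (hpS : p ∈ S)
    (hS : ∀ q : ℕ, q.Prime → q ∣ M' → q ∈ S)
    (a : heckeAlgebra M' 2 (↑S : Set ℕ) →+* Module.End 𝒪 Y)
    (ε : Module.End 𝒪 Y) (hε : ε * ε = ε) (hε0 : ε ≠ 0)
    {J : Type*} (g : J → Module.End 𝒪 Y) (hgg : ∀ i j, g i * g j = g j * g i)
    (hεg : ∀ j, ε * g j = g j * ε) (c : J → 𝒪)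
    (hnil : ∀ j, ∃ k : ℕ, ∀ z, ((g j - c j • 1) ^ k) (ε z) ∈
      maximalIdeal 𝒪 • (⊤ : Submodule 𝒪 Y))
    (cT : ℕ → 𝒪)
    (ha : ∀ (ℓ : ℕ) (hℓ : ℓ.Prime) (hℓN : ¬ ℓ ∣ M') (hℓS : ℓ ∉ (↑S : Set ℕ)),
      ∃ j₁ j₂ : J, a (heckeAlgebra.T hℓ hℓN hℓS) = g j₁ * g j₂ ∧ cT ℓ = c j₁ * c j₂)
    (ρbar : ResidualGaloisRep (ResidueField 𝒪)) (habs : ρbar.IsAbsolutelyIrreducible)
    (hEig : ∀ (ℓ : ℕ) (_ : ℓ.Prime) (_ : ¬ ℓ ∣ M') (_ : ℓ ∉ S),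
      ∀ A : ValuationSubring Qbar, A.LiesOverPrime ℓ → ∀ σ : GQ, A.IsFrobeniusAt σ ℓ →
        LinearMap.charpoly (ρbar.ρ σ) = X ^ 2 - C (residue 𝒪 (cT ℓ)) * X +
          C ((ℓ : ResidueField 𝒪))) :
    s59e_H3HeckeConcl M' S a ε cT ρbar := by
  classical
  unfold s59e_H3HeckeConcl
  have hgen := s59e_hecke_closure M' (↑S : Set ℕ) hS
  -- `a` commutes with `ε`
  have haε : ∀ t, ε * a t = a t * ε := by
    intro t
    have ht : t ∈ Subring.closure {t : heckeAlgebra M' 2 (↑S : Set ℕ) | ∃ (ℓ : ℕ) (hℓ : ℓ.Prime)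
        (hℓN : ¬ ℓ ∣ M') (hℓS : ℓ ∉ (↑S : Set ℕ)), t = heckeAlgebra.T hℓ hℓN hℓS} := by
      rw [hgen]; exact Subring.mem_top t
    induction ht using Subring.closure_induction with
    | mem t ht =>
      obtain ⟨ℓ, hℓ, hℓN, hℓS, rfl⟩ := ht
      obtain ⟨j₁, j₂, h12, -⟩ := ha ℓ hℓ hℓN hℓS
      rw [h12, ← mul_assoc, hεg, mul_assoc, hεg, mul_assoc]
    | zero => rw [map_zero, mul_zero, zero_mul]
    | one => rw [map_one, mul_one, one_mul]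
    | add x y _ _ hx hy => rw [map_add, mul_add, add_mul, hx, hy]
    | neg x _ hx => rw [map_neg, mul_neg, neg_mul, hx]
    | mul x y _ _ hx hy => rw [map_mul, ← mul_assoc, hx, mul_assoc, hy, mul_assoc]
  have hcent : ∀ x : Module.End 𝒪 Y, ε * x = x * ε →
      x ∈ Subalgebra.centralizer 𝒪 ({ε} : Set (Module.End 𝒪 Y)) := by
    intro x hx
    rw [Subalgebra.mem_centralizer_iff]
    rintro _ rfl
    exact hx
  -- the restricted homomorphism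
  obtain ⟨aM, haM⟩ : ∃ aM : heckeAlgebra M' 2 (↑S : Set ℕ) →+* Module.End 𝒪 (LinearMap.range ε),
      ∀ t, aM t = s59e_restr ε ⟨a t, hcent _ (haε t)⟩ :=
    ⟨(s59e_restr ε).toRingHom.comp
      (a.codRestrict (Subalgebra.centralizer 𝒪 ({ε} : Set (Module.End 𝒪 Y)))
        fun t => hcent _ (haε t)), fun t => rfl⟩
  refine ⟨aM, fun t z => by rw [haM t]; rfl, ?_⟩
  -- the module `ε Y`
  haveI : Module.Finite 𝒪 (LinearMap.range ε) := Module.Finite.range ε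
  haveI : Module.Free 𝒪 (LinearMap.range ε) := by
    haveI : Module.Projective 𝒪 (LinearMap.range ε) :=
      Module.Projective.of_split (LinearMap.range ε).subtype ε.rangeRestrict
        (LinearMap.ext fun x => by
          obtain ⟨z, hz⟩ := x.2
          refine Subtype.ext ?_
          show ε (x : Y) = x
          rw [← hz, ← Module.End.mul_apply, hε])
    exact Module.free_of_flat_of_isLocalRing
  haveI : Nontrivial (LinearMap.range ε) := by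
    obtain ⟨z, hz⟩ : ∃ z, ε z ≠ 0 := by
      by_contra h
      exact hε0 (LinearMap.ext fun z => not_not.mp fun hz => h ⟨z, hz⟩)
    exact ⟨⟨⟨ε z, z, rfl⟩, 0, fun h => hz (congrArg Subtype.val h)⟩⟩
  -- the restricted generators
  obtain ⟨G, hG⟩ : ∃ G : J → Module.End 𝒪 (LinearMap.range ε),
      ∀ j, G j = s59e_restr ε ⟨g j, hcent _ (hεg j)⟩ := ⟨_, fun _ => rfl⟩
  have hgloc : ∀ j, s59e_IsLocScalar (G j) (c j) := by
    intro j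
    obtain ⟨k, hk⟩ := hnil j
    rw [hG]
    exact s59e_restr_locScalar hε _ (c j) hk
  have hGG : ∀ i j, Commute (G i) (G j) := fun i j => by
    show G i * G j = G j * G i
    rw [hG, hG, ← map_mul, ← map_mul]
    congr 1
    exact Subtype.ext (hgg i j)
  have hTG : ∀ (ℓ : ℕ) (hℓ : ℓ.Prime) (hℓN : ¬ ℓ ∣ M') (hℓS : ℓ ∉ (↑S : Set ℕ)),
      ∃ j₁ j₂ : J, aM (heckeAlgebra.T hℓ hℓN hℓS) = G j₁ * G j₂ ∧ cT ℓ = c j₁ * c j₂ := by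
    intro ℓ hℓ hℓN hℓS
    obtain ⟨j₁, j₂, h12, hc12⟩ := ha ℓ hℓ hℓN hℓS
    refine ⟨j₁, j₂, ?_, hc12⟩
    rw [haM, hG, hG, ← map_mul]
    congr 1
    exact Subtype.ext h12
  -- every element of `T'` is locally scalar
  have hle : s59e_adj 𝒪 aM ≤ Algebra.adjoin 𝒪 (Set.range G) := by
    refine Algebra.adjoin_le ?_
    rintro _ ⟨t, rfl⟩
    have ht : t ∈ Subring.closure {t : heckeAlgebra M' 2 (↑S : Set ℕ) | ∃ (ℓ : ℕ) (hℓ : ℓ.Prime)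
        (hℓN : ¬ ℓ ∣ M') (hℓS : ℓ ∉ (↑S : Set ℕ)), t = heckeAlgebra.T hℓ hℓN hℓS} := by
      rw [hgen]; exact Subring.mem_top t
    induction ht using Subring.closure_induction with
    | mem t ht =>
      obtain ⟨ℓ, hℓ, hℓN, hℓS, rfl⟩ := ht
      obtain ⟨j₁, j₂, h12, -⟩ := hTG ℓ hℓ hℓN hℓS
      rw [h12]
      exact Subalgebra.mul_mem _ (Algebra.subset_adjoin ⟨j₁, rfl⟩)
        (Algebra.subset_adjoin ⟨j₂, rfl⟩)
    | zero => rw [map_zero]; exact Subalgebra.zero_mem _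
    | one => rw [map_one]; exact Subalgebra.one_mem _
    | add x y _ _ hx hy => rw [map_add]; exact Subalgebra.add_mem _ hx hy
    | neg x _ hx => rw [map_neg]; exact Subalgebra.neg_mem _ hx
    | mul x y _ _ hx hy => rw [map_mul]; exact Subalgebra.mul_mem _ hx hy
  have hloc : ∀ x ∈ s59e_adj 𝒪 aM, ∃ d : 𝒪, s59e_IsLocScalar x d := fun x hx =>
    s59e_locScalar_adjoin G hGG c hgloc (hle hx)
  have hlr : IsLocalRing (s59e_adj 𝒪 aM) := s59e_adj_isLocalRing aM hloc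
  have hlh : IsLocalHom (algebraMap 𝒪 (s59e_adj 𝒪 aM)) := s59e_adj_isLocalHom aM hloc
  have hTloc : ∀ (ℓ : ℕ) (hℓ : ℓ.Prime) (hℓN : ¬ ℓ ∣ M') (hℓS : ℓ ∉ (↑S : Set ℕ)),
      s59e_IsLocScalar (aM (heckeAlgebra.T hℓ hℓN hℓS)) (cT ℓ) := by
    intro ℓ hℓ hℓN hℓS
    obtain ⟨j₁, j₂, h12, hc12⟩ := hTG ℓ hℓ hℓN hℓS
    rw [h12, hc12]
    exact (hgloc j₁).mul (hgloc j₂) (hGG j₁ j₂)
  -- the eigensystem
  obtain ⟨θ, hθres, hθc⟩ := s59e_adj_theta aM hloc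
  have hθT : ∀ (ℓ : ℕ) (hℓ : ℓ.Prime) (hℓN : ¬ ℓ ∣ M') (hℓS : ℓ ∉ (↑S : Set ℕ)),
      θ (heckeAlgebra.T hℓ hℓN hℓS) = residue 𝒪 (cT ℓ) := fun ℓ hℓ hℓN hℓS =>
    hθc _ _ (hTloc ℓ hℓ hℓN hℓS)
  have hEigθ : ∀ (ℓ : ℕ) (hℓ : ℓ.Prime) (hℓN : ¬ ℓ ∣ M') (hℓS : ℓ ∉ (↑S : Set ℕ)),
      ∀ A : ValuationSubring Qbar, A.LiesOverPrime ℓ → ∀ σ : GQ, A.IsFrobeniusAt σ ℓ →
        LinearMap.charpoly (ρbar.ρ σ) =
          X ^ 2 - C (θ (heckeAlgebra.T hℓ hℓN hℓS)) * X + C ((ℓ : ResidueField 𝒪)) := by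
    intro ℓ hℓ hℓN hℓS A hA σ hσ
    rw [hθT]
    exact hEig ℓ hℓ hℓN hℓS A hA σ hσ
  -- the Hecke–Galois datum over the full local Hecke algebra
  have hH0 := s59q_H0_pi p M' S 𝒪 θ hp2 hpS hS hp𝒪 ρbar habs hEigθ
  obtain ⟨Hd, hπ⟩ := hH0
  have hres := s59e_hecke_hres Hd hp2 hp𝒪 hS ρbar hEigθ
  have hpush := s59e_push M' (↑S : Set ℕ) 𝒪 θ Hd hπ (s59e_adjHom 𝒪 aM) hθres
    (s59e_adjHom_gen 𝒪 aM)
  obtain ⟨Ψ, hΨ, hΨs, hΨa, hcp⟩ := hpush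
  exact ⟨hlr, hlh, θ, Hd, Ψ, hΨ, hπ, hθres, hθT, hΨs, hΨa, hres, hcp⟩

end Abs

end Fermat.Agent.Lib.S59
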