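/-
S59 (helper5, prefix `s59e_`), (H3)(c) file 5: **(H3) for the `S`-anemic family only.**
`s59e_H3` asks the commutation `ε t_j = t_j ε` and the constants `c_j` ("`t_j ≡ c_j` modulo topological
nilpotents on `ε Y`") for EVERY anemic generator `j : s59w_AIdx M`, i.e. also for the `T_ℓ` with `ℓ ∈ S`,
`ℓ ∤ M`.  Only the `S`-anemic family (all diamonds, and the `T_ℓ` with `ℓ ∉ S`) is needed, and only
that family is available from the idempotent construction.  Here: `s59e_Anemic S j`, the restricted forms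
`s59e_H3'` (with deformation ring) and `s59e_H3_hecke'` (Hecke half, no deformation ring).
-/
import Mathlib
import Fermat.Agent.Lib.S59.EHHalf

set_option autoImplicit false
set_option linter.unusedSectionVars false
set_option linter.unusedVariables false
set_option linter.style.haveILetI false
set_option synthInstance.maxHeartbeats 400000
set_option maxHeartbeats 1000000

noncomputable section

namespace Fermat.Agent.Lib.S59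

open Matrix.SpecialLinearGroup CongruenceSubgroup ModularCurve.Period Polynomial CuspForm
open Fermat.Agent.Lib.S48 Fermat.Agent.Lib.ES IsLocalRing
open scoped MatrixGroups

local notation "Qbar" => AlgebraicClosure ℚ
local notation "GQ" => (AlgebraicClosure ℚ ≃ₐ[ℚ] AlgebraicClosure ℚ)

/-- the `S`-anemic generators: all diamond operators, and the `T_ℓ` with `ℓ ∉ S`. -/
def s59e_Anemic {M : ℕ} (S : Finset ℕ) (j : s59w_AIdx M) : Prop :=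
  ∀ i : s59w_TIdx M, j = Sum.inl i → i.ell ∉ S

theorem s59e_anemic_inr {M : ℕ} (S : Finset ℕ) (τ : Gamma0 M) :
    s59e_Anemic S (Sum.inr τ : s59w_AIdx M) := fun _ h => by cases h

theorem s59e_anemic_inl {M : ℕ} (S : Finset ℕ) (i : s59w_TIdx M) (hi : i.ell ∉ S) :
    s59e_Anemic S (Sum.inl i : s59w_AIdx M) := fun i' h => by
  cases h; exact hi

theorem s59e_anemic_inl_iff {M : ℕ} (S : Finset ℕ) (i : s59w_TIdx M) :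
    s59e_Anemic S (Sum.inl i : s59w_AIdx M) ↔ i.ell ∉ S :=
  ⟨fun h => h i rfl, s59e_anemic_inl S i⟩

section Concrete

variable {p : ℕ} [Fact p.Prime] (N : ℕ) [NeZero N] (Q : Finset ℕ) {M : ℕ} [NeZero M]
  (H : Subgroup (ZMod M)ˣ) {ι : Type*} [Fintype ι] [DecidableEq ι]
  (b : Module.Basis ι ℤ (s48h_M (s48h_GammaH M H)))
  (M' : ℕ) [NeZero M'] [Fact (HasIntegralStructure M' 2)] (S : Finset ℕ)
  {𝒪 : Type} [CommRing 𝒪] [IsDomain 𝒪] [IsDiscreteValuationRing 𝒪]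
  [IsAdicComplete (maximalIdeal 𝒪) 𝒪] [Finite (ResidueField 𝒪)] [CharZero 𝒪]

/-- **(H3), concrete form, `S`-anemic family.**  The same as `s59e_H3`, with `hεc`, `hnil` required only
for the `S`-anemic generators. -/
theorem s59e_H3' (hp2 : p ≠ 2) (hp𝒪 : (p : 𝒪) ∈ maximalIdeal 𝒪) (hpS : p ∈ S)
    (hQ : ∀ q ∈ Q, q.Prime ∧ ¬ q ∣ N)
    (hM : M = N * ∏ q ∈ Q, q) {D : ℕ} (hDQ : D = ∏ q ∈ Q, q) (hD : D ∣ M)
    (hH : s59u_ker M D hD ≤ H) {n m : ℕ} (hnm : 2 * m = n + 1) (hn : ∀ u : (ZMod M)ˣ, u ^ n ∈ H)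
    (hM' : M' = N * ∏ q ∈ Q, q ^ 2) (hS : ∀ q : ℕ, q.Prime → q ∣ M' → q ∈ S)
    (cB : Module.Basis ι 𝒪 (s48h_Hpar 𝒪 (s48h_GammaH M H) 𝒪))
    (hcB : ∀ i, ((cB i : s48h_Hpar 𝒪 (s48h_GammaH M H) 𝒪) : Additive (s48h_GammaH M H) →+ 𝒪)
      = s48h_castB b 𝒪 i)
    (ε : Module.End 𝒪 (s48h_Hpar 𝒪 (s48h_GammaH M H) 𝒪)) (hε : ε * ε = ε) (hε0 : ε ≠ 0)
    (hεc : ∀ j, s59e_Anemic S j → ε * s59w_op H 𝒪 j = s59w_op H 𝒪 j * ε) (c : s59w_AIdx M → 𝒪)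
    (hnil : ∀ j, s59e_Anemic S j → ∃ k : ℕ, ∀ z, ((s59w_op H 𝒪 j - c j • 1) ^ k) (ε z) ∈
      maximalIdeal 𝒪 • (⊤ : Submodule 𝒪 (s48h_Hpar 𝒪 (s48h_GammaH M H) 𝒪)))
    (ρbar : ResidualGaloisRep (ResidueField 𝒪))
    (hEig : ∀ (ℓ : ℕ) (_ : ℓ.Prime) (_ : ¬ ℓ ∣ M') (_ : ℓ ∉ S) (i : s59w_TIdx M), i.ell = ℓ →
      ∀ A : ValuationSubring Qbar, A.LiesOverPrime ℓ → ∀ σ : GQ, A.IsFrobeniusAt σ ℓ →
        LinearMap.charpoly (ρbar.ρ σ) = X ^ 2 - C (residue 𝒪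
          (c (Sum.inr (s59e_tau i ((n - 1) * m))) * c (Sum.inl i))) * X +
          C ((ℓ : ResidueField 𝒪)))
    {𝒟 : ∀ ⦃A : Type⦄ [CommRing A] [IsLocalRing A] [Algebra 𝒪 A], GaloisRepAdic A → Prop}
    (Dd : GaloisRep.DeformationRingData 𝒪 ρbar 𝒟)
    (h𝒟 : ∀ (θ : heckeAlgebra M' 2 (↑S : Set ℕ) →+* ResidueField 𝒪)
      (Hd : HeckeGaloisRepDatum M' (↑S : Set ℕ) 𝒪 θ (heckeLocal M' (↑S : Set ℕ) 𝒪 θ)),
      Hd.ρ.residual.IsEquiv (ρbar.baseChangeAlong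
        (ResidueField.map (algebraMap 𝒪 (heckeLocal M' (↑S : Set ℕ) 𝒪 θ)))) → 𝒟 Hd.ρ) :
    ∃ (a : heckeAlgebra M' 2 (↑S : Set ℕ) →+*
        Module.End 𝒪 (s48h_Hpar 𝒪 (s48h_GammaH M H) 𝒪)) (cT : ℕ → 𝒪),
      (∀ (ℓ : ℕ) (hℓ : ℓ.Prime) (hℓN : ¬ ℓ ∣ M') (hℓS : ℓ ∉ (↑S : Set ℕ)) (i : s59w_TIdx M),
        i.ell = ℓ → a (heckeAlgebra.T hℓ hℓN hℓS) = s59e_Tp' H 𝒪 ((n - 1) * m) i) ∧
      (∀ t, a t ∈ Subring.closure (Set.range (s59e_Tp' H 𝒪 ((n - 1) * m)))) ∧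
      (∀ (ℓ : ℕ), ℓ.Prime → ¬ ℓ ∣ M' → ∃ i : s59w_TIdx M, i.ell = ℓ ∧
        cT ℓ = c (Sum.inr (s59e_tau i ((n - 1) * m))) * c (Sum.inl i)) ∧
      s59e_H3Concl M' S a ε cT ρbar Dd := by
  classical
  haveI : Module.Free 𝒪 (s48h_Hpar 𝒪 (s48h_GammaH M H) 𝒪) := Module.Free.of_basis cB
  haveI : Module.Finite 𝒪 (s48h_Hpar 𝒪 (s48h_GammaH M H) 𝒪) := Module.Finite.of_basis cB
  have hREL := s59e_REL N Q H b M' (↑S : Set ℕ) s59w_petSS hQ hM hDQ hD hH hnm hn hM' hS cB hcB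
  obtain ⟨a, ha⟩ := hREL
  have ha1 := ha.1
  have ha2 := ha.2
  have hMM' : M ∣ M' := by
    rw [hM, hM']
    refine Nat.mul_dvd_mul_left N (Finset.prod_dvd_prod_of_dvd _ _ fun q _ => ?_)
    exact Dvd.intro _ (pow_two q).symm
  have hidx : ∀ ℓ : ℕ, ℓ.Prime → ¬ ℓ ∣ M' → ∃ i : s59w_TIdx M, i.ell = ℓ := fun ℓ hℓ hℓN =>
    s59e_exists_TIdx (M := M) hℓ (fun h => hℓN (dvd_trans h hMM'))
  -- the constants `cT`
  let cT : ℕ → 𝒪 := fun ℓ =>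
    if h : ∃ i : s59w_TIdx M, i.ell = ℓ then
      c (Sum.inr (s59e_tau (Classical.choose h) ((n - 1) * m))) * c (Sum.inl (Classical.choose h))
    else 0
  have hcT : ∀ ℓ : ℕ, ℓ.Prime → ¬ ℓ ∣ M' → ∃ i : s59w_TIdx M, i.ell = ℓ ∧
      cT ℓ = c (Sum.inr (s59e_tau i ((n - 1) * m))) * c (Sum.inl i) := by
    intro ℓ hℓ hℓN
    have h := hidx ℓ hℓ hℓN
    refine ⟨Classical.choose h, Classical.choose_spec h, ?_⟩
    show (if h : ∃ i : s59w_TIdx M, i.ell = ℓ then _ else _) = _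
    rw [dif_pos h]
  refine ⟨a, cT, ha1, ha2, hcT, ?_⟩
  refine s59e_H3_abs M' S hp2 hp𝒪 hpS hS a ε hε hε0
    (J := {j : s59w_AIdx M // s59e_Anemic S j})
    (fun j => s59w_op H 𝒪 j.1) (fun i j => s59w_op_comm H 𝒪 i.1 j.1) (fun j => hεc j.1 j.2)
    (fun j => c j.1) (fun j => hnil j.1 j.2) cT ?_ ρbar ?_ Dd h𝒟
  · intro ℓ hℓ hℓN hℓS
    obtain ⟨i, hi, hci⟩ := hcT ℓ hℓ hℓN
    have hiS : i.ell ∉ S := by rw [hi]; exact hℓS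
    exact ⟨⟨Sum.inr (s59e_tau i ((n - 1) * m)), s59e_anemic_inr S _⟩,
      ⟨Sum.inl i, s59e_anemic_inl S i hiS⟩, ha1 ℓ hℓ hℓN hℓS i hi, hci⟩
  · intro ℓ hℓ hℓN hℓS A hA σ hσ
    obtain ⟨i, hi, hci⟩ := hcT ℓ hℓ hℓN
    rw [hci]
    exact hEig ℓ hℓ hℓN hℓS i hi A hA σ hσ

/-- **(H3), Hecke half, concrete form, `S`-anemic family** (no deformation ring; `ρbar` absolutely
irreducible). -/
theorem s59e_H3_hecke' (hp2 : p ≠ 2) (hp𝒪 : (p : 𝒪) ∈ maximalIdeal 𝒪) (hpS : p ∈ S)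
    (hQ : ∀ q ∈ Q, q.Prime ∧ ¬ q ∣ N)
    (hM : M = N * ∏ q ∈ Q, q) {D : ℕ} (hDQ : D = ∏ q ∈ Q, q) (hD : D ∣ M)
    (hH : s59u_ker M D hD ≤ H) {n m : ℕ} (hnm : 2 * m = n + 1) (hn : ∀ u : (ZMod M)ˣ, u ^ n ∈ H)
    (hM' : M' = N * ∏ q ∈ Q, q ^ 2) (hS : ∀ q : ℕ, q.Prime → q ∣ M' → q ∈ S)
    (cB : Module.Basis ι 𝒪 (s48h_Hpar 𝒪 (s48h_GammaH M H) 𝒪))
    (hcB : ∀ i, ((cB i : s48h_Hpar 𝒪 (s48h_GammaH M H) 𝒪) : Additive (s48h_GammaH M H) →+ 𝒪)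
      = s48h_castB b 𝒪 i)
    (ε : Module.End 𝒪 (s48h_Hpar 𝒪 (s48h_GammaH M H) 𝒪)) (hε : ε * ε = ε) (hε0 : ε ≠ 0)
    (hεc : ∀ j, s59e_Anemic S j → ε * s59w_op H 𝒪 j = s59w_op H 𝒪 j * ε) (c : s59w_AIdx M → 𝒪)
    (hnil : ∀ j, s59e_Anemic S j → ∃ k : ℕ, ∀ z, ((s59w_op H 𝒪 j - c j • 1) ^ k) (ε z) ∈
      maximalIdeal 𝒪 • (⊤ : Submodule 𝒪 (s48h_Hpar 𝒪 (s48h_GammaH M H) 𝒪)))
    (ρbar : ResidualGaloisRep (ResidueField 𝒪)) (habs : ρbar.IsAbsolutelyIrreducible)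
    (hEig : ∀ (ℓ : ℕ) (_ : ℓ.Prime) (_ : ¬ ℓ ∣ M') (_ : ℓ ∉ S) (i : s59w_TIdx M), i.ell = ℓ →
      ∀ A : ValuationSubring Qbar, A.LiesOverPrime ℓ → ∀ σ : GQ, A.IsFrobeniusAt σ ℓ →
        LinearMap.charpoly (ρbar.ρ σ) = X ^ 2 - C (residue 𝒪
          (c (Sum.inr (s59e_tau i ((n - 1) * m))) * c (Sum.inl i))) * X +
          C ((ℓ : ResidueField 𝒪))) :
    ∃ (a : heckeAlgebra M' 2 (↑S : Set ℕ) →+*
        Module.End 𝒪 (s48h_Hpar 𝒪 (s48h_GammaH M H) 𝒪)) (cT : ℕ → 𝒪),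
      (∀ (ℓ : ℕ) (hℓ : ℓ.Prime) (hℓN : ¬ ℓ ∣ M') (hℓS : ℓ ∉ (↑S : Set ℕ)) (i : s59w_TIdx M),
        i.ell = ℓ → a (heckeAlgebra.T hℓ hℓN hℓS) = s59e_Tp' H 𝒪 ((n - 1) * m) i) ∧
      (∀ t, a t ∈ Subring.closure (Set.range (s59e_Tp' H 𝒪 ((n - 1) * m)))) ∧
      (∀ (ℓ : ℕ), ℓ.Prime → ¬ ℓ ∣ M' → ∃ i : s59w_TIdx M, i.ell = ℓ ∧
        cT ℓ = c (Sum.inr (s59e_tau i ((n - 1) * m))) * c (Sum.inl i)) ∧
      s59e_H3HeckeConcl M' S a ε cT ρbar := by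
  classical
  haveI : Module.Free 𝒪 (s48h_Hpar 𝒪 (s48h_GammaH M H) 𝒪) := Module.Free.of_basis cB
  haveI : Module.Finite 𝒪 (s48h_Hpar 𝒪 (s48h_GammaH M H) 𝒪) := Module.Finite.of_basis cB
  have hREL := s59e_REL N Q H b M' (↑S : Set ℕ) s59w_petSS hQ hM hDQ hD hH hnm hn hM' hS cB hcB
  obtain ⟨a, ha⟩ := hREL
  have ha1 := ha.1
  have ha2 := ha.2
  have hMM' : M ∣ M' := by
    rw [hM, hM']
    refine Nat.mul_dvd_mul_left N (Finset.prod_dvd_prod_of_dvd _ _ fun q _ => ?_)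
    exact Dvd.intro _ (pow_two q).symm
  have hidx : ∀ ℓ : ℕ, ℓ.Prime → ¬ ℓ ∣ M' → ∃ i : s59w_TIdx M, i.ell = ℓ := fun ℓ hℓ hℓN =>
    s59e_exists_TIdx (M := M) hℓ (fun h => hℓN (dvd_trans h hMM'))
  let cT : ℕ → 𝒪 := fun ℓ =>
    if h : ∃ i : s59w_TIdx M, i.ell = ℓ then
      c (Sum.inr (s59e_tau (Classical.choose h) ((n - 1) * m))) * c (Sum.inl (Classical.choose h))
    else 0
  have hcT : ∀ ℓ : ℕ, ℓ.Prime → ¬ ℓ ∣ M' → ∃ i : s59w_TIdx M, i.ell = ℓ ∧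
      cT ℓ = c (Sum.inr (s59e_tau i ((n - 1) * m))) * c (Sum.inl i) := by
    intro ℓ hℓ hℓN
    have h := hidx ℓ hℓ hℓN
    refine ⟨Classical.choose h, Classical.choose_spec h, ?_⟩
    show (if h : ∃ i : s59w_TIdx M, i.ell = ℓ then _ else _) = _
    rw [dif_pos h]
  refine ⟨a, cT, ha1, ha2, hcT, ?_⟩
  refine s59e_H3_hecke M' S hp2 hp𝒪 hpS hS a ε hε hε0
    (J := {j : s59w_AIdx M // s59e_Anemic S j})
    (fun j => s59w_op H 𝒪 j.1) (fun i j => s59w_op_comm H 𝒪 i.1 j.1) (fun j => hεc j.1 j.2)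
    (fun j => c j.1) (fun j => hnil j.1 j.2) cT ?_ ρbar habs ?_
  · intro ℓ hℓ hℓN hℓS
    obtain ⟨i, hi, hci⟩ := hcT ℓ hℓ hℓN
    have hiS : i.ell ∉ S := by rw [hi]; exact hℓS
    exact ⟨⟨Sum.inr (s59e_tau i ((n - 1) * m)), s59e_anemic_inr S _⟩,
      ⟨Sum.inl i, s59e_anemic_inl S i hiS⟩, ha1 ℓ hℓ hℓN hℓS i hi, hci⟩
  · intro ℓ hℓ hℓN hℓS A hA σ hσ
    obtain ⟨i, hi, hci⟩ := hcT ℓ hℓ hℓN
    rw [hci]
    exact hEig ℓ hℓ hℓN hℓS i hi A hA σ hσ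

end Concrete

end Fermat.Agent.Lib.S59
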