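/-
Programme (R) = S59 / S43, helper1: **the `Finset` dialect of the level numerology** (for the binders
`hQ hM hDQ hD hH hnm hn` of helper5's `s59e_H3'` / `s59e_TR1'`), at the three levels

* top      `(M, H) = (N ∏ qv, H')`,  `"N" = N / ∏ qB`, `Q = image qB ∪ image qv`;
* type 1   `(M, H) = (N ∏ qv, H₂')`, `"N" = N`,        `Q = image qv`;
* base     `(M, H) = (N, H₀)`,       `"N" = N / ∏ qB`, `Q = image qB`.
-/
import Mathlib
import Fermat.Agent.Lib.S59.KLvlGrp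

set_option autoImplicit false
set_option linter.unusedSectionVars false

noncomputable section

namespace Fermat.Agent.Lib.S59

open Fermat.Agent.Lib.S48 CongruenceSubgroup

section Fin

variable {m r : ℕ} (qB : Fin m → ℕ) (qv : Fin r → ℕ)

/-- the set of auxiliary primes of the top level. -/
def s59k_Q : Finset ℕ := Finset.univ.image qB ∪ Finset.univ.image qv

theorem s59k_mem_Q {q : ℕ} : q ∈ s59k_Q qB qv ↔ (∃ j, qB j = q) ∨ ∃ i, qv i = q := by
  simp [s59k_Q]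

theorem s59k_prod_image {k : ℕ} (f : Fin k → ℕ) (hf : Function.Injective f) :
    ∏ q ∈ Finset.univ.image f, q = ∏ j, f j :=
  Finset.prod_image fun _ _ _ _ h => hf h

theorem s59k_prod_Q (hB : Function.Injective qB) (hv : Function.Injective qv)
    (hdisj : ∀ j i, qB j ≠ qv i) :
    ∏ q ∈ s59k_Q qB qv, q = (∏ j, qB j) * ∏ i, qv i := by
  have hd : Disjoint (Finset.univ.image qB) (Finset.univ.image qv) := by
    rw [Finset.disjoint_left]
    intro q h1 h2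
    obtain ⟨j, -, rfl⟩ := Finset.mem_image.mp h1
    obtain ⟨i, -, hi⟩ := Finset.mem_image.mp h2
    exact hdisj j i hi.symm
  rw [s59k_Q, Finset.prod_union hd, s59k_prod_image qB hB, s59k_prod_image qv hv]

variable (N : ℕ) (hdvd : ∏ j, qB j ∣ N)

include hdvd in
/-- `hM` at the top level. -/
theorem s59k_level_eq (hB : Function.Injective qB) (hv : Function.Injective qv)
    (hdisj : ∀ j i, qB j ≠ qv i) :
    N * ∏ i, qv i = (N / ∏ j, qB j) * ∏ q ∈ s59k_Q qB qv, q := by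
  rw [s59k_prod_Q qB qv hB hv hdisj, ← mul_assoc, Nat.div_mul_cancel hdvd]

/-- `hM` at the type-1 level. -/
theorem s59k_level_eq_top (hv : Function.Injective qv) :
    N * ∏ i, qv i = N * ∏ q ∈ Finset.univ.image qv, q := by
  rw [s59k_prod_image qv hv]

include hdvd in
/-- `hM` at the base level. -/
theorem s59k_level_eq_base (hB : Function.Injective qB) :
    N = (N / ∏ j, qB j) * ∏ q ∈ Finset.univ.image qB, q := by
  rw [s59k_prod_image qB hB, Nat.div_mul_cancel hdvd]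

include hdvd in
/-- a prime `qB j` does not divide `N / ∏ qB` (`N` squarefree). -/
theorem s59k_qB_not_dvd (hsq : Squarefree N) (hqB : ∀ j, (qB j).Prime) (j : Fin m) :
    ¬ qB j ∣ N / ∏ j, qB j := by
  intro h
  have h1 : qB j * qB j ∣ (N / ∏ j, qB j) * ∏ j, qB j :=
    Nat.mul_dvd_mul h (s59t_dvd_prod qB j)
  rw [Nat.div_mul_cancel hdvd] at h1
  have h2 := hsq (qB j) h1
  exact (hqB j).one_lt.ne' (Nat.isUnit_iff.mp h2)

include hdvd in
/-- `hQ` at the top level. -/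
theorem s59k_hQ (hsq : Squarefree N) (hqB : ∀ j, (qB j).Prime) (hqv : ∀ i, (qv i).Prime)
    (hqvN : ∀ i, ¬ qv i ∣ N) :
    ∀ q ∈ s59k_Q qB qv, q.Prime ∧ ¬ q ∣ N / ∏ j, qB j := by
  intro q hq
  rcases (s59k_mem_Q qB qv).mp hq with ⟨j, rfl⟩ | ⟨i, rfl⟩
  · exact ⟨hqB j, s59k_qB_not_dvd qB N hdvd hsq hqB j⟩
  · exact ⟨hqv i, fun h => hqvN i (h.trans (Nat.div_dvd_of_dvd hdvd))⟩

/-- `hQ` at the type-1 level. -/
theorem s59k_hQ_top (hqv : ∀ i, (qv i).Prime) (hqvN : ∀ i, ¬ qv i ∣ N) :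
    ∀ q ∈ Finset.univ.image qv, q.Prime ∧ ¬ q ∣ N := by
  intro q hq
  obtain ⟨i, -, rfl⟩ := Finset.mem_image.mp hq
  exact ⟨hqv i, hqvN i⟩

include hdvd in
/-- `hQ` at the base level. -/
theorem s59k_hQ_base (hsq : Squarefree N) (hqB : ∀ j, (qB j).Prime) :
    ∀ q ∈ Finset.univ.image qB, q.Prime ∧ ¬ q ∣ N / ∏ j, qB j := by
  intro q hq
  obtain ⟨j, -, rfl⟩ := Finset.mem_image.mp hq
  exact ⟨hqB j, s59k_qB_not_dvd qB N hdvd hsq hqB j⟩

variable (P₀ Pn : ℕ)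

/-- `hH` at the top level, `D = ∏ q ∈ Q, q`. -/
theorem s59k_hH (hB : Function.Injective qB) (hv : Function.Injective qv)
    (hdisj : ∀ j i, qB j ≠ qv i) {D : ℕ} (hDQ : D = ∏ q ∈ s59k_Q qB qv, q)
    (hD : D ∣ N * ∏ i, qv i) :
    s59u_ker (N * ∏ i, qv i) D hD ≤
      s59t_Hmul N (∏ i, qv i) (s59k_H0 P₀ qB N hdvd) (s59t_KQ Pn qv) := by
  have h := s59k_prod_Q qB qv hB hv hdisj
  exact s59k_ker_le_Hmul P₀ qB N hdvd Pn qv hD (hDQ ▸ h ▸ Dvd.intro _ rfl)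
    (hDQ ▸ h ▸ Dvd.intro_left _ rfl)

/-- `hH` at the type-1 level, `D = ∏ q ∈ image qv, q`. -/
theorem s59k_hH_top (hv : Function.Injective qv) {D : ℕ}
    (hDQ : D = ∏ q ∈ Finset.univ.image qv, q) (hD : D ∣ N * ∏ i, qv i) :
    s59u_ker (N * ∏ i, qv i) D hD ≤ s59t_Hmul N (∏ i, qv i) ⊤ (s59t_KQ Pn qv) := by
  have h := s59k_prod_image qv hv
  exact s59k_ker_le_Hmul_top N Pn qv hD (hDQ ▸ h ▸ dvd_refl _)

/-- `hH` at the base level, `D = ∏ q ∈ image qB, q`. -/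
theorem s59k_hH_base (hB : Function.Injective qB) {D : ℕ}
    (hDQ : D = ∏ q ∈ Finset.univ.image qB, q) (hD : D ∣ N) :
    s59u_ker N D hD ≤ s59k_H0 P₀ qB N hdvd := by
  have h := s59k_prod_image qB hB
  exact s59k_ker_le_H0 P₀ qB N hdvd hD (hDQ ▸ h ▸ dvd_refl _)

/-- `hnm` for an odd `n`. -/
theorem s59k_hnm {n : ℕ} (hn : Odd n) : 2 * ((n + 1) / 2) = n + 1 :=
  Nat.two_mul_div_two_of_even hn.add_one

/-- `hnm` for `n = p ^ k`, `p` an odd prime. -/
theorem s59k_hnm_pow {p : ℕ} (hp : p.Prime) (hp2 : p ≠ 2) (k : ℕ) :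
    2 * ((p ^ k + 1) / 2) = p ^ k + 1 :=
  s59k_hnm (s59k_odd_pow hp hp2 k)

/-! ### the two dialects of "the units `≡ 1 mod D` lie in `H`" -/

/-- from the `s59u_ker` form to the integer form (the `hH` binder of `s59n_C8_final_TW`,
`s59e_C8fam`). -/
theorem s59k_hH_int {M D : ℕ} (hD : D ∣ M) {H : Subgroup (ZMod M)ˣ} (h : s59u_ker M D hD ≤ H)
    (x : ℤ) (u : (ZMod M)ˣ) (hx : ((x : ℤ) : ZMod D) = 1)
    (hu : ((u : (ZMod M)ˣ) : ZMod M) = ((x : ℤ) : ZMod M)) : u ∈ H := by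
  apply h
  show ZMod.unitsMap hD u = 1
  apply Units.ext
  rw [ZMod.unitsMap_def, Units.coe_map, MonoidHom.coe_coe, hu, map_intCast, hx, Units.val_one]

/-- from the integer form to the `s59u_ker` form. -/
theorem s59k_hH_ker {M D : ℕ} [NeZero M] (hD : D ∣ M) {H : Subgroup (ZMod M)ˣ}
    (h : ∀ (x : ℤ) (u : (ZMod M)ˣ), ((x : ℤ) : ZMod D) = 1 →
      ((u : (ZMod M)ˣ) : ZMod M) = ((x : ℤ) : ZMod M) → u ∈ H) :
    s59u_ker M D hD ≤ H := by
  intro u hu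
  have hu' : ZMod.unitsMap hD u = 1 := hu
  refine h (((u : (ZMod M)ˣ) : ZMod M).val : ℤ) u ?_ ?_
  · have h1 := congrArg (fun w : (ZMod D)ˣ => (w : ZMod D)) hu'
    simp only [ZMod.unitsMap_def, Units.coe_map, MonoidHom.coe_coe, Units.val_one] at h1
    rw [Int.cast_natCast, ← h1, ← map_natCast (ZMod.castHom hD (ZMod D)), ZMod.natCast_zmod_val]
  · rw [Int.cast_natCast, ZMod.natCast_zmod_val]


end Fin

end Fermat.Agent.Lib.S59
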