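/-
S59 (helper5, prefix `s59e_`), node (H3) / W9: **the deformation type of the Hecke–Galois datum**,
stated against the deformation problem of helper6's `s59q_inst_flat` / `s59q_exists_DQ_flat_hecke`:
  `flatCondition 𝒪 p Sg ρ ∧ ∀ q ∈ Smin, q.Prime → q ≠ p → ρ.IsUnipotentOnInertiaAt q`.

* `s59e_hecke_unram'` : in a Hecke–Galois datum of level `N` away from `S`, the representation is
  unramified at EVERY prime `q ∤ N p` (also for `q ∈ S`: the proof of S31 on main uses `q ∉ S` only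
  through `q ∤ N p`) — needed because the ramification set `Sg` of the deformation problem is smaller
  than the set `S` of primes removed from the Hecke algebra;
* `s59e_hecke_flatType` : the type above for `H.ρ`, level prime to `p`, `Sg ⊇` primes of `N`,
  every `q ∈ Smin ∖ {p}` exactly dividing `N`;
* `s59e_Smin_exact` : the last hypothesis from `hmin` (`q ∈ Smin ↔ ρbar ramified at q`), the
  residual comparison `hres` and "`ρbar` is unramified at the primes of `Q`", `N = N₀ ∏_{q ∈ Q} q²`,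
  `N₀` squarefree.
-/
import Fermat.Agent.Lib.S59.EHRT
import Fermat.Agent.Lib.S31.Final

set_option autoImplicit false
set_option linter.style.haveILetI false
set_option linter.unusedSectionVars false
set_option synthInstance.maxHeartbeats 400000
set_option maxHeartbeats 1000000

noncomputable section

namespace Fermat.Agent.Lib.S59

open IsLocalRing Polynomial CuspForm Fermat.Agent.Lib.S30 Fermat.Agent.Lib.S29
  Fermat.Agent.Lib.S31 Fermat.Agent.Lib.S53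
open scoped TensorProduct

local notation "Qbar" => AlgebraicClosure ℚ
local notation "GQ" => (AlgebraicClosure ℚ ≃ₐ[ℚ] AlgebraicClosure ℚ)

section Datum

variable {p : ℕ} [Fact p.Prime] {N : ℕ} [NeZero N] {S : Finset ℕ}
  {𝒪 : Type} [CommRing 𝒪] [IsDomain 𝒪] [IsDiscreteValuationRing 𝒪]
  [IsAdicComplete (maximalIdeal 𝒪) 𝒪]
  {θ : heckeAlgebra N 2 (↑S : Set ℕ) →+* ResidueField 𝒪}
  {T : Type} [CommRing T] [IsLocalRing T] [IsNoetherianRing T]
  [IsAdicComplete (maximalIdeal T) T] [Algebra 𝒪 T] [IsLocalHom (algebraMap 𝒪 T)]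
  [Module.Finite 𝒪 T] [Module.Free 𝒪 T]
  (H : HeckeGaloisRepDatum N (↑S : Set ℕ) 𝒪 θ T)

/-- **S31, strengthened**: the representation of a Hecke–Galois datum of level `N` away from `S` is
unramified at every prime `q ∤ N p` (whether or not `q ∈ S`). -/
theorem s59e_hecke_unram' (hp𝒪 : (p : 𝒪) ∈ maximalIdeal 𝒪) (hpS : p ∈ S)
    (hNS : ∀ q : ℕ, q.Prime → q ∣ N → q ∈ S)
    (q : ℕ) (hq : q.Prime) (hqp : q ≠ p) (hqN : ¬ q ∣ N) :
    H.ρ.IsUnramifiedAt q := by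
  intro P hP τ₀ hτ₀
  have hpT : (p : T) ∈ maximalIdeal T := s31e_p_mem p hp𝒪
  have hqNp : ¬ q ∣ N * p := fun h => by
    rcases (Nat.Prime.dvd_mul hq).mp h with h | h
    · exact hqN h
    · exact hqp ((Nat.prime_dvd_prime_iff_eq hq (Fact.out : p.Prime)).mp h)
  have h1 : s30a_rho N p τ₀ = 1 := s30a_unram N p q hq hqNp P hP τ₀ hτ₀
  have h2 : (s30y_cycDatum p).ε τ₀ = 1 := (s30y_cycDatum p).unram q hq hqp P hP τ₀ hτ₀
  set b : Module.Basis (Fin 2) T H.ρ.V := Module.finBasisOfFinrankEq T H.ρ.V H.ρ.finrank_eq with hb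
  refine s31a_rho_eq_one H.ρ H.residual_absIrr τ₀ (fun g => ?_)
  rw [s31f_trace_eq H.ρ b, s31f_trace_eq H.ρ b]
  exact s31c_trace_mul_eq p s31e_hausdorff (matOf H.ρ b) (matContinuous_matOf H.ρ b)
    (s30a_rho N p) (s30a_cont N p) (s30y_cycDatum p).ε (s30y_cycDatum p).cont H.π S
    (s31e_tau N S) (s31e_TL N p) (s31f_hfrob hpS hNS H b (s30y_cycDatum p))
    (s31e_hcong_of N p S hNS (s31d_iota_div N p) (Module.finBasis ℤ (s29s_M N))
      (s31t_Theta N (↑S : Set ℕ) _) hpT H.π) τ₀ g h1 h2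

/-- **the flat deformation type of a Hecke–Galois datum of level prime to `p`**, with an arbitrary
ramification set `Sg ⊇` primes of `N` and a set `Smin` of primes exactly dividing `N`: verbatim the
deformation problem of `s59q_inst_flat`. -/
theorem s59e_hecke_flatType [Finite (ResidueField 𝒪)] [CharZero 𝒪] (hp2 : p ≠ 2)
    (hp𝒪 : (p : 𝒪) ∈ maximalIdeal 𝒪) (hpN : ¬ p ∣ N) (hpS : p ∈ S)
    (hNS : ∀ q : ℕ, q.Prime → q ∣ N → q ∈ S)
    (Sg Smin : Finset ℕ) (hpSg : p ∈ Sg) (hSg : ∀ q : ℕ, q.Prime → q ∣ N → q ∈ Sg)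
    (hSmin : ∀ q ∈ Smin, q.Prime → q ≠ p → q ∣ N ∧ ¬ q ^ 2 ∣ N) :
    GaloisRep.flatCondition 𝒪 p Sg H.ρ ∧
      ∀ q ∈ Smin, q.Prime → q ≠ p → H.ρ.IsUnipotentOnInertiaAt q := by
  refine ⟨⟨s59e_hecke_detCyc H hp𝒪 hNS,
    Fermat.Agent.S32.result (Fact.out : p.Prime) hp2 hp𝒪 hpN hpS hNS H, fun q hq hqSg => ?_⟩,
    fun q hqS hq hqp => ?_⟩
  · refine s59e_hecke_unram' H hp𝒪 hpS hNS q hq (fun h => hqSg (h ▸ hpSg)) fun h => ?_
    exact hqSg (hSg q hq h)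
  · obtain ⟨h1, h2⟩ := hSmin q hqS hq hqp
    exact s59e_hecke_unip H hp𝒪 hpS hNS q hq hqp h1 h2

end Datum

/-! ### The primes of `Smin` exactly divide the level -/

section Smin

/-- the residual representation of a representation unramified at `q` is unramified at `q`. -/
theorem s59e_residual_unram {A : Type} [CommRing A] [IsLocalRing A] (ρ : GaloisRepAdic A) (q : ℕ)
    (h : ρ.IsUnramifiedAt q) : ρ.residual.IsUnramifiedAt q := by
  intro P hP σ hσ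
  show (ρ.ρ σ).baseChange (ResidueField A) = 1
  rw [h P hP σ hσ, LinearMap.baseChange_one]

/-- unramifiedness is invariant under equivalence of residual representations. -/
theorem s59e_unram_of_res_isEquiv {k : Type} [Field k] {ρ₁ ρ₂ : ResidualGaloisRep k}
    (h : ρ₁.IsEquiv ρ₂) (q : ℕ) (h1 : ρ₁.IsUnramifiedAt q) : ρ₂.IsUnramifiedAt q := by
  obtain ⟨e⟩ := h
  intro P hP σ hσ
  refine LinearMap.ext fun y => ?_
  obtain ⟨x, rfl⟩ := e.toLinearEquiv.surjective y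
  rw [← e.map_apply, h1 P hP σ hσ]
  rfl

/-- unramifiedness descends along an extension of the coefficient field. -/
theorem s59e_unram_of_res_baseChangeAlong {k k' : Type} [Field k] [Field k'] (φ : k →+* k')
    (ρ : ResidualGaloisRep k) (q : ℕ) (h : (ρ.baseChangeAlong φ).IsUnramifiedAt q) :
    ρ.IsUnramifiedAt q := by
  letI : Algebra k k' := φ.toAlgebra
  intro P hP σ hσ
  refine LinearMap.ext fun v => ?_
  have h1 : (ρ.ρ σ).baseChange k' = 1 := h P hP σ hσ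
  have h2 : (1 : k') ⊗ₜ[k] (ρ.ρ σ v) = (1 : k') ⊗ₜ[k] v := by
    have := LinearMap.congr_fun h1 ((1 : k') ⊗ₜ[k] v)
    rwa [LinearMap.baseChange_tmul] at this
  exact Module.FaithfullyFlat.tensorProduct_mk_injective (A := k) (B := k') ρ.V h2

variable {p : ℕ} [Fact p.Prime] {N : ℕ} [NeZero N] {S : Finset ℕ}
  {𝒪 : Type} [CommRing 𝒪] [IsDomain 𝒪] [IsDiscreteValuationRing 𝒪]
  [IsAdicComplete (maximalIdeal 𝒪) 𝒪]
  {θ : heckeAlgebra N 2 (↑S : Set ℕ) →+* ResidueField 𝒪}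
  {T : Type} [CommRing T] [IsLocalRing T] [IsNoetherianRing T]
  [IsAdicComplete (maximalIdeal T) T] [Algebra 𝒪 T] [IsLocalHom (algebraMap 𝒪 T)]
  [Module.Finite 𝒪 T] [Module.Free 𝒪 T]
  (H : HeckeGaloisRepDatum N (↑S : Set ℕ) 𝒪 θ T)

/-- a residual representation which is the reduction of a Hecke–Galois datum of level `N` is
unramified at every prime `q ∤ N p`. -/
theorem s59e_rhobar_unram_of_hres (hp𝒪 : (p : 𝒪) ∈ maximalIdeal 𝒪) (hpS : p ∈ S)
    (hNS : ∀ q : ℕ, q.Prime → q ∣ N → q ∈ S)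
    (ρbar : ResidualGaloisRep (ResidueField 𝒪))
    (hres : H.ρ.residual.IsEquiv (ρbar.baseChangeAlong (ResidueField.map (algebraMap 𝒪 T))))
    (q : ℕ) (hq : q.Prime) (hqp : q ≠ p) (hqN : ¬ q ∣ N) : ρbar.IsUnramifiedAt q :=
  s59e_unram_of_res_baseChangeAlong _ ρbar q
    (s59e_unram_of_res_isEquiv hres q
      (s59e_residual_unram H.ρ q (s59e_hecke_unram' H hp𝒪 hpS hNS q hq hqp hqN)))

/-- **the primes of `Smin ∖ {p}` exactly divide the level** `N = N₀ ∏_{q ∈ Q} q²` (`N₀` squarefree,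
`ρbar` unramified at the primes of `Q`, `Smin ∖ {p}` = the primes where `ρbar` ramifies). -/
theorem s59e_Smin_exact (hp𝒪 : (p : 𝒪) ∈ maximalIdeal 𝒪) (hpS : p ∈ S)
    (hNS : ∀ q : ℕ, q.Prime → q ∣ N → q ∈ S)
    (ρbar : ResidualGaloisRep (ResidueField 𝒪))
    (hres : H.ρ.residual.IsEquiv (ρbar.baseChangeAlong (ResidueField.map (algebraMap 𝒪 T))))
    (N₀ : ℕ) (Q : Finset ℕ) (hN : N = N₀ * ∏ q ∈ Q, q ^ 2) (hN₀ : Squarefree N₀)
    (hQ : ∀ q ∈ Q, q.Prime ∧ ρbar.IsUnramifiedAt q)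
    (Smin : Finset ℕ)
    (hmin : ∀ q : ℕ, q.Prime → q ≠ p → (q ∈ Smin ↔ ¬ ρbar.IsUnramifiedAt q)) :
    ∀ q ∈ Smin, q.Prime → q ≠ p → q ∣ N ∧ ¬ q ^ 2 ∣ N := by
  intro q hqS hq hqp
  have hram : ¬ ρbar.IsUnramifiedAt q := (hmin q hq hqp).mp hqS
  have hqN : q ∣ N := by
    by_contra h
    exact hram (s59e_rhobar_unram_of_hres H hp𝒪 hpS hNS ρbar hres q hq hqp h)
  have hqQ : ∀ q' ∈ Q, Nat.Coprime q q' := by
    intro q' hq'
    rw [Nat.coprime_primes hq (hQ q' hq').1]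
    rintro rfl
    exact hram (hQ q hq').2
  have hcop : Nat.Coprime (q ^ 2) (∏ q' ∈ Q, q' ^ 2) :=
    Nat.Coprime.prod_right fun q' hq' => Nat.Coprime.pow 2 2 (hqQ q' hq')
  refine ⟨hqN, fun h2 => ?_⟩
  rw [hN] at h2
  have h3 : q ^ 2 ∣ N₀ := hcop.dvd_of_dvd_mul_right h2
  exact hq.not_isUnit (hN₀ q (by rwa [← pow_two]))

end Smin

/-! ### The binder `h𝒟` of `s59e_H3'`, for the flat problem of `s59q_inst_flat` -/

section HD

variable {p : ℕ} [Fact p.Prime] (M' : ℕ) [NeZero M'] [Fact (HasIntegralStructure M' 2)]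
  (S : Finset ℕ)
  {𝒪 : Type} [CommRing 𝒪] [IsDomain 𝒪] [IsDiscreteValuationRing 𝒪]
  [IsAdicComplete (maximalIdeal 𝒪) 𝒪] [Finite (ResidueField 𝒪)] [CharZero 𝒪]

/-- **`h𝒟` for the flat problem**: every Hecke–Galois datum over the full local Hecke algebra of
level `M' = N₀ ∏_{q ∈ Q} q²` (prime to `p`, `N₀` squarefree) lifting `ρbar` is of type
"flat at `p`, unramified outside `Sg`, unipotent at `Smin ∖ {p}`" — VERBATIM the deformation problem
of `s59q_inst_flat` / `s59q_exists_DQ_flat_TW` (with `Sg := Smin ∪ (Bd ∪ Ed) ∪ image qv`). -/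
theorem s59e_hD_flat (hp2 : p ≠ 2) (hp𝒪 : (p : 𝒪) ∈ maximalIdeal 𝒪) (hpM' : ¬ p ∣ M')
    (hpS : p ∈ S) (hS : ∀ q : ℕ, q.Prime → q ∣ M' → q ∈ S)
    (ρbar : ResidualGaloisRep (ResidueField 𝒪))
    (N₀ : ℕ) (Q : Finset ℕ) (hM' : M' = N₀ * ∏ q ∈ Q, q ^ 2) (hN₀ : Squarefree N₀)
    (hQ : ∀ q ∈ Q, q.Prime ∧ ρbar.IsUnramifiedAt q)
    (Sg Smin : Finset ℕ) (hpSg : p ∈ Sg) (hSg : ∀ q : ℕ, q.Prime → q ∣ M' → q ∈ Sg)
    (hmin : ∀ q : ℕ, q.Prime → q ≠ p → (q ∈ Smin ↔ ¬ ρbar.IsUnramifiedAt q)) :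
    ∀ (θ : heckeAlgebra M' 2 (↑S : Set ℕ) →+* ResidueField 𝒪)
      (Hd : HeckeGaloisRepDatum M' (↑S : Set ℕ) 𝒪 θ (heckeLocal M' (↑S : Set ℕ) 𝒪 θ)),
      Hd.ρ.residual.IsEquiv (ρbar.baseChangeAlong
        (ResidueField.map (algebraMap 𝒪 (heckeLocal M' (↑S : Set ℕ) 𝒪 θ)))) →
      GaloisRep.flatCondition 𝒪 p Sg Hd.ρ ∧
        ∀ q ∈ Smin, q.Prime → q ≠ p → Hd.ρ.IsUnipotentOnInertiaAt q :=
  fun _ Hd hres => s59e_hecke_flatType Hd hp2 hp𝒪 hpM' hpS hS Sg Smin hpSg hSg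
    (s59e_Smin_exact Hd hp𝒪 hpS hS ρbar hres N₀ Q hM' hN₀ hQ Smin hmin)

end HD

end Fermat.Agent.Lib.S59
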