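/-
S59 (helper5, prefix `s59e_`), node B7, file 1: **the local algebra at the framed primes `q ∈ B`**
(`q ≡ 1 mod p`, `ρ̄` unramified at `q`), Mathlib only.

For `2 × 2` matrices `Σ` (image of a generator of tame inertia) and `Φ` (image of a Frobenius lift)
over a commutative ring with the tame relation `Φ Σ = Σ^q Φ` and `det Σ = 1`:

* `s59e_type1_of_trace` : `tr Σ = 2` ⇒ `(Σ − 1)² = 0` and `Φ (Σ − 1) = q • (Σ − 1) Φ` (type `1`);
* `s59e_chi_dichotomy`  : over a local DOMAIN `D` (an `𝒪`-algebra, `𝒪 → D` injective, `p ∈ 𝔪_D`, `p` odd),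
  `Σ ≡ 1 mod 𝔪_D`, `q − 1 = p^v c`, `p ∤ c`, `v ≥ 1`, `ζ ∈ 𝒪` a primitive `p^v`-th root of unity:
  `tr Σ = 2` or `tr Σ = ζ^i + ζ^{-i}` for some `0 < i < p^v` (type `χ`);
* `s59e_comm_of_chi`    : in the second case `Φ Σ = Σ Φ`.

Tools: Dickson polynomials `D_k` (`tr Σ^k = D_k(tr Σ)` when `det Σ = 1`, `D_k(2 + x) = 2 + k² x + x²(…)`,
`D_k(b + b⁻¹) = b^k + b^{-k}`), and an eigenvalue of `Σ` in an algebraic closure of `Frac D`.
-/
import Mathlib

set_option autoImplicit false
set_option linter.unusedSectionVars false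
set_option linter.unusedVariables false

noncomputable section

namespace Fermat.Agent.Lib.S59

open IsLocalRing

/-! ### Dickson polynomials -/

section Dickson

variable {C : Type*} [CommRing C]

/-- the pairs `(D_k(t), D_{k+1}(t))`: `D_0 = 2`, `D_1 = t`, `D_{k+2} = t D_{k+1} − D_k`. -/
def s59e_dick (t : C) : ℕ → C × C
  | 0 => (2, t)
  | k + 1 => ((s59e_dick t k).2, t * (s59e_dick t k).2 - (s59e_dick t k).1)

theorem s59e_dick_map {C' : Type*} [CommRing C'] (f : C →+* C') (t : C) (k : ℕ) :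
    (s59e_dick (f t) k).1 = f (s59e_dick t k).1 ∧ (s59e_dick (f t) k).2 = f (s59e_dick t k).2 := by
  induction k with
  | zero => exact ⟨by simp only [s59e_dick]; exact (map_ofNat f 2).symm, by simp [s59e_dick]⟩
  | succ k ih =>
    obtain ⟨h1, h2⟩ := ih
    refine ⟨by simp only [s59e_dick]; exact h2, ?_⟩
    simp only [s59e_dick]
    rw [h1, h2, map_sub, map_mul]

/-- Cayley–Hamilton for `2 × 2` matrices. -/
theorem s59e_cayley2 (A : Matrix (Fin 2) (Fin 2) C) :
    A * A = A.trace • A - A.det • (1 : Matrix (Fin 2) (Fin 2) C) := by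
  ext i j
  fin_cases i <;> fin_cases j <;>
    simp [Matrix.mul_apply, Fin.sum_univ_two, Matrix.trace_fin_two, Matrix.det_fin_two] <;> ring

/-- `tr Σ^k = D_k(tr Σ)` for `det Σ = 1`. -/
theorem s59e_trace_pow_dick (A : Matrix (Fin 2) (Fin 2) C) (t : C) (htr : A.trace = t)
    (hdet : A.det = 1) (k : ℕ) :
    (A ^ k).trace = (s59e_dick t k).1 ∧ (A ^ (k + 1)).trace = (s59e_dick t k).2 := by
  induction k with
  | zero =>
    refine ⟨?_, ?_⟩
    · simp [s59e_dick]
    · simpa [s59e_dick] using htr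
  | succ k ih =>
    obtain ⟨ih1, ih2⟩ := ih
    refine ⟨ih2, ?_⟩
    have hc := s59e_cayley2 A
    rw [htr, hdet, one_smul] at hc
    have e : A ^ (k + 1 + 1) = t • A ^ (k + 1) - A ^ k := by
      rw [pow_succ, pow_succ, mul_assoc, hc, mul_sub, Matrix.mul_smul, mul_one, ← pow_succ]
    rw [e, Matrix.trace_sub, Matrix.trace_smul, ih1, ih2]
    simp [s59e_dick]

/-- `D_k(2 + x) = 2 + k² x + x² e`. -/
theorem s59e_dick_expand (x : C) (k : ℕ) :
    ∃ e e' : C, (s59e_dick (2 + x) k).1 = 2 + (k : C) ^ 2 * x + x ^ 2 * e ∧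
      (s59e_dick (2 + x) k).2 = 2 + ((k : C) + 1) ^ 2 * x + x ^ 2 * e' := by
  induction k with
  | zero => exact ⟨0, 0, by simp [s59e_dick], by simp [s59e_dick]⟩
  | succ k ih =>
    obtain ⟨e, e', h1, h2⟩ := ih
    refine ⟨e', 2 * e' + ((k : C) + 1) ^ 2 + x * e' - e, ?_, ?_⟩
    · simp only [s59e_dick]
      rw [h2]
      push_cast
      ring
    · simp only [s59e_dick]
      rw [h1, h2]
      push_cast
      ring

/-- `D_k(b + b') = b^k + b'^k` when `b b' = 1`. -/
theorem s59e_dick_add_inv (b b' : C) (hb : b * b' = 1) (k : ℕ) :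
    (s59e_dick (b + b') k).1 = b ^ k + b' ^ k ∧
      (s59e_dick (b + b') k).2 = b ^ (k + 1) + b' ^ (k + 1) := by
  induction k with
  | zero => exact ⟨by simp [s59e_dick]; norm_num, by simp [s59e_dick]⟩
  | succ k ih =>
    obtain ⟨h1, h2⟩ := ih
    refine ⟨by simp only [s59e_dick]; exact h2, ?_⟩
    simp only [s59e_dick]
    rw [h1, h2]
    have e1 : b * b' ^ (k + 1) = b' ^ k := by linear_combination (b' ^ k) * hb
    have e2 : b' * b ^ (k + 1) = b ^ k := by linear_combination (b ^ k) * hb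
    calc (b + b') * (b ^ (k + 1) + b' ^ (k + 1)) - (b ^ k + b' ^ k)
        = b ^ (k + 1 + 1) + b' ^ (k + 1 + 1) + (b * b' ^ (k + 1) - b' ^ k) +
            (b' * b ^ (k + 1) - b ^ k) := by ring
      _ = b ^ (k + 1 + 1) + b' ^ (k + 1 + 1) := by rw [e1, e2]; ring

end Dickson

/-! ### Type `1` -/

section TypeOne

variable {C : Type*} [CommRing C]

/-- `(Σ − 1)² = 0` ⇒ `Σ^k = 1 + k (Σ − 1)`. -/
theorem s59e_unip_pow (A : Matrix (Fin 2) (Fin 2) C) (h1 : (A - 1) * (A - 1) = 0) (k : ℕ) :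
    A ^ k = 1 + (k : C) • (A - 1) := by
  obtain ⟨N, rfl⟩ : ∃ N, A = 1 + N := ⟨A - 1, by abel⟩
  rw [add_sub_cancel_left] at h1 ⊢
  induction k with
  | zero => simp
  | succ k ih =>
    rw [pow_succ, ih, add_mul, mul_add, mul_add, one_mul, mul_one, one_mul, Matrix.smul_mul, h1,
      smul_zero, add_zero]
    push_cast
    rw [add_smul, one_smul]
    abel

/-- **type `1`**: `tr Σ = 2`, `det Σ = 1`, `Φ Σ = Σ^q Φ` ⇒ `(Σ − 1)² = 0`, `Φ (Σ − 1) = q (Σ − 1) Φ`. -/
theorem s59e_type1_of_trace (A Φ : Matrix (Fin 2) (Fin 2) C) (q : ℕ) (ht : Φ * A = A ^ q * Φ)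
    (htr : A.trace = 2) (hdet : A.det = 1) :
    (A - 1) * (A - 1) = 0 ∧ Φ * (A - 1) = (q : C) • ((A - 1) * Φ) := by
  have hc := s59e_cayley2 A
  rw [htr, hdet, one_smul] at hc
  have h1 : (A - 1) * (A - 1) = 0 := by
    have e : (A - 1) * (A - 1) = A * A - (2 : C) • A + 1 := by
      rw [sub_mul, mul_sub, mul_one, one_mul, two_smul]
      abel
    rw [e, hc]
    abel
  refine ⟨h1, ?_⟩
  rw [s59e_unip_pow A h1 q, add_mul, one_mul, Matrix.smul_mul] at ht
  have e : Φ * (A - 1) = Φ * A - Φ := by rw [mul_sub, mul_one]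
  rw [e, ht]
  abel

end TypeOne

/-! ### Type `χ` -/

section TypeChi

/-- in a local ring: `x ∈ 𝔪`, `u` a unit, `x (u + x c) = 0` ⇒ `x = 0`. -/
theorem s59e_eq_zero_of_mul_unit_add {T : Type*} [CommRing T] [IsLocalRing T] (x u c : T)
    (hx : x ∈ maximalIdeal T) (hu : IsUnit u) (h : x * (u + x * c) = 0) : x = 0 := by
  have hunit : IsUnit (u + x * c) := by
    by_contra hn
    have h1 : u + x * c ∈ maximalIdeal T := hn
    have h2 : u ∈ maximalIdeal T := by
      have := Ideal.sub_mem _ h1 (Ideal.mul_mem_right c _ hx)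
      rwa [add_sub_cancel_right] at this
    exact h2 hu
  exact hunit.mul_left_eq_zero.mp h

/-- powers of a matrix `≡ 1 mod I` are `≡ 1 mod I`. -/
theorem s59e_pow_sub_one_mem {T : Type*} [CommRing T] (I : Ideal T)
    (A : Matrix (Fin 2) (Fin 2) T) (hres : ∀ i j, (A - 1) i j ∈ I) (k : ℕ) :
    ∀ i j, (A ^ k - 1) i j ∈ I := by
  have hmap : A.map (Ideal.Quotient.mk I) = 1 := by
    ext i j
    have := hres i j
    rw [Matrix.sub_apply, ← Ideal.Quotient.eq] at this
    rw [Matrix.map_apply, this, Matrix.one_apply, Matrix.one_apply]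
    split_ifs <;> simp
  have hk : (A ^ k).map (Ideal.Quotient.mk I) = 1 := by
    have := (Ideal.Quotient.mk I).mapMatrix.map_pow A k
    rw [RingHom.mapMatrix_apply, RingHom.mapMatrix_apply, hmap, one_pow] at this
    exact this
  intro i j
  rw [Matrix.sub_apply, ← Ideal.Quotient.eq]
  have := congrFun (congrFun hk i) j
  rw [Matrix.map_apply] at this
  rw [this, Matrix.one_apply, Matrix.one_apply]
  split_ifs <;> simp

/-- a natural number prime to `p` is a unit in a local ring with `p ∈ 𝔪`. -/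
theorem s59e_isUnit_natCast_of_coprime {T : Type*} [CommRing T] [IsLocalRing T] {p : ℕ}
    (hpT : (p : T) ∈ maximalIdeal T) {n : ℕ} (hn : Nat.Coprime n p) : IsUnit (n : T) := by
  by_contra hnu
  have h1 : (n : T) ∈ maximalIdeal T := hnu
  have h2 : ((Nat.gcd n p : ℕ) : T) ∈ maximalIdeal T := by
    have h3 : (((Nat.gcd n p : ℕ) : ℤ) : T) ∈ maximalIdeal T := by
      rw [Nat.gcd_eq_gcd_ab n p]
      push_cast
      exact Ideal.add_mem _ (Ideal.mul_mem_right _ _ h1) (Ideal.mul_mem_right _ _ hpT)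
    simpa using h3
  rw [hn, Nat.cast_one] at h2
  exact (Ideal.ne_top_iff_one _).mp (maximalIdeal.isMaximal T).ne_top h2

variable {𝒪 D : Type*} [CommRing 𝒪] [CommRing D] [IsDomain D] [IsLocalRing D] [Algebra 𝒪 D]

/-- **the type `χ` dichotomy.** -/
theorem s59e_chi_dichotomy (hinj : Function.Injective (algebraMap 𝒪 D))
    {p : ℕ} (hp : p.Prime) (hp2 : p ≠ 2) (hpD : (p : D) ∈ maximalIdeal D)
    {q v c : ℕ} (hv : 0 < v) (hq : q = p ^ v * c + 1) (hc : ¬ p ∣ c)
    (ζ : 𝒪) (hζ : IsPrimitiveRoot ζ (p ^ v))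
    (A Φ Φ' : Matrix (Fin 2) (Fin 2) D) (hΦ : Φ' * Φ = 1) (ht : Φ * A = A ^ q * Φ)
    (hres : ∀ i j, (A - 1) i j ∈ maximalIdeal D) (hdet : A.det = 1) :
    A.trace = 2 ∨ ∃ i : ℕ, 0 < i ∧ i < p ^ v ∧
      A.trace = algebraMap 𝒪 D (ζ ^ i) + algebraMap 𝒪 D (ζ ^ (p ^ v - i)) := by
  classical
  set K := AlgebraicClosure (FractionRing D) with hK
  set ι : D →+* K := (algebraMap (FractionRing D) K).comp (algebraMap D (FractionRing D)) with hι
  have hιinj : Function.Injective ι :=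
    (algebraMap (FractionRing D) K).injective.comp (IsFractionRing.injective D (FractionRing D))
  set t := A.trace with ht'
  -- an eigenvalue
  obtain ⟨b, hb⟩ : ∃ b : K, b * b - ι t * b + 1 = 0 := by
    have hdeg : (Polynomial.X ^ 2 - Polynomial.C (ι t) * Polynomial.X + 1 : Polynomial K).degree
        ≠ 0 := by
      have : (Polynomial.X ^ 2 - Polynomial.C (ι t) * Polynomial.X + 1 : Polynomial K).degree
          = 2 := by
        compute_degree!
      rw [this]
      norm_num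
    obtain ⟨b, hb⟩ := IsAlgClosed.exists_root _ hdeg
    refine ⟨b, ?_⟩
    simp only [Polynomial.IsRoot.def, Polynomial.eval_add, Polynomial.eval_sub, Polynomial.eval_pow,
      Polynomial.eval_X, Polynomial.eval_mul, Polynomial.eval_C, Polynomial.eval_one] at hb
    linear_combination hb
  set b' := ι t - b with hb'
  have hbb' : b * b' = 1 := by rw [hb']; linear_combination -hb
  have hsum : b + b' = ι t := by rw [hb']; ring
  have hb0 : b ≠ 0 := fun h => by rw [h, zero_mul] at hbb'; exact zero_ne_one hbb'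
  -- traces of powers
  have htrk : ∀ k : ℕ, ι ((A ^ k).trace) = b ^ k + b' ^ k := by
    intro k
    rw [(s59e_trace_pow_dick A t rfl hdet k).1, ← (s59e_dick_map ι t k).1, ← hsum]
    exact (s59e_dick_add_inv b b' hbb' k).1
  -- the tame relation on traces
  have hΦ2 : Φ * Φ' = 1 := mul_eq_one_comm.mp hΦ
  have hconj : A ^ q = Φ * A * Φ' := by rw [ht, mul_assoc, hΦ2, mul_one]
  have htq : (A ^ q).trace = A.trace := by
    rw [hconj, Matrix.trace_mul_comm, ← mul_assoc, hΦ, one_mul]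
  have hbq : b ^ q + b' ^ q = b + b' := by
    rw [← htrk q, htq, hsum]
  have hq1 : 1 ≤ q := by rw [hq]; omega
  have hprod : (b ^ (q - 1) - 1) * (b ^ (q + 1) - 1) = 0 := by
    have e1 : b ^ q * b' ^ q = 1 := by rw [← mul_pow, hbb', one_pow]
    have e2 : b ^ q * b' = b ^ (q - 1) := by
      obtain ⟨n, rfl⟩ : ∃ n, q = n + 1 := ⟨q - 1, by omega⟩
      rw [Nat.add_sub_cancel, pow_succ, mul_assoc, hbb', mul_one]
    have e3 : b ^ q * (b ^ q + b' ^ q - b - b') = (b ^ (q - 1) - 1) * (b ^ (q + 1) - 1) := by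
      have e4 : b ^ (q - 1) * b ^ (q + 1) = b ^ q * b ^ q := by
        rw [← pow_add, ← pow_add]
        congr 1
        omega
      calc b ^ q * (b ^ q + b' ^ q - b - b')
          = b ^ q * b ^ q + b ^ q * b' ^ q - b ^ q * b - b ^ q * b' := by ring
        _ = b ^ q * b ^ q + 1 - b ^ (q + 1) - b ^ (q - 1) := by rw [e1, e2, ← pow_succ]
        _ = (b ^ (q - 1) - 1) * (b ^ (q + 1) - 1) := by rw [← e4]; ring
    rw [← e3, hbq]
    ring
  -- `b ^ (p^v * n') = 1` with `n' = c (q+1)` prime to `p`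
  set n' := c * (q + 1) with hn'
  have hbig : b ^ (p ^ v * n') = 1 := by
    have e : p ^ v * n' = (q - 1) * (q + 1) := by
      rw [hn', ← mul_assoc]
      congr 1
      rw [hq]
      simp
    rw [e]
    rcases mul_eq_zero.mp hprod with h | h
    · rw [pow_mul, sub_eq_zero.mp h, one_pow]
    · rw [mul_comm, pow_mul, sub_eq_zero.mp h, one_pow]
  have hcop : Nat.Coprime n' p := by
    rw [hn']
    refine Nat.Coprime.mul_left ?_ ?_
    · exact (Nat.Coprime.symm ((Nat.Prime.coprime_iff_not_dvd hp).mpr hc))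
    · refine Nat.Coprime.symm ((Nat.Prime.coprime_iff_not_dvd hp).mpr fun hd => ?_)
      have h1 : p ∣ p ^ v * c := Dvd.dvd.mul_right (dvd_pow_self p hv.ne') c
      have h2 : p ∣ 2 := by
        have h3 : q + 1 = p ^ v * c + 2 := by rw [hq]
        rw [h3] at hd
        exact (Nat.dvd_add_right h1).mp hd
      have h4 := (Nat.prime_dvd_prime_iff_eq hp Nat.prime_two).mp h2
      exact hp2 h4
  -- `B := A ^ (p^v)` has trace `2`
  set B := A ^ (p ^ v) with hB
  have hBdet : B.det = 1 := by rw [hB, Matrix.det_pow, hdet, one_pow]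
  have hBres : ∀ i j, (B - 1) i j ∈ maximalIdeal D :=
    s59e_pow_sub_one_mem (maximalIdeal D) A hres (p ^ v)
  have hBtr : (B ^ n').trace = 2 := by
    apply hιinj
    rw [hB, ← pow_mul, htrk, hbig]
    have : b' ^ (p ^ v * n') = 1 := by
      have h1 : b ^ (p ^ v * n') * b' ^ (p ^ v * n') = 1 := by rw [← mul_pow, hbb', one_pow]
      rw [hbig, one_mul] at h1
      exact h1
    rw [this, map_ofNat]
    norm_num
  have hB2 : B.trace = 2 := by
    set y := B.trace - 2 with hy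
    have hym : y ∈ maximalIdeal D := by
      have e : y = (B - 1) 0 0 + (B - 1) 1 1 := by
        rw [hy, Matrix.trace_fin_two]
        simp
        ring
      rw [e]
      exact Ideal.add_mem _ (hBres 0 0) (hBres 1 1)
    have hty : B.trace = 2 + y := by rw [hy]; ring
    obtain ⟨e, -, he, -⟩ := s59e_dick_expand y n'
    have h1 := hBtr
    rw [(s59e_trace_pow_dick B (2 + y) hty hBdet n').1, he] at h1
    have h2 : y * ((n' : D) ^ 2 + y * e) = 0 := by linear_combination h1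
    have hu : IsUnit ((n' : D) ^ 2) := (s59e_isUnit_natCast_of_coprime hpD hcop).pow 2
    have hy0 := s59e_eq_zero_of_mul_unit_add y _ e hym hu h2
    rw [hty, hy0, add_zero]
  -- `b ^ (p^v) = 1`
  have hbpv : b ^ (p ^ v) = 1 := by
    have h1 : b ^ (p ^ v) + b' ^ (p ^ v) = 2 := by
      rw [← htrk, ← hB, hB2, map_ofNat]
    have h2 : b ^ (p ^ v) * b' ^ (p ^ v) = 1 := by rw [← mul_pow, hbb', one_pow]
    have h3 : (b ^ (p ^ v) - 1) ^ 2 = 0 := by
      have : (b ^ (p ^ v) - 1) ^ 2 = b ^ (p ^ v) * (b ^ (p ^ v) + b' ^ (p ^ v) - 2) +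
          (1 - b ^ (p ^ v) * b' ^ (p ^ v)) := by ring
      rw [this, h1, h2]
      ring
    exact sub_eq_zero.mp (pow_eq_zero_iff two_ne_zero |>.mp h3)
  -- `b` is a power of `ζ`
  set z : K := ι (algebraMap 𝒪 D ζ) with hz
  have hzprim : IsPrimitiveRoot z (p ^ v) := by
    have h1 := hζ.map_of_injective (f := (ι.comp (algebraMap 𝒪 D))) (hιinj.comp hinj)
    exact h1
  have : NeZero (p ^ v) := ⟨pow_ne_zero v hp.ne_zero⟩
  obtain ⟨i, hi, hzi⟩ := hzprim.eq_pow_of_pow_eq_one hbpv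
  rcases Nat.eq_zero_or_pos i with h0 | hipos
  · left
    rw [h0, pow_zero] at hzi
    have hb1 : b = 1 := hzi.symm
    have hb'1 : b' = 1 := by rw [hb1, one_mul] at hbb'; exact hbb'
    apply hιinj
    rw [← hsum, hb1, hb'1, map_ofNat]
    norm_num
  · right
    refine ⟨i, hipos, hi, ?_⟩
    apply hιinj
    have hb'z : b' = z ^ (p ^ v - i) := by
      have h1 : b * z ^ (p ^ v - i) = 1 := by
        rw [← hzi, ← pow_add, Nat.add_sub_cancel' hi.le, hzprim.pow_eq_one]
      have h2 : b * b' = b * z ^ (p ^ v - i) := by rw [hbb', h1]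
      exact mul_left_cancel₀ hb0 h2
    rw [← hsum, map_add, map_pow, map_pow, map_pow, map_pow, ← hz, hzi, hb'z]

/-- **type `χ` ⇒ commuting**: `tr Σ = β + β'`, `β β' = 1`, `β^q = β`, `β ≠ β'` in a domain, `det Σ = 1`,
`Φ Σ = Σ^q Φ` ⇒ `Φ Σ = Σ Φ`. -/
theorem s59e_comm_of_chi (A Φ : Matrix (Fin 2) (Fin 2) D) (β β' : D) (hβ : β * β' = 1) (q : ℕ)
    (hq : β ^ q = β) (hne : β ≠ β') (htr : A.trace = β + β') (hdet : A.det = 1)
    (ht : Φ * A = A ^ q * Φ) : Φ * A = A * Φ := by
  -- `(β − β') A^k = (β^k − β'^k) A − (β^{k-1}... )`; we prove `(β - β') • A^(k+1) = (β^(k+1) - β'^(k+1)) • A - (β^k - β'^k) • 1`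
  have hc := s59e_cayley2 A
  rw [htr, hdet, one_smul] at hc
  have key : ∀ k : ℕ, (β - β') • A ^ (k + 1) =
      (β ^ (k + 1) - β' ^ (k + 1)) • A - (β ^ k - β' ^ k) • (1 : Matrix (Fin 2) (Fin 2) D) ∧
      (β - β') • A ^ (k + 2) =
      (β ^ (k + 2) - β' ^ (k + 2)) • A - (β ^ (k + 1) - β' ^ (k + 1)) •
        (1 : Matrix (Fin 2) (Fin 2) D) := by
    intro k
    induction k with
    | zero =>
      refine ⟨by simp, ?_⟩
      rw [zero_add, pow_two, hc, smul_sub, smul_smul]
      have e1 : (β - β') * (β + β') = β ^ 2 - β' ^ 2 := by ring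
      rw [e1, pow_one, pow_one]
    | succ k ih =>
      obtain ⟨h1, h2⟩ := ih
      refine ⟨h2, ?_⟩
      have e : A ^ (k + 1 + 2) = (β + β') • A ^ (k + 2) - A ^ (k + 1) := by
        have : A ^ (k + 1 + 2) = A ^ (k + 1) * (A * A) := by rw [← pow_two, ← pow_add]
        rw [this, hc, mul_sub, Matrix.mul_smul, mul_one, ← pow_succ]
      rw [e, smul_sub, smul_comm, h2, h1, smul_sub, smul_smul, smul_smul]
      have c1 : (β + β') * (β ^ (k + 2) - β' ^ (k + 2)) - (β ^ (k + 1) - β' ^ (k + 1)) =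
          β ^ (k + 1 + 2) - β' ^ (k + 1 + 2) := by
        linear_combination (β ^ (k + 1) - β' ^ (k + 1)) * hβ
      have c2 : (β + β') * (β ^ (k + 1) - β' ^ (k + 1)) - (β ^ k - β' ^ k) =
          β ^ (k + 1 + 1) - β' ^ (k + 1 + 1) := by
        linear_combination (β ^ k - β' ^ k) * hβ
      rw [← c1, ← c2]
      module
  have hq' : β' ^ q = β' := by
    have h1 : β ^ q * β' ^ q = 1 := by rw [← mul_pow, hβ, one_pow]
    rw [hq] at h1
    have hβ0 : β ≠ 0 := fun h => by rw [h, zero_mul] at hβ; exact zero_ne_one hβ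
    have : β * β' ^ q = β * β' := by rw [h1, hβ]
    exact mul_left_cancel₀ hβ0 this
  have hne' : β - β' ≠ 0 := sub_ne_zero.mpr hne
  have hAq : A ^ q = A := by
    rcases Nat.eq_zero_or_pos q with h0 | hpos
    · exfalso
      rw [h0, pow_zero] at hq hq'
      exact hne (hq.symm.trans hq')
    · obtain ⟨k, rfl⟩ : ∃ k, q = k + 1 := ⟨q - 1, by omega⟩
      have h1 := (key k).1
      rw [hq, hq'] at h1
      have h2 : β ^ k - β' ^ k = 0 := by
        -- `β^k = 1 = β'^k`
        have hβ0 : β ≠ 0 := fun h => by rw [h, zero_mul] at hβ; exact zero_ne_one hβ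
        have hβ'0 : β' ≠ 0 := fun h => by rw [h, mul_zero] at hβ; exact zero_ne_one hβ
        have a1 : β ^ k = 1 := by
          have : β ^ k * β = 1 * β := by rw [← pow_succ, hq, one_mul]
          exact mul_right_cancel₀ hβ0 this
        have a2 : β' ^ k = 1 := by
          have : β' ^ k * β' = 1 * β' := by rw [← pow_succ, hq', one_mul]
          exact mul_right_cancel₀ hβ'0 this
        rw [a1, a2, sub_self]
      rw [h2, zero_smul, sub_zero] at h1
      ext i j
      have := congrFun (congrFun h1 i) j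
      simp only [Matrix.smul_apply, smul_eq_mul] at this
      exact mul_left_cancel₀ hne' this
  rw [ht, hAq]

end TypeChi

end Fermat.Agent.Lib.S59
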