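/-
Programme R (S59), node (E) (helper5, prefix `s59e_`): BASE CHANGE OF THE STRICT-ORDINARY
CONDITION.  `s59e_bc_strictOrd`: `IsStrictOrdinaryAt` passes along `GaloisRepAdic.baseChangeAlong`
(line `L ↦ A ∙ (1 ⊗ b 0)`, characters `x, z ↦ φ x, φ z`).
-/
import Fermat.Agent.Lib.S59.ETWRes
import Fermat.Prelude.Def_GaloisRep_StrictOrdinary

set_option autoImplicit false
set_option linter.style.haveILetI false

namespace Fermat.Agent.Lib.S59

open IsLocalRing TensorProduct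

local notation "Qbar" => AlgebraicClosure ℚ
local notation "GQ" => (AlgebraicClosure ℚ ≃ₐ[ℚ] AlgebraicClosure ℚ)

section

variable {A₀ A : Type} [CommRing A₀] [CommRing A] [Algebra A₀ A]
  {V : Type} [AddCommGroup V] [Module A₀ V]

/-- tensors with an element of the line `A₀ ∙ v₀` lie in the line `A ∙ (1 ⊗ v₀)`. -/
theorem s59e_tmul_mem_span (v₀ : V) (a : A) {m : V} (hm : m ∈ Submodule.span A₀ {v₀}) :
    a ⊗ₜ[A₀] m ∈ Submodule.span A {(1 : A) ⊗ₜ[A₀] v₀} := by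
  obtain ⟨y, rfl⟩ := Submodule.mem_span_singleton.mp hm
  rw [Submodule.mem_span_singleton]
  refine ⟨a * algebraMap A₀ A y, ?_⟩
  rw [mul_smul, algebraMap_smul, ← TensorProduct.tmul_smul, TensorProduct.smul_tmul',
    smul_eq_mul, mul_one]

/-- an endomorphism `f` with `f v - z v ∈ A₀ ∙ v₀` for all `v`: the same after base change. -/
theorem s59e_baseChange_sub_mem (v₀ : V) (f : Module.End A₀ V) (z : A₀)
    (h : ∀ v : V, f v - z • v ∈ Submodule.span A₀ {v₀}) (w : A ⊗[A₀] V) :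
    f.baseChange A w - algebraMap A₀ A z • w ∈ Submodule.span A {(1 : A) ⊗ₜ[A₀] v₀} := by
  induction w using TensorProduct.induction_on with
  | zero =>
    rw [map_zero, smul_zero, sub_zero]
    exact Submodule.zero_mem _
  | tmul a v =>
    have h1 : f.baseChange A (a ⊗ₜ[A₀] v) - algebraMap A₀ A z • (a ⊗ₜ[A₀] v) =
        a ⊗ₜ[A₀] (f v - z • v) := by
      rw [LinearMap.baseChange_tmul, TensorProduct.tmul_sub, TensorProduct.tmul_smul,
        algebraMap_smul]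
    rw [h1]
    exact s59e_tmul_mem_span v₀ a (h v)
  | add x y hx hy =>
    have : f.baseChange A (x + y) - algebraMap A₀ A z • (x + y) =
        (f.baseChange A x - algebraMap A₀ A z • x) + (f.baseChange A y - algebraMap A₀ A z • y) := by
      rw [map_add, smul_add]; abel
    rw [this]
    exact Submodule.add_mem _ hx hy

/-- an endomorphism acting by `x` on `A₀ ∙ v₀`: the same after base change. -/
theorem s59e_baseChange_smul_line (v₀ : V) (f : Module.End A₀ V) (x : A₀)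
    (h : ∀ w ∈ Submodule.span A₀ {v₀}, f w = x • w) (w : A ⊗[A₀] V)
    (hw : w ∈ Submodule.span A {(1 : A) ⊗ₜ[A₀] v₀}) :
    f.baseChange A w = algebraMap A₀ A x • w := by
  obtain ⟨c, rfl⟩ := Submodule.mem_span_singleton.mp hw
  rw [map_smul, LinearMap.baseChange_tmul, h v₀ (Submodule.mem_span_singleton_self v₀),
    TensorProduct.tmul_smul, algebraMap_smul, smul_comm]

end

/-- **`IsStrictOrdinaryAt` passes to base changes.** -/
theorem s59e_bc_strictOrd {A₀ A : Type} [CommRing A₀] [IsLocalRing A₀] [CommRing A]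
    [IsLocalRing A] (φ : A₀ →+* A) (hφ : IsLocalHom φ) (ρ₀ : GaloisRepAdic A₀) (p : ℕ)
    (h : ρ₀.IsStrictOrdinaryAt p) : (ρ₀.baseChangeAlong φ hφ).IsStrictOrdinaryAt p := by
  letI : Algebra A₀ A := φ.toAlgebra
  refine ⟨s59e_bc_p_mem φ hφ p h.1, fun P hP => ?_⟩
  obtain ⟨L, ⟨b, hLb⟩, hD, hI, hchar⟩ := h.2 P hP
  let b' : Module.Basis (Fin 2) A (A ⊗[A₀] ρ₀.V) := Algebra.TensorProduct.basis A b
  have hb'0 : b' 0 = (1 : A) ⊗ₜ[A₀] b 0 := Algebra.TensorProduct.basis_apply b 0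
  have hspan : Submodule.span A {(1 : A) ⊗ₜ[A₀] b 0} = Submodule.span A {b' 0} := by rw [hb'0]
  have hDst : ∀ σ ∈ P.decompositionSubgroup ℚ, ∀ v ∈ Submodule.span A {(1 : A) ⊗ₜ[A₀] b 0},
      (ρ₀.ρ σ).baseChange A v ∈ Submodule.span A {(1 : A) ⊗ₜ[A₀] b 0} := by
    intro σ hσ v hv
    obtain ⟨x, z, hx, -, -⟩ := hchar σ hσ
    rw [s59e_baseChange_smul_line (A := A) (b 0) (ρ₀.ρ σ) x (by rw [← hLb]; exact hx) v hv]
    exact Submodule.smul_mem _ _ hv
  have hIn : ∀ σ ∈ P.inertiaSubgroupIn ℚ, ∀ v : A ⊗[A₀] ρ₀.V,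
      (ρ₀.ρ σ).baseChange A v - v ∈ Submodule.span A {(1 : A) ⊗ₜ[A₀] b 0} := by
    intro σ hσ v
    have h1 := s59e_baseChange_sub_mem (A := A) (b 0) (ρ₀.ρ σ) 1
      (fun v => by rw [one_smul, ← hLb]; exact hI σ hσ v) v
    rwa [map_one, one_smul] at h1
  have hCh : ∀ σ ∈ P.decompositionSubgroup ℚ, ∃ x z : A,
      (∀ w ∈ Submodule.span A {(1 : A) ⊗ₜ[A₀] b 0}, (ρ₀.ρ σ).baseChange A w = x • w) ∧
      (∀ v : A ⊗[A₀] ρ₀.V,
        (ρ₀.ρ σ).baseChange A v - z • v ∈ Submodule.span A {(1 : A) ⊗ₜ[A₀] b 0}) ∧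
      ∀ (n a : ℕ), (∀ μ : Qbar, μ ^ p ^ n = 1 → σ μ = μ ^ a) →
        x - (a : A) * z ∈ Ideal.span {((p ^ n : ℕ) : A)} := by
    intro σ hσ
    obtain ⟨x, z, hx, hz, hcong⟩ := hchar σ hσ
    refine ⟨φ x, φ z, ?_, ?_, ?_⟩
    · intro w hw
      exact s59e_baseChange_smul_line (A := A) (b 0) (ρ₀.ρ σ) x (by rw [← hLb]; exact hx) w hw
    · intro v
      exact s59e_baseChange_sub_mem (A := A) (b 0) (ρ₀.ρ σ) z
        (fun v => by rw [← hLb]; exact hz v) v
    · intro n a ha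
      have h1 := hcong n a ha
      rw [Ideal.mem_span_singleton] at h1 ⊢
      obtain ⟨y, hy⟩ := h1
      refine ⟨φ y, ?_⟩
      have := congrArg φ hy
      rw [map_sub, map_mul, map_natCast, map_mul, map_natCast] at this
      exact this
  exact ⟨Submodule.span A {(1 : A) ⊗ₜ[A₀] b 0}, ⟨b', hspan⟩, hDst, hIn, hCh⟩

end Fermat.Agent.Lib.S59
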