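/-
Programme R (S59), node (H3) (helper5, prefix `s59e_`), file 1: TRANSPORT OF THE LOCAL CONDITIONS
ALONG A SURJECTIVE CHANGE OF COEFFICIENTS.

* `s59e_bc_ord`       : `IsOrdinaryAt` passes along `GaloisRepAdic.baseChangeAlong` (any local hom);
* `s59e_bc_flat_surj` : `IsFlatAt` passes along `baseChangeAlong φ` for `φ` SURJECTIVE
  (the finite quotients of the target are finite quotients of the source:
  `(A ⊗ V₀) ⧸ I ≃ V₀ ⧸ φ⁻¹(I)`, Galois-equivariantly).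
-/
import Fermat.Agent.Lib.S59.EOrdBC
import Fermat.Prelude.Def_GaloisRep_Flat

set_option autoImplicit false
set_option linter.style.haveILetI false

namespace Fermat.Agent.Lib.S59

open IsLocalRing TensorProduct

local notation "Qbar" => AlgebraicClosure ℚ
local notation "GQ" => (AlgebraicClosure ℚ ≃ₐ[ℚ] AlgebraicClosure ℚ)

/-- **`IsOrdinaryAt` passes to base changes.** -/
theorem s59e_bc_ord {A₀ A : Type} [CommRing A₀] [IsLocalRing A₀] [CommRing A]
    [IsLocalRing A] (φ : A₀ →+* A) (hφ : IsLocalHom φ) (ρ₀ : GaloisRepAdic A₀) (p : ℕ)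
    (h : ρ₀.IsOrdinaryAt p) : (ρ₀.baseChangeAlong φ hφ).IsOrdinaryAt p := by
  letI : Algebra A₀ A := φ.toAlgebra
  intro P hP
  obtain ⟨L, ⟨b, hLb⟩, hD, hI⟩ := h P hP
  let b' : Module.Basis (Fin 2) A (A ⊗[A₀] ρ₀.V) := Algebra.TensorProduct.basis A b
  have hb'0 : b' 0 = (1 : A) ⊗ₜ[A₀] b 0 := Algebra.TensorProduct.basis_apply b 0
  have hspan : Submodule.span A {(1 : A) ⊗ₜ[A₀] b 0} = Submodule.span A {b' 0} := by rw [hb'0]
  refine ⟨Submodule.span A {(1 : A) ⊗ₜ[A₀] b 0}, ⟨b', hspan⟩, ?_, ?_⟩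
  · intro σ hσ v hv
    obtain ⟨c, rfl⟩ := Submodule.mem_span_singleton.mp hv
    show (ρ₀.ρ σ).baseChange A (c • (1 : A) ⊗ₜ[A₀] b 0) ∈ _
    rw [map_smul, LinearMap.baseChange_tmul]
    refine Submodule.smul_mem _ _ (s59e_tmul_mem_span (b 0) 1 ?_)
    rw [← hLb]
    exact hD σ hσ (b 0) (by rw [hLb]; exact Submodule.mem_span_singleton_self _)
  · have hIn : ∀ σ ∈ P.inertiaSubgroupIn ℚ, ∀ v : A ⊗[A₀] ρ₀.V,
        (ρ₀.ρ σ).baseChange A v - v ∈ Submodule.span A {(1 : A) ⊗ₜ[A₀] b 0} := by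
      intro σ hσ v
      have h1 := s59e_baseChange_sub_mem (A := A) (b 0) (ρ₀.ρ σ) 1
        (fun v => by rw [one_smul, ← hLb]; exact hI σ hσ v) v
      rwa [map_one, one_smul] at h1
    exact hIn

section Alg

variable {R : Type*} [CommRing R] {M : Type*} [AddCommGroup M] [Module R M] {ι : Type*}

/-- membership in `I • ⊤` of a free module, in coordinates. -/
theorem s59e_mem_smul_top_iff_repr (I : Ideal R) (b : Module.Basis ι R M) (x : M) :
    x ∈ I • (⊤ : Submodule R M) ↔ ∀ i, b.repr x i ∈ I := by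
  rw [← b.span_eq, Submodule.mem_ideal_smul_span_iff_exists_sum]
  constructor
  · rintro ⟨a, ha, rfl⟩ i
    have h1 : (a.sum fun i c => c • b i) = Finsupp.linearCombination R b a :=
      (Finsupp.linearCombination_apply R a).symm
    rw [h1, b.repr_linearCombination]
    exact ha i
  · intro h
    refine ⟨b.repr x, h, ?_⟩
    rw [← Finsupp.linearCombination_apply, b.linearCombination_repr]

end Alg

section Cmp

variable {A₀ A : Type*} [CommRing A₀] [CommRing A] [Algebra A₀ A]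
  {V : Type*} [AddCommGroup V] [Module A₀ V]

/-- `v ↦ [1 ⊗ v]`. -/
noncomputable def s59e_cmp₀ (I : Ideal A) :
    V →ₗ[A₀] ((A ⊗[A₀] V) ⧸ (I • (⊤ : Submodule A (A ⊗[A₀] V)))) :=
  ((I • (⊤ : Submodule A (A ⊗[A₀] V))).mkQ.restrictScalars A₀).comp
    (TensorProduct.mk A₀ A V 1)

theorem s59e_cmp₀_apply (I : Ideal A) (v : V) :
    s59e_cmp₀ (A := A) I v = Submodule.Quotient.mk ((1 : A) ⊗ₜ[A₀] v) := rfl

theorem s59e_cmp₀_ker (I : Ideal A) :
    (I.comap (algebraMap A₀ A)) • (⊤ : Submodule A₀ V) ≤ LinearMap.ker (s59e_cmp₀ (V := V) I) := by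
  intro v hv
  rw [LinearMap.mem_ker]
  refine Submodule.smul_induction_on hv ?_ ?_
  · intro a ha w _
    rw [s59e_cmp₀_apply, Submodule.Quotient.mk_eq_zero, TensorProduct.tmul_smul,
      ← algebraMap_smul A a ((1 : A) ⊗ₜ[A₀] w)]
    exact Submodule.smul_mem_smul (Ideal.mem_comap.mp ha) Submodule.mem_top
  · intro x y hx hy
    rw [map_add, hx, hy, add_zero]

/-- the comparison map `V ⧸ φ⁻¹(I) V → (A ⊗ V) ⧸ I (A ⊗ V)`, `[v] ↦ [1 ⊗ v]`. -/
noncomputable def s59e_cmp (I : Ideal A) :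
    (V ⧸ ((I.comap (algebraMap A₀ A)) • (⊤ : Submodule A₀ V))) →ₗ[A₀]
      ((A ⊗[A₀] V) ⧸ (I • (⊤ : Submodule A (A ⊗[A₀] V)))) :=
  Submodule.liftQ _ (s59e_cmp₀ I) (s59e_cmp₀_ker I)

theorem s59e_cmp_mk (I : Ideal A) (v : V) :
    s59e_cmp (A := A) I (Submodule.Quotient.mk v) = Submodule.Quotient.mk ((1 : A) ⊗ₜ[A₀] v) :=
  rfl

theorem s59e_cmp_surjective (hsurj : Function.Surjective (algebraMap A₀ A)) (I : Ideal A) :
    Function.Surjective (s59e_cmp (A₀ := A₀) (V := V) I) := by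
  intro y
  obtain ⟨w, rfl⟩ := Submodule.Quotient.mk_surjective _ y
  induction w using TensorProduct.induction_on with
  | zero => exact ⟨0, by rw [map_zero, Submodule.Quotient.mk_zero]⟩
  | tmul a v =>
    obtain ⟨a₀, rfl⟩ := hsurj a
    refine ⟨Submodule.Quotient.mk (a₀ • v), ?_⟩
    rw [s59e_cmp_mk, TensorProduct.tmul_smul, TensorProduct.smul_tmul', Algebra.smul_def, mul_one]
  | add x y hx hy =>
    obtain ⟨x', hx'⟩ := hx
    obtain ⟨y', hy'⟩ := hy
    exact ⟨x' + y', by rw [map_add, hx', hy', Submodule.Quotient.mk_add]⟩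

theorem s59e_cmp_injective {ι : Type*} [Fintype ι] [DecidableEq ι] (b : Module.Basis ι A₀ V)
    (I : Ideal A) : Function.Injective (s59e_cmp (A₀ := A₀) (V := V) I) := by
  rw [injective_iff_map_eq_zero]
  intro x hx
  obtain ⟨v, rfl⟩ := Submodule.Quotient.mk_surjective _ x
  rw [s59e_cmp_mk, Submodule.Quotient.mk_eq_zero,
    s59e_mem_smul_top_iff_repr I (Algebra.TensorProduct.basis A b)] at hx
  rw [Submodule.Quotient.mk_eq_zero, s59e_mem_smul_top_iff_repr _ b]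
  intro i
  have h1 := hx i
  rw [Algebra.TensorProduct.basis_repr_tmul, one_smul] at h1
  exact Ideal.mem_comap.mpr h1

end Cmp

section Flat

variable {A₀ A : Type} [CommRing A₀] [IsLocalRing A₀] [CommRing A] [IsLocalRing A]
  (φ : A₀ →+* A) (hφ : IsLocalHom φ) (ρ₀ : GaloisRepAdic A₀)

/-- the level actions correspond under the comparison map. -/
theorem s59e_cmp_levelAction (I : Ideal A) (σ : GQ)
    (x : ρ₀.V ⧸ ((I.comap φ) • (⊤ : Submodule A₀ ρ₀.V))) :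
    letI : Algebra A₀ A := φ.toAlgebra
    (ρ₀.baseChangeAlong φ hφ).levelAction I σ (s59e_cmp (A₀ := A₀) (V := ρ₀.V) I x) =
      s59e_cmp (A₀ := A₀) (V := ρ₀.V) I (ρ₀.levelAction (I.comap φ) σ x) := by
  letI : Algebra A₀ A := φ.toAlgebra
  obtain ⟨v, rfl⟩ := Submodule.Quotient.mk_surjective _ x
  show Submodule.Quotient.mk ((ρ₀.ρ σ).baseChange A ((1 : A) ⊗ₜ[A₀] v)) =
    Submodule.Quotient.mk ((1 : A) ⊗ₜ[A₀] (ρ₀.ρ σ v))
  rw [LinearMap.baseChange_tmul]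

/-- **`IsFlatAt` passes along a surjective change of coefficients.** -/
theorem s59e_bc_flat_surj (hsurj : Function.Surjective φ) (p : ℕ) (h : ρ₀.IsFlatAt p) :
    (ρ₀.baseChangeAlong φ hφ).IsFlatAt p := by
  classical
  letI : Algebra A₀ A := φ.toAlgebra
  haveI := hφ
  obtain ⟨hfin, hI⟩ := h
  refine ⟨?_, fun I hIfin => ?_⟩
  · haveI := hfin
    refine Finite.of_surjective (ResidueField.map φ) ?_
    intro y
    obtain ⟨a, rfl⟩ := residue_surjective y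
    obtain ⟨a₀, rfl⟩ := hsurj a
    exact ⟨residue A₀ a₀, rfl⟩
  · -- the quotient `A₀ ⧸ φ⁻¹ I` is finite
    have hfin₀ : Finite (A₀ ⧸ I.comap φ) := by
      haveI := hIfin
      exact Finite.of_injective (Ideal.quotientMap I φ le_rfl)
        (Ideal.quotientMap_injective' le_rfl)
    obtain ⟨H, i1, i2, h1, h2, h3, e₀, hmul, hgal⟩ := hI (I.comap φ) hfin₀
    let b : Module.Basis (Fin 2) A₀ ρ₀.V := Module.finBasisOfFinrankEq A₀ ρ₀.V ρ₀.finrank_eq
    let j : (ρ₀.V ⧸ ((I.comap φ) • (⊤ : Submodule A₀ ρ₀.V))) ≃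
        ((A ⊗[A₀] ρ₀.V) ⧸ (I • (⊤ : Submodule A (A ⊗[A₀] ρ₀.V)))) :=
      Equiv.ofBijective (s59e_cmp (A₀ := A₀) (V := ρ₀.V) I)
        ⟨s59e_cmp_injective b I, s59e_cmp_surjective hsurj I⟩
    refine ⟨H, i1, i2, h1, h2, h3, e₀.trans j, ?_, ?_⟩
    · intro f g
      show s59e_cmp (A₀ := A₀) (V := ρ₀.V) I (e₀ (f * g)) =
        s59e_cmp (A₀ := A₀) (V := ρ₀.V) I (e₀ f) + s59e_cmp (A₀ := A₀) (V := ρ₀.V) I (e₀ g)
      rw [hmul, map_add]
    · intro σ f g hfg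
      show s59e_cmp (A₀ := A₀) (V := ρ₀.V) I (e₀ g) =
        (ρ₀.baseChangeAlong φ hφ).levelAction I σ (s59e_cmp (A₀ := A₀) (V := ρ₀.V) I (e₀ f))
      rw [hgal σ f g hfg]
      exact (s59e_cmp_levelAction φ hφ ρ₀ I σ _).symm

end Flat

end Fermat.Agent.Lib.S59
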