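/-
S59 (helper5, prefix `s59e_`): the TAME RELATION `ρ(σ τ σ⁻¹) = ρ(τ)^q` for adically continuous
Galois actions whose RESIDUAL action is unramified at `q ≠ p` (no unipotency hypothesis).
-/
import Mathlib
import Fermat.Agent.Lib.S35.TameRep

set_option autoImplicit false
set_option linter.unusedSectionVars false
set_option linter.style.haveILetI false

namespace Fermat.Agent.Lib.S59

open Polynomial IsLocalRing Fermat.Agent.Lib.S35
open scoped TensorProduct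

local notation "Ω" => AlgebraicClosure ℚ
local notation "GQ" => (AlgebraicClosure ℚ ≃ₐ[ℚ] AlgebraicClosure ℚ)

section

variable {𝒪 : Type} [CommRing 𝒪] {Λ : Type} [AddCommGroup Λ] [Module 𝒪 Λ]

/-- an endomorphism with image in `I Λ` maps `J Λ` into `(J I) Λ`. -/
lemma s59e_end_smul_top (f : Module.End 𝒪 Λ) (I J : Ideal 𝒪)
    (hf : ∀ v, f v ∈ I • (⊤ : Submodule 𝒪 Λ)) {w : Λ} (hw : w ∈ J • (⊤ : Submodule 𝒪 Λ)) :
    f w ∈ (J * I) • (⊤ : Submodule 𝒪 Λ) := by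
  have h1 : Submodule.map f (J • (⊤ : Submodule 𝒪 Λ)) ≤ (J * I) • (⊤ : Submodule 𝒪 Λ) := by
    rw [Submodule.map_smul'', mul_smul]
    refine Submodule.smul_mono le_rfl ?_
    rintro _ ⟨v, -, rfl⟩
    exact hf v
  exact h1 ⟨w, hw, rfl⟩

/-- the congruence subgroup of level `I` for a monoid action by endomorphisms. -/
def s59e_congr {G : Type*} [Group G] (ρ : G →* Module.End 𝒪 Λ) (I : Ideal 𝒪) : Subgroup G where
  carrier := {g | ∀ v, ρ g v - v ∈ I • (⊤ : Submodule 𝒪 Λ)}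
  one_mem' := fun v => by simp
  mul_mem' := by
    intro a b ha hb v
    have h1 : ρ (a * b) v - v = (ρ a (ρ b v) - ρ b v) + (ρ b v - v) := by
      rw [map_mul, Module.End.mul_apply]; abel
    rw [h1]
    exact add_mem (ha _) (hb _)
  inv_mem' := by
    intro a ha v
    have h0 : ρ a⁻¹ (ρ a v) = v := by
      rw [← Module.End.mul_apply, ← map_mul, inv_mul_cancel, map_one, Module.End.one_apply]
    have h1 : ρ a⁻¹ v - v = - (ρ a⁻¹ (ρ a v - v)) := by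
      rw [map_sub, h0]; abel
    rw [h1]
    refine neg_mem ?_
    have h2 : Submodule.map (ρ a⁻¹) (I • (⊤ : Submodule 𝒪 Λ)) ≤ I • (⊤ : Submodule 𝒪 Λ) := by
      rw [Submodule.map_smul'']
      exact Submodule.smul_mono le_rfl le_top
    exact h2 ⟨_, ha v, rfl⟩

lemma s59e_mem_congr {G : Type*} [Group G] (ρ : G →* Module.End 𝒪 Λ) (I : Ideal 𝒪) (g : G) :
    g ∈ s59e_congr ρ I ↔ ∀ v, ρ g v - v ∈ I • (⊤ : Submodule 𝒪 Λ) := Iff.rfl

lemma s59e_congr_mono {G : Type*} [Group G] (ρ : G →* Module.End 𝒪 Λ) {I J : Ideal 𝒪}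
    (h : I ≤ J) : s59e_congr ρ I ≤ s59e_congr ρ J := fun _ hg v =>
  Submodule.smul_mono h le_rfl (hg v)

/-- `p`-th powers raise the congruence level. -/
lemma s59e_pow_mem_congr {G : Type*} [Group G] (ρ : G →* Module.End 𝒪 Λ) (𝔪 : Ideal 𝒪) {p : ℕ}
    (hp : (p : 𝒪) ∈ 𝔪) {k : ℕ} (hk : 1 ≤ k) {g : G} (hg : g ∈ s59e_congr ρ (𝔪 ^ k)) :
    g ^ p ∈ s59e_congr ρ (𝔪 ^ (k + 1)) := by
  set X : Module.End 𝒪 Λ := ρ g - 1 with hX
  have hXv : ∀ v, X v ∈ (𝔪 ^ k) • (⊤ : Submodule 𝒪 Λ) := by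
    intro v
    have := hg v
    simpa [hX] using this
  have hx : ρ g = 1 + X := by rw [hX]; abel
  -- every power of `1 + X` is `1 + X * Z`
  have hgeo : ∀ i : ℕ, (1 + X) ^ i = 1 + X * ∑ j ∈ Finset.range i, (1 + X) ^ j := by
    intro i
    have := mul_geom_sum (1 + X) i
    rw [add_sub_cancel_left] at this
    rw [this]; abel
  set Z : Module.End 𝒪 Λ := ∑ i ∈ Finset.range p, ∑ j ∈ Finset.range i, (1 + X) ^ j with hZ
  have hsum : ∑ i ∈ Finset.range p, (1 + X) ^ i = (p : 𝒪) • (1 : Module.End 𝒪 Λ) + X * Z := by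
    rw [hZ, Finset.mul_sum]
    rw [Finset.sum_congr rfl (fun i _ => hgeo i), Finset.sum_add_distrib]
    congr 1
    rw [Finset.sum_const, Finset.card_range, Nat.cast_smul_eq_nsmul]
  intro v
  have h1 : ρ (g ^ p) v - v = (p : 𝒪) • X v + X (X (Z v)) := by
    rw [map_pow, hx, hgeo p, hsum]
    simp only [LinearMap.add_apply, Module.End.one_apply, Module.End.mul_apply,
      LinearMap.smul_apply, map_add, map_smul]
    abel
  rw [h1]
  refine add_mem ?_ ?_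
  · have h2 : (p : 𝒪) • X v ∈ (𝔪 * 𝔪 ^ k) • (⊤ : Submodule 𝒪 Λ) := by
      rw [mul_smul]
      exact Submodule.smul_mem_smul hp (hXv v)
    rwa [← pow_succ'] at h2
  · have h2 := s59e_end_smul_top X (𝔪 ^ k) (𝔪 ^ k) hXv (hXv (Z v))
    refine Submodule.smul_mono ?_ le_rfl h2
    rw [← pow_add]
    exact Ideal.pow_le_pow_right (by omega)

/-- iterating: `g ≡ 1 mod 𝔪` implies `g ^ (p ^ n) ≡ 1 mod 𝔪 ^ (n + 1)`. -/
lemma s59e_pow_pow_mem_congr {G : Type*} [Group G] (ρ : G →* Module.End 𝒪 Λ) (𝔪 : Ideal 𝒪)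
    {p : ℕ} (hp : (p : 𝒪) ∈ 𝔪) {g : G} (hg : g ∈ s59e_congr ρ 𝔪) (n : ℕ) :
    g ^ (p ^ n) ∈ s59e_congr ρ (𝔪 ^ (n + 1)) := by
  induction n with
  | zero => simpa using hg
  | succ n ih =>
    have h1 : g ^ (p ^ (n + 1)) = (g ^ (p ^ n)) ^ p := by rw [← pow_mul, ← pow_succ]
    rw [h1]
    exact s59e_pow_mem_congr ρ 𝔪 hp (by omega) ih

/-- coprime powers in a subgroup. -/
lemma s59e_mem_of_coprime_pow {G : Type*} [Group G] (K : Subgroup G) {g : G} {a b : ℕ}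
    (hab : Nat.Coprime a b) (ha : g ^ a ∈ K) (hb : g ^ b ∈ K) : g ∈ K := by
  have h1 : (g : G) = (g ^ a) ^ (Nat.gcdA a b) * (g ^ b) ^ (Nat.gcdB a b) := by
    rw [← zpow_natCast g a, ← zpow_natCast g b, ← zpow_mul, ← zpow_mul, ← zpow_add,
      ← Nat.gcd_eq_gcd_ab, hab.gcd_eq_one, Nat.cast_one, zpow_one]
  rw [h1]
  exact mul_mem (zpow_mem ha _) (zpow_mem hb _)

end

section Rep

variable {𝒪 : Type} [CommRing 𝒪] [IsLocalRing 𝒪] [IsNoetherianRing 𝒪]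

/-- **the tame relation for residually unramified actions**: `Λ` a finite module over a
Noetherian local ring `𝒪` with `p ∈ 𝔪`, `ρ` an adically continuous action of `G_ℚ` such that the
inertia group at `A ∣ q`, `q ≠ p`, acts trivially on `Λ / 𝔪 Λ`.  Then
`ρ(σ τ σ⁻¹) = ρ(τ) ^ q` for every Frobenius lift `σ` and every `τ` in the inertia group. -/
theorem s59e_tame_resUnr {Λ : Type} [AddCommGroup Λ] [Module 𝒪 Λ] [Module.Finite 𝒪 Λ]
    (ρ : GQ →* Module.End 𝒪 Λ) (hcont : GaloisActionIsAdicContinuous 𝒪 ρ)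
    (A : ValuationSubring Ω) {q p : ℕ} (hq : q.Prime) (hp : p.Prime) (hqp : q ≠ p)
    (hA : A.LiesOverPrime q) (hp𝔪 : (p : 𝒪) ∈ maximalIdeal 𝒪)
    (hU : ∀ τ ∈ A.inertiaSubgroupIn ℚ, ∀ v : Λ,
      ρ τ v - v ∈ maximalIdeal 𝒪 • (⊤ : Submodule 𝒪 Λ))
    (σ τ : GQ) (hσ : A.IsFrobeniusAt σ q) (hτ : τ ∈ A.inertiaSubgroupIn ℚ) :
    ρ (σ * τ * σ⁻¹) = ρ τ ^ q := by
  set c : GQ := σ * τ * σ⁻¹ * (τ ^ q)⁻¹ with hc
  have hcI : c ∈ A.inertiaSubgroupIn ℚ :=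
    mul_mem (s35t_conj_mem_inertia A σ τ hσ.mem_decompositionSubgroup hτ)
      (inv_mem (pow_mem hτ q))
  have hc1 : c ∈ s59e_congr ρ (maximalIdeal 𝒪) := hU c hcI
  have hcn : ∀ n : ℕ, c ∈ s59e_congr ρ (maximalIdeal 𝒪 ^ n) := by
    intro n
    obtain ⟨L, hL, hstab, hlev⟩ := s35t_exists_level ρ hcont n
    obtain ⟨a, ha⟩ := s35t_tame_fin A hq hA σ τ hσ hτ L hL hstab
    have h1 : c ^ (q ^ a) ∈ s59e_congr ρ (maximalIdeal 𝒪 ^ n) := hlev (c ^ (q ^ a)) ha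
    have h2 : c ^ (p ^ n) ∈ s59e_congr ρ (maximalIdeal 𝒪 ^ n) :=
      s59e_congr_mono ρ (Ideal.pow_le_pow_right (Nat.le_succ n))
        (s59e_pow_pow_mem_congr ρ _ hp𝔪 hc1 n)
    have hcop : Nat.Coprime (q ^ a) (p ^ n) :=
      Nat.Coprime.pow _ _ ((Nat.coprime_primes hq hp).mpr hqp)
    exact s59e_mem_of_coprime_pow _ hcop h1 h2
  have hρc : ρ c = 1 := by
    refine LinearMap.ext fun v => ?_
    have h1 : ρ c v - v ∈ (⨅ i : ℕ, (maximalIdeal 𝒪) ^ i • (⊤ : Submodule 𝒪 Λ)) := by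
      rw [Submodule.mem_iInf]; exact fun n => hcn n v
    rw [Ideal.iInf_pow_smul_eq_bot_of_isLocalRing (maximalIdeal 𝒪)
      (Ideal.IsMaximal.ne_top inferInstance), Submodule.mem_bot, sub_eq_zero] at h1
    rw [h1, Module.End.one_apply]
  have h4 : σ * τ * σ⁻¹ = c * τ ^ q := by rw [hc, inv_mul_cancel_right]
  rw [h4, map_mul, hρc, one_mul, map_pow]

/-- the commutation form: if moreover `ρ(τ)` has order dividing `q - 1`-coprime … in the form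
used for "type `χ`" primes: `ρ(σ) ρ(τ) = ρ(τ)^q ρ(σ)`. -/
theorem s59e_tame_resUnr_comm {Λ : Type} [AddCommGroup Λ] [Module 𝒪 Λ] [Module.Finite 𝒪 Λ]
    (ρ : GQ →* Module.End 𝒪 Λ) (hcont : GaloisActionIsAdicContinuous 𝒪 ρ)
    (A : ValuationSubring Ω) {q p : ℕ} (hq : q.Prime) (hp : p.Prime) (hqp : q ≠ p)
    (hA : A.LiesOverPrime q) (hp𝔪 : (p : 𝒪) ∈ maximalIdeal 𝒪)
    (hU : ∀ τ ∈ A.inertiaSubgroupIn ℚ, ∀ v : Λ,
      ρ τ v - v ∈ maximalIdeal 𝒪 • (⊤ : Submodule 𝒪 Λ))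
    (σ τ : GQ) (hσ : A.IsFrobeniusAt σ q) (hτ : τ ∈ A.inertiaSubgroupIn ℚ) :
    ρ σ * ρ τ = ρ τ ^ q * ρ σ := by
  have h := s59e_tame_resUnr ρ hcont A hq hp hqp hA hp𝔪 hU σ τ hσ hτ
  have h3 : ρ σ⁻¹ * ρ σ = 1 := by rw [← map_mul, inv_mul_cancel, map_one]
  rw [← h, map_mul, map_mul, mul_assoc, h3, mul_one]

omit [IsNoetherianRing 𝒪] in
/-- `1 ⊗ x = 0` in `k ⊗ V` iff `x ∈ 𝔪 V`. -/
lemma s59e_one_tmul_eq_zero_iff {Λ : Type} [AddCommGroup Λ] [Module 𝒪 Λ] (x : Λ) :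
    (1 : ResidueField 𝒪) ⊗ₜ[𝒪] x = 0 ↔ x ∈ maximalIdeal 𝒪 • (⊤ : Submodule 𝒪 Λ) := by
  have h := TensorProduct.quotTensorEquivQuotSMul_mk_one_tmul (M := Λ) (maximalIdeal 𝒪) x
  constructor
  · intro h0
    have h1 : (1 : 𝒪 ⧸ maximalIdeal 𝒪) ⊗ₜ[𝒪] x = 0 := h0
    rw [h1, map_zero] at h
    exact (Submodule.Quotient.mk_eq_zero _).mp h.symm
  · intro hx
    have h1 : (Submodule.Quotient.mk x : Λ ⧸ maximalIdeal 𝒪 • (⊤ : Submodule 𝒪 Λ)) = 0 :=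
      (Submodule.Quotient.mk_eq_zero _).mpr hx
    rw [h1] at h
    exact (LinearEquiv.map_eq_zero_iff _).mp h

omit [IsNoetherianRing 𝒪] in
/-- the residual representation is unramified at `q` iff inertia acts trivially mod `𝔪`. -/
lemma s59e_residual_unr_iff (ρ : GaloisRepAdic 𝒪) (q : ℕ) :
    ρ.residual.IsUnramifiedAt q ↔
      ∀ A : ValuationSubring Ω, A.LiesOverPrime q → ∀ τ ∈ A.inertiaSubgroupIn ℚ, ∀ v : ρ.V,
        ρ.ρ τ v - v ∈ maximalIdeal 𝒪 • (⊤ : Submodule 𝒪 ρ.V) := by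
  constructor
  · intro h A hA τ hτ v
    have h1 : (ρ.ρ τ).baseChange (ResidueField 𝒪) = 1 := h A hA τ hτ
    have h2 := congrArg (fun f : Module.End (ResidueField 𝒪) (ResidueField 𝒪 ⊗[𝒪] ρ.V) =>
      f (1 ⊗ₜ[𝒪] v)) h1
    simp only [LinearMap.baseChange_tmul, Module.End.one_apply] at h2
    rw [← s59e_one_tmul_eq_zero_iff, TensorProduct.tmul_sub, h2, sub_self]
  · intro h A hA τ hτ
    show (ρ.ρ τ).baseChange (ResidueField 𝒪) = 1
    refine LinearMap.ext fun w => ?_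
    induction w using TensorProduct.induction_on with
    | zero => rw [map_zero, map_zero]
    | tmul c v =>
      rw [LinearMap.baseChange_tmul, Module.End.one_apply, ← sub_eq_zero,
        ← TensorProduct.tmul_sub]
      have h1 : (1 : ResidueField 𝒪) ⊗ₜ[𝒪] (ρ.ρ τ v - v) = 0 :=
        (s59e_one_tmul_eq_zero_iff _).mpr (h A hA τ hτ v)
      have h2 : c ⊗ₜ[𝒪] (ρ.ρ τ v - v) = c • ((1 : ResidueField 𝒪) ⊗ₜ[𝒪] (ρ.ρ τ v - v)) := by
        rw [TensorProduct.smul_tmul', smul_eq_mul, mul_one]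
      rw [h2, h1, smul_zero]
    | add x y hx hy => rw [map_add, map_add, hx, hy]

/-- **the tame relation for `GaloisRepAdic` with residual representation unramified at `q`**. -/
theorem s59e_tame_rep_resUnr (ρ : GaloisRepAdic 𝒪) (A : ValuationSubring Ω) {q p : ℕ}
    (hq : q.Prime) (hp : p.Prime) (hqp : q ≠ p) (hA : A.LiesOverPrime q)
    (hp𝔪 : (p : 𝒪) ∈ maximalIdeal 𝒪) (hU : ρ.residual.IsUnramifiedAt q)
    (σ τ : GQ) (hσ : A.IsFrobeniusAt σ q) (hτ : τ ∈ A.inertiaSubgroupIn ℚ) :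
    ρ.ρ (σ * τ * σ⁻¹) = ρ.ρ τ ^ q :=
  s59e_tame_resUnr ρ.ρ ρ.isAdicContinuous A hq hp hqp hA hp𝔪
    ((s59e_residual_unr_iff ρ q).mp hU A hA) σ τ hσ hτ

end Rep

end Fermat.Agent.Lib.S59
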