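/-
S59 (helper5, prefix `s59e_`), node B7, file 2: **the basic relations at a prime `q ≠ p` where the
residual representation is unramified**, for ANY `GaloisRepAdic A` with cyclotomic determinant
(e.g. the universal deformation `DQ.ρ` itself), in matrix form (`matOf`):

  `Φ' Φ = 1`,  `Φ Σ = Σ^q Φ`,  `Σ ≡ 1 mod 𝔪_A`,  `det Σ = 1`,  `det Φ = q`

for `Σ = matOf ρ b σ` (`σ` in the inertia group at a place over `q`), `Φ = matOf ρ b φ`
(`φ` a Frobenius element at that place), `Φ' = matOf ρ b φ⁻¹`.  Together with `EB7Alg.lean`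
(`s59e_type1_of_trace`, `s59e_chi_dichotomy`, `s59e_comm_of_chi`) this reduces B7 at the primes of `B`
to the two trace statements [TR-1] and [TR-χ].
-/
import Mathlib
import Fermat.Agent.Lib.S53.MatrixRep
import Fermat.Agent.Lib.S59.ETame
import Fermat.Agent.Lib.S59.EB7Alg
import Fermat.Agent.Lib.S59.EHFlat
import Fermat.Agent.Lib.PT.CycloTower
import Fermat.Agent.Lib.S29.Cyclo

set_option autoImplicit false
set_option linter.unusedSectionVars false
set_option linter.unusedVariables false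

noncomputable section

namespace Fermat.Agent.Lib.S59

open IsLocalRing Fermat.Agent.Lib.S53 Fermat.Agent.Lib.PT Fermat.Agent.Lib.S29

local notation "Qbar" => AlgebraicClosure ℚ
local notation "GQ" => (AlgebraicClosure ℚ ≃ₐ[ℚ] AlgebraicClosure ℚ)

variable {A : Type} [CommRing A] [IsLocalRing A] [IsNoetherianRing A]

/-- Krull: an element of all `(p^n)`, `p ∈ 𝔪`, vanishes. -/
theorem s59e_eq_zero_of_forall_mem_span_pow {p : ℕ} (hpA : (p : A) ∈ maximalIdeal A) (x : A)
    (h : ∀ n : ℕ, x ∈ Ideal.span {((p ^ n : ℕ) : A)}) : x = 0 := by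
  have h1 : x ∈ ⨅ n : ℕ, maximalIdeal A ^ n := by
    rw [Ideal.mem_iInf]
    intro n
    have h2 : Ideal.span {((p ^ n : ℕ) : A)} ≤ maximalIdeal A ^ n := by
      rw [Ideal.span_singleton_le_iff_mem]
      push_cast
      exact Ideal.pow_mem_pow hpA n
    exact h2 (h n)
  rw [Ideal.iInf_pow_eq_bot_of_isLocalRing _ (maximalIdeal.isMaximal A).ne_top] at h1
  exact h1

/-- inertia at `q ≠ p` has determinant `1`. -/
theorem s59e_det_inertia (ρ : GaloisRepAdic A) {p q : ℕ} [Fact p.Prime]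
    (hdet : ρ.DetIsCyclotomic p) (hq : q.Prime) (hqp : q ≠ p) (P : ValuationSubring Qbar)
    (hP : P.LiesOverPrime q) (σ : GQ) (hσ : σ ∈ P.inertiaSubgroupIn ℚ) :
    LinearMap.det (ρ.ρ σ) = 1 := by
  obtain ⟨hpA, hd⟩ := hdet
  have h1 : LinearMap.det (ρ.ρ σ) - 1 = 0 := by
    refine s59e_eq_zero_of_forall_mem_span_pow hpA _ fun n => ?_
    have := hd n σ 1 (fun μ hμ => by
      rw [pow_one]
      exact pts_inertia_fixes_pow_root hq hqp P hP σ hσ hμ)
    simpa using this
  exact sub_eq_zero.mp h1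

/-- a Frobenius element at `q ≠ p` has determinant `q`. -/
theorem s59e_det_frob (ρ : GaloisRepAdic A) {p q : ℕ} [hp : Fact p.Prime]
    (hdet : ρ.DetIsCyclotomic p) (hq : q.Prime) (hqp : q ≠ p) (P : ValuationSubring Qbar)
    (hP : P.LiesOverPrime q) (φ : GQ) (hφ : P.IsFrobeniusAt φ q) :
    LinearMap.det (ρ.ρ φ) = (q : A) := by
  obtain ⟨hpA, hd⟩ := hdet
  have h1 : LinearMap.det (ρ.ρ φ) - (q : A) = 0 := by
    refine s59e_eq_zero_of_forall_mem_span_pow hpA _ fun n => ?_
    refine hd n φ q (fun μ hμ => ?_)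
    have hres : ((p ^ n : ℕ) : IsLocalRing.ResidueField P) ≠ 0 := by
      push_cast
      exact pow_ne_zero n (s29y_natCast_residue_ne_zero P hq hp.out hqp hP)
    exact s29y_apply_root_of_residue P (pow_ne_zero n hp.out.ne_zero) hres
      ⟨φ, hφ.mem_decompositionSubgroup⟩ q (fun x => hφ.smul_residue_eq x) hμ
  exact sub_eq_zero.mp h1

/-- **B7, the basic relations** at a prime `q ≠ p` where the residual representation is unramified. -/
theorem s59e_B7_basic (ρ : GaloisRepAdic A) (bs : Module.Basis (Fin 2) A ρ.V) {p q : ℕ}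
    [hp : Fact p.Prime] (hdet : ρ.DetIsCyclotomic p) (hq : q.Prime) (hqp : q ≠ p)
    (P : ValuationSubring Qbar) (hP : P.LiesOverPrime q) (hU : ρ.residual.IsUnramifiedAt q)
    (σ φ : GQ) (hσ : σ ∈ P.inertiaSubgroupIn ℚ) (hφ : P.IsFrobeniusAt φ q) :
    matOf ρ bs φ⁻¹ * matOf ρ bs φ = 1 ∧
    matOf ρ bs φ * matOf ρ bs σ = matOf ρ bs σ ^ q * matOf ρ bs φ ∧
    (∀ i j, (matOf ρ bs σ - 1) i j ∈ maximalIdeal A) ∧
    (matOf ρ bs σ).det = 1 ∧ (matOf ρ bs φ).det = (q : A) := by
  refine ⟨?_, ?_, ?_, ?_, ?_⟩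
  · rw [← map_mul, inv_mul_cancel, map_one]
  · have h := s59e_tame_rep_resUnr ρ P hq hp.out hqp hP hdet.1 hU φ σ hφ hσ
    have h1 : matOf ρ bs (φ * σ * φ⁻¹) = matOf ρ bs σ ^ q := by
      rw [matOf_apply, h, ← map_pow ρ.ρ, ← matOf_apply, map_pow]
    rw [← h1, ← map_mul, ← map_mul]
    congr 1
    group
  · intro i j
    have h := (s59e_residual_unr_iff ρ q).mp hU P hP σ hσ (bs j)
    rw [s59e_mem_smul_top_iff_repr _ bs] at h
    have h2 := h i
    rw [Matrix.sub_apply, matOf_apply, LinearMap.toMatrix_apply, Matrix.one_apply]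
    rw [map_sub, Finsupp.sub_apply, Module.Basis.repr_self, Finsupp.single_apply] at h2
    convert h2 using 3
    exact eq_comm
  · rw [matOf_apply, LinearMap.det_toMatrix]
    exact s59e_det_inertia ρ hdet hq hqp P hP σ hσ
  · rw [matOf_apply, LinearMap.det_toMatrix]
    exact s59e_det_frob ρ hdet hq hqp P hP φ hφ

end Fermat.Agent.Lib.S59
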