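/-
[E] FINAL ASSEMBLY (helper4, prefix `s59i_`), FIN-A, part B4: THE `R`-SIDE RELATIONS of `s59i_FINA3` from helper5's
`s59e_B7_basic` (tame relation, `det ρ(φ) = q`, for ANY `GaloisRepAdic` with cyclotomic determinant and residually
unramified at `q`), and the residual shapes `hMB`, `hME2` from the hypotheses `hscal`, `hdiag` of helper6's
`s59q_inst_flat`.
-/
import Mathlib
import Fermat.Agent.Lib.S59.LFinB3
import Fermat.Agent.Lib.S59.EB7Rep

set_option autoImplicit false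
set_option linter.unusedSectionVars false
set_option linter.unusedVariables false
set_option linter.style.haveILetI false
set_option maxHeartbeats 1600000

noncomputable section

namespace Fermat.Agent.Lib.S59

open IsLocalRing MvPowerSeries
open Fermat.Agent.Lib.S53 (matOf matOfRes NormData matOf_apply matOfRes_apply)

local notation "Γℚ" => (AlgebraicClosure ℚ ≃ₐ[ℚ] AlgebraicClosure ℚ)

section DQRel

variable {𝒪 : Type} [CommRing 𝒪] [IsDomain 𝒪] [IsDiscreteValuationRing 𝒪]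
  [IsAdicComplete (maximalIdeal 𝒪) 𝒪]
  {ρbar : ResidualGaloisRep (ResidueField 𝒪)}
  {𝒟 : ∀ ⦃A : Type⦄ [CommRing A] [IsLocalRing A] [Algebra 𝒪 A], GaloisRepAdic A → Prop}
  (DQ : GaloisRep.DeformationRingData 𝒪 ρbar 𝒟)

/-- unramifiedness is invariant under equivalence of residual representations. -/
theorem s59i_unram_of_isEquiv {k : Type} [Field k] {ρ₁ ρ₂ : ResidualGaloisRep k}
    (h : ρ₁.IsEquiv ρ₂) (q : ℕ) (h1 : ρ₁.IsUnramifiedAt q) : ρ₂.IsUnramifiedAt q := by
  obtain ⟨e⟩ := h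
  intro P hP σ hσ
  refine LinearMap.ext fun y => ?_
  obtain ⟨x, rfl⟩ := e.toLinearEquiv.surjective y
  rw [← e.map_apply, h1 P hP σ hσ]
  rfl

/-- unramifiedness is stable under extension of the coefficient field. -/
theorem s59i_unram_baseChangeAlong {k k' : Type} [Field k] [Field k'] (φ : k →+* k')
    (ρ : ResidualGaloisRep k) (q : ℕ) (h : ρ.IsUnramifiedAt q) :
    (ρ.baseChangeAlong φ).IsUnramifiedAt q := by
  letI : Algebra k k' := φ.toAlgebra
  intro P hP σ hσ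
  show (ρ.ρ σ).baseChange k' = 1
  rw [h P hP σ hσ, LinearMap.baseChange_one]

/-- the residual representation of the universal deformation is unramified where `ρ̄` is. -/
theorem s59i_DQ_residual_unram (q : ℕ) (hunr : ρbar.IsUnramifiedAt q) :
    DQ.ρ.residual.IsUnramifiedAt q := by
  obtain ⟨e⟩ := DQ.residual_isEquiv
  exact s59i_unram_of_isEquiv ⟨e.symm⟩ q (s59i_unram_baseChangeAlong _ ρbar q hunr)

/-- **[TAME-REL] + [DET-FROB] for the universal deformation.** -/
theorem s59i_DQ_tame_det {p : ℕ} [Fact p.Prime] (hdet : DQ.ρ.DetIsCyclotomic p)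
    (bR : Module.Basis (Fin 2) DQ.R DQ.ρ.V) (q : ℕ) (hq : q.Prime) (hqp : q ≠ p)
    (hunr : ρbar.IsUnramifiedAt q) (P : ValuationSubring (AlgebraicClosure ℚ))
    (hP : P.LiesOverPrime q) (σ φ : Γℚ) (hσ : σ ∈ P.inertiaSubgroupIn ℚ)
    (hφ : P.IsFrobeniusAt φ q) :
    matOf DQ.ρ bR φ * matOf DQ.ρ bR σ = matOf DQ.ρ bR σ ^ q * matOf DQ.ρ bR φ ∧
      (matOf DQ.ρ bR φ).det = ((q : ℕ) : DQ.R) := by
  obtain ⟨-, h2, -, -, h5⟩ := s59e_B7_basic DQ.ρ bR hdet hq hqp P hP
    (s59i_DQ_residual_unram DQ q hunr) σ φ hσ hφ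
  exact ⟨h2, h5⟩

end DQRel

section Shapes

variable {𝒪 : Type} [CommRing 𝒪] [IsLocalRing 𝒪]
  {ρbar : ResidualGaloisRep (ResidueField 𝒪)} (Nd : NormData ρbar)

/-- the trace of the chosen lift reduces to the trace of the residual matrix. -/
theorem s59i_residue_trace_Mtil (g : Γℚ) :
    residue 𝒪 (Nd.Mtil g).trace = (matOfRes ρbar Nd.b g).trace := by
  rw [← Nd.hMtil g, Matrix.trace_fin_two, Matrix.trace_fin_two, map_add]
  rfl

/-- **`hME2`**: the half trace of the Frobenius at a prime of `E` from the diagonal form. -/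
theorem s59i_hME2_of_hdiag (i2 ε u α β : 𝒪) (hi2 : 2 * i2 = 1) (hα : α = ε * u) (hβ : β = ε)
    (P P' : Matrix (Fin 2) (Fin 2) 𝒪) (hPP' : P * P' = 1) (φ : Γℚ)
    (hdiag : P'.map (residue 𝒪) * matOfRes ρbar Nd.b φ * P.map (residue 𝒪) =
      Matrix.diagonal ![residue 𝒪 α, residue 𝒪 β]) :
    i2 * (Nd.Mtil φ).trace - ε * (u + 1) * i2 ∈ maximalIdeal 𝒪 := by
  have h1 : (matOfRes ρbar Nd.b φ).trace = residue 𝒪 α + residue 𝒪 β := by
    have hPP'r : P.map (residue 𝒪) * P'.map (residue 𝒪) = 1 := by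
      rw [← Matrix.map_mul, hPP', Matrix.map_one _ (map_zero _) (map_one _)]
    have := congrArg Matrix.trace hdiag
    rw [Matrix.trace_mul_comm, ← mul_assoc, hPP'r, one_mul] at this
    rw [this, Matrix.trace_fin_two]
    simp
  rw [← residue_eq_zero_iff, map_sub, map_mul, s59i_residue_trace_Mtil, h1, ← map_add, ← map_mul,
    ← map_sub, hα, hβ]
  have : i2 * (ε * u + ε) - ε * (u + 1) * i2 = 0 := by ring
  rw [this, map_zero]

/-- **`hMB`**: at a prime of `B` (`ρ̄(φ)` scalar, `det ρ̄(φ) = q ≡ 1`) the half trace of the Frobenius is `≡ ±1`. -/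
theorem s59i_hMB_of_hscal [IsDomain (ResidueField 𝒪)] (i2 : 𝒪) (hi2 : 2 * i2 = 1) (φ : Γℚ)
    (hscal : ∃ c : ResidueField 𝒪,
      matOfRes ρbar Nd.b φ = c • (1 : Matrix (Fin 2) (Fin 2) (ResidueField 𝒪)))
    (hdet1 : LinearMap.det (ρbar.ρ φ) = 1) :
    ∃ εB : 𝒪, εB ^ 2 = 1 ∧ i2 * (Nd.Mtil φ).trace - εB ∈ maximalIdeal 𝒪 := by
  obtain ⟨c, hc⟩ := hscal
  have hdet : (matOfRes ρbar Nd.b φ).det = 1 := by
    rw [matOfRes_apply, LinearMap.det_toMatrix]; exact hdet1
  have hc2 : c * c = 1 := by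
    rw [hc, Matrix.det_fin_two] at hdet
    simpa using hdet
  have htr : (matOfRes ρbar Nd.b φ).trace = 2 * c := by
    rw [hc, Matrix.trace_fin_two]
    simp; ring
  have hi2r : residue 𝒪 i2 * 2 = 1 := by
    rw [← map_ofNat (residue 𝒪) 2, ← map_mul, mul_comm, hi2, map_one]
  have hcc : (c - 1) * (c + 1) = 0 := by ring_nf; rw [sq, hc2]; ring
  rcases mul_eq_zero.mp hcc with h | h
  · refine ⟨1, one_pow 2, ?_⟩
    rw [← residue_eq_zero_iff, map_sub, map_mul, s59i_residue_trace_Mtil, htr, map_one,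
      ← mul_assoc, hi2r, one_mul]
    exact h
  · refine ⟨-1, by ring, ?_⟩
    rw [← residue_eq_zero_iff, map_sub, map_mul, s59i_residue_trace_Mtil, htr, map_neg, map_one,
      ← mul_assoc, hi2r, one_mul, sub_neg_eq_add]
    exact h

end Shapes

end Fermat.Agent.Lib.S59
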