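/-
Programme (R) = S59, node [SPAN] (helper3; consumer: helper4's `s59i_FINA1`, hypothesis `hspan`, through his
Nakayama lemma `s59i_span_of_residual`): **Burnside for `2 × 2` matrices.**

* `s59u_burnside_two` : a monoid homomorphism `ρ : G →* M₂(k)` without common eigenvector over an algebraically
  closed extension `K ⊇ k` spans `M₂(k)`;
* `s59u_span_matOfRes` : the matrices of an absolutely irreducible `ResidualGaloisRep k` (any basis) span `M₂(k)`;
* `s59u_span_map` : spanning is preserved by a field extension `k → k'`;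
* `s59u_span_residual` : for `ρ : GaloisRepAdic A` residually absolutely irreducible, any basis `b`: the residual
  matrices `(matOf ρ b g).map (residue A)` span `M₂(k_A)` (= `hres` of `s59i_span_of_residual` for `matOf ρ b`);
* `s59u_span_residual_map` : the same after push-forward along a local homomorphism `f : A →+* R`.
-/
import Mathlib
import Fermat.Agent.Lib.S53.NormData

set_option autoImplicit false
set_option linter.unusedSectionVars false
set_option linter.unusedVariables false
set_option linter.unusedSimpArgs false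
set_option linter.unnecessarySeqFocus false
set_option linter.style.haveILetI false

noncomputable section

namespace Fermat.Agent.Lib.S59

open Matrix IsLocalRing
open Fermat.Agent.Lib.S53 (matOf matOfRes no_common_eigenvector exists_basis_residual)

local notation "Γℚ" => (AlgebraicClosure ℚ ≃ₐ[ℚ] AlgebraicClosure ℚ)

section Burnside

variable {k : Type*} [Field k] {G : Type*} [Monoid G] (ρ : G →* Matrix (Fin 2) (Fin 2) k)

theorem s59u_span_one : (1 : Matrix (Fin 2) (Fin 2) k) ∈ Submodule.span k (Set.range ρ) :=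
  Submodule.subset_span ⟨1, map_one ρ⟩

theorem s59u_span_mul_left (g : G) {a : Matrix (Fin 2) (Fin 2) k}
    (ha : a ∈ Submodule.span k (Set.range ρ)) : ρ g * a ∈ Submodule.span k (Set.range ρ) := by
  induction ha using Submodule.span_induction with
  | mem x hx =>
    obtain ⟨h, rfl⟩ := hx
    rw [← map_mul]
    exact Submodule.subset_span ⟨_, rfl⟩
  | zero =>
    rw [mul_zero]
    exact Submodule.zero_mem _
  | add x y _ _ hx hy =>
    rw [mul_add]
    exact Submodule.add_mem _ hx hy
  | smul c x _ hx =>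
    rw [Matrix.mul_smul]
    exact Submodule.smul_mem _ _ hx

/-- over an algebraically closed field every `2 × 2` matrix has an eigenvector. -/
theorem s59u_exists_eigen {K : Type*} [Field K] [IsAlgClosed K] (M : Matrix (Fin 2) (Fin 2) K) :
    ∃ w : Fin 2 → K, w ≠ 0 ∧ ∃ μ : K, M.mulVec w = μ • w := by
  obtain ⟨μ, hμ⟩ := Module.End.exists_eigenvalue (Matrix.toLin' M)
  obtain ⟨w, hw⟩ := hμ.exists_hasEigenvector
  exact ⟨w, hw.2, μ, by rw [← Matrix.toLin'_apply]; exact hw.apply_eq_smul⟩

/-- **Burnside for `2 × 2` matrices.** -/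
theorem s59u_burnside_two {K : Type*} [Field K] [IsAlgClosed K] (φ : k →+* K)
    (hno : ∀ w : Fin 2 → K, w ≠ 0 → ¬ ∀ g, ∃ μ : K, ((ρ g).map φ).mulVec w = μ • w)
    (Y : Matrix (Fin 2) (Fin 2) k) : Y ∈ Submodule.span k (Set.range ρ) := by
  classical
  have hφinj : Function.Injective φ := φ.injective
  -- Step 0: `g₀` with nonzero lower left entry
  obtain ⟨g₀, hg₀⟩ : ∃ g₀, ρ g₀ 1 0 ≠ 0 := by
    by_contra hcon
    push Not at hcon
    refine hno ![1, 0] ?_ fun g => ⟨φ (ρ g 0 0), ?_⟩
    · intro h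
      have := congrFun h 0
      simp at this
    · ext i
      fin_cases i
      · simp [Matrix.mulVec, dotProduct, Fin.sum_univ_two]
      · simp [Matrix.mulVec, dotProduct, Fin.sum_univ_two, hcon g]
  obtain ⟨M₀, hM₀⟩ : ∃ M₀, M₀ = ρ g₀ := ⟨_, rfl⟩
  obtain ⟨c₀, hc₀⟩ : ∃ c₀, c₀ = M₀ 1 0 := ⟨_, rfl⟩
  have hc₀0 : c₀ ≠ 0 := by rw [hc₀, hM₀]; exact hg₀
  have hM₀mem : M₀ ∈ Submodule.span k (Set.range ρ) := by
    rw [hM₀]; exact Submodule.subset_span ⟨g₀, rfl⟩
  -- Step 1: an element of the span with zero first column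
  obtain ⟨N, hN⟩ : ∃ N : G → Matrix (Fin 2) (Fin 2) k, N = fun g =>
      ρ g - (ρ g 0 0) • (1 : Matrix (Fin 2) (Fin 2) k) -
        (ρ g 1 0 / c₀) • (M₀ - (M₀ 0 0) • (1 : Matrix (Fin 2) (Fin 2) k)) := ⟨_, rfl⟩
  have hNmem : ∀ g, N g ∈ Submodule.span k (Set.range ρ) := by
    intro g
    rw [hN]
    exact Submodule.sub_mem _ (Submodule.sub_mem _ (Submodule.subset_span ⟨g, rfl⟩)
      (Submodule.smul_mem _ _ (s59u_span_one ρ)))
      (Submodule.smul_mem _ _ (Submodule.sub_mem _ hM₀mem
        (Submodule.smul_mem _ _ (s59u_span_one ρ))))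
  have hN0 : ∀ g i, N g i 0 = 0 := by
    intro g i
    rw [hN]
    fin_cases i
    · simp [Matrix.sub_apply, Matrix.smul_apply, Matrix.one_apply]
    · simp [Matrix.sub_apply, Matrix.smul_apply, Matrix.one_apply, ← hc₀]
      field_simp
      ring
  obtain ⟨g₁, hg₁⟩ : ∃ g₁, N g₁ ≠ 0 := by
    by_contra hcon
    push Not at hcon
    obtain ⟨w, hw0, μ, hμ⟩ := s59u_exists_eigen (M₀.map φ)
    refine hno w hw0 fun g =>
      ⟨φ (ρ g 0 0 - (ρ g 1 0 / c₀) * M₀ 0 0) + φ (ρ g 1 0 / c₀) * μ, ?_⟩
    have h1 : (ρ g).map φ = φ (ρ g 0 0 - (ρ g 1 0 / c₀) * M₀ 0 0) •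
        (1 : Matrix (Fin 2) (Fin 2) K) + φ (ρ g 1 0 / c₀) • M₀.map φ := by
      have h2 := hcon g
      rw [hN] at h2
      ext i j
      have h3 := congrFun (congrFun h2 i) j
      simp only [Matrix.sub_apply, Matrix.smul_apply, Matrix.one_apply, Matrix.zero_apply,
        smul_eq_mul] at h3
      have h4 : ρ g i j = (ρ g 0 0 - (ρ g 1 0 / c₀) * M₀ 0 0) * (if i = j then 1 else 0) +
          (ρ g 1 0 / c₀) * M₀ i j := by linear_combination h3
      rw [Matrix.map_apply, h4, Matrix.add_apply, Matrix.smul_apply, Matrix.smul_apply,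
        Matrix.one_apply, Matrix.map_apply, smul_eq_mul, smul_eq_mul, map_add, map_mul, map_mul]
      congr 2
      split_ifs <;> simp
    rw [h1, Matrix.add_mulVec, Matrix.smul_mulVec, Matrix.smul_mulVec, Matrix.one_mulVec, hμ,
      add_smul, mul_smul]
  obtain ⟨N₁, hN₁⟩ : ∃ N₁, N₁ = N g₁ := ⟨_, rfl⟩
  have hN₁mem : N₁ ∈ Submodule.span k (Set.range ρ) := hN₁ ▸ hNmem g₁
  have hN₁0 : ∀ i, N₁ i 0 = 0 := fun i => hN₁ ▸ hN0 g₁ i
  obtain ⟨β, hβ⟩ : ∃ β, β = N₁ 0 1 := ⟨_, rfl⟩
  obtain ⟨δ, hδ⟩ : ∃ δ, δ = N₁ 1 1 := ⟨_, rfl⟩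
  have hβδ : β ≠ 0 ∨ δ ≠ 0 := by
    by_contra hcon
    push Not at hcon
    apply hg₁
    rw [← hN₁]
    ext i j
    fin_cases i <;> fin_cases j
    · exact hN₁0 0
    · exact hβ ▸ hcon.1
    · exact hN₁0 1
    · exact hδ ▸ hcon.2
  -- Step 2: a second, independent column
  have hcol : ∀ g i, (ρ g * N₁) i 0 = 0 := by
    intro g i
    rw [Matrix.mul_apply, Fin.sum_univ_two, hN₁0 0, hN₁0 1, mul_zero, mul_zero, add_zero]
  have hcol1 : ∀ g i, (ρ g * N₁) i 1 = ρ g i 0 * β + ρ g i 1 * δ := by
    intro g i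
    rw [Matrix.mul_apply, Fin.sum_univ_two, hβ, hδ]
  obtain ⟨g₂, hg₂⟩ : ∃ g₂, β * (ρ g₂ 1 0 * β + ρ g₂ 1 1 * δ) -
      δ * (ρ g₂ 0 0 * β + ρ g₂ 0 1 * δ) ≠ 0 := by
    by_contra hcon
    push Not at hcon
    refine hno ![φ β, φ δ] ?_ ?_
    · intro h
      have h0 := congrFun h 0
      have h1 := congrFun h 1
      simp only [Matrix.cons_val_zero, Matrix.cons_val_one, Pi.zero_apply] at h0 h1
      rcases hβδ with hb | hd
      · exact hb (hφinj (by rw [h0, map_zero]))
      · exact hd (hφinj (by rw [h1, map_zero]))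
    · intro g
      have hD := hcon g
      by_cases hb : β = 0
      · have hd : δ ≠ 0 := hβδ.resolve_left (not_not.mpr hb)
        have h01 : ρ g 0 1 * δ = 0 := by
          rw [hb] at hD
          have : δ * (ρ g 0 1 * δ) = 0 := by linear_combination -hD
          exact (mul_eq_zero.mp this).resolve_left hd
        refine ⟨φ (ρ g 1 1), ?_⟩
        ext i
        fin_cases i
        · simp only [Matrix.mulVec, dotProduct, Fin.sum_univ_two, Matrix.map_apply,
            Matrix.cons_val_zero, Matrix.cons_val_one, Pi.smul_apply, smul_eq_mul, Fin.zero_eta,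
            Fin.isValue]
          rw [hb, map_zero, mul_zero, mul_zero, zero_add, ← map_mul, h01, map_zero]
        · simp only [Matrix.mulVec, dotProduct, Fin.sum_univ_two, Matrix.map_apply,
            Matrix.cons_val_zero, Matrix.cons_val_one, Pi.smul_apply, smul_eq_mul, Fin.mk_one,
            Fin.isValue]
          rw [hb, map_zero, mul_zero, zero_add]
      · refine ⟨φ ((ρ g 0 0 * β + ρ g 0 1 * δ) / β), ?_⟩
        ext i
        fin_cases i
        · simp only [Matrix.mulVec, dotProduct, Fin.sum_univ_two, Matrix.map_apply,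
            Matrix.cons_val_zero, Matrix.cons_val_one, Pi.smul_apply, smul_eq_mul, Fin.zero_eta,
            Fin.isValue]
          rw [← map_mul, ← map_mul, ← map_mul, ← map_add]
          congr 1
          field_simp
        · simp only [Matrix.mulVec, dotProduct, Fin.sum_univ_two, Matrix.map_apply,
            Matrix.cons_val_zero, Matrix.cons_val_one, Pi.smul_apply, smul_eq_mul, Fin.mk_one,
            Fin.isValue]
          rw [← map_mul, ← map_mul, ← map_mul, ← map_add]
          congr 1
          field_simp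
          linear_combination hD
  obtain ⟨N₂, hN₂⟩ : ∃ N₂, N₂ = ρ g₂ * N₁ := ⟨_, rfl⟩
  have hN₂mem : N₂ ∈ Submodule.span k (Set.range ρ) := hN₂ ▸ s59u_span_mul_left ρ g₂ hN₁mem
  obtain ⟨β', hβ'⟩ : ∃ β', β' = ρ g₂ 0 0 * β + ρ g₂ 0 1 * δ := ⟨_, rfl⟩
  obtain ⟨δ', hδ'⟩ : ∃ δ', δ' = ρ g₂ 1 0 * β + ρ g₂ 1 1 * δ := ⟨_, rfl⟩
  obtain ⟨D, hD⟩ : ∃ D, D = β * δ' - δ * β' := ⟨_, rfl⟩
  have hD0 : D ≠ 0 := by rw [hD, hδ', hβ']; exact hg₂
  have hN₂0 : ∀ i, N₂ i 0 = 0 := fun i => hN₂ ▸ hcol g₂ i
  have hN₂01 : N₂ 0 1 = β' := by rw [hN₂, hcol1, hβ']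
  have hN₂11 : N₂ 1 1 = δ' := by rw [hN₂, hcol1, hδ']
  -- Step 3: all matrices with zero first column
  have hall : ∀ e f : k, (!![0, e; 0, f] : Matrix (Fin 2) (Fin 2) k) ∈
      Submodule.span k (Set.range ρ) := by
    intro e f
    have h1 : (!![0, e; 0, f] : Matrix (Fin 2) (Fin 2) k) =
        ((e * δ' - f * β') / D) • N₁ + ((f * β - e * δ) / D) • N₂ := by
      ext i j
      fin_cases i <;> fin_cases j
      · simp [hN₁0 0, hN₂0 0]
      · simp only [Matrix.of_apply, Matrix.cons_val', Matrix.cons_val_zero, Matrix.cons_val_one,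
          Matrix.cons_val_fin_one, Matrix.add_apply, Matrix.smul_apply, smul_eq_mul, Fin.zero_eta,
          Fin.mk_one, Fin.isValue, ← hβ, hN₂01]
        field_simp
        rw [hD]
        ring
      · simp [hN₁0 1, hN₂0 1]
      · simp only [Matrix.of_apply, Matrix.cons_val', Matrix.cons_val_zero, Matrix.cons_val_one,
          Matrix.cons_val_fin_one, Matrix.add_apply, Matrix.smul_apply, smul_eq_mul, Fin.zero_eta,
          Fin.mk_one, Fin.isValue, ← hδ, hN₂11]
        field_simp
        rw [hD]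
        ring
    rw [h1]
    exact Submodule.add_mem _ (Submodule.smul_mem _ _ hN₁mem) (Submodule.smul_mem _ _ hN₂mem)
  -- Step 4: the four matrix units
  have hE01 := hall 1 0
  have hE11 := hall 0 1
  have hE00 : (!![1, 0; 0, 0] : Matrix (Fin 2) (Fin 2) k) ∈ Submodule.span k (Set.range ρ) := by
    have h1 : (!![1, 0; 0, 0] : Matrix (Fin 2) (Fin 2) k) = 1 - !![0, 0; 0, 1] := by
      ext i j
      fin_cases i <;> fin_cases j <;> simp
    rw [h1]
    exact Submodule.sub_mem _ (s59u_span_one ρ) hE11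
  have hE10 : (!![0, 0; 1, 0] : Matrix (Fin 2) (Fin 2) k) ∈ Submodule.span k (Set.range ρ) := by
    have h1 : (!![0, 0; 1, 0] : Matrix (Fin 2) (Fin 2) k) =
        (1 / c₀) • (ρ g₀ * !![1, 0; 0, 0] - (M₀ 0 0) • !![1, 0; 0, 0]) := by
      ext i j
      fin_cases i <;> fin_cases j
      · simp [Matrix.mul_apply, Fin.sum_univ_two, hM₀]
      · simp [Matrix.mul_apply, Fin.sum_univ_two]
      · simp only [Matrix.of_apply, Matrix.cons_val', Matrix.cons_val_zero, Matrix.cons_val_one,
          Matrix.cons_val_fin_one, Matrix.smul_apply, Matrix.sub_apply, Matrix.mul_apply,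
          Fin.sum_univ_two, smul_eq_mul, Fin.zero_eta, Fin.mk_one, Fin.isValue, mul_one, mul_zero,
          add_zero, sub_zero]
        rw [← hM₀, ← hc₀]
        field_simp
      · simp [Matrix.mul_apply, Fin.sum_univ_two]
    rw [h1]
    exact Submodule.smul_mem _ _ (Submodule.sub_mem _ (s59u_span_mul_left ρ g₀ hE00)
      (Submodule.smul_mem _ _ hE00))
  have hY : Y = Y 0 0 • (!![1, 0; 0, 0] : Matrix (Fin 2) (Fin 2) k) + Y 0 1 • !![0, 1; 0, 0] +
      Y 1 0 • !![0, 0; 1, 0] + Y 1 1 • !![0, 0; 0, 1] := by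
    ext i j
    fin_cases i <;> fin_cases j <;> simp
  rw [hY]
  exact Submodule.add_mem _ (Submodule.add_mem _ (Submodule.add_mem _
    (Submodule.smul_mem _ _ hE00) (Submodule.smul_mem _ _ hE01)) (Submodule.smul_mem _ _ hE10))
    (Submodule.smul_mem _ _ hE11)

end Burnside

/-! ### Field extension -/

section MapSpan

variable {k k' : Type*} [Field k] [Field k'] (f : k →+* k') {G : Type*}

/-- spanning is preserved by a field extension. -/
theorem s59u_span_map (ρ : G → Matrix (Fin 2) (Fin 2) k)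
    (h : ∀ Y : Matrix (Fin 2) (Fin 2) k, Y ∈ Submodule.span k (Set.range ρ))
    (Y' : Matrix (Fin 2) (Fin 2) k') :
    Y' ∈ Submodule.span k' (Set.range fun g => (ρ g).map f) := by
  have key : ∀ Y : Matrix (Fin 2) (Fin 2) k, Y ∈ Submodule.span k (Set.range ρ) →
      Y.map f ∈ Submodule.span k' (Set.range fun g => (ρ g).map f) := by
    intro Y hY
    induction hY using Submodule.span_induction with
    | mem x hx =>
      obtain ⟨g, rfl⟩ := hx
      exact Submodule.subset_span ⟨g, rfl⟩
    | zero =>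
      rw [Matrix.map_zero _ (map_zero f)]
      exact Submodule.zero_mem _
    | add x y _ _ hx hy =>
      rw [Matrix.map_add _ (map_add f)]
      exact Submodule.add_mem _ hx hy
    | smul c x _ hx =>
      rw [Matrix.map_smul' _ _ _ (map_mul f)]
      exact Submodule.smul_mem _ _ hx
  have hY : Y' = Y' 0 0 • (!![1, 0; 0, 0] : Matrix (Fin 2) (Fin 2) k).map f +
      Y' 0 1 • (!![0, 1; 0, 0] : Matrix (Fin 2) (Fin 2) k).map f +
      Y' 1 0 • (!![0, 0; 1, 0] : Matrix (Fin 2) (Fin 2) k).map f +
      Y' 1 1 • (!![0, 0; 0, 1] : Matrix (Fin 2) (Fin 2) k).map f := by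
    ext i j
    fin_cases i <;> fin_cases j <;> simp
  rw [hY]
  exact Submodule.add_mem _ (Submodule.add_mem _ (Submodule.add_mem _
    (Submodule.smul_mem _ _ (key _ (h _))) (Submodule.smul_mem _ _ (key _ (h _))))
    (Submodule.smul_mem _ _ (key _ (h _)))) (Submodule.smul_mem _ _ (key _ (h _)))

end MapSpan

/-! ### Galois representations -/

section Galois

/-- **[SPAN]**: the matrices of an absolutely irreducible residual representation span `M₂(k)`. -/
theorem s59u_span_matOfRes {k : Type} [Field k] (ρ : ResidualGaloisRep k)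
    (habs : ρ.IsAbsolutelyIrreducible) (b : Module.Basis (Fin 2) k ρ.V)
    (Y : Matrix (Fin 2) (Fin 2) k) : Y ∈ Submodule.span k (Set.range (matOfRes ρ b)) :=
  s59u_burnside_two (matOfRes ρ b) (algebraMap k (AlgebraicClosure k))
    (fun w hw h => no_common_eigenvector ρ habs b w hw h) Y

variable {A : Type} [CommRing A] [IsLocalRing A]

/-- **[SPAN], adic form**: the residual matrices of a residually absolutely irreducible `GaloisRepAdic` span
`M₂(k_A)` (= the hypothesis `hres` of helper4's Nakayama lemma `s59i_span_of_residual` for `matOf ρ b`). -/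
theorem s59u_span_residual (ρ : GaloisRepAdic A) (habs : ρ.residual.IsAbsolutelyIrreducible)
    (b : Module.Basis (Fin 2) A ρ.V) (Y : Matrix (Fin 2) (Fin 2) (ResidueField A)) :
    Y ∈ Submodule.span (ResidueField A) (Set.range fun g => (matOf ρ b g).map (residue A)) := by
  obtain ⟨b', hb'⟩ := exists_basis_residual ρ b
  have h1 := s59u_span_matOfRes ρ.residual habs b' Y
  have e : (Set.range (matOfRes ρ.residual b')) =
      Set.range fun g => (matOf ρ b g).map (residue A) := by
    congr 1
    funext g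
    exact hb' g
  rw [← e]
  exact h1

/-- **[SPAN] after push-forward along a local homomorphism `f : A →+* R`**: the residual matrices of
`g ↦ (matOf ρ b g).map f` span `M₂(k_R)`. -/
theorem s59u_span_residual_map {R : Type*} [CommRing R] [IsLocalRing R] (f : A →+* R)
    [IsLocalHom f] (ρ : GaloisRepAdic A) (habs : ρ.residual.IsAbsolutelyIrreducible)
    (b : Module.Basis (Fin 2) A ρ.V) (Y : Matrix (Fin 2) (Fin 2) (ResidueField R)) :
    Y ∈ Submodule.span (ResidueField R)
      (Set.range fun g => ((matOf ρ b g).map f).map (residue R)) := by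
  have h1 := s59u_span_map (ResidueField.map f) (fun g => (matOf ρ b g).map (residue A))
    (s59u_span_residual ρ habs b) Y
  have e : (fun g => ((matOf ρ b g).map (residue A)).map (ResidueField.map f)) =
      fun g => ((matOf ρ b g).map f).map (residue R) := by
    funext g
    ext i j
    simp only [Matrix.map_apply]
    exact ResidueField.map_residue f _
  rw [e] at h1
  exact h1

/-- a matrix with entries in `I` lies in `I • ⊤`. -/
theorem s59u_mem_smul_top_of_entries {R : Type*} [CommRing R] (I : Ideal R)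
    (W : Matrix (Fin 2) (Fin 2) R) (hW : ∀ i j, W i j ∈ I) :
    W ∈ I • (⊤ : Submodule R (Matrix (Fin 2) (Fin 2) R)) := by
  rw [Matrix.matrix_eq_sum_single W]
  refine Submodule.sum_mem _ fun i _ => Submodule.sum_mem _ fun j _ => ?_
  have : Matrix.single i j (W i j) = W i j • Matrix.single i j (1 : R) := by
    rw [Matrix.smul_single, smul_eq_mul, mul_one]
  rw [this]
  exact Submodule.smul_mem_smul (hW i j) Submodule.mem_top

/-- **Nakayama** (same as helper4's `s59i_span_of_residual`, restated here to keep this file on main's closure):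
if the residual matrices span `M₂(k_R)`, the matrices span `M₂(R)`. -/
theorem s59u_span_nakayama {G : Type*} {R : Type*} [CommRing R] [IsLocalRing R]
    (r : G → Matrix (Fin 2) (Fin 2) R)
    (hres : ∀ Y : Matrix (Fin 2) (Fin 2) (ResidueField R), Y ∈
      Submodule.span (ResidueField R) (Set.range fun g => (r g).map (residue R)))
    (Y : Matrix (Fin 2) (Fin 2) R) : Y ∈ Submodule.span R (Set.range r) := by
  set N := Submodule.span R (Set.range r) with hN
  set π : Matrix (Fin 2) (Fin 2) R →ₗ[R] Matrix (Fin 2) (Fin 2) (ResidueField R) :=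
    (Algebra.linearMap R (ResidueField R)).mapMatrix with hπ
  have hπapp : ∀ Z, π Z = Z.map (residue R) := fun Z => rfl
  have hsurj : Function.Surjective (algebraMap R (ResidueField R)) := residue_surjective
  have htop : (⊤ : Submodule R (Matrix (Fin 2) (Fin 2) R)) ≤ N := by
    refine Submodule.le_of_le_smul_of_le_jacobson_bot (I := maximalIdeal R) Module.Finite.fg_top
      (maximalIdeal_le_jacobson _) ?_
    intro Z _
    have h1 : π Z ∈ Submodule.span R (Set.range fun g => (r g).map (residue R)) := by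
      rw [← Submodule.restrictScalars_span R (ResidueField R) hsurj]
      exact hres (π Z)
    have h2 : Submodule.span R (Set.range fun g => (r g).map (residue R)) = N.map π := by
      rw [hN, Submodule.map_span]
      congr 1
      ext W
      constructor
      · rintro ⟨g, rfl⟩
        exact ⟨r g, ⟨g, rfl⟩, rfl⟩
      · rintro ⟨_, ⟨g, rfl⟩, rfl⟩
        exact ⟨g, rfl⟩
    rw [h2] at h1
    obtain ⟨Z', hZ', hZZ'⟩ := h1
    have h3 : Z - Z' ∈ maximalIdeal R • (⊤ : Submodule R (Matrix (Fin 2) (Fin 2) R)) := by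
      refine s59u_mem_smul_top_of_entries _ _ fun i j => ?_
      have := congrFun (congrFun hZZ' i) j
      rw [hπapp, hπapp, Matrix.map_apply, Matrix.map_apply] at this
      rw [Matrix.sub_apply, ← residue_eq_zero_iff, map_sub, this, sub_self]
    have e : Z = Z' + (Z - Z') := by abel
    rw [e]
    exact Submodule.add_mem_sup hZ' h3
  exact htop Submodule.mem_top

/-- **[SPAN], final form**: for a residually absolutely irreducible `ρ : GaloisRepAdic A`, any basis `b` and any
local homomorphism `f : A →+* R` to a local ring, the matrices `(matOf ρ b g).map f` span `M₂(R)` over `R`. -/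
theorem s59u_span_adic_map {R : Type*} [CommRing R] [IsLocalRing R] (f : A →+* R)
    [IsLocalHom f] (ρ : GaloisRepAdic A) (habs : ρ.residual.IsAbsolutelyIrreducible)
    (b : Module.Basis (Fin 2) A ρ.V) (Y : Matrix (Fin 2) (Fin 2) R) :
    Y ∈ Submodule.span R (Set.range fun g => (matOf ρ b g).map f) :=
  s59u_span_nakayama (fun g => (matOf ρ b g).map f) (s59u_span_residual_map f ρ habs b) Y

/-- **[SPAN]** over `A` itself. -/
theorem s59u_span_adic (ρ : GaloisRepAdic A) (habs : ρ.residual.IsAbsolutelyIrreducible)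
    (b : Module.Basis (Fin 2) A ρ.V) (Y : Matrix (Fin 2) (Fin 2) A) :
    Y ∈ Submodule.span A (Set.range (matOf ρ b)) :=
  s59u_span_nakayama (matOf ρ b) (s59u_span_residual ρ habs b) Y

end Galois

end Fermat.Agent.Lib.S59
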