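/-
[E] FINAL ASSEMBLY (helper4, prefix `s59i_`), FIN-A, part B5: **`s59i_FINA4`** = helper6's `s59q_inst_flat` (with ALL its
binders as hypotheses) + the `T`-side contract (for every `r`) + the `E`-data ⇒ `[UNR-PT]` at any prime of `Bd`.
Discharged inside: the choice of the Taylor–Wiles primes, of the universal deformation rings and their normalised
bases, [TAME-REL]/[DET-FROB] (helper5's `s59e_B7_basic`), the residual shapes, [SPAN] (helper3's `s59u_span_matOfRes`).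
-/
import Mathlib
import Fermat.Agent.Lib.S59.LFinB4
import Fermat.Agent.Lib.S59.USpan

set_option autoImplicit false
set_option linter.unusedSectionVars false
set_option linter.unusedVariables false
set_option linter.style.haveILetI false
set_option maxHeartbeats 3200000

noncomputable section

namespace Fermat.Agent.Lib.S59

open IsLocalRing CuspForm Polynomial ExtCitation
open Fermat.Agent.Lib.S53 (matOf matOfRes NormData matOf_apply matOfRes_apply)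
open Fermat.Agent.Lib.Deform (IsTestAlgebra)
open Fermat.Agent.Lib.S56

local notation "Γℚ" => (AlgebraicClosure ℚ ≃ₐ[ℚ] AlgebraicClosure ℚ)

/-- **FIN-A, with the `R`-side discharged by `s59q_inst_flat`.** -/
theorem s59i_FINA4
    (p : ℕ) [hp : Fact p.Prime] (hp2 : p ≠ 2) (N : ℕ) [NeZero N] (B : Finset ℕ) (a : ℕ → ℤ)
    {𝒪 : Type} [CommRing 𝒪] [IsDomain 𝒪] [IsDiscreteValuationRing 𝒪]
    [IsAdicComplete (maximalIdeal 𝒪) 𝒪] [Finite (ResidueField 𝒪)]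
    [Algebra ℤ_[p] 𝒪] [Module.Finite ℤ_[p] 𝒪] (hp𝒪 : ((p : ℕ) : 𝒪) ∈ maximalIdeal 𝒪)
    -- the binders of `s59q_inst_flat`
    (ρbar : ResidualGaloisRep (ResidueField 𝒪))
    (habs : ρbar.IsAbsolutelyIrreducible)
    (hdet : (GaloisRepAdic.ofResidualGaloisRep ρbar).DetIsCyclotomic p)
    (hsplit : ∀ σ : Γℚ, ∃ α β : ResidueField 𝒪,
      LinearMap.charpoly (ρbar.ρ σ) = (X - C α) * (X - C β))
    (hTW : ∀ (K : Type) [Field K] [Algebra (ResidueField 𝒪) K] (G : Subgroup Γℚ), G.index = 2 →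
      ∀ V : Submodule K (ρbar.baseChange K).V,
        (∀ σ ∈ G, ∀ x ∈ V, (ρbar.baseChange K).ρ σ x ∈ V) → V = ⊥ ∨ V = ⊤)
    (S Smin Bd Ed : Finset ℕ) (hpSmin : p ∈ Smin) (hSmin : Smin ⊆ S) (hBS : Bd ⊆ S) (hES : Ed ⊆ S)
    (hBprime : ∀ q ∈ Bd, q.Prime) (hEprime : ∀ q ∈ Ed, q.Prime)
    (hmin : ∀ q : ℕ, q.Prime → q ≠ p → (q ∈ Smin ↔ ¬ ρbar.IsUnramifiedAt q))
    (hBunr : ∀ q ∈ Bd, q ≠ p ∧ ρbar.IsUnramifiedAt q)
    (hEunr : ∀ q ∈ Ed, q ≠ p ∧ ρbar.IsUnramifiedAt q)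
    (hBE : Disjoint Bd Ed)
    (hcen : ∀ q : Nat.Primes, (q : ℕ) ∈ Bd → s59q_CentralAt ρbar q)
    (Nd : NormData ρbar) (m e : ℕ) (pr : Fin m ⊕ Fin e → Nat.Primes)
    (hprB : Finset.univ.image (fun j : Fin m => (pr (Sum.inl j) : ℕ)) = Bd)
    (hprE : Finset.univ.image (fun l : Fin e => (pr (Sum.inr l) : ℕ)) = Ed)
    (hBinj : Function.Injective fun j : Fin m => (pr (Sum.inl j) : ℕ))
    (hEinj : Function.Injective fun l : Fin e => (pr (Sum.inr l) : ℕ))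
    (σq φq : Fin m ⊕ Fin e → Γℚ)
    (hσq : ∀ t, s59q_IsTameGen (pr t) (primeLocalPlace (pr t)) (σq t))
    (hφq : ∀ t, (primeLocalPlace (pr t)).IsFrobeniusAt (φq t) (pr t))
    (D : s59l_EData 𝒪 e)
    (P P' : Fin m ⊕ Fin e → Matrix (Fin 2) (Fin 2) 𝒪) (hPP' : ∀ t, P t * P' t = 1)
    (hP'P : ∀ t, P' t * P t = 1)
    (αE βE : Fin e → 𝒪) (hαβ : ∀ l, residue 𝒪 (αE l) ≠ residue 𝒪 (βE l))
    (hαβ' : ∀ l, residue 𝒪 (αE l) + residue 𝒪 (βE l) ≠ 0)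
    (hdiag : ∀ l, (P' (Sum.inr l)).map (residue 𝒪) * matOfRes ρbar Nd.b (φq (Sum.inr l)) *
      (P (Sum.inr l)).map (residue 𝒪) = Matrix.diagonal ![residue 𝒪 (αE l), residue 𝒪 (βE l)])
    -- the `E`-data
    (hαE : ∀ l, αE l = D.ε l * D.u l) (hβE : ∀ l, βE l = D.ε l)
    (hDu : ∀ l, D.u l = (((pr (Sum.inr l) : ℕ) : ℕ) : 𝒪))
    (hqB : ∀ j, (((pr (Sum.inl j) : ℕ) : ℕ) : 𝒪) - 1 ∈ maximalIdeal 𝒪)
    -- the `T`-side
    (HT : ∀ r : ℕ, 3 * m + e ≤ r →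
      (∀ qv : Fin r → ℕ, Nonempty (GaloisRep.DeformationRingData 𝒪 ρbar (fun _A _ _ _ ρ =>
        GaloisRep.flatCondition 𝒪 p (Smin ∪ (Bd ∪ Ed) ∪ Finset.univ.image qv) ρ ∧
          ∀ q ∈ Smin, q.Prime → q ≠ p → ρ.IsUnipotentOnInertiaAt q))) ∧
      ∃ Bs : s59i_TBase 𝒪 N B a m r (s59q_ZIdx m e) ρbar (fun j => (pr (Sum.inl j) : ℕ)),
        ∀ (n : ℕ) (qv : Fin r → ℕ), Function.Injective qv →
          (∀ i, (qv i).Prime ∧ qv i ∉ S ∧ p ^ (n + 1) ∣ qv i - 1) →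
          (∀ i, ∀ A : ValuationSubring (AlgebraicClosure ℚ), A.LiesOverPrime (qv i) →
            ∀ φ : Γℚ, A.IsFrobeniusAt φ (qv i) →
              ∃ α β : ResidueField 𝒪, α ≠ β ∧
                LinearMap.charpoly (ρbar.ρ φ) = (X - C α) * (X - C β)) →
          ∀ DQ : GaloisRep.DeformationRingData 𝒪 ρbar (fun _A _ _ _ ρ =>
            GaloisRep.flatCondition 𝒪 p (Smin ∪ (Bd ∪ Ed) ∪ Finset.univ.image qv) ρ ∧
              ∀ q ∈ Smin, q.Prime → q ≠ p → ρ.IsUnipotentOnInertiaAt q),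
            Nonempty (s59i_TLevel Bs (fun j => σq (Sum.inl j)) DQ n))
    (j₀ : Fin m) :
    s59i_UnrPt p N B a (pr (Sum.inl j₀) : ℕ) := by
  classical
  obtain ⟨-, -, hmemB, hmemE, -⟩ := s59q_enum_facts Bd Ed pr hprB hprE hBinj hEinj
  obtain ⟨r, hr, H⟩ := s59q_inst_flat p hp2 hp𝒪 ρbar habs hdet hsplit hTW S Smin Bd Ed hpSmin hSmin
    hBS hES hBprime hEprime hmin hBunr hEunr hBE hcen Nd m e pr hprB hprE hBinj hEinj σq φq hσq hφq
    D.i2 D.hi2 P P' hPP' hP'P αE βE hαβ hαβ' hdiag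
  obtain ⟨hDQ, Bs, HL⟩ := HT r hr
  choose qv hqv1 hqv2 hqv3 hqv4 using H
  -- unramifiedness at the framed primes
  have hunr : ∀ t, ((pr t : ℕ) ≠ p) ∧ ρbar.IsUnramifiedAt (pr t) := by
    rintro (j | l)
    · exact hBunr _ (hmemB j)
    · exact hEunr _ (hmemE l)
  -- the deformation rings
  let 𝒟 : ℕ → ∀ ⦃A : Type⦄ [CommRing A] [IsLocalRing A] [Algebra 𝒪 A], GaloisRepAdic A → Prop :=
    fun n _A _ _ _ ρ =>
      GaloisRep.flatCondition 𝒪 p (Smin ∪ (Bd ∪ Ed) ∪ Finset.univ.image (qv n)) ρ ∧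
        ∀ q ∈ Smin, q.Prime → q ≠ p → ρ.IsUnipotentOnInertiaAt q
  let DQ : ∀ n, GaloisRep.DeformationRingData 𝒪 ρbar (𝒟 n) := fun n => (hDQ (qv n)).some
  choose bR hbR using fun n => s56a_exists_basisR (DQ n) Nd
  have hTD : ∀ n t, matOf (DQ n).ρ (bR n) (φq t) * matOf (DQ n).ρ (bR n) (σq t) =
      matOf (DQ n).ρ (bR n) (σq t) ^ (pr t : ℕ) * matOf (DQ n).ρ (bR n) (φq t) ∧
      (matOf (DQ n).ρ (bR n) (φq t)).det = (((pr t : ℕ) : ℕ) : (DQ n).R) := fun n t =>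
    s59i_DQ_tame_det (DQ n) (DQ n).isOfType.1.1 (bR n) (pr t) (pr t).prop (hunr t).1 (hunr t).2
      (primeLocalPlace (pr t)) (s56z_place_liesOver (pr t)) (σq t) (φq t) (hσq t).1 (hφq t)
  -- the residual shapes
  have hdet1 : ∀ j, LinearMap.det (ρbar.ρ (φq (Sum.inl j))) = 1 := by
    intro j
    have h1 := s59e_det_frob (GaloisRepAdic.ofResidualGaloisRep ρbar) hdet (pr (Sum.inl j)).prop
      (hunr (Sum.inl j)).1 (primeLocalPlace (pr (Sum.inl j))) (s56z_place_liesOver _)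
      (φq (Sum.inl j)) (hφq (Sum.inl j))
    have h2 : (((pr (Sum.inl j) : ℕ) : ℕ) : ResidueField 𝒪) = 1 := by
      have := hqB j
      rw [← residue_eq_zero_iff, map_sub, map_natCast, map_one, sub_eq_zero] at this
      exact this
    rw [← h2]
    exact h1
  choose εB hεB hMB using fun j => s59i_hMB_of_hscal Nd D.i2 D.hi2 (φq (Sum.inl j))
    (s59q_scalar_of_central ρbar (pr (Sum.inl j)) (hcen _ (hmemB j)) Nd.b _
      (hφq (Sum.inl j)).mem_decompositionSubgroup) (hdet1 j)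
  have hspanbar : ∀ Y : Matrix (Fin 2) (Fin 2) (ResidueField 𝒪), Y ∈
      Submodule.span (ResidueField 𝒪) (Set.range fun g : Γℚ => matOfRes ρbar Nd.b g) :=
    fun Y => s59u_span_matOfRes ρbar habs Nd.b Y
  have hf0 : ∀ l, D.i2 * (αE l - βE l) = D.f0 l := by
    intro l
    rw [hαE, hβE, s59l_EData.f0]; ring
  let TL : ∀ n, s59i_TLevel Bs (fun j => σq (Sum.inl j)) (DQ n) n := fun n =>
    (HL n (qv n) (hqv1 n) (hqv2 n) (hqv3 n) (DQ n)).some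
  exact s59i_FINA3 p N B a hp𝒪 ρbar Nd hspanbar m e r D (fun t => (pr t : ℕ)) σq φq P P' hP'P αE βE
    hf0 hDu hqB εB hεB hMB
    (fun l a b => s59i_Mtil_sub_one_of_unram Nd (pr (Sum.inr l)) (hunr (Sum.inr l)).2
      (primeLocalPlace (pr (Sum.inr l))) (s56z_place_liesOver _) (σq (Sum.inr l))
      (hσq (Sum.inr l)).1 a b)
    (fun l => s59i_hME2_of_hdiag Nd D.i2 (D.ε l) (D.u l) (αE l) (βE l) D.hi2 (hαE l) (hβE l)
      (P (Sum.inr l)) (P' (Sum.inr l)) (hPP' (Sum.inr l)) (φq (Sum.inr l)) (hdiag l))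
    𝒟 DQ bR hbR (fun n t => (hTD n t).1) (fun n t => (hTD n t).2)
    (fun n {T} _ _ _ _ _ hT θ hθ => hqv4 n (DQ n) (bR n) (hbR n) hT θ hθ)
    Bs TL j₀ (pr (Sum.inl j₀)).prop (hunr (Sum.inl j₀)).1 (primeLocalPlace (pr (Sum.inl j₀)))
    (s56z_place_liesOver _) (hσq (Sum.inl j₀)) (hunr (Sum.inl j₀)).2

end Fermat.Agent.Lib.S59
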