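/-
PROGRAMME (R), final wiring, node [SS-MODEL] (helper6, prefix `s59q_`): **replacing an arbitrary integral model of
the Frey curve by the semistable model `P.freyCurveInt`.**

* `s59q_ap_eq_of_models`: two integral models `W`, `W₀` of the same curve over `ℚ` have the same `a_ℓ` at every prime
  `ℓ` of good reduction for both (equality in `ℤ`, every `ℓ`, no irreducibility hypothesis).  Proof: the relation
  `σ² - a_ℓ σ + ℓ = 0` on `λ^n`-torsion points (main's `s44s_ellFrob`) for both models, transported by the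
  Galois-equivariant isomorphism `W(ℚ̄) ≃ E(ℚ̄) ≃ W₀(ℚ̄)` (`s44s_Psi`), gives `λ^n ∣ a_ℓ(W) - a_ℓ(W₀)` for all `n`.
* `s59q_levelOcc_congr`: `s44i_LevelOcc` only depends on the `a_ℓ`, `ℓ ∉ B`.
* `s59q_frey_ssModel`: `P.freyCurveInt` is a semistable integral model of the Frey curve whose bad primes are the
  primes dividing `abc` (main's `s12s_Arith`).
* `s59q_levelOcc_frey`: for an integral model `W` of the Frey curve and `B ⊇ bad(W) ∪ bad(W₀)`: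
  `LevelOcc(a(W), B) ↔ LevelOcc(a(W₀), B)`.
-/
import Fermat.Agent.Lib.S44.SoftTransport
import Fermat.Agent.Lib.S44.SoftDens
import Fermat.Agent.Lib.S44.Iface
import Fermat.Agent.Lib.S58.OExact
import Fermat.Agent.Lib.S12.NArith
import Fermat.Agent.Lib.Frobenius.Exists

set_option autoImplicit false
set_option linter.style.haveILetI false
set_option linter.unusedSectionVars false

noncomputable section

namespace Fermat.Agent.Lib.S59

open WeierstrassCurve Fermat.Agent.Lib.S44 Fermat.Agent.Lib.S58 Fermat.Agent.Lib.S12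

local notation "Γℚ" => (AlgebraicClosure ℚ ≃ₐ[ℚ] AlgebraicClosure ℚ)
local notation "Kb" => AlgebraicClosure ℚ

/-- an integer divisible by all powers of a prime is zero. -/
theorem s59q_int_eq_zero_of_pow_dvd (lam : ℕ) (hlam : lam.Prime) (d : ℤ)
    (h : ∀ n : ℕ, ((lam ^ (n + 1) : ℕ) : ℤ) ∣ d) : d = 0 := by
  by_contra hd
  have h1 := h d.natAbs
  have h2 : lam ^ (d.natAbs + 1) ∣ d.natAbs := Int.natCast_dvd.1 h1
  have h3 : lam ^ (d.natAbs + 1) ≤ d.natAbs := Nat.le_of_dvd (Int.natAbs_pos.2 hd) h2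
  have h4 : d.natAbs + 1 < lam ^ (d.natAbs + 1) := Nat.lt_pow_self hlam.one_lt
  omega

/-- **`a_ℓ` does not depend on the integral model** (at primes of good reduction for both models). -/
theorem s59q_ap_eq_of_models (E : WeierstrassCurve ℚ) (W W₀ : WeierstrassCurve ℤ)
    (hW : W.IsIntegralModelOf E) (hW₀ : W₀.IsIntegralModelOf E) (ℓ : ℕ) (hℓ : ℓ.Prime)
    (hg : W.IsGoodPrimeFor ℓ) (hg₀ : W₀.IsGoodPrimeFor ℓ) : W.apOfModel ℓ = W₀.apOfModel ℓ := by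
  obtain ⟨C, hC⟩ := hW
  obtain ⟨C₀, hC₀⟩ := hW₀
  have hΔ₀ : W₀.Δ ≠ 0 := fun h => hg₀ (by rw [h]; exact dvd_zero _)
  -- the auxiliary prime
  obtain ⟨lam, hlam, hlam2, hlamℓ⟩ : ∃ lam : ℕ, lam.Prime ∧ lam ≠ 2 ∧ lam ≠ ℓ := by
    by_cases h3 : ℓ = 3
    · exact ⟨5, by norm_num, by norm_num, by rw [h3]; norm_num⟩
    · exact ⟨3, by norm_num, by norm_num, fun h => h3 h.symm⟩
  obtain ⟨A, σ, hA, hσ⟩ := Fermat.Agent.Lib.Frobenius.exists_isFrobeniusAt ℓ hℓ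
  -- the transport
  set Θ : s58_Pt W ≃+ s58_Pt W₀ := (s44s_Psi E W C hC).trans (s44s_Psi E W₀ C₀ hC₀).symm with hΘ
  have hΘσ : ∀ (τ : Γℚ) (Q : s58_Pt W), Θ (τ • Q) = τ • Θ Q := by
    intro τ Q
    show (s44s_Psi E W₀ C₀ hC₀).symm (s44s_Psi E W C hC (τ • Q)) =
      τ • (s44s_Psi E W₀ C₀ hC₀).symm (s44s_Psi E W C hC Q)
    rw [s44s_Psi_sigma, s44s_Psi_symm_sigma]
  rw [← sub_eq_zero]
  apply s59q_int_eq_zero_of_pow_dvd lam hlam
  intro n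
  obtain ⟨Q₀, hQ₀, hQ₀'⟩ := s58o_ellExact W₀ hΔ₀ lam hlam n
  have hord : addOrderOf Q₀ = lam ^ (n + 1) :=
    haveI : Fact lam.Prime := ⟨hlam⟩
    addOrderOf_eq_prime_pow hQ₀' hQ₀
  set Q : s58_Pt W := Θ.symm Q₀ with hQ
  have hQtor : lam ^ (n + 1) • Q = 0 := by
    rw [hQ, ← map_nsmul, hQ₀, map_zero]
  have h1 := s44s_ellFrob W ℓ hℓ hg lam hlam hlam2 hlamℓ (n + 1) A hA σ hσ Q hQtor
  have h2 := s44s_ellFrob W₀ ℓ hℓ hg₀ lam hlam hlam2 hlamℓ (n + 1) A hA σ hσ Q₀ hQ₀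
  have h1' : σ • σ • Q₀ - W.apOfModel ℓ • σ • Q₀ + ℓ • Q₀ = 0 := by
    have := congrArg Θ h1
    simp only [map_add, map_sub, map_zero, map_zsmul, map_nsmul, hΘσ] at this
    rw [hQ, AddEquiv.apply_symm_apply] at this
    exact this
  have h3 : (W.apOfModel ℓ - W₀.apOfModel ℓ) • (σ • Q₀) = 0 := by
    rw [sub_smul]
    have : W.apOfModel ℓ • σ • Q₀ = σ • σ • Q₀ + ℓ • Q₀ := by
      have := h1'
      rw [sub_add_eq_add_sub, sub_eq_zero] at this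
      exact this.symm
    have h2' : W₀.apOfModel ℓ • σ • Q₀ = σ • σ • Q₀ + ℓ • Q₀ := by
      have := h2
      rw [sub_add_eq_add_sub, sub_eq_zero] at this
      exact this.symm
    rw [this, h2', sub_self]
  have h4 : (W.apOfModel ℓ - W₀.apOfModel ℓ) • Q₀ = 0 := by
    apply MulAction.injective σ
    have e1 : σ • ((W.apOfModel ℓ - W₀.apOfModel ℓ) • Q₀) =
        (W.apOfModel ℓ - W₀.apOfModel ℓ) • (σ • Q₀) :=
      (DistribSMul.toAddMonoidHom (s58_Pt W₀) σ).map_zsmul (W.apOfModel ℓ - W₀.apOfModel ℓ) Q₀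
    have e2 : σ • (0 : s58_Pt W₀) = 0 := (DistribSMul.toAddMonoidHom (s58_Pt W₀) σ).map_zero
    show σ • ((W.apOfModel ℓ - W₀.apOfModel ℓ) • Q₀) = σ • (0 : s58_Pt W₀)
    rw [e1, h3, e2]
  have h5 := (addOrderOf_dvd_iff_zsmul_eq_zero).2 h4
  rwa [hord] at h5

/-- `s44i_LevelOcc` only depends on the `a_ℓ` outside `B`. -/
theorem s59q_levelOcc_congr (N p : ℕ) (a a₀ : ℕ → ℤ) (B : Finset ℕ)
    (h : ∀ ℓ : ℕ, ℓ.Prime → ℓ ∉ B → a ℓ = a₀ ℓ) :
    s44i_LevelOcc N p a B ↔ s44i_LevelOcc N p a₀ B := by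
  constructor
  · rintro ⟨g, 𝔪, hg, hmax, hp, hc⟩
    refine ⟨g, 𝔪, hg, hmax, hp, fun ℓ hℓ hℓB => ?_⟩
    obtain ⟨α, hα, hα'⟩ := hc ℓ hℓ hℓB
    exact ⟨α, hα, by rw [← h ℓ hℓ hℓB]; exact hα'⟩
  · rintro ⟨g, 𝔪, hg, hmax, hp, hc⟩
    refine ⟨g, 𝔪, hg, hmax, hp, fun ℓ hℓ hℓB => ?_⟩
    obtain ⟨α, hα, hα'⟩ := hc ℓ hℓ hℓB
    exact ⟨α, hα, by rw [h ℓ hℓ hℓB]; exact hα'⟩

/-- **the semistable integral model of the Frey curve.** -/
theorem s59q_frey_ssModel (P : FreyPackage) :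
    P.freyCurveInt.IsIntegralModelOf P.freyCurve ∧ P.freyCurveInt.IsSemistableModel ∧
      P.freyCurveInt.Δ ≠ 0 ∧
      ∀ ℓ : ℕ, ℓ.Prime → (¬ P.freyCurveInt.IsGoodPrimeFor ℓ ↔ (ℓ : ℤ) ∣ P.a * P.b * P.c) := by
  obtain ⟨hmap, hΔ, hdiv, hss⟩ := s12s_Arith P
  refine ⟨⟨1, ?_⟩, fun ℓ hℓ hd => hss ℓ hℓ hd, hΔ, fun ℓ hℓ => ?_⟩
  · rw [one_smul, hmap]
  · unfold WeierstrassCurve.IsGoodPrimeFor
    rw [not_not]
    exact hdiv ℓ hℓ

/-- **transport of `LevelOcc` between an integral model of the Frey curve and the semistable model.** -/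
theorem s59q_levelOcc_frey (P : FreyPackage) (W : WeierstrassCurve ℤ) (hW : W.IsIntegralModelOf P.freyCurve)
    (N : ℕ) (B : Finset ℕ) (hB : ∀ r : ℕ, r.Prime → ¬ W.IsGoodPrimeFor r → r ∈ B)
    (hB₀ : ∀ r : ℕ, r.Prime → ¬ P.freyCurveInt.IsGoodPrimeFor r → r ∈ B) :
    s44i_LevelOcc N P.p (fun ℓ => W.apOfModel ℓ) B ↔
      s44i_LevelOcc N P.p (fun ℓ => P.freyCurveInt.apOfModel ℓ) B := by
  apply s59q_levelOcc_congr
  intro ℓ hℓ hℓB
  have hg : W.IsGoodPrimeFor ℓ := by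
    by_contra h; exact hℓB (hB ℓ hℓ h)
  have hg₀ : P.freyCurveInt.IsGoodPrimeFor ℓ := by
    by_contra h; exact hℓB (hB₀ ℓ hℓ h)
  exact s59q_ap_eq_of_models P.freyCurve W P.freyCurveInt hW (s59q_frey_ssModel P).1 ℓ hℓ hg hg₀

end Fermat.Agent.Lib.S59
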