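/-
PROGRAMME (R), final wiring, node [SS-MODEL], part 2 (helper6, prefix `s59q_`): **[IA′-core] may be proved for the
semistable model `P.freyCurveInt` only.**

`s59q_IAcoreSs` is helper3's `s59i_IAcoreF` (VCore.lean) with `W := P.freyCurveInt` (semistable, `Δ ≠ 0`, bad primes =
primes dividing `abc`: `s59q_frey_ssModel`).  `s59q_IAcoreF_of_ss : s59q_IAcoreSs → (the body of s59i_IAcoreF)`; the
conclusion is the definitional unfolding of `s59i_IAcoreF`, so `fun h => s59q_IAcoreF_of_ss h : s59i_IAcoreF`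
typechecks wherever `VCore` is imported (VCore itself is not imported here to keep the closure on main + `VFrey`).
-/
import Fermat.Agent.Lib.S59.VFrey
import Fermat.Agent.Lib.S59.QSsModel

set_option autoImplicit false
set_option linter.style.haveILetI false
set_option linter.unusedSectionVars false

noncomputable section

namespace Fermat.Agent.Lib.S59

open WeierstrassCurve WeierstrassCurve.Affine WeierstrassCurve.Affine.Point FreyPackage
open Fermat.Agent.Lib.S44 Fermat.Agent.Lib.S12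

/-- **[IA′-core] for the semistable Frey model.** -/
def s59q_IAcoreSs : Prop :=
  ∀ (P : FreyPackage) (N : ℕ), P.IsConductorLevel N →
    GaloisRepIsIrreducible (K := AlgebraicClosure ℚ) ℚ P.freyCurve P.p →
  ∀ Bd : Finset ℕ, Bd.Nonempty →
    (∀ q ∈ Bd, q.Prime ∧ q ≠ P.p ∧ q ∣ N ∧ P.GaloisRepUnramifiedAt q ∧ P.p ∣ q - 1 ∧
      s59v_FreyFrobScalar P q) →
    (∀ ℓ : ℕ, ℓ.Prime → 5 ≤ ℓ → ℓ ≠ P.p → ℓ ∣ N → ℓ ∉ Bd → ¬ P.GaloisRepUnramifiedAt ℓ) →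
  ∀ B : Finset ℕ, (∀ r : ℕ, r.Prime → r ∣ N * P.p → r ∈ B) →
    (∀ r : ℕ, r.Prime → (r : ℤ) ∣ P.a * P.b * P.c → r ∈ B) →
    s44i_LevelOcc N P.p (fun ℓ => P.freyCurveInt.apOfModel ℓ) B →
    ∃ q ∈ Bd, s44i_LevelOcc (N / q) P.p (fun ℓ => P.freyCurveInt.apOfModel ℓ) B

/-- **[IA′-core] for every integral model from [IA′-core] for the semistable model** (the conclusion is the body of
helper3's `s59i_IAcoreF`). -/
theorem s59q_IAcoreF_of_ss (h : s59q_IAcoreSs) :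
    ∀ (P : FreyPackage) (W : WeierstrassCurve ℤ), W.IsIntegralModelOf P.freyCurve →
    ∀ (N : ℕ), P.IsConductorLevel N →
      GaloisRepIsIrreducible (K := AlgebraicClosure ℚ) ℚ P.freyCurve P.p →
    ∀ Bd : Finset ℕ, Bd.Nonempty →
      (∀ q ∈ Bd, q.Prime ∧ q ≠ P.p ∧ q ∣ N ∧ P.GaloisRepUnramifiedAt q ∧ P.p ∣ q - 1 ∧
        s59v_FreyFrobScalar P q) →
      (∀ ℓ : ℕ, ℓ.Prime → 5 ≤ ℓ → ℓ ≠ P.p → ℓ ∣ N → ℓ ∉ Bd → ¬ P.GaloisRepUnramifiedAt ℓ) →
    ∀ B : Finset ℕ, (∀ r : ℕ, r.Prime → r ∣ N * P.p → r ∈ B) →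
      (∀ r : ℕ, r.Prime → ¬ W.IsGoodPrimeFor r → r ∈ B) →
      s44i_LevelOcc N P.p (fun ℓ => W.apOfModel ℓ) B →
      ∃ q ∈ Bd, s44i_LevelOcc (N / q) P.p (fun ℓ => W.apOfModel ℓ) B := by
  intro P W hW N hcond hirr Bd hne hBd hram B hB1 hB2 hocc
  have hB0 : ∀ r : ℕ, r.Prime → (r : ℤ) ∣ P.a * P.b * P.c → r ∈ B := fun r hr hd =>
    hB2 r hr (s59v_bad_of_dvd_abc P W hW hr hd)
  have hB0' : ∀ r : ℕ, r.Prime → ¬ P.freyCurveInt.IsGoodPrimeFor r → r ∈ B := fun r hr hbad =>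
    hB0 r hr (((s59q_frey_ssModel P).2.2.2 r hr).1 hbad)
  have hocc₀ := (s59q_levelOcc_frey P W hW N B hB2 hB0').1 hocc
  obtain ⟨q, hq, hlev⟩ := h P N hcond hirr Bd hne hBd hram B hB1 hB0 hocc₀
  exact ⟨q, hq, (s59q_levelOcc_frey P W hW (N / q) B hB2 hB0').2 hlev⟩

end Fermat.Agent.Lib.S59
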