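/-
Programme (R), TARGET = frozen S43 — **top wiring by MINIMALITY** (helper4's design #3360, written by
helper3; vocabulary of `VFrey.lean`/helper9's `MFrey.lean`).

The patching argument removes ONE scalar-type prime from a level ALL of whose unramified primes
`ℓ ≥ 5`, `ℓ ≠ p` are of scalar type (the primes `2`, `3` are free: E-tolerance).  Frozen S43 only asks
for SOME `M' ∣ N` with `q ∤ M'`, so no "going up" is needed:

* `s59i_IAcoreF` : **[IA′-core], Frey form**;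
* `s59i_S43Five_of : s59m_MPF5 → s59i_IAcoreF → s59m_S43Five` : among the divisors `N₁ ∣ N` at which
  the eigen-system of `W` occurs take the LEAST one; if `q ∣ N₁` then by [MP′-F] and minimality every
  unramified prime `ℓ ≥ 5`, `ℓ ≠ p` of `N₁` is of scalar type, and [IA′-core] contradicts minimality;
* `s59i_S43_final : s59m_MPF5 → s59i_IAcoreF →` frozen S43, verbatim.

**`p`-free variant (helper5 #3414).**  On the `T`-side only the FLAT deformation problem is available, so the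
patching needs `p ∤ N`.  `s59i_IAcoreFp` is `s59i_IAcoreF` with the extra hypothesis `¬ P.p ∣ N`;
`s59i_S43Five_of_p`, `s59i_S43_final_p` first remove `p` from the level by S44 (`s44_final`, on main) and then
run the minimality argument among the divisors of a level prime to `p`.  The old statements are corollaries.
-/
import Fermat.Agent.Lib.S59.MFrey
import Fermat.Agent.Lib.S44.Asm3

set_option autoImplicit false
set_option linter.style.haveILetI false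
set_option linter.unusedSectionVars false

namespace Fermat.Agent.Lib.S59

open WeierstrassCurve WeierstrassCurve.Affine WeierstrassCurve.Affine.Point FreyPackage
open Fermat.Agent.Lib.S44 Fermat.Agent.Lib.S12

noncomputable section

/-- **[IA′-core], Frey form**: at a conductor level `N` all of whose unramified primes `ℓ ≥ 5`,
`ℓ ≠ p` are of scalar type (`ℓ ≡ 1 (p)`, Frobenius scalar; collected in `Bd ≠ ∅`), ONE of them can be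
removed.  The primes `2`, `3` are unconstrained. -/
def s59i_IAcoreF : Prop :=
  ∀ (P : FreyPackage) (W : WeierstrassCurve ℤ), W.IsIntegralModelOf P.freyCurve →
  ∀ (N : ℕ), P.IsConductorLevel N →
    GaloisRepIsIrreducible (K := AlgebraicClosure ℚ) ℚ P.freyCurve P.p →
  ∀ Bd : Finset ℕ, Bd.Nonempty →
    (∀ q ∈ Bd, q.Prime ∧ q ≠ P.p ∧ q ∣ N ∧ P.GaloisRepUnramifiedAt q ∧ P.p ∣ q - 1 ∧
      s59v_FreyFrobScalar P q) →
    (∀ ℓ : ℕ, ℓ.Prime → 5 ≤ ℓ → ℓ ≠ P.p → ℓ ∣ N → ℓ ∉ Bd → ¬ P.GaloisRepUnramifiedAt ℓ) →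
  ∀ B : Finset ℕ, (∀ r : ℕ, r.Prime → r ∣ N * P.p → r ∈ B) →
    (∀ r : ℕ, r.Prime → ¬ W.IsGoodPrimeFor r → r ∈ B) →
    s44i_LevelOcc N P.p (fun ℓ => W.apOfModel ℓ) B →
    ∃ q ∈ Bd, s44i_LevelOcc (N / q) P.p (fun ℓ => W.apOfModel ℓ) B

/-- **[IA′-core], Frey form, at a level prime to `p`** (the only case the patching has to treat: the
`T`-side is then of FLAT type at `p`). -/
def s59i_IAcoreFp : Prop :=
  ∀ (P : FreyPackage) (W : WeierstrassCurve ℤ), W.IsIntegralModelOf P.freyCurve →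
  ∀ (N : ℕ), P.IsConductorLevel N → ¬ P.p ∣ N →
    GaloisRepIsIrreducible (K := AlgebraicClosure ℚ) ℚ P.freyCurve P.p →
  ∀ Bd : Finset ℕ, Bd.Nonempty →
    (∀ q ∈ Bd, q.Prime ∧ q ≠ P.p ∧ q ∣ N ∧ P.GaloisRepUnramifiedAt q ∧ P.p ∣ q - 1 ∧
      s59v_FreyFrobScalar P q) →
    (∀ ℓ : ℕ, ℓ.Prime → 5 ≤ ℓ → ℓ ≠ P.p → ℓ ∣ N → ℓ ∉ Bd → ¬ P.GaloisRepUnramifiedAt ℓ) →
  ∀ B : Finset ℕ, (∀ r : ℕ, r.Prime → r ∣ N * P.p → r ∈ B) →
    (∀ r : ℕ, r.Prime → ¬ W.IsGoodPrimeFor r → r ∈ B) →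
    s44i_LevelOcc N P.p (fun ℓ => W.apOfModel ℓ) B →
    ∃ q ∈ Bd, s44i_LevelOcc (N / q) P.p (fun ℓ => W.apOfModel ℓ) B

theorem s59i_IAcoreFp_of (h : s59i_IAcoreF) : s59i_IAcoreFp :=
  fun P W hW N hcond _ => h P W hW N hcond

/-- **the minimality argument at a level prime to `p`.** -/
theorem s59i_S43Five_aux (hMP : s59m_MPF5) (hIA : s59i_IAcoreFp)
    (P : FreyPackage) {N q : ℕ} (hcond : P.IsConductorLevel N) (hpN : ¬ P.p ∣ N) (hq : q.Prime)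
    (hq5 : 5 ≤ q) (hqp : q ≠ P.p) (hqN : q ∣ N)
    (hirr : GaloisRepIsIrreducible (K := AlgebraicClosure ℚ) ℚ P.freyCurve P.p)
    (hmod : P.ModularRepOfLevel N) (hunr : P.GaloisRepUnramifiedAt q) :
    ∃ M : ℕ, M ∣ N ∧ ¬ q ∣ M ∧ P.ModularRepOfLevel M := by
  classical
  have hp := P.pp
  have hN0 : N ≠ 0 := hcond.pos.ne'
  obtain ⟨f, W, 𝔪, hf, hW, hmax, hpm, hcong⟩ := hmod
  have hΔ : W.Δ ≠ 0 := s59v_Δ_ne_zero P W hW
  have hprod : N * P.p * W.Δ.natAbs ≠ 0 :=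
    Nat.mul_ne_zero (Nat.mul_ne_zero hN0 hp.ne_zero) (Int.natAbs_ne_zero.mpr hΔ)
  obtain ⟨B, hB⟩ : ∃ B : Finset ℕ, B = (N * P.p * W.Δ.natAbs).primeFactors := ⟨_, rfl⟩
  have hB1 : ∀ r : ℕ, r.Prime → r ∣ N * P.p → r ∈ B := fun r hr hd => by
    rw [hB]; exact Nat.mem_primeFactors.mpr ⟨hr, hd.mul_right _, hprod⟩
  have hB2 : ∀ r : ℕ, r.Prime → ¬ W.IsGoodPrimeFor r → r ∈ B := fun r hr hbad => by
    have hd : (r : ℤ) ∣ W.Δ := not_not.mp hbad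
    have hd' : r ∣ W.Δ.natAbs := Int.natCast_dvd.mp hd
    rw [hB]; exact Nat.mem_primeFactors.mpr ⟨hr, hd'.mul_left _, hprod⟩
  have hBmem : ∀ ℓ : ℕ, ℓ ∈ B → ℓ ∣ N ∨ ℓ = P.p ∨ (ℓ : ℤ) ∣ W.Δ := by
    intro ℓ hmem
    rw [hB] at hmem
    have hℓ := (Nat.mem_primeFactors.mp hmem).1
    have hd := (Nat.mem_primeFactors.mp hmem).2.1
    rcases (Nat.Prime.dvd_mul hℓ).mp hd with h | h
    · rcases (Nat.Prime.dvd_mul hℓ).mp h with h | h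
      · exact Or.inl h
      · exact Or.inr (Or.inl ((Nat.prime_dvd_prime_iff_eq hℓ hp).mp h))
    · exact Or.inr (Or.inr (Int.natCast_dvd.mpr h))
  have hocc : s44i_LevelOcc N P.p (fun ℓ => W.apOfModel ℓ) B := by
    refine ⟨f, 𝔪, hf, hmax, hpm, fun ℓ hℓ hℓB => hcong ℓ hℓ ?_ ?_ ?_⟩
    · exact fun hbad => hℓB (hB2 ℓ hℓ (not_not.mpr hbad))
    · exact fun hd => hℓB (hB1 ℓ hℓ (hd.mul_right _))
    · rintro rfl
      exact hℓB (hB1 _ hℓ (Dvd.intro_left _ rfl))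
  -- the least divisor of `N` at which the eigen-system occurs
  have hex : ∃ N₁ : ℕ, N₁ ∣ N ∧ s44i_LevelOcc N₁ P.p (fun ℓ => W.apOfModel ℓ) B :=
    ⟨N, dvd_rfl, hocc⟩
  obtain ⟨hN₁N, hocc₁⟩ := Nat.find_spec hex
  have hmin : ∀ N₂ : ℕ, N₂ < Nat.find hex → N₂ ∣ N →
      ¬ s44i_LevelOcc N₂ P.p (fun ℓ => W.apOfModel ℓ) B :=
    fun N₂ hlt hd hocc₂ => Nat.find_min hex hlt ⟨hd, hocc₂⟩
  set N₁ := Nat.find hex with hN₁
  have hN₁pos : 0 < N₁ := Nat.pos_of_ne_zero fun h => hN0 (by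
    rw [h] at hN₁N; exact Nat.eq_zero_of_zero_dvd hN₁N)
  have hcond₁ : P.IsConductorLevel N₁ := hcond.of_dvd hN₁N hN₁pos
  -- removing a prime `ℓ ∣ N₁` gives a smaller divisor of `N`
  have hdiv : ∀ ℓ : ℕ, ℓ.Prime → ℓ ∣ N₁ → N₁ / ℓ < N₁ ∧ N₁ / ℓ ∣ N ∧ N₁ / ℓ * ℓ = N₁ :=
    fun ℓ hℓ hd => ⟨Nat.div_lt_self hN₁pos hℓ.one_lt, (Nat.div_dvd_of_dvd hd).trans hN₁N,
      Nat.div_mul_cancel hd⟩
  have hB1' : ∀ r : ℕ, r.Prime → r ∣ N₁ * P.p → r ∈ B := fun r hr hd =>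
    hB1 r hr (hd.trans (Nat.mul_dvd_mul_right hN₁N _))
  -- `q ∤ N₁`
  have hqN₁ : ¬ q ∣ N₁ := by
    intro hqd
    set Bd : Finset ℕ := N₁.primeFactors.filter
      (fun ℓ => 5 ≤ ℓ ∧ ℓ ≠ P.p ∧ P.GaloisRepUnramifiedAt ℓ) with hBd
    have hBdmem : ∀ ℓ, ℓ ∈ Bd ↔ (ℓ.Prime ∧ ℓ ∣ N₁) ∧ 5 ≤ ℓ ∧ ℓ ≠ P.p ∧
        P.GaloisRepUnramifiedAt ℓ := by
      intro ℓ
      rw [hBd, Finset.mem_filter, Nat.mem_primeFactors]
      constructor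
      · rintro ⟨⟨h1, h2, -⟩, h3⟩
        exact ⟨⟨h1, h2⟩, h3⟩
      · rintro ⟨⟨h1, h2⟩, h3⟩
        exact ⟨⟨h1, h2, hN₁pos.ne'⟩, h3⟩
    have hBdne : Bd.Nonempty := ⟨q, (hBdmem q).mpr ⟨⟨hq, hqd⟩, hq5, hqp, hunr⟩⟩
    have hBd1 : ∀ ℓ ∈ Bd, ℓ.Prime ∧ ℓ ≠ P.p ∧ ℓ ∣ N₁ ∧ P.GaloisRepUnramifiedAt ℓ ∧
        P.p ∣ ℓ - 1 ∧ s59v_FreyFrobScalar P ℓ := by
      intro ℓ hℓBd
      obtain ⟨⟨hℓ, hℓd⟩, hℓ5, hℓp, hℓunr⟩ := (hBdmem ℓ).mp hℓBd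
      obtain ⟨hlt, hdN, hmul⟩ := hdiv ℓ hℓ hℓd
      have hcondℓ : P.IsConductorLevel (N₁ / ℓ * ℓ) := by rw [hmul]; exact hcond₁
      have hBℓ : ∀ r : ℕ, r.Prime → r ∣ N₁ / ℓ * ℓ * P.p → r ∈ B := by
        rw [hmul]; exact hB1'
      have hoccℓ : s44i_LevelOcc (N₁ / ℓ * ℓ) P.p (fun ℓ => W.apOfModel ℓ) B := by
        rw [hmul]; exact hocc₁
      rcases hMP P W hW (N₁ / ℓ) ℓ hcondℓ hℓ hℓ5 hℓp hirr hℓunr B hBℓ hB2 hoccℓ with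
        h | ⟨h1, hsc⟩
      · exact absurd h (hmin _ hlt hdN)
      · exact ⟨hℓ, hℓp, hℓd, hℓunr, h1, hsc⟩
    have hBd2 : ∀ ℓ : ℕ, ℓ.Prime → 5 ≤ ℓ → ℓ ≠ P.p → ℓ ∣ N₁ → ℓ ∉ Bd →
        ¬ P.GaloisRepUnramifiedAt ℓ :=
      fun ℓ hℓ hℓ5 hℓp hℓd hℓBd hℓunr => hℓBd ((hBdmem ℓ).mpr ⟨⟨hℓ, hℓd⟩, hℓ5, hℓp, hℓunr⟩)
    obtain ⟨q', hq'Bd, hocc'⟩ := hIA P W hW N₁ hcond₁ (fun h => hpN (h.trans hN₁N)) hirr Bd hBdne
      hBd1 hBd2 B hB1' hB2 hocc₁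
    obtain ⟨⟨hq', hq'd⟩, -, -, -⟩ := (hBdmem q').mp hq'Bd
    obtain ⟨hlt, hdN, -⟩ := hdiv q' hq' hq'd
    exact hmin _ hlt hdN hocc'
  -- conclusion at the level `N₁`
  obtain ⟨g, 𝔪', hg, hmax', hpm', hc⟩ := hocc₁
  refine ⟨N₁, hN₁N, hqN₁, g, W, 𝔪', hg, hW, hmax', hpm',
    fun ℓ hℓ hgood hℓM hℓp => hc ℓ hℓ fun hmem => ?_⟩
  rcases hBmem ℓ hmem with h | h | h
  · exact s59v_bad_of_dvd_abc P W hW hℓ (hcond.support ℓ hℓ h) hgood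
  · exact hℓp h
  · exact hgood h

/-- **frozen S43 restricted to `q ≥ 5` from [MP′-F] (`q ≥ 5`) and [IA′-core] at levels prime to `p`**:
first remove `p` from the level (S44), then minimality. -/
theorem s59i_S43Five_of_p (hMP : s59m_MPF5) (hIA : s59i_IAcoreFp) : s59m_S43Five := by
  intro P N q hcond hq hq5 hqp hqN hirr hmod hunr
  by_cases hpN : P.p ∣ N
  · obtain ⟨M₁, hM₁N, hpM₁, hmod₁⟩ := Fermat.Agent.Lib.S44.s44_final P hcond hpN hirr hmod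
    have hM₁pos : 0 < M₁ := Nat.pos_of_ne_zero fun h => hcond.pos.ne' (by
      rw [h] at hM₁N; exact Nat.eq_zero_of_zero_dvd hM₁N)
    by_cases hqM₁ : q ∣ M₁
    · obtain ⟨M, hMM₁, hqM, hmodM⟩ := s59i_S43Five_aux hMP hIA P (hcond.of_dvd hM₁N hM₁pos) hpM₁ hq
        hq5 hqp hqM₁ hirr hmod₁ hunr
      exact ⟨M, hMM₁.trans hM₁N, hqM, hmodM⟩
    · exact ⟨M₁, hM₁N, hqM₁, hmod₁⟩
  · exact s59i_S43Five_aux hMP hIA P hcond hpN hq hq5 hqp hqN hirr hmod hunr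

/-- **frozen S43 restricted to `q ≥ 5` from [MP′-F] (`q ≥ 5`) and [IA′-core]**, by minimality of the
level. -/
theorem s59i_S43Five_of (hMP : s59m_MPF5) (hIA : s59i_IAcoreF) : s59m_S43Five :=
  s59i_S43Five_of_p hMP (s59i_IAcoreFp_of hIA)

/-- **Frozen S43 from [MP′-F] (`q ≥ 5`) and [IA′-core] at levels prime to `p`**, statement verbatim. -/
theorem s59i_S43_final_p (hMP : s59m_MPF5) (hIA : s59i_IAcoreFp)
    (P : FreyPackage) {N q : ℕ} (hcond : P.IsConductorLevel N) (hq : q.Prime) (hq2 : q ≠ 2)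
    (hqp : q ≠ P.p) (hqN : q ∣ N)
    (hirr : GaloisRepIsIrreducible (K := AlgebraicClosure ℚ) ℚ P.freyCurve P.p)
    (hmod : P.ModularRepOfLevel N) (hunr : P.GaloisRepUnramifiedAt q) :
    ∃ M : ℕ, M ∣ N ∧ ¬ q ∣ M ∧ P.ModularRepOfLevel M :=
  s59m_S43_of_five (s59i_S43Five_of_p hMP hIA) P hcond hq hq2 hqp hqN hirr hmod hunr

/-- **Frozen S43 from [MP′-F] (`q ≥ 5`) and [IA′-core]**, statement verbatim. -/
theorem s59i_S43_final (hMP : s59m_MPF5) (hIA : s59i_IAcoreF)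
    (P : FreyPackage) {N q : ℕ} (hcond : P.IsConductorLevel N) (hq : q.Prime) (hq2 : q ≠ 2)
    (hqp : q ≠ P.p) (hqN : q ∣ N)
    (hirr : GaloisRepIsIrreducible (K := AlgebraicClosure ℚ) ℚ P.freyCurve P.p)
    (hmod : P.ModularRepOfLevel N) (hunr : P.GaloisRepUnramifiedAt q) :
    ∃ M : ℕ, M ∣ N ∧ ¬ q ∣ M ∧ P.ModularRepOfLevel M :=
  s59m_S43_of_five (s59i_S43Five_of hMP hIA) P hcond hq hq2 hqp hqN hirr hmod hunr

end

end Fermat.Agent.Lib.S59
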