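/-
Programme (R), TARGET = frozen S43 — top wiring, `p`-free variant for the SEMISTABLE Frey model (helper3;
helper5's flag #3414 + helper6's [SS-MODEL] `QSsCore.lean`).

* `s59i_IAcoreSsp` : helper6's `s59q_IAcoreSs` with the extra hypothesis `¬ P.p ∣ N` — **the target of the final
  assembly (FIN-A + FIN-B)**: `W = P.freyCurveInt`, level prime to `p` (so only the FLAT deformation problem occurs);
* `s59i_IAcoreFp_of_ssp : s59i_IAcoreSsp → s59i_IAcoreFp`;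
* `s59i_S43_final_ssp : s59m_MPF5 → s59i_IAcoreSsp →` frozen S43, verbatim.
-/
import Fermat.Agent.Lib.S59.VCore
import Fermat.Agent.Lib.S59.QSsCore

set_option autoImplicit false
set_option linter.style.haveILetI false
set_option linter.unusedSectionVars false

noncomputable section

namespace Fermat.Agent.Lib.S59

open WeierstrassCurve WeierstrassCurve.Affine WeierstrassCurve.Affine.Point FreyPackage
open Fermat.Agent.Lib.S44 Fermat.Agent.Lib.S12

/-- **[IA′-core] for the semistable Frey model at a level prime to `p`.** -/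
def s59i_IAcoreSsp : Prop :=
  ∀ (P : FreyPackage) (N : ℕ), P.IsConductorLevel N → ¬ P.p ∣ N →
    GaloisRepIsIrreducible (K := AlgebraicClosure ℚ) ℚ P.freyCurve P.p →
  ∀ Bd : Finset ℕ, Bd.Nonempty →
    (∀ q ∈ Bd, q.Prime ∧ q ≠ P.p ∧ q ∣ N ∧ P.GaloisRepUnramifiedAt q ∧ P.p ∣ q - 1 ∧
      s59v_FreyFrobScalar P q) →
    (∀ ℓ : ℕ, ℓ.Prime → 5 ≤ ℓ → ℓ ≠ P.p → ℓ ∣ N → ℓ ∉ Bd → ¬ P.GaloisRepUnramifiedAt ℓ) →
  ∀ B : Finset ℕ, (∀ r : ℕ, r.Prime → r ∣ N * P.p → r ∈ B) →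
    (∀ r : ℕ, r.Prime → (r : ℤ) ∣ P.a * P.b * P.c → r ∈ B) →
    s44i_LevelOcc N P.p (fun ℓ => P.freyCurveInt.apOfModel ℓ) B →
    ∃ q ∈ Bd, s44i_LevelOcc (N / q) P.p (fun ℓ => P.freyCurveInt.apOfModel ℓ) B

theorem s59i_IAcoreSsp_of (h : s59q_IAcoreSs) : s59i_IAcoreSsp :=
  fun P N hcond _ => h P N hcond

/-- **[IA′-core] at levels prime to `p` for every integral model, from the semistable model.** -/
theorem s59i_IAcoreFp_of_ssp (h : s59i_IAcoreSsp) : s59i_IAcoreFp := by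
  intro P W hW N hcond hpN hirr Bd hne hBd hram B hB1 hB2 hocc
  have hB0 : ∀ r : ℕ, r.Prime → (r : ℤ) ∣ P.a * P.b * P.c → r ∈ B := fun r hr hd =>
    hB2 r hr (s59v_bad_of_dvd_abc P W hW hr hd)
  have hB0' : ∀ r : ℕ, r.Prime → ¬ P.freyCurveInt.IsGoodPrimeFor r → r ∈ B := fun r hr hbad =>
    hB0 r hr (((s59q_frey_ssModel P).2.2.2 r hr).1 hbad)
  have hocc₀ := (s59q_levelOcc_frey P W hW N B hB2 hB0').1 hocc
  obtain ⟨q, hq, hlev⟩ := h P N hcond hpN hirr Bd hne hBd hram B hB1 hB0 hocc₀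
  exact ⟨q, hq, (s59q_levelOcc_frey P W hW (N / q) B hB2 hB0').2 hlev⟩

/-- **Frozen S43 from [MP′-F] (`q ≥ 5`) and [IA′-core] for the semistable Frey model at levels prime to `p`**,
statement verbatim. -/
theorem s59i_S43_final_ssp (hMP : s59m_MPF5) (hIA : s59i_IAcoreSsp)
    (P : FreyPackage) {N q : ℕ} (hcond : P.IsConductorLevel N) (hq : q.Prime) (hq2 : q ≠ 2)
    (hqp : q ≠ P.p) (hqN : q ∣ N)
    (hirr : GaloisRepIsIrreducible (K := AlgebraicClosure ℚ) ℚ P.freyCurve P.p)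
    (hmod : P.ModularRepOfLevel N) (hunr : P.GaloisRepUnramifiedAt q) :
    ∃ M : ℕ, M ∣ N ∧ ¬ q ∣ M ∧ P.ModularRepOfLevel M :=
  s59i_S43_final_p hMP (s59i_IAcoreFp_of_ssp hIA) P hcond hq hq2 hqp hqN hirr hmod hunr

end Fermat.Agent.Lib.S59
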