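/-
[E] FINAL ASSEMBLY (helper4, prefix `s59i_`), part C1: **THE TWO PACKAGES AT THE FREY CURVE.**
* `s59i_rhobarF` : the reference residual representation `(ρ_W ⊗ 𝒪) mod 𝔪`, `W = P.freyCurveInt`;
* `s59i_RData`   : the `R`-side data = every binder of helper6's `s59q_inst_flat` (avoid set `S`), the `E`-data and the
                   position of the primes of the level;
* `s59i_RPkg`    : the `R`-side package (target of helper6's `QFreyR`): such data exist;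
* `s59i_TPkg`    : the `T`-side package (target of helper5's `s59e_TSide`): for every such data, [EXIST-DQ] and the
                   contract `s59i_TBase`/`s59i_TLevel` of `LFinB1`.
-/
import Mathlib
import Fermat.Agent.Lib.S59.LFinB5
import Fermat.Agent.Lib.S59.BHres
import Fermat.Agent.Lib.S59.VSs

set_option autoImplicit false
set_option linter.unusedSectionVars false
set_option linter.unusedVariables false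
set_option linter.style.haveILetI false
set_option maxHeartbeats 1600000

noncomputable section

namespace Fermat.Agent.Lib.S59

open IsLocalRing CuspForm Polynomial ExtCitation FreyPackage
open WeierstrassCurve WeierstrassCurve.Affine WeierstrassCurve.Affine.Point
open Fermat.Agent.Lib.S53 (matOf matOfRes NormData)
open Fermat.Agent.Lib.S44

local notation "Γℚ" => (AlgebraicClosure ℚ ≃ₐ[ℚ] AlgebraicClosure ℚ)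

/-- the reference residual representation `(ρ_W ⊗ 𝒪) mod 𝔪`, `W = P.freyCurveInt`. -/
def s59i_rhobarF (P : FreyPackage) [Fact P.p.Prime] (hΔ : P.freyCurveInt.Δ ≠ 0)
    (𝒪 : Type) [CommRing 𝒪] [IsLocalRing 𝒪] [Algebra ℤ_[P.p] 𝒪]
    (hp𝒪 : ((P.p : ℕ) : 𝒪) ∈ maximalIdeal 𝒪) : ResidualGaloisRep (ResidueField 𝒪) :=
  ((s59b_rhoW P.freyCurveInt P.p hΔ).baseChangeAlong (algebraMap ℤ_[P.p] 𝒪)
    (s59b_isLocalHom_padic P.p _ hp𝒪)).residual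

/-- **the `R`-side data**: every binder of `s59q_inst_flat`, the `E`-data, and the position of the primes of `N`. -/
structure s59i_RData (p : ℕ) [Fact p.Prime] (N : ℕ) {𝒪 : Type} [CommRing 𝒪] [IsDomain 𝒪]
    [IsDiscreteValuationRing 𝒪] [IsAdicComplete (maximalIdeal 𝒪) 𝒪]
    (ρbar : ResidualGaloisRep (ResidueField 𝒪)) (S Bd : Finset ℕ) : Type where
  Smin : Finset ℕ
  Ed : Finset ℕ
  Nd : NormData ρbar
  m : ℕ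
  e : ℕ
  pr : Fin m ⊕ Fin e → Nat.Primes
  σq : Fin m ⊕ Fin e → Γℚ
  φq : Fin m ⊕ Fin e → Γℚ
  D : s59l_EData 𝒪 e
  P : Fin m ⊕ Fin e → Matrix (Fin 2) (Fin 2) 𝒪
  P' : Fin m ⊕ Fin e → Matrix (Fin 2) (Fin 2) 𝒪
  αE : Fin e → 𝒪
  βE : Fin e → 𝒪
  habs : ρbar.IsAbsolutelyIrreducible
  hdet : (GaloisRepAdic.ofResidualGaloisRep ρbar).DetIsCyclotomic p
  hsplit : ∀ σ : Γℚ, ∃ α β : ResidueField 𝒪,
    LinearMap.charpoly (ρbar.ρ σ) = (X - C α) * (X - C β)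
  hTW : ∀ (K : Type) [Field K] [Algebra (ResidueField 𝒪) K] (G : Subgroup Γℚ), G.index = 2 →
    ∀ V : Submodule K (ρbar.baseChange K).V,
      (∀ σ ∈ G, ∀ x ∈ V, (ρbar.baseChange K).ρ σ x ∈ V) → V = ⊥ ∨ V = ⊤
  hpSmin : p ∈ Smin
  hSmin : Smin ⊆ S
  hBS : Bd ⊆ S
  hES : Ed ⊆ S
  hBprime : ∀ q ∈ Bd, q.Prime
  hEprime : ∀ q ∈ Ed, q.Prime
  hmin : ∀ q : ℕ, q.Prime → q ≠ p → (q ∈ Smin ↔ ¬ ρbar.IsUnramifiedAt q)
  hBunr : ∀ q ∈ Bd, q ≠ p ∧ ρbar.IsUnramifiedAt q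
  hEunr : ∀ q ∈ Ed, q ≠ p ∧ ρbar.IsUnramifiedAt q
  hBE : Disjoint Bd Ed
  hcen : ∀ q : Nat.Primes, (q : ℕ) ∈ Bd → s59q_CentralAt ρbar q
  hprB : Finset.univ.image (fun j : Fin m => (pr (Sum.inl j) : ℕ)) = Bd
  hprE : Finset.univ.image (fun l : Fin e => (pr (Sum.inr l) : ℕ)) = Ed
  hBinj : Function.Injective fun j : Fin m => (pr (Sum.inl j) : ℕ)
  hEinj : Function.Injective fun l : Fin e => (pr (Sum.inr l) : ℕ)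
  hσq : ∀ t, s59q_IsTameGen (pr t) (primeLocalPlace (pr t)) (σq t)
  hφq : ∀ t, (primeLocalPlace (pr t)).IsFrobeniusAt (φq t) (pr t)
  hPP' : ∀ t, P t * P' t = 1
  hP'P : ∀ t, P' t * P t = 1
  hαβ : ∀ l, residue 𝒪 (αE l) ≠ residue 𝒪 (βE l)
  hαβ' : ∀ l, residue 𝒪 (αE l) + residue 𝒪 (βE l) ≠ 0
  hdiag : ∀ l, (P' (Sum.inr l)).map (residue 𝒪) * matOfRes ρbar Nd.b (φq (Sum.inr l)) *
    (P (Sum.inr l)).map (residue 𝒪) = Matrix.diagonal ![residue 𝒪 (αE l), residue 𝒪 (βE l)]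
  hαE : ∀ l, αE l = D.ε l * D.u l
  hβE : ∀ l, βE l = D.ε l
  hDu : ∀ l, D.u l = (((pr (Sum.inr l) : ℕ) : ℕ) : 𝒪)
  hqB : ∀ j, (((pr (Sum.inl j) : ℕ) : ℕ) : 𝒪) - 1 ∈ maximalIdeal 𝒪
  /-- every prime of the level is in `Σ = Smin ∪ Bd ∪ Ed`, or every lift of `ρ̄` is unramified there (case (E2)). -/
  hNSg : ∀ q : ℕ, q.Prime → q ∣ N → q ∈ Smin ∪ (Bd ∪ Ed) ∨
    (q ≠ p ∧ ρbar.IsUnramifiedAt q ∧ ((q : ResidueField 𝒪) ^ 2 - 1 ≠ 0) ∧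
      ∃ (A : ValuationSubring (AlgebraicClosure ℚ)) (φ : Γℚ), A.LiesOverPrime q ∧
        A.IsFrobeniusAt φ q ∧
        (1 + (q : ResidueField 𝒪)) ^ 2 * LinearMap.det (ρbar.ρ φ) -
          (q : ResidueField 𝒪) * LinearMap.trace (ResidueField 𝒪) ρbar.V (ρbar.ρ φ) ^ 2 ≠ 0)

/-- **the `R`-side package at the Frey curve** (target of `QFreyR`). -/
def s59i_RPkg : Prop :=
  ∀ (P : FreyPackage) [Fact P.p.Prime] (hΔ : P.freyCurveInt.Δ ≠ 0) (N : ℕ),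
    P.IsConductorLevel N → ¬ P.p ∣ N →
    GaloisRepIsIrreducible (K := AlgebraicClosure ℚ) ℚ P.freyCurve P.p →
  ∀ Bd : Finset ℕ, Bd.Nonempty →
    (∀ q ∈ Bd, q.Prime ∧ q ≠ P.p ∧ q ∣ N ∧ P.GaloisRepUnramifiedAt q ∧ P.p ∣ q - 1 ∧
      s59v_FreyFrobScalar P q) →
    (∀ ℓ : ℕ, ℓ.Prime → 5 ≤ ℓ → ℓ ≠ P.p → ℓ ∣ N → ℓ ∉ Bd → ¬ P.GaloisRepUnramifiedAt ℓ) →
  ∀ B : Finset ℕ, (∀ r : ℕ, r.Prime → r ∣ N * P.p → r ∈ B) →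
    (∀ r : ℕ, r.Prime → (r : ℤ) ∣ P.a * P.b * P.c → r ∈ B) →
    s44i_LevelOcc N P.p (fun ℓ => P.freyCurveInt.apOfModel ℓ) B →
  ∀ (𝒪 : Type) [CommRing 𝒪] [IsDomain 𝒪] [IsDiscreteValuationRing 𝒪]
    [IsAdicComplete (maximalIdeal 𝒪) 𝒪] [Finite (ResidueField 𝒪)] [CharZero 𝒪]
    [Algebra ℤ_[P.p] 𝒪] [Module.Finite ℤ_[P.p] 𝒪]
    (hp𝒪 : ((P.p : ℕ) : 𝒪) ∈ maximalIdeal 𝒪)
    (_ : ∀ a b : ℤ, ∃ α β : ResidueField 𝒪,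
      α + β = (a : ResidueField 𝒪) ∧ α * β = (b : ResidueField 𝒪)),
    Nonempty (s59i_RData P.p N (s59i_rhobarF P hΔ 𝒪 hp𝒪) B Bd)

/-- **the `T`-side package at the Frey curve** (target of `s59e_TSide`). -/
def s59i_TPkg : Prop :=
  ∀ (P : FreyPackage) [Fact P.p.Prime] (hΔ : P.freyCurveInt.Δ ≠ 0) (N : ℕ) [NeZero N],
    P.IsConductorLevel N → ¬ P.p ∣ N →
    GaloisRepIsIrreducible (K := AlgebraicClosure ℚ) ℚ P.freyCurve P.p →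
  ∀ Bd : Finset ℕ, Bd.Nonempty →
    (∀ q ∈ Bd, q.Prime ∧ q ≠ P.p ∧ q ∣ N ∧ P.GaloisRepUnramifiedAt q ∧ P.p ∣ q - 1 ∧
      s59v_FreyFrobScalar P q) →
    (∀ ℓ : ℕ, ℓ.Prime → 5 ≤ ℓ → ℓ ≠ P.p → ℓ ∣ N → ℓ ∉ Bd → ¬ P.GaloisRepUnramifiedAt ℓ) →
  ∀ B : Finset ℕ, (∀ r : ℕ, r.Prime → r ∣ N * P.p → r ∈ B) →
    (∀ r : ℕ, r.Prime → (r : ℤ) ∣ P.a * P.b * P.c → r ∈ B) →
    s44i_LevelOcc N P.p (fun ℓ => P.freyCurveInt.apOfModel ℓ) B →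
  ∀ (𝒪 : Type) [CommRing 𝒪] [IsDomain 𝒪] [IsDiscreteValuationRing 𝒪]
    [IsAdicComplete (maximalIdeal 𝒪) 𝒪] [Finite (ResidueField 𝒪)] [CharZero 𝒪]
    [Algebra ℤ_[P.p] 𝒪] [Module.Finite ℤ_[P.p] 𝒪]
    (hp𝒪 : ((P.p : ℕ) : 𝒪) ∈ maximalIdeal 𝒪)
    (_ : ∀ a b : ℤ, ∃ α β : ResidueField 𝒪,
      α + β = (a : ResidueField 𝒪) ∧ α * β = (b : ResidueField 𝒪))
    (v : ℕ) (_ : ∀ q ∈ Bd, ¬ P.p ^ (v + 1) ∣ q - 1) (_ : ∃ ζ : 𝒪, IsPrimitiveRoot ζ (P.p ^ v))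
    (Rd : s59i_RData P.p N (s59i_rhobarF P hΔ 𝒪 hp𝒪) B Bd),
  ∀ r : ℕ, 3 * Rd.m + Rd.e ≤ r →
    (∀ qv : Fin r → ℕ, Nonempty (GaloisRep.DeformationRingData 𝒪 (s59i_rhobarF P hΔ 𝒪 hp𝒪)
      (fun _A _ _ _ ρ =>
        GaloisRep.flatCondition 𝒪 P.p (Rd.Smin ∪ (Bd ∪ Rd.Ed) ∪ Finset.univ.image qv) ρ ∧
          ∀ q ∈ Rd.Smin, q.Prime → q ≠ P.p → ρ.IsUnipotentOnInertiaAt q))) ∧
    ∃ Bs : s59i_TBase 𝒪 N B (fun ℓ => P.freyCurveInt.apOfModel ℓ) Rd.m r (s59q_ZIdx Rd.m Rd.e)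
        (s59i_rhobarF P hΔ 𝒪 hp𝒪) (fun j => (Rd.pr (Sum.inl j) : ℕ)),
      ∀ (n : ℕ) (qv : Fin r → ℕ), Function.Injective qv →
        (∀ i, (qv i).Prime ∧ qv i ∉ B ∧ P.p ^ (n + 1) ∣ qv i - 1) →
        (∀ i, ∀ A : ValuationSubring (AlgebraicClosure ℚ), A.LiesOverPrime (qv i) →
          ∀ φ : Γℚ, A.IsFrobeniusAt φ (qv i) →
            ∃ α β : ResidueField 𝒪, α ≠ β ∧
              LinearMap.charpoly ((s59i_rhobarF P hΔ 𝒪 hp𝒪).ρ φ) = (X - C α) * (X - C β)) →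
        ∀ DQ : GaloisRep.DeformationRingData 𝒪 (s59i_rhobarF P hΔ 𝒪 hp𝒪) (fun _A _ _ _ ρ =>
          GaloisRep.flatCondition 𝒪 P.p (Rd.Smin ∪ (Bd ∪ Rd.Ed) ∪ Finset.univ.image qv) ρ ∧
            ∀ q ∈ Rd.Smin, q.Prime → q ≠ P.p → ρ.IsUnipotentOnInertiaAt q),
          Nonempty (s59i_TLevel Bs (fun j => Rd.σq (Sum.inl j)) DQ n)

end Fermat.Agent.Lib.S59
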