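/-
PROGRAMME (R), final wiring, node W9d [TAN-FIN] (helper6, prefix `s59q_`): **`GaloisRep.TangentFinite` from the
finiteness of the Selmer set.**

`s59q_exists_cocycle`: every deformation `ρ` of `ρ̄` to `k[ε]` of type `𝒟` (`𝒟` fixes the determinant and is invariant
under equivalence over `k[ε]`) is equivalent to main's `s56a_liftRep ρbar c hc` for a level-constant cocycle `c` with
values in `ad⁰ ρ̄` whose class lies in `s56a_SelmerSet 𝒪 ρbar 𝒟`.
`s59q_liftRep_isEquiv_of_H1_eq`: cohomologous cocycles give equivalent lifts.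
`s59q_tangentFinite`: hence `TangentFinite 𝒪 ρbar 𝒟` as soon as the Selmer set is finite.
-/
import Fermat.Agent.Lib.S56.ADict
import Fermat.Agent.Lib.S53.Lift

set_option autoImplicit false
set_option linter.style.haveILetI false
set_option linter.unusedSectionVars false

noncomputable section

namespace Fermat.Agent.Lib.S59

open IsLocalRing groupCohomology Module
open Fermat.Agent.Lib.S56
open Fermat.Agent.Lib.S53 (matOf matOfRes matOf_apply matOfRes_apply MatContinuous matContinuous_matOf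
  isEquiv_of_matOf_eq exists_basis_conj NormData isEquiv_symm exists_basis_res exists_basis_residual
  exists_basis_baseChange_res isEquiv_of_matOfRes_eq)
open Fermat.Agent.Lib.Deform (dualNumberAlgebra dualNumberResidueAlgebra dualNumber_algebraMap_apply
  dualNumber_mem_maximalIdeal_iff)

local notation "Γℚ" => (AlgebraicClosure ℚ ≃ₐ[ℚ] AlgebraicClosure ℚ)

attribute [local instance] Fermat.Agent.Lib.Deform.dualNumberAlgebra
  Fermat.Agent.Lib.Deform.dualNumberResidueAlgebra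

variable {𝒪 : Type} [CommRing 𝒪] [IsDomain 𝒪] [IsDiscreteValuationRing 𝒪]
  [IsAdicComplete (maximalIdeal 𝒪) 𝒪]
  {ρbar : ResidualGaloisRep (ResidueField 𝒪)} (N : NormData ρbar)
  {𝒟 : ∀ ⦃A : Type⦄ [CommRing A] [IsLocalRing A] [Algebra 𝒪 A], GaloisRepAdic A → Prop}

/-- compatibility of the two algebra structures on the residue field of `k[ε]`. -/
theorem s59q_dual_compat (x : 𝒪) :
    algebraMap (ResidueField 𝒪) (ResidueField (DualNumber (ResidueField 𝒪))) (residue 𝒪 x) =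
      residue (DualNumber (ResidueField 𝒪)) (algebraMap 𝒪 (DualNumber (ResidueField 𝒪)) x) := rfl

/-- a representation over `k[ε]` whose matrices in some basis reduce to those of `ρ̄` has residual representation
`ρ̄`. -/
theorem s59q_residual_of_basis (ρ : GaloisRepAdic (DualNumber (ResidueField 𝒪)))
    (bs : Basis (Fin 2) (DualNumber (ResidueField 𝒪)) ρ.V)
    (h : ∀ σ, s56a_fstM (matOf ρ bs σ) = matOfRes ρbar N.b σ) :
    ρ.residual.IsEquiv (ρbar.baseChange (ResidueField (DualNumber (ResidueField 𝒪)))) := by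
  obtain ⟨b₁, hb₁⟩ := exists_basis_residual ρ bs
  obtain ⟨b₂, hb₂⟩ := exists_basis_baseChange_res (K := ResidueField (DualNumber (ResidueField 𝒪)))
    ρbar N.b
  refine isEquiv_of_matOfRes_eq b₁ b₂ fun σ => ?_
  rw [matOfRes_apply, hb₁, hb₂, ← h σ]
  ext i j
  simp only [Matrix.map_apply, s56a_fstM_apply]
  -- `residue (x) = algebraMap (fst x)`
  have hx : ∀ x : DualNumber (ResidueField 𝒪),
      residue (DualNumber (ResidueField 𝒪)) x =
        algebraMap (ResidueField 𝒪) (ResidueField (DualNumber (ResidueField 𝒪))) x.fst := by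
    intro x
    show residue _ x = residue _ (algebraMap (ResidueField 𝒪) (DualNumber (ResidueField 𝒪)) x.fst)
    rw [← sub_eq_zero, ← map_sub, residue_eq_zero_iff, dualNumber_mem_maximalIdeal_iff,
      TrivSqZeroExt.fst_sub, TrivSqZeroExt.algebraMap_eq_inl, TrivSqZeroExt.fst_inl, sub_self]
  exact hx _

section Main

variable (p : ℕ) [Fact p.Prime] (h𝒟 : s56a_TangentStable 𝒪 𝒟 p)

include N h𝒟 in
/-- **every first-order deformation of type `𝒟` is a `s56a_liftRep`.** -/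
theorem s59q_exists_cocycle (ρ : GaloisRepAdic (DualNumber (ResidueField 𝒪))) (hρ : 𝒟 ρ)
    (hres : ρ.residual.IsEquiv (ρbar.baseChange (ResidueField (DualNumber (ResidueField 𝒪))))) :
    ∃ (c : cocycles₁ (s56a_ad0 ρbar)) (hc : s56a_IsLevel c.1),
      (s56a_liftRep ρbar c hc).IsEquiv ρ ∧
        (H1π (s56a_ad0 ρbar)).hom c ∈ s56a_SelmerSet 𝒪 ρbar 𝒟 := by
  obtain ⟨bs, hbs⟩ := exists_basis_res N s59q_dual_compat ρ hres
  have hM : ∀ σ, s56a_fstM (matOf ρ bs σ) = matOfRes ρbar N.b σ := by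
    intro σ
    ext i j
    have h := hbs σ i j
    rw [dualNumber_mem_maximalIdeal_iff, TrivSqZeroExt.fst_sub, dualNumber_algebraMap_apply,
      TrivSqZeroExt.fst_inl, sub_eq_zero, N.residue_Mtil] at h
    rw [s56a_fstM_apply, h]
  have hdet : ∀ σ, (matOf ρ bs σ).det.snd = 0 := fun σ =>
    s56a_det_snd_eq_zero p ρ (h𝒟.det hρ) bs σ
  have hcont := s56a_hcont_of_matContinuous (matOf ρ bs) (matContinuous_matOf ρ bs)
  have hc := s56a_isLevel_cocOf ρbar N.b (matOf ρ bs) hM hdet hcont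
  have heq : (s56a_liftRep ρbar (s56a_cocOf ρbar N.b (matOf ρ bs) hM hdet) hc).IsEquiv ρ :=
    isEquiv_of_matOf_eq (s56a_epsBasis ρbar N.b) bs fun σ =>
      s56a_matOf_liftRep_cocOf ρbar N.b (matOf ρ bs) hM hdet hc σ
  exact ⟨_, hc, heq, _, hc, rfl, h𝒟.of_isEquiv (isEquiv_symm heq) hρ⟩

end Main

/-- **cohomologous cocycles give equivalent lifts.** -/
theorem s59q_liftRep_isEquiv_of_H1_eq (b : Basis (Fin 2) (ResidueField 𝒪) ρbar.V)
    (c c' : cocycles₁ (s56a_ad0 ρbar)) (hc : s56a_IsLevel c.1) (hc' : s56a_IsLevel c'.1)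
    (h : (H1π (s56a_ad0 ρbar)).hom c = (H1π (s56a_ad0 ρbar)).hom c') :
    (s56a_liftRep ρbar c hc).IsEquiv (s56a_liftRep ρbar c' hc') := by
  obtain ⟨X, hX⟩ := (H1π_eq_iff c c').1 h
  set Xm : Matrix (Fin 2) (Fin 2) (ResidueField 𝒪) := LinearMap.toMatrix b b (s56a_toEnd ρbar X)
    with hXm
  set M := matOf (s56a_liftRep ρbar c hc) (s56a_epsBasis ρbar b) with hMdef
  set M' := matOf (s56a_liftRep ρbar c' hc') (s56a_epsBasis ρbar b) with hM'def
  have hM : ∀ σ, s56a_fstM (M σ) = matOfRes ρbar b σ := fun σ => by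
    rw [hMdef, s56a_matOf_liftRep, s56a_fstM_mkM]
  have hM' : ∀ σ, s56a_fstM (M' σ) = matOfRes ρbar b σ := fun σ => by
    rw [hM'def, s56a_matOf_liftRep, s56a_fstM_mkM]
  have hcoc : ∀ (d : cocycles₁ (s56a_ad0 ρbar)) (hd : s56a_IsLevel d.1) (σ : Γℚ),
      s56a_cocM (matOfRes ρbar b) (matOf (s56a_liftRep ρbar d hd) (s56a_epsBasis ρbar b)) σ =
        LinearMap.toMatrix b b (s56a_toEnd ρbar (d.1 σ)) := by
    intro d hd σ
    rw [s56a_cocM, s56a_matOf_liftRep, s56a_sndM_mkM, mul_assoc, s56a_Mb_mul_inv, mul_one]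
  have hconj := s56a_conj_of_coboundary (matOfRes ρbar b) M M' hM hM' Xm (fun σ => by
    rw [hMdef, hM'def, hcoc c hc σ, hcoc c' hc' σ]
    have h2 := congrFun hX σ
    rw [d₀₁_hom_apply] at h2
    have h3 : c.1 σ - c'.1 σ = (s56a_ad0 ρbar).ρ σ X - X := h2.symm
    rw [← map_sub, ← map_sub, h3, map_sub, map_sub, hXm]
    congr 1
    show LinearMap.toMatrix b b (ρbar.ρ σ * s56a_toEnd ρbar X * ρbar.ρ σ⁻¹) = _
    rw [LinearMap.toMatrix_mul, LinearMap.toMatrix_mul, matOfRes_apply, matOfRes_apply])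
  obtain ⟨b', hb'⟩ := exists_basis_conj (s56a_liftRep ρbar c hc) (s56a_epsBasis ρbar b)
    (s56a_mkM 1 Xm) (s56a_mkM 1 (-Xm)) (s56a_mkM_one_mul_neg Xm) (s56a_mkM_neg_mul_one Xm)
  refine isEquiv_of_matOf_eq b' (s56a_epsBasis ρbar b) fun σ => ?_
  rw [hb']
  exact (hconj σ).symm

section Final

variable (p : ℕ) [Fact p.Prime] (h𝒟 : s56a_TangentStable 𝒪 𝒟 p)

include N h𝒟 in
/-- **[TAN-FIN]**: the tangent space of `𝒟` is finite as soon as the Selmer set is. -/
theorem s59q_tangentFinite (hfin : (s56a_SelmerSet 𝒪 ρbar 𝒟).Finite) :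
    GaloisRep.TangentFinite 𝒪 ρbar 𝒟 := by
  classical
  unfold GaloisRep.TangentFinite
  haveI : Finite ↥(s56a_SelmerSet 𝒪 ρbar 𝒟) := hfin
  -- a representative for every Selmer class
  have hrep : ∀ x : ↥(s56a_SelmerSet 𝒪 ρbar 𝒟), ∃ (c : cocycles₁ (s56a_ad0 ρbar))
      (hc : s56a_IsLevel c.1), (H1π (s56a_ad0 ρbar)).hom c = x.1 ∧ 𝒟 (s56a_liftRep ρbar c hc) :=
    fun x => x.2
  choose cx hcx hcx1 hcx2 using hrep
  have hresx : ∀ x, (s56a_liftRep ρbar (cx x) (hcx x)).residual.IsEquiv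
      (ρbar.baseChange (ResidueField (DualNumber (ResidueField 𝒪)))) := fun x =>
    s59q_residual_of_basis N _ (s56a_epsBasis ρbar N.b) fun σ => by
      rw [s56a_matOf_liftRep, s56a_fstM_mkM]
  refine Finite.of_surjective (fun x : ↥(s56a_SelmerSet 𝒪 ρbar 𝒟) =>
    Quotient.mk _ ⟨s56a_liftRep ρbar (cx x) (hcx x), hcx2 x, hresx x⟩) ?_
  intro y
  induction y using Quotient.inductionOn with
  | h ρ =>
    obtain ⟨c, hc, heq, hsel⟩ := s59q_exists_cocycle N p h𝒟 ρ.1 ρ.2.1 ρ.2.2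
    refine ⟨⟨_, hsel⟩, Quotient.sound ?_⟩
    show (s56a_liftRep ρbar (cx ⟨_, hsel⟩) (hcx ⟨_, hsel⟩)).IsEquiv ρ.1
    have h1 := s59q_liftRep_isEquiv_of_H1_eq N.b (cx ⟨_, hsel⟩) c (hcx ⟨_, hsel⟩) hc
      (hcx1 ⟨_, hsel⟩)
    obtain ⟨e1⟩ := h1
    obtain ⟨e2⟩ := heq
    exact ⟨e1.trans e2⟩

end Final

end Fermat.Agent.Lib.S59
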