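/-
PROGRAMME (R), final wiring, node W9d [TAN-FIN] (helper6, prefix `s59q_`): **the concrete instances of
`GaloisRep.TangentFinite`** for the two deformation types of S56/S59 (flat / strict-ordinary at `p`, unramified
outside `Σ`, unipotent on inertia at `Σ_min ∖ {p}`).

`s59q_finite_continuousH1S_ad0`: `H¹(G_Σ, ad⁰ρ̄)` (coefficients `k` finite of characteristic `p` odd, `p ∈ Σ`, `ρ̄`
unramified outside `Σ`) is a finite set: restriction of scalars to `𝔽_p` + main's `s56t_finite_continuousH1S`.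
`s59q_tangentFinite_flat`, `s59q_tangentFinite_ord`: the two instances.
-/
import Fermat.Agent.Lib.S59.QTanFin
import Fermat.Agent.Lib.S56.TailFin
import Fermat.Agent.Lib.S56.ZPre
import Fermat.Agent.Lib.S56.ATopGlue
import Fermat.Agent.Lib.S56.AStable

set_option autoImplicit false
set_option linter.style.haveILetI false
set_option linter.unusedSectionVars false

noncomputable section

namespace Fermat.Agent.Lib.S59

open IsLocalRing groupCohomology Module ExtCitation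
open Fermat.Agent.Lib.S56
open Fermat.Agent.Lib.S53 (NormData exists_normData)

local notation "Γℚ" => (AlgebraicClosure ℚ ≃ₐ[ℚ] AlgebraicClosure ℚ)

/-- **`H¹(G_Σ, ad⁰ρ̄)` is finite** (`k` finite of odd characteristic `p ∈ Σ`, `ρ̄` unramified outside `Σ`). -/
theorem s59q_finite_continuousH1S_ad0 (p : ℕ) [Fact p.Prime] {k : Type} [Field k] [Finite k]
    [Algebra (ZMod p) k] (hp2 : p ≠ 2) (ρbar : ResidualGaloisRep k) (Sg : Finset Nat.Primes)
    (hpS : pPrime p ∈ Sg) (hunr : ∀ q : Nat.Primes, q ∉ Sg → ρbar.IsUnramifiedAt q) :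
    (↑(continuousH1S Sg (s56a_ad0 ρbar)) : Set (H1 (s56a_ad0 ρbar))).Finite := by
  have hfin : Module.Finite (ZMod p) ↥(continuousH1S Sg (s56z_M p ρbar)) :=
    s56t_finite_continuousH1S hp2 hpS (s56z_M p ρbar) (s56z_smooth_M p ρbar)
      (s56z_unr_M p ρbar Sg hunr)
  haveI : Finite ↥(continuousH1S Sg (s56z_M p ρbar)) := Module.finite_of_finite (ZMod p)
  have hW : (↑(continuousH1S Sg (s56z_M p ρbar)) : Set (H1 (s56z_M p ρbar))).Finite :=
    Set.toFinite _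
  refine (hW.preimage (s56a_H1Res (ZMod p) (s56a_ad0 ρbar)).injective.injOn).subset ?_
  intro x hx
  exact (s56a_H1Res_mem_continuousH1S (ZMod p) Sg (s56a_ad0 ρbar) x).2 hx

section Final

variable {𝒪 : Type} [CommRing 𝒪] [IsDomain 𝒪] [IsDiscreteValuationRing 𝒪]
  [IsAdicComplete (maximalIdeal 𝒪) 𝒪] [Finite (ResidueField 𝒪)]
  (p : ℕ) [Fact p.Prime] (hp2 : p ≠ 2) (hp𝒪 : (p : 𝒪) ∈ maximalIdeal 𝒪)
  (ρbar : ResidualGaloisRep (ResidueField 𝒪))

include hp2 hp𝒪 in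
/-- the Selmer set of a deformation type which forces unramifiedness outside `Σ` is finite. -/
theorem s59q_selmerSet_finite
    (𝒟 : ∀ ⦃A : Type⦄ [CommRing A] [IsLocalRing A] [Algebra 𝒪 A], GaloisRepAdic A → Prop)
    (Sg : Finset ℕ) (hpSg : p ∈ Sg)
    (hunr : ∀ q : ℕ, q.Prime → q ∉ Sg → ρbar.IsUnramifiedAt q)
    (hle : s56a_SelmerSet 𝒪 ρbar 𝒟 ⊆ ↑(continuousH1S (s56a_primesOf Sg) (s56a_ad0 ρbar))) :
    (s56a_SelmerSet 𝒪 ρbar 𝒟).Finite := by
  have hchar : CharP (ResidueField 𝒪) p := by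
    rw [CharP.charP_iff_prime_eq_zero (Fact.out : p.Prime)]
    have h := (IsLocalRing.residue_eq_zero_iff (p : 𝒪)).2 hp𝒪
    rwa [map_natCast] at h
  letI : Algebra (ZMod p) (ResidueField 𝒪) := ZMod.algebra _ p
  refine (s59q_finite_continuousH1S_ad0 p hp2 ρbar (s56a_primesOf Sg) ?_ ?_).subset hle
  · exact (s56a_mem_primesOf Sg (pPrime p)).2 hpSg
  · intro q hq
    exact hunr q q.2 fun h => hq ((s56a_mem_primesOf Sg q).2 h)

include hp2 hp𝒪 in
/-- **[TAN-FIN], flat case.** -/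
theorem s59q_tangentFinite_flat (habs : ρbar.IsAbsolutelyIrreducible) (Sg Smin : Finset ℕ)
    (hpSg : p ∈ Sg) (hunr : ∀ q : ℕ, q.Prime → q ∉ Sg → ρbar.IsUnramifiedAt q) :
    GaloisRep.TangentFinite 𝒪 ρbar (fun _A _ _ _ ρ =>
      GaloisRep.flatCondition 𝒪 p Sg ρ ∧
        ∀ q ∈ Smin, q.Prime → q ≠ p → ρ.IsUnipotentOnInertiaAt q) := by
  obtain ⟨N⟩ := exists_normData ρbar habs
  exact s59q_tangentFinite N p (s56a_tangentStable_flat 𝒪 p Sg Smin)
    (s59q_selmerSet_finite p hp2 hp𝒪 ρbar _ Sg hpSg hunr (s56a_selmerSet_flat_le 𝒪 ρbar p Sg Smin))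

include hp2 hp𝒪 in
/-- **[TAN-FIN], strict-ordinary case.** -/
theorem s59q_tangentFinite_ord (habs : ρbar.IsAbsolutelyIrreducible) (Sg Smin : Finset ℕ)
    (hpSg : p ∈ Sg) (hunr : ∀ q : ℕ, q.Prime → q ∉ Sg → ρbar.IsUnramifiedAt q) :
    GaloisRep.TangentFinite 𝒪 ρbar (fun _A _ _ _ ρ =>
      GaloisRep.strictOrdinaryCondition 𝒪 p Sg ρ ∧
        ∀ q ∈ Smin, q.Prime → q ≠ p → ρ.IsUnipotentOnInertiaAt q) := by
  obtain ⟨N⟩ := exists_normData ρbar habs
  exact s59q_tangentFinite N p (s56a_tangentStable_ord 𝒪 p Sg Smin)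
    (s59q_selmerSet_finite p hp2 hp𝒪 ρbar _ Sg hpSg hunr (s56a_selmerSet_ord_le 𝒪 ρbar p Sg Smin))

end Final

end Fermat.Agent.Lib.S59
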