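/-
S43 programme, node W9c [REST-CL] (helper4, prefix `s59x_`): `DetIsCyclotomic`, `IsUnramifiedAt`,
`IsUnipotentOnInertiaAt` descend along jointly injective families of local homomorphisms
(injections, fibre products, the quotients `A/𝔪^k`); the cyclotomic congruence needs care:
`pⁿB ∩ A ≠ pⁿA` in general.
-/
import Mathlib
import Fermat.Agent.Lib.S56.ACond

set_option autoImplicit false
set_option linter.unusedSectionVars false
set_option linter.style.haveILetI false

noncomputable section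

namespace Fermat.Agent.Lib.S59

open Fermat.Agent.Lib.S56 TensorProduct IsLocalRing

local notation "Kb" => AlgebraicClosure ℚ
local notation "Γℚ" => (AlgebraicClosure ℚ ≃ₐ[ℚ] AlgebraicClosure ℚ)

/-! ### exponents on roots of unity -/

theorem s59x_exists_exp (N : ℕ) (hN : 0 < N) (σ : Γℚ) :
    ∃ a : ℕ, ∀ μ : Kb, μ ^ N = 1 → σ μ = μ ^ a := by
  haveI : NeZero N := ⟨hN.ne'⟩
  haveI : NeZero (N : Kb) := ⟨Nat.cast_ne_zero.mpr hN.ne'⟩
  obtain ⟨ζ, hζ⟩ := HasEnoughRootsOfUnity.exists_primitiveRoot Kb N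
  have h1 : (σ ζ) ^ N = 1 := by rw [← map_pow, hζ.pow_eq_one, map_one]
  obtain ⟨a, -, ha⟩ := hζ.eq_pow_of_pow_eq_one h1
  refine ⟨a, fun μ hμ => ?_⟩
  obtain ⟨j, -, rfl⟩ := hζ.eq_pow_of_pow_eq_one hμ
  rw [map_pow, ← ha, ← pow_mul, ← pow_mul, mul_comm]

theorem s59x_exp_modEq (p n m : ℕ) (hp : 0 < p) (hnm : n ≤ m) (σ : Γℚ) (a a' : ℕ)
    (ha : ∀ μ : Kb, μ ^ p ^ n = 1 → σ μ = μ ^ a)
    (ha' : ∀ μ : Kb, μ ^ p ^ m = 1 → σ μ = μ ^ a') : a' ≡ a [MOD p ^ n] := by
  have hN : 0 < p ^ n := pow_pos hp n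
  haveI : NeZero (p ^ n) := ⟨hN.ne'⟩
  haveI : NeZero ((p ^ n : ℕ) : Kb) := ⟨Nat.cast_ne_zero.mpr hN.ne'⟩
  obtain ⟨ζ, hζ⟩ := HasEnoughRootsOfUnity.exists_primitiveRoot Kb (p ^ n)
  have h1 : ζ ^ p ^ m = 1 := by
    obtain ⟨d, rfl⟩ := Nat.exists_eq_add_of_le hnm
    rw [pow_add, pow_mul, hζ.pow_eq_one, one_pow]
  have h2 : ζ ^ a' = ζ ^ a := by rw [← ha' ζ h1, ha ζ hζ.pow_eq_one]
  have hζ0 : ζ ≠ 0 := hζ.ne_zero hN.ne'
  have h3 : (Units.mk0 ζ hζ0) ^ a' = (Units.mk0 ζ hζ0) ^ a := by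
    apply Units.ext
    rw [Units.val_pow_eq_pow_val, Units.val_pow_eq_pow_val, Units.val_mk0, h2]
  have h4 : orderOf (Units.mk0 ζ hζ0) = p ^ n := by
    rw [← orderOf_units, Units.val_mk0, ← hζ.eq_orderOf]
  rw [← h4]
  exact pow_eq_pow_iff_modEq.mp h3

/-! ### the cyclotomic congruence -/

/-- `y ≡ ε(σ) z`: for every level `n`, `y - a z ∈ (pⁿ)` when `σ` acts on `μ_{pⁿ}` by `a`. -/
def s59x_CycCong {A : Type} [CommRing A] (p : ℕ) (σ : Γℚ) (y z : A) : Prop :=
  ∀ n a : ℕ, (∀ μ : Kb, μ ^ p ^ n = 1 → σ μ = μ ^ a) →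
    y - (a : A) * z ∈ Ideal.span {((p ^ n : ℕ) : A)}

theorem s59x_cycCong_map {A B : Type} [CommRing A] [CommRing B] (f : A →+* B) {p : ℕ} {σ : Γℚ}
    {y z : A} (h : s59x_CycCong p σ y z) : s59x_CycCong p σ (f y) (f z) := by
  intro n a ha
  obtain ⟨c, hc⟩ := Ideal.mem_span_singleton'.mp (h n a ha)
  refine Ideal.mem_span_singleton'.mpr ⟨f c, ?_⟩
  rw [← map_natCast f (p ^ n), ← map_mul, hc, map_sub, map_mul, map_natCast]

/-- a family of ring homomorphisms which is jointly injective. -/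
def s59x_JointInj {A : Type} [CommRing A] {ι : Type} {B : ι → Type} [∀ i, CommRing (B i)]
    (φ : ∀ i, A →+* B i) : Prop :=
  ∀ x : A, (∀ i, φ i x = 0) → x = 0

/-- **descent of the cyclotomic congruence when `p` is nilpotent.** -/
theorem s59x_cycCong_of_nilpotent {A : Type} [CommRing A] {ι : Type} {B : ι → Type}
    [∀ i, CommRing (B i)] (φ : ∀ i, A →+* B i) (hinj : s59x_JointInj φ) (p : ℕ) (hp : 0 < p)
    (N : ℕ) (hN : (p : A) ^ N = 0) (σ : Γℚ) (y z : A)
    (h : ∀ i, s59x_CycCong p σ (φ i y) (φ i z)) : s59x_CycCong p σ y z := by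
  intro n a ha
  obtain ⟨a', ha'⟩ := s59x_exists_exp (p ^ max n N) (pow_pos hp _) σ
  have hmod := s59x_exp_modEq p n (max n N) hp (le_max_left _ _) σ a a' ha ha'
  have hz : ∀ i, ((p ^ max n N : ℕ) : B i) = 0 := by
    intro i
    obtain ⟨d, hd⟩ := Nat.exists_eq_add_of_le (le_max_right n N)
    rw [hd, pow_add, Nat.cast_mul, Nat.cast_pow, ← map_natCast (φ i) p, ← map_pow, hN, map_zero,
      zero_mul]
  have h1 : y = (a' : A) * z := by
    rw [← sub_eq_zero]
    apply hinj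
    intro i
    have h2 := h i (max n N) a' ha'
    rw [hz i, Ideal.mem_span_singleton, zero_dvd_iff] at h2
    rw [map_sub, map_mul, map_natCast]
    exact h2
  have h3 : ((a' : ℤ) : A) - ((a : ℤ) : A) ∈ Ideal.span {((p ^ n : ℕ) : A)} := by
    obtain ⟨c, hc⟩ := (Nat.modEq_iff_dvd.mp hmod.symm)
    rw [Ideal.mem_span_singleton]
    refine ⟨(c : A), ?_⟩
    have := congrArg (Int.cast : ℤ → A) hc
    push_cast at this ⊢
    rw [this]
  rw [h1, ← sub_mul]
  have h4 : ((a' : A) - (a : A)) = ((a' : ℤ) : A) - ((a : ℤ) : A) := by push_cast; ring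
  rw [h4]
  exact Ideal.mul_mem_right _ _ h3

/-- ideals of a noetherian local ring are closed. -/
theorem s59x_mem_of_forall_mem_sup {A : Type} [CommRing A] [IsLocalRing A] [IsNoetherianRing A]
    (J : Ideal A) (x : A) (h : ∀ k : ℕ, x ∈ J ⊔ maximalIdeal A ^ k) : x ∈ J := by
  have h0 := Ideal.iInf_pow_smul_eq_bot_of_isLocalRing (R := A) (M := A ⧸ J) (maximalIdeal A)
    (Ideal.IsMaximal.ne_top inferInstance)
  have h1 : (Ideal.Quotient.mk J x : A ⧸ J) ∈
      (⨅ i : ℕ, maximalIdeal A ^ i • ⊤ : Submodule A (A ⧸ J)) := by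
    rw [Submodule.mem_iInf]
    intro k
    obtain ⟨j, hj, m, hm, rfl⟩ := Submodule.mem_sup.mp (h k)
    have h2 : (Ideal.Quotient.mk J (j + m) : A ⧸ J) = m • (Ideal.Quotient.mk J 1 : A ⧸ J) := by
      rw [map_add, Ideal.Quotient.eq_zero_iff_mem.mpr hj, zero_add, map_one]
      rw [Algebra.smul_def, mul_one]
      rfl
    rw [h2]
    exact Submodule.smul_mem_smul hm Submodule.mem_top
  rw [h0, Submodule.mem_bot] at h1
  exact Ideal.Quotient.eq_zero_iff_mem.mp h1

/-- **descent of the cyclotomic congruence along the quotients `A/𝔪^k`.** -/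
theorem s59x_cycCong_of_quotients {A : Type} [CommRing A] [IsLocalRing A] [IsNoetherianRing A]
    (p : ℕ) (σ : Γℚ) (y z : A)
    (h : ∀ k : ℕ, s59x_CycCong p σ (Ideal.Quotient.mk (maximalIdeal A ^ k) y)
      (Ideal.Quotient.mk (maximalIdeal A ^ k) z)) : s59x_CycCong p σ y z := by
  intro n a ha
  apply s59x_mem_of_forall_mem_sup
  intro k
  have h1 := h k n a ha
  rw [← map_natCast (Ideal.Quotient.mk (maximalIdeal A ^ k)) a, ← map_mul, ← map_sub,
    ← map_natCast (Ideal.Quotient.mk (maximalIdeal A ^ k)) (p ^ n), ← Set.image_singleton,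
    ← Ideal.map_span] at h1
  exact Ideal.mem_quotient_iff_mem_sup.mp h1

/-! ### descent along jointly injective families -/

section family

variable {A : Type} [CommRing A] [IsLocalRing A] {ι : Type} {B : ι → Type}
  [∀ i, CommRing (B i)] [∀ i, IsLocalRing (B i)] (φ : ∀ i, A →+* B i)
  (hφ : ∀ i, IsLocalHom (φ i))

/-- a vector of a free module vanishing in all base changes vanishes. -/
theorem s59x_eq_zero_of_tmul (hinj : s59x_JointInj φ) {V : Type} [AddCommGroup V] [Module A V]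
    [Module.Free A V] (w : V)
    (h : ∀ i, letI : Algebra A (B i) := (φ i).toAlgebra
      ((1 : B i) ⊗ₜ[A] w : B i ⊗[A] V) = 0) : w = 0 := by
  let b := Module.Free.chooseBasis A V
  apply b.repr.injective
  rw [map_zero]
  ext j
  rw [Finsupp.zero_apply]
  apply hinj
  intro i
  letI : Algebra A (B i) := (φ i).toAlgebra
  have h1 := congrArg (fun t => (Algebra.TensorProduct.basis (B i) b).repr t j) (h i)
  simp only [Algebra.TensorProduct.basis_repr_tmul, map_zero, Finsupp.zero_apply, one_smul,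
    Finsupp.mapRange_apply] at h1
  exact h1

/-- an endomorphism of a free module vanishing in all base changes vanishes. -/
theorem s59x_end_eq_zero_of_baseChange (hinj : s59x_JointInj φ) {V : Type} [AddCommGroup V]
    [Module A V] [Module.Free A V] (f : Module.End A V)
    (h : ∀ i, letI : Algebra A (B i) := (φ i).toAlgebra
      f.baseChange (B i) = 0) : f = 0 := by
  refine LinearMap.ext fun v => ?_
  rw [LinearMap.zero_apply]
  refine s59x_eq_zero_of_tmul φ hinj (f v) fun i => ?_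
  letI : Algebra A (B i) := (φ i).toAlgebra
  have := LinearMap.congr_fun (h i) ((1 : B i) ⊗ₜ[A] v)
  rwa [LinearMap.baseChange_tmul, LinearMap.zero_apply] at this

theorem s59x_unr_of_family (hinj : s59x_JointInj φ) (ρ : GaloisRepAdic A) (q : ℕ)
    (h : ∀ i, (ρ.baseChangeAlong (φ i) (hφ i)).IsUnramifiedAt q) : ρ.IsUnramifiedAt q := by
  intro P hP σ hσ
  rw [← sub_eq_zero]
  refine s59x_end_eq_zero_of_baseChange φ hinj _ fun i => ?_
  letI : Algebra A (B i) := (φ i).toAlgebra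
  have h1 : ∀ x : B i ⊗[A] ρ.V, (ρ.ρ σ).baseChange (B i) x = x :=
    fun x => LinearMap.congr_fun (h i P hP σ hσ) x
  refine LinearMap.ext fun x => ?_
  rw [LinearMap.baseChange_sub, LinearMap.sub_apply, h1, Module.End.one_eq_id,
    LinearMap.baseChange_id, LinearMap.id_apply, sub_self, LinearMap.zero_apply]

theorem s59x_unip_of_family (hinj : s59x_JointInj φ) (ρ : GaloisRepAdic A) (q : ℕ)
    (h : ∀ i, (ρ.baseChangeAlong (φ i) (hφ i)).IsUnipotentOnInertiaAt q) :
    ρ.IsUnipotentOnInertiaAt q := by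
  intro P hP σ hσ
  ext n
  rw [← sub_eq_zero]
  apply hinj
  intro i
  have h1 := h i P hP σ hσ
  rw [s56a_charpoly_baseChangeAlong] at h1
  have h2 := congrArg (fun f => Polynomial.coeff f n) h1
  simp only [Polynomial.coeff_map] at h2
  have h3 : (Polynomial.X - 1 : Polynomial (B i)) ^ 2 =
      ((Polynomial.X - 1 : Polynomial A) ^ 2).map (φ i) := by simp
  rw [h3, Polynomial.coeff_map] at h2
  rw [map_sub, h2, sub_self]

theorem s59x_det_of_family [Nonempty ι] (ρ : GaloisRepAdic A) (p : ℕ)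
    (hcc : ∀ (σ : Γℚ) (y z : A), (∀ i, s59x_CycCong p σ (φ i y) (φ i z)) → s59x_CycCong p σ y z)
    (h : ∀ i, (ρ.baseChangeAlong (φ i) (hφ i)).DetIsCyclotomic p) : ρ.DetIsCyclotomic p := by
  refine ⟨?_, fun n σ a ha => ?_⟩
  · obtain ⟨i⟩ := ‹Nonempty ι›
    have h1 := (h i).1
    rw [mem_maximalIdeal, mem_nonunits_iff] at h1 ⊢
    intro hu
    apply h1
    have := hu.map (φ i)
    rwa [map_natCast] at this
  · have h1 : s59x_CycCong p σ (LinearMap.det (ρ.ρ σ)) 1 := by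
      refine hcc σ _ _ fun i n' a' ha' => ?_
      have h2 := (h i).2 n' σ a' ha'
      rw [s56a_det_baseChangeAlong] at h2
      rwa [map_one, mul_one]
    have h3 := h1 n a ha
    rwa [mul_one] at h3

end family

end Fermat.Agent.Lib.S59
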