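/-
S43 programme, node W9 [EXIST-DQ] (helper4, prefix `s59x_`): assembly of
`GaloisRep.IsDeformationCondition` for the Taylor–Wiles deformation types
`det = ε ∧ (local condition at p) ∧ unramified outside Σ ∧ unipotent at Smin`,
from a closure package `s59x_LocCond` for the local condition at `p`.
-/
import Mathlib
import Fermat.Agent.Lib.S59.XRestCl
import Fermat.Agent.Lib.S53.TestAlgebra
import Fermat.Agent.Lib.Deform.TestAlg

set_option autoImplicit false
set_option linter.unusedSectionVars false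
set_option linter.style.haveILetI false

noncomputable section

namespace Fermat.Agent.Lib.S59

open Fermat.Agent.Lib.S56 Fermat.Agent.Lib.S53 Fermat.Agent.Lib.Deform TensorProduct IsLocalRing
  GaloisRep

local notation "Kb" => AlgebraicClosure ℚ
local notation "Γℚ" => (AlgebraicClosure ℚ ≃ₐ[ℚ] AlgebraicClosure ℚ)

/-- **closure package for a local condition at `p`** (what the assembly needs). -/
structure s59x_LocCond
    (Lp : ∀ ⦃A : Type⦄ [CommRing A] [IsLocalRing A], GaloisRepAdic A → Prop) : Prop where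
  of_isEquiv : ∀ ⦃A : Type⦄ [CommRing A] [IsLocalRing A] ⦃ρ ρ' : GaloisRepAdic A⦄,
    ρ.IsEquiv ρ' → Lp ρ → Lp ρ'
  baseChange : ∀ ⦃A B : Type⦄ [CommRing A] [IsLocalRing A] [CommRing B] [IsLocalRing B]
    (φ : A →+* B) (hφ : IsLocalHom φ), Finite (ResidueField B) → ∀ ρ : GaloisRepAdic A,
      Lp ρ → Lp (ρ.baseChangeAlong φ hφ)
  of_injective : ∀ ⦃A B : Type⦄ [CommRing A] [IsLocalRing A] [CommRing B] [IsLocalRing B]
    [Finite B] (φ : A →+* B) (hφ : IsLocalHom φ), Function.Injective φ →
      ∀ ρ : GaloisRepAdic A, Lp (ρ.baseChangeAlong φ hφ) → Lp ρ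
  of_fibre : ∀ ⦃P A B : Type⦄ [CommRing P] [IsLocalRing P] [CommRing A] [IsLocalRing A]
    [CommRing B] [IsLocalRing B] [Finite A] [Finite B] (pA : P →+* A) (hpA : IsLocalHom pA)
    (pB : P →+* B) (hpB : IsLocalHom pB), (Function.Injective fun x => (pA x, pB x)) →
      ∀ ρ : GaloisRepAdic P, Lp (ρ.baseChangeAlong pA hpA) → Lp (ρ.baseChangeAlong pB hpB) → Lp ρ
  of_quotients : ∀ ⦃A : Type⦄ [CommRing A] [IsLocalRing A] [IsNoetherianRing A],
    Finite (ResidueField A) → ∀ ρ : GaloisRepAdic A,
      (∀ (I : Ideal A) (hI : I ≠ ⊤), Finite (A ⧸ I) →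
        letI : IsLocalRing (A ⧸ I) := quotient_isLocalRing I hI
        Lp (ρ.baseChangeAlong (Ideal.Quotient.mk I) (isLocalHom_quotient_mk I))) → Lp ρ

/-! ### a two-member family -/

/-- the family `true ↦ A`, `false ↦ B`. -/
def s59x_BF (A B : Type) (i : Bool) : Type :=
  match i with
  | true => A
  | false => B

instance s59x_BF.instCommRing (A B : Type) [CommRing A] [CommRing B] (i : Bool) :
    CommRing (s59x_BF A B i) :=
  match i with
  | true => (inferInstance : CommRing A)
  | false => (inferInstance : CommRing B)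

instance s59x_BF.instIsLocalRing (A B : Type) [CommRing A] [CommRing B] [IsLocalRing A]
    [IsLocalRing B] (i : Bool) : IsLocalRing (s59x_BF A B i) :=
  match i with
  | true => (inferInstance : IsLocalRing A)
  | false => (inferInstance : IsLocalRing B)

instance s59x_BF.instAlgebra (𝒪 A B : Type) [CommRing 𝒪] [CommRing A] [CommRing B] [Algebra 𝒪 A]
    [Algebra 𝒪 B] (i : Bool) : Algebra 𝒪 (s59x_BF A B i) :=
  match i with
  | true => (inferInstance : Algebra 𝒪 A)
  | false => (inferInstance : Algebra 𝒪 B)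

/-- the family of the two homomorphisms. -/
def s59x_bfHom {P A B : Type} [CommRing P] [CommRing A] [CommRing B] (pA : P →+* A)
    (pB : P →+* B) (i : Bool) : P →+* s59x_BF A B i :=
  match i with
  | true => pA
  | false => pB

theorem s59x_bfHom_isLocalHom {P A B : Type} [CommRing P] [CommRing A] [CommRing B]
    (pA : P →+* A) (pB : P →+* B) (hpA : IsLocalHom pA) (hpB : IsLocalHom pB) (i : Bool) :
    IsLocalHom (s59x_bfHom pA pB i) :=
  match i with
  | true => hpA
  | false => hpB

section assembly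

variable (𝒪 : Type) [CommRing 𝒪] [IsLocalRing 𝒪] [Finite (ResidueField 𝒪)]
  (p : ℕ) [Fact p.Prime]
  (Lp : ∀ ⦃A : Type⦄ [CommRing A] [IsLocalRing A], GaloisRepAdic A → Prop)

/-- the Taylor–Wiles deformation type with local condition `Lp` at `p`. -/
def s59x_TWType (Sg Smin : Finset ℕ) :
    ∀ ⦃A : Type⦄ [CommRing A] [IsLocalRing A] [Algebra 𝒪 A], GaloisRepAdic A → Prop :=
  fun _A _ _ _ ρ => (ρ.DetIsCyclotomic p ∧ Lp ρ ∧
      ∀ q : ℕ, q.Prime → q ∉ Sg → ρ.IsUnramifiedAt q) ∧
    ∀ q ∈ Smin, q.Prime → q ≠ p → ρ.IsUnipotentOnInertiaAt q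

variable {𝒪 p Lp}

/-- the type descends along a jointly injective family of local homomorphisms, given the descent of
the cyclotomic congruence and of `Lp`. -/
theorem s59x_twType_of_family (Sg Smin : Finset ℕ) {A : Type} [CommRing A] [IsLocalRing A]
    [Algebra 𝒪 A] {ι : Type} [Nonempty ι] {B : ι → Type} [∀ i, CommRing (B i)]
    [∀ i, IsLocalRing (B i)] [∀ i, Algebra 𝒪 (B i)] (φ : ∀ i, A →+* B i)
    (hφ : ∀ i, IsLocalHom (φ i)) (hinj : s59x_JointInj φ)
    (hcc : ∀ (σ : Γℚ) (y z : A), (∀ i, s59x_CycCong p σ (φ i y) (φ i z)) → s59x_CycCong p σ y z)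
    (ρ : GaloisRepAdic A)
    (hLp : (∀ i, Lp (ρ.baseChangeAlong (φ i) (hφ i))) → Lp ρ)
    (h : ∀ i, s59x_TWType 𝒪 p Lp Sg Smin (ρ.baseChangeAlong (φ i) (hφ i))) :
    s59x_TWType 𝒪 p Lp Sg Smin ρ :=
  ⟨⟨s59x_det_of_family φ hφ ρ p hcc fun i => (h i).1.1, hLp fun i => (h i).1.2.1,
    fun q hq hqS => s59x_unr_of_family φ hφ hinj ρ q fun i => (h i).1.2.2 q hq hqS⟩,
    fun q hq hqp hne => s59x_unip_of_family φ hφ hinj ρ q fun i => (h i).2 q hq hqp hne⟩

theorem s59x_twType_baseChange (hL : s59x_LocCond Lp) (Sg Smin : Finset ℕ) {A B : Type}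
    [CommRing A] [IsLocalRing A] [Algebra 𝒪 A] [CommRing B] [IsLocalRing B] [Algebra 𝒪 B]
    (φ : A →+* B) (hφ : IsLocalHom φ) (hB : Finite (ResidueField B)) (ρ : GaloisRepAdic A)
    (h : s59x_TWType 𝒪 p Lp Sg Smin ρ) :
    s59x_TWType 𝒪 p Lp Sg Smin (ρ.baseChangeAlong φ hφ) :=
  ⟨⟨s56a_detIsCyclotomic_baseChange _ hφ ρ h.1.1, hL.baseChange φ hφ hB ρ h.1.2.1,
    fun q hq hqS => s56a_isUnramifiedAt_baseChange _ hφ ρ (h.1.2.2 q hq hqS)⟩,
    fun q hq hqp hne => s56a_isUnipotentOnInertiaAt_baseChange _ hφ ρ (h.2 q hq hqp hne)⟩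

/-- `p` is nilpotent in a finite local ring in which it is a non-unit. -/
theorem s59x_exists_pow_eq_zero {A : Type} [CommRing A] [IsLocalRing A] [Finite A]
    (hp : (p : A) ∈ maximalIdeal A) : ∃ N : ℕ, (p : A) ^ N = 0 := by
  obtain ⟨N, hN⟩ := exists_maximalIdeal_pow_eq_bot A
  refine ⟨N, ?_⟩
  have := Ideal.pow_mem_pow hp N
  rwa [hN, Ideal.mem_bot] at this

theorem s59x_finite_of_artinianTest {A : Type} [CommRing A] [IsLocalRing A] [Algebra 𝒪 A]
    (hA : IsArtinianTestAlgebra 𝒪 A) : Finite A :=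
  haveI := hA.isArtinian
  (IsTestAlgebra.of_artinian hA).finite_of_isArtinianRing

/-- **the Taylor–Wiles types are deformation conditions.** -/
theorem s59x_isDefCond (hL : s59x_LocCond Lp) (Sg Smin : Finset ℕ) :
    IsDeformationCondition 𝒪 (s59x_TWType 𝒪 p Lp Sg Smin) where
  of_isEquiv := by
    rintro A _ _ _ - ρ ρ' ⟨e⟩ h
    exact ⟨⟨s56a_detIsCyclotomic_of_equiv e h.1.1, hL.of_isEquiv ⟨e⟩ h.1.2.1,
      fun q hq hqS => s56a_isUnramifiedAt_of_equiv e (h.1.2.2 q hq hqS)⟩,
      fun q hq hqp hne => s56a_isUnipotentOnInertiaAt_of_equiv e (h.2 q hq hqp hne)⟩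
  baseChangeAlong := by
    intro A B _ _ _ _ _ _ _ hB φ hφ ρ h
    exact s59x_twType_baseChange hL Sg Smin _ hφ
      (finite_residueField_of_surjective hB.isLocalHom hB.residue_surjective) ρ h
  of_baseChangeAlong_injective := by
    intro A B _ _ _ _ _ _ hA hB φ hφ hinj ρ h
    have hfB : Finite B := s59x_finite_of_artinianTest hB
    have hfA : Finite A := s59x_finite_of_artinianTest hA
    have hpA : (p : A) ∈ maximalIdeal A := by
      have h1 := h.1.1.1
      rw [mem_maximalIdeal, mem_nonunits_iff] at h1 ⊢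
      intro hu
      apply h1
      have := hu.map (φ : A →+* B)
      rwa [map_natCast] at this
    obtain ⟨N, hN⟩ := s59x_exists_pow_eq_zero hpA
    have hJ : s59x_JointInj (fun _ : Unit => (φ : A →+* B)) := fun x hx => by
      have := hx ()
      exact hinj (this.trans (map_zero _).symm)
    refine s59x_twType_of_family Sg Smin (B := fun _ : Unit => B)
      (fun _ => (φ : A →+* B)) (fun _ => hφ) hJ ?_ ρ ?_ (fun _ => h)
    · intro σ y z hyz
      exact s59x_cycCong_of_nilpotent _ hJ p (Fact.out : p.Prime).pos N hN σ y z hyz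
    · intro hLp
      exact hL.of_injective _ hφ hinj ρ (hLp ())
  of_fibreProduct := by
    intro A B C P _ _ _ _ _ _ _ _ _ _ _ _ hA hB _ hP f g pA pB hpA hpB _ hinj _ ρ hρA hρB
    have hfA : Finite A := s59x_finite_of_artinianTest hA
    have hfB : Finite B := s59x_finite_of_artinianTest hB
    have hfP : Finite P := s59x_finite_of_artinianTest hP
    have hpP : (p : P) ∈ maximalIdeal P := by
      have h1 := hρA.1.1.1
      rw [mem_maximalIdeal, mem_nonunits_iff] at h1 ⊢
      intro hu
      apply h1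
      have := hu.map (pA : P →+* A)
      rwa [map_natCast] at this
    obtain ⟨N, hN⟩ := s59x_exists_pow_eq_zero hpP
    have hJ : s59x_JointInj (s59x_bfHom (pA : P →+* A) (pB : P →+* B)) := fun x hx => by
      have h1 : pA x = 0 := hx true
      have h2 : pB x = 0 := hx false
      exact hinj (by simp [h1, h2])
    refine s59x_twType_of_family Sg Smin (s59x_bfHom (pA : P →+* A) (pB : P →+* B))
      (s59x_bfHom_isLocalHom _ _ hpA hpB) hJ ?_ ρ ?_ ?_
    · intro σ y z hyz
      exact s59x_cycCong_of_nilpotent _ hJ p (Fact.out : p.Prime).pos N hN σ y z hyz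
    · intro hLp
      exact hL.of_fibre _ hpA _ hpB hinj ρ (hLp true) (hLp false)
    · intro i
      match i with
      | true => exact hρA
      | false => exact hρB
  iff_forall_surjective := by
    intro A _ _ _ _ _ hloc hres ρ
    have hk : Finite (ResidueField A) := finite_residueField_of_surjective hloc hres
    constructor
    · intro h B _ _ _ hB q hq _
      exact s59x_twType_baseChange hL Sg Smin _ hq
        (finite_residueField_of_surjective hB.isLocalHom hB.residue_surjective) ρ h
    · intro H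
      letI iL : ∀ k : ℕ, IsLocalRing (A ⧸ maximalIdeal A ^ (k + 1)) := fun k =>
        quotient_isLocalRing _ (pow_maximalIdeal_ne_top (Nat.succ_ne_zero k))
      have hJ : s59x_JointInj (fun k : ℕ => Ideal.Quotient.mk (maximalIdeal A ^ (k + 1))) := by
        intro x hx
        have h1 : x ∈ (⨅ i : ℕ, maximalIdeal A ^ i) := by
          rw [Ideal.mem_iInf]
          intro i
          exact Ideal.pow_le_pow_right (Nat.le_succ i) (Ideal.Quotient.eq_zero_iff_mem.mp (hx i))
        rwa [Ideal.iInf_pow_eq_bot_of_isLocalRing _ (Ideal.IsMaximal.ne_top inferInstance),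
          Ideal.mem_bot] at h1
      have hH : ∀ (I : Ideal A) (hI : I ≠ ⊤), Finite (A ⧸ I) →
          letI : IsLocalRing (A ⧸ I) := quotient_isLocalRing I hI
          s59x_TWType 𝒪 p Lp Sg Smin
            (ρ.baseChangeAlong (Ideal.Quotient.mk I) (isLocalHom_quotient_mk I)) := by
        intro I hI hfin
        letI : IsLocalRing (A ⧸ I) := quotient_isLocalRing I hI
        have hB : IsArtinianTestAlgebra 𝒪 (A ⧸ I) :=
          ⟨quotient_isLocalHom_algebraMap I hloc, quotient_residue_surjective I hres,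
            inferInstance⟩
        exact H hB (Ideal.Quotient.mkₐ 𝒪 I) (isLocalHom_quotient_mk I)
          (Ideal.Quotient.mkₐ_surjective 𝒪 I)
      refine s59x_twType_of_family Sg Smin
        (fun k : ℕ => Ideal.Quotient.mk (maximalIdeal A ^ (k + 1)))
        (fun k => isLocalHom_quotient_mk _) hJ ?_ ρ ?_ ?_
      · intro σ y z hyz
        apply s59x_cycCong_of_quotients
        intro k
        cases k with
        | zero =>
          intro n a _
          haveI : Subsingleton (A ⧸ maximalIdeal A ^ 0) :=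
            Ideal.Quotient.subsingleton_iff.mpr ((pow_zero _).trans Ideal.one_eq_top)
          rw [Subsingleton.elim (_ - _) 0]
          exact Ideal.zero_mem _
        | succ k => exact hyz k
      · intro _
        exact hL.of_quotients hk ρ fun I hI hfin => (hH I hI hfin).1.2.1
      · intro k
        exact hH _ (pow_maximalIdeal_ne_top (Nat.succ_ne_zero k))
          (finite_quotient_of_pow_le _ hloc hres le_rfl)

end assembly

end Fermat.Agent.Lib.S59
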