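/-
S43 programme, node W9a [FLAT-CL] (helper4, prefix `s59x_`): a finite flat Hopf algebra datum as in
`GaloisRepAdic.IsFlatAt` gives a Δ-closed function order (the converse is main's `s19c_hopf_main`),
the level quotients `V/IV` as Galois modules, and the reformulation of `IsFlatAt` in terms of orders.
-/
import Mathlib
import Fermat.Agent.Lib.S19.CHopfD
import Fermat.Agent.Lib.S19.CSubProd

set_option autoImplicit false
set_option linter.unusedSectionVars false
set_option linter.style.haveILetI false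

noncomputable section

namespace Fermat.Agent.Lib.S59

open Fermat.Agent.Lib.S19 TensorProduct

local notation "Kb" => AlgebraicClosure ℚ

/-- the finite Galois module `T` carries a Δ-closed function order over `ℤ_(ℓ)`. -/
def s59x_HasOrd (ℓ : ℕ) (T : Type) [AddCommGroup T] [DistribMulAction s19_Gal T] : Prop :=
  ∃ H : Subalgebra ↥(GaloisRep.ratLocalizedAt ℓ) (T → s19_Qbar), s19_IsOrder ℓ T H

/-! ### Hopf algebra ⇒ order -/

section hopf

variable (ℓ : ℕ) {T : Type} [AddCommGroup T] [DistribMulAction s19_Gal T]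
  {H : Type} [CommRing H] [HopfAlgebra (GaloisRep.ratLocalizedAt ℓ) H]
  (e : WithConv (H →ₐ[GaloisRep.ratLocalizedAt ℓ] Kb) ≃ T)

/-- the evaluation map `H → (T → ℚ̄)`, `h ↦ (x ↦ (e⁻¹ x) h)`. -/
def s59x_evHopf : H →ₐ[GaloisRep.ratLocalizedAt ℓ] (T → Kb) :=
  AlgHom.pi (fun x => (e.symm x).ofConv)

theorem s59x_evHopf_apply (h : H) (x : T) : s59x_evHopf ℓ e h x = (e.symm x).ofConv h := rfl

/-- a two-variable function is a finite sum of products of functions from `S`. -/
def s59x_Rep2 (S : Set (T → Kb)) (G : T → T → Kb) : Prop :=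
  ∃ (κ : Type) (_ : Fintype κ) (u v : κ → T → Kb), (∀ k, u k ∈ S) ∧ (∀ k, v k ∈ S) ∧
    ∀ p q : T, G p q = ∑ k, u k p * v k q

theorem s59x_rep2_zero (S : Set (T → Kb)) : s59x_Rep2 S (fun _ _ => (0 : Kb)) :=
  ⟨PEmpty, inferInstance, PEmpty.elim, PEmpty.elim, fun k => k.elim, fun k => k.elim,
    fun _ _ => by simp⟩

theorem s59x_rep2_add (S : Set (T → Kb)) (F G : T → T → Kb)
    (hF : s59x_Rep2 S F) (hG : s59x_Rep2 S G) : s59x_Rep2 S (fun p q => F p q + G p q) := by
  obtain ⟨κ, _, u, v, hu, hv, huv⟩ := hF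
  obtain ⟨κ', _, u', v', hu', hv', huv'⟩ := hG
  refine ⟨κ ⊕ κ', inferInstance, Sum.elim u u', Sum.elim v v', ?_, ?_, ?_⟩
  · rintro (k | k)
    · exact hu k
    · exact hu' k
  · rintro (k | k)
    · exact hv k
    · exact hv' k
  · intro p q
    show F p q + G p q = _
    rw [huv, huv', Fintype.sum_sum_type]
    rfl

theorem s59x_rep2_fin (S : Set (T → Kb)) (G : T → T → Kb) (hG : s59x_Rep2 S G) :
    ∃ (n : ℕ) (b' b'' : Fin n → T → Kb), (∀ i, b' i ∈ S) ∧ (∀ i, b'' i ∈ S) ∧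
      ∀ y y', G y y' = ∑ i, b' i y * b'' i y' := by
  obtain ⟨κ, _, u, v, hu, hv, huv⟩ := hG
  refine ⟨Fintype.card κ, fun i => u ((Fintype.equivFin κ).symm i),
    fun i => v ((Fintype.equivFin κ).symm i), fun i => hu _, fun i => hv _, ?_⟩
  intro y y'
  rw [huv]
  exact (Equiv.sum_comp (Fintype.equivFin κ).symm (fun k => u k y * v k y')).symm

theorem s59x_rep2_lift (z : H ⊗[GaloisRep.ratLocalizedAt ℓ] H) :
    s59x_Rep2 ((s59x_evHopf ℓ e).range : Set (T → Kb)) (fun p q =>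
      Algebra.TensorProduct.lift (e.symm p).ofConv (e.symm q).ofConv (fun _ _ => Commute.all _ _)
        z) := by
  induction z using TensorProduct.induction_on with
  | zero =>
    simp only [map_zero]
    exact s59x_rep2_zero _
  | tmul a b =>
    refine ⟨PUnit, inferInstance, fun _ => s59x_evHopf ℓ e a, fun _ => s59x_evHopf ℓ e b,
      fun _ => ⟨a, rfl⟩, fun _ => ⟨b, rfl⟩, ?_⟩
    intro p q
    show Algebra.TensorProduct.lift (e.symm p).ofConv (e.symm q).ofConv
      (fun _ _ => Commute.all _ _) (a ⊗ₜ b) = _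
    rw [Algebra.TensorProduct.lift_tmul]
    simp [s59x_evHopf_apply]
  | add u v hu hv =>
    simp only [map_add]
    exact s59x_rep2_add _ _ _ hu hv

/-- **Hopf ⇒ order**: the image of the evaluation map is a Δ-closed function order. -/
theorem s59x_hasOrd_of_hopf [Module.Finite (GaloisRep.ratLocalizedAt ℓ) H]
    (hadd : ∀ f g : WithConv (H →ₐ[GaloisRep.ratLocalizedAt ℓ] Kb), e (f * g) = e f + e g)
    (hgal : ∀ (σ : s19_Gal) (f g : WithConv (H →ₐ[GaloisRep.ratLocalizedAt ℓ] Kb)),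
      (∀ h : H, g h = σ (f h)) → e g = σ • e f) :
    s59x_HasOrd ℓ T := by
  refine ⟨(s59x_evHopf ℓ e).range, ?_, ?_, ?_, ?_⟩
  · rintro a ⟨h, rfl⟩ σ x
    show s59x_evHopf ℓ e h (σ • x) = σ (s59x_evHopf ℓ e h x)
    rw [s59x_evHopf_apply, s59x_evHopf_apply]
    let σR : Kb →ₐ[GaloisRep.ratLocalizedAt ℓ] Kb := (σ.restrictScalars _).toAlgHom
    let g : WithConv (H →ₐ[GaloisRep.ratLocalizedAt ℓ] Kb) :=
      WithConv.toConv (σR.comp (e.symm x).ofConv)
    have hg : e g = σ • x := by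
      have := hgal σ (e.symm x) g (fun h => rfl)
      rwa [Equiv.apply_symm_apply] at this
    have hg' : e.symm (σ • x) = g := by
      rw [← hg, Equiv.symm_apply_apply]
    rw [hg']
    rfl
  · have h1 : Subalgebra.toSubmodule (s59x_evHopf ℓ e).range =
        LinearMap.range (s59x_evHopf ℓ e).toLinearMap := by
      ext f
      rfl
    rw [h1, LinearMap.range_eq_map]
    exact (Module.Finite.fg_top).map _
  · intro x y hxy
    by_contra hcon
    push Not at hcon
    apply hxy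
    apply e.symm.injective
    apply WithConv.ext
    apply AlgHom.ext
    intro h
    exact hcon _ ⟨h, rfl⟩
  · rintro a ⟨h, rfl⟩
    obtain ⟨n, b', b'', hb', hb'', hsum⟩ := s59x_rep2_fin _ _
      (s59x_rep2_lift ℓ e (CoalgebraStruct.comul (R := GaloisRep.ratLocalizedAt ℓ) h))
    refine ⟨n, b', b'', hb', hb'', fun x y => ?_⟩
    show s59x_evHopf ℓ e h (x + y) = _
    rw [← hsum, s59x_evHopf_apply]
    have h2 : e.symm (x + y) = e.symm x * e.symm y := by
      apply e.injective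
      rw [hadd, Equiv.apply_symm_apply, Equiv.apply_symm_apply, Equiv.apply_symm_apply]
    rw [h2]
    exact AlgHom.convMul_apply (e.symm x) (e.symm y) h

end hopf

/-! ### the level quotients `V/IV` as Galois modules -/

section level

variable {A : Type} [CommRing A] [IsLocalRing A]

/-- the level quotient `V/IV` (a type synonym carrying the Galois action). -/
def s59x_Lev (ρ : GaloisRepAdic A) (I : Ideal A) : Type :=
  ρ.V ⧸ (I • (⊤ : Submodule A ρ.V))

instance (ρ : GaloisRepAdic A) (I : Ideal A) : AddCommGroup (s59x_Lev ρ I) :=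
  inferInstanceAs (AddCommGroup (ρ.V ⧸ (I • (⊤ : Submodule A ρ.V))))

instance (ρ : GaloisRepAdic A) (I : Ideal A) : Module A (s59x_Lev ρ I) :=
  inferInstanceAs (Module A (ρ.V ⧸ (I • (⊤ : Submodule A ρ.V))))

/-- the class of a vector. -/
def s59x_levMk (ρ : GaloisRepAdic A) (I : Ideal A) : ρ.V →ₗ[A] s59x_Lev ρ I :=
  (I • (⊤ : Submodule A ρ.V)).mkQ

theorem s59x_levMk_surjective (ρ : GaloisRepAdic A) (I : Ideal A) :
    Function.Surjective (s59x_levMk ρ I) :=
  Submodule.mkQ_surjective _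

theorem s59x_levMk_eq_zero (ρ : GaloisRepAdic A) (I : Ideal A) (v : ρ.V) :
    s59x_levMk ρ I v = 0 ↔ v ∈ I • (⊤ : Submodule A ρ.V) :=
  Submodule.Quotient.mk_eq_zero _

theorem s59x_levelAction_mk (ρ : GaloisRepAdic A) (I : Ideal A) (σ : s19_Gal) (v : ρ.V) :
    ρ.levelAction I σ (s59x_levMk ρ I v) = s59x_levMk ρ I (ρ.ρ σ v) := rfl

instance (ρ : GaloisRepAdic A) (I : Ideal A) : DistribMulAction s19_Gal (s59x_Lev ρ I) where
  smul σ x := ρ.levelAction I σ x
  one_smul x := by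
    obtain ⟨v, rfl⟩ := s59x_levMk_surjective ρ I x
    show ρ.levelAction I 1 (s59x_levMk ρ I v) = _
    rw [s59x_levelAction_mk, map_one, Module.End.one_apply]
  mul_smul σ τ x := by
    obtain ⟨v, rfl⟩ := s59x_levMk_surjective ρ I x
    show ρ.levelAction I (σ * τ) (s59x_levMk ρ I v) =
      ρ.levelAction I σ (ρ.levelAction I τ (s59x_levMk ρ I v))
    rw [s59x_levelAction_mk, s59x_levelAction_mk, s59x_levelAction_mk, map_mul,
      Module.End.mul_apply]
  smul_zero σ := map_zero (ρ.levelAction I σ)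
  smul_add σ x y := map_add (ρ.levelAction I σ) x y

theorem s59x_smul_levMk (ρ : GaloisRepAdic A) (I : Ideal A) (σ : s19_Gal) (v : ρ.V) :
    σ • s59x_levMk ρ I v = s59x_levMk ρ I (ρ.ρ σ v) := rfl

theorem s59x_smul_def (ρ : GaloisRepAdic A) (I : Ideal A) (σ : s19_Gal) (x : s59x_Lev ρ I) :
    σ • x = ρ.levelAction I σ x := rfl

/-- the Galois action commutes with scalars. -/
theorem s59x_smul_smul_comm (ρ : GaloisRepAdic A) (I : Ideal A) (σ : s19_Gal) (a : A)
    (x : s59x_Lev ρ I) : σ • (a • x) = a • (σ • x) :=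
  map_smul (ρ.levelAction I σ) a x

/-- `V/IV` is finite as soon as `A/I` is. -/
theorem s59x_lev_finite (ρ : GaloisRepAdic A) (I : Ideal A) [Finite (A ⧸ I)] :
    Finite (s59x_Lev ρ I) := by
  have h1 : Module.Finite (A ⧸ I) (ρ.V ⧸ (I • (⊤ : Submodule A ρ.V))) :=
    Module.Finite.of_restrictScalars_finite A _ _
  exact (Module.finite_of_finite (A ⧸ I) : Finite (ρ.V ⧸ (I • (⊤ : Submodule A ρ.V))))

/-- **`IsFlatAt` in terms of Δ-closed function orders.** -/
theorem s59x_isFlatAt_iff (p : ℕ) [Fact p.Prime] (ρ : GaloisRepAdic A) :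
    ρ.IsFlatAt p ↔ Finite (IsLocalRing.ResidueField A) ∧
      ∀ I : Ideal A, Finite (A ⧸ I) → s59x_HasOrd p (s59x_Lev ρ I) := by
  constructor
  · rintro ⟨h1, h2⟩
    refine ⟨h1, fun I hI => ?_⟩
    obtain ⟨H, i1, i2, hfin, -, -, e, hadd, hgal⟩ := h2 I hI
    exact s59x_hasOrd_of_hopf p (T := s59x_Lev ρ I) e hadd hgal
  · rintro ⟨h1, h2⟩
    refine ⟨h1, fun I hI => ?_⟩
    have := s59x_lev_finite ρ I
    obtain ⟨H₀, hH₀⟩ := h2 I hI
    obtain ⟨H, i1, i2, hfin, hflat, hco, e, hadd, hgal⟩ :=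
      s19c_hopf_main p (s59x_Lev ρ I) H₀ hH₀
    exact ⟨H, i1, i2, hfin, hflat, hco, e, hadd, hgal⟩

end level

end Fermat.Agent.Lib.S59
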