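/-
S43 programme, node W9a [FLAT-CL] (helper4, prefix `s59x_`): closure properties of `IsFlatAt`
(arbitrary base change, descent along injections, fibre products, the limit criterion) from the
closure of Δ-closed function orders under sub/quot/prod (main's `s19c_order*`).
-/
import Mathlib
import Fermat.Agent.Lib.S59.XOrd
import Fermat.Agent.Lib.S56.ACond

set_option autoImplicit false
set_option linter.unusedSectionVars false
set_option linter.style.haveILetI false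

noncomputable section

namespace Fermat.Agent.Lib.S59

open Fermat.Agent.Lib.S19 Fermat.Agent.Lib.S56 TensorProduct IsLocalRing

local notation "Kb" => AlgebraicClosure ℚ

/-! ### generic closure of `s59x_HasOrd` -/

section generic

variable (ℓ : ℕ) [Fact ℓ.Prime]

theorem s59x_hasOrd_of_injective {T T₁ : Type} [AddCommGroup T] [Finite T]
    [DistribMulAction s19_Gal T] [AddCommGroup T₁] [DistribMulAction s19_Gal T₁]
    (i : T₁ →+ T) (hi : Function.Injective i) (hG : ∀ (σ : s19_Gal) (x : T₁), i (σ • x) = σ • i x)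
    (h : s59x_HasOrd ℓ T) : s59x_HasOrd ℓ T₁ :=
  s19c_orderSub ℓ T T₁ i hi hG h

theorem s59x_hasOrd_of_surjective {T T₂ : Type} [AddCommGroup T] [Finite T]
    [DistribMulAction s19_Gal T] [AddCommGroup T₂] [DistribMulAction s19_Gal T₂]
    (π : T →+ T₂) (hπ : Function.Surjective π)
    (hG : ∀ (σ : s19_Gal) (x : T), π (σ • x) = σ • π x)
    (h : s59x_HasOrd ℓ T) : s59x_HasOrd ℓ T₂ :=
  s19c_orderQuot ℓ T T₂ π hπ hG h

theorem s59x_hasOrd_prod {T T' : Type} [AddCommGroup T] [Finite T]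
    [DistribMulAction s19_Gal T] [AddCommGroup T'] [Finite T'] [DistribMulAction s19_Gal T']
    (h : s59x_HasOrd ℓ T) (h' : s59x_HasOrd ℓ T') : s59x_HasOrd ℓ (T × T') :=
  s19c_orderProd ℓ T T' h h'

theorem s59x_hasOrd_pi_fin {T : Type} [AddCommGroup T] [Finite T] [DistribMulAction s19_Gal T]
    (h : s59x_HasOrd ℓ T) (n : ℕ) : s59x_HasOrd ℓ (Fin n → T) := by
  induction n with
  | zero =>
    refine s59x_hasOrd_of_injective ℓ (0 : (Fin 0 → T) →+ T) ?_ ?_ h
    · intro x y _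
      exact Subsingleton.elim x y
    · intro σ x
      simp
  | succ n ih =>
    let i : (Fin (n + 1) → T) →+ T × (Fin n → T) :=
      { toFun := fun f => (f 0, fun j => f j.succ)
        map_zero' := rfl
        map_add' := fun _ _ => rfl }
    refine s59x_hasOrd_of_injective ℓ i ?_ ?_ (s59x_hasOrd_prod ℓ h ih)
    · intro f g hfg
      have h1 : f 0 = g 0 := congrArg Prod.fst hfg
      have h2 : (fun j : Fin n => f j.succ) = fun j => g j.succ := congrArg Prod.snd hfg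
      funext j
      refine Fin.cases h1 (fun k => congrFun h2 k) j
    · intro σ f
      rfl

theorem s59x_hasOrd_pi {T : Type} [AddCommGroup T] [Finite T] [DistribMulAction s19_Gal T]
    (h : s59x_HasOrd ℓ T) (κ : Type) [Finite κ] : s59x_HasOrd ℓ (κ → T) := by
  obtain ⟨n, ⟨ε⟩⟩ := Finite.exists_equiv_fin κ
  let i : (κ → T) →+ (Fin n → T) :=
    { toFun := fun f j => f (ε.symm j)
      map_zero' := rfl
      map_add' := fun _ _ => rfl }
  refine s59x_hasOrd_of_injective ℓ i ?_ ?_ (s59x_hasOrd_pi_fin ℓ h n)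
  · intro f g hfg
    funext k
    have := congrFun hfg (ε k)
    simpa [i] using this
  · intro σ f
    rfl

end generic

/-! ### the level quotients -/

section levels

variable (ℓ : ℕ) [Fact ℓ.Prime] {A : Type} [CommRing A] [IsLocalRing A] (ρ : GaloisRepAdic A)

/-- the transition map `V/IV → V/I'V` for `I ≤ I'`. -/
def s59x_levFactor {I I' : Ideal A} (h : I ≤ I') : s59x_Lev ρ I →ₗ[A] s59x_Lev ρ I' :=
  Submodule.mapQ _ _ LinearMap.id (by
    rw [Submodule.comap_id]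
    exact Submodule.smul_mono h le_rfl)

theorem s59x_levFactor_mk {I I' : Ideal A} (h : I ≤ I') (v : ρ.V) :
    s59x_levFactor ρ h (s59x_levMk ρ I v) = s59x_levMk ρ I' v := rfl

theorem s59x_levFactor_smul {I I' : Ideal A} (h : I ≤ I') (σ : s19_Gal) (x : s59x_Lev ρ I) :
    s59x_levFactor ρ h (σ • x) = σ • s59x_levFactor ρ h x := by
  obtain ⟨v, rfl⟩ := s59x_levMk_surjective ρ I x
  rw [s59x_smul_levMk, s59x_levFactor_mk, s59x_levFactor_mk, s59x_smul_levMk]

/-- **(L1)** orders pass to coarser levels. -/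
theorem s59x_hasOrd_lev_mono {I I' : Ideal A} (h : I ≤ I') [Finite (A ⧸ I)]
    (hO : s59x_HasOrd ℓ (s59x_Lev ρ I)) : s59x_HasOrd ℓ (s59x_Lev ρ I') := by
  have := s59x_lev_finite ρ I
  refine s59x_hasOrd_of_surjective ℓ (s59x_levFactor ρ h).toAddMonoidHom ?_ ?_ hO
  · intro y
    obtain ⟨v, rfl⟩ := s59x_levMk_surjective ρ I' y
    exact ⟨s59x_levMk ρ I v, rfl⟩
  · intro σ x
    exact s59x_levFactor_smul ρ h σ x

/-- **(L2)** orders at `I₁`, `I₂` give an order at `I₁ ⊓ I₂`. -/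
theorem s59x_hasOrd_lev_inf {I₁ I₂ : Ideal A} [Finite (A ⧸ I₁)] [Finite (A ⧸ I₂)]
    (h₁ : s59x_HasOrd ℓ (s59x_Lev ρ I₁)) (h₂ : s59x_HasOrd ℓ (s59x_Lev ρ I₂)) :
    s59x_HasOrd ℓ (s59x_Lev ρ (I₁ ⊓ I₂)) := by
  have := s59x_lev_finite ρ I₁
  have := s59x_lev_finite ρ I₂
  let i : s59x_Lev ρ (I₁ ⊓ I₂) →+ s59x_Lev ρ I₁ × s59x_Lev ρ I₂ :=
    ((s59x_levFactor ρ (inf_le_left : I₁ ⊓ I₂ ≤ I₁)).toAddMonoidHom).prod
      ((s59x_levFactor ρ (inf_le_right : I₁ ⊓ I₂ ≤ I₂)).toAddMonoidHom)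
  refine s59x_hasOrd_of_injective ℓ i ?_ ?_ (s59x_hasOrd_prod ℓ h₁ h₂)
  · rw [injective_iff_map_eq_zero]
    intro x hx
    obtain ⟨v, rfl⟩ := s59x_levMk_surjective ρ _ x
    have hx1 : s59x_levMk ρ I₁ v = 0 := congrArg Prod.fst hx
    have hx2 : s59x_levMk ρ I₂ v = 0 := congrArg Prod.snd hx
    rw [s59x_levMk_eq_zero] at hx1 hx2 ⊢
    let b := Module.Free.chooseBasis A ρ.V
    rw [s56a_mem_smul_top_iff_repr b] at hx1 hx2 ⊢
    exact fun j => ⟨hx1 j, hx2 j⟩
  · intro σ x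
    exact Prod.ext (s59x_levFactor_smul ρ inf_le_left σ x) (s59x_levFactor_smul ρ inf_le_right σ x)

end levels

/-! ### base change of the level quotients -/

section basechange

variable (ℓ : ℕ) [Fact ℓ.Prime] {A : Type} [CommRing A] [IsLocalRing A] (ρ : GaloisRepAdic A)
  {B : Type} [CommRing B] [IsLocalRing B] (φ : A →+* B) (hφ : IsLocalHom φ)

/-- the class map upstairs, with the underlying tensor product made explicit. -/
def s59x_levMkBC (J : Ideal B) :
    letI : Algebra A B := φ.toAlgebra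
    (B ⊗[A] ρ.V) →ₗ[B] s59x_Lev (ρ.baseChangeAlong φ hφ) J :=
  s59x_levMk (ρ.baseChangeAlong φ hφ) J

theorem s59x_levMkBC_surjective (J : Ideal B) :
    Function.Surjective (s59x_levMkBC ρ φ hφ J) :=
  s59x_levMk_surjective (ρ.baseChangeAlong φ hφ) J

theorem s59x_levMkBC_eq_zero (J : Ideal B) :
    letI : Algebra A B := φ.toAlgebra
    ∀ w : B ⊗[A] ρ.V, s59x_levMkBC ρ φ hφ J w = 0 ↔
      w ∈ J • (⊤ : Submodule B (B ⊗[A] ρ.V)) :=
  fun w => s59x_levMk_eq_zero (ρ.baseChangeAlong φ hφ) J w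

theorem s59x_smul_levMkBC (J : Ideal B) (σ : s19_Gal) :
    letI : Algebra A B := φ.toAlgebra
    ∀ (b : B) (v : ρ.V), σ • s59x_levMkBC ρ φ hφ J (b ⊗ₜ[A] v) =
      s59x_levMkBC ρ φ hφ J (b ⊗ₜ[A] ρ.ρ σ v) := by
  letI : Algebra A B := φ.toAlgebra
  intro b v
  show s59x_levMk (ρ.baseChangeAlong φ hφ) J ((ρ.baseChangeAlong φ hφ).ρ σ (b ⊗ₜ[A] v)) = _
  rw [s56a_baseChangeAlong_apply_tmul]
  rfl

/-- `V/(φ⁻¹J)V → (B ⊗ V)/J(B ⊗ V)`, `[v] ↦ [1 ⊗ v]`. -/
def s59x_levBC (J : Ideal B) :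
    s59x_Lev ρ (J.comap φ) →+ s59x_Lev (ρ.baseChangeAlong φ hφ) J :=
  letI : Algebra A B := φ.toAlgebra
  let f : (ρ.V ⧸ ((J.comap φ) • (⊤ : Submodule A ρ.V))) →ₗ[A]
      ((B ⊗[A] ρ.V) ⧸ (J • (⊤ : Submodule B (B ⊗[A] ρ.V)))) :=
    Submodule.liftQ _ (s56a_flatMap A ρ.V J) (le_of_eq (s56a_flatMap_ker A ρ.V J).symm)
  f.toAddMonoidHom

theorem s59x_levBC_mk (J : Ideal B) (v : ρ.V) :
    letI : Algebra A B := φ.toAlgebra
    s59x_levBC ρ φ hφ J (s59x_levMk ρ (J.comap φ) v) =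
      s59x_levMkBC ρ φ hφ J ((1 : B) ⊗ₜ[A] v) := rfl

theorem s59x_levBC_injective (J : Ideal B) : Function.Injective (s59x_levBC ρ φ hφ J) := by
  letI : Algebra A B := φ.toAlgebra
  let f : (ρ.V ⧸ ((J.comap φ) • (⊤ : Submodule A ρ.V))) →ₗ[A]
      ((B ⊗[A] ρ.V) ⧸ (J • (⊤ : Submodule B (B ⊗[A] ρ.V)))) :=
    Submodule.liftQ _ (s56a_flatMap A ρ.V J) (le_of_eq (s56a_flatMap_ker A ρ.V J).symm)
  have h : LinearMap.ker f = ⊥ :=
    Submodule.ker_liftQ_eq_bot _ _ _ (le_of_eq (s56a_flatMap_ker A ρ.V J))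
  have hf : Function.Injective f := LinearMap.ker_eq_bot.mp h
  exact hf

theorem s59x_levBC_smul (J : Ideal B) (σ : s19_Gal) (x : s59x_Lev ρ (J.comap φ)) :
    s59x_levBC ρ φ hφ J (σ • x) = σ • s59x_levBC ρ φ hφ J x := by
  letI : Algebra A B := φ.toAlgebra
  obtain ⟨v, rfl⟩ := s59x_levMk_surjective ρ _ x
  rw [s59x_smul_levMk, s59x_levBC_mk, s59x_levBC_mk, s59x_smul_levMkBC]

/-- **(L3)** an order upstairs at `J` gives an order downstairs at `φ⁻¹J`. -/
theorem s59x_hasOrd_lev_comap (J : Ideal B) [Finite (B ⧸ J)]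
    (h : s59x_HasOrd ℓ (s59x_Lev (ρ.baseChangeAlong φ hφ) J)) :
    s59x_HasOrd ℓ (s59x_Lev ρ (J.comap φ)) := by
  have := s59x_lev_finite (ρ.baseChangeAlong φ hφ) J
  exact s59x_hasOrd_of_injective ℓ (s59x_levBC ρ φ hφ J) (s59x_levBC_injective ρ φ hφ J)
    (s59x_levBC_smul ρ φ hφ J) h

theorem s59x_finite_comap (J : Ideal B) [Finite (B ⧸ J)] : Finite (A ⧸ J.comap φ) :=
  Finite.of_injective (Ideal.quotientMap J φ le_rfl) Ideal.quotientMap_injective

/-- **(L4)** an order downstairs at `φ⁻¹J` gives an order upstairs at `J`. -/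
theorem s59x_hasOrd_lev_baseChange (J : Ideal B) [Finite (B ⧸ J)]
    (h : s59x_HasOrd ℓ (s59x_Lev ρ (J.comap φ))) :
    s59x_HasOrd ℓ (s59x_Lev (ρ.baseChangeAlong φ hφ) J) := by
  classical
  letI : Algebra A B := φ.toAlgebra
  have hfinA := s59x_finite_comap φ J
  have := s59x_lev_finite ρ (J.comap φ)
  letI : Fintype (B ⧸ J) := Fintype.ofFinite _
  let Ψ : ((B ⧸ J) → s59x_Lev ρ (J.comap φ)) →+ s59x_Lev (ρ.baseChangeAlong φ hφ) J :=
    { toFun := fun x => ∑ β : B ⧸ J, (Quotient.out β : B) • s59x_levBC ρ φ hφ J (x β)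
      map_zero' := by simp
      map_add' := fun x y => by simp [smul_add, Finset.sum_add_distrib] }
  have hΨ : ∀ x, Ψ x = ∑ β : B ⧸ J, (Quotient.out β : B) • s59x_levBC ρ φ hφ J (x β) :=
    fun _ => rfl
  have hsingle : ∀ (β : B ⧸ J) (t : s59x_Lev ρ (J.comap φ)),
      Ψ (Pi.single β t) = (Quotient.out β : B) • s59x_levBC ρ φ hφ J t := by
    intro β t
    rw [hΨ, Finset.sum_eq_single β]
    · rw [Pi.single_eq_same]
    · intro γ _ hγ
      rw [Pi.single_eq_of_ne hγ, map_zero, smul_zero]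
    · intro hβ
      exact absurd (Finset.mem_univ β) hβ
  refine s59x_hasOrd_of_surjective ℓ Ψ ?_ ?_ (s59x_hasOrd_pi ℓ h (B ⧸ J))
  · intro y
    obtain ⟨w, rfl⟩ := s59x_levMkBC_surjective ρ φ hφ J y
    induction w using TensorProduct.induction_on with
    | zero => exact ⟨0, by rw [map_zero, map_zero]⟩
    | tmul b v =>
      refine ⟨Pi.single (Ideal.Quotient.mk J b) (s59x_levMk ρ _ v), ?_⟩
      have hmem : (Quotient.out (Ideal.Quotient.mk J b) : B) - b ∈ J := by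
        rw [← Ideal.Quotient.eq]
        exact Quotient.out_eq' _
      have h1 : (((Quotient.out (Ideal.Quotient.mk J b) : B) - b) ⊗ₜ[A] v : B ⊗[A] ρ.V) =
          ((Quotient.out (Ideal.Quotient.mk J b) : B) - b) • ((1 : B) ⊗ₜ[A] v) := by
        rw [TensorProduct.smul_tmul', smul_eq_mul, mul_one]
      have h2 : s59x_levMkBC ρ φ hφ J
          (((Quotient.out (Ideal.Quotient.mk J b) : B) - b) ⊗ₜ[A] v) = 0 := by
        rw [s59x_levMkBC_eq_zero, h1]
        exact Submodule.smul_mem_smul hmem Submodule.mem_top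
      have h3 : (Quotient.out (Ideal.Quotient.mk J b) : B) • s59x_levMkBC ρ φ hφ J
          ((1 : B) ⊗ₜ[A] v) = s59x_levMkBC ρ φ hφ J
            ((Quotient.out (Ideal.Quotient.mk J b) : B) ⊗ₜ[A] v) := by
        rw [← map_smul, TensorProduct.smul_tmul', smul_eq_mul, mul_one]
      rw [hsingle, s59x_levBC_mk, h3, ← sub_eq_zero, ← map_sub, ← TensorProduct.sub_tmul]
      exact h2
    | add x y hx hy =>
      obtain ⟨x', hx'⟩ := hx
      obtain ⟨y', hy'⟩ := hy
      exact ⟨x' + y', by rw [map_add, map_add, hx', hy']⟩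
  · intro σ x
    rw [hΨ, hΨ, Finset.smul_sum]
    refine Finset.sum_congr rfl fun β _ => ?_
    rw [s59x_smul_smul_comm, Pi.smul_apply, s59x_levBC_smul]

end basechange

/-! ### the closure properties of `IsFlatAt` -/

section closure

variable (p : ℕ) [Fact p.Prime]

theorem s59x_finite_quot {R : Type} [CommRing R] [Finite R] (I : Ideal R) : Finite (R ⧸ I) :=
  Finite.of_surjective (Ideal.Quotient.mk I) Ideal.Quotient.mk_surjective

/-- **(1) arbitrary base change.** -/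
theorem s59x_isFlatAt_baseChange {A B : Type} [CommRing A] [IsLocalRing A] [CommRing B]
    [IsLocalRing B] (φ : A →+* B) (hφ : IsLocalHom φ) (hB : Finite (ResidueField B))
    (ρ : GaloisRepAdic A) (h : ρ.IsFlatAt p) : (ρ.baseChangeAlong φ hφ).IsFlatAt p := by
  rw [s59x_isFlatAt_iff] at h ⊢
  refine ⟨hB, fun J hJ => ?_⟩
  exact s59x_hasOrd_lev_baseChange p ρ φ hφ J (h.2 (J.comap φ) (s59x_finite_comap φ J))

/-- **(2)/(4) descent**: `ρ` is flat as soon as every level `I` of finite index contains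
`φ⁻¹(J)` for a finite-index level `J` of a flat base change. -/
theorem s59x_isFlatAt_of_levels {A : Type} [CommRing A] [IsLocalRing A]
    (ρ : GaloisRepAdic A) (hk : Finite (ResidueField A))
    (h : ∀ I : Ideal A, Finite (A ⧸ I) → I ≠ ⊤ →
      ∃ (B : Type) (_ : CommRing B) (_ : IsLocalRing B) (φ : A →+* B) (hφ : IsLocalHom φ)
        (J : Ideal B), Finite (B ⧸ J) ∧ J.comap φ ≤ I ∧ (ρ.baseChangeAlong φ hφ).IsFlatAt p) :
    ρ.IsFlatAt p := by
  rw [s59x_isFlatAt_iff]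
  have key : ∀ I : Ideal A, Finite (A ⧸ I) → I ≠ ⊤ → s59x_HasOrd p (s59x_Lev ρ I) := by
    intro I hI hI'
    obtain ⟨B, _, _, φ, hφ, J, hJ, hle, hfl⟩ := h I hI hI'
    rw [s59x_isFlatAt_iff] at hfl
    have hfin := s59x_finite_comap φ J
    exact s59x_hasOrd_lev_mono p ρ hle (s59x_hasOrd_lev_comap p ρ φ hφ J (hfl.2 J hJ))
  refine ⟨hk, fun I hI => ?_⟩
  by_cases hI' : I = ⊤
  · have hm : Finite (A ⧸ maximalIdeal A) := hk
    have h1 := key (maximalIdeal A) hm (Ideal.IsMaximal.ne_top inferInstance)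
    exact s59x_hasOrd_lev_mono p ρ (hI' ▸ le_top) h1
  · exact key I hI hI'

/-- **(2) descent along an injective local homomorphism into a finite ring.** -/
theorem s59x_isFlatAt_of_injective {A B : Type} [CommRing A] [IsLocalRing A] [CommRing B]
    [IsLocalRing B] [Finite B] (φ : A →+* B) (hφ : IsLocalHom φ) (hinj : Function.Injective φ)
    (ρ : GaloisRepAdic A) (h : (ρ.baseChangeAlong φ hφ).IsFlatAt p) : ρ.IsFlatAt p := by
  have hA : Finite A := Finite.of_injective φ hinj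
  refine s59x_isFlatAt_of_levels p ρ (Finite.of_surjective (residue A) residue_surjective) ?_
  intro I _ _
  refine ⟨B, inferInstance, inferInstance, φ, hφ, ⊥, s59x_finite_quot _, ?_, h⟩
  intro x hx
  rw [Ideal.mem_comap, Ideal.mem_bot] at hx
  rw [hinj (hx.trans (map_zero φ).symm)]
  exact I.zero_mem

/-- **(3) fibre products.** -/
theorem s59x_isFlatAt_of_fibre {P A B : Type} [CommRing P] [IsLocalRing P] [CommRing A]
    [IsLocalRing A] [CommRing B] [IsLocalRing B] [Finite A] [Finite B]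
    (pA : P →+* A) (hpA : IsLocalHom pA) (pB : P →+* B) (hpB : IsLocalHom pB)
    (hinj : Function.Injective fun x => (pA x, pB x))
    (ρ : GaloisRepAdic P) (hA : (ρ.baseChangeAlong pA hpA).IsFlatAt p)
    (hB : (ρ.baseChangeAlong pB hpB).IsFlatAt p) : ρ.IsFlatAt p := by
  have hP : Finite P := Finite.of_injective _ hinj
  rw [s59x_isFlatAt_iff] at hA hB ⊢
  refine ⟨Finite.of_surjective (residue P) residue_surjective, fun I hI => ?_⟩
  have i1 : Finite (A ⧸ (⊥ : Ideal A)) := s59x_finite_quot _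
  have i2 : Finite (B ⧸ (⊥ : Ideal B)) := s59x_finite_quot _
  have i3 : Finite (P ⧸ (⊥ : Ideal A).comap pA) := s59x_finite_quot _
  have i4 : Finite (P ⧸ (⊥ : Ideal B).comap pB) := s59x_finite_quot _
  have i5 : Finite (P ⧸ (⊥ : Ideal A).comap pA ⊓ (⊥ : Ideal B).comap pB) := s59x_finite_quot _
  have h1 := s59x_hasOrd_lev_comap p ρ pA hpA ⊥ (hA.2 ⊥ i1)
  have h2 := s59x_hasOrd_lev_comap p ρ pB hpB ⊥ (hB.2 ⊥ i2)
  have h3 := s59x_hasOrd_lev_inf p ρ h1 h2
  refine s59x_hasOrd_lev_mono p ρ ?_ h3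
  rintro x ⟨hx1, hx2⟩
  have hx1' : pA x = 0 := by simpa [Ideal.mem_comap] using hx1
  have hx2' : pB x = 0 := by simpa [Ideal.mem_comap] using hx2
  have : x = 0 := hinj (by simp [hx1', hx2'])
  rw [this]
  exact I.zero_mem

end closure

end Fermat.Agent.Lib.S59
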