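/-
S43 programme, node W9 [EXIST-DQ] (helper4, prefix `s59x_`): the FLAT Taylor–Wiles deformation type
is a deformation condition.
-/
import Mathlib
import Fermat.Agent.Lib.S59.XFlatCl
import Fermat.Agent.Lib.S59.XDefCond

set_option autoImplicit false
set_option linter.unusedSectionVars false
set_option linter.style.haveILetI false

noncomputable section

namespace Fermat.Agent.Lib.S59

open Fermat.Agent.Lib.S56 Fermat.Agent.Lib.S53 TensorProduct IsLocalRing GaloisRep

/-- the closure package for `IsFlatAt`. -/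
theorem s59x_locCond_flat (p : ℕ) [Fact p.Prime] :
    s59x_LocCond (fun _A _ _ ρ => ρ.IsFlatAt p) where
  of_isEquiv := by
    rintro A _ _ ρ ρ' ⟨e⟩ h
    exact s56a_isFlatAt_of_equiv e h
  baseChange := fun _ _ _ _ _ _ φ hφ hB ρ h => s59x_isFlatAt_baseChange p φ hφ hB ρ h
  of_injective := fun _ _ _ _ _ _ _ φ hφ hinj ρ h => s59x_isFlatAt_of_injective p φ hφ hinj ρ h
  of_fibre := fun _ _ _ _ _ _ _ _ _ _ _ pA hpA pB hpB hinj ρ hA hB =>
    s59x_isFlatAt_of_fibre p pA hpA pB hpB hinj ρ hA hB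
  of_quotients := by
    intro A _ _ _ hk ρ H
    refine s59x_isFlatAt_of_levels p ρ hk fun I hI hI' => ?_
    letI : IsLocalRing (A ⧸ I) := quotient_isLocalRing I hI'
    refine ⟨A ⧸ I, inferInstance, inferInstance, Ideal.Quotient.mk I, isLocalHom_quotient_mk I,
      ⊥, s59x_finite_quot _, ?_, H I hI' hI⟩
    intro x hx
    rw [Ideal.mem_comap, Ideal.mem_bot] at hx
    exact Ideal.Quotient.eq_zero_iff_mem.mp hx

/-- **the flat Taylor–Wiles type is a deformation condition.** -/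
theorem s59x_isDefCond_flat (𝒪 : Type) [CommRing 𝒪] [IsLocalRing 𝒪] [Finite (ResidueField 𝒪)]
    (p : ℕ) [Fact p.Prime] (Sg Smin : Finset ℕ) :
    IsDeformationCondition 𝒪 (fun _A _ _ _ ρ =>
      GaloisRep.flatCondition 𝒪 p Sg ρ ∧
        ∀ q ∈ Smin, q.Prime → q ≠ p → ρ.IsUnipotentOnInertiaAt q) :=
  s59x_isDefCond (𝒪 := 𝒪) (s59x_locCond_flat p) Sg Smin

end Fermat.Agent.Lib.S59
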