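/-
S43 programme, node W9b [ORD-CL] (helper4, prefix `s59x_`), linear algebra: an idempotent of trace
`1` on a free module of rank two over a local ring has an adapted basis.  Mathlib only.
-/
import Mathlib

set_option autoImplicit false
set_option linter.unusedSectionVars false
set_option linter.style.haveILetI false

noncomputable section

namespace Fermat.Agent.Lib.S59

open Module

section idem

variable {A : Type} [CommRing A] [IsLocalRing A] {V : Type} [AddCommGroup V] [Module A V]

/-- two vectors whose coordinate matrix has unit determinant form a basis. -/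
theorem s59x_exists_basis_of_det (c : Basis (Fin 2) A V) (v₀ v₁ : V)
    (h : IsUnit (c.repr v₀ 0 * c.repr v₁ 1 - c.repr v₁ 0 * c.repr v₀ 1)) :
    ∃ b : Basis (Fin 2) A V, b 0 = v₀ ∧ b 1 = v₁ := by
  have hdet : c.det ![v₀, v₁] = c.repr v₀ 0 * c.repr v₁ 1 - c.repr v₁ 0 * c.repr v₀ 1 := by
    rw [Basis.det_apply, Matrix.det_fin_two]
    simp [Basis.toMatrix_apply]
  have h2 := (c.is_basis_iff_det (v := ![v₀, v₁])).mpr (hdet ▸ h)
  exact ⟨Basis.mk h2.1 h2.2.ge, by simp, by simp⟩

/-- **an idempotent of trace one has an adapted basis.** -/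
theorem s59x_idem_basis (c : Basis (Fin 2) A V) (e : Module.End A V) (he : e * e = e)
    (htr : LinearMap.trace A V e = 1) :
    ∃ b : Basis (Fin 2) A V, e (b 0) = b 0 ∧ e (b 1) = 0 := by
  have hee : ∀ v, e (e v) = e v := fun v => by
    have := LinearMap.congr_fun he v
    rwa [Module.End.mul_apply] at this
  -- the matrix entries
  set e00 := c.repr (e (c 0)) 0 with h00
  set e10 := c.repr (e (c 0)) 1 with h10
  set e01 := c.repr (e (c 1)) 0 with h01
  set e11 := c.repr (e (c 1)) 1 with h11
  have hc0 : e (c 0) = e00 • c 0 + e10 • c 1 := by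
    conv_lhs => rw [← c.sum_repr (e (c 0))]
    rw [Fin.sum_univ_two]
  have hc1 : e (c 1) = e01 • c 0 + e11 • c 1 := by
    conv_lhs => rw [← c.sum_repr (e (c 1))]
    rw [Fin.sum_univ_two]
  have htr' : e00 + e11 = 1 := by
    rw [← htr, LinearMap.trace_eq_matrix_trace A c, Matrix.trace_fin_two]
    simp [LinearMap.toMatrix_apply, h00, h11]
  -- the idempotency relations
  have hi0 : e (e (c 0)) = (e00 * e00 + e10 * e01) • c 0 + (e00 * e10 + e10 * e11) • c 1 := by
    rw [hc0, map_add, map_smul, map_smul, hc0, hc1]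
    module
  have hi1 : e (e (c 1)) = (e01 * e00 + e11 * e01) • c 0 + (e01 * e10 + e11 * e11) • c 1 := by
    rw [hc1, map_add, map_smul, map_smul, hc0, hc1]
    module
  have r00 : e00 * e00 + e10 * e01 = e00 := by
    have := congrArg (fun v => c.repr v 0) ((hi0.symm.trans (hee (c 0))).trans hc0)
    simpa using this
  have r11 : e01 * e10 + e11 * e11 = e11 := by
    have := congrArg (fun v => c.repr v 1) ((hi1.symm.trans (hee (c 1))).trans hc1)
    simpa using this
  have hunit : IsUnit e00 ∨ IsUnit e11 := by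
    have h1 : IsUnit (e00 + e11) := by rw [htr']; exact isUnit_one
    exact IsLocalRing.isUnit_or_isUnit_of_isUnit_add h1
  rcases hunit with hu | hu
  · -- `b₀ = e c₀`, `b₁ = (1 - e) c₁`
    obtain ⟨b, hb0, hb1⟩ := s59x_exists_basis_of_det c (e (c 0)) (c 1 - e (c 1)) (by
      have : c.repr (e (c 0)) 0 * c.repr (c 1 - e (c 1)) 1 -
          c.repr (c 1 - e (c 1)) 0 * c.repr (e (c 0)) 1 = e00 := by
        simp only [map_sub, Finsupp.sub_apply, Basis.repr_self, Finsupp.single_apply]
        simp only [← h00, ← h10, ← h01, ← h11]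
        have h2 : e11 = 1 - e00 := by rw [← htr']; ring
        simp only [Fin.isValue, one_ne_zero, if_true, if_false]
        rw [h2]
        linear_combination r00
      rw [this]
      exact hu)
    refine ⟨b, ?_, ?_⟩
    · rw [hb0, hee]
    · rw [hb1, map_sub, hee, sub_self]
  · -- `b₀ = e c₁`, `b₁ = (1 - e) c₀`
    obtain ⟨b, hb0, hb1⟩ := s59x_exists_basis_of_det c (e (c 1)) (c 0 - e (c 0)) (by
      have : c.repr (e (c 1)) 0 * c.repr (c 0 - e (c 0)) 1 -
          c.repr (c 0 - e (c 0)) 0 * c.repr (e (c 1)) 1 = -e11 := by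
        simp only [map_sub, Finsupp.sub_apply, Basis.repr_self, Finsupp.single_apply]
        simp only [← h00, ← h10, ← h01, ← h11]
        have h2 : e00 = 1 - e11 := by rw [← htr']; ring
        simp only [Fin.isValue, zero_ne_one, if_true, if_false]
        rw [h2]
        linear_combination -r11
      rw [this]
      exact hu.neg)
    refine ⟨b, ?_, ?_⟩
    · rw [hb0, hee]
    · rw [hb1, map_sub, hee, sub_self]

/-- consequences of an adapted basis. -/
theorem s59x_idem_apply (b : Basis (Fin 2) A V) (e : Module.End A V) (h0 : e (b 0) = b 0)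
    (h1 : e (b 1) = 0) (v : V) : e v = b.repr v 0 • b 0 := by
  conv_lhs => rw [← b.sum_repr v]
  rw [Fin.sum_univ_two, map_add, map_smul, map_smul, h0, h1, smul_zero, add_zero]

theorem s59x_idem_mem_span_iff (b : Basis (Fin 2) A V) (e : Module.End A V) (h0 : e (b 0) = b 0)
    (h1 : e (b 1) = 0) (v : V) : v ∈ (A ∙ b 0 : Submodule A V) ↔ e v = v := by
  constructor
  · intro hv
    obtain ⟨α, rfl⟩ := Submodule.mem_span_singleton.mp hv
    rw [map_smul, h0]
  · intro hv
    rw [← hv, s59x_idem_apply b e h0 h1]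
    exact Submodule.smul_mem _ _ (Submodule.mem_span_singleton_self _)

theorem s59x_sub_idem_apply (b : Basis (Fin 2) A V) (e : Module.End A V) (h0 : e (b 0) = b 0)
    (h1 : e (b 1) = 0) (v : V) : v - e v = b.repr v 1 • b 1 := by
  have hv : v = b.repr v 0 • b 0 + b.repr v 1 • b 1 := by
    conv_lhs => rw [← b.sum_repr v]
    rw [Fin.sum_univ_two]
  rw [s59x_idem_apply b e h0 h1, sub_eq_iff_eq_add, add_comm]
  exact hv

theorem s59x_mem_span_zero_iff (b : Basis (Fin 2) A V) (v : V) :
    v ∈ (A ∙ b 0 : Submodule A V) ↔ b.repr v 1 = 0 := by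
  constructor
  · intro hv
    obtain ⟨α, rfl⟩ := Submodule.mem_span_singleton.mp hv
    simp
  · intro hv
    have : v = b.repr v 0 • b 0 := by
      conv_lhs => rw [← b.sum_repr v]
      rw [Fin.sum_univ_two, hv, zero_smul, add_zero]
    rw [this]
    exact Submodule.smul_mem _ _ (Submodule.mem_span_singleton_self _)

/-- scalars on a vector `1 ⊗ b j` of the base-changed basis can be cancelled. -/
theorem s59x_tmul_basis_cancel {B : Type} [CommRing B] [Algebra A B] (b : Basis (Fin 2) A V)
    (j : Fin 2) (c c' : B)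
    (h : c • ((1 : B) ⊗ₜ[A] b j : TensorProduct A B V) = c' • ((1 : B) ⊗ₜ[A] b j)) : c = c' := by
  have h1 := congrArg (fun t => (Algebra.TensorProduct.basis B b).repr t j) h
  simpa [Algebra.TensorProduct.basis_repr_tmul] using h1

/-- a line spanned by a basis vector, stabilised pointwise modulo itself: `z = 1`, trace. -/
theorem s59x_ord_local (b : Basis (Fin 2) A V) (f : Module.End A V) (x z : A)
    (hI : ∀ v, f v - v ∈ (A ∙ b 0 : Submodule A V))
    (hx : ∀ w ∈ (A ∙ b 0 : Submodule A V), f w = x • w)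
    (hz : ∀ v, f v - z • v ∈ (A ∙ b 0 : Submodule A V)) :
    z = 1 ∧ LinearMap.trace A V f = x + 1 := by
  have hz1 : z = 1 := by
    have h1 : (z - 1) • b 1 ∈ (A ∙ b 0 : Submodule A V) := by
      have := Submodule.sub_mem _ (hI (b 1)) (hz (b 1))
      have h2 : f (b 1) - b 1 - (f (b 1) - z • b 1) = (z - 1) • b 1 := by module
      rwa [h2] at this
    obtain ⟨c, hc⟩ := Submodule.mem_span_singleton.mp h1
    have h3 := congrArg (fun v => b.repr v 1) hc
    simp only [map_smul, Finsupp.smul_apply, Basis.repr_self, Finsupp.single_apply,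
      smul_eq_mul] at h3
    simp only [Fin.isValue, zero_ne_one, if_false, if_true, mul_zero, mul_one] at h3
    exact (sub_eq_zero.mp h3.symm)
  refine ⟨hz1, ?_⟩
  obtain ⟨c, hc⟩ := Submodule.mem_span_singleton.mp (hI (b 1))
  have hf0 : f (b 0) = x • b 0 := hx _ (Submodule.mem_span_singleton_self _)
  have hf1 : f (b 1) = b 1 + c • b 0 := by rw [hc]; abel
  rw [LinearMap.trace_eq_matrix_trace A b, Matrix.trace_fin_two]
  simp only [LinearMap.toMatrix_apply, hf0, hf1, map_smul, map_add, Finsupp.smul_apply,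
    Finsupp.add_apply, Basis.repr_self, Finsupp.single_apply, smul_eq_mul]
  simp

end idem

end Fermat.Agent.Lib.S59
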