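/-
S43 programme, node W9b [ORD-CL] (helper4, prefix `s59x_`): `IsStrictOrdinaryAt` descends along a
jointly injective family of local homomorphisms.  The line is canonical: for `σ₀ ∈ I_P` with
`ε̄(σ₀) ≠ 1`, `M = ρ(σ₀)`, `x₀ = tr M - 1`, the endomorphism `e = (x₀ - 1)⁻¹ (M - 1)` is the
projector onto the line.
-/
import Mathlib
import Fermat.Agent.Lib.S59.XRestCl
import Fermat.Agent.Lib.S59.XIdem

set_option autoImplicit false
set_option linter.unusedSectionVars false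
set_option linter.style.haveILetI false

noncomputable section

namespace Fermat.Agent.Lib.S59

open Fermat.Agent.Lib.S56 TensorProduct IsLocalRing Module

local notation "Kb" => AlgebraicClosure ℚ
local notation "Γℚ" => (AlgebraicClosure ℚ ≃ₐ[ℚ] AlgebraicClosure ℚ)

/-- `a ≢ 1 mod p` ⇒ `a - 1` is a unit of a local ring with `p ∈ 𝔪`. -/
theorem s59x_isUnit_natCast_sub_one {B : Type} [CommRing B] [IsLocalRing B] {p : ℕ}
    (hp : p.Prime) (hpB : (p : B) ∈ maximalIdeal B) {a : ℕ} (ha : ¬ a ≡ 1 [MOD p]) :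
    IsUnit ((a : B) - 1) := by
  have hcop : IsCoprime ((a : ℤ) - 1) (p : ℤ) := by
    rw [Int.isCoprime_iff_gcd_eq_one, Int.gcd_comm]
    refine (Nat.Coprime.gcd_eq_one ?_)
    rw [Int.natAbs_natCast]
    refine (Nat.Prime.coprime_iff_not_dvd hp).mpr ?_
    intro hdvd
    apply ha
    have h1 : (p : ℤ) ∣ (a : ℤ) - 1 := Int.natCast_dvd.mpr hdvd
    exact (Nat.modEq_iff_dvd.mpr (by simpa using h1)).symm
  obtain ⟨u, v, huv⟩ := hcop
  have h2 : ((u : ℤ) : B) * ((a : B) - 1) + (v : B) * (p : B) = 1 := by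
    have := congrArg (Int.cast : ℤ → B) huv
    push_cast at this
    exact this
  have h3 : IsUnit (((u : ℤ) : B) * ((a : B) - 1)) := by
    have h4 : ((u : ℤ) : B) * ((a : B) - 1) = 1 - (v : B) * (p : B) := by
      linear_combination h2
    rw [h4]
    have hm : (v : B) * (p : B) ∈ maximalIdeal B := Ideal.mul_mem_left _ _ hpB
    exact isUnit_one_sub_self_of_mem_nonunits _ ((mem_maximalIdeal _).mp hm)
  exact isUnit_of_mul_isUnit_right h3

/-! ### what one target of the family gives -/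

section target

variable {A B : Type} [CommRing A] [CommRing B] [IsLocalRing B] [Algebra A B] {V : Type}
  [AddCommGroup V] [Module A V] [Module.Free A V] [Module.Finite A V]

theorem s59x_ord_target (p : ℕ) (hp : p.Prime) (hpB : (p : B) ∈ maximalIdeal B)
    (M : Module.End A V) (σ₀ : Γℚ)
    (hexp : ∀ a : ℕ, (∀ μ : Kb, μ ^ p = 1 → σ₀ μ = μ ^ a) → ¬ a ≡ 1 [MOD p])
    (b : Basis (Fin 2) B (B ⊗[A] V)) (x z : B)
    (hI : ∀ w, M.baseChange B w - w ∈ (B ∙ b 0 : Submodule B (B ⊗[A] V)))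
    (hx : ∀ w ∈ (B ∙ b 0 : Submodule B (B ⊗[A] V)), M.baseChange B w = x • w)
    (hz : ∀ w, M.baseChange B w - z • w ∈ (B ∙ b 0 : Submodule B (B ⊗[A] V)))
    (hcong : s59x_CycCong p σ₀ x z) :
    algebraMap A B (LinearMap.trace A V M - 1) = x ∧ IsUnit (x - 1) ∧ z = 1 := by
  obtain ⟨hz1, htr⟩ := s59x_ord_local b (M.baseChange B) x z hI hx hz
  rw [LinearMap.trace_baseChange] at htr
  refine ⟨by rw [map_sub, map_one, htr]; ring, ?_, hz1⟩
  obtain ⟨a, ha⟩ := s59x_exists_exp (p ^ 1) (pow_pos hp.pos 1) σ₀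
  have ha' : ∀ μ : Kb, μ ^ p = 1 → σ₀ μ = μ ^ a := fun μ hμ => ha μ (by rwa [pow_one])
  have hu := s59x_isUnit_natCast_sub_one hp hpB (hexp a ha')
  have h1 := hcong 1 a ha
  rw [hz1, mul_one] at h1
  have h2 : x - (a : B) ∈ maximalIdeal B := by
    obtain ⟨c, hc⟩ := Ideal.mem_span_singleton'.mp h1
    rw [← hc, pow_one]
    exact Ideal.mul_mem_left _ _ hpB
  by_contra hnu
  have h3 : x - 1 ∈ maximalIdeal B := (mem_maximalIdeal _).mpr hnu
  have h4 : (a : B) - 1 ∈ maximalIdeal B := by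
    have := Submodule.sub_mem _ h3 h2
    have h5 : x - 1 - (x - (a : B)) = (a : B) - 1 := by ring
    rwa [h5] at this
  exact (mem_maximalIdeal _).mp h4 hu

theorem s59x_ord_proj (M : Module.End A V) (b : Basis (Fin 2) B (B ⊗[A] V)) (x : B)
    (hI : ∀ w, M.baseChange B w - w ∈ (B ∙ b 0 : Submodule B (B ⊗[A] V)))
    (hx : ∀ w ∈ (B ∙ b 0 : Submodule B (B ⊗[A] V)), M.baseChange B w = x • w)
    (x₀ u₀ : A) (hx₀ : algebraMap A B x₀ = x) (hu₀ : u₀ * (x₀ - 1) = 1) :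
    (∀ w, (u₀ • (M - 1)).baseChange B w ∈ (B ∙ b 0 : Submodule B (B ⊗[A] V))) ∧
      ∀ w ∈ (B ∙ b 0 : Submodule B (B ⊗[A] V)), (u₀ • (M - 1)).baseChange B w = w := by
  have key : ∀ w, (u₀ • (M - 1)).baseChange B w =
      algebraMap A B u₀ • (M.baseChange B w - w) := by
    intro w
    rw [LinearMap.baseChange_smul, LinearMap.baseChange_sub, LinearMap.baseChange_one,
      LinearMap.smul_apply, LinearMap.sub_apply, Module.End.one_apply, algebraMap_smul]
  refine ⟨fun w => ?_, fun w hw => ?_⟩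
  · rw [key]
    exact Submodule.smul_mem _ _ (hI w)
  · rw [key, hx w hw, ← hx₀]
    have h1 : algebraMap A B u₀ * (algebraMap A B x₀ - 1) = 1 := by
      rw [← map_one (algebraMap A B), ← map_sub, ← map_mul, hu₀]
    have h2 : algebraMap A B u₀ • (algebraMap A B x₀ • w - w) =
        (algebraMap A B u₀ * (algebraMap A B x₀ - 1)) • w := by
      rw [mul_smul, sub_smul, one_smul]
    rw [h2, h1, one_smul]

end target

/-! ### the family theorem -/

section family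

variable {A : Type} [CommRing A] [IsLocalRing A] {ι : Type} [Nonempty ι] {B : ι → Type}
  [∀ i, CommRing (B i)] [∀ i, IsLocalRing (B i)] (φ : ∀ i, A →+* B i)
  (hφ : ∀ i, IsLocalHom (φ i))

/-- **`IsStrictOrdinaryAt` descends along a jointly injective family of local homomorphisms**
(given an inertia element at `p` acting non-trivially on `μ_p`, and the descent of the cyclotomic
congruence). -/
theorem s59x_strictOrd_of_family (hinj : s59x_JointInj φ) (p : ℕ) [Fact p.Prime]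
    (hσ₀ : ∀ P : ValuationSubring Kb, P.LiesOverPrime p →
      ∃ σ ∈ P.inertiaSubgroupIn ℚ, σ ∈ P.decompositionSubgroup ℚ ∧
        ∀ a : ℕ, (∀ μ : Kb, μ ^ p = 1 → σ μ = μ ^ a) → ¬ a ≡ 1 [MOD p])
    (hcc : ∀ (σ : Γℚ) (y z : A), (∀ i, s59x_CycCong p σ (φ i y) (φ i z)) → s59x_CycCong p σ y z)
    (ρ : GaloisRepAdic A) (h : ∀ i, (ρ.baseChangeAlong (φ i) (hφ i)).IsStrictOrdinaryAt p) :
    ρ.IsStrictOrdinaryAt p := by
  have hpp : p.Prime := Fact.out
  letI alg : ∀ i, Algebra A (B i) := fun i => (φ i).toAlgebra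
  have hpA : (p : A) ∈ maximalIdeal A := by
    obtain ⟨i⟩ := ‹Nonempty ι›
    have h1 := (h i).1
    rw [mem_maximalIdeal, mem_nonunits_iff] at h1 ⊢
    intro hu
    apply h1
    have := hu.map (φ i)
    rwa [map_natCast] at this
  refine ⟨hpA, fun P hP => ?_⟩
  obtain ⟨σ₀, hσ₀I, hσ₀D, hexp⟩ := hσ₀ P hP
  -- the data at each target
  have hdata : ∀ i, ∃ b : Basis (Fin 2) (B i) (B i ⊗[A] ρ.V),
      (∀ σ ∈ P.decompositionSubgroup ℚ, ∀ v ∈ (B i ∙ b 0 : Submodule (B i) (B i ⊗[A] ρ.V)),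
        (ρ.ρ σ).baseChange (B i) v ∈ (B i ∙ b 0 : Submodule (B i) (B i ⊗[A] ρ.V))) ∧
      (∀ σ ∈ P.inertiaSubgroupIn ℚ, ∀ v : B i ⊗[A] ρ.V,
        (ρ.ρ σ).baseChange (B i) v - v ∈ (B i ∙ b 0 : Submodule (B i) (B i ⊗[A] ρ.V))) ∧
      (∀ σ ∈ P.decompositionSubgroup ℚ, ∃ x z : B i,
        (∀ w ∈ (B i ∙ b 0 : Submodule (B i) (B i ⊗[A] ρ.V)),
          (ρ.ρ σ).baseChange (B i) w = x • w) ∧
        (∀ v : B i ⊗[A] ρ.V,
          (ρ.ρ σ).baseChange (B i) v - z • v ∈ (B i ∙ b 0 : Submodule (B i) (B i ⊗[A] ρ.V))) ∧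
        s59x_CycCong p σ x z) := by
    intro i
    obtain ⟨L, ⟨b, rfl⟩, hD, hI, hS⟩ := (h i).2 P hP
    exact ⟨b, hD, hI, hS⟩
  choose b hD hI hS using hdata
  choose xs zs hxs hzs hcs using fun i => hS i σ₀ hσ₀D
  obtain ⟨M, hM⟩ : ∃ M : Module.End A ρ.V, M = ρ.ρ σ₀ := ⟨_, rfl⟩
  have hI₀ : ∀ i, ∀ w : B i ⊗[A] ρ.V, M.baseChange (B i) w - w ∈
      (B i ∙ b i 0 : Submodule (B i) (B i ⊗[A] ρ.V)) := fun i w => by
    rw [hM]
    exact hI i σ₀ hσ₀I w
  rw [← hM] at hxs hzs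
  obtain ⟨x₀, hx₀⟩ : ∃ x₀ : A, x₀ = LinearMap.trace A ρ.V M - 1 := ⟨_, rfl⟩
  have ht : ∀ i, algebraMap A (B i) x₀ = xs i ∧ IsUnit (xs i - 1) ∧ zs i = 1 := fun i => by
    rw [hx₀]
    exact s59x_ord_target p hpp (h i).1 M σ₀ hexp (b i) (xs i) (zs i) (hI₀ i) (hxs i) (hzs i)
      (hcs i)
  -- `x₀ - 1` is a unit
  have hunit : IsUnit (x₀ - 1) := by
    obtain ⟨i⟩ := ‹Nonempty ι›
    have h1 : IsUnit (φ i (x₀ - 1)) := by
      have h2 : φ i (x₀ - 1) = xs i - 1 := by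
        rw [map_sub, map_one]
        exact congrArg (· - 1) (ht i).1
      rw [h2]
      exact (ht i).2.1
    exact (hφ i).map_nonunit _ h1
  obtain ⟨u, hu⟩ := hunit
  obtain ⟨u₀, hu₀def⟩ : ∃ u₀ : A, u₀ = ((u⁻¹ : Aˣ) : A) := ⟨_, rfl⟩
  have hu₀ : u₀ * (x₀ - 1) = 1 := by rw [← hu, hu₀def, Units.inv_mul]
  obtain ⟨e, he⟩ : ∃ e : Module.End A ρ.V, e = u₀ • (M - 1) := ⟨_, rfl⟩
  have hproj : ∀ i, (∀ w, e.baseChange (B i) w ∈
        (B i ∙ b i 0 : Submodule (B i) (B i ⊗[A] ρ.V))) ∧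
      ∀ w ∈ (B i ∙ b i 0 : Submodule (B i) (B i ⊗[A] ρ.V)), e.baseChange (B i) w = w :=
    fun i => by
      rw [he]
      exact s59x_ord_proj M (b i) (xs i) (hI₀ i) (hxs i) x₀ u₀ (ht i).1 hu₀
  -- the quadratic relation
  have hE1 : (M - x₀ • 1) * (M - 1) = 0 := by
    refine s59x_end_eq_zero_of_baseChange φ hinj _ fun i => ?_
    refine LinearMap.ext fun w => ?_
    rw [LinearMap.baseChange_mul, LinearMap.baseChange_sub, LinearMap.baseChange_sub,
      LinearMap.baseChange_smul, LinearMap.baseChange_one, Module.End.mul_apply,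
      LinearMap.sub_apply, LinearMap.sub_apply, Module.End.one_apply, LinearMap.smul_apply,
      Module.End.one_apply, LinearMap.zero_apply, hxs i _ (hI₀ i w),
      ← algebraMap_smul (B i) x₀ (M.baseChange (B i) w - w), (ht i).1, sub_self]
  have hNN : (M - 1) * (M - 1) = (x₀ - 1) • (M - 1) := by
    have h1 : (M - x₀ • 1) * (M - 1) = (M - 1) * (M - 1) - (x₀ - 1) • (M - 1) := by
      have h2 : M - x₀ • (1 : Module.End A ρ.V) = (M - 1) - (x₀ - 1) • 1 := by
        rw [sub_smul, one_smul, sub_sub_sub_cancel_right]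
      rw [h2, sub_mul, smul_mul_assoc, one_mul]
    rw [hE1] at h1
    exact (sub_eq_zero.mp h1.symm)
  have hee : e * e = e := by
    rw [he, smul_mul_smul_comm, hNN, smul_smul]
    have h3 : u₀ * u₀ * (x₀ - 1) = u₀ := by rw [mul_assoc, hu₀, mul_one]
    rw [h3]
  have htr : LinearMap.trace A ρ.V e = 1 := by
    rw [he, map_smul, map_sub, LinearMap.trace_one, ρ.finrank_eq, smul_eq_mul]
    have h4 : LinearMap.trace A ρ.V M - ((2 : ℕ) : A) = x₀ - 1 := by
      rw [hx₀]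
      push_cast
      ring
    rw [h4, hu₀]
  let c : Basis (Fin 2) A ρ.V := Module.finBasisOfFinrankEq A ρ.V ρ.finrank_eq
  obtain ⟨bb, hb0, hb1⟩ := s59x_idem_basis c e hee htr
  -- membership in the line, up and down
  have hK : ∀ v : ρ.V, (∀ i, ((1 : B i) ⊗ₜ[A] v : B i ⊗[A] ρ.V) ∈
      (B i ∙ b i 0 : Submodule (B i) (B i ⊗[A] ρ.V))) → v ∈ (A ∙ bb 0 : Submodule A ρ.V) := by
    intro v hv
    rw [s59x_idem_mem_span_iff bb e hb0 hb1, ← sub_eq_zero]
    refine s59x_eq_zero_of_tmul φ hinj _ fun i => ?_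
    rw [TensorProduct.tmul_sub, ← LinearMap.baseChange_tmul, (hproj i).2 _ (hv i), sub_self]
  have hK' : ∀ v ∈ (A ∙ bb 0 : Submodule A ρ.V), ∀ i, ((1 : B i) ⊗ₜ[A] v : B i ⊗[A] ρ.V) ∈
      (B i ∙ b i 0 : Submodule (B i) (B i ⊗[A] ρ.V)) := by
    intro v hv i
    rw [s59x_idem_mem_span_iff bb e hb0 hb1] at hv
    rw [← hv, ← LinearMap.baseChange_tmul]
    exact (hproj i).1 _
  have hDstab : ∀ σ ∈ P.decompositionSubgroup ℚ, ∀ v ∈ (A ∙ bb 0 : Submodule A ρ.V),
      ρ.ρ σ v ∈ (A ∙ bb 0 : Submodule A ρ.V) := by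
    intro τ hτ v hv
    refine hK _ fun i => ?_
    rw [← LinearMap.baseChange_tmul]
    exact hD i τ hτ _ (hK' v hv i)
  refine ⟨(A ∙ bb 0 : Submodule A ρ.V), ⟨bb, rfl⟩, hDstab, ?_, ?_⟩
  · intro τ hτ v
    refine hK _ fun i => ?_
    rw [TensorProduct.tmul_sub, ← LinearMap.baseChange_tmul]
    exact hI i τ hτ _
  · intro τ hτ
    have hτ0 : ρ.ρ τ (bb 0) = bb.repr (ρ.ρ τ (bb 0)) 0 • bb 0 := by
      have h1 := hDstab τ hτ (bb 0) (Submodule.mem_span_singleton_self _)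
      rw [s59x_idem_mem_span_iff bb e hb0 hb1] at h1
      rw [← s59x_idem_apply bb e hb0 hb1, h1]
    refine ⟨bb.repr (ρ.ρ τ (bb 0)) 0, bb.repr (ρ.ρ τ (bb 1)) 1, ?_, ?_, ?_⟩
    · intro w hw
      obtain ⟨α, rfl⟩ := Submodule.mem_span_singleton.mp hw
      rw [map_smul, hτ0, smul_comm]
      congr 1
      rw [← hτ0]
    · intro v
      rw [s59x_mem_span_zero_iff]
      have hv : v = bb.repr v 0 • bb 0 + bb.repr v 1 • bb 1 := by
        conv_lhs => rw [← bb.sum_repr v]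
        rw [Fin.sum_univ_two]
      have h1 : ρ.ρ τ v = bb.repr v 0 • ρ.ρ τ (bb 0) + bb.repr v 1 • ρ.ρ τ (bb 1) := by
        conv_lhs => rw [hv]
        rw [map_add, map_smul, map_smul]
      rw [map_sub, Finsupp.sub_apply, map_smul, Finsupp.smul_apply, h1, map_add,
        Finsupp.add_apply, map_smul, map_smul, Finsupp.smul_apply, Finsupp.smul_apply, hτ0,
        map_smul, Finsupp.smul_apply, Basis.repr_self]
      simp only [Finsupp.single_apply, smul_eq_mul]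
      simp only [Fin.isValue, zero_ne_one, if_false, mul_zero, zero_add]
      ring
    · refine hcc τ _ _ fun i => ?_
      obtain ⟨xi, zi, hxi, hzi, hci⟩ := hS i τ hτ
      have e1 : φ i (bb.repr (ρ.ρ τ (bb 0)) 0) = xi := by
        refine s59x_tmul_basis_cancel (B := B i) bb 0 _ _ ?_
        have h1 := hxi _ (hK' (bb 0) (Submodule.mem_span_singleton_self _) i)
        rw [LinearMap.baseChange_tmul, hτ0] at h1
        rw [← h1, TensorProduct.tmul_smul]
        exact algebraMap_smul (B i) _ _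
      have e2 : φ i (bb.repr (ρ.ρ τ (bb 1)) 1) = zi := by
        refine s59x_tmul_basis_cancel (B := B i) bb 1 _ _ ?_
        have h1 := (hproj i).2 _ (hzi ((1 : B i) ⊗ₜ[A] bb 1))
        rw [map_sub, map_smul, LinearMap.baseChange_tmul, LinearMap.baseChange_tmul,
          LinearMap.baseChange_tmul, hb1, TensorProduct.tmul_zero, smul_zero, sub_zero] at h1
        have h2 : ((1 : B i) ⊗ₜ[A] (ρ.ρ τ (bb 1) - e (ρ.ρ τ (bb 1))) : B i ⊗[A] ρ.V) =
            zi • ((1 : B i) ⊗ₜ[A] bb 1) := by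
          rw [TensorProduct.tmul_sub, h1]
          abel
        rw [s59x_sub_idem_apply bb e hb0 hb1, TensorProduct.tmul_smul] at h2
        rw [← h2]
        exact algebraMap_smul (B i) _ _
      rw [e1, e2]
      exact hci

end family

end Fermat.Agent.Lib.S59
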