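/-
S43 programme, node W9 [EXIST-DQ] (helper4, prefix `s59x_`): the STRICT-ORDINARY Taylor–Wiles
deformation type is a deformation condition.
-/
import Mathlib
import Fermat.Agent.Lib.S59.XOrdCl
import Fermat.Agent.Lib.S59.XDefCond
import Fermat.Agent.Lib.S56.OLine

set_option autoImplicit false
set_option linter.unusedSectionVars false
set_option linter.style.haveILetI false

noncomputable section

namespace Fermat.Agent.Lib.S59

open Fermat.Agent.Lib.S56 Fermat.Agent.Lib.S53 TensorProduct IsLocalRing GaloisRep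

local notation "Kb" => AlgebraicClosure ℚ
local notation "Γℚ" => (AlgebraicClosure ℚ ≃ₐ[ℚ] AlgebraicClosure ℚ)

/-- an inertia element at `p` acting non-trivially on `μ_p`. -/
theorem s59x_exists_sigma0 (p : ℕ) [Fact p.Prime] (hp2 : p ≠ 2)
    (P : ValuationSubring Kb) (hP : P.LiesOverPrime p) :
    ∃ σ ∈ P.inertiaSubgroupIn ℚ, σ ∈ P.decompositionSubgroup ℚ ∧
      ∀ a : ℕ, (∀ μ : Kb, μ ^ p = 1 → σ μ = μ ^ a) → ¬ a ≡ 1 [MOD p] := by
  obtain ⟨σ, hσ, h⟩ := s56o_exists_inertia_exp p hp2 P hP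
  exact ⟨σ, hσ, s56o_inertia_le_decomposition P hσ, h⟩

theorem s59x_cycCong_of_quotients_succ {A : Type} [CommRing A] [IsLocalRing A]
    [IsNoetherianRing A] (p : ℕ) (σ : Γℚ) (y z : A)
    (h : ∀ k : ℕ, s59x_CycCong p σ (Ideal.Quotient.mk (maximalIdeal A ^ (k + 1)) y)
      (Ideal.Quotient.mk (maximalIdeal A ^ (k + 1)) z)) : s59x_CycCong p σ y z := by
  apply s59x_cycCong_of_quotients
  intro k
  cases k with
  | zero =>
    intro n a _
    haveI : Subsingleton (A ⧸ maximalIdeal A ^ 0) :=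
      Ideal.Quotient.subsingleton_iff.mpr ((pow_zero _).trans Ideal.one_eq_top)
    rw [Subsingleton.elim (_ - _) 0]
    exact Ideal.zero_mem _
  | succ k => exact h k

theorem s59x_natCast_mem_of_map {A B : Type} [CommRing A] [IsLocalRing A] [CommRing B]
    [IsLocalRing B] (φ : A →+* B) (p : ℕ) (h : (p : B) ∈ maximalIdeal B) :
    (p : A) ∈ maximalIdeal A := by
  rw [mem_maximalIdeal, mem_nonunits_iff] at h ⊢
  intro hu
  apply h
  have := hu.map φ
  rwa [map_natCast] at this

/-- the closure package for `IsStrictOrdinaryAt`. -/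
theorem s59x_locCond_ord (p : ℕ) [Fact p.Prime] (hp2 : p ≠ 2) :
    s59x_LocCond (fun _A _ _ ρ => ρ.IsStrictOrdinaryAt p) where
  of_isEquiv := by
    rintro A _ _ ρ ρ' ⟨e⟩ h
    exact s56a_isStrictOrdinaryAt_of_equiv e h
  baseChange := fun _ _ _ _ _ _ φ hφ _ ρ h => s56a_isStrictOrdinaryAt_baseChange φ hφ ρ h
  of_injective := by
    intro A B _ _ _ _ _ φ hφ hinj ρ h
    have hfA : Finite A := Finite.of_injective φ hinj
    obtain ⟨N, hN⟩ := s59x_exists_pow_eq_zero (s59x_natCast_mem_of_map φ p h.1)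
    have hJ : s59x_JointInj (fun _ : Unit => φ) := fun x hx =>
      hinj ((hx ()).trans (map_zero _).symm)
    exact s59x_strictOrd_of_family (B := fun _ : Unit => B) (fun _ => φ) (fun _ => hφ) hJ p
      (s59x_exists_sigma0 p hp2)
      (fun σ y z hyz => s59x_cycCong_of_nilpotent _ hJ p (Fact.out : p.Prime).pos N hN σ y z hyz)
      ρ (fun _ => h)
  of_fibre := by
    intro P A B _ _ _ _ _ _ _ _ pA hpA pB hpB hinj ρ hA hB
    have hfP : Finite P := Finite.of_injective _ hinj
    obtain ⟨N, hN⟩ := s59x_exists_pow_eq_zero (s59x_natCast_mem_of_map pA p hA.1)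
    have hJ : s59x_JointInj (s59x_bfHom pA pB) := fun x hx => by
      have h1 : pA x = 0 := hx true
      have h2 : pB x = 0 := hx false
      exact hinj (by simp [h1, h2])
    refine s59x_strictOrd_of_family (s59x_bfHom pA pB) (s59x_bfHom_isLocalHom _ _ hpA hpB) hJ p
      (s59x_exists_sigma0 p hp2)
      (fun σ y z hyz => s59x_cycCong_of_nilpotent _ hJ p (Fact.out : p.Prime).pos N hN σ y z hyz)
      ρ ?_
    intro i
    match i with
    | true => exact hA
    | false => exact hB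
  of_quotients := by
    intro A _ _ _ hk ρ H
    letI iL : ∀ k : ℕ, IsLocalRing (A ⧸ maximalIdeal A ^ (k + 1)) := fun k =>
      quotient_isLocalRing _ (pow_maximalIdeal_ne_top (Nat.succ_ne_zero k))
    have hJ : s59x_JointInj (fun k : ℕ => Ideal.Quotient.mk (maximalIdeal A ^ (k + 1))) := by
      intro x hx
      have h1 : x ∈ (⨅ i : ℕ, maximalIdeal A ^ i) := by
        rw [Ideal.mem_iInf]
        intro i
        exact Ideal.pow_le_pow_right (Nat.le_succ i) (Ideal.Quotient.eq_zero_iff_mem.mp (hx i))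
      rwa [Ideal.iInf_pow_eq_bot_of_isLocalRing _ (Ideal.IsMaximal.ne_top inferInstance),
        Ideal.mem_bot] at h1
    refine s59x_strictOrd_of_family
      (fun k : ℕ => Ideal.Quotient.mk (maximalIdeal A ^ (k + 1)))
      (fun k => isLocalHom_quotient_mk _) hJ p (s59x_exists_sigma0 p hp2)
      (fun σ y z hyz => s59x_cycCong_of_quotients_succ p σ y z hyz) ρ ?_
    intro k
    have hfin : Finite (A ⧸ maximalIdeal A ^ (k + 1)) := by
      have : Finite (A ⧸ maximalIdeal A) := hk
      exact Ideal.finite_quotient_pow (IsNoetherian.noetherian _) (k + 1)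
    exact H _ (pow_maximalIdeal_ne_top (Nat.succ_ne_zero k)) hfin

/-- **the strict-ordinary Taylor–Wiles type is a deformation condition.** -/
theorem s59x_isDefCond_ord (𝒪 : Type) [CommRing 𝒪] [IsLocalRing 𝒪] [Finite (ResidueField 𝒪)]
    (p : ℕ) [Fact p.Prime] (hp2 : p ≠ 2) (Sg Smin : Finset ℕ) :
    IsDeformationCondition 𝒪 (fun _A _ _ _ ρ =>
      GaloisRep.strictOrdinaryCondition 𝒪 p Sg ρ ∧
        ∀ q ∈ Smin, q.Prime → q ≠ p → ρ.IsUnipotentOnInertiaAt q) :=
  s59x_isDefCond (𝒪 := 𝒪) (s59x_locCond_ord p hp2) Sg Smin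

end Fermat.Agent.Lib.S59
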