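/-
S43 programme, node W9e [HBAR] (helper4, prefix `s59x_`): for a deformation condition `𝒟`, the
residual representation is of type `𝒟` as soon as ONE lift of type `𝒟` (over a complete noetherian
local `𝒪`-algebra with residue field that of `𝒪`) exists.
-/
import Mathlib
import Fermat.Prelude.Def_GaloisRep_DeformationCondition
import Fermat.Agent.Lib.S53.MatrixRep
import Fermat.Agent.Lib.Deform.TestAlg

set_option autoImplicit false
set_option linter.unusedSectionVars false
set_option linter.style.haveILetI false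

noncomputable section

namespace Fermat.Agent.Lib.S59

open Fermat.Agent.Lib.S53 Fermat.Agent.Lib.Deform TensorProduct IsLocalRing GaloisRep Module

local notation "Γℚ" => (AlgebraicClosure ℚ ≃ₐ[ℚ] AlgebraicClosure ℚ)

section hbar

variable {𝒪 : Type} [CommRing 𝒪] [IsLocalRing 𝒪]
  {𝒟 : ∀ ⦃A : Type⦄ [CommRing A] [IsLocalRing A] [Algebra 𝒪 A], GaloisRepAdic A → Prop}

/-- the residue field of a test algebra is an artinian test algebra. -/
theorem s59x_residueField_isArtinianTest {A : Type} [CommRing A] [IsLocalRing A] [Algebra 𝒪 A]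
    (hloc : IsLocalHom (algebraMap 𝒪 A))
    (hres : Function.Surjective (IsLocalRing.residue A ∘ algebraMap 𝒪 A)) :
    IsArtinianTestAlgebra 𝒪 (ResidueField A) where
  isLocalHom := by
    refine ⟨fun x hx => ?_⟩
    have h1 : algebraMap 𝒪 (ResidueField A) x = residue A (algebraMap 𝒪 A x) := rfl
    rw [h1] at hx
    have h2 : IsUnit (algebraMap 𝒪 A x) := (residue_ne_zero_iff_isUnit _).mp hx.ne_zero
    exact hloc.map_nonunit x h2
  residue_surjective := by
    intro y
    obtain ⟨y', rfl⟩ := residue_surjective y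
    obtain ⟨x, hx⟩ := hres y'
    exact ⟨x, congrArg (residue (ResidueField A)) hx⟩
  isArtinian := inferInstance

/-- **[HBAR]**: a lift of type `𝒟` forces the residual representation to be of type `𝒟`. -/
theorem s59x_hbar_of_lift (h𝒟 : IsDeformationCondition 𝒪 𝒟)
    (ρbar : ResidualGaloisRep (ResidueField 𝒪))
    {A : Type} [CommRing A] [IsLocalRing A] [IsNoetherianRing A]
    [IsAdicComplete (maximalIdeal A) A] [Algebra 𝒪 A]
    (hloc : IsLocalHom (algebraMap 𝒪 A))
    (hres : Function.Surjective (IsLocalRing.residue A ∘ algebraMap 𝒪 A))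
    (ρA : GaloisRepAdic A) (hρ : 𝒟 ρA)
    (hresid : ρA.residual.IsEquiv
      (ρbar.baseChangeAlong (IsLocalRing.ResidueField.map (algebraMap 𝒪 A)))) :
    𝒟 (GaloisRepAdic.ofResidualGaloisRep ρbar) := by
  haveI := hloc
  have hkA : IsArtinianTestAlgebra 𝒪 (ResidueField A) :=
    s59x_residueField_isArtinianTest hloc hres
  -- step 1: push to the residue field of `A`
  let q : A →ₐ[𝒪] ResidueField A := Ideal.Quotient.mkₐ 𝒪 (maximalIdeal A)
  have hq : IsLocalHom (q : A →+* ResidueField A) :=
    IsLocalHom.of_surjective _ (Ideal.Quotient.mkₐ_surjective 𝒪 _)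
  have h1 : 𝒟 (ρA.baseChangeAlong (q : A →+* ResidueField A) hq) :=
    (h𝒟.iff_forall_surjective hloc hres ρA).mp hρ hkA q hq (Ideal.Quotient.mkₐ_surjective 𝒪 _)
  -- step 2: compare with the base change of `ρ̄`
  let ψ : ResidueField 𝒪 →ₐ[𝒪] ResidueField A :=
    { IsLocalRing.ResidueField.map (algebraMap 𝒪 A) with
      commutes' := fun x => rfl }
  have hψ : IsLocalHom (ψ : ResidueField 𝒪 →+* ResidueField A) :=
    ⟨fun x hx => by
      have h0 : x ≠ 0 := fun h0 => by
        rw [h0, map_zero] at hx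
        exact not_isUnit_zero hx
      exact isUnit_iff_ne_zero.mpr h0⟩
  let bA : Basis (Fin 2) A ρA.V := Module.finBasisOfFinrankEq A ρA.V ρA.finrank_eq
  obtain ⟨b₁, hb₁⟩ := exists_basis_baseChangeAlong ρA bA (q : A →+* ResidueField A) hq
  obtain ⟨b', hb'⟩ := exists_basis_residual ρA bA
  obtain ⟨b'', hb''⟩ := exists_basis_of_isEquiv_res hresid b'
  have hE : (ρA.baseChangeAlong (q : A →+* ResidueField A) hq).IsEquiv
      ((GaloisRepAdic.ofResidualGaloisRep ρbar).baseChangeAlong
        (ψ : ResidueField 𝒪 →+* ResidueField A) hψ) := by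
    refine isEquiv_of_matOf_eq b₁ b'' fun σ => ?_
    rw [hb₁ σ]
    have h2 := hb'' σ
    rw [matOfRes_apply, matOfRes_apply, hb' σ] at h2
    exact h2.symm
  have h2 : 𝒟 ((GaloisRepAdic.ofResidualGaloisRep ρbar).baseChangeAlong
      (ψ : ResidueField 𝒪 →+* ResidueField A) hψ) := h𝒟.of_isEquiv hkA hE h1
  -- step 3: descend along the injection of residue fields
  exact h𝒟.of_baseChangeAlong_injective (isArtinianTestAlgebra_residueField 𝒪) hkA ψ hψ
    (RingHom.injective _) h2

end hbar

end Fermat.Agent.Lib.S59
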