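/-
PROGRAMME (R), final wiring, node W9 [EXIST-DQ] (helper6, prefix `s59q_`): **the universal deformation rings of the two
Taylor–Wiles deformation types exist**, given ONE lift of that type.

`s59q_exists_DQ`     : generic: a deformation condition `𝒟` with finite tangent space and one lift of type `𝒟` over a complete
                       noetherian local `𝒪`-algebra (residue field that of `𝒪`) has a `DeformationRingData`.
`s59q_flatType_mono`, `s59q_ordType_mono` : enlarging the set `Σ` of allowed ramification weakens the type.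
`s59q_exists_DQ_flat`: the flat type of S56/S59 (`helper4`'s `s59x_isDefCond_flat`, `s59q_tangentFinite_flat`).
`s59q_exists_DQ_flat_hecke`: the same with the lift given by a `HeckeGaloisRepDatum`.
`s59q_exists_DQ_flat_TW`   : the shape consumed by `s59q_inst_flat`: `Σ = Σ_min ∪ (B ∪ E) ∪ Q`, `hunr` from `hmin`, the lift of
                       type `Σ₀ ⊆ Σ`.
`s59q_exists_DQ_ord`, `s59q_exists_DQ_ord_hecke`, `s59q_exists_DQ_ord_TW`: the same for the strict-ordinary type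
                       (`helper4`'s `s59x_isDefCond_ord`, `s59q_tangentFinite_ord`).
-/
import Fermat.Agent.Lib.S59.QTanFinC
import Fermat.Agent.Lib.S59.XDefFlat
import Fermat.Agent.Lib.S59.XDefOrd
import Fermat.Agent.Lib.S59.XHbar
import Fermat.Agent.Lib.S53.UnivFinal
import Fermat.Prelude.Def_CuspForm_HeckeGaloisRepDatum

set_option autoImplicit false
set_option linter.style.haveILetI false
set_option linter.unusedSectionVars false

noncomputable section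

namespace Fermat.Agent.Lib.S59

open IsLocalRing GaloisRep CuspForm

local notation "Γℚ" => (AlgebraicClosure ℚ ≃ₐ[ℚ] AlgebraicClosure ℚ)

variable {𝒪 : Type} [CommRing 𝒪] [IsDomain 𝒪] [IsDiscreteValuationRing 𝒪]
  [IsAdicComplete (maximalIdeal 𝒪) 𝒪] [Finite (ResidueField 𝒪)]

/-- **[EXIST-DQ], generic.** -/
theorem s59q_exists_DQ (ρbar : ResidualGaloisRep (ResidueField 𝒪))
    (𝒟 : ∀ ⦃A : Type⦄ [CommRing A] [IsLocalRing A] [Algebra 𝒪 A], GaloisRepAdic A → Prop)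
    (habs : ρbar.IsAbsolutelyIrreducible) (h𝒟 : IsDeformationCondition 𝒪 𝒟)
    (hfin : TangentFinite 𝒪 ρbar 𝒟)
    {A : Type} [CommRing A] [IsLocalRing A] [IsNoetherianRing A]
    [IsAdicComplete (maximalIdeal A) A] [Algebra 𝒪 A]
    (hloc : IsLocalHom (algebraMap 𝒪 A))
    (hres : Function.Surjective (IsLocalRing.residue A ∘ algebraMap 𝒪 A))
    (ρA : GaloisRepAdic A) (hρ : 𝒟 ρA)
    (hresid : ρA.residual.IsEquiv
      (ρbar.baseChangeAlong (IsLocalRing.ResidueField.map (algebraMap 𝒪 A)))) :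
    Nonempty (DeformationRingData 𝒪 ρbar 𝒟) :=
  Fermat.Agent.Lib.S53.nonempty_deformationRingData (Fermat.Agent.Lib.S53.universalStatement 𝒪)
    ρbar 𝒟 habs h𝒟 (s59x_hbar_of_lift h𝒟 ρbar hloc hres ρA hρ hresid) hfin

/-- enlarging `Σ` weakens the flat type. -/
theorem s59q_flatType_mono (p : ℕ) {Sg₀ Sg : Finset ℕ} (hS : Sg₀ ⊆ Sg) (Smin : Finset ℕ)
    {A : Type} [CommRing A] [IsLocalRing A] [Algebra 𝒪 A] (ρ : GaloisRepAdic A)
    (h : flatCondition 𝒪 p Sg₀ ρ ∧ ∀ q ∈ Smin, q.Prime → q ≠ p → ρ.IsUnipotentOnInertiaAt q) :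
    flatCondition 𝒪 p Sg ρ ∧ ∀ q ∈ Smin, q.Prime → q ≠ p → ρ.IsUnipotentOnInertiaAt q :=
  ⟨⟨h.1.1, h.1.2.1, fun q hq hqS => h.1.2.2 q hq fun h' => hqS (hS h')⟩, h.2⟩

/-- enlarging `Σ` weakens the strict-ordinary type. -/
theorem s59q_ordType_mono (p : ℕ) {Sg₀ Sg : Finset ℕ} (hS : Sg₀ ⊆ Sg) (Smin : Finset ℕ)
    {A : Type} [CommRing A] [IsLocalRing A] [Algebra 𝒪 A] (ρ : GaloisRepAdic A)
    (h : strictOrdinaryCondition 𝒪 p Sg₀ ρ ∧
      ∀ q ∈ Smin, q.Prime → q ≠ p → ρ.IsUnipotentOnInertiaAt q) :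
    strictOrdinaryCondition 𝒪 p Sg ρ ∧
      ∀ q ∈ Smin, q.Prime → q ≠ p → ρ.IsUnipotentOnInertiaAt q :=
  ⟨⟨h.1.1, h.1.2.1, fun q hq hqS => h.1.2.2 q hq fun h' => hqS (hS h')⟩, h.2⟩

section Flat

variable (p : ℕ) [Fact p.Prime] (hp2 : p ≠ 2) (hp𝒪 : (p : 𝒪) ∈ maximalIdeal 𝒪)
  (ρbar : ResidualGaloisRep (ResidueField 𝒪)) (habs : ρbar.IsAbsolutelyIrreducible)

include hp2 hp𝒪 habs in
/-- **[EXIST-DQ], flat type**, the lift of type `Σ₀ ⊆ Σ`. -/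
theorem s59q_exists_DQ_flat (Sg₀ Sg Smin : Finset ℕ) (hS : Sg₀ ⊆ Sg) (hpSg : p ∈ Sg)
    (hunr : ∀ q : ℕ, q.Prime → q ∉ Sg → ρbar.IsUnramifiedAt q)
    {A : Type} [CommRing A] [IsLocalRing A] [IsNoetherianRing A]
    [IsAdicComplete (maximalIdeal A) A] [Algebra 𝒪 A]
    (hloc : IsLocalHom (algebraMap 𝒪 A))
    (hres : Function.Surjective (IsLocalRing.residue A ∘ algebraMap 𝒪 A))
    (ρA : GaloisRepAdic A)
    (hρ : flatCondition 𝒪 p Sg₀ ρA ∧ ∀ q ∈ Smin, q.Prime → q ≠ p → ρA.IsUnipotentOnInertiaAt q)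
    (hresid : ρA.residual.IsEquiv
      (ρbar.baseChangeAlong (IsLocalRing.ResidueField.map (algebraMap 𝒪 A)))) :
    Nonempty (DeformationRingData 𝒪 ρbar (fun _A _ _ _ ρ =>
      flatCondition 𝒪 p Sg ρ ∧ ∀ q ∈ Smin, q.Prime → q ≠ p → ρ.IsUnipotentOnInertiaAt q)) :=
  s59q_exists_DQ ρbar _ habs (s59x_isDefCond_flat 𝒪 p Sg Smin)
    (s59q_tangentFinite_flat p hp2 hp𝒪 ρbar habs Sg Smin hpSg hunr) hloc hres ρA
    (s59q_flatType_mono p hS Smin ρA hρ) hresid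

include hp2 hp𝒪 habs in
/-- **[EXIST-DQ], flat type**, the lift given by a Hecke datum. -/
theorem s59q_exists_DQ_flat_hecke (Sg₀ Sg Smin : Finset ℕ) (hS : Sg₀ ⊆ Sg) (hpSg : p ∈ Sg)
    (hunr : ∀ q : ℕ, q.Prime → q ∉ Sg → ρbar.IsUnramifiedAt q)
    {M' : ℕ} [NeZero M'] {S : Set ℕ} {θ : heckeAlgebra M' 2 S →+* ResidueField 𝒪}
    {T : Type} [CommRing T] [IsLocalRing T] [IsNoetherianRing T]
    [IsAdicComplete (maximalIdeal T) T] [Algebra 𝒪 T] [IsLocalHom (algebraMap 𝒪 T)]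
    [Module.Finite 𝒪 T] [Module.Free 𝒪 T] (Hd : HeckeGaloisRepDatum M' S 𝒪 θ T)
    (hρ : flatCondition 𝒪 p Sg₀ Hd.ρ ∧
      ∀ q ∈ Smin, q.Prime → q ≠ p → Hd.ρ.IsUnipotentOnInertiaAt q)
    (hresid : Hd.ρ.residual.IsEquiv
      (ρbar.baseChangeAlong (IsLocalRing.ResidueField.map (algebraMap 𝒪 T)))) :
    Nonempty (DeformationRingData 𝒪 ρbar (fun _A _ _ _ ρ =>
      flatCondition 𝒪 p Sg ρ ∧ ∀ q ∈ Smin, q.Prime → q ≠ p → ρ.IsUnipotentOnInertiaAt q)) :=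
  s59q_exists_DQ_flat p hp2 hp𝒪 ρbar habs Sg₀ Sg Smin hS hpSg hunr inferInstance
    Hd.residue_surjective Hd.ρ hρ hresid

include hp2 hp𝒪 habs in
/-- **[EXIST-DQ], flat type, Taylor–Wiles shape**: `Σ = Σ_min ∪ (B ∪ E) ∪ Q` as in `s59q_inst_flat`, the lift of type
`Σ_min ∪ (B ∪ E)` (no Taylor–Wiles primes). -/
theorem s59q_exists_DQ_flat_TW (Smin Bd Ed : Finset ℕ) (hpSmin : p ∈ Smin)
    (hmin : ∀ q : ℕ, q.Prime → q ≠ p → (q ∈ Smin ↔ ¬ ρbar.IsUnramifiedAt q))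
    {A : Type} [CommRing A] [IsLocalRing A] [IsNoetherianRing A]
    [IsAdicComplete (maximalIdeal A) A] [Algebra 𝒪 A]
    (hloc : IsLocalHom (algebraMap 𝒪 A))
    (hres : Function.Surjective (IsLocalRing.residue A ∘ algebraMap 𝒪 A))
    (ρA : GaloisRepAdic A)
    (hρ : flatCondition 𝒪 p (Smin ∪ (Bd ∪ Ed)) ρA ∧
      ∀ q ∈ Smin, q.Prime → q ≠ p → ρA.IsUnipotentOnInertiaAt q)
    (hresid : ρA.residual.IsEquiv
      (ρbar.baseChangeAlong (IsLocalRing.ResidueField.map (algebraMap 𝒪 A))))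
    {r : ℕ} (qv : Fin r → ℕ) :
    Nonempty (DeformationRingData 𝒪 ρbar (fun _A _ _ _ ρ =>
      flatCondition 𝒪 p (Smin ∪ (Bd ∪ Ed) ∪ Finset.univ.image qv) ρ ∧
        ∀ q ∈ Smin, q.Prime → q ≠ p → ρ.IsUnipotentOnInertiaAt q)) := by
  refine s59q_exists_DQ_flat p hp2 hp𝒪 ρbar habs (Smin ∪ (Bd ∪ Ed)) _ Smin
    Finset.subset_union_left
    (Finset.mem_union_left _ (Finset.mem_union_left _ hpSmin)) ?_ hloc hres ρA hρ hresid
  intro q hq hqS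
  have hqSmin : q ∉ Smin := fun h =>
    hqS (Finset.mem_union_left _ (Finset.mem_union_left _ h))
  have hne : q ≠ p := fun h => hqSmin (h ▸ hpSmin)
  by_contra hram
  exact hqSmin ((hmin q hq hne).2 hram)

end Flat

section Ord

variable (p : ℕ) [Fact p.Prime] (hp2 : p ≠ 2) (hp𝒪 : (p : 𝒪) ∈ maximalIdeal 𝒪)
  (ρbar : ResidualGaloisRep (ResidueField 𝒪)) (habs : ρbar.IsAbsolutelyIrreducible)

include hp2 hp𝒪 habs in
/-- **[EXIST-DQ], strict-ordinary type**, the lift of type `Σ₀ ⊆ Σ`. -/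
theorem s59q_exists_DQ_ord (Sg₀ Sg Smin : Finset ℕ) (hS : Sg₀ ⊆ Sg) (hpSg : p ∈ Sg)
    (hunr : ∀ q : ℕ, q.Prime → q ∉ Sg → ρbar.IsUnramifiedAt q)
    {A : Type} [CommRing A] [IsLocalRing A] [IsNoetherianRing A]
    [IsAdicComplete (maximalIdeal A) A] [Algebra 𝒪 A]
    (hloc : IsLocalHom (algebraMap 𝒪 A))
    (hres : Function.Surjective (IsLocalRing.residue A ∘ algebraMap 𝒪 A))
    (ρA : GaloisRepAdic A)
    (hρ : strictOrdinaryCondition 𝒪 p Sg₀ ρA ∧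
      ∀ q ∈ Smin, q.Prime → q ≠ p → ρA.IsUnipotentOnInertiaAt q)
    (hresid : ρA.residual.IsEquiv
      (ρbar.baseChangeAlong (IsLocalRing.ResidueField.map (algebraMap 𝒪 A)))) :
    Nonempty (DeformationRingData 𝒪 ρbar (fun _A _ _ _ ρ =>
      strictOrdinaryCondition 𝒪 p Sg ρ ∧
        ∀ q ∈ Smin, q.Prime → q ≠ p → ρ.IsUnipotentOnInertiaAt q)) :=
  s59q_exists_DQ ρbar _ habs (s59x_isDefCond_ord 𝒪 p hp2 Sg Smin)
    (s59q_tangentFinite_ord p hp2 hp𝒪 ρbar habs Sg Smin hpSg hunr) hloc hres ρA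
    (s59q_ordType_mono p hS Smin ρA hρ) hresid

include hp2 hp𝒪 habs in
/-- **[EXIST-DQ], strict-ordinary type**, the lift given by a Hecke datum. -/
theorem s59q_exists_DQ_ord_hecke (Sg₀ Sg Smin : Finset ℕ) (hS : Sg₀ ⊆ Sg) (hpSg : p ∈ Sg)
    (hunr : ∀ q : ℕ, q.Prime → q ∉ Sg → ρbar.IsUnramifiedAt q)
    {M' : ℕ} [NeZero M'] {S : Set ℕ} {θ : heckeAlgebra M' 2 S →+* ResidueField 𝒪}
    {T : Type} [CommRing T] [IsLocalRing T] [IsNoetherianRing T]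
    [IsAdicComplete (maximalIdeal T) T] [Algebra 𝒪 T] [IsLocalHom (algebraMap 𝒪 T)]
    [Module.Finite 𝒪 T] [Module.Free 𝒪 T] (Hd : HeckeGaloisRepDatum M' S 𝒪 θ T)
    (hρ : strictOrdinaryCondition 𝒪 p Sg₀ Hd.ρ ∧
      ∀ q ∈ Smin, q.Prime → q ≠ p → Hd.ρ.IsUnipotentOnInertiaAt q)
    (hresid : Hd.ρ.residual.IsEquiv
      (ρbar.baseChangeAlong (IsLocalRing.ResidueField.map (algebraMap 𝒪 T)))) :
    Nonempty (DeformationRingData 𝒪 ρbar (fun _A _ _ _ ρ =>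
      strictOrdinaryCondition 𝒪 p Sg ρ ∧
        ∀ q ∈ Smin, q.Prime → q ≠ p → ρ.IsUnipotentOnInertiaAt q)) :=
  s59q_exists_DQ_ord p hp2 hp𝒪 ρbar habs Sg₀ Sg Smin hS hpSg hunr inferInstance
    Hd.residue_surjective Hd.ρ hρ hresid

include hp2 hp𝒪 habs in
/-- **[EXIST-DQ], strict-ordinary type, Taylor–Wiles shape**: `Σ = Σ_min ∪ (B ∪ E) ∪ Q` as in `s59q_inst_ord`, the lift
of type `Σ_min ∪ (B ∪ E)` (no Taylor–Wiles primes). -/
theorem s59q_exists_DQ_ord_TW (Smin Bd Ed : Finset ℕ) (hpSmin : p ∈ Smin)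
    (hmin : ∀ q : ℕ, q.Prime → q ≠ p → (q ∈ Smin ↔ ¬ ρbar.IsUnramifiedAt q))
    {A : Type} [CommRing A] [IsLocalRing A] [IsNoetherianRing A]
    [IsAdicComplete (maximalIdeal A) A] [Algebra 𝒪 A]
    (hloc : IsLocalHom (algebraMap 𝒪 A))
    (hres : Function.Surjective (IsLocalRing.residue A ∘ algebraMap 𝒪 A))
    (ρA : GaloisRepAdic A)
    (hρ : strictOrdinaryCondition 𝒪 p (Smin ∪ (Bd ∪ Ed)) ρA ∧
      ∀ q ∈ Smin, q.Prime → q ≠ p → ρA.IsUnipotentOnInertiaAt q)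
    (hresid : ρA.residual.IsEquiv
      (ρbar.baseChangeAlong (IsLocalRing.ResidueField.map (algebraMap 𝒪 A))))
    {r : ℕ} (qv : Fin r → ℕ) :
    Nonempty (DeformationRingData 𝒪 ρbar (fun _A _ _ _ ρ =>
      strictOrdinaryCondition 𝒪 p (Smin ∪ (Bd ∪ Ed) ∪ Finset.univ.image qv) ρ ∧
        ∀ q ∈ Smin, q.Prime → q ≠ p → ρ.IsUnipotentOnInertiaAt q)) := by
  refine s59q_exists_DQ_ord p hp2 hp𝒪 ρbar habs (Smin ∪ (Bd ∪ Ed)) _ Smin
    Finset.subset_union_left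
    (Finset.mem_union_left _ (Finset.mem_union_left _ hpSmin)) ?_ hloc hres ρA hρ hresid
  intro q hq hqS
  have hqSmin : q ∉ Smin := fun h =>
    hqS (Finset.mem_union_left _ (Finset.mem_union_left _ h))
  have hne : q ≠ p := fun h => hqSmin (h ▸ hpSmin)
  by_contra hram
  exact hqSmin ((hmin q hq hne).2 hram)

end Ord

end Fermat.Agent.Lib.S59
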