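/-
[LOC] part 4 (helper4): the honest type-1 (unipotent) local condition
(`N = [[e,b],[c,−e]]`, `N² = 0`, `Φ N = u N Φ`, `det Φ = u`, `Φ = a + [[f,β],[γ,−f]]`), the
identities which make `v = (e,b,c)` vanish on every component of the type-1 locus through the
generic point of `{v = 0, u = 1}`, and the square root `a = √(u + Q(w))` (Hensel).
-/
import Mathlib

set_option autoImplicit false

noncomputable section

namespace Fermat.Agent.Lib.S59

open IsLocalRing

/-! ### the algebra -/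

section Algebra

variable {C : Type*} [CommRing C] (e b c f β γ a u i2 : C)

/-- `N² = 0`. -/
def s59l_r0 : C := e ^ 2 + b * c
/-- the `e`-coordinate of `a(1−u)N + ((1+u)/2)[W,N]`. -/
def s59l_r1 : C := a * (1 - u) * e + (1 + u) * i2 * (β * c - b * γ)
/-- the `b`-coordinate. -/
def s59l_r2 : C := a * (1 - u) * b + (1 + u) * (f * b - β * e)
/-- the `c`-coordinate. -/
def s59l_r3 : C := a * (1 - u) * c + (1 + u) * (γ * e - f * c)
/-- the scalar part `(1−u) tr(WN)`. -/
def s59l_r4 : C := (1 - u) * (2 * e * f + b * γ + c * β)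

/-- the three denominators. -/
def s59l_se : C := u * (4 * (f ^ 2 + β * γ) - (1 - u) ^ 2)
def s59l_s2 : C := a * (1 - u) + (1 + u) * f
def s59l_s3 : C := a * (1 - u) - (1 + u) * f

theorem s59l_id_e (ha : a ^ 2 = u + (f ^ 2 + β * γ)) :
    s59l_se f β γ u * e ^ 2 =
      (s59l_r3 e c f γ a u - (1 + u) * γ * e) * s59l_r2 e b f β a u +
        (1 + u) * β * e * s59l_r3 e c f γ a u -
        s59l_s2 f a u * s59l_s3 f a u * s59l_r0 e b c := by
  simp only [s59l_se, s59l_r0, s59l_r2, s59l_r3, s59l_s2, s59l_s3]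
  linear_combination (e ^ 2 * (1 - u) ^ 2) * ha

theorem s59l_id_b :
    s59l_s2 f a u * b = s59l_r2 e b f β a u + (1 + u) * β * e := by
  simp only [s59l_r2, s59l_s2]; ring

theorem s59l_id_c :
    s59l_s3 f a u * c = s59l_r3 e c f γ a u - (1 + u) * γ * e := by
  simp only [s59l_r3, s59l_s3]; ring

/-- the matrix form of the relations: `Φ N − u N Φ` has entries `r₁ + r₄/2`, `r₂`, `r₃`,
`−r₁ + r₄/2`. -/
theorem s59l_matrix_form (hi2 : 2 * i2 = 1) :
    (a + f) * e + β * c - u * (e * (a + f) + b * γ) =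
        s59l_r1 e b c β γ a u i2 + i2 * s59l_r4 e b c f β γ u ∧
    (a + f) * b + β * (-e) - u * (e * β + b * (a - f)) = s59l_r2 e b f β a u ∧
    γ * e + (a - f) * c - u * (c * (a + f) + (-e) * γ) = s59l_r3 e c f γ a u ∧
    γ * b + (a - f) * (-e) - u * (c * β + (-e) * (a - f)) =
        -s59l_r1 e b c β γ a u i2 + i2 * s59l_r4 e b c f β γ u := by
  simp only [s59l_r1, s59l_r2, s59l_r3, s59l_r4]
  refine ⟨?_, ?_, ?_, ?_⟩
  · linear_combination (-(β * c - u * b * γ + (1 - u) * e * f)) * hi2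
  · ring
  · ring
  · linear_combination (-(b * γ - u * β * c + (1 - u) * e * f)) * hi2

end Algebra



/-! ### the prime criterion -/

section Prime

variable {P : Type*} [CommRing P] (e b c f β γ a u : P)

/-- **the unramified component.** Let `𝔮` be a prime with `1 - u ∈ 𝔮`, `2 ∉ 𝔮`, `f ∉ 𝔮`,
`Q(w) = f² + βγ ∉ 𝔮`.  Every prime `𝔓 ≤ 𝔮` containing the type-1 relations `r₀, r₂, r₃`
(with `a² = u + Q(w)`) contains `e, b, c`. -/
theorem s59l_unr_of_prime (ha : a ^ 2 = u + (f ^ 2 + β * γ))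
    (𝔮 : Ideal P) [h𝔮 : 𝔮.IsPrime] (hu : 1 - u ∈ 𝔮) (h2 : (2 : P) ∉ 𝔮) (hf : f ∉ 𝔮)
    (hQ : f ^ 2 + β * γ ∉ 𝔮)
    (𝔓 : Ideal P) [h𝔓 : 𝔓.IsPrime] (hle : 𝔓 ≤ 𝔮)
    (h0 : s59l_r0 e b c ∈ 𝔓) (hr2 : s59l_r2 e b f β a u ∈ 𝔓) (hr3 : s59l_r3 e c f γ a u ∈ 𝔓) :
    e ∈ 𝔓 ∧ b ∈ 𝔓 ∧ c ∈ 𝔓 := by
  -- `s_e ∉ 𝔮`
  have hse : s59l_se f β γ u ∉ 𝔮 := by
    intro h
    have e1 : s59l_se f β γ u = 2 * 2 * (f ^ 2 + β * γ) -
        (1 - u) * (4 * (f ^ 2 + β * γ) + u * (1 - u)) := by
      simp only [s59l_se]; ring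
    rw [e1] at h
    have h1 : 2 * 2 * (f ^ 2 + β * γ) ∈ 𝔮 := by
      have := Ideal.add_mem _ h (Ideal.mul_mem_right
        (4 * (f ^ 2 + β * γ) + u * (1 - u)) _ hu)
      rwa [sub_add_cancel] at this
    rcases h𝔮.mem_or_mem h1 with h | h
    · rcases h𝔮.mem_or_mem h with h | h <;> exact h2 h
    · exact hQ h
  have hs2 : s59l_s2 f a u ∉ 𝔮 := by
    intro h
    have e1 : s59l_s2 f a u = 2 * f + (1 - u) * (a - f) := by
      simp only [s59l_s2]; ring
    rw [e1] at h
    have h1 : 2 * f ∈ 𝔮 := by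
      have := Ideal.sub_mem _ h (Ideal.mul_mem_right (a - f) _ hu)
      rwa [add_sub_cancel_right] at this
    rcases h𝔮.mem_or_mem h1 with h | h
    · exact h2 h
    · exact hf h
  have hs3 : s59l_s3 f a u ∉ 𝔮 := by
    intro h
    have e1 : s59l_s3 f a u = -(2 * f) + (1 - u) * (a + f) := by
      simp only [s59l_s3]; ring
    rw [e1] at h
    have h1 : -(2 * f) ∈ 𝔮 := by
      have := Ideal.sub_mem _ h (Ideal.mul_mem_right (a + f) _ hu)
      rwa [add_sub_cancel_right] at this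
    rw [Ideal.neg_mem_iff] at h1
    rcases h𝔮.mem_or_mem h1 with h | h
    · exact h2 h
    · exact hf h
  have he : e ∈ 𝔓 := by
    refine h𝔓.mem_of_pow_mem 2 ?_
    have h1 : s59l_se f β γ u * e ^ 2 ∈ 𝔓 := by
      rw [s59l_id_e e b c f β γ a u ha]
      exact Ideal.sub_mem _ (Ideal.add_mem _ (Ideal.mul_mem_left _ _ hr2)
        (Ideal.mul_mem_left _ _ hr3)) (Ideal.mul_mem_left _ _ h0)
    rcases h𝔓.mem_or_mem h1 with h | h
    · exact absurd (hle h) hse
    · exact h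
  refine ⟨he, ?_, ?_⟩
  · have h1 : s59l_s2 f a u * b ∈ 𝔓 := by
      rw [s59l_id_b e b f β a u]
      exact Ideal.add_mem _ hr2 (Ideal.mul_mem_left _ _ he)
    rcases h𝔓.mem_or_mem h1 with h | h
    · exact absurd (hle h) hs2
    · exact h
  · have h1 : s59l_s3 f a u * c ∈ 𝔓 := by
      rw [s59l_id_c e c f γ a u]
      exact Ideal.sub_mem _ hr3 (Ideal.mul_mem_left _ _ he)
    rcases h𝔓.mem_or_mem h1 with h | h
    · exact absurd (hle h) hs3
    · exact h

end Prime

/-! ### the square root -/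

section Sqrt

variable {P : Type*} [CommRing P] [IsLocalRing P]

/-- Hensel: `t ≡ 1`, `ε² = 1`, `2` invertible ⇒ `t` has a square root `≡ ε`. -/
theorem s59l_exists_sqrt [IsAdicComplete (maximalIdeal P) P] (t ε i2 : P) (hε : ε ^ 2 = 1)
    (hi2 : 2 * i2 = 1) (ht : t - 1 ∈ maximalIdeal P) :
    ∃ a : P, a ^ 2 = t ∧ a - ε ∈ maximalIdeal P := by
  have hH := IsAdicComplete.henselianRing P (maximalIdeal P)
  have hmon : (Polynomial.X ^ 2 - Polynomial.C t : Polynomial P).Monic :=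
    Polynomial.monic_X_pow_sub_C t (by norm_num)
  have hev : (Polynomial.X ^ 2 - Polynomial.C t : Polynomial P).eval ε ∈ maximalIdeal P := by
    have h1 : (Polynomial.X ^ 2 - Polynomial.C t : Polynomial P).eval ε = -(t - 1) := by
      simp only [Polynomial.eval_sub, Polynomial.eval_pow, Polynomial.eval_X, Polynomial.eval_C]
      rw [hε]; ring
    rw [h1]
    exact neg_mem ht
  have hder : IsUnit (Ideal.Quotient.mk (maximalIdeal P)
      ((Polynomial.X ^ 2 - Polynomial.C t : Polynomial P).derivative.eval ε)) := by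
    have h1 : (Polynomial.X ^ 2 - Polynomial.C t : Polynomial P).derivative.eval ε = 2 * ε := by
      simp [one_add_one_eq_two]
    rw [h1]
    refine IsUnit.of_mul_eq_one (Ideal.Quotient.mk _ (i2 * ε)) ?_
    rw [← map_mul]
    have : 2 * ε * (i2 * ε) = 1 := by linear_combination ε ^ 2 * hi2 + hε
    rw [this, map_one]
  obtain ⟨a, ha, ha1⟩ := hH.is_henselian _ hmon ε hev hder
  refine ⟨a, ?_, ha1⟩
  rw [Polynomial.IsRoot.def] at ha
  simp only [Polynomial.eval_sub, Polynomial.eval_pow, Polynomial.eval_X, Polynomial.eval_C] at ha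
  linear_combination ha

/-- uniqueness of the square root `≡ ε`. -/
theorem s59l_sqrt_unique (a a' ε i2 : P) (hε : ε ^ 2 = 1) (hi2 : 2 * i2 = 1)
    (h : a ^ 2 = a' ^ 2) (ha : a - ε ∈ maximalIdeal P) (ha' : a' - ε ∈ maximalIdeal P) :
    a = a' := by
  have hu : IsUnit (a + a') := by
    by_contra hnu
    have hm : a + a' ∈ maximalIdeal P := hnu
    have h1 : 2 * ε ∈ maximalIdeal P := by
      have := Ideal.sub_mem _ (Ideal.sub_mem _ hm ha) ha'
      have e1 : a + a' - (a - ε) - (a' - ε) = 2 * ε := by ring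
      rwa [e1] at this
    have h2 : (1 : P) ∈ maximalIdeal P := by
      have e1 : (1 : P) = (i2 * ε) * (2 * ε) := by linear_combination -(ε ^ 2) * hi2 - hε
      rw [e1]
      exact Ideal.mul_mem_left _ _ h1
    exact (Ideal.ne_top_iff_one _).mp (maximalIdeal.isMaximal P).ne_top h2
  have h0 : (a - a') * (a + a') = 0 := by linear_combination h
  have := hu.mul_left_eq_zero.mp h0
  exact sub_eq_zero.mp this

end Sqrt

end Fermat.Agent.Lib.S59
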