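/-
[LOC] part 1 (helper4): the quadric `e² + bc = η` over a complete local domain.
`D := 𝔅⟦e,b,c⟧ ⧸ (e² + bc − θ²)` is a domain when `2θ ≠ 0`, `2 ∈ 𝔅ˣ`, `θ ∈ 𝔪`.
-/
import Mathlib
import Fermat.Agent.Lib.Deform.PowerSeries

set_option autoImplicit false

noncomputable section

namespace Fermat.Agent.Lib.S59

open IsLocalRing MvPowerSeries Fermat.Agent.Lib.Deform

/-! ### a quadratic extension `R[X]/(X² − g)` with `g` a non-square in `Frac R` is a domain -/

theorem s59l_quad_prime {R : Type*} [CommRing R] [IsDomain R] (g : R)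
    (hns : ∀ a b : R, a ^ 2 = g * b ^ 2 → b = 0) :
    (Ideal.span {(Polynomial.X ^ 2 - Polynomial.C g : Polynomial R)}).IsPrime := by
  classical
  set f : Polynomial R := Polynomial.X ^ 2 - Polynomial.C g with hf
  have hmon : f.Monic := Polynomial.monic_X_pow_sub_C g (by norm_num)
  have hdeg : f.natDegree = 2 := Polynomial.natDegree_X_pow_sub_C
  have hdeg' : f.degree = 2 := by
    rw [Polynomial.degree_eq_natDegree hmon.ne_zero, hdeg]; rfl
  -- the key computation on remainders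
  have key : ∀ a₁ b₁ a₂ b₂ : R,
      f ∣ (Polynomial.C b₁ * Polynomial.X + Polynomial.C a₁) *
        (Polynomial.C b₂ * Polynomial.X + Polynomial.C a₂) →
      (a₁ = 0 ∧ b₁ = 0) ∨ (a₂ = 0 ∧ b₂ = 0) := by
    intro a₁ b₁ a₂ b₂ hdvd
    have hsplit : (Polynomial.C b₁ * Polynomial.X + Polynomial.C a₁) *
        (Polynomial.C b₂ * Polynomial.X + Polynomial.C a₂) =
        Polynomial.C (b₁ * b₂) * f +
          (Polynomial.C (a₁ * b₂ + a₂ * b₁) * Polynomial.X +
            Polynomial.C (a₁ * a₂ + b₁ * b₂ * g)) := by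
      rw [hf]; simp only [map_mul, map_add]; ring
    rw [hsplit] at hdvd
    have hdvd2 : f ∣ Polynomial.C (a₁ * b₂ + a₂ * b₁) * Polynomial.X +
        Polynomial.C (a₁ * a₂ + b₁ * b₂ * g) :=
      (dvd_add_right (Dvd.dvd.mul_left (dvd_refl f) _)).mp hdvd
    have hz : Polynomial.C (a₁ * b₂ + a₂ * b₁) * Polynomial.X +
        Polynomial.C (a₁ * a₂ + b₁ * b₂ * g) = 0 := by
      refine Polynomial.eq_zero_of_dvd_of_degree_lt hdvd2 ?_
      rw [hdeg']
      refine lt_of_le_of_lt (Polynomial.degree_linear_le) ?_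
      norm_num
    have h1 : a₁ * b₂ + a₂ * b₁ = 0 := by
      have := congrArg (fun p => Polynomial.coeff p 1) hz
      simpa using this
    have h0 : a₁ * a₂ + b₁ * b₂ * g = 0 := by
      have := congrArg (fun p => Polynomial.coeff p 0) hz
      simpa using this
    have h3 : b₁ * (b₂ ^ 2 * g - a₂ ^ 2) = 0 := by
      have e1 : a₁ * b₂ = -(a₂ * b₁) := by linear_combination h1
      have : (a₁ * a₂ + b₁ * b₂ * g) * b₂ = 0 := by rw [h0, zero_mul]
      linear_combination this - a₂ * h1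
    rcases mul_eq_zero.mp h3 with hb1 | hsq
    · subst hb1
      simp only [mul_zero, add_zero, zero_mul] at h1 h0
      rcases mul_eq_zero.mp h1 with ha1 | hb2
      · exact Or.inl ⟨ha1, rfl⟩
      · rcases mul_eq_zero.mp h0 with ha1 | ha2
        · exact Or.inl ⟨ha1, rfl⟩
        · exact Or.inr ⟨ha2, hb2⟩
    · have hb2 : b₂ = 0 := hns a₂ b₂ (by linear_combination -hsq)
      subst hb2
      have : a₂ ^ 2 = 0 := by linear_combination -hsq
      exact Or.inr ⟨pow_eq_zero_iff (two_ne_zero) |>.mp this, rfl⟩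
  -- remainders are linear
  have hlin : ∀ p : Polynomial R, p %ₘ f =
      Polynomial.C ((p %ₘ f).coeff 1) * Polynomial.X + Polynomial.C ((p %ₘ f).coeff 0) := by
    intro p
    refine Polynomial.eq_X_add_C_of_degree_le_one ?_
    by_cases h0 : p %ₘ f = 0
    · rw [h0]; simp
    · have := Polynomial.degree_modByMonic_lt p hmon
      rw [hdeg', Polynomial.degree_eq_natDegree h0] at this
      have h2 : (p %ₘ f).natDegree < 2 := by exact_mod_cast this
      exact Polynomial.degree_le_of_natDegree_le (Nat.lt_succ_iff.mp h2)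
  rw [Ideal.span_singleton_prime hmon.ne_zero]
  refine ⟨hmon.ne_zero, ?_, ?_⟩
  · intro hu
    have := Polynomial.natDegree_eq_zero_of_isUnit hu
    omega
  · intro p₁ p₂ hdvd
    have h12 : f ∣ (p₁ %ₘ f) * (p₂ %ₘ f) := by
      have hr1 : p₁ %ₘ f = p₁ - f * (p₁ /ₘ f) :=
        eq_sub_of_add_eq (Polynomial.modByMonic_add_div p₁ f)
      have hr2 : p₂ %ₘ f = p₂ - f * (p₂ /ₘ f) :=
        eq_sub_of_add_eq (Polynomial.modByMonic_add_div p₂ f)
      have : (p₁ - f * (p₁ /ₘ f)) * (p₂ - f * (p₂ /ₘ f)) =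
          p₁ * p₂ - f * ((p₁ /ₘ f) * p₂ + (p₂ /ₘ f) * p₁ - f * (p₁ /ₘ f) * (p₂ /ₘ f)) := by ring
      rw [hr1, hr2, this]
      exact dvd_sub hdvd (Dvd.intro _ rfl)
    rw [hlin p₁, hlin p₂] at h12
    rcases key _ _ _ _ h12 with ⟨h0, h1⟩ | ⟨h0, h1⟩
    · left
      rw [← Polynomial.modByMonic_eq_zero_iff_dvd hmon, hlin p₁, h0, h1]; simp
    · right
      rw [← Polynomial.modByMonic_eq_zero_iff_dvd hmon, hlin p₂, h0, h1]; simp


/-! ### `θ² − bc` is not a square in `Frac 𝔅⟦b,c⟧` -/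

section NonSquare

variable {𝔅 : Type*} [CommRing 𝔅] [IsLocalRing 𝔅]

theorem s59l_C_mem {σ : Type*} {a : 𝔅} (ha : a ∈ maximalIdeal 𝔅) :
    (C a : MvPowerSeries σ 𝔅) ∈ maximalIdeal (MvPowerSeries σ 𝔅) := by
  rw [mem_maximalIdeal, mem_nonunits_iff, MvPowerSeries.isUnit_iff_constantCoeff, constantCoeff_C]
  exact ha

variable [IsAdicComplete (maximalIdeal 𝔅) 𝔅]

/-- the substitution `b ↦ θ + z + t`, `c ↦ θ + z − t`. -/
def s59l_tau (θ : 𝔅) (hθ : θ ∈ maximalIdeal 𝔅) :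
    MvPowerSeries (Fin 2) 𝔅 →ₐ[𝔅] MvPowerSeries (Fin 2) 𝔅 :=
  evalHom (maximalIdeal (MvPowerSeries (Fin 2) 𝔅))
    ![C θ + X 0 + X 1, C θ + X 0 - X 1] (by
      intro s
      fin_cases s
      · exact Ideal.add_mem _ (Ideal.add_mem _ (s59l_C_mem hθ) (X_mem_maximalIdeal 0))
          (X_mem_maximalIdeal 1)
      · exact Ideal.sub_mem _ (Ideal.add_mem _ (s59l_C_mem hθ) (X_mem_maximalIdeal 0))
          (X_mem_maximalIdeal 1))

/-- its inverse. -/
def s59l_tau' (θ : 𝔅) (hθ : θ ∈ maximalIdeal 𝔅) (i2 : 𝔅) :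
    MvPowerSeries (Fin 2) 𝔅 →ₐ[𝔅] MvPowerSeries (Fin 2) 𝔅 :=
  evalHom (maximalIdeal (MvPowerSeries (Fin 2) 𝔅))
    ![(X 0 + X 1) * C i2 - C θ, (X 0 - X 1) * C i2] (by
      intro s
      fin_cases s
      · exact Ideal.sub_mem _ (Ideal.mul_mem_right _ _
          (Ideal.add_mem _ (X_mem_maximalIdeal 0) (X_mem_maximalIdeal 1))) (s59l_C_mem hθ)
      · exact Ideal.mul_mem_right _ _
          (Ideal.sub_mem _ (X_mem_maximalIdeal 0) (X_mem_maximalIdeal 1)))

omit [IsLocalRing 𝔅] [IsAdicComplete (maximalIdeal 𝔅) 𝔅] in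
theorem s59l_algHom_C {σ : Type*} {A : Type*} [CommRing A] [Algebra 𝔅 A]
    (φ : MvPowerSeries σ 𝔅 →ₐ[𝔅] A) (a : 𝔅) : φ (C a) = algebraMap 𝔅 A a := by
  have : (C a : MvPowerSeries σ 𝔅) = algebraMap 𝔅 (MvPowerSeries σ 𝔅) a := by
    rw [MvPowerSeries.algebraMap_apply, Algebra.algebraMap_self, RingHom.id_apply]
  rw [this, φ.commutes]

theorem s59l_tau'_tau (θ : 𝔅) (hθ : θ ∈ maximalIdeal 𝔅) (i2 : 𝔅) (hi2 : 2 * i2 = 1) :
    (s59l_tau' θ hθ i2).comp (s59l_tau θ hθ) = AlgHom.id 𝔅 _ := by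
  have hC : ∀ a : 𝔅, algebraMap 𝔅 (MvPowerSeries (Fin 2) 𝔅) a = C a := by
    intro a
    rw [MvPowerSeries.algebraMap_apply, Algebra.algebraMap_self, RingHom.id_apply]
  have h2 : (2 : MvPowerSeries (Fin 2) 𝔅) * C i2 = 1 := by
    rw [← map_ofNat (C (σ := Fin 2) (R := 𝔅)) 2, ← map_mul, hi2, map_one]
  have key : ∀ s, ((s59l_tau' θ hθ i2).comp (s59l_tau θ hθ)) (X s) = X s := by
    intro s
    fin_cases s
    · simp only [AlgHom.comp_apply, s59l_tau, s59l_tau', evalHom_X, Fin.zero_eta, Fin.isValue,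
        Matrix.cons_val_zero, map_add, s59l_algHom_C, hC]
      simp only [Matrix.cons_val_one, Matrix.cons_val_zero]
      linear_combination (X 0 : MvPowerSeries (Fin 2) 𝔅) * h2
    · simp only [AlgHom.comp_apply, s59l_tau, s59l_tau', evalHom_X, Fin.mk_one, Fin.isValue,
        Matrix.cons_val_one, Matrix.cons_val_zero, map_add, map_sub, s59l_algHom_C, hC]
      linear_combination (X 1 : MvPowerSeries (Fin 2) 𝔅) * h2
  refine algHom_ext_of_X (maximalIdeal (MvPowerSeries (Fin 2) 𝔅)) ?_ ?_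
  · intro s
    rw [key]
    exact X_mem_maximalIdeal s
  · intro s
    rw [key]
    rfl

theorem s59l_tau_injective (θ : 𝔅) (hθ : θ ∈ maximalIdeal 𝔅) (i2 : 𝔅) (hi2 : 2 * i2 = 1) :
    Function.Injective (s59l_tau θ hθ) := by
  intro x y hxy
  have := congrArg (s59l_tau' θ hθ i2) hxy
  rw [← AlgHom.comp_apply, ← AlgHom.comp_apply, s59l_tau'_tau θ hθ i2 hi2] at this
  exact this

theorem s59l_nonsquare [IsDomain 𝔅] (θ : 𝔅) (hθ : θ ∈ maximalIdeal 𝔅) (hθ0 : θ ≠ 0) (i2 : 𝔅)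
    (hi2 : 2 * i2 = 1) (x y : MvPowerSeries (Fin 2) 𝔅)
    (h : x ^ 2 = (C (θ ^ 2) - X 0 * X 1) * y ^ 2) : y = 0 := by
  classical
  have h2θ : (2 : 𝔅) * θ ≠ 0 := by
    intro h0
    apply hθ0
    calc θ = (2 * θ) * i2 := by linear_combination -θ * hi2
      _ = 0 := by rw [h0, zero_mul]
  set τ := s59l_tau θ hθ with hτ
  have hg : τ (C (θ ^ 2) - X 0 * X 1) = X 1 ^ 2 - X 0 ^ 2 - C (2 * θ) * X 0 := by
    have hC : ∀ a : 𝔅, algebraMap 𝔅 (MvPowerSeries (Fin 2) 𝔅) a = C a := by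
      intro a
      rw [MvPowerSeries.algebraMap_apply, Algebra.algebraMap_self, RingHom.id_apply]
    rw [map_sub, map_mul, s59l_algHom_C, hC, hτ, s59l_tau, evalHom_X, evalHom_X]
    simp only [Fin.isValue, Matrix.cons_val_zero, Matrix.cons_val_one, map_pow, map_mul,
      map_ofNat]
    ring
  have hord : (X 1 ^ 2 - X 0 ^ 2 - C (2 * θ) * X 0 : MvPowerSeries (Fin 2) 𝔅).order = 1 := by
    have : ((1 : ℕ) : ℕ∞) = 1 := rfl
    rw [← this, order_eq_nat]
    refine ⟨⟨Finsupp.single 0 1, ?_, ?_⟩, ?_⟩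
    · rw [map_sub, map_sub, coeff_X_pow, coeff_X_pow, coeff_C_mul, coeff_X]
      simpa [Finsupp.single_eq_single_iff] using h2θ
    · simp
    · intro d hd
      have hd0 : d = 0 := by
        have : Finsupp.degree d = 0 := by omega
        exact (Finsupp.degree_eq_zero_iff d).mp this
      subst hd0
      rw [coeff_zero_eq_constantCoeff_apply]
      simp
  have h' := congrArg τ h
  rw [map_mul, hg, map_pow, map_pow] at h'
  have h'' : τ x * τ x = (X 1 ^ 2 - X 0 ^ 2 - C (2 * θ) * X 0) * (τ y * τ y) := by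
    rw [← pow_two, ← pow_two]; exact h'
  have ho := congrArg MvPowerSeries.order h''
  rw [order_mul, order_mul, order_mul, hord] at ho
  by_contra hy
  have hτy : τ y ≠ 0 := fun h0 =>
    hy (s59l_tau_injective θ hθ i2 hi2 (by rw [h0, map_zero]))
  obtain ⟨n, hn⟩ := ENat.ne_top_iff_exists.mp (fun h0 => hτy (order_eq_top_iff.mp h0))
  rw [← hn] at ho
  rcases hm : (τ x).order with _ | m
  · rw [hm] at ho
    have hne : (1 : ℕ∞) + ((n : ℕ∞) + n) ≠ ⊤ := by
      have : (1 : ℕ∞) + ((n : ℕ∞) + n) = ((1 + (n + n) : ℕ) : ℕ∞) := by push_cast; rfl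
      rw [this]
      exact ENat.natCast_ne_top _
    exact hne (by rw [← ho]; rfl)
  · rw [hm] at ho
    have : ((m + m : ℕ) : ℕ∞) = ((1 + (n + n) : ℕ) : ℕ∞) := by
      push_cast
      exact ho
    have := Nat.cast_injective this
    omega

end NonSquare


/-! ### the quadric `e² + bc − θ²` is a prime element of `𝔅⟦e,b,c⟧` -/

section Prime

variable {𝔅 : Type*} [CommRing 𝔅] [IsLocalRing 𝔅] [IsAdicComplete (maximalIdeal 𝔅) 𝔅] [IsDomain 𝔅]

/-- the quadric. -/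
def s59l_q0 (θ : 𝔅) : MvPowerSeries (Fin 3) 𝔅 := X 0 ^ 2 + X 1 * X 2 - C (θ ^ 2)

theorem s59l_prime (θ : 𝔅) (hθ : θ ∈ maximalIdeal 𝔅) (hθ0 : θ ≠ 0) (i2 : 𝔅)
    (hi2 : 2 * i2 = 1) : (Ideal.span {s59l_q0 θ}).IsPrime := by
  classical
  set A := MvPowerSeries (Fin 2) 𝔅 with hA
  have : IsDomain A := NoZeroDivisors.to_isDomain _
  set g₀ : A := C (θ ^ 2) - X 0 * X 1 with hg₀
  set f : Polynomial A := Polynomial.X ^ 2 - Polynomial.C g₀ with hf
  have hg₀m : g₀ ∈ maximalIdeal A :=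
    Ideal.sub_mem _ (s59l_C_mem (Ideal.pow_mem_of_mem _ hθ 2 (by norm_num)))
      (Ideal.mul_mem_left _ _ (X_mem_maximalIdeal 1))
  have hmon : f.Monic := Polynomial.monic_X_pow_sub_C g₀ (by norm_num)
  have hdeg : f.natDegree = 2 := Polynomial.natDegree_X_pow_sub_C
  have hdist : f.IsDistinguishedAt (maximalIdeal A) := by
    refine ⟨⟨?_⟩, hmon⟩
    intro n hn
    rw [hdeg] at hn
    interval_cases n
    · rw [hf]; simpa using hg₀m
    · rw [hf]; simp [Polynomial.coeff_X_pow]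
  have hp1 : (Ideal.span {f}).IsPrime :=
    s59l_quad_prime g₀ (fun a b hab => s59l_nonsquare θ hθ hθ0 i2 hi2 a b hab)
  have hd1 : IsDomain (Polynomial A ⧸ Ideal.span {f}) :=
    (Ideal.Quotient.isDomain_iff_prime _).mpr hp1
  have hd2 : IsDomain (PowerSeries A ⧸ Ideal.span {(f : PowerSeries A)}) :=
    MulEquiv.isDomain _ hdist.algEquivQuotient.symm.toMulEquiv
  have hp2 : (Ideal.span {(f : PowerSeries A)}).IsPrime :=
    (Ideal.Quotient.isDomain_iff_prime _).mp hd2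
  set e := MvPowerSeries.finSuccEquiv 𝔅 2 with he
  have heq : e (s59l_q0 θ) = (f : PowerSeries A) := by
    have h1 : e (X 1) = PowerSeries.C (X 0 : A) := finSuccEquiv_X_succ (R := 𝔅) (n := 2) 0
    have h2 : e (X 2) = PowerSeries.C (X 1 : A) := finSuccEquiv_X_succ (R := 𝔅) (n := 2) 1
    rw [s59l_q0, map_sub, map_add, map_pow, map_mul, he, finSuccEquiv_X_zero, ← he, h1, h2,
      finSuccEquiv_C, hf, Polynomial.coe_sub, Polynomial.coe_pow, Polynomial.coe_X,
      Polynomial.coe_C, hg₀, map_sub, map_mul]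
    ring
  have hcomap : Ideal.span {s59l_q0 θ} =
      Ideal.comap (e : MvPowerSeries (Fin 3) 𝔅 →+* PowerSeries A)
        (Ideal.span {(f : PowerSeries A)}) := by
    ext x
    rw [Ideal.mem_comap, Ideal.mem_span_singleton', Ideal.mem_span_singleton']
    constructor
    · rintro ⟨a, rfl⟩
      exact ⟨e a, by rw [← heq]; simp⟩
    · rintro ⟨b, hb⟩
      refine ⟨e.symm b, e.injective ?_⟩
      rw [map_mul, heq]
      simpa using hb
  rw [hcomap]
  exact Ideal.comap_isPrime _ _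

end Prime

end Fermat.Agent.Lib.S59
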