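/-
[LOC] part 2 (helper4): the type-χ local condition as an ideal `K` of `P = 𝔅⟦v⟧⟦w⟧`:
`K := ker (P → D⟦y⟧, v ↦ v̄, w ↦ y · v̄)`, `D := 𝔅⟦v⟧ ⧸ (e² + bc − θ²)`.
-/
import Mathlib
import Fermat.Agent.Lib.S59.LDom

set_option autoImplicit false

noncomputable section

namespace Fermat.Agent.Lib.S59

open IsLocalRing MvPowerSeries Fermat.Agent.Lib.Deform

section Defs

variable {𝔅 : Type*} [CommRing 𝔅]

/-- the index type of the `w`-variables (a copy of `Fin 3`, kept distinct from the index type of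
the `v`-variables so that `𝔅⟦v⟧⟦w⟧` has only ONE `𝔅⟦v⟧`-algebra structure in sight). -/
abbrev s59l_I : Type := ULift.{0} (Fin 3)

/-- the ring `P = 𝔅⟦v⟧⟦w⟧`. -/
abbrev s59l_P (𝔅 : Type*) [CommRing 𝔅] : Type _ := MvPowerSeries s59l_I (MvPowerSeries (Fin 3) 𝔅)

/-- the quadric ring `D = 𝔅⟦e,b,c⟧ ⧸ (e² + bc − θ²)`. -/
abbrev s59l_D (θ : 𝔅) : Type _ := MvPowerSeries (Fin 3) 𝔅 ⧸ Ideal.span {s59l_q0 θ}

/-- the monomial `V^d`. -/
def s59l_mon {ι : Type*} {C : Type*} [CommRing C] (V : ι → C) (d : ι →₀ ℕ) : C :=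
  d.prod fun s k => V s ^ k

theorem s59l_map_mon {ι : Type*} {C C' : Type*} [CommRing C] [CommRing C'] (φ : C →+* C')
    (V : ι → C) (d : ι →₀ ℕ) : φ (s59l_mon V d) = s59l_mon (fun i => φ (V i)) d := by
  rw [s59l_mon, s59l_mon, map_finsuppProd]
  simp only [map_pow]

/-- the image of the variable `v_i` in `D`. -/
def s59l_vbar (θ : 𝔅) (i : Fin 3) : s59l_D θ := Ideal.Quotient.mk _ (X i)

/-- the substitution `w_i ↦ y · v̄_i`. -/
def s59l_sub (θ : 𝔅) (i : s59l_I) : PowerSeries (s59l_D θ) :=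
  PowerSeries.C (s59l_vbar θ i.down) * PowerSeries.X

theorem s59l_hasSubst (θ : 𝔅) : HasSubst (s59l_sub θ) :=
  hasSubst_of_constantCoeff_zero (fun s => by
    show PowerSeries.constantCoeff (s59l_sub θ s) = 0
    simp [s59l_sub])

/-- `π : P → D⟦y⟧`. -/
def s59l_pi (θ : 𝔅) :
    s59l_P 𝔅 →ₐ[MvPowerSeries (Fin 3) 𝔅]
      PowerSeries (s59l_D θ) :=
  substAlgHom (s59l_hasSubst θ)

/-- the type-χ ideal. -/
def s59l_K (θ : 𝔅) : Ideal (s59l_P 𝔅) :=
  RingHom.ker (s59l_pi θ).toRingHom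

/-- the indices of degree `n`. -/
def s59l_deg (n : ℕ) : Finset (s59l_I →₀ ℕ) :=
  (Finsupp.finite_of_degree_eq (σ := s59l_I) n).toFinset

theorem s59l_mem_deg {n : ℕ} {d : s59l_I →₀ ℕ} : d ∈ s59l_deg n ↔ Finsupp.degree d = n := by
  simp [s59l_deg]

/-- the `n`-th diagonal component `δ_n F = ∑_{|d| = n} F_d · v^d ∈ 𝔅⟦v⟧`. -/
def s59l_delta (n : ℕ) (F : s59l_P 𝔅) :
    MvPowerSeries (Fin 3) 𝔅 :=
  ∑ d ∈ s59l_deg n, coeff d F * s59l_mon (fun i : s59l_I => (X i.down : MvPowerSeries (Fin 3) 𝔅)) d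

theorem s59l_sub_prod (θ : 𝔅) (d : s59l_I →₀ ℕ) :
    (d.prod fun s k => s59l_sub θ s ^ k) =
      PowerSeries.C (Ideal.Quotient.mk (Ideal.span {s59l_q0 θ})
        (s59l_mon (fun i : s59l_I => (X i.down : MvPowerSeries (Fin 3) 𝔅)) d)) *
        PowerSeries.X ^ Finsupp.degree d := by
  have h1 : ∀ s k, s59l_sub θ s ^ k =
      PowerSeries.C (s59l_vbar θ s.down ^ k) * PowerSeries.X ^ k := by
    intro s k
    rw [s59l_sub, mul_pow, map_pow]
  simp only [h1]
  rw [Finsupp.prod_mul, s59l_map_mon, s59l_mon, map_finsuppProd]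
  congr 1
  rw [Finsupp.prod, Finset.prod_pow_eq_pow_sum, Finsupp.degree_apply]

theorem s59l_coeff_pi (θ : 𝔅) (n : ℕ) (F : s59l_P 𝔅) :
    PowerSeries.coeff n (s59l_pi θ F) = Ideal.Quotient.mk _ (s59l_delta n F) := by
  classical
  rw [s59l_pi, substAlgHom_apply, PowerSeries.coeff, coeff_subst (s59l_hasSubst θ)]
  simp only [s59l_sub_prod]
  rw [s59l_delta, map_sum]
  rw [finsum_eq_sum_of_support_subset (s := s59l_deg n)]
  · refine Finset.sum_congr rfl fun d hd => ?_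
    rw [s59l_mem_deg] at hd
    rw [← PowerSeries.coeff, PowerSeries.coeff_C_mul, PowerSeries.coeff_X_pow, if_pos hd.symm,
      mul_one, Algebra.smul_def, map_mul]
    rfl
  · intro d hd
    rw [Function.mem_support] at hd
    rw [Finset.mem_coe, s59l_mem_deg]
    by_contra hne
    apply hd
    rw [← PowerSeries.coeff, PowerSeries.coeff_C_mul, PowerSeries.coeff_X_pow,
      if_neg (fun h => hne h.symm), mul_zero, smul_zero]

theorem s59l_mem_K_iff (θ : 𝔅) (F : s59l_P 𝔅) :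
    F ∈ s59l_K θ ↔ ∀ n, s59l_delta n F ∈ Ideal.span {s59l_q0 θ} := by
  rw [s59l_K, RingHom.mem_ker]
  constructor
  · intro h n
    rw [← Ideal.Quotient.eq_zero_iff_mem, ← s59l_coeff_pi]
    have h' : s59l_pi θ F = 0 := h
    rw [h', map_zero]
  · intro h
    ext n
    rw [AlgHom.toRingHom_eq_coe, RingHom.coe_coe, s59l_coeff_pi, map_zero,
      Ideal.Quotient.eq_zero_iff_mem]
    exact h n

/-! ### the relations lie in `K` -/

theorem s59l_pi_C (θ : 𝔅) (c : MvPowerSeries (Fin 3) 𝔅) :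
    s59l_pi θ (C c) = PowerSeries.C (Ideal.Quotient.mk (Ideal.span {s59l_q0 θ}) c) := by
  have h1 : (C c : s59l_P 𝔅) = algebraMap (MvPowerSeries (Fin 3) 𝔅) (s59l_P 𝔅) c := by
    rw [MvPowerSeries.algebraMap_apply, Algebra.algebraMap_self, RingHom.id_apply]
  rw [h1, AlgHom.commutes, MvPowerSeries.algebraMap_apply]
  rfl

theorem s59l_pi_X (θ : 𝔅) (i : s59l_I) :
    s59l_pi θ (X i) = PowerSeries.C (s59l_vbar θ i.down) * PowerSeries.X := by
  rw [s59l_pi, substAlgHom_X]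
  rfl

theorem s59l_q0_mem_K (θ : 𝔅) : (C (s59l_q0 θ) : s59l_P 𝔅) ∈ s59l_K θ := by
  rw [s59l_K, RingHom.mem_ker]
  show s59l_pi θ (C (s59l_q0 θ)) = 0
  rw [s59l_pi_C, Ideal.Quotient.eq_zero_iff_mem.mpr (Ideal.mem_span_singleton_self _), map_zero]

theorem s59l_minor_mem_K (θ : 𝔅) (i j : s59l_I) :
    (X i * C (X j.down) - X j * C (X i.down) : s59l_P 𝔅) ∈ s59l_K θ := by
  rw [s59l_K, RingHom.mem_ker]
  show s59l_pi θ (X i * C (X j.down) - X j * C (X i.down)) = 0
  rw [map_sub, map_mul, map_mul, s59l_pi_C, s59l_pi_C, s59l_pi_X, s59l_pi_X, s59l_vbar, s59l_vbar]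
  ring

end Defs


/-! ### (K-kill): type-χ pairs over `θ`-torsion-free separated rings kill `K` -/

section Kill

variable {𝔅 : Type*} [CommRing 𝔅]

theorem s59l_mon_smul {ι : Type*} {C : Type*} [CommRing C] (c : C) (V : ι → C) (d : ι →₀ ℕ) :
    s59l_mon (fun i => c * V i) d = c ^ Finsupp.degree d * s59l_mon V d := by
  rw [s59l_mon, s59l_mon]
  simp only [mul_pow]
  rw [Finsupp.prod_mul]
  congr 1
  rw [Finsupp.prod, Finset.prod_pow_eq_pow_sum, Finsupp.degree_apply]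

/-- the truncation of `F` in `w`-degree `< m`. -/
def s59l_tr (m : ℕ) (F : s59l_P 𝔅) : s59l_P 𝔅 :=
  ∑ n ∈ Finset.range m, ∑ d ∈ s59l_deg n, monomial d (coeff d F)

theorem s59l_coeff_tr (m : ℕ) (F : s59l_P 𝔅) (e : s59l_I →₀ ℕ) :
    coeff e (s59l_tr m F) = if Finsupp.degree e < m then coeff e F else 0 := by
  classical
  rw [s59l_tr, map_sum]
  simp only [map_sum, coeff_monomial]
  by_cases h : Finsupp.degree e < m
  · rw [if_pos h, Finset.sum_eq_single (Finsupp.degree e)]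
    · rw [Finset.sum_eq_single e]
      · rw [if_pos rfl]
      · intro d _ hde
        rw [if_neg (Ne.symm hde)]
      · intro he
        exact absurd (s59l_mem_deg.mpr rfl) he
    · intro n _ hn
      refine Finset.sum_eq_zero fun d hd => ?_
      rw [s59l_mem_deg] at hd
      rw [if_neg]
      rintro rfl
      exact hn hd.symm
    · intro hm
      exact absurd (Finset.mem_range.mpr h) hm
  · rw [if_neg h]
    refine Finset.sum_eq_zero fun n hn => Finset.sum_eq_zero fun d hd => ?_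
    rw [s59l_mem_deg] at hd
    rw [if_neg]
    rintro rfl
    exact h (hd ▸ Finset.mem_range.mp hn)

theorem s59l_sub_tr_mem (m : ℕ) (F : s59l_P 𝔅) :
    F - s59l_tr m F ∈ (Ideal.span (Set.range (X : s59l_I → s59l_P 𝔅))) ^ m := by
  refine mem_span_X_pow_of_coeff_eq_zero fun d hd => ?_
  rw [map_sub, s59l_coeff_tr, if_pos hd, sub_self]

theorem s59l_K_kill (θ : 𝔅) {C : Type*} [CommRing C] (I : Ideal C) [IsHausdorff I C]
    (φ : s59l_P 𝔅 →+* C) (hW : ∀ i, φ (X i) ∈ I)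
    (hq : φ (MvPowerSeries.C (s59l_q0 θ)) = 0)
    (hmin : ∀ i j : s59l_I, φ (X i) * φ (MvPowerSeries.C (X j.down)) =
      φ (X j) * φ (MvPowerSeries.C (X i.down)))
    (hθ : ∀ x : C, φ (MvPowerSeries.C (MvPowerSeries.C θ)) * x = 0 → x = 0)
    (F : s59l_P 𝔅) (hF : F ∈ s59l_K θ) : φ F = 0 := by
  classical
  set ψ : MvPowerSeries (Fin 3) 𝔅 →+* C := φ.comp (MvPowerSeries.C (σ := s59l_I)) with hψ
  set V : s59l_I → C := fun i => ψ (X i.down) with hV
  set W : s59l_I → C := fun i => φ (X i) with hWd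
  set θ' : C := ψ (MvPowerSeries.C θ) with hθ'
  -- the components
  set Δ : ℕ → C := fun n => ∑ d ∈ s59l_deg n, ψ (coeff d F) * s59l_mon W d with hΔ
  have hδ : ∀ n, ψ (s59l_delta n F) = 0 := by
    intro n
    obtain ⟨G, hG⟩ := Ideal.mem_span_singleton'.mp ((s59l_mem_K_iff θ F).mp hF n)
    rw [← hG, map_mul]
    have : ψ (s59l_q0 θ) = 0 := hq
    rw [this, mul_zero]
  have hδ' : ∀ n, ψ (s59l_delta n F) = ∑ d ∈ s59l_deg n, ψ (coeff d F) * s59l_mon V d := by
    intro n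
    rw [s59l_delta, map_sum]
    refine Finset.sum_congr rfl fun d _ => ?_
    rw [map_mul, s59l_map_mon]
  -- `V_j ^ n • Δ_n = W_j ^ n • ψ (δ_n F) = 0`
  have hVΔ : ∀ (j : s59l_I) (n : ℕ), V j ^ n * Δ n = 0 := by
    intro j n
    have : V j ^ n * Δ n = W j ^ n * ψ (s59l_delta n F) := by
      rw [hδ', hΔ, Finset.mul_sum, Finset.mul_sum]
      refine Finset.sum_congr rfl fun d hd => ?_
      rw [s59l_mem_deg] at hd
      have e1 : V j ^ n * s59l_mon W d = s59l_mon (fun i => V j * W i) d := by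
        rw [s59l_mon_smul, hd]
      have e2 : W j ^ n * s59l_mon V d = s59l_mon (fun i => W j * V i) d := by
        rw [s59l_mon_smul, hd]
      have e3 : (fun i => V j * W i) = fun i => W j * V i := by
        funext i
        have := hmin i j
        show ψ (X j.down) * φ (X i) = φ (X j) * ψ (X i.down)
        rw [hψ, RingHom.comp_apply, RingHom.comp_apply]
        linear_combination this
      calc V j ^ n * (ψ (coeff d F) * s59l_mon W d)
          = ψ (coeff d F) * (V j ^ n * s59l_mon W d) := by ring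
        _ = ψ (coeff d F) * (W j ^ n * s59l_mon V d) := by rw [e1, e3, ← e2]
        _ = W j ^ n * (ψ (coeff d F) * s59l_mon V d) := by ring
    rw [this, hδ, mul_zero]
  -- `θ'² = V₀² + V₁ V₂`
  have hθsq : θ' ^ 2 = V ⟨0⟩ ^ 2 + V ⟨1⟩ * V ⟨2⟩ := by
    have : ψ (s59l_q0 θ) = 0 := hq
    simp only [s59l_q0, map_sub, map_add, map_pow, map_mul] at this
    show ψ (MvPowerSeries.C θ) ^ 2 = ψ (X 0) ^ 2 + ψ (X 1) * ψ (X 2)
    linear_combination -this
  have hθpow : ∀ (k : ℕ) (x : C), θ' ^ k * x = 0 → x = 0 := by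
    intro k
    induction k with
    | zero => intro x hx; simpa using hx
    | succ k ih =>
      intro x hx
      refine ih x (hθ _ ?_)
      show θ' * (θ' ^ k * x) = 0
      rw [← hx]; ring
  have hΔ0 : ∀ n, Δ n = 0 := by
    intro n
    refine hθpow (2 * (2 * n)) _ ?_
    rw [pow_mul, hθsq, add_pow, Finset.sum_mul]
    refine Finset.sum_eq_zero fun k hk => ?_
    rw [Finset.mem_range] at hk
    by_cases hkn : n ≤ k
    · have : (V ⟨0⟩ ^ 2) ^ k = V ⟨0⟩ ^ (2 * k - n) * V ⟨0⟩ ^ n := by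
        rw [← pow_mul, ← pow_add]; congr 1; omega
      rw [this]
      calc V ⟨0⟩ ^ (2 * k - n) * V ⟨0⟩ ^ n * (V ⟨1⟩ * V ⟨2⟩) ^ (2 * n - k) * ((2 * n).choose k : C)
            * Δ n
          = V ⟨0⟩ ^ (2 * k - n) * (V ⟨1⟩ * V ⟨2⟩) ^ (2 * n - k) * ((2 * n).choose k : C)
            * (V ⟨0⟩ ^ n * Δ n) := by ring
        _ = 0 := by rw [hVΔ, mul_zero]
    · have : (V ⟨1⟩ * V ⟨2⟩) ^ (2 * n - k) =
          V ⟨1⟩ ^ (2 * n - k - n) * V ⟨2⟩ ^ (2 * n - k) * V ⟨1⟩ ^ n := by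
        rw [mul_pow, mul_right_comm, ← pow_add]; congr 2; omega
      rw [this]
      calc (V ⟨0⟩ ^ 2) ^ k * (V ⟨1⟩ ^ (2 * n - k - n) * V ⟨2⟩ ^ (2 * n - k) * V ⟨1⟩ ^ n) *
            ((2 * n).choose k : C) * Δ n
          = (V ⟨0⟩ ^ 2) ^ k * (V ⟨1⟩ ^ (2 * n - k - n) * V ⟨2⟩ ^ (2 * n - k)) *
            ((2 * n).choose k : C) * (V ⟨1⟩ ^ n * Δ n) := by ring
        _ = 0 := by rw [hVΔ, mul_zero]
  -- `φ` of the truncations vanishes
  have htr : ∀ m, φ (s59l_tr m F) = 0 := by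
    intro m
    rw [s59l_tr, map_sum]
    refine Finset.sum_eq_zero fun n _ => ?_
    rw [map_sum, ← hΔ0 n]
    refine Finset.sum_congr rfl fun d _ => ?_
    rw [monomial_eq', map_mul, ← s59l_mon, s59l_map_mon]
    rfl
  -- conclusion
  refine eq_of_forall_sub_mem_pow I (y := 0) fun m => ?_
  rw [sub_zero]
  have h1 : φ F = φ (F - s59l_tr m F) := by rw [map_sub, htr, sub_zero]
  rw [h1]
  have h2 := Ideal.mem_map_of_mem φ (s59l_sub_tr_mem m F)
  rw [Ideal.map_pow] at h2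
  refine Ideal.pow_right_mono ?_ m h2
  rw [Ideal.map_span, Ideal.span_le]
  rintro _ ⟨_, ⟨i, rfl⟩, rfl⟩
  exact hW i

end Kill


/-! ### `K ⊆ (θ², v)`: the unramified locus modulo `θ` lies on the type-χ component -/

section Unr

variable {𝔅 : Type*} [CommRing 𝔅]

theorem s59l_degree_le_of_le {σ : Type*} {a e : σ →₀ ℕ} (hae : a ≤ e) :
    Finsupp.degree a ≤ Finsupp.degree e := by
  have h1 : a + (e - a) = e := add_tsub_cancel_of_le hae
  have h2 : Finsupp.degree a + Finsupp.degree (e - a) = Finsupp.degree e := by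
    rw [← map_add, h1]
  omega

theorem s59l_eq_of_le_of_degree_le {σ : Type*} {a e : σ →₀ ℕ} (hae : a ≤ e)
    (hdeg : Finsupp.degree e ≤ Finsupp.degree a) : a = e := by
  have h1 : a + (e - a) = e := add_tsub_cancel_of_le hae
  have h2 : Finsupp.degree a + Finsupp.degree (e - a) = Finsupp.degree e := by
    rw [← map_add, h1]
  have h3 : Finsupp.degree (e - a) = 0 := by omega
  rw [Finsupp.degree_eq_zero_iff] at h3
  rw [h3, add_zero] at h1
  exact h1

theorem s59l_K_le [IsDomain 𝔅] (θ : 𝔅) (hθ0 : θ ≠ 0) (F : s59l_P 𝔅) (hF : F ∈ s59l_K θ)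
    (d : s59l_I →₀ ℕ) : constantCoeff (coeff d F) ∈ Ideal.span {θ ^ 2} := by
  classical
  set n := Finsupp.degree d with hn
  obtain ⟨G, hG⟩ := Ideal.mem_span_singleton'.mp ((s59l_mem_K_iff θ F).mp hF n)
  -- the monomials in `v`
  have hmon : ∀ d' : s59l_I →₀ ℕ,
      s59l_mon (fun i : s59l_I => (X i.down : MvPowerSeries (Fin 3) 𝔅)) d' =
        monomial (Finsupp.mapDomain ULift.down d') 1 := by
    intro d'
    rw [monomial_mapDomain_apply_one]
    rfl
  have hdegm : ∀ d' : s59l_I →₀ ℕ,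
      Finsupp.degree (Finsupp.mapDomain ULift.down d') = Finsupp.degree d' :=
    fun d' => Finsupp.degree_mapDomain _ _
  -- coefficients of `δ_n F`
  have hcoeff : ∀ e : Fin 3 →₀ ℕ, coeff e (s59l_delta n F) =
      ∑ d' ∈ s59l_deg n, if Finsupp.mapDomain ULift.down d' ≤ e then
        coeff (e - Finsupp.mapDomain ULift.down d') (coeff d' F) else 0 := by
    intro e
    rw [s59l_delta, map_sum]
    refine Finset.sum_congr rfl fun d' _ => ?_
    rw [hmon, coeff_mul_monomial, mul_one]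
  -- `δ_n F` has order `≥ n`
  have hlow : ∀ e : Fin 3 →₀ ℕ, Finsupp.degree e < n → coeff e (s59l_delta n F) = 0 := by
    intro e he
    rw [hcoeff]
    refine Finset.sum_eq_zero fun d' hd' => ?_
    rw [s59l_mem_deg] at hd'
    rw [if_neg]
    intro hle
    have := s59l_degree_le_of_le hle
    rw [hdegm, hd'] at this
    omega
  -- hence `G` has order `≥ n`
  have hq0 : constantCoeff (s59l_q0 θ) = -θ ^ 2 := by
    simp [s59l_q0]
  have hq0ne : constantCoeff (s59l_q0 θ) ≠ 0 := by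
    rw [hq0]
    exact neg_ne_zero.mpr (pow_ne_zero 2 hθ0)
  have hordq : (s59l_q0 θ).order = 0 := by
    by_contra h
    exact hq0ne (order_ne_zero_iff_constCoeff_eq_zero.mp h)
  have hordG : (n : ℕ∞) ≤ G.order := by
    have h1 : (n : ℕ∞) ≤ (s59l_delta n F).order := nat_le_order hlow
    rw [← hG, order_mul, hordq, add_zero] at h1
    exact h1
  have hGlow : ∀ a : Fin 3 →₀ ℕ, Finsupp.degree a < n → coeff a G = 0 := by
    intro a ha
    refine coeff_of_lt_order ?_
    exact lt_of_lt_of_le (by exact_mod_cast ha) hordG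
  -- compare the coefficients at `e₀`
  set e₀ := Finsupp.mapDomain ULift.down d with he₀
  have hdege₀ : Finsupp.degree e₀ = n := hdegm d
  have hinj : Function.Injective (Finsupp.mapDomain (M := ℕ) (ULift.down : s59l_I → Fin 3)) :=
    Finsupp.mapDomain_injective ULift.down_injective
  have hL : coeff e₀ (s59l_delta n F) = constantCoeff (coeff d F) := by
    rw [hcoeff, Finset.sum_eq_single d]
    · rw [if_pos le_rfl, tsub_self, coeff_zero_eq_constantCoeff_apply]
    · intro d' hd' hne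
      rw [s59l_mem_deg] at hd'
      rw [if_neg]
      intro hle
      have := s59l_eq_of_le_of_degree_le hle
        (hdege₀.trans (hd'.symm.trans (hdegm d').symm)).le
      exact hne (hinj this)
    · intro hd
      exact absurd (s59l_mem_deg.mpr rfl) hd
  have hR : coeff e₀ (G * s59l_q0 θ) = coeff e₀ G * (-θ ^ 2) := by
    rw [coeff_mul, Finset.sum_eq_single (e₀, 0)]
    · rw [coeff_zero_eq_constantCoeff_apply, hq0]
    · rintro ⟨a, b⟩ hab hne
      rw [Finset.HasAntidiagonal.mem_antidiagonal] at hab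
      by_cases ha : Finsupp.degree a < n
      · rw [hGlow a ha, zero_mul]
      · exfalso
        apply hne
        have hae : a ≤ e₀ := by rw [← hab]; exact le_self_add
        have : a = e₀ := s59l_eq_of_le_of_degree_le hae (by rw [hdege₀]; omega)
        rw [this] at hab
        have hb : b = 0 := by
          have h' : e₀ + b = e₀ + 0 := by rw [hab, add_zero]
          exact add_left_cancel h'
        rw [this, hb]
    · intro h
      exact absurd (Finset.HasAntidiagonal.mem_antidiagonal.mpr (add_zero e₀)) h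
  rw [← hL, ← hG, hR, Ideal.mem_span_singleton']
  exact ⟨-coeff e₀ G, by ring⟩

end Unr

end Fermat.Agent.Lib.S59
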