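/-
(R) S59, node (H6) (helper4, prefix `s59c_`), part 1: general tools for the compactness step of
patching.

* `s59c_cluster`         : a sequence in a product of finite sets has a cluster point;
* `s59c_exists_cluster`  : a sequence of tuples in an `I`-adically precomplete ring with finite
                           quotients `A ⧸ I ^ n` has a cluster point;
* `s59c_algHom_sub_mem`  : two algebra maps out of a power series ring which agree on the variables
                           modulo `I ^ n` agree modulo `I ^ n`;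
* `s59c_pow_card_smul_top`: a finite module `X` over a local ring is killed by `𝔪 ^ #X`;
* `s59c_isPrecomplete_of_finite`: a finite module over an `I`-adically precomplete ring is
                           `I`-adically precomplete.
-/
import Mathlib
import Fermat.Agent.Lib.Deform.PowerSeries

set_option autoImplicit false

namespace Fermat.Agent.Lib.S59

open IsLocalRing MvPowerSeries Fermat.Agent.Lib.Deform

/-! ### cluster points -/

/-- a sequence in a product of finite sets has a cluster point. -/
theorem s59c_cluster {P : ℕ → Type*} [∀ n, Finite (P n)] (F : ℕ → ∀ n, P n) :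
    ∃ x : ∀ n, P n, ∀ n, ∃ m, n ≤ m ∧ ∀ k ≤ n, F m k = x k := by
  classical
  let _ : ∀ n, TopologicalSpace (P n) := fun _ => ⊥
  have : ∀ n, DiscreteTopology (P n) := fun _ => ⟨rfl⟩
  obtain ⟨x, hx⟩ := exists_clusterPt_of_compactSpace (Filter.map F Filter.atTop)
  refine ⟨x, fun n => ?_⟩
  have hopen : IsOpen {y : ∀ n, P n | ∀ k ≤ n, y k = x k} := by
    have : {y : ∀ n, P n | ∀ k ≤ n, y k = x k} = Set.pi (Set.Iic n) (fun k => {x k}) := by
      ext y; simp [Set.mem_pi]
    rw [this]
    exact isOpen_set_pi (Set.finite_Iic n) (fun k _ => isOpen_discrete _)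
  have hmem : {y : ∀ n, P n | ∀ k ≤ n, y k = x k} ∈ nhds x := hopen.mem_nhds (fun k _ => rfl)
  have hfreq := hx.frequently hmem
  rw [Filter.frequently_map, Filter.frequently_atTop] at hfreq
  obtain ⟨m, hm, h⟩ := hfreq n
  exact ⟨m, hm, h⟩

/-- a sequence of tuples in an `I`-adically precomplete ring with finite quotients has a cluster
point. -/
theorem s59c_exists_cluster {A : Type*} [CommRing A] (I : Ideal A) [IsPrecomplete I A]
    [∀ n, Finite (A ⧸ I ^ n)] {ι : Type*} [Finite ι] (c : ℕ → ι → A) :
    ∃ c' : ι → A, ∀ n, ∃ m, n ≤ m ∧ ∀ i, c m i - c' i ∈ I ^ n := by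
  obtain ⟨x, hx⟩ := s59c_cluster (P := fun n => ι → A ⧸ I ^ n)
    (fun m n i => Ideal.Quotient.mk (I ^ n) (c m i))
  choose m hm hmx using hx
  have hprec : ∀ i, ∃ L : A, ∀ n, c (m n) i ≡ L [SMOD (I ^ n • ⊤ : Submodule A A)] := by
    intro i
    refine IsPrecomplete.prec' (I := I) (fun n => c (m n) i) ?_
    intro n n' hnn'
    rw [SModEq.sub_mem, smul_eq_mul, Ideal.mul_top, ← Ideal.Quotient.eq]
    have h1 := congrFun (hmx n n le_rfl) i
    have h2 := congrFun (hmx n' n hnn') i
    exact h1.trans h2.symm
  choose L hL using hprec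
  refine ⟨L, fun n => ⟨m n, hm n, fun i => ?_⟩⟩
  have := hL i n
  rwa [SModEq.sub_mem, smul_eq_mul, Ideal.mul_top] at this

/-! ### agreement of algebra maps out of a power series ring -/

section agree

variable {σ : Type*} [Finite σ] {R : Type*} [CommRing R]
variable {A : Type*} [CommRing A] [Algebra R A] (I : Ideal A)

omit [Finite σ] in
theorem s59c_aeval_sub_mem {J : Ideal A} {a a' : σ → A} (h : ∀ s, a s - a' s ∈ J)
    (p : MvPolynomial σ R) : MvPolynomial.aeval a p - MvPolynomial.aeval a' p ∈ J := by
  rw [← Ideal.Quotient.eq, ← Ideal.Quotient.mkₐ_eq_mk R, ← AlgHom.comp_apply, ← AlgHom.comp_apply,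
    MvPolynomial.comp_aeval, MvPolynomial.comp_aeval]
  congr 2
  funext s
  rw [Ideal.Quotient.mkₐ_eq_mk, Ideal.Quotient.eq]
  exact h s

/-- two algebra maps out of a power series ring which agree on the variables modulo `I ^ n`
(and send them into `I`) agree modulo `I ^ n`. -/
theorem s59c_algHom_sub_mem (φ φ' : MvPowerSeries σ R →ₐ[R] A) (hφ : ∀ s, φ (X s) ∈ I)
    (hφ' : ∀ s, φ' (X s) ∈ I) {n : ℕ} (h : ∀ s, φ (X s) - φ' (X s) ∈ I ^ n)
    (f : MvPowerSeries σ R) : φ f - φ' f ∈ I ^ n := by
  have hsplit : f = (truncTotal n f : MvPowerSeries σ R) +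
      (f - (truncTotal n f : MvPowerSeries σ R)) := by ring
  have hg : ∀ d : σ →₀ ℕ, Finsupp.degree d < n →
      coeff d (f - (truncTotal n f : MvPowerSeries σ R)) = 0 := by
    intro d hd
    rw [map_sub, MvPolynomial.coeff_coe, coeff_truncTotal _ hd, sub_self]
  have hpoly : φ (truncTotal n f : MvPowerSeries σ R) - φ' (truncTotal n f : MvPowerSeries σ R)
      ∈ I ^ n := by
    rw [algHom_coe, algHom_coe]
    exact s59c_aeval_sub_mem h _
  have e : φ f - φ' f = (φ (truncTotal n f : MvPowerSeries σ R) -
      φ' (truncTotal n f : MvPowerSeries σ R)) +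
      (φ (f - (truncTotal n f : MvPowerSeries σ R)) -
        φ' (f - (truncTotal n f : MvPowerSeries σ R))) := by
    rw [map_sub, map_sub]; ring
  rw [e]
  exact Ideal.add_mem _ hpoly (Ideal.sub_mem _ (algHom_mem_pow_of_coeff_eq_zero I φ hφ hg)
    (algHom_mem_pow_of_coeff_eq_zero I φ' hφ' hg))

end agree

/-! ### finite modules over a local ring -/

/-- a finite module `X` over a local ring is killed by `𝔪 ^ #X`. -/
theorem s59c_pow_card_smul_top {A X : Type*} [CommRing A] [IsLocalRing A] [AddCommGroup X]
    [Module A X] [Finite X] :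
    (maximalIdeal A ^ Nat.card X) • (⊤ : Submodule A X) = ⊥ := by
  have key : ∀ j : ℕ, (maximalIdeal A ^ j) • (⊤ : Submodule A X) = ⊥ ∨
      Nat.card ((maximalIdeal A ^ j) • (⊤ : Submodule A X) : Submodule A X) + j ≤ Nat.card X := by
    intro j
    induction j with
    | zero =>
      right
      rw [pow_zero, Ideal.one_eq_top, Submodule.top_smul, add_zero]
      exact le_of_eq (Nat.card_congr (Equiv.Set.univ X))
    | succ j ih =>
      have hstep : (maximalIdeal A ^ (j + 1)) • (⊤ : Submodule A X) =
          maximalIdeal A • ((maximalIdeal A ^ j) • (⊤ : Submodule A X)) := by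
        rw [pow_succ', Submodule.mul_smul]
      rcases ih with h0 | hcard
      · left
        rw [hstep, h0, Submodule.smul_bot]
      · by_cases hb : (maximalIdeal A ^ (j + 1)) • (⊤ : Submodule A X) = ⊥
        · exact Or.inl hb
        right
        set Y := (maximalIdeal A ^ j) • (⊤ : Submodule A X) with hY
        set Y' := (maximalIdeal A ^ (j + 1)) • (⊤ : Submodule A X) with hY'
        have hle : Y' ≤ Y := by rw [hstep]; exact Submodule.smul_le_right
        have hne : Y' ≠ Y := by
          intro heq
          apply hb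
          have hfg : Y.FG := IsNoetherian.noetherian Y
          have : Y = ⊥ := Submodule.eq_bot_of_le_smul_of_le_jacobson_bot (maximalIdeal A) Y hfg
            (by rw [← hstep, heq]) (maximalIdeal_le_jacobson _)
          rw [heq, this]
        have hlt : Y' < Y := lt_of_le_of_ne hle hne
        have hcardlt : Nat.card Y' < Nat.card Y := by
          rw [← SetLike.coe_sort_coe Y', ← SetLike.coe_sort_coe Y, Nat.card_coe_set_eq,
            Nat.card_coe_set_eq]
          exact Set.ncard_lt_ncard (SetLike.coe_ssubset_coe.mpr hlt) (Set.toFinite _)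
        omega
  rcases key (Nat.card X) with h | h
  · exact h
  · exfalso
    have hpos : 0 < Nat.card ((maximalIdeal A ^ Nat.card X) • (⊤ : Submodule A X) :
        Submodule A X) := Nat.card_pos
    omega

/-! ### precompleteness of finite modules -/

/-- a finite module over an `I`-adically precomplete ring is `I`-adically precomplete. -/
theorem s59c_isPrecomplete_of_finite {A M : Type*} [CommRing A] (I : Ideal A) [IsPrecomplete I A]
    [AddCommGroup M] [Module A M] [Module.Finite A M] : IsPrecomplete I M := by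
  classical
  obtain ⟨t, x, hx⟩ := Module.Finite.exists_fin (R := A) (M := M)
  refine ⟨fun f hf => ?_⟩
  have hdiff : ∀ n, ∃ c : Fin t → A, (∀ i, c i ∈ I ^ n) ∧ f (n + 1) - f n = ∑ i, c i • x i := by
    intro n
    have h1 : f (n + 1) - f n ∈ (I ^ n • ⊤ : Submodule A M) := by
      have := (hf (Nat.le_succ n)).symm
      rwa [SModEq.sub_mem] at this
    rw [← hx, Submodule.mem_ideal_smul_span_iff_exists_sum] at h1
    obtain ⟨a, ha, hsum⟩ := h1
    refine ⟨fun i => a i, ha, ?_⟩
    rw [← hsum, Finsupp.sum_fintype]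
    intro i; rw [zero_smul]
  choose c hcI hc using hdiff
  have hs : ∀ i, ∃ L : A, ∀ n, (∑ k ∈ Finset.range n, c k i) ≡ L
      [SMOD (I ^ n • ⊤ : Submodule A A)] := by
    intro i
    refine IsPrecomplete.prec' (I := I) (fun n => ∑ k ∈ Finset.range n, c k i) ?_
    intro n n' hnn'
    rw [SModEq.sub_mem, smul_eq_mul, Ideal.mul_top]
    have : ∑ k ∈ Finset.range n, c k i - ∑ k ∈ Finset.range n', c k i =
        -∑ k ∈ Finset.Ico n n', c k i := by
      rw [Finset.sum_Ico_eq_sub _ hnn']; ring
    rw [this]
    refine Ideal.neg_mem_iff _ |>.mpr (Ideal.sum_mem _ fun k hk => ?_)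
    exact Ideal.pow_le_pow_right (Finset.mem_Ico.mp hk).1 (hcI k i)
  choose L hL using hs
  have hfn : ∀ n, f n = f 0 + ∑ i, (∑ k ∈ Finset.range n, c k i) • x i := by
    intro n
    induction n with
    | zero => simp
    | succ n ih =>
      have e1 : f (n + 1) = f n + ∑ i, c n i • x i := by rw [← hc n]; abel
      rw [e1, ih, add_assoc, ← Finset.sum_add_distrib]
      congr 1
      refine Finset.sum_congr rfl fun i _ => ?_
      rw [Finset.sum_range_succ, add_smul]
  refine ⟨f 0 + ∑ i, L i • x i, fun n => ?_⟩
  rw [SModEq.sub_mem, hfn n, add_sub_add_left_eq_sub, ← Finset.sum_sub_distrib]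
  refine Submodule.sum_mem _ fun i _ => ?_
  rw [← sub_smul]
  refine Submodule.smul_mem_smul ?_ Submodule.mem_top
  have := hL i n
  rwa [SModEq.sub_mem, smul_eq_mul, Ideal.mul_top] at this

end Fermat.Agent.Lib.S59
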