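/-
PROGRAMME (R) = S59 — [PM] THE PATCHING MACHINE, typed nodes (helper4, prefix `s59p_`; co-architect
file next to helper1's `Graph.lean`).  Pure commutative algebra: no Galois theory, no coefficient
ring `𝒪`, no power series in the interface.

THE OBJECT.  `s59p_Level S A R M 𝔞 J` is the frozen `Algebra.PatchingLevel` with the two copies of
`𝒪⟦X₁..X_r⟧` replaced by two ARBITRARY rings:
  `S`  = the ring of diamond + framing variables (`S_∞ = 𝒪⟦y₁..y_r⟧⟦z₁..z_j⟧`, any model of it),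
  `A`  = `R_∞ = R_loc⟦x₁..x_g⟧` (ANY complete noetherian local ring surjecting onto the level-`n`
         framed deformation rings; `R_loc` may be replaced by any ring mapping onto it, e.g. a power
         series ring at the places where only the tangent space is known),
  `R`  = the ring at level ∅ acting on `M = M_∅`, `𝔞 ⊂ S` the augmentation ideal, `J ⊂ S` the
         relation ideal of the level (`J_n = ((1+y_i)^(p^n) - 1)_i`, no relation on the `z`'s).
A level is: an `A`-module `N`, ring maps `φ : S → A`, `ψ : A ↠ R` with `ψ ∘ φ = 0` on `𝔞`,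
`π : N ↠ M` `ψ`-semilinear with kernel `φ(𝔞) N`, and `b : Fin d → N` a basis of `N` over `S ⧸ J`
(through `φ`).  With `S = A = 𝒪⟦X₁..X_r⟧`, `𝔞 = (X)` this is exactly `Algebra.PatchingLevel`.

NODES (all mine; proofs in `Lib/S59/P*.lean`):
  [PM1]  compactness: levels for all `n` with `J n ≤ 𝔪_S ^ n` and constant `d` ⇒ a level with `J = ⊥`
         (= (H6) `s59c_H6` generalised; (H6)'s proof does not use more).
  [PM2]  the depth-free support lemma: for a level with `J = ⊥`, `S` a noetherian local domain, every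
         minimal prime `𝔓` over `Ann_A N` has `φ⁻¹ 𝔓 = 0`, `A ⧸ 𝔓` integral over `S`,
         `dim S ≤ dim A ⧸ 𝔓`, and `𝔓` is a minimal prime of `A` as soon as `dim A ≤ dim S`.
  [PM3A] `A` a domain, `dim A ≤ dim S`, `M ≠ 0` ⇒ `Ann_R M` is nil (so every point of `R` with
         values in a reduced ring factors through `T = R ⧸ Ann_R M`: "R^red = T").
  [PM3C] points on a component: for every minimal prime `𝔓` over `Ann_A N` there is a prime `𝔭` of
         `R` in the support of `M` with `ψ 𝔓 ⊆ 𝔭` and `(ψ ∘ φ)⁻¹ 𝔭 = 𝔞` ("a characteristic-zero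
         eigensystem on the component `𝔓`").
  [PM1w] compactness for a PAIR of sequences of levels (weakly) congruent modulo `ϖ` (Ihara
         avoidance): limits along a common subsequence are weakly congruent.  [CongW]: a congruence
         (`s59p_Cong`: an `ι`-semilinear isomorphism `N ⧸ ϖ ≃ N' ⧸ ϖ'`) is a weak congruence
         (`s59p_WCong`: `a N ⊆ (ϖ, 𝔪^t) N ⇒ a' N' ⊆ (ϖ', 𝔪'^t) N'`).
  [PM3B], [PM3Bw] `L`, `L'` (weakly) congruent mod `ϖ`, `Ann_{A'} N' = 0` ⇒ `Ann_A N ⊆ rad (ϖ A)`;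
         [PM3B'] with [PM2]: every minimal prime `𝔓` of `A` which is the only minimal prime below
         some prime `𝔮 ∋ ϖ` lies in the support of `N`.
  [PMdim] `dim B⟦x₁..x_g⟧ = dim B + g` for `B` noetherian local (to check `dim A ≤ dim S`).
-/
import Mathlib

set_option autoImplicit false

namespace Fermat.Agent.Lib.S59

open IsLocalRing

/-- a patching level in abstract form (see the header). -/
structure s59p_Level (S : Type) [CommRing S] (A : Type) [CommRing A] (R : Type) [CommRing R]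
    (M : Type) [AddCommGroup M] [Module R M] (𝔞 J : Ideal S) : Type 1 where
  N : Type
  [instAddCommGroup : AddCommGroup N]
  [instModule : Module A N]
  φ : S →+* A
  ψ : A →+* R
  ψ_surjective : Function.Surjective ψ
  ψ_φ : ∀ s ∈ 𝔞, ψ (φ s) = 0
  π : N →+ M
  π_smul : ∀ (a : A) (x : N), π (a • x) = ψ a • π x
  π_surjective : Function.Surjective π
  ker_π : ∀ x : N, π x = 0 ↔ x ∈ (𝔞.map φ) • (⊤ : Submodule A N)
  d : ℕ
  b : Fin d → N
  b_span : ∀ x : N, ∃ c : Fin d → S, x = ∑ i, φ (c i) • b i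
  b_rel : ∀ c : Fin d → S, ∑ i, φ (c i) • b i = 0 ↔ ∀ i, c i ∈ J

attribute [instance] s59p_Level.instAddCommGroup s59p_Level.instModule

/-- **[PM1]** compactness. -/
def s59p_PM1 : Prop :=
  ∀ (S : Type) [CommRing S] [IsLocalRing S] [IsNoetherianRing S]
    [IsAdicComplete (maximalIdeal S) S] [Finite (ResidueField S)]
    (A : Type) [CommRing A] [IsLocalRing A] [IsNoetherianRing A]
    [IsAdicComplete (maximalIdeal A) A] [Finite (ResidueField A)]
    (R : Type) [CommRing R] [IsLocalRing R] [IsNoetherianRing R]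
    [IsAdicComplete (maximalIdeal R) R]
    (M : Type) [AddCommGroup M] [Module R M] [Module.Finite R M]
    (𝔞 : Ideal S) (J : ℕ → Ideal S), (∀ n, J n ≤ maximalIdeal S ^ n) →
    ∀ (L : ∀ n, s59p_Level S A R M 𝔞 (J n)) (d : ℕ), (∀ n, (L n).d = d) →
      Nonempty (s59p_Level S A R M 𝔞 ⊥)

/-- **[PM2]** the depth-free support lemma. -/
def s59p_PM2 : Prop :=
  ∀ (S : Type) [CommRing S] [IsDomain S] [IsLocalRing S] [IsNoetherianRing S]
    (A : Type) [CommRing A] [IsNoetherianRing A]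
    (R : Type) [CommRing R] (M : Type) [AddCommGroup M] [Module R M] (𝔞 : Ideal S)
    (L : s59p_Level S A R M 𝔞 ⊥),
    ∀ 𝔓 ∈ (Module.annihilator A L.N).minimalPrimes,
      Ideal.comap L.φ 𝔓 = ⊥ ∧
      ((Ideal.Quotient.mk 𝔓).comp L.φ).IsIntegral ∧
      ringKrullDim S ≤ ringKrullDim (A ⧸ 𝔓) ∧
      (ringKrullDim A ≤ ringKrullDim S → 𝔓 ∈ minimalPrimes A)

/-- **[PM3A]** `R^red = T^red` when `R_∞` is a domain of the right dimension. -/
def s59p_PM3A : Prop :=
  ∀ (S : Type) [CommRing S] [IsDomain S] [IsLocalRing S] [IsNoetherianRing S]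
    (A : Type) [CommRing A] [IsDomain A] [IsNoetherianRing A]
    (R : Type) [CommRing R] (M : Type) [AddCommGroup M] [Module R M] [Nontrivial M] (𝔞 : Ideal S),
    ringKrullDim A ≤ ringKrullDim S →
    ∀ (L : s59p_Level S A R M 𝔞 ⊥),
      Module.annihilator A L.N = ⊥ ∧ Module.annihilator R M ≤ nilradical R

/-- **[PM3C]** a point of `Supp M` outside `V(S-torsion)` on every component of `Supp N`. -/
def s59p_PM3C : Prop :=
  ∀ (S : Type) [CommRing S] [IsDomain S] [IsLocalRing S] [IsNoetherianRing S]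
    (A : Type) [CommRing A] [IsNoetherianRing A]
    (R : Type) [CommRing R] (M : Type) [AddCommGroup M] [Module R M] (𝔞 : Ideal S) [𝔞.IsPrime]
    (L : s59p_Level S A R M 𝔞 ⊥),
    ∀ 𝔓 ∈ (Module.annihilator A L.N).minimalPrimes,
      ∃ 𝔭 : Ideal R, 𝔭.IsPrime ∧ Module.annihilator R M ≤ 𝔭 ∧ 𝔓.map L.ψ ≤ 𝔭 ∧
        Ideal.comap (L.ψ.comp L.φ) 𝔭 = 𝔞

/-- two levels are congruent modulo `(ϖ, ϖ')` along `ι : A ⧸ ϖ ≃ A' ⧸ ϖ'`. -/
def s59p_Cong {S : Type} [CommRing S] {A : Type} [CommRing A] {A' : Type} [CommRing A']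
    {R : Type} [CommRing R] {R' : Type} [CommRing R']
    {M : Type} [AddCommGroup M] [Module R M] {M' : Type} [AddCommGroup M'] [Module R' M']
    {𝔞 J : Ideal S} (ϖ : A) (ϖ' : A')
    (ι : A ⧸ Ideal.span {ϖ} ≃+* A' ⧸ Ideal.span {ϖ'})
    (L : s59p_Level S A R M 𝔞 J) (L' : s59p_Level S A' R' M' 𝔞 J) : Prop :=
  (∀ s, ι (Ideal.Quotient.mk _ (L.φ s)) = Ideal.Quotient.mk _ (L'.φ s)) ∧
  L.d = L'.d ∧
  ∃ θ : (L.N ⧸ (Ideal.span {ϖ} • ⊤ : Submodule A L.N)) ≃+
      (L'.N ⧸ (Ideal.span {ϖ'} • ⊤ : Submodule A' L'.N)),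
    ∀ (a : A) (a' : A'), ι (Ideal.Quotient.mk _ a) = Ideal.Quotient.mk _ a' →
      ∀ x, θ (a • x) = a' • θ x

/-- the weak form of a congruence, which passes to limits: "`a N ⊆ (ϖ, 𝔪 ^ t) N` implies
`a' N' ⊆ (ϖ', 𝔪' ^ t) N'` whenever `ι ā = ā'`". -/
def s59p_WCong {S : Type} [CommRing S] {A : Type} [CommRing A] [IsLocalRing A]
    {A' : Type} [CommRing A'] [IsLocalRing A']
    {R : Type} [CommRing R] {R' : Type} [CommRing R']
    {M : Type} [AddCommGroup M] [Module R M] {M' : Type} [AddCommGroup M'] [Module R' M']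
    {𝔞 J : Ideal S} (ϖ : A) (ϖ' : A')
    (ι : A ⧸ Ideal.span {ϖ} ≃+* A' ⧸ Ideal.span {ϖ'})
    (L : s59p_Level S A R M 𝔞 J) (L' : s59p_Level S A' R' M' 𝔞 J) : Prop :=
  ∀ (t : ℕ) (a : A) (a' : A'), ι (Ideal.Quotient.mk _ a) = Ideal.Quotient.mk _ a' →
    (∀ x : L.N, a • x ∈ (Ideal.span {ϖ} ⊔ maximalIdeal A ^ t) • (⊤ : Submodule A L.N)) →
    ∀ x' : L'.N, a' • x' ∈ (Ideal.span {ϖ'} ⊔ maximalIdeal A' ^ t) • (⊤ : Submodule A' L'.N)

/-- **[CongW]** a congruence is a weak congruence. -/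
def s59p_CongW : Prop :=
  ∀ (S : Type) [CommRing S] (A : Type) [CommRing A] [IsLocalRing A]
    (A' : Type) [CommRing A'] [IsLocalRing A']
    (R : Type) [CommRing R] (R' : Type) [CommRing R']
    (M : Type) [AddCommGroup M] [Module R M] (M' : Type) [AddCommGroup M'] [Module R' M']
    (𝔞 J : Ideal S) (ϖ : A) (ϖ' : A'), ϖ ∈ maximalIdeal A → ϖ' ∈ maximalIdeal A' →
    ∀ (ι : A ⧸ Ideal.span {ϖ} ≃+* A' ⧸ Ideal.span {ϖ'})
      (L : s59p_Level S A R M 𝔞 J) (L' : s59p_Level S A' R' M' 𝔞 J),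
      s59p_Cong ϖ ϖ' ι L L' → s59p_WCong ϖ ϖ' ι L L'

/-- **[PM1w]** compactness for a pair of (weakly) congruent sequences: limits along a COMMON
subsequence are weakly congruent.  (Replaces [PM1'] of v1: the isomorphism `θ` itself need not
be carried to the limit.) -/
def s59p_PM1w : Prop :=
  ∀ (S : Type) [CommRing S] [IsLocalRing S] [IsNoetherianRing S]
    [IsAdicComplete (maximalIdeal S) S] [Finite (ResidueField S)]
    (A : Type) [CommRing A] [IsLocalRing A] [IsNoetherianRing A]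
    [IsAdicComplete (maximalIdeal A) A] [Finite (ResidueField A)]
    (A' : Type) [CommRing A'] [IsLocalRing A'] [IsNoetherianRing A']
    [IsAdicComplete (maximalIdeal A') A'] [Finite (ResidueField A')]
    (R : Type) [CommRing R] [IsLocalRing R] [IsNoetherianRing R]
    [IsAdicComplete (maximalIdeal R) R]
    (R' : Type) [CommRing R'] [IsLocalRing R'] [IsNoetherianRing R']
    [IsAdicComplete (maximalIdeal R') R']
    (M : Type) [AddCommGroup M] [Module R M] [Module.Finite R M]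
    (M' : Type) [AddCommGroup M'] [Module R' M'] [Module.Finite R' M']
    (𝔞 : Ideal S) (J : ℕ → Ideal S), (∀ n, J n ≤ maximalIdeal S ^ n) →
    ∀ (ϖ : A) (ϖ' : A') (ι : A ⧸ Ideal.span {ϖ} ≃+* A' ⧸ Ideal.span {ϖ'})
      (L : ∀ n, s59p_Level S A R M 𝔞 (J n)) (L' : ∀ n, s59p_Level S A' R' M' 𝔞 (J n))
      (d d' : ℕ), (∀ n, (L n).d = d) → (∀ n, (L' n).d = d') →
      (∀ n, s59p_WCong ϖ ϖ' ι (L n) (L' n)) →
      ∃ (Linf : s59p_Level S A R M 𝔞 ⊥) (Linf' : s59p_Level S A' R' M' 𝔞 ⊥),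
        s59p_WCong ϖ ϖ' ι Linf Linf'

/-- **[PM3Bw]** Ihara avoidance from a weak congruence. -/
def s59p_PM3Bw : Prop :=
  ∀ (S : Type) [CommRing S] (A : Type) [CommRing A] [IsLocalRing A]
    (A' : Type) [CommRing A'] [IsLocalRing A'] [IsNoetherianRing A']
    (R : Type) [CommRing R] (R' : Type) [CommRing R']
    (M : Type) [AddCommGroup M] [Module R M] (M' : Type) [AddCommGroup M'] [Module R' M']
    (𝔞 J : Ideal S) (ϖ : A) (ϖ' : A') (ι : A ⧸ Ideal.span {ϖ} ≃+* A' ⧸ Ideal.span {ϖ'})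
    (L : s59p_Level S A R M 𝔞 J) (L' : s59p_Level S A' R' M' 𝔞 J),
    s59p_WCong ϖ ϖ' ι L L' → Module.annihilator A' L'.N = ⊥ →
      Module.annihilator A L.N ≤ (Ideal.span {ϖ}).radical

/-- **[PM3B]** Ihara avoidance: full support passes through a congruence. -/
def s59p_PM3B : Prop :=
  ∀ (S : Type) [CommRing S] (A : Type) [CommRing A] (A' : Type) [CommRing A']
    (R : Type) [CommRing R] (R' : Type) [CommRing R']
    (M : Type) [AddCommGroup M] [Module R M] (M' : Type) [AddCommGroup M'] [Module R' M']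
    (𝔞 J : Ideal S) (ϖ : A) (ϖ' : A') (ι : A ⧸ Ideal.span {ϖ} ≃+* A' ⧸ Ideal.span {ϖ'})
    (L : s59p_Level S A R M 𝔞 J) (L' : s59p_Level S A' R' M' 𝔞 J),
    s59p_Cong ϖ ϖ' ι L L' → Module.annihilator A' L'.N = ⊥ →
      Module.annihilator A L.N ≤ (Ideal.span {ϖ}).radical

/-- **[PM3B']** the components of `Spec A` which are seen modulo `ϖ` lie in the support. -/
def s59p_PM3B' : Prop :=
  ∀ (S : Type) [CommRing S] [IsDomain S] [IsLocalRing S] [IsNoetherianRing S]
    (A : Type) [CommRing A] [IsNoetherianRing A]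
    (R : Type) [CommRing R] (M : Type) [AddCommGroup M] [Module R M] (𝔞 : Ideal S)
    (L : s59p_Level S A R M 𝔞 ⊥) (ϖ : A),
    ringKrullDim A ≤ ringKrullDim S →
    Module.annihilator A L.N ≤ (Ideal.span {ϖ}).radical →
    ∀ 𝔓 ∈ minimalPrimes A, (∃ 𝔮 : Ideal A, 𝔮.IsPrime ∧ ϖ ∈ 𝔮 ∧
        ∀ 𝔓' ∈ minimalPrimes A, 𝔓' ≤ 𝔮 → 𝔓' = 𝔓) →
      𝔓 ∈ (Module.annihilator A L.N).minimalPrimes

/-- **[PMdim]** -/
def s59p_PMdim : Prop :=
  ∀ (B : Type) [CommRing B] [IsLocalRing B] [IsNoetherianRing B] (g : ℕ),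
    ringKrullDim (MvPowerSeries (Fin g) B) = ringKrullDim B + g

end Fermat.Agent.Lib.S59
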