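/-
(R) S59, [PM] the patching machine (helper4, prefix `s59p_`), part 1: facts about one abstract
patching level `L : s59p_Level S A R M 𝔞 J` (see `PGraph.lean`).

* locality: every ring map into a local ring with finite residue field is local
  (`s59p_map_mem`, `s59p_map_mem_pow`); `L.ψ` maps `𝔪_A ^ n` ONTO `𝔪_R ^ n`;
* the presentation `s59p_Φ L h : A^d → N`, its kernel `s59p_K`, `s59p_Pi = π ∘ Φ : A^d → M` and the
  translation of the axioms `b_span`, `b_rel`, `ker_π` in terms of `A^d`;
* `s59p_smul_top_le_Nsub`: comparison of the `A`-adic filtration of `N` with the `S`-adic one, with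
  a bound which does not depend on the level.
-/
import Mathlib
import Fermat.Agent.Lib.S59.PGraph
import Fermat.Agent.Lib.S59.CPatch1

set_option autoImplicit false
set_option linter.unusedSectionVars false
set_option linter.unusedVariables false
set_option linter.style.haveILetI false

namespace Fermat.Agent.Lib.S59

open IsLocalRing

/-! ### locality of ring maps -/

/-- a ring map from a local ring to a local ring with FINITE residue field is local. -/
theorem s59p_map_mem {S A : Type*} [CommRing S] [IsLocalRing S] [CommRing A] [IsLocalRing A]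
    [Finite (ResidueField A)] (f : S →+* A) {s : S} (hs : s ∈ maximalIdeal S) :
    f s ∈ maximalIdeal A := by
  classical
  set g : S →+* ResidueField A := (residue A).comp f with hg
  have hprime : (RingHom.ker g).IsPrime := RingHom.ker_isPrime g
  have hinj : Function.Injective (RingHom.kerLift g) := RingHom.kerLift_injective g
  haveI : Finite (S ⧸ RingHom.ker g) := Finite.of_injective _ hinj
  haveI : IsDomain (S ⧸ RingHom.ker g) := (Ideal.Quotient.isDomain_iff_prime _).mpr hprime
  have hfield : IsField (S ⧸ RingHom.ker g) := Finite.isField_of_domain _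
  have hmax : (RingHom.ker g).IsMaximal := Ideal.Quotient.maximal_of_isField _ hfield
  have hker : RingHom.ker g = maximalIdeal S := IsLocalRing.eq_maximalIdeal hmax
  have : s ∈ RingHom.ker g := hker ▸ hs
  rw [RingHom.mem_ker, hg, RingHom.comp_apply, residue_eq_zero_iff] at this
  exact this

theorem s59p_map_mem_pow {S A : Type*} [CommRing S] [IsLocalRing S] [CommRing A] [IsLocalRing A]
    [Finite (ResidueField A)] (f : S →+* A) {n : ℕ} {s : S} (hs : s ∈ maximalIdeal S ^ n) :
    f s ∈ maximalIdeal A ^ n := by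
  have h1 : Ideal.map f (maximalIdeal S) ≤ maximalIdeal A := by
    rw [Ideal.map_le_iff_le_comap]
    intro g hg
    exact s59p_map_mem f hg
  have h2 := Ideal.mem_map_of_mem f hs
  rw [Ideal.map_pow] at h2
  exact Ideal.pow_right_mono h1 n h2

/-- a surjective ring map of local rings is local. -/
theorem s59p_surj_mem {A R : Type*} [CommRing A] [IsLocalRing A] [CommRing R] [IsLocalRing R]
    (f : A →+* R) (hf : Function.Surjective f) {a : A} (ha : a ∈ maximalIdeal A) :
    f a ∈ maximalIdeal R := by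
  rw [mem_maximalIdeal, mem_nonunits_iff]
  intro hu
  obtain ⟨g, hg⟩ := hf (↑hu.unit⁻¹)
  have h1 : f (a * g - 1) = 0 := by
    rw [map_sub, map_mul, hg, map_one, IsUnit.mul_val_inv, sub_self]
  have hunit : IsUnit (a * g - 1) := by
    have hfg : a * g ∈ maximalIdeal A := Ideal.mul_mem_right _ _ ha
    have h2 := IsLocalRing.isUnit_one_sub_self_of_mem_nonunits (a * g) hfg
    have : a * g - 1 = -(1 - a * g) := by ring
    rw [this]
    exact h2.neg
  have := hunit.map f
  rw [h1] at this
  exact not_isUnit_zero this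

theorem s59p_surj_mem_pow {A R : Type*} [CommRing A] [IsLocalRing A] [CommRing R] [IsLocalRing R]
    (f : A →+* R) (hf : Function.Surjective f) {n : ℕ} {a : A} (ha : a ∈ maximalIdeal A ^ n) :
    f a ∈ maximalIdeal R ^ n := by
  have h1 : Ideal.map f (maximalIdeal A) ≤ maximalIdeal R := by
    rw [Ideal.map_le_iff_le_comap]
    intro g hg
    exact s59p_surj_mem f hf hg
  have h2 := Ideal.mem_map_of_mem f ha
  rw [Ideal.map_pow] at h2
  exact Ideal.pow_right_mono h1 n h2

/-- `f (𝔪_A ^ n) = 𝔪_R ^ n` for a surjective ring map of local rings. -/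
theorem s59p_surj_pow_surj {A R : Type*} [CommRing A] [IsLocalRing A] [CommRing R] [IsLocalRing R]
    (f : A →+* R) (hf : Function.Surjective f) {n : ℕ} {y : R} (hy : y ∈ maximalIdeal R ^ n) :
    ∃ a ∈ maximalIdeal A ^ n, f a = y := by
  have h1 : maximalIdeal R ≤ Ideal.map f (maximalIdeal A) := by
    intro z hz
    obtain ⟨g, rfl⟩ := hf z
    refine Ideal.mem_map_of_mem _ ?_
    by_contra hg
    have hu : IsUnit g := by rwa [mem_maximalIdeal, mem_nonunits_iff, not_not] at hg
    exact hz (hu.map f)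
  have h2 : y ∈ Ideal.map f (maximalIdeal A ^ n) := by
    rw [Ideal.map_pow]
    exact Ideal.pow_right_mono h1 n hy
  rw [Ideal.mem_map_iff_of_surjective f hf] at h2
  obtain ⟨a, ha, rfl⟩ := h2
  exact ⟨a, ha, rfl⟩

/-- the residue field of a quotient of a local ring with finite residue field is finite. -/
theorem s59p_finite_residueField {A R : Type*} [CommRing A] [IsLocalRing A] [CommRing R]
    [IsLocalRing R] [Finite (ResidueField A)] (f : A →+* R) (hf : Function.Surjective f) :
    Finite (ResidueField R) := by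
  let g : ResidueField A →+* ResidueField R :=
    Ideal.Quotient.lift _ ((residue R).comp f) (by
      intro a ha
      rw [RingHom.comp_apply, residue_eq_zero_iff]
      exact s59p_surj_mem f hf ha)
  refine Finite.of_surjective g ?_
  intro y
  obtain ⟨y, rfl⟩ := Ideal.Quotient.mk_surjective y
  obtain ⟨x, rfl⟩ := hf y
  exact ⟨Ideal.Quotient.mk _ x, rfl⟩

/-- finiteness of `A ⧸ 𝔪 ^ n`. -/
theorem s59p_finite_quot_pow (A : Type*) [CommRing A] [IsLocalRing A] [IsNoetherianRing A]
    [Finite (ResidueField A)] (n : ℕ) : Finite (A ⧸ maximalIdeal A ^ n) := by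
  haveI : Finite (A ⧸ maximalIdeal A) := ‹Finite (ResidueField A)›
  exact Ideal.finite_quotient_pow (IsNoetherian.noetherian _) n

section level

variable {S : Type} [CommRing S] {A : Type} [CommRing A] {R : Type} [CommRing R]
  {M : Type} [AddCommGroup M] [Module R M] {𝔞 J : Ideal S} (L : s59p_Level S A R M 𝔞 J)

/-! ### the presentation -/

variable {d : ℕ} (h : L.d = d)

/-- the basis of the level, re-indexed by `Fin d`. -/
def s59p_bb : Fin d → L.N := fun i => L.b (Fin.cast h.symm i)

/-- the presentation `A^d → N`. -/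
noncomputable def s59p_Φ : (Fin d → A) →ₗ[A] L.N := Fintype.linearCombination A (s59p_bb L h)

theorem s59p_Φ_apply (g : Fin d → A) : s59p_Φ L h g = ∑ i, g i • s59p_bb L h i := rfl

/-- the kernel of the presentation. -/
noncomputable def s59p_K : Submodule A (Fin d → A) := LinearMap.ker (s59p_Φ L h)

theorem s59p_mem_K {g : Fin d → A} : g ∈ s59p_K L h ↔ s59p_Φ L h g = 0 := LinearMap.mem_ker

theorem s59p_exists_Φ_φ (x : L.N) : ∃ c : Fin d → S, x = s59p_Φ L h (fun i => L.φ (c i)) := by
  subst h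
  obtain ⟨c, hc⟩ := L.b_span x
  exact ⟨c, hc⟩

theorem s59p_Φ_surjective : Function.Surjective (s59p_Φ L h) := by
  intro x
  obtain ⟨c, hc⟩ := s59p_exists_Φ_φ L h x
  exact ⟨_, hc.symm⟩

theorem s59p_Φ_φ_eq_zero_iff (c : Fin d → S) :
    s59p_Φ L h (fun i => L.φ (c i)) = 0 ↔ ∀ i, c i ∈ J := by
  subst h
  exact L.b_rel c

/-- `Pi = π ∘ Φ`. -/
noncomputable def s59p_Pi : (Fin d → A) → M := fun g => L.π (s59p_Φ L h g)

theorem s59p_Pi_apply (g : Fin d → A) :
    s59p_Pi L h g = ∑ i, L.ψ (g i) • L.π (s59p_bb L h i) := by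
  unfold s59p_Pi
  rw [s59p_Φ_apply, map_sum]
  exact Finset.sum_congr rfl fun i _ => L.π_smul _ _

theorem s59p_Pi_add (g g' : Fin d → A) : s59p_Pi L h (g + g') = s59p_Pi L h g + s59p_Pi L h g' := by
  unfold s59p_Pi
  rw [map_add, map_add]

theorem s59p_Pi_smul (f : A) (w : Fin d → A) :
    s59p_Pi L h (f • w) = L.ψ f • s59p_Pi L h w := by
  unfold s59p_Pi
  rw [map_smul, L.π_smul]

theorem s59p_Pi_of_mem_K {g : Fin d → A} (hg : g ∈ s59p_K L h) : s59p_Pi L h g = 0 := by
  unfold s59p_Pi
  rw [(s59p_mem_K L h).mp hg, map_zero]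

theorem s59p_Pi_surjective : Function.Surjective (s59p_Pi L h) := by
  intro y
  obtain ⟨x, rfl⟩ := L.π_surjective y
  obtain ⟨g, rfl⟩ := s59p_Φ_surjective L h x
  exact ⟨g, rfl⟩

/-- elements of `(a₁,…,a_r) • ⊤`. -/
theorem s59p_mem_span_smul_top {B X : Type*} [CommRing B] [AddCommGroup X] [Module B X]
    {ι : Type*} [Fintype ι] (a : ι → B) {x : X}
    (hx : x ∈ (Ideal.span (Set.range a)) • (⊤ : Submodule B X)) :
    ∃ y : ι → X, x = ∑ i, a i • y i := by
  refine Submodule.smul_induction_on hx ?_ ?_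
  · intro s hs n _
    obtain ⟨c, rfl⟩ := (Ideal.mem_span_range_iff_exists_fun).mp hs
    refine ⟨fun i => c i • n, ?_⟩
    rw [Finset.sum_smul]
    refine Finset.sum_congr rfl fun i _ => ?_
    show (c i * a i) • n = a i • (c i • n)
    rw [mul_comm, mul_smul]
  · rintro x y ⟨u, rfl⟩ ⟨v, rfl⟩
    refine ⟨fun i => u i + v i, ?_⟩
    rw [← Finset.sum_add_distrib]
    exact Finset.sum_congr rfl fun i _ => by rw [smul_add]

theorem s59p_map_span {m : ℕ} (σ : Fin m → S) (hσ : Ideal.span (Set.range σ) = 𝔞) :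
    𝔞.map L.φ = Ideal.span (Set.range fun i => L.φ (σ i)) := by
  subst hσ
  rw [Ideal.map_span]
  congr 1
  ext x
  simp only [Set.mem_image, Set.mem_range]
  constructor
  · rintro ⟨_, ⟨i, rfl⟩, rfl⟩; exact ⟨i, rfl⟩
  · rintro ⟨i, rfl⟩; exact ⟨_, ⟨i, rfl⟩, rfl⟩

theorem s59p_Pi_eq_zero_iff {m : ℕ} (σ : Fin m → S) (hσ : Ideal.span (Set.range σ) = 𝔞)
    (g : Fin d → A) :
    s59p_Pi L h g = 0 ↔ ∃ k ∈ s59p_K L h, ∃ u : Fin m → Fin d → A,
      g = k + ∑ i, L.φ (σ i) • u i := by
  unfold s59p_Pi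
  rw [L.ker_π, s59p_map_span L σ hσ]
  constructor
  · intro hg
    obtain ⟨y, hy⟩ := s59p_mem_span_smul_top (fun i : Fin m => L.φ (σ i)) hg
    have hsurj := s59p_Φ_surjective L h
    choose u hu using fun i => hsurj (y i)
    refine ⟨g - ∑ i, L.φ (σ i) • u i, ?_, u, by abel⟩
    rw [s59p_mem_K, map_sub, map_sum, hy, sub_eq_zero]
    exact Finset.sum_congr rfl fun i _ => by rw [map_smul, hu]
  · rintro ⟨k, hk, u, rfl⟩
    rw [map_add, (s59p_mem_K L h).mp hk, zero_add, map_sum]
    refine Submodule.sum_mem _ fun i _ => ?_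
    rw [map_smul]
    exact Submodule.smul_mem_smul (Ideal.subset_span ⟨i, rfl⟩) Submodule.mem_top

theorem s59p_Φ_smul_φ (a : S) (c : Fin d → S) :
    L.φ a • s59p_Φ L h (fun i => L.φ (c i)) = s59p_Φ L h (fun i => L.φ (a * c i)) := by
  rw [← map_smul]
  congr 1
  funext i
  rw [Pi.smul_apply, smul_eq_mul, map_mul]

theorem s59p_Φ_φ_add (c c' : Fin d → S) :
    s59p_Φ L h (fun i => L.φ (c i)) + s59p_Φ L h (fun i => L.φ (c' i)) =
      s59p_Φ L h (fun i => L.φ (c i + c' i)) := by
  rw [← map_add]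
  congr 1
  funext i
  rw [Pi.add_apply, map_add]

theorem s59p_Φ_φ_sum {ι : Type*} (s : Finset ι) (c : ι → Fin d → S) :
    ∑ k ∈ s, s59p_Φ L h (fun i => L.φ (c k i)) =
      s59p_Φ L h (fun i => L.φ (∑ k ∈ s, c k i)) := by
  classical
  induction s using Finset.induction_on with
  | empty =>
    simp only [Finset.sum_empty, map_zero]
    have : (fun _ : Fin d => (0 : A)) = 0 := rfl
    rw [this, map_zero]
  | insert a s ha ih =>
    rw [Finset.sum_insert ha, ih, s59p_Φ_φ_add]
    congr 1
    funext i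
    rw [Finset.sum_insert ha]

/-! ### comparison of the two filtrations of `N` -/

/-- the `A`-submodule of `N` of the elements `∑ φ (c_i) • b_i` with all `c_i ∈ 𝔠`. -/
def s59p_Nsub (𝔠 : Ideal S) : Submodule A L.N where
  carrier := {x | ∃ c : Fin d → S, (∀ i, c i ∈ 𝔠) ∧ x = s59p_Φ L h (fun i => L.φ (c i))}
  zero_mem' := ⟨0, fun _ => 𝔠.zero_mem, by
    have : (fun i : Fin d => L.φ ((0 : Fin d → S) i)) = 0 := by funext i; simp
    rw [this, map_zero]⟩
  add_mem' := by
    rintro x y ⟨c, hc, rfl⟩ ⟨c', hc', rfl⟩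
    exact ⟨fun i => c i + c' i, fun i => 𝔠.add_mem (hc i) (hc' i), s59p_Φ_φ_add L h c c'⟩
  smul_mem' := by
    rintro a x ⟨c, hc, rfl⟩
    choose e he using fun i => s59p_exists_Φ_φ L h (a • s59p_bb L h i)
    refine ⟨fun j => ∑ i, c i * e i j, fun j => Ideal.sum_mem _ fun i _ =>
      Ideal.mul_mem_right _ _ (hc i), ?_⟩
    rw [s59p_Φ_apply, Finset.smul_sum, ← s59p_Φ_φ_sum]
    refine Finset.sum_congr rfl fun i _ => ?_
    rw [smul_comm, he i, s59p_Φ_smul_φ]

theorem s59p_mem_Nsub {𝔠 : Ideal S} {x : L.N} :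
    x ∈ s59p_Nsub L h 𝔠 ↔
      ∃ c : Fin d → S, (∀ i, c i ∈ 𝔠) ∧ x = s59p_Φ L h (fun i => L.φ (c i)) := Iff.rfl

end level

/-! ### the uniform bound -/

section bound

variable {S : Type} [CommRing S] [IsLocalRing S] [IsNoetherianRing S] [Finite (ResidueField S)]
  {A : Type} [CommRing A] [IsLocalRing A] {R : Type} [CommRing R]
  {M : Type} [AddCommGroup M] [Module R M] {𝔞 J : Ideal S} (L : s59p_Level S A R M 𝔞 J)

/-- the bound: the number of elements of `(S ⧸ 𝔪 ^ t)^d`. -/
noncomputable def s59p_bound (S : Type) [CommRing S] [IsLocalRing S] (d t : ℕ) : ℕ :=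
  Nat.card ((Fin d → S) ⧸
    (Submodule.pi Set.univ (fun _ : Fin d => maximalIdeal S ^ t) : Submodule S (Fin d → S)))

instance s59p_finite_quot (d t : ℕ) :
    Finite ((Fin d → S) ⧸ (Submodule.pi Set.univ (fun _ : Fin d => maximalIdeal S ^ t) :
      Submodule S (Fin d → S))) := by
  classical
  have : ∀ _ : Fin d, Finite (S ⧸ (maximalIdeal S ^ t : Submodule S S)) := fun _ =>
    s59p_finite_quot_pow S t
  exact Finite.of_equiv _
    (Submodule.quotientPi (fun _ : Fin d => (maximalIdeal S ^ t : Submodule S S))).symm.toEquiv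

variable {d : ℕ} (h : L.d = d)

theorem s59p_smul_top_le_Nsub (t : ℕ) :
    (maximalIdeal A ^ s59p_bound S d t) • (⊤ : Submodule A L.N) ≤
      s59p_Nsub L h (maximalIdeal S ^ t) := by
  classical
  set Q := (Fin d → S) ⧸ (Submodule.pi Set.univ (fun _ : Fin d => maximalIdeal S ^ t) :
      Submodule S (Fin d → S)) with hQ
  set X := L.N ⧸ s59p_Nsub L h (maximalIdeal S ^ t) with hX
  let f : (Fin d → S) → X := fun c => Submodule.Quotient.mk (s59p_Φ L h (fun i => L.φ (c i)))
  have hf : ∀ c c' : Fin d → S, (∀ i, c i - c' i ∈ maximalIdeal S ^ t) → f c = f c' := by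
    intro c c' hcc'
    show Submodule.Quotient.mk _ = Submodule.Quotient.mk _
    rw [Submodule.Quotient.eq]
    refine ⟨fun i => c i - c' i, hcc', ?_⟩
    rw [← map_sub]
    congr 1
    funext i
    rw [Pi.sub_apply, map_sub]
  let g : Q → X := fun q => f (Quotient.out q)
  have hg : Function.Surjective g := by
    intro x
    obtain ⟨y, rfl⟩ := Submodule.Quotient.mk_surjective _ x
    obtain ⟨c, rfl⟩ := s59p_exists_Φ_φ L h y
    refine ⟨Submodule.Quotient.mk c, ?_⟩
    show f (Quotient.out (Submodule.Quotient.mk c : Q)) = f c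
    refine hf _ _ fun i => ?_
    have h1 : (Submodule.Quotient.mk (Quotient.out (Submodule.Quotient.mk c : Q)) : Q) =
        Submodule.Quotient.mk c := Quotient.out_eq _
    rw [Submodule.Quotient.eq] at h1
    exact h1 i (Set.mem_univ i)
  have : Finite X := Finite.of_surjective g hg
  have hcard : Nat.card X ≤ s59p_bound S d t := Nat.card_le_card_of_surjective g hg
  have hX0 : (maximalIdeal A ^ Nat.card X) • (⊤ : Submodule A X) = ⊥ := s59c_pow_card_smul_top
  rw [Submodule.smul_le]
  intro a ha x _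
  have ha' : a ∈ maximalIdeal A ^ Nat.card X := Ideal.pow_le_pow_right hcard ha
  have h1 : a • (Submodule.Quotient.mk x : X) ∈
      (maximalIdeal A ^ Nat.card X) • (⊤ : Submodule A X) :=
    Submodule.smul_mem_smul ha' Submodule.mem_top
  rw [hX0, Submodule.mem_bot, ← Submodule.Quotient.mk_smul,
    Submodule.Quotient.mk_eq_zero] at h1
  exact h1

end bound

end Fermat.Agent.Lib.S59
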