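/-
[LOC] part 3 (helper4): the type-χ local ring `A^χ = P ⧸ K` is a complete noetherian local
domain of dimension `≤ dim 𝔅 + 3`.
-/
import Mathlib
import Fermat.Prelude.Thm_IsLocalRing_isAdicComplete_of_module_finite
import Fermat.Agent.Lib.S59.LChi
import Fermat.Agent.Lib.S59.PLevel

set_option autoImplicit false
set_option linter.unusedSectionVars false

noncomputable section

namespace Fermat.Agent.Lib.S59

open IsLocalRing MvPowerSeries Fermat.Agent.Lib.Deform

/-! ### a dimension bound by parameters over a base -/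

theorem s59l_dim_le {𝔅 A : Type*} [CommRing 𝔅] [IsLocalRing 𝔅] [IsNoetherianRing 𝔅]
    [CommRing A] [IsLocalRing A] [IsNoetherianRing A] (f : 𝔅 →+* A) [IsLocalHom f]
    (t : Finset A) (ht : ∀ x ∈ t, x ∈ maximalIdeal A)
    (h : ∀ 𝔭 : Ideal A, 𝔭.IsPrime → (maximalIdeal 𝔅).map f ≤ 𝔭 → (∀ x ∈ t, x ∈ 𝔭) →
      maximalIdeal A ≤ 𝔭) :
    ringKrullDim A ≤ ringKrullDim 𝔅 + t.card := by
  classical
  obtain ⟨s, hs, hcard⟩ :=
    Ideal.exists_finset_card_eq_height_of_isNoetherianRing (maximalIdeal 𝔅)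
  set T : Finset A := s.image f ∪ t with hT
  have hmem : maximalIdeal A ∈ (Ideal.span (T : Set A)).minimalPrimes := by
    refine ⟨⟨inferInstance, ?_⟩, ?_⟩
    · rw [Ideal.span_le]
      intro x hx
      rw [Finset.mem_coe, hT, Finset.mem_union, Finset.mem_image] at hx
      rcases hx with ⟨y, hy, rfl⟩ | hx
      · have hy' : y ∈ maximalIdeal 𝔅 := hs.1.2 (Ideal.subset_span hy)
        rw [SetLike.mem_coe, mem_maximalIdeal, mem_nonunits_iff]
        intro hu
        exact hy' (isUnit_of_map_unit f y hu)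
      · exact ht x hx
    · rintro 𝔭 ⟨hp, hle⟩ _
      refine h 𝔭 hp ?_ ?_
      · rw [Ideal.map_le_iff_le_comap]
        have hc : (Ideal.comap f 𝔭).IsPrime := Ideal.comap_isPrime f 𝔭
        have hsle : Ideal.span (s : Set 𝔅) ≤ Ideal.comap f 𝔭 := by
          rw [Ideal.span_le]
          intro y hy
          rw [SetLike.mem_coe, Ideal.mem_comap]
          refine hle (Ideal.subset_span ?_)
          rw [Finset.mem_coe, hT, Finset.mem_union, Finset.mem_image]
          exact Or.inl ⟨y, hy, rfl⟩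
        exact hs.2 ⟨hc, hsle⟩ (le_maximalIdeal hc.ne_top)
      · intro x hx
        refine hle (Ideal.subset_span ?_)
        rw [Finset.mem_coe, hT, Finset.mem_union]
        exact Or.inr hx
  have h1 : (maximalIdeal A).height ≤ T.card :=
    Ideal.height_le_card_of_mem_minimalPrimes_span_finset hmem
  have h2 : T.card ≤ s.card + t.card :=
    (Finset.card_union_le _ _).trans (Nat.add_le_add_right Finset.card_image_le _)
  rw [← IsLocalRing.maximalIdeal_height_eq_ringKrullDim,
    ← IsLocalRing.maximalIdeal_height_eq_ringKrullDim]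
  have h3 : (maximalIdeal A).height ≤ (maximalIdeal 𝔅).height + t.card := by
    rw [← hcard]
    exact h1.trans (by exact_mod_cast h2)
  exact_mod_cast h3


/-! ### general facts on quotients of complete local rings -/

section Quot

variable {R : Type*} [CommRing R] [IsLocalRing R]

theorem s59l_quot_isLocalRing (I : Ideal R) (hI : I ≠ ⊤) : IsLocalRing (R ⧸ I) := by
  have : Nontrivial (R ⧸ I) := Ideal.Quotient.nontrivial_iff.mpr hI
  exact IsLocalRing.of_surjective' (Ideal.Quotient.mk I) Ideal.Quotient.mk_surjective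

theorem s59l_quot_complete [IsNoetherianRing R] [IsAdicComplete (maximalIdeal R) R] (I : Ideal R)
    [IsLocalRing (R ⧸ I)] : IsAdicComplete (maximalIdeal (R ⧸ I)) (R ⧸ I) := by
  have : Nontrivial (R ⧸ I) := inferInstance
  have hl : IsLocalHom (algebraMap R (R ⧸ I)) :=
    IsLocalHom.of_surjective (Ideal.Quotient.mk I) Ideal.Quotient.mk_surjective
  have hfin : Module.Finite R (R ⧸ I) :=
    Module.Finite.of_surjective (Algebra.linearMap R (R ⧸ I)) Ideal.Quotient.mk_surjective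
  exact IsLocalRing.isAdicComplete_of_module_finite (𝒪 := R) (T := R ⧸ I)

theorem s59l_sub_C_mem {σ : Type*} [Finite σ] {S : Type*} [CommRing S] (G : MvPowerSeries σ S) :
    G - C (constantCoeff G) ∈ Ideal.span (Set.range (X : σ → MvPowerSeries σ S)) := by
  have h := mem_span_X_pow_of_coeff_eq_zero (σ := σ) (R := S) (n := 1)
    (g := G - C (constantCoeff G)) (by
      intro d hd
      have hd0 : d = 0 := by
        have : Finsupp.degree d = 0 := by omega
        exact (Finsupp.degree_eq_zero_iff d).mp this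
      subst hd0
      rw [coeff_zero_eq_constantCoeff_apply, map_sub, constantCoeff_C, sub_self])
  rwa [pow_one] at h

end Quot

/-! ### the ring `A^χ` -/

section Ring

variable {𝔅 : Type*} [CommRing 𝔅] [IsLocalRing 𝔅]

/-- the standing hypotheses on `θ`. -/
class s59l_Hyp (θ : 𝔅) : Prop where
  mem : θ ∈ maximalIdeal 𝔅
  ne : θ ≠ 0
  two : ∃ i2 : 𝔅, 2 * i2 = 1

variable [IsNoetherianRing 𝔅] [IsAdicComplete (maximalIdeal 𝔅) 𝔅] [IsDomain 𝔅]
variable (θ : 𝔅) [hθ : s59l_Hyp θ]

instance s59l_q0_isPrime : (Ideal.span {s59l_q0 θ}).IsPrime := by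
  obtain ⟨i2, hi2⟩ := hθ.two
  exact s59l_prime θ hθ.mem hθ.ne i2 hi2

instance s59l_K_isPrime : (s59l_K θ).IsPrime := by
  rw [s59l_K]
  exact RingHom.ker_isPrime _

/-- the type-χ local ring. -/
abbrev s59l_Achi : Type _ := s59l_P 𝔅 ⧸ s59l_K θ

instance s59l_Achi_isLocalRing : IsLocalRing (s59l_Achi θ) :=
  s59l_quot_isLocalRing _ (Ideal.IsPrime.ne_top inferInstance)

instance s59l_Achi_complete : IsAdicComplete (maximalIdeal (s59l_Achi θ)) (s59l_Achi θ) :=
  s59l_quot_complete _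

instance s59l_Achi_finite [Finite (ResidueField 𝔅)] : Finite (ResidueField (s59l_Achi θ)) :=
  s59p_finite_residueField (Ideal.Quotient.mk (s59l_K θ)) Ideal.Quotient.mk_surjective

/-- the generators `v = (e, b, c)`. -/
def s59l_v (i : Fin 3) : s59l_Achi θ := Ideal.Quotient.mk _ (C (X i))

/-- the generators `w = (f, β, γ)`. -/
def s59l_w (i : s59l_I) : s59l_Achi θ := Ideal.Quotient.mk _ (X i)

theorem s59l_algebraMap_Achi (a : 𝔅) :
    algebraMap 𝔅 (s59l_Achi θ) a = Ideal.Quotient.mk _ (C (C a)) := by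
  rw [← Ideal.Quotient.mk_algebraMap, MvPowerSeries.algebraMap_apply,
    MvPowerSeries.algebraMap_apply, Algebra.algebraMap_self, RingHom.id_apply]

theorem s59l_rel_quadric :
    s59l_v θ 0 ^ 2 + s59l_v θ 1 * s59l_v θ 2 = algebraMap 𝔅 (s59l_Achi θ) θ ^ 2 := by
  have h := Ideal.Quotient.eq_zero_iff_mem.mpr (s59l_q0_mem_K θ)
  rw [s59l_q0] at h
  simp only [map_sub, map_add, map_mul, map_pow] at h
  rw [s59l_algebraMap_Achi, s59l_v, s59l_v, s59l_v]
  linear_combination h

theorem s59l_rel_minor (i j : s59l_I) :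
    s59l_w θ i * s59l_v θ j.down = s59l_w θ j * s59l_v θ i.down := by
  have h := Ideal.Quotient.eq_zero_iff_mem.mpr (s59l_minor_mem_K θ i j)
  simp only [map_sub, map_mul] at h
  rw [s59l_w, s59l_w, s59l_v, s59l_v]
  linear_combination h

theorem s59l_v_mem (i : Fin 3) : s59l_v θ i ∈ maximalIdeal (s59l_Achi θ) := by
  rw [s59l_v]
  exact s59p_surj_mem (Ideal.Quotient.mk (s59l_K θ)) Ideal.Quotient.mk_surjective
    (s59l_C_mem (X_mem_maximalIdeal i))

theorem s59l_w_mem (i : s59l_I) : s59l_w θ i ∈ maximalIdeal (s59l_Achi θ) := by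
  rw [s59l_w]
  exact s59p_surj_mem (Ideal.Quotient.mk (s59l_K θ)) Ideal.Quotient.mk_surjective
    (X_mem_maximalIdeal i)

instance s59l_Achi_isLocalHom : IsLocalHom (algebraMap 𝔅 (s59l_Achi θ)) := by
  refine ⟨fun a ha => ?_⟩
  by_contra hnu
  have ham : a ∈ maximalIdeal 𝔅 := hnu
  have : algebraMap 𝔅 (s59l_Achi θ) a ∈ maximalIdeal (s59l_Achi θ) := by
    rw [s59l_algebraMap_Achi]
    exact s59p_surj_mem (Ideal.Quotient.mk (s59l_K θ)) Ideal.Quotient.mk_surjective
      (s59l_C_mem (s59l_C_mem ham))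
  exact this ha

instance s59l_Achi_hyp : s59l_Hyp (algebraMap 𝔅 (s59l_Achi θ) θ) where
  mem := by
    have h : ¬ IsUnit θ := hθ.mem
    intro hu
    exact h (isUnit_of_map_unit (algebraMap 𝔅 (s59l_Achi θ)) θ hu)
  ne := by
    intro h0
    rw [s59l_algebraMap_Achi, Ideal.Quotient.eq_zero_iff_mem, s59l_K, RingHom.mem_ker] at h0
    have h1 : s59l_pi θ (C (C θ)) = 0 := h0
    rw [s59l_pi_C] at h1
    have h2 : (Ideal.Quotient.mk (Ideal.span {s59l_q0 θ})) (C θ) = 0 := by
      have := congrArg PowerSeries.constantCoeff h1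
      simp at this
      exact this
    rw [Ideal.Quotient.eq_zero_iff_mem, Ideal.mem_span_singleton'] at h2
    obtain ⟨G, hG⟩ := h2
    have h3 := congrArg constantCoeff hG
    rw [map_mul, constantCoeff_C] at h3
    have h4 : constantCoeff (s59l_q0 θ) = -θ ^ 2 := by simp [s59l_q0]
    rw [h4] at h3
    -- θ (1 + G₀ θ) = 0
    have h5 : θ * (1 + constantCoeff G * θ) = 0 := by linear_combination -h3
    have h6 : IsUnit (1 + constantCoeff G * θ) := by
      by_contra hnu
      have hm : 1 + constantCoeff G * θ ∈ maximalIdeal 𝔅 := hnu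
      have hm2 : constantCoeff G * θ ∈ maximalIdeal 𝔅 := Ideal.mul_mem_left _ _ hθ.mem
      have : (1 : 𝔅) ∈ maximalIdeal 𝔅 := by
        have := Ideal.sub_mem _ hm hm2
        rwa [add_sub_cancel_right] at this
      exact (Ideal.ne_top_iff_one _).mp (maximalIdeal.isMaximal 𝔅).ne_top this
    exact hθ.ne (by
      rcases mul_eq_zero.mp h5 with h | h
      · exact h
      · exact absurd h h6.ne_zero)
  two := by
    obtain ⟨i2, hi2⟩ := hθ.two
    exact ⟨algebraMap 𝔅 (s59l_Achi θ) i2, by rw [← map_ofNat (algebraMap 𝔅 (s59l_Achi θ)) 2,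
      ← map_mul, hi2, map_one]⟩

/-- every element of the maximal ideal of `A^χ` is a combination of `𝔪_𝔅`, `v`, `w`. -/
theorem s59l_maximalIdeal_le (𝔭 : Ideal (s59l_Achi θ))
    (h0 : (maximalIdeal 𝔅).map (algebraMap 𝔅 (s59l_Achi θ)) ≤ 𝔭)
    (hv : ∀ i, s59l_v θ i ∈ 𝔭) (hw : ∀ i, s59l_w θ i ∈ 𝔭) :
    maximalIdeal (s59l_Achi θ) ≤ 𝔭 := by
  intro x hx
  obtain ⟨F, rfl⟩ := Ideal.Quotient.mk_surjective x
  have hF : F ∈ maximalIdeal (s59l_P 𝔅) := by
    rw [mem_maximalIdeal, mem_nonunits_iff]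
    intro hu
    exact hx (hu.map (Ideal.Quotient.mk (s59l_K θ)))
  set r₀ := constantCoeff F with hr₀
  set c₀ := constantCoeff r₀ with hc₀
  have hc₀m : c₀ ∈ maximalIdeal 𝔅 := by
    rw [mem_maximalIdeal, mem_nonunits_iff, MvPowerSeries.isUnit_iff_constantCoeff,
      MvPowerSeries.isUnit_iff_constantCoeff] at hF
    exact hF
  have hsplit : F = (F - C r₀) + C (r₀ - C c₀) + C (C c₀) := by
    rw [map_sub]; ring
  rw [hsplit, map_add, map_add]
  refine Ideal.add_mem _ (Ideal.add_mem _ ?_ ?_) ?_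
  · have h1 := s59l_sub_C_mem F
    have h2 : Ideal.span (Set.range (X : s59l_I → s59l_P 𝔅)) ≤
        Ideal.comap (Ideal.Quotient.mk (s59l_K θ)) 𝔭 := by
      rw [Ideal.span_le]
      rintro _ ⟨i, rfl⟩
      exact hw i
    exact h2 h1
  · have h1 := s59l_sub_C_mem r₀
    have h2 : Ideal.span (Set.range (X : Fin 3 → MvPowerSeries (Fin 3) 𝔅)) ≤
        Ideal.comap ((Ideal.Quotient.mk (s59l_K θ)).comp (C (σ := s59l_I))) 𝔭 := by
      rw [Ideal.span_le]
      rintro _ ⟨i, rfl⟩
      exact hv i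
    exact h2 h1
  · rw [← s59l_algebraMap_Achi]
    exact h0 (Ideal.mem_map_of_mem _ hc₀m)

theorem s59l_Achi_dim :
    ringKrullDim (s59l_Achi θ) ≤ ringKrullDim 𝔅 + 3 := by
  classical
  obtain ⟨i2, hi2⟩ := hθ.two
  set A := s59l_Achi θ
  set e : A := s59l_v θ 0 with he
  set b : A := s59l_v θ 1 with hb
  set c : A := s59l_v θ 2 with hc
  set f : A := s59l_w θ ⟨0⟩ with hf
  set β : A := s59l_w θ ⟨1⟩ with hβ
  set γ : A := s59l_w θ ⟨2⟩ with hγ
  set ϑ : A := algebraMap 𝔅 A θ with hϑ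
  have hquad : e ^ 2 + b * c = ϑ ^ 2 := s59l_rel_quadric θ
  have m01 : f * b = β * e := s59l_rel_minor θ ⟨0⟩ ⟨1⟩
  have m02 : f * c = γ * e := s59l_rel_minor θ ⟨0⟩ ⟨2⟩
  have m12 : β * c = γ * b := s59l_rel_minor θ ⟨1⟩ ⟨2⟩
  set t : Finset A := {f - b, β - c, γ - e} with ht
  have hcard : t.card ≤ 3 := Finset.card_le_three
  have hmain : ringKrullDim A ≤ ringKrullDim 𝔅 + t.card := by
    refine s59l_dim_le (algebraMap 𝔅 A) t ?_ ?_
    · intro x hx
      rw [ht, Finset.mem_insert, Finset.mem_insert, Finset.mem_singleton] at hx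
      rcases hx with rfl | rfl | rfl
      · exact Ideal.sub_mem _ (s59l_w_mem θ _) (s59l_v_mem θ _)
      · exact Ideal.sub_mem _ (s59l_w_mem θ _) (s59l_v_mem θ _)
      · exact Ideal.sub_mem _ (s59l_w_mem θ _) (s59l_v_mem θ _)
    · intro 𝔭 hp h0 htp
      have hp1 : f - b ∈ 𝔭 := htp _ (by rw [ht]; simp)
      have hp2 : β - c ∈ 𝔭 := htp _ (by rw [ht]; simp)
      have hp3 : γ - e ∈ 𝔭 := htp _ (by rw [ht]; simp)
      have hϑp : ϑ ∈ 𝔭 := h0 (Ideal.mem_map_of_mem _ hθ.mem)
      have two_unit : (2 : A) * algebraMap 𝔅 A i2 = 1 := by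
        rw [← map_ofNat (algebraMap 𝔅 A) 2, ← map_mul, hi2, map_one]
      -- `2 e² ∈ 𝔭`
      have he2 : e ^ 2 ∈ 𝔭 := by
        have h1 : 2 * e ^ 2 = ϑ * ϑ + (f - b) * c - (γ - e) * e := by
          linear_combination hquad - m02
        have h2 : 2 * e ^ 2 ∈ 𝔭 := by
          rw [h1]
          exact Ideal.sub_mem _ (Ideal.add_mem _ (Ideal.mul_mem_left _ _ hϑp)
            (Ideal.mul_mem_right _ _ hp1)) (Ideal.mul_mem_right _ _ hp3)
        have h3 : e ^ 2 = algebraMap 𝔅 A i2 * (2 * e ^ 2) := by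
          linear_combination -(e ^ 2) * two_unit
        rw [h3]
        exact Ideal.mul_mem_left _ _ h2
      have hep : e ∈ 𝔭 := hp.mem_of_pow_mem 2 he2
      have hbp : b ∈ 𝔭 := by
        refine hp.mem_of_pow_mem 2 ?_
        have h1 : b ^ 2 = (β - c) * e + c * e - (f - b) * b := by
          linear_combination m01
        rw [h1]
        exact Ideal.sub_mem _ (Ideal.add_mem _ (Ideal.mul_mem_left _ _ hep)
          (Ideal.mul_mem_left _ _ hep)) (Ideal.mul_mem_right _ _ hp1)
      have hcp : c ∈ 𝔭 := by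
        refine hp.mem_of_pow_mem 2 ?_
        have h1 : c ^ 2 = (γ - e) * b + e * b - (β - c) * c := by
          linear_combination m12
        rw [h1]
        exact Ideal.sub_mem _ (Ideal.add_mem _ (Ideal.mul_mem_left _ _ hbp)
          (Ideal.mul_mem_left _ _ hbp)) (Ideal.mul_mem_right _ _ hp2)
      have hfp : f ∈ 𝔭 := by
        have : f = (f - b) + b := by ring
        rw [this]; exact Ideal.add_mem _ hp1 hbp
      have hβp : β ∈ 𝔭 := by
        have : β = (β - c) + c := by ring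
        rw [this]; exact Ideal.add_mem _ hp2 hcp
      have hγp : γ ∈ 𝔭 := by
        have : γ = (γ - e) + e := by ring
        rw [this]; exact Ideal.add_mem _ hp3 hep
      refine s59l_maximalIdeal_le θ 𝔭 h0 ?_ ?_
      · intro i
        fin_cases i
        · exact hep
        · exact hbp
        · exact hcp
      · rintro ⟨i⟩
        fin_cases i
        · exact hfp
        · exact hβp
        · exact hγp
  refine hmain.trans ?_
  have : ((t.card : ℕ) : WithBot ℕ∞) ≤ 3 := by exact_mod_cast hcard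
  exact add_le_add_right this _

end Ring

end Fermat.Agent.Lib.S59
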