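/-
[LOC] part 5 (helper4): the two universal constructions on `A^χ = P ⧸ K` needed by the iteration
over the primes of `B`: the descent to a complete local ring in which the type-χ relations hold
(`s59l_Achi_desc`, from (K-kill)) and the closed point `{v = 0, θ = 0}` (`s59l_Achi_eps`, from
`s59l_K_le`).
-/
import Mathlib
import Fermat.Agent.Lib.S59.LChiRing

set_option autoImplicit false
set_option linter.unusedSectionVars false
set_option linter.style.haveILetI false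

noncomputable section

namespace Fermat.Agent.Lib.S59

open IsLocalRing MvPowerSeries Fermat.Agent.Lib.Deform

section Step

variable {𝔅 : Type*} [CommRing 𝔅] [IsLocalRing 𝔅] [IsNoetherianRing 𝔅]
  [IsAdicComplete (maximalIdeal 𝔅) 𝔅] [IsDomain 𝔅] (θ : 𝔅) [hθ : s59l_Hyp θ]

/-- **descent**: a ring map `g : 𝔅 → T` into a complete local ring extends to `A^χ` as soon as
the images `a` of `v` and `b` of `w` lie in `𝔪_T`, satisfy the type-χ relations, and `g θ` is a
non-zero-divisor. -/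
theorem s59l_Achi_desc {T : Type*} [CommRing T] [IsLocalRing T]
    [IsAdicComplete (maximalIdeal T) T] (g : 𝔅 →+* T) (a b : Fin 3 → T)
    (ha : ∀ k, a k ∈ maximalIdeal T) (hb : ∀ k, b k ∈ maximalIdeal T)
    (hq : a 0 ^ 2 + a 1 * a 2 = g θ ^ 2) (hmin : ∀ k k', b k * a k' = b k' * a k)
    (htf : ∀ x : T, g θ * x = 0 → x = 0) :
    ∃ φ : s59l_Achi θ →+* T, (∀ x, φ (algebraMap 𝔅 (s59l_Achi θ) x) = g x) ∧
      (∀ k, φ (s59l_v θ k) = a k) ∧ (∀ k, φ (s59l_w θ ⟨k⟩) = b k) := by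
  letI : Algebra 𝔅 T := g.toAlgebra
  set φ₁ : MvPowerSeries (Fin 3) 𝔅 →ₐ[𝔅] T := evalHom (maximalIdeal T) a ha with hφ₁
  letI : Algebra (MvPowerSeries (Fin 3) 𝔅) T := φ₁.toRingHom.toAlgebra
  set φ₂ : s59l_P 𝔅 →ₐ[MvPowerSeries (Fin 3) 𝔅] T :=
    evalHom (maximalIdeal T) (fun i : s59l_I => b i.down) (fun i => hb i.down) with hφ₂
  have h1X : ∀ k, φ₁ (X k) = a k := fun k => evalHom_X _ _ _ k
  have h1C : ∀ x : 𝔅, φ₁ (C x) = g x := fun x => s59l_algHom_C φ₁ x
  have h2X : ∀ i : s59l_I, φ₂ (X i) = b i.down := fun i => evalHom_X _ _ _ i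
  have h2C : ∀ c : MvPowerSeries (Fin 3) 𝔅, φ₂ (C c) = φ₁ c := fun c => s59l_algHom_C φ₂ c
  have hkill : ∀ F ∈ s59l_K θ, (φ₂ : s59l_P 𝔅 →+* T) F = 0 := by
    intro F hF
    refine s59l_K_kill θ (maximalIdeal T) (φ₂ : s59l_P 𝔅 →+* T) ?_ ?_ ?_ ?_ F hF
    · intro i
      show φ₂ (X i) ∈ _
      rw [h2X]; exact hb _
    · show φ₂ (C (s59l_q0 θ)) = 0
      rw [h2C, s59l_q0, map_sub, map_add, map_pow, map_mul, h1X, h1X, h1X, h1C, map_pow, hq,
        sub_self]
    · intro i j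
      show φ₂ (X i) * φ₂ (C (X j.down)) = φ₂ (X j) * φ₂ (C (X i.down))
      rw [h2X, h2X, h2C, h2C, h1X, h1X]
      exact hmin _ _
    · intro x hx
      have : φ₂ (C (C θ)) * x = 0 := hx
      rw [h2C, h1C] at this
      exact htf x this
  refine ⟨Ideal.Quotient.lift (s59l_K θ) (φ₂ : s59l_P 𝔅 →+* T) hkill, ?_, ?_, ?_⟩
  · intro x
    rw [s59l_algebraMap_Achi, Ideal.Quotient.lift_mk]
    show φ₂ (C (C x)) = g x
    rw [h2C, h1C]
  · intro k
    rw [s59l_v, Ideal.Quotient.lift_mk]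
    show φ₂ (C (X k)) = a k
    rw [h2C, h1X]
  · intro k
    rw [s59l_w, Ideal.Quotient.lift_mk]
    show φ₂ (X _) = b k
    rw [h2X]

/-- **the closed point** `{v = 0, θ = 0}` of `A^χ`, relative to a point `ε` of `𝔅` with
`ε θ = 0`. -/
theorem s59l_Achi_eps {E : Type*} [CommRing E] (ε : 𝔅 →+* E) (hε : ε θ = 0) :
    ∃ ε' : s59l_Achi θ →+* MvPowerSeries s59l_I E,
      (∀ x, ε' (algebraMap 𝔅 (s59l_Achi θ) x) = C (ε x)) ∧
      (∀ k, ε' (s59l_v θ k) = 0) ∧ (∀ i, ε' (s59l_w θ i) = X i) := by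
  set ζ : s59l_P 𝔅 →+* MvPowerSeries s59l_I E :=
    MvPowerSeries.map (ε.comp (constantCoeff (σ := Fin 3) (R := 𝔅))) with hζ
  have hkill : ∀ F ∈ s59l_K θ, ζ F = 0 := by
    intro F hF
    ext d
    rw [hζ, coeff_map, map_zero, RingHom.comp_apply]
    obtain ⟨x, hx⟩ := Ideal.mem_span_singleton'.mp (s59l_K_le θ hθ.ne F hF d)
    rw [← hx, map_mul, map_pow, hε]
    simp
  refine ⟨Ideal.Quotient.lift (s59l_K θ) ζ hkill, ?_, ?_, ?_⟩
  · intro x
    rw [s59l_algebraMap_Achi, Ideal.Quotient.lift_mk, hζ, map_C, RingHom.comp_apply,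
      constantCoeff_C]
  · intro k
    rw [s59l_v, Ideal.Quotient.lift_mk, hζ, map_C, RingHom.comp_apply, constantCoeff_X, map_zero,
      map_zero]
  · intro i
    rw [s59l_w, Ideal.Quotient.lift_mk, hζ, map_X]

/-- the closed point, with values in an arbitrary complete local ring. -/
theorem s59l_Achi_epsT {T : Type*} [CommRing T] [IsLocalRing T]
    [IsAdicComplete (maximalIdeal T) T] (g : 𝔅 →+* T) (hg : g θ = 0) (b : Fin 3 → T)
    (hb : ∀ k, b k ∈ maximalIdeal T) :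
    ∃ ε' : s59l_Achi θ →+* T, (∀ x, ε' (algebraMap 𝔅 (s59l_Achi θ) x) = g x) ∧
      (∀ k, ε' (s59l_v θ k) = 0) ∧ (∀ k, ε' (s59l_w θ ⟨k⟩) = b k) := by
  obtain ⟨ε₀, h0, h1, h2⟩ := s59l_Achi_eps θ g hg
  set ev : MvPowerSeries s59l_I T →ₐ[T] T :=
    evalHom (maximalIdeal T) (fun i : s59l_I => b i.down) (fun i => hb i.down) with hev
  have hevX : ∀ i : s59l_I, ev (X i) = b i.down := fun i => evalHom_X _ _ _ i
  have hevC : ∀ c : T, ev (C c) = c := fun c => by
    rw [s59l_algHom_C ev c, Algebra.algebraMap_self, RingHom.id_apply]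
  refine ⟨(ev : MvPowerSeries s59l_I T →+* T).comp ε₀, ?_, ?_, ?_⟩
  · intro x
    rw [RingHom.comp_apply, h0]
    exact hevC _
  · intro k
    rw [RingHom.comp_apply, h1, map_zero]
  · intro k
    rw [RingHom.comp_apply, h2]
    exact hevX _

/-- `𝔅 → A^χ` has a retraction (`v ↦ (θ, 0, 0)`, `w ↦ 0`); in particular it is injective. -/
theorem s59l_Achi_algebraMap_injective :
    Function.Injective (algebraMap 𝔅 (s59l_Achi θ)) := by
  obtain ⟨φ, hφ, -, -⟩ := s59l_Achi_desc θ (RingHom.id 𝔅) ![θ, 0, 0] ![0, 0, 0]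
    (by
      intro k
      fin_cases k
      · exact hθ.mem
      · exact zero_mem _
      · exact zero_mem _)
    (by
      intro k
      fin_cases k <;> exact zero_mem _)
    (by simp)
    (by
      intro k k'
      fin_cases k <;> fin_cases k' <;> simp)
    (by
      intro x hx
      rw [RingHom.id_apply] at hx
      rcases mul_eq_zero.mp hx with h | h
      · exact absurd h hθ.ne
      · exact h)
  intro x y hxy
  have := congrArg φ hxy
  rwa [hφ, hφ, RingHom.id_apply, RingHom.id_apply] at this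

end Step

end Fermat.Agent.Lib.S59
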