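/-
[LOC] part 6 (helper4): the iteration of `A ↦ A^χ` over the `m` primes of `B`, with a parameter
`θ j` for each prime (type `χ_{b_j}`, `θ_j = (b_j − b_j⁻¹)/2`).  A stage `s59l_Stage 𝒪 θ` is the
ring `A^χ_m` (`m`-fold iterate over `𝒪`) with its generators `v j k`, `w j k`, its universal
property towards `θ`-torsion-free complete local `𝒪`-algebras (`desc`), its universal closed
point (`eps`: `𝔪_𝒪 ↦ 0`, `v ↦ 0`, `w` free) and its dimension bound.
-/
import Mathlib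
import Fermat.Agent.Lib.S59.LStep

set_option autoImplicit false
set_option linter.unusedSectionVars false
set_option linter.unusedVariables false
set_option linter.style.haveILetI false

noncomputable section

namespace Fermat.Agent.Lib.S59

open IsLocalRing MvPowerSeries Fermat.Agent.Lib.Deform

/-- a stage of the tower of type-χ rings over `𝒪`. -/
structure s59l_Stage (𝒪 : Type) [CommRing 𝒪] [IsLocalRing 𝒪] {m : ℕ} (θ : Fin m → 𝒪) :
    Type 1 where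
  A : Type
  [cr : CommRing A]
  [loc : IsLocalRing A]
  [noeth : IsNoetherianRing A]
  [dom : IsDomain A]
  [compl : IsAdicComplete (maximalIdeal A) A]
  [fin : Finite (ResidueField A)]
  [alg : Algebra 𝒪 A]
  [lochom : IsLocalHom (algebraMap 𝒪 A)]
  inj : Function.Injective (algebraMap 𝒪 A)
  v : Fin m → Fin 3 → A
  w : Fin m → Fin 3 → A
  v_mem : ∀ j k, v j k ∈ maximalIdeal A
  w_mem : ∀ j k, w j k ∈ maximalIdeal A
  max_le : ∀ 𝔭 : Ideal A, (maximalIdeal 𝒪).map (algebraMap 𝒪 A) ≤ 𝔭 → (∀ j k, v j k ∈ 𝔭) →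
    (∀ j k, w j k ∈ 𝔭) → maximalIdeal A ≤ 𝔭
  res : ∀ a : A, ∃ t : 𝒪, a - algebraMap 𝒪 A t ∈ maximalIdeal A
  dim_le : ringKrullDim A ≤ ringKrullDim 𝒪 + ((3 * m : ℕ) : WithBot ℕ∞)
  quad : ∀ j, v j 0 ^ 2 + v j 1 * v j 2 = algebraMap 𝒪 A (θ j) ^ 2
  minor : ∀ j k k', w j k * v j k' = w j k' * v j k
  desc : ∀ (T : Type) [CommRing T] [IsLocalRing T] [IsAdicComplete (maximalIdeal T) T]
    [Algebra 𝒪 T] (a b : Fin m → Fin 3 → T), (∀ j k, a j k ∈ maximalIdeal T) →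
    (∀ j k, b j k ∈ maximalIdeal T) →
    (∀ j, a j 0 ^ 2 + a j 1 * a j 2 = algebraMap 𝒪 T (θ j) ^ 2) →
    (∀ j k k', b j k * a j k' = b j k' * a j k) →
    (∀ j, ∀ x : T, algebraMap 𝒪 T (θ j) * x = 0 → x = 0) →
    ∃ φ : A →ₐ[𝒪] T, (∀ j k, φ (v j k) = a j k) ∧ (∀ j k, φ (w j k) = b j k)
  eps : ∀ (T : Type) [CommRing T] [IsLocalRing T] [IsAdicComplete (maximalIdeal T) T]
    [Algebra 𝒪 T] (b : Fin m → Fin 3 → T), (∀ j k, b j k ∈ maximalIdeal T) →
    (∀ t ∈ maximalIdeal 𝒪, algebraMap 𝒪 T t = 0) →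
    ∃ φ : A →ₐ[𝒪] T, (∀ j k, φ (v j k) = 0) ∧ (∀ j k, φ (w j k) = b j k)

attribute [instance] s59l_Stage.cr s59l_Stage.loc s59l_Stage.noeth s59l_Stage.dom
  s59l_Stage.compl s59l_Stage.fin s59l_Stage.alg s59l_Stage.lochom

section Tower

variable {𝒪 : Type} [CommRing 𝒪] [IsLocalRing 𝒪] [IsNoetherianRing 𝒪] [IsDomain 𝒪]
  [IsAdicComplete (maximalIdeal 𝒪) 𝒪] [Finite (ResidueField 𝒪)]

/-- the stage `m = 0`: the ring `𝒪` itself. -/
def s59l_stage0 (θ : Fin 0 → 𝒪) : s59l_Stage 𝒪 θ where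
  A := 𝒪
  lochom := by
    rw [Algebra.algebraMap_self]
    infer_instance
  inj := by
    rw [Algebra.algebraMap_self]
    exact Function.injective_id
  v := fun j => j.elim0
  w := fun j => j.elim0
  v_mem := fun j => j.elim0
  w_mem := fun j => j.elim0
  max_le := by
    intro 𝔭 h _ _
    rwa [Algebra.algebraMap_self, Ideal.map_id] at h
  res := fun a => ⟨a, by rw [Algebra.algebraMap_self, RingHom.id_apply, sub_self]; exact zero_mem _⟩
  dim_le := by simp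
  quad := fun j => j.elim0
  minor := fun j => j.elim0
  desc := by
    intro T _ _ _ _ a b _ _ _ _ _
    exact ⟨Algebra.ofId 𝒪 T, fun j => j.elim0, fun j => j.elim0⟩
  eps := by
    intro T _ _ _ _ b _ _
    exact ⟨Algebra.ofId 𝒪 T, fun j => j.elim0, fun j => j.elim0⟩

section Next

variable {m : ℕ} {θ : Fin m → 𝒪} (G : s59l_Stage 𝒪 θ) (ϑ : 𝒪) [hϑ : s59l_Hyp ϑ]

omit [IsNoetherianRing 𝒪] [IsDomain 𝒪] [IsAdicComplete (maximalIdeal 𝒪) 𝒪]
  [Finite (ResidueField 𝒪)] in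
/-- the image of an admissible `ϑ` in the ring of a stage is admissible. -/
instance s59l_Stage.hypOf : s59l_Hyp (algebraMap 𝒪 G.A ϑ) where
  mem := by
    have h : ¬ IsUnit ϑ := hϑ.mem
    intro hu
    exact h (isUnit_of_map_unit (algebraMap 𝒪 G.A) ϑ hu)
  ne := by
    intro h0
    exact hϑ.ne (G.inj (by rw [h0, map_zero]))
  two := by
    obtain ⟨i2, hi2⟩ := hϑ.two
    exact ⟨algebraMap 𝒪 G.A i2, by rw [← map_ofNat (algebraMap 𝒪 G.A) 2, ← map_mul, hi2, map_one]⟩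

/-- the image of `ϑ` in the ring of a stage. -/
abbrev s59l_Stage.ϑ' : G.A := algebraMap 𝒪 G.A ϑ

omit [IsNoetherianRing 𝒪] [IsDomain 𝒪] [IsAdicComplete (maximalIdeal 𝒪) 𝒪]
  [Finite (ResidueField 𝒪)] in
theorem s59l_algebraMap_next (t : 𝒪) :
    algebraMap 𝒪 (s59l_Achi (G.ϑ' ϑ)) t =
      algebraMap G.A (s59l_Achi (G.ϑ' ϑ)) (algebraMap 𝒪 G.A t) :=
  IsScalarTower.algebraMap_apply 𝒪 G.A (s59l_Achi (G.ϑ' ϑ)) t

/-- the generators `v` of the next stage. -/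
def s59l_nextV : Fin (m + 1) → Fin 3 → s59l_Achi (G.ϑ' ϑ) :=
  Fin.snoc (α := fun _ => Fin 3 → s59l_Achi (G.ϑ' ϑ))
    (fun j k => algebraMap G.A (s59l_Achi (G.ϑ' ϑ)) (G.v j k)) (fun k => s59l_v (G.ϑ' ϑ) k)

/-- the generators `w` of the next stage. -/
def s59l_nextW : Fin (m + 1) → Fin 3 → s59l_Achi (G.ϑ' ϑ) :=
  Fin.snoc (α := fun _ => Fin 3 → s59l_Achi (G.ϑ' ϑ))
    (fun j k => algebraMap G.A (s59l_Achi (G.ϑ' ϑ)) (G.w j k)) (fun k => s59l_w (G.ϑ' ϑ) ⟨k⟩)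

omit [IsNoetherianRing 𝒪] [IsDomain 𝒪] [IsAdicComplete (maximalIdeal 𝒪) 𝒪]
  [Finite (ResidueField 𝒪)] in
theorem s59l_nextV_last : s59l_nextV G ϑ (Fin.last m) = fun k => s59l_v (G.ϑ' ϑ) k := by
  rw [s59l_nextV, Fin.snoc_last]

omit [IsNoetherianRing 𝒪] [IsDomain 𝒪] [IsAdicComplete (maximalIdeal 𝒪) 𝒪]
  [Finite (ResidueField 𝒪)] in
theorem s59l_nextV_castSucc (j : Fin m) :
    s59l_nextV G ϑ j.castSucc = fun k => algebraMap G.A (s59l_Achi (G.ϑ' ϑ)) (G.v j k) := by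
  rw [s59l_nextV, Fin.snoc_castSucc]

omit [IsNoetherianRing 𝒪] [IsDomain 𝒪] [IsAdicComplete (maximalIdeal 𝒪) 𝒪]
  [Finite (ResidueField 𝒪)] in
theorem s59l_nextW_last : s59l_nextW G ϑ (Fin.last m) = fun k => s59l_w (G.ϑ' ϑ) ⟨k⟩ := by
  rw [s59l_nextW, Fin.snoc_last]

omit [IsNoetherianRing 𝒪] [IsDomain 𝒪] [IsAdicComplete (maximalIdeal 𝒪) 𝒪]
  [Finite (ResidueField 𝒪)] in
theorem s59l_nextW_castSucc (j : Fin m) :
    s59l_nextW G ϑ j.castSucc = fun k => algebraMap G.A (s59l_Achi (G.ϑ' ϑ)) (G.w j k) := by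
  rw [s59l_nextW, Fin.snoc_castSucc]

omit [IsNoetherianRing 𝒪] [IsDomain 𝒪] [IsAdicComplete (maximalIdeal 𝒪) 𝒪]
  [Finite (ResidueField 𝒪)] in
/-- the descent for the next stage. -/
theorem s59l_next_desc (ϑs : Fin (m + 1) → 𝒪) (hinit : ∀ j : Fin m, ϑs j.castSucc = θ j)
    (hlast : ϑs (Fin.last m) = ϑ)
    (T : Type) [CommRing T] [IsLocalRing T]
    [IsAdicComplete (maximalIdeal T) T] [Algebra 𝒪 T] (a b : Fin (m + 1) → Fin 3 → T)
    (ha : ∀ j k, a j k ∈ maximalIdeal T) (hb : ∀ j k, b j k ∈ maximalIdeal T)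
    (hq : ∀ j, a j 0 ^ 2 + a j 1 * a j 2 = algebraMap 𝒪 T (ϑs j) ^ 2)
    (hmin : ∀ j k k', b j k * a j k' = b j k' * a j k)
    (htf : ∀ j, ∀ x : T, algebraMap 𝒪 T (ϑs j) * x = 0 → x = 0) :
    ∃ φ : s59l_Achi (G.ϑ' ϑ) →ₐ[𝒪] T, (∀ j k, φ (s59l_nextV G ϑ j k) = a j k) ∧
      (∀ j k, φ (s59l_nextW G ϑ j k) = b j k) := by
  obtain ⟨φm, hφv, hφw⟩ := G.desc T (fun j => a j.castSucc) (fun j => b j.castSucc)
    (fun j k => ha _ k) (fun j k => hb _ k) (fun j => by rw [← hinit j]; exact hq _)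
    (fun j k k' => hmin _ k k') (fun j => by rw [← hinit j]; exact htf _)
  have hθT : (φm : G.A →+* T) (G.ϑ' ϑ) = algebraMap 𝒪 T ϑ := φm.commutes ϑ
  obtain ⟨φ, hφ0, hφ1, hφ2⟩ := s59l_Achi_desc (G.ϑ' ϑ) (φm : G.A →+* T) (a (Fin.last m))
    (b (Fin.last m)) (ha _) (hb _) (by rw [hθT, ← hlast]; exact hq _) (hmin _)
    (by rw [hθT, ← hlast]; exact htf _)
  refine ⟨{ φ with commutes' := fun t => ?_ }, ?_, ?_⟩
  · show φ (algebraMap 𝒪 (s59l_Achi (G.ϑ' ϑ)) t) = algebraMap 𝒪 T t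
    rw [s59l_algebraMap_next, hφ0]
    exact φm.commutes t
  · intro j
    refine Fin.lastCases ?_ (fun i => ?_) j
    · rw [s59l_nextV_last]; exact fun k => hφ1 k
    · rw [s59l_nextV_castSucc]
      intro k
      show φ (algebraMap G.A (s59l_Achi (G.ϑ' ϑ)) (G.v i k)) = _
      rw [hφ0]; exact hφv i k
  · intro j
    refine Fin.lastCases ?_ (fun i => ?_) j
    · rw [s59l_nextW_last]; exact fun k => hφ2 k
    · rw [s59l_nextW_castSucc]
      intro k
      show φ (algebraMap G.A (s59l_Achi (G.ϑ' ϑ)) (G.w i k)) = _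
      rw [hφ0]; exact hφw i k

omit [IsNoetherianRing 𝒪] [IsDomain 𝒪] [IsAdicComplete (maximalIdeal 𝒪) 𝒪]
  [Finite (ResidueField 𝒪)] in
/-- the closed point of the next stage. -/
theorem s59l_next_eps (T : Type) [CommRing T] [IsLocalRing T]
    [IsAdicComplete (maximalIdeal T) T] [Algebra 𝒪 T] (b : Fin (m + 1) → Fin 3 → T)
    (hb : ∀ j k, b j k ∈ maximalIdeal T) (h0 : ∀ t ∈ maximalIdeal 𝒪, algebraMap 𝒪 T t = 0) :
    ∃ φ : s59l_Achi (G.ϑ' ϑ) →ₐ[𝒪] T, (∀ j k, φ (s59l_nextV G ϑ j k) = 0) ∧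
      (∀ j k, φ (s59l_nextW G ϑ j k) = b j k) := by
  obtain ⟨φm, hφv, hφw⟩ := G.eps T (fun j => b j.castSucc) (fun j k => hb _ k) h0
  have hθT : (φm : G.A →+* T) (G.ϑ' ϑ) = 0 := by
    have : (φm : G.A →+* T) (G.ϑ' ϑ) = algebraMap 𝒪 T ϑ := φm.commutes ϑ
    rw [this]
    exact h0 ϑ hϑ.mem
  obtain ⟨φ, hφ0, hφ1, hφ2⟩ := s59l_Achi_epsT (G.ϑ' ϑ) (φm : G.A →+* T) hθT (b (Fin.last m))
    (hb _)
  refine ⟨{ φ with commutes' := fun t => ?_ }, ?_, ?_⟩
  · show φ (algebraMap 𝒪 (s59l_Achi (G.ϑ' ϑ)) t) = algebraMap 𝒪 T t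
    rw [s59l_algebraMap_next, hφ0]
    exact φm.commutes t
  · intro j
    refine Fin.lastCases ?_ (fun i => ?_) j
    · rw [s59l_nextV_last]; exact fun k => hφ1 k
    · rw [s59l_nextV_castSucc]
      intro k
      show φ (algebraMap G.A (s59l_Achi (G.ϑ' ϑ)) (G.v i k)) = _
      rw [hφ0]; exact hφv i k
  · intro j
    refine Fin.lastCases ?_ (fun i => ?_) j
    · rw [s59l_nextW_last]; exact fun k => hφ2 k
    · rw [s59l_nextW_castSucc]
      intro k
      show φ (algebraMap G.A (s59l_Achi (G.ϑ' ϑ)) (G.w i k)) = _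
      rw [hφ0]; exact hφw i k

end Next

/-- the next stage. -/
def s59l_next {m : ℕ} (θ : Fin (m + 1) → 𝒪) [hϑ : s59l_Hyp (θ (Fin.last m))]
    (G : s59l_Stage 𝒪 (Fin.init θ)) : s59l_Stage 𝒪 θ where
  A := s59l_Achi (G.ϑ' (θ (Fin.last m)))
  lochom := by
    rw [IsScalarTower.algebraMap_eq 𝒪 G.A (s59l_Achi (G.ϑ' (θ (Fin.last m))))]
    infer_instance
  inj := by
    intro x y hxy
    rw [s59l_algebraMap_next, s59l_algebraMap_next] at hxy
    exact G.inj (s59l_Achi_algebraMap_injective _ hxy)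
  v := s59l_nextV G (θ (Fin.last m))
  w := s59l_nextW G (θ (Fin.last m))
  v_mem := by
    intro j
    refine Fin.lastCases ?_ (fun i => ?_) j
    · rw [s59l_nextV_last]; exact fun k => s59l_v_mem _ k
    · rw [s59l_nextV_castSucc]
      exact fun k => s59p_map_mem _ (G.v_mem i k)
  w_mem := by
    intro j
    refine Fin.lastCases ?_ (fun i => ?_) j
    · rw [s59l_nextW_last]; exact fun k => s59l_w_mem _ _
    · rw [s59l_nextW_castSucc]
      exact fun k => s59p_map_mem _ (G.w_mem i k)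
  max_le := by
    intro 𝔭 h0 hv hw
    refine s59l_maximalIdeal_le (G.ϑ' (θ (Fin.last m))) 𝔭 ?_ ?_ ?_
    · rw [Ideal.map_le_iff_le_comap]
      refine G.max_le (Ideal.comap (algebraMap G.A (s59l_Achi (G.ϑ' (θ (Fin.last m))))) 𝔭)
        ?_ ?_ ?_
      · rw [← Ideal.map_le_iff_le_comap, Ideal.map_map,
          ← IsScalarTower.algebraMap_eq 𝒪 G.A (s59l_Achi (G.ϑ' (θ (Fin.last m))))]
        exact h0
      · intro j k
        rw [Ideal.mem_comap]
        have := hv j.castSucc k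
        rwa [s59l_nextV_castSucc] at this
      · intro j k
        rw [Ideal.mem_comap]
        have := hw j.castSucc k
        rwa [s59l_nextW_castSucc] at this
    · intro i
      have := hv (Fin.last m) i
      rwa [s59l_nextV_last] at this
    · rintro ⟨i⟩
      have := hw (Fin.last m) i
      rwa [s59l_nextW_last] at this
  res := by
    intro a
    obtain ⟨F, rfl⟩ := Ideal.Quotient.mk_surjective a
    obtain ⟨t, ht⟩ := G.res (constantCoeff (constantCoeff F))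
    refine ⟨t, ?_⟩
    rw [s59l_algebraMap_next, s59l_algebraMap_Achi, ← map_sub]
    refine s59p_surj_mem (Ideal.Quotient.mk _) Ideal.Quotient.mk_surjective ?_
    rw [mem_maximalIdeal, mem_nonunits_iff, MvPowerSeries.isUnit_iff_constantCoeff,
      MvPowerSeries.isUnit_iff_constantCoeff, map_sub, map_sub, constantCoeff_C, constantCoeff_C]
    exact ht
  dim_le := by
    have h1 := s59l_Achi_dim (G.ϑ' (θ (Fin.last m)))
    have h2 := G.dim_le
    have e : ((3 * (m + 1) : ℕ) : WithBot ℕ∞) = ((3 * m : ℕ) : WithBot ℕ∞) + 3 := by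
      have : 3 * (m + 1) = 3 * m + 3 := by ring
      rw [this]; push_cast; rfl
    rw [e, ← add_assoc]
    exact h1.trans (add_le_add_left h2 3)
  quad := by
    intro j
    refine Fin.lastCases ?_ (fun i => ?_) j
    · rw [s59l_nextV_last, s59l_algebraMap_next]
      exact s59l_rel_quadric (G.ϑ' (θ (Fin.last m)))
    · rw [s59l_nextV_castSucc, s59l_algebraMap_next]
      show algebraMap G.A (s59l_Achi (G.ϑ' (θ (Fin.last m)))) (G.v i 0) ^ 2 +
        algebraMap G.A (s59l_Achi (G.ϑ' (θ (Fin.last m)))) (G.v i 1) *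
          algebraMap G.A (s59l_Achi (G.ϑ' (θ (Fin.last m)))) (G.v i 2) = _
      have hq : G.v i 0 ^ 2 + G.v i 1 * G.v i 2 = algebraMap 𝒪 G.A (θ i.castSucc) ^ 2 := G.quad i
      rw [← map_pow, ← map_mul, ← map_add, hq, map_pow]
  minor := by
    intro j
    refine Fin.lastCases ?_ (fun i => ?_) j
    · rw [s59l_nextV_last, s59l_nextW_last]
      exact fun k k' => s59l_rel_minor (G.ϑ' (θ (Fin.last m))) ⟨k⟩ ⟨k'⟩
    · rw [s59l_nextV_castSucc, s59l_nextW_castSucc]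
      intro k k'
      show algebraMap G.A (s59l_Achi (G.ϑ' (θ (Fin.last m)))) (G.w i k) *
          algebraMap G.A (s59l_Achi (G.ϑ' (θ (Fin.last m)))) (G.v i k') =
        algebraMap G.A (s59l_Achi (G.ϑ' (θ (Fin.last m)))) (G.w i k') *
          algebraMap G.A (s59l_Achi (G.ϑ' (θ (Fin.last m)))) (G.v i k)
      rw [← map_mul, ← map_mul, G.minor i k k']
  desc := s59l_next_desc G (θ (Fin.last m)) θ (fun j => rfl) rfl
  eps := s59l_next_eps G (θ (Fin.last m))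

/-- the tower. -/
def s59l_stage : (m : ℕ) → (θ : Fin m → 𝒪) → (∀ j, s59l_Hyp (θ j)) → s59l_Stage 𝒪 θ
  | 0, θ, _ => s59l_stage0 θ
  | m + 1, θ, h =>
    haveI := h (Fin.last m)
    s59l_next θ (s59l_stage m (Fin.init θ) (fun j => h j.castSucc))

end Tower

end Fermat.Agent.Lib.S59
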