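/-
(R) S59, [PM] the patching machine (helper4, prefix `s59p_`), part 6: **[PMdim]**
`dim B⟦x₁..x_g⟧ = dim B + g` for a noetherian local ring `B`.
-/
import Mathlib
import Fermat.Agent.Lib.S59.PGraph

set_option autoImplicit false
set_option linter.unusedSectionVars false
set_option linter.unusedVariables false
set_option linter.style.haveILetI false

namespace Fermat.Agent.Lib.S59

open IsLocalRing

theorem s59p_dim_powerSeries (C : Type*) [CommRing C] [IsLocalRing C] [IsNoetherianRing C] :
    ringKrullDim (PowerSeries C) = ringKrullDim C + 1 := by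
  have hker : Ideal.span ({PowerSeries.X} : Set (PowerSeries C)) =
      RingHom.ker (PowerSeries.constantCoeff (R := C)) := by
    apply Ideal.ext
    intro φ
    rw [RingHom.mem_ker, Ideal.mem_span_singleton, PowerSeries.X_dvd_iff]
  have hsurj : Function.Surjective (PowerSeries.constantCoeff (R := C)) := fun c =>
    ⟨PowerSeries.C c, PowerSeries.constantCoeff_C c⟩
  have hX : (PowerSeries.X : PowerSeries C) ∈ maximalIdeal (PowerSeries C) := by
    rw [mem_maximalIdeal, mem_nonunits_iff]
    intro hu
    have := hu.map (PowerSeries.constantCoeff (R := C))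
    rw [PowerSeries.constantCoeff_X] at this
    exact not_isUnit_zero this
  have hreg : (PowerSeries.X : PowerSeries C) ∈ nonZeroDivisors (PowerSeries C) :=
    MvPowerSeries.X_mem_nonzeroDivisors
  rw [← ringKrullDim_quotient_span_singleton_succ_eq_ringKrullDim_of_mem_nonZeroDivisors hreg hX,
    hker]
  congr 1
  exact ringKrullDim_eq_of_ringEquiv (RingHom.quotientKerEquivOfSurjective hsurj)

/-- **[PMdim]** -/
theorem s59p_pmdim : s59p_PMdim := by
  intro B _ _ _ g
  induction g with
  | zero =>
    rw [ringKrullDim_eq_of_ringEquiv (MvPowerSeries.isEmptyEquiv (σ := Fin 0) (R := B)).toRingEquiv]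
    simp
  | succ g ih =>
    rw [ringKrullDim_eq_of_ringEquiv (MvPowerSeries.finSuccEquiv B g).toRingEquiv,
      s59p_dim_powerSeries, ih, add_assoc]
    congr 1

end Fermat.Agent.Lib.S59
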