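/-
[LOC] part 7 (helper4): THE LOCAL NODE of the Ihara-avoidance assembly, on the flat power series
ring `𝒫 = 𝒪⟦V_{j,k}, W_{j,k} (j < m, k < 3), x_1..x_g⟧`:
for every `θ : Fin m → 𝒪` the prime `𝒦_θ` (type `χ_{θ_j}` at the `j`-th prime;
`dim 𝒫/𝒦_θ ≤ dim 𝒪 + 3m + g`; killed by every continuous `𝒪`-algebra map to a `θ`-torsion-free
complete local ring in which the type-χ relations hold) and the canonical prime
`𝔮 = s59l_q ⊇ 𝒦_θ` (`= (𝔪_𝒪, V)`), at which the honest type-1 locus is the unramified locus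
`V = 0` (`s59l_loc_unr`).
-/
import Mathlib
import Fermat.Agent.Lib.S59.LTower
import Fermat.Agent.Lib.S59.LOne
import Fermat.Agent.Lib.S59.PDim

set_option autoImplicit false
set_option linter.unusedSectionVars false
set_option linter.unusedVariables false
set_option linter.style.haveILetI false

noncomputable section

namespace Fermat.Agent.Lib.S59

open IsLocalRing MvPowerSeries Fermat.Agent.Lib.Deform

/-- the variables of `𝒫`. -/
abbrev s59l_Idx (m g : ℕ) : Type := (Fin m × Fin 3) ⊕ (Fin m × Fin 3) ⊕ Fin g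

/-- the flat power series ring `𝒫`. -/
abbrev s59l_Flat (𝒪 : Type) [CommRing 𝒪] (m g : ℕ) : Type := MvPowerSeries (s59l_Idx m g) 𝒪

section Vars

variable {𝒪 : Type} [CommRing 𝒪] {m g : ℕ}

/-- the entries `(e, b, c)` of the trace-free part of `ρ(σ_j)`. -/
def s59l_V (j : Fin m) (k : Fin 3) : s59l_Flat 𝒪 m g := X (Sum.inl (j, k))

/-- the entries `(f, β, γ)` of the trace-free part of `ρ(φ_j)`. -/
def s59l_W (j : Fin m) (k : Fin 3) : s59l_Flat 𝒪 m g := X (Sum.inr (Sum.inl (j, k)))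

/-- the global variables. -/
def s59l_Xv (i : Fin g) : s59l_Flat 𝒪 m g := X (Sum.inr (Sum.inr i))

end Vars

/-- a continuous map of complete local rings which hits generators of the maximal ideal and
the residue field is onto. -/
theorem s59l_surjective_of_gens {𝒪 : Type*} [CommRing 𝒪] [IsLocalRing 𝒪]
    [IsPrecomplete (maximalIdeal 𝒪) 𝒪] {σ : Type*} [Finite σ] {T : Type*} [CommRing T]
    [IsLocalRing T] [Finite (ResidueField T)] [IsHausdorff (maximalIdeal T) T] [Algebra 𝒪 T]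
    (γ : MvPowerSeries σ 𝒪 →ₐ[𝒪] T)
    (hgen : maximalIdeal T ≤ Ideal.span (Set.range fun s => γ (X s)) ⊔
      (maximalIdeal 𝒪).map (algebraMap 𝒪 T))
    (hres : ∀ a : T, ∃ t : 𝒪, a - algebraMap 𝒪 T t ∈ maximalIdeal T) :
    Function.Surjective γ := by
  have hγC : ∀ t : 𝒪, γ (C t) = algebraMap 𝒪 T t := fun t => s59l_algHom_C γ t
  have hle : maximalIdeal T ≤ (maximalIdeal (MvPowerSeries σ 𝒪)).map (γ : _ →+* T) := by
    refine hgen.trans (sup_le ?_ ?_)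
    · rw [Ideal.span_le]
      rintro _ ⟨s, rfl⟩
      exact Ideal.mem_map_of_mem _ (X_mem_maximalIdeal s)
    · rw [Ideal.map_le_iff_le_comap]
      intro t ht
      rw [Ideal.mem_comap, ← hγC t]
      exact Ideal.mem_map_of_mem _ (s59l_C_mem ht)
  have hge : (maximalIdeal (MvPowerSeries σ 𝒪)).map (γ : _ →+* T) ≤ maximalIdeal T := by
    rw [Ideal.map_le_iff_le_comap]
    intro f hf
    exact s59p_map_mem (γ : _ →+* T) hf
  have heq : (maximalIdeal (MvPowerSeries σ 𝒪)).map (γ : _ →+* T) = maximalIdeal T :=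
    le_antisymm hge hle
  haveI : IsHausdorff ((maximalIdeal (MvPowerSeries σ 𝒪)).map (γ : _ →+* T)) T := by
    rw [heq]; infer_instance
  refine surjective_of_mk_map_comp_surjective (I := maximalIdeal (MvPowerSeries σ 𝒪))
    (γ : MvPowerSeries σ 𝒪 →+* T) ?_
  intro q
  obtain ⟨a, rfl⟩ := Ideal.Quotient.mk_surjective q
  obtain ⟨t, ht⟩ := hres a
  refine ⟨C t, ?_⟩
  rw [RingHom.comp_apply, Ideal.Quotient.eq, heq]
  have : (γ : MvPowerSeries σ 𝒪 →+* T) (C t) = algebraMap 𝒪 T t := hγC t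
  rw [this, ← neg_sub]
  exact neg_mem ht

section Psi

variable {𝒪 : Type} [CommRing 𝒪] [IsLocalRing 𝒪] [IsNoetherianRing 𝒪] [IsDomain 𝒪]
  [IsAdicComplete (maximalIdeal 𝒪) 𝒪] [Finite (ResidueField 𝒪)]
  {m : ℕ} {θ : Fin m → 𝒪} (G : s59l_Stage 𝒪 θ) (g : ℕ)

/-- the images of the variables. -/
def s59l_vals : s59l_Idx m g → MvPowerSeries (Fin g) G.A :=
  Sum.elim (fun p => C (G.v p.1 p.2)) (Sum.elim (fun p => C (G.w p.1 p.2)) (fun i => X i))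

theorem s59l_vals_mem (s : s59l_Idx m g) :
    s59l_vals G g s ∈ maximalIdeal (MvPowerSeries (Fin g) G.A) := by
  rcases s with p | p | i
  · exact s59l_C_mem (G.v_mem _ _)
  · exact s59l_C_mem (G.w_mem _ _)
  · exact X_mem_maximalIdeal i

/-- the map `𝒫 → A^χ_m⟦x⟧`. -/
def s59l_Psi : s59l_Flat 𝒪 m g →ₐ[𝒪] MvPowerSeries (Fin g) G.A :=
  evalHom (maximalIdeal (MvPowerSeries (Fin g) G.A)) (s59l_vals G g) (s59l_vals_mem G g)

theorem s59l_Psi_X (s : s59l_Idx m g) : s59l_Psi G g (X s) = s59l_vals G g s :=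
  evalHom_X _ _ _ s

theorem s59l_Psi_V (j : Fin m) (k : Fin 3) : s59l_Psi G g (s59l_V j k) = C (G.v j k) := by
  rw [s59l_V, s59l_Psi_X]; rfl

theorem s59l_Psi_W (j : Fin m) (k : Fin 3) : s59l_Psi G g (s59l_W j k) = C (G.w j k) := by
  rw [s59l_W, s59l_Psi_X]; rfl

theorem s59l_Psi_Xv (i : Fin g) : s59l_Psi G g (s59l_Xv i) = X i := by
  rw [s59l_Xv, s59l_Psi_X]; rfl

theorem s59l_Psi_C (t : 𝒪) : s59l_Psi G g (C t) = C (algebraMap 𝒪 G.A t) := by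
  rw [s59l_algHom_C, MvPowerSeries.algebraMap_apply]

theorem s59l_Psi_surjective : Function.Surjective (s59l_Psi G g) := by
  refine s59l_surjective_of_gens (s59l_Psi G g) ?_ ?_
  · intro f hf
    set 𝔍 : Ideal (MvPowerSeries (Fin g) G.A) :=
      Ideal.span (Set.range fun s => s59l_Psi G g (X s)) ⊔
        (maximalIdeal 𝒪).map (algebraMap 𝒪 (MvPowerSeries (Fin g) G.A)) with h𝔍
    have hX : ∀ s, s59l_vals G g s ∈ 𝔍 := fun s =>
      Ideal.mem_sup_left (Ideal.subset_span ⟨s, s59l_Psi_X G g s⟩)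
    have hc : constantCoeff f ∈ maximalIdeal G.A := by
      rw [mem_maximalIdeal, mem_nonunits_iff, MvPowerSeries.isUnit_iff_constantCoeff] at hf
      exact hf
    have h1 : maximalIdeal G.A ≤ Ideal.comap (C (σ := Fin g) (R := G.A)) 𝔍 := by
      refine G.max_le _ ?_ ?_ ?_
      · rw [Ideal.map_le_iff_le_comap]
        intro t ht
        rw [Ideal.mem_comap, Ideal.mem_comap]
        refine Ideal.mem_sup_right ?_
        rw [← MvPowerSeries.algebraMap_apply]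
        exact Ideal.mem_map_of_mem _ ht
      · intro j k
        exact hX (Sum.inl (j, k))
      · intro j k
        exact hX (Sum.inr (Sum.inl (j, k)))
    have hsplit : f = (f - C (constantCoeff f)) + C (constantCoeff f) := by ring
    rw [hsplit]
    refine Ideal.add_mem _ ?_ (h1 hc)
    have h2 : Ideal.span (Set.range (X : Fin g → MvPowerSeries (Fin g) G.A)) ≤ 𝔍 := by
      rw [Ideal.span_le]
      rintro _ ⟨i, rfl⟩
      exact hX (Sum.inr (Sum.inr i))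
    exact h2 (s59l_sub_C_mem f)
  · intro a
    obtain ⟨t, ht⟩ := G.res (constantCoeff a)
    refine ⟨t, ?_⟩
    rw [mem_maximalIdeal, mem_nonunits_iff, MvPowerSeries.isUnit_iff_constantCoeff, map_sub,
      MvPowerSeries.algebraMap_apply, constantCoeff_C]
    exact ht

end Psi

section Loc

variable {𝒪 : Type} [CommRing 𝒪] [IsLocalRing 𝒪] [IsNoetherianRing 𝒪] [IsDomain 𝒪]
  [IsAdicComplete (maximalIdeal 𝒪) 𝒪] [Finite (ResidueField 𝒪)]

/-- the type-χ relations (parameters `θ j`) for an `𝒪`-algebra map out of `𝒫`. -/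
structure s59l_RelChi {m g : ℕ} (θ : Fin m → 𝒪) {T : Type} [CommRing T] [IsLocalRing T]
    [Algebra 𝒪 T] (φ : s59l_Flat 𝒪 m g →ₐ[𝒪] T) : Prop where
  mem : ∀ s, φ (X s) ∈ maximalIdeal T
  quad : ∀ j, φ (s59l_V j 0) ^ 2 + φ (s59l_V j 1) * φ (s59l_V j 2) = algebraMap 𝒪 T (θ j) ^ 2
  minor : ∀ j k k', φ (s59l_W j k) * φ (s59l_V j k') = φ (s59l_W j k') * φ (s59l_V j k)
  tf : ∀ j, ∀ x : T, algebraMap 𝒪 T (θ j) * x = 0 → x = 0

/-- extension of an `𝒪`-algebra map `G.A → T` to `A^χ_m⟦x⟧`, composed with `Ψ`. -/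
theorem s59l_Psi_factor {m : ℕ} {θ : Fin m → 𝒪} (G : s59l_Stage 𝒪 θ) (g : ℕ) {T : Type}
    [CommRing T] [IsLocalRing T] [IsAdicComplete (maximalIdeal T) T] [Algebra 𝒪 T]
    (φ : s59l_Flat 𝒪 m g →ₐ[𝒪] T) (hmem : ∀ s, φ (X s) ∈ maximalIdeal T)
    (φA : G.A →ₐ[𝒪] T) (hφv : ∀ j k, φA (G.v j k) = φ (s59l_V j k))
    (hφw : ∀ j k, φA (G.w j k) = φ (s59l_W j k)) :
    RingHom.ker (s59l_Psi G g) ≤ RingHom.ker φ := by
  letI : Algebra G.A T := (φA : G.A →+* T).toAlgebra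
  set φx : MvPowerSeries (Fin g) G.A →ₐ[G.A] T :=
    evalHom (maximalIdeal T) (fun i => φ (s59l_Xv i)) (fun i => hmem _) with hφx
  have hxX : ∀ i, φx (X i) = φ (s59l_Xv i) := fun i => evalHom_X _ _ _ i
  have hxC : ∀ c : G.A, φx (C c) = φA c := fun c => s59l_algHom_C φx c
  set ψ : s59l_Flat 𝒪 m g →ₐ[𝒪] T :=
    { toRingHom := (φx : MvPowerSeries (Fin g) G.A →+* T).comp
        (s59l_Psi G g : s59l_Flat 𝒪 m g →+* MvPowerSeries (Fin g) G.A)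
      commutes' := by
        intro t
        show φx (s59l_Psi G g (algebraMap 𝒪 _ t)) = _
        rw [(s59l_Psi G g).commutes, MvPowerSeries.algebraMap_apply, hxC]
        exact φA.commutes t } with hψ
  have hψa : ∀ F, ψ F = φx (s59l_Psi G g F) := fun F => rfl
  have heq : φ = ψ := by
    refine algHom_ext_of_X (maximalIdeal T) hmem fun s => ?_
    rw [hψa, s59l_Psi_X]
    rcases s with p | p | i
    · show φ (s59l_V p.1 p.2) = φx (C (G.v p.1 p.2))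
      rw [hxC, hφv]
    · show φ (s59l_W p.1 p.2) = φx (C (G.w p.1 p.2))
      rw [hxC, hφw]
    · show φ (s59l_Xv i) = φx (X i)
      rw [hxX]
  intro F hF
  rw [RingHom.mem_ker] at hF ⊢
  rw [heq, hψa, hF, map_zero]

/-- (K-kill) for a stage. -/
theorem s59l_Psi_kill {m : ℕ} {θ : Fin m → 𝒪} (G : s59l_Stage 𝒪 θ) (g : ℕ) {T : Type}
    [CommRing T] [IsLocalRing T] [IsAdicComplete (maximalIdeal T) T] [Algebra 𝒪 T]
    (φ : s59l_Flat 𝒪 m g →ₐ[𝒪] T) (hφ : s59l_RelChi θ φ) :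
    RingHom.ker (s59l_Psi G g) ≤ RingHom.ker φ := by
  obtain ⟨φA, hφv, hφw⟩ := G.desc T (fun j k => φ (s59l_V j k)) (fun j k => φ (s59l_W j k))
    (fun j k => hφ.mem _) (fun j k => hφ.mem _) hφ.quad hφ.minor hφ.tf
  exact s59l_Psi_factor G g φ hφ.mem φA hφv hφw

/-! ### the canonical closed point -/

/-- the variables of `k⟦W, x⟧`. -/
abbrev s59l_IdxQ (m g : ℕ) : Type := (Fin m × Fin 3) ⊕ Fin g

instance s59l_complete_residueField :
    IsAdicComplete (maximalIdeal (ResidueField 𝒪)) (ResidueField 𝒪) := by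
  rw [IsLocalRing.maximalIdeal_eq_bot]
  infer_instance

variable (𝒪) in
/-- the images of the variables under the closed point. -/
def s59l_valsQ (m g : ℕ) : s59l_Idx m g → MvPowerSeries (s59l_IdxQ m g) (ResidueField 𝒪) :=
  Sum.elim (fun _ => 0) (Sum.elim (fun p => X (Sum.inl p)) (fun i => X (Sum.inr i)))

theorem s59l_valsQ_mem (m g : ℕ) (s : s59l_Idx m g) :
    s59l_valsQ 𝒪 m g s ∈ maximalIdeal (MvPowerSeries (s59l_IdxQ m g) (ResidueField 𝒪)) := by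
  rcases s with p | p | i
  · exact zero_mem _
  · exact X_mem_maximalIdeal _
  · exact X_mem_maximalIdeal _

variable (𝒪) in
/-- the canonical closed point `𝒫 → k⟦W, x⟧`, `V ↦ 0`. -/
def s59l_EpsQ (m g : ℕ) :
    s59l_Flat 𝒪 m g →ₐ[𝒪] MvPowerSeries (s59l_IdxQ m g) (ResidueField 𝒪) :=
  evalHom (maximalIdeal (MvPowerSeries (s59l_IdxQ m g) (ResidueField 𝒪))) (s59l_valsQ 𝒪 m g)
    (s59l_valsQ_mem m g)

variable (𝒪) in
/-- **the prime `𝔮 = (𝔪_𝒪, V)`** of `𝒫`. -/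
def s59l_q (m g : ℕ) : Ideal (s59l_Flat 𝒪 m g) := RingHom.ker (s59l_EpsQ 𝒪 m g)

instance s59l_q_isPrime (m g : ℕ) : (s59l_q 𝒪 m g).IsPrime := by
  haveI : IsDomain (MvPowerSeries (s59l_IdxQ m g) (ResidueField 𝒪)) :=
    NoZeroDivisors.to_isDomain _
  rw [s59l_q]
  exact RingHom.ker_isPrime _

theorem s59l_EpsQ_X (m g : ℕ) (s : s59l_Idx m g) :
    s59l_EpsQ 𝒪 m g (X s) = s59l_valsQ 𝒪 m g s := evalHom_X _ _ _ s

theorem s59l_EpsQ_V {m g : ℕ} (j : Fin m) (k : Fin 3) : s59l_EpsQ 𝒪 m g (s59l_V j k) = 0 := by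
  rw [s59l_V, s59l_EpsQ_X]; rfl

theorem s59l_EpsQ_W {m g : ℕ} (j : Fin m) (k : Fin 3) :
    s59l_EpsQ 𝒪 m g (s59l_W j k) = X (Sum.inl (j, k)) := by
  rw [s59l_W, s59l_EpsQ_X]; rfl

theorem s59l_EpsQ_Xv {m g : ℕ} (i : Fin g) : s59l_EpsQ 𝒪 m g (s59l_Xv i) = X (Sum.inr i) := by
  rw [s59l_Xv, s59l_EpsQ_X]; rfl

theorem s59l_algebraMap_Q_eq_zero (m g : ℕ) {t : 𝒪} (ht : t ∈ maximalIdeal 𝒪) :
    algebraMap 𝒪 (MvPowerSeries (s59l_IdxQ m g) (ResidueField 𝒪)) t = 0 := by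
  rw [MvPowerSeries.algebraMap_apply]
  have : algebraMap 𝒪 (ResidueField 𝒪) t = 0 := (residue_eq_zero_iff t).mpr ht
  rw [this, map_zero]

theorem s59l_C_mem_q (m g : ℕ) {t : 𝒪} (ht : t ∈ maximalIdeal 𝒪) :
    (C t : s59l_Flat 𝒪 m g) ∈ s59l_q 𝒪 m g := by
  rw [s59l_q, RingHom.mem_ker, s59l_algHom_C]
  exact s59l_algebraMap_Q_eq_zero m g ht

theorem s59l_V_mem_q {m g : ℕ} (j : Fin m) (k : Fin 3) :
    (s59l_V j k : s59l_Flat 𝒪 m g) ∈ s59l_q 𝒪 m g := by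
  rw [s59l_q, RingHom.mem_ker]
  exact s59l_EpsQ_V j k

theorem s59l_X_ne_zero' {σ : Type*} (E : Type*) [CommRing E] [Nontrivial E] (i : σ) :
    (X i : MvPowerSeries σ E) ≠ 0 := by
  classical
  intro h
  have h1 := congrArg (coeff (Finsupp.single i 1)) h
  rw [map_zero, coeff_X, if_pos rfl] at h1
  exact one_ne_zero h1

theorem s59l_quadric_ne_zero' {σ : Type*} (E : Type*) [CommRing E] [Nontrivial E] (a b c : σ)
    (hab : a ≠ b) : (X a ^ 2 + X b * X c : MvPowerSeries σ E) ≠ 0 := by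
  classical
  intro h
  have h1 := congrArg (coeff (Finsupp.single a 2)) h
  rw [map_add, map_zero, X_pow_eq, coeff_monomial_same] at h1
  have h2 : coeff (Finsupp.single a 2) ((X b * X c : MvPowerSeries σ E)) = 0 := by
    have hdvd : (X b : MvPowerSeries σ E) ∣ X b * X c := dvd_mul_right _ _
    rw [X_dvd_iff] at hdvd
    refine hdvd _ ?_
    rw [Finsupp.single_apply, if_neg hab]
  rw [h2, add_zero] at h1
  exact one_ne_zero h1

theorem s59l_W_not_mem_q {m g : ℕ} (j : Fin m) :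
    (s59l_W j 0 : s59l_Flat 𝒪 m g) ∉ s59l_q 𝒪 m g := by
  rw [s59l_q, RingHom.mem_ker]
  show ¬ s59l_EpsQ 𝒪 m g (s59l_W j 0) = 0
  rw [s59l_EpsQ_W]
  exact s59l_X_ne_zero' _ _

theorem s59l_Q_not_mem_q {m g : ℕ} (j : Fin m) :
    (s59l_W j 0 ^ 2 + s59l_W j 1 * s59l_W j 2 : s59l_Flat 𝒪 m g) ∉ s59l_q 𝒪 m g := by
  rw [s59l_q, RingHom.mem_ker]
  show ¬ s59l_EpsQ 𝒪 m g (s59l_W j 0 ^ 2 + s59l_W j 1 * s59l_W j 2) = 0
  rw [map_add, map_pow, map_mul, s59l_EpsQ_W, s59l_EpsQ_W, s59l_EpsQ_W]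
  refine s59l_quadric_ne_zero' _ _ _ _ ?_
  intro h
  have := Sum.inl_injective h
  simp at this

/-- `ker Ψ ≤ 𝔮` for every stage. -/
theorem s59l_Psi_le_q {m : ℕ} {θ : Fin m → 𝒪} (G : s59l_Stage 𝒪 θ) (g : ℕ) :
    RingHom.ker (s59l_Psi G g) ≤ s59l_q 𝒪 m g := by
  obtain ⟨φA, hφv, hφw⟩ := G.eps (MvPowerSeries (s59l_IdxQ m g) (ResidueField 𝒪))
    (fun j k => X (Sum.inl (j, k))) (fun j k => X_mem_maximalIdeal _)
    (fun t ht => s59l_algebraMap_Q_eq_zero m g ht)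
  refine s59l_Psi_factor G g (s59l_EpsQ 𝒪 m g) ?_ φA ?_ ?_
  · intro s
    rw [s59l_EpsQ_X]
    exact s59l_valsQ_mem m g s
  · intro j k
    rw [hφv, s59l_EpsQ_V]
  · intro j k
    rw [hφw, s59l_EpsQ_W]

/-- **the prime `𝒦_θ`** of `𝒫`: type `χ_{θ_j}` at the `j`-th prime. -/
def s59l_KK {m : ℕ} (θ : Fin m → 𝒪) (hθ : ∀ j, s59l_Hyp (θ j)) (g : ℕ) :
    Ideal (s59l_Flat 𝒪 m g) :=
  RingHom.ker (s59l_Psi (s59l_stage m θ hθ) g)

instance s59l_KK_isPrime {m : ℕ} (θ : Fin m → 𝒪) (hθ : ∀ j, s59l_Hyp (θ j)) (g : ℕ) :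
    (s59l_KK θ hθ g).IsPrime := by
  haveI : IsDomain (MvPowerSeries (Fin g) (s59l_stage m θ hθ).A) := NoZeroDivisors.to_isDomain _
  rw [s59l_KK]
  exact RingHom.ker_isPrime _

/-- **[LOC] dimension.** -/
theorem s59l_KK_dim {m : ℕ} (θ : Fin m → 𝒪) (hθ : ∀ j, s59l_Hyp (θ j)) (g : ℕ) :
    ringKrullDim (s59l_Flat 𝒪 m g ⧸ s59l_KK θ hθ g) ≤
      ringKrullDim 𝒪 + ((3 * m + g : ℕ) : WithBot ℕ∞) := by
  set G := s59l_stage m θ hθ with hG
  rw [s59l_KK, ringKrullDim_eq_of_ringEquiv (Ideal.quotientKerAlgEquivOfSurjective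
    (f := s59l_Psi G g) (s59l_Psi_surjective G g)).toRingEquiv, s59p_pmdim G.A g]
  have e : ((3 * m + g : ℕ) : WithBot ℕ∞) = ((3 * m : ℕ) : WithBot ℕ∞) + (g : WithBot ℕ∞) := by
    push_cast; rfl
  rw [e, ← add_assoc]
  exact add_le_add_left G.dim_le _

/-- **[LOC] (K-kill)**, iterated over the `m` primes. -/
theorem s59l_KK_kill {m : ℕ} (θ : Fin m → 𝒪) (hθ : ∀ j, s59l_Hyp (θ j)) (g : ℕ) {T : Type}
    [CommRing T] [IsLocalRing T] [IsAdicComplete (maximalIdeal T) T] [Algebra 𝒪 T]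
    (φ : s59l_Flat 𝒪 m g →ₐ[𝒪] T) (hφ : s59l_RelChi θ φ) : s59l_KK θ hθ g ≤ RingHom.ker φ :=
  s59l_Psi_kill _ g φ hφ

/-- **[LOC]** `𝒦_θ ≤ 𝔮` for every `θ`. -/
theorem s59l_KK_le_q {m : ℕ} (θ : Fin m → 𝒪) (hθ : ∀ j, s59l_Hyp (θ j)) (g : ℕ) :
    s59l_KK θ hθ g ≤ s59l_q 𝒪 m g :=
  s59l_Psi_le_q _ g

/-- an ideal which dies in every irreducible component of a reduced ring dies. -/
theorem s59l_kill_reduced {P C : Type*} [CommRing P] [CommRing C] [IsReduced C] (φ : P →+* C)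
    (I : Ideal P) (h : ∀ 𝔭 ∈ minimalPrimes C, ∀ F ∈ I, φ F ∈ 𝔭) : I ≤ RingHom.ker φ := by
  intro F hF
  rw [RingHom.mem_ker]
  have h1 : φ F ∈ sInf (minimalPrimes C) := by
    rw [Submodule.mem_sInf]
    exact fun 𝔭 h𝔭 => h 𝔭 h𝔭 F hF
  have h2 : sInf (minimalPrimes C) = (⊥ : Ideal C) := by
    rw [minimalPrimes, Ideal.sInf_minimalPrimes]
    exact nilradical_eq_zero C
  rw [h2] at h1
  exact h1

/-- **the unramified component at `𝔮`.**  Every prime `𝔓 ≤ 𝔮` of `𝒫` containing the honest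
type-1 relations `N_j² = 0`, `Φ_j N_j = u_j N_j Φ_j` (`b`- and `c`-coordinates;
`Φ_j = a_j + W_j`, `a_j² = u_j + Q(W_j)`, `u_j ≡ 1`) contains all `V_{j,k}`. -/
theorem s59l_loc_unr (i2 : 𝒪) (hi2 : 2 * i2 = 1) {m g : ℕ}
    (u : Fin m → 𝒪) (hu : ∀ j, u j - 1 ∈ maximalIdeal 𝒪) (a : Fin m → s59l_Flat 𝒪 m g)
    (ha : ∀ j, a j ^ 2 = C (u j) + (s59l_W j 0 ^ 2 + s59l_W j 1 * s59l_W j 2))
    (𝔓 : Ideal (s59l_Flat 𝒪 m g)) [h𝔓 : 𝔓.IsPrime] (hle : 𝔓 ≤ s59l_q 𝒪 m g)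
    (h0 : ∀ j, s59l_r0 (s59l_V j 0 : s59l_Flat 𝒪 m g) (s59l_V j 1) (s59l_V j 2) ∈ 𝔓)
    (h2 : ∀ j, s59l_r2 (s59l_V j 0 : s59l_Flat 𝒪 m g) (s59l_V j 1) (s59l_W j 0) (s59l_W j 1)
      (a j) (C (u j)) ∈ 𝔓)
    (h3 : ∀ j, s59l_r3 (s59l_V j 0 : s59l_Flat 𝒪 m g) (s59l_V j 2) (s59l_W j 0) (s59l_W j 2)
      (a j) (C (u j)) ∈ 𝔓) :
    ∀ j k, (s59l_V j k : s59l_Flat 𝒪 m g) ∈ 𝔓 := by
  have h𝔮 : (s59l_q 𝒪 m g).IsPrime := inferInstance
  have h2q : (2 : s59l_Flat 𝒪 m g) ∉ s59l_q 𝒪 m g := by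
    intro h
    have h1 : (2 : s59l_Flat 𝒪 m g) * C i2 = 1 := by
      rw [← map_ofNat (C (σ := s59l_Idx m g) (R := 𝒪)) 2, ← map_mul, hi2, map_one]
    have : (1 : s59l_Flat 𝒪 m g) ∈ s59l_q 𝒪 m g := h1 ▸ Ideal.mul_mem_right _ _ h
    exact (Ideal.ne_top_iff_one _).mp h𝔮.ne_top this
  intro j
  have huq : (1 : s59l_Flat 𝒪 m g) - C (u j) ∈ s59l_q 𝒪 m g := by
    have := s59l_C_mem_q m g (hu j)
    rw [map_sub, map_one] at this
    rw [← neg_sub]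
    exact neg_mem this
  obtain ⟨he, hb, hc⟩ := s59l_unr_of_prime (s59l_V j 0 : s59l_Flat 𝒪 m g) (s59l_V j 1)
    (s59l_V j 2) (s59l_W j 0) (s59l_W j 1) (s59l_W j 2) (a j) (C (u j)) (ha j) (s59l_q 𝒪 m g)
    huq h2q (s59l_W_not_mem_q j) (s59l_Q_not_mem_q j) 𝔓 hle (h0 j) (h2 j) (h3 j)
  intro k
  fin_cases k
  · exact he
  · exact hb
  · exact hc

end Loc

end Fermat.Agent.Lib.S59
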