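/-
[LOC-E] part 1 (helper4): the unipotent local condition at a prime `ℓ₀ ≢ ±1 (p)` where `ρ̄` is
unramified with `ρ̄(φ) = diag(ε₀u, ε₀)` (`u = det Φ`, `1 ± u` units).  Pure algebra in a local
ring `T`:  `N = [[e,b],[c,−e]]`, `Φ = a + [[f,β],[γ,−f]]`, `f ≡ f₀ := ε₀(u−1)/2`,
`a ≡ a₀ := ε₀(u+1)/2`, `a² = u + f² + βγ`, relations `r₀, r₂, r₃, r₄` of `LOne`.
  * `s59l_unip_dichotomy` : in a domain, `N = 0` (unramified) or `a = a₀` (Steinberg);
  * `s59l_unip_st`        : on the Steinberg branch `f² = f₀² − βγ`, `e(f+f₀) = −bγ`,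
                            `c(f+f₀) = γe`  (so the point is determined by `(b, β, γ)`);
  * `s59l_st_exists`, `s59l_st_unique` : the parametrisation `(b,β,γ) ↦ (F, e, c)`.
-/
import Mathlib
import Fermat.Agent.Lib.S59.LOne

set_option autoImplicit false
set_option linter.unusedSectionVars false

noncomputable section

namespace Fermat.Agent.Lib.S59

open IsLocalRing

section Units

variable {T : Type*} [CommRing T]

theorem s59l_isUnit_two {i2 : T} (hi2 : 2 * i2 = 1) : IsUnit (2 : T) :=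
  IsUnit.of_mul_eq_one _ hi2

theorem s59l_isUnit_i2 {i2 : T} (hi2 : 2 * i2 = 1) : IsUnit (i2 : T) :=
  IsUnit.of_mul_eq_one 2 (by rw [mul_comm]; exact hi2)

theorem s59l_isUnit_eps {ε : T} (hε : ε ^ 2 = 1) : IsUnit ε :=
  IsUnit.of_mul_eq_one ε (by rw [← sq]; exact hε)

end Units

section Unip

variable {T : Type*} [CommRing T] [IsLocalRing T]

/-- a unit plus an element of the maximal ideal is a unit. -/
theorem s59l_isUnit_of_sub_mem {x y : T} (hy : IsUnit y) (h : x - y ∈ maximalIdeal T) :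
    IsUnit x := by
  by_contra hx
  have hxm : x ∈ maximalIdeal T := hx
  have : y ∈ maximalIdeal T := by
    have := Ideal.sub_mem _ hxm h
    rwa [sub_sub_cancel] at this
  exact this hy

/-- **the Steinberg branch.** -/
theorem s59l_unip_st (e b c f β γ a u ε i2 : T) (hi2 : 2 * i2 = 1) (hε : ε ^ 2 = 1)
    (hu1 : IsUnit (1 - u)) (hu2 : IsUnit (1 + u))
    (ha : a ^ 2 = u + (f ^ 2 + β * γ)) (ha0 : a = ε * (u + 1) * i2)
    (hf : f - ε * (u - 1) * i2 ∈ maximalIdeal T)
    (h3 : s59l_r3 e c f γ a u = 0) (h4 : s59l_r4 e b c f β γ u = 0) :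
    f ^ 2 = (ε * (u - 1) * i2) ^ 2 - β * γ ∧
      e * (f + ε * (u - 1) * i2) = -(b * γ) ∧ c * (f + ε * (u - 1) * i2) = γ * e := by
  have h4i : (4 : T) * i2 ^ 2 = 1 := by linear_combination (2 * i2 + 1) * hi2
  have hQ : f ^ 2 = (ε * (u - 1) * i2) ^ 2 - β * γ := by
    have ha' := ha
    rw [ha0] at ha'
    linear_combination (-1 : T) * ha' + ((u + 1) ^ 2 * i2 ^ 2 - (u - 1) ^ 2 * i2 ^ 2) * hε
      + u * h4i
  -- the unit `f + f₀`
  have hf0 : IsUnit (ε * (u - 1) * i2) := by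
    refine ((s59l_isUnit_eps hε).mul ?_).mul (s59l_isUnit_i2 hi2)
    have : u - 1 = -(1 - u) := by ring
    rw [this]
    exact hu1.neg
  have hff0 : IsUnit (f + ε * (u - 1) * i2) := by
    refine s59l_isUnit_of_sub_mem (y := 2 * (ε * (u - 1) * i2))
      ((s59l_isUnit_two hi2).mul hf0) ?_
    have : f + ε * (u - 1) * i2 - 2 * (ε * (u - 1) * i2) = f - ε * (u - 1) * i2 := by ring
    rw [this]
    exact hf
  have hc : c * (f + ε * (u - 1) * i2) = γ * e := by
    have h3' : (1 + u) * (γ * e - c * (f + ε * (u - 1) * i2)) = 0 := by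
      have := h3
      simp only [s59l_r3] at this
      rw [ha0] at this
      linear_combination this
    have := hu2.mul_right_eq_zero.mp h3'
    linear_combination (-1 : T) * this
  have h4' : 2 * e * f + b * γ + c * β = 0 := by
    have := h4
    simp only [s59l_r4] at this
    exact hu1.mul_right_eq_zero.mp this
  refine ⟨hQ, ?_, hc⟩
  have h5 : (f + ε * (u - 1) * i2) * (e * (f + ε * (u - 1) * i2) + b * γ) = 0 := by
    linear_combination (f + ε * (u - 1) * i2) * h4' - β * hc - e * hQ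
  have := hff0.mul_right_eq_zero.mp h5
  linear_combination this

/-- **the dichotomy**: in a domain, a unipotent point is unramified or Steinberg. -/
theorem s59l_unip_dichotomy [IsDomain T] (e b c f β γ a u ε i2 : T) (hi2 : 2 * i2 = 1)
    (hε : ε ^ 2 = 1) (hu0 : IsUnit u) (hu1 : IsUnit (1 - u)) (hu2 : IsUnit (1 + u))
    (ha : a ^ 2 = u + (f ^ 2 + β * γ)) (ha0 : a - ε * (u + 1) * i2 ∈ maximalIdeal T)
    (hf : f - ε * (u - 1) * i2 ∈ maximalIdeal T)
    (h0 : s59l_r0 e b c = 0) (h2 : s59l_r2 e b f β a u = 0) (h3 : s59l_r3 e c f γ a u = 0)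
    (h4 : s59l_r4 e b c f β γ u = 0) :
    (e = 0 ∧ b = 0 ∧ c = 0) ∨ a = ε * (u + 1) * i2 := by
  by_cases hA : a = ε * (u + 1) * i2
  · exact Or.inr hA
  left
  have h4i : (4 : T) * i2 ^ 2 = 1 := by linear_combination (2 * i2 + 1) * hi2
  have h2u : IsUnit (2 : T) := s59l_isUnit_two hi2
  have ha0u : IsUnit (ε * (u + 1) * i2) := by
    refine ((s59l_isUnit_eps hε).mul ?_).mul (s59l_isUnit_i2 hi2)
    rw [add_comm]; exact hu2
  -- `e = 0`
  have he : e = 0 := by
    have h1 : s59l_se f β γ u * e ^ 2 = 0 := by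
      rw [s59l_id_e e b c f β γ a u ha, h0, h2, h3]; ring
    have h2' : s59l_se f β γ u =
        4 * u * (a - ε * (u + 1) * i2) * (a + ε * (u + 1) * i2) := by
      simp only [s59l_se]
      linear_combination (-4 * u : T) * ha + (4 * u * (u + 1) ^ 2 * i2 ^ 2) * hε +
        (u * (u + 1) ^ 2) * h4i
    rw [h2'] at h1
    have hsum : IsUnit (a + ε * (u + 1) * i2) := by
      refine s59l_isUnit_of_sub_mem (y := 2 * (ε * (u + 1) * i2)) (h2u.mul ha0u) ?_
      have : a + ε * (u + 1) * i2 - 2 * (ε * (u + 1) * i2) = a - ε * (u + 1) * i2 := by ring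
      rw [this]; exact ha0
    have h4u : (4 : T) ≠ 0 := by
      have : (4 : T) = 2 * 2 := by norm_num
      rw [this]
      exact (h2u.mul h2u).ne_zero
    have hne : 4 * u * (a - ε * (u + 1) * i2) * (a + ε * (u + 1) * i2) ≠ 0 :=
      mul_ne_zero (mul_ne_zero (mul_ne_zero h4u hu0.ne_zero) (sub_ne_zero.mpr hA))
        hsum.ne_zero
    rcases mul_eq_zero.mp h1 with h | h
    · exact absurd h hne
    · exact pow_eq_zero_iff (two_ne_zero) |>.mp h
  -- `c = 0`
  have hs3 : IsUnit (s59l_s3 f a u) := by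
    refine s59l_isUnit_of_sub_mem (y := ε * (1 + u) * (1 - u))
      (((s59l_isUnit_eps hε).mul hu2).mul hu1) ?_
    have : s59l_s3 f a u - ε * (1 + u) * (1 - u) =
        (1 - u) * (a - ε * (u + 1) * i2) - (1 + u) * (f - ε * (u - 1) * i2) := by
      simp only [s59l_s3]
      linear_combination (ε * (1 + u) * (1 - u)) * hi2
    rw [this]
    exact Ideal.sub_mem _ (Ideal.mul_mem_left _ _ ha0) (Ideal.mul_mem_left _ _ hf)
  have hc : c = 0 := by
    have h1 : s59l_s3 f a u * c = 0 := by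
      rw [s59l_id_c e c f γ a u, h3, he]; ring
    exact hs3.mul_right_eq_zero.mp h1
  refine ⟨he, ?_, hc⟩
  -- `b = 0`
  by_contra hb
  have h1 : s59l_s2 f a u * b = 0 := by
    rw [s59l_id_b e b f β a u, h2, he]; ring
  have hs2 : s59l_s2 f a u = 0 := by
    rcases mul_eq_zero.mp h1 with h | h
    · exact h
    · exact absurd h hb
  have hγ : γ = 0 := by
    have h4' : 2 * e * f + b * γ + c * β = 0 := by
      have := h4
      simp only [s59l_r4] at this
      exact hu1.mul_right_eq_zero.mp this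
    rw [he, hc] at h4'
    have : b * γ = 0 := by linear_combination h4'
    rcases mul_eq_zero.mp this with h | h
    · exact absurd h hb
    · exact h
  simp only [s59l_s2] at hs2
  -- `(1+u)² f² = (1−u)² (u + f²)`
  have hf2 : (f - ε * (u - 1) * i2) * (f + ε * (u - 1) * i2) = 0 := by
    have h5 : u * (4 * f ^ 2 - (1 - u) ^ 2) = 0 := by
      rw [hγ] at ha
      linear_combination ((1 - u) ^ 2) * ha - (a * (1 - u) - (1 + u) * f) * hs2
    have h6 : 4 * f ^ 2 - (1 - u) ^ 2 = 0 := hu0.mul_right_eq_zero.mp h5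
    have h7 : (4 : T) * ((f - ε * (u - 1) * i2) * (f + ε * (u - 1) * i2)) = 0 := by
      linear_combination h6 - (4 * (u - 1) ^ 2 * i2 ^ 2) * hε - ((u - 1) ^ 2) * h4i
    have h4u : IsUnit (4 : T) := by
      have : (4 : T) = 2 * 2 := by norm_num
      rw [this]
      exact h2u.mul h2u
    exact h4u.mul_right_eq_zero.mp h7
  have hf0 : IsUnit (ε * (u - 1) * i2) := by
    refine ((s59l_isUnit_eps hε).mul ?_).mul (s59l_isUnit_i2 hi2)
    have : u - 1 = -(1 - u) := by ring
    rw [this]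
    exact hu1.neg
  have hff0 : IsUnit (f + ε * (u - 1) * i2) := by
    refine s59l_isUnit_of_sub_mem (y := 2 * (ε * (u - 1) * i2)) (h2u.mul hf0) ?_
    have : f + ε * (u - 1) * i2 - 2 * (ε * (u - 1) * i2) = f - ε * (u - 1) * i2 := by ring
    rw [this]
    exact hf
  have hfeq : f = ε * (u - 1) * i2 := sub_eq_zero.mp (hff0.mul_left_eq_zero.mp hf2)
  apply hA
  have h8 : (1 - u) * (a - ε * (u + 1) * i2) = 0 := by
    rw [hfeq] at hs2
    linear_combination hs2
  exact sub_eq_zero.mp (hu1.mul_right_eq_zero.mp h8)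

/-- uniqueness of the Steinberg parametrisation. -/
theorem s59l_st_unique (f0 i2 b β γ F e c F' e' c' : T) (hi2 : 2 * i2 = 1) (hf0 : IsUnit f0)
    (hF : F ^ 2 = f0 ^ 2 - β * γ) (hFm : F - f0 ∈ maximalIdeal T)
    (he : e * (F + f0) = -(b * γ)) (hc : c * (F + f0) = γ * e)
    (hF' : F' ^ 2 = f0 ^ 2 - β * γ) (hFm' : F' - f0 ∈ maximalIdeal T)
    (he' : e' * (F' + f0) = -(b * γ)) (hc' : c' * (F' + f0) = γ * e') :
    F = F' ∧ e = e' ∧ c = c' := by
  have h2u : IsUnit (2 : T) := s59l_isUnit_two hi2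
  have hFF : IsUnit (F + F') := by
    refine s59l_isUnit_of_sub_mem (y := 2 * f0) (h2u.mul hf0) ?_
    have : F + F' - 2 * f0 = (F - f0) + (F' - f0) := by ring
    rw [this]
    exact Ideal.add_mem _ hFm hFm'
  have hFeq : F = F' := by
    have h0 : (F - F') * (F + F') = 0 := by linear_combination hF - hF'
    exact sub_eq_zero.mp (hFF.mul_left_eq_zero.mp h0)
  subst hFeq
  have hFf : IsUnit (F + f0) := by
    refine s59l_isUnit_of_sub_mem (y := 2 * f0) (h2u.mul hf0) ?_
    have : F + f0 - 2 * f0 = F - f0 := by ring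
    rw [this]
    exact hFm
  have heq : e = e' := by
    have h0 : (e - e') * (F + f0) = 0 := by linear_combination he - he'
    exact sub_eq_zero.mp (hFf.mul_left_eq_zero.mp h0)
  subst heq
  refine ⟨rfl, rfl, ?_⟩
  have h0 : (c - c') * (F + f0) = 0 := by linear_combination hc - hc'
  exact sub_eq_zero.mp (hFf.mul_left_eq_zero.mp h0)

/-- existence of the Steinberg parametrisation. -/
theorem s59l_st_exists [IsAdicComplete (maximalIdeal T) T] (f0 i2 b β γ : T)
    (hi2 : 2 * i2 = 1) (hf0 : IsUnit f0) (hγ : γ ∈ maximalIdeal T) :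
    ∃ F e c : T, F ^ 2 = f0 ^ 2 - β * γ ∧ F - f0 ∈ maximalIdeal T ∧
      e * (F + f0) = -(b * γ) ∧ c * (F + f0) = γ * e ∧ e ∈ maximalIdeal T ∧
      c ∈ maximalIdeal T := by
  obtain ⟨g0, hg0⟩ := hf0.exists_right_inv
  obtain ⟨s, hs, hs1⟩ := s59l_exists_sqrt (1 - β * γ * g0 ^ 2) 1 i2 (one_pow 2) hi2 (by
    have : 1 - β * γ * g0 ^ 2 - 1 = -(β * g0 ^ 2) * γ := by ring
    rw [this]
    exact Ideal.mul_mem_left _ _ hγ)
  have hFm : f0 * s - f0 ∈ maximalIdeal T := by
    have : f0 * s - f0 = f0 * (s - 1) := by ring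
    rw [this]
    exact Ideal.mul_mem_left _ _ hs1
  have hFf : IsUnit (f0 * s + f0) := by
    refine s59l_isUnit_of_sub_mem (y := 2 * f0) ((s59l_isUnit_two hi2).mul hf0) ?_
    have : f0 * s + f0 - 2 * f0 = f0 * s - f0 := by ring
    rw [this]
    exact hFm
  obtain ⟨w, hw⟩ := hFf.exists_right_inv
  refine ⟨f0 * s, -(b * γ) * w, γ * (-(b * γ) * w) * w, ?_, hFm, ?_, ?_, ?_, ?_⟩
  · linear_combination f0 ^ 2 * hs + (-(β * γ) * (f0 * g0 + 1)) * hg0
  · linear_combination (-(b * γ)) * hw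
  · linear_combination (γ * (-(b * γ) * w)) * hw
  · have : -(b * γ) * w = (-b * w) * γ := by ring
    rw [this]
    exact Ideal.mul_mem_left _ _ hγ
  · have : γ * (-(b * γ) * w) * w = ((-(b * γ) * w) * w) * γ := by ring
    rw [this]
    exact Ideal.mul_mem_left _ _ hγ

end Unip

end Fermat.Agent.Lib.S59
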