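/-
[LOC-E] part 2 (helper4): THE LOCAL NODE with a set `E` of extra framed primes `ℓ₀ ≢ ±1 (p)`
at which `ρ̄` is unramified, `ρ̄(φ) = diag(ε₀u, ε₀)`, and NO local condition is imposed
(every lift is unipotent there: two smooth components, unramified and Steinberg).
  `𝒫^E = s59l_FlatE 𝒪 m e g = 𝒪⟦VB, WB (B-primes), VE, WE (E-primes), x_1..x_g⟧`,
  `π_ch : 𝒫^E ↠ s59l_Flat 𝒪 m (g + 3e)`  for every choice of components `ch : Fin e → Bool`
  (`false` = unramified: `VE ↦ 0`, `WE ↦` new variables; `true` = Steinberg: `(b,β,γ) ↦` new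
  variables, `f' ↦ √(f₀² − βγ) − f₀`, `e ↦ −bγ/(F+f₀)`, `c ↦ −bγ²/(F+f₀)²`),
  `𝒦_{θ,ch} := π_ch⁻¹ 𝒦_θ`, `𝔮_ch := π_ch⁻¹ 𝔮`.
Delivered: primality, `dim 𝒫^E/𝒦_{θ,ch} ≤ dim 𝒪 + 3m + g + 3e`, `𝒦_{θ,ch} ≤ 𝔮_ch`, genericity of
`𝔮_ch` at `B`, and the kill property `s59l_KKE_kill` for complete local DOMAINS.
-/
import Mathlib
import Fermat.Agent.Lib.S59.LFlat
import Fermat.Agent.Lib.S59.LUnip

set_option autoImplicit false
set_option linter.unusedSectionVars false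
set_option linter.unusedVariables false
set_option linter.style.haveILetI false

noncomputable section

namespace Fermat.Agent.Lib.S59

open IsLocalRing MvPowerSeries Fermat.Agent.Lib.Deform

/-- the variables of `𝒫^E`. -/
abbrev s59l_IdxE (m e g : ℕ) : Type :=
  (Fin m × Fin 3) ⊕ (Fin m × Fin 3) ⊕ (Fin e × Fin 3) ⊕ (Fin e × Fin 3) ⊕ Fin g

/-- the flat power series ring `𝒫^E`. -/
abbrev s59l_FlatE (𝒪 : Type) [CommRing 𝒪] (m e g : ℕ) : Type :=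
  MvPowerSeries (s59l_IdxE m e g) 𝒪

section VarsE

variable {𝒪 : Type} [CommRing 𝒪] {m e g : ℕ}

/-- `(N₁₁, N₁₂, N₂₁)` of `N = ρ(σ_j) − 1`, `j ∈ B`. -/
def s59l_VB (j : Fin m) (k : Fin 3) : s59l_FlatE 𝒪 m e g := X (Sum.inl (j, k))

/-- `((Φ₁₁−Φ₂₂)/2, Φ₁₂, Φ₂₁)` of `Φ = ρ(φ_j)`, `j ∈ B`. -/
def s59l_WB (j : Fin m) (k : Fin 3) : s59l_FlatE 𝒪 m e g := X (Sum.inr (Sum.inl (j, k)))

/-- `(e, b, c) = (N₁₁, N₁₂, N₂₁)` of `N = ρ(σ_l) − 1`, `l ∈ E`. -/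
def s59l_VE (l : Fin e) (k : Fin 3) : s59l_FlatE 𝒪 m e g :=
  X (Sum.inr (Sum.inr (Sum.inl (l, k))))

/-- `(f', β, γ) = ((Φ₁₁−Φ₂₂)/2 − f₀, Φ₁₂, Φ₂₁)` of `Φ = ρ(φ_l)`, `l ∈ E`. -/
def s59l_WE (l : Fin e) (k : Fin 3) : s59l_FlatE 𝒪 m e g :=
  X (Sum.inr (Sum.inr (Sum.inr (Sum.inl (l, k)))))

/-- the global variables. -/
def s59l_XE (i : Fin g) : s59l_FlatE 𝒪 m e g := X (Sum.inr (Sum.inr (Sum.inr (Sum.inr i))))

end VarsE

/-- the `x`-variables of the target `s59l_Flat 𝒪 m (g + e * 3)`. -/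
def s59l_xe (e g : ℕ) : Fin g ⊕ (Fin e × Fin 3) ≃ Fin (g + e * 3) :=
  (Equiv.sumCongr (Equiv.refl _) finProdFinEquiv).trans finSumFinEquiv

/-- the constants at the primes of `E`. -/
structure s59l_EData (𝒪 : Type) [CommRing 𝒪] (e : ℕ) : Type where
  u : Fin e → 𝒪
  ε : Fin e → 𝒪
  i2 : 𝒪
  hi2 : 2 * i2 = 1
  hε : ∀ l, ε l ^ 2 = 1
  hu0 : ∀ l, IsUnit (u l)
  hu1 : ∀ l, IsUnit (1 - u l)
  hu2 : ∀ l, IsUnit (1 + u l)

/-- `f₀ = ε₀(u−1)/2`. -/
def s59l_EData.f0 {𝒪 : Type} [CommRing 𝒪] {e : ℕ} (D : s59l_EData 𝒪 e) (l : Fin e) : 𝒪 :=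
  D.ε l * (D.u l - 1) * D.i2

/-- `a₀ = ε₀(u+1)/2`. -/
def s59l_EData.a0 {𝒪 : Type} [CommRing 𝒪] {e : ℕ} (D : s59l_EData 𝒪 e) (l : Fin e) : 𝒪 :=
  D.ε l * (D.u l + 1) * D.i2

theorem s59l_EData.isUnit_f0 {𝒪 : Type} [CommRing 𝒪] {e : ℕ} (D : s59l_EData 𝒪 e)
    (l : Fin e) : IsUnit (D.f0 l) := by
  refine ((s59l_isUnit_eps (D.hε l)).mul ?_).mul (s59l_isUnit_i2 D.hi2)
  have : D.u l - 1 = -(1 - D.u l) := by ring
  rw [this]
  exact (D.hu1 l).neg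

theorem s59l_vec3_mem {P : Type*} [CommRing P] (I : Ideal P) {a b c : P} (ha : a ∈ I)
    (hb : b ∈ I) (hc : c ∈ I) (k : Fin 3) : (![a, b, c] : Fin 3 → P) k ∈ I := by
  fin_cases k
  · exact ha
  · exact hb
  · exact hc

/-- an `𝒪`-algebra map out of a power series ring which sends the variables and `𝔪_𝒪` into the
maximal ideal is local. -/
theorem s59l_algHom_mem_max {σ : Type*} [Finite σ] {𝒪 T : Type*} [CommRing 𝒪] [IsLocalRing 𝒪]
    [CommRing T] [IsLocalRing T] [Algebra 𝒪 T] (ψ : MvPowerSeries σ 𝒪 →ₐ[𝒪] T)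
    (hX : ∀ s, ψ (X s) ∈ maximalIdeal T)
    (hloc : ∀ t ∈ maximalIdeal 𝒪, algebraMap 𝒪 T t ∈ maximalIdeal T)
    {x : MvPowerSeries σ 𝒪} (hx : x ∈ maximalIdeal (MvPowerSeries σ 𝒪)) :
    ψ x ∈ maximalIdeal T := by
  have h0 : constantCoeff x ∈ maximalIdeal 𝒪 := by
    rw [mem_maximalIdeal, mem_nonunits_iff, MvPowerSeries.isUnit_iff_constantCoeff] at hx
    exact hx
  have hsplit : x = C (constantCoeff x) + (x - C (constantCoeff x)) := by ring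
  rw [hsplit, map_add, s59l_algHom_C]
  refine Ideal.add_mem _ (hloc _ h0) ?_
  have := algHom_mem_pow_of_coeff_eq_zero (maximalIdeal T) ψ hX (n := 1)
    (g := x - C (constantCoeff x)) (by
      intro d hd
      have hd0 : d = 0 := by
        have h1 : Finsupp.degree d = 0 := by omega
        exact (Finsupp.degree_eq_zero_iff d).mp h1
      subst hd0
      rw [map_sub, coeff_zero_eq_constantCoeff_apply, coeff_zero_eq_constantCoeff_apply,
        constantCoeff_C, sub_self])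
  rwa [pow_one] at this

section Tol

variable {𝒪 : Type} [CommRing 𝒪] [IsLocalRing 𝒪] [IsNoetherianRing 𝒪] [IsDomain 𝒪]
  [IsAdicComplete (maximalIdeal 𝒪) 𝒪] [Finite (ResidueField 𝒪)]

variable {m e g : ℕ} (D : s59l_EData 𝒪 e)

/-- the new variables `y_{l,k}` of the target. -/
def s59l_yE (m : ℕ) (g : ℕ) (l : Fin e) (k : Fin 3) : s59l_Flat 𝒪 m (g + e * 3) :=
  s59l_Xv (s59l_xe e g (Sum.inr (l, k)))

theorem s59l_yE_mem (l : Fin e) (k : Fin 3) :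
    (s59l_yE m g l k : s59l_Flat 𝒪 m (g + e * 3)) ∈
      maximalIdeal (s59l_Flat 𝒪 m (g + e * 3)) := X_mem_maximalIdeal _

theorem s59l_two_mul_C_i2 {σ : Type*} : (2 : MvPowerSeries σ 𝒪) * C D.i2 = 1 := by
  rw [← map_ofNat (C (σ := σ) (R := 𝒪)) 2, ← map_mul, D.hi2, map_one]

/-- the Steinberg triple `(F, e, c)` over `(b, β, γ) = (y₀, y₁, y₂)`. -/
theorem s59l_stT_exists (m g : ℕ) (l : Fin e) :
    ∃ F ee c : s59l_Flat 𝒪 m (g + e * 3),
      F ^ 2 = C (D.f0 l) ^ 2 - s59l_yE m g l 1 * s59l_yE m g l 2 ∧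
      F - C (D.f0 l) ∈ maximalIdeal (s59l_Flat 𝒪 m (g + e * 3)) ∧
      ee * (F + C (D.f0 l)) = -(s59l_yE m g l 0 * s59l_yE m g l 2) ∧
      c * (F + C (D.f0 l)) = s59l_yE m g l 2 * ee ∧
      ee ∈ maximalIdeal (s59l_Flat 𝒪 m (g + e * 3)) ∧
      c ∈ maximalIdeal (s59l_Flat 𝒪 m (g + e * 3)) :=
  s59l_st_exists (C (D.f0 l)) (C D.i2) (s59l_yE m g l 0) (s59l_yE m g l 1) (s59l_yE m g l 2)
    (s59l_two_mul_C_i2 D) ((D.isUnit_f0 l).map C) (s59l_yE_mem l 2)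

def s59l_stF (m g : ℕ) (l : Fin e) : s59l_Flat 𝒪 m (g + e * 3) :=
  Classical.choose (s59l_stT_exists D m g l)

def s59l_stE (m g : ℕ) (l : Fin e) : s59l_Flat 𝒪 m (g + e * 3) :=
  Classical.choose (Classical.choose_spec (s59l_stT_exists D m g l))

def s59l_stC (m g : ℕ) (l : Fin e) : s59l_Flat 𝒪 m (g + e * 3) :=
  Classical.choose (Classical.choose_spec (Classical.choose_spec (s59l_stT_exists D m g l)))

theorem s59l_st_spec (m g : ℕ) (l : Fin e) :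
    s59l_stF D m g l ^ 2 = C (D.f0 l) ^ 2 - s59l_yE m g l 1 * s59l_yE m g l 2 ∧
      s59l_stF D m g l - C (D.f0 l) ∈ maximalIdeal (s59l_Flat 𝒪 m (g + e * 3)) ∧
      s59l_stE D m g l * (s59l_stF D m g l + C (D.f0 l)) =
        -(s59l_yE m g l 0 * s59l_yE m g l 2) ∧
      s59l_stC D m g l * (s59l_stF D m g l + C (D.f0 l)) = s59l_yE m g l 2 * s59l_stE D m g l ∧
      s59l_stE D m g l ∈ maximalIdeal (s59l_Flat 𝒪 m (g + e * 3)) ∧
      s59l_stC D m g l ∈ maximalIdeal (s59l_Flat 𝒪 m (g + e * 3)) :=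
  Classical.choose_spec (Classical.choose_spec (Classical.choose_spec (s59l_stT_exists D m g l)))

/-- the images of the variables under `π_ch`. -/
def s59l_tolVals (m g : ℕ) (ch : Fin e → Bool) : s59l_IdxE m e g → s59l_Flat 𝒪 m (g + e * 3) :=
  Sum.elim (fun p => s59l_V p.1 p.2)
    (Sum.elim (fun p => s59l_W p.1 p.2)
      (Sum.elim (fun p => if ch p.1 then
          (![s59l_stE D m g p.1, s59l_yE m g p.1 0, s59l_stC D m g p.1] :
            Fin 3 → s59l_Flat 𝒪 m (g + e * 3)) p.2 else 0)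
        (Sum.elim (fun p => if ch p.1 then
            (![s59l_stF D m g p.1 - C (D.f0 p.1), s59l_yE m g p.1 1, s59l_yE m g p.1 2] :
              Fin 3 → s59l_Flat 𝒪 m (g + e * 3)) p.2 else s59l_yE m g p.1 p.2)
          (fun i => s59l_Xv (s59l_xe e g (Sum.inl i))))))

theorem s59l_tolVals_mem (m g : ℕ) (ch : Fin e → Bool) (s : s59l_IdxE m e g) :
    s59l_tolVals D m g ch s ∈ maximalIdeal (s59l_Flat 𝒪 m (g + e * 3)) := by
  obtain ⟨h1, h2, h3, h4, h5, h6⟩ : True ∧ True ∧ True ∧ True ∧ True ∧ True :=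
    ⟨trivial, trivial, trivial, trivial, trivial, trivial⟩
  rcases s with p | p | p | p | i
  · exact X_mem_maximalIdeal _
  · exact X_mem_maximalIdeal _
  · show (if ch p.1 then _ else _) ∈ _
    split_ifs
    · exact s59l_vec3_mem _ (s59l_st_spec D m g p.1).2.2.2.2.1 (s59l_yE_mem _ _)
        (s59l_st_spec D m g p.1).2.2.2.2.2 p.2
    · exact zero_mem _
  · show (if ch p.1 then _ else _) ∈ _
    split_ifs
    · exact s59l_vec3_mem _ (s59l_st_spec D m g p.1).2.1 (s59l_yE_mem _ _) (s59l_yE_mem _ _) p.2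
    · exact s59l_yE_mem _ _
  · exact X_mem_maximalIdeal _

/-- **the projection `π_ch : 𝒫^E → 𝒫_{m, g+3e}`** onto the component `ch`. -/
def s59l_piE (m g : ℕ) (ch : Fin e → Bool) :
    s59l_FlatE 𝒪 m e g →ₐ[𝒪] s59l_Flat 𝒪 m (g + e * 3) :=
  evalHom (maximalIdeal (s59l_Flat 𝒪 m (g + e * 3))) (s59l_tolVals D m g ch)
    (s59l_tolVals_mem D m g ch)

theorem s59l_piE_X (ch : Fin e → Bool) (s : s59l_IdxE m e g) :
    s59l_piE D m g ch (X s) = s59l_tolVals D m g ch s := evalHom_X _ _ _ s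

theorem s59l_piE_VB (ch : Fin e → Bool) (j : Fin m) (k : Fin 3) :
    s59l_piE D m g ch (s59l_VB j k) = s59l_V j k := by
  rw [s59l_VB, s59l_piE_X]; rfl

theorem s59l_piE_WB (ch : Fin e → Bool) (j : Fin m) (k : Fin 3) :
    s59l_piE D m g ch (s59l_WB j k) = s59l_W j k := by
  rw [s59l_WB, s59l_piE_X]; rfl

theorem s59l_piE_C (ch : Fin e → Bool) (t : 𝒪) : s59l_piE D m g ch (C t) = C t := by
  rw [s59l_algHom_C, MvPowerSeries.algebraMap_apply, Algebra.algebraMap_self, RingHom.id_apply]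

/-- the images of the variables under the section of `π_ch`. -/
def s59l_secVals (m g : ℕ) (ch : Fin e → Bool) : s59l_Idx m (g + e * 3) → s59l_FlatE 𝒪 m e g :=
  Sum.elim (fun p => s59l_VB p.1 p.2)
    (Sum.elim (fun p => s59l_WB p.1 p.2)
      (fun i => Sum.elim (fun i => s59l_XE i)
        (fun p => if ch p.1 then
          (![s59l_VE p.1 1, s59l_WE p.1 1, s59l_WE p.1 2] : Fin 3 → s59l_FlatE 𝒪 m e g) p.2
          else s59l_WE p.1 p.2) ((s59l_xe e g).symm i)))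

theorem s59l_secVals_isX (ch : Fin e → Bool) (s : s59l_Idx m (g + e * 3)) :
    ∃ s', (s59l_secVals m g ch s : s59l_FlatE 𝒪 m e g) = X s' := by
  rcases s with p | p | i
  · exact ⟨_, rfl⟩
  · exact ⟨_, rfl⟩
  · show ∃ s', Sum.elim _ _ ((s59l_xe e g).symm i) = X s'
    rcases (s59l_xe e g).symm i with i0 | p
    · exact ⟨_, rfl⟩
    · show ∃ s', (if ch p.1 then _ else _) = X s'
      split_ifs
      · obtain ⟨l, k⟩ := p
        fin_cases k
        · exact ⟨_, rfl⟩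
        · exact ⟨_, rfl⟩
        · exact ⟨_, rfl⟩
      · exact ⟨_, rfl⟩

theorem s59l_secVals_mem (ch : Fin e → Bool) (s : s59l_Idx m (g + e * 3)) :
    (s59l_secVals m g ch s : s59l_FlatE 𝒪 m e g) ∈ maximalIdeal (s59l_FlatE 𝒪 m e g) := by
  obtain ⟨s', hs'⟩ := s59l_secVals_isX (𝒪 := 𝒪) ch s
  rw [hs']
  exact X_mem_maximalIdeal _

/-- **the section `σ_ch`** of `π_ch` (variables to variables). -/
def s59l_secE (m g : ℕ) (ch : Fin e → Bool) :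
    s59l_Flat 𝒪 m (g + e * 3) →ₐ[𝒪] s59l_FlatE 𝒪 m e g :=
  evalHom (maximalIdeal (s59l_FlatE 𝒪 m e g)) (s59l_secVals m g ch) (s59l_secVals_mem ch)

theorem s59l_secE_X (ch : Fin e → Bool) (s : s59l_Idx m (g + e * 3)) :
    s59l_secE (𝒪 := 𝒪) m g ch (X s) = s59l_secVals m g ch s := evalHom_X _ _ _ s

theorem s59l_secE_V (ch : Fin e → Bool) (j : Fin m) (k : Fin 3) :
    s59l_secE (𝒪 := 𝒪) (e := e) m g ch (s59l_V j k) = s59l_VB j k := by
  rw [s59l_V, s59l_secE_X]; rfl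

theorem s59l_secE_W (ch : Fin e → Bool) (j : Fin m) (k : Fin 3) :
    s59l_secE (𝒪 := 𝒪) (e := e) m g ch (s59l_W j k) = s59l_WB j k := by
  rw [s59l_W, s59l_secE_X]; rfl

theorem s59l_secE_xl (ch : Fin e → Bool) (i : Fin g) :
    s59l_secE (𝒪 := 𝒪) (e := e) m g ch (s59l_Xv (s59l_xe e g (Sum.inl i))) = s59l_XE i := by
  rw [s59l_Xv, s59l_secE_X]
  show Sum.elim _ _ ((s59l_xe e g).symm (s59l_xe e g (Sum.inl i))) = _
  rw [Equiv.symm_apply_apply]; rfl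

theorem s59l_secE_y (ch : Fin e → Bool) (l : Fin e) (k : Fin 3) :
    s59l_secE (𝒪 := 𝒪) m g ch (s59l_yE m g l k) =
      if ch l then (![s59l_VE l 1, s59l_WE l 1, s59l_WE l 2] : Fin 3 → s59l_FlatE 𝒪 m e g) k
      else s59l_WE l k := by
  rw [s59l_yE, s59l_Xv, s59l_secE_X]
  show Sum.elim _ _ ((s59l_xe e g).symm (s59l_xe e g (Sum.inr (l, k)))) = _
  rw [Equiv.symm_apply_apply]; rfl

/-- `π_ch ∘ σ_ch = id`. -/
theorem s59l_piE_secE (ch : Fin e → Bool) :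
    (s59l_piE D m g ch).comp (s59l_secE m g ch) = AlgHom.id 𝒪 _ := by
  have key : ∀ s, ((s59l_piE D m g ch).comp (s59l_secE m g ch)) (X s) = X s := by
    intro s
    rw [AlgHom.comp_apply]
    rcases s with p | p | i
    · show s59l_piE D m g ch (s59l_secE m g ch (s59l_V p.1 p.2)) = s59l_V p.1 p.2
      rw [s59l_secE_V, s59l_piE_VB]
    · show s59l_piE D m g ch (s59l_secE m g ch (s59l_W p.1 p.2)) = s59l_W p.1 p.2
      rw [s59l_secE_W, s59l_piE_WB]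
    · obtain ⟨t, rfl⟩ : ∃ t, i = s59l_xe e g t := ⟨(s59l_xe e g).symm i, by simp⟩
      rcases t with i0 | ⟨l, k⟩
      · show s59l_piE D m g ch (s59l_secE m g ch (s59l_Xv (s59l_xe e g (Sum.inl i0)))) = _
        rw [s59l_secE_xl, s59l_XE, s59l_piE_X]; rfl
      · show s59l_piE D m g ch (s59l_secE m g ch (s59l_yE m g l k)) = s59l_yE m g l k
        rw [s59l_secE_y]
        by_cases hch : ch l = true
        · rw [if_pos hch]
          fin_cases k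
          · show s59l_piE D m g ch (s59l_VE l 1) = _
            rw [s59l_VE, s59l_piE_X]
            show (if ch l then _ else _) = _
            rw [if_pos hch]; rfl
          · show s59l_piE D m g ch (s59l_WE l 1) = _
            rw [s59l_WE, s59l_piE_X]
            show (if ch l then _ else _) = _
            rw [if_pos hch]; rfl
          · show s59l_piE D m g ch (s59l_WE l 2) = _
            rw [s59l_WE, s59l_piE_X]
            show (if ch l then _ else _) = _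
            rw [if_pos hch]; rfl
        · rw [if_neg hch, s59l_WE, s59l_piE_X]
          show (if ch l then _ else _) = _
          rw [if_neg hch]
  refine algHom_ext_of_X (maximalIdeal (s59l_Flat 𝒪 m (g + e * 3))) ?_ ?_
  · intro s
    rw [key]
    exact X_mem_maximalIdeal _
  · intro s
    rw [key]; rfl

theorem s59l_piE_surjective (ch : Fin e → Bool) : Function.Surjective (s59l_piE D m g ch) := by
  intro y
  refine ⟨s59l_secE m g ch y, ?_⟩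
  have := congrArg (fun f => f y) (s59l_piE_secE D (m := m) (g := g) ch)
  simpa using this

/-! ### the primes -/

/-- **the prime `𝒦_{θ,ch}`** of `𝒫^E`. -/
def s59l_KKE {m : ℕ} (θ : Fin m → 𝒪) (hθ : ∀ j, s59l_Hyp (θ j)) (g : ℕ) (ch : Fin e → Bool) :
    Ideal (s59l_FlatE 𝒪 m e g) :=
  Ideal.comap (s59l_piE D m g ch) (s59l_KK θ hθ (g + e * 3))

instance s59l_KKE_isPrime {m : ℕ} (θ : Fin m → 𝒪) (hθ : ∀ j, s59l_Hyp (θ j)) (g : ℕ)
    (ch : Fin e → Bool) : (s59l_KKE D θ hθ g ch).IsPrime := by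
  rw [s59l_KKE]
  exact Ideal.comap_isPrime _ _

/-- **the prime `𝔮_ch`** of `𝒫^E`. -/
def s59l_qE (m g : ℕ) (ch : Fin e → Bool) : Ideal (s59l_FlatE 𝒪 m e g) :=
  Ideal.comap (s59l_piE D m g ch) (s59l_q 𝒪 m (g + e * 3))

instance s59l_qE_isPrime (m g : ℕ) (ch : Fin e → Bool) : (s59l_qE D m g ch).IsPrime := by
  rw [s59l_qE]
  exact Ideal.comap_isPrime _ _

theorem s59l_KKE_le_qE {m : ℕ} (θ : Fin m → 𝒪) (hθ : ∀ j, s59l_Hyp (θ j)) (g : ℕ)
    (ch : Fin e → Bool) : s59l_KKE D θ hθ g ch ≤ s59l_qE D m g ch :=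
  Ideal.comap_mono (s59l_KK_le_q θ hθ (g + e * 3))

theorem s59l_C_mem_qE (m g : ℕ) (ch : Fin e → Bool) {t : 𝒪} (ht : t ∈ maximalIdeal 𝒪) :
    (C t : s59l_FlatE 𝒪 m e g) ∈ s59l_qE D m g ch := by
  rw [s59l_qE, Ideal.mem_comap, s59l_piE_C]
  exact s59l_C_mem_q m (g + e * 3) ht

theorem s59l_WB_not_mem_qE (g : ℕ) (ch : Fin e → Bool) (j : Fin m) :
    (s59l_WB j 0 : s59l_FlatE 𝒪 m e g) ∉ s59l_qE D m g ch := by
  rw [s59l_qE, Ideal.mem_comap, s59l_piE_WB]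
  exact s59l_W_not_mem_q j

theorem s59l_QB_not_mem_qE (g : ℕ) (ch : Fin e → Bool) (j : Fin m) :
    (s59l_WB j 0 ^ 2 + s59l_WB j 1 * s59l_WB j 2 : s59l_FlatE 𝒪 m e g) ∉ s59l_qE D m g ch := by
  rw [s59l_qE, Ideal.mem_comap, map_add, map_pow, map_mul, s59l_piE_WB, s59l_piE_WB,
    s59l_piE_WB]
  exact s59l_Q_not_mem_q j

/-- **[LOC-E] dimension.** -/
theorem s59l_KKE_dim {m : ℕ} (θ : Fin m → 𝒪) (hθ : ∀ j, s59l_Hyp (θ j)) (g : ℕ)
    (ch : Fin e → Bool) :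
    ringKrullDim (s59l_FlatE 𝒪 m e g ⧸ s59l_KKE D θ hθ g ch) ≤
      ringKrullDim 𝒪 + ((3 * m + (g + e * 3) : ℕ) : WithBot ℕ∞) := by
  have hsurj : Function.Surjective ((Ideal.Quotient.mk (s59l_KK θ hθ (g + e * 3))).comp
      (s59l_piE D m g ch : s59l_FlatE 𝒪 m e g →+* s59l_Flat 𝒪 m (g + e * 3))) :=
    Ideal.Quotient.mk_surjective.comp (s59l_piE_surjective D ch)
  have hker : RingHom.ker ((Ideal.Quotient.mk (s59l_KK θ hθ (g + e * 3))).comp
      (s59l_piE D m g ch : s59l_FlatE 𝒪 m e g →+* s59l_Flat 𝒪 m (g + e * 3))) =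
      s59l_KKE D θ hθ g ch := by
    rw [← RingHom.comap_ker, Ideal.mk_ker]; rfl
  have e1 := (Ideal.quotEquivOfEq hker.symm).trans (RingHom.quotientKerEquivOfSurjective hsurj)
  rw [ringKrullDim_eq_of_ringEquiv e1]
  exact s59l_KK_dim θ hθ (g + e * 3)

/-! ### the kill property -/

/-- the relations for an `𝒪`-algebra map out of `𝒫^E`: type `χ_{θ j}` at `j ∈ B`, unipotent at
`l ∈ E`. -/
structure s59l_RelE {m e g : ℕ} (D : s59l_EData 𝒪 e) (θ : Fin m → 𝒪) {T : Type} [CommRing T]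
    [IsLocalRing T] [Algebra 𝒪 T] (φ : s59l_FlatE 𝒪 m e g →ₐ[𝒪] T) : Prop where
  loc : ∀ t ∈ maximalIdeal 𝒪, algebraMap 𝒪 T t ∈ maximalIdeal T
  mem : ∀ s, φ (X s) ∈ maximalIdeal T
  quad : ∀ j, φ (s59l_VB j 0) ^ 2 + φ (s59l_VB j 1) * φ (s59l_VB j 2) =
    algebraMap 𝒪 T (θ j) ^ 2
  minor : ∀ j k k', φ (s59l_WB j k) * φ (s59l_VB j k') = φ (s59l_WB j k') * φ (s59l_VB j k)
  tf : ∀ j, ∀ x : T, algebraMap 𝒪 T (θ j) * x = 0 → x = 0
  unip : ∀ l, ∃ a : T, a - algebraMap 𝒪 T (D.a0 l) ∈ maximalIdeal T ∧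
    a ^ 2 = algebraMap 𝒪 T (D.u l) +
      ((algebraMap 𝒪 T (D.f0 l) + φ (s59l_WE l 0)) ^ 2 + φ (s59l_WE l 1) * φ (s59l_WE l 2)) ∧
    s59l_r0 (φ (s59l_VE l 0)) (φ (s59l_VE l 1)) (φ (s59l_VE l 2)) = 0 ∧
    s59l_r2 (φ (s59l_VE l 0)) (φ (s59l_VE l 1)) (algebraMap 𝒪 T (D.f0 l) + φ (s59l_WE l 0))
      (φ (s59l_WE l 1)) a (algebraMap 𝒪 T (D.u l)) = 0 ∧
    s59l_r3 (φ (s59l_VE l 0)) (φ (s59l_VE l 2)) (algebraMap 𝒪 T (D.f0 l) + φ (s59l_WE l 0))
      (φ (s59l_WE l 2)) a (algebraMap 𝒪 T (D.u l)) = 0 ∧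
    s59l_r4 (φ (s59l_VE l 0)) (φ (s59l_VE l 1)) (φ (s59l_VE l 2))
      (algebraMap 𝒪 T (D.f0 l) + φ (s59l_WE l 0)) (φ (s59l_WE l 1)) (φ (s59l_WE l 2))
      (algebraMap 𝒪 T (D.u l)) = 0

/-- **[LOC-E] (K-kill).**  A complete local domain point of `𝒫^E` of type `χ_θ` at `B`,
unipotent at `E`, kills `𝒦_{θ,ch}` for the choice `ch` of its components at `E`. -/
theorem s59l_KKE_kill {m : ℕ} (θ : Fin m → 𝒪) (hθ : ∀ j, s59l_Hyp (θ j)) (g : ℕ) {T : Type}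
    [CommRing T] [IsLocalRing T] [IsDomain T] [IsAdicComplete (maximalIdeal T) T] [Algebra 𝒪 T]
    (φ : s59l_FlatE 𝒪 m e g →ₐ[𝒪] T) (hφ : s59l_RelE D θ φ) :
    ∃ ch : Fin e → Bool, s59l_KKE D θ hθ g ch ≤ RingHom.ker φ := by
  classical
  choose a ha0 ha h0 h2 h3 h4 using hφ.unip
  set ch : Fin e → Bool := fun l => decide (a l = algebraMap 𝒪 T (D.a0 l)) with hch
  refine ⟨ch, ?_⟩
  -- the constants in `T`
  have hi2T : (2 : T) * algebraMap 𝒪 T D.i2 = 1 := by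
    rw [← map_ofNat (algebraMap 𝒪 T) 2, ← map_mul, D.hi2, map_one]
  have hεT : ∀ l, algebraMap 𝒪 T (D.ε l) ^ 2 = 1 := fun l => by
    rw [← map_pow, D.hε, map_one]
  have hf0T : ∀ l, algebraMap 𝒪 T (D.f0 l) =
      algebraMap 𝒪 T (D.ε l) * (algebraMap 𝒪 T (D.u l) - 1) * algebraMap 𝒪 T D.i2 := fun l => by
    rw [s59l_EData.f0, map_mul, map_mul, map_sub, map_one]
  have ha0T : ∀ l, algebraMap 𝒪 T (D.a0 l) =
      algebraMap 𝒪 T (D.ε l) * (algebraMap 𝒪 T (D.u l) + 1) * algebraMap 𝒪 T D.i2 := fun l => by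
    rw [s59l_EData.a0, map_mul, map_mul, map_add, map_one]
  have hu0T : ∀ l, IsUnit (algebraMap 𝒪 T (D.u l)) := fun l => (D.hu0 l).map _
  have hu1T : ∀ l, IsUnit (1 - algebraMap 𝒪 T (D.u l)) := fun l => by
    have := (D.hu1 l).map (algebraMap 𝒪 T)
    rwa [map_sub, map_one] at this
  have hu2T : ∀ l, IsUnit (1 + algebraMap 𝒪 T (D.u l)) := fun l => by
    have := (D.hu2 l).map (algebraMap 𝒪 T)
    rwa [map_add, map_one] at this
  have hfm : ∀ l, algebraMap 𝒪 T (D.f0 l) + φ (s59l_WE l 0) -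
      algebraMap 𝒪 T (D.ε l) * (algebraMap 𝒪 T (D.u l) - 1) * algebraMap 𝒪 T D.i2 ∈
        maximalIdeal T := fun l => by
    rw [← hf0T, add_sub_cancel_left]
    exact hφ.mem _
  -- the dichotomy
  have hdich : ∀ l, (φ (s59l_VE l 0) = 0 ∧ φ (s59l_VE l 1) = 0 ∧ φ (s59l_VE l 2) = 0) ∨
      a l = algebraMap 𝒪 T (D.a0 l) := fun l => by
    rw [ha0T]
    refine s59l_unip_dichotomy _ _ _ _ _ _ _ _ _ _ hi2T (hεT l) (hu0T l) (hu1T l) (hu2T l)
      (ha l) ?_ (hfm l) (h0 l) (h2 l) (h3 l) (h4 l)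
    rw [← ha0T]
    exact ha0 l
  have hunr : ∀ l, ch l = false → ∀ k, φ (s59l_VE l k) = 0 := by
    intro l hl k
    have hne : ¬ a l = algebraMap 𝒪 T (D.a0 l) := by
      intro h
      rw [hch] at hl
      simp [h] at hl
    rcases hdich l with ⟨h1, h2', h3'⟩ | h
    · fin_cases k
      · exact h1
      · exact h2'
      · exact h3'
    · exact absurd h hne
  have hst : ∀ l, ch l = true →
      (algebraMap 𝒪 T (D.f0 l) + φ (s59l_WE l 0)) ^ 2 =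
        algebraMap 𝒪 T (D.f0 l) ^ 2 - φ (s59l_WE l 1) * φ (s59l_WE l 2) ∧
      φ (s59l_VE l 0) * (algebraMap 𝒪 T (D.f0 l) + φ (s59l_WE l 0) + algebraMap 𝒪 T (D.f0 l)) =
        -(φ (s59l_VE l 1) * φ (s59l_WE l 2)) ∧
      φ (s59l_VE l 2) * (algebraMap 𝒪 T (D.f0 l) + φ (s59l_WE l 0) + algebraMap 𝒪 T (D.f0 l)) =
        φ (s59l_WE l 2) * φ (s59l_VE l 0) := by
    intro l hl
    have hal : a l = algebraMap 𝒪 T (D.a0 l) := by
      rw [hch] at hl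
      simpa using hl
    rw [ha0T] at hal
    have := s59l_unip_st _ _ _ _ _ _ _ _ _ _ hi2T (hεT l) (hu1T l) (hu2T l) (ha l) hal (hfm l)
      (h3 l) (h4 l)
    rw [← hf0T] at this
    exact this
  -- the factorisation
  set χ : s59l_Flat 𝒪 m (g + e * 3) →ₐ[𝒪] T := φ.comp (s59l_secE m g ch) with hχ
  have hχX : ∀ s, ∃ s', χ (X s) = φ (X s') := by
    intro s
    obtain ⟨s', hs'⟩ := s59l_secVals_isX (𝒪 := 𝒪) (m := m) (g := g) ch s
    exact ⟨s', by rw [hχ, AlgHom.comp_apply, s59l_secE_X, hs']⟩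
  have hχmem : ∀ s, χ (X s) ∈ maximalIdeal T := by
    intro s
    obtain ⟨s', hs'⟩ := hχX s
    rw [hs']
    exact hφ.mem s'
  have hχV : ∀ j k, χ (s59l_V j k) = φ (s59l_VB j k) := fun j k => by
    rw [hχ, AlgHom.comp_apply, s59l_secE_V]
  have hχW : ∀ j k, χ (s59l_W j k) = φ (s59l_WB j k) := fun j k => by
    rw [hχ, AlgHom.comp_apply, s59l_secE_W]
  have hχy : ∀ l k, χ (s59l_yE m g l k) = φ (if ch l then
      (![s59l_VE l 1, s59l_WE l 1, s59l_WE l 2] : Fin 3 → s59l_FlatE 𝒪 m e g) k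
      else s59l_WE l k) := fun l k => by
    rw [hχ, AlgHom.comp_apply, s59l_secE_y]
  have hχmax : ∀ x ∈ maximalIdeal (s59l_Flat 𝒪 m (g + e * 3)), χ x ∈ maximalIdeal T :=
    fun x hx => s59l_algHom_mem_max χ hχmem hφ.loc hx
  have hrel : s59l_RelChi θ χ := by
    refine ⟨hχmem, fun j => ?_, fun j k k' => ?_, hφ.tf⟩
    · rw [hχV, hχV, hχV]; exact hφ.quad j
    · rw [hχV, hχV, hχW, hχW]; exact hφ.minor j k k'
  have hkill := s59l_KK_kill θ hθ (g + e * 3) χ hrel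
  -- the Steinberg triple
  have htriple : ∀ l, ch l = true →
      χ (s59l_stF D m g l) = algebraMap 𝒪 T (D.f0 l) + φ (s59l_WE l 0) ∧
      χ (s59l_stE D m g l) = φ (s59l_VE l 0) ∧ χ (s59l_stC D m g l) = φ (s59l_VE l 2) := by
    intro l hl
    obtain ⟨s1, s2, s3, s4, s5, s6⟩ := s59l_st_spec D m g l
    obtain ⟨t1, t2, t3⟩ := hst l hl
    have y0 : χ (s59l_yE m g l 0) = φ (s59l_VE l 1) := by rw [hχy, if_pos hl]; rfl
    have y1 : χ (s59l_yE m g l 1) = φ (s59l_WE l 1) := by rw [hχy, if_pos hl]; rfl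
    have y2 : χ (s59l_yE m g l 2) = φ (s59l_WE l 2) := by rw [hχy, if_pos hl]; rfl
    have hCf : χ (C (D.f0 l)) = algebraMap 𝒪 T (D.f0 l) := s59l_algHom_C χ _
    refine s59l_st_unique (algebraMap 𝒪 T (D.f0 l)) (algebraMap 𝒪 T D.i2) (φ (s59l_VE l 1))
      (φ (s59l_WE l 1)) (φ (s59l_WE l 2)) _ _ _ _ _ _ hi2T ((D.isUnit_f0 l).map _)
      ?_ ?_ ?_ ?_ t1 ?_ t2 t3
    · have := congrArg χ s1
      rw [map_pow, map_sub, map_pow, map_mul, hCf, y1, y2] at this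
      exact this
    · have := hχmax _ s2
      rwa [map_sub, hCf] at this
    · have := congrArg χ s3
      rw [map_mul, map_add, map_neg, map_mul, hCf, y0, y2] at this
      exact this
    · have := congrArg χ s4
      rw [map_mul, map_add, map_mul, hCf, y2] at this
      exact this
    · rw [add_sub_cancel_left]
      exact hφ.mem _
  have heq : φ = χ.comp (s59l_piE D m g ch) := by
    refine algHom_ext_of_X (maximalIdeal T) hφ.mem fun s => ?_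
    rw [AlgHom.comp_apply, s59l_piE_X]
    rcases s with p | p | ⟨l, k⟩ | ⟨l, k⟩ | i
    · show φ (s59l_VB p.1 p.2) = χ (s59l_V p.1 p.2)
      rw [hχV]
    · show φ (s59l_WB p.1 p.2) = χ (s59l_W p.1 p.2)
      rw [hχW]
    · show φ (s59l_VE l k) = χ (if ch l then _ else _)
      by_cases hl : ch l = true
      · rw [if_pos hl]
        obtain ⟨t1, t2, t3⟩ := htriple l hl
        fin_cases k
        · exact t2.symm
        · show φ (s59l_VE l 1) = χ (s59l_yE m g l 0)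
          rw [hχy, if_pos hl]; rfl
        · exact t3.symm
      · rw [if_neg hl, map_zero]
        exact hunr l (by simpa using hl) k
    · show φ (s59l_WE l k) = χ (if ch l then _ else _)
      by_cases hl : ch l = true
      · rw [if_pos hl]
        obtain ⟨t1, t2, t3⟩ := htriple l hl
        fin_cases k
        · show φ (s59l_WE l 0) = χ (s59l_stF D m g l - C (D.f0 l))
          rw [map_sub, t1, s59l_algHom_C, add_sub_cancel_left]
        · show φ (s59l_WE l 1) = χ (s59l_yE m g l 1)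
          rw [hχy, if_pos hl]; rfl
        · show φ (s59l_WE l 2) = χ (s59l_yE m g l 2)
          rw [hχy, if_pos hl]; rfl
      · rw [if_neg hl, hχy, if_neg hl]
    · show φ (s59l_XE i) = χ (s59l_Xv (s59l_xe e g (Sum.inl i)))
      rw [hχ, AlgHom.comp_apply, s59l_secE_xl]
  intro F hF
  rw [s59l_KKE, Ideal.mem_comap] at hF
  have := hkill hF
  rw [RingHom.mem_ker] at this ⊢
  rw [heq, AlgHom.comp_apply, this]

/-- **[LOC-E] (K-kill) for reduced rings**: if every irreducible component of a reduced complete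
local noetherian `𝒪`-algebra `Cr` is of type `χ_{θ i}` at `B` for some `i` and unipotent at
`E`, then `⋂_{(i,ch)} 𝒦_{θ i, ch}` dies in `Cr`. -/
theorem s59l_KKE_kill_reduced {m : ℕ} {ι : Type} [Fintype ι] (θ : ι → Fin m → 𝒪)
    (hθ : ∀ i j, s59l_Hyp (θ i j)) (g : ℕ) {Cr : Type} [CommRing Cr] [IsLocalRing Cr]
    [IsNoetherianRing Cr] [IsAdicComplete (maximalIdeal Cr) Cr] [IsReduced Cr] [Algebra 𝒪 Cr]
    (φ : s59l_FlatE 𝒪 m e g →ₐ[𝒪] Cr)
    (h : ∀ 𝔭 ∈ minimalPrimes Cr, ∀ [IsLocalRing (Cr ⧸ 𝔭)], ∃ i,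
      s59l_RelE D (θ i) ((Ideal.Quotient.mkₐ 𝒪 𝔭).comp φ)) :
    (Finset.univ.inf fun p : ι × (Fin e → Bool) => s59l_KKE D (θ p.1) (hθ p.1) g p.2) ≤
      RingHom.ker φ := by
  refine s59l_kill_reduced (φ : s59l_FlatE 𝒪 m e g →+* Cr) _ fun 𝔭 h𝔭 F hF => ?_
  haveI : 𝔭.IsPrime := h𝔭.1.1
  haveI : IsLocalRing (Cr ⧸ 𝔭) := s59l_quot_isLocalRing 𝔭 (Ideal.IsPrime.ne_top inferInstance)
  haveI : IsAdicComplete (maximalIdeal (Cr ⧸ 𝔭)) (Cr ⧸ 𝔭) := s59l_quot_complete 𝔭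
  haveI : IsDomain (Cr ⧸ 𝔭) := Ideal.Quotient.isDomain 𝔭
  obtain ⟨i, hi⟩ := h 𝔭 h𝔭
  obtain ⟨ch, hch⟩ := s59l_KKE_kill D (θ i) (hθ i) g _ hi
  have h1 : F ∈ s59l_KKE D (θ i) (hθ i) g ch :=
    (Finset.inf_le (f := fun p : ι × (Fin e → Bool) => s59l_KKE D (θ p.1) (hθ p.1) g p.2)
      (Finset.mem_univ (i, ch))) hF
  have h2 := hch h1
  rw [RingHom.mem_ker, AlgHom.comp_apply, Ideal.Quotient.mkₐ_eq_mk,
    Ideal.Quotient.eq_zero_iff_mem] at h2
  exact h2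

end Tol

end Fermat.Agent.Lib.S59
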