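/-
[E] INSTANTIATION, ring half (helper4, prefix `s59i_`), part 1: FROM MATRIX IDENTITIES TO THE RELATIONS.
The framed local representations enter the assembly only through the "traceless coordinates"
`s59i_tl i2 A = (½(A₀₀ − A₁₁), A₀₁, A₁₀)` and the half trace `s59i_ht i2 A = ½ tr A` of the matrices
`Σ = ρ(σ_q)`, `Φ = ρ(φ_q)`.  All hypotheses below are CONJUGATION-INVARIANT matrix identities:
  type 1 / unipotent:  `(Σ − 1)² = 0`, `tr Σ = 2`, `Φ (Σ − 1) = u • (Σ − 1) Φ`, `det Φ = u`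
      ⇒ `s59l_r0 = s59l_r2 = s59l_r3 = s59l_r4 = 0`, `a² = u + Q(W)`;
  type χ:              `tr Σ = t`, `det Σ = 1`, `Φ Σ = Σ Φ`
      ⇒ `quad` (`Q(V) = (t/2)² − 1`) and `minor` (`W ∧ V = 0`).
`s59i_RelE_of_matrices` packages them into `s59l_RelE`.
-/
import Mathlib
import Fermat.Agent.Lib.S59.LTol

set_option autoImplicit false
set_option linter.unusedSectionVars false
set_option linter.unusedVariables false

noncomputable section

namespace Fermat.Agent.Lib.S59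

open IsLocalRing MvPowerSeries

section Matrix

variable {C : Type*} [CommRing C]

/-- the traceless coordinates `(½(A₀₀ − A₁₁), A₀₁, A₁₀)` of a `2 × 2` matrix. -/
def s59i_tl (i2 : C) (A : Matrix (Fin 2) (Fin 2) C) : Fin 3 → C :=
  ![i2 * (A 0 0 - A 1 1), A 0 1, A 1 0]

/-- the half trace. -/
def s59i_ht (i2 : C) (A : Matrix (Fin 2) (Fin 2) C) : C := i2 * (A 0 0 + A 1 1)

@[simp] theorem s59i_tl_zero (i2 : C) (A : Matrix (Fin 2) (Fin 2) C) :
    s59i_tl i2 A 0 = i2 * (A 0 0 - A 1 1) := rfl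
@[simp] theorem s59i_tl_one (i2 : C) (A : Matrix (Fin 2) (Fin 2) C) :
    s59i_tl i2 A 1 = A 0 1 := rfl
@[simp] theorem s59i_tl_two (i2 : C) (A : Matrix (Fin 2) (Fin 2) C) :
    s59i_tl i2 A 2 = A 1 0 := rfl

/-- the coordinates are compatible with ring homomorphisms. -/
theorem s59i_tl_map {C' : Type*} [CommRing C'] (f : C →+* C') (i2 : C)
    (A : Matrix (Fin 2) (Fin 2) C) (k : Fin 3) :
    s59i_tl (f i2) (A.map f) k = f (s59i_tl i2 A k) := by
  fin_cases k <;> simp [s59i_tl, Matrix.map_apply]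

theorem s59i_ht_map {C' : Type*} [CommRing C'] (f : C →+* C') (i2 : C)
    (A : Matrix (Fin 2) (Fin 2) C) : s59i_ht (f i2) (A.map f) = f (s59i_ht i2 A) := by
  simp [s59i_ht, Matrix.map_apply]

variable (i2 u : C) (hi2 : 2 * i2 = 1) (A Φ : Matrix (Fin 2) (Fin 2) C)

include hi2 in
/-- `(Σ − 1)² = 0`, `tr Σ = 2` ⇒ `r₀ = 0`. -/
theorem s59i_r0_of_unip (h1 : (A - 1) * (A - 1) = 0) (htr : A.trace = 2) :
    s59l_r0 (s59i_tl i2 A 0) (s59i_tl i2 A 1) (s59i_tl i2 A 2) = 0 := by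
  have h00 := congrFun (congrFun h1 0) 0
  rw [Matrix.trace_fin_two] at htr
  simp only [Matrix.mul_apply, Fin.sum_univ_two, Matrix.sub_apply, Matrix.one_apply_eq,
    Matrix.zero_apply, ne_eq, zero_ne_one, one_ne_zero, not_false_eq_true, Matrix.one_apply_ne,
    sub_zero] at h00
  simp only [s59l_r0, s59i_tl_zero, s59i_tl_one, s59i_tl_two]
  generalize A 0 0 = x at *
  generalize A 1 1 = d at *
  obtain rfl : d = 2 - x := by linear_combination htr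
  linear_combination h00 + ((x - 1) ^ 2 * (2 * i2 + 1)) * hi2

include hi2 in
/-- `tr Σ = 2` and the tame relation `Φ (Σ − 1) = u (Σ − 1) Φ` ⇒ `r₂ = r₃ = r₄ = 0`. -/
theorem s59i_r234_of_tame (htr : A.trace = 2) (ht : Φ * (A - 1) = u • ((A - 1) * Φ)) :
    s59l_r2 (s59i_tl i2 A 0) (s59i_tl i2 A 1) (s59i_tl i2 Φ 0) (s59i_tl i2 Φ 1) (s59i_ht i2 Φ) u
        = 0 ∧
    s59l_r3 (s59i_tl i2 A 0) (s59i_tl i2 A 2) (s59i_tl i2 Φ 0) (s59i_tl i2 Φ 2) (s59i_ht i2 Φ) u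
        = 0 ∧
    s59l_r4 (s59i_tl i2 A 0) (s59i_tl i2 A 1) (s59i_tl i2 A 2) (s59i_tl i2 Φ 0) (s59i_tl i2 Φ 1)
      (s59i_tl i2 Φ 2) u = 0 := by
  have h00 := congrFun (congrFun ht 0) 0
  have h01 := congrFun (congrFun ht 0) 1
  have h10 := congrFun (congrFun ht 1) 0
  have h11 := congrFun (congrFun ht 1) 1
  rw [Matrix.trace_fin_two] at htr
  simp only [Matrix.mul_apply, Fin.sum_univ_two, Matrix.sub_apply, Matrix.one_apply_eq,
    Matrix.smul_apply, smul_eq_mul, ne_eq, zero_ne_one, one_ne_zero, not_false_eq_true,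
    Matrix.one_apply_ne, sub_zero] at h00 h01 h10 h11
  simp only [s59l_r2, s59l_r3, s59l_r4, s59i_tl_zero, s59i_tl_one, s59i_tl_two, s59i_ht]
  generalize A 0 0 = x at *
  generalize A 1 1 = d at *
  generalize A 0 1 = b at *
  generalize A 1 0 = c at *
  generalize Φ 0 0 = p at *
  generalize Φ 1 1 = s at *
  generalize Φ 0 1 = β at *
  generalize Φ 1 0 = γ at *
  obtain rfl : d = 2 - x := by linear_combination htr
  have hA : i2 * (x - (2 - x)) = x - 1 := by linear_combination (x - 1) * hi2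
  have hP : i2 * (p + s) + i2 * (p - s) = p := by linear_combination p * hi2
  have hM : i2 * (p + s) - i2 * (p - s) = s := by linear_combination s * hi2
  rw [hA]
  refine ⟨?_, ?_, ?_⟩
  · have : (i2 * (p + s)) * (1 - u) * b + (1 + u) * (i2 * (p - s) * b - β * (x - 1)) =
        (i2 * (p + s) + i2 * (p - s)) * b + β * (-(x - 1)) -
          u * ((x - 1) * β + b * (i2 * (p + s) - i2 * (p - s))) := by ring
    rw [this, hP, hM]
    linear_combination h01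
  · have : (i2 * (p + s)) * (1 - u) * c + (1 + u) * (γ * (x - 1) - i2 * (p - s) * c) =
        γ * (x - 1) + (i2 * (p + s) - i2 * (p - s)) * c -
          u * (c * (i2 * (p + s) + i2 * (p - s)) + (-(x - 1)) * γ) := by ring
    rw [this, hP, hM]
    linear_combination h10
  · have : (1 - u) * (2 * (x - 1) * (i2 * (p - s)) + b * γ + c * β) =
        (1 - u) * ((x - 1) * (p - s) * (2 * i2) + b * γ + c * β) := by ring
    rw [this, hi2]
    linear_combination h00 + h11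

include hi2 in
/-- `det Φ = u` ⇒ `a² = u + Q(W)`. -/
theorem s59i_sq_of_det (hdet : Φ.det = u) :
    s59i_ht i2 Φ ^ 2 = u + (s59i_tl i2 Φ 0 ^ 2 + s59i_tl i2 Φ 1 * s59i_tl i2 Φ 2) := by
  rw [Matrix.det_fin_two] at hdet
  simp only [s59i_tl_zero, s59i_tl_one, s59i_tl_two, s59i_ht]
  rw [← hdet]
  linear_combination (Φ 0 0 * Φ 1 1 * (2 * i2 + 1)) * hi2

include hi2 in
/-- type χ: `tr Σ = t`, `det Σ = 1` ⇒ `Q(V) = (t/2)² − 1`. -/
theorem s59i_quad_of_charpoly (t : C) (htr : A.trace = t) (hdet : A.det = 1) :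
    s59i_tl i2 A 0 ^ 2 + s59i_tl i2 A 1 * s59i_tl i2 A 2 = (i2 * t) ^ 2 - 1 := by
  rw [Matrix.det_fin_two] at hdet
  rw [Matrix.trace_fin_two] at htr
  simp only [s59i_tl_zero, s59i_tl_one, s59i_tl_two]
  rw [← htr]
  linear_combination (-1 : C) * hdet - (A 0 0 * A 1 1 * (2 * i2 + 1)) * hi2

include hi2 in
/-- type χ: `Φ Σ = Σ Φ` ⇒ the traceless parts are proportional. -/
theorem s59i_minor_of_comm (hc : Φ * A = A * Φ) (k k' : Fin 3) :
    s59i_tl i2 Φ k * s59i_tl i2 A k' = s59i_tl i2 Φ k' * s59i_tl i2 A k := by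
  have h00 := congrFun (congrFun hc 0) 0
  have h01 := congrFun (congrFun hc 0) 1
  have h10 := congrFun (congrFun hc 1) 0
  simp only [Matrix.mul_apply, Fin.sum_univ_two] at h00 h01 h10
  have e01 : (Φ 0 0 - Φ 1 1) * A 0 1 = Φ 0 1 * (A 0 0 - A 1 1) := by linear_combination h01
  have e10 : (Φ 0 0 - Φ 1 1) * A 1 0 = Φ 1 0 * (A 0 0 - A 1 1) := by linear_combination -h10
  have e12 : Φ 0 1 * A 1 0 = Φ 1 0 * A 0 1 := by linear_combination h00
  fin_cases k <;> fin_cases k' <;>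
    simp only [Fin.zero_eta, Fin.mk_one, Fin.reduceFinMk, s59i_tl_zero, s59i_tl_one, s59i_tl_two]
  · linear_combination (i2 * e01)
  · linear_combination (i2 * e10)
  · linear_combination (-i2 * e01)
  · exact e12
  · linear_combination (-i2 * e10)
  · exact e12.symm

include hi2 in
/-- a matrix with vanishing traceless coordinates and trace `2` is the identity ("`c j k ∈ 𝔭` for
all `k` ⇒ `ρ_𝔭(σ_q) = 1`"). -/
theorem s59i_eq_one_of_tl (h : ∀ k, s59i_tl i2 A k = 0) (htr : A.trace = 2) : A = 1 := by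
  have h0 := h 0
  have h1 := h 1
  have h2 := h 2
  rw [Matrix.trace_fin_two] at htr
  simp only [s59i_tl_zero, s59i_tl_one, s59i_tl_two] at h0 h1 h2
  have e : A 0 0 = A 1 1 := by linear_combination 2 * h0 - (A 0 0 - A 1 1) * hi2
  have e00 : A 0 0 = 1 := by linear_combination i2 * htr + i2 * e - (A 0 0 - 1) * hi2
  have e11 : A 1 1 = 1 := by rw [← e, e00]
  ext i j
  fin_cases i <;> fin_cases j
  · simpa using e00
  · simpa using h1
  · simpa using h2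
  · simpa using e11

end Matrix

section Tame

variable {C : Type*} [CommRing C]

/-- `(1 + N)^k = 1 + k N` for `N² = 0`. -/
theorem s59i_unip_pow (A : Matrix (Fin 2) (Fin 2) C) (h1 : (A - 1) * (A - 1) = 0) (k : ℕ) :
    A ^ k = 1 + (k : C) • (A - 1) := by
  induction k with
  | zero => simp
  | succ k ih =>
    have e : A = 1 + (A - 1) := by abel
    rw [pow_succ, ih]
    nth_rw 2 [e]
    rw [add_mul, mul_add, mul_add, one_mul, one_mul, mul_one, Matrix.smul_mul, h1, smul_zero,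
      add_zero, Nat.cast_succ, add_smul, one_smul]
    abel

/-- **tame relation, unipotent case**: `Φ Σ = Σ^q Φ`, `(Σ − 1)² = 0` ⇒ `Φ (Σ − 1) = q (Σ − 1) Φ`. -/
theorem s59i_tame_unip (A Φ : Matrix (Fin 2) (Fin 2) C) (q : ℕ) (h1 : (A - 1) * (A - 1) = 0)
    (ht : Φ * A = A ^ q * Φ) : Φ * (A - 1) = (q : C) • ((A - 1) * Φ) := by
  rw [s59i_unip_pow A h1 q, add_mul, one_mul, Matrix.smul_mul] at ht
  rw [mul_sub, mul_one, ht]
  abel

/-- Cayley–Hamilton for `2 × 2` matrices. -/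
theorem s59i_cayley (A : Matrix (Fin 2) (Fin 2) C) :
    A * A = A.trace • A - A.det • (1 : Matrix (Fin 2) (Fin 2) C) := by
  ext i j
  fin_cases i <;> fin_cases j <;>
    simp [Matrix.mul_apply, Fin.sum_univ_two, Matrix.trace_fin_two, Matrix.det_fin_two] <;> ring

/-- the coefficients of `Σ^k = a_k Σ + b_k`. -/
def s59i_cheb (t : C) : ℕ → C × C
  | 0 => (0, 1)
  | k + 1 => (t * (s59i_cheb t k).1 + (s59i_cheb t k).2, -(s59i_cheb t k).1)

theorem s59i_pow_eq_cheb (A : Matrix (Fin 2) (Fin 2) C) (t : C) (htr : A.trace = t)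
    (hdet : A.det = 1) (k : ℕ) :
    A ^ k = (s59i_cheb t k).1 • A + (s59i_cheb t k).2 • (1 : Matrix (Fin 2) (Fin 2) C) := by
  induction k with
  | zero => simp [s59i_cheb]
  | succ k ih =>
    have hc := s59i_cayley A
    rw [htr, hdet, one_smul] at hc
    rw [pow_succ, ih, add_mul, Matrix.smul_mul, Matrix.smul_mul, one_mul, hc]
    simp only [s59i_cheb]
    rw [smul_sub, smul_smul, add_smul, neg_smul, mul_comm]
    abel

theorem s59i_cheb_closed (ζ ζ' : C) (hζ : ζ * ζ' = 1) (k : ℕ) :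
    (s59i_cheb (ζ + ζ') k).1 * (ζ - ζ') = ζ ^ k - ζ' ^ k ∧
      (s59i_cheb (ζ + ζ') k).2 * (ζ - ζ') = ζ' ^ k * ζ - ζ ^ k * ζ' := by
  induction k with
  | zero => simp [s59i_cheb]
  | succ k ih =>
    obtain ⟨ih1, ih2⟩ := ih
    simp only [s59i_cheb]
    constructor
    · rw [add_mul, mul_assoc, ih1, ih2]
      ring
    · rw [neg_mul, ih1]
      linear_combination (ζ ^ k - ζ' ^ k) * hζ

/-- type `χ`: `tr Σ = ζ + ζ⁻¹`, `det Σ = 1`, `ζ^q = ζ`, `ζ − ζ⁻¹` regular ⇒ `Σ^q = Σ`. -/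
theorem s59i_pow_eq_self (A : Matrix (Fin 2) (Fin 2) C) (ζ ζ' : C) (hζ : ζ * ζ' = 1) (q : ℕ)
    (hq : ζ ^ q = ζ) (hreg : ∀ x : C, x * (ζ - ζ') = 0 → x = 0) (htr : A.trace = ζ + ζ')
    (hdet : A.det = 1) : A ^ q = A := by
  obtain ⟨h1, h2⟩ := s59i_cheb_closed ζ ζ' hζ q
  have hq' : ζ' ^ q = ζ' := by
    have e : ζ' ^ q = ζ' ^ q * (ζ ^ q * ζ' ^ q) * 1 := by rw [← mul_pow, hζ, one_pow, mul_one, mul_one]
    have e2 : ζ' ^ q = ζ' ^ q * ζ * ζ' := by rw [mul_assoc, hζ, mul_one]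
    have e3 : ζ' ^ q * ζ = 1 := by rw [← hq, mul_comm, ← mul_pow, hζ, one_pow]
    rw [e2, e3, one_mul]
  have ha : (s59i_cheb (ζ + ζ') q).1 = 1 := by
    have : ((s59i_cheb (ζ + ζ') q).1 - 1) * (ζ - ζ') = 0 := by
      rw [sub_mul, h1, hq, hq']; ring
    have := hreg _ this
    linear_combination this
  have hb : (s59i_cheb (ζ + ζ') q).2 = 0 := by
    refine hreg _ ?_
    rw [h2, hq, hq']
    ring
  rw [s59i_pow_eq_cheb A (ζ + ζ') htr hdet q, ha, hb, one_smul, zero_smul, add_zero]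

/-- **tame relation, type `χ`**: `Φ Σ = Σ^q Φ` ⇒ `Φ Σ = Σ Φ`. -/
theorem s59i_tame_chi (A Φ : Matrix (Fin 2) (Fin 2) C) (ζ ζ' : C) (hζ : ζ * ζ' = 1) (q : ℕ)
    (hq : ζ ^ q = ζ) (hreg : ∀ x : C, x * (ζ - ζ') = 0 → x = 0) (htr : A.trace = ζ + ζ')
    (hdet : A.det = 1) (ht : Φ * A = A ^ q * Φ) : Φ * A = A * Φ := by
  rw [ht, s59i_pow_eq_self A ζ ζ' hζ q hq hreg htr hdet]

end Tame

section RelE

variable {𝒪 : Type} [CommRing 𝒪] [IsLocalRing 𝒪] [IsNoetherianRing 𝒪] [IsDomain 𝒪]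
  [IsAdicComplete (maximalIdeal 𝒪) 𝒪] [Finite (ResidueField 𝒪)]

variable {m e g : ℕ} (D : s59l_EData 𝒪 e)

/-- **the χ-side relations from matrix identities**: a point `φ` of `𝒫^E` whose `B`-coordinates
are the traceless coordinates of matrices `Σ j`, `Φ j` with `tr Σ = t`, `det Σ = 1`,
`Φ Σ = Σ Φ` (type `χ`, `θ² = (t/2)² − 1`) and whose `E`-coordinates are those of `ΣE l`, `ΦE l`
with `(ΣE − 1)² = 0`, `tr ΣE = 2`, `ΦE (ΣE − 1) = u (ΣE − 1) ΦE`, `det ΦE = u`,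
`½ tr ΦE ≡ a₀`, satisfies `s59l_RelE`. -/
theorem s59i_RelE_of_matrices (θ : Fin m → 𝒪) {T : Type} [CommRing T] [IsLocalRing T]
    [Algebra 𝒪 T] (φ : s59l_FlatE 𝒪 m e g →ₐ[𝒪] T)
    (hloc : ∀ t ∈ maximalIdeal 𝒪, algebraMap 𝒪 T t ∈ maximalIdeal T)
    (hmem : ∀ s, φ (X s) ∈ maximalIdeal T)
    (Sg Ph : Fin m → Matrix (Fin 2) (Fin 2) T) (SgE PhE : Fin e → Matrix (Fin 2) (Fin 2) T)
    (hV : ∀ j k, φ (s59l_VB j k) = s59i_tl (algebraMap 𝒪 T D.i2) (Sg j) k)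
    (hW : ∀ j k, φ (s59l_WB j k) = s59i_tl (algebraMap 𝒪 T D.i2) (Ph j) k)
    (hVE : ∀ l k, φ (s59l_VE l k) = s59i_tl (algebraMap 𝒪 T D.i2) (SgE l) k)
    (hWE : ∀ l k, φ (s59l_WE l k) = s59i_tl (algebraMap 𝒪 T D.i2) (PhE l) k -
      algebraMap 𝒪 T ((![D.f0 l, 0, 0] : Fin 3 → 𝒪) k))
    (t : Fin m → 𝒪) (htθ : ∀ j, (D.i2 * t j) ^ 2 - 1 = θ j ^ 2)
    (htr : ∀ j, (Sg j).trace = algebraMap 𝒪 T (t j)) (hdet : ∀ j, (Sg j).det = 1)
    (hcomm : ∀ j, Ph j * Sg j = Sg j * Ph j)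
    (htf : ∀ j, ∀ x : T, algebraMap 𝒪 T (θ j) * x = 0 → x = 0)
    (hE1 : ∀ l, (SgE l - 1) * (SgE l - 1) = 0) (hEtr : ∀ l, (SgE l).trace = 2)
    (hEt : ∀ l, PhE l * (SgE l - 1) = algebraMap 𝒪 T (D.u l) • ((SgE l - 1) * PhE l))
    (hEdet : ∀ l, (PhE l).det = algebraMap 𝒪 T (D.u l))
    (hEres : ∀ l, s59i_ht (algebraMap 𝒪 T D.i2) (PhE l) - algebraMap 𝒪 T (D.a0 l) ∈
      maximalIdeal T) :
    s59l_RelE D θ φ := by
  have hi2 : (2 : T) * algebraMap 𝒪 T D.i2 = 1 := by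
    rw [← map_ofNat (algebraMap 𝒪 T) 2, ← map_mul, D.hi2, map_one]
  refine ⟨hloc, hmem, fun j => ?_, fun j k k' => ?_, htf, fun l => ?_⟩
  · rw [hV, hV, hV, s59i_quad_of_charpoly _ hi2 (Sg j) _ (htr j) (hdet j), ← map_mul, ← map_pow,
      ← map_one (algebraMap 𝒪 T), ← map_sub, htθ, map_pow]
  · rw [hW, hV, hW, hV]
    exact s59i_minor_of_comm _ hi2 (Sg j) (Ph j) (hcomm j) k k'
  · have e0 : algebraMap 𝒪 T (D.f0 l) + φ (s59l_WE l 0) =
        s59i_tl (algebraMap 𝒪 T D.i2) (PhE l) 0 := by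
      rw [hWE]
      simp
    have e1 : φ (s59l_WE l 1) = s59i_tl (algebraMap 𝒪 T D.i2) (PhE l) 1 := by
      rw [hWE]
      simp
    have e2 : φ (s59l_WE l 2) = s59i_tl (algebraMap 𝒪 T D.i2) (PhE l) 2 := by
      rw [hWE]
      simp
    obtain ⟨h2, h3, h4⟩ := s59i_r234_of_tame _ (algebraMap 𝒪 T (D.u l)) hi2 (SgE l) (PhE l)
      (hEtr l) (hEt l)
    refine ⟨s59i_ht (algebraMap 𝒪 T D.i2) (PhE l), hEres l, ?_, ?_, ?_, ?_, ?_⟩
    · rw [e0, e1, e2]
      exact s59i_sq_of_det _ _ hi2 (PhE l) (hEdet l)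
    · rw [hVE, hVE, hVE]
      exact s59i_r0_of_unip _ hi2 (SgE l) (hE1 l) (hEtr l)
    · rw [e0, e1, hVE, hVE]
      exact h2
    · rw [e0, e2, hVE, hVE]
      exact h3
    · rw [e0, e1, e2, hVE, hVE, hVE]
      exact h4

end RelE

end Fermat.Agent.Lib.S59
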