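/-
[E] INSTANTIATION, ring half (helper4, prefix `s59i_`), part 7: EVERY LIFT IS UNIPOTENT AT THE
PRIMES OF `E`.  Over ANY local ring `T` (no domain, no reducedness): if `Σ ≡ 1 mod 𝔪_T`,
`Φ Σ = Σ^ℓ Φ` with `Φ` invertible and `ℓ² − 1 ∈ Tˣ`, then `det Σ = 1`, `tr Σ = 2` and
`(Σ − 1)² = 0`.  (So at `ℓ₀ ∈ E`, `ℓ₀ ≢ ±1 (p)`, `ρ̄` unramified, the hypotheses `hE1`, `hEtr` of
`s59i_RelE_of_matrices` follow from the tame relation alone; no geometric input (S34) is needed.)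
Proof: `det Σ^{ℓ-1} = 1` with `det Σ ≡ 1`; `tr Σ^ℓ = D_ℓ(tr Σ)` (Dickson), `D_ℓ(2 + x) = 2 + ℓ² x + x² e`.
-/
import Mathlib
import Fermat.Agent.Lib.S59.LInstM

set_option autoImplicit false
set_option linter.unusedSectionVars false
set_option linter.unusedVariables false

noncomputable section

namespace Fermat.Agent.Lib.S59

open IsLocalRing

section Dickson

variable {C : Type*} [CommRing C]

/-- the pairs `(D_k(t), D_{k+1}(t))` of Dickson polynomials: `D_0 = 2`, `D_1 = t`,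
`D_{k+2} = t D_{k+1} − D_k`. -/
def s59i_dick (t : C) : ℕ → C × C
  | 0 => (2, t)
  | k + 1 => ((s59i_dick t k).2, t * (s59i_dick t k).2 - (s59i_dick t k).1)

/-- `tr Σ^k = D_k(tr Σ)` for `det Σ = 1`. -/
theorem s59i_trace_pow (A : Matrix (Fin 2) (Fin 2) C) (t : C) (htr : A.trace = t)
    (hdet : A.det = 1) (k : ℕ) :
    (A ^ k).trace = (s59i_dick t k).1 ∧ (A ^ (k + 1)).trace = (s59i_dick t k).2 := by
  induction k with
  | zero =>
    refine ⟨?_, ?_⟩
    · simp [s59i_dick]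
    · simpa [s59i_dick] using htr
  | succ k ih =>
    obtain ⟨ih1, ih2⟩ := ih
    refine ⟨ih2, ?_⟩
    have hc := s59i_cayley A
    rw [htr, hdet, one_smul] at hc
    have e : A ^ (k + 1 + 1) = t • A ^ (k + 1) - A ^ k := by
      rw [pow_succ, pow_succ, mul_assoc, hc, mul_sub, Matrix.mul_smul, mul_one, ← pow_succ]
    rw [e, Matrix.trace_sub, Matrix.trace_smul, ih1, ih2]
    simp [s59i_dick]

/-- `D_k(2 + x) = 2 + k² x + x² e`. -/
theorem s59i_dick_expand (x : C) (k : ℕ) :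
    ∃ e e' : C, (s59i_dick (2 + x) k).1 = 2 + (k : C) ^ 2 * x + x ^ 2 * e ∧
      (s59i_dick (2 + x) k).2 = 2 + ((k : C) + 1) ^ 2 * x + x ^ 2 * e' := by
  induction k with
  | zero => exact ⟨0, 0, by simp [s59i_dick], by simp [s59i_dick]⟩
  | succ k ih =>
    obtain ⟨e, e', h1, h2⟩ := ih
    refine ⟨e', 2 * e' + ((k : C) + 1) ^ 2 + x * e' - e, ?_, ?_⟩
    · simp only [s59i_dick]
      rw [h2]
      push_cast
      ring
    · simp only [s59i_dick]
      rw [h1, h2]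
      push_cast
      ring

/-- `(1 + x)^n = 1 + n x + x² c`. -/
theorem s59i_one_add_pow (x : C) (n : ℕ) : ∃ c : C, (1 + x) ^ n = 1 + (n : C) * x + x ^ 2 * c := by
  induction n with
  | zero => exact ⟨0, by simp⟩
  | succ n ih =>
    obtain ⟨c, hc⟩ := ih
    refine ⟨c + (n : C) + x * c, ?_⟩
    rw [pow_succ, hc]
    push_cast
    ring

end Dickson

section Unip

variable {T : Type*} [CommRing T] [IsLocalRing T]

/-- in a local ring: `x ∈ 𝔪`, `u` a unit, `x (u + x c) = 0` ⇒ `x = 0`. -/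
theorem s59i_eq_zero_of_mul_unit_add (x u c : T) (hx : x ∈ maximalIdeal T) (hu : IsUnit u)
    (h : x * (u + x * c) = 0) : x = 0 := by
  have hunit : IsUnit (u + x * c) := by
    by_contra hn
    have h1 : u + x * c ∈ maximalIdeal T := hn
    have h2 : u ∈ maximalIdeal T := by
      have := Ideal.sub_mem _ h1 (Ideal.mul_mem_right c _ hx)
      rwa [add_sub_cancel_right] at this
    exact h2 hu
  exact hunit.mul_left_eq_zero.mp h

/-- **every lift is unipotent at `ℓ ≢ ±1`**: `Σ ≡ 1 mod 𝔪`, `Φ Σ = Σ^ℓ Φ`, `Φ` invertible,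
`ℓ² − 1` a unit ⇒ `det Σ = 1`, `tr Σ = 2`, `(Σ − 1)² = 0`. -/
theorem s59i_unip_of_tame (A Φ Φ' : Matrix (Fin 2) (Fin 2) T) (hΦ : Φ' * Φ = 1) (ℓ : ℕ)
    (hℓ : IsUnit ((ℓ : T) ^ 2 - 1)) (ht : Φ * A = A ^ ℓ * Φ)
    (hres : ∀ i j, (A - 1) i j ∈ maximalIdeal T) :
    A.det = 1 ∧ A.trace = 2 ∧ (A - 1) * (A - 1) = 0 := by
  have hΦ2 : Φ * Φ' = 1 := mul_eq_one_comm.mp hΦ
  -- the power is a conjugate
  have hconj : A ^ ℓ = Φ * A * Φ' := by
    rw [ht, mul_assoc, hΦ2, mul_one]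
  -- the entries
  have h00 : A 0 0 - 1 ∈ maximalIdeal T := by simpa using hres 0 0
  have h11 : A 1 1 - 1 ∈ maximalIdeal T := by simpa using hres 1 1
  have h01 : A 0 1 ∈ maximalIdeal T := by simpa using hres 0 1
  have hfac : ((ℓ : T) - 1) * ((ℓ : T) + 1) = (ℓ : T) ^ 2 - 1 := by ring
  have hℓm : IsUnit ((ℓ : T) - 1) := isUnit_of_mul_isUnit_left (hfac ▸ hℓ)
  -- `det A = 1`
  have hdet : A.det = 1 := by
    set x := A.det - 1 with hx
    have hxm : x ∈ maximalIdeal T := by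
      have e : x = (A 0 0 - 1) + (A 1 1 - 1) + (A 0 0 - 1) * (A 1 1 - 1) - A 0 1 * A 1 0 := by
        rw [hx, Matrix.det_fin_two]; ring
      rw [e]
      exact Ideal.sub_mem _ (Ideal.add_mem _ (Ideal.add_mem _ h00 h11)
        (Ideal.mul_mem_right _ _ h00)) (Ideal.mul_mem_right _ _ h01)
    have hdx : A.det = 1 + x := by rw [hx]; ring
    have hdu : IsUnit A.det := by
      by_contra hn
      have h1 : A.det ∈ maximalIdeal T := hn
      have : (1 : T) ∈ maximalIdeal T := by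
        have := Ideal.sub_mem _ h1 hxm
        rwa [hx, sub_sub_cancel] at this
      exact (Ideal.ne_top_iff_one _).mp (maximalIdeal.isMaximal T).ne_top this
    have hdΦ : IsUnit Φ.det := by
      have := congrArg Matrix.det hΦ
      rw [Matrix.det_mul, Matrix.det_one] at this
      exact IsUnit.of_mul_eq_one _ (by rw [mul_comm]; exact this)
    have hpow : A.det ^ ℓ = A.det := by
      have := congrArg Matrix.det ht
      rw [Matrix.det_mul, Matrix.det_mul, Matrix.det_pow, mul_comm] at this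
      exact (hdΦ.mul_left_inj.mp this).symm
    rcases Nat.eq_zero_or_pos ℓ with h0 | hpos
    · rw [h0, pow_zero] at hpow
      exact hpow.symm
    · obtain ⟨n, rfl⟩ : ∃ n, ℓ = n + 1 := ⟨ℓ - 1, by omega⟩
      have h1 : A.det ^ n = 1 := by
        rw [pow_succ] at hpow
        have : A.det ^ n * A.det = 1 * A.det := by rw [hpow, one_mul]
        exact hdu.mul_left_inj.mp this
      obtain ⟨c, hc⟩ := s59i_one_add_pow x n
      rw [hdx, hc] at h1
      have hn : ((n + 1 : ℕ) : T) - 1 = (n : T) := by push_cast; ring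
      rw [hn] at hℓm
      have h2 : x * ((n : T) + x * c) = 0 := by linear_combination h1
      have hx0 := s59i_eq_zero_of_mul_unit_add x (n : T) c hxm hℓm h2
      rw [hdx, hx0, add_zero]
  -- `tr A = 2`
  have htr : A.trace = 2 := by
    set x := A.trace - 2 with hx
    have hxm : x ∈ maximalIdeal T := by
      have e : x = (A 0 0 - 1) + (A 1 1 - 1) := by
        rw [hx, Matrix.trace_fin_two]; ring
      rw [e]
      exact Ideal.add_mem _ h00 h11
    have htx : A.trace = 2 + x := by rw [hx]; ring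
    have h1 : (A ^ ℓ).trace = A.trace := by
      rw [hconj, Matrix.trace_mul_comm, ← mul_assoc, hΦ, one_mul]
    obtain ⟨e, -, he, -⟩ := s59i_dick_expand x ℓ
    rw [(s59i_trace_pow A (2 + x) htx hdet ℓ).1, he, htx] at h1
    have h2 : x * (((ℓ : T) ^ 2 - 1) + x * e) = 0 := by linear_combination h1
    have hx0 := s59i_eq_zero_of_mul_unit_add x _ e hxm hℓ h2
    rw [htx, hx0, add_zero]
  refine ⟨hdet, htr, ?_⟩
  have hc := s59i_cayley A
  rw [htr, hdet, one_smul] at hc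
  have e : (A - 1) * (A - 1) = A * A - (2 : T) • A + 1 := by
    rw [sub_mul, mul_sub, mul_one, one_mul, two_smul]
    abel
  rw [e, hc]
  abel

end Unip

/-! ### The smooth case: eigenvalue ratio of `Φ̄` not `ℓ^{±1}` ⇒ every lift is unramified -/

/-- the polynomial identity behind `s59i_unr_of_ratio` (Cayley–Hamilton elimination). -/
theorem s59i_ratio_identity {C : Type*} [CommRing C] (Φ N : Matrix (Fin 2) (Fin 2) C) (ℓ : C) :
    ((1 - ℓ) * Φ.det * ((1 + ℓ) ^ 2 * Φ.det - ℓ * Φ.trace ^ 2)) • N =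
      (Φ.trace ^ 2 * ℓ - Φ.det * (1 + ℓ)) •
          (Φ * (Φ * N - ℓ • (N * Φ)) + ℓ • ((Φ * N - ℓ • (N * Φ)) * Φ) -
            Φ.trace • (Φ * N - ℓ • (N * Φ))) -
        (Φ.trace * ℓ) •
          ((Φ * (Φ * N - ℓ • (N * Φ)) + ℓ • ((Φ * N - ℓ • (N * Φ)) * Φ) -
            Φ.trace • (Φ * N - ℓ • (N * Φ))) * Φ) := by
  ext i j
  fin_cases i <;> fin_cases j <;>
    simp [Matrix.mul_apply, Fin.sum_univ_two, Matrix.trace_fin_two, Matrix.det_fin_two] <;> ring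

/-- **`Φ N = ℓ N Φ` forces `N = 0`** when `1 − ℓ`, `det Φ` and `(1+ℓ)² det Φ − ℓ (tr Φ)²` are units
(i.e. `ℓ ≠ 1` and the eigenvalue ratio of `Φ` is not `ℓ^{±1}`, residually). -/
theorem s59i_unr_of_ratio {C : Type*} [CommRing C] (Φ N : Matrix (Fin 2) (Fin 2) C) (ℓ : C)
    (h : Φ * N = ℓ • (N * Φ))
    (hu : IsUnit ((1 - ℓ) * Φ.det * ((1 + ℓ) ^ 2 * Φ.det - ℓ * Φ.trace ^ 2))) : N = 0 := by
  have hid := s59i_ratio_identity Φ N ℓ
  have h0 : Φ * N - ℓ • (N * Φ) = 0 := sub_eq_zero.mpr h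
  rw [h0] at hid
  simp only [mul_zero, zero_mul, smul_zero, add_zero, sub_zero] at hid
  obtain ⟨u, hu'⟩ := hu
  have h1 : (↑u⁻¹ : C) • (((1 - ℓ) * Φ.det * ((1 + ℓ) ^ 2 * Φ.det - ℓ * Φ.trace ^ 2)) • N) = 0 := by
    rw [hid, smul_zero]
  rwa [smul_smul, ← hu', Units.inv_mul, one_smul] at h1

section UnrRatio

variable {T : Type*} [CommRing T] [IsLocalRing T]

/-- **every lift is UNRAMIFIED at `ℓ ≢ ±1` when the residual eigenvalue ratio of Frobenius is not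
`ℓ^{±1}`**: `Σ ≡ 1 mod 𝔪`, `Φ Σ = Σ^ℓ Φ`, `Φ` invertible, `ℓ² − 1` and
`(1+ℓ)² det Φ − ℓ (tr Φ)²` units ⇒ `Σ = 1`. -/
theorem s59i_unr_of_tame_ratio (A Φ Φ' : Matrix (Fin 2) (Fin 2) T) (hΦ : Φ' * Φ = 1) (ℓ : ℕ)
    (hℓ : IsUnit ((ℓ : T) ^ 2 - 1)) (ht : Φ * A = A ^ ℓ * Φ)
    (hres : ∀ i j, (A - 1) i j ∈ maximalIdeal T)
    (hratio : IsUnit ((1 + (ℓ : T)) ^ 2 * Φ.det - (ℓ : T) * Φ.trace ^ 2)) : A = 1 := by
  obtain ⟨-, -, hsq⟩ := s59i_unip_of_tame A Φ Φ' hΦ ℓ hℓ ht hres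
  have h1 := s59i_tame_unip A Φ ℓ hsq ht
  have hfac : (1 - (ℓ : T)) * (-((ℓ : T) + 1)) = (ℓ : T) ^ 2 - 1 := by ring
  have hℓm : IsUnit (1 - (ℓ : T)) := isUnit_of_mul_isUnit_left (hfac ▸ hℓ)
  have hdΦ : IsUnit Φ.det := by
    have := congrArg Matrix.det hΦ
    rw [Matrix.det_mul, Matrix.det_one] at this
    exact IsUnit.of_mul_eq_one _ (by rw [mul_comm]; exact this)
  have h2 := s59i_unr_of_ratio Φ (A - 1) (ℓ : T) h1 ((hℓm.mul hdΦ).mul hratio)
  exact sub_eq_zero.mp h2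

end UnrRatio

end Fermat.Agent.Lib.S59
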