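/-
PROGRAMME (R) (helper3, prefix `s59u_`): **[E2-UNR]** (helper4 #3436).

`A` a noetherian local ring with `p ∈ 𝔪_A`, `ρ : GaloisRepAdic A`, `q ≠ p` a prime with `q² − 1 ∈ Aˣ`
(`q ≢ ±1 (p)`), `ρ̄` unramified at `q`, and the eigenvalue ratio of a Frobenius element at `q` is not
`q^{±1}` residually, i.e. `(1+q)² det ρ(φ) − q (tr ρ(φ))² ∈ Aˣ`.  Then `ρ` ITSELF is unramified at `q`.

Ingredients: helper5's tame relation for residually unramified actions (`s59e_tame_resUnr_comm`, ETame: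
`ρ(φ) ρ(τ) = ρ(τ)^q ρ(φ)` for EVERY `τ ∈ I_P` — no uniform generator, no Krull argument needed),
helper4's matrix lemma `s59i_unr_of_tame_ratio` (LInstU) and main's conjugacy of the inertia groups over `q`
(`ptm_inertia_conj`, Mz/ValConj).
-/
import Mathlib
import Fermat.Agent.Lib.S53.MatrixRep
import Fermat.Agent.Lib.S59.ETame
import Fermat.Agent.Lib.S59.LInstU
import Fermat.Agent.Lib.Mz.ValConj

set_option autoImplicit false
set_option linter.unusedSectionVars false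
set_option linter.unusedVariables false
set_option linter.style.haveILetI false

noncomputable section

namespace Fermat.Agent.Lib.S59

open IsLocalRing Fermat.Agent.Lib.S53 Fermat.Agent.Lib.Mz Polynomial

local notation "Qbar" => AlgebraicClosure ℚ
local notation "GQ" => (AlgebraicClosure ℚ ≃ₐ[ℚ] AlgebraicClosure ℚ)

variable {A : Type} [CommRing A] [IsLocalRing A] [IsNoetherianRing A]

/-- **[TAME-REL] in matrix form, for EVERY inertia element** (helper5's `s59e_tame_resUnr_comm` read in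
a basis): residually unramified at `q ≠ p` ⇒ `Φ Σ = Σ^q Φ`. -/
theorem s59u_tame_rel_matOf (ρ : GaloisRepAdic A) (bs : Module.Basis (Fin 2) A ρ.V) {p q : ℕ}
    (hp : p.Prime) (hq : q.Prime) (hqp : q ≠ p) (hpA : (p : A) ∈ maximalIdeal A)
    (P : ValuationSubring Qbar) (hP : P.LiesOverPrime q)
    (hres : ∀ τ ∈ P.inertiaSubgroupIn ℚ, ∀ v : ρ.V,
      ρ.ρ τ v - v ∈ maximalIdeal A • (⊤ : Submodule A ρ.V))
    (φ τ : GQ) (hφ : P.IsFrobeniusAt φ q) (hτ : τ ∈ P.inertiaSubgroupIn ℚ) :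
    matOf ρ bs φ * matOf ρ bs τ = matOf ρ bs τ ^ q * matOf ρ bs φ := by
  have h := s59e_tame_resUnr ρ.ρ ρ.isAdicContinuous P hq hp hqp hP hpA hres φ τ hφ hτ
  have h1 : matOf ρ bs (φ * τ * φ⁻¹) = matOf ρ bs τ ^ q := by
    rw [matOf_apply, h, ← map_pow ρ.ρ, ← matOf_apply, map_pow]
  rw [← h1, ← map_mul, ← map_mul]
  congr 1
  group

/-- the entries of `ρ(τ) − 1` lie in `𝔪` when `τ` acts trivially modulo `𝔪`. -/
theorem s59u_matOf_sub_one_mem (ρ : GaloisRepAdic A) (bs : Module.Basis (Fin 2) A ρ.V) (τ : GQ)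
    (h : ∀ v : ρ.V, ρ.ρ τ v - v ∈ maximalIdeal A • (⊤ : Submodule A ρ.V)) (i j : Fin 2) :
    (matOf ρ bs τ - 1) i j ∈ maximalIdeal A := by
  have h2 := repr_mem_of_mem_smul_top bs (h (bs j)) i
  rw [Matrix.sub_apply, matOf_apply, LinearMap.toMatrix_apply, Matrix.one_apply]
  rw [map_sub, Finsupp.sub_apply, Module.Basis.repr_self, Finsupp.single_apply] at h2
  convert h2 using 3
  exact eq_comm

/-- **[E2-UNR], one place, matrix form.** -/
theorem s59u_E2_unr_matOf (ρ : GaloisRepAdic A) (bs : Module.Basis (Fin 2) A ρ.V) {p q : ℕ}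
    (hp : p.Prime) (hq : q.Prime) (hqp : q ≠ p) (hpA : (p : A) ∈ maximalIdeal A)
    (hq1 : IsUnit ((q : A) ^ 2 - 1))
    (P : ValuationSubring Qbar) (hP : P.LiesOverPrime q)
    (hres : ∀ τ ∈ P.inertiaSubgroupIn ℚ, ∀ v : ρ.V,
      ρ.ρ τ v - v ∈ maximalIdeal A • (⊤ : Submodule A ρ.V))
    (φ : GQ) (hφ : P.IsFrobeniusAt φ q)
    (hratio : IsUnit ((1 + (q : A)) ^ 2 * (matOf ρ bs φ).det - (q : A) * (matOf ρ bs φ).trace ^ 2))
    (τ : GQ) (hτ : τ ∈ P.inertiaSubgroupIn ℚ) : matOf ρ bs τ = 1 := by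
  have hΦ : matOf ρ bs φ⁻¹ * matOf ρ bs φ = 1 := by rw [← map_mul, inv_mul_cancel, map_one]
  exact s59i_unr_of_tame_ratio (matOf ρ bs τ) (matOf ρ bs φ) (matOf ρ bs φ⁻¹) hΦ q hq1
    (s59u_tame_rel_matOf ρ bs hp hq hqp hpA P hP hres φ τ hφ hτ)
    (s59u_matOf_sub_one_mem ρ bs τ (hres τ hτ)) hratio

/-- `matOf ρ bs τ = 1 ⇒ ρ(τ) = 1`. -/
theorem s59u_eq_one_of_matOf (ρ : GaloisRepAdic A) (bs : Module.Basis (Fin 2) A ρ.V) (τ : GQ)
    (h : matOf ρ bs τ = 1) : ρ.ρ τ = 1 := by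
  rw [matOf_apply] at h
  have h1 : LinearMap.toMatrix bs bs (ρ.ρ τ) = LinearMap.toMatrix bs bs (1 : Module.End A ρ.V) := by
    rw [h]
    exact (LinearMap.toMatrix_one bs).symm
  exact (LinearMap.toMatrix bs bs).injective h1

/-- **[E2-UNR], one place** (basis-free: `LinearMap.det`, `LinearMap.trace`): the whole inertia group at `P`
acts trivially. -/
theorem s59u_E2_unr_at (ρ : GaloisRepAdic A) {p q : ℕ}
    (hp : p.Prime) (hq : q.Prime) (hqp : q ≠ p) (hpA : (p : A) ∈ maximalIdeal A)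
    (hq1 : IsUnit ((q : A) ^ 2 - 1))
    (P : ValuationSubring Qbar) (hP : P.LiesOverPrime q)
    (hres : ∀ τ ∈ P.inertiaSubgroupIn ℚ, ∀ v : ρ.V,
      ρ.ρ τ v - v ∈ maximalIdeal A • (⊤ : Submodule A ρ.V))
    (φ : GQ) (hφ : P.IsFrobeniusAt φ q)
    (hratio : IsUnit ((1 + (q : A)) ^ 2 * LinearMap.det (ρ.ρ φ) -
      (q : A) * LinearMap.trace A ρ.V (ρ.ρ φ) ^ 2))
    (τ : GQ) (hτ : τ ∈ P.inertiaSubgroupIn ℚ) : ρ.ρ τ = 1 := by
  have bs : Module.Basis (Fin 2) A ρ.V := Module.finBasisOfFinrankEq A ρ.V ρ.finrank_eq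
  refine s59u_eq_one_of_matOf ρ bs τ
    (s59u_E2_unr_matOf ρ bs hp hq hqp hpA hq1 P hP hres φ hφ ?_ τ hτ)
  rw [matOf_apply, LinearMap.det_toMatrix, ← LinearMap.trace_eq_matrix_trace]
  exact hratio

/-- **[E2-UNR]** (helper4 #3436, literally): ONE place `P | q`, ONE Frobenius element `φ` at `P`. -/
theorem s59u_E2_unr (ρ : GaloisRepAdic A) {p q : ℕ}
    (hp : p.Prime) (hq : q.Prime) (hqp : q ≠ p) (hpA : (p : A) ∈ maximalIdeal A)
    (hU : ρ.residual.IsUnramifiedAt q) (hq1 : IsUnit ((q : A) ^ 2 - 1))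
    (P : ValuationSubring Qbar) (hP : P.LiesOverPrime q) (φ : GQ) (hφ : P.IsFrobeniusAt φ q)
    (hratio : IsUnit ((1 + (q : A)) ^ 2 * LinearMap.det (ρ.ρ φ) -
      (q : A) * LinearMap.trace A ρ.V (ρ.ρ φ) ^ 2)) :
    ρ.IsUnramifiedAt q := by
  intro P' hP' τ hτ
  obtain ⟨g, hg⟩ := ptm_inertia_conj hq P P' hP hP'
  have h1 := s59u_E2_unr_at ρ hp hq hqp hpA hq1 P hP ((s59e_residual_unr_iff ρ q).mp hU P hP) φ hφ
    hratio (g * τ * g⁻¹) (hg τ hτ)
  rw [map_mul, map_mul] at h1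
  have h2 : ρ.ρ g⁻¹ * ρ.ρ g = 1 := by rw [← map_mul, inv_mul_cancel, map_one]
  have h3 : ρ.ρ g * ρ.ρ g⁻¹ = 1 := by rw [← map_mul, mul_inv_cancel, map_one]
  calc ρ.ρ τ = ρ.ρ g⁻¹ * (ρ.ρ g * ρ.ρ τ * ρ.ρ g⁻¹) * ρ.ρ g := by
        rw [mul_assoc (ρ.ρ g), ← mul_assoc (ρ.ρ g⁻¹), h2, one_mul, mul_assoc, h2, mul_one]
    _ = 1 := by rw [h1, mul_one, h2]

/-- **[E2-UNR], charpoly-coefficient form**: `charpoly ρ(φ) = X² − t X + d` with
`(1+q)² d − q t² ∈ Aˣ`. -/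
theorem s59u_E2_unr_charpoly (ρ : GaloisRepAdic A) {p q : ℕ}
    (hp : p.Prime) (hq : q.Prime) (hqp : q ≠ p) (hpA : (p : A) ∈ maximalIdeal A)
    (hU : ρ.residual.IsUnramifiedAt q) (hq1 : IsUnit ((q : A) ^ 2 - 1))
    (P : ValuationSubring Qbar) (hP : P.LiesOverPrime q) (φ : GQ) (hφ : P.IsFrobeniusAt φ q)
    (t d : A) (hcp : LinearMap.charpoly (ρ.ρ φ) = X ^ 2 - C t * X + C d)
    (hratio : IsUnit ((1 + (q : A)) ^ 2 * d - (q : A) * t ^ 2)) :
    ρ.IsUnramifiedAt q := by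
  have bs : Module.Basis (Fin 2) A ρ.V := Module.finBasisOfFinrankEq A ρ.V ρ.finrank_eq
  have h1 : LinearMap.charpoly (ρ.ρ φ) = (LinearMap.toMatrix bs bs (ρ.ρ φ)).charpoly :=
    (LinearMap.charpoly_toMatrix (ρ.ρ φ) bs).symm
  rw [h1, Matrix.charpoly_fin_two] at hcp
  have ht : (LinearMap.toMatrix bs bs (ρ.ρ φ)).trace = t := by
    have := congrArg (fun f : A[X] => f.coeff 1) hcp
    simp only [coeff_add, coeff_sub, coeff_X_pow, coeff_C_mul, coeff_X_one, coeff_C] at this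
    simpa using this
  have hd : (LinearMap.toMatrix bs bs (ρ.ρ φ)).det = d := by
    have := congrArg (fun f : A[X] => f.coeff 0) hcp
    simp only [coeff_add, coeff_sub, coeff_X_pow, coeff_C_mul, coeff_X_zero, coeff_C_zero] at this
    simpa using this
  refine s59u_E2_unr ρ hp hq hqp hpA hU hq1 P hP φ hφ ?_
  rw [← LinearMap.det_toMatrix bs, LinearMap.trace_eq_matrix_trace A bs, ht, hd]
  exact hratio

/-- **[E2-UNR], hypothesis over ALL places and Frobenius elements** (the shape in which Frobenius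
charpolys are usually known, e.g. `s59i_TBase.hfrob`). -/
theorem s59u_E2_unr_forall (ρ : GaloisRepAdic A) {p q : ℕ}
    (hp : p.Prime) (hq : q.Prime) (hqp : q ≠ p) (hpA : (p : A) ∈ maximalIdeal A)
    (hU : ρ.residual.IsUnramifiedAt q) (hq1 : IsUnit ((q : A) ^ 2 - 1))
    (t d : A) (hcp : ∀ P : ValuationSubring Qbar, P.LiesOverPrime q → ∀ φ : GQ, P.IsFrobeniusAt φ q →
      LinearMap.charpoly (ρ.ρ φ) = X ^ 2 - C t * X + C d)
    (hratio : IsUnit ((1 + (q : A)) ^ 2 * d - (q : A) * t ^ 2)) :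
    ρ.IsUnramifiedAt q := by
  obtain ⟨P, φ, hP, hφ⟩ := Fermat.Agent.Lib.Frobenius.exists_isFrobeniusAt q hq
  exact s59u_E2_unr_charpoly ρ hp hq hqp hpA hU hq1 P hP φ hφ t d (hcp P hP φ hφ) hratio

/-- the charpoly of `ρ(g)` is `X² − tr·X + det`. -/
theorem s59u_charpoly_eq (ρ : GaloisRepAdic A) (g : GQ) :
    LinearMap.charpoly (ρ.ρ g) =
      X ^ 2 - C (LinearMap.trace A ρ.V (ρ.ρ g)) * X + C (LinearMap.det (ρ.ρ g)) := by
  have bs : Module.Basis (Fin 2) A ρ.V := Module.finBasisOfFinrankEq A ρ.V ρ.finrank_eq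
  rw [← LinearMap.charpoly_toMatrix (ρ.ρ g) bs, Matrix.charpoly_fin_two,
    ← LinearMap.det_toMatrix bs, LinearMap.trace_eq_matrix_trace A bs]

/-- `−(charpoly ρ(g)).coeff 1 = tr ρ(g)` (helper4's `s59i_cpTr`). -/
theorem s59u_neg_coeff_one (ρ : GaloisRepAdic A) (g : GQ) :
    -(LinearMap.charpoly (ρ.ρ g)).coeff 1 = LinearMap.trace A ρ.V (ρ.ρ g) := by
  rw [s59u_charpoly_eq]
  simp [coeff_X_pow]

/-- `(charpoly ρ(g)).coeff 0 = det ρ(g)` (helper4's `s59i_cpDt`). -/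
theorem s59u_coeff_zero (ρ : GaloisRepAdic A) (g : GQ) :
    (LinearMap.charpoly (ρ.ρ g)).coeff 0 = LinearMap.det (ρ.ρ g) := by
  rw [s59u_charpoly_eq]
  simp

/-- **[E2-UNR], charpoly-COEFFICIENT form** (the shape of helper4's `s59i_cpTr` / `s59i_cpDt`,
unfolded). -/
theorem s59u_E2_unr_coeff (ρ : GaloisRepAdic A) {p q : ℕ}
    (hp : p.Prime) (hq : q.Prime) (hqp : q ≠ p) (hpA : (p : A) ∈ maximalIdeal A)
    (hU : ρ.residual.IsUnramifiedAt q) (hq1 : IsUnit ((q : A) ^ 2 - 1))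
    (P : ValuationSubring Qbar) (hP : P.LiesOverPrime q) (φ : GQ) (hφ : P.IsFrobeniusAt φ q)
    (hratio : IsUnit ((1 + (q : A)) ^ 2 * (LinearMap.charpoly (ρ.ρ φ)).coeff 0 -
      (q : A) * (-(LinearMap.charpoly (ρ.ρ φ)).coeff 1) ^ 2)) :
    ρ.IsUnramifiedAt q := by
  rw [s59u_neg_coeff_one, s59u_coeff_zero] at hratio
  exact s59u_E2_unr ρ hp hq hqp hpA hU hq1 P hP φ hφ hratio

end Fermat.Agent.Lib.S59
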