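/-
Programme (R) = S59, node W6 (helper3), file 1: **the cast basis of `H_par(Γ, R)` and the reduction of a
complex eigenvector of integer matrices to an INTEGER vector which is an eigenvector modulo `p`.**

* `s59u_cB b R` : for `Γ` finitely generated, `b` a `ℤ`-basis of the lattice `H_par(Γ, ℤ)` and `R` a domain
  of characteristic zero, the casts `s48h_castB b R i` form an `R`-basis of `H_par(Γ, R)`
  (`s59u_cB_coe`); this discharges the hypothesis `(cB, hcB)` of `s59e_H3`, `WInt`, `EHRel2`;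
* `s59u_exists_int_eigen` : integer matrices `t i` with a common complex eigenvector, eigenvalues
  `a i ∈ ℤ̄`; `𝔪 ∋ p` a maximal ideal of `ℤ̄`; integers `a₀ i` with `a i − a₀ i ∈ 𝔪` for `i ∈ I₀`.  Then there
  is an integer vector `x`, not divisible by `p`, with `(t i − a₀ i) x ∈ p ℤ^n` for every `i ∈ I₀`.
-/
import Mathlib
import Fermat.Agent.Lib.S59.BKEig

set_option autoImplicit false
set_option linter.unusedSectionVars false
set_option linter.style.haveILetI false

noncomputable section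

namespace Fermat.Agent.Lib.S59

open Fermat.Agent.Lib.S29 Fermat.Agent.Lib.S30 Fermat.Agent.Lib.S48 Matrix
open scoped MatrixGroups

local notation "Zbar" => integralClosure ℤ ℂ

/-! ### The cast basis -/

section CB

variable {Γ : Subgroup SL(2, ℤ)} {ι : Type*} [Fintype ι] [DecidableEq ι]
  (b : Module.Basis ι ℤ (s48h_M Γ)) (R : Type*) [CommRing R] [IsDomain R] [CharZero R]

/-- the cast family in `H_par(Γ, R)`. -/
def s59u_cBfam (i : ι) : s48h_Hpar R Γ R :=
  ⟨s48h_castB b R i, s48h_cast_mem_Hpar R R (b i).2⟩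

/-- **the `R`-basis of `H_par(Γ, R)`** given by the casts of a `ℤ`-basis of the lattice. -/
def s59u_cB [Group.FG Γ] : Module.Basis ι R (s48h_Hpar R Γ R) :=
  Module.Basis.mk (v := s59u_cBfam b R)
    (LinearIndependent.of_comp (s48h_Hpar R Γ R).subtype (s59b_castB_linearIndependent b R))
    (by
      rintro x -
      obtain ⟨c, hc⟩ := s59b_exists_coeffs b R (x : Additive Γ →+ R) x.2
      have hx : x = ∑ i, c i • s59u_cBfam b R i := by
        apply Subtype.ext
        rw [hc, Submodule.coe_sum]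
        refine Finset.sum_congr rfl fun i _ => ?_
        rw [Submodule.coe_smul]
        rfl
      rw [hx]
      exact Submodule.sum_mem _ fun i _ =>
        Submodule.smul_mem _ _ (Submodule.subset_span ⟨i, rfl⟩))

theorem s59u_cB_coe [Group.FG Γ] (i : ι) :
    ((s59u_cB b R i : s48h_Hpar R Γ R) : Additive Γ →+ R) = s48h_castB b R i := by
  rw [s59u_cB, Module.Basis.mk_apply]
  rfl

/-- **[CB]** -/
theorem s59u_exists_cB [Group.FG Γ] :
    ∃ cB : Module.Basis ι R (s48h_Hpar R Γ R),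
      ∀ i, ((cB i : s48h_Hpar R Γ R) : Additive Γ →+ R) = s48h_castB b R i :=
  ⟨s59u_cB b R, s59u_cB_coe b R⟩

end CB

/-! ### From a complex eigenvector to an integer vector, eigen modulo `p` -/

section IntEigen

variable {n I : Type*} [Fintype n] [DecidableEq n]

/-- descent of the coefficients of an eigenvector of matrices over a subfield. -/
theorem s59u_descend_vec {F k : Type*} [Field F] [Field k] [Algebra F k] (A : I → Matrix n n F)
    (c : I → F) (w : n → k) (hw0 : w ≠ 0)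
    (hw : ∀ i, (A i).map (algebraMap F k) *ᵥ w = algebraMap F k (c i) • w) :
    ∃ x : n → F, x ≠ 0 ∧ ∀ i, A i *ᵥ x = c i • x := by
  obtain ⟨j₀, hj₀⟩ : ∃ j, w j ≠ 0 := by
    by_contra hcon
    push Not at hcon
    exact hw0 (funext hcon)
  obtain ⟨lam, hlam⟩ : ∃ lam : Module.Dual F k, lam (w j₀) ≠ 0 := by
    by_contra hcon
    push Not at hcon
    exact hj₀ ((Module.forall_dual_apply_eq_zero_iff F (w j₀)).mp hcon)
  refine ⟨fun j => lam (w j), fun h0 => hlam (congrFun h0 j₀), fun i => ?_⟩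
  funext j
  have h1 := congrFun (hw i) j
  simp only [Matrix.mulVec, dotProduct, Matrix.map_apply, Pi.smul_apply, smul_eq_mul] at h1 ⊢
  have h2 := congrArg lam h1
  rw [map_sum] at h2
  have h3 : ∀ l, lam (algebraMap F k (A i j l) * w l) = A i j l * lam (w l) := by
    intro l
    rw [← Algebra.smul_def, map_smul, smul_eq_mul]
  simp_rw [h3] at h2
  rw [h2, ← Algebra.smul_def, map_smul, smul_eq_mul]

/-- characteristic `p` of the residue field `ℤ̄ ⧸ 𝔪` when `p ∈ 𝔪`. -/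
theorem s59u_charP_quot (𝔪 : Ideal Zbar) (hmax : 𝔪.IsMaximal) (p : ℕ)
    (hp : p.Prime) (hpm : (p : Zbar) ∈ 𝔪) : CharP (Zbar ⧸ 𝔪) p := by
  have : Nontrivial (Zbar ⧸ 𝔪) := Ideal.Quotient.nontrivial_iff.mpr hmax.ne_top
  obtain ⟨c, hc⟩ := CharP.exists (Zbar ⧸ 𝔪)
  have h0 : ((p : ℕ) : Zbar ⧸ 𝔪) = 0 := by
    have : ((p : ℕ) : Zbar ⧸ 𝔪) = Ideal.Quotient.mk 𝔪 ((p : ℕ) : Zbar) := by simp
    rw [this]
    exact Ideal.Quotient.eq_zero_iff_mem.mpr hpm
  have hdvd : c ∣ p := (CharP.cast_eq_zero_iff (Zbar ⧸ 𝔪) c p).mp h0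
  rcases (Nat.dvd_prime hp).mp hdvd with h1 | h1
  · exfalso
    subst h1
    exact CharP.char_ne_one (Zbar ⧸ 𝔪) 1 rfl
  · exact h1 ▸ hc

/-- **integer matrices with a complex eigenvector: an integer vector, eigen modulo `p`.** -/
theorem s59u_exists_int_eigen (p : ℕ) [Fact p.Prime] (𝔪 : Ideal Zbar) (hmax : 𝔪.IsMaximal)
    (hpm : (p : Zbar) ∈ 𝔪) (t : I → Matrix n n ℤ) (a : I → Zbar) (c : n → ℂ) (hc0 : c ≠ 0)
    (hc : ∀ i, (t i).map (Int.cast : ℤ → ℂ) *ᵥ c = ((a i : Zbar) : ℂ) • c)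
    (I₀ : Set I) (a₀ : I → ℤ) (ha₀ : ∀ i ∈ I₀, a i - ((a₀ i : ℤ) : Zbar) ∈ 𝔪) :
    ∃ x : n → ℤ, (∃ j, ¬ (p : ℤ) ∣ x j) ∧
      ∀ i ∈ I₀, ∀ j, (p : ℤ) ∣ ((t i) *ᵥ x) j - a₀ i * x j := by
  classical
  have hp : p.Prime := Fact.out
  let k : Type := Zbar ⧸ 𝔪
  letI : Field k := Ideal.Quotient.field 𝔪
  haveI hchar : CharP k p := s59u_charP_quot 𝔪 hmax p hp hpm
  letI : Algebra (ZMod p) k := ZMod.algebra k p
  let φ : Zbar →+* k := Ideal.Quotient.mk 𝔪
  obtain ⟨w, hw0, hw⟩ := s29s_exists_eigenvector p φ t a c hc0 hc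
  -- restrict to `I₀` and descend to `ZMod p`
  have hφa : ∀ i ∈ I₀, φ (a i) = algebraMap (ZMod p) k ((a₀ i : ℤ) : ZMod p) := by
    intro i hi
    have h3 : φ (a i - ((a₀ i : ℤ) : Zbar)) = 0 := Ideal.Quotient.eq_zero_iff_mem.mpr (ha₀ i hi)
    rw [map_sub, sub_eq_zero, map_intCast] at h3
    rw [h3, map_intCast]
  obtain ⟨xb, hxb0, hxb⟩ := s59u_descend_vec (F := ZMod p) (k := k) (I := I₀)
    (fun i => (t i.1).map (Int.cast : ℤ → ZMod p)) (fun i => ((a₀ i.1 : ℤ) : ZMod p)) w hw0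
    (fun i => by
      have hmat : ((t i.1).map (Int.cast : ℤ → ZMod p)).map (algebraMap (ZMod p) k)
          = (t i.1).map (Int.cast : ℤ → k) := by
        ext j l
        simp
      rw [hmat, hw i.1, hφa i.1 i.2])
  -- lift to `ℤ`
  have hlift : ∀ j, ∃ z : ℤ, (z : ZMod p) = xb j := fun j => ZMod.intCast_surjective (xb j)
  choose x hx using hlift
  refine ⟨x, ?_, fun i hi j => ?_⟩
  · obtain ⟨j, hj⟩ : ∃ j, xb j ≠ 0 := by
      by_contra hcon
      push Not at hcon
      exact hxb0 (funext hcon)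
    refine ⟨j, fun hdvd => hj ?_⟩
    rw [← hx j]
    exact (ZMod.intCast_zmod_eq_zero_iff_dvd _ _).mpr hdvd
  · rw [← ZMod.intCast_zmod_eq_zero_iff_dvd]
    have h1 := congrFun (hxb ⟨i, hi⟩) j
    simp only [Matrix.mulVec, dotProduct, Matrix.map_apply, Pi.smul_apply, smul_eq_mul] at h1
    simp only [Matrix.mulVec, dotProduct]
    push_cast
    simp_rw [hx]
    rw [h1, sub_self]

end IntEigen

end Fermat.Agent.Lib.S59
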