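/-
PROGRAMME (R), `T`-side package (helper6, prefix `s59q_`): **(B2) — the call of helper5's `s59e_H3'` at a level
`(Lv, H)` for the data `Rd : s59i_RData`**, in the binder shapes of helper5's `s59e_TLevel_abs`.

* `s59q_restr_hloc`  : the restriction `aM` of `a : 𝕋 → End_𝒪 Y` to the range of an idempotent `ε` consists of locally
                       scalar endomorphisms (the part of `s59e_H3_abs` which is not exported by `s59e_H3Concl`);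
* `s59q_tT`          : the Frobenius traces `tT' ℓ := aM (T_ℓ) ∈ T' = 𝒪[aM(𝕋)]` (`0` at the bad `ℓ`);
* `s59q_H3_RData`    : `s59e_H3'` with `h𝒟` discharged by `s59q_hD_flat_RData`, the hypotheses on `ε` in the form delivered
                       by helper8's level package (`hnil` on `s59t_goodB`, constants `s59t_cB`), and the conclusion
                       `(a, aM, ha1, ha2, haM, hlocA, tT' ℓ ≡ a_ℓ, θ, hθ, hfrobT)`;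
* `s59q_TB2`         : the same at the Taylor–Wiles level `Lv = N ∏ qv`, `Q = Bd ∪ image qv`, `S = B ∪ image qv`,
                       `M' = N ∏ qB ∏ qv²`, for ANY `H'` containing `ker((ℤ/Lv)ˣ → (ℤ/∏qB∏qv)ˣ)` with `u^(p^e) ∈ H'`.
-/
import Mathlib
import Fermat.Agent.Lib.S59.EHTop2
import Fermat.Agent.Lib.S59.ETWRes
import Fermat.Agent.Lib.S59.QFreyRE
import Fermat.Agent.Lib.S59.KLvlFin
import Fermat.Agent.Lib.S59.TIndH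
import Fermat.Agent.Lib.S59.UW6Lat

set_option autoImplicit false
set_option linter.unusedSectionVars false
set_option linter.unusedVariables false
set_option linter.style.haveILetI false
set_option synthInstance.maxHeartbeats 400000
set_option maxHeartbeats 1600000

noncomputable section

namespace Fermat.Agent.Lib.S59

open Matrix.SpecialLinearGroup CongruenceSubgroup ModularCurve.Period Polynomial CuspForm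
open Fermat.Agent.Lib.S48 Fermat.Agent.Lib.ES IsLocalRing
open scoped MatrixGroups

local notation "Qbar" => AlgebraicClosure ℚ
local notation "GQ" => (AlgebraicClosure ℚ ≃ₐ[ℚ] AlgebraicClosure ℚ)

/-! ### Local scalarity of the restricted Hecke ring -/

section Hloc

variable (M' : ℕ) [NeZero M'] (S : Finset ℕ)
  {𝒪 : Type} [CommRing 𝒪] [IsDomain 𝒪] [IsDiscreteValuationRing 𝒪]
  {Y : Type} [AddCommGroup Y] [Module 𝒪 Y] [Module.Free 𝒪 Y] [Module.Finite 𝒪 Y]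

/-- **local scalarity of `T' = 𝒪[aM(𝕋)]`**: `a : 𝕋(Γ₀(M'))^S → End_𝒪 Y`, `ε` an idempotent commuting with a commuting
family `g_j`, each congruent to a constant `c_j` modulo topological nilpotents on `ε Y`, every `a(T_ℓ)` a product
`g_{j₁} g_{j₂}`; `aM` the restriction of `a` to `ε Y`.  Then every element of `𝒪[aM(𝕋)]` is locally scalar, and
`aM(T_ℓ)` is locally the scalar `cT ℓ = c_{j₁} c_{j₂}`. -/
theorem s59q_restr_hloc (hS : ∀ q : ℕ, q.Prime → q ∣ M' → q ∈ S)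
    (a : heckeAlgebra M' 2 (↑S : Set ℕ) →+* Module.End 𝒪 Y)
    (ε : Module.End 𝒪 Y) (hε : ε * ε = ε)
    {J : Type*} (g : J → Module.End 𝒪 Y) (hgg : ∀ i j, g i * g j = g j * g i)
    (hεg : ∀ j, ε * g j = g j * ε) (c : J → 𝒪)
    (hnil : ∀ j, ∃ k : ℕ, ∀ z, ((g j - c j • 1) ^ k) (ε z) ∈
      maximalIdeal 𝒪 • (⊤ : Submodule 𝒪 Y))
    (cT : ℕ → 𝒪)
    (ha : ∀ (ℓ : ℕ) (hℓ : ℓ.Prime) (hℓN : ¬ ℓ ∣ M') (hℓS : ℓ ∉ (↑S : Set ℕ)),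
      ∃ j₁ j₂ : J, a (heckeAlgebra.T hℓ hℓN hℓS) = g j₁ * g j₂ ∧ cT ℓ = c j₁ * c j₂)
    (aM : heckeAlgebra M' 2 (↑S : Set ℕ) →+* Module.End 𝒪 (LinearMap.range ε))
    (haM : ∀ t (z : LinearMap.range ε), ((aM t z : LinearMap.range ε) : Y) = a t (z : Y)) :
    (∀ x ∈ s59e_adj 𝒪 aM, ∃ d : 𝒪, s59e_IsLocScalar x d) ∧
      ∀ (ℓ : ℕ) (hℓ : ℓ.Prime) (hℓN : ¬ ℓ ∣ M') (hℓS : ℓ ∉ (↑S : Set ℕ)),
        s59e_IsLocScalar (aM (heckeAlgebra.T hℓ hℓN hℓS)) (cT ℓ) := by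
  classical
  have hgen := s59e_hecke_closure M' (↑S : Set ℕ) hS
  have hcent : ∀ x : Module.End 𝒪 Y, ε * x = x * ε →
      x ∈ Subalgebra.centralizer 𝒪 ({ε} : Set (Module.End 𝒪 Y)) := by
    intro x hx
    rw [Subalgebra.mem_centralizer_iff]
    rintro _ rfl
    exact hx
  -- the restricted generators
  obtain ⟨G, hG⟩ : ∃ G : J → Module.End 𝒪 (LinearMap.range ε),
      ∀ j, G j = s59e_restr ε ⟨g j, hcent _ (hεg j)⟩ := ⟨_, fun _ => rfl⟩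
  have hgloc : ∀ j, s59e_IsLocScalar (G j) (c j) := by
    intro j
    obtain ⟨k, hk⟩ := hnil j
    rw [hG]
    exact s59e_restr_locScalar hε _ (c j) hk
  have hGG : ∀ i j, Commute (G i) (G j) := fun i j => by
    show G i * G j = G j * G i
    rw [hG, hG, ← map_mul, ← map_mul]
    congr 1
    exact Subtype.ext (hgg i j)
  have hTG : ∀ (ℓ : ℕ) (hℓ : ℓ.Prime) (hℓN : ¬ ℓ ∣ M') (hℓS : ℓ ∉ (↑S : Set ℕ)),
      ∃ j₁ j₂ : J, aM (heckeAlgebra.T hℓ hℓN hℓS) = G j₁ * G j₂ ∧ cT ℓ = c j₁ * c j₂ := by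
    intro ℓ hℓ hℓN hℓS
    obtain ⟨j₁, j₂, h12, hc12⟩ := ha ℓ hℓ hℓN hℓS
    refine ⟨j₁, j₂, ?_, hc12⟩
    refine LinearMap.ext fun z => Subtype.ext ?_
    rw [haM, h12, hG, hG]
    rfl
  haveI : Module.Finite 𝒪 (LinearMap.range ε) := Module.Finite.range ε
  haveI : Module.Free 𝒪 (LinearMap.range ε) := by
    haveI : Module.Projective 𝒪 (LinearMap.range ε) :=
      Module.Projective.of_split (LinearMap.range ε).subtype ε.rangeRestrict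
        (LinearMap.ext fun x => by
          obtain ⟨z, hz⟩ := x.2
          refine Subtype.ext ?_
          show ε (x : Y) = x
          rw [← hz, ← Module.End.mul_apply, hε])
    exact Module.free_of_flat_of_isLocalRing
  have hle : s59e_adj 𝒪 aM ≤ Algebra.adjoin 𝒪 (Set.range G) := by
    refine Algebra.adjoin_le ?_
    rintro _ ⟨t, rfl⟩
    have ht : t ∈ Subring.closure {t : heckeAlgebra M' 2 (↑S : Set ℕ) | ∃ (ℓ : ℕ) (hℓ : ℓ.Prime)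
        (hℓN : ¬ ℓ ∣ M') (hℓS : ℓ ∉ (↑S : Set ℕ)), t = heckeAlgebra.T hℓ hℓN hℓS} := by
      rw [hgen]; exact Subring.mem_top t
    induction ht using Subring.closure_induction with
    | mem t ht =>
      obtain ⟨ℓ, hℓ, hℓN, hℓS, rfl⟩ := ht
      obtain ⟨j₁, j₂, h12, -⟩ := hTG ℓ hℓ hℓN hℓS
      rw [h12]
      exact Subalgebra.mul_mem _ (Algebra.subset_adjoin ⟨j₁, rfl⟩)
        (Algebra.subset_adjoin ⟨j₂, rfl⟩)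
    | zero => rw [map_zero]; exact Subalgebra.zero_mem _
    | one => rw [map_one]; exact Subalgebra.one_mem _
    | add x y _ _ hx hy => rw [map_add]; exact Subalgebra.add_mem _ hx hy
    | neg x _ hx => rw [map_neg]; exact Subalgebra.neg_mem _ hx
    | mul x y _ _ hx hy => rw [map_mul]; exact Subalgebra.mul_mem _ hx hy
  refine ⟨fun x hx => s59e_locScalar_adjoin G hGG c hgloc (hle hx), ?_⟩
  intro ℓ hℓ hℓN hℓS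
  obtain ⟨j₁, j₂, h12, hc12⟩ := hTG ℓ hℓ hℓN hℓS
  rw [h12, hc12]
  exact (hgloc j₁).mul (hgloc j₂) (hGG j₁ j₂)

end Hloc

/-! ### The Frobenius traces in `T'` -/

section TT

variable (M' : ℕ) [NeZero M'] (S : Finset ℕ) {𝒪 : Type*} [CommRing 𝒪]
  {E : Type*} [Ring E] [Algebra 𝒪 E] (aM : heckeAlgebra M' 2 (↑S : Set ℕ) →+* E)

open Classical in
/-- **the Frobenius traces** `tT' ℓ := aM (T_ℓ) ∈ T' = 𝒪[aM(𝕋)]` (`0` when `ℓ` is not a prime outside `S` and the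
level). -/
def s59q_tT (ℓ : ℕ) : s59e_adj 𝒪 aM :=
  if h : ℓ.Prime ∧ ¬ ℓ ∣ M' ∧ ℓ ∉ (↑S : Set ℕ) then
    s59e_adjHom 𝒪 aM (heckeAlgebra.T h.1 h.2.1 h.2.2) else 0

theorem s59q_tT_eq {ℓ : ℕ} (hℓ : ℓ.Prime) (hℓN : ¬ ℓ ∣ M') (hℓS : ℓ ∉ (↑S : Set ℕ)) :
    s59q_tT M' S aM ℓ = s59e_adjHom 𝒪 aM (heckeAlgebra.T hℓ hℓN hℓS) := by
  unfold s59q_tT
  rw [dif_pos ⟨hℓ, hℓN, hℓS⟩]

theorem s59q_tT_coe {ℓ : ℕ} (hℓ : ℓ.Prime) (hℓN : ¬ ℓ ∣ M') (hℓS : ℓ ∉ (↑S : Set ℕ)) :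
    ((s59q_tT M' S aM ℓ : s59e_adj 𝒪 aM) : E) = aM (heckeAlgebra.T hℓ hℓN hℓS) := by
  rw [s59q_tT_eq M' S aM hℓ hℓN hℓS]
  rfl

end TT

/-! ### The output of (H3) in the binder shapes of `s59e_TLevel_abs` -/

section Out

variable {p : ℕ} [Fact p.Prime] (M' : ℕ) [NeZero M'] [Fact (HasIntegralStructure M' 2)]
  (S : Finset ℕ)
  {𝒪 : Type} [CommRing 𝒪] [IsDomain 𝒪] [IsDiscreteValuationRing 𝒪]
  [IsAdicComplete (maximalIdeal 𝒪) 𝒪] [Finite (ResidueField 𝒪)] [CharZero 𝒪]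
  {Y : Type} [AddCommGroup Y] [Module 𝒪 Y] [Module.Free 𝒪 Y] [Module.Finite 𝒪 Y]

/-- **the output of (H3)** in the binder shapes of `s59e_TLevel_abs` (`Sn := S`, `T' := s59e_adj 𝒪 aM`,
`tT' := s59q_tT M' S aM`): the restriction `aM` of `a` to `ε Y`, local scalarity of `T' = 𝒪[aM(𝕋)]` (`hlocA`),
`aM(T_ℓ) ≡ cT ℓ`, `θ : D.R ↠ T'` (`θ`, `hθ`) and the Frobenius characteristic polynomials (`hfrobT`). -/
def s59q_H3Out (a : heckeAlgebra M' 2 (↑S : Set ℕ) →+* Module.End 𝒪 Y) (ε : Module.End 𝒪 Y)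
    (cT : ℕ → 𝒪) {ρbar : ResidualGaloisRep (ResidueField 𝒪)}
    {𝒟 : ∀ ⦃A : Type⦄ [CommRing A] [IsLocalRing A] [Algebra 𝒪 A], GaloisRepAdic A → Prop}
    (D : GaloisRep.DeformationRingData 𝒪 ρbar 𝒟) : Prop :=
  ∃ aM : heckeAlgebra M' 2 (↑S : Set ℕ) →+* Module.End 𝒪 (LinearMap.range ε),
    (∀ t (z : LinearMap.range ε), ((aM t z : LinearMap.range ε) : Y) = a t (z : Y)) ∧
    (∀ x ∈ s59e_adj 𝒪 aM, ∃ d : 𝒪, s59e_IsLocScalar x d) ∧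
    (∀ (ℓ : ℕ) (hℓ : ℓ.Prime) (hℓN : ¬ ℓ ∣ M') (hℓS : ℓ ∉ (↑S : Set ℕ)),
      s59e_IsLocScalar (aM (heckeAlgebra.T hℓ hℓN hℓS)) (cT ℓ)) ∧
    ∃ θ : D.R →ₐ[𝒪] s59e_adj 𝒪 aM, Function.Surjective θ ∧
      ∀ ℓ : ℕ, ℓ.Prime → ℓ ∉ S →
        ∀ A : ValuationSubring Qbar, A.LiesOverPrime ℓ →
        ∀ τ : GQ, A.IsFrobeniusAt τ ℓ →
          (LinearMap.charpoly (D.ρ.ρ τ)).map (θ : D.R →+* s59e_adj 𝒪 aM) =
            X ^ 2 - C (s59q_tT M' S aM ℓ) * X + C ((ℓ : s59e_adj 𝒪 aM))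

variable {M' S}

/-- only the values of `cT` at the primes outside `S` and the level matter. -/
theorem s59q_H3Out.congr {a : heckeAlgebra M' 2 (↑S : Set ℕ) →+* Module.End 𝒪 Y}
    {ε : Module.End 𝒪 Y} {cT cT' : ℕ → 𝒪} {ρbar : ResidualGaloisRep (ResidueField 𝒪)}
    {𝒟 : ∀ ⦃A : Type⦄ [CommRing A] [IsLocalRing A] [Algebra 𝒪 A], GaloisRepAdic A → Prop}
    {D : GaloisRep.DeformationRingData 𝒪 ρbar 𝒟}
    (h : s59q_H3Out M' S a ε cT D)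
    (hc : ∀ ℓ : ℕ, ℓ.Prime → ¬ ℓ ∣ M' → ℓ ∉ S → cT ℓ = cT' ℓ) :
    s59q_H3Out M' S a ε cT' D := by
  obtain ⟨aM, haM, hloc, hTloc, θ, hθ, hfrob⟩ := h
  refine ⟨aM, haM, hloc, fun ℓ hℓ hℓN hℓS => ?_, θ, hθ, hfrob⟩
  rw [← hc ℓ hℓ hℓN hℓS]
  exact hTloc ℓ hℓ hℓN hℓS

/-- **from the conclusion of (H3) to its output.** -/
theorem s59q_H3Out_of_concl (hS : ∀ q : ℕ, q.Prime → q ∣ M' → q ∈ S)
    (a : heckeAlgebra M' 2 (↑S : Set ℕ) →+* Module.End 𝒪 Y)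
    (ε : Module.End 𝒪 Y) (hε : ε * ε = ε)
    {J : Type*} (g : J → Module.End 𝒪 Y) (hgg : ∀ i j, g i * g j = g j * g i)
    (hεg : ∀ j, ε * g j = g j * ε) (c : J → 𝒪)
    (hnil : ∀ j, ∃ k : ℕ, ∀ z, ((g j - c j • 1) ^ k) (ε z) ∈
      maximalIdeal 𝒪 • (⊤ : Submodule 𝒪 Y))
    (cT : ℕ → 𝒪)
    (ha : ∀ (ℓ : ℕ) (hℓ : ℓ.Prime) (hℓN : ¬ ℓ ∣ M') (hℓS : ℓ ∉ (↑S : Set ℕ)),
      ∃ j₁ j₂ : J, a (heckeAlgebra.T hℓ hℓN hℓS) = g j₁ * g j₂ ∧ cT ℓ = c j₁ * c j₂)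
    {ρbar : ResidualGaloisRep (ResidueField 𝒪)}
    {𝒟 : ∀ ⦃A : Type⦄ [CommRing A] [IsLocalRing A] [Algebra 𝒪 A], GaloisRepAdic A → Prop}
    (D : GaloisRep.DeformationRingData 𝒪 ρbar 𝒟)
    (hconcl : s59e_H3Concl M' S a ε cT ρbar D) : s59q_H3Out M' S a ε cT D := by
  obtain ⟨aM, haM, hlr, hlh, θ₀, Hd, Ψ, hΨ, φ, hφ, hπ, hθres, hθT, hΨs, hΨa, hφs, hequiv, hcp⟩ :=
    hconcl
  obtain ⟨hloc, hTloc⟩ := s59q_restr_hloc M' S hS a ε hε g hgg hεg c hnil cT ha aM haM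
  refine ⟨aM, haM, hloc, hTloc, φ, hφs, ?_⟩
  intro ℓ hℓ hℓS A hA τ hτ
  have hℓS' : ℓ ∉ (↑S : Set ℕ) := hℓS
  have hℓN : ¬ ℓ ∣ M' := fun h => hℓS (hS ℓ hℓ h)
  rw [s59q_tT_eq M' S aM hℓ hℓN hℓS', ← s59e_bc_charpoly (hφ := hφ)]
  exact hcp ℓ hℓ hℓN hℓS' A hA τ hτ

end Out

/-! ### (H3) for the data `Rd` -/

section H3R

variable {p : ℕ} [hp : Fact p.Prime]
  {𝒪 : Type} [CommRing 𝒪] [IsDomain 𝒪] [IsDiscreteValuationRing 𝒪]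
  [IsAdicComplete (maximalIdeal 𝒪) 𝒪] [Finite (ResidueField 𝒪)] [CharZero 𝒪] [Algebra ℤ_[p] 𝒪]
  {N : ℕ} {B Bd : Finset ℕ} {ρbar : ResidualGaloisRep (ResidueField 𝒪)}
  (Rd : s59i_RData p N ρbar B Bd) (a : ℕ → ℤ)

/-- **(H3) for the data `Rd`** at a level `(Lv, H)`, `Lv = N₀ ∏_{q ∈ Q} q`, `N₀ ∣ N` squarefree, `Q ⊆ Bd ∪ Xs`, `Xs` a set
of primes outside `B`, `H ⊇ ker((ℤ/Lv)ˣ → (ℤ/∏Q)ˣ)` with `u^(p^e) ∈ H`; `ε` an idempotent `≠ 0` of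
`H_par(Γ_H(Lv), 𝒪)` commuting with the anemic generators, on whose part every `T_ℓ` (`ℓ ∤ Lv`, `ℓ ∉ B`) is topologically
`a_ℓ` (the form delivered by helper8's packages); `ρbar` with Frobenius characteristic polynomials
`X² − a_ℓ X + ℓ` outside `S`; `DQ` a deformation ring of the flat type `Rd.Smin ∪ (Bd ∪ Rd.Ed) ∪ Xs`.
Output: helper5's `a₀` (`s59e_H3'`: `T_ℓ ↦ ⟨ℓ⟩^{-1/2} T_ℓ`) and `s59q_H3Out` for it: `aM`, local scalarity of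
`T' = 𝒪[aM(𝕋)]`, `aM(T_ℓ) ≡ a_ℓ`, `θ : DQ.R ↠ T'` and the Frobenius characteristic polynomials of `DQ.ρ ⊗_θ T'`. -/
theorem s59q_H3_RData (hp2 : p ≠ 2) (hp𝒪 : (p : 𝒪) ∈ maximalIdeal 𝒪)
    (N₀ : ℕ) [NeZero N₀] (Q : Finset ℕ) {Lv : ℕ} [NeZero Lv] (H : Subgroup (ZMod Lv)ˣ)
    (M' : ℕ) [NeZero M'] [Fact (HasIntegralStructure M' 2)] (S : Finset ℕ)
    (hpS : p ∈ S) (hBS : B ⊆ S) (hpM' : ¬ p ∣ M')
    (hQ : ∀ q ∈ Q, q.Prime ∧ ¬ q ∣ N₀)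
    (hM : Lv = N₀ * ∏ q ∈ Q, q) {D : ℕ} (hDQ : D = ∏ q ∈ Q, q) (hD : D ∣ Lv)
    (hH : s59u_ker Lv D hD ≤ H) (e : ℕ) (hn : ∀ u : (ZMod Lv)ˣ, u ^ (p ^ e) ∈ H)
    (hM' : M' = N₀ * ∏ q ∈ Q, q ^ 2) (hS : ∀ q : ℕ, q.Prime → q ∣ M' → q ∈ S)
    (hN₀ : Squarefree N₀) (hN₀N : N₀ ∣ N)
    (Xs : Finset ℕ) (hX : ∀ q ∈ Xs, q.Prime ∧ q ∉ B) (hQX : ∀ q ∈ Q, q ∈ Bd ∨ q ∈ Xs)
    (ε : Module.End 𝒪 (s48h_Hpar 𝒪 (s48h_GammaH Lv H) 𝒪)) (hε : ε * ε = ε) (hε0 : ε ≠ 0)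
    (hεc : ∀ x, ε * s59w_op H 𝒪 x = s59w_op H 𝒪 x * ε)
    (hnil : ∀ x ∈ s59t_goodB Lv B, ∃ k : ℕ, ∀ y : s48h_Hpar 𝒪 (s48h_GammaH Lv H) 𝒪,
      ((s59w_op H 𝒪 x - s59t_cB (𝒪 := 𝒪) Lv a x •
        (1 : Module.End 𝒪 (s48h_Hpar 𝒪 (s48h_GammaH Lv H) 𝒪))) ^ k) (ε y) ∈
        (maximalIdeal 𝒪 • ⊤ : Submodule 𝒪 (s48h_Hpar 𝒪 (s48h_GammaH Lv H) 𝒪)))
    (hEig : ∀ ℓ : ℕ, ℓ.Prime → ℓ ∉ S → ∀ A : ValuationSubring Qbar, A.LiesOverPrime ℓ →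
      ∀ σ : GQ, A.IsFrobeniusAt σ ℓ →
        LinearMap.charpoly (ρbar.ρ σ) = X ^ 2 - C (residue 𝒪 ((a ℓ : ℤ) : 𝒪)) * X +
          C ((ℓ : ResidueField 𝒪)))
    (DQ : GaloisRep.DeformationRingData 𝒪 ρbar (fun _A _ _ _ ρ =>
      GaloisRep.flatCondition 𝒪 p (Rd.Smin ∪ (Bd ∪ Rd.Ed) ∪ Xs) ρ ∧
        ∀ q ∈ Rd.Smin, q.Prime → q ≠ p → ρ.IsUnipotentOnInertiaAt q)) :
    ∃ a₀ : heckeAlgebra M' 2 (↑S : Set ℕ) →+*
        Module.End 𝒪 (s48h_Hpar 𝒪 (s48h_GammaH Lv H) 𝒪),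
      (∀ (ℓ : ℕ) (hℓ : ℓ.Prime) (hℓN : ¬ ℓ ∣ M') (hℓS : ℓ ∉ (↑S : Set ℕ)) (i : s59w_TIdx Lv),
        i.ell = ℓ → a₀ (heckeAlgebra.T hℓ hℓN hℓS) =
          s59e_Tp' H 𝒪 ((p ^ e - 1) * ((p ^ e + 1) / 2)) i) ∧
      (∀ t, a₀ t ∈ Subring.closure (Set.range (s59e_Tp' H 𝒪 ((p ^ e - 1) * ((p ^ e + 1) / 2))))) ∧
      s59q_H3Out M' S a₀ ε (fun ℓ => ((a ℓ : ℤ) : 𝒪)) DQ := by
  classical
  have hpodd : Odd (p ^ e) := (hp.out.odd_of_ne_two hp2).pow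
  have hnm : 2 * ((p ^ e + 1) / 2) = p ^ e + 1 := by
    obtain ⟨k, hk⟩ := hpodd
    omega
  have hHp : ∀ u : (ZMod Lv)ˣ, ∃ k : ℕ, u ^ (p ^ k) ∈ H := fun u => ⟨e, hn u⟩
  -- the hypotheses of `s59e_H3'` on `ε`
  have hεc' : ∀ j, s59e_Anemic S j → ε * s59w_op H 𝒪 j = s59w_op H 𝒪 j * ε := fun j _ => hεc j
  have hnil' : ∀ j, s59e_Anemic S j → ∃ k : ℕ, ∀ z,
      ((s59w_op H 𝒪 j - s59t_cB (𝒪 := 𝒪) Lv a j • 1) ^ k) (ε z) ∈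
        maximalIdeal 𝒪 • (⊤ : Submodule 𝒪 (s48h_Hpar 𝒪 (s48h_GammaH Lv H) 𝒪)) := by
    intro j hj
    rcases j with i | τ
    · have hiS : i.ell ∉ S := (s59e_anemic_inl_iff S i).mp hj
      exact hnil _ (s59t_inl_mem_goodB B i (fun h => hiS (hBS h)))
    · exact s59t_topNil_dia p H hp𝒪 hHp ε τ
  have hEig' : ∀ (ℓ : ℕ) (_ : ℓ.Prime) (_ : ¬ ℓ ∣ M') (_ : ℓ ∉ S) (i : s59w_TIdx Lv), i.ell = ℓ →
      ∀ A : ValuationSubring Qbar, A.LiesOverPrime ℓ → ∀ σ : GQ, A.IsFrobeniusAt σ ℓ →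
        LinearMap.charpoly (ρbar.ρ σ) = X ^ 2 - C (residue 𝒪
          (s59t_cB (𝒪 := 𝒪) Lv a (Sum.inr (s59e_tau i ((p ^ e - 1) * ((p ^ e + 1) / 2)))) *
            s59t_cB (𝒪 := 𝒪) Lv a (Sum.inl i))) * X +
          C ((ℓ : ResidueField 𝒪)) := by
    intro ℓ hℓ hℓN hℓS i hi A hA σ hσ
    show LinearMap.charpoly (ρbar.ρ σ) = X ^ 2 - C (residue 𝒪
      ((1 : 𝒪) * ((a i.ell : ℤ) : 𝒪))) * X + C ((ℓ : ResidueField 𝒪))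
    rw [one_mul, hi]
    exact hEig ℓ hℓ hℓS A hA σ hσ
  -- (H3), with `h𝒟` from `s59q_hD_flat_RData`
  let b := Module.Free.chooseBasis ℤ (s48h_M (s48h_GammaH Lv H))
  have hH3 := s59e_H3' (p := p) N₀ Q (M := Lv) H b M' S hp2 hp𝒪 hpS hQ hM hDQ hD hH
      (n := p ^ e) (m := (p ^ e + 1) / 2) hnm hn hM' hS (s59u_cB b 𝒪) (s59u_cB_coe b 𝒪)
      ε hε hε0 hεc' (s59t_cB (𝒪 := 𝒪) Lv a) hnil' ρbar hEig' DQ
  have hH3' := hH3 (by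
    intro θ Hd hres
    have h3 := s59q_hD_flat_RData Rd hp2 hp𝒪 Xs hX M' S hpM' hpS hS N₀ Q hM' hN₀ hN₀N hQX Hd hres
    exact h3)
  clear hH3
  obtain ⟨a₀, cT, ha1, ha2, hcT, hconcl⟩ := hH3'
  have hcTa : ∀ ℓ : ℕ, ℓ.Prime → ¬ ℓ ∣ M' → cT ℓ = ((a ℓ : ℤ) : 𝒪) := by
    intro ℓ hℓ hℓN
    obtain ⟨i, hi, hci⟩ := hcT ℓ hℓ hℓN
    rw [hci]
    show (1 : 𝒪) * ((a i.ell : ℤ) : 𝒪) = _
    rw [one_mul, hi]
  -- the output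
  haveI : Module.Free 𝒪 (s48h_Hpar 𝒪 (s48h_GammaH Lv H) 𝒪) := Module.Free.of_basis (s59u_cB b 𝒪)
  haveI : Module.Finite 𝒪 (s48h_Hpar 𝒪 (s48h_GammaH Lv H) 𝒪) :=
    Module.Finite.of_basis (s59u_cB b 𝒪)
  have hR := s59q_H3Out_of_concl hS a₀ ε hε
    (J := {j : s59w_AIdx Lv // s59e_Anemic S j})
    (fun j => s59w_op H 𝒪 j.1) (fun i j => s59w_op_comm H 𝒪 i.1 j.1) (fun j => hεc' j.1 j.2)
    (fun j => s59t_cB (𝒪 := 𝒪) Lv a j.1) (fun j => hnil' j.1 j.2) cT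
    (fun ℓ hℓ hℓN hℓS => by
      obtain ⟨i, hi, hci⟩ := hcT ℓ hℓ hℓN
      have hiS : i.ell ∉ S := by rw [hi]; exact hℓS
      exact ⟨⟨Sum.inr (s59e_tau i ((p ^ e - 1) * ((p ^ e + 1) / 2))), s59e_anemic_inr S _⟩,
        ⟨Sum.inl i, s59e_anemic_inl S i hiS⟩, ha1 ℓ hℓ hℓN hℓS i hi, hci⟩) DQ
  have hR' := hR hconcl
  clear hR
  have hR'' := hR'.congr (cT' := fun ℓ => ((a ℓ : ℤ) : 𝒪)) (fun ℓ hℓ hℓN _ => hcTa ℓ hℓ hℓN)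
  exact ⟨a₀, ha1, ha2, hR''⟩

end H3R

/-! ### (B2): the Taylor–Wiles level -/

section TB2

variable {p : ℕ} [hp : Fact p.Prime]
  {𝒪 : Type} [CommRing 𝒪] [IsDomain 𝒪] [IsDiscreteValuationRing 𝒪]
  [IsAdicComplete (maximalIdeal 𝒪) 𝒪] [Finite (ResidueField 𝒪)] [CharZero 𝒪] [Algebra ℤ_[p] 𝒪]
  {N : ℕ} [NeZero N] {B Bd : Finset ℕ} {ρbar : ResidualGaloisRep (ResidueField 𝒪)}
  (Rd : s59i_RData p N ρbar B Bd) (a : ℕ → ℤ)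
  {m : ℕ} (qB : Fin m → ℕ) (hdvd : ∏ j, qB j ∣ N)
  {r : ℕ} (qv : Fin r → ℕ) [NeZero (N * ∏ i, qv i)]

include hdvd in
/-- the numerology of the level `M' = N ∏ qB ∏ qv²` (`= (N/∏qB) ∏_{q ∈ Q} q²`, `Q = image qB ∪ image qv`). -/
theorem s59q_lvl_M' (hqBinj : Function.Injective qB) (hqinj : Function.Injective qv)
    (hdisj : ∀ j i, qB j ≠ qv i) :
    N * (∏ j, qB j) * ∏ i, qv i ^ 2 = (N / ∏ j, qB j) * ∏ q ∈ s59k_Q qB qv, q ^ 2 := by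
  have h1 : ∏ q ∈ s59k_Q qB qv, q ^ 2 = ((∏ j, qB j) * ∏ i, qv i) ^ 2 := by
    rw [Finset.prod_pow, s59k_prod_Q qB qv hqBinj hqinj hdisj]
  have h2 : ∏ i, qv i ^ 2 = (∏ i, qv i) ^ 2 := Finset.prod_pow _ _ _
  rw [h1, h2]
  conv_lhs => rw [← Nat.div_mul_cancel hdvd]
  ring

/-- **(B2)**: (H3) at the Taylor–Wiles level `Lv = N ∏ qv` for the data `Rd`, with `Bd = image qB`, for ANY
`H' ≤ (ℤ/Lv)ˣ` containing `ker((ℤ/Lv)ˣ → (ℤ/∏qB∏qv)ˣ)` with `u^(p^e) ∈ H'` (e.g. helper1's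
`s59t_Hmul N (∏ qv) (s59k_H0 (p^v) qB N hdvd) (s59t_KQ (p^n) qv)`, `e = v + n`: `s59k_ker_le_Hmul'`,
`s59k_ppow_mem_Hmul`; or the type-1 group `s59t_Hmul N (∏ qv) ⊤ (s59t_KQ (p^n) qv)`), `S = B ∪ image qv`,
`M' = N ∏ qB ∏ qv²`; `ε` as delivered by helper8's `s59t_level_pkg`. -/
theorem s59q_TB2 (hp2 : p ≠ 2) (hp𝒪 : (p : 𝒪) ∈ maximalIdeal 𝒪)
    (hsq : Squarefree N) (hpN : ¬ p ∣ N) (hpB : p ∈ B)
    (hNB : ∀ q : ℕ, q.Prime → q ∣ N → q ∈ B)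
    (hqBinj : Function.Injective qB) (hqBd : Finset.univ.image qB = Bd)
    (hqinj : Function.Injective qv) (hqp : ∀ i, (qv i).Prime) (hqvB : ∀ i, qv i ∉ B)
    (H' : Subgroup (ZMod (N * ∏ i, qv i))ˣ)
    (hker : s59u_ker (N * ∏ i, qv i) ((∏ j, qB j) * ∏ i, qv i)
      (Nat.mul_dvd_mul_right hdvd _) ≤ H')
    (e : ℕ) (hpow : ∀ u : (ZMod (N * ∏ i, qv i))ˣ, u ^ (p ^ e) ∈ H')
    (M' : ℕ) [NeZero M'] [Fact (HasIntegralStructure M' 2)]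
    (hM' : M' = N * (∏ j, qB j) * ∏ i, qv i ^ 2)
    (ε : Module.End 𝒪 (s48h_Hpar 𝒪 (s48h_GammaH (N * ∏ i, qv i) H') 𝒪))
    (hε : ε * ε = ε) (hε0 : ε ≠ 0)
    (hεc : ∀ x, ε * s59w_op H' 𝒪 x = s59w_op H' 𝒪 x * ε)
    (hnil : ∀ x ∈ s59t_goodB (N * ∏ i, qv i) B, ∃ k : ℕ,
      ∀ y : s48h_Hpar 𝒪 (s48h_GammaH (N * ∏ i, qv i) H') 𝒪,
      ((s59w_op H' 𝒪 x - s59t_cB (𝒪 := 𝒪) (N * ∏ i, qv i) a x •
        (1 : Module.End 𝒪 (s48h_Hpar 𝒪 (s48h_GammaH (N * ∏ i, qv i) H') 𝒪))) ^ k) (ε y) ∈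
        (maximalIdeal 𝒪 • ⊤ :
          Submodule 𝒪 (s48h_Hpar 𝒪 (s48h_GammaH (N * ∏ i, qv i) H') 𝒪)))
    (hEig : ∀ ℓ : ℕ, ℓ.Prime → ℓ ∉ B ∪ Finset.univ.image qv →
      ∀ A : ValuationSubring Qbar, A.LiesOverPrime ℓ →
      ∀ σ : GQ, A.IsFrobeniusAt σ ℓ →
        LinearMap.charpoly (ρbar.ρ σ) = X ^ 2 - C (residue 𝒪 ((a ℓ : ℤ) : 𝒪)) * X +
          C ((ℓ : ResidueField 𝒪)))
    (DQ : GaloisRep.DeformationRingData 𝒪 ρbar (fun _A _ _ _ ρ =>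
      GaloisRep.flatCondition 𝒪 p (Rd.Smin ∪ (Bd ∪ Rd.Ed) ∪ Finset.univ.image qv) ρ ∧
        ∀ q ∈ Rd.Smin, q.Prime → q ≠ p → ρ.IsUnipotentOnInertiaAt q)) :
    ∃ a₀ : heckeAlgebra M' 2 (↑(B ∪ Finset.univ.image qv) : Set ℕ) →+*
        Module.End 𝒪 (s48h_Hpar 𝒪 (s48h_GammaH (N * ∏ i, qv i) H') 𝒪),
      (∀ (ℓ : ℕ) (hℓ : ℓ.Prime) (hℓN : ¬ ℓ ∣ M')
        (hℓS : ℓ ∉ (↑(B ∪ Finset.univ.image qv) : Set ℕ)) (i : s59w_TIdx (N * ∏ i, qv i)),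
        i.ell = ℓ → a₀ (heckeAlgebra.T hℓ hℓN hℓS) =
          s59e_Tp' H' 𝒪 ((p ^ e - 1) * ((p ^ e + 1) / 2)) i) ∧
      (∀ t, a₀ t ∈
        Subring.closure (Set.range (s59e_Tp' H' 𝒪 ((p ^ e - 1) * ((p ^ e + 1) / 2))))) ∧
      s59q_H3Out M' (B ∪ Finset.univ.image qv) a₀ ε (fun ℓ => ((a ℓ : ℤ) : 𝒪)) DQ := by
  classical
  have hpP : p.Prime := hp.out
  -- the primes
  have hqBmem : ∀ j, qB j ∈ Bd := fun j => by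
    rw [← hqBd]; exact Finset.mem_image_of_mem _ (Finset.mem_univ j)
  have hqBp : ∀ j, (qB j).Prime := fun j => Rd.hBprime _ (hqBmem j)
  have hqvN : ∀ i, ¬ qv i ∣ N := fun i h => hqvB i (hNB _ (hqp i) h)
  have hdisj : ∀ j i, qB j ≠ qv i := fun j i h => hqvB i (h ▸ Rd.hBS (hqBmem j))
  have hN₀pos : N / ∏ j, qB j ≠ 0 := by
    intro h0
    have h1 := Nat.div_mul_cancel hdvd
    rw [h0, zero_mul] at h1
    exact NeZero.ne N h1.symm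
  haveI : NeZero (N / ∏ j, qB j) := ⟨hN₀pos⟩
  have hN₀N : N / ∏ j, qB j ∣ N := Nat.div_dvd_of_dvd hdvd
  have hM'' : M' = (N / ∏ j, qB j) * ∏ q ∈ s59k_Q qB qv, q ^ 2 := by
    rw [hM', s59q_lvl_M' qB hdvd qv hqBinj hqinj hdisj]
  -- primes dividing `M'`
  have hSM : ∀ q : ℕ, q.Prime → q ∣ M' → q ∈ B ∪ Finset.univ.image qv := by
    intro q hq hqM
    rw [hM'] at hqM
    rcases (Nat.Prime.dvd_mul hq).mp hqM with h | h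
    · rcases (Nat.Prime.dvd_mul hq).mp h with h1 | h1
      · exact Finset.mem_union_left _ (hNB q hq h1)
      · exact Finset.mem_union_left _ (hNB q hq (h1.trans hdvd))
    · obtain ⟨i, -, hi⟩ := (Prime.dvd_finset_prod_iff hq.prime _).mp h
      have h2 : q ∣ qv i := hq.dvd_of_dvd_pow hi
      have h3 : q = qv i := (Nat.prime_dvd_prime_iff_eq hq (hqp i)).mp h2
      exact Finset.mem_union_right _ (h3 ▸ Finset.mem_image_of_mem _ (Finset.mem_univ i))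
  have hpM' : ¬ p ∣ M' := by
    intro h
    rw [hM'] at h
    rcases (Nat.Prime.dvd_mul hpP).mp h with h | h
    · rcases (Nat.Prime.dvd_mul hpP).mp h with h1 | h1
      · exact hpN h1
      · exact hpN (h1.trans hdvd)
    · obtain ⟨i, -, hi⟩ := (Prime.dvd_finset_prod_iff hpP.prime _).mp h
      have h2 : p ∣ qv i := hpP.dvd_of_dvd_pow hi
      have h3 : p = qv i := (Nat.prime_dvd_prime_iff_eq hpP (hqp i)).mp h2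
      exact hqvB i (h3 ▸ hpB)
  have hX : ∀ q ∈ Finset.univ.image qv, q.Prime ∧ q ∉ B := by
    intro q hq
    obtain ⟨i, -, rfl⟩ := Finset.mem_image.mp hq
    exact ⟨hqp i, hqvB i⟩
  have hQX : ∀ q ∈ s59k_Q qB qv, q ∈ Bd ∨ q ∈ Finset.univ.image qv := by
    intro q hq
    rcases (s59k_mem_Q qB qv).mp hq with ⟨j, rfl⟩ | ⟨i, rfl⟩
    · exact Or.inl (hqBmem j)
    · exact Or.inr (Finset.mem_image_of_mem _ (Finset.mem_univ i))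
  exact s59q_H3_RData Rd a hp2 hp𝒪 (N / ∏ j, qB j) (s59k_Q qB qv) H' M'
    (B ∪ Finset.univ.image qv) (Finset.mem_union_left _ hpB) Finset.subset_union_left hpM'
    (s59k_hQ qB qv N hdvd hsq hqBp hqp hqvN)
    (s59k_level_eq qB qv N hdvd hqBinj hqinj hdisj)
    (s59k_prod_Q qB qv hqBinj hqinj hdisj).symm (Nat.mul_dvd_mul_right hdvd _) hker e hpow
    hM'' hSM (Squarefree.squarefree_of_dvd hN₀N hsq) hN₀N
    (Finset.univ.image qv) hX hQX ε hε hε0 hεc hnil hEig DQ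

end TB2

end Fermat.Agent.Lib.S59
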