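/-
PROGRAMME (R2) = S59, the W-GENERAL R-SIDE, part D (helper6, prefix `s59q_`): **the STRICT-ORDINARY twins of
`s59q_hecke_flatType_E2`, `s59q_hD_flat_E2`, `s59q_hD_flat_RData`, `s59q_existDQ_of_datum`** (QFreyRE.lean), for levels
`M' = N₀ ∏_{q ∈ Q} q²` with `p ∣ N₀` allowed.  Generic in `ρ̄` (any `Rd : s59i_RData p N ρ̄ B Bd`).

The ONE input that main does not provide is the node **[STRICT-p]**: `hstr : Hd.ρ.IsStrictOrdinaryAt p` for the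
Hecke–Galois datum at hand (main has only S33 = `IsOrdinaryAt`, given residual ordinarity; strictness `z² = 1` of the
unramified quotient character holds exactly on the `p`-new part).  It is a HYPOTHESIS of every statement below; whoever
proves [STRICT-p] on the T-side plugs it in.  NEW names only.
-/
import Fermat.Agent.Lib.S59.QFreyRE

set_option autoImplicit false
set_option linter.style.haveILetI false
set_option linter.unusedSectionVars false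
set_option linter.unusedVariables false
set_option synthInstance.maxHeartbeats 400000
set_option maxHeartbeats 1600000

noncomputable section

namespace Fermat.Agent.Lib.S59

open IsLocalRing Polynomial CuspForm
open scoped TensorProduct

local notation "Qbar" => AlgebraicClosure ℚ
local notation "GQ" => (AlgebraicClosure ℚ ≃ₐ[ℚ] AlgebraicClosure ℚ)

section Datum

variable {p : ℕ} [Fact p.Prime] {N : ℕ} [NeZero N] {S : Finset ℕ}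
  {𝒪 : Type} [CommRing 𝒪] [IsDomain 𝒪] [IsDiscreteValuationRing 𝒪]
  [IsAdicComplete (maximalIdeal 𝒪) 𝒪]
  {θ : heckeAlgebra N 2 (↑S : Set ℕ) →+* ResidueField 𝒪}
  {T : Type} [CommRing T] [IsLocalRing T] [IsNoetherianRing T]
  [IsAdicComplete (maximalIdeal T) T] [Algebra 𝒪 T] [IsLocalHom (algebraMap 𝒪 T)]
  [Module.Finite 𝒪 T] [Module.Free 𝒪 T]
  (H : HeckeGaloisRepDatum N (↑S : Set ℕ) 𝒪 θ T)

/-- **the strict-ordinary deformation type of a Hecke–Galois datum, (E2)-form**, GIVEN [STRICT-p]. -/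
theorem s59q_hecke_ordType_E2 [Finite (ResidueField 𝒪)] [CharZero 𝒪]
    (hp𝒪 : (p : 𝒪) ∈ maximalIdeal 𝒪) (hpS : p ∈ S)
    (hNS : ∀ q : ℕ, q.Prime → q ∣ N → q ∈ S)
    (hstr : H.ρ.IsStrictOrdinaryAt p)
    (ρbar : ResidualGaloisRep (ResidueField 𝒪))
    (hres : H.ρ.residual.IsEquiv (ρbar.baseChangeAlong (ResidueField.map (algebraMap 𝒪 T))))
    (Sg Smin : Finset ℕ) (hpSg : p ∈ Sg)
    (hSg : ∀ q : ℕ, q.Prime → q ∣ N → q ∈ Sg ∨ s59q_E2Alt p ρbar q)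
    (hSmin : ∀ q ∈ Smin, q.Prime → q ≠ p → q ∣ N ∧ ¬ q ^ 2 ∣ N) :
    GaloisRep.strictOrdinaryCondition 𝒪 p Sg H.ρ ∧
      ∀ q ∈ Smin, q.Prime → q ≠ p → H.ρ.IsUnipotentOnInertiaAt q := by
  refine ⟨⟨s59e_hecke_detCyc H hp𝒪 hNS, hstr, fun q hq hqSg => ?_⟩, fun q hqS hq hqp => ?_⟩
  · by_cases hqN : q ∣ N
    · rcases hSg q hq hqN with h | ⟨hqp, hU, hq1, A, φ, hA, hφ, hratio⟩
      · exact absurd h hqSg
      · exact s59q_unram_E2_of_hres H.ρ ρbar hres (Fact.out : p.Prime) hq hqp hp𝒪 hU hq1 A φ hA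
          hφ hratio
    · exact s59e_hecke_unram' H hp𝒪 hpS hNS q hq (fun h => hqSg (h ▸ hpSg)) hqN
  · obtain ⟨h1, h2⟩ := hSmin q hqS hq hqp
    exact s59e_hecke_unip H hp𝒪 hpS hNS q hq hqp h1 h2

end Datum

section HD

variable {p : ℕ} [Fact p.Prime] (M' : ℕ) [NeZero M'] (S : Finset ℕ)
  {𝒪 : Type} [CommRing 𝒪] [IsDomain 𝒪] [IsDiscreteValuationRing 𝒪]
  [IsAdicComplete (maximalIdeal 𝒪) 𝒪] [Finite (ResidueField 𝒪)] [CharZero 𝒪]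

/-- **`h𝒟` for the strict-ordinary problem, (E2)-form**, for ANY coefficient algebra `T`, GIVEN [STRICT-p]. -/
theorem s59q_hD_ord_E2 (hp𝒪 : (p : 𝒪) ∈ maximalIdeal 𝒪)
    (hpS : p ∈ S) (hS : ∀ q : ℕ, q.Prime → q ∣ M' → q ∈ S)
    (ρbar : ResidualGaloisRep (ResidueField 𝒪))
    (N₀ : ℕ) (Q : Finset ℕ) (hM' : M' = N₀ * ∏ q ∈ Q, q ^ 2) (hN₀ : Squarefree N₀)
    (hQ : ∀ q ∈ Q, q.Prime ∧ ρbar.IsUnramifiedAt q)
    (Sg Smin : Finset ℕ) (hpSg : p ∈ Sg)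
    (hSg : ∀ q : ℕ, q.Prime → q ∣ M' → q ∈ Sg ∨ s59q_E2Alt p ρbar q)
    (hmin : ∀ q : ℕ, q.Prime → q ≠ p → (q ∈ Smin ↔ ¬ ρbar.IsUnramifiedAt q))
    {θ : heckeAlgebra M' 2 (↑S : Set ℕ) →+* ResidueField 𝒪}
    {T : Type} [CommRing T] [IsLocalRing T] [IsNoetherianRing T]
    [IsAdicComplete (maximalIdeal T) T] [Algebra 𝒪 T] [IsLocalHom (algebraMap 𝒪 T)]
    [Module.Finite 𝒪 T] [Module.Free 𝒪 T]
    (Hd : HeckeGaloisRepDatum M' (↑S : Set ℕ) 𝒪 θ T)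
    (hstr : Hd.ρ.IsStrictOrdinaryAt p)
    (hres : Hd.ρ.residual.IsEquiv (ρbar.baseChangeAlong (ResidueField.map (algebraMap 𝒪 T)))) :
    GaloisRep.strictOrdinaryCondition 𝒪 p Sg Hd.ρ ∧
      ∀ q ∈ Smin, q.Prime → q ≠ p → Hd.ρ.IsUnipotentOnInertiaAt q :=
  s59q_hecke_ordType_E2 Hd hp𝒪 hpS hS hstr ρbar hres Sg Smin hpSg hSg
    (s59e_Smin_exact Hd hp𝒪 hpS hS ρbar hres N₀ Q hM' hN₀ hQ Smin hmin)

end HD

section RData

variable {p : ℕ} [Fact p.Prime] {N : ℕ}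
  {𝒪 : Type} [CommRing 𝒪] [IsDomain 𝒪] [IsDiscreteValuationRing 𝒪]
  [IsAdicComplete (maximalIdeal 𝒪) 𝒪] [Finite (ResidueField 𝒪)] [CharZero 𝒪]
  {ρbar : ResidualGaloisRep (ResidueField 𝒪)} {B Bd : Finset ℕ}
  (Rd : s59i_RData p N ρbar B Bd)

/-- **`h𝒟` for the data `Rd`, strict-ordinary type**: every Hecke–Galois datum of level `M' = N₀ ∏_{q ∈ Q} q²`
(`N₀ ∣ N` squarefree, `p ∣ N₀` allowed, `Q ⊆ Bd ∪ X`, `X` a set of primes outside `B`) lifting `ρ̄` and satisfying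
[STRICT-p] is of the strict-ordinary type `Σ = Rd.Smin ∪ (Bd ∪ Rd.Ed) ∪ X`. -/
theorem s59q_hD_ord_RData (hp𝒪 : (p : 𝒪) ∈ maximalIdeal 𝒪)
    (X : Finset ℕ) (hX : ∀ q ∈ X, q.Prime ∧ q ∉ B)
    (M' : ℕ) [NeZero M'] (S : Finset ℕ)
    (hpS : p ∈ S) (hS : ∀ q : ℕ, q.Prime → q ∣ M' → q ∈ S)
    (N₀ : ℕ) (Q : Finset ℕ) (hM' : M' = N₀ * ∏ q ∈ Q, q ^ 2) (hN₀ : Squarefree N₀) (hN₀N : N₀ ∣ N)
    (hQ : ∀ q ∈ Q, q ∈ Bd ∨ q ∈ X)
    {θ : heckeAlgebra M' 2 (↑S : Set ℕ) →+* ResidueField 𝒪}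
    {T : Type} [CommRing T] [IsLocalRing T] [IsNoetherianRing T]
    [IsAdicComplete (maximalIdeal T) T] [Algebra 𝒪 T] [IsLocalHom (algebraMap 𝒪 T)]
    [Module.Finite 𝒪 T] [Module.Free 𝒪 T]
    (Hd : HeckeGaloisRepDatum M' (↑S : Set ℕ) 𝒪 θ T)
    (hstr : Hd.ρ.IsStrictOrdinaryAt p)
    (hres : Hd.ρ.residual.IsEquiv (ρbar.baseChangeAlong (ResidueField.map (algebraMap 𝒪 T)))) :
    GaloisRep.strictOrdinaryCondition 𝒪 p (Rd.Smin ∪ (Bd ∪ Rd.Ed) ∪ X) Hd.ρ ∧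
      ∀ q ∈ Rd.Smin, q.Prime → q ≠ p → Hd.ρ.IsUnipotentOnInertiaAt q := by
  have hXunr : ∀ q ∈ X, ρbar.IsUnramifiedAt q := by
    intro q hq
    have hqB : q ∉ B := (hX q hq).2
    have hqS : q ∉ Rd.Smin := fun h => hqB (Rd.hSmin h)
    have hqp : q ≠ p := fun h => hqS (h ▸ Rd.hpSmin)
    by_contra hram
    exact hqS ((Rd.hmin q (hX q hq).1 hqp).mpr hram)
  refine s59q_hD_ord_E2 M' S hp𝒪 hpS hS ρbar N₀ Q hM' hN₀ ?_ _ Rd.Smin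
    (Finset.mem_union_left _ (Finset.mem_union_left _ Rd.hpSmin))
    (s59q_hSg_of_RData Rd X (fun q hq => (hX q hq).1) M' N₀ Q hM' hN₀N hQ) Rd.hmin Hd hstr hres
  intro q hq
  rcases hQ q hq with h | h
  · exact ⟨Rd.hBprime q h, (Rd.hBunr q h).2⟩
  · exact ⟨(hX q h).1, hXunr q h⟩

/-- **[EXIST-DQ] for the data `Rd`, strict-ordinary type, from ONE Hecke–Galois datum lifting `ρ̄`** of level
`M₀ = N₀ ∏_{q ∈ Q₀} q²` (`N₀ ∣ N` squarefree, `Q₀ ⊆ Bd`) satisfying [STRICT-p].  (When `ρ_W` itself is a point of the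
problem, `s59q_W_existDQ_ord` (QWExistDQ.lean) gives the same conclusion WITHOUT any Hecke datum.) -/
theorem s59q_existDQ_ord_of_datum (hp2 : p ≠ 2) (hp𝒪 : (p : 𝒪) ∈ maximalIdeal 𝒪)
    (M₀ : ℕ) [NeZero M₀] (S₀ : Finset ℕ)
    (hpS₀ : p ∈ S₀) (hS₀ : ∀ q : ℕ, q.Prime → q ∣ M₀ → q ∈ S₀)
    (N₀ : ℕ) (Q₀ : Finset ℕ) (hM₀ : M₀ = N₀ * ∏ q ∈ Q₀, q ^ 2) (hN₀ : Squarefree N₀)
    (hN₀N : N₀ ∣ N) (hQ₀ : ∀ q ∈ Q₀, q ∈ Bd)
    {θ : heckeAlgebra M₀ 2 (↑S₀ : Set ℕ) →+* ResidueField 𝒪}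
    {T : Type} [CommRing T] [IsLocalRing T] [IsNoetherianRing T]
    [IsAdicComplete (maximalIdeal T) T] [Algebra 𝒪 T] [IsLocalHom (algebraMap 𝒪 T)]
    [Module.Finite 𝒪 T] [Module.Free 𝒪 T]
    (Hd : HeckeGaloisRepDatum M₀ (↑S₀ : Set ℕ) 𝒪 θ T)
    (hstr : Hd.ρ.IsStrictOrdinaryAt p)
    (hres : Hd.ρ.residual.IsEquiv (ρbar.baseChangeAlong (ResidueField.map (algebraMap 𝒪 T))))
    {r : ℕ} (qv : Fin r → ℕ) :
    Nonempty (GaloisRep.DeformationRingData 𝒪 ρbar (fun _A _ _ _ ρ =>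
      GaloisRep.strictOrdinaryCondition 𝒪 p
        (Rd.Smin ∪ (Bd ∪ Rd.Ed) ∪ Finset.univ.image qv) ρ ∧
        ∀ q ∈ Rd.Smin, q.Prime → q ≠ p → ρ.IsUnipotentOnInertiaAt q)) := by
  have h0 := s59q_hD_ord_RData Rd hp𝒪 ∅ (fun q hq => absurd hq (Finset.notMem_empty q))
    M₀ S₀ hpS₀ hS₀ N₀ Q₀ hM₀ hN₀ hN₀N (fun q hq => Or.inl (hQ₀ q hq)) Hd hstr hres
  rw [Finset.union_empty] at h0
  refine s59q_exists_DQ_ord_hecke p hp2 hp𝒪 ρbar Rd.habs (Rd.Smin ∪ (Bd ∪ Rd.Ed)) _ Rd.Smin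
    Finset.subset_union_left
    (Finset.mem_union_left _ (Finset.mem_union_left _ Rd.hpSmin)) ?_ Hd h0 hres
  intro q hq hqS
  have hqSmin : q ∉ Rd.Smin := fun h =>
    hqS (Finset.mem_union_left _ (Finset.mem_union_left _ h))
  have hqp : q ≠ p := fun h => hqSmin (h ▸ Rd.hpSmin)
  by_contra hram
  exact hqSmin ((Rd.hmin q hq hqp).mpr hram)

end RData

end Fermat.Agent.Lib.S59
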