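/-
S59 project, case (P), item [P7-c] (helper9's #3873; written by helper8, prefix `s59c_`): **THE CONCRETE `p`-NEW (H3)**.

Twin of helper6's `s59q_H3_RData_ord` (QSTB2.lean) at the level `Γ_{H'}(L p)`, `L = N₁ ∏ Q`, `p ∤ L`, for a Hecke-stable saturated
submodule `Z ≤ ε H_par(Γ_{H'}(L p), 𝒪)` of KERNEL-NEW classes (`Z = ker cor_A ⊓ ker cor_B` of helper4's `(s59f_oldN …).restrict hc`):
the ring `T_Z = 𝒪[a_Z(𝕋)]` of the Hecke operators of `Γ₀(M' p)`, `M' = N₁ (∏ Q)²`, acting on `Z` receives the deformation ring `DQ.R` of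
the STRICT-ordinary type, WITHOUT any très-ramifié hypothesis: strictness at `p` comes from helper9's `s59m_STRICT_abs` (= (7a) +
helper7's `s59x_strict_new` + the geometric inputs [UNIP-K⁺] …), the other clauses of the type from the Hecke–Galois datum over the full
local Hecke algebra by base change.

* `s59c_hecke_nonp_E2`, `s59c_hD_nonp_RData` : the non-`p` clauses of helper6's `s59q_hecke_ordType_E2` / `s59q_hD_ord_RData`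
  (QWOrd.lean), which do not need [STRICT-p];
* `s59c_closure_restrict` : an element of the ring generated by the twisted operators `T'_ℓ` stabilises a stable `Z`, and its
  restriction lies in the algebra generated by the restricted generators;
* `s59c_stabZ`, `s59c_restrZ`, `s59c_exists_aZ`, `s59c_adj_le_restr`, `s59c_adj_lift` : the restricted homomorphism `aZ` and the
  ring `𝒪[aZ(𝕋)]`;
* `s59c_H3OutZ` : the OUTPUT shape (helper6's `s59q_H3Out` with a stable submodule `Z` in the place of `range ε`), stated over a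
  generic module `Y` so that it elaborates fast;
* `s59c_H3_pnew_abs` : abstract core = helper2's (A3) `s59b_restr_hloc_sat` + helper9's `s59m_H3new_abs`;
* `s59c_H3_pnew` : THE THEOREM.  Binders = those of helper6's `s59q_H3_RData_ord` (without `htres`, `hε0`) at the level
  `Lv := L * p` in the form of helper9's `s59m_STRICT_abs` (`N₁ Q hQ hL hpL H hD₁ hHker H' hH' e hn`, `M' hM' hgood`, `S hpS hBS hS`,
  `hN₀ : Squarefree (N₁ * p)`, `hN₀N : N₁ * p ∣ N`, `Xs hX hQX`, `ε hε hεc hnil hEig`) + the kernel-new submodule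
  `Z hZ0 hZε hZop hZsat hnewA hnewB` + `DQ` (strict-ordinary type).  Conclusion:
  `∃ a₀, ha1 ∧ ha2 ∧ s59c_H3OutZ (M' * p) S a₀ Z (fun ℓ => ((a ℓ : ℤ) : 𝒪)) DQ`.

Elaboration note: `Ring (Module.End 𝒪 ↥Z)` for `Z` a submodule of the submodule `H_par ≤ Hom(Γ, 𝒪)` needs
`set_option maxSynthPendingDepth 3` (the default depth `1` fails on the nested `AddCommGroup ↥Z`); a client which has to WRITE
`s59e_adj 𝒪 aZ` for such a `Z` needs the same option (unfolding `s59c_H3OutZ` by `obtain` does not).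
-/
import Mathlib
import Fermat.Agent.Lib.S59.MPNew3
import Fermat.Agent.Lib.S59.MPNew4
import Fermat.Agent.Lib.S59.B9ZLoc
import Fermat.Agent.Lib.S59.QSTB2

set_option autoImplicit false
set_option linter.unusedSectionVars false
set_option linter.unusedVariables false
set_option linter.style.haveILetI false
set_option synthInstance.maxHeartbeats 400000
set_option maxHeartbeats 1600000

noncomputable section

namespace Fermat.Agent.Lib.S59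

open Matrix.SpecialLinearGroup CongruenceSubgroup ModularCurve.Period Polynomial CuspForm
open Fermat.Agent.Lib.S48 Fermat.Agent.Lib.ES IsLocalRing Fermat.Agent.Lib.S18
open scoped MatrixGroups

local notation "Qbar" => AlgebraicClosure ℚ
local notation "GQ" => (AlgebraicClosure ℚ ≃ₐ[ℚ] AlgebraicClosure ℚ)

/-! ### The non-`p` clauses of the strict-ordinary type -/

section Datum

variable {p : ℕ} [Fact p.Prime] {N : ℕ} [NeZero N] {S : Finset ℕ}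
  {𝒪 : Type} [CommRing 𝒪] [IsDomain 𝒪] [IsDiscreteValuationRing 𝒪]
  [IsAdicComplete (maximalIdeal 𝒪) 𝒪]
  {θ : heckeAlgebra N 2 (↑S : Set ℕ) →+* ResidueField 𝒪}
  {T : Type} [CommRing T] [IsLocalRing T] [IsNoetherianRing T]
  [IsAdicComplete (maximalIdeal T) T] [Algebra 𝒪 T] [IsLocalHom (algebraMap 𝒪 T)]
  [Module.Finite 𝒪 T] [Module.Free 𝒪 T]
  (H : HeckeGaloisRepDatum N (↑S : Set ℕ) 𝒪 θ T)

/-- the clauses of helper6's `s59q_hecke_ordType_E2` which do not need [STRICT-p]. -/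
theorem s59c_hecke_nonp_E2 [Finite (ResidueField 𝒪)] [CharZero 𝒪]
    (hp𝒪 : (p : 𝒪) ∈ maximalIdeal 𝒪) (hpS : p ∈ S)
    (hNS : ∀ q : ℕ, q.Prime → q ∣ N → q ∈ S)
    (ρbar : ResidualGaloisRep (ResidueField 𝒪))
    (hres : H.ρ.residual.IsEquiv (ρbar.baseChangeAlong (ResidueField.map (algebraMap 𝒪 T))))
    (Sg Smin : Finset ℕ) (hpSg : p ∈ Sg)
    (hSg : ∀ q : ℕ, q.Prime → q ∣ N → q ∈ Sg ∨ s59q_E2Alt p ρbar q)
    (hSmin : ∀ q ∈ Smin, q.Prime → q ≠ p → q ∣ N ∧ ¬ q ^ 2 ∣ N) :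
    H.ρ.DetIsCyclotomic p ∧ (∀ q : ℕ, q.Prime → q ∉ Sg → H.ρ.IsUnramifiedAt q) ∧
      ∀ q ∈ Smin, q.Prime → q ≠ p → H.ρ.IsUnipotentOnInertiaAt q := by
  refine ⟨s59e_hecke_detCyc H hp𝒪 hNS, fun q hq hqSg => ?_, fun q hqS hq hqp => ?_⟩
  · by_cases hqN : q ∣ N
    · rcases hSg q hq hqN with h | ⟨hqp, hU, hq1, A, φ, hA, hφ, hratio⟩
      · exact absurd h hqSg
      · exact s59q_unram_E2_of_hres H.ρ ρbar hres (Fact.out : p.Prime) hq hqp hp𝒪 hU hq1 A φ hA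
          hφ hratio
    · exact s59e_hecke_unram' H hp𝒪 hpS hNS q hq (fun h => hqSg (h ▸ hpSg)) hqN
  · obtain ⟨h1, h2⟩ := hSmin q hqS hq hqp
    exact s59e_hecke_unip H hp𝒪 hpS hNS q hq hqp h1 h2

end Datum

section RDataNonP

variable {p : ℕ} [Fact p.Prime] {N : ℕ}
  {𝒪 : Type} [CommRing 𝒪] [IsDomain 𝒪] [IsDiscreteValuationRing 𝒪]
  [IsAdicComplete (maximalIdeal 𝒪) 𝒪] [Finite (ResidueField 𝒪)] [CharZero 𝒪]
  {ρbar : ResidualGaloisRep (ResidueField 𝒪)} {B Bd : Finset ℕ}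
  (Rd : s59i_RData p N ρbar B Bd)

/-- the clauses of helper6's `s59q_hD_ord_RData` which do not need [STRICT-p]: every Hecke–Galois datum of level
`M' = N₀ ∏_{q ∈ Q} q²` (`N₀ ∣ N` squarefree, `p ∣ N₀` allowed, `Q ⊆ Bd ∪ X`) lifting `ρ̄` has cyclotomic determinant, is
unramified outside `Σ = Rd.Smin ∪ (Bd ∪ Rd.Ed) ∪ X` and unipotent on inertia at `Rd.Smin ∖ {p}`. -/
theorem s59c_hD_nonp_RData (hp𝒪 : (p : 𝒪) ∈ maximalIdeal 𝒪)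
    (X : Finset ℕ) (hX : ∀ q ∈ X, q.Prime ∧ q ∉ B)
    (M' : ℕ) [NeZero M'] (S : Finset ℕ)
    (hpS : p ∈ S) (hS : ∀ q : ℕ, q.Prime → q ∣ M' → q ∈ S)
    (N₀ : ℕ) (Q : Finset ℕ) (hM' : M' = N₀ * ∏ q ∈ Q, q ^ 2) (hN₀ : Squarefree N₀) (hN₀N : N₀ ∣ N)
    (hQ : ∀ q ∈ Q, q ∈ Bd ∨ q ∈ X)
    {θ : heckeAlgebra M' 2 (↑S : Set ℕ) →+* ResidueField 𝒪}
    {T : Type} [CommRing T] [IsLocalRing T] [IsNoetherianRing T]
    [IsAdicComplete (maximalIdeal T) T] [Algebra 𝒪 T] [IsLocalHom (algebraMap 𝒪 T)]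
    [Module.Finite 𝒪 T] [Module.Free 𝒪 T]
    (Hd : HeckeGaloisRepDatum M' (↑S : Set ℕ) 𝒪 θ T)
    (hres : Hd.ρ.residual.IsEquiv (ρbar.baseChangeAlong (ResidueField.map (algebraMap 𝒪 T)))) :
    Hd.ρ.DetIsCyclotomic p ∧
      (∀ q : ℕ, q.Prime → q ∉ Rd.Smin ∪ (Bd ∪ Rd.Ed) ∪ X → Hd.ρ.IsUnramifiedAt q) ∧
      ∀ q ∈ Rd.Smin, q.Prime → q ≠ p → Hd.ρ.IsUnipotentOnInertiaAt q := by
  have hXunr : ∀ q ∈ X, ρbar.IsUnramifiedAt q := by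
    intro q hq
    have hqB : q ∉ B := (hX q hq).2
    have hqS : q ∉ Rd.Smin := fun h => hqB (Rd.hSmin h)
    have hqp : q ≠ p := fun h => hqS (h ▸ Rd.hpSmin)
    by_contra hram
    exact hqS ((Rd.hmin q (hX q hq).1 hqp).mpr hram)
  have hQ' : ∀ q ∈ Q, q.Prime ∧ ρbar.IsUnramifiedAt q := by
    intro q hq
    rcases hQ q hq with h | h
    · exact ⟨Rd.hBprime q h, (Rd.hBunr q h).2⟩
    · exact ⟨(hX q h).1, hXunr q h⟩
  exact s59c_hecke_nonp_E2 Hd hp𝒪 hpS hS ρbar hres _ Rd.Smin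
    (Finset.mem_union_left _ (Finset.mem_union_left _ Rd.hpSmin))
    (s59q_hSg_of_RData Rd X (fun q hq => (hX q hq).1) M' N₀ Q hM' hN₀N hQ)
    (s59e_Smin_exact Hd hp𝒪 hpS hS ρbar hres N₀ Q hM' hN₀ hQ' Rd.Smin Rd.hmin)

end RDataNonP

/-! ### Restriction of the ring generated by products of generators to a stable submodule -/

section ClosureRestrict

variable {R : Type*} [CommRing R] {Y : Type*} [AddCommGroup Y] [Module R Y]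
  (Z : Submodule R Y) {J : Type*} (g : J → Module.End R Y) (hZg : ∀ j, ∀ z ∈ Z, g j z ∈ Z)
  {I : Type*} (T : I → Module.End R Y) (hT : ∀ i, ∃ j₁ j₂, T i = g j₁ * g j₂)

include hT in
/-- an element of the ring generated by operators `T_i = g_{j₁} g_{j₂}` stabilises a submodule `Z` stable under the `g_j`; its
restriction to `Z` lies in the algebra generated by the restricted `g_j`, and the element itself in the algebra generated by the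
`g_j`.  (Used with `T_i = T'_ℓ = ⟨σ_ℓ^k⟩ T_ℓ`, `g` = the anemic generators.) -/
theorem s59c_closure_restrict {t : Module.End R Y} (ht : t ∈ Subring.closure (Set.range T)) :
    ∃ hx : ∀ z ∈ Z, t z ∈ Z,
      t.restrict hx ∈ Algebra.adjoin R (Set.range fun j : J => (g j).restrict (hZg j)) ∧
      t ∈ Algebra.adjoin R (Set.range g) := by
  induction ht using Subring.closure_induction with
  | mem t ht =>
    obtain ⟨i, rfl⟩ := ht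
    obtain ⟨j₁, j₂, h12⟩ := hT i
    have hx : ∀ z ∈ Z, T i z ∈ Z := fun z hz => by
      rw [h12]; exact hZg j₁ _ (hZg j₂ z hz)
    refine ⟨hx, ?_, ?_⟩
    · have e : (T i).restrict hx = (g j₁).restrict (hZg j₁) * (g j₂).restrict (hZg j₂) := by
        refine LinearMap.ext fun z => Subtype.ext ?_
        show T i z = g j₁ (g j₂ z)
        rw [h12]; rfl
      rw [e]
      exact Subalgebra.mul_mem _ (Algebra.subset_adjoin ⟨_, rfl⟩) (Algebra.subset_adjoin ⟨_, rfl⟩)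
    · rw [h12]
      exact Subalgebra.mul_mem _ (Algebra.subset_adjoin ⟨_, rfl⟩) (Algebra.subset_adjoin ⟨_, rfl⟩)
  | zero =>
    refine ⟨fun z _ => Z.zero_mem, ?_, Subalgebra.zero_mem _⟩
    have e : (0 : Module.End R Y).restrict (p := Z) (q := Z) (fun z _ => Z.zero_mem) = 0 :=
      LinearMap.ext fun z => Subtype.ext rfl
    rw [e]
    exact Subalgebra.zero_mem _
  | one =>
    refine ⟨fun z hz => hz, ?_, Subalgebra.one_mem _⟩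
    have e : (1 : Module.End R Y).restrict (p := Z) (q := Z) (fun z hz => hz) = 1 :=
      LinearMap.ext fun z => Subtype.ext rfl
    rw [e]
    exact Subalgebra.one_mem _
  | add x y _ _ hx hy =>
    obtain ⟨hx1, hx2, hx3⟩ := hx
    obtain ⟨hy1, hy2, hy3⟩ := hy
    have hxy : ∀ z ∈ Z, (x + y) z ∈ Z := fun z hz => Z.add_mem (hx1 z hz) (hy1 z hz)
    refine ⟨hxy, ?_, Subalgebra.add_mem _ hx3 hy3⟩
    have e : (x + y).restrict hxy = x.restrict hx1 + y.restrict hy1 :=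
      LinearMap.ext fun z => Subtype.ext rfl
    rw [e]
    exact Subalgebra.add_mem _ hx2 hy2
  | neg x _ hx =>
    obtain ⟨hx1, hx2, hx3⟩ := hx
    have hnx : ∀ z ∈ Z, (-x) z ∈ Z := fun z hz => Z.neg_mem (hx1 z hz)
    refine ⟨hnx, ?_, Subalgebra.neg_mem _ hx3⟩
    have e : (-x).restrict hnx = -(x.restrict hx1) :=
      LinearMap.ext fun z => Subtype.ext rfl
    rw [e]
    exact Subalgebra.neg_mem _ hx2
  | mul x y _ _ hx hy =>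
    obtain ⟨hx1, hx2, hx3⟩ := hx
    obtain ⟨hy1, hy2, hy3⟩ := hy
    have hxy : ∀ z ∈ Z, (x * y) z ∈ Z := fun z hz => hx1 _ (hy1 z hz)
    refine ⟨hxy, ?_, Subalgebra.mul_mem _ hx3 hy3⟩
    have e : (x * y).restrict hxy = x.restrict hx1 * y.restrict hy1 :=
      LinearMap.ext fun z => Subtype.ext rfl
    rw [e]
    exact Subalgebra.mul_mem _ hx2 hy2

end ClosureRestrict

/-! ### Restriction to a stable submodule, as an algebra homomorphism -/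

section Stab

variable {R : Type*} [CommRing R] {Y : Type*} [AddCommGroup Y] [Module R Y] (Z : Submodule R Y)

/-- the endomorphisms of `Y` stabilising `Z`. -/
def s59c_stabZ : Subalgebra R (Module.End R Y) where
  carrier := {x | ∀ z ∈ Z, x z ∈ Z}
  mul_mem' := fun hx hy z hz => hx _ (hy z hz)
  one_mem' := fun z hz => hz
  add_mem' := fun hx hy z hz => Z.add_mem (hx z hz) (hy z hz)
  zero_mem' := fun z _ => Z.zero_mem
  algebraMap_mem' := fun r z hz => by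
    rw [Module.algebraMap_end_apply]
    exact Z.smul_mem r hz

theorem s59c_mem_stabZ {x : Module.End R Y} : x ∈ s59c_stabZ Z ↔ ∀ z ∈ Z, x z ∈ Z := Iff.rfl

/-- restriction to `Z` of the endomorphisms stabilising `Z`. -/
def s59c_restrZ : s59c_stabZ Z →ₐ[R] Module.End R Z where
  toFun x := (x : Module.End R Y).restrict (p := Z) (q := Z) x.2
  map_one' := LinearMap.ext fun z => Subtype.ext rfl
  map_mul' _ _ := LinearMap.ext fun z => Subtype.ext rfl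
  map_zero' := LinearMap.ext fun z => Subtype.ext rfl
  map_add' _ _ := LinearMap.ext fun z => Subtype.ext rfl
  commutes' _ := LinearMap.ext fun z => Subtype.ext rfl

theorem s59c_restrZ_coe (x : s59c_stabZ Z) (z : Z) :
    ((s59c_restrZ Z x z : Z) : Y) = (x : Module.End R Y) (z : Y) := rfl

end Stab


/-! ### The Hecke ring acting on a stable submodule -/

section AdjZ

variable {R : Type*} [CommRing R] {Y : Type*} [AddCommGroup Y] [Module R Y] (Z : Submodule R Y)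
  {A : Type*} [CommRing A] (a : A →+* Module.End R Y)

/-- the restriction to a stable `Z` of a ring homomorphism to `End Y`. -/
theorem s59c_exists_aZ (hZa : ∀ t, ∀ z ∈ Z, a t z ∈ Z) :
    ∃ aZ : A →+* Module.End R Z, ∀ t (z : Z), ((aZ t z : Z) : Y) = a t (z : Y) :=
  ⟨(s59c_restrZ Z).toRingHom.comp (a.codRestrict (s59c_stabZ Z) hZa), fun _ _ => rfl⟩

variable {Z a}

/-- `𝒪[aZ(A)]` lies in the algebra generated by the restricted generators. -/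
theorem s59c_adj_le_restr {J : Type*} (G : J → Module.End R Y) (hZG : ∀ j, ∀ z ∈ Z, G j z ∈ Z)
    (aZ : A →+* Module.End R Z) (haZ : ∀ t (z : Z), ((aZ t z : Z) : Y) = a t (z : Y))
    (hres : ∀ t, ∃ hx : ∀ z ∈ Z, a t z ∈ Z,
      (a t).restrict hx ∈ Algebra.adjoin R (Set.range fun j : J => (G j).restrict (hZG j)))
    (x : Module.End R Z) (hx : x ∈ s59e_adj R aZ) :
    x ∈ Algebra.adjoin R (Set.range fun j : J => (G j).restrict (hZG j)) := by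
  refine (Algebra.adjoin_le ?_ : s59e_adj R aZ ≤ _) hx
  rintro _ ⟨t, rfl⟩
  obtain ⟨hx', h⟩ := hres t
  have e : aZ t = (a t).restrict hx' := LinearMap.ext fun z => Subtype.ext (haZ t z)
  rw [SetLike.mem_coe, e]
  exact h

/-- every element of `𝒪[aZ(A)]` is induced by an element of the algebra generated by the `G j`. -/
theorem s59c_adj_lift {J : Type*} (G : J → Module.End R Y)
    (aZ : A →+* Module.End R Z) (haZ : ∀ t (z : Z), ((aZ t z : Z) : Y) = a t (z : Y))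
    (hmem : ∀ t, a t ∈ Algebra.adjoin R (Set.range G))
    (x : Module.End R Z) (hx : x ∈ s59e_adj R aZ) :
    ∃ t ∈ Algebra.adjoin R (Set.range G), ∀ z : Z, ((x z : Z) : Y) = t z := by
  unfold s59e_adj at hx
  induction hx using Algebra.adjoin_induction with
  | mem x hx =>
    obtain ⟨t, rfl⟩ := hx
    exact ⟨a t, hmem t, fun z => haZ t z⟩
  | algebraMap r =>
    refine ⟨algebraMap R _ r, Subalgebra.algebraMap_mem _ r, fun z => ?_⟩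
    rw [Module.algebraMap_end_apply, Module.algebraMap_end_apply]
    rfl
  | add x y _ _ hx hy =>
    obtain ⟨t₁, h₁, e₁⟩ := hx
    obtain ⟨t₂, h₂, e₂⟩ := hy
    refine ⟨t₁ + t₂, Subalgebra.add_mem _ h₁ h₂, fun z => ?_⟩
    rw [LinearMap.add_apply, LinearMap.add_apply, Submodule.coe_add, e₁, e₂]
  | mul x y _ _ hx hy =>
    obtain ⟨t₁, h₁, e₁⟩ := hx
    obtain ⟨t₂, h₂, e₂⟩ := hy
    refine ⟨t₁ * t₂, Subalgebra.mul_mem _ h₁ h₂, fun z => ?_⟩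
    rw [Module.End.mul_apply, Module.End.mul_apply, e₁, e₂]

end AdjZ

/-! ### The output shape on a submodule, and the abstract core -/

section OutZ

variable {p : ℕ} [Fact p.Prime] (M' : ℕ) [NeZero M'] [Fact (HasIntegralStructure M' 2)]
  (S : Finset ℕ)
  {𝒪 : Type} [CommRing 𝒪] [IsDomain 𝒪] [IsDiscreteValuationRing 𝒪]
  [IsAdicComplete (maximalIdeal 𝒪) 𝒪] [Finite (ResidueField 𝒪)] [CharZero 𝒪]
  {Y : Type} [AddCommGroup Y] [Module 𝒪 Y] [Module.Free 𝒪 Y] [Module.Finite 𝒪 Y]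

/-- **the output of the `p`-new (H3)** on a stable submodule `Z ≤ Y` (the shape of helper6's `s59q_H3Out`, with `Z` in the place of
`range ε`): the restriction `aZ` of `a` to `Z`, local scalarity of `T_Z = 𝒪[aZ(𝕋)]`, `aZ(T_ℓ) ≡ cT ℓ`, `θ : D.R ↠ T_Z` and the
Frobenius characteristic polynomials. -/
def s59c_H3OutZ (a : heckeAlgebra M' 2 (↑S : Set ℕ) →+* Module.End 𝒪 Y) (Z : Submodule 𝒪 Y)
    (cT : ℕ → 𝒪) {ρbar : ResidualGaloisRep (ResidueField 𝒪)}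
    {𝒟 : ∀ ⦃A : Type⦄ [CommRing A] [IsLocalRing A] [Algebra 𝒪 A], GaloisRepAdic A → Prop}
    (D : GaloisRep.DeformationRingData 𝒪 ρbar 𝒟) : Prop :=
  ∃ aZ : heckeAlgebra M' 2 (↑S : Set ℕ) →+* Module.End 𝒪 Z,
    (∀ t (z : Z), ((aZ t z : Z) : Y) = a t (z : Y)) ∧
    (∀ x ∈ s59e_adj 𝒪 aZ, ∃ d : 𝒪, s59e_IsLocScalar x d) ∧
    (∀ (ℓ : ℕ) (hℓ : ℓ.Prime) (hℓN : ¬ ℓ ∣ M') (hℓS : ℓ ∉ (↑S : Set ℕ)),
      s59e_IsLocScalar (aZ (heckeAlgebra.T hℓ hℓN hℓS)) (cT ℓ)) ∧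
    ∃ θ : D.R →ₐ[𝒪] s59e_adj 𝒪 aZ, Function.Surjective θ ∧
      ∀ ℓ : ℕ, ℓ.Prime → ℓ ∉ S →
        ∀ A : ValuationSubring Qbar, A.LiesOverPrime ℓ →
        ∀ τ : GQ, A.IsFrobeniusAt τ ℓ →
          (LinearMap.charpoly (D.ρ.ρ τ)).map (θ : D.R →+* s59e_adj 𝒪 aZ) =
            X ^ 2 - C (s59q_tT M' S aZ ℓ) * X + C ((ℓ : s59e_adj 𝒪 aZ))

variable {M' S}

/-- **the `p`-new (H3) on a stable saturated submodule, abstract core**: (A3) + `s59m_H3new_abs`. -/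
theorem s59c_H3_pnew_abs (hp2 : p ≠ 2) (hp𝒪 : (p : 𝒪) ∈ maximalIdeal 𝒪) (hpS : p ∈ S)
    (hS : ∀ q : ℕ, q.Prime → q ∣ M' → q ∈ S)
    (a : heckeAlgebra M' 2 (↑S : Set ℕ) →+* Module.End 𝒪 Y)
    (ε : Module.End 𝒪 Y) (hε : ε * ε = ε)
    {J : Type*} (g : J → Module.End 𝒪 Y) (hgg : ∀ i j, g i * g j = g j * g i)
    (hεg : ∀ j, ε * g j = g j * ε) (c : J → 𝒪)
    (hnil : ∀ j, ∃ k : ℕ, ∀ z, ((g j - c j • 1) ^ k) (ε z) ∈
      maximalIdeal 𝒪 • (⊤ : Submodule 𝒪 Y))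
    (cT : ℕ → 𝒪)
    (ha : ∀ (ℓ : ℕ) (hℓ : ℓ.Prime) (hℓN : ¬ ℓ ∣ M') (hℓS : ℓ ∉ (↑S : Set ℕ)),
      ∃ j₁ j₂ : J, a (heckeAlgebra.T hℓ hℓN hℓS) = g j₁ * g j₂ ∧ cT ℓ = c j₁ * c j₂)
    (Z : Submodule 𝒪 Y) (hZ0 : Z ≠ ⊥) (hZε : ∀ z ∈ Z, ε z = z) (hZg : ∀ j, ∀ z ∈ Z, g j z ∈ Z)
    (hsat : ∀ (c : 𝒪) (y : Y), c ≠ 0 → c • y ∈ Z → y ∈ Z)
    (hZa : ∀ t, ∀ z ∈ Z, a t z ∈ Z)
    (ρbar : ResidualGaloisRep (ResidueField 𝒪))
    (hEig : ∀ (ℓ : ℕ) (_ : ℓ.Prime) (_ : ¬ ℓ ∣ M') (_ : ℓ ∉ S),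
      ∀ A : ValuationSubring Qbar, A.LiesOverPrime ℓ → ∀ σ : GQ, A.IsFrobeniusAt σ ℓ →
        LinearMap.charpoly (ρbar.ρ σ) = X ^ 2 - C (residue 𝒪 (cT ℓ)) * X +
          C ((ℓ : ResidueField 𝒪)))
    {𝒟 : ∀ ⦃A : Type⦄ [CommRing A] [IsLocalRing A] [Algebra 𝒪 A], GaloisRepAdic A → Prop}
    (D : GaloisRep.DeformationRingData 𝒪 ρbar 𝒟)
    (h𝒟 : ∀ (aZ : heckeAlgebra M' 2 (↑S : Set ℕ) →+* Module.End 𝒪 Z),
      (∀ t (z : Z), ((aZ t z : Z) : Y) = a t (z : Y)) →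
      ∀ [IsLocalRing (s59e_adj 𝒪 aZ)]
      (θ : heckeAlgebra M' 2 (↑S : Set ℕ) →+* ResidueField 𝒪)
      (Hd : HeckeGaloisRepDatum M' (↑S : Set ℕ) 𝒪 θ (heckeLocal M' (↑S : Set ℕ) 𝒪 θ))
      (Ψ : heckeLocal M' (↑S : Set ℕ) 𝒪 θ →ₐ[𝒪] s59e_adj 𝒪 aZ)
      (hΨ : IsLocalHom (Ψ : heckeLocal M' (↑S : Set ℕ) 𝒪 θ →+* s59e_adj 𝒪 aZ)),
      Hd.π = heckeLocal.π M' (↑S : Set ℕ) 𝒪 θ →
      Hd.ρ.residual.IsEquiv (ρbar.baseChangeAlong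
        (ResidueField.map (algebraMap 𝒪 (heckeLocal M' (↑S : Set ℕ) 𝒪 θ)))) →
      Function.Surjective Ψ →
      (∀ t, Ψ (heckeLocal.π M' (↑S : Set ℕ) 𝒪 θ t) = s59e_adjHom 𝒪 aZ t) →
      𝒟 (Hd.ρ.baseChangeAlong (Ψ : heckeLocal M' (↑S : Set ℕ) 𝒪 θ →+* s59e_adj 𝒪 aZ) hΨ)) :
    s59c_H3OutZ M' S a Z cT D := by
  classical
  obtain ⟨aZ, haZ⟩ := s59c_exists_aZ Z a hZa
  obtain ⟨hloc, hTloc⟩ := s59b_restr_hloc_sat M' S hS a ε hε g hgg hεg c hnil cT ha Z hZε hZg hsat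
    aZ haZ
  haveI : Nontrivial Z := (Submodule.nontrivial_iff_ne_bot).mpr hZ0
  have hconcl := s59m_H3new_abs M' S hp2 hp𝒪 hpS hS aZ hloc cT hTloc ρbar hEig D
    (fun θ Hd Ψ hΨ => h𝒟 aZ haZ θ Hd Ψ hΨ)
  obtain ⟨hlr, hlh, θ₀, Hd, Ψ, hΨ, φ, hφ, hπ, hθres, hθT, hΨs, hΨa, hφs, hequiv, hcp⟩ := hconcl
  refine ⟨aZ, haZ, hloc, hTloc, φ, hφs, ?_⟩
  intro ℓ hℓ hℓS A hA τ hτ
  have hℓS' : ℓ ∉ (↑S : Set ℕ) := hℓS
  have hℓN : ¬ ℓ ∣ M' := fun h => hℓS (hS ℓ hℓ h)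
  rw [s59q_tT_eq M' S aZ hℓ hℓN hℓS', ← s59e_bc_charpoly (hφ := hφ)]
  exact hcp ℓ hℓ hℓN hℓS' A hA τ hτ

end OutZ

/-! ### The concrete `p`-new (H3) -/

set_option maxSynthPendingDepth 3

section H3PNew

variable {p : ℕ} [hp : Fact p.Prime]
  {𝒪 : Type} [CommRing 𝒪] [IsDomain 𝒪] [IsDiscreteValuationRing 𝒪]
  [IsAdicComplete (maximalIdeal 𝒪) 𝒪] [Finite (ResidueField 𝒪)] [CharZero 𝒪] [Algebra ℤ_[p] 𝒪]
  {N : ℕ} {B Bd : Finset ℕ} {ρbar : ResidualGaloisRep (ResidueField 𝒪)}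
  (Rd : s59i_RData p N ρbar B Bd) (a : ℕ → ℤ)

/-- **the concrete `p`-new (H3)** — see the header. -/
theorem s59c_H3_pnew (hp2 : p ≠ 2) (hp𝒪 : (p : 𝒪) ∈ maximalIdeal 𝒪)
    (hord : (GaloisRepAdic.ofResidualGaloisRep ρbar).IsOrdinaryAt p)
    -- the level `Γ_{H'}(L p)`
    (N₁ : ℕ) [NeZero N₁] (Q : Finset ℕ) (hQ : ∀ q ∈ Q, q.Prime ∧ ¬ q ∣ N₁ * p)
    {L : ℕ} [NeZero L] (hL : L = N₁ * ∏ q ∈ Q, q) (hpL : ¬ p ∣ L)
    (H : Subgroup (ZMod L)ˣ) (hD₁ : (∏ q ∈ Q, q) ∣ L)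
    (hHker : s59u_ker L (∏ q ∈ Q, q) hD₁ ≤ H)
    [NeZero (L * p)] (H' : Subgroup (ZMod (L * p))ˣ)
    (hH' : ∀ u : (ZMod (L * p))ˣ, u ∈ H' ↔ ZMod.unitsMap (dvd_mul_right L p) u ∈ H)
    (e : ℕ) (hn : ∀ u : (ZMod (L * p))ˣ, u ^ (p ^ e) ∈ H')
    -- the `Γ₀`-level `M' p`
    (M' : ℕ) [NeZero M'] [NeZero (M' * p)] [Fact (HasIntegralStructure (M' * p) 2)]
    (hM' : M' = N₁ * (∏ q ∈ Q, q) * ∏ q ∈ Q, q) (hgood : s18_GoodLevel p M')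
    (S : Finset ℕ) (hpS : p ∈ S) (hBS : B ⊆ S)
    (hS : ∀ q : ℕ, q.Prime → q ∣ M' * p → q ∈ S)
    (hN₀ : Squarefree (N₁ * p)) (hN₀N : N₁ * p ∣ N)
    (Xs : Finset ℕ) (hX : ∀ q ∈ Xs, q.Prime ∧ q ∉ B) (hQX : ∀ q ∈ Q, q ∈ Bd ∨ q ∈ Xs)
    -- the idempotent
    (ε : Module.End 𝒪 (s48h_Hpar 𝒪 (s48h_GammaH (L * p) H') 𝒪)) (hε : ε * ε = ε)
    (hεc : ∀ x, ε * s59w_op H' 𝒪 x = s59w_op H' 𝒪 x * ε)
    (hnil : ∀ x ∈ s59t_goodB (L * p) B, ∃ k : ℕ,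
      ∀ y : s48h_Hpar 𝒪 (s48h_GammaH (L * p) H') 𝒪,
      ((s59w_op H' 𝒪 x - s59t_cB (𝒪 := 𝒪) (L * p) a x •
        (1 : Module.End 𝒪 (s48h_Hpar 𝒪 (s48h_GammaH (L * p) H') 𝒪))) ^ k) (ε y) ∈
        (maximalIdeal 𝒪 • ⊤ : Submodule 𝒪 (s48h_Hpar 𝒪 (s48h_GammaH (L * p) H') 𝒪)))
    (hEig : ∀ ℓ : ℕ, ℓ.Prime → ℓ ∉ S → ∀ A : ValuationSubring Qbar, A.LiesOverPrime ℓ →
      ∀ σ : GQ, A.IsFrobeniusAt σ ℓ →
        LinearMap.charpoly (ρbar.ρ σ) = X ^ 2 - C (residue 𝒪 ((a ℓ : ℤ) : 𝒪)) * X +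
          C ((ℓ : ResidueField 𝒪)))
    -- the kernel-new submodule
    (Z : Submodule 𝒪 (s48h_Hpar 𝒪 (s48h_GammaH (L * p) H') 𝒪)) (hZ0 : Z ≠ ⊥)
    (hZε : ∀ z ∈ Z, ε z = z) (hZop : ∀ x, ∀ z ∈ Z, s59w_op H' 𝒪 x z ∈ Z)
    (hZsat : ∀ (c : 𝒪) (y : s48h_Hpar 𝒪 (s48h_GammaH (L * p) H') 𝒪), c ≠ 0 → c • y ∈ Z → y ∈ Z)
    (hnewA : ∀ z ∈ Z, s59f_corH hpL (s59f_isG_GammaH L H)
      (s59f_isG'_GammaH hpL rfl (dvd_mul_right L p) hH') 𝒪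
      ((z : s48h_Hpar 𝒪 (s48h_GammaH (L * p) H') 𝒪) :
        Additive (s48h_GammaH (L * p) H') →+ 𝒪) = 0)
    (hnewB : ∀ z ∈ Z, s59f_corH hpL (s59f_isG_GammaH L H)
      (s59f_isG'_GammaH hpL rfl (dvd_mul_right L p) hH') 𝒪
      (s59f_wH hpL (s59f_isG'_GammaH hpL rfl (dvd_mul_right L p) hH') 𝒪
        ((z : s48h_Hpar 𝒪 (s48h_GammaH (L * p) H') 𝒪) :
          Additive (s48h_GammaH (L * p) H') →+ 𝒪)) = 0)
    (DQ : GaloisRep.DeformationRingData 𝒪 ρbar (fun _A _ _ _ ρ =>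
      GaloisRep.strictOrdinaryCondition 𝒪 p (Rd.Smin ∪ (Bd ∪ Rd.Ed) ∪ Xs) ρ ∧
        ∀ q ∈ Rd.Smin, q.Prime → q ≠ p → ρ.IsUnipotentOnInertiaAt q)) :
    ∃ a₀ : heckeAlgebra (M' * p) 2 (↑S : Set ℕ) →+*
        Module.End 𝒪 (s48h_Hpar 𝒪 (s48h_GammaH (L * p) H') 𝒪),
      (∀ (ℓ : ℕ) (hℓ : ℓ.Prime) (hℓN : ¬ ℓ ∣ M' * p) (hℓS : ℓ ∉ (↑S : Set ℕ))
        (i : s59w_TIdx (L * p)), i.ell = ℓ → a₀ (heckeAlgebra.T hℓ hℓN hℓS) =
          s59e_Tp' H' 𝒪 ((p ^ e - 1) * ((p ^ e + 1) / 2)) i) ∧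
      (∀ t, a₀ t ∈
        Subring.closure (Set.range (s59e_Tp' H' 𝒪 ((p ^ e - 1) * ((p ^ e + 1) / 2))))) ∧
      s59c_H3OutZ (M' * p) S a₀ Z (fun ℓ => ((a ℓ : ℤ) : 𝒪)) DQ := by
  classical
  have hpP : p.Prime := hp.out
  have hpodd : Odd (p ^ e) := (hpP.odd_of_ne_two hp2).pow
  have hnm : 2 * ((p ^ e + 1) / 2) = p ^ e + 1 := by
    obtain ⟨k, hk⟩ := hpodd
    omega
  have hHp : ∀ u : (ZMod (L * p))ˣ, ∃ k : ℕ, u ^ (p ^ k) ∈ H' := fun u => ⟨e, hn u⟩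
  haveI : NeZero (N₁ * p) := ⟨Nat.mul_ne_zero (NeZero.ne N₁) hpP.ne_zero⟩
  -- the level identities
  have hM : L * p = (N₁ * p) * ∏ q ∈ Q, q := by rw [hL]; ring
  have hD : (∏ q ∈ Q, q) ∣ L * p := hD₁.mul_right p
  have hH : s59u_ker (L * p) (∏ q ∈ Q, q) hD ≤ H' := by
    intro u hu
    rw [hH']
    apply hHker
    show ZMod.unitsMap hD₁ (ZMod.unitsMap (dvd_mul_right L p) u) = 1
    rw [← MonoidHom.comp_apply, ZMod.unitsMap_comp]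
    exact hu
  have hM'' : M' * p = (N₁ * p) * ∏ q ∈ Q, q ^ 2 := by
    rw [hM', Finset.prod_pow]; ring
  have hMM' : L * p ∣ M' * p := by
    rw [hM', hL]
    exact Nat.mul_dvd_mul_right (Dvd.intro _ rfl) p
  have hMS : ∀ q : ℕ, q.Prime → q ∣ L * p → q ∈ S := fun q hq h => hS q hq (dvd_trans h hMM')
  have hidx : ∀ ℓ : ℕ, ℓ.Prime → ¬ ℓ ∣ M' * p → ∃ i : s59w_TIdx (L * p), i.ell = ℓ :=
    fun ℓ hℓ hℓN => s59e_exists_TIdx (M := L * p) hℓ (fun h => hℓN (dvd_trans h hMM'))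
  -- `a₀`
  let b := Module.Free.chooseBasis ℤ (s48h_M (s48h_GammaH (L * p) H'))
  obtain ⟨a₀, ha1, ha2⟩ := s59e_REL (N₁ * p) Q H' b (M' * p) (↑S : Set ℕ) s59w_petSS hQ hM rfl hD hH
    hnm hn hM'' hS (s59u_cB b 𝒪) (s59u_cB_coe b 𝒪)
  refine ⟨a₀, ha1, ha2, ?_⟩
  haveI : Module.Free 𝒪 (s48h_Hpar 𝒪 (s48h_GammaH (L * p) H') 𝒪) :=
    Module.Free.of_basis (s59u_cB b 𝒪)
  haveI : Module.Finite 𝒪 (s48h_Hpar 𝒪 (s48h_GammaH (L * p) H') 𝒪) :=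
    Module.Finite.of_basis (s59u_cB b 𝒪)
  -- the anemic family
  have hεc' : ∀ j, s59e_Anemic S j → ε * s59w_op H' 𝒪 j = s59w_op H' 𝒪 j * ε := fun j _ => hεc j
  have hnil' : ∀ j, s59e_Anemic S j → ∃ k : ℕ, ∀ z,
      ((s59w_op H' 𝒪 j - s59t_cB (𝒪 := 𝒪) (L * p) a j • 1) ^ k) (ε z) ∈
        maximalIdeal 𝒪 • (⊤ : Submodule 𝒪 (s48h_Hpar 𝒪 (s48h_GammaH (L * p) H') 𝒪)) := by
    intro j hj
    rcases j with i | τ
    · have hiS : i.ell ∉ S := (s59e_anemic_inl_iff S i).mp hj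
      exact hnil _ (s59t_inl_mem_goodB B i (fun h => hiS (hBS h)))
    · exact s59t_topNil_dia p H' hp𝒪 hHp ε τ
  -- stability of `Z` under `a₀`
  have hcl : ∀ t, ∃ hx : ∀ z ∈ Z, a₀ t z ∈ Z,
      (a₀ t).restrict hx ∈ Algebra.adjoin 𝒪
        (Set.range fun j : s59w_AIdx (L * p) => (s59w_op H' 𝒪 j).restrict (hZop j)) ∧
      a₀ t ∈ Algebra.adjoin 𝒪 (Set.range (s59w_op H' 𝒪)) := fun t =>
    s59c_closure_restrict Z (s59w_op H' 𝒪) hZop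
      (s59e_Tp' H' 𝒪 ((p ^ e - 1) * ((p ^ e + 1) / 2))) (fun i => ⟨_, _, rfl⟩) (ha2 t)
  have hZa : ∀ t, ∀ z ∈ Z, a₀ t z ∈ Z := fun t => (hcl t).fst
  have h𝒟 : ∀ (aZ : heckeAlgebra (M' * p) 2 (↑S : Set ℕ) →+* Module.End 𝒪 Z),
      (∀ t (z : Z), ((aZ t z : Z) : s48h_Hpar 𝒪 (s48h_GammaH (L * p) H') 𝒪) = a₀ t (z : _)) →
      ∀ [IsLocalRing (s59e_adj 𝒪 aZ)]
      (θ : heckeAlgebra (M' * p) 2 (↑S : Set ℕ) →+* ResidueField 𝒪)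
      (Hd : HeckeGaloisRepDatum (M' * p) (↑S : Set ℕ) 𝒪 θ (heckeLocal (M' * p) (↑S : Set ℕ) 𝒪 θ))
      (Ψ : heckeLocal (M' * p) (↑S : Set ℕ) 𝒪 θ →ₐ[𝒪] s59e_adj 𝒪 aZ)
      (hΨ : IsLocalHom (Ψ : heckeLocal (M' * p) (↑S : Set ℕ) 𝒪 θ →+* s59e_adj 𝒪 aZ)),
      Hd.π = heckeLocal.π (M' * p) (↑S : Set ℕ) 𝒪 θ →
      Hd.ρ.residual.IsEquiv (ρbar.baseChangeAlong
        (ResidueField.map (algebraMap 𝒪 (heckeLocal (M' * p) (↑S : Set ℕ) 𝒪 θ)))) →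
      Function.Surjective Ψ →
      (∀ t, Ψ (heckeLocal.π (M' * p) (↑S : Set ℕ) 𝒪 θ t) = s59e_adjHom 𝒪 aZ t) →
      (GaloisRep.strictOrdinaryCondition 𝒪 p (Rd.Smin ∪ (Bd ∪ Rd.Ed) ∪ Xs)
          (Hd.ρ.baseChangeAlong
            (Ψ : heckeLocal (M' * p) (↑S : Set ℕ) 𝒪 θ →+* s59e_adj 𝒪 aZ) hΨ) ∧
        ∀ q ∈ Rd.Smin, q.Prime → q ≠ p →
          (Hd.ρ.baseChangeAlong
            (Ψ : heckeLocal (M' * p) (↑S : Set ℕ) 𝒪 θ →+* s59e_adj 𝒪 aZ)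
              hΨ).IsUnipotentOnInertiaAt q) := by
    intro aZ haZ _ θ Hd Ψ hΨ hπ hres hΨs hΨa
    have hnonp := @s59c_hD_nonp_RData p _ N 𝒪 _ _ _ _ _ _ ρbar B Bd Rd hp𝒪 Xs hX (M' * p) _
      S hpS hS (N₁ * p) Q hM'' hN₀ hN₀N hQX θ (heckeLocal (M' * p) (↑S : Set ℕ) 𝒪 θ)
      _ _ _ _ _ _ _ _ Hd hres
    have h1 := hnonp.1
    have h2 := hnonp.2.1
    have h3 := hnonp.2.2
    refine ⟨⟨Fermat.Agent.Lib.S56.s56a_detIsCyclotomic_baseChange _ hΨ Hd.ρ h1, ?_, fun q hq hqS =>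
      Fermat.Agent.Lib.S56.s56a_isUnramifiedAt_baseChange _ hΨ Hd.ρ (h2 q hq hqS)⟩, fun q hqS hq hqp =>
      Fermat.Agent.Lib.S56.s56a_isUnipotentOnInertiaAt_baseChange _ hΨ Hd.ρ (h3 q hqS hq hqp)⟩
    -- the strict clause
    haveI : NeZero p := ⟨hpP.ne_zero⟩
    have hred : IsReduced (s59e_adj 𝒪 aZ) :=
      s59b_isReduced_of_anemic (N₁ * p) Q H' b (s59u_cB b 𝒪) (s59u_cB_coe b 𝒪)
        (algebraMap 𝒪 (FractionRing 𝒪)) (IsFractionRing.injective 𝒪 (FractionRing 𝒪)) hQ hM rfl hD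
        hH hnm hn Z (s59e_adj 𝒪 aZ)
        (fun x hx => s59c_adj_lift (s59w_op H' 𝒪) aZ haZ (fun t => (hcl t).snd.2) x hx)
    have hjTg : ∀ t : s59e_adj 𝒪 aZ, (s59e_adj 𝒪 aZ).val t ∈ Algebra.adjoin 𝒪
        (Set.range fun j : s59w_AIdx (L * p) => (s59w_op H' 𝒪 j).restrict (hZop j)) := fun t =>
      s59c_adj_le_restr (s59w_op H' 𝒪) hZop aZ haZ (fun t => ⟨(hcl t).fst, (hcl t).snd.1⟩) t.1 t.2
    have hq : ∀ (ℓ : ℕ) (hℓ : ℓ.Prime) (hℓN : ¬ ℓ ∣ M' * p) (hℓS : ℓ ∉ (↑S : Set ℕ))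
        (i : s59w_TIdx (L * p)), i.ell = ℓ →
        (s59e_adj 𝒪 aZ).val (Ψ (Hd.π (heckeAlgebra.T hℓ hℓN hℓS))) =
          (s59w_op H' 𝒪 (Sum.inr (s59e_tau i ((p ^ e - 1) * ((p ^ e + 1) / 2))))).restrict
              (hZop _) *
            (s59w_op H' 𝒪 (Sum.inl i)).restrict (hZop _) := by
      intro ℓ hℓ hℓN hℓS i hi
      rw [hπ, hΨa]
      refine LinearMap.ext fun z => Subtype.ext ?_
      show ((aZ (heckeAlgebra.T hℓ hℓN hℓS) z : Z) :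
        s48h_Hpar 𝒪 (s48h_GammaH (L * p) H') 𝒪) = _
      rw [haZ, ha1 ℓ hℓ hℓN hℓS i hi]
      rfl
    have hp2M : ¬ p ^ 2 ∣ M' * p := fun h =>
      hgood.1 ((Nat.mul_dvd_mul_iff_right hpP.pos).mp (by rwa [pow_two] at h))
    have hord' : (GaloisRepAdic.ofResidualGaloisRep (Hd.ρ.baseChangeAlong
        (Ψ : heckeLocal (M' * p) (↑S : Set ℕ) 𝒪 θ →+* s59e_adj 𝒪 aZ) hΨ).residual).IsOrdinaryAt
        p := by
      obtain ⟨e'⟩ := hres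
      have h4 : (GaloisRepAdic.ofResidualGaloisRep Hd.ρ.residual).IsOrdinaryAt p :=
        s59q_resOrd_of_equiv e'.symm p (s59q_resOrd_baseChange _ ρbar p hord)
      have h5 : Hd.ρ.IsOrdinaryAt p :=
        Fermat.Agent.S33.result hpP hp2 hp𝒪 ⟨Dvd.intro_left M' rfl, hp2M⟩ hS Hd h4
      exact s59q_resOrd_of_ord _ p (s59e_bc_ord _ hΨ Hd.ρ p h5)
    exact s59m_STRICT_abs p N₁ Q hp2 hQ hL hpL H hD₁ hHker H' hH' hnm hn 𝒪 hp𝒪 S hpS hMS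
      (Z := ↥Z) Z.subtype Subtype.val_injective
      (fun j => (s59w_op H' 𝒪 j).restrict (hZop j)) (fun _ _ => rfl)
      (fun z => hnewA z.1 z.2) (fun z => hnewB z.1 z.2) M' hM' hgood hS Hd
      (s59e_adj 𝒪 aZ) (s59e_adj 𝒪 aZ).val Subtype.val_injective hjTg hred Ψ hΨ hq hord'
  exact s59c_H3_pnew_abs hp2 hp𝒪 hpS hS a₀ ε hε
    (J := {j : s59w_AIdx (L * p) // s59e_Anemic S j})
    (fun j => s59w_op H' 𝒪 j.1) (fun i j => s59w_op_comm H' 𝒪 i.1 j.1) (fun j => hεc' j.1 j.2)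
    (fun j => s59t_cB (𝒪 := 𝒪) (L * p) a j.1) (fun j => hnil' j.1 j.2)
    (fun ℓ => ((a ℓ : ℤ) : 𝒪))
    (fun ℓ hℓ hℓN hℓS => by
      obtain ⟨i, hi⟩ := hidx ℓ hℓ hℓN
      have hiS : i.ell ∉ S := by rw [hi]; exact hℓS
      refine ⟨⟨Sum.inr (s59e_tau i ((p ^ e - 1) * ((p ^ e + 1) / 2))), s59e_anemic_inr S _⟩,
        ⟨Sum.inl i, s59e_anemic_inl S i hiS⟩, ha1 ℓ hℓ hℓN hℓS i hi, ?_⟩
      show ((a ℓ : ℤ) : 𝒪) = (1 : 𝒪) * ((a i.ell : ℤ) : 𝒪)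
      rw [one_mul, hi])
    Z hZ0 hZε (fun j => hZop j.1) hZsat hZa ρbar
    (fun ℓ hℓ hℓN hℓS A hA σ hσ => hEig ℓ hℓ hℓS A hA σ hσ) DQ h𝒟


end H3PNew


end Fermat.Agent.Lib.S59
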