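/-
Programme R2 (S59), helper5 (prefix `s59e_aux`): **[E2-UNR] with `ℓ − 1` a unit only** (no hypothesis on `ℓ + 1`).

Over ANY local ring `T`: if `A ≡ 1 mod 𝔪_T`, `Φ A = A^ℓ Φ` with `Φ` invertible, `ℓ − 1 ∈ Tˣ` and
`(1+ℓ)² det Φ − ℓ (tr Φ)² ∈ Tˣ` (residually: `ℓ ≠ 1` and the eigenvalue ratio of `Φ̄` is not `ℓ^{±1}`), then `A = 1`.
For `ℓ ≡ −1` the second condition is `tr Φ̄ ≠ 0`; this is what the auxiliary prime `r ≡ 2 (mod 3)` at `p = 3` needs
(helper4's landed `s59i_unr_of_tame_ratio` assumes `ℓ² − 1 ∈ Tˣ`).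
Proof: `N := A − 1`, `I :=` the ideal of its entries; modulo `𝔪 I` one has `N² = 0`, `A^ℓ = 1 + ℓ N`, hence `Φ N = ℓ N Φ`
and `N = 0` by `s59i_unr_of_ratio`; so `I ≤ 𝔪 I` and `I = 0` by Nakayama.
-/
import Mathlib
import Fermat.Agent.Lib.S59.LInstU
import Fermat.Agent.Lib.S59.UE2Unr

set_option autoImplicit false
set_option linter.unusedSectionVars false
set_option linter.unusedVariables false

noncomputable section

namespace Fermat.Agent.Lib.S59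

open IsLocalRing Polynomial

/-- `(1 + x)^n = 1 + n x + x² c` in any ring. -/
theorem s59e_aux_one_add_pow {R : Type*} [Ring R] (x : R) (n : ℕ) :
    ∃ c : R, (1 + x) ^ n = 1 + (n : R) * x + x * x * c := by
  induction n with
  | zero => exact ⟨0, by simp⟩
  | succ n ih =>
    obtain ⟨c, hc⟩ := ih
    refine ⟨c + (n : R) + c * x, ?_⟩
    have h1 : (n : R) * (x * x) = x * (x * (n : R)) := by
      rw [(Nat.cast_commute n (x * x)).eq, mul_assoc]
    rw [pow_succ, hc]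
    push_cast
    noncomm_ring
    rw [h1]
    abel

section Main

variable {T : Type*} [CommRing T] [IsLocalRing T]

/-- **every lift is UNRAMIFIED at `ℓ ≢ 1` when the residual eigenvalue ratio of Frobenius is not `ℓ^{±1}`**:
`A ≡ 1 mod 𝔪`, `Φ A = A^ℓ Φ`, `Φ` invertible, `ℓ − 1` and `(1+ℓ)² det Φ − ℓ (tr Φ)²` units ⇒ `A = 1`. -/
theorem s59e_aux_unr_of_tame_ratio (A Φ Φ' : Matrix (Fin 2) (Fin 2) T) (hΦ : Φ' * Φ = 1) (ℓ : ℕ)
    (hℓ : IsUnit ((ℓ : T) - 1)) (ht : Φ * A = A ^ ℓ * Φ)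
    (hres : ∀ i j, (A - 1) i j ∈ maximalIdeal T)
    (hratio : IsUnit ((1 + (ℓ : T)) ^ 2 * Φ.det - (ℓ : T) * Φ.trace ^ 2)) : A = 1 := by
  classical
  set N : Matrix (Fin 2) (Fin 2) T := A - 1 with hN
  -- the ideal of the entries
  set I : Ideal T := Ideal.span (Set.range fun ij : Fin 2 × Fin 2 => N ij.1 ij.2) with hI
  have hNI : ∀ i j, N i j ∈ I := fun i j => Ideal.subset_span ⟨(i, j), rfl⟩
  have hIm : I ≤ maximalIdeal T := by
    rw [hI, Ideal.span_le]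
    rintro _ ⟨ij, rfl⟩
    exact hres ij.1 ij.2
  have hIfg : I.FG := ⟨(Finset.univ.image fun ij : Fin 2 × Fin 2 => N ij.1 ij.2), by
    rw [hI]; congr 1; ext x; simp⟩
  set J : Ideal T := maximalIdeal T * I with hJ
  -- the quotient
  let f : T →+* T ⧸ J := Ideal.Quotient.mk J
  have hfN2 : f.mapMatrix N * f.mapMatrix N = 0 := by
    rw [← map_mul]
    ext i j
    rw [RingHom.mapMatrix_apply, Matrix.map_apply, Matrix.zero_apply]
    show Ideal.Quotient.mk J _ = 0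
    rw [Ideal.Quotient.eq_zero_iff_mem, Matrix.mul_apply]
    refine Ideal.sum_mem _ fun k _ => ?_
    exact Ideal.mul_mem_mul (hIm (hNI i k)) (hNI k j)
  have hA : A = 1 + N := by rw [hN]; abel
  obtain ⟨c, hc⟩ := s59e_aux_one_add_pow N ℓ
  have hfA : f.mapMatrix (A ^ ℓ) = 1 + (ℓ : T ⧸ J) • f.mapMatrix N := by
    rw [hA, hc, map_add, map_add, map_one, map_mul, map_mul, map_mul, hfN2, zero_mul, add_zero]
    congr 1
    rw [map_natCast, ← nsmul_eq_mul, Nat.cast_smul_eq_nsmul]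
  -- the tame relation modulo `J`
  have hrel : f.mapMatrix Φ * f.mapMatrix N = (ℓ : T ⧸ J) • (f.mapMatrix N * f.mapMatrix Φ) := by
    have h1 := congrArg f.mapMatrix ht
    rw [map_mul, map_mul, hfA, hA, map_add, map_one, mul_add, add_mul, mul_one, one_mul,
      Matrix.smul_mul] at h1
    exact add_left_cancel h1
  -- the unit
  have hdΦ : IsUnit Φ.det := by
    have := congrArg Matrix.det hΦ
    rw [Matrix.det_mul, Matrix.det_one] at this
    exact IsUnit.of_mul_eq_one _ (by rw [mul_comm]; exact this)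
  have hℓ' : IsUnit (1 - (ℓ : T)) := by
    have : (1 - (ℓ : T)) = -((ℓ : T) - 1) := by ring
    rw [this]
    exact hℓ.neg
  have hu : IsUnit ((1 - (ℓ : T ⧸ J)) * (f.mapMatrix Φ).det *
      ((1 + (ℓ : T ⧸ J)) ^ 2 * (f.mapMatrix Φ).det - (ℓ : T ⧸ J) * (f.mapMatrix Φ).trace ^ 2)) := by
    have h1 : (f.mapMatrix Φ).det = f Φ.det := by
      rw [RingHom.mapMatrix_apply]
      exact (RingHom.map_det f Φ).symm
    have h2 : (f.mapMatrix Φ).trace = f Φ.trace := by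
      rw [RingHom.mapMatrix_apply]
      simp [Matrix.trace_fin_two]
    have h3 : ((1 - (ℓ : T)) * Φ.det * ((1 + (ℓ : T)) ^ 2 * Φ.det - (ℓ : T) * Φ.trace ^ 2)) = _ := rfl
    have h4 := ((hℓ'.mul hdΦ).mul hratio).map f
    rw [h1, h2]
    simpa using h4
  have hN0 := s59i_unr_of_ratio (f.mapMatrix Φ) (f.mapMatrix N) (ℓ : T ⧸ J) hrel hu
  -- back to `T`: `I ≤ 𝔪 I`
  have hle : I ≤ maximalIdeal T • I := by
    rw [hI, Ideal.span_le]
    rintro _ ⟨ij, rfl⟩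
    have := congrFun (congrFun hN0 ij.1) ij.2
    rw [RingHom.mapMatrix_apply, Matrix.map_apply, Matrix.zero_apply] at this
    exact Ideal.Quotient.eq_zero_iff_mem.mp this
  have hbot : I = ⊥ :=
    Submodule.eq_bot_of_le_smul_of_le_jacobson_bot (maximalIdeal T) I hIfg hle
      (IsLocalRing.maximalIdeal_le_jacobson ⊥)
  have hN0' : N = 0 := by
    ext i j
    have := hNI i j
    rw [hbot] at this
    simpa using this
  rw [hA, hN0', add_zero]

end Main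

/-! ### The Galois wrappers (`s59u_E2_unr*` of `UE2Unr.lean` with `q − 1 ∈ Aˣ` instead of `q² − 1 ∈ Aˣ`) -/

section Galois

open Fermat.Agent.Lib.S53 Fermat.Agent.Lib.Mz

local notation "Qbar" => AlgebraicClosure ℚ
local notation "GQ" => (AlgebraicClosure ℚ ≃ₐ[ℚ] AlgebraicClosure ℚ)

variable {A : Type} [CommRing A] [IsLocalRing A] [IsNoetherianRing A]

/-- **[E2-UNR′], one place, matrix form.** -/
theorem s59e_aux_E2_unr_matOf (ρ : GaloisRepAdic A) (bs : Module.Basis (Fin 2) A ρ.V) {p q : ℕ}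
    (hp : p.Prime) (hq : q.Prime) (hqp : q ≠ p) (hpA : (p : A) ∈ maximalIdeal A)
    (hq1 : IsUnit ((q : A) - 1))
    (P : ValuationSubring Qbar) (hP : P.LiesOverPrime q)
    (hres : ∀ τ ∈ P.inertiaSubgroupIn ℚ, ∀ v : ρ.V,
      ρ.ρ τ v - v ∈ maximalIdeal A • (⊤ : Submodule A ρ.V))
    (φ : GQ) (hφ : P.IsFrobeniusAt φ q)
    (hratio : IsUnit ((1 + (q : A)) ^ 2 * (matOf ρ bs φ).det - (q : A) * (matOf ρ bs φ).trace ^ 2))
    (τ : GQ) (hτ : τ ∈ P.inertiaSubgroupIn ℚ) : matOf ρ bs τ = 1 := by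
  have hΦ : matOf ρ bs φ⁻¹ * matOf ρ bs φ = 1 := by rw [← map_mul, inv_mul_cancel, map_one]
  exact s59e_aux_unr_of_tame_ratio (matOf ρ bs τ) (matOf ρ bs φ) (matOf ρ bs φ⁻¹) hΦ q hq1
    (s59u_tame_rel_matOf ρ bs hp hq hqp hpA P hP hres φ τ hφ hτ)
    (s59u_matOf_sub_one_mem ρ bs τ (hres τ hτ)) hratio

/-- **[E2-UNR′], one place** (basis-free). -/
theorem s59e_aux_E2_unr_at (ρ : GaloisRepAdic A) {p q : ℕ}
    (hp : p.Prime) (hq : q.Prime) (hqp : q ≠ p) (hpA : (p : A) ∈ maximalIdeal A)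
    (hq1 : IsUnit ((q : A) - 1))
    (P : ValuationSubring Qbar) (hP : P.LiesOverPrime q)
    (hres : ∀ τ ∈ P.inertiaSubgroupIn ℚ, ∀ v : ρ.V,
      ρ.ρ τ v - v ∈ maximalIdeal A • (⊤ : Submodule A ρ.V))
    (φ : GQ) (hφ : P.IsFrobeniusAt φ q)
    (hratio : IsUnit ((1 + (q : A)) ^ 2 * LinearMap.det (ρ.ρ φ) -
      (q : A) * LinearMap.trace A ρ.V (ρ.ρ φ) ^ 2))
    (τ : GQ) (hτ : τ ∈ P.inertiaSubgroupIn ℚ) : ρ.ρ τ = 1 := by
  have bs : Module.Basis (Fin 2) A ρ.V := Module.finBasisOfFinrankEq A ρ.V ρ.finrank_eq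
  refine s59u_eq_one_of_matOf ρ bs τ
    (s59e_aux_E2_unr_matOf ρ bs hp hq hqp hpA hq1 P hP hres φ hφ ?_ τ hτ)
  rw [matOf_apply, LinearMap.det_toMatrix, ← LinearMap.trace_eq_matrix_trace]
  exact hratio

/-- **[E2-UNR′]**: ONE place `P | q`, ONE Frobenius element `φ` at `P`; `q − 1` and
`(1+q)² det ρ(φ) − q (tr ρ(φ))²` units, `ρ̄` unramified at `q` ⇒ `ρ` unramified at `q`. -/
theorem s59e_aux_E2_unr (ρ : GaloisRepAdic A) {p q : ℕ}
    (hp : p.Prime) (hq : q.Prime) (hqp : q ≠ p) (hpA : (p : A) ∈ maximalIdeal A)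
    (hU : ρ.residual.IsUnramifiedAt q) (hq1 : IsUnit ((q : A) - 1))
    (P : ValuationSubring Qbar) (hP : P.LiesOverPrime q) (φ : GQ) (hφ : P.IsFrobeniusAt φ q)
    (hratio : IsUnit ((1 + (q : A)) ^ 2 * LinearMap.det (ρ.ρ φ) -
      (q : A) * LinearMap.trace A ρ.V (ρ.ρ φ) ^ 2)) :
    ρ.IsUnramifiedAt q := by
  intro P' hP' τ hτ
  obtain ⟨g, hg⟩ := ptm_inertia_conj hq P P' hP hP'
  have h1 := s59e_aux_E2_unr_at ρ hp hq hqp hpA hq1 P hP ((s59e_residual_unr_iff ρ q).mp hU P hP) φ hφ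
    hratio (g * τ * g⁻¹) (hg τ hτ)
  rw [map_mul, map_mul] at h1
  have h2 : ρ.ρ g⁻¹ * ρ.ρ g = 1 := by rw [← map_mul, inv_mul_cancel, map_one]
  have h3 : ρ.ρ g * ρ.ρ g⁻¹ = 1 := by rw [← map_mul, mul_inv_cancel, map_one]
  calc ρ.ρ τ = ρ.ρ g⁻¹ * (ρ.ρ g * ρ.ρ τ * ρ.ρ g⁻¹) * ρ.ρ g := by
        rw [mul_assoc (ρ.ρ g), ← mul_assoc (ρ.ρ g⁻¹), h2, one_mul, mul_assoc, h2, mul_one]
    _ = 1 := by rw [h1, mul_one, h2]

/-- **[E2-UNR′], charpoly-coefficient form**: `charpoly ρ(φ) = X² − t X + d` with `(1+q)² d − q t² ∈ Aˣ`. -/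
theorem s59e_aux_E2_unr_charpoly (ρ : GaloisRepAdic A) {p q : ℕ}
    (hp : p.Prime) (hq : q.Prime) (hqp : q ≠ p) (hpA : (p : A) ∈ maximalIdeal A)
    (hU : ρ.residual.IsUnramifiedAt q) (hq1 : IsUnit ((q : A) - 1))
    (P : ValuationSubring Qbar) (hP : P.LiesOverPrime q) (φ : GQ) (hφ : P.IsFrobeniusAt φ q)
    (t d : A) (hcp : LinearMap.charpoly (ρ.ρ φ) = X ^ 2 - C t * X + C d)
    (hratio : IsUnit ((1 + (q : A)) ^ 2 * d - (q : A) * t ^ 2)) :
    ρ.IsUnramifiedAt q := by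
  have h := s59u_charpoly_eq ρ φ
  rw [hcp] at h
  have ht : t = LinearMap.trace A ρ.V (ρ.ρ φ) := by
    have := congrArg (fun f : A[X] => f.coeff 1) h
    simp only [coeff_add, coeff_sub, coeff_X_pow, coeff_C_mul, coeff_X_one, coeff_C] at this
    simpa using this
  have hd : d = LinearMap.det (ρ.ρ φ) := by
    have := congrArg (fun f : A[X] => f.coeff 0) h
    simp only [coeff_add, coeff_sub, coeff_X_pow, coeff_C_mul, coeff_X_zero, coeff_C_zero] at this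
    simpa using this
  refine s59e_aux_E2_unr ρ hp hq hqp hpA hU hq1 P hP φ hφ ?_
  rw [← ht, ← hd]
  exact hratio

/-- **[E2-UNR′], hypothesis over ALL places and Frobenius elements.** -/
theorem s59e_aux_E2_unr_forall (ρ : GaloisRepAdic A) {p q : ℕ}
    (hp : p.Prime) (hq : q.Prime) (hqp : q ≠ p) (hpA : (p : A) ∈ maximalIdeal A)
    (hU : ρ.residual.IsUnramifiedAt q) (hq1 : IsUnit ((q : A) - 1))
    (t d : A) (hcp : ∀ P : ValuationSubring Qbar, P.LiesOverPrime q → ∀ φ : GQ, P.IsFrobeniusAt φ q →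
      LinearMap.charpoly (ρ.ρ φ) = X ^ 2 - C t * X + C d)
    (hratio : IsUnit ((1 + (q : A)) ^ 2 * d - (q : A) * t ^ 2)) :
    ρ.IsUnramifiedAt q := by
  obtain ⟨P, φ, hP, hφ⟩ := Fermat.Agent.Lib.Frobenius.exists_isFrobeniusAt q hq
  exact s59e_aux_E2_unr_charpoly ρ hp hq hqp hpA hU hq1 P hP φ hφ t d (hcp P hP φ hφ) hratio

end Galois

end Fermat.Agent.Lib.S59
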