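/-
Programme R2 (S59), p = 3 port (helper5), file 19: **THE (E2′) ALTERNATIVE (`q − 1 ≠ 0` INSTEAD OF `q² − 1 ≠ 0`) AND THE DECOUPLING OF THE LEVELS** — copy of the
sections `E2`, `Datum`, `HD`, `RData` of helper6's QFreyRE with
* `s59u_E2_unr` (needs `q² − 1 ∈ Tˣ`) replaced by `s59e_aux_E2_unr` (EAuxUnr; needs only `q − 1 ∈ Tˣ`) — at `(p, q) = (3, 2)` one has
  `q² − 1 = 0` in `k`, so the landed alternative of `s59i_RData.hNSg` is never available at `2`;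
* the hypothesis `N₀ ∣ N` (`N` = the level of `Rd : s59i_RData p N …`) replaced by
  `∀ q prime, q ∣ N₀ → q ∣ N ∨ s59e3q_E2Alt p ρ̄ q`: the `T`-side level may contain (E2′)-primes which the `R`-side datum does not see.
(prefix `s59e3q_`; generated from the original).
-/
import Fermat.Agent.Lib.S59.QFreyRE
import Fermat.Agent.Lib.S59.EAuxUnr

set_option autoImplicit false
set_option linter.style.haveILetI false
set_option linter.unusedSectionVars false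
set_option synthInstance.maxHeartbeats 400000
set_option maxHeartbeats 1600000

noncomputable section

namespace Fermat.Agent.Lib.S59

open IsLocalRing Polynomial CuspForm
open scoped TensorProduct

local notation "Qbar" => AlgebraicClosure ℚ
local notation "GQ" => (AlgebraicClosure ℚ ≃ₐ[ℚ] AlgebraicClosure ℚ)

section E2

variable {𝒪 T : Type} [CommRing 𝒪] [IsLocalRing 𝒪] [CommRing T] [IsLocalRing T]
  [IsNoetherianRing T] [Algebra 𝒪 T] [IsLocalHom (algebraMap 𝒪 T)]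

/-- **[E2-UNR] for a lift of `ρ̄`, residual form.** -/
theorem s59e3q_unram_E2_of_hres (ρ : GaloisRepAdic T) (ρbar : ResidualGaloisRep (ResidueField 𝒪))
    (hres : ρ.residual.IsEquiv (ρbar.baseChangeAlong (ResidueField.map (algebraMap 𝒪 T))))
    {p q : ℕ} (hp : p.Prime) (hq : q.Prime) (hqp : q ≠ p) (hp𝒪 : (p : 𝒪) ∈ maximalIdeal 𝒪)
    (hU : ρbar.IsUnramifiedAt q) (hq1 : (q : ResidueField 𝒪) - 1 ≠ 0)
    (A : ValuationSubring Qbar) (φ : GQ) (hA : A.LiesOverPrime q) (hφ : A.IsFrobeniusAt φ q)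
    (hratio : (1 + (q : ResidueField 𝒪)) ^ 2 * LinearMap.det (ρbar.ρ φ) -
      (q : ResidueField 𝒪) * LinearMap.trace (ResidueField 𝒪) ρbar.V (ρbar.ρ φ) ^ 2 ≠ 0) :
    ρ.IsUnramifiedAt q := by
  set f : ResidueField 𝒪 →+* ResidueField T := ResidueField.map (algebraMap 𝒪 T) with hf
  have hpT : (p : T) ∈ maximalIdeal T := by
    have := map_nonunit (algebraMap 𝒪 T) _ hp𝒪
    rwa [map_natCast] at this
  have hsymm : (ρbar.baseChangeAlong f).IsEquiv ρ.residual := by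
    obtain ⟨e⟩ := hres
    exact ⟨e.symm⟩
  have hU' : ρ.residual.IsUnramifiedAt q :=
    s59e_unram_of_res_isEquiv hsymm q (s59q_bcAlong_unram f ρbar q hU)
  have hdet : residue T (LinearMap.det (ρ.ρ φ)) = f (LinearMap.det (ρbar.ρ φ)) := by
    rw [← s59e_residual_det_eq, s59q_isEquiv_det hsymm, s59q_bcAlong_det]
  have htr : residue T (LinearMap.trace T ρ.V (ρ.ρ φ)) =
      f (LinearMap.trace (ResidueField 𝒪) ρbar.V (ρbar.ρ φ)) := by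
    rw [← s59e_residual_trace, s59q_isEquiv_trace hsymm, s59q_bcAlong_trace]
  refine s59e_aux_E2_unr ρ hp hq hqp hpT hU' ?_ A hA φ hφ ?_
  · apply (residue_ne_zero_iff_isUnit _).mp
    rw [map_sub, map_natCast, map_one]
    have h1 : ((q : ℕ) : ResidueField T) - 1 = f ((q : ResidueField 𝒪) - 1) := by
      rw [map_sub, map_natCast, map_one]
    rw [h1]
    exact (map_ne_zero_iff f f.injective).mpr hq1
  · apply (residue_ne_zero_iff_isUnit _).mp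
    rw [map_sub, map_mul, map_mul, map_pow, map_pow, map_add, map_one, map_natCast, hdet, htr]
    have h1 : (1 + ((q : ℕ) : ResidueField T)) ^ 2 * f (LinearMap.det (ρbar.ρ φ)) -
        ((q : ℕ) : ResidueField T) *
          f (LinearMap.trace (ResidueField 𝒪) ρbar.V (ρbar.ρ φ)) ^ 2 =
        f ((1 + (q : ResidueField 𝒪)) ^ 2 * LinearMap.det (ρbar.ρ φ) -
          (q : ResidueField 𝒪) * LinearMap.trace (ResidueField 𝒪) ρbar.V (ρbar.ρ φ) ^ 2) := by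
      rw [map_sub, map_mul, map_mul, map_pow, map_pow, map_add, map_one, map_natCast]
    rw [h1]
    exact (map_ne_zero_iff f f.injective).mpr hratio

end E2

/-- the (E2) alternative at a prime `q` (right alternative of `s59i_RData.hNSg`). -/
def s59e3q_E2Alt {𝒪 : Type} [CommRing 𝒪] [IsLocalRing 𝒪] (p : ℕ)
    (ρbar : ResidualGaloisRep (ResidueField 𝒪)) (q : ℕ) : Prop :=
  q ≠ p ∧ ρbar.IsUnramifiedAt q ∧ ((q : ResidueField 𝒪) - 1 ≠ 0) ∧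
    ∃ (A : ValuationSubring (AlgebraicClosure ℚ)) (φ : GQ), A.LiesOverPrime q ∧
      A.IsFrobeniusAt φ q ∧
      (1 + (q : ResidueField 𝒪)) ^ 2 * LinearMap.det (ρbar.ρ φ) -
        (q : ResidueField 𝒪) * LinearMap.trace (ResidueField 𝒪) ρbar.V (ρbar.ρ φ) ^ 2 ≠ 0

section Datum

variable {p : ℕ} [Fact p.Prime] {N : ℕ} [NeZero N] {S : Finset ℕ}
  {𝒪 : Type} [CommRing 𝒪] [IsDomain 𝒪] [IsDiscreteValuationRing 𝒪]
  [IsAdicComplete (maximalIdeal 𝒪) 𝒪]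
  {θ : heckeAlgebra N 2 (↑S : Set ℕ) →+* ResidueField 𝒪}
  {T : Type} [CommRing T] [IsLocalRing T] [IsNoetherianRing T]
  [IsAdicComplete (maximalIdeal T) T] [Algebra 𝒪 T] [IsLocalHom (algebraMap 𝒪 T)]
  [Module.Finite 𝒪 T] [Module.Free 𝒪 T]
  (H : HeckeGaloisRepDatum N (↑S : Set ℕ) 𝒪 θ T)

/-- **the flat deformation type of a Hecke–Galois datum, (E2)-form**: `s59e_hecke_flatType` with `hSg` weakened. -/
theorem s59e3q_hecke_flatType_E2 [Finite (ResidueField 𝒪)] [CharZero 𝒪] (hp2 : p ≠ 2)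
    (hp𝒪 : (p : 𝒪) ∈ maximalIdeal 𝒪) (hpN : ¬ p ∣ N) (hpS : p ∈ S)
    (hNS : ∀ q : ℕ, q.Prime → q ∣ N → q ∈ S)
    (ρbar : ResidualGaloisRep (ResidueField 𝒪))
    (hres : H.ρ.residual.IsEquiv (ρbar.baseChangeAlong (ResidueField.map (algebraMap 𝒪 T))))
    (Sg Smin : Finset ℕ) (hpSg : p ∈ Sg)
    (hSg : ∀ q : ℕ, q.Prime → q ∣ N → q ∈ Sg ∨ s59e3q_E2Alt p ρbar q)
    (hSmin : ∀ q ∈ Smin, q.Prime → q ≠ p → q ∣ N ∧ ¬ q ^ 2 ∣ N) :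
    GaloisRep.flatCondition 𝒪 p Sg H.ρ ∧
      ∀ q ∈ Smin, q.Prime → q ≠ p → H.ρ.IsUnipotentOnInertiaAt q := by
  refine ⟨⟨s59e_hecke_detCyc H hp𝒪 hNS,
    Fermat.Agent.S32.result (Fact.out : p.Prime) hp2 hp𝒪 hpN hpS hNS H, fun q hq hqSg => ?_⟩,
    fun q hqS hq hqp => ?_⟩
  · by_cases hqN : q ∣ N
    · rcases hSg q hq hqN with h | ⟨hqp, hU, hq1, A, φ, hA, hφ, hratio⟩
      · exact absurd h hqSg
      · exact s59e3q_unram_E2_of_hres H.ρ ρbar hres (Fact.out : p.Prime) hq hqp hp𝒪 hU hq1 A φ hA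
          hφ hratio
    · exact s59e_hecke_unram' H hp𝒪 hpS hNS q hq (fun h => hqSg (h ▸ hpSg)) hqN
  · obtain ⟨h1, h2⟩ := hSmin q hqS hq hqp
    exact s59e_hecke_unip H hp𝒪 hpS hNS q hq hqp h1 h2

end Datum

section HD

variable {p : ℕ} [Fact p.Prime] (M' : ℕ) [NeZero M'] (S : Finset ℕ)
  {𝒪 : Type} [CommRing 𝒪] [IsDomain 𝒪] [IsDiscreteValuationRing 𝒪]
  [IsAdicComplete (maximalIdeal 𝒪) 𝒪] [Finite (ResidueField 𝒪)] [CharZero 𝒪]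

/-- **`h𝒟` for the flat problem, (E2)-form**: `s59e_hD_flat` with `hSg` weakened, for ANY coefficient algebra `T`. -/
theorem s59e3q_hD_flat_E2 (hp2 : p ≠ 2) (hp𝒪 : (p : 𝒪) ∈ maximalIdeal 𝒪) (hpM' : ¬ p ∣ M')
    (hpS : p ∈ S) (hS : ∀ q : ℕ, q.Prime → q ∣ M' → q ∈ S)
    (ρbar : ResidualGaloisRep (ResidueField 𝒪))
    (N₀ : ℕ) (Q : Finset ℕ) (hM' : M' = N₀ * ∏ q ∈ Q, q ^ 2) (hN₀ : Squarefree N₀)
    (hQ : ∀ q ∈ Q, q.Prime ∧ ρbar.IsUnramifiedAt q)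
    (Sg Smin : Finset ℕ) (hpSg : p ∈ Sg)
    (hSg : ∀ q : ℕ, q.Prime → q ∣ M' → q ∈ Sg ∨ s59e3q_E2Alt p ρbar q)
    (hmin : ∀ q : ℕ, q.Prime → q ≠ p → (q ∈ Smin ↔ ¬ ρbar.IsUnramifiedAt q))
    {θ : heckeAlgebra M' 2 (↑S : Set ℕ) →+* ResidueField 𝒪}
    {T : Type} [CommRing T] [IsLocalRing T] [IsNoetherianRing T]
    [IsAdicComplete (maximalIdeal T) T] [Algebra 𝒪 T] [IsLocalHom (algebraMap 𝒪 T)]
    [Module.Finite 𝒪 T] [Module.Free 𝒪 T]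
    (Hd : HeckeGaloisRepDatum M' (↑S : Set ℕ) 𝒪 θ T)
    (hres : Hd.ρ.residual.IsEquiv (ρbar.baseChangeAlong (ResidueField.map (algebraMap 𝒪 T)))) :
    GaloisRep.flatCondition 𝒪 p Sg Hd.ρ ∧
      ∀ q ∈ Smin, q.Prime → q ≠ p → Hd.ρ.IsUnipotentOnInertiaAt q :=
  s59e3q_hecke_flatType_E2 Hd hp2 hp𝒪 hpM' hpS hS ρbar hres Sg Smin hpSg hSg
    (s59e_Smin_exact Hd hp𝒪 hpS hS ρbar hres N₀ Q hM' hN₀ hQ Smin hmin)

end HD

section RData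

variable {p : ℕ} [Fact p.Prime] {N : ℕ}
  {𝒪 : Type} [CommRing 𝒪] [IsDomain 𝒪] [IsDiscreteValuationRing 𝒪]
  [IsAdicComplete (maximalIdeal 𝒪) 𝒪] [Finite (ResidueField 𝒪)] [CharZero 𝒪]
  {ρbar : ResidualGaloisRep (ResidueField 𝒪)} {B Bd : Finset ℕ}
  (Rd : s59i_RData p N ρbar B Bd)

/-- the weakened `hSg` at a level `M' = N₀ ∏_{q ∈ Q} q²`, `N₀ ∣ N`, `Q ⊆ Bd ∪ X`, from `Rd.hNSg`. -/
theorem s59e3q_hSg_of_RData (X : Finset ℕ) (hX : ∀ q ∈ X, q.Prime) (M' N₀ : ℕ) (Q : Finset ℕ)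
    (hM' : M' = N₀ * ∏ q ∈ Q, q ^ 2)
    (hN₀N : ∀ q : ℕ, q.Prime → q ∣ N₀ → q ∣ N ∨ s59e3q_E2Alt p ρbar q) (hQ : ∀ q ∈ Q, q ∈ Bd ∨ q ∈ X) :
    ∀ q : ℕ, q.Prime → q ∣ M' → q ∈ Rd.Smin ∪ (Bd ∪ Rd.Ed) ∪ X ∨ s59e3q_E2Alt p ρbar q := by
  intro q hq hqM
  rw [hM'] at hqM
  rcases (Nat.Prime.dvd_mul hq).mp hqM with h | h
  · rcases hN₀N q hq h with hN | hE
    · rcases Rd.hNSg q hq hN with h1 | ⟨h1, h2, h3, h4⟩
      · exact Or.inl (Finset.mem_union_left _ h1)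
      · refine Or.inr ⟨h1, h2, fun h0 => h3 ?_, h4⟩
        have e : (q : ResidueField 𝒪) ^ 2 - 1 = ((q : ResidueField 𝒪) - 1) * ((q : ResidueField 𝒪) + 1) := by
          ring
        rw [e, h0, zero_mul]
    · exact Or.inr hE
  · obtain ⟨q', hq'Q, hqq'⟩ := (Prime.dvd_finset_prod_iff hq.prime _).mp h
    have hqq'' : q ∣ q' := hq.dvd_of_dvd_pow hqq'
    have hq'p : q'.Prime := by
      rcases hQ q' hq'Q with h1 | h1
      · exact Rd.hBprime q' h1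
      · exact hX q' h1
    have heq : q = q' := (Nat.prime_dvd_prime_iff_eq hq hq'p).mp hqq''
    left
    rcases hQ q' hq'Q with h1 | h1
    · exact Finset.mem_union_left _ (Finset.mem_union_right _ (Finset.mem_union_left _ (heq ▸ h1)))
    · exact Finset.mem_union_right _ (heq ▸ h1)

/-- **`h𝒟` for the data `Rd`**: every Hecke–Galois datum of level `M' = N₀ ∏_{q ∈ Q} q²` (`N₀ ∣ N` squarefree,
`Q ⊆ Bd ∪ X`, `X` a set of primes outside `B`) lifting `ρ̄` is of the flat type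
`Σ = Rd.Smin ∪ (Bd ∪ Rd.Ed) ∪ X` of `s59q_inst_flat`. -/
theorem s59e3q_hD_flat_RData (hp2 : p ≠ 2) (hp𝒪 : (p : 𝒪) ∈ maximalIdeal 𝒪)
    (X : Finset ℕ) (hX : ∀ q ∈ X, q.Prime ∧ q ∉ B)
    (M' : ℕ) [NeZero M'] (S : Finset ℕ) (hpM' : ¬ p ∣ M')
    (hpS : p ∈ S) (hS : ∀ q : ℕ, q.Prime → q ∣ M' → q ∈ S)
    (N₀ : ℕ) (Q : Finset ℕ) (hM' : M' = N₀ * ∏ q ∈ Q, q ^ 2) (hN₀ : Squarefree N₀)
    (hN₀N : ∀ q : ℕ, q.Prime → q ∣ N₀ → q ∣ N ∨ s59e3q_E2Alt p ρbar q)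
    (hQ : ∀ q ∈ Q, q ∈ Bd ∨ q ∈ X)
    {θ : heckeAlgebra M' 2 (↑S : Set ℕ) →+* ResidueField 𝒪}
    {T : Type} [CommRing T] [IsLocalRing T] [IsNoetherianRing T]
    [IsAdicComplete (maximalIdeal T) T] [Algebra 𝒪 T] [IsLocalHom (algebraMap 𝒪 T)]
    [Module.Finite 𝒪 T] [Module.Free 𝒪 T]
    (Hd : HeckeGaloisRepDatum M' (↑S : Set ℕ) 𝒪 θ T)
    (hres : Hd.ρ.residual.IsEquiv (ρbar.baseChangeAlong (ResidueField.map (algebraMap 𝒪 T)))) :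
    GaloisRep.flatCondition 𝒪 p (Rd.Smin ∪ (Bd ∪ Rd.Ed) ∪ X) Hd.ρ ∧
      ∀ q ∈ Rd.Smin, q.Prime → q ≠ p → Hd.ρ.IsUnipotentOnInertiaAt q := by
  have hXunr : ∀ q ∈ X, ρbar.IsUnramifiedAt q := by
    intro q hq
    have hqB : q ∉ B := (hX q hq).2
    have hqS : q ∉ Rd.Smin := fun h => hqB (Rd.hSmin h)
    have hqp : q ≠ p := fun h => hqS (h ▸ Rd.hpSmin)
    by_contra hram
    exact hqS ((Rd.hmin q (hX q hq).1 hqp).mpr hram)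
  refine s59e3q_hD_flat_E2 M' S hp2 hp𝒪 hpM' hpS hS ρbar N₀ Q hM' hN₀ ?_ _ Rd.Smin
    (Finset.mem_union_left _ (Finset.mem_union_left _ Rd.hpSmin))
    (s59e3q_hSg_of_RData Rd X (fun q hq => (hX q hq).1) M' N₀ Q hM' hN₀N hQ) Rd.hmin Hd hres
  intro q hq
  rcases hQ q hq with h | h
  · exact ⟨Rd.hBprime q h, (Rd.hBunr q h).2⟩
  · exact ⟨(hX q h).1, hXunr q h⟩

/-- **[EXIST-DQ] for the data `Rd`, from ONE Hecke–Galois datum lifting `ρ̄`** of level `M₀ = N₀ ∏_{q ∈ Q₀} q²`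
(`N₀ ∣ N` squarefree, `Q₀ ⊆ Bd`): the first conjunct of `s59i_TPkg`. -/
theorem s59e3q_existDQ_of_datum (hp2 : p ≠ 2) (hp𝒪 : (p : 𝒪) ∈ maximalIdeal 𝒪)
    (M₀ : ℕ) [NeZero M₀] (S₀ : Finset ℕ) (hpM₀ : ¬ p ∣ M₀)
    (hpS₀ : p ∈ S₀) (hS₀ : ∀ q : ℕ, q.Prime → q ∣ M₀ → q ∈ S₀)
    (N₀ : ℕ) (Q₀ : Finset ℕ) (hM₀ : M₀ = N₀ * ∏ q ∈ Q₀, q ^ 2) (hN₀ : Squarefree N₀)
    (hN₀N : ∀ q : ℕ, q.Prime → q ∣ N₀ → q ∣ N ∨ s59e3q_E2Alt p ρbar q) (hQ₀ : ∀ q ∈ Q₀, q ∈ Bd)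
    {θ : heckeAlgebra M₀ 2 (↑S₀ : Set ℕ) →+* ResidueField 𝒪}
    {T : Type} [CommRing T] [IsLocalRing T] [IsNoetherianRing T]
    [IsAdicComplete (maximalIdeal T) T] [Algebra 𝒪 T] [IsLocalHom (algebraMap 𝒪 T)]
    [Module.Finite 𝒪 T] [Module.Free 𝒪 T]
    (Hd : HeckeGaloisRepDatum M₀ (↑S₀ : Set ℕ) 𝒪 θ T)
    (hres : Hd.ρ.residual.IsEquiv (ρbar.baseChangeAlong (ResidueField.map (algebraMap 𝒪 T))))
    {r : ℕ} (qv : Fin r → ℕ) :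
    Nonempty (GaloisRep.DeformationRingData 𝒪 ρbar (fun _A _ _ _ ρ =>
      GaloisRep.flatCondition 𝒪 p (Rd.Smin ∪ (Bd ∪ Rd.Ed) ∪ Finset.univ.image qv) ρ ∧
        ∀ q ∈ Rd.Smin, q.Prime → q ≠ p → ρ.IsUnipotentOnInertiaAt q)) := by
  have h0 := s59e3q_hD_flat_RData Rd hp2 hp𝒪 ∅ (fun q hq => absurd hq (Finset.notMem_empty q))
    M₀ S₀ hpM₀ hpS₀ hS₀ N₀ Q₀ hM₀ hN₀ hN₀N (fun q hq => Or.inl (hQ₀ q hq)) Hd hres
  rw [Finset.union_empty] at h0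
  refine s59q_exists_DQ_flat_hecke p hp2 hp𝒪 ρbar Rd.habs (Rd.Smin ∪ (Bd ∪ Rd.Ed)) _ Rd.Smin
    Finset.subset_union_left
    (Finset.mem_union_left _ (Finset.mem_union_left _ Rd.hpSmin)) ?_ Hd h0 hres
  intro q hq hqS
  have hqSmin : q ∉ Rd.Smin := fun h =>
    hqS (Finset.mem_union_left _ (Finset.mem_union_left _ h))
  have hqp : q ≠ p := fun h => hqSmin (h ▸ Rd.hpSmin)
  by_contra hram
  exact hqSmin ((Rd.hmin q hq hqp).mpr hram)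

end RData


end Fermat.Agent.Lib.S59
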