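/-
Programme R2 (S59), p = 3 port (helper5), file 20: **(H3) AND (B2) FOR THE DATA `Rd` WITH (E2′)-PRIMES IN THE `T`-SIDE LEVEL** — copy of the sections `H3R`, `TB2` of
helper6's QTB2 (`s59q_H3_RData`, `s59q_lvl_M'`, `s59q_TB2`) over the (E2′)-versions of E3E2a: the level `N'` of `Rd : s59i_RData p N' …` is
decoupled from the `T`-side level `N` by `hE : ∀ q prime, q ∣ N → q ∣ N' ∨ s59e3q_E2Alt p ρ̄ q`.
(prefix `s59e3q_`; generated from the original).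
-/
import Mathlib
import Fermat.Agent.Lib.S59.QTB2
import Fermat.Agent.Lib.S59.E3E2a

set_option autoImplicit false
set_option linter.unusedSectionVars false
set_option linter.unusedVariables false
set_option linter.style.haveILetI false
set_option synthInstance.maxHeartbeats 400000
set_option maxHeartbeats 1600000

noncomputable section

namespace Fermat.Agent.Lib.S59

open Matrix.SpecialLinearGroup CongruenceSubgroup ModularCurve.Period Polynomial CuspForm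
open Fermat.Agent.Lib.S48 Fermat.Agent.Lib.ES IsLocalRing
open scoped MatrixGroups

local notation "Qbar" => AlgebraicClosure ℚ
local notation "GQ" => (AlgebraicClosure ℚ ≃ₐ[ℚ] AlgebraicClosure ℚ)

section H3R

variable {p : ℕ} [hp : Fact p.Prime]
  {𝒪 : Type} [CommRing 𝒪] [IsDomain 𝒪] [IsDiscreteValuationRing 𝒪]
  [IsAdicComplete (maximalIdeal 𝒪) 𝒪] [Finite (ResidueField 𝒪)] [CharZero 𝒪] [Algebra ℤ_[p] 𝒪]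
  {N : ℕ} {B Bd : Finset ℕ} {ρbar : ResidualGaloisRep (ResidueField 𝒪)}
  (Rd : s59i_RData p N ρbar B Bd) (a : ℕ → ℤ)

/-- **(H3) for the data `Rd`** at a level `(Lv, H)`, `Lv = N₀ ∏_{q ∈ Q} q`, `N₀ ∣ N` squarefree, `Q ⊆ Bd ∪ Xs`, `Xs` a set
of primes outside `B`, `H ⊇ ker((ℤ/Lv)ˣ → (ℤ/∏Q)ˣ)` with `u^(p^e) ∈ H`; `ε` an idempotent `≠ 0` of
`H_par(Γ_H(Lv), 𝒪)` commuting with the anemic generators, on whose part every `T_ℓ` (`ℓ ∤ Lv`, `ℓ ∉ B`) is topologically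
`a_ℓ` (the form delivered by helper8's packages); `ρbar` with Frobenius characteristic polynomials
`X² − a_ℓ X + ℓ` outside `S`; `DQ` a deformation ring of the flat type `Rd.Smin ∪ (Bd ∪ Rd.Ed) ∪ Xs`.
Output: helper5's `a₀` (`s59e_H3'`: `T_ℓ ↦ ⟨ℓ⟩^{-1/2} T_ℓ`) and `s59q_H3Out` for it: `aM`, local scalarity of
`T' = 𝒪[aM(𝕋)]`, `aM(T_ℓ) ≡ a_ℓ`, `θ : DQ.R ↠ T'` and the Frobenius characteristic polynomials of `DQ.ρ ⊗_θ T'`. -/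
theorem s59e3q_H3_RData (hp2 : p ≠ 2) (hp𝒪 : (p : 𝒪) ∈ maximalIdeal 𝒪)
    (N₀ : ℕ) [NeZero N₀] (Q : Finset ℕ) {Lv : ℕ} [NeZero Lv] (H : Subgroup (ZMod Lv)ˣ)
    (M' : ℕ) [NeZero M'] [Fact (HasIntegralStructure M' 2)] (S : Finset ℕ)
    (hpS : p ∈ S) (hBS : B ⊆ S) (hpM' : ¬ p ∣ M')
    (hQ : ∀ q ∈ Q, q.Prime ∧ ¬ q ∣ N₀)
    (hM : Lv = N₀ * ∏ q ∈ Q, q) {D : ℕ} (hDQ : D = ∏ q ∈ Q, q) (hD : D ∣ Lv)
    (hH : s59u_ker Lv D hD ≤ H) (e : ℕ) (hn : ∀ u : (ZMod Lv)ˣ, u ^ (p ^ e) ∈ H)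
    (hM' : M' = N₀ * ∏ q ∈ Q, q ^ 2) (hS : ∀ q : ℕ, q.Prime → q ∣ M' → q ∈ S)
    (hN₀ : Squarefree N₀)
    (hN₀N : ∀ q : ℕ, q.Prime → q ∣ N₀ → q ∣ N ∨ s59e3q_E2Alt p ρbar q)
    (Xs : Finset ℕ) (hX : ∀ q ∈ Xs, q.Prime ∧ q ∉ B) (hQX : ∀ q ∈ Q, q ∈ Bd ∨ q ∈ Xs)
    (ε : Module.End 𝒪 (s48h_Hpar 𝒪 (s48h_GammaH Lv H) 𝒪)) (hε : ε * ε = ε) (hε0 : ε ≠ 0)
    (hεc : ∀ x, ε * s59w_op H 𝒪 x = s59w_op H 𝒪 x * ε)
    (hnil : ∀ x ∈ s59t_goodB Lv B, ∃ k : ℕ, ∀ y : s48h_Hpar 𝒪 (s48h_GammaH Lv H) 𝒪,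
      ((s59w_op H 𝒪 x - s59t_cB (𝒪 := 𝒪) Lv a x •
        (1 : Module.End 𝒪 (s48h_Hpar 𝒪 (s48h_GammaH Lv H) 𝒪))) ^ k) (ε y) ∈
        (maximalIdeal 𝒪 • ⊤ : Submodule 𝒪 (s48h_Hpar 𝒪 (s48h_GammaH Lv H) 𝒪)))
    (hEig : ∀ ℓ : ℕ, ℓ.Prime → ℓ ∉ S → ∀ A : ValuationSubring Qbar, A.LiesOverPrime ℓ →
      ∀ σ : GQ, A.IsFrobeniusAt σ ℓ →
        LinearMap.charpoly (ρbar.ρ σ) = X ^ 2 - C (residue 𝒪 ((a ℓ : ℤ) : 𝒪)) * X +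
          C ((ℓ : ResidueField 𝒪)))
    (DQ : GaloisRep.DeformationRingData 𝒪 ρbar (fun _A _ _ _ ρ =>
      GaloisRep.flatCondition 𝒪 p (Rd.Smin ∪ (Bd ∪ Rd.Ed) ∪ Xs) ρ ∧
        ∀ q ∈ Rd.Smin, q.Prime → q ≠ p → ρ.IsUnipotentOnInertiaAt q)) :
    ∃ a₀ : heckeAlgebra M' 2 (↑S : Set ℕ) →+*
        Module.End 𝒪 (s48h_Hpar 𝒪 (s48h_GammaH Lv H) 𝒪),
      (∀ (ℓ : ℕ) (hℓ : ℓ.Prime) (hℓN : ¬ ℓ ∣ M') (hℓS : ℓ ∉ (↑S : Set ℕ)) (i : s59w_TIdx Lv),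
        i.ell = ℓ → a₀ (heckeAlgebra.T hℓ hℓN hℓS) =
          s59e_Tp' H 𝒪 ((p ^ e - 1) * ((p ^ e + 1) / 2)) i) ∧
      (∀ t, a₀ t ∈ Subring.closure (Set.range (s59e_Tp' H 𝒪 ((p ^ e - 1) * ((p ^ e + 1) / 2))))) ∧
      s59q_H3Out M' S a₀ ε (fun ℓ => ((a ℓ : ℤ) : 𝒪)) DQ := by
  classical
  have hpodd : Odd (p ^ e) := (hp.out.odd_of_ne_two hp2).pow
  have hnm : 2 * ((p ^ e + 1) / 2) = p ^ e + 1 := by
    obtain ⟨k, hk⟩ := hpodd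
    omega
  have hHp : ∀ u : (ZMod Lv)ˣ, ∃ k : ℕ, u ^ (p ^ k) ∈ H := fun u => ⟨e, hn u⟩
  -- the hypotheses of `s59e_H3'` on `ε`
  have hεc' : ∀ j, s59e_Anemic S j → ε * s59w_op H 𝒪 j = s59w_op H 𝒪 j * ε := fun j _ => hεc j
  have hnil' : ∀ j, s59e_Anemic S j → ∃ k : ℕ, ∀ z,
      ((s59w_op H 𝒪 j - s59t_cB (𝒪 := 𝒪) Lv a j • 1) ^ k) (ε z) ∈
        maximalIdeal 𝒪 • (⊤ : Submodule 𝒪 (s48h_Hpar 𝒪 (s48h_GammaH Lv H) 𝒪)) := by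
    intro j hj
    rcases j with i | τ
    · have hiS : i.ell ∉ S := (s59e_anemic_inl_iff S i).mp hj
      exact hnil _ (s59t_inl_mem_goodB B i (fun h => hiS (hBS h)))
    · exact s59t_topNil_dia p H hp𝒪 hHp ε τ
  have hEig' : ∀ (ℓ : ℕ) (_ : ℓ.Prime) (_ : ¬ ℓ ∣ M') (_ : ℓ ∉ S) (i : s59w_TIdx Lv), i.ell = ℓ →
      ∀ A : ValuationSubring Qbar, A.LiesOverPrime ℓ → ∀ σ : GQ, A.IsFrobeniusAt σ ℓ →
        LinearMap.charpoly (ρbar.ρ σ) = X ^ 2 - C (residue 𝒪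
          (s59t_cB (𝒪 := 𝒪) Lv a (Sum.inr (s59e_tau i ((p ^ e - 1) * ((p ^ e + 1) / 2)))) *
            s59t_cB (𝒪 := 𝒪) Lv a (Sum.inl i))) * X +
          C ((ℓ : ResidueField 𝒪)) := by
    intro ℓ hℓ hℓN hℓS i hi A hA σ hσ
    show LinearMap.charpoly (ρbar.ρ σ) = X ^ 2 - C (residue 𝒪
      ((1 : 𝒪) * ((a i.ell : ℤ) : 𝒪))) * X + C ((ℓ : ResidueField 𝒪))
    rw [one_mul, hi]
    exact hEig ℓ hℓ hℓS A hA σ hσ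
  -- (H3), with `h𝒟` from `s59e3q_hD_flat_RData`
  let b := Module.Free.chooseBasis ℤ (s48h_M (s48h_GammaH Lv H))
  have hH3 := s59e_H3' (p := p) N₀ Q (M := Lv) H b M' S hp2 hp𝒪 hpS hQ hM hDQ hD hH
      (n := p ^ e) (m := (p ^ e + 1) / 2) hnm hn hM' hS (s59u_cB b 𝒪) (s59u_cB_coe b 𝒪)
      ε hε hε0 hεc' (s59t_cB (𝒪 := 𝒪) Lv a) hnil' ρbar hEig' DQ
  have hH3' := hH3 (by
    intro θ Hd hres
    have h3 := s59e3q_hD_flat_RData Rd hp2 hp𝒪 Xs hX M' S hpM' hpS hS N₀ Q hM' hN₀ hN₀N hQX Hd hres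
    exact h3)
  clear hH3
  obtain ⟨a₀, cT, ha1, ha2, hcT, hconcl⟩ := hH3'
  have hcTa : ∀ ℓ : ℕ, ℓ.Prime → ¬ ℓ ∣ M' → cT ℓ = ((a ℓ : ℤ) : 𝒪) := by
    intro ℓ hℓ hℓN
    obtain ⟨i, hi, hci⟩ := hcT ℓ hℓ hℓN
    rw [hci]
    show (1 : 𝒪) * ((a i.ell : ℤ) : 𝒪) = _
    rw [one_mul, hi]
  -- the output
  haveI : Module.Free 𝒪 (s48h_Hpar 𝒪 (s48h_GammaH Lv H) 𝒪) := Module.Free.of_basis (s59u_cB b 𝒪)
  haveI : Module.Finite 𝒪 (s48h_Hpar 𝒪 (s48h_GammaH Lv H) 𝒪) :=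
    Module.Finite.of_basis (s59u_cB b 𝒪)
  have hR := s59q_H3Out_of_concl hS a₀ ε hε
    (J := {j : s59w_AIdx Lv // s59e_Anemic S j})
    (fun j => s59w_op H 𝒪 j.1) (fun i j => s59w_op_comm H 𝒪 i.1 j.1) (fun j => hεc' j.1 j.2)
    (fun j => s59t_cB (𝒪 := 𝒪) Lv a j.1) (fun j => hnil' j.1 j.2) cT
    (fun ℓ hℓ hℓN hℓS => by
      obtain ⟨i, hi, hci⟩ := hcT ℓ hℓ hℓN
      have hiS : i.ell ∉ S := by rw [hi]; exact hℓS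
      exact ⟨⟨Sum.inr (s59e_tau i ((p ^ e - 1) * ((p ^ e + 1) / 2))), s59e_anemic_inr S _⟩,
        ⟨Sum.inl i, s59e_anemic_inl S i hiS⟩, ha1 ℓ hℓ hℓN hℓS i hi, hci⟩) DQ
  have hR' := hR hconcl
  clear hR
  have hR'' := hR'.congr (cT' := fun ℓ => ((a ℓ : ℤ) : 𝒪)) (fun ℓ hℓ hℓN _ => hcTa ℓ hℓ hℓN)
  exact ⟨a₀, ha1, ha2, hR''⟩

end H3R

/-! ### (B2): the Taylor–Wiles level -/

section TB2

variable {p : ℕ} [hp : Fact p.Prime]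
  {𝒪 : Type} [CommRing 𝒪] [IsDomain 𝒪] [IsDiscreteValuationRing 𝒪]
  [IsAdicComplete (maximalIdeal 𝒪) 𝒪] [Finite (ResidueField 𝒪)] [CharZero 𝒪] [Algebra ℤ_[p] 𝒪]
  {N N' : ℕ} [NeZero N] {B Bd : Finset ℕ} {ρbar : ResidualGaloisRep (ResidueField 𝒪)}
  (Rd : s59i_RData p N' ρbar B Bd) (a : ℕ → ℤ)
  {m : ℕ} (qB : Fin m → ℕ) (hdvd : ∏ j, qB j ∣ N)
  {r : ℕ} (qv : Fin r → ℕ) [NeZero (N * ∏ i, qv i)]

include hdvd in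
/-- the numerology of the level `M' = N ∏ qB ∏ qv²` (`= (N/∏qB) ∏_{q ∈ Q} q²`, `Q = image qB ∪ image qv`). -/
theorem s59e3q_lvl_M' (hqBinj : Function.Injective qB) (hqinj : Function.Injective qv)
    (hdisj : ∀ j i, qB j ≠ qv i) :
    N * (∏ j, qB j) * ∏ i, qv i ^ 2 = (N / ∏ j, qB j) * ∏ q ∈ s59k_Q qB qv, q ^ 2 := by
  have h1 : ∏ q ∈ s59k_Q qB qv, q ^ 2 = ((∏ j, qB j) * ∏ i, qv i) ^ 2 := by
    rw [Finset.prod_pow, s59k_prod_Q qB qv hqBinj hqinj hdisj]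
  have h2 : ∏ i, qv i ^ 2 = (∏ i, qv i) ^ 2 := Finset.prod_pow _ _ _
  rw [h1, h2]
  conv_lhs => rw [← Nat.div_mul_cancel hdvd]
  ring

/-- **(B2)**: (H3) at the Taylor–Wiles level `Lv = N ∏ qv` for the data `Rd`, with `Bd = image qB`, for ANY
`H' ≤ (ℤ/Lv)ˣ` containing `ker((ℤ/Lv)ˣ → (ℤ/∏qB∏qv)ˣ)` with `u^(p^e) ∈ H'` (e.g. helper1's
`s59t_Hmul N (∏ qv) (s59k_H0 (p^v) qB N hdvd) (s59t_KQ (p^n) qv)`, `e = v + n`: `s59k_ker_le_Hmul'`,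
`s59k_ppow_mem_Hmul`; or the type-1 group `s59t_Hmul N (∏ qv) ⊤ (s59t_KQ (p^n) qv)`), `S = B ∪ image qv`,
`M' = N ∏ qB ∏ qv²`; `ε` as delivered by helper8's `s59t_level_pkg`. -/
theorem s59e3q_TB2 (hp2 : p ≠ 2) (hp𝒪 : (p : 𝒪) ∈ maximalIdeal 𝒪)
    (hsq : Squarefree N) (hE : ∀ q : ℕ, q.Prime → q ∣ N → q ∣ N' ∨ s59e3q_E2Alt p ρbar q)
    (hpN : ¬ p ∣ N) (hpB : p ∈ B)
    (hNB : ∀ q : ℕ, q.Prime → q ∣ N → q ∈ B)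
    (hqBinj : Function.Injective qB) (hqBd : Finset.univ.image qB = Bd)
    (hqinj : Function.Injective qv) (hqp : ∀ i, (qv i).Prime) (hqvB : ∀ i, qv i ∉ B)
    (H' : Subgroup (ZMod (N * ∏ i, qv i))ˣ)
    (hker : s59u_ker (N * ∏ i, qv i) ((∏ j, qB j) * ∏ i, qv i)
      (Nat.mul_dvd_mul_right hdvd _) ≤ H')
    (e : ℕ) (hpow : ∀ u : (ZMod (N * ∏ i, qv i))ˣ, u ^ (p ^ e) ∈ H')
    (M' : ℕ) [NeZero M'] [Fact (HasIntegralStructure M' 2)]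
    (hM' : M' = N * (∏ j, qB j) * ∏ i, qv i ^ 2)
    (ε : Module.End 𝒪 (s48h_Hpar 𝒪 (s48h_GammaH (N * ∏ i, qv i) H') 𝒪))
    (hε : ε * ε = ε) (hε0 : ε ≠ 0)
    (hεc : ∀ x, ε * s59w_op H' 𝒪 x = s59w_op H' 𝒪 x * ε)
    (hnil : ∀ x ∈ s59t_goodB (N * ∏ i, qv i) B, ∃ k : ℕ,
      ∀ y : s48h_Hpar 𝒪 (s48h_GammaH (N * ∏ i, qv i) H') 𝒪,
      ((s59w_op H' 𝒪 x - s59t_cB (𝒪 := 𝒪) (N * ∏ i, qv i) a x •
        (1 : Module.End 𝒪 (s48h_Hpar 𝒪 (s48h_GammaH (N * ∏ i, qv i) H') 𝒪))) ^ k) (ε y) ∈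
        (maximalIdeal 𝒪 • ⊤ :
          Submodule 𝒪 (s48h_Hpar 𝒪 (s48h_GammaH (N * ∏ i, qv i) H') 𝒪)))
    (hEig : ∀ ℓ : ℕ, ℓ.Prime → ℓ ∉ B ∪ Finset.univ.image qv →
      ∀ A : ValuationSubring Qbar, A.LiesOverPrime ℓ →
      ∀ σ : GQ, A.IsFrobeniusAt σ ℓ →
        LinearMap.charpoly (ρbar.ρ σ) = X ^ 2 - C (residue 𝒪 ((a ℓ : ℤ) : 𝒪)) * X +
          C ((ℓ : ResidueField 𝒪)))
    (DQ : GaloisRep.DeformationRingData 𝒪 ρbar (fun _A _ _ _ ρ =>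
      GaloisRep.flatCondition 𝒪 p (Rd.Smin ∪ (Bd ∪ Rd.Ed) ∪ Finset.univ.image qv) ρ ∧
        ∀ q ∈ Rd.Smin, q.Prime → q ≠ p → ρ.IsUnipotentOnInertiaAt q)) :
    ∃ a₀ : heckeAlgebra M' 2 (↑(B ∪ Finset.univ.image qv) : Set ℕ) →+*
        Module.End 𝒪 (s48h_Hpar 𝒪 (s48h_GammaH (N * ∏ i, qv i) H') 𝒪),
      (∀ (ℓ : ℕ) (hℓ : ℓ.Prime) (hℓN : ¬ ℓ ∣ M')
        (hℓS : ℓ ∉ (↑(B ∪ Finset.univ.image qv) : Set ℕ)) (i : s59w_TIdx (N * ∏ i, qv i)),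
        i.ell = ℓ → a₀ (heckeAlgebra.T hℓ hℓN hℓS) =
          s59e_Tp' H' 𝒪 ((p ^ e - 1) * ((p ^ e + 1) / 2)) i) ∧
      (∀ t, a₀ t ∈
        Subring.closure (Set.range (s59e_Tp' H' 𝒪 ((p ^ e - 1) * ((p ^ e + 1) / 2))))) ∧
      s59q_H3Out M' (B ∪ Finset.univ.image qv) a₀ ε (fun ℓ => ((a ℓ : ℤ) : 𝒪)) DQ := by
  classical
  have hpP : p.Prime := hp.out
  -- the primes
  have hqBmem : ∀ j, qB j ∈ Bd := fun j => by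
    rw [← hqBd]; exact Finset.mem_image_of_mem _ (Finset.mem_univ j)
  have hqBp : ∀ j, (qB j).Prime := fun j => Rd.hBprime _ (hqBmem j)
  have hqvN : ∀ i, ¬ qv i ∣ N := fun i h => hqvB i (hNB _ (hqp i) h)
  have hdisj : ∀ j i, qB j ≠ qv i := fun j i h => hqvB i (h ▸ Rd.hBS (hqBmem j))
  have hN₀pos : N / ∏ j, qB j ≠ 0 := by
    intro h0
    have h1 := Nat.div_mul_cancel hdvd
    rw [h0, zero_mul] at h1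
    exact NeZero.ne N h1.symm
  haveI : NeZero (N / ∏ j, qB j) := ⟨hN₀pos⟩
  have hN₀N : N / ∏ j, qB j ∣ N := Nat.div_dvd_of_dvd hdvd
  have hM'' : M' = (N / ∏ j, qB j) * ∏ q ∈ s59k_Q qB qv, q ^ 2 := by
    rw [hM', s59e3q_lvl_M' qB hdvd qv hqBinj hqinj hdisj]
  -- primes dividing `M'`
  have hSM : ∀ q : ℕ, q.Prime → q ∣ M' → q ∈ B ∪ Finset.univ.image qv := by
    intro q hq hqM
    rw [hM'] at hqM
    rcases (Nat.Prime.dvd_mul hq).mp hqM with h | h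
    · rcases (Nat.Prime.dvd_mul hq).mp h with h1 | h1
      · exact Finset.mem_union_left _ (hNB q hq h1)
      · exact Finset.mem_union_left _ (hNB q hq (h1.trans hdvd))
    · obtain ⟨i, -, hi⟩ := (Prime.dvd_finset_prod_iff hq.prime _).mp h
      have h2 : q ∣ qv i := hq.dvd_of_dvd_pow hi
      have h3 : q = qv i := (Nat.prime_dvd_prime_iff_eq hq (hqp i)).mp h2
      exact Finset.mem_union_right _ (h3 ▸ Finset.mem_image_of_mem _ (Finset.mem_univ i))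
  have hpM' : ¬ p ∣ M' := by
    intro h
    rw [hM'] at h
    rcases (Nat.Prime.dvd_mul hpP).mp h with h | h
    · rcases (Nat.Prime.dvd_mul hpP).mp h with h1 | h1
      · exact hpN h1
      · exact hpN (h1.trans hdvd)
    · obtain ⟨i, -, hi⟩ := (Prime.dvd_finset_prod_iff hpP.prime _).mp h
      have h2 : p ∣ qv i := hpP.dvd_of_dvd_pow hi
      have h3 : p = qv i := (Nat.prime_dvd_prime_iff_eq hpP (hqp i)).mp h2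
      exact hqvB i (h3 ▸ hpB)
  have hX : ∀ q ∈ Finset.univ.image qv, q.Prime ∧ q ∉ B := by
    intro q hq
    obtain ⟨i, -, rfl⟩ := Finset.mem_image.mp hq
    exact ⟨hqp i, hqvB i⟩
  have hQX : ∀ q ∈ s59k_Q qB qv, q ∈ Bd ∨ q ∈ Finset.univ.image qv := by
    intro q hq
    rcases (s59k_mem_Q qB qv).mp hq with ⟨j, rfl⟩ | ⟨i, rfl⟩
    · exact Or.inl (hqBmem j)
    · exact Or.inr (Finset.mem_image_of_mem _ (Finset.mem_univ i))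
  exact s59e3q_H3_RData Rd a hp2 hp𝒪 (N / ∏ j, qB j) (s59k_Q qB qv) H' M'
    (B ∪ Finset.univ.image qv) (Finset.mem_union_left _ hpB) Finset.subset_union_left hpM'
    (s59k_hQ qB qv N hdvd hsq hqBp hqp hqvN)
    (s59k_level_eq qB qv N hdvd hqBinj hqinj hdisj)
    (s59k_prod_Q qB qv hqBinj hqinj hdisj).symm (Nat.mul_dvd_mul_right hdvd _) hker e hpow
    hM'' hSM (Squarefree.squarefree_of_dvd hN₀N hsq)
    (fun q hq h => hE q hq (h.trans hN₀N))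
    (Finset.univ.image qv) hX hQX ε hε hε0 hεc hnil hEig DQ

end TB2


end Fermat.Agent.Lib.S59
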