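/-
Programme R2 (S59), node [PATCH-FLR], `T`-side leaf (T1) (helper5, prefix `s59efl_`): **(H3) FOR THE DATA `Rd` AT THE LEVELS `N_t` OF A LEVEL-RAISING
CHAIN** — copy of `s59e3q_hSg_of_RData`, `s59e3q_hD_flat_RData` (E3E2a), `s59e3q_H3_RData` (E3E2b) with
* a THIRD alternative for the primes of the squarefree part `N₀` of the level: `q ∣ N ∨ s59e3q_E2Alt p ρ̄ q ∨ q ∈ Xs` — the raised primes
  `q_1..q_t` divide `N_t` exactly and lie in the unrestricted part `Xs` of the type `Σ = Rd.Smin ∪ (Bd ∪ Rd.Ed) ∪ Xs`;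
* `hX : ∀ q ∈ Xs, q.Prime ∧ q ∉ B` split into `hX : ∀ q ∈ Xs, q.Prime` and, for the primes of `Q` (squared in the level) lying in `Xs`
  (the Taylor–Wiles primes), the hypothesis `ρ̄.IsUnramifiedAt q` (the raised primes are bad primes of `W`, so `q ∉ B` fails for them).
So ONE type `Σ` with `Xs := Rs ∪ image qv` serves all the levels `N_t ∏ qv²`, `t ≤ k` (helper4 #3712 (1)).
-/
import Mathlib
import Fermat.Agent.Lib.S59.QTB2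
import Fermat.Agent.Lib.S59.E3E2a
import Fermat.Agent.Lib.S59.E3E2b

set_option autoImplicit false
set_option linter.unusedSectionVars false
set_option linter.unusedVariables false
set_option linter.style.haveILetI false
set_option synthInstance.maxHeartbeats 400000
set_option maxHeartbeats 1600000

noncomputable section

namespace Fermat.Agent.Lib.S59

open Matrix.SpecialLinearGroup CongruenceSubgroup ModularCurve.Period Polynomial CuspForm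
open Fermat.Agent.Lib.S48 Fermat.Agent.Lib.ES IsLocalRing
open scoped MatrixGroups

local notation "Qbar" => AlgebraicClosure ℚ
local notation "GQ" => (AlgebraicClosure ℚ ≃ₐ[ℚ] AlgebraicClosure ℚ)

section RData

variable {p : ℕ} [Fact p.Prime] {N : ℕ}
  {𝒪 : Type} [CommRing 𝒪] [IsDomain 𝒪] [IsDiscreteValuationRing 𝒪]
  [IsAdicComplete (maximalIdeal 𝒪) 𝒪] [Finite (ResidueField 𝒪)] [CharZero 𝒪]
  {ρbar : ResidualGaloisRep (ResidueField 𝒪)} {B Bd : Finset ℕ}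
  (Rd : s59i_RData p N ρbar B Bd)

/-- the weakened `hSg` at a level `M' = N₀ ∏_{q ∈ Q} q²`, `N₀ ∣ N`, `Q ⊆ Bd ∪ X`, from `Rd.hNSg`. -/
theorem s59efl_hSg_of_RData (X : Finset ℕ) (hX : ∀ q ∈ X, q.Prime) (M' N₀ : ℕ) (Q : Finset ℕ)
    (hM' : M' = N₀ * ∏ q ∈ Q, q ^ 2)
    (hN₀N : ∀ q : ℕ, q.Prime → q ∣ N₀ → q ∣ N ∨ s59e3q_E2Alt p ρbar q ∨ q ∈ X)
    (hQ : ∀ q ∈ Q, q ∈ Bd ∨ q ∈ X) :
    ∀ q : ℕ, q.Prime → q ∣ M' → q ∈ Rd.Smin ∪ (Bd ∪ Rd.Ed) ∪ X ∨ s59e3q_E2Alt p ρbar q := by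
  intro q hq hqM
  rw [hM'] at hqM
  rcases (Nat.Prime.dvd_mul hq).mp hqM with h | h
  · rcases hN₀N q hq h with hN | hE | hXq
    · rcases Rd.hNSg q hq hN with h1 | ⟨h1, h2, h3, h4⟩
      · exact Or.inl (Finset.mem_union_left _ h1)
      · refine Or.inr ⟨h1, h2, fun h0 => h3 ?_, h4⟩
        have e : (q : ResidueField 𝒪) ^ 2 - 1 = ((q : ResidueField 𝒪) - 1) * ((q : ResidueField 𝒪) + 1) := by
          ring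
        rw [e, h0, zero_mul]
    · exact Or.inr hE
    · exact Or.inl (Finset.mem_union_right _ hXq)
  · obtain ⟨q', hq'Q, hqq'⟩ := (Prime.dvd_finset_prod_iff hq.prime _).mp h
    have hqq'' : q ∣ q' := hq.dvd_of_dvd_pow hqq'
    have hq'p : q'.Prime := by
      rcases hQ q' hq'Q with h1 | h1
      · exact Rd.hBprime q' h1
      · exact hX q' h1
    have heq : q = q' := (Nat.prime_dvd_prime_iff_eq hq hq'p).mp hqq''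
    left
    rcases hQ q' hq'Q with h1 | h1
    · exact Finset.mem_union_left _ (Finset.mem_union_right _ (Finset.mem_union_left _ (heq ▸ h1)))
    · exact Finset.mem_union_right _ (heq ▸ h1)

/-- **`h𝒟` for the data `Rd`**: every Hecke–Galois datum of level `M' = N₀ ∏_{q ∈ Q} q²` (`N₀ ∣ N` squarefree,
`Q ⊆ Bd ∪ X`, `X` a set of primes outside `B`) lifting `ρ̄` is of the flat type
`Σ = Rd.Smin ∪ (Bd ∪ Rd.Ed) ∪ X` of `s59q_inst_flat`. -/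
theorem s59efl_hD_flat_RData (hp2 : p ≠ 2) (hp𝒪 : (p : 𝒪) ∈ maximalIdeal 𝒪)
    (X : Finset ℕ) (hX : ∀ q ∈ X, q.Prime)
    (M' : ℕ) [NeZero M'] (S : Finset ℕ) (hpM' : ¬ p ∣ M')
    (hpS : p ∈ S) (hS : ∀ q : ℕ, q.Prime → q ∣ M' → q ∈ S)
    (N₀ : ℕ) (Q : Finset ℕ) (hM' : M' = N₀ * ∏ q ∈ Q, q ^ 2) (hN₀ : Squarefree N₀)
    (hN₀N : ∀ q : ℕ, q.Prime → q ∣ N₀ → q ∣ N ∨ s59e3q_E2Alt p ρbar q ∨ q ∈ X)
    (hQ : ∀ q ∈ Q, q ∈ Bd ∨ (q ∈ X ∧ ρbar.IsUnramifiedAt q))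
    {θ : heckeAlgebra M' 2 (↑S : Set ℕ) →+* ResidueField 𝒪}
    {T : Type} [CommRing T] [IsLocalRing T] [IsNoetherianRing T]
    [IsAdicComplete (maximalIdeal T) T] [Algebra 𝒪 T] [IsLocalHom (algebraMap 𝒪 T)]
    [Module.Finite 𝒪 T] [Module.Free 𝒪 T]
    (Hd : HeckeGaloisRepDatum M' (↑S : Set ℕ) 𝒪 θ T)
    (hres : Hd.ρ.residual.IsEquiv (ρbar.baseChangeAlong (ResidueField.map (algebraMap 𝒪 T)))) :
    GaloisRep.flatCondition 𝒪 p (Rd.Smin ∪ (Bd ∪ Rd.Ed) ∪ X) Hd.ρ ∧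
      ∀ q ∈ Rd.Smin, q.Prime → q ≠ p → Hd.ρ.IsUnipotentOnInertiaAt q := by
  refine s59e3q_hD_flat_E2 M' S hp2 hp𝒪 hpM' hpS hS ρbar N₀ Q hM' hN₀ ?_ _ Rd.Smin
    (Finset.mem_union_left _ (Finset.mem_union_left _ Rd.hpSmin))
    (s59efl_hSg_of_RData Rd X hX M' N₀ Q hM' hN₀N
      (fun q hq => (hQ q hq).imp id (fun h => h.1))) Rd.hmin Hd hres
  intro q hq
  rcases hQ q hq with h | h
  · exact ⟨Rd.hBprime q h, (Rd.hBunr q h).2⟩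
  · exact ⟨hX q h.1, h.2⟩

end RData

section H3R

variable {p : ℕ} [hp : Fact p.Prime]
  {𝒪 : Type} [CommRing 𝒪] [IsDomain 𝒪] [IsDiscreteValuationRing 𝒪]
  [IsAdicComplete (maximalIdeal 𝒪) 𝒪] [Finite (ResidueField 𝒪)] [CharZero 𝒪] [Algebra ℤ_[p] 𝒪]
  {N : ℕ} {B Bd : Finset ℕ} {ρbar : ResidualGaloisRep (ResidueField 𝒪)}
  (Rd : s59i_RData p N ρbar B Bd) (a : ℕ → ℤ)

/-- **(H3) for the data `Rd`** at a level `(Lv, H)`, `Lv = N₀ ∏_{q ∈ Q} q`, `N₀ ∣ N` squarefree, `Q ⊆ Bd ∪ Xs`, `Xs` a set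
of primes outside `B`, `H ⊇ ker((ℤ/Lv)ˣ → (ℤ/∏Q)ˣ)` with `u^(p^e) ∈ H`; `ε` an idempotent `≠ 0` of
`H_par(Γ_H(Lv), 𝒪)` commuting with the anemic generators, on whose part every `T_ℓ` (`ℓ ∤ Lv`, `ℓ ∉ B`) is topologically
`a_ℓ` (the form delivered by helper8's packages); `ρbar` with Frobenius characteristic polynomials
`X² − a_ℓ X + ℓ` outside `S`; `DQ` a deformation ring of the flat type `Rd.Smin ∪ (Bd ∪ Rd.Ed) ∪ Xs`.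
Output: helper5's `a₀` (`s59e_H3'`: `T_ℓ ↦ ⟨ℓ⟩^{-1/2} T_ℓ`) and `s59q_H3Out` for it: `aM`, local scalarity of
`T' = 𝒪[aM(𝕋)]`, `aM(T_ℓ) ≡ a_ℓ`, `θ : DQ.R ↠ T'` and the Frobenius characteristic polynomials of `DQ.ρ ⊗_θ T'`. -/
theorem s59efl_H3_RData (hp2 : p ≠ 2) (hp𝒪 : (p : 𝒪) ∈ maximalIdeal 𝒪)
    (N₀ : ℕ) [NeZero N₀] (Q : Finset ℕ) {Lv : ℕ} [NeZero Lv] (H : Subgroup (ZMod Lv)ˣ)
    (M' : ℕ) [NeZero M'] [Fact (HasIntegralStructure M' 2)] (S : Finset ℕ)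
    (hpS : p ∈ S) (hBS : B ⊆ S) (hpM' : ¬ p ∣ M')
    (hQ : ∀ q ∈ Q, q.Prime ∧ ¬ q ∣ N₀)
    (hM : Lv = N₀ * ∏ q ∈ Q, q) {D : ℕ} (hDQ : D = ∏ q ∈ Q, q) (hD : D ∣ Lv)
    (hH : s59u_ker Lv D hD ≤ H) (e : ℕ) (hn : ∀ u : (ZMod Lv)ˣ, u ^ (p ^ e) ∈ H)
    (hM' : M' = N₀ * ∏ q ∈ Q, q ^ 2) (hS : ∀ q : ℕ, q.Prime → q ∣ M' → q ∈ S)
    (hN₀ : Squarefree N₀)
    (Xs : Finset ℕ) (hX : ∀ q ∈ Xs, q.Prime)
    (hN₀N : ∀ q : ℕ, q.Prime → q ∣ N₀ → q ∣ N ∨ s59e3q_E2Alt p ρbar q ∨ q ∈ Xs)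
    (hQX : ∀ q ∈ Q, q ∈ Bd ∨ (q ∈ Xs ∧ ρbar.IsUnramifiedAt q))
    (ε : Module.End 𝒪 (s48h_Hpar 𝒪 (s48h_GammaH Lv H) 𝒪)) (hε : ε * ε = ε) (hε0 : ε ≠ 0)
    (hεc : ∀ x, ε * s59w_op H 𝒪 x = s59w_op H 𝒪 x * ε)
    (hnil : ∀ x ∈ s59t_goodB Lv B, ∃ k : ℕ, ∀ y : s48h_Hpar 𝒪 (s48h_GammaH Lv H) 𝒪,
      ((s59w_op H 𝒪 x - s59t_cB (𝒪 := 𝒪) Lv a x •
        (1 : Module.End 𝒪 (s48h_Hpar 𝒪 (s48h_GammaH Lv H) 𝒪))) ^ k) (ε y) ∈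
        (maximalIdeal 𝒪 • ⊤ : Submodule 𝒪 (s48h_Hpar 𝒪 (s48h_GammaH Lv H) 𝒪)))
    (hEig : ∀ ℓ : ℕ, ℓ.Prime → ℓ ∉ S → ∀ A : ValuationSubring Qbar, A.LiesOverPrime ℓ →
      ∀ σ : GQ, A.IsFrobeniusAt σ ℓ →
        LinearMap.charpoly (ρbar.ρ σ) = X ^ 2 - C (residue 𝒪 ((a ℓ : ℤ) : 𝒪)) * X +
          C ((ℓ : ResidueField 𝒪)))
    (DQ : GaloisRep.DeformationRingData 𝒪 ρbar (fun _A _ _ _ ρ =>
      GaloisRep.flatCondition 𝒪 p (Rd.Smin ∪ (Bd ∪ Rd.Ed) ∪ Xs) ρ ∧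
        ∀ q ∈ Rd.Smin, q.Prime → q ≠ p → ρ.IsUnipotentOnInertiaAt q)) :
    ∃ a₀ : heckeAlgebra M' 2 (↑S : Set ℕ) →+*
        Module.End 𝒪 (s48h_Hpar 𝒪 (s48h_GammaH Lv H) 𝒪),
      (∀ (ℓ : ℕ) (hℓ : ℓ.Prime) (hℓN : ¬ ℓ ∣ M') (hℓS : ℓ ∉ (↑S : Set ℕ)) (i : s59w_TIdx Lv),
        i.ell = ℓ → a₀ (heckeAlgebra.T hℓ hℓN hℓS) =
          s59e_Tp' H 𝒪 ((p ^ e - 1) * ((p ^ e + 1) / 2)) i) ∧
      (∀ t, a₀ t ∈ Subring.closure (Set.range (s59e_Tp' H 𝒪 ((p ^ e - 1) * ((p ^ e + 1) / 2))))) ∧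
      s59q_H3Out M' S a₀ ε (fun ℓ => ((a ℓ : ℤ) : 𝒪)) DQ := by
  classical
  have hpodd : Odd (p ^ e) := (hp.out.odd_of_ne_two hp2).pow
  have hnm : 2 * ((p ^ e + 1) / 2) = p ^ e + 1 := by
    obtain ⟨k, hk⟩ := hpodd
    omega
  have hHp : ∀ u : (ZMod Lv)ˣ, ∃ k : ℕ, u ^ (p ^ k) ∈ H := fun u => ⟨e, hn u⟩
  -- the hypotheses of `s59e_H3'` on `ε`
  have hεc' : ∀ j, s59e_Anemic S j → ε * s59w_op H 𝒪 j = s59w_op H 𝒪 j * ε := fun j _ => hεc j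
  have hnil' : ∀ j, s59e_Anemic S j → ∃ k : ℕ, ∀ z,
      ((s59w_op H 𝒪 j - s59t_cB (𝒪 := 𝒪) Lv a j • 1) ^ k) (ε z) ∈
        maximalIdeal 𝒪 • (⊤ : Submodule 𝒪 (s48h_Hpar 𝒪 (s48h_GammaH Lv H) 𝒪)) := by
    intro j hj
    rcases j with i | τ
    · have hiS : i.ell ∉ S := (s59e_anemic_inl_iff S i).mp hj
      exact hnil _ (s59t_inl_mem_goodB B i (fun h => hiS (hBS h)))
    · exact s59t_topNil_dia p H hp𝒪 hHp ε τ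
  have hEig' : ∀ (ℓ : ℕ) (_ : ℓ.Prime) (_ : ¬ ℓ ∣ M') (_ : ℓ ∉ S) (i : s59w_TIdx Lv), i.ell = ℓ →
      ∀ A : ValuationSubring Qbar, A.LiesOverPrime ℓ → ∀ σ : GQ, A.IsFrobeniusAt σ ℓ →
        LinearMap.charpoly (ρbar.ρ σ) = X ^ 2 - C (residue 𝒪
          (s59t_cB (𝒪 := 𝒪) Lv a (Sum.inr (s59e_tau i ((p ^ e - 1) * ((p ^ e + 1) / 2)))) *
            s59t_cB (𝒪 := 𝒪) Lv a (Sum.inl i))) * X +
          C ((ℓ : ResidueField 𝒪)) := by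
    intro ℓ hℓ hℓN hℓS i hi A hA σ hσ
    show LinearMap.charpoly (ρbar.ρ σ) = X ^ 2 - C (residue 𝒪
      ((1 : 𝒪) * ((a i.ell : ℤ) : 𝒪))) * X + C ((ℓ : ResidueField 𝒪))
    rw [one_mul, hi]
    exact hEig ℓ hℓ hℓS A hA σ hσ
  -- (H3), with `h𝒟` from `s59efl_hD_flat_RData`
  let b := Module.Free.chooseBasis ℤ (s48h_M (s48h_GammaH Lv H))
  have hH3 := s59e_H3' (p := p) N₀ Q (M := Lv) H b M' S hp2 hp𝒪 hpS hQ hM hDQ hD hH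
      (n := p ^ e) (m := (p ^ e + 1) / 2) hnm hn hM' hS (s59u_cB b 𝒪) (s59u_cB_coe b 𝒪)
      ε hε hε0 hεc' (s59t_cB (𝒪 := 𝒪) Lv a) hnil' ρbar hEig' DQ
  have hH3' := hH3 (by
    intro θ Hd hres
    have h3 := s59efl_hD_flat_RData Rd hp2 hp𝒪 Xs hX M' S hpM' hpS hS N₀ Q hM' hN₀ hN₀N hQX Hd hres
    exact h3)
  clear hH3
  obtain ⟨a₀, cT, ha1, ha2, hcT, hconcl⟩ := hH3'
  have hcTa : ∀ ℓ : ℕ, ℓ.Prime → ¬ ℓ ∣ M' → cT ℓ = ((a ℓ : ℤ) : 𝒪) := by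
    intro ℓ hℓ hℓN
    obtain ⟨i, hi, hci⟩ := hcT ℓ hℓ hℓN
    rw [hci]
    show (1 : 𝒪) * ((a i.ell : ℤ) : 𝒪) = _
    rw [one_mul, hi]
  -- the output
  haveI : Module.Free 𝒪 (s48h_Hpar 𝒪 (s48h_GammaH Lv H) 𝒪) := Module.Free.of_basis (s59u_cB b 𝒪)
  haveI : Module.Finite 𝒪 (s48h_Hpar 𝒪 (s48h_GammaH Lv H) 𝒪) :=
    Module.Finite.of_basis (s59u_cB b 𝒪)
  have hR := s59q_H3Out_of_concl hS a₀ ε hε
    (J := {j : s59w_AIdx Lv // s59e_Anemic S j})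
    (fun j => s59w_op H 𝒪 j.1) (fun i j => s59w_op_comm H 𝒪 i.1 j.1) (fun j => hεc' j.1 j.2)
    (fun j => s59t_cB (𝒪 := 𝒪) Lv a j.1) (fun j => hnil' j.1 j.2) cT
    (fun ℓ hℓ hℓN hℓS => by
      obtain ⟨i, hi, hci⟩ := hcT ℓ hℓ hℓN
      have hiS : i.ell ∉ S := by rw [hi]; exact hℓS
      exact ⟨⟨Sum.inr (s59e_tau i ((p ^ e - 1) * ((p ^ e + 1) / 2))), s59e_anemic_inr S _⟩,
        ⟨Sum.inl i, s59e_anemic_inl S i hiS⟩, ha1 ℓ hℓ hℓN hℓS i hi, hci⟩) DQ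
  have hR' := hR hconcl
  clear hR
  have hR'' := hR'.congr (cT' := fun ℓ => ((a ℓ : ℤ) : 𝒪)) (fun ℓ hℓ hℓN _ => hcTa ℓ hℓ hℓN)
  exact ⟨a₀, ha1, ha2, hR''⟩

end H3R

end Fermat.Agent.Lib.S59
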