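/-
PROGRAMME R2 = S59, node [FLR], **the `T`-side input `h𝒟` for the deformation type with unipotent
inertia at the raising primes** (helper4, prefix `s59f_`; lead's decision #3839 item 1).

`s59f_hD_flat_unip` = twin of helper5's `s59efl_hD_flat_RData` (EFlrA.lean) whose conclusion ALSO gives
unipotence on inertia at a set `Rs` of primes which are not squared in the level
(`q ∥ M'` ⇒ S34 `s59e_hecke_unip`; `q ∤ M'` ⇒ `s59e_hecke_unram'`, unramified ⇒ unipotent).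
Same binders + `Rs`, `hRsQ : ∀ q ∈ Rs, q ∉ Q`.
-/
import Mathlib
import Fermat.Agent.Lib.S59.EFlrA

set_option autoImplicit false
set_option linter.unusedSectionVars false
set_option linter.unusedVariables false
set_option linter.style.haveILetI false
set_option synthInstance.maxHeartbeats 400000
set_option maxHeartbeats 1600000

noncomputable section

namespace Fermat.Agent.Lib.S59

open IsLocalRing CuspForm

local notation "Qbar" => AlgebraicClosure ℚ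
local notation "GQ" => (AlgebraicClosure ℚ ≃ₐ[ℚ] AlgebraicClosure ℚ)

section UnipOfUnram

variable {A : Type} [CommRing A] [IsLocalRing A]

/-- an unramified representation is unipotent on inertia. -/
theorem s59f_unip_of_unram (ρ : GaloisRepAdic A) (q : ℕ) (h : ρ.IsUnramifiedAt q) :
    ρ.IsUnipotentOnInertiaAt q := by
  intro P hP σ hσ
  rw [h P hP σ hσ]
  set b : Module.Basis (Fin 2) A ρ.V := Module.finBasisOfFinrankEq A ρ.V ρ.finrank_eq with hb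
  rw [← LinearMap.charpoly_toMatrix (1 : Module.End A ρ.V) b]
  have e : LinearMap.toMatrix b b (1 : Module.End A ρ.V) = 1 := LinearMap.toMatrix_one b
  rw [e, Matrix.charpoly_one, Fintype.card_fin]

end UnipOfUnram

section Sq

/-- a prime outside `Q` divides `N₀ ∏_{q' ∈ Q} q'²` at most once when `N₀` is squarefree. -/
theorem s59f_not_sq_dvd_level (N₀ : ℕ) (Q : Finset ℕ) (hQ : ∀ q' ∈ Q, q'.Prime)
    (hN₀ : Squarefree N₀) (q : ℕ) (hq : q.Prime) (hqQ : q ∉ Q) :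
    ¬ q ^ 2 ∣ N₀ * ∏ q' ∈ Q, q' ^ 2 := by
  intro h
  have hcop : Nat.Coprime (q ^ 2) (∏ q' ∈ Q, q' ^ 2) := by
    refine Nat.Coprime.pow_left 2 ?_
    refine Nat.Coprime.prod_right (fun q' hq' => ?_)
    refine Nat.Coprime.pow_right 2 ?_
    refine (Nat.coprime_primes hq (hQ q' hq')).mpr ?_
    rintro rfl
    exact hqQ hq'
  have h2 : q ^ 2 ∣ N₀ := hcop.dvd_of_dvd_mul_right h
  have h3 : q * q ∣ N₀ := by rwa [pow_two] at h2
  exact hq.not_isUnit (hN₀ q h3)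

end Sq

section RDataU

variable {p : ℕ} [Fact p.Prime] {N : ℕ}
  {𝒪 : Type} [CommRing 𝒪] [IsDomain 𝒪] [IsDiscreteValuationRing 𝒪]
  [IsAdicComplete (maximalIdeal 𝒪) 𝒪] [Finite (ResidueField 𝒪)] [CharZero 𝒪]
  {ρbar : ResidualGaloisRep (ResidueField 𝒪)} {B Bd : Finset ℕ}
  (Rd : s59i_RData p N ρbar B Bd)

/-- **`h𝒟` for the data `Rd`, with unipotent inertia at the raising primes**: every Hecke–Galois datum
of level `M' = N₀ ∏_{q ∈ Q} q²` (`N₀` squarefree, `Q ⊆ Bd ∪ X`) lifting `ρ̄` is of the flat type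
`Σ = Rd.Smin ∪ (Bd ∪ Rd.Ed) ∪ X` and UNIPOTENT on inertia at every prime of `Rd.Smin ∪ Rs`, for any
set `Rs` of primes disjoint from `Q`. -/
theorem s59f_hD_flat_unip (hp2 : p ≠ 2) (hp𝒪 : (p : 𝒪) ∈ maximalIdeal 𝒪)
    (X : Finset ℕ) (hX : ∀ q ∈ X, q.Prime)
    (M' : ℕ) [NeZero M'] (S : Finset ℕ) (hpM' : ¬ p ∣ M')
    (hpS : p ∈ S) (hS : ∀ q : ℕ, q.Prime → q ∣ M' → q ∈ S)
    (N₀ : ℕ) (Q : Finset ℕ) (hM' : M' = N₀ * ∏ q ∈ Q, q ^ 2) (hN₀ : Squarefree N₀)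
    (hN₀N : ∀ q : ℕ, q.Prime → q ∣ N₀ → q ∣ N ∨ s59e3q_E2Alt p ρbar q ∨ q ∈ X)
    (hQ : ∀ q ∈ Q, q ∈ Bd ∨ (q ∈ X ∧ ρbar.IsUnramifiedAt q))
    (Rs : Finset ℕ) (hRsQ : ∀ q ∈ Rs, q ∉ Q)
    {θ : heckeAlgebra M' 2 (↑S : Set ℕ) →+* ResidueField 𝒪}
    {T : Type} [CommRing T] [IsLocalRing T] [IsNoetherianRing T]
    [IsAdicComplete (maximalIdeal T) T] [Algebra 𝒪 T] [IsLocalHom (algebraMap 𝒪 T)]
    [Module.Finite 𝒪 T] [Module.Free 𝒪 T]
    (Hd : HeckeGaloisRepDatum M' (↑S : Set ℕ) 𝒪 θ T)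
    (hres : Hd.ρ.residual.IsEquiv (ρbar.baseChangeAlong (ResidueField.map (algebraMap 𝒪 T)))) :
    GaloisRep.flatCondition 𝒪 p (Rd.Smin ∪ (Bd ∪ Rd.Ed) ∪ X) Hd.ρ ∧
      ∀ q ∈ Rd.Smin ∪ Rs, q.Prime → q ≠ p → Hd.ρ.IsUnipotentOnInertiaAt q := by
  obtain ⟨h1, h2⟩ := s59efl_hD_flat_RData Rd hp2 hp𝒪 X hX M' S hpM' hpS hS N₀ Q hM' hN₀ hN₀N hQ
    Hd hres
  refine ⟨h1, fun q hqS hq hqp => ?_⟩
  rcases Finset.mem_union.mp hqS with hqS | hqR
  · exact h2 q hqS hq hqp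
  · by_cases hqM : q ∣ M'
    · refine s59e_hecke_unip Hd hp𝒪 hpS hS q hq hqp hqM ?_
      rw [hM']
      refine s59f_not_sq_dvd_level N₀ Q (fun q' hq' => ?_) hN₀ q hq (hRsQ q hqR)
      rcases hQ q' hq' with h | h
      · exact Rd.hBprime q' h
      · exact hX q' h.1
    · exact s59f_unip_of_unram Hd.ρ q (s59e_hecke_unram' Hd hp𝒪 hpS hS q hq hqp hqM)

end RDataU

end Fermat.Agent.Lib.S59
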