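/-
S59 project, case (P), route (T5w), [W4c] (helper2, prefix `s59b_`; request of helper7 #4021 (B), step 1): **THE CONCRETE `p`-NEW (H3)
FOR A STRICT-ORDINARY TYPE WITH FREE FINSETS `(Sg, Su)`** — the `p`-new analogue of helper5's `s59efl_H3_free` (EFlrH3F) and of helper6's
`s59q_efl_H3_free_ord` (QSFlrH3F): helper8's `s59c_H3_pnew` (CPNewH3.lean) with the record `Rd : s59i_RData …` replaced by hypotheses
stated directly on the finsets.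

* `s59b_hD_nonp_free`  : twin of `s59c_hD_nonp_RData`: a Hecke–Galois datum of level `M' = N₀ ∏_{q ∈ Q} q²` lifting `ρ̄` has cyclotomic
  determinant, is unramified outside `Sg` and unipotent on inertia at `Su`, when every prime of `M'` is in `Sg` or of type (E2′)
  (`s59e3q_E2Alt`), `Smin` is the ramification set of `ρ̄` and every prime of `Su` is in `Smin` or outside `Q`;
* **`s59b_H3_pnew_free`** : `s59c_H3_pnew` VERBATIM (generated from it) with `Rd hN₀N Xs hX hQX ↦ hQu Sg Su Smin hpSg hSg hmin hSu` and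
  `DQ : strictOrdinaryCondition 𝒪 p Sg ρ ∧ ∀ q ∈ Su, …`.
-/
import Mathlib
import Fermat.Agent.Lib.S59.CPNewH3
import Fermat.Agent.Lib.S59.Q3SE2a
import Fermat.Agent.Lib.S59.FAsmHD

set_option autoImplicit false
set_option linter.unusedSectionVars false
set_option linter.unusedVariables false
set_option linter.style.haveILetI false
set_option synthInstance.maxHeartbeats 400000
set_option maxHeartbeats 1600000

noncomputable section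

namespace Fermat.Agent.Lib.S59

open Matrix.SpecialLinearGroup CongruenceSubgroup ModularCurve.Period Polynomial CuspForm
open Fermat.Agent.Lib.S48 Fermat.Agent.Lib.ES IsLocalRing Fermat.Agent.Lib.S18
open scoped MatrixGroups

local notation "Qbar" => AlgebraicClosure ℚ
local notation "GQ" => (AlgebraicClosure ℚ ≃ₐ[ℚ] AlgebraicClosure ℚ)

section HDNonP

variable {p : ℕ} [Fact p.Prime]
  {𝒪 : Type} [CommRing 𝒪] [IsDomain 𝒪] [IsDiscreteValuationRing 𝒪]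
  [IsAdicComplete (maximalIdeal 𝒪) 𝒪] [Finite (ResidueField 𝒪)] [CharZero 𝒪]

/-- **the non-`p` clauses of `h𝒟` for a type with free finsets** (no [STRICT-p] needed). -/
theorem s59b_hD_nonp_free (hp𝒪 : (p : 𝒪) ∈ maximalIdeal 𝒪)
    (M' : ℕ) [NeZero M'] (S : Finset ℕ)
    (hpS : p ∈ S) (hS : ∀ q : ℕ, q.Prime → q ∣ M' → q ∈ S)
    (ρbar : ResidualGaloisRep (ResidueField 𝒪))
    (N₀ : ℕ) (Q : Finset ℕ) (hM' : M' = N₀ * ∏ q ∈ Q, q ^ 2) (hN₀ : Squarefree N₀)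
    (hQ : ∀ q ∈ Q, q.Prime ∧ ρbar.IsUnramifiedAt q)
    (Sg Su Smin : Finset ℕ) (hpSg : p ∈ Sg)
    (hSg : ∀ q : ℕ, q.Prime → q ∣ M' → q ∈ Sg ∨ s59e3q_E2Alt p ρbar q)
    (hmin : ∀ q : ℕ, q.Prime → q ≠ p → (q ∈ Smin ↔ ¬ ρbar.IsUnramifiedAt q))
    (hSu : ∀ q ∈ Su, q ∈ Smin ∨ q ∉ Q)
    {θ : heckeAlgebra M' 2 (↑S : Set ℕ) →+* ResidueField 𝒪}
    {T : Type} [CommRing T] [IsLocalRing T] [IsNoetherianRing T]
    [IsAdicComplete (maximalIdeal T) T] [Algebra 𝒪 T] [IsLocalHom (algebraMap 𝒪 T)]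
    [Module.Finite 𝒪 T] [Module.Free 𝒪 T]
    (Hd : HeckeGaloisRepDatum M' (↑S : Set ℕ) 𝒪 θ T)
    (hres : Hd.ρ.residual.IsEquiv (ρbar.baseChangeAlong (ResidueField.map (algebraMap 𝒪 T)))) :
    Hd.ρ.DetIsCyclotomic p ∧
      (∀ q : ℕ, q.Prime → q ∉ Sg → Hd.ρ.IsUnramifiedAt q) ∧
      ∀ q ∈ Su, q.Prime → q ≠ p → Hd.ρ.IsUnipotentOnInertiaAt q := by
  have hSmin := s59e_Smin_exact Hd hp𝒪 hpS hS ρbar hres N₀ Q hM' hN₀ hQ Smin hmin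
  refine ⟨s59e_hecke_detCyc Hd hp𝒪 hS, fun q hq hqSg => ?_, fun q hqS hq hqp => ?_⟩
  · by_cases hqN : q ∣ M'
    · rcases hSg q hq hqN with h | ⟨hqp, hU, hq1, A, φ, hA, hφ, hratio⟩
      · exact absurd h hqSg
      · exact s59e3q_unram_E2_of_hres Hd.ρ ρbar hres (Fact.out : p.Prime) hq hqp hp𝒪 hU hq1 A φ hA
          hφ hratio
    · exact s59e_hecke_unram' Hd hp𝒪 hpS hS q hq (fun h => hqSg (h ▸ hpSg)) hqN
  · rcases hSu q hqS with hqS' | hqQ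
    · obtain ⟨h1, h2⟩ := hSmin q hqS' hq hqp
      exact s59e_hecke_unip Hd hp𝒪 hpS hS q hq hqp h1 h2
    · by_cases hqM : q ∣ M'
      · refine s59e_hecke_unip Hd hp𝒪 hpS hS q hq hqp hqM ?_
        rw [hM']
        exact s59f_not_sq_dvd_level N₀ Q (fun q' hq' => (hQ q' hq').1) hN₀ q hq hqQ
      · exact s59f_unip_of_unram Hd.ρ q (s59e_hecke_unram' Hd hp𝒪 hpS hS q hq hqp hqM)

end HDNonP

/-! ### The concrete `p`-new (H3), free finsets -/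

set_option maxSynthPendingDepth 3

section H3PNewF

variable {p : ℕ} [hp : Fact p.Prime]
  {𝒪 : Type} [CommRing 𝒪] [IsDomain 𝒪] [IsDiscreteValuationRing 𝒪]
  [IsAdicComplete (maximalIdeal 𝒪) 𝒪] [Finite (ResidueField 𝒪)] [CharZero 𝒪] [Algebra ℤ_[p] 𝒪]
  {B : Finset ℕ} {ρbar : ResidualGaloisRep (ResidueField 𝒪)} (a : ℕ → ℤ)

/-- **the concrete `p`-new (H3) for a strict type with FREE finsets `(Sg, Su)`** — see the header. -/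
theorem s59b_H3_pnew_free (hp2 : p ≠ 2) (hp𝒪 : (p : 𝒪) ∈ maximalIdeal 𝒪)
    (hord : (GaloisRepAdic.ofResidualGaloisRep ρbar).IsOrdinaryAt p)
    -- the level `Γ_{H'}(L p)`
    (N₁ : ℕ) [NeZero N₁] (Q : Finset ℕ) (hQ : ∀ q ∈ Q, q.Prime ∧ ¬ q ∣ N₁ * p)
    {L : ℕ} [NeZero L] (hL : L = N₁ * ∏ q ∈ Q, q) (hpL : ¬ p ∣ L)
    (H : Subgroup (ZMod L)ˣ) (hD₁ : (∏ q ∈ Q, q) ∣ L)
    (hHker : s59u_ker L (∏ q ∈ Q, q) hD₁ ≤ H)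
    [NeZero (L * p)] (H' : Subgroup (ZMod (L * p))ˣ)
    (hH' : ∀ u : (ZMod (L * p))ˣ, u ∈ H' ↔ ZMod.unitsMap (dvd_mul_right L p) u ∈ H)
    (e : ℕ) (hn : ∀ u : (ZMod (L * p))ˣ, u ^ (p ^ e) ∈ H')
    -- the `Γ₀`-level `M' p`
    (M' : ℕ) [NeZero M'] [NeZero (M' * p)] [Fact (HasIntegralStructure (M' * p) 2)]
    (hM' : M' = N₁ * (∏ q ∈ Q, q) * ∏ q ∈ Q, q) (hgood : s18_GoodLevel p M')
    (S : Finset ℕ) (hpS : p ∈ S) (hBS : B ⊆ S)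
    (hS : ∀ q : ℕ, q.Prime → q ∣ M' * p → q ∈ S)
    (hN₀ : Squarefree (N₁ * p))
    (hQu : ∀ q ∈ Q, ρbar.IsUnramifiedAt q)
    (Sg Su Smin : Finset ℕ) (hpSg : p ∈ Sg)
    (hSg : ∀ q : ℕ, q.Prime → q ∣ M' * p → q ∈ Sg ∨ s59e3q_E2Alt p ρbar q)
    (hmin : ∀ q : ℕ, q.Prime → q ≠ p → (q ∈ Smin ↔ ¬ ρbar.IsUnramifiedAt q))
    (hSu : ∀ q ∈ Su, q ∈ Smin ∨ q ∉ Q)
    -- the idempotent
    (ε : Module.End 𝒪 (s48h_Hpar 𝒪 (s48h_GammaH (L * p) H') 𝒪)) (hε : ε * ε = ε)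
    (hεc : ∀ x, ε * s59w_op H' 𝒪 x = s59w_op H' 𝒪 x * ε)
    (hnil : ∀ x ∈ s59t_goodB (L * p) B, ∃ k : ℕ,
      ∀ y : s48h_Hpar 𝒪 (s48h_GammaH (L * p) H') 𝒪,
      ((s59w_op H' 𝒪 x - s59t_cB (𝒪 := 𝒪) (L * p) a x •
        (1 : Module.End 𝒪 (s48h_Hpar 𝒪 (s48h_GammaH (L * p) H') 𝒪))) ^ k) (ε y) ∈
        (maximalIdeal 𝒪 • ⊤ : Submodule 𝒪 (s48h_Hpar 𝒪 (s48h_GammaH (L * p) H') 𝒪)))
    (hEig : ∀ ℓ : ℕ, ℓ.Prime → ℓ ∉ S → ∀ A : ValuationSubring Qbar, A.LiesOverPrime ℓ →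
      ∀ σ : GQ, A.IsFrobeniusAt σ ℓ →
        LinearMap.charpoly (ρbar.ρ σ) = X ^ 2 - C (residue 𝒪 ((a ℓ : ℤ) : 𝒪)) * X +
          C ((ℓ : ResidueField 𝒪)))
    -- the kernel-new submodule
    (Z : Submodule 𝒪 (s48h_Hpar 𝒪 (s48h_GammaH (L * p) H') 𝒪)) (hZ0 : Z ≠ ⊥)
    (hZε : ∀ z ∈ Z, ε z = z) (hZop : ∀ x, ∀ z ∈ Z, s59w_op H' 𝒪 x z ∈ Z)
    (hZsat : ∀ (c : 𝒪) (y : s48h_Hpar 𝒪 (s48h_GammaH (L * p) H') 𝒪), c ≠ 0 → c • y ∈ Z → y ∈ Z)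
    (hnewA : ∀ z ∈ Z, s59f_corH hpL (s59f_isG_GammaH L H)
      (s59f_isG'_GammaH hpL rfl (dvd_mul_right L p) hH') 𝒪
      ((z : s48h_Hpar 𝒪 (s48h_GammaH (L * p) H') 𝒪) :
        Additive (s48h_GammaH (L * p) H') →+ 𝒪) = 0)
    (hnewB : ∀ z ∈ Z, s59f_corH hpL (s59f_isG_GammaH L H)
      (s59f_isG'_GammaH hpL rfl (dvd_mul_right L p) hH') 𝒪
      (s59f_wH hpL (s59f_isG'_GammaH hpL rfl (dvd_mul_right L p) hH') 𝒪
        ((z : s48h_Hpar 𝒪 (s48h_GammaH (L * p) H') 𝒪) :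
          Additive (s48h_GammaH (L * p) H') →+ 𝒪)) = 0)
    (DQ : GaloisRep.DeformationRingData 𝒪 ρbar (fun _A _ _ _ ρ =>
      GaloisRep.strictOrdinaryCondition 𝒪 p Sg ρ ∧
        ∀ q ∈ Su, q.Prime → q ≠ p → ρ.IsUnipotentOnInertiaAt q)) :
    ∃ a₀ : heckeAlgebra (M' * p) 2 (↑S : Set ℕ) →+*
        Module.End 𝒪 (s48h_Hpar 𝒪 (s48h_GammaH (L * p) H') 𝒪),
      (∀ (ℓ : ℕ) (hℓ : ℓ.Prime) (hℓN : ¬ ℓ ∣ M' * p) (hℓS : ℓ ∉ (↑S : Set ℕ))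
        (i : s59w_TIdx (L * p)), i.ell = ℓ → a₀ (heckeAlgebra.T hℓ hℓN hℓS) =
          s59e_Tp' H' 𝒪 ((p ^ e - 1) * ((p ^ e + 1) / 2)) i) ∧
      (∀ t, a₀ t ∈
        Subring.closure (Set.range (s59e_Tp' H' 𝒪 ((p ^ e - 1) * ((p ^ e + 1) / 2))))) ∧
      s59c_H3OutZ (M' * p) S a₀ Z (fun ℓ => ((a ℓ : ℤ) : 𝒪)) DQ := by
  classical
  have hpP : p.Prime := hp.out
  have hpodd : Odd (p ^ e) := (hpP.odd_of_ne_two hp2).pow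
  have hnm : 2 * ((p ^ e + 1) / 2) = p ^ e + 1 := by
    obtain ⟨k, hk⟩ := hpodd
    omega
  have hHp : ∀ u : (ZMod (L * p))ˣ, ∃ k : ℕ, u ^ (p ^ k) ∈ H' := fun u => ⟨e, hn u⟩
  haveI : NeZero (N₁ * p) := ⟨Nat.mul_ne_zero (NeZero.ne N₁) hpP.ne_zero⟩
  -- the level identities
  have hM : L * p = (N₁ * p) * ∏ q ∈ Q, q := by rw [hL]; ring
  have hD : (∏ q ∈ Q, q) ∣ L * p := hD₁.mul_right p
  have hH : s59u_ker (L * p) (∏ q ∈ Q, q) hD ≤ H' := by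
    intro u hu
    rw [hH']
    apply hHker
    show ZMod.unitsMap hD₁ (ZMod.unitsMap (dvd_mul_right L p) u) = 1
    rw [← MonoidHom.comp_apply, ZMod.unitsMap_comp]
    exact hu
  have hM'' : M' * p = (N₁ * p) * ∏ q ∈ Q, q ^ 2 := by
    rw [hM', Finset.prod_pow]; ring
  have hMM' : L * p ∣ M' * p := by
    rw [hM', hL]
    exact Nat.mul_dvd_mul_right (Dvd.intro _ rfl) p
  have hMS : ∀ q : ℕ, q.Prime → q ∣ L * p → q ∈ S := fun q hq h => hS q hq (dvd_trans h hMM')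
  have hidx : ∀ ℓ : ℕ, ℓ.Prime → ¬ ℓ ∣ M' * p → ∃ i : s59w_TIdx (L * p), i.ell = ℓ :=
    fun ℓ hℓ hℓN => s59e_exists_TIdx (M := L * p) hℓ (fun h => hℓN (dvd_trans h hMM'))
  -- `a₀`
  let b := Module.Free.chooseBasis ℤ (s48h_M (s48h_GammaH (L * p) H'))
  obtain ⟨a₀, ha1, ha2⟩ := s59e_REL (N₁ * p) Q H' b (M' * p) (↑S : Set ℕ) s59w_petSS hQ hM rfl hD hH
    hnm hn hM'' hS (s59u_cB b 𝒪) (s59u_cB_coe b 𝒪)
  refine ⟨a₀, ha1, ha2, ?_⟩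
  haveI : Module.Free 𝒪 (s48h_Hpar 𝒪 (s48h_GammaH (L * p) H') 𝒪) :=
    Module.Free.of_basis (s59u_cB b 𝒪)
  haveI : Module.Finite 𝒪 (s48h_Hpar 𝒪 (s48h_GammaH (L * p) H') 𝒪) :=
    Module.Finite.of_basis (s59u_cB b 𝒪)
  -- the anemic family
  have hεc' : ∀ j, s59e_Anemic S j → ε * s59w_op H' 𝒪 j = s59w_op H' 𝒪 j * ε := fun j _ => hεc j
  have hnil' : ∀ j, s59e_Anemic S j → ∃ k : ℕ, ∀ z,
      ((s59w_op H' 𝒪 j - s59t_cB (𝒪 := 𝒪) (L * p) a j • 1) ^ k) (ε z) ∈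
        maximalIdeal 𝒪 • (⊤ : Submodule 𝒪 (s48h_Hpar 𝒪 (s48h_GammaH (L * p) H') 𝒪)) := by
    intro j hj
    rcases j with i | τ
    · have hiS : i.ell ∉ S := (s59e_anemic_inl_iff S i).mp hj
      exact hnil _ (s59t_inl_mem_goodB B i (fun h => hiS (hBS h)))
    · exact s59t_topNil_dia p H' hp𝒪 hHp ε τ
  -- stability of `Z` under `a₀`
  have hcl : ∀ t, ∃ hx : ∀ z ∈ Z, a₀ t z ∈ Z,
      (a₀ t).restrict hx ∈ Algebra.adjoin 𝒪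
        (Set.range fun j : s59w_AIdx (L * p) => (s59w_op H' 𝒪 j).restrict (hZop j)) ∧
      a₀ t ∈ Algebra.adjoin 𝒪 (Set.range (s59w_op H' 𝒪)) := fun t =>
    s59c_closure_restrict Z (s59w_op H' 𝒪) hZop
      (s59e_Tp' H' 𝒪 ((p ^ e - 1) * ((p ^ e + 1) / 2))) (fun i => ⟨_, _, rfl⟩) (ha2 t)
  have hZa : ∀ t, ∀ z ∈ Z, a₀ t z ∈ Z := fun t => (hcl t).fst
  have h𝒟 : ∀ (aZ : heckeAlgebra (M' * p) 2 (↑S : Set ℕ) →+* Module.End 𝒪 Z),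
      (∀ t (z : Z), ((aZ t z : Z) : s48h_Hpar 𝒪 (s48h_GammaH (L * p) H') 𝒪) = a₀ t (z : _)) →
      ∀ [IsLocalRing (s59e_adj 𝒪 aZ)]
      (θ : heckeAlgebra (M' * p) 2 (↑S : Set ℕ) →+* ResidueField 𝒪)
      (Hd : HeckeGaloisRepDatum (M' * p) (↑S : Set ℕ) 𝒪 θ (heckeLocal (M' * p) (↑S : Set ℕ) 𝒪 θ))
      (Ψ : heckeLocal (M' * p) (↑S : Set ℕ) 𝒪 θ →ₐ[𝒪] s59e_adj 𝒪 aZ)
      (hΨ : IsLocalHom (Ψ : heckeLocal (M' * p) (↑S : Set ℕ) 𝒪 θ →+* s59e_adj 𝒪 aZ)),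
      Hd.π = heckeLocal.π (M' * p) (↑S : Set ℕ) 𝒪 θ →
      Hd.ρ.residual.IsEquiv (ρbar.baseChangeAlong
        (ResidueField.map (algebraMap 𝒪 (heckeLocal (M' * p) (↑S : Set ℕ) 𝒪 θ)))) →
      Function.Surjective Ψ →
      (∀ t, Ψ (heckeLocal.π (M' * p) (↑S : Set ℕ) 𝒪 θ t) = s59e_adjHom 𝒪 aZ t) →
      (GaloisRep.strictOrdinaryCondition 𝒪 p Sg
          (Hd.ρ.baseChangeAlong
            (Ψ : heckeLocal (M' * p) (↑S : Set ℕ) 𝒪 θ →+* s59e_adj 𝒪 aZ) hΨ) ∧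
        ∀ q ∈ Su, q.Prime → q ≠ p →
          (Hd.ρ.baseChangeAlong
            (Ψ : heckeLocal (M' * p) (↑S : Set ℕ) 𝒪 θ →+* s59e_adj 𝒪 aZ)
              hΨ).IsUnipotentOnInertiaAt q) := by
    intro aZ haZ _ θ Hd Ψ hΨ hπ hres hΨs hΨa
    have hnonp := s59b_hD_nonp_free hp𝒪 (M' * p) S hpS hS ρbar (N₁ * p) Q hM'' hN₀
      (fun q hq => ⟨(hQ q hq).1, hQu q hq⟩) Sg Su Smin hpSg hSg hmin hSu Hd hres
    have h1 := hnonp.1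
    have h2 := hnonp.2.1
    have h3 := hnonp.2.2
    refine ⟨⟨Fermat.Agent.Lib.S56.s56a_detIsCyclotomic_baseChange _ hΨ Hd.ρ h1, ?_, fun q hq hqS =>
      Fermat.Agent.Lib.S56.s56a_isUnramifiedAt_baseChange _ hΨ Hd.ρ (h2 q hq hqS)⟩, fun q hqS hq hqp =>
      Fermat.Agent.Lib.S56.s56a_isUnipotentOnInertiaAt_baseChange _ hΨ Hd.ρ (h3 q hqS hq hqp)⟩
    -- the strict clause
    haveI : NeZero p := ⟨hpP.ne_zero⟩
    have hred : IsReduced (s59e_adj 𝒪 aZ) :=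
      s59b_isReduced_of_anemic (N₁ * p) Q H' b (s59u_cB b 𝒪) (s59u_cB_coe b 𝒪)
        (algebraMap 𝒪 (FractionRing 𝒪)) (IsFractionRing.injective 𝒪 (FractionRing 𝒪)) hQ hM rfl hD
        hH hnm hn Z (s59e_adj 𝒪 aZ)
        (fun x hx => s59c_adj_lift (s59w_op H' 𝒪) aZ haZ (fun t => (hcl t).snd.2) x hx)
    have hjTg : ∀ t : s59e_adj 𝒪 aZ, (s59e_adj 𝒪 aZ).val t ∈ Algebra.adjoin 𝒪
        (Set.range fun j : s59w_AIdx (L * p) => (s59w_op H' 𝒪 j).restrict (hZop j)) := fun t =>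
      s59c_adj_le_restr (s59w_op H' 𝒪) hZop aZ haZ (fun t => ⟨(hcl t).fst, (hcl t).snd.1⟩) t.1 t.2
    have hq : ∀ (ℓ : ℕ) (hℓ : ℓ.Prime) (hℓN : ¬ ℓ ∣ M' * p) (hℓS : ℓ ∉ (↑S : Set ℕ))
        (i : s59w_TIdx (L * p)), i.ell = ℓ →
        (s59e_adj 𝒪 aZ).val (Ψ (Hd.π (heckeAlgebra.T hℓ hℓN hℓS))) =
          (s59w_op H' 𝒪 (Sum.inr (s59e_tau i ((p ^ e - 1) * ((p ^ e + 1) / 2))))).restrict
              (hZop _) *
            (s59w_op H' 𝒪 (Sum.inl i)).restrict (hZop _) := by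
      intro ℓ hℓ hℓN hℓS i hi
      rw [hπ, hΨa]
      refine LinearMap.ext fun z => Subtype.ext ?_
      show ((aZ (heckeAlgebra.T hℓ hℓN hℓS) z : Z) :
        s48h_Hpar 𝒪 (s48h_GammaH (L * p) H') 𝒪) = _
      rw [haZ, ha1 ℓ hℓ hℓN hℓS i hi]
      rfl
    have hp2M : ¬ p ^ 2 ∣ M' * p := fun h =>
      hgood.1 ((Nat.mul_dvd_mul_iff_right hpP.pos).mp (by rwa [pow_two] at h))
    have hord' : (GaloisRepAdic.ofResidualGaloisRep (Hd.ρ.baseChangeAlong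
        (Ψ : heckeLocal (M' * p) (↑S : Set ℕ) 𝒪 θ →+* s59e_adj 𝒪 aZ) hΨ).residual).IsOrdinaryAt
        p := by
      obtain ⟨e'⟩ := hres
      have h4 : (GaloisRepAdic.ofResidualGaloisRep Hd.ρ.residual).IsOrdinaryAt p :=
        s59q_resOrd_of_equiv e'.symm p (s59q_resOrd_baseChange _ ρbar p hord)
      have h5 : Hd.ρ.IsOrdinaryAt p :=
        Fermat.Agent.S33.result hpP hp2 hp𝒪 ⟨Dvd.intro_left M' rfl, hp2M⟩ hS Hd h4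
      exact s59q_resOrd_of_ord _ p (s59e_bc_ord _ hΨ Hd.ρ p h5)
    exact s59m_STRICT_abs p N₁ Q hp2 hQ hL hpL H hD₁ hHker H' hH' hnm hn 𝒪 hp𝒪 S hpS hMS
      (Z := ↥Z) Z.subtype Subtype.val_injective
      (fun j => (s59w_op H' 𝒪 j).restrict (hZop j)) (fun _ _ => rfl)
      (fun z => hnewA z.1 z.2) (fun z => hnewB z.1 z.2) M' hM' hgood hS Hd
      (s59e_adj 𝒪 aZ) (s59e_adj 𝒪 aZ).val Subtype.val_injective hjTg hred Ψ hΨ hq hord'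
  exact s59c_H3_pnew_abs hp2 hp𝒪 hpS hS a₀ ε hε
    (J := {j : s59w_AIdx (L * p) // s59e_Anemic S j})
    (fun j => s59w_op H' 𝒪 j.1) (fun i j => s59w_op_comm H' 𝒪 i.1 j.1) (fun j => hεc' j.1 j.2)
    (fun j => s59t_cB (𝒪 := 𝒪) (L * p) a j.1) (fun j => hnil' j.1 j.2)
    (fun ℓ => ((a ℓ : ℤ) : 𝒪))
    (fun ℓ hℓ hℓN hℓS => by
      obtain ⟨i, hi⟩ := hidx ℓ hℓ hℓN
      have hiS : i.ell ∉ S := by rw [hi]; exact hℓS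
      refine ⟨⟨Sum.inr (s59e_tau i ((p ^ e - 1) * ((p ^ e + 1) / 2))), s59e_anemic_inr S _⟩,
        ⟨Sum.inl i, s59e_anemic_inl S i hiS⟩, ha1 ℓ hℓ hℓN hℓS i hi, ?_⟩
      show ((a ℓ : ℤ) : 𝒪) = (1 : 𝒪) * ((a i.ell : ℤ) : 𝒪)
      rw [one_mul, hi])
    Z hZ0 hZε (fun j => hZop j.1) hZsat hZa ρbar
    (fun ℓ hℓ hℓN hℓS A hA σ hσ => hEig ℓ hℓ hℓS A hA σ hσ) DQ h𝒟

end H3PNewF

end Fermat.Agent.Lib.S59

end
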