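/-
[E] FINAL ASSEMBLY (helper4, prefix `s59i_`), FIN-A, part B1: **THE CONTRACT OF THE `T`-SIDE.**
Two structures: `s59i_TBase` (everything chosen ONCE, at the base level `N`) and `s59i_TLevel`
(everything at the Taylor–Wiles level `n`, for a given universal deformation ring `DQ`).
All statements about Galois representations are in terms of the coefficients of characteristic
polynomials (`s59i_cpTr`, `s59i_cpDt`), hence independent of bases.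
-/
import Mathlib
import Fermat.Prelude.Def_CuspForm_HeckeGaloisRepDatum
import Fermat.Prelude.Def_GaloisRep_DeformationRingData
import Fermat.Prelude.Def_GaloisRep_LocalConditions
import Fermat.Agent.Lib.Deform.Defs
import Fermat.Agent.Lib.S59.PGraph

set_option autoImplicit false
set_option linter.unusedSectionVars false
set_option linter.unusedVariables false
set_option linter.style.haveILetI false

noncomputable section

namespace Fermat.Agent.Lib.S59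

open IsLocalRing MvPowerSeries CuspForm
open Fermat.Agent.Lib.Deform (IsTestAlgebra)

local notation "Γℚ" => (AlgebraicClosure ℚ ≃ₐ[ℚ] AlgebraicClosure ℚ)

section CP

variable {A : Type} [CommRing A] [IsLocalRing A]

/-- the trace of `ρ(g)`, as minus the coefficient of `X` of the characteristic polynomial. -/
def s59i_cpTr (ρ : GaloisRepAdic A) (g : Γℚ) : A := -(LinearMap.charpoly (ρ.ρ g)).coeff 1

/-- the determinant of `ρ(g)`, as the constant coefficient of the characteristic polynomial. -/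
def s59i_cpDt (ρ : GaloisRepAdic A) (g : Γℚ) : A := (LinearMap.charpoly (ρ.ρ g)).coeff 0

theorem s59i_cpTr_of_charpoly (ρ : GaloisRepAdic A) (g : Γℚ) (t d : A)
    (h : LinearMap.charpoly (ρ.ρ g) =
      Polynomial.X ^ 2 - Polynomial.C t * Polynomial.X + Polynomial.C d) :
    s59i_cpTr ρ g = t := by
  rw [s59i_cpTr, h]
  simp [Polynomial.coeff_X_pow, Polynomial.coeff_C]

theorem s59i_cpDt_of_charpoly (ρ : GaloisRepAdic A) (g : Γℚ) (t d : A)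
    (h : LinearMap.charpoly (ρ.ρ g) =
      Polynomial.X ^ 2 - Polynomial.C t * Polynomial.X + Polynomial.C d) :
    s59i_cpDt ρ g = d := by
  rw [s59i_cpDt, h]
  simp [Polynomial.coeff_X_pow]

end CP

/-- **the `T`-side at the base level** (chosen once). -/
structure s59i_TBase (𝒪 : Type) [CommRing 𝒪] [IsDomain 𝒪] [IsDiscreteValuationRing 𝒪]
    [IsAdicComplete (maximalIdeal 𝒪) 𝒪]
    (N : ℕ) [NeZero N] (B : Finset ℕ) (a : ℕ → ℤ) (m r : ℕ) (σ : Type)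
    (ρbar : ResidualGaloisRep (ResidueField 𝒪)) (qB : Fin m → ℕ) : Type 1 where
  /-- the congruence modulus between the two types -/
  ϖ : 𝒪
  hϖ : ϖ ∈ maximalIdeal 𝒪
  /-- `R = T¹_∅`, the type-`1` Hecke ring at the base level -/
  R : Type
  [iR1 : CommRing R]
  [iR2 : IsLocalRing R]
  [iR3 : IsNoetherianRing R]
  [iR4 : IsAdicComplete (maximalIdeal R) R]
  [iR5 : Algebra 𝒪 R]
  [iR6 : Module.Finite 𝒪 R]
  [iR7 : IsLocalHom (algebraMap 𝒪 R)]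
  /-- `R′ = T^χ_∅` -/
  R' : Type
  [iR'1 : CommRing R']
  [iR'2 : IsLocalRing R']
  [iR'3 : IsNoetherianRing R']
  [iR'4 : IsAdicComplete (maximalIdeal R') R']
  /-- the type-`1` module at the base level -/
  M : Type
  [iM1 : AddCommGroup M]
  [iM2 : Module R M]
  [iM3 : Module.Finite R M]
  /-- the type-`χ` module at the base level -/
  M' : Type
  [iM'1 : AddCommGroup M']
  [iM'2 : Module R' M']
  [iM'3 : Module.Finite R' M']
  [iM'4 : Nontrivial M']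
  /-- the augmentation ideal of `𝒮 = 𝒪⟦x_1..x_r⟧⟦z_σ⟧` -/
  𝔞 : Ideal (MvPowerSeries σ (MvPowerSeries (Fin r) 𝒪))
  h𝔞 : 𝔞.IsPrime
  h𝔞0 : ∀ k : ℕ, ((k : ℕ) : MvPowerSeries σ (MvPowerSeries (Fin r) 𝒪)) ∈ 𝔞 → k = 0
  J : ℕ → Ideal (MvPowerSeries σ (MvPowerSeries (Fin r) 𝒪))
  hJ : ∀ n, J n ≤ maximalIdeal (MvPowerSeries σ (MvPowerSeries (Fin r) 𝒪)) ^ n
  /-- the Hecke eigensystem and the Galois representation over `R` -/
  πR : heckeAlgebra N 2 (↑B : Set ℕ) →+* R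
  ρR : GaloisRepAdic R
  hπa : ∀ (ℓ : ℕ) (hℓ : ℓ.Prime) (hℓN : ¬ ℓ ∣ N) (hℓB : ℓ ∉ (↑B : Set ℕ)),
    πR (heckeAlgebra.T hℓ hℓN hℓB) - ((a ℓ : ℤ) : R) ∈ maximalIdeal R
  hfrob : ∀ (ℓ : ℕ) (hℓ : ℓ.Prime) (hℓN : ¬ ℓ ∣ N) (hℓB : ℓ ∉ (↑B : Set ℕ)),
    ∀ A : ValuationSubring (AlgebraicClosure ℚ), A.LiesOverPrime ℓ →
    ∀ g : Γℚ, A.IsFrobeniusAt g ℓ →
      LinearMap.charpoly (ρR.ρ g) =
        Polynomial.X ^ 2 - Polynomial.C (πR (heckeAlgebra.T hℓ hℓN hℓB)) * Polynomial.X +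
          Polynomial.C ((ℓ : R))
  hresR : ρR.residual.IsEquiv
    (ρbar.baseChangeAlong (IsLocalRing.ResidueField.map (algebraMap 𝒪 R)))
  hunipR : ∀ j, ρR.IsUnipotentOnInertiaAt (qB j)
  /-- the common ranks -/
  d : ℕ
  d' : ℕ
  /-- the characters of type `χ` -/
  ι : Type
  [iι : Fintype ι]
  ζ : ι → Fin m → 𝒪
  ζ' : ι → Fin m → 𝒪
  hζ : ∀ i j, ζ i j * ζ' i j = 1
  hζq : ∀ i j, ζ i j ^ qB j = ζ i j
  hζne : ∀ i j, ζ i j ≠ ζ' i j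
  hζm : ∀ i j, ζ i j - ζ' i j ∈ maximalIdeal 𝒪
  /-- `𝒮 → R` -/
  κ : MvPowerSeries σ (MvPowerSeries (Fin r) 𝒪) →+* R

attribute [instance] s59i_TBase.iR1 s59i_TBase.iR2 s59i_TBase.iR3 s59i_TBase.iR4 s59i_TBase.iR5
  s59i_TBase.iR6 s59i_TBase.iR7 s59i_TBase.iR'1 s59i_TBase.iR'2 s59i_TBase.iR'3 s59i_TBase.iR'4
  s59i_TBase.iM1 s59i_TBase.iM2 s59i_TBase.iM3 s59i_TBase.iM'1 s59i_TBase.iM'2 s59i_TBase.iM'3
  s59i_TBase.iM'4 s59i_TBase.iι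

/-- **the `T`-side at the Taylor–Wiles level `n`**, for a universal deformation ring `DQ` (of the type
with the Taylor–Wiles primes of level `n`). -/
structure s59i_TLevel {𝒪 : Type} [CommRing 𝒪] [IsDomain 𝒪] [IsDiscreteValuationRing 𝒪]
    [IsAdicComplete (maximalIdeal 𝒪) 𝒪]
    {N : ℕ} [NeZero N] {B : Finset ℕ} {a : ℕ → ℤ} {m r : ℕ} {σ : Type}
    {ρbar : ResidualGaloisRep (ResidueField 𝒪)} {qB : Fin m → ℕ}
    (Bs : s59i_TBase 𝒪 N B a m r σ ρbar qB) (σB : Fin m → Γℚ)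
    {𝒟 : ∀ ⦃A : Type⦄ [CommRing A] [IsLocalRing A] [Algebra 𝒪 A], GaloisRepAdic A → Prop}
    (DQ : GaloisRep.DeformationRingData 𝒪 ρbar 𝒟) (n : ℕ) : Type 1 where
  /-- the TRACE ring `T′ = 𝒪[T_ℓ]` -/
  T' : Type
  [iT'1 : CommRing T']
  [iT'2 : IsLocalRing T']
  [iT'3 : IsNoetherianRing T']
  [iT'4 : IsAdicComplete (maximalIdeal T') T']
  [iT'5 : Algebra 𝒪 T']
  hT' : IsTestAlgebra 𝒪 T'
  /-- the ring `T ⊇ T′` acting on the modules (with the square roots of the diamond operators) -/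
  T : Type
  [iT1 : CommRing T]
  [iT2 : IsLocalRing T]
  [iT4 : IsAdicComplete (maximalIdeal T) T]
  [iT5 : Algebra 𝒪 T]
  [iT6 : Algebra T' T]
  [iT7 : IsScalarTower 𝒪 T' T]
  [iT8 : Module.Finite T' T]
  hlocT : ∀ x ∈ maximalIdeal T', algebraMap T' T x ∈ maximalIdeal T
  /-- `R_Q → T′` -/
  θ : DQ.R →ₐ[𝒪] T'
  hθ : Function.Surjective θ
  /-- the two levels -/
  L0 : s59p_Level (MvPowerSeries σ (MvPowerSeries (Fin r) 𝒪)) (MvPowerSeries σ T) Bs.R Bs.M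
    Bs.𝔞 (Bs.J n)
  L0' : s59p_Level (MvPowerSeries σ (MvPowerSeries (Fin r) 𝒪)) (MvPowerSeries σ T) Bs.R' Bs.M'
    Bs.𝔞 (Bs.J n)
  hd : L0.d = Bs.d
  hd' : L0'.d = Bs.d'
  std : MvPowerSeries σ (MvPowerSeries (Fin r) 𝒪) →ₐ[𝒪] MvPowerSeries σ T
  hstd : ∀ x, L0.φ x = std x
  hstd' : ∀ x, L0'.φ x = std x
  hW0 : s59p_WCong (algebraMap 𝒪 (MvPowerSeries σ T) Bs.ϖ) (algebraMap 𝒪 (MvPowerSeries σ T) Bs.ϖ)
    (RingEquiv.refl _) L0 L0'
  /-- the square roots of the diamond operators -/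
  uu : Fin r → Tˣ
  huu : ∀ i, ((uu i : Tˣ) : T) - 1 ∈ maximalIdeal T
  hgen : Algebra.adjoin T' (Set.range (fun i => ((uu i : Tˣ) : T)) ∪
    Set.range (fun i => (((uu i)⁻¹ : Tˣ) : T))) = ⊤
  hstdX : ∀ i, std (C (X i)) = C (((uu i : Tˣ) : T) - (((uu i)⁻¹ : Tˣ) : T))
  hstdz : ∀ j, std (X j) = X j
  /-- type `1` -/
  I1 : Ideal T
  hI1 : I1 ≠ ⊤
  hann1 : ∀ x : MvPowerSeries σ T, (∀ d, coeff d x ∈ I1) →
    x ∈ Module.annihilator (MvPowerSeries σ T) L0.N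
  h1tr : ∀ j, algebraMap T' T (θ (s59i_cpTr DQ.ρ (σB j))) - 2 ∈ I1
  h1det : ∀ j, algebraMap T' T (θ (s59i_cpDt DQ.ρ (σB j))) - 1 ∈ I1
  /-- type `χ` -/
  Iχ : Ideal T
  hIχ : Iχ ≠ ⊤
  hannχ : ∀ x : MvPowerSeries σ T, (∀ d, coeff d x ∈ Iχ) →
    x ∈ Module.annihilator (MvPowerSeries σ T) L0'.N
  hrad : (Iχ.comap (algebraMap T' T)).IsRadical
  hχ : ∀ 𝔮 ∈ (Iχ.comap (algebraMap T' T)).minimalPrimes,
    (∀ o : 𝒪, o ≠ 0 → algebraMap 𝒪 T' o ∉ 𝔮) ∧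
    ∃ i, ∀ j, θ (s59i_cpTr DQ.ρ (σB j)) - algebraMap 𝒪 T' (Bs.ζ i j + Bs.ζ' i j) ∈ 𝔮 ∧
      θ (s59i_cpDt DQ.ρ (σB j)) - 1 ∈ 𝔮
  hC8 : ∀ i, ∃ τ ∈ maximalIdeal T',
    (((uu i : Tˣ) : T) - (((uu i)⁻¹ : Tˣ) : T)) ^ 2 - algebraMap T' T τ ∈ Iχ
  /-- the common trace function and the map to the base level -/
  hτ : ∀ g, L0.ψ (C (algebraMap T' T (θ (s59i_cpTr DQ.ρ g)))) = s59i_cpTr Bs.ρR g
  hκ : ∀ x, L0.ψ (L0.φ x) = Bs.κ x

attribute [instance] s59i_TLevel.iT'1 s59i_TLevel.iT'2 s59i_TLevel.iT'3 s59i_TLevel.iT'4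
  s59i_TLevel.iT'5 s59i_TLevel.iT1 s59i_TLevel.iT2 s59i_TLevel.iT4 s59i_TLevel.iT5 s59i_TLevel.iT6
  s59i_TLevel.iT7 s59i_TLevel.iT8

end Fermat.Agent.Lib.S59
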