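/-
S59 (helper5, prefix `s59e_`), `T`-side package, abstract Galois lemmas for the fields of `s59i_TLevel`:

* `s59e_cp_map`      : `cpTr`/`cpDt` of a base change;
* `s59e_cp_compat`   : **[hτ-type]** if `ρ` over `A` and the base change of `ρ₀` along `f : A₀ → A` have the same
                       Frobenius characteristic polynomials outside a finite set, then
                       `cpTr ρ g = f (cpTr ρ₀ g)`, `cpDt ρ g = f (cpDt ρ₀ g)` for EVERY `g` (helper1's [CHAR-UNIQ]);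
* `s59e_cp_unip`     : **[h1tr/h1det-type]** unipotent on inertia ⇒ `f (cpTr ρ₀ σ) = 2`, `f (cpDt ρ₀ σ) = 1`;
* `s59e_cp_frob`     : `cpTr`, `cpDt` from a Frobenius polynomial `X² − t X + d`.
-/
import Mathlib
import Fermat.Agent.Lib.S59.KChar
import Fermat.Agent.Lib.S59.ETWRes
import Fermat.Agent.Lib.S59.LFinB1

set_option autoImplicit false
set_option linter.unusedSectionVars false
set_option linter.unusedVariables false
set_option linter.style.haveILetI false

noncomputable section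

namespace Fermat.Agent.Lib.S59

open IsLocalRing Polynomial

local notation "Qbar" => AlgebraicClosure ℚ
local notation "GQ" => (AlgebraicClosure ℚ ≃ₐ[ℚ] AlgebraicClosure ℚ)

section Map

variable {A₀ A : Type} [CommRing A₀] [IsLocalRing A₀] [CommRing A] [IsLocalRing A]
  (f : A₀ →+* A) (hf : IsLocalHom f) (ρ₀ : GaloisRepAdic A₀)

theorem s59e_cpTr_map (g : GQ) : s59i_cpTr (ρ₀.baseChangeAlong f hf) g = f (s59i_cpTr ρ₀ g) := by
  unfold s59i_cpTr
  rw [s59e_bc_charpoly, Polynomial.coeff_map, map_neg]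

theorem s59e_cpDt_map (g : GQ) : s59i_cpDt (ρ₀.baseChangeAlong f hf) g = f (s59i_cpDt ρ₀ g) := by
  unfold s59i_cpDt
  rw [s59e_bc_charpoly, Polynomial.coeff_map]

include hf in
/-- **[hτ-type]**: the same Frobenius polynomials outside a finite set ⇒ compatible `cpTr`, `cpDt`
everywhere. -/
theorem s59e_cp_compat [IsNoetherianRing A] (ρ : GaloisRepAdic A) (S : Finset ℕ)
    (h : ∀ ℓ : ℕ, ℓ.Prime → ℓ ∉ S → ∀ P : ValuationSubring Qbar, P.LiesOverPrime ℓ →
      ∀ σ : GQ, P.IsFrobeniusAt σ ℓ →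
        (ρ.ρ σ).charpoly = ((ρ₀.ρ σ).charpoly).map f) (g : GQ) :
    s59i_cpTr ρ g = f (s59i_cpTr ρ₀ g) ∧ s59i_cpDt ρ g = f (s59i_cpDt ρ₀ g) := by
  have key := s59k_charpoly_unique' ρ (ρ₀.baseChangeAlong f hf) S
    (fun ℓ hℓ hℓS P hP σ hσ => by rw [s59e_bc_charpoly]; exact h ℓ hℓ hℓS P hP σ hσ) g
  refine ⟨?_, ?_⟩
  · rw [← s59e_cpTr_map f hf ρ₀ g]
    unfold s59i_cpTr
    rw [key]
  · rw [← s59e_cpDt_map f hf ρ₀ g]
    unfold s59i_cpDt
    rw [key]

/-- **[h1tr/h1det-type]**: if the base change is unipotent on inertia at `q`, the images of `cpTr`,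
`cpDt` at an inertia element are `2`, `1`. -/
theorem s59e_cp_unip (q : ℕ) (hun : (ρ₀.baseChangeAlong f hf).IsUnipotentOnInertiaAt q)
    (P : ValuationSubring Qbar) (hP : P.LiesOverPrime q) (σ : GQ)
    (hσ : σ ∈ P.inertiaSubgroupIn ℚ) :
    f (s59i_cpTr ρ₀ σ) = 2 ∧ f (s59i_cpDt ρ₀ σ) = 1 := by
  have h1 := hun P hP σ hσ
  have e : ((X : A[X]) - 1) ^ 2 = X ^ 2 - C (2 : A) * X + C (1 : A) := by
    rw [map_one, map_ofNat]; ring
  rw [e] at h1
  exact ⟨by rw [← s59e_cpTr_map f hf]; exact s59i_cpTr_of_charpoly _ _ _ _ h1,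
    by rw [← s59e_cpDt_map f hf]; exact s59i_cpDt_of_charpoly _ _ _ _ h1⟩

end Map

end Fermat.Agent.Lib.S59
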