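/-
(R) S59, node (H6) (helper4, prefix `s59c_`), part 2: facts about one patching level.

`L : Algebra.PatchingLevel 𝒪 r R M J`, `Λ = 𝒪⟦X₁..X_r⟧`, `𝔫` its maximal ideal, `h : L.d = d`.
* locality: `L.ψ 𝔫 ⊆ 𝔪_R`, `L.φ 𝔫 ⊆ 𝔫`, and the same for powers;
* the presentation `s59c_Φ L h : Λ^d → N` (linear for the `R_∞`-structure), its kernel `s59c_K`,
  and `s59c_Pi L h = π ∘ Φ : Λ^d → M` with the translation of the axioms `b_span`, `b_rel`,
  `ker_π` in terms of `Λ^d`;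
* `(π (b_j))_j` is an `𝒪`-basis of `M` (if `J ≤ (X)`), hence `L.d = finrank 𝒪 M`.
-/
import Mathlib
import Fermat.Prelude.Def_Algebra_PatchingDatum
import Fermat.Agent.Lib.S59.CPatch1

set_option autoImplicit false
set_option linter.unusedSectionVars false

namespace Fermat.Agent.Lib.S59

open IsLocalRing MvPowerSeries Fermat.Agent.Lib.Deform

section maps

variable {𝒪 : Type} [CommRing 𝒪] [IsLocalRing 𝒪] {r : ℕ}

local notation "Λ" => MvPowerSeries (Fin r) 𝒪

/-- an algebra map out of `Λ` into a local ring which sends the variables and `𝔪_𝒪` into the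
maximal ideal sends `𝔫` into the maximal ideal. -/
theorem s59c_algHom_mem {A : Type*} [CommRing A] [IsLocalRing A] [Algebra 𝒪 A]
    (θ : Λ →ₐ[𝒪] A) (hθ : ∀ s, θ (X s) ∈ maximalIdeal A)
    (hA : ∀ c ∈ maximalIdeal 𝒪, algebraMap 𝒪 A c ∈ maximalIdeal A) {f : Λ}
    (hf : f ∈ maximalIdeal Λ) : θ f ∈ maximalIdeal A := by
  have hc : constantCoeff f ∈ maximalIdeal 𝒪 := by
    rw [mem_maximalIdeal, mem_nonunits_iff] at hf ⊢
    rwa [MvPowerSeries.isUnit_iff_constantCoeff] at hf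
  have hg : ∀ d : Fin r →₀ ℕ, Finsupp.degree d < 1 → coeff d (f - C (constantCoeff f)) = 0 := by
    intro d hd
    have hd0 : d = 0 := by
      have : Finsupp.degree d = 0 := by omega
      exact (Finsupp.degree_eq_zero_iff d).mp this
    subst hd0
    simp
  have h1 := algHom_mem_pow_of_coeff_eq_zero (maximalIdeal A) θ hθ hg
  rw [pow_one] at h1
  have h2 : θ (C (constantCoeff f)) ∈ maximalIdeal A := by
    have : (C (constantCoeff f) : Λ) = algebraMap 𝒪 Λ (constantCoeff f) := by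
      rw [MvPowerSeries.algebraMap_apply, Algebra.algebraMap_self, RingHom.id_apply]
    rw [this, θ.commutes]
    exact hA _ hc
  have : θ f = θ (C (constantCoeff f)) + θ (f - C (constantCoeff f)) := by
    rw [← map_add]; congr 1; ring
  rw [this]
  exact Ideal.add_mem _ h2 h1

theorem s59c_algHom_mem_pow {A : Type*} [CommRing A] [IsLocalRing A] [Algebra 𝒪 A]
    (θ : Λ →ₐ[𝒪] A) (hθ : ∀ s, θ (X s) ∈ maximalIdeal A)
    (hA : ∀ c ∈ maximalIdeal 𝒪, algebraMap 𝒪 A c ∈ maximalIdeal A) {n : ℕ} {f : Λ}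
    (hf : f ∈ maximalIdeal Λ ^ n) : θ f ∈ maximalIdeal A ^ n := by
  have h1 : Ideal.map θ (maximalIdeal Λ) ≤ maximalIdeal A := by
    rw [Ideal.map_le_iff_le_comap]
    intro g hg
    exact s59c_algHom_mem θ hθ hA hg
  have h2 := Ideal.mem_map_of_mem θ hf
  rw [Ideal.map_pow] at h2
  exact Ideal.pow_right_mono h1 n h2

theorem s59c_algebraMap_mem {c : 𝒪} (hc : c ∈ maximalIdeal 𝒪) :
    algebraMap 𝒪 Λ c ∈ maximalIdeal Λ := by
  rw [MvPowerSeries.algebraMap_apply, Algebra.algebraMap_self, RingHom.id_apply,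
    mem_maximalIdeal, mem_nonunits_iff, MvPowerSeries.isUnit_iff_constantCoeff, constantCoeff_C]
  exact hc

end maps

section level

variable {𝒪 : Type} [CommRing 𝒪] [IsLocalRing 𝒪] {r : ℕ} {R : Type} [CommRing R] [IsLocalRing R]
  [Algebra 𝒪 R] {M : Type} [AddCommGroup M] [Module R M]
  {J : Ideal (MvPowerSeries (Fin r) 𝒪)} (L : Algebra.PatchingLevel 𝒪 r R M J)

local notation "Λ" => MvPowerSeries (Fin r) 𝒪

/-! ### locality -/

theorem s59c_ψ_mem {f : Λ} (hf : f ∈ maximalIdeal Λ) : L.ψ f ∈ maximalIdeal R := by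
  rw [mem_maximalIdeal, mem_nonunits_iff]
  intro hu
  obtain ⟨g, hg⟩ := L.ψ_surjective (↑hu.unit⁻¹)
  have h1 : L.ψ (f * g - 1) = 0 := by
    rw [map_sub, map_mul, hg, map_one, IsUnit.mul_val_inv, sub_self]
  have hunit : IsUnit (f * g - 1) := by
    have hfg : f * g ∈ maximalIdeal Λ := Ideal.mul_mem_right _ _ hf
    have h2 := IsLocalRing.isUnit_one_sub_self_of_mem_nonunits (f * g) hfg
    have : f * g - 1 = -(1 - f * g) := by ring
    rw [this]
    exact h2.neg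
  have := hunit.map L.ψ
  rw [h1] at this
  exact not_isUnit_zero this

theorem s59c_φ_X_mem (i : Fin r) : L.φ (X i) ∈ maximalIdeal Λ := by
  by_contra h
  have hu : IsUnit (L.φ (X i)) := by
    rwa [mem_maximalIdeal, mem_nonunits_iff, not_not] at h
  have := hu.map L.ψ
  rw [L.ψ_φ_X] at this
  exact not_isUnit_zero this

include L in
theorem s59c_algebraMap_mem_R {c : 𝒪} (hc : c ∈ maximalIdeal 𝒪) :
    algebraMap 𝒪 R c ∈ maximalIdeal R := by
  rw [← AlgHom.commutes L.ψ c]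
  exact s59c_ψ_mem L (s59c_algebraMap_mem hc)

theorem s59c_ψ_mem_pow {n : ℕ} {f : Λ} (hf : f ∈ maximalIdeal Λ ^ n) :
    L.ψ f ∈ maximalIdeal R ^ n := by
  have h1 : Ideal.map L.ψ (maximalIdeal Λ) ≤ maximalIdeal R := by
    rw [Ideal.map_le_iff_le_comap]
    intro g hg
    exact s59c_ψ_mem L hg
  have h2 := Ideal.mem_map_of_mem L.ψ hf
  rw [Ideal.map_pow] at h2
  exact Ideal.pow_right_mono h1 n h2

theorem s59c_φ_mem_pow {n : ℕ} {f : Λ} (hf : f ∈ maximalIdeal Λ ^ n) :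
    L.φ f ∈ maximalIdeal Λ ^ n :=
  s59c_algHom_mem_pow L.φ (s59c_φ_X_mem L) (fun _ hc => s59c_algebraMap_mem hc) hf

/-- `ψ (𝔫 ^ n) = 𝔪_R ^ n`. -/
theorem s59c_ψ_pow_surj {n : ℕ} {y : R} (hy : y ∈ maximalIdeal R ^ n) :
    ∃ f ∈ maximalIdeal Λ ^ n, L.ψ f = y := by
  have h1 : maximalIdeal R ≤ Ideal.map L.ψ (maximalIdeal Λ) := by
    intro z hz
    obtain ⟨g, rfl⟩ := L.ψ_surjective z
    refine Ideal.mem_map_of_mem _ ?_
    by_contra hg
    have hu : IsUnit g := by rwa [mem_maximalIdeal, mem_nonunits_iff, not_not] at hg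
    exact hz (hu.map L.ψ)
  have h2 : y ∈ Ideal.map L.ψ (maximalIdeal Λ ^ n) := by
    rw [Ideal.map_pow]
    exact Ideal.pow_right_mono h1 n hy
  rw [Ideal.mem_map_iff_of_surjective L.ψ L.ψ_surjective] at h2
  obtain ⟨f, hf, rfl⟩ := h2
  exact ⟨f, hf, rfl⟩

/-! ### the presentation -/

variable {d : ℕ} (h : L.d = d)

/-- the basis of the level, re-indexed by `Fin d`. -/
def s59c_bb : Fin d → L.N := fun i => L.b (Fin.cast h.symm i)

/-- the presentation `Λ^d → N`, linear for the `R_∞`-structure. -/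
noncomputable def s59c_Φ : (Fin d → Λ) →ₗ[Λ] L.N := Fintype.linearCombination Λ (s59c_bb L h)

theorem s59c_Φ_apply (g : Fin d → Λ) : s59c_Φ L h g = ∑ i, g i • s59c_bb L h i := rfl

/-- the kernel of the presentation. -/
noncomputable def s59c_K : Submodule Λ (Fin d → Λ) := LinearMap.ker (s59c_Φ L h)

theorem s59c_mem_K {g : Fin d → Λ} : g ∈ s59c_K L h ↔ s59c_Φ L h g = 0 := LinearMap.mem_ker

theorem s59c_exists_Φ_φ (x : L.N) : ∃ c : Fin d → Λ, x = s59c_Φ L h (fun i => L.φ (c i)) := by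
  subst h
  obtain ⟨c, hc⟩ := L.b_span x
  exact ⟨c, hc⟩

theorem s59c_Φ_surjective : Function.Surjective (s59c_Φ L h) := by
  intro x
  obtain ⟨c, hc⟩ := s59c_exists_Φ_φ L h x
  exact ⟨_, hc.symm⟩

theorem s59c_Φ_φ_eq_zero_iff (c : Fin d → Λ) :
    s59c_Φ L h (fun i => L.φ (c i)) = 0 ↔ ∀ i, c i ∈ J := by
  subst h
  exact L.b_rel c

/-- `Pi = π ∘ Φ`. -/
noncomputable def s59c_Pi : (Fin d → Λ) → M := fun g => L.π (s59c_Φ L h g)

theorem s59c_Pi_apply (g : Fin d → Λ) :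
    s59c_Pi L h g = ∑ i, L.ψ (g i) • L.π (s59c_bb L h i) := by
  unfold s59c_Pi
  rw [s59c_Φ_apply, map_sum]
  exact Finset.sum_congr rfl fun i _ => L.π_smul _ _

theorem s59c_Pi_add (g g' : Fin d → Λ) : s59c_Pi L h (g + g') = s59c_Pi L h g + s59c_Pi L h g' := by
  unfold s59c_Pi
  rw [map_add, map_add]

theorem s59c_Pi_of_mem_K {g : Fin d → Λ} (hg : g ∈ s59c_K L h) : s59c_Pi L h g = 0 := by
  unfold s59c_Pi
  rw [(s59c_mem_K L h).mp hg, map_zero]

theorem s59c_Pi_surjective : Function.Surjective (s59c_Pi L h) := by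
  intro y
  obtain ⟨x, rfl⟩ := L.π_surjective y
  obtain ⟨g, rfl⟩ := s59c_Φ_surjective L h x
  exact ⟨g, rfl⟩

/-- elements of `(a₁,…,a_r) • ⊤`. -/
theorem s59c_mem_span_smul_top {A X : Type*} [CommRing A] [AddCommGroup X] [Module A X]
    {ι : Type*} [Fintype ι] (a : ι → A) {x : X}
    (hx : x ∈ (Ideal.span (Set.range a)) • (⊤ : Submodule A X)) :
    ∃ y : ι → X, x = ∑ i, a i • y i := by
  refine Submodule.smul_induction_on hx ?_ ?_
  · intro s hs n _
    obtain ⟨c, rfl⟩ := (Ideal.mem_span_range_iff_exists_fun).mp hs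
    refine ⟨fun i => c i • n, ?_⟩
    rw [Finset.sum_smul]
    refine Finset.sum_congr rfl fun i _ => ?_
    show (c i * a i) • n = a i • (c i • n)
    rw [mul_comm, mul_smul]
  · rintro x y ⟨u, rfl⟩ ⟨v, rfl⟩
    refine ⟨fun i => u i + v i, ?_⟩
    rw [← Finset.sum_add_distrib]
    exact Finset.sum_congr rfl fun i _ => by rw [smul_add]

theorem s59c_Pi_eq_zero_iff (g : Fin d → Λ) :
    s59c_Pi L h g = 0 ↔ ∃ k ∈ s59c_K L h, ∃ u : Fin r → Fin d → Λ,
      g = k + ∑ i, L.φ (X i) • u i := by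
  unfold s59c_Pi
  rw [L.ker_π]
  constructor
  · intro hg
    obtain ⟨y, hy⟩ := s59c_mem_span_smul_top (fun i : Fin r => L.φ (X i)) hg
    have hsurj := s59c_Φ_surjective L h
    choose u hu using fun i => hsurj (y i)
    refine ⟨g - ∑ i, L.φ (X i) • u i, ?_, u, by abel⟩
    rw [s59c_mem_K, map_sub, map_sum, hy, sub_eq_zero]
    exact Finset.sum_congr rfl fun i _ => by rw [map_smul, hu]
  · rintro ⟨k, hk, u, rfl⟩
    rw [map_add, (s59c_mem_K L h).mp hk, zero_add, map_sum]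
    refine Submodule.sum_mem _ fun i _ => ?_
    rw [map_smul]
    exact Submodule.smul_mem_smul (Ideal.subset_span ⟨i, rfl⟩) Submodule.mem_top

end level

end Fermat.Agent.Lib.S59
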