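/-
(R) S59, node (H6) (helper4, prefix `s59c_`), part 2b: more facts about one patching level.

* `s59c_ψ_φ`      : `ψ (φ c) = c(0)`;
* `s59c_π_b_span`, `s59c_π_b_indep`, `s59c_d_eq_finrank`: `(π (b_j))_j` is an `𝒪`-basis of `M`
  (if `J ≤ (X)`), hence `L.d = finrank 𝒪 M`;
* `s59c_Nsub`, `s59c_smul_top_le_Nsub`: comparison of the `R_∞`-adic filtration of `N` with the
  `S_∞`-adic one, with a bound which does not depend on the level;
* `s59c_gen_mem_pow`, `s59c_J_le_pow`, `s59c_J_le_span_X`: the ideals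
  `J_m = ((1 + X_j)^(ℓ^m) - 1)_j`.
-/
import Mathlib
import Fermat.Agent.Lib.S59.CPatch2

set_option autoImplicit false
set_option linter.unusedSectionVars false

namespace Fermat.Agent.Lib.S59

open IsLocalRing MvPowerSeries Fermat.Agent.Lib.Deform

section level

variable {𝒪 : Type} [CommRing 𝒪] [IsLocalRing 𝒪] {r : ℕ} {R : Type} [CommRing R] [IsLocalRing R]
  [Algebra 𝒪 R] {M : Type} [AddCommGroup M] [Module R M]
  {J : Ideal (MvPowerSeries (Fin r) 𝒪)} (L : Algebra.PatchingLevel 𝒪 r R M J)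

local notation "Λ" => MvPowerSeries (Fin r) 𝒪

theorem s59c_C_eq_algebraMap (c : 𝒪) : (C c : Λ) = algebraMap 𝒪 Λ c := by
  rw [MvPowerSeries.algebraMap_apply, Algebra.algebraMap_self, RingHom.id_apply]

/-- `ψ ∘ φ` is the augmentation. -/
theorem s59c_ψ_φ (c : Λ) : L.ψ (L.φ c) = algebraMap 𝒪 R (constantCoeff c) := by
  have hg : ∀ d : Fin r →₀ ℕ, Finsupp.degree d < 1 → coeff d (c - C (constantCoeff c)) = 0 := by
    intro d hd
    have hd0 : d = 0 := by
      have : Finsupp.degree d = 0 := by omega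
      exact (Finsupp.degree_eq_zero_iff d).mp this
    subst hd0
    simp
  have h1 := algHom_mem_pow_of_coeff_eq_zero (⊥ : Ideal R) (L.ψ.comp L.φ)
    (fun s => by rw [AlgHom.comp_apply, L.ψ_φ_X]; exact Ideal.zero_mem _) hg
  rw [pow_one, Ideal.mem_bot, AlgHom.comp_apply, map_sub, map_sub, sub_eq_zero] at h1
  rw [h1, s59c_C_eq_algebraMap, AlgHom.commutes, AlgHom.commutes]

variable {d : ℕ} (h : L.d = d)

theorem s59c_Φ_smul_φ (a : Λ) (c : Fin d → Λ) :
    L.φ a • s59c_Φ L h (fun i => L.φ (c i)) = s59c_Φ L h (fun i => L.φ (a * c i)) := by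
  rw [← map_smul]
  congr 1
  funext i
  rw [Pi.smul_apply, smul_eq_mul, map_mul]

theorem s59c_Φ_φ_add (c c' : Fin d → Λ) :
    s59c_Φ L h (fun i => L.φ (c i)) + s59c_Φ L h (fun i => L.φ (c' i)) =
      s59c_Φ L h (fun i => L.φ (c i + c' i)) := by
  rw [← map_add]
  congr 1
  funext i
  rw [Pi.add_apply, map_add]

theorem s59c_Φ_φ_sum {ι : Type*} (s : Finset ι) (c : ι → Fin d → Λ) :
    ∑ k ∈ s, s59c_Φ L h (fun i => L.φ (c k i)) =
      s59c_Φ L h (fun i => L.φ (∑ k ∈ s, c k i)) := by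
  classical
  induction s using Finset.induction_on with
  | empty =>
    simp only [Finset.sum_empty, map_zero]
    have : (fun _ : Fin d => (0 : Λ)) = 0 := rfl
    rw [this, map_zero]
  | insert a s ha ih =>
    rw [Finset.sum_insert ha, ih, s59c_Φ_φ_add]
    congr 1
    funext i
    rw [Finset.sum_insert ha]

/-! ### the basis of `M` -/

section basis

variable [Module 𝒪 M] [IsScalarTower 𝒪 R M]

theorem s59c_π_b_span (y : M) : ∃ c : Fin d → 𝒪, y = ∑ i, c i • L.π (s59c_bb L h i) := by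
  obtain ⟨x, rfl⟩ := L.π_surjective y
  obtain ⟨c, rfl⟩ := s59c_exists_Φ_φ L h x
  refine ⟨fun i => constantCoeff (c i), ?_⟩
  have := s59c_Pi_apply L h (fun i => L.φ (c i))
  unfold s59c_Pi at this
  rw [this]
  refine Finset.sum_congr rfl fun i _ => ?_
  rw [s59c_ψ_φ, algebraMap_smul]

theorem s59c_π_b_indep (hJ : J ≤ Ideal.span (Set.range (X : Fin r → Λ))) (c : Fin d → 𝒪)
    (hc : ∑ i, c i • L.π (s59c_bb L h i) = 0) : ∀ i, c i = 0 := by
  -- `π (Φ (φ ∘ C ∘ c)) = 0`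
  have h1 : L.π (s59c_Φ L h (fun i => L.φ (C (c i)))) = 0 := by
    have := s59c_Pi_apply L h (fun i => L.φ (C (c i)))
    unfold s59c_Pi at this
    rw [this, ← hc]
    refine Finset.sum_congr rfl fun i _ => ?_
    rw [s59c_ψ_φ, constantCoeff_C, algebraMap_smul]
  rw [L.ker_π] at h1
  obtain ⟨y, hy⟩ := s59c_mem_span_smul_top (fun i : Fin r => L.φ (X i)) h1
  choose c' hc' using fun s => s59c_exists_Φ_φ L h (y s)
  have h2 : s59c_Φ L h (fun i => L.φ (C (c i) - ∑ s, X s * c' s i)) = 0 := by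
    have e : ∑ s, L.φ (X s) • y s = s59c_Φ L h (fun i => L.φ (∑ s, X s * c' s i)) := by
      rw [← s59c_Φ_φ_sum]
      refine Finset.sum_congr rfl fun s _ => ?_
      rw [hc' s, s59c_Φ_smul_φ]
    rw [e] at hy
    have : (fun i => L.φ (C (c i) - ∑ s, X s * c' s i)) =
        (fun i => L.φ (C (c i))) - (fun i => L.φ (∑ s, X s * c' s i)) := by
      funext i; rw [Pi.sub_apply, map_sub]
    rw [this, map_sub, hy, sub_self]
  rw [s59c_Φ_φ_eq_zero_iff] at h2
  intro i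
  have h3 := hJ (h2 i)
  have h4 : (C (c i) : Λ) ∈ Ideal.span (Set.range (X : Fin r → Λ)) := by
    have : (C (c i) : Λ) = (C (c i) - ∑ s, X s * c' s i) + ∑ s, X s * c' s i := by ring
    rw [this]
    refine Ideal.add_mem _ h3 (Ideal.sum_mem _ fun s _ => ?_)
    exact Ideal.mul_mem_right _ _ (Ideal.subset_span ⟨s, rfl⟩)
  obtain ⟨g, hg⟩ := (Ideal.mem_span_range_iff_exists_fun).mp h4
  have := congrArg (constantCoeff (σ := Fin r) (R := 𝒪)) hg
  rw [map_sum, constantCoeff_C] at this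
  rw [← this]
  refine Finset.sum_eq_zero fun s _ => ?_
  rw [map_mul, constantCoeff_X, mul_zero]

include L h in
theorem s59c_d_eq_finrank (hJ : J ≤ Ideal.span (Set.range (X : Fin r → Λ))) :
    d = Module.finrank 𝒪 M := by
  have hli : LinearIndependent 𝒪 (fun i => L.π (s59c_bb L h i)) := by
    rw [Fintype.linearIndependent_iff]
    exact s59c_π_b_indep L h hJ
  have hsp : ⊤ ≤ Submodule.span 𝒪 (Set.range fun i => L.π (s59c_bb L h i)) := by
    intro y _
    obtain ⟨c, rfl⟩ := s59c_π_b_span L h y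
    exact Submodule.sum_mem _ fun i _ =>
      Submodule.smul_mem _ _ (Submodule.subset_span ⟨i, rfl⟩)
  have := Module.finrank_eq_card_basis (Module.Basis.mk hli hsp)
  rw [this, Fintype.card_fin]

end basis

/-! ### comparison of the two filtrations of `N` -/

/-- the `Λ`-submodule of `N` of the elements `∑ φ (c_i) • b_i` with all `c_i ∈ 𝔞`. -/
def s59c_Nsub (𝔞 : Ideal Λ) : Submodule Λ L.N where
  carrier := {x | ∃ c : Fin d → Λ, (∀ i, c i ∈ 𝔞) ∧ x = s59c_Φ L h (fun i => L.φ (c i))}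
  zero_mem' := ⟨0, fun _ => 𝔞.zero_mem, by
    have : (fun i : Fin d => L.φ ((0 : Fin d → Λ) i)) = 0 := by funext i; simp
    rw [this, map_zero]⟩
  add_mem' := by
    rintro x y ⟨c, hc, rfl⟩ ⟨c', hc', rfl⟩
    exact ⟨fun i => c i + c' i, fun i => 𝔞.add_mem (hc i) (hc' i), s59c_Φ_φ_add L h c c'⟩
  smul_mem' := by
    rintro a x ⟨c, hc, rfl⟩
    -- `a • b_i = Φ (φ ∘ e_i)`
    choose e he using fun i => s59c_exists_Φ_φ L h (a • s59c_bb L h i)
    refine ⟨fun j => ∑ i, c i * e i j, fun j => Ideal.sum_mem _ fun i _ =>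
      Ideal.mul_mem_right _ _ (hc i), ?_⟩
    rw [s59c_Φ_apply, Finset.smul_sum, ← s59c_Φ_φ_sum]
    refine Finset.sum_congr rfl fun i _ => ?_
    rw [smul_comm, he i, s59c_Φ_smul_φ]

theorem s59c_mem_Nsub {𝔞 : Ideal Λ} {x : L.N} :
    x ∈ s59c_Nsub L h 𝔞 ↔
      ∃ c : Fin d → Λ, (∀ i, c i ∈ 𝔞) ∧ x = s59c_Φ L h (fun i => L.φ (c i)) := Iff.rfl

end level

/-! ### the uniform bound -/

section bound

variable {𝒪 : Type} [CommRing 𝒪] [IsLocalRing 𝒪] [IsNoetherianRing 𝒪] [Finite (ResidueField 𝒪)]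
  {r : ℕ} {R : Type} [CommRing R] [IsLocalRing R]
  [Algebra 𝒪 R] {M : Type} [AddCommGroup M] [Module R M]
  {J : Ideal (MvPowerSeries (Fin r) 𝒪)} (L : Algebra.PatchingLevel 𝒪 r R M J)

local notation "Λ" => MvPowerSeries (Fin r) 𝒪

/-- the bound: the number of elements of `(Λ ⧸ 𝔫 ^ t)^d`. -/
noncomputable def s59c_bound (𝒪 : Type) [CommRing 𝒪] [IsLocalRing 𝒪] (r d t : ℕ) : ℕ :=
  Nat.card ((Fin d → MvPowerSeries (Fin r) 𝒪) ⧸
    (Submodule.pi Set.univ (fun _ : Fin d => maximalIdeal (MvPowerSeries (Fin r) 𝒪) ^ t) :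
      Submodule (MvPowerSeries (Fin r) 𝒪) (Fin d → MvPowerSeries (Fin r) 𝒪)))

instance s59c_finite_quot (d t : ℕ) :
    Finite ((Fin d → Λ) ⧸ (Submodule.pi Set.univ (fun _ : Fin d => maximalIdeal Λ ^ t) :
      Submodule Λ (Fin d → Λ))) := by
  classical
  have : ∀ _ : Fin d, Finite (Λ ⧸ (maximalIdeal Λ ^ t : Submodule Λ Λ)) := fun _ =>
    finite_quotient_maximalIdeal_pow (σ := Fin r) (R := 𝒪) t
  exact Finite.of_equiv _
    (Submodule.quotientPi (fun _ : Fin d => (maximalIdeal Λ ^ t : Submodule Λ Λ))).symm.toEquiv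

variable {d : ℕ} (h : L.d = d)

theorem s59c_smul_top_le_Nsub (t : ℕ) :
    (maximalIdeal Λ ^ s59c_bound 𝒪 r d t) • (⊤ : Submodule Λ L.N) ≤
      s59c_Nsub L h (maximalIdeal Λ ^ t) := by
  classical
  set Q := (Fin d → Λ) ⧸ (Submodule.pi Set.univ (fun _ : Fin d => maximalIdeal Λ ^ t) :
      Submodule Λ (Fin d → Λ)) with hQ
  set X := L.N ⧸ s59c_Nsub L h (maximalIdeal Λ ^ t) with hX
  -- a surjection `Q → X`
  let f : (Fin d → Λ) → X := fun c => Submodule.Quotient.mk (s59c_Φ L h (fun i => L.φ (c i)))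
  have hf : ∀ c c' : Fin d → Λ, (∀ i, c i - c' i ∈ maximalIdeal Λ ^ t) → f c = f c' := by
    intro c c' hcc'
    show Submodule.Quotient.mk _ = Submodule.Quotient.mk _
    rw [Submodule.Quotient.eq]
    refine ⟨fun i => c i - c' i, hcc', ?_⟩
    rw [← map_sub]
    congr 1
    funext i
    rw [Pi.sub_apply, map_sub]
  let g : Q → X := fun q => f (Quotient.out q)
  have hg : Function.Surjective g := by
    intro x
    obtain ⟨y, rfl⟩ := Submodule.Quotient.mk_surjective _ x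
    obtain ⟨c, rfl⟩ := s59c_exists_Φ_φ L h y
    refine ⟨Submodule.Quotient.mk c, ?_⟩
    show f (Quotient.out (Submodule.Quotient.mk c : Q)) = f c
    refine hf _ _ fun i => ?_
    have h1 : (Submodule.Quotient.mk (Quotient.out (Submodule.Quotient.mk c : Q)) : Q) =
        Submodule.Quotient.mk c := Quotient.out_eq _
    rw [Submodule.Quotient.eq] at h1
    exact h1 i (Set.mem_univ i)
  have : Finite X := Finite.of_surjective g hg
  have hcard : Nat.card X ≤ s59c_bound 𝒪 r d t := Nat.card_le_card_of_surjective g hg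
  have hX0 : (maximalIdeal Λ ^ Nat.card X) • (⊤ : Submodule Λ X) = ⊥ := s59c_pow_card_smul_top
  rw [Submodule.smul_le]
  intro a ha x _
  have ha' : a ∈ maximalIdeal Λ ^ Nat.card X := Ideal.pow_le_pow_right hcard ha
  have h1 : a • (Submodule.Quotient.mk x : X) ∈
      (maximalIdeal Λ ^ Nat.card X) • (⊤ : Submodule Λ X) :=
    Submodule.smul_mem_smul ha' Submodule.mem_top
  rw [hX0, Submodule.mem_bot, ← Submodule.Quotient.mk_smul,
    Submodule.Quotient.mk_eq_zero] at h1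
  exact h1

end bound

/-! ### the ideals `J_m` -/

section Jm

variable {𝒪 : Type} [CommRing 𝒪] [IsLocalRing 𝒪] {r : ℕ}

local notation "Λ" => MvPowerSeries (Fin r) 𝒪

theorem s59c_gen_mem_span_X (j : Fin r) (k : ℕ) :
    ((1 + X j) ^ k - 1 : Λ) ∈ Ideal.span (Set.range (X : Fin r → Λ)) := by
  have h := geom_sum_mul (1 + X j : Λ) k
  rw [add_sub_cancel_left] at h
  rw [← h]
  exact Ideal.mul_mem_left _ _ (Ideal.subset_span ⟨j, rfl⟩)

theorem s59c_gen_mem_pow {ℓ : ℕ} (hℓ : (ℓ : 𝒪) ∈ maximalIdeal 𝒪) (j : Fin r) (m : ℕ) :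
    ((1 + X j) ^ (ℓ ^ m) - 1 : Λ) ∈ maximalIdeal Λ ^ (m + 1) := by
  induction m with
  | zero =>
    simp only [pow_zero, pow_one, zero_add, add_sub_cancel_left]
    exact X_mem_maximalIdeal j
  | succ m ih =>
    set a : Λ := (1 + X j) ^ (ℓ ^ m) with ha
    have h1 : (1 + X j : Λ) ^ (ℓ ^ (m + 1)) = a ^ ℓ := by rw [ha, ← pow_mul, pow_succ]
    have h2 := geom_sum_mul a ℓ
    rw [h1, ← h2, pow_succ (maximalIdeal Λ) (m + 1), mul_comm _ (a - 1)]
    refine Ideal.mul_mem_mul ih ?_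
    -- the geometric sum lies in `𝔫`
    rw [← Ideal.Quotient.eq_zero_iff_mem, map_sum]
    have ha1 : Ideal.Quotient.mk (maximalIdeal Λ) a = 1 := by
      rw [← map_one (Ideal.Quotient.mk (maximalIdeal Λ)), Ideal.Quotient.eq]
      exact Ideal.pow_le_self (Nat.succ_ne_zero m) ih
    have : ∀ i ∈ Finset.range ℓ, Ideal.Quotient.mk (maximalIdeal Λ) (a ^ i) = 1 := by
      intro i _
      rw [map_pow, ha1, one_pow]
    rw [Finset.sum_congr rfl this, Finset.sum_const, Finset.card_range, nsmul_eq_mul, mul_one,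
      ← map_natCast (Ideal.Quotient.mk (maximalIdeal Λ)), Ideal.Quotient.eq_zero_iff_mem]
    have : ((ℓ : ℕ) : Λ) = algebraMap 𝒪 Λ (ℓ : 𝒪) := by rw [map_natCast]
    rw [this]
    exact s59c_algebraMap_mem hℓ

theorem s59c_J_le_span_X (k : ℕ) :
    Ideal.span (Set.range fun j : Fin r => ((1 + X j) ^ k - 1 : Λ)) ≤
      Ideal.span (Set.range (X : Fin r → Λ)) := by
  rw [Ideal.span_le]
  rintro _ ⟨j, rfl⟩
  exact s59c_gen_mem_span_X j k

theorem s59c_J_le_pow {ℓ : ℕ} (hℓ : (ℓ : 𝒪) ∈ maximalIdeal 𝒪) (m : ℕ) :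
    Ideal.span (Set.range fun j : Fin r => ((1 + X j) ^ (ℓ ^ m) - 1 : Λ)) ≤
      maximalIdeal Λ ^ (m + 1) := by
  rw [Ideal.span_le]
  rintro _ ⟨j, rfl⟩
  exact s59c_gen_mem_pow hℓ j m

end Jm

end Fermat.Agent.Lib.S59
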