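/-
(R) S59, node (H6) (helper4, prefix `s59c_`), part 4: the limit of a convergent sequence of
patching levels is a patching level with `J = ⊥`.

`L n : Algebra.PatchingLevel 𝒪 r R M (J n)` with `(L n).d = d`; the sequence is *convergent*
(`s59c_Conv`) if `J n ≤ 𝔫 ^ n` and the data `φ_n (X_s)`, `ψ_n (X_s)`, `K_n = ker (Λ^d → N_n)`,
`π_n (b_j)` of `L n'` agree with those of `L n` modulo the `n`-th power of the maximal ideals for
all `n ≤ n'`.  Then `φ_∞, ψ_∞` are the evaluation maps at the limits, `K_∞` the limit of the `K_n`,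
`N_∞ = Λ^d ⧸ K_∞`, and `π_∞` is induced by `g ↦ ∑ ψ_∞ (g_j) • μ_j`.
-/
import Mathlib
import Fermat.Agent.Lib.S59.CPatch2b

set_option autoImplicit false
set_option linter.unusedSectionVars false
set_option linter.unusedVariables false

namespace Fermat.Agent.Lib.S59

open IsLocalRing MvPowerSeries Fermat.Agent.Lib.Deform

/-! ### Cauchy sequences -/

theorem s59c_cauchy_lim {A : Type*} [CommRing A] (I : Ideal A) [IsPrecomplete I A] (f : ℕ → A)
    (hf : ∀ n n', n ≤ n' → f n - f n' ∈ I ^ n) : ∃ a, ∀ n, f n - a ∈ I ^ n := by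
  obtain ⟨a, ha⟩ := IsPrecomplete.prec' (I := I) f (by
    intro n n' hnn'
    rw [SModEq.sub_mem, smul_eq_mul, Ideal.mul_top]
    exact hf n n' hnn')
  refine ⟨a, fun n => ?_⟩
  have := ha n
  rwa [SModEq.sub_mem, smul_eq_mul, Ideal.mul_top] at this

theorem s59c_cauchy_lim_module {A M : Type*} [CommRing A] (I : Ideal A) [AddCommGroup M]
    [Module A M] [IsPrecomplete I M] (f : ℕ → M)
    (hf : ∀ n n', n ≤ n' → f n - f n' ∈ (I ^ n • ⊤ : Submodule A M)) :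
    ∃ a, ∀ n, f n - a ∈ (I ^ n • ⊤ : Submodule A M) := by
  obtain ⟨a, ha⟩ := IsPrecomplete.prec' (I := I) f (by
    intro n n' hnn'
    rw [SModEq.sub_mem]
    exact hf n n' hnn')
  refine ⟨a, fun n => ?_⟩
  have := ha n
  rwa [SModEq.sub_mem] at this

theorem s59c_eq_zero_of_forall_mem {A M : Type*} [CommRing A] (I : Ideal A) [AddCommGroup M]
    [Module A M] [IsHausdorff I M] {x : M} (h : ∀ n, x ∈ (I ^ n • ⊤ : Submodule A M)) : x = 0 := by
  refine IsHausdorff.haus' (I := I) x fun n => ?_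
  rw [SModEq.sub_mem, sub_zero]
  exact h n

section limit

variable {𝒪 : Type} [CommRing 𝒪] [IsLocalRing 𝒪] [IsNoetherianRing 𝒪]
  [IsAdicComplete (maximalIdeal 𝒪) 𝒪] [Finite (ResidueField 𝒪)]
  {r : ℕ} {R : Type} [CommRing R] [IsLocalRing R] [IsNoetherianRing R]
  [IsAdicComplete (maximalIdeal R) R] [Algebra 𝒪 R]
  {M : Type} [AddCommGroup M] [Module R M] [Module 𝒪 M] [IsScalarTower 𝒪 R M]
  [Module.Finite 𝒪 M]
  {J : ℕ → Ideal (MvPowerSeries (Fin r) 𝒪)}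
  (L : ∀ n, Algebra.PatchingLevel 𝒪 r R M (J n)) {d : ℕ} (hd : ∀ n, (L n).d = d)

local notation "Λ" => MvPowerSeries (Fin r) 𝒪

/-- a convergent sequence of patching levels. -/
structure s59c_Conv : Prop where
  J_le : ∀ n, J n ≤ maximalIdeal Λ ^ n
  φ : ∀ n n', n ≤ n' → ∀ s, (L n).φ (X s) - (L n').φ (X s) ∈ maximalIdeal Λ ^ n
  ψ : ∀ n n', n ≤ n' → ∀ s, (L n).ψ (X s) - (L n').ψ (X s) ∈ maximalIdeal R ^ n
  K : ∀ n n', n ≤ n' → ∀ k' ∈ s59c_K (L n') (hd n'),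
    ∃ k ∈ s59c_K (L n) (hd n), ∀ j, k' j - k j ∈ maximalIdeal Λ ^ n
  μ : ∀ n n', n ≤ n' → ∀ j, (L n).π (s59c_bb (L n) (hd n) j) -
    (L n').π (s59c_bb (L n') (hd n') j) ∈ (maximalIdeal 𝒪 ^ n • ⊤ : Submodule 𝒪 M)

include L in
/-- `𝔪_𝒪 ^ n M ⊆ 𝔪_R ^ n M`. -/
theorem s59c_smul_top_le {n : ℕ} {y : M}
    (hy : y ∈ (maximalIdeal 𝒪 ^ n • ⊤ : Submodule 𝒪 M)) :
    y ∈ (maximalIdeal R ^ n • ⊤ : Submodule R M) := by
  refine Submodule.smul_induction_on hy ?_ ?_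
  · intro c hc z _
    rw [← algebraMap_smul R c z]
    refine Submodule.smul_mem_smul ?_ Submodule.mem_top
    have h1 : Ideal.map (algebraMap 𝒪 R) (maximalIdeal 𝒪) ≤ maximalIdeal R := by
      rw [Ideal.map_le_iff_le_comap]
      intro c' hc'
      exact s59c_algebraMap_mem_R (L 0) hc'
    have h2 := Ideal.mem_map_of_mem (algebraMap 𝒪 R) hc
    rw [Ideal.map_pow] at h2
    exact Ideal.pow_right_mono h1 n h2
  · intro x y hx hy
    exact Submodule.add_mem _ hx hy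

/-- `Π_n` of a tuple in `(𝔫 ^ n)^d` lies in `𝔪_R ^ n M`. -/
theorem s59c_Pi_mem (m : ℕ) {n : ℕ} {u : Fin d → Λ} (hu : ∀ j, u j ∈ maximalIdeal Λ ^ n) :
    s59c_Pi (L m) (hd m) u ∈ (maximalIdeal R ^ n • ⊤ : Submodule R M) := by
  rw [s59c_Pi_apply]
  exact Submodule.sum_mem _ fun j _ =>
    Submodule.smul_mem_smul (s59c_ψ_mem_pow (L m) (hu j)) Submodule.mem_top

theorem s59c_Pi_smul (m : ℕ) (f : Λ) (w : Fin d → Λ) :
    s59c_Pi (L m) (hd m) (f • w) = (L m).ψ f • s59c_Pi (L m) (hd m) w := by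
  unfold s59c_Pi
  rw [map_smul, (L m).π_smul]

/-- every element of `𝔪_R ^ n M` is `Π_m` of a tuple in `(𝔫 ^ n)^d`. -/
theorem s59c_exists_Pi_eq (m : ℕ) {n : ℕ} {y : M}
    (hy : y ∈ (maximalIdeal R ^ n • ⊤ : Submodule R M)) :
    ∃ u : Fin d → Λ, (∀ j, u j ∈ maximalIdeal Λ ^ n) ∧ s59c_Pi (L m) (hd m) u = y := by
  refine Submodule.smul_induction_on hy ?_ ?_
  · intro ρ hρ z _
    obtain ⟨f, hf, rfl⟩ := s59c_ψ_pow_surj (L m) hρ
    obtain ⟨w, rfl⟩ := s59c_Pi_surjective (L m) (hd m) z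
    refine ⟨f • w, fun j => ?_, s59c_Pi_smul L hd m f w⟩
    rw [Pi.smul_apply, smul_eq_mul]
    exact Ideal.mul_mem_right _ _ hf
  · rintro x y ⟨u, hu, rfl⟩ ⟨v, hv, rfl⟩
    exact ⟨u + v, fun j => Ideal.add_mem _ (hu j) (hv j), s59c_Pi_add (L m) (hd m) u v⟩

/-! ### the limit objects -/

/-- the limit `K_∞` of the kernels `K_n`. -/
def s59c_Kinf : Submodule Λ (Fin d → Λ) where
  carrier := {g | ∀ n, ∃ k ∈ s59c_K (L n) (hd n), ∀ j, g j - k j ∈ maximalIdeal Λ ^ n}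
  zero_mem' := fun n => ⟨0, Submodule.zero_mem _, fun j => by simp⟩
  add_mem' := by
    intro g g' hg hg' n
    obtain ⟨k, hk, hgk⟩ := hg n
    obtain ⟨k', hk', hgk'⟩ := hg' n
    refine ⟨k + k', Submodule.add_mem _ hk hk', fun j => ?_⟩
    have : (g + g') j - (k + k') j = (g j - k j) + (g' j - k' j) := by
      simp only [Pi.add_apply]; ring
    rw [this]
    exact Ideal.add_mem _ (hgk j) (hgk' j)
  smul_mem' := by
    intro c g hg n
    obtain ⟨k, hk, hgk⟩ := hg n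
    refine ⟨c • k, Submodule.smul_mem _ c hk, fun j => ?_⟩
    have : (c • g) j - (c • k) j = c * (g j - k j) := by
      simp only [Pi.smul_apply, smul_eq_mul]; ring
    rw [this]
    exact Ideal.mul_mem_left _ _ (hgk j)

theorem s59c_mem_Kinf {g : Fin d → Λ} : g ∈ s59c_Kinf L hd ↔
    ∀ n, ∃ k ∈ s59c_K (L n) (hd n), ∀ j, g j - k j ∈ maximalIdeal Λ ^ n := Iff.rfl

theorem s59c_mem_Kinf_of (hC : s59c_Conv L hd) {g : Fin d → Λ}
    (h : ∀ n, ∃ n', n ≤ n' ∧ ∃ k' ∈ s59c_K (L n') (hd n'),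
      ∀ j, g j - k' j ∈ maximalIdeal Λ ^ n) : g ∈ s59c_Kinf L hd := by
  intro n
  obtain ⟨n', hnn', k', hk', hgk'⟩ := h n
  obtain ⟨k, hk, hkk'⟩ := hC.K n n' hnn' k' hk'
  refine ⟨k, hk, fun j => ?_⟩
  have : g j - k j = (g j - k' j) + (k' j - k j) := by ring
  rw [this]
  exact Ideal.add_mem _ (hgk' j) (hkk' j)

end limit

end Fermat.Agent.Lib.S59
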