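/-
(R) S59, [PM] the patching machine (helper4, prefix `s59p_`), part 2: convergent sequences of
abstract patching levels and their limit.

`L n : s59p_Level S A R M 𝔞 (J n)` with `(L n).d = d`; the sequence is *convergent* (`s59p_Conv`) if
`J n ≤ 𝔪_S ^ n` and the data `φ_n`, `ψ_n`, `K_n = ker (A^d → N_n)`, `π_n (b_j)` of `L n'` agree with
those of `L n` modulo the `n`-th powers of the maximal ideals for all `n ≤ n'`.  The limit level has
`φ_∞ = lim φ_n`, `ψ_∞ = lim ψ_n` (pointwise), `N_∞ = A^d ⧸ K_∞`, `K_∞ = lim K_n`.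
-/
import Mathlib
import Fermat.Agent.Lib.S59.PLevel
import Fermat.Agent.Lib.S59.CPatch4

set_option autoImplicit false
set_option linter.unusedSectionVars false
set_option linter.unusedVariables false
set_option linter.style.haveILetI false

namespace Fermat.Agent.Lib.S59

open IsLocalRing Fermat.Agent.Lib.Deform

/-- the pointwise limit of a Cauchy sequence of ring maps is a ring map. -/
theorem s59p_limHom {S A : Type*} [CommRing S] [CommRing A] (I : Ideal A) [IsPrecomplete I A]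
    [IsHausdorff I A] (f : ℕ → S →+* A)
    (hf : ∀ n n', n ≤ n' → ∀ s, f n s - f n' s ∈ I ^ n) :
    ∃ F : S →+* A, ∀ n s, f n s - F s ∈ I ^ n := by
  choose F₀ hF₀ using fun s => s59c_cauchy_lim I (fun n => f n s) (fun n n' h => hf n n' h s)
  have h1 : F₀ 1 = 1 := by
    refine eq_of_forall_sub_mem_pow I fun n => ?_
    have := hF₀ 1 n
    rw [map_one] at this
    have e : F₀ 1 - 1 = -(1 - F₀ 1) := by ring
    rw [e]
    exact (Ideal.neg_mem_iff _).mpr this
  have hmul : ∀ s s', F₀ (s * s') = F₀ s * F₀ s' := by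
    intro s s'
    refine eq_of_forall_sub_mem_pow I fun n => ?_
    have e : F₀ (s * s') - F₀ s * F₀ s' = -(f n (s * s') - F₀ (s * s')) +
        (f n s - F₀ s) * f n s' + F₀ s * (f n s' - F₀ s') := by
      rw [map_mul]; ring
    rw [e]
    exact Ideal.add_mem _ (Ideal.add_mem _ ((Ideal.neg_mem_iff _).mpr (hF₀ _ n))
      (Ideal.mul_mem_right _ _ (hF₀ s n))) (Ideal.mul_mem_left _ _ (hF₀ s' n))
  have h0 : F₀ 0 = 0 := by
    refine eq_of_forall_sub_mem_pow I fun n => ?_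
    have := hF₀ 0 n
    rw [map_zero] at this
    have e : F₀ 0 - 0 = -(0 - F₀ 0) := by ring
    rw [e]
    exact (Ideal.neg_mem_iff _).mpr this
  have hadd : ∀ s s', F₀ (s + s') = F₀ s + F₀ s' := by
    intro s s'
    refine eq_of_forall_sub_mem_pow I fun n => ?_
    have e : F₀ (s + s') - (F₀ s + F₀ s') = -(f n (s + s') - F₀ (s + s')) +
        (f n s - F₀ s) + (f n s' - F₀ s') := by
      rw [map_add]; ring
    rw [e]
    exact Ideal.add_mem _ (Ideal.add_mem _ ((Ideal.neg_mem_iff _).mpr (hF₀ _ n)) (hF₀ s n))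
      (hF₀ s' n)
  exact ⟨{ toFun := F₀, map_one' := h1, map_mul' := hmul, map_zero' := h0, map_add' := hadd },
    fun n s => hF₀ s n⟩

section limit

variable {S : Type} [CommRing S] [IsLocalRing S] [IsNoetherianRing S]
  [IsAdicComplete (maximalIdeal S) S] [Finite (ResidueField S)]
  {A : Type} [CommRing A] [IsLocalRing A] [IsNoetherianRing A]
  [IsAdicComplete (maximalIdeal A) A] [Finite (ResidueField A)]
  {R : Type} [CommRing R] [IsLocalRing R] [IsNoetherianRing R]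
  [IsAdicComplete (maximalIdeal R) R]
  {M : Type} [AddCommGroup M] [Module R M] [Module.Finite R M]
  {𝔞 : Ideal S} {J : ℕ → Ideal S}
  (L : ∀ n, s59p_Level S A R M 𝔞 (J n)) {d : ℕ} (hd : ∀ n, (L n).d = d)

/-- a convergent sequence of abstract patching levels. -/
structure s59p_Conv : Prop where
  J_le : ∀ n, J n ≤ maximalIdeal S ^ n
  φ : ∀ n n', n ≤ n' → ∀ s, (L n).φ s - (L n').φ s ∈ maximalIdeal A ^ n
  ψ : ∀ n n', n ≤ n' → ∀ a, (L n).ψ a - (L n').ψ a ∈ maximalIdeal R ^ n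
  K : ∀ n n', n ≤ n' → ∀ k' ∈ s59p_K (L n') (hd n'),
    ∃ k ∈ s59p_K (L n) (hd n), ∀ j, k' j - k j ∈ maximalIdeal A ^ n
  μ : ∀ n n', n ≤ n' → ∀ j, (L n).π (s59p_bb (L n) (hd n) j) -
    (L n').π (s59p_bb (L n') (hd n') j) ∈ (maximalIdeal R ^ n • ⊤ : Submodule R M)

/-- `Π_m` of a tuple in `(𝔪_A ^ n)^d` lies in `𝔪_R ^ n M`. -/
theorem s59p_Pi_mem (m : ℕ) {n : ℕ} {u : Fin d → A} (hu : ∀ j, u j ∈ maximalIdeal A ^ n) :
    s59p_Pi (L m) (hd m) u ∈ (maximalIdeal R ^ n • ⊤ : Submodule R M) := by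
  rw [s59p_Pi_apply]
  exact Submodule.sum_mem _ fun j _ =>
    Submodule.smul_mem_smul (s59p_surj_mem_pow _ (L m).ψ_surjective (hu j)) Submodule.mem_top

/-- every element of `𝔪_R ^ n M` is `Π_m` of a tuple in `(𝔪_A ^ n)^d`. -/
theorem s59p_exists_Pi_eq (m : ℕ) {n : ℕ} {y : M}
    (hy : y ∈ (maximalIdeal R ^ n • ⊤ : Submodule R M)) :
    ∃ u : Fin d → A, (∀ j, u j ∈ maximalIdeal A ^ n) ∧ s59p_Pi (L m) (hd m) u = y := by
  refine Submodule.smul_induction_on hy ?_ ?_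
  · intro ρ hρ z _
    obtain ⟨f, hf, rfl⟩ := s59p_surj_pow_surj _ (L m).ψ_surjective hρ
    obtain ⟨w, rfl⟩ := s59p_Pi_surjective (L m) (hd m) z
    refine ⟨f • w, fun j => ?_, s59p_Pi_smul (L m) (hd m) f w⟩
    rw [Pi.smul_apply, smul_eq_mul]
    exact Ideal.mul_mem_right _ _ hf
  · rintro x y ⟨u, hu, rfl⟩ ⟨v, hv, rfl⟩
    exact ⟨u + v, fun j => Ideal.add_mem _ (hu j) (hv j), s59p_Pi_add (L m) (hd m) u v⟩

/-- the limit `K_∞` of the kernels `K_n`. -/
def s59p_Kinf : Submodule A (Fin d → A) where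
  carrier := {g | ∀ n, ∃ k ∈ s59p_K (L n) (hd n), ∀ j, g j - k j ∈ maximalIdeal A ^ n}
  zero_mem' := fun n => ⟨0, Submodule.zero_mem _, fun j => by simp⟩
  add_mem' := by
    intro g g' hg hg' n
    obtain ⟨k, hk, hgk⟩ := hg n
    obtain ⟨k', hk', hgk'⟩ := hg' n
    refine ⟨k + k', Submodule.add_mem _ hk hk', fun j => ?_⟩
    have : (g + g') j - (k + k') j = (g j - k j) + (g' j - k' j) := by
      simp only [Pi.add_apply]; ring
    rw [this]
    exact Ideal.add_mem _ (hgk j) (hgk' j)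
  smul_mem' := by
    intro c g hg n
    obtain ⟨k, hk, hgk⟩ := hg n
    refine ⟨c • k, Submodule.smul_mem _ c hk, fun j => ?_⟩
    have : (c • g) j - (c • k) j = c * (g j - k j) := by
      simp only [Pi.smul_apply, smul_eq_mul]; ring
    rw [this]
    exact Ideal.mul_mem_left _ _ (hgk j)

theorem s59p_mem_Kinf {g : Fin d → A} : g ∈ s59p_Kinf L hd ↔
    ∀ n, ∃ k ∈ s59p_K (L n) (hd n), ∀ j, g j - k j ∈ maximalIdeal A ^ n := Iff.rfl

theorem s59p_mem_Kinf_of (hC : s59p_Conv L hd) {g : Fin d → A}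
    (h : ∀ n, ∃ n', n ≤ n' ∧ ∃ k' ∈ s59p_K (L n') (hd n'),
      ∀ j, g j - k' j ∈ maximalIdeal A ^ n) : g ∈ s59p_Kinf L hd := by
  intro n
  obtain ⟨n', hnn', k', hk', hgk'⟩ := h n
  obtain ⟨k, hk, hkk'⟩ := hC.K n n' hnn' k' hk'
  refine ⟨k, hk, fun j => ?_⟩
  have : g j - k j = (g j - k' j) + (k' j - k j) := by ring
  rw [this]
  exact Ideal.add_mem _ (hgk' j) (hkk' j)

end limit

end Fermat.Agent.Lib.S59
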