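/-
(R) S59, [PM] the patching machine (helper4, prefix `s59p_`), part 3: the limit of a convergent
sequence of abstract patching levels is a level with `J = ⊥`.
-/
import Mathlib
import Fermat.Agent.Lib.S59.PConv

set_option autoImplicit false
set_option linter.unusedSectionVars false
set_option linter.unusedVariables false
set_option linter.style.haveILetI false
set_option maxHeartbeats 1600000

namespace Fermat.Agent.Lib.S59

open IsLocalRing Fermat.Agent.Lib.Deform

section limit

variable {S : Type} [CommRing S] [IsLocalRing S] [IsNoetherianRing S]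
  [IsAdicComplete (maximalIdeal S) S] [Finite (ResidueField S)]
  {A : Type} [CommRing A] [IsLocalRing A] [IsNoetherianRing A]
  [IsAdicComplete (maximalIdeal A) A] [Finite (ResidueField A)]
  {R : Type} [CommRing R] [IsLocalRing R] [IsNoetherianRing R]
  [IsAdicComplete (maximalIdeal R) R]
  {M : Type} [AddCommGroup M] [Module R M] [Module.Finite R M]
  {𝔞 : Ideal S} {J : ℕ → Ideal S}
  (L : ∀ n, s59p_Level S A R M 𝔞 (J n)) {d : ℕ} (hd : ∀ n, (L n).d = d)

theorem s59p_limit (hC : s59p_Conv L hd) :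
    ∃ (Li : s59p_Level S A R M 𝔞 ⊥) (hdi : Li.d = d),
      (∀ n s, (L n).φ s - Li.φ s ∈ maximalIdeal A ^ n) ∧
      (∀ n a, (L n).ψ a - Li.ψ a ∈ maximalIdeal R ^ n) ∧
      s59p_K Li hdi = s59p_Kinf L hd := by
  classical
  haveI : IsPrecomplete (maximalIdeal R) M := s59c_isPrecomplete_of_finite _
  haveI hfinq : ∀ n, Finite (A ⧸ maximalIdeal A ^ n) := fun n => s59p_finite_quot_pow A n
  -- generators of `𝔞`
  obtain ⟨m, σ, hσ⟩ := (Submodule.fg_iff_exists_fin_generating_family).mp
    (IsNoetherian.noetherian 𝔞)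
  have hσ' : Ideal.span (Set.range σ) = 𝔞 := hσ
  have hσmem : ∀ i, σ i ∈ 𝔞 := fun i => hσ' ▸ Ideal.subset_span ⟨i, rfl⟩
  -- the limits
  obtain ⟨φi, hA1⟩ := s59p_limHom (maximalIdeal A) (fun n => (L n).φ) hC.φ
  obtain ⟨ψi, hA2⟩ := s59p_limHom (maximalIdeal R) (fun n => (L n).ψ) hC.ψ
  choose μ hμ using fun j => s59c_cauchy_lim_module (maximalIdeal R)
    (fun n => (L n).π (s59p_bb (L n) (hd n) j)) (fun n n' h => hC.μ n n' h j)
  have hφi_pow : ∀ n f, f ∈ maximalIdeal S ^ n → φi f ∈ maximalIdeal A ^ n :=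
    fun n f hf => s59p_map_mem_pow φi hf
  have hψn_pow : ∀ m n a, a ∈ maximalIdeal A ^ n → (L m).ψ a ∈ maximalIdeal R ^ n :=
    fun m n a ha => s59p_surj_mem_pow _ (L m).ψ_surjective ha
  -- (X2)
  have hX2 : ∀ s ∈ 𝔞, ψi (φi s) = 0 := by
    intro s hs
    refine eq_of_forall_sub_mem_pow (maximalIdeal R) (y := 0) fun n => ?_
    rw [sub_zero]
    have e1 : ψi (φi s) = -((L n).ψ (φi s) - ψi (φi s)) +
        -((L n).ψ ((L n).φ s - φi s)) + (L n).ψ ((L n).φ s) := by
      rw [map_sub]; ring
    rw [e1, (L n).ψ_φ s hs, add_zero]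
    refine Ideal.add_mem _ ((Ideal.neg_mem_iff _).mpr (hA2 n _)) ((Ideal.neg_mem_iff _).mpr ?_)
    exact hψn_pow n n _ (hA1 n _)
  -- (X1)
  have hX1 : Function.Surjective ψi := by
    intro y
    choose f hf using fun n => (L n).ψ_surjective y
    obtain ⟨f', hf'⟩ := s59c_exists_cluster (maximalIdeal A) (ι := Unit) (fun n _ => f n)
    refine ⟨f' (), eq_of_forall_sub_mem_pow (maximalIdeal R) fun n => ?_⟩
    obtain ⟨n', hnn', hc⟩ := hf' n
    have e1 : ψi (f' ()) - y = -((L n').ψ (f' ()) - ψi (f' ())) +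
        -((L n').ψ (f n' - f' ())) := by
      rw [map_sub, hf n']; ring
    rw [e1]
    refine Ideal.add_mem _ ((Ideal.neg_mem_iff _).mpr (Ideal.pow_le_pow_right hnn' (hA2 n' _)))
      ((Ideal.neg_mem_iff _).mpr ?_)
    exact hψn_pow n' n _ (hc ())
  -- the map `Π_∞`
  let Pii : (Fin d → A) →ₛₗ[ψi] M :=
    { toFun := fun g => ∑ j, ψi (g j) • μ j
      map_add' := fun g g' => by
        simp only [Pi.add_apply, map_add, add_smul, Finset.sum_add_distrib]
      map_smul' := fun c g => by
        simp only [Pi.smul_apply, smul_eq_mul, map_mul, mul_smul, Finset.smul_sum] }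
  have hPii : ∀ g, Pii g = ∑ j, ψi (g j) • μ j := fun g => rfl
  have hB1 : ∀ n g, s59p_Pi (L n) (hd n) g - Pii g ∈
      (maximalIdeal R ^ n • ⊤ : Submodule R M) := by
    intro n g
    rw [s59p_Pi_apply, hPii, ← Finset.sum_sub_distrib]
    refine Submodule.sum_mem _ fun j _ => ?_
    have e1 : (L n).ψ (g j) • (L n).π (s59p_bb (L n) (hd n) j) - ψi (g j) • μ j =
        ((L n).ψ (g j) - ψi (g j)) • (L n).π (s59p_bb (L n) (hd n) j) +
          ψi (g j) • ((L n).π (s59p_bb (L n) (hd n) j) - μ j) := by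
      rw [sub_smul, smul_sub]; abel
    rw [e1]
    refine Submodule.add_mem _ (Submodule.smul_mem_smul (hA2 n _) Submodule.mem_top) ?_
    exact Submodule.smul_mem _ _ (hμ j n)
  have hB2 : s59p_Kinf L hd ≤ LinearMap.ker Pii := by
    intro g hg
    rw [LinearMap.mem_ker]
    refine s59c_eq_zero_of_forall_mem (maximalIdeal R) fun n => ?_
    obtain ⟨k, hk, hgk⟩ := hg n
    have e2 : s59p_Pi (L n) (hd n) g = s59p_Pi (L n) (hd n) (g - k) := by
      have : g = k + (g - k) := by abel
      conv_lhs => rw [this]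
      rw [s59p_Pi_add, s59p_Pi_of_mem_K _ _ hk, zero_add]
    have e1 : Pii g = -(s59p_Pi (L n) (hd n) g - Pii g) + s59p_Pi (L n) (hd n) (g - k) := by
      rw [← e2]; abel
    rw [e1]
    exact Submodule.add_mem _ (Submodule.neg_mem _ (hB1 n g))
      (s59p_Pi_mem L hd n (fun j => hgk j))
  -- the limit module
  set Ki : Submodule A (Fin d → A) := s59p_Kinf L hd with hKi
  let πl : ((Fin d → A) ⧸ Ki) →ₛₗ[ψi] M := Ki.liftQ Pii hB2
  have hπl : ∀ g, πl (Submodule.Quotient.mk g) = Pii g := fun g => Submodule.liftQ_apply _ _ _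
  have hmksum : ∀ {ι : Type} (s : Finset ι) (f : ι → (Fin d → A)),
      (Submodule.Quotient.mk (∑ i ∈ s, f i) : (Fin d → A) ⧸ Ki) =
        ∑ i ∈ s, Submodule.Quotient.mk (f i) := fun s f => map_sum Ki.mkQ f s
  have hsum : ∀ v : Fin d → A,
      ∑ i, v i • (Submodule.Quotient.mk (Pi.single i 1) : (Fin d → A) ⧸ Ki) =
        Submodule.Quotient.mk v := by
    intro v
    simp only [← Submodule.Quotient.mk_smul]
    rw [← hmksum]
    congr 1
    funext j
    simp [Finset.sum_apply, Pi.single_apply]
  -- (X3)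
  have hX3 : Function.Surjective πl := by
    intro y
    choose g hg using fun n => s59p_Pi_surjective (L n) (hd n) y
    obtain ⟨g', hg'⟩ := s59c_exists_cluster (maximalIdeal A) (ι := Fin d) g
    refine ⟨Submodule.Quotient.mk g', ?_⟩
    rw [hπl, ← sub_eq_zero]
    refine s59c_eq_zero_of_forall_mem (maximalIdeal R) fun n => ?_
    obtain ⟨m', hnm, hc⟩ := hg' n
    have e2 : s59p_Pi (L m') (hd m') (g m') =
        s59p_Pi (L m') (hd m') g' + s59p_Pi (L m') (hd m') (g m' - g') := by
      rw [← s59p_Pi_add]; congr 1; abel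
    have e1 : Pii g' - y =
        -(s59p_Pi (L m') (hd m') g' - Pii g') - s59p_Pi (L m') (hd m') (g m' - g') := by
      have := hg m'
      rw [e2] at this
      rw [← this]; abel
    rw [e1]
    refine Submodule.sub_mem _ (Submodule.neg_mem _ ?_) (s59p_Pi_mem L hd m' (fun j => hc j))
    exact Submodule.smul_mono_left (Ideal.pow_le_pow_right hnm) (hB1 m' g')
  -- (X5)
  have hX5 : ∀ x : (Fin d → A) ⧸ Ki, ∃ c : Fin d → S,
      x = ∑ i, φi (c i) • (Submodule.Quotient.mk (Pi.single i 1) : (Fin d → A) ⧸ Ki) := by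
    intro x
    obtain ⟨g, rfl⟩ := Submodule.Quotient.mk_surjective _ x
    choose c hc using fun n => s59p_exists_Φ_φ (L n) (hd n) (s59p_Φ (L n) (hd n) g)
    haveI : ∀ n, Finite (S ⧸ maximalIdeal S ^ n) := fun n => s59p_finite_quot_pow S n
    obtain ⟨c', hc'⟩ := s59c_exists_cluster (maximalIdeal S) (ι := Fin d) c
    refine ⟨c', ?_⟩
    rw [hsum (fun i => φi (c' i)), Submodule.Quotient.eq]
    refine s59p_mem_Kinf_of L hd hC fun n => ?_
    obtain ⟨m', hnm, hcm⟩ := hc' n
    refine ⟨m', hnm, g - (fun i => (L m').φ (c m' i)), ?_, fun j => ?_⟩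
    · rw [s59p_mem_K, map_sub, ← hc m', sub_self]
    · have : (g - fun i => φi (c' i)) j - (g - fun i => (L m').φ (c m' i)) j =
          ((L m').φ (c m' j) - φi (c m' j)) + φi (c m' j - c' j) := by
        simp only [Pi.sub_apply, map_sub]; ring
      rw [this]
      exact Ideal.add_mem _ (Ideal.pow_le_pow_right hnm (hA1 m' _)) (hφi_pow n _ (hcm j))
  -- (X6)
  have hX6 : ∀ c : Fin d → S,
      ∑ i, φi (c i) • (Submodule.Quotient.mk (Pi.single i 1) : (Fin d → A) ⧸ Ki) = 0 ↔
        ∀ i, c i ∈ (⊥ : Ideal S) := by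
    intro c
    rw [hsum (fun i => φi (c i)), Submodule.Quotient.mk_eq_zero]
    constructor
    · intro hmem i
      rw [Ideal.mem_bot]
      refine eq_of_forall_sub_mem_pow (maximalIdeal S) (y := 0) fun t => ?_
      rw [sub_zero]
      obtain ⟨k, hk, hck⟩ := hmem (max (s59p_bound S d t) t)
      generalize hn : max (s59p_bound S d t) t = n at k hk hck
      have hn1 : s59p_bound S d t ≤ n := hn ▸ le_max_left _ _
      have hn2 : t ≤ n := hn ▸ le_max_right _ _
      have hu : ∀ j, (L n).φ (c j) - k j ∈ maximalIdeal A ^ n := by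
        intro j
        have : (L n).φ (c j) - k j = ((L n).φ (c j) - φi (c j)) + (φi (c j) - k j) := by ring
        rw [this]
        exact Ideal.add_mem _ (hA1 n _) (hck j)
      have h1 : s59p_Φ (L n) (hd n) (fun j => (L n).φ (c j)) =
          s59p_Φ (L n) (hd n) (fun j => (L n).φ (c j) - k j) := by
        have : (fun j => (L n).φ (c j) - k j) = (fun j => (L n).φ (c j)) - k := rfl
        rw [this, map_sub, (s59p_mem_K _ _).mp hk, sub_zero]
      have h2 : s59p_Φ (L n) (hd n) (fun j => (L n).φ (c j) - k j) ∈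
          (maximalIdeal A ^ (s59p_bound S d t)) • (⊤ : Submodule A (L n).N) := by
        rw [s59p_Φ_apply]
        refine Submodule.sum_mem _ fun j _ => Submodule.smul_mem_smul ?_ Submodule.mem_top
        exact Ideal.pow_le_pow_right hn1 (hu j)
      have h3 := s59p_smul_top_le_Nsub (L n) (hd n) t h2
      rw [← h1, s59p_mem_Nsub] at h3
      obtain ⟨c'', hc'', h4⟩ := h3
      have h5 : s59p_Φ (L n) (hd n) (fun j => (L n).φ (c j - c'' j)) = 0 := by
        have : (fun j => (L n).φ (c j - c'' j)) =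
            (fun j => (L n).φ (c j)) - (fun j => (L n).φ (c'' j)) := by
          funext j; rw [Pi.sub_apply, map_sub]
        rw [this, map_sub, h4, sub_self]
      rw [s59p_Φ_φ_eq_zero_iff] at h5
      have h6 : c i - c'' i ∈ maximalIdeal S ^ t :=
        Ideal.pow_le_pow_right hn2 (hC.J_le n (h5 i))
      have : c i = (c i - c'' i) + c'' i := by ring
      rw [this]
      exact Ideal.add_mem _ h6 (hc'' i)
    · intro h
      have : (fun i => φi (c i)) = 0 := by
        funext i
        rw [(Ideal.mem_bot).mp (h i), map_zero]; rfl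
      rw [this]
      exact Submodule.zero_mem _
  -- (X4)
  have hX4 : ∀ x : (Fin d → A) ⧸ Ki, πl x = 0 ↔
      x ∈ (𝔞.map φi) • (⊤ : Submodule A ((Fin d → A) ⧸ Ki)) := by
    intro x
    constructor
    · intro hx
      obtain ⟨g, rfl⟩ := Submodule.Quotient.mk_surjective _ x
      rw [hπl] at hx
      have h1 : ∀ n, s59p_Pi (L n) (hd n) g ∈ (maximalIdeal R ^ n • ⊤ : Submodule R M) := by
        intro n
        have := hB1 n g
        rwa [hx, sub_zero] at this
      choose u hu hu2 using fun n => s59p_exists_Pi_eq L hd n (h1 n)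
      have h2 : ∀ n, s59p_Pi (L n) (hd n) (g - u n) = 0 := by
        intro n
        have e : s59p_Pi (L n) (hd n) g =
            s59p_Pi (L n) (hd n) (g - u n) + s59p_Pi (L n) (hd n) (u n) := by
          rw [← s59p_Pi_add]; congr 1; abel
        rw [hu2 n] at e
        exact add_eq_right.mp e.symm
      choose k hk v hv using fun n =>
        (s59p_Pi_eq_zero_iff (L n) (hd n) σ hσ' (g - u n)).mp (h2 n)
      obtain ⟨v', hv'⟩ := s59c_exists_cluster (maximalIdeal A) (ι := Fin m × Fin d)
        (fun n p => v n p.1 p.2)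
      have hmem : g - ∑ i, φi (σ i) • (fun j => v' (i, j)) ∈ Ki := by
        refine s59p_mem_Kinf_of L hd hC fun n => ?_
        obtain ⟨m', hnm, hvm⟩ := hv' n
        refine ⟨m', hnm, k m', hk m', fun j => ?_⟩
        have e : (g - ∑ i, φi (σ i) • (fun j => v' (i, j))) j - k m' j =
            u m' j + ∑ i, (((L m').φ (σ i) - φi (σ i)) * v m' i j +
              φi (σ i) * (v m' i j - v' (i, j))) := by
          have hg : g j = u m' j + k m' j + ∑ i, (L m').φ (σ i) * v m' i j := by
            have := congrFun (hv m') j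
            simp only [Pi.sub_apply, Pi.add_apply, Finset.sum_apply, Pi.smul_apply,
              smul_eq_mul] at this
            rw [sub_eq_iff_eq_add] at this
            rw [this]; ring
          simp only [Pi.sub_apply, Finset.sum_apply, Pi.smul_apply, smul_eq_mul]
          rw [hg]
          simp only [sub_mul, mul_sub, Finset.sum_add_distrib, Finset.sum_sub_distrib]
          ring
        rw [e]
        refine Ideal.add_mem _ (Ideal.pow_le_pow_right hnm (hu m' j))
          (Ideal.sum_mem _ fun i _ => Ideal.add_mem _ ?_ ?_)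
        · exact Ideal.mul_mem_right _ _ (Ideal.pow_le_pow_right hnm (hA1 m' _))
        · exact Ideal.mul_mem_left _ _ (hvm (i, j))
      have hxe : (Submodule.Quotient.mk g : (Fin d → A) ⧸ Ki) =
          ∑ i, φi (σ i) • Submodule.Quotient.mk (fun j => v' (i, j)) := by
        rw [← sub_eq_zero]
        simp only [← Submodule.Quotient.mk_smul]
        rw [← hmksum, ← Submodule.Quotient.mk_sub,
          Submodule.Quotient.mk_eq_zero]
        exact hmem
      rw [hxe]
      exact Submodule.sum_mem _ fun i _ =>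
        Submodule.smul_mem_smul (Ideal.mem_map_of_mem φi (hσmem i)) Submodule.mem_top
    · intro hx
      have hle : 𝔞.map φi ≤ RingHom.ker ψi := by
        rw [Ideal.map_le_iff_le_comap]
        intro s hs
        rw [Ideal.mem_comap, RingHom.mem_ker]
        exact hX2 s hs
      refine Submodule.smul_induction_on hx ?_ ?_
      · intro a ha y _
        rw [map_smulₛₗ, (RingHom.mem_ker).mp (hle ha), zero_smul]
      · intro y y' hy hy'
        rw [map_add, hy, hy', add_zero]
  refine ⟨{ N := (Fin d → A) ⧸ Ki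
            φ := φi
            ψ := ψi
            ψ_surjective := hX1
            ψ_φ := hX2
            π := πl.toAddMonoidHom
            π_smul := fun f x => map_smulₛₗ πl f x
            π_surjective := hX3
            ker_π := hX4
            d := d
            b := fun j => Submodule.Quotient.mk (Pi.single j 1)
            b_span := hX5
            b_rel := hX6 }, rfl, hA1, hA2, ?_⟩
  ext g
  rw [s59p_mem_K, s59p_Φ_apply]
  show ∑ i, g i • (Submodule.Quotient.mk (Pi.single i 1) : (Fin d → A) ⧸ Ki) = 0 ↔ g ∈ Ki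
  rw [hsum g, Submodule.Quotient.mk_eq_zero]

end limit

end Fermat.Agent.Lib.S59
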