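/-
(R) S59, [PM] the patching machine (helper4, prefix `s59p_`), part 4: selection of a convergent
subsequence, and **[PM1]** `s59p_pm1 : s59p_PM1`.
-/
import Mathlib
import Fermat.Agent.Lib.S59.PLimit

set_option autoImplicit false
set_option linter.unusedSectionVars false
set_option linter.unusedVariables false
set_option linter.style.haveILetI false

namespace Fermat.Agent.Lib.S59

open IsLocalRing Fermat.Agent.Lib.Deform

/-- two ring maps with the same profile modulo `𝔪 ^ n` agree modulo `𝔪 ^ n`. -/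
theorem s59p_sub_mem_of_out {S A : Type*} [CommRing S] [IsLocalRing S] [CommRing A]
    [IsLocalRing A] [Finite (ResidueField A)] (f f' : S →+* A) (n : ℕ)
    (h : ∀ q : S ⧸ maximalIdeal S ^ n,
      Ideal.Quotient.mk (maximalIdeal A ^ n) (f (Quotient.out q)) =
        Ideal.Quotient.mk (maximalIdeal A ^ n) (f' (Quotient.out q))) (s : S) :
    f s - f' s ∈ maximalIdeal A ^ n := by
  set q := Ideal.Quotient.mk (maximalIdeal S ^ n) s with hq
  have he : s - Quotient.out q ∈ maximalIdeal S ^ n := by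
    rw [← Ideal.Quotient.eq, Ideal.Quotient.mk_out]
  have h1 := Ideal.Quotient.eq.mp (h q)
  have : f s - f' s = (f (Quotient.out q) - f' (Quotient.out q)) + f (s - Quotient.out q) -
      f' (s - Quotient.out q) := by
    rw [map_sub, map_sub]; ring
  rw [this]
  exact Ideal.sub_mem _ (Ideal.add_mem _ h1 (s59p_map_mem_pow f he)) (s59p_map_mem_pow f' he)

/-! ### profiles -/

section profile

variable (S : Type) [CommRing S] [IsLocalRing S] (A : Type) [CommRing A] [IsLocalRing A]
  (R : Type) [CommRing R] [IsLocalRing R] (M : Type) [AddCommGroup M] [Module R M]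

/-- the type of the profiles of precision `n` of the levels with `d` generators. -/
def s59p_Prof (d n : ℕ) : Type :=
  ((S ⧸ maximalIdeal S ^ n) → A ⧸ maximalIdeal A ^ n) ×
    ((A ⧸ maximalIdeal A ^ n) → R ⧸ maximalIdeal R ^ n) ×
    Set (Fin d → A ⧸ maximalIdeal A ^ n) ×
    (Fin d → M ⧸ (maximalIdeal R ^ n • ⊤ : Submodule R M))

instance s59p_finite_Prof [IsNoetherianRing S] [Finite (ResidueField S)] [IsNoetherianRing A]
    [Finite (ResidueField A)] [IsNoetherianRing R] [Finite (ResidueField R)] [Module.Finite R M]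
    (d n : ℕ) : Finite (s59p_Prof S A R M d n) := by
  haveI hfS : Finite (S ⧸ maximalIdeal S ^ n) := s59p_finite_quot_pow S n
  haveI hfA : Finite (A ⧸ maximalIdeal A ^ n) := s59p_finite_quot_pow A n
  haveI hfR : Finite (R ⧸ maximalIdeal R ^ n) := s59p_finite_quot_pow R n
  haveI hfM : Finite (M ⧸ (maximalIdeal R ^ n • ⊤ : Submodule R M)) :=
    Submodule.finite_quotient_smul (maximalIdeal R ^ n) (N := ⊤) Module.Finite.fg_top
  show Finite (_ × _ × _ × _)
  infer_instance

variable {S A R M}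

/-- the profile of precision `n` of a level. -/
noncomputable def s59p_prof {𝔞 J : Ideal S} (L : s59p_Level S A R M 𝔞 J) {d : ℕ} (h : L.d = d)
    (n : ℕ) : s59p_Prof S A R M d n :=
  (fun q => Ideal.Quotient.mk _ (L.φ (Quotient.out q)),
   fun q => Ideal.Quotient.mk _ (L.ψ (Quotient.out q)),
   (fun k : Fin d → A => fun j => Ideal.Quotient.mk (maximalIdeal A ^ n) (k j)) ''
     (s59p_K L h : Set (Fin d → A)),
   fun j => Submodule.Quotient.mk (L.π (s59p_bb L h j)))

end profile

section select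

variable {S : Type} [CommRing S] [IsLocalRing S] [IsNoetherianRing S]
  [IsAdicComplete (maximalIdeal S) S] [Finite (ResidueField S)]
  {A : Type} [CommRing A] [IsLocalRing A] [IsNoetherianRing A]
  [IsAdicComplete (maximalIdeal A) A] [Finite (ResidueField A)]
  {R : Type} [CommRing R] [IsLocalRing R] [IsNoetherianRing R]
  [IsAdicComplete (maximalIdeal R) R]
  {M : Type} [AddCommGroup M] [Module R M] [Module.Finite R M]
  {𝔞 : Ideal S} {J : ℕ → Ideal S}
  (L : ∀ n, s59p_Level S A R M 𝔞 (J n)) {d : ℕ} (hd : ∀ n, (L n).d = d)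

/-- a subsequence with stationary profiles is convergent. -/
theorem s59p_conv_of_prof (hJ : ∀ n, J n ≤ maximalIdeal S ^ n) (ms : ℕ → ℕ)
    (hms : ∀ n, n ≤ ms n)
    (hF : ∀ n n', n ≤ n' → s59p_prof (L (ms n)) (hd (ms n)) n =
      s59p_prof (L (ms n')) (hd (ms n')) n) :
    s59p_Conv (J := fun n => J (ms n)) (fun n => L (ms n)) (fun n => hd (ms n)) := by
  haveI hkR : Finite (ResidueField R) := s59p_finite_residueField (L 0).ψ (L 0).ψ_surjective
  refine ⟨?_, ?_, ?_, ?_, ?_⟩
  · intro n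
    exact (hJ (ms n)).trans (Ideal.pow_le_pow_right (hms n))
  · intro n n' h s
    have h1 : (s59p_prof (L (ms n)) (hd (ms n)) n).1 = (s59p_prof (L (ms n')) (hd (ms n')) n).1 :=
      congrArg Prod.fst (hF n n' h)
    exact s59p_sub_mem_of_out _ _ n (fun q => congrFun h1 q) s
  · intro n n' h a
    have h1 : (s59p_prof (L (ms n)) (hd (ms n)) n).2.1 =
        (s59p_prof (L (ms n')) (hd (ms n')) n).2.1 := congrArg (fun p => p.2.1) (hF n n' h)
    exact s59p_sub_mem_of_out _ _ n (fun q => congrFun h1 q) a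
  · intro n n' h k' hk'
    have h1 : (s59p_prof (L (ms n)) (hd (ms n)) n).2.2.1 =
        (s59p_prof (L (ms n')) (hd (ms n')) n).2.2.1 := congrArg (fun p => p.2.2.1) (hF n n' h)
    have h2 : (fun j => Ideal.Quotient.mk (maximalIdeal A ^ n) (k' j)) ∈
        (s59p_prof (L (ms n')) (hd (ms n')) n).2.2.1 := ⟨k', hk', rfl⟩
    rw [← h1] at h2
    obtain ⟨k, hk, hkk'⟩ := h2
    refine ⟨k, hk, fun j => ?_⟩
    have := congrFun hkk' j
    exact Ideal.Quotient.eq.mp this.symm
  · intro n n' h j
    have := congrFun (congrArg (fun p => p.2.2.2) (hF n n' h)) j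
    exact (Submodule.Quotient.eq _).mp this

/-- selection of a convergent subsequence, together with an arbitrary additional sequence of
profiles in finite sets. -/
theorem s59p_select_with (hJ : ∀ n, J n ≤ maximalIdeal S ^ n)
    {P' : ℕ → Type} [∀ n, Finite (P' n)] (F' : ℕ → ∀ n, P' n) :
    ∃ ms : ℕ → ℕ, (∀ n, n ≤ ms n) ∧
      s59p_Conv (J := fun n => J (ms n)) (fun n => L (ms n)) (fun n => hd (ms n)) ∧
      ∀ n n', n ≤ n' → F' (ms n) n = F' (ms n') n := by
  classical
  haveI hkR : Finite (ResidueField R) := s59p_finite_residueField (L 0).ψ (L 0).ψ_surjective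
  obtain ⟨x, hx⟩ := s59c_cluster (P := fun n => s59p_Prof S A R M d n × P' n)
    (fun m n => (s59p_prof (L m) (hd m) n, F' m n))
  choose ms hms hmsx using hx
  have hF : ∀ n n', n ≤ n' →
      (s59p_prof (L (ms n)) (hd (ms n)) n, F' (ms n) n) =
        (s59p_prof (L (ms n')) (hd (ms n')) n, F' (ms n') n) := fun n n' h =>
    (hmsx n n le_rfl).trans (hmsx n' n h).symm
  exact ⟨ms, hms, s59p_conv_of_prof L hd hJ ms hms (fun n n' h => congrArg Prod.fst (hF n n' h)),
    fun n n' h => congrArg Prod.snd (hF n n' h)⟩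

theorem s59p_select (hJ : ∀ n, J n ≤ maximalIdeal S ^ n) :
    ∃ ms : ℕ → ℕ, (∀ n, n ≤ ms n) ∧
      s59p_Conv (J := fun n => J (ms n)) (fun n => L (ms n)) (fun n => hd (ms n)) := by
  obtain ⟨ms, h1, h2, -⟩ := s59p_select_with L hd hJ (P' := fun _ => Unit) (fun _ _ => ())
  exact ⟨ms, h1, h2⟩

end select

/-- **[PM1]** -/
theorem s59p_pm1 : s59p_PM1 := by
  intro S _ _ _ _ _ A _ _ _ _ _ R _ _ _ _ M _ _ _ 𝔞 J hJ L d hd
  obtain ⟨ms, -, hC⟩ := s59p_select L hd hJ
  obtain ⟨Li, -, -⟩ := s59p_limit (J := fun n => J (ms n)) (fun n => L (ms n))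
    (fun n => hd (ms n)) hC
  exact ⟨Li⟩

end Fermat.Agent.Lib.S59
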