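/-
(R) S59, [PM] the patching machine (helper4, prefix `s59p_`), part 5: the support lemmas
**[PM2]**, **[PM3A]**, **[PM3C]**, **[PM3B]**, **[PM3B']** of `PGraph.lean`.
-/
import Mathlib
import Fermat.Agent.Lib.S59.PLevel

set_option autoImplicit false
set_option linter.unusedSectionVars false
set_option linter.unusedVariables false
set_option linter.style.haveILetI false

namespace Fermat.Agent.Lib.S59

open IsLocalRing Polynomial

/-! ### general commutative algebra -/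

/-- an integral injective ring map does not lower the Krull dimension. -/
theorem s59p_krullDim_le_of_integral {S D : Type*} [CommRing S] [CommRing D] (f : S →+* D)
    (hinj : Function.Injective f) (hint : f.IsIntegral) : ringKrullDim S ≤ ringKrullDim D := by
  letI : Algebra S D := f.toAlgebra
  haveI : Algebra.IsIntegral S D := ⟨hint⟩
  unfold ringKrullDim Order.krullDim
  refine iSup_le fun l => ?_
  obtain ⟨Q, -, hQ, hQ2⟩ := Ideal.exists_ideal_over_prime_of_isIntegral l.head.asIdeal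
    (⊥ : Ideal D) (by
      intro x hx
      rw [Ideal.mem_comap, Ideal.mem_bot] at hx
      have : x = 0 := hinj (by rw [map_zero]; exact hx)
      rw [this]
      exact Ideal.zero_mem _)
  haveI : Q.IsPrime := hQ
  haveI : Q.LiesOver l.head.asIdeal := ⟨hQ2.symm⟩
  obtain ⟨L', hlen, -, -⟩ := Ideal.exists_ltSeries_of_hasGoingUp l Q
  rw [← hlen]
  exact le_iSup (fun p : LTSeries (PrimeSpectrum D) => (p.length : WithBot ℕ∞)) L'

/-- the determinant trick: if `a N ⊆ I N` for a finite module `N` then a power of `a` lies in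
`Ann N + I`. -/
theorem s59p_pow_mem_of_smul_le {A N : Type*} [CommRing A] [AddCommGroup N] [Module A N]
    [Module.Finite A N] (I : Ideal A) (a : A)
    (h : ∀ x : N, a • x ∈ I • (⊤ : Submodule A N)) :
    ∃ n : ℕ, a ^ n ∈ Module.annihilator A N ⊔ I := by
  have hI : LinearMap.range (Algebra.lsmul A A N a) ≤ I • ⊤ := by
    rintro _ ⟨x, rfl⟩
    exact h x
  obtain ⟨p, hp, -, hcoeff, hzero⟩ :=
    LinearMap.exists_monic_and_natDegree_eq_and_coeff_mem_pow_and_aeval_eq_zero A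
      (Algebra.lsmul A A N a) I hI
  rw [Polynomial.aeval_algHom_apply] at hzero
  have hann : Polynomial.aeval a p ∈ Module.annihilator A N := by
    rw [Module.mem_annihilator]
    intro x
    have := LinearMap.congr_fun hzero x
    simpa using this
  refine ⟨p.natDegree, ?_⟩
  rw [Polynomial.coe_aeval_eq_eval, Polynomial.eval_eq_sum_range, Finset.sum_range_succ,
    hp.coeff_natDegree, one_mul] at hann
  have hlow : ∑ k ∈ Finset.range p.natDegree, p.coeff k * a ^ k ∈ I := by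
    refine Ideal.sum_mem _ fun k hk => Ideal.mul_mem_right _ _ ?_
    have hk' : p.natDegree - k ≠ 0 := by
      have := Finset.mem_range.mp hk
      omega
    exact Ideal.pow_le_self hk' (hcoeff k)
  have e : a ^ p.natDegree = (∑ k ∈ Finset.range p.natDegree, p.coeff k * a ^ k +
      a ^ p.natDegree) - ∑ k ∈ Finset.range p.natDegree, p.coeff k * a ^ k := by ring
  rw [e]
  exact Ideal.sub_mem _ (Ideal.mem_sup_left hann) (Ideal.mem_sup_right hlow)

section level

variable {S : Type} [CommRing S] {A : Type} [CommRing A] {R : Type} [CommRing R]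
  {M : Type} [AddCommGroup M] [Module R M] {𝔞 J : Ideal S} (L : s59p_Level S A R M 𝔞 J)

theorem s59p_span_b : Submodule.span A (Set.range L.b) = ⊤ := by
  rw [eq_top_iff]
  intro x _
  obtain ⟨c, rfl⟩ := L.b_span x
  exact Submodule.sum_mem _ fun i _ =>
    Submodule.smul_mem _ _ (Submodule.subset_span ⟨i, rfl⟩)

instance s59p_finite : Module.Finite A L.N :=
  ⟨(Submodule.fg_iff_exists_fin_generating_family).mpr ⟨L.d, L.b, s59p_span_b L⟩⟩

/-- an element of `A` which kills the basis kills `N`. -/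
theorem s59p_mem_ann_of_b {a : A} (h : ∀ k, a • L.b k = 0) : a ∈ Module.annihilator A L.N := by
  rw [Module.mem_annihilator]
  intro x
  obtain ⟨c, rfl⟩ := L.b_span x
  rw [Finset.smul_sum]
  refine Finset.sum_eq_zero fun i _ => ?_
  rw [smul_comm, h i, smul_zero]

/-- Cayley–Hamilton over `S`: every element of `A` is a root, modulo `Ann N`, of a monic
polynomial with coefficients in `S`. -/
theorem s59p_charpoly_mem_ann (a : A) :
    ∃ p : S[X], p.Monic ∧ p.eval₂ L.φ a ∈ Module.annihilator A L.N := by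
  classical
  choose c hc using fun j => L.b_span (a • L.b j)
  set Cm : Matrix (Fin L.d) (Fin L.d) S := Matrix.of fun i j => c j i with hCm
  refine ⟨Cm.charpoly, Matrix.charpoly_monic _, ?_⟩
  set Bm : Matrix (Fin L.d) (Fin L.d) A := (Polynomial.eval₂RingHom L.φ a).mapMatrix Cm.charmatrix
    with hBm
  have hdet : Cm.charpoly.eval₂ L.φ a = Bm.det := by
    rw [hBm, ← RingHom.map_det]
    rfl
  have hentry : ∀ i j, Bm i j = (if i = j then a else 0) - L.φ (c j i) := by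
    intro i j
    rw [hBm, RingHom.mapMatrix_apply, Matrix.map_apply, Matrix.charmatrix_apply,
      Polynomial.coe_eval₂RingHom, Polynomial.eval₂_sub, Polynomial.eval₂_C, hCm, Matrix.of_apply]
    congr 1
    by_cases hij : i = j
    · subst hij
      simp
    · simp [hij]
  have hcol : ∀ j, ∑ i, Bm i j • L.b i = 0 := by
    intro j
    simp only [hentry, sub_smul, Finset.sum_sub_distrib, ite_smul, zero_smul]
    rw [Finset.sum_ite_eq' Finset.univ j, if_pos (Finset.mem_univ j), ← hc j, sub_self]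
  rw [hdet]
  refine s59p_mem_ann_of_b L fun k => ?_
  have h1 : ∀ i, (Bm * Bm.adjugate) i k = if i = k then Bm.det else 0 := by
    intro i
    rw [Matrix.mul_adjugate, Matrix.smul_apply, Matrix.one_apply, smul_eq_mul]
    by_cases hik : i = k
    · simp [hik]
    · simp [hik]
  have h2 : ∑ i, (Bm * Bm.adjugate) i k • L.b i = Bm.det • L.b k := by
    simp only [h1, ite_smul, zero_smul]
    rw [Finset.sum_ite_eq' Finset.univ k, if_pos (Finset.mem_univ k)]
  rw [← h2]
  simp only [Matrix.mul_apply, Finset.sum_smul]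
  rw [Finset.sum_comm]
  refine Finset.sum_eq_zero fun j _ => ?_
  have : ∑ i, (Bm i j * Bm.adjugate j k) • L.b i = Bm.adjugate j k • ∑ i, Bm i j • L.b i := by
    rw [Finset.smul_sum]
    refine Finset.sum_congr rfl fun i _ => ?_
    rw [mul_comm, mul_smul]
  rw [this, hcol j, smul_zero]

end level

section bot

variable {S : Type} [CommRing S] {A : Type} [CommRing A] {R : Type} [CommRing R]
  {M : Type} [AddCommGroup M] [Module R M] {𝔞 : Ideal S} (L : s59p_Level S A R M 𝔞 ⊥)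

/-- `N` is torsion-free over `S`. -/
theorem s59p_torsionFree [IsDomain S] {s : S} (hs : s ≠ 0) {x : L.N} (h : L.φ s • x = 0) :
    x = 0 := by
  obtain ⟨c, rfl⟩ := L.b_span x
  rw [Finset.smul_sum] at h
  have h' : ∑ i, L.φ (s * c i) • L.b i = 0 := by
    rw [← h]
    refine Finset.sum_congr rfl fun i _ => ?_
    rw [map_mul, mul_smul]
  have h2 := (L.b_rel (fun i => s * c i)).mp h'
  have hc : ∀ i, c i = 0 := fun i => by
    have := h2 i
    rw [Ideal.mem_bot] at this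
    exact (mul_eq_zero.mp this).resolve_left hs
  refine Finset.sum_eq_zero fun i _ => ?_
  rw [hc i, map_zero, zero_smul]

end bot

/-- **[PM2]** -/
theorem s59p_pm2 : s59p_PM2 := by
  intro S _ _ _ _ A _ _ R _ M _ _ 𝔞 L 𝔓 h𝔓
  have hprime : 𝔓.IsPrime := h𝔓.1.1
  have hann : Module.annihilator A L.N ≤ 𝔓 := h𝔓.1.2
  have hass : 𝔓 ∈ associatedPrimes A L.N :=
    Module.associatedPrimes.minimalPrimes_annihilator_subset_associatedPrimes A L.N h𝔓
  obtain ⟨-, x, hx⟩ := (isAssociatedPrime_iff).mp hass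
  have hx0 : x ≠ 0 := by
    rintro rfl
    apply hprime.ne_top
    rw [hx, eq_top_iff]
    intro a _
    rw [Submodule.mem_colon_singleton, smul_zero]
    exact Submodule.zero_mem _
  -- (a)
  have ha : Ideal.comap L.φ 𝔓 = ⊥ := by
    rw [eq_bot_iff]
    intro s hs
    rw [Ideal.mem_comap, hx, Submodule.mem_colon_singleton, Submodule.mem_bot] at hs
    rw [Ideal.mem_bot]
    by_contra hs0
    exact hx0 (s59p_torsionFree L hs0 hs)
  -- (b)
  have hb : ((Ideal.Quotient.mk 𝔓).comp L.φ).IsIntegral := by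
    intro y
    obtain ⟨a, rfl⟩ := Ideal.Quotient.mk_surjective y
    obtain ⟨p, hp, hpa⟩ := s59p_charpoly_mem_ann L a
    refine ⟨p, hp, ?_⟩
    rw [← Polynomial.hom_eval₂, Ideal.Quotient.eq_zero_iff_mem]
    exact hann hpa
  have hinj : Function.Injective ((Ideal.Quotient.mk 𝔓).comp L.φ) := by
    rw [injective_iff_map_eq_zero]
    intro s hs
    rw [RingHom.comp_apply, Ideal.Quotient.eq_zero_iff_mem] at hs
    have : s ∈ Ideal.comap L.φ 𝔓 := hs
    rw [ha, Ideal.mem_bot] at this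
    exact this
  -- (c)
  have hc : ringKrullDim S ≤ ringKrullDim (A ⧸ 𝔓) := s59p_krullDim_le_of_integral _ hinj hb
  refine ⟨ha, hb, hc, fun hdim => ?_⟩
  -- (d)
  refine ⟨⟨hprime, bot_le⟩, ?_⟩
  rintro q ⟨hq, -⟩ hq𝔓
  by_contra hnot
  obtain ⟨a, ha𝔓, haq⟩ := Set.not_subset.mp hnot
  haveI : q.IsPrime := hq
  have hnzd : Ideal.Quotient.mk q a ∈ nonZeroDivisors (A ⧸ q) := by
    rw [mem_nonZeroDivisors_iff_ne_zero, Ne, Ideal.Quotient.eq_zero_iff_mem]
    exact haq
  have h1 : ringKrullDim (A ⧸ 𝔓) + 1 ≤ ringKrullDim (A ⧸ q) :=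
    ringKrullDim_succ_le_of_surjective (Ideal.Quotient.factor hq𝔓)
      (Ideal.Quotient.factor_surjective hq𝔓) hnzd (by
        rw [Ideal.Quotient.factor_mk, Ideal.Quotient.eq_zero_iff_mem]
        exact ha𝔓)
  have h2 : ringKrullDim (A ⧸ q) ≤ ringKrullDim A := ringKrullDim_quotient_le q
  have h3 : ringKrullDim S + 1 ≤ ringKrullDim S :=
    (add_le_add_left hc 1).trans (h1.trans (h2.trans hdim))
  have hne_top : ringKrullDim S ≠ ⊤ := ringKrullDim_ne_top
  have hne_bot : ringKrullDim S ≠ ⊥ := ringKrullDim_ne_bot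
  obtain ⟨e, he⟩ := WithBot.ne_bot_iff_exists.mp hne_bot
  rw [← he] at h3 hne_top
  have he_top : e ≠ ⊤ := fun h => hne_top (by rw [h]; rfl)
  obtain ⟨n, rfl⟩ := ENat.ne_top_iff_exists.mp he_top
  have h4 : ((n + 1 : ℕ) : WithBot ℕ∞) ≤ (n : ℕ) := by
    have : (((n : ℕ) : ℕ∞) : WithBot ℕ∞) + 1 = ((n + 1 : ℕ) : WithBot ℕ∞) := by
      push_cast; rfl
    rw [← this]
    exact h3
  have h5 : n + 1 ≤ n := by exact_mod_cast h4
  omega

/-- **[PM3A]** -/
theorem s59p_pm3A : s59p_PM3A := by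
  intro S _ _ _ _ A _ _ _ R _ M _ _ _ 𝔞 hdim L
  have hN : Module.annihilator A L.N ≠ ⊤ := by
    intro h
    have h1 : (1 : A) ∈ Module.annihilator A L.N := h ▸ Submodule.mem_top
    rw [Module.mem_annihilator] at h1
    obtain ⟨y, hy⟩ := exists_ne (0 : M)
    obtain ⟨x, rfl⟩ := L.π_surjective y
    apply hy
    have := h1 x
    rw [one_smul] at this
    rw [this, map_zero]
  have hbot : Module.annihilator A L.N = ⊥ := by
    obtain ⟨⟨𝔓, h𝔓⟩⟩ := Ideal.nonempty_minimalPrimes hN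
    obtain ⟨-, -, -, hmin⟩ := s59p_pm2 S A R M 𝔞 L 𝔓 h𝔓
    have h1 : 𝔓 ∈ minimalPrimes A := hmin hdim
    rw [IsDomain.minimalPrimes_eq_singleton_bot, Set.mem_singleton_iff] at h1
    rw [eq_bot_iff, ← h1]
    exact h𝔓.1.2
  refine ⟨hbot, ?_⟩
  intro r hr
  obtain ⟨a, rfl⟩ := L.ψ_surjective r
  have h1 : ∀ x : L.N, a • x ∈ (𝔞.map L.φ) • (⊤ : Submodule A L.N) := by
    intro x
    rw [← L.ker_π, L.π_smul]
    exact (Module.mem_annihilator.mp hr) _
  obtain ⟨n, hn⟩ := s59p_pow_mem_of_smul_le (𝔞.map L.φ) a h1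
  rw [hbot, bot_sup_eq] at hn
  have hle : 𝔞.map L.φ ≤ RingHom.ker L.ψ := by
    rw [Ideal.map_le_iff_le_comap]
    intro s hs
    rw [Ideal.mem_comap, RingHom.mem_ker]
    exact L.ψ_φ s hs
  have : L.ψ a ^ n = 0 := by
    rw [← map_pow]
    exact (RingHom.mem_ker).mp (hle hn)
  exact mem_nilradical.mpr ⟨n, this⟩

/-- **[PM3C]** -/
theorem s59p_pm3C : s59p_PM3C := by
  intro S _ _ _ _ A _ _ R _ M _ _ 𝔞 _ L 𝔓 h𝔓
  obtain ⟨ha, hb, -, -⟩ := s59p_pm2 S A R M 𝔞 L 𝔓 h𝔓
  have hprime : 𝔓.IsPrime := h𝔓.1.1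
  have hann : Module.annihilator A L.N ≤ 𝔓 := h𝔓.1.2
  set f : S →+* A ⧸ 𝔓 := (Ideal.Quotient.mk 𝔓).comp L.φ with hf
  letI : Algebra S (A ⧸ 𝔓) := f.toAlgebra
  haveI : Algebra.IsIntegral S (A ⧸ 𝔓) := ⟨hb⟩
  obtain ⟨Q, -, hQ, hQ2⟩ := Ideal.exists_ideal_over_prime_of_isIntegral 𝔞
    (⊥ : Ideal (A ⧸ 𝔓)) (by
      intro s hs
      rw [Ideal.mem_comap, Ideal.mem_bot] at hs
      have h1 : s ∈ Ideal.comap L.φ 𝔓 := by
        rw [Ideal.mem_comap, ← Ideal.Quotient.eq_zero_iff_mem]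
        exact hs
      rw [ha, Ideal.mem_bot] at h1
      rw [h1]
      exact Ideal.zero_mem _)
  haveI := hQ
  set P2 : Ideal A := Ideal.comap (Ideal.Quotient.mk 𝔓) Q with hP2
  have hP2prime : P2.IsPrime := Ideal.comap_isPrime _ _
  have h𝔓le : 𝔓 ≤ P2 := by
    intro a ha'
    rw [hP2, Ideal.mem_comap, Ideal.Quotient.eq_zero_iff_mem.mpr ha']
    exact Ideal.zero_mem _
  have hcomap : Ideal.comap L.φ P2 = 𝔞 := by
    rw [hP2, Ideal.comap_comap]
    exact hQ2
  have hmap_le : 𝔞.map L.φ ≤ P2 := by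
    rw [Ideal.map_le_iff_le_comap, hcomap]
  have hkey : ∀ a : A, L.ψ a ∈ Module.annihilator R M → a ∈ P2 := by
    intro a har
    have h1 : ∀ x : L.N, a • x ∈ (𝔞.map L.φ) • (⊤ : Submodule A L.N) := by
      intro x
      rw [← L.ker_π, L.π_smul]
      exact (Module.mem_annihilator.mp har) _
    obtain ⟨n, hn⟩ := s59p_pow_mem_of_smul_le (𝔞.map L.φ) a h1
    have : a ^ n ∈ P2 := (sup_le (hann.trans h𝔓le) hmap_le) hn
    exact hP2prime.mem_of_pow_mem n this
  have hker : RingHom.ker L.ψ ≤ P2 := by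
    intro a ha'
    refine hkey a ?_
    rw [(RingHom.mem_ker).mp ha']
    exact Submodule.zero_mem _
  refine ⟨P2.map L.ψ, Ideal.map_isPrime_of_surjective L.ψ_surjective hker, ?_,
    Ideal.map_mono h𝔓le, ?_⟩
  · intro r hr
    obtain ⟨a, rfl⟩ := L.ψ_surjective r
    exact Ideal.mem_map_of_mem _ (hkey a hr)
  · have h1 : Ideal.comap L.ψ (P2.map L.ψ) = P2 := by
      rw [Ideal.comap_map_of_surjective _ L.ψ_surjective, ← RingHom.ker_eq_comap_bot,
        sup_eq_left]
      exact hker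
    rw [← Ideal.comap_comap, h1, hcomap]

/-- **[PM3B]** -/
theorem s59p_pm3B : s59p_PM3B := by
  intro S _ A _ A' _ R _ R' _ M _ _ M' _ _ 𝔞 J ϖ ϖ' ι L L' hcong hann'
  obtain ⟨-, -, θ, hθ⟩ := hcong
  intro a ha
  obtain ⟨a', ha'⟩ := Ideal.Quotient.mk_surjective (ι (Ideal.Quotient.mk _ a))
  have h1 : ∀ x' : L'.N, a' • x' ∈ (Ideal.span {ϖ'}) • (⊤ : Submodule A' L'.N) := by
    intro x'
    obtain ⟨y, hy⟩ := θ.surjective (Submodule.Quotient.mk x')
    obtain ⟨x, rfl⟩ := Submodule.Quotient.mk_surjective _ y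
    have h2 := hθ a a' ha'.symm (Submodule.Quotient.mk x)
    rw [← Submodule.Quotient.mk_smul, (Module.mem_annihilator.mp ha) x,
      Submodule.Quotient.mk_zero, map_zero, hy, ← Submodule.Quotient.mk_smul] at h2
    exact (Submodule.Quotient.mk_eq_zero _).mp h2.symm
  obtain ⟨n, hn⟩ := s59p_pow_mem_of_smul_le (Ideal.span {ϖ'}) a' h1
  rw [hann', bot_sup_eq] at hn
  refine ⟨n, ?_⟩
  rw [← Ideal.Quotient.eq_zero_iff_mem, map_pow]
  have : ι (Ideal.Quotient.mk _ a ^ n) = 0 := by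
    rw [map_pow, ← ha', ← map_pow, Ideal.Quotient.eq_zero_iff_mem]
    exact hn
  exact (map_eq_zero_iff ι ι.injective).mp this

/-- **[PM3B']** -/
theorem s59p_pm3B' : s59p_PM3B' := by
  intro S _ _ _ _ A _ _ R _ M _ _ 𝔞 L ϖ hdim hrad 𝔓 h𝔓 ⟨𝔮, h𝔮, hϖ, huniq⟩
  haveI := h𝔮
  have hle : Module.annihilator A L.N ≤ 𝔮 := by
    refine hrad.trans ?_
    rw [h𝔮.radical_le_iff, Ideal.span_le, Set.singleton_subset_iff]
    exact hϖ
  obtain ⟨𝔓', h𝔓', h𝔓'le⟩ := Ideal.exists_minimalPrimes_le hle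
  obtain ⟨-, -, -, hmin⟩ := s59p_pm2 S A R M 𝔞 L 𝔓' h𝔓'
  have := huniq 𝔓' (hmin hdim) h𝔓'le
  rw [← this]
  exact h𝔓'

end Fermat.Agent.Lib.S59
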