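/-
(R) S59, [PM] the patching machine (helper4, prefix `s59p_`), part 7: pairs of sequences of levels
(Ihara avoidance): **[PM1w]**, **[PM3Bw]**, **[CongW]** of `PGraph.lean`.
-/
import Mathlib
import Fermat.Agent.Lib.S59.PSelect
import Fermat.Agent.Lib.S59.PSupp

set_option autoImplicit false
set_option linter.unusedSectionVars false
set_option linter.unusedVariables false
set_option linter.style.haveILetI false
set_option maxHeartbeats 1600000

namespace Fermat.Agent.Lib.S59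

open IsLocalRing Fermat.Agent.Lib.Deform

section level

variable {S : Type} [CommRing S] {A : Type} [CommRing A] {R : Type} [CommRing R]
  {M : Type} [AddCommGroup M] [Module R M] {𝔞 J : Ideal S} (L : s59p_Level S A R M 𝔞 J)
  {d : ℕ} (h : L.d = d)

theorem s59p_Φ_single (j : Fin d) : s59p_Φ L h (Pi.single j 1) = s59p_bb L h j := by
  classical
  rw [s59p_Φ_apply]
  simp only [Pi.single_apply, ite_smul, one_smul, zero_smul]
  rw [Finset.sum_ite_eq' Finset.univ j, if_pos (Finset.mem_univ j)]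

/-- the elements of `I N` in terms of the presentation. -/
theorem s59p_mem_smul_top_iff (I : Ideal A) (x : L.N) :
    x ∈ I • (⊤ : Submodule A L.N) ↔ ∃ u : Fin d → A, (∀ i, u i ∈ I) ∧ x = s59p_Φ L h u := by
  constructor
  · intro hx
    refine Submodule.smul_induction_on hx ?_ ?_
    · intro r hr y _
      obtain ⟨w, rfl⟩ := s59p_Φ_surjective L h y
      refine ⟨r • w, fun i => ?_, (map_smul _ _ _).symm⟩
      rw [Pi.smul_apply, smul_eq_mul]
      exact Ideal.mul_mem_right _ _ hr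
    · rintro x y ⟨u, hu, rfl⟩ ⟨v, hv, rfl⟩
      exact ⟨u + v, fun i => Ideal.add_mem _ (hu i) (hv i), (map_add _ _ _).symm⟩
  · rintro ⟨u, hu, rfl⟩
    rw [s59p_Φ_apply]
    exact Submodule.sum_mem _ fun i _ => Submodule.smul_mem_smul (hu i) Submodule.mem_top

/-- `a N ⊆ I N` in terms of the presentation. -/
theorem s59p_smul_le_iff (I : Ideal A) (a : A) :
    (∀ x : L.N, a • x ∈ I • (⊤ : Submodule A L.N)) ↔
      ∀ j : Fin d, ∃ k ∈ s59p_K L h, ∃ u : Fin d → A, (∀ i, u i ∈ I) ∧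
        a • (Pi.single j 1 : Fin d → A) = k + u := by
  constructor
  · intro H j
    obtain ⟨u, hu, hau⟩ := (s59p_mem_smul_top_iff L h I _).mp (H (s59p_bb L h j))
    refine ⟨a • Pi.single j 1 - u, ?_, u, hu, by abel⟩
    rw [s59p_mem_K, map_sub, map_smul, s59p_Φ_single, hau, sub_self]
  · intro H x
    obtain ⟨g, rfl⟩ := s59p_Φ_surjective L h x
    rw [s59p_Φ_apply, Finset.smul_sum]
    refine Submodule.sum_mem _ fun j _ => ?_
    rw [smul_comm]
    refine Submodule.smul_mem _ _ ?_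
    obtain ⟨k, hk, u, hu, hau⟩ := H j
    rw [← s59p_Φ_single L h j, ← map_smul, hau, map_add, (s59p_mem_K L h).mp hk, zero_add]
    exact (s59p_mem_smul_top_iff L h I _).mpr ⟨u, hu, rfl⟩

end level

section select₂

variable {S : Type} [CommRing S] [IsLocalRing S] [IsNoetherianRing S]
  [IsAdicComplete (maximalIdeal S) S] [Finite (ResidueField S)]
  {A : Type} [CommRing A] [IsLocalRing A] [IsNoetherianRing A]
  [IsAdicComplete (maximalIdeal A) A] [Finite (ResidueField A)]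
  {A' : Type} [CommRing A'] [IsLocalRing A'] [IsNoetherianRing A']
  [IsAdicComplete (maximalIdeal A') A'] [Finite (ResidueField A')]
  {R : Type} [CommRing R] [IsLocalRing R] [IsNoetherianRing R]
  [IsAdicComplete (maximalIdeal R) R]
  {R' : Type} [CommRing R'] [IsLocalRing R'] [IsNoetherianRing R']
  [IsAdicComplete (maximalIdeal R') R']
  {M : Type} [AddCommGroup M] [Module R M] [Module.Finite R M]
  {M' : Type} [AddCommGroup M'] [Module R' M'] [Module.Finite R' M']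
  {𝔞 : Ideal S} {J : ℕ → Ideal S}
  (L : ∀ n, s59p_Level S A R M 𝔞 (J n)) {d : ℕ} (hd : ∀ n, (L n).d = d)
  (L' : ∀ n, s59p_Level S A' R' M' 𝔞 (J n)) {d' : ℕ} (hd' : ∀ n, (L' n).d = d')

/-- a common convergent subsequence for two sequences of levels. -/
theorem s59p_select₂ (hJ : ∀ n, J n ≤ maximalIdeal S ^ n) :
    ∃ ms : ℕ → ℕ, (∀ n, n ≤ ms n) ∧
      s59p_Conv (J := fun n => J (ms n)) (fun n => L (ms n)) (fun n => hd (ms n)) ∧
      s59p_Conv (J := fun n => J (ms n)) (fun n => L' (ms n)) (fun n => hd' (ms n)) := by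
  classical
  haveI hkR' : Finite (ResidueField R') :=
    s59p_finite_residueField (L' 0).ψ (L' 0).ψ_surjective
  obtain ⟨ms, hms, hC, hF⟩ := s59p_select_with L hd hJ
    (P' := fun n => s59p_Prof S A' R' M' d' n) (fun m n => s59p_prof (L' m) (hd' m) n)
  exact ⟨ms, hms, hC, s59p_conv_of_prof L' hd' hJ ms hms hF⟩

end select₂

/-- **[PM1w]** -/
theorem s59p_pm1w : s59p_PM1w := by
  intro S _ _ _ _ _ A _ _ _ _ _ A' _ _ _ _ _ R _ _ _ _ R' _ _ _ _ M _ _ _ M' _ _ _ 𝔞 J hJ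
    ϖ ϖ' ι L L' d d' hd hd' hW
  classical
  obtain ⟨ms, hms, hC, hC'⟩ := s59p_select₂ L hd L' hd' hJ
  obtain ⟨Li, hdi, -, -, hK⟩ := s59p_limit (J := fun n => J (ms n)) (fun n => L (ms n))
    (fun n => hd (ms n)) hC
  obtain ⟨Li', hdi', -, -, hK'⟩ := s59p_limit (J := fun n => J (ms n)) (fun n => L' (ms n))
    (fun n => hd' (ms n)) hC'
  refine ⟨Li, Li', ?_⟩
  intro t a a' haa' H
  rw [s59p_smul_le_iff Li hdi] at H
  rw [s59p_smul_le_iff Li' hdi']
  have hstep2 : ∀ n, t ≤ n → ∀ x : (L (ms n)).N, a • x ∈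
      (Ideal.span {ϖ} ⊔ maximalIdeal A ^ t) • (⊤ : Submodule A (L (ms n)).N) := by
    intro n htn
    rw [s59p_smul_le_iff (L (ms n)) (hd (ms n))]
    intro j
    obtain ⟨k, hk, u, hu, hau⟩ := H j
    rw [hK] at hk
    obtain ⟨kn, hkn, hkkn⟩ := hk n
    refine ⟨kn, hkn, u + (k - kn), fun i => ?_, ?_⟩
    · exact Ideal.add_mem _ (hu i)
        (Ideal.mem_sup_right (Ideal.pow_le_pow_right htn (hkkn i)))
    · rw [hau]; abel
  have hstep3 : ∀ n, t ≤ n → ∀ j : Fin d', ∃ k' ∈ s59p_K (L' (ms n)) (hd' (ms n)),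
      ∃ u' : Fin d' → A', (∀ i, u' i ∈ Ideal.span {ϖ'} ⊔ maximalIdeal A' ^ t) ∧
        a' • (Pi.single j 1 : Fin d' → A') = k' + u' := by
    intro n htn
    rw [← s59p_smul_le_iff (L' (ms n)) (hd' (ms n))]
    exact hW (ms n) t a a' haa' (hstep2 n htn)
  intro j
  obtain ⟨m, τ, hτ⟩ := (Submodule.fg_iff_exists_fin_generating_family).mp
    (IsNoetherian.noetherian (Ideal.span {ϖ'} ⊔ maximalIdeal A' ^ t))
  have hτ' : Ideal.span (Set.range τ) = Ideal.span {ϖ'} ⊔ maximalIdeal A' ^ t := hτ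
  have hτmem : ∀ l, τ l ∈ Ideal.span {ϖ'} ⊔ maximalIdeal A' ^ t := fun l =>
    hτ' ▸ Ideal.subset_span ⟨l, rfl⟩
  choose k' hk' u' hu' hau' using fun n => hstep3 (max n t) (le_max_right n t) j
  have hw : ∀ n, ∃ w : Fin m → Fin d' → A', ∀ i, u' n i = ∑ l, τ l * w l i := by
    intro n
    have h1 : ∀ i, ∃ c : Fin m → A', ∑ l, c l * τ l = u' n i := fun i => by
      have := hu' n i
      rw [← hτ'] at this
      exact (Ideal.mem_span_range_iff_exists_fun).mp this
    choose c hc using h1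
    exact ⟨fun l i => c i l, fun i => by
      rw [← hc i]; exact Finset.sum_congr rfl fun l _ => mul_comm _ _⟩
  choose w hw using hw
  haveI hfinq : ∀ n, Finite (A' ⧸ maximalIdeal A' ^ n) := fun n => s59p_finite_quot_pow A' n
  obtain ⟨w', hw'⟩ := s59c_exists_cluster (maximalIdeal A') (ι := Fin m × Fin d')
    (fun n p => w n p.1 p.2)
  set uu : Fin d' → A' := fun i => ∑ l, τ l * w' (l, i) with huu
  refine ⟨a' • Pi.single j 1 - uu, ?_, uu, fun i => ?_, by abel⟩
  · rw [hK']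
    refine s59p_mem_Kinf_of _ _ hC' fun n => ?_
    obtain ⟨n', hnn', hcl⟩ := hw' n
    refine ⟨max n' t, hnn'.trans (le_max_left _ _), k' n', hk' n', fun i => ?_⟩
    have e : (a' • (Pi.single j 1 : Fin d' → A') - uu) i - k' n' i =
        ∑ l, τ l * (w n' l i - w' (l, i)) := by
      have h1 : (a' • (Pi.single j 1 : Fin d' → A')) i = k' n' i + u' n' i := by
        rw [hau' n']; rfl
      rw [Pi.sub_apply, h1, hw n' i, huu]
      simp only [mul_sub, Finset.sum_sub_distrib]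
      ring
    rw [e]
    exact Ideal.sum_mem _ fun l _ => Ideal.mul_mem_left _ _ (hcl (l, i))
  · rw [huu]
    exact Ideal.sum_mem _ fun l _ => Ideal.mul_mem_right _ _ (hτmem l)

/-- **[PM3Bw]** -/
theorem s59p_pm3Bw : s59p_PM3Bw := by
  intro S _ A _ _ A' _ _ _ R _ R' _ M _ _ M' _ _ 𝔞 J ϖ ϖ' ι L L' hW hann' a ha
  obtain ⟨a', ha'⟩ := Ideal.Quotient.mk_surjective (ι (Ideal.Quotient.mk _ a))
  have h0 : ∀ t, ∀ x' : L'.N, a' • x' ∈
      (Ideal.span {ϖ'} ⊔ maximalIdeal A' ^ t) • (⊤ : Submodule A' L'.N) := by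
    intro t
    refine hW t a a' ha'.symm fun x => ?_
    rw [(Module.mem_annihilator.mp ha) x]
    exact Submodule.zero_mem _
  have h1 : ∀ x' : L'.N, a' • x' ∈ (Ideal.span {ϖ'}) • (⊤ : Submodule A' L'.N) := by
    intro x'
    rw [← Submodule.Quotient.mk_eq_zero]
    refine s59c_eq_zero_of_forall_mem (maximalIdeal A') fun t => ?_
    have h2 := h0 t x'
    refine Submodule.smul_induction_on h2 ?_ ?_
    · intro r hr n _
      obtain ⟨r₁, hr₁, r₂, hr₂, rfl⟩ := Submodule.mem_sup.mp hr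
      rw [add_smul, Submodule.Quotient.mk_add]
      have e1 : (Submodule.Quotient.mk (r₁ • n) :
          L'.N ⧸ (Ideal.span {ϖ'}) • (⊤ : Submodule A' L'.N)) = 0 := by
        rw [Submodule.Quotient.mk_eq_zero]
        exact Submodule.smul_mem_smul hr₁ Submodule.mem_top
      rw [e1, zero_add, Submodule.Quotient.mk_smul]
      exact Submodule.smul_mem_smul hr₂ Submodule.mem_top
    · intro y y' hy hy'
      rw [Submodule.Quotient.mk_add]
      exact Submodule.add_mem _ hy hy'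
  obtain ⟨n, hn⟩ := s59p_pow_mem_of_smul_le (Ideal.span {ϖ'}) a' h1
  rw [hann', bot_sup_eq] at hn
  refine ⟨n, ?_⟩
  rw [← Ideal.Quotient.eq_zero_iff_mem, map_pow]
  have : ι (Ideal.Quotient.mk _ a ^ n) = 0 := by
    rw [map_pow, ← ha', ← map_pow, Ideal.Quotient.eq_zero_iff_mem]
    exact hn
  exact (map_eq_zero_iff ι ι.injective).mp this

/-- **[CongW]** -/
theorem s59p_congW : s59p_CongW := by
  intro S _ A _ _ A' _ _ R _ R' _ M _ _ M' _ _ 𝔞 J ϖ ϖ' hϖ hϖ' ι L L' hcong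
  obtain ⟨-, -, θ, hθ⟩ := hcong
  intro t a a' haa' H x'
  -- the quotient `A' ⧸ ϖ'` is local
  have hne' : Ideal.span {ϖ'} ≠ (⊤ : Ideal A') := by
    intro h
    have : (1 : A') ∈ Ideal.span {ϖ'} := h ▸ Submodule.mem_top
    have h2 : Ideal.span {ϖ'} ≤ maximalIdeal A' := by
      rw [Ideal.span_le, Set.singleton_subset_iff]; exact hϖ'
    exact (Ideal.ne_top_iff_one _).mp (IsLocalRing.maximalIdeal.isMaximal A').ne_top (h2 this)
  haveI : Nontrivial (A' ⧸ Ideal.span {ϖ'}) := Ideal.Quotient.nontrivial_iff.mpr hne'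
  haveI : IsLocalRing (A' ⧸ Ideal.span {ϖ'}) :=
    IsLocalRing.of_surjective' (Ideal.Quotient.mk (Ideal.span {ϖ'})) Ideal.Quotient.mk_surjective
  set f : A →+* A' ⧸ Ideal.span {ϖ'} :=
    (ι : A ⧸ Ideal.span {ϖ} →+* A' ⧸ Ideal.span {ϖ'}).comp (Ideal.Quotient.mk _) with hf
  have hfsurj : Function.Surjective f :=
    ι.surjective.comp Ideal.Quotient.mk_surjective
  -- transport of elements of `(ϖ, 𝔪^t) N`
  have key : ∀ z : L.N, z ∈ (Ideal.span {ϖ} ⊔ maximalIdeal A ^ t) • (⊤ : Submodule A L.N) →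
      ∃ z' ∈ (Ideal.span {ϖ'} ⊔ maximalIdeal A' ^ t) • (⊤ : Submodule A' L'.N),
        θ (Submodule.Quotient.mk z) = Submodule.Quotient.mk z' := by
    intro z hz
    refine Submodule.smul_induction_on hz ?_ ?_
    · intro r hr n _
      obtain ⟨r₁, hr₁, r₂, hr₂, rfl⟩ := Submodule.mem_sup.mp hr
      obtain ⟨r₂', hr₂', hr₂f⟩ := s59p_surj_pow_surj (Ideal.Quotient.mk (Ideal.span {ϖ'}))
        Ideal.Quotient.mk_surjective (s59p_surj_mem_pow f hfsurj hr₂)
      obtain ⟨n', hn'⟩ := Submodule.Quotient.mk_surjective _ (θ (Submodule.Quotient.mk n))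
      refine ⟨r₂' • n', Submodule.smul_mem_smul (Ideal.mem_sup_right hr₂') Submodule.mem_top, ?_⟩
      have e1 : (Submodule.Quotient.mk ((r₁ + r₂) • n) :
          L.N ⧸ (Ideal.span {ϖ}) • (⊤ : Submodule A L.N)) =
          r₂ • Submodule.Quotient.mk n := by
        have : (Submodule.Quotient.mk (r₁ • n) :
            L.N ⧸ (Ideal.span {ϖ}) • (⊤ : Submodule A L.N)) = 0 := by
          rw [Submodule.Quotient.mk_eq_zero]
          exact Submodule.smul_mem_smul hr₁ Submodule.mem_top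
        rw [add_smul, Submodule.Quotient.mk_add, this, zero_add, Submodule.Quotient.mk_smul]
      rw [e1, hθ r₂ r₂' hr₂f.symm, ← hn', Submodule.Quotient.mk_smul]
    · rintro y y' ⟨z₁, hz₁, e₁⟩ ⟨z₂, hz₂, e₂⟩
      exact ⟨z₁ + z₂, Submodule.add_mem _ hz₁ hz₂, by
        rw [Submodule.Quotient.mk_add, map_add, e₁, e₂, Submodule.Quotient.mk_add]⟩
  obtain ⟨y, hy⟩ := θ.surjective (Submodule.Quotient.mk x')
  obtain ⟨x, rfl⟩ := Submodule.Quotient.mk_surjective _ y
  obtain ⟨z', hz', hz'e⟩ := key (a • x) (H x)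
  rw [Submodule.Quotient.mk_smul, hθ a a' haa', hy, ← Submodule.Quotient.mk_smul,
    Submodule.Quotient.eq] at hz'e
  have : a' • x' = (a' • x' - z') + z' := by abel
  rw [this]
  refine Submodule.add_mem _ ?_ hz'
  exact Submodule.smul_mono_left le_sup_left hz'e

end Fermat.Agent.Lib.S59
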