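/-
Programme (R) = S59, node (H2) (helper8), file 5: **[EXT-abs]** — the explicit extension.

`G ≤ G₀` subgroups of a group, `X` a finite set with a right action `perm` of `G₀`, and a "coset
family" `F : G₀ → X → G₀` with the cocycle rule `F (g g') x = F g x · F g' (x·g)` and
`g⁻¹ · F g x ∈ G`.  For a homomorphism `χ : G → A` invariant under conjugation by `G₀`,
`ψ(g) := ∑_x χ (g⁻¹ · F g x)` is a HOMOMORPHISM `G₀ → A`.  (On `G` it is `T χ - |X| χ`.)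
This kills the whole `H²(Δ)`-obstruction to extending invariant classes, with no choice of
generators of `Δ = G₀/G`.  Mathlib only.
-/
import Mathlib

set_option autoImplicit false

open scoped BigOperators

namespace Fermat.Agent.Lib.S59

section Abs

variable {𝔾 : Type*} [Group 𝔾] {G G₀ : Subgroup 𝔾} {X : Type*} [Fintype X]
  {A : Type*} [AddCommGroup A]

/-- **[EXT-abs]** -/
theorem s59t_ext_abs (perm : G₀ → Equiv.Perm X) (F : G₀ → X → G₀)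
    (hF : ∀ g g' x, F (g * g') x = F g x * F g' (perm g x))
    (hFG : ∀ (g : G₀) x, ((g : 𝔾))⁻¹ * (F g x : 𝔾) ∈ G)
    (χ : Additive G →+ A)
    (hχ : ∀ (g : G₀) (h : G) (hc : (g : 𝔾)⁻¹ * (h : 𝔾) * (g : 𝔾) ∈ G),
      χ (Additive.ofMul ⟨(g : 𝔾)⁻¹ * (h : 𝔾) * (g : 𝔾), hc⟩) = χ (Additive.ofMul h)) :
    ∃ ψ : Additive G₀ →+ A, ∀ g : G₀,
      ψ (Additive.ofMul g) = ∑ x, χ (Additive.ofMul ⟨(g : 𝔾)⁻¹ * (F g x : 𝔾), hFG g x⟩) := by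
  classical
  have key : ∀ (g g' : G₀) (x : X),
      χ (Additive.ofMul ⟨((g * g' : G₀) : 𝔾)⁻¹ * (F (g * g') x : 𝔾), hFG (g * g') x⟩) =
        χ (Additive.ofMul ⟨(g : 𝔾)⁻¹ * (F g x : 𝔾), hFG g x⟩) +
          χ (Additive.ofMul ⟨(g' : 𝔾)⁻¹ * (F g' (perm g x) : 𝔾), hFG g' (perm g x)⟩) := by
    intro g g' x
    have e1 : ((g * g' : G₀) : 𝔾)⁻¹ * (F (g * g') x : 𝔾) =
        ((g' : 𝔾)⁻¹ * ((g : 𝔾)⁻¹ * (F g x : 𝔾)) * (g' : 𝔾)) *
          ((g' : 𝔾)⁻¹ * (F g' (perm g x) : 𝔾)) := by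
      rw [hF]
      push_cast
      group
    have hc : (g' : 𝔾)⁻¹ * ((g : 𝔾)⁻¹ * (F g x : 𝔾)) * (g' : 𝔾) ∈ G := by
      have h1 := hFG (g * g') x
      rw [e1] at h1
      have h2 := hFG g' (perm g x)
      have := G.mul_mem h1 (G.inv_mem h2)
      rwa [mul_inv_cancel_right] at this
    have e2 : (⟨((g * g' : G₀) : 𝔾)⁻¹ * (F (g * g') x : 𝔾), hFG (g * g') x⟩ : G) =
        ⟨(g' : 𝔾)⁻¹ * ((g : 𝔾)⁻¹ * (F g x : 𝔾)) * (g' : 𝔾), hc⟩ *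
          ⟨(g' : 𝔾)⁻¹ * (F g' (perm g x) : 𝔾), hFG g' (perm g x)⟩ := Subtype.ext e1
    rw [e2, ofMul_mul, map_add]
    congr 1
    exact hχ g' ⟨(g : 𝔾)⁻¹ * (F g x : 𝔾), hFG g x⟩ hc
  refine ⟨AddMonoidHom.mk' (fun a => ∑ x, χ (Additive.ofMul
    ⟨((Additive.toMul a : G₀) : 𝔾)⁻¹ * (F (Additive.toMul a) x : 𝔾),
      hFG (Additive.toMul a) x⟩)) ?_, fun g => rfl⟩
  intro a a'
  obtain ⟨g, rfl⟩ := Additive.ofMul.surjective a
  obtain ⟨g', rfl⟩ := Additive.ofMul.surjective a'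
  show ∑ x, χ (Additive.ofMul ⟨((g * g' : G₀) : 𝔾)⁻¹ * (F (g * g') x : 𝔾), hFG (g * g') x⟩) = _
  simp only [toMul_ofMul]
  rw [Finset.sum_congr rfl fun x _ => key g g' x, Finset.sum_add_distrib]
  congr 1
  exact Equiv.sum_comp (perm g)
    (fun y => χ (Additive.ofMul ⟨(g' : 𝔾)⁻¹ * (F g' y : 𝔾), hFG g' y⟩))

end Abs

end Fermat.Agent.Lib.S59
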