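/-
Programme (R) = S59, node (H2) (helper8), file 6: **[EXT]** for `G = Γ_H(N) ≤ G₀ = Γ₀(N)`.

`ℓ ∤ N` prime, `σ ∈ Γ₀(N)` with lower right entry `≡ ℓ`.  The twisted coset family
`s59t_F g x = tw_x · s29h_fam g x · tw_{x·g}⁻¹ ∈ Γ₀(N)` (`tw_∞ = σ`, `tw_j = 1`) has the same lower
right entry mod `N` as `g`; it computes `T_ℓ` on `Hom(Γ₀(N), A)` (`s29h_heckeHom`) AND, on `Γ_H`, it
is the coset family of helper3's `s48h_TpDatum`.  Consequences: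
* `s59t_res_hecke` : restriction `Hom(Γ₀(N), A) → Hom(Γ_H, A)` commutes with `T_ℓ`;
* `s59t_ext` : **[EXT]** a diamond-invariant `χ : Γ_H → A` has `T_ℓ χ - (ℓ+1) χ = ψ|_{Γ_H}` for a
  homomorphism `ψ : Γ₀(N) → A`;
* `s59t_ext_Hpar` : if all parabolic and all finite-order elements of `Γ₀(N)` lie in `Γ_H`, then
  `ψ ∈ H(Γ₀(N), A)` whenever `χ ∈ H(Γ_H, A)`.
-/
import Mathlib
import Fermat.Agent.Lib.S48.HHomH
import Fermat.Agent.Lib.S41.DHecke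
import Fermat.Agent.Lib.S59.TExtAbs

set_option autoImplicit false
set_option linter.unusedSectionVars false

noncomputable section

namespace Fermat.Agent.Lib.S59

open Matrix.SpecialLinearGroup CongruenceSubgroup ModularCurve.Period
open Fermat.Agent.Lib.ES Fermat.Agent.Lib.S29 Fermat.Agent.Lib.S48 Fermat.Agent.Lib.S41
open P2MW.S_ModularForm_heckeT_slash_eq_self_of_mem_Gamma0.ModularForm.HeckeSlashInvariance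
open scoped MatrixGroups OnePoint BigOperators

local notation "Mat2" => Matrix (Fin 2) (Fin 2) ℤ

variable {N : ℕ} {ℓ : ℕ} [Fact ℓ.Prime]

/-- the twist as an element of `Γ₀(N)`. -/
def s59t_tw {σ : SL(2, ℤ)} (hσ : σ ∈ Gamma0 N) (x : OnePoint (ZMod ℓ)) : Gamma0 N :=
  ⟨s48h_tw ℓ σ x, s48h_tw_mem hσ x⟩

/-- **the twisted coset family** of `T_ℓ` on `Γ₀(N)`. -/
def s59t_F (hℓN : ¬ ℓ ∣ N) {σ : SL(2, ℤ)} (hσ : σ ∈ Gamma0 N) (g : Gamma0 N)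
    (x : OnePoint (ZMod ℓ)) : Gamma0 N :=
  s59t_tw hσ x * s29h_fam hℓN g x * (s59t_tw hσ (heckePermT ℓ (g : SL(2, ℤ)) x))⁻¹

/-- the cocycle rule. -/
theorem s59t_F_mul (hℓN : ¬ ℓ ∣ N) {σ : SL(2, ℤ)} (hσ : σ ∈ Gamma0 N) (g g' : Gamma0 N)
    (x : OnePoint (ZMod ℓ)) :
    s59t_F hℓN hσ (g * g') x =
      s59t_F hℓN hσ g x * s59t_F hℓN hσ g' (heckePermT ℓ (g : SL(2, ℤ)) x) := by
  unfold s59t_F
  rw [s29h_fam_mul, MulMemClass.coe_mul, s29h_permT_mul]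
  group

/-- the defining matrix identity. -/
theorem s59t_F_spec (hℓN : ¬ ℓ ∣ N) {σ : SL(2, ℤ)} (hσ : σ ∈ Gamma0 N) (g : Gamma0 N)
    (x : OnePoint (ZMod ℓ)) :
    ((s48h_tw ℓ σ x : SL(2, ℤ)) : Mat2) * heckeRepZ ℓ x * ((g : SL(2, ℤ)) : Mat2) =
      (((s59t_F hℓN hσ g x : Gamma0 N) : SL(2, ℤ)) : Mat2) *
        (((s48h_tw ℓ σ (heckePermT ℓ (g : SL(2, ℤ)) x) : SL(2, ℤ)) : Mat2) *
          heckeRepZ ℓ (heckePermT ℓ (g : SL(2, ℤ)) x)) := by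
  rw [Matrix.mul_assoc, s29h_fam_spec hℓN g x]
  exact s48h_coe_twist _ _ _ _

/-- the lower right entry is preserved. -/
theorem s59t_F_lowerRight (hℓN : ¬ ℓ ∣ N) {σ : SL(2, ℤ)} (hσ : σ ∈ Gamma0 N)
    (hσ11 : ((σ 1 1 : ℤ) : ZMod N) = (ℓ : ZMod N)) (g : Gamma0 N) (x : OnePoint (ZMod ℓ)) :
    ((((s59t_F hℓN hσ g x : Gamma0 N) : SL(2, ℤ)) 1 1 : ℤ) : ZMod N) =
      ((((g : SL(2, ℤ))) 1 1 : ℤ) : ZMod N) := by
  obtain ⟨g', hg', hlr, hmul⟩ := s48h_heckeRepZ_mul hℓN (g : SL(2, ℤ)) g.2 x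
  have hfam : g' = ((s29h_fam hℓN g x : Gamma0 N) : SL(2, ℤ)) := s29h_fam_unique hℓN g x g' hmul
  set y := heckePermT ℓ (g : SL(2, ℤ)) x with hy
  have hmem0 : s48h_tw ℓ σ x * g' ∈ Gamma0 N := mul_mem (s48h_tw_mem hσ x) hg'
  have hinv := s48h_lowerRight_inv_mul (s48h_tw_mem (N := N) (p := ℓ) hσ y)
  rw [s48h_tw_lowerRight hσ11] at hinv
  have e : ((s59t_F hℓN hσ g x : Gamma0 N) : SL(2, ℤ)) =
      s48h_tw ℓ σ x * g' * (s48h_tw ℓ σ y)⁻¹ := by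
    rw [hfam]; rfl
  rw [e, s48h_lowerRight_mul hmem0, s48h_lowerRight_mul (s48h_tw_mem hσ x),
    s48h_tw_lowerRight hσ11, mul_comm (s48h_sfac ℓ x : ZMod N), hlr, mul_assoc, mul_comm _
    ((((s48h_tw ℓ σ y)⁻¹) 1 1 : ℤ) : ZMod N), hinv, mul_one]

variable {H : Subgroup (ZMod N)ˣ}

/-- `g⁻¹ · F g x ∈ Γ_H` (even `∈ Γ₁`-coset of `1`). -/
theorem s59t_inv_mul_F_mem (hℓN : ¬ ℓ ∣ N) {σ : SL(2, ℤ)} (hσ : σ ∈ Gamma0 N)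
    (hσ11 : ((σ 1 1 : ℤ) : ZMod N) = (ℓ : ZMod N)) (g : Gamma0 N) (x : OnePoint (ZMod ℓ)) :
    ((g : SL(2, ℤ)))⁻¹ * ((s59t_F hℓN hσ g x : Gamma0 N) : SL(2, ℤ)) ∈ s48h_GammaH N H := by
  refine s48h_mem_GammaH_of_one (mul_mem (inv_mem g.2) (s59t_F hℓN hσ g x).2) ?_
  rw [s48h_lowerRight_mul (inv_mem g.2), s59t_F_lowerRight hℓN hσ hσ11]
  exact s48h_lowerRight_inv_mul g.2

/-- for `g ∈ Γ_H` the family stays in `Γ_H`. -/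
theorem s59t_F_mem (hℓN : ¬ ℓ ∣ N) {σ : SL(2, ℤ)} (hσ : σ ∈ Gamma0 N)
    (hσ11 : ((σ 1 1 : ℤ) : ZMod N) = (ℓ : ZMod N)) (g : s48h_GammaH N H)
    (x : OnePoint (ZMod ℓ)) :
    ((s59t_F hℓN hσ ⟨(g : SL(2, ℤ)), g.2.1⟩ x : Gamma0 N) : SL(2, ℤ)) ∈ s48h_GammaH N H :=
  s48h_mem_GammaH_of_eq g.2 (s59t_F hℓN hσ _ x).2 (s59t_F_lowerRight hℓN hσ hσ11 _ x)

/-- on `Γ_H` the twisted family is the coset family of `s48h_TpDatum`. -/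
theorem s59t_F_eq_fam (hℓN : ¬ ℓ ∣ N) {σ : SL(2, ℤ)} (hσ : σ ∈ Gamma0 N)
    (hσ11 : ((σ 1 1 : ℤ) : ZMod N) = (ℓ : ZMod N)) (g : s48h_GammaH N H)
    (x : OnePoint (ZMod ℓ)) :
    (⟨_, s59t_F_mem hℓN hσ hσ11 g x⟩ : s48h_GammaH N H) =
      (s48h_TpDatum H hℓN σ hσ hσ11).fam g x :=
  (s48h_TpDatum H hℓN σ hσ hσ11).fam_unique g x _ (s59t_F_spec hℓN hσ ⟨(g : SL(2, ℤ)), g.2.1⟩ x)

variable {A : Type*} [AddCommGroup A]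

/-- `T_ℓ` on `Hom(Γ₀(N), A)` through the twisted family. -/
theorem s59t_heckeHom_apply_F (hℓN : ¬ ℓ ∣ N) {σ : SL(2, ℤ)} (hσ : σ ∈ Gamma0 N)
    (ψ : Additive (Gamma0 N) →+ A) (g : Gamma0 N) :
    s29h_heckeHom N ℓ A ψ (Additive.ofMul g) =
      ∑ x, ψ (Additive.ofMul (s59t_F hℓN hσ g x)) := by
  rw [s29h_heckeHom_apply hℓN]
  have h1 : ∀ x, ψ (Additive.ofMul (s59t_F hℓN hσ g x)) =
      ψ (Additive.ofMul (s59t_tw hσ x)) + ψ (Additive.ofMul (s29h_fam hℓN g x)) -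
        ψ (Additive.ofMul (s59t_tw hσ (heckePermT ℓ (g : SL(2, ℤ)) x))) := by
    intro x
    unfold s59t_F
    rw [ofMul_mul, ofMul_mul, map_add, map_add, ofMul_inv, map_neg]
    abel
  rw [Finset.sum_congr rfl fun x _ => h1 x, Finset.sum_sub_distrib, Finset.sum_add_distrib,
    Equiv.sum_comp (heckePermT ℓ (g : SL(2, ℤ))) (fun y => ψ (Additive.ofMul (s59t_tw hσ y)))]
  abel

/-- restriction `Hom(Γ₀(N), A) → Hom(Γ_H, A)`. -/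
def s59t_res (N : ℕ) (H : Subgroup (ZMod N)ˣ) (A : Type*) [AddCommGroup A] :
    (Additive (Gamma0 N) →+ A) →+ (Additive (s48h_GammaH N H) →+ A) where
  toFun ψ := ψ.comp (MonoidHom.toAdditive (Subgroup.inclusion s48h_GammaH_le_Gamma0))
  map_zero' := rfl
  map_add' _ _ := rfl

theorem s59t_res_apply (ψ : Additive (Gamma0 N) →+ A) (g : s48h_GammaH N H) :
    s59t_res N H A ψ (Additive.ofMul g) = ψ (Additive.ofMul ⟨(g : SL(2, ℤ)), g.2.1⟩) := rfl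

/-- **restriction commutes with `T_ℓ`.** -/
theorem s59t_res_hecke (hℓN : ¬ ℓ ∣ N) {σ : SL(2, ℤ)} (hσ : σ ∈ Gamma0 N)
    (hσ11 : ((σ 1 1 : ℤ) : ZMod N) = (ℓ : ZMod N)) (ψ : Additive (Gamma0 N) →+ A) :
    s59t_res N H A (s29h_heckeHom N ℓ A ψ) = s48h_TpH H hℓN σ hσ hσ11 A (s59t_res N H A ψ) := by
  refine AddMonoidHom.ext fun a => ?_
  obtain ⟨g, rfl⟩ := Additive.ofMul.surjective a
  rw [s59t_res_apply, s59t_heckeHom_apply_F hℓN hσ, s48h_TpH, s48h_MatDatum.heckeHom_apply]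
  refine Finset.sum_congr rfl fun x _ => ?_
  rw [← s59t_F_eq_fam hℓN hσ hσ11 g x, s59t_res_apply]

/-- **[EXT]** -/
theorem s59t_ext (hℓN : ¬ ℓ ∣ N) {σ : SL(2, ℤ)} (hσ : σ ∈ Gamma0 N)
    (hσ11 : ((σ 1 1 : ℤ) : ZMod N) = (ℓ : ZMod N)) (χ : Additive (s48h_GammaH N H) →+ A)
    (hχ : ∀ (τ : SL(2, ℤ)) (hτ : τ ∈ Gamma0 N), s48h_diamondH H τ hτ A χ = χ) :
    ∃ ψ : Additive (Gamma0 N) →+ A,
      s59t_res N H A ψ = s48h_TpH H hℓN σ hσ hσ11 A χ - (ℓ + 1) • χ := by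
  obtain ⟨ψ, hψ⟩ := s59t_ext_abs (G := s48h_GammaH N H) (G₀ := Gamma0 N)
    (fun g => heckePermT ℓ (g : SL(2, ℤ))) (s59t_F hℓN hσ) (s59t_F_mul hℓN hσ)
    (s59t_inv_mul_F_mem hℓN hσ hσ11) χ (by
      intro g h hc
      have h1 := DFunLike.congr_fun (hχ ((g : SL(2, ℤ)))⁻¹ (inv_mem g.2)) (Additive.ofMul h)
      rw [s48h_diamondH_apply] at h1
      rw [← h1]
      congr 2
      apply Subtype.ext
      show _ = ((g : SL(2, ℤ)))⁻¹ * (h : SL(2, ℤ)) * (((g : SL(2, ℤ)))⁻¹)⁻¹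
      rw [inv_inv])
  refine ⟨ψ, AddMonoidHom.ext fun a => ?_⟩
  obtain ⟨g, rfl⟩ := Additive.ofMul.surjective a
  rw [s59t_res_apply, hψ, AddMonoidHom.sub_apply, AddMonoidHom.smul_apply, s48h_TpH,
    s48h_MatDatum.heckeHom_apply]
  have h1 : ∀ x, χ (Additive.ofMul ⟨_, s59t_inv_mul_F_mem (H := H) hℓN hσ hσ11
      ⟨(g : SL(2, ℤ)), g.2.1⟩ x⟩) =
      χ (Additive.ofMul ((s48h_TpDatum H hℓN σ hσ hσ11).fam g x)) - χ (Additive.ofMul g) := by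
    intro x
    have e : (⟨_, s59t_inv_mul_F_mem (H := H) hℓN hσ hσ11 ⟨(g : SL(2, ℤ)), g.2.1⟩ x⟩ :
        s48h_GammaH N H) = g⁻¹ * ⟨_, s59t_F_mem hℓN hσ hσ11 g x⟩ := Subtype.ext rfl
    rw [e, ofMul_mul, map_add, ofMul_inv, map_neg, s59t_F_eq_fam hℓN hσ hσ11 g x]
    abel
  rw [Finset.sum_congr rfl fun x _ => h1 x, Finset.sum_sub_distrib, Finset.sum_const,
    Finset.card_univ, s41d_card_onePoint]

/-- the hypothesis (PF): all parabolic and all finite-order elements of `Γ₀(N)` lie in `Γ_H`. -/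
def s59t_PF (N : ℕ) (H : Subgroup (ZMod N)ˣ) : Prop :=
  ∀ γ : Gamma0 N, (((γ : SL(2, ℤ)) : Mat2).trace ^ 2 = 4 ∨ IsOfFinOrder γ) →
    (γ : SL(2, ℤ)) ∈ s48h_GammaH N H

/-- a homomorphism on `Γ₀(N)` whose restriction to `Γ_H` lies in `H(Γ_H, A)` lies in
`H(Γ₀(N), A)`, under (PF). -/
theorem s59t_mem_Hpar_of_res (hPF : s59t_PF N H) {R : Type*} [Semiring R] [Module R A]
    (ψ : Additive (Gamma0 N) →+ A) (h : s59t_res N H A ψ ∈ s48h_Hpar R (s48h_GammaH N H) A) :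
    ψ ∈ s29h_Hpar R N A := by
  rw [s48h_mem_Hpar_iff] at h
  refine s29h_mem_Hpar_iff.mpr ⟨fun γ hγ => ?_, fun γ hγ => ?_⟩
  · have hm := hPF γ (Or.inl hγ)
    exact h.1 ⟨(γ : SL(2, ℤ)), hm⟩ hγ
  · have hm := hPF γ (Or.inr hγ)
    refine h.2 ⟨(γ : SL(2, ℤ)), hm⟩ ?_
    obtain ⟨n, hn, hγn⟩ := hγ.exists_pow_eq_one
    refine isOfFinOrder_iff_pow_eq_one.mpr ⟨n, hn, ?_⟩
    apply Subtype.ext
    have := congrArg (fun g : Gamma0 N => (g : SL(2, ℤ))) hγn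
    simpa using this

/-- **[EXT]** in `H`: under (PF), a diamond-invariant class `χ ∈ H(Γ_H, A)` has
`T_ℓ χ - (ℓ+1) χ = res ψ` with `ψ ∈ H(Γ₀(N), A)`. -/
theorem s59t_ext_Hpar (hPF : s59t_PF N H) (hℓN : ¬ ℓ ∣ N) {σ : SL(2, ℤ)} (hσ : σ ∈ Gamma0 N)
    (hσ11 : ((σ 1 1 : ℤ) : ZMod N) = (ℓ : ZMod N)) {R : Type*} [Ring R] [Module R A]
    (χ : Additive (s48h_GammaH N H) →+ A) (hχH : χ ∈ s48h_Hpar R (s48h_GammaH N H) A)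
    (hχ : ∀ (τ : SL(2, ℤ)) (hτ : τ ∈ Gamma0 N), s48h_diamondH H τ hτ A χ = χ) :
    ∃ ψ ∈ s29h_Hpar R N A,
      s59t_res N H A ψ = s48h_TpH H hℓN σ hσ hσ11 A χ - (ℓ + 1) • χ := by
  obtain ⟨ψ, hψ⟩ := s59t_ext hℓN hσ hσ11 χ hχ
  refine ⟨ψ, s59t_mem_Hpar_of_res (R := R) hPF ψ ?_, hψ⟩
  rw [hψ]
  refine Submodule.sub_mem _ ((s48h_TpDatum H hℓN σ hσ hσ11).heckeHom_mem_Hpar (R := R) hχH) ?_
  exact (s48h_Hpar R (s48h_GammaH N H) A).toAddSubmonoid.nsmul_mem hχH _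

end Fermat.Agent.Lib.S59
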