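/-
Programme (R) = S59, node (H2) (helper8), file 8: abstract coset-sum operators between two
subgroups `K, L` of a group: for a finite set `Y` with bijections `act k` and a family
`f : K → Y → L` with the cocycle rule `f (k k') y = f k y · f k' (act k y)`,
`(s59t_sumHom act f hf χ)(k) = ∑_y χ (f k y)` is a homomorphism `K → A` for `χ : L → A`.
Mathlib only.
-/
import Mathlib

set_option autoImplicit false

open scoped BigOperators

namespace Fermat.Agent.Lib.S59

section Sum

variable {𝔾 : Type*} [Group 𝔾] {K L : Subgroup 𝔾} {Y : Type*} [Fintype Y]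
  {A : Type*} [AddCommGroup A]

/-- the coset-sum operator `Hom(L, A) → Hom(K, A)`. -/
noncomputable def s59t_sumHom (act : K → Equiv.Perm Y) (f : K → Y → L)
    (hf : ∀ k k' y, f (k * k') y = f k y * f k' (act k y)) :
    (Additive L →+ A) →+ (Additive K →+ A) where
  toFun χ := AddMonoidHom.mk' (fun a => ∑ y, χ (Additive.ofMul (f (Additive.toMul a) y))) (by
    intro a a'
    obtain ⟨k, rfl⟩ := Additive.ofMul.surjective a
    obtain ⟨k', rfl⟩ := Additive.ofMul.surjective a'
    show ∑ y, χ (Additive.ofMul (f (k * k') y)) = _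
    simp only [toMul_ofMul]
    rw [← Equiv.sum_comp (act k) (fun y => χ (Additive.ofMul (f k' y))),
      ← Finset.sum_add_distrib]
    refine Finset.sum_congr rfl fun y _ => ?_
    rw [hf, ofMul_mul, map_add])
  map_zero' := by
    refine AddMonoidHom.ext fun a => ?_
    exact Finset.sum_eq_zero fun y _ => rfl
  map_add' χ χ' := by
    refine AddMonoidHom.ext fun a => ?_
    exact Finset.sum_add_distrib

theorem s59t_sumHom_apply (act : K → Equiv.Perm Y) (f : K → Y → L)
    (hf : ∀ k k' y, f (k * k') y = f k y * f k' (act k y)) (χ : Additive L →+ A) (k : K) :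
    s59t_sumHom act f hf χ (Additive.ofMul k) = ∑ y, χ (Additive.ofMul (f k y)) := rfl

/-- naturality in the coefficients. -/
theorem s59t_sumHom_comp (act : K → Equiv.Perm Y) (f : K → Y → L)
    (hf : ∀ k k' y, f (k * k') y = f k y * f k' (act k y)) {B : Type*} [AddCommGroup B]
    (φ : A →+ B) (χ : Additive L →+ A) :
    s59t_sumHom act f hf (φ.comp χ) = φ.comp (s59t_sumHom act f hf χ) := by
  refine AddMonoidHom.ext fun a => ?_
  obtain ⟨k, rfl⟩ := Additive.ofMul.surjective a
  rw [AddMonoidHom.comp_apply, s59t_sumHom_apply, s59t_sumHom_apply, map_sum]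
  rfl

end Sum

end Fermat.Agent.Lib.S59
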