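/-
Programme (R) = S59, node (H2) (helper8), file 9: **the transfer** `cor : Hom(G, A) → Hom(G₀, A)`
for subgroups `G ≤ G₀` of a group with `G` normal in `G₀`, `Δ = G₀ / G` finite, in the explicit
coset-family form `(cor χ)(g) = ∑_δ χ (r_δ g r_{δ·ḡ}⁻¹)` (`r_δ = δ.out`), and its formal properties:
* `s59t_cor_of_mem` : `(cor χ)(h) = ∑_δ χ (r_δ h r_δ⁻¹)` for `h ∈ G` (`res ∘ cor = N_Δ`);
* `s59t_cor_conj` : `cor (χ ∘ c_τ) = cor χ` for the conjugation `c_τ`, `τ ∈ G₀`;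
* `s59t_cor_comm` : `cor ∘ T = T₀ ∘ cor` for the operators of a coset family `F` on `G₀`
  with `g⁻¹ F g x ∈ G` (Hecke operators whose families preserve the class in `Δ`).
Mathlib only.
-/
import Mathlib
import Fermat.Agent.Lib.S59.TSum

set_option autoImplicit false
set_option linter.unusedSectionVars false

open scoped BigOperators

namespace Fermat.Agent.Lib.S59

section Trans

variable {𝔾 : Type*} [Group 𝔾] (G G₀ : Subgroup 𝔾) [hn : (G.subgroupOf G₀).Normal]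

/-- `Δ = G₀ / G`. -/
abbrev s59t_Quot : Type _ := G₀ ⧸ G.subgroupOf G₀

variable {G G₀}

theorem s59t_mem_iff_mk (g : G₀) :
    (g : 𝔾) ∈ G ↔ (QuotientGroup.mk g : s59t_Quot G G₀) = 1 := by
  rw [QuotientGroup.eq_one_iff, Subgroup.mem_subgroupOf]

/-- the representative of a class. -/
noncomputable def s59t_rep (δ : s59t_Quot G G₀) : G₀ := Quotient.out δ

theorem s59t_mk_rep (δ : s59t_Quot G G₀) : (QuotientGroup.mk (s59t_rep δ) : s59t_Quot G G₀) = δ :=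
  QuotientGroup.out_eq' δ

theorem s59t_fam_mem (g : G₀) (δ : s59t_Quot G G₀) :
    ((s59t_rep δ * g * (s59t_rep (δ * QuotientGroup.mk g))⁻¹ : G₀) : 𝔾) ∈ G := by
  rw [s59t_mem_iff_mk, QuotientGroup.mk_mul, QuotientGroup.mk_mul, QuotientGroup.mk_inv,
    s59t_mk_rep, s59t_mk_rep, mul_inv_cancel]

/-- the coset family of the transfer. -/
noncomputable def s59t_fam (g : G₀) (δ : s59t_Quot G G₀) : G :=
  ⟨((s59t_rep δ * g * (s59t_rep (δ * QuotientGroup.mk g))⁻¹ : G₀) : 𝔾), s59t_fam_mem g δ⟩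

theorem s59t_fam_coe (g : G₀) (δ : s59t_Quot G G₀) :
    ((s59t_fam g δ : G) : 𝔾) =
      (s59t_rep δ : 𝔾) * (g : 𝔾) * ((s59t_rep (δ * QuotientGroup.mk g) : G₀) : 𝔾)⁻¹ := rfl

theorem s59t_fam_mul (g g' : G₀) (δ : s59t_Quot G G₀) :
    s59t_fam (g * g') δ =
      s59t_fam g δ * s59t_fam g' (Equiv.mulRight (QuotientGroup.mk g : s59t_Quot G G₀) δ) := by
  apply Subtype.ext
  rw [Subgroup.coe_mul, s59t_fam_coe, s59t_fam_coe, s59t_fam_coe, Equiv.coe_mulRight,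
    QuotientGroup.mk_mul, mul_assoc δ]
  push_cast
  group

variable [Fintype (s59t_Quot G G₀)] {A : Type*} [AddCommGroup A]

/-- **the transfer.** -/
noncomputable def s59t_cor (G G₀ : Subgroup 𝔾) [(G.subgroupOf G₀).Normal]
    [Fintype (s59t_Quot G G₀)] (A : Type*) [AddCommGroup A] :
    (Additive G →+ A) →+ (Additive G₀ →+ A) :=
  s59t_sumHom (fun g : G₀ => Equiv.mulRight (QuotientGroup.mk g : s59t_Quot G G₀))
    (fun g δ => s59t_fam g δ) s59t_fam_mul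

theorem s59t_cor_apply (χ : Additive G →+ A) (g : G₀) :
    s59t_cor G G₀ A χ (Additive.ofMul g) = ∑ δ, χ (Additive.ofMul (s59t_fam g δ)) := rfl

theorem s59t_conj_mem (hle : G ≤ G₀) (τ : G₀) (h : G) :
    (τ : 𝔾) * (h : 𝔾) * (τ : 𝔾)⁻¹ ∈ G := by
  have h1 : (⟨(h : 𝔾), hle h.2⟩ : G₀) ∈ G.subgroupOf G₀ := Subgroup.mem_subgroupOf.mpr h.2
  exact Subgroup.mem_subgroupOf.mp (hn.conj_mem _ h1 τ)

/-- naturality of the transfer in the coefficients. -/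
theorem s59t_cor_comp {B : Type*} [AddCommGroup B] (f : A →+ B) (χ : Additive G →+ A) :
    s59t_cor G G₀ B (f.comp χ) = f.comp (s59t_cor G G₀ A χ) :=
  s59t_sumHom_comp (fun g : G₀ => Equiv.mulRight (QuotientGroup.mk g : s59t_Quot G G₀))
    (fun g δ => s59t_fam g δ) s59t_fam_mul f χ

/-- conjugation by `τ ∈ G₀` on `G`. -/
def s59t_conjHom (hle : G ≤ G₀) (τ : G₀) : G →* G where
  toFun h := ⟨(τ : 𝔾) * (h : 𝔾) * (τ : 𝔾)⁻¹, s59t_conj_mem hle τ h⟩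
  map_one' := by
    apply Subtype.ext
    show (τ : 𝔾) * ((1 : G) : 𝔾) * (τ : 𝔾)⁻¹ = 1
    rw [Subgroup.coe_one, mul_one, mul_inv_cancel]
  map_mul' h h' := by
    apply Subtype.ext
    show (τ : 𝔾) * ((h * h' : G) : 𝔾) * (τ : 𝔾)⁻¹ =
      ((τ : 𝔾) * (h : 𝔾) * (τ : 𝔾)⁻¹) * ((τ : 𝔾) * (h' : 𝔾) * (τ : 𝔾)⁻¹)
    rw [Subgroup.coe_mul]
    group

/-- the conjugation operator `χ ↦ χ ∘ c_τ` on `Hom(G, A)`. -/
def s59t_conjOp (hle : G ≤ G₀) (τ : G₀) (A : Type*) [AddCommGroup A] :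
    (Additive G →+ A) →+ (Additive G →+ A) where
  toFun χ := χ.comp (MonoidHom.toAdditive (s59t_conjHom hle τ))
  map_zero' := rfl
  map_add' _ _ := rfl

theorem s59t_conjOp_apply (hle : G ≤ G₀) (τ : G₀) (χ : Additive G →+ A) (h : G) :
    s59t_conjOp hle τ A χ (Additive.ofMul h) =
      χ (Additive.ofMul ⟨(τ : 𝔾) * (h : 𝔾) * (τ : 𝔾)⁻¹, s59t_conj_mem hle τ h⟩) := rfl

/-- **`res ∘ cor = N_Δ`**: on `G`, the transfer is the sum of the conjugates. -/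
theorem s59t_cor_of_mem (hle : G ≤ G₀) (χ : Additive G →+ A) (h : G) :
    s59t_cor G G₀ A χ (Additive.ofMul ⟨(h : 𝔾), hle h.2⟩) =
      ∑ δ : s59t_Quot G G₀, s59t_conjOp hle (s59t_rep δ) A χ (Additive.ofMul h) := by
  rw [s59t_cor_apply]
  refine Finset.sum_congr rfl fun δ _ => ?_
  rw [s59t_conjOp_apply]
  congr 2
  apply Subtype.ext
  have h1 : (QuotientGroup.mk (⟨(h : 𝔾), hle h.2⟩ : G₀) : s59t_Quot G G₀) = 1 :=
    (s59t_mem_iff_mk _).mp h.2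
  rw [s59t_fam_coe, h1, mul_one]

/-- **`cor ∘ c_τ = cor`.** -/
theorem s59t_cor_conj (hle : G ≤ G₀) (τ : G₀) (χ : Additive G →+ A) :
    s59t_cor G G₀ A (s59t_conjOp hle τ A χ) = s59t_cor G G₀ A χ := by
  refine AddMonoidHom.ext fun a => ?_
  obtain ⟨g, rfl⟩ := Additive.ofMul.surjective a
  rw [s59t_cor_apply, s59t_cor_apply]
  -- `τ r_δ = k_δ r_{τ̄ δ}`
  have hk : ∀ δ : s59t_Quot G G₀,
      ((τ * s59t_rep δ * (s59t_rep (QuotientGroup.mk τ * δ))⁻¹ : G₀) : 𝔾) ∈ G := by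
    intro δ
    rw [s59t_mem_iff_mk, QuotientGroup.mk_mul, QuotientGroup.mk_mul, QuotientGroup.mk_inv,
      s59t_mk_rep, s59t_mk_rep, mul_inv_cancel]
  let k : s59t_Quot G G₀ → G := fun δ => ⟨_, hk δ⟩
  have key : ∀ δ : s59t_Quot G G₀,
      s59t_conjOp hle τ A χ (Additive.ofMul (s59t_fam g δ)) =
        χ (Additive.ofMul (k δ)) +
          χ (Additive.ofMul (s59t_fam g (QuotientGroup.mk τ * δ))) -
            χ (Additive.ofMul (k (δ * QuotientGroup.mk g))) := by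
    intro δ
    have e : (⟨(τ : 𝔾) * ((s59t_fam g δ : G) : 𝔾) * (τ : 𝔾)⁻¹,
        s59t_conj_mem hle τ (s59t_fam g δ)⟩ : G) * k (δ * QuotientGroup.mk g) =
        k δ * s59t_fam g (QuotientGroup.mk τ * δ) := by
      apply Subtype.ext
      show (τ : 𝔾) * ((s59t_rep δ : 𝔾) * (g : 𝔾) *
          ((s59t_rep (δ * QuotientGroup.mk g) : G₀) : 𝔾)⁻¹) * (τ : 𝔾)⁻¹ *
          ((τ : 𝔾) * (s59t_rep (δ * QuotientGroup.mk g) : 𝔾) *
            ((s59t_rep (QuotientGroup.mk τ * (δ * QuotientGroup.mk g)) : G₀) : 𝔾)⁻¹) =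
        ((τ : 𝔾) * (s59t_rep δ : 𝔾) * ((s59t_rep (QuotientGroup.mk τ * δ) : G₀) : 𝔾)⁻¹) *
          ((s59t_rep (QuotientGroup.mk τ * δ) : 𝔾) * (g : 𝔾) *
            ((s59t_rep (QuotientGroup.mk τ * δ * QuotientGroup.mk g) : G₀) : 𝔾)⁻¹)
      rw [mul_assoc (QuotientGroup.mk τ : s59t_Quot G G₀) δ (QuotientGroup.mk g)]
      group
    have e' := congrArg (fun x : G => χ (Additive.ofMul x)) e
    simp only [ofMul_mul, map_add] at e'
    rw [s59t_conjOp_apply]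
    exact eq_sub_of_add_eq e'
  have e1 : ∑ δ : s59t_Quot G G₀, χ (Additive.ofMul (k (δ * QuotientGroup.mk g))) =
      ∑ δ, χ (Additive.ofMul (k δ)) :=
    Equiv.sum_comp (Equiv.mulRight (QuotientGroup.mk g : s59t_Quot G G₀))
      (fun δ => χ (Additive.ofMul (k δ)))
  have e2 : ∑ δ : s59t_Quot G G₀, χ (Additive.ofMul (s59t_fam g (QuotientGroup.mk τ * δ))) =
      ∑ δ, χ (Additive.ofMul (s59t_fam g δ)) :=
    Equiv.sum_comp (Equiv.mulLeft (QuotientGroup.mk τ : s59t_Quot G G₀))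
      (fun δ => χ (Additive.ofMul (s59t_fam g δ)))
  rw [Finset.sum_congr rfl fun δ _ => key δ, Finset.sum_sub_distrib, Finset.sum_add_distrib,
    e1, e2]
  abel

/-! ### Commutation of the transfer with class-preserving coset families -/

section Comm

variable {X : Type*} [Fintype X]

/-- for `h ∈ G` the family stays in `G`. -/
theorem s59t_F_mem_of_mem (hle : G ≤ G₀) (F : G₀ → X → G₀)
    (hFG : ∀ (g : G₀) x, ((g : 𝔾))⁻¹ * (F g x : 𝔾) ∈ G) (h : G) (x : X) :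
    ((F ⟨(h : 𝔾), hle h.2⟩ x : G₀) : 𝔾) ∈ G := by
  have := G.mul_mem h.2 (hFG ⟨(h : 𝔾), hle h.2⟩ x)
  rwa [mul_inv_cancel_left] at this

/-- the restricted family on `G`. -/
def s59t_FG (hle : G ≤ G₀) (F : G₀ → X → G₀)
    (hFG : ∀ (g : G₀) x, ((g : 𝔾))⁻¹ * (F g x : 𝔾) ∈ G) (h : G) (x : X) : G :=
  ⟨((F ⟨(h : 𝔾), hle h.2⟩ x : G₀) : 𝔾), s59t_F_mem_of_mem hle F hFG h x⟩

theorem s59t_FG_mul (hle : G ≤ G₀) (perm : G₀ → Equiv.Perm X) (F : G₀ → X → G₀)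
    (hF : ∀ g g' x, F (g * g') x = F g x * F g' (perm g x))
    (hFG : ∀ (g : G₀) x, ((g : 𝔾))⁻¹ * (F g x : 𝔾) ∈ G) (h h' : G) (x : X) :
    s59t_FG hle F hFG (h * h') x =
      s59t_FG hle F hFG h x * s59t_FG hle F hFG h' (perm ⟨(h : 𝔾), hle h.2⟩ x) := by
  apply Subtype.ext
  have := congrArg (fun y : G₀ => (y : 𝔾)) (hF ⟨(h : 𝔾), hle h.2⟩ ⟨(h' : 𝔾), hle h'.2⟩ x)
  exact this

/-- the class of `F g x` is the class of `g`. -/
theorem s59t_mk_F (F : G₀ → X → G₀)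
    (hFG : ∀ (g : G₀) x, ((g : 𝔾))⁻¹ * (F g x : 𝔾) ∈ G) (g : G₀) (x : X) :
    (QuotientGroup.mk (F g x) : s59t_Quot G G₀) = QuotientGroup.mk g := by
  have h1 : (((g⁻¹ * F g x : G₀)) : 𝔾) ∈ G := hFG g x
  rw [s59t_mem_iff_mk, QuotientGroup.mk_mul, QuotientGroup.mk_inv, inv_mul_eq_one] at h1
  exact h1.symm

/-- **`cor ∘ T = T₀ ∘ cor`.** -/
theorem s59t_cor_comm (hle : G ≤ G₀) (perm : G₀ → Equiv.Perm X) (F : G₀ → X → G₀)
    (hF : ∀ g g' x, F (g * g') x = F g x * F g' (perm g x))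
    (hFG : ∀ (g : G₀) x, ((g : 𝔾))⁻¹ * (F g x : 𝔾) ∈ G) (χ : Additive G →+ A) :
    s59t_cor G G₀ A (s59t_sumHom (fun h : G => perm ⟨(h : 𝔾), hle h.2⟩) (s59t_FG hle F hFG)
        (s59t_FG_mul hle perm F hF hFG) χ) =
      s59t_sumHom perm F hF (s59t_cor G G₀ A χ) := by
  refine AddMonoidHom.ext fun a => ?_
  obtain ⟨g, rfl⟩ := Additive.ofMul.surjective a
  rw [s59t_cor_apply, s59t_sumHom_apply]
  simp only [s59t_sumHom_apply, s59t_cor_apply]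
  -- `a(x, δ) = F_x(r_δ) r_δ⁻¹ ∈ G`
  have ha : ∀ (x : X) (δ : s59t_Quot G G₀),
      ((F (s59t_rep δ) x : G₀) : 𝔾) * ((s59t_rep δ : G₀) : 𝔾)⁻¹ ∈ G := by
    intro x δ
    have h1 := s59t_conj_mem hle (s59t_rep δ) ⟨_, hFG (s59t_rep δ) x⟩
    have e : ((s59t_rep δ : G₀) : 𝔾) * (((s59t_rep δ : G₀) : 𝔾)⁻¹ * ((F (s59t_rep δ) x : G₀) : 𝔾)) *
        ((s59t_rep δ : G₀) : 𝔾)⁻¹ = ((F (s59t_rep δ) x : G₀) : 𝔾) * ((s59t_rep δ : G₀) : 𝔾)⁻¹ := by
      group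
    exact e ▸ h1
  let aa : X → s59t_Quot G G₀ → G := fun x δ => ⟨_, ha x δ⟩
  have key : ∀ (δ : s59t_Quot G G₀) (x : X),
      χ (Additive.ofMul (s59t_FG hle F hFG (s59t_fam g δ) x)) =
        χ (Additive.ofMul (aa x δ)) +
          χ (Additive.ofMul (s59t_fam (F g (perm (s59t_rep δ) x)) δ)) -
            χ (Additive.ofMul (aa (perm ⟨((s59t_fam g δ : G) : 𝔾), hle (s59t_fam g δ).2⟩ x)
              (δ * QuotientGroup.mk g))) := by
    intro δ x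
    have hmk := s59t_mk_F (G := G) F hFG g (perm (s59t_rep δ) x)
    -- `r_δ g = f_δ(g) r_{δ ḡ}` in `G₀`
    have e0 : s59t_rep δ * g = (⟨((s59t_fam g δ : G) : 𝔾), hle (s59t_fam g δ).2⟩ : G₀) *
        s59t_rep (δ * QuotientGroup.mk g) := by
      apply Subtype.ext
      show ((s59t_rep δ : G₀) : 𝔾) * (g : 𝔾) = ((s59t_fam g δ : G) : 𝔾) *
        ((s59t_rep (δ * QuotientGroup.mk g) : G₀) : 𝔾)
      rw [s59t_fam_coe, inv_mul_cancel_right]
    have e1 : F (s59t_rep δ) x * F g (perm (s59t_rep δ) x) =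
        F ⟨((s59t_fam g δ : G) : 𝔾), hle (s59t_fam g δ).2⟩ x *
          F (s59t_rep (δ * QuotientGroup.mk g))
            (perm ⟨((s59t_fam g δ : G) : 𝔾), hle (s59t_fam g δ).2⟩ x) := by
      rw [← hF, ← hF, e0]
    have e : s59t_FG hle F hFG (s59t_fam g δ) x *
        aa (perm ⟨((s59t_fam g δ : G) : 𝔾), hle (s59t_fam g δ).2⟩ x) (δ * QuotientGroup.mk g) =
        aa x δ * s59t_fam (F g (perm (s59t_rep δ) x)) δ := by
      apply Subtype.ext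
      have e1' := congrArg (fun y : G₀ => (y : 𝔾)) e1
      simp only [Subgroup.coe_mul] at e1'
      show ((F ⟨((s59t_fam g δ : G) : 𝔾), hle (s59t_fam g δ).2⟩ x : G₀) : 𝔾) *
          (((F (s59t_rep (δ * QuotientGroup.mk g))
            (perm ⟨((s59t_fam g δ : G) : 𝔾), hle (s59t_fam g δ).2⟩ x) : G₀) : 𝔾) *
            ((s59t_rep (δ * QuotientGroup.mk g) : G₀) : 𝔾)⁻¹) =
        (((F (s59t_rep δ) x : G₀) : 𝔾) * ((s59t_rep δ : G₀) : 𝔾)⁻¹) *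
          (((s59t_rep δ : G₀) : 𝔾) * ((F g (perm (s59t_rep δ) x) : G₀) : 𝔾) *
            ((s59t_rep (δ * QuotientGroup.mk (F g (perm (s59t_rep δ) x))) : G₀) : 𝔾)⁻¹)
      rw [hmk, ← mul_assoc, ← e1']
      group
    have e' := congrArg (fun y : G => χ (Additive.ofMul y)) e
    simp only [ofMul_mul, map_add] at e'
    exact eq_sub_of_add_eq e'
  rw [Finset.sum_congr rfl fun δ _ => Finset.sum_congr rfl fun x _ => key δ x]
  simp only [Finset.sum_sub_distrib, Finset.sum_add_distrib]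
  have s1 : ∑ δ : s59t_Quot G G₀, ∑ x : X,
      χ (Additive.ofMul (aa (perm ⟨((s59t_fam g δ : G) : 𝔾), hle (s59t_fam g δ).2⟩ x)
        (δ * QuotientGroup.mk g))) = ∑ δ : s59t_Quot G G₀, ∑ x : X, χ (Additive.ofMul (aa x δ)) := by
    rw [← Equiv.sum_comp (Equiv.mulRight (QuotientGroup.mk g : s59t_Quot G G₀))
      (fun δ => ∑ x : X, χ (Additive.ofMul (aa x δ)))]
    refine Finset.sum_congr rfl fun δ _ => ?_
    exact Equiv.sum_comp (perm ⟨((s59t_fam g δ : G) : 𝔾), hle (s59t_fam g δ).2⟩)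
      (fun x => χ (Additive.ofMul (aa x (δ * QuotientGroup.mk g))))
  have s2 : ∑ δ : s59t_Quot G G₀, ∑ x : X,
      χ (Additive.ofMul (s59t_fam (F g (perm (s59t_rep δ) x)) δ)) =
      ∑ x : X, ∑ δ : s59t_Quot G G₀, χ (Additive.ofMul (s59t_fam (F g x) δ)) := by
    conv_rhs => rw [Finset.sum_comm]
    refine Finset.sum_congr rfl fun δ _ => ?_
    exact Equiv.sum_comp (perm (s59t_rep δ)) (fun x => χ (Additive.ofMul (s59t_fam (F g x) δ)))
  rw [s1, s2]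
  abel

end Comm

end Trans

end Fermat.Agent.Lib.S59
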