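/-
Programme (R) = S59, node (H2) (helper8), file 10: the transfer `cor : Hom(Γ_H, A) → Hom(Γ₀(N), A)`
(instance of `TTrans.lean` for `G = s48h_GammaH N H ≤ G₀ = Gamma0 N`), with
* `s59t_corH_res` : `res ∘ cor = ∑_δ ⟨r_δ⟩` (helper3's diamond operators);
* `s59t_corH_diamond` : `cor ∘ ⟨τ⟩ = cor`;
* `s59t_corH_hecke` : `cor ∘ T_ℓ^{Γ_H} = T_ℓ^{Γ₀(N)} ∘ cor` (`s48h_TpH` resp. `s29h_heckeHom`);
* `s59t_corH_mem_Hpar` : `cor` maps `H(Γ_H, A)` into `H(Γ₀(N), A)` under (PF).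
-/
import Mathlib
import Fermat.Agent.Lib.S59.TExt
import Fermat.Agent.Lib.S59.TTrans

set_option autoImplicit false
set_option linter.unusedSectionVars false

noncomputable section

namespace Fermat.Agent.Lib.S59

open Matrix.SpecialLinearGroup CongruenceSubgroup ModularCurve.Period
open Fermat.Agent.Lib.ES Fermat.Agent.Lib.S29 Fermat.Agent.Lib.S48 Fermat.Agent.Lib.S41
open P2MW.S_ModularForm_heckeT_slash_eq_self_of_mem_Gamma0.ModularForm.HeckeSlashInvariance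
open scoped MatrixGroups OnePoint BigOperators

local notation "Mat2" => Matrix (Fin 2) (Fin 2) ℤ

variable {N : ℕ} {H : Subgroup (ZMod N)ˣ}

instance s59t_normal (N : ℕ) (H : Subgroup (ZMod N)ˣ) :
    ((s48h_GammaH N H).subgroupOf (Gamma0 N)).Normal :=
  ⟨fun _ hn g => Subgroup.mem_subgroupOf.mpr
    (s48h_conj_mem_GammaH g.2 (Subgroup.mem_subgroupOf.mp hn))⟩

instance s59t_finiteIndexH (N : ℕ) [NeZero N] (H : Subgroup (ZMod N)ˣ) :
    (s48h_GammaH N H).FiniteIndex :=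
  Subgroup.finiteIndex_of_le (s48h_Gamma1_le_GammaH (N := N) (H := H))

instance s59t_fintypeQuot (N : ℕ) [NeZero N] (H : Subgroup (ZMod N)ˣ) :
    Fintype (s59t_Quot (s48h_GammaH N H) (Gamma0 N)) :=
  Subgroup.fintypeQuotientOfFiniteIndex

/-- the group `Δ = Γ₀(N)/Γ_H`. -/
abbrev s59t_Delta (N : ℕ) (H : Subgroup (ZMod N)ˣ) : Type :=
  s59t_Quot (s48h_GammaH N H) (Gamma0 N)

variable [NeZero N] {A : Type*} [AddCommGroup A]

/-- **the transfer** `Hom(Γ_H, A) → Hom(Γ₀(N), A)`. -/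
def s59t_corH (N : ℕ) [NeZero N] (H : Subgroup (ZMod N)ˣ) (A : Type*) [AddCommGroup A] :
    (Additive (s48h_GammaH N H) →+ A) →+ (Additive (Gamma0 N) →+ A) :=
  s59t_cor (s48h_GammaH N H) (Gamma0 N) A

/-- the abstract conjugation operator is helper3's diamond operator. -/
theorem s59t_conjOp_eq_diamond (τ : Gamma0 N) (χ : Additive (s48h_GammaH N H) →+ A) :
    s59t_conjOp (s48h_GammaH_le_Gamma0 (N := N) (H := H)) τ A χ =
      s48h_diamondH H (τ : SL(2, ℤ)) τ.2 A χ := by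
  refine AddMonoidHom.ext fun a => ?_
  obtain ⟨h, rfl⟩ := Additive.ofMul.surjective a
  rw [s59t_conjOp_apply, s48h_diamondH_apply]

/-- **`res ∘ cor = ∑_δ ⟨r_δ⟩`.** -/
theorem s59t_corH_res (χ : Additive (s48h_GammaH N H) →+ A) :
    s59t_res N H A (s59t_corH N H A χ) =
      ∑ δ : s59t_Delta N H, s48h_diamondH H ((s59t_rep δ : Gamma0 N) : SL(2, ℤ))
        (s59t_rep δ).2 A χ := by
  refine AddMonoidHom.ext fun a => ?_
  obtain ⟨h, rfl⟩ := Additive.ofMul.surjective a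
  rw [s59t_res_apply, AddMonoidHom.finsetSum_apply]
  have := s59t_cor_of_mem (s48h_GammaH_le_Gamma0 (N := N) (H := H)) χ h
  rw [s59t_corH, this]
  refine Finset.sum_congr rfl fun δ _ => ?_
  rw [s59t_conjOp_eq_diamond]

/-- **`cor ∘ ⟨τ⟩ = cor`.** -/
theorem s59t_corH_diamond {τ : SL(2, ℤ)} (hτ : τ ∈ Gamma0 N)
    (χ : Additive (s48h_GammaH N H) →+ A) :
    s59t_corH N H A (s48h_diamondH H τ hτ A χ) = s59t_corH N H A χ := by
  have := s59t_cor_conj (s48h_GammaH_le_Gamma0 (N := N) (H := H)) ⟨τ, hτ⟩ χ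
  rw [s59t_conjOp_eq_diamond] at this
  exact this

variable {ℓ : ℕ} [Fact ℓ.Prime]

/-- **`cor ∘ T_ℓ = T_ℓ ∘ cor`.** -/
theorem s59t_corH_hecke (hℓN : ¬ ℓ ∣ N) {σ : SL(2, ℤ)} (hσ : σ ∈ Gamma0 N)
    (hσ11 : ((σ 1 1 : ℤ) : ZMod N) = (ℓ : ZMod N)) (χ : Additive (s48h_GammaH N H) →+ A) :
    s59t_corH N H A (s48h_TpH H hℓN σ hσ hσ11 A χ) =
      s29h_heckeHom N ℓ A (s59t_corH N H A χ) := by
  have key := s59t_cor_comm (G := s48h_GammaH N H) (G₀ := Gamma0 N)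
    (s48h_GammaH_le_Gamma0 (N := N) (H := H))
    (fun g => heckePermT ℓ (g : SL(2, ℤ))) (s59t_F hℓN hσ) (s59t_F_mul hℓN hσ)
    (s59t_inv_mul_F_mem hℓN hσ hσ11) χ
  have e1 : s59t_sumHom (fun h : s48h_GammaH N H => heckePermT ℓ
      ((⟨(h : SL(2, ℤ)), s48h_GammaH_le_Gamma0 h.2⟩ : Gamma0 N) : SL(2, ℤ)))
      (s59t_FG s48h_GammaH_le_Gamma0 (s59t_F hℓN hσ) (s59t_inv_mul_F_mem hℓN hσ hσ11))
      (s59t_FG_mul s48h_GammaH_le_Gamma0 (fun g => heckePermT ℓ (g : SL(2, ℤ)))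
        (s59t_F hℓN hσ) (s59t_F_mul hℓN hσ) (s59t_inv_mul_F_mem hℓN hσ hσ11)) χ =
      s48h_TpH H hℓN σ hσ hσ11 A χ := by
    refine AddMonoidHom.ext fun a => ?_
    obtain ⟨h, rfl⟩ := Additive.ofMul.surjective a
    rw [s59t_sumHom_apply, s48h_TpH, s48h_MatDatum.heckeHom_apply]
    refine Finset.sum_congr rfl fun x _ => ?_
    rw [← s59t_F_eq_fam hℓN hσ hσ11 h x]
    rfl
  have e2 : s59t_sumHom (fun g : Gamma0 N => heckePermT ℓ (g : SL(2, ℤ))) (s59t_F hℓN hσ)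
      (s59t_F_mul hℓN hσ) (s59t_cor (s48h_GammaH N H) (Gamma0 N) A χ) =
      s29h_heckeHom N ℓ A (s59t_corH N H A χ) := by
    refine AddMonoidHom.ext fun a => ?_
    obtain ⟨g, rfl⟩ := Additive.ofMul.surjective a
    rw [s59t_sumHom_apply, s59t_heckeHom_apply_F hℓN hσ]
    rfl
  rw [← e1, ← e2]
  exact key

/-- `cor` maps `H(Γ_H, A)` into `H(Γ₀(N), A)` under (PF). -/
theorem s59t_corH_mem_Hpar (hPF : s59t_PF N H) {R : Type*} [Ring R] [Module R A]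
    {χ : Additive (s48h_GammaH N H) →+ A} (hχ : χ ∈ s48h_Hpar R (s48h_GammaH N H) A) :
    s59t_corH N H A χ ∈ s29h_Hpar R N A := by
  refine s59t_mem_Hpar_of_res (R := R) hPF _ ?_
  rw [s59t_corH_res]
  refine Submodule.sum_mem _ fun δ _ => ?_
  exact (s48h_diamondDatum H _ (s59t_rep δ).2).heckeHom_mem_Hpar (R := R) hχ

end Fermat.Agent.Lib.S59
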