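/-
Programme (R) = S59, node (H2) (helper8), file 11: **adjointness of `res` and `cor`** for the
Poincaré pairings of `Γ_H ≤ Γ₀(N)`:
  `B_{Γ_H}(res φ, ψ) = B_{Γ₀(N)}(φ, cor ψ)`
over `ℤ` (`s59t_adj_int`, from helper4's T-form `s41c_sum_triP_cor`) and over `𝔽_p`, `p` odd
(`s59t_adj_zmod`, through the lifts `s41b_lift`, `s59t_lift`).
-/
import Mathlib
import Fermat.Agent.Lib.S41.GTheta
import Fermat.Agent.Lib.S59.TCor
import Fermat.Agent.Lib.S59.TLift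
import Fermat.Agent.Lib.S48.HDS

set_option autoImplicit false
set_option linter.unusedSectionVars false
set_option linter.style.haveILetI false

noncomputable section

namespace Fermat.Agent.Lib.S59

open Matrix MatrixGroups OnePoint ModularCurve.Period CongruenceSubgroup
open Fermat.Agent.Lib.S29 Fermat.Agent.Lib.S48 Fermat.Agent.Lib.S41
open scoped BigOperators

variable {N : ℕ} [NeZero N] {H : Subgroup (ZMod N)ˣ}

instance s59t_fintypeSLH (N : ℕ) [NeZero N] (H : Subgroup (ZMod N)ˣ) :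
    Fintype (SL(2, ℤ) ⧸ s48h_GammaH N H) := Subgroup.fintypeQuotientOfFiniteIndex

/-- the representatives of `Γ_H \ Γ₀(N)` in `SL(2, ℤ)`. -/
def s59t_g (N : ℕ) [NeZero N] (H : Subgroup (ZMod N)ˣ) (δ : s59t_Delta N H) : SL(2, ℤ) :=
  ((s59t_rep δ : Gamma0 N) : SL(2, ℤ))

theorem s59t_g_mem (δ : s59t_Delta N H) : s59t_g N H δ ∈ Gamma0 N := (s59t_rep δ).2

theorem s59t_g_inj (i j : s59t_Delta N H)
    (h : s59t_g N H j * (s59t_g N H i)⁻¹ ∈ s48h_GammaH N H) : i = j := by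
  have h1 : (((s59t_rep j * (s59t_rep i)⁻¹ : Gamma0 N)) : SL(2, ℤ)) ∈ s48h_GammaH N H := h
  rw [s59t_mem_iff_mk, QuotientGroup.mk_mul, QuotientGroup.mk_inv, s59t_mk_rep, s59t_mk_rep,
    mul_inv_eq_one] at h1
  exact h1.symm

theorem s59t_g_cov (γ : SL(2, ℤ)) (hγ : γ ∈ Gamma0 N) :
    ∃ i : s59t_Delta N H, γ * (s59t_g N H i)⁻¹ ∈ s48h_GammaH N H := by
  refine ⟨QuotientGroup.mk (⟨γ, hγ⟩ : Gamma0 N), ?_⟩
  have h1 : ((((⟨γ, hγ⟩ : Gamma0 N) *
      (s59t_rep (QuotientGroup.mk (⟨γ, hγ⟩ : Gamma0 N) : s59t_Delta N H))⁻¹ : Gamma0 N)) :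
        SL(2, ℤ)) ∈ s48h_GammaH N H := by
    rw [s59t_mem_iff_mk, QuotientGroup.mk_mul, QuotientGroup.mk_inv, s59t_mk_rep,
      mul_inv_cancel]
  exact h1

theorem s59t_g_spec (γ : Gamma0 N) (δ : s59t_Delta N H) :
    s59t_g N H δ * (γ : SL(2, ℤ)) =
      ((s59t_fam γ δ : s48h_GammaH N H) : SL(2, ℤ)) *
        s59t_g N H (δ * QuotientGroup.mk γ) := by
  rw [s59t_fam_coe]
  unfold s59t_g
  rw [inv_mul_cancel_right]

/-- **adjointness over `ℤ`.** -/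
theorem s59t_adj_int (hneg : (-1 : SL(2, ℤ)) ∈ s48h_GammaH N H) (hPF : s59t_PF N H)
    (φ : Additive (Gamma0 N) →+ ℤ) (hφ : φ ∈ s29s_M N)
    (ψ : Additive (s48h_GammaH N H) →+ ℤ) (hψ : ψ ∈ s48h_M (s48h_GammaH N H)) :
    s41c_pairing (s48h_GammaH N H) (s59t_res N H ℤ φ) ψ =
      s41c_pairing (Gamma0 N) φ (s59t_corH N H ℤ ψ) := by
  haveI : Fintype (SL(2, ℤ) ⧸ Gamma0 N) := Fintype.ofFinite _
  have hneg0 := s41g_neg_one_mem N
  have h2 : ∀ r : ℤ, 2 * r = 0 → r = 0 := fun r hr => by omega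
  have hle : s48h_GammaH N H ≤ Gamma0 N := s48h_GammaH_le_Gamma0
  have hP := s41c_potential_spec (Γ := Gamma0 N) hφ.1
  have hQ := s41c_potential_spec (Γ := s48h_GammaH N H) hψ.1
  have hcorQ : s41c_IsPotential (Gamma0 N) (s59t_corH N H ℤ ψ)
      (s41c_corPot (s59t_g N H) (s41c_potential (s48h_GammaH N H) ψ)) :=
    s41c_corPot_isPotential (s59t_g N H)
      (fun (γ : Gamma0 N) (δ : s59t_Delta N H) => δ * QuotientGroup.mk γ)
      (fun γ => (Equiv.mulRight (QuotientGroup.mk γ : s59t_Delta N H)).bijective)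
      (fun γ δ => s59t_fam γ δ) (fun γ δ => s59t_g_spec γ δ) hQ _
      (fun γ => s59t_cor_apply ψ γ)
  have hP' : s41c_IsPotential (s48h_GammaH N H) (s59t_res N H ℤ φ)
      (s41c_potential (Gamma0 N) φ) := s41c_isPotential_of_le hle hP
  have hres : s59t_res N H ℤ φ ∈ s48h_Hpar ℤ (s48h_GammaH N H) ℤ := by
    refine ⟨fun γ hγ => hφ.1 ⟨(γ : SL(2, ℤ)), hle γ.2⟩ hγ, fun γ hγ => hφ.2 _ ?_⟩
    obtain ⟨n, hn, hγn⟩ := hγ.exists_pow_eq_one
    refine isOfFinOrder_iff_pow_eq_one.mpr ⟨n, hn, ?_⟩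
    apply Subtype.ext
    have := congrArg (fun g : s48h_GammaH N H => (g : SL(2, ℤ))) hγn
    simpa using this
  have hcor : s59t_corH N H ℤ ψ ∈ s29h_Hpar ℤ N ℤ := s59t_corH_mem_Hpar hPF hψ
  have e1 := s41k_sum_triP hneg0 hP hcorQ
  have e2 := s41k_sum_triP hneg hP' hQ
  have e3 := s41c_sum_triP_cor hle (s59t_g N H) (fun i => s59t_g_mem i)
    (fun i j h => s59t_g_inj i j h) (fun γ hγ => s59t_g_cov γ hγ) hP hQ
  rw [s41k_pairing_eq hneg h2 hP' hQ hres.1 hψ.1 hres.2 hψ.2,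
    s41k_pairing_eq hneg0 h2 hP hcorQ hφ.1 hcor.1 hφ.2 hcor.2]
  rw [e1, e2] at e3
  omega

/-- naturality of `res`. -/
theorem s59t_res_comp {A B : Type*} [AddCommGroup A] [AddCommGroup B] (f : A →+ B)
    (φ : Additive (Gamma0 N) →+ A) : s59t_res N H B (f.comp φ) = f.comp (s59t_res N H A φ) := rfl

/-- naturality of `cor`. -/
theorem s59t_corH_comp {A B : Type*} [AddCommGroup A] [AddCommGroup B] (f : A →+ B)
    (ψ : Additive (s48h_GammaH N H) →+ A) :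
    s59t_corH N H B (f.comp ψ) = f.comp (s59t_corH N H A ψ) :=
  s59t_cor_comp f ψ

variable (p : ℕ) [Fact p.Prime]

/-- **adjointness over `𝔽_p`**, `p` odd. -/
theorem s59t_adj_zmod (hp2 : p ≠ 2) (hneg : (-1 : SL(2, ℤ)) ∈ s48h_GammaH N H)
    (hPF : s59t_PF N H)
    (x : Additive (Gamma0 N) →+ ZMod p) (hx : x ∈ s29h_Hp N p)
    (y : Additive (s48h_GammaH N H) →+ ZMod p)
    (hy : y ∈ s48h_Hpar (ZMod p) (s48h_GammaH N H) (ZMod p)) :
    s41c_pairing (s48h_GammaH N H) (s59t_res N H (ZMod p) x) y =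
      s41c_pairing (Gamma0 N) x (s59t_corH N H (ZMod p) y) := by
  classical
  haveI : Fintype (SL(2, ℤ) ⧸ Gamma0 N) := Fintype.ofFinite _
  have h2reg := s41g_two_regular p hp2
  obtain ⟨χ, hχ, rfl⟩ := s41b_lift (Module.Free.chooseBasis ℤ (s29s_M N)) p x hx
  obtain ⟨η, hη, rfl⟩ := s59t_lift (Module.Free.chooseBasis ℤ (s48h_M (s48h_GammaH N H))) p
    hneg y hy
  have hle : s48h_GammaH N H ≤ Gamma0 N := s48h_GammaH_le_Gamma0
  have hres : s59t_res N H ℤ χ ∈ s48h_Hpar ℤ (s48h_GammaH N H) ℤ := by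
    refine ⟨fun γ hγ => hχ.1 ⟨(γ : SL(2, ℤ)), hle γ.2⟩ hγ, fun γ hγ => hχ.2 _ ?_⟩
    obtain ⟨n, hn, hγn⟩ := hγ.exists_pow_eq_one
    refine isOfFinOrder_iff_pow_eq_one.mpr ⟨n, hn, ?_⟩
    apply Subtype.ext
    have := congrArg (fun g : s48h_GammaH N H => (g : SL(2, ℤ))) hγn
    simpa using this
  have hcor : s59t_corH N H ℤ η ∈ s29h_Hpar ℤ N ℤ := s59t_corH_mem_Hpar hPF hη
  have e1 : s59t_res N H (ZMod p) (s29s_cast (ZMod p) χ) =
      s41k_bc (Int.castRingHom (ZMod p)) (s59t_res N H ℤ χ) := rfl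
  have e2 : s48h_cast (ZMod p) η = s41k_bc (Int.castRingHom (ZMod p)) η := rfl
  have e3 : s59t_corH N H (ZMod p) (s48h_cast (ZMod p) η) =
      s41k_bc (Int.castRingHom (ZMod p)) (s59t_corH N H ℤ η) :=
    s59t_corH_comp (Int.castAddHom (ZMod p)) η
  have e4 : s29s_cast (ZMod p) χ = s41k_bc (Int.castRingHom (ZMod p)) χ := rfl
  rw [e1, e3, e2, e4,
    s41k_pairing_bc (Int.castRingHom (ZMod p)) hneg h2reg (φ := s59t_res N H ℤ χ) (ψ := η)
      hres hη,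
    s41k_pairing_bc (Int.castRingHom (ZMod p)) (s41g_neg_one_mem N) h2reg (φ := χ)
      (ψ := s59t_corH N H ℤ η) hχ hcor,
    s59t_adj_int hneg hPF χ hχ η hη]

end Fermat.Agent.Lib.S59
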