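/-
Programme (R) = S59, node (H2) (helper8), file 12: **[COR-𝔽_p]** — the cokernel of the transfer
`cor : H(Γ_H, 𝔽_p) → H(Γ₀(N), 𝔽_p)` is killed by `T_ℓ² - (ℓ+1)²` (`ℓ ∤ N`, `p` odd).

Dual of "`ker res` is Eisenstein" (`s41d_hecke_eisenstein`) under the Poincaré pairings
(nondegenerate: `s41b_nondeg`, `s59t_nondeg`), with `res`/`cor` adjoint (`s59t_adj_zmod`) and
`T_ℓ` self-adjoint up to a sign (`s41g_adjT`), by the abstract duality `s41g_sub_smul_mem_range`.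
-/
import Mathlib
import Fermat.Agent.Lib.S59.TAdj

set_option autoImplicit false
set_option linter.unusedSectionVars false
set_option linter.style.haveILetI false

noncomputable section

namespace Fermat.Agent.Lib.S59

open Matrix MatrixGroups OnePoint ModularCurve.Period CongruenceSubgroup
open Fermat.Agent.Lib.S29 Fermat.Agent.Lib.S48 Fermat.Agent.Lib.S41
open scoped BigOperators

/-! ### The pairing as a bilinear form on `H(Γ, 𝔽_p)` for a general `Γ` -/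

section Form

variable (Γ : Subgroup SL(2, ℤ)) [Fintype (SL(2, ℤ) ⧸ Γ)] (p : ℕ) [hp : Fact p.Prime]
  (hp2 : p ≠ 2) (hΓ : (-1 : SL(2, ℤ)) ∈ Γ)

local notation "HΓ" => s48h_Hpar (ZMod p) Γ (ZMod p)

include hp2 hΓ in
theorem s59t_pairing_add_left {φ φ' ψ : Additive Γ →+ ZMod p} (hφ : φ ∈ HΓ)
    (hφ' : φ' ∈ HΓ) (hψ : ψ ∈ HΓ) :
    s41c_pairing Γ (φ + φ') ψ = s41c_pairing Γ φ ψ + s41c_pairing Γ φ' ψ := by
  have hsum : φ + φ' ∈ HΓ := (s48h_Hpar (ZMod p) Γ (ZMod p)).add_mem hφ hφ'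
  rw [s41k_pairing_eq hΓ (s41g_two_regular p hp2)
    (s41k_IsPotential_add (s41c_potential_spec hφ.1) (s41c_potential_spec hφ'.1))
    (s41c_potential_spec hψ.1) hsum.1 hψ.1 hsum.2 hψ.2, s41k_pairP_add_left]
  rfl

include hp2 hΓ in
theorem s59t_pairing_smul_left (r : ZMod p) {φ ψ : Additive Γ →+ ZMod p}
    (hφ : φ ∈ HΓ) (hψ : ψ ∈ HΓ) :
    s41c_pairing Γ (r • φ) ψ = r * s41c_pairing Γ φ ψ := by
  have hsm : r • φ ∈ HΓ := (s48h_Hpar (ZMod p) Γ (ZMod p)).smul_mem r hφ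
  rw [s41k_pairing_eq hΓ (s41g_two_regular p hp2)
    (s41k_IsPotential_smul r (s41c_potential_spec hφ.1))
    (s41c_potential_spec hψ.1) hsm.1 hψ.1 hsm.2 hψ.2, s41k_pairP_smul_left]
  rfl

include hp2 hΓ in
theorem s59t_pairing_add_right {φ ψ ψ' : Additive Γ →+ ZMod p} (hφ : φ ∈ HΓ)
    (hψ : ψ ∈ HΓ) (hψ' : ψ' ∈ HΓ) :
    s41c_pairing Γ φ (ψ + ψ') = s41c_pairing Γ φ ψ + s41c_pairing Γ φ ψ' := by
  rw [s41g_skew (ψ + ψ') φ, s59t_pairing_add_left Γ p hp2 hΓ hψ hψ' hφ, s41g_skew ψ φ,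
    s41g_skew ψ' φ]
  ring

include hp2 hΓ in
theorem s59t_pairing_smul_right (r : ZMod p) {φ ψ : Additive Γ →+ ZMod p}
    (hφ : φ ∈ HΓ) (hψ : ψ ∈ HΓ) :
    s41c_pairing Γ φ (r • ψ) = r * s41c_pairing Γ φ ψ := by
  rw [s41g_skew (r • ψ) φ, s59t_pairing_smul_left Γ p hp2 hΓ r hψ hφ, s41g_skew ψ φ]
  ring

/-- **`B_Γ`**: the pairing as a bilinear form on `H(Γ, 𝔽_p)`. -/
def s59t_B : HΓ →ₗ[ZMod p] HΓ →ₗ[ZMod p] ZMod p :=
  LinearMap.mk₂ (ZMod p)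
    (fun x y => s41c_pairing Γ (x : Additive Γ →+ ZMod p) (y : Additive Γ →+ ZMod p))
    (fun x x' y => s59t_pairing_add_left Γ p hp2 hΓ x.2 x'.2 y.2)
    (fun r x y => by
      rw [smul_eq_mul]
      exact s59t_pairing_smul_left Γ p hp2 hΓ r x.2 y.2)
    (fun x y y' => s59t_pairing_add_right Γ p hp2 hΓ x.2 y.2 y'.2)
    (fun r x y => by
      rw [smul_eq_mul]
      exact s59t_pairing_smul_right Γ p hp2 hΓ r x.2 y.2)

theorem s59t_B_apply (x y : HΓ) :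
    s59t_B Γ p hp2 hΓ x y = s41c_pairing Γ (x : Additive Γ →+ ZMod p)
      (y : Additive Γ →+ ZMod p) := rfl

theorem s59t_B_nondeg [Group.FG Γ] (x : HΓ) (h : ∀ y, s59t_B Γ p hp2 hΓ x y = 0) : x = 0 := by
  apply Subtype.ext
  exact s59t_nondeg p hΓ hp2 x.1 x.2 fun ψ hψ => h ⟨ψ, hψ⟩

end Form

/-! ### `res`, `cor`, `T_ℓ` as linear maps -/

section Lin

variable {N : ℕ} [NeZero N] {H : Subgroup (ZMod N)ˣ}

/-- `res` maps `H(Γ₀(N), A)` into `H(Γ_H, A)`. -/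
theorem s59t_res_mem_Hpar {A : Type*} [AddCommGroup A] {R : Type*} [Ring R] [Module R A]
    {φ : Additive (Gamma0 N) →+ A} (hφ : φ ∈ s29h_Hpar R N A) :
    s59t_res N H A φ ∈ s48h_Hpar R (s48h_GammaH N H) A := by
  have hle : s48h_GammaH N H ≤ Gamma0 N := s48h_GammaH_le_Gamma0
  refine ⟨fun γ hγ => hφ.1 ⟨(γ : SL(2, ℤ)), hle γ.2⟩ hγ, fun γ hγ => hφ.2 _ ?_⟩
  obtain ⟨n, hn, hγn⟩ := hγ.exists_pow_eq_one
  refine isOfFinOrder_iff_pow_eq_one.mpr ⟨n, hn, ?_⟩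
  apply Subtype.ext
  have := congrArg (fun g : s48h_GammaH N H => (g : SL(2, ℤ))) hγn
  simpa using this

variable (N H) (p : ℕ) [hp : Fact p.Prime]

/-- `res` as a linear map `H(Γ₀(N), 𝔽_p) → H(Γ_H, 𝔽_p)`. -/
def s59t_resL : s29h_Hp N p →ₗ[ZMod p] s48h_Hpar (ZMod p) (s48h_GammaH N H) (ZMod p) :=
  ((s59t_res N H (ZMod p)).toZModLinearMap p).restrict
    (fun _ hx => s59t_res_mem_Hpar (R := ZMod p) hx)

/-- `cor` as a linear map `H(Γ_H, 𝔽_p) → H(Γ₀(N), 𝔽_p)`. -/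
def s59t_corL (hPF : s59t_PF N H) :
    s48h_Hpar (ZMod p) (s48h_GammaH N H) (ZMod p) →ₗ[ZMod p] s29h_Hp N p :=
  ((s59t_corH N H (ZMod p)).toZModLinearMap p).restrict
    (fun _ hx => s59t_corH_mem_Hpar hPF (R := ZMod p) hx)

theorem s59t_resL_coe (x : s29h_Hp N p) :
    ((s59t_resL N H p x : s48h_Hpar (ZMod p) (s48h_GammaH N H) (ZMod p)) :
      Additive (s48h_GammaH N H) →+ ZMod p) =
      s59t_res N H (ZMod p) (x : Additive (Gamma0 N) →+ ZMod p) := rfl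

theorem s59t_corL_coe (hPF : s59t_PF N H)
    (y : s48h_Hpar (ZMod p) (s48h_GammaH N H) (ZMod p)) :
    ((s59t_corL N H p hPF y : s29h_Hp N p) : Additive (Gamma0 N) →+ ZMod p) =
      s59t_corH N H (ZMod p) (y : Additive (s48h_GammaH N H) →+ ZMod p) := rfl

end Lin

/-! ### [COR-𝔽_p] -/

section CorFp

variable (N : ℕ) [NeZero N] (H : Subgroup (ZMod N)ˣ) (p ℓ : ℕ) [hp : Fact p.Prime]
  [hℓ : Fact ℓ.Prime] (hℓN : ¬ ℓ ∣ N) (hp2 : p ≠ 2)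

include hp2 hℓN in
/-- **[COR-𝔽_p]**: for every class `φ ∈ H(Γ₀(N), 𝔽_p)`, `T_ℓ² φ - (ℓ+1)² φ` is a transfer from
`Γ_H`. -/
theorem s59t_cor_zmod (hneg : (-1 : SL(2, ℤ)) ∈ s48h_GammaH N H) (hPF : s59t_PF N H)
    (φ : Additive (Gamma0 N) →+ ZMod p) (hφ : φ ∈ s29h_Hp N p) :
    ∃ χ ∈ s48h_Hpar (ZMod p) (s48h_GammaH N H) (ZMod p),
      s59t_corH N H (ZMod p) χ =
        s29h_heckeHom N ℓ (ZMod p) (s29h_heckeHom N ℓ (ZMod p) φ) -
          (((ℓ : ZMod p) + 1) * ((ℓ : ZMod p) + 1)) • φ := by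
  classical
  haveI : NeZero (N * ℓ) := s41g_neZero_mul N ℓ
  haveI : Fintype (SL(2, ℤ) ⧸ Gamma0 N) := Fintype.ofFinite _
  have hLN : s41g_Lift N p := fun x hx =>
    s41b_lift (Module.Free.chooseBasis ℤ (s29s_M N)) p x hx
  have hLNl : s41g_Lift (N * ℓ) p := fun x hx =>
    s41b_lift (Module.Free.chooseBasis ℤ (s29s_M (N * ℓ))) p x hx
  haveI : FiniteDimensional (ZMod p) (s29h_Hp N p) :=
    (s41b_finrank_Hp (Module.Free.chooseBasis ℤ (s29s_M N)) p).1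
  haveI : FiniteDimensional (ZMod p) (s48h_Hpar (ZMod p) (s48h_GammaH N H) (ZMod p)) :=
    (s59t_finrank_zmod (Module.Free.chooseBasis ℤ (s48h_M (s48h_GammaH N H))) p hneg).1
  set cT : ZMod p := ((s41g_sign N ℓ hℓN : ℤ) : ZMod p) with hcT
  have hcT2 : cT * cT = 1 := s41g_sign_mul_self N ℓ hℓN (ZMod p)
  let B := s41g_B N p hp2
  let B' := s59t_B (s48h_GammaH N H) p hp2 hneg
  let f := s59t_corL N H p hPF
  let g := s59t_resL N H p
  let Tl : s29h_Hp N p →ₗ[ZMod p] s29h_Hp N p := s29h_heckeHpar N ℓ (ZMod p) (ZMod p)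
  let T : s29h_Hp N p →ₗ[ZMod p] s29h_Hp N p := Tl.comp Tl
  have hadj : ∀ z x, B (f z) x = B' z (g x) := by
    intro z x
    show s41c_pairing (Gamma0 N) (s59t_corH N H (ZMod p) z.1) x.1 =
      s41c_pairing (s48h_GammaH N H) z.1 (s59t_res N H (ZMod p) x.1)
    rw [s41g_skew (s59t_res N H (ZMod p) x.1) z.1,
      s59t_adj_zmod p hp2 hneg hPF x.1 x.2 z.1 z.2,
      s41g_skew x.1 (s59t_corH N H (ZMod p) z.1)]
  have e : ∀ u v : s29h_Hp N p, B (Tl u) v = cT * B u (Tl v) := fun u v =>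
    s41g_adjT N ℓ hℓN p hp2 hLN hLNl u.1 u.2 v.1 v.2
  have hT : ∀ a x, B (T a) x = B a (T x) := by
    intro a x
    show B (Tl (Tl a)) x = B a (Tl (Tl x))
    rw [e, e]
    linear_combination (B a (Tl (Tl x))) * hcT2
  have hs : ∀ n, g n = 0 → T n = ((((ℓ : ZMod p) + 1) * ((ℓ : ZMod p) + 1)) : ZMod p) • n := by
    intro n hn
    have hn' : s59t_res N H (ZMod p) n.1 = 0 := congrArg Subtype.val hn
    have hE : s29h_heckeHom N ℓ (ZMod p) n.1 = (ℓ + 1) • n.1 := by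
      refine s41d_hecke_eisenstein hℓN n.1 fun γ hγ => ?_
      have hmem : (γ : SL(2, ℤ)) ∈ s48h_GammaH N H := s48h_mem_GammaH_of_one γ.2 hγ
      have := DFunLike.congr_fun hn' (Additive.ofMul (⟨(γ : SL(2, ℤ)), hmem⟩ : s48h_GammaH N H))
      rw [s59t_res_apply] at this
      exact this
    have hTl : Tl n = ((ℓ : ZMod p) + 1) • n := by
      apply Subtype.ext
      show s29h_heckeHom N ℓ (ZMod p) n.1 = ((ℓ : ZMod p) + 1) • n.1
      rw [hE]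
      refine AddMonoidHom.ext fun γ => ?_
      simp [add_mul]
    show Tl (Tl n) = _
    rw [hTl, _root_.map_smul, hTl, smul_smul]
  have hmem := s41g_sub_smul_mem_range (V := s29h_Hp N p)
    (V' := s48h_Hpar (ZMod p) (s48h_GammaH N H) (ZMod p)) B B' (s41g_B_nondeg N p hp2)
    (s59t_B_nondeg (s48h_GammaH N H) p hp2 hneg) f g hadj T T
    ((((ℓ : ZMod p) + 1) * ((ℓ : ZMod p) + 1)) : ZMod p) hT hs (⟨φ, hφ⟩ : s29h_Hp N p)
  obtain ⟨z, hz⟩ := hmem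
  refine ⟨z.1, z.2, ?_⟩
  exact congrArg (fun v : s29h_Hp N p => (v : Additive (Gamma0 N) →+ ZMod p)) hz

end CorFp

end Fermat.Agent.Lib.S59
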