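/-
Programme (R) = S59, node (H2) (helper8), file 13: **coefficient change** `𝔽_p → k → 𝒪`.

* `s59t_comp_mem_Hpar` : composition with an additive map of coefficients preserves `H(Γ, ·)`;
* `s59t_decomp` : `χ = ∑ i, f_i ∘ g_i ∘ χ` for an `𝔽_p`-basis of `k` (`g_i` the coordinates,
  `f_i a = a • c_i`);
* `s59t_lift_local` : **[LIFT-𝒪]** every class of `H(Γ, k)` is the reduction of a class of
  `H(Γ, 𝒪)` (`π : 𝒪 → k` a surjective ring homomorphism onto a finite field of characteristic `p`);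
* `s59t_saturated`, `s59t_mem_smul_top_iff` : for a DVR `𝒪`, `𝔪 · H(Γ, 𝒪)` is the kernel of the
  reduction `H(Γ, 𝒪) → H(Γ, k)`;
* `s59t_cor_field` : **[COR-k]** the cokernel of `cor : H(Γ_H, k) → H(Γ₀(N), k)` is killed by
  `T_ℓ² - (ℓ+1)²`.
-/
import Mathlib
import Fermat.Agent.Lib.S59.TPair

set_option autoImplicit false
set_option linter.unusedSectionVars false
set_option linter.style.haveILetI false

noncomputable section

namespace Fermat.Agent.Lib.S59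

open Matrix MatrixGroups OnePoint ModularCurve.Period CongruenceSubgroup
open Fermat.Agent.Lib.S29 Fermat.Agent.Lib.S48 Fermat.Agent.Lib.S41
open scoped BigOperators

section Comp

variable {Γ : Subgroup SL(2, ℤ)}

/-- composition with an additive map of coefficients preserves `H(Γ, ·)`. -/
theorem s59t_comp_mem_Hpar {A B : Type*} [AddCommGroup A] [AddCommGroup B] {R S : Type*}
    [Semiring R] [Module R A] [Semiring S] [Module S B] (f : A →+ B)
    {χ : Additive Γ →+ A} (hχ : χ ∈ s48h_Hpar R Γ A) : f.comp χ ∈ s48h_Hpar S Γ B := by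
  refine ⟨fun γ hγ => ?_, fun γ hγ => ?_⟩
  · rw [AddMonoidHom.comp_apply, hχ.1 γ hγ, map_zero]
  · rw [AddMonoidHom.comp_apply, hχ.2 γ hγ, map_zero]

end Comp

section Decomp

variable {p : ℕ} [Fact p.Prime] {k : Type*} [Field k] [Algebra (ZMod p) k] {ι : Type*}
  [Fintype ι] (c : Module.Basis ι (ZMod p) k)

/-- `a ↦ a • c_i`. -/
def s59t_fI (i : ι) : ZMod p →+ k :=
  (LinearMap.toSpanSingleton (ZMod p) k (c i)).toAddMonoidHom

/-- the `i`-th coordinate. -/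
def s59t_gI (i : ι) : k →+ ZMod p := (c.coord i).toAddMonoidHom

theorem s59t_fI_apply (i : ι) (a : ZMod p) : s59t_fI c i a = a • c i := rfl

theorem s59t_gI_apply (i : ι) (x : k) : s59t_gI c i x = c.repr x i := rfl

theorem s59t_decomp {G : Type*} [AddZeroClass G] (χ : G →+ k) :
    χ = ∑ i, (s59t_fI c i).comp ((s59t_gI c i).comp χ) := by
  refine AddMonoidHom.ext fun γ => ?_
  rw [AddMonoidHom.finsetSum_apply]
  simp only [AddMonoidHom.comp_apply, s59t_fI_apply, s59t_gI_apply]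
  exact (c.sum_repr (χ γ)).symm

end Decomp

/-! ### [LIFT-𝒪] -/

section LiftLocal

variable {𝒪 k : Type*} [CommRing 𝒪] [Field k] (π : 𝒪 →+* k) (hπ : Function.Surjective π)
  {Γ : Subgroup SL(2, ℤ)} [Fintype (SL(2, ℤ) ⧸ Γ)] [Group.FG Γ]

include hπ in
/-- **[LIFT-𝒪]**: every class of `H(Γ, k)` lifts to `H(Γ, 𝒪)`. -/
theorem s59t_lift_local (p : ℕ) [Fact p.Prime] [CharP k p] [Finite k] (hΓ : (-1 : SL(2, ℤ)) ∈ Γ) (x : Additive Γ →+ k)
    (hx : x ∈ s48h_Hpar k Γ k) :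
    ∃ χ ∈ s48h_Hpar 𝒪 Γ 𝒪, π.toAddMonoidHom.comp χ = x := by
  classical
  letI : Algebra (ZMod p) k := ZMod.algebra k p
  haveI : Module.Finite (ZMod p) k := Module.Finite.of_finite
  let c := Module.finBasis (ZMod p) k
  let b := Module.Free.chooseBasis ℤ (s48h_M Γ)
  have hxi : ∀ i, (s59t_gI c i).comp x ∈ s48h_Hpar (ZMod p) Γ (ZMod p) := fun i =>
    s59t_comp_mem_Hpar _ hx
  choose χ hχ hχx using fun i => s59t_lift b p hΓ _ (hxi i)
  choose ct hct using fun i => hπ (c i)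
  refine ⟨∑ i, ct i • s48h_cast 𝒪 (χ i), ?_, ?_⟩
  · exact Submodule.sum_mem _ fun i _ =>
      Submodule.smul_mem _ _ (s48h_cast_mem_Hpar 𝒪 𝒪 (hχ i))
  · refine AddMonoidHom.ext fun γ => ?_
    conv_rhs => rw [s59t_decomp c x]
    rw [AddMonoidHom.comp_apply, AddMonoidHom.finsetSum_apply, AddMonoidHom.finsetSum_apply]
    show π (∑ i, (ct i • s48h_cast 𝒪 (χ i)) γ) = _
    rw [map_sum]
    refine Finset.sum_congr rfl fun i _ => ?_
    rw [AddMonoidHom.smul_apply, s48h_cast_apply, smul_eq_mul, map_mul, hct, map_intCast,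
      AddMonoidHom.comp_apply, s59t_fI_apply, ← hχx i, s48h_cast_apply, Algebra.smul_def,
      map_intCast, mul_comm]

end LiftLocal

/-! ### Saturation -/

section Sat

variable {𝒪 : Type*} [CommRing 𝒪] [IsDomain 𝒪] {Γ : Subgroup SL(2, ℤ)}

/-- a class all of whose values are divisible by `ϖ ≠ 0` is `ϖ` times a class. -/
theorem s59t_saturated (ϖ : 𝒪) (hϖ : ϖ ≠ 0) (χ : Additive Γ →+ 𝒪)
    (hχ : χ ∈ s48h_Hpar 𝒪 Γ 𝒪) (h : ∀ γ, ϖ ∣ χ γ) :
    ∃ χ' ∈ s48h_Hpar 𝒪 Γ 𝒪, χ = ϖ • χ' := by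
  choose v hv using h
  let χ' : Additive Γ →+ 𝒪 :=
    { toFun := v
      map_zero' := by
        have := hv 0
        rw [map_zero] at this
        exact (mul_eq_zero.mp this.symm).resolve_left hϖ
      map_add' := fun γ δ => by
        apply mul_left_cancel₀ hϖ
        rw [mul_add, ← hv, ← hv, ← hv, map_add] }
  have hχ' : ∀ γ, χ γ = ϖ * χ' γ := hv
  refine ⟨χ', ⟨fun γ hγ => ?_, fun γ hγ => ?_⟩, ?_⟩
  · have := hχ' (Additive.ofMul γ)
    rw [hχ.1 γ hγ] at this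
    exact (mul_eq_zero.mp this.symm).resolve_left hϖ
  · have := hχ' (Additive.ofMul γ)
    rw [hχ.2 γ hγ] at this
    exact (mul_eq_zero.mp this.symm).resolve_left hϖ
  · refine AddMonoidHom.ext fun γ => ?_
    rw [AddMonoidHom.smul_apply, smul_eq_mul]
    exact hχ' γ

variable [IsLocalRing 𝒪]

open IsLocalRing in
/-- for a DVR (`𝔪 = (ϖ)`): `𝔪 · H(Γ, 𝒪)` is the kernel of the reduction. -/
theorem s59t_mem_smul_top_iff (ϖ : 𝒪) (hϖ : ϖ ≠ 0) (hm : maximalIdeal 𝒪 = Ideal.span {ϖ})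
    (y : s48h_Hpar 𝒪 Γ 𝒪) :
    y ∈ (maximalIdeal 𝒪 • ⊤ : Submodule 𝒪 (s48h_Hpar 𝒪 Γ 𝒪)) ↔
      (residue 𝒪).toAddMonoidHom.comp (y : Additive Γ →+ 𝒪) = 0 := by
  constructor
  · intro hy
    refine Submodule.smul_induction_on hy (fun r hr z _ => ?_) (fun z w hz hw => ?_)
    · refine AddMonoidHom.ext fun γ => ?_
      rw [AddMonoidHom.comp_apply, Submodule.coe_smul, AddMonoidHom.smul_apply, smul_eq_mul]
      show residue 𝒪 (r * _) = 0
      rw [map_mul, (residue_eq_zero_iff r).mpr hr, zero_mul]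
    · rw [Submodule.coe_add, AddMonoidHom.comp_add, hz, hw, add_zero]
  · intro h0
    have hdvd : ∀ γ, ϖ ∣ (y : Additive Γ →+ 𝒪) γ := by
      intro γ
      have h1 := DFunLike.congr_fun h0 γ
      rw [AddMonoidHom.comp_apply] at h1
      have h2 : (y : Additive Γ →+ 𝒪) γ ∈ maximalIdeal 𝒪 := (residue_eq_zero_iff _).mp h1
      rw [hm] at h2
      exact Ideal.mem_span_singleton.mp h2
    obtain ⟨χ', hχ', he⟩ := s59t_saturated ϖ hϖ y.1 y.2 hdvd
    have hy : y = ϖ • (⟨χ', hχ'⟩ : s48h_Hpar 𝒪 Γ 𝒪) := Subtype.ext he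
    rw [hy]
    refine Submodule.smul_mem_smul ?_ Submodule.mem_top
    rw [hm]
    exact Ideal.mem_span_singleton_self ϖ

end Sat

/-! ### [COR-k] -/

section CorField

variable (N : ℕ) [NeZero N] (H : Subgroup (ZMod N)ˣ) (p ℓ : ℕ) [hp : Fact p.Prime]
  [hℓ : Fact ℓ.Prime] (hℓN : ¬ ℓ ∣ N) (hp2 : p ≠ 2)
  {k : Type*} [Field k] [CharP k p] [Finite k]

include hp2 hℓN in
/-- **[COR-k]**: for every class `φ ∈ H(Γ₀(N), k)`, `T_ℓ² φ - (ℓ+1)² φ` is a transfer from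
`Γ_H`. -/
theorem s59t_cor_field (hneg : (-1 : SL(2, ℤ)) ∈ s48h_GammaH N H) (hPF : s59t_PF N H)
    (φ : Additive (Gamma0 N) →+ k) (hφ : φ ∈ s29h_Hpar k N k) :
    ∃ χ ∈ s48h_Hpar k (s48h_GammaH N H) k,
      s59t_corH N H k χ =
        s29h_heckeHom N ℓ k (s29h_heckeHom N ℓ k φ) - ((ℓ + 1) * (ℓ + 1)) • φ := by
  classical
  letI : Algebra (ZMod p) k := ZMod.algebra k p
  haveI : Module.Finite (ZMod p) k := Module.Finite.of_finite
  let c := Module.finBasis (ZMod p) k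
  have hφi : ∀ i, (s59t_gI c i).comp φ ∈ s29h_Hp N p := fun i =>
    s59t_comp_mem_Hpar (Γ := Gamma0 N) (R := k) (S := ZMod p) _ hφ
  choose χ hχ hχφ using fun i => s59t_cor_zmod N H p ℓ hℓN hp2 hneg hPF _ (hφi i)
  refine ⟨∑ i, (s59t_fI c i).comp (χ i), ?_, ?_⟩
  · exact Submodule.sum_mem _ fun i _ => s59t_comp_mem_Hpar (R := ZMod p) (S := k) _ (hχ i)
  · have hnat : ∀ (f : ZMod p →+ k) (ψ : Additive (Gamma0 N) →+ ZMod p),
        f.comp (s29h_heckeHom N ℓ (ZMod p) (s29h_heckeHom N ℓ (ZMod p) ψ) -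
          (((ℓ : ZMod p) + 1) * ((ℓ : ZMod p) + 1)) • ψ) =
        s29h_heckeHom N ℓ k (s29h_heckeHom N ℓ k (f.comp ψ)) -
          ((ℓ + 1) * (ℓ + 1)) • (f.comp ψ) := by
      intro f ψ
      rw [AddMonoidHom.comp_sub, ← s29h_heckeHom_comp, ← s29h_heckeHom_comp]
      congr 1
      refine AddMonoidHom.ext fun γ => ?_
      have e : (((ℓ : ZMod p) + 1) * ((ℓ : ZMod p) + 1)) = (((ℓ + 1) * (ℓ + 1) : ℕ) : ZMod p) := by
        push_cast; ring
      rw [AddMonoidHom.comp_apply, AddMonoidHom.smul_apply, e, Nat.cast_smul_eq_nsmul,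
        map_nsmul, AddMonoidHom.smul_apply, AddMonoidHom.comp_apply]
    conv_rhs => rw [s59t_decomp c φ]
    rw [map_sum, map_sum, map_sum, Finset.smul_sum, ← Finset.sum_sub_distrib]
    refine Finset.sum_congr rfl fun i _ => ?_
    rw [s59t_corH_comp, hχφ i, hnat]

end CorField

end Fermat.Agent.Lib.S59
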