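/-
Programme (R) = S59, node (H2) (helper8), file 15: **the diamond representation of
`Δ = Γ₀(N)/Γ_H`** on `H(Γ_H, A)`, `res`/`cor` as linear maps on `H`, the `p`-group property of `Δ`
and the hypothesis (PF) from arithmetic conditions on `H`.

* `s59t_rho R A : Δ →* End_R H(Γ_H, A)`, `ρ (τ mod Γ_H) = ⟨τ⁻¹⟩` (helper3's `s48h_diamondH` is an
  anti-homomorphism in `τ`);
* `s59t_resHpar`, `s59t_corHpar` : `res`, `cor` as `R`-linear maps between the `H`'s;
* `s59t_rho_norm` : `res ∘ cor = ∑_δ ρ δ`; `s59t_rho_cor` : `cor ∘ ρ δ = cor`;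
* `s59t_Delta_isPGroup` : `Δ` is a `p`-group if every unit has a `p`-power in `H`;
* `s59t_PF_of` : (PF) holds if `H` contains the units `u` with `(u ∓ 1)² = 0` and with `u¹² = 1`.
-/
import Mathlib
import Fermat.Agent.Lib.S59.TCoef
import Fermat.Agent.Lib.S48.HKEll

set_option autoImplicit false
set_option linter.unusedSectionVars false
set_option linter.style.haveILetI false

noncomputable section

namespace Fermat.Agent.Lib.S59

open Matrix MatrixGroups OnePoint ModularCurve.Period CongruenceSubgroup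
open Fermat.Agent.Lib.S29 Fermat.Agent.Lib.S48 Fermat.Agent.Lib.S41
open scoped BigOperators

local notation "Mat2" => Matrix (Fin 2) (Fin 2) ℤ

variable {N : ℕ} [NeZero N] {H : Subgroup (ZMod N)ˣ}

section Rho

theorem s59t_dia_congr {σ σ' : SL(2, ℤ)} (h : σ = σ') (hσ : σ ∈ Gamma0 N) (hσ' : σ' ∈ Gamma0 N)
    {A : Type*} [AddCommGroup A] (χ : Additive (s48h_GammaH N H) →+ A) :
    s48h_diamondH H σ hσ A χ = s48h_diamondH H σ' hσ' A χ := by
  subst h
  rfl

variable (N H) (R : Type*) [CommRing R] (A : Type*) [AddCommGroup A] [Module R A]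

/-- `τ ↦ ⟨τ⁻¹⟩`, a homomorphism `Γ₀(N) → End_R H(Γ_H, A)`. -/
def s59t_diaHom : Gamma0 N →* Module.End R (s48h_Hpar R (s48h_GammaH N H) A) where
  toFun τ := (s48h_diamondDatum H ((τ : SL(2, ℤ))⁻¹) (inv_mem τ.2)).heckeHpar R
  map_one' := by
    refine LinearMap.ext fun χ => Subtype.ext ?_
    rw [s48h_MatDatum.heckeHpar_coe]
    have h1 : (((1 : Gamma0 N) : SL(2, ℤ)))⁻¹ ∈ s48h_GammaH N H := by
      rw [Subgroup.coe_one, inv_one]
      exact one_mem _
    exact s48h_diamondH_of_mem h1 χ.1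
  map_mul' τ₁ τ₂ := by
    refine LinearMap.ext fun χ => Subtype.ext ?_
    rw [Module.End.mul_apply, s48h_MatDatum.heckeHpar_coe, s48h_MatDatum.heckeHpar_coe,
      s48h_MatDatum.heckeHpar_coe]
    have h := s48h_diamondH_mul (H := H) (inv_mem τ₂.2) (inv_mem τ₁.2) (χ : _ →+ A)
    refine Eq.trans ?_ h.symm
    exact s59t_dia_congr (by rw [Subgroup.coe_mul, _root_.mul_inv_rev]) _ _ _

theorem s59t_diaHom_coe (τ : Gamma0 N) (χ : s48h_Hpar R (s48h_GammaH N H) A) :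
    ((s59t_diaHom N H R A τ χ : s48h_Hpar R (s48h_GammaH N H) A) :
      Additive (s48h_GammaH N H) →+ A) =
      s48h_diamondH H ((τ : SL(2, ℤ))⁻¹) (inv_mem τ.2) A χ := rfl

/-- **the diamond representation** of `Δ = Γ₀(N)/Γ_H`. -/
def s59t_rho : s59t_Delta N H →* Module.End R (s48h_Hpar R (s48h_GammaH N H) A) :=
  QuotientGroup.lift ((s48h_GammaH N H).subgroupOf (Gamma0 N)) (s59t_diaHom N H R A) (by
    intro τ hτ
    rw [MonoidHom.mem_ker]
    refine LinearMap.ext fun χ => Subtype.ext ?_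
    rw [s59t_diaHom_coe]
    exact s48h_diamondH_of_mem (inv_mem (Subgroup.mem_subgroupOf.mp hτ)) χ.1)

theorem s59t_rho_mk (τ : Gamma0 N) (χ : s48h_Hpar R (s48h_GammaH N H) A) :
    ((s59t_rho N H R A (QuotientGroup.mk τ) χ : s48h_Hpar R (s48h_GammaH N H) A) :
      Additive (s48h_GammaH N H) →+ A) =
      s48h_diamondH H ((τ : SL(2, ℤ))⁻¹) (inv_mem τ.2) A χ := rfl

/-- `ρ(δ⁻¹) = ⟨r_δ⟩`. -/
theorem s59t_rho_inv (δ : s59t_Delta N H) (χ : s48h_Hpar R (s48h_GammaH N H) A) :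
    ((s59t_rho N H R A δ⁻¹ χ : s48h_Hpar R (s48h_GammaH N H) A) :
      Additive (s48h_GammaH N H) →+ A) =
      s48h_diamondH H ((s59t_rep δ : Gamma0 N) : SL(2, ℤ)) (s59t_rep δ).2 A χ := by
  have h1 : δ⁻¹ = (QuotientGroup.mk (s59t_rep δ)⁻¹ : s59t_Delta N H) := by
    rw [QuotientGroup.mk_inv, s59t_mk_rep]
  rw [h1, s59t_rho_mk]
  exact s59t_dia_congr (by rw [Subgroup.coe_inv, inv_inv]) _ _ _

/-- every diamond operator `⟨τ⟩` is a `ρ δ`. -/
theorem s59t_rho_mk_inv (τ : Gamma0 N) (χ : s48h_Hpar R (s48h_GammaH N H) A) :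
    ((s59t_rho N H R A (QuotientGroup.mk τ)⁻¹ χ : s48h_Hpar R (s48h_GammaH N H) A) :
      Additive (s48h_GammaH N H) →+ A) =
      s48h_diamondH H (τ : SL(2, ℤ)) τ.2 A χ := by
  rw [← QuotientGroup.mk_inv, s59t_rho_mk]
  exact s59t_dia_congr (by rw [Subgroup.coe_inv, inv_inv]) _ _ _

/-- `res` as an `R`-linear map `H(Γ₀(N), A) → H(Γ_H, A)`. -/
def s59t_resHpar : s29h_Hpar R N A →ₗ[R] s48h_Hpar R (s48h_GammaH N H) A where
  toFun ψ := ⟨s59t_res N H A ψ.1, s59t_res_mem_Hpar (R := R) ψ.2⟩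
  map_add' _ _ := rfl
  map_smul' _ _ := rfl

theorem s59t_corH_smul (c : R) (χ : Additive (s48h_GammaH N H) →+ A) :
    s59t_corH N H A (c • χ) = c • s59t_corH N H A χ :=
  s59t_corH_comp (DistribSMul.toAddMonoidHom A c) χ

/-- `cor` as an `R`-linear map `H(Γ_H, A) → H(Γ₀(N), A)`, under (PF). -/
def s59t_corHpar (hPF : s59t_PF N H) :
    s48h_Hpar R (s48h_GammaH N H) A →ₗ[R] s29h_Hpar R N A where
  toFun χ := ⟨s59t_corH N H A χ.1, s59t_corH_mem_Hpar hPF (R := R) χ.2⟩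
  map_add' χ χ' := Subtype.ext (map_add (s59t_corH N H A) χ.1 χ'.1)
  map_smul' c χ := Subtype.ext (s59t_corH_smul N H R A c χ.1)

theorem s59t_resHpar_coe (ψ : s29h_Hpar R N A) :
    ((s59t_resHpar N H R A ψ : s48h_Hpar R (s48h_GammaH N H) A) :
      Additive (s48h_GammaH N H) →+ A) = s59t_res N H A ψ := rfl

theorem s59t_corHpar_coe (hPF : s59t_PF N H) (χ : s48h_Hpar R (s48h_GammaH N H) A) :
    ((s59t_corHpar N H R A hPF χ : s29h_Hpar R N A) : Additive (Gamma0 N) →+ A) =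
      s59t_corH N H A χ := rfl

/-- **`res ∘ cor = ∑_δ ρ δ`.** -/
theorem s59t_rho_norm (hPF : s59t_PF N H) (χ : s48h_Hpar R (s48h_GammaH N H) A) :
    s59t_resHpar N H R A (s59t_corHpar N H R A hPF χ) = ∑ δ, s59t_rho N H R A δ χ := by
  apply Subtype.ext
  rw [s59t_resHpar_coe, s59t_corHpar_coe, s59t_corH_res, Submodule.coe_sum,
    ← Equiv.sum_comp (Equiv.inv (s59t_Delta N H))
      (fun δ => ((s59t_rho N H R A δ χ : s48h_Hpar R (s48h_GammaH N H) A) :
        Additive (s48h_GammaH N H) →+ A))]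
  refine Finset.sum_congr rfl fun δ _ => ?_
  rw [Equiv.inv_apply, s59t_rho_inv]

/-- **`cor ∘ ρ δ = cor`.** -/
theorem s59t_rho_cor (hPF : s59t_PF N H) (δ : s59t_Delta N H)
    (χ : s48h_Hpar R (s48h_GammaH N H) A) :
    s59t_corHpar N H R A hPF (s59t_rho N H R A δ χ) = s59t_corHpar N H R A hPF χ := by
  obtain ⟨τ, rfl⟩ := QuotientGroup.mk_surjective δ
  apply Subtype.ext
  rw [s59t_corHpar_coe, s59t_rho_mk, s59t_corHpar_coe]
  exact s59t_corH_diamond _ χ.1

end Rho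

/-! ### `Δ` is a `p`-group -/

section PGroup

/-- the lower right entry of `τ ∈ Γ₀(N)` as a unit mod `N`. -/
def s59t_unit (τ : Gamma0 N) : (ZMod N)ˣ :=
  Units.mkOfMulEqOne (((τ : SL(2, ℤ)) 1 1 : ℤ) : ZMod N)
    ((((τ : SL(2, ℤ))⁻¹) 1 1 : ℤ) : ZMod N) (by
      rw [mul_comm]
      exact s48h_lowerRight_inv_mul τ.2)

theorem s59t_unit_coe (τ : Gamma0 N) :
    ((s59t_unit τ : (ZMod N)ˣ) : ZMod N) = (((τ : SL(2, ℤ)) 1 1 : ℤ) : ZMod N) := rfl

theorem s59t_unit_mul (τ τ' : Gamma0 N) : s59t_unit (τ * τ') = s59t_unit τ * s59t_unit τ' := by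
  apply Units.ext
  rw [Units.val_mul, s59t_unit_coe, s59t_unit_coe, s59t_unit_coe, Subgroup.coe_mul]
  exact s48h_lowerRight_mul τ.2

/-- `τ ↦ d(τ) mod N` as a homomorphism `Γ₀(N) → (ℤ/N)ˣ`. -/
def s59t_unitHom (N : ℕ) [NeZero N] : Gamma0 N →* (ZMod N)ˣ where
  toFun := s59t_unit
  map_one' := by
    apply Units.ext
    rw [s59t_unit_coe]
    simp
  map_mul' := s59t_unit_mul

theorem s59t_mem_GammaH_iff_unit (τ : Gamma0 N) :
    (τ : SL(2, ℤ)) ∈ s48h_GammaH N H ↔ s59t_unitHom N τ ∈ H := by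
  constructor
  · rintro ⟨-, u, hu, huτ⟩
    have : s59t_unitHom N τ = u := Units.ext huτ
    rw [this]
    exact hu
  · intro h
    exact ⟨τ.2, s59t_unitHom N τ, h, rfl⟩

/-- **`Δ` is a `p`-group** if every unit mod `N` has a `p`-power in `H`. -/
theorem s59t_Delta_isPGroup (p : ℕ) (hH : ∀ u : (ZMod N)ˣ, ∃ n : ℕ, u ^ (p ^ n) ∈ H) :
    IsPGroup p (s59t_Delta N H) := by
  intro δ
  obtain ⟨τ, rfl⟩ := QuotientGroup.mk_surjective δ
  obtain ⟨n, hn⟩ := hH (s59t_unitHom N τ)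
  refine ⟨n, ?_⟩
  rw [← QuotientGroup.mk_pow, ← s59t_mem_iff_mk, s59t_mem_GammaH_iff_unit, map_pow]
  exact hn

end PGroup

/-! ### (PF) from arithmetic -/

section PF

theorem s59t_unit_rel (τ : Gamma0 N) :
    ((s59t_unit τ : (ZMod N)ˣ) : ZMod N) ^ 2 -
      (((((τ : SL(2, ℤ)) : Mat2).trace : ℤ)) : ZMod N) * ((s59t_unit τ : (ZMod N)ˣ) : ZMod N) + 1
        = 0 := by
  have hdet := Matrix.det_fin_two ((τ : SL(2, ℤ)) : Mat2)
  rw [Matrix.SpecialLinearGroup.det_coe] at hdet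
  have hc : ((((τ : SL(2, ℤ)) 1 0 : ℤ)) : ZMod N) = 0 := Gamma0_mem.mp τ.2
  have htr : (((τ : SL(2, ℤ)) : Mat2).trace : ℤ) = (τ : SL(2, ℤ)) 0 0 + (τ : SL(2, ℤ)) 1 1 :=
    Matrix.trace_fin_two _
  have h1 := congrArg (Int.cast : ℤ → ZMod N) hdet
  push_cast at h1
  rw [hc, mul_zero, sub_zero] at h1
  rw [s59t_unit_coe, htr]
  push_cast
  linear_combination h1

/-- **(PF) from arithmetic**: `H` contains all units `u` with `(u - 1)² = 0` or `(u + 1)² = 0`
(parabolic elements) and all units with `u¹² = 1` (elements of finite order). -/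
theorem s59t_PF_of
    (hpar : ∀ u : (ZMod N)ˣ, ((u : ZMod N) - 1) ^ 2 = 0 ∨ ((u : ZMod N) + 1) ^ 2 = 0 → u ∈ H)
    (hfin : ∀ u : (ZMod N)ˣ, u ^ 12 = 1 → u ∈ H) : s59t_PF N H := by
  intro γ hγ
  rw [s59t_mem_GammaH_iff_unit]
  have hrel := s59t_unit_rel γ
  set u := s59t_unit γ with hu
  set t : ℤ := (((γ : SL(2, ℤ)) : Mat2).trace) with ht
  have hfin' : ∀ s : ℤ, t = s → (s = 0 ∨ s = 1 ∨ s = -1) → s59t_unitHom N γ ∈ H := by
    intro s hts hs
    apply hfin
    apply Units.ext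
    rw [Units.val_pow_eq_pow_val, Units.val_one]
    show (u : ZMod N) ^ 12 = 1
    rw [hts] at hrel
    rcases hs with rfl | rfl | rfl
    · have h2 : (u : ZMod N) ^ 2 = -1 := by
        push_cast at hrel
        linear_combination hrel
      calc (u : ZMod N) ^ 12 = ((u : ZMod N) ^ 2) ^ 6 := by ring
        _ = 1 := by rw [h2]; ring
    · have h2 : (u : ZMod N) ^ 2 = (u : ZMod N) - 1 := by
        push_cast at hrel
        linear_combination hrel
      have h3 : (u : ZMod N) ^ 3 = -1 := by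
        calc (u : ZMod N) ^ 3 = (u : ZMod N) * (u : ZMod N) ^ 2 := by ring
          _ = (u : ZMod N) * ((u : ZMod N) - 1) := by rw [h2]
          _ = (u : ZMod N) ^ 2 - (u : ZMod N) := by ring
          _ = -1 := by rw [h2]; ring
      calc (u : ZMod N) ^ 12 = ((u : ZMod N) ^ 3) ^ 4 := by ring
        _ = 1 := by rw [h3]; ring
    · have h2 : (u : ZMod N) ^ 2 = -(u : ZMod N) - 1 := by
        push_cast at hrel
        linear_combination hrel
      have h3 : (u : ZMod N) ^ 3 = 1 := by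
        calc (u : ZMod N) ^ 3 = (u : ZMod N) * (u : ZMod N) ^ 2 := by ring
          _ = (u : ZMod N) * (-(u : ZMod N) - 1) := by rw [h2]
          _ = -(u : ZMod N) ^ 2 - (u : ZMod N) := by ring
          _ = 1 := by rw [h2]; ring
      calc (u : ZMod N) ^ 12 = ((u : ZMod N) ^ 3) ^ 4 := by ring
        _ = 1 := by rw [h3]; ring
  have hpar' : ∀ s : ℤ, t = s → (s = 2 ∨ s = -2) → s59t_unitHom N γ ∈ H := by
    intro s hts hs
    apply hpar
    show ((u : ZMod N) - 1) ^ 2 = 0 ∨ ((u : ZMod N) + 1) ^ 2 = 0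
    rw [hts] at hrel
    rcases hs with rfl | rfl
    · left
      push_cast at hrel
      linear_combination hrel
    · right
      push_cast at hrel
      linear_combination hrel
  rcases hγ with hγ | hγ
  · have h4 : t = 2 ∨ t = -2 := by
      have h5 : (t - 2) * (t + 2) = 0 := by linear_combination hγ
      rcases mul_eq_zero.mp h5 with h | h
      · left; omega
      · right; omega
    rcases h4 with h | h
    · exact hpar' 2 h (Or.inl rfl)
    · exact hpar' (-2) h (Or.inr rfl)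
  · have hγ' : IsOfFinOrder (γ : SL(2, ℤ)) := by
      obtain ⟨n, hn, hγn⟩ := hγ.exists_pow_eq_one
      refine isOfFinOrder_iff_pow_eq_one.mpr ⟨n, hn, ?_⟩
      have := congrArg (fun g : Gamma0 N => (g : SL(2, ℤ))) hγn
      simpa using this
    rcases s48h_finOrd_trace _ hγ' with h1 | h1 | h1
    · have : t = 2 := by
        rw [ht, h1, Matrix.SpecialLinearGroup.coe_one, Matrix.trace_one]
        rfl
      exact hpar' 2 this (Or.inl rfl)
    · have : t = -2 := by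
        rw [ht, h1, Matrix.SpecialLinearGroup.coe_neg, Matrix.SpecialLinearGroup.coe_one,
          Matrix.trace_neg, Matrix.trace_one]
        rfl
      exact hpar' (-2) this (Or.inr rfl)
    · rw [abs_le] at h1
      have h6 : t = 0 ∨ t = 1 ∨ t = -1 := by omega
      exact hfin' t rfl h6

end PF

end Fermat.Agent.Lib.S59
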