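/-
Programme (R) = S59, node (H2) (helper8), file 1: **[FIX]** — a `p`-group acting linearly on a
non-zero finite module over a finite field of characteristic `p` has a non-zero fixed vector
(representation form, `ρ : Δ →* Module.End k V`, for a stable submodule `K`).
Mathlib only.
-/
import Mathlib

set_option autoImplicit false
set_option linter.style.haveILetI false

namespace Fermat.Agent.Lib.S59

section Fix

variable {p : ℕ} [Fact p.Prime] {Δ : Type*} [Group Δ]

/-- A `p`-group acting additively on a nontrivial finite additive group of exponent `p` has a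
non-zero fixed point. -/
theorem s59t_exists_fixed {W : Type*} [AddCommGroup W] [Finite W] [Nontrivial W]
    [DistribMulAction Δ W] (hΔ : IsPGroup p Δ) (hW : ∀ w : W, p • w = 0) :
    ∃ w : W, w ≠ 0 ∧ ∀ δ : Δ, δ • w = w := by
  have hpW : IsPGroup p (Multiplicative W) := by
    intro g
    refine ⟨1, ?_⟩
    rw [pow_one]
    exact congrArg Multiplicative.ofAdd (hW (Multiplicative.toAdd g))
  have hcard : p ∣ Nat.card W := by
    rcases hpW.card_eq_or_dvd with h | h
    · exfalso
      have h1 : Nat.card W = 1 := by rw [← h, Nat.card_congr Multiplicative.ofAdd.symm]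
      have h2 := Finite.one_lt_card (α := W)
      omega
    · rwa [Nat.card_congr (Multiplicative.ofAdd (α := W)).symm] at h
  have h0 : (0 : W) ∈ MulAction.fixedPoints Δ W := fun δ => smul_zero δ
  obtain ⟨b, hb, hne⟩ := hΔ.exists_fixed_point_of_prime_dvd_card_of_fixed_point W hcard h0
  exact ⟨b, fun h => hne h.symm, fun δ => hb δ⟩

variable {k : Type*} [Field k] [Finite k] [CharP k p]
  {V : Type*} [AddCommGroup V] [Module k V] [Module.Finite k V]

/-- **[FIX]** representation form: a non-zero `Δ`-stable submodule contains a non-zero fixed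
vector. -/
theorem s59t_fix_rep (ρ : Δ →* Module.End k V) (hΔ : IsPGroup p Δ) (K : Submodule k V)
    (hK : K ≠ ⊥) (hstab : ∀ δ, ∀ v ∈ K, ρ δ v ∈ K) :
    ∃ v ∈ K, v ≠ 0 ∧ ∀ δ, ρ δ v = v := by
  haveI : Finite V := Module.finite_of_finite k
  haveI : Nontrivial K := (Submodule.nontrivial_iff_ne_bot).mpr hK
  letI : DistribMulAction Δ K :=
    { smul := fun δ v => ⟨ρ δ v.1, hstab δ v.1 v.2⟩
      one_smul := fun v => Subtype.ext (by
        show ρ 1 v.1 = v.1
        rw [map_one]; rfl)
      mul_smul := fun δ γ v => Subtype.ext (by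
        show ρ (δ * γ) v.1 = ρ δ (ρ γ v.1)
        rw [map_mul]; rfl)
      smul_zero := fun δ => Subtype.ext (by
        show ρ δ (0 : V) = 0
        exact map_zero _)
      smul_add := fun δ v w => Subtype.ext (by
        show ρ δ (v.1 + w.1) = ρ δ v.1 + ρ δ w.1
        exact map_add _ _ _) }
  have hW : ∀ w : K, p • w = 0 := by
    intro w
    have h1 : (p : k) = 0 := CharP.cast_eq_zero k p
    rw [← Nat.cast_smul_eq_nsmul k, h1, zero_smul]
  obtain ⟨w, hw, hfix⟩ := s59t_exists_fixed (p := p) (Δ := Δ) hΔ hW
  refine ⟨w.1, w.2, fun h => hw (Subtype.ext h), fun δ => ?_⟩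
  exact congrArg Subtype.val (hfix δ)

end Fix

end Fermat.Agent.Lib.S59
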