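/-
Programme (R) = S59, node (H2) (helper8), file 2: **[ALG1]** — freeness criterion over `k[Δ]`.

`Δ` a finite `p`-group, `k` a finite field of characteristic `p`, `V` a finite `k`-module with a
representation `ρ : Δ →* Module.End k V`.  If every invariant vector is a norm
(`V^Δ ⊆ N_Δ V`, `N_Δ = ∑_δ ρ δ`) then `V` is free over `k[Δ]`: there are `b : Fin d → V` such that
`(c i δ) ↦ ∑ i δ, c i δ • ρ δ (b i)` is bijective.  Mathlib only.
-/
import Mathlib
import Fermat.Agent.Lib.S59.TFix

set_option autoImplicit false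
set_option linter.style.haveILetI false
set_option linter.unusedSectionVars false

open scoped BigOperators

namespace Fermat.Agent.Lib.S59

section Free

variable {p : ℕ} [Fact p.Prime] {Δ : Type*} [Group Δ] [Fintype Δ]
  {k : Type*} [CommRing k]
  {V : Type*} [AddCommGroup V] [Module k V]

/-- The evaluation map `k[Δ]^d → V` of a family `b`. -/
noncomputable def s59t_evalMap (ρ : Δ →* Module.End k V) {d : ℕ} (b : Fin d → V) :
    (Fin d → Δ → k) →ₗ[k] V where
  toFun c := ∑ i, ∑ δ, c i δ • ρ δ (b i)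
  map_add' c c' := by
    simp only [Pi.add_apply, add_smul, Finset.sum_add_distrib]
  map_smul' a c := by
    simp only [Pi.smul_apply, smul_eq_mul, mul_smul, Finset.smul_sum, RingHom.id_apply]

theorem s59t_evalMap_apply (ρ : Δ →* Module.End k V) {d : ℕ} (b : Fin d → V)
    (c : Fin d → Δ → k) : s59t_evalMap ρ b c = ∑ i, ∑ δ, c i δ • ρ δ (b i) := rfl

/-- left translation on `k[Δ]^d`. -/
noncomputable def s59t_transl (k : Type*) [CommRing k] (Δ : Type*) [Group Δ] (d : ℕ) :
    Δ →* Module.End k (Fin d → Δ → k) where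
  toFun γ :=
    { toFun := fun c i δ => c i (γ⁻¹ * δ)
      map_add' := fun _ _ => rfl
      map_smul' := fun _ _ => rfl }
  map_one' := by
    refine LinearMap.ext fun c => ?_
    funext i δ
    show c i (1⁻¹ * δ) = c i δ
    rw [inv_one, one_mul]
  map_mul' γ γ' := by
    refine LinearMap.ext fun c => ?_
    funext i δ
    show c i ((γ * γ')⁻¹ * δ) = c i (γ'⁻¹ * (γ⁻¹ * δ))
    rw [mul_inv_rev, mul_assoc]

theorem s59t_transl_apply (d : ℕ) (γ : Δ) (c : Fin d → Δ → k) (i : Fin d) (δ : Δ) :
    s59t_transl k Δ d γ c i δ = c i (γ⁻¹ * δ) := rfl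

/-- the evaluation map is equivariant. -/
theorem s59t_evalMap_transl (ρ : Δ →* Module.End k V) {d : ℕ} (b : Fin d → V) (γ : Δ)
    (c : Fin d → Δ → k) :
    s59t_evalMap ρ b (s59t_transl k Δ d γ c) = ρ γ (s59t_evalMap ρ b c) := by
  rw [s59t_evalMap_apply, s59t_evalMap_apply, map_sum]
  refine Finset.sum_congr rfl fun i _ => ?_
  rw [map_sum]
  rw [← Equiv.sum_comp (Equiv.mulLeft γ)]
  refine Finset.sum_congr rfl fun δ _ => ?_
  rw [s59t_transl_apply, Equiv.coe_mulLeft, inv_mul_cancel_left, map_smul, map_mul]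
  rfl

/-- a translation-invariant element of `k[Δ]^d` is constant in `δ`. -/
theorem s59t_const_of_transl (d : ℕ) (c : Fin d → Δ → k)
    (h : ∀ γ, s59t_transl k Δ d γ c = c) (i : Fin d) (δ : Δ) : c i δ = c i 1 := by
  have := congrFun (congrFun (h δ) i) δ
  rw [s59t_transl_apply, inv_mul_cancel] at this
  exact this.symm

end Free

section FreeField

variable {p : ℕ} [Fact p.Prime] {Δ : Type*} [Group Δ] [Fintype Δ]
  {k : Type*} [Field k] [Finite k] [CharP k p]
  {V : Type*} [AddCommGroup V] [Module k V] [Module.Finite k V]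

/-- **[ALG1]** `V^Δ ⊆ N_Δ V` ⇒ `V` is free over `k[Δ]`; the rank is `dim V^Δ`. -/
theorem s59t_free_of_inv_le_norm (ρ : Δ →* Module.End k V) (hΔ : IsPGroup p Δ)
    (h : ∀ v : V, (∀ δ, ρ δ v = v) → ∃ w : V, v = ∑ δ, ρ δ w) :
    ∃ (d : ℕ) (b : Fin d → V), Function.Bijective (s59t_evalMap ρ b) := by
  classical
  -- the invariants
  let I : Submodule k V :=
    { carrier := {v | ∀ δ, ρ δ v = v}
      zero_mem' := fun δ => map_zero _
      add_mem' := fun {a b} ha hb δ => by
        show ρ δ (a + b) = a + b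
        rw [map_add, ha δ, hb δ]
      smul_mem' := fun c a ha δ => by
        show ρ δ (c • a) = c • a
        rw [map_smul, ha δ] }
  have hI : ∀ v, v ∈ I ↔ ∀ δ, ρ δ v = v := fun v => Iff.rfl
  let d := Module.finrank k I
  let e : Module.Basis (Fin d) k I := Module.finBasis k I
  have hex : ∀ i, ∃ w : V, ((e i : I) : V) = ∑ δ, ρ δ w := fun i => h _ ((hI _).mp (e i).2)
  choose b hb using hex
  refine ⟨d, b, ?_⟩
  -- injectivity of `Φ`
  have hinj : Function.Injective (s59t_evalMap ρ b) := by
    rw [← LinearMap.ker_eq_bot]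
    by_contra hK
    obtain ⟨c, hcK, hc0, hcfix⟩ := s59t_fix_rep (p := p) (s59t_transl k Δ d) hΔ
      (LinearMap.ker (s59t_evalMap ρ b)) hK (fun δ c hc => by
        rw [LinearMap.mem_ker] at hc ⊢
        rw [s59t_evalMap_transl, hc, map_zero])
    have hconst := s59t_const_of_transl d c hcfix
    rw [LinearMap.mem_ker, s59t_evalMap_apply] at hcK
    have h1 : ∑ i, c i 1 • ((e i : I) : V) = 0 := by
      rw [← hcK]
      refine Finset.sum_congr rfl fun i _ => ?_
      rw [hb i, Finset.smul_sum]
      refine Finset.sum_congr rfl fun δ _ => ?_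
      rw [hconst i δ]
    have h2 : ∑ i, c i 1 • e i = 0 := by
      apply Subtype.ext
      rw [Submodule.coe_sum, Submodule.coe_zero, ← h1]
      rfl
    have h3 := (Fintype.linearIndependent_iff.mp e.linearIndependent) (fun i => c i 1) h2
    apply hc0
    funext i δ
    rw [hconst i δ, h3 i]
    rfl
  -- the dual embedding `Ψ`
  have hdim : Module.finrank k V ≤ Module.finrank k (Fin d → Δ → k) := by
    -- functionals extending the dual basis of `I`
    obtain ⟨P, hP⟩ := Submodule.exists_isCompl I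
    let pr : V →ₗ[k] I := Submodule.projectionOnto I P hP
    let Ψ : V →ₗ[k] (Fin d → Δ → k) :=
      { toFun := fun v i δ => e.repr (pr (ρ δ⁻¹ v)) i
        map_add' := fun v w => by
          funext i δ
          simp only [map_add, Pi.add_apply, Finsupp.coe_add]
        map_smul' := fun a v => by
          funext i δ
          simp only [map_smul, Pi.smul_apply, Finsupp.coe_smul, RingHom.id_apply] }
    have hΨ : ∀ v i δ, Ψ v i δ = e.repr (pr (ρ δ⁻¹ v)) i := fun _ _ _ => rfl
    have hΨeq : ∀ γ v, Ψ (ρ γ v) = s59t_transl k Δ d γ (Ψ v) := by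
      intro γ v
      funext i δ
      rw [s59t_transl_apply, hΨ, hΨ, mul_inv_rev, inv_inv, map_mul]
      rfl
    have hΨinj : Function.Injective Ψ := by
      rw [← LinearMap.ker_eq_bot]
      by_contra hK
      obtain ⟨v, hvK, hv0, hvfix⟩ := s59t_fix_rep (p := p) ρ hΔ (LinearMap.ker Ψ) hK
        (fun δ v hv => by
          rw [LinearMap.mem_ker] at hv ⊢
          rw [hΨeq, hv, map_zero])
      rw [LinearMap.mem_ker] at hvK
      have hvI : v ∈ I := (hI v).mpr hvfix
      have h1 : pr v = ⟨v, hvI⟩ := Submodule.projectionOnto_apply_left hP ⟨v, hvI⟩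
      have h2 : e.repr ⟨v, hvI⟩ = 0 := by
        ext i
        have := congrFun (congrFun hvK i) 1
        rw [hΨ, inv_one, map_one] at this
        rw [← h1]
        exact this
      have h3 : (⟨v, hvI⟩ : I) = 0 := by
        rwa [map_eq_zero_iff _ e.repr.injective] at h2
      exact hv0 (congrArg Subtype.val h3)
    exact LinearMap.finrank_le_finrank_of_injective hΨinj
  exact ⟨hinj, (LinearMap.injective_iff_surjective_of_finrank_eq_finrank
    (le_antisymm (LinearMap.finrank_le_finrank_of_injective hinj) hdim)).mp hinj⟩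

end FreeField

end Fermat.Agent.Lib.S59
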