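/-
Programme (R) = S59, node (H2) (helper8), file 3: **[ALG2]** — lifting freeness from the residue
field.  `R` local, `X` finite free over `R`, `ρ : Δ →* End_R X`, `b : Fin d → X`.  If the evaluation
map `R[Δ]^d → X` is surjective modulo the maximal ideal and `rank_R X = d |Δ|`, then it is
bijective.  Mathlib only.
-/
import Mathlib
import Fermat.Agent.Lib.S59.TFree

set_option autoImplicit false
set_option linter.style.haveILetI false
set_option linter.unusedSectionVars false

open scoped BigOperators

namespace Fermat.Agent.Lib.S59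

section LiftFree

variable {R : Type*} [CommRing R] [IsLocalRing R] {Δ : Type*} [Group Δ] [Fintype Δ]
  {X : Type*} [AddCommGroup X] [Module R X] [Module.Finite R X] [Module.Free R X]

/-- **[ALG2]** -/
theorem s59t_lift_free (ρ : Δ →* Module.End R X) {d : ℕ} (b : Fin d → X)
    (hsurj : ∀ x : X, ∃ c : Fin d → Δ → R,
      x - s59t_evalMap ρ b c ∈ (IsLocalRing.maximalIdeal R • ⊤ : Submodule R X))
    (hrank : Module.finrank R X = d * Fintype.card Δ) :
    Function.Bijective (s59t_evalMap ρ b) := by
  classical
  have hsur : Function.Surjective (s59t_evalMap ρ b) := by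
    rw [← LinearMap.range_eq_top, eq_top_iff]
    refine Submodule.le_of_le_smul_of_le_jacobson_bot (I := IsLocalRing.maximalIdeal R)
      (Module.Finite.fg_top) ?_ ?_
    · rw [IsLocalRing.jacobson_eq_maximalIdeal ⊥ bot_ne_top]
    · intro x _
      obtain ⟨c, hc⟩ := hsurj x
      have : x = s59t_evalMap ρ b c + (x - s59t_evalMap ρ b c) := by abel
      rw [this]
      exact Submodule.add_mem_sup (LinearMap.mem_range_self _ c) hc
  refine ⟨?_, hsur⟩
  have hr : Module.finrank R X = Module.finrank R (Fin d → Δ → R) := by
    rw [hrank, Module.finrank_pi_fintype]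
    simp [Module.finrank_fintype_fun_eq_card]
  let φ : X ≃ₗ[R] (Fin d → Δ → R) := LinearEquiv.ofFinrankEq X (Fin d → Δ → R) hr
  have h1 : Function.Surjective ((s59t_evalMap ρ b) ∘ₗ φ.toLinearMap) :=
    hsur.comp φ.surjective
  have h2 : Function.Injective ((s59t_evalMap ρ b) ∘ₗ φ.toLinearMap) :=
    OrzechProperty.injective_of_surjective_endomorphism _ h1
  intro c c' hcc
  have h3 := h2 (a₁ := φ.symm c) (a₂ := φ.symm c') (by
    simp only [LinearMap.comp_apply, LinearEquiv.coe_coe, LinearEquiv.apply_symm_apply]
    exact hcc)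
  exact φ.symm.injective h3

end LiftFree

end Fermat.Agent.Lib.S59
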