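/-
Programme (R) = S59, node (H2) (helper8), file 4: **[TW-core]** — the abstract Taylor–Wiles
freeness/control theorem.

`R` local with finite residue field of characteristic `p`, `Δ` a finite `p`-group, `X`, `X₀` finite
free `R`-modules, `ρ : Δ →* End_R X`, `res : X₀ → X`, `cor : X → X₀` with `res ∘ cor = N_Δ`,
`cor ∘ ρ δ = cor`, `cor` surjective and
  (E) every `x` which is `Δ`-invariant modulo `𝔪 X` is congruent modulo `𝔪 X` to some `res y`.
Then `X` is free over `R[Δ]` of rank `rank_R X₀` and `ker cor = 𝔞_Δ X`.  Mathlib only.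
-/
import Mathlib
import Fermat.Agent.Lib.S59.TLiftFree

set_option autoImplicit false
set_option linter.style.haveILetI false
set_option linter.unusedSectionVars false

open scoped BigOperators TensorProduct
open IsLocalRing

namespace Fermat.Agent.Lib.S59

section Quot

variable {R : Type*} [CommRing R] [IsLocalRing R]
  {X : Type*} [AddCommGroup X] [Module R X]
  {Y : Type*} [AddCommGroup Y] [Module R Y]

/-- `X / 𝔪 X`. -/
abbrev s59t_Q (R : Type*) [CommRing R] [IsLocalRing R] (X : Type*) [AddCommGroup X] [Module R X] :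
    Type _ := X ⧸ (maximalIdeal R • ⊤ : Submodule R X)

noncomputable instance s59t_Q_module : Module (ResidueField R) (s59t_Q R X) :=
  inferInstanceAs (Module (R ⧸ maximalIdeal R) (X ⧸ (maximalIdeal R • ⊤ : Submodule R X)))

instance s59t_Q_tower : IsScalarTower R (ResidueField R) (s59t_Q R X) :=
  inferInstanceAs (IsScalarTower R (R ⧸ maximalIdeal R)
    (X ⧸ (maximalIdeal R • ⊤ : Submodule R X)))

/-- the reduction map. -/
noncomputable def s59t_mk (R : Type*) [CommRing R] [IsLocalRing R] (X : Type*) [AddCommGroup X]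
    [Module R X] : X →ₗ[R] s59t_Q R X := Submodule.mkQ _

theorem s59t_mk_surjective : Function.Surjective (s59t_mk R X) := Submodule.mkQ_surjective _

theorem s59t_mk_eq_zero (x : X) :
    s59t_mk R X x = 0 ↔ x ∈ (maximalIdeal R • ⊤ : Submodule R X) :=
  Submodule.Quotient.mk_eq_zero _

theorem s59t_mk_eq_mk (x y : X) :
    s59t_mk R X x = s59t_mk R X y ↔ x - y ∈ (maximalIdeal R • ⊤ : Submodule R X) :=
  Submodule.Quotient.eq _

theorem s59t_mk_smul (r : R) (x : X) :
    s59t_mk R X (r • x) = (residue R r) • s59t_mk R X x := by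
  rw [map_smul]
  exact (algebraMap_smul (ResidueField R) r (s59t_mk R X x)).symm

/-- the reduction of a linear map. -/
noncomputable def s59t_red (f : X →ₗ[R] Y) : s59t_Q R X →ₗ[ResidueField R] s59t_Q R Y :=
  (Submodule.mapQ _ _ f (Submodule.smul_top_le_comap_smul_top (maximalIdeal R) f)
    ).extendScalarsOfSurjective residue_surjective

theorem s59t_red_mk (f : X →ₗ[R] Y) (x : X) :
    s59t_red f (s59t_mk R X x) = s59t_mk R Y (f x) := rfl

theorem s59t_finite_Q [Module.Finite R X] : Module.Finite (ResidueField R) (s59t_Q R X) :=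
  Module.Finite.of_restrictScalars_finite R (ResidueField R) (s59t_Q R X)

set_option backward.isDefEq.respectTransparency false in
theorem s59t_finrank_Q [Module.Finite R X] [Module.Free R X] :
    Module.finrank (ResidueField R) (s59t_Q R X) = Module.finrank R X := by
  let e : ResidueField R ⊗[R] X ≃ₗ[ResidueField R] s59t_Q R X :=
    (TensorProduct.quotTensorEquivQuotSMul X (maximalIdeal R)).extendScalarsOfSurjective
      residue_surjective
  rw [← e.finrank_eq, Module.finrank_baseChange]

end Quot

section Core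

variable {p : ℕ} [Fact p.Prime] {R : Type*} [CommRing R] [IsLocalRing R]
  [Finite (ResidueField R)] [CharP (ResidueField R) p]
  {Δ : Type*} [Group Δ] [Fintype Δ]
  {X : Type*} [AddCommGroup X] [Module R X] [Module.Finite R X] [Module.Free R X]
  {X₀ : Type*} [AddCommGroup X₀] [Module R X₀] [Module.Finite R X₀] [Module.Free R X₀]

/-- the reduced representation. -/
noncomputable def s59t_redRep (ρ : Δ →* Module.End R X) :
    Δ →* Module.End (ResidueField R) (s59t_Q R X) where
  toFun δ := s59t_red (ρ δ)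
  map_one' := by
    refine LinearMap.ext fun v => ?_
    obtain ⟨x, rfl⟩ := s59t_mk_surjective v
    rw [s59t_red_mk, map_one]
    rfl
  map_mul' δ γ := by
    refine LinearMap.ext fun v => ?_
    obtain ⟨x, rfl⟩ := s59t_mk_surjective v
    rw [s59t_red_mk, map_mul]
    rfl

theorem s59t_redRep_mk (ρ : Δ →* Module.End R X) (δ : Δ) (x : X) :
    s59t_redRep ρ δ (s59t_mk R X x) = s59t_mk R X (ρ δ x) := rfl

/-- reduction of the evaluation map. -/
theorem s59t_mk_evalMap (ρ : Δ →* Module.End R X) {d : ℕ} (b : Fin d → X)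
    (c : Fin d → Δ → R) :
    s59t_mk R X (s59t_evalMap ρ b c) =
      s59t_evalMap (s59t_redRep ρ) (fun i => s59t_mk R X (b i))
        (fun i δ => residue R (c i δ)) := by
  rw [s59t_evalMap_apply, s59t_evalMap_apply, map_sum]
  refine Finset.sum_congr rfl fun i _ => ?_
  rw [map_sum]
  refine Finset.sum_congr rfl fun δ _ => ?_
  rw [s59t_mk_smul, s59t_redRep_mk]

/-- **[TW-core]** -/
theorem s59t_TW_core (hΔ : IsPGroup p Δ) (ρ : Δ →* Module.End R X) (res : X₀ →ₗ[R] X)
    (cor : X →ₗ[R] X₀)
    (hN : ∀ x, res (cor x) = ∑ δ, ρ δ x) (hC : ∀ δ x, cor (ρ δ x) = cor x)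
    (hE : ∀ x : X, (∀ δ, ρ δ x - x ∈ (maximalIdeal R • ⊤ : Submodule R X)) →
      ∃ y : X₀, x - res y ∈ (maximalIdeal R • ⊤ : Submodule R X))
    (hS : Function.Surjective cor) :
    ∃ (d : ℕ) (b : Fin d → X), Function.Bijective (s59t_evalMap ρ b) ∧
      Module.finrank R X₀ = d ∧
      LinearMap.ker cor = Submodule.span R {z | ∃ δ x, z = ρ δ x - x} := by
  classical
  haveI : Module.Finite (ResidueField R) (s59t_Q R X) := s59t_finite_Q
  haveI : Module.Finite (ResidueField R) (s59t_Q R X₀) := s59t_finite_Q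
  -- invariants are norms, modulo `𝔪`
  have hinv : ∀ v : s59t_Q R X, (∀ δ, s59t_redRep ρ δ v = v) →
      ∃ w : s59t_Q R X, v = ∑ δ, s59t_redRep ρ δ w := by
    intro v hv
    obtain ⟨x, rfl⟩ := s59t_mk_surjective v
    have h1 : ∀ δ, ρ δ x - x ∈ (maximalIdeal R • ⊤ : Submodule R X) := by
      intro δ
      rw [← s59t_mk_eq_mk, ← s59t_redRep_mk]
      exact hv δ
    obtain ⟨y, hy⟩ := hE x h1
    obtain ⟨x', rfl⟩ := hS y
    refine ⟨s59t_mk R X x', ?_⟩
    rw [(s59t_mk_eq_mk _ _).mpr hy, hN, map_sum]
    rfl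
  obtain ⟨d, bbar, hbbar⟩ := s59t_free_of_inv_le_norm (p := p) (s59t_redRep ρ) hΔ hinv
  have hbex : ∀ i, ∃ x : X, s59t_mk R X x = bbar i := fun i => s59t_mk_surjective _
  choose b hb using hbex
  have hbb : (fun i => s59t_mk R X (b i)) = bbar := funext hb
  -- surjectivity modulo `𝔪`
  have hsurj : ∀ x : X, ∃ c : Fin d → Δ → R,
      x - s59t_evalMap ρ b c ∈ (maximalIdeal R • ⊤ : Submodule R X) := by
    intro x
    obtain ⟨cbar, hcbar⟩ := hbbar.2 (s59t_mk R X x)
    have hcex : ∀ i δ, ∃ r : R, residue R r = cbar i δ := fun i δ => residue_surjective _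
    choose c hc using hcex
    refine ⟨c, ?_⟩
    rw [← s59t_mk_eq_mk, s59t_mk_evalMap, hbb, ← hcbar]
    congr 1
    funext i δ
    exact (hc i δ).symm
  have hrank : Module.finrank R X = d * Fintype.card Δ := by
    rw [← s59t_finrank_Q, ← (LinearEquiv.ofBijective _ hbbar).finrank_eq,
      Module.finrank_pi_fintype]
    simp [Module.finrank_fintype_fun_eq_card]
  have hΦ := s59t_lift_free ρ b hsurj hrank
  -- the map `R^d → X₀`
  let g : (Fin d → R) →ₗ[R] X₀ :=
    { toFun := fun a => ∑ i, a i • cor (b i)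
      map_add' := fun a a' => by
        simp only [Pi.add_apply, add_smul, Finset.sum_add_distrib]
      map_smul' := fun r a => by
        simp only [Pi.smul_apply, smul_eq_mul, mul_smul, Finset.smul_sum, RingHom.id_apply] }
  have hg : ∀ a, g a = ∑ i, a i • cor (b i) := fun _ => rfl
  have hcorΦ : ∀ c : Fin d → Δ → R, cor (s59t_evalMap ρ b c) = g (fun i => ∑ δ, c i δ) := by
    intro c
    rw [s59t_evalMap_apply, hg, map_sum]
    refine Finset.sum_congr rfl fun i _ => ?_
    rw [map_sum, Finset.sum_smul]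
    refine Finset.sum_congr rfl fun δ _ => ?_
    rw [map_smul, hC]
  have hgsurj : Function.Surjective g := by
    intro y
    obtain ⟨x, rfl⟩ := hS y
    obtain ⟨c, rfl⟩ := hΦ.2 x
    exact ⟨_, (hcorΦ c).symm⟩
  have hle1 : Module.finrank R X₀ ≤ d := by
    have := LinearMap.finrank_le_finrank_of_surjective hgsurj (R := R)
    simpa using this
  -- the other inequality: the norms of the basis are independent invariants
  have hle2 : d ≤ Module.finrank R X₀ := by
    rw [← s59t_finrank_Q (R := R) (X := X₀)]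
    let w : Fin d → s59t_Q R X := fun i => ∑ δ, s59t_redRep ρ δ (bbar i)
    have hwind : LinearIndependent (ResidueField R) w := by
      rw [Fintype.linearIndependent_iff]
      intro a ha
      have h1 : s59t_evalMap (s59t_redRep ρ) bbar (fun i _ => a i) = 0 := by
        rw [s59t_evalMap_apply, ← ha]
        refine Finset.sum_congr rfl fun i _ => ?_
        rw [Finset.smul_sum]
      have h2 := hbbar.1 (h1.trans (map_zero _).symm)
      intro i
      exact congrFun (congrFun h2 i) 1
    have hwmem : ∀ i, w i ∈ LinearMap.range (s59t_red res) := by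
      intro i
      have h1 : ∀ δ, ρ δ (∑ γ, ρ γ (b i)) - ∑ γ, ρ γ (b i) ∈
          (maximalIdeal R • ⊤ : Submodule R X) := by
        intro δ
        have : ρ δ (∑ γ, ρ γ (b i)) = ∑ γ, ρ γ (b i) := by
          calc ρ δ (∑ γ, ρ γ (b i)) = ∑ γ, ρ (δ * γ) (b i) := by
                rw [map_sum]
                refine Finset.sum_congr rfl fun γ _ => ?_
                rw [map_mul]
                rfl
            _ = ∑ γ, ρ γ (b i) := Equiv.sum_comp (Equiv.mulLeft δ) (fun γ => ρ γ (b i))
        rw [this, sub_self]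
        exact Submodule.zero_mem _
      obtain ⟨y, hy⟩ := hE _ h1
      refine ⟨s59t_mk R X₀ y, ?_⟩
      rw [s59t_red_mk, ← (s59t_mk_eq_mk _ _).mpr hy, map_sum]
      refine Finset.sum_congr rfl fun δ _ => ?_
      rw [← s59t_redRep_mk, hb]
    let w' : Fin d → LinearMap.range (s59t_red res) := fun i => ⟨w i, hwmem i⟩
    have hw'ind : LinearIndependent (ResidueField R) w' := by
      apply LinearIndependent.of_comp (LinearMap.range (s59t_red res)).subtype
      exact hwind
    have h3 := hw'ind.fintype_card_le_finrank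
    rw [Fintype.card_fin] at h3
    exact h3.trans (LinearMap.finrank_range_le _)
  have hdeq : Module.finrank R X₀ = d := le_antisymm hle1 hle2
  -- `g` is injective
  have hginj : Function.Injective g := by
    have hr : Module.finrank R X₀ = Module.finrank R (Fin d → R) := by
      rw [hdeq]; simp
    let φ : X₀ ≃ₗ[R] (Fin d → R) := LinearEquiv.ofFinrankEq X₀ (Fin d → R) hr
    have h1 : Function.Surjective (g ∘ₗ φ.toLinearMap) := hgsurj.comp φ.surjective
    have h2 : Function.Injective (g ∘ₗ φ.toLinearMap) :=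
      OrzechProperty.injective_of_surjective_endomorphism _ h1
    intro a a' haa
    have h3 := h2 (a₁ := φ.symm a) (a₂ := φ.symm a') (by
      simp only [LinearMap.comp_apply, LinearEquiv.coe_coe, LinearEquiv.apply_symm_apply]
      exact haa)
    exact φ.symm.injective h3
  refine ⟨d, b, hΦ, hdeq, le_antisymm ?_ ?_⟩
  · intro x hx
    rw [LinearMap.mem_ker] at hx
    obtain ⟨c, rfl⟩ := hΦ.2 x
    rw [hcorΦ] at hx
    have ha : (fun i => ∑ δ, c i δ) = 0 := hginj (hx.trans (map_zero g).symm)
    have hai : ∀ i, ∑ δ, c i δ = 0 := fun i => congrFun ha i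
    have hx2 : s59t_evalMap ρ b c = ∑ i, ∑ δ, c i δ • (ρ δ (b i) - b i) := by
      rw [s59t_evalMap_apply]
      refine Finset.sum_congr rfl fun i _ => ?_
      simp only [smul_sub, Finset.sum_sub_distrib]
      rw [← Finset.sum_smul, hai i, zero_smul, sub_zero]
    rw [hx2]
    refine Submodule.sum_mem _ fun i _ => Submodule.sum_mem _ fun δ _ => ?_
    exact Submodule.smul_mem _ _ (Submodule.subset_span ⟨δ, b i, rfl⟩)
  · rw [Submodule.span_le]
    rintro z ⟨δ, x, rfl⟩
    rw [SetLike.mem_coe, LinearMap.mem_ker, map_sub, hC, sub_self]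

end Core

end Fermat.Agent.Lib.S59
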