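/-
Programme (R) = S59, node (H2) (helper8), file 14: **the wrapper around [TW-core]**: localisation
by an idempotent of a commutative ring of operators.

`Y`, `Y₀` finite free over the local ring `R` (the full cohomology groups `H(Γ_H, 𝒪)`,
`H(Γ₀(N), 𝒪)`), `ρ : Δ →* End_R Y`, `res`, `cor` with `res ∘ cor = N_Δ`, `cor ∘ ρ δ = cor`; a
commutative ring `𝕋` acting on `Y` (by `a`) and `Y₀` (by `a₀`), the actions commuting with `ρ`,
`res`, `cor`; `e ∈ 𝕋` acting as an idempotent, and `θ₁, θ₂ ∈ 𝕋` invertible on the `e`-parts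
(`η_i θ_i e = e`) such that
  (EXT) `x ∈ Y` invariant modulo `𝔪 Y` ⟹ `θ₁ x ≡ res y` modulo `𝔪 Y`,
  (COR) `θ₂ y ≡ cor x` modulo `𝔪 Y₀` for every `y ∈ Y₀`.
Then `X = e Y` is free over `R[Δ]` of rank `rank_R (e Y₀)`, `cor : e Y → e Y₀` is surjective and its
kernel is the augmentation submodule.  Mathlib only (+ `TCore`).
-/
import Mathlib
import Fermat.Agent.Lib.S59.TCore

set_option autoImplicit false
set_option linter.style.haveILetI false
set_option linter.unusedSectionVars false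

open scoped BigOperators
open IsLocalRing

namespace Fermat.Agent.Lib.S59

section Part

variable {R : Type*} [CommRing R] {Y : Type*} [AddCommGroup Y] [Module R Y]
  {Y' : Type*} [AddCommGroup Y'] [Module R Y']

/-- the `ε`-part `ε Y` of `Y` (`ε` an idempotent endomorphism). -/
abbrev s59t_part (ε : Module.End R Y) : Submodule R Y := LinearMap.range ε

theorem s59t_mem_part {ε : Module.End R Y} (hε : ε * ε = ε) (y : Y) :
    y ∈ s59t_part ε ↔ ε y = y := by
  constructor
  · rintro ⟨z, rfl⟩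
    have := LinearMap.congr_fun hε z
    exact this
  · intro h
    exact ⟨y, h⟩

/-- the projection `Y → ε Y`. -/
noncomputable def s59t_proj (ε : Module.End R Y) : Y →ₗ[R] s59t_part ε := ε.rangeRestrict

theorem s59t_proj_coe (ε : Module.End R Y) (y : Y) : ((s59t_proj ε y : s59t_part ε) : Y) = ε y :=
  rfl

theorem s59t_proj_of_mem {ε : Module.End R Y} (hε : ε * ε = ε) (x : s59t_part ε) :
    s59t_proj ε (x : Y) = x :=
  Subtype.ext ((s59t_mem_part hε _).mp x.2)

theorem s59t_part_finite [Module.Finite R Y] (ε : Module.End R Y) :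
    Module.Finite R (s59t_part ε) := Module.Finite.range ε

theorem s59t_part_free [IsLocalRing R] [Module.Finite R Y] [Module.Free R Y]
    {ε : Module.End R Y} (hε : ε * ε = ε) : Module.Free R (s59t_part ε) := by
  haveI := s59t_part_finite ε
  haveI : Module.Projective R (s59t_part ε) :=
    Module.Projective.of_split (s59t_part ε).subtype (s59t_proj ε)
      (LinearMap.ext fun x => s59t_proj_of_mem hε x)
  exact Module.free_of_flat_of_isLocalRing

/-- the map induced on the parts by an intertwining linear map. -/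
noncomputable def s59t_partMap {ε : Module.End R Y} {ε' : Module.End R Y'} (f : Y →ₗ[R] Y')
    (h : ∀ y, ε' (f y) = f (ε y)) : s59t_part ε →ₗ[R] s59t_part ε' :=
  f.restrict (p := s59t_part ε) (q := s59t_part ε') (by
    rintro _ ⟨z, rfl⟩
    exact ⟨f z, h z⟩)

theorem s59t_partMap_coe {ε : Module.End R Y} {ε' : Module.End R Y'} (f : Y →ₗ[R] Y')
    (h : ∀ y, ε' (f y) = f (ε y)) (x : s59t_part ε) :
    ((s59t_partMap f h x : s59t_part ε') : Y') = f (x : Y) := rfl

/-- `𝔪 (ε Y) = ε Y ∩ 𝔪 Y`. -/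
theorem s59t_part_smul_top_iff (I : Ideal R) {ε : Module.End R Y} (hε : ε * ε = ε)
    (x : s59t_part ε) :
    x ∈ (I • ⊤ : Submodule R (s59t_part ε)) ↔ (x : Y) ∈ (I • ⊤ : Submodule R Y) := by
  constructor
  · intro h
    exact Submodule.smul_top_le_comap_smul_top I (s59t_part ε).subtype h
  · intro h
    have h1 := Submodule.smul_top_le_comap_smul_top I (s59t_proj ε) h
    rw [Submodule.mem_comap, s59t_proj_of_mem hε] at h1
    exact h1

end Part

section Wrap

variable {p : ℕ} [Fact p.Prime] {R : Type*} [CommRing R] [IsLocalRing R]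
  [Finite (ResidueField R)] [CharP (ResidueField R) p]
  {Δ : Type*} [Group Δ] [Fintype Δ]
  {Y : Type*} [AddCommGroup Y] [Module R Y] [Module.Finite R Y] [Module.Free R Y]
  {Y₀ : Type*} [AddCommGroup Y₀] [Module R Y₀] [Module.Finite R Y₀] [Module.Free R Y₀]

/-- the representation of `Δ` on the `ε`-part. -/
noncomputable def s59t_partRep (ρ : Δ →* Module.End R Y) {ε : Module.End R Y}
    (h : ∀ δ y, ε (ρ δ y) = ρ δ (ε y)) : Δ →* Module.End R (s59t_part ε) where
  toFun δ := s59t_partMap (ρ δ) (h δ)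
  map_one' := by
    refine LinearMap.ext fun x => Subtype.ext ?_
    rw [s59t_partMap_coe, map_one]
    rfl
  map_mul' δ γ := by
    refine LinearMap.ext fun x => Subtype.ext ?_
    rw [s59t_partMap_coe, map_mul]
    rfl

theorem s59t_partRep_coe (ρ : Δ →* Module.End R Y) {ε : Module.End R Y}
    (h : ∀ δ y, ε (ρ δ y) = ρ δ (ε y)) (δ : Δ) (x : s59t_part ε) :
    ((s59t_partRep ρ h δ x : s59t_part ε) : Y) = ρ δ (x : Y) := rfl

/-- **[TW-wrap]** -/
theorem s59t_TW_wrap (hΔ : IsPGroup p Δ) (ρ : Δ →* Module.End R Y) (res : Y₀ →ₗ[R] Y)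
    (cor : Y →ₗ[R] Y₀)
    (hN : ∀ x, res (cor x) = ∑ δ, ρ δ x) (hC : ∀ δ x, cor (ρ δ x) = cor x)
    {𝕋 : Type*} [CommRing 𝕋] (a : 𝕋 →+* Module.End R Y) (a₀ : 𝕋 →+* Module.End R Y₀)
    (hres : ∀ t y, a t (res y) = res (a₀ t y)) (hcor : ∀ t x, a₀ t (cor x) = cor (a t x))
    (hρ : ∀ t δ x, a t (ρ δ x) = ρ δ (a t x))
    (e θ₁ η₁ θ₂ η₂ : 𝕋) (he : a e * a e = a e) (he₀ : a₀ e * a₀ e = a₀ e)
    (h₁ : a (η₁ * θ₁ * e) = a e) (h₂ : a₀ (η₂ * θ₂ * e) = a₀ e)
    (hEXT : ∀ x : Y, (∀ δ, ρ δ x - x ∈ (maximalIdeal R • ⊤ : Submodule R Y)) →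
      ∃ y : Y₀, a θ₁ x - res y ∈ (maximalIdeal R • ⊤ : Submodule R Y))
    (hCOR : ∀ y : Y₀, ∃ x : Y, a₀ θ₂ y - cor x ∈ (maximalIdeal R • ⊤ : Submodule R Y₀)) :
    ∃ (d : ℕ) (b : Fin d → s59t_part (a e)),
      Function.Bijective (s59t_evalMap (s59t_partRep ρ (hρ e)) b) ∧
      Module.finrank R (s59t_part (a₀ e)) = d ∧
      Function.Surjective (s59t_partMap (ε := a e) (ε' := a₀ e) cor (hcor e)) ∧
      LinearMap.ker (s59t_partMap (ε := a e) (ε' := a₀ e) cor (hcor e)) =
        Submodule.span R {z | ∃ δ x, z = s59t_partRep ρ (hρ e) δ x - x} := by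
  classical
  haveI := s59t_part_finite (a e)
  haveI := s59t_part_finite (a₀ e)
  haveI := s59t_part_free he
  haveI := s59t_part_free he₀
  set ρX := s59t_partRep ρ (hρ e) with hρX
  set resX : s59t_part (a₀ e) →ₗ[R] s59t_part (a e) :=
    s59t_partMap (ε := a₀ e) (ε' := a e) res (hres e) with hresX
  set corX : s59t_part (a e) →ₗ[R] s59t_part (a₀ e) :=
    s59t_partMap (ε := a e) (ε' := a₀ e) cor (hcor e) with hcorX
  have hNX : ∀ x, resX (corX x) = ∑ δ, ρX δ x := by
    intro x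
    apply Subtype.ext
    rw [Submodule.coe_sum]
    exact hN x.1
  have hCX : ∀ δ x, corX (ρX δ x) = corX x := fun δ x => Subtype.ext (hC δ x.1)
  -- operators preserve `𝔪 Y`
  have hpres : ∀ (t : 𝕋) (y : Y), y ∈ (maximalIdeal R • ⊤ : Submodule R Y) →
      a t y ∈ (maximalIdeal R • ⊤ : Submodule R Y) := fun t y hy =>
    Submodule.smul_top_le_comap_smul_top (maximalIdeal R) (a t) hy
  have hpres₀ : ∀ (t : 𝕋) (y : Y₀), y ∈ (maximalIdeal R • ⊤ : Submodule R Y₀) →
      a₀ t y ∈ (maximalIdeal R • ⊤ : Submodule R Y₀) := fun t y hy =>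
    Submodule.smul_top_le_comap_smul_top (maximalIdeal R) (a₀ t) hy
  -- (E)
  have hEX : ∀ x : s59t_part (a e),
      (∀ δ, ρX δ x - x ∈ (maximalIdeal R • ⊤ : Submodule R (s59t_part (a e)))) →
      ∃ y : s59t_part (a₀ e),
        x - resX y ∈ (maximalIdeal R • ⊤ : Submodule R (s59t_part (a e))) := by
    intro x hx
    have hx' : ∀ δ, ρ δ (x : Y) - (x : Y) ∈ (maximalIdeal R • ⊤ : Submodule R Y) := fun δ =>
      (s59t_part_smul_top_iff (maximalIdeal R) he _).mp (hx δ)
    obtain ⟨y, hy⟩ := hEXT x.1 hx'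
    refine ⟨s59t_proj (a₀ e) (a₀ η₁ y), ?_⟩
    rw [s59t_part_smul_top_iff (maximalIdeal R) he]
    have h3 : ((x - resX (s59t_proj (a₀ e) (a₀ η₁ y)) : s59t_part (a e)) : Y) =
        a (e * η₁) (a θ₁ (x : Y) - res y) := by
      rw [Submodule.coe_sub, hresX, s59t_partMap_coe, s59t_proj_coe, map_sub, hres]
      congr 1
      · have hxe : a e (x : Y) = x := (s59t_mem_part he _).mp x.2
        have : a (e * η₁) (a θ₁ (x : Y)) = a (η₁ * θ₁ * e) (x : Y) := by
          rw [← Module.End.mul_apply, ← map_mul]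
          congr 2
          ring
        rw [this, h₁, hxe]
      · rw [map_mul]
        rfl
    rw [h3]
    exact hpres _ _ hy
  -- (S)
  have hSX : Function.Surjective corX := by
    rw [← LinearMap.range_eq_top]
    apply top_le_iff.mp
    refine Submodule.le_of_le_smul_of_le_jacobson_bot (I := maximalIdeal R)
      (Module.Finite.fg_top) ?_ ?_
    · rw [IsLocalRing.jacobson_eq_maximalIdeal ⊥ bot_ne_top]
    · intro y _
      obtain ⟨x, hx⟩ := hCOR y.1
      have hye : a₀ e (y : Y₀) = y := (s59t_mem_part he₀ _).mp y.2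
      have h3 : a₀ (e * η₂) (a₀ θ₂ (y : Y₀) - cor x) =
          ((y - corX (s59t_proj (a e) (a η₂ x)) : s59t_part (a₀ e)) : Y₀) := by
        rw [Submodule.coe_sub, hcorX, s59t_partMap_coe, s59t_proj_coe, map_sub, hcor]
        congr 1
        · have : a₀ (e * η₂) (a₀ θ₂ (y : Y₀)) = a₀ (η₂ * θ₂ * e) (y : Y₀) := by
            rw [← Module.End.mul_apply, ← map_mul]
            congr 2
            ring
          rw [this, h₂, hye]
        · rw [map_mul]
          rfl
      have h4 : y - corX (s59t_proj (a e) (a η₂ x)) ∈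
          (maximalIdeal R • ⊤ : Submodule R (s59t_part (a₀ e))) := by
        rw [s59t_part_smul_top_iff (maximalIdeal R) he₀, ← h3]
        exact hpres₀ _ _ hx
      have h5 : y = corX (s59t_proj (a e) (a η₂ x)) + (y - corX (s59t_proj (a e) (a η₂ x))) := by
        abel
      rw [h5]
      exact Submodule.add_mem_sup (LinearMap.mem_range_self _ _) h4
  obtain ⟨d, b, hb, hd, hk⟩ := s59t_TW_core (p := p) hΔ ρX resX corX hNX hCX hEX hSX
  exact ⟨d, b, hb, hd, hSX, hk⟩

end Wrap

end Fermat.Agent.Lib.S59
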