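/-
Programme (R) = S59, node (H2) (helper8), file 16: **the concrete (H2) theorem**.

`𝒪` a DVR with finite residue field `k` of characteristic `p` odd; `Y = H(Γ_H, 𝒪)`,
`Y₀ = H(Γ₀(N), 𝒪)` (finite free over `𝒪`); `Δ = Γ₀(N)/Γ_H` a `p`-group acting on `Y` by the diamond
operators; a commutative ring `𝕋` acting on `Y`, `Y₀` compatibly with `res`, `cor`, `⟨δ⟩`, an
element `t_ℓ` acting as `T_ℓ` (`ℓ ∤ N`), an idempotent `e` on whose part `t_ℓ² - (ℓ+1)²` is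
invertible ("`𝔪` is not Eisenstein").  Then (`s59t_H2`): `e Y` is free over `𝒪[Δ]` of rank
`rank_𝒪 e Y₀`, and `cor : e Y → e Y₀` is surjective with kernel the augmentation submodule.
-/
import Mathlib
import Fermat.Agent.Lib.S59.TDia
import Fermat.Agent.Lib.S59.TWrap

set_option autoImplicit false
set_option linter.unusedSectionVars false
set_option linter.style.haveILetI false

noncomputable section

namespace Fermat.Agent.Lib.S59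

open Matrix MatrixGroups OnePoint ModularCurve.Period CongruenceSubgroup IsLocalRing
open Fermat.Agent.Lib.S29 Fermat.Agent.Lib.S48 Fermat.Agent.Lib.S41
open scoped BigOperators

/-! ### `H(Γ, 𝒪)` is finite free -/

section FinFree

variable {G : Type*} [Group G] (𝒪 : Type*) [CommRing 𝒪]

/-- `Hom(G, 𝒪)` is a finite `𝒪`-module if `G` is finitely generated and `𝒪` noetherian. -/
theorem s59t_finite_hom [Group.FG G] [IsNoetherianRing 𝒪] :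
    Module.Finite 𝒪 (Additive G →+ 𝒪) := by
  obtain ⟨S, hS⟩ := Group.fg_def.mp (inferInstance : Group.FG G)
  let ev : (Additive G →+ 𝒪) →ₗ[𝒪] ({x // x ∈ S} → 𝒪) :=
    { toFun := fun φ g => φ (Additive.ofMul (g : G))
      map_add' := fun _ _ => rfl
      map_smul' := fun _ _ => rfl }
  have hinj : Function.Injective ev := by
    intro φ φ' h
    refine s29s_hom_ext_of_closure hS fun g hg => ?_
    exact congrFun h ⟨g, Finset.mem_coe.mp hg⟩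
  exact Module.Finite.of_injective ev hinj

theorem s59t_isTorsionFree_hom [IsDomain 𝒪] : Module.IsTorsionFree 𝒪 (Additive G →+ 𝒪) :=
  Function.Injective.moduleIsTorsionFree (fun f => (f : Additive G → 𝒪)) DFunLike.coe_injective
    (fun _ _ => rfl)

variable {Γ : Subgroup SL(2, ℤ)}

theorem s59t_Hpar_finite [Group.FG Γ] [IsNoetherianRing 𝒪] :
    Module.Finite 𝒪 (s48h_Hpar 𝒪 Γ 𝒪) := by
  haveI : Module.Finite 𝒪 (Additive Γ →+ 𝒪) := s59t_finite_hom 𝒪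
  infer_instance

theorem s59t_Hpar_free [Group.FG Γ] [IsDomain 𝒪] [IsPrincipalIdealRing 𝒪] :
    Module.Free 𝒪 (s48h_Hpar 𝒪 Γ 𝒪) := by
  haveI := s59t_Hpar_finite 𝒪 (Γ := Γ)
  haveI : Module.IsTorsionFree 𝒪 (Additive Γ →+ 𝒪) := s59t_isTorsionFree_hom 𝒪
  exact Module.free_of_finite_type_torsion_free'

theorem s59t_Hpar_eq (R : Type*) [Semiring R] (N : ℕ) (A : Type*) [AddCommGroup A] [Module R A] :
    s29h_Hpar R N A = s48h_Hpar R (Gamma0 N) A := rfl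

end FinFree

/-! ### The theorem -/

section Main

variable {𝒪 : Type*} [CommRing 𝒪] [IsDomain 𝒪] [IsDiscreteValuationRing 𝒪]
  [Finite (ResidueField 𝒪)]
  (N : ℕ) [NeZero N] (H : Subgroup (ZMod N)ˣ)
  (ℓ : ℕ) [Fact ℓ.Prime] (hℓN : ¬ ℓ ∣ N) {σ : SL(2, ℤ)} (hσ : σ ∈ Gamma0 N)
  (hσ11 : ((σ 1 1 : ℤ) : ZMod N) = (ℓ : ZMod N))

local notation "kk" => ResidueField 𝒪
local notation "ππ" => RingHom.toAddMonoidHom (residue 𝒪)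

/-- **(EXT) modulo `𝔪`** on `H(Γ_H, 𝒪)`. -/
theorem s59t_EXT_mod (p : ℕ) [Fact p.Prime] [CharP (ResidueField 𝒪) p] (hPF : s59t_PF N H)
    (x : s48h_Hpar 𝒪 (s48h_GammaH N H) 𝒪)
    (hx : ∀ δ, s59t_rho N H 𝒪 𝒪 δ x - x ∈
      (maximalIdeal 𝒪 • ⊤ : Submodule 𝒪 (s48h_Hpar 𝒪 (s48h_GammaH N H) 𝒪))) :
    ∃ y : s29h_Hpar 𝒪 N 𝒪,
      ((s48h_TpDatum H hℓN σ hσ hσ11).heckeHpar 𝒪 x - ((ℓ : 𝒪) + 1) • x) -
        s59t_resHpar N H 𝒪 𝒪 y ∈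
        (maximalIdeal 𝒪 • ⊤ : Submodule 𝒪 (s48h_Hpar 𝒪 (s48h_GammaH N H) 𝒪)) := by
  classical
  haveI : Fintype (SL(2, ℤ) ⧸ Gamma0 N) := Fintype.ofFinite _
  obtain ⟨ϖ, hϖ⟩ := IsDiscreteValuationRing.exists_irreducible 𝒪
  have hm : maximalIdeal 𝒪 = Ideal.span {ϖ} :=
    (IsDiscreteValuationRing.irreducible_iff_uniformizer ϖ).mp hϖ
  have hϖ0 : ϖ ≠ 0 := hϖ.ne_zero
  -- the reduction of `x`
  set xb : Additive (s48h_GammaH N H) →+ kk := (ππ).comp (x : _ →+ 𝒪) with hxb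
  have hxbH : xb ∈ s48h_Hpar kk (s48h_GammaH N H) kk :=
    s59t_comp_mem_Hpar (R := 𝒪) (S := kk) _ x.2
  have hinv : ∀ (τ : SL(2, ℤ)) (hτ : τ ∈ Gamma0 N), s48h_diamondH H τ hτ kk xb = xb := by
    intro τ hτ
    have h1 := (s59t_mem_smul_top_iff ϖ hϖ0 hm _).mp
      (hx (QuotientGroup.mk (⟨τ, hτ⟩ : Gamma0 N))⁻¹)
    rw [Submodule.coe_sub, AddMonoidHom.comp_sub, s59t_rho_mk_inv, sub_eq_zero] at h1
    exact ((s48h_diamondDatum H τ hτ).heckeHom_comp ππ (x : _ →+ 𝒪)).trans h1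
  obtain ⟨ψb, hψb, hres⟩ := s59t_ext_Hpar hPF hℓN hσ hσ11 (R := kk) xb hxbH hinv
  obtain ⟨ψ, hψ, hψψ⟩ := s59t_lift_local (residue 𝒪) residue_surjective p
    (Γ := Gamma0 N) (s41g_neg_one_mem N) ψb hψb
  refine ⟨⟨ψ, hψ⟩, ?_⟩
  rw [s59t_mem_smul_top_iff ϖ hϖ0 hm]
  rw [Submodule.coe_sub, Submodule.coe_sub, Submodule.coe_smul, s48h_MatDatum.heckeHpar_coe,
    s59t_resHpar_coe, AddMonoidHom.comp_sub, AddMonoidHom.comp_sub, ← s59t_res_comp, hψψ, hres,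
    ← (s48h_TpDatum H hℓN σ hσ hσ11).heckeHom_comp]
  rw [sub_eq_zero]
  congr 1
  refine AddMonoidHom.ext fun γ => ?_
  rw [AddMonoidHom.comp_apply, AddMonoidHom.smul_apply, AddMonoidHom.smul_apply, smul_eq_mul]
  show residue 𝒪 (((ℓ : 𝒪) + 1) * _) = _
  rw [map_mul, map_add, map_natCast, map_one, nsmul_eq_mul]
  push_cast
  rfl

include hℓN in
/-- **(COR) modulo `𝔪`** on `H(Γ₀(N), 𝒪)`. -/
theorem s59t_COR_mod (p : ℕ) [Fact p.Prime] [CharP (ResidueField 𝒪) p] (hp2 : p ≠ 2) (hneg : (-1 : SL(2, ℤ)) ∈ s48h_GammaH N H)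
    (hPF : s59t_PF N H) (y : s29h_Hpar 𝒪 N 𝒪) :
    ∃ x : s48h_Hpar 𝒪 (s48h_GammaH N H) 𝒪,
      (s29h_heckeHpar N ℓ 𝒪 𝒪 (s29h_heckeHpar N ℓ 𝒪 𝒪 y) -
        (((ℓ : 𝒪) + 1) * ((ℓ : 𝒪) + 1)) • y) - s59t_corHpar N H 𝒪 𝒪 hPF x ∈
        (maximalIdeal 𝒪 • ⊤ : Submodule 𝒪 (s29h_Hpar 𝒪 N 𝒪)) := by
  classical
  obtain ⟨ϖ, hϖ⟩ := IsDiscreteValuationRing.exists_irreducible 𝒪
  have hm : maximalIdeal 𝒪 = Ideal.span {ϖ} :=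
    (IsDiscreteValuationRing.irreducible_iff_uniformizer ϖ).mp hϖ
  have hϖ0 : ϖ ≠ 0 := hϖ.ne_zero
  set yb : Additive (Gamma0 N) →+ kk := (ππ).comp (y : _ →+ 𝒪) with hyb
  have hybH : yb ∈ s29h_Hpar kk N kk :=
    s59t_comp_mem_Hpar (Γ := Gamma0 N) (R := 𝒪) (S := kk) _ y.2
  obtain ⟨χb, hχb, hcor⟩ := s59t_cor_field N H p ℓ hℓN hp2 hneg hPF yb hybH
  obtain ⟨χ, hχ, hχχ⟩ := s59t_lift_local (residue 𝒪) residue_surjective p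
    (Γ := s48h_GammaH N H) hneg χb hχb
  refine ⟨⟨χ, hχ⟩, ?_⟩
  have key := s59t_mem_smul_top_iff (Γ := Gamma0 N) ϖ hϖ0 hm
  refine (key _).mpr ?_
  show (ππ).comp ((s29h_heckeHom N ℓ 𝒪 (s29h_heckeHom N ℓ 𝒪 (y : _ →+ 𝒪)) -
    (((ℓ : 𝒪) + 1) * ((ℓ : 𝒪) + 1)) • (y : _ →+ 𝒪)) - s59t_corH N H 𝒪 χ) = 0
  rw [AddMonoidHom.comp_sub, AddMonoidHom.comp_sub, ← s59t_corH_comp, hχχ, hcor,
    ← s29h_heckeHom_comp, ← s29h_heckeHom_comp, sub_eq_zero]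
  congr 1
  refine AddMonoidHom.ext fun γ => ?_
  rw [AddMonoidHom.comp_apply, AddMonoidHom.smul_apply, AddMonoidHom.smul_apply, smul_eq_mul]
  show residue 𝒪 ((((ℓ : 𝒪) + 1) * ((ℓ : 𝒪) + 1)) * _) = _
  rw [map_mul, map_mul, map_add, map_natCast, map_one, nsmul_eq_mul]
  push_cast
  rfl

set_option maxHeartbeats 1600000 in
/-- **(H2)**: freeness of the localised Taylor–Wiles module over `𝒪[Δ]` and control. -/
theorem s59t_H2 (p : ℕ) [Fact p.Prime] [CharP (ResidueField 𝒪) p] (hp2 : p ≠ 2)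
    (hneg : (-1 : SL(2, ℤ)) ∈ s48h_GammaH N H) (hPF : s59t_PF N H)
    (hΔ : IsPGroup p (s59t_Delta N H))
    {𝕋 : Type*} [CommRing 𝕋]
    (a : 𝕋 →+* Module.End 𝒪 (s48h_Hpar 𝒪 (s48h_GammaH N H) 𝒪))
    (a₀ : 𝕋 →+* Module.End 𝒪 (s29h_Hpar 𝒪 N 𝒪))
    (hres : ∀ t y, a t (s59t_resHpar N H 𝒪 𝒪 y) = s59t_resHpar N H 𝒪 𝒪 (a₀ t y))
    (hcor : ∀ t x, a₀ t (s59t_corHpar N H 𝒪 𝒪 hPF x) = s59t_corHpar N H 𝒪 𝒪 hPF (a t x))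
    (hρ : ∀ t δ x, a t (s59t_rho N H 𝒪 𝒪 δ x) = s59t_rho N H 𝒪 𝒪 δ (a t x))
    (tℓ : 𝕋) (htℓ : a tℓ = (s48h_TpDatum H hℓN σ hσ hσ11).heckeHpar 𝒪)
    (htℓ₀ : a₀ tℓ = s29h_heckeHpar N ℓ 𝒪 𝒪)
    (e η : 𝕋) (he : a e * a e = a e) (he₀ : a₀ e * a₀ e = a₀ e)
    (hη : a (η * (tℓ ^ 2 - ((ℓ : 𝕋) + 1) ^ 2) * e) = a e)
    (hη₀ : a₀ (η * (tℓ ^ 2 - ((ℓ : 𝕋) + 1) ^ 2) * e) = a₀ e) :
    ∃ (d : ℕ) (b : Fin d → s59t_part (a e)),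
      Function.Bijective (s59t_evalMap (s59t_partRep (s59t_rho N H 𝒪 𝒪) (hρ e)) b) ∧
      Module.finrank 𝒪 (s59t_part (a₀ e)) = d ∧
      Function.Surjective
        (s59t_partMap (ε := a e) (ε' := a₀ e) (s59t_corHpar N H 𝒪 𝒪 hPF) (hcor e)) ∧
      LinearMap.ker
        (s59t_partMap (ε := a e) (ε' := a₀ e) (s59t_corHpar N H 𝒪 𝒪 hPF) (hcor e)) =
        Submodule.span 𝒪 {z | ∃ δ x, z = s59t_partRep (s59t_rho N H 𝒪 𝒪) (hρ e) δ x - x} := by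
  classical
  haveI : Module.Finite 𝒪 (s48h_Hpar 𝒪 (s48h_GammaH N H) 𝒪) := s59t_Hpar_finite 𝒪
  haveI : Module.Free 𝒪 (s48h_Hpar 𝒪 (s48h_GammaH N H) 𝒪) := s59t_Hpar_free 𝒪
  haveI : Module.Finite 𝒪 (s29h_Hpar 𝒪 N 𝒪) := s59t_Hpar_finite 𝒪 (Γ := Gamma0 N)
  haveI : Module.Free 𝒪 (s29h_Hpar 𝒪 N 𝒪) := s59t_Hpar_free 𝒪 (Γ := Gamma0 N)
  have hnat : ∀ (M : Type _) [AddCommGroup M] [Module 𝒪 M] (x : M),
      ((ℓ : Module.End 𝒪 M) + 1) x = ((ℓ : 𝒪) + 1) • x := by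
    intro M _ _ x
    rw [LinearMap.add_apply, Module.End.natCast_apply, Module.End.one_apply, add_smul, one_smul,
      Nat.cast_smul_eq_nsmul]
  refine s59t_TW_wrap (p := p) hΔ (s59t_rho N H 𝒪 𝒪) (s59t_resHpar N H 𝒪 𝒪)
    (s59t_corHpar N H 𝒪 𝒪 hPF) (s59t_rho_norm N H 𝒪 𝒪 hPF) (s59t_rho_cor N H 𝒪 𝒪 hPF)
    a a₀ hres hcor hρ e (tℓ - ((ℓ : 𝕋) + 1)) (η * (tℓ + ((ℓ : 𝕋) + 1)))
    (tℓ ^ 2 - ((ℓ : 𝕋) + 1) ^ 2) η he he₀ ?_ hη₀ ?_ ?_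
  · have : η * (tℓ + ((ℓ : 𝕋) + 1)) * (tℓ - ((ℓ : 𝕋) + 1)) * e =
        η * (tℓ ^ 2 - ((ℓ : 𝕋) + 1) ^ 2) * e := by ring
    rw [this]
    exact hη
  · intro x hx
    obtain ⟨y, hy⟩ := s59t_EXT_mod N H ℓ hℓN hσ hσ11 p hPF x hx
    refine ⟨y, ?_⟩
    have h1 : a (tℓ - ((ℓ : 𝕋) + 1)) x =
        (s48h_TpDatum H hℓN σ hσ hσ11).heckeHpar 𝒪 x - ((ℓ : 𝒪) + 1) • x := by
      rw [map_sub, map_add, map_natCast, map_one, htℓ, LinearMap.sub_apply, hnat]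
    rw [h1]
    exact hy
  · intro y
    obtain ⟨x, hx⟩ := s59t_COR_mod N H ℓ hℓN p hp2 hneg hPF y
    refine ⟨x, ?_⟩
    have h1 : a₀ (tℓ ^ 2 - ((ℓ : 𝕋) + 1) ^ 2) y =
        s29h_heckeHpar N ℓ 𝒪 𝒪 (s29h_heckeHpar N ℓ 𝒪 𝒪 y) -
          (((ℓ : 𝒪) + 1) * ((ℓ : 𝒪) + 1)) • y := by
      rw [map_sub, map_pow, map_pow, map_add, map_natCast, map_one, htℓ₀, LinearMap.sub_apply,
        pow_two, pow_two, Module.End.mul_apply, Module.End.mul_apply, hnat, hnat, smul_smul]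
    rw [h1]
    exact hx

end Main

end Fermat.Agent.Lib.S59
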