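/-
Programme (R) = S59, node (H2) (helper8), file 28: **Mackey for the transfer** (one double coset).
`G ⊴ G₀`, `K ⊴ K₀` subgroups of a group with `K₀ ≤ G₀`, `K = G ∩ K₀`, `G₀ = G · K₀`
(so `K₀ / K ≅ G₀ / G`).  Then for `χ : G → A`:  `cor_{K → K₀} (χ|_K) = (cor_{G → G₀} χ)|_{K₀}`.
Mathlib only (+ `TTrans`).
-/
import Mathlib
import Fermat.Agent.Lib.S59.TTrans

set_option autoImplicit false
set_option linter.unusedSectionVars false

open scoped BigOperators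

namespace Fermat.Agent.Lib.S59

section Mackey

variable {𝔾 : Type*} [Group 𝔾] {G G₀ K K₀ : Subgroup 𝔾}
  [hn : (G.subgroupOf G₀).Normal] [hn' : (K.subgroupOf K₀).Normal]
  (hK₀ : K₀ ≤ G₀) (hKG : K ≤ G) (hK : ∀ k ∈ K₀, k ∈ G → k ∈ K)
  (hsurj : ∀ g ∈ G₀, ∃ k ∈ K₀, g⁻¹ * k ∈ G)

/-- the map `K₀ / K → G₀ / G`. -/
noncomputable def s59t_quotMap : s59t_Quot K K₀ →* s59t_Quot G G₀ :=
  QuotientGroup.map (K.subgroupOf K₀) (G.subgroupOf G₀) (Subgroup.inclusion hK₀) (by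
    intro k hk
    rw [Subgroup.mem_comap, Subgroup.mem_subgroupOf]
    exact hKG (Subgroup.mem_subgroupOf.mp hk))

theorem s59t_quotMap_mk (k : K₀) :
    s59t_quotMap hK₀ hKG (QuotientGroup.mk k : s59t_Quot K K₀) =
      (QuotientGroup.mk (⟨(k : 𝔾), hK₀ k.2⟩ : G₀) : s59t_Quot G G₀) := rfl

include hK in
theorem s59t_quotMap_injective : Function.Injective (s59t_quotMap (G := G) hK₀ hKG) := by
  rw [injective_iff_map_eq_one]
  intro δ hδ
  obtain ⟨k, rfl⟩ := QuotientGroup.mk_surjective δ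
  rw [s59t_quotMap_mk, ← s59t_mem_iff_mk] at hδ
  rw [← s59t_mem_iff_mk]
  exact hK _ k.2 hδ

include hsurj in
theorem s59t_quotMap_surjective : Function.Surjective (s59t_quotMap (G := G) hK₀ hKG) := by
  intro δ
  obtain ⟨g, rfl⟩ := QuotientGroup.mk_surjective δ
  obtain ⟨k, hk, hgk⟩ := hsurj g g.2
  refine ⟨QuotientGroup.mk (⟨k, hk⟩ : K₀), ?_⟩
  rw [s59t_quotMap_mk]
  symm
  rw [QuotientGroup.eq, Subgroup.mem_subgroupOf]
  exact hgk

variable [Fintype (s59t_Quot G G₀)] [Fintype (s59t_Quot K K₀)] {A : Type*} [AddCommGroup A]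

include hK hsurj in
/-- **Mackey**: `cor_{K → K₀} (χ|_K) = (cor_{G → G₀} χ)|_{K₀}`. -/
theorem s59t_cor_mackey (hGG₀ : G ≤ G₀) (χ : Additive G →+ A) (k : K₀) :
    s59t_cor K K₀ A (χ.comp (MonoidHom.toAdditive (Subgroup.inclusion hKG))) (Additive.ofMul k) =
      s59t_cor G G₀ A χ (Additive.ofMul (⟨(k : 𝔾), hK₀ k.2⟩ : G₀)) := by
  classical
  set φ := s59t_quotMap (G := G) hK₀ hKG with hφ
  let e : s59t_Quot K K₀ ≃ s59t_Quot G G₀ :=
    Equiv.ofBijective φ ⟨s59t_quotMap_injective hK₀ hKG hK, s59t_quotMap_surjective hK₀ hKG hsurj⟩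
  set k₀ : G₀ := ⟨(k : 𝔾), hK₀ k.2⟩ with hk₀
  rw [s59t_cor_apply, s59t_cor_apply, ← Equiv.sum_comp e]
  -- the correction terms
  have ha : ∀ δ' : s59t_Quot K K₀,
      ((s59t_rep (φ δ') : G₀) : 𝔾) * ((s59t_rep δ' : K₀) : 𝔾)⁻¹ ∈ G := by
    intro δ'
    have h1 : (QuotientGroup.mk (s59t_rep (φ δ')) : s59t_Quot G G₀) =
        QuotientGroup.mk (⟨((s59t_rep δ' : K₀) : 𝔾), hK₀ (s59t_rep δ').2⟩ : G₀) := by
      rw [s59t_mk_rep, ← s59t_quotMap_mk hK₀ hKG, s59t_mk_rep]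
    rw [QuotientGroup.eq, Subgroup.mem_subgroupOf] at h1
    -- `r⁻¹ r' ∈ G`; conjugate
    have h2 := s59t_conj_mem hGG₀ (s59t_rep (φ δ')) ⟨_, G.inv_mem h1⟩
    have e2 : ((s59t_rep (φ δ') : G₀) : 𝔾) *
        ((((s59t_rep (φ δ') : G₀)⁻¹ * (⟨((s59t_rep δ' : K₀) : 𝔾), hK₀ (s59t_rep δ').2⟩ : G₀) :
          G₀) : 𝔾))⁻¹ * ((s59t_rep (φ δ') : G₀) : 𝔾)⁻¹ =
        ((s59t_rep (φ δ') : G₀) : 𝔾) * ((s59t_rep δ' : K₀) : 𝔾)⁻¹ := by
      push_cast
      group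
    exact e2 ▸ h2
  let aa : s59t_Quot K K₀ → G := fun δ' => ⟨_, ha δ'⟩
  have key : ∀ δ' : s59t_Quot K K₀,
      χ (Additive.ofMul (s59t_fam k₀ (e δ'))) =
        χ (Additive.ofMul (aa δ')) +
          (χ.comp (MonoidHom.toAdditive (Subgroup.inclusion hKG)))
            (Additive.ofMul (s59t_fam k δ')) -
          χ (Additive.ofMul (aa (δ' * QuotientGroup.mk k))) := by
    intro δ'
    have hmul : e δ' * (QuotientGroup.mk k₀ : s59t_Quot G G₀) = e (δ' * QuotientGroup.mk k) := by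
      show φ δ' * _ = φ (δ' * QuotientGroup.mk k)
      rw [map_mul, s59t_quotMap_mk]
    have e1 : s59t_fam k₀ (e δ') * aa (δ' * QuotientGroup.mk k) =
        aa δ' * Subgroup.inclusion hKG (s59t_fam k δ') := by
      apply Subtype.ext
      show ((s59t_fam k₀ (e δ') : G) : 𝔾) *
          (((s59t_rep (φ (δ' * QuotientGroup.mk k)) : G₀) : 𝔾) *
            ((s59t_rep (δ' * QuotientGroup.mk k) : K₀) : 𝔾)⁻¹) =
        (((s59t_rep (φ δ') : G₀) : 𝔾) * ((s59t_rep δ' : K₀) : 𝔾)⁻¹) *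
          ((s59t_fam k δ' : K) : 𝔾)
      rw [s59t_fam_coe, s59t_fam_coe, hmul]
      show ((s59t_rep (φ δ') : G₀) : 𝔾) * (k : 𝔾) *
          ((s59t_rep (φ (δ' * QuotientGroup.mk k)) : G₀) : 𝔾)⁻¹ * _ = _
      group
    have e1' := congrArg (fun y : G => χ (Additive.ofMul y)) e1
    simp only [ofMul_mul, map_add] at e1'
    rw [AddMonoidHom.comp_apply]
    show _ = _ + χ (Additive.ofMul (Subgroup.inclusion hKG (s59t_fam k δ'))) - _
    rw [← e1']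
    abel
  rw [Finset.sum_congr rfl fun δ' _ => key δ']
  rw [Finset.sum_sub_distrib, Finset.sum_add_distrib]
  have s1 : ∑ δ' : s59t_Quot K K₀, χ (Additive.ofMul (aa (δ' * QuotientGroup.mk k))) =
      ∑ δ' : s59t_Quot K K₀, χ (Additive.ofMul (aa δ')) :=
    Equiv.sum_comp (Equiv.mulRight (QuotientGroup.mk k : s59t_Quot K K₀))
      (fun δ' => χ (Additive.ofMul (aa δ')))
  rw [s1]
  abel

end Mackey

end Fermat.Agent.Lib.S59
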