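/-
Programme (R) = S59, node (H2) (helper8), file 29: **restriction `Γ_H(N) → Γ_{H'}(N q)`**, `H'` the
preimage of `H ≤ (ℤ/N)ˣ` in `(ℤ/Nq)ˣ` (`s59t_Hup`), i.e. `Γ_{H'}(Nq) = Γ_H(N) ∩ Γ₀(Nq)`.

* `s59t_resLev N q H A : Hom(Γ_H(N), A) → Hom(Γ_{H'}(Nq), A)`;
* `s59t_resLev_datum` : it commutes with Hecke data having the same representatives and
  permutations at the two levels (`T_ℓ` with a common `σ`, diamonds) ;
* `s59t_resLev_mackey` : `cor_{Nq} ∘ resLev = res_A ∘ cor_N` (`res_A = s41l_resA N q`);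
* `s59t_resLev_mem_Hpar`.
-/
import Mathlib
import Fermat.Agent.Lib.S48.DescAsm
import Fermat.Agent.Lib.S41.LVSL
import Fermat.Agent.Lib.S59.TCor
import Fermat.Agent.Lib.S59.TDia
import Fermat.Agent.Lib.S59.TMackey

set_option autoImplicit false
set_option linter.unusedSectionVars false
set_option linter.style.haveILetI false

noncomputable section

namespace Fermat.Agent.Lib.S59

open Matrix.SpecialLinearGroup CongruenceSubgroup ModularCurve.Period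
open Fermat.Agent.Lib.ES Fermat.Agent.Lib.S29 Fermat.Agent.Lib.S48 Fermat.Agent.Lib.S41
open scoped MatrixGroups OnePoint BigOperators

local notation "Mat2" => Matrix (Fin 2) (Fin 2) ℤ

section Level

variable (N q : ℕ) (H : Subgroup (ZMod N)ˣ)

/-- the preimage of `H` in `(ℤ/Nq)ˣ`. -/
def s59t_Hup : Subgroup (ZMod (N * q))ˣ := H.comap (ZMod.unitsMap (Dvd.intro q rfl))

variable {N q H}

theorem s59t_Gamma0_mul_le : Gamma0 (N * q) ≤ Gamma0 N := by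
  intro γ hγ
  rw [Gamma0_mem] at hγ ⊢
  have h1 : ((N * q : ℕ) : ℤ) ∣ γ 1 0 := (ZMod.intCast_zmod_eq_zero_iff_dvd _ _).mp hγ
  exact (ZMod.intCast_zmod_eq_zero_iff_dvd _ _).mpr
    ((Int.natCast_dvd_natCast.mpr (Dvd.intro q rfl)).trans h1)

theorem s59t_cast_unitsMap (u : (ZMod (N * q))ˣ) :
    ((ZMod.unitsMap (Dvd.intro q rfl : N ∣ N * q) u : (ZMod N)ˣ) : ZMod N) =
      ZMod.castHom (Dvd.intro q rfl : N ∣ N * q) (ZMod N) (u : ZMod (N * q)) := rfl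

theorem s59t_GammaHup_le : s48h_GammaH (N * q) (s59t_Hup N q H) ≤ s48h_GammaH N H := by
  rintro γ ⟨hγ, u, hu, hγu⟩
  refine ⟨s59t_Gamma0_mul_le hγ, ZMod.unitsMap (Dvd.intro q rfl) u, hu, ?_⟩
  rw [s59t_cast_unitsMap, ← hγu, map_intCast]

theorem s59t_mem_GammaHup [NeZero (N * q)] {γ : SL(2, ℤ)} (hγ : γ ∈ Gamma0 (N * q))
    (h : γ ∈ s48h_GammaH N H) : γ ∈ s48h_GammaH (N * q) (s59t_Hup N q H) := by
  obtain ⟨-, u, hu, hγu⟩ := h
  refine ⟨hγ, s59t_unit ⟨γ, hγ⟩, ?_, rfl⟩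
  show ZMod.unitsMap (Dvd.intro q rfl) (s59t_unit ⟨γ, hγ⟩) ∈ H
  have h1 : ZMod.unitsMap (Dvd.intro q rfl : N ∣ N * q) (s59t_unit ⟨γ, hγ⟩) = u := by
    apply Units.ext
    rw [s59t_cast_unitsMap, s59t_unit_coe, map_intCast]
    exact hγu
  rw [h1]
  exact hu

/-- `Γ₀(N) = Γ_H(N) · Γ₀(Nq)`. -/
theorem s59t_level_surj [NeZero N] [NeZero (N * q)] (g : SL(2, ℤ)) (hg : g ∈ Gamma0 N) :
    ∃ k ∈ Gamma0 (N * q), g⁻¹ * k ∈ s48h_GammaH N H := by
  obtain ⟨u', hu'⟩ := ZMod.unitsMap_surjective (Dvd.intro q rfl : N ∣ N * q)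
    (s59t_unit ⟨g, hg⟩)
  obtain ⟨k, hk, hk11⟩ := s48desc_exists_sigma (N * q) u'
  refine ⟨k, hk, s48h_mem_GammaH_of_one (mul_mem (inv_mem hg) (s59t_Gamma0_mul_le hk)) ?_⟩
  rw [s48h_lowerRight_mul (inv_mem hg)]
  have h1 : ((k 1 1 : ℤ) : ZMod N) = ((g 1 1 : ℤ) : ZMod N) := by
    have h2 := congrArg (fun u : (ZMod N)ˣ => (u : ZMod N)) hu'
    simp only [s59t_cast_unitsMap, s59t_unit_coe] at h2
    rw [← hk11, map_intCast] at h2
    exact h2
  rw [h1]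
  exact s48h_lowerRight_inv_mul hg

variable (N q H)

/-- **restriction to the level `N q`.** -/
def s59t_resLev (A : Type*) [AddCommGroup A] :
    (Additive (s48h_GammaH N H) →+ A) →+
      (Additive (s48h_GammaH (N * q) (s59t_Hup N q H)) →+ A) where
  toFun χ := χ.comp (MonoidHom.toAdditive (Subgroup.inclusion s59t_GammaHup_le))
  map_zero' := rfl
  map_add' _ _ := rfl

variable {N q H} {A : Type*} [AddCommGroup A]

theorem s59t_resLev_apply (χ : Additive (s48h_GammaH N H) →+ A)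
    (h : s48h_GammaH (N * q) (s59t_Hup N q H)) :
    s59t_resLev N q H A χ (Additive.ofMul h) =
      χ (Additive.ofMul ⟨(h : SL(2, ℤ)), s59t_GammaHup_le h.2⟩) := rfl

/-- naturality in the coefficients. -/
theorem s59t_resLev_comp {B : Type*} [AddCommGroup B] (f : A →+ B)
    (χ : Additive (s48h_GammaH N H) →+ A) :
    s59t_resLev N q H B (f.comp χ) = f.comp (s59t_resLev N q H A χ) := rfl

/-- **restriction commutes with Hecke data with the same representatives and permutations.** -/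
theorem s59t_resLev_datum {X : Type*} [Fintype X] (D : s48h_MatDatum (s48h_GammaH N H) X)
    (D' : s48h_MatDatum (s48h_GammaH (N * q) (s59t_Hup N q H)) X)
    (hα : ∀ x, D'.α x = D.α x)
    (hperm : ∀ (h : s48h_GammaH (N * q) (s59t_Hup N q H)) x,
      D'.perm h x = D.perm ⟨(h : SL(2, ℤ)), s59t_GammaHup_le h.2⟩ x)
    (χ : Additive (s48h_GammaH N H) →+ A) :
    s59t_resLev N q H A (D.heckeHom A χ) = D'.heckeHom A (s59t_resLev N q H A χ) := by
  refine AddMonoidHom.ext fun a => ?_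
  obtain ⟨h, rfl⟩ := Additive.ofMul.surjective a
  rw [s59t_resLev_apply, D.heckeHom_apply, D'.heckeHom_apply]
  refine Finset.sum_congr rfl fun x _ => ?_
  rw [s59t_resLev_apply]
  congr 2
  refine (D.fam_unique ⟨(h : SL(2, ℤ)), s59t_GammaHup_le h.2⟩ x
    ⟨((D'.fam h x : s48h_GammaH (N * q) (s59t_Hup N q H)) : SL(2, ℤ)),
      s59t_GammaHup_le (D'.fam h x).2⟩ ?_).symm
  rw [← hα, ← hα, ← hperm]
  exact D'.fam_spec h x

/-- restriction preserves `H(A)`. -/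
theorem s59t_resLev_mem_Hpar {R : Type*} [Semiring R] [Module R A]
    {χ : Additive (s48h_GammaH N H) →+ A} (hχ : χ ∈ s48h_Hpar R (s48h_GammaH N H) A) :
    s59t_resLev N q H A χ ∈ s48h_Hpar R (s48h_GammaH (N * q) (s59t_Hup N q H)) A := by
  rw [s48h_mem_Hpar_iff] at hχ ⊢
  refine ⟨fun γ hγ => ?_, fun γ hγ => ?_⟩
  · exact hχ.1 ⟨(γ : SL(2, ℤ)), s59t_GammaHup_le γ.2⟩ hγ
  · refine hχ.2 ⟨(γ : SL(2, ℤ)), s59t_GammaHup_le γ.2⟩ ?_
    obtain ⟨n, hn, hγn⟩ := hγ.exists_pow_eq_one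
    refine isOfFinOrder_iff_pow_eq_one.mpr ⟨n, hn, ?_⟩
    apply Subtype.ext
    have := congrArg (fun g : s48h_GammaH (N * q) (s59t_Hup N q H) => (g : SL(2, ℤ))) hγn
    simpa using this

/-- **Mackey**: `cor_{Nq} ∘ resLev = res_A ∘ cor_N`. -/
theorem s59t_resLev_mackey [NeZero N] [NeZero (N * q)] [Fact q.Prime]
    (χ : Additive (s48h_GammaH N H) →+ A) :
    s59t_corH (N * q) (s59t_Hup N q H) A (s59t_resLev N q H A χ) =
      s41l_resA N q A (s59t_corH N H A χ) := by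
  refine AddMonoidHom.ext fun a => ?_
  obtain ⟨k, rfl⟩ := Additive.ofMul.surjective a
  rw [s41l_resA_apply]
  have h1 : s41l_incl N q k = ⟨(k : SL(2, ℤ)), s59t_Gamma0_mul_le k.2⟩ :=
    Subtype.ext (s41l_incl_coe N q k)
  rw [h1]
  exact s59t_cor_mackey (G := s48h_GammaH N H) (G₀ := Gamma0 N)
    (K := s48h_GammaH (N * q) (s59t_Hup N q H)) (K₀ := Gamma0 (N * q))
    s59t_Gamma0_mul_le s59t_GammaHup_le (fun k hk hG => s59t_mem_GammaHup hk hG)
    (fun g hg => s59t_level_surj g hg) s48h_GammaH_le_Gamma0 χ k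

/-- restriction commutes with `T_ℓ`, `ℓ ∤ N q` (common `σ ∈ Γ₀(N q)`). -/
theorem s59t_resLev_Tp {ℓ : ℕ} [Fact ℓ.Prime] (hℓ : ¬ ℓ ∣ N * q) (hℓN : ¬ ℓ ∣ N) {σ : SL(2, ℤ)}
    (hσ : σ ∈ Gamma0 (N * q)) (hσ11 : ((σ 1 1 : ℤ) : ZMod (N * q)) = (ℓ : ZMod (N * q)))
    (hσN : σ ∈ Gamma0 N) (hσ11N : ((σ 1 1 : ℤ) : ZMod N) = (ℓ : ZMod N))
    (χ : Additive (s48h_GammaH N H) →+ A) :
    s59t_resLev N q H A (s48h_TpH H hℓN σ hσN hσ11N A χ) =
      s48h_TpH (s59t_Hup N q H) hℓ σ hσ hσ11 A (s59t_resLev N q H A χ) :=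
  s59t_resLev_datum (s48h_TpDatum H hℓN σ hσN hσ11N)
    (s48h_TpDatum (s59t_Hup N q H) hℓ σ hσ hσ11) (fun _ => rfl) (fun _ _ => rfl) χ

/-- restriction commutes with the diamond operators of `τ ∈ Γ₀(N q)`. -/
theorem s59t_resLev_diamond {τ : SL(2, ℤ)} (hτ : τ ∈ Gamma0 (N * q)) (hτN : τ ∈ Gamma0 N)
    (χ : Additive (s48h_GammaH N H) →+ A) :
    s59t_resLev N q H A (s48h_diamondH H τ hτN A χ) =
      s48h_diamondH (s59t_Hup N q H) τ hτ A (s59t_resLev N q H A χ) :=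
  s59t_resLev_datum (s48h_diamondDatum H τ hτN) (s48h_diamondDatum (s59t_Hup N q H) τ hτ)
    (fun _ => rfl) (fun _ _ => rfl) χ

end Level

section LevelLin

variable (N q : ℕ) (H : Subgroup (ZMod N)ˣ) (R : Type*) [CommRing R] (A : Type*) [AddCommGroup A]
  [Module R A]

/-- restriction to the level `N q` as an `R`-linear map between the `H`'s. -/
def s59t_resLevHpar : s48h_Hpar R (s48h_GammaH N H) A →ₗ[R]
    s48h_Hpar R (s48h_GammaH (N * q) (s59t_Hup N q H)) A where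
  toFun χ := ⟨s59t_resLev N q H A χ.1, s59t_resLev_mem_Hpar (R := R) χ.2⟩
  map_add' _ _ := rfl
  map_smul' _ _ := rfl

theorem s59t_resLevHpar_coe (χ : s48h_Hpar R (s48h_GammaH N H) A) :
    ((s59t_resLevHpar N q H R A χ : s48h_Hpar R (s48h_GammaH (N * q) (s59t_Hup N q H)) A) :
      Additive (s48h_GammaH (N * q) (s59t_Hup N q H)) →+ A) = s59t_resLev N q H A χ.1 := rfl

/-- the isomorphism `Δ' = Γ₀(Nq)/Γ_{H'} → Δ = Γ₀(N)/Γ_H` (as a homomorphism). -/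
def s59t_DeltaMap : s59t_Delta (N * q) (s59t_Hup N q H) →* s59t_Delta N H :=
  s59t_quotMap (G := s48h_GammaH N H) (G₀ := Gamma0 N)
    (K := s48h_GammaH (N * q) (s59t_Hup N q H)) (K₀ := Gamma0 (N * q))
    s59t_Gamma0_mul_le s59t_GammaHup_le

theorem s59t_DeltaMap_bijective [NeZero N] [NeZero (N * q)] :
    Function.Bijective (s59t_DeltaMap N q H) :=
  ⟨s59t_quotMap_injective s59t_Gamma0_mul_le s59t_GammaHup_le
      (fun _ hk hG => s59t_mem_GammaHup hk hG),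
    s59t_quotMap_surjective s59t_Gamma0_mul_le s59t_GammaHup_le
      (fun g hg => s59t_level_surj g hg)⟩

/-- **restriction is equivariant for the diamond representations.** -/
theorem s59t_resLevHpar_rho [NeZero N] [NeZero (N * q)]
    (δ' : s59t_Delta (N * q) (s59t_Hup N q H)) (χ : s48h_Hpar R (s48h_GammaH N H) A) :
    s59t_resLevHpar N q H R A (s59t_rho N H R A (s59t_DeltaMap N q H δ') χ) =
      s59t_rho (N * q) (s59t_Hup N q H) R A δ' (s59t_resLevHpar N q H R A χ) := by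
  obtain ⟨τ, rfl⟩ := QuotientGroup.mk_surjective δ'
  apply Subtype.ext
  rw [s59t_resLevHpar_coe, s59t_rho_mk]
  show s59t_resLev N q H A ((s59t_rho N H R A (QuotientGroup.mk
    (⟨(τ : SL(2, ℤ)), s59t_Gamma0_mul_le τ.2⟩ : Gamma0 N)) χ :
      s48h_Hpar R (s48h_GammaH N H) A) : Additive (s48h_GammaH N H) →+ A) = _
  rw [s59t_rho_mk]
  exact s59t_resLev_diamond (inv_mem τ.2) _ χ.1

end LevelLin

end Fermat.Agent.Lib.S59
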