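/-
Programme (R) = S59 (helper3), W-files, file 4: **the operator `U_q` on `Hom(Γ_H, A)`** (`q ∣ N`
prime) and its commutation with `T_p` (`p ∤ N`), `U_q'` (`q' ∣ N`, `q' ≠ q`) and the diamonds.

* `s59w_UqDatum H hqN`: index set `ZMod q`, representatives `(1 j; 0 q)`;
* `s59w_UqH H hqN A`: the operator; `s59w_UqH_TpH_comm`, `s59w_UqH_comm`, `s59w_diamond_UqH_comm`.
-/
import Mathlib
import Fermat.Agent.Lib.S48.HHomH
import Fermat.Agent.Lib.ES.HeckeFamilies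
import Fermat.Agent.Lib.S59.WComm

set_option autoImplicit false
set_option linter.unusedSectionVars false

noncomputable section

namespace Fermat.Agent.Lib.S59

open Matrix.SpecialLinearGroup CongruenceSubgroup
open Fermat.Agent.Lib.S48 Fermat.Agent.Lib.ES
open P2MW.S_ModularForm_heckeT_slash_eq_self_of_mem_Gamma0.ModularForm.HeckeSlashInvariance
open scoped MatrixGroups OnePoint

local notation "Mat2" => Matrix (Fin 2) (Fin 2) ℤ

variable {N : ℕ} {H : Subgroup (ZMod N)ˣ} {q : ℕ} [Fact q.Prime]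

instance s59w_neZero_of_prime : NeZero q := ⟨(Fact.out : q.Prime).ne_zero⟩

theorem s59w_heckeMatZ_eq (j : ZMod q) : heckeMatZ q j.val = heckeRepZ q (j : OnePoint (ZMod q)) :=
  rfl

theorem s59w_hc (hqN : q ∣ N) {g : SL(2, ℤ)} (hg : g ∈ Gamma0 N) : ((g 1 0 : ℤ) : ZMod q) = 0 := by
  have hcN : (N : ℤ) ∣ g 1 0 :=
    (ZMod.intCast_zmod_eq_zero_iff_dvd _ _).mp (Gamma0_mem.mp hg)
  exact (ZMod.intCast_zmod_eq_zero_iff_dvd _ _).mpr ((Int.natCast_dvd_natCast.mpr hqN).trans hcN)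

/-- The coset permutation of `U_q` with the lower right entries. -/
theorem s59w_heckeMatZ_mul_lr (hqN : q ∣ N) (g : SL(2, ℤ)) (hg : g ∈ Gamma0 N) (j : ZMod q) :
    ∃ g' : SL(2, ℤ), g' ∈ Gamma0 N ∧ ((g' 1 1 : ℤ) : ZMod N) = ((g 1 1 : ℤ) : ZMod N) ∧
      heckeMatZ q j.val * (g : Mat2) = (g' : Mat2) * heckeMatZ q (affinePerm g (s59w_hc hqN hg) j).val := by
  obtain ⟨hc, g', hg', hmul⟩ := heckeMatZ_mul hqN g hg j
  refine ⟨g', hg', ?_, hmul⟩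
  have hq0 : (q : ℤ) ≠ 0 := by exact_mod_cast (Fact.out : q.Prime).ne_zero
  obtain ⟨jj, hjj⟩ : ∃ jj : ℕ, jj = (affinePerm g hc j).val := ⟨_, rfl⟩
  obtain ⟨j0, hj0⟩ : ∃ j0 : ℕ, j0 = j.val := ⟨_, rfl⟩
  rw [← hjj, ← hj0] at hmul
  have h10 := congrFun (congrFun hmul 1) 0
  have h11 := congrFun (congrFun hmul 1) 1
  simp [heckeMatZ, Matrix.mul_apply, Fin.sum_univ_two] at h10 h11
  have hcN : (N : ℤ) ∣ g 1 0 :=
    (ZMod.intCast_zmod_eq_zero_iff_dvd _ _).mp (Gamma0_mem.mp hg)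
  obtain ⟨e, he⟩ := hcN
  have h3 : g' 1 1 = g 1 1 - g 1 0 * (jj : ℤ) := by
    apply mul_left_cancel₀ hq0
    linear_combination -h11 + (jj : ℤ) * h10
  rw [h3, he]
  push_cast
  simp

/-- existence of the coset family of `U_q` on `Γ_H`. -/
theorem s59w_Uq_ex (hqN : q ∣ N) (γ : s48h_GammaH N H) (j : ZMod q) :
    ∃ g : s48h_GammaH N H, heckeMatZ q j.val * ((γ : SL(2, ℤ)) : Mat2)
      = ((g : SL(2, ℤ)) : Mat2) * heckeMatZ q (affinePerm (γ : SL(2, ℤ)) (s59w_hc hqN γ.2.1) j).val := by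
  obtain ⟨g', hg', hlr, hmul⟩ := s59w_heckeMatZ_mul_lr hqN (γ : SL(2, ℤ)) γ.2.1 j
  exact ⟨⟨g', s48h_mem_GammaH_of_eq γ.2 hg' hlr⟩, hmul⟩

theorem s59w_heckeMatZ_inj (A A' : Mat2) (hcop : IsCoprime A'.det (q : ℤ)) (j j' : ZMod q)
    (h : A * heckeMatZ q j.val = A' * heckeMatZ q j'.val) : j = j' := by
  rw [s59w_heckeMatZ_eq, s59w_heckeMatZ_eq] at h
  exact OnePoint.coe_injective (s59w_ker_lemma A A' hcop _ _ h)

/-- **The datum of `U_q` on `Γ_H`**, `q ∣ N`. -/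
def s59w_UqDatum (H : Subgroup (ZMod N)ˣ) (hqN : q ∣ N) :
    s48h_MatDatum (s48h_GammaH N H) (ZMod q) where
  α j := heckeMatZ q j.val
  det_ne j := by
    rw [det_heckeMatZ]
    exact_mod_cast (Fact.out : q.Prime).ne_zero
  perm γ := affinePerm (γ : SL(2, ℤ)) (s59w_hc hqN γ.2.1)
  perm_mul γ δ j := by
    obtain ⟨g₁, h₁⟩ := s59w_Uq_ex hqN γ j
    obtain ⟨g₂, h₂⟩ := s59w_Uq_ex hqN δ (affinePerm (γ : SL(2, ℤ)) (s59w_hc hqN γ.2.1) j)
    obtain ⟨g₃, h₃⟩ := s59w_Uq_ex hqN (γ * δ) j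
    refine s59w_heckeMatZ_inj (((g₃ : s48h_GammaH N H) : SL(2, ℤ)) : Mat2)
      ((((g₁ * g₂ : s48h_GammaH N H)) : SL(2, ℤ)) : Mat2) ?_ _ _ ?_
    · rw [Matrix.SpecialLinearGroup.det_coe]
      exact isCoprime_one_left
    · rw [← h₃, MulMemClass.coe_mul, MulMemClass.coe_mul, Matrix.SpecialLinearGroup.coe_mul,
        Matrix.SpecialLinearGroup.coe_mul, ← Matrix.mul_assoc, h₁, Matrix.mul_assoc, h₂,
        Matrix.mul_assoc]
  ex γ j := s59w_Uq_ex hqN γ j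

/-- **`U_q` on `Hom(Γ_H, A)`.** -/
def s59w_UqH (H : Subgroup (ZMod N)ˣ) (hqN : q ∣ N) (A : Type*) [AddCommGroup A] :
    (Additive (s48h_GammaH N H) →+ A) →+ (Additive (s48h_GammaH N H) →+ A) :=
  (s59w_UqDatum H hqN).heckeHom A

theorem s59w_UqDatum_α (hqN : q ∣ N) (j : ZMod q) :
    (s59w_UqDatum H hqN).α j = heckeMatZ q j.val := rfl

theorem s59w_Uq_irr (hqN : q ∣ N) : s59w_Irr (s59w_UqDatum H hqN) (q : ℤ) := by
  intro A A' j j' hcop h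
  exact s59w_heckeMatZ_inj A A' hcop j j' h

theorem s59w_sfac_eq_one {y : OnePoint (ZMod q)} (h : s48h_sfac q y = 1) :
    ∃ a : ZMod q, y = (a : OnePoint (ZMod q)) := by
  induction y using OnePoint.rec with
  | infty =>
    exfalso
    rw [s48h_sfac_infty] at h
    exact (Fact.out : q.Prime).one_lt.ne' h
  | coe a => exact ⟨a, rfl⟩

/-! ### `U_q` and `T_p` -/

section UT

variable {p : ℕ} [Fact p.Prime]

theorem s59w_Tp_Uq_match (hpq : p ≠ q) (hpN : ¬ p ∣ N) (hqN : q ∣ N) (σp : SL(2, ℤ))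
    (hσp : σp ∈ Gamma0 N) (hσp11 : ((σp 1 1 : ℤ) : ZMod N) = (p : ZMod N))
    (x : OnePoint (ZMod p)) (j : ZMod q) :
    ∃ (j' : ZMod q) (x' : OnePoint (ZMod p)) (k : s48h_GammaH N H),
      (s48h_TpDatum H hpN σp hσp hσp11).α x * (s59w_UqDatum H hqN).α j
        = ((k : SL(2, ℤ)) : Mat2) * ((s59w_UqDatum H hqN).α j'
            * (s48h_TpDatum H hpN σp hσp hσp11).α x') := by
  obtain ⟨y₂, x₂, t, htab, hsy, hsx⟩ := s59w_table hpq x (j : OnePoint (ZMod q))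
  obtain ⟨a, rfl⟩ := s59w_sfac_eq_one (by rw [hsy]; rfl)
  set τ := s48h_tw p σp x₂ with hτ
  have hτm : τ ∈ Gamma0 N := s48h_tw_mem hσp x₂
  set j' := (affinePerm τ (s59w_hc hqN hτm)).symm a with hj'
  obtain ⟨g₃, hg₃, hlr₃, hmul₃⟩ := s59w_heckeMatZ_mul_lr hqN τ hτm j'
  have ha : affinePerm τ (s59w_hc hqN hτm) j' = a := by rw [hj', Equiv.apply_symm_apply]
  rw [ha] at hmul₃
  obtain ⟨c, hc⟩ : ∃ c : SL(2, ℤ), c = s48h_tw p σp x * s59w_unip t := ⟨_, rfl⟩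
  have hc1 : c ∈ Gamma0 N := hc ▸ mul_mem (s48h_tw_mem hσp x) (s59w_unip_mem N t)
  have hk : c * g₃⁻¹ ∈ s48h_GammaH N H := by
    refine s48h_mem_GammaH_of_one (mul_mem hc1 (inv_mem hg₃)) ?_
    have hlrc : ((c 1 1 : ℤ) : ZMod N) = ((g₃ 1 1 : ℤ) : ZMod N) := by
      rw [hc, s48h_lowerRight_mul (s48h_tw_mem hσp x), s59w_unip_lr, mul_one,
        s48h_tw_lowerRight hσp11, hlr₃, hτ, s48h_tw_lowerRight hσp11, hsx]
    rw [s48h_lowerRight_mul hc1, hlrc, mul_comm]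
    exact s48h_lowerRight_inv_mul hg₃
  refine ⟨j', x₂, ⟨c * g₃⁻¹, hk⟩, ?_⟩
  rw [s59w_TpDatum_α, s59w_TpDatum_α, s59w_UqDatum_α, s59w_UqDatum_α]
  show _ = ((c * g₃⁻¹ : SL(2, ℤ)) : Mat2) * _
  have hL : (s48h_tw p σp x : Mat2) * heckeRepZ p x * heckeMatZ q j.val
      = (c : Mat2) * (heckeMatZ q a.val * heckeRepZ p x₂) := by
    rw [Matrix.mul_assoc, s59w_heckeMatZ_eq, htab, hc, Matrix.SpecialLinearGroup.coe_mul,
      Matrix.mul_assoc]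
    rfl
  have hR : heckeMatZ q j'.val * ((τ : Mat2) * heckeRepZ p x₂)
      = (g₃ : Mat2) * (heckeMatZ q a.val * heckeRepZ p x₂) := by
    rw [← Matrix.mul_assoc, hmul₃, Matrix.mul_assoc]
  rw [hL, hR, s59w_coe_mul_inv_mul]

/-- **`U_q` and `T_p` commute.** -/
theorem s59w_UqH_TpH_comm (hpN : ¬ p ∣ N) (hqN : q ∣ N) (σp : SL(2, ℤ))
    (hσp : σp ∈ Gamma0 N) (hσp11 : ((σp 1 1 : ℤ) : ZMod N) = (p : ZMod N))
    {A : Type*} [AddCommGroup A] (χ : Additive (s48h_GammaH N H) →+ A) :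
    s59w_UqH H hqN A (s48h_TpH H hpN σp hσp hσp11 A χ)
      = s48h_TpH H hpN σp hσp hσp11 A (s59w_UqH H hqN A χ) := by
  have hpq : p ≠ q := by
    rintro rfl
    exact hpN hqN
  refine s59w_comm_of_match (s48h_TpDatum H hpN σp hσp hσp11) (s59w_UqDatum H hqN)
    ?_ ?_ (s59w_Tp_Uq_match hpq hpN hqN σp hσp hσp11) χ
  · refine s59w_irred_prod (s59w_Tp_irr hpN σp hσp hσp11) (s59w_Uq_irr hqN) fun x => ?_
    rw [s59w_TpDatum_det]
    exact s59w_isCoprime_primes hpq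
  · refine s59w_irred_prod (s59w_Uq_irr hqN) (s59w_Tp_irr hpN σp hσp hσp11) fun j => ?_
    rw [s59w_UqDatum_α, det_heckeMatZ]
    exact s59w_isCoprime_primes (Ne.symm hpq)

end UT

/-! ### `U_q` and `U_q'` -/

section UU

variable {q' : ℕ} [Fact q'.Prime]

theorem s59w_Uq_Uq_match (hqq : q ≠ q') (hqN : q ∣ N) (hq'N : q' ∣ N) (j : ZMod q) (j' : ZMod q') :
    ∃ (b : ZMod q') (a : ZMod q) (k : s48h_GammaH N H),
      (s59w_UqDatum H hqN).α j * (s59w_UqDatum H hq'N).α j'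
        = ((k : SL(2, ℤ)) : Mat2) * ((s59w_UqDatum H hq'N).α b * (s59w_UqDatum H hqN).α a) := by
  obtain ⟨y₂, x₂, t, htab, hsy, hsx⟩ :=
    s59w_table hqq (j : OnePoint (ZMod q)) (j' : OnePoint (ZMod q'))
  obtain ⟨b, rfl⟩ := s59w_sfac_eq_one (by rw [hsy]; rfl)
  obtain ⟨a, rfl⟩ := s59w_sfac_eq_one (by rw [hsx]; rfl)
  have hk : s59w_unip t ∈ s48h_GammaH N H :=
    s48h_mem_GammaH_of_one (s59w_unip_mem N t) (s59w_unip_lr N t)
  exact ⟨b, a, ⟨s59w_unip t, hk⟩, htab⟩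

/-- **`U_q` and `U_q'` commute.** -/
theorem s59w_UqH_comm (hqq : q ≠ q') (hqN : q ∣ N) (hq'N : q' ∣ N)
    {A : Type*} [AddCommGroup A] (χ : Additive (s48h_GammaH N H) →+ A) :
    s59w_UqH H hq'N A (s59w_UqH H hqN A χ) = s59w_UqH H hqN A (s59w_UqH H hq'N A χ) := by
  refine s59w_comm_of_match (s59w_UqDatum H hqN) (s59w_UqDatum H hq'N)
    ?_ ?_ (s59w_Uq_Uq_match hqq hqN hq'N) χ
  · refine s59w_irred_prod (s59w_Uq_irr hqN) (s59w_Uq_irr hq'N) fun j => ?_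
    rw [s59w_UqDatum_α, det_heckeMatZ]
    exact s59w_isCoprime_primes hqq
  · refine s59w_irred_prod (s59w_Uq_irr hq'N) (s59w_Uq_irr hqN) fun j => ?_
    rw [s59w_UqDatum_α, det_heckeMatZ]
    exact s59w_isCoprime_primes (Ne.symm hqq)

end UU

/-! ### `U_q` and the diamonds -/

theorem s59w_diamond_irr {σ : SL(2, ℤ)} (hσ : σ ∈ Gamma0 N) (m : ℤ) :
    s59w_Irr (s48h_diamondDatum H σ hσ) m := fun _ _ _ _ _ _ => rfl

theorem s59w_diamond_Uq_match (hqN : q ∣ N) {σ : SL(2, ℤ)} (hσ : σ ∈ Gamma0 N) (u : Unit)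
    (j : ZMod q) :
    ∃ (j' : ZMod q) (u' : Unit) (k : s48h_GammaH N H),
      (s48h_diamondDatum H σ hσ).α u * (s59w_UqDatum H hqN).α j
        = ((k : SL(2, ℤ)) : Mat2) * ((s59w_UqDatum H hqN).α j' * (s48h_diamondDatum H σ hσ).α u') := by
  set j' := (affinePerm σ (s59w_hc hqN hσ)).symm j with hj'
  obtain ⟨g, hg, hlr, hmul⟩ := s59w_heckeMatZ_mul_lr hqN σ hσ j'
  have ha : affinePerm σ (s59w_hc hqN hσ) j' = j := by rw [hj', Equiv.apply_symm_apply]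
  rw [ha] at hmul
  have hk : σ * g⁻¹ ∈ s48h_GammaH N H := by
    refine s48h_mem_GammaH_of_one (mul_mem hσ (inv_mem hg)) ?_
    rw [s48h_lowerRight_mul hσ, ← hlr, mul_comm]
    exact s48h_lowerRight_inv_mul hg
  refine ⟨j', (), ⟨σ * g⁻¹, hk⟩, ?_⟩
  show (σ : Mat2) * heckeMatZ q j.val
    = ((σ * g⁻¹ : SL(2, ℤ)) : Mat2) * (heckeMatZ q j'.val * (σ : Mat2))
  rw [hmul, s59w_coe_mul_inv_mul]

/-- **`U_q` and `⟨σ⟩` commute.** -/
theorem s59w_diamond_UqH_comm (hqN : q ∣ N) {σ : SL(2, ℤ)} (hσ : σ ∈ Gamma0 N)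
    {A : Type*} [AddCommGroup A] (χ : Additive (s48h_GammaH N H) →+ A) :
    s59w_UqH H hqN A (s48h_diamondH H σ hσ A χ) = s48h_diamondH H σ hσ A (s59w_UqH H hqN A χ) := by
  refine s59w_comm_of_match (s48h_diamondDatum H σ hσ) (s59w_UqDatum H hqN)
    ?_ ?_ (s59w_diamond_Uq_match hqN hσ) χ
  · refine s59w_irred_prod (s59w_diamond_irr hσ 1) (s59w_Uq_irr hqN) fun _ => ?_
    show IsCoprime ((σ : Mat2)).det _
    rw [Matrix.SpecialLinearGroup.det_coe]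
    exact isCoprime_one_left
  · exact s59w_irred_prod (s59w_Uq_irr hqN) (s59w_diamond_irr hσ 1) fun _ => isCoprime_one_right

end Fermat.Agent.Lib.S59
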