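/-
Programme (R) = S59, node (H2) (helper8), file 26: **restriction and transfer commute with every
class-preserving Hecke datum** (`s48h_MatDatum`), in particular with helper3's `U_q`
(`s59w_UqDatum`, `q ∣ N`), and the bridge to `s41l_U` at level `M q`.

* `s59t_DatumCompat D₀ D` : `D₀` on `Γ₀(N)`, `D` on `Γ_H`, same representatives, same permutations,
  the coset family of `D₀` preserves the lower right entry mod `N`;
* `s59t_res_datum` : `res ∘ D₀ = D ∘ res`;  `s59t_cor_datum` : `cor ∘ D = D₀ ∘ cor`;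
* `s59t_UqDatum0 N hqN` : the `U_q` datum on `Γ₀(N)`; `s59t_Uq_compat`;
* `s59t_Uq0_eq_s41l` : on `Γ₀(M q)` it is `s41l_U M q`.
-/
import Mathlib
import Fermat.Agent.Lib.S59.TCor
import Fermat.Agent.Lib.S59.WUq
import Fermat.Agent.Lib.S41.LVFam

set_option autoImplicit false
set_option linter.unusedSectionVars false

noncomputable section

namespace Fermat.Agent.Lib.S59

open Matrix.SpecialLinearGroup CongruenceSubgroup ModularCurve.Period
open Fermat.Agent.Lib.ES Fermat.Agent.Lib.S29 Fermat.Agent.Lib.S48 Fermat.Agent.Lib.S41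
open P2MW.S_ModularForm_heckeT_slash_eq_self_of_mem_Gamma0.ModularForm.HeckeSlashInvariance
open scoped MatrixGroups OnePoint BigOperators

local notation "Mat2" => Matrix (Fin 2) (Fin 2) ℤ

section Datum

variable {N : ℕ} {H : Subgroup (ZMod N)ˣ} {X : Type*}

/-- compatibility of a datum on `Γ_H` with a datum on `Γ₀(N)`. -/
structure s59t_DatumCompat (D₀ : s48h_MatDatum (Gamma0 N) X)
    (D : s48h_MatDatum (s48h_GammaH N H) X) : Prop where
  α : ∀ x, D.α x = D₀.α x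
  perm : ∀ (h : s48h_GammaH N H) x,
    D.perm h x = D₀.perm ⟨(h : SL(2, ℤ)), s48h_GammaH_le_Gamma0 h.2⟩ x
  cls : ∀ (g : Gamma0 N) x,
    ((((D₀.fam g x : Gamma0 N) : SL(2, ℤ)) 1 1 : ℤ) : ZMod N) = (((g : SL(2, ℤ)) 1 1 : ℤ) : ZMod N)

variable {D₀ : s48h_MatDatum (Gamma0 N) X} {D : s48h_MatDatum (s48h_GammaH N H) X}

theorem s59t_DatumCompat.fam_mem (hc : s59t_DatumCompat D₀ D) (h : s48h_GammaH N H) (x : X) :
    ((D₀.fam ⟨(h : SL(2, ℤ)), s48h_GammaH_le_Gamma0 h.2⟩ x : Gamma0 N) : SL(2, ℤ)) ∈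
      s48h_GammaH N H :=
  s48h_mem_GammaH_of_eq h.2 (D₀.fam _ x).2 (hc.cls _ x)

/-- the two coset families agree on `Γ_H`. -/
theorem s59t_DatumCompat.fam_eq (hc : s59t_DatumCompat D₀ D) (h : s48h_GammaH N H) (x : X) :
    D.fam h x = ⟨_, hc.fam_mem h x⟩ := by
  refine (D.fam_unique h x _ ?_).symm
  rw [hc.α, hc.α, hc.perm]
  exact D₀.fam_spec ⟨(h : SL(2, ℤ)), s48h_GammaH_le_Gamma0 h.2⟩ x

theorem s59t_DatumCompat.inv_mul_mem (hc : s59t_DatumCompat D₀ D) (g : Gamma0 N) (x : X) :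
    ((g : SL(2, ℤ)))⁻¹ * ((D₀.fam g x : Gamma0 N) : SL(2, ℤ)) ∈ s48h_GammaH N H := by
  refine s48h_mem_GammaH_of_one (mul_mem (inv_mem g.2) (D₀.fam g x).2) ?_
  rw [s48h_lowerRight_mul (inv_mem g.2), hc.cls]
  exact s48h_lowerRight_inv_mul g.2

variable [Fintype X] {A : Type*} [AddCommGroup A]

/-- **`res ∘ D₀ = D ∘ res`.** -/
theorem s59t_res_datum (hc : s59t_DatumCompat D₀ D) (ψ : Additive (Gamma0 N) →+ A) :
    s59t_res N H A (D₀.heckeHom A ψ) = D.heckeHom A (s59t_res N H A ψ) := by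
  refine AddMonoidHom.ext fun a => ?_
  obtain ⟨h, rfl⟩ := Additive.ofMul.surjective a
  rw [s59t_res_apply, D₀.heckeHom_apply, D.heckeHom_apply]
  refine Finset.sum_congr rfl fun x _ => ?_
  rw [hc.fam_eq h x, s59t_res_apply]

variable [NeZero N]

/-- **`cor ∘ D = D₀ ∘ cor`.** -/
theorem s59t_cor_datum (hc : s59t_DatumCompat D₀ D) (χ : Additive (s48h_GammaH N H) →+ A) :
    s59t_corH N H A (D.heckeHom A χ) = D₀.heckeHom A (s59t_corH N H A χ) := by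
  have key := s59t_cor_comm (G := s48h_GammaH N H) (G₀ := Gamma0 N)
    (s48h_GammaH_le_Gamma0 (N := N) (H := H))
    (fun g => D₀.perm g) (fun g x => D₀.fam g x) (fun g g' x => D₀.fam_mul g g' x)
    (fun g x => hc.inv_mul_mem g x) χ
  have e1 : s59t_sumHom (fun h : s48h_GammaH N H => D₀.perm
      (⟨(h : SL(2, ℤ)), s48h_GammaH_le_Gamma0 h.2⟩ : Gamma0 N))
      (s59t_FG s48h_GammaH_le_Gamma0 (fun g x => D₀.fam g x) (fun g x => hc.inv_mul_mem g x))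
      (s59t_FG_mul s48h_GammaH_le_Gamma0 (fun g => D₀.perm g) (fun g x => D₀.fam g x)
        (fun g g' x => D₀.fam_mul g g' x) (fun g x => hc.inv_mul_mem g x)) χ =
      D.heckeHom A χ := by
    refine AddMonoidHom.ext fun a => ?_
    obtain ⟨h, rfl⟩ := Additive.ofMul.surjective a
    rw [s59t_sumHom_apply, D.heckeHom_apply]
    refine Finset.sum_congr rfl fun x _ => ?_
    rw [hc.fam_eq h x]
    rfl
  have e2 : s59t_sumHom (fun g : Gamma0 N => D₀.perm g) (fun g x => D₀.fam g x)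
      (fun g g' x => D₀.fam_mul g g' x) (s59t_cor (s48h_GammaH N H) (Gamma0 N) A χ) =
      D₀.heckeHom A (s59t_corH N H A χ) := by
    refine AddMonoidHom.ext fun a => ?_
    obtain ⟨g, rfl⟩ := Additive.ofMul.surjective a
    rw [s59t_sumHom_apply, D₀.heckeHom_apply]
    rfl
  rw [← e1, ← e2]
  exact key

end Datum

/-! ### `U_q` -/

section Uq

variable {N : ℕ} {H : Subgroup (ZMod N)ˣ} {q : ℕ} [Fact q.Prime]

theorem s59t_Uq_ex0 (hqN : q ∣ N) (γ : Gamma0 N) (j : ZMod q) :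
    ∃ g : Gamma0 N, heckeMatZ q j.val * ((γ : SL(2, ℤ)) : Mat2) =
      ((g : SL(2, ℤ)) : Mat2) *
        heckeMatZ q (affinePerm (γ : SL(2, ℤ)) (s59w_hc hqN γ.2) j).val := by
  obtain ⟨g', hg', -, hmul⟩ := s59w_heckeMatZ_mul_lr hqN (γ : SL(2, ℤ)) γ.2 j
  exact ⟨⟨g', hg'⟩, hmul⟩

/-- **the datum of `U_q` on `Γ₀(N)`**, `q ∣ N`. -/
def s59t_UqDatum0 (N : ℕ) (hqN : q ∣ N) : s48h_MatDatum (Gamma0 N) (ZMod q) where
  α j := heckeMatZ q j.val
  det_ne j := by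
    rw [det_heckeMatZ]
    exact_mod_cast (Fact.out : q.Prime).ne_zero
  perm γ := affinePerm (γ : SL(2, ℤ)) (s59w_hc hqN γ.2)
  perm_mul γ δ j := by
    obtain ⟨g₁, h₁⟩ := s59t_Uq_ex0 hqN γ j
    obtain ⟨g₂, h₂⟩ := s59t_Uq_ex0 hqN δ (affinePerm (γ : SL(2, ℤ)) (s59w_hc hqN γ.2) j)
    obtain ⟨g₃, h₃⟩ := s59t_Uq_ex0 hqN (γ * δ) j
    refine s59w_heckeMatZ_inj (((g₃ : Gamma0 N) : SL(2, ℤ)) : Mat2)
      ((((g₁ * g₂ : Gamma0 N)) : SL(2, ℤ)) : Mat2) ?_ _ _ ?_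
    · rw [Matrix.SpecialLinearGroup.det_coe]
      exact isCoprime_one_left
    · rw [← h₃, MulMemClass.coe_mul, MulMemClass.coe_mul, Matrix.SpecialLinearGroup.coe_mul,
        Matrix.SpecialLinearGroup.coe_mul, ← Matrix.mul_assoc, h₁, Matrix.mul_assoc, h₂,
        Matrix.mul_assoc]
  ex γ j := s59t_Uq_ex0 hqN γ j

/-- helper3's `U_q` datum on `Γ_H` is compatible with the one on `Γ₀(N)`. -/
theorem s59t_Uq_compat (hqN : q ∣ N) :
    s59t_DatumCompat (s59t_UqDatum0 N hqN) (s59w_UqDatum H hqN) where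
  α _ := rfl
  perm _ _ := rfl
  cls g j := by
    obtain ⟨g', hg', hlr, hmul⟩ := s59w_heckeMatZ_mul_lr hqN (g : SL(2, ℤ)) g.2 j
    have h1 : (⟨g', hg'⟩ : Gamma0 N) = (s59t_UqDatum0 N hqN).fam g j :=
      (s59t_UqDatum0 N hqN).fam_unique g j ⟨g', hg'⟩ hmul
    rw [← h1]
    exact hlr

variable {A : Type*} [AddCommGroup A]

/-- **`res ∘ U_q = U_q ∘ res`.** -/
theorem s59t_res_Uq (hqN : q ∣ N) (ψ : Additive (Gamma0 N) →+ A) :
    s59t_res N H A ((s59t_UqDatum0 N hqN).heckeHom A ψ) =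
      s59w_UqH H hqN A (s59t_res N H A ψ) :=
  s59t_res_datum (s59t_Uq_compat hqN) ψ

/-- **`cor ∘ U_q = U_q ∘ cor`.** -/
theorem s59t_cor_Uq [NeZero N] (hqN : q ∣ N) (χ : Additive (s48h_GammaH N H) →+ A) :
    s59t_corH N H A (s59w_UqH H hqN A χ) =
      (s59t_UqDatum0 N hqN).heckeHom A (s59t_corH N H A χ) :=
  s59t_cor_datum (s59t_Uq_compat hqN) χ

/-- **on `Γ₀(M q)` the datum `U_q` computes `s41l_U M q`.** -/
theorem s59t_Uq0_eq_s41l (M : ℕ) (ψ : Additive (Gamma0 (M * q)) →+ A) :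
    (s59t_UqDatum0 (M * q) (dvd_mul_left q M)).heckeHom A ψ = s41l_U M q A ψ := by
  refine AddMonoidHom.ext fun a => ?_
  obtain ⟨γ, rfl⟩ := Additive.ofMul.surjective a
  rw [s48h_MatDatum.heckeHom_apply]
  exact (s41l_U_apply_of_family M q ψ γ
    (fun j => (s59t_UqDatum0 (M * q) (dvd_mul_left q M)).perm γ j)
    (fun j => (s59t_UqDatum0 (M * q) (dvd_mul_left q M)).fam γ j)
    (fun j => (s59t_UqDatum0 (M * q) (dvd_mul_left q M)).fam_spec γ j)).symm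

end Uq

end Fermat.Agent.Lib.S59
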