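/-
Programme (R) = S59, node (H2) (helper8), file 34: **general restriction** `Hom(G, A) → Hom(G', A)`
for subgroups `G' ≤ G ≤ SL₂(ℤ)` and the pair of levels `(N, H)`, `(N', H')` with
`Γ₀(N') ≤ Γ₀(N)`, `Γ_{H'}(N') ≤ Γ_H(N)`:
* `s59t_resG`, `s59t_resG_datum` (commutes with Hecke data having the same representatives and
  permutations), `s59t_resG_mem_Hpar`, `s59t_resGHpar`;
* `s59t_Delta_commGroup` : `Δ = Γ₀(N)/Γ_H` is commutative;
* `s59t_DeltaMap2 : Δ' → Δ`, `s59t_resG_rho` (equivariance for the diamond representations),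
  `s59t_resG_res` (restrictions commute), `s59t_rho_resHpar` (diamonds fix restrictions from
  `Γ₀(N)`), `s59t_resG_Tp`, `s59t_resG_Uq`.
-/
import Mathlib
import Fermat.Agent.Lib.S59.TLevelRes
import Fermat.Agent.Lib.S59.TUq
import Fermat.Agent.Lib.S59.TFin

set_option autoImplicit false
set_option linter.unusedSectionVars false
set_option linter.style.haveILetI false

noncomputable section

namespace Fermat.Agent.Lib.S59

open Matrix.SpecialLinearGroup CongruenceSubgroup ModularCurve.Period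
open Fermat.Agent.Lib.ES Fermat.Agent.Lib.S29 Fermat.Agent.Lib.S48 Fermat.Agent.Lib.S41
open scoped MatrixGroups OnePoint BigOperators

local notation "Mat2" => Matrix (Fin 2) (Fin 2) ℤ

section General

variable {G' G : Subgroup SL(2, ℤ)} (hle : G' ≤ G)

/-- **restriction** `Hom(G, A) → Hom(G', A)`. -/
def s59t_resG (A : Type*) [AddCommGroup A] : (Additive G →+ A) →+ (Additive G' →+ A) where
  toFun χ := χ.comp (MonoidHom.toAdditive (Subgroup.inclusion hle))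
  map_zero' := rfl
  map_add' _ _ := rfl

variable {A : Type*} [AddCommGroup A]

theorem s59t_resG_apply (χ : Additive G →+ A) (h : G') :
    s59t_resG hle A χ (Additive.ofMul h) = χ (Additive.ofMul ⟨(h : SL(2, ℤ)), hle h.2⟩) := rfl

theorem s59t_resG_comp {B : Type*} [AddCommGroup B] (f : A →+ B) (χ : Additive G →+ A) :
    s59t_resG hle B (f.comp χ) = f.comp (s59t_resG hle A χ) := rfl

theorem s59t_resG_trans {G'' : Subgroup SL(2, ℤ)} (hle' : G'' ≤ G') (χ : Additive G →+ A) :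
    s59t_resG hle' A (s59t_resG hle A χ) = s59t_resG (hle'.trans hle) A χ := rfl

/-- **restriction commutes with Hecke data with the same representatives and permutations.** -/
theorem s59t_resG_datum {X : Type*} [Fintype X] (D : s48h_MatDatum G X)
    (D' : s48h_MatDatum G' X) (hα : ∀ x, D'.α x = D.α x)
    (hperm : ∀ (h : G') x, D'.perm h x = D.perm ⟨(h : SL(2, ℤ)), hle h.2⟩ x)
    (χ : Additive G →+ A) :
    s59t_resG hle A (D.heckeHom A χ) = D'.heckeHom A (s59t_resG hle A χ) := by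
  refine AddMonoidHom.ext fun a => ?_
  obtain ⟨h, rfl⟩ := Additive.ofMul.surjective a
  rw [s59t_resG_apply, D.heckeHom_apply, D'.heckeHom_apply]
  refine Finset.sum_congr rfl fun x _ => ?_
  rw [s59t_resG_apply]
  congr 2
  refine (D.fam_unique ⟨(h : SL(2, ℤ)), hle h.2⟩ x
    ⟨((D'.fam h x : G') : SL(2, ℤ)), hle (D'.fam h x).2⟩ ?_).symm
  rw [← hα, ← hα, ← hperm]
  exact D'.fam_spec h x

/-- restriction preserves `H(A)`. -/
theorem s59t_resG_mem_Hpar {R : Type*} [Semiring R] [Module R A]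
    {χ : Additive G →+ A} (hχ : χ ∈ s48h_Hpar R G A) :
    s59t_resG hle A χ ∈ s48h_Hpar R G' A := by
  rw [s48h_mem_Hpar_iff] at hχ ⊢
  refine ⟨fun γ hγ => ?_, fun γ hγ => ?_⟩
  · exact hχ.1 ⟨(γ : SL(2, ℤ)), hle γ.2⟩ hγ
  · refine hχ.2 ⟨(γ : SL(2, ℤ)), hle γ.2⟩ ?_
    obtain ⟨n, hn, hγn⟩ := hγ.exists_pow_eq_one
    refine isOfFinOrder_iff_pow_eq_one.mpr ⟨n, hn, ?_⟩
    apply Subtype.ext
    have := congrArg (fun g : G' => (g : SL(2, ℤ))) hγn
    simpa using this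

end General

section GeneralLin

variable {G' G : Subgroup SL(2, ℤ)} (hle : G' ≤ G) (R : Type*) [CommRing R] (A : Type*)
  [AddCommGroup A] [Module R A]

/-- restriction as an `R`-linear map between the `H`'s. -/
def s59t_resGHpar : s48h_Hpar R G A →ₗ[R] s48h_Hpar R G' A where
  toFun χ := ⟨s59t_resG hle A χ.1, s59t_resG_mem_Hpar hle (R := R) χ.2⟩
  map_add' _ _ := rfl
  map_smul' _ _ := rfl

theorem s59t_resGHpar_coe (χ : s48h_Hpar R G A) :
    ((s59t_resGHpar hle R A χ : s48h_Hpar R G' A) : Additive G' →+ A) =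
      s59t_resG hle A χ.1 := rfl

end GeneralLin

/-! ### `Δ` is commutative -/

section Comm

variable (N : ℕ) [NeZero N] (H : Subgroup (ZMod N)ˣ)

instance s59t_Delta_commGroup : CommGroup (s59t_Delta N H) :=
  { (inferInstance : Group (s59t_Delta N H)) with
    mul_comm := by
      intro a b
      obtain ⟨τ, rfl⟩ := QuotientGroup.mk_surjective a
      obtain ⟨τ', rfl⟩ := QuotientGroup.mk_surjective b
      rw [← QuotientGroup.mk_mul, ← QuotientGroup.mk_mul, QuotientGroup.eq,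
        Subgroup.mem_subgroupOf, s59t_mem_GammaH_iff_unit, map_mul, map_inv, map_mul, map_mul,
        mul_comm (s59t_unitHom N τ), inv_mul_cancel]
      exact one_mem H }

end Comm

/-! ### A pair of levels -/

section LevelPair

variable {N N' : ℕ} [NeZero N] [NeZero N'] {H : Subgroup (ZMod N)ˣ} {H' : Subgroup (ZMod N')ˣ}
  (h0 : Gamma0 N' ≤ Gamma0 N) (hle : s48h_GammaH N' H' ≤ s48h_GammaH N H)

/-- the map `Δ' = Γ₀(N')/Γ_{H'} → Δ = Γ₀(N)/Γ_H`. -/
def s59t_DeltaMap2 : s59t_Delta N' H' →* s59t_Delta N H :=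
  s59t_quotMap (G := s48h_GammaH N H) (G₀ := Gamma0 N) (K := s48h_GammaH N' H')
    (K₀ := Gamma0 N') h0 hle

theorem s59t_DeltaMap2_mk (τ : Gamma0 N') :
    s59t_DeltaMap2 h0 hle (QuotientGroup.mk τ) =
      (QuotientGroup.mk (⟨(τ : SL(2, ℤ)), h0 τ.2⟩ : Gamma0 N) : s59t_Delta N H) := rfl

variable {A : Type*} [AddCommGroup A]

/-- restriction commutes with the diamond operators. -/
theorem s59t_resG_diamond {τ : SL(2, ℤ)} (hτ' : τ ∈ Gamma0 N') (hτ : τ ∈ Gamma0 N)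
    (χ : Additive (s48h_GammaH N H) →+ A) :
    s59t_resG hle A (s48h_diamondH H τ hτ A χ) =
      s48h_diamondH H' τ hτ' A (s59t_resG hle A χ) :=
  s59t_resG_datum hle (s48h_diamondDatum H τ hτ) (s48h_diamondDatum H' τ hτ')
    (fun _ => rfl) (fun _ _ => rfl) χ

/-- restriction commutes with `T_ℓ` (common `σ`). -/
theorem s59t_resG_Tp {ℓ : ℕ} [Fact ℓ.Prime] (hℓ' : ¬ ℓ ∣ N') (hℓ : ¬ ℓ ∣ N) {σ : SL(2, ℤ)}
    (hσ' : σ ∈ Gamma0 N') (hσ11' : ((σ 1 1 : ℤ) : ZMod N') = (ℓ : ZMod N'))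
    (hσ : σ ∈ Gamma0 N) (hσ11 : ((σ 1 1 : ℤ) : ZMod N) = (ℓ : ZMod N))
    (χ : Additive (s48h_GammaH N H) →+ A) :
    s59t_resG hle A (s48h_TpH H hℓ σ hσ hσ11 A χ) =
      s48h_TpH H' hℓ' σ hσ' hσ11' A (s59t_resG hle A χ) :=
  s59t_resG_datum hle (s48h_TpDatum H hℓ σ hσ hσ11) (s48h_TpDatum H' hℓ' σ hσ' hσ11')
    (fun _ => rfl) (fun _ _ => rfl) χ

/-- restriction commutes with `U_q`, `q ∣ N`. -/
theorem s59t_resG_Uq {q : ℕ} [Fact q.Prime] (hqN' : q ∣ N') (hqN : q ∣ N)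
    (χ : Additive (s48h_GammaH N H) →+ A) :
    s59t_resG hle A ((s59w_UqDatum H hqN).heckeHom A χ) =
      (s59w_UqDatum H' hqN').heckeHom A (s59t_resG hle A χ) :=
  s59t_resG_datum hle (s59w_UqDatum H hqN) (s59w_UqDatum H' hqN')
    (fun _ => rfl) (fun _ _ => rfl) χ

end LevelPair

section LevelPairLin

variable {N N' : ℕ} [NeZero N] [NeZero N'] {H : Subgroup (ZMod N)ˣ} {H' : Subgroup (ZMod N')ˣ}
  (h0 : Gamma0 N' ≤ Gamma0 N) (hle : s48h_GammaH N' H' ≤ s48h_GammaH N H)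
  (R : Type*) [CommRing R] (A : Type*) [AddCommGroup A] [Module R A]

/-- **restriction is equivariant for the diamond representations.** -/
theorem s59t_resG_rho (δ' : s59t_Delta N' H') (χ : s48h_Hpar R (s48h_GammaH N H) A) :
    s59t_resGHpar hle R A (s59t_rho N H R A (s59t_DeltaMap2 h0 hle δ') χ) =
      s59t_rho N' H' R A δ' (s59t_resGHpar hle R A χ) := by
  obtain ⟨τ, rfl⟩ := QuotientGroup.mk_surjective δ'
  apply Subtype.ext
  rw [s59t_resGHpar_coe, s59t_rho_mk, s59t_DeltaMap2_mk, s59t_rho_mk]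
  exact s59t_resG_diamond hle (inv_mem τ.2) _ χ.1

/-- restriction `H(Γ₀(N), A) → H(Γ₀(N'), A)`. -/
def s59t_res0Hpar : s29h_Hpar R N A →ₗ[R] s29h_Hpar R N' A := s59t_resGHpar h0 R A

theorem s59t_res0Hpar_coe (ψ : s29h_Hpar R N A) :
    ((s59t_res0Hpar h0 R A ψ : s29h_Hpar R N' A) : Additive (Gamma0 N') →+ A) =
      s59t_resG h0 A (ψ : Additive (Gamma0 N) →+ A) := rfl

/-- restrictions commute: `Γ_{H'}(N') ≤ Γ_H(N) ≤ Γ₀(N)` and `Γ_{H'}(N') ≤ Γ₀(N') ≤ Γ₀(N)`. -/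
theorem s59t_resG_res (ψ : s29h_Hpar R N A) :
    s59t_resGHpar hle R A (s59t_resHpar N H R A ψ) =
      s59t_resHpar N' H' R A (s59t_res0Hpar h0 R A ψ) := rfl

/-- the diamond operators fix the restrictions from `Γ₀(N)`. -/
theorem s59t_rho_resHpar (δ : s59t_Delta N H) (ψ : s29h_Hpar R N A) :
    s59t_rho N H R A δ (s59t_resHpar N H R A ψ) = s59t_resHpar N H R A ψ := by
  obtain ⟨τ, rfl⟩ := QuotientGroup.mk_surjective δ
  apply Subtype.ext
  rw [s59t_rho_mk, s59t_resHpar_coe]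
  refine AddMonoidHom.ext fun a => ?_
  obtain ⟨h, rfl⟩ := Additive.ofMul.surjective a
  rw [s48h_diamondH_apply, s59t_res_apply, s59t_res_apply]
  have hmem : (τ : SL(2, ℤ))⁻¹ * (h : SL(2, ℤ)) * ((τ : SL(2, ℤ))⁻¹)⁻¹ ∈ Gamma0 N :=
    (s48h_conj_mem_GammaH (inv_mem τ.2) h.2).1
  have e : (⟨_, hmem⟩ : Gamma0 N) = τ⁻¹ * ⟨(h : SL(2, ℤ)), h.2.1⟩ * τ := by
    apply Subtype.ext
    show (τ : SL(2, ℤ))⁻¹ * (h : SL(2, ℤ)) * ((τ : SL(2, ℤ))⁻¹)⁻¹ = _
    rw [inv_inv]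
    rfl
  show (ψ : Additive (Gamma0 N) →+ A) (Additive.ofMul (⟨_, hmem⟩ : Gamma0 N)) = _
  rw [e, ofMul_mul, ofMul_mul, map_add, map_add, ofMul_inv, map_neg]
  abel

end LevelPairLin

end Fermat.Agent.Lib.S59
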