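/-
Programme (R) = S59, node (H2) (helper8), file 39: **(b) the arithmetic of the Taylor–Wiles levels.**
Base level `(N, H)`, `H ≤ (ℤ/N)ˣ`; auxiliary modulus `D` prime to `N` (`D = ∏ Q`) with
`K ≤ (ℤ/D)ˣ`; top level `N D` with `H' = s59t_Hmul N D H K` = {`u` : `u mod N ∈ H`, `u mod D ∈ K`}.
* `s59t_Gamma0_anti`, `s59t_GammaH_comap_le`, `s59t_GammaH_mono`, `s59t_GammaHmul_le/_le'`;
* `s59t_DeltaMap2_eq_one_iff` : the kernel of `Δ' → Δ`;
* `s59t_crt_units` (CRT for units), `s59t_BQ` (= `ker (Δ' → Δ_N)`, the part to kill, `≅ Δ_D`),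
  `s59t_CQ` (= `ker (Δ' → Δ_D)`, `≅ Δ_N`): **`s59t_BQ_CQ_bijective`** (complementary),
  `s59t_DeltaMap2_CQ_bijective`, `s59t_DeltaMap2_BQ_bijective` — the group-theoretic inputs of
  `s59t_control_H`;
* `s59t_Hmul_pgroup`, `s59t_neg_one_mem_GammaHmul`;
* **(PF)**: `s59t_PF_of_pgroup` : `N` squarefree, `-1 ∈ H`, `(ℤ/N)ˣ/H` a `p`-group, `p ≥ 5` ⇒ (PF).
-/
import Mathlib
import Fermat.Agent.Lib.S59.TResG

set_option autoImplicit false
set_option linter.unusedSectionVars false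
set_option linter.style.haveILetI false

noncomputable section

namespace Fermat.Agent.Lib.S59

open Matrix MatrixGroups CongruenceSubgroup
open Fermat.Agent.Lib.S29 Fermat.Agent.Lib.S48 Fermat.Agent.Lib.S41

section Dvd

variable {N N' : ℕ}

theorem s59t_Gamma0_anti (h : N ∣ N') : Gamma0 N' ≤ Gamma0 N := by
  intro γ hγ
  rw [Gamma0_mem] at hγ ⊢
  have h1 : ((N' : ℕ) : ℤ) ∣ γ 1 0 := (ZMod.intCast_zmod_eq_zero_iff_dvd _ _).mp hγ
  exact (ZMod.intCast_zmod_eq_zero_iff_dvd _ _).mpr ((Int.natCast_dvd_natCast.mpr h).trans h1)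

theorem s59t_cast_unitsMap' (h : N ∣ N') (u : (ZMod N')ˣ) :
    ((ZMod.unitsMap h u : (ZMod N)ˣ) : ZMod N) = ZMod.castHom h (ZMod N) (u : ZMod N') := rfl

theorem s59t_GammaH_comap_le (h : N ∣ N') (H : Subgroup (ZMod N)ˣ) :
    s48h_GammaH N' (H.comap (ZMod.unitsMap h)) ≤ s48h_GammaH N H := by
  rintro γ ⟨hγ, u, hu, hγu⟩
  refine ⟨s59t_Gamma0_anti h hγ, ZMod.unitsMap h u, hu, ?_⟩
  rw [s59t_cast_unitsMap', ← hγu, map_intCast]

theorem s59t_GammaH_mono {H₁ H₂ : Subgroup (ZMod N)ˣ} (h : H₁ ≤ H₂) :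
    s48h_GammaH N H₁ ≤ s48h_GammaH N H₂ := by
  rintro γ ⟨hγ, u, hu, hγu⟩
  exact ⟨hγ, u, h hu, hγu⟩

variable [NeZero N] [NeZero N']

theorem s59t_unitsMap_unit (h : N ∣ N') (τ : Gamma0 N') :
    ZMod.unitsMap h (s59t_unitHom N' τ) =
      s59t_unitHom N ⟨(τ : SL(2, ℤ)), s59t_Gamma0_anti h τ.2⟩ := by
  apply Units.ext
  rw [s59t_cast_unitsMap']
  show ZMod.castHom h (ZMod N) ((((τ : SL(2, ℤ)) 1 1 : ℤ)) : ZMod N') = _
  rw [map_intCast]
  rfl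

variable {H : Subgroup (ZMod N)ˣ} {H' : Subgroup (ZMod N')ˣ}

/-- the kernel of `Δ' → Δ`. -/
theorem s59t_DeltaMap2_eq_one_iff (h : N ∣ N')
    (hle : s48h_GammaH N' H' ≤ s48h_GammaH N H) (τ : Gamma0 N') :
    s59t_DeltaMap2 (s59t_Gamma0_anti h) hle (QuotientGroup.mk τ) = 1 ↔
      ZMod.unitsMap h (s59t_unitHom N' τ) ∈ H := by
  rw [s59t_DeltaMap2_mk, ← s59t_mem_iff_mk, s59t_unitsMap_unit h τ,
    ← s59t_mem_GammaH_iff_unit (H := H) ⟨(τ : SL(2, ℤ)), s59t_Gamma0_anti h τ.2⟩]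

end Dvd

/-! ### CRT -/

section CRT

variable (N D : ℕ)

theorem s59t_dvd_mul_left' : N ∣ N * D := Dvd.intro D rfl

theorem s59t_dvd_mul_right' : D ∣ N * D := Dvd.intro_left N rfl

/-- CRT for units. -/
theorem s59t_crt_units [NeZero N] [NeZero D] (hcop : N.Coprime D) (u₁ : (ZMod N)ˣ)
    (u₂ : (ZMod D)ˣ) :
    ∃ u : (ZMod (N * D))ˣ, ZMod.unitsMap (s59t_dvd_mul_left' N D) u = u₁ ∧
      ZMod.unitsMap (s59t_dvd_mul_right' N D) u = u₂ := by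
  let e : ZMod (N * D) ≃+* ZMod N × ZMod D := ZMod.chineseRemainder hcop
  have h1 : ∀ x : ZMod (N * D), (e x).1 = ZMod.castHom (s59t_dvd_mul_left' N D) (ZMod N) x := by
    intro x
    have : (RingHom.fst (ZMod N) (ZMod D)).comp (e : ZMod (N * D) →+* ZMod N × ZMod D) =
        ZMod.castHom (s59t_dvd_mul_left' N D) (ZMod N) := Subsingleton.elim _ _
    exact RingHom.congr_fun this x
  have h2 : ∀ x : ZMod (N * D), (e x).2 = ZMod.castHom (s59t_dvd_mul_right' N D) (ZMod D) x := by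
    intro x
    have : (RingHom.snd (ZMod N) (ZMod D)).comp (e : ZMod (N * D) →+* ZMod N × ZMod D) =
        ZMod.castHom (s59t_dvd_mul_right' N D) (ZMod D) := Subsingleton.elim _ _
    exact RingHom.congr_fun this x
  -- the unit `(u₁, u₂)` of the product
  let w : (ZMod N × ZMod D)ˣ := MulEquiv.prodUnits.symm (u₁, u₂)
  have hw : ((w : (ZMod N × ZMod D)ˣ) : ZMod N × ZMod D) = ((u₁ : ZMod N), (u₂ : ZMod D)) := rfl
  let u : (ZMod (N * D))ˣ := Units.mapEquiv e.symm.toMulEquiv w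
  have hu : e ((u : (ZMod (N * D))ˣ) : ZMod (N * D)) = ((u₁ : ZMod N), (u₂ : ZMod D)) := by
    show e (e.symm (w : ZMod N × ZMod D)) = _
    rw [RingEquiv.apply_symm_apply, hw]
  refine ⟨u, Units.ext ?_, Units.ext ?_⟩
  · rw [s59t_cast_unitsMap', ← h1, hu]
  · rw [s59t_cast_unitsMap', ← h2, hu]

variable (H : Subgroup (ZMod N)ˣ) (K : Subgroup (ZMod D)ˣ)

/-- the subgroup `{u : u mod N ∈ H, u mod D ∈ K}` of `(ℤ/ND)ˣ`. -/
def s59t_Hmul : Subgroup (ZMod (N * D))ˣ :=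
  H.comap (ZMod.unitsMap (s59t_dvd_mul_left' N D)) ⊓
    K.comap (ZMod.unitsMap (s59t_dvd_mul_right' N D))

variable {N D H K}

theorem s59t_mem_Hmul (u : (ZMod (N * D))ˣ) :
    u ∈ s59t_Hmul N D H K ↔ ZMod.unitsMap (s59t_dvd_mul_left' N D) u ∈ H ∧
      ZMod.unitsMap (s59t_dvd_mul_right' N D) u ∈ K := Iff.rfl

theorem s59t_GammaHmul_le :
    s48h_GammaH (N * D) (s59t_Hmul N D H K) ≤ s48h_GammaH N H :=
  (s59t_GammaH_mono inf_le_left).trans (s59t_GammaH_comap_le (s59t_dvd_mul_left' N D) H)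

theorem s59t_GammaHmul_le' :
    s48h_GammaH (N * D) (s59t_Hmul N D H K) ≤ s48h_GammaH D K :=
  (s59t_GammaH_mono inf_le_right).trans (s59t_GammaH_comap_le (s59t_dvd_mul_right' N D) K)

variable [NeZero N] [NeZero D]

variable (N D H K)

/-- the map `Δ' → Δ_N`. -/
def s59t_phiN : s59t_Delta (N * D) (s59t_Hmul N D H K) →* s59t_Delta N H :=
  s59t_DeltaMap2 (s59t_Gamma0_anti (s59t_dvd_mul_left' N D)) s59t_GammaHmul_le

/-- the map `Δ' → Δ_D`. -/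
def s59t_phiD : s59t_Delta (N * D) (s59t_Hmul N D H K) →* s59t_Delta D K :=
  s59t_DeltaMap2 (s59t_Gamma0_anti (s59t_dvd_mul_right' N D)) s59t_GammaHmul_le'

/-- the part to be killed: `B = ker (Δ' → Δ_N)` (`≅ Δ_D`). -/
def s59t_BQ : Subgroup (s59t_Delta (N * D) (s59t_Hmul N D H K)) := (s59t_phiN N D H K).ker

/-- the complement: `C = ker (Δ' → Δ_D)` (`≅ Δ_N`). -/
def s59t_CQ : Subgroup (s59t_Delta (N * D) (s59t_Hmul N D H K)) := (s59t_phiD N D H K).ker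

instance s59t_fintypeBQ : Fintype (s59t_BQ N D H K) := Fintype.ofFinite _

instance s59t_fintypeCQ : Fintype (s59t_CQ N D H K) := Fintype.ofFinite _

variable {N D H K}

theorem s59t_phiN_eq_one_iff (τ : Gamma0 (N * D)) :
    s59t_phiN N D H K (QuotientGroup.mk τ) = 1 ↔
      ZMod.unitsMap (s59t_dvd_mul_left' N D) (s59t_unitHom (N * D) τ) ∈ H :=
  s59t_DeltaMap2_eq_one_iff (s59t_dvd_mul_left' N D) s59t_GammaHmul_le τ

theorem s59t_phiD_eq_one_iff (τ : Gamma0 (N * D)) :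
    s59t_phiD N D H K (QuotientGroup.mk τ) = 1 ↔
      ZMod.unitsMap (s59t_dvd_mul_right' N D) (s59t_unitHom (N * D) τ) ∈ K :=
  s59t_DeltaMap2_eq_one_iff (s59t_dvd_mul_right' N D) s59t_GammaHmul_le' τ

/-- `B ∩ C = 1`. -/
theorem s59t_BQ_inf_CQ (δ : s59t_Delta (N * D) (s59t_Hmul N D H K))
    (hB : δ ∈ s59t_BQ N D H K) (hC : δ ∈ s59t_CQ N D H K) : δ = 1 := by
  obtain ⟨τ, rfl⟩ := QuotientGroup.mk_surjective δ
  rw [s59t_BQ, MonoidHom.mem_ker, s59t_phiN_eq_one_iff] at hB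
  rw [s59t_CQ, MonoidHom.mem_ker, s59t_phiD_eq_one_iff] at hC
  rw [← s59t_mem_iff_mk, s59t_mem_GammaH_iff_unit]
  exact ⟨hB, hC⟩

/-- a class with prescribed components. -/
theorem s59t_exists_class (hcop : N.Coprime D) (u₁ : (ZMod N)ˣ) (u₂ : (ZMod D)ˣ) :
    ∃ τ : Gamma0 (N * D),
      ZMod.unitsMap (s59t_dvd_mul_left' N D) (s59t_unitHom (N * D) τ) = u₁ ∧
      ZMod.unitsMap (s59t_dvd_mul_right' N D) (s59t_unitHom (N * D) τ) = u₂ := by
  obtain ⟨u, hu₁, hu₂⟩ := s59t_crt_units N D hcop u₁ u₂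
  obtain ⟨σ, hσ, hσu⟩ := s48desc_exists_sigma (N * D) u
  have h1 : s59t_unitHom (N * D) ⟨σ, hσ⟩ = u := Units.ext hσu
  exact ⟨⟨σ, hσ⟩, by rw [h1, hu₁], by rw [h1, hu₂]⟩

/-- **`B` and `C` are complementary.** -/
theorem s59t_BQ_CQ_bijective (hcop : N.Coprime D) :
    Function.Bijective (fun x : s59t_BQ N D H K × s59t_CQ N D H K =>
      ((x.1 : s59t_Delta (N * D) (s59t_Hmul N D H K)) * (x.2 : _))) := by
  constructor
  · rintro ⟨β, γ⟩ ⟨β', γ'⟩ h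
    have h' : (β : s59t_Delta (N * D) (s59t_Hmul N D H K)) * γ = β' * γ' := h
    have h1 : ((β' : s59t_Delta (N * D) (s59t_Hmul N D H K)))⁻¹ * β =
        γ' * ((γ : s59t_Delta (N * D) (s59t_Hmul N D H K)))⁻¹ := by
      have h0 : (β : s59t_Delta (N * D) (s59t_Hmul N D H K)) =
          β' * γ' * ((γ : s59t_Delta (N * D) (s59t_Hmul N D H K)))⁻¹ :=
        eq_mul_inv_of_mul_eq h'
      rw [h0, mul_assoc, inv_mul_cancel_left]
    have h2 : ((β' : s59t_Delta (N * D) (s59t_Hmul N D H K)))⁻¹ * β = 1 :=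
      s59t_BQ_inf_CQ _ (mul_mem (inv_mem β'.2) β.2) (by rw [h1]; exact mul_mem γ'.2 (inv_mem γ.2))
    have h3 : (γ' : s59t_Delta (N * D) (s59t_Hmul N D H K)) *
        ((γ : s59t_Delta (N * D) (s59t_Hmul N D H K)))⁻¹ = 1 := by rw [← h1, h2]
    have e1 : β = β' := Subtype.ext (inv_mul_eq_one.mp h2).symm
    have e2 : γ = γ' := Subtype.ext (mul_inv_eq_one.mp h3).symm
    rw [e1, e2]
  · intro δ
    obtain ⟨τ, rfl⟩ := QuotientGroup.mk_surjective δ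
    obtain ⟨σ, hσ₁, hσ₂⟩ := s59t_exists_class hcop
      (ZMod.unitsMap (s59t_dvd_mul_left' N D) (s59t_unitHom (N * D) τ)) 1
    have hC : (QuotientGroup.mk σ : s59t_Delta (N * D) (s59t_Hmul N D H K)) ∈
        s59t_CQ N D H K := by
      rw [s59t_CQ, MonoidHom.mem_ker, s59t_phiD_eq_one_iff, hσ₂]
      exact one_mem K
    have hB : (QuotientGroup.mk (τ * σ⁻¹) : s59t_Delta (N * D) (s59t_Hmul N D H K)) ∈
        s59t_BQ N D H K := by
      rw [s59t_BQ, MonoidHom.mem_ker, s59t_phiN_eq_one_iff, map_mul, map_mul, map_inv, map_inv,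
        hσ₁, mul_inv_cancel]
      exact one_mem H
    refine ⟨(⟨_, hB⟩, ⟨_, hC⟩), ?_⟩
    show (QuotientGroup.mk (τ * σ⁻¹) : s59t_Delta (N * D) (s59t_Hmul N D H K)) *
      QuotientGroup.mk σ = QuotientGroup.mk τ
    rw [← QuotientGroup.mk_mul, inv_mul_cancel_right]

/-- `Δ' → Δ_N` is bijective on `C`. -/
theorem s59t_phiN_CQ_bijective (hcop : N.Coprime D) :
    Function.Bijective (fun γ : s59t_CQ N D H K =>
      s59t_phiN N D H K (γ : s59t_Delta (N * D) (s59t_Hmul N D H K))) := by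
  constructor
  · intro γ γ' h
    have h1 : s59t_phiN N D H K ((γ : s59t_Delta (N * D) (s59t_Hmul N D H K)) *
        ((γ' : s59t_Delta (N * D) (s59t_Hmul N D H K)))⁻¹) = 1 := by
      rw [map_mul, map_inv, mul_inv_eq_one]
      exact h
    have h2 := s59t_BQ_inf_CQ _ (MonoidHom.mem_ker.mpr h1) (mul_mem γ.2 (inv_mem γ'.2))
    exact Subtype.ext (mul_inv_eq_one.mp h2)
  · intro δ
    obtain ⟨g, rfl⟩ := QuotientGroup.mk_surjective δ
    obtain ⟨σ, hσ₁, hσ₂⟩ := s59t_exists_class hcop (s59t_unitHom N g) 1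
    have hC : (QuotientGroup.mk σ : s59t_Delta (N * D) (s59t_Hmul N D H K)) ∈
        s59t_CQ N D H K := by
      rw [s59t_CQ, MonoidHom.mem_ker, s59t_phiD_eq_one_iff, hσ₂]
      exact one_mem K
    refine ⟨⟨_, hC⟩, ?_⟩
    show s59t_phiN N D H K (QuotientGroup.mk σ) = QuotientGroup.mk g
    rw [s59t_phiN, s59t_DeltaMap2_mk, QuotientGroup.eq, Subgroup.mem_subgroupOf,
      s59t_mem_GammaH_iff_unit, map_mul, map_inv,
      ← s59t_unitsMap_unit (s59t_dvd_mul_left' N D) σ, hσ₁, inv_mul_cancel]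
    exact one_mem H

/-- `Δ' → Δ_D` is bijective on `B`. -/
theorem s59t_phiD_BQ_bijective (hcop : N.Coprime D) :
    Function.Bijective (fun β : s59t_BQ N D H K =>
      s59t_phiD N D H K (β : s59t_Delta (N * D) (s59t_Hmul N D H K))) := by
  constructor
  · intro β β' h
    have h1 : s59t_phiD N D H K ((β : s59t_Delta (N * D) (s59t_Hmul N D H K)) *
        ((β' : s59t_Delta (N * D) (s59t_Hmul N D H K)))⁻¹) = 1 := by
      rw [map_mul, map_inv, mul_inv_eq_one]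
      exact h
    have h2 := s59t_BQ_inf_CQ _ (mul_mem β.2 (inv_mem β'.2)) (MonoidHom.mem_ker.mpr h1)
    exact Subtype.ext (mul_inv_eq_one.mp h2)
  · intro δ
    obtain ⟨g, rfl⟩ := QuotientGroup.mk_surjective δ
    obtain ⟨σ, hσ₁, hσ₂⟩ := s59t_exists_class hcop 1 (s59t_unitHom D g)
    have hB : (QuotientGroup.mk σ : s59t_Delta (N * D) (s59t_Hmul N D H K)) ∈
        s59t_BQ N D H K := by
      rw [s59t_BQ, MonoidHom.mem_ker, s59t_phiN_eq_one_iff, hσ₁]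
      exact one_mem H
    refine ⟨⟨_, hB⟩, ?_⟩
    show s59t_phiD N D H K (QuotientGroup.mk σ) = QuotientGroup.mk g
    rw [s59t_phiD, s59t_DeltaMap2_mk, QuotientGroup.eq, Subgroup.mem_subgroupOf,
      s59t_mem_GammaH_iff_unit, map_mul, map_inv,
      ← s59t_unitsMap_unit (s59t_dvd_mul_right' N D) σ, hσ₂, inv_mul_cancel]
    exact one_mem K

/-- `Δ'` is a `p`-group if `Δ_N` and `Δ_D` are. -/
theorem s59t_Hmul_pgroup (p : ℕ) (hH : ∀ u : (ZMod N)ˣ, ∃ n : ℕ, u ^ (p ^ n) ∈ H)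
    (hK : ∀ u : (ZMod D)ˣ, ∃ n : ℕ, u ^ (p ^ n) ∈ K) (u : (ZMod (N * D))ˣ) :
    ∃ n : ℕ, u ^ (p ^ n) ∈ s59t_Hmul N D H K := by
  obtain ⟨n₁, h₁⟩ := hH (ZMod.unitsMap (s59t_dvd_mul_left' N D) u)
  obtain ⟨n₂, h₂⟩ := hK (ZMod.unitsMap (s59t_dvd_mul_right' N D) u)
  refine ⟨n₁ + n₂, ?_, ?_⟩
  · show ZMod.unitsMap (s59t_dvd_mul_left' N D) (u ^ p ^ (n₁ + n₂)) ∈ H
    rw [map_pow, pow_add, pow_mul]
    exact pow_mem h₁ _
  · show ZMod.unitsMap (s59t_dvd_mul_right' N D) (u ^ p ^ (n₁ + n₂)) ∈ K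
    rw [map_pow, pow_add, pow_mul']
    exact pow_mem h₂ _

/-- `-1 ∈ Γ_{H'}` if `-1 ∈ Γ_H` and `-1 ∈ Γ_K`. -/
theorem s59t_neg_one_mem_GammaHmul (hH : (-1 : SL(2, ℤ)) ∈ s48h_GammaH N H)
    (hK : (-1 : SL(2, ℤ)) ∈ s48h_GammaH D K) :
    (-1 : SL(2, ℤ)) ∈ s48h_GammaH (N * D) (s59t_Hmul N D H K) := by
  have h0 : (-1 : SL(2, ℤ)) ∈ Gamma0 (N * D) := s41g_neg_one_mem (N * D)
  have h1 := (s59t_mem_GammaH_iff_unit (H := H) ⟨(-1 : SL(2, ℤ)), hH.1⟩).mp hH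
  have h2 := (s59t_mem_GammaH_iff_unit (H := K) ⟨(-1 : SL(2, ℤ)), hK.1⟩).mp hK
  have h3 := (s59t_mem_GammaH_iff_unit (H := s59t_Hmul N D H K) ⟨(-1 : SL(2, ℤ)), h0⟩).mpr
  refine h3 ⟨?_, ?_⟩
  · show ZMod.unitsMap (s59t_dvd_mul_left' N D) (s59t_unitHom (N * D) ⟨(-1 : SL(2, ℤ)), h0⟩) ∈ H
    rw [s59t_unitsMap_unit (s59t_dvd_mul_left' N D)]
    exact h1
  · show ZMod.unitsMap (s59t_dvd_mul_right' N D) (s59t_unitHom (N * D) ⟨(-1 : SL(2, ℤ)), h0⟩) ∈ K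
    rw [s59t_unitsMap_unit (s59t_dvd_mul_right' N D)]
    exact h2

end CRT

/-! ### (PF) -/

section PFp

variable {N : ℕ} [NeZero N] {H : Subgroup (ZMod N)ˣ}

/-- **(PF) for squarefree `N`, `-1 ∈ H`, `(ℤ/N)ˣ/H` a `p`-group with `p` prime to `12`.** -/
theorem s59t_PF_of_pgroup (p : ℕ) (hp : Nat.Coprime p 12) (hsq : Squarefree N)
    (hneg : (-1 : (ZMod N)ˣ) ∈ H) (hH : ∀ u : (ZMod N)ˣ, ∃ n : ℕ, u ^ (p ^ n) ∈ H) :
    s59t_PF N H := by
  haveI : IsReduced (ZMod N) := isReduced_zmod.mpr (Or.inl hsq)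
  refine s59t_PF_of ?_ ?_
  · rintro u (h | h)
    · have h1 : (u : ZMod N) - 1 = 0 := IsReduced.eq_zero _ ⟨2, h⟩
      have h2 : u = 1 := Units.ext (sub_eq_zero.mp h1)
      rw [h2]
      exact one_mem H
    · have h1 : (u : ZMod N) + 1 = 0 := IsReduced.eq_zero _ ⟨2, h⟩
      have h2 : u = -1 := Units.ext (by
        rw [Units.val_neg, Units.val_one]
        exact eq_neg_of_add_eq_zero_left h1)
      rw [h2]
      exact hneg
  · intro u hu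
    obtain ⟨n, hn⟩ := hH u
    have hc : Nat.Coprime (p ^ n) 12 := Nat.Coprime.pow_left n hp
    -- Bézout
    have hb := Nat.gcd_eq_gcd_ab (p ^ n) 12
    rw [hc.gcd_eq_one] at hb
    have h1 : u = (u ^ (p ^ n)) ^ (Nat.gcdA (p ^ n) 12) := by
      have h2 : (u : (ZMod N)ˣ) ^ ((1 : ℕ) : ℤ) = u := by simp
      rw [← zpow_natCast u (p ^ n), ← _root_.zpow_mul]
      have h3 : ((p ^ n : ℕ) : ℤ) * Nat.gcdA (p ^ n) 12 = ((1 : ℕ) : ℤ) - 12 * Nat.gcdB (p ^ n) 12 := by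
        rw [hb]
        push_cast
        ring
      rw [h3, _root_.zpow_sub, h2, _root_.zpow_mul]
      have h4 : (u : (ZMod N)ˣ) ^ (12 : ℤ) = 1 := by
        have := hu
        rw [← zpow_natCast] at this
        exact_mod_cast this
      rw [h4, _root_.one_zpow, inv_one, mul_one]
    rw [h1]
    exact zpow_mem hn _

end PFp

end Fermat.Agent.Lib.S59
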