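/-
Programme (R) = S59, node [GRP-PS]/(B2) (helper8), file 47: **the structure of `Δ_Q`.**
`qv : Fin r → ℕ` distinct primes `≡ 1 mod P` (`P = p^n`), `D = ∏ qv i`,
`s59t_KQ P qv ≤ (ℤ/D)ˣ` := the units which are `P`-th powers modulo every `qv i`.  Then
`Δ(D, K_Q) = Γ₀(D)/Γ_{K_Q}(D) ≅ ∏_i (ℤ/qv i)ˣ/(P-th powers)`, a product of `r` cyclic groups of
order `P`: it has generators `g i` with (G1)–(G3) of `TGrpPres.lean`, `g i` supported at `qv i`.
-/
import Mathlib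
import Fermat.Agent.Lib.S59.THQ

set_option autoImplicit false
set_option linter.unusedSectionVars false
set_option linter.style.haveILetI false

open scoped BigOperators

noncomputable section

namespace Fermat.Agent.Lib.S59

open Matrix MatrixGroups CongruenceSubgroup
open Fermat.Agent.Lib.S48

section PiCyclic

/-- generators of a product of `r` cyclic groups of order `P`. -/
theorem s59t_pi_cyclic_pres {r P : ℕ} (hP : P ≠ 0) (Q : Fin r → Type*) [∀ i, CommGroup (Q i)]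
    [∀ i, IsCyclic (Q i)] (hcard : ∀ i, Nat.card (Q i) = P) :
    ∃ g : Fin r → (∀ i, Q i), Nat.card (∀ i, Q i) = P ^ r ∧
      (∀ x : (∀ i, Q i), ∃ a : Fin r → ℕ, x = ∏ i, g i ^ a i) ∧ (∀ i, g i ^ P = 1) ∧
      ∀ i j, j ≠ i → g i j = 1 := by
  classical
  haveI : ∀ i, Finite (Q i) := fun i => Nat.finite_of_card_ne_zero (by rw [hcard i]; exact hP)
  choose γ hγ using fun i => IsCyclic.exists_generator (α := Q i)
  refine ⟨fun i => Pi.mulSingle i (γ i), ?_, ?_, ?_, ?_⟩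
  · rw [Nat.card_pi, Finset.prod_congr rfl fun i _ => hcard i, Finset.prod_const,
      Finset.card_univ, Fintype.card_fin]
  · intro x
    have h1 : ∀ i, ∃ a : ℕ, γ i ^ a = x i := by
      intro i
      have := mem_powers_iff_mem_zpowers.mpr (hγ i (x i))
      exact this
    choose a ha using h1
    refine ⟨a, ?_⟩
    have h2 : ∀ i, (Pi.mulSingle i (γ i) : ∀ i, Q i) ^ a i = Pi.mulSingle i (x i) := by
      intro i
      rw [← Pi.mulSingle_pow, ha i]
    rw [Finset.prod_congr rfl fun i _ => h2 i, Finset.univ_prod_mulSingle]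
  · intro i
    rw [← Pi.mulSingle_pow, ← hcard i, pow_card_eq_one', Pi.mulSingle_one]
  · intro i j hji
    exact Pi.mulSingle_eq_of_ne hji _

/-- transport of a presentation along an isomorphism. -/
theorem s59t_pres_of_equiv {r P : ℕ} {A B : Type*} [CommGroup A] [CommGroup B] (e : B ≃* A)
    (g : Fin r → A) (h1 : Nat.card A = P ^ r)
    (h2 : ∀ x : A, ∃ a : Fin r → ℕ, x = ∏ i, g i ^ a i) (h3 : ∀ i, g i ^ P = 1) :
    Nat.card B = P ^ r ∧
      (∀ x : B, ∃ a : Fin r → ℕ, x = ∏ i, (e.symm (g i)) ^ a i) ∧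
      ∀ i, (e.symm (g i)) ^ P = 1 := by
  refine ⟨by rw [Nat.card_congr e.toEquiv, h1], fun x => ?_, fun i => ?_⟩
  · obtain ⟨a, ha⟩ := h2 (e x)
    refine ⟨a, e.injective ?_⟩
    rw [ha, map_prod]
    refine Finset.prod_congr rfl fun i _ => ?_
    rw [map_pow, MulEquiv.apply_symm_apply]
  · rw [← map_pow, h3 i, map_one]

end PiCyclic

section KQ

variable (P : ℕ) {r : ℕ} (qv : Fin r → ℕ)

/-- the `i`-th local quotient `(ℤ/qv i)ˣ / (P-th powers)`. -/
abbrev s59t_Qloc (i : Fin r) : Type :=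
  (ZMod (qv i))ˣ ⧸ (powMonoidHom P : (ZMod (qv i))ˣ →* (ZMod (qv i))ˣ).range

theorem s59t_dvd_prod (i : Fin r) : qv i ∣ ∏ j, qv j :=
  Finset.dvd_prod_of_mem qv (Finset.mem_univ i)

/-- the product of the local quotients (a `def`, to keep instance paths unique). -/
def s59t_QQ : Type := ∀ i, s59t_Qloc P qv i

instance s59t_QQ_commGroup : CommGroup (s59t_QQ P qv) :=
  inferInstanceAs (CommGroup (∀ i, s59t_Qloc P qv i))

/-- the components. -/
def s59t_QQ_proj (i : Fin r) : s59t_QQ P qv →* s59t_Qloc P qv i where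
  toFun x := x i
  map_one' := rfl
  map_mul' _ _ := rfl

theorem s59t_QQ_ext {x y : s59t_QQ P qv} (h : ∀ i, s59t_QQ_proj P qv i x = s59t_QQ_proj P qv i y) :
    x = y := funext h

/-- `(ℤ/D)ˣ → ∏_i (ℤ/qv i)ˣ/(P-th powers)`. -/
def s59t_locHom : (ZMod (∏ j, qv j))ˣ →* s59t_QQ P qv where
  toFun u := fun i => QuotientGroup.mk (ZMod.unitsMap (s59t_dvd_prod qv i) u)
  map_one' := by
    funext i
    rw [map_one]
    rfl
  map_mul' u v := by
    funext i
    rw [map_mul]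
    rfl

theorem s59t_locHom_apply (u : (ZMod (∏ j, qv j))ˣ) (i : Fin r) :
    s59t_QQ_proj P qv i (s59t_locHom P qv u) =
      QuotientGroup.mk (ZMod.unitsMap (s59t_dvd_prod qv i) u) := rfl

/-- **`K_Q`**: the units which are `P`-th powers modulo every `qv i`. -/
def s59t_KQ : Subgroup (ZMod (∏ j, qv j))ˣ := (s59t_locHom P qv).ker

theorem s59t_mem_KQ (u : (ZMod (∏ j, qv j))ˣ) :
    u ∈ s59t_KQ P qv ↔ ∀ i, ∃ v : (ZMod (qv i))ˣ, v ^ P = ZMod.unitsMap (s59t_dvd_prod qv i) u := by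
  rw [s59t_KQ, MonoidHom.mem_ker]
  constructor
  · intro h i
    have h1 := congrArg (s59t_QQ_proj P qv i) h
    rw [s59t_locHom_apply, map_one, QuotientGroup.eq_one_iff] at h1
    obtain ⟨v, hv⟩ := h1
    exact ⟨v, hv⟩
  · intro h
    refine s59t_QQ_ext P qv fun i => ?_
    rw [s59t_locHom_apply, map_one, QuotientGroup.eq_one_iff]
    obtain ⟨v, hv⟩ := h i
    exact ⟨v, hv⟩

/-- `P`-th powers lie in `K_Q`. -/
theorem s59t_pow_mem_KQ (u : (ZMod (∏ j, qv j))ˣ) : u ^ P ∈ s59t_KQ P qv := by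
  rw [s59t_mem_KQ]
  intro i
  exact ⟨ZMod.unitsMap (s59t_dvd_prod qv i) u, by rw [map_pow]⟩

/-- `-1 ∈ K_Q` for odd `P`. -/
theorem s59t_neg_one_mem_KQ (hP : Odd P) : (-1 : (ZMod (∏ j, qv j))ˣ) ∈ s59t_KQ P qv := by
  have h := s59t_pow_mem_KQ P qv (-1)
  rwa [hP.neg_one_pow] at h

variable (hq : ∀ i, (qv i).Prime) (hinj : Function.Injective qv)

include hq hinj in
theorem s59t_qv_coprime : Pairwise (Function.onFun Nat.Coprime qv) := by
  intro i j hij
  exact (Nat.coprime_primes (hq i) (hq j)).mpr fun h => hij (hinj h)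

include hq hinj in
/-- CRT: `s59t_locHom` is surjective. -/
theorem s59t_locHom_surjective : Function.Surjective (s59t_locHom P qv) := by
  classical
  intro x
  choose v hv using fun i => QuotientGroup.mk_surjective (s59t_QQ_proj P qv i x)
  let e := ZMod.prodEquivPi qv (s59t_qv_coprime qv hq hinj)
  let E : (ZMod (∏ j, qv j))ˣ ≃* (∀ i, (ZMod (qv i))ˣ) :=
    (Units.mapEquiv e.toMulEquiv).trans MulEquiv.piUnits
  have hE : ∀ u i, E u i = ZMod.unitsMap (s59t_dvd_prod qv i) u := by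
    intro u i
    apply Units.ext
    show e (u : ZMod (∏ j, qv j)) i = _
    rw [ZMod.prodEquivPi_apply]
    rfl
  refine ⟨E.symm v, s59t_QQ_ext P qv fun i => ?_⟩
  rw [s59t_locHom_apply, ← hE, MulEquiv.apply_symm_apply, hv i]

variable [NeZero (∏ j, qv j)]

/-- `Γ₀(D) → ∏_i (ℤ/qv i)ˣ/(P-th powers)`. -/
def s59t_locHomG : Gamma0 (∏ j, qv j) →* s59t_QQ P qv :=
  (s59t_locHom P qv).comp (s59t_unitHom (∏ j, qv j))

include hq hinj in
theorem s59t_locHomG_surjective : Function.Surjective (s59t_locHomG P qv) := by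
  intro x
  obtain ⟨u, rfl⟩ := s59t_locHom_surjective P qv hq hinj x
  obtain ⟨σ, hσ, hσu⟩ := s48desc_exists_sigma (∏ j, qv j) u
  exact ⟨⟨σ, hσ⟩, congrArg (s59t_locHom P qv) (Units.ext hσu)⟩

theorem s59t_locHomG_ker :
    (s48h_GammaH (∏ j, qv j) (s59t_KQ P qv)).subgroupOf (Gamma0 (∏ j, qv j)) =
      (s59t_locHomG P qv).ker := by
  ext τ
  rw [Subgroup.mem_subgroupOf, s59t_mem_GammaH_iff_unit, MonoidHom.mem_ker]
  rfl

/-- **`Δ(D, K_Q) → ∏_i (ℤ/qv i)ˣ/(P-th powers)`**, as a homomorphism. -/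
def s59t_DeltaQHom : s59t_Delta (∏ j, qv j) (s59t_KQ P qv) →* s59t_QQ P qv :=
  QuotientGroup.lift
    ((s48h_GammaH (∏ j, qv j) (s59t_KQ P qv)).subgroupOf (Gamma0 (∏ j, qv j)))
    (s59t_locHomG P qv) (s59t_locHomG_ker P qv).le

theorem s59t_DeltaQHom_mk (τ : Gamma0 (∏ j, qv j)) :
    s59t_DeltaQHom P qv (QuotientGroup.mk τ) = s59t_locHomG P qv τ := rfl

include hq hinj in
theorem s59t_DeltaQHom_bijective : Function.Bijective (s59t_DeltaQHom P qv) := by
  constructor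
  · rw [injective_iff_map_eq_one]
    intro δ hδ
    obtain ⟨τ, rfl⟩ := QuotientGroup.mk_surjective δ
    rw [QuotientGroup.eq_one_iff, s59t_locHomG_ker, MonoidHom.mem_ker]
    exact hδ
  · intro x
    obtain ⟨τ, rfl⟩ := s59t_locHomG_surjective P qv hq hinj x
    exact ⟨QuotientGroup.mk τ, rfl⟩

end KQ

section Pres

variable (P : ℕ) {r : ℕ} (qv : Fin r → ℕ) (hq : ∀ i, (qv i).Prime)
  (hinj : Function.Injective qv) (hP : ∀ i, P ∣ qv i - 1) (hP0 : P ≠ 0)

include hq in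
theorem s59t_Qloc_isCyclic (i : Fin r) : IsCyclic (s59t_Qloc P qv i) := by
  haveI : Fact (qv i).Prime := ⟨hq i⟩
  exact isCyclic_of_surjective (QuotientGroup.mk' _) (QuotientGroup.mk'_surjective _)

include hq hP in
theorem s59t_Qloc_card (i : Fin r) : Nat.card (s59t_Qloc P qv i) = P := by
  haveI : Fact (qv i).Prime := ⟨hq i⟩
  rw [← Subgroup.index_eq_card, IsCyclic.index_powMonoidHom_range, Nat.card_eq_fintype_card,
    ZMod.card_units_eq_totient, Nat.totient_prime (hq i)]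
  exact Nat.gcd_eq_right (hP i)

variable [NeZero (∏ j, qv j)]

include hq hinj hP hP0 in
/-- **the presentation of `Δ(D, K_Q)`**: generators `g i` supported at `qv i`. -/
theorem s59t_DeltaQ_pres :
    ∃ g : Fin r → s59t_Delta (∏ j, qv j) (s59t_KQ P qv),
      Nat.card (s59t_Delta (∏ j, qv j) (s59t_KQ P qv)) = P ^ r ∧
      (∀ x : s59t_Delta (∏ j, qv j) (s59t_KQ P qv), ∃ a : Fin r → ℕ, x = ∏ i, g i ^ a i) ∧
      (∀ i, g i ^ P = 1) ∧
      ∀ i j, j ≠ i → s59t_QQ_proj P qv j (s59t_DeltaQHom P qv (g i)) = 1 := by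
  classical
  haveI : ∀ i, IsCyclic (s59t_Qloc P qv i) := fun i => s59t_Qloc_isCyclic P qv hq i
  obtain ⟨g, h1, h2, h3, h4⟩ := s59t_pi_cyclic_pres hP0 (fun i => s59t_Qloc P qv i)
    (fun i => s59t_Qloc_card P qv hq hP i)
  let e : s59t_Delta (∏ j, qv j) (s59t_KQ P qv) ≃* s59t_QQ P qv :=
    MulEquiv.ofBijective (s59t_DeltaQHom P qv) (s59t_DeltaQHom_bijective P qv hq hinj)
  obtain ⟨k1, k2, k3⟩ := s59t_pres_of_equiv (A := s59t_QQ P qv) e g h1 h2 h3
  refine ⟨fun i => e.symm (g i), k1, k2, k3, fun i j hji => ?_⟩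
  have : s59t_DeltaQHom P qv (e.symm (g i)) = g i := e.apply_symm_apply (g i)
  rw [this]
  exact h4 i j hji

variable (N : ℕ) [NeZero N] (H : Subgroup (ZMod N)ˣ)

include hq hinj hP hP0 in
/-- **the presentation of `B_Q ≤ Δ(N·D, H·K_Q)`** (`B_Q ≅ Δ(D, K_Q)`). -/
theorem s59t_BQ_pres (hcop : N.Coprime (∏ j, qv j)) :
    ∃ g : Fin r → s59t_BQ N (∏ j, qv j) H (s59t_KQ P qv),
      Nat.card (s59t_BQ N (∏ j, qv j) H (s59t_KQ P qv)) = P ^ r ∧
      (∀ x : s59t_BQ N (∏ j, qv j) H (s59t_KQ P qv), ∃ a : Fin r → ℕ, x = ∏ i, g i ^ a i) ∧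
      (∀ i, g i ^ P = 1) ∧
      ∀ i j, j ≠ i → s59t_QQ_proj P qv j (s59t_DeltaQHom P qv
        (s59t_phiD N (∏ j, qv j) H (s59t_KQ P qv) (g i : s59t_Delta (N * ∏ j, qv j)
          (s59t_Hmul N (∏ j, qv j) H (s59t_KQ P qv))))) = 1 := by
  classical
  obtain ⟨g, h1, h2, h3, h4⟩ := s59t_DeltaQ_pres P qv hq hinj hP hP0
  let e : s59t_BQ N (∏ j, qv j) H (s59t_KQ P qv) ≃*
      s59t_Delta (∏ j, qv j) (s59t_KQ P qv) :=
    MulEquiv.ofBijective
      ((s59t_phiD N (∏ j, qv j) H (s59t_KQ P qv)).comp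
        (s59t_BQ N (∏ j, qv j) H (s59t_KQ P qv)).subtype)
      (s59t_phiD_BQ_bijective hcop)
  obtain ⟨k1, k2, k3⟩ := s59t_pres_of_equiv e g h1 h2 h3
  refine ⟨fun i => e.symm (g i), k1, k2, k3, fun i j hji => ?_⟩
  have : s59t_phiD N (∏ j, qv j) H (s59t_KQ P qv)
      ((e.symm (g i) : s59t_BQ N (∏ j, qv j) H (s59t_KQ P qv)) :
        s59t_Delta (N * ∏ j, qv j) (s59t_Hmul N (∏ j, qv j) H (s59t_KQ P qv))) = g i :=
    e.apply_symm_apply (g i)
  rw [this]
  exact h4 i j hji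

end Pres

end Fermat.Agent.Lib.S59
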