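/-
Programme (R) = S59, node [GRP-PS] (helper8), file 43: **the group algebra `𝒪[B]` of a finite
commutative `p`-group over a local ring of residue characteristic `p` is local**, with maximal
ideal `(β - 1)_{β ∈ B} + 𝔪_𝒪`; over a complete noetherian local `𝒪` it is `𝔪`-adically complete
(Prelude).  Mathlib + Prelude only.
-/
import Mathlib
import Fermat.Prelude.Thm_IsLocalRing_isAdicComplete_of_module_finite

set_option autoImplicit false
set_option linter.unusedSectionVars false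
set_option linter.style.haveILetI false

open IsLocalRing

noncomputable section

namespace Fermat.Agent.Lib.S59

section GrpAlg

variable (𝒪 : Type*) [CommRing 𝒪] (B : Type*) [CommGroup B]

/-- the augmentation `𝒪[B] → 𝒪`. -/
def s59t_aug : MonoidAlgebra 𝒪 B →ₐ[𝒪] 𝒪 := MonoidAlgebra.lift 𝒪 𝒪 B (1 : B →* 𝒪)

variable {𝒪 B}

theorem s59t_aug_of (β : B) : s59t_aug 𝒪 B (MonoidAlgebra.of 𝒪 B β) = 1 := by
  rw [s59t_aug, MonoidAlgebra.lift_of]
  rfl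

/-- the augmentation ideal, generated by the `β - 1`. -/
def s59t_augIdeal (𝒪 : Type*) [CommRing 𝒪] (B : Type*) [CommGroup B] :
    Ideal (MonoidAlgebra 𝒪 B) :=
  Ideal.span (Set.range fun β : B => MonoidAlgebra.of 𝒪 B β - 1)

theorem s59t_sub_aug_mem (x : MonoidAlgebra 𝒪 B) :
    x - algebraMap 𝒪 (MonoidAlgebra 𝒪 B) (s59t_aug 𝒪 B x) ∈ s59t_augIdeal 𝒪 B := by
  induction x using MonoidAlgebra.induction_on with
  | of β =>
    rw [s59t_aug_of, map_one]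
    exact Ideal.subset_span ⟨β, rfl⟩
  | add x y hx hy =>
    have e : x + y - algebraMap 𝒪 (MonoidAlgebra 𝒪 B) (s59t_aug 𝒪 B (x + y)) =
        (x - algebraMap 𝒪 (MonoidAlgebra 𝒪 B) (s59t_aug 𝒪 B x)) +
          (y - algebraMap 𝒪 (MonoidAlgebra 𝒪 B) (s59t_aug 𝒪 B y)) := by
      rw [map_add, map_add]
      ring
    rw [e]
    exact Ideal.add_mem _ hx hy
  | smul r x hx =>
    have e : r • x - algebraMap 𝒪 (MonoidAlgebra 𝒪 B) (s59t_aug 𝒪 B (r • x)) =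
        algebraMap 𝒪 (MonoidAlgebra 𝒪 B) r *
          (x - algebraMap 𝒪 (MonoidAlgebra 𝒪 B) (s59t_aug 𝒪 B x)) := by
      rw [map_smul, smul_eq_mul, map_mul, Algebra.smul_def]
      ring
    rw [e]
    exact Ideal.mul_mem_left _ _ hx

theorem s59t_augIdeal_le_ker :
    s59t_augIdeal 𝒪 B ≤ RingHom.ker (s59t_aug 𝒪 B) := by
  rw [s59t_augIdeal, Ideal.span_le]
  rintro _ ⟨β, rfl⟩
  rw [SetLike.mem_coe, RingHom.mem_ker, map_sub, s59t_aug_of, map_one, sub_self]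

variable {p : ℕ} [hp : Fact p.Prime]

/-- `(β - 1)^(p^n) ∈ (p)` if `β^(p^n) = 1`. -/
theorem s59t_of_sub_one_pow_mem (β : B) (n : ℕ) (hβ : β ^ (p ^ n) = 1) :
    (MonoidAlgebra.of 𝒪 B β - 1) ^ (p ^ n) ∈
      Ideal.span {((p : ℕ) : MonoidAlgebra 𝒪 B)} := by
  obtain ⟨r, hr⟩ := exists_add_pow_prime_pow_eq hp.out (MonoidAlgebra.of 𝒪 B β)
    (-1 : MonoidAlgebra 𝒪 B) n
  obtain ⟨r', hr'⟩ := exists_add_pow_prime_pow_eq hp.out (1 : MonoidAlgebra 𝒪 B)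
    (-1 : MonoidAlgebra 𝒪 B) n
  have hP : p ^ n ≠ 0 := pow_ne_zero _ hp.out.ne_zero
  rw [add_neg_cancel, zero_pow hP, one_pow] at hr'
  have h1 : (MonoidAlgebra.of 𝒪 B β) ^ (p ^ n) = 1 := by
    rw [← map_pow, hβ, map_one]
  rw [sub_eq_add_neg, hr, h1]
  have e : (1 : MonoidAlgebra 𝒪 B) + (-1) ^ p ^ n + (p : MonoidAlgebra 𝒪 B) *
      MonoidAlgebra.of 𝒪 B β * (-1) * r =
      (p : MonoidAlgebra 𝒪 B) * (MonoidAlgebra.of 𝒪 B β * (-1) * r - 1 * (-1) * r') := by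
    linear_combination (-1 : MonoidAlgebra 𝒪 B) * hr'
  rw [e]
  exact Ideal.mul_mem_right _ _ (Ideal.subset_span rfl)

variable [IsLocalRing 𝒪] [Finite B]

/-- Nakayama: `1 + 𝔪_𝒪 𝒪[B]` consists of units. -/
theorem s59t_isUnit_one_add (π : 𝒪) (hπ : π ∈ maximalIdeal 𝒪) (μ : MonoidAlgebra 𝒪 B) :
    IsUnit (1 + algebraMap 𝒪 (MonoidAlgebra 𝒪 B) π * μ) := by
  set y := 1 + algebraMap 𝒪 (MonoidAlgebra 𝒪 B) π * μ with hy
  have h1 : (⊤ : Submodule 𝒪 (MonoidAlgebra 𝒪 B)) ≤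
      (Ideal.span {y}).restrictScalars 𝒪 := by
    refine Submodule.le_of_le_smul_of_le_jacobson_bot (I := maximalIdeal 𝒪)
      (Module.Finite.fg_top) ?_ ?_
    · rw [IsLocalRing.jacobson_eq_maximalIdeal ⊥ bot_ne_top]
    · intro z _
      have e : z = y * z + (-π) • (μ * z) := by
        rw [hy, Algebra.smul_def, map_neg]
        ring
      rw [e]
      refine Submodule.add_mem _ (Submodule.mem_sup_left ?_) (Submodule.mem_sup_right ?_)
      · exact Ideal.mul_mem_right _ _ (Ideal.subset_span rfl)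
      · exact Submodule.smul_mem_smul (neg_mem hπ) Submodule.mem_top
  have h2 : (1 : MonoidAlgebra 𝒪 B) ∈ Ideal.span {y} := h1 Submodule.mem_top
  obtain ⟨w, hw⟩ := Ideal.mem_span_singleton'.mp h2
  exact IsUnit.of_mul_eq_one w (by rw [mul_comm]; exact hw)

variable (hpm : (p : 𝒪) ∈ maximalIdeal 𝒪) (hB : ∀ β : B, ∃ n : ℕ, β ^ (p ^ n) = 1)

include hpm hB in
/-- **an element with invertible augmentation is invertible.** -/
theorem s59t_isUnit_of_aug (x : MonoidAlgebra 𝒪 B) (hx : IsUnit (s59t_aug 𝒪 B x)) :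
    IsUnit x := by
  -- the augmentation ideal is contained in the radical of `(p)`
  have hrad : s59t_augIdeal 𝒪 B ≤ (Ideal.span {((p : ℕ) : MonoidAlgebra 𝒪 B)}).radical := by
    rw [s59t_augIdeal, Ideal.span_le]
    rintro _ ⟨β, rfl⟩
    obtain ⟨n, hn⟩ := hB β
    exact ⟨p ^ n, s59t_of_sub_one_pow_mem β n hn⟩
  obtain ⟨N, hN⟩ := hrad (s59t_sub_aug_mem x)
  obtain ⟨lam, hlam⟩ := Ideal.mem_span_singleton'.mp hN
  set a := s59t_aug 𝒪 B x with ha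
  set A := algebraMap 𝒪 (MonoidAlgebra 𝒪 B) a with hA
  have hdvd : A - (-(x - A)) ∣ A ^ N - (-(x - A)) ^ N := sub_dvd_pow_sub_pow _ _ _
  have e1 : A - (-(x - A)) = x := by ring
  rw [e1] at hdvd
  have hAu : IsUnit (A ^ N) := by
    rw [hA, ← map_pow]
    exact (IsUnit.pow N hx).map _
  obtain ⟨v, hv⟩ := hAu
  have e2 : A ^ N - (-(x - A)) ^ N =
      (v : MonoidAlgebra 𝒪 B) * (1 + algebraMap 𝒪 (MonoidAlgebra 𝒪 B) (p : 𝒪) *
        (-((-1) ^ N * ((v⁻¹ : (MonoidAlgebra 𝒪 B)ˣ) : MonoidAlgebra 𝒪 B) * lam))) := by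
    rw [neg_pow, ← hlam, ← hv, map_natCast]
    have h3 : (v : MonoidAlgebra 𝒪 B) * ((v⁻¹ : (MonoidAlgebra 𝒪 B)ˣ) : MonoidAlgebra 𝒪 B) = 1 :=
      Units.mul_inv v
    linear_combination ((-1) ^ N * lam * (p : MonoidAlgebra 𝒪 B)) * h3
  have h4 : IsUnit (A ^ N - (-(x - A)) ^ N) := by
    rw [e2]
    exact v.isUnit.mul (s59t_isUnit_one_add _ hpm _)
  exact isUnit_of_dvd_unit hdvd h4

include hpm hB in
/-- **`𝒪[B]` is local.** -/
theorem s59t_grpAlg_isLocalRing : IsLocalRing (MonoidAlgebra 𝒪 B) := by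
  refine IsLocalRing.of_isUnit_or_isUnit_one_sub_self fun x => ?_
  rcases IsLocalRing.isUnit_or_isUnit_one_sub_self (s59t_aug 𝒪 B x) with h | h
  · exact Or.inl (s59t_isUnit_of_aug hpm hB x h)
  · refine Or.inr (s59t_isUnit_of_aug hpm hB (1 - x) ?_)
    rw [map_sub, map_one]
    exact h

/-- `𝒪 → 𝒪[B]` is a local homomorphism. -/
theorem s59t_grpAlg_isLocalHom : IsLocalHom (algebraMap 𝒪 (MonoidAlgebra 𝒪 B)) := by
  refine ⟨fun a ha => ?_⟩
  have := ha.map (s59t_aug 𝒪 B)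
  rwa [AlgHom.commutes, Algebra.algebraMap_self, RingHom.id_apply] at this

end GrpAlg

section Complete

variable {𝒪 : Type*} [CommRing 𝒪] [IsLocalRing 𝒪] [IsNoetherianRing 𝒪]
  [IsAdicComplete (maximalIdeal 𝒪) 𝒪] {B : Type*} [CommGroup B] [Finite B]
  {p : ℕ} [hp : Fact p.Prime]

/-- **`𝒪[B]` is complete.** -/
theorem s59t_grpAlg_isAdicComplete [IsLocalRing (MonoidAlgebra 𝒪 B)]
    [IsLocalHom (algebraMap 𝒪 (MonoidAlgebra 𝒪 B))] :
    IsAdicComplete (maximalIdeal (MonoidAlgebra 𝒪 B)) (MonoidAlgebra 𝒪 B) :=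
  IsLocalRing.isAdicComplete_of_module_finite (𝒪 := 𝒪) (T := MonoidAlgebra 𝒪 B)

variable [IsLocalRing (MonoidAlgebra 𝒪 B)]

/-- `β - 1` lies in the maximal ideal. -/
theorem s59t_of_sub_one_mem (β : B) :
    MonoidAlgebra.of 𝒪 B β - 1 ∈ maximalIdeal (MonoidAlgebra 𝒪 B) := by
  rw [mem_maximalIdeal, mem_nonunits_iff]
  intro h
  have := h.map (s59t_aug 𝒪 B)
  rw [map_sub, s59t_aug_of, map_one, sub_self] at this
  exact not_isUnit_zero this

/-- the residue field of `𝒪[B]` is that of `𝒪`. -/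
theorem s59t_grpAlg_residue (x : MonoidAlgebra 𝒪 B) :
    x - algebraMap 𝒪 (MonoidAlgebra 𝒪 B) (s59t_aug 𝒪 B x) ∈
      maximalIdeal (MonoidAlgebra 𝒪 B) := by
  rw [mem_maximalIdeal, mem_nonunits_iff]
  intro h
  have := h.map (s59t_aug 𝒪 B)
  rw [map_sub, AlgHom.commutes, Algebra.algebraMap_self, RingHom.id_apply, sub_self] at this
  exact not_isUnit_zero this

/-- the maximal ideal of `𝒪[B]` is `(β - 1)_β + 𝔪_𝒪`. -/
theorem s59t_grpAlg_maximalIdeal_le (hpm : (p : 𝒪) ∈ maximalIdeal 𝒪)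
    (hB : ∀ β : B, ∃ n : ℕ, β ^ (p ^ n) = 1) :
    maximalIdeal (MonoidAlgebra 𝒪 B) ≤
      s59t_augIdeal 𝒪 B ⊔ (maximalIdeal 𝒪).map (algebraMap 𝒪 (MonoidAlgebra 𝒪 B)) := by
  intro x hx
  have h1 : s59t_aug 𝒪 B x ∈ maximalIdeal 𝒪 := by
    rw [mem_maximalIdeal, mem_nonunits_iff]
    intro h
    exact (mem_nonunits_iff.mp ((mem_maximalIdeal x).mp hx)) (s59t_isUnit_of_aug hpm hB x h)
  have e : x = (x - algebraMap 𝒪 (MonoidAlgebra 𝒪 B) (s59t_aug 𝒪 B x)) +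
      algebraMap 𝒪 (MonoidAlgebra 𝒪 B) (s59t_aug 𝒪 B x) := by ring
  rw [e]
  exact Submodule.add_mem _ (Submodule.mem_sup_left (s59t_sub_aug_mem x))
    (Submodule.mem_sup_right (Ideal.mem_map_of_mem _ h1))

end Complete

end Fermat.Agent.Lib.S59
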