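/-
Programme (R) = S59, node [GRP-PS] (helper8), file 44: **homomorphisms out of a finite commutative
group presented as `(ℤ/P)^r`.**  `B` a commutative group with elements `g : Fin r → B` such that
(G1) `Nat.card B = P ^ r`, (G2) every element is a product of powers of the `g i`,
(G3) `g i ^ P = 1`.  Then for every commutative group `G` and `u : Fin r → G` with `u i ^ P = 1`
there is a homomorphism `B →* G` with `g i ↦ u i`.  Mathlib only.
-/
import Mathlib

set_option autoImplicit false
set_option linter.unusedSectionVars false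
set_option linter.style.haveILetI false

open scoped BigOperators

noncomputable section

namespace Fermat.Agent.Lib.S59

section Pres

variable (P : ℕ) {r : ℕ} {G : Type*} [CommGroup G]

/-- the homomorphism `(ℤ/P)^r → G`, `a ↦ ∏ u i ^ a i`, additively. -/
def s59t_presAdd (u : Fin r → G) (hu : ∀ i, u i ^ P = 1) :
    (Fin r → ZMod P) →+ Additive G :=
  ∑ i, (ZMod.lift P ⟨zmultiplesHom (Additive G) (Additive.ofMul (u i)), by
    rw [zmultiplesHom_apply, natCast_zsmul, ← ofMul_pow, hu i, ofMul_one]⟩).comp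
    (Pi.evalAddMonoidHom (fun _ : Fin r => ZMod P) i)

theorem s59t_presAdd_apply (u : Fin r → G) (hu : ∀ i, u i ^ P = 1) (a : Fin r → ℤ) :
    s59t_presAdd P u hu (fun i => ((a i : ℤ) : ZMod P)) =
      ∑ i, (a i) • Additive.ofMul (u i) := by
  rw [s59t_presAdd, AddMonoidHom.finsetSum_apply]
  refine Finset.sum_congr rfl fun i _ => ?_
  rw [AddMonoidHom.comp_apply, Pi.evalAddMonoidHom_apply, ZMod.lift_coe]
  rfl

theorem s59t_presAdd_single [DecidableEq (Fin r)] (u : Fin r → G) (hu : ∀ i, u i ^ P = 1)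
    (i : Fin r) :
    s59t_presAdd P u hu (Pi.single i 1) = Additive.ofMul (u i) := by
  have e : (Pi.single i 1 : Fin r → ZMod P) =
      fun j => (((Pi.single i 1 : Fin r → ℤ) j : ℤ) : ZMod P) := by
    funext j
    by_cases h : j = i
    · subst h
      rw [Pi.single_eq_same, Pi.single_eq_same, Int.cast_one]
    · rw [Pi.single_eq_of_ne h, Pi.single_eq_of_ne h, Int.cast_zero]
  rw [e, s59t_presAdd_apply, Finset.sum_eq_single i]
  · rw [Pi.single_eq_same, one_zsmul]
  · intro j _ hj
    rw [Pi.single_eq_of_ne hj, zero_zsmul]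
  · intro h
    exact absurd (Finset.mem_univ i) h

variable {P} [NeZero P] {B : Type*} [CommGroup B] (g : Fin r → B)

/-- **(G1)–(G3) ⇒ `(ℤ/P)^r ≅ B`.** -/
theorem s59t_presAdd_bijective (hcard : Nat.card B = P ^ r)
    (hgen : ∀ β : B, ∃ a : Fin r → ℕ, β = ∏ i, g i ^ a i) (hord : ∀ i, g i ^ P = 1) :
    Function.Bijective (s59t_presAdd P g hord) := by
  classical
  have hsurj : Function.Surjective (s59t_presAdd P g hord) := by
    intro β
    obtain ⟨a, ha⟩ := hgen (Additive.toMul β)
    refine ⟨fun i => (((a i : ℕ) : ℤ) : ZMod P), ?_⟩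
    rw [s59t_presAdd_apply]
    have h1 : β = Additive.ofMul (∏ i, g i ^ a i) := by rw [← ha]; rfl
    rw [h1, ofMul_prod]
    refine Finset.sum_congr rfl fun i _ => ?_
    rw [natCast_zsmul, ofMul_pow]
  refine hsurj.bijective_of_nat_card_le ?_
  rw [Nat.card_eq_fintype_card, Fintype.card_pi, Finset.prod_const, Finset.card_univ,
    Fintype.card_fin, ZMod.card]
  have : Nat.card (Additive B) = Nat.card B := rfl
  rw [this, hcard]

/-- **the homomorphism `B →* G` with `g i ↦ u i`.** -/
theorem s59t_exists_hom (hcard : Nat.card B = P ^ r)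
    (hgen : ∀ β : B, ∃ a : Fin r → ℕ, β = ∏ i, g i ^ a i) (hord : ∀ i, g i ^ P = 1)
    (u : Fin r → G) (hu : ∀ i, u i ^ P = 1) :
    ∃ θ : B →* G, ∀ i, θ (g i) = u i := by
  classical
  let e : (Fin r → ZMod P) ≃+ Additive B :=
    AddEquiv.ofBijective (s59t_presAdd P g hord) (s59t_presAdd_bijective g hcard hgen hord)
  refine ⟨MonoidHom.toAdditive.symm ((s59t_presAdd P u hu).comp e.symm.toAddMonoidHom), fun i => ?_⟩
  have h1 : e (Pi.single i 1) = Additive.ofMul (g i) := s59t_presAdd_single P g hord i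
  have h2 : e.symm (Additive.ofMul (g i)) = Pi.single i 1 := by
    rw [← h1, AddEquiv.symm_apply_apply]
  show Additive.toMul ((s59t_presAdd P u hu) (e.symm (Additive.ofMul (g i)))) = u i
  rw [h2, s59t_presAdd_single]
  rfl

end Pres

end Fermat.Agent.Lib.S59
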