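/-
Programme (R) = S59, node [GRP-PS] (helper8), file 45: **`𝒪⟦y₁..y_r⟧ ⧸ ((1+y_i)^(p^n) - 1)_i ≅ 𝒪[B]`**
for `B ≅ (ℤ/p^n)^r` with generators `g i` ((G1)–(G3) of `TGrpPres.lean`).

* `s59t_omega_mem` : `(1 + y)^(p^n) - 1 ∈ 𝔪^(n+1)` in any ring, `𝔪 ∋ p, y`;
* `s59t_grpPS` : there is `Ψ₀ : 𝒪⟦y⟧ →ₐ[𝒪] 𝒪[B]`, `y_i ↦ g_i - 1`, surjective, with kernel
  `span {(1+y_i)^(p^n) - 1}`, and `ker Ψ₀ ≤ 𝔪^(n+1)`;
* `s59t_ker_le_of_surjective` : transfer to ANY surjection `Ψ' : 𝒪⟦y⟧ ↠ 𝒪[B]`: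
  `ker Ψ' ≤ 𝔪^(n+1)` (counting);
Mathlib + main's `Lib/Deform/PowerSeries`, `Lib/Deform/Approx` + Prelude.
-/
import Mathlib
import Fermat.Agent.Lib.Deform.PowerSeries
import Fermat.Agent.Lib.Deform.Approx
import Fermat.Agent.Lib.S59.TGrpAlg
import Fermat.Agent.Lib.S59.TGrpPres

set_option autoImplicit false
set_option linter.unusedSectionVars false
set_option linter.style.haveILetI false

open IsLocalRing MvPowerSeries Fermat.Agent.Lib.Deform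

noncomputable section

namespace Fermat.Agent.Lib.S59

section Omega

variable {R : Type*} [CommRing R] {p : ℕ} [hp : Fact p.Prime] (𝔪 : Ideal R)

/-- `u ∈ 𝔪^k`, `k ≥ 1` ⇒ `(1+u)^p - 1 ∈ 𝔪^(k+1)`. -/
theorem s59t_one_add_pow_sub_one_mem (hpm : (p : R) ∈ 𝔪) (k : ℕ) (hk : 1 ≤ k) (u : R)
    (hu : u ∈ 𝔪 ^ k) : (1 + u) ^ p - 1 ∈ 𝔪 ^ (k + 1) := by
  obtain ⟨r, hr⟩ := exists_add_pow_prime_eq hp.out (1 : R) u
  have e : (1 + u) ^ p - 1 = u ^ p + (p : R) * (u * r) := by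
    rw [hr, one_pow]
    ring
  rw [e]
  refine Ideal.add_mem _ ?_ ?_
  · have h1 : u ^ p ∈ (𝔪 ^ k) ^ p := Ideal.pow_mem_pow hu p
    rw [← pow_mul] at h1
    refine Ideal.pow_le_pow_right ?_ h1
    have : 2 ≤ p := hp.out.two_le
    nlinarith
  · rw [pow_succ']
    exact Ideal.mul_mem_mul hpm (Ideal.mul_mem_right _ _ hu)

/-- **`(1 + y)^(p^n) - 1 ∈ 𝔪^(n+1)`.** -/
theorem s59t_omega_mem (hpm : (p : R) ∈ 𝔪) (y : R) (hy : y ∈ 𝔪) (n : ℕ) :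
    (1 + y) ^ (p ^ n) - 1 ∈ 𝔪 ^ (n + 1) := by
  induction n with
  | zero =>
    rw [pow_zero, pow_one, pow_one, add_sub_cancel_left]
    exact hy
  | succ n ih =>
    have e : (1 + y) ^ (p ^ (n + 1)) - 1 = (1 + ((1 + y) ^ (p ^ n) - 1)) ^ p - 1 := by
      rw [add_sub_cancel, ← pow_mul, pow_succ]
    rw [e]
    exact s59t_one_add_pow_sub_one_mem 𝔪 hpm (n + 1) (Nat.succ_le_succ (Nat.zero_le n)) _ ih

end Omega

section Transfer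

variable {S₀ : Type*} [CommRing S₀] [IsLocalRing S₀] {Λ : Type*} [CommRing Λ] [IsLocalRing Λ]

/-- a surjective ring homomorphism of local rings maps `𝔪^m` onto `𝔪^m`. -/
theorem s59t_map_maximalIdeal_pow (Ψ : S₀ →+* Λ) (hΨ : Function.Surjective Ψ) (m : ℕ) :
    (maximalIdeal S₀ ^ m).map Ψ = maximalIdeal Λ ^ m := by
  rw [Ideal.map_pow, map_maximalIdeal_of_surjective Ψ hΨ]

/-- **transfer of the kernel bound by counting.** -/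
theorem s59t_ker_le_of_surjective (m : ℕ) [Finite (S₀ ⧸ maximalIdeal S₀ ^ m)]
    (Ψ₀ Ψ' : S₀ →+* Λ) (hΨ₀ : Function.Surjective Ψ₀) (hΨ' : Function.Surjective Ψ')
    (hker : RingHom.ker Ψ₀ ≤ maximalIdeal S₀ ^ m) :
    RingHom.ker Ψ' ≤ maximalIdeal S₀ ^ m := by
  -- the induced maps `S₀ / 𝔪^m → Λ / 𝔪^m`
  have hle : ∀ Ψ : S₀ →+* Λ, Function.Surjective Ψ →
      maximalIdeal S₀ ^ m ≤ (maximalIdeal Λ ^ m).comap Ψ := by
    intro Ψ hΨ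
    rw [← Ideal.map_le_iff_le_comap, s59t_map_maximalIdeal_pow Ψ hΨ]
  let F : ∀ (Ψ : S₀ →+* Λ) (hΨ : Function.Surjective Ψ),
      S₀ ⧸ maximalIdeal S₀ ^ m →+* Λ ⧸ maximalIdeal Λ ^ m :=
    fun Ψ hΨ => Ideal.quotientMap (maximalIdeal Λ ^ m) Ψ (hle Ψ hΨ)
  have hFs : ∀ (Ψ : S₀ →+* Λ) (hΨ : Function.Surjective Ψ), Function.Surjective (F Ψ hΨ) :=
    fun Ψ hΨ => Ideal.quotientMap_surjective hΨ
  have hF₀i : Function.Injective (F Ψ₀ hΨ₀) := by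
    rw [injective_iff_map_eq_zero]
    intro x hx
    obtain ⟨a, rfl⟩ := Ideal.Quotient.mk_surjective x
    have h1 : Ψ₀ a ∈ maximalIdeal Λ ^ m := by
      rw [← Ideal.Quotient.eq_zero_iff_mem]
      exact hx
    rw [← s59t_map_maximalIdeal_pow Ψ₀ hΨ₀ m, Ideal.mem_map_iff_of_surjective Ψ₀ hΨ₀] at h1
    obtain ⟨c, hc, hca⟩ := h1
    have h2 : a - c ∈ RingHom.ker Ψ₀ := by
      rw [RingHom.mem_ker, map_sub, hca, sub_self]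
    rw [Ideal.Quotient.eq_zero_iff_mem]
    have e : a = (a - c) + c := by ring
    rw [e]
    exact Ideal.add_mem _ (hker h2) hc
  have hcard : Nat.card (S₀ ⧸ maximalIdeal S₀ ^ m) = Nat.card (Λ ⧸ maximalIdeal Λ ^ m) :=
    Nat.card_eq_of_bijective _ ⟨hF₀i, hFs Ψ₀ hΨ₀⟩
  have hF'i : Function.Injective (F Ψ' hΨ') :=
    ((hFs Ψ' hΨ').bijective_of_nat_card_le hcard.le).1
  intro a ha
  rw [RingHom.mem_ker] at ha
  rw [← Ideal.Quotient.eq_zero_iff_mem]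
  apply hF'i
  rw [map_zero]
  show Ideal.Quotient.mk _ (Ψ' a) = 0
  rw [ha, map_zero]

end Transfer

section GrpPS

variable {p : ℕ} [hp : Fact p.Prime] {𝒪 : Type*} [CommRing 𝒪] [IsLocalRing 𝒪] [IsNoetherianRing 𝒪]
  [IsAdicComplete (maximalIdeal 𝒪) 𝒪]
  {B : Type*} [CommGroup B] [Finite B] {n r : ℕ} (g : Fin r → B)

/-- the relation ideal `((1 + y_i)^(p^n) - 1)_i`. -/
def s59t_J0 (𝒪 : Type*) [CommRing 𝒪] (p n r : ℕ) : Ideal (MvPowerSeries (Fin r) 𝒪) :=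
  Ideal.span (Set.range fun i : Fin r => (1 + (X i : MvPowerSeries (Fin r) 𝒪)) ^ (p ^ n) - 1)

theorem s59t_J0_le (hpm : (p : 𝒪) ∈ maximalIdeal 𝒪) :
    s59t_J0 𝒪 p n r ≤ maximalIdeal (MvPowerSeries (Fin r) 𝒪) ^ (n + 1) := by
  rw [s59t_J0, Ideal.span_le]
  rintro _ ⟨i, rfl⟩
  refine s59t_omega_mem _ ?_ _ (X_mem_maximalIdeal i) n
  have h0 : (p : 𝒪) ∈ maximalIdeal 𝒪 ^ 1 := by rw [pow_one]; exact hpm
  have h := C_mem_maximalIdeal_pow (σ := Fin r) h0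
  rw [pow_one, map_natCast] at h
  exact h

set_option maxHeartbeats 800000 in
/-- **[GRP-PS], standard parameters.** -/
theorem s59t_grpPS (hpm : (p : 𝒪) ∈ maximalIdeal 𝒪) (hcard : Nat.card B = (p ^ n) ^ r)
    (hgen : ∀ β : B, ∃ a : Fin r → ℕ, β = ∏ i, g i ^ a i) (hord : ∀ i, g i ^ (p ^ n) = 1) :
    ∃ Ψ₀ : MvPowerSeries (Fin r) 𝒪 →ₐ[𝒪] MonoidAlgebra 𝒪 B,
      (∀ i, Ψ₀ (X i) = MonoidAlgebra.of 𝒪 B (g i) - 1) ∧ Function.Surjective Ψ₀ ∧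
      RingHom.ker Ψ₀ = s59t_J0 𝒪 p n r := by
  classical
  haveI : NeZero (p ^ n) := ⟨pow_ne_zero _ hp.out.ne_zero⟩
  have hB : ∀ β : B, ∃ k : ℕ, β ^ (p ^ k) = 1 := by
    intro β
    obtain ⟨a, rfl⟩ := hgen β
    refine ⟨n, ?_⟩
    rw [← Finset.prod_pow]
    refine Finset.prod_eq_one fun i _ => ?_
    rw [← pow_mul, mul_comm, pow_mul, hord i, one_pow]
  haveI : IsLocalRing (MonoidAlgebra 𝒪 B) := s59t_grpAlg_isLocalRing hpm hB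
  haveI : IsLocalHom (algebraMap 𝒪 (MonoidAlgebra 𝒪 B)) := s59t_grpAlg_isLocalHom
  haveI : IsAdicComplete (maximalIdeal (MonoidAlgebra 𝒪 B)) (MonoidAlgebra 𝒪 B) :=
    s59t_grpAlg_isAdicComplete
  -- the map
  let Ψ₀ : MvPowerSeries (Fin r) 𝒪 →ₐ[𝒪] MonoidAlgebra 𝒪 B :=
    evalHom (maximalIdeal (MonoidAlgebra 𝒪 B)) (fun i => MonoidAlgebra.of 𝒪 B (g i) - 1)
      (fun i => s59t_of_sub_one_mem (g i))
  have hΨX : ∀ i, Ψ₀ (X i) = MonoidAlgebra.of 𝒪 B (g i) - 1 := fun i => evalHom_X _ _ _ i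
  have hΨ1X : ∀ i, Ψ₀ (1 + X i) = MonoidAlgebra.of 𝒪 B (g i) := by
    intro i
    rw [map_add, map_one, hΨX, add_sub_cancel]
  -- surjectivity
  have hsurj : Function.Surjective Ψ₀ := by
    intro x
    induction x using MonoidAlgebra.induction_on with
    | of β =>
      obtain ⟨a, rfl⟩ := hgen β
      refine ⟨∏ i, (1 + X i) ^ a i, ?_⟩
      rw [map_prod, map_prod]
      refine Finset.prod_congr rfl fun i _ => ?_
      rw [map_pow, map_pow, hΨ1X]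
    | add x y hx hy =>
      obtain ⟨a, rfl⟩ := hx
      obtain ⟨b, rfl⟩ := hy
      exact ⟨a + b, map_add _ _ _⟩
    | smul c x hx =>
      obtain ⟨a, rfl⟩ := hx
      exact ⟨c • a, map_smul _ _ _⟩
  -- `J₀ ≤ ker Ψ₀`
  have hJker : ∀ a ∈ s59t_J0 𝒪 p n r, Ψ₀ a = 0 := by
    intro a ha
    have : s59t_J0 𝒪 p n r ≤ RingHom.ker Ψ₀ := by
      rw [s59t_J0, Ideal.span_le]
      rintro _ ⟨i, rfl⟩
      rw [SetLike.mem_coe, RingHom.mem_ker, map_sub, map_pow, hΨ1X, map_one, ← map_pow, hord i,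
        map_one, sub_self]
    exact this ha
  refine ⟨Ψ₀, hΨX, hsurj, le_antisymm ?_ (fun a ha => hJker a ha)⟩
  -- the quotient `Q = S₀ / J₀`
  have hJtop : s59t_J0 𝒪 p n r ≠ ⊤ := by
    intro h
    have h1 : (1 : MvPowerSeries (Fin r) 𝒪) ∈ maximalIdeal (MvPowerSeries (Fin r) 𝒪) ^ (n + 1) :=
      s59t_J0_le hpm (h ▸ Submodule.mem_top)
    have h2 : (1 : MvPowerSeries (Fin r) 𝒪) ∈ maximalIdeal (MvPowerSeries (Fin r) 𝒪) :=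
      Ideal.pow_le_self (Nat.succ_ne_zero n) h1
    exact (Ideal.ne_top_iff_one _).mp (maximalIdeal.isMaximal _).ne_top h2
  haveI : Nontrivial (MvPowerSeries (Fin r) 𝒪 ⧸ s59t_J0 𝒪 p n r) :=
    Ideal.Quotient.nontrivial_iff.mpr hJtop
  haveI : IsLocalRing (MvPowerSeries (Fin r) 𝒪 ⧸ s59t_J0 𝒪 p n r) :=
    IsLocalRing.of_surjective' (Ideal.Quotient.mk (s59t_J0 𝒪 p n r)) Ideal.Quotient.mk_surjective
  haveI : IsAdicComplete (maximalIdeal (MvPowerSeries (Fin r) 𝒪 ⧸ s59t_J0 𝒪 p n r))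
      (MvPowerSeries (Fin r) 𝒪 ⧸ s59t_J0 𝒪 p n r) :=
    Key.isAdicComplete_quotient (s59t_J0 𝒪 p n r)
  -- the units `1 + y_i` of `Q`
  have hu1 : ∀ i, (1 + Ideal.Quotient.mk (s59t_J0 𝒪 p n r) (X i)) ^ (p ^ n) = 1 := by
    intro i
    rw [← map_one (Ideal.Quotient.mk (s59t_J0 𝒪 p n r)), ← map_add, ← map_pow]
    rw [Ideal.Quotient.eq]
    exact Ideal.subset_span ⟨i, rfl⟩
  let u : Fin r → (MvPowerSeries (Fin r) 𝒪 ⧸ s59t_J0 𝒪 p n r)ˣ := fun i =>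
    Units.ofPowEqOne _ (p ^ n) (hu1 i) (pow_ne_zero _ hp.out.ne_zero)
  have hu : ∀ i, u i ^ (p ^ n) = 1 := fun i => Units.pow_ofPowEqOne _ _
  obtain ⟨θ, hθ⟩ := s59t_exists_hom g hcard hgen hord u hu
  let Θ : MonoidAlgebra 𝒪 B →ₐ[𝒪] (MvPowerSeries (Fin r) 𝒪 ⧸ s59t_J0 𝒪 p n r) :=
    MonoidAlgebra.lift 𝒪 _ B ((Units.coeHom _).comp θ)
  have hΘ : ∀ i, Θ (MonoidAlgebra.of 𝒪 B (g i)) =
      1 + Ideal.Quotient.mk (s59t_J0 𝒪 p n r) (X i) := by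
    intro i
    show MonoidAlgebra.lift 𝒪 _ B ((Units.coeHom _).comp θ) (MonoidAlgebra.of 𝒪 B (g i)) = _
    rw [MonoidAlgebra.lift_of, MonoidHom.comp_apply, hθ i]
    rfl
  -- `Θ ∘ Ψ₀ = mk`
  have hcomp : Θ.comp Ψ₀ = Ideal.Quotient.mkₐ 𝒪 (s59t_J0 𝒪 p n r) := by
    refine (algHom_ext_of_X
      (maximalIdeal (MvPowerSeries (Fin r) 𝒪 ⧸ s59t_J0 𝒪 p n r)) ?_ ?_).symm
    · intro i
      rw [Ideal.Quotient.mkₐ_eq_mk, Key.maximalIdeal_quotient]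
      exact Ideal.mem_map_of_mem _ (X_mem_maximalIdeal i)
    · intro i
      rw [AlgHom.comp_apply, hΨX, map_sub, hΘ, map_one, add_sub_cancel_left,
        Ideal.Quotient.mkₐ_eq_mk]
  intro a ha
  rw [RingHom.mem_ker] at ha
  have h1 : Ideal.Quotient.mkₐ 𝒪 (s59t_J0 𝒪 p n r) a = 0 := by
    rw [← hcomp, AlgHom.comp_apply, ha, map_zero]
  rw [Ideal.Quotient.mkₐ_eq_mk, Ideal.Quotient.eq_zero_iff_mem] at h1
  exact h1

end GrpPS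

end Fermat.Agent.Lib.S59
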