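/-
Programme (R) = S59, node [GRP-PS] (helper8), file 46: **[GRP-PS] for ARBITRARY parameters.**
`Ψ' : 𝒪⟦x₁..x_r⟧ →ₐ[𝒪] 𝒪[B]` any `𝒪`-algebra homomorphism such that every `g_i - 1` lies in the ideal
`(Ψ' x_j)_j + 𝔪_𝒪 𝒪[B]` (e.g. `x_i ↦ g_i - 1`, or `x_i ↦ h_i - h_i⁻¹`, `h_i² = g_i`).  Then `Ψ'` is
surjective and `ker Ψ' ≤ 𝔪^(n+1)`.
-/
import Mathlib
import Fermat.Agent.Lib.S59.TGrpPS

set_option autoImplicit false
set_option linter.unusedSectionVars false
set_option linter.style.haveILetI false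

open IsLocalRing MvPowerSeries Fermat.Agent.Lib.Deform

noncomputable section

namespace Fermat.Agent.Lib.S59

section Gen

variable {𝒪 : Type*} [CommRing 𝒪] {B : Type*} [CommGroup B] {r : ℕ} (g : Fin r → B)

/-- the augmentation ideal is generated by the `g_i - 1`. -/
theorem s59t_of_sub_one_mem_span (hgen : ∀ β : B, ∃ a : Fin r → ℕ, β = ∏ i, g i ^ a i) (β : B) :
    MonoidAlgebra.of 𝒪 B β - 1 ∈
      Ideal.span (Set.range fun i : Fin r => MonoidAlgebra.of 𝒪 B (g i) - 1) := by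
  classical
  obtain ⟨a, rfl⟩ := hgen β
  rw [map_prod]
  have key : ∀ s : Finset (Fin r), (∏ i ∈ s, MonoidAlgebra.of 𝒪 B (g i ^ a i)) - 1 ∈
      Ideal.span (Set.range fun i : Fin r => MonoidAlgebra.of 𝒪 B (g i) - 1) := by
    intro s
    induction s using Finset.induction_on with
    | empty =>
      rw [Finset.prod_empty, sub_self]
      exact Ideal.zero_mem _
    | insert j s hj ih =>
      rw [Finset.prod_insert hj]
      have e : MonoidAlgebra.of 𝒪 B (g j ^ a j) * ∏ i ∈ s, MonoidAlgebra.of 𝒪 B (g i ^ a i) - 1 =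
          MonoidAlgebra.of 𝒪 B (g j ^ a j) *
            (∏ i ∈ s, MonoidAlgebra.of 𝒪 B (g i ^ a i) - 1) +
          (MonoidAlgebra.of 𝒪 B (g j ^ a j) - 1) := by ring
      rw [e]
      refine Ideal.add_mem _ (Ideal.mul_mem_left _ _ ih) ?_
      rw [map_pow]
      obtain ⟨c, hc⟩ := sub_one_dvd_pow_sub_one (MonoidAlgebra.of 𝒪 B (g j)) (a j)
      rw [hc]
      exact Ideal.mul_mem_right _ _ (Ideal.subset_span ⟨j, rfl⟩)
  exact key Finset.univ

end Gen

section GrpPSGen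

variable {p : ℕ} [hp : Fact p.Prime] {𝒪 : Type*} [CommRing 𝒪] [IsLocalRing 𝒪] [IsNoetherianRing 𝒪]
  [IsAdicComplete (maximalIdeal 𝒪) 𝒪] [Finite (ResidueField 𝒪)]
  {B : Type*} [CommGroup B] [Finite B] {n r : ℕ} (g : Fin r → B)

set_option maxHeartbeats 800000 in
/-- **[GRP-PS], arbitrary parameters.** -/
theorem s59t_grpPS_gen (hpm : (p : 𝒪) ∈ maximalIdeal 𝒪) (hcard : Nat.card B = (p ^ n) ^ r)
    (hgen : ∀ β : B, ∃ a : Fin r → ℕ, β = ∏ i, g i ^ a i) (hord : ∀ i, g i ^ (p ^ n) = 1)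
    (Ψ' : MvPowerSeries (Fin r) 𝒪 →ₐ[𝒪] MonoidAlgebra 𝒪 B)
    (h : ∀ i, MonoidAlgebra.of 𝒪 B (g i) - 1 ∈
      Ideal.span (Set.range fun j : Fin r => Ψ' (X j)) ⊔
        (maximalIdeal 𝒪).map (algebraMap 𝒪 (MonoidAlgebra 𝒪 B))) :
    Function.Surjective Ψ' ∧
      RingHom.ker Ψ' ≤ maximalIdeal (MvPowerSeries (Fin r) 𝒪) ^ (n + 1) := by
  classical
  have hB : ∀ β : B, ∃ k : ℕ, β ^ (p ^ k) = 1 := by
    intro β
    obtain ⟨a, rfl⟩ := hgen β
    refine ⟨n, ?_⟩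
    rw [← Finset.prod_pow]
    refine Finset.prod_eq_one fun i _ => ?_
    rw [← pow_mul, mul_comm, pow_mul, hord i, one_pow]
  haveI : IsLocalRing (MonoidAlgebra 𝒪 B) := s59t_grpAlg_isLocalRing hpm hB
  haveI : IsLocalHom (algebraMap 𝒪 (MonoidAlgebra 𝒪 B)) := s59t_grpAlg_isLocalHom
  haveI : IsAdicComplete (maximalIdeal (MonoidAlgebra 𝒪 B)) (MonoidAlgebra 𝒪 B) :=
    s59t_grpAlg_isAdicComplete
  -- `Ψ'` is local
  have hloc : ∀ a ∈ maximalIdeal (MvPowerSeries (Fin r) 𝒪),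
      Ψ' a ∈ maximalIdeal (MonoidAlgebra 𝒪 B) := by
    let χ : MvPowerSeries (Fin r) 𝒪 →+* ResidueField 𝒪 :=
      (residue 𝒪).comp ((s59t_aug 𝒪 B : MonoidAlgebra 𝒪 B →+* 𝒪).comp (Ψ' : _ →+* _))
    have hχs : Function.Surjective χ := by
      intro x
      obtain ⟨c, rfl⟩ := residue_surjective x
      refine ⟨algebraMap 𝒪 _ c, ?_⟩
      show residue 𝒪 (s59t_aug 𝒪 B (Ψ' (algebraMap 𝒪 _ c))) = _
      rw [AlgHom.commutes, AlgHom.commutes, Algebra.algebraMap_self, RingHom.id_apply]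
    have hmax : (RingHom.ker χ).IsMaximal := RingHom.ker_isMaximal_of_surjective χ hχs
    have hker : RingHom.ker χ = maximalIdeal (MvPowerSeries (Fin r) 𝒪) := eq_maximalIdeal hmax
    intro a ha
    rw [← hker, RingHom.mem_ker] at ha
    have h1 : s59t_aug 𝒪 B (Ψ' a) ∈ maximalIdeal 𝒪 := (residue_eq_zero_iff _).mp ha
    rw [mem_maximalIdeal, mem_nonunits_iff]
    intro hu
    exact (mem_nonunits_iff.mp ((mem_maximalIdeal _).mp h1)) (hu.map (s59t_aug 𝒪 B))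
  -- the image of the maximal ideal generates the maximal ideal
  have hmap : (maximalIdeal (MvPowerSeries (Fin r) 𝒪)).map (Ψ' : _ →+* MonoidAlgebra 𝒪 B) =
      maximalIdeal (MonoidAlgebra 𝒪 B) := by
    refine le_antisymm ?_ ?_
    · rw [Ideal.map_le_iff_le_comap]
      exact fun a ha => hloc a ha
    · refine (s59t_grpAlg_maximalIdeal_le (p := p) hpm hB).trans (sup_le ?_ ?_)
      · rw [s59t_augIdeal, Ideal.span_le]
        rintro _ ⟨β, rfl⟩
        have h1 := s59t_of_sub_one_mem_span (𝒪 := 𝒪) g hgen β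
        have h2 : Ideal.span (Set.range fun i : Fin r => MonoidAlgebra.of 𝒪 B (g i) - 1) ≤
            (maximalIdeal (MvPowerSeries (Fin r) 𝒪)).map
              (Ψ' : _ →+* MonoidAlgebra 𝒪 B) := by
          rw [Ideal.span_le]
          rintro _ ⟨i, rfl⟩
          refine (sup_le ?_ ?_ : _ ≤ (maximalIdeal (MvPowerSeries (Fin r) 𝒪)).map
              (Ψ' : _ →+* MonoidAlgebra 𝒪 B)) (h i)
          · rw [Ideal.span_le]
            rintro _ ⟨j, rfl⟩
            exact Ideal.mem_map_of_mem _ (X_mem_maximalIdeal j)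
          · rw [Ideal.map_le_iff_le_comap]
            intro c hc
            rw [Ideal.mem_comap]
            have e : algebraMap 𝒪 (MonoidAlgebra 𝒪 B) c =
                (Ψ' : MvPowerSeries (Fin r) 𝒪 →+* MonoidAlgebra 𝒪 B)
                  (algebraMap 𝒪 (MvPowerSeries (Fin r) 𝒪) c) := (Ψ'.commutes c).symm
            rw [e]
            refine Ideal.mem_map_of_mem _ ?_
            have h0 : c ∈ maximalIdeal 𝒪 ^ 1 := by rw [pow_one]; exact hc
            have h3 := C_mem_maximalIdeal_pow (σ := Fin r) h0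
            rw [pow_one] at h3
            exact h3
        exact h2 h1
      · rw [Ideal.map_le_iff_le_comap]
        intro c hc
        rw [Ideal.mem_comap]
        have e : algebraMap 𝒪 (MonoidAlgebra 𝒪 B) c =
            (Ψ' : MvPowerSeries (Fin r) 𝒪 →+* MonoidAlgebra 𝒪 B)
              (algebraMap 𝒪 (MvPowerSeries (Fin r) 𝒪) c) := (Ψ'.commutes c).symm
        rw [e]
        refine Ideal.mem_map_of_mem _ ?_
        have h0 : c ∈ maximalIdeal 𝒪 ^ 1 := by rw [pow_one]; exact hc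
        have h3 := C_mem_maximalIdeal_pow (σ := Fin r) h0
        rw [pow_one] at h3
        exact h3
  -- surjectivity
  have hsurj : Function.Surjective Ψ' := by
    haveI : IsHausdorff ((maximalIdeal (MvPowerSeries (Fin r) 𝒪)).map
        (Ψ' : _ →+* MonoidAlgebra 𝒪 B)) (MonoidAlgebra 𝒪 B) := by
      rw [hmap]
      infer_instance
    refine surjective_of_mk_map_comp_surjective (I := maximalIdeal (MvPowerSeries (Fin r) 𝒪))
      (Ψ' : _ →+* MonoidAlgebra 𝒪 B) ?_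
    intro x
    obtain ⟨y, rfl⟩ := Ideal.Quotient.mk_surjective x
    refine ⟨algebraMap 𝒪 _ (s59t_aug 𝒪 B y), ?_⟩
    rw [RingHom.comp_apply]
    show Ideal.Quotient.mk _ (Ψ' (algebraMap 𝒪 _ (s59t_aug 𝒪 B y))) = _
    rw [AlgHom.commutes, Ideal.Quotient.eq, hmap]
    have := s59t_grpAlg_residue y
    rw [← neg_sub]
    exact neg_mem this
  refine ⟨hsurj, ?_⟩
  obtain ⟨Ψ₀, -, hΨ₀s, hΨ₀k⟩ := s59t_grpPS (𝒪 := 𝒪) g hpm hcard hgen hord
  haveI : Finite (MvPowerSeries (Fin r) 𝒪 ⧸ maximalIdeal (MvPowerSeries (Fin r) 𝒪) ^ (n + 1)) :=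
    finite_quotient_maximalIdeal_pow (n + 1)
  have hk0 : RingHom.ker Ψ₀.toRingHom ≤
      maximalIdeal (MvPowerSeries (Fin r) 𝒪) ^ (n + 1) := by
    intro a ha
    have h1 : a ∈ RingHom.ker Ψ₀ := RingHom.mem_ker.mpr (RingHom.mem_ker.mp ha)
    rw [hΨ₀k] at h1
    exact s59t_J0_le hpm h1
  have key := s59t_ker_le_of_surjective (S₀ := MvPowerSeries (Fin r) 𝒪)
    (Λ := MonoidAlgebra 𝒪 B) (n + 1) Ψ₀.toRingHom Ψ'.toRingHom hΨ₀s hsurj hk0
  intro a ha
  exact key (RingHom.mem_ker.mpr (RingHom.mem_ker.mp ha))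

end GrpPSGen

end Fermat.Agent.Lib.S59
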