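/-
Programme (R) = S59, node (H2) (helper8), file 27: **[NAK]** — Nakayama over `𝒪[Δ]` in representation
form.  `Δ` a finite `p`-group, `R` a local ring with finite residue field of characteristic `p`.
* `s59t_coinv_trivial` : a finite abelian group of exponent `p` with an action of `Δ` which is
  generated by the `δ q - q` is trivial (dual of the fixed point lemma `s59t_exists_fixed`);
* `s59t_nak_surjective` : an equivariant `R`-linear map `f : F → F'` (`F'` finite over `R`) which
  is onto modulo the augmentation submodule `span {ρ' δ w - w}` is onto;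
* `s59t_nak_bijective` : if moreover `F`, `F'` are free over `R[Δ]` of the same rank (`s59t_evalMap`
  form), `f` is bijective.
-/
import Mathlib
import Fermat.Agent.Lib.S59.TFix
import Fermat.Agent.Lib.S59.TFree
import Fermat.Agent.Lib.S59.TCore

set_option autoImplicit false
set_option linter.style.haveILetI false
set_option linter.unusedSectionVars false

open scoped BigOperators

namespace Fermat.Agent.Lib.S59

section Coinv

variable {p : ℕ} [Fact p.Prime] {Δ : Type*} [Group Δ]

/-- **coinvariants of a `p`-group**, vector space form. -/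
theorem s59t_coinv_trivial' {Q : Type*} [AddCommGroup Q] [Module (ZMod p) Q] [Finite Q]
    [DistribMulAction Δ Q] (hΔ : IsPGroup p Δ)
    (haug : ∀ q : Q, q ∈ AddSubgroup.closure {z : Q | ∃ (δ : Δ) (q' : Q), z = δ • q' - q'}) :
    ∀ q : Q, q = 0 := by
  classical
  by_contra hne
  push Not at hne
  obtain ⟨q₀, hq₀⟩ := hne
  -- a functional which does not vanish at `q₀`
  have h1 := (Module.forall_dual_apply_eq_zero_iff (ZMod p) q₀).not.mpr hq₀
  push Not at h1
  obtain ⟨φ, hφ⟩ := h1
  -- the dual group with the contragredient action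
  let W := Q →+ ZMod p
  letI : DistribMulAction Δ W :=
    { smul := fun δ l => l.comp (DistribSMul.toAddMonoidHom Q δ⁻¹)
      one_smul := fun l => by
        refine AddMonoidHom.ext fun q => ?_
        show l ((1 : Δ)⁻¹ • q) = l q
        rw [inv_one, one_smul]
      mul_smul := fun δ γ l => by
        refine AddMonoidHom.ext fun q => ?_
        show l ((δ * γ)⁻¹ • q) = l (γ⁻¹ • δ⁻¹ • q)
        rw [mul_inv_rev, mul_smul]
      smul_zero := fun δ => rfl
      smul_add := fun δ l l' => rfl }
  have hsmul : ∀ (δ : Δ) (l : W) (q : Q), (δ • l) q = l (δ⁻¹ • q) := fun _ _ _ => rfl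
  haveI : Nontrivial W := ⟨⟨φ.toAddMonoidHom, 0, fun h => hφ (DFunLike.congr_fun h q₀)⟩⟩
  haveI : Finite W := Finite.of_injective (fun l : W => (l : Q → ZMod p)) DFunLike.coe_injective
  have hW : ∀ w : W, p • w = 0 := by
    intro w
    refine AddMonoidHom.ext fun q => ?_
    rw [AddMonoidHom.smul_apply, AddMonoidHom.zero_apply, ← Nat.cast_smul_eq_nsmul (ZMod p),
      ZMod.natCast_self, zero_smul]
  obtain ⟨l, hl, hfix⟩ := s59t_exists_fixed (p := p) (Δ := Δ) (W := W) hΔ hW
  apply hl
  refine AddMonoidHom.ext fun q => ?_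
  rw [AddMonoidHom.zero_apply]
  have hker : AddSubgroup.closure {z : Q | ∃ (δ : Δ) (q' : Q), z = δ • q' - q'} ≤ l.ker := by
    rw [AddSubgroup.closure_le]
    rintro _ ⟨δ, q', rfl⟩
    rw [SetLike.mem_coe, AddMonoidHom.mem_ker, map_sub, sub_eq_zero]
    have := DFunLike.congr_fun (hfix δ⁻¹) q'
    rw [hsmul, inv_inv] at this
    exact this
  exact hker (haug q)

/-- **coinvariants of a `p`-group**: a finite abelian group of exponent `p` with an action of a
`p`-group which is generated by the `δ q - q` is trivial. -/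
theorem s59t_coinv_trivial {Q : Type*} [AddCommGroup Q] [Finite Q] [DistribMulAction Δ Q]
    (hΔ : IsPGroup p Δ) (hQ : ∀ q : Q, p • q = 0)
    (haug : ∀ q : Q, q ∈ AddSubgroup.closure {z : Q | ∃ (δ : Δ) (q' : Q), z = δ • q' - q'}) :
    ∀ q : Q, q = 0 :=
  @s59t_coinv_trivial' p _ Δ _ Q _ (AddCommGroup.zmodModule hQ) _ _ hΔ haug

end Coinv


section Nak

open IsLocalRing

variable {p : ℕ} [Fact p.Prime] {Δ : Type*} [Group Δ]
  {R : Type*} [CommRing R] [IsLocalRing R] [Finite (ResidueField R)] [CharP (ResidueField R) p]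
  {F F' : Type*} [AddCommGroup F] [Module R F] [AddCommGroup F'] [Module R F']
  [Module.Finite R F']

theorem s59t_p_mem_maximalIdeal : (p : R) ∈ maximalIdeal R := by
  rw [← residue_eq_zero_iff, map_natCast]
  exact CharP.cast_eq_zero (ResidueField R) p

/-- **[NAK], surjectivity.** -/
theorem s59t_nak_surjective (hΔ : IsPGroup p Δ) (ρ : Δ →* Module.End R F)
    (ρ' : Δ →* Module.End R F') (f : F →ₗ[R] F') (hf : ∀ δ x, f (ρ δ x) = ρ' δ (f x))
    (haug : ∀ y : F', ∃ x : F, y - f x ∈
      Submodule.span R {z : F' | ∃ (δ : Δ) (w : F'), z = ρ' δ w - w}) :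
    Function.Surjective f := by
  classical
  set W : Submodule R F' := LinearMap.range f ⊔ (maximalIdeal R • ⊤ : Submodule R F') with hW
  -- `W` is stable
  have hstab : ∀ δ, W ≤ W.comap (ρ' δ) := by
    intro δ y hy
    rw [Submodule.mem_comap]
    obtain ⟨y₁, ⟨x, rfl⟩, y₂, hy₂, rfl⟩ := Submodule.mem_sup.mp hy
    rw [map_add, ← hf]
    exact Submodule.add_mem_sup ⟨_, rfl⟩ (Submodule.smul_top_le_comap_smul_top _ (ρ' δ) hy₂)
  let Q := F' ⧸ W
  letI : DistribMulAction Δ Q :=
    { smul := fun δ q => Submodule.mapQ W W (ρ' δ) (hstab δ) q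
      one_smul := fun q => by
        obtain ⟨y, rfl⟩ := Submodule.Quotient.mk_surjective W q
        show Submodule.mapQ W W (ρ' 1) (hstab 1) (Submodule.Quotient.mk y) = _
        rw [Submodule.mapQ_apply, map_one, Module.End.one_apply]
      mul_smul := fun δ γ q => by
        obtain ⟨y, rfl⟩ := Submodule.Quotient.mk_surjective W q
        show Submodule.mapQ W W (ρ' (δ * γ)) (hstab _) (Submodule.Quotient.mk y) =
          Submodule.mapQ W W (ρ' δ) (hstab _) (Submodule.mapQ W W (ρ' γ) (hstab _)
            (Submodule.Quotient.mk y))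
        rw [Submodule.mapQ_apply, Submodule.mapQ_apply, Submodule.mapQ_apply, map_mul,
          Module.End.mul_apply]
      smul_zero := fun δ => map_zero _
      smul_add := fun δ q q' => map_add _ _ _ }
  have hsmul : ∀ (δ : Δ) (y : F'), δ • (Submodule.Quotient.mk y : Q) =
      Submodule.Quotient.mk (ρ' δ y) := fun _ _ => rfl
  -- `Q` is finite of exponent `p`
  haveI : Module.Finite (ResidueField R) (s59t_Q R F') := s59t_finite_Q
  haveI : Finite (s59t_Q R F') := Module.finite_of_finite (ResidueField R)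
  have hle : (maximalIdeal R • ⊤ : Submodule R F') ≤ W := le_sup_right
  haveI : Finite Q := Finite.of_surjective
    (Submodule.mapQ (maximalIdeal R • ⊤ : Submodule R F') W LinearMap.id hle) (by
      intro q
      obtain ⟨y, rfl⟩ := Submodule.Quotient.mk_surjective W q
      exact ⟨Submodule.Quotient.mk y, rfl⟩)
  have hQ : ∀ q : Q, p • q = 0 := by
    intro q
    obtain ⟨y, rfl⟩ := Submodule.Quotient.mk_surjective W q
    rw [← Submodule.Quotient.mk_smul, Submodule.Quotient.mk_eq_zero]
    apply hle
    rw [← Nat.cast_smul_eq_nsmul R]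
    exact Submodule.smul_mem_smul s59t_p_mem_maximalIdeal Submodule.mem_top
  -- the closure is stable under the scalars
  have hKsmul : ∀ (r : R) (q : Q), q ∈ AddSubgroup.closure
      {z : Q | ∃ (δ : Δ) (q' : Q), z = δ • q' - q'} → r • q ∈ AddSubgroup.closure
      {z : Q | ∃ (δ : Δ) (q' : Q), z = δ • q' - q'} := by
    intro r q hq
    refine AddSubgroup.closure_induction (p := fun q _ => r • q ∈ AddSubgroup.closure
      {z : Q | ∃ (δ : Δ) (q' : Q), z = δ • q' - q'}) ?_ ?_ ?_ ?_ hq
    · rintro _ ⟨δ, q', rfl⟩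
      obtain ⟨w, rfl⟩ := Submodule.Quotient.mk_surjective W q'
      refine AddSubgroup.subset_closure ⟨δ, Submodule.Quotient.mk (r • w), ?_⟩
      rw [hsmul, hsmul, ← Submodule.Quotient.mk_sub, ← Submodule.Quotient.mk_sub,
        ← Submodule.Quotient.mk_smul, smul_sub, _root_.map_smul]
    · rw [smul_zero]
      exact AddSubgroup.zero_mem _
    · intro a b _ _ ha hb
      rw [smul_add]
      exact AddSubgroup.add_mem _ ha hb
    · intro a _ ha
      rw [smul_neg]
      exact AddSubgroup.neg_mem _ ha
  have haugQ : ∀ q : Q, q ∈ AddSubgroup.closure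
      {z : Q | ∃ (δ : Δ) (q' : Q), z = δ • q' - q'} := by
    intro q
    obtain ⟨y, rfl⟩ := Submodule.Quotient.mk_surjective W q
    obtain ⟨x, hx⟩ := haug y
    have h1 : (Submodule.Quotient.mk y : Q) = Submodule.Quotient.mk (y - f x) := by
      rw [Submodule.Quotient.eq, sub_sub_cancel]
      exact le_sup_left (a := LinearMap.range f) ⟨x, rfl⟩
    rw [h1]
    refine Submodule.span_induction (p := fun z _ => (Submodule.Quotient.mk z : Q) ∈
      AddSubgroup.closure {z : Q | ∃ (δ : Δ) (q' : Q), z = δ • q' - q'}) ?_ ?_ ?_ ?_ hx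
    · rintro _ ⟨δ, w, rfl⟩
      refine AddSubgroup.subset_closure ⟨δ, Submodule.Quotient.mk w, ?_⟩
      rw [hsmul, ← Submodule.Quotient.mk_sub]
    · rw [Submodule.Quotient.mk_zero]
      exact AddSubgroup.zero_mem _
    · intro a b _ _ ha hb
      rw [Submodule.Quotient.mk_add]
      exact AddSubgroup.add_mem _ ha hb
    · intro r a _ ha
      rw [Submodule.Quotient.mk_smul]
      exact hKsmul r _ ha
  have htriv := s59t_coinv_trivial (p := p) hΔ hQ haugQ
  -- `W = ⊤`
  have hWtop : W = ⊤ := by
    rw [eq_top_iff]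
    intro y _
    have := htriv (Submodule.Quotient.mk y)
    rwa [Submodule.Quotient.mk_eq_zero] at this
  -- Nakayama
  have hrange : LinearMap.range f = ⊤ := by
    apply top_le_iff.mp
    refine Submodule.le_of_le_smul_of_le_jacobson_bot (I := maximalIdeal R)
      (Module.Finite.fg_top) ?_ ?_
    · rw [IsLocalRing.jacobson_eq_maximalIdeal ⊥ bot_ne_top]
    · exact hWtop.ge
  exact LinearMap.range_eq_top.mp hrange

/-- **[NAK], bijectivity**: an equivariant map between free `R[Δ]`-modules of the same rank which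
is onto modulo the augmentation submodule is bijective. -/
theorem s59t_nak_bijective [Fintype Δ] (hΔ : IsPGroup p Δ) (ρ : Δ →* Module.End R F)
    (ρ' : Δ →* Module.End R F') (f : F →ₗ[R] F') (hf : ∀ δ x, f (ρ δ x) = ρ' δ (f x))
    (haug : ∀ y : F', ∃ x : F, y - f x ∈
      Submodule.span R {z : F' | ∃ (δ : Δ) (w : F'), z = ρ' δ w - w})
    {d : ℕ} (b : Fin d → F) (hb : Function.Bijective (s59t_evalMap ρ b))
    (b' : Fin d → F') (hb' : Function.Bijective (s59t_evalMap ρ' b')) :
    Function.Bijective f := by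
  have hs := s59t_nak_surjective (p := p) hΔ ρ ρ' f hf haug
  refine ⟨?_, hs⟩
  let E : (Fin d → Δ → R) ≃ₗ[R] F := LinearEquiv.ofBijective _ hb
  let E' : (Fin d → Δ → R) ≃ₗ[R] F' := LinearEquiv.ofBijective _ hb'
  let g : (Fin d → Δ → R) →ₗ[R] (Fin d → Δ → R) :=
    (E'.symm : F' →ₗ[R] _) ∘ₗ f ∘ₗ (E : _ →ₗ[R] F)
  have hg : Function.Surjective g := by
    intro c
    obtain ⟨x, hx⟩ := hs (E' c)
    refine ⟨E.symm x, ?_⟩
    show E'.symm (f (E (E.symm x))) = c
    rw [LinearEquiv.apply_symm_apply, hx, LinearEquiv.symm_apply_apply]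
  have hgi : Function.Injective g := OrzechProperty.injective_of_surjective_endomorphism g hg
  intro x y hxy
  have h1 : g (E.symm x) = g (E.symm y) := by
    show E'.symm (f (E (E.symm x))) = E'.symm (f (E (E.symm y)))
    rw [LinearEquiv.apply_symm_apply, LinearEquiv.apply_symm_apply, hxy]
  exact E.symm.injective (hgi h1)

end Nak

end Fermat.Agent.Lib.S59
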