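/-
Programme (R) = S59, node (H2) (helper8), file 32: **[NAK-dual]** — the socle form of Nakayama over
`𝒪[Δ]`.  `Δ` a finite `p`-group, `R` local with finite residue field of characteristic `p`,
`F`, `F'` free over `R[Δ]` of the same rank (`s59t_evalMap` form), `f : F → F'` equivariant.  If `f`
restricts to a bijection `F^Δ → F'^Δ` on the invariants, then `f` is bijective.
(Proof: the kernel of `f mod 𝔪` is a `Δ`-stable subspace of `F / 𝔪 F`; if non-zero it contains a
non-zero invariant vector, which is the class of a norm `N u`; then `f (N u) ∈ 𝔪 F' ∩ F'^Δ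
= 𝔪 F'^Δ = f (𝔪 F^Δ)`, so `N u ∈ 𝔪 F`.)
-/
import Mathlib
import Fermat.Agent.Lib.S59.TNak

set_option autoImplicit false
set_option linter.style.haveILetI false
set_option linter.unusedSectionVars false

open scoped BigOperators

namespace Fermat.Agent.Lib.S59

open IsLocalRing

section Basics

variable {Δ : Type*} [Group Δ] [Fintype Δ] {R : Type*} [CommRing R]
  {F : Type*} [AddCommGroup F] [Module R F]

/-- the norm `∑_δ ρ δ x` is invariant. -/
theorem s59t_norm_fixed (ρ : Δ →* Module.End R F) (x : F) (γ : Δ) :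
    ρ γ (∑ δ, ρ δ x) = ∑ δ, ρ δ x := by
  calc ρ γ (∑ δ, ρ δ x) = ∑ δ, ρ (γ * δ) x := by
        rw [map_sum]
        refine Finset.sum_congr rfl fun δ _ => ?_
        rw [map_mul]
        rfl
    _ = ∑ δ, ρ δ x := Equiv.sum_comp (Equiv.mulLeft γ) (fun δ => ρ δ x)

theorem s59t_finite_of_evalMap (ρ : Δ →* Module.End R F) {d : ℕ} (b : Fin d → F)
    (hb : Function.Surjective (s59t_evalMap ρ b)) : Module.Finite R F :=
  Module.Finite.of_surjective _ hb

theorem s59t_free_of_evalMap (ρ : Δ →* Module.End R F) {d : ℕ} (b : Fin d → F)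
    (hb : Function.Bijective (s59t_evalMap ρ b)) : Module.Free R F :=
  Module.Free.of_equiv (LinearEquiv.ofBijective _ hb)

theorem s59t_finrank_of_evalMap [Nontrivial R] (ρ : Δ →* Module.End R F) {d : ℕ} (b : Fin d → F)
    (hb : Function.Bijective (s59t_evalMap ρ b)) :
    Module.finrank R F = d * Fintype.card Δ := by
  rw [← (LinearEquiv.ofBijective _ hb).finrank_eq, Module.finrank_pi_fintype]
  simp [Module.finrank_fintype_fun_eq_card]

/-- the coordinates of an invariant vector are constant. -/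
theorem s59t_coord_const (ρ : Δ →* Module.End R F) {d : ℕ} (b : Fin d → F)
    (hb : Function.Injective (s59t_evalMap ρ b)) (c : Fin d → Δ → R)
    (hfix : ∀ γ, ρ γ (s59t_evalMap ρ b c) = s59t_evalMap ρ b c) (i : Fin d) (δ : Δ) :
    c i δ = c i 1 :=
  s59t_const_of_transl d c (fun γ => hb (by rw [s59t_evalMap_transl]; exact hfix γ)) i δ

/-- the evaluation of constant coordinates. -/
theorem s59t_evalMap_const (ρ : Δ →* Module.End R F) {d : ℕ} (b : Fin d → F) (c : Fin d → Δ → R)
    (hc : ∀ i δ, c i δ = c i 1) :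
    s59t_evalMap ρ b c = ∑ i, c i 1 • ∑ δ, ρ δ (b i) := by
  rw [s59t_evalMap_apply]
  refine Finset.sum_congr rfl fun i _ => ?_
  rw [Finset.smul_sum]
  refine Finset.sum_congr rfl fun δ _ => ?_
  rw [hc i δ]

/-- a surjective linear map between free `R[Δ]`-modules of the same rank is bijective. -/
theorem s59t_bijective_of_surjective {F' : Type*} [AddCommGroup F'] [Module R F']
    (ρ : Δ →* Module.End R F) (ρ' : Δ →* Module.End R F') (f : F →ₗ[R] F')
    (hs : Function.Surjective f)
    {d : ℕ} (b : Fin d → F) (hb : Function.Bijective (s59t_evalMap ρ b))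
    (b' : Fin d → F') (hb' : Function.Bijective (s59t_evalMap ρ' b')) :
    Function.Bijective f := by
  refine ⟨?_, hs⟩
  let E : (Fin d → Δ → R) ≃ₗ[R] F := LinearEquiv.ofBijective _ hb
  let E' : (Fin d → Δ → R) ≃ₗ[R] F' := LinearEquiv.ofBijective _ hb'
  let g : (Fin d → Δ → R) →ₗ[R] (Fin d → Δ → R) :=
    (E'.symm : F' →ₗ[R] _) ∘ₗ f ∘ₗ (E : _ →ₗ[R] F)
  have hg : Function.Surjective g := by
    intro c
    obtain ⟨x, hx⟩ := hs (E' c)
    refine ⟨E.symm x, ?_⟩
    show E'.symm (f (E (E.symm x))) = c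
    rw [LinearEquiv.apply_symm_apply, hx, LinearEquiv.symm_apply_apply]
  have hgi : Function.Injective g := OrzechProperty.injective_of_surjective_endomorphism g hg
  intro x y hxy
  have h1 : g (E.symm x) = g (E.symm y) := by
    show E'.symm (f (E (E.symm x))) = E'.symm (f (E (E.symm y)))
    rw [LinearEquiv.apply_symm_apply, LinearEquiv.apply_symm_apply, hxy]
  exact E.symm.injective (hgi h1)

end Basics

section NakDual

variable {p : ℕ} [Fact p.Prime] {Δ : Type*} [Group Δ] [Fintype Δ]
  {R : Type*} [CommRing R] [IsLocalRing R] [Finite (ResidueField R)] [CharP (ResidueField R) p]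
  {F F' : Type*} [AddCommGroup F] [Module R F] [AddCommGroup F'] [Module R F']

/-- freeness over `R[Δ]` passes to the reduction modulo `𝔪`. -/
theorem s59t_evalMap_red_bijective [Module.Finite R F] [Module.Free R F]
    (ρ : Δ →* Module.End R F) {d : ℕ} (b : Fin d → F)
    (hb : Function.Bijective (s59t_evalMap ρ b)) :
    Function.Bijective (s59t_evalMap (s59t_redRep ρ) (fun i => s59t_mk R F (b i))) := by
  haveI : Module.Finite (ResidueField R) (s59t_Q R F) := s59t_finite_Q
  have hs : Function.Surjective (s59t_evalMap (s59t_redRep ρ) (fun i => s59t_mk R F (b i))) := by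
    intro v
    obtain ⟨x, rfl⟩ := s59t_mk_surjective v
    obtain ⟨c, rfl⟩ := hb.2 x
    exact ⟨_, (s59t_mk_evalMap ρ b c).symm⟩
  have hrk : Module.finrank (ResidueField R) (Fin d → Δ → ResidueField R) =
      Module.finrank (ResidueField R) (s59t_Q R F) := by
    rw [s59t_finrank_Q, s59t_finrank_of_evalMap ρ b hb, Module.finrank_pi_fintype]
    simp [Module.finrank_fintype_fun_eq_card]
  exact ⟨(LinearMap.injective_iff_surjective_of_finrank_eq_finrank hrk).mpr hs, hs⟩

/-- **[NAK-dual]**: an equivariant map between free `R[Δ]`-modules of the same rank which is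
bijective on the invariants is bijective. -/
theorem s59t_nak_dual (hΔ : IsPGroup p Δ) (ρ : Δ →* Module.End R F)
    (ρ' : Δ →* Module.End R F') (f : F →ₗ[R] F') (hf : ∀ δ x, f (ρ δ x) = ρ' δ (f x))
    {d : ℕ} (b : Fin d → F) (hb : Function.Bijective (s59t_evalMap ρ b))
    (b' : Fin d → F') (hb' : Function.Bijective (s59t_evalMap ρ' b'))
    (hinj : ∀ x, (∀ δ, ρ δ x = x) → f x = 0 → x = 0)
    (hsurj : ∀ y, (∀ δ, ρ' δ y = y) → ∃ x, (∀ δ, ρ δ x = x) ∧ f x = y) :
    Function.Bijective f := by
  classical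
  haveI : Module.Finite R F := s59t_finite_of_evalMap ρ b hb.2
  haveI : Module.Free R F := s59t_free_of_evalMap ρ b hb
  haveI : Module.Finite R F' := s59t_finite_of_evalMap ρ' b' hb'.2
  haveI : Module.Free R F' := s59t_free_of_evalMap ρ' b' hb'
  haveI : Module.Finite (ResidueField R) (s59t_Q R F) := s59t_finite_Q
  haveI : Module.Finite (ResidueField R) (s59t_Q R F') := s59t_finite_Q
  have hbr := s59t_evalMap_red_bijective ρ b hb
  have hbr' := s59t_evalMap_red_bijective ρ' b' hb'
  -- the reduced map is injective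
  have hfbar : Function.Injective (s59t_red f) := by
    rw [← LinearMap.ker_eq_bot]
    by_contra hK
    obtain ⟨v, hvK, hv0, hvfix⟩ := s59t_fix_rep (p := p) (s59t_redRep ρ) hΔ
      (LinearMap.ker (s59t_red f)) hK (fun δ v hv => by
        rw [LinearMap.mem_ker] at hv ⊢
        obtain ⟨x, rfl⟩ := s59t_mk_surjective v
        rw [s59t_redRep_mk, s59t_red_mk, hf, ← s59t_redRep_mk, ← s59t_red_mk, hv, map_zero])
    rw [LinearMap.mem_ker] at hvK
    obtain ⟨cbar, rfl⟩ := hbr.2 v
    have hconst := s59t_coord_const (s59t_redRep ρ) _ hbr.1 cbar hvfix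
    have hex : ∀ i, ∃ a : R, residue R a = cbar i 1 := fun i => residue_surjective _
    choose a ha using hex
    set u : F := ∑ i, a i • b i with hu
    set Nu : F := ∑ δ, ρ δ u with hNu
    have hNufix : ∀ δ, ρ δ Nu = Nu := fun δ => s59t_norm_fixed ρ u δ
    have hv : s59t_evalMap (s59t_redRep ρ) (fun i => s59t_mk R F (b i)) cbar =
        s59t_mk R F Nu := by
      rw [s59t_evalMap_const _ _ cbar hconst, hNu, hu]
      have h1 : ∑ δ, ρ δ (∑ i, a i • b i) = ∑ i, a i • ∑ δ, ρ δ (b i) := by
        simp only [map_sum, map_smul, Finset.smul_sum]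
        exact Finset.sum_comm
      rw [h1, map_sum]
      refine Finset.sum_congr rfl fun i _ => ?_
      rw [s59t_mk_smul, ha, map_sum]
      rfl
    rw [hv] at hvK hv0
    -- `f (N u) ∈ 𝔪 F'`
    have h1 : f Nu ∈ (maximalIdeal R • ⊤ : Submodule R F') := by
      rw [← s59t_mk_eq_zero, ← s59t_red_mk]
      exact hvK
    obtain ⟨c', hc'⟩ := hb'.2 (f Nu)
    have hc'const := s59t_coord_const ρ' b' hb'.1 c' (fun γ => by rw [hc', ← hf, hNufix])
    have hc'm : ∀ i, c' i 1 ∈ maximalIdeal R := by
      have h2 := s59t_mk_evalMap ρ' b' c'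
      rw [hc', (s59t_mk_eq_zero _).mpr h1] at h2
      have h0 := hbr'.1 (h2.symm.trans (map_zero _).symm)
      intro i
      have h3 := congrFun (congrFun h0 i) 1
      exact (residue_eq_zero_iff _).mp h3
    have hex' : ∀ i, ∃ x, (∀ δ, ρ δ x = x) ∧ f x = ∑ δ, ρ' δ (b' i) :=
      fun i => hsurj _ (fun δ => s59t_norm_fixed ρ' (b' i) δ)
    choose x hxfix hxf using hex'
    have h2 : f Nu = f (∑ i, c' i 1 • x i) := by
      rw [← hc', s59t_evalMap_const ρ' b' c' hc'const, map_sum]
      refine Finset.sum_congr rfl fun i _ => ?_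
      rw [map_smul, hxf]
    have h3 : Nu = ∑ i, c' i 1 • x i := by
      have h4 := hinj (Nu - ∑ i, c' i 1 • x i) (fun δ => by
        rw [map_sub, hNufix, map_sum]
        congr 1
        refine Finset.sum_congr rfl fun i _ => ?_
        rw [map_smul, hxfix]) (by rw [map_sub, h2, sub_self])
      exact sub_eq_zero.mp h4
    apply hv0
    rw [s59t_mk_eq_zero, h3]
    exact Submodule.sum_mem _ fun i _ => Submodule.smul_mem_smul (hc'm i) Submodule.mem_top
  -- hence surjective
  have hrk : Module.finrank (ResidueField R) (s59t_Q R F) =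
      Module.finrank (ResidueField R) (s59t_Q R F') := by
    rw [s59t_finrank_Q, s59t_finrank_Q, s59t_finrank_of_evalMap ρ b hb,
      s59t_finrank_of_evalMap ρ' b' hb']
  have hfs : Function.Surjective (s59t_red f) :=
    (LinearMap.injective_iff_surjective_of_finrank_eq_finrank hrk).mp hfbar
  -- Nakayama
  have hs : Function.Surjective f := by
    rw [← LinearMap.range_eq_top]
    apply top_le_iff.mp
    refine Submodule.le_of_le_smul_of_le_jacobson_bot (I := maximalIdeal R)
      (Module.Finite.fg_top) ?_ ?_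
    · rw [IsLocalRing.jacobson_eq_maximalIdeal ⊥ bot_ne_top]
    · intro y _
      obtain ⟨v, hv⟩ := hfs (s59t_mk R F' y)
      obtain ⟨x, rfl⟩ := s59t_mk_surjective v
      rw [s59t_red_mk, s59t_mk_eq_mk] at hv
      have h1 : y = f x + -(f x - y) := by abel
      rw [h1]
      exact Submodule.add_mem_sup ⟨x, rfl⟩ (Submodule.neg_mem _ hv)
  exact s59t_bijective_of_surjective ρ ρ' f hs b hb b' hb'

end NakDual

end Fermat.Agent.Lib.S59
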