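/-
Programme (R) = S59, node (H2) (helper8), file 30: **the Taylor–Wiles lemma at `Γ_H`-level**,
abstract core.  Four modules `Y` (level `N`, `Γ_H`), `Y₀` (level `N`, `Γ₀`), `Y'` (level `N q`,
`Γ_{H'}`), `Y₀'` (level `N q`, `Γ₀`) with `r : Y → Y'` (restriction), `cor`, `cor'` (transfers),
`rA : Y₀ → Y₀'` and Mackey `cor' ∘ r = rA ∘ cor`; idempotents `ε, ε₀, ε', ε₀'` (localisation at `𝔪`,
resp. at `(𝔪, U_q - α)` for the primed ones); `ε Y`, `ε' Y'` free over `R[Δ]` of the SAME rank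
(`s59t_H2` at both levels + the `Γ₀`-level TW lemma), `cor` onto, `ker cor'` = augmentation, and
`y ↦ ε₀' (rA y)` onto `ε₀' Y₀'` (`Γ₀`-level TW lemma).  Then
  `ι : ε Y → ε' Y'`, `x ↦ ε' (r x)`
is BIJECTIVE ([NAK]).  Also: transport of freeness along a group isomorphism.
-/
import Mathlib
import Fermat.Agent.Lib.S59.TNak
import Fermat.Agent.Lib.S59.TWrap

set_option autoImplicit false
set_option linter.style.haveILetI false
set_option linter.unusedSectionVars false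

open scoped BigOperators
open IsLocalRing

namespace Fermat.Agent.Lib.S59

section Transport

variable {R : Type*} [CommRing R] {Δ Δ' : Type*} [Group Δ] [Fintype Δ] [Group Δ'] [Fintype Δ']
  {V : Type*} [AddCommGroup V] [Module R V]

/-- freeness over `R[Δ]` transports along a group isomorphism `Δ' ≃ Δ`. -/
theorem s59t_evalMap_comp_bijective (ρ : Δ →* Module.End R V) (φ : Δ' →* Δ)
    (hφ : Function.Bijective φ) {d : ℕ} (b : Fin d → V)
    (hb : Function.Bijective (s59t_evalMap ρ b)) :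
    Function.Bijective (s59t_evalMap (ρ.comp φ) b) := by
  let e : Δ' ≃ Δ := Equiv.ofBijective φ hφ
  have key : ∀ c : Fin d → Δ' → R,
      s59t_evalMap (ρ.comp φ) b c = s59t_evalMap ρ b (fun i δ => c i (e.symm δ)) := by
    intro c
    rw [s59t_evalMap_apply, s59t_evalMap_apply]
    refine Finset.sum_congr rfl fun i _ => ?_
    rw [← Equiv.sum_comp e]
    refine Finset.sum_congr rfl fun δ' _ => ?_
    rw [Equiv.symm_apply_apply]
    rfl
  constructor
  · intro c c' h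
    rw [key, key] at h
    have h1 := hb.1 h
    funext i δ'
    have := congrFun (congrFun h1 i) (e δ')
    simpa using this
  · intro v
    obtain ⟨c, rfl⟩ := hb.2 v
    refine ⟨fun i δ' => c i (e δ'), ?_⟩
    rw [key]
    congr 1
    funext i δ
    simp

end Transport

section Core

variable {p : ℕ} [Fact p.Prime] {R : Type*} [CommRing R] [IsLocalRing R]
  [Finite (ResidueField R)] [CharP (ResidueField R) p]
  {Δ : Type*} [Group Δ] [Fintype Δ]
  {Y : Type*} [AddCommGroup Y] [Module R Y] [Module.Finite R Y] [Module.Free R Y]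
  {Y₀ : Type*} [AddCommGroup Y₀] [Module R Y₀]
  {Y' : Type*} [AddCommGroup Y'] [Module R Y'] [Module.Finite R Y'] [Module.Free R Y']
  {Y₀' : Type*} [AddCommGroup Y₀'] [Module R Y₀']

/-- the map `ε Y → ε' Y'`, `x ↦ ε' (r x)`. -/
noncomputable def s59t_iotaH (ε : Module.End R Y) (ε' : Module.End R Y') (r : Y →ₗ[R] Y') :
    s59t_part ε →ₗ[R] s59t_part ε' :=
  s59t_proj ε' ∘ₗ r ∘ₗ (s59t_part ε).subtype

theorem s59t_iotaH_coe (ε : Module.End R Y) (ε' : Module.End R Y') (r : Y →ₗ[R] Y')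
    (x : s59t_part ε) : ((s59t_iotaH ε ε' r x : s59t_part ε') : Y') = ε' (r (x : Y)) := rfl

/-- **the Taylor–Wiles lemma at `Γ_H`-level, abstract core.** -/
theorem s59t_TWH_core (hΔ : IsPGroup p Δ) (ρ : Δ →* Module.End R Y) (ρ' : Δ →* Module.End R Y')
    (r : Y →ₗ[R] Y') (cor : Y →ₗ[R] Y₀) (cor' : Y' →ₗ[R] Y₀') (rA : Y₀ →ₗ[R] Y₀')
    (hmack : ∀ x, cor' (r x) = rA (cor x)) (hr : ∀ δ x, r (ρ δ x) = ρ' δ (r x))
    {ε : Module.End R Y} {ε₀ : Module.End R Y₀} {ε' : Module.End R Y'} {ε₀' : Module.End R Y₀'}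
    (hρε : ∀ δ y, ε (ρ δ y) = ρ δ (ε y)) (hρε' : ∀ δ y, ε' (ρ' δ y) = ρ' δ (ε' y))
    (hcε : ∀ x, ε₀ (cor x) = cor (ε x)) (hcε' : ∀ x, ε₀' (cor' x) = cor' (ε' x))
    {d : ℕ} (b : Fin d → s59t_part ε)
    (hb : Function.Bijective (s59t_evalMap (s59t_partRep ρ hρε) b))
    (b' : Fin d → s59t_part ε')
    (hb' : Function.Bijective (s59t_evalMap (s59t_partRep ρ' hρε') b'))
    (hsurj : Function.Surjective (s59t_partMap (ε := ε) (ε' := ε₀) cor hcε))
    (hker' : LinearMap.ker (s59t_partMap (ε := ε') (ε' := ε₀') cor' hcε') =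
      Submodule.span R {z | ∃ δ x, z = s59t_partRep ρ' hρε' δ x - x})
    (hf₀ : ∀ z : s59t_part ε₀', ∃ y : s59t_part ε₀, (z : Y₀') = ε₀' (rA (y : Y₀))) :
    Function.Bijective (s59t_iotaH ε ε' r) := by
  haveI : Module.Finite R (s59t_part ε') := s59t_part_finite ε'
  refine s59t_nak_bijective (p := p) hΔ (s59t_partRep ρ hρε) (s59t_partRep ρ' hρε')
    (s59t_iotaH ε ε' r) ?_ ?_ b hb b' hb'
  · intro δ x
    apply Subtype.ext
    rw [s59t_iotaH_coe, s59t_partRep_coe, s59t_partRep_coe, s59t_iotaH_coe, hr, hρε']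
  · intro y'
    obtain ⟨y₀, hy₀⟩ := hf₀ (s59t_partMap (ε := ε') (ε' := ε₀') cor' hcε' y')
    obtain ⟨x, rfl⟩ := hsurj y₀
    refine ⟨x, ?_⟩
    rw [← hker', LinearMap.mem_ker, map_sub, sub_eq_zero]
    apply Subtype.ext
    rw [hy₀, s59t_partMap_coe, s59t_partMap_coe, s59t_iotaH_coe, ← hcε', hmack]

end Core

end Fermat.Agent.Lib.S59
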