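/-
Programme (R) = S59, node (H2) (helper8), file 25: **[TC] type change** ("Carayol: type `1` → type
`χ`"), abstract form.  Mathlib only (+ `s59t_evalMap`).

`Δ` a finite commutative group with complementary subgroups `B`, `C` (`Δ = B × C`), `M` an `𝒪`-module
with a representation `ρ` of `Δ`, FREE over `𝒪[Δ]` with basis `b` (`s59t_evalMap ρ b` bijective),
`ψ : Δ →* 𝒪ˣ` a character.  `s59t_eig ρ B ψ = {x | ρ β x = ψ β • x ∀ β ∈ B}`.  Then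
* `s59t_eig_free` : `s59t_eig ρ B ψ` is free over `𝒪[C]` with basis `N_ψ b_i`,
  `N_ψ = ∑_{β ∈ B} ψ(β)⁻¹ ρ(β)` (`s59t_normPsi`);
* `s59t_eigEquiv` : an `𝒪`-linear, `C`-equivariant isomorphism `Φ : eig ψ ≃ eig 1` with
  `x - Φ x ∈ I • M` as soon as `ψ β - 1 ∈ I` for all `β ∈ B` (`s59t_eigEquiv_sub_mem`);
* `s59t_eig_inf_smul` : `eig ψ ∩ I • M = I • eig ψ` (saturation);
* `s59t_eigQuotEquiv` : the induced isomorphism `eig ψ ⧸ I ≃ eig 1 ⧸ I`, characterised by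
  `θ [x] = [y] ↔ x - y ∈ I • M`, hence compatible with every endomorphism of `M` commuting
  with `ρ(B)` (`s59t_eigQuotEquiv_comm`).
-/
import Mathlib
import Fermat.Agent.Lib.S59.TFree

set_option autoImplicit false
set_option linter.unusedSectionVars false
set_option linter.style.haveILetI false

open scoped BigOperators

noncomputable section

namespace Fermat.Agent.Lib.S59

section TypeChange

variable {𝒪 : Type*} [CommRing 𝒪] {Δ : Type*} [CommGroup Δ] [Fintype Δ]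
  {M : Type*} [AddCommGroup M] [Module 𝒪 M] (ρ : Δ →* Module.End 𝒪 M)
  (B C : Subgroup Δ) [Fintype B] [Fintype C] (ψ : Δ →* 𝒪ˣ)

/-- the `ψ`-eigen-submodule for the subgroup `B`. -/
def s59t_eig : Submodule 𝒪 M where
  carrier := {x | ∀ β ∈ B, ρ β x = ((ψ β : 𝒪ˣ) : 𝒪) • x}
  zero_mem' := fun β _ => by rw [map_zero, smul_zero]
  add_mem' := fun {x y} hx hy β hβ => by
    show ρ β (x + y) = _ • (x + y)
    rw [map_add, hx β hβ, hy β hβ, smul_add]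
  smul_mem' := fun c x hx β hβ => by
    show ρ β (c • x) = _ • c • x
    rw [map_smul, hx β hβ, smul_comm]

theorem s59t_mem_eig (x : M) :
    x ∈ s59t_eig ρ B ψ ↔ ∀ β ∈ B, ρ β x = ((ψ β : 𝒪ˣ) : 𝒪) • x := Iff.rfl

/-- the twisted norm `N_ψ = ∑_{β ∈ B} ψ(β)⁻¹ ρ(β)`. -/
def s59t_normPsi : Module.End 𝒪 M := ∑ β : B, (((ψ (β : Δ))⁻¹ : 𝒪ˣ) : 𝒪) • ρ (β : Δ)

theorem s59t_normPsi_apply (x : M) :
    s59t_normPsi ρ B ψ x = ∑ β : B, (((ψ (β : Δ))⁻¹ : 𝒪ˣ) : 𝒪) • ρ (β : Δ) x := by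
  rw [s59t_normPsi, LinearMap.sum_apply]
  rfl

theorem s59t_normPsi_mem (x : M) : s59t_normPsi ρ B ψ x ∈ s59t_eig ρ B ψ := by
  intro β hβ
  rw [s59t_normPsi_apply, map_sum, Finset.smul_sum]
  have h1 : ∑ β' : B, ((ψ β : 𝒪ˣ) : 𝒪) • (((ψ (β' : Δ))⁻¹ : 𝒪ˣ) : 𝒪) • ρ (β' : Δ) x =
      ∑ β' : B, ((ψ β : 𝒪ˣ) : 𝒪) • (((ψ ((⟨β, hβ⟩ * β' : B) : Δ))⁻¹ : 𝒪ˣ) : 𝒪) •
        ρ ((⟨β, hβ⟩ * β' : B) : Δ) x :=
    (Equiv.sum_comp (Equiv.mulLeft (⟨β, hβ⟩ : B))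
      (fun β' : B => ((ψ β : 𝒪ˣ) : 𝒪) • (((ψ (β' : Δ))⁻¹ : 𝒪ˣ) : 𝒪) • ρ (β' : Δ) x)).symm
  rw [h1]
  refine Finset.sum_congr rfl fun β' _ => ?_
  rw [Subgroup.coe_mul, map_mul, map_mul, _root_.map_smul, smul_smul]
  congr 1
  show _ = ((ψ β : 𝒪ˣ) : 𝒪) * (((ψ β * ψ (β' : Δ))⁻¹ : 𝒪ˣ) : 𝒪)
  rw [mul_inv, Units.val_mul, ← mul_assoc, ← Units.val_mul, mul_inv_cancel, Units.val_one,
    one_mul]

variable (hBC : Function.Bijective (fun x : B × C => ((x.1 : Δ) * (x.2 : Δ))))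

/-- the bijection `B × C ≃ Δ`. -/
def s59t_bcEquiv : B × C ≃ Δ := Equiv.ofBijective _ hBC

theorem s59t_bcEquiv_apply (x : B × C) : s59t_bcEquiv B C hBC x = (x.1 : Δ) * (x.2 : Δ) := rfl

theorem s59t_bcEquiv_symm_mul (β : B) (γ : C) :
    (s59t_bcEquiv B C hBC).symm ((β : Δ) * (γ : Δ)) = (β, γ) :=
  (s59t_bcEquiv B C hBC).symm_apply_apply (β, γ)

/-- spreading out coordinates over `C` to `ψ⁻¹`-equivariant coordinates over `Δ`. -/
def s59t_spread {d : ℕ} (c : Fin d → C → 𝒪) : Fin d → Δ → 𝒪 :=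
  fun i δ => (((ψ (((s59t_bcEquiv B C hBC).symm δ).1 : Δ))⁻¹ : 𝒪ˣ) : 𝒪) *
    c i ((s59t_bcEquiv B C hBC).symm δ).2

theorem s59t_spread_mul {d : ℕ} (c : Fin d → C → 𝒪) (i : Fin d) (β : B) (γ : C) :
    s59t_spread B C ψ hBC c i ((β : Δ) * (γ : Δ)) = (((ψ (β : Δ))⁻¹ : 𝒪ˣ) : 𝒪) * c i γ := by
  rw [s59t_spread, s59t_bcEquiv_symm_mul]

/-- **the key computation**: `∑ c_{i,γ} ρ(γ) N_ψ b_i` in the coordinates of `b`. -/
theorem s59t_evalMap_spread {d : ℕ} (b : Fin d → M) (c : Fin d → C → 𝒪) :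
    s59t_evalMap ρ b (s59t_spread B C ψ hBC c) =
      s59t_evalMap (ρ.comp C.subtype) (fun i => s59t_normPsi ρ B ψ (b i)) c := by
  rw [s59t_evalMap_apply, s59t_evalMap_apply]
  refine Finset.sum_congr rfl fun i _ => ?_
  rw [← Equiv.sum_comp (s59t_bcEquiv B C hBC), Fintype.sum_prod_type, Finset.sum_comm]
  refine Finset.sum_congr rfl fun γ _ => ?_
  rw [s59t_normPsi_apply, map_sum, Finset.smul_sum]
  refine Finset.sum_congr rfl fun β _ => ?_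
  rw [s59t_bcEquiv_apply, s59t_spread_mul, _root_.map_smul, smul_smul, mul_comm (c i γ),
    mul_comm (β : Δ), map_mul]
  rfl

/-! ### Freeness of the eigen-submodule over `𝒪[C]` -/

variable {d : ℕ} (b : Fin d → M)

theorem s59t_spread_apply_coe (c : Fin d → C → 𝒪) (i : Fin d) (γ : C) :
    s59t_spread B C ψ hBC c i (γ : Δ) = c i γ := by
  have h := s59t_spread_mul B C ψ hBC c i 1 γ
  rw [Subgroup.coe_one, one_mul, map_one, inv_one, Units.val_one, one_mul] at h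
  exact h

theorem s59t_spread_injective :
    Function.Injective (s59t_spread B C ψ hBC : (Fin d → C → 𝒪) → Fin d → Δ → 𝒪) := by
  intro c c' h
  funext i γ
  rw [← s59t_spread_apply_coe B C ψ hBC c i γ, h, s59t_spread_apply_coe]

/-- the evaluation map of the family `N_ψ b_i` over `𝒪[C]`. -/
def s59t_eigEval : (Fin d → C → 𝒪) →ₗ[𝒪] M :=
  s59t_evalMap (ρ.comp C.subtype) (fun i => s59t_normPsi ρ B ψ (b i))

theorem s59t_eigEval_eq (c : Fin d → C → 𝒪) :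
    s59t_eigEval ρ B C ψ b c = s59t_evalMap ρ b (s59t_spread B C ψ hBC c) :=
  (s59t_evalMap_spread ρ B C ψ hBC b c).symm

theorem s59t_rho_mem_eig {x : M} (hx : x ∈ s59t_eig ρ B ψ) (δ : Δ) :
    ρ δ x ∈ s59t_eig ρ B ψ := by
  intro β hβ
  have h1 : ρ β (ρ δ x) = ρ δ (ρ β x) := by
    rw [← Module.End.mul_apply, ← Module.End.mul_apply, ← map_mul, ← map_mul, mul_comm]
  rw [h1, hx β hβ, _root_.map_smul]

theorem s59t_eigEval_mem (c : Fin d → C → 𝒪) : s59t_eigEval ρ B C ψ b c ∈ s59t_eig ρ B ψ := by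
  rw [s59t_eigEval, s59t_evalMap_apply]
  refine Submodule.sum_mem _ fun i _ => Submodule.sum_mem _ fun γ _ => Submodule.smul_mem _ _ ?_
  exact s59t_rho_mem_eig ρ B ψ (s59t_normPsi_mem ρ B ψ (b i)) _

variable (hb : Function.Bijective (s59t_evalMap ρ b))

include hb in
/-- the coordinates of an eigenvector are spread out from `C`. -/
theorem s59t_coord_of_mem_eig (c : Fin d → Δ → 𝒪) (hx : s59t_evalMap ρ b c ∈ s59t_eig ρ B ψ) :
    c = s59t_spread B C ψ hBC (fun i γ => c i (γ : Δ)) := by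
  have h1 : ∀ β ∈ B, s59t_transl 𝒪 Δ d β c = ((ψ β : 𝒪ˣ) : 𝒪) • c := by
    intro β hβ
    apply hb.1
    rw [s59t_evalMap_transl, hx β hβ, _root_.map_smul]
  funext i δ
  obtain ⟨⟨β, γ⟩, rfl⟩ := (s59t_bcEquiv B C hBC).surjective δ
  rw [s59t_bcEquiv_apply, s59t_spread_mul]
  have h2 := congrFun (congrFun (h1 ((β⁻¹ : B) : Δ) (β⁻¹ : B).2) i) (γ : Δ)
  rw [s59t_transl_apply, Pi.smul_apply, Pi.smul_apply, smul_eq_mul, Subgroup.coe_inv, inv_inv,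
    map_inv] at h2
  exact h2

include hb hBC in
/-- **the eigen-submodule is free over `𝒪[C]` with basis `N_ψ b_i`.** -/
theorem s59t_eig_free :
    Function.Injective (s59t_eigEval ρ B C ψ b) ∧
      LinearMap.range (s59t_eigEval ρ B C ψ b) = s59t_eig ρ B ψ := by
  refine ⟨fun c c' h => ?_, le_antisymm ?_ ?_⟩
  · rw [s59t_eigEval_eq ρ B C ψ hBC, s59t_eigEval_eq ρ B C ψ hBC] at h
    exact s59t_spread_injective B C ψ hBC (hb.1 h)
  · rintro _ ⟨c, rfl⟩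
    exact s59t_eigEval_mem ρ B C ψ b c
  · intro x hx
    obtain ⟨c, rfl⟩ := hb.2 x
    refine ⟨fun i γ => c i (γ : Δ), ?_⟩
    rw [s59t_eigEval_eq ρ B C ψ hBC, ← s59t_coord_of_mem_eig ρ B C ψ hBC b hb c hx]

/-! ### The comparison `eig ψ ≃ eig 1` and its reduction modulo an ideal -/

include hb hBC in
theorem s59t_eigEval_cod_bijective :
    Function.Bijective ((s59t_eigEval ρ B C ψ b).codRestrict (s59t_eig ρ B ψ)
      (s59t_eigEval_mem ρ B C ψ b)) := by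
  obtain ⟨h1, h2⟩ := s59t_eig_free ρ B C ψ hBC b hb
  refine ⟨fun c c' h => h1 ?_, fun x => ?_⟩
  · have := congrArg (fun z : s59t_eig ρ B ψ => (z : M)) h
    exact this
  · have hx : (x : M) ∈ LinearMap.range (s59t_eigEval ρ B C ψ b) := by rw [h2]; exact x.2
    obtain ⟨c, hc⟩ := hx
    exact ⟨c, Subtype.ext hc⟩

/-- coordinates on the eigen-submodule. -/
def s59t_eigCoord : (Fin d → C → 𝒪) ≃ₗ[𝒪] s59t_eig ρ B ψ :=
  LinearEquiv.ofBijective _ (s59t_eigEval_cod_bijective ρ B C ψ hBC b hb)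

theorem s59t_eigCoord_coe (c : Fin d → C → 𝒪) :
    ((s59t_eigCoord ρ B C ψ hBC b hb c : s59t_eig ρ B ψ) : M) = s59t_eigEval ρ B C ψ b c := rfl

/-- **the comparison isomorphism `eig ψ ≃ eig 1`** (same coordinates over `𝒪[C]`). -/
def s59t_eigEquiv : s59t_eig ρ B ψ ≃ₗ[𝒪] s59t_eig ρ B (1 : Δ →* 𝒪ˣ) :=
  (s59t_eigCoord ρ B C ψ hBC b hb).symm ≪≫ₗ s59t_eigCoord ρ B C 1 hBC b hb

theorem s59t_eigEquiv_coord (c : Fin d → C → 𝒪) :
    s59t_eigEquiv ρ B C ψ hBC b hb (s59t_eigCoord ρ B C ψ hBC b hb c) =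
      s59t_eigCoord ρ B C 1 hBC b hb c := by
  rw [s59t_eigEquiv, LinearEquiv.trans_apply, LinearEquiv.symm_apply_apply]

/-- a linear map preserves `I • ⊤`. -/
theorem s59t_map_mem_smul_top {M' : Type*} [AddCommGroup M'] [Module 𝒪 M'] (I : Ideal 𝒪)
    (f : M →ₗ[𝒪] M') {x : M} (hx : x ∈ (I • ⊤ : Submodule 𝒪 M)) :
    f x ∈ (I • ⊤ : Submodule 𝒪 M') :=
  Submodule.smul_top_le_comap_smul_top I f hx

/-- the two norms agree modulo `I`. -/
theorem s59t_normPsi_sub_mem (I : Ideal 𝒪) (hψ : ∀ β ∈ B, ((ψ β : 𝒪ˣ) : 𝒪) - 1 ∈ I) (y : M) :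
    s59t_normPsi ρ B ψ y - s59t_normPsi ρ B 1 y ∈ (I • ⊤ : Submodule 𝒪 M) := by
  rw [s59t_normPsi_apply, s59t_normPsi_apply, ← Finset.sum_sub_distrib]
  refine Submodule.sum_mem _ fun β _ => ?_
  rw [← sub_smul]
  refine Submodule.smul_mem_smul ?_ Submodule.mem_top
  have h1 : (((ψ (β : Δ))⁻¹ : 𝒪ˣ) : 𝒪) - (((1 : Δ →* 𝒪ˣ) (β : Δ))⁻¹ : 𝒪ˣ) =
      -((((ψ (β : Δ))⁻¹ : 𝒪ˣ) : 𝒪) * (((ψ (β : Δ) : 𝒪ˣ) : 𝒪) - 1)) := by
    rw [MonoidHom.one_apply, inv_one, Units.val_one, mul_sub, mul_one, Units.inv_mul]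
    ring
  rw [h1]
  exact I.neg_mem (I.mul_mem_left _ (hψ β β.2))

/-- `eigEval ψ c ≡ eigEval 1 c` modulo `I`. -/
theorem s59t_eigEval_sub_mem (I : Ideal 𝒪) (hψ : ∀ β ∈ B, ((ψ β : 𝒪ˣ) : 𝒪) - 1 ∈ I)
    (c : Fin d → C → 𝒪) :
    s59t_eigEval ρ B C ψ b c - s59t_eigEval ρ B C 1 b c ∈ (I • ⊤ : Submodule 𝒪 M) := by
  rw [s59t_eigEval, s59t_eigEval, s59t_evalMap_apply, s59t_evalMap_apply,
    ← Finset.sum_sub_distrib]
  refine Submodule.sum_mem _ fun i _ => ?_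
  rw [← Finset.sum_sub_distrib]
  refine Submodule.sum_mem _ fun γ _ => ?_
  rw [← smul_sub, ← map_sub]
  exact Submodule.smul_mem _ _
    (s59t_map_mem_smul_top I _ (s59t_normPsi_sub_mem ρ B ψ I hψ (b i)))

/-- **`x ≡ Φ x` modulo `I`.** -/
theorem s59t_eigEquiv_sub_mem (I : Ideal 𝒪) (hψ : ∀ β ∈ B, ((ψ β : 𝒪ˣ) : 𝒪) - 1 ∈ I)
    (x : s59t_eig ρ B ψ) :
    (x : M) - (s59t_eigEquiv ρ B C ψ hBC b hb x : M) ∈ (I • ⊤ : Submodule 𝒪 M) := by
  obtain ⟨c, rfl⟩ := (s59t_eigCoord ρ B C ψ hBC b hb).surjective x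
  rw [s59t_eigEquiv_coord, s59t_eigCoord_coe, s59t_eigCoord_coe]
  exact s59t_eigEval_sub_mem ρ B C ψ b I hψ c

include hb in
/-- the coordinates of an element of `I • M` lie in `I`. -/
theorem s59t_coord_mem_of_smul_top (I : Ideal 𝒪) (c : Fin d → Δ → 𝒪)
    (h : s59t_evalMap ρ b c ∈ (I • ⊤ : Submodule 𝒪 M)) (i : Fin d) (δ : Δ) : c i δ ∈ I := by
  let F : (Fin d → Δ → 𝒪) ≃ₗ[𝒪] M := LinearEquiv.ofBijective (s59t_evalMap ρ b) hb
  let g : M →ₗ[𝒪] 𝒪 := (LinearMap.proj δ ∘ₗ LinearMap.proj i) ∘ₗ F.symm.toLinearMap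
  have h1 : g (s59t_evalMap ρ b c) = c i δ := by
    show (F.symm (F c)) i δ = c i δ
    rw [LinearEquiv.symm_apply_apply]
  have h2 := s59t_map_mem_smul_top I g h
  rw [h1, smul_eq_mul, Ideal.mul_top] at h2
  exact h2

include hb hBC in
/-- **saturation**: `I • eig ψ = eig ψ ∩ I • M`. -/
theorem s59t_eig_smul_top_iff (I : Ideal 𝒪) (z : s59t_eig ρ B ψ) :
    z ∈ (I • ⊤ : Submodule 𝒪 (s59t_eig ρ B ψ)) ↔ (z : M) ∈ (I • ⊤ : Submodule 𝒪 M) := by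
  constructor
  · intro h
    exact s59t_map_mem_smul_top I (s59t_eig ρ B ψ).subtype h
  · intro h
    obtain ⟨c, rfl⟩ := (s59t_eigCoord ρ B C ψ hBC b hb).surjective z
    rw [s59t_eigCoord_coe, s59t_eigEval_eq ρ B C ψ hBC] at h
    have h1 : ∀ i γ, c i γ ∈ I := by
      intro i γ
      have := s59t_coord_mem_of_smul_top ρ b hb I _ h i (γ : Δ)
      rwa [s59t_spread_apply_coe] at this
    have h2 : s59t_eigCoord ρ B C ψ hBC b hb c =
        ∑ i, ∑ γ : C, c i γ • (⟨ρ (γ : Δ) (s59t_normPsi ρ B ψ (b i)),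
          s59t_rho_mem_eig ρ B ψ (s59t_normPsi_mem ρ B ψ (b i)) _⟩ : s59t_eig ρ B ψ) := by
      apply Subtype.ext
      rw [s59t_eigCoord_coe, s59t_eigEval, s59t_evalMap_apply, Submodule.coe_sum]
      refine Finset.sum_congr rfl fun i _ => ?_
      rw [Submodule.coe_sum]
      rfl
    rw [h2]
    refine Submodule.sum_mem _ fun i _ => Submodule.sum_mem _ fun γ _ => ?_
    exact Submodule.smul_mem_smul (h1 i γ) Submodule.mem_top

/-- **the type change isomorphism** `eig ψ ⧸ I ≃ eig 1 ⧸ I`. -/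
def s59t_eigQuotEquiv (I : Ideal 𝒪) :
    (s59t_eig ρ B ψ ⧸ (I • ⊤ : Submodule 𝒪 (s59t_eig ρ B ψ))) ≃ₗ[𝒪]
      (s59t_eig ρ B (1 : Δ →* 𝒪ˣ) ⧸ (I • ⊤ : Submodule 𝒪 (s59t_eig ρ B (1 : Δ →* 𝒪ˣ)))) :=
  Submodule.Quotient.equiv _ _ (s59t_eigEquiv ρ B C ψ hBC b hb) (by
    rw [Submodule.map_smul'', Submodule.map_top, LinearMap.range_eq_top.mpr]
    exact (s59t_eigEquiv ρ B C ψ hBC b hb).surjective)

theorem s59t_eigQuotEquiv_mk (I : Ideal 𝒪) (x : s59t_eig ρ B ψ) :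
    s59t_eigQuotEquiv ρ B C ψ hBC b hb I (Submodule.Quotient.mk x) =
      Submodule.Quotient.mk (s59t_eigEquiv ρ B C ψ hBC b hb x) := rfl

/-- **characterisation of the type change isomorphism**: `θ [x] = [y] ↔ x - y ∈ I • M`. -/
theorem s59t_eigQuotEquiv_eq_iff (I : Ideal 𝒪) (hψ : ∀ β ∈ B, ((ψ β : 𝒪ˣ) : 𝒪) - 1 ∈ I)
    (x : s59t_eig ρ B ψ) (y : s59t_eig ρ B (1 : Δ →* 𝒪ˣ)) :
    s59t_eigQuotEquiv ρ B C ψ hBC b hb I (Submodule.Quotient.mk x) = Submodule.Quotient.mk y ↔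
      (x : M) - (y : M) ∈ (I • ⊤ : Submodule 𝒪 M) := by
  rw [s59t_eigQuotEquiv_mk, Submodule.Quotient.eq, s59t_eig_smul_top_iff ρ B C 1 hBC b hb,
    Submodule.coe_sub]
  have h1 := s59t_eigEquiv_sub_mem ρ B C ψ hBC b hb I hψ x
  constructor
  · intro h
    have := Submodule.add_mem _ h1 h
    rwa [sub_add_sub_cancel] at this
  · intro h
    have := Submodule.sub_mem _ h h1
    rwa [sub_sub_sub_cancel_left] at this

/-- `C`-equivariance of the comparison isomorphism. -/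
theorem s59t_eigEquiv_rho (γ : Δ) (hγ : γ ∈ C) (x : s59t_eig ρ B ψ) :
    (s59t_eigEquiv ρ B C ψ hBC b hb ⟨ρ γ x, s59t_rho_mem_eig ρ B ψ x.2 γ⟩ : M) =
      ρ γ (s59t_eigEquiv ρ B C ψ hBC b hb x : M) := by
  obtain ⟨c, rfl⟩ := (s59t_eigCoord ρ B C ψ hBC b hb).surjective x
  have h1 : ∀ χ : Δ →* 𝒪ˣ, ρ γ (s59t_eigEval ρ B C χ b c) =
      s59t_eigEval ρ B C χ b (s59t_transl 𝒪 C d ⟨γ, hγ⟩ c) := by
    intro χ
    unfold s59t_eigEval
    rw [s59t_evalMap_transl]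
    rfl
  have h2 : (⟨ρ γ (s59t_eigCoord ρ B C ψ hBC b hb c : s59t_eig ρ B ψ),
      s59t_rho_mem_eig ρ B ψ (s59t_eigCoord ρ B C ψ hBC b hb c).2 γ⟩ : s59t_eig ρ B ψ) =
      s59t_eigCoord ρ B C ψ hBC b hb (s59t_transl 𝒪 C d ⟨γ, hγ⟩ c) := by
    apply Subtype.ext
    show ρ γ (s59t_eigEval ρ B C ψ b c) = s59t_eigEval ρ B C ψ b _
    rw [h1]
  rw [h2, s59t_eigEquiv_coord, s59t_eigEquiv_coord, s59t_eigCoord_coe, s59t_eigCoord_coe, h1]

/-- an endomorphism commuting with `ρ(B)` preserves the eigen-submodules. -/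
theorem s59t_eig_map_mem (T : Module.End 𝒪 M) (hT : ∀ β ∈ B, ∀ x, T (ρ β x) = ρ β (T x))
    {x : M} (hx : x ∈ s59t_eig ρ B ψ) : T x ∈ s59t_eig ρ B ψ := by
  intro β hβ
  rw [← hT β hβ, hx β hβ, _root_.map_smul]

/-- the restriction of such an endomorphism to the eigen-submodule. -/
def s59t_eigEnd (T : Module.End 𝒪 M) (hT : ∀ β ∈ B, ∀ x, T (ρ β x) = ρ β (T x)) :
    Module.End 𝒪 (s59t_eig ρ B ψ) :=
  T.restrict fun _ hx => s59t_eig_map_mem ρ B ψ T hT hx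

theorem s59t_eigEnd_coe (T : Module.End 𝒪 M) (hT : ∀ β ∈ B, ∀ x, T (ρ β x) = ρ β (T x))
    (x : s59t_eig ρ B ψ) : ((s59t_eigEnd ρ B ψ T hT x : s59t_eig ρ B ψ) : M) = T x := rfl

/-- **the type change isomorphism commutes with every endomorphism commuting with `ρ(B)`**
(Hecke operators, the `C`-action, …), in relational form. -/
theorem s59t_eigQuotEquiv_map (I : Ideal 𝒪) (hψ : ∀ β ∈ B, ((ψ β : 𝒪ˣ) : 𝒪) - 1 ∈ I)
    (T : Module.End 𝒪 M) (hT : ∀ β ∈ B, ∀ x, T (ρ β x) = ρ β (T x))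
    (x : s59t_eig ρ B ψ) (y : s59t_eig ρ B (1 : Δ →* 𝒪ˣ))
    (h : s59t_eigQuotEquiv ρ B C ψ hBC b hb I (Submodule.Quotient.mk x) =
      Submodule.Quotient.mk y) :
    s59t_eigQuotEquiv ρ B C ψ hBC b hb I (Submodule.Quotient.mk (s59t_eigEnd ρ B ψ T hT x)) =
      Submodule.Quotient.mk (s59t_eigEnd ρ B 1 T hT y) := by
  rw [s59t_eigQuotEquiv_eq_iff ρ B C ψ hBC b hb I hψ] at h ⊢
  rw [s59t_eigEnd_coe, s59t_eigEnd_coe, ← map_sub]
  exact s59t_map_mem_smul_top I T h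

/-- the same with the induced maps on the quotients. -/
theorem s59t_eigQuotEquiv_comm (I : Ideal 𝒪) (hψ : ∀ β ∈ B, ((ψ β : 𝒪ˣ) : 𝒪) - 1 ∈ I)
    (T : Module.End 𝒪 M) (hT : ∀ β ∈ B, ∀ x, T (ρ β x) = ρ β (T x))
    (z : s59t_eig ρ B ψ ⧸ (I • ⊤ : Submodule 𝒪 (s59t_eig ρ B ψ))) :
    s59t_eigQuotEquiv ρ B C ψ hBC b hb I
        (Submodule.mapQ _ _ (s59t_eigEnd ρ B ψ T hT)
          (Submodule.smul_top_le_comap_smul_top I _) z) =
      Submodule.mapQ _ _ (s59t_eigEnd ρ B 1 T hT) (Submodule.smul_top_le_comap_smul_top I _)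
        (s59t_eigQuotEquiv ρ B C ψ hBC b hb I z) := by
  obtain ⟨x, rfl⟩ := Submodule.Quotient.mk_surjective _ z
  rw [Submodule.mapQ_apply]
  rw [s59t_eigQuotEquiv_map ρ B C ψ hBC b hb I hψ T hT x _ (s59t_eigQuotEquiv_mk ρ B C ψ hBC b hb I x)]
  rw [s59t_eigQuotEquiv_mk, Submodule.mapQ_apply]

/-! ### Invariants and coinvariants of a free module under `B` -/

theorem s59t_rho_comm (δ δ' : Δ) (x : M) : ρ δ (ρ δ' x) = ρ δ' (ρ δ x) := by
  rw [← Module.End.mul_apply, ← Module.End.mul_apply, ← map_mul, ← map_mul, mul_comm]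

theorem s59t_normPsi_comm (δ : Δ) (x : M) :
    s59t_normPsi ρ B ψ (ρ δ x) = ρ δ (s59t_normPsi ρ B ψ x) := by
  rw [s59t_normPsi_apply, s59t_normPsi_apply, map_sum]
  refine Finset.sum_congr rfl fun β _ => ?_
  rw [_root_.map_smul, s59t_rho_comm]

/-- `N_1 ∘ ρ β = N_1` for `β ∈ B`. -/
theorem s59t_normOne_rho (β : Δ) (hβ : β ∈ B) (x : M) :
    s59t_normPsi ρ B 1 (ρ β x) = s59t_normPsi ρ B 1 x := by
  rw [s59t_normPsi_comm]
  have h := s59t_normPsi_mem ρ B (1 : Δ →* 𝒪ˣ) x β hβ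
  rw [h, MonoidHom.one_apply, Units.val_one, one_smul]

include hb hBC in
/-- **for a free module the `B`-invariants are the norms.** -/
theorem s59t_eig_one_eq_range :
    s59t_eig ρ B (1 : Δ →* 𝒪ˣ) = LinearMap.range (s59t_normPsi ρ B 1) := by
  refine le_antisymm ?_ ?_
  · intro x hx
    obtain ⟨c, hc⟩ := (s59t_eigCoord ρ B C 1 hBC b hb).surjective ⟨x, hx⟩
    have hc' : x = s59t_eigEval ρ B C 1 b c := (congrArg Subtype.val hc).symm
    refine ⟨∑ i, ∑ γ : C, c i γ • ρ (γ : Δ) (b i), ?_⟩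
    rw [hc', s59t_eigEval, s59t_evalMap_apply, map_sum]
    refine Finset.sum_congr rfl fun i _ => ?_
    rw [map_sum]
    refine Finset.sum_congr rfl fun γ _ => ?_
    rw [_root_.map_smul, s59t_normPsi_comm]
    rfl
  · rintro _ ⟨y, rfl⟩
    exact s59t_normPsi_mem ρ B 1 y

include hb hBC in
/-- **for a free module the kernel of the norm is the augmentation submodule.** -/
theorem s59t_normOne_ker :
    LinearMap.ker (s59t_normPsi ρ B 1) =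
      Submodule.span 𝒪 {z : M | ∃ β ∈ B, ∃ y : M, z = ρ β y - y} := by
  refine le_antisymm ?_ ?_
  · intro x hx
    rw [LinearMap.mem_ker] at hx
    obtain ⟨c, rfl⟩ := hb.2 x
    -- the sums over the cosets of `B`
    set cb : Fin d → C → 𝒪 := fun i γ => ∑ β : B, c i ((β : Δ) * (γ : Δ)) with hcb
    have hsplit : ∀ f : Fin d → Δ → M, ∑ i, ∑ δ, f i δ =
        ∑ i, ∑ γ : C, ∑ β : B, f i ((β : Δ) * (γ : Δ)) := by
      intro f
      refine Finset.sum_congr rfl fun i _ => ?_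
      rw [← Equiv.sum_comp (s59t_bcEquiv B C hBC), Fintype.sum_prod_type, Finset.sum_comm]
      rfl
    have h1 : s59t_normPsi ρ B 1 (s59t_evalMap ρ b c) = s59t_eigEval ρ B C 1 b cb := by
      rw [s59t_evalMap_apply, hsplit, s59t_eigEval, s59t_evalMap_apply, map_sum]
      refine Finset.sum_congr rfl fun i _ => ?_
      rw [map_sum]
      refine Finset.sum_congr rfl fun γ _ => ?_
      rw [map_sum, hcb, Finset.sum_smul]
      refine Finset.sum_congr rfl fun β _ => ?_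
      rw [_root_.map_smul, map_mul, Module.End.mul_apply, s59t_normOne_rho ρ B (β : Δ) β.2,
        s59t_normPsi_comm]
      rfl
    have h2 : cb = 0 := by
      apply (s59t_eig_free ρ B C 1 hBC b hb).1
      rw [← h1, hx, map_zero]
    rw [s59t_evalMap_apply, hsplit]
    have h3 : ∀ i, ∀ γ : C, ∑ β : B, c i ((β : Δ) * (γ : Δ)) • ρ ((β : Δ) * (γ : Δ)) (b i) =
        ∑ β : B, c i ((β : Δ) * (γ : Δ)) •
          (ρ (β : Δ) (ρ (γ : Δ) (b i)) - ρ (γ : Δ) (b i)) := by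
      intro i γ
      have h4 : ∑ β : B, c i ((β : Δ) * (γ : Δ)) • ρ (γ : Δ) (b i) = 0 := by
        rw [← Finset.sum_smul]
        have h5 : ∑ β : B, c i ((β : Δ) * (γ : Δ)) = 0 := congrFun (congrFun h2 i) γ
        rw [h5]
        exact zero_smul _ _
      rw [← sub_zero (∑ β : B, c i ((β : Δ) * (γ : Δ)) • ρ ((β : Δ) * (γ : Δ)) (b i)), ← h4,
        ← Finset.sum_sub_distrib]
      refine Finset.sum_congr rfl fun β _ => ?_
      rw [smul_sub, map_mul, Module.End.mul_apply]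
    refine Submodule.sum_mem _ fun i _ => Submodule.sum_mem _ fun γ _ => ?_
    rw [h3]
    refine Submodule.sum_mem _ fun β _ => Submodule.smul_mem _ _ ?_
    exact Submodule.subset_span ⟨(β : Δ), β.2, _, rfl⟩
  · rw [Submodule.span_le]
    rintro _ ⟨β, hβ, y, rfl⟩
    rw [SetLike.mem_coe, LinearMap.mem_ker, map_sub, s59t_normOne_rho ρ B β hβ, sub_self]

end TypeChange

end Fermat.Agent.Lib.S59
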