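/-
Programme (R) = S59, node (H2) (helper8), file 33: **the control theorem, abstract core**
(`M_Q / 𝔞_Q ≅ M_∅` at `Γ_H`-level, restriction form).

`Δ'` (top level) a finite commutative group with complementary subgroups `B` (the part to be
killed, `Δ_Q`) and `C`, `φ : Δ' → Δ` a homomorphism, trivial on `B`, bijective on `C`; `M'` free of
rank `d` over `R[Δ']`, `M` free of the same rank `d` over `R[Δ]` (`Δ` a `p`-group), and
`r : M → M'` (restriction) with `r (ρ (φ δ') x) = ρ' δ' (r x)`, bijective on the invariants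
`M^Δ → M'^Δ'`.  Then `r` is injective with image the `B`-invariants of `M'`, and
`π := r⁻¹ ∘ N_B : M' → M` is surjective with kernel the `B`-augmentation submodule of `M'`.
Mathlib only (+ `TType`, `TNakDual`).
-/
import Mathlib
import Fermat.Agent.Lib.S59.TNakDual
import Fermat.Agent.Lib.S59.TType
import Fermat.Agent.Lib.S59.TTWH

set_option autoImplicit false
set_option linter.style.haveILetI false
set_option linter.unusedSectionVars false

open scoped BigOperators

noncomputable section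

namespace Fermat.Agent.Lib.S59

open IsLocalRing

section EigRep

variable {𝒪 : Type*} [CommRing 𝒪] {Δ : Type*} [CommGroup Δ] [Fintype Δ]
  {M : Type*} [AddCommGroup M] [Module 𝒪 M] (ρ : Δ →* Module.End 𝒪 M)
  (B : Subgroup Δ) [Fintype B] (ψ : Δ →* 𝒪ˣ)

/-- the representation of `Δ` on the `ψ`-eigen-submodule of `B`. -/
def s59t_eigRep : Δ →* Module.End 𝒪 (s59t_eig ρ B ψ) where
  toFun δ := s59t_eigEnd ρ B ψ (ρ δ) (fun β _ x => s59t_rho_comm ρ δ β x)
  map_one' := by
    refine LinearMap.ext fun x => Subtype.ext ?_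
    rw [s59t_eigEnd_coe, map_one]
    rfl
  map_mul' δ δ' := by
    refine LinearMap.ext fun x => Subtype.ext ?_
    rw [s59t_eigEnd_coe, map_mul]
    rfl

theorem s59t_eigRep_coe (δ : Δ) (x : s59t_eig ρ B ψ) :
    ((s59t_eigRep ρ B ψ δ x : s59t_eig ρ B ψ) : M) = ρ δ (x : M) := rfl

variable (C : Subgroup Δ) [Fintype C]
  (hBC : Function.Bijective (fun x : B × C => ((x.1 : Δ) * (x.2 : Δ))))
  {d : ℕ} (b : Fin d → M) (hb : Function.Bijective (s59t_evalMap ρ b))

include hBC hb in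
/-- the eigen-submodule is free over `𝒪[C]`, in `s59t_evalMap` form. -/
theorem s59t_eigRep_free :
    Function.Bijective (s59t_evalMap ((s59t_eigRep ρ B ψ).comp C.subtype)
      (fun i => (⟨s59t_normPsi ρ B ψ (b i), s59t_normPsi_mem ρ B ψ (b i)⟩ : s59t_eig ρ B ψ))) := by
  have key : ∀ c : Fin d → C → 𝒪,
      s59t_evalMap ((s59t_eigRep ρ B ψ).comp C.subtype)
        (fun i => (⟨s59t_normPsi ρ B ψ (b i), s59t_normPsi_mem ρ B ψ (b i)⟩ :
          s59t_eig ρ B ψ)) c =
      (s59t_eigEval ρ B C ψ b).codRestrict (s59t_eig ρ B ψ) (s59t_eigEval_mem ρ B C ψ b) c := by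
    intro c
    apply Subtype.ext
    rw [LinearMap.codRestrict_apply, s59t_eigEval, s59t_evalMap_apply, s59t_evalMap_apply,
      Submodule.coe_sum]
    refine Finset.sum_congr rfl fun i _ => ?_
    rw [Submodule.coe_sum]
    rfl
  have h := s59t_eigEval_cod_bijective ρ B C ψ hBC b hb
  refine ⟨fun c c' hcc => h.1 ?_, fun x => ?_⟩
  · rw [← key, ← key]
    exact hcc
  · obtain ⟨c, hc⟩ := h.2 x
    exact ⟨c, (key c).trans hc⟩

end EigRep

section IotaCoe

variable {R : Type*} [CommRing R] {Y : Type*} [AddCommGroup Y] [Module R Y]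
  {Y' : Type*} [AddCommGroup Y'] [Module R Y']

/-- `s59t_iotaH_coe` without the finiteness instances. -/
theorem s59t_iotaH_val (ε : Module.End R Y) (ε' : Module.End R Y') (r : Y →ₗ[R] Y')
    (x : s59t_part ε) : ((s59t_iotaH ε ε' r x : s59t_part ε') : Y') = ε' (r (x : Y)) := rfl

/-- `s59t_partRep_coe` without the finiteness instances. -/
theorem s59t_partRep_val {Δ : Type*} [Group Δ] (ρ : Δ →* Module.End R Y) {ε : Module.End R Y}
    (hρε : ∀ δ y, ε (ρ δ y) = ρ δ (ε y)) (δ : Δ) (x : s59t_part ε) :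
    ((s59t_partRep ρ hρε δ x : s59t_part ε) : Y) = ρ δ (x : Y) := rfl

end IotaCoe

section Control

variable {p : ℕ} [Fact p.Prime] {R : Type*} [CommRing R] [IsLocalRing R]
  [Finite (ResidueField R)] [CharP (ResidueField R) p]
  {Δ : Type*} [CommGroup Δ] [Fintype Δ] {Δ' : Type*} [CommGroup Δ'] [Fintype Δ']
  {M : Type*} [AddCommGroup M] [Module R M] {M' : Type*} [AddCommGroup M'] [Module R M']

/-- **the control theorem, abstract core.** -/
theorem s59t_control_core (hΔ : IsPGroup p Δ) (ρ : Δ →* Module.End R M)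
    (ρ' : Δ' →* Module.End R M') (φ : Δ' →* Δ) (B C : Subgroup Δ') [Fintype B] [Fintype C]
    (hBC : Function.Bijective (fun x : B × C => ((x.1 : Δ') * (x.2 : Δ'))))
    (hφB : ∀ β ∈ B, φ β = 1) (hφC : Function.Bijective (fun γ : C => φ (γ : Δ')))
    (r : M →ₗ[R] M') (hr : ∀ δ' x, r (ρ (φ δ') x) = ρ' δ' (r x))
    {d : ℕ} (b : Fin d → M) (hb : Function.Bijective (s59t_evalMap ρ b))
    (b' : Fin d → M') (hb' : Function.Bijective (s59t_evalMap ρ' b'))
    (hinj : ∀ x, (∀ δ, ρ δ x = x) → r x = 0 → x = 0)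
    (hsurj : ∀ y, (∀ δ', ρ' δ' y = y) → ∃ x, (∀ δ, ρ δ x = x) ∧ r x = y) :
    Function.Injective r ∧
      (∀ y : M', (∀ β ∈ B, ρ' β y = y) → ∃ x, r x = y) ∧
      ∃ π : M' →ₗ[R] M, (∀ y, r (π y) = s59t_normPsi ρ' B 1 y) ∧ Function.Surjective π ∧
        LinearMap.ker π = Submodule.span R {z : M' | ∃ β ∈ B, ∃ y : M', z = ρ' β y - y} := by
  classical
  -- the inverse of `φ` on `C`
  let φC : C ≃* Δ := MulEquiv.ofBijective (φ.comp C.subtype) hφC
  let ψ : Δ →* C := φC.symm.toMonoidHom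
  have hφψ : ∀ δ, φ ((ψ δ : C) : Δ') = δ := fun δ => φC.apply_symm_apply δ
  have hψφ : ∀ γ : C, ψ (φ (γ : Δ')) = γ := fun γ => φC.symm_apply_apply γ
  have hψbij : Function.Bijective ψ := φC.symm.bijective
  -- the `B`-invariants with the action of `Δ`
  let F' := s59t_eig ρ' B (1 : Δ' →* Rˣ)
  have hF' : ∀ y : M', y ∈ F' ↔ ∀ β ∈ B, ρ' β y = y := by
    intro y
    rw [s59t_mem_eig]
    refine forall₂_congr fun β _ => ?_
    rw [MonoidHom.one_apply, Units.val_one, one_smul]
  let ρC : C →* Module.End R F' := (s59t_eigRep ρ' B 1).comp C.subtype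
  let ρ'' : Δ →* Module.End R F' := ρC.comp ψ
  have hρ'' : ∀ δ (y : F'), ((ρ'' δ y : F') : M') = ρ' ((ψ δ : C) : Δ') (y : M') := fun _ _ => rfl
  let b'' : Fin d → F' := fun i =>
    ⟨s59t_normPsi ρ' B 1 (b' i), s59t_normPsi_mem ρ' B 1 (b' i)⟩
  have hb'' : Function.Bijective (s59t_evalMap ρ'' b'') :=
    s59t_evalMap_comp_bijective ρC ψ hψbij b'' (s59t_eigRep_free ρ' B 1 C hBC b' hb')
  -- the restriction with values in the invariants
  have hrmem : ∀ x, r x ∈ F' := by
    intro x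
    rw [hF']
    intro β hβ
    rw [← hr, hφB β hβ, map_one]
    rfl
  let r₁ : M →ₗ[R] F' := r.codRestrict F' hrmem
  have hr₁ : ∀ x, ((r₁ x : F') : M') = r x := fun _ => rfl
  have hr₁eq : ∀ δ x, r₁ (ρ δ x) = ρ'' δ (r₁ x) := by
    intro δ x
    apply Subtype.ext
    rw [hr₁, hρ'', hr₁, ← hr, hφψ]
  -- invariants of `F'` under `Δ` are the invariants of `M'` under `Δ'`
  have hinvF : ∀ y : F', (∀ δ, ρ'' δ y = y) → ∀ δ', ρ' δ' (y : M') = y := by
    intro y hy δ'
    obtain ⟨⟨β, γ⟩, rfl⟩ := hBC.2 δ'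
    show ρ' ((β : Δ') * (γ : Δ')) (y : M') = y
    rw [map_mul, Module.End.mul_apply]
    have h1 : ρ' (γ : Δ') (y : M') = y := by
      have := congrArg Subtype.val (hy (φ (γ : Δ')))
      rw [hρ'', hψφ] at this
      exact this
    rw [h1]
    exact (hF' _).mp y.2 β β.2
  have hbij : Function.Bijective r₁ := by
    refine s59t_nak_dual (p := p) hΔ ρ ρ'' r₁ hr₁eq b hb b'' hb'' ?_ ?_
    · intro x hx h0
      exact hinj x hx (congrArg Subtype.val h0)
    · intro y hy
      obtain ⟨x, hx, hxy⟩ := hsurj (y : M') (hinvF y hy)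
      exact ⟨x, hx, Subtype.ext hxy⟩
  refine ⟨fun x x' h => hbij.1 (Subtype.ext h), fun y hy => ?_, ?_⟩
  · obtain ⟨x, hx⟩ := hbij.2 ⟨y, (hF' y).mpr hy⟩
    exact ⟨x, congrArg Subtype.val hx⟩
  · let e : M ≃ₗ[R] F' := LinearEquiv.ofBijective r₁ hbij
    let nB : M' →ₗ[R] F' := (s59t_normPsi ρ' B 1).codRestrict F' (s59t_normPsi_mem ρ' B 1)
    have hnB : ∀ y, ((nB y : F') : M') = s59t_normPsi ρ' B 1 y := fun _ => rfl
    have hnBs : Function.Surjective nB := by
      intro y
      have h1 : (y : M') ∈ LinearMap.range (s59t_normPsi ρ' B 1) := by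
        rw [← s59t_eig_one_eq_range ρ' B C hBC b' hb']
        exact y.2
      obtain ⟨z, hz⟩ := h1
      exact ⟨z, Subtype.ext hz⟩
    refine ⟨(e.symm : F' →ₗ[R] M) ∘ₗ nB, fun y => ?_, ?_, ?_⟩
    · show r (e.symm (nB y)) = _
      rw [← hr₁, ← hnB]
      congr 1
      exact e.apply_symm_apply (nB y)
    · exact e.symm.surjective.comp hnBs
    · rw [← s59t_normOne_ker ρ' B C hBC b' hb']
      ext y
      rw [LinearMap.mem_ker, LinearMap.mem_ker, LinearMap.comp_apply, LinearEquiv.coe_coe,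
        LinearEquiv.map_eq_zero_iff]
      constructor
      · intro h
        rw [← hnB, h]
        rfl
      · intro h
        exact Subtype.ext (by rw [hnB, h]; rfl)

end Control

end Fermat.Agent.Lib.S59
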