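/-
Programme (R) = S59, node (H2)/(B2) (helper8), file 42: **control for the `τ`-parts**, abstract.

Setting of `s59t_control_core` (`Δ' ⊇ B, C` complementary, `φ : Δ' → Δ` trivial on `B`, bijective on
`C`; `M`, `M'` free over `R[Δ]`, `R[Δ']`; `r : M → M'` equivariant and injective;
`π : M' → M` with `r ∘ π = N_B`, surjective, kernel the `B`-augmentation submodule) and a character
`τ : Δ → Rˣ` (the inertial type at the primes of `Δ`).  Then
* `M'^τ := s59t_eig ρ' C (τ ∘ φ)` is free over `R[B]` (`s59t_eigRep_free`, TCtrl.lean);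
* `π` is `φ`-equivariant, maps `M'^τ` ONTO `M^τ := s59t_eig ρ ⊤ τ`, and the kernel of
  `π : M'^τ → M^τ` is the `B`-augmentation submodule of `M'^τ`.
Tools: the twisted representation `s59t_twist ρ ψ = ψ⁻¹ ρ`, which turns `ψ`-eigenvectors into
invariants, and the general-`ψ` versions of `s59t_eig_one_eq_range`, `s59t_normOne_ker`.
Mathlib only (+ `TType`, `TCtrl`).
-/
import Mathlib
import Fermat.Agent.Lib.S59.TCtrl

set_option autoImplicit false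
set_option linter.style.haveILetI false
set_option linter.unusedSectionVars false

open scoped BigOperators

noncomputable section

namespace Fermat.Agent.Lib.S59

section Twist

variable {𝒪 : Type*} [CommRing 𝒪] {Δ : Type*} [CommGroup Δ] [Fintype Δ]
  {M : Type*} [AddCommGroup M] [Module 𝒪 M] (ρ : Δ →* Module.End 𝒪 M) (ψ : Δ →* 𝒪ˣ)

/-- the twisted representation `δ ↦ ψ(δ)⁻¹ ρ(δ)`. -/
def s59t_twist : Δ →* Module.End 𝒪 M where
  toFun δ := (((ψ δ)⁻¹ : 𝒪ˣ) : 𝒪) • ρ δ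
  map_one' := by rw [map_one, inv_one, Units.val_one, one_smul, map_one]
  map_mul' δ δ' := by
    rw [map_mul, map_mul, mul_inv, Units.val_mul, smul_mul_smul_comm]

theorem s59t_twist_apply (δ : Δ) (x : M) :
    s59t_twist ρ ψ δ x = (((ψ δ)⁻¹ : 𝒪ˣ) : 𝒪) • ρ δ x := rfl

theorem s59t_eig_twist (B : Subgroup Δ) [Fintype B] :
    s59t_eig (s59t_twist ρ ψ) B 1 = s59t_eig ρ B ψ := by
  ext x
  rw [s59t_mem_eig, s59t_mem_eig]
  refine forall₂_congr fun β _ => ?_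
  rw [s59t_twist_apply, MonoidHom.one_apply, Units.val_one, one_smul]
  constructor
  · intro h
    have h1 : ρ β x = ((ψ β : 𝒪ˣ) : 𝒪) • ((((ψ β)⁻¹ : 𝒪ˣ) : 𝒪) • ρ β x) := by
      rw [smul_smul, Units.mul_inv, one_smul]
    rw [h1, h]
  · intro h
    rw [h, smul_smul, Units.inv_mul, one_smul]

theorem s59t_normPsi_twist (B : Subgroup Δ) [Fintype B] :
    s59t_normPsi (s59t_twist ρ ψ) B 1 = s59t_normPsi ρ B ψ := by
  rw [s59t_normPsi, s59t_normPsi]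
  refine Finset.sum_congr rfl fun β _ => ?_
  rw [MonoidHom.one_apply, inv_one, Units.val_one, one_smul]
  rfl

theorem s59t_evalMap_twist {d : ℕ} (b : Fin d → M) (c : Fin d → Δ → 𝒪) :
    s59t_evalMap (s59t_twist ρ ψ) b c =
      s59t_evalMap ρ b (fun i δ => c i δ * (((ψ δ)⁻¹ : 𝒪ˣ) : 𝒪)) := by
  rw [s59t_evalMap_apply, s59t_evalMap_apply]
  refine Finset.sum_congr rfl fun i _ => Finset.sum_congr rfl fun δ _ => ?_
  rw [s59t_twist_apply, smul_smul]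

theorem s59t_evalMap_twist_bijective {d : ℕ} (b : Fin d → M)
    (hb : Function.Bijective (s59t_evalMap ρ b)) :
    Function.Bijective (s59t_evalMap (s59t_twist ρ ψ) b) := by
  constructor
  · intro c c' h
    rw [s59t_evalMap_twist, s59t_evalMap_twist] at h
    have h1 := hb.1 h
    funext i δ
    have h2 := congrFun (congrFun h1 i) δ
    exact (Units.mul_left_inj _).mp h2
  · intro x
    obtain ⟨c, rfl⟩ := hb.2 x
    refine ⟨fun i δ => c i δ * ((ψ δ : 𝒪ˣ) : 𝒪), ?_⟩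
    rw [s59t_evalMap_twist]
    congr 1
    funext i δ
    rw [mul_assoc, Units.mul_inv, mul_one]

variable (B C : Subgroup Δ) [Fintype B] [Fintype C]
  (hBC : Function.Bijective (fun x : B × C => ((x.1 : Δ) * (x.2 : Δ))))
  {d : ℕ} (b : Fin d → M) (hb : Function.Bijective (s59t_evalMap ρ b))

include hBC hb in
/-- **for a free module the `ψ`-eigenvectors are the `ψ`-norms.** -/
theorem s59t_eig_eq_range : s59t_eig ρ B ψ = LinearMap.range (s59t_normPsi ρ B ψ) := by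
  rw [← s59t_eig_twist, ← s59t_normPsi_twist]
  exact s59t_eig_one_eq_range (s59t_twist ρ ψ) B C hBC b (s59t_evalMap_twist_bijective ρ ψ b hb)

include hBC hb in
/-- **for a free module the kernel of the `ψ`-norm is the `ψ`-augmentation submodule.** -/
theorem s59t_normPsi_ker :
    LinearMap.ker (s59t_normPsi ρ B ψ) = Submodule.span 𝒪
      {z : M | ∃ β ∈ B, ∃ y : M, z = (((ψ β)⁻¹ : 𝒪ˣ) : 𝒪) • ρ β y - y} := by
  rw [← s59t_normPsi_twist]
  exact s59t_normOne_ker (s59t_twist ρ ψ) B C hBC b (s59t_evalMap_twist_bijective ρ ψ b hb)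

/-- `N_ψ ∘ ρ β = ψ β • N_ψ` for `β ∈ B`. -/
theorem s59t_normPsi_rho (β : Δ) (hβ : β ∈ B) (x : M) :
    s59t_normPsi ρ B ψ (ρ β x) = ((ψ β : 𝒪ˣ) : 𝒪) • s59t_normPsi ρ B ψ x := by
  rw [s59t_normPsi_comm]
  exact s59t_normPsi_mem ρ B ψ x β hβ

/-- `N_ψ` kills the `ψ`-augmentation submodule. -/
theorem s59t_normPsi_aug (β : Δ) (hβ : β ∈ B) (y : M) :
    s59t_normPsi ρ B ψ ((((ψ β)⁻¹ : 𝒪ˣ) : 𝒪) • ρ β y - y) = 0 := by
  rw [map_sub, _root_.map_smul, s59t_normPsi_rho ρ ψ B β hβ, smul_smul, Units.inv_mul, one_smul,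
    sub_self]

end Twist

section Top

variable {𝒪 : Type*} [CommRing 𝒪] {Δ : Type*} [CommGroup Δ] [Fintype Δ]
  {M : Type*} [AddCommGroup M] [Module 𝒪 M] (ρ : Δ →* Module.End 𝒪 M) (ψ : Δ →* 𝒪ˣ)
  {d : ℕ} (b : Fin d → M) (hb : Function.Bijective (s59t_evalMap ρ b))

/-- the full `ψ`-norm `∑_δ ψ(δ)⁻¹ ρ(δ)`. -/
def s59t_normTop : Module.End 𝒪 M := ∑ δ : Δ, (((ψ δ)⁻¹ : 𝒪ˣ) : 𝒪) • ρ δ

theorem s59t_normTop_apply (x : M) :
    s59t_normTop ρ ψ x = ∑ δ : Δ, (((ψ δ)⁻¹ : 𝒪ˣ) : 𝒪) • ρ δ x := by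
  rw [s59t_normTop, LinearMap.sum_apply]
  rfl

theorem s59t_normTop_eq [Fintype (⊤ : Subgroup Δ)] :
    s59t_normTop ρ ψ = s59t_normPsi ρ ⊤ ψ := by
  rw [s59t_normTop, s59t_normPsi]
  exact (Fintype.sum_equiv Subgroup.topEquiv.toEquiv _ _ (fun _ => rfl)).symm

theorem s59t_top_bot_bijective [Fintype (⊤ : Subgroup Δ)] [Fintype (⊥ : Subgroup Δ)] :
    Function.Bijective
      (fun x : (⊤ : Subgroup Δ) × (⊥ : Subgroup Δ) => ((x.1 : Δ) * (x.2 : Δ))) := by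
  constructor
  · rintro ⟨⟨x, hx⟩, ⟨y, hy⟩⟩ ⟨⟨x', hx'⟩, ⟨y', hy'⟩⟩ h
    have hy1 : y = 1 := Subgroup.mem_bot.mp hy
    have hy1' : y' = 1 := Subgroup.mem_bot.mp hy'
    subst hy1 hy1'
    have h' : x * 1 = x' * 1 := h
    rw [mul_one, mul_one] at h'
    subst h'
    rfl
  · intro δ
    exact ⟨(⟨δ, Subgroup.mem_top δ⟩, ⟨1, Subgroup.mem_bot.mpr rfl⟩), mul_one δ⟩

include hb in
/-- the `ψ`-eigenvectors of the whole group are the full `ψ`-norms. -/
theorem s59t_eig_top_eq_range : s59t_eig ρ ⊤ ψ = LinearMap.range (s59t_normTop ρ ψ) := by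
  classical
  haveI : Fintype (⊤ : Subgroup Δ) := Fintype.ofFinite _
  haveI : Fintype (⊥ : Subgroup Δ) := Fintype.ofFinite _
  rw [s59t_normTop_eq]
  exact s59t_eig_eq_range ρ ψ ⊤ ⊥ s59t_top_bot_bijective b hb

include hb in
/-- the kernel of the full `ψ`-norm. -/
theorem s59t_normTop_ker :
    LinearMap.ker (s59t_normTop ρ ψ) = Submodule.span 𝒪
      {z : M | ∃ δ : Δ, ∃ y : M, z = (((ψ δ)⁻¹ : 𝒪ˣ) : 𝒪) • ρ δ y - y} := by
  classical
  haveI : Fintype (⊤ : Subgroup Δ) := Fintype.ofFinite _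
  haveI : Fintype (⊥ : Subgroup Δ) := Fintype.ofFinite _
  rw [s59t_normTop_eq, s59t_normPsi_ker ρ ψ ⊤ ⊥ s59t_top_bot_bijective b hb]
  congr 1
  ext z
  constructor
  · rintro ⟨β, -, y, rfl⟩
    exact ⟨β, y, rfl⟩
  · rintro ⟨β, y, rfl⟩
    exact ⟨β, Subgroup.mem_top β, y, rfl⟩

end Top

section ControlTau

variable {R : Type*} [CommRing R]
  {Δ : Type*} [CommGroup Δ] [Fintype Δ] {Δ' : Type*} [CommGroup Δ'] [Fintype Δ']
  {M : Type*} [AddCommGroup M] [Module R M] {M' : Type*} [AddCommGroup M'] [Module R M']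

/-- **control for the `τ`-parts.** -/
theorem s59t_control_tau (ρ : Δ →* Module.End R M)
    (ρ' : Δ' →* Module.End R M') (φ : Δ' →* Δ) (B C : Subgroup Δ') [Fintype B] [Fintype C]
    (hBC : Function.Bijective (fun x : B × C => ((x.1 : Δ') * (x.2 : Δ'))))
    (hφC : Function.Bijective (fun γ : C => φ (γ : Δ')))
    (r : M →ₗ[R] M') (hr : ∀ δ' x, r (ρ (φ δ') x) = ρ' δ' (r x)) (hrinj : Function.Injective r)
    {d : ℕ} (b : Fin d → M) (hb : Function.Bijective (s59t_evalMap ρ b))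
    (b' : Fin d → M') (hb' : Function.Bijective (s59t_evalMap ρ' b'))
    (π : M' →ₗ[R] M) (hrπ : ∀ y, r (π y) = s59t_normPsi ρ' B 1 y)
    (hπs : Function.Surjective π)
    (hπk : LinearMap.ker π = Submodule.span R {z : M' | ∃ β ∈ B, ∃ y : M', z = ρ' β y - y})
    (τ : Δ →* Rˣ) :
    (∀ δ' y, π (ρ' δ' y) = ρ (φ δ') (π y)) ∧
    (∀ y ∈ s59t_eig ρ' C (τ.comp φ), π y ∈ s59t_eig ρ ⊤ τ) ∧
    (∀ x ∈ s59t_eig ρ ⊤ τ, ∃ y ∈ s59t_eig ρ' C (τ.comp φ), π y = x) ∧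
    (∀ y ∈ s59t_eig ρ' C (τ.comp φ), π y = 0 →
      y ∈ Submodule.span R
        {z : M' | ∃ β ∈ B, ∃ y' ∈ s59t_eig ρ' C (τ.comp φ), z = ρ' β y' - y'}) := by
  classical
  -- equivariance of `π`
  have hπeq : ∀ δ' y, π (ρ' δ' y) = ρ (φ δ') (π y) := by
    intro δ' y
    apply hrinj
    rw [hrπ, hr, hrπ, s59t_normPsi_comm]
  -- `π ∘ N^C_{τ'} = N_τ ∘ π`
  have hπN : ∀ y, π (s59t_normPsi ρ' C (τ.comp φ) y) = s59t_normTop ρ τ (π y) := by
    intro y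
    rw [s59t_normPsi_apply, s59t_normTop_apply, map_sum]
    refine Fintype.sum_bijective (fun γ : C => φ (γ : Δ')) hφC _ _ fun γ => ?_
    rw [_root_.map_smul, hπeq]
    rfl
  have hCB : Function.Bijective (fun x : C × B => ((x.1 : Δ') * (x.2 : Δ'))) := by
    have e : (fun x : C × B => ((x.1 : Δ') * (x.2 : Δ'))) =
        (fun x : B × C => ((x.1 : Δ') * (x.2 : Δ'))) ∘ (Equiv.prodComm C B) := by
      funext x
      exact mul_comm _ _
    rw [e]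
    exact hBC.comp (Equiv.prodComm C B).bijective
  refine ⟨hπeq, ?_, ?_, ?_⟩
  · intro y hy δ _
    obtain ⟨γ, rfl⟩ := hφC.2 δ
    show ρ (φ (γ : Δ')) (π y) = _
    rw [← hπeq, hy (γ : Δ') γ.2, _root_.map_smul]
    rfl
  · intro x hx
    rw [s59t_eig_top_eq_range ρ τ b hb] at hx
    obtain ⟨m, rfl⟩ := hx
    obtain ⟨y₀, rfl⟩ := hπs m
    exact ⟨_, s59t_normPsi_mem ρ' C (τ.comp φ) y₀, hπN y₀⟩
  · intro y hy hy0
    rw [s59t_eig_eq_range ρ' (τ.comp φ) C B hCB b' hb'] at hy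
    obtain ⟨y₀, rfl⟩ := hy
    rw [hπN] at hy0
    have h1 : π y₀ ∈ LinearMap.ker (s59t_normTop ρ τ) := hy0
    rw [s59t_normTop_ker ρ τ b hb] at h1
    -- lift the `τ`-augmentation
    set S' : Submodule R M' := Submodule.span R
      {z : M' | ∃ γ ∈ C, ∃ w : M', z = ((((τ.comp φ) γ)⁻¹ : Rˣ) : R) • ρ' γ w - w} with hS'
    have h2 : Submodule.span R
        {z : M | ∃ δ : Δ, ∃ m : M, z = (((τ δ)⁻¹ : Rˣ) : R) • ρ δ m - m} ≤ S'.map π := by
      rw [Submodule.span_le]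
      rintro _ ⟨δ, m, rfl⟩
      obtain ⟨γ, rfl⟩ := hφC.2 δ
      obtain ⟨w, rfl⟩ := hπs m
      refine ⟨((((τ.comp φ) (γ : Δ'))⁻¹ : Rˣ) : R) • ρ' (γ : Δ') w - w,
        Submodule.subset_span ⟨(γ : Δ'), γ.2, w, rfl⟩, ?_⟩
      rw [map_sub, _root_.map_smul, hπeq]
      rfl
    obtain ⟨s', hs', hs'π⟩ := h2 h1
    have h3 : y₀ - s' ∈ LinearMap.ker π := by
      rw [LinearMap.mem_ker, map_sub, hs'π, sub_self]
    have h4 : s59t_normPsi ρ' C (τ.comp φ) s' = 0 := by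
      have : S' ≤ LinearMap.ker (s59t_normPsi ρ' C (τ.comp φ)) := by
        rw [hS', Submodule.span_le]
        rintro _ ⟨γ, hγ, w, rfl⟩
        exact s59t_normPsi_aug ρ' (τ.comp φ) C γ hγ w
      exact this hs'
    have h5 : s59t_normPsi ρ' C (τ.comp φ) y₀ = s59t_normPsi ρ' C (τ.comp φ) (y₀ - s') := by
      rw [map_sub, h4, sub_zero]
    rw [h5]
    rw [hπk] at h3
    have h6 : Submodule.span R {z : M' | ∃ β ∈ B, ∃ y : M', z = ρ' β y - y} ≤
        (Submodule.span R {z : M' | ∃ β ∈ B, ∃ y' ∈ s59t_eig ρ' C (τ.comp φ),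
          z = ρ' β y' - y'}).comap (s59t_normPsi ρ' C (τ.comp φ)) := by
      rw [Submodule.span_le]
      rintro _ ⟨β, hβ, w, rfl⟩
      rw [SetLike.mem_coe, Submodule.mem_comap, map_sub, s59t_normPsi_comm]
      exact Submodule.subset_span ⟨β, hβ, _, s59t_normPsi_mem ρ' C (τ.comp φ) w, rfl⟩
    exact h6 h3

end ControlTau

end Fermat.Agent.Lib.S59
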