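/-
Programme (R) = S59, node (E) module half (helper8), file 54: **the Hecke-module structure on the
eigen-parts.**  If a commutative `𝒪`-algebra `T` acts on `M` commuting with the representation `ρ`
of `Δ`, then every eigen-part `s59t_eig ρ C ψ` is `T`-stable; `s59t_EigT ρ C ψ hTρ` is the type
synonym of `↥(s59t_eig ρ C ψ)` carrying the instances `Module T`, `Module 𝒪`, `IsScalarTower 𝒪 T`.
-/
import Mathlib
import Fermat.Agent.Lib.S59.TType
import Fermat.Agent.Lib.S59.TCtrl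

set_option autoImplicit false
set_option linter.unusedSectionVars false
set_option linter.style.haveILetI false

open scoped BigOperators

noncomputable section

namespace Fermat.Agent.Lib.S59

section EigT

variable {𝒪 : Type*} [CommRing 𝒪] {Δ : Type*} [CommGroup Δ] [Fintype Δ]
  {M : Type*} [AddCommGroup M] [Module 𝒪 M] (ρ : Δ →* Module.End 𝒪 M) (C : Subgroup Δ)
  (ψ : Δ →* 𝒪ˣ)
  {T : Type*} [CommRing T] [Algebra 𝒪 T] [Module T M] [IsScalarTower 𝒪 T M]
  (hTρ : ∀ (t : T) (δ : Δ) (y : M), t • ρ δ y = ρ δ (t • y))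

include hTρ in
theorem s59t_smul_mem_eig {x : M} (hx : x ∈ s59t_eig ρ C ψ) (t : T) :
    t • x ∈ s59t_eig ρ C ψ := by
  intro γ hγ
  rw [← hTρ, hx γ hγ, smul_comm]

/-- the eigen-part as a `T`-module (type synonym). -/
def s59t_EigT (_hTρ : ∀ (t : T) (δ : Δ) (y : M), t • ρ δ y = ρ δ (t • y)) : Type _ :=
  s59t_eig ρ C ψ

instance s59t_EigT_addCommGroup : AddCommGroup (s59t_EigT ρ C ψ hTρ) :=
  inferInstanceAs (AddCommGroup (s59t_eig ρ C ψ))

instance s59t_EigT_moduleO : Module 𝒪 (s59t_EigT ρ C ψ hTρ) :=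
  inferInstanceAs (Module 𝒪 (s59t_eig ρ C ψ))

/-- the underlying element of `M`. -/
def s59t_EigT_val : s59t_EigT ρ C ψ hTρ →ₗ[𝒪] M := (s59t_eig ρ C ψ).subtype

/-- the underlying element of the eigen-submodule. -/
def s59t_EigT_equiv : s59t_EigT ρ C ψ hTρ ≃ₗ[𝒪] s59t_eig ρ C ψ := LinearEquiv.refl 𝒪 _

theorem s59t_EigT_val_injective : Function.Injective (s59t_EigT_val ρ C ψ hTρ) :=
  Subtype.val_injective

theorem s59t_EigT_val_mem (x : s59t_EigT ρ C ψ hTρ) :
    s59t_EigT_val ρ C ψ hTρ x ∈ s59t_eig ρ C ψ := x.2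

instance s59t_EigT_smul : SMul T (s59t_EigT ρ C ψ hTρ) where
  smul t x := ⟨t • (x.1 : M), s59t_smul_mem_eig ρ C ψ hTρ x.2 t⟩

theorem s59t_EigT_val_smul (t : T) (x : s59t_EigT ρ C ψ hTρ) :
    s59t_EigT_val ρ C ψ hTρ (t • x) = t • s59t_EigT_val ρ C ψ hTρ x := rfl

instance s59t_EigT_module : Module T (s59t_EigT ρ C ψ hTρ) where
  one_smul x := s59t_EigT_val_injective ρ C ψ hTρ (by
    rw [s59t_EigT_val_smul, one_smul])
  mul_smul t t' x := s59t_EigT_val_injective ρ C ψ hTρ (by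
    rw [s59t_EigT_val_smul, s59t_EigT_val_smul, s59t_EigT_val_smul, mul_smul])
  smul_zero t := s59t_EigT_val_injective ρ C ψ hTρ (by
    rw [s59t_EigT_val_smul, map_zero, smul_zero])
  smul_add t x y := s59t_EigT_val_injective ρ C ψ hTρ (by
    rw [s59t_EigT_val_smul, map_add, map_add, smul_add, s59t_EigT_val_smul, s59t_EigT_val_smul])
  add_smul t t' x := s59t_EigT_val_injective ρ C ψ hTρ (by
    rw [s59t_EigT_val_smul, map_add, add_smul, s59t_EigT_val_smul, s59t_EigT_val_smul])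
  zero_smul x := s59t_EigT_val_injective ρ C ψ hTρ (by
    rw [s59t_EigT_val_smul, zero_smul, map_zero])

instance s59t_EigT_tower : IsScalarTower 𝒪 T (s59t_EigT ρ C ψ hTρ) where
  smul_assoc a t x := s59t_EigT_val_injective ρ C ψ hTρ (by
    rw [s59t_EigT_val_smul, map_smul, s59t_EigT_val_smul, smul_assoc])

/-- constructor. -/
def s59t_EigT_mk (x : M) (hx : x ∈ s59t_eig ρ C ψ) : s59t_EigT ρ C ψ hTρ := ⟨x, hx⟩

theorem s59t_EigT_val_mk (x : M) (hx : x ∈ s59t_eig ρ C ψ) :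
    s59t_EigT_val ρ C ψ hTρ (s59t_EigT_mk ρ C ψ hTρ x hx) = x := rfl

end EigT

end Fermat.Agent.Lib.S59
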