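/-
Programme (R) = S59, node (E) module half (helper8), file 51: **the unframed level from named
hypotheses.**  Data: `Ψ : 𝒪⟦s₁..s_r⟧ ↠ 𝒪[B]` (from [GRP-PS] `s59t_grpPS_gen`) compatible with the
augmentations, a ring `T` (the Hecke ring at the Taylor–Wiles level) with the diamond operators
`dia : B →* T`, a `T`-module `N` which is free over `𝒪[B]` (through `dia`) on `b : Fin d → N`
(`s59t_evalMap` form, as produced by `s59t_eigRep_free`), and the control map `π : N ↠ M`,
`ψ`-semilinear for `ψ : T ↠ R`, with kernel the `B`-augmentation of `N` (as produced by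
`s59t_control_tau`).  Output: `s59t_level0 : s59p_Level 𝒪⟦s⟧ T R M (ker constantCoeff) (ker Ψ)`
with `φ = lam ∘ Ψ`, `lam = MonoidAlgebra.lift dia`.
-/
import Mathlib
import Fermat.Agent.Lib.S59.PGraph
import Fermat.Agent.Lib.S59.TFree
import Fermat.Agent.Lib.S59.TGrpAlg
import Fermat.Agent.Lib.Deform.PowerSeries

set_option autoImplicit false
set_option linter.unusedSectionVars false
set_option linter.style.haveILetI false

open scoped BigOperators
open MvPowerSeries

noncomputable section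

namespace Fermat.Agent.Lib.S59

section Lam

variable {𝒪 : Type*} [CommRing 𝒪] {B : Type*} [CommGroup B] [Fintype B]
  {T : Type*} [CommRing T] [Algebra 𝒪 T] (dia : B →* T)
  {N : Type*} [AddCommGroup N] [Module 𝒪 N] [Module T N] [IsScalarTower 𝒪 T N]

/-- `lam : 𝒪[B] → T`, the action of the group algebra through the diamond operators. -/
def s59t_lam : MonoidAlgebra 𝒪 B →ₐ[𝒪] T := MonoidAlgebra.lift 𝒪 T B dia

theorem s59t_lam_of (β : B) : s59t_lam (𝒪 := 𝒪) dia (MonoidAlgebra.of 𝒪 B β) = dia β := by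
  rw [s59t_lam, MonoidAlgebra.lift_of]

theorem s59t_lam_eq_sum (x : MonoidAlgebra 𝒪 B) :
    s59t_lam dia x = ∑ β, x.coeff β • dia β := by
  rw [s59t_lam, MonoidAlgebra.lift_apply, Finsupp.sum_fintype]
  intro β
  rw [zero_smul]

theorem s59t_lam_smul (x : MonoidAlgebra 𝒪 B) (y : N) :
    s59t_lam dia x • y = ∑ β, x.coeff β • (dia β • y) := by
  rw [s59t_lam_eq_sum, Finset.sum_smul]
  refine Finset.sum_congr rfl fun β _ => ?_
  rw [smul_assoc]

/-- the element of the group algebra with given coefficients. -/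
def s59t_ofFun (c : B → 𝒪) : MonoidAlgebra 𝒪 B :=
  MonoidAlgebra.ofCoeff (Finsupp.equivFunOnFinite.symm c)

theorem s59t_ofFun_coeff (c : B → 𝒪) (β : B) : (s59t_ofFun c).coeff β = c β := rfl

theorem s59t_ofFun_self (x : MonoidAlgebra 𝒪 B) : s59t_ofFun (fun β => x.coeff β) = x := by
  apply MonoidAlgebra.ext
  ext β
  rfl

end Lam

section Level0

variable {𝒪 : Type} [CommRing 𝒪] {B : Type} [CommGroup B] [Fintype B]
  {r : ℕ} (Ψ : MvPowerSeries (Fin r) 𝒪 →ₐ[𝒪] MonoidAlgebra 𝒪 B)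
  (hΨs : Function.Surjective Ψ)
  (hΨa : ∀ s, s59t_aug 𝒪 B (Ψ s) = constantCoeff s)
  {T : Type} [CommRing T] [Algebra 𝒪 T] (dia : B →* T)
  {N : Type} [AddCommGroup N] [Module 𝒪 N] [Module T N] [IsScalarTower 𝒪 T N]
  (ρ : B →* Module.End 𝒪 N) (hρ : ∀ β x, ρ β x = dia β • x)
  {R : Type} [CommRing R] [Algebra 𝒪 R] (ψ : T →ₐ[𝒪] R) (hψs : Function.Surjective ψ)
  (hψd : ∀ β, ψ (dia β) = 1)
  {M : Type} [AddCommGroup M] [Module R M]
  (π : N →+ M) (hπ : ∀ t x, π (t • x) = ψ t • π x) (hπs : Function.Surjective π)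
  (hπk : ∀ x, π x = 0 → x ∈ Submodule.span 𝒪 {z : N | ∃ β y, z = ρ β y - y})
  {d : ℕ} (b : Fin d → N) (hb : Function.Bijective (s59t_evalMap ρ b))

/-- the structure map `φ = lam ∘ Ψ : 𝒪⟦s⟧ → T` of the unframed level. -/
def s59t_phi0 : MvPowerSeries (Fin r) 𝒪 →+* T :=
  ((s59t_lam (𝒪 := 𝒪) dia).comp Ψ : MvPowerSeries (Fin r) 𝒪 →ₐ[𝒪] T)

theorem s59t_phi0_apply (s : MvPowerSeries (Fin r) 𝒪) :
    s59t_phi0 Ψ dia s = s59t_lam dia (Ψ s) := rfl

include hψd in
/-- `ψ ∘ lam = aug`. -/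
theorem s59t_psi_lam (x : MonoidAlgebra 𝒪 B) :
    ψ (s59t_lam dia x) = algebraMap 𝒪 R (s59t_aug 𝒪 B x) := by
  have h1 : s59t_aug 𝒪 B x = ∑ β, x.coeff β • (1 : 𝒪) := s59t_lam_eq_sum (1 : B →* 𝒪) x
  rw [s59t_lam_eq_sum, map_sum, h1, map_sum]
  refine Finset.sum_congr rfl fun β _ => ?_
  rw [map_smul, hψd, smul_eq_mul, mul_one, Algebra.algebraMap_eq_smul_one]

include hΨa hψd in
theorem s59t_psi_phi (s : MvPowerSeries (Fin r) 𝒪)
    (hs : s ∈ RingHom.ker (constantCoeff (σ := Fin r) (R := 𝒪))) :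
    ψ (s59t_lam dia (Ψ s)) = 0 := by
  rw [s59t_psi_lam dia ψ hψd, hΨa, (RingHom.mem_ker).mp hs, map_zero]

include hρ in
/-- the evaluation map in terms of `lam`. -/
theorem s59t_evalMap_lam (c : Fin d → MonoidAlgebra 𝒪 B) :
    ∑ i, s59t_lam dia (c i) • b i = s59t_evalMap ρ b (fun i β => (c i).coeff β) := by
  rw [s59t_evalMap_apply]
  refine Finset.sum_congr rfl fun i _ => ?_
  rw [s59t_lam_smul]
  refine Finset.sum_congr rfl fun β _ => ?_
  rw [hρ]

/-- **the unframed level.** -/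
def s59t_level0 :
    s59p_Level (MvPowerSeries (Fin r) 𝒪) T R M
      (RingHom.ker (constantCoeff (σ := Fin r) (R := 𝒪))) (RingHom.ker Ψ) where
  N := N
  φ := s59t_phi0 Ψ dia
  ψ := ψ
  ψ_surjective := hψs
  ψ_φ := fun s hs => s59t_psi_phi Ψ hΨa dia ψ hψd s hs
  π := π
  π_smul := hπ
  π_surjective := hπs
  ker_π := by
    intro x
    constructor
    · intro hx
      have h1 := hπk x hx
      refine Submodule.span_induction ?_ ?_ ?_ ?_ h1
      · rintro _ ⟨β, y, rfl⟩
        obtain ⟨s, hs⟩ := hΨs (MonoidAlgebra.of 𝒪 B β - 1)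
        have hsa : s ∈ RingHom.ker (constantCoeff (σ := Fin r) (R := 𝒪)) := by
          rw [RingHom.mem_ker, ← hΨa, hs, map_sub, s59t_aug_of, map_one, sub_self]
        have e : ρ β y - y = (s59t_phi0 Ψ dia) s • y := by
          rw [s59t_phi0_apply, hs, map_sub, s59t_lam_of, map_one, sub_smul, one_smul, hρ]
        rw [e]
        exact Submodule.smul_mem_smul (Ideal.mem_map_of_mem _ hsa) Submodule.mem_top
      · exact Submodule.zero_mem _
      · intro y z _ _ hy hz
        exact Submodule.add_mem _ hy hz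
      · intro a y _ hy
        rw [← algebraMap_smul T a y]
        exact Submodule.smul_mem _ _ hy
    · intro hx
      refine Submodule.smul_induction_on hx ?_ ?_
      · intro a ha y _
        have h1 : Ideal.map (s59t_phi0 Ψ dia)
            (RingHom.ker (constantCoeff (σ := Fin r) (R := 𝒪))) ≤
            RingHom.ker (ψ : T →+* R) := by
          rw [Ideal.map_le_iff_le_comap]
          intro s hs
          rw [Ideal.mem_comap, RingHom.mem_ker, s59t_phi0_apply]
          exact s59t_psi_phi Ψ hΨa dia ψ hψd s hs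
        have h2 : ψ a = 0 := (RingHom.mem_ker).mp (h1 ha)
        rw [hπ, h2, zero_smul]
      · intro y z hy hz
        rw [map_add, hy, hz, add_zero]
  d := d
  b := b
  b_span := by
    intro x
    obtain ⟨c', hc'⟩ := hb.2 x
    choose c hc using fun i => hΨs (s59t_ofFun (c' i))
    refine ⟨c, ?_⟩
    have h1 : ∑ i, s59t_lam dia (Ψ (c i)) • b i = x := by
      rw [s59t_evalMap_lam dia ρ hρ b, ← hc']
      congr 1
      funext i β
      rw [hc, s59t_ofFun_coeff]
    exact h1.symm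
  b_rel := by
    intro c
    have h1 : ∑ i, (s59t_phi0 Ψ dia) (c i) • b i =
        s59t_evalMap ρ b (fun i β => (Ψ (c i)).coeff β) :=
      s59t_evalMap_lam dia ρ hρ b (fun i => Ψ (c i))
    rw [h1]
    constructor
    · intro h i
      have h2 : (fun i β => (Ψ (c i)).coeff β) = (0 : Fin d → B → 𝒪) :=
        hb.1 (by rw [h, map_zero])
      rw [RingHom.mem_ker]
      apply MonoidAlgebra.ext
      ext β
      exact congrFun (congrFun h2 i) β
    · intro h
      have h2 : (fun i β => (Ψ (c i)).coeff β) = (0 : Fin d → B → 𝒪) := by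
        funext i β
        have := (RingHom.mem_ker).mp (h i)
        show (Ψ (c i)).coeff β = 0
        have h3 : (Ψ (c i)) = 0 := this
        rw [h3]
        rfl
      rw [h2, map_zero]

theorem s59t_level0_φ :
    (s59t_level0 Ψ hΨs hΨa dia ρ hρ ψ hψs hψd π hπ hπs hπk b hb).φ = s59t_phi0 Ψ dia := rfl

theorem s59t_level0_ψ :
    (s59t_level0 Ψ hΨs hΨa dia ρ hρ ψ hψs hψd π hπ hπs hπk b hb).ψ = ψ := rfl

theorem s59t_level0_d :
    (s59t_level0 Ψ hΨs hΨa dia ρ hρ ψ hψs hψd π hπ hπs hπk b hb).d = d := rfl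

end Level0

section AugCompat

variable {𝒪 : Type} [CommRing 𝒪] [IsLocalRing 𝒪]
  [IsHausdorff (IsLocalRing.maximalIdeal 𝒪) 𝒪] {B : Type} [CommGroup B] [Fintype B] {r : ℕ}

/-- the compatibility `aug ∘ Ψ = constantCoeff` follows from `aug (Ψ (X j)) = 0`. -/
theorem s59t_aug_comp_eq (Ψ : MvPowerSeries (Fin r) 𝒪 →ₐ[𝒪] MonoidAlgebra 𝒪 B)
    (hX : ∀ j, s59t_aug 𝒪 B (Ψ (X j)) = 0) (s : MvPowerSeries (Fin r) 𝒪) :
    s59t_aug 𝒪 B (Ψ s) = constantCoeff s := by
  let cc : MvPowerSeries (Fin r) 𝒪 →ₐ[𝒪] 𝒪 :=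
    { (constantCoeff (σ := Fin r) (R := 𝒪)) with
      commutes' := fun a => by
        show constantCoeff (algebraMap 𝒪 (MvPowerSeries (Fin r) 𝒪) a) = a
        rw [MvPowerSeries.algebraMap_apply, Algebra.algebraMap_self, RingHom.id_apply, constantCoeff_C] }
  have h := Fermat.Agent.Lib.Deform.algHom_ext_of_X (IsLocalRing.maximalIdeal 𝒪)
    (φ := (s59t_aug 𝒪 B).comp Ψ) (ψ := cc)
    (fun j => by
      rw [AlgHom.comp_apply, hX]
      exact Ideal.zero_mem _)
    (fun j => by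
      rw [AlgHom.comp_apply, hX]
      show (0 : 𝒪) = constantCoeff (X j)
      rw [constantCoeff_X])
  exact congrArg (fun f : MvPowerSeries (Fin r) 𝒪 →ₐ[𝒪] 𝒪 => f s) h

end AugCompat

end Fermat.Agent.Lib.S59
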