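/-
Programme (R) = S59, node (E) module half (helper8), file 48: **formal power series with
coefficients in a module.**  `s59t_PS σ M := (σ →₀ ℕ) → M` (the `M⟦z⟧` of the framed levels) with
its module structure over `MvPowerSeries σ T` (Cauchy product) for a `T`-module `M`.  Mathlib only.
-/
import Mathlib

set_option autoImplicit false
set_option linter.unusedSectionVars false
set_option linter.style.haveILetI false

open scoped BigOperators
open Finset

noncomputable section

namespace Fermat.Agent.Lib.S59

/-- formal power series in the variables `σ` with coefficients in `M`. -/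
def s59t_PS (σ : Type*) (M : Type*) : Type _ := (σ →₀ ℕ) → M

section PS

variable {σ : Type*} [DecidableEq σ] {T : Type*} [CommRing T] {M : Type*} [AddCommGroup M]
  [Module T M]

instance s59t_PS_addCommGroup : AddCommGroup (s59t_PS σ M) :=
  inferInstanceAs (AddCommGroup ((σ →₀ ℕ) → M))

/-- the coefficient maps. -/
def s59t_PScoeff (d : σ →₀ ℕ) : s59t_PS σ M →+ M where
  toFun m := m d
  map_zero' := rfl
  map_add' _ _ := rfl

theorem s59t_PS_ext {m m' : s59t_PS σ M} (h : ∀ d, s59t_PScoeff d m = s59t_PScoeff d m') :
    m = m' := funext h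

instance s59t_PS_smul : SMul (MvPowerSeries σ T) (s59t_PS σ M) where
  smul f m := fun d => ∑ x ∈ antidiagonal d, MvPowerSeries.coeff x.1 f • m x.2

theorem s59t_PS_smul_coeff (f : MvPowerSeries σ T) (m : s59t_PS σ M) (d : σ →₀ ℕ) :
    s59t_PScoeff d (f • m) =
      ∑ x ∈ antidiagonal d, MvPowerSeries.coeff x.1 f • s59t_PScoeff x.2 m := rfl

instance s59t_PS_module : Module (MvPowerSeries σ T) (s59t_PS σ M) where
  one_smul m := by
    refine s59t_PS_ext fun d => ?_
    rw [s59t_PS_smul_coeff, Finset.sum_eq_single (0, d)]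
    · rw [MvPowerSeries.coeff_one, if_pos rfl, one_smul]
    · rintro ⟨a, b⟩ hab hne
      rw [HasAntidiagonal.mem_antidiagonal] at hab
      have ha : a ≠ 0 := by
        rintro rfl
        apply hne
        simp only [zero_add] at hab
        rw [hab]
      rw [MvPowerSeries.coeff_one, if_neg ha, zero_smul]
    · intro h
      exact absurd (HasAntidiagonal.mem_antidiagonal.mpr (zero_add d)) h
  mul_smul f g m := by
    refine s59t_PS_ext fun d => ?_
    simp only [s59t_PS_smul_coeff, MvPowerSeries.coeff_mul, Finset.sum_smul, Finset.smul_sum,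
      Finset.sum_sigma', mul_smul]
    apply Finset.sum_nbij' (fun ⟨⟨_i, j⟩, ⟨k, l⟩⟩ ↦ ⟨(k, l + j), (l, j)⟩)
      (fun ⟨⟨i, _j⟩, ⟨k, l⟩⟩ ↦ ⟨(i + k, l), (i, k)⟩) <;> aesop (add simp [add_assoc])
  smul_zero f := by
    refine s59t_PS_ext fun d => ?_
    rw [s59t_PS_smul_coeff]
    simp
  smul_add f m m' := by
    refine s59t_PS_ext fun d => ?_
    rw [map_add, s59t_PS_smul_coeff, s59t_PS_smul_coeff, s59t_PS_smul_coeff,
      ← Finset.sum_add_distrib]
    refine Finset.sum_congr rfl fun x _ => ?_
    rw [map_add, smul_add]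
  add_smul f g m := by
    refine s59t_PS_ext fun d => ?_
    rw [map_add, s59t_PS_smul_coeff, s59t_PS_smul_coeff, s59t_PS_smul_coeff,
      ← Finset.sum_add_distrib]
    refine Finset.sum_congr rfl fun x _ => ?_
    rw [map_add, add_smul]
  zero_smul m := by
    refine s59t_PS_ext fun d => ?_
    rw [s59t_PS_smul_coeff]
    simp

/-- the constant series. -/
def s59t_PSconst : M →+ s59t_PS σ M where
  toFun y := fun d => if d = 0 then y else 0
  map_zero' := by
    funext d
    show (if d = 0 then (0 : M) else 0) = 0
    rw [ite_self]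
  map_add' y y' := by
    funext d
    show (if d = 0 then y + y' else 0) = (if d = 0 then y else 0) + (if d = 0 then y' else 0)
    split_ifs
    · rfl
    · rw [add_zero]

theorem s59t_PSconst_coeff (y : M) (d : σ →₀ ℕ) :
    s59t_PScoeff d (s59t_PSconst (σ := σ) y) = if d = 0 then y else 0 := rfl

theorem s59t_PSconst_coeff_zero (y : M) :
    s59t_PScoeff (0 : σ →₀ ℕ) (s59t_PSconst (σ := σ) y) = y := by
  rw [s59t_PSconst_coeff, if_pos rfl]

/-- `(f • const y) d = f_d • y`. -/
theorem s59t_smul_const_coeff (f : MvPowerSeries σ T) (y : M) (d : σ →₀ ℕ) :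
    s59t_PScoeff d (f • s59t_PSconst (σ := σ) y) = MvPowerSeries.coeff d f • y := by
  rw [s59t_PS_smul_coeff, Finset.sum_eq_single (d, 0)]
  · rw [s59t_PSconst_coeff_zero]
  · rintro ⟨a, b⟩ hab hne
    rw [HasAntidiagonal.mem_antidiagonal] at hab
    have hb : b ≠ 0 := by
      rintro rfl
      apply hne
      simp only [add_zero] at hab
      rw [hab]
    rw [s59t_PSconst_coeff, if_neg hb, smul_zero]
  · intro h
    exact absurd (HasAntidiagonal.mem_antidiagonal.mpr (add_zero d)) h

/-- the constant coefficient of `f • m`. -/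
theorem s59t_smul_coeff_zero (f : MvPowerSeries σ T) (m : s59t_PS σ M) :
    s59t_PScoeff 0 (f • m) = MvPowerSeries.constantCoeff f • s59t_PScoeff 0 m := by
  rw [s59t_PS_smul_coeff, Finsupp.antidiagonal_zero, Finset.sum_singleton,
    MvPowerSeries.coeff_zero_eq_constantCoeff_apply]

/-- `(C t • m) d = t • m d`. -/
theorem s59t_C_smul_coeff (t : T) (m : s59t_PS σ M) (d : σ →₀ ℕ) :
    s59t_PScoeff d ((MvPowerSeries.C t : MvPowerSeries σ T) • m) = t • s59t_PScoeff d m := by
  rw [s59t_PS_smul_coeff, Finset.sum_eq_single (0, d)]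
  · rw [MvPowerSeries.coeff_zero_C]
  · rintro ⟨a, b⟩ hab hne
    rw [HasAntidiagonal.mem_antidiagonal] at hab
    have ha : a ≠ 0 := by
      rintro rfl
      apply hne
      simp only [zero_add] at hab
      rw [hab]
    rw [MvPowerSeries.coeff_C, if_neg ha, zero_smul]
  · intro h
    exact absurd (HasAntidiagonal.mem_antidiagonal.mpr (zero_add d)) h

/-- `(X k • m) (d + e_k) = m d`. -/
theorem s59t_X_smul_coeff_add (k : σ) (m : s59t_PS σ M) (d : σ →₀ ℕ) :
    s59t_PScoeff (d + Finsupp.single k 1) ((MvPowerSeries.X k : MvPowerSeries σ T) • m) =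
      s59t_PScoeff d m := by
  rw [s59t_PS_smul_coeff, Finset.sum_eq_single (Finsupp.single k 1, d)]
  · rw [MvPowerSeries.coeff_X, if_pos rfl, one_smul]
  · rintro ⟨a, b⟩ hab hne
    rw [HasAntidiagonal.mem_antidiagonal] at hab
    have ha : a ≠ Finsupp.single k 1 := by
      rintro rfl
      apply hne
      have : b = d := by
        rw [add_comm] at hab
        exact add_right_cancel hab
      rw [this]
    rw [MvPowerSeries.coeff_X, if_neg ha, zero_smul]
  · intro h
    exact absurd (HasAntidiagonal.mem_antidiagonal.mpr (add_comm _ _)) h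

/-- `(X k • m) d = 0` if `d k = 0`. -/
theorem s59t_X_smul_coeff_of_eq_zero (k : σ) (m : s59t_PS σ M) (d : σ →₀ ℕ) (hd : d k = 0) :
    s59t_PScoeff d ((MvPowerSeries.X k : MvPowerSeries σ T) • m) = 0 := by
  rw [s59t_PS_smul_coeff]
  refine Finset.sum_eq_zero fun x hx => ?_
  rw [HasAntidiagonal.mem_antidiagonal] at hx
  have ha : x.1 ≠ Finsupp.single k 1 := by
    intro h
    have h1 : d k = x.1 k + x.2 k := by rw [← hx]; rfl
    rw [h, Finsupp.single_eq_same, hd] at h1
    omega
  rw [MvPowerSeries.coeff_X, if_neg ha, zero_smul]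

/-- `(X k • m) d` in closed form. -/
theorem s59t_X_smul_coeff (k : σ) (m : s59t_PS σ M) (d : σ →₀ ℕ) :
    s59t_PScoeff d ((MvPowerSeries.X k : MvPowerSeries σ T) • m) =
      if d k = 0 then 0 else s59t_PScoeff (d - Finsupp.single k 1) m := by
  split_ifs with h
  · exact s59t_X_smul_coeff_of_eq_zero k m d h
  · have hd : d = (d - Finsupp.single k 1) + Finsupp.single k 1 := by
      ext j
      by_cases hj : j = k
      · subst hj
        simp only [Finsupp.coe_add, Finsupp.coe_tsub, Pi.add_apply, Pi.sub_apply,
          Finsupp.single_eq_same]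
        omega
      · simp only [Finsupp.coe_add, Finsupp.coe_tsub, Pi.add_apply, Pi.sub_apply,
          Finsupp.single_eq_of_ne hj]
        omega
    conv_lhs => rw [hd]
    exact s59t_X_smul_coeff_add k m _

variable (T) in
/-- **a series without constant term is a combination of the variables.** -/
theorem s59t_PS_decomp [Fintype σ] (m : s59t_PS σ M) (h0 : s59t_PScoeff 0 m = 0) :
    ∃ h : σ → s59t_PS σ M, m = ∑ k, (MvPowerSeries.X k : MvPowerSeries σ T) • h k := by
  classical
  -- a chosen index in the support
  let kk : (σ →₀ ℕ) → Option σ := fun d =>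
    if hd : d.support.Nonempty then some hd.choose else none
  have hkk : ∀ d k, kk d = some k → d k ≠ 0 := by
    intro d k hk
    by_cases hd : d.support.Nonempty
    · have h1 : kk d = some hd.choose := dif_pos hd
      rw [h1, Option.some.injEq] at hk
      rw [← hk]
      exact Finsupp.mem_support_iff.mp hd.choose_spec
    · have h1 : kk d = none := dif_neg hd
      rw [h1] at hk
      exact absurd hk (by simp)
  have hkk0 : ∀ d, kk d = none → d = 0 := by
    intro d hd
    by_contra hne
    have hsup : d.support.Nonempty := Finsupp.support_nonempty_iff.mpr hne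
    have h1 : kk d = some hsup.choose := dif_pos hsup
    rw [h1] at hd
    exact absurd hd (by simp)
  let hf : σ → s59t_PS σ M := fun k d =>
    if kk (d + Finsupp.single k 1) = some k then m (d + Finsupp.single k 1) else 0
  refine ⟨hf, ?_⟩
  refine s59t_PS_ext fun d => ?_
  rw [map_sum]
  have hterm : ∀ k, s59t_PScoeff d ((MvPowerSeries.X k : MvPowerSeries σ T) • hf k) =
      if kk d = some k then m d else 0 := by
    intro k
    rw [s59t_X_smul_coeff]
    by_cases hdk : d k = 0
    · rw [if_pos hdk]
      have : kk d ≠ some k := fun h => hkk d k h hdk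
      rw [if_neg this]
    · rw [if_neg hdk]
      have hd : (d - Finsupp.single k 1) + Finsupp.single k 1 = d := by
        ext j
        by_cases hj : j = k
        · subst hj
          simp only [Finsupp.coe_add, Finsupp.coe_tsub, Pi.add_apply, Pi.sub_apply,
            Finsupp.single_eq_same]
          omega
        · simp only [Finsupp.coe_add, Finsupp.coe_tsub, Pi.add_apply, Pi.sub_apply,
            Finsupp.single_eq_of_ne hj]
          omega
      show (if kk ((d - Finsupp.single k 1) + Finsupp.single k 1) = some k then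
        m ((d - Finsupp.single k 1) + Finsupp.single k 1) else 0) = _
      rw [hd]
  rw [Finset.sum_congr rfl fun k _ => hterm k]
  cases hc : kk d with
  | none =>
    have := hkk0 d hc
    rw [this]
    simp only [reduceCtorEq, if_false, Finset.sum_const_zero]
    exact h0
  | some k₀ =>
    rw [Finset.sum_eq_single k₀]
    · rw [if_pos rfl]
      rfl
    · intro k _ hk
      have : some k₀ ≠ some k := fun h => hk (Option.some.inj h).symm
      rw [if_neg this]
    · intro h
      exact absurd (Finset.mem_univ k₀) h

end PS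

end Fermat.Agent.Lib.S59
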