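/-
Programme (R) = S59, node (E) module half (helper8), file 49: **framing a patching level.**
From an UNFRAMED level `L₀ : s59p_Level S₀ T R M 𝔞₀ J₀` (acting ring `T`, e.g. the Hecke ring at a
Taylor–Wiles level, `S₀ = 𝒪⟦s₁..s_r⟧`) we get the FRAMED level
`s59t_frameLevel σ L₀ : s59p_Level S₀⟦σ⟧ T⟦σ⟧ R M (comap constantCoeff 𝔞₀) {f | ∀ d, f_d ∈ J₀}`
with `N = L₀.N⟦σ⟧` (`s59t_PS σ L₀.N`), `φ = MvPowerSeries.map L₀.φ`, `ψ = L₀.ψ ∘ constantCoeff`,
`π f = L₀.π (f 0)`, `b i = const (L₀.b i)`, same rank `d`.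
-/
import Mathlib
import Fermat.Agent.Lib.S59.PGraph
import Fermat.Agent.Lib.S59.TPSMod
import Fermat.Agent.Lib.Deform.PowerSeries

set_option autoImplicit false
set_option linter.unusedSectionVars false
set_option linter.style.haveILetI false

open scoped BigOperators
open MvPowerSeries

noncomputable section

namespace Fermat.Agent.Lib.S59

section Frame

variable (σ : Type) [DecidableEq σ] [Fintype σ] {S₀ : Type} [CommRing S₀] {T : Type} [CommRing T]
  {R : Type} [CommRing R] {M : Type} [AddCommGroup M] [Module R M]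

/-- the framed augmentation ideal: constant coefficient in `𝔞₀`. -/
def s59t_frameA (𝔞₀ : Ideal S₀) : Ideal (MvPowerSeries σ S₀) :=
  Ideal.comap (constantCoeff (σ := σ) (R := S₀)) 𝔞₀

/-- the framed relation ideal: all coefficients in `J₀`. -/
def s59t_frameJ (J₀ : Ideal S₀) : Ideal (MvPowerSeries σ S₀) :=
  RingHom.ker (MvPowerSeries.map (σ := σ) (Ideal.Quotient.mk J₀))

variable {σ}

theorem s59t_mem_frameA {𝔞₀ : Ideal S₀} {f : MvPowerSeries σ S₀} :
    f ∈ s59t_frameA σ 𝔞₀ ↔ constantCoeff f ∈ 𝔞₀ := Iff.rfl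

theorem s59t_mem_frameJ {J₀ : Ideal S₀} {f : MvPowerSeries σ S₀} :
    f ∈ s59t_frameJ σ J₀ ↔ ∀ d, coeff d f ∈ J₀ := by
  rw [s59t_frameJ, RingHom.mem_ker, MvPowerSeries.ext_iff]
  refine forall_congr' fun d => ?_
  rw [coeff_map, map_zero, Ideal.Quotient.eq_zero_iff_mem]

instance s59t_frameA_isPrime (𝔞₀ : Ideal S₀) [𝔞₀.IsPrime] : (s59t_frameA σ 𝔞₀).IsPrime :=
  Ideal.comap_isPrime _ _

theorem s59t_X_mem_frameA (𝔞₀ : Ideal S₀) (k : σ) :
    (X k : MvPowerSeries σ S₀) ∈ s59t_frameA σ 𝔞₀ := by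
  rw [s59t_mem_frameA, constantCoeff_X]
  exact Ideal.zero_mem _

theorem s59t_C_mem_frameA {𝔞₀ : Ideal S₀} {s : S₀} (hs : s ∈ 𝔞₀) :
    (C s : MvPowerSeries σ S₀) ∈ s59t_frameA σ 𝔞₀ := by
  rw [s59t_mem_frameA, constantCoeff_C]
  exact hs

variable {𝔞₀ J₀ : Ideal S₀} (L₀ : s59p_Level S₀ T R M 𝔞₀ J₀)

/-- constants of `(𝔞₀ T) N₀` lie in `(𝔞 T⟦σ⟧) N₀⟦σ⟧`. -/
theorem s59t_const_mem_smul (y : L₀.N)
    (hy : y ∈ (𝔞₀.map L₀.φ) • (⊤ : Submodule T L₀.N)) :
    s59t_PSconst (σ := σ) y ∈ ((s59t_frameA σ 𝔞₀).map (MvPowerSeries.map (σ := σ) L₀.φ)) •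
      (⊤ : Submodule (MvPowerSeries σ T) (s59t_PS σ L₀.N)) := by
  have hC : ∀ t ∈ 𝔞₀.map L₀.φ, (C t : MvPowerSeries σ T) ∈
      (s59t_frameA σ 𝔞₀).map (MvPowerSeries.map (σ := σ) L₀.φ) := by
    intro t ht
    have h1 : (𝔞₀.map L₀.φ).map (C : T →+* MvPowerSeries σ T) ≤
        (s59t_frameA σ 𝔞₀).map (MvPowerSeries.map (σ := σ) L₀.φ) := by
      rw [Ideal.map_map, Ideal.map_le_iff_le_comap]
      intro s hs
      rw [Ideal.mem_comap, RingHom.comp_apply]
      have : (C (L₀.φ s) : MvPowerSeries σ T) = MvPowerSeries.map (σ := σ) L₀.φ (C s) := by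
        rw [map_C]
      rw [this]
      exact Ideal.mem_map_of_mem _ (s59t_C_mem_frameA hs)
    exact h1 (Ideal.mem_map_of_mem _ ht)
  refine Submodule.smul_induction_on hy ?_ ?_
  · intro t ht y' _
    have e : s59t_PSconst (σ := σ) (t • y') =
        (C t : MvPowerSeries σ T) • s59t_PSconst (σ := σ) y' := by
      refine s59t_PS_ext fun d => ?_
      rw [s59t_C_smul_coeff, s59t_PSconst_coeff, s59t_PSconst_coeff]
      split_ifs
      · rfl
      · rw [smul_zero]
    rw [e]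
    exact Submodule.smul_mem_smul (hC t ht) Submodule.mem_top
  · intro y₁ y₂ h₁ h₂
    rw [map_add]
    exact Submodule.add_mem _ h₁ h₂

/-- **the framed level.** -/
def s59t_frameLevel :
    s59p_Level (MvPowerSeries σ S₀) (MvPowerSeries σ T) R M (s59t_frameA σ 𝔞₀)
      (s59t_frameJ σ J₀) where
  N := s59t_PS σ L₀.N
  instAddCommGroup := s59t_PS_addCommGroup
  instModule := s59t_PS_module
  φ := MvPowerSeries.map L₀.φ
  ψ := L₀.ψ.comp constantCoeff
  ψ_surjective := by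
    intro x
    obtain ⟨t, rfl⟩ := L₀.ψ_surjective x
    exact ⟨C t, by rw [RingHom.comp_apply, constantCoeff_C]⟩
  ψ_φ := by
    intro s hs
    rw [RingHom.comp_apply, constantCoeff_map]
    exact L₀.ψ_φ _ hs
  π := L₀.π.comp (s59t_PScoeff 0)
  π_smul := by
    intro a x
    rw [AddMonoidHom.comp_apply, AddMonoidHom.comp_apply, s59t_smul_coeff_zero, L₀.π_smul]
    rfl
  π_surjective := by
    intro y
    obtain ⟨x, rfl⟩ := L₀.π_surjective y
    exact ⟨s59t_PSconst x, by rw [AddMonoidHom.comp_apply, s59t_PSconst_coeff_zero]⟩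
  ker_π := by
    intro x
    constructor
    · intro hx
      rw [AddMonoidHom.comp_apply] at hx
      have h1 : s59t_PScoeff 0 x ∈ (𝔞₀.map L₀.φ) • (⊤ : Submodule T L₀.N) :=
        (L₀.ker_π _).mp hx
      have h2 := s59t_const_mem_smul (σ := σ) L₀ _ h1
      have h3 : s59t_PScoeff 0 (x - s59t_PSconst (s59t_PScoeff 0 x)) = 0 := by
        rw [map_sub, s59t_PSconst_coeff_zero, sub_self]
      obtain ⟨h, hh⟩ := s59t_PS_decomp T (x - s59t_PSconst (s59t_PScoeff 0 x)) h3
      have e : x = (∑ k, (X k : MvPowerSeries σ T) • h k) +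
          s59t_PSconst (s59t_PScoeff 0 x) := by
        rw [← hh, sub_add_cancel]
      rw [e]
      refine Submodule.add_mem _ (Submodule.sum_mem _ fun k _ => ?_) h2
      refine Submodule.smul_mem_smul ?_ Submodule.mem_top
      have : (X k : MvPowerSeries σ T) = MvPowerSeries.map (σ := σ) L₀.φ (X k) := by
        rw [map_X]
      rw [this]
      exact Ideal.mem_map_of_mem _ (s59t_X_mem_frameA 𝔞₀ k)
    · intro hx
      refine Submodule.smul_induction_on hx ?_ ?_
      · intro a ha y _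
        have hψ : (L₀.ψ.comp constantCoeff) a = 0 := by
          have h1 : (s59t_frameA σ 𝔞₀).map (MvPowerSeries.map (σ := σ) L₀.φ) ≤
              RingHom.ker (L₀.ψ.comp (constantCoeff (σ := σ) (R := T))) := by
            rw [Ideal.map_le_iff_le_comap]
            intro s hs
            rw [Ideal.mem_comap, RingHom.mem_ker, RingHom.comp_apply, constantCoeff_map]
            exact L₀.ψ_φ _ hs
          exact h1 ha
        rw [AddMonoidHom.comp_apply, s59t_smul_coeff_zero, L₀.π_smul]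
        rw [RingHom.comp_apply] at hψ
        rw [hψ, zero_smul]
      · intro y₁ y₂ h₁ h₂
        rw [map_add, h₁, h₂, add_zero]
  d := L₀.d
  b := fun i => s59t_PSconst (L₀.b i)
  b_span := by
    intro x
    choose c hc using fun d => L₀.b_span (s59t_PScoeff d x)
    let cc : Fin L₀.d → MvPowerSeries σ S₀ := fun i d => c d i
    have hcc : ∀ i d, coeff d (cc i) = c d i := fun _ _ => rfl
    refine ⟨cc, s59t_PS_ext fun d => ?_⟩
    rw [map_sum, hc d]
    refine Finset.sum_congr rfl fun i _ => ?_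
    rw [s59t_smul_const_coeff, coeff_map, hcc]
  b_rel := by
    intro c
    have key : ∀ d, s59t_PScoeff d (∑ i, MvPowerSeries.map (σ := σ) L₀.φ (c i) •
        s59t_PSconst (σ := σ) (L₀.b i)) = ∑ i, L₀.φ (coeff d (c i)) • L₀.b i := by
      intro d
      rw [map_sum]
      refine Finset.sum_congr rfl fun i _ => ?_
      rw [s59t_smul_const_coeff, coeff_map]
    constructor
    · intro h i
      rw [s59t_mem_frameJ]
      intro d
      have h1 := key d
      rw [h, map_zero] at h1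
      exact (L₀.b_rel fun i => coeff d (c i)).mp h1.symm i
    · intro h
      refine s59t_PS_ext fun d => ?_
      rw [key, map_zero]
      exact (L₀.b_rel fun i => coeff d (c i)).mpr fun i => s59t_mem_frameJ.mp (h i) d

/-- the rank of the framed level. -/
theorem s59t_frameLevel_d : (s59t_frameLevel (σ := σ) L₀).d = L₀.d := rfl

end Frame

section FrameJ

variable {σ : Type} [DecidableEq σ] [Fintype σ] {S₀ : Type} [CommRing S₀] [IsLocalRing S₀]

/-- `J₀ ≤ 𝔪 ^ n` implies `(framed J₀) ≤ 𝔪 ^ n`. -/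
theorem s59t_frameJ_le_pow {J₀ : Ideal S₀} {n : ℕ}
    (h : J₀ ≤ IsLocalRing.maximalIdeal S₀ ^ n) :
    s59t_frameJ σ J₀ ≤ IsLocalRing.maximalIdeal (MvPowerSeries σ S₀) ^ n := by
  intro f hf
  rw [Fermat.Agent.Lib.Deform.mem_maximalIdeal_pow_iff]
  intro d
  exact Ideal.pow_le_pow_right (Nat.sub_le _ _) (h (s59t_mem_frameJ.mp hf d))

end FrameJ

end Fermat.Agent.Lib.S59
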