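/-
Programme (R) = S59, node (E) module half (helper8), file 50: **framing a congruence of levels.**
If two unframed levels `L₀`, `L₀'` over the SAME acting ring `T` are congruent modulo `ϖ`
(`s59p_Cong ϖ ϖ refl`), the framed levels `s59t_frameLevel L₀`, `s59t_frameLevel L₀'` over
`T⟦σ⟧` are congruent modulo `C ϖ`.  Tools: the coefficientwise map `s59t_PSmap` and
`N⟦σ⟧ ⧸ (C ϖ) ≃ (N ⧸ ϖ)⟦σ⟧`.
-/
import Mathlib
import Fermat.Agent.Lib.S59.PGraph
import Fermat.Agent.Lib.S59.TPSMod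
import Fermat.Agent.Lib.S59.TLvlPS

set_option autoImplicit false
set_option linter.unusedSectionVars false
set_option linter.style.haveILetI false

open scoped BigOperators
open MvPowerSeries

noncomputable section

namespace Fermat.Agent.Lib.S59

section PSmap

variable {σ : Type} [DecidableEq σ] {T : Type} [CommRing T] {N : Type} [AddCommGroup N]
  [Module T N] {N' : Type} [AddCommGroup N'] [Module T N'] {N'' : Type} [AddCommGroup N'']
  [Module T N'']

/-- membership in `(ϖ) N`. -/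
theorem s59t_mem_span_smul_top (ϖ : T) (y : N) :
    y ∈ (Ideal.span {ϖ} : Ideal T) • (⊤ : Submodule T N) ↔ ∃ z : N, y = ϖ • z := by
  rw [Submodule.ideal_span_singleton_smul, Submodule.mem_smul_pointwise_iff_exists]
  constructor
  · rintro ⟨z, _, rfl⟩
    exact ⟨z, rfl⟩
  · rintro ⟨z, rfl⟩
    exact ⟨z, Submodule.mem_top, rfl⟩

/-- a series from its coefficients. -/
def s59t_PSmk (g : (σ →₀ ℕ) → N) : s59t_PS σ N := g

theorem s59t_PSmk_coeff (g : (σ →₀ ℕ) → N) (d : σ →₀ ℕ) :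
    s59t_PScoeff d (s59t_PSmk g) = g d := rfl

/-- the coefficientwise map of power series modules. -/
def s59t_PSmap (f : N →ₗ[T] N') : s59t_PS σ N →ₗ[MvPowerSeries σ T] s59t_PS σ N' where
  toFun x := s59t_PSmk fun d => f (s59t_PScoeff d x)
  map_add' x y := by
    refine s59t_PS_ext fun d => ?_
    rw [s59t_PSmk_coeff, map_add, map_add, map_add, s59t_PSmk_coeff, s59t_PSmk_coeff]
  map_smul' a x := by
    refine s59t_PS_ext fun d => ?_
    rw [s59t_PSmk_coeff, RingHom.id_apply, s59t_PS_smul_coeff, s59t_PS_smul_coeff, map_sum]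
    refine Finset.sum_congr rfl fun p _ => ?_
    rw [map_smul, s59t_PSmk_coeff]

theorem s59t_PSmap_coeff (f : N →ₗ[T] N') (x : s59t_PS σ N) (d : σ →₀ ℕ) :
    s59t_PScoeff d (s59t_PSmap f x) = f (s59t_PScoeff d x) := rfl

theorem s59t_PSmap_comp (g : N' →ₗ[T] N'') (f : N →ₗ[T] N') (x : s59t_PS σ N) :
    s59t_PSmap g (s59t_PSmap f x) = s59t_PSmap (g.comp f) x := rfl

theorem s59t_PSmap_id (x : s59t_PS σ N) : s59t_PSmap (LinearMap.id : N →ₗ[T] N) x = x := rfl

theorem s59t_PSmap_surjective {f : N →ₗ[T] N'} (hf : Function.Surjective f) :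
    Function.Surjective (s59t_PSmap (σ := σ) f) := by
  intro y
  choose x hx using fun d => hf (s59t_PScoeff d y)
  refine ⟨s59t_PSmk x, s59t_PS_ext fun d => ?_⟩
  rw [s59t_PSmap_coeff, s59t_PSmk_coeff, hx]

/-- the coefficientwise equivalence. -/
def s59t_PSmapEquiv (e : N ≃ₗ[T] N') : s59t_PS σ N ≃ₗ[MvPowerSeries σ T] s59t_PS σ N' :=
  { s59t_PSmap (e : N →ₗ[T] N') with
    invFun := s59t_PSmap (e.symm : N' →ₗ[T] N)
    left_inv := fun x => s59t_PS_ext fun d => by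
      rw [s59t_PSmap_coeff]
      exact e.symm_apply_apply _
    right_inv := fun y => s59t_PS_ext fun d => by
      show s59t_PScoeff d (s59t_PSmap (e : N →ₗ[T] N') _) = _
      rw [s59t_PSmap_coeff]
      exact e.apply_symm_apply _ }

theorem s59t_PSmapEquiv_coeff (e : N ≃ₗ[T] N') (x : s59t_PS σ N) (d : σ →₀ ℕ) :
    s59t_PScoeff d (s59t_PSmapEquiv e x) = e (s59t_PScoeff d x) := rfl

/-- the kernel of the coefficientwise reduction modulo `ϖ`. -/
theorem s59t_PSmap_ker (f : N →ₗ[T] N') (ϖ : T)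
    (hker : LinearMap.ker f = (Ideal.span {ϖ} : Ideal T) • (⊤ : Submodule T N)) :
    LinearMap.ker (s59t_PSmap (σ := σ) f) =
      (Ideal.span {(C ϖ : MvPowerSeries σ T)} : Ideal (MvPowerSeries σ T)) •
        (⊤ : Submodule (MvPowerSeries σ T) (s59t_PS σ N)) := by
  have hmem : ∀ y : N, f y = 0 ↔ ∃ z : N, y = ϖ • z := by
    intro y
    rw [← LinearMap.mem_ker, hker, s59t_mem_span_smul_top]
  ext x
  rw [LinearMap.mem_ker, s59t_mem_span_smul_top]
  constructor
  · intro hx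
    have h1 : ∀ d, ∃ z : N, s59t_PScoeff d x = ϖ • z := fun d =>
      (hmem _).mp (by rw [← s59t_PSmap_coeff (σ := σ) f x d, hx]; rfl)
    choose z hz using h1
    refine ⟨s59t_PSmk z, s59t_PS_ext fun d => ?_⟩
    rw [s59t_C_smul_coeff, s59t_PSmk_coeff]
    exact hz d
  · rintro ⟨z, rfl⟩
    refine s59t_PS_ext fun d => ?_
    rw [s59t_PSmap_coeff, s59t_C_smul_coeff]
    show _ = (0 : N')
    exact (hmem _).mpr ⟨_, rfl⟩

end PSmap

section FrameCong

variable (σ : Type) [DecidableEq σ] [Fintype σ] {S₀ : Type} [CommRing S₀] {T : Type} [CommRing T]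
  {R : Type} [CommRing R] {M : Type} [AddCommGroup M] [Module R M]
  {R' : Type} [CommRing R'] {M' : Type} [AddCommGroup M'] [Module R' M']
  {𝔞₀ J₀ : Ideal S₀}

/-- `N⟦σ⟧ ⧸ (C ϖ) ≃ (N ⧸ ϖ)⟦σ⟧`. -/
def s59t_PSquotEquiv {N : Type} [AddCommGroup N] [Module T N] (ϖ : T) :
    (s59t_PS σ N ⧸ ((Ideal.span {(C ϖ : MvPowerSeries σ T)} : Ideal (MvPowerSeries σ T)) •
      (⊤ : Submodule (MvPowerSeries σ T) (s59t_PS σ N)))) ≃ₗ[MvPowerSeries σ T]
    s59t_PS σ (N ⧸ ((Ideal.span {ϖ} : Ideal T) • (⊤ : Submodule T N))) :=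
  (Submodule.quotEquivOfEq _ _
    (s59t_PSmap_ker (σ := σ) ((Ideal.span {ϖ} : Ideal T) • (⊤ : Submodule T N)).mkQ ϖ
      (Submodule.ker_mkQ _)).symm).trans
    (LinearMap.quotKerEquivOfSurjective
      (s59t_PSmap (σ := σ) ((Ideal.span {ϖ} : Ideal T) • (⊤ : Submodule T N)).mkQ)
      (s59t_PSmap_surjective (Submodule.mkQ_surjective _)))

/-- **framing a congruence.** -/
theorem s59t_frameCong (ϖ : T) (L₀ : s59p_Level S₀ T R M 𝔞₀ J₀)
    (L₀' : s59p_Level S₀ T R' M' 𝔞₀ J₀)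
    (h : s59p_Cong ϖ ϖ (RingEquiv.refl _) L₀ L₀') :
    s59p_Cong (C ϖ : MvPowerSeries σ T) (C ϖ) (RingEquiv.refl _)
      (s59t_frameLevel (σ := σ) L₀) (s59t_frameLevel (σ := σ) L₀') := by
  obtain ⟨hφ, hd, θ₀, hθ₀⟩ := h
  refine ⟨?_, hd, ?_⟩
  · intro s
    rw [RingEquiv.refl_apply, Ideal.Quotient.eq, Ideal.mem_span_singleton']
    have h1 : ∀ d, ∃ t : T, t * ϖ = L₀.φ (coeff d s) - L₀'.φ (coeff d s) := by
      intro d
      have := hφ (coeff d s)
      rw [RingEquiv.refl_apply, Ideal.Quotient.eq, Ideal.mem_span_singleton'] at this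
      exact this
    choose t ht using h1
    let tt : MvPowerSeries σ T := fun d => t d
    have htt : ∀ d, coeff d tt = t d := fun _ => rfl
    refine ⟨tt, ?_⟩
    ext d
    show coeff d (tt * C ϖ) = coeff d (MvPowerSeries.map L₀.φ s - MvPowerSeries.map L₀'.φ s)
    rw [mul_comm, coeff_C_mul, map_sub, coeff_map, coeff_map, mul_comm, htt]
    exact ht d
  · let θL : (L₀.N ⧸ ((Ideal.span {ϖ} : Ideal T) • (⊤ : Submodule T L₀.N))) ≃ₗ[T]
        (L₀'.N ⧸ ((Ideal.span {ϖ} : Ideal T) • (⊤ : Submodule T L₀'.N))) :=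
      { θ₀ with map_smul' := fun a x => hθ₀ a a rfl x }
    let θ := ((s59t_PSquotEquiv σ (N := L₀.N) ϖ).trans (s59t_PSmapEquiv θL)).trans
      (s59t_PSquotEquiv σ (N := L₀'.N) ϖ).symm
    refine ⟨θ.toAddEquiv, ?_⟩
    intro a a' haa' x
    rw [RingEquiv.refl_apply, Ideal.Quotient.eq] at haa'
    have h1 : ∀ y : s59t_PS σ L₀'.N ⧸
        ((Ideal.span {(C ϖ : MvPowerSeries σ T)} : Ideal (MvPowerSeries σ T)) •
        (⊤ : Submodule (MvPowerSeries σ T) (s59t_PS σ L₀'.N))), a • y = a' • y := by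
      intro y
      obtain ⟨y, rfl⟩ := Submodule.Quotient.mk_surjective _ y
      rw [← Submodule.Quotient.mk_smul, ← Submodule.Quotient.mk_smul, Submodule.Quotient.eq,
        ← sub_smul]
      exact Submodule.smul_mem_smul haa' Submodule.mem_top
    have key : ∀ x : s59t_PS σ L₀.N ⧸
        ((Ideal.span {(C ϖ : MvPowerSeries σ T)} : Ideal (MvPowerSeries σ T)) •
        (⊤ : Submodule (MvPowerSeries σ T) (s59t_PS σ L₀.N))), θ (a • x) = a' • θ x := by
      intro x
      rw [map_smul]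
      exact h1 _
    exact key x

end FrameCong

end Fermat.Agent.Lib.S59
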