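/-
Programme (R) = S59, node (E) module half (helper8), file 52: **the congruence of two unframed
levels** over the same acting ring `T` (`s59t_level0_cong`), from an `𝒪`-linear isomorphism
`θ₀ : N ⧸ ϖ ≃ N' ⧸ ϖ` (e.g. the type change isomorphism `s59t_eigQuotEquiv`) which is compatible,
in relational form, with a set of `𝒪`-algebra generators of `T` (`s59t_rel_of_adjoin`).
-/
import Mathlib
import Fermat.Agent.Lib.S59.PGraph
import Fermat.Agent.Lib.S59.TLvl0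
import Fermat.Agent.Lib.S59.TLvlCong

set_option autoImplicit false
set_option linter.unusedSectionVars false
set_option linter.style.haveILetI false

open scoped BigOperators
open MvPowerSeries

noncomputable section

namespace Fermat.Agent.Lib.S59

section QuotTO

variable {𝒪 : Type} [CommRing 𝒪] {T : Type} [CommRing T] [Algebra 𝒪 T]
  {N : Type} [AddCommGroup N] [Module 𝒪 N] [Module T N] [IsScalarTower 𝒪 T N]
  {N' : Type} [AddCommGroup N'] [Module 𝒪 N'] [Module T N'] [IsScalarTower 𝒪 T N']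

/-- `(ϖ T) N = (ϖ) N` as sets. -/
theorem s59t_smul_top_restrict (ϖ : 𝒪) :
    ((Ideal.span {algebraMap 𝒪 T ϖ} : Ideal T) • (⊤ : Submodule T N)).restrictScalars 𝒪 =
      (Ideal.span {ϖ} : Ideal 𝒪) • (⊤ : Submodule 𝒪 N) := by
  ext x
  rw [Submodule.restrictScalars_mem, s59t_mem_span_smul_top, s59t_mem_span_smul_top]
  constructor
  · rintro ⟨z, rfl⟩
    exact ⟨z, algebraMap_smul T ϖ z⟩
  · rintro ⟨z, rfl⟩
    exact ⟨z, (algebraMap_smul T ϖ z).symm⟩

/-- `N ⧸ (ϖ T) N ≃ N ⧸ (ϖ) N`. -/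
def s59t_quotTO (ϖ : 𝒪) :
    (N ⧸ ((Ideal.span {algebraMap 𝒪 T ϖ} : Ideal T) • (⊤ : Submodule T N))) ≃ₗ[𝒪]
      (N ⧸ ((Ideal.span {ϖ} : Ideal 𝒪) • (⊤ : Submodule 𝒪 N))) :=
  (Submodule.Quotient.restrictScalarsEquiv 𝒪
    ((Ideal.span {algebraMap 𝒪 T ϖ} : Ideal T) • (⊤ : Submodule T N))).symm.trans
    (Submodule.quotEquivOfEq _ _ (s59t_smul_top_restrict (T := T) (N := N) ϖ))

theorem s59t_quotTO_mk (ϖ : 𝒪) (x : N) :
    s59t_quotTO (T := T) ϖ (Submodule.Quotient.mk x) = Submodule.Quotient.mk x := rfl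

theorem s59t_quotTO_symm_mk (ϖ : 𝒪) (x : N) :
    (s59t_quotTO (T := T) ϖ).symm (Submodule.Quotient.mk x) = Submodule.Quotient.mk x := rfl

/-- relational compatibility with a generating set gives compatibility with all of `T`. -/
theorem s59t_rel_of_adjoin (ϖ : 𝒪) (G : Set T) (hG : Algebra.adjoin 𝒪 G = ⊤)
    (θ₀ : (N ⧸ ((Ideal.span {ϖ} : Ideal 𝒪) • (⊤ : Submodule 𝒪 N))) ≃ₗ[𝒪]
      (N' ⧸ ((Ideal.span {ϖ} : Ideal 𝒪) • (⊤ : Submodule 𝒪 N'))))
    (hθ₀ : ∀ g ∈ G, ∀ (x : N) (y : N'), θ₀ (Submodule.Quotient.mk x) = Submodule.Quotient.mk y →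
      θ₀ (Submodule.Quotient.mk (g • x)) = Submodule.Quotient.mk (g • y)) :
    ∀ (t : T) (x : N) (y : N'), θ₀ (Submodule.Quotient.mk x) = Submodule.Quotient.mk y →
      θ₀ (Submodule.Quotient.mk (t • x)) = Submodule.Quotient.mk (t • y) := by
  intro t
  have ht : t ∈ Algebra.adjoin 𝒪 G := by rw [hG]; exact Algebra.mem_top
  induction ht using Algebra.adjoin_induction with
  | mem g hg => exact hθ₀ g hg
  | algebraMap a =>
    intro x y h
    rw [algebraMap_smul, algebraMap_smul, Submodule.Quotient.mk_smul, map_smul, h,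
      Submodule.Quotient.mk_smul]
  | add t t' _ _ ih ih' =>
    intro x y h
    rw [add_smul, add_smul, Submodule.Quotient.mk_add, map_add, ih x y h, ih' x y h,
      Submodule.Quotient.mk_add]
  | mul t t' _ _ ih ih' =>
    intro x y h
    rw [mul_smul, mul_smul]
    exact ih _ _ (ih' x y h)

end QuotTO

section Cong0

variable {𝒪 : Type} [CommRing 𝒪] {B : Type} [CommGroup B] [Fintype B]
  {r : ℕ} (Ψ : MvPowerSeries (Fin r) 𝒪 →ₐ[𝒪] MonoidAlgebra 𝒪 B)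
  (hΨs : Function.Surjective Ψ)
  (hΨa : ∀ s, s59t_aug 𝒪 B (Ψ s) = constantCoeff s)
  {T : Type} [CommRing T] [Algebra 𝒪 T] (dia : B →* T)
  -- the first level
  {N : Type} [AddCommGroup N] [Module 𝒪 N] [Module T N] [IsScalarTower 𝒪 T N]
  (ρ : B →* Module.End 𝒪 N) (hρ : ∀ β x, ρ β x = dia β • x)
  {R : Type} [CommRing R] [Algebra 𝒪 R] (ψ : T →ₐ[𝒪] R) (hψs : Function.Surjective ψ)
  (hψd : ∀ β, ψ (dia β) = 1)
  {M : Type} [AddCommGroup M] [Module R M]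
  (π : N →+ M) (hπ : ∀ t x, π (t • x) = ψ t • π x) (hπs : Function.Surjective π)
  (hπk : ∀ x, π x = 0 → x ∈ Submodule.span 𝒪 {z : N | ∃ β y, z = ρ β y - y})
  {d : ℕ} (b : Fin d → N) (hb : Function.Bijective (s59t_evalMap ρ b))
  -- the second level
  {N' : Type} [AddCommGroup N'] [Module 𝒪 N'] [Module T N'] [IsScalarTower 𝒪 T N']
  (ρ' : B →* Module.End 𝒪 N') (hρ' : ∀ β x, ρ' β x = dia β • x)
  {R' : Type} [CommRing R'] [Algebra 𝒪 R'] (ψ' : T →ₐ[𝒪] R') (hψs' : Function.Surjective ψ')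
  (hψd' : ∀ β, ψ' (dia β) = 1)
  {M' : Type} [AddCommGroup M'] [Module R' M']
  (π' : N' →+ M') (hπ' : ∀ t x, π' (t • x) = ψ' t • π' x) (hπs' : Function.Surjective π')
  (hπk' : ∀ x, π' x = 0 → x ∈ Submodule.span 𝒪 {z : N' | ∃ β y, z = ρ' β y - y})
  {d' : ℕ} (b' : Fin d' → N') (hb' : Function.Bijective (s59t_evalMap ρ' b'))

/-- **the congruence of two unframed levels** over the same acting ring. -/
theorem s59t_level0_cong (ϖ : 𝒪) (hd : d = d')
    (θ₀ : (N ⧸ ((Ideal.span {ϖ} : Ideal 𝒪) • (⊤ : Submodule 𝒪 N))) ≃ₗ[𝒪]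
      (N' ⧸ ((Ideal.span {ϖ} : Ideal 𝒪) • (⊤ : Submodule 𝒪 N'))))
    (hθ₀ : ∀ (t : T) (x : N) (y : N'), θ₀ (Submodule.Quotient.mk x) = Submodule.Quotient.mk y →
      θ₀ (Submodule.Quotient.mk (t • x)) = Submodule.Quotient.mk (t • y)) :
    s59p_Cong (algebraMap 𝒪 T ϖ) (algebraMap 𝒪 T ϖ) (RingEquiv.refl _)
      (s59t_level0 Ψ hΨs hΨa dia ρ hρ ψ hψs hψd π hπ hπs hπk b hb)
      (s59t_level0 Ψ hΨs hΨa dia ρ' hρ' ψ' hψs' hψd' π' hπ' hπs' hπk' b' hb') := by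
  refine ⟨fun s => rfl, hd, ?_⟩
  let θ : (N ⧸ ((Ideal.span {algebraMap 𝒪 T ϖ} : Ideal T) • (⊤ : Submodule T N))) ≃ₗ[𝒪]
      (N' ⧸ ((Ideal.span {algebraMap 𝒪 T ϖ} : Ideal T) • (⊤ : Submodule T N'))) :=
    ((s59t_quotTO (T := T) (N := N) ϖ).trans θ₀).trans (s59t_quotTO (T := T) (N := N') ϖ).symm
  have key : ∀ (a a' : T), a - a' ∈ (Ideal.span {algebraMap 𝒪 T ϖ} : Ideal T) →
      ∀ x : N ⧸ ((Ideal.span {algebraMap 𝒪 T ϖ} : Ideal T) • (⊤ : Submodule T N)),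
      θ (a • x) = a' • θ x := by
    intro a a' haa' x
    obtain ⟨x, rfl⟩ := Submodule.Quotient.mk_surjective _ x
    obtain ⟨y, hy⟩ := Submodule.Quotient.mk_surjective _ (θ₀ (Submodule.Quotient.mk x))
    have h1 : θ (Submodule.Quotient.mk x) = Submodule.Quotient.mk y := by
      show (s59t_quotTO (T := T) (N := N') ϖ).symm (θ₀ (s59t_quotTO (T := T) ϖ
        (Submodule.Quotient.mk x))) = _
      rw [s59t_quotTO_mk, ← hy, s59t_quotTO_symm_mk]
    have h2 : θ (Submodule.Quotient.mk (a • x)) = Submodule.Quotient.mk (a • y) := by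
      show (s59t_quotTO (T := T) (N := N') ϖ).symm (θ₀ (s59t_quotTO (T := T) ϖ
        (Submodule.Quotient.mk (a • x)))) = _
      rw [s59t_quotTO_mk, hθ₀ a x y hy.symm, s59t_quotTO_symm_mk]
    rw [← Submodule.Quotient.mk_smul, h2, h1, ← Submodule.Quotient.mk_smul,
      Submodule.Quotient.eq, ← sub_smul]
    exact Submodule.smul_mem_smul haa' Submodule.mem_top
  refine ⟨θ.toAddEquiv, ?_⟩
  intro a a' haa' x
  rw [RingEquiv.refl_apply, Ideal.Quotient.eq] at haa'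
  exact key a a' haa' x

end Cong0

end Fermat.Agent.Lib.S59
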