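/-
Programme (R) = S59, node (E) module half (helper8), file 53: **the framed levels and their
congruence from the unframed named hypotheses** (composition of `s59t_level0`, `s59t_frameLevel`,
`s59t_level0_cong`, `s59t_frameCong`), with the auxiliary facts needed by the top theorem
`s59i_IA_inst`: the ideal `𝔞` is prime, `J ≤ 𝔪 ^ n`, and `ψ ∘ φ = κ` for the level-independent
`κ = algebraMap ∘ constantCoeff ∘ constantCoeff`.
-/
import Mathlib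
import Fermat.Agent.Lib.S59.PGraph
import Fermat.Agent.Lib.S59.TLvlPS
import Fermat.Agent.Lib.S59.TLvlCong
import Fermat.Agent.Lib.S59.TLvl0
import Fermat.Agent.Lib.S59.TLvl0Cong

set_option autoImplicit false
set_option linter.unusedSectionVars false
set_option linter.style.haveILetI false

open scoped BigOperators
open MvPowerSeries

noncomputable section

namespace Fermat.Agent.Lib.S59

section Top

variable (σ : Type) [DecidableEq σ] [Fintype σ]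
  {𝒪 : Type} [CommRing 𝒪] {B : Type} [CommGroup B] [Fintype B]
  {r : ℕ} (Ψ : MvPowerSeries (Fin r) 𝒪 →ₐ[𝒪] MonoidAlgebra 𝒪 B)
  (hΨs : Function.Surjective Ψ)
  (hΨa : ∀ s, s59t_aug 𝒪 B (Ψ s) = constantCoeff s)
  {T : Type} [CommRing T] [Algebra 𝒪 T] (dia : B →* T)
  -- the first level
  {N : Type} [AddCommGroup N] [Module 𝒪 N] [Module T N] [IsScalarTower 𝒪 T N]
  (ρ : B →* Module.End 𝒪 N) (hρ : ∀ β x, ρ β x = dia β • x)
  {R : Type} [CommRing R] [Algebra 𝒪 R] (ψ : T →ₐ[𝒪] R) (hψs : Function.Surjective ψ)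
  (hψd : ∀ β, ψ (dia β) = 1)
  {M : Type} [AddCommGroup M] [Module R M]
  (π : N →+ M) (hπ : ∀ t x, π (t • x) = ψ t • π x) (hπs : Function.Surjective π)
  (hπk : ∀ x, π x = 0 → x ∈ Submodule.span 𝒪 {z : N | ∃ β y, z = ρ β y - y})
  {d : ℕ} (b : Fin d → N) (hb : Function.Bijective (s59t_evalMap ρ b))
  -- the second level
  {N' : Type} [AddCommGroup N'] [Module 𝒪 N'] [Module T N'] [IsScalarTower 𝒪 T N']
  (ρ' : B →* Module.End 𝒪 N') (hρ' : ∀ β x, ρ' β x = dia β • x)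
  {R' : Type} [CommRing R'] [Algebra 𝒪 R'] (ψ' : T →ₐ[𝒪] R') (hψs' : Function.Surjective ψ')
  (hψd' : ∀ β, ψ' (dia β) = 1)
  {M' : Type} [AddCommGroup M'] [Module R' M']
  (π' : N' →+ M') (hπ' : ∀ t x, π' (t • x) = ψ' t • π' x) (hπs' : Function.Surjective π')
  (hπk' : ∀ x, π' x = 0 → x ∈ Submodule.span 𝒪 {z : N' | ∃ β y, z = ρ' β y - y})
  {d' : ℕ} (b' : Fin d' → N') (hb' : Function.Bijective (s59t_evalMap ρ' b'))

/-- the framed level attached to the unframed data. -/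
def s59t_levelF :
    s59p_Level (MvPowerSeries σ (MvPowerSeries (Fin r) 𝒪)) (MvPowerSeries σ T) R M
      (s59t_frameA σ (RingHom.ker (constantCoeff (σ := Fin r) (R := 𝒪))))
      (s59t_frameJ σ (RingHom.ker Ψ)) :=
  s59t_frameLevel (σ := σ) (s59t_level0 Ψ hΨs hΨa dia ρ hρ ψ hψs hψd π hπ hπs hπk b hb)

theorem s59t_levelF_d :
    (s59t_levelF σ Ψ hΨs hΨa dia ρ hρ ψ hψs hψd π hπ hπs hπk b hb).d = d := rfl

/-- the structure map of the framed level is `MvPowerSeries.map (lam ∘ Ψ)`. -/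
theorem s59t_levelF_φ :
    (s59t_levelF σ Ψ hΨs hΨa dia ρ hρ ψ hψs hψd π hπ hπs hπk b hb).φ =
      MvPowerSeries.map (s59t_phi0 Ψ dia) := rfl

theorem s59t_levelF_ψ (f : MvPowerSeries σ T) :
    (s59t_levelF σ Ψ hΨs hΨa dia ρ hρ ψ hψs hψd π hπ hπs hπk b hb).ψ f =
      ψ (constantCoeff f) := rfl

/-- `ψ ∘ φ = κ`, with `κ` independent of the level. -/
theorem s59t_levelF_kappa (s : MvPowerSeries σ (MvPowerSeries (Fin r) 𝒪)) :
    (s59t_levelF σ Ψ hΨs hΨa dia ρ hρ ψ hψs hψd π hπ hπs hπk b hb).ψ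
      ((s59t_levelF σ Ψ hΨs hΨa dia ρ hρ ψ hψs hψd π hπ hπs hπk b hb).φ s) =
      algebraMap 𝒪 R (constantCoeff (constantCoeff s)) := by
  rw [s59t_levelF_φ, s59t_levelF_ψ, constantCoeff_map, s59t_phi0_apply,
    s59t_psi_lam dia ψ hψd, hΨa]

/-- **the congruence of the framed levels.** -/
theorem s59t_levelF_cong (ϖ : 𝒪) (hd : d = d')
    (θ₀ : (N ⧸ ((Ideal.span {ϖ} : Ideal 𝒪) • (⊤ : Submodule 𝒪 N))) ≃ₗ[𝒪]
      (N' ⧸ ((Ideal.span {ϖ} : Ideal 𝒪) • (⊤ : Submodule 𝒪 N'))))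
    (hθ₀ : ∀ (t : T) (x : N) (y : N'), θ₀ (Submodule.Quotient.mk x) = Submodule.Quotient.mk y →
      θ₀ (Submodule.Quotient.mk (t • x)) = Submodule.Quotient.mk (t • y)) :
    s59p_Cong (C (algebraMap 𝒪 T ϖ) : MvPowerSeries σ T) (C (algebraMap 𝒪 T ϖ))
      (RingEquiv.refl _)
      (s59t_levelF σ Ψ hΨs hΨa dia ρ hρ ψ hψs hψd π hπ hπs hπk b hb)
      (s59t_levelF σ Ψ hΨs hΨa dia ρ' hρ' ψ' hψs' hψd' π' hπ' hπs' hπk' b' hb') :=
  s59t_frameCong σ (algebraMap 𝒪 T ϖ) _ _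
    (s59t_level0_cong Ψ hΨs hΨa dia ρ hρ ψ hψs hψd π hπ hπs hπk b hb
      ρ' hρ' ψ' hψs' hψd' π' hπ' hπs' hπk' b' hb' ϖ hd θ₀ hθ₀)

/-- the structure map of the framed levels as an `𝒪`-algebra map (`std` of `s59i_IA_mid`). -/
def s59t_std : MvPowerSeries σ (MvPowerSeries (Fin r) 𝒪) →ₐ[𝒪] MvPowerSeries σ T :=
  MvPowerSeries.mapAlgHom ((s59t_lam (𝒪 := 𝒪) dia).comp Ψ)

theorem s59t_levelF_std (x : MvPowerSeries σ (MvPowerSeries (Fin r) 𝒪)) :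
    (s59t_levelF σ Ψ hΨs hΨa dia ρ hρ ψ hψs hψd π hπ hπs hπk b hb).φ x =
      s59t_std σ Ψ dia x := rfl

theorem s59t_std_C (a : MvPowerSeries (Fin r) 𝒪) :
    s59t_std σ Ψ dia (C a) = C (s59t_lam dia (Ψ a)) := by
  rw [s59t_std, MvPowerSeries.mapAlgHom_apply, map_C]
  rfl

theorem s59t_std_X (j : σ) : s59t_std σ Ψ dia (X j) = X j := by
  rw [s59t_std, MvPowerSeries.mapAlgHom_apply, map_X]

/-- the congruence with `ϖ` in the form `algebraMap 𝒪 𝕌 ϖ`. -/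
theorem s59t_levelF_cong' (ϖ : 𝒪) (hd : d = d')
    (θ₀ : (N ⧸ ((Ideal.span {ϖ} : Ideal 𝒪) • (⊤ : Submodule 𝒪 N))) ≃ₗ[𝒪]
      (N' ⧸ ((Ideal.span {ϖ} : Ideal 𝒪) • (⊤ : Submodule 𝒪 N'))))
    (hθ₀ : ∀ (t : T) (x : N) (y : N'), θ₀ (Submodule.Quotient.mk x) = Submodule.Quotient.mk y →
      θ₀ (Submodule.Quotient.mk (t • x)) = Submodule.Quotient.mk (t • y)) :
    s59p_Cong (algebraMap 𝒪 (MvPowerSeries σ T) ϖ) (algebraMap 𝒪 (MvPowerSeries σ T) ϖ)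
      (RingEquiv.refl _)
      (s59t_levelF σ Ψ hΨs hΨa dia ρ hρ ψ hψs hψd π hπ hπs hπk b hb)
      (s59t_levelF σ Ψ hΨs hΨa dia ρ' hρ' ψ' hψs' hψd' π' hπ' hπs' hπk' b' hb') := by
  have h := s59t_levelF_cong σ Ψ hΨs hΨa dia ρ hρ ψ hψs hψd π hπ hπs hπk b hb
    ρ' hρ' ψ' hψs' hψd' π' hπ' hπs' hπk' b' hb' ϖ hd θ₀ hθ₀
  have e : (algebraMap 𝒪 (MvPowerSeries σ T) ϖ) = C (algebraMap 𝒪 T ϖ) :=
    MvPowerSeries.algebraMap_apply
  rw [e]
  exact h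

end Top

section Aux

variable (σ : Type) [DecidableEq σ] [Fintype σ] {𝒪 : Type} [CommRing 𝒪] [IsDomain 𝒪] {r : ℕ}

/-- the augmentation ideal `𝔞` of `𝒪⟦s⟧⟦σ⟧` is prime. -/
instance s59t_frameA_ker_isPrime :
    (s59t_frameA σ (RingHom.ker (constantCoeff (σ := Fin r) (R := 𝒪)))).IsPrime :=
  haveI : (RingHom.ker (constantCoeff (σ := Fin r) (R := 𝒪))).IsPrime := RingHom.ker_isPrime _
  s59t_frameA_isPrime _

/-- `𝔞` is the kernel of the total constant coefficient. -/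
theorem s59t_mem_frameA_ker (s : MvPowerSeries σ (MvPowerSeries (Fin r) 𝒪)) :
    s ∈ s59t_frameA σ (RingHom.ker (constantCoeff (σ := Fin r) (R := 𝒪))) ↔
      constantCoeff (constantCoeff s) = 0 := by
  rw [s59t_mem_frameA, RingHom.mem_ker]

end Aux

end Fermat.Agent.Lib.S59
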