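/-
Programme (R) = S59, node (E) module half (helper8), file 55: **from the control theorem to the
framed levels.**  Input: the output of `s59t_control_H` / `s59t_control_tau` (modules `Y = M_∅`,
`Y' = M_Q` with the diamond representations `ρ`, `ρ'`, the control map `π : Y' → Y`, freeness of
`Y'` over `𝒪[Δ']`), a Hecke ring `T` acting on `Y'` and `R` acting on `Y`, both commuting with the
diamond operators, `ψ : T ↠ R` with `π` `ψ`-semilinear, the diamond operators `dia : B →* T`, and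
the presentation `Ψ : 𝒪⟦s⟧ ↠ 𝒪[B]`.  Output: the framed level `s59t_levelEig` of type `(τ, ψ')`
(`N = (ψ'-part of Y')⟦σ⟧`, `M = τ-part of Y`) and the congruence between the types `1` and `χ`.
-/
import Mathlib
import Fermat.Agent.Lib.S59.PGraph
import Fermat.Agent.Lib.S59.TEigT
import Fermat.Agent.Lib.S59.TCtrlTau
import Fermat.Agent.Lib.S59.TLvlTop

set_option autoImplicit false
set_option linter.unusedSectionVars false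
set_option linter.style.haveILetI false

open scoped BigOperators
open MvPowerSeries

noncomputable section

namespace Fermat.Agent.Lib.S59

section LevelEig

variable (σ : Type) [DecidableEq σ] [Fintype σ]
  {𝒪 : Type} [CommRing 𝒪]
  {Δ : Type} [CommGroup Δ] [Fintype Δ] {Δ' : Type} [CommGroup Δ'] [Fintype Δ']
  {Y : Type} [AddCommGroup Y] [Module 𝒪 Y] {Y' : Type} [AddCommGroup Y'] [Module 𝒪 Y']
  (ρ : Δ →* Module.End 𝒪 Y) (ρ' : Δ' →* Module.End 𝒪 Y')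
  (B C : Subgroup Δ') [Fintype B] [Fintype C]
  (hCB : Function.Bijective (fun x : C × B => ((x.1 : Δ') * (x.2 : Δ'))))
  {d : ℕ} (b' : Fin d → Y') (hb' : Function.Bijective (s59t_evalMap ρ' b'))
  (π : Y' →ₗ[𝒪] Y)
  (τ : Δ →* 𝒪ˣ) (ψ' : Δ' →* 𝒪ˣ)
  (h2 : ∀ y ∈ s59t_eig ρ' C ψ', π y ∈ s59t_eig ρ ⊤ τ)
  (h3 : ∀ x ∈ s59t_eig ρ ⊤ τ, ∃ y ∈ s59t_eig ρ' C ψ', π y = x)
  (h4 : ∀ y ∈ s59t_eig ρ' C ψ', π y = 0 → y ∈ Submodule.span 𝒪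
    {z : Y' | ∃ β ∈ B, ∃ y' ∈ s59t_eig ρ' C ψ', z = ρ' β y' - y'})
  {T : Type} [CommRing T] [Algebra 𝒪 T] [Module T Y'] [IsScalarTower 𝒪 T Y']
  (hTρ : ∀ (t : T) (δ : Δ') (y : Y'), t • ρ' δ y = ρ' δ (t • y))
  (dia : B →* T) (hdia : ∀ (β : B) (y : Y'), ρ' (β : Δ') y = dia β • y)
  {R : Type} [CommRing R] [Algebra 𝒪 R] [Module R Y] [IsScalarTower 𝒪 R Y]
  (hRρ : ∀ (t : R) (δ : Δ) (y : Y), t • ρ δ y = ρ δ (t • y))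
  (ψ : T →ₐ[𝒪] R) (hψs : Function.Surjective ψ) (hψd : ∀ β, ψ (dia β) = 1)
  (hπψ : ∀ (t : T) (y : Y'), π (t • y) = ψ t • π y)
  {r : ℕ} (Ψ : MvPowerSeries (Fin r) 𝒪 →ₐ[𝒪] MonoidAlgebra 𝒪 B)
  (hΨs : Function.Surjective Ψ) (hΨa : ∀ s, s59t_aug 𝒪 B (Ψ s) = constantCoeff s)

/-- the representation of `B` on the `ψ'`-part of `Y'`. -/
def s59t_rhoN : B →* Module.End 𝒪 (s59t_EigT ρ' C ψ' hTρ) :=
  (s59t_eigRep ρ' C ψ').comp B.subtype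

theorem s59t_rhoN_val (β : B) (x : s59t_EigT ρ' C ψ' hTρ) :
    s59t_EigT_val ρ' C ψ' hTρ (s59t_rhoN ρ' B C ψ' hTρ β x) =
      ρ' (β : Δ') (s59t_EigT_val ρ' C ψ' hTρ x) := rfl

include hdia in
theorem s59t_rhoN_dia (β : B) (x : s59t_EigT ρ' C ψ' hTρ) :
    s59t_rhoN ρ' B C ψ' hTρ β x = dia β • x := by
  apply s59t_EigT_val_injective
  rw [s59t_rhoN_val, s59t_EigT_val_smul, hdia]

/-- the control map on the eigen-parts. -/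
def s59t_piN : s59t_EigT ρ' C ψ' hTρ →+ s59t_EigT ρ ⊤ τ hRρ where
  toFun x := s59t_EigT_mk ρ ⊤ τ hRρ (π (s59t_EigT_val ρ' C ψ' hTρ x))
    (h2 _ (s59t_EigT_val_mem ρ' C ψ' hTρ x))
  map_zero' := by
    apply s59t_EigT_val_injective
    rw [s59t_EigT_val_mk, map_zero, map_zero, map_zero]
  map_add' x y := by
    apply s59t_EigT_val_injective
    rw [s59t_EigT_val_mk, map_add, map_add, map_add, s59t_EigT_val_mk, s59t_EigT_val_mk]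

theorem s59t_piN_val (x : s59t_EigT ρ' C ψ' hTρ) :
    s59t_EigT_val ρ ⊤ τ hRρ (s59t_piN ρ ρ' C π τ ψ' h2 hTρ hRρ x) =
      π (s59t_EigT_val ρ' C ψ' hTρ x) := rfl

include hπψ in
theorem s59t_piN_smul (t : T) (x : s59t_EigT ρ' C ψ' hTρ) :
    s59t_piN ρ ρ' C π τ ψ' h2 hTρ hRρ (t • x) =
      ψ t • s59t_piN ρ ρ' C π τ ψ' h2 hTρ hRρ x := by
  apply s59t_EigT_val_injective
  rw [s59t_piN_val, s59t_EigT_val_smul, s59t_EigT_val_smul, s59t_piN_val, hπψ]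

include h3 in
theorem s59t_piN_surjective :
    Function.Surjective (s59t_piN ρ ρ' C π τ ψ' h2 hTρ hRρ) := by
  intro x
  obtain ⟨y, hy, hyx⟩ := h3 _ (s59t_EigT_val_mem ρ ⊤ τ hRρ x)
  refine ⟨s59t_EigT_mk ρ' C ψ' hTρ y hy, ?_⟩
  apply s59t_EigT_val_injective
  rw [s59t_piN_val, s59t_EigT_val_mk, hyx]

include h4 in
theorem s59t_piN_ker (x : s59t_EigT ρ' C ψ' hTρ)
    (hx : s59t_piN ρ ρ' C π τ ψ' h2 hTρ hRρ x = 0) :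
    x ∈ Submodule.span 𝒪 {z : s59t_EigT ρ' C ψ' hTρ |
      ∃ (β : B) (y : s59t_EigT ρ' C ψ' hTρ), z = s59t_rhoN ρ' B C ψ' hTρ β y - y} := by
  have h0 : π (s59t_EigT_val ρ' C ψ' hTρ x) = 0 := by
    rw [← s59t_piN_val ρ ρ' C π τ ψ' h2 hTρ hRρ, hx, map_zero]
  have h1 := h4 _ (s59t_EigT_val_mem ρ' C ψ' hTρ x) h0
  have hS : {z : Y' | ∃ β ∈ B, ∃ y' ∈ s59t_eig ρ' C ψ', z = ρ' β y' - y'} =
      (s59t_EigT_val ρ' C ψ' hTρ) '' {z : s59t_EigT ρ' C ψ' hTρ |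
        ∃ (β : B) (y : s59t_EigT ρ' C ψ' hTρ), z = s59t_rhoN ρ' B C ψ' hTρ β y - y} := by
    ext z
    constructor
    · rintro ⟨β, hβ, y', hy', rfl⟩
      refine ⟨s59t_rhoN ρ' B C ψ' hTρ ⟨β, hβ⟩ (s59t_EigT_mk ρ' C ψ' hTρ y' hy') -
        s59t_EigT_mk ρ' C ψ' hTρ y' hy', ⟨⟨β, hβ⟩, _, rfl⟩, ?_⟩
      rw [map_sub, s59t_rhoN_val, s59t_EigT_val_mk]
    · rintro ⟨_, ⟨β, y, rfl⟩, rfl⟩
      refine ⟨(β : Δ'), β.2, s59t_EigT_val ρ' C ψ' hTρ y, s59t_EigT_val_mem ρ' C ψ' hTρ y, ?_⟩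
      rw [map_sub, s59t_rhoN_val]
  rw [hS, ← Submodule.map_span] at h1
  obtain ⟨x', hx', hxx'⟩ := h1
  rw [← s59t_EigT_val_injective ρ' C ψ' hTρ hxx']
  exact hx'

/-- **the framed level of type `(τ, ψ')`.** -/
def s59t_levelEig :
    s59p_Level (MvPowerSeries σ (MvPowerSeries (Fin r) 𝒪)) (MvPowerSeries σ T) R
      (s59t_EigT ρ ⊤ τ hRρ)
      (s59t_frameA σ (RingHom.ker (constantCoeff (σ := Fin r) (R := 𝒪))))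
      (s59t_frameJ σ (RingHom.ker Ψ)) :=
  s59t_levelF σ Ψ hΨs hΨa dia (s59t_rhoN ρ' B C ψ' hTρ) (s59t_rhoN_dia ρ' B C ψ' hTρ dia hdia)
    ψ hψs hψd (s59t_piN ρ ρ' C π τ ψ' h2 hTρ hRρ)
    (s59t_piN_smul ρ ρ' C π τ ψ' h2 hTρ hRρ ψ hπψ)
    (s59t_piN_surjective ρ ρ' C π τ ψ' h2 h3 hTρ hRρ)
    (s59t_piN_ker ρ ρ' B C π τ ψ' h2 h4 hTρ hRρ)
    (fun i => s59t_EigT_mk ρ' C ψ' hTρ (s59t_normPsi ρ' C ψ' (b' i))
      (s59t_normPsi_mem ρ' C ψ' (b' i)))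
    (s59t_eigRep_free ρ' C ψ' B hCB b' hb')

end LevelEig

section CongEig

variable (σ : Type) [DecidableEq σ] [Fintype σ]
  {𝒪 : Type} [CommRing 𝒪]
  {Δ : Type} [CommGroup Δ] [Fintype Δ] {Δ' : Type} [CommGroup Δ'] [Fintype Δ']
  {Y : Type} [AddCommGroup Y] [Module 𝒪 Y] {Y' : Type} [AddCommGroup Y'] [Module 𝒪 Y']
  (ρ : Δ →* Module.End 𝒪 Y) (ρ' : Δ' →* Module.End 𝒪 Y')
  (B C : Subgroup Δ') [Fintype B] [Fintype C]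
  (hCB : Function.Bijective (fun x : C × B => ((x.1 : Δ') * (x.2 : Δ'))))
  {d : ℕ} (b' : Fin d → Y') (hb' : Function.Bijective (s59t_evalMap ρ' b'))
  (π : Y' →ₗ[𝒪] Y)
  {T : Type} [CommRing T] [Algebra 𝒪 T] [Module T Y'] [IsScalarTower 𝒪 T Y']
  (hTρ : ∀ (t : T) (δ : Δ') (y : Y'), t • ρ' δ y = ρ' δ (t • y))
  (dia : B →* T) (hdia : ∀ (β : B) (y : Y'), ρ' (β : Δ') y = dia β • y)
  {r : ℕ} (Ψ : MvPowerSeries (Fin r) 𝒪 →ₐ[𝒪] MonoidAlgebra 𝒪 B)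
  (hΨs : Function.Surjective Ψ) (hΨa : ∀ s, s59t_aug 𝒪 B (Ψ s) = constantCoeff s)
  -- type 1
  (h2 : ∀ y ∈ s59t_eig ρ' C (1 : Δ' →* 𝒪ˣ), π y ∈ s59t_eig ρ ⊤ (1 : Δ →* 𝒪ˣ))
  (h3 : ∀ x ∈ s59t_eig ρ ⊤ (1 : Δ →* 𝒪ˣ), ∃ y ∈ s59t_eig ρ' C (1 : Δ' →* 𝒪ˣ), π y = x)
  (h4 : ∀ y ∈ s59t_eig ρ' C (1 : Δ' →* 𝒪ˣ), π y = 0 → y ∈ Submodule.span 𝒪
    {z : Y' | ∃ β ∈ B, ∃ y' ∈ s59t_eig ρ' C (1 : Δ' →* 𝒪ˣ), z = ρ' β y' - y'})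
  {R : Type} [CommRing R] [Algebra 𝒪 R] [Module R Y] [IsScalarTower 𝒪 R Y]
  (hRρ : ∀ (t : R) (δ : Δ) (y : Y), t • ρ δ y = ρ δ (t • y))
  (ψ : T →ₐ[𝒪] R) (hψs : Function.Surjective ψ) (hψd : ∀ β, ψ (dia β) = 1)
  (hπψ : ∀ (t : T) (y : Y'), π (t • y) = ψ t • π y)
  -- type χ
  (χ : Δ →* 𝒪ˣ) (χ' : Δ' →* 𝒪ˣ)
  (k2 : ∀ y ∈ s59t_eig ρ' C χ', π y ∈ s59t_eig ρ ⊤ χ)
  (k3 : ∀ x ∈ s59t_eig ρ ⊤ χ, ∃ y ∈ s59t_eig ρ' C χ', π y = x)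
  (k4 : ∀ y ∈ s59t_eig ρ' C χ', π y = 0 → y ∈ Submodule.span 𝒪
    {z : Y' | ∃ β ∈ B, ∃ y' ∈ s59t_eig ρ' C χ', z = ρ' β y' - y'})
  {R' : Type} [CommRing R'] [Algebra 𝒪 R'] [Module R' Y] [IsScalarTower 𝒪 R' Y]
  (hRρ' : ∀ (t : R') (δ : Δ) (y : Y), t • ρ δ y = ρ δ (t • y))
  (ψ₂ : T →ₐ[𝒪] R') (hψs₂ : Function.Surjective ψ₂) (hψd₂ : ∀ β, ψ₂ (dia β) = 1)
  (hπψ₂ : ∀ (t : T) (y : Y'), π (t • y) = ψ₂ t • π y)

/-- the action of `t : T` as an `𝒪`-linear endomorphism. -/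
def s59t_smulEnd (t : T) : Module.End 𝒪 Y' where
  toFun y := t • y
  map_add' := smul_add t
  map_smul' a y := smul_comm t a y

include hTρ in
/-- **the congruence modulo `ϖ` between the framed levels of types `1` and `χ`.** -/
theorem s59t_levelEig_cong (ϖ : 𝒪)
    (hχ' : ∀ γ ∈ C, ((χ' γ : 𝒪ˣ) : 𝒪) - 1 ∈ (Ideal.span {ϖ} : Ideal 𝒪)) :
    s59p_Cong (algebraMap 𝒪 (MvPowerSeries σ T) ϖ) (algebraMap 𝒪 (MvPowerSeries σ T) ϖ)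
      (RingEquiv.refl _)
      (s59t_levelEig σ ρ ρ' B C hCB b' hb' π (1 : Δ →* 𝒪ˣ) (1 : Δ' →* 𝒪ˣ) h2 h3 h4 hTρ dia hdia
        hRρ ψ hψs hψd hπψ Ψ hΨs hΨa)
      (s59t_levelEig σ ρ ρ' B C hCB b' hb' π χ χ' k2 k3 k4 hTρ dia hdia
        hRρ' ψ₂ hψs₂ hψd₂ hπψ₂ Ψ hΨs hΨa) := by
  let e := s59t_eigQuotEquiv ρ' C B χ' hCB b' hb' (Ideal.span {ϖ} : Ideal 𝒪)
  let θ₀ : (s59t_EigT ρ' C (1 : Δ' →* 𝒪ˣ) hTρ ⧸ ((Ideal.span {ϖ} : Ideal 𝒪) •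
      (⊤ : Submodule 𝒪 (s59t_EigT ρ' C (1 : Δ' →* 𝒪ˣ) hTρ)))) ≃ₗ[𝒪]
      (s59t_EigT ρ' C χ' hTρ ⧸ ((Ideal.span {ϖ} : Ideal 𝒪) •
      (⊤ : Submodule 𝒪 (s59t_EigT ρ' C χ' hTρ)))) := e.symm
  refine s59t_levelF_cong' σ Ψ hΨs hΨa dia _ _ ψ hψs hψd _ _ _ _ _ _ _ _ ψ₂ hψs₂ hψd₂ _ _ _ _ _ _
    ϖ rfl θ₀ ?_
  intro t x y hxy
  have hT : ∀ γ ∈ C, ∀ z, s59t_smulEnd (𝒪 := 𝒪) (Y' := Y') t (ρ' γ z) =
      ρ' γ (s59t_smulEnd (𝒪 := 𝒪) (Y' := Y') t z) := fun γ _ z => hTρ t γ z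
  let x₀ : s59t_eig ρ' C (1 : Δ' →* 𝒪ˣ) := x
  let y₀ : s59t_eig ρ' C χ' := y
  have hxy' : e.symm (Submodule.Quotient.mk x₀) = Submodule.Quotient.mk y₀ := hxy
  have h1 : e (Submodule.Quotient.mk y₀) = Submodule.Quotient.mk x₀ := by
    rw [← hxy']
    exact e.apply_symm_apply _
  have h5 := s59t_eigQuotEquiv_map ρ' C B χ' hCB b' hb' (Ideal.span {ϖ} : Ideal 𝒪) hχ'
    (s59t_smulEnd (𝒪 := 𝒪) (Y' := Y') t) hT y₀ x₀ h1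
  have h6 : e.symm (Submodule.Quotient.mk
      (s59t_eigEnd ρ' C (1 : Δ' →* 𝒪ˣ) (s59t_smulEnd (𝒪 := 𝒪) (Y' := Y') t) hT x₀)) =
      Submodule.Quotient.mk (s59t_eigEnd ρ' C χ' (s59t_smulEnd (𝒪 := 𝒪) (Y' := Y') t) hT y₀) := by
    rw [LinearEquiv.symm_apply_eq]
    exact h5.symm
  exact h6

end CongEig

section Ann

variable {σ : Type} [DecidableEq σ] [Fintype σ] {T : Type} [CommRing T]
  {N : Type} [AddCommGroup N] [Module T N]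

/-- a power series all of whose coefficients annihilate `N` annihilates `N⟦σ⟧`. -/
theorem s59t_PS_mem_annihilator (x : MvPowerSeries σ T)
    (hx : ∀ d, MvPowerSeries.coeff d x ∈ Module.annihilator T N) :
    x ∈ Module.annihilator (MvPowerSeries σ T) (s59t_PS σ N) := by
  rw [Module.mem_annihilator]
  intro m
  refine s59t_PS_ext fun d => ?_
  rw [s59t_PS_smul_coeff, map_zero]
  refine Finset.sum_eq_zero fun p _ => ?_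
  exact Module.mem_annihilator.mp (hx p.1) _

end Ann

section ControlOne

variable {𝒪 : Type*} [CommRing 𝒪]
  {Δ : Type*} [CommGroup Δ] [Fintype Δ] {Δ' : Type*} [CommGroup Δ'] [Fintype Δ']
  {M : Type*} [AddCommGroup M] [Module 𝒪 M] {M' : Type*} [AddCommGroup M'] [Module 𝒪 M']

/-- `s59t_control_tau` for the trivial type, with `1` instead of `1 ∘ φ`. -/
theorem s59t_control_one (ρ : Δ →* Module.End 𝒪 M)
    (ρ' : Δ' →* Module.End 𝒪 M') (φ : Δ' →* Δ) (B C : Subgroup Δ') [Fintype B] [Fintype C]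
    (hBC : Function.Bijective (fun x : B × C => ((x.1 : Δ') * (x.2 : Δ'))))
    (hφC : Function.Bijective (fun γ : C => φ (γ : Δ')))
    (r : M →ₗ[𝒪] M') (hr : ∀ δ' x, r (ρ (φ δ') x) = ρ' δ' (r x)) (hrinj : Function.Injective r)
    {d : ℕ} (b : Fin d → M) (hb : Function.Bijective (s59t_evalMap ρ b))
    (b' : Fin d → M') (hb' : Function.Bijective (s59t_evalMap ρ' b'))
    (π : M' →ₗ[𝒪] M) (hrπ : ∀ y, r (π y) = s59t_normPsi ρ' B 1 y)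
    (hπs : Function.Surjective π)
    (hπk : LinearMap.ker π = Submodule.span 𝒪 {z : M' | ∃ β ∈ B, ∃ y : M', z = ρ' β y - y}) :
    (∀ y ∈ s59t_eig ρ' C (1 : Δ' →* 𝒪ˣ), π y ∈ s59t_eig ρ ⊤ (1 : Δ →* 𝒪ˣ)) ∧
    (∀ x ∈ s59t_eig ρ ⊤ (1 : Δ →* 𝒪ˣ), ∃ y ∈ s59t_eig ρ' C (1 : Δ' →* 𝒪ˣ), π y = x) ∧
    (∀ y ∈ s59t_eig ρ' C (1 : Δ' →* 𝒪ˣ), π y = 0 →
      y ∈ Submodule.span 𝒪
        {z : M' | ∃ β ∈ B, ∃ y' ∈ s59t_eig ρ' C (1 : Δ' →* 𝒪ˣ), z = ρ' β y' - y'}) := by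
  have h := s59t_control_tau ρ ρ' φ B C hBC hφC r hr hrinj b hb b' hb' π hrπ hπs hπk
    (1 : Δ →* 𝒪ˣ)
  rw [MonoidHom.one_comp] at h
  exact h.2

end ControlOne

end Fermat.Agent.Lib.S59
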