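/-
Programme (R) = S59, node (E) module half (helper8), file 63: **the framed levels in the binder
shapes of the final assembly (`s59i_FINA1`).**

* `s59t_hh p n g i = g i ^ ((p ^ n + 1) / 2)`: the square root of the generator `g i` of the
  `p`-group `B` (`p` odd), `s59t_hh_sq`;
* `s59t_exists_PsiH`: the presentation `Ψ : 𝒪⟦x₁..x_r⟧ ↠ 𝒪[B]`, `x_i ↦ [h_i] - [h_i⁻¹]`, with
  `ker Ψ ≤ 𝔪 ^ (n + 1)` and `aug ∘ Ψ = constantCoeff`;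
* `s59t_uu dia h : Tˣ` (the unit `dia h`), `s59t_std_CX` (`std (C (X i)) = C (uu - uu⁻¹)`);
* the projections of `s59t_levelEig`: `s59t_levelEig_d`, `_std`, `_psi`, `_kappa`, `_ann`,
  `s59t_frameJ_ker_le_pow`, `s59t_mem_ann_EigT_iff`, `s59t_ann_EigT_ne_top`.
-/
import Mathlib
import Fermat.Agent.Lib.S59.TLvlAbs
import Fermat.Agent.Lib.S59.TGrpPS2

set_option autoImplicit false
set_option linter.unusedSectionVars false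
set_option linter.style.haveILetI false

open scoped BigOperators
open MvPowerSeries IsLocalRing

noncomputable section

namespace Fermat.Agent.Lib.S59

section PsiH

variable {p : ℕ} [hp : Fact p.Prime] {𝒪 : Type} [CommRing 𝒪] [IsLocalRing 𝒪] [IsNoetherianRing 𝒪]
  [IsAdicComplete (maximalIdeal 𝒪) 𝒪] [Finite (ResidueField 𝒪)]
  {B : Type} [CommGroup B] [Fintype B] {n r : ℕ} (g : Fin r → B)

/-- the square root `g i ^ ((p ^ n + 1) / 2)` of `g i`. -/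
def s59t_hh (p n : ℕ) (g : Fin r → B) (i : Fin r) : B := g i ^ ((p ^ n + 1) / 2)

include hp in
theorem s59t_hh_sq (hp2 : p ≠ 2) (hord : ∀ i, g i ^ (p ^ n) = 1) (i : Fin r) :
    s59t_hh p n g i ^ 2 = g i := by
  have hodd : Odd (p ^ n) := (hp.out.odd_of_ne_two hp2).pow
  obtain ⟨k, hk⟩ := hodd
  have h1 : (p ^ n + 1) / 2 * 2 = p ^ n + 1 := by omega
  rw [s59t_hh, ← pow_mul, h1, pow_succ, hord, one_mul]

/-- `[g] - 1 = [h] ([h] - [h⁻¹])` for `h² = g`. -/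
theorem s59t_of_sub_one_eq (h g : B) (hg : h ^ 2 = g) :
    MonoidAlgebra.of 𝒪 B g - 1 = MonoidAlgebra.of 𝒪 B h *
      (MonoidAlgebra.of 𝒪 B h - MonoidAlgebra.of 𝒪 B h⁻¹) := by
  rw [mul_sub, ← map_mul, ← map_mul, mul_inv_cancel, map_one, ← pow_two, hg]

set_option maxHeartbeats 800000 in
/-- **the presentation `x_i ↦ [h_i] - [h_i⁻¹]`.** -/
theorem s59t_exists_PsiH (hp2 : p ≠ 2) (hpm : (p : 𝒪) ∈ maximalIdeal 𝒪)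
    (hcard : Nat.card B = (p ^ n) ^ r)
    (hgen : ∀ β : B, ∃ a : Fin r → ℕ, β = ∏ i, g i ^ a i) (hord : ∀ i, g i ^ (p ^ n) = 1) :
    ∃ Ψ : MvPowerSeries (Fin r) 𝒪 →ₐ[𝒪] MonoidAlgebra 𝒪 B,
      (∀ i, Ψ (X i) = MonoidAlgebra.of 𝒪 B (s59t_hh p n g i) -
        MonoidAlgebra.of 𝒪 B (s59t_hh p n g i)⁻¹) ∧
      Function.Surjective Ψ ∧
      RingHom.ker Ψ ≤ maximalIdeal (MvPowerSeries (Fin r) 𝒪) ^ (n + 1) ∧
      ∀ s, s59t_aug 𝒪 B (Ψ s) = constantCoeff s := by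
  classical
  have hB : ∀ β : B, ∃ k : ℕ, β ^ (p ^ k) = 1 := by
    intro β
    obtain ⟨a, rfl⟩ := hgen β
    refine ⟨n, ?_⟩
    rw [← Finset.prod_pow]
    refine Finset.prod_eq_one fun i _ => ?_
    rw [← pow_mul, mul_comm, pow_mul, hord i, one_pow]
  haveI : IsLocalRing (MonoidAlgebra 𝒪 B) := s59t_grpAlg_isLocalRing hpm hB
  haveI : IsLocalHom (algebraMap 𝒪 (MonoidAlgebra 𝒪 B)) := s59t_grpAlg_isLocalHom
  haveI : IsAdicComplete (maximalIdeal (MonoidAlgebra 𝒪 B)) (MonoidAlgebra 𝒪 B) :=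
    s59t_grpAlg_isAdicComplete
  have hmem : ∀ i, MonoidAlgebra.of 𝒪 B (s59t_hh p n g i) -
      MonoidAlgebra.of 𝒪 B (s59t_hh p n g i)⁻¹ ∈ maximalIdeal (MonoidAlgebra 𝒪 B) := by
    intro i
    have e : MonoidAlgebra.of 𝒪 B (s59t_hh p n g i) - MonoidAlgebra.of 𝒪 B (s59t_hh p n g i)⁻¹ =
        (MonoidAlgebra.of 𝒪 B (s59t_hh p n g i) - 1) -
          (MonoidAlgebra.of 𝒪 B (s59t_hh p n g i)⁻¹ - 1) := by ring
    rw [e]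
    exact Ideal.sub_mem _ (s59t_of_sub_one_mem _) (s59t_of_sub_one_mem _)
  let Ψ : MvPowerSeries (Fin r) 𝒪 →ₐ[𝒪] MonoidAlgebra 𝒪 B :=
    Fermat.Agent.Lib.Deform.evalHom (maximalIdeal (MonoidAlgebra 𝒪 B))
      (fun i => MonoidAlgebra.of 𝒪 B (s59t_hh p n g i) -
        MonoidAlgebra.of 𝒪 B (s59t_hh p n g i)⁻¹) hmem
  have hΨX : ∀ i, Ψ (X i) = MonoidAlgebra.of 𝒪 B (s59t_hh p n g i) -
      MonoidAlgebra.of 𝒪 B (s59t_hh p n g i)⁻¹ :=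
    fun i => Fermat.Agent.Lib.Deform.evalHom_X _ _ _ i
  have key := s59t_grpPS_gen (p := p) (𝒪 := 𝒪) g hpm hcard hgen hord Ψ (fun i => by
    rw [s59t_of_sub_one_eq (s59t_hh p n g i) (g i) (s59t_hh_sq g hp2 hord i), ← hΨX]
    exact Ideal.mem_sup_left (Ideal.mul_mem_left _ _ (Ideal.subset_span ⟨i, rfl⟩)))
  refine ⟨Ψ, hΨX, key.1, key.2, s59t_aug_comp_eq Ψ (fun j => ?_)⟩
  rw [hΨX, map_sub, s59t_aug_of, s59t_aug_of, sub_self]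

end PsiH

section Units

variable {𝒪 : Type} [CommRing 𝒪] {B : Type} [CommGroup B] [Fintype B]
  {T : Type} [CommRing T] [Algebra 𝒪 T] (dia : B →* T)

/-- the unit `dia h`. -/
def s59t_uu (h : B) : Tˣ := Units.map dia (toUnits h)

theorem s59t_uu_val (h : B) : ((s59t_uu dia h : Tˣ) : T) = dia h := rfl

theorem s59t_uu_inv_val (h : B) : (((s59t_uu dia h)⁻¹ : Tˣ) : T) = dia h⁻¹ := by
  rw [s59t_uu, ← map_inv, ← map_inv]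
  rfl

variable (σ : Type) [DecidableEq σ] [Fintype σ] {r : ℕ}
  (Ψ : MvPowerSeries (Fin r) 𝒪 →ₐ[𝒪] MonoidAlgebra 𝒪 B)

/-- `std (C (X i)) = C (uu i - (uu i)⁻¹)`. -/
theorem s59t_std_CX (h : Fin r → B)
    (hΨX : ∀ i, Ψ (X i) = MonoidAlgebra.of 𝒪 B (h i) - MonoidAlgebra.of 𝒪 B (h i)⁻¹)
    (i : Fin r) :
    s59t_std σ Ψ dia (C (X i)) =
      C (((s59t_uu dia (h i) : Tˣ) : T) - (((s59t_uu dia (h i))⁻¹ : Tˣ) : T)) := by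
  rw [s59t_std_C, hΨX, map_sub, s59t_lam_of, s59t_lam_of, s59t_uu_val, s59t_uu_inv_val]

/-- the relation ideal of the framed level lies in `𝔪 ^ n`. -/
theorem s59t_frameJ_ker_le_pow [IsLocalRing 𝒪] {n : ℕ}
    (hk : RingHom.ker Ψ ≤ maximalIdeal (MvPowerSeries (Fin r) 𝒪) ^ (n + 1)) :
    s59t_frameJ σ (RingHom.ker Ψ) ≤
      maximalIdeal (MvPowerSeries σ (MvPowerSeries (Fin r) 𝒪)) ^ n :=
  s59t_frameJ_le_pow (hk.trans (Ideal.pow_le_pow_right (Nat.le_succ n)))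

end Units

section Proj

variable (σ : Type) [DecidableEq σ] [Fintype σ]
  {𝒪 : Type} [CommRing 𝒪]
  {Δ : Type} [CommGroup Δ] [Fintype Δ] {Δ' : Type} [CommGroup Δ'] [Fintype Δ']
  {Y : Type} [AddCommGroup Y] [Module 𝒪 Y] {Y' : Type} [AddCommGroup Y'] [Module 𝒪 Y']
  (ρ : Δ →* Module.End 𝒪 Y) (ρ' : Δ' →* Module.End 𝒪 Y')
  (B C : Subgroup Δ') [Fintype B] [Fintype C]
  (hCB : Function.Bijective (fun x : C × B => ((x.1 : Δ') * (x.2 : Δ'))))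
  {d : ℕ} (b' : Fin d → Y') (hb' : Function.Bijective (s59t_evalMap ρ' b'))
  (π : Y' →ₗ[𝒪] Y)
  (τ : Δ →* 𝒪ˣ) (ψ' : Δ' →* 𝒪ˣ)
  (h2 : ∀ y ∈ s59t_eig ρ' C ψ', π y ∈ s59t_eig ρ ⊤ τ)
  (h3 : ∀ x ∈ s59t_eig ρ ⊤ τ, ∃ y ∈ s59t_eig ρ' C ψ', π y = x)
  (h4 : ∀ y ∈ s59t_eig ρ' C ψ', π y = 0 → y ∈ Submodule.span 𝒪
    {z : Y' | ∃ β ∈ B, ∃ y' ∈ s59t_eig ρ' C ψ', z = ρ' β y' - y'})
  {T : Type} [CommRing T] [Algebra 𝒪 T] [Module T Y'] [IsScalarTower 𝒪 T Y']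
  (hTρ : ∀ (t : T) (δ : Δ') (y : Y'), t • ρ' δ y = ρ' δ (t • y))
  (dia : B →* T) (hdia : ∀ (β : B) (y : Y'), ρ' (β : Δ') y = dia β • y)
  {R : Type} [CommRing R] [Algebra 𝒪 R] [Module R Y] [IsScalarTower 𝒪 R Y]
  (hRρ : ∀ (t : R) (δ : Δ) (y : Y), t • ρ δ y = ρ δ (t • y))
  (ψ : T →ₐ[𝒪] R) (hψs : Function.Surjective ψ) (hψd : ∀ β, ψ (dia β) = 1)
  (hπψ : ∀ (t : T) (y : Y'), π (t • y) = ψ t • π y)
  {r : ℕ} (Ψ : MvPowerSeries (Fin r) 𝒪 →ₐ[𝒪] MonoidAlgebra 𝒪 B)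
  (hΨs : Function.Surjective Ψ) (hΨa : ∀ s, s59t_aug 𝒪 B (Ψ s) = constantCoeff s)

theorem s59t_levelEig_d :
    (s59t_levelEig σ ρ ρ' B C hCB b' hb' π τ ψ' h2 h3 h4 hTρ dia hdia hRρ ψ hψs hψd hπψ
      Ψ hΨs hΨa).d = d := rfl

theorem s59t_levelEig_std (x : MvPowerSeries σ (MvPowerSeries (Fin r) 𝒪)) :
    (s59t_levelEig σ ρ ρ' B C hCB b' hb' π τ ψ' h2 h3 h4 hTρ dia hdia hRρ ψ hψs hψd hπψ
      Ψ hΨs hΨa).φ x = s59t_std σ Ψ dia x := rfl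

theorem s59t_levelEig_psi (f : MvPowerSeries σ T) :
    (s59t_levelEig σ ρ ρ' B C hCB b' hb' π τ ψ' h2 h3 h4 hTρ dia hdia hRρ ψ hψs hψd hπψ
      Ψ hΨs hΨa).ψ f = ψ (constantCoeff f) := rfl

theorem s59t_levelEig_psi_C (t : T) :
    (s59t_levelEig σ ρ ρ' B C hCB b' hb' π τ ψ' h2 h3 h4 hTρ dia hdia hRρ ψ hψs hψd hπψ
      Ψ hΨs hΨa).ψ (MvPowerSeries.C t) = ψ t := by
  rw [s59t_levelEig_psi, constantCoeff_C]

theorem s59t_levelEig_kappa (s : MvPowerSeries σ (MvPowerSeries (Fin r) 𝒪)) :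
    (s59t_levelEig σ ρ ρ' B C hCB b' hb' π τ ψ' h2 h3 h4 hTρ dia hdia hRρ ψ hψs hψd hπψ
      Ψ hΨs hΨa).ψ
      ((s59t_levelEig σ ρ ρ' B C hCB b' hb' π τ ψ' h2 h3 h4 hTρ dia hdia hRρ ψ hψs hψd hπψ
        Ψ hΨs hΨa).φ s) = algebraMap 𝒪 R (constantCoeff (constantCoeff s)) :=
  s59t_levelF_kappa σ Ψ hΨs hΨa dia _ _ ψ hψs hψd _ _ _ _ _ _ s

/-- coefficients in the annihilator of the `ψ'`-part annihilate the framed module. -/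
theorem s59t_levelEig_ann (x : MvPowerSeries σ T)
    (hx : ∀ e, coeff e x ∈ Module.annihilator T (s59t_EigT ρ' C ψ' hTρ)) :
    x ∈ Module.annihilator (MvPowerSeries σ T)
      (s59t_levelEig σ ρ ρ' B C hCB b' hb' π τ ψ' h2 h3 h4 hTρ dia hdia hRρ ψ hψs hψd hπψ
        Ψ hΨs hΨa).N :=
  s59t_PS_mem_annihilator (σ := σ) (N := s59t_EigT ρ' C ψ' hTρ) x hx

end Proj

section AnnEigT

variable {𝒪 : Type} [CommRing 𝒪]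
  {Δ' : Type} [CommGroup Δ'] [Fintype Δ']
  {Y' : Type} [AddCommGroup Y'] [Module 𝒪 Y']
  (ρ' : Δ' →* Module.End 𝒪 Y') (C : Subgroup Δ') (ψ' : Δ' →* 𝒪ˣ)
  {T : Type} [CommRing T] [Algebra 𝒪 T] [Module T Y'] [IsScalarTower 𝒪 T Y']
  (hTρ : ∀ (t : T) (δ : Δ') (y : Y'), t • ρ' δ y = ρ' δ (t • y))

theorem s59t_mem_ann_EigT_iff (t : T) :
    t ∈ Module.annihilator T (s59t_EigT ρ' C ψ' hTρ) ↔ ∀ y ∈ s59t_eig ρ' C ψ', t • y = 0 := by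
  rw [Module.mem_annihilator]
  constructor
  · intro h y hy
    have := congrArg (s59t_EigT_val ρ' C ψ' hTρ) (h (s59t_EigT_mk ρ' C ψ' hTρ y hy))
    rwa [s59t_EigT_val_smul, s59t_EigT_val_mk, map_zero] at this
  · intro h x
    apply s59t_EigT_val_injective
    rw [s59t_EigT_val_smul, map_zero]
    exact h _ (s59t_EigT_val_mem ρ' C ψ' hTρ x)

theorem s59t_ann_EigT_ne_top (y : Y') (hy : y ∈ s59t_eig ρ' C ψ') (hy0 : y ≠ 0) :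
    Module.annihilator T (s59t_EigT ρ' C ψ' hTρ) ≠ ⊤ := by
  intro h
  have h1 : (1 : T) ∈ Module.annihilator T (s59t_EigT ρ' C ψ' hTρ) := h ▸ Submodule.mem_top
  have := (s59t_mem_ann_EigT_iff ρ' C ψ' hTρ 1).mp h1 y hy
  rw [one_smul] at this
  exact hy0 this

end AnnEigT

section Rank

variable {𝒪 : Type} [CommRing 𝒪] [Nontrivial 𝒪] {Δ : Type} [CommGroup Δ] [Fintype Δ]
  {Y : Type} [AddCommGroup Y] [Module 𝒪 Y] (ρ : Δ →* Module.End 𝒪 Y)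

/-- the rank of a free `𝒪[Δ]`-module is well defined. -/
theorem s59t_evalMap_rank_unique {d d' : ℕ} (b : Fin d → Y) (b' : Fin d' → Y)
    (hb : Function.Bijective (s59t_evalMap ρ b)) (hb' : Function.Bijective (s59t_evalMap ρ b')) :
    d = d' := by
  classical
  let e : (Fin d → Δ → 𝒪) ≃ₗ[𝒪] (Fin d' → Δ → 𝒪) :=
    (LinearEquiv.ofBijective _ hb).trans (LinearEquiv.ofBijective _ hb').symm
  have h1 := LinearEquiv.finrank_eq e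
  have h2 : ∀ m : ℕ, Module.finrank 𝒪 (Fin m → Δ → 𝒪) = m * Fintype.card Δ := by
    intro m
    rw [Module.finrank_pi_fintype, Finset.sum_const, Finset.card_univ, Fintype.card_fin,
      Module.finrank_pi, smul_eq_mul]
  rw [h2, h2] at h1
  exact Nat.eq_of_mul_eq_mul_right Fintype.card_pos h1

end Rank

section FiniteEigT

variable {𝒪 : Type} [CommRing 𝒪] [IsNoetherianRing 𝒪]
  {Δ : Type} [CommGroup Δ] [Fintype Δ]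
  {Y : Type} [AddCommGroup Y] [Module 𝒪 Y] [Module.Finite 𝒪 Y]
  (ρ : Δ →* Module.End 𝒪 Y) (C : Subgroup Δ) (τ : Δ →* 𝒪ˣ)
  {R : Type} [CommRing R] [Algebra 𝒪 R] [Module R Y] [IsScalarTower 𝒪 R Y]
  (hRρ : ∀ (t : R) (δ : Δ) (y : Y), t • ρ δ y = ρ δ (t • y))

instance s59t_EigT_finiteO : Module.Finite 𝒪 (s59t_EigT ρ C τ hRρ) :=
  inferInstanceAs (Module.Finite 𝒪 (s59t_eig ρ C τ))

/-- the eigen-part is a finite module over the Hecke ring. -/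
theorem s59t_EigT_finite : Module.Finite R (s59t_EigT ρ C τ hRρ) :=
  Module.Finite.of_restrictScalars_finite 𝒪 R _

end FiniteEigT

section Bundle

variable (σ : Type) [DecidableEq σ] [Fintype σ]
  {p : ℕ} [hp : Fact p.Prime]
  {𝒪 : Type} [CommRing 𝒪] [IsLocalRing 𝒪] [IsNoetherianRing 𝒪]
  [IsAdicComplete (maximalIdeal 𝒪) 𝒪] [Finite (ResidueField 𝒪)]
  {Δ : Type} [CommGroup Δ] [Fintype Δ] {Δ' : Type} [CommGroup Δ'] [Fintype Δ']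
  {Y : Type} [AddCommGroup Y] [Module 𝒪 Y] {Y' : Type} [AddCommGroup Y'] [Module 𝒪 Y']
  (ρ : Δ →* Module.End 𝒪 Y) (ρ' : Δ' →* Module.End 𝒪 Y')
  (B C : Subgroup Δ') [Fintype B] [Fintype C]
  (hCB : Function.Bijective (fun x : C × B => ((x.1 : Δ') * (x.2 : Δ'))))
  {d : ℕ} (b' : Fin d → Y') (hb' : Function.Bijective (s59t_evalMap ρ' b'))
  (π : Y' →ₗ[𝒪] Y)
  {T : Type} [CommRing T] [Algebra 𝒪 T] [Module T Y'] [IsScalarTower 𝒪 T Y']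
  (hTρ : ∀ (t : T) (δ : Δ') (y : Y'), t • ρ' δ y = ρ' δ (t • y))
  (dia : B →* T) (hdia : ∀ (β : B) (y : Y'), ρ' (β : Δ') y = dia β • y)
  -- type 1
  (h2 : ∀ y ∈ s59t_eig ρ' C (1 : Δ' →* 𝒪ˣ), π y ∈ s59t_eig ρ ⊤ (1 : Δ →* 𝒪ˣ))
  (h3 : ∀ x ∈ s59t_eig ρ ⊤ (1 : Δ →* 𝒪ˣ), ∃ y ∈ s59t_eig ρ' C (1 : Δ' →* 𝒪ˣ), π y = x)
  (h4 : ∀ y ∈ s59t_eig ρ' C (1 : Δ' →* 𝒪ˣ), π y = 0 → y ∈ Submodule.span 𝒪
    {z : Y' | ∃ β ∈ B, ∃ y' ∈ s59t_eig ρ' C (1 : Δ' →* 𝒪ˣ), z = ρ' β y' - y'})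
  {R : Type} [CommRing R] [Algebra 𝒪 R] [Module R Y] [IsScalarTower 𝒪 R Y]
  (hRρ : ∀ (t : R) (δ : Δ) (y : Y), t • ρ δ y = ρ δ (t • y))
  (ψ : T →ₐ[𝒪] R) (hψs : Function.Surjective ψ) (hψd : ∀ β, ψ (dia β) = 1)
  (hπψ : ∀ (t : T) (y : Y'), π (t • y) = ψ t • π y)
  -- type χ
  (χ : Δ →* 𝒪ˣ) (χ' : Δ' →* 𝒪ˣ)
  (k2 : ∀ y ∈ s59t_eig ρ' C χ', π y ∈ s59t_eig ρ ⊤ χ)
  (k3 : ∀ x ∈ s59t_eig ρ ⊤ χ, ∃ y ∈ s59t_eig ρ' C χ', π y = x)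
  (k4 : ∀ y ∈ s59t_eig ρ' C χ', π y = 0 → y ∈ Submodule.span 𝒪
    {z : Y' | ∃ β ∈ B, ∃ y' ∈ s59t_eig ρ' C χ', z = ρ' β y' - y'})
  {R' : Type} [CommRing R'] [Algebra 𝒪 R'] [Module R' Y] [IsScalarTower 𝒪 R' Y]
  (hRρ' : ∀ (t : R') (δ : Δ) (y : Y), t • ρ δ y = ρ δ (t • y))
  (ψ₂ : T →ₐ[𝒪] R') (hψs₂ : Function.Surjective ψ₂) (hψd₂ : ∀ β, ψ₂ (dia β) = 1)
  (hπψ₂ : ∀ (t : T) (y : Y'), π (t • y) = ψ₂ t • π y)

include hp hCB hb' h2 h3 h4 hdia hψs hψd hπψ k2 k3 k4 hψs₂ hψd₂ hπψ₂ in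
set_option maxHeartbeats 1600000 in
/-- **one Taylor–Wiles level in the binder shapes of `s59i_FINA1`**: the relation ideal `J`, the
framed levels `L0`, `L0'` of types `1` and `χ`, the structure map `std`, the units `uu`. -/
theorem s59t_TSide_level (hp2 : p ≠ 2) (hpm : (p : 𝒪) ∈ maximalIdeal 𝒪) {n r : ℕ}
    (g : Fin r → B) (hcard : Nat.card B = (p ^ n) ^ r)
    (hgen : ∀ β : B, ∃ a : Fin r → ℕ, β = ∏ i, g i ^ a i) (hord : ∀ i, g i ^ (p ^ n) = 1)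
    (ϖ : 𝒪) (hχ' : ∀ γ ∈ C, ((χ' γ : 𝒪ˣ) : 𝒪) - 1 ∈ (Ideal.span {ϖ} : Ideal 𝒪)) :
    ∃ (J : Ideal (MvPowerSeries σ (MvPowerSeries (Fin r) 𝒪)))
      (_ : J ≤ maximalIdeal (MvPowerSeries σ (MvPowerSeries (Fin r) 𝒪)) ^ n)
      (L0 : s59p_Level (MvPowerSeries σ (MvPowerSeries (Fin r) 𝒪)) (MvPowerSeries σ T) R
        (s59t_EigT ρ ⊤ (1 : Δ →* 𝒪ˣ) hRρ)
        (s59t_frameA σ (RingHom.ker (constantCoeff (σ := Fin r) (R := 𝒪)))) J)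
      (L0' : s59p_Level (MvPowerSeries σ (MvPowerSeries (Fin r) 𝒪)) (MvPowerSeries σ T) R'
        (s59t_EigT ρ ⊤ χ hRρ')
        (s59t_frameA σ (RingHom.ker (constantCoeff (σ := Fin r) (R := 𝒪)))) J)
      (std : MvPowerSeries σ (MvPowerSeries (Fin r) 𝒪) →ₐ[𝒪] MvPowerSeries σ T)
      (uu : Fin r → Tˣ),
      L0.d = d ∧ L0'.d = d ∧ (∀ x, L0.φ x = std x) ∧ (∀ x, L0'.φ x = std x) ∧
      s59p_Cong (algebraMap 𝒪 (MvPowerSeries σ T) ϖ) (algebraMap 𝒪 (MvPowerSeries σ T) ϖ)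
        (RingEquiv.refl _) L0 L0' ∧
      (∀ i, ((uu i : Tˣ) : T) = dia (s59t_hh p n g i)) ∧
      (∀ i, std (MvPowerSeries.C (X i)) =
        MvPowerSeries.C (((uu i : Tˣ) : T) - (((uu i)⁻¹ : Tˣ) : T))) ∧
      (∀ j, std (X j) = X j) ∧
      (∀ x : MvPowerSeries σ T,
        (∀ e, coeff e x ∈ Module.annihilator T (s59t_EigT ρ' C (1 : Δ' →* 𝒪ˣ) hTρ)) →
          x ∈ Module.annihilator (MvPowerSeries σ T) L0.N) ∧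
      (∀ x : MvPowerSeries σ T,
        (∀ e, coeff e x ∈ Module.annihilator T (s59t_EigT ρ' C χ' hTρ)) →
          x ∈ Module.annihilator (MvPowerSeries σ T) L0'.N) ∧
      (∀ f, L0.ψ f = ψ (constantCoeff f)) ∧ (∀ f, L0'.ψ f = ψ₂ (constantCoeff f)) ∧
      (∀ x, L0.ψ (L0.φ x) = algebraMap 𝒪 R (constantCoeff (constantCoeff x))) ∧
      (∀ x, L0'.ψ (L0'.φ x) = algebraMap 𝒪 R' (constantCoeff (constantCoeff x))) := by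
  classical
  obtain ⟨Ψ, hΨX, hΨs, hΨk, hΨa⟩ := s59t_exists_PsiH (p := p) (𝒪 := 𝒪) g hp2 hpm hcard hgen hord
  refine ⟨s59t_frameJ σ (RingHom.ker Ψ), s59t_frameJ_ker_le_pow σ Ψ hΨk,
    s59t_levelEig σ ρ ρ' B C hCB b' hb' π (1 : Δ →* 𝒪ˣ) (1 : Δ' →* 𝒪ˣ) h2 h3 h4 hTρ dia hdia
      hRρ ψ hψs hψd hπψ Ψ hΨs hΨa,
    s59t_levelEig σ ρ ρ' B C hCB b' hb' π χ χ' k2 k3 k4 hTρ dia hdia
      hRρ' ψ₂ hψs₂ hψd₂ hπψ₂ Ψ hΨs hΨa,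
    s59t_std σ Ψ dia, fun i => s59t_uu dia (s59t_hh p n g i), rfl, rfl, fun _ => rfl,
    fun _ => rfl, ?_, fun _ => rfl, ?_, fun j => s59t_std_X σ Ψ dia j, ?_, ?_, fun _ => rfl,
    fun _ => rfl, ?_, ?_⟩
  · exact s59t_levelEig_cong σ ρ ρ' B C hCB b' hb' π hTρ dia hdia Ψ hΨs hΨa h2 h3 h4 hRρ ψ hψs
      hψd hπψ χ χ' k2 k3 k4 hRρ' ψ₂ hψs₂ hψd₂ hπψ₂ ϖ hχ'
  · exact fun i => s59t_std_CX dia σ Ψ (s59t_hh p n g) hΨX i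
  · exact fun x hx => s59t_levelEig_ann σ ρ ρ' B C hCB b' hb' π _ _ h2 h3 h4 hTρ dia hdia hRρ ψ
      hψs hψd hπψ Ψ hΨs hΨa x hx
  · exact fun x hx => s59t_levelEig_ann σ ρ ρ' B C hCB b' hb' π _ _ k2 k3 k4 hTρ dia hdia hRρ' ψ₂
      hψs₂ hψd₂ hπψ₂ Ψ hΨs hΨa x hx
  · exact fun x => s59t_levelEig_kappa σ ρ ρ' B C hCB b' hb' π _ _ h2 h3 h4 hTρ dia hdia hRρ ψ
      hψs hψd hπψ Ψ hΨs hΨa x
  · exact fun x => s59t_levelEig_kappa σ ρ ρ' B C hCB b' hb' π _ _ k2 k3 k4 hTρ dia hdia hRρ' ψ₂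
      hψs₂ hψd₂ hπψ₂ Ψ hΨs hΨa x

end Bundle

end Fermat.Agent.Lib.S59
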