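/-
Programme (R) = S59, node (E) module half (helper8), file 64: **the relation ideal of the framed
levels is canonical.**  `s59t_JH 𝒪 p n r ⊆ 𝒪⟦x₁..x_r⟧`: the common kernel of all presentations
`x_i ↦ [h_i] - [h_i⁻¹]` of group algebras `𝒪[B]`, `B ≅ (ℤ/pⁿ)^r` with generators `g`
(`h_i = g_i ^ ((pⁿ+1)/2)`).  Every such presentation has kernel EXACTLY `s59t_JH`
(`s59t_ker_eq_JH`), `s59t_JH ≤ 𝔪 ^ (n+1)` (`s59t_JH_le`), and `s59t_TSide_level'` is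
`s59t_TSide_level` with the relation ideal `J n := s59t_frameJ σ (s59t_JH 𝒪 p n r)` fixed in
advance (as `s59i_TBase.J` wants).
-/
import Mathlib
import Fermat.Agent.Lib.S59.TLvlFin
import Fermat.Agent.Lib.S59.TDeltaQ

set_option autoImplicit false
set_option linter.unusedSectionVars false
set_option linter.style.haveILetI false

open scoped BigOperators
open MvPowerSeries IsLocalRing

noncomputable section

namespace Fermat.Agent.Lib.S59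

/-- **the canonical relation ideal.** -/
def s59t_JH (𝒪 : Type) [CommRing 𝒪] (p n r : ℕ) : Ideal (MvPowerSeries (Fin r) 𝒪) where
  carrier := {f | ∀ (B : Type) [CommGroup B] [Fintype B] (g : Fin r → B)
    (Ψ : MvPowerSeries (Fin r) 𝒪 →ₐ[𝒪] MonoidAlgebra 𝒪 B),
    Nat.card B = (p ^ n) ^ r → (∀ β : B, ∃ a : Fin r → ℕ, β = ∏ i, g i ^ a i) →
    (∀ i, g i ^ (p ^ n) = 1) →
    (∀ i, Ψ (X i) = MonoidAlgebra.of 𝒪 B (s59t_hh p n g i) -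
      MonoidAlgebra.of 𝒪 B (s59t_hh p n g i)⁻¹) → Ψ f = 0}
  add_mem' := by
    intro f f' hf hf' B _ _ g Ψ h1 h2 h3 h4
    rw [map_add, hf B g Ψ h1 h2 h3 h4, hf' B g Ψ h1 h2 h3 h4, add_zero]
  zero_mem' := by
    intro B _ _ g Ψ _ _ _ _
    exact map_zero _
  smul_mem' := by
    intro c f hf B _ _ g Ψ h1 h2 h3 h4
    rw [smul_eq_mul, map_mul, hf B g Ψ h1 h2 h3 h4, mul_zero]

theorem s59t_mem_JH {𝒪 : Type} [CommRing 𝒪] {p n r : ℕ} {f : MvPowerSeries (Fin r) 𝒪} :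
    f ∈ s59t_JH 𝒪 p n r ↔ ∀ (B : Type) [CommGroup B] [Fintype B] (g : Fin r → B)
      (Ψ : MvPowerSeries (Fin r) 𝒪 →ₐ[𝒪] MonoidAlgebra 𝒪 B),
      Nat.card B = (p ^ n) ^ r → (∀ β : B, ∃ a : Fin r → ℕ, β = ∏ i, g i ^ a i) →
      (∀ i, g i ^ (p ^ n) = 1) →
      (∀ i, Ψ (X i) = MonoidAlgebra.of 𝒪 B (s59t_hh p n g i) -
        MonoidAlgebra.of 𝒪 B (s59t_hh p n g i)⁻¹) → Ψ f = 0 := Iff.rfl

section Ker

variable {p : ℕ} [hp : Fact p.Prime] {𝒪 : Type} [CommRing 𝒪] [IsLocalRing 𝒪] [IsNoetherianRing 𝒪]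
  [IsAdicComplete (maximalIdeal 𝒪) 𝒪] [Finite (ResidueField 𝒪)]
  {B : Type} [CommGroup B] [Fintype B] {n r : ℕ} (g : Fin r → B)

include hp in
set_option maxHeartbeats 800000 in
/-- **every presentation `x_i ↦ [h_i] - [h_i⁻¹]` has kernel `s59t_JH`.** -/
theorem s59t_ker_eq_JH (hpm : (p : 𝒪) ∈ maximalIdeal 𝒪)
    (hcard : Nat.card B = (p ^ n) ^ r)
    (hgen : ∀ β : B, ∃ a : Fin r → ℕ, β = ∏ i, g i ^ a i) (hord : ∀ i, g i ^ (p ^ n) = 1)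
    (Ψ : MvPowerSeries (Fin r) 𝒪 →ₐ[𝒪] MonoidAlgebra 𝒪 B)
    (hΨX : ∀ i, Ψ (X i) = MonoidAlgebra.of 𝒪 B (s59t_hh p n g i) -
      MonoidAlgebra.of 𝒪 B (s59t_hh p n g i)⁻¹) :
    RingHom.ker Ψ = s59t_JH 𝒪 p n r := by
  classical
  haveI : NeZero (p ^ n) := ⟨pow_ne_zero _ hp.out.ne_zero⟩
  refine le_antisymm ?_ ?_
  · intro f hf
    rw [RingHom.mem_ker] at hf
    rw [s59t_mem_JH]
    intro B' _ _ g' Ψ' hcard' hgen' hord' hΨX'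
    have hB' : ∀ β : B', ∃ k : ℕ, β ^ (p ^ k) = 1 := by
      intro β
      obtain ⟨a, rfl⟩ := hgen' β
      refine ⟨n, ?_⟩
      rw [← Finset.prod_pow]
      refine Finset.prod_eq_one fun i _ => ?_
      rw [← pow_mul, mul_comm, pow_mul, hord' i, one_pow]
    haveI : IsLocalRing (MonoidAlgebra 𝒪 B') := s59t_grpAlg_isLocalRing hpm hB'
    haveI : IsLocalHom (algebraMap 𝒪 (MonoidAlgebra 𝒪 B')) := s59t_grpAlg_isLocalHom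
    haveI : IsAdicComplete (maximalIdeal (MonoidAlgebra 𝒪 B')) (MonoidAlgebra 𝒪 B') :=
      s59t_grpAlg_isAdicComplete
    obtain ⟨θ, hθ⟩ := s59t_exists_hom g hcard hgen hord g' hord'
    have hθh : ∀ i, θ (s59t_hh p n g i) = s59t_hh p n g' i := by
      intro i
      rw [s59t_hh, s59t_hh, map_pow, hθ]
    let Θ : MonoidAlgebra 𝒪 B →ₐ[𝒪] MonoidAlgebra 𝒪 B' := MonoidAlgebra.mapDomainAlgHom 𝒪 𝒪 θ
    have hΘof : ∀ β : B, Θ (MonoidAlgebra.of 𝒪 B β) = MonoidAlgebra.of 𝒪 B' (θ β) := by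
      intro β
      show MonoidAlgebra.mapDomainAlgHom 𝒪 𝒪 θ (MonoidAlgebra.of 𝒪 B β) = _
      rw [MonoidAlgebra.mapDomainAlgHom_apply, MonoidAlgebra.of_apply, MonoidAlgebra.of_apply,
        MonoidAlgebra.mapDomain_single]
    have hX : ∀ i, (Θ.comp Ψ) (X i) = Ψ' (X i) := by
      intro i
      rw [AlgHom.comp_apply, hΨX, hΨX', map_sub, hΘof, hΘof, map_inv, hθh]
    have hmem : ∀ i, (Θ.comp Ψ) (X i) ∈ maximalIdeal (MonoidAlgebra 𝒪 B') := by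
      intro i
      rw [hX, hΨX']
      have e : MonoidAlgebra.of 𝒪 B' (s59t_hh p n g' i) -
          MonoidAlgebra.of 𝒪 B' (s59t_hh p n g' i)⁻¹ =
          (MonoidAlgebra.of 𝒪 B' (s59t_hh p n g' i) - 1) -
            (MonoidAlgebra.of 𝒪 B' (s59t_hh p n g' i)⁻¹ - 1) := by ring
      rw [e]
      exact Ideal.sub_mem _ (s59t_of_sub_one_mem _) (s59t_of_sub_one_mem _)
    have hcomp : Θ.comp Ψ = Ψ' :=
      Fermat.Agent.Lib.Deform.algHom_ext_of_X (maximalIdeal (MonoidAlgebra 𝒪 B')) hmem hX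
    rw [← hcomp, AlgHom.comp_apply, hf, map_zero]
  · intro f hf
    rw [RingHom.mem_ker]
    exact (s59t_mem_JH.mp hf) B g Ψ hcard hgen hord hΨX

end Ker

section Le

variable {p : ℕ} [hp : Fact p.Prime] {𝒪 : Type} [CommRing 𝒪] [IsLocalRing 𝒪] [IsNoetherianRing 𝒪]
  [IsAdicComplete (maximalIdeal 𝒪) 𝒪] [Finite (ResidueField 𝒪)]

include hp in
/-- `s59t_JH ≤ 𝔪 ^ (n + 1)`. -/
theorem s59t_JH_le (hp2 : p ≠ 2) (hpm : (p : 𝒪) ∈ maximalIdeal 𝒪) (n r : ℕ) :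
    s59t_JH 𝒪 p n r ≤ maximalIdeal (MvPowerSeries (Fin r) 𝒪) ^ (n + 1) := by
  classical
  have hP : p ^ n ≠ 0 := pow_ne_zero _ hp.out.ne_zero
  haveI : NeZero (p ^ n) := ⟨hP⟩
  haveI : ∀ _ : Fin r, IsCyclic (Multiplicative (ZMod (p ^ n))) := fun _ => inferInstance
  obtain ⟨g, hcard, hgen, hord, -⟩ := s59t_pi_cyclic_pres (r := r) hP
    (fun _ : Fin r => Multiplicative (ZMod (p ^ n))) (fun _ => by
      rw [Nat.card_eq_fintype_card, Fintype.card_multiplicative, ZMod.card])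
  haveI : Fintype (∀ _ : Fin r, Multiplicative (ZMod (p ^ n))) := inferInstance
  obtain ⟨Ψ, hΨX, -, hΨk, -⟩ := s59t_exists_PsiH (p := p) (𝒪 := 𝒪) g hp2 hpm hcard hgen hord
  rw [← s59t_ker_eq_JH g hpm hcard hgen hord Ψ hΨX]
  exact hΨk

include hp in
/-- the framed canonical relation ideal lies in `𝔪 ^ n`. -/
theorem s59t_frameJ_JH_le (σ : Type) [DecidableEq σ] [Fintype σ] (hp2 : p ≠ 2)
    (hpm : (p : 𝒪) ∈ maximalIdeal 𝒪) (n r : ℕ) :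
    s59t_frameJ σ (s59t_JH 𝒪 p n r) ≤
      maximalIdeal (MvPowerSeries σ (MvPowerSeries (Fin r) 𝒪)) ^ n :=
  s59t_frameJ_le_pow ((s59t_JH_le hp2 hpm n r).trans (Ideal.pow_le_pow_right (Nat.le_succ n)))

end Le

section Bundle

variable (σ : Type) [DecidableEq σ] [Fintype σ]
  {p : ℕ} [hp : Fact p.Prime]
  {𝒪 : Type} [CommRing 𝒪] [IsLocalRing 𝒪] [IsNoetherianRing 𝒪]
  [IsAdicComplete (maximalIdeal 𝒪) 𝒪] [Finite (ResidueField 𝒪)]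
  {Δ : Type} [CommGroup Δ] [Fintype Δ] {Δ' : Type} [CommGroup Δ'] [Fintype Δ']
  {Y : Type} [AddCommGroup Y] [Module 𝒪 Y] {Y' : Type} [AddCommGroup Y'] [Module 𝒪 Y']
  (ρ : Δ →* Module.End 𝒪 Y) (ρ' : Δ' →* Module.End 𝒪 Y')
  (B C : Subgroup Δ') [Fintype B] [Fintype C]
  (hCB : Function.Bijective (fun x : C × B => ((x.1 : Δ') * (x.2 : Δ'))))
  {d : ℕ} (b' : Fin d → Y') (hb' : Function.Bijective (s59t_evalMap ρ' b'))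
  (π : Y' →ₗ[𝒪] Y)
  {T : Type} [CommRing T] [Algebra 𝒪 T] [Module T Y'] [IsScalarTower 𝒪 T Y']
  (hTρ : ∀ (t : T) (δ : Δ') (y : Y'), t • ρ' δ y = ρ' δ (t • y))
  (dia : B →* T) (hdia : ∀ (β : B) (y : Y'), ρ' (β : Δ') y = dia β • y)
  -- type 1
  (h2 : ∀ y ∈ s59t_eig ρ' C (1 : Δ' →* 𝒪ˣ), π y ∈ s59t_eig ρ ⊤ (1 : Δ →* 𝒪ˣ))
  (h3 : ∀ x ∈ s59t_eig ρ ⊤ (1 : Δ →* 𝒪ˣ), ∃ y ∈ s59t_eig ρ' C (1 : Δ' →* 𝒪ˣ), π y = x)
  (h4 : ∀ y ∈ s59t_eig ρ' C (1 : Δ' →* 𝒪ˣ), π y = 0 → y ∈ Submodule.span 𝒪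
    {z : Y' | ∃ β ∈ B, ∃ y' ∈ s59t_eig ρ' C (1 : Δ' →* 𝒪ˣ), z = ρ' β y' - y'})
  {R : Type} [CommRing R] [Algebra 𝒪 R] [Module R Y] [IsScalarTower 𝒪 R Y]
  (hRρ : ∀ (t : R) (δ : Δ) (y : Y), t • ρ δ y = ρ δ (t • y))
  (ψ : T →ₐ[𝒪] R) (hψs : Function.Surjective ψ) (hψd : ∀ β, ψ (dia β) = 1)
  (hπψ : ∀ (t : T) (y : Y'), π (t • y) = ψ t • π y)
  -- type χ
  (χ : Δ →* 𝒪ˣ) (χ' : Δ' →* 𝒪ˣ)
  (k2 : ∀ y ∈ s59t_eig ρ' C χ', π y ∈ s59t_eig ρ ⊤ χ)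
  (k3 : ∀ x ∈ s59t_eig ρ ⊤ χ, ∃ y ∈ s59t_eig ρ' C χ', π y = x)
  (k4 : ∀ y ∈ s59t_eig ρ' C χ', π y = 0 → y ∈ Submodule.span 𝒪
    {z : Y' | ∃ β ∈ B, ∃ y' ∈ s59t_eig ρ' C χ', z = ρ' β y' - y'})
  {R' : Type} [CommRing R'] [Algebra 𝒪 R'] [Module R' Y] [IsScalarTower 𝒪 R' Y]
  (hRρ' : ∀ (t : R') (δ : Δ) (y : Y), t • ρ δ y = ρ δ (t • y))
  (ψ₂ : T →ₐ[𝒪] R') (hψs₂ : Function.Surjective ψ₂) (hψd₂ : ∀ β, ψ₂ (dia β) = 1)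
  (hπψ₂ : ∀ (t : T) (y : Y'), π (t • y) = ψ₂ t • π y)

include hp hCB hb' h2 h3 h4 hdia hψs hψd hπψ k2 k3 k4 hψs₂ hψd₂ hπψ₂ in
set_option maxHeartbeats 1600000 in
/-- **one Taylor–Wiles level in the binder shapes of `s59i_TLevel`, with the relation ideal
`s59t_frameJ σ (s59t_JH 𝒪 p n r)` fixed in advance** (apply with `J₀ := s59t_JH 𝒪 p n r`,
`hJ₀ := rfl`). -/
theorem s59t_TSide_level' (hp2 : p ≠ 2) (hpm : (p : 𝒪) ∈ maximalIdeal 𝒪) {n r : ℕ}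
    (g : Fin r → B) (hcard : Nat.card B = (p ^ n) ^ r)
    (hgen : ∀ β : B, ∃ a : Fin r → ℕ, β = ∏ i, g i ^ a i) (hord : ∀ i, g i ^ (p ^ n) = 1)
    (ϖ : 𝒪) (hχ' : ∀ γ ∈ C, ((χ' γ : 𝒪ˣ) : 𝒪) - 1 ∈ (Ideal.span {ϖ} : Ideal 𝒪))
    (J₀ : Ideal (MvPowerSeries (Fin r) 𝒪)) (hJ₀ : J₀ = s59t_JH 𝒪 p n r) :
    ∃ (L0 : s59p_Level (MvPowerSeries σ (MvPowerSeries (Fin r) 𝒪)) (MvPowerSeries σ T) R
        (s59t_EigT ρ ⊤ (1 : Δ →* 𝒪ˣ) hRρ)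
        (s59t_frameA σ (RingHom.ker (constantCoeff (σ := Fin r) (R := 𝒪))))
        (s59t_frameJ σ J₀))
      (L0' : s59p_Level (MvPowerSeries σ (MvPowerSeries (Fin r) 𝒪)) (MvPowerSeries σ T) R'
        (s59t_EigT ρ ⊤ χ hRρ')
        (s59t_frameA σ (RingHom.ker (constantCoeff (σ := Fin r) (R := 𝒪))))
        (s59t_frameJ σ J₀))
      (std : MvPowerSeries σ (MvPowerSeries (Fin r) 𝒪) →ₐ[𝒪] MvPowerSeries σ T)
      (uu : Fin r → Tˣ),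
      L0.d = d ∧ L0'.d = d ∧ (∀ x, L0.φ x = std x) ∧ (∀ x, L0'.φ x = std x) ∧
      s59p_Cong (algebraMap 𝒪 (MvPowerSeries σ T) ϖ) (algebraMap 𝒪 (MvPowerSeries σ T) ϖ)
        (RingEquiv.refl _) L0 L0' ∧
      (∀ i, ((uu i : Tˣ) : T) = dia (s59t_hh p n g i)) ∧
      (∀ i, std (MvPowerSeries.C (X i)) =
        MvPowerSeries.C (((uu i : Tˣ) : T) - (((uu i)⁻¹ : Tˣ) : T))) ∧
      (∀ j, std (X j) = X j) ∧
      (∀ x : MvPowerSeries σ T,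
        (∀ e, coeff e x ∈ Module.annihilator T (s59t_EigT ρ' C (1 : Δ' →* 𝒪ˣ) hTρ)) →
          x ∈ Module.annihilator (MvPowerSeries σ T) L0.N) ∧
      (∀ x : MvPowerSeries σ T,
        (∀ e, coeff e x ∈ Module.annihilator T (s59t_EigT ρ' C χ' hTρ)) →
          x ∈ Module.annihilator (MvPowerSeries σ T) L0'.N) ∧
      (∀ f, L0.ψ f = ψ (constantCoeff f)) ∧ (∀ f, L0'.ψ f = ψ₂ (constantCoeff f)) ∧
      (∀ x, L0.ψ (L0.φ x) = algebraMap 𝒪 R (constantCoeff (constantCoeff x))) ∧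
      (∀ x, L0'.ψ (L0'.φ x) = algebraMap 𝒪 R' (constantCoeff (constantCoeff x))) := by
  classical
  obtain ⟨Ψ, hΨX, hΨs, hΨk, hΨa⟩ := s59t_exists_PsiH (p := p) (𝒪 := 𝒪) g hp2 hpm hcard hgen hord
  have hk := s59t_ker_eq_JH g hpm hcard hgen hord Ψ hΨX
  have hJ : J₀ = RingHom.ker Ψ := hJ₀.trans hk.symm
  subst hJ
  refine ⟨s59t_levelEig σ ρ ρ' B C hCB b' hb' π (1 : Δ →* 𝒪ˣ) (1 : Δ' →* 𝒪ˣ) h2 h3 h4 hTρ dia hdia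
      hRρ ψ hψs hψd hπψ Ψ hΨs hΨa,
    s59t_levelEig σ ρ ρ' B C hCB b' hb' π χ χ' k2 k3 k4 hTρ dia hdia
      hRρ' ψ₂ hψs₂ hψd₂ hπψ₂ Ψ hΨs hΨa,
    s59t_std σ Ψ dia, fun i => s59t_uu dia (s59t_hh p n g i), rfl, rfl, fun _ => rfl,
    fun _ => rfl, ?_, fun _ => rfl, ?_, fun j => s59t_std_X σ Ψ dia j, ?_, ?_, fun _ => rfl,
    fun _ => rfl, ?_, ?_⟩
  · exact s59t_levelEig_cong σ ρ ρ' B C hCB b' hb' π hTρ dia hdia Ψ hΨs hΨa h2 h3 h4 hRρ ψ hψs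
      hψd hπψ χ χ' k2 k3 k4 hRρ' ψ₂ hψs₂ hψd₂ hπψ₂ ϖ hχ'
  · exact fun i => s59t_std_CX dia σ Ψ (s59t_hh p n g) hΨX i
  · exact fun x hx => s59t_levelEig_ann σ ρ ρ' B C hCB b' hb' π _ _ h2 h3 h4 hTρ dia hdia hRρ ψ
      hψs hψd hπψ Ψ hΨs hΨa x hx
  · exact fun x hx => s59t_levelEig_ann σ ρ ρ' B C hCB b' hb' π _ _ k2 k3 k4 hTρ dia hdia hRρ' ψ₂
      hψs₂ hψd₂ hπψ₂ Ψ hΨs hΨa x hx
  · exact fun x => s59t_levelEig_kappa σ ρ ρ' B C hCB b' hb' π _ _ h2 h3 h4 hTρ dia hdia hRρ ψ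
      hψs hψd hπψ Ψ hΨs hΨa x
  · exact fun x => s59t_levelEig_kappa σ ρ ρ' B C hCB b' hb' π _ _ k2 k3 k4 hTρ dia hdia hRρ' ψ₂
      hψs₂ hψd₂ hπψ₂ Ψ hΨs hΨa x

end Bundle

section FrameA

variable (σ : Type) [DecidableEq σ] [Fintype σ] {𝒪 : Type} [CommRing 𝒪] [CharZero 𝒪] {r : ℕ}

/-- `𝔞` contains no nonzero natural number (`h𝔞0` of `s59i_TBase`). -/
theorem s59t_natCast_mem_frameA (k : ℕ)
    (hk : (k : MvPowerSeries σ (MvPowerSeries (Fin r) 𝒪)) ∈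
      s59t_frameA σ (RingHom.ker (constantCoeff (σ := Fin r) (R := 𝒪)))) : k = 0 := by
  rw [s59t_mem_frameA, RingHom.mem_ker, map_natCast, map_natCast] at hk
  exact_mod_cast hk

end FrameA

end Fermat.Agent.Lib.S59
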