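/-
S59 (helper5, prefix `s59e_`), `T`-side package: **THE ABSTRACT ASSEMBLY.**

* `s59e_levelTransport` : transport of a `s59p_Level` along a surjection `R → R₁` and an isomorphism `M ≃ M₁`;
* `s59e_BaseD`          : the abstract data at the base level (chosen once), `s59e_BaseD.toTBase` the `s59i_TBase`;
* `s59e_TLevel_abs`     : from abstract data at the Taylor–Wiles level `n` (the inputs of helper8's
                          `s59t_TSide_level'`, the rings `T′ ⊆ T`, `θ`, the descent `ψ`, and the Galois-theoretic fields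
                          `h1tr/h1det/hrad/hχ/hC8` given in their final form), the record `s59i_TLevel`.
-/
import Mathlib
import Fermat.Agent.Lib.S59.LFinB1
import Fermat.Agent.Lib.S59.TLvlJ
import Fermat.Agent.Lib.S59.ETGal
import Fermat.Agent.Lib.S59.PPair
import Fermat.Agent.Lib.Frobenius.Exists

set_option autoImplicit false
set_option linter.unusedSectionVars false
set_option linter.unusedVariables false
set_option linter.style.haveILetI false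
set_option maxHeartbeats 1600000
set_option synthInstance.maxHeartbeats 400000

noncomputable section

namespace Fermat.Agent.Lib.S59

open IsLocalRing MvPowerSeries CuspForm
open Fermat.Agent.Lib.Deform (IsTestAlgebra)

local notation "Γℚ" => (AlgebraicClosure ℚ ≃ₐ[ℚ] AlgebraicClosure ℚ)

/-! ### Transport of a level -/

section Transport

variable {S A R R₁ : Type} [CommRing S] [CommRing A] [CommRing R] [CommRing R₁]
  {M M₁ : Type} [AddCommGroup M] [Module R M] [AddCommGroup M₁] [Module R₁ M₁] {𝔞 J : Ideal S}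

/-- transport of a level along a surjection `f : R → R₁` and an `f`-semilinear isomorphism
`e : M ≃ M₁`. -/
def s59e_levelTransport (L : s59p_Level S A R M 𝔞 J) (f : R →+* R₁)
    (hf : Function.Surjective f) (e : M ≃+ M₁) (he : ∀ r x, e (r • x) = f r • e x) :
    s59p_Level S A R₁ M₁ 𝔞 J where
  N := L.N
  instAddCommGroup := L.instAddCommGroup
  instModule := L.instModule
  φ := L.φ
  ψ := f.comp L.ψ
  ψ_surjective := hf.comp L.ψ_surjective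
  ψ_φ := fun s hs => by rw [RingHom.comp_apply, L.ψ_φ s hs, map_zero]
  π := e.toAddMonoidHom.comp L.π
  π_smul := fun a x => by
    show e (L.π (a • x)) = f (L.ψ a) • e (L.π x)
    rw [L.π_smul, he]
  π_surjective := e.surjective.comp L.π_surjective
  ker_π := fun x => by
    rw [← L.ker_π]
    show e (L.π x) = 0 ↔ _
    exact e.map_eq_zero_iff
  d := L.d
  b := L.b
  b_span := L.b_span
  b_rel := L.b_rel

end Transport

/-! ### The abstract base data -/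

section Base

variable (p : ℕ) [hp : Fact p.Prime]
  (𝒪 : Type) [CommRing 𝒪] [IsDomain 𝒪] [IsDiscreteValuationRing 𝒪]
  [IsAdicComplete (maximalIdeal 𝒪) 𝒪] [Finite (ResidueField 𝒪)]
  (N : ℕ) [NeZero N] (B : Finset ℕ) (a : ℕ → ℤ) (m : ℕ)
  (ρbar : ResidualGaloisRep (ResidueField 𝒪)) (qB : Fin m → ℕ)

/-- **the abstract data at the base level.**  `Y` is the `ε`-part of `H_par(Γ_{H₀}(N), 𝒪)` with the action `ρΔ` of
the diamond group `Δ`; `R'` is the Hecke ring acting on `Y` (with its Galois representation `ρR'`, Frobenius traces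
`tR' ℓ`); `R` (type `1`, unipotent at the `qB j`) is a quotient of `R'` acting on `M ≅ Y^Δ`; `χ` is the character of
type `χ`. -/
structure s59e_BaseD : Type 1 where
  ϖ : 𝒪
  hϖ : ϖ ∈ maximalIdeal 𝒪
  Δ : Type
  [iΔ1 : CommGroup Δ]
  [iΔ2 : Fintype Δ]
  Y : Type
  [iY1 : AddCommGroup Y]
  [iY2 : Module 𝒪 Y]
  ρΔ : Δ →* Module.End 𝒪 Y
  χ : Δ →* 𝒪ˣ
  hχϖ : ∀ δ : Δ, ((χ δ : 𝒪ˣ) : 𝒪) - 1 ∈ (Ideal.span {ϖ} : Ideal 𝒪)
  R' : Type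
  [iR'1 : CommRing R']
  [iR'2 : IsLocalRing R']
  [iR'3 : IsNoetherianRing R']
  [iR'4 : IsAdicComplete (maximalIdeal R') R']
  [iR'5 : Algebra 𝒪 R']
  [iR'6 : Module R' Y]
  [iR'7 : IsScalarTower 𝒪 R' Y]
  hRρ : ∀ (t : R') (δ : Δ) (y : Y), t • ρΔ δ y = ρΔ δ (t • y)
  hM'fin : Module.Finite R' (s59t_EigT ρΔ ⊤ χ hRρ)
  hM'nt : Nontrivial (s59t_EigT ρΔ ⊤ χ hRρ)
  R : Type
  [iR1 : CommRing R]
  [iR2 : IsLocalRing R]
  [iR3 : IsNoetherianRing R]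
  [iR4 : IsAdicComplete (maximalIdeal R) R]
  [iR5 : Algebra 𝒪 R]
  [iR6 : Module.Finite 𝒪 R]
  [iR7 : IsLocalHom (algebraMap 𝒪 R)]
  M : Type
  [iM1 : AddCommGroup M]
  [iM2 : Module R M]
  [iM3 : Module.Finite R M]
  f : R' →ₐ[𝒪] R
  hf : Function.Surjective f
  hfl : IsLocalHom (f : R' →+* R)
  e : s59t_EigT ρΔ ⊤ (1 : Δ →* 𝒪ˣ) hRρ ≃+ M
  he : ∀ (t : R') (x : s59t_EigT ρΔ ⊤ (1 : Δ →* 𝒪ˣ) hRρ), e (t • x) = f t • e x
  ρR' : GaloisRepAdic R'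
  tR' : ℕ → R'
  hfrob' : ∀ (ℓ : ℕ), ℓ.Prime → ¬ ℓ ∣ N → ℓ ∉ (↑B : Set ℕ) →
    ∀ A : ValuationSubring (AlgebraicClosure ℚ), A.LiesOverPrime ℓ →
    ∀ g : Γℚ, A.IsFrobeniusAt g ℓ →
      LinearMap.charpoly (ρR'.ρ g) =
        Polynomial.X ^ 2 - Polynomial.C (tR' ℓ) * Polynomial.X + Polynomial.C ((ℓ : R'))
  hgenR' : Algebra.adjoin 𝒪 {x : R' | ∃ ℓ : ℕ, ℓ.Prime ∧ ¬ ℓ ∣ N ∧ ℓ ∉ (↑B : Set ℕ) ∧ x = tR' ℓ} = ⊤
  πR : heckeAlgebra N 2 (↑B : Set ℕ) →+* R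
  hπR : ∀ (ℓ : ℕ) (hℓ : ℓ.Prime) (hℓN : ¬ ℓ ∣ N) (hℓB : ℓ ∉ (↑B : Set ℕ)),
    πR (heckeAlgebra.T hℓ hℓN hℓB) = f (tR' ℓ)
  hπa : ∀ (ℓ : ℕ) (hℓ : ℓ.Prime) (hℓN : ¬ ℓ ∣ N) (hℓB : ℓ ∉ (↑B : Set ℕ)),
    πR (heckeAlgebra.T hℓ hℓN hℓB) - ((a ℓ : ℤ) : R) ∈ maximalIdeal R
  hresR : (ρR'.baseChangeAlong (f : R' →+* R) hfl).residual.IsEquiv
    (ρbar.baseChangeAlong (IsLocalRing.ResidueField.map (algebraMap 𝒪 R)))
  hunipR : ∀ j, (ρR'.baseChangeAlong (f : R' →+* R) hfl).IsUnipotentOnInertiaAt (qB j)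
  d : ℕ
  ι : Type
  [iι : Fintype ι]
  ζ : ι → Fin m → 𝒪
  ζ' : ι → Fin m → 𝒪
  hζ : ∀ i j, ζ i j * ζ' i j = 1
  hζq : ∀ i j, ζ i j ^ qB j = ζ i j
  hζne : ∀ i j, ζ i j ≠ ζ' i j
  hζm : ∀ i j, ζ i j - ζ' i j ∈ maximalIdeal 𝒪

attribute [instance] s59e_BaseD.iΔ1 s59e_BaseD.iΔ2 s59e_BaseD.iY1 s59e_BaseD.iY2 s59e_BaseD.iR'1
  s59e_BaseD.iR'2 s59e_BaseD.iR'3 s59e_BaseD.iR'4 s59e_BaseD.iR'5 s59e_BaseD.iR'6 s59e_BaseD.iR'7
  s59e_BaseD.iR1 s59e_BaseD.iR2 s59e_BaseD.iR3 s59e_BaseD.iR4 s59e_BaseD.iR5 s59e_BaseD.iR6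
  s59e_BaseD.iR7 s59e_BaseD.iM1 s59e_BaseD.iM2 s59e_BaseD.iM3 s59e_BaseD.iι

variable {p 𝒪 N B a m ρbar qB}

/-- **the `s59i_TBase` of the abstract base data.** -/
def s59e_BaseD.toTBase (D : s59e_BaseD 𝒪 N B a m ρbar qB) (r : ℕ) (σ : Type)
    [DecidableEq σ] [Fintype σ] (hp2 : p ≠ 2)
    (hpm : (p : 𝒪) ∈ maximalIdeal 𝒪) [CharZero 𝒪] :
    s59i_TBase 𝒪 N B a m r σ ρbar qB where
  ϖ := D.ϖ
  hϖ := D.hϖ
  R := D.R
  R' := D.R'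
  M := D.M
  M' := s59t_EigT D.ρΔ ⊤ D.χ D.hRρ
  iM'2 := inferInstance
  iM'3 := D.hM'fin
  iM'4 := D.hM'nt
  𝔞 := s59t_frameA σ (RingHom.ker (constantCoeff (σ := Fin r) (R := 𝒪)))
  h𝔞 := s59t_frameA_ker_isPrime σ
  h𝔞0 := fun k hk => s59t_natCast_mem_frameA σ k hk
  J := fun n => s59t_frameJ σ (s59t_JH 𝒪 p n r)
  hJ := fun n => s59t_frameJ_JH_le σ hp2 hpm n r
  πR := D.πR
  ρR := D.ρR'.baseChangeAlong (D.f : D.R' →+* D.R) D.hfl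
  hπa := D.hπa
  hfrob := fun ℓ hℓ hℓN hℓB A hA g hg => by
    rw [s59e_bc_charpoly, D.hfrob' ℓ hℓ hℓN hℓB A hA g hg, D.hπR ℓ hℓ hℓN hℓB]
    simp only [Polynomial.map_add, Polynomial.map_sub, Polynomial.map_mul, Polynomial.map_pow,
      Polynomial.map_X, Polynomial.map_C, RingHom.coe_coe, map_natCast, Polynomial.map_natCast]
  hresR := D.hresR
  hunipR := D.hunipR
  d := D.d
  d' := D.d
  ι := D.ι
  ζ := D.ζ
  ζ' := D.ζ'
  hζ := D.hζ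
  hζq := D.hζq
  hζne := D.hζne
  hζm := D.hζm
  κ := (algebraMap 𝒪 D.R).comp
    ((constantCoeff (σ := Fin r) (R := 𝒪)).comp (constantCoeff (σ := σ) (R := MvPowerSeries (Fin r) 𝒪)))

end Base

/-! ### The abstract level theorem -/

section Level

variable {p : ℕ} [hp : Fact p.Prime]
  {𝒪 : Type} [CommRing 𝒪] [IsDomain 𝒪] [IsDiscreteValuationRing 𝒪]
  [IsAdicComplete (maximalIdeal 𝒪) 𝒪] [Finite (ResidueField 𝒪)] [CharZero 𝒪]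
  {N : ℕ} [NeZero N] {B : Finset ℕ} {a : ℕ → ℤ} {m : ℕ}
  {ρbar : ResidualGaloisRep (ResidueField 𝒪)} {qB : Fin m → ℕ}

/-- the constant power series `algebraMap 𝒪 T⟦σ⟧ ϖ` lies in the maximal ideal. -/
theorem s59e_algebraMap_mem_maximalIdeal_mvPowerSeries (σ : Type) {T : Type} [CommRing T]
    [IsLocalRing T] [Algebra 𝒪 T] (ϖ : 𝒪) (h : algebraMap 𝒪 T ϖ ∈ maximalIdeal T) :
    algebraMap 𝒪 (MvPowerSeries σ T) ϖ ∈ maximalIdeal (MvPowerSeries σ T) := by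
  rw [mem_maximalIdeal, mem_nonunits_iff, MvPowerSeries.isUnit_iff_constantCoeff]
  rw [MvPowerSeries.algebraMap_apply, MvPowerSeries.constantCoeff_C]
  exact h

variable (D : s59e_BaseD 𝒪 N B a m ρbar qB) (r : ℕ) (σ : Type) [DecidableEq σ] [Fintype σ]
  (hp2 : p ≠ 2) (hpm : (p : 𝒪) ∈ maximalIdeal 𝒪) (σB : Fin m → Γℚ)
  {𝒟 : ∀ ⦃A : Type⦄ [CommRing A] [IsLocalRing A] [Algebra 𝒪 A], GaloisRepAdic A → Prop}
  (DQ : GaloisRep.DeformationRingData 𝒪 ρbar 𝒟) (n : ℕ)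
  -- the module data at level `n` (inputs of `s59t_TSide_level'`)
  {Δ' : Type} [CommGroup Δ'] [Fintype Δ'] {Y' : Type} [AddCommGroup Y'] [Module 𝒪 Y']
  (ρ' : Δ' →* Module.End 𝒪 Y') (Bq C : Subgroup Δ') [Fintype Bq] [Fintype C]
  (hCB : Function.Bijective (fun x : C × Bq => ((x.1 : Δ') * (x.2 : Δ'))))
  (b' : Fin D.d → Y') (hb' : Function.Bijective (s59t_evalMap ρ' b'))
  (π : Y' →ₗ[𝒪] D.Y)
  -- the rings
  (T' : Type) [CommRing T'] [IsLocalRing T'] [IsNoetherianRing T']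
  [IsAdicComplete (maximalIdeal T') T'] [Algebra 𝒪 T'] (hT' : IsTestAlgebra 𝒪 T')
  (T : Type) [CommRing T] [IsLocalRing T] [IsAdicComplete (maximalIdeal T) T] [Algebra 𝒪 T]
  [Algebra T' T] [IsScalarTower 𝒪 T' T] [Module.Finite T' T]
  (hlocT : ∀ x ∈ maximalIdeal T', algebraMap T' T x ∈ maximalIdeal T)
  [Module T Y'] [IsScalarTower 𝒪 T Y']
  (hTρ : ∀ (t : T) (δ : Δ') (y : Y'), t • ρ' δ y = ρ' δ (t • y))
  (dia : Bq →* T) (hdia : ∀ (β : Bq) (y : Y'), ρ' (β : Δ') y = dia β • y)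
  -- type 1
  (h2 : ∀ y ∈ s59t_eig ρ' C (1 : Δ' →* 𝒪ˣ), π y ∈ s59t_eig D.ρΔ ⊤ (1 : D.Δ →* 𝒪ˣ))
  (h3 : ∀ x ∈ s59t_eig D.ρΔ ⊤ (1 : D.Δ →* 𝒪ˣ), ∃ y ∈ s59t_eig ρ' C (1 : Δ' →* 𝒪ˣ), π y = x)
  (h4 : ∀ y ∈ s59t_eig ρ' C (1 : Δ' →* 𝒪ˣ), π y = 0 → y ∈ Submodule.span 𝒪
    {z : Y' | ∃ β ∈ Bq, ∃ y' ∈ s59t_eig ρ' C (1 : Δ' →* 𝒪ˣ), z = ρ' β y' - y'})
  -- type χ
  (χ' : Δ' →* 𝒪ˣ)
  (k2 : ∀ y ∈ s59t_eig ρ' C χ', π y ∈ s59t_eig D.ρΔ ⊤ D.χ)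
  (k3 : ∀ x ∈ s59t_eig D.ρΔ ⊤ D.χ, ∃ y ∈ s59t_eig ρ' C χ', π y = x)
  (k4 : ∀ y ∈ s59t_eig ρ' C χ', π y = 0 → y ∈ Submodule.span 𝒪
    {z : Y' | ∃ β ∈ Bq, ∃ y' ∈ s59t_eig ρ' C χ', z = ρ' β y' - y'})
  (hχ' : ∀ γ ∈ C, ((χ' γ : 𝒪ˣ) : 𝒪) - 1 ∈ (Ideal.span {D.ϖ} : Ideal 𝒪))
  -- the descent to the base level
  (ψ : T →ₐ[𝒪] D.R') (hψs : Function.Surjective ψ) (hψd : ∀ β, ψ (dia β) = 1)
  (hπψ : ∀ (t : T) (y : Y'), π (t • y) = ψ t • π y)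
  -- the Taylor–Wiles group
  (g : Fin r → Bq) (hcard : Nat.card Bq = (p ^ n) ^ r)
  (hgen : ∀ β : Bq, ∃ a : Fin r → ℕ, β = ∏ i, g i ^ a i) (hord : ∀ i, g i ^ (p ^ n) = 1)
  (huu : ∀ β : Bq, (dia β : T) - 1 ∈ maximalIdeal T)
  (hgenT : Algebra.adjoin T' (Set.range fun β : Bq => (dia β : T)) = ⊤)
  -- the Galois side
  (θ : DQ.R →ₐ[𝒪] T') (hθ : Function.Surjective θ)
  (Sn : Finset ℕ) (hSn : ∀ ℓ : ℕ, ℓ.Prime → ℓ ∉ Sn → ¬ ℓ ∣ N ∧ ℓ ∉ (↑B : Set ℕ))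
  (tT' : ℕ → T')
  (hfrobT : ∀ ℓ : ℕ, ℓ.Prime → ℓ ∉ Sn →
    ∀ A : ValuationSubring (AlgebraicClosure ℚ), A.LiesOverPrime ℓ →
    ∀ τ : Γℚ, A.IsFrobeniusAt τ ℓ →
      (LinearMap.charpoly (DQ.ρ.ρ τ)).map (θ : DQ.R →+* T') =
        Polynomial.X ^ 2 - Polynomial.C (tT' ℓ) * Polynomial.X + Polynomial.C ((ℓ : T')))
  (hψt : ∀ ℓ : ℕ, ℓ.Prime → ℓ ∉ Sn → ψ (algebraMap T' T (tT' ℓ)) = D.tR' ℓ)
  -- the Galois-theoretic fields, in final form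
  (hI1 : Module.annihilator T (s59t_EigT ρ' C (1 : Δ' →* 𝒪ˣ) hTρ) ≠ ⊤)
  (h1tr : ∀ j, algebraMap T' T (θ (s59i_cpTr DQ.ρ (σB j))) - 2 ∈
    Module.annihilator T (s59t_EigT ρ' C (1 : Δ' →* 𝒪ˣ) hTρ))
  (h1det : ∀ j, algebraMap T' T (θ (s59i_cpDt DQ.ρ (σB j))) - 1 ∈
    Module.annihilator T (s59t_EigT ρ' C (1 : Δ' →* 𝒪ˣ) hTρ))
  (hIχ : Module.annihilator T (s59t_EigT ρ' C χ' hTρ) ≠ ⊤)
  (hrad : ((Module.annihilator T (s59t_EigT ρ' C χ' hTρ)).comap (algebraMap T' T)).IsRadical)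
  (hχ : ∀ 𝔮 ∈ ((Module.annihilator T (s59t_EigT ρ' C χ' hTρ)).comap
      (algebraMap T' T)).minimalPrimes,
    (∀ o : 𝒪, o ≠ 0 → algebraMap 𝒪 T' o ∉ 𝔮) ∧
    ∃ i : D.ι, ∀ j, θ (s59i_cpTr DQ.ρ (σB j)) - algebraMap 𝒪 T' (D.ζ i j + D.ζ' i j) ∈ 𝔮 ∧
      θ (s59i_cpDt DQ.ρ (σB j)) - 1 ∈ 𝔮)
  (hC8 : ∀ i, ∃ τ ∈ maximalIdeal T',
    ((dia (s59t_hh p n g i) : T) - (dia (s59t_hh p n g i)⁻¹ : T)) ^ 2 - algebraMap T' T τ ∈
      Module.annihilator T (s59t_EigT ρ' C χ' hTρ))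

include hCB hb' h2 h3 h4 k2 k3 k4 hχ' hψs hψd hπψ hcard hgen hord huu hgenT hθ hSn hfrobT hψt hI1
  h1tr h1det hIχ hrad hχ hC8 hT' hlocT hdia in
/-- **the abstract level theorem.** -/
theorem s59e_TLevel_abs : Nonempty (s59i_TLevel (D.toTBase (p := p) r σ hp2 hpm) σB DQ n) := by
  classical
  obtain ⟨L0, L0', std, uu, hd, hd', hstd, hstd', hcong, huuv, hstdX, hstdz, hann1, hannχ, hψ1,
      hψ2, hκ1, hκ2⟩ :=
    s59t_TSide_level' (σ := σ) (ρ := D.ρΔ) (ρ' := ρ') (B := Bq) (C := C) hCB b' hb' π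
      (T := T) hTρ dia hdia h2 h3 h4 (R := D.R') D.hRρ ψ hψs hψd hπψ D.χ χ' k2 k3 k4
      (R' := D.R') D.hRρ ψ hψs hψd hπψ hp2 hpm g hcard hgen hord D.ϖ hχ'
      (s59t_JH 𝒪 p n r) rfl
  -- local homomorphisms
  have hθl : IsLocalHom (θ : DQ.R →+* T') := IsLocalHom.of_surjective _ hθ
  have hal : IsLocalHom (algebraMap T' T) :=
    ((IsLocalRing.local_hom_TFAE (algebraMap T' T)).out 0 2).mpr (by
      rw [Ideal.map_le_iff_le_comap]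
      exact fun x hx => hlocT x hx)
  have hψl : IsLocalHom (ψ : T →+* D.R') := IsLocalHom.of_surjective _ hψs
  -- the total map `DQ.R → R'`
  let F : DQ.R →+* D.R' := ((ψ : T →+* D.R').comp (algebraMap T' T)).comp (θ : DQ.R →+* T')
  have hFl : IsLocalHom F := by
    haveI := hθl
    haveI := hal
    haveI := hψl
    exact RingHom.isLocalHom_comp _ _
  have hFcp : ∀ γ : Γℚ, s59i_cpTr D.ρR' γ = F (s59i_cpTr DQ.ρ γ) ∧
      s59i_cpDt D.ρR' γ = F (s59i_cpDt DQ.ρ γ) := by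
    intro γ
    refine s59e_cp_compat F hFl DQ.ρ D.ρR' Sn ?_ γ
    intro ℓ hℓ hℓS A hA τ hτ
    obtain ⟨hℓN, hℓB⟩ := hSn ℓ hℓ hℓS
    rw [D.hfrob' ℓ hℓ hℓN hℓB A hA τ hτ]
    have h1 := hfrobT ℓ hℓ hℓS A hA τ hτ
    have h2 : (LinearMap.charpoly (DQ.ρ.ρ τ)).map F =
        ((LinearMap.charpoly (DQ.ρ.ρ τ)).map (θ : DQ.R →+* T')).map
          ((ψ : T →+* D.R').comp (algebraMap T' T)) := by
      rw [Polynomial.map_map]
    rw [h2, h1]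
    simp only [Polynomial.map_add, Polynomial.map_sub, Polynomial.map_mul, Polynomial.map_pow,
      Polynomial.map_X, Polynomial.map_C, RingHom.comp_apply, RingHom.coe_coe, map_natCast,
      Polynomial.map_natCast, hψt ℓ hℓ hℓS]
  -- `ϖ` in the maximal ideal of `T⟦σ⟧`
  have hϖT : algebraMap 𝒪 T D.ϖ ∈ maximalIdeal T := by
    rw [IsScalarTower.algebraMap_apply 𝒪 T' T]
    refine hlocT _ ?_
    haveI := hT'.isLocalHom
    exact map_nonunit (algebraMap 𝒪 T') _ D.hϖ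
  have hϖU := s59e_algebraMap_mem_maximalIdeal_mvPowerSeries (𝒪 := 𝒪) σ D.ϖ hϖT
  -- the inverse of `uu`
  have huuinv : ∀ i, (((uu i)⁻¹ : Tˣ) : T) = dia (s59t_hh p n g i)⁻¹ := by
    intro i
    have h1 : ((uu i : Tˣ) : T) * dia (s59t_hh p n g i)⁻¹ = 1 := by
      rw [huuv i, ← map_mul, mul_inv_cancel, map_one]
    exact (Units.inv_eq_of_mul_eq_one_right h1)
  refine ⟨{
    T' := T'
    hT' := hT'
    T := T
    hlocT := hlocT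
    θ := θ
    hθ := hθ
    L0 := s59e_levelTransport L0 (D.f : D.R' →+* D.R) D.hf D.e D.he
    L0' := L0'
    hd := hd
    hd' := hd'
    std := std
    hstd := hstd
    hstd' := hstd'
    hW0 := s59p_congW _ _ _ _ _ _ _ _ _ _ _ hϖU hϖU _ L0 L0' hcong
    uu := uu
    huu := fun i => by rw [huuv i]; exact huu _
    hgen := ?_
    hstdX := hstdX
    hstdz := hstdz
    I1 := Module.annihilator T (s59t_EigT ρ' C (1 : Δ' →* 𝒪ˣ) hTρ)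
    hI1 := hI1
    hann1 := hann1
    h1tr := h1tr
    h1det := h1det
    Iχ := Module.annihilator T (s59t_EigT ρ' C χ' hTρ)
    hIχ := hIχ
    hannχ := hannχ
    hrad := hrad
    hχ := hχ
    hC8 := fun i => by
      obtain ⟨τ, hτ, h⟩ := hC8 i
      exact ⟨τ, hτ, by rw [huuv i, huuinv i]; exact h⟩
    hτ := ?_
    hκ := ?_ }⟩
  · -- hgen
    rw [eq_top_iff, ← hgenT]
    refine Algebra.adjoin_le ?_
    rintro _ ⟨β, rfl⟩
    obtain ⟨e, he⟩ := hgen β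
    have hodd : Odd (p ^ n) := Odd.pow (hp.out.odd_of_ne_two hp2)
    have hg2 : ∀ i, g i = s59t_hh p n g i ^ 2 := by
      intro i
      obtain ⟨k, hk⟩ := hodd
      have h1 : (p ^ n + 1) / 2 * 2 = p ^ n + 1 := by omega
      unfold s59t_hh
      rw [← pow_mul, h1, pow_succ, hord i, one_mul]
    have h3 : (dia β : T) = ∏ i, ((uu i : Tˣ) : T) ^ (2 * e i) := by
      rw [he, map_prod]
      refine Finset.prod_congr rfl fun i _ => ?_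
      rw [huuv i, pow_mul, ← map_pow dia (s59t_hh p n g i) 2, ← hg2 i, ← map_pow dia (g i) (e i)]
    show (dia β : T) ∈ _
    rw [h3]
    refine Subalgebra.prod_mem _ fun i _ => Subalgebra.pow_mem _ ?_ _
    exact Algebra.subset_adjoin (Or.inl ⟨i, rfl⟩)
  · -- hτ
    intro γ
    show (D.f : D.R' →+* D.R) (L0.ψ _) = s59i_cpTr (D.ρR'.baseChangeAlong (D.f : D.R' →+* D.R) D.hfl) γ
    rw [hψ1, MvPowerSeries.constantCoeff_C, s59e_cpTr_map, (hFcp γ).1]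
    rfl
  · -- hκ
    intro x
    show (D.f : D.R' →+* D.R) (L0.ψ (L0.φ x)) = _
    rw [hκ1]
    show D.f (algebraMap 𝒪 D.R' _) = algebraMap 𝒪 D.R _
    rw [AlgHom.commutes]
    rfl

omit [Finite (ResidueField 𝒪)] [CharZero 𝒪] hp in
/-- **[DENS]: the descent `ψ : T → R'` is surjective** as soon as it is local and matches the Frobenius traces
outside a finite set `Sn` (the Frobenius traces at the primes of `Sn ∖ B` are recovered from the universal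
deformation by [CHAR-UNIQ]). -/
theorem s59e_psi_surj
    {T' : Type} [CommRing T'] [IsLocalRing T'] [Algebra 𝒪 T']
    {T : Type} [CommRing T] [IsLocalRing T] [Algebra 𝒪 T] [Algebra T' T]
    (hlocT : ∀ x ∈ maximalIdeal T', algebraMap T' T x ∈ maximalIdeal T)
    (ψ : T →ₐ[𝒪] D.R') (hψl : IsLocalHom (ψ : T →+* D.R'))
    (θ : DQ.R →ₐ[𝒪] T') (hθ : Function.Surjective θ)
    (Sn : Finset ℕ) (hSn : ∀ ℓ : ℕ, ℓ.Prime → ℓ ∉ Sn → ¬ ℓ ∣ N ∧ ℓ ∉ (↑B : Set ℕ))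
    (tT' : ℕ → T')
    (hfrobT : ∀ ℓ : ℕ, ℓ.Prime → ℓ ∉ Sn →
      ∀ A : ValuationSubring (AlgebraicClosure ℚ), A.LiesOverPrime ℓ →
      ∀ τ : Γℚ, A.IsFrobeniusAt τ ℓ →
        (LinearMap.charpoly (DQ.ρ.ρ τ)).map (θ : DQ.R →+* T') =
          Polynomial.X ^ 2 - Polynomial.C (tT' ℓ) * Polynomial.X + Polynomial.C ((ℓ : T')))
    (hψt : ∀ ℓ : ℕ, ℓ.Prime → ℓ ∉ Sn → ψ (algebraMap T' T (tT' ℓ)) = D.tR' ℓ) :
    Function.Surjective ψ := by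
  have hθl : IsLocalHom (θ : DQ.R →+* T') := IsLocalHom.of_surjective _ hθ
  have hal : IsLocalHom (algebraMap T' T) :=
    ((IsLocalRing.local_hom_TFAE (algebraMap T' T)).out 0 2).mpr (by
      rw [Ideal.map_le_iff_le_comap]
      exact fun x hx => hlocT x hx)
  let F : DQ.R →+* D.R' := ((ψ : T →+* D.R').comp (algebraMap T' T)).comp (θ : DQ.R →+* T')
  have hFl : IsLocalHom F := by
    haveI := hθl
    haveI := hal
    haveI := hψl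
    exact RingHom.isLocalHom_comp _ _
  have hFcp : ∀ γ : Γℚ, s59i_cpTr D.ρR' γ = F (s59i_cpTr DQ.ρ γ) := by
    intro γ
    refine (s59e_cp_compat F hFl DQ.ρ D.ρR' Sn ?_ γ).1
    intro ℓ hℓ hℓS A hA τ hτ
    obtain ⟨hℓN, hℓB⟩ := hSn ℓ hℓ hℓS
    rw [D.hfrob' ℓ hℓ hℓN hℓB A hA τ hτ]
    have h1 := hfrobT ℓ hℓ hℓS A hA τ hτ
    have h2 : (LinearMap.charpoly (DQ.ρ.ρ τ)).map F =
        ((LinearMap.charpoly (DQ.ρ.ρ τ)).map (θ : DQ.R →+* T')).map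
          ((ψ : T →+* D.R').comp (algebraMap T' T)) := by
      rw [Polynomial.map_map]
    rw [h2, h1]
    simp only [Polynomial.map_add, Polynomial.map_sub, Polynomial.map_mul, Polynomial.map_pow,
      Polynomial.map_X, Polynomial.map_C, RingHom.comp_apply, RingHom.coe_coe, map_natCast,
      Polynomial.map_natCast, hψt ℓ hℓ hℓS]
  have hrange : (⊤ : Subalgebra 𝒪 D.R') ≤ ψ.range := by
    rw [← D.hgenR']
    refine Algebra.adjoin_le ?_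
    rintro _ ⟨ℓ, hℓ, hℓN, hℓB, rfl⟩
    obtain ⟨A, τ, hA, hτ⟩ := Fermat.Agent.Lib.Frobenius.exists_isFrobeniusAt ℓ hℓ
    have h1 := s59i_cpTr_of_charpoly D.ρR' τ _ _ (D.hfrob' ℓ hℓ hℓN hℓB A hA τ hτ)
    rw [← h1, hFcp τ]
    exact ⟨algebraMap T' T (θ (s59i_cpTr DQ.ρ τ)), rfl⟩
  intro x
  obtain ⟨t, ht⟩ := hrange (Algebra.mem_top (x := x))
  exact ⟨t, ht⟩

end Level

end Fermat.Agent.Lib.S59
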