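/-
Programme (R) = S59, node (H2) (helper8), file 17: **the idempotent of a maximal ideal** of a finite
commutative algebra `A` over a complete noetherian local ring `𝒪` (Prelude: `A ≅ ∏_𝔫 A_𝔫`):
`e² = e`, `1 - e ∈ 𝔫`, `e ∈ 𝔫'` for every other maximal ideal, and every `t ∉ 𝔫` is invertible on the
`e`-part: `η t e = e`.  These are the `e`, `η` of `s59t_TW_wrap` / `s59t_H2`.
-/
import Mathlib
import Fermat.Prelude.Thm_Algebra_finite_maximalSpectrum_and_bijective_localization_of_module_finite

set_option autoImplicit false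

open IsLocalRing

namespace Fermat.Agent.Lib.S59

theorem s59t_exists_idem {𝒪 : Type} [CommRing 𝒪] [IsLocalRing 𝒪] [IsNoetherianRing 𝒪]
    [IsAdicComplete (maximalIdeal 𝒪) 𝒪] (A : Type) [CommRing A] [Algebra 𝒪 A]
    [Module.Finite 𝒪 A] (I : Ideal A) [hI : I.IsMaximal] :
    ∃ e : A, e * e = e ∧ 1 - e ∈ I ∧ (∀ J : Ideal A, J.IsMaximal → J ≠ I → e ∈ J) ∧
      ∀ t : A, t ∉ I → ∃ η : A, η * t * e = e := by
  classical
  obtain ⟨-, hbij, -, -⟩ :=
    Algebra.finite_maximalSpectrum_and_bijective_localization_of_module_finite (𝒪 := 𝒪) A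
  set Φ : A →+* ∀ J : MaximalSpectrum A, Localization.AtPrime J.asIdeal :=
    RingHom.pi fun J : MaximalSpectrum A => algebraMap A (Localization.AtPrime J.asIdeal) with hΦ
  have hΦapp : ∀ (x : A) (J : MaximalSpectrum A),
      Φ x J = algebraMap A (Localization.AtPrime J.asIdeal) x := fun _ _ => rfl
  let I₀ : MaximalSpectrum A := ⟨I, hI⟩
  obtain ⟨e, he⟩ := hbij.2 (Pi.single I₀ 1)
  have heI : algebraMap A (Localization.AtPrime I) e = 1 := by
    have := congrFun he I₀
    rw [hΦapp, Pi.single_eq_same] at this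
    exact this
  have heJ : ∀ J : MaximalSpectrum A, J ≠ I₀ →
      algebraMap A (Localization.AtPrime J.asIdeal) e = 0 := by
    intro J hJ
    have := congrFun he J
    rw [hΦapp, Pi.single_eq_of_ne hJ] at this
    exact this
  refine ⟨e, ?_, ?_, ?_, ?_⟩
  · apply hbij.1
    rw [map_mul, he]
    funext J
    by_cases hJ : J = I₀
    · subst hJ
      simp
    · simp [Pi.single_eq_of_ne hJ]
  · have h1 : algebraMap A (Localization.AtPrime I) (1 - e) ∈
        maximalIdeal (Localization.AtPrime I) := by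
      rw [map_sub, map_one, heI, sub_self]
      exact zero_mem _
    exact (IsLocalization.AtPrime.to_map_mem_maximal_iff (Localization.AtPrime I) I _).mp h1
  · intro J hJ hJI
    let J₀ : MaximalSpectrum A := ⟨J, hJ⟩
    have hne : J₀ ≠ I₀ := fun h => hJI (congrArg MaximalSpectrum.asIdeal h)
    have h1 : algebraMap A (Localization.AtPrime J) e ∈ maximalIdeal (Localization.AtPrime J) := by
      have := heJ J₀ hne
      rw [show algebraMap A (Localization.AtPrime J) e = 0 from this]
      exact zero_mem _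
    exact (IsLocalization.AtPrime.to_map_mem_maximal_iff (Localization.AtPrime J) J _).mp h1
  · intro t ht
    have hu : IsUnit (algebraMap A (Localization.AtPrime I) t) :=
      IsLocalization.map_units (Localization.AtPrime I) (⟨t, ht⟩ : I.primeCompl)
    obtain ⟨u, hu⟩ := hu
    obtain ⟨η, hη⟩ := hbij.2 (Pi.single I₀ ((u⁻¹ : (Localization.AtPrime I)ˣ) :
      Localization.AtPrime I))
    refine ⟨η, ?_⟩
    apply hbij.1
    rw [map_mul, map_mul, he, hη]
    funext J
    by_cases hJ : J = I₀
    · subst hJ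
      rw [Pi.mul_apply, Pi.mul_apply, Pi.single_eq_same, Pi.single_eq_same, hΦapp]
      show ((u⁻¹ : (Localization.AtPrime I)ˣ) : Localization.AtPrime I) *
        algebraMap A (Localization.AtPrime I) t * 1 = 1
      rw [← hu, mul_one, Units.inv_mul]
    · rw [Pi.mul_apply, Pi.mul_apply, Pi.single_eq_of_ne hJ, Pi.single_eq_of_ne hJ, mul_zero]

end Fermat.Agent.Lib.S59
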