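/-
Programme (R) = S59, node (H2) (helper8), file 22: **idempotents of a finite commutative algebra `A`
over a complete noetherian local ring `𝒪`, units and topological nilpotents** (via the Prelude
decomposition `A ≅ ∏_𝔫 A_𝔫`).  For an idempotent `f ∈ A`:
* `s59t_idem_unit` : if `t ∉ 𝔫` for every maximal `𝔫 ∌ f`, then `G t f = f` for some `G`;
* `s59t_idem_nil`  : if `t ∈ 𝔫` for every maximal `𝔫 ∌ f`, then `tⁿ f ∈ 𝔪_𝒪 A` for some `n`;
* `s59t_isAlpha_of_idem` : the resulting `a`-part projector (`TAlpha.lean`) for an action of `A`.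
-/
import Mathlib
import Fermat.Agent.Lib.S59.TIdem
import Fermat.Agent.Lib.S59.TCore
import Fermat.Agent.Lib.S59.TAlpha
import Fermat.Agent.Lib.S59.TWrap

set_option autoImplicit false
set_option linter.unusedSectionVars false
set_option linter.style.haveILetI false

open IsLocalRing

namespace Fermat.Agent.Lib.S59

theorem s59t_idem_zero_or_one {A : Type*} [CommRing A] [IsLocalRing A] (x : A)
    (h : x * x = x) : x = 0 ∨ x = 1 := by
  have h1 : x * (1 - x) = 0 := by rw [mul_sub, mul_one, h, sub_self]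
  rcases IsLocalRing.isUnit_or_isUnit_one_sub_self x with hu | hu
  · right
    have := hu.mul_right_eq_zero.mp h1
    exact (sub_eq_zero.mp this).symm
  · left
    exact hu.mul_left_eq_zero.mp h1

section Unit

variable (𝒪 : Type) [CommRing 𝒪] [IsLocalRing 𝒪] [IsNoetherianRing 𝒪]
  [IsAdicComplete (maximalIdeal 𝒪) 𝒪] (A : Type) [CommRing A] [Algebra 𝒪 A]
  [Module.Finite 𝒪 A]

include 𝒪

/-- **units on the `f`-part.** -/
theorem s59t_idem_unit (f t : A) (hf : f * f = f)
    (ht : ∀ J : Ideal A, J.IsMaximal → f ∉ J → t ∉ J) : ∃ G : A, G * t * f = f := by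
  classical
  obtain ⟨-, hbij, -, -⟩ :=
    Algebra.finite_maximalSpectrum_and_bijective_localization_of_module_finite (𝒪 := 𝒪) A
  set Φ : A →+* ∀ J : MaximalSpectrum A, Localization.AtPrime J.asIdeal :=
    RingHom.pi fun J : MaximalSpectrum A => algebraMap A (Localization.AtPrime J.asIdeal) with hΦ
  have hΦapp : ∀ (x : A) (J : MaximalSpectrum A),
      Φ x J = algebraMap A (Localization.AtPrime J.asIdeal) x := fun _ _ => rfl
  -- the components of `f`
  have hfJ : ∀ J : MaximalSpectrum A,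
      (f ∈ J.asIdeal ∧ algebraMap A (Localization.AtPrime J.asIdeal) f = 0) ∨
      (f ∉ J.asIdeal ∧ algebraMap A (Localization.AtPrime J.asIdeal) f = 1) := by
    intro J
    have hid : algebraMap A (Localization.AtPrime J.asIdeal) f *
        algebraMap A (Localization.AtPrime J.asIdeal) f =
        algebraMap A (Localization.AtPrime J.asIdeal) f := by rw [← map_mul, hf]
    have hiff := IsLocalization.AtPrime.to_map_mem_maximal_iff
      (Localization.AtPrime J.asIdeal) J.asIdeal f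
    rcases s59t_idem_zero_or_one _ hid with h0 | h1
    · left
      refine ⟨hiff.mp ?_, h0⟩
      rw [h0]
      exact zero_mem _
    · right
      refine ⟨fun hmem => ?_, h1⟩
      have := hiff.mpr hmem
      rw [h1] at this
      exact (Ideal.ne_top_iff_one _).mp (IsLocalRing.maximalIdeal.isMaximal _).ne_top this
  -- the inverse of `t` at the places where `f = 1`
  have hinv : ∀ J : MaximalSpectrum A, ∃ g : Localization.AtPrime J.asIdeal,
      g * algebraMap A (Localization.AtPrime J.asIdeal) t *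
        algebraMap A (Localization.AtPrime J.asIdeal) f =
        algebraMap A (Localization.AtPrime J.asIdeal) f := by
    intro J
    rcases hfJ J with ⟨-, h0⟩ | ⟨hmem, h1⟩
    · exact ⟨0, by rw [h0, mul_zero]⟩
    · have hu : IsUnit (algebraMap A (Localization.AtPrime J.asIdeal) t) :=
        IsLocalization.map_units (Localization.AtPrime J.asIdeal)
          (⟨t, ht J.asIdeal J.isMaximal hmem⟩ : J.asIdeal.primeCompl)
      obtain ⟨u, hu⟩ := hu
      refine ⟨((u⁻¹ : (Localization.AtPrime J.asIdeal)ˣ) : Localization.AtPrime J.asIdeal), ?_⟩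
      rw [← hu, Units.inv_mul, one_mul]
  choose g hg using hinv
  obtain ⟨G, hG⟩ := hbij.2 g
  refine ⟨G, ?_⟩
  apply hbij.1
  funext J
  rw [map_mul, map_mul, hG, Pi.mul_apply, Pi.mul_apply]
  exact hg J

/-- **topological nilpotents on the `f`-part.** -/
theorem s59t_idem_nil (f t : A) (hf : f * f = f)
    (ht : ∀ J : Ideal A, J.IsMaximal → f ∉ J → t ∈ J) :
    ∃ n : ℕ, t ^ n * f ∈ (maximalIdeal 𝒪 • ⊤ : Submodule 𝒪 A) := by
  classical
  haveI : Module.Finite (ResidueField 𝒪) (s59t_Q 𝒪 A) := s59t_finite_Q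
  -- multiplication by `τ = t f` on `A / 𝔪 A`
  obtain ⟨τ, hτ⟩ : ∃ τ : A, τ = t * f := ⟨_, rfl⟩
  let φ : s59t_Q 𝒪 A →ₗ[ResidueField 𝒪] s59t_Q 𝒪 A := s59t_red (LinearMap.mulLeft 𝒪 τ)
  have hφpow : ∀ (j : ℕ) (x : A), (φ ^ j) (s59t_mk 𝒪 A x) = s59t_mk 𝒪 A (τ ^ j * x) := by
    intro j
    induction j with
    | zero => intro x; simp
    | succ j ih =>
      intro x
      rw [pow_succ, Module.End.mul_apply]
      have : φ (s59t_mk 𝒪 A x) = s59t_mk 𝒪 A (τ * x) := rfl
      rw [this, ih, pow_succ, mul_assoc]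
  obtain ⟨n, hn⟩ := IsArtinian.monotone_stabilizes φ.iterateRange
  have h1 := hn (n + 1) (Nat.le_succ n)
  rw [LinearMap.iterateRange_coe, LinearMap.iterateRange_coe] at h1
  have h2 : (φ ^ n) (s59t_mk 𝒪 A 1) ∈ LinearMap.range (φ ^ (n + 1)) := by
    have h3 : (φ ^ n) (s59t_mk 𝒪 A 1) ∈ LinearMap.range (φ ^ n) := LinearMap.mem_range_self _ _
    have h4 : (LinearMap.range (φ ^ n) : Submodule (ResidueField 𝒪) (s59t_Q 𝒪 A)) =
        LinearMap.range (φ ^ (n + 1)) := congrArg OrderDual.ofDual h1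
    rw [h4] at h3
    exact h3
  obtain ⟨ybar, hy⟩ := h2
  obtain ⟨y, rfl⟩ := s59t_mk_surjective ybar
  rw [hφpow, hφpow, mul_one, s59t_mk_eq_mk] at hy
  -- `τ^n (1 - τ y) ∈ 𝔪 A`
  have hmem : τ ^ n - τ ^ (n + 1) * y ∈ (maximalIdeal 𝒪 • ⊤ : Submodule 𝒪 A) := by
    have := Submodule.neg_mem _ hy
    rwa [neg_sub] at this
  -- `r = 1 - t (f y)` is a unit on the `f`-part
  have hr : ∀ J : Ideal A, J.IsMaximal → f ∉ J → (1 - t * (f * y)) ∉ J := by
    intro J hJ hfJ hmemJ
    have h5 : t * (f * y) ∈ J := J.mul_mem_right _ (ht J hJ hfJ)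
    have h6 : (1 : A) ∈ J := by
      have := J.add_mem hmemJ h5
      rwa [sub_add_cancel] at this
    exact hJ.ne_top ((Ideal.eq_top_iff_one J).mpr h6)
  obtain ⟨G, hG⟩ := s59t_idem_unit 𝒪 A f (1 - t * (f * y)) hf hr
  refine ⟨n, ?_⟩
  -- `t^n f = G * f * (τ^n - τ^(n+1) y)`
  have hτpow : ∀ j : ℕ, f * τ ^ j = t ^ j * f := by
    intro j
    induction j with
    | zero => simp
    | succ j ih =>
      rw [pow_succ, ← mul_assoc, ih, hτ, pow_succ]
      calc t ^ j * f * (t * f) = t ^ j * t * (f * f) := by ring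
        _ = t ^ j * t * f := by rw [hf]
  have hkey : t ^ n * f = (G * f) * (τ ^ n - τ ^ (n + 1) * y) := by
    have e1 : (G * f) * (τ ^ n - τ ^ (n + 1) * y) =
        G * ((f * τ ^ n) - (f * τ ^ (n + 1)) * y) := by ring
    rw [e1, hτpow, hτpow, pow_succ]
    calc t ^ n * f = t ^ n * (G * (1 - t * (f * y)) * f) := by rw [hG]
      _ = G * (t ^ n * f - t ^ n * t * f * y) := by
        have : f * f * y = f * y := by rw [hf]
        linear_combination (-(t ^ n) * G * t) * this
  rw [hkey]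
  have hideal : ((maximalIdeal 𝒪 • ⊤ : Submodule 𝒪 A) : Set A) =
      ((maximalIdeal 𝒪).map (algebraMap 𝒪 A) : Set A) := by
    rw [Ideal.smul_top_eq_map]
    rfl
  have h7 : τ ^ n - τ ^ (n + 1) * y ∈ (maximalIdeal 𝒪).map (algebraMap 𝒪 A) := by
    have : τ ^ n - τ ^ (n + 1) * y ∈ ((maximalIdeal 𝒪 • ⊤ : Submodule 𝒪 A) : Set A) := hmem
    rw [hideal] at this
    exact this
  have h8 : (G * f) * (τ ^ n - τ ^ (n + 1) * y) ∈ (maximalIdeal 𝒪).map (algebraMap 𝒪 A) :=
    Ideal.mul_mem_left _ _ h7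
  have : (G * f) * (τ ^ n - τ ^ (n + 1) * y) ∈
      (((maximalIdeal 𝒪).map (algebraMap 𝒪 A) : Ideal A) : Set A) := h8
  rw [← hideal] at this
  exact this

end Unit

section Alpha

variable (𝒪 : Type) [CommRing 𝒪] [IsLocalRing 𝒪] [IsNoetherianRing 𝒪]
  [IsAdicComplete (maximalIdeal 𝒪) 𝒪] (A : Type) [CommRing A] [Algebra 𝒪 A]
  [Module.Finite 𝒪 A] {Z : Type*} [AddCommGroup Z] [Module 𝒪 Z]
  (act : A →ₐ[𝒪] Module.End 𝒪 Z)

theorem s59t_act_comm (x y : A) (z : Z) : act x (act y z) = act y (act x z) := by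
  rw [← Module.End.mul_apply, ← Module.End.mul_apply, ← map_mul, ← map_mul, mul_comm]

/-- the operator of `x ∈ A` on the `ε`-part. -/
noncomputable def s59t_actPart (ε x : A) : Module.End 𝒪 (s59t_part (act ε)) :=
  s59t_partMap (ε := act ε) (ε' := act ε) (act x) (fun z => s59t_act_comm 𝒪 A act ε x z)

theorem s59t_actPart_coe (ε x : A) (z : s59t_part (act ε)) :
    ((s59t_actPart 𝒪 A act ε x z : s59t_part (act ε)) : Z) = act x (z : Z) := rfl

theorem s59t_actPart_sub_pow (ε u : A) (a : 𝒪) (n : ℕ) (z : s59t_part (act ε)) :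
    ((((s59t_actPart 𝒪 A act ε u - a • 1) ^ n) z : s59t_part (act ε)) : Z) =
      act ((u - algebraMap 𝒪 A a) ^ n) (z : Z) := by
  induction n generalizing z with
  | zero => simp
  | succ n ih =>
    rw [pow_succ, Module.End.mul_apply, ih, pow_succ, map_mul, Module.End.mul_apply]
    congr 1
    rw [LinearMap.sub_apply, LinearMap.smul_apply, Module.End.one_apply, Submodule.coe_sub,
      Submodule.coe_smul, s59t_actPart_coe, map_sub, AlgHom.commutes, LinearMap.sub_apply,
      Module.algebraMap_end_apply]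

include 𝒪 in
/-- **the `a`-part projector from an idempotent** `e ≤ ε` of `A`: `u - a` lies in every maximal
ideal not containing `e`, and in no maximal ideal not containing `ε - e`. -/
theorem s59t_isAlpha_of_idem (u ε e : A) (a : 𝒪) (hε : ε * ε = ε) (he : e * e = e)
    (heε : e * ε = e)
    (hnil : ∀ J : Ideal A, J.IsMaximal → e ∉ J → u - algebraMap 𝒪 A a ∈ J)
    (hunit : ∀ J : Ideal A, J.IsMaximal → ε - e ∉ J → u - algebraMap 𝒪 A a ∉ J) :
    s59t_IsAlpha (s59t_actPart 𝒪 A act ε u) a (s59t_actPart 𝒪 A act ε e) := by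
  have hεε : act ε * act ε = act ε := by rw [← map_mul, hε]
  have hfix : ∀ z : s59t_part (act ε), act ε (z : Z) = z := fun z =>
    (s59t_mem_part hεε _).mp z.2
  refine ⟨?_, ?_, ?_, ?_⟩
  · refine LinearMap.ext fun z => Subtype.ext ?_
    rw [Module.End.mul_apply, s59t_actPart_coe, s59t_actPart_coe, ← Module.End.mul_apply,
      ← map_mul, he]
  · refine LinearMap.ext fun z => Subtype.ext ?_
    rw [Module.End.mul_apply, Module.End.mul_apply, s59t_actPart_coe, s59t_actPart_coe,
      s59t_actPart_coe, s59t_actPart_coe]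
    exact s59t_act_comm 𝒪 A act e u _
  · obtain ⟨n, hn⟩ := s59t_idem_nil 𝒪 A e (u - algebraMap 𝒪 A a) he hnil
    refine ⟨n, fun z => ?_⟩
    rw [s59t_part_smul_top_iff (maximalIdeal 𝒪) hεε, s59t_actPart_sub_pow, s59t_actPart_coe,
      ← Module.End.mul_apply, ← map_mul]
    let g : A →ₗ[𝒪] Z :=
      { toFun := fun x => act x (z : Z)
        map_add' := fun x y => by rw [map_add, LinearMap.add_apply]
        map_smul' := fun c x => by rw [map_smul, LinearMap.smul_apply, RingHom.id_apply] }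
    exact s59t_map_pow_smul' (maximalIdeal 𝒪) g _ hn
  · intro z
    have hff : (ε - e) * (ε - e) = ε - e := by
      have h1 : ε * e = e := by rw [mul_comm]; exact heε
      calc (ε - e) * (ε - e) = ε * ε - ε * e - e * ε + e * e := by ring
        _ = ε - e := by rw [hε, h1, heε, he]; ring
    obtain ⟨G, hG⟩ := s59t_idem_unit 𝒪 A (ε - e) (u - algebraMap 𝒪 A a) hff hunit
    have hcompl : ∀ y : s59t_part (act ε),
        (((1 - s59t_actPart 𝒪 A act ε e) y : s59t_part (act ε)) : Z) = act (ε - e) (y : Z) := by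
      intro y
      rw [LinearMap.sub_apply, Module.End.one_apply, Submodule.coe_sub, s59t_actPart_coe, map_sub,
        LinearMap.sub_apply, hfix]
    refine ⟨s59t_actPart 𝒪 A act ε G z, Subtype.ext ?_⟩
    have h1 := s59t_actPart_sub_pow 𝒪 A act ε u a 1
      ((1 - s59t_actPart 𝒪 A act ε e) (s59t_actPart 𝒪 A act ε G z))
    rw [pow_one, pow_one] at h1
    rw [h1, hcompl, hcompl, s59t_actPart_coe, ← Module.End.mul_apply, ← Module.End.mul_apply,
      ← map_mul, ← map_mul]
    congr 2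
    linear_combination hG

end Alpha

end Fermat.Agent.Lib.S59
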