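/-
Programme (R) = S59, node (H2) (helper8), file 41: **the localisation idempotent of a Hecke
algebra acting on finite `𝒪`-modules, in the form consumed by `s59t_H2` / (H3).**

`𝕋` ANY commutative `𝒪`-algebra (a polynomial ring on formal Hecke operators, an abstract Hecke
algebra, …), `act : 𝕋 →ₐ[𝒪] E` with `E` a finite `𝒪`-algebra (`End_𝒪 Z`, or a product of such),
`𝔫 ⊂ 𝕋` a maximal ideal containing `ker act`.  Then there is `e ∈ 𝕋` with `1 - e ∈ 𝔫`,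
`act e` idempotent, every `t ∈ 𝔫` topologically nilpotent on the `e`-part and every `t ∉ 𝔫`
invertible on the `e`-part.  Since `ε := act e` is in the image of `𝕋`, it commutes with everything
commuting with `act 𝕋`.
-/
import Mathlib
import Fermat.Agent.Lib.S59.TIdem2

set_option autoImplicit false
set_option linter.unusedSectionVars false
set_option linter.style.haveILetI false

open IsLocalRing

namespace Fermat.Agent.Lib.S59

section HeckeIdem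

variable {𝒪 : Type} [CommRing 𝒪] [IsLocalRing 𝒪] [IsNoetherianRing 𝒪]
  [IsAdicComplete (maximalIdeal 𝒪) 𝒪] {𝕋 : Type} [CommRing 𝕋] [Algebra 𝒪 𝕋]

/-- **core**: the idempotent of `𝔫` for an action through a finite `𝒪`-algebra `E`. -/
theorem s59t_exists_idem_alg {E : Type} [Ring E] [Algebra 𝒪 E] [Module.Finite 𝒪 E]
    (act : 𝕋 →ₐ[𝒪] E) (𝔫 : Ideal 𝕋) [h𝔫m : 𝔫.IsMaximal] (h𝔫 : RingHom.ker act ≤ 𝔫) :
    ∃ e : 𝕋, 1 - e ∈ 𝔫 ∧ act e * act e = act e ∧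
      (∀ t ∈ 𝔫, ∃ n : ℕ, act (t ^ n * e) ∈ (maximalIdeal 𝒪 • ⊤ : Submodule 𝒪 E)) ∧
      (∀ t, t ∉ 𝔫 → ∃ η : 𝕋, act (η * t * e) = act e) := by
  classical
  obtain ⟨K, hK⟩ : ∃ K : Ideal 𝕋, K = RingHom.ker act := ⟨_, rfl⟩
  have hKle : K ≤ 𝔫 := hK ▸ h𝔫
  let ā : (𝕋 ⧸ K) →ₐ[𝒪] E := Ideal.Quotient.liftₐ K act (fun a ha => by
    rw [hK] at ha
    exact ha)
  have hāmk : ∀ t : 𝕋, ā (Ideal.Quotient.mk K t) = act t := fun t => rfl
  have hāinj : Function.Injective ā := by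
    rw [injective_iff_map_eq_zero]
    intro x hx
    obtain ⟨t, rfl⟩ := Ideal.Quotient.mk_surjective x
    rw [hāmk] at hx
    rw [Ideal.Quotient.eq_zero_iff_mem, hK]
    exact hx
  haveI : Module.Finite 𝒪 (𝕋 ⧸ K) := Module.Finite.of_injective ā.toLinearMap hāinj
  have hmem : ∀ t : 𝕋, Ideal.Quotient.mk K t ∈ 𝔫.map (Ideal.Quotient.mk K) ↔ t ∈ 𝔫 :=
    fun t => Ideal.mem_quotient_iff_mem hKle
  haveI hmax : (𝔫.map (Ideal.Quotient.mk K)).IsMaximal := by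
    rcases Ideal.map_eq_top_or_isMaximal_of_surjective (Ideal.Quotient.mk K)
      Ideal.Quotient.mk_surjective h𝔫m with h | h
    · exfalso
      have h1 : Ideal.Quotient.mk K (1 : 𝕋) ∈ 𝔫.map (Ideal.Quotient.mk K) := by
        rw [h]
        exact Submodule.mem_top
      exact h𝔫m.ne_top ((Ideal.eq_top_iff_one _).mpr ((hmem 1).mp h1))
    · exact h
  obtain ⟨eb, hee, h1e, hother, hunit⟩ :=
    s59t_exists_idem (𝒪 := 𝒪) (𝕋 ⧸ K) (𝔫.map (Ideal.Quotient.mk K))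
  obtain ⟨e, rfl⟩ := Ideal.Quotient.mk_surjective eb
  refine ⟨e, ?_, ?_, ?_, ?_⟩
  · rw [← hmem, map_sub, map_one]
    exact h1e
  · rw [← hāmk, ← map_mul, hee]
  · intro t ht
    have ht' : ∀ J : Ideal (𝕋 ⧸ K), J.IsMaximal → Ideal.Quotient.mk K e ∉ J →
        Ideal.Quotient.mk K t ∈ J := by
      intro J hJ heJ
      have hJ𝔫 : J = 𝔫.map (Ideal.Quotient.mk K) := by
        by_contra hne
        exact heJ (hother J hJ hne)
      rw [hJ𝔫]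
      exact (hmem t).mpr ht
    obtain ⟨n, hn⟩ := s59t_idem_nil 𝒪 (𝕋 ⧸ K) (Ideal.Quotient.mk K e) (Ideal.Quotient.mk K t)
      hee ht'
    refine ⟨n, ?_⟩
    have h2 := s59t_map_pow_smul' (maximalIdeal 𝒪) ā.toLinearMap _ hn
    have h3 : ā.toLinearMap (Ideal.Quotient.mk K t ^ n * Ideal.Quotient.mk K e) =
        act (t ^ n * e) := by
      rw [← map_pow, ← map_mul]
      rfl
    rw [h3] at h2
    exact h2
  · intro t ht
    have ht' : Ideal.Quotient.mk K t ∉ 𝔫.map (Ideal.Quotient.mk K) := fun h => ht ((hmem t).mp h)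
    obtain ⟨ηb, hη⟩ := hunit _ ht'
    obtain ⟨η, rfl⟩ := Ideal.Quotient.mk_surjective ηb
    refine ⟨η, ?_⟩
    have h4 : Ideal.Quotient.mk K (η * t * e) = Ideal.Quotient.mk K e := by
      rw [map_mul, map_mul]
      exact hη
    rw [← hāmk, h4, hāmk]

/-- non-vanishing of the `e`-part on every module on which `𝔫` occurs. -/
theorem s59t_idem_ne_zero {E : Type} [Ring E] [Algebra 𝒪 E]
    (act : 𝕋 →ₐ[𝒪] E) (𝔫 : Ideal 𝕋) [h𝔫m : 𝔫.IsMaximal] (h𝔫 : RingHom.ker act ≤ 𝔫)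
    (e : 𝕋) (he : 1 - e ∈ 𝔫) : act e ≠ 0 := by
  intro h0
  have h1 : e ∈ 𝔫 := h𝔫 h0
  have h2 : (1 : 𝕋) ∈ 𝔫 := by
    have := 𝔫.add_mem he h1
    rwa [sub_add_cancel] at this
  exact h𝔫m.ne_top ((Ideal.eq_top_iff_one _).mpr h2)

variable {Z : Type} [AddCommGroup Z] [Module 𝒪 Z] [Module.Finite 𝒪 Z]

/-- **the Hecke idempotent on one module.** -/
theorem s59t_exists_hecke_idem (act : 𝕋 →ₐ[𝒪] Module.End 𝒪 Z) (𝔫 : Ideal 𝕋) [h𝔫m : 𝔫.IsMaximal]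
    (h𝔫 : RingHom.ker act ≤ 𝔫) :
    ∃ e : 𝕋, 1 - e ∈ 𝔫 ∧ act e * act e = act e ∧ act e ≠ 0 ∧
      (∀ t ∈ 𝔫, ∃ n : ℕ, ∀ z : Z,
        ((act t) ^ n) (act e z) ∈ (maximalIdeal 𝒪 • ⊤ : Submodule 𝒪 Z)) ∧
      (∀ t, t ∉ 𝔫 → ∃ η : 𝕋, act (η * t * e) = act e) := by
  obtain ⟨e, h1e, hee, hnil, hunit⟩ := s59t_exists_idem_alg act 𝔫 h𝔫
  refine ⟨e, h1e, hee, s59t_idem_ne_zero act 𝔫 h𝔫 e h1e, ?_, hunit⟩
  intro t ht
  obtain ⟨n, hn⟩ := hnil t ht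
  refine ⟨n, fun z => ?_⟩
  have h2 := s59t_map_pow_smul' (maximalIdeal 𝒪) (LinearMap.applyₗ (R := 𝒪) z) _ hn
  have h3 : LinearMap.applyₗ (R := 𝒪) z (act (t ^ n * e)) = ((act t) ^ n) (act e z) := by
    rw [map_mul, map_pow]
    rfl
  rw [h3] at h2
  exact h2

variable {Z' : Type} [AddCommGroup Z'] [Module 𝒪 Z'] [Module.Finite 𝒪 Z']

/-- **the Hecke idempotent on two modules simultaneously** (the `e`, `η` of `s59t_H2`). -/
theorem s59t_exists_hecke_idem₂ (act : 𝕋 →ₐ[𝒪] Module.End 𝒪 Z)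
    (act' : 𝕋 →ₐ[𝒪] Module.End 𝒪 Z') (𝔫 : Ideal 𝕋) [h𝔫m : 𝔫.IsMaximal]
    (h𝔫 : RingHom.ker act ⊓ RingHom.ker act' ≤ 𝔫) :
    ∃ e : 𝕋, 1 - e ∈ 𝔫 ∧ act e * act e = act e ∧ act' e * act' e = act' e ∧
      (∀ t ∈ 𝔫, ∃ n : ℕ, (∀ z : Z,
        ((act t) ^ n) (act e z) ∈ (maximalIdeal 𝒪 • ⊤ : Submodule 𝒪 Z)) ∧ ∀ z : Z',
        ((act' t) ^ n) (act' e z) ∈ (maximalIdeal 𝒪 • ⊤ : Submodule 𝒪 Z')) ∧
      (∀ t, t ∉ 𝔫 → ∃ η : 𝕋, act (η * t * e) = act e ∧ act' (η * t * e) = act' e) := by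
  have hker : RingHom.ker (act.prod act') ≤ 𝔫 := by
    intro t ht
    refine h𝔫 ⟨?_, ?_⟩
    · exact congrArg Prod.fst (show (act.prod act') t = 0 from ht)
    · exact congrArg Prod.snd (show (act.prod act') t = 0 from ht)
  obtain ⟨e, h1e, hee, hnil, hunit⟩ := s59t_exists_idem_alg (act.prod act') 𝔫 hker
  refine ⟨e, h1e, congrArg Prod.fst hee, congrArg Prod.snd hee, ?_, ?_⟩
  · intro t ht
    obtain ⟨n, hn⟩ := hnil t ht
    refine ⟨n, fun z => ?_, fun z => ?_⟩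
    · have h2 := s59t_map_pow_smul' (maximalIdeal 𝒪)
        ((LinearMap.applyₗ (R := 𝒪) z) ∘ₗ
          (LinearMap.fst 𝒪 (Module.End 𝒪 Z) (Module.End 𝒪 Z'))) _ hn
      have h3 : ((LinearMap.applyₗ (R := 𝒪) z) ∘ₗ
          (LinearMap.fst 𝒪 (Module.End 𝒪 Z) (Module.End 𝒪 Z'))) ((act.prod act') (t ^ n * e)) =
          ((act t) ^ n) (act e z) := by
        show (act (t ^ n * e)) z = _
        rw [map_mul, map_pow]
        rfl
      rw [h3] at h2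
      exact h2
    · have h2 := s59t_map_pow_smul' (maximalIdeal 𝒪)
        ((LinearMap.applyₗ (R := 𝒪) z) ∘ₗ
          (LinearMap.snd 𝒪 (Module.End 𝒪 Z) (Module.End 𝒪 Z'))) _ hn
      have h3 : ((LinearMap.applyₗ (R := 𝒪) z) ∘ₗ
          (LinearMap.snd 𝒪 (Module.End 𝒪 Z) (Module.End 𝒪 Z'))) ((act.prod act') (t ^ n * e)) =
          ((act' t) ^ n) (act' e z) := by
        show (act' (t ^ n * e)) z = _
        rw [map_mul, map_pow]
        rfl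
      rw [h3] at h2
      exact h2
  · intro t ht
    obtain ⟨η, hη⟩ := hunit t ht
    exact ⟨η, congrArg Prod.fst hη, congrArg Prod.snd hη⟩

/-- **`𝔫` occurs in `Z` as soon as there is an eigenvector modulo `𝔪`.** -/
theorem s59t_ker_le_of_eigen (act : 𝕋 →ₐ[𝒪] Module.End 𝒪 Z)
    (χ : 𝕋 →ₐ[𝒪] ResidueField 𝒪) (v : Z)
    (hv : v ∉ (maximalIdeal 𝒪 • ⊤ : Submodule 𝒪 Z))
    (h : ∀ (t : 𝕋) (c : 𝒪), residue 𝒪 c = χ t →
      act t v - c • v ∈ (maximalIdeal 𝒪 • ⊤ : Submodule 𝒪 Z)) :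
    RingHom.ker act ≤ RingHom.ker χ := by
  intro t ht
  rw [RingHom.mem_ker] at ht ⊢
  by_contra hne
  obtain ⟨c, hc⟩ := residue_surjective (χ t)
  have hcu : IsUnit c := by
    by_contra hnu
    have : residue 𝒪 c = 0 := (residue_eq_zero_iff c).mpr ((mem_maximalIdeal c).mpr hnu)
    exact hne (hc ▸ this)
  have h1 := h t c hc
  rw [ht, LinearMap.zero_apply, zero_sub] at h1
  have h2 : c • v ∈ (maximalIdeal 𝒪 • ⊤ : Submodule 𝒪 Z) := by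
    have := Submodule.neg_mem _ h1
    rwa [neg_neg] at this
  obtain ⟨u, rfl⟩ := hcu
  have h3 : v = (↑u⁻¹ : 𝒪) • ((u : 𝒪) • v) := by
    rw [smul_smul, Units.inv_mul, one_smul]
  rw [h3] at hv
  exact hv (Submodule.smul_mem _ _ h2)

end HeckeIdem

end Fermat.Agent.Lib.S59
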