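/-
Programme (R) = S59, node (B2) concrete module half (helper8), file 58: **the `a`-part projector
as a polynomial, its restriction to smaller parts, and its transport along a bijection.**

* `s59t_exists_alpha_poly` : `𝕋` a commutative `𝒪`-algebra acting on a finite `𝒪`-algebra `E`
  through `act`, `e ∈ 𝕋` with `act e` idempotent, `u ∈ 𝕋`, `a ∈ 𝒪`.  Then there is `f ∈ 𝕋`,
  `act f` an idempotent `≤ act e`, such that on EVERY module `Z` on which `𝕋` acts through a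
  quotient of `act`, `f` restricts to the `a`-part projector of `u` on the `e`-part;
* `s59t_IsAlpha.restrict_part` : the `a`-part projector on the `ε`-part restricts to the `a`-part
  projector on the `ε₂`-part, `ε₂ ≤ ε`;
* `s59t_alpha_transport` : if `x ↦ ε₂ (r x)` is bijective `ε₁ Y₁ → ε₂ Y₂`, `r U₁ = U₂ r`, and `F₁`,
  `F₂` are the `a`-part projectors of `U₁`, `U₂` on the parts, then `x ↦ F₂ ε₂ (r x)` is bijective
  `F₁ ε₁ Y₁ → F₂ ε₂ Y₂`.
-/
import Mathlib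
import Fermat.Agent.Lib.S59.TIdem3
import Fermat.Agent.Lib.S59.TTWH

set_option autoImplicit false
set_option linter.unusedSectionVars false
set_option linter.style.haveILetI false

open IsLocalRing

namespace Fermat.Agent.Lib.S59

/-! ### An idempotent with prescribed support -/

section Support

variable (𝒪 : Type) [CommRing 𝒪] [IsLocalRing 𝒪] [IsNoetherianRing 𝒪]
  [IsAdicComplete (maximalIdeal 𝒪) 𝒪] (A : Type) [CommRing A] [Algebra 𝒪 A]
  [Module.Finite 𝒪 A]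

include 𝒪 in
/-- for an idempotent `ε` and an element `x` of a finite commutative `𝒪`-algebra there is an
idempotent `f ≤ ε` supported exactly at the maximal ideals of the support of `ε` containing
`x`. -/
theorem s59t_exists_idem_support (ε x : A) (hε : ε * ε = ε) :
    ∃ f : A, f * f = f ∧ f * ε = f ∧
      (∀ J : Ideal A, J.IsMaximal → f ∉ J → x ∈ J) ∧
      (∀ J : Ideal A, J.IsMaximal → ε - f ∉ J → x ∉ J) := by
  classical
  obtain ⟨-, hbij, -, -⟩ :=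
    Algebra.finite_maximalSpectrum_and_bijective_localization_of_module_finite (𝒪 := 𝒪) A
  set Φ : A →+* ∀ J : MaximalSpectrum A, Localization.AtPrime J.asIdeal :=
    RingHom.pi fun J : MaximalSpectrum A => algebraMap A (Localization.AtPrime J.asIdeal) with hΦ
  have hΦapp : ∀ (y : A) (J : MaximalSpectrum A),
      Φ y J = algebraMap A (Localization.AtPrime J.asIdeal) y := fun _ _ => rfl
  -- the components of `ε`
  have hεJ : ∀ J : MaximalSpectrum A,
      (ε ∈ J.asIdeal ∧ algebraMap A (Localization.AtPrime J.asIdeal) ε = 0) ∨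
      (ε ∉ J.asIdeal ∧ algebraMap A (Localization.AtPrime J.asIdeal) ε = 1) := by
    intro J
    have hid : algebraMap A (Localization.AtPrime J.asIdeal) ε *
        algebraMap A (Localization.AtPrime J.asIdeal) ε =
        algebraMap A (Localization.AtPrime J.asIdeal) ε := by rw [← map_mul, hε]
    have hiff := IsLocalization.AtPrime.to_map_mem_maximal_iff
      (Localization.AtPrime J.asIdeal) J.asIdeal ε
    rcases s59t_idem_zero_or_one _ hid with h0 | h1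
    · left
      refine ⟨hiff.mp ?_, h0⟩
      rw [h0]
      exact zero_mem _
    · right
      refine ⟨fun hmem => ?_, h1⟩
      have := hiff.mpr hmem
      rw [h1] at this
      exact (Ideal.ne_top_iff_one _).mp (IsLocalRing.maximalIdeal.isMaximal _).ne_top this
  obtain ⟨f, hf⟩ := hbij.2 (fun J : MaximalSpectrum A =>
    if x ∈ J.asIdeal ∧ ε ∉ J.asIdeal then (1 : Localization.AtPrime J.asIdeal) else 0)
  have hfJ : ∀ J : MaximalSpectrum A, algebraMap A (Localization.AtPrime J.asIdeal) f =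
      if x ∈ J.asIdeal ∧ ε ∉ J.asIdeal then (1 : Localization.AtPrime J.asIdeal) else 0 :=
    fun J => (hΦapp f J).symm.trans (congrFun hf J)
  have hmemJ : ∀ (J : MaximalSpectrum A) (y : A),
      algebraMap A (Localization.AtPrime J.asIdeal) y = 0 → y ∈ J.asIdeal := by
    intro J y hy
    refine (IsLocalization.AtPrime.to_map_mem_maximal_iff
      (Localization.AtPrime J.asIdeal) J.asIdeal y).mp ?_
    rw [hy]
    exact zero_mem _
  refine ⟨f, ?_, ?_, ?_, ?_⟩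
  · apply hbij.1
    funext J
    rw [map_mul, Pi.mul_apply, hΦapp, hfJ]
    split_ifs <;> simp
  · apply hbij.1
    funext J
    rw [map_mul, Pi.mul_apply, hΦapp, hΦapp, hfJ]
    split_ifs with h
    · rcases hεJ J with ⟨h0, -⟩ | ⟨-, h1⟩
      · exact absurd h0 h.2
      · rw [h1, mul_one]
    · rw [zero_mul]
  · intro J hJ hfJ'
    by_contra hx
    apply hfJ'
    have h0 := hfJ ⟨J, hJ⟩
    rw [if_neg (fun h => hx h.1)] at h0
    exact hmemJ ⟨J, hJ⟩ f h0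
  · intro J hJ hεf hx
    apply hεf
    apply hmemJ ⟨J, hJ⟩
    rw [map_sub, hfJ ⟨J, hJ⟩]
    rcases hεJ ⟨J, hJ⟩ with ⟨h0, h0'⟩ | ⟨h1, h1'⟩
    · rw [if_neg (fun h => h.2 h0), h0', sub_zero]
    · rw [if_pos ⟨hx, h1⟩, h1', sub_self]

end Support

/-! ### The polynomial `a`-part projector -/

section Poly

variable {𝒪 : Type} [CommRing 𝒪] [IsLocalRing 𝒪] [IsNoetherianRing 𝒪]
  [IsAdicComplete (maximalIdeal 𝒪) 𝒪] {𝕋 : Type} [CommRing 𝕋] [Algebra 𝒪 𝕋]

/-- commutation of two operators in the image of a commutative algebra. -/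
theorem s59t_alg_comm {Z : Type*} [AddCommGroup Z] [Module 𝒪 Z]
    (actZ : 𝕋 →ₐ[𝒪] Module.End 𝒪 Z) (x y : 𝕋) (z : Z) :
    actZ x (actZ y z) = actZ y (actZ x z) := by
  rw [← Module.End.mul_apply, ← Module.End.mul_apply, ← map_mul, ← map_mul, mul_comm]

/-- **the `a`-part projector of `u` on the `e`-part is given by a polynomial `f`**, uniformly on
all modules on which `𝕋` acts through a quotient of `act`. -/
theorem s59t_exists_alpha_poly {E : Type} [Ring E] [Algebra 𝒪 E] [Module.Finite 𝒪 E]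
    (act : 𝕋 →ₐ[𝒪] E) (e u : 𝕋) (a : 𝒪) (he : act e * act e = act e) :
    ∃ f : 𝕋, act f * act f = act f ∧ act (f * e) = act f ∧
      ∀ {Z : Type} [AddCommGroup Z] [Module 𝒪 Z] (actZ : 𝕋 →ₐ[𝒪] Module.End 𝒪 Z),
        RingHom.ker act ≤ RingHom.ker actZ →
        s59t_IsAlpha
          (s59t_partMap (ε := actZ e) (ε' := actZ e) (actZ u) (s59t_alg_comm actZ e u)) a
          (s59t_partMap (ε := actZ e) (ε' := actZ e) (actZ f) (s59t_alg_comm actZ e f)) := by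
  classical
  obtain ⟨K, hK⟩ : ∃ K : Ideal 𝕋, K = RingHom.ker act := ⟨_, rfl⟩
  let ā : (𝕋 ⧸ K) →ₐ[𝒪] E := Ideal.Quotient.liftₐ K act (fun x hx => by
    rw [hK] at hx
    exact hx)
  have hāmk : ∀ t : 𝕋, ā (Ideal.Quotient.mk K t) = act t := fun t => rfl
  have hāinj : Function.Injective ā := by
    rw [injective_iff_map_eq_zero]
    intro x hx
    obtain ⟨t, rfl⟩ := Ideal.Quotient.mk_surjective x
    rw [hāmk] at hx
    rw [Ideal.Quotient.eq_zero_iff_mem, hK]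
    exact hx
  haveI : Module.Finite 𝒪 (𝕋 ⧸ K) := Module.Finite.of_injective ā.toLinearMap hāinj
  have hεε : Ideal.Quotient.mk K e * Ideal.Quotient.mk K e = Ideal.Quotient.mk K e := by
    apply hāinj
    rw [map_mul, hāmk]
    exact he
  obtain ⟨fb, hff, hfe, hnil, hunit⟩ := s59t_exists_idem_support 𝒪 (𝕋 ⧸ K)
    (Ideal.Quotient.mk K e) (Ideal.Quotient.mk K u - algebraMap 𝒪 (𝕋 ⧸ K) a) hεε
  obtain ⟨f, rfl⟩ := Ideal.Quotient.mk_surjective fb
  refine ⟨f, ?_, ?_, ?_⟩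
  · rw [← hāmk, ← map_mul, hff]
  · rw [← hāmk, map_mul, hfe]
    exact hāmk f
  · intro Z _ _ actZ hKZ
    let āZ : (𝕋 ⧸ K) →ₐ[𝒪] Module.End 𝒪 Z := Ideal.Quotient.liftₐ K actZ (fun x hx => by
      rw [hK] at hx
      exact hKZ hx)
    exact s59t_isAlpha_of_idem 𝒪 (𝕋 ⧸ K) āZ (Ideal.Quotient.mk K u) (Ideal.Quotient.mk K e)
      (Ideal.Quotient.mk K f) a hεε hff hfe hnil hunit

end Poly

/-! ### Restriction of an `a`-part projector to a smaller part -/

section Restrict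

variable {R : Type*} [CommRing R] [IsLocalRing R] {Z : Type*} [AddCommGroup Z] [Module R Z]

theorem s59t_partMap_sub_pow {ε : Module.End R Z} (U : Module.End R Z)
    (hU : ∀ z, ε (U z) = U (ε z)) (a : R) (n : ℕ) (x : s59t_part ε) :
    ((((s59t_partMap (ε := ε) (ε' := ε) U hU - a • 1) ^ n) x : s59t_part ε) : Z) =
      ((U - a • 1) ^ n) (x : Z) := by
  induction n generalizing x with
  | zero => simp
  | succ n ih =>
    rw [pow_succ, Module.End.mul_apply, ih, pow_succ, Module.End.mul_apply]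
    congr 1

/-- **restriction to a smaller part**: `ε₂ ≤ ε` idempotents commuting with `U`, `E`. -/
theorem s59t_IsAlpha.restrict_part {ε ε₂ : Module.End R Z} (hε : ε * ε = ε) (hε₂ : ε₂ * ε₂ = ε₂)
    (hle : ε * ε₂ = ε₂) {U E : Module.End R Z} {a : R}
    (hU : ∀ z, ε (U z) = U (ε z)) (hE : ∀ z, ε (E z) = E (ε z))
    (hU₂ : ∀ z, ε₂ (U z) = U (ε₂ z)) (hE₂ : ∀ z, ε₂ (E z) = E (ε₂ z))
    (h : s59t_IsAlpha (s59t_partMap (ε := ε) (ε' := ε) U hU) a
      (s59t_partMap (ε := ε) (ε' := ε) E hE)) :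
    s59t_IsAlpha (s59t_partMap (ε := ε₂) (ε' := ε₂) U hU₂) a
      (s59t_partMap (ε := ε₂) (ε' := ε₂) E hE₂) := by
  -- every element of the `ε₂`-part lies in the `ε`-part
  have hmem : ∀ x : s59t_part ε₂, (x : Z) ∈ s59t_part ε := by
    intro x
    rw [s59t_mem_part hε]
    have hx := (s59t_mem_part hε₂ _).mp x.2
    rw [← hx, ← Module.End.mul_apply, hle]
  refine ⟨?_, ?_, ?_, ?_⟩
  · refine LinearMap.ext fun x => Subtype.ext ?_
    have := congrArg (fun T : Module.End R (s59t_part ε) =>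
      ((T ⟨(x : Z), hmem x⟩ : s59t_part ε) : Z)) h.idem
    exact this
  · refine LinearMap.ext fun x => Subtype.ext ?_
    have := congrArg (fun T : Module.End R (s59t_part ε) =>
      ((T ⟨(x : Z), hmem x⟩ : s59t_part ε) : Z)) h.comm
    exact this
  · obtain ⟨n, hn⟩ := h.nil
    refine ⟨n, fun x => ?_⟩
    rw [s59t_part_smul_top_iff (maximalIdeal R) hε₂, s59t_partMap_sub_pow]
    have h1 := hn ⟨(x : Z), hmem x⟩
    rw [s59t_part_smul_top_iff (maximalIdeal R) hε, s59t_partMap_sub_pow] at h1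
    exact h1
  · intro x
    obtain ⟨z', hz'⟩ := h.surj ⟨(x : Z), hmem x⟩
    have hz'' := congrArg (fun t : s59t_part ε => ε₂ (t : Z)) hz'
    refine ⟨⟨ε₂ (z' : Z), ⟨_, rfl⟩⟩, Subtype.ext ?_⟩
    have hx := (s59t_mem_part hε₂ _).mp x.2
    -- unfold both sides in `Z`
    have e1 : (((s59t_partMap (ε := ε₂) (ε' := ε₂) U hU₂ - a • 1)
        ((1 - s59t_partMap (ε := ε₂) (ε' := ε₂) E hE₂) ⟨ε₂ (z' : Z), ⟨_, rfl⟩⟩) :
          s59t_part ε₂) : Z) = (U - a • 1) ((1 - E) (ε₂ (z' : Z))) := rfl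
    have e2 : (((1 - s59t_partMap (ε := ε₂) (ε' := ε₂) E hE₂) x : s59t_part ε₂) : Z) =
        (1 - E) (x : Z) := rfl
    have e3 : ε₂ ((((s59t_partMap (ε := ε) (ε' := ε) U hU - a • 1)
        ((1 - s59t_partMap (ε := ε) (ε' := ε) E hE) z') : s59t_part ε)) : Z) =
        ε₂ ((U - a • 1) ((1 - E) (z' : Z))) := rfl
    have e4 : ε₂ ((((1 - s59t_partMap (ε := ε) (ε' := ε) E hE) ⟨(x : Z), hmem x⟩ :
        s59t_part ε)) : Z) = ε₂ ((1 - E) (x : Z)) := rfl
    rw [e1, e2]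
    have h5 : ε₂ ((U - a • 1) ((1 - E) (z' : Z))) = ε₂ ((1 - E) (x : Z)) := by
      rw [← e3, ← e4]
      exact hz''
    -- move `ε₂` inside
    have hc1 : ∀ z, ε₂ ((U - a • 1) z) = (U - a • 1) (ε₂ z) := by
      intro z
      rw [LinearMap.sub_apply, LinearMap.sub_apply, map_sub, hU₂, LinearMap.smul_apply,
        LinearMap.smul_apply, Module.End.one_apply, Module.End.one_apply, map_smul]
    have hc2 : ∀ z, ε₂ ((1 - E) z) = (1 - E) (ε₂ z) := by
      intro z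
      rw [LinearMap.sub_apply, LinearMap.sub_apply, map_sub, hE₂, Module.End.one_apply,
        Module.End.one_apply]
    rw [hc1, hc2, hc2, hx] at h5
    exact h5

end Restrict

/-! ### Transport along a bijection -/

section Transport

variable {R : Type*} [CommRing R] [IsLocalRing R] [IsNoetherianRing R]
  {Y₁ : Type*} [AddCommGroup Y₁] [Module R Y₁] [Module.Finite R Y₁]
  {Y₂ : Type*} [AddCommGroup Y₂] [Module R Y₂] [Module.Finite R Y₂]

/-- **transport of the `a`-part along a bijection `x ↦ ε₂ (r x)`.** -/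
theorem s59t_alpha_transport (r : Y₁ →ₗ[R] Y₂) {ε₁ F₁ U₁ : Module.End R Y₁}
    {ε₂ F₂ U₂ : Module.End R Y₂} (hε₁ : ε₁ * ε₁ = ε₁) (hε₂ : ε₂ * ε₂ = ε₂)
    (hι : Function.Bijective (s59t_iotaH ε₁ ε₂ r))
    (hrU : ∀ y, r (U₁ y) = U₂ (r y))
    (hU₁ : ∀ z, ε₁ (U₁ z) = U₁ (ε₁ z)) (hF₁ : ∀ z, ε₁ (F₁ z) = F₁ (ε₁ z))
    (hU₂ : ∀ z, ε₂ (U₂ z) = U₂ (ε₂ z)) (hF₂ : ∀ z, ε₂ (F₂ z) = F₂ (ε₂ z))
    {a : R}
    (h₁ : s59t_IsAlpha (s59t_partMap (ε := ε₁) (ε' := ε₁) U₁ hU₁) a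
      (s59t_partMap (ε := ε₁) (ε' := ε₁) F₁ hF₁))
    (h₂ : s59t_IsAlpha (s59t_partMap (ε := ε₂) (ε' := ε₂) U₂ hU₂) a
      (s59t_partMap (ε := ε₂) (ε' := ε₂) F₂ hF₂)) :
    Function.Bijective (s59t_iotaH (F₁ * ε₁) (F₂ * ε₂) r) := by
  haveI : Module.Finite R (s59t_part ε₁) := s59t_part_finite ε₁
  haveI : Module.Finite R (s59t_part ε₂) := s59t_part_finite ε₂
  -- `ι` intertwines `U₁`, `U₂`
  have hιU : ∀ x : s59t_part ε₁, s59t_iotaH ε₁ ε₂ r (s59t_partMap (ε := ε₁) (ε' := ε₁) U₁ hU₁ x) =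
      s59t_partMap (ε := ε₂) (ε' := ε₂) U₂ hU₂ (s59t_iotaH ε₁ ε₂ r x) := by
    intro x
    apply Subtype.ext
    show ε₂ (r (U₁ (x : Y₁))) = U₂ (ε₂ (r (x : Y₁)))
    rw [hrU, hU₂]
  have hnat := s59t_alpha_natural h₁ h₂ (s59t_iotaH ε₁ ε₂ r) hιU
  -- in `Y`-terms: `ε₂ (r (F₁ x)) = F₂ (ε₂ (r x))` for `x ∈ ε₁ Y₁`
  have hnat' : ∀ x : Y₁, ε₁ x = x → ε₂ (r (F₁ x)) = F₂ (ε₂ (r x)) := by
    intro x hx
    have := congrArg (fun t : s59t_part ε₂ => (t : Y₂)) (hnat ⟨x, ⟨x, hx⟩⟩)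
    exact this
  -- idempotency of `F` on the parts
  have hF₁idem : ∀ x : Y₁, ε₁ x = x → F₁ (F₁ x) = F₁ x := by
    intro x hx
    have := congrArg (fun T : Module.End R (s59t_part ε₁) =>
      ((T ⟨x, ⟨x, hx⟩⟩ : s59t_part ε₁) : Y₁)) h₁.idem
    exact this
  have hF₂idem : ∀ y : Y₂, ε₂ y = y → F₂ (F₂ y) = F₂ y := by
    intro y hy
    have := congrArg (fun T : Module.End R (s59t_part ε₂) =>
      ((T ⟨y, ⟨y, hy⟩⟩ : s59t_part ε₂) : Y₂)) h₂.idem
    exact this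
  have hε₁app : ∀ z, ε₁ (ε₁ z) = ε₁ z := fun z => LinearMap.congr_fun hε₁ z
  have hε₂app : ∀ z, ε₂ (ε₂ z) = ε₂ z := fun z => LinearMap.congr_fun hε₂ z
  -- elements of the `F₁ ε₁`-part
  have hpart₁ : ∀ x : s59t_part (F₁ * ε₁), ε₁ (x : Y₁) = x ∧ F₁ (x : Y₁) = x := by
    intro x
    obtain ⟨w, hw⟩ := x.2
    rw [Module.End.mul_apply] at hw
    constructor
    · rw [← hw, hF₁, hε₁app]
    · rw [← hw, hF₁idem _ (hε₁app w)]
  have hpart₂ : ∀ y : s59t_part (F₂ * ε₂), ε₂ (y : Y₂) = y ∧ F₂ (y : Y₂) = y := by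
    intro y
    obtain ⟨w, hw⟩ := y.2
    rw [Module.End.mul_apply] at hw
    constructor
    · rw [← hw, hF₂, hε₂app]
    · rw [← hw, hF₂idem _ (hε₂app w)]
  constructor
  · intro x x' hxx
    have h1 := congrArg (fun t : s59t_part (F₂ * ε₂) => (t : Y₂)) hxx
    change (F₂ * ε₂) (r (x : Y₁)) = (F₂ * ε₂) (r (x' : Y₁)) at h1
    rw [Module.End.mul_apply, Module.End.mul_apply, ← hnat' _ (hpart₁ x).1,
      ← hnat' _ (hpart₁ x').1, (hpart₁ x).2, (hpart₁ x').2] at h1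
    have h2 : s59t_iotaH ε₁ ε₂ r ⟨(x : Y₁), ⟨_, (hpart₁ x).1⟩⟩ =
        s59t_iotaH ε₁ ε₂ r ⟨(x' : Y₁), ⟨_, (hpart₁ x').1⟩⟩ := Subtype.ext h1
    have h3 := hι.1 h2
    exact Subtype.ext (congrArg (fun t : s59t_part ε₁ => (t : Y₁)) h3)
  · intro y
    obtain ⟨x, hx⟩ := hι.2 ⟨(y : Y₂), ⟨_, (hpart₂ y).1⟩⟩
    have hx' : ε₂ (r (x : Y₁)) = (y : Y₂) :=
      congrArg (fun t : s59t_part ε₂ => (t : Y₂)) hx
    have hxε : ε₁ (x : Y₁) = x := (s59t_mem_part hε₁ _).mp x.2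
    -- `F₁ x = x`
    have hFx : F₁ (x : Y₁) = x := by
      have h4 : s59t_iotaH ε₁ ε₂ r (s59t_partMap (ε := ε₁) (ε' := ε₁) F₁ hF₁ x) =
          s59t_iotaH ε₁ ε₂ r x := by
        apply Subtype.ext
        show ε₂ (r (F₁ (x : Y₁))) = ε₂ (r (x : Y₁))
        rw [hnat' _ hxε, hx', (hpart₂ y).2]
      have h5 := hι.1 h4
      exact congrArg (fun t : s59t_part ε₁ => (t : Y₁)) h5
    refine ⟨⟨(x : Y₁), ⟨(x : Y₁), ?_⟩⟩, Subtype.ext ?_⟩
    · rw [Module.End.mul_apply, hxε, hFx]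
    · show (F₂ * ε₂) (r (x : Y₁)) = (y : Y₂)
      rw [Module.End.mul_apply, hx', (hpart₂ y).2]

end Transport

end Fermat.Agent.Lib.S59
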