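/-
Programme (R) = S59, node (H2) (helper8), file 35: **invariants and norms of free `R[Δ]`-modules**
(`s59t_evalMap` form) and the consequence of (H2) for the invariants:
* `s59t_inv_eq_norm` : an invariant vector of a free module is a norm;
* `s59t_norm_eq_zero` : the kernel of the norm is the augmentation submodule;
* `s59t_inv_res` : in the situation of `s59t_TW_wrap` / `s59t_H2` (outputs: `ε Y` free over `R[Δ]`,
  `cor : ε Y → ε₀ Y₀` onto with kernel the augmentation submodule; `res ∘ cor = N_Δ`):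
  every invariant of `ε Y` is `res y` with `y ∈ ε₀ Y₀`, and `res` is injective on `ε₀ Y₀`.
Mathlib only (+ `TNakDual`, `TWrap`).
-/
import Mathlib
import Fermat.Agent.Lib.S59.TNakDual
import Fermat.Agent.Lib.S59.TWrap

set_option autoImplicit false
set_option linter.style.haveILetI false
set_option linter.unusedSectionVars false

open scoped BigOperators

namespace Fermat.Agent.Lib.S59

section InvAbs

variable {Δ : Type*} [Group Δ] [Fintype Δ] {R : Type*} [CommRing R]
  {F : Type*} [AddCommGroup F] [Module R F]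

/-- the norm of a combination. -/
theorem s59t_norm_comb (ρ : Δ →* Module.End R F) {d : ℕ} (b : Fin d → F) (a : Fin d → R) :
    ∑ δ, ρ δ (∑ i, a i • b i) = ∑ i, a i • ∑ δ, ρ δ (b i) := by
  simp only [map_sum, map_smul, Finset.smul_sum]
  exact Finset.sum_comm

/-- **an invariant vector of a free `R[Δ]`-module is a norm.** -/
theorem s59t_inv_eq_norm (ρ : Δ →* Module.End R F) {d : ℕ} (b : Fin d → F)
    (hb : Function.Bijective (s59t_evalMap ρ b)) (x : F) (hx : ∀ δ, ρ δ x = x) :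
    ∃ w : F, x = ∑ δ, ρ δ w := by
  obtain ⟨c, rfl⟩ := hb.2 x
  have hc := s59t_coord_const ρ b hb.1 c hx
  refine ⟨∑ i, c i 1 • b i, ?_⟩
  rw [s59t_evalMap_const ρ b c hc, s59t_norm_comb]

/-- the norm in coordinates. -/
theorem s59t_norm_evalMap (ρ : Δ →* Module.End R F) {d : ℕ} (b : Fin d → F)
    (c : Fin d → Δ → R) :
    ∑ γ, ρ γ (s59t_evalMap ρ b c) = s59t_evalMap ρ b (fun i _ => ∑ δ, c i δ) := by
  rw [s59t_evalMap_const ρ b (fun i _ => ∑ δ, c i δ) (fun _ _ => rfl), s59t_evalMap_apply]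
  simp only [map_sum, map_smul]
  rw [Finset.sum_comm]
  refine Finset.sum_congr rfl fun i _ => ?_
  rw [Finset.sum_comm, Finset.sum_smul]
  refine Finset.sum_congr rfl fun δ _ => ?_
  rw [← Finset.smul_sum]
  congr 1
  calc ∑ γ, ρ γ (ρ δ (b i)) = ∑ γ, ρ (γ * δ) (b i) := by
        refine Finset.sum_congr rfl fun γ _ => ?_
        rw [map_mul]
        rfl
    _ = ∑ γ, ρ γ (b i) := Equiv.sum_comp (Equiv.mulRight δ) (fun γ => ρ γ (b i))

/-- **the kernel of the norm on a free `R[Δ]`-module is the augmentation submodule.** -/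
theorem s59t_norm_eq_zero (ρ : Δ →* Module.End R F) {d : ℕ} (b : Fin d → F)
    (hb : Function.Bijective (s59t_evalMap ρ b)) (w : F) (hw : ∑ δ, ρ δ w = 0) :
    w ∈ Submodule.span R {z : F | ∃ (δ : Δ) (x : F), z = ρ δ x - x} := by
  obtain ⟨c, rfl⟩ := hb.2 w
  rw [s59t_norm_evalMap] at hw
  have h0 := hb.1 (hw.trans (map_zero _).symm)
  have hai : ∀ i, ∑ δ, c i δ = 0 := fun i => congrFun (congrFun h0 i) 1
  have hx2 : s59t_evalMap ρ b c = ∑ i, ∑ δ, c i δ • (ρ δ (b i) - b i) := by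
    rw [s59t_evalMap_apply]
    refine Finset.sum_congr rfl fun i _ => ?_
    simp only [smul_sub, Finset.sum_sub_distrib]
    rw [← Finset.sum_smul, hai i, zero_smul, sub_zero]
  rw [hx2]
  refine Submodule.sum_mem _ fun i _ => Submodule.sum_mem _ fun δ _ => ?_
  exact Submodule.smul_mem _ _ (Submodule.subset_span ⟨δ, b i, rfl⟩)

end InvAbs

section InvRes

variable {Δ : Type*} [Group Δ] [Fintype Δ] {R : Type*} [CommRing R]
  {Y : Type*} [AddCommGroup Y] [Module R Y] {Y₀ : Type*} [AddCommGroup Y₀] [Module R Y₀]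

theorem s59t_partRep_sum_coe (ρ : Δ →* Module.End R Y) {ε : Module.End R Y}
    (hρε : ∀ δ y, ε (ρ δ y) = ρ δ (ε y)) (w : s59t_part ε) :
    ((∑ δ, s59t_partRep ρ hρε δ w : s59t_part ε) : Y) = ∑ δ, ρ δ (w : Y) := by
  rw [Submodule.coe_sum]
  rfl

/-- **the invariants of `ε Y` are `res (ε₀ Y₀)`, and `res` is injective on `ε₀ Y₀`.** -/
theorem s59t_inv_res (ρ : Δ →* Module.End R Y) (res : Y₀ →ₗ[R] Y) (cor : Y →ₗ[R] Y₀)
    (hN : ∀ x, res (cor x) = ∑ δ, ρ δ x)
    {ε : Module.End R Y} {ε₀ : Module.End R Y₀}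
    (hρε : ∀ δ y, ε (ρ δ y) = ρ δ (ε y)) (hcε : ∀ x, ε₀ (cor x) = cor (ε x))
    {d : ℕ} (b : Fin d → s59t_part ε)
    (hb : Function.Bijective (s59t_evalMap (s59t_partRep ρ hρε) b))
    (hsurj : Function.Surjective (s59t_partMap (ε := ε) (ε' := ε₀) cor hcε))
    (hker : LinearMap.ker (s59t_partMap (ε := ε) (ε' := ε₀) cor hcε) =
      Submodule.span R {z | ∃ δ x, z = s59t_partRep ρ hρε δ x - x}) :
    (∀ x : s59t_part ε, (∀ δ, s59t_partRep ρ hρε δ x = x) →
      ∃ y : s59t_part ε₀, (x : Y) = res (y : Y₀)) ∧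
    (∀ y : s59t_part ε₀, res (y : Y₀) = 0 → y = 0) := by
  constructor
  · intro x hx
    obtain ⟨w, rfl⟩ := s59t_inv_eq_norm (s59t_partRep ρ hρε) b hb x hx
    refine ⟨s59t_partMap (ε := ε) (ε' := ε₀) cor hcε w, ?_⟩
    rw [s59t_partRep_sum_coe, s59t_partMap_coe, hN]
  · intro y hy
    obtain ⟨w, rfl⟩ := hsurj y
    rw [s59t_partMap_coe, hN, ← s59t_partRep_sum_coe ρ hρε] at hy
    have h1 : ∑ δ, s59t_partRep ρ hρε δ w = 0 := Subtype.ext hy
    have h2 := s59t_norm_eq_zero (s59t_partRep ρ hρε) b hb w h1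
    rw [← hker, LinearMap.mem_ker] at h2
    exact h2

end InvRes

end Fermat.Agent.Lib.S59
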