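/-
Programme (R) = S59, node (H2) (helper8), file 36: **the control theorem at `Γ_H`-level**
(`M_Q / 𝔞_Q ≅ M_∅`, restriction form), concrete.

Levels `(N, H)` (bottom) and `(N', H')` (top) with `Γ₀(N') ≤ Γ₀(N)`, `Γ_{H'}(N') ≤ Γ_H(N)`;
`Δ' = Γ₀(N')/Γ_{H'} → Δ = Γ₀(N)/Γ_H` trivial on `B ≤ Δ'` and bijective on a complement `C`;
idempotents `ε, ε₀, ε', ε₀'` on `H(Γ_H(N)), H(Γ₀(N)), H(Γ_{H'}(N')), H(Γ₀(N'))` (localisations at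
a non-Eisenstein maximal ideal `𝔪`, resp. `(𝔪, U_q - α_q)_{q ∈ Q}`), commuting with the diamonds,
`res` and `cor`; the outputs of (H2) `s59t_H2` at both levels with the SAME rank `d`; and the
`Γ₀`-level Taylor–Wiles isomorphism `y ↦ ε₀' (y|Γ₀(N'))`, `ε₀ H(Γ₀(N)) ≅ ε₀' H(Γ₀(N'))`.
Then `ι : x ↦ ε' (x|Γ_{H'}(N'))` is injective `ε H(Γ_H(N)) → ε' H(Γ_{H'}(N'))` with image the
`B`-invariants, and there is `π : ε' H(Γ_{H'}(N')) → ε H(Γ_H(N))`, surjective, with kernel the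
`B`-augmentation submodule and `ι ∘ π = N_B`.
-/
import Mathlib
import Fermat.Agent.Lib.S59.TCtrl
import Fermat.Agent.Lib.S59.TResG
import Fermat.Agent.Lib.S59.TInv

set_option autoImplicit false
set_option linter.unusedSectionVars false
set_option linter.style.haveILetI false

noncomputable section

namespace Fermat.Agent.Lib.S59

open Matrix MatrixGroups CongruenceSubgroup IsLocalRing
open Fermat.Agent.Lib.S29 Fermat.Agent.Lib.S48 Fermat.Agent.Lib.S41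
open scoped BigOperators

section Control

variable {p : ℕ} [Fact p.Prime] {𝒪 : Type*} [CommRing 𝒪] [IsLocalRing 𝒪]
  [Finite (ResidueField 𝒪)] [CharP (ResidueField 𝒪) p]
  {N N' : ℕ} [NeZero N] [NeZero N'] {H : Subgroup (ZMod N)ˣ} {H' : Subgroup (ZMod N')ˣ}
  (h0 : Gamma0 N' ≤ Gamma0 N) (hle : s48h_GammaH N' H' ≤ s48h_GammaH N H)
  (hPF : s59t_PF N H) (hPF' : s59t_PF N' H')

set_option maxHeartbeats 800000 in
/-- **the control theorem at `Γ_H`-level.** -/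
theorem s59t_control_H (hΔ : IsPGroup p (s59t_Delta N H))
    (B C : Subgroup (s59t_Delta N' H')) [Fintype B] [Fintype C]
    (hBC : Function.Bijective (fun x : B × C => ((x.1 : s59t_Delta N' H') * (x.2 : _))))
    (hφB : ∀ β ∈ B, s59t_DeltaMap2 h0 hle β = 1)
    (hφC : Function.Bijective (fun γ : C => s59t_DeltaMap2 h0 hle (γ : s59t_Delta N' H')))
    {ε : Module.End 𝒪 (s48h_Hpar 𝒪 (s48h_GammaH N H) 𝒪)} {ε₀ : Module.End 𝒪 (s29h_Hpar 𝒪 N 𝒪)}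
    {ε' : Module.End 𝒪 (s48h_Hpar 𝒪 (s48h_GammaH N' H') 𝒪)}
    {ε₀' : Module.End 𝒪 (s29h_Hpar 𝒪 N' 𝒪)}
    (hρε : ∀ δ y, ε (s59t_rho N H 𝒪 𝒪 δ y) = s59t_rho N H 𝒪 𝒪 δ (ε y))
    (hρε' : ∀ δ y, ε' (s59t_rho N' H' 𝒪 𝒪 δ y) = s59t_rho N' H' 𝒪 𝒪 δ (ε' y))
    (hrε : ∀ y, ε (s59t_resHpar N H 𝒪 𝒪 y) = s59t_resHpar N H 𝒪 𝒪 (ε₀ y))
    (hrε' : ∀ y, ε' (s59t_resHpar N' H' 𝒪 𝒪 y) = s59t_resHpar N' H' 𝒪 𝒪 (ε₀' y))
    (hcε : ∀ x, ε₀ (s59t_corHpar N H 𝒪 𝒪 hPF x) = s59t_corHpar N H 𝒪 𝒪 hPF (ε x))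
    (hcε' : ∀ x, ε₀' (s59t_corHpar N' H' 𝒪 𝒪 hPF' x) = s59t_corHpar N' H' 𝒪 𝒪 hPF' (ε' x))
    {d : ℕ} (b : Fin d → s59t_part ε)
    (hb : Function.Bijective (s59t_evalMap (s59t_partRep (s59t_rho N H 𝒪 𝒪) hρε) b))
    (hsurj : Function.Surjective
      (s59t_partMap (ε := ε) (ε' := ε₀) (s59t_corHpar N H 𝒪 𝒪 hPF) hcε))
    (hker : LinearMap.ker (s59t_partMap (ε := ε) (ε' := ε₀) (s59t_corHpar N H 𝒪 𝒪 hPF) hcε) =
      Submodule.span 𝒪 {z | ∃ δ x, z = s59t_partRep (s59t_rho N H 𝒪 𝒪) hρε δ x - x})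
    (b' : Fin d → s59t_part ε')
    (hb' : Function.Bijective (s59t_evalMap (s59t_partRep (s59t_rho N' H' 𝒪 𝒪) hρε') b'))
    (hsurj' : Function.Surjective
      (s59t_partMap (ε := ε') (ε' := ε₀') (s59t_corHpar N' H' 𝒪 𝒪 hPF') hcε'))
    (hker' : LinearMap.ker
        (s59t_partMap (ε := ε') (ε' := ε₀') (s59t_corHpar N' H' 𝒪 𝒪 hPF') hcε') =
      Submodule.span 𝒪 {z | ∃ δ x, z = s59t_partRep (s59t_rho N' H' 𝒪 𝒪) hρε' δ x - x})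
    (hτ : Function.Bijective (s59t_iotaH ε₀ ε₀' (s59t_res0Hpar h0 𝒪 𝒪))) :
    Function.Injective (s59t_iotaH ε ε' (s59t_resGHpar hle 𝒪 𝒪)) ∧
      (∀ y : s59t_part ε',
        (∀ β ∈ B, s59t_partRep (s59t_rho N' H' 𝒪 𝒪) hρε' β y = y) →
          ∃ x, s59t_iotaH ε ε' (s59t_resGHpar hle 𝒪 𝒪) x = y) ∧
      ∃ π : s59t_part ε' →ₗ[𝒪] s59t_part ε,
        (∀ y, s59t_iotaH ε ε' (s59t_resGHpar hle 𝒪 𝒪) (π y) =
          s59t_normPsi (s59t_partRep (s59t_rho N' H' 𝒪 𝒪) hρε') B 1 y) ∧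
        Function.Surjective π ∧
        LinearMap.ker π = Submodule.span 𝒪 {z : s59t_part ε' |
          ∃ β ∈ B, ∃ y, z = s59t_partRep (s59t_rho N' H' 𝒪 𝒪) hρε' β y - y} := by
  classical
  have k0 := s59t_inv_res (R := 𝒪) (Δ := s59t_Delta N H)
    (Y := s48h_Hpar 𝒪 (s48h_GammaH N H) 𝒪) (Y₀ := s29h_Hpar 𝒪 N 𝒪)
    (s59t_rho N H 𝒪 𝒪) (s59t_resHpar N H 𝒪 𝒪)
    (s59t_corHpar N H 𝒪 𝒪 hPF) (s59t_rho_norm N H 𝒪 𝒪 hPF) hρε hcε b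
  have k1 := k0 hb
  have k2 := k1 hsurj
  have k3 := k2 hker
  have hA := k3.1
  have hB := k3.2
  have k0' := s59t_inv_res (R := 𝒪) (Δ := s59t_Delta N' H')
    (Y := s48h_Hpar 𝒪 (s48h_GammaH N' H') 𝒪) (Y₀ := s29h_Hpar 𝒪 N' 𝒪)
    (s59t_rho N' H' 𝒪 𝒪) (s59t_resHpar N' H' 𝒪 𝒪)
    (s59t_corHpar N' H' 𝒪 𝒪 hPF') (s59t_rho_norm N' H' 𝒪 𝒪 hPF') hρε' hcε' b'
  have k1' := k0' hb'
  have k2' := k1' hsurj'
  have k3' := k2' hker'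
  have hA' := k3'.1
  have hB' := k3'.2
  -- `ι (res y) = res' (τ y)`
  have hιres : ∀ (x : s59t_part ε) (y : s59t_part ε₀),
      (x : s48h_Hpar 𝒪 (s48h_GammaH N H) 𝒪) = s59t_resHpar N H 𝒪 𝒪 (y : s29h_Hpar 𝒪 N 𝒪) →
      ((s59t_iotaH ε ε' (s59t_resGHpar hle 𝒪 𝒪) x : s59t_part ε') :
        s48h_Hpar 𝒪 (s48h_GammaH N' H') 𝒪) =
      s59t_resHpar N' H' 𝒪 𝒪
        ((s59t_iotaH ε₀ ε₀' (s59t_res0Hpar h0 𝒪 𝒪) y : s59t_part ε₀') : s29h_Hpar 𝒪 N' 𝒪) := by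
    intro x y hxy
    rw [s59t_iotaH_val, s59t_iotaH_val, hxy, s59t_resG_res h0 hle, hrε']
  have hr' : ∀ (δ' : s59t_Delta N' H') (x : s59t_part ε),
      s59t_iotaH ε ε' (s59t_resGHpar hle 𝒪 𝒪)
        (s59t_partRep (s59t_rho N H 𝒪 𝒪) hρε (s59t_DeltaMap2 h0 hle δ') x) =
      s59t_partRep (s59t_rho N' H' 𝒪 𝒪) hρε' δ' (s59t_iotaH ε ε' (s59t_resGHpar hle 𝒪 𝒪) x) := by
    intro δ' x
    apply Subtype.ext
    rw [s59t_iotaH_val, s59t_partRep_val, s59t_partRep_val, s59t_iotaH_val,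
      s59t_resG_rho h0 hle, hρε']
  have key := s59t_control_core (p := p) (R := 𝒪) (Δ := s59t_Delta N H) (Δ' := s59t_Delta N' H')
    (M := s59t_part ε) (M' := s59t_part ε') hΔ (s59t_partRep (s59t_rho N H 𝒪 𝒪) hρε)
    (s59t_partRep (s59t_rho N' H' 𝒪 𝒪) hρε') (s59t_DeltaMap2 h0 hle) B C hBC hφB hφC
    (s59t_iotaH ε ε' (s59t_resGHpar hle 𝒪 𝒪))
  have key1 := key hr' b
  have key2 := key1 hb b'
  have key3 := key2 hb'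
  refine key3 ?_ ?_
  · intro x hx h0x
    obtain ⟨y, hy⟩ := hA x hx
    have h1 := hιres x y hy
    rw [h0x, Submodule.coe_zero] at h1
    have h2 := hB' _ h1.symm
    have h3 : y = 0 := hτ.1 (h2.trans (map_zero _).symm)
    apply Subtype.ext
    rw [hy, h3, Submodule.coe_zero, map_zero, Submodule.coe_zero]
  · intro y' hy'
    obtain ⟨z, hz⟩ := hA' y' hy'
    obtain ⟨y, hyz⟩ := hτ.2 z
    -- `res y ∈ ε Y`
    have hmem : s59t_resHpar N H 𝒪 𝒪 (y : s29h_Hpar 𝒪 N 𝒪) ∈ s59t_part ε := by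
      obtain ⟨y₁, hy₁⟩ := y.2
      exact ⟨s59t_resHpar N H 𝒪 𝒪 y₁, by rw [hrε, hy₁]⟩
    refine ⟨⟨_, hmem⟩, fun δ => ?_, ?_⟩
    · apply Subtype.ext
      rw [s59t_partRep_val]
      exact s59t_rho_resHpar 𝒪 𝒪 δ (y : s29h_Hpar 𝒪 N 𝒪)
    · apply Subtype.ext
      rw [hιres ⟨_, hmem⟩ y rfl, hyz, hz]

end Control

end Fermat.Agent.Lib.S59
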