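/-
Programme (R) = S59, node (B2)/(E) (helper8), file 56: **(H2) at both levels + control, composed.**
From abstract Hecke rings `𝕋`, `𝕋'` acting compatibly on `H(Γ_H(N))`, `H(Γ₀(N))` resp.
`H(Γ_{H'}(N'))`, `H(Γ₀(N'))`, non-Eisenstein idempotents `e`, `e'`, and the `Γ₀`-level
Taylor–Wiles bijection `hτ`, we get exactly the input of `s59t_control_tau` / `s59t_levelEig`:
freeness of both localised modules over the diamond group algebras (same rank `d`), the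
equivariant injection `ι`, and the control map `π` with `ι ∘ π = N_B`.
-/
import Mathlib
import Fermat.Agent.Lib.S59.TFin
import Fermat.Agent.Lib.S59.TCtrlH

set_option autoImplicit false
set_option linter.unusedSectionVars false
set_option linter.style.haveILetI false

noncomputable section

namespace Fermat.Agent.Lib.S59

open Matrix MatrixGroups CongruenceSubgroup IsLocalRing
open Fermat.Agent.Lib.S29 Fermat.Agent.Lib.S48 Fermat.Agent.Lib.S41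
open scoped BigOperators

section Equivariance

variable {𝒪 : Type*} [CommRing 𝒪]
  {N N' : ℕ} [NeZero N] [NeZero N'] {H : Subgroup (ZMod N)ˣ} {H' : Subgroup (ZMod N')ˣ}
  (h0 : Gamma0 N' ≤ Gamma0 N) (hle : s48h_GammaH N' H' ≤ s48h_GammaH N H)
  {ε : Module.End 𝒪 (s48h_Hpar 𝒪 (s48h_GammaH N H) 𝒪)}
  {ε' : Module.End 𝒪 (s48h_Hpar 𝒪 (s48h_GammaH N' H') 𝒪)}
  (hρε : ∀ δ y, ε (s59t_rho N H 𝒪 𝒪 δ y) = s59t_rho N H 𝒪 𝒪 δ (ε y))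
  (hρε' : ∀ δ y, ε' (s59t_rho N' H' 𝒪 𝒪 δ y) = s59t_rho N' H' 𝒪 𝒪 δ (ε' y))

/-- `ι = ε' ∘ res` is equivariant for the diamond representations. -/
theorem s59t_iotaH_partRep (δ' : s59t_Delta N' H') (x : s59t_part ε) :
    s59t_iotaH ε ε' (s59t_resGHpar hle 𝒪 𝒪)
      (s59t_partRep (s59t_rho N H 𝒪 𝒪) hρε (s59t_DeltaMap2 h0 hle δ') x) =
    s59t_partRep (s59t_rho N' H' 𝒪 𝒪) hρε' δ' (s59t_iotaH ε ε' (s59t_resGHpar hle 𝒪 𝒪) x) := by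
  apply Subtype.ext
  rw [s59t_iotaH_val, s59t_partRep_val, s59t_partRep_val, s59t_iotaH_val,
    s59t_resG_rho h0 hle, hρε']

end Equivariance

section SameLevel

variable {R : Type*} [CommRing R] {Y : Type*} [AddCommGroup Y] [Module R Y]

/-- the `Γ₀`-level comparison is trivially bijective when the two levels (and the two idempotents)
coincide: input `hτ` of `s59t_control_top_inv` for a pair `Γ_{H'}(N) ≤ Γ_H(N)` at the SAME level. -/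
theorem s59t_iotaH_self_bijective {ε : Module.End R Y} (hε : ε * ε = ε) (r : Y →ₗ[R] Y)
    (hr : ∀ y, r y = y) : Function.Bijective (s59t_iotaH ε ε r) := by
  have h : ∀ x : s59t_part ε, s59t_iotaH ε ε r x = x := by
    intro x
    apply Subtype.ext
    rw [s59t_iotaH_val, hr]
    exact (s59t_mem_part hε _).mp x.2
  constructor
  · intro x y hxy
    rw [h, h] at hxy
    exact hxy
  · intro y
    exact ⟨y, h y⟩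

theorem s59t_res0Hpar_self (N : ℕ) (𝒪 : Type*) [CommRing 𝒪] (A : Type*) [AddCommGroup A]
    [Module 𝒪 A] (y : s29h_Hpar 𝒪 N A) :
    s59t_res0Hpar (le_refl (Gamma0 N)) 𝒪 A y = y := by
  apply Subtype.ext
  refine AddMonoidHom.ext fun a => ?_
  rfl

end SameLevel

section Top

variable {𝒪 : Type*} [CommRing 𝒪] [IsDomain 𝒪] [IsDiscreteValuationRing 𝒪]
  [Finite (ResidueField 𝒪)]
  {N N' : ℕ} [NeZero N] [NeZero N'] {H : Subgroup (ZMod N)ˣ} {H' : Subgroup (ZMod N')ˣ}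
  (h0 : Gamma0 N' ≤ Gamma0 N) (hle : s48h_GammaH N' H' ≤ s48h_GammaH N H)
  (hPF : s59t_PF N H) (hPF' : s59t_PF N' H')

set_option maxHeartbeats 1600000 in
/-- **(H2) at both levels + control.** -/
theorem s59t_control_top (p : ℕ) [Fact p.Prime] [CharP (ResidueField 𝒪) p] (hp2 : p ≠ 2)
    (hneg : (-1 : SL(2, ℤ)) ∈ s48h_GammaH N H) (hneg' : (-1 : SL(2, ℤ)) ∈ s48h_GammaH N' H')
    (hΔ : IsPGroup p (s59t_Delta N H)) (hΔ' : IsPGroup p (s59t_Delta N' H'))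
    (B C : Subgroup (s59t_Delta N' H')) [Fintype B] [Fintype C]
    (hBC : Function.Bijective (fun x : B × C => ((x.1 : s59t_Delta N' H') * (x.2 : _))))
    (hφB : ∀ β ∈ B, s59t_DeltaMap2 h0 hle β = 1)
    (hφC : Function.Bijective (fun γ : C => s59t_DeltaMap2 h0 hle (γ : s59t_Delta N' H')))
    -- level `N`
    (ℓ : ℕ) [Fact ℓ.Prime] (hℓN : ¬ ℓ ∣ N) {σ : SL(2, ℤ)} (hσ : σ ∈ Gamma0 N)
    (hσ11 : ((σ 1 1 : ℤ) : ZMod N) = (ℓ : ZMod N))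
    {𝕋 : Type*} [CommRing 𝕋]
    (a : 𝕋 →+* Module.End 𝒪 (s48h_Hpar 𝒪 (s48h_GammaH N H) 𝒪))
    (a₀ : 𝕋 →+* Module.End 𝒪 (s29h_Hpar 𝒪 N 𝒪))
    (hres : ∀ t y, a t (s59t_resHpar N H 𝒪 𝒪 y) = s59t_resHpar N H 𝒪 𝒪 (a₀ t y))
    (hcor : ∀ t x, a₀ t (s59t_corHpar N H 𝒪 𝒪 hPF x) = s59t_corHpar N H 𝒪 𝒪 hPF (a t x))
    (hρ : ∀ t δ x, a t (s59t_rho N H 𝒪 𝒪 δ x) = s59t_rho N H 𝒪 𝒪 δ (a t x))
    (tℓ : 𝕋) (htℓ : a tℓ = (s48h_TpDatum H hℓN σ hσ hσ11).heckeHpar 𝒪)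
    (htℓ₀ : a₀ tℓ = s29h_heckeHpar N ℓ 𝒪 𝒪)
    (e η : 𝕋) (he : a e * a e = a e) (he₀ : a₀ e * a₀ e = a₀ e)
    (hη : a (η * (tℓ ^ 2 - ((ℓ : 𝕋) + 1) ^ 2) * e) = a e)
    (hη₀ : a₀ (η * (tℓ ^ 2 - ((ℓ : 𝕋) + 1) ^ 2) * e) = a₀ e)
    -- level `N'`
    (ℓ' : ℕ) [Fact ℓ'.Prime] (hℓN' : ¬ ℓ' ∣ N') {σ' : SL(2, ℤ)} (hσ' : σ' ∈ Gamma0 N')
    (hσ11' : ((σ' 1 1 : ℤ) : ZMod N') = (ℓ' : ZMod N'))
    {𝕋' : Type*} [CommRing 𝕋']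
    (a' : 𝕋' →+* Module.End 𝒪 (s48h_Hpar 𝒪 (s48h_GammaH N' H') 𝒪))
    (a₀' : 𝕋' →+* Module.End 𝒪 (s29h_Hpar 𝒪 N' 𝒪))
    (hres' : ∀ t y, a' t (s59t_resHpar N' H' 𝒪 𝒪 y) = s59t_resHpar N' H' 𝒪 𝒪 (a₀' t y))
    (hcor' : ∀ t x, a₀' t (s59t_corHpar N' H' 𝒪 𝒪 hPF' x) =
      s59t_corHpar N' H' 𝒪 𝒪 hPF' (a' t x))
    (hρ' : ∀ t δ x, a' t (s59t_rho N' H' 𝒪 𝒪 δ x) = s59t_rho N' H' 𝒪 𝒪 δ (a' t x))
    (tℓ' : 𝕋') (htℓ' : a' tℓ' = (s48h_TpDatum H' hℓN' σ' hσ' hσ11').heckeHpar 𝒪)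
    (htℓ₀' : a₀' tℓ' = s29h_heckeHpar N' ℓ' 𝒪 𝒪)
    (e' η' : 𝕋') (he' : a' e' * a' e' = a' e') (he₀' : a₀' e' * a₀' e' = a₀' e')
    (hη' : a' (η' * (tℓ' ^ 2 - ((ℓ' : 𝕋') + 1) ^ 2) * e') = a' e')
    (hη₀' : a₀' (η' * (tℓ' ^ 2 - ((ℓ' : 𝕋') + 1) ^ 2) * e') = a₀' e')
    -- the `Γ₀`-level Taylor–Wiles bijection
    (hτ : Function.Bijective (s59t_iotaH (a₀ e) (a₀' e') (s59t_res0Hpar h0 𝒪 𝒪))) :
    ∃ (d : ℕ) (b : Fin d → s59t_part (a e)) (b' : Fin d → s59t_part (a' e'))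
      (π : s59t_part (a' e') →ₗ[𝒪] s59t_part (a e)),
      Function.Bijective (s59t_evalMap (s59t_partRep (s59t_rho N H 𝒪 𝒪) (hρ e)) b) ∧
      Function.Bijective (s59t_evalMap (s59t_partRep (s59t_rho N' H' 𝒪 𝒪) (hρ' e')) b') ∧
      Function.Injective (s59t_iotaH (a e) (a' e') (s59t_resGHpar hle 𝒪 𝒪)) ∧
      (∀ y, s59t_iotaH (a e) (a' e') (s59t_resGHpar hle 𝒪 𝒪) (π y) =
        s59t_normPsi (s59t_partRep (s59t_rho N' H' 𝒪 𝒪) (hρ' e')) B 1 y) ∧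
      Function.Surjective π ∧
      LinearMap.ker π = Submodule.span 𝒪 {z : s59t_part (a' e') |
        ∃ β ∈ B, ∃ y, z = s59t_partRep (s59t_rho N' H' 𝒪 𝒪) (hρ' e') β y - y} := by
  obtain ⟨d, b, hb, hd, hsurj, hker⟩ := s59t_H2 N H ℓ hℓN hσ hσ11 p hp2 hneg hPF hΔ a a₀ hres hcor
    hρ tℓ htℓ htℓ₀ e η he he₀ hη hη₀
  obtain ⟨d', b', hb', hd', hsurj', hker'⟩ := s59t_H2 N' H' ℓ' hℓN' hσ' hσ11' p hp2 hneg' hPF' hΔ'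
    a' a₀' hres' hcor' hρ' tℓ' htℓ' htℓ₀' e' η' he' he₀' hη' hη₀'
  have hdd : d = d' := by
    rw [← hd, ← hd']
    exact LinearEquiv.finrank_eq (LinearEquiv.ofBijective _ hτ)
  subst hdd
  obtain ⟨hinj, -, π, hπ1, hπ2, hπ3⟩ := s59t_control_H (p := p) h0 hle hPF hPF' hΔ B C hBC hφB hφC
    (hρ e) (hρ' e') (hres e) (hres' e') (hcor e) (hcor' e') b hb hsurj hker b' hb' hsurj' hker' hτ
  exact ⟨d, b, b', π, hb, hb', hinj, hπ1, hπ2, hπ3⟩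

set_option maxHeartbeats 1600000 in
/-- **(H2) at both levels + control, with the description of the image of `ι`** (the
`B`-invariants). -/
theorem s59t_control_top_inv (p : ℕ) [Fact p.Prime] [CharP (ResidueField 𝒪) p] (hp2 : p ≠ 2)
    (hneg : (-1 : SL(2, ℤ)) ∈ s48h_GammaH N H) (hneg' : (-1 : SL(2, ℤ)) ∈ s48h_GammaH N' H')
    (hΔ : IsPGroup p (s59t_Delta N H)) (hΔ' : IsPGroup p (s59t_Delta N' H'))
    (B C : Subgroup (s59t_Delta N' H')) [Fintype B] [Fintype C]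
    (hBC : Function.Bijective (fun x : B × C => ((x.1 : s59t_Delta N' H') * (x.2 : _))))
    (hφB : ∀ β ∈ B, s59t_DeltaMap2 h0 hle β = 1)
    (hφC : Function.Bijective (fun γ : C => s59t_DeltaMap2 h0 hle (γ : s59t_Delta N' H')))
    -- level `N`
    (ℓ : ℕ) [Fact ℓ.Prime] (hℓN : ¬ ℓ ∣ N) {σ : SL(2, ℤ)} (hσ : σ ∈ Gamma0 N)
    (hσ11 : ((σ 1 1 : ℤ) : ZMod N) = (ℓ : ZMod N))
    {𝕋 : Type*} [CommRing 𝕋]
    (a : 𝕋 →+* Module.End 𝒪 (s48h_Hpar 𝒪 (s48h_GammaH N H) 𝒪))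
    (a₀ : 𝕋 →+* Module.End 𝒪 (s29h_Hpar 𝒪 N 𝒪))
    (hres : ∀ t y, a t (s59t_resHpar N H 𝒪 𝒪 y) = s59t_resHpar N H 𝒪 𝒪 (a₀ t y))
    (hcor : ∀ t x, a₀ t (s59t_corHpar N H 𝒪 𝒪 hPF x) = s59t_corHpar N H 𝒪 𝒪 hPF (a t x))
    (hρ : ∀ t δ x, a t (s59t_rho N H 𝒪 𝒪 δ x) = s59t_rho N H 𝒪 𝒪 δ (a t x))
    (tℓ : 𝕋) (htℓ : a tℓ = (s48h_TpDatum H hℓN σ hσ hσ11).heckeHpar 𝒪)
    (htℓ₀ : a₀ tℓ = s29h_heckeHpar N ℓ 𝒪 𝒪)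
    (e η : 𝕋) (he : a e * a e = a e) (he₀ : a₀ e * a₀ e = a₀ e)
    (hη : a (η * (tℓ ^ 2 - ((ℓ : 𝕋) + 1) ^ 2) * e) = a e)
    (hη₀ : a₀ (η * (tℓ ^ 2 - ((ℓ : 𝕋) + 1) ^ 2) * e) = a₀ e)
    -- level `N'`
    (ℓ' : ℕ) [Fact ℓ'.Prime] (hℓN' : ¬ ℓ' ∣ N') {σ' : SL(2, ℤ)} (hσ' : σ' ∈ Gamma0 N')
    (hσ11' : ((σ' 1 1 : ℤ) : ZMod N') = (ℓ' : ZMod N'))
    {𝕋' : Type*} [CommRing 𝕋']
    (a' : 𝕋' →+* Module.End 𝒪 (s48h_Hpar 𝒪 (s48h_GammaH N' H') 𝒪))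
    (a₀' : 𝕋' →+* Module.End 𝒪 (s29h_Hpar 𝒪 N' 𝒪))
    (hres' : ∀ t y, a' t (s59t_resHpar N' H' 𝒪 𝒪 y) = s59t_resHpar N' H' 𝒪 𝒪 (a₀' t y))
    (hcor' : ∀ t x, a₀' t (s59t_corHpar N' H' 𝒪 𝒪 hPF' x) =
      s59t_corHpar N' H' 𝒪 𝒪 hPF' (a' t x))
    (hρ' : ∀ t δ x, a' t (s59t_rho N' H' 𝒪 𝒪 δ x) = s59t_rho N' H' 𝒪 𝒪 δ (a' t x))
    (tℓ' : 𝕋') (htℓ' : a' tℓ' = (s48h_TpDatum H' hℓN' σ' hσ' hσ11').heckeHpar 𝒪)
    (htℓ₀' : a₀' tℓ' = s29h_heckeHpar N' ℓ' 𝒪 𝒪)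
    (e' η' : 𝕋') (he' : a' e' * a' e' = a' e') (he₀' : a₀' e' * a₀' e' = a₀' e')
    (hη' : a' (η' * (tℓ' ^ 2 - ((ℓ' : 𝕋') + 1) ^ 2) * e') = a' e')
    (hη₀' : a₀' (η' * (tℓ' ^ 2 - ((ℓ' : 𝕋') + 1) ^ 2) * e') = a₀' e')
    -- the `Γ₀`-level Taylor–Wiles bijection
    (hτ : Function.Bijective (s59t_iotaH (a₀ e) (a₀' e') (s59t_res0Hpar h0 𝒪 𝒪))) :
    ∃ (d : ℕ) (b : Fin d → s59t_part (a e)) (b' : Fin d → s59t_part (a' e'))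
      (π : s59t_part (a' e') →ₗ[𝒪] s59t_part (a e)),
      Function.Bijective (s59t_evalMap (s59t_partRep (s59t_rho N H 𝒪 𝒪) (hρ e)) b) ∧
      Function.Bijective (s59t_evalMap (s59t_partRep (s59t_rho N' H' 𝒪 𝒪) (hρ' e')) b') ∧
      Function.Injective (s59t_iotaH (a e) (a' e') (s59t_resGHpar hle 𝒪 𝒪)) ∧
      (∀ y : s59t_part (a' e'),
        (∀ β ∈ B, s59t_partRep (s59t_rho N' H' 𝒪 𝒪) (hρ' e') β y = y) →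
          ∃ x, s59t_iotaH (a e) (a' e') (s59t_resGHpar hle 𝒪 𝒪) x = y) ∧
      (∀ y, s59t_iotaH (a e) (a' e') (s59t_resGHpar hle 𝒪 𝒪) (π y) =
        s59t_normPsi (s59t_partRep (s59t_rho N' H' 𝒪 𝒪) (hρ' e')) B 1 y) ∧
      Function.Surjective π ∧
      LinearMap.ker π = Submodule.span 𝒪 {z : s59t_part (a' e') |
        ∃ β ∈ B, ∃ y, z = s59t_partRep (s59t_rho N' H' 𝒪 𝒪) (hρ' e') β y - y} := by
  obtain ⟨d, b, hb, hd, hsurj, hker⟩ := s59t_H2 N H ℓ hℓN hσ hσ11 p hp2 hneg hPF hΔ a a₀ hres hcor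
    hρ tℓ htℓ htℓ₀ e η he he₀ hη hη₀
  obtain ⟨d', b', hb', hd', hsurj', hker'⟩ := s59t_H2 N' H' ℓ' hℓN' hσ' hσ11' p hp2 hneg' hPF' hΔ'
    a' a₀' hres' hcor' hρ' tℓ' htℓ' htℓ₀' e' η' he' he₀' hη' hη₀'
  have hdd : d = d' := by
    rw [← hd, ← hd']
    exact LinearEquiv.finrank_eq (LinearEquiv.ofBijective _ hτ)
  subst hdd
  obtain ⟨hinj, hinv, π, hπ1, hπ2, hπ3⟩ := s59t_control_H (p := p) h0 hle hPF hPF' hΔ B C hBC hφB hφC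
    (hρ e) (hρ' e') (hres e) (hres' e') (hcor e) (hcor' e') b hb hsurj hker b' hb' hsurj' hker' hτ
  exact ⟨d, b, b', π, hb, hb', hinj, hinv, hπ1, hπ2, hπ3⟩

end Top

end Fermat.Agent.Lib.S59
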