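/-
Programme (R) = S59, node (H2) (helper8), file 31: complement to `TOld.lean`: **`E ∘ res_A` is onto
the `a`-part** — `P_al (res_A y) = ι_al ((be - al)⁻¹ y)`, hence for every `a`-part projector `E` of
`U`: every `z ∈ E Z` is `E (res_A y)`.  (Input `hf₀` of the `Γ_H`-level TW lemma `s59t_TWH_core`.)
-/
import Mathlib
import Fermat.Agent.Lib.S59.TOld

set_option autoImplicit false
set_option linter.unusedSectionVars false

open IsLocalRing

namespace Fermat.Agent.Lib.S59

namespace s59t_Old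

variable {R : Type*} [CommRing R] {Y Z : Type*} [AddCommGroup Y] [Module R Y]
  [AddCommGroup Z] [Module R Z] (D : s59t_Old R Y Z)
  {𝕃 : Type*} [CommRing 𝕃] [Algebra R 𝕃] {c : 𝕃 →ₐ[R] Module.End R Y}
  {al be : 𝕃} (hT : c (al + be) = D.T) (hq : al * be = algebraMap R 𝕃 D.qq)
  {d sa sb gb : 𝕃} {a r : R}
  (hd : (be - al) * d = 1) (hsa : (1 - al ^ 2) * sa = 1) (hsb : (1 - be ^ 2) * sb = 1)
  (hgb : (be - algebraMap R 𝕃 a) * gb = 1) (hr : (1 - a ^ 2) * r = 1)

include hT hq in
theorem lam_a_resA (y : Y) : D.lam c al (D.resA y) = c (1 - al ^ 2) y := by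
  rw [lam_apply, D.corA_resA, D.corB_resA, add_smul, one_smul, D.qq_smul (c := c) hq, ← hT,
    ← Module.End.mul_apply, ← map_mul]
  have h : (1 : 𝕃) - al ^ 2 = al * be + 1 - al * (al + be) := by ring
  rw [h]
  simp only [map_sub, map_add, map_one, LinearMap.sub_apply, LinearMap.add_apply,
    Module.End.one_apply]

include hT hq hsa in
/-- `P_al (res_A y) = ι_al (d y)`, `d = (be - al)⁻¹`. -/
theorem PA_resA (y : Y) : D.PA c al d sa (D.resA y) = D.iota c al (c d y) := by
  rw [PA_apply, piA_apply, D.lam_a_resA hT hq, ← Module.End.mul_apply, ← map_mul]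
  have h : d * sa * (1 - al ^ 2) = d := by linear_combination d * hsa
  rw [h]

variable [IsLocalRing R]

include hT hq hd hsa hsb hgb hr in
/-- **every element of the `a`-part is `E (res_A y)`.** -/
theorem exists_E_resA [IsNoetherianRing R] [Module.Finite R Z]
    (hnil : ∃ n : ℕ, ∀ y : Y,
      ((c (al - algebraMap R 𝕃 a)) ^ n) y ∈ (maximalIdeal R • ⊤ : Submodule R Y))
    {E : Module.End R Z} (hE : s59t_IsAlpha D.U a E) (z : Z) (hz : z ∈ LinearMap.range E) :
    ∃ y : Y, z = E (D.resA y) := by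
  have hEP : E = D.PA c al d sa :=
    s59t_alpha_unique hE (D.isAlpha hT hq hd hsa hsb hgb hr hnil)
  rw [D.range_of_isAlpha hT hq hd hsa hsb hgb hr hnil hE] at hz
  obtain ⟨y₁, rfl⟩ := hz
  refine ⟨c (be - al) y₁, ?_⟩
  rw [hEP, D.PA_resA hT hq hsa, ← Module.End.mul_apply, ← map_mul, mul_comm, hd, map_one,
    Module.End.one_apply]

end s59t_Old

end Fermat.Agent.Lib.S59
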