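/-
Programme (R) = S59, node (H2) (helper8), file 21: **[TWLEMMA]** at `Γ₀`-level.

`𝒪` a DVR, `q ∤ M`; `ε`, `ε'` idempotents on `H(Γ₀(M), 𝒪)`, `H(Γ₀(M q), 𝒪)` commuting with the level
maps, `T_q`, `U_q`, `w_q` (the localisation at a maximal ideal of the Hecke algebra away from `q`);
a commutative `𝒪`-algebra `𝕃` acting on `ε H(Γ₀(M), 𝒪)` with roots `al`, `be` of `X² - T_q X + q`,
`be - al`, `1 - al²`, `1 - be²` units, `al ≡ a` (topologically), `be - a` a unit, `1 - a² ∈ 𝒪ˣ`.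
Then for every `a`-part projector `E` of `U_q` on `ε' H(Γ₀(M q), 𝒪)`:
  `ε H(Γ₀(M), 𝒪) ≃ E ε' H(Γ₀(M q), 𝒪)`, `y ↦ resB y - resA (al y)`.
-/
import Mathlib
import Fermat.Agent.Lib.S59.TNew
import Fermat.Agent.Lib.S59.TFin

set_option autoImplicit false
set_option linter.unusedSectionVars false
set_option linter.style.haveILetI false

noncomputable section

namespace Fermat.Agent.Lib.S59

open CongruenceSubgroup IsLocalRing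
open Fermat.Agent.Lib.S29 Fermat.Agent.Lib.S41

variable {𝒪 : Type*} [CommRing 𝒪] [IsDomain 𝒪] [IsDiscreteValuationRing 𝒪]
  (M q : ℕ) [NeZero M] [hq : Fact q.Prime] (hqM : ¬ q ∣ M)
  {ε : Module.End 𝒪 (s29h_Hpar 𝒪 M 𝒪)} {ε' : Module.End 𝒪 (s29h_Hpar 𝒪 (M * q) 𝒪)}
  (hc : (s59t_oldData M q hqM 𝒪 𝒪).Compat ε ε')
  {𝕃 : Type*} [CommRing 𝕃] [Algebra 𝒪 𝕃] (c : 𝕃 →ₐ[𝒪] Module.End 𝒪 (s59t_part ε))
  {al be d sa sb gb : 𝕃} {a r : 𝒪}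

/-- **[TWLEMMA]** -/
theorem s59t_TWL
    (hT : c (al + be) = ((s59t_oldData M q hqM 𝒪 𝒪).restrict hc).T)
    (hqq : al * be = algebraMap 𝒪 𝕃 (q : 𝒪))
    (hd : (be - al) * d = 1) (hsa : (1 - al ^ 2) * sa = 1) (hsb : (1 - be ^ 2) * sb = 1)
    (hgb : (be - algebraMap 𝒪 𝕃 a) * gb = 1) (hr : (1 - a ^ 2) * r = 1)
    (hnil : ∃ n : ℕ, ∀ y : s59t_part ε,
      ((c (al - algebraMap 𝒪 𝕃 a)) ^ n) y ∈ (maximalIdeal 𝒪 • ⊤ : Submodule 𝒪 (s59t_part ε)))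
    {E : _}
    (hE : s59t_IsAlpha ((s59t_oldData M q hqM 𝒪 𝒪).restrict hc).U a E) :
    ∃ Φ : s59t_part ε ≃ₗ[𝒪] LinearMap.range E, ∀ y,
      (Φ y).1 = ((s59t_oldData M q hqM 𝒪 𝒪).restrict hc).iota c al y := by
  haveI : NeZero (M * q) := ⟨Nat.mul_ne_zero (NeZero.ne M) hq.out.ne_zero⟩
  haveI : Module.Finite 𝒪 (s29h_Hpar 𝒪 (M * q) 𝒪) := s59t_Hpar_finite 𝒪 (Γ := Gamma0 (M * q))
  haveI : Module.Finite 𝒪 (s59t_part ε') := s59t_part_finite ε'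
  exact ((s59t_oldData M q hqM 𝒪 𝒪).restrict hc).exists_equiv hT hqq hd hsa hsb hgb hr hnil hE

end Fermat.Agent.Lib.S59
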