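/-
Programme (R) = S59, node (H2) (helper8), file 38: **the `Γ₀`-level Taylor–Wiles isomorphism in
restriction form, and its composition** (input `hτ` of `s59t_control_H`).

* `s59t_resA_eq_res0` : `res_A` of the level package `s59t_oldData M q` is the restriction
  `s59t_res0Hpar` along `Γ₀(M q) ≤ Γ₀(M)`;
* **`s59t_TWL0_bij`** : in the situation of `s59t_TWL` (`ε` on `H(Γ₀(M))`, `ε''` on `H(Γ₀(M q))`
  compatible with the level package; `ε' ≤ ε''` an idempotent whose restriction to `ε'' H(Γ₀(Mq))`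
  is the `a`-part projector of `U_q`): `y ↦ ε' (y|Γ₀(M q))` is BIJECTIVE
  `ε H(Γ₀(M), 𝒪) → ε' H(Γ₀(M q), 𝒪)`;
* `s59t_iotaH_comp`, `s59t_iotaH_comp_bijective` : composition of two such steps.
-/
import Mathlib
import Fermat.Agent.Lib.S59.TResG
import Fermat.Agent.Lib.S59.TTW
import Fermat.Agent.Lib.S59.TOld2
import Fermat.Agent.Lib.S59.TCtrl

set_option autoImplicit false
set_option linter.unusedSectionVars false
set_option linter.style.haveILetI false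

noncomputable section

namespace Fermat.Agent.Lib.S59

open CongruenceSubgroup IsLocalRing
open Fermat.Agent.Lib.S29 Fermat.Agent.Lib.S41 Fermat.Agent.Lib.S48
open scoped MatrixGroups

section Comp

variable {R : Type*} [CommRing R] {Y₀ Y₁ Y₂ : Type*} [AddCommGroup Y₀] [Module R Y₀]
  [AddCommGroup Y₁] [Module R Y₁] [AddCommGroup Y₂] [Module R Y₂]

/-- composition of two steps `x ↦ ε' (r x)`. -/
theorem s59t_iotaH_comp (ε₀ : Module.End R Y₀) (ε₁ : Module.End R Y₁) (ε₂ : Module.End R Y₂)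
    (r₀₁ : Y₀ →ₗ[R] Y₁) (r₁₂ : Y₁ →ₗ[R] Y₂) (h : ∀ w, ε₂ (r₁₂ (ε₁ w)) = ε₂ (r₁₂ w))
    (x : s59t_part ε₀) :
    s59t_iotaH ε₁ ε₂ r₁₂ (s59t_iotaH ε₀ ε₁ r₀₁ x) = s59t_iotaH ε₀ ε₂ (r₁₂ ∘ₗ r₀₁) x := by
  apply Subtype.ext
  rw [s59t_iotaH_val, s59t_iotaH_val, s59t_iotaH_val, h]
  rfl

theorem s59t_iotaH_comp_bijective (ε₀ : Module.End R Y₀) (ε₁ : Module.End R Y₁)
    (ε₂ : Module.End R Y₂) (r₀₁ : Y₀ →ₗ[R] Y₁) (r₁₂ : Y₁ →ₗ[R] Y₂)
    (h : ∀ w, ε₂ (r₁₂ (ε₁ w)) = ε₂ (r₁₂ w))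
    (h₀₁ : Function.Bijective (s59t_iotaH ε₀ ε₁ r₀₁))
    (h₁₂ : Function.Bijective (s59t_iotaH ε₁ ε₂ r₁₂)) :
    Function.Bijective (s59t_iotaH ε₀ ε₂ (r₁₂ ∘ₗ r₀₁)) := by
  have e : ⇑(s59t_iotaH ε₀ ε₂ (r₁₂ ∘ₗ r₀₁)) =
      ⇑(s59t_iotaH ε₁ ε₂ r₁₂) ∘ ⇑(s59t_iotaH ε₀ ε₁ r₀₁) := by
    funext x
    exact (s59t_iotaH_comp ε₀ ε₁ ε₂ r₀₁ r₁₂ h x).symm
  rw [e]
  exact h₁₂.comp h₀₁

end Comp

section Res0

variable {N N' N'' : ℕ} (h0 : Gamma0 N' ≤ Gamma0 N) (h0' : Gamma0 N'' ≤ Gamma0 N')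
  (R : Type*) [CommRing R] (A : Type*) [AddCommGroup A] [Module R A]

theorem s59t_res0Hpar_trans :
    s59t_res0Hpar h0' R A ∘ₗ s59t_res0Hpar h0 R A = s59t_res0Hpar (h0'.trans h0) R A := rfl

end Res0

section ResA

variable (M q : ℕ) [hq : Fact q.Prime] (hqM : ¬ q ∣ M) (R : Type*) [CommRing R] (A : Type*)
  [AddCommGroup A] [Module R A]

/-- `res_A` is the restriction along `Γ₀(M q) ≤ Γ₀(M)`. -/
theorem s59t_resA_eq_res0 (y : s29h_Hpar R M A) :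
    (s59t_oldData M q hqM R A).resA y = s59t_res0Hpar (s59t_Gamma0_mul_le (N := M) (q := q)) R A y := by
  apply Subtype.ext
  refine AddMonoidHom.ext fun a => ?_
  obtain ⟨γ, rfl⟩ := Additive.ofMul.surjective a
  show s41l_resA M q A y.1 (Additive.ofMul γ) =
    y.1 (Additive.ofMul (⟨(γ : SL(2, ℤ)), s59t_Gamma0_mul_le γ.2⟩ : Gamma0 M))
  rw [s41l_resA_apply]
  congr 2
  exact Subtype.ext (s41l_incl_coe M q γ)

end ResA

section OneStep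

variable {𝒪 : Type*} [CommRing 𝒪] [IsDomain 𝒪] [IsDiscreteValuationRing 𝒪]
  (M q : ℕ) [NeZero M] [hq : Fact q.Prime] (hqM : ¬ q ∣ M)
  {ε : Module.End 𝒪 (s29h_Hpar 𝒪 M 𝒪)} {ε'' ε' : Module.End 𝒪 (s29h_Hpar 𝒪 (M * q) 𝒪)}
  (hc : (s59t_oldData M q hqM 𝒪 𝒪).Compat ε ε'')
  {𝕃 : Type*} [CommRing 𝕃] [Algebra 𝒪 𝕃] (c : 𝕃 →ₐ[𝒪] Module.End 𝒪 (s59t_part ε))
  {al be d sa sb gb : 𝕃} {a r : 𝒪}

set_option maxHeartbeats 800000 in
/-- **the `Γ₀`-level Taylor–Wiles isomorphism, restriction form.** -/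
theorem s59t_TWL0_bij
    (hT : c (al + be) = ((s59t_oldData M q hqM 𝒪 𝒪).restrict hc).T)
    (hqq : al * be = algebraMap 𝒪 𝕃 (q : 𝒪))
    (hd : (be - al) * d = 1) (hsa : (1 - al ^ 2) * sa = 1) (hsb : (1 - be ^ 2) * sb = 1)
    (hgb : (be - algebraMap 𝒪 𝕃 a) * gb = 1) (hr : (1 - a ^ 2) * r = 1)
    (hnil : ∃ n : ℕ, ∀ y : s59t_part ε,
      ((c (al - algebraMap 𝒪 𝕃 a)) ^ n) y ∈ (maximalIdeal 𝒪 • ⊤ : Submodule 𝒪 (s59t_part ε)))
    (hcomm : ∀ z, ε'' (ε' z) = ε' (ε'' z)) (hle : ∀ z, ε' (ε'' z) = ε' z)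
    (hE : s59t_IsAlpha (Z := s59t_part ε'') ((s59t_oldData M q hqM 𝒪 𝒪).restrict hc).U a
      (s59t_partMap (ε := ε'') (ε' := ε'') ε' hcomm)) :
    Function.Bijective
      (s59t_iotaH ε ε' (s59t_res0Hpar (s59t_Gamma0_mul_le (N := M) (q := q)) 𝒪 𝒪)) := by
  haveI : NeZero (M * q) := ⟨Nat.mul_ne_zero (NeZero.ne M) hq.out.ne_zero⟩
  haveI : Module.Finite 𝒪 (s29h_Hpar 𝒪 (M * q) 𝒪) := s59t_Hpar_finite 𝒪 (Γ := Gamma0 (M * q))
  haveI : Module.Finite 𝒪 (s59t_part ε'') := s59t_part_finite ε''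
  set D := (s59t_oldData M q hqM 𝒪 𝒪).restrict hc with hD
  set E : Module.End 𝒪 (s59t_part ε'') := s59t_partMap (ε := ε'') (ε' := ε'') ε' hcomm with hEdef
  have hTWL := s59t_TWL M q hqM hc c hT hqq hd hsa hsb hgb hr hnil hE
  have hex := D.exists_E_resA hT hqq hd hsa hsb hgb hr hnil hE
  obtain ⟨Φ, -⟩ := hTWL
  -- the map `y ↦ E (res_A y)` with values in `range E`
  let τ₁ : s59t_part ε →ₗ[𝒪] LinearMap.range E :=
    (E ∘ₗ D.resA).codRestrict (LinearMap.range E) (fun y => ⟨D.resA y, rfl⟩)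
  have hτ₁ : ∀ y, ((τ₁ y : LinearMap.range E) : s59t_part ε'') = E (D.resA y) := fun _ => rfl
  have hτ₁s : Function.Surjective τ₁ := by
    intro z
    obtain ⟨y, hy⟩ := hex z.1 z.2
    exact ⟨y, Subtype.ext hy.symm⟩
  have hτ₁i : Function.Injective τ₁ := by
    let g : LinearMap.range E →ₗ[𝒪] LinearMap.range E := τ₁ ∘ₗ (Φ.symm : _ →ₗ[𝒪] _)
    have hg : Function.Surjective g := hτ₁s.comp Φ.symm.surjective
    have hgi : Function.Injective g := OrzechProperty.injective_of_surjective_endomorphism g hg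
    intro y y' hyy
    have e : ∀ y, g (Φ y) = τ₁ y := fun y => congrArg τ₁ (Φ.symm_apply_apply y)
    have h1 : g (Φ y) = g (Φ y') := (e y).trans (hyy.trans (e y').symm)
    exact Φ.injective (hgi h1)
  -- `ι y = E (res_A y)`
  have hι : ∀ y : s59t_part ε,
      ((s59t_iotaH ε ε' (s59t_res0Hpar (s59t_Gamma0_mul_le (N := M) (q := q)) 𝒪 𝒪) y :
        s59t_part ε') : s29h_Hpar 𝒪 (M * q) 𝒪) =
      (((τ₁ y : LinearMap.range E) : s59t_part ε'') : s29h_Hpar 𝒪 (M * q) 𝒪) := by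
    intro y
    rw [s59t_iotaH_val, hτ₁, ← s59t_resA_eq_res0 M q hqM]
    rfl
  constructor
  · intro y y' hyy
    apply hτ₁i
    apply Subtype.ext
    apply Subtype.ext
    exact (hι y).symm.trans ((congrArg Subtype.val hyy).trans (hι y'))
  · intro z
    obtain ⟨w, hw⟩ := z.2
    have hz : E (s59t_proj ε'' w) ∈ LinearMap.range E := ⟨_, rfl⟩
    obtain ⟨y, hy⟩ := hτ₁s ⟨_, hz⟩
    refine ⟨y, Subtype.ext ?_⟩
    have h1 : (((τ₁ y : LinearMap.range E) : s59t_part ε'') : s29h_Hpar 𝒪 (M * q) 𝒪) =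
        ε' (ε'' w) :=
      congrArg (fun t : LinearMap.range E => ((t : s59t_part ε'') : s29h_Hpar 𝒪 (M * q) 𝒪)) hy
    exact (hι y).trans (h1.trans ((hle w).trans hw))

end OneStep

end Fermat.Agent.Lib.S59
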