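/-
Programme (R) = S59, node (B2) concrete module half (helper8), file 57: **the polynomial Hecke ring
of a commuting family of operators.**  `op : I → End_𝒪 Z` pairwise commuting; then
`s59t_polyAct op hc : 𝒪[X_i : i ∈ I] →ₐ[𝒪] End_𝒪 Z`, `X_i ↦ op i`.
* `s59t_polyAct_intertwine` : a linear map intertwining the generators intertwines the actions;
* `s59t_polyAct_commute`    : an endomorphism commuting with the generators commutes with the action;
* `s59t_polyAct_rename`     : change of index set;
* `s59t_evalIdeal c`        : the maximal ideal `(𝔪, X_i - c_i)` (`𝒪` local), with residue field `k_𝒪`.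
Mathlib only.
-/
import Mathlib

set_option autoImplicit false
set_option linter.unusedSectionVars false

noncomputable section

namespace Fermat.Agent.Lib.S59

section PolyAct

variable {𝒪 : Type*} [CommRing 𝒪] {Z : Type*} [AddCommGroup Z] [Module 𝒪 Z] {I : Type*}

/-- the generators as elements of the (commutative) algebra they generate. -/
def s59t_polyGen (op : I → Module.End 𝒪 Z) (i : I) : Algebra.adjoin 𝒪 (Set.range op) :=
  ⟨op i, Algebra.subset_adjoin ⟨i, rfl⟩⟩

open scoped IsMulCommutative in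
/-- the `𝒪`-algebra homomorphism `𝒪[X_i] → End Z` of a commuting family. -/
def s59t_polyAct (op : I → Module.End 𝒪 Z) (hc : ∀ i j, op i * op j = op j * op i) :
    MvPolynomial I 𝒪 →ₐ[𝒪] Module.End 𝒪 Z :=
  haveI : IsMulCommutative (Algebra.adjoin 𝒪 (Set.range op)) :=
    Algebra.isMulCommutative_adjoin 𝒪 (by rintro _ ⟨i, rfl⟩ _ ⟨j, rfl⟩; exact hc i j)
  (Subalgebra.val _).comp (MvPolynomial.aeval (s59t_polyGen op))

theorem s59t_polyAct_X (op : I → Module.End 𝒪 Z) (hc : ∀ i j, op i * op j = op j * op i) (i : I) :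
    s59t_polyAct op hc (MvPolynomial.X i) = op i := by
  unfold s59t_polyAct
  simp [s59t_polyGen]

theorem s59t_polyAct_C (op : I → Module.End 𝒪 Z) (hc : ∀ i j, op i * op j = op j * op i) (r : 𝒪) :
    s59t_polyAct op hc (MvPolynomial.C r) = r • (1 : Module.End 𝒪 Z) := by
  rw [← MvPolynomial.algebraMap_eq, AlgHom.commutes, Algebra.algebraMap_eq_smul_one]

theorem s59t_polyAct_comm (op : I → Module.End 𝒪 Z) (hc : ∀ i j, op i * op j = op j * op i)
    (s t : MvPolynomial I 𝒪) (z : Z) :
    s59t_polyAct op hc s (s59t_polyAct op hc t z) = s59t_polyAct op hc t (s59t_polyAct op hc s z) := by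
  rw [← Module.End.mul_apply, ← Module.End.mul_apply, ← map_mul, ← map_mul, mul_comm]

variable {Z' : Type*} [AddCommGroup Z'] [Module 𝒪 Z']

/-- **a linear map intertwining the generators intertwines the polynomial actions.** -/
theorem s59t_polyAct_intertwine (op : I → Module.End 𝒪 Z) (hc : ∀ i j, op i * op j = op j * op i)
    (op' : I → Module.End 𝒪 Z') (hc' : ∀ i j, op' i * op' j = op' j * op' i)
    (f : Z →ₗ[𝒪] Z') (hf : ∀ i z, f (op i z) = op' i (f z)) (t : MvPolynomial I 𝒪) (z : Z) :
    f (s59t_polyAct op hc t z) = s59t_polyAct op' hc' t (f z) := by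
  induction t using MvPolynomial.induction_on generalizing z with
  | C r =>
    rw [s59t_polyAct_C, s59t_polyAct_C, LinearMap.smul_apply, LinearMap.smul_apply,
      Module.End.one_apply, Module.End.one_apply, map_smul]
  | add s t hs ht =>
    rw [map_add, map_add, LinearMap.add_apply, LinearMap.add_apply, map_add, hs, ht]
  | mul_X s i hs =>
    rw [map_mul, map_mul, s59t_polyAct_X, s59t_polyAct_X, Module.End.mul_apply,
      Module.End.mul_apply, hs, hf]

/-- **intertwining for the polynomials supported on a set of good indices.** -/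
theorem s59t_polyAct_intertwine_supported (op : I → Module.End 𝒪 Z)
    (hc : ∀ i j, op i * op j = op j * op i)
    (op' : I → Module.End 𝒪 Z') (hc' : ∀ i j, op' i * op' j = op' j * op' i)
    (S : Set I) (f : Z →ₗ[𝒪] Z') (hf : ∀ i ∈ S, ∀ z, f (op i z) = op' i (f z))
    {t : MvPolynomial I 𝒪} (ht : t ∈ MvPolynomial.supported 𝒪 S) (z : Z) :
    f (s59t_polyAct op hc t z) = s59t_polyAct op' hc' t (f z) := by
  rw [MvPolynomial.supported_eq_adjoin_X] at ht
  induction ht using Algebra.adjoin_induction generalizing z with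
  | mem x hx =>
    obtain ⟨i, hi, rfl⟩ := hx
    rw [s59t_polyAct_X, s59t_polyAct_X, hf i hi]
  | algebraMap r =>
    rw [AlgHom.commutes, AlgHom.commutes, Module.algebraMap_end_apply,
      Module.algebraMap_end_apply, map_smul]
  | add s t _ _ hs ht =>
    rw [map_add, map_add, LinearMap.add_apply, LinearMap.add_apply, map_add, hs, ht]
  | mul s t _ _ hs ht =>
    rw [map_mul, map_mul, Module.End.mul_apply, Module.End.mul_apply, hs, ht]

/-- an endomorphism commuting with the generators commutes with the polynomial action. -/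
theorem s59t_polyAct_commute (op : I → Module.End 𝒪 Z) (hc : ∀ i j, op i * op j = op j * op i)
    (g : Module.End 𝒪 Z) (hg : ∀ i z, g (op i z) = op i (g z)) (t : MvPolynomial I 𝒪) (z : Z) :
    g (s59t_polyAct op hc t z) = s59t_polyAct op hc t (g z) :=
  s59t_polyAct_intertwine op hc op hc g hg t z

/-- change of index set. -/
theorem s59t_polyAct_rename {J : Type*} (φ : I → J) (op : J → Module.End 𝒪 Z)
    (hc : ∀ i j, op i * op j = op j * op i) (t : MvPolynomial I 𝒪) :
    s59t_polyAct op hc (MvPolynomial.rename φ t) =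
      s59t_polyAct (fun i => op (φ i)) (fun i j => hc (φ i) (φ j)) t := by
  induction t using MvPolynomial.induction_on with
  | C r => rw [MvPolynomial.rename_C, s59t_polyAct_C, s59t_polyAct_C]
  | add s t hs ht => rw [map_add, map_add, map_add, hs, ht]
  | mul_X s i hs =>
    rw [map_mul, map_mul, map_mul, MvPolynomial.rename_X, s59t_polyAct_X, s59t_polyAct_X, hs]

/-- the action depends only on the family. -/
theorem s59t_polyAct_congr (op op' : I → Module.End 𝒪 Z)
    (hc : ∀ i j, op i * op j = op j * op i) (hc' : ∀ i j, op' i * op' j = op' j * op' i)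
    (h : ∀ i, op i = op' i) (t : MvPolynomial I 𝒪) :
    s59t_polyAct op hc t = s59t_polyAct op' hc' t := by
  have : op = op' := funext h
  subst this
  rfl

end PolyAct

/-! ### The evaluation ideal -/

section EvalIdeal

open IsLocalRing

variable {𝒪 : Type*} [CommRing 𝒪] [IsLocalRing 𝒪] {I : Type*}

/-- evaluation at `c` modulo `𝔪`. -/
def s59t_evalHom (c : I → 𝒪) : MvPolynomial I 𝒪 →+* ResidueField 𝒪 :=
  MvPolynomial.eval₂Hom (residue 𝒪) (fun i => residue 𝒪 (c i))

theorem s59t_evalHom_X (c : I → 𝒪) (i : I) :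
    s59t_evalHom c (MvPolynomial.X i) = residue 𝒪 (c i) := by
  unfold s59t_evalHom
  simp

theorem s59t_evalHom_C (c : I → 𝒪) (r : 𝒪) :
    s59t_evalHom c (MvPolynomial.C r) = residue 𝒪 r := by
  unfold s59t_evalHom
  simp

theorem s59t_evalHom_surjective (c : I → 𝒪) : Function.Surjective (s59t_evalHom c) := by
  intro x
  obtain ⟨r, rfl⟩ := residue_surjective x
  exact ⟨MvPolynomial.C r, s59t_evalHom_C c r⟩

/-- **the maximal ideal `(𝔪, X_i - c_i)` of `𝒪[X_i]`.** -/
def s59t_evalIdeal (c : I → 𝒪) : Ideal (MvPolynomial I 𝒪) := RingHom.ker (s59t_evalHom c)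

instance s59t_evalIdeal_isMaximal (c : I → 𝒪) : (s59t_evalIdeal c).IsMaximal :=
  RingHom.ker_isMaximal_of_surjective _ (s59t_evalHom_surjective c)

theorem s59t_mem_evalIdeal (c : I → 𝒪) (t : MvPolynomial I 𝒪) :
    t ∈ s59t_evalIdeal c ↔ s59t_evalHom c t = 0 := RingHom.mem_ker

theorem s59t_X_sub_C_mem_evalIdeal (c : I → 𝒪) (i : I) :
    MvPolynomial.X i - MvPolynomial.C (c i) ∈ s59t_evalIdeal c := by
  rw [s59t_mem_evalIdeal, map_sub, s59t_evalHom_X, s59t_evalHom_C, sub_self]

theorem s59t_X_sub_C_mem_evalIdeal' (c : I → 𝒪) (i : I) (d : 𝒪)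
    (hd : d - c i ∈ maximalIdeal 𝒪) :
    MvPolynomial.X i - MvPolynomial.C d ∈ s59t_evalIdeal c := by
  rw [s59t_mem_evalIdeal, map_sub, s59t_evalHom_X, s59t_evalHom_C, ← map_sub,
    ← neg_sub, map_neg, (residue_eq_zero_iff _).mpr hd, neg_zero]

theorem s59t_C_mem_evalIdeal (c : I → 𝒪) (r : 𝒪) :
    MvPolynomial.C r ∈ s59t_evalIdeal c ↔ r ∈ maximalIdeal 𝒪 := by
  rw [s59t_mem_evalIdeal, s59t_evalHom_C, residue_eq_zero_iff]

/-- an element is outside the ideal iff its value at `c` is a unit. -/
theorem s59t_not_mem_evalIdeal (c : I → 𝒪) (t : MvPolynomial I 𝒪) :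
    t ∉ s59t_evalIdeal c ↔ IsUnit (MvPolynomial.eval c t) := by
  have h : s59t_evalHom c t = residue 𝒪 (MvPolynomial.eval c t) := by
    unfold s59t_evalHom
    induction t using MvPolynomial.induction_on with
    | C r => simp
    | add s t hs ht => rw [map_add, map_add, map_add, hs, ht]
    | mul_X s i hs => rw [map_mul, map_mul, map_mul, hs]; simp
  rw [s59t_mem_evalIdeal, h, residue_eq_zero_iff, mem_maximalIdeal, mem_nonunits_iff, not_not]

/-- compatibility with a change of index set. -/
theorem s59t_evalIdeal_rename {J : Type*} (φ : I → J) (c : J → 𝒪) (t : MvPolynomial I 𝒪) :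
    MvPolynomial.rename φ t ∈ s59t_evalIdeal c ↔ t ∈ s59t_evalIdeal (fun i => c (φ i)) := by
  rw [s59t_mem_evalIdeal, s59t_mem_evalIdeal]
  have : s59t_evalHom c (MvPolynomial.rename φ t) = s59t_evalHom (fun i => c (φ i)) t := by
    unfold s59t_evalHom
    rw [MvPolynomial.coe_eval₂Hom, MvPolynomial.coe_eval₂Hom, MvPolynomial.eval₂_rename]
    rfl
  rw [this]

end EvalIdeal

end Fermat.Agent.Lib.S59
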