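/-
Programme (R) = S59, node (B2) concrete module half (helper8), file 60: **the Hecke operators at
`Γ₀(M)`-level as a commuting family indexed by `s59w_AIdx N' ⊕ ℕ`** (`M ∣ N'`):
`inl (inl i) ↦ T_{ℓ_i}`, `inl (inr τ) ↦ 1` (diamonds are trivial at `Γ₀`-level),
`inr q ↦ U_q` if `q` is a prime dividing `M`, and the SCALAR `a_q` otherwise.
* `s59t_res_top_injective` : `Γ_⊤(M) = Γ₀(M)`, so everything proved by helper3 at `Γ_H`-level holds
  at `Γ₀`-level: `s59t_T0_comm`, `s59t_U0_T0_comm`, `s59t_U0_comm`;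
* `s59t_op0`, `s59t_op0_comm`, `s59t_act0 : 𝒪[X_j] →ₐ End H_par(Γ₀(M), 𝒪)`;
* `s59t_res0_op0` : restriction `Γ₀(M) → Γ₀(M q)` intertwines all generators except `inr q`;
* `s59t_compat_anemic` : the anemic polynomials are compatible with the level package `M → M q`.
-/
import Mathlib
import Fermat.Agent.Lib.S59.TPolyAct
import Fermat.Agent.Lib.S59.TChain
import Fermat.Agent.Lib.S59.WAlg
import Fermat.Agent.Lib.S41.LVComm

set_option autoImplicit false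
set_option linter.unusedSectionVars false
set_option linter.style.haveILetI false

noncomputable section

namespace Fermat.Agent.Lib.S59

open Matrix MatrixGroups CongruenceSubgroup IsLocalRing
open Fermat.Agent.Lib.S29 Fermat.Agent.Lib.S48 Fermat.Agent.Lib.S41

/-! ### `Γ_⊤(M) = Γ₀(M)` -/

section Top

variable (M : ℕ) [NeZero M] (A : Type*) [AddCommGroup A]

theorem s59t_mem_GammaH_top (g : Gamma0 M) : (g : SL(2, ℤ)) ∈ s48h_GammaH M ⊤ :=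
  (s59t_mem_GammaH_iff_unit g).mpr (Subgroup.mem_top _)

theorem s59t_res_top_injective : Function.Injective (s59t_res M ⊤ A) := by
  intro ψ ψ' h
  refine AddMonoidHom.ext fun a => ?_
  obtain ⟨g, rfl⟩ := Additive.ofMul.surjective a
  have := DFunLike.congr_fun h (Additive.ofMul (⟨(g : SL(2, ℤ)), s59t_mem_GammaH_top M g⟩ :
    s48h_GammaH M ⊤))
  rw [s59t_res_apply, s59t_res_apply] at this
  exact this

variable {M A}

/-- two operators on `Hom(Γ₀(M), A)` commute as soon as their `Γ_⊤`-versions do. -/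
theorem s59t_comm0_of_top
    {f g : (Additive (Gamma0 M) →+ A) →+ (Additive (Gamma0 M) →+ A)}
    {f' g' : (Additive (s48h_GammaH M ⊤) →+ A) →+ (Additive (s48h_GammaH M ⊤) →+ A)}
    (hf : ∀ ψ, s59t_res M ⊤ A (f ψ) = f' (s59t_res M ⊤ A ψ))
    (hg : ∀ ψ, s59t_res M ⊤ A (g ψ) = g' (s59t_res M ⊤ A ψ))
    (hc : ∀ χ, f' (g' χ) = g' (f' χ)) (ψ : Additive (Gamma0 M) →+ A) :
    f (g ψ) = g (f ψ) := by
  apply s59t_res_top_injective M A
  rw [hf, hg, hg, hf, hc]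

end Top

/-! ### Commutation at `Γ₀(M)`-level -/

section Comm0

variable {M : ℕ} [NeZero M] {A : Type*} [AddCommGroup A]

theorem s59t_T0_comm (ℓ ℓ' : ℕ) [Fact ℓ.Prime] [Fact ℓ'.Prime] (hℓ : ¬ ℓ ∣ M) (hℓ' : ¬ ℓ' ∣ M)
    (ψ : Additive (Gamma0 M) →+ A) :
    s29h_heckeHom M ℓ A (s29h_heckeHom M ℓ' A ψ) =
      s29h_heckeHom M ℓ' A (s29h_heckeHom M ℓ A ψ) := by
  by_cases h : ℓ = ℓ'
  · subst h
    rfl
  obtain ⟨σ, hσ, h11⟩ := s48h_exists_sigma_p hℓ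
  obtain ⟨σ', hσ', h11'⟩ := s48h_exists_sigma_p hℓ'
  exact s59t_comm0_of_top (fun ψ => s59t_res_hecke (H := ⊤) hℓ hσ h11 ψ)
    (fun ψ => s59t_res_hecke (H := ⊤) hℓ' hσ' h11' ψ)
    (fun χ => s59w_TpH_comm (fun e => h e.symm) hℓ' hℓ σ' hσ' h11' σ hσ h11 χ) ψ

theorem s59t_U0_T0_comm (ℓ q : ℕ) [Fact ℓ.Prime] [Fact q.Prime] (hℓ : ¬ ℓ ∣ M) (hq : q ∣ M)
    (ψ : Additive (Gamma0 M) →+ A) :
    (s59t_UqDatum0 M hq).heckeHom A (s29h_heckeHom M ℓ A ψ) =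
      s29h_heckeHom M ℓ A ((s59t_UqDatum0 M hq).heckeHom A ψ) := by
  obtain ⟨σ, hσ, h11⟩ := s48h_exists_sigma_p hℓ
  exact s59t_comm0_of_top (fun ψ => s59t_res_Uq (H := ⊤) hq ψ)
    (fun ψ => s59t_res_hecke (H := ⊤) hℓ hσ h11 ψ)
    (fun χ => s59w_UqH_TpH_comm hℓ hq σ hσ h11 χ) ψ

theorem s59t_U0_comm (q q' : ℕ) [Fact q.Prime] [Fact q'.Prime] (hq : q ∣ M) (hq' : q' ∣ M)
    (ψ : Additive (Gamma0 M) →+ A) :
    (s59t_UqDatum0 M hq').heckeHom A ((s59t_UqDatum0 M hq).heckeHom A ψ) =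
      (s59t_UqDatum0 M hq).heckeHom A ((s59t_UqDatum0 M hq').heckeHom A ψ) := by
  by_cases h : q = q'
  · subst h
    rfl
  exact s59t_comm0_of_top (fun ψ => s59t_res_Uq (H := ⊤) hq' ψ)
    (fun ψ => s59t_res_Uq (H := ⊤) hq ψ)
    (fun χ => s59w_UqH_comm h hq hq' χ) ψ

end Comm0

/-! ### `U_q` on `H_par(Γ₀(M))` -/

section U0Hpar

variable (M : ℕ) {q : ℕ} [Fact q.Prime] (hq : q ∣ M) (R : Type*) [CommRing R] (A : Type*)
  [AddCommGroup A] [Module R A]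

/-- **`U_q` on `H_par(Γ₀(M), A)`**, `q ∣ M`. -/
def s59t_U0Hpar : Module.End R (s29h_Hpar R M A) :=
  s59t_linOf R A ((s59t_UqDatum0 M hq).heckeHom A)
    (fun _ h => (s59t_UqDatum0 M hq).heckeHom_mem_Hpar (R := R) h)
    (fun c ψ => (s59t_UqDatum0 M hq).heckeHom_smul c ψ)

theorem s59t_U0Hpar_coe (ψ : s29h_Hpar R M A) :
    ((s59t_U0Hpar M hq R A ψ : s29h_Hpar R M A) : Additive (Gamma0 M) →+ A) =
      (s59t_UqDatum0 M hq).heckeHom A ψ.1 := rfl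

end U0Hpar

/-! ### The family -/

section Family

variable {𝒪 : Type*} [CommRing 𝒪] (N' : ℕ) (aq : ℕ → 𝒪) (M : ℕ)

open Classical in
/-- **the Hecke operators at `Γ₀(M)`-level**, indexed by `s59w_AIdx N' ⊕ ℕ`. -/
def s59t_op0 : s59w_AIdx N' ⊕ ℕ → Module.End 𝒪 (s29h_Hpar 𝒪 M 𝒪)
  | Sum.inl (Sum.inl i) =>
    haveI : Fact i.ell.Prime := ⟨i.prime⟩
    s29h_heckeHpar M i.ell 𝒪 𝒪
  | Sum.inl (Sum.inr _) => 1
  | Sum.inr q =>
    if h : q.Prime ∧ q ∣ M then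
      haveI : Fact q.Prime := ⟨h.1⟩
      s59t_U0Hpar M h.2 𝒪 𝒪
    else aq q • 1

theorem s59t_op0_T (i : s59w_TIdx N') :
    s59t_op0 N' aq M (Sum.inl (Sum.inl i)) =
      haveI : Fact i.ell.Prime := ⟨i.prime⟩
      s29h_heckeHpar M i.ell 𝒪 𝒪 := rfl

theorem s59t_op0_dia (τ : Gamma0 N') :
    s59t_op0 N' aq M (Sum.inl (Sum.inr τ)) = 1 := rfl

theorem s59t_op0_U_pos {q : ℕ} (h : q.Prime ∧ q ∣ M) :
    s59t_op0 N' aq M (Sum.inr q) =
      haveI : Fact q.Prime := ⟨h.1⟩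
      s59t_U0Hpar M h.2 𝒪 𝒪 := by
  show (if h : q.Prime ∧ q ∣ M then
      haveI : Fact q.Prime := ⟨h.1⟩
      s59t_U0Hpar M h.2 𝒪 𝒪
    else aq q • 1) = _
  rw [dif_pos h]

theorem s59t_op0_U_neg {q : ℕ} (h : ¬ (q.Prime ∧ q ∣ M)) :
    s59t_op0 N' aq M (Sum.inr q) = aq q • 1 := by
  show (if h : q.Prime ∧ q ∣ M then
      haveI : Fact q.Prime := ⟨h.1⟩
      s59t_U0Hpar M h.2 𝒪 𝒪
    else aq q • 1) = _
  rw [dif_neg h]

variable {N' M}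

/-- a scalar commutes with everything. -/
theorem s59t_smul_one_comm {Z : Type*} [AddCommGroup Z] [Module 𝒪 Z] (a : 𝒪)
    (f : Module.End 𝒪 Z) : (a • (1 : Module.End 𝒪 Z)) * f = f * (a • 1) := by
  rw [smul_mul_assoc, one_mul, mul_smul_comm, mul_one]

variable [NeZero N']

theorem s59t_neZero_of_dvd (hM : M ∣ N') : NeZero M :=
  ⟨ne_zero_of_dvd_ne_zero (NeZero.ne N') hM⟩

theorem s59t_op0_comm (hM : M ∣ N') (i j : s59w_AIdx N' ⊕ ℕ) :
    s59t_op0 N' aq M i * s59t_op0 N' aq M j = s59t_op0 N' aq M j * s59t_op0 N' aq M i := by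
  haveI : NeZero M := s59t_neZero_of_dvd hM
  have hnd : ∀ k : s59w_TIdx N', ¬ k.ell ∣ M := fun k h => k.ndvd (dvd_trans h hM)
  rcases i with (i | τ) | q <;> rcases j with (j | τ') | q'
  · haveI : Fact i.ell.Prime := ⟨i.prime⟩
    haveI : Fact j.ell.Prime := ⟨j.prime⟩
    refine LinearMap.ext fun v => Subtype.ext ?_
    exact s59t_T0_comm i.ell j.ell (hnd i) (hnd j) v.1
  · rw [s59t_op0_dia, mul_one, one_mul]
  · by_cases h : q'.Prime ∧ q' ∣ M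
    · rw [s59t_op0_U_pos N' aq M h]
      haveI : Fact i.ell.Prime := ⟨i.prime⟩
      haveI : Fact q'.Prime := ⟨h.1⟩
      refine LinearMap.ext fun v => Subtype.ext ?_
      exact (s59t_U0_T0_comm i.ell q' (hnd i) h.2 v.1).symm
    · rw [s59t_op0_U_neg N' aq M h]
      exact (s59t_smul_one_comm _ _).symm
  · rw [s59t_op0_dia, mul_one, one_mul]
  · rw [s59t_op0_dia, s59t_op0_dia]
  · rw [s59t_op0_dia, mul_one, one_mul]
  · by_cases h : q.Prime ∧ q ∣ M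
    · rw [s59t_op0_U_pos N' aq M h]
      haveI : Fact j.ell.Prime := ⟨j.prime⟩
      haveI : Fact q.Prime := ⟨h.1⟩
      refine LinearMap.ext fun v => Subtype.ext ?_
      exact s59t_U0_T0_comm j.ell q (hnd j) h.2 v.1
    · rw [s59t_op0_U_neg N' aq M h]
      exact s59t_smul_one_comm _ _
  · rw [s59t_op0_dia, mul_one, one_mul]
  · by_cases h : q.Prime ∧ q ∣ M
    · by_cases h' : q'.Prime ∧ q' ∣ M
      · rw [s59t_op0_U_pos N' aq M h, s59t_op0_U_pos N' aq M h']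
        haveI : Fact q.Prime := ⟨h.1⟩
        haveI : Fact q'.Prime := ⟨h'.1⟩
        refine LinearMap.ext fun v => Subtype.ext ?_
        exact s59t_U0_comm q' q h'.2 h.2 v.1
      · rw [s59t_op0_U_neg N' aq M h']
        exact (s59t_smul_one_comm _ _).symm
    · rw [s59t_op0_U_neg N' aq M h]
      exact s59t_smul_one_comm _ _

/-- **the polynomial Hecke ring acting on `H_par(Γ₀(M), 𝒪)`.** -/
def s59t_act0 (hM : M ∣ N') :
    MvPolynomial (s59w_AIdx N' ⊕ ℕ) 𝒪 →ₐ[𝒪] Module.End 𝒪 (s29h_Hpar 𝒪 M 𝒪) :=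
  s59t_polyAct (s59t_op0 N' aq M) (s59t_op0_comm aq hM)

theorem s59t_act0_X (hM : M ∣ N') (j : s59w_AIdx N' ⊕ ℕ) :
    s59t_act0 aq hM (MvPolynomial.X j) = s59t_op0 N' aq M j := s59t_polyAct_X _ _ j

end Family

/-! ### Restriction `Γ₀(M) → Γ₀(M q)` and the level package -/

section ResStep

variable {𝒪 : Type*} [CommRing 𝒪] {N' : ℕ} [NeZero N'] (aq : ℕ → 𝒪) (M q : ℕ) [NeZero M]
  [hq : Fact q.Prime] [NeZero (M * q)] (hqM : ¬ q ∣ M) (hMq : M * q ∣ N')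

include hqM hMq in
/-- **restriction `Γ₀(M) → Γ₀(M q)` intertwines all the generators except `inr q`.** -/
theorem s59t_res0_op0 (j : s59w_AIdx N' ⊕ ℕ) (hj : j ≠ Sum.inr q) (y : s29h_Hpar 𝒪 M 𝒪) :
    s59t_res0Hpar (s59t_Gamma0_mul_le (N := M) (q := q)) 𝒪 𝒪 (s59t_op0 N' aq M j y) =
      s59t_op0 N' aq (M * q) j
        (s59t_res0Hpar (s59t_Gamma0_mul_le (N := M) (q := q)) 𝒪 𝒪 y) := by
  rcases j with (i | τ) | q'
  · haveI : Fact i.ell.Prime := ⟨i.prime⟩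
    have hnd : ¬ i.ell ∣ M * q := fun h => i.ndvd (dvd_trans h hMq)
    rw [← s59t_resA_eq_res0 M q hqM, ← s59t_resA_eq_res0 M q hqM]
    apply Subtype.ext
    exact s41l_resA_hecke M q i.ell hnd y.1
  · rfl
  · have hne : q' ≠ q := fun h => hj (by rw [h])
    by_cases h : q'.Prime ∧ q' ∣ M
    · have h' : q'.Prime ∧ q' ∣ M * q := ⟨h.1, Dvd.dvd.mul_right h.2 q⟩
      rw [s59t_op0_U_pos N' aq M h, s59t_op0_U_pos N' aq (M * q) h']
      haveI : Fact q'.Prime := ⟨h.1⟩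
      apply Subtype.ext
      exact s59t_resG_datum (s59t_Gamma0_mul_le (N := M) (q := q)) (s59t_UqDatum0 M h.2)
        (s59t_UqDatum0 (M * q) h'.2) (fun _ => rfl) (fun _ _ => rfl) y.1
    · have h' : ¬ (q'.Prime ∧ q' ∣ M * q) := by
        rintro ⟨hp, hd⟩
        rcases (Nat.Prime.dvd_mul hp).mp hd with h1 | h1
        · exact h ⟨hp, h1⟩
        · exact hne ((Nat.prime_dvd_prime_iff_eq hp hq.out).mp h1)
      rw [s59t_op0_U_neg N' aq M h, s59t_op0_U_neg N' aq (M * q) h', LinearMap.smul_apply,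
        LinearMap.smul_apply, Module.End.one_apply, Module.End.one_apply, map_smul]

variable {M₁ M₂ : ℕ}

/-- a linear map commuting with the `T_ℓ`, `ℓ ∤ N'`, intertwines the anemic polynomial actions. -/
theorem s59t_anemic_intertwine (hM₁ : M₁ ∣ N') (hM₂ : M₂ ∣ N')
    (f : s29h_Hpar 𝒪 M₁ 𝒪 →ₗ[𝒪] s29h_Hpar 𝒪 M₂ 𝒪)
    (hf : ∀ (ℓ : ℕ) [Fact ℓ.Prime], ¬ ℓ ∣ N' → ∀ y,
      f (s29h_heckeHpar M₁ ℓ 𝒪 𝒪 y) = s29h_heckeHpar M₂ ℓ 𝒪 𝒪 (f y))
    (t : MvPolynomial (s59w_AIdx N') 𝒪) (y : s29h_Hpar 𝒪 M₁ 𝒪) :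
    f (s59t_act0 aq hM₁ (MvPolynomial.rename Sum.inl t) y) =
      s59t_act0 aq hM₂ (MvPolynomial.rename Sum.inl t) (f y) := by
  unfold s59t_act0
  rw [s59t_polyAct_rename, s59t_polyAct_rename]
  refine s59t_polyAct_intertwine _ _ _ _ f ?_ t y
  intro i z
  rcases i with i | τ
  · haveI : Fact i.ell.Prime := ⟨i.prime⟩
    exact hf i.ell i.ndvd z
  · rfl

include hMq in
theorem s59t_dvd_of_mul_dvd : M ∣ N' := dvd_trans (Dvd.intro q rfl) hMq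

/-- **the anemic polynomials are compatible with the level package `M → M q`.** -/
theorem s59t_compat_anemic (t : MvPolynomial (s59w_AIdx N') 𝒪) :
    (s59t_oldData M q hqM 𝒪 𝒪).Compat
      (s59t_act0 aq (s59t_dvd_of_mul_dvd M q hMq) (MvPolynomial.rename Sum.inl t))
      (s59t_act0 aq hMq (MvPolynomial.rename Sum.inl t)) := by
  have hM := s59t_dvd_of_mul_dvd M q hMq
  have hnd : ∀ ℓ : ℕ, ¬ ℓ ∣ N' → ¬ ℓ ∣ M * q := fun ℓ h h' => h (dvd_trans h' hMq)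
  have hnd' : ∀ ℓ : ℕ, ¬ ℓ ∣ N' → ¬ ℓ ∣ M := fun ℓ h h' => h (dvd_trans h' hM)
  refine ⟨fun y => ?_, fun y => ?_, fun z => ?_, fun z => ?_, fun y => ?_, fun z => ?_,
    fun z => ?_⟩
  · refine (s59t_anemic_intertwine aq hM hMq (s59t_oldData M q hqM 𝒪 𝒪).resA ?_ t y).symm
    intro ℓ _ hℓ y
    exact Subtype.ext (s41l_resA_hecke M q ℓ (hnd ℓ hℓ) y.1)
  · refine (s59t_anemic_intertwine aq hM hMq (s59t_oldData M q hqM 𝒪 𝒪).resB ?_ t y).symm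
    intro ℓ _ hℓ y
    exact Subtype.ext (s41l_resB_hecke M q hqM ℓ (hnd ℓ hℓ) y.1)
  · refine (s59t_anemic_intertwine aq hMq hM (s59t_oldData M q hqM 𝒪 𝒪).corA ?_ t z).symm
    intro ℓ _ hℓ z
    exact Subtype.ext (s41l_corA_hecke M q hqM ℓ (hnd ℓ hℓ) z.1)
  · refine (s59t_anemic_intertwine aq hMq hM (s59t_oldData M q hqM 𝒪 𝒪).corB ?_ t z).symm
    intro ℓ _ hℓ z
    exact Subtype.ext (s41l_corB_hecke M q hqM ℓ (hnd ℓ hℓ) z.1)
  · refine (s59t_anemic_intertwine aq hM hM (s59t_oldData M q hqM 𝒪 𝒪).T ?_ t y).symm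
    intro ℓ _ hℓ y
    exact Subtype.ext (s59t_T0_comm q ℓ hqM (hnd' ℓ hℓ) y.1)
  · refine (s59t_anemic_intertwine aq hMq hMq (s59t_oldData M q hqM 𝒪 𝒪).U ?_ t z).symm
    intro ℓ _ hℓ z
    exact Subtype.ext (s41l_U_hecke M q hqM ℓ (hnd ℓ hℓ) z.1)
  · refine (s59t_anemic_intertwine aq hMq hMq (s59t_oldData M q hqM 𝒪 𝒪).w ?_ t z).symm
    intro ℓ _ hℓ z
    exact Subtype.ext (s41l_w_hecke M q hqM ℓ (hnd ℓ hℓ) z.1)

end ResStep

end Fermat.Agent.Lib.S59
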