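/-
Programme (R) = S59, node (B2) concrete module half (helper8), file 59: **the Hensel roots of
`X² - T_q X + q` in the local Hecke ring `𝒪[T_q]`** (input `𝕃, c, al, be, d, sa, sb, gb` of
`s59t_TWL0_bij`).

`Y` a nonzero finite free module over the complete noetherian local ring `𝒪`, `T ∈ End_𝒪 Y` with
`T - (a + b)` topologically nilpotent, `q ≡ a b`, `a ≢ b`, `a² ≢ 1`, `b² ≢ 1` modulo `𝔪`.  Then
`𝕃 = 𝒪[T] ⊆ End_𝒪 Y` is a complete local ring (helper5's `EHLoc.lean` + Prelude), hence Henselian,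
and `X² - T X + q` has roots `al ≡ a`, `be ≡ b` in `𝕃`.
-/
import Mathlib
import Fermat.Prelude.Thm_IsLocalRing_isAdicComplete_of_module_finite
import Fermat.Agent.Lib.S59.EHLoc

set_option autoImplicit false
set_option linter.unusedSectionVars false
set_option linter.style.haveILetI false

noncomputable section

namespace Fermat.Agent.Lib.S59

open IsLocalRing Polynomial
open scoped TensorProduct

section Conv

variable {𝒪 : Type*} [CommRing 𝒪] [IsLocalRing 𝒪] {M : Type*} [AddCommGroup M] [Module 𝒪 M]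

/-- `1 ⊗ y = 0` in `k ⊗ M` iff `y ∈ 𝔪 M`. -/
theorem s59t_tmul_eq_zero_iff (y : M) :
    ((1 : ResidueField 𝒪) ⊗ₜ[𝒪] y = 0) ↔ y ∈ maximalIdeal 𝒪 • (⊤ : Submodule 𝒪 M) := by
  have h := LinearMap.ker_tensorProductMk (R := 𝒪) (Q := M) (I := maximalIdeal 𝒪)
  rw [← h, LinearMap.mem_ker]
  rfl

/-- the converse of `s59e_isLocScalar_of_pow`. -/
theorem s59t_pow_of_isLocScalar {x : Module.End 𝒪 M} {c : 𝒪} (h : s59e_IsLocScalar x c) :
    ∃ n : ℕ, ∀ y : M, ((x - c • (1 : Module.End 𝒪 M)) ^ n) y ∈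
      maximalIdeal 𝒪 • (⊤ : Submodule 𝒪 M) := by
  obtain ⟨n, hn⟩ := h
  refine ⟨n, fun y => ?_⟩
  rw [← map_pow, s59e_red_apply] at hn
  rw [← s59t_tmul_eq_zero_iff]
  have := LinearMap.congr_fun hn ((1 : ResidueField 𝒪) ⊗ₜ[𝒪] y)
  rw [LinearMap.baseChange_tmul, LinearMap.zero_apply] at this
  exact this

end Conv

section Hensel

universe uO uY

variable {𝒪 : Type uO} [CommRing 𝒪] [IsLocalRing 𝒪] [IsNoetherianRing 𝒪]
  [IsAdicComplete (maximalIdeal 𝒪) 𝒪]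
  {Y : Type uY} [AddCommGroup Y] [Module 𝒪 Y] [Module.Free 𝒪 Y] [Module.Finite 𝒪 Y] [Nontrivial Y]

/-- a complete local ring is Henselian (fresh copy of the two-line argument). -/
theorem s59t_henselian (A : Type*) [CommRing A] [IsLocalRing A]
    [IsAdicComplete (maximalIdeal A) A] : HenselianLocalRing A where
  is_henselian f hf a₀ h₀ hu :=
    HenselianRing.is_henselian (I := maximalIdeal A) f hf a₀ h₀ (hu.map _)

/-- the output of `s59t_hensel_roots`: a commutative `𝒪`-algebra `𝕃` acting on `Y`, with roots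
`al ≡ a`, `be` of `X² - T X + q` and the inverses needed by `s59t_TWL0_bij`. -/
structure s59t_HenselData (T : Module.End 𝒪 Y) (a q : 𝒪) where
  /-- the ring -/
  𝕃 : Type uY
  [cr : CommRing 𝕃]
  [alg : Algebra 𝒪 𝕃]
  /-- the action -/
  c : 𝕃 →ₐ[𝒪] Module.End 𝒪 Y
  /-- the roots and the inverses -/
  al : 𝕃
  be : 𝕃
  d : 𝕃
  sa : 𝕃
  sb : 𝕃
  gb : 𝕃
  hT : c (al + be) = T
  hqq : al * be = algebraMap 𝒪 𝕃 q
  hd : (be - al) * d = 1
  hsa : (1 - al ^ 2) * sa = 1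
  hsb : (1 - be ^ 2) * sb = 1
  hgb : (be - algebraMap 𝒪 𝕃 a) * gb = 1
  hnil : ∃ n : ℕ, ∀ y : Y, ((c (al - algebraMap 𝒪 𝕃 a)) ^ n) y ∈
    maximalIdeal 𝒪 • (⊤ : Submodule 𝒪 Y)

set_option maxHeartbeats 800000 in
/-- **the Hensel roots.** -/
theorem s59t_hensel_roots (T : Module.End 𝒪 Y) (a b q : 𝒪) (hab : IsUnit (b - a))
    (hq : q - a * b ∈ maximalIdeal 𝒪) (ha2 : IsUnit (1 - a ^ 2)) (hb2 : IsUnit (1 - b ^ 2))
    (hT : ∃ n : ℕ, ∀ y : Y, ((T - (a + b) • (1 : Module.End 𝒪 Y)) ^ n) y ∈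
      maximalIdeal 𝒪 • (⊤ : Submodule 𝒪 Y)) :
    Nonempty (s59t_HenselData T a q) := by
  classical
  -- the ring `𝕃 = 𝒪[T]`
  let a₁ : 𝒪[X] →+* Module.End 𝒪 Y := (Polynomial.aeval T).toRingHom
  obtain ⟨n₀, hn₀⟩ := hT
  have hTloc : s59e_IsLocScalar T (a + b) := s59e_isLocScalar_of_pow (n := n₀) hn₀
  have hle : s59e_adj 𝒪 a₁ ≤ Algebra.adjoin 𝒪 (Set.range fun _ : Unit => T) := by
    refine Algebra.adjoin_le ?_
    rintro _ ⟨p, rfl⟩
    have h1 : Set.range (fun _ : Unit => T) = {T} := by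
      ext x
      simp [eq_comm]
    rw [h1]
    exact Polynomial.aeval_mem_adjoin_singleton 𝒪 T
  have hloc : ∀ x ∈ s59e_adj 𝒪 a₁, ∃ d : 𝒪, s59e_IsLocScalar x d := fun x hx =>
    s59e_locScalar_adjoin (fun _ : Unit => T) (fun _ _ => Commute.refl T) (fun _ => a + b)
      (fun _ => hTloc) (hle hx)
  haveI hlr : IsLocalRing (s59e_adj 𝒪 a₁) := s59e_adj_isLocalRing a₁ hloc
  haveI hlh : IsLocalHom (algebraMap 𝒪 (s59e_adj 𝒪 a₁)) := s59e_adj_isLocalHom a₁ hloc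
  haveI hfin : Module.Finite 𝒪 (s59e_adj 𝒪 a₁) :=
    Module.Finite.of_injective (Subalgebra.val (s59e_adj 𝒪 a₁)).toLinearMap Subtype.val_injective
  haveI hcomp : IsAdicComplete (maximalIdeal (s59e_adj 𝒪 a₁)) (s59e_adj 𝒪 a₁) :=
    IsLocalRing.isAdicComplete_of_module_finite (𝒪 := 𝒪)
  haveI hhens : HenselianLocalRing (s59e_adj 𝒪 a₁) := s59t_henselian _
  -- notation
  set 𝕃 := s59e_adj 𝒪 a₁ with h𝕃
  have hTmem : T ∈ 𝕃 := Algebra.subset_adjoin ⟨Polynomial.X, by simp [a₁]⟩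
  let Tt : 𝕃 := ⟨T, hTmem⟩
  -- membership in the maximal ideal through the constants
  have hmax : ∀ (x : 𝕃) (d : 𝒪), s59e_IsLocScalar (x : Module.End 𝒪 Y) d →
      x - algebraMap 𝒪 𝕃 d ∈ maximalIdeal 𝕃 := by
    intro x d hd
    have h1 := s59e_adj_residue a₁ x.2 hd
    rw [← residue_eq_zero_iff, map_sub, sub_eq_zero, IsLocalRing.ResidueField.map_residue] at *
    exact h1
  have hTt : Tt - algebraMap 𝒪 𝕃 (a + b) ∈ maximalIdeal 𝕃 := hmax Tt (a + b) hTloc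
  have hmap𝔪 : ∀ r : 𝒪, r ∈ maximalIdeal 𝒪 → algebraMap 𝒪 𝕃 r ∈ maximalIdeal 𝕃 := by
    intro r hr
    rw [mem_maximalIdeal, mem_nonunits_iff] at hr ⊢
    exact fun h => hr (isUnit_of_map_unit (algebraMap 𝒪 𝕃) r h)
  have hunit_of : ∀ (x : 𝕃) (r : 𝒪), IsUnit r → x - algebraMap 𝒪 𝕃 r ∈ maximalIdeal 𝕃 →
      IsUnit x := by
    intro x r hr hx
    by_contra hnu
    have h1 : x ∈ maximalIdeal 𝕃 := by rwa [mem_maximalIdeal, mem_nonunits_iff]
    have h2 : algebraMap 𝒪 𝕃 r ∈ maximalIdeal 𝕃 := by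
      have := (maximalIdeal 𝕃).sub_mem h1 hx
      rwa [sub_sub_cancel] at this
    rw [mem_maximalIdeal, mem_nonunits_iff] at h2
    exact h2 (hr.map _)
  -- Hensel
  let f : 𝕃[X] := X ^ 2 - C Tt * X + C (algebraMap 𝒪 𝕃 q)
  have hfmonic : f.Monic := by
    have h1 : f = X ^ 2 + (-(C Tt * X) + C (algebraMap 𝒪 𝕃 q)) := by
      simp only [f]; ring
    rw [h1]
    refine Polynomial.monic_X_pow_add ?_
    refine lt_of_le_of_lt (Polynomial.degree_add_le _ _) ?_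
    rw [max_lt_iff]
    constructor
    · rw [Polynomial.degree_neg]
      exact lt_of_le_of_lt (Polynomial.degree_C_mul_X_le _) (by norm_num)
    · exact lt_of_le_of_lt Polynomial.degree_C_le (by norm_num)
  let a₀ : 𝕃 := algebraMap 𝒪 𝕃 a
  have hfa₀ : f.eval a₀ ∈ maximalIdeal 𝕃 := by
    have h1 : f.eval a₀ = -(Tt - algebraMap 𝒪 𝕃 (a + b)) * a₀ + algebraMap 𝒪 𝕃 (q - a * b) := by
      simp only [f, a₀, eval_add, eval_sub, eval_pow, eval_X, eval_mul, eval_C, map_add, map_sub,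
        map_mul]
      ring
    rw [h1]
    exact (maximalIdeal 𝕃).add_mem ((maximalIdeal 𝕃).mul_mem_right _
      ((maximalIdeal 𝕃).neg_mem hTt)) (hmap𝔪 _ hq)
  have hf'a₀ : IsUnit (f.derivative.eval a₀) := by
    have h1 : f.derivative.eval a₀ = -(Tt - algebraMap 𝒪 𝕃 (a + b)) - algebraMap 𝒪 𝕃 (b - a) := by
      simp only [f, a₀, derivative_sub, derivative_X_pow, derivative_mul,
        derivative_C, derivative_X, eval_sub, eval_mul, eval_C, eval_X, eval_pow,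
        map_add, map_sub, zero_mul, mul_one, zero_add, add_zero, Nat.cast_ofNat]
      ring
    rw [h1]
    have hneg : IsUnit (-(b - a)) := hab.neg
    refine hunit_of _ (-(b - a)) hneg ?_
    rw [map_neg, sub_neg_eq_add, sub_add_cancel]
    exact (maximalIdeal 𝕃).neg_mem hTt
  obtain ⟨al, hroot, hal⟩ := HenselianLocalRing.is_henselian f hfmonic a₀ hfa₀ hf'a₀
  have hroot' : al ^ 2 - Tt * al + algebraMap 𝒪 𝕃 q = 0 := by
    have := hroot
    simp only [f, IsRoot.def, eval_add, eval_sub, eval_pow, eval_X, eval_mul, eval_C] at this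
    exact this
  let be : 𝕃 := Tt - al
  have hbe : be - algebraMap 𝒪 𝕃 b ∈ maximalIdeal 𝕃 := by
    have h1 : be - algebraMap 𝒪 𝕃 b = (Tt - algebraMap 𝒪 𝕃 (a + b)) - (al - a₀) := by
      simp only [be, a₀, map_add]; ring
    rw [h1]
    exact (maximalIdeal 𝕃).sub_mem hTt hal
  -- the units
  have hu1 : IsUnit (be - al) := by
    refine hunit_of _ (b - a) hab ?_
    have h1 : be - al - algebraMap 𝒪 𝕃 (b - a) = (be - algebraMap 𝒪 𝕃 b) - (al - a₀) := by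
      simp only [a₀, map_sub]; ring
    rw [h1]
    exact (maximalIdeal 𝕃).sub_mem hbe hal
  have hu2 : IsUnit (1 - al ^ 2) := by
    refine hunit_of _ (1 - a ^ 2) ha2 ?_
    have h1 : 1 - al ^ 2 - algebraMap 𝒪 𝕃 (1 - a ^ 2) = -((al - a₀) * (al + a₀)) := by
      simp only [a₀, map_sub, map_one, map_pow]; ring
    rw [h1]
    exact (maximalIdeal 𝕃).neg_mem ((maximalIdeal 𝕃).mul_mem_right _ hal)
  have hu3 : IsUnit (1 - be ^ 2) := by
    refine hunit_of _ (1 - b ^ 2) hb2 ?_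
    have h1 : 1 - be ^ 2 - algebraMap 𝒪 𝕃 (1 - b ^ 2) =
        -((be - algebraMap 𝒪 𝕃 b) * (be + algebraMap 𝒪 𝕃 b)) := by
      simp only [map_sub, map_one, map_pow]; ring
    rw [h1]
    exact (maximalIdeal 𝕃).neg_mem ((maximalIdeal 𝕃).mul_mem_right _ hbe)
  have hu4 : IsUnit (be - algebraMap 𝒪 𝕃 a) := by
    refine hunit_of _ (b - a) hab ?_
    have h1 : be - algebraMap 𝒪 𝕃 a - algebraMap 𝒪 𝕃 (b - a) = be - algebraMap 𝒪 𝕃 b := by
      simp only [map_sub]; ring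
    rw [h1]
    exact hbe
  obtain ⟨d, hd⟩ := hu1.exists_right_inv
  obtain ⟨sa, hsa⟩ := hu2.exists_right_inv
  obtain ⟨sb, hsb⟩ := hu3.exists_right_inv
  obtain ⟨gb, hgb⟩ := hu4.exists_right_inv
  refine ⟨⟨𝕃, Subalgebra.val 𝕃, al, be, d, sa, sb, gb, ?_, ?_, hd, hsa, hsb, hgb, ?_⟩⟩
  · simp only [be, add_sub_cancel]
    rfl
  · have h1 : al * be = -(al ^ 2 - Tt * al + algebraMap 𝒪 𝕃 q) + algebraMap 𝒪 𝕃 q := by
      simp only [be]; ring
    rw [h1, hroot', neg_zero, zero_add]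
  · -- `al - a` is topologically nilpotent
    obtain ⟨d₀, hd₀⟩ := hloc (al - a₀ : 𝕃) (al - a₀ : 𝕃).2
    have hd₀m : d₀ ∈ maximalIdeal 𝒪 := by
      by_contra hnm
      have hu : IsUnit d₀ := by
        rwa [mem_maximalIdeal, mem_nonunits_iff, not_not] at hnm
      have h1 := hmax (al - a₀) d₀ hd₀
      have h2 : algebraMap 𝒪 𝕃 d₀ ∈ maximalIdeal 𝕃 := by
        have := (maximalIdeal 𝕃).sub_mem hal h1
        rwa [sub_sub_cancel] at this
      rw [mem_maximalIdeal, mem_nonunits_iff] at h2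
      exact h2 (hu.map _)
    have h0 : s59e_IsLocScalar ((al - a₀ : 𝕃) : Module.End 𝒪 Y) 0 := by
      unfold s59e_IsLocScalar at hd₀ ⊢
      rw [zero_smul, sub_zero]
      have h3 : s59e_red ((al - a₀ : 𝕃) : Module.End 𝒪 Y) =
          s59e_red (((al - a₀ : 𝕃) : Module.End 𝒪 Y) - d₀ • (1 : Module.End 𝒪 Y)) := by
        have h4 : ((al - a₀ : 𝕃) : Module.End 𝒪 Y) =
            (((al - a₀ : 𝕃) : Module.End 𝒪 Y) - d₀ • (1 : Module.End 𝒪 Y)) + d₀ • 1 := by abel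
        conv_lhs => rw [h4]
        rw [map_add, s59e_red_smul_one, (residue_eq_zero_iff d₀).mpr hd₀m, zero_smul, add_zero]
      rw [h3]
      exact hd₀
    obtain ⟨n, hn⟩ := s59t_pow_of_isLocScalar h0
    refine ⟨n, fun y => ?_⟩
    have := hn y
    rw [zero_smul, sub_zero] at this
    exact this

end Hensel

end Fermat.Agent.Lib.S59
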