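/-
Programme (R) = S59, node (B2) concrete module half (helper8), file 61: **the multi-prime
`Γ₀`-level Taylor–Wiles chain** (input `hτ` of `s59t_control_top`).

* `s59t_res0_T`, `s59t_res0_op0'`, `s59t_res0_act0` : restriction `Γ₀(M₁) → Γ₀(M₂)`, `M₁ ∣ M₂ ∣ N'`,
  intertwines the polynomial Hecke actions on the polynomials whose `U`-variables are at primes
  dividing `M₁` (or not dividing `M₂`);
* `s59t_step_anemic` : one Taylor–Wiles step `M → M q` for the anemic idempotent (from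
  `s59t_TWL0_bij` + `s59t_hensel_roots` + `s59t_compat_anemic`);
* `s59t_step_list` : the same step for the idempotent cut out by the `a`-part projectors at a list
  `A` of primes dividing `M` (`s59t_alpha_transport`);
* `s59t_chain` : the chain over a list of Taylor–Wiles primes.
-/
import Mathlib
import Fermat.Agent.Lib.S59.TG0Ops
import Fermat.Agent.Lib.S59.TAlphaPoly
import Fermat.Agent.Lib.S59.THensel
import Fermat.Agent.Lib.S59.TCtrlTop

set_option autoImplicit false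
set_option linter.unusedSectionVars false
set_option linter.style.haveILetI false
set_option synthInstance.maxHeartbeats 400000

noncomputable section

namespace Fermat.Agent.Lib.S59

open Matrix MatrixGroups CongruenceSubgroup IsLocalRing
open Fermat.Agent.Lib.S29 Fermat.Agent.Lib.S48 Fermat.Agent.Lib.S41

/-! ### Restriction between general levels -/

section ResGen

theorem s59t_Gamma0_le_of_dvd {M₁ M₂ : ℕ} (h12 : M₁ ∣ M₂) : Gamma0 M₂ ≤ Gamma0 M₁ := by
  intro γ hγ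
  rw [Gamma0_mem] at hγ ⊢
  have h1 : ((M₂ : ℕ) : ℤ) ∣ γ 1 0 := (ZMod.intCast_zmod_eq_zero_iff_dvd _ _).mp hγ
  exact (ZMod.intCast_zmod_eq_zero_iff_dvd _ _).mpr
    ((Int.natCast_dvd_natCast.mpr h12).trans h1)

variable {M₁ M₂ : ℕ} [NeZero M₁] [NeZero M₂] (h12 : M₁ ∣ M₂) {A : Type*} [AddCommGroup A]

/-- **restriction `Γ₀(M₁) → Γ₀(M₂)` commutes with `T_ℓ`, `ℓ ∤ M₂`.** -/
theorem s59t_res0_T (ℓ : ℕ) [Fact ℓ.Prime] (hℓ : ¬ ℓ ∣ M₂) (ψ : Additive (Gamma0 M₁) →+ A) :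
    s59t_resG (s59t_Gamma0_le_of_dvd h12) A (s29h_heckeHom M₁ ℓ A ψ) =
      s29h_heckeHom M₂ ℓ A (s59t_resG (s59t_Gamma0_le_of_dvd h12) A ψ) := by
  have h0 := s59t_Gamma0_le_of_dvd h12
  have hℓ₁ : ¬ ℓ ∣ M₁ := fun h => hℓ (dvd_trans h h12)
  obtain ⟨σ, hσ, h11⟩ := s48h_exists_sigma_p (M := M₂) hℓ
  have hσ₁ : σ ∈ Gamma0 M₁ := h0 hσ
  have h11₁ : ((σ 1 1 : ℤ) : ZMod M₁) = (ℓ : ZMod M₁) := by
    have := congrArg (ZMod.castHom h12 (ZMod M₁)) h11
    rwa [map_intCast, map_natCast] at this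
  have hle : s48h_GammaH M₂ ⊤ ≤ s48h_GammaH M₁ ⊤ := fun g hg =>
    s59t_mem_GammaH_top M₁ ⟨g, h0 hg.1⟩
  have key : ∀ x : Additive (Gamma0 M₁) →+ A,
      s59t_res M₂ ⊤ A (s59t_resG h0 A x) = s59t_resG hle A (s59t_res M₁ ⊤ A x) := fun x => rfl
  apply s59t_res_top_injective M₂ A
  rw [key, s59t_res_hecke (H := ⊤) hℓ₁ hσ₁ h11₁, s59t_resG_Tp hle hℓ hℓ₁ hσ h11 hσ₁ h11₁, ← key,
    s59t_res_hecke (H := ⊤) hℓ hσ h11]

variable {𝒪 : Type*} [CommRing 𝒪] {N' : ℕ} [NeZero N'] (aq : ℕ → 𝒪) (hM₂ : M₂ ∣ N')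

include hM₂ in
/-- **restriction intertwines the generators** whose `U`-prime divides `M₁` or does not divide
`M₂`. -/
theorem s59t_res0_op0' (j : s59w_AIdx N' ⊕ ℕ)
    (hj : ∀ q' : ℕ, j = Sum.inr q' → q'.Prime → q' ∣ M₂ → q' ∣ M₁) (y : s29h_Hpar 𝒪 M₁ 𝒪) :
    s59t_res0Hpar (s59t_Gamma0_le_of_dvd h12) 𝒪 𝒪 (s59t_op0 N' aq M₁ j y) =
      s59t_op0 N' aq M₂ j (s59t_res0Hpar (s59t_Gamma0_le_of_dvd h12) 𝒪 𝒪 y) := by
  rcases j with (i | τ) | q'
  · haveI : Fact i.ell.Prime := ⟨i.prime⟩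
    have hnd : ¬ i.ell ∣ M₂ := fun h => i.ndvd (dvd_trans h hM₂)
    apply Subtype.ext
    exact s59t_res0_T h12 i.ell hnd y.1
  · rfl
  · by_cases h : q'.Prime ∧ q' ∣ M₁
    · have h' : q'.Prime ∧ q' ∣ M₂ := ⟨h.1, dvd_trans h.2 h12⟩
      rw [s59t_op0_U_pos N' aq M₁ h, s59t_op0_U_pos N' aq M₂ h']
      haveI : Fact q'.Prime := ⟨h.1⟩
      apply Subtype.ext
      exact s59t_resG_datum (s59t_Gamma0_le_of_dvd h12) (s59t_UqDatum0 M₁ h.2)
        (s59t_UqDatum0 M₂ h'.2) (fun _ => rfl) (fun _ _ => rfl) y.1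
    · have h' : ¬ (q'.Prime ∧ q' ∣ M₂) := fun h2 => h ⟨h2.1, hj q' rfl h2.1 h2.2⟩
      rw [s59t_op0_U_neg N' aq M₁ h, s59t_op0_U_neg N' aq M₂ h', LinearMap.smul_apply,
        LinearMap.smul_apply, Module.End.one_apply, Module.End.one_apply, map_smul]

include hM₂ in
/-- **restriction intertwines the polynomial actions** on the polynomials supported on good
indices. -/
theorem s59t_res0_act0 (S : Set (s59w_AIdx N' ⊕ ℕ))
    (hS : ∀ j ∈ S, ∀ q' : ℕ, j = Sum.inr q' → q'.Prime → q' ∣ M₂ → q' ∣ M₁)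
    {t : MvPolynomial (s59w_AIdx N' ⊕ ℕ) 𝒪} (ht : t ∈ MvPolynomial.supported 𝒪 S)
    (y : s29h_Hpar 𝒪 M₁ 𝒪) :
    s59t_res0Hpar (s59t_Gamma0_le_of_dvd h12) 𝒪 𝒪
        (s59t_act0 aq (dvd_trans h12 hM₂) t y) =
      s59t_act0 aq hM₂ t (s59t_res0Hpar (s59t_Gamma0_le_of_dvd h12) 𝒪 𝒪 y) :=
  s59t_polyAct_intertwine_supported _ _ _ _ S _
    (fun j hj z => s59t_res0_op0' h12 aq hM₂ j (hS j hj) z) ht y

end ResGen

/-! ### One anemic step -/

/-- helper instance (cf. helper5's `s59e_ringEndRange`): for an endomorphism `f` of a SUBMODULE `p`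
the ring structure of `End (range f)` is not found by instance search within the default
heartbeats. -/
instance s59t_ringEndPart {R Y : Type*} [CommRing R] [AddCommGroup Y] [Module R Y]
    (p : Submodule R Y) (f : Module.End R p) : Ring (Module.End R ↥(s59t_part f)) :=
  Module.End.instRing

section StepGeneric

variable {𝒪 : Type*} [CommRing 𝒪] [IsDomain 𝒪] [IsDiscreteValuationRing 𝒪]
  [IsAdicComplete (maximalIdeal 𝒪) 𝒪]
  (M q : ℕ) [NeZero M] [hq : Fact q.Prime] (hqM : ¬ q ∣ M)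
  {ε : Module.End 𝒪 (s29h_Hpar 𝒪 M 𝒪)} {ε'' ε' : Module.End 𝒪 (s29h_Hpar 𝒪 (M * q) 𝒪)}
  (hc : (s59t_oldData M q hqM 𝒪 𝒪).Compat ε ε'')

set_option maxHeartbeats 1600000 in
/-- **`s59t_TWL0_bij` with the Hensel roots built in.** -/
theorem s59t_TWL0_bij_hensel (hεε : ε * ε = ε) (hNT : Nontrivial (s59t_part ε))
    (a b : 𝒪) (hab : IsUnit (b - a)) (hqab : (q : 𝒪) - a * b ∈ maximalIdeal 𝒪)
    (ha2 : IsUnit (1 - a ^ 2)) (hb2 : IsUnit (1 - b ^ 2))
    (hTQ : ∃ n : ℕ, ∀ y : s29h_Hpar 𝒪 M 𝒪,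
      ((s29h_heckeHpar M q 𝒪 𝒪 - (a + b) • (1 : Module.End 𝒪 (s29h_Hpar 𝒪 M 𝒪))) ^ n) (ε y) ∈
        (maximalIdeal 𝒪 • ⊤ : Submodule 𝒪 (s29h_Hpar 𝒪 M 𝒪)))
    (hcomm : ∀ z, ε'' (ε' z) = ε' (ε'' z)) (hle : ∀ z, ε' (ε'' z) = ε' z)
    (hE : s59t_IsAlpha (Z := s59t_part ε'') ((s59t_oldData M q hqM 𝒪 𝒪).restrict hc).U a
      (s59t_partMap (ε := ε'') (ε' := ε'') ε' hcomm)) :
    Function.Bijective
      (s59t_iotaH ε ε' (s59t_res0Hpar (s59t_Gamma0_mul_le (N := M) (q := q)) 𝒪 𝒪)) := by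
  haveI : Module.Finite 𝒪 (s29h_Hpar 𝒪 M 𝒪) := s59t_Hpar_finite 𝒪 (Γ := Gamma0 M)
  haveI : Module.Free 𝒪 (s29h_Hpar 𝒪 M 𝒪) := s59t_Hpar_free 𝒪 (Γ := Gamma0 M)
  haveI : Module.Finite 𝒪 (s59t_part ε) := s59t_part_finite ε
  haveI : Module.Free 𝒪 (s59t_part ε) := s59t_part_free hεε
  have key := s59t_hensel_roots (Y := s59t_part ε) ((s59t_oldData M q hqM 𝒪 𝒪).restrict hc).T
      a b (q : 𝒪) hab hqab ha2 hb2
  have hTQ' : ∃ n : ℕ, ∀ y : s59t_part ε,
      ((((s59t_oldData M q hqM 𝒪 𝒪).restrict hc).T -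
        (a + b) • (1 : Module.End 𝒪 (s59t_part ε))) ^ n) y ∈
        (maximalIdeal 𝒪 • ⊤ : Submodule 𝒪 (s59t_part ε)) := by
    obtain ⟨n, hn⟩ := hTQ
    refine ⟨n, fun y => ?_⟩
    rw [s59t_part_smul_top_iff (maximalIdeal 𝒪) hεε]
    have h1 := s59t_partMap_sub_pow (ε := ε) (s59t_oldData M q hqM 𝒪 𝒪).T hc.T (a + b) n y
    have h2 : (((s59t_oldData M q hqM 𝒪 𝒪).restrict hc).T) =
        s59t_partMap (ε := ε) (ε' := ε) (s59t_oldData M q hqM 𝒪 𝒪).T hc.T := rfl
    rw [h2, h1]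
    have h3 := hn (y : s29h_Hpar 𝒪 M 𝒪)
    rw [(s59t_mem_part hεε _).mp y.2] at h3
    exact h3
  obtain ⟨D⟩ := key hTQ'
  obtain ⟨r, hr⟩ := ha2.exists_right_inv
  letI := D.cr
  letI := D.alg
  exact s59t_TWL0_bij M q hqM hc D.c D.hT D.hqq D.hd D.hsa D.hsb D.hgb hr D.hnil hcomm hle hE

end StepGeneric

section StepAnemic

variable {𝒪 : Type} [CommRing 𝒪] [IsDomain 𝒪] [IsDiscreteValuationRing 𝒪]
  [IsAdicComplete (maximalIdeal 𝒪) 𝒪]
  {N' : ℕ} [NeZero N'] (aq bq : ℕ → 𝒪) (M q : ℕ) [NeZero M] [hq : Fact q.Prime]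
  [NeZero (M * q)] (hqM : ¬ q ∣ M) (hMq : M * q ∣ N')

/-- the `U`-operator of the level package is the generator `inr q` at level `M q`. -/
theorem s59t_oldData_U_eq (z : s29h_Hpar 𝒪 (M * q) 𝒪) :
    (s59t_oldData M q hqM 𝒪 𝒪).U z = s59t_op0 N' aq (M * q) (Sum.inr q) z := by
  have h : q.Prime ∧ q ∣ M * q := ⟨hq.out, dvd_mul_left q M⟩
  rw [s59t_op0_U_pos N' aq (M * q) h]
  apply Subtype.ext
  exact (s59t_Uq0_eq_s41l M z.1).symm

include hqM in
set_option maxHeartbeats 1600000 in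
/-- **one Taylor–Wiles step for the anemic idempotent.** -/
theorem s59t_step_anemic (e₀ : MvPolynomial (s59w_AIdx N') 𝒪)
    (f : MvPolynomial (s59w_AIdx N' ⊕ ℕ) 𝒪)
    (hE : s59t_act0 aq (s59t_dvd_of_mul_dvd M q hMq) (MvPolynomial.rename Sum.inl e₀) *
        s59t_act0 aq (s59t_dvd_of_mul_dvd M q hMq) (MvPolynomial.rename Sum.inl e₀) =
      s59t_act0 aq (s59t_dvd_of_mul_dvd M q hMq) (MvPolynomial.rename Sum.inl e₀))
    (hE' : s59t_act0 aq hMq (MvPolynomial.rename Sum.inl e₀) *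
        s59t_act0 aq hMq (MvPolynomial.rename Sum.inl e₀) =
      s59t_act0 aq hMq (MvPolynomial.rename Sum.inl e₀))
    (hF : s59t_IsAlpha
      (Z := s59t_part (s59t_act0 aq hMq (MvPolynomial.rename Sum.inl e₀)))
      (s59t_partMap (ε := s59t_act0 aq hMq (MvPolynomial.rename Sum.inl e₀))
        (ε' := s59t_act0 aq hMq (MvPolynomial.rename Sum.inl e₀))
        (s59t_act0 aq hMq (MvPolynomial.X (Sum.inr q)))
        (s59t_alg_comm (s59t_act0 aq hMq) (MvPolynomial.rename Sum.inl e₀)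
          (MvPolynomial.X (Sum.inr q)))) (aq q)
      (s59t_partMap (ε := s59t_act0 aq hMq (MvPolynomial.rename Sum.inl e₀))
        (ε' := s59t_act0 aq hMq (MvPolynomial.rename Sum.inl e₀))
        (s59t_act0 aq hMq f)
        (s59t_alg_comm (s59t_act0 aq hMq) (MvPolynomial.rename Sum.inl e₀) f)))
    (hNT : Nontrivial (s59t_part
      (s59t_act0 aq (s59t_dvd_of_mul_dvd M q hMq) (MvPolynomial.rename Sum.inl e₀))))
    (hab : IsUnit (bq q - aq q)) (hqab : (q : 𝒪) - aq q * bq q ∈ maximalIdeal 𝒪)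
    (ha2 : IsUnit (1 - aq q ^ 2)) (hb2 : IsUnit (1 - bq q ^ 2))
    (hTQ : ∃ n : ℕ, ∀ y : s29h_Hpar 𝒪 M 𝒪,
      ((s29h_heckeHpar M q 𝒪 𝒪 - (aq q + bq q) • (1 : Module.End 𝒪 (s29h_Hpar 𝒪 M 𝒪))) ^ n)
        (s59t_act0 aq (s59t_dvd_of_mul_dvd M q hMq) (MvPolynomial.rename Sum.inl e₀) y) ∈
        (maximalIdeal 𝒪 • ⊤ : Submodule 𝒪 (s29h_Hpar 𝒪 M 𝒪))) :
    Function.Bijective (s59t_iotaH
      (s59t_act0 aq (s59t_dvd_of_mul_dvd M q hMq) (MvPolynomial.rename Sum.inl e₀))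
      (s59t_act0 aq hMq (f * MvPolynomial.rename Sum.inl e₀))
      (s59t_res0Hpar (s59t_Gamma0_mul_le (N := M) (q := q)) 𝒪 𝒪)) := by
  have hc := s59t_compat_anemic aq M q hqM hMq e₀
  have hcomm : ∀ z, s59t_act0 aq hMq (MvPolynomial.rename Sum.inl e₀)
      (s59t_act0 aq hMq (f * MvPolynomial.rename Sum.inl e₀) z) =
      s59t_act0 aq hMq (f * MvPolynomial.rename Sum.inl e₀)
        (s59t_act0 aq hMq (MvPolynomial.rename Sum.inl e₀) z) :=
    fun z => s59t_alg_comm (s59t_act0 aq hMq) _ _ z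
  have hle : ∀ z, s59t_act0 aq hMq (f * MvPolynomial.rename Sum.inl e₀)
      (s59t_act0 aq hMq (MvPolynomial.rename Sum.inl e₀) z) =
      s59t_act0 aq hMq (f * MvPolynomial.rename Sum.inl e₀) z := by
    intro z
    rw [map_mul, Module.End.mul_apply, Module.End.mul_apply]
    congr 1
    exact LinearMap.congr_fun hE' z
  refine s59t_TWL0_bij_hensel M q hqM hc hE hNT (aq q) (bq q) hab hqab ha2 hb2 hTQ hcomm hle ?_
  have e1 : ((s59t_oldData M q hqM 𝒪 𝒪).restrict hc).U =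
      s59t_partMap (ε := s59t_act0 aq hMq (MvPolynomial.rename Sum.inl e₀))
        (ε' := s59t_act0 aq hMq (MvPolynomial.rename Sum.inl e₀))
        (s59t_act0 aq hMq (MvPolynomial.X (Sum.inr q)))
        (s59t_alg_comm (s59t_act0 aq hMq) (MvPolynomial.rename Sum.inl e₀)
          (MvPolynomial.X (Sum.inr q))) := by
    refine LinearMap.ext fun z => Subtype.ext ?_
    show (s59t_oldData M q hqM 𝒪 𝒪).U (z : s29h_Hpar 𝒪 (M * q) 𝒪) = _
    rw [s59t_oldData_U_eq (N' := N') aq M q hqM, s59t_partMap_coe, s59t_act0_X]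
  have e2 : s59t_partMap (ε := s59t_act0 aq hMq (MvPolynomial.rename Sum.inl e₀))
      (ε' := s59t_act0 aq hMq (MvPolynomial.rename Sum.inl e₀))
      (s59t_act0 aq hMq (f * MvPolynomial.rename Sum.inl e₀)) hcomm =
      s59t_partMap (ε := s59t_act0 aq hMq (MvPolynomial.rename Sum.inl e₀))
        (ε' := s59t_act0 aq hMq (MvPolynomial.rename Sum.inl e₀))
        (s59t_act0 aq hMq f)
        (s59t_alg_comm (s59t_act0 aq hMq) (MvPolynomial.rename Sum.inl e₀) f) := by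
    refine LinearMap.ext fun z => Subtype.ext ?_
    rw [s59t_partMap_coe, s59t_partMap_coe, map_mul, Module.End.mul_apply,
      (s59t_mem_part hE' _).mp z.2]
  rw [e1, e2]
  exact hF

end StepAnemic

/-! ### The step for the idempotent cut out at a list of primes -/

section IdemList

variable {𝒪 : Type*} [CommRing 𝒪] {P : Type*} [CommRing P] [Algebra 𝒪 P]
  {Z : Type*} [AddCommGroup Z] [Module 𝒪 Z] (φ : P →ₐ[𝒪] Module.End 𝒪 Z)

/-- product of two idempotents in the image of a commutative algebra. -/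
theorem s59t_idem_mul {x y : P} (hx : φ x * φ x = φ x) (hy : φ y * φ y = φ y) :
    φ (x * y) * φ (x * y) = φ (x * y) := by
  rw [← map_mul, show x * y * (x * y) = (x * x) * (y * y) by ring, map_mul, map_mul, map_mul, hx,
    hy, ← map_mul]

/-- `φ (G E)` is an idempotent below `φ E`. -/
theorem s59t_idem_le {E : P} (hE : φ E * φ E = φ E) (G : P) :
    φ E * φ (G * E) = φ (G * E) := by
  rw [← map_mul, show E * (G * E) = G * (E * E) by ring, map_mul, map_mul, hE, ← map_mul]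

/-- **product of a list of idempotents below `φ E`.** -/
theorem s59t_idem_list {E : P} (f : ℕ → P) (hE : φ E * φ E = φ E) (A : List ℕ)
    (hA : ∀ q' ∈ A, φ (f q' * E) * φ (f q' * E) = φ (f q' * E)) :
    φ ((A.map f).prod * E) * φ ((A.map f).prod * E) = φ ((A.map f).prod * E) := by
  induction A with
  | nil => rw [List.map_nil, List.prod_nil, one_mul]; exact hE
  | cons q' A ih =>
    have h1 := hA q' (List.mem_cons_self)
    have h2 := ih (fun q'' hq'' => hA q'' (List.mem_cons_of_mem _ hq''))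
    have h3 := s59t_idem_mul φ h1 h2
    have h4 : φ (f q' * E * ((A.map f).prod * E)) = φ (((q' :: A).map f).prod * E) := by
      rw [List.map_cons, List.prod_cons,
        show f q' * E * ((A.map f).prod * E) = f q' * (A.map f).prod * (E * E) by ring, map_mul,
        map_mul (φ) E E, hE, ← map_mul]
    rw [h4] at h3
    exact h3

end IdemList

section AlphaIdem

variable {R : Type*} [CommRing R] [IsLocalRing R] {Z : Type*} [AddCommGroup Z] [Module R Z]

/-- the `a`-part projector on the `ε`-part, times `ε`, is an idempotent of `Z`. -/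
theorem s59t_IsAlpha.idem_mul {ε U F : Module.End R Z} {a : R} (hε : ε * ε = ε)
    (hU : ∀ z, ε (U z) = U (ε z)) (hF : ∀ z, ε (F z) = F (ε z))
    (h : s59t_IsAlpha (s59t_partMap (ε := ε) (ε' := ε) U hU) a
      (s59t_partMap (ε := ε) (ε' := ε) F hF)) :
    (F * ε) * (F * ε) = F * ε := by
  refine LinearMap.ext fun z => ?_
  rw [Module.End.mul_apply, Module.End.mul_apply, Module.End.mul_apply, hF,
    show ε (ε z) = ε z from LinearMap.congr_fun hε z]
  have := congrArg (fun T : Module.End R (s59t_part ε) =>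
    ((T ⟨ε z, ⟨z, rfl⟩⟩ : s59t_part ε) : Z)) h.idem
  exact this

end AlphaIdem

section StepList

variable {𝒪 : Type} [CommRing 𝒪] [IsDomain 𝒪] [IsDiscreteValuationRing 𝒪]
  [IsAdicComplete (maximalIdeal 𝒪) 𝒪]
  {N' : ℕ} [NeZero N'] (aq : ℕ → 𝒪) (M q : ℕ) [NeZero M] [hq : Fact q.Prime]
  [NeZero (M * q)] (hqM : ¬ q ∣ M) (hMq : M * q ∣ N')

include hqM in
set_option maxHeartbeats 1600000 in
/-- **the Taylor–Wiles step for the idempotent cut out by the `a`-part projectors at a list `A`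
of primes** (different from `q`): from a bijection for `(E₁, P₂)` to a bijection for
`(G_A E₁, G_A P₂)`, `G_A = ∏_{q' ∈ A} f_{q'}`. -/
theorem s59t_step_list (E₁ P₂ : MvPolynomial (s59w_AIdx N' ⊕ ℕ) 𝒪)
    (f : ℕ → MvPolynomial (s59w_AIdx N' ⊕ ℕ) 𝒪)
    (hE₁ : s59t_act0 aq (s59t_dvd_of_mul_dvd M q hMq) E₁ *
      s59t_act0 aq (s59t_dvd_of_mul_dvd M q hMq) E₁ = s59t_act0 aq (s59t_dvd_of_mul_dvd M q hMq) E₁)
    (hP₂ : s59t_act0 aq hMq P₂ * s59t_act0 aq hMq P₂ = s59t_act0 aq hMq P₂)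
    (hbase : Function.Bijective (s59t_iotaH (s59t_act0 aq (s59t_dvd_of_mul_dvd M q hMq) E₁)
      (s59t_act0 aq hMq P₂) (s59t_res0Hpar (s59t_Gamma0_mul_le (N := M) (q := q)) 𝒪 𝒪)))
    (A : List ℕ) (hAq : ∀ q' ∈ A, q' ≠ q)
    (hα₁ : ∀ q' ∈ A, s59t_IsAlpha
      (Z := s59t_part (s59t_act0 aq (s59t_dvd_of_mul_dvd M q hMq) E₁))
      (s59t_partMap (ε := s59t_act0 aq (s59t_dvd_of_mul_dvd M q hMq) E₁)
        (ε' := s59t_act0 aq (s59t_dvd_of_mul_dvd M q hMq) E₁)
        (s59t_act0 aq (s59t_dvd_of_mul_dvd M q hMq) (MvPolynomial.X (Sum.inr q')))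
        (s59t_alg_comm (s59t_act0 aq (s59t_dvd_of_mul_dvd M q hMq)) E₁
          (MvPolynomial.X (Sum.inr q')))) (aq q')
      (s59t_partMap (ε := s59t_act0 aq (s59t_dvd_of_mul_dvd M q hMq) E₁)
        (ε' := s59t_act0 aq (s59t_dvd_of_mul_dvd M q hMq) E₁)
        (s59t_act0 aq (s59t_dvd_of_mul_dvd M q hMq) (f q'))
        (s59t_alg_comm (s59t_act0 aq (s59t_dvd_of_mul_dvd M q hMq)) E₁ (f q'))))
    (hα₂ : ∀ q' ∈ A, s59t_IsAlpha
      (Z := s59t_part (s59t_act0 aq hMq P₂))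
      (s59t_partMap (ε := s59t_act0 aq hMq P₂) (ε' := s59t_act0 aq hMq P₂)
        (s59t_act0 aq hMq (MvPolynomial.X (Sum.inr q')))
        (s59t_alg_comm (s59t_act0 aq hMq) P₂ (MvPolynomial.X (Sum.inr q')))) (aq q')
      (s59t_partMap (ε := s59t_act0 aq hMq P₂) (ε' := s59t_act0 aq hMq P₂)
        (s59t_act0 aq hMq (f q'))
        (s59t_alg_comm (s59t_act0 aq hMq) P₂ (f q')))) :
    Function.Bijective (s59t_iotaH
      (s59t_act0 aq (s59t_dvd_of_mul_dvd M q hMq) ((A.map f).prod * E₁))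
      (s59t_act0 aq hMq ((A.map f).prod * P₂))
      (s59t_res0Hpar (s59t_Gamma0_mul_le (N := M) (q := q)) 𝒪 𝒪)) := by
  have hM := s59t_dvd_of_mul_dvd M q hMq
  haveI : Module.Finite 𝒪 (s29h_Hpar 𝒪 M 𝒪) := s59t_Hpar_finite 𝒪 (Γ := Gamma0 M)
  haveI : Module.Finite 𝒪 (s29h_Hpar 𝒪 (M * q) 𝒪) := s59t_Hpar_finite 𝒪 (Γ := Gamma0 (M * q))
  induction A with
  | nil =>
    rw [List.map_nil, List.prod_nil, one_mul, one_mul]
    exact hbase
  | cons q' A ih =>
    have hne : q' ≠ q := hAq q' List.mem_cons_self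
    have hAq' : ∀ q'' ∈ A, q'' ≠ q := fun q'' h => hAq q'' (List.mem_cons_of_mem _ h)
    have hα₁' := fun q'' (h : q'' ∈ A) => hα₁ q'' (List.mem_cons_of_mem _ h)
    have hα₂' := fun q'' (h : q'' ∈ A) => hα₂ q'' (List.mem_cons_of_mem _ h)
    have ih' := ih hAq' hα₁' hα₂'
    -- idempotency of the current idempotents
    have hε₁ := s59t_idem_list (s59t_act0 aq hM) f hE₁ A (fun q'' h => by
      have := (hα₁' q'' h).idem_mul hE₁ _ _
      rw [← map_mul] at this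
      exact this)
    have hε₂ := s59t_idem_list (s59t_act0 aq hMq) f hP₂ A (fun q'' h => by
      have := (hα₂' q'' h).idem_mul hP₂ _ _
      rw [← map_mul] at this
      exact this)
    have h₁ := (hα₁ q' List.mem_cons_self).restrict_part hE₁ hε₁
      (s59t_idem_le (s59t_act0 aq hM) hE₁ _) _ _
      (s59t_alg_comm (s59t_act0 aq hM) _ _) (s59t_alg_comm (s59t_act0 aq hM) _ _)
    have h₂ := (hα₂ q' List.mem_cons_self).restrict_part hP₂ hε₂
      (s59t_idem_le (s59t_act0 aq hMq) hP₂ _) _ _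
      (s59t_alg_comm (s59t_act0 aq hMq) _ _) (s59t_alg_comm (s59t_act0 aq hMq) _ _)
    have hrU : ∀ y, s59t_res0Hpar (s59t_Gamma0_mul_le (N := M) (q := q)) 𝒪 𝒪
        (s59t_act0 aq hM (MvPolynomial.X (Sum.inr q')) y) =
        s59t_act0 aq hMq (MvPolynomial.X (Sum.inr q'))
          (s59t_res0Hpar (s59t_Gamma0_mul_le (N := M) (q := q)) 𝒪 𝒪 y) := by
      intro y
      rw [s59t_act0_X, s59t_act0_X]
      exact s59t_res0_op0 aq M q hqM hMq (Sum.inr q') (fun h => hne (Sum.inr.inj h)) y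
    have key := s59t_alpha_transport
      (s59t_res0Hpar (s59t_Gamma0_mul_le (N := M) (q := q)) 𝒪 𝒪) hε₁ hε₂ ih' hrU _ _ _ _ h₁ h₂
    rw [← map_mul, ← map_mul] at key
    rw [List.map_cons, List.prod_cons, mul_assoc, mul_assoc]
    exact key

end StepList

/-! ### The chain -/

section PartLe

variable {R : Type*} [CommRing R] {Z : Type*} [AddCommGroup Z] [Module R Z]

theorem s59t_part_le_of_le {ε ε₂ : Module.End R Z} (hle : ε * ε₂ = ε₂) :
    s59t_part ε₂ ≤ s59t_part ε := by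
  rintro _ ⟨w, rfl⟩
  refine ⟨ε₂ w, ?_⟩
  rw [← Module.End.mul_apply, hle]

theorem s59t_nontrivial_part_of_le {ε ε₂ : Module.End R Z} (hle : ε * ε₂ = ε₂)
    (h : Nontrivial (s59t_part ε₂)) : Nontrivial (s59t_part ε) :=
  (Submodule.inclusion_injective (s59t_part_le_of_le hle)).nontrivial

end PartLe

section Chain

variable {𝒪 : Type} [CommRing 𝒪] [IsDomain 𝒪] [IsDiscreteValuationRing 𝒪]
  [IsAdicComplete (maximalIdeal 𝒪) 𝒪]
  {N' : ℕ} [NeZero N'] (aq bq : ℕ → 𝒪)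

set_option maxHeartbeats 3200000 in
/-- **the `Γ₀`-level Taylor–Wiles chain** `N → N q₁ → ⋯ → N q₁ ⋯ q_r`: the restriction followed by
the idempotent `G_L e₀`, `G_L = ∏_{q ∈ L} f_q` (`f_q` the `a_q`-part projector of `U_q`), is a
bijection `e₀ H_par(Γ₀(N)) → G_L e₀ H_par(Γ₀(N ∏ L))`. -/
theorem s59t_chain (e₀ : MvPolynomial (s59w_AIdx N') 𝒪)
    (f : ℕ → MvPolynomial (s59w_AIdx N' ⊕ ℕ) 𝒪)
    (hE : ∀ (M : ℕ) (hM : M ∣ N'),
      s59t_act0 aq hM (MvPolynomial.rename Sum.inl e₀) *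
        s59t_act0 aq hM (MvPolynomial.rename Sum.inl e₀) =
      s59t_act0 aq hM (MvPolynomial.rename Sum.inl e₀))
    (L : List ℕ)
    (hα : ∀ (M : ℕ) (hM : M ∣ N'), ∀ q' ∈ L, s59t_IsAlpha
      (Z := s59t_part (s59t_act0 aq hM (MvPolynomial.rename Sum.inl e₀)))
      (s59t_partMap (ε := s59t_act0 aq hM (MvPolynomial.rename Sum.inl e₀))
        (ε' := s59t_act0 aq hM (MvPolynomial.rename Sum.inl e₀))
        (s59t_act0 aq hM (MvPolynomial.X (Sum.inr q')))
        (s59t_alg_comm (s59t_act0 aq hM) (MvPolynomial.rename Sum.inl e₀)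
          (MvPolynomial.X (Sum.inr q')))) (aq q')
      (s59t_partMap (ε := s59t_act0 aq hM (MvPolynomial.rename Sum.inl e₀))
        (ε' := s59t_act0 aq hM (MvPolynomial.rename Sum.inl e₀))
        (s59t_act0 aq hM (f q'))
        (s59t_alg_comm (s59t_act0 aq hM) (MvPolynomial.rename Sum.inl e₀) (f q'))))
    (hsupp : ∀ q' ∈ L, f q' ∈ MvPolynomial.supported 𝒪
      (Set.range (Sum.inl : s59w_AIdx N' → s59w_AIdx N' ⊕ ℕ) ∪ {Sum.inr q'}))
    (harith : ∀ q ∈ L, IsUnit (bq q - aq q) ∧ (q : 𝒪) - aq q * bq q ∈ maximalIdeal 𝒪 ∧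
      IsUnit (1 - aq q ^ 2) ∧ IsUnit (1 - bq q ^ 2))
    (hTQ : ∀ (M : ℕ) (hM : M ∣ N'), ∀ q ∈ L, ∀ [Fact q.Prime], ¬ q ∣ M →
      ∃ n : ℕ, ∀ y : s29h_Hpar 𝒪 M 𝒪,
        ((s29h_heckeHpar M q 𝒪 𝒪 - (aq q + bq q) • (1 : Module.End 𝒪 (s29h_Hpar 𝒪 M 𝒪))) ^ n)
          (s59t_act0 aq hM (MvPolynomial.rename Sum.inl e₀) y) ∈
          (maximalIdeal 𝒪 • ⊤ : Submodule 𝒪 (s29h_Hpar 𝒪 M 𝒪)))
    (N : ℕ) (hN : N ∣ N')
    (hNT : Nontrivial (s59t_part (s59t_act0 aq hN (MvPolynomial.rename Sum.inl e₀))))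
    (hL : L.Nodup) (hLp : ∀ q ∈ L, q.Prime ∧ ¬ q ∣ N)
    (N₂ : ℕ) (hN₂ : N₂ = N * L.prod) (hN₂' : N₂ ∣ N') (h0 : Gamma0 N₂ ≤ Gamma0 N) :
    Function.Bijective (s59t_iotaH (s59t_act0 aq hN (MvPolynomial.rename Sum.inl e₀))
      (s59t_act0 aq hN₂' ((L.map f).prod * MvPolynomial.rename Sum.inl e₀))
      (s59t_res0Hpar h0 𝒪 𝒪)) := by
  induction L using List.reverseRecOn generalizing N₂ with
  | nil =>
    rw [List.prod_nil, mul_one] at hN₂
    subst hN₂
    rw [List.map_nil, List.prod_nil, one_mul]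
    exact s59t_iotaH_self_bijective (hE N₂ hN) _ (fun y => s59t_res0Hpar_self N₂ 𝒪 𝒪 y)
  | append_singleton L' q ih =>
    have hN₂'' : N₂ = N * L'.prod * q := by
      rw [hN₂, List.prod_append, List.prod_singleton, mul_assoc]
    subst hN₂''
    have hMq : N * L'.prod * q ∣ N' := hN₂'
    have hM : N * L'.prod ∣ N' := dvd_trans (Dvd.intro q rfl) hMq
    have hqL : q ∈ L' ++ [q] := List.mem_append_right _ (List.mem_singleton_self q)
    have hL'mem : ∀ q' ∈ L', q' ∈ L' ++ [q] := fun q' h => List.mem_append_left _ h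
    have hqp : q.Prime := (hLp q hqL).1
    have hL'nd : L'.Nodup := (List.nodup_append.mp hL).1
    have hqL' : ∀ q' ∈ L', q' ≠ q := by
      intro q' h1 h2
      have := (List.nodup_append.mp hL).2.2 q' h1 q (List.mem_singleton_self q)
      exact this h2
    have hqM : ¬ q ∣ N * L'.prod := by
      intro h
      rcases (Nat.Prime.dvd_mul hqp).mp h with h1 | h1
      · exact (hLp q hqL).2 h1
      · obtain ⟨a, ha, hqa⟩ := (Prime.dvd_prod_iff (Nat.Prime.prime hqp)).mp h1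
        have hap : a.Prime := (hLp a (hL'mem a ha)).1
        exact hqL' a ha ((Nat.prime_dvd_prime_iff_eq hqp hap).mp hqa).symm
    haveI : NeZero (N * L'.prod) := s59t_neZero_of_dvd hM
    haveI : Fact q.Prime := ⟨hqp⟩
    haveI : NeZero (N * L'.prod * q) := s59t_neZero_of_dvd hMq
    have h0M : Gamma0 (N * L'.prod) ≤ Gamma0 N := s59t_Gamma0_le_of_dvd (Dvd.intro _ rfl)
    -- the chain up to `M`
    have bij₁ := ih (fun M hM' q' h => hα M hM' q' (hL'mem q' h))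
      (fun q' h => hsupp q' (hL'mem q' h)) (fun q' h => harith q' (hL'mem q' h))
      (fun M hM' q' h => hTQ M hM' q' (hL'mem q' h)) hL'nd (fun q' h => hLp q' (hL'mem q' h))
      (N * L'.prod) rfl hM h0M
    -- idempotency at all levels
    have hidemM : ∀ (M : ℕ) (hM' : M ∣ N') (A : List ℕ), (∀ q' ∈ A, q' ∈ L' ++ [q]) →
        s59t_act0 aq hM' ((A.map f).prod * MvPolynomial.rename Sum.inl e₀) *
          s59t_act0 aq hM' ((A.map f).prod * MvPolynomial.rename Sum.inl e₀) =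
        s59t_act0 aq hM' ((A.map f).prod * MvPolynomial.rename Sum.inl e₀) := by
      intro M hM' A hA
      refine s59t_idem_list (s59t_act0 aq hM') f (hE M hM') A (fun q'' h => ?_)
      have := (hα M hM' q'' (hA q'' h)).idem_mul (hE M hM') _ _
      rw [← map_mul] at this
      exact this
    -- nontriviality at level `M`
    have hNT' : Nontrivial (s59t_part
        (s59t_act0 aq hM (MvPolynomial.rename Sum.inl e₀))) := by
      have h1 : Nontrivial (s59t_part (s59t_act0 aq hM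
          ((L'.map f).prod * MvPolynomial.rename Sum.inl e₀))) := by
        obtain ⟨x, y, hxy⟩ := hNT
        exact ⟨⟨_, _, fun h => hxy (bij₁.1 h)⟩⟩
      exact s59t_nontrivial_part_of_le (s59t_idem_le (s59t_act0 aq hM) (hE _ hM) _) h1
    -- the anemic step
    obtain ⟨hab, hqab, ha2, hb2⟩ := harith q hqL
    have banemic := s59t_step_anemic aq bq (N * L'.prod) q hqM hMq e₀ (f q) (hE _ hM) (hE _ hMq)
      (hα _ hMq q hqL) hNT' hab hqab ha2 hb2 (hTQ _ hM q hqL hqM)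
    -- the list step
    have hP₂ : s59t_act0 aq hMq (f q * MvPolynomial.rename Sum.inl e₀) *
        s59t_act0 aq hMq (f q * MvPolynomial.rename Sum.inl e₀) =
        s59t_act0 aq hMq (f q * MvPolynomial.rename Sum.inl e₀) := by
      have := (hα _ hMq q hqL).idem_mul (hE _ hMq) _ _
      rw [← map_mul] at this
      exact this
    have blist := s59t_step_list aq (N * L'.prod) q hqM hMq (MvPolynomial.rename Sum.inl e₀)
      (f q * MvPolynomial.rename Sum.inl e₀) f (hE _ hM) hP₂ banemic L' hqL'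
      (fun q' h => hα _ hM q' (hL'mem q' h))
      (fun q' h => (hα _ hMq q' (hL'mem q' h)).restrict_part (hE _ hMq) hP₂
        (s59t_idem_le (s59t_act0 aq hMq) (hE _ hMq) _) _ _
        (s59t_alg_comm (s59t_act0 aq hMq) _ _) (s59t_alg_comm (s59t_act0 aq hMq) _ _))
    -- the composition condition
    have hsuppG : (L'.map f).prod * MvPolynomial.rename Sum.inl e₀ ∈
        MvPolynomial.supported 𝒪 {j : s59w_AIdx N' ⊕ ℕ | j ≠ Sum.inr q} := by
      refine Subalgebra.mul_mem _ (Subalgebra.list_prod_mem _ ?_) ?_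
      · intro x hx
        obtain ⟨q', hq', rfl⟩ := List.mem_map.mp hx
        refine MvPolynomial.supported_mono ?_ (hsupp q' (hL'mem q' hq'))
        rintro j (⟨i, rfl⟩ | hj)
        · exact fun h => by cases h
        · rw [Set.mem_singleton_iff] at hj
          rw [hj]
          exact fun h => hqL' q' hq' (Sum.inr.inj h)
      · rw [MvPolynomial.mem_supported]
        intro j hj
        classical
        have := MvPolynomial.vars_rename Sum.inl e₀ hj
        rw [Finset.mem_image] at this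
        obtain ⟨i, -, rfl⟩ := this
        exact fun h => by cases h
    have hcomp : ∀ w, s59t_act0 aq hMq
        ((L'.map f).prod * (f q * MvPolynomial.rename Sum.inl e₀))
        (s59t_res0Hpar (s59t_Gamma0_mul_le (N := N * L'.prod) (q := q)) 𝒪 𝒪
          (s59t_act0 aq hM ((L'.map f).prod * MvPolynomial.rename Sum.inl e₀) w)) =
        s59t_act0 aq hMq ((L'.map f).prod * (f q * MvPolynomial.rename Sum.inl e₀))
          (s59t_res0Hpar (s59t_Gamma0_mul_le (N := N * L'.prod) (q := q)) 𝒪 𝒪 w) := by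
      intro w
      have h1 := s59t_res0_act0 (M₁ := N * L'.prod) (M₂ := N * L'.prod * q) (Dvd.intro q rfl) aq
        hMq {j : s59w_AIdx N' ⊕ ℕ | j ≠ Sum.inr q} (by
          intro j hj q' hjq hq'p hq'd
          rcases (Nat.Prime.dvd_mul hq'p).mp hq'd with h2 | h2
          · exact h2
          · exfalso
            apply hj
            rw [hjq, (Nat.prime_dvd_prime_iff_eq hq'p hqp).mp h2]) hsuppG w
      have h2 : ∀ v, s59t_act0 aq hMq
          ((L'.map f).prod * (f q * MvPolynomial.rename Sum.inl e₀))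
          (s59t_act0 aq hMq ((L'.map f).prod * MvPolynomial.rename Sum.inl e₀) v) =
          s59t_act0 aq hMq ((L'.map f).prod * (f q * MvPolynomial.rename Sum.inl e₀)) v := by
        intro v
        have h3 := hidemM _ hMq L' hL'mem
        rw [← Module.End.mul_apply, ← map_mul,
          show (L'.map f).prod * (f q * MvPolynomial.rename Sum.inl e₀) *
            ((L'.map f).prod * MvPolynomial.rename Sum.inl e₀) =
            f q * (((L'.map f).prod * MvPolynomial.rename Sum.inl e₀) *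
              ((L'.map f).prod * MvPolynomial.rename Sum.inl e₀)) by ring,
          map_mul, map_mul (s59t_act0 aq hMq) ((L'.map f).prod * MvPolynomial.rename Sum.inl e₀),
          h3, ← map_mul,
          show f q * ((L'.map f).prod * MvPolynomial.rename Sum.inl e₀) =
            (L'.map f).prod * (f q * MvPolynomial.rename Sum.inl e₀) by ring]
      exact (congrArg _ h1).trans (h2 _)
    have key := s59t_iotaH_comp_bijective _ _ _ _ _ hcomp bij₁ blist
    have hpoly : ((L' ++ [q]).map f).prod * MvPolynomial.rename Sum.inl e₀ =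
        (L'.map f).prod * (f q * MvPolynomial.rename Sum.inl e₀) := by
      rw [List.map_append, List.prod_append, List.map_cons, List.map_nil, List.prod_singleton,
        mul_assoc]
    rw [hpoly]
    exact key

end Chain

end Fermat.Agent.Lib.S59
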