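/-
Programme (R) = S59, node (B2) concrete module half (helper8), file 62: **the Hecke family at
`Γ_H(M)`-level, `M ∣ N'`, indexed by the SAME index set `s59w_AIdx N' ⊕ ℕ` as the `Γ₀`-level family
`s59t_op0`** (`TG0Ops`), and its compatibilities with restriction, transfer and the diamond
representation (inputs `hres`, `hcor`, `hρ` of `s59t_control_top`).

* `s59t_TIdx_down`, `s59t_AIdx_down` : an index of level `N'` is an index of level `M ∣ N'`;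
* `s59t_opH N' aq hM H`, `s59t_opH_comm`, `s59t_actH` : the family and the polynomial action;
* `s59t_actH_res`, `s59t_actH_cor`, `s59t_actH_rho` : compatibility with `res`, `cor`, `ρ`;
* `s59t_actH_resG` : restriction `Γ_H(N) → Γ_{H'}(N')` intertwines the polynomials supported on
  good indices.
-/
import Mathlib
import Fermat.Agent.Lib.S59.TChainQ

set_option autoImplicit false
set_option linter.unusedSectionVars false
set_option linter.style.haveILetI false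

noncomputable section

namespace Fermat.Agent.Lib.S59

open Matrix MatrixGroups CongruenceSubgroup IsLocalRing
open Fermat.Agent.Lib.S29 Fermat.Agent.Lib.S48 Fermat.Agent.Lib.S41

/-! ### Indices -/

section Down

variable {M N' : ℕ} (hM : M ∣ N')

/-- a `T`-index of level `N'` is a `T`-index of level `M ∣ N'`. -/
def s59t_TIdx_down (i : s59w_TIdx N') : s59w_TIdx M where
  ell := i.ell
  prime := i.prime
  ndvd := fun h => i.ndvd (dvd_trans h hM)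
  sig := i.sig
  mem := s59t_Gamma0_le_of_dvd hM i.mem
  lr := by
    have := congrArg (ZMod.castHom hM (ZMod M)) i.lr
    rwa [map_intCast, map_natCast] at this

/-- an anemic index of level `N'` is an anemic index of level `M ∣ N'`. -/
def s59t_AIdx_down : s59w_AIdx N' → s59w_AIdx M
  | Sum.inl i => Sum.inl (s59t_TIdx_down hM i)
  | Sum.inr τ => Sum.inr ⟨(τ : SL(2, ℤ)), s59t_Gamma0_le_of_dvd hM τ.2⟩

end Down

/-! ### The family -/

section Family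

variable {𝒪 : Type*} [CommRing 𝒪] (N' : ℕ) (aq : ℕ → 𝒪) {M : ℕ} [NeZero M] (hM : M ∣ N')
  (H : Subgroup (ZMod M)ˣ)

open Classical in
/-- **the Hecke operators at `Γ_H(M)`-level**, indexed by `s59w_AIdx N' ⊕ ℕ`. -/
def s59t_opH : s59w_AIdx N' ⊕ ℕ → Module.End 𝒪 (s48h_Hpar 𝒪 (s48h_GammaH M H) 𝒪)
  | Sum.inl x => s59w_op H 𝒪 (s59t_AIdx_down hM x)
  | Sum.inr q =>
    if h : q.Prime ∧ q ∣ M then
      haveI : Fact q.Prime := ⟨h.1⟩
      (s59w_UqDatum H h.2).heckeHpar 𝒪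
    else aq q • 1

theorem s59t_opH_inl (x : s59w_AIdx N') :
    s59t_opH N' aq hM H (Sum.inl x) = s59w_op H 𝒪 (s59t_AIdx_down hM x) := rfl

theorem s59t_opH_U_pos {q : ℕ} (h : q.Prime ∧ q ∣ M) :
    s59t_opH N' aq hM H (Sum.inr q) =
      haveI : Fact q.Prime := ⟨h.1⟩
      (s59w_UqDatum H h.2).heckeHpar 𝒪 := by
  show (if h : q.Prime ∧ q ∣ M then
      haveI : Fact q.Prime := ⟨h.1⟩
      (s59w_UqDatum H h.2).heckeHpar 𝒪
    else aq q • 1) = _
  rw [dif_pos h]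

theorem s59t_opH_U_neg {q : ℕ} (h : ¬ (q.Prime ∧ q ∣ M)) :
    s59t_opH N' aq hM H (Sum.inr q) = aq q • 1 := by
  show (if h : q.Prime ∧ q ∣ M then
      haveI : Fact q.Prime := ⟨h.1⟩
      (s59w_UqDatum H h.2).heckeHpar 𝒪
    else aq q • 1) = _
  rw [dif_neg h]

/-- `U_q` commutes with the anemic generators. -/
theorem s59t_Uq_op_comm {q : ℕ} [Fact q.Prime] (hq : q ∣ M) (x : s59w_AIdx M) :
    (s59w_UqDatum H hq).heckeHpar 𝒪 * s59w_op H 𝒪 x =
      s59w_op H 𝒪 x * (s59w_UqDatum H hq).heckeHpar 𝒪 := by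
  refine LinearMap.ext fun v => Subtype.ext ?_
  rcases x with i | τ
  · haveI : Fact i.ell.Prime := ⟨i.prime⟩
    exact s59w_UqH_TpH_comm i.ndvd hq i.sig i.mem i.lr v.1
  · exact s59w_diamond_UqH_comm hq τ.2 v.1

theorem s59t_opH_comm (i j : s59w_AIdx N' ⊕ ℕ) :
    s59t_opH N' aq hM H i * s59t_opH N' aq hM H j =
      s59t_opH N' aq hM H j * s59t_opH N' aq hM H i := by
  rcases i with x | q <;> rcases j with y | q'
  · exact s59w_op_comm H 𝒪 _ _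
  · by_cases h : q'.Prime ∧ q' ∣ M
    · rw [s59t_opH_U_pos N' aq hM H h, s59t_opH_inl]
      haveI : Fact q'.Prime := ⟨h.1⟩
      exact (s59t_Uq_op_comm H h.2 _).symm
    · rw [s59t_opH_U_neg N' aq hM H h]
      exact (s59t_smul_one_comm _ _).symm
  · by_cases h : q.Prime ∧ q ∣ M
    · rw [s59t_opH_U_pos N' aq hM H h, s59t_opH_inl]
      haveI : Fact q.Prime := ⟨h.1⟩
      exact s59t_Uq_op_comm H h.2 _
    · rw [s59t_opH_U_neg N' aq hM H h]
      exact s59t_smul_one_comm _ _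
  · by_cases h : q.Prime ∧ q ∣ M
    · by_cases h' : q'.Prime ∧ q' ∣ M
      · by_cases hqq : q = q'
        · subst hqq
          rfl
        · rw [s59t_opH_U_pos N' aq hM H h, s59t_opH_U_pos N' aq hM H h']
          haveI : Fact q.Prime := ⟨h.1⟩
          haveI : Fact q'.Prime := ⟨h'.1⟩
          refine LinearMap.ext fun v => Subtype.ext ?_
          exact s59w_UqH_comm (fun hh => hqq hh.symm) h'.2 h.2 v.1
      · rw [s59t_opH_U_neg N' aq hM H h']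
        exact (s59t_smul_one_comm _ _).symm
    · rw [s59t_opH_U_neg N' aq hM H h]
      exact s59t_smul_one_comm _ _

/-- **the polynomial Hecke ring acting on `H_par(Γ_H(M), 𝒪)`.** -/
def s59t_actH :
    MvPolynomial (s59w_AIdx N' ⊕ ℕ) 𝒪 →ₐ[𝒪] Module.End 𝒪 (s48h_Hpar 𝒪 (s48h_GammaH M H) 𝒪) :=
  s59t_polyAct (s59t_opH N' aq hM H) (s59t_opH_comm N' aq hM H)

theorem s59t_actH_X (j : s59w_AIdx N' ⊕ ℕ) :
    s59t_actH N' aq hM H (MvPolynomial.X j) = s59t_opH N' aq hM H j := s59t_polyAct_X _ _ j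

end Family

/-! ### Compatibility with `res`, `cor`, `ρ` at a fixed level -/

section Compat

variable {𝒪 : Type*} [CommRing 𝒪] {N' : ℕ} [NeZero N'] (aq : ℕ → 𝒪) {M : ℕ} [NeZero M]
  (hM : M ∣ N') (H : Subgroup (ZMod M)ˣ)

/-- a diamond operator fixes the restrictions from `Γ₀(M)`. -/
theorem s59t_diamond_res {τ : SL(2, ℤ)} (hτ : τ ∈ Gamma0 M) (y : s29h_Hpar 𝒪 M 𝒪) :
    s48h_diamondH H τ hτ 𝒪 (s59t_res M H 𝒪 y.1) = s59t_res M H 𝒪 y.1 := by
  have h1 := s59t_rho_resHpar (H := H) 𝒪 𝒪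
    ((QuotientGroup.mk (⟨τ, hτ⟩ : Gamma0 M) : s59t_Delta M H))⁻¹ y
  have h2 := congrArg (fun z : s48h_Hpar 𝒪 (s48h_GammaH M H) 𝒪 =>
    (z : Additive (s48h_GammaH M H) →+ 𝒪)) h1
  rw [s59t_rho_mk_inv] at h2
  exact h2

/-- **`opH ∘ res = res ∘ op0`** on generators. -/
theorem s59t_opH_res (j : s59w_AIdx N' ⊕ ℕ) (y : s29h_Hpar 𝒪 M 𝒪) :
    s59t_opH N' aq hM H j (s59t_resHpar M H 𝒪 𝒪 y) =
      s59t_resHpar M H 𝒪 𝒪 (s59t_op0 N' aq M j y) := by
  rcases j with (i | τ) | q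
  · haveI : Fact i.ell.Prime := ⟨i.prime⟩
    apply Subtype.ext
    exact (s59t_res_hecke (H := H) (ℓ := i.ell) (s59t_TIdx_down hM i).ndvd
      (s59t_TIdx_down hM i).mem (s59t_TIdx_down hM i).lr y.1).symm
  · apply Subtype.ext
    rw [s59t_op0_dia, Module.End.one_apply]
    exact s59t_diamond_res H (s59t_Gamma0_le_of_dvd hM τ.2) y
  · by_cases h : q.Prime ∧ q ∣ M
    · rw [s59t_opH_U_pos N' aq hM H h, s59t_op0_U_pos N' aq M h]
      haveI : Fact q.Prime := ⟨h.1⟩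
      apply Subtype.ext
      exact (s59t_res_Uq (H := H) h.2 y.1).symm
    · rw [s59t_opH_U_neg N' aq hM H h, s59t_op0_U_neg N' aq M h, LinearMap.smul_apply,
        LinearMap.smul_apply, Module.End.one_apply, Module.End.one_apply, map_smul]

/-- **`op0 ∘ cor = cor ∘ opH`** on generators. -/
theorem s59t_opH_cor (hPF : s59t_PF M H) (j : s59w_AIdx N' ⊕ ℕ)
    (χ : s48h_Hpar 𝒪 (s48h_GammaH M H) 𝒪) :
    s59t_op0 N' aq M j (s59t_corHpar M H 𝒪 𝒪 hPF χ) =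
      s59t_corHpar M H 𝒪 𝒪 hPF (s59t_opH N' aq hM H j χ) := by
  rcases j with (i | τ) | q
  · haveI : Fact i.ell.Prime := ⟨i.prime⟩
    apply Subtype.ext
    exact (s59t_corH_hecke (H := H) (ℓ := i.ell) (s59t_TIdx_down hM i).ndvd
      (s59t_TIdx_down hM i).mem (s59t_TIdx_down hM i).lr χ.1).symm
  · apply Subtype.ext
    rw [s59t_op0_dia, Module.End.one_apply]
    exact (s59t_corH_diamond (H := H) (s59t_Gamma0_le_of_dvd hM τ.2) χ.1).symm
  · by_cases h : q.Prime ∧ q ∣ M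
    · rw [s59t_opH_U_pos N' aq hM H h, s59t_op0_U_pos N' aq M h]
      haveI : Fact q.Prime := ⟨h.1⟩
      apply Subtype.ext
      exact (s59t_cor_Uq (H := H) h.2 χ.1).symm
    · rw [s59t_opH_U_neg N' aq hM H h, s59t_op0_U_neg N' aq M h, LinearMap.smul_apply,
        LinearMap.smul_apply, Module.End.one_apply, Module.End.one_apply, map_smul]

/-- the diamond representation is given by anemic generators. -/
theorem s59t_rho_eq_op (τ : Gamma0 M) :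
    s59t_rho M H 𝒪 𝒪 (QuotientGroup.mk τ) =
      s59w_op H 𝒪 (Sum.inr ⟨(τ : SL(2, ℤ))⁻¹, inv_mem τ.2⟩) := rfl

/-- **`opH` commutes with the diamond representation.** -/
theorem s59t_opH_rho (j : s59w_AIdx N' ⊕ ℕ) (δ : s59t_Delta M H)
    (x : s48h_Hpar 𝒪 (s48h_GammaH M H) 𝒪) :
    s59t_opH N' aq hM H j (s59t_rho M H 𝒪 𝒪 δ x) =
      s59t_rho M H 𝒪 𝒪 δ (s59t_opH N' aq hM H j x) := by
  obtain ⟨τ, rfl⟩ := QuotientGroup.mk_surjective δ
  rw [s59t_rho_eq_op]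
  rcases j with y | q
  · exact LinearMap.congr_fun (s59w_op_comm H 𝒪 _ _) x
  · by_cases h : q.Prime ∧ q ∣ M
    · rw [s59t_opH_U_pos N' aq hM H h]
      haveI : Fact q.Prime := ⟨h.1⟩
      exact LinearMap.congr_fun (s59t_Uq_op_comm H h.2 _) x
    · rw [s59t_opH_U_neg N' aq hM H h, LinearMap.smul_apply, LinearMap.smul_apply,
        Module.End.one_apply, Module.End.one_apply, map_smul]

/-- **`actH ∘ res = res ∘ act0`.** -/
theorem s59t_actH_res (t : MvPolynomial (s59w_AIdx N' ⊕ ℕ) 𝒪) (y : s29h_Hpar 𝒪 M 𝒪) :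
    s59t_actH N' aq hM H t (s59t_resHpar M H 𝒪 𝒪 y) =
      s59t_resHpar M H 𝒪 𝒪 (s59t_act0 aq hM t y) :=
  (s59t_polyAct_intertwine _ _ _ _ (s59t_resHpar M H 𝒪 𝒪)
    (fun j z => (s59t_opH_res aq hM H j z).symm) t y).symm

/-- **`act0 ∘ cor = cor ∘ actH`.** -/
theorem s59t_actH_cor (hPF : s59t_PF M H) (t : MvPolynomial (s59w_AIdx N' ⊕ ℕ) 𝒪)
    (χ : s48h_Hpar 𝒪 (s48h_GammaH M H) 𝒪) :
    s59t_act0 aq hM t (s59t_corHpar M H 𝒪 𝒪 hPF χ) =
      s59t_corHpar M H 𝒪 𝒪 hPF (s59t_actH N' aq hM H t χ) :=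
  (s59t_polyAct_intertwine _ _ _ _ (s59t_corHpar M H 𝒪 𝒪 hPF)
    (fun j z => (s59t_opH_cor aq hM H hPF j z).symm) t χ).symm

/-- **`actH` commutes with the diamond representation.** -/
theorem s59t_actH_rho (t : MvPolynomial (s59w_AIdx N' ⊕ ℕ) 𝒪) (δ : s59t_Delta M H)
    (x : s48h_Hpar 𝒪 (s48h_GammaH M H) 𝒪) :
    s59t_actH N' aq hM H t (s59t_rho M H 𝒪 𝒪 δ x) =
      s59t_rho M H 𝒪 𝒪 δ (s59t_actH N' aq hM H t x) :=
  (s59t_polyAct_commute _ _ (s59t_rho M H 𝒪 𝒪 δ)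
    (fun j z => (s59t_opH_rho aq hM H j δ z).symm) t x).symm

end Compat

/-! ### Restriction between two `Γ_H`-levels -/

section ResGH

variable {𝒪 : Type*} [CommRing 𝒪] {N' : ℕ} [NeZero N'] (aq : ℕ → 𝒪) {M₁ M₂ : ℕ} [NeZero M₁]
  [NeZero M₂] (hM₁ : M₁ ∣ N') (hM₂ : M₂ ∣ N') (H₁ : Subgroup (ZMod M₁)ˣ)
  (H₂ : Subgroup (ZMod M₂)ˣ) (hle : s48h_GammaH M₂ H₂ ≤ s48h_GammaH M₁ H₁) (h12 : M₁ ∣ M₂)

include h12 in
/-- **restriction `Γ_{H₁}(M₁) → Γ_{H₂}(M₂)` intertwines the generators** whose `U`-prime divides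
`M₁` or does not divide `M₂`. -/
theorem s59t_opH_resG (j : s59w_AIdx N' ⊕ ℕ)
    (hj : ∀ q' : ℕ, j = Sum.inr q' → q'.Prime → q' ∣ M₂ → q' ∣ M₁)
    (x : s48h_Hpar 𝒪 (s48h_GammaH M₁ H₁) 𝒪) :
    s59t_resGHpar hle 𝒪 𝒪 (s59t_opH N' aq hM₁ H₁ j x) =
      s59t_opH N' aq hM₂ H₂ j (s59t_resGHpar hle 𝒪 𝒪 x) := by
  rcases j with (i | τ) | q
  · haveI : Fact i.ell.Prime := ⟨i.prime⟩
    apply Subtype.ext
    exact s59t_resG_Tp (ℓ := i.ell) hle (s59t_TIdx_down hM₂ i).ndvd (s59t_TIdx_down hM₁ i).ndvd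
      (s59t_TIdx_down hM₂ i).mem (s59t_TIdx_down hM₂ i).lr (s59t_TIdx_down hM₁ i).mem
      (s59t_TIdx_down hM₁ i).lr x.1
  · apply Subtype.ext
    exact s59t_resG_diamond hle (s59t_Gamma0_le_of_dvd hM₂ τ.2) (s59t_Gamma0_le_of_dvd hM₁ τ.2) x.1
  · by_cases h : q.Prime ∧ q ∣ M₁
    · by_cases h' : q.Prime ∧ q ∣ M₂
      · rw [s59t_opH_U_pos N' aq hM₁ H₁ h, s59t_opH_U_pos N' aq hM₂ H₂ h']
        haveI : Fact q.Prime := ⟨h.1⟩
        apply Subtype.ext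
        exact s59t_resG_Uq hle h'.2 h.2 x.1
      · exact absurd ⟨h.1, dvd_trans h.2 h12⟩ h'
    · have h' : ¬ (q.Prime ∧ q ∣ M₂) := fun h2 => h ⟨h2.1, hj q rfl h2.1 h2.2⟩
      rw [s59t_opH_U_neg N' aq hM₁ H₁ h, s59t_opH_U_neg N' aq hM₂ H₂ h', LinearMap.smul_apply,
        LinearMap.smul_apply, Module.End.one_apply, Module.End.one_apply, map_smul]

include h12 in
/-- **restriction intertwines the polynomial actions** on the polynomials supported on good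
indices. -/
theorem s59t_actH_resG (S : Set (s59w_AIdx N' ⊕ ℕ))
    (hS : ∀ j ∈ S, ∀ q' : ℕ, j = Sum.inr q' → q'.Prime → q' ∣ M₂ → q' ∣ M₁)
    {t : MvPolynomial (s59w_AIdx N' ⊕ ℕ) 𝒪} (ht : t ∈ MvPolynomial.supported 𝒪 S)
    (x : s48h_Hpar 𝒪 (s48h_GammaH M₁ H₁) 𝒪) :
    s59t_resGHpar hle 𝒪 𝒪 (s59t_actH N' aq hM₁ H₁ t x) =
      s59t_actH N' aq hM₂ H₂ t (s59t_resGHpar hle 𝒪 𝒪 x) :=
  s59t_polyAct_intertwine_supported _ _ _ _ S _
    (fun j hj z => s59t_opH_resG aq hM₁ hM₂ H₁ H₂ hle h12 j (hS j hj) z) ht x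

end ResGH

end Fermat.Agent.Lib.S59
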