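/-
Programme (R) = S59, node (B2) concrete module half (helper8), file 63: **the concrete
Taylor–Wiles control theorem.**  Levels `(N, H)` and `(N', H')`, `N' = N ∏ L` (`L` the list of
Taylor–Wiles primes); ONE polynomial ring `P = 𝒪[X_i : i ∈ s59w_AIdx N' ⊕ ℕ]` acting on all the
`H_par(Γ₀(M), 𝒪)`, `M ∣ N'`, and on `H_par(Γ_H(N), 𝒪)`, `H_par(Γ_{H'}(N'), 𝒪)`.

* `s59t_ker_le_evalIdeal` : an eigenvector modulo `𝔪` ⇒ the eigen-system occurs;
* `s59t_actTot` : the total action;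
* `s59t_TW_data` : existence of the anemic idempotent `e₀`, of the `a_q`-part projectors `f_q`, with
  all the properties consumed by `s59t_chain` and `s59t_control_top_inv`.
-/
import Mathlib
import Fermat.Agent.Lib.S59.TGHOps

set_option autoImplicit false
set_option linter.unusedSectionVars false
set_option linter.style.haveILetI false
set_option synthInstance.maxHeartbeats 400000

noncomputable section

namespace Fermat.Agent.Lib.S59

open Matrix MatrixGroups CongruenceSubgroup IsLocalRing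
open Fermat.Agent.Lib.S29 Fermat.Agent.Lib.S48 Fermat.Agent.Lib.S41

/-! ### Eigenvectors modulo `𝔪` -/

section Eigen

variable {𝒪 : Type*} [CommRing 𝒪] [IsLocalRing 𝒪] {I : Type*} {Z : Type*} [AddCommGroup Z]
  [Module 𝒪 Z]

/-- a linear map preserves `𝔪 Z`. -/
theorem s59t_map_smul_top (g : Module.End 𝒪 Z) {z : Z}
    (hz : z ∈ (maximalIdeal 𝒪 • ⊤ : Submodule 𝒪 Z)) :
    g z ∈ (maximalIdeal 𝒪 • ⊤ : Submodule 𝒪 Z) :=
  Submodule.smul_top_le_comap_smul_top (maximalIdeal 𝒪) g hz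

/-- **an eigenvector modulo `𝔪` of the generators is an eigenvector modulo `𝔪` of every
polynomial.** -/
theorem s59t_eigen_poly (op : I → Module.End 𝒪 Z) (hc : ∀ i j, op i * op j = op j * op i)
    (c : I → 𝒪) (v : Z)
    (h : ∀ i, op i v - c i • v ∈ (maximalIdeal 𝒪 • ⊤ : Submodule 𝒪 Z))
    (t : MvPolynomial I 𝒪) (c' : 𝒪) (hc' : residue 𝒪 c' = s59t_evalHom c t) :
    s59t_polyAct op hc t v - c' • v ∈ (maximalIdeal 𝒪 • ⊤ : Submodule 𝒪 Z) := by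
  induction t using MvPolynomial.induction_on generalizing c' with
  | C r =>
    rw [s59t_polyAct_C, LinearMap.smul_apply, Module.End.one_apply, ← sub_smul]
    refine Submodule.smul_mem_smul ?_ Submodule.mem_top
    rw [s59t_evalHom_C] at hc'
    rw [← residue_eq_zero_iff, map_sub, hc', sub_self]
  | add s t hs ht =>
    obtain ⟨cs, hcs⟩ := residue_surjective (s59t_evalHom c s)
    obtain ⟨ct, hct⟩ := residue_surjective (s59t_evalHom c t)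
    have h1 := hs cs hcs
    have h2 := ht ct hct
    have h3 : (cs + ct - c') • v ∈ (maximalIdeal 𝒪 • ⊤ : Submodule 𝒪 Z) := by
      refine Submodule.smul_mem_smul ?_ Submodule.mem_top
      rw [← residue_eq_zero_iff, map_sub, map_add, hc', hcs, hct, map_add, sub_self]
    have h4 : s59t_polyAct op hc (s + t) v - c' • v =
        (s59t_polyAct op hc s v - cs • v) + (s59t_polyAct op hc t v - ct • v) +
          (cs + ct - c') • v := by
      rw [map_add, LinearMap.add_apply, sub_smul, add_smul]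
      abel
    rw [h4]
    exact Submodule.add_mem _ (Submodule.add_mem _ h1 h2) h3
  | mul_X s i hs =>
    obtain ⟨cs, hcs⟩ := residue_surjective (s59t_evalHom c s)
    have h1 := hs cs hcs
    have h2 := s59t_map_smul_top (s59t_polyAct op hc s) (h i)
    have h3 : (c i * cs - c') • v ∈ (maximalIdeal 𝒪 • ⊤ : Submodule 𝒪 Z) := by
      refine Submodule.smul_mem_smul ?_ Submodule.mem_top
      rw [← residue_eq_zero_iff, map_sub, map_mul, hc', hcs, map_mul, s59t_evalHom_X, mul_comm,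
        sub_self]
    have h4 : s59t_polyAct op hc (s * MvPolynomial.X i) v - c' • v =
        s59t_polyAct op hc s (op i v - c i • v) + c i • (s59t_polyAct op hc s v - cs • v) +
          (c i * cs - c') • v := by
      rw [map_mul, s59t_polyAct_X, Module.End.mul_apply, map_sub, map_smul, smul_sub, sub_smul,
        mul_smul]
      abel
    rw [h4]
    exact Submodule.add_mem _ (Submodule.add_mem _ h2 (Submodule.smul_mem _ _ h1)) h3

/-- **the eigen-system `c` occurs in `Z` as soon as there is an eigenvector modulo `𝔪`.** -/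
theorem s59t_ker_le_evalIdeal (op : I → Module.End 𝒪 Z) (hc : ∀ i j, op i * op j = op j * op i)
    (c : I → 𝒪) (v : Z) (hv : v ∉ (maximalIdeal 𝒪 • ⊤ : Submodule 𝒪 Z))
    (h : ∀ i, op i v - c i • v ∈ (maximalIdeal 𝒪 • ⊤ : Submodule 𝒪 Z)) :
    RingHom.ker (s59t_polyAct op hc) ≤ s59t_evalIdeal c := by
  intro t ht
  rw [RingHom.mem_ker] at ht
  rw [s59t_mem_evalIdeal]
  by_contra hne
  obtain ⟨c', hc'⟩ := residue_surjective (s59t_evalHom c t)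
  have hcu : IsUnit c' := by
    by_contra hnu
    have : residue 𝒪 c' = 0 := (residue_eq_zero_iff c').mpr ((mem_maximalIdeal c').mpr hnu)
    exact hne (hc' ▸ this)
  have h1 := s59t_eigen_poly op hc c v h t c' hc'
  rw [ht, LinearMap.zero_apply, zero_sub] at h1
  have h2 : c' • v ∈ (maximalIdeal 𝒪 • ⊤ : Submodule 𝒪 Z) := by
    have := Submodule.neg_mem _ h1
    rwa [neg_neg] at this
  obtain ⟨u, rfl⟩ := hcu
  have h3 : v = (↑u⁻¹ : 𝒪) • ((u : 𝒪) • v) := by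
    rw [smul_smul, Units.inv_mul, one_smul]
  rw [h3] at hv
  exact hv (Submodule.smul_mem _ _ h2)

end Eigen

/-! ### The total action -/

section Tot

variable {𝒪 : Type} [CommRing 𝒪] [IsDomain 𝒪] [IsDiscreteValuationRing 𝒪]
  {N N' : ℕ} [NeZero N] [NeZero N'] (aq : ℕ → 𝒪) (hN : N ∣ N')
  (H : Subgroup (ZMod N)ˣ) (H' : Subgroup (ZMod N')ˣ)

instance s59t_neZero_divisor (M : ↥(N'.divisors)) : NeZero (M : ℕ) :=
  ⟨(Nat.pos_of_mem_divisors M.2).ne'⟩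

instance s59t_finite_Hpar0 (M : ℕ) [NeZero M] : Module.Finite 𝒪 (s29h_Hpar 𝒪 M 𝒪) :=
  s59t_Hpar_finite 𝒪 (Γ := Gamma0 M)

instance s59t_free_Hpar0 (M : ℕ) [NeZero M] : Module.Free 𝒪 (s29h_Hpar 𝒪 M 𝒪) :=
  s59t_Hpar_free 𝒪 (Γ := Gamma0 M)

instance s59t_finite_HparH (M : ℕ) [NeZero M] (K : Subgroup (ZMod M)ˣ) :
    Module.Finite 𝒪 (s48h_Hpar 𝒪 (s48h_GammaH M K) 𝒪) := s59t_Hpar_finite 𝒪

instance s59t_free_HparH (M : ℕ) [NeZero M] (K : Subgroup (ZMod M)ˣ) :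
    Module.Free 𝒪 (s48h_Hpar 𝒪 (s48h_GammaH M K) 𝒪) := s59t_Hpar_free 𝒪

variable (𝒪) in
/-- the product of the endomorphism rings of all the Hecke modules. -/
abbrev s59t_ETot : Type :=
  (∀ M : ↥(N'.divisors), Module.End 𝒪 (s29h_Hpar 𝒪 (M : ℕ) 𝒪)) ×
    (Module.End 𝒪 (s48h_Hpar 𝒪 (s48h_GammaH N H) 𝒪) ×
      Module.End 𝒪 (s48h_Hpar 𝒪 (s48h_GammaH N' H') 𝒪))

instance s59t_finite_ETot : Module.Finite 𝒪 (s59t_ETot 𝒪 H H') := by
  unfold s59t_ETot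
  infer_instance

/-- **the total action** of the polynomial ring. -/
def s59t_actTot : MvPolynomial (s59w_AIdx N' ⊕ ℕ) 𝒪 →ₐ[𝒪] s59t_ETot 𝒪 H H' :=
  (AlgHom.pi (fun M : ↥(N'.divisors) => s59t_act0 aq (Nat.dvd_of_mem_divisors M.2))).prod
    ((s59t_actH N' aq hN H).prod (s59t_actH N' aq (dvd_refl N') H'))

theorem s59t_actTot_0 (t : MvPolynomial (s59w_AIdx N' ⊕ ℕ) 𝒪) (M : ℕ) (hM : M ∣ N') :
    (s59t_actTot aq hN H H' t).1 ⟨M, Nat.mem_divisors.mpr ⟨hM, NeZero.ne N'⟩⟩ =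
      s59t_act0 aq hM t := rfl

theorem s59t_actTot_H (t : MvPolynomial (s59w_AIdx N' ⊕ ℕ) 𝒪) :
    (s59t_actTot aq hN H H' t).2.1 = s59t_actH N' aq hN H t := rfl

theorem s59t_actTot_H' (t : MvPolynomial (s59w_AIdx N' ⊕ ℕ) 𝒪) :
    (s59t_actTot aq hN H H' t).2.2 = s59t_actH N' aq (dvd_refl N') H' t := rfl

end Tot

/-! ### The anemic idempotent and the `a_q`-part projectors -/

section Data

variable {𝒪 : Type} [CommRing 𝒪] [IsDomain 𝒪] [IsDiscreteValuationRing 𝒪]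
  [IsAdicComplete (maximalIdeal 𝒪) 𝒪]
  {N N' : ℕ} [NeZero N] [NeZero N'] (aq : ℕ → 𝒪) (hN : N ∣ N')
  (H : Subgroup (ZMod N)ˣ) (H' : Subgroup (ZMod N')ˣ)
  (good : Set (s59w_AIdx N')) (c : s59w_AIdx N' → 𝒪)

variable (𝒪) in
/-- the embedding of the anemic polynomial ring on the good indices. -/
def s59t_jG : MvPolynomial ↥good 𝒪 →ₐ[𝒪] MvPolynomial (s59w_AIdx N' ⊕ ℕ) 𝒪 :=
  MvPolynomial.rename (fun x : ↥good => (Sum.inl (x : s59w_AIdx N') : s59w_AIdx N' ⊕ ℕ))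

theorem s59t_jG_X (x : ↥good) :
    s59t_jG 𝒪 good (MvPolynomial.X x) = MvPolynomial.X (Sum.inl (x : s59w_AIdx N')) :=
  MvPolynomial.rename_X _ _

theorem s59t_jG_eq (t : MvPolynomial ↥good 𝒪) :
    s59t_jG 𝒪 good t = MvPolynomial.rename Sum.inl (MvPolynomial.rename Subtype.val t) := by
  unfold s59t_jG
  rw [MvPolynomial.rename_rename]
  rfl

theorem s59t_jG_mem_supported (t : MvPolynomial ↥good 𝒪) (S : Set (s59w_AIdx N' ⊕ ℕ))
    (hS : Set.range (Sum.inl : s59w_AIdx N' → s59w_AIdx N' ⊕ ℕ) ⊆ S) :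
    s59t_jG 𝒪 good t ∈ MvPolynomial.supported 𝒪 S := by
  classical
  rw [MvPolynomial.mem_supported]
  intro j hj
  have := MvPolynomial.vars_rename _ t hj
  rw [Finset.mem_image] at this
  obtain ⟨i, -, rfl⟩ := this
  exact hS ⟨_, rfl⟩

set_option maxHeartbeats 1600000 in
/-- **the anemic idempotent of the eigen-system `c`**, simultaneously on all the Hecke modules. -/
theorem s59t_exists_e0
    (hocc : ∃ v : s29h_Hpar 𝒪 N 𝒪, v ∉ (maximalIdeal 𝒪 • ⊤ : Submodule 𝒪 (s29h_Hpar 𝒪 N 𝒪)) ∧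
      ∀ x ∈ good, s59t_op0 N' aq N (Sum.inl x) v - c x • v ∈
        (maximalIdeal 𝒪 • ⊤ : Submodule 𝒪 (s29h_Hpar 𝒪 N 𝒪))) :
    ∃ e₀ : MvPolynomial ↥good 𝒪,
      1 - e₀ ∈ s59t_evalIdeal (fun x : ↥good => c x) ∧
      s59t_actTot aq hN H H' (s59t_jG 𝒪 good e₀) * s59t_actTot aq hN H H' (s59t_jG 𝒪 good e₀) =
        s59t_actTot aq hN H H' (s59t_jG 𝒪 good e₀) ∧
      (∀ t ∈ s59t_evalIdeal (fun x : ↥good => c x), ∃ n : ℕ,
        s59t_actTot aq hN H H' (s59t_jG 𝒪 good (t ^ n * e₀)) ∈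
          (maximalIdeal 𝒪 • ⊤ : Submodule 𝒪 (s59t_ETot 𝒪 H H'))) ∧
      (∀ t, t ∉ s59t_evalIdeal (fun x : ↥good => c x) → ∃ η : MvPolynomial ↥good 𝒪,
        s59t_actTot aq hN H H' (s59t_jG 𝒪 good (η * t * e₀)) =
          s59t_actTot aq hN H H' (s59t_jG 𝒪 good e₀)) ∧
      s59t_act0 aq hN (s59t_jG 𝒪 good e₀) ≠ 0 := by
  obtain ⟨v, hv, hev⟩ := hocc
  -- the eigen-system occurs
  have h𝔫 : RingHom.ker ((s59t_actTot aq hN H H').comp (s59t_jG 𝒪 good)) ≤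
      s59t_evalIdeal (fun x : ↥good => c x) := by
    intro t ht
    have h1 : s59t_act0 aq hN (s59t_jG 𝒪 good t) = 0 := by
      rw [← s59t_actTot_0 aq hN H H' _ N hN]
      have h2 : s59t_actTot aq hN H H' (s59t_jG 𝒪 good t) = 0 := ht
      rw [h2]
      rfl
    have h3 : s59t_act0 aq hN (s59t_jG 𝒪 good t) =
        s59t_polyAct (fun x : ↥good => s59t_op0 N' aq N (Sum.inl (x : s59w_AIdx N')))
          (fun i j => s59t_op0_comm aq hN _ _) t := by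
      unfold s59t_act0 s59t_jG
      exact s59t_polyAct_rename _ _ _ t
    rw [h3] at h1
    exact s59t_ker_le_evalIdeal _ _ (fun x : ↥good => c x) v hv (fun x => hev x.1 x.2) h1
  have key := s59t_exists_idem_alg (E := s59t_ETot 𝒪 H H')
    (act := (s59t_actTot aq hN H H').comp (s59t_jG 𝒪 good))
    (𝔫 := s59t_evalIdeal (fun x : ↥good => c x))
  obtain ⟨e₀, h1e, hee, hnil, hunit⟩ := key h𝔫
  refine ⟨e₀, h1e, hee, hnil, hunit, ?_⟩
  -- non-vanishing at level `N`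
  have hker : RingHom.ker ((s59t_act0 aq hN).comp (s59t_jG 𝒪 good)) ≤
      s59t_evalIdeal (fun x : ↥good => c x) := by
    intro t ht
    have h1 : s59t_act0 aq hN (s59t_jG 𝒪 good t) = 0 := ht
    have h3 : s59t_act0 aq hN (s59t_jG 𝒪 good t) =
        s59t_polyAct (fun x : ↥good => s59t_op0 N' aq N (Sum.inl (x : s59w_AIdx N')))
          (fun i j => s59t_op0_comm aq hN _ _) t := by
      unfold s59t_act0 s59t_jG
      exact s59t_polyAct_rename _ _ _ t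
    rw [h3] at h1
    exact s59t_ker_le_evalIdeal _ _ (fun x : ↥good => c x) v hv (fun x => hev x.1 x.2) h1
  have key2 := s59t_idem_ne_zero (E := Module.End 𝒪 (s29h_Hpar 𝒪 N 𝒪))
    (act := (s59t_act0 aq hN).comp (s59t_jG 𝒪 good))
    (𝔫 := s59t_evalIdeal (fun x : ↥good => c x))
  exact key2 hker e₀ h1e

set_option maxHeartbeats 1600000 in
/-- **the `a_q`-part projector of `U_q` on the `E₀`-part is a polynomial `f_q`** in `X_{inr q}` and
the anemic variables, simultaneously on all the Hecke modules. -/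
theorem s59t_exists_fq (E₀ : MvPolynomial (s59w_AIdx N' ⊕ ℕ) 𝒪)
    (hE₀s : E₀ ∈ MvPolynomial.supported 𝒪
      (Set.range (Sum.inl : s59w_AIdx N' → s59w_AIdx N' ⊕ ℕ)))
    (hE₀ : s59t_actTot aq hN H H' E₀ * s59t_actTot aq hN H H' E₀ = s59t_actTot aq hN H H' E₀)
    (q : ℕ) :
    ∃ f : MvPolynomial (s59w_AIdx N' ⊕ ℕ) 𝒪,
      f ∈ MvPolynomial.supported 𝒪
        (Set.range (Sum.inl : s59w_AIdx N' → s59w_AIdx N' ⊕ ℕ) ∪ {Sum.inr q}) ∧
      (∀ (M : ℕ) (hM : M ∣ N'), s59t_IsAlpha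
        (Z := s59t_part (s59t_act0 aq hM E₀))
        (s59t_partMap (ε := s59t_act0 aq hM E₀) (ε' := s59t_act0 aq hM E₀)
          (s59t_act0 aq hM (MvPolynomial.X (Sum.inr q)))
          (s59t_alg_comm (s59t_act0 aq hM) E₀ (MvPolynomial.X (Sum.inr q)))) (aq q)
        (s59t_partMap (ε := s59t_act0 aq hM E₀) (ε' := s59t_act0 aq hM E₀)
          (s59t_act0 aq hM f) (s59t_alg_comm (s59t_act0 aq hM) E₀ f))) ∧
      s59t_IsAlpha
        (Z := s59t_part (s59t_actH N' aq hN H E₀))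
        (s59t_partMap (ε := s59t_actH N' aq hN H E₀) (ε' := s59t_actH N' aq hN H E₀)
          (s59t_actH N' aq hN H (MvPolynomial.X (Sum.inr q)))
          (s59t_alg_comm (s59t_actH N' aq hN H) E₀ (MvPolynomial.X (Sum.inr q)))) (aq q)
        (s59t_partMap (ε := s59t_actH N' aq hN H E₀) (ε' := s59t_actH N' aq hN H E₀)
          (s59t_actH N' aq hN H f) (s59t_alg_comm (s59t_actH N' aq hN H) E₀ f)) ∧
      s59t_IsAlpha
        (Z := s59t_part (s59t_actH N' aq (dvd_refl N') H' E₀))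
        (s59t_partMap (ε := s59t_actH N' aq (dvd_refl N') H' E₀)
          (ε' := s59t_actH N' aq (dvd_refl N') H' E₀)
          (s59t_actH N' aq (dvd_refl N') H' (MvPolynomial.X (Sum.inr q)))
          (s59t_alg_comm (s59t_actH N' aq (dvd_refl N') H') E₀ (MvPolynomial.X (Sum.inr q))))
        (aq q)
        (s59t_partMap (ε := s59t_actH N' aq (dvd_refl N') H' E₀)
          (ε' := s59t_actH N' aq (dvd_refl N') H' E₀)
          (s59t_actH N' aq (dvd_refl N') H' f)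
          (s59t_alg_comm (s59t_actH N' aq (dvd_refl N') H') E₀ f)) := by
  -- the polynomial ring on the anemic variables and `X_{inr q}`
  obtain ⟨S, hS⟩ : ∃ S : Set (s59w_AIdx N' ⊕ ℕ),
      S = Set.range (Sum.inl : s59w_AIdx N' → s59w_AIdx N' ⊕ ℕ) ∪ {Sum.inr q} := ⟨_, rfl⟩
  have hE₀S : E₀ ∈ MvPolynomial.supported 𝒪 S := by
    rw [hS]
    exact MvPolynomial.supported_mono Set.subset_union_left hE₀s
  have hXS : (MvPolynomial.X (Sum.inr q) : MvPolynomial (s59w_AIdx N' ⊕ ℕ) 𝒪) ∈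
      MvPolynomial.supported 𝒪 S := by
    rw [hS]
    exact MvPolynomial.X_mem_supported.mpr (Or.inr rfl)
  have key := s59t_exists_alpha_poly (𝕋 := ↥(MvPolynomial.supported 𝒪 S))
    (E := s59t_ETot 𝒪 H H')
    (act := (s59t_actTot aq hN H H').comp (MvPolynomial.supported 𝒪 S).val)
    (e := ⟨E₀, hE₀S⟩) (u := ⟨MvPolynomial.X (Sum.inr q), hXS⟩) (a := aq q) hE₀
  obtain ⟨f, -, -, hf⟩ := key
  refine ⟨f.1, hS ▸ f.2, ?_, ?_, ?_⟩
  · intro M hM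
    have h1 := hf (Z := s29h_Hpar 𝒪 M 𝒪)
      (actZ := (s59t_act0 aq hM).comp (MvPolynomial.supported 𝒪 S).val) (by
        intro t ht
        have h2 : s59t_actTot aq hN H H' t.1 = 0 := ht
        show s59t_act0 aq hM t.1 = 0
        rw [← s59t_actTot_0 aq hN H H' _ M hM, h2]
        rfl)
    exact h1
  · have h1 := hf (Z := s48h_Hpar 𝒪 (s48h_GammaH N H) 𝒪)
      (actZ := (s59t_actH N' aq hN H).comp (MvPolynomial.supported 𝒪 S).val) (by
        intro t ht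
        have h2 : s59t_actTot aq hN H H' t.1 = 0 := ht
        show s59t_actH N' aq hN H t.1 = 0
        rw [← s59t_actTot_H aq hN H H', h2]
        rfl)
    exact h1
  · have h1 := hf (Z := s48h_Hpar 𝒪 (s48h_GammaH N' H') 𝒪)
      (actZ := (s59t_actH N' aq (dvd_refl N') H').comp (MvPolynomial.supported 𝒪 S).val) (by
        intro t ht
        have h2 : s59t_actTot aq hN H H' t.1 = 0 := ht
        show s59t_actH N' aq (dvd_refl N') H' t.1 = 0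
        rw [← s59t_actTot_H' aq hN H H', h2]
        rfl)
    exact h1

/-- evaluation of the `Γ₀(M)`-component at a vector. -/
def s59t_ev0 (M : ℕ) (hM : M ∣ N') (y : s29h_Hpar 𝒪 M 𝒪) :
    s59t_ETot 𝒪 H H' →ₗ[𝒪] s29h_Hpar 𝒪 M 𝒪 where
  toFun x := x.1 ⟨M, Nat.mem_divisors.mpr ⟨hM, NeZero.ne N'⟩⟩ y
  map_add' _ _ := rfl
  map_smul' _ _ := rfl

/-- evaluation of the `Γ_H(N)`-component at a vector. -/
def s59t_evH (y : s48h_Hpar 𝒪 (s48h_GammaH N H) 𝒪) :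
    s59t_ETot 𝒪 H H' →ₗ[𝒪] s48h_Hpar 𝒪 (s48h_GammaH N H) 𝒪 where
  toFun x := x.2.1 y
  map_add' _ _ := rfl
  map_smul' _ _ := rfl

/-- evaluation of the `Γ_{H'}(N')`-component at a vector. -/
def s59t_evH' (y : s48h_Hpar 𝒪 (s48h_GammaH N' H') 𝒪) :
    s59t_ETot 𝒪 H H' →ₗ[𝒪] s48h_Hpar 𝒪 (s48h_GammaH N' H') 𝒪 where
  toFun x := x.2.2 y
  map_add' _ _ := rfl
  map_smul' _ _ := rfl

/-- a component of an element of `𝔪 E_tot` applied to a vector lies in `𝔪 Z`. -/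
theorem s59t_actTot_0_mem {t : MvPolynomial (s59w_AIdx N' ⊕ ℕ) 𝒪}
    (ht : s59t_actTot aq hN H H' t ∈
      (maximalIdeal 𝒪 • ⊤ : Submodule 𝒪 (s59t_ETot 𝒪 H H')))
    (M : ℕ) (hM : M ∣ N') (y : s29h_Hpar 𝒪 M 𝒪) :
    s59t_act0 aq hM t y ∈ (maximalIdeal 𝒪 • ⊤ : Submodule 𝒪 (s29h_Hpar 𝒪 M 𝒪)) :=
  s59t_map_pow_smul' (maximalIdeal 𝒪) (s59t_ev0 H H' M hM y) (s59t_actTot aq hN H H' t) ht

theorem s59t_actTot_H_mem {t : MvPolynomial (s59w_AIdx N' ⊕ ℕ) 𝒪}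
    (ht : s59t_actTot aq hN H H' t ∈
      (maximalIdeal 𝒪 • ⊤ : Submodule 𝒪 (s59t_ETot 𝒪 H H')))
    (y : s48h_Hpar 𝒪 (s48h_GammaH N H) 𝒪) :
    s59t_actH N' aq hN H t y ∈
      (maximalIdeal 𝒪 • ⊤ : Submodule 𝒪 (s48h_Hpar 𝒪 (s48h_GammaH N H) 𝒪)) :=
  s59t_map_pow_smul' (maximalIdeal 𝒪) (s59t_evH H H' y) (s59t_actTot aq hN H H' t) ht

theorem s59t_actTot_H'_mem {t : MvPolynomial (s59w_AIdx N' ⊕ ℕ) 𝒪}
    (ht : s59t_actTot aq hN H H' t ∈
      (maximalIdeal 𝒪 • ⊤ : Submodule 𝒪 (s59t_ETot 𝒪 H H')))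
    (y : s48h_Hpar 𝒪 (s48h_GammaH N' H') 𝒪) :
    s59t_actH N' aq (dvd_refl N') H' t y ∈
      (maximalIdeal 𝒪 • ⊤ : Submodule 𝒪 (s48h_Hpar 𝒪 (s48h_GammaH N' H') 𝒪)) :=
  s59t_map_pow_smul' (maximalIdeal 𝒪) (s59t_evH' H H' y) (s59t_actTot aq hN H H' t) ht

/-- the generator `X_x - c_x` of the evaluation ideal. -/
theorem s59t_jG_X_sub_C (x : ↥good) (n : ℕ) (e₀ : MvPolynomial ↥good 𝒪) :
    s59t_jG 𝒪 good ((MvPolynomial.X x - MvPolynomial.C (c x)) ^ n * e₀) =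
      (MvPolynomial.X (Sum.inl (x : s59w_AIdx N')) - MvPolynomial.C (c x)) ^ n *
        s59t_jG 𝒪 good e₀ := by
  rw [map_mul, map_pow, map_sub, s59t_jG_X]
  congr 3
  exact MvPolynomial.rename_C _ _

/-- the nilpotency of the good generators on the `e₀`-part, at `Γ₀(M)`-level. -/
theorem s59t_nil0_of_e0 (e₀ : MvPolynomial ↥good 𝒪)
    (hnil : ∀ t ∈ s59t_evalIdeal (fun x : ↥good => c x), ∃ n : ℕ,
      s59t_actTot aq hN H H' (s59t_jG 𝒪 good (t ^ n * e₀)) ∈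
        (maximalIdeal 𝒪 • ⊤ : Submodule 𝒪 (s59t_ETot 𝒪 H H')))
    (M : ℕ) (hM : M ∣ N') (x : ↥good) :
    ∃ n : ℕ, ∀ y : s29h_Hpar 𝒪 M 𝒪,
      ((s59t_op0 N' aq M (Sum.inl (x : s59w_AIdx N')) -
        c x • (1 : Module.End 𝒪 (s29h_Hpar 𝒪 M 𝒪))) ^ n)
        (s59t_act0 aq hM (s59t_jG 𝒪 good e₀) y) ∈
        (maximalIdeal 𝒪 • ⊤ : Submodule 𝒪 (s29h_Hpar 𝒪 M 𝒪)) := by
  obtain ⟨n, hn⟩ := hnil _ (s59t_X_sub_C_mem_evalIdeal (fun x : ↥good => c x) x)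
  refine ⟨n, fun y => ?_⟩
  have h1 := s59t_actTot_0_mem aq hN H H' hn M hM y
  rw [s59t_jG_X_sub_C, map_mul, map_pow, map_sub, s59t_act0_X, Module.End.mul_apply] at h1
  have h2 : s59t_act0 aq hM (MvPolynomial.C (c x)) =
      c x • (1 : Module.End 𝒪 (s29h_Hpar 𝒪 M 𝒪)) := s59t_polyAct_C _ _ _
  rw [h2] at h1
  exact h1

set_option maxHeartbeats 3200000 in
/-- **the anemic idempotent, the `a_q`-part projectors and the `Γ₀`-level Taylor–Wiles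
bijection.** -/
theorem s59t_TW_tau (bq : ℕ → 𝒪) (h0 : Gamma0 N' ≤ Gamma0 N)
    (L : List ℕ) (hL : L.Nodup) (hLp : ∀ q ∈ L, q.Prime ∧ ¬ q ∣ N) (hN' : N' = N * L.prod)
    (harith : ∀ q ∈ L, IsUnit (bq q - aq q) ∧ (q : 𝒪) - aq q * bq q ∈ maximalIdeal 𝒪 ∧
      IsUnit (1 - aq q ^ 2) ∧ IsUnit (1 - bq q ^ 2))
    (hocc : ∃ v : s29h_Hpar 𝒪 N 𝒪, v ∉ (maximalIdeal 𝒪 • ⊤ : Submodule 𝒪 (s29h_Hpar 𝒪 N 𝒪)) ∧
      ∀ x ∈ good, s59t_op0 N' aq N (Sum.inl x) v - c x • v ∈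
        (maximalIdeal 𝒪 • ⊤ : Submodule 𝒪 (s29h_Hpar 𝒪 N 𝒪)))
    (hTQ : ∀ (M : ℕ) (hM : M ∣ N'), ∀ q ∈ L, ∀ [Fact q.Prime], ¬ q ∣ M →
      ∀ e₀ : MvPolynomial ↥good 𝒪, 1 - e₀ ∈ s59t_evalIdeal (fun x : ↥good => c x) →
        s59t_act0 aq hM (s59t_jG 𝒪 good e₀) * s59t_act0 aq hM (s59t_jG 𝒪 good e₀) =
          s59t_act0 aq hM (s59t_jG 𝒪 good e₀) →
        (∀ x : ↥good, ∃ n : ℕ, ∀ y : s29h_Hpar 𝒪 M 𝒪,
          ((s59t_op0 N' aq M (Sum.inl (x : s59w_AIdx N')) -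
            c x • (1 : Module.End 𝒪 (s29h_Hpar 𝒪 M 𝒪))) ^ n)
            (s59t_act0 aq hM (s59t_jG 𝒪 good e₀) y) ∈
            (maximalIdeal 𝒪 • ⊤ : Submodule 𝒪 (s29h_Hpar 𝒪 M 𝒪))) →
        ∃ n : ℕ, ∀ y : s29h_Hpar 𝒪 M 𝒪,
          ((s29h_heckeHpar M q 𝒪 𝒪 - (aq q + bq q) • (1 : Module.End 𝒪 (s29h_Hpar 𝒪 M 𝒪))) ^ n)
            (s59t_act0 aq hM (s59t_jG 𝒪 good e₀) y) ∈
            (maximalIdeal 𝒪 • ⊤ : Submodule 𝒪 (s29h_Hpar 𝒪 M 𝒪))) :
    ∃ (e₀ : MvPolynomial ↥good 𝒪) (f : ℕ → MvPolynomial (s59w_AIdx N' ⊕ ℕ) 𝒪),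
      1 - e₀ ∈ s59t_evalIdeal (fun x : ↥good => c x) ∧
      s59t_actTot aq hN H H' (s59t_jG 𝒪 good e₀) * s59t_actTot aq hN H H' (s59t_jG 𝒪 good e₀) =
        s59t_actTot aq hN H H' (s59t_jG 𝒪 good e₀) ∧
      (∀ t ∈ s59t_evalIdeal (fun x : ↥good => c x), ∃ n : ℕ,
        s59t_actTot aq hN H H' (s59t_jG 𝒪 good (t ^ n * e₀)) ∈
          (maximalIdeal 𝒪 • ⊤ : Submodule 𝒪 (s59t_ETot 𝒪 H H'))) ∧
      (∀ t, t ∉ s59t_evalIdeal (fun x : ↥good => c x) → ∃ η : MvPolynomial ↥good 𝒪,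
        s59t_actTot aq hN H H' (s59t_jG 𝒪 good (η * t * e₀)) =
          s59t_actTot aq hN H H' (s59t_jG 𝒪 good e₀)) ∧
      (∀ q, f q ∈ MvPolynomial.supported 𝒪
        (Set.range (Sum.inl : s59w_AIdx N' → s59w_AIdx N' ⊕ ℕ) ∪ {Sum.inr q})) ∧
      (∀ q (M : ℕ) (hM : M ∣ N'), s59t_IsAlpha
        (Z := s59t_part (s59t_act0 aq hM (s59t_jG 𝒪 good e₀)))
        (s59t_partMap (ε := s59t_act0 aq hM (s59t_jG 𝒪 good e₀))
          (ε' := s59t_act0 aq hM (s59t_jG 𝒪 good e₀))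
          (s59t_act0 aq hM (MvPolynomial.X (Sum.inr q)))
          (s59t_alg_comm (s59t_act0 aq hM) (s59t_jG 𝒪 good e₀) (MvPolynomial.X (Sum.inr q))))
        (aq q)
        (s59t_partMap (ε := s59t_act0 aq hM (s59t_jG 𝒪 good e₀))
          (ε' := s59t_act0 aq hM (s59t_jG 𝒪 good e₀))
          (s59t_act0 aq hM (f q)) (s59t_alg_comm (s59t_act0 aq hM) (s59t_jG 𝒪 good e₀) (f q)))) ∧
      (∀ q, s59t_IsAlpha
        (Z := s59t_part (s59t_actH N' aq hN H (s59t_jG 𝒪 good e₀)))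
        (s59t_partMap (ε := s59t_actH N' aq hN H (s59t_jG 𝒪 good e₀))
          (ε' := s59t_actH N' aq hN H (s59t_jG 𝒪 good e₀))
          (s59t_actH N' aq hN H (MvPolynomial.X (Sum.inr q)))
          (s59t_alg_comm (s59t_actH N' aq hN H) (s59t_jG 𝒪 good e₀)
            (MvPolynomial.X (Sum.inr q)))) (aq q)
        (s59t_partMap (ε := s59t_actH N' aq hN H (s59t_jG 𝒪 good e₀))
          (ε' := s59t_actH N' aq hN H (s59t_jG 𝒪 good e₀))
          (s59t_actH N' aq hN H (f q))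
          (s59t_alg_comm (s59t_actH N' aq hN H) (s59t_jG 𝒪 good e₀) (f q)))) ∧
      (∀ q, s59t_IsAlpha
        (Z := s59t_part (s59t_actH N' aq (dvd_refl N') H' (s59t_jG 𝒪 good e₀)))
        (s59t_partMap (ε := s59t_actH N' aq (dvd_refl N') H' (s59t_jG 𝒪 good e₀))
          (ε' := s59t_actH N' aq (dvd_refl N') H' (s59t_jG 𝒪 good e₀))
          (s59t_actH N' aq (dvd_refl N') H' (MvPolynomial.X (Sum.inr q)))
          (s59t_alg_comm (s59t_actH N' aq (dvd_refl N') H') (s59t_jG 𝒪 good e₀)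
            (MvPolynomial.X (Sum.inr q)))) (aq q)
        (s59t_partMap (ε := s59t_actH N' aq (dvd_refl N') H' (s59t_jG 𝒪 good e₀))
          (ε' := s59t_actH N' aq (dvd_refl N') H' (s59t_jG 𝒪 good e₀))
          (s59t_actH N' aq (dvd_refl N') H' (f q))
          (s59t_alg_comm (s59t_actH N' aq (dvd_refl N') H') (s59t_jG 𝒪 good e₀) (f q)))) ∧
      Function.Bijective (s59t_iotaH (s59t_act0 aq hN (s59t_jG 𝒪 good e₀))
        (s59t_act0 aq (dvd_refl N') ((L.map f).prod * s59t_jG 𝒪 good e₀))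
        (s59t_res0Hpar h0 𝒪 𝒪)) := by
  obtain ⟨e₀, h1e, hee, hnil, hunit, hne⟩ := s59t_exists_e0 aq hN H H' good c hocc
  have hsupp₀ := s59t_jG_mem_supported (𝒪 := 𝒪) good e₀ _ (le_refl _)
  choose f hfs hfα hfαH hfαH' using
    fun q => s59t_exists_fq aq hN H H' (s59t_jG 𝒪 good e₀) hsupp₀ hee q
  refine ⟨e₀, f, h1e, hee, hnil, hunit, hfs, hfα, hfαH, hfαH', ?_⟩
  -- idempotency at every `Γ₀`-level
  have hE : ∀ (M : ℕ) (hM : M ∣ N'),
      s59t_act0 aq hM (s59t_jG 𝒪 good e₀) * s59t_act0 aq hM (s59t_jG 𝒪 good e₀) =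
        s59t_act0 aq hM (s59t_jG 𝒪 good e₀) := by
    intro M hM
    have := congrArg (fun x : s59t_ETot 𝒪 H H' =>
      x.1 ⟨M, Nat.mem_divisors.mpr ⟨hM, NeZero.ne N'⟩⟩) hee
    exact this
  -- nontriviality at level `N`
  have hNT : Nontrivial (s59t_part (s59t_act0 aq hN (s59t_jG 𝒪 good e₀))) := by
    have : ∃ y, s59t_act0 aq hN (s59t_jG 𝒪 good e₀) y ≠ 0 := by
      by_contra hcon
      push Not at hcon
      exact hne (LinearMap.ext hcon)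
    obtain ⟨y, hy⟩ := this
    exact ⟨⟨⟨_, ⟨y, rfl⟩⟩, 0, fun h => hy (congrArg Subtype.val h)⟩⟩
  -- (TQ)
  have hTQ' : ∀ (M : ℕ) (hM : M ∣ N'), ∀ q ∈ L, ∀ [Fact q.Prime], ¬ q ∣ M →
      ∃ n : ℕ, ∀ y : s29h_Hpar 𝒪 M 𝒪,
        ((s29h_heckeHpar M q 𝒪 𝒪 - (aq q + bq q) • (1 : Module.End 𝒪 (s29h_Hpar 𝒪 M 𝒪))) ^ n)
          (s59t_act0 aq hM (s59t_jG 𝒪 good e₀) y) ∈
          (maximalIdeal 𝒪 • ⊤ : Submodule 𝒪 (s29h_Hpar 𝒪 M 𝒪)) := by
    intro M hM q hq _ hqM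
    exact hTQ M hM q hq hqM e₀ h1e (hE M hM)
      (fun x => s59t_nil0_of_e0 aq hN H H' good c e₀ hnil M hM x)
  -- the chain
  have hjG := s59t_jG_eq (𝒪 := 𝒪) good e₀
  rw [hjG] at hE hNT hTQ' hfα ⊢
  exact s59t_chain aq bq (MvPolynomial.rename Subtype.val e₀) f hE L
    (fun M hM q _ => hfα q M hM) (fun q _ => hfs q) harith hTQ' N hN hNT hL hLp N' hN'
    (dvd_refl N') h0

end Data

end Fermat.Agent.Lib.S59
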