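/-
Programme (R) = S59, node (B2) concrete module half (helper8), file 64: **the concrete
Taylor–Wiles control theorem, assembled**: `s59t_TW_tau` (anemic idempotent `e₀`, projectors `f_q`,
`Γ₀`-level bijection) fed into `s59t_control_top_inv`.

Output (`s59t_TW_control`): polynomials `e` (anemic) and `e' = (∏_{q ∈ L} f_q) e`, such that with
`ε = act_{(N,H)} e`, `ε' = act_{(N',H')} e'`:
* `ε`, `ε'` are idempotents, the good generators are `≡ c` on the `ε`- and `ε'`-parts, `U_q ≡ a_q` on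
  the `ε'`-part;
* `ε' H_par(Γ_{H'}(N'))` and `ε H_par(Γ_H(N))` are free of the same rank `d` over the group algebras
  of the diamond groups, `ι = ε' ∘ res` is injective with image the `B`-invariants, the control map
  `π` is onto with kernel the augmentation submodule, `ι ∘ π = N_B`;
* `ι` and `π` are equivariant for the anemic polynomials.
-/
import Mathlib
import Fermat.Agent.Lib.S59.TLvlQ

set_option autoImplicit false
set_option linter.unusedSectionVars false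
set_option linter.style.haveILetI false
set_option synthInstance.maxHeartbeats 400000

noncomputable section

namespace Fermat.Agent.Lib.S59

open Matrix MatrixGroups CongruenceSubgroup IsLocalRing
open Fermat.Agent.Lib.S29 Fermat.Agent.Lib.S48 Fermat.Agent.Lib.S41

section Self

variable {N' : ℕ}

theorem s59t_AIdx_down_self (x : s59w_AIdx N') : s59t_AIdx_down (dvd_refl N') x = x := by
  rcases x with i | τ <;> rfl

end Self

section Nil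

variable {𝒪 : Type} [CommRing 𝒪] [IsDomain 𝒪] [IsDiscreteValuationRing 𝒪]
  [IsAdicComplete (maximalIdeal 𝒪) 𝒪]
  {N N' : ℕ} [NeZero N] [NeZero N'] (aq : ℕ → 𝒪) (hN : N ∣ N')
  (H : Subgroup (ZMod N)ˣ) (H' : Subgroup (ZMod N')ˣ)
  (good : Set (s59w_AIdx N')) (c : s59w_AIdx N' → 𝒪)

/-- the nilpotency of the good generators on the `e₀`-part, at `Γ_H(N)`-level. -/
theorem s59t_nilH_of_e0 (e₀ : MvPolynomial ↥good 𝒪)
    (hnil : ∀ t ∈ s59t_evalIdeal (fun x : ↥good => c x), ∃ n : ℕ,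
      s59t_actTot aq hN H H' (s59t_jG 𝒪 good (t ^ n * e₀)) ∈
        (maximalIdeal 𝒪 • ⊤ : Submodule 𝒪 (s59t_ETot 𝒪 H H')))
    (x : ↥good) :
    ∃ n : ℕ, ∀ y : s48h_Hpar 𝒪 (s48h_GammaH N H) 𝒪,
      ((s59t_opH N' aq hN H (Sum.inl (x : s59w_AIdx N')) -
        c x • (1 : Module.End 𝒪 (s48h_Hpar 𝒪 (s48h_GammaH N H) 𝒪))) ^ n)
        (s59t_actH N' aq hN H (s59t_jG 𝒪 good e₀) y) ∈
        (maximalIdeal 𝒪 • ⊤ : Submodule 𝒪 (s48h_Hpar 𝒪 (s48h_GammaH N H) 𝒪)) := by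
  obtain ⟨n, hn⟩ := hnil _ (s59t_X_sub_C_mem_evalIdeal (fun x : ↥good => c x) x)
  refine ⟨n, fun y => ?_⟩
  have h1 := s59t_actTot_H_mem aq hN H H' hn y
  rw [s59t_jG_X_sub_C, map_mul, map_pow, map_sub, s59t_actH_X, Module.End.mul_apply] at h1
  have h2 : s59t_actH N' aq hN H (MvPolynomial.C (c x)) =
      c x • (1 : Module.End 𝒪 (s48h_Hpar 𝒪 (s48h_GammaH N H) 𝒪)) := s59t_polyAct_C _ _ _
  rw [h2] at h1
  exact h1

/-- the nilpotency of the good generators on the `e₀`-part, at `Γ_{H'}(N')`-level. -/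
theorem s59t_nilH'_of_e0 (e₀ : MvPolynomial ↥good 𝒪)
    (hnil : ∀ t ∈ s59t_evalIdeal (fun x : ↥good => c x), ∃ n : ℕ,
      s59t_actTot aq hN H H' (s59t_jG 𝒪 good (t ^ n * e₀)) ∈
        (maximalIdeal 𝒪 • ⊤ : Submodule 𝒪 (s59t_ETot 𝒪 H H')))
    (x : ↥good) :
    ∃ n : ℕ, ∀ y : s48h_Hpar 𝒪 (s48h_GammaH N' H') 𝒪,
      ((s59w_op H' 𝒪 (x : s59w_AIdx N') -
        c x • (1 : Module.End 𝒪 (s48h_Hpar 𝒪 (s48h_GammaH N' H') 𝒪))) ^ n)
        (s59t_actH N' aq (dvd_refl N') H' (s59t_jG 𝒪 good e₀) y) ∈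
        (maximalIdeal 𝒪 • ⊤ : Submodule 𝒪 (s48h_Hpar 𝒪 (s48h_GammaH N' H') 𝒪)) := by
  obtain ⟨n, hn⟩ := hnil _ (s59t_X_sub_C_mem_evalIdeal (fun x : ↥good => c x) x)
  refine ⟨n, fun y => ?_⟩
  have h1 := s59t_actTot_H'_mem aq hN H H' hn y
  rw [s59t_jG_X_sub_C, map_mul, map_pow, map_sub, s59t_actH_X, Module.End.mul_apply,
    s59t_opH_inl, s59t_AIdx_down_self] at h1
  have h2 : s59t_actH N' aq (dvd_refl N') H' (MvPolynomial.C (c x)) =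
      c x • (1 : Module.End 𝒪 (s48h_Hpar 𝒪 (s48h_GammaH N' H') 𝒪)) := s59t_polyAct_C _ _ _
  rw [h2] at h1
  exact h1

end Nil

section Control

variable {𝒪 : Type} [CommRing 𝒪] [IsDomain 𝒪] [IsDiscreteValuationRing 𝒪]
  [IsAdicComplete (maximalIdeal 𝒪) 𝒪] [Finite (ResidueField 𝒪)]
  {N N' : ℕ} [NeZero N] [NeZero N'] {H : Subgroup (ZMod N)ˣ} {H' : Subgroup (ZMod N')ˣ}
  (h0 : Gamma0 N' ≤ Gamma0 N) (hle : s48h_GammaH N' H' ≤ s48h_GammaH N H)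
  (hPF : s59t_PF N H) (hPF' : s59t_PF N' H')

/-- **the conclusion of the concrete Taylor–Wiles control theorem.** -/
def s59t_TWConcl (B : Subgroup (s59t_Delta N' H')) [Fintype B] (hN : N ∣ N') (aq : ℕ → 𝒪)
    (good : Set (s59w_AIdx N')) (c : s59w_AIdx N' → 𝒪) : Prop :=
    ∃ (e e' : MvPolynomial (s59w_AIdx N' ⊕ ℕ) 𝒪),
      (∃ e₀ : MvPolynomial ↥good 𝒪, 1 - e₀ ∈ s59t_evalIdeal (fun x : ↥good => c x) ∧
        e = s59t_jG 𝒪 good e₀ ∧ (∃ G : MvPolynomial (s59w_AIdx N' ⊕ ℕ) 𝒪, e' = G * e) ∧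
        (∀ t : MvPolynomial ↥good 𝒪, t ∉ s59t_evalIdeal (fun x : ↥good => c x) →
          ∃ η : MvPolynomial ↥good 𝒪,
            s59t_actH N' aq hN H (s59t_jG 𝒪 good (η * t * e₀)) =
              s59t_actH N' aq hN H (s59t_jG 𝒪 good e₀) ∧
            s59t_actH N' aq (dvd_refl N') H' (s59t_jG 𝒪 good (η * t * e₀)) =
              s59t_actH N' aq (dvd_refl N') H' (s59t_jG 𝒪 good e₀))) ∧
      s59t_actH N' aq hN H e * s59t_actH N' aq hN H e = s59t_actH N' aq hN H e ∧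
      s59t_actH N' aq (dvd_refl N') H' e' * s59t_actH N' aq (dvd_refl N') H' e' =
        s59t_actH N' aq (dvd_refl N') H' e' ∧
      (∀ x ∈ good, ∃ n : ℕ, ∀ y : s48h_Hpar 𝒪 (s48h_GammaH N H) 𝒪,
        ((s59t_opH N' aq hN H (Sum.inl x) -
          c x • (1 : Module.End 𝒪 (s48h_Hpar 𝒪 (s48h_GammaH N H) 𝒪))) ^ n)
          (s59t_actH N' aq hN H e y) ∈
          (maximalIdeal 𝒪 • ⊤ : Submodule 𝒪 (s48h_Hpar 𝒪 (s48h_GammaH N H) 𝒪))) ∧
      (∀ x ∈ good, ∃ n : ℕ, ∀ y : s48h_Hpar 𝒪 (s48h_GammaH N' H') 𝒪,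
        ((s59w_op H' 𝒪 x -
          c x • (1 : Module.End 𝒪 (s48h_Hpar 𝒪 (s48h_GammaH N' H') 𝒪))) ^ n)
          (s59t_actH N' aq (dvd_refl N') H' e' y) ∈
          (maximalIdeal 𝒪 • ⊤ : Submodule 𝒪 (s48h_Hpar 𝒪 (s48h_GammaH N' H') 𝒪))) ∧
      ∃ (d : ℕ) (b : Fin d → s59t_part (s59t_actH N' aq hN H e))
        (b' : Fin d → s59t_part (s59t_actH N' aq (dvd_refl N') H' e'))
        (π : s59t_part (s59t_actH N' aq (dvd_refl N') H' e') →ₗ[𝒪]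
          s59t_part (s59t_actH N' aq hN H e)),
        Function.Bijective (s59t_evalMap (s59t_partRep (s59t_rho N H 𝒪 𝒪)
          (fun δ y => s59t_actH_rho aq hN H e δ y)) b) ∧
        Function.Bijective (s59t_evalMap (s59t_partRep (s59t_rho N' H' 𝒪 𝒪)
          (fun δ y => s59t_actH_rho aq (dvd_refl N') H' e' δ y)) b') ∧
        Function.Injective (s59t_iotaH (s59t_actH N' aq hN H e)
          (s59t_actH N' aq (dvd_refl N') H' e') (s59t_resGHpar hle 𝒪 𝒪)) ∧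
        (∀ y : s59t_part (s59t_actH N' aq (dvd_refl N') H' e'),
          (∀ β ∈ B, s59t_partRep (s59t_rho N' H' 𝒪 𝒪)
            (fun δ y => s59t_actH_rho aq (dvd_refl N') H' e' δ y) β y = y) →
            ∃ x, s59t_iotaH (s59t_actH N' aq hN H e)
              (s59t_actH N' aq (dvd_refl N') H' e') (s59t_resGHpar hle 𝒪 𝒪) x = y) ∧
        (∀ y, s59t_iotaH (s59t_actH N' aq hN H e)
            (s59t_actH N' aq (dvd_refl N') H' e') (s59t_resGHpar hle 𝒪 𝒪) (π y) =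
          s59t_normPsi (s59t_partRep (s59t_rho N' H' 𝒪 𝒪)
            (fun δ y => s59t_actH_rho aq (dvd_refl N') H' e' δ y)) B 1 y) ∧
        Function.Surjective π ∧
        LinearMap.ker π = Submodule.span 𝒪
          {z : s59t_part (s59t_actH N' aq (dvd_refl N') H' e') |
            ∃ β ∈ B, ∃ y, z = s59t_partRep (s59t_rho N' H' 𝒪 𝒪)
              (fun δ y => s59t_actH_rho aq (dvd_refl N') H' e' δ y) β y - y}

include hPF hPF' in
set_option maxHeartbeats 6400000 in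
/-- **the concrete Taylor–Wiles control theorem.** -/
theorem s59t_TW_control (p : ℕ) [Fact p.Prime] [CharP (ResidueField 𝒪) p] (hp2 : p ≠ 2)
    (hneg : (-1 : SL(2, ℤ)) ∈ s48h_GammaH N H) (hneg' : (-1 : SL(2, ℤ)) ∈ s48h_GammaH N' H')
    (hΔ : IsPGroup p (s59t_Delta N H)) (hΔ' : IsPGroup p (s59t_Delta N' H'))
    (B C : Subgroup (s59t_Delta N' H')) [Fintype B] [Fintype C]
    (hBC : Function.Bijective (fun x : B × C => ((x.1 : s59t_Delta N' H') * (x.2 : _))))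
    (hφB : ∀ β ∈ B, s59t_DeltaMap2 h0 hle β = 1)
    (hφC : Function.Bijective (fun γ : C => s59t_DeltaMap2 h0 hle (γ : s59t_Delta N' H')))
    -- the Taylor–Wiles primes
    (hN : N ∣ N') (L : List ℕ) (hL : L.Nodup) (hLp : ∀ q ∈ L, q.Prime ∧ ¬ q ∣ N)
    (hN' : N' = N * L.prod) (aq bq : ℕ → 𝒪)
    (harith : ∀ q ∈ L, IsUnit (bq q - aq q) ∧ (q : 𝒪) - aq q * bq q ∈ maximalIdeal 𝒪 ∧
      IsUnit (1 - aq q ^ 2) ∧ IsUnit (1 - bq q ^ 2))
    -- the eigen-system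
    (good : Set (s59w_AIdx N')) (c : s59w_AIdx N' → 𝒪)
    (i₀ : s59w_TIdx N') (hi₀ : Sum.inl i₀ ∈ good)
    (hnE : IsUnit (c (Sum.inl i₀) ^ 2 - ((i₀.ell : 𝒪) + 1) ^ 2))
    (hocc : ∃ v : s29h_Hpar 𝒪 N 𝒪, v ∉ (maximalIdeal 𝒪 • ⊤ : Submodule 𝒪 (s29h_Hpar 𝒪 N 𝒪)) ∧
      ∀ x ∈ good, s59t_op0 N' aq N (Sum.inl x) v - c x • v ∈
        (maximalIdeal 𝒪 • ⊤ : Submodule 𝒪 (s29h_Hpar 𝒪 N 𝒪)))
    (hTQ : ∀ (M : ℕ) (hM : M ∣ N'), ∀ q ∈ L, ∀ [Fact q.Prime], ¬ q ∣ M →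
      ∀ e₀ : MvPolynomial ↥good 𝒪, 1 - e₀ ∈ s59t_evalIdeal (fun x : ↥good => c x) →
        s59t_act0 aq hM (s59t_jG 𝒪 good e₀) * s59t_act0 aq hM (s59t_jG 𝒪 good e₀) =
          s59t_act0 aq hM (s59t_jG 𝒪 good e₀) →
        (∀ x : ↥good, ∃ n : ℕ, ∀ y : s29h_Hpar 𝒪 M 𝒪,
          ((s59t_op0 N' aq M (Sum.inl (x : s59w_AIdx N')) -
            c x • (1 : Module.End 𝒪 (s29h_Hpar 𝒪 M 𝒪))) ^ n)
            (s59t_act0 aq hM (s59t_jG 𝒪 good e₀) y) ∈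
            (maximalIdeal 𝒪 • ⊤ : Submodule 𝒪 (s29h_Hpar 𝒪 M 𝒪))) →
        ∃ n : ℕ, ∀ y : s29h_Hpar 𝒪 M 𝒪,
          ((s29h_heckeHpar M q 𝒪 𝒪 - (aq q + bq q) • (1 : Module.End 𝒪 (s29h_Hpar 𝒪 M 𝒪))) ^ n)
            (s59t_act0 aq hM (s59t_jG 𝒪 good e₀) y) ∈
            (maximalIdeal 𝒪 • ⊤ : Submodule 𝒪 (s29h_Hpar 𝒪 M 𝒪))) :
    s59t_TWConcl hle B hN aq good c := by
  classical
  obtain ⟨e₀, f, h1e, hee, hnil, hunit, hfs, hfα, hfαH, hfαH', hτ⟩ :=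
    s59t_TW_tau aq hN H H' good c bq h0 L hL hLp hN' harith hocc hTQ
  haveI : Fact i₀.ell.Prime := ⟨i₀.prime⟩
  -- notation
  obtain ⟨E₀, hE₀⟩ : ∃ E₀ : MvPolynomial (s59w_AIdx N' ⊕ ℕ) 𝒪, E₀ = s59t_jG 𝒪 good e₀ := ⟨_, rfl⟩
  obtain ⟨G, hG⟩ : ∃ G : MvPolynomial (s59w_AIdx N' ⊕ ℕ) 𝒪, G = (L.map f).prod := ⟨_, rfl⟩
  rw [← hE₀] at hee hfα hfαH hfαH' hτ
  rw [← hG] at hτ
  -- idempotency of the components
  have heH : s59t_actH N' aq hN H E₀ * s59t_actH N' aq hN H E₀ = s59t_actH N' aq hN H E₀ :=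
    congrArg (fun x : s59t_ETot 𝒪 H H' => x.2.1) hee
  have heH' : s59t_actH N' aq (dvd_refl N') H' E₀ * s59t_actH N' aq (dvd_refl N') H' E₀ =
      s59t_actH N' aq (dvd_refl N') H' E₀ :=
    congrArg (fun x : s59t_ETot 𝒪 H H' => x.2.2) hee
  have he0 : ∀ (M : ℕ) (hM : M ∣ N'),
      s59t_act0 aq hM E₀ * s59t_act0 aq hM E₀ = s59t_act0 aq hM E₀ := fun M hM =>
    congrArg (fun x : s59t_ETot 𝒪 H H' =>
      x.1 ⟨M, Nat.mem_divisors.mpr ⟨hM, NeZero.ne N'⟩⟩) hee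
  have hGH' : s59t_actH N' aq (dvd_refl N') H' (G * E₀) *
      s59t_actH N' aq (dvd_refl N') H' (G * E₀) = s59t_actH N' aq (dvd_refl N') H' (G * E₀) := by
    rw [hG]
    refine s59t_idem_list (s59t_actH N' aq (dvd_refl N') H') f heH' L (fun q _ => ?_)
    have := (hfαH' q).idem_mul heH' _ _
    rw [← map_mul] at this
    exact this
  have hG0 : s59t_act0 aq (dvd_refl N') (G * E₀) * s59t_act0 aq (dvd_refl N') (G * E₀) =
      s59t_act0 aq (dvd_refl N') (G * E₀) := by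
    rw [hG]
    refine s59t_idem_list (s59t_act0 aq (dvd_refl N')) f (he0 N' (dvd_refl N')) L (fun q _ => ?_)
    have := (hfα q N' (dvd_refl N')).idem_mul (he0 N' (dvd_refl N')) _ _
    rw [← map_mul] at this
    exact this
  -- the non-Eisenstein element
  obtain ⟨t₀, ht₀⟩ : ∃ t₀ : MvPolynomial ↥good 𝒪, t₀ =
      MvPolynomial.X (⟨Sum.inl i₀, hi₀⟩ : ↥good) ^ 2 -
        ((i₀.ell : MvPolynomial ↥good 𝒪) + 1) ^ 2 := ⟨_, rfl⟩
  have ht₀n : t₀ ∉ s59t_evalIdeal (fun x : ↥good => c x) := by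
    rw [s59t_not_mem_evalIdeal, ht₀]
    simp only [map_sub, map_pow, MvPolynomial.eval_X, map_add, map_natCast, map_one]
    exact hnE
  obtain ⟨η₀, hη₀⟩ := hunit t₀ ht₀n
  obtain ⟨tℓ, htℓdef⟩ : ∃ tℓ : MvPolynomial (s59w_AIdx N' ⊕ ℕ) 𝒪,
      tℓ = MvPolynomial.X (Sum.inl (Sum.inl i₀)) := ⟨_, rfl⟩
  have hjt : s59t_jG 𝒪 good (η₀ * t₀ * e₀) =
      s59t_jG 𝒪 good η₀ * (tℓ ^ 2 - ((i₀.ell : MvPolynomial (s59w_AIdx N' ⊕ ℕ) 𝒪) + 1) ^ 2) *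
        E₀ := by
    rw [map_mul, map_mul, ht₀, map_sub, map_pow, map_pow, s59t_jG_X, map_add, map_natCast,
      map_one, hE₀, htℓdef]
  rw [hjt, ← hE₀] at hη₀
  obtain ⟨η, hηdef⟩ : ∃ η : MvPolynomial (s59w_AIdx N' ⊕ ℕ) 𝒪, η = s59t_jG 𝒪 good η₀ := ⟨_, rfl⟩
  rw [← hηdef] at hη₀
  have hηH : s59t_actH N' aq hN H
      (η * (tℓ ^ 2 - ((i₀.ell : MvPolynomial (s59w_AIdx N' ⊕ ℕ) 𝒪) + 1) ^ 2) * E₀) =
      s59t_actH N' aq hN H E₀ := congrArg (fun x : s59t_ETot 𝒪 H H' => x.2.1) hη₀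
  have hηH' : s59t_actH N' aq (dvd_refl N') H'
      (η * (tℓ ^ 2 - ((i₀.ell : MvPolynomial (s59w_AIdx N' ⊕ ℕ) 𝒪) + 1) ^ 2) * E₀) =
      s59t_actH N' aq (dvd_refl N') H' E₀ := congrArg (fun x : s59t_ETot 𝒪 H H' => x.2.2) hη₀
  have hη0 : ∀ (M : ℕ) (hM : M ∣ N'), s59t_act0 aq hM
      (η * (tℓ ^ 2 - ((i₀.ell : MvPolynomial (s59w_AIdx N' ⊕ ℕ) 𝒪) + 1) ^ 2) * E₀) =
      s59t_act0 aq hM E₀ := fun M hM =>
    congrArg (fun x : s59t_ETot 𝒪 H H' =>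
      x.1 ⟨M, Nat.mem_divisors.mpr ⟨hM, NeZero.ne N'⟩⟩) hη₀
  have hpoly : η * (tℓ ^ 2 - ((i₀.ell : MvPolynomial (s59w_AIdx N' ⊕ ℕ) 𝒪) + 1) ^ 2) * (G * E₀) =
      G * (η * (tℓ ^ 2 - ((i₀.ell : MvPolynomial (s59w_AIdx N' ⊕ ℕ) 𝒪) + 1) ^ 2) * E₀) := by
    ring
  have hηGH' : s59t_actH N' aq (dvd_refl N') H'
      (η * (tℓ ^ 2 - ((i₀.ell : MvPolynomial (s59w_AIdx N' ⊕ ℕ) 𝒪) + 1) ^ 2) * (G * E₀)) =
      s59t_actH N' aq (dvd_refl N') H' (G * E₀) := by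
    rw [hpoly, map_mul, hηH', ← map_mul]
  have hηG0 : s59t_act0 aq (dvd_refl N')
      (η * (tℓ ^ 2 - ((i₀.ell : MvPolynomial (s59w_AIdx N' ⊕ ℕ) 𝒪) + 1) ^ 2) * (G * E₀)) =
      s59t_act0 aq (dvd_refl N') (G * E₀) := by
    rw [hpoly, map_mul, hη0 N' (dvd_refl N'), ← map_mul]
  -- the control theorem
  have key := s59t_control_top_inv h0 hle hPF hPF' p hp2 hneg hneg' hΔ hΔ' B C hBC hφB hφC
    i₀.ell (s59t_TIdx_down hN i₀).ndvd (s59t_TIdx_down hN i₀).mem (s59t_TIdx_down hN i₀).lr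
    (s59t_actH N' aq hN H : MvPolynomial (s59w_AIdx N' ⊕ ℕ) 𝒪 →+* _)
    (s59t_act0 aq hN : MvPolynomial (s59w_AIdx N' ⊕ ℕ) 𝒪 →+* _)
    (fun t y => s59t_actH_res aq hN H t y) (fun t x => s59t_actH_cor aq hN H hPF t x)
    (fun t δ x => s59t_actH_rho aq hN H t δ x)
    tℓ (by rw [htℓdef]; exact s59t_actH_X N' aq hN H _)
    (by rw [htℓdef]; exact s59t_act0_X aq hN _)
    E₀ η heH (he0 N hN) hηH (hη0 N hN)
    i₀.ell (s59t_TIdx_down (dvd_refl N') i₀).ndvd (s59t_TIdx_down (dvd_refl N') i₀).mem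
    (s59t_TIdx_down (dvd_refl N') i₀).lr
    (s59t_actH N' aq (dvd_refl N') H' : MvPolynomial (s59w_AIdx N' ⊕ ℕ) 𝒪 →+* _)
    (s59t_act0 aq (dvd_refl N') : MvPolynomial (s59w_AIdx N' ⊕ ℕ) 𝒪 →+* _)
    (fun t y => s59t_actH_res aq (dvd_refl N') H' t y)
    (fun t x => s59t_actH_cor aq (dvd_refl N') H' hPF' t x)
    (fun t δ x => s59t_actH_rho aq (dvd_refl N') H' t δ x)
    tℓ (by rw [htℓdef]; exact s59t_actH_X N' aq (dvd_refl N') H' _)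
    (by rw [htℓdef]; exact s59t_act0_X aq (dvd_refl N') _)
    (G * E₀) η hGH' hG0 hηGH' hηG0 hτ
  obtain ⟨d, b, b', π, hb, hb', hinj, hinv, hπ1, hπ2, hπ3⟩ := key
  refine ⟨E₀, G * E₀, ⟨e₀, h1e, hE₀, ⟨G, rfl⟩, fun t ht => ?_⟩, heH, hGH', ?_, ?_, d, b, b', π, hb,
    hb', hinj, hinv, hπ1, hπ2, hπ3⟩
  · obtain ⟨η', hη'⟩ := hunit t ht
    exact ⟨η', congrArg (fun x : s59t_ETot 𝒪 H H' => x.2.1) hη',
      congrArg (fun x : s59t_ETot 𝒪 H H' => x.2.2) hη'⟩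
  · intro x hx
    rw [hE₀]
    exact s59t_nilH_of_e0 aq hN H H' good c e₀ hnil ⟨x, hx⟩
  · intro x hx
    obtain ⟨n, hn⟩ := s59t_nilH'_of_e0 aq hN H H' good c e₀ hnil ⟨x, hx⟩
    refine ⟨n, fun y => ?_⟩
    have h1 := hn (s59t_actH N' aq (dvd_refl N') H' G y)
    rw [← hE₀] at h1
    have h2 : s59t_actH N' aq (dvd_refl N') H' (G * E₀) y =
        s59t_actH N' aq (dvd_refl N') H' E₀ (s59t_actH N' aq (dvd_refl N') H' G y) := by
      rw [mul_comm, map_mul, Module.End.mul_apply]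
    rw [h2]
    exact h1

end Control

/-! ### Hecke equivariance of `ι` and `π` -/

section NormComm

variable {𝒪 : Type*} [CommRing 𝒪] {Δ : Type*} [CommGroup Δ] [Fintype Δ]
  {M : Type*} [AddCommGroup M] [Module 𝒪 M]

/-- an endomorphism commuting with the representation commutes with the twisted norm. -/
theorem s59t_normPsi_commute (ρ : Δ →* Module.End 𝒪 M) (B : Subgroup Δ) [Fintype B]
    (ψ : Δ →* 𝒪ˣ) (F : Module.End 𝒪 M) (hF : ∀ β x, F (ρ β x) = ρ β (F x)) (x : M) :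
    s59t_normPsi ρ B ψ (F x) = F (s59t_normPsi ρ B ψ x) := by
  rw [s59t_normPsi_apply, s59t_normPsi_apply, map_sum]
  refine Finset.sum_congr rfl fun β _ => ?_
  rw [map_smul, hF]

end NormComm

section Equivariance

variable {𝒪 : Type} [CommRing 𝒪] [IsLocalRing 𝒪] [IsNoetherianRing 𝒪]
  [IsAdicComplete (maximalIdeal 𝒪) 𝒪]
  {N N' : ℕ} [NeZero N] [NeZero N'] (aq : ℕ → 𝒪) (hN : N ∣ N')
  {H : Subgroup (ZMod N)ˣ} {H' : Subgroup (ZMod N')ˣ}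
  (hle : s48h_GammaH N' H' ≤ s48h_GammaH N H)
  (e e' : MvPolynomial (s59w_AIdx N' ⊕ ℕ) 𝒪)

include hN in
/-- **`ι = ε' ∘ res` intertwines the polynomials supported on good indices** (all the anemic ones,
and the `U_q` with `q ∣ N` or `q ∤ N'`). -/
theorem s59t_iota_equivariant (S : Set (s59w_AIdx N' ⊕ ℕ))
    (hS : ∀ j ∈ S, ∀ q' : ℕ, j = Sum.inr q' → q'.Prime → q' ∣ N' → q' ∣ N)
    {t : MvPolynomial (s59w_AIdx N' ⊕ ℕ) 𝒪} (ht : t ∈ MvPolynomial.supported 𝒪 S)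
    (y : s59t_part (s59t_actH N' aq hN H e)) :
    s59t_iotaH (s59t_actH N' aq hN H e) (s59t_actH N' aq (dvd_refl N') H' e')
      (s59t_resGHpar hle 𝒪 𝒪)
      (s59t_partMap (ε := s59t_actH N' aq hN H e) (ε' := s59t_actH N' aq hN H e)
        (s59t_actH N' aq hN H t) (s59t_alg_comm (s59t_actH N' aq hN H) e t) y) =
    s59t_partMap (ε := s59t_actH N' aq (dvd_refl N') H' e')
      (ε' := s59t_actH N' aq (dvd_refl N') H' e')
      (s59t_actH N' aq (dvd_refl N') H' t)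
      (s59t_alg_comm (s59t_actH N' aq (dvd_refl N') H') e' t)
      (s59t_iotaH (s59t_actH N' aq hN H e) (s59t_actH N' aq (dvd_refl N') H' e')
        (s59t_resGHpar hle 𝒪 𝒪) y) := by
  apply Subtype.ext
  show s59t_actH N' aq (dvd_refl N') H' e' (s59t_resGHpar hle 𝒪 𝒪
      (s59t_actH N' aq hN H t (y : s48h_Hpar 𝒪 (s48h_GammaH N H) 𝒪))) =
    s59t_actH N' aq (dvd_refl N') H' t (s59t_actH N' aq (dvd_refl N') H' e'
      (s59t_resGHpar hle 𝒪 𝒪 (y : s48h_Hpar 𝒪 (s48h_GammaH N H) 𝒪)))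
  rw [s59t_actH_resG aq hN (dvd_refl N') H H' hle hN S hS ht,
    s59t_alg_comm (s59t_actH N' aq (dvd_refl N') H') e' t]

include hN in
/-- **the control map `π` intertwines the polynomials supported on good indices.** -/
theorem s59t_pi_equivariant (B : Subgroup (s59t_Delta N' H')) [Fintype B]
    (π : s59t_part (s59t_actH N' aq (dvd_refl N') H' e') →ₗ[𝒪]
      s59t_part (s59t_actH N' aq hN H e))
    (hinj : Function.Injective (s59t_iotaH (s59t_actH N' aq hN H e)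
      (s59t_actH N' aq (dvd_refl N') H' e') (s59t_resGHpar hle 𝒪 𝒪)))
    (hπ : ∀ y, s59t_iotaH (s59t_actH N' aq hN H e)
        (s59t_actH N' aq (dvd_refl N') H' e') (s59t_resGHpar hle 𝒪 𝒪) (π y) =
      s59t_normPsi (s59t_partRep (s59t_rho N' H' 𝒪 𝒪)
        (fun δ y => s59t_actH_rho aq (dvd_refl N') H' e' δ y)) B 1 y)
    (S : Set (s59w_AIdx N' ⊕ ℕ))
    (hS : ∀ j ∈ S, ∀ q' : ℕ, j = Sum.inr q' → q'.Prime → q' ∣ N' → q' ∣ N)
    {t : MvPolynomial (s59w_AIdx N' ⊕ ℕ) 𝒪} (ht : t ∈ MvPolynomial.supported 𝒪 S)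
    (y : s59t_part (s59t_actH N' aq (dvd_refl N') H' e')) :
    π (s59t_partMap (ε := s59t_actH N' aq (dvd_refl N') H' e')
      (ε' := s59t_actH N' aq (dvd_refl N') H' e')
      (s59t_actH N' aq (dvd_refl N') H' t)
      (s59t_alg_comm (s59t_actH N' aq (dvd_refl N') H') e' t) y) =
    s59t_partMap (ε := s59t_actH N' aq hN H e) (ε' := s59t_actH N' aq hN H e)
      (s59t_actH N' aq hN H t) (s59t_alg_comm (s59t_actH N' aq hN H) e t) (π y) := by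
  apply hinj
  have h1 := hπ (s59t_partMap (ε := s59t_actH N' aq (dvd_refl N') H' e')
      (ε' := s59t_actH N' aq (dvd_refl N') H' e')
      (s59t_actH N' aq (dvd_refl N') H' t)
      (s59t_alg_comm (s59t_actH N' aq (dvd_refl N') H') e' t) y)
  have h2 := s59t_iota_equivariant aq hN hle e e' S hS ht (π y)
  have h3 := hπ y
  refine h1.trans (Eq.trans ?_ ((congrArg (s59t_partMap
      (ε := s59t_actH N' aq (dvd_refl N') H' e') (ε' := s59t_actH N' aq (dvd_refl N') H' e')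
      (s59t_actH N' aq (dvd_refl N') H' t)
      (s59t_alg_comm (s59t_actH N' aq (dvd_refl N') H') e' t)) h3).symm.trans h2.symm))
  refine s59t_normPsi_commute _ B 1 _ (fun β x => ?_) y
  apply Subtype.ext
  exact s59t_actH_rho aq (dvd_refl N') H' t β (x : s48h_Hpar 𝒪 (s48h_GammaH N' H') 𝒪)

end Equivariance

end Fermat.Agent.Lib.S59
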