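/-
Programme (R) = S59, node (E) module half (helper8), file 69: **the Taylor–Wiles control theorem
for ABSTRACT idempotents** — the form in which the base idempotent can be replaced by the fixed one
(`s59t_actH_indep`).

* `s59t_TWFull h0 hle B C ε ε'` : everything the final assembly needs about the pair of parts
  `Y = ε H_par(Γ_H(N))`, `Y' = ε' H_par(Γ_{H'}(N'))`: bases over `𝒪[Δ]`, `𝒪[Δ']`, `ι = ε' ∘ res`
  injective with image the `B`-invariants, the control map `π` (`ι ∘ π = N_B`, surjective, kernel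
  `= I_B Y'`), `π` equivariant for the diamonds, and the control statements `h2, h3, h4` of
  `s59t_levelEig` for the trivial type and for every character `χ` of `Δ`;
* `s59t_TWFull_of_concl` : `s59t_TWConcl ⇒ s59t_TWFull` for the polynomial idempotents;
* `s59t_TWFull.congr_base` : replace `ε` by an equal idempotent.
-/
import Mathlib
import Fermat.Agent.Lib.S59.TLvlQ2
import Fermat.Agent.Lib.S59.TLvlAbs

set_option autoImplicit false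
set_option linter.unusedSectionVars false
set_option linter.style.haveILetI false
set_option linter.unusedVariables false

noncomputable section

namespace Fermat.Agent.Lib.S59

open Matrix MatrixGroups CongruenceSubgroup IsLocalRing
open Fermat.Agent.Lib.S29 Fermat.Agent.Lib.S48 Fermat.Agent.Lib.S41

section Full

variable {𝒪 : Type} [CommRing 𝒪] [IsDomain 𝒪] [IsDiscreteValuationRing 𝒪]
  [IsAdicComplete (maximalIdeal 𝒪) 𝒪] [Finite (ResidueField 𝒪)]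
  {N N' : ℕ} [NeZero N] [NeZero N'] {H : Subgroup (ZMod N)ˣ} {H' : Subgroup (ZMod N')ˣ}
  (h0 : Gamma0 N' ≤ Gamma0 N) (hle : s48h_GammaH N' H' ≤ s48h_GammaH N H)

set_option maxHeartbeats 3200000 in
/-- **the module-theoretic output of the Taylor–Wiles control theorem**, for abstract idempotents
`ε` (level `(N, H)`) and `ε'` (level `(N', H')`). -/
def s59t_TWFull (B C : Subgroup (s59t_Delta N' H')) [Fintype B] [Fintype C]
    (ε : Module.End 𝒪 (s48h_Hpar 𝒪 (s48h_GammaH N H) 𝒪))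
    (ε' : Module.End 𝒪 (s48h_Hpar 𝒪 (s48h_GammaH N' H') 𝒪)) : Prop :=
  ∃ (hρ : ∀ δ y, ε (s59t_rho N H 𝒪 𝒪 δ y) = s59t_rho N H 𝒪 𝒪 δ (ε y))
    (hρ' : ∀ δ y, ε' (s59t_rho N' H' 𝒪 𝒪 δ y) = s59t_rho N' H' 𝒪 𝒪 δ (ε' y))
    (d : ℕ) (b : Fin d → s59t_part ε) (b' : Fin d → s59t_part ε')
    (π : s59t_part ε' →ₗ[𝒪] s59t_part ε),
    Function.Bijective (s59t_evalMap (s59t_partRep (s59t_rho N H 𝒪 𝒪) hρ) b) ∧
    Function.Bijective (s59t_evalMap (s59t_partRep (s59t_rho N' H' 𝒪 𝒪) hρ') b') ∧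
    Function.Injective (s59t_iotaH ε ε' (s59t_resGHpar hle 𝒪 𝒪)) ∧
    (∀ y : s59t_part ε', (∀ β ∈ B, s59t_partRep (s59t_rho N' H' 𝒪 𝒪) hρ' β y = y) →
      ∃ x, s59t_iotaH ε ε' (s59t_resGHpar hle 𝒪 𝒪) x = y) ∧
    (∀ y, s59t_iotaH ε ε' (s59t_resGHpar hle 𝒪 𝒪) (π y) =
      s59t_normPsi (s59t_partRep (s59t_rho N' H' 𝒪 𝒪) hρ') B 1 y) ∧
    Function.Surjective π ∧
    LinearMap.ker π = Submodule.span 𝒪 {z : s59t_part ε' |
      ∃ β ∈ B, ∃ y, z = s59t_partRep (s59t_rho N' H' 𝒪 𝒪) hρ' β y - y} ∧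
    -- `π` is equivariant for the diamonds
    (∀ δ' y, π (s59t_partRep (s59t_rho N' H' 𝒪 𝒪) hρ' δ' y) =
      s59t_partRep (s59t_rho N H 𝒪 𝒪) hρ (s59t_DeltaMap2 h0 hle δ') (π y)) ∧
    -- `π` is equivariant for every pair of operators intertwined by the restriction
    (∀ (T : Module.End 𝒪 (s48h_Hpar 𝒪 (s48h_GammaH N H) 𝒪))
      (T' : Module.End 𝒪 (s48h_Hpar 𝒪 (s48h_GammaH N' H') 𝒪))
      (hT : ∀ y, ε (T y) = T (ε y)) (hT' : ∀ y, ε' (T' y) = T' (ε' y)),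
      (∀ x, s59t_resGHpar hle 𝒪 𝒪 (T x) = T' (s59t_resGHpar hle 𝒪 𝒪 x)) →
      (∀ δ' y, T' (s59t_rho N' H' 𝒪 𝒪 δ' y) = s59t_rho N' H' 𝒪 𝒪 δ' (T' y)) →
      ∀ y, π (s59t_partMap T' hT' y) = s59t_partMap T hT (π y)) ∧
    -- control for the trivial type
    ((∀ y ∈ s59t_eig (s59t_partRep (s59t_rho N' H' 𝒪 𝒪) hρ') C (1 : s59t_Delta N' H' →* 𝒪ˣ),
        π y ∈ s59t_eig (s59t_partRep (s59t_rho N H 𝒪 𝒪) hρ) ⊤ (1 : s59t_Delta N H →* 𝒪ˣ)) ∧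
      (∀ x ∈ s59t_eig (s59t_partRep (s59t_rho N H 𝒪 𝒪) hρ) ⊤ (1 : s59t_Delta N H →* 𝒪ˣ),
        ∃ y ∈ s59t_eig (s59t_partRep (s59t_rho N' H' 𝒪 𝒪) hρ') C
          (1 : s59t_Delta N' H' →* 𝒪ˣ), π y = x) ∧
      (∀ y ∈ s59t_eig (s59t_partRep (s59t_rho N' H' 𝒪 𝒪) hρ') C (1 : s59t_Delta N' H' →* 𝒪ˣ),
        π y = 0 → y ∈ Submodule.span 𝒪 {z : s59t_part ε' | ∃ β ∈ B,
          ∃ y' ∈ s59t_eig (s59t_partRep (s59t_rho N' H' 𝒪 𝒪) hρ') C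
            (1 : s59t_Delta N' H' →* 𝒪ˣ),
          z = s59t_partRep (s59t_rho N' H' 𝒪 𝒪) hρ' β y' - y'})) ∧
    -- control for every character of `Δ`
    (∀ χ : s59t_Delta N H →* 𝒪ˣ,
      (∀ y ∈ s59t_eig (s59t_partRep (s59t_rho N' H' 𝒪 𝒪) hρ') C
          (χ.comp (s59t_DeltaMap2 h0 hle)),
        π y ∈ s59t_eig (s59t_partRep (s59t_rho N H 𝒪 𝒪) hρ) ⊤ χ) ∧
      (∀ x ∈ s59t_eig (s59t_partRep (s59t_rho N H 𝒪 𝒪) hρ) ⊤ χ,
        ∃ y ∈ s59t_eig (s59t_partRep (s59t_rho N' H' 𝒪 𝒪) hρ') C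
          (χ.comp (s59t_DeltaMap2 h0 hle)), π y = x) ∧
      (∀ y ∈ s59t_eig (s59t_partRep (s59t_rho N' H' 𝒪 𝒪) hρ') C
          (χ.comp (s59t_DeltaMap2 h0 hle)),
        π y = 0 → y ∈ Submodule.span 𝒪 {z : s59t_part ε' | ∃ β ∈ B,
          ∃ y' ∈ s59t_eig (s59t_partRep (s59t_rho N' H' 𝒪 𝒪) hρ') C
            (χ.comp (s59t_DeltaMap2 h0 hle)),
          z = s59t_partRep (s59t_rho N' H' 𝒪 𝒪) hρ' β y' - y'}))

/-- **`ι = ε' ∘ res` is equivariant** for every pair of operators intertwined by the restriction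
and commuting with the idempotents. -/
theorem s59t_iotaH_equivariant (ε : Module.End 𝒪 (s48h_Hpar 𝒪 (s48h_GammaH N H) 𝒪))
    (ε' : Module.End 𝒪 (s48h_Hpar 𝒪 (s48h_GammaH N' H') 𝒪))
    (T : Module.End 𝒪 (s48h_Hpar 𝒪 (s48h_GammaH N H) 𝒪))
    (T' : Module.End 𝒪 (s48h_Hpar 𝒪 (s48h_GammaH N' H') 𝒪))
    (hT : ∀ y, ε (T y) = T (ε y)) (hT' : ∀ y, ε' (T' y) = T' (ε' y))
    (hres : ∀ x, s59t_resGHpar hle 𝒪 𝒪 (T x) = T' (s59t_resGHpar hle 𝒪 𝒪 x))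
    (y : s59t_part ε) :
    s59t_iotaH ε ε' (s59t_resGHpar hle 𝒪 𝒪) (s59t_partMap T hT y) =
      s59t_partMap T' hT' (s59t_iotaH ε ε' (s59t_resGHpar hle 𝒪 𝒪) y) := by
  apply Subtype.ext
  rw [s59t_iotaH_coe, s59t_partMap_coe, s59t_partMap_coe, s59t_iotaH_coe, hres, hT']

/-- **`π` is equivariant** for every pair of operators intertwined by the restriction, commuting
with the idempotents and (for `T'`) with the diamonds. -/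
theorem s59t_pi_equivariant_abs (B : Subgroup (s59t_Delta N' H')) [Fintype B]
    (ε : Module.End 𝒪 (s48h_Hpar 𝒪 (s48h_GammaH N H) 𝒪))
    (ε' : Module.End 𝒪 (s48h_Hpar 𝒪 (s48h_GammaH N' H') 𝒪))
    (hρ' : ∀ δ y, ε' (s59t_rho N' H' 𝒪 𝒪 δ y) = s59t_rho N' H' 𝒪 𝒪 δ (ε' y))
    (π : s59t_part ε' →ₗ[𝒪] s59t_part ε)
    (hinj : Function.Injective (s59t_iotaH ε ε' (s59t_resGHpar hle 𝒪 𝒪)))
    (hπ1 : ∀ y, s59t_iotaH ε ε' (s59t_resGHpar hle 𝒪 𝒪) (π y) =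
      s59t_normPsi (s59t_partRep (s59t_rho N' H' 𝒪 𝒪) hρ') B 1 y)
    (T : Module.End 𝒪 (s48h_Hpar 𝒪 (s48h_GammaH N H) 𝒪))
    (T' : Module.End 𝒪 (s48h_Hpar 𝒪 (s48h_GammaH N' H') 𝒪))
    (hT : ∀ y, ε (T y) = T (ε y)) (hT' : ∀ y, ε' (T' y) = T' (ε' y))
    (hres : ∀ x, s59t_resGHpar hle 𝒪 𝒪 (T x) = T' (s59t_resGHpar hle 𝒪 𝒪 x))
    (hTρ : ∀ δ' y, T' (s59t_rho N' H' 𝒪 𝒪 δ' y) = s59t_rho N' H' 𝒪 𝒪 δ' (T' y))
    (y : s59t_part ε') :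
    π (s59t_partMap T' hT' y) = s59t_partMap T hT (π y) := by
  apply hinj
  have hF : ∀ (β : s59t_Delta N' H') (x : s59t_part ε'),
      (s59t_partMap T' hT' : Module.End 𝒪 (s59t_part ε'))
        (s59t_partRep (s59t_rho N' H' 𝒪 𝒪) hρ' β x) =
      s59t_partRep (s59t_rho N' H' 𝒪 𝒪) hρ' β
        ((s59t_partMap T' hT' : Module.End 𝒪 (s59t_part ε')) x) :=
    fun β x => Subtype.ext (hTρ β x.1)
  have h1 := s59t_normPsi_commute (s59t_partRep (s59t_rho N' H' 𝒪 𝒪) hρ') B 1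
    (s59t_partMap T' hT' : Module.End 𝒪 (s59t_part ε')) hF y
  rw [hπ1, s59t_iotaH_equivariant hle ε ε' T T' hT hT' hres, hπ1]
  exact h1

/-- replace the base idempotent by an equal one. -/
theorem s59t_TWFull.congr_base {B C : Subgroup (s59t_Delta N' H')} [Fintype B] [Fintype C]
    {ε ε₁ : Module.End 𝒪 (s48h_Hpar 𝒪 (s48h_GammaH N H) 𝒪)}
    {ε' : Module.End 𝒪 (s48h_Hpar 𝒪 (s48h_GammaH N' H') 𝒪)}
    (h : s59t_TWFull h0 hle B C ε ε') (hε : ε = ε₁) : s59t_TWFull h0 hle B C ε₁ ε' := hε ▸ h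

set_option maxHeartbeats 1600000 in
/-- **the abstract form of the output of the control theorem.** -/
theorem s59t_TWFull_of_tail (B C : Subgroup (s59t_Delta N' H')) [Fintype B] [Fintype C]
    (hBC : Function.Bijective (fun x : B × C => ((x.1 : s59t_Delta N' H') * (x.2 : _))))
    (hφC : Function.Bijective (fun γ : C => s59t_DeltaMap2 h0 hle (γ : s59t_Delta N' H')))
    (ε : Module.End 𝒪 (s48h_Hpar 𝒪 (s48h_GammaH N H) 𝒪))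
    (ε' : Module.End 𝒪 (s48h_Hpar 𝒪 (s48h_GammaH N' H') 𝒪))
    (hρ : ∀ δ y, ε (s59t_rho N H 𝒪 𝒪 δ y) = s59t_rho N H 𝒪 𝒪 δ (ε y))
    (hρ' : ∀ δ y, ε' (s59t_rho N' H' 𝒪 𝒪 δ y) = s59t_rho N' H' 𝒪 𝒪 δ (ε' y))
    (d : ℕ) (b : Fin d → s59t_part ε) (b' : Fin d → s59t_part ε')
    (π : s59t_part ε' →ₗ[𝒪] s59t_part ε)
    (hb : Function.Bijective (s59t_evalMap (s59t_partRep (s59t_rho N H 𝒪 𝒪) hρ) b))
    (hb' : Function.Bijective (s59t_evalMap (s59t_partRep (s59t_rho N' H' 𝒪 𝒪) hρ') b'))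
    (hinj : Function.Injective (s59t_iotaH ε ε' (s59t_resGHpar hle 𝒪 𝒪)))
    (hinv : ∀ y : s59t_part ε', (∀ β ∈ B, s59t_partRep (s59t_rho N' H' 𝒪 𝒪) hρ' β y = y) →
      ∃ x, s59t_iotaH ε ε' (s59t_resGHpar hle 𝒪 𝒪) x = y)
    (hπ1 : ∀ y, s59t_iotaH ε ε' (s59t_resGHpar hle 𝒪 𝒪) (π y) =
      s59t_normPsi (s59t_partRep (s59t_rho N' H' 𝒪 𝒪) hρ') B 1 y)
    (hπ2 : Function.Surjective π)
    (hπ3 : LinearMap.ker π = Submodule.span 𝒪 {z : s59t_part ε' |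
      ∃ β ∈ B, ∃ y, z = s59t_partRep (s59t_rho N' H' 𝒪 𝒪) hρ' β y - y}) :
    s59t_TWFull h0 hle B C ε ε' := by
  have hr : ∀ (δ' : s59t_Delta N' H') (x : s59t_part ε),
      s59t_iotaH ε ε' (s59t_resGHpar hle 𝒪 𝒪)
        (s59t_partRep (s59t_rho N H 𝒪 𝒪) hρ (s59t_DeltaMap2 h0 hle δ') x) =
      s59t_partRep (s59t_rho N' H' 𝒪 𝒪) hρ' δ'
        (s59t_iotaH ε ε' (s59t_resGHpar hle 𝒪 𝒪) x) := by
    intro δ' x
    apply Subtype.ext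
    rw [s59t_iotaH_coe, s59t_partRep_coe, s59t_partRep_coe, s59t_iotaH_coe,
      s59t_resG_rho h0 hle 𝒪 𝒪 δ' (x : s48h_Hpar 𝒪 (s48h_GammaH N H) 𝒪), hρ']
  have t1 := s59t_control_one (𝒪 := 𝒪) (M := s59t_part ε) (M' := s59t_part ε')
    (s59t_partRep (s59t_rho N H 𝒪 𝒪) hρ)
    (s59t_partRep (s59t_rho N' H' 𝒪 𝒪) hρ') (s59t_DeltaMap2 h0 hle) B C hBC hφC
  have t2 := t1 (s59t_iotaH ε ε' (s59t_resGHpar hle 𝒪 𝒪)) hr hinj (d := d) b hb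
  have t3 := t2 b' hb'
  have t4 := t3 π hπ1 hπ2
  have key1 := t4 hπ3
  have u1 := s59t_control_tau (R := 𝒪) (M := s59t_part ε) (M' := s59t_part ε')
    (s59t_partRep (s59t_rho N H 𝒪 𝒪) hρ)
    (s59t_partRep (s59t_rho N' H' 𝒪 𝒪) hρ') (s59t_DeltaMap2 h0 hle) B C hBC hφC
  have u2 := u1 (s59t_iotaH ε ε' (s59t_resGHpar hle 𝒪 𝒪)) hr hinj (d := d) b hb
  have u3 := u2 b' hb'
  have u4 := u3 π hπ1 hπ2
  have key2 := u4 hπ3
  refine ⟨hρ, hρ', d, b, b', π, hb, hb', hinj, hinv, hπ1, hπ2, hπ3, (key2 1).1, ?_, key1,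
    fun χ => (key2 χ).2⟩
  intro T T' hT hT' hres hTρ y
  exact s59t_pi_equivariant_abs hle B ε ε' hρ' π hinj hπ1 T T' hT hT' hres hTρ y

set_option maxHeartbeats 3200000 in
/-- **`s59t_TWConcl ⇒ s59t_TWFull`** for the polynomial idempotents. -/
theorem s59t_TWFull_of_concl (B C : Subgroup (s59t_Delta N' H')) [Fintype B] [Fintype C]
    (hBC : Function.Bijective (fun x : B × C => ((x.1 : s59t_Delta N' H') * (x.2 : _))))
    (hφC : Function.Bijective (fun γ : C => s59t_DeltaMap2 h0 hle (γ : s59t_Delta N' H')))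
    (hN : N ∣ N') (aq : ℕ → 𝒪) (good : Set (s59w_AIdx N')) (c : s59w_AIdx N' → 𝒪)
    (h : s59t_TWConcl hle B hN aq good c) :
    ∃ (e₀ : MvPolynomial ↥good 𝒪) (G : MvPolynomial (s59w_AIdx N' ⊕ ℕ) 𝒪),
      1 - e₀ ∈ s59t_evalIdeal (fun x : ↥good => c x) ∧
      (∀ t : MvPolynomial ↥good 𝒪, t ∉ s59t_evalIdeal (fun x : ↥good => c x) →
        ∃ η : MvPolynomial ↥good 𝒪,
          s59t_actH N' aq hN H (s59t_jG 𝒪 good (η * t * e₀)) =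
            s59t_actH N' aq hN H (s59t_jG 𝒪 good e₀) ∧
          s59t_actH N' aq (dvd_refl N') H' (s59t_jG 𝒪 good (η * t * e₀)) =
            s59t_actH N' aq (dvd_refl N') H' (s59t_jG 𝒪 good e₀)) ∧
      s59t_actH N' aq hN H (s59t_jG 𝒪 good e₀) * s59t_actH N' aq hN H (s59t_jG 𝒪 good e₀) =
        s59t_actH N' aq hN H (s59t_jG 𝒪 good e₀) ∧
      s59t_actH N' aq (dvd_refl N') H' (G * s59t_jG 𝒪 good e₀) *
        s59t_actH N' aq (dvd_refl N') H' (G * s59t_jG 𝒪 good e₀) =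
        s59t_actH N' aq (dvd_refl N') H' (G * s59t_jG 𝒪 good e₀) ∧
      (∀ x ∈ good, ∃ n : ℕ, ∀ y : s48h_Hpar 𝒪 (s48h_GammaH N H) 𝒪,
        ((s59t_opH N' aq hN H (Sum.inl x) -
          c x • (1 : Module.End 𝒪 (s48h_Hpar 𝒪 (s48h_GammaH N H) 𝒪))) ^ n)
          (s59t_actH N' aq hN H (s59t_jG 𝒪 good e₀) y) ∈
          (maximalIdeal 𝒪 • ⊤ : Submodule 𝒪 (s48h_Hpar 𝒪 (s48h_GammaH N H) 𝒪))) ∧
      (∀ x ∈ good, ∃ n : ℕ, ∀ y : s48h_Hpar 𝒪 (s48h_GammaH N' H') 𝒪,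
        ((s59w_op H' 𝒪 x -
          c x • (1 : Module.End 𝒪 (s48h_Hpar 𝒪 (s48h_GammaH N' H') 𝒪))) ^ n)
          (s59t_actH N' aq (dvd_refl N') H' (G * s59t_jG 𝒪 good e₀) y) ∈
          (maximalIdeal 𝒪 • ⊤ : Submodule 𝒪 (s48h_Hpar 𝒪 (s48h_GammaH N' H') 𝒪))) ∧
      s59t_TWFull h0 hle B C (s59t_actH N' aq hN H (s59t_jG 𝒪 good e₀))
        (s59t_actH N' aq (dvd_refl N') H' (G * s59t_jG 𝒪 good e₀)) := by
  obtain ⟨e, e', ⟨e₀, h1e, rfl, ⟨G, rfl⟩, hunit⟩, heH, heH', hnilH, hnilH', d, b, b', π, hb, hb',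
    hinj, hinv, hπ1, hπ2, hπ3⟩ := h
  exact ⟨e₀, G, h1e, hunit, heH, heH', hnilH, hnilH',
    s59t_TWFull_of_tail h0 hle B C hBC hφC _ _ _ _ d b b' π hb hb' hinj hinv hπ1 hπ2 hπ3⟩

end Full

end Fermat.Agent.Lib.S59
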