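/-
S59 (helper5, prefix `s59e_`), `T`-side package: **THE CONCRETE BASE DATA** (transparent constructor).

* `s59e_tOf S aM ℓ`  : the element `aM(T_ℓ)` of `𝒪[aM(𝕋)]` (`0` if `ℓ` is not a good prime), `s59e_tOf_eq`;
* `s59e_mkBaseD …`   : THE `s59e_BaseD` with `Y = range E₀` for an idempotent `E₀` of an `𝒪`-module `Z`
                       (in the application `Z = H_par(Γ_{H₀}(N), 𝒪)`, `Δ = Γ₀(N)/Γ_{H₀}`, `ρZ` the diamond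
                       representation), `ρΔ = s59t_partRep ρZ hρ`, `R' = 𝒪[aM₁(𝕋)] ⊆ End_𝒪 Y` (acting on `Y` by
                       evaluation), `tR' = s59e_tOf ↑B aM₁`; everything else is an explicit argument.  The
                       definition is `@[reducible]` and GENERIC in `(Δ, Z, ρZ, E₀)` (instance search on the
                       concrete nested submodules is too expensive): all the fields reduce to the arguments.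
-/
import Mathlib
import Fermat.Agent.Lib.S59.ETLvlAbs
import Fermat.Agent.Lib.S59.ERing2
import Fermat.Agent.Lib.S59.TLvlCtl
import Fermat.Agent.Lib.S59.EHRel1

set_option autoImplicit false
set_option linter.unusedSectionVars false
set_option linter.unusedVariables false
set_option linter.style.haveILetI false
set_option maxHeartbeats 1600000
set_option synthInstance.maxHeartbeats 400000

noncomputable section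

namespace Fermat.Agent.Lib.S59

open IsLocalRing MvPowerSeries CuspForm
open Fermat.Agent.Lib.S48
open Fermat.Agent.Lib.Deform (IsTestAlgebra)

local notation "Γℚ" => (AlgebraicClosure ℚ ≃ₐ[ℚ] AlgebraicClosure ℚ)

section TOf

variable {𝒪 : Type*} [CommRing 𝒪] {E : Type*} [Ring E] [Algebra 𝒪 E]
  {M₁ : ℕ} [NeZero M₁] (S : Set ℕ)
  (aM : heckeAlgebra M₁ 2 S →+* E)

open scoped Classical in
/-- the element `aM(T_ℓ)` of `𝒪[aM(𝕋)]` (`0` if `ℓ` is not a good prime). -/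
def s59e_tOf (ℓ : ℕ) : s59e_adj 𝒪 aM :=
  if h : ℓ.Prime ∧ ¬ ℓ ∣ M₁ ∧ ℓ ∉ S then s59e_adjHom 𝒪 aM (heckeAlgebra.T h.1 h.2.1 h.2.2) else 0

theorem s59e_tOf_eq {ℓ : ℕ} (hℓ : ℓ.Prime) (hℓN : ¬ ℓ ∣ M₁) (hℓS : ℓ ∉ S) :
    s59e_tOf S aM ℓ = s59e_adjHom 𝒪 aM (heckeAlgebra.T hℓ hℓN hℓS) := by
  unfold s59e_tOf
  rw [dif_pos ⟨hℓ, hℓN, hℓS⟩]

theorem s59e_tOf_coe {ℓ : ℕ} (hℓ : ℓ.Prime) (hℓN : ¬ ℓ ∣ M₁) (hℓS : ℓ ∉ S) :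
    ((s59e_tOf S aM ℓ : s59e_adj 𝒪 aM) : E) = aM (heckeAlgebra.T hℓ hℓN hℓS) := by
  rw [s59e_tOf_eq S aM hℓ hℓN hℓS]
  rfl

end TOf

section MkBase

variable {p : ℕ} [hp : Fact p.Prime]
  {𝒪 : Type} [CommRing 𝒪] [IsDomain 𝒪] [IsDiscreteValuationRing 𝒪]
  [IsAdicComplete (maximalIdeal 𝒪) 𝒪] [Finite (ResidueField 𝒪)]
  {N : ℕ} [NeZero N] (B : Finset ℕ) (a : ℕ → ℤ) {m : ℕ}
  (ρbar : ResidualGaloisRep (ResidueField 𝒪)) (qB : Fin m → ℕ)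
  {Δ : Type} [CommGroup Δ] [Fintype Δ] {Z : Type} [AddCommGroup Z] [Module 𝒪 Z]
  (ρZ : Δ →* Module.End 𝒪 Z) (E₀ : Module.End 𝒪 Z)
  (hρ : ∀ δ y, E₀ (ρZ δ y) = ρZ δ (E₀ y))
  {M₁ : ℕ} [NeZero M₁]
  (aM₁ : heckeAlgebra M₁ 2 (↑B : Set ℕ) →+* Module.End 𝒪 (LinearMap.range E₀))
  [IsLocalRing (s59e_adj 𝒪 aM₁)] [IsLocalHom (algebraMap 𝒪 (s59e_adj 𝒪 aM₁))]

/-- **THE concrete base data** (transparent). -/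
@[reducible] def s59e_mkBaseD
    (hfree : Module.Free 𝒪 (LinearMap.range E₀)) (hfin : Module.Finite 𝒪 (LinearMap.range E₀))
    (ϖ : 𝒪) (hϖ : ϖ ∈ maximalIdeal 𝒪)
    (χ : Δ →* 𝒪ˣ)
    (hχϖ : ∀ δ : Δ, ((χ δ : 𝒪ˣ) : 𝒪) - 1 ∈ (Ideal.span {ϖ} : Ideal 𝒪))
    (hRρ : ∀ (t : s59e_adj 𝒪 aM₁) (δ : Δ) (y : LinearMap.range E₀),
      t • s59t_partRep ρZ hρ δ y =
        s59t_partRep ρZ hρ δ (t • y))
    (hM'fin : Module.Finite (s59e_adj 𝒪 aM₁)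
      (s59t_EigT (s59t_partRep ρZ hρ) ⊤ χ hRρ))
    (hM'nt : Nontrivial (s59t_EigT (s59t_partRep ρZ hρ) ⊤ χ hRρ))
    (R : Type) [CommRing R] [IsLocalRing R] [IsNoetherianRing R]
    [IsAdicComplete (maximalIdeal R) R] [Algebra 𝒪 R] [Module.Finite 𝒪 R]
    [IsLocalHom (algebraMap 𝒪 R)]
    (M : Type) [AddCommGroup M] [Module R M] [Module.Finite R M]
    (f : s59e_adj 𝒪 aM₁ →ₐ[𝒪] R) (hf : Function.Surjective f)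
    (hfl : IsLocalHom (f : s59e_adj 𝒪 aM₁ →+* R))
    (e : s59t_EigT (s59t_partRep ρZ hρ) ⊤ (1 : Δ →* 𝒪ˣ) hRρ ≃+ M)
    (he : ∀ (t : s59e_adj 𝒪 aM₁)
      (x : s59t_EigT (s59t_partRep ρZ hρ) ⊤ (1 : Δ →* 𝒪ˣ) hRρ),
      e (t • x) = f t • e x)
    (ρR' : GaloisRepAdic (s59e_adj 𝒪 aM₁))
    (hfrob' : ∀ (ℓ : ℕ), ℓ.Prime → ¬ ℓ ∣ N → ℓ ∉ (↑B : Set ℕ) →
      ∀ A : ValuationSubring (AlgebraicClosure ℚ), A.LiesOverPrime ℓ →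
      ∀ g : Γℚ, A.IsFrobeniusAt g ℓ →
        LinearMap.charpoly (ρR'.ρ g) =
          Polynomial.X ^ 2 - Polynomial.C (s59e_tOf (↑B : Set ℕ) aM₁ ℓ) * Polynomial.X +
            Polynomial.C ((ℓ : s59e_adj 𝒪 aM₁)))
    (hgenR' : Algebra.adjoin 𝒪 {x : s59e_adj 𝒪 aM₁ | ∃ ℓ : ℕ, ℓ.Prime ∧ ¬ ℓ ∣ N ∧
      ℓ ∉ (↑B : Set ℕ) ∧ x = s59e_tOf (↑B : Set ℕ) aM₁ ℓ} = ⊤)
    (πR : heckeAlgebra N 2 (↑B : Set ℕ) →+* R)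
    (hπR : ∀ (ℓ : ℕ) (hℓ : ℓ.Prime) (hℓN : ¬ ℓ ∣ N) (hℓB : ℓ ∉ (↑B : Set ℕ)),
      πR (heckeAlgebra.T hℓ hℓN hℓB) = f (s59e_tOf (↑B : Set ℕ) aM₁ ℓ))
    (hπa : ∀ (ℓ : ℕ) (hℓ : ℓ.Prime) (hℓN : ¬ ℓ ∣ N) (hℓB : ℓ ∉ (↑B : Set ℕ)),
      πR (heckeAlgebra.T hℓ hℓN hℓB) - ((a ℓ : ℤ) : R) ∈ maximalIdeal R)
    (hresR : (ρR'.baseChangeAlong (f : s59e_adj 𝒪 aM₁ →+* R) hfl).residual.IsEquiv
      (ρbar.baseChangeAlong (IsLocalRing.ResidueField.map (algebraMap 𝒪 R))))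
    (hunipR : ∀ j, (ρR'.baseChangeAlong (f : s59e_adj 𝒪 aM₁ →+* R) hfl).IsUnipotentOnInertiaAt
      (qB j))
    (d : ℕ) (ι : Type) [Fintype ι] (ζ ζ' : ι → Fin m → 𝒪)
    (hζ : ∀ i j, ζ i j * ζ' i j = 1) (hζq : ∀ i j, ζ i j ^ qB j = ζ i j)
    (hζne : ∀ i j, ζ i j ≠ ζ' i j) (hζm : ∀ i j, ζ i j - ζ' i j ∈ maximalIdeal 𝒪) :
    s59e_BaseD 𝒪 N B a m ρbar qB where
  ϖ := ϖ
  hϖ := hϖ
  Δ := Δ
  Y := LinearMap.range E₀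
  ρΔ := s59t_partRep ρZ hρ
  χ := χ
  hχϖ := hχϖ
  R' := s59e_adj 𝒪 aM₁
  iR'3 := by
    haveI := hfree
    haveI := hfin
    exact s59e_adj_noeth aM₁
  iR'4 := by
    haveI := hfree
    haveI := hfin
    exact s59e_adj_complete aM₁
  hRρ := hRρ
  hM'fin := hM'fin
  hM'nt := hM'nt
  R := R
  M := M
  f := f
  hf := hf
  hfl := hfl
  e := e
  he := he
  ρR' := ρR'
  tR' := s59e_tOf (↑B : Set ℕ) aM₁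
  hfrob' := hfrob'
  hgenR' := hgenR'
  πR := πR
  hπR := hπR
  hπa := hπa
  hresR := hresR
  hunipR := hunipR
  d := d
  ι := ι
  ζ := ζ
  ζ' := ζ'
  hζ := hζ
  hζq := hζq
  hζne := hζne
  hζm := hζm

/-- **the Hecke data at the base level** (target of (B1)): all the Hecke-side arguments of `s59e_mkBaseD`, and
the description of `aM₁` through the twisted Hecke operators `⟨σ_ℓ⟩^{k₀} T_ℓ` of `Z` (`opZ` is the family of the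
anemic generators of `End_𝒪 Z`; in the application `Z = H_par(Γ_{H₀}(N), 𝒪)`, `opZ = s59w_op H₀ 𝒪`,
`ρZ = s59t_rho N H₀ 𝒪 𝒪`, `E₀ = s59t_E0 H₀ B e`, so that `a₁ (T_ℓ) = s59e_Tp' H₀ 𝒪 k₀ i`):
* `(M₁, a₁, aM₁)`, locality: the output of `s59e_H3_hecke'` at `(N, H₀)` (`M₁ = (N / ∏ qB) ∏ qB²`, `S = B`);
* `ρR' = Hd.ρ ⊗_Ψ R'`, `hfrob'`, `hgenR'`;
* `(R, M, f, e)`: the output of `s59e_TR1'` for `H₀ ≤ ⊤` (`R = 𝒪[aM₂(𝕋)]` on `M = range E₀₀`), `e = ι₀⁻¹`;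
* `πR = s59e_adjHom 𝒪 aM₂`, `hπR`, `hπa`, `hresR` (Brauer–Nesbitt), `hunipR` (`q ∥ N`). -/
structure s59e_BaseH (opZ : s59w_AIdx N → Module.End 𝒪 Z) : Type 1 where
  M₁ : ℕ
  [iM₁ : NeZero M₁]
  hM₁ : ∀ ℓ : ℕ, ℓ.Prime → ℓ ∣ M₁ → ℓ ∈ B
  k₀ : ℕ
  a₁ : heckeAlgebra M₁ 2 (↑B : Set ℕ) →+* Module.End 𝒪 Z
  ha₁ : ∀ (ℓ : ℕ) (hℓ : ℓ.Prime) (hℓN : ¬ ℓ ∣ M₁) (hℓS : ℓ ∉ (↑B : Set ℕ)) (i : s59w_TIdx N),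
    i.ell = ℓ → a₁ (heckeAlgebra.T hℓ hℓN hℓS) = opZ (Sum.inr (s59e_tau i k₀)) * opZ (Sum.inl i)
  aM₁ : heckeAlgebra M₁ 2 (↑B : Set ℕ) →+* Module.End 𝒪 (LinearMap.range E₀)
  haM₁ : ∀ t (z : LinearMap.range E₀), ((aM₁ t z : LinearMap.range E₀) : Z) = a₁ t (z : Z)
  [iloc : IsLocalRing (s59e_adj 𝒪 aM₁)]
  [ilh : IsLocalHom (algebraMap 𝒪 (s59e_adj 𝒪 aM₁))]
  hfree : Module.Free 𝒪 (LinearMap.range E₀)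
  hfin : Module.Finite 𝒪 (LinearMap.range E₀)
  hRρ : ∀ (t : s59e_adj 𝒪 aM₁) (δ : Δ) (y : LinearMap.range E₀),
    t • s59t_partRep ρZ hρ δ y = s59t_partRep ρZ hρ δ (t • y)
  R : Type
  [iR1 : CommRing R]
  [iR2 : IsLocalRing R]
  [iR3 : IsNoetherianRing R]
  [iR4 : IsAdicComplete (maximalIdeal R) R]
  [iR5 : Algebra 𝒪 R]
  [iR6 : Module.Finite 𝒪 R]
  [iR7 : IsLocalHom (algebraMap 𝒪 R)]
  M : Type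
  [iM1 : AddCommGroup M]
  [iM2 : Module R M]
  [iM3 : Module.Finite R M]
  f : s59e_adj 𝒪 aM₁ →ₐ[𝒪] R
  hf : Function.Surjective f
  hfl : IsLocalHom (f : s59e_adj 𝒪 aM₁ →+* R)
  e : s59t_EigT (s59t_partRep ρZ hρ) ⊤ (1 : Δ →* 𝒪ˣ) hRρ ≃+ M
  he : ∀ (t : s59e_adj 𝒪 aM₁)
    (x : s59t_EigT (s59t_partRep ρZ hρ) ⊤ (1 : Δ →* 𝒪ˣ) hRρ), e (t • x) = f t • e x
  ρR' : GaloisRepAdic (s59e_adj 𝒪 aM₁)
  hfrob' : ∀ (ℓ : ℕ), ℓ.Prime → ¬ ℓ ∣ N → ℓ ∉ (↑B : Set ℕ) →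
    ∀ A : ValuationSubring (AlgebraicClosure ℚ), A.LiesOverPrime ℓ →
    ∀ g : Γℚ, A.IsFrobeniusAt g ℓ →
      LinearMap.charpoly (ρR'.ρ g) =
        Polynomial.X ^ 2 - Polynomial.C (s59e_tOf (↑B : Set ℕ) aM₁ ℓ) * Polynomial.X +
          Polynomial.C ((ℓ : s59e_adj 𝒪 aM₁))
  hgenR' : Algebra.adjoin 𝒪 {x : s59e_adj 𝒪 aM₁ | ∃ ℓ : ℕ, ℓ.Prime ∧ ¬ ℓ ∣ N ∧
    ℓ ∉ (↑B : Set ℕ) ∧ x = s59e_tOf (↑B : Set ℕ) aM₁ ℓ} = ⊤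
  πR : heckeAlgebra N 2 (↑B : Set ℕ) →+* R
  hπR : ∀ (ℓ : ℕ) (hℓ : ℓ.Prime) (hℓN : ¬ ℓ ∣ N) (hℓB : ℓ ∉ (↑B : Set ℕ)),
    πR (heckeAlgebra.T hℓ hℓN hℓB) = f (s59e_tOf (↑B : Set ℕ) aM₁ ℓ)
  hπa : ∀ (ℓ : ℕ) (hℓ : ℓ.Prime) (hℓN : ¬ ℓ ∣ N) (hℓB : ℓ ∉ (↑B : Set ℕ)),
    πR (heckeAlgebra.T hℓ hℓN hℓB) - ((a ℓ : ℤ) : R) ∈ maximalIdeal R
  hresR : (ρR'.baseChangeAlong (f : s59e_adj 𝒪 aM₁ →+* R) hfl).residual.IsEquiv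
    (ρbar.baseChangeAlong (IsLocalRing.ResidueField.map (algebraMap 𝒪 R)))
  hunipR : ∀ j, (ρR'.baseChangeAlong (f : s59e_adj 𝒪 aM₁ →+* R) hfl).IsUnipotentOnInertiaAt
    (qB j)

attribute [instance] s59e_BaseH.iM₁ s59e_BaseH.iloc s59e_BaseH.ilh s59e_BaseH.iR1 s59e_BaseH.iR2
  s59e_BaseH.iR3 s59e_BaseH.iR4 s59e_BaseH.iR5 s59e_BaseH.iR6 s59e_BaseH.iR7 s59e_BaseH.iM1
  s59e_BaseH.iM2 s59e_BaseH.iM3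

variable {B a ρbar qB ρZ E₀ hρ}

/-- **the base data of the Hecke data** `W`, the congruence `(ϖ, χ)` and the characters `(ι, ζ, ζ')`. -/
@[reducible] def s59e_BaseH.toBaseD {opZ : s59w_AIdx N → Module.End 𝒪 Z}
    (W : s59e_BaseH B a ρbar qB ρZ E₀ hρ opZ)
    (ϖ : 𝒪) (hϖ : ϖ ∈ maximalIdeal 𝒪) (χ : Δ →* 𝒪ˣ)
    (hχϖ : ∀ δ : Δ, ((χ δ : 𝒪ˣ) : 𝒪) - 1 ∈ (Ideal.span {ϖ} : Ideal 𝒪))
    (hM'fin : Module.Finite (s59e_adj 𝒪 W.aM₁) (s59t_EigT (s59t_partRep ρZ hρ) ⊤ χ W.hRρ))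
    (hM'nt : Nontrivial (s59t_EigT (s59t_partRep ρZ hρ) ⊤ χ W.hRρ))
    (d : ℕ) (ι : Type) [Fintype ι] (ζ ζ' : ι → Fin m → 𝒪)
    (hζ : ∀ i j, ζ i j * ζ' i j = 1) (hζq : ∀ i j, ζ i j ^ qB j = ζ i j)
    (hζne : ∀ i j, ζ i j ≠ ζ' i j) (hζm : ∀ i j, ζ i j - ζ' i j ∈ maximalIdeal 𝒪) :
    s59e_BaseD 𝒪 N B a m ρbar qB :=
  s59e_mkBaseD B a ρbar qB ρZ E₀ hρ W.aM₁ W.hfree W.hfin ϖ hϖ χ hχϖ W.hRρ hM'fin hM'nt W.R W.M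
    W.f W.hf W.hfl W.e W.he W.ρR' W.hfrob' W.hgenR' W.πR W.hπR W.hπa W.hresR W.hunipR d ι ζ ζ'
    hζ hζq hζne hζm

end MkBase

end Fermat.Agent.Lib.S59
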