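/-
Programme R (S59), node (GEN) (helper2, prefix `s59b_`): **the abstract generation statement.**

On a finite module `Λ` over a noetherian local ring with a continuous action `ρ` of `G_ℚ`, commuting
"Hecke operators" `T ℓ` and an operator-valued "determinant" `D` (a continuous homomorphism with
values in a closed commutative subalgebra `𝕋'`), the Eichler–Shimura relations
`ρ(Frob_ℓ)² − T_ℓ ρ(Frob_ℓ) + D(Frob_ℓ) = 0` at the primes outside a finite set `S'` together with the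
same relation for ONE operator `T_q` at one element `φ` force `T_q ∈ 𝕋'` as soon as `𝕋'` contains
the `T_ℓ`, `ℓ ∉ S'`, and the values of `D`:  `T_q = ρφ + Dφ ρφ⁻¹` is a limit of the power-trace
polynomials `ptr(T_ℓ, D_σ, j) ∈ 𝕋'` (Frobenius density) and `𝕋'` is closed (Krull).

* `s59b_ptrR`, `s59b_pow_quadR`, `s59b_ptrR_mem` : the power-trace sequence in a ring, for commuting
  `f, t` with `f² − t f + d = 0`;
* `s59b_mem_of_forall_approx` : a submodule of a finite module is closed for the adic topology;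
* `s59b_end_mem_of_forall_approx` : the same for a submodule of `Module.End 𝒪 Λ`, with congruences
  tested pointwise;
* **`s59b_gen_abs`** : the abstract (GEN).
-/
import Mathlib
import Fermat.Agent.Lib.S59.KChar

set_option autoImplicit false
set_option linter.unusedSectionVars false
set_option linter.unusedVariables false

noncomputable section

namespace Fermat.Agent.Lib.S59

open IsLocalRing

local notation "Qbar" => AlgebraicClosure ℚ
local notation "GQ" => (AlgebraicClosure ℚ ≃ₐ[ℚ] AlgebraicClosure ℚ)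

section RingPart

variable {R : Type*} [Ring R]

/-- the power-trace sequence in an arbitrary ring. -/
def s59b_ptrR (t d : R) : ℕ → R
  | 0 => 2
  | 1 => t
  | (n + 2) => t * s59b_ptrR t d (n + 1) - d * s59b_ptrR t d n

/-- if `f` commutes with `t` and `f² − t f + d = 0` then `(f^j)² − ptr_j f^j + d^j = 0`. -/
theorem s59b_pow_quadR (f t d : R) (hft : Commute f t) (h : f * f - t * f + d = 0) (j : ℕ) :
    f ^ j * f ^ j - s59b_ptrR t d j * f ^ j + d ^ j = 0 := by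
  set G : R := t - f with hG
  have hc : Commute f G := hft.sub_right (Commute.refl f)
  have hd : d = t * f - f * f := by
    have h1 : d = (f * f - t * f + d) - (f * f - t * f) := by abel
    rw [h1, h, zero_sub, neg_sub]
  have hFG : f * G = d := by
    rw [hG, mul_sub, hft.eq, hd]
  have hsum : f + G = t := by rw [hG]; abel
  have key : ∀ j : ℕ, f ^ (j + 1 + 1) + G ^ (j + 1 + 1) =
      (f + G) * (f ^ (j + 1) + G ^ (j + 1)) - (f * G) * (f ^ j + G ^ j) := by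
    intro j
    have e1 : G * f ^ (j + 1) = f * G * f ^ j := by rw [pow_succ', ← mul_assoc, hc.eq]
    have e2 : f * G ^ (j + 1) = f * G * G ^ j := by rw [pow_succ', mul_assoc]
    rw [add_mul, mul_add, mul_add, mul_add, e1, e2, ← pow_succ', ← pow_succ']
    abel
  have hP : ∀ j : ℕ, f ^ j + G ^ j = s59b_ptrR t d j ∧
      f ^ (j + 1) + G ^ (j + 1) = s59b_ptrR t d (j + 1) := by
    intro j
    induction j with
    | zero =>
      refine ⟨?_, ?_⟩
      · rw [pow_zero, pow_zero]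
        exact one_add_one_eq_two
      · rw [zero_add, pow_one, pow_one, hsum]
        rfl
    | succ n ih =>
      refine ⟨ih.2, ?_⟩
      rw [key n, ih.1, ih.2, hsum, hFG]
      rfl
  have h1 : s59b_ptrR t d j * f ^ j = (f ^ j + G ^ j) * f ^ j := by rw [(hP j).1]
  have h2 : d ^ j = f ^ j * G ^ j := by rw [← hc.mul_pow, hFG]
  rw [h1, h2, add_mul, (hc.pow_pow j j).eq]
  abel

/-- the power-trace sequence stays in any subalgebra containing `t` and `d`. -/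
theorem s59b_ptrR_mem {𝒪 : Type*} [CommRing 𝒪] [Algebra 𝒪 R] (𝕋 : Subalgebra 𝒪 R) {t d : R}
    (ht : t ∈ 𝕋) (hd : d ∈ 𝕋) : ∀ j : ℕ, s59b_ptrR t d j ∈ 𝕋 := by
  have key : ∀ j : ℕ, s59b_ptrR t d j ∈ 𝕋 ∧ s59b_ptrR t d (j + 1) ∈ 𝕋 := by
    intro j
    induction j with
    | zero => exact ⟨ofNat_mem 𝕋 2, ht⟩
    | succ n ih =>
      exact ⟨ih.2, 𝕋.sub_mem (𝕋.mul_mem ht ih.2) (𝕋.mul_mem hd ih.1)⟩
  exact fun j => (key j).1

end RingPart

section Closed

variable {𝒪 : Type*} [CommRing 𝒪] [IsLocalRing 𝒪] [IsNoetherianRing 𝒪]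

/-- linear maps send `J • ⊤` into `J • ⊤`. -/
theorem s59b_map_mem_smul_top {V W : Type*} [AddCommGroup V] [Module 𝒪 V] [AddCommGroup W]
    [Module 𝒪 W] (J : Ideal 𝒪) (f : V →ₗ[𝒪] W) {x : V} (hx : x ∈ J • (⊤ : Submodule 𝒪 V)) :
    f x ∈ J • (⊤ : Submodule 𝒪 W) := by
  refine Submodule.smul_induction_on hx ?_ ?_
  · intro a ha w _
    rw [map_smul]
    exact Submodule.smul_mem_smul ha Submodule.mem_top
  · intro x y hx hy
    rw [map_add]
    exact Submodule.add_mem _ hx hy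

/-- Krull: a vector of a finite module lying in all `𝔪^m V` is zero. -/
theorem s59b_eq_zero_of_forall_mem' {V : Type*} [AddCommGroup V] [Module 𝒪 V] [Module.Finite 𝒪 V]
    {x : V} (h : ∀ m : ℕ, x ∈ (maximalIdeal 𝒪 ^ m) • (⊤ : Submodule 𝒪 V)) : x = 0 := by
  have hK := Ideal.iInf_pow_smul_eq_bot_of_isLocalRing (M := V) (maximalIdeal 𝒪)
    (Ideal.IsPrime.ne_top inferInstance)
  have hx : x ∈ (⨅ i : ℕ, (maximalIdeal 𝒪 ^ i) • (⊤ : Submodule 𝒪 V)) := by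
    rw [Submodule.mem_iInf]
    exact h
  rw [hK, Submodule.mem_bot] at hx
  exact hx

/-- a submodule of a finite module over a noetherian local ring is adically closed. -/
theorem s59b_mem_of_forall_approx {V : Type*} [AddCommGroup V] [Module 𝒪 V] [Module.Finite 𝒪 V]
    (N : Submodule 𝒪 V) (y : V)
    (h : ∀ m : ℕ, ∃ z ∈ N, y - z ∈ (maximalIdeal 𝒪 ^ m) • (⊤ : Submodule 𝒪 V)) : y ∈ N := by
  have h0 : N.mkQ y = 0 := by
    apply s59b_eq_zero_of_forall_mem' (𝒪 := 𝒪)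
    intro m
    obtain ⟨z, hz, hyz⟩ := h m
    have h1 : N.mkQ y = N.mkQ (y - z) := by
      rw [map_sub, (Submodule.mkQ_apply N z).trans ((Submodule.Quotient.mk_eq_zero N).mpr hz),
        sub_zero]
    rw [h1]
    exact s59b_map_mem_smul_top _ N.mkQ hyz
  exact (Submodule.Quotient.mk_eq_zero N).mp h0

/-- a tuple with entries in `J Λ` lies in `J • ⊤`. -/
theorem s59b_pi_mem_smul_top {Λ : Type*} [AddCommGroup Λ] [Module 𝒪 Λ] {n : ℕ} (J : Ideal 𝒪)
    (y : Fin n → Λ) (hy : ∀ i, y i ∈ J • (⊤ : Submodule 𝒪 Λ)) :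
    y ∈ J • (⊤ : Submodule 𝒪 (Fin n → Λ)) := by
  have e : y = ∑ i, LinearMap.single 𝒪 (fun _ : Fin n => Λ) i (y i) := by
    funext k
    rw [Finset.sum_apply]
    simp [Pi.single_apply]
  rw [e]
  exact Submodule.sum_mem _ fun i _ => s59b_map_mem_smul_top J _ (hy i)

/-- a submodule of `End Λ` (`Λ` finite) is closed for pointwise adic congruences. -/
theorem s59b_end_mem_of_forall_approx {Λ : Type*} [AddCommGroup Λ] [Module 𝒪 Λ]
    [Module.Finite 𝒪 Λ] (N : Submodule 𝒪 (Module.End 𝒪 Λ)) (y : Module.End 𝒪 Λ)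
    (h : ∀ m : ℕ, ∃ z ∈ N, ∀ x : Λ, y x - z x ∈ (maximalIdeal 𝒪 ^ m) • (⊤ : Submodule 𝒪 Λ)) :
    y ∈ N := by
  obtain ⟨n, s, hs⟩ := Module.Finite.exists_fin (R := 𝒪) (M := Λ)
  let ev : Module.End 𝒪 Λ →ₗ[𝒪] (Fin n → Λ) := LinearMap.pi fun i => LinearMap.applyₗ (s i)
  have hev : ∀ f : Module.End 𝒪 Λ, ∀ i, ev f i = f (s i) := fun f i => rfl
  have hinj : Function.Injective ev := by
    intro f g hfg
    apply LinearMap.ext_on_range hs
    intro i
    have := congrFun hfg i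
    rwa [hev, hev] at this
  have hmem : ev y ∈ N.map ev := by
    apply s59b_mem_of_forall_approx (𝒪 := 𝒪)
    intro m
    obtain ⟨z, hz, hyz⟩ := h m
    refine ⟨ev z, Submodule.mem_map_of_mem hz, ?_⟩
    apply s59b_pi_mem_smul_top
    intro i
    rw [Pi.sub_apply, hev, hev]
    exact hyz (s i)
  obtain ⟨z, hz, hzy⟩ := (Submodule.mem_map).mp hmem
  rw [← hinj hzy]
  exact hz

end Closed

section Gen

variable {𝒪 : Type} [CommRing 𝒪] [IsLocalRing 𝒪] [IsNoetherianRing 𝒪]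
  {Λ : Type} [AddCommGroup Λ] [Module 𝒪 Λ] [Module.Finite 𝒪 Λ]

/-- **Abstract (GEN).** -/
theorem s59b_gen_abs (ρ : GQ →* Module.End 𝒪 Λ) (hρ : GaloisActionIsAdicContinuous 𝒪 ρ)
    (D : GQ →* Module.End 𝒪 Λ) (hD : GaloisActionIsAdicContinuous 𝒪 D)
    (T : ℕ → Module.End 𝒪 Λ) (𝕋' : Subalgebra 𝒪 (Module.End 𝒪 Λ)) (S' : Finset ℕ)
    (hT : ∀ ℓ : ℕ, ℓ.Prime → ℓ ∉ S' → T ℓ ∈ 𝕋') (hD𝕋 : ∀ g : GQ, D g ∈ 𝕋')
    (hcomm : ∀ ℓ : ℕ, ℓ.Prime → ℓ ∉ S' → ∀ g : GQ, Commute (ρ g) (T ℓ))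
    (hfrob : ∀ ℓ : ℕ, ℓ.Prime → ℓ ∉ S' → ∀ P : ValuationSubring Qbar, P.LiesOverPrime ℓ →
      ∀ σ : GQ, P.IsFrobeniusAt σ ℓ → ρ σ * ρ σ - T ℓ * ρ σ + D σ = 0)
    (Tq : Module.End 𝒪 Λ) (φ : GQ) (hq : ρ φ * ρ φ - Tq * ρ φ + D φ = 0) : Tq ∈ 𝕋' := by
  change Tq ∈ Subalgebra.toSubmodule 𝕋'
  apply s59b_end_mem_of_forall_approx (𝒪 := 𝒪)
  intro m
  obtain ⟨L₁, hL₁, h₁⟩ := hρ m
  obtain ⟨L₂, hL₂, h₂⟩ := hD m
  have hfd : FiniteDimensional ℚ (L₁ ⊔ L₂ : IntermediateField ℚ Qbar) :=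
    IntermediateField.finiteDimensional_sup L₁ L₂
  obtain ⟨ℓ, P, σ, j, k, hℓ, hℓS, hP, hFr, hg, hfix⟩ := s59k_density (L₁ ⊔ L₂) hfd S' φ
  have hfixi : ∀ y ∈ (L₁ ⊔ L₂ : IntermediateField ℚ Qbar), k⁻¹ y = y := by
    intro y hy
    have h1 : k⁻¹ (k y) = y := by
      rw [← AlgEquiv.mul_apply, inv_mul_cancel, AlgEquiv.one_apply]
    rw [hfix y hy] at h1
    exact h1
  have hk₁ := h₁ k fun y hy => hfix y (le_sup_left (b := L₂) hy)
  have hki₁ := h₁ k⁻¹ fun y hy => hfixi y (le_sup_left (b := L₂) hy)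
  have hk₂ := h₂ k fun y hy => hfix y (le_sup_right (a := L₁) hy)
  set F : Module.End 𝒪 Λ := ρ σ with hF
  set Fi : Module.End 𝒪 Λ := ρ (σ ^ j)⁻¹ with hFi
  have hFFi : F ^ j * Fi = 1 := by
    rw [hF, hFi, ← map_pow, ← map_mul, mul_inv_cancel, map_one]
  set z : Module.End 𝒪 Λ := s59b_ptrR (T ℓ) (D σ) j with hz
  have hz𝕋 : z ∈ 𝕋' := s59b_ptrR_mem 𝕋' (hT ℓ hℓ hℓS) (hD𝕋 σ) j
  have hquad := s59b_pow_quadR F (T ℓ) (D σ) (hcomm ℓ hℓ hℓS σ) (hfrob ℓ hℓ hℓS P hP σ hFr) j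
  have hzeq : z = F ^ j + D σ ^ j * Fi := by
    have h1 := congrArg (fun X => X * Fi) hquad
    simp only [add_mul, sub_mul, zero_mul] at h1
    rw [mul_assoc, mul_assoc, hFFi, mul_one, mul_one] at h1
    have h2 : z = (F ^ j + D σ ^ j * Fi) - (F ^ j - z + D σ ^ j * Fi) := by abel
    rw [h2, h1, sub_zero]
  have hΦΦi : ρ φ * ρ φ⁻¹ = 1 := by rw [← map_mul, mul_inv_cancel, map_one]
  have hTq : Tq = ρ φ + D φ * ρ φ⁻¹ := by
    have h1 := congrArg (fun X => X * ρ φ⁻¹) hq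
    simp only [add_mul, sub_mul, zero_mul] at h1
    rw [mul_assoc, mul_assoc, hΦΦi, mul_one, mul_one] at h1
    have h2 : Tq = (ρ φ + D φ * ρ φ⁻¹) - (ρ φ - Tq + D φ * ρ φ⁻¹) := by abel
    rw [h2, h1, sub_zero]
  have hΦ : ρ φ = F ^ j * ρ k := by rw [hg, map_mul, map_pow]
  have hΦi : ρ φ⁻¹ = ρ k⁻¹ * Fi := by rw [hg, mul_inv_rev, map_mul]
  have hDφ : D φ = D σ ^ j * D k := by rw [hg, map_mul, map_pow]
  refine ⟨z, hz𝕋, fun x => ?_⟩
  have e : Tq x - z x = (F ^ j) (ρ k x - x) +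
      (D σ ^ j) ((D k (ρ k⁻¹ (Fi x)) - ρ k⁻¹ (Fi x)) + (ρ k⁻¹ (Fi x) - Fi x)) := by
    rw [hTq, hzeq, hΦ, hΦi, hDφ]
    simp only [LinearMap.add_apply, Module.End.mul_apply, map_sub, map_add]
    abel
  rw [e]
  exact Submodule.add_mem _ (s59k_map_smul_top _ _ (hk₁ x))
    (s59k_map_smul_top _ _ (Submodule.add_mem _ (hk₂ _) (hki₁ _)))

end Gen

end Fermat.Agent.Lib.S59
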