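/-
Programme R (S59), node (GEN) (helper2, prefix `s59b_`): **the diamond operators form a group action**
on `F_H`, on `J_H` and on the Tate module (uniqueness of the diamond automorphisms,
`s48e_isDiamondAut_unique`, and their existence `s48wg_isDiamondAut`).
-/
import Mathlib
import Fermat.Agent.Lib.S48.WGF
import Fermat.Agent.Lib.S48.EIntH2
import Fermat.Agent.Lib.S59.BKTate

set_option autoImplicit false
set_option linter.unusedSectionVars false
set_option linter.unusedVariables false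

noncomputable section

namespace Fermat.Agent.Lib.S59

open ModularCurve AlgebraicCurve
open Fermat.Agent.Lib.S29 Fermat.Agent.Lib.S30 Fermat.Agent.Lib.S48

local notation "Qbar" => AlgebraicClosure ℚ

variable {M : ℕ} [NeZero M] {H : Subgroup (ZMod M)ˣ}

theorem s59b_diamondAut_mul (hM : 1 < M) (hneg : (-1 : (ZMod M)ˣ) ∈ H) (d d' : (ZMod M)ˣ) :
    s48k_diamondAut M H (d * d') = s48k_diamondAut M H d * s48k_diamondAut M H d' := by
  have h1 := s48wg_isDiamondAut H hM hneg d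
  have h2 := s48wg_isDiamondAut H hM hneg d'
  have h3 := s48wg_isDiamondAut H hM hneg (d * d')
  refine s48e_isDiamondAut_unique M H h3 ⟨fun y hy => ?_, fun u => ?_⟩
  · rw [AlgEquiv.mul_apply, h2.1 y hy, h1.1 y hy]
  · rw [AlgEquiv.mul_apply, h2.2 u, h1.2, mul_inv_rev, mul_assoc]

theorem s59b_diamondAut_one (hM : 1 < M) (hneg : (-1 : (ZMod M)ˣ) ∈ H) :
    s48k_diamondAut M H 1 = 1 := by
  have h3 := s48wg_isDiamondAut H hM hneg 1
  refine s48e_isDiamondAut_unique M H h3 ⟨fun y hy => rfl, fun u => ?_⟩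
  rw [AlgEquiv.one_apply, inv_one, mul_one]

/-- the diamond `⟨d⟩` as an element of the ring `AddMonoid.End J_H`. -/
abbrev s59b_DEnd (M : ℕ) [NeZero M] (H : Subgroup (ZMod M)ˣ) (d : (ZMod M)ˣ) :
    AddMonoid.End (s48k_JH M H) := s48k_diamondJ M H d

theorem s59b_diamondJ_mul (hM : 1 < M) (hneg : (-1 : (ZMod M)ˣ) ∈ H) (d d' : (ZMod M)ˣ) :
    s59b_DEnd M H (d * d') = s59b_DEnd M H d * s59b_DEnd M H d' := by
  apply AddMonoidHom.ext
  intro x
  show s48k_diamondJ M H (d * d') x = s48k_diamondJ M H d (s48k_diamondJ M H d' x)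
  rw [s48k_diamondJ_apply, s48k_diamondJ_apply, s48k_diamondJ_apply, s59b_diamondAut_mul hM hneg,
    map_mul, mul_smul]

theorem s59b_diamondJ_one (hM : 1 < M) (hneg : (-1 : (ZMod M)ˣ) ∈ H) :
    s59b_DEnd M H 1 = 1 := by
  apply AddMonoidHom.ext
  intro x
  show s48k_diamondJ M H 1 x = x
  rw [s48k_diamondJ_apply, s59b_diamondAut_one hM hneg, map_one, one_smul]

variable (p : ℕ) [Fact p.Prime]

theorem s59b_DH_eq (d : (ZMod M)ˣ) :
    s59b_DH M H p d = s30a_map (s48k_JH M H) p (s59b_DEnd M H d) := rfl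

theorem s59b_DH_mul (hM : 1 < M) (hneg : (-1 : (ZMod M)ˣ) ∈ H) (d d' : (ZMod M)ˣ) :
    s59b_DH M H p (d * d') = s59b_DH M H p d * s59b_DH M H p d' := by
  rw [s59b_DH_eq, s59b_DH_eq, s59b_DH_eq, s59b_diamondJ_mul hM hneg, map_mul]

theorem s59b_DH_one (hM : 1 < M) (hneg : (-1 : (ZMod M)ˣ) ∈ H) :
    s59b_DH M H p 1 = 1 := by
  rw [s59b_DH_eq, s59b_diamondJ_one hM hneg, map_one]

end Fermat.Agent.Lib.S59
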