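/-
Programme R (S59), node (GEN) (helper2, prefix `s59b_`): **(GEN) on the Tate module of `J_H(M)`.**

On `W := 𝒪 ⊗[ℤ_p] T_p J_H(M)` (`𝒪` a noetherian local `ℤ_p`-algebra with `p ∈ 𝔪`): every subalgebra
`𝕋'` of `End_𝒪 W` which contains the diamonds and the Hecke operators `T_ℓ` for the primes `ℓ ∤ M p`
outside a finite set `S'` contains ALL the `T_q`, `q ∤ M p` prime.

* `s59b_baseChange_quadOp` : base change of an operator relation `A² − T A + c D = 0`;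
* `s59b_DW`   : the operator-valued determinant `g ↦ ε_p(g) ⟨ε_M(g)⟩` on `W`, a continuous
                homomorphism (`s59b_DW_cont`);
* `s59b_TWop`   : `ℓ ↦ T_ℓ ⊗ 𝒪` as a function of `ℓ : ℕ`;
* **`s59b_gen_TJH`** : (GEN) on `W`.
-/
import Mathlib
import Fermat.Agent.Lib.Frobenius.Exists
import Fermat.Agent.Lib.S30.LFinal
import Fermat.Agent.Lib.S30.Cyc
import Fermat.Agent.Lib.S59.BGenAbs
import Fermat.Agent.Lib.S59.BGenCyc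
import Fermat.Agent.Lib.S59.BGenDia
import Fermat.Agent.Lib.S59.BKKinf

set_option autoImplicit false
set_option linter.unusedSectionVars false
set_option linter.unusedVariables false
set_option linter.style.haveILetI false

noncomputable section

namespace Fermat.Agent.Lib.S59

open IsLocalRing
open scoped TensorProduct
open Fermat.Agent.Lib.S29 Fermat.Agent.Lib.S30 Fermat.Agent.Lib.S48

local notation "Qbar" => AlgebraicClosure ℚ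
local notation "GQ" => (AlgebraicClosure ℚ ≃ₐ[ℚ] AlgebraicClosure ℚ)

/-- base change of an operator relation `A² − T A + c D = 0`. -/
theorem s59b_baseChange_quadOp {R : Type*} [CommRing R] (𝒪 : Type*) [CommRing 𝒪] [Algebra R 𝒪]
    {Λ : Type*} [AddCommGroup Λ] [Module R Λ] (A T D : Module.End R Λ) (c : R)
    (h : A * A - T * A + c • D = 0) :
    A.baseChange 𝒪 * A.baseChange 𝒪 - T.baseChange 𝒪 * A.baseChange 𝒪 +
      algebraMap R 𝒪 c • D.baseChange 𝒪 = 0 := by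
  have h1 := congrArg (LinearMap.baseChange 𝒪) h
  rw [LinearMap.baseChange_add, LinearMap.baseChange_sub, LinearMap.baseChange_mul,
    LinearMap.baseChange_mul, LinearMap.baseChange_smul, LinearMap.baseChange_zero] at h1
  rw [algebraMap_smul]
  exact h1

section Generic

variable {G : Type*} [Monoid G] {R : Type*} [CommRing R] {Λ : Type*} [AddCommGroup Λ] [Module R Λ]

/-- the product of a scalar character and an operator-valued homomorphism. -/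
def s59b_smulHom (c : G →* R) (δ : G →* Module.End R Λ) : G →* Module.End R Λ where
  toFun g := c g • δ g
  map_one' := by rw [map_one, map_one, one_smul]
  map_mul' g h := by rw [map_mul, map_mul, smul_mul_smul_comm]

@[simp] theorem s59b_smulHom_apply (c : G →* R) (δ : G →* Module.End R Λ) (g : G) :
    s59b_smulHom c δ g = c g • δ g := rfl

theorem s59b_baseChange_smul' (𝒪 : Type*) [CommRing 𝒪] [Algebra R 𝒪] (c : R) (f : Module.End R Λ) :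
    (c • f).baseChange 𝒪 = algebraMap R 𝒪 c • f.baseChange 𝒪 := by
  rw [LinearMap.baseChange_smul, algebraMap_smul]

/-- a scalar close to `1` times the identity is close to the identity. -/
theorem s59b_smul_one_sub_mem (𝒪 : Type*) [CommRing 𝒪] [Algebra R 𝒪] (J : Ideal 𝒪) (c : R)
    (hc : algebraMap R 𝒪 c - 1 ∈ J) (f : Module.End R Λ) (hf : f = 1) (x : 𝒪 ⊗[R] Λ) :
    ((c • f).baseChange 𝒪) x - x ∈ J • (⊤ : Submodule 𝒪 (𝒪 ⊗[R] Λ)) := by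
  subst hf
  rw [s59b_baseChange_smul', LinearMap.baseChange_one, LinearMap.smul_apply, Module.End.one_apply]
  have e : algebraMap R 𝒪 c • x - x = (algebraMap R 𝒪 c - 1) • x := by module
  rw [e]
  exact Submodule.smul_mem_smul hc Submodule.mem_top

theorem s59b_mem_of_eq {α S : Type*} [SetLike S α] (s : S) {a b : α} (h : a = b) (hb : b ∈ s) :
    a ∈ s := h ▸ hb

theorem s59b_commute_of_eq {E : Type*} [Mul E] {a b b' : E} (h : b = b') (hc : Commute a b') :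
    Commute a b := h ▸ hc

theorem s59b_quad_of_eq {E : Type*} [Ring E] {a t t' d : E} (h : t = t')
    (hq : a * a - t' * a + d = 0) : a * a - t * a + d = 0 := h ▸ hq

end Generic

section W

variable {M : ℕ} [NeZero M] {H : Subgroup (ZMod M)ˣ} (p : ℕ) [Fact p.Prime]
  (𝒪 : Type) [CommRing 𝒪] [Algebra ℤ_[p] 𝒪]

/-- the diamonds as a homomorphism. -/
def s59b_DHhom (hM : 1 < M) (hneg : (-1 : (ZMod M)ˣ) ∈ H) :
    (ZMod M)ˣ →* Module.End ℤ_[p] (s59b_TJH M H p) where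
  toFun := s59b_DH M H p
  map_one' := s59b_DH_one p hM hneg
  map_mul' := s59b_DH_mul p hM hneg

/-- the operator-valued determinant `g ↦ ε_p(g) • ⟨ε_M(g)⟩` on `T_p J_H`. -/
def s59b_D0 (hM : 1 < M) (hneg : (-1 : (ZMod M)ˣ) ∈ H) :
    GQ →* Module.End ℤ_[p] (s59b_TJH M H p) :=
  s59b_smulHom ((Units.coeHom ℤ_[p]).comp (s30c_eps p))
    ((s59b_DHhom (H := H) p hM hneg).comp (s59b_epsM M))

theorem s59b_D0_apply (hM : 1 < M) (hneg : (-1 : (ZMod M)ˣ) ∈ H) (g : GQ) :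
    s59b_D0 (H := H) p hM hneg g =
      ((s30c_eps p g : ℤ_[p]ˣ) : ℤ_[p]) • s59b_DH M H p (s59b_epsM M g) := rfl

/-- the operator-valued determinant on `𝒪 ⊗ T_p J_H`. -/
def s59b_DW (hM : 1 < M) (hneg : (-1 : (ZMod M)ˣ) ∈ H) :
    GQ →* Module.End 𝒪 (𝒪 ⊗[ℤ_[p]] s59b_TJH M H p) :=
  s30f_baseChange 𝒪 (s59b_D0 (H := H) p hM hneg)

theorem s59b_DW_apply (hM : 1 < M) (hneg : (-1 : (ZMod M)ˣ) ∈ H) (g : GQ) :
    s59b_DW (H := H) p 𝒪 hM hneg g = algebraMap ℤ_[p] 𝒪 ((s30c_eps p g : ℤ_[p]ˣ) : ℤ_[p]) •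
      (s59b_DH M H p (s59b_epsM M g)).baseChange 𝒪 :=
  s59b_baseChange_smul' 𝒪 _ _

/-- `ℓ ↦ T_ℓ ⊗ 𝒪`. -/
def s59b_TWop (M : ℕ) [NeZero M] (H : Subgroup (ZMod M)ˣ) (ℓ : ℕ) :
    Module.End 𝒪 (𝒪 ⊗[ℤ_[p]] s59b_TJH M H p) :=
  if h : ℓ.Prime ∧ ¬ ℓ ∣ M then
    haveI : NeZero ℓ := ⟨h.1.ne_zero⟩
    (s59b_TH M H p ℓ
      (ZMod.unitOfCoprime ℓ ((Nat.Prime.coprime_iff_not_dvd h.1).mpr h.2))).baseChange 𝒪
  else 0

theorem s59b_TWop_eq (ℓ : ℕ) [NeZero ℓ] (hℓ : ℓ.Prime) (hℓM : ¬ ℓ ∣ M) (ℓu : (ZMod M)ˣ)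
    (hℓu : ((ℓu : (ZMod M)ˣ) : ZMod M) = (ℓ : ZMod M)) :
    s59b_TWop p 𝒪 M H ℓ = (s59b_TH M H p ℓ ℓu).baseChange 𝒪 := by
  have hu : ZMod.unitOfCoprime ℓ ((Nat.Prime.coprime_iff_not_dvd hℓ).mpr hℓM) = ℓu := by
    apply Units.ext
    rw [ZMod.coe_unitOfCoprime, hℓu]
  subst hu
  unfold s59b_TWop
  exact dif_pos ⟨hℓ, hℓM⟩

end W

section Main

variable {M : ℕ} [NeZero M] {H : Subgroup (ZMod M)ˣ} (p : ℕ) [Fact p.Prime]
  (𝒪 : Type) [CommRing 𝒪] [Algebra ℤ_[p] 𝒪] [IsLocalRing 𝒪] [IsNoetherianRing 𝒪]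

/-- continuity of the operator-valued determinant. -/
theorem s59b_DW_cont (hM : 1 < M) (hneg : (-1 : (ZMod M)ˣ) ∈ H)
    (hp𝒪 : (p : 𝒪) ∈ maximalIdeal 𝒪) :
    GaloisActionIsAdicContinuous 𝒪 (s59b_DW (H := H) p 𝒪 hM hneg) := by
  intro n
  obtain ⟨L₁, hL₁, hM1⟩ := s59b_epsM_level M
  obtain ⟨L₂, hL₂, -, h2⟩ := s30c_cont p n
  refine ⟨L₁ ⊔ L₂, IntermediateField.finiteDimensional_sup L₁ L₂, fun σ hσ x => ?_⟩
  have e1 : s59b_epsM M σ = 1 := hM1 σ fun y hy => hσ y (le_sup_left (b := L₂) hy)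
  obtain ⟨w, hw⟩ := h2 σ fun y hy => hσ y (le_sup_right (a := L₁) hy)
  have hc : algebraMap ℤ_[p] 𝒪 ((s30c_eps p σ : ℤ_[p]ˣ) : ℤ_[p]) - 1 ∈ maximalIdeal 𝒪 ^ n := by
    have e : algebraMap ℤ_[p] 𝒪 ((s30c_eps p σ : ℤ_[p]ˣ) : ℤ_[p]) - 1 =
        (p : 𝒪) ^ n * algebraMap ℤ_[p] 𝒪 w := by
      rw [← map_one (algebraMap ℤ_[p] 𝒪), ← map_sub, hw, map_mul, map_pow, map_natCast]
    rw [e]
    exact Ideal.mul_mem_right _ _ (Ideal.pow_mem_pow hp𝒪 n)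
  have hf : s59b_DH M H p (s59b_epsM M σ) = 1 := by
    rw [e1]
    exact s59b_DH_one p hM hneg
  exact s59b_smul_one_sub_mem 𝒪 _ _ hc (s59b_DH M H p (s59b_epsM M σ)) hf x

/-- **(GEN) on `𝒪 ⊗ T_p J_H(M)`**: a subalgebra of `End_𝒪 (𝒪 ⊗ T_p J_H)` containing the diamonds and
the `T_ℓ` for the primes `ℓ ∤ M p` outside a finite set contains every `T_q`, `q ∤ M p`. -/
theorem s59b_gen_TJH (S37 : s59b_S37H M H) (hM : 1 < M) (hneg : (-1 : (ZMod M)ˣ) ∈ H)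
    (hp𝒪 : (p : 𝒪) ∈ maximalIdeal 𝒪) (S' : Finset ℕ)
    (𝕋' : Subalgebra 𝒪 (Module.End 𝒪 (𝒪 ⊗[ℤ_[p]] s59b_TJH M H p)))
    (hT : ∀ (ℓ : ℕ) [NeZero ℓ] (ℓu : (ZMod M)ˣ), ℓ.Prime → ¬ ℓ ∣ M * p → ℓ ∉ S' →
      ((ℓu : (ZMod M)ˣ) : ZMod M) = (ℓ : ZMod M) → (s59b_TH M H p ℓ ℓu).baseChange 𝒪 ∈ 𝕋')
    (hDia : ∀ d : (ZMod M)ˣ, (s59b_DH M H p d).baseChange 𝒪 ∈ 𝕋')
    (q : ℕ) [NeZero q] (qu : (ZMod M)ˣ) (hq : q.Prime) (hqMp : ¬ q ∣ M * p)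
    (hqu : ((qu : (ZMod M)ˣ) : ZMod M) = (q : ZMod M)) :
    (s59b_TH M H p q qu).baseChange 𝒪 ∈ 𝕋' := by
  have hp : p.Prime := Fact.out
  haveI : Module.Finite ℤ_[p] (s59b_TJH M H p) := s59b_TJH_finite hM hneg p
  have hMp0 : M * p ≠ 0 := Nat.mul_ne_zero (NeZero.ne M) hp.ne_zero
  -- the enlarged exceptional set
  have hS'' : ∀ ℓ : ℕ, ℓ.Prime → ℓ ∉ S' ∪ (M * p).primeFactors → ℓ ∉ S' ∧ ¬ ℓ ∣ M * p := by
    intro ℓ hℓ h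
    rw [Finset.mem_union, not_or] at h
    exact ⟨h.1, fun hd => h.2 (Nat.mem_primeFactors.mpr ⟨hℓ, hd, hMp0⟩)⟩
  have hquad : ∀ (ℓ : ℕ) [NeZero ℓ] (ℓu : (ZMod M)ˣ), ℓ.Prime → ¬ ℓ ∣ M * p →
      ((ℓu : (ZMod M)ˣ) : ZMod M) = (ℓ : ZMod M) →
      ∀ A : ValuationSubring Qbar, A.LiesOverPrime ℓ → ∀ σ : GQ, A.IsFrobeniusAt σ ℓ →
        s30f_baseChange 𝒪 (s59b_rhoH M H p) σ * s30f_baseChange 𝒪 (s59b_rhoH M H p) σ -
          (s59b_TH M H p ℓ ℓu).baseChange 𝒪 * s30f_baseChange 𝒪 (s59b_rhoH M H p) σ +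
            s59b_DW (H := H) p 𝒪 hM hneg σ = 0 := by
    intro ℓ _ ℓu hℓ hℓMp hℓu A hA σ hσ
    have hℓM : ¬ ℓ ∣ M := fun h => hℓMp (Dvd.dvd.mul_right h p)
    have hℓp : ℓ ≠ p := fun h => hℓMp (h ▸ Dvd.intro_left M rfl)
    have h1 := s59b_rhoH_frobQuad p S37 ℓ ℓu hℓ hℓMp hℓu A hA σ hσ
    have h2 := s59b_baseChange_quadOp 𝒪 _ _ _ _ h1
    have e1 : ((s30c_eps p σ : ℤ_[p]ˣ) : ℤ_[p]) = (ℓ : ℤ_[p]) := s30c_frob p ℓ hℓ hℓp A hA σ hσ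
    have e2 : s59b_epsM M σ = ℓu := by
      apply Units.ext
      rw [s59b_epsM_frob ℓ hℓ hℓM A hA σ hσ, hℓu]
    have hDWσ : s59b_DW (H := H) p 𝒪 hM hneg σ =
        algebraMap ℤ_[p] 𝒪 ((ℓ : ℕ) : ℤ_[p]) • (s59b_DH M H p ℓu).baseChange 𝒪 :=
      (s59b_DW_apply p 𝒪 hM hneg σ).trans
        (congrArg₂ (fun (c : ℤ_[p]) (d : (ZMod M)ˣ) =>
          algebraMap ℤ_[p] 𝒪 c • (s59b_DH M H p d).baseChange 𝒪) e1 e2)
    exact (congrArg (fun X => s30f_baseChange 𝒪 (s59b_rhoH M H p) σ *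
      s30f_baseChange 𝒪 (s59b_rhoH M H p) σ -
        (s59b_TH M H p ℓ ℓu).baseChange 𝒪 * s30f_baseChange 𝒪 (s59b_rhoH M H p) σ + X) hDWσ).trans h2
  obtain ⟨A, φ, hA, hφ⟩ := Fermat.Agent.Lib.Frobenius.exists_isFrobeniusAt q hq
  refine s59b_gen_abs (s30f_baseChange 𝒪 (s59b_rhoH M H p))
    (s30f_continuous_baseChange p hp𝒪 (s59b_rhoH M H p) (s59b_rhoH_cont p S37 hM hneg))
    (s59b_DW (H := H) p 𝒪 hM hneg) (s59b_DW_cont p 𝒪 hM hneg hp𝒪) (s59b_TWop p 𝒪 M H) 𝕋'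
    (S' ∪ (M * p).primeFactors) ?_ ?_ ?_ ?_ _ φ (hquad q qu hq hqMp hqu A hA φ hφ)
  · intro ℓ hℓ hℓS
    haveI : NeZero ℓ := ⟨hℓ.ne_zero⟩
    have h1 := (hS'' ℓ hℓ hℓS).1
    have h2 := (hS'' ℓ hℓ hℓS).2
    have hℓM : ¬ ℓ ∣ M := fun h => h2 (Dvd.dvd.mul_right h p)
    have hcop : Nat.Coprime ℓ M := (Nat.Prime.coprime_iff_not_dvd hℓ).mpr hℓM
    exact s59b_mem_of_eq 𝕋'
      (s59b_TWop_eq p 𝒪 ℓ hℓ hℓM (ZMod.unitOfCoprime ℓ hcop) (ZMod.coe_unitOfCoprime ℓ hcop))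
      (hT ℓ _ hℓ h2 h1 (ZMod.coe_unitOfCoprime ℓ hcop))
  · intro g
    exact s59b_mem_of_eq 𝕋' (s59b_DW_apply p 𝒪 hM hneg g) (𝕋'.smul_mem (hDia _) _)
  · intro ℓ hℓ hℓS g
    haveI : NeZero ℓ := ⟨hℓ.ne_zero⟩
    have h1 := (hS'' ℓ hℓ hℓS).1
    have h2 := (hS'' ℓ hℓ hℓS).2
    have hℓM : ¬ ℓ ∣ M := fun h => h2 (Dvd.dvd.mul_right h p)
    have hcop : Nat.Coprime ℓ M := (Nat.Prime.coprime_iff_not_dvd hℓ).mpr hℓM
    exact s59b_commute_of_eq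
      (s59b_TWop_eq p 𝒪 ℓ hℓ hℓM (ZMod.unitOfCoprime ℓ hcop) (ZMod.coe_unitOfCoprime ℓ hcop))
      (s30f_baseChange_commute 𝒪 (s59b_rhoH_comm_T p S37 ℓ _ hℓ hℓM
        (ZMod.coe_unitOfCoprime ℓ hcop) g))
  · intro ℓ hℓ hℓS P hP σ hσ
    haveI : NeZero ℓ := ⟨hℓ.ne_zero⟩
    have h1 := (hS'' ℓ hℓ hℓS).1
    have h2 := (hS'' ℓ hℓ hℓS).2
    have hℓM : ¬ ℓ ∣ M := fun h => h2 (Dvd.dvd.mul_right h p)
    have hcop : Nat.Coprime ℓ M := (Nat.Prime.coprime_iff_not_dvd hℓ).mpr hℓM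
    exact s59b_quad_of_eq
      (s59b_TWop_eq p 𝒪 ℓ hℓ hℓM (ZMod.unitOfCoprime ℓ hcop) (ZMod.coe_unitOfCoprime ℓ hcop))
      (hquad ℓ _ hℓ h2 (ZMod.coe_unitOfCoprime ℓ hcop) P hP σ hσ)

end Main

end Fermat.Agent.Lib.S59
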