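/-
Programme R (S59), node (GEN) (helper2, prefix `s59b_`): **(GEN) on `H_par(Γ_H, 𝒪)`**, by transfer
from the Tate module along the Hecke-equivariant injection `H_par(Γ_H, 𝒪) ↪ 𝒪 ⊗ T_p J_H`
(`∑ cᵢ • castB bᵢ ↦ ∑ cᵢ ⊗ ι bᵢ`).

* `s59b_Compat`, `s59b_pullSub` : the subalgebra of `End_𝒪 (𝒪 ⊗ Λ)` of the operators compatible with
  an operator of a given subalgebra `𝕋'` of `End_𝒪 H_par(Γ, 𝒪)`;
* `s59b_compat_datum` : a Hecke datum intertwined by `ι` with `TΛ` is compatible with `TΛ ⊗ 𝒪`;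
* `s59b_compat_unique` : compatibility determines the operator on `H_par`;
* **`s59b_gen_Hpar`** : every subalgebra of `End_𝒪 H_par(Γ_H, 𝒪)` containing the diamonds and the
  `T_ℓ`, `ℓ ∤ M p` outside a finite set, contains every `T_q`, `q ∤ M p`.
-/
import Mathlib
import Fermat.Agent.Lib.S59.BKEig
import Fermat.Agent.Lib.S59.BGenTate

set_option autoImplicit false
set_option linter.unusedSectionVars false
set_option linter.unusedVariables false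
set_option linter.style.haveILetI false

open AlgebraicCurve ModularCurve CongruenceSubgroup
open scoped TensorProduct MatrixGroups

namespace Fermat.Agent.Lib.S59

open Fermat.Agent.Lib.S29 Fermat.Agent.Lib.S30 Fermat.Agent.Lib.S48
open Matrix IsLocalRing

noncomputable section

section Abs

variable {Γ : Subgroup SL(2, ℤ)} {ι : Type*} [Fintype ι] [DecidableEq ι]
  (b : Module.Basis ι ℤ (s48h_M Γ)) (p : ℕ) [Fact p.Prime]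
  {Λ : Type*} [AddCommGroup Λ] [Module ℤ_[p] Λ] (iota : ↥(s48h_M Γ) →ₗ[ℤ] Λ)
  (𝒪 : Type*) [CommRing 𝒪] [IsDomain 𝒪] [CharZero 𝒪] [Algebra ℤ_[p] 𝒪]

/-- the vector of `H_par(Γ, 𝒪)` with coefficient vector `c`. -/
def s59b_Kvec (c : ι → 𝒪) : ↥(s48h_Hpar 𝒪 Γ 𝒪) :=
  ⟨∑ i, c i • s48h_castB b 𝒪 i, Submodule.sum_mem _ fun i _ =>
    Submodule.smul_mem _ _ (s48h_cast_mem_Hpar 𝒪 𝒪 (b i).2)⟩

theorem s59b_Kvec_coe (c : ι → 𝒪) :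
    ((s59b_Kvec b 𝒪 c : ↥(s48h_Hpar 𝒪 Γ 𝒪)) : Additive Γ →+ 𝒪) = ∑ i, c i • s48h_castB b 𝒪 i := rfl

theorem s59b_Kvec_add (c c' : ι → 𝒪) :
    s59b_Kvec b 𝒪 (c + c') = s59b_Kvec b 𝒪 c + s59b_Kvec b 𝒪 c' := by
  apply Subtype.ext
  rw [Submodule.coe_add, s59b_Kvec_coe, s59b_Kvec_coe, s59b_Kvec_coe, ← Finset.sum_add_distrib]
  refine Finset.sum_congr rfl fun i _ => ?_
  rw [Pi.add_apply, add_smul]

theorem s59b_Kvec_smul (r : 𝒪) (c : ι → 𝒪) :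
    s59b_Kvec b 𝒪 (r • c) = r • s59b_Kvec b 𝒪 c := by
  apply Subtype.ext
  rw [Submodule.coe_smul, s59b_Kvec_coe, s59b_Kvec_coe, Finset.smul_sum]
  refine Finset.sum_congr rfl fun i _ => ?_
  rw [Pi.smul_apply, smul_eq_mul, mul_smul]

theorem s59b_eigVec_add (c c' : ι → 𝒪) :
    s59b_eigVec b p iota 𝒪 (c + c') = s59b_eigVec b p iota 𝒪 c + s59b_eigVec b p iota 𝒪 c' := by
  unfold s59b_eigVec
  rw [← Finset.sum_add_distrib]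
  refine Finset.sum_congr rfl fun i _ => ?_
  rw [Pi.add_apply, TensorProduct.add_tmul]

theorem s59b_eigVec_smul (r : 𝒪) (c : ι → 𝒪) :
    s59b_eigVec b p iota 𝒪 (r • c) = r • s59b_eigVec b p iota 𝒪 c := by
  unfold s59b_eigVec
  rw [Finset.smul_sum]
  refine Finset.sum_congr rfl fun i _ => ?_
  rw [Pi.smul_apply, smul_eq_mul, TensorProduct.smul_tmul', smul_eq_mul]

/-- every vector of `H_par(Γ, 𝒪)` is a `s59b_Kvec`. -/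
theorem s59b_exists_Kvec [Group.FG Γ] (v : ↥(s48h_Hpar 𝒪 Γ 𝒪)) : ∃ c : ι → 𝒪, v = s59b_Kvec b 𝒪 c := by
  obtain ⟨c, hc⟩ := s59b_exists_coeffs b 𝒪 (v : Additive Γ →+ 𝒪) v.2
  exact ⟨c, Subtype.ext hc⟩

/-- `c ↦ ∑ cᵢ ⊗ ι bᵢ` is injective. -/
theorem s59b_eigVec_injective (hli : LinearIndependent ℤ_[p] (fun i => iota (b i)))
    {c c' : ι → 𝒪} (h : s59b_eigVec b p iota 𝒪 c = s59b_eigVec b p iota 𝒪 c') : c = c' := by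
  by_contra hne
  have hsub : c - c' ≠ 0 := sub_ne_zero.mpr hne
  apply s59b_eigVec_ne_zero b p iota 𝒪 hli (c - c') hsub
  have e : c = (c - c') + c' := by abel
  have h2 := s59b_eigVec_add b p iota 𝒪 (c - c') c'
  rw [← e, h] at h2
  exact (add_eq_right.mp h2.symm)

/-- compatibility of an operator on `𝒪 ⊗ Λ` with an operator on `H_par(Γ, 𝒪)`. -/
def s59b_Compat (A : Module.End 𝒪 (𝒪 ⊗[ℤ_[p]] Λ)) (B : Module.End 𝒪 (s48h_Hpar 𝒪 Γ 𝒪)) : Prop :=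
  ∀ c : ι → 𝒪, ∃ c' : ι → 𝒪, B (s59b_Kvec b 𝒪 c) = s59b_Kvec b 𝒪 c' ∧
    A (s59b_eigVec b p iota 𝒪 c) = s59b_eigVec b p iota 𝒪 c'

/-- the operators on `𝒪 ⊗ Λ` compatible with an element of `𝕋'`. -/
def s59b_pullSub (𝕋' : Subalgebra 𝒪 (Module.End 𝒪 (s48h_Hpar 𝒪 Γ 𝒪))) :
    Subalgebra 𝒪 (Module.End 𝒪 (𝒪 ⊗[ℤ_[p]] Λ)) where
  carrier := {A | ∃ B ∈ 𝕋', s59b_Compat b p iota 𝒪 A B}
  mul_mem' := by
    rintro A₁ A₂ ⟨B₁, hB₁, h₁⟩ ⟨B₂, hB₂, h₂⟩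
    refine ⟨B₁ * B₂, 𝕋'.mul_mem hB₁ hB₂, fun c => ?_⟩
    obtain ⟨c', e1, e2⟩ := h₂ c
    obtain ⟨c'', e3, e4⟩ := h₁ c'
    refine ⟨c'', ?_, ?_⟩
    · rw [Module.End.mul_apply, e1, e3]
    · rw [Module.End.mul_apply, e2, e4]
  add_mem' := by
    rintro A₁ A₂ ⟨B₁, hB₁, h₁⟩ ⟨B₂, hB₂, h₂⟩
    refine ⟨B₁ + B₂, 𝕋'.add_mem hB₁ hB₂, fun c => ?_⟩
    obtain ⟨c₁, e1, e2⟩ := h₁ c
    obtain ⟨c₂, e3, e4⟩ := h₂ c
    refine ⟨c₁ + c₂, ?_, ?_⟩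
    · rw [LinearMap.add_apply, e1, e3, s59b_Kvec_add]
    · rw [LinearMap.add_apply, e2, e4, s59b_eigVec_add]
  algebraMap_mem' := by
    intro r
    refine ⟨algebraMap 𝒪 _ r, 𝕋'.algebraMap_mem r, fun c => ⟨r • c, ?_, ?_⟩⟩
    · rw [Module.algebraMap_end_apply, s59b_Kvec_smul]
    · rw [Module.algebraMap_end_apply, s59b_eigVec_smul]

theorem s59b_mem_pullSub (𝕋' : Subalgebra 𝒪 (Module.End 𝒪 (s48h_Hpar 𝒪 Γ 𝒪)))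
    {A : Module.End 𝒪 (𝒪 ⊗[ℤ_[p]] Λ)} :
    A ∈ s59b_pullSub b p iota 𝒪 𝕋' ↔ ∃ B ∈ 𝕋', s59b_Compat b p iota 𝒪 A B := Iff.rfl

/-- a Hecke datum intertwined by `ι` with `TΛ` is compatible with `TΛ ⊗ 𝒪`. -/
theorem s59b_compat_datum {X : Type*} [Fintype X] (D : s48h_MatDatum Γ X) (TΛ : Module.End ℤ_[p] Λ)
    (hint : ∀ φ : ↥(s48h_M Γ), iota (D.heckeHpar ℤ φ) = TΛ (iota φ)) :
    s59b_Compat b p iota 𝒪 (TΛ.baseChange 𝒪) (D.heckeHpar 𝒪) := by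
  classical
  intro c
  refine ⟨(s48h_heckeMat b D).map (Int.cast : ℤ → 𝒪) *ᵥ c, ?_, ?_⟩
  · apply Subtype.ext
    rw [s48h_MatDatum.heckeHpar_coe, s59b_Kvec_coe, s59b_Kvec_coe, s48h_heckeHom_sum_castB]
  · have hT : ∀ j, TΛ (iota (b j)) =
        ∑ i, ((s48h_heckeMat b D).map (Int.cast : ℤ → ℤ_[p])) i j • iota (b i) := by
      intro j
      rw [← hint (b j)]
      have h1 : D.heckeHpar ℤ (b j) = ∑ i, s48h_heckeMat b D i j • b i := by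
        have h := b.sum_repr (D.heckeHpar ℤ (b j))
        rw [← h]
        refine Finset.sum_congr rfl fun i _ => ?_
        rw [s48h_heckeMat, LinearMap.toMatrix_apply]
      rw [h1, map_sum]
      refine Finset.sum_congr rfl fun i _ => ?_
      rw [map_zsmul, Matrix.map_apply, Int.cast_smul_eq_zsmul]
    rw [s59b_eigVec, s30e_baseChange_sum TΛ (fun i => iota (b i)) _ hT c]
    have hmat : ((s48h_heckeMat b D).map (Int.cast : ℤ → ℤ_[p])).map (algebraMap ℤ_[p] 𝒪) =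
        (s48h_heckeMat b D).map (Int.cast : ℤ → 𝒪) := by
      ext i j
      simp
    rw [hmat]
    rfl

/-- compatibility (with an injective `ι ⊗ 𝒪`) determines the operator on `H_par`. -/
theorem s59b_compat_unique [Group.FG Γ] (hli : LinearIndependent ℤ_[p] (fun i => iota (b i)))
    {A : Module.End 𝒪 (𝒪 ⊗[ℤ_[p]] Λ)} {B B' : Module.End 𝒪 (s48h_Hpar 𝒪 Γ 𝒪)}
    (h : s59b_Compat b p iota 𝒪 A B) (h' : s59b_Compat b p iota 𝒪 A B') : B = B' := by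
  apply LinearMap.ext
  intro v
  obtain ⟨c, rfl⟩ := s59b_exists_Kvec b 𝒪 v
  obtain ⟨c₁, e1, e2⟩ := h c
  obtain ⟨c₂, e3, e4⟩ := h' c
  rw [e1, e3, s59b_eigVec_injective b p iota 𝒪 hli (e2.symm.trans e4)]

end Abs

section Conc

variable {M : ℕ} [NeZero M] {H : Subgroup (ZMod M)ˣ} (p : ℕ) [Fact p.Prime]
  (𝒪 : Type) [CommRing 𝒪] [IsDomain 𝒪] [CharZero 𝒪] [Algebra ℤ_[p] 𝒪] [IsLocalRing 𝒪]
  [IsNoetherianRing 𝒪]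

/-- **(GEN) on `H_par(Γ_H, 𝒪)`.**  A subalgebra of `End_𝒪 H_par(Γ_H(M), 𝒪)` which contains all the
diamond operators and the Hecke operators `T_ℓ` for the primes `ℓ ∤ M p` outside a finite set `S'`
contains every `T_q`, `q ∤ M p` prime. -/
theorem s59b_gen_Hpar (S37 : s59b_S37H M H) (hM : 1 < M) (hneg : (-1 : (ZMod M)ˣ) ∈ H)
    (hp𝒪 : (p : 𝒪) ∈ maximalIdeal 𝒪) (S' : Finset ℕ)
    (𝕋' : Subalgebra 𝒪 (Module.End 𝒪 (s48h_Hpar 𝒪 (s48h_GammaH M H) 𝒪)))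
    (hT : ∀ (ℓ : ℕ) [Fact ℓ.Prime] (hℓM : ¬ ℓ ∣ M) (σℓ : SL(2, ℤ)) (hσℓ : σℓ ∈ Gamma0 M)
      (hσℓ11 : ((σℓ 1 1 : ℤ) : ZMod M) = (ℓ : ZMod M)), ¬ ℓ ∣ M * p → ℓ ∉ S' →
        (s48h_TpDatum H hℓM σℓ hσℓ hσℓ11).heckeHpar 𝒪 ∈ 𝕋')
    (hDia : ∀ (σ : SL(2, ℤ)) (hσ : σ ∈ Gamma0 M), (s48h_diamondDatum H σ hσ).heckeHpar 𝒪 ∈ 𝕋')
    (q : ℕ) [Fact q.Prime] (hqM : ¬ q ∣ M) (hqMp : ¬ q ∣ M * p) (σq : SL(2, ℤ))
    (hσq : σq ∈ Gamma0 M) (hσq11 : ((σq 1 1 : ℤ) : ZMod M) = (q : ZMod M)) :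
    (s48h_TpDatum H hqM σq hσq hσq11).heckeHpar 𝒪 ∈ 𝕋' := by
  classical
  have hq : q.Prime := Fact.out
  haveI : NeZero q := ⟨hq.ne_zero⟩
  let b := Module.finBasis ℤ ↥(s48h_M (s48h_GammaH M H))
  have hli := s59b_iotaH_linearIndependent hM hneg p b
  have hcop : Nat.Coprime q M := (Nat.Prime.coprime_iff_not_dvd hq).mpr hqM
  have hqu : (((ZMod.unitOfCoprime q hcop : (ZMod M)ˣ)) : ZMod M) = (q : ZMod M) :=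
    ZMod.coe_unitOfCoprime q hcop
  have hW := s59b_gen_TJH p 𝒪 S37 hM hneg hp𝒪 S'
    (s59b_pullSub b p (s59b_iotaH hM hneg p) 𝒪 𝕋') ?_ ?_ q (ZMod.unitOfCoprime q hcop) hq hqMp hqu
  · obtain ⟨B, hB, hcompat⟩ := hW
    have hcompat' := s59b_compat_datum b p (s59b_iotaH hM hneg p) 𝒪
      (s48h_TpDatum H hqM σq hσq hσq11) (s59b_TH M H p q (ZMod.unitOfCoprime q hcop))
      (fun φ => s59b_iotaH_Tp hM hneg p q hqM _ hqu σq hσq hσq11 φ)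
    rw [← s59b_compat_unique b p (s59b_iotaH hM hneg p) 𝒪 hli hcompat hcompat']
    exact hB
  · intro ℓ _ ℓu hℓ hℓMp hℓS hℓu
    haveI : Fact ℓ.Prime := ⟨hℓ⟩
    have hℓM : ¬ ℓ ∣ M := fun h => hℓMp (Dvd.dvd.mul_right h p)
    obtain ⟨σℓ, hσℓ, hσℓ11⟩ := s48wg_exists_sigma (dvd_refl M) ℓu
    have hσℓ11' : ((σℓ 1 1 : ℤ) : ZMod M) = (ℓ : ZMod M) := hσℓ11.trans hℓu
    exact ⟨_, hT ℓ hℓM σℓ hσℓ hσℓ11' hℓMp hℓS,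
      s59b_compat_datum b p (s59b_iotaH hM hneg p) 𝒪 (s48h_TpDatum H hℓM σℓ hσℓ hσℓ11')
        (s59b_TH M H p ℓ ℓu)
        (fun φ => s59b_iotaH_Tp hM hneg p ℓ hℓM ℓu hℓu σℓ hσℓ hσℓ11' φ)⟩
  · intro d
    obtain ⟨σ, hσ, hσd⟩ := s48wg_exists_sigma (dvd_refl M) d
    exact ⟨_, hDia σ hσ,
      s59b_compat_datum b p (s59b_iotaH hM hneg p) 𝒪 (s48h_diamondDatum H σ hσ)
        (s59b_DH M H p d) (fun φ => s59b_iotaH_diamond hM hneg p d σ hσ hσd φ)⟩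

/-- the good Hecke operators (`ℓ ∤ M p`, `ℓ ∉ S'`) and the diamonds on `H_par(Γ_H, 𝒪)`. -/
def s59b_genSet (M : ℕ) [NeZero M] (H : Subgroup (ZMod M)ˣ) (S' : Finset ℕ) :
    Set (Module.End 𝒪 (s48h_Hpar 𝒪 (s48h_GammaH M H) 𝒪)) :=
  {t | ∃ (ℓ : ℕ) (hℓ : ℓ.Prime) (hℓM : ¬ ℓ ∣ M) (σℓ : SL(2, ℤ)) (hσℓ : σℓ ∈ Gamma0 M)
      (hσℓ11 : ((σℓ 1 1 : ℤ) : ZMod M) = (ℓ : ZMod M)), ¬ ℓ ∣ M * p ∧ ℓ ∉ S' ∧
        t = (haveI : Fact ℓ.Prime := ⟨hℓ⟩; (s48h_TpDatum H hℓM σℓ hσℓ hσℓ11).heckeHpar 𝒪)} ∪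
    {t | ∃ (σ : SL(2, ℤ)) (hσ : σ ∈ Gamma0 M), t = (s48h_diamondDatum H σ hσ).heckeHpar 𝒪}

/-- **(GEN), `Algebra.adjoin` form.** -/
theorem s59b_gen_Hpar_adjoin (S37 : s59b_S37H M H) (hM : 1 < M) (hneg : (-1 : (ZMod M)ˣ) ∈ H)
    (hp𝒪 : (p : 𝒪) ∈ maximalIdeal 𝒪) (S' : Finset ℕ)
    (q : ℕ) [Fact q.Prime] (hqM : ¬ q ∣ M) (hqMp : ¬ q ∣ M * p) (σq : SL(2, ℤ))
    (hσq : σq ∈ Gamma0 M) (hσq11 : ((σq 1 1 : ℤ) : ZMod M) = (q : ZMod M)) :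
    (s48h_TpDatum H hqM σq hσq hσq11).heckeHpar 𝒪 ∈
      Algebra.adjoin 𝒪 (s59b_genSet p 𝒪 M H S') :=
  s59b_gen_Hpar p 𝒪 S37 hM hneg hp𝒪 S' (Algebra.adjoin 𝒪 (s59b_genSet p 𝒪 M H S'))
    (fun ℓ inst hℓM σℓ hσℓ hσℓ11 hℓMp hℓS => Algebra.subset_adjoin
      (Or.inl ⟨ℓ, inst.out, hℓM, σℓ, hσℓ, hσℓ11, hℓMp, hℓS, rfl⟩))
    (fun σ hσ => Algebra.subset_adjoin (Or.inr ⟨σ, hσ, rfl⟩)) q hqM hqMp σq hσq hσq11

end Conc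

end

end Fermat.Agent.Lib.S59
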