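/-
Programme (R) = S59, node (E) module half (helper8), file 65: **topological nilpotency on the part
of an idempotent, and the comparison of two Hecke idempotents** (abstract; Mathlib + TPolyAct).

`s59t_TopNil ε A`: `A ^ n` maps `ε Z` into `𝔪 Z` for some `n`.
* `s59t_sub_C_eval_mem_span`: `t - C (t(c)) ∈ (X_i - c_i)_i`;
* `s59t_evalIdeal_le_of_gens`: an ideal containing `𝔪` and the `X_i - c_i` contains `evalIdeal c`;
* `s59t_topNil_poly`: if `ε` commutes with the `op i` and every `op i - c i` is topologically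
  nilpotent on `ε Z`, so is `t(op)` for every `t ∈ evalIdeal c`;
* `s59t_idem_zero_of_range_le`: an idempotent with image in `𝔪 Z` is zero (`Z` finite);
* **`s59t_idem_mul_compl_eq_zero`**: `ε₀ (1 - e₁(op)) = 0` if `1 - e₁ ∈ evalIdeal c` and the
  `op i - c i` are topologically nilpotent on `ε₀ Z`;
* **`s59t_idem_eq_of_topNil`**: two such idempotents are equal.
-/
import Mathlib
import Fermat.Agent.Lib.S59.TPolyAct

set_option autoImplicit false
set_option linter.unusedSectionVars false
set_option linter.style.haveILetI false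

open IsLocalRing

noncomputable section

namespace Fermat.Agent.Lib.S59

section Span

variable {𝒪 : Type*} [CommRing 𝒪] {I : Type*}

/-- `t - C (t(c))` lies in the ideal generated by the `X_i - c_i`. -/
theorem s59t_sub_C_eval_mem_span (c : I → 𝒪) (t : MvPolynomial I 𝒪) :
    t - MvPolynomial.C (MvPolynomial.eval c t) ∈
      Ideal.span (Set.range fun i : I => MvPolynomial.X i - MvPolynomial.C (c i)) := by
  induction t using MvPolynomial.induction_on with
  | C r =>
    rw [MvPolynomial.eval_C, sub_self]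
    exact Ideal.zero_mem _
  | add s t hs ht =>
    have e : s + t - MvPolynomial.C (MvPolynomial.eval c (s + t)) =
        (s - MvPolynomial.C (MvPolynomial.eval c s)) +
          (t - MvPolynomial.C (MvPolynomial.eval c t)) := by
      rw [map_add, map_add]
      ring
    rw [e]
    exact Ideal.add_mem _ hs ht
  | mul_X s i hs =>
    have e : s * MvPolynomial.X i - MvPolynomial.C (MvPolynomial.eval c (s * MvPolynomial.X i)) =
        s * (MvPolynomial.X i - MvPolynomial.C (c i)) +
          MvPolynomial.C (c i) * (s - MvPolynomial.C (MvPolynomial.eval c s)) := by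
      rw [map_mul, MvPolynomial.eval_X, map_mul]
      ring
    rw [e]
    exact Ideal.add_mem _ (Ideal.mul_mem_left _ _ (Ideal.subset_span ⟨i, rfl⟩))
      (Ideal.mul_mem_left _ _ hs)

variable [IsLocalRing 𝒪]

/-- an ideal containing `𝔪` and all `X_i - c_i` contains the evaluation ideal. -/
theorem s59t_evalIdeal_le_of_gens (c : I → 𝒪) (K : Ideal (MvPolynomial I 𝒪))
    (hm : ∀ r ∈ maximalIdeal 𝒪, MvPolynomial.C r ∈ K)
    (hX : ∀ i, MvPolynomial.X i - MvPolynomial.C (c i) ∈ K) : s59t_evalIdeal c ≤ K := by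
  intro t ht
  have h1 : MvPolynomial.eval c t ∈ maximalIdeal 𝒪 := by
    by_contra h
    rw [mem_maximalIdeal, mem_nonunits_iff, not_not] at h
    exact (s59t_not_mem_evalIdeal c t).mpr h ht
  have h2 : t - MvPolynomial.C (MvPolynomial.eval c t) ∈ K := by
    have h3 : Ideal.span (Set.range fun i : I => MvPolynomial.X i - MvPolynomial.C (c i)) ≤ K := by
      rw [Ideal.span_le]
      rintro _ ⟨i, rfl⟩
      exact hX i
    exact h3 (s59t_sub_C_eval_mem_span c t)
  have e : t = (t - MvPolynomial.C (MvPolynomial.eval c t)) +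
      MvPolynomial.C (MvPolynomial.eval c t) := by ring
  rw [e]
  exact Ideal.add_mem _ h2 (hm _ h1)

end Span

section TopNil

variable {𝒪 : Type*} [CommRing 𝒪] [IsLocalRing 𝒪] {Z : Type*} [AddCommGroup Z] [Module 𝒪 Z]

/-- `A` is topologically nilpotent on the image of `ε`. -/
def s59t_TopNil (ε A : Module.End 𝒪 Z) : Prop :=
  ∃ n : ℕ, ∀ y : Z, (A ^ n) (ε y) ∈ (maximalIdeal 𝒪 • ⊤ : Submodule 𝒪 Z)

/-- a linear map preserves `𝔪 Z`. -/
theorem s59t_end_smul_top (f : Module.End 𝒪 Z) {y : Z}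
    (hy : y ∈ (maximalIdeal 𝒪 • ⊤ : Submodule 𝒪 Z)) :
    f y ∈ (maximalIdeal 𝒪 • ⊤ : Submodule 𝒪 Z) := by
  refine Submodule.smul_induction_on hy (fun r hr z _ => ?_) (fun z z' hz hz' => ?_)
  · rw [map_smul]
    exact Submodule.smul_mem_smul hr Submodule.mem_top
  · rw [map_add]
    exact Submodule.add_mem _ hz hz'

variable {I : Type*} (op : I → Module.End 𝒪 Z) (hc : ∀ i j, op i * op j = op j * op i)

/-- the ideal of the polynomials which map `ε Z` into `𝔪 Z`. -/
def s59t_nilIdeal (ε : Module.End 𝒪 Z) : Ideal (MvPolynomial I 𝒪) where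
  carrier := {t | ∀ y : Z, s59t_polyAct op hc t (ε y) ∈ (maximalIdeal 𝒪 • ⊤ : Submodule 𝒪 Z)}
  add_mem' := by
    intro s t hs ht y
    rw [map_add, LinearMap.add_apply]
    exact Submodule.add_mem _ (hs y) (ht y)
  zero_mem' := by
    intro y
    rw [map_zero, LinearMap.zero_apply]
    exact Submodule.zero_mem _
  smul_mem' := by
    intro s t ht y
    rw [smul_eq_mul, map_mul, Module.End.mul_apply]
    exact s59t_end_smul_top _ (ht y)

theorem s59t_mem_nilIdeal (ε : Module.End 𝒪 Z) (t : MvPolynomial I 𝒪) :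
    t ∈ s59t_nilIdeal op hc ε ↔
      ∀ y : Z, s59t_polyAct op hc t (ε y) ∈ (maximalIdeal 𝒪 • ⊤ : Submodule 𝒪 Z) := Iff.rfl

/-- **topological nilpotency of the generators implies that of the whole evaluation ideal.** -/
theorem s59t_topNil_poly (ε : Module.End 𝒪 Z) (c : I → 𝒪)
    (h : ∀ i, s59t_TopNil ε (op i - c i • (1 : Module.End 𝒪 Z)))
    (t : MvPolynomial I 𝒪) (ht : t ∈ s59t_evalIdeal c) :
    s59t_TopNil ε (s59t_polyAct op hc t) := by
  have hle : s59t_evalIdeal c ≤ (s59t_nilIdeal op hc ε).radical := by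
    refine s59t_evalIdeal_le_of_gens c _ (fun r hr => Ideal.le_radical ?_) (fun i => ?_)
    · intro y
      rw [s59t_polyAct_C, LinearMap.smul_apply, Module.End.one_apply]
      exact Submodule.smul_mem_smul hr Submodule.mem_top
    · obtain ⟨n, hn⟩ := h i
      refine ⟨n, fun y => ?_⟩
      rw [map_pow, map_sub, s59t_polyAct_X, s59t_polyAct_C]
      exact hn y
  obtain ⟨n, hn⟩ := hle ht
  refine ⟨n, fun y => ?_⟩
  have := hn y
  rwa [map_pow] at this

end TopNil

section Idem

variable {𝒪 : Type*} [CommRing 𝒪] [IsLocalRing 𝒪] {Z : Type*} [AddCommGroup Z] [Module 𝒪 Z]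
  [Module.Finite 𝒪 Z]

/-- an idempotent with image in `𝔪 Z` is zero. -/
theorem s59t_idem_zero_of_range_le (P : Module.End 𝒪 Z) (hP : P * P = P)
    (h : ∀ y : Z, P y ∈ (maximalIdeal 𝒪 • ⊤ : Submodule 𝒪 Z)) : P = 0 := by
  have hfg : (LinearMap.range P).FG := by
    rw [← Submodule.map_top]
    exact Submodule.FG.map _ Module.Finite.fg_top
  have hle : LinearMap.range P ≤ maximalIdeal 𝒪 • LinearMap.range P := by
    rintro _ ⟨y, rfl⟩
    have h1 : P y = P (P y) := by rw [← Module.End.mul_apply, hP]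
    rw [h1]
    have h2 := h y
    refine Submodule.smul_induction_on h2 (fun r hr z _ => ?_) (fun z z' hz hz' => ?_)
    · rw [map_smul]
      exact Submodule.smul_mem_smul hr ⟨z, rfl⟩
    · rw [map_add]
      exact Submodule.add_mem _ hz hz'
  have h0 : LinearMap.range P = ⊥ :=
    Submodule.eq_bot_of_le_smul_of_le_jacobson_bot _ _ hfg hle
      (by rw [jacobson_eq_maximalIdeal ⊥ bot_ne_top])
  refine LinearMap.ext fun y => ?_
  have : P y ∈ LinearMap.range P := ⟨y, rfl⟩
  rw [h0, Submodule.mem_bot] at this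
  rw [this, LinearMap.zero_apply]

variable {I : Type*} (op : I → Module.End 𝒪 Z) (hc : ∀ i j, op i * op j = op j * op i)

/-- **`ε₀ (1 - e₁(op)) = 0`** if `1 - e₁ ∈ evalIdeal c` and every `op i - c i` is topologically
nilpotent on `ε₀ Z`. -/
theorem s59t_idem_mul_compl_eq_zero (ε₀ : Module.End 𝒪 Z) (hε₀ : ε₀ * ε₀ = ε₀)
    (hcomm : ∀ i, ε₀ * op i = op i * ε₀) (c : I → 𝒪)
    (h : ∀ i, s59t_TopNil ε₀ (op i - c i • (1 : Module.End 𝒪 Z)))
    (e₁ : MvPolynomial I 𝒪) (h1 : 1 - e₁ ∈ s59t_evalIdeal c)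
    (he₁ : s59t_polyAct op hc e₁ * s59t_polyAct op hc e₁ = s59t_polyAct op hc e₁) :
    ε₀ = s59t_polyAct op hc e₁ * ε₀ := by
  set ε₁ := s59t_polyAct op hc e₁ with hε₁
  have hcomm' : ∀ t : MvPolynomial I 𝒪, ε₀ * s59t_polyAct op hc t = s59t_polyAct op hc t * ε₀ := by
    intro t
    refine LinearMap.ext fun z => ?_
    rw [Module.End.mul_apply, Module.End.mul_apply]
    exact s59t_polyAct_commute op hc ε₀ (fun i z => by
      rw [← Module.End.mul_apply, hcomm, Module.End.mul_apply]) t z
  obtain ⟨n, hn⟩ := s59t_topNil_poly op hc ε₀ c h (1 - e₁) h1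
  have hact : s59t_polyAct op hc (1 - e₁) = 1 - ε₁ := by rw [map_sub, map_one]
  have hidem : (1 - ε₁) * (1 - ε₁) = 1 - ε₁ := by
    rw [mul_sub, mul_one, sub_mul, one_mul, he₁, sub_self, sub_zero]
  have hpow : ∀ m : ℕ, (1 - ε₁) ^ (m + 1) = 1 - ε₁ := by
    intro m
    induction m with
    | zero => rw [zero_add, pow_one]
    | succ m ih => rw [pow_succ, ih, hidem]
  have hP : ∀ y : Z, ((1 - ε₁) * ε₀) y ∈ (maximalIdeal 𝒪 • ⊤ : Submodule 𝒪 Z) := by
    intro y
    rw [Module.End.mul_apply]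
    rcases n with _ | m
    · have := hn y
      rw [pow_zero, Module.End.one_apply] at this
      exact s59t_end_smul_top _ this
    · have := hn y
      rwa [hact, hpow] at this
  have hcomm1 : ε₀ * (1 - ε₁) = (1 - ε₁) * ε₀ := by
    rw [mul_sub, mul_one, sub_mul, one_mul, hcomm' e₁]
  have hPid : ((1 - ε₁) * ε₀) * ((1 - ε₁) * ε₀) = (1 - ε₁) * ε₀ := by
    rw [mul_assoc, ← mul_assoc ε₀, hcomm1, mul_assoc, hε₀, ← mul_assoc, hidem]
  have h0 := s59t_idem_zero_of_range_le _ hPid hP
  rw [sub_mul, one_mul, sub_eq_zero] at h0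
  exact h0

/-- **two Hecke idempotents which are topologically nilpotent on each other are equal.** -/
theorem s59t_idem_eq_of_topNil {I' : Type*} (op' : I' → Module.End 𝒪 Z)
    (hc' : ∀ i j, op' i * op' j = op' j * op' i)
    (hcc : ∀ i j, op i * op' j = op' j * op i)
    (c : I → 𝒪) (c' : I' → 𝒪)
    (e : MvPolynomial I 𝒪) (h1 : 1 - e ∈ s59t_evalIdeal c)
    (he : s59t_polyAct op hc e * s59t_polyAct op hc e = s59t_polyAct op hc e)
    (e' : MvPolynomial I' 𝒪) (h1' : 1 - e' ∈ s59t_evalIdeal c')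
    (he' : s59t_polyAct op' hc' e' * s59t_polyAct op' hc' e' = s59t_polyAct op' hc' e')
    (h : ∀ i, s59t_TopNil (s59t_polyAct op' hc' e') (op i - c i • (1 : Module.End 𝒪 Z)))
    (h' : ∀ j, s59t_TopNil (s59t_polyAct op hc e) (op' j - c' j • (1 : Module.End 𝒪 Z))) :
    s59t_polyAct op hc e = s59t_polyAct op' hc' e' := by
  have hA : ∀ i, s59t_polyAct op' hc' e' * op i = op i * s59t_polyAct op' hc' e' := by
    intro i
    refine LinearMap.ext fun z => ?_
    rw [Module.End.mul_apply, Module.End.mul_apply]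
    exact (s59t_polyAct_commute op' hc' (op i) (fun j z => by
      rw [← Module.End.mul_apply, hcc, Module.End.mul_apply]) e' z).symm
  have hB : ∀ j, s59t_polyAct op hc e * op' j = op' j * s59t_polyAct op hc e := by
    intro j
    refine LinearMap.ext fun z => ?_
    rw [Module.End.mul_apply, Module.End.mul_apply]
    exact (s59t_polyAct_commute op hc (op' j) (fun i z => by
      rw [← Module.End.mul_apply, ← hcc, Module.End.mul_apply]) e z).symm
  have k1 := s59t_idem_mul_compl_eq_zero op hc (s59t_polyAct op' hc' e') he' hA c h e h1 he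
  have k2 := s59t_idem_mul_compl_eq_zero op' hc' (s59t_polyAct op hc e) he hB c' h' e' h1' he'
  have hcm : s59t_polyAct op hc e * s59t_polyAct op' hc' e' =
      s59t_polyAct op' hc' e' * s59t_polyAct op hc e := by
    refine LinearMap.ext fun z => ?_
    rw [Module.End.mul_apply, Module.End.mul_apply]
    exact (s59t_polyAct_commute op' hc' (s59t_polyAct op hc e) (fun j z => by
      rw [← Module.End.mul_apply, hB, Module.End.mul_apply]) e' z)
  rw [k2, ← hcm, ← k1]

end Idem

end Fermat.Agent.Lib.S59
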