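/-
Programme (R) = S59, node (E) module half (helper8), file 66: **(GEN) + (OCC) at level `(N, H)` ⇒
(TQ) at level `(N, H)` and the independence of `n` of the base idempotent.**

`N ∣ N'`; the Hecke operators of level `N'` act on `H_par(Γ_H(N), 𝒪)` through `s59t_opH N' aq hN H`.
* `s59t_topNil_of_adjoin` (abstract): if the generators `op i` are topologically `c i` on `ε Z`, and
  `v ∉ 𝔪 Z` is an eigenvector modulo `𝔪` of the `op i` (eigenvalues `c i`) and of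
  `A ∈ 𝒪[op i]` (eigenvalue `a`), then `A - a` is topologically nilpotent on `ε Z`;
* `s59t_topNil_of_pow_eq_one`: `D ^ (p ^ k) = 1` ⇒ `D - 1` topologically nilpotent;
* `s59t_gen_H`: helper2's `s59b_gen_Hpar` for the family `{T_ℓ : ℓ ∤ N', ℓ ∉ Bset} ∪ {diamonds}`;
* **`s59t_topNil_H`**: every `T_ℓ`, `ℓ ∤ N`, `ℓ ∉ Bset` (in particular `T_q`, `q ∣ N'`) is
  topologically `a_ℓ` on the part of any `ε` on which the `T_ℓ`, `ℓ ∤ N'`, `ℓ ∉ Bset` are;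
* **`s59t_actH_indep`**: the level-`N'` anemic idempotent and the level-`N` anemic idempotent
  induce THE SAME endomorphism of `H_par(Γ_H(N), 𝒪)`.
-/
import Mathlib
import Fermat.Agent.Lib.S59.TLvlQ2
import Fermat.Agent.Lib.S59.TInd
import Fermat.Agent.Lib.S59.BGenHpar

set_option autoImplicit false
set_option linter.unusedSectionVars false
set_option linter.style.haveILetI false
set_option linter.unusedVariables false

noncomputable section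

namespace Fermat.Agent.Lib.S59

open Matrix MatrixGroups CongruenceSubgroup IsLocalRing
open Fermat.Agent.Lib.S29 Fermat.Agent.Lib.S48 Fermat.Agent.Lib.S41

section Abs

variable {𝒪 : Type*} [CommRing 𝒪] [IsLocalRing 𝒪] {Z : Type*} [AddCommGroup Z] [Module 𝒪 Z]
  {I : Type*} (op : I → Module.End 𝒪 Z) (hc : ∀ i j, op i * op j = op j * op i)

theorem s59t_evalHom_eq_residue_eval (c : I → 𝒪) (t : MvPolynomial I 𝒪) :
    s59t_evalHom c t = residue 𝒪 (MvPolynomial.eval c t) := by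
  unfold s59t_evalHom
  induction t using MvPolynomial.induction_on with
  | C r => simp
  | add s t hs ht => rw [map_add, map_add, map_add, hs, ht]
  | mul_X s i hs => rw [map_mul, map_mul, map_mul, hs]; simp

/-- the elements of the algebra generated by the `op i` are the polynomials in the `op i`. -/
theorem s59t_exists_poly_of_mem_adjoin {A : Module.End 𝒪 Z}
    (hA : A ∈ Algebra.adjoin 𝒪 (Set.range op)) :
    ∃ t : MvPolynomial I 𝒪, s59t_polyAct op hc t = A := by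
  induction hA using Algebra.adjoin_induction with
  | mem x hx =>
    obtain ⟨i, rfl⟩ := hx
    exact ⟨MvPolynomial.X i, s59t_polyAct_X op hc i⟩
  | algebraMap r =>
    exact ⟨MvPolynomial.C r, by rw [s59t_polyAct_C, Algebra.algebraMap_eq_smul_one]⟩
  | add x y _ _ hx hy =>
    obtain ⟨s, rfl⟩ := hx
    obtain ⟨t, rfl⟩ := hy
    exact ⟨s + t, map_add _ _ _⟩
  | mul x y _ _ hx hy =>
    obtain ⟨s, rfl⟩ := hx
    obtain ⟨t, rfl⟩ := hy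
    exact ⟨s * t, map_mul _ _ _⟩

include hc in
/-- **locally scalar operators: the constant is read off an eigenvector modulo `𝔪`.** -/
theorem s59t_topNil_of_adjoin (ε : Module.End 𝒪 Z) (c : I → 𝒪)
    (h : ∀ i, s59t_TopNil ε (op i - c i • (1 : Module.End 𝒪 Z)))
    (v : Z) (hv : v ∉ (maximalIdeal 𝒪 • ⊤ : Submodule 𝒪 Z))
    (hev : ∀ i, op i v - c i • v ∈ (maximalIdeal 𝒪 • ⊤ : Submodule 𝒪 Z))
    {A : Module.End 𝒪 Z} (hA : A ∈ Algebra.adjoin 𝒪 (Set.range op)) (a : 𝒪)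
    (hAv : A v - a • v ∈ (maximalIdeal 𝒪 • ⊤ : Submodule 𝒪 Z)) :
    s59t_TopNil ε (A - a • (1 : Module.End 𝒪 Z)) := by
  obtain ⟨t, rfl⟩ := s59t_exists_poly_of_mem_adjoin op hc hA
  have h1 := s59t_eigen_poly op hc c v hev t (MvPolynomial.eval c t)
    (s59t_evalHom_eq_residue_eval c t).symm
  have h2 : (a - MvPolynomial.eval c t) • v ∈ (maximalIdeal 𝒪 • ⊤ : Submodule 𝒪 Z) := by
    have e : (a - MvPolynomial.eval c t) • v =
        (s59t_polyAct op hc t v - MvPolynomial.eval c t • v) -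
          (s59t_polyAct op hc t v - a • v) := by
      rw [sub_smul]
      abel
    rw [e]
    exact Submodule.sub_mem _ h1 hAv
  have h3 : a - MvPolynomial.eval c t ∈ maximalIdeal 𝒪 := by
    by_contra hu
    rw [mem_maximalIdeal, mem_nonunits_iff, not_not] at hu
    obtain ⟨u, hu⟩ := hu
    apply hv
    have e : v = ((u⁻¹ : 𝒪ˣ) : 𝒪) • ((a - MvPolynomial.eval c t) • v) := by
      rw [← hu, smul_smul, Units.inv_mul, one_smul]
    rw [e]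
    exact Submodule.smul_mem _ _ h2
  have h4 : t - MvPolynomial.C a ∈ s59t_evalIdeal c := by
    rw [s59t_mem_evalIdeal, map_sub, s59t_evalHom_C, s59t_evalHom_eq_residue_eval, ← map_sub,
      residue_eq_zero_iff, ← neg_sub]
    exact neg_mem h3
  have h5 := s59t_topNil_poly op hc ε c h (t - MvPolynomial.C a) h4
  rwa [map_sub, s59t_polyAct_C] at h5

variable {p : ℕ} [hp : Fact p.Prime]

include hp in
/-- an operator of `p`-power order is topologically unipotent. -/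
theorem s59t_topNil_of_pow_eq_one (hpm : (p : 𝒪) ∈ maximalIdeal 𝒪) (ε D : Module.End 𝒪 Z) (k : ℕ)
    (hD : D ^ (p ^ k) = 1) : s59t_TopNil ε (D - (1 : 𝒪) • (1 : Module.End 𝒪 Z)) := by
  rw [one_smul]
  refine ⟨p ^ k, fun y => ?_⟩
  obtain ⟨r, hr⟩ := exists_add_pow_prime_pow_eq hp.out (Polynomial.X : Polynomial 𝒪) (-1) k
  obtain ⟨r', hr'⟩ := exists_add_pow_prime_pow_eq hp.out (1 : Polynomial 𝒪) (-1) k
  have hP : p ^ k ≠ 0 := pow_ne_zero _ hp.out.ne_zero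
  rw [add_neg_cancel, zero_pow hP, one_pow] at hr'
  have key : (Polynomial.X - 1 : Polynomial 𝒪) ^ (p ^ k) =
      (Polynomial.X ^ (p ^ k) - 1) +
        Polynomial.C (p : 𝒪) * (Polynomial.X * (-1) * r - 1 * (-1) * r') := by
    rw [sub_eq_add_neg, hr, Polynomial.C_eq_natCast]
    linear_combination (-1 : Polynomial 𝒪) * hr'
  have h1 := congrArg (fun f => Polynomial.aeval D f) key
  simp only [map_pow, map_sub, map_add, map_mul, Polynomial.aeval_X, map_one, Polynomial.aeval_C]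
    at h1
  rw [hD, sub_self, zero_add] at h1
  rw [h1, Module.End.mul_apply, Module.algebraMap_end_apply]
  exact Submodule.smul_mem_smul hpm Submodule.mem_top

end Abs

section Conc

variable {𝒪 : Type} [CommRing 𝒪] [IsDomain 𝒪] [IsDiscreteValuationRing 𝒪]
  [IsAdicComplete (maximalIdeal 𝒪) 𝒪] [CharZero 𝒪]
  (p : ℕ) [hp : Fact p.Prime] [Algebra ℤ_[p] 𝒪]
  {N N' : ℕ} [NeZero N] [NeZero N'] (hN : N ∣ N') (H : Subgroup (ZMod N)ˣ)
  (Bset : Finset ℕ) (a : ℕ → ℤ)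

/-- index set of the generating family at level `(N, H)` coming from level `N'`. -/
abbrev s59t_GIdx (N N' : ℕ) (Bset : Finset ℕ) : Type :=
  {i : s59w_TIdx N' // i.ell ∉ Bset} ⊕ Gamma0 N

/-- the generating family: `T_ℓ` (`ℓ ∤ N'`, `ℓ ∉ Bset`) and the diamonds of level `N`. -/
def s59t_opG : s59t_GIdx N N' Bset → Module.End 𝒪 (s48h_Hpar 𝒪 (s48h_GammaH N H) 𝒪)
  | Sum.inl i => s59w_op H 𝒪 (Sum.inl (s59t_TIdx_down hN i.1))
  | Sum.inr τ => s59w_op H 𝒪 (Sum.inr τ)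

theorem s59t_opG_comm (x y : s59t_GIdx N N' Bset) :
    s59t_opG (𝒪 := 𝒪) hN H Bset x * s59t_opG hN H Bset y =
      s59t_opG hN H Bset y * s59t_opG hN H Bset x := by
  rcases x with i | τ <;> rcases y with j | τ' <;> exact s59w_op_comm H 𝒪 _ _

/-- the eigenvalues of the generating family. -/
def s59t_cG : s59t_GIdx N N' Bset → 𝒪
  | Sum.inl i => ((a i.1.ell : ℤ) : 𝒪)
  | Sum.inr _ => 1

include hp in
set_option maxHeartbeats 1600000 in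
/-- **(GEN) at level `(N, H)`** for the family of level `N'`. -/
theorem s59t_gen_H (S37 : s59b_S37H N H) (hN1 : 1 < N) (hneg : (-1 : (ZMod N)ˣ) ∈ H)
    (hp𝒪 : (p : 𝒪) ∈ maximalIdeal 𝒪) (hpB : p ∈ Bset)
    (i₀ : s59w_TIdx N) (hi₀ : i₀.ell ∉ Bset) :
    s59w_op H 𝒪 (Sum.inl i₀) ∈
      Algebra.adjoin 𝒪 (Set.range (s59t_opG (𝒪 := 𝒪) (N' := N') hN H Bset)) := by
  classical
  haveI : Fact i₀.ell.Prime := ⟨i₀.prime⟩
  have hqp : i₀.ell ≠ p := fun h => hi₀ (h ▸ hpB)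
  have hqMp : ¬ i₀.ell ∣ N * p := by
    intro h
    rcases (Nat.Prime.dvd_mul i₀.prime).mp h with h1 | h1
    · exact i₀.ndvd h1
    · exact hqp ((Nat.prime_dvd_prime_iff_eq i₀.prime hp.out).mp h1)
  refine s59b_gen_Hpar p 𝒪 S37 hN1 hneg hp𝒪 (Bset ∪ N'.primeFactors)
    (Algebra.adjoin 𝒪 (Set.range (s59t_opG (𝒪 := 𝒪) (N' := N') hN H Bset))) ?_ ?_
    i₀.ell i₀.ndvd hqMp i₀.sig i₀.mem i₀.lr
  · intro ℓ _ hℓM σℓ hσℓ hσℓ11 hℓMp hℓS
    have hℓp : ℓ.Prime := Fact.out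
    have hℓB : ℓ ∉ Bset := fun h => hℓS (Finset.mem_union_left _ h)
    have hℓN' : ¬ ℓ ∣ N' := fun h => hℓS (Finset.mem_union_right _
      (Nat.mem_primeFactors.mpr ⟨hℓp, h, NeZero.ne N'⟩))
    obtain ⟨σ, hσ, h11⟩ := s48h_exists_sigma_p (M := N') hℓN'
    let i' : s59w_TIdx N' := ⟨ℓ, hℓp, hℓN', σ, hσ, h11⟩
    haveI : Fact (s59t_TIdx_down hN i').ell.Prime := ⟨hℓp⟩
    have hmem : s59t_opG (𝒪 := 𝒪) hN H Bset (Sum.inl ⟨i', hℓB⟩) ∈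
        Algebra.adjoin 𝒪 (Set.range (s59t_opG (𝒪 := 𝒪) (N' := N') hN H Bset)) :=
      Algebra.subset_adjoin ⟨_, rfl⟩
    have heq : s59t_opG (𝒪 := 𝒪) hN H Bset (Sum.inl ⟨i', hℓB⟩) =
        (s48h_TpDatum H hℓM σℓ hσℓ hσℓ11).heckeHpar 𝒪 := by
      refine LinearMap.ext fun v => Subtype.ext ?_
      have hσN : σ ∈ Gamma0 N := s59t_Gamma0_le_of_dvd hN hσ
      have h11N : ((σ 1 1 : ℤ) : ZMod N) = (ℓ : ZMod N) := (s59t_TIdx_down hN i').lr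
      show s48h_TpH H hℓM σ hσN h11N 𝒪 v.1 = s48h_TpH H hℓM σℓ hσℓ hσℓ11 𝒪 v.1
      exact DFunLike.congr_fun (s48h_TpH_eq (H := H) hℓM hσN h11N hσℓ hσℓ11 𝒪) v.1
    rw [← heq]
    exact hmem
  · intro σ hσ
    exact Algebra.subset_adjoin ⟨Sum.inr ⟨σ, hσ⟩, rfl⟩

include hp in
/-- the diamond operators are topologically unipotent at a `p`-group level. -/
theorem s59t_topNil_dia (hp𝒪 : (p : 𝒪) ∈ maximalIdeal 𝒪)
    (hH : ∀ u : (ZMod N)ˣ, ∃ n : ℕ, u ^ (p ^ n) ∈ H)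
    (ε : Module.End 𝒪 (s48h_Hpar 𝒪 (s48h_GammaH N H) 𝒪)) (τ : Gamma0 N) :
    s59t_TopNil ε (s59w_op H 𝒪 (Sum.inr τ) -
      (1 : 𝒪) • (1 : Module.End 𝒪 (s48h_Hpar 𝒪 (s48h_GammaH N H) 𝒪))) := by
  have e : s59w_op H 𝒪 (Sum.inr τ) =
      s59t_rho N H 𝒪 𝒪 ((QuotientGroup.mk τ : s59t_Delta N H))⁻¹ := by
    refine LinearMap.ext fun χ => Subtype.ext ?_
    exact (s59t_rho_mk_inv N H 𝒪 𝒪 τ χ).symm
  obtain ⟨k, hk⟩ := s59t_Delta_isPGroup p hH ((QuotientGroup.mk τ : s59t_Delta N H))⁻¹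
  refine s59t_topNil_of_pow_eq_one (p := p) hp𝒪 ε _ k ?_
  rw [e, ← map_pow, hk, map_one]

include hp in
set_option maxHeartbeats 1600000 in
/-- **(TQ) at level `(N, H)`**: every `T_ℓ` of level `N` (`ℓ ∉ Bset`, e.g. `ℓ ∣ N'`) is
topologically `a_ℓ` on the part of `ε`, if the `T_ℓ`, `ℓ ∤ N'`, `ℓ ∉ Bset`, are. -/
theorem s59t_topNil_H (S37 : s59b_S37H N H) (hN1 : 1 < N) (hneg : (-1 : (ZMod N)ˣ) ∈ H)
    (hp𝒪 : (p : 𝒪) ∈ maximalIdeal 𝒪) (hpB : p ∈ Bset)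
    (hH : ∀ u : (ZMod N)ˣ, ∃ n : ℕ, u ^ (p ^ n) ∈ H)
    (hocc : ∃ v : s48h_Hpar 𝒪 (s48h_GammaH N H) 𝒪,
      v ∉ (maximalIdeal 𝒪 • ⊤ : Submodule 𝒪 (s48h_Hpar 𝒪 (s48h_GammaH N H) 𝒪)) ∧
      (∀ i : s59w_TIdx N, i.ell ∉ Bset →
        s59w_op H 𝒪 (Sum.inl i) v - ((a i.ell : ℤ) : 𝒪) • v ∈
          (maximalIdeal 𝒪 • ⊤ : Submodule 𝒪 (s48h_Hpar 𝒪 (s48h_GammaH N H) 𝒪))) ∧
      (∀ τ : Gamma0 N, s59w_op H 𝒪 (Sum.inr τ) v - v ∈
          (maximalIdeal 𝒪 • ⊤ : Submodule 𝒪 (s48h_Hpar 𝒪 (s48h_GammaH N H) 𝒪))))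
    (ε : Module.End 𝒪 (s48h_Hpar 𝒪 (s48h_GammaH N H) 𝒪))
    (hnil : ∀ i' : s59w_TIdx N', i'.ell ∉ Bset →
      s59t_TopNil ε (s59w_op H 𝒪 (Sum.inl (s59t_TIdx_down hN i')) -
        ((a i'.ell : ℤ) : 𝒪) • (1 : Module.End 𝒪 (s48h_Hpar 𝒪 (s48h_GammaH N H) 𝒪))))
    (i₀ : s59w_TIdx N) (hi₀ : i₀.ell ∉ Bset) :
    s59t_TopNil ε (s59w_op H 𝒪 (Sum.inl i₀) -
      ((a i₀.ell : ℤ) : 𝒪) • (1 : Module.End 𝒪 (s48h_Hpar 𝒪 (s48h_GammaH N H) 𝒪))) := by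
  obtain ⟨v, hv, hvT, hvD⟩ := hocc
  refine s59t_topNil_of_adjoin (s59t_opG (𝒪 := 𝒪) (N' := N') hN H Bset)
    (s59t_opG_comm hN H Bset) ε (s59t_cG (𝒪 := 𝒪) (N := N) (N' := N') Bset a) ?_ v hv ?_
    (s59t_gen_H p hN H Bset S37 hN1 hneg hp𝒪 hpB i₀ hi₀) _ (hvT i₀ hi₀)
  · rintro (i | τ)
    · exact hnil i.1 i.2
    · exact s59t_topNil_dia p H hp𝒪 hH ε τ
  · rintro (i | τ)
    · exact hvT (s59t_TIdx_down hN i.1) i.2
    · show s59w_op H 𝒪 (Sum.inr τ) v - (1 : 𝒪) • v ∈ _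
      rw [one_smul]
      exact hvD τ

/-- the good family of level `M`: the `T_ℓ`, `ℓ ∤ M`, `ℓ ∉ Bset`. -/
def s59t_goodB (M : ℕ) (Bset : Finset ℕ) : Set (s59w_AIdx M) :=
  {x | ∃ i : s59w_TIdx M, x = Sum.inl i ∧ i.ell ∉ Bset}

/-- the eigenvalues: `a_ℓ` for `T_ℓ`, `1` for the diamonds. -/
def s59t_cB (M : ℕ) (a : ℕ → ℤ) : s59w_AIdx M → 𝒪
  | Sum.inl i => ((a i.ell : ℤ) : 𝒪)
  | Sum.inr _ => 1

theorem s59t_inl_mem_goodB {M : ℕ} (i : s59w_TIdx M) (hi : i.ell ∉ Bset) :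
    (Sum.inl i : s59w_AIdx M) ∈ s59t_goodB M Bset := ⟨i, rfl, hi⟩

/-- the polynomial action on the good variables. -/
theorem s59t_actH_jG {M : ℕ} [NeZero M] (K : Subgroup (ZMod M)ˣ) (hM : M ∣ N') (aq : ℕ → 𝒪)
    (good : Set (s59w_AIdx N')) (t : MvPolynomial ↥good 𝒪) :
    s59t_actH N' aq hM K (s59t_jG 𝒪 good t) =
      s59t_polyAct (fun x : ↥good => s59t_opH N' aq hM K (Sum.inl (x : s59w_AIdx N')))
        (fun x y => s59t_opH_comm N' aq hM K _ _) t :=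
  s59t_polyAct_rename _ _ _ t

include hp in
set_option maxHeartbeats 3200000 in
/-- **independence of the level `N'`**: the anemic idempotents of level `N'` and of level `N`
induce the same endomorphism of `H_par(Γ_H(N), 𝒪)`. -/
theorem s59t_actH_indep (S37 : s59b_S37H N H) (hN1 : 1 < N) (hneg : (-1 : (ZMod N)ˣ) ∈ H)
    (hp𝒪 : (p : 𝒪) ∈ maximalIdeal 𝒪) (hpB : p ∈ Bset)
    (hH : ∀ u : (ZMod N)ˣ, ∃ n : ℕ, u ^ (p ^ n) ∈ H)
    (hocc : ∃ v : s48h_Hpar 𝒪 (s48h_GammaH N H) 𝒪,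
      v ∉ (maximalIdeal 𝒪 • ⊤ : Submodule 𝒪 (s48h_Hpar 𝒪 (s48h_GammaH N H) 𝒪)) ∧
      (∀ i : s59w_TIdx N, i.ell ∉ Bset →
        s59w_op H 𝒪 (Sum.inl i) v - ((a i.ell : ℤ) : 𝒪) • v ∈
          (maximalIdeal 𝒪 • ⊤ : Submodule 𝒪 (s48h_Hpar 𝒪 (s48h_GammaH N H) 𝒪))) ∧
      (∀ τ : Gamma0 N, s59w_op H 𝒪 (Sum.inr τ) v - v ∈
          (maximalIdeal 𝒪 • ⊤ : Submodule 𝒪 (s48h_Hpar 𝒪 (s48h_GammaH N H) 𝒪))))
    (aq : ℕ → 𝒪)
    -- the idempotent of level `N'`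
    (e' : MvPolynomial ↥(s59t_goodB N' Bset) 𝒪)
    (h1e' : 1 - e' ∈ s59t_evalIdeal (fun x : ↥(s59t_goodB N' Bset) =>
      s59t_cB (𝒪 := 𝒪) N' a (x : s59w_AIdx N')))
    (hid' : s59t_actH N' aq hN H (s59t_jG 𝒪 (s59t_goodB N' Bset) e') *
      s59t_actH N' aq hN H (s59t_jG 𝒪 (s59t_goodB N' Bset) e') =
      s59t_actH N' aq hN H (s59t_jG 𝒪 (s59t_goodB N' Bset) e'))
    (hnil' : ∀ x ∈ s59t_goodB N' Bset, ∃ n : ℕ, ∀ y : s48h_Hpar 𝒪 (s48h_GammaH N H) 𝒪,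
      ((s59t_opH N' aq hN H (Sum.inl x) - s59t_cB (𝒪 := 𝒪) N' a x •
        (1 : Module.End 𝒪 (s48h_Hpar 𝒪 (s48h_GammaH N H) 𝒪))) ^ n)
        (s59t_actH N' aq hN H (s59t_jG 𝒪 (s59t_goodB N' Bset) e') y) ∈
        (maximalIdeal 𝒪 • ⊤ : Submodule 𝒪 (s48h_Hpar 𝒪 (s48h_GammaH N H) 𝒪)))
    -- the idempotent of level `N`
    (e : MvPolynomial ↥(s59t_goodB N Bset) 𝒪)
    (h1e : 1 - e ∈ s59t_evalIdeal (fun x : ↥(s59t_goodB N Bset) =>
      s59t_cB (𝒪 := 𝒪) N a (x : s59w_AIdx N)))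
    (hid : s59t_actH N aq (dvd_refl N) H (s59t_jG 𝒪 (s59t_goodB N Bset) e) *
      s59t_actH N aq (dvd_refl N) H (s59t_jG 𝒪 (s59t_goodB N Bset) e) =
      s59t_actH N aq (dvd_refl N) H (s59t_jG 𝒪 (s59t_goodB N Bset) e))
    (hnil : ∀ x ∈ s59t_goodB N Bset, ∃ n : ℕ, ∀ y : s48h_Hpar 𝒪 (s48h_GammaH N H) 𝒪,
      ((s59t_opH N aq (dvd_refl N) H (Sum.inl x) - s59t_cB (𝒪 := 𝒪) N a x •
        (1 : Module.End 𝒪 (s48h_Hpar 𝒪 (s48h_GammaH N H) 𝒪))) ^ n)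
        (s59t_actH N aq (dvd_refl N) H (s59t_jG 𝒪 (s59t_goodB N Bset) e) y) ∈
        (maximalIdeal 𝒪 • ⊤ : Submodule 𝒪 (s48h_Hpar 𝒪 (s48h_GammaH N H) 𝒪))) :
    s59t_actH N' aq hN H (s59t_jG 𝒪 (s59t_goodB N' Bset) e') =
      s59t_actH N aq (dvd_refl N) H (s59t_jG 𝒪 (s59t_goodB N Bset) e) := by
  have E' := s59t_actH_jG (N' := N') H hN aq (s59t_goodB N' Bset) e'
  have E := s59t_actH_jG (N' := N) H (dvd_refl N) aq (s59t_goodB N Bset) e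
  rw [E'] at hid' hnil'
  rw [E] at hid hnil
  rw [E', E]
  refine s59t_idem_eq_of_topNil _ _ _ _ ?_ _ _ e' h1e' hid' e h1e hid ?_ ?_
  · intro x y
    exact s59w_op_comm H 𝒪 _ _
  · -- the level-`N'` generators on the level-`N` part
    rintro ⟨x, i', rfl, hi'⟩
    have h0 := hnil (Sum.inl (s59t_TIdx_down hN i')) (s59t_inl_mem_goodB Bset _ hi')
    rw [s59t_opH_inl, s59t_AIdx_down_self] at h0
    exact h0
  · -- the level-`N` generators on the level-`N'` part: (GEN) + (OCC)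
    rintro ⟨x, i₀, rfl, hi₀⟩
    have h0 := s59t_topNil_H p hN H Bset a S37 hN1 hneg hp𝒪 hpB hH hocc
      (s59t_polyAct (fun x : ↥(s59t_goodB N' Bset) =>
        s59t_opH N' aq hN H (Sum.inl (x : s59w_AIdx N')))
        (fun x y => s59t_opH_comm N' aq hN H _ _) e')
      (fun i' hi' => hnil' (Sum.inl i') (s59t_inl_mem_goodB Bset _ hi')) i₀ hi₀
    show s59t_TopNil _ (s59t_opH N aq (dvd_refl N) H (Sum.inl (Sum.inl i₀)) - _)
    rw [s59t_opH_inl, s59t_AIdx_down_self]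
    exact h0

end Conc

end Fermat.Agent.Lib.S59
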