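/-
Programme (R) = S59, node (E) module half (helper8), file 70: **the Taylor–Wiles level
`(N·∏qv, H·K_Q)` over the FIXED base part.**

* `s59t_E0 H Bset e` : the base idempotent `e(T_ℓ)` of level `(N, H)` (`e` a polynomial in the
  `T_ℓ`, `ℓ ∤ N`, `ℓ ∉ Bset`) — no Taylor–Wiles datum inside;
* `s59t_TW_level` : `s59t_TW_control` specialised to `N' = N * ∏ qv`,
  `H' = s59t_Hmul N (∏ qv) H (s59t_KQ (p^n) qv)`, `B = s59t_BQ`, `C = s59t_CQ`,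
  `good = s59t_goodB N' Bset`, `c = s59t_cB N' a`, combined with `s59t_actH_indep`: the conclusion
  `s59t_TWFull` is about the part of the FIXED idempotent `s59t_E0 H Bset e`.
-/
import Mathlib
import Fermat.Agent.Lib.S59.TLvlCtl
import Fermat.Agent.Lib.S59.TIndH
import Fermat.Agent.Lib.S59.TDeltaQ

set_option autoImplicit false
set_option linter.unusedSectionVars false
set_option linter.style.haveILetI false
set_option linter.unusedVariables false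

noncomputable section

namespace Fermat.Agent.Lib.S59

open Matrix MatrixGroups CongruenceSubgroup IsLocalRing
open Fermat.Agent.Lib.S29 Fermat.Agent.Lib.S48 Fermat.Agent.Lib.S41

section E0

variable {𝒪 : Type} [CommRing 𝒪] {N : ℕ} [NeZero N] (H : Subgroup (ZMod N)ˣ) (Bset : Finset ℕ)

/-- **the fixed base idempotent**: the polynomial `e` in the `T_ℓ` (`ℓ ∤ N`, `ℓ ∉ Bset`) of level
`(N, H)`. -/
def s59t_E0 : MvPolynomial ↥(s59t_goodB N Bset) 𝒪 →ₐ[𝒪]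
    Module.End 𝒪 (s48h_Hpar 𝒪 (s48h_GammaH N H) 𝒪) :=
  s59t_polyAct (fun x : ↥(s59t_goodB N Bset) => s59w_op H 𝒪 (x : s59w_AIdx N))
    (fun x y => s59w_op_comm H 𝒪 _ _)

theorem s59t_E0_X (x : ↥(s59t_goodB N Bset)) :
    s59t_E0 (𝒪 := 𝒪) H Bset (MvPolynomial.X x) = s59w_op H 𝒪 (x : s59w_AIdx N) :=
  s59t_polyAct_X _ _ x

theorem s59t_E0_C (r : 𝒪) :
    s59t_E0 (𝒪 := 𝒪) H Bset (MvPolynomial.C r) =
      r • (1 : Module.End 𝒪 (s48h_Hpar 𝒪 (s48h_GammaH N H) 𝒪)) :=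
  s59t_polyAct_C _ _ r

theorem s59t_actH_eq_E0 (aq : ℕ → 𝒪) (e : MvPolynomial ↥(s59t_goodB N Bset) 𝒪) :
    s59t_actH N aq (dvd_refl N) H (s59t_jG 𝒪 (s59t_goodB N Bset) e) = s59t_E0 H Bset e := by
  have h : s59t_actH N aq (dvd_refl N) H (s59t_jG 𝒪 (s59t_goodB N Bset) e) =
      s59t_polyAct (fun x : ↥(s59t_goodB N Bset) =>
        s59t_opH N aq (dvd_refl N) H (Sum.inl (x : s59w_AIdx N)))
        (fun x y => s59t_opH_comm N aq (dvd_refl N) H _ _) e := s59t_polyAct_rename _ _ _ e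
  rw [h]
  exact s59t_polyAct_congr _ _ _ _ (fun x => by rw [s59t_opH_inl, s59t_AIdx_down_self]) e

/-- the operators `s59w_op` are values of the polynomial action. -/
theorem s59t_op_eq_actH (aq : ℕ → 𝒪) (x : s59w_AIdx N) :
    s59w_op H 𝒪 x = s59t_actH N aq (dvd_refl N) H (MvPolynomial.X (Sum.inl x)) := by
  rw [s59t_actH_X, s59t_opH_inl, s59t_AIdx_down_self]

/-- **every polynomial operator commutes with every anemic generator.** -/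
theorem s59t_actH_comm_op (aq : ℕ → 𝒪) (t : MvPolynomial (s59w_AIdx N ⊕ ℕ) 𝒪) (x : s59w_AIdx N) :
    s59t_actH N aq (dvd_refl N) H t * s59w_op H 𝒪 x =
      s59w_op H 𝒪 x * s59t_actH N aq (dvd_refl N) H t := by
  rw [s59t_op_eq_actH H aq x, ← map_mul, ← map_mul, mul_comm]

theorem s59t_neg_one_mem_GammaH_of (hneg : (-1 : (ZMod N)ˣ) ∈ H) :
    (-1 : SL(2, ℤ)) ∈ s48h_GammaH N H := by
  refine ⟨s41g_neg_one_mem N, -1, hneg, ?_⟩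
  simp

end E0

section Level

variable {𝒪 : Type} [CommRing 𝒪] [IsDomain 𝒪] [IsDiscreteValuationRing 𝒪]
  [IsAdicComplete (maximalIdeal 𝒪) 𝒪] [Finite (ResidueField 𝒪)] [CharZero 𝒪]
  (p : ℕ) [hp : Fact p.Prime] [CharP (ResidueField 𝒪) p] [Algebra ℤ_[p] 𝒪]
  {N : ℕ} [NeZero N] (H : Subgroup (ZMod N)ˣ) (Bset : Finset ℕ) (a : ℕ → ℤ)
  (n : ℕ) {r : ℕ} (qv : Fin r → ℕ) [NeZero (∏ j, qv j)] [NeZero (N * ∏ j, qv j)]

theorem s59t_neg_one_mem_Hmul {D : ℕ} [NeZero D] [NeZero (N * D)] {K : Subgroup (ZMod D)ˣ}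
    (hH : (-1 : (ZMod N)ˣ) ∈ H) (hK : (-1 : (ZMod D)ˣ) ∈ K) :
    (-1 : (ZMod (N * D))ˣ) ∈ s59t_Hmul N D H K := by
  rw [s59t_mem_Hmul]
  have h1 : ZMod.unitsMap (s59t_dvd_mul_left' N D) (-1 : (ZMod (N * D))ˣ) = -1 := by
    apply Units.ext
    rw [ZMod.unitsMap_def, Units.coe_map]
    simp
  have h2 : ZMod.unitsMap (s59t_dvd_mul_right' N D) (-1 : (ZMod (N * D))ˣ) = -1 := by
    apply Units.ext
    rw [ZMod.unitsMap_def, Units.coe_map]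
    simp
  rw [h1, h2]
  exact ⟨hH, hK⟩

include hp in
set_option maxHeartbeats 6400000 in
/-- **the Taylor–Wiles level over the fixed base part.** -/
theorem s59t_TW_level (hp12 : Nat.Coprime p 12)
    (hsq : Squarefree N) (hsq' : Squarefree (N * ∏ j, qv j))
    (S37 : s59b_S37H N H) (hN1 : 1 < N) (hnegH : (-1 : (ZMod N)ˣ) ∈ H)
    (hp𝒪 : (p : 𝒪) ∈ maximalIdeal 𝒪) (hpB : p ∈ Bset)
    (hH : ∀ u : (ZMod N)ˣ, ∃ k : ℕ, u ^ (p ^ k) ∈ H)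
    -- (OCC) at level `(N, H)` and at `Γ₀(N)` (helper3's `s59u_W6`, `s59u_W6_G0`, verbatim)
    (hoccH : ∃ v : s48h_Hpar 𝒪 (s48h_GammaH N H) 𝒪,
      v ∉ (maximalIdeal 𝒪 • ⊤ : Submodule 𝒪 (s48h_Hpar 𝒪 (s48h_GammaH N H) 𝒪)) ∧
      (∀ i : s59w_TIdx N, i.ell ∉ Bset →
        s59w_op H 𝒪 (Sum.inl i) v - ((a i.ell : ℤ) : 𝒪) • v ∈
          (maximalIdeal 𝒪 • ⊤ : Submodule 𝒪 (s48h_Hpar 𝒪 (s48h_GammaH N H) 𝒪))) ∧
      (∀ τ : Gamma0 N, s59w_op H 𝒪 (Sum.inr τ) v - v ∈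
          (maximalIdeal 𝒪 • ⊤ : Submodule 𝒪 (s48h_Hpar 𝒪 (s48h_GammaH N H) 𝒪))))
    (hocc0 : ∃ v : s29h_Hpar 𝒪 N 𝒪,
      v ∉ (maximalIdeal 𝒪 • ⊤ : Submodule 𝒪 (s29h_Hpar 𝒪 N 𝒪)) ∧
      ∀ (ℓ : ℕ) [Fact ℓ.Prime], ¬ ℓ ∣ N → ℓ ∉ Bset →
        s29h_heckeHpar N ℓ 𝒪 𝒪 v - ((a ℓ : ℤ) : 𝒪) • v ∈
          (maximalIdeal 𝒪 • ⊤ : Submodule 𝒪 (s29h_Hpar 𝒪 N 𝒪)))
    -- the Taylor–Wiles primes
    (hcop : N.Coprime (∏ j, qv j)) (hqinj : Function.Injective qv) (hqp : ∀ j, (qv j).Prime)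
    (aq bq : ℕ → 𝒪)
    (harith : ∀ j, IsUnit (bq (qv j) - aq (qv j)) ∧
      ((qv j : ℕ) : 𝒪) - aq (qv j) * bq (qv j) ∈ maximalIdeal 𝒪 ∧
      IsUnit (1 - aq (qv j) ^ 2) ∧ IsUnit (1 - bq (qv j) ^ 2))
    (i₀ : s59w_TIdx (N * ∏ j, qv j)) (hi₀ : i₀.ell ∉ Bset)
    (hnE : IsUnit ((((a i₀.ell : ℤ) : 𝒪)) ^ 2 - ((i₀.ell : 𝒪) + 1) ^ 2))
    (hTQ : ∀ (M : ℕ) (hM : M ∣ N * ∏ j, qv j), ∀ q ∈ List.ofFn qv, ∀ [Fact q.Prime], ¬ q ∣ M →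
      ∀ e₀ : MvPolynomial ↥(s59t_goodB (N * ∏ j, qv j) Bset) 𝒪,
        1 - e₀ ∈ s59t_evalIdeal (fun x : ↥(s59t_goodB (N * ∏ j, qv j) Bset) =>
          s59t_cB (𝒪 := 𝒪) (N * ∏ j, qv j) a x) →
        s59t_act0 aq hM (s59t_jG 𝒪 (s59t_goodB (N * ∏ j, qv j) Bset) e₀) *
          s59t_act0 aq hM (s59t_jG 𝒪 (s59t_goodB (N * ∏ j, qv j) Bset) e₀) =
          s59t_act0 aq hM (s59t_jG 𝒪 (s59t_goodB (N * ∏ j, qv j) Bset) e₀) →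
        (∀ x : ↥(s59t_goodB (N * ∏ j, qv j) Bset), ∃ k : ℕ, ∀ y : s29h_Hpar 𝒪 M 𝒪,
          ((s59t_op0 (N * ∏ j, qv j) aq M (Sum.inl (x : s59w_AIdx (N * ∏ j, qv j))) -
            s59t_cB (𝒪 := 𝒪) (N * ∏ j, qv j) a x •
              (1 : Module.End 𝒪 (s29h_Hpar 𝒪 M 𝒪))) ^ k)
            (s59t_act0 aq hM (s59t_jG 𝒪 (s59t_goodB (N * ∏ j, qv j) Bset) e₀) y) ∈
            (maximalIdeal 𝒪 • ⊤ : Submodule 𝒪 (s29h_Hpar 𝒪 M 𝒪))) →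
        ∃ k : ℕ, ∀ y : s29h_Hpar 𝒪 M 𝒪,
          ((s29h_heckeHpar M q 𝒪 𝒪 - (aq q + bq q) • (1 : Module.End 𝒪 (s29h_Hpar 𝒪 M 𝒪))) ^ k)
            (s59t_act0 aq hM (s59t_jG 𝒪 (s59t_goodB (N * ∏ j, qv j) Bset) e₀) y) ∈
            (maximalIdeal 𝒪 • ⊤ : Submodule 𝒪 (s29h_Hpar 𝒪 M 𝒪)))
    -- the fixed base idempotent
    (e : MvPolynomial ↥(s59t_goodB N Bset) 𝒪)
    (h1e : 1 - e ∈ s59t_evalIdeal (fun x : ↥(s59t_goodB N Bset) =>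
      s59t_cB (𝒪 := 𝒪) N a (x : s59w_AIdx N)))
    (hid : s59t_E0 H Bset e * s59t_E0 H Bset e = s59t_E0 H Bset e)
    (hnil : ∀ x ∈ s59t_goodB N Bset, ∃ k : ℕ, ∀ y : s48h_Hpar 𝒪 (s48h_GammaH N H) 𝒪,
      ((s59w_op H 𝒪 x - s59t_cB (𝒪 := 𝒪) N a x •
        (1 : Module.End 𝒪 (s48h_Hpar 𝒪 (s48h_GammaH N H) 𝒪))) ^ k)
        (s59t_E0 H Bset e y) ∈
        (maximalIdeal 𝒪 • ⊤ : Submodule 𝒪 (s48h_Hpar 𝒪 (s48h_GammaH N H) 𝒪))) :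
    ∃ (e₀ : MvPolynomial ↥(s59t_goodB (N * ∏ j, qv j) Bset) 𝒪)
      (G : MvPolynomial (s59w_AIdx (N * ∏ j, qv j) ⊕ ℕ) 𝒪),
      1 - e₀ ∈ s59t_evalIdeal (fun x : ↥(s59t_goodB (N * ∏ j, qv j) Bset) =>
        s59t_cB (𝒪 := 𝒪) (N * ∏ j, qv j) a x) ∧
      (∀ t : MvPolynomial ↥(s59t_goodB (N * ∏ j, qv j) Bset) 𝒪,
        t ∉ s59t_evalIdeal (fun x : ↥(s59t_goodB (N * ∏ j, qv j) Bset) =>
          s59t_cB (𝒪 := 𝒪) (N * ∏ j, qv j) a x) →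
        ∃ η : MvPolynomial ↥(s59t_goodB (N * ∏ j, qv j) Bset) 𝒪,
          s59t_actH (N * ∏ j, qv j) aq (dvd_refl _)
            (s59t_Hmul N (∏ j, qv j) H (s59t_KQ (p ^ n) qv))
            (s59t_jG 𝒪 (s59t_goodB (N * ∏ j, qv j) Bset) (η * t * e₀)) =
          s59t_actH (N * ∏ j, qv j) aq (dvd_refl _)
            (s59t_Hmul N (∏ j, qv j) H (s59t_KQ (p ^ n) qv))
            (s59t_jG 𝒪 (s59t_goodB (N * ∏ j, qv j) Bset) e₀)) ∧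
      s59t_actH (N * ∏ j, qv j) aq (dvd_refl _) (s59t_Hmul N (∏ j, qv j) H (s59t_KQ (p ^ n) qv))
          (G * s59t_jG 𝒪 (s59t_goodB (N * ∏ j, qv j) Bset) e₀) *
        s59t_actH (N * ∏ j, qv j) aq (dvd_refl _)
          (s59t_Hmul N (∏ j, qv j) H (s59t_KQ (p ^ n) qv))
          (G * s59t_jG 𝒪 (s59t_goodB (N * ∏ j, qv j) Bset) e₀) =
        s59t_actH (N * ∏ j, qv j) aq (dvd_refl _)
          (s59t_Hmul N (∏ j, qv j) H (s59t_KQ (p ^ n) qv))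
          (G * s59t_jG 𝒪 (s59t_goodB (N * ∏ j, qv j) Bset) e₀) ∧
      (∀ x ∈ s59t_goodB (N * ∏ j, qv j) Bset, ∃ k : ℕ,
        ∀ y : s48h_Hpar 𝒪 (s48h_GammaH (N * ∏ j, qv j)
          (s59t_Hmul N (∏ j, qv j) H (s59t_KQ (p ^ n) qv))) 𝒪,
        ((s59w_op (s59t_Hmul N (∏ j, qv j) H (s59t_KQ (p ^ n) qv)) 𝒪 x -
          s59t_cB (𝒪 := 𝒪) (N * ∏ j, qv j) a x •
            (1 : Module.End 𝒪 (s48h_Hpar 𝒪 (s48h_GammaH (N * ∏ j, qv j)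
              (s59t_Hmul N (∏ j, qv j) H (s59t_KQ (p ^ n) qv))) 𝒪))) ^ k)
          (s59t_actH (N * ∏ j, qv j) aq (dvd_refl _)
            (s59t_Hmul N (∏ j, qv j) H (s59t_KQ (p ^ n) qv))
            (G * s59t_jG 𝒪 (s59t_goodB (N * ∏ j, qv j) Bset) e₀) y) ∈
          (maximalIdeal 𝒪 • ⊤ : Submodule 𝒪 (s48h_Hpar 𝒪 (s48h_GammaH (N * ∏ j, qv j)
              (s59t_Hmul N (∏ j, qv j) H (s59t_KQ (p ^ n) qv))) 𝒪))) ∧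
      s59t_TWFull (s59t_Gamma0_anti (s59t_dvd_mul_left' N (∏ j, qv j)))
        (s59t_GammaHmul_le (N := N) (D := ∏ j, qv j) (H := H) (K := s59t_KQ (p ^ n) qv))
        (s59t_BQ N (∏ j, qv j) H (s59t_KQ (p ^ n) qv))
        (s59t_CQ N (∏ j, qv j) H (s59t_KQ (p ^ n) qv))
        (s59t_E0 H Bset e)
        (s59t_actH (N * ∏ j, qv j) aq (dvd_refl _)
          (s59t_Hmul N (∏ j, qv j) H (s59t_KQ (p ^ n) qv))
          (G * s59t_jG 𝒪 (s59t_goodB (N * ∏ j, qv j) Bset) e₀)) := by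
  classical
  have hp2 : p ≠ 2 := by
    rintro rfl
    norm_num at hp12
  have hpodd : Odd (p ^ n) := (hp.out.odd_of_ne_two hp2).pow
  have hN : N ∣ N * ∏ j, qv j := s59t_dvd_mul_left' N (∏ j, qv j)
  have hL : (List.ofFn qv).Nodup := List.nodup_ofFn.mpr hqinj
  have hLp : ∀ q ∈ List.ofFn qv, q.Prime ∧ ¬ q ∣ N := by
    intro q hq
    obtain ⟨j, rfl⟩ := (List.mem_ofFn' qv q).mp hq
    refine ⟨hqp j, fun hdvd => ?_⟩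
    have h1 : qv j ∣ ∏ j, qv j := Finset.dvd_prod_of_mem qv (Finset.mem_univ j)
    have h2 : qv j ∣ Nat.gcd N (∏ j, qv j) := Nat.dvd_gcd hdvd h1
    rw [hcop.gcd_eq_one] at h2
    exact (hqp j).one_lt.ne' (Nat.dvd_one.mp h2)
  have hN' : N * ∏ j, qv j = N * (List.ofFn qv).prod := by rw [List.prod_ofFn]
  have harith' : ∀ q ∈ List.ofFn qv, IsUnit (bq q - aq q) ∧
      (q : 𝒪) - aq q * bq q ∈ maximalIdeal 𝒪 ∧ IsUnit (1 - aq q ^ 2) ∧ IsUnit (1 - bq q ^ 2) := by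
    intro q hq
    obtain ⟨j, rfl⟩ := (List.mem_ofFn' qv q).mp hq
    exact harith j
  have hocc : ∃ v : s29h_Hpar 𝒪 N 𝒪,
      v ∉ (maximalIdeal 𝒪 • ⊤ : Submodule 𝒪 (s29h_Hpar 𝒪 N 𝒪)) ∧
      ∀ x ∈ s59t_goodB (N * ∏ j, qv j) Bset,
        s59t_op0 (N * ∏ j, qv j) aq N (Sum.inl x) v - s59t_cB (𝒪 := 𝒪) (N * ∏ j, qv j) a x • v ∈
          (maximalIdeal 𝒪 • ⊤ : Submodule 𝒪 (s29h_Hpar 𝒪 N 𝒪)) := by
    obtain ⟨v, hv, hvT⟩ := hocc0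
    refine ⟨v, hv, ?_⟩
    rintro x ⟨i, rfl, hi⟩
    haveI : Fact i.ell.Prime := ⟨i.prime⟩
    exact hvT i.ell (fun h => i.ndvd (dvd_trans h hN)) hi
  -- the group-theoretic hypotheses
  have hneg : (-1 : SL(2, ℤ)) ∈ s48h_GammaH N H := s59t_neg_one_mem_GammaH_of H hnegH
  have hnegK : (-1 : (ZMod (∏ j, qv j))ˣ) ∈ s59t_KQ (p ^ n) qv :=
    s59t_neg_one_mem_KQ (p ^ n) qv hpodd
  have hnegH' : (-1 : (ZMod (N * ∏ j, qv j))ˣ) ∈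
      s59t_Hmul N (∏ j, qv j) H (s59t_KQ (p ^ n) qv) := s59t_neg_one_mem_Hmul H hnegH hnegK
  have hneg' : (-1 : SL(2, ℤ)) ∈
      s48h_GammaH (N * ∏ j, qv j) (s59t_Hmul N (∏ j, qv j) H (s59t_KQ (p ^ n) qv)) :=
    s59t_neg_one_mem_GammaH_of _ hnegH'
  have hH' : ∀ u : (ZMod (N * ∏ j, qv j))ˣ, ∃ k : ℕ,
      u ^ (p ^ k) ∈ s59t_Hmul N (∏ j, qv j) H (s59t_KQ (p ^ n) qv) :=
    s59t_Hmul_pgroup (N := N) (D := ∏ j, qv j) (H := H) (K := s59t_KQ (p ^ n) qv) p hH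
      (fun u => ⟨n, s59t_pow_mem_KQ (p ^ n) qv u⟩)
  have hPF : s59t_PF N H := s59t_PF_of_pgroup p hp12 hsq hnegH hH
  have hPF' : s59t_PF (N * ∏ j, qv j) (s59t_Hmul N (∏ j, qv j) H (s59t_KQ (p ^ n) qv)) :=
    s59t_PF_of_pgroup p hp12 hsq' hnegH' hH'
  have hconcl := s59t_TW_control (𝒪 := 𝒪) (N := N) (N' := N * ∏ j, qv j) (H := H)
    (H' := s59t_Hmul N (∏ j, qv j) H (s59t_KQ (p ^ n) qv))
    (s59t_Gamma0_anti (s59t_dvd_mul_left' N (∏ j, qv j)))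
    (s59t_GammaHmul_le (N := N) (D := ∏ j, qv j) (H := H) (K := s59t_KQ (p ^ n) qv))
    hPF hPF' p hp2 hneg hneg' (s59t_Delta_isPGroup p hH) (s59t_Delta_isPGroup p hH')
    (s59t_BQ N (∏ j, qv j) H (s59t_KQ (p ^ n) qv)) (s59t_CQ N (∏ j, qv j) H (s59t_KQ (p ^ n) qv))
    (s59t_BQ_CQ_bijective (N := N) (D := ∏ j, qv j) (H := H) (K := s59t_KQ (p ^ n) qv) hcop)
    (fun β hβ => MonoidHom.mem_ker.mp hβ)
    (s59t_phiN_CQ_bijective (N := N) (D := ∏ j, qv j) (H := H) (K := s59t_KQ (p ^ n) qv) hcop)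
    hN (List.ofFn qv) hL hLp hN' aq bq harith'
    (s59t_goodB (N * ∏ j, qv j) Bset) (s59t_cB (𝒪 := 𝒪) (N * ∏ j, qv j) a) i₀
    (s59t_inl_mem_goodB Bset i₀ hi₀) hnE hocc hTQ
  obtain ⟨e₀, G, h1e', hunit, heH, heH', hnilH, hnilH', hfull⟩ :=
    s59t_TWFull_of_concl (s59t_Gamma0_anti (s59t_dvd_mul_left' N (∏ j, qv j)))
      (s59t_GammaHmul_le (N := N) (D := ∏ j, qv j) (H := H) (K := s59t_KQ (p ^ n) qv))
      (s59t_BQ N (∏ j, qv j) H (s59t_KQ (p ^ n) qv)) (s59t_CQ N (∏ j, qv j) H (s59t_KQ (p ^ n) qv))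
      (s59t_BQ_CQ_bijective (N := N) (D := ∏ j, qv j) (H := H) (K := s59t_KQ (p ^ n) qv) hcop)
      (s59t_phiN_CQ_bijective (N := N) (D := ∏ j, qv j) (H := H) (K := s59t_KQ (p ^ n) qv) hcop)
      hN aq _ _ hconcl
  have hid2 : s59t_actH N aq (dvd_refl N) H (s59t_jG 𝒪 (s59t_goodB N Bset) e) *
      s59t_actH N aq (dvd_refl N) H (s59t_jG 𝒪 (s59t_goodB N Bset) e) =
      s59t_actH N aq (dvd_refl N) H (s59t_jG 𝒪 (s59t_goodB N Bset) e) := by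
    rw [s59t_actH_eq_E0]; exact hid
  have hnil2 : ∀ x ∈ s59t_goodB N Bset, ∃ k : ℕ, ∀ y : s48h_Hpar 𝒪 (s48h_GammaH N H) 𝒪,
      ((s59t_opH N aq (dvd_refl N) H (Sum.inl x) - s59t_cB (𝒪 := 𝒪) N a x •
        (1 : Module.End 𝒪 (s48h_Hpar 𝒪 (s48h_GammaH N H) 𝒪))) ^ k)
        (s59t_actH N aq (dvd_refl N) H (s59t_jG 𝒪 (s59t_goodB N Bset) e) y) ∈
        (maximalIdeal 𝒪 • ⊤ : Submodule 𝒪 (s48h_Hpar 𝒪 (s48h_GammaH N H) 𝒪)) := by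
    intro x hx
    rw [s59t_actH_eq_E0, s59t_opH_inl, s59t_AIdx_down_self]
    exact hnil x hx
  have hind := s59t_actH_indep p hN H Bset a S37 hN1 hnegH hp𝒪 hpB hH hoccH aq e₀ h1e' heH hnilH
    e h1e hid2 hnil2
  rw [s59t_actH_eq_E0] at hind
  exact ⟨e₀, G, h1e', fun t ht => (hunit t ht).imp fun η h => h.2, heH', hnilH',
    hfull.congr_base _ _ hind⟩

end Level

end Fermat.Agent.Lib.S59
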