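/-
S59 (helper5, prefix `s59e_`): **the anemic generators on an `ε`-part** and the small glue facts used in the
assembly of `s59i_TPkg` (`ETPkg.lean`): `opY`, `hopY`, `hρ'`, `hρB`, `hFa`, `htT'`.
-/
import Mathlib
import Fermat.Agent.Lib.S59.ETBaseD
import Fermat.Agent.Lib.S59.TGHOps
import Fermat.Agent.Lib.S59.TLvlQ3

set_option autoImplicit false
set_option linter.unusedSectionVars false
set_option linter.unusedVariables false
set_option linter.style.haveILetI false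
set_option synthInstance.maxHeartbeats 400000
set_option maxSynthPendingDepth 3

noncomputable section

namespace Fermat.Agent.Lib.S59

open Fermat.Agent.Lib.S48 CongruenceSubgroup CuspForm
open scoped MatrixGroups

section Ops

variable {M : ℕ} [NeZero M] (H : Subgroup (ZMod M)ˣ) {𝒪 : Type} [CommRing 𝒪]
  (ε : Module.End 𝒪 (s48h_Hpar 𝒪 (s48h_GammaH M H) 𝒪))
  (hεc : ∀ j : s59w_AIdx M, ε * s59w_op H 𝒪 j = s59w_op H 𝒪 j * ε)

/-- the anemic generators on the `ε`-part. -/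
def s59e_opPart (j : s59w_AIdx M) : Module.End 𝒪 (LinearMap.range ε) :=
  s59t_partMap (s59w_op H 𝒪 j) (fun y => LinearMap.congr_fun (hεc j) y)

theorem s59e_opPart_coe (j : s59w_AIdx M) (y : LinearMap.range ε) :
    ((LinearMap.range ε).subtype) (s59e_opPart H ε hεc j y) =
      s59w_op H 𝒪 j ((LinearMap.range ε).subtype y) := rfl

/-- an element of the ring generated by the `T'_ℓ` commutes with the anemic generators. -/
theorem s59e_closure_comm_op (k : ℕ) (x : Module.End 𝒪 (s48h_Hpar 𝒪 (s48h_GammaH M H) 𝒪))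
    (hx : x ∈ Subring.closure (Set.range (s59e_Tp' H 𝒪 k))) (j : s59w_AIdx M) :
    Commute x (s59w_op H 𝒪 j) := by
  have hc : ∀ a b : s59w_AIdx M, Commute (s59w_op H 𝒪 a) (s59w_op H 𝒪 b) :=
    fun a b => s59w_op_comm H 𝒪 a b
  induction hx using Subring.closure_induction with
  | mem y hy =>
    obtain ⟨i, rfl⟩ := hy
    exact (hc _ _).mul_left (hc _ _)
  | zero => exact Commute.zero_left _
  | one => exact Commute.one_left _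
  | add y z _ _ h1 h2 => exact h1.add_left h2
  | neg y _ h1 => exact h1.neg_left
  | mul y z _ _ h1 h2 => exact h1.mul_left h2

variable (hρ' : ∀ δ y, ε (s59t_rho M H 𝒪 𝒪 δ y) = s59t_rho M H 𝒪 𝒪 δ (ε y))

/-- the diamond representation on the part, through `opPart`. -/
theorem s59e_partRep_mk (τ : Gamma0 M) :
    s59t_partRep (s59t_rho M H 𝒪 𝒪) hρ' (QuotientGroup.mk τ) =
      s59e_opPart H ε hεc (Sum.inr ⟨((τ : SL(2, ℤ)))⁻¹, inv_mem τ.2⟩) := rfl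

theorem s59e_partRep_exists (δ : s59t_Delta M H) :
    ∃ τ : Gamma0 M, s59t_partRep (s59t_rho M H 𝒪 𝒪) hρ' δ = s59e_opPart H ε hεc (Sum.inr τ) := by
  obtain ⟨τ, rfl⟩ := QuotientGroup.mk_surjective δ
  exact ⟨_, s59e_partRep_mk H ε hεc hρ' τ⟩

/-- `hρB` of `s59u_hrad_final`. -/
theorem s59e_partRep_hρB (Bq : Subgroup (s59t_Delta M H)) (β : Bq) :
    ∃ τ : Gamma0 M, ∀ z : LinearMap.range ε,
      ((LinearMap.range ε).subtype)
        (((s59t_partRep (s59t_rho M H 𝒪 𝒪) hρ').comp Bq.subtype) β z) =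
        s59w_op H 𝒪 (Sum.inr τ) ((LinearMap.range ε).subtype z) := by
  obtain ⟨τ, hτ⟩ := QuotientGroup.mk_surjective (β : s59t_Delta M H)
  refine ⟨⟨((τ : SL(2, ℤ)))⁻¹, inv_mem τ.2⟩, fun z => ?_⟩
  rw [MonoidHom.comp_apply, Subgroup.coe_subtype, ← hτ]
  rfl

variable {A : Type} [CommRing A]
  (a : A →+* Module.End 𝒪 (s48h_Hpar 𝒪 (s48h_GammaH M H) 𝒪)) (k : ℕ)
  (ha : ∀ t, a t ∈ Subring.closure (Set.range (s59e_Tp' H 𝒪 k)))
  (aM : A →+* Module.End 𝒪 (LinearMap.range ε))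
  (haM : ∀ t (z : LinearMap.range ε), ((aM t z : LinearMap.range ε) :
    s48h_Hpar 𝒪 (s48h_GammaH M H) 𝒪) = a t (z : s48h_Hpar 𝒪 (s48h_GammaH M H) 𝒪))

include ha haM in
/-- `hFa`: the Hecke operators commute with the diamond representation on the part. -/
theorem s59e_hFa_part (t : A) (δ : s59t_Delta M H) :
    Commute (aM t) (s59t_partRep (s59t_rho M H 𝒪 𝒪) hρ' δ) := by
  obtain ⟨τ, rfl⟩ := QuotientGroup.mk_surjective δ
  refine LinearMap.ext fun z => Subtype.ext ?_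
  have h := LinearMap.congr_fun (s59e_closure_comm_op H k (a t) (ha t)
    (Sum.inr ⟨((τ : SL(2, ℤ)))⁻¹, inv_mem τ.2⟩)).eq (z : s48h_Hpar 𝒪 (s48h_GammaH M H) 𝒪)
  have h1 : ((aM t (s59t_partRep (s59t_rho M H 𝒪 𝒪) hρ' (QuotientGroup.mk τ) z) :
      LinearMap.range ε) : s48h_Hpar 𝒪 (s48h_GammaH M H) 𝒪) =
      a t (s59w_op H 𝒪 (Sum.inr ⟨((τ : SL(2, ℤ)))⁻¹, inv_mem τ.2⟩)
        (z : s48h_Hpar 𝒪 (s48h_GammaH M H) 𝒪)) := haM t _
  have h2 : ((s59t_partRep (s59t_rho M H 𝒪 𝒪) hρ' (QuotientGroup.mk τ) (aM t z) :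
      LinearMap.range ε) : s48h_Hpar 𝒪 (s48h_GammaH M H) 𝒪) =
      s59w_op H 𝒪 (Sum.inr ⟨((τ : SL(2, ℤ)))⁻¹, inv_mem τ.2⟩)
        (a t (z : s48h_Hpar 𝒪 (s48h_GammaH M H) 𝒪)) :=
    congrArg (s59w_op H 𝒪 (Sum.inr ⟨((τ : SL(2, ℤ)))⁻¹, inv_mem τ.2⟩)) (haM t z)
  exact h1.trans (h.trans h2.symm)

include haM in
theorem s59e_haM_subtype (t : A) (z : LinearMap.range ε) :
    ((LinearMap.range ε).subtype) (aM t z) = a t ((LinearMap.range ε).subtype z) := haM t z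

end Ops

section E0c

variable {M : ℕ} [NeZero M] (H : Subgroup (ZMod M)ˣ) {𝒪 : Type} [CommRing 𝒪]

/-- the base idempotent commutes with every anemic generator. -/
theorem s59e_E0_comm_op (Bset : Finset ℕ) (e : MvPolynomial ↥(s59t_goodB M Bset) 𝒪)
    (j : s59w_AIdx M) :
    s59t_E0 H Bset e * s59w_op H 𝒪 j = s59w_op H 𝒪 j * s59t_E0 H Bset e := by
  rw [← s59t_actH_eq_E0 H Bset (fun _ => (0 : 𝒪)) e]
  exact s59t_actH_comm_op H _ _ j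

end E0c

section TT

variable {M : ℕ} [NeZero M] (H : Subgroup (ZMod M)ˣ) {𝒪 : Type} [CommRing 𝒪]
  (ε : Module.End 𝒪 (s48h_Hpar 𝒪 (s48h_GammaH M H) 𝒪))
  {M' : ℕ} [NeZero M'] (S : Finset ℕ)
  (a : heckeAlgebra M' 2 (↑S : Set ℕ) →+* Module.End 𝒪 (s48h_Hpar 𝒪 (s48h_GammaH M H) 𝒪)) (k : ℕ)
  (ha1 : ∀ (ℓ : ℕ) (hℓ : ℓ.Prime) (hℓN : ¬ ℓ ∣ M') (hℓS : ℓ ∉ (↑S : Set ℕ)) (i : s59w_TIdx M),
    i.ell = ℓ → a (heckeAlgebra.T hℓ hℓN hℓS) = s59e_Tp' H 𝒪 k i)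
  (aM : heckeAlgebra M' 2 (↑S : Set ℕ) →+* Module.End 𝒪 (LinearMap.range ε))
  (haM : ∀ t (z : LinearMap.range ε), ((aM t z : LinearMap.range ε) :
    s48h_Hpar 𝒪 (s48h_GammaH M H) 𝒪) = a t (z : s48h_Hpar 𝒪 (s48h_GammaH M H) 𝒪))
  (hS : ∀ q : ℕ, q.Prime → q ∣ M' → q ∈ S)

include ha1 haM hS in
/-- `htT'` of `s59b_hchi_TPkg`. -/
theorem s59e_htT'_part (i : s59w_TIdx M) (hi : i.ell ∉ S) (z : LinearMap.range ε) :
    ((LinearMap.range ε).subtype)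
      (((s59e_tOf (↑S : Set ℕ) aM i.ell : s59e_adj 𝒪 aM) :
        Module.End 𝒪 (LinearMap.range ε)) z) =
      s59e_Tp' H 𝒪 k i ((LinearMap.range ε).subtype z) := by
  have hN : ¬ i.ell ∣ M' := fun h => hi (hS _ i.prime h)
  have hS' : i.ell ∉ (↑S : Set ℕ) := fun h => hi (Finset.mem_coe.mp h)
  rw [s59e_tOf_coe (↑S : Set ℕ) aM i.prime hN hS']
  show ((aM _ z : LinearMap.range ε) : s48h_Hpar 𝒪 (s48h_GammaH M H) 𝒪) = _
  rw [haM, ha1 i.ell i.prime hN hS' i rfl]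
  rfl

end TT

section B2

open IsLocalRing

local notation "Γℚ" => (AlgebraicClosure ℚ ≃ₐ[ℚ] AlgebraicClosure ℚ)

/-- **the interface (B2)**: the Hecke ring `T′ = 𝒪[aM(𝕋)]` of the `ε`-part at level `(M, H)` (Hecke algebra
of level `M'`, away from `S`, twist exponent `k`), with the surjection from the deformation ring, the
Frobenius characteristic polynomials and the congruence `T_ℓ ≡ cT ℓ`. -/
def s59e_B2Concl {M : ℕ} [NeZero M] (H : Subgroup (ZMod M)ˣ)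
    {𝒪 : Type} [CommRing 𝒪] [IsDomain 𝒪] [IsDiscreteValuationRing 𝒪]
    [IsAdicComplete (maximalIdeal 𝒪) 𝒪] [Finite (ResidueField 𝒪)]
    (ε : Module.End 𝒪 (s48h_Hpar 𝒪 (s48h_GammaH M H) 𝒪))
    (M' : ℕ) [NeZero M'] (S : Finset ℕ) (k : ℕ) (cT : ℕ → 𝒪)
    {ρbar : ResidualGaloisRep (ResidueField 𝒪)}
    {𝒟 : ∀ ⦃A : Type⦄ [CommRing A] [IsLocalRing A] [Algebra 𝒪 A], GaloisRepAdic A → Prop}
    (DQ : GaloisRep.DeformationRingData 𝒪 ρbar 𝒟) : Prop :=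
  ∃ (a : heckeAlgebra M' 2 (↑S : Set ℕ) →+* Module.End 𝒪 (s48h_Hpar 𝒪 (s48h_GammaH M H) 𝒪))
    (aM : heckeAlgebra M' 2 (↑S : Set ℕ) →+* Module.End 𝒪 (LinearMap.range ε)),
    (∀ (ℓ : ℕ) (hℓ : ℓ.Prime) (hℓN : ¬ ℓ ∣ M') (hℓS : ℓ ∉ (↑S : Set ℕ)) (i : s59w_TIdx M),
      i.ell = ℓ → a (heckeAlgebra.T hℓ hℓN hℓS) = s59e_Tp' H 𝒪 k i) ∧
    (∀ t, a t ∈ Subring.closure (Set.range (s59e_Tp' H 𝒪 k))) ∧
    (∀ t (z : LinearMap.range ε), ((aM t z : LinearMap.range ε) :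
      s48h_Hpar 𝒪 (s48h_GammaH M H) 𝒪) = a t (z : s48h_Hpar 𝒪 (s48h_GammaH M H) 𝒪)) ∧
    (∀ x ∈ s59e_adj 𝒪 aM, ∃ d : 𝒪, s59e_IsLocScalar x d) ∧
    ∃ (_ : IsLocalRing (s59e_adj 𝒪 aM)) (θ : DQ.R →ₐ[𝒪] s59e_adj 𝒪 aM),
      Function.Surjective θ ∧
      (∀ ℓ : ℕ, ℓ.Prime → ℓ ∉ S →
        ∀ A' : ValuationSubring (AlgebraicClosure ℚ), A'.LiesOverPrime ℓ →
        ∀ τ : Γℚ, A'.IsFrobeniusAt τ ℓ →
          (LinearMap.charpoly (DQ.ρ.ρ τ)).map (θ : DQ.R →+* s59e_adj 𝒪 aM) =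
            Polynomial.X ^ 2 - Polynomial.C (s59e_tOf (↑S : Set ℕ) aM ℓ) * Polynomial.X +
              Polynomial.C ((ℓ : s59e_adj 𝒪 aM))) ∧
      (∀ ℓ : ℕ, ℓ.Prime → ℓ ∉ S →
        s59e_tOf (↑S : Set ℕ) aM ℓ - algebraMap 𝒪 (s59e_adj 𝒪 aM) (cT ℓ) ∈
          maximalIdeal (s59e_adj 𝒪 aM))

end B2

end Fermat.Agent.Lib.S59
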