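/-
S59 (helper9, prefix `s59m_`), **converters from the outputs of the level-`n` call of `s59e_H3'` (B2, in the shape of
helper5's #3523) to the hypotheses `htT'` and `hcong` of `s59m_hC8_TPkg` (MC8TP) / `s59b_hchi_TPkg` (helper2):**
with `tT' := s59e_tOf ↑S aM`,

* `s59m_sub_algebraMap_mem_of_locScalar` : `x ∈ 𝒪[a(A)]` locally scalar with constant `c` ⟹ `x − c ∈ 𝔪`;
* `s59m_htT'_of_B2`  : `j ((tT' i.ell : End) z) = s59e_Tp' H 𝒪 k i (j z)` for `i.ell ∉ S`;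
* `s59m_hcong_of_B2` : `tT' ℓ − a_ℓ ∈ 𝔪_{T′}` for `ℓ ∉ S` (from local scalarity); `s59m_hcong_of_residue` (from the
  residual eigensystem `θ` of `s59e_H3Concl`).
-/
import Mathlib
import Fermat.Agent.Lib.S59.ETBaseD
import Fermat.Agent.Lib.S59.EHRel1

set_option autoImplicit false
set_option linter.unusedSectionVars false
set_option linter.unusedVariables false
set_option linter.style.haveILetI false
set_option synthInstance.maxHeartbeats 400000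
set_option maxHeartbeats 1600000

noncomputable section

namespace Fermat.Agent.Lib.S59

open Fermat.Agent.Lib.S48
open IsLocalRing CuspForm CongruenceSubgroup
open scoped MatrixGroups

section LocScalar

variable {𝒪 : Type*} [CommRing 𝒪] [IsLocalRing 𝒪] {Y : Type*} [AddCommGroup Y] [Module 𝒪 Y]
  [Module.Free 𝒪 Y] [Module.Finite 𝒪 Y] [Nontrivial Y]
  {A' : Type*} [Semiring A'] [IsMulCommutative A'] (a' : A' →+* Module.End 𝒪 Y)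
  [IsLocalRing (s59e_adj 𝒪 a')] [IsLocalHom (algebraMap 𝒪 (s59e_adj 𝒪 a'))]

/-- an element of `𝒪[a(A)]` which is locally scalar with constant `c` is `≡ c` modulo the maximal ideal. -/
theorem s59m_sub_algebraMap_mem_of_locScalar (x : s59e_adj 𝒪 a') (c : 𝒪)
    (hx : s59e_IsLocScalar (x : Module.End 𝒪 Y) c) :
    x - algebraMap 𝒪 (s59e_adj 𝒪 a') c ∈ maximalIdeal (s59e_adj 𝒪 a') := by
  have hy : s59e_IsLocScalar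
      (((x - algebraMap 𝒪 (s59e_adj 𝒪 a') c : s59e_adj 𝒪 a')) : Module.End 𝒪 Y) (0 : 𝒪) := by
    unfold s59e_IsLocScalar at hx ⊢
    have e1 : (((x - algebraMap 𝒪 (s59e_adj 𝒪 a') c : s59e_adj 𝒪 a')) : Module.End 𝒪 Y) =
        (x : Module.End 𝒪 Y) - c • (1 : Module.End 𝒪 Y) := by
      rw [Subalgebra.coe_sub, Subalgebra.coe_algebraMap, Algebra.algebraMap_eq_smul_one]
    rw [e1, zero_smul, sub_zero]
    exact hx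
  have h := (s59e_adj_mem_maximalIdeal_iff (𝒪 := 𝒪) a'
    (x - algebraMap 𝒪 (s59e_adj 𝒪 a') c).2 hy).mpr (Ideal.zero_mem _)
  exact h

end LocScalar

section B2

variable {M : ℕ} [NeZero M] (H : Subgroup (ZMod M)ˣ)
  {𝒪 : Type} [CommRing 𝒪]
  {Y' : Type} [AddCommGroup Y'] [Module 𝒪 Y']
  (j : Y' →ₗ[𝒪] s48h_Hpar 𝒪 (s48h_GammaH M H) 𝒪)
  {Mn : ℕ} [NeZero Mn] (S : Finset ℕ) (hS : ∀ q : ℕ, q.Prime → q ∣ Mn → q ∈ S)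
  (a : heckeAlgebra Mn 2 (↑S : Set ℕ) →+* Module.End 𝒪 (s48h_Hpar 𝒪 (s48h_GammaH M H) 𝒪)) (k : ℕ)
  (ha1 : ∀ (ℓ : ℕ) (hℓ : ℓ.Prime) (hℓN : ¬ ℓ ∣ Mn) (hℓS : ℓ ∉ (↑S : Set ℕ)) (i : s59w_TIdx M),
    i.ell = ℓ → a (heckeAlgebra.T hℓ hℓN hℓS) = s59e_Tp' H 𝒪 k i)
  (aM : heckeAlgebra Mn 2 (↑S : Set ℕ) →+* Module.End 𝒪 Y')
  (haM : ∀ t (z : Y'), j (aM t z) = a t (j z))

include hS ha1 haM in
/-- **`htT'`** of `s59m_hC8_TPkg` / `s59b_hchi_TPkg` for `tT' := s59e_tOf ↑S aM`. -/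
theorem s59m_htT'_of_B2 (i : s59w_TIdx M) (hi : i.ell ∉ S) (z : Y') :
    j (((s59e_tOf (𝒪 := 𝒪) (↑S : Set ℕ) aM i.ell : s59e_adj 𝒪 aM) : Module.End 𝒪 Y') z) =
      s59e_Tp' H 𝒪 k i (j z) := by
  have hℓN : ¬ i.ell ∣ Mn := fun h => hi (hS _ i.prime h)
  have hℓS : i.ell ∉ (↑S : Set ℕ) := fun h => hi (Finset.mem_coe.mp h)
  rw [s59e_tOf_coe (↑S : Set ℕ) aM i.prime hℓN hℓS, haM, ha1 i.ell i.prime hℓN hℓS i rfl]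

variable [IsLocalRing 𝒪] [Module.Free 𝒪 Y'] [Module.Finite 𝒪 Y'] [Nontrivial Y']
  [IsLocalRing (s59e_adj 𝒪 aM)] [IsLocalHom (algebraMap 𝒪 (s59e_adj 𝒪 aM))]

include hS in
/-- **`hcong`** of `s59m_hC8_TPkg` for `tT' := s59e_tOf ↑S aM`, from the local scalarity of the `aM (T_ℓ)`. -/
theorem s59m_hcong_of_B2 (c : ℕ → ℤ)
    (hloc : ∀ (ℓ : ℕ) (hℓ : ℓ.Prime) (hℓS : ℓ ∉ (↑S : Set ℕ)) (hℓN : ¬ ℓ ∣ Mn),
      s59e_IsLocScalar (aM (heckeAlgebra.T hℓ hℓN hℓS)) (((c ℓ : ℤ) : 𝒪)))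
    (ℓ : ℕ) (hℓ : ℓ.Prime) (hℓS : ℓ ∉ S) :
    s59e_tOf (𝒪 := 𝒪) (↑S : Set ℕ) aM ℓ - algebraMap 𝒪 (s59e_adj 𝒪 aM) (((c ℓ : ℤ) : 𝒪)) ∈
      maximalIdeal (s59e_adj 𝒪 aM) := by
  have hℓN : ¬ ℓ ∣ Mn := fun h => hℓS (hS _ hℓ h)
  have hℓS' : ℓ ∉ (↑S : Set ℕ) := fun h => hℓS (Finset.mem_coe.mp h)
  refine s59m_sub_algebraMap_mem_of_locScalar aM _ _ ?_
  rw [s59e_tOf_coe (↑S : Set ℕ) aM hℓ hℓN hℓS']
  exact hloc ℓ hℓ hℓS' hℓN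

include hS in
/-- **`hcong`** of `s59m_hC8_TPkg` for `tT' := s59e_tOf ↑S aM`, from the residual eigensystem `θ` of
`s59e_H3Concl` (`residue (aM t) = θ t`, `θ (T_ℓ) = residue (c ℓ)`). -/
theorem s59m_hcong_of_residue (θ : heckeAlgebra Mn 2 (↑S : Set ℕ) →+* ResidueField 𝒪) (c : ℕ → 𝒪)
    (h1 : ∀ t, residue (s59e_adj 𝒪 aM) (s59e_adjHom 𝒪 aM t) =
      ResidueField.map (algebraMap 𝒪 (s59e_adj 𝒪 aM)) (θ t))
    (h2 : ∀ (ℓ : ℕ) (hℓ : ℓ.Prime) (hℓN : ¬ ℓ ∣ Mn) (hℓS : ℓ ∉ (↑S : Set ℕ)),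
      θ (heckeAlgebra.T hℓ hℓN hℓS) = residue 𝒪 (c ℓ))
    (ℓ : ℕ) (hℓ : ℓ.Prime) (hℓS : ℓ ∉ S) :
    s59e_tOf (𝒪 := 𝒪) (↑S : Set ℕ) aM ℓ - algebraMap 𝒪 (s59e_adj 𝒪 aM) (c ℓ) ∈
      maximalIdeal (s59e_adj 𝒪 aM) := by
  have hℓN : ¬ ℓ ∣ Mn := fun h => hℓS (hS _ hℓ h)
  have hℓS' : ℓ ∉ (↑S : Set ℕ) := fun h => hℓS (Finset.mem_coe.mp h)
  rw [s59e_tOf_eq (↑S : Set ℕ) aM hℓ hℓN hℓS', ← IsLocalRing.residue_eq_zero_iff, map_sub, h1,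
    h2 ℓ hℓ hℓN hℓS', IsLocalRing.ResidueField.map_residue, sub_self]

end B2

end Fermat.Agent.Lib.S59
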