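/-
S59 (helper5, prefix `s59e_`): **from helper6's `s59q_H3Out` (QTB2) to the interface `s59e_B2Concl`** of `ETLvlOps.lean`.
-/
import Mathlib
import Fermat.Agent.Lib.S59.ETLvlOps
import Fermat.Agent.Lib.S59.QTB2
import Fermat.Agent.Lib.S59.MC8B2

set_option autoImplicit false
set_option linter.unusedSectionVars false
set_option linter.unusedVariables false
set_option linter.style.haveILetI false
set_option synthInstance.maxHeartbeats 400000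
set_option maxSynthPendingDepth 3
set_option maxHeartbeats 1600000

noncomputable section

namespace Fermat.Agent.Lib.S59

open Fermat.Agent.Lib.S48 CongruenceSubgroup CuspForm IsLocalRing

section TT

variable (M' : ℕ) [NeZero M'] (S : Finset ℕ) {𝒪 : Type*} [CommRing 𝒪]
  {E : Type*} [Ring E] [Algebra 𝒪 E] (aM : heckeAlgebra M' 2 (↑S : Set ℕ) →+* E)

/-- helper6's `s59q_tT` is `s59e_tOf`. -/
theorem s59e_tT_eq_tOf (ℓ : ℕ) :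
    s59q_tT (𝒪 := 𝒪) M' S aM ℓ = s59e_tOf (𝒪 := 𝒪) (↑S : Set ℕ) aM ℓ := by
  by_cases h : ℓ.Prime ∧ ¬ ℓ ∣ M' ∧ ℓ ∉ (↑S : Set ℕ)
  · rw [s59q_tT_eq M' S aM h.1 h.2.1 h.2.2, s59e_tOf_eq (↑S : Set ℕ) aM h.1 h.2.1 h.2.2]
  · unfold s59q_tT s59e_tOf
    rw [dif_neg h, dif_neg h]

end TT

section Conv

variable {M : ℕ} [NeZero M] (H : Subgroup (ZMod M)ˣ)
  {𝒪 : Type} [CommRing 𝒪] [IsDomain 𝒪] [IsDiscreteValuationRing 𝒪]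
  [IsAdicComplete (maximalIdeal 𝒪) 𝒪] [Finite (ResidueField 𝒪)] [CharZero 𝒪]
  [Module.Free 𝒪 (s48h_Hpar 𝒪 (s48h_GammaH M H) 𝒪)]
  [Module.Finite 𝒪 (s48h_Hpar 𝒪 (s48h_GammaH M H) 𝒪)]
  (ε : Module.End 𝒪 (s48h_Hpar 𝒪 (s48h_GammaH M H) 𝒪))
  [Module.Free 𝒪 (LinearMap.range ε)] [Module.Finite 𝒪 (LinearMap.range ε)]
  [Nontrivial (LinearMap.range ε)]
  (M' : ℕ) [NeZero M'] [Fact (HasIntegralStructure M' 2)] (S : Finset ℕ) (k : ℕ) (c : ℕ → ℤ)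
  (hS : ∀ q : ℕ, q.Prime → q ∣ M' → q ∈ S)
  {ρbar : ResidualGaloisRep (ResidueField 𝒪)}
  {𝒟 : ∀ ⦃A : Type⦄ [CommRing A] [IsLocalRing A] [Algebra 𝒪 A], GaloisRepAdic A → Prop}
  (DQ : GaloisRep.DeformationRingData 𝒪 ρbar 𝒟)
  (a : heckeAlgebra M' 2 (↑S : Set ℕ) →+* Module.End 𝒪 (s48h_Hpar 𝒪 (s48h_GammaH M H) 𝒪))
  (ha1 : ∀ (ℓ : ℕ) (hℓ : ℓ.Prime) (hℓN : ¬ ℓ ∣ M') (hℓS : ℓ ∉ (↑S : Set ℕ)) (i : s59w_TIdx M),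
    i.ell = ℓ → a (heckeAlgebra.T hℓ hℓN hℓS) = s59e_Tp' H 𝒪 k i)
  (ha2 : ∀ t, a t ∈ Subring.closure (Set.range (s59e_Tp' H 𝒪 k)))
  (hout : s59q_H3Out M' S a ε (fun ℓ => ((c ℓ : ℤ) : 𝒪)) DQ)

include hS ha1 ha2 hout in
/-- **(B2) in the interface shape.** -/
theorem s59e_B2Concl_of_H3Out :
    s59e_B2Concl H ε M' S k (fun ℓ => ((c ℓ : ℤ) : 𝒪)) DQ := by
  obtain ⟨aM, haM, hlocA, hTa, θ, hθ, hfrobT⟩ := hout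
  haveI hlr : IsLocalRing (s59e_adj 𝒪 aM) := s59e_adj_isLocalRing aM hlocA
  haveI : IsLocalHom (algebraMap 𝒪 (s59e_adj 𝒪 aM)) := s59e_adj_isLocalHom aM hlocA
  have htt : s59q_tT (𝒪 := 𝒪) M' S aM = s59e_tOf (𝒪 := 𝒪) (↑S : Set ℕ) aM :=
    funext (s59e_tT_eq_tOf (𝒪 := 𝒪) M' S aM)
  have key : ∀ t : ℕ → s59e_adj 𝒪 aM, t = s59e_tOf (𝒪 := 𝒪) (↑S : Set ℕ) aM →
      (∀ ℓ : ℕ, ℓ.Prime → ℓ ∉ S →
        ∀ A : ValuationSubring (AlgebraicClosure ℚ), A.LiesOverPrime ℓ →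
        ∀ τ : (AlgebraicClosure ℚ ≃ₐ[ℚ] AlgebraicClosure ℚ), A.IsFrobeniusAt τ ℓ →
          (LinearMap.charpoly (DQ.ρ.ρ τ)).map (θ : DQ.R →+* s59e_adj 𝒪 aM) =
            Polynomial.X ^ 2 - Polynomial.C (t ℓ) * Polynomial.X +
              Polynomial.C ((ℓ : s59e_adj 𝒪 aM))) →
      (∀ ℓ : ℕ, ℓ.Prime → ℓ ∉ S →
        ∀ A : ValuationSubring (AlgebraicClosure ℚ), A.LiesOverPrime ℓ →
        ∀ τ : (AlgebraicClosure ℚ ≃ₐ[ℚ] AlgebraicClosure ℚ), A.IsFrobeniusAt τ ℓ →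
          (LinearMap.charpoly (DQ.ρ.ρ τ)).map (θ : DQ.R →+* s59e_adj 𝒪 aM) =
            Polynomial.X ^ 2 - Polynomial.C (s59e_tOf (𝒪 := 𝒪) (↑S : Set ℕ) aM ℓ) * Polynomial.X +
              Polynomial.C ((ℓ : s59e_adj 𝒪 aM))) := by
    intro t ht h
    subst ht
    exact h
  refine ⟨a, aM, ha1, ha2, haM, hlocA, hlr, θ, hθ, key _ htt hfrobT, ?_⟩
  · intro ℓ hℓ hℓS
    exact s59m_hcong_of_B2 S hS aM c (fun ℓ hℓ hℓS hℓN => hTa ℓ hℓ hℓN hℓS) ℓ hℓ hℓS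

end Conv

end Fermat.Agent.Lib.S59
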