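/-
Programme (R) = S59, node (E) module half (helper8), file 72: **the base package** (once, before
any Taylor–Wiles datum): ONE polynomial `e` in the `T_ℓ` (`ℓ ∤ N`, `ℓ ∉ Bset`) which is a
non-Eisenstein idempotent `≠ 0` both on `H_par(Γ_H(N))` and on `H_par(Γ₀(N)) = H_par(Γ_⊤(N))`,
with the comparison `(N, ⊤) ← (N, H)` (`s59t_TWFull`, `B = ⊤`, `C = ⊥`).
-/
import Mathlib
import Fermat.Agent.Lib.S59.TLvlQ3
import Fermat.Agent.Lib.S59.TSame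

set_option autoImplicit false
set_option linter.unusedSectionVars false
set_option linter.style.haveILetI false
set_option linter.unusedVariables false

noncomputable section

namespace Fermat.Agent.Lib.S59

open Matrix MatrixGroups CongruenceSubgroup IsLocalRing
open Fermat.Agent.Lib.S29 Fermat.Agent.Lib.S48 Fermat.Agent.Lib.S41

section Top

variable {N : ℕ} [NeZero N]

instance s59t_Delta_top_subsingleton : Subsingleton (s59t_Delta N ⊤) := by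
  refine ⟨fun x y => ?_⟩
  obtain ⟨τ, rfl⟩ := QuotientGroup.mk_surjective x
  obtain ⟨τ', rfl⟩ := QuotientGroup.mk_surjective y
  rw [QuotientGroup.eq, Subgroup.mem_subgroupOf]
  exact s59t_mem_GammaH_top N (τ⁻¹ * τ')

/-- every subgroup of `Δ` is a `Fintype`. -/
instance s59t_fintypeSubDelta (H : Subgroup (ZMod N)ˣ) (S : Subgroup (s59t_Delta N H)) :
    Fintype S := Fintype.ofFinite _

end Top

section Base

variable {𝒪 : Type} [CommRing 𝒪] [IsDomain 𝒪] [IsDiscreteValuationRing 𝒪]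
  [IsAdicComplete (maximalIdeal 𝒪) 𝒪] [Finite (ResidueField 𝒪)] [CharZero 𝒪]
  (p : ℕ) [hp : Fact p.Prime] [CharP (ResidueField 𝒪) p]
  {N : ℕ} [NeZero N] (H : Subgroup (ZMod N)ˣ) (Bset : Finset ℕ) (a : ℕ → ℤ)

include hp in
set_option maxHeartbeats 3200000 in
/-- **the base package.** -/
theorem s59t_base_pkg (hp12 : Nat.Coprime p 12) (hsq : Squarefree N)
    (hnegH : (-1 : (ZMod N)ˣ) ∈ H) (hH : ∀ u : (ZMod N)ˣ, ∃ k : ℕ, u ^ (p ^ k) ∈ H)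
    (hocc0 : ∃ v : s29h_Hpar 𝒪 N 𝒪,
      v ∉ (maximalIdeal 𝒪 • ⊤ : Submodule 𝒪 (s29h_Hpar 𝒪 N 𝒪)) ∧
      ∀ (ℓ : ℕ) [Fact ℓ.Prime], ¬ ℓ ∣ N → ℓ ∉ Bset →
        s29h_heckeHpar N ℓ 𝒪 𝒪 v - ((a ℓ : ℤ) : 𝒪) • v ∈
          (maximalIdeal 𝒪 • ⊤ : Submodule 𝒪 (s29h_Hpar 𝒪 N 𝒪)))
    (i₀ : s59w_TIdx N) (hi₀ : i₀.ell ∉ Bset)
    (hnE : IsUnit ((((a i₀.ell : ℤ) : 𝒪)) ^ 2 - ((i₀.ell : 𝒪) + 1) ^ 2)) :
    ∃ e : MvPolynomial ↥(s59t_goodB N Bset) 𝒪,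
      1 - e ∈ s59t_evalIdeal (fun x : ↥(s59t_goodB N Bset) =>
        s59t_cB (𝒪 := 𝒪) N a (x : s59w_AIdx N)) ∧
      (∀ t : MvPolynomial ↥(s59t_goodB N Bset) 𝒪,
        t ∉ s59t_evalIdeal (fun x : ↥(s59t_goodB N Bset) =>
          s59t_cB (𝒪 := 𝒪) N a (x : s59w_AIdx N)) →
        ∃ η : MvPolynomial ↥(s59t_goodB N Bset) 𝒪,
          s59t_E0 H Bset (η * t * e) = s59t_E0 H Bset e ∧
          s59t_E0 (⊤ : Subgroup (ZMod N)ˣ) Bset (η * t * e) = s59t_E0 ⊤ Bset e) ∧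
      -- level `(N, H)`
      s59t_E0 H Bset e * s59t_E0 H Bset e = s59t_E0 H Bset e ∧
      s59t_E0 H Bset e ≠ 0 ∧
      (∀ x ∈ s59t_goodB N Bset, ∃ k : ℕ, ∀ y : s48h_Hpar 𝒪 (s48h_GammaH N H) 𝒪,
        ((s59w_op H 𝒪 x - s59t_cB (𝒪 := 𝒪) N a x •
          (1 : Module.End 𝒪 (s48h_Hpar 𝒪 (s48h_GammaH N H) 𝒪))) ^ k)
          (s59t_E0 H Bset e y) ∈
          (maximalIdeal 𝒪 • ⊤ : Submodule 𝒪 (s48h_Hpar 𝒪 (s48h_GammaH N H) 𝒪))) ∧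
      -- level `(N, ⊤)`, i.e. `Γ₀(N)`
      s59t_E0 (⊤ : Subgroup (ZMod N)ˣ) Bset e * s59t_E0 ⊤ Bset e = s59t_E0 ⊤ Bset e ∧
      s59t_E0 (⊤ : Subgroup (ZMod N)ˣ) Bset e ≠ 0 ∧
      (∀ x ∈ s59t_goodB N Bset, ∃ k : ℕ,
        ∀ y : s48h_Hpar 𝒪 (s48h_GammaH N (⊤ : Subgroup (ZMod N)ˣ)) 𝒪,
        ((s59w_op (⊤ : Subgroup (ZMod N)ˣ) 𝒪 x - s59t_cB (𝒪 := 𝒪) N a x •
          (1 : Module.End 𝒪 (s48h_Hpar 𝒪 (s48h_GammaH N (⊤ : Subgroup (ZMod N)ˣ)) 𝒪))) ^ k)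
          (s59t_E0 ⊤ Bset e y) ∈
          (maximalIdeal 𝒪 • ⊤ :
            Submodule 𝒪 (s48h_Hpar 𝒪 (s48h_GammaH N (⊤ : Subgroup (ZMod N)ˣ)) 𝒪))) ∧
      -- the comparison `(N, ⊤) ← (N, H)`
      s59t_TWFull (le_refl (Gamma0 N)) (s59t_GammaH_mono (le_top : H ≤ ⊤))
        (⊤ : Subgroup (s59t_Delta N H)) (⊥ : Subgroup (s59t_Delta N H))
        (s59t_E0 (⊤ : Subgroup (ZMod N)ˣ) Bset e) (s59t_E0 H Bset e) := by
  classical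
  have hp2 : p ≠ 2 := by
    rintro rfl
    norm_num at hp12
  haveI : Fact i₀.ell.Prime := ⟨i₀.prime⟩
  obtain ⟨aq, haq⟩ : ∃ aq : ℕ → 𝒪, aq = fun _ => 0 := ⟨_, rfl⟩
  have hocc : ∃ v : s29h_Hpar 𝒪 N 𝒪,
      v ∉ (maximalIdeal 𝒪 • ⊤ : Submodule 𝒪 (s29h_Hpar 𝒪 N 𝒪)) ∧
      ∀ x ∈ s59t_goodB N Bset,
        s59t_op0 N aq N (Sum.inl x) v - s59t_cB (𝒪 := 𝒪) N a x • v ∈
          (maximalIdeal 𝒪 • ⊤ : Submodule 𝒪 (s29h_Hpar 𝒪 N 𝒪)) := by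
    obtain ⟨v, hv, hvT⟩ := hocc0
    refine ⟨v, hv, ?_⟩
    rintro x ⟨i, rfl, hi⟩
    haveI : Fact i.ell.Prime := ⟨i.prime⟩
    exact hvT i.ell i.ndvd hi
  obtain ⟨e, h1e, hee, hnil, hunit, hne⟩ := s59t_exists_e0 aq (dvd_refl N)
    (⊤ : Subgroup (ZMod N)ˣ) H (s59t_goodB N Bset) (s59t_cB (𝒪 := 𝒪) N a) hocc
  -- components
  have heT : s59t_actH N aq (dvd_refl N) (⊤ : Subgroup (ZMod N)ˣ) (s59t_jG 𝒪 (s59t_goodB N Bset) e) *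
      s59t_actH N aq (dvd_refl N) ⊤ (s59t_jG 𝒪 (s59t_goodB N Bset) e) =
      s59t_actH N aq (dvd_refl N) ⊤ (s59t_jG 𝒪 (s59t_goodB N Bset) e) :=
    congrArg (fun x : s59t_ETot 𝒪 (⊤ : Subgroup (ZMod N)ˣ) H => x.2.1) hee
  have heH : s59t_actH N aq (dvd_refl N) H (s59t_jG 𝒪 (s59t_goodB N Bset) e) *
      s59t_actH N aq (dvd_refl N) H (s59t_jG 𝒪 (s59t_goodB N Bset) e) =
      s59t_actH N aq (dvd_refl N) H (s59t_jG 𝒪 (s59t_goodB N Bset) e) :=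
    congrArg (fun x : s59t_ETot 𝒪 (⊤ : Subgroup (ZMod N)ˣ) H => x.2.2) hee
  have hunit' : ∀ t : MvPolynomial ↥(s59t_goodB N Bset) 𝒪,
      t ∉ s59t_evalIdeal (fun x : ↥(s59t_goodB N Bset) =>
        s59t_cB (𝒪 := 𝒪) N a (x : s59w_AIdx N)) →
      ∃ η : MvPolynomial ↥(s59t_goodB N Bset) 𝒪,
        s59t_E0 H Bset (η * t * e) = s59t_E0 H Bset e ∧
        s59t_E0 (⊤ : Subgroup (ZMod N)ˣ) Bset (η * t * e) = s59t_E0 ⊤ Bset e := by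
    intro t ht
    obtain ⟨η, hη⟩ := hunit t ht
    refine ⟨η, ?_, ?_⟩
    · rw [← s59t_actH_eq_E0 H Bset aq, ← s59t_actH_eq_E0 H Bset aq]
      exact congrArg (fun x : s59t_ETot 𝒪 (⊤ : Subgroup (ZMod N)ˣ) H => x.2.2) hη
    · rw [← s59t_actH_eq_E0 ⊤ Bset aq, ← s59t_actH_eq_E0 ⊤ Bset aq]
      exact congrArg (fun x : s59t_ETot 𝒪 (⊤ : Subgroup (ZMod N)ˣ) H => x.2.1) hη
  -- non-vanishing
  have hneH : ∀ K : Subgroup (ZMod N)ˣ,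
      s59t_actH N aq (dvd_refl N) K (s59t_jG 𝒪 (s59t_goodB N Bset) e) ≠ 0 := by
    intro K h0
    refine hne ?_
    have h1 : s59t_actH N aq (dvd_refl N) K (s59t_jG 𝒪 (s59t_goodB N Bset) e) =
        s59t_actH N aq (dvd_refl N) K 0 := by rw [h0, map_zero]
    have h2 := s59t_act0_transfer aq (dvd_refl N) K h1
    rw [h2, map_zero]
  -- the group-theoretic hypotheses
  have hneg : (-1 : SL(2, ℤ)) ∈ s48h_GammaH N H := s59t_neg_one_mem_GammaH_of H hnegH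
  have hPF : s59t_PF N H := s59t_PF_of_pgroup p hp12 hsq hnegH hH
  -- the non-Eisenstein element
  obtain ⟨t₀, ht₀⟩ : ∃ t₀ : MvPolynomial ↥(s59t_goodB N Bset) 𝒪, t₀ =
      MvPolynomial.X (⟨Sum.inl i₀, s59t_inl_mem_goodB Bset i₀ hi₀⟩ : ↥(s59t_goodB N Bset)) ^ 2 -
        ((i₀.ell : MvPolynomial ↥(s59t_goodB N Bset) 𝒪) + 1) ^ 2 := ⟨_, rfl⟩
  have ht₀n : t₀ ∉ s59t_evalIdeal (fun x : ↥(s59t_goodB N Bset) =>
      s59t_cB (𝒪 := 𝒪) N a (x : s59w_AIdx N)) := by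
    rw [s59t_not_mem_evalIdeal, ht₀]
    simp only [map_sub, map_pow, MvPolynomial.eval_X, map_add, map_natCast, map_one]
    exact hnE
  obtain ⟨η₀, hη₀⟩ := hunit t₀ ht₀n
  have hjt : s59t_jG 𝒪 (s59t_goodB N Bset) (η₀ * t₀ * e) =
      s59t_jG 𝒪 (s59t_goodB N Bset) η₀ * (MvPolynomial.X (Sum.inl (Sum.inl i₀)) ^ 2 -
        ((i₀.ell : MvPolynomial (s59w_AIdx N ⊕ ℕ) 𝒪) + 1) ^ 2) *
        s59t_jG 𝒪 (s59t_goodB N Bset) e := by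
    rw [map_mul, map_mul, ht₀, map_sub, map_pow, map_pow, s59t_jG_X, map_add, map_natCast,
      map_one]
  rw [hjt] at hη₀
  have hηH : s59t_actH N aq (dvd_refl N) H
      (s59t_jG 𝒪 (s59t_goodB N Bset) η₀ * (MvPolynomial.X (Sum.inl (Sum.inl i₀)) ^ 2 -
        ((i₀.ell : MvPolynomial (s59w_AIdx N ⊕ ℕ) 𝒪) + 1) ^ 2) *
        s59t_jG 𝒪 (s59t_goodB N Bset) e) =
      s59t_actH N aq (dvd_refl N) H (s59t_jG 𝒪 (s59t_goodB N Bset) e) :=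
    congrArg (fun x : s59t_ETot 𝒪 (⊤ : Subgroup (ZMod N)ˣ) H => x.2.2) hη₀
  -- the comparison
  have hBC : Function.Bijective (fun x : (⊤ : Subgroup (s59t_Delta N H)) ×
      (⊥ : Subgroup (s59t_Delta N H)) => ((x.1 : s59t_Delta N H) * (x.2 : s59t_Delta N H))) := by
    constructor
    · rintro ⟨⟨x, hx⟩, ⟨y, hy⟩⟩ ⟨⟨x', hx'⟩, ⟨y', hy'⟩⟩ h
      have hy1 : y = 1 := Subgroup.mem_bot.mp hy
      have hy1' : y' = 1 := Subgroup.mem_bot.mp hy'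
      subst hy1 hy1'
      have hxx : x = x' := by simpa using h
      subst hxx
      rfl
    · intro δ
      exact ⟨⟨⟨δ, Subgroup.mem_top δ⟩, ⟨1, Subgroup.mem_bot.mpr rfl⟩⟩, mul_one δ⟩
  have hφB : ∀ β ∈ (⊤ : Subgroup (s59t_Delta N H)),
      s59t_DeltaMap2 (le_refl (Gamma0 N)) (s59t_GammaH_mono (le_top : H ≤ ⊤)) β = 1 :=
    fun β _ => Subsingleton.elim _ _
  have hφC : Function.Bijective (fun γ : (⊥ : Subgroup (s59t_Delta N H)) =>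
      s59t_DeltaMap2 (le_refl (Gamma0 N)) (s59t_GammaH_mono (le_top : H ≤ ⊤))
        (γ : s59t_Delta N H)) := by
    constructor
    · intro x y _
      exact Subsingleton.elim _ _
    · intro δ
      exact ⟨1, Subsingleton.elim _ _⟩
  obtain ⟨-, hfull⟩ := s59t_same_level aq (dvd_refl N) (le_top : H ≤ ⊤) p hp2 hPF hneg
    (s59t_Delta_isPGroup p hH) ⊤ ⊥ hBC hφB hφC
    (s59t_jG 𝒪 (s59t_goodB N Bset) e) (s59t_jG 𝒪 (s59t_goodB N Bset) η₀) i₀ heH hηH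
  rw [s59t_actH_eq_E0, s59t_actH_eq_E0] at hfull
  refine ⟨e, h1e, hunit', ?_, ?_, ?_, ?_, ?_, ?_, hfull⟩
  · rw [← s59t_actH_eq_E0 H Bset aq]; exact heH
  · rw [← s59t_actH_eq_E0 H Bset aq]; exact hneH H
  · intro x hx
    have h := s59t_nilH'_of_e0 aq (dvd_refl N) (⊤ : Subgroup (ZMod N)ˣ) H (s59t_goodB N Bset)
      (s59t_cB (𝒪 := 𝒪) N a) e hnil ⟨x, hx⟩
    rw [s59t_actH_eq_E0] at h
    exact h
  · rw [← s59t_actH_eq_E0 ⊤ Bset aq]; exact heT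
  · rw [← s59t_actH_eq_E0 ⊤ Bset aq]; exact hneH ⊤
  · intro x hx
    have h := s59t_nilH_of_e0 aq (dvd_refl N) (⊤ : Subgroup (ZMod N)ˣ) H (s59t_goodB N Bset)
      (s59t_cB (𝒪 := 𝒪) N a) e hnil ⟨x, hx⟩
    rw [s59t_actH_eq_E0, s59t_opH_inl, s59t_AIdx_down_self] at h
    exact h

end Base

end Fermat.Agent.Lib.S59
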