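/-
PROGRAMME R2 = S59, node [FLR], `T`-side, block (Y2) of helper5's #3756, control half (helper4,
prefix `s59f_`): **the level-changing maps of the restricted old/new package commute with the
Taylor–Wiles control maps `π`** (the `π` of `s59t_TWFull`: `ι ∘ π = N_B`, `ι = ε' ∘ res`
injective).

* `s59f_normPsi_up`, `s59f_normPsi_down` : a map intertwining two diamond representations along a
  bijection `φ : Δq → Δ` with `φ⁻¹ B = Bq` intertwines the norms `N_B`, `N_{Bq}`;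
* **`s59f_pi_resA/_resB/_corA/_corB`** : for a morphism `D₀ → D` of packages (base level → TW level)
  restricted to compatible idempotents, `πq ∘ resA = resA ∘ π`, …, `π ∘ corB = corB ∘ πq` — the
  hypotheses `hrA`, `hrB`, `hcA`, `hcB` of `s59f_TStep_of_new`;
* `s59f_DeltaMap2_bijective` : `Δ(N', H') → Δ(L, H)` is bijective for `N' = L q`, `H'` the preimage
  of `H`; `s59f_BQ_top` : `B_Q = ⊤` when the base subgroup is `⊤`.
-/
import Mathlib
import Fermat.Agent.Lib.S59.FEps5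
import Fermat.Agent.Lib.S59.TLevelRes
import Fermat.Agent.Lib.S59.TBase

set_option autoImplicit false
set_option linter.unusedSectionVars false
set_option linter.unusedVariables false
set_option linter.style.haveILetI false

open scoped BigOperators

noncomputable section

namespace Fermat.Agent.Lib.S59

open Matrix MatrixGroups CongruenceSubgroup IsLocalRing
open Fermat.Agent.Lib.S29 Fermat.Agent.Lib.S48 Fermat.Agent.Lib.S41

/-! ### Norms -/

section Norm

variable {𝒪 : Type*} [CommRing 𝒪] {Δ Δq : Type*} [CommGroup Δ] [Fintype Δ] [CommGroup Δq]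
  [Fintype Δq] {M Mq : Type*} [AddCommGroup M] [Module 𝒪 M] [AddCommGroup Mq] [Module 𝒪 Mq]
  (ρ : Δ →* Module.End 𝒪 M) (ρq : Δq →* Module.End 𝒪 Mq)
  (B : Subgroup Δ) (Bq : Subgroup Δq) [Fintype B] [Fintype Bq]
  (φ : Δq →* Δ) (hφ : Function.Bijective φ) (hB : ∀ β' : Δq, β' ∈ Bq ↔ φ β' ∈ B)

/-- the bijection `Bq ≃ B` induced by `φ`. -/
def s59f_equivB : ↥Bq ≃ ↥B :=
  Equiv.ofBijective (fun β' => ⟨φ β', (hB β').mp β'.2⟩) (by
    constructor
    · intro x y hxy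
      exact Subtype.ext (hφ.1 (congrArg Subtype.val hxy))
    · rintro ⟨β, hβ⟩
      obtain ⟨β', rfl⟩ := hφ.2 β
      exact ⟨⟨β', (hB β').mpr hβ⟩, rfl⟩)

theorem s59f_equivB_coe (β' : ↥Bq) : ((s59f_equivB B Bq φ hφ hB β' : ↥B) : Δ) = φ β' := rfl

include hφ hB in
/-- a level-raising map intertwines the norms. -/
theorem s59f_normPsi_up (f : M →ₗ[𝒪] Mq) (hf : ∀ δ' y, f (ρ (φ δ') y) = ρq δ' (f y)) (y : M) :
    f (s59t_normPsi ρ B 1 y) = s59t_normPsi ρq Bq 1 (f y) := by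
  rw [s59t_normPsi_apply, s59t_normPsi_apply, map_sum]
  rw [← Equiv.sum_comp (s59f_equivB B Bq φ hφ hB)]
  refine Finset.sum_congr rfl fun β' _ => ?_
  simp only [MonoidHom.one_apply, inv_one, Units.val_one, one_smul]
  rw [s59f_equivB_coe, hf]

include hφ hB in
/-- a level-lowering map intertwines the norms. -/
theorem s59f_normPsi_down (g : Mq →ₗ[𝒪] M) (hg : ∀ δ' z, g (ρq δ' z) = ρ (φ δ') (g z)) (z : Mq) :
    g (s59t_normPsi ρq Bq 1 z) = s59t_normPsi ρ B 1 (g z) := by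
  rw [s59t_normPsi_apply, s59t_normPsi_apply, map_sum]
  rw [← Equiv.sum_comp (s59f_equivB B Bq φ hφ hB)]
  refine Finset.sum_congr rfl fun β' _ => ?_
  simp only [MonoidHom.one_apply, inv_one, Units.val_one, one_smul]
  rw [s59f_equivB_coe, hg]

end Norm

/-! ### The control maps -/

section Pi

variable {R : Type*} [CommRing R] {Y₀ Z₀ Y Z : Type*} [AddCommGroup Y₀] [Module R Y₀]
  [AddCommGroup Z₀] [Module R Z₀] [AddCommGroup Y] [Module R Y] [AddCommGroup Z] [Module R Z]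
  {D₀ : s59t_Old R Y₀ Z₀} {D : s59t_Old R Y Z}
  {ε₀ : Module.End R Y₀} {ε₀' : Module.End R Z₀} {ε : Module.End R Y} {ε' : Module.End R Z}
  (h₀ : D₀.Compat ε₀ ε₀') (h : D.Compat ε ε')
  {ρY : Y₀ →ₗ[R] Y} {ρZ : Z₀ →ₗ[R] Z} (hρ : s59f_OldHom D₀ D ρY ρZ)
  {Δ Δq : Type*} [CommGroup Δ] [Fintype Δ] [CommGroup Δq] [Fintype Δq]
  (rep : Δ →* Module.End R Y) (repq : Δq →* Module.End R Z)
  (hrε : ∀ δ y, ε (rep δ y) = rep δ (ε y)) (hrε' : ∀ δ z, ε' (repq δ z) = repq δ (ε' z))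
  (B : Subgroup Δ) (Bq : Subgroup Δq) [Fintype B] [Fintype Bq]
  (φ : Δq →* Δ) (hφ : Function.Bijective φ) (hB : ∀ β' : Δq, β' ∈ Bq ↔ φ β' ∈ B)
  (hcompat : ∀ δ' : Δq, D.Compat (rep (φ δ')) (repq δ'))
  (π : s59t_part ε →ₗ[R] s59t_part ε₀) (πq : s59t_part ε' →ₗ[R] s59t_part ε₀')
  (hπ : ∀ y, s59t_iotaH ε₀ ε ρY (π y) = s59t_normPsi (s59t_partRep rep hrε) B 1 y)
  (hπq : ∀ z, s59t_iotaH ε₀' ε' ρZ (πq z) = s59t_normPsi (s59t_partRep repq hrε') Bq 1 z)
  (hι : Function.Injective (s59t_iotaH ε₀ ε ρY))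
  (hιq : Function.Injective (s59t_iotaH ε₀' ε' ρZ))

include hρ hφ hB hcompat hπ hπq hιq in
/-- **`πq ∘ resA = resA ∘ π`.** -/
theorem s59f_pi_resA (x : s59t_part ε) :
    πq ((D.restrict h).resA x) = (D₀.restrict h₀).resA (π x) := by
  refine s59f_pi_compat_up (s59t_iotaH ε₀ ε ρY) (s59t_iotaH ε₀' ε' ρZ) hιq
    (s59t_normPsi (s59t_partRep rep hrε) B 1) (s59t_normPsi (s59t_partRep repq hrε') Bq 1)
    π πq hπ hπq (D₀.restrict h₀).resA (D.restrict h).resA
    (fun y => (hρ.restrict h₀ h).resA y) (fun y => ?_) x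
  exact s59f_normPsi_up (s59t_partRep rep hrε) (s59t_partRep repq hrε') B Bq φ hφ hB (D.restrict h).resA
    (fun δ' y => Subtype.ext ((hcompat δ').resA y.1).symm) y

include hρ hφ hB hcompat hπ hπq hιq in
/-- **`πq ∘ resB = resB ∘ π`.** -/
theorem s59f_pi_resB (x : s59t_part ε) :
    πq ((D.restrict h).resB x) = (D₀.restrict h₀).resB (π x) := by
  refine s59f_pi_compat_up (s59t_iotaH ε₀ ε ρY) (s59t_iotaH ε₀' ε' ρZ) hιq
    (s59t_normPsi (s59t_partRep rep hrε) B 1) (s59t_normPsi (s59t_partRep repq hrε') Bq 1)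
    π πq hπ hπq (D₀.restrict h₀).resB (D.restrict h).resB
    (fun y => (hρ.restrict h₀ h).resB y) (fun y => ?_) x
  exact s59f_normPsi_up (s59t_partRep rep hrε) (s59t_partRep repq hrε') B Bq φ hφ hB (D.restrict h).resB
    (fun δ' y => Subtype.ext ((hcompat δ').resB y.1).symm) y

include hρ hφ hB hcompat hπ hπq hι in
/-- **`π ∘ corA = corA ∘ πq`.** -/
theorem s59f_pi_corA (z : s59t_part ε') :
    π ((D.restrict h).corA z) = (D₀.restrict h₀).corA (πq z) := by
  refine s59f_pi_compat_down (s59t_iotaH ε₀ ε ρY) (s59t_iotaH ε₀' ε' ρZ) hι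
    (s59t_normPsi (s59t_partRep rep hrε) B 1) (s59t_normPsi (s59t_partRep repq hrε') Bq 1)
    π πq hπ hπq (D₀.restrict h₀).corA (D.restrict h).corA
    (fun y => (hρ.restrict h₀ h).corA y) (fun y => ?_) z
  exact s59f_normPsi_down (s59t_partRep rep hrε) (s59t_partRep repq hrε') B Bq φ hφ hB (D.restrict h).corA
    (fun δ' y => Subtype.ext ((hcompat δ').corA y.1).symm) y

include hρ hφ hB hcompat hπ hπq hι in
/-- **`π ∘ corB = corB ∘ πq`.** -/
theorem s59f_pi_corB (z : s59t_part ε') :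
    π ((D.restrict h).corB z) = (D₀.restrict h₀).corB (πq z) := by
  refine s59f_pi_compat_down (s59t_iotaH ε₀ ε ρY) (s59t_iotaH ε₀' ε' ρZ) hι
    (s59t_normPsi (s59t_partRep rep hrε) B 1) (s59t_normPsi (s59t_partRep repq hrε') Bq 1)
    π πq hπ hπq (D₀.restrict h₀).corB (D.restrict h).corB
    (fun y => (hρ.restrict h₀ h).corB y) (fun y => ?_) z
  exact s59f_normPsi_down (s59t_partRep rep hrε) (s59t_partRep repq hrε') B Bq φ hφ hB (D.restrict h).corB
    (fun δ' y => Subtype.ext ((hcompat δ').corB y.1).symm) y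

end Pi

/-! ### The diamond groups of the two levels -/

section Delta

variable {L q : ℕ} [NeZero L] [hq : Fact q.Prime] (hqL : ¬ q ∣ L)
  {H : Subgroup (ZMod L)ˣ} {N' : ℕ} [NeZero N'] (hN' : N' = L * q) {H' : Subgroup (ZMod N')ˣ}
  (hG' : s59f_IsG' L q H (s48h_GammaH N' H'))

include hqL hN' hG' in
/-- **`Δ(N', H') → Δ(L, H)` is bijective** (`N' = L q`, `H'` the preimage of `H`). -/
theorem s59f_DeltaMap2_bijective (h0 : Gamma0 N' ≤ Gamma0 L)
    (hle : s48h_GammaH N' H' ≤ s48h_GammaH L H) :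
    Function.Bijective (s59t_DeltaMap2 h0 hle) := by
  subst hN'
  refine ⟨s59t_quotMap_injective h0 hle (fun k hk hG => ?_),
    s59t_quotMap_surjective h0 hle (fun g hg => s59t_level_surj g hg)⟩
  exact hG'.of_Gamma0 hk (((s59f_isG_GammaH L H) k).mp hG)

end Delta

section BQ

variable (N D : ℕ) [NeZero N] (K : Subgroup (ZMod D)ˣ)

/-- `B_Q = ⊤` when the base subgroup is `⊤`. -/
theorem s59f_BQ_top (β : s59t_Delta (N * D) (s59t_Hmul N D (⊤ : Subgroup (ZMod N)ˣ) K)) :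
    β ∈ s59t_BQ N D (⊤ : Subgroup (ZMod N)ˣ) K :=
  MonoidHom.mem_ker.mpr (Subsingleton.elim _ _)

end BQ

end Fermat.Agent.Lib.S59
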