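/-
PROGRAMME R2 = S59, node [FLR], `T`-side, block (Y) of helper5's #3756, **the concrete instance at
helper5's levels** (helper4, prefix `s59f_`): `L₀ = N₀ * D`, `L₁ = N₀ * q * D` (`D = ∏ qv`),
`H′₀ = s59t_Hmul N₀ D H_b K`, `H′₁ = s59t_Hmul (N₀ * q) D H_b' K` (`H_b'` the preimage of `H_b`; in
the application `H_b = ⊤`, `H_b' = ⊤`, `K = s59t_KQ (p^n) qv`).
* `s59f_hN'_TW : N₀ * q * D = N₀ * D * q`; `s59f_isG'_Hmul` : `Γ_{H′₁}(L₁)` is a group `G'` for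
  `(L₀, q, H′₀)`; `s59f_isG'_top` : the base analogue;
* **`s59f_eps_eq_TW`** = contract (Y1), **`s59f_E0_eq_base`** = contract (Y0), verbatim.
-/
import Mathlib
import Fermat.Agent.Lib.S59.FEps6

set_option autoImplicit false
set_option linter.unusedSectionVars false
set_option linter.unusedVariables false
set_option linter.style.haveILetI false

open scoped BigOperators

noncomputable section

namespace Fermat.Agent.Lib.S59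

open Matrix MatrixGroups CongruenceSubgroup IsLocalRing
open Fermat.Agent.Lib.S29 Fermat.Agent.Lib.S48 Fermat.Agent.Lib.S41

section Inst

variable {N₀ q D : ℕ} [NeZero N₀] [hq : Fact q.Prime]

theorem s59f_hN'_TW : N₀ * q * D = N₀ * D * q := by ring

theorem s59f_dvd_TW : N₀ * D ∣ N₀ * q * D := ⟨q, by ring⟩

variable [NeZero (N₀ * q)] [NeZero (N₀ * D)] [NeZero (N₀ * q * D)]

/-- **`Γ_{H′₁}(N₀ q D)` is a group `G'` for `(N₀ D, q, H′₀)`.** -/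
theorem s59f_isG'_Hmul (hqL : ¬ q ∣ N₀ * D) (H_b : Subgroup (ZMod N₀)ˣ)
    (H_b' : Subgroup (ZMod (N₀ * q))ˣ)
    (hH : ∀ u : (ZMod (N₀ * q))ˣ, u ∈ H_b' ↔ ZMod.unitsMap (Dvd.intro q rfl : N₀ ∣ N₀ * q) u ∈ H_b)
    (K : Subgroup (ZMod D)ˣ) :
    s59f_IsG' (N₀ * D) q (s59t_Hmul N₀ D H_b K)
      (s48h_GammaH (N₀ * q * D) (s59t_Hmul (N₀ * q) D H_b' K)) := by
  refine s59f_isG'_GammaH hqL s59f_hN'_TW s59f_dvd_TW (fun u => ?_)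
  rw [s59t_mem_Hmul, s59t_mem_Hmul, hH]
  have e1 : ZMod.unitsMap (Dvd.intro q rfl : N₀ ∣ N₀ * q)
      (ZMod.unitsMap (s59t_dvd_mul_left' (N₀ * q) D) u) =
      ZMod.unitsMap (s59t_dvd_mul_left' N₀ D) (ZMod.unitsMap (s59f_dvd_TW (q := q)) u) := by
    rw [← MonoidHom.comp_apply, ← MonoidHom.comp_apply, ZMod.unitsMap_comp, ZMod.unitsMap_comp]
  have e2 : ZMod.unitsMap (s59t_dvd_mul_right' (N₀ * q) D) u =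
      ZMod.unitsMap (s59t_dvd_mul_right' N₀ D) (ZMod.unitsMap (s59f_dvd_TW (q := q)) u) := by
    rw [← MonoidHom.comp_apply, ZMod.unitsMap_comp]
  rw [e1, e2]

/-- the base analogue: `Γ₀(N₀ q)` is a group `G'` for `(N₀, q, ⊤)`. -/
theorem s59f_isG'_top (hqN : ¬ q ∣ N₀) :
    s59f_IsG' N₀ q (⊤ : Subgroup (ZMod N₀)ˣ)
      (s48h_GammaH (N₀ * q) (⊤ : Subgroup (ZMod (N₀ * q))ˣ)) :=
  s59f_isG'_GammaH hqN rfl (Dvd.intro q rfl)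
    (fun u => ⟨fun _ => Subgroup.mem_top _, fun _ => Subgroup.mem_top _⟩)

end Inst

section Contracts

variable {𝒪 : Type} [CommRing 𝒪] [IsDomain 𝒪] [IsDiscreteValuationRing 𝒪]
  [IsAdicComplete (maximalIdeal 𝒪) 𝒪] [CharZero 𝒪]
  {N₀ q D : ℕ} [NeZero N₀] [hq : Fact q.Prime]
  [NeZero (N₀ * q)] [NeZero (N₀ * D)] [NeZero (N₀ * q * D)]
  (Bset : Finset ℕ) (a : ℕ → ℤ) (aq : ℕ → 𝒪)

set_option maxHeartbeats 1600000 in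
/-- **contract (Y1) of #3756.** -/
theorem s59f_eps_eq_TW (hqL : ¬ q ∣ N₀ * D) (hqB : q ∈ Bset) (H_b : Subgroup (ZMod N₀)ˣ)
    (H_b' : Subgroup (ZMod (N₀ * q))ˣ)
    (hH : ∀ u : (ZMod (N₀ * q))ˣ, u ∈ H_b' ↔ ZMod.unitsMap (Dvd.intro q rfl : N₀ ∣ N₀ * q) u ∈ H_b)
    (K : Subgroup (ZMod D)ˣ) (Lq : List ℕ) (hqLq : q ∉ Lq)
    {e₀ : MvPolynomial ↥(s59t_goodB (N₀ * D) Bset) 𝒪}
    {G : MvPolynomial (s59w_AIdx (N₀ * D) ⊕ ℕ) 𝒪}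
    {e₀' : MvPolynomial ↥(s59t_goodB (N₀ * q * D) Bset) 𝒪}
    {G' : MvPolynomial (s59w_AIdx (N₀ * q * D) ⊕ ℕ) 𝒪}
    (hX₀ : s59ex_LvlX (N₀ * D) (s59t_Hmul N₀ D H_b K) aq (s59t_goodB (N₀ * D) Bset)
      (s59t_cB (N₀ * D) a) Lq e₀ G)
    (hX₁ : s59ex_LvlX (N₀ * q * D) (s59t_Hmul (N₀ * q) D H_b' K) aq
      (s59t_goodB (N₀ * q * D) Bset) (s59t_cB (N₀ * q * D) a) Lq e₀' G') :
    s59t_actH (N₀ * q * D) aq (s59f_dvd_TW (q := q)) (s59t_Hmul N₀ D H_b K)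
        (G' * s59t_jG 𝒪 (s59t_goodB (N₀ * q * D) Bset) e₀') =
      s59t_actH (N₀ * D) aq (dvd_refl (N₀ * D)) (s59t_Hmul N₀ D H_b K)
        (G * s59t_jG 𝒪 (s59t_goodB (N₀ * D) Bset) e₀) :=
  s59f_eps_eq s59f_dvd_TW _ _
    ((s59f_isG'_Hmul hqL H_b H_b' hH K).le (s59f_isG_GammaH _ _)) Bset a aq
    (s59f_hB_of_mem s59f_hN'_TW Bset hqB) Lq (s59f_hLq_of_not_mem s59f_hN'_TW Lq hqLq) hX₀ hX₁

set_option maxHeartbeats 1600000 in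
/-- **contract (Y0) of #3756.** -/
theorem s59f_E0_eq_base (hqN : ¬ q ∣ N₀) (hqB : q ∈ Bset)
    (e' : MvPolynomial ↥(s59t_goodB (N₀ * q) Bset) 𝒪)
    (h1e' : 1 - e' ∈ s59t_evalIdeal (fun x : ↥(s59t_goodB (N₀ * q) Bset) =>
      s59t_cB (𝒪 := 𝒪) (N₀ * q) a (x : s59w_AIdx (N₀ * q))))
    (hid' : s59t_E0 (⊤ : Subgroup (ZMod (N₀ * q))ˣ) Bset e' * s59t_E0 ⊤ Bset e' =
      s59t_E0 ⊤ Bset e')
    (hnil' : ∀ x ∈ s59t_goodB (N₀ * q) Bset, ∃ n : ℕ,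
      ∀ y : s48h_Hpar 𝒪 (s48h_GammaH (N₀ * q) (⊤ : Subgroup (ZMod (N₀ * q))ˣ)) 𝒪,
      ((s59w_op (⊤ : Subgroup (ZMod (N₀ * q))ˣ) 𝒪 x - s59t_cB (𝒪 := 𝒪) (N₀ * q) a x •
        (1 : Module.End 𝒪 (s48h_Hpar 𝒪 (s48h_GammaH (N₀ * q) ⊤) 𝒪))) ^ n)
        (s59t_E0 ⊤ Bset e' y) ∈
        (maximalIdeal 𝒪 • ⊤ : Submodule 𝒪 (s48h_Hpar 𝒪 (s48h_GammaH (N₀ * q) ⊤) 𝒪)))
    (e : MvPolynomial ↥(s59t_goodB N₀ Bset) 𝒪)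
    (h1e : 1 - e ∈ s59t_evalIdeal (fun x : ↥(s59t_goodB N₀ Bset) =>
      s59t_cB (𝒪 := 𝒪) N₀ a (x : s59w_AIdx N₀)))
    (hid : s59t_E0 (⊤ : Subgroup (ZMod N₀)ˣ) Bset e * s59t_E0 ⊤ Bset e = s59t_E0 ⊤ Bset e)
    (hnil : ∀ x ∈ s59t_goodB N₀ Bset, ∃ n : ℕ,
      ∀ y : s48h_Hpar 𝒪 (s48h_GammaH N₀ (⊤ : Subgroup (ZMod N₀)ˣ)) 𝒪,
      ((s59w_op (⊤ : Subgroup (ZMod N₀)ˣ) 𝒪 x - s59t_cB (𝒪 := 𝒪) N₀ a x •
        (1 : Module.End 𝒪 (s48h_Hpar 𝒪 (s48h_GammaH N₀ ⊤) 𝒪))) ^ n)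
        (s59t_E0 ⊤ Bset e y) ∈
        (maximalIdeal 𝒪 • ⊤ : Submodule 𝒪 (s48h_Hpar 𝒪 (s48h_GammaH N₀ ⊤) 𝒪))) :
    s59t_actH (N₀ * q) aq (Dvd.intro q rfl : N₀ ∣ N₀ * q) (⊤ : Subgroup (ZMod N₀)ˣ)
        (s59t_jG 𝒪 (s59t_goodB (N₀ * q) Bset) e') = s59t_E0 ⊤ Bset e :=
  s59f_anemic_eq_E0 (Dvd.intro q rfl) _ _ ((s59f_isG'_top hqN).le (s59f_isG_GammaH _ _)) Bset a aq
    (s59f_hB_of_mem rfl Bset hqB) e' h1e' hid' hnil' e h1e hid hnil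

end Contracts

end Fermat.Agent.Lib.S59
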