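/-
S59 (helper9, prefix `s59m_`), **`hC8` in the shape of helper8's `s59t_TSide_level'`**: the ideal `Iχ` is
`Module.annihilator T (s59t_EigT ρ' C χ' hTρ)`, the annihilator of the `χ'`-eigen-part (for the subgroup `C` of the
diamond group `Δ'`) of a `T`-module `Y'` embedded Hecke-equivariantly into `H_par(Γ_H(M), 𝒪)`.

* `s59m_restrict_mem_adjoin` : restriction to an invariant submodule maps `𝒪[g_j]` into `𝒪[g_j|]`;
* `s59m_hC8_eig` : the field `hC8` of `s59i_TLevel` for `Iχ = Ann_T(eig_{C,χ'}(Y'))`.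
-/
import Mathlib
import Fermat.Agent.Lib.S59.MC8Pt
import Fermat.Agent.Lib.S59.TEigT

set_option autoImplicit false
set_option linter.unusedSectionVars false
set_option linter.unusedVariables false
set_option linter.style.haveILetI false
set_option synthInstance.maxHeartbeats 400000
set_option maxHeartbeats 4000000

noncomputable section

namespace Fermat.Agent.Lib.S59

open Fermat.Agent.Lib.S29 Fermat.Agent.Lib.S30 Fermat.Agent.Lib.S48 Fermat.Agent.Lib.PT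
open WeierstrassCurve WeierstrassCurve.Affine IsLocalRing TensorProduct Polynomial
open CongruenceSubgroup ModularCurve.Period
open scoped MatrixGroups

local notation "Qbar" => AlgebraicClosure ℚ
local notation "GQ" => (AlgebraicClosure ℚ ≃ₐ[ℚ] AlgebraicClosure ℚ)

section Restrict

variable {𝒪 : Type*} [CommRing 𝒪] {Y : Type*} [AddCommGroup Y] [Module 𝒪 Y] (Zs : Submodule 𝒪 Y)
  {J : Type*} (g : J → Module.End 𝒪 Y) (hg : ∀ j, ∀ y ∈ Zs, g j y ∈ Zs)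

/-- restriction to an invariant submodule maps `𝒪[g_j]` into `𝒪[g_j|]`. -/
theorem s59m_restrict_mem_adjoin {x : Module.End 𝒪 Y} (hx : x ∈ Algebra.adjoin 𝒪 (Set.range g)) :
    ∃ hst : ∀ y ∈ Zs, x y ∈ Zs,
      (x.restrict hst : Module.End 𝒪 Zs) ∈
        Algebra.adjoin 𝒪 (Set.range fun j => ((g j).restrict (hg j) : Module.End 𝒪 Zs)) := by
  induction hx using Algebra.adjoin_induction with
  | mem x hx =>
    obtain ⟨j, rfl⟩ := hx
    exact ⟨hg j, Algebra.subset_adjoin ⟨j, rfl⟩⟩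
  | algebraMap r =>
    refine ⟨fun y hy => ?_, ?_⟩
    · rw [Module.algebraMap_end_apply]
      exact Zs.smul_mem r hy
    · have e : ((algebraMap 𝒪 (Module.End 𝒪 Y) r).restrict (p := Zs) (q := Zs) (fun y hy => by
          rw [Module.algebraMap_end_apply]
          exact Zs.smul_mem r hy) : Module.End 𝒪 Zs) = algebraMap 𝒪 (Module.End 𝒪 Zs) r := by
        refine LinearMap.ext fun z => Subtype.ext ?_
        rw [LinearMap.coe_restrict_apply, Module.algebraMap_end_apply, Module.algebraMap_end_apply]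
        rfl
      rw [e]
      exact Subalgebra.algebraMap_mem _ r
  | add x y _ _ hx hy =>
    obtain ⟨h1, h1'⟩ := hx
    obtain ⟨h2, h2'⟩ := hy
    refine ⟨fun z hz => Zs.add_mem (h1 z hz) (h2 z hz), ?_⟩
    have e : ((x + y).restrict (p := Zs) (q := Zs) (fun z hz => Zs.add_mem (h1 z hz) (h2 z hz)) :
        Module.End 𝒪 Zs) = x.restrict h1 + y.restrict h2 := by
      refine LinearMap.ext fun z => Subtype.ext ?_
      rfl
    rw [e]
    exact Subalgebra.add_mem _ h1' h2'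
  | mul x y _ _ hx hy =>
    obtain ⟨h1, h1'⟩ := hx
    obtain ⟨h2, h2'⟩ := hy
    refine ⟨fun z hz => h1 _ (h2 z hz), ?_⟩
    have e : ((x * y).restrict (p := Zs) (q := Zs) (fun z hz => h1 _ (h2 z hz)) :
        Module.End 𝒪 Zs) = x.restrict h1 * y.restrict h2 := by
      refine LinearMap.ext fun z => Subtype.ext ?_
      rfl
    rw [e]
    exact Subalgebra.mul_mem _ h1' h2'

end Restrict

section Inst

variable {M : ℕ} [NeZero M] (H : Subgroup (ZMod M)ˣ)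
  {𝒪 : Type} [CommRing 𝒪] [IsDomain 𝒪] [IsDiscreteValuationRing 𝒪]
  [IsAdicComplete (maximalIdeal 𝒪) 𝒪] [Finite (ResidueField 𝒪)] [CharZero 𝒪]

/-- a finite module embedded in `H_par` is free. -/
theorem s59m_free_of_emb {Z : Type} [AddCommGroup Z] [Module 𝒪 Z] [Module.Finite 𝒪 Z]
    (emb : Z →ₗ[𝒪] s48h_Hpar 𝒪 (s48h_GammaH M H) 𝒪) (hemb : Function.Injective emb) :
    Module.Free 𝒪 Z := by
  haveI : Module.Finite 𝒪 (LinearMap.range emb) := Module.Finite.range emb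
  haveI : Module.Free 𝒪 (LinearMap.range emb) := s59e_free_of_sub H (LinearMap.range emb)
  exact Module.Free.of_equiv (LinearEquiv.ofInjective emb hemb).symm

end Inst

section Main

variable {M : ℕ} [NeZero M] (H : Subgroup (ZMod M)ˣ)
  {𝒪 : Type} [CommRing 𝒪] [IsDomain 𝒪] [IsDiscreteValuationRing 𝒪]
  [IsAdicComplete (maximalIdeal 𝒪) 𝒪] [Finite (ResidueField 𝒪)] [CharZero 𝒪]
  {Y' : Type} [AddCommGroup Y'] [Module 𝒪 Y'] [Module.Finite 𝒪 Y']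
  (j : Y' →ₗ[𝒪] s48h_Hpar 𝒪 (s48h_GammaH M H) 𝒪) (hj : Function.Injective j)
  (opY : s59w_AIdx M → Module.End 𝒪 Y')
  (hopY : ∀ jdx y, j (opY jdx y) = s59w_op H 𝒪 jdx (j y))
  {Δ' : Type} [CommGroup Δ'] [Fintype Δ'] (ρ' : Δ' →* Module.End 𝒪 Y')
  (hρ' : ∀ δ, ∃ τ : Gamma0 M, ρ' δ = opY (Sum.inr τ))
  (C : Subgroup Δ') (χ' : Δ' →* 𝒪ˣ)
  {T : Type} [CommRing T] [Algebra 𝒪 T] [Module T Y'] [IsScalarTower 𝒪 T Y']
  (hTρ : ∀ (t : T) (δ : Δ') (y : Y'), t • ρ' δ y = ρ' δ (t • y))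

include hj hopY in
/-- the operators on `Y'` commute. -/
theorem s59m_opY_comm (a b : s59w_AIdx M) (y : Y') : opY a (opY b y) = opY b (opY a y) := by
  apply hj
  rw [hopY, hopY, hopY, hopY]
  exact LinearMap.congr_fun (s59w_op_comm H 𝒪 a b) (j y)

include hj hopY hρ' in
/-- the eigen-part is stable under the operators. -/
theorem s59m_opY_mem_eig (jdx : s59w_AIdx M) (y : Y') (hy : y ∈ s59t_eig ρ' C χ') :
    opY jdx y ∈ s59t_eig ρ' C χ' := by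
  intro γ hγ
  obtain ⟨τ, hτ⟩ := hρ' γ
  rw [hτ, s59m_opY_comm H j hj opY hopY, ← hτ, hy γ hγ, map_smul]

/-- the operators on the eigen-part. -/
def s59m_opZ (jdx : s59w_AIdx M) : Module.End 𝒪 (s59t_EigT ρ' C χ' hTρ) :=
  ((opY jdx).restrict (s59m_opY_mem_eig H j hj opY hopY ρ' hρ' C χ' jdx) :
    Module.End 𝒪 (s59t_eig ρ' C χ'))

theorem s59m_opZ_val (jdx : s59w_AIdx M) (z : s59t_EigT ρ' C χ' hTρ) :
    s59t_EigT_val ρ' C χ' hTρ (s59m_opZ H j hj opY hopY ρ' hρ' C χ' hTρ jdx z) =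
      opY jdx (s59t_EigT_val ρ' C χ' hTρ z) := rfl

include hj hopY hρ' in
/-- **`hC8` for `Iχ = Ann_T(eig_{C,χ'}(Y'))`.** -/
theorem s59m_hC8_eig (P : FreyPackage) [hpP : Fact P.p.Prime] (W : WeierstrassCurve ℤ)
    (hW : W.IsIntegralModelOf P.freyCurve) (hΔ : W.Δ ≠ 0) (hss : W.IsSemistableModel)
    (hirr : Point.GaloisRepIsIrreducible (K := Qbar) ℚ P.freyCurve P.p)
    (N : ℕ) [NeZero N] (Q : Finset ℕ)
    (hMeq : M = N * ∏ q ∈ Q, q) (hQ : ∀ q ∈ Q, q.Prime ∧ ¬ q ∣ N)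
    (hH : ∀ (x : ℤ) (u : (ZMod M)ˣ), ((x : ℤ) : ZMod (∏ q ∈ Q, q)) = 1 →
      ((u : (ZMod M)ˣ) : ZMod M) = ((x : ℤ) : ZMod M) → u ∈ H)
    (hsq : Squarefree M) (hM : 1 < M) (hneg : (-1 : (ZMod M)ˣ) ∈ H) (h23 : 2 ∣ M ∨ 3 ∣ M)
    {e m : ℕ} (hnm : 2 * m = P.p ^ e + 1) (hn : ∀ u : (ZMod M)ˣ, u ^ (P.p ^ e) ∈ H)
    [Algebra ℤ_[P.p] 𝒪] [Module.Finite ℤ_[P.p] 𝒪]
    (hp𝒪 : (P.p : 𝒪) ∈ maximalIdeal 𝒪)
    (S : Finset ℕ) (hpS : P.p ∈ S) (hMS : ∀ r : ℕ, r.Prime → r ∣ M → r ∈ S)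
    (hgood : ∀ ℓ : ℕ, ℓ.Prime → ℓ ∉ S → W.IsGoodPrimeFor ℓ)
    -- `T` acts through `𝒪[opY]`
    (hTg : ∀ t : T, ∃ x ∈ Algebra.adjoin 𝒪 (Set.range opY), ∀ y : Y', t • y = x y)
    (hrad : (Module.annihilator T (s59t_EigT ρ' C χ' hTρ)).IsRadical)
    -- the trace ring and its Galois representation
    (T' : Type) [CommRing T'] [IsLocalRing T'] [Algebra 𝒪 T'] [Algebra T' T] [IsScalarTower 𝒪 T' T]
    (ρT : GaloisRepAdic T') (tr : ℕ → T')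
    (htr : ∀ i : s59w_TIdx M, i.ell ∉ S → ∀ y : Y', algebraMap T' T (tr i.ell) • y =
      opY (Sum.inr (s59e_tau i ((P.p ^ e - 1) * m))) (opY (Sum.inl i) y))
    (hfrob : ∀ ℓ : ℕ, ℓ.Prime → ℓ ∉ S → ∀ P' : ValuationSubring Qbar, P'.LiesOverPrime ℓ →
      ∀ σ : GQ, P'.IsFrobeniusAt σ ℓ →
        LinearMap.charpoly (ρT.ρ σ) = X ^ 2 - Polynomial.C (tr ℓ) * X + Polynomial.C (ℓ : T'))
    (hcong : ∀ ℓ : ℕ, ℓ.Prime → ℓ ∉ S →
      tr ℓ - algebraMap 𝒪 T' ((W.apOfModel ℓ : ℤ) : 𝒪) ∈ maximalIdeal T')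
    -- the Taylor–Wiles prime
    (q₀ : ℕ) (hq₀ : q₀ ∈ Q) (hq₀p : q₀ ≠ P.p) (hq₀5 : 5 ≤ q₀) (hq₀g : ¬ (q₀ : ℤ) ∣ W.Δ)
    (hq₀1 : (P.p : ℤ) ∣ (q₀ : ℤ) - 1) (hq₀TW : ¬ (P.p : ℤ) ∣ W.apOfModel q₀ ^ 2 - 4)
    (hunr : ρT.residual.IsUnramifiedAt q₀)
    -- the square root of the diamond operator
    (uu : Tˣ) (τ₀ : Gamma0 M) (L₀ : ℕ) (hL₀ : M = L₀ * q₀)
    (hτ₀ : ZMod.unitsMap (hL₀ ▸ Dvd.intro q₀ rfl : L₀ ∣ M) (s59w_lrUnit τ₀) = 1)
    (huu : ∀ y : Y', ((uu : Tˣ) : T) • y = opY (Sum.inr τ₀) y) :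
    ∃ τ ∈ maximalIdeal T',
      (((uu : Tˣ) : T) - ((uu⁻¹ : Tˣ) : T)) ^ 2 - algebraMap T' T τ ∈
        Module.annihilator T (s59t_EigT ρ' C χ' hTρ) := by
  classical
  haveI : IsNoetherian 𝒪 Y' := isNoetherian_of_isNoetherianRing_of_finite 𝒪 Y'
  haveI : Module.Finite 𝒪 (s59t_EigT ρ' C χ' hTρ) :=
    (inferInstance : Module.Finite 𝒪 (s59t_eig ρ' C χ'))
  -- the embedding
  let emb : s59t_EigT ρ' C χ' hTρ →ₗ[𝒪] s48h_Hpar 𝒪 (s48h_GammaH M H) 𝒪 :=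
    j ∘ₗ s59t_EigT_val ρ' C χ' hTρ
  have hemb : Function.Injective emb :=
    hj.comp (s59t_EigT_val_injective ρ' C χ' hTρ)
  haveI : Module.Free 𝒪 (s59t_EigT ρ' C χ' hTρ) := s59m_free_of_emb H emb hemb
  have hop : ∀ jdx z, emb (s59m_opZ H j hj opY hopY ρ' hρ' C χ' hTρ jdx z) =
      s59w_op H 𝒪 jdx (emb z) := fun jdx z => hopY jdx _
  -- the action of `T`
  let jT : T →ₐ[𝒪] Module.End 𝒪 (s59t_EigT ρ' C χ' hTρ) :=
    Algebra.lsmul 𝒪 𝒪 (s59t_EigT ρ' C χ' hTρ)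
  have hjT : ∀ (t : T) (z : s59t_EigT ρ' C χ' hTρ), jT t z = t • z := fun t z => rfl
  have hjTg : ∀ t, jT t ∈ Algebra.adjoin 𝒪
      (Set.range (s59m_opZ H j hj opY hopY ρ' hρ' C χ' hTρ)) := by
    intro t
    obtain ⟨x, hx, hxt⟩ := hTg t
    obtain ⟨hst, hmem⟩ := s59m_restrict_mem_adjoin (s59t_eig ρ' C χ') opY
      (s59m_opY_mem_eig H j hj opY hopY ρ' hρ' C χ') hx
    have e : jT t = (x.restrict hst : Module.End 𝒪 (s59t_eig ρ' C χ')) := by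
      refine LinearMap.ext fun z => s59t_EigT_val_injective ρ' C χ' hTρ ?_
      rw [hjT, s59t_EigT_val_smul, hxt]
      rfl
    rw [e]
    exact hmem
  have hIχ : ∀ t, t ∈ Module.annihilator T (s59t_EigT ρ' C χ' hTρ) ↔ jT t = 0 := by
    intro t
    rw [Module.mem_annihilator]
    constructor
    · intro h
      exact LinearMap.ext fun z => h z
    · intro h z
      have := LinearMap.congr_fun h z
      rwa [hjT] at this
  refine s59m_hC8_abs (Z := s59t_EigT ρ' C χ' hTρ) P W hW hΔ hss hirr M N Q hMeq hQ H hH hsq hM hneg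
    h23 hnm hn 𝒪 hp𝒪 S hpS hMS hgood emb hemb (s59m_opZ H j hj opY hopY ρ' hρ' C χ' hTρ) hop T' T jT
    hjTg _ hIχ hrad ρT tr ?_ hfrob hcong q₀ hq₀ hq₀p hq₀5 hq₀g hq₀1 hq₀TW hunr uu τ₀ L₀ hL₀ hτ₀ ?_
  · intro i hi
    refine LinearMap.ext fun z => s59t_EigT_val_injective ρ' C χ' hTρ ?_
    rw [hjT, s59t_EigT_val_smul, htr i hi, Module.End.mul_apply, s59m_opZ_val, s59m_opZ_val]
  · refine LinearMap.ext fun z => s59t_EigT_val_injective ρ' C χ' hTρ ?_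
    rw [hjT, s59t_EigT_val_smul, huu, s59m_opZ_val]

end Main

end Fermat.Agent.Lib.S59
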