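/-
PROGRAMME (R) (helper3, prefix `s59u_`): **`hrad`** — the rings `T′ₙ ⊂ Tₙ` of the T-side act on the `χ`-part
through REDUCED quotients.

ABSTRACT: `𝔸 ⊆ End_R V` a subalgebra whose elements have no nilpotent part (`(t ^ k) v = 0 ⇒ t v = 0`),
`j : Y → V` injective, `T` a commutative `R`-algebra acting on `Y` through endomorphisms INDUCED from `𝔸`
(`j (t y) = t' (j y)` for some `t' ∈ 𝔸`; stable under `Algebra.adjoin`).  Then for every subset `W ⊆ Y` the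
annihilator of `W` in `T` is a RADICAL ideal (so `T / Ann_T W` is reduced, and so is the quotient of every
subring by the contracted ideal).

CONCRETE: `V = H_par(Γ_H(M), 𝒪)`, `𝔸` = the anemic Hecke algebra `𝒪[T_ℓ (ℓ ∤ M), ⟨τ⟩ (τ ∈ Γ₀(M))]`: this is (W3),
`WInt.lean` (Petersson + twist chain), for `M = N ∏ Q`, `H ⊇ ker((ℤ/M)ˣ → (ℤ/∏Q)ˣ)`, `(ℤ/M)ˣ/H` of odd exponent,
`𝒪` any domain of characteristic zero.
-/
import Mathlib
import Fermat.Agent.Lib.S59.WInt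
import Fermat.Agent.Lib.S59.UW6Lat

set_option autoImplicit false
set_option linter.unusedSectionVars false
set_option linter.unusedVariables false
set_option linter.style.haveILetI false

noncomputable section

namespace Fermat.Agent.Lib.S59

open Fermat.Agent.Lib.S48
open scoped MatrixGroups

/-! ### Abstract part -/

section Abs

variable {R : Type*} [CommRing R] {V : Type*} [AddCommGroup V] [Module R V]
  {Y : Type*} [AddCommGroup Y] [Module R Y]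

/-- the endomorphism `s` of `Y` is induced, along `j : Y → V`, by an element of the subalgebra `𝔸`. -/
def s59u_Induced (𝔸 : Subalgebra R (Module.End R V)) (j : Y →ₗ[R] V) (s : Module.End R Y) : Prop :=
  ∃ s' ∈ 𝔸, ∀ y : Y, j (s y) = s' (j y)

theorem s59u_induced_one (𝔸 : Subalgebra R (Module.End R V)) (j : Y →ₗ[R] V) :
    s59u_Induced 𝔸 j 1 :=
  ⟨1, 𝔸.one_mem, fun _ => rfl⟩

theorem s59u_induced_algebraMap (𝔸 : Subalgebra R (Module.End R V)) (j : Y →ₗ[R] V) (r : R) :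
    s59u_Induced 𝔸 j (algebraMap R (Module.End R Y) r) :=
  ⟨algebraMap R _ r, 𝔸.algebraMap_mem r, fun y => by
    rw [Module.algebraMap_end_apply, Module.algebraMap_end_apply, map_smul]⟩

theorem s59u_Induced.add {𝔸 : Subalgebra R (Module.End R V)} {j : Y →ₗ[R] V}
    {s t : Module.End R Y} (hs : s59u_Induced 𝔸 j s) (ht : s59u_Induced 𝔸 j t) :
    s59u_Induced 𝔸 j (s + t) := by
  obtain ⟨s', hs', h1⟩ := hs
  obtain ⟨t', ht', h2⟩ := ht
  exact ⟨s' + t', 𝔸.add_mem hs' ht', fun y => by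
    rw [LinearMap.add_apply, map_add, h1, h2, LinearMap.add_apply]⟩

theorem s59u_Induced.mul {𝔸 : Subalgebra R (Module.End R V)} {j : Y →ₗ[R] V}
    {s t : Module.End R Y} (hs : s59u_Induced 𝔸 j s) (ht : s59u_Induced 𝔸 j t) :
    s59u_Induced 𝔸 j (s * t) := by
  obtain ⟨s', hs', h1⟩ := hs
  obtain ⟨t', ht', h2⟩ := ht
  exact ⟨s' * t', 𝔸.mul_mem hs' ht', fun y => by
    rw [Module.End.mul_apply, h1, h2, Module.End.mul_apply]⟩

/-- **induced endomorphisms are stable under `Algebra.adjoin`.** -/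
theorem s59u_induced_adjoin (𝔸 : Subalgebra R (Module.End R V)) (j : Y →ₗ[R] V)
    (S : Set (Module.End R Y)) (hS : ∀ s ∈ S, s59u_Induced 𝔸 j s) {t : Module.End R Y}
    (ht : t ∈ Algebra.adjoin R S) : s59u_Induced 𝔸 j t := by
  induction ht using Algebra.adjoin_induction with
  | mem x hx => exact hS x hx
  | algebraMap r => exact s59u_induced_algebraMap 𝔸 j r
  | add x y _ _ hx hy => exact hx.add hy
  | mul x y _ _ hx hy => exact hx.mul hy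

/-- the restriction to an invariant submodule `Y ⊆ V` of an element of `𝔸` is induced. -/
theorem s59u_induced_restrict (𝔸 : Subalgebra R (Module.End R V)) (Y' : Submodule R V)
    {t : Module.End R V} (ht : t ∈ 𝔸) (hY : ∀ y ∈ Y', t y ∈ Y') :
    s59u_Induced 𝔸 Y'.subtype (t.restrict hY) :=
  ⟨t, ht, fun _ => rfl⟩

/-- **an induced endomorphism has no nilpotent part.** -/
theorem s59u_induced_apply_eq_zero (𝔸 : Subalgebra R (Module.End R V))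
    (h𝔸 : ∀ t ∈ 𝔸, ∀ (v : V) (k : ℕ), (t ^ k) v = 0 → t v = 0)
    (j : Y →ₗ[R] V) (hj : Function.Injective j) {t : Module.End R Y} (ht : s59u_Induced 𝔸 j t)
    (y : Y) (k : ℕ) (h : (t ^ k) y = 0) : t y = 0 := by
  obtain ⟨t', ht', h1⟩ := ht
  have h2 : ∀ (n : ℕ) (z : Y), j ((t ^ n) z) = (t' ^ n) (j z) := by
    intro n
    induction n with
    | zero => intro z; rfl
    | succ n ih =>
      intro z
      rw [pow_succ, pow_succ, Module.End.mul_apply, Module.End.mul_apply, ih, h1]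
  have h3 : (t' ^ k) (j y) = 0 := by rw [← h2, h, map_zero]
  have h4 := h𝔸 t' ht' (j y) k h3
  rw [← h1] at h4
  exact hj (h4.trans (map_zero j).symm)

variable {T : Type*} [CommRing T] [Algebra R T] [Module T Y] [IsScalarTower R T Y]

/-- **`Ann_T(W)` is a radical ideal** when `T` acts through induced endomorphisms. -/
theorem s59u_ann_isRadical (𝔸 : Subalgebra R (Module.End R V))
    (h𝔸 : ∀ t ∈ 𝔸, ∀ (v : V) (k : ℕ), (t ^ k) v = 0 → t v = 0)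
    (j : Y →ₗ[R] V) (hj : Function.Injective j)
    (hind : ∀ t : T, s59u_Induced 𝔸 j (Algebra.lsmul R R Y t)) (W : Set Y) (I : Ideal T)
    (hI : ∀ t : T, t ∈ I ↔ ∀ w ∈ W, t • w = 0) : I.IsRadical := by
  intro t ht
  obtain ⟨k, hk⟩ := ht
  rw [hI] at hk ⊢
  intro w hw
  have h1 : ((Algebra.lsmul R R Y t) ^ k) w = 0 := by
    rw [← map_pow]
    exact hk w hw
  exact s59u_induced_apply_eq_zero 𝔸 h𝔸 j hj (hind t) w k h1

/-- the same for `Module.annihilator T W`, `W` a `T`-submodule. -/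
theorem s59u_annihilator_isRadical (𝔸 : Subalgebra R (Module.End R V))
    (h𝔸 : ∀ t ∈ 𝔸, ∀ (v : V) (k : ℕ), (t ^ k) v = 0 → t v = 0)
    (j : Y →ₗ[R] V) (hj : Function.Injective j)
    (hind : ∀ t : T, s59u_Induced 𝔸 j (Algebra.lsmul R R Y t)) (W : Submodule T Y) :
    (Module.annihilator T W).IsRadical := by
  refine s59u_ann_isRadical 𝔸 h𝔸 j hj hind (W : Set Y) _ fun t => ?_
  rw [Module.mem_annihilator]
  constructor
  · intro h w hw
    have := h ⟨w, hw⟩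
    exact congrArg Subtype.val this
  · intro h w
    exact Subtype.ext (h w.1 w.2)

/-- **`hrad`**: the contraction of `Ann_T(W)` to a subring `T′` (any ring hom `T′ → T`) is radical. -/
theorem s59u_ann_comap_isRadical (𝔸 : Subalgebra R (Module.End R V))
    (h𝔸 : ∀ t ∈ 𝔸, ∀ (v : V) (k : ℕ), (t ^ k) v = 0 → t v = 0)
    (j : Y →ₗ[R] V) (hj : Function.Injective j)
    (hind : ∀ t : T, s59u_Induced 𝔸 j (Algebra.lsmul R R Y t)) (W : Set Y) (I : Ideal T)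
    (hI : ∀ t : T, t ∈ I ↔ ∀ w ∈ W, t • w = 0) {T' : Type*} [CommRing T'] (g : T' →+* T) :
    (I.comap g).IsRadical :=
  (s59u_ann_isRadical 𝔸 h𝔸 j hj hind W I hI).comap g

/-- a subalgebra `T ≤ Algebra.adjoin R S` of `End_R Y`, `S` a set of induced endomorphisms, acts through
induced endomorphisms (the action of a `Subalgebra` of `Module.End R Y` on `Y` is `t • y = t y`). -/
theorem s59u_induced_of_le_adjoin (𝔸 : Subalgebra R (Module.End R V)) (j : Y →ₗ[R] V)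
    (S : Set (Module.End R Y)) (hS : ∀ s ∈ S, s59u_Induced 𝔸 j s)
    (T₀ : Subalgebra R (Module.End R Y)) (hT : T₀ ≤ Algebra.adjoin R S) (t : T₀) :
    s59u_Induced 𝔸 j (t : Module.End R Y) :=
  s59u_induced_adjoin 𝔸 j S hS (hT t.2)

end Abs

/-! ### Concrete part: the anemic Hecke algebra at `Γ_H`-level -/

section Conc

variable (N : ℕ) [NeZero N] (Q : Finset ℕ) {M : ℕ} [NeZero M] (H : Subgroup (ZMod M)ˣ)
  (𝒪 : Type*) [CommRing 𝒪] [IsDomain 𝒪] [CharZero 𝒪]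

/-- the anemic Hecke algebra `𝒪[T_ℓ (ℓ ∤ M), ⟨τ⟩ (τ ∈ Γ₀(M))] ⊆ End H_par(Γ_H(M), 𝒪)`. -/
abbrev s59u_anemic : Subalgebra 𝒪 (Module.End 𝒪 (s48h_Hpar 𝒪 (s48h_GammaH M H) 𝒪)) :=
  Algebra.adjoin 𝒪 (Set.range (s59w_op H 𝒪))

/-- **(W3) for every domain of characteristic zero** (cast basis supplied by `s59u_cB`): the elements of the
anemic Hecke algebra have no nilpotent part. -/
theorem s59u_anemic_apply_eq_zero (hQ : ∀ q ∈ Q, q.Prime ∧ ¬ q ∣ N)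
    (hM : M = N * ∏ q ∈ Q, q) {D : ℕ} (hDQ : D = ∏ q ∈ Q, q) (hD : D ∣ M)
    (hH : s59u_ker M D hD ≤ H) {n m : ℕ} (hnm : 2 * m = n + 1) (hn : ∀ u : (ZMod M)ˣ, u ^ n ∈ H) :
    ∀ t ∈ s59u_anemic H 𝒪, ∀ (v : s48h_Hpar 𝒪 (s48h_GammaH M H) 𝒪) (k : ℕ),
      (t ^ k) v = 0 → t v = 0 := by
  classical
  intro t ht v k hk
  haveI : Group.FG (s48h_GammaH M H) := s59w_fg_GammaH H
  set b := Module.Free.chooseBasis ℤ (s48h_M (s48h_GammaH M H)) with hb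
  exact s59w_W3_apply N Q H b (s59u_cB b 𝒪) (s59u_cB_coe b 𝒪)
    (algebraMap 𝒪 (FractionRing 𝒪)) (IsFractionRing.injective 𝒪 (FractionRing 𝒪))
    hQ hM hDQ hD hH hnm hn ht v k hk

variable {Y : Type*} [AddCommGroup Y] [Module 𝒪 Y]
  {T : Type*} [CommRing T] [Algebra 𝒪 T] [Module T Y] [IsScalarTower 𝒪 T Y]

/-- **`hrad`, concrete**: `T` acts on `Y ↪ H_par(Γ_H(M), 𝒪)` through endomorphisms induced from the anemic
Hecke algebra ⇒ `Ann_T(W)` is radical for every `W ⊆ Y`. -/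
theorem s59u_hrad (hQ : ∀ q ∈ Q, q.Prime ∧ ¬ q ∣ N)
    (hM : M = N * ∏ q ∈ Q, q) {D : ℕ} (hDQ : D = ∏ q ∈ Q, q) (hD : D ∣ M)
    (hH : s59u_ker M D hD ≤ H) {n m : ℕ} (hnm : 2 * m = n + 1) (hn : ∀ u : (ZMod M)ˣ, u ^ n ∈ H)
    (j : Y →ₗ[𝒪] s48h_Hpar 𝒪 (s48h_GammaH M H) 𝒪) (hj : Function.Injective j)
    (hind : ∀ t : T, s59u_Induced (s59u_anemic H 𝒪) j (Algebra.lsmul 𝒪 𝒪 Y t)) (W : Set Y)
    (I : Ideal T) (hI : ∀ t : T, t ∈ I ↔ ∀ w ∈ W, t • w = 0) : I.IsRadical :=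
  s59u_ann_isRadical _ (s59u_anemic_apply_eq_zero N Q H 𝒪 hQ hM hDQ hD hH hnm hn) j hj hind W I hI

/-- **`hrad`, concrete, contracted to `T′ → T`** (the binder `hrad` of `s59i_TLevel`). -/
theorem s59u_hrad_comap (hQ : ∀ q ∈ Q, q.Prime ∧ ¬ q ∣ N)
    (hM : M = N * ∏ q ∈ Q, q) {D : ℕ} (hDQ : D = ∏ q ∈ Q, q) (hD : D ∣ M)
    (hH : s59u_ker M D hD ≤ H) {n m : ℕ} (hnm : 2 * m = n + 1) (hn : ∀ u : (ZMod M)ˣ, u ^ n ∈ H)
    (j : Y →ₗ[𝒪] s48h_Hpar 𝒪 (s48h_GammaH M H) 𝒪) (hj : Function.Injective j)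
    (hind : ∀ t : T, s59u_Induced (s59u_anemic H 𝒪) j (Algebra.lsmul 𝒪 𝒪 Y t)) (W : Set Y)
    (I : Ideal T) (hI : ∀ t : T, t ∈ I ↔ ∀ w ∈ W, t • w = 0)
    {T' : Type*} [CommRing T'] (g : T' →+* T) : (I.comap g).IsRadical :=
  (s59u_hrad N Q H 𝒪 hQ hM hDQ hD hH hnm hn j hj hind W I hI).comap g

/-- the generators: `T_ℓ` and the diamonds are in the anemic algebra. -/
theorem s59u_op_mem_anemic (i : s59w_AIdx M) : s59w_op H 𝒪 i ∈ s59u_anemic H 𝒪 :=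
  Algebra.subset_adjoin ⟨i, rfl⟩

open scoped IsMulCommutative in
/-- **`hrad` for a commutative subalgebra `T₀ ≤ 𝒪[S] ⊆ End_𝒪 Y`**, `S` a set of endomorphisms induced from the
anemic algebra (helper5's `T′ n = s59e_adj 𝒪 aM` and `T n = 𝒪[aM, ρB]`; the action is `t • y = t y`). -/
theorem s59u_hrad_subalgebra {Y : Type*} [AddCommGroup Y] [Module 𝒪 Y]
    (hQ : ∀ q ∈ Q, q.Prime ∧ ¬ q ∣ N)
    (hM : M = N * ∏ q ∈ Q, q) {D : ℕ} (hDQ : D = ∏ q ∈ Q, q) (hD : D ∣ M)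
    (hH : s59u_ker M D hD ≤ H) {n m : ℕ} (hnm : 2 * m = n + 1) (hn : ∀ u : (ZMod M)ˣ, u ^ n ∈ H)
    (j : Y →ₗ[𝒪] s48h_Hpar 𝒪 (s48h_GammaH M H) 𝒪) (hj : Function.Injective j)
    (S : Set (Module.End 𝒪 Y)) (hS : ∀ s ∈ S, s59u_Induced (s59u_anemic H 𝒪) j s)
    (T₀ : Subalgebra 𝒪 (Module.End 𝒪 Y)) [IsMulCommutative T₀] (hT : T₀ ≤ Algebra.adjoin 𝒪 S)
    (W : Set Y) (I : Ideal T₀) (hI : ∀ t : T₀, t ∈ I ↔ ∀ w ∈ W, (t : Module.End 𝒪 Y) w = 0) :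
    I.IsRadical :=
  s59u_hrad N Q H 𝒪 hQ hM hDQ hD hH hnm hn j hj
    (fun t => by
      have e : Algebra.lsmul 𝒪 𝒪 Y t = (t : Module.End 𝒪 Y) := LinearMap.ext fun y => rfl
      rw [e]
      exact s59u_induced_of_le_adjoin _ j S hS T₀ hT t) W I hI

/-- the pointwise form, for any endomorphism in `𝒪[S]`: `(t ^ k) y = 0 ⇒ t y = 0`. -/
theorem s59u_adjoin_apply_eq_zero {Y : Type*} [AddCommGroup Y] [Module 𝒪 Y]
    (hQ : ∀ q ∈ Q, q.Prime ∧ ¬ q ∣ N)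
    (hM : M = N * ∏ q ∈ Q, q) {D : ℕ} (hDQ : D = ∏ q ∈ Q, q) (hD : D ∣ M)
    (hH : s59u_ker M D hD ≤ H) {n m : ℕ} (hnm : 2 * m = n + 1) (hn : ∀ u : (ZMod M)ˣ, u ^ n ∈ H)
    (j : Y →ₗ[𝒪] s48h_Hpar 𝒪 (s48h_GammaH M H) 𝒪) (hj : Function.Injective j)
    (S : Set (Module.End 𝒪 Y)) (hS : ∀ s ∈ S, s59u_Induced (s59u_anemic H 𝒪) j s)
    {t : Module.End 𝒪 Y} (ht : t ∈ Algebra.adjoin 𝒪 S) (y : Y) (k : ℕ) (h : (t ^ k) y = 0) :
    t y = 0 :=
  s59u_induced_apply_eq_zero _ (s59u_anemic_apply_eq_zero N Q H 𝒪 hQ hM hDQ hD hH hnm hn) j hj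
    (s59u_induced_adjoin _ j S hS ht) y k h

end Conc

end Fermat.Agent.Lib.S59
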