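/-
PROGRAMME (R) (helper3, prefix `s59u_`): **`hrad` for helper5's concrete rings** (`ERing.lean`):
`T′ = s59e_adj 𝒪 aM`, `T = s59e_adj 𝒪 (s59e_aB aM ρB hcomm) = 𝒪[aM(A), ρB(B)] ⊆ End_𝒪 Y`, `Y ↪ H_par(Γ_H(M), 𝒪)`
(`Y = range ε`, `j = Submodule.subtype`), where `aM t` is the restriction to `Y` of
`a t ∈ Subring.closure (range (s59e_Tp' H 𝒪 k))` (output of `s59e_H3'`) and `ρB β` is the restriction of a diamond
operator `s59w_op H 𝒪 (inr τ)`.  Every element of `T` is induced from the anemic Hecke algebra, hence `Ann_T(W)` is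
radical for every `W ⊆ Y` (and so is its contraction to `T′`) — by (W3), `UHrad.lean`.
-/
import Mathlib
import Fermat.Agent.Lib.S59.UHrad
import Fermat.Agent.Lib.S59.ERing
import Fermat.Agent.Lib.S59.EHRel1

set_option autoImplicit false
set_option linter.unusedSectionVars false
set_option linter.unusedVariables false
set_option linter.style.haveILetI false

noncomputable section

namespace Fermat.Agent.Lib.S59

open Fermat.Agent.Lib.S48 CongruenceSubgroup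
open scoped MatrixGroups

section

variable (N : ℕ) [NeZero N] (Q : Finset ℕ) {M : ℕ} [NeZero M] (H : Subgroup (ZMod M)ˣ)
  (𝒪 : Type*) [CommRing 𝒪] [IsDomain 𝒪] [CharZero 𝒪]

/-- the twisted operators `T'_ℓ = ⟨σ_ℓ^k⟩ T_ℓ` lie in the anemic algebra. -/
theorem s59u_Tp'_mem_anemic (k : ℕ) (i : s59w_TIdx M) : s59e_Tp' H 𝒪 k i ∈ s59u_anemic H 𝒪 :=
  Subalgebra.mul_mem _ (s59u_op_mem_anemic H 𝒪 _) (s59u_op_mem_anemic H 𝒪 _)

/-- the ring generated by the twisted operators lies in the anemic algebra. -/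
theorem s59u_closure_Tp'_le (k : ℕ)
    {x : Module.End 𝒪 (s48h_Hpar 𝒪 (s48h_GammaH M H) 𝒪)}
    (hx : x ∈ Subring.closure (Set.range (s59e_Tp' H 𝒪 k))) : x ∈ s59u_anemic H 𝒪 := by
  have h : Subring.closure (Set.range (s59e_Tp' H 𝒪 k)) ≤ (s59u_anemic H 𝒪).toSubring := by
    rw [Subring.closure_le]
    rintro _ ⟨i, rfl⟩
    exact s59u_Tp'_mem_anemic H 𝒪 k i
  exact h hx

variable {Y : Type*} [AddCommGroup Y] [Module 𝒪 Y]
  (j : Y →ₗ[𝒪] s48h_Hpar 𝒪 (s48h_GammaH M H) 𝒪)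
  {A : Type*} [CommRing A] (a : A →+* Module.End 𝒪 (s48h_Hpar 𝒪 (s48h_GammaH M H) 𝒪)) (k : ℕ)
  (ha : ∀ t, a t ∈ Subring.closure (Set.range (s59e_Tp' H 𝒪 k)))
  (aM : A →+* Module.End 𝒪 Y) (haM : ∀ t (z : Y), j (aM t z) = a t (j z))
  {B : Type*} [CommGroup B] (ρB : B →* Module.End 𝒪 Y)
  (hρB : ∀ β, ∃ τ : Gamma0 M, ∀ z : Y, j (ρB β z) = s59w_op H 𝒪 (Sum.inr τ) (j z))
  (hcomm : ∀ (t : A) (β : B), Commute (aM t) (ρB β))

include ha haM hρB in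
/-- **every element of `T = 𝒪[aM(A), ρB(B)]` is induced from the anemic Hecke algebra.** -/
theorem s59u_induced_ERing {x : Module.End 𝒪 Y} (hx : x ∈ s59e_adj 𝒪 (s59e_aB aM ρB hcomm)) :
    s59u_Induced (s59u_anemic H 𝒪) j x := by
  rw [s59e_adjB_eq aM ρB hcomm] at hx
  refine s59u_induced_adjoin _ _ (Set.range aM ∪ Set.range ρB) ?_ hx
  rintro _ (⟨t, rfl⟩ | ⟨β, rfl⟩)
  · exact ⟨a t, s59u_closure_Tp'_le H 𝒪 k (ha t), haM t⟩
  · obtain ⟨τ, hτ⟩ := hρB β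
    exact ⟨_, s59u_op_mem_anemic H 𝒪 _, hτ⟩

include ha haM in
/-- the same for `T′ = 𝒪[aM(A)]`. -/
theorem s59u_induced_ERing' {x : Module.End 𝒪 Y} (hx : x ∈ s59e_adj 𝒪 aM) :
    s59u_Induced (s59u_anemic H 𝒪) j x := by
  refine s59u_induced_adjoin _ _ (Set.range aM) ?_ hx
  rintro _ ⟨t, rfl⟩
  exact ⟨a t, s59u_closure_Tp'_le H 𝒪 k (ha t), haM t⟩

include ha haM hρB in
/-- **no nilpotent part on `Y`**: for `x ∈ T`, `(x ^ i) y = 0 ⇒ x y = 0`. -/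
theorem s59u_ERing_apply_eq_zero (hj : Function.Injective j) (hQ : ∀ q ∈ Q, q.Prime ∧ ¬ q ∣ N)
    (hM : M = N * ∏ q ∈ Q, q) {D : ℕ} (hDQ : D = ∏ q ∈ Q, q) (hD : D ∣ M)
    (hH : s59u_ker M D hD ≤ H) {n m : ℕ} (hnm : 2 * m = n + 1) (hn : ∀ u : (ZMod M)ˣ, u ^ n ∈ H)
    {x : Module.End 𝒪 Y} (hx : x ∈ s59e_adj 𝒪 (s59e_aB aM ρB hcomm))
    (y : Y) (i : ℕ) (h : (x ^ i) y = 0) : x y = 0 :=
  s59u_induced_apply_eq_zero _ (s59u_anemic_apply_eq_zero N Q H 𝒪 hQ hM hDQ hD hH hnm hn)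
    j hj (s59u_induced_ERing H 𝒪 j a k ha aM haM ρB hρB hcomm hx) y i h

include ha haM hρB in
/-- **`hrad` for helper5's `T`**: `Ann_T(W)` is radical, and so is its contraction to `T′` along `s59e_incl`. -/
theorem s59u_hrad_ERing (hj : Function.Injective j) (hQ : ∀ q ∈ Q, q.Prime ∧ ¬ q ∣ N)
    (hM : M = N * ∏ q ∈ Q, q) {D : ℕ} (hDQ : D = ∏ q ∈ Q, q) (hD : D ∣ M)
    (hH : s59u_ker M D hD ≤ H) {n m : ℕ} (hnm : 2 * m = n + 1) (hn : ∀ u : (ZMod M)ˣ, u ^ n ∈ H)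
    (W : Set Y) (I : Ideal (s59e_adj 𝒪 (s59e_aB aM ρB hcomm)))
    (hI : ∀ t : s59e_adj 𝒪 (s59e_aB aM ρB hcomm),
      t ∈ I ↔ ∀ w ∈ W, (t : Module.End 𝒪 Y) w = 0) :
    I.IsRadical ∧ (I.comap (s59e_incl (𝒪 := 𝒪) aM ρB hcomm).toRingHom).IsRadical := by
  have h1 : I.IsRadical := by
    intro t ht
    obtain ⟨i, hi⟩ := ht
    rw [hI] at hi ⊢
    intro w hw
    refine s59u_ERing_apply_eq_zero N Q H 𝒪 j a k ha aM haM ρB hρB hcomm hj hQ hM hDQ hD hH hnm hn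
      t.2 w i ?_
    have := hi w hw
    rwa [SubmonoidClass.coe_pow] at this
  exact ⟨h1, h1.comap _⟩

end

end Fermat.Agent.Lib.S59
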