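/-
S59 (helper9, prefix `s59m_`), **the hypothesis `hC8` of helper5's `s59e_TLevel_abs` (ETLvlAbs), final form.**

* `s59m_hC8_dia` : abstract rings `T′`, `T` (binder shapes of `s59e_TLevel_abs`): for `β ∈ B_Q` whose diamond operator
  `ρ' β` is `⟨τ₀⟩` with `τ₀` local at the Taylor–Wiles prime `q₀`,
  `∃ τ ∈ 𝔪_{T′}, (dia β − dia β⁻¹)² − algebraMap T′ T τ ∈ Ann_T (eig_{C,χ'} Y')`;
* `s59m_descend_adjoin` : an element of the anemic algebra `𝒪[T_ℓ, ⟨τ⟩]` induces on a stable `Y'` an element of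
  `𝒪[opY]`;
* `s59m_hC8_ERing` : the same for helper5's concrete rings `T′ = s59e_adj 𝒪 aM`,
  `T = s59e_adj 𝒪 (s59e_aB aM ρB hcomm)` (`ρB = ρ'|_{B_Q}`), `Algebra T′ T = s59e_algTT`, `dia = s59e_dia`, with the
  binder list of helper3's UHradE.
-/
import Mathlib
import Fermat.Agent.Lib.S59.MC8Inst
import Fermat.Agent.Lib.S59.UHradE
import Fermat.Agent.Lib.S59.ERing2

set_option autoImplicit false
set_option linter.unusedSectionVars false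
set_option linter.unusedVariables false
set_option linter.style.haveILetI false
set_option synthInstance.maxHeartbeats 400000
set_option maxHeartbeats 4000000

noncomputable section

namespace Fermat.Agent.Lib.S59

open Fermat.Agent.Lib.S29 Fermat.Agent.Lib.S30 Fermat.Agent.Lib.S48 Fermat.Agent.Lib.PT
open WeierstrassCurve WeierstrassCurve.Affine IsLocalRing TensorProduct Polynomial
open CongruenceSubgroup ModularCurve.Period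
open scoped MatrixGroups

local notation "Qbar" => AlgebraicClosure ℚ
local notation "GQ" => (AlgebraicClosure ℚ ≃ₐ[ℚ] AlgebraicClosure ℚ)

section Dia

variable {M : ℕ} [NeZero M] (H : Subgroup (ZMod M)ˣ)
  {𝒪 : Type} [CommRing 𝒪] [IsDomain 𝒪] [IsDiscreteValuationRing 𝒪]
  [IsAdicComplete (maximalIdeal 𝒪) 𝒪] [Finite (ResidueField 𝒪)] [CharZero 𝒪]
  {Y' : Type} [AddCommGroup Y'] [Module 𝒪 Y'] [Module.Finite 𝒪 Y']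
  (j : Y' →ₗ[𝒪] s48h_Hpar 𝒪 (s48h_GammaH M H) 𝒪) (hj : Function.Injective j)
  (opY : s59w_AIdx M → Module.End 𝒪 Y')
  (hopY : ∀ jdx y, j (opY jdx y) = s59w_op H 𝒪 jdx (j y))
  {Δ' : Type} [CommGroup Δ'] [Fintype Δ'] (ρ' : Δ' →* Module.End 𝒪 Y')
  (hρ' : ∀ δ, ∃ τ : Gamma0 M, ρ' δ = opY (Sum.inr τ))
  (Bq Cs : Subgroup Δ') (χ' : Δ' →* 𝒪ˣ)
  {T : Type} [CommRing T] [Algebra 𝒪 T] [Module T Y'] [IsScalarTower 𝒪 T Y']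
  (hTρ : ∀ (t : T) (δ : Δ') (y : Y'), t • ρ' δ y = ρ' δ (t • y))
  (dia : Bq →* T) (hdia : ∀ (β : Bq) (y : Y'), ρ' (β : Δ') y = dia β • y)

include hj hopY hρ' hdia in
/-- **`hC8`, abstract rings, in the form of `s59e_TLevel_abs`.** -/
theorem s59m_hC8_dia (P : FreyPackage) [hpP : Fact P.p.Prime] (W : WeierstrassCurve ℤ)
    (hW : W.IsIntegralModelOf P.freyCurve) (hΔ : W.Δ ≠ 0) (hss : W.IsSemistableModel)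
    (hirr : Point.GaloisRepIsIrreducible (K := Qbar) ℚ P.freyCurve P.p)
    (N : ℕ) [NeZero N] (Q : Finset ℕ)
    (hMeq : M = N * ∏ q ∈ Q, q) (hQ : ∀ q ∈ Q, q.Prime ∧ ¬ q ∣ N)
    (hH : ∀ (x : ℤ) (u : (ZMod M)ˣ), ((x : ℤ) : ZMod (∏ q ∈ Q, q)) = 1 →
      ((u : (ZMod M)ˣ) : ZMod M) = ((x : ℤ) : ZMod M) → u ∈ H)
    (hsq : Squarefree M) (hM : 1 < M) (hneg : (-1 : (ZMod M)ˣ) ∈ H) (h23 : 2 ∣ M ∨ 3 ∣ M)
    {e m : ℕ} (hnm : 2 * m = P.p ^ e + 1) (hn : ∀ u : (ZMod M)ˣ, u ^ (P.p ^ e) ∈ H)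
    [Algebra ℤ_[P.p] 𝒪] [Module.Finite ℤ_[P.p] 𝒪]
    (hp𝒪 : (P.p : 𝒪) ∈ maximalIdeal 𝒪)
    (S : Finset ℕ) (hpS : P.p ∈ S) (hMS : ∀ r : ℕ, r.Prime → r ∣ M → r ∈ S)
    (hgood : ∀ ℓ : ℕ, ℓ.Prime → ℓ ∉ S → W.IsGoodPrimeFor ℓ)
    (hTg : ∀ t : T, ∃ x ∈ Algebra.adjoin 𝒪 (Set.range opY), ∀ y : Y', t • y = x y)
    (hrad : (Module.annihilator T (s59t_EigT ρ' Cs χ' hTρ)).IsRadical)
    (T' : Type) [CommRing T'] [IsLocalRing T'] [Algebra 𝒪 T'] [Algebra T' T] [IsScalarTower 𝒪 T' T]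
    (ρT : GaloisRepAdic T') (tr : ℕ → T')
    (htr : ∀ i : s59w_TIdx M, i.ell ∉ S → ∀ y : Y', algebraMap T' T (tr i.ell) • y =
      opY (Sum.inr (s59e_tau i ((P.p ^ e - 1) * m))) (opY (Sum.inl i) y))
    (hfrob : ∀ ℓ : ℕ, ℓ.Prime → ℓ ∉ S → ∀ P' : ValuationSubring Qbar, P'.LiesOverPrime ℓ →
      ∀ σ : GQ, P'.IsFrobeniusAt σ ℓ →
        LinearMap.charpoly (ρT.ρ σ) = X ^ 2 - Polynomial.C (tr ℓ) * X + Polynomial.C (ℓ : T'))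
    (hcong : ∀ ℓ : ℕ, ℓ.Prime → ℓ ∉ S →
      tr ℓ - algebraMap 𝒪 T' ((W.apOfModel ℓ : ℤ) : 𝒪) ∈ maximalIdeal T')
    (q₀ : ℕ) (hq₀ : q₀ ∈ Q) (hq₀p : q₀ ≠ P.p) (hq₀5 : 5 ≤ q₀) (hq₀g : ¬ (q₀ : ℤ) ∣ W.Δ)
    (hq₀1 : (P.p : ℤ) ∣ (q₀ : ℤ) - 1) (hq₀TW : ¬ (P.p : ℤ) ∣ W.apOfModel q₀ ^ 2 - 4)
    (hunr : ρT.residual.IsUnramifiedAt q₀)
    (β : Bq) (τ₀ : Gamma0 M) (hβ : ρ' (β : Δ') = opY (Sum.inr τ₀))
    (L₀ : ℕ) (hL₀ : M = L₀ * q₀)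
    (hτ₀ : ZMod.unitsMap (hL₀ ▸ Dvd.intro q₀ rfl : L₀ ∣ M) (s59w_lrUnit τ₀) = 1) :
    ∃ τ ∈ maximalIdeal T',
      ((dia β : T) - (dia β⁻¹ : T)) ^ 2 - algebraMap T' T τ ∈
        Module.annihilator T (s59t_EigT ρ' Cs χ' hTρ) := by
  let uu : Tˣ := ⟨dia β, dia β⁻¹, by rw [← map_mul, mul_inv_cancel, map_one],
    by rw [← map_mul, inv_mul_cancel, map_one]⟩
  have huu : ∀ y : Y', ((uu : Tˣ) : T) • y = opY (Sum.inr τ₀) y := by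
    intro y
    show dia β • y = _
    rw [← hdia, hβ]
  exact s59m_hC8_eig H j hj opY hopY ρ' hρ' Cs χ' hTρ P W hW hΔ hss hirr N Q hMeq hQ hH hsq hM hneg h23
    hnm hn hp𝒪 S hpS hMS hgood hTg hrad T' ρT tr htr hfrob hcong q₀ hq₀ hq₀p hq₀5 hq₀g hq₀1 hq₀TW hunr
    uu τ₀ L₀ hL₀ hτ₀ huu

end Dia

section Descend

variable {M : ℕ} [NeZero M] (H : Subgroup (ZMod M)ˣ)
  {𝒪 : Type*} [CommRing 𝒪]
  {Y' : Type*} [AddCommGroup Y'] [Module 𝒪 Y']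
  (j : Y' →ₗ[𝒪] s48h_Hpar 𝒪 (s48h_GammaH M H) 𝒪)
  (opY : s59w_AIdx M → Module.End 𝒪 Y')
  (hopY : ∀ jdx y, j (opY jdx y) = s59w_op H 𝒪 jdx (j y))

include hopY in
/-- an element of the anemic algebra induces on `Y'` an element of `𝒪[opY]`. -/
theorem s59m_descend_adjoin {x : Module.End 𝒪 (s48h_Hpar 𝒪 (s48h_GammaH M H) 𝒪)}
    (hx : x ∈ Algebra.adjoin 𝒪 (Set.range (s59w_op H 𝒪))) :
    ∃ xY ∈ Algebra.adjoin 𝒪 (Set.range opY), ∀ z : Y', j (xY z) = x (j z) := by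
  induction hx using Algebra.adjoin_induction with
  | mem x hx =>
    obtain ⟨jdx, rfl⟩ := hx
    exact ⟨opY jdx, Algebra.subset_adjoin ⟨jdx, rfl⟩, hopY jdx⟩
  | algebraMap r =>
    refine ⟨algebraMap 𝒪 _ r, Subalgebra.algebraMap_mem _ r, fun z => ?_⟩
    rw [Module.algebraMap_end_apply, Module.algebraMap_end_apply, map_smul]
  | add x y _ _ hx hy =>
    obtain ⟨x', hx', hx''⟩ := hx
    obtain ⟨y', hy', hy''⟩ := hy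
    refine ⟨x' + y', Subalgebra.add_mem _ hx' hy', fun z => ?_⟩
    rw [LinearMap.add_apply, map_add, hx'', hy'', LinearMap.add_apply]
  | mul x y _ _ hx hy =>
    obtain ⟨x', hx', hx''⟩ := hx
    obtain ⟨y', hy', hy''⟩ := hy
    refine ⟨x' * y', Subalgebra.mul_mem _ hx' hy', fun z => ?_⟩
    rw [Module.End.mul_apply, hx'', hy'', Module.End.mul_apply]

end Descend

section ERing

variable {M : ℕ} [NeZero M] (H : Subgroup (ZMod M)ˣ)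
  {𝒪 : Type} [CommRing 𝒪] [IsDomain 𝒪] [IsDiscreteValuationRing 𝒪]
  [IsAdicComplete (maximalIdeal 𝒪) 𝒪] [Finite (ResidueField 𝒪)] [CharZero 𝒪]
  {Y' : Type} [AddCommGroup Y'] [Module 𝒪 Y'] [Module.Finite 𝒪 Y']
  (j : Y' →ₗ[𝒪] s48h_Hpar 𝒪 (s48h_GammaH M H) 𝒪) (hj : Function.Injective j)
  (opY : s59w_AIdx M → Module.End 𝒪 Y')
  (hopY : ∀ jdx y, j (opY jdx y) = s59w_op H 𝒪 jdx (j y))
  {A : Type} [CommRing A] (a : A →+* Module.End 𝒪 (s48h_Hpar 𝒪 (s48h_GammaH M H) 𝒪)) (k : ℕ)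
  (ha : ∀ t, a t ∈ Subring.closure (Set.range (s59e_Tp' H 𝒪 k)))
  (aM : A →+* Module.End 𝒪 Y') (haM : ∀ t (z : Y'), j (aM t z) = a t (j z))
  {Δ' : Type} [CommGroup Δ'] [Fintype Δ'] (ρ' : Δ' →* Module.End 𝒪 Y')
  (hρ' : ∀ δ, ∃ τ : Gamma0 M, ρ' δ = opY (Sum.inr τ))
  (Bq Cs : Subgroup Δ') (χ' : Δ' →* 𝒪ˣ)
  (hcomm : ∀ (t : A) (β : Bq), Commute (aM t) ((ρ'.comp Bq.subtype) β))

include hj hopY ha haM in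
/-- the generators `aM t` lie in `𝒪[opY]`. -/
theorem s59m_aM_mem_adjoin (t : A) : aM t ∈ Algebra.adjoin 𝒪 (Set.range opY) := by
  obtain ⟨xY, hxY, hx⟩ := s59m_descend_adjoin H j opY hopY (s59u_closure_Tp'_le H 𝒪 k (ha t))
  have e : aM t = xY := LinearMap.ext fun z => hj (by rw [haM, hx])
  rw [e]
  exact hxY

include hj hopY ha haM hρ' in
/-- `T` lies in `𝒪[opY]`. -/
theorem s59m_adjB_le_adjoin :
    s59e_adj 𝒪 (s59e_aB aM (ρ'.comp Bq.subtype) hcomm) ≤ Algebra.adjoin 𝒪 (Set.range opY) := by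
  refine s59e_adjB_le aM (ρ'.comp Bq.subtype) hcomm _
    (s59m_aM_mem_adjoin H j hj opY hopY a k ha aM haM) (fun β => ?_)
  obtain ⟨τ, hτ⟩ := hρ' (β : Δ')
  have e : (ρ'.comp Bq.subtype) β = opY (Sum.inr τ) := hτ
  rw [e]
  exact Algebra.subset_adjoin ⟨_, rfl⟩

include hj hopY ha haM hρ' in
/-- **`hC8` for helper5's concrete rings** `T′ = s59e_adj 𝒪 aM`, `T = s59e_adj 𝒪 (s59e_aB aM ρB hcomm)`,
`ρB = ρ'|_{B_Q}`, `dia = s59e_dia aM ρB hcomm`, in the form of `s59e_TLevel_abs`. -/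
theorem s59m_hC8_ERing [IsLocalRing (s59e_adj 𝒪 aM)]
    (hTρ : ∀ (t : s59e_adj 𝒪 (s59e_aB aM (ρ'.comp Bq.subtype) hcomm)) (δ : Δ') (y : Y'),
      t • ρ' δ y = ρ' δ (t • y))
    (P : FreyPackage) [hpP : Fact P.p.Prime] (W : WeierstrassCurve ℤ)
    (hW : W.IsIntegralModelOf P.freyCurve) (hΔ : W.Δ ≠ 0) (hss : W.IsSemistableModel)
    (hirr : Point.GaloisRepIsIrreducible (K := Qbar) ℚ P.freyCurve P.p)
    (N : ℕ) [NeZero N] (Q : Finset ℕ)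
    (hMeq : M = N * ∏ q ∈ Q, q) (hQ : ∀ q ∈ Q, q.Prime ∧ ¬ q ∣ N)
    (hH : ∀ (x : ℤ) (u : (ZMod M)ˣ), ((x : ℤ) : ZMod (∏ q ∈ Q, q)) = 1 →
      ((u : (ZMod M)ˣ) : ZMod M) = ((x : ℤ) : ZMod M) → u ∈ H)
    (hsq : Squarefree M) (hM : 1 < M) (hneg : (-1 : (ZMod M)ˣ) ∈ H) (h23 : 2 ∣ M ∨ 3 ∣ M)
    {e m : ℕ} (hnm : 2 * m = P.p ^ e + 1) (hn : ∀ u : (ZMod M)ˣ, u ^ (P.p ^ e) ∈ H)
    (hk : k = (P.p ^ e - 1) * m)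
    [Algebra ℤ_[P.p] 𝒪] [Module.Finite ℤ_[P.p] 𝒪]
    (hp𝒪 : (P.p : 𝒪) ∈ maximalIdeal 𝒪)
    (S : Finset ℕ) (hpS : P.p ∈ S) (hMS : ∀ r : ℕ, r.Prime → r ∣ M → r ∈ S)
    (hgood : ∀ ℓ : ℕ, ℓ.Prime → ℓ ∉ S → W.IsGoodPrimeFor ℓ)
    (hrad : (Module.annihilator (s59e_adj 𝒪 (s59e_aB aM (ρ'.comp Bq.subtype) hcomm))
      (s59t_EigT (T := s59e_adj 𝒪 (s59e_aB aM (ρ'.comp Bq.subtype) hcomm)) ρ' Cs χ' hTρ)).IsRadical)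
    (ρT : GaloisRepAdic (s59e_adj 𝒪 aM)) (tT' : ℕ → s59e_adj 𝒪 aM)
    (htT' : ∀ i : s59w_TIdx M, i.ell ∉ S → ∀ z : Y',
      j (((tT' i.ell : s59e_adj 𝒪 aM) : Module.End 𝒪 Y') z) = s59e_Tp' H 𝒪 k i (j z))
    (hfrob : ∀ ℓ : ℕ, ℓ.Prime → ℓ ∉ S → ∀ P' : ValuationSubring Qbar, P'.LiesOverPrime ℓ →
      ∀ σ : GQ, P'.IsFrobeniusAt σ ℓ →
        LinearMap.charpoly (ρT.ρ σ) =
          X ^ 2 - Polynomial.C (tT' ℓ) * X + Polynomial.C (ℓ : s59e_adj 𝒪 aM))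
    (hcong : ∀ ℓ : ℕ, ℓ.Prime → ℓ ∉ S →
      tT' ℓ - algebraMap 𝒪 (s59e_adj 𝒪 aM) ((W.apOfModel ℓ : ℤ) : 𝒪) ∈
        maximalIdeal (s59e_adj 𝒪 aM))
    (q₀ : ℕ) (hq₀ : q₀ ∈ Q) (hq₀p : q₀ ≠ P.p) (hq₀5 : 5 ≤ q₀) (hq₀g : ¬ (q₀ : ℤ) ∣ W.Δ)
    (hq₀1 : (P.p : ℤ) ∣ (q₀ : ℤ) - 1) (hq₀TW : ¬ (P.p : ℤ) ∣ W.apOfModel q₀ ^ 2 - 4)
    (hunr : ρT.residual.IsUnramifiedAt q₀)
    (β : Bq) (τ₀ : Gamma0 M) (hβ : ρ' (β : Δ') = opY (Sum.inr τ₀))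
    (L₀ : ℕ) (hL₀ : M = L₀ * q₀)
    (hτ₀ : ZMod.unitsMap (hL₀ ▸ Dvd.intro q₀ rfl : L₀ ∣ M) (s59w_lrUnit τ₀) = 1) :
    letI := s59e_algTT (𝒪 := 𝒪) aM (ρ'.comp Bq.subtype) hcomm
    ∃ τ ∈ maximalIdeal (s59e_adj 𝒪 aM),
      ((s59e_dia (𝒪 := 𝒪) aM (ρ'.comp Bq.subtype) hcomm β :
          s59e_adj 𝒪 (s59e_aB aM (ρ'.comp Bq.subtype) hcomm)) -
        (s59e_dia (𝒪 := 𝒪) aM (ρ'.comp Bq.subtype) hcomm β⁻¹ :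
          s59e_adj 𝒪 (s59e_aB aM (ρ'.comp Bq.subtype) hcomm))) ^ 2 -
        algebraMap (s59e_adj 𝒪 aM) (s59e_adj 𝒪 (s59e_aB aM (ρ'.comp Bq.subtype) hcomm)) τ ∈
        Module.annihilator (s59e_adj 𝒪 (s59e_aB aM (ρ'.comp Bq.subtype) hcomm))
          (s59t_EigT (T := s59e_adj 𝒪 (s59e_aB aM (ρ'.comp Bq.subtype) hcomm)) ρ' Cs χ' hTρ) := by
  letI := s59e_algTT (𝒪 := 𝒪) aM (ρ'.comp Bq.subtype) hcomm
  haveI := s59e_towerTT (𝒪 := 𝒪) aM (ρ'.comp Bq.subtype) hcomm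
  subst hk
  refine s59m_hC8_dia H j hj opY hopY ρ' hρ' Bq Cs χ' hTρ
    (s59e_dia (𝒪 := 𝒪) aM (ρ'.comp Bq.subtype) hcomm) (fun β y => rfl) P W hW hΔ hss hirr N Q hMeq hQ
    hH hsq hM hneg h23 hnm hn hp𝒪 S hpS hMS hgood ?_ hrad (s59e_adj 𝒪 aM) ρT tT' ?_ hfrob hcong q₀ hq₀
    hq₀p hq₀5 hq₀g hq₀1 hq₀TW hunr β τ₀ hβ L₀ hL₀ hτ₀
  · intro t
    exact ⟨(t : Module.End 𝒪 Y'),
      s59m_adjB_le_adjoin H j hj opY hopY a _ ha aM haM ρ' hρ' Bq hcomm t.2, fun y => rfl⟩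
  · intro i hi y
    apply hj
    have h1 : algebraMap (s59e_adj 𝒪 aM) (s59e_adj 𝒪 (s59e_aB aM (ρ'.comp Bq.subtype) hcomm))
        (tT' i.ell) • y = ((tT' i.ell : s59e_adj 𝒪 aM) : Module.End 𝒪 Y') y := by
      rw [s59e_smul_def, s59e_algTT_coe]
    rw [h1, htT' i hi y, hopY, hopY]
    rfl

end ERing

end Fermat.Agent.Lib.S59
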