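/-
Programme (R) = S59, node (E) module half (helper8), file 75: **(P6) the presentation of `B_Q` with
LOCAL generators.**  `s59t_BQ_pres_local`: generators `g i` of `B_Q ≤ Δ(N·∏qv, H·K_Q)`
(`Nat.card B_Q = P^r`, `g i ^ P = 1`) such that `g i` is the class of some `τ_i ∈ Γ₀(N')` whose
lower right entry is `≡ 1` modulo `N' / qv i`.
(`s59t_exists_local_unit` is helper1's `s59k_exists_local_unit`, KLvlChi, copied under a fresh
name to keep the import closure small.)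
-/
import Mathlib
import Fermat.Agent.Lib.S59.TDeltaQ
import Fermat.Agent.Lib.S59.WDia

set_option autoImplicit false
set_option linter.unusedSectionVars false
set_option linter.style.haveILetI false
set_option linter.unusedVariables false

noncomputable section

namespace Fermat.Agent.Lib.S59

open Matrix MatrixGroups CongruenceSubgroup
open Fermat.Agent.Lib.S48

/-- a unit of `ℤ/N` with prescribed component at `q` and trivial component away from `q`. -/
theorem s59t_exists_local_unit {N q : ℕ} (hq : q.Prime) (hqN : q ∣ N)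
    (hcop : Nat.Coprime q (N / q)) (g : (ZMod q)ˣ) :
    ∃ u : (ZMod N)ˣ, ZMod.unitsMap hqN u = g ∧
      ZMod.unitsMap (Nat.div_dvd_of_dvd hqN) u = 1 := by
  haveI : NeZero q := ⟨hq.ne_zero⟩
  have hN : q * (N / q) = N := Nat.mul_div_cancel' hqN
  set a : ℕ := ((g : (ZMod q)ˣ) : ZMod q).val with ha
  have haq : Nat.Coprime a q := ZMod.val_coe_unit_coprime g
  obtain ⟨x, hx1, hx2⟩ := Nat.chineseRemainder hcop a 1
  have h1 : Nat.Coprime x q := by
    have := Nat.ModEq.gcd_eq hx1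
    rw [Nat.Coprime, this]
    exact haq
  have h2 : Nat.Coprime x (N / q) := by
    have := Nat.ModEq.gcd_eq hx2
    rw [Nat.Coprime, this]
    exact Nat.gcd_one_left _
  have hxN : Nat.Coprime x N := by
    rw [← hN]
    exact Nat.Coprime.mul_right h1 h2
  refine ⟨ZMod.unitOfCoprime x hxN, Units.ext ?_, Units.ext ?_⟩
  · rw [ZMod.unitsMap_def, Units.coe_map, MonoidHom.coe_coe, ZMod.coe_unitOfCoprime, map_natCast,
      (ZMod.natCast_eq_natCast_iff x a q).mpr hx1, ha, ZMod.natCast_zmod_val]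
  · rw [ZMod.unitsMap_def, Units.coe_map, MonoidHom.coe_coe, ZMod.coe_unitOfCoprime, map_natCast,
      (ZMod.natCast_eq_natCast_iff x 1 (N / q)).mpr hx2, Nat.cast_one, Units.val_one]

theorem s59t_unitsMap_unitsMap {a b c : ℕ} (hab : a ∣ b) (hbc : b ∣ c) (u : (ZMod c)ˣ) :
    ZMod.unitsMap hab (ZMod.unitsMap hbc u) = ZMod.unitsMap (dvd_trans hab hbc) u :=
  DFunLike.congr_fun (ZMod.unitsMap_comp hab hbc) u

/-- `s59t_unitHom` is helper3's `s59w_lrUnit`. -/
theorem s59t_unitHom_eq_lrUnit {M : ℕ} [NeZero M] (τ : Gamma0 M) :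
    s59t_unitHom M τ = s59w_lrUnit τ := rfl

section Local

variable (P : ℕ) {r : ℕ} (qv : Fin r → ℕ) (hq : ∀ i, (qv i).Prime)
  (hinj : Function.Injective qv) [NeZero (∏ j, qv j)]
  (N : ℕ) [NeZero N] [NeZero (N * ∏ j, qv j)] (H : Subgroup (ZMod N)ˣ)

theorem s59t_qv_dvd_level (i : Fin r) : qv i ∣ N * ∏ j, qv j :=
  dvd_trans (s59t_dvd_prod qv i) (s59t_dvd_mul_right' N (∏ j, qv j))

include hq hinj in
/-- for `j ≠ i`, `qv j` divides `N' / qv i`. -/
theorem s59t_qv_dvd_div {i j : Fin r} (hji : j ≠ i) : qv j ∣ (N * ∏ k, qv k) / qv i := by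
  have h1 : qv j * qv i ∣ N * ∏ k, qv k := by
    refine dvd_trans ?_ (s59t_dvd_mul_right' N (∏ k, qv k))
    have hcop : Nat.Coprime (qv j) (qv i) :=
      (Nat.coprime_primes (hq j) (hq i)).mpr fun h => hji (hinj h)
    exact hcop.mul_dvd_of_dvd_of_dvd (s59t_dvd_prod qv j) (s59t_dvd_prod qv i)
  exact Nat.dvd_div_of_mul_dvd (by rwa [mul_comm] at h1)

include hq in
/-- `N` divides `N' / qv i`, if `N` is prime to `∏ qv`. -/
theorem s59t_N_dvd_div (hcop : N.Coprime (∏ j, qv j)) (i : Fin r) :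
    N ∣ (N * ∏ k, qv k) / qv i := by
  have h1 : qv i * N ∣ N * ∏ k, qv k := by
    rw [mul_comm]
    exact Nat.mul_dvd_mul_left N (s59t_dvd_prod qv i)
  exact Nat.dvd_div_of_mul_dvd h1

include hq hinj in
set_option maxHeartbeats 1600000 in
/-- **LOCALITY**: an element of `B_Q` whose local components away from `qv i` are trivial is the
class of some `τ ∈ Γ₀(N')` with lower right entry `≡ 1` modulo `N' / qv i`. -/
theorem s59t_BQ_local (hsq' : Squarefree (N * ∏ j, qv j)) (hcop : N.Coprime (∏ j, qv j))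
    (i : Fin r) (β : s59t_BQ N (∏ j, qv j) H (s59t_KQ P qv))
    (hloc : ∀ j, j ≠ i → s59t_QQ_proj P qv j (s59t_DeltaQHom P qv
      (s59t_phiD N (∏ j, qv j) H (s59t_KQ P qv) (β : s59t_Delta (N * ∏ j, qv j)
        (s59t_Hmul N (∏ j, qv j) H (s59t_KQ P qv))))) = 1) :
    ∃ τ : Gamma0 (N * ∏ j, qv j),
      (QuotientGroup.mk τ : s59t_Delta (N * ∏ j, qv j)
        (s59t_Hmul N (∏ j, qv j) H (s59t_KQ P qv))) = (β : s59t_Delta (N * ∏ j, qv j)
        (s59t_Hmul N (∏ j, qv j) H (s59t_KQ P qv))) ∧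
      ZMod.unitsMap (Nat.div_dvd_of_dvd (s59t_qv_dvd_level qv N i))
        (s59t_unitHom (N * ∏ j, qv j) τ) = 1 := by
  classical
  obtain ⟨β, hβ⟩ := β
  obtain ⟨τ₁, rfl⟩ := QuotientGroup.mk_surjective β
  have hqN' : qv i ∣ N * ∏ j, qv j := s59t_qv_dvd_level qv N i
  have hcop' : Nat.Coprime (qv i) ((N * ∏ j, qv j) / qv i) := by
    rw [Nat.Prime.coprime_iff_not_dvd (hq i)]
    intro hdvd
    have h2 : qv i * qv i ∣ N * ∏ j, qv j := by
      have := Nat.mul_dvd_mul_left (qv i) hdvd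
      rwa [Nat.mul_div_cancel' hqN'] at this
    exact (hq i).not_isUnit (hsq' (qv i) h2)
  obtain ⟨u', hu'1, hu'2⟩ := s59t_exists_local_unit (hq i) hqN' hcop'
    (ZMod.unitsMap hqN' (s59t_unitHom (N * ∏ j, qv j) τ₁))
  obtain ⟨σ, hσ, hσu⟩ := s48desc_exists_sigma (N * ∏ j, qv j) u'
  have hτu : s59t_unitHom (N * ∏ j, qv j) ⟨σ, hσ⟩ = u' := Units.ext hσu
  refine ⟨⟨σ, hσ⟩, ?_, by rw [hτu]; exact hu'2⟩
  -- the two classes coincide
  show (QuotientGroup.mk (⟨σ, hσ⟩ : Gamma0 (N * ∏ j, qv j)) : s59t_Delta (N * ∏ j, qv j)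
      (s59t_Hmul N (∏ j, qv j) H (s59t_KQ P qv))) = QuotientGroup.mk τ₁
  rw [QuotientGroup.eq, Subgroup.mem_subgroupOf, s59t_mem_GammaH_iff_unit, map_mul, map_inv, hτu,
    s59t_mem_Hmul]
  -- `u'` is trivial modulo `N` and modulo `qv j`, `j ≠ i`
  have hu'N : ZMod.unitsMap (s59t_dvd_mul_left' N (∏ j, qv j)) u' = 1 := by
    rw [← s59t_unitsMap_unitsMap (s59t_N_dvd_div qv hq N hcop i)
      (Nat.div_dvd_of_dvd hqN') u', hu'2, map_one]
  have hu'j : ∀ j, j ≠ i → ZMod.unitsMap (s59t_qv_dvd_level qv N j) u' = 1 := by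
    intro j hji
    rw [← s59t_unitsMap_unitsMap (s59t_qv_dvd_div qv hq hinj N hji)
      (Nat.div_dvd_of_dvd hqN') u', hu'2, map_one]
  constructor
  · -- the `N`-part
    rw [map_mul, map_inv, hu'N, inv_one, one_mul]
    have h1 : s59t_phiN N (∏ j, qv j) H (s59t_KQ P qv) (QuotientGroup.mk τ₁) = 1 :=
      MonoidHom.mem_ker.mp hβ
    rw [s59t_phiN_eq_one_iff] at h1
    exact h1
  · -- the `D`-part
    rw [s59t_mem_KQ]
    intro j
    rw [s59t_unitsMap_unitsMap, map_mul, map_inv]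
    by_cases hji : j = i
    · subst hji
      refine ⟨1, ?_⟩
      rw [one_pow, hu'1, inv_mul_cancel]
    · rw [hu'j j hji, inv_one, one_mul]
      have h1 := hloc j hji
      rw [s59t_phiD, s59t_DeltaMap2_mk, s59t_DeltaQHom_mk] at h1
      have h2 : s59t_QQ_proj P qv j (s59t_locHomG P qv
          (⟨(τ₁ : SL(2, ℤ)), s59t_Gamma0_anti (s59t_dvd_mul_right' N (∏ j, qv j)) τ₁.2⟩ :
            Gamma0 (∏ j, qv j))) =
          QuotientGroup.mk (ZMod.unitsMap (s59t_dvd_prod qv j)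
            (s59t_unitHom (∏ j, qv j)
              ⟨(τ₁ : SL(2, ℤ)), s59t_Gamma0_anti (s59t_dvd_mul_right' N (∏ j, qv j)) τ₁.2⟩)) :=
        rfl
      rw [h2, ← s59t_unitsMap_unit (s59t_dvd_mul_right' N (∏ j, qv j)) τ₁,
        s59t_unitsMap_unitsMap, QuotientGroup.eq_one_iff] at h1
      obtain ⟨w, hw⟩ := h1
      exact ⟨w, hw⟩

end Local

section PresLocal

variable (P : ℕ) {r : ℕ} (qv : Fin r → ℕ) (hq : ∀ i, (qv i).Prime)
  (hinj : Function.Injective qv) (hP : ∀ i, P ∣ qv i - 1) (hP0 : P ≠ 0) [NeZero (∏ j, qv j)]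
  (N : ℕ) [NeZero N] [NeZero (N * ∏ j, qv j)] (H : Subgroup (ZMod N)ˣ)

include hq hinj hP hP0 in
/-- **(P6): the presentation of `B_Q` with local generators.** -/
theorem s59t_BQ_pres_local (hsq' : Squarefree (N * ∏ j, qv j)) (hcop : N.Coprime (∏ j, qv j)) :
    ∃ g : Fin r → s59t_BQ N (∏ j, qv j) H (s59t_KQ P qv),
      Nat.card (s59t_BQ N (∏ j, qv j) H (s59t_KQ P qv)) = P ^ r ∧
      (∀ x : s59t_BQ N (∏ j, qv j) H (s59t_KQ P qv), ∃ a : Fin r → ℕ, x = ∏ i, g i ^ a i) ∧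
      (∀ i, g i ^ P = 1) ∧
      ∀ i, ∃ τ : Gamma0 (N * ∏ j, qv j),
        (QuotientGroup.mk τ : s59t_Delta (N * ∏ j, qv j)
          (s59t_Hmul N (∏ j, qv j) H (s59t_KQ P qv))) = (g i : s59t_Delta (N * ∏ j, qv j)
          (s59t_Hmul N (∏ j, qv j) H (s59t_KQ P qv))) ∧
        ZMod.unitsMap (Nat.div_dvd_of_dvd (s59t_qv_dvd_level qv N i))
          (s59t_unitHom (N * ∏ j, qv j) τ) = 1 := by
  obtain ⟨g, h1, h2, h3, h4⟩ := s59t_BQ_pres P qv hq hinj hP hP0 N H hcop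
  exact ⟨g, h1, h2, h3, fun i => s59t_BQ_local P qv hq hinj N H hsq' hcop i (g i) (h4 i)⟩

end PresLocal

end Fermat.Agent.Lib.S59
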