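/-
S59 (helper9, prefix `s59m_`), **`hC8` for helper8's CONCRETE module** `Y' = s59t_part ε'` (the part of an idempotent
`ε'` of `H_par(Γ_{H'}(N'), 𝒪)` commuting with all anemic operators), `ρ' = s59t_partRep (s59t_rho N' H' 𝒪 𝒪) hρ'`.

* `s59m_opPart`, `s59m_opPart_coe`        : the anemic operators on the part, `j (opY x y) = s59w_op H 𝒪 x (j y)` (`rfl`);
* `s59m_partRep_mk`, `s59m_partRep_exists` : `ρ' (mk τ) = opY (inr τ⁻¹)`; every `ρ' δ` is a diamond;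
* `s59m_hC8_part`                          : `hC8` at `β ^ e` for `β = mk τ`, `τ` local at `q₀`;
* `s59m_hC8_level`                         : `hC8` of `s59e_TLevel_abs` at the Taylor–Wiles level
  `(N ∏ qv, s59t_Hmul N (∏ qv) H₀ (s59t_KQ (p^n) qv))`, `Bq = s59t_BQ …`, for generators `g` as in helper8's
  `s59t_BQ_pres_local`, `uu i = dia (s59t_hh p n g i)`.
-/
import Mathlib
import Fermat.Agent.Lib.S59.MC8TP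
import Fermat.Agent.Lib.S59.TLocal
import Fermat.Agent.Lib.S59.TLvlFin
import Fermat.Agent.Lib.S59.TFin

set_option autoImplicit false
set_option linter.unusedSectionVars false
set_option linter.unusedVariables false
set_option linter.style.haveILetI false
set_option synthInstance.maxHeartbeats 400000
set_option maxSynthPendingDepth 3
set_option maxHeartbeats 4000000

noncomputable section

namespace Fermat.Agent.Lib.S59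

open Fermat.Agent.Lib.S29 Fermat.Agent.Lib.S30 Fermat.Agent.Lib.S48 Fermat.Agent.Lib.PT
open WeierstrassCurve WeierstrassCurve.Affine IsLocalRing TensorProduct Polynomial
open CongruenceSubgroup ModularCurve.Period
open scoped MatrixGroups

local notation "Qbar" => AlgebraicClosure ℚ
local notation "GQ" => (AlgebraicClosure ℚ ≃ₐ[ℚ] AlgebraicClosure ℚ)

section Part

variable {M : ℕ} [NeZero M] (H : Subgroup (ZMod M)ˣ)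
  {𝒪 : Type} [CommRing 𝒪]
  (ε' : Module.End 𝒪 (s48h_Hpar 𝒪 (s48h_GammaH M H) 𝒪))
  (hεop : ∀ x y, ε' (s59w_op H 𝒪 x y) = s59w_op H 𝒪 x (ε' y))
  (hερ : ∀ δ y, ε' (s59t_rho M H 𝒪 𝒪 δ y) = s59t_rho M H 𝒪 𝒪 δ (ε' y))

/-- the anemic operators on the `ε'`-part. -/
def s59m_opPart (x : s59w_AIdx M) : Module.End 𝒪 (s59t_part ε') :=
  s59t_partMap (s59w_op H 𝒪 x) (hεop x)

theorem s59m_opPart_coe (x : s59w_AIdx M) (y : s59t_part ε') :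
    (s59t_part ε').subtype (s59m_opPart H ε' hεop x y) =
      s59w_op H 𝒪 x ((s59t_part ε').subtype y) := rfl

/-- the diamond `⟨τ⟩ = s59w_op (inr τ)` is `ρ (mk τ)⁻¹`. -/
theorem s59m_op_inr_eq_rho (τ : Gamma0 M) :
    s59w_op H 𝒪 (Sum.inr τ) = s59t_rho M H 𝒪 𝒪 ((QuotientGroup.mk τ : s59t_Delta M H))⁻¹ := by
  refine LinearMap.ext fun χ => Subtype.ext ?_
  exact (s59t_rho_mk_inv M H 𝒪 𝒪 τ χ).symm

/-- `ρ' (mk τ) = opY (inr τ⁻¹)`. -/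
theorem s59m_partRep_mk (τ : Gamma0 M) :
    s59t_partRep (s59t_rho M H 𝒪 𝒪) hερ (QuotientGroup.mk τ : s59t_Delta M H) =
      s59m_opPart H ε' hεop (Sum.inr τ⁻¹) := by
  refine LinearMap.ext fun y => Subtype.ext ?_
  show s59t_rho M H 𝒪 𝒪 (QuotientGroup.mk τ : s59t_Delta M H) (y : _) =
    s59w_op H 𝒪 (Sum.inr τ⁻¹) (y : _)
  rw [s59m_op_inr_eq_rho, QuotientGroup.mk_inv, inv_inv]

/-- every `ρ' δ` is a diamond operator. -/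
theorem s59m_partRep_exists (δ : s59t_Delta M H) :
    ∃ τ : Gamma0 M, s59t_partRep (s59t_rho M H 𝒪 𝒪) hερ δ = s59m_opPart H ε' hεop (Sum.inr τ) := by
  obtain ⟨τ, rfl⟩ := QuotientGroup.mk_surjective δ
  exact ⟨τ⁻¹, s59m_partRep_mk H ε' hεop hερ τ⟩

end Part

section PartC8

variable {M : ℕ} [NeZero M] (H : Subgroup (ZMod M)ˣ)
  {𝒪 : Type} [CommRing 𝒪] [IsDomain 𝒪] [IsDiscreteValuationRing 𝒪]
  [IsAdicComplete (maximalIdeal 𝒪) 𝒪] [Finite (ResidueField 𝒪)] [CharZero 𝒪]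
  (ε' : Module.End 𝒪 (s48h_Hpar 𝒪 (s48h_GammaH M H) 𝒪))
  (hεop : ∀ x y, ε' (s59w_op H 𝒪 x y) = s59w_op H 𝒪 x (ε' y))
  (hερ : ∀ δ y, ε' (s59t_rho M H 𝒪 𝒪 δ y) = s59t_rho M H 𝒪 𝒪 δ (ε' y))
  {A : Type} [CommRing A] (a : A →+* Module.End 𝒪 (s48h_Hpar 𝒪 (s48h_GammaH M H) 𝒪)) (k : ℕ)
  (ha : ∀ t, a t ∈ Subring.closure (Set.range (s59e_Tp' H 𝒪 k)))
  (aM : A →+* Module.End 𝒪 (s59t_part ε'))
  (haM : ∀ t (z : s59t_part ε'), (s59t_part ε').subtype (aM t z) = a t ((s59t_part ε').subtype z))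
  (Bq Cs : Subgroup (s59t_Delta M H)) (χ' : s59t_Delta M H →* 𝒪ˣ)
  (hcomm : ∀ (t : A) (β : Bq), Commute (aM t)
    (((s59t_partRep (s59t_rho M H 𝒪 𝒪) hερ).comp Bq.subtype) β))

include hεop ha haM in
/-- **`hC8` on the part of an idempotent**, at `β ^ e` for `β = mk τ₀ ∈ B_Q` with `τ₀` local at `q₀`. -/
theorem s59m_hC8_part [IsLocalRing (s59e_adj 𝒪 aM)]
    (hTρ : ∀ (t : s59e_adj 𝒪 (s59e_aB aM
        ((s59t_partRep (s59t_rho M H 𝒪 𝒪) hερ).comp Bq.subtype) hcomm))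
      (δ : s59t_Delta M H) (y : s59t_part ε'),
      t • s59t_partRep (s59t_rho M H 𝒪 𝒪) hερ δ y =
        s59t_partRep (s59t_rho M H 𝒪 𝒪) hερ δ (t • y))
    (P : FreyPackage) [hpP : Fact P.p.Prime] (W : WeierstrassCurve ℤ)
    (hW : W.IsIntegralModelOf P.freyCurve) (hΔ : W.Δ ≠ 0) (hss : W.IsSemistableModel)
    (hirr : Point.GaloisRepIsIrreducible (K := Qbar) ℚ P.freyCurve P.p)
    (N : ℕ) [NeZero N] (Q : Finset ℕ)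
    (hMeq : M = N * ∏ q ∈ Q, q) (hQ : ∀ q ∈ Q, q.Prime ∧ ¬ q ∣ N)
    (hH : ∀ (x : ℤ) (u : (ZMod M)ˣ), ((x : ℤ) : ZMod (∏ q ∈ Q, q)) = 1 →
      ((u : (ZMod M)ˣ) : ZMod M) = ((x : ℤ) : ZMod M) → u ∈ H)
    (hsq : Squarefree M) (hM : 1 < M) (hneg : (-1 : (ZMod M)ˣ) ∈ H) (h23 : 2 ∣ M ∨ 3 ∣ M)
    {e m : ℕ} (hnm : 2 * m = P.p ^ e + 1) (hn : ∀ u : (ZMod M)ˣ, u ^ (P.p ^ e) ∈ H)
    (hk : k = (P.p ^ e - 1) * m)
    [Algebra ℤ_[P.p] 𝒪] [Module.Finite ℤ_[P.p] 𝒪]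
    (hp𝒪 : (P.p : 𝒪) ∈ maximalIdeal 𝒪)
    (S : Finset ℕ) (hpS : P.p ∈ S) (hMS : ∀ r : ℕ, r.Prime → r ∣ M → r ∈ S)
    (hgood : ∀ ℓ : ℕ, ℓ.Prime → ℓ ∉ S → W.IsGoodPrimeFor ℓ)
    (hrad : (Module.annihilator (s59e_adj 𝒪 (s59e_aB aM
        ((s59t_partRep (s59t_rho M H 𝒪 𝒪) hερ).comp Bq.subtype) hcomm))
      (s59t_EigT (T := s59e_adj 𝒪 (s59e_aB aM
        ((s59t_partRep (s59t_rho M H 𝒪 𝒪) hερ).comp Bq.subtype) hcomm))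
        (s59t_partRep (s59t_rho M H 𝒪 𝒪) hερ) Cs χ' hTρ)).IsRadical)
    (ρT : GaloisRepAdic (s59e_adj 𝒪 aM)) (tT' : ℕ → s59e_adj 𝒪 aM)
    (htT' : ∀ i : s59w_TIdx M, i.ell ∉ S → ∀ z : s59t_part ε',
      (s59t_part ε').subtype (((tT' i.ell : s59e_adj 𝒪 aM) : Module.End 𝒪 (s59t_part ε')) z) =
        s59e_Tp' H 𝒪 k i ((s59t_part ε').subtype z))
    (hfrob : ∀ ℓ : ℕ, ℓ.Prime → ℓ ∉ S → ∀ P' : ValuationSubring Qbar, P'.LiesOverPrime ℓ →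
      ∀ σ : GQ, P'.IsFrobeniusAt σ ℓ →
        LinearMap.charpoly (ρT.ρ σ) =
          X ^ 2 - Polynomial.C (tT' ℓ) * X + Polynomial.C (ℓ : s59e_adj 𝒪 aM))
    (hcong : ∀ ℓ : ℕ, ℓ.Prime → ℓ ∉ S →
      tT' ℓ - algebraMap 𝒪 (s59e_adj 𝒪 aM) ((W.apOfModel ℓ : ℤ) : 𝒪) ∈
        maximalIdeal (s59e_adj 𝒪 aM))
    (q₀ : ℕ) (hq₀ : q₀ ∈ Q) (hq₀p : q₀ ≠ P.p) (hq₀5 : 5 ≤ q₀) (hq₀g : ¬ (q₀ : ℤ) ∣ W.Δ)
    (hq₀1 : (P.p : ℤ) ∣ (q₀ : ℤ) - 1) (hq₀TW : ¬ (P.p : ℤ) ∣ W.apOfModel q₀ ^ 2 - 4)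
    (hunr : ρT.residual.IsUnramifiedAt q₀)
    (β : Bq) (τ₀ : Gamma0 M)
    (hβ : (QuotientGroup.mk τ₀ : s59t_Delta M H) = (β : s59t_Delta M H))
    (L₀ : ℕ) (hL₀ : M = L₀ * q₀) (hL₀d : L₀ ∣ M)
    (hτ₀ : ZMod.unitsMap hL₀d (s59t_unitHom M τ₀) = 1) (f : ℕ) :
    letI := s59e_algTT (𝒪 := 𝒪) aM ((s59t_partRep (s59t_rho M H 𝒪 𝒪) hερ).comp Bq.subtype) hcomm
    ∃ τ ∈ maximalIdeal (s59e_adj 𝒪 aM),
      ((s59e_dia (𝒪 := 𝒪) aM ((s59t_partRep (s59t_rho M H 𝒪 𝒪) hερ).comp Bq.subtype) hcomm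
          (β ^ f) : s59e_adj 𝒪 (s59e_aB aM
            ((s59t_partRep (s59t_rho M H 𝒪 𝒪) hερ).comp Bq.subtype) hcomm)) -
        (s59e_dia (𝒪 := 𝒪) aM ((s59t_partRep (s59t_rho M H 𝒪 𝒪) hερ).comp Bq.subtype) hcomm
          (β ^ f)⁻¹ : s59e_adj 𝒪 (s59e_aB aM
            ((s59t_partRep (s59t_rho M H 𝒪 𝒪) hερ).comp Bq.subtype) hcomm))) ^ 2 -
        algebraMap (s59e_adj 𝒪 aM) (s59e_adj 𝒪 (s59e_aB aM
          ((s59t_partRep (s59t_rho M H 𝒪 𝒪) hερ).comp Bq.subtype) hcomm)) τ ∈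
        Module.annihilator (s59e_adj 𝒪 (s59e_aB aM
            ((s59t_partRep (s59t_rho M H 𝒪 𝒪) hερ).comp Bq.subtype) hcomm))
          (s59t_EigT (T := s59e_adj 𝒪 (s59e_aB aM
            ((s59t_partRep (s59t_rho M H 𝒪 𝒪) hερ).comp Bq.subtype) hcomm))
            (s59t_partRep (s59t_rho M H 𝒪 𝒪) hερ) Cs χ' hTρ) := by
  haveI : Module.Finite 𝒪 (s48h_Hpar 𝒪 (s48h_GammaH M H) 𝒪) := s59t_Hpar_finite 𝒪
  haveI : Module.Finite 𝒪 (s59t_part ε') := s59t_part_finite ε'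
  have hrep : s59t_partRep (s59t_rho M H 𝒪 𝒪) hερ (((β ^ f : Bq)) : s59t_Delta M H) =
      s59m_opPart H ε' hεop (Sum.inr (τ₀ ^ f)⁻¹) := by
    rw [← s59m_partRep_mk H ε' hεop hερ (τ₀ ^ f), QuotientGroup.mk_pow, hβ, Subgroup.coe_pow]
  have hloc : ZMod.unitsMap (hL₀ ▸ Dvd.intro q₀ rfl : L₀ ∣ M) (s59w_lrUnit (τ₀ ^ f)⁻¹) = 1 := by
    show ZMod.unitsMap hL₀d (s59t_unitHom M (τ₀ ^ f)⁻¹) = 1
    rw [map_inv, map_pow, map_inv, map_pow, hτ₀, one_pow, inv_one]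
  exact s59m_hC8_ERing H (s59t_part ε').subtype Subtype.val_injective (s59m_opPart H ε' hεop)
    (fun _ _ => rfl) a k ha aM haM (s59t_partRep (s59t_rho M H 𝒪 𝒪) hερ)
    (s59m_partRep_exists H ε' hεop hερ) Bq Cs χ' hcomm hTρ P W hW hΔ hss hirr N Q hMeq hQ hH hsq hM
    hneg h23 hnm hn hk hp𝒪 S hpS hMS hgood hrad ρT tT' htT' hfrob hcong q₀ hq₀ hq₀p hq₀5 hq₀g hq₀1
    hq₀TW hunr (β ^ f) (τ₀ ^ f)⁻¹ hrep L₀ hL₀ hloc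

end PartC8

section PartTP

variable {M : ℕ} [NeZero M] (H : Subgroup (ZMod M)ˣ)
  {𝒪 : Type} [CommRing 𝒪] [IsDomain 𝒪] [IsDiscreteValuationRing 𝒪]
  [IsAdicComplete (maximalIdeal 𝒪) 𝒪] [Finite (ResidueField 𝒪)] [CharZero 𝒪]
  (ε' : Module.End 𝒪 (s48h_Hpar 𝒪 (s48h_GammaH M H) 𝒪))
  (hεop : ∀ x y, ε' (s59w_op H 𝒪 x y) = s59w_op H 𝒪 x (ε' y))
  (hερ : ∀ δ y, ε' (s59t_rho M H 𝒪 𝒪 δ y) = s59t_rho M H 𝒪 𝒪 δ (ε' y))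

/-- **locality of `uu i = s59t_hh p n g i` on the part**: from generators `g i = mk τ_i` of `B_Q` with `τ_i` local at
`qv i` (helper8's `s59t_BQ_pres_local` / helper3's `s59u_frey_level_grp`), the hypothesis `hgl` of `s59m_hC8_TPkg`. -/
theorem s59m_hgl_part {r : ℕ} (qv : Fin r → ℕ) (hqM : ∀ i, qv i ∣ M)
    (Bq : Subgroup (s59t_Delta M H)) (g : Fin r → Bq)
    (hgloc : ∀ i, ∃ τ : Gamma0 M,
      (QuotientGroup.mk τ : s59t_Delta M H) = (g i : s59t_Delta M H) ∧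
      ZMod.unitsMap (Nat.div_dvd_of_dvd (hqM i)) (s59t_unitHom M τ) = 1) (p n : ℕ) :
    ∀ i, ∃ (τ₀ : Gamma0 M) (L₀ : ℕ) (hL₀ : M = L₀ * qv i),
      s59t_partRep (s59t_rho M H 𝒪 𝒪) hερ ((s59t_hh p n g i : Bq) : s59t_Delta M H) =
        s59m_opPart H ε' hεop (Sum.inr τ₀) ∧
      ZMod.unitsMap (hL₀ ▸ Dvd.intro (qv i) rfl : L₀ ∣ M) (s59w_lrUnit τ₀) = 1 := by
  intro i
  obtain ⟨τ, hτ, hu⟩ := hgloc i
  refine ⟨(τ ^ ((p ^ n + 1) / 2))⁻¹, M / qv i, (Nat.div_mul_cancel (hqM i)).symm, ?_, ?_⟩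
  · rw [← s59m_partRep_mk H ε' hεop hερ (τ ^ ((p ^ n + 1) / 2)), QuotientGroup.mk_pow, hτ]
    rfl
  · show ZMod.unitsMap (Nat.div_dvd_of_dvd (hqM i))
      (s59t_unitHom M (τ ^ ((p ^ n + 1) / 2))⁻¹) = 1
    rw [map_inv, map_pow, map_inv, map_pow, hu, one_pow, inv_one]

variable {A : Type} [CommRing A] (a : A →+* Module.End 𝒪 (s48h_Hpar 𝒪 (s48h_GammaH M H) 𝒪)) (k : ℕ)
  (ha : ∀ t, a t ∈ Subring.closure (Set.range (s59e_Tp' H 𝒪 k)))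
  (aM : A →+* Module.End 𝒪 (s59t_part ε'))
  (haM : ∀ t (z : s59t_part ε'), (s59t_part ε').subtype (aM t z) = a t ((s59t_part ε').subtype z))
  (Bq Cs : Subgroup (s59t_Delta M H)) (χ' : s59t_Delta M H →* 𝒪ˣ)
  (hcomm : ∀ (t : A) (β : Bq), Commute (aM t)
    (((s59t_partRep (s59t_rho M H 𝒪 𝒪) hερ).comp Bq.subtype) β))

include hεop ha haM in
/-- **`hC8` of `s59e_TLevel_abs` on the part of an idempotent, in the `s59i_TPkg` context**: `s59m_hC8_TPkg` at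
`Y' := s59t_part ε'`, `j := subtype`, `opY := s59m_opPart`, `ρ' := s59t_partRep (s59t_rho M H 𝒪 𝒪) hερ`, with the locality
of the generators in the shape of `s59t_BQ_pres_local`. (Use at `M := N * ∏ j, qv j`,
`H := s59t_Hmul N (∏ j, qv j) H₀ (s59t_KQ (P.p ^ n) qv)`, `Bq := s59t_BQ …`, `Cs := s59t_CQ …`,
`hqM := s59t_qv_dvd_level qv N`.) -/
theorem s59m_hC8_level [IsLocalRing (s59e_adj 𝒪 aM)]
    (hTρ : ∀ (t : s59e_adj 𝒪 (s59e_aB aM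
        ((s59t_partRep (s59t_rho M H 𝒪 𝒪) hερ).comp Bq.subtype) hcomm))
      (δ : s59t_Delta M H) (y : s59t_part ε'),
      t • s59t_partRep (s59t_rho M H 𝒪 𝒪) hερ δ y =
        s59t_partRep (s59t_rho M H 𝒪 𝒪) hερ δ (t • y))
    (P : FreyPackage) [hpP : Fact P.p.Prime] (hΔ : P.freyCurveInt.Δ ≠ 0)
    (hirr : Point.GaloisRepIsIrreducible (K := Qbar) ℚ P.freyCurve P.p)
    (B : Finset ℕ) (hpB : P.p ∈ B)
    (hB2 : ∀ r : ℕ, r.Prime → (r : ℤ) ∣ P.a * P.b * P.c → r ∈ B)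
    (N : ℕ) [NeZero N] (Q : Finset ℕ)
    (hMeq : M = N * ∏ q ∈ Q, q) (hQ : ∀ q ∈ Q, q.Prime ∧ ¬ q ∣ N)
    {D : ℕ} (hDQ : D = ∏ q ∈ Q, q) (hD : D ∣ M) (hH : s59u_ker M D hD ≤ H)
    (hsq : Squarefree M) (h2M : 2 ∣ M) (hneg : (-1 : (ZMod M)ˣ) ∈ H)
    {e m : ℕ} (hnm : 2 * m = P.p ^ e + 1) (hn : ∀ u : (ZMod M)ˣ, u ^ (P.p ^ e) ∈ H)
    (hk : k = (P.p ^ e - 1) * m)
    [Algebra ℤ_[P.p] 𝒪] [Module.Finite ℤ_[P.p] 𝒪]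
    (hp𝒪 : ((P.p : ℕ) : 𝒪) ∈ maximalIdeal 𝒪)
    (S : Finset ℕ) (hBS : B ⊆ S) (hMS : ∀ r : ℕ, r.Prime → r ∣ M → r ∈ S)
    {𝒟 : ∀ ⦃A : Type⦄ [CommRing A] [IsLocalRing A] [Algebra 𝒪 A], GaloisRepAdic A → Prop}
    (DQ : GaloisRep.DeformationRingData 𝒪 (s59i_rhobarF P hΔ 𝒪 hp𝒪) 𝒟)
    (θ : DQ.R →ₐ[𝒪] s59e_adj 𝒪 aM) (hθ : Function.Surjective θ)
    (tT' : ℕ → s59e_adj 𝒪 aM)
    (htT' : ∀ i : s59w_TIdx M, i.ell ∉ S → ∀ z : s59t_part ε',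
      (s59t_part ε').subtype (((tT' i.ell : s59e_adj 𝒪 aM) : Module.End 𝒪 (s59t_part ε')) z) =
        s59e_Tp' H 𝒪 k i ((s59t_part ε').subtype z))
    (hfrobT : ∀ ℓ : ℕ, ℓ.Prime → ℓ ∉ S →
      ∀ A : ValuationSubring (AlgebraicClosure ℚ), A.LiesOverPrime ℓ →
      ∀ τ : GQ, A.IsFrobeniusAt τ ℓ →
        (LinearMap.charpoly (DQ.ρ.ρ τ)).map (θ : DQ.R →+* s59e_adj 𝒪 aM) =
          Polynomial.X ^ 2 - Polynomial.C (tT' ℓ) * Polynomial.X +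
            Polynomial.C ((ℓ : s59e_adj 𝒪 aM)))
    (hcong : ∀ ℓ : ℕ, ℓ.Prime → ℓ ∉ S →
      tT' ℓ - algebraMap 𝒪 (s59e_adj 𝒪 aM) ((P.freyCurveInt.apOfModel ℓ : ℤ) : 𝒪) ∈
        maximalIdeal (s59e_adj 𝒪 aM))
    (n : ℕ) {r : ℕ} (qv : Fin r → ℕ)
    (hqv : ∀ i, (qv i).Prime ∧ qv i ∉ B ∧ P.p ^ (n + 1) ∣ qv i - 1)
    (hqvQ : ∀ i, qv i ∈ Q)
    (hTW : ∀ i, ∀ A : ValuationSubring (AlgebraicClosure ℚ), A.LiesOverPrime (qv i) →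
      ∀ φ : GQ, A.IsFrobeniusAt φ (qv i) →
        ∃ α β : ResidueField 𝒪, α ≠ β ∧
          LinearMap.charpoly ((s59i_rhobarF P hΔ 𝒪 hp𝒪).ρ φ) = (X - C α) * (X - C β))
    (hqM : ∀ i, qv i ∣ M) (g : Fin r → Bq)
    (hgloc : ∀ i, ∃ τ : Gamma0 M,
      (QuotientGroup.mk τ : s59t_Delta M H) = (g i : s59t_Delta M H) ∧
      ZMod.unitsMap (Nat.div_dvd_of_dvd (hqM i)) (s59t_unitHom M τ) = 1) :
    letI := s59e_algTT (𝒪 := 𝒪) aM ((s59t_partRep (s59t_rho M H 𝒪 𝒪) hερ).comp Bq.subtype) hcomm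
    ∀ i, ∃ τ ∈ maximalIdeal (s59e_adj 𝒪 aM),
      ((s59e_dia (𝒪 := 𝒪) aM ((s59t_partRep (s59t_rho M H 𝒪 𝒪) hερ).comp Bq.subtype) hcomm
          (s59t_hh P.p n g i) : s59e_adj 𝒪 (s59e_aB aM
            ((s59t_partRep (s59t_rho M H 𝒪 𝒪) hερ).comp Bq.subtype) hcomm)) -
        (s59e_dia (𝒪 := 𝒪) aM ((s59t_partRep (s59t_rho M H 𝒪 𝒪) hερ).comp Bq.subtype) hcomm
          (s59t_hh P.p n g i)⁻¹ : s59e_adj 𝒪 (s59e_aB aM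
            ((s59t_partRep (s59t_rho M H 𝒪 𝒪) hερ).comp Bq.subtype) hcomm))) ^ 2 -
        algebraMap (s59e_adj 𝒪 aM) (s59e_adj 𝒪 (s59e_aB aM
          ((s59t_partRep (s59t_rho M H 𝒪 𝒪) hερ).comp Bq.subtype) hcomm)) τ ∈
        Module.annihilator (s59e_adj 𝒪 (s59e_aB aM
            ((s59t_partRep (s59t_rho M H 𝒪 𝒪) hερ).comp Bq.subtype) hcomm))
          (s59t_EigT (T := s59e_adj 𝒪 (s59e_aB aM
            ((s59t_partRep (s59t_rho M H 𝒪 𝒪) hερ).comp Bq.subtype) hcomm))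
            (s59t_partRep (s59t_rho M H 𝒪 𝒪) hερ) Cs χ' hTρ) := by
  haveI : Module.Finite 𝒪 (s48h_Hpar 𝒪 (s48h_GammaH M H) 𝒪) := s59t_Hpar_finite 𝒪
  haveI : Module.Finite 𝒪 (s59t_part ε') := s59t_part_finite ε'
  exact s59m_hC8_TPkg H (s59t_part ε').subtype Subtype.val_injective (s59m_opPart H ε' hεop)
    (fun _ _ => rfl) a k ha aM haM (s59t_partRep (s59t_rho M H 𝒪 𝒪) hερ)
    (s59m_partRep_exists H ε' hεop hερ) Bq Cs χ' hcomm hTρ P hΔ hirr B hpB hB2 N Q hMeq hQ hDQ hD hH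
    hsq h2M hneg hnm hn hk hp𝒪 S hBS hMS DQ θ hθ tT' htT' hfrobT hcong n qv hqv hqvQ hTW g
    (s59m_hgl_part H ε' hεop hερ qv hqM Bq g hgloc P.p n)

end PartTP



end Fermat.Agent.Lib.S59
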