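/-
S59 (helper2, prefix `s59b_`), `T`-side package, "χ in family", part 1: **the index type of the characters of
type `χ` and the roots of unity `ζ I j`, `ζ' I j`** (fields `ι`, `ζ`, `ζ'`, `hζ`, `hζq`, `hζne`, `hζm` of
`s59i_TBase`).

`ζ : 𝒪` a primitive `p^v`-th root of unity, `qB : Fin m → ℕ` the primes of `Bd`.
* `s59b_chiIdx p v qB ζ := {I : Fin m → Fin (p^v) // ∀ j, 0 < I j ∧ (ζ^(I j))^(qB j) = ζ^(I j)}`;
* `s59b_chiZ I j := ζ ^ (I j)`, `s59b_chiZ' I j := ζ ^ (p^v - I j)`;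
* `s59b_chiZ_mul`, `s59b_chiZ_pow`, `s59b_chiZ_ne`, `s59b_chiZ_sub_mem` : the four fields;
* `s59b_exists_vc` : `q - 1 = p^w c`, `p ∤ c`, `1 ≤ w ≤ v`;
* `s59b_chiIdx_of_local` : the index built from local exponents `0 < i_j < p^(w_j)`
  (`ζ_j := ζ^(p^(v - w_j))`, `ζ^(I j) = ζ_j^(i_j)`).
-/
import Mathlib
import Fermat.Agent.Lib.S59.BHres

set_option autoImplicit false
set_option linter.unusedSectionVars false
set_option linter.unusedVariables false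

noncomputable section

namespace Fermat.Agent.Lib.S59

open IsLocalRing

section Idx

variable (p v : ℕ) {m : ℕ} (qB : Fin m → ℕ) {𝒪 : Type} [CommRing 𝒪] (ζ : 𝒪)

/-- the index type of the characters of type `χ`. -/
def s59b_chiIdx : Type :=
  {I : Fin m → Fin (p ^ v) // ∀ j, 0 < (I j).val ∧ (ζ ^ (I j).val) ^ qB j = ζ ^ (I j).val}

instance s59b_chiIdx_finite : Finite (s59b_chiIdx p v qB ζ) :=
  inferInstanceAs (Finite {I : Fin m → Fin (p ^ v) //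
    ∀ j, 0 < (I j).val ∧ (ζ ^ (I j).val) ^ qB j = ζ ^ (I j).val})

instance s59b_chiIdx_fintype : Fintype (s59b_chiIdx p v qB ζ) := Fintype.ofFinite _

variable {p v qB ζ}

/-- `ζ I j = ζ ^ (I j)`. -/
def s59b_chiZ (I : s59b_chiIdx p v qB ζ) (j : Fin m) : 𝒪 := ζ ^ (I.1 j).val

/-- `ζ' I j = ζ ^ (p^v - I j)`. -/
def s59b_chiZ' (I : s59b_chiIdx p v qB ζ) (j : Fin m) : 𝒪 := ζ ^ (p ^ v - (I.1 j).val)

theorem s59b_chiZ_mul (hζ : ζ ^ (p ^ v) = 1) (I : s59b_chiIdx p v qB ζ) (j : Fin m) :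
    s59b_chiZ I j * s59b_chiZ' I j = 1 := by
  unfold s59b_chiZ s59b_chiZ'
  rw [← pow_add, Nat.add_sub_cancel' (I.1 j).isLt.le, hζ]

theorem s59b_chiZ_pow (I : s59b_chiIdx p v qB ζ) (j : Fin m) :
    s59b_chiZ I j ^ qB j = s59b_chiZ I j := (I.2 j).2

theorem s59b_chiZ_ne (hp : p.Prime) (hp2 : p ≠ 2) (hζ : IsPrimitiveRoot ζ (p ^ v))
    (I : s59b_chiIdx p v qB ζ) (j : Fin m) : s59b_chiZ I j ≠ s59b_chiZ' I j := by
  intro h
  have h1 : ζ ^ (2 * (I.1 j).val) = 1 := by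
    have := s59b_chiZ_mul hζ.pow_eq_one I j
    rw [← h] at this
    unfold s59b_chiZ at this
    rw [two_mul, pow_add]
    exact this
  have h2 : p ^ v ∣ 2 * (I.1 j).val := (hζ.pow_eq_one_iff_dvd _).mp h1
  have hcop : Nat.Coprime (p ^ v) 2 := by
    apply Nat.Coprime.pow_left
    rw [Nat.coprime_primes hp Nat.prime_two]
    exact hp2
  have h3 : p ^ v ∣ (I.1 j).val := hcop.dvd_of_dvd_mul_left h2
  have h4 := Nat.le_of_dvd (I.2 j).1 h3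
  exact absurd (I.1 j).isLt (not_lt.mpr h4)

theorem s59b_chiZ_sub_mem [IsLocalRing 𝒪] [hpF : Fact p.Prime] (hp𝒪 : (p : 𝒪) ∈ maximalIdeal 𝒪)
    (hζ : ζ ^ (p ^ v) = 1) (I : s59b_chiIdx p v qB ζ) (j : Fin m) :
    s59b_chiZ I j - s59b_chiZ' I j ∈ maximalIdeal 𝒪 := by
  have h : ∀ k : ℕ, residue 𝒪 (ζ ^ k) = 1 := by
    intro k
    refine s59b_residue_one_of_pow p hp𝒪 _ v ?_
    rw [← pow_mul, mul_comm, pow_mul, hζ, one_pow]
  rw [← residue_eq_zero_iff, map_sub]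
  unfold s59b_chiZ s59b_chiZ'
  rw [h, h, sub_self]

end Idx

section VC

/-- the exact power of `p` in `q - 1`. -/
theorem s59b_exists_vc {p : ℕ} (hp : p.Prime) {q v : ℕ} (hq : 1 < q) (h1 : p ∣ q - 1)
    (hv : ¬ p ^ (v + 1) ∣ q - 1) :
    ∃ w c : ℕ, 0 < w ∧ w ≤ v ∧ q = p ^ w * c + 1 ∧ ¬ p ∣ c := by
  have hq0 : q - 1 ≠ 0 := by omega
  obtain ⟨w, c, hc, hwc⟩ := Nat.exists_eq_pow_mul_and_not_dvd hq0 p hp.ne_one
  refine ⟨w, c, ?_, ?_, ?_, hc⟩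
  · rcases Nat.eq_zero_or_pos w with h0 | h0
    · exfalso
      rw [h0, pow_zero, one_mul] at hwc
      exact hc (hwc ▸ h1)
    · exact h0
  · by_contra hlt
    have hlt' : v + 1 ≤ w := by omega
    apply hv
    rw [hwc]
    exact Dvd.dvd.mul_right (pow_dvd_pow p hlt') c
  · omega

end VC

section Local

variable {p v : ℕ} {m : ℕ} {qB : Fin m → ℕ} {𝒪 : Type} [CommRing 𝒪] {ζ : 𝒪}

/-- the local root of unity `ζ_j = ζ^(p^(v - w))` is a primitive `p^w`-th root of unity. -/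
theorem s59b_isPrimitiveRoot_local (hp : p.Prime) (hζ : IsPrimitiveRoot ζ (p ^ v)) {w : ℕ}
    (hw : w ≤ v) : IsPrimitiveRoot (ζ ^ (p ^ (v - w))) (p ^ w) := by
  refine hζ.pow (pow_pos hp.pos v) ?_
  rw [← pow_add, Nat.sub_add_cancel hw]

/-- **the index built from local exponents**: `w j ≤ v`, `qB j = p^(w j) c j + 1`,
`0 < i j < p^(w j)`; then `I j := p^(v - w j) * i j`, `ζ^(I j) = ζ_j^(i j)`,
`ζ^(p^v - I j) = ζ_j^(p^(w j) - i j)`. -/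
theorem s59b_chiIdx_of_local (hp : p.Prime) (hζ : ζ ^ (p ^ v) = 1) (w c i : Fin m → ℕ)
    (hw : ∀ j, w j ≤ v) (hq : ∀ j, qB j = p ^ w j * c j + 1)
    (hi0 : ∀ j, 0 < i j) (hi : ∀ j, i j < p ^ w j) :
    ∃ I : s59b_chiIdx p v qB ζ, ∀ j,
      s59b_chiZ I j = (ζ ^ (p ^ (v - w j))) ^ i j ∧
      s59b_chiZ' I j = (ζ ^ (p ^ (v - w j))) ^ (p ^ w j - i j) := by
  have hlt : ∀ j, p ^ (v - w j) * i j < p ^ v := by
    intro j
    calc p ^ (v - w j) * i j < p ^ (v - w j) * p ^ w j :=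
          Nat.mul_lt_mul_of_pos_left (hi j) (pow_pos hp.pos _)
      _ = p ^ v := by rw [← pow_add, Nat.sub_add_cancel (hw j)]
  have hpw : ∀ j, p ^ (v - w j) * p ^ w j = p ^ v := fun j => by
    rw [← pow_add, Nat.sub_add_cancel (hw j)]
  refine ⟨⟨fun j => ⟨p ^ (v - w j) * i j, hlt j⟩, fun j => ⟨?_, ?_⟩⟩, fun j => ⟨?_, ?_⟩⟩
  · exact Nat.mul_pos (pow_pos hp.pos _) (hi0 j)
  · show (ζ ^ (p ^ (v - w j) * i j)) ^ qB j = ζ ^ (p ^ (v - w j) * i j)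
    rw [hq j, pow_succ, ← pow_mul]
    have e : p ^ (v - w j) * i j * (p ^ w j * c j) = p ^ v * (i j * c j) := by
      rw [← hpw j]; ring
    rw [e, pow_mul, hζ, one_pow, one_mul]
  · show ζ ^ (p ^ (v - w j) * i j) = _
    rw [pow_mul]
  · show ζ ^ (p ^ v - p ^ (v - w j) * i j) = _
    rw [← pow_mul]
    congr 1
    rw [Nat.mul_sub, hpw j]

end Local

end Fermat.Agent.Lib.S59
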