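/-
PROGRAMME (R), bridge (iii) (helper6, prefix `s59q_`): **existence of a generator of the image of inertia at first
order** (the hypothesis `hσ` of `s59q_hE_of_gens` / `s59q_hE1_of_framed`).

`s59q_exists_tameGen`: `D` a deformation ring, `q ≠ p` a prime at which `ρ̄` is unramified, `K'` a subgroup of `G_ℚ`
containing an open part of `I_q` and of index prime to `q` in `I_q`.  There is `σ ∈ I_q` such that every `ι ∈ I_q` is
`≡ σ^a` modulo `K'` AND modulo the common kernel of all first-order families `f ∘ ρ^univ` (`f : D.R → k[ε]`); moreover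
`φ σ φ⁻¹ ≡ σ^q` for every Frobenius lift `φ`.  (Main's `s56g_ifaceTame`.)
-/
import Fermat.Agent.Lib.S56.ADict
import Fermat.Agent.Lib.S56.GUnr

set_option autoImplicit false
set_option linter.style.haveILetI false
set_option linter.unusedSectionVars false

noncomputable section

namespace Fermat.Agent.Lib.S59

open IsLocalRing Module ExtCitation Fermat.Agent.Lib.S56
open Fermat.Agent.Lib.S53 (matOf matOfRes NormData matContinuous_matOf)
open Fermat.Agent.Lib.Deform (dualNumberAlgebra)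

attribute [local instance] Fermat.Agent.Lib.Deform.dualNumberAlgebra

local notation "Γℚ" => (AlgebraicClosure ℚ ≃ₐ[ℚ] AlgebraicClosure ℚ)

section Pow

variable {k : Type} [Field k]

/-- a matrix over `k[ε]` with constant part `1` has `p`-th power `1` in characteristic `p`. -/
theorem s59q_pow_eq_one_of_fstM_one (p : ℕ) (hp : ((p : ℕ) : k) = 0)
    (A : Matrix (Fin 2) (Fin 2) (DualNumber k)) (hA : s56a_fstM A = 1) : A ^ p = 1 := by
  have hform : ∀ n : ℕ, s56a_fstM (A ^ n) = 1 ∧ s56a_sndM (A ^ n) = (n : k) • s56a_sndM A := by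
    intro n
    induction n with
    | zero =>
      rw [pow_zero, s56a_fstM_one, s56a_sndM_one, Nat.cast_zero, zero_smul]
      exact ⟨rfl, rfl⟩
    | succ n ih =>
      rw [pow_succ, s56a_fstM_mul, s56a_sndM_mul, ih.1, ih.2, hA]
      simp only [one_mul, mul_one]
      refine ⟨trivial, ?_⟩
      rw [Nat.cast_succ, add_smul, one_smul, add_comm]
  apply s56a_ext_fst_snd
  · rw [(hform p).1, s56a_fstM_one]
  · rw [(hform p).2, hp, zero_smul, s56a_sndM_one]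

end Pow

section Tame

variable {𝒪 : Type} [CommRing 𝒪] [IsDomain 𝒪] [IsDiscreteValuationRing 𝒪]
  [IsAdicComplete (maximalIdeal 𝒪) 𝒪]
  {ρbar : ResidualGaloisRep (ResidueField 𝒪)}
  {𝒟 : ∀ ⦃A : Type⦄ [CommRing A] [IsLocalRing A] [Algebra 𝒪 A], GaloisRepAdic A → Prop}
  (D : GaloisRep.DeformationRingData 𝒪 ρbar 𝒟) (N : NormData ρbar)
  (bR : Basis (Fin 2) D.R D.ρ.V)
  (hbR : ∀ σ i j, matOf D.ρ bR σ i j - algebraMap 𝒪 D.R (N.Mtil σ i j) ∈ maximalIdeal D.R)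

/-- the common kernel of all the first-order families of `D`. -/
def s59q_KD : Subgroup Γℚ :=
  ⨅ f : D.R →ₐ[𝒪] DualNumber (ResidueField 𝒪), (s56a_famOf D bR f).ker

theorem s59q_mem_KD (g : Γℚ) :
    g ∈ s59q_KD D bR ↔ ∀ f : D.R →ₐ[𝒪] DualNumber (ResidueField 𝒪), s56a_famOf D bR f g = 1 := by
  rw [s59q_KD, Subgroup.mem_iInf]
  exact forall_congr' fun f => MonoidHom.mem_ker

/-- `K_D` is open. -/
theorem s59q_KD_open : ∃ F : IntermediateField ℚ (AlgebraicClosure ℚ), FiniteDimensional ℚ F ∧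
    ∀ σ : Γℚ, σ ∈ F.fixingSubgroup → σ ∈ s59q_KD D bR := by
  obtain ⟨L, hL, hσ⟩ := matContinuous_matOf D.ρ bR 2
  refine ⟨L, hL, fun σ hσL => (s59q_mem_KD D bR σ).2 fun f => ?_⟩
  have h1 := hσ σ (fun x hx => (IntermediateField.mem_fixingSubgroup_iff L σ).1 hσL x hx)
  haveI := s56a_isLocalHom_hom D f
  rw [← sub_eq_zero]
  ext i j : 1
  have h2 : (f : D.R →+* DualNumber (ResidueField 𝒪)) ((matOf D.ρ bR σ - 1) i j) ∈
      maximalIdeal (DualNumber (ResidueField 𝒪)) ^ 2 := by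
    have h3 := Ideal.mem_map_of_mem (f : D.R →+* DualNumber (ResidueField 𝒪)) (h1 i j)
    rw [Ideal.map_pow] at h3
    exact Ideal.pow_right_mono
      (IsLocalRing.map_maximalIdeal_le (f : D.R →+* DualNumber (ResidueField 𝒪))) 2 h3
  rw [s56a_maximalIdeal_dual_sq, Ideal.mem_bot] at h2
  rw [Matrix.sub_apply, s56a_famOf_apply, Matrix.map_apply, Matrix.zero_apply]
  rw [Matrix.sub_apply, map_sub] at h2
  have h4 : (f : D.R →+* DualNumber (ResidueField 𝒪)) ((1 : Matrix (Fin 2) (Fin 2) D.R) i j) =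
      (1 : Matrix (Fin 2) (Fin 2) (DualNumber (ResidueField 𝒪))) i j := by
    by_cases hij : i = j
    · subst hij; rw [Matrix.one_apply_eq, Matrix.one_apply_eq, map_one]
    · rw [Matrix.one_apply_ne hij, Matrix.one_apply_ne hij, map_zero]
  rw [h4] at h2
  exact h2

include hbR in
/-- on inertia at an unramified prime, `p`-th powers lie in `K_D`. -/
theorem s59q_pow_mem_KD (p : ℕ) (hp : ((p : ℕ) : ResidueField 𝒪) = 0) (q : ℕ)
    (hunr : ρbar.IsUnramifiedAt q) (P : ValuationSubring (AlgebraicClosure ℚ)) (hP : P.LiesOverPrime q)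
    (σ : Γℚ) (hσ : σ ∈ P.inertiaSubgroupIn ℚ) : σ ^ p ∈ s59q_KD D bR := by
  refine (s59q_mem_KD D bR _).2 fun f => ?_
  rw [map_pow]
  refine s59q_pow_eq_one_of_fstM_one p hp _ ?_
  rw [s56a_fst_famOf D N bR hbR f σ, Fermat.Agent.Lib.S53.matOfRes_apply, hunr P hP σ hσ]
  exact LinearMap.toMatrix_one N.b

include hbR in
/-- **existence of a first-order generator of inertia.** -/
theorem s59q_exists_tameGen (p : ℕ) [Fact p.Prime] (hp : ((p : ℕ) : ResidueField 𝒪) = 0)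
    (q : Nat.Primes) (hqp : (q : ℕ) ≠ p) (hunr : ρbar.IsUnramifiedAt q) (K' : Subgroup Γℚ)
    (hK1 : ∃ F : IntermediateField ℚ (AlgebraicClosure ℚ), FiniteDimensional ℚ F ∧
      ∀ σ ∈ (primeLocalPlace q).inertiaSubgroupIn ℚ, σ ∈ F.fixingSubgroup → σ ∈ K')
    (hK2 : ∀ σ ∈ (primeLocalPlace q).inertiaSubgroupIn ℚ, ∃ m : ℕ, m.Coprime q ∧ σ ^ m ∈ K') :
    ∃ σ ∈ (primeLocalPlace q).inertiaSubgroupIn ℚ,
      (∀ ι ∈ (primeLocalPlace q).inertiaSubgroupIn ℚ, ∃ a : ℕ,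
        (∀ f : D.R →ₐ[𝒪] DualNumber (ResidueField 𝒪), s56a_famOf D bR f ((σ ^ a)⁻¹ * ι) = 1) ∧
          (σ ^ a)⁻¹ * ι ∈ K') ∧
      ∀ φ : Γℚ, (primeLocalPlace q).IsFrobeniusAt φ q →
        (∀ f : D.R →ₐ[𝒪] DualNumber (ResidueField 𝒪),
          s56a_famOf D bR f ((σ ^ (q : ℕ))⁻¹ * (φ * σ * φ⁻¹)) = 1) ∧
          (σ ^ (q : ℕ))⁻¹ * (φ * σ * φ⁻¹) ∈ K' := by
  have hpp : p.Prime := Fact.out
  obtain ⟨F1, hF1, hF1K⟩ := s59q_KD_open D bR
  obtain ⟨F2, hF2, hF2K⟩ := hK1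
  have hopen : ∃ F : IntermediateField ℚ (AlgebraicClosure ℚ), FiniteDimensional ℚ F ∧
      ∀ σ ∈ (primeLocalPlace q).inertiaSubgroupIn ℚ, σ ∈ F.fixingSubgroup →
        σ ∈ s59q_KD D bR ⊓ K' := by
    refine ⟨F1 ⊔ F2, IntermediateField.finiteDimensional_sup F1 F2, fun σ hσI hσ => ⟨?_, ?_⟩⟩
    · exact hF1K σ (IntermediateField.fixingSubgroup_antitone le_sup_left hσ)
    · exact hF2K σ hσI (IntermediateField.fixingSubgroup_antitone le_sup_right hσ)
  have hcop : ∀ σ ∈ (primeLocalPlace q).inertiaSubgroupIn ℚ, ∃ m : ℕ, m.Coprime q ∧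
      σ ^ m ∈ s59q_KD D bR ⊓ K' := by
    intro σ hσ
    obtain ⟨m, hm, hmK⟩ := hK2 σ hσ
    refine ⟨p * m, Nat.Coprime.mul_left ((Nat.coprime_primes hpp q.2).2 (Ne.symm hqp)) hm, ?_, ?_⟩
    · rw [mul_comm, pow_mul]
      exact s59q_pow_mem_KD D N bR hbR p hp q hunr _ (s56g_place_liesOver q) _
        (Subgroup.pow_mem _ hσ m)
    · rw [mul_comm, pow_mul]
      exact Subgroup.pow_mem _ hmK p
  obtain ⟨τ, hτ, hgen, hfrob⟩ := s56g_ifaceTame q q.2 (primeLocalPlace q) (s56g_place_liesOver q)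
    (s59q_KD D bR ⊓ K') hopen hcop
  refine ⟨τ, hτ, fun ι hι => ?_, fun φ hφ => ?_⟩
  · obtain ⟨a, ha⟩ := hgen ι hι
    exact ⟨a, (s59q_mem_KD D bR _).1 ha.1, ha.2⟩
  · have h := hfrob φ hφ
    exact ⟨(s59q_mem_KD D bR _).1 h.1, h.2⟩

end Tame

end Fermat.Agent.Lib.S59
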