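/-
PROGRAMME (R) (helper6, prefix `s59q_`): **a UNIFORM generator of tame inertia.**

Main's `s56g_ifaceTame` gives, for every subgroup `K` of `G_ℚ` containing an open part of `I_P` and of index prime to
`q` in `I_P` (`s59q_TameAdm`), an element `τ ∈ I_P` generating `I_P` modulo `K`, with `φ τ φ⁻¹ ≡ τ ^ q`.  Here the
quantifiers are exchanged (compactness of `G_ℚ`): ONE `σ ∈ I_P` works for all such `K` (`s59q_exists_isTameGen`).
So `σ` can be fixed before the Taylor–Wiles levels, the deformation rings and the types are chosen.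
-/
import Mathlib
import Fermat.Agent.Lib.S56.GDecomp

set_option autoImplicit false
set_option linter.unusedSectionVars false
set_option linter.style.haveILetI false

namespace Fermat.Agent.Lib.S59

open Fermat.Agent.Lib.S56 Fermat.Agent.Lib.S35 Fermat.Agent.Lib.CFT Fermat.Agent.Lib.Frey

local notation "Ω" => AlgebraicClosure ℚ
local notation "GQ" => (AlgebraicClosure ℚ ≃ₐ[ℚ] AlgebraicClosure ℚ)

/-- the subgroups modulo which tame inertia is cyclic: `K` contains an open part of `I_P` and has index prime to `q`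
in `I_P`. -/
def s59q_TameAdm (q : ℕ) (P : ValuationSubring Ω) (K : Subgroup GQ) : Prop :=
  (∃ F : IntermediateField ℚ Ω, FiniteDimensional ℚ F ∧
    ∀ σ ∈ P.inertiaSubgroupIn ℚ, σ ∈ F.fixingSubgroup → σ ∈ K) ∧
  ∀ σ ∈ P.inertiaSubgroupIn ℚ, ∃ m : ℕ, m.Coprime q ∧ σ ^ m ∈ K

theorem s59q_tameAdm_top (q : ℕ) (P : ValuationSubring Ω) : s59q_TameAdm q P ⊤ :=
  ⟨⟨⊥, inferInstance, fun _ _ _ => Subgroup.mem_top _⟩,
    fun _ _ => ⟨1, Nat.coprime_one_left q, Subgroup.mem_top _⟩⟩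

theorem s59q_tameAdm_inf {q : ℕ} {P : ValuationSubring Ω} {K K' : Subgroup GQ}
    (h : s59q_TameAdm q P K) (h' : s59q_TameAdm q P K') : s59q_TameAdm q P (K ⊓ K') := by
  obtain ⟨⟨F1, hF1, hF1K⟩, hc1⟩ := h
  obtain ⟨⟨F2, hF2, hF2K⟩, hc2⟩ := h'
  refine ⟨⟨F1 ⊔ F2, IntermediateField.finiteDimensional_sup F1 F2, fun σ hσI hσ => ⟨?_, ?_⟩⟩,
    fun σ hσ => ?_⟩
  · exact hF1K σ hσI (IntermediateField.fixingSubgroup_antitone le_sup_left hσ)
  · exact hF2K σ hσI (IntermediateField.fixingSubgroup_antitone le_sup_right hσ)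
  · obtain ⟨m1, hm1, h1⟩ := hc1 σ hσ
    obtain ⟨m2, hm2, h2⟩ := hc2 σ hσ
    refine ⟨m1 * m2, Nat.Coprime.mul_left hm1 hm2, ?_, ?_⟩
    · rw [pow_mul]; exact Subgroup.pow_mem _ h1 m2
    · rw [mul_comm, pow_mul]; exact Subgroup.pow_mem _ h2 m1

theorem s59q_tameAdm_finset_inf {q : ℕ} {P : ValuationSubring Ω} {ι : Type*} (u : Finset ι)
    (K : ι → Subgroup GQ) (h : ∀ i ∈ u, s59q_TameAdm q P (K i)) : s59q_TameAdm q P (u.inf K) := by
  classical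
  induction u using Finset.induction_on with
  | empty => rw [Finset.inf_empty]; exact s59q_tameAdm_top q P
  | insert a s ha ih =>
    rw [Finset.inf_insert]
    exact s59q_tameAdm_inf (h a (Finset.mem_insert_self a s))
      (ih fun i hi => h i (Finset.mem_insert_of_mem hi))

/-- the generators of `I_P` modulo `K` satisfying the tame relation modulo `K`. -/
def s59q_TameGood (q : ℕ) (P : ValuationSubring Ω) (K : Subgroup GQ) : Set GQ :=
  {σ | σ ∈ P.inertiaSubgroupIn ℚ ∧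
    (∀ ι ∈ P.inertiaSubgroupIn ℚ, ∃ a : ℕ, (σ ^ a)⁻¹ * ι ∈ K) ∧
    ∀ φ : GQ, P.IsFrobeniusAt φ q → (σ ^ q)⁻¹ * (φ * σ * φ⁻¹) ∈ K}

theorem s59q_tameGood_mono {q : ℕ} {P : ValuationSubring Ω} {K K' : Subgroup GQ} (h : K ≤ K') :
    s59q_TameGood q P K ⊆ s59q_TameGood q P K' := by
  rintro σ ⟨h1, h2, h3⟩
  refine ⟨h1, fun ι hι => ?_, fun φ hφ => h (h3 φ hφ)⟩
  obtain ⟨a, ha⟩ := h2 ι hι
  exact ⟨a, h ha⟩

theorem s59q_tameGood_nonempty {q : ℕ} (hq : q.Prime) {P : ValuationSubring Ω}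
    (hP : P.LiesOverPrime q) {K : Subgroup GQ} (hK : s59q_TameAdm q P K) :
    (s59q_TameGood q P K).Nonempty := by
  obtain ⟨τ, hτ, hgen, hfrob⟩ := s56g_ifaceTame q hq P hP K hK.1 hK.2
  exact ⟨τ, hτ, hgen, hfrob⟩

/-- the inertia group is closed. -/
theorem s59q_inertia_isClosed {q : ℕ} (hq : q.Prime) {P : ValuationSubring Ω}
    (hP : P.LiesOverPrime q) : IsClosed ((P.inertiaSubgroupIn ℚ : Subgroup GQ) : Set GQ) := by
  rw [← isOpen_compl_iff, isOpen_iff_forall_mem_open]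
  intro σ hσ
  have hex : ∃ b : Ω, IsIntegral ℤ b ∧ σ b - b ∉ P.nonunits := by
    by_contra hcon
    push_neg at hcon
    exact hσ (cfg_mem_inertiaSubgroupIn_of_integral hq hP σ hcon)
  obtain ⟨b, hb, hbσ⟩ := hex
  have hbQ : IsIntegral ℚ b := Algebra.IsIntegral.isIntegral b
  haveI : FiniteDimensional ℚ (IntermediateField.adjoin ℚ {b}) :=
    IntermediateField.adjoin.finiteDimensional hbQ
  refine ⟨(fun τ : GQ => σ⁻¹ * τ) ⁻¹' ((IntermediateField.adjoin ℚ {b}).fixingSubgroup : Set GQ),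
    ?_, ?_, ?_⟩
  · intro τ hτ hτI
    have hfix : (σ⁻¹ * τ) b = b :=
      (IntermediateField.mem_fixingSubgroup_iff _ _).1 hτ b
        (IntermediateField.mem_adjoin_simple_self ℚ b)
    have h1 : τ b = σ b := by
      have := congrArg σ hfix
      rwa [AlgEquiv.mul_apply, ← AlgEquiv.mul_apply, mul_inv_cancel, AlgEquiv.one_apply] at this
    have h2 := (ford_inertia_spec P τ hτI).2 b (cfg_mem_of_isIntegral P hb)
    rw [h1] at h2
    exact hbσ h2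
  · exact (IntermediateField.fixingSubgroup_isOpen _).preimage (continuous_const_mul σ⁻¹)
  · show σ⁻¹ * σ ∈ (IntermediateField.adjoin ℚ {b}).fixingSubgroup
    rw [inv_mul_cancel]
    exact Subgroup.one_mem _

section Inv

variable {q : ℕ} {P : ValuationSubring Ω} {K : Subgroup GQ} (L : IntermediateField ℚ Ω)
  (hL : Normal ℚ L)
  (hLK : ∀ σ ∈ P.inertiaSubgroupIn ℚ, σ ∈ L.fixingSubgroup → σ ∈ K)

include hL in
theorem s59q_conj_mem_fixing (g ν : GQ) (hν : ν ∈ L.fixingSubgroup) :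
    g * ν * g⁻¹ ∈ L.fixingSubgroup := by
  rw [IntermediateField.mem_fixingSubgroup_iff] at hν ⊢
  intro x hx
  have hcl : IsAlgClosure ℚ Ω := ⟨inferInstance, AlgebraicClosure.isAlgebraic ℚ⟩
  haveI hnQ : Normal ℚ Ω := IsAlgClosure.normal ℚ Ω
  have h1 := IntermediateField.normal_iff_forall_map_le'.mp hL g⁻¹
  have h2 : g⁻¹ x ∈ L := h1 ((IntermediateField.mem_map _).mpr ⟨x, hx, rfl⟩)
  rw [AlgEquiv.mul_apply, AlgEquiv.mul_apply, hν _ h2, ← AlgEquiv.mul_apply, mul_inv_cancel,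
    AlgEquiv.one_apply]

include hL in
theorem s59q_conj_mem_N (g ν : GQ) (hg : g ∈ P.decompositionSubgroup ℚ)
    (hν : ν ∈ P.inertiaSubgroupIn ℚ ⊓ L.fixingSubgroup) :
    g * ν * g⁻¹ ∈ P.inertiaSubgroupIn ℚ ⊓ L.fixingSubgroup :=
  ⟨s35t_conj_mem_inertia P g ν hg hν.1, s59q_conj_mem_fixing L hL g ν hν.2⟩

include hL in
theorem s59q_mul_pow_N (τ ν : GQ) (hτ : τ ∈ P.inertiaSubgroupIn ℚ)
    (hν : ν ∈ P.inertiaSubgroupIn ℚ ⊓ L.fixingSubgroup) (a : ℕ) :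
    ∃ ν' ∈ P.inertiaSubgroupIn ℚ ⊓ L.fixingSubgroup, (τ * ν) ^ a = τ ^ a * ν' := by
  induction a with
  | zero => exact ⟨1, Subgroup.one_mem _, by simp⟩
  | succ a ih =>
    obtain ⟨ν', hν', h⟩ := ih
    have hτD : τ⁻¹ ∈ P.decompositionSubgroup ℚ :=
      Subgroup.inv_mem _ (ford_inertia_spec P τ hτ).1
    refine ⟨τ⁻¹ * ν' * τ⁻¹⁻¹ * ν, Subgroup.mul_mem _ (s59q_conj_mem_N L hL τ⁻¹ ν' hτD hν') hν, ?_⟩
    rw [pow_succ, h, pow_succ]
    group

include hL hLK in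
theorem s59q_tameGood_mul {τ ν : GQ} (hτ : τ ∈ s59q_TameGood q P K)
    (hν : ν ∈ P.inertiaSubgroupIn ℚ ⊓ L.fixingSubgroup) : τ * ν ∈ s59q_TameGood q P K := by
  obtain ⟨h1, h2, h3⟩ := hτ
  have hNK : ∀ x ∈ P.inertiaSubgroupIn ℚ ⊓ L.fixingSubgroup, x ∈ K := fun x hx => hLK x hx.1 hx.2
  refine ⟨Subgroup.mul_mem _ h1 hν.1, fun ι hι => ?_, fun φ hφ => ?_⟩
  · obtain ⟨a, ha⟩ := h2 ι hι
    obtain ⟨ν', hν', h⟩ := s59q_mul_pow_N L hL τ ν h1 hν a
    refine ⟨a, ?_⟩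
    have e : ((τ * ν) ^ a)⁻¹ * ι = ν'⁻¹ * ((τ ^ a)⁻¹ * ι) := by rw [h]; group
    rw [e]
    exact K.mul_mem (K.inv_mem (hNK ν' hν')) ha
  · obtain ⟨ν', hν', h⟩ := s59q_mul_pow_N L hL τ ν h1 hν q
    have e : ((τ * ν) ^ q)⁻¹ * (φ * (τ * ν) * φ⁻¹) =
        ν'⁻¹ * ((τ ^ q)⁻¹ * (φ * τ * φ⁻¹)) * (φ * ν * φ⁻¹) := by rw [h]; group
    rw [e]
    exact K.mul_mem (K.mul_mem (K.inv_mem (hNK ν' hν')) (h3 φ hφ))
      (hNK _ (s59q_conj_mem_N L hL φ ν hφ.mem_decompositionSubgroup hν))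

end Inv

theorem s59q_tameGood_isClosed {q : ℕ} (hq : q.Prime) {P : ValuationSubring Ω}
    (hP : P.LiesOverPrime q) {K : Subgroup GQ} (hK : s59q_TameAdm q P K) :
    IsClosed (s59q_TameGood q P K) := by
  obtain ⟨⟨F, hF, hFK⟩, -⟩ := hK
  obtain ⟨L, hFL, hfd, hnorm⟩ := s56g_exists_level F hF
  have hLK : ∀ σ ∈ P.inertiaSubgroupIn ℚ, σ ∈ L.fixingSubgroup → σ ∈ K := fun σ hσ hσL =>
    hFK σ hσ (IntermediateField.fixingSubgroup_antitone hFL hσL)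
  rw [← isOpen_compl_iff, isOpen_iff_forall_mem_open]
  intro σ hσ
  by_cases hσI : σ ∈ P.inertiaSubgroupIn ℚ
  · haveI : FiniteDimensional ℚ L := hfd
    refine ⟨(fun τ : GQ => σ⁻¹ * τ) ⁻¹' (L.fixingSubgroup : Set GQ), ?_, ?_, ?_⟩
    · intro τ hτ hτG
      have hτL : σ⁻¹ * τ ∈ L.fixingSubgroup := hτ
      have hν : (σ⁻¹ * τ)⁻¹ ∈ P.inertiaSubgroupIn ℚ ⊓ L.fixingSubgroup :=
        Subgroup.inv_mem _ ⟨Subgroup.mul_mem _ (Subgroup.inv_mem _ hσI) hτG.1, hτL⟩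
      have := s59q_tameGood_mul L hnorm hLK hτG hν
      have e : τ * (σ⁻¹ * τ)⁻¹ = σ := by group
      rw [e] at this
      exact hσ this
    · exact (IntermediateField.fixingSubgroup_isOpen _).preimage (continuous_const_mul σ⁻¹)
    · show σ⁻¹ * σ ∈ L.fixingSubgroup
      rw [inv_mul_cancel]
      exact Subgroup.one_mem _
  · refine ⟨((P.inertiaSubgroupIn ℚ : Subgroup GQ) : Set GQ)ᶜ, ?_,
      (s59q_inertia_isClosed hq hP).isOpen_compl, hσI⟩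
    intro τ hτ hτG
    exact hτ hτG.1

/-- a uniform (topological) generator of tame inertia at `P`. -/
def s59q_IsTameGen (q : ℕ) (P : ValuationSubring Ω) (σ : GQ) : Prop :=
  σ ∈ P.inertiaSubgroupIn ℚ ∧ ∀ K : Subgroup GQ, s59q_TameAdm q P K →
    (∀ ι ∈ P.inertiaSubgroupIn ℚ, ∃ a : ℕ, (σ ^ a)⁻¹ * ι ∈ K) ∧
    ∀ φ : GQ, P.IsFrobeniusAt φ q → (σ ^ q)⁻¹ * (φ * σ * φ⁻¹) ∈ K

/-- **existence of a uniform generator of tame inertia.** -/
theorem s59q_exists_isTameGen {q : ℕ} (hq : q.Prime) {P : ValuationSubring Ω}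
    (hP : P.LiesOverPrime q) : ∃ σ : GQ, s59q_IsTameGen q P σ := by
  have hcl : IsAlgClosure ℚ Ω := ⟨inferInstance, AlgebraicClosure.isAlgebraic ℚ⟩
  haveI : IsGalois ℚ Ω := inferInstance
  have key := IsCompact.inter_iInter_nonempty (isCompact_univ : IsCompact (Set.univ : Set GQ))
    (fun K : {K : Subgroup GQ // s59q_TameAdm q P K} => s59q_TameGood q P K.1)
    (fun K => s59q_tameGood_isClosed hq hP K.2)
    (fun u => by
      obtain ⟨σ, hσ⟩ := s59q_tameGood_nonempty hq hP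
        (s59q_tameAdm_finset_inf u (fun K => K.1) (fun K _ => K.2))
      refine ⟨σ, Set.mem_univ _, Set.mem_iInter₂.2 fun K hK => ?_⟩
      exact s59q_tameGood_mono (Finset.inf_le hK) hσ)
  obtain ⟨σ, -, hσ⟩ := key
  rw [Set.mem_iInter] at hσ
  refine ⟨σ, (hσ ⟨⊤, s59q_tameAdm_top q P⟩).1, fun K hK => ?_⟩
  exact (hσ ⟨K, hK⟩).2

end Fermat.Agent.Lib.S59
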