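/-
PROGRAMME (R) (helper6, prefix `s59q_`): **consumers of the uniform generator of tame inertia** (`s59q_IsTameGen`,
`QBrUnif.lean`).
* `s59q_firstOrder_of_isTameGen`: a uniform generator generates the image of `I_q` in every first-order family of
  every deformation ring (= the hypothesis `hσ` of `s59q_hE1_of_framed`), and satisfies the tame relation there.
* `s59q_unr_of_isTameGen`: an adically continuous action on a finite module over a noetherian local ring of residue
  characteristic `p ≠ q`, residually trivial on `I_q`, is trivial on `I_q` as soon as it is trivial on the generator.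
-/
import Fermat.Agent.Lib.S59.QBrTame
import Fermat.Agent.Lib.S59.QBrUnif

set_option autoImplicit false
set_option linter.style.haveILetI false
set_option linter.unusedSectionVars false

noncomputable section

namespace Fermat.Agent.Lib.S59

open IsLocalRing Module ExtCitation Fermat.Agent.Lib.S56
open Fermat.Agent.Lib.S53 (matOf matOfRes NormData matContinuous_matOf)
open Fermat.Agent.Lib.Deform (dualNumberAlgebra)

attribute [local instance] Fermat.Agent.Lib.Deform.dualNumberAlgebra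

local notation "Γℚ" => (AlgebraicClosure ℚ ≃ₐ[ℚ] AlgebraicClosure ℚ)

section FirstOrder

variable {𝒪 : Type} [CommRing 𝒪] [IsDomain 𝒪] [IsDiscreteValuationRing 𝒪]
  [IsAdicComplete (maximalIdeal 𝒪) 𝒪]
  {ρbar : ResidualGaloisRep (ResidueField 𝒪)}
  {𝒟 : ∀ ⦃A : Type⦄ [CommRing A] [IsLocalRing A] [Algebra 𝒪 A], GaloisRepAdic A → Prop}
  (D : GaloisRep.DeformationRingData 𝒪 ρbar 𝒟) (N : NormData ρbar)
  (bR : Basis (Fin 2) D.R D.ρ.V)
  (hbR : ∀ σ i j, matOf D.ρ bR σ i j - algebraMap 𝒪 D.R (N.Mtil σ i j) ∈ maximalIdeal D.R)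

include hbR in
theorem s59q_tameAdm_KD (p : ℕ) [Fact p.Prime] (hp : ((p : ℕ) : ResidueField 𝒪) = 0)
    (q : Nat.Primes) (hqp : (q : ℕ) ≠ p) (hunr : ρbar.IsUnramifiedAt q) :
    s59q_TameAdm q (primeLocalPlace q) (s59q_KD D bR) := by
  have hpp : p.Prime := Fact.out
  obtain ⟨F, hF, hFK⟩ := s59q_KD_open D bR
  refine ⟨⟨F, hF, fun σ _ hσ => hFK σ hσ⟩, fun σ hσ => ⟨p, ?_, ?_⟩⟩
  · exact (Nat.coprime_primes hpp q.2).2 (Ne.symm hqp)
  · exact s59q_pow_mem_KD D N bR hbR p hp q hunr _ (s56g_place_liesOver q) σ hσ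

include hbR in
/-- a uniform generator of tame inertia generates the image of inertia in all first-order families. -/
theorem s59q_firstOrder_of_isTameGen (p : ℕ) [Fact p.Prime]
    (hp : ((p : ℕ) : ResidueField 𝒪) = 0)
    (q : Nat.Primes) (hqp : (q : ℕ) ≠ p) (hunr : ρbar.IsUnramifiedAt q) (σ : Γℚ)
    (hσ : s59q_IsTameGen q (primeLocalPlace q) σ) :
    (∀ ι ∈ (primeLocalPlace q).inertiaSubgroupIn ℚ, ∃ a : ℕ,
      ∀ f : D.R →ₐ[𝒪] DualNumber (ResidueField 𝒪), s56a_famOf D bR f ((σ ^ a)⁻¹ * ι) = 1) ∧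
    ∀ φ : Γℚ, (primeLocalPlace q).IsFrobeniusAt φ q →
      ∀ f : D.R →ₐ[𝒪] DualNumber (ResidueField 𝒪),
        s56a_famOf D bR f ((σ ^ (q : ℕ))⁻¹ * (φ * σ * φ⁻¹)) = 1 := by
  obtain ⟨h1, h2⟩ := hσ.2 _ (s59q_tameAdm_KD D N bR hbR p hp q hqp hunr)
  refine ⟨fun ι hι => ?_, fun φ hφ => (s59q_mem_KD D bR _).1 (h2 φ hφ)⟩
  obtain ⟨a, ha⟩ := h1 ι hι
  exact ⟨a, (s59q_mem_KD D bR _).1 ha⟩

end FirstOrder

section Unr

variable {A : Type} [CommRing A] [IsLocalRing A]
  {V : Type} [AddCommGroup V] [Module A V]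

/-- the congruence subgroup of level `n` of an action. -/
def s59q_congSubgroup (ρ : Γℚ →* Module.End A V) (n : ℕ) : Subgroup Γℚ where
  carrier := {g | ∀ v : V, ρ g v - v ∈ (maximalIdeal A ^ n) • (⊤ : Submodule A V)}
  one_mem' := fun v => by
    rw [map_one, Module.End.one_apply, sub_self]
    exact Submodule.zero_mem _
  mul_mem' := by
    intro g h hg hh v
    have e : ρ (g * h) v - v = ρ g (ρ h v - v) + (ρ g v - v) := by
      rw [map_mul, Module.End.mul_apply, map_sub]; abel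
    rw [e]
    refine Submodule.add_mem _ ?_ (hg v)
    have h1 : ρ g (ρ h v - v) - (ρ h v - v) ∈ (maximalIdeal A ^ n) • (⊤ : Submodule A V) :=
      hg _
    have := Submodule.add_mem _ h1 (hh v)
    rwa [sub_add_cancel] at this
  inv_mem' := by
    intro g hg v
    have h1 := hg (ρ g⁻¹ v)
    have e : ρ g (ρ g⁻¹ v) = v := by
      rw [← Module.End.mul_apply, ← map_mul, mul_inv_cancel, map_one, Module.End.one_apply]
    rw [e] at h1
    have := Submodule.neg_mem _ h1
    rwa [neg_sub] at this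

theorem s59q_mem_congSubgroup (ρ : Γℚ →* Module.End A V) (n : ℕ) (g : Γℚ) :
    g ∈ s59q_congSubgroup ρ n ↔
      ∀ v : V, ρ g v - v ∈ (maximalIdeal A ^ n) • (⊤ : Submodule A V) := Iff.rfl

/-- `T ≡ 1` modulo `𝔪 ^ j` (`j ≥ 1`) implies `T ^ p ≡ 1` modulo `𝔪 ^ (j + 1)` when `p ∈ 𝔪`. -/
theorem s59q_pow_p_congr (T : Module.End A V) (j : ℕ) (hj : 1 ≤ j) (p : ℕ)
    (hpA : ((p : ℕ) : A) ∈ maximalIdeal A)
    (hT : ∀ v : V, T v - v ∈ (maximalIdeal A ^ j) • (⊤ : Submodule A V)) :
    ∀ v : V, (T ^ p) v - v ∈ (maximalIdeal A ^ (j + 1)) • (⊤ : Submodule A V) := by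
  set W : ℕ → Submodule A V := fun i => (maximalIdeal A ^ i) • (⊤ : Submodule A V) with hW
  -- powers of `T` are congruent to `1`
  have hpow : ∀ (i : ℕ) (v : V), (T ^ i) v - v ∈ W j := by
    intro i
    induction i with
    | zero => intro v; rw [pow_zero, Module.End.one_apply, sub_self]; exact Submodule.zero_mem _
    | succ i ih =>
      intro v
      have e : (T ^ (i + 1)) v - v = ((T ^ i) (T v) - T v) + (T v - v) := by
        rw [pow_succ, Module.End.mul_apply]; abel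
      rw [e]
      exact Submodule.add_mem _ (ih _) (hT v)
  -- `Y = T - 1` maps `W i` into `W (i + j)`
  have hY : ∀ (i : ℕ) (w : V), w ∈ W i → T w - w ∈ W (i + j) := by
    intro i w hw
    have h1 : Submodule.map (T - 1) (W i) ≤ W (i + j) := by
      rw [hW]
      simp only
      rw [Submodule.map_smul'']
      have h2 : Submodule.map (T - 1) (⊤ : Submodule A V) ≤
          (maximalIdeal A ^ j) • (⊤ : Submodule A V) := by
        rintro _ ⟨v, -, rfl⟩
        rw [LinearMap.sub_apply, Module.End.one_apply]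
        exact hT v
      refine (Submodule.smul_mono le_rfl h2).trans ?_
      rw [← mul_smul, ← pow_add]
    have := h1 (Submodule.mem_map_of_mem hw)
    rwa [LinearMap.sub_apply, Module.End.one_apply] at this
  intro v
  -- `T ^ p - 1 = (T - 1) * ∑ T ^ i`
  have hgeom : (T - 1) * ∑ i ∈ Finset.range p, T ^ i = T ^ p - 1 := mul_geom_sum T p
  have hS : (∑ i ∈ Finset.range p, T ^ i) v = (p : A) • v + ∑ i ∈ Finset.range p, ((T ^ i) v - v) := by
    rw [LinearMap.sum_apply, Finset.sum_sub_distrib, Finset.sum_const, Finset.card_range,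
      Nat.cast_smul_eq_nsmul]
    abel
  have e : (T ^ p) v - v = (T - 1) ((∑ i ∈ Finset.range p, T ^ i) v) := by
    rw [← Module.End.mul_apply, hgeom, LinearMap.sub_apply, Module.End.one_apply]
  rw [e, hS, map_add, map_smul]
  refine Submodule.add_mem _ ?_ ?_
  · -- `p • (T v - v)`
    rw [LinearMap.sub_apply, Module.End.one_apply, pow_succ', mul_smul]
    exact Submodule.smul_mem_smul hpA (hT v)
  · have hw : ∑ i ∈ Finset.range p, ((T ^ i) v - v) ∈ W j :=
      Submodule.sum_mem _ fun i _ => hpow i v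
    have := hY j _ hw
    rw [LinearMap.sub_apply, Module.End.one_apply]
    refine (Submodule.smul_mono_left (Ideal.pow_le_pow_right ?_)) this
    omega

theorem s59q_pow_mem_congSubgroup (ρ : Γℚ →* Module.End A V) (p : ℕ)
    (hpA : ((p : ℕ) : A) ∈ maximalIdeal A) (g : Γℚ) (hg : g ∈ s59q_congSubgroup ρ 1) (n : ℕ) :
    g ^ (p ^ n) ∈ s59q_congSubgroup ρ (n + 1) := by
  induction n with
  | zero => rwa [pow_zero, pow_one]
  | succ n ih =>
    rw [pow_succ, pow_mul]
    intro v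
    rw [map_pow]
    exact s59q_pow_p_congr (ρ (g ^ p ^ n)) (n + 1) (by omega) p hpA ih v

variable [IsNoetherianRing A] [Module.Finite A V]

/-- **unramifiedness is tested on a uniform generator of tame inertia.** -/
theorem s59q_unr_of_isTameGen (ρ : Γℚ →* Module.End A V)
    (hcont : GaloisActionIsAdicContinuous A ρ) (p : ℕ) (hpp : p.Prime)
    (hpA : ((p : ℕ) : A) ∈ maximalIdeal A) (q : ℕ) (hq : q.Prime) (hqp : q ≠ p)
    (P : ValuationSubring (AlgebraicClosure ℚ))
    (hres : ∀ τ ∈ P.inertiaSubgroupIn ℚ, ∀ v : V,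
      ρ τ v - v ∈ (maximalIdeal A) • (⊤ : Submodule A V))
    (σ : Γℚ) (hσ : s59q_IsTameGen q P σ) (h1 : ρ σ = 1) :
    ∀ τ ∈ P.inertiaSubgroupIn ℚ, ρ τ = 1 := by
  have hI1 : ∀ τ ∈ P.inertiaSubgroupIn ℚ, τ ∈ s59q_congSubgroup ρ 1 := by
    intro τ hτ v
    rw [pow_one]
    exact hres τ hτ v
  have hadm : ∀ n : ℕ, s59q_TameAdm q P (s59q_congSubgroup ρ (n + 1)) := by
    intro n
    obtain ⟨L, hL, hLσ⟩ := hcont (n + 1)
    refine ⟨⟨L, hL, fun τ _ hτ v => hLσ τ
      (fun x hx => (IntermediateField.mem_fixingSubgroup_iff L τ).1 hτ x hx) v⟩, fun τ hτ => ?_⟩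
    exact ⟨p ^ n, Nat.Coprime.pow_left n ((Nat.coprime_primes hpp hq).2 (Ne.symm hqp)),
      s59q_pow_mem_congSubgroup ρ p hpA τ (hI1 τ hτ) n⟩
  intro τ hτ
  ext v
  rw [Module.End.one_apply, ← sub_eq_zero]
  have hmem : ∀ n : ℕ, ρ τ v - v ∈ (maximalIdeal A ^ (n + 1)) • (⊤ : Submodule A V) := by
    intro n
    obtain ⟨a, ha⟩ := (hσ.2 _ (hadm n)).1 τ hτ
    have h2 := ha v
    have hσa : ρ ((σ ^ a)⁻¹) = 1 := by
      have h3 : ρ ((σ ^ a)⁻¹) * ρ (σ ^ a) = 1 := by rw [← map_mul, inv_mul_cancel, map_one]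
      rwa [map_pow, h1, one_pow, mul_one] at h3
    rwa [map_mul, hσa, one_mul] at h2
  have hbot := Ideal.iInf_pow_smul_eq_bot_of_isLocalRing (maximalIdeal A) (M := V)
    (Ideal.IsPrime.ne_top inferInstance)
  have : ρ τ v - v ∈ (⨅ i : ℕ, (maximalIdeal A ^ i) • (⊤ : Submodule A V)) := by
    rw [Submodule.mem_iInf]
    intro i
    rcases i with _ | i
    · rw [pow_zero, Ideal.one_eq_top, Submodule.top_smul]; exact Submodule.mem_top
    · exact hmem i
  rw [hbot] at this
  exact (Submodule.mem_bot A).1 this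

end Unr

end Fermat.Agent.Lib.S59
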