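/-
S59 (helper5, prefix `s59e_`), node B7 / [TR-χ]: **the type `χ` relations at a point.**

* `s59e_tameGen_approx` : a uniform generator `σ` of tame inertia (helper6's `s59q_IsTameGen`)
  approximates every inertia element: `ρ(τ) ≡ ρ(σ)^a mod 𝔪^{n+1}`.
* `s59e_unip_of_tameGen` : if `ρ(σ)` is unipotent, `ρ` is unipotent on the whole inertia group.
* `s59e_TRchi_point` : `D` a noetherian local domain, `𝒪 → D` injective, `ρ` over `D` with cyclotomic
  determinant, residually unramified at `q = p^v c + 1`, `p ∤ c`, NOT unipotent on inertia at `q`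
  (the (NN) input), `σ` a uniform generator of tame inertia, `φ` a Frobenius element, `ζ ∈ 𝒪` a primitive
  `p^v`-th root of unity ⇒ `tr ρ(σ) = ζ^i + ζ^{-i}` for some `0 < i < p^v`, `det ρ(σ) = 1` and
  `ρ(φ) ρ(σ) = ρ(σ) ρ(φ)`  (= the hypotheses `htr`, `hdet`, `hcomm` of helper4's `s59i_RelE_of_matrices`).
-/
import Mathlib
import Fermat.Agent.Lib.S59.EB7Rep
import Fermat.Agent.Lib.S59.QBrUnifUse

set_option autoImplicit false
set_option linter.unusedSectionVars false
set_option linter.unusedVariables false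
set_option linter.style.haveILetI false

noncomputable section

namespace Fermat.Agent.Lib.S59

open IsLocalRing Fermat.Agent.Lib.S53 Polynomial

local notation "Qbar" => AlgebraicClosure ℚ
local notation "GQ" => (AlgebraicClosure ℚ ≃ₐ[ℚ] AlgebraicClosure ℚ)

section Approx

variable {A : Type} [CommRing A] [IsLocalRing A] [IsNoetherianRing A]
  {V : Type} [AddCommGroup V] [Module A V] [Module.Finite A V]

/-- **a uniform generator of tame inertia approximates every inertia element.** -/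
theorem s59e_tameGen_approx (ρ : GQ →* Module.End A V)
    (hcont : GaloisActionIsAdicContinuous A ρ) (p : ℕ) (hpp : p.Prime)
    (hpA : ((p : ℕ) : A) ∈ maximalIdeal A) (q : ℕ) (hq : q.Prime) (hqp : q ≠ p)
    (P : ValuationSubring Qbar)
    (hres : ∀ τ ∈ P.inertiaSubgroupIn ℚ, ∀ v : V,
      ρ τ v - v ∈ (maximalIdeal A) • (⊤ : Submodule A V))
    (σ : GQ) (hσ : s59q_IsTameGen q P σ) (τ : GQ) (hτ : τ ∈ P.inertiaSubgroupIn ℚ) (n : ℕ) :
    ∃ a : ℕ, ∀ v : V, ρ τ v - (ρ σ ^ a) v ∈ (maximalIdeal A ^ (n + 1)) • (⊤ : Submodule A V) := by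
  have hI1 : ∀ τ ∈ P.inertiaSubgroupIn ℚ, τ ∈ s59q_congSubgroup ρ 1 := by
    intro τ hτ v
    rw [pow_one]
    exact hres τ hτ v
  have hadm : s59q_TameAdm q P (s59q_congSubgroup ρ (n + 1)) := by
    obtain ⟨L, hL, hLσ⟩ := hcont (n + 1)
    refine ⟨⟨L, hL, fun τ _ hτ v => hLσ τ
      (fun x hx => (IntermediateField.mem_fixingSubgroup_iff L τ).1 hτ x hx) v⟩, fun τ hτ => ?_⟩
    exact ⟨p ^ n, Nat.Coprime.pow_left n ((Nat.coprime_primes hpp hq).2 (Ne.symm hqp)),
      s59q_pow_mem_congSubgroup ρ p hpA τ (hI1 τ hτ) n⟩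
  obtain ⟨a, ha⟩ := (hσ.2 _ hadm).1 τ hτ
  refine ⟨a, fun v => ?_⟩
  have h2 := ha v
  have e : ρ τ v - (ρ σ ^ a) v = ρ (σ ^ a) (ρ ((σ ^ a)⁻¹ * τ) v - v) := by
    rw [map_sub, ← Module.End.mul_apply, ← map_mul, mul_inv_cancel_left, map_pow]
  rw [e]
  exact Submodule.smul_top_le_comap_smul_top (maximalIdeal A ^ (n + 1)) (ρ (σ ^ a)) h2

end Approx

section Trace

variable {A : Type*} [CommRing A] {V : Type*} [AddCommGroup V] [Module A V]
  {ι : Type*} [Fintype ι] [DecidableEq ι]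

/-- endomorphisms congruent modulo `I V` have congruent traces. -/
theorem s59e_trace_sub_mem (I : Ideal A) (bs : Module.Basis ι A V) (f g : Module.End A V)
    (h : ∀ v : V, f v - g v ∈ I • (⊤ : Submodule A V)) :
    (LinearMap.toMatrix bs bs f).trace - (LinearMap.toMatrix bs bs g).trace ∈ I := by
  rw [Matrix.trace, Matrix.trace, ← Finset.sum_sub_distrib]
  refine Ideal.sum_mem _ fun i _ => ?_
  rw [Matrix.diag_apply, Matrix.diag_apply, LinearMap.toMatrix_apply, LinearMap.toMatrix_apply,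
    ← Finsupp.sub_apply, ← map_sub]
  exact (s59e_mem_smul_top_iff_repr I bs _).mp (h (bs i)) i

end Trace

section Unip

variable {A : Type} [CommRing A] [IsLocalRing A] [IsNoetherianRing A]

/-- **unipotence is tested on a uniform generator of tame inertia.** -/
theorem s59e_unip_of_tameGen (ρ : GaloisRepAdic A) (bs : Module.Basis (Fin 2) A ρ.V) {p q : ℕ}
    [hp : Fact p.Prime] (hdet : ρ.DetIsCyclotomic p) (hq : q.Prime) (hqp : q ≠ p)
    (P : ValuationSubring Qbar) (hP : P.LiesOverPrime q) (hU : ρ.residual.IsUnramifiedAt q)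
    (σ : GQ) (hσ : s59q_IsTameGen q P σ)
    (h1 : (matOf ρ bs σ - 1) * (matOf ρ bs σ - 1) = 0) :
    ∀ τ ∈ P.inertiaSubgroupIn ℚ, LinearMap.charpoly (ρ.ρ τ) = (X - 1) ^ 2 := by
  intro τ hτ
  have hres := (s59e_residual_unr_iff ρ q).mp hU P hP
  -- the trace is `2`
  have htr : (matOf ρ bs τ).trace = 2 := by
    have h0 : (matOf ρ bs τ).trace - 2 ∈ ⨅ n : ℕ, maximalIdeal A ^ n := by
      rw [Ideal.mem_iInf]
      intro n
      refine Ideal.pow_le_pow_right (Nat.le_succ n) ?_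
      obtain ⟨a, ha⟩ := s59e_tameGen_approx ρ.ρ ρ.isAdicContinuous p hp.out hdet.1 q hq hqp P hres
        σ hσ τ hτ n
      have h2 := s59e_trace_sub_mem (maximalIdeal A ^ (n + 1)) bs (ρ.ρ τ) (ρ.ρ σ ^ a) ha
      have h3 : LinearMap.toMatrix bs bs (ρ.ρ σ ^ a) = matOf ρ bs σ ^ a := by
        rw [matOf_apply, ← map_pow ρ.ρ, ← matOf_apply, map_pow, matOf_apply]
      have h4 : (matOf ρ bs σ ^ a).trace = 2 := by
        rw [s59e_unip_pow _ h1 a, Matrix.trace_add, Matrix.trace_smul, Matrix.trace_one,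
          Matrix.trace_sub, Matrix.trace_one]
        have h5 : (matOf ρ bs σ).trace = 2 := by
          have hc := s59e_cayley2 (matOf ρ bs σ)
          have hd : (matOf ρ bs σ).det = 1 := by
            rw [matOf_apply, LinearMap.det_toMatrix]
            exact s59e_det_inertia ρ hdet hq hqp P hP σ hσ.1
          -- `(Σ - 1)² = 0` and `det Σ = 1` give `(tr Σ - 2) (Σ - 1) = 0`, and taking traces …
          -- we argue directly: trace of `(Σ-1)²` is `tr Σ² - 2 tr Σ + 2 = (tr Σ)² - 2 - 2 tr Σ + 2`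
          have e : (matOf ρ bs σ - 1) * (matOf ρ bs σ - 1) =
              ((matOf ρ bs σ).trace - 2) • matOf ρ bs σ := by
            have e1 : (matOf ρ bs σ - 1) * (matOf ρ bs σ - 1) =
                matOf ρ bs σ * matOf ρ bs σ - (2 : A) • matOf ρ bs σ + 1 := by
              rw [sub_mul, mul_sub, mul_one, one_mul, two_smul]
              abel
            rw [e1, hc, hd, one_smul, sub_smul]
            abel
          rw [h1] at e
          -- in general rings `x² = 0` does not give `x = 0`; use the entries instead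
          have e3 : ∀ i j, ((matOf ρ bs σ).trace - 2) * matOf ρ bs σ i j = 0 := by
            intro i j
            have := congrFun (congrFun e i) j
            rw [Matrix.zero_apply, Matrix.smul_apply, smul_eq_mul] at this
            exact this.symm
          have e4 : ((matOf ρ bs σ).trace - 2) * (matOf ρ bs σ).det = 0 := by
            rw [Matrix.det_fin_two, mul_sub, ← mul_assoc, e3, zero_mul, ← mul_assoc, e3, zero_mul,
              sub_zero]
          rw [hd, mul_one] at e4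
          exact sub_eq_zero.mp e4
        rw [h5]
        simp
      rw [h3] at h2
      rw [h4] at h2
      have h6 : LinearMap.toMatrix bs bs (ρ.ρ τ) = matOf ρ bs τ := (matOf_apply ρ bs τ).symm
      rw [h6] at h2
      exact h2
    rw [Ideal.iInf_pow_eq_bot_of_isLocalRing _ (maximalIdeal.isMaximal A).ne_top] at h0
    exact sub_eq_zero.mp h0
  have hd : (matOf ρ bs τ).det = 1 := by
    rw [matOf_apply, LinearMap.det_toMatrix]
    exact s59e_det_inertia ρ hdet hq hqp P hP τ hτ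
  have hcp : LinearMap.charpoly (ρ.ρ τ) = (matOf ρ bs τ).charpoly := by
    rw [matOf_apply, LinearMap.charpoly_toMatrix]
  rw [hcp, Matrix.charpoly_fin_two, htr, hd]
  simp only [map_ofNat, map_one]
  ring

end Unip

section Point

variable {𝒪 : Type*} [CommRing 𝒪] {D : Type} [CommRing D] [IsDomain D] [IsLocalRing D]
  [IsNoetherianRing D] [Algebra 𝒪 D]

/-- **[TR-χ] at a point.** -/
theorem s59e_TRchi_point (hinj : Function.Injective (algebraMap 𝒪 D)) {p : ℕ} [hp : Fact p.Prime]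
    (hp2 : p ≠ 2) (ρ : GaloisRepAdic D) (bs : Module.Basis (Fin 2) D ρ.V)
    (hdet : ρ.DetIsCyclotomic p) {q v c : ℕ} (hq : q.Prime) (hqp : q ≠ p) (hv : 0 < v)
    (hqv : q = p ^ v * c + 1) (hc : ¬ p ∣ c) (ζ : 𝒪) (hζ : IsPrimitiveRoot ζ (p ^ v))
    (P : ValuationSubring Qbar) (hP : P.LiesOverPrime q) (hU : ρ.residual.IsUnramifiedAt q)
    (σ φ : GQ) (hσ : s59q_IsTameGen q P σ) (hφ : P.IsFrobeniusAt φ q)
    (hNN : ∃ τ ∈ P.inertiaSubgroupIn ℚ, LinearMap.charpoly (ρ.ρ τ) ≠ (X - 1) ^ 2) :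
    ∃ i : ℕ, 0 < i ∧ i < p ^ v ∧
      (matOf ρ bs σ).trace = algebraMap 𝒪 D (ζ ^ i) + algebraMap 𝒪 D (ζ ^ (p ^ v - i)) ∧
      (matOf ρ bs σ).det = 1 ∧
      matOf ρ bs φ * matOf ρ bs σ = matOf ρ bs σ * matOf ρ bs φ := by
  obtain ⟨hΦ, ht, hres, hd, -⟩ := s59e_B7_basic ρ bs hdet hq hqp P hP hU σ φ hσ.1 hφ
  rcases s59e_chi_dichotomy hinj hp.out hp2 hdet.1 hv hqv hc ζ hζ (matOf ρ bs σ) (matOf ρ bs φ)
    (matOf ρ bs φ⁻¹) hΦ ht hres hd with h2 | ⟨i, hi0, hi, htr⟩
  · exfalso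
    obtain ⟨τ, hτ, hne⟩ := hNN
    have h1 := (s59e_type1_of_trace (matOf ρ bs σ) (matOf ρ bs φ) q ht h2 hd).1
    exact hne (s59e_unip_of_tameGen ρ bs hdet hq hqp P hP hU σ hσ h1 τ hτ)
  · refine ⟨i, hi0, hi, htr, hd, ?_⟩
    have hpv : ζ ^ (p ^ v) = 1 := hζ.pow_eq_one
    refine s59e_comm_of_chi (matOf ρ bs σ) (matOf ρ bs φ) (algebraMap 𝒪 D (ζ ^ i))
      (algebraMap 𝒪 D (ζ ^ (p ^ v - i))) ?_ q ?_ ?_ htr hd ht
    · rw [← map_mul, ← pow_add, Nat.add_sub_cancel' hi.le, hpv, map_one]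
    · have h5 : (ζ ^ i) ^ q = ζ ^ i := by
        rw [hqv, pow_succ, ← pow_mul, show i * (p ^ v * c) = p ^ v * (i * c) by ring, pow_mul, hpv,
          one_pow, one_mul]
      rw [← map_pow, h5]
    · intro h
      have h1 := hζ.pow_inj hi (Nat.sub_lt (pow_pos hp.out.pos v) hi0) (hinj h)
      have h3 : p ^ v = 2 * i := by omega
      have h4 : p ∣ 2 * i := h3 ▸ dvd_pow_self p hv.ne'
      have hodd : ¬ 2 ∣ p ^ v := by
        intro h5
        have := (Nat.Prime.dvd_of_dvd_pow Nat.prime_two h5)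
        exact hp2 ((Nat.prime_dvd_prime_iff_eq Nat.prime_two hp.out).mp this).symm
      exact hodd ⟨i, h3⟩

end Point

end Fermat.Agent.Lib.S59
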