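/-
Programme (R) / node (NN)-2 (c1′) (helper2, prefix `s59b_`), part 1: **the κ–push at `q ∣ M` on the Tate
modules.**

Levels `M q → M` with `q ∣ M` prime; `α_*, β_* : J₀(M q) → J₀(M)` (`s36w_alphaPush M q`,
`s36w_betaPush M q`, Lib/S36/Defs), `cor_A2, cor_B2 : Hom(Γ₀(M q), A) → Hom(Γ₀(M), A)` (helper3's
`s59u_corA2`, `s59u_corB2`, UTrace.lean).  The finite-level compatibility (b′)

  `κ_n (α_* z) = cor_A2 (κ_n z)`,  `κ_n (β_* z) = cor_B2 (κ_n z)`   (every modulus `n ≠ 0`)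

is a HYPOTHESIS here (`s59b_PushA`, `s59b_PushB`; node (b′), helper3).  Consequences:

* `s59b_kinf_alphaT`, `s59b_kinf_betaT` : `κ_∞ (α_T t) = cor_A2 (κ_∞ t)` on the Tate modules;
* `s59b_corA2L`, `s59b_corB2L` : the transfers on the integral lattices `s29s_M`;
* `s59b_alphaT_iota`, `s59b_betaT_iota` : `α_T (ι φ) = ι (cor_A2 φ)` for `φ` in the lattice.
-/
import Mathlib
import Fermat.Agent.Lib.S30.TateKinf
import Fermat.Agent.Lib.S36.WB3
import Fermat.Agent.Lib.S59.UTrace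

set_option autoImplicit false
set_option linter.unusedSectionVars false
set_option linter.style.haveILetI false

open AlgebraicCurve ModularCurve CongruenceSubgroup

namespace Fermat.Agent.Lib.S59

open Fermat.Agent.Lib.S29 Fermat.Agent.Lib.S30 Fermat.Agent.Lib.S36 Fermat.Agent.Lib.S41

noncomputable section

variable (M q : ℕ) [NeZero M] [hq : Fact q.Prime] (hqM : q ∣ M)

/-- **(b′) for `α_*`, as a hypothesis**: `κ_n (α_* z) = cor_A2 (κ_n z)` for every modulus `n ≠ 0`. -/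
def s59b_PushA : Prop :=
  haveI : NeZero q := ⟨hq.out.ne_zero⟩
  ∀ (n : ℕ) [NeZero n] (z : s29k_Jp (M * q) n) (z' : s29k_Jp M n),
    (z' : JZero M) = s36w_alphaPush M q (z : JZero (M * q)) →
      s30k_kappa M n z' = s59u_corA2 M q hqM (ZMod n) (s30k_kappa (M * q) n z)

/-- **(b′) for `β_*`, as a hypothesis**: `κ_n (β_* z) = cor_B2 (κ_n z)` for every modulus `n ≠ 0`. -/
def s59b_PushB : Prop :=
  haveI : NeZero q := ⟨hq.out.ne_zero⟩
  ∀ (n : ℕ) [NeZero n] (z : s29k_Jp (M * q) n) (z' : s29k_Jp M n),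
    (z' : JZero M) = s36w_betaPush M q (z : JZero (M * q)) →
      s30k_kappa M n z' = s59u_corB2 M q hqM (ZMod n) (s30k_kappa (M * q) n z)

section Tate

variable (p : ℕ) [Fact p.Prime]

/-- the abstract step: an additive map `push : J₀(M q) → J₀(M)` whose effect on `κ_n` is a
coset-family operator `F.op`, on the Tate modules. -/
theorem s59b_kinf_push {ι' : Type*} [Fintype ι']
    (F : s41l_Fam (s41l_i (M * q)) (s41l_i M) ι')
    (push : JZero (M * q) →+ JZero M)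
    (hpush : ∀ (n : ℕ) [NeZero n] (z : s29k_Jp (M * q) n) (z' : s29k_Jp M n),
      (z' : JZero M) = push (z : JZero (M * q)) →
        s30k_kappa M n z' = F.op (ZMod n) (s30k_kappa (M * q) n z))
    (t : s30a_TJ (M * q) p) (t' : s30a_TJ M p)
    (ht' : ∀ k, (t' : ℕ → JZero M) k = push ((t : ℕ → JZero (M * q)) k)) :
    s30u_kinf M p t' = F.op ℤ_[p] (s30u_kinf (M * q) p t) := by
  refine AddMonoidHom.ext fun γ => ?_
  obtain ⟨γ, rfl⟩ := Additive.ofMul.surjective γ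
  apply PadicInt.ext_of_toZModPow.mp
  intro k
  haveI : NeZero (p ^ k) := ⟨pow_ne_zero k (Fact.out : p.Prime).ne_zero⟩
  rw [s30u_kinf_spec, hpush (p ^ k) ⟨(t : ℕ → JZero (M * q)) k, s30i_mem_Jp (M * q) p t k⟩
    ⟨(t' : ℕ → JZero M) k, s30i_mem_Jp M p t' k⟩ (ht' k), s41l_Fam.op_apply, s41l_Fam.op_apply,
    map_sum]
  refine Finset.sum_congr rfl fun i _ => ?_
  rw [s30u_kinf_spec]

/-- **`κ_∞ (α_T t) = cor_A2 (κ_∞ t)`.** -/
theorem s59b_kinf_alphaT (hA : s59b_PushA M q hqM) (t : s30a_TJ (M * q) p) :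
    haveI : NeZero q := ⟨hq.out.ne_zero⟩
    s30u_kinf M p (s36w_alphaT M q p t) = s59u_corA2 M q hqM ℤ_[p] (s30u_kinf (M * q) p t) := by
  haveI : NeZero q := ⟨hq.out.ne_zero⟩
  exact s59b_kinf_push M q p (s59u_famCorA2 M q hqM) (s36w_alphaPush M q)
    (fun n _ z z' h => hA n z z' h) t _ (fun k => rfl)

/-- **`κ_∞ (β_T t) = cor_B2 (κ_∞ t)`.** -/
theorem s59b_kinf_betaT (hB : s59b_PushB M q hqM) (t : s30a_TJ (M * q) p) :
    haveI : NeZero q := ⟨hq.out.ne_zero⟩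
    s30u_kinf M p (s36w_betaT M q p t) = s59u_corB2 M q hqM ℤ_[p] (s30u_kinf (M * q) p t) := by
  haveI : NeZero q := ⟨hq.out.ne_zero⟩
  exact s59b_kinf_push M q p (s59u_famCorB2 M q hqM) (s36w_betaPush M q)
    (fun n _ z z' h => hB n z z' h) t _ (fun k => rfl)

end Tate

/-! ### The transfers on the lattices -/

section Lattice

theorem s59b_famCorA2_det (j : ZMod q) : ((s59u_famCorA2 M q hqM).g j).det ≠ 0 := by
  rw [s59u_famCorA2_g, s59u_rA2_det]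
  exact one_ne_zero

theorem s59b_famCorB2_det (j : ZMod q) : ((s59u_famCorB2 M q hqM).g j).det ≠ 0 := by
  rw [s59u_famCorB2_g, s59u_rB2_det]
  exact_mod_cast hq.out.ne_zero

/-- a coset-family operator on the integral lattices. -/
def s59b_opL {N₁ N₀ : ℕ} {ι' : Type*} [Fintype ι'] (F : s41l_Fam (s41l_i N₁) (s41l_i N₀) ι')
    (hdet : ∀ i, (F.g i).det ≠ 0) : ↥(s29s_M N₁) →ₗ[ℤ] ↥(s29s_M N₀) where
  toFun φ := ⟨F.op ℤ (φ : Additive (Gamma0 N₁) →+ ℤ), s41l_op_mem_Hpar ℤ F hdet φ.2⟩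
  map_add' _ _ := Subtype.ext (map_add (F.op ℤ) _ _)
  map_smul' m _ := Subtype.ext (map_zsmul (F.op ℤ) m _)

@[simp] theorem s59b_opL_coe {N₁ N₀ : ℕ} {ι' : Type*} [Fintype ι']
    (F : s41l_Fam (s41l_i N₁) (s41l_i N₀) ι') (hdet : ∀ i, (F.g i).det ≠ 0)
    (φ : ↥(s29s_M N₁)) :
    ((s59b_opL F hdet φ : ↥(s29s_M N₀)) : Additive (Gamma0 N₀) →+ ℤ) =
      F.op ℤ (φ : Additive (Gamma0 N₁) →+ ℤ) := rfl

/-- `cor_A2` on the integral lattices. -/
def s59b_corA2L : ↥(s29s_M (M * q)) →ₗ[ℤ] ↥(s29s_M M) :=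
  s59b_opL (s59u_famCorA2 M q hqM) (s59b_famCorA2_det M q hqM)

/-- `cor_B2` on the integral lattices. -/
def s59b_corB2L : ↥(s29s_M (M * q)) →ₗ[ℤ] ↥(s29s_M M) :=
  s59b_opL (s59u_famCorB2 M q hqM) (s59b_famCorB2_det M q hqM)

theorem s59b_corA2L_coe (φ : ↥(s29s_M (M * q))) :
    ((s59b_corA2L M q hqM φ : ↥(s29s_M M)) : Additive (Gamma0 M) →+ ℤ) =
      s59u_corA2 M q hqM ℤ (φ : Additive (Gamma0 (M * q)) →+ ℤ) := rfl

theorem s59b_corB2L_coe (φ : ↥(s29s_M (M * q))) :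
    ((s59b_corB2L M q hqM φ : ↥(s29s_M M)) : Additive (Gamma0 M) →+ ℤ) =
      s59u_corB2 M q hqM ℤ (φ : Additive (Gamma0 (M * q)) →+ ℤ) := rfl

/-- a coset-family operator commutes with the change of coefficients `ℤ → R`. -/
theorem s59b_op_cast {N₁ N₀ : ℕ} {ι' : Type*} [Fintype ι']
    (F : s41l_Fam (s41l_i N₁) (s41l_i N₀) ι')
    (R : Type*) [Ring R] (φ : Additive (Gamma0 N₁) →+ ℤ) :
    F.op R (s29s_cast R φ) = s29s_cast R (F.op ℤ φ) :=
  F.op_natural (Int.castAddHom R) φ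

variable (p : ℕ) [Fact p.Prime]

/-- the abstract step for `ι`. -/
theorem s59b_push_iota {ι' : Type*} [Fintype ι']
    (F : s41l_Fam (s41l_i (M * q)) (s41l_i M) ι') (hdet : ∀ i, (F.g i).det ≠ 0)
    (A : s30a_TJ (M * q) p →ₗ[ℤ_[p]] s30a_TJ M p)
    (hA : ∀ t, s30u_kinf M p (A t) = F.op ℤ_[p] (s30u_kinf (M * q) p t))
    (φ : ↥(s29s_M (M * q))) :
    A (s30i_iota (M * q) p φ) = s30i_iota M p (s59b_opL F hdet φ) := by
  apply s30u_kinf_injective M p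
  rw [hA, s30u_kinf_iota, s30u_kinf_iota, s59b_op_cast, s59b_opL_coe]

/-- **`α_T (ι φ) = ι (cor_A2 φ)`.** -/
theorem s59b_alphaT_iota (hA : s59b_PushA M q hqM) (φ : ↥(s29s_M (M * q))) :
    haveI : NeZero q := ⟨hq.out.ne_zero⟩
    s36w_alphaT M q p (s30i_iota (M * q) p φ) = s30i_iota M p (s59b_corA2L M q hqM φ) := by
  haveI : NeZero q := ⟨hq.out.ne_zero⟩
  exact s59b_push_iota M q p (s59u_famCorA2 M q hqM) (s59b_famCorA2_det M q hqM)
    (s36w_alphaT M q p) (fun t => s59b_kinf_alphaT M q hqM p hA t) φ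

/-- **`β_T (ι φ) = ι (cor_B2 φ)`.** -/
theorem s59b_betaT_iota (hB : s59b_PushB M q hqM) (φ : ↥(s29s_M (M * q))) :
    haveI : NeZero q := ⟨hq.out.ne_zero⟩
    s36w_betaT M q p (s30i_iota (M * q) p φ) = s30i_iota M p (s59b_corB2L M q hqM φ) := by
  haveI : NeZero q := ⟨hq.out.ne_zero⟩
  exact s59b_push_iota M q p (s59u_famCorB2 M q hqM) (s59b_famCorB2_det M q hqM)
    (s36w_betaT M q p) (fun t => s59b_kinf_betaT M q hqM p hB t) φ

end Lattice

end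

end Fermat.Agent.Lib.S59
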