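/-
Programme (R) / node (NN)-2 (c1′) (helper2, prefix `s59b_`), part 2: **the `hnew` of `s59k_NN` from a
`q`-new class.**

`Φ ∈ H_par(Γ₀(M q), 𝒪)` (`q ∣ M` prime; `𝒪` a domain of characteristic zero over `ℤ_[p]`), `Φ ≠ 0`,
`T_ℓ Φ = y ℓ • Φ` (`ℓ ∤ M q`, `ℓ ∉ S`), `cor_A2 Φ = 0 = cor_B2 Φ`  ⟹  there is `v ≠ 0` in
`𝒪 ⊗[ℤ_p] T_p J₀(M q)` with `T_ℓ v = y ℓ • v`, `α_T v = 0`, `β_T v = 0` (`s59b_hnew`), given the
finite-level κ–push (b′) (`s59b_PushA`, `s59b_PushB`, BNKinf).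

* `s59b_exists_coeffs0` : every `ψ ∈ s29h_Hpar R N R` is an `R`-combination of the `s29s_castB b R i`;
* `s59b_mulVec_of_eigen0` : the coefficient vector of an eigenvector is an eigenvector of the integral matrix;
* `s59b_op_sum_castB`, `s59b_mulVec_of_op_eq_zero` : the same for a coset-family operator between two levels;
* `s59b_baseChange_sum2` : base change of a linear map with a matrix on two families.
-/
import Mathlib
import Fermat.Agent.Lib.S30.EigTate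
import Fermat.Agent.Lib.S59.BKEig
import Fermat.Agent.Lib.S59.BNKinf

set_option autoImplicit false
set_option linter.unusedSectionVars false
set_option linter.style.haveILetI false

open AlgebraicCurve ModularCurve CongruenceSubgroup ModularCurve.Period
open scoped TensorProduct MatrixGroups

namespace Fermat.Agent.Lib.S59

open Fermat.Agent.Lib.S29 Fermat.Agent.Lib.S30 Fermat.Agent.Lib.S36 Fermat.Agent.Lib.S41
open Matrix

noncomputable section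

/-! ### Coefficients over a domain of characteristic zero (level `Γ₀(N)`, S29 vocabulary) -/

section Coeffs

variable {N : ℕ} [NeZero N] {ι : Type*} [Fintype ι] [DecidableEq ι]
  (b : Module.Basis ι ℤ ↥(s29s_M N)) (R : Type*) [CommRing R] [IsDomain R] [CharZero R]

/-- Every `ψ ∈ H(R)` is an `R`-linear combination of the `castB R b i`. -/
theorem s59b_exists_coeffs0 (ψ : Additive (Gamma0 N) →+ R) (hψ : ψ ∈ s29h_Hpar R N R) :
    ∃ c : ι → R, ψ = ∑ i, c i • s29s_castB b R i := by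
  haveI : Group.FG (Gamma0 N) := Fermat.Agent.Lib.ES.groupFG_Gamma0 N
  obtain ⟨J, _, ω, χ, hsum, hvan⟩ := s59b_exists_decomp R ψ
  have hχM : ∀ j, χ j ∈ s29s_M N := fun j =>
    ⟨fun γ hγ => hvan j _ (hψ.1 γ hγ), fun γ hγ => hvan j _ (hψ.2 γ hγ)⟩
  have hrepr : ∀ j, χ j = ∑ i, b.repr ⟨χ j, hχM j⟩ i • (b i : Additive (Gamma0 N) →+ ℤ) := by
    intro j
    have h := b.sum_repr ⟨χ j, hχM j⟩
    have h2 := congrArg (fun x : ↥(s29s_M N) => (x : Additive (Gamma0 N) →+ ℤ)) h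
    simp only [Submodule.coe_sum, Submodule.coe_smul] at h2
    exact h2.symm
  refine ⟨fun i => ∑ j, ω j * ((b.repr ⟨χ j, hχM j⟩ i : ℤ) : R), ?_⟩
  refine AddMonoidHom.ext fun γ => ?_
  rw [hsum γ, AddMonoidHom.finsetSum_apply]
  simp only [AddMonoidHom.smul_apply, s29s_castB_apply, smul_eq_mul, Finset.sum_mul]
  rw [Finset.sum_comm]
  refine Finset.sum_congr rfl fun j _ => ?_
  conv_lhs => rw [hrepr j]
  rw [AddMonoidHom.finsetSum_apply, Int.cast_sum, Finset.mul_sum]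
  refine Finset.sum_congr rfl fun i _ => ?_
  rw [AddMonoidHom.smul_apply, smul_eq_mul, Int.cast_mul, mul_assoc]

/-- the coefficient vector of an eigenvector is an eigenvector of the integral Hecke matrix. -/
theorem s59b_mulVec_of_eigen0 (ℓ : ℕ) [Fact ℓ.Prime] (c : ι → R) (a : R)
    (h : s29h_heckeHom N ℓ R (∑ j, c j • s29s_castB b R j) = a • ∑ j, c j • s29s_castB b R j) :
    ((s29s_heckeMat b ℓ).map (Int.cast : ℤ → R)) *ᵥ c = a • c := by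
  rw [s29s_heckeHom_sum_castB, Finset.smul_sum] at h
  simp_rw [smul_smul] at h
  have hli := s30e_castB_linearIndependent b R
  rw [Fintype.linearIndependent_iff] at hli
  funext i
  have h2 : ∑ i, (((s29s_heckeMat b ℓ).map (Int.cast : ℤ → R) *ᵥ c) i - a * c i) •
      s29s_castB b R i = 0 := by
    simp_rw [sub_smul]
    rw [Finset.sum_sub_distrib, h, sub_self]
  have h3 := hli _ h2 i
  rw [Pi.smul_apply, smul_eq_mul]
  exact sub_eq_zero.mp h3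

end Coeffs

/-! ### Coset-family operators between two levels -/

section Op

variable {N₁ N₀ : ℕ} [NeZero N₁] [NeZero N₀] {I K : Type*} [Fintype I] [Fintype K]
  [DecidableEq I] [DecidableEq K]
  (b₁ : Module.Basis I ℤ ↥(s29s_M N₁)) (b₀ : Module.Basis K ℤ ↥(s29s_M N₀))
  {ι' : Type*} [Fintype ι'] (F : s41l_Fam (s41l_i N₁) (s41l_i N₀) ι')
  (hdet : ∀ i, (F.g i).det ≠ 0) (R : Type*) [CommRing R]

/-- coset-family operators are linear in the coefficients. -/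
theorem s59b_op_smul (c : R) (ψ : Additive (Gamma0 N₁) →+ R) :
    F.op R (c • ψ) = c • F.op R ψ := by
  refine AddMonoidHom.ext fun γ => ?_
  obtain ⟨γ, rfl⟩ := Additive.ofMul.surjective γ
  rw [AddMonoidHom.smul_apply, s41l_Fam.op_apply, s41l_Fam.op_apply, Finset.smul_sum]
  rfl

/-- the integer matrix of a coset-family operator on the lattices. -/
def s59b_opMat : Matrix K I ℤ := LinearMap.toMatrix b₁ b₀ (s59b_opL F hdet)

/-- a coset-family operator on the `castB`: the same integer matrix for every coefficient ring. -/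
theorem s59b_op_castB (j : I) :
    F.op R (s29s_castB b₁ R j) =
      ∑ k, ((s59b_opMat b₁ b₀ F hdet k j : ℤ) : R) • s29s_castB b₀ R k := by
  have h1 : (s59b_opL F hdet (b₁ j) : ↥(s29s_M N₀)) =
      ∑ k, s59b_opMat b₁ b₀ F hdet k j • b₀ k := by
    have h := b₀.sum_repr (s59b_opL F hdet (b₁ j))
    rw [← h]
    refine Finset.sum_congr rfl fun k _ => ?_
    rw [s59b_opMat, LinearMap.toMatrix_apply]
  have h2 := congrArg (fun x : ↥(s29s_M N₀) => (x : Additive (Gamma0 N₀) →+ ℤ)) h1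
  simp only [Submodule.coe_sum, Submodule.coe_smul, s59b_opL_coe] at h2
  rw [s29s_castB, s59b_op_cast, h2, map_sum]
  refine Finset.sum_congr rfl fun k _ => ?_
  rw [s29s_cast_zsmul]
  rfl

theorem s59b_op_sum_castB (c : I → R) :
    F.op R (∑ j, c j • s29s_castB b₁ R j) =
      ∑ k, ((s59b_opMat b₁ b₀ F hdet).map (Int.cast : ℤ → R) *ᵥ c) k • s29s_castB b₀ R k := by
  rw [map_sum]
  simp_rw [s59b_op_smul, s59b_op_castB b₁ b₀ F hdet, Finset.smul_sum, smul_smul]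
  rw [Finset.sum_comm]
  refine Finset.sum_congr rfl fun k _ => ?_
  rw [← Finset.sum_smul]
  congr 1
  show _ = ∑ j, ((s59b_opMat b₁ b₀ F hdet).map (Int.cast : ℤ → R)) k j * c j
  refine Finset.sum_congr rfl fun j _ => ?_
  rw [Matrix.map_apply, mul_comm]

/-- a class killed by a coset-family operator: its coefficient vector is killed by the integer matrix. -/
theorem s59b_mulVec_of_op_eq_zero [IsDomain R] [CharZero R] (c : I → R)
    (h : F.op R (∑ j, c j • s29s_castB b₁ R j) = 0) :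
    (s59b_opMat b₁ b₀ F hdet).map (Int.cast : ℤ → R) *ᵥ c = 0 := by
  rw [s59b_op_sum_castB b₁ b₀ F hdet] at h
  have hli := s30e_castB_linearIndependent b₀ R
  rw [Fintype.linearIndependent_iff] at hli
  funext k
  exact hli _ h k

end Op

/-! ### Base change with a matrix on two families -/

section TensorLA

variable {R A V V' I K : Type*} [CommRing R] [CommRing A] [Algebra R A] [AddCommGroup V]
  [Module R V] [AddCommGroup V'] [Module R V'] [Fintype I] [Fintype K]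

/-- Base change of a linear map with matrix `t` on the families `β`, `β'`. -/
theorem s59b_baseChange_sum2 (T : V →ₗ[R] V') (β : I → V) (β' : K → V') (t : Matrix K I R)
    (hT : ∀ j, T (β j) = ∑ k, t k j • β' k) (w : I → A) :
    T.baseChange A (∑ j, w j ⊗ₜ[R] β j) =
      ∑ k, ((t.map (algebraMap R A)) *ᵥ w) k ⊗ₜ[R] β' k := by
  rw [map_sum]
  simp_rw [LinearMap.baseChange_tmul, hT, TensorProduct.tmul_sum, TensorProduct.tmul_smul,
    TensorProduct.smul_tmul']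
  rw [Finset.sum_comm]
  refine Finset.sum_congr rfl fun k _ => ?_
  rw [← TensorProduct.sum_tmul]
  congr 1
  show _ = ∑ j, (t.map (algebraMap R A)) k j * w j
  refine Finset.sum_congr rfl fun j _ => ?_
  rw [Matrix.map_apply, Algebra.smul_def]

end TensorLA

/-! ### `hnew` -/

section New

variable (M q : ℕ) [NeZero M] [hq : Fact q.Prime] (hqM : q ∣ M) (p : ℕ) [Fact p.Prime]

/-- the vanishing of `A.baseChange` on the vector with coefficients `c`, for an operator `A` on the Tate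
modules intertwined by `ι` with a coset-family operator. -/
theorem s59b_baseChange_eq_zero {I K : Type*} [Fintype I] [Fintype K] [DecidableEq I] [DecidableEq K]
    (b₁ : Module.Basis I ℤ ↥(s29s_M (M * q))) (b₀ : Module.Basis K ℤ ↥(s29s_M M))
    {ι' : Type*} [Fintype ι'] (F : s41l_Fam (s41l_i (M * q)) (s41l_i M) ι')
    (hdet : ∀ i, (F.g i).det ≠ 0)
    (A : s30a_TJ (M * q) p →ₗ[ℤ_[p]] s30a_TJ M p)
    (hA : ∀ φ : ↥(s29s_M (M * q)), A (s30i_iota (M * q) p φ) = s30i_iota M p (s59b_opL F hdet φ))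
    (𝒪 : Type*) [CommRing 𝒪] [IsDomain 𝒪] [CharZero 𝒪] [Algebra ℤ_[p] 𝒪] (c : I → 𝒪)
    (h : F.op 𝒪 (∑ j, c j • s29s_castB b₁ 𝒪 j) = 0) :
    A.baseChange 𝒪 (∑ j, c j ⊗ₜ[ℤ_[p]] s30i_iota (M * q) p (b₁ j)) = 0 := by
  have hT : ∀ j, A (s30i_iota (M * q) p (b₁ j)) =
      ∑ k, ((s59b_opMat b₁ b₀ F hdet).map (Int.cast : ℤ → ℤ_[p])) k j • s30i_iota M p (b₀ k) := by
    intro j
    rw [hA (b₁ j)]
    have h1 : (s59b_opL F hdet (b₁ j) : ↥(s29s_M M)) =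
        ∑ k, s59b_opMat b₁ b₀ F hdet k j • b₀ k := by
      have h := b₀.sum_repr (s59b_opL F hdet (b₁ j))
      rw [← h]
      refine Finset.sum_congr rfl fun k _ => ?_
      rw [s59b_opMat, LinearMap.toMatrix_apply]
    rw [h1, map_sum]
    refine Finset.sum_congr rfl fun k _ => ?_
    rw [map_zsmul, Matrix.map_apply]
    exact (Int.cast_smul_eq_zsmul ℤ_[p] _ _).symm
  rw [s59b_baseChange_sum2 A (fun j => s30i_iota (M * q) p (b₁ j))
    (fun k => s30i_iota M p (b₀ k)) _ hT c]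
  have hmat : ((s59b_opMat b₁ b₀ F hdet).map (Int.cast : ℤ → ℤ_[p])).map (algebraMap ℤ_[p] 𝒪) =
      (s59b_opMat b₁ b₀ F hdet).map (Int.cast : ℤ → 𝒪) := by
    ext i j
    simp
  rw [hmat, s59b_mulVec_of_op_eq_zero b₁ b₀ F hdet 𝒪 c h]
  simp

/-- **`hnew`**: a `q`-new eigenclass in `H_par(Γ₀(M q), 𝒪)` gives a `q`-new eigenvector in
`𝒪 ⊗ T_p J₀(M q)`. -/
theorem s59b_hnew (hA : s59b_PushA M q hqM) (hB : s59b_PushB M q hqM)
    (S : Set ℕ) (𝒪 : Type*) [CommRing 𝒪] [IsDomain 𝒪] [CharZero 𝒪] [Algebra ℤ_[p] 𝒪]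
    (Φ : Additive (Gamma0 (M * q)) →+ 𝒪) (hΦ : IsParabolicHom (Gamma0 (M * q)) Φ) (hΦ0 : Φ ≠ 0)
    (y : ℕ → 𝒪)
    (hT : ∀ (ℓ : ℕ) [Fact ℓ.Prime], ¬ ℓ ∣ M * q → ℓ ∉ S →
      s29h_heckeHom (M * q) ℓ 𝒪 Φ = y ℓ • Φ)
    (hcA : s59u_corA2 M q hqM 𝒪 Φ = 0) (hcB : s59u_corB2 M q hqM 𝒪 Φ = 0) :
    haveI : NeZero q := ⟨hq.out.ne_zero⟩
    ∃ v : 𝒪 ⊗[ℤ_[p]] s30a_TJ (M * q) p, v ≠ 0 ∧
      (∀ (ℓ : ℕ) (hℓ : ℓ.Prime), ¬ ℓ ∣ M * q → ℓ ∉ S →
        (s30a_Tz (M * q) p ⟨ℓ, hℓ⟩).baseChange 𝒪 v = y ℓ • v) ∧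
      (s36w_alphaT M q p).baseChange 𝒪 v = 0 ∧ (s36w_betaT M q p).baseChange 𝒪 v = 0 := by
  classical
  haveI : NeZero q := ⟨hq.out.ne_zero⟩
  haveI : Module.Flat ℤ_[p] 𝒪 := s30e_flat_padicInt p 𝒪
  haveI : IsAddTorsionFree 𝒪 := inferInstance
  let b₁ := Module.finBasis ℤ ↥(s29s_M (M * q))
  let b₀ := Module.finBasis ℤ ↥(s29s_M M)
  have hΦH : Φ ∈ s29h_Hpar 𝒪 (M * q) 𝒪 := s29h_mem_Hpar_of_parabolic hΦ
  obtain ⟨c, hc⟩ := s59b_exists_coeffs0 b₁ 𝒪 Φ hΦH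
  have hc0 : c ≠ 0 := by
    rintro rfl
    apply hΦ0
    rw [hc]
    simp
  have hli : LinearIndependent ℤ_[p] (fun i => s30i_iota (M * q) p (b₁ i)) :=
    s30e_iota_linearIndependent (M * q) p (s30u_kinf (M * q) p)
      (fun x k γ => s30u_kinf_spec (M * q) p x k γ) b₁
  refine ⟨∑ i, c i ⊗ₜ[ℤ_[p]] s30i_iota (M * q) p (b₁ i),
    s30e_tensor_sum_ne_zero _ hli c hc0, ?_, ?_, ?_⟩
  · intro ℓ hℓ hℓN hℓS
    haveI : Fact ℓ.Prime := ⟨hℓ⟩
    have hTz : ∀ j, s30a_Tz (M * q) p ⟨ℓ, hℓ⟩ (s30i_iota (M * q) p (b₁ j)) =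
        ∑ i, ((s29s_heckeMat b₁ ℓ).map (Int.cast : ℤ → ℤ_[p])) i j •
          s30i_iota (M * q) p (b₁ i) := by
      intro j
      rw [← s30e_iota_hecke_Tz (M * q) p ℓ hℓ hℓN (b₁ j)]
      have h1 : s29h_heckeHpar (M * q) ℓ ℤ ℤ (b₁ j) = ∑ i, s29s_heckeMat b₁ ℓ i j • b₁ i := by
        have h := b₁.sum_repr (s29h_heckeHpar (M * q) ℓ ℤ ℤ (b₁ j))
        rw [← h]
        refine Finset.sum_congr rfl fun i _ => ?_
        rw [s29s_heckeMat, LinearMap.toMatrix_apply]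
      rw [h1, map_sum]
      refine Finset.sum_congr rfl fun i _ => ?_
      rw [map_zsmul, Matrix.map_apply]
      exact (Int.cast_smul_eq_zsmul ℤ_[p] _ _).symm
    rw [s30e_baseChange_sum (s30a_Tz (M * q) p ⟨ℓ, hℓ⟩) (fun i => s30i_iota (M * q) p (b₁ i)) _
      hTz c]
    have hmat : ((s29s_heckeMat b₁ ℓ).map (Int.cast : ℤ → ℤ_[p])).map (algebraMap ℤ_[p] 𝒪) =
        (s29s_heckeMat b₁ ℓ).map (Int.cast : ℤ → 𝒪) := by
      ext i j
      simp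
    have hev := hT ℓ hℓN hℓS
    rw [hc] at hev
    rw [hmat, s59b_mulVec_of_eigen0 b₁ 𝒪 ℓ c (y ℓ) hev, Finset.smul_sum]
    refine Finset.sum_congr rfl fun i _ => ?_
    exact (TensorProduct.smul_tmul' (y ℓ) (c i) (s30i_iota (M * q) p (b₁ i))).symm
  · refine s59b_baseChange_eq_zero M q p b₁ b₀ (s59u_famCorA2 M q hqM)
      (s59b_famCorA2_det M q hqM) (s36w_alphaT M q p)
      (fun φ => s59b_alphaT_iota M q hqM p hA φ) 𝒪 c ?_
    rw [← hc]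
    exact hcA
  · refine s59b_baseChange_eq_zero M q p b₁ b₀ (s59u_famCorB2 M q hqM)
      (s59b_famCorB2_det M q hqM) (s36w_betaT M q p)
      (fun φ => s59b_betaT_iota M q hqM p hB φ) 𝒪 c ?_
    rw [← hc]
    exact hcB

/-- **`hnew` in the form of `s59k_NN`**: eigenvalues given by a character `χ` of the Hecke algebra. -/
theorem s59b_hnew_chi (hA : s59b_PushA M q hqM) (hB : s59b_PushB M q hqM)
    (S : Set ℕ) (𝒪 : Type*) [CommRing 𝒪] [IsDomain 𝒪] [CharZero 𝒪] [Algebra ℤ_[p] 𝒪]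
    (χ : ↥(CuspForm.heckeAlgebra (M * q) 2 S) →+* 𝒪)
    (Φ : Additive (Gamma0 (M * q)) →+ 𝒪) (hΦ : IsParabolicHom (Gamma0 (M * q)) Φ) (hΦ0 : Φ ≠ 0)
    (hT : ∀ (ℓ : ℕ) (hℓ : ℓ.Prime) (hℓN : ¬ ℓ ∣ M * q) (hℓS : ℓ ∉ S),
      (haveI : Fact ℓ.Prime := ⟨hℓ⟩; s29h_heckeHom (M * q) ℓ 𝒪 Φ) =
        χ (CuspForm.heckeAlgebra.T hℓ hℓN hℓS) • Φ)
    (hcA : s59u_corA2 M q hqM 𝒪 Φ = 0) (hcB : s59u_corB2 M q hqM 𝒪 Φ = 0) :
    haveI : NeZero q := ⟨hq.out.ne_zero⟩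
    ∃ v : 𝒪 ⊗[ℤ_[p]] s30a_TJ (M * q) p, v ≠ 0 ∧
      (∀ (ℓ : ℕ) (hℓ : ℓ.Prime) (hℓN : ¬ ℓ ∣ M * q) (hℓS : ℓ ∉ S),
        (s30a_Tz (M * q) p ⟨ℓ, hℓ⟩).baseChange 𝒪 v =
          χ (CuspForm.heckeAlgebra.T hℓ hℓN hℓS) • v) ∧
      (s36w_alphaT M q p).baseChange 𝒪 v = 0 ∧ (s36w_betaT M q p).baseChange 𝒪 v = 0 := by
  classical
  haveI : NeZero q := ⟨hq.out.ne_zero⟩
  let y : ℕ → 𝒪 := fun ℓ =>
    if h : ℓ.Prime ∧ ¬ ℓ ∣ M * q ∧ ℓ ∉ S then χ (CuspForm.heckeAlgebra.T h.1 h.2.1 h.2.2) else 0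
  have hy : ∀ (ℓ : ℕ) (hℓ : ℓ.Prime) (hℓN : ¬ ℓ ∣ M * q) (hℓS : ℓ ∉ S),
      y ℓ = χ (CuspForm.heckeAlgebra.T hℓ hℓN hℓS) := by
    intro ℓ hℓ hℓN hℓS
    show (if h : ℓ.Prime ∧ ¬ ℓ ∣ M * q ∧ ℓ ∉ S then
      χ (CuspForm.heckeAlgebra.T h.1 h.2.1 h.2.2) else 0) = _
    rw [dif_pos ⟨hℓ, hℓN, hℓS⟩]
  obtain ⟨v, hv0, hvT, hvA, hvB⟩ := s59b_hnew M q hqM p hA hB S 𝒪 Φ hΦ hΦ0 y
    (fun ℓ inst hℓN hℓS => by
      rw [hy ℓ inst.out hℓN hℓS]
      exact hT ℓ inst.out hℓN hℓS) hcA hcB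
  refine ⟨v, hv0, fun ℓ hℓ hℓN hℓS => ?_, hvA, hvB⟩
  rw [← hy ℓ hℓ hℓN hℓS]
  exact hvT ℓ hℓ hℓN hℓS

end New

end

end Fermat.Agent.Lib.S59
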