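/-
Programme (R) = S59, node C3-rest / (NN)-input (helper3), file 1: **from an eigenclass to a character
of the Hecke algebra.**

* `s59u_exists_char_of_matrices` : `Θ : 𝕋 →+* Mat_ι(ℤ)` a ring homomorphism from a semiring,
  `c ≠ 0` in `R^ι` (`R` a domain) a common eigenvector of all `Θ t`  ⟹  the eigenvalues form a ring
  homomorphism `χ : 𝕋 →+* R`;
* `s59u_exists_heckeChar` : `Φ ≠ 0` a parabolic class on `Γ₀(L)` with values in a domain `R` of
  characteristic zero, `T_ℓ Φ = y ℓ • Φ` for all primes `ℓ ∤ L`, `ℓ ∉ S`, where `S` contains the primes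
  dividing `L`  ⟹  there is `χ : heckeAlgebra L 2 S →+* R` with `χ (T_ℓ) = y ℓ`.
-/
import Mathlib
import Fermat.Agent.Lib.S30.EigLattice
import Fermat.Agent.Lib.S59.BNEig

set_option autoImplicit false
set_option linter.unusedSectionVars false
set_option linter.style.haveILetI false

noncomputable section

namespace Fermat.Agent.Lib.S59

open CongruenceSubgroup ModularCurve.Period Fermat.Agent.Lib.S29 Fermat.Agent.Lib.S30 Matrix
open scoped MatrixGroups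

section Abstract

variable {𝕋 : Type*} [Semiring 𝕋] {ι : Type*} [Fintype ι] [DecidableEq ι]
  {R : Type*} [CommRing R] [IsDomain R]

/-- eigenvalues of a common eigenvector are unique. -/
theorem s59u_eigval_unique {c : ι → R} (hc : c ≠ 0) {a a' : R} (h : a • c = a' • c) : a = a' := by
  obtain ⟨i, hi⟩ : ∃ i, c i ≠ 0 := by
    by_contra hcon
    push Not at hcon
    exact hc (funext hcon)
  have h1 := congrFun h i
  rw [Pi.smul_apply, Pi.smul_apply, smul_eq_mul, smul_eq_mul] at h1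
  exact mul_right_cancel₀ hi h1

/-- **the eigenvalues of a common eigenvector form a ring homomorphism.** -/
theorem s59u_exists_char_of_matrices (Θ : 𝕋 →+* Matrix ι ι ℤ) (c : ι → R) (hc : c ≠ 0)
    (h : ∀ t : 𝕋, ∃ a : R, ((Θ t).map (Int.cast : ℤ → R)) *ᵥ c = a • c) :
    ∃ χ : 𝕋 →+* R, ∀ t, ((Θ t).map (Int.cast : ℤ → R)) *ᵥ c = χ t • c := by
  classical
  choose f hf using h
  have hmap : ∀ t : 𝕋, (Θ t).map (Int.cast : ℤ → R) = (Int.castRingHom R).mapMatrix (Θ t) :=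
    fun t => rfl
  refine ⟨{ toFun := f, map_one' := ?_, map_mul' := ?_, map_zero' := ?_, map_add' := ?_ }, hf⟩
  · apply s59u_eigval_unique hc
    rw [← hf, hmap, map_one, map_one, one_mulVec, one_smul]
  · intro s t
    apply s59u_eigval_unique hc
    rw [← hf, hmap, map_mul, map_mul, ← mulVec_mulVec, ← hmap, ← hmap, hf t, mulVec_smul, hf s,
      smul_smul, mul_comm]
  · apply s59u_eigval_unique hc
    rw [← hf, hmap, map_zero, map_zero, zero_mulVec, zero_smul]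
  · intro s t
    apply s59u_eigval_unique hc
    rw [← hf, hmap, map_add, map_add, add_mulVec, ← hmap, ← hmap, hf s, hf t, add_smul]

end Abstract

section Hecke

variable (L : ℕ) [NeZero L] (S : Set ℕ) (R : Type*) [CommRing R] [IsDomain R] [CharZero R]

/-- the induction over the generators, in the ambient algebra `End(S₂)`. -/
theorem s59u_hecke_ambient {r : ℕ} (b : Module.Basis (Fin r) ℤ (s29s_M L))
    (hLS : ∀ q : ℕ, q.Prime → q ∣ L → q ∈ S) (y : ℕ → R) (c : Fin r → R)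
    (hgen : ∀ (ℓ : ℕ) [Fact ℓ.Prime], ¬ ℓ ∣ L → ℓ ∉ S →
      ((s29s_heckeMat b ℓ).map (Int.cast : ℤ → R)) *ᵥ c = y ℓ • c)
    (t : Module.End ℂ (CuspForm (Gamma0 L) 2)) (ht : t ∈ CuspForm.heckeAlgebra L 2 S) :
    ∃ (B : Matrix (Fin r) (Fin r) ℤ) (a : R),
      B.map (Int.cast : ℤ → ℂ) = s30e_rhoC b t ∧ (B.map (Int.cast : ℤ → R)) *ᵥ c = a • c := by
  have hmC : ∀ B : Matrix (Fin r) (Fin r) ℤ,
      B.map (Int.cast : ℤ → ℂ) = (Int.castRingHom ℂ).mapMatrix B := fun _ => rfl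
  have hmR : ∀ B : Matrix (Fin r) (Fin r) ℤ,
      B.map (Int.cast : ℤ → R) = (Int.castRingHom R).mapMatrix B := fun _ => rfl
  induction ht using Algebra.adjoin_induction with
  | mem x hx =>
    rcases hx with ⟨ℓ, hℓ, hℓN, hℓS, rfl⟩ | ⟨q, hqN, hq, hqS, rfl⟩
    · haveI : Fact ℓ.Prime := ⟨hℓ⟩
      exact ⟨s29s_heckeMat b ℓ, y ℓ, (s30e_rhoC_heckeT b hℓ hℓN).symm, hgen ℓ hℓN hℓS⟩
    · exact absurd (hLS q hq hqN) hqS
  | algebraMap z =>
    refine ⟨((z : ℤ) : Matrix (Fin r) (Fin r) ℤ), (z : R), ?_, ?_⟩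
    · rw [hmC, map_intCast, eq_intCast, map_intCast]
    · rw [hmR, map_intCast]
      funext i
      simp [Matrix.mulVec, dotProduct, Matrix.intCast_apply]
  | add s t hs ht ihs iht =>
    obtain ⟨B, a, hB, ha⟩ := ihs
    obtain ⟨B', a', hB', ha'⟩ := iht
    refine ⟨B + B', a + a', ?_, ?_⟩
    · rw [hmC, map_add, ← hmC, ← hmC, hB, hB', map_add]
    · rw [hmR, map_add, ← hmR, ← hmR, add_mulVec, ha, ha', add_smul]
  | mul s t hs ht ihs iht =>
    obtain ⟨B, a, hB, ha⟩ := ihs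
    obtain ⟨B', a', hB', ha'⟩ := iht
    refine ⟨B * B', a * a', ?_, ?_⟩
    · rw [hmC, map_mul, ← hmC, ← hmC, hB, hB', map_mul]
    · rw [hmR, map_mul, ← hmR, ← hmR, ← mulVec_mulVec, ha', mulVec_smul, ha, smul_smul,
        mul_comm a' a]

/-- **from an eigenclass to a character of the Hecke algebra.** -/
theorem s59u_exists_heckeChar (hLS : ∀ r : ℕ, r.Prime → r ∣ L → r ∈ S) (y : ℕ → R)
    (Φ : Additive (Gamma0 L) →+ R) (hΦ : IsParabolicHom (Gamma0 L) Φ) (hΦ0 : Φ ≠ 0)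
    (hT : ∀ (ℓ : ℕ) [Fact ℓ.Prime], ¬ ℓ ∣ L → ℓ ∉ S → s29h_heckeHom L ℓ R Φ = y ℓ • Φ) :
    ∃ χ : ↥(CuspForm.heckeAlgebra L 2 S) →+* R,
      ∀ (ℓ : ℕ) (hℓ : ℓ.Prime) (hℓN : ¬ ℓ ∣ L) (hℓS : ℓ ∉ S),
        χ (CuspForm.heckeAlgebra.T hℓ hℓN hℓS) = y ℓ := by
  classical
  haveI : IsAddTorsionFree R := inferInstance
  let b := Module.finBasis ℤ ↥(s29s_M L)
  have hΦH : Φ ∈ s29h_Hpar R L R := s29h_mem_Hpar_of_parabolic hΦ
  obtain ⟨c, hc⟩ := s59b_exists_coeffs0 b R Φ hΦH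
  have hc0 : c ≠ 0 := by
    rintro rfl
    apply hΦ0
    rw [hc]
    simp
  have hgen : ∀ (ℓ : ℕ) [Fact ℓ.Prime], ¬ ℓ ∣ L → ℓ ∉ S →
      ((s29s_heckeMat b ℓ).map (Int.cast : ℤ → R)) *ᵥ c = y ℓ • c := by
    intro ℓ _ hℓN hℓS
    have hev := hT ℓ hℓN hℓS
    rw [hc] at hev
    exact s59b_mulVec_of_eigen0 b R ℓ c (y ℓ) hev
  obtain ⟨Θ, -, hΘ⟩ := s30e_exists_Theta b S
  have hall : ∀ u : ↥(CuspForm.heckeAlgebra L 2 S),
      ∃ a : R, ((Θ u).map (Int.cast : ℤ → R)) *ᵥ c = a • c := by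
    intro u
    obtain ⟨B, a, hB, ha⟩ := s59u_hecke_ambient L S R b hLS y c hgen
      (u : Module.End ℂ (CuspForm (Gamma0 L) 2)) u.2
    have hBΘ : B = Θ u := by
      apply Matrix.map_injective (Int.cast_injective (α := ℂ))
      show B.map (Int.cast : ℤ → ℂ) = (Θ u).map (Int.cast : ℤ → ℂ)
      rw [hB, hΘ u]
    exact ⟨a, by rw [← hBΘ]; exact ha⟩
  obtain ⟨χ, hχ⟩ := s59u_exists_char_of_matrices Θ c hc0 hall
  refine ⟨χ, fun ℓ hℓ hℓN hℓS => ?_⟩
  haveI : Fact ℓ.Prime := ⟨hℓ⟩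
  apply s59u_eigval_unique hc0
  rw [← hχ]
  have hΘT : Θ (CuspForm.heckeAlgebra.T hℓ hℓN hℓS) = s29s_heckeMat b ℓ := by
    apply Matrix.map_injective (Int.cast_injective (α := ℂ))
    show (Θ _).map (Int.cast : ℤ → ℂ) = (s29s_heckeMat b ℓ).map (Int.cast : ℤ → ℂ)
    rw [hΘ, CuspForm.heckeAlgebra.coe_T, s30e_rhoC_heckeT]
  rw [hΘT]
  exact hgen ℓ hℓN hℓS

end Hecke

end Fermat.Agent.Lib.S59
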