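/-
Programme R (S59), κ–push compatibility (helper1 #3278 §7; helper2, prefix `s59b_`), part 5:
**the canonical Kummer map `s59b_kappa N p : J₀(N)(ℚ̄)[p] →+ Hom(Γ₀(N), ℤ/p)`** (the `κ₀` of
`s44r_kappaCore_of` / `s59b_kappaCore_of` for `K₁ = ℂ`, `ι₁ = id`) as a DEFINITION, its properties

* `s59b_kappa_injective` (any modulus `p ≠ 0`),
* `s59b_kappa_surj`      (onto `H_p`; any modulus `p ≠ 0`),
* `s59b_kappa_mem_Hp`    (values in `H_p`; `p` an odd prime),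
* `s59b_kappa_Tl`        (`T_ℓ`-equivariance, `ℓ ∤ N`; any modulus `p ≠ 0`),

and the κ–push compatibility (any modulus `p ≠ 0`):

* `s59b_kappa_alphaPush` : `κ_M (α_* z) = cor_A (κ_{M ℓ} z)`;
* `s59b_kappa_betaPush`  : `κ_M (β_* z) = cor_B (κ_{M ℓ} z)`;
* `s59b_alphaJp`, `s59b_betaJp`, `s59b_kappa_comp_alphaJp`, `s59b_kappa_comp_betaJp` : bundled forms.
-/
import Mathlib
import Fermat.Agent.Lib.S59.BOld
import Fermat.Agent.Lib.S59.BPush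

set_option autoImplicit false
set_option linter.unusedSectionVars false
set_option linter.style.haveILetI false

namespace Fermat.Agent.Lib.S59

open UpperHalfPlane hiding I
open Complex AlgebraicCurve ModularCurve IntermediateField CongruenceSubgroup Module
open Fermat.Agent.Lib.FF Fermat.Agent.Lib.S18 Fermat.Agent.Lib.S29 Fermat.Agent.Lib.S30
  Fermat.Agent.Lib.S33 Fermat.Agent.Lib.S44 Fermat.Agent.Lib.S35 Fermat.Agent.Lib.S41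
  Fermat.Agent.Lib.S37
open scoped Real Manifold MatrixGroups

noncomputable section

local notation "Kb" => AlgebraicClosure ℚ

attribute [local instance] s29a_algebraC

/-- the embedding `ℚ̄ → ℂ` used by `s59b_kappa`. -/
def s59b_iota : Kb →+* ℂ := (RingHom.id ℂ).comp (algebraMap Kb ℂ)

section Def

variable (N : ℕ) [NeZero N] (p : ℕ) [NeZero p]

/-- the bridge hypotheses over `ℂ`. -/
theorem s59b_hB : s29m_BridgeHyp ℂ N p (s29bp_phi (RingHom.id ℂ) N) :=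
  s29m_bridgeHypK (RingHom.id ℂ) N Function.surjective_id p

/-- the base change `J₀(N)(ℚ̄)[p] → Pic⁰(ℂ(X₀(N)))[p]`. -/
def s59b_ct : s29k_Jp N p →+ Pic0.torsion ℂ ↥(s29bp_FK ℂ N) p :=
  haveI : FFGen Kb (s29bp_jK Kb N) := s29bp_ffGen (algebraMap Kb ℂ) N
  haveI : FFGen ℂ (s29bp_jK ℂ N) := s29bp_ffGen (RingHom.id ℂ) N
  s29a_ct (K1 := ℂ) N p

/-- **the canonical Kummer map** `κ_N : J₀(N)(ℚ̄)[p] →+ Hom(Γ₀(N), ℤ/p)`. -/
def s59b_kappa : s29k_Jp N p →+ (Additive (Gamma0 N) →+ ZMod p) :=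
  (s29m_kappaC (s59b_hB N p)).comp (s59b_ct N p)

theorem s59b_kappa_apply (x : s29k_Jp N p) :
    s59b_kappa N p x = s29m_kappaC (s59b_hB N p) (s59b_ct N p x) := rfl

/-- `κ_N` is injective. -/
theorem s59b_kappa_injective : Function.Injective (s59b_kappa N p) := by
  haveI : FFGen Kb (s29bp_jK Kb N) := s29bp_ffGen (algebraMap Kb ℂ) N
  haveI : FFGen ℂ (s29bp_jK ℂ N) := s29bp_ffGen (RingHom.id ℂ) N
  intro x y hxy
  have h1 := s29m_kappaC_injective (s59b_hB N p) hxy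
  have h2 := congrArg Subtype.val h1
  have e : ∀ x : s29k_Jp N p, ((s59b_ct N p x : Pic0.torsion ℂ ↥(s29bp_FK ℂ N) p) :
      Pic0 ℂ ↥(s29bp_FK ℂ N)) = s29a_c (K1 := ℂ) N (x : JZero N) := fun x => rfl
  rw [e, e] at h2
  exact Subtype.ext
    (s29c_c_injective (K1 := ℂ) (modularFunctionFieldFull N) (s29bp_jK Kb N) (s29bp_jK ℂ N) h2)

/-- `κ_N` hits every element of `H_p`. -/
theorem s59b_kappa_surj (χ : Additive (Gamma0 N) →+ ZMod p) (hχ : χ ∈ s29h_Hp N p) :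
    ∃ x, s59b_kappa N p x = χ := by
  haveI : FFGen Kb (s29bp_jK Kb N) := s29bp_ffGen (algebraMap Kb ℂ) N
  haveI : FFGen ℂ (s29bp_jK ℂ N) := s29bp_ffGen (RingHom.id ℂ) N
  have hinj := s29c_c_injective (K1 := ℂ) (modularFunctionFieldFull N) (s29bp_jK Kb N)
    (s29bp_jK ℂ N)
  obtain ⟨y, hy⟩ := s29l_lambda_Hp N (RingHom.id ℂ) (s59b_hB N p) χ hχ
  obtain ⟨x, hx⟩ := s29cs_surj_torsion' (K1 := ℂ) (modularFunctionFieldFull N) (s29bp_jK Kb N)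
    (s29bp_jK ℂ N) (s29a_j_jK N) p
    (s29m_finite_torsionK (RingHom.id ℂ) N p Function.surjective_id)
    (y : Pic0 ℂ ↥(s29bp_FK ℂ N)) y.2
  have hxt : x ∈ Pic0.torsion Kb (modularFunctionFieldBar N) p := by
    rw [Pic0.mem_torsion]
    apply hinj
    rw [map_zsmul, hx, map_zero]
    exact Pic0.mem_torsion.mp y.2
  refine ⟨⟨x, hxt⟩, ?_⟩
  rw [s59b_kappa_apply]
  have : s59b_ct N p ⟨x, hxt⟩ = y := Subtype.ext hx
  rw [this, hy]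

/-- **`T_ℓ`-equivariance of `κ_N`** (`ℓ ∤ N`). -/
theorem s59b_kappa_Tl (ℓ : ℕ) [hℓ : Fact ℓ.Prime] (hℓN : ¬ ℓ ∣ N) (x : s29k_Jp N p) :
    s59b_kappa N p (s29k_Tl N p ⟨ℓ, hℓ.out⟩ x) =
      s29h_heckeHom N ℓ (ZMod p) (s59b_kappa N p x) := by
  haveI : FFGen Kb (s29bp_jK Kb N) := s29bp_ffGen (algebraMap Kb ℂ) N
  haveI : FFGen ℂ (s29bp_jK ℂ N) := s29bp_ffGen (RingHom.id ℂ) N
  exact s29q_EQ s59b_iota (s59b_hB N p) (s29a_j (K1 := ℂ) N) (s29a_phi_j (RingHom.id ℂ) N)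
    (s29a_c (K1 := ℂ) N) (s29a_hc N p) (fun x => s59b_ct N p x)
    (fun x => rfl) ℓ hℓN x

end Def

/-- `κ_N` has values in `H_p` (`p` an odd prime). -/
theorem s59b_kappa_mem_Hp (N : ℕ) [NeZero N] (p : ℕ) [hpp : Fact p.Prime] (hp2 : p ≠ 2)
    (x : s29k_Jp N p) :
    haveI : NeZero p := ⟨hpp.out.ne_zero⟩
    s59b_kappa N p x ∈ s29h_Hp N p := by
  haveI : NeZero p := ⟨hpp.out.ne_zero⟩
  exact s59b_kappaK_mem_Hp (RingHom.id ℂ) N p Function.surjective_id hp2 (s59b_ct N p x)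

/-! ### κ–push compatibility -/

section Push

variable (M ℓ : ℕ) [NeZero M] [NeZero ℓ] [hℓ : Fact ℓ.Prime] (hℓM : ¬ ℓ ∣ M) (p : ℕ) [NeZero p]

/-- **`κ_M (α_* z) = cor_A (κ_{M ℓ} z)`.** -/
theorem s59b_kappa_alphaPush (z : s29k_Jp (M * ℓ) p) (z' : s29k_Jp M p)
    (hz' : (z' : JZero M) = s35c_alphaPush M ℓ hℓ.out hℓM (z : JZero (M * ℓ))) :
    s59b_kappa M p z' = s41l_corA M ℓ hℓM (ZMod p) (s59b_kappa (M * ℓ) p z) := by
  haveI : FFGen Kb (s29bp_jK Kb M) := s29bp_ffGen (algebraMap Kb ℂ) M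
  haveI : FFGen ℂ (s29bp_jK ℂ M) := s29bp_ffGen (RingHom.id ℂ) M
  haveI : FFGen Kb (s29bp_jK Kb (M * ℓ)) := s29bp_ffGen (algebraMap Kb ℂ) (M * ℓ)
  haveI : FFGen ℂ (s29bp_jK ℂ (M * ℓ)) := s29bp_ffGen (RingHom.id ℂ) (M * ℓ)
  exact s59b_kappaC_alphaPush s59b_iota M ℓ hℓM (s59b_hB (M * ℓ) p)
    (s29a_j (K1 := ℂ) (M * ℓ)) (s29a_phi_j (RingHom.id ℂ) (M * ℓ))
    (s59b_hB M p) (s29a_j (K1 := ℂ) M) (s29a_phi_j (RingHom.id ℂ) M)
    (s29a_c (K1 := ℂ) (M * ℓ)) (s29a_hc (M * ℓ) p) (fun x => s59b_ct (M * ℓ) p x) (fun x => rfl)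
    (s29a_c (K1 := ℂ) M) (s29a_hc M p) (fun x => s59b_ct M p x) (fun x => rfl) z z' hz'

/-- **`κ_M (β_* z) = cor_B (κ_{M ℓ} z)`.** -/
theorem s59b_kappa_betaPush (z : s29k_Jp (M * ℓ) p) (z' : s29k_Jp M p)
    (hz' : (z' : JZero M) = s35c_betaPush M ℓ hℓ.out hℓM (z : JZero (M * ℓ))) :
    s59b_kappa M p z' = s41l_corB M ℓ hℓM (ZMod p) (s59b_kappa (M * ℓ) p z) := by
  haveI : FFGen Kb (s29bp_jK Kb M) := s29bp_ffGen (algebraMap Kb ℂ) M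
  haveI : FFGen ℂ (s29bp_jK ℂ M) := s29bp_ffGen (RingHom.id ℂ) M
  haveI : FFGen Kb (s29bp_jK Kb (M * ℓ)) := s29bp_ffGen (algebraMap Kb ℂ) (M * ℓ)
  haveI : FFGen ℂ (s29bp_jK ℂ (M * ℓ)) := s29bp_ffGen (RingHom.id ℂ) (M * ℓ)
  exact s59b_kappaC_betaPush s59b_iota M ℓ hℓM (s59b_hB (M * ℓ) p)
    (s29a_j (K1 := ℂ) (M * ℓ)) (s29a_phi_j (RingHom.id ℂ) (M * ℓ))
    (s59b_hB M p) (s29a_j (K1 := ℂ) M) (s29a_phi_j (RingHom.id ℂ) M)
    (s29a_c (K1 := ℂ) (M * ℓ)) (s29a_hc (M * ℓ) p) (fun x => s59b_ct (M * ℓ) p x) (fun x => rfl)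
    (s29a_c (K1 := ℂ) M) (s29a_hc M p) (fun x => s59b_ct M p x) (fun x => rfl) z z' hz'

/-- the restriction of `α_*` to the `p`-torsion. -/
def s59b_alphaJp : s29k_Jp (M * ℓ) p →+ s29k_Jp M p :=
  ((s35c_alphaPush M ℓ hℓ.out hℓM).comp
    (Pic0.torsion Kb (modularFunctionFieldBar (M * ℓ)) p).subtype).codRestrict _ (fun x => by
      rw [Pic0.mem_torsion]
      show (p : ℤ) • (s35c_alphaPush M ℓ hℓ.out hℓM) (x : JZero (M * ℓ)) = 0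
      rw [← map_zsmul, Pic0.mem_torsion.mp x.2, map_zero])

/-- the restriction of `β_*` to the `p`-torsion. -/
def s59b_betaJp : s29k_Jp (M * ℓ) p →+ s29k_Jp M p :=
  ((s35c_betaPush M ℓ hℓ.out hℓM).comp
    (Pic0.torsion Kb (modularFunctionFieldBar (M * ℓ)) p).subtype).codRestrict _ (fun x => by
      rw [Pic0.mem_torsion]
      show (p : ℤ) • (s35c_betaPush M ℓ hℓ.out hℓM) (x : JZero (M * ℓ)) = 0
      rw [← map_zsmul, Pic0.mem_torsion.mp x.2, map_zero])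

theorem s59b_alphaJp_coe (z : s29k_Jp (M * ℓ) p) :
    ((s59b_alphaJp M ℓ hℓM p z : s29k_Jp M p) : JZero M) =
      s35c_alphaPush M ℓ hℓ.out hℓM (z : JZero (M * ℓ)) := rfl

theorem s59b_betaJp_coe (z : s29k_Jp (M * ℓ) p) :
    ((s59b_betaJp M ℓ hℓM p z : s29k_Jp M p) : JZero M) =
      s35c_betaPush M ℓ hℓ.out hℓM (z : JZero (M * ℓ)) := rfl

/-- **κ–push compatibility, bundled form**: `κ_M ∘ α_* = cor_A ∘ κ_{M ℓ}`. -/
theorem s59b_kappa_comp_alphaJp :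
    (s59b_kappa M p).comp (s59b_alphaJp M ℓ hℓM p) =
      (s41l_corA M ℓ hℓM (ZMod p)).comp (s59b_kappa (M * ℓ) p) :=
  AddMonoidHom.ext fun z => s59b_kappa_alphaPush M ℓ hℓM p z _ rfl

/-- **κ–push compatibility, bundled form**: `κ_M ∘ β_* = cor_B ∘ κ_{M ℓ}`. -/
theorem s59b_kappa_comp_betaJp :
    (s59b_kappa M p).comp (s59b_betaJp M ℓ hℓM p) =
      (s41l_corB M ℓ hℓM (ZMod p)).comp (s59b_kappa (M * ℓ) p) :=
  AddMonoidHom.ext fun z => s59b_kappa_betaPush M ℓ hℓM p z _ rfl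

end Push

end

end Fermat.Agent.Lib.S59
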