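/-
Programme R (S59), κ–push compatibility (helper1 #3278 §7; helper2, prefix `s59b_`), part 3:
**push-forward of function-level Kummer data along `α`**:

  data for `(f, ψ)` at level `M ℓ`  ⟹  data for `(Nm_α f, cor_A ψ)` at level `M`

(`s59b_mdata_alphaPush`), with `a₁ = ∏_x a ∘ r_x`, `b₁ = ∏_x b ∘ r_x`, `A₁ = ∏_x A ∘ r_x` over the
representatives `r_x` of `Γ₀(M ℓ) \ Γ₀(M)` (`s41l_famCorA`).
-/
import Mathlib
import Fermat.Agent.Lib.S59.BPushNorm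
import Fermat.Agent.Lib.S29.EQChar

set_option autoImplicit false
set_option linter.unusedSectionVars false
set_option linter.style.haveILetI false

namespace Fermat.Agent.Lib.S59

open UpperHalfPlane hiding I
open Complex ModularCurve AlgebraicCurve CongruenceSubgroup
open Fermat.Agent.Lib.FF Fermat.Agent.Lib.S29 Fermat.Agent.Lib.S37 Fermat.Agent.Lib.S41
open scoped Real Manifold MatrixGroups

noncomputable section

local notation "Kb" => AlgebraicClosure ℚ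

variable (ι : Kb →+* ℂ) (M ℓ : ℕ) [NeZero M] [hℓ : Fact ℓ.Prime] (hℓM : ¬ ℓ ∣ M)

/-- the product over the cosets `Γ₀(M ℓ) \ Γ₀(M)`. -/
def s59b_cprod (u : ℍ → ℂ) : ℍ → ℂ :=
  fun z => ∏ x : OnePoint (ZMod ℓ), u (s59b_rep M ℓ hℓM x • z)

theorem s59b_cprod_apply (u : ℍ → ℂ) (z : ℍ) :
    s59b_cprod M ℓ hℓM u z = ∏ x : OnePoint (ZMod ℓ), u (s59b_rep M ℓ hℓM x • z) := rfl

theorem s59b_mdiff_comp_smul {u : ℍ → ℂ} (hu : MDiff u) (γ : SL(2, ℤ)) :
    MDiff (fun z => u (γ • z)) := by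
  have h := s29m_mdiff_smul hu γ⁻¹
  simpa only [inv_inv] using h

theorem s59b_mdiff_finset_prod {ι' : Type*} (s : Finset ι') (f : ι' → ℍ → ℂ)
    (hf : ∀ i, MDiff (f i)) : MDiff (fun z => ∏ i ∈ s, f i z) := by
  classical
  induction s using Finset.induction_on with
  | empty =>
    simp only [Finset.prod_empty]
    exact mdifferentiable_const
  | insert a s ha ih =>
    have h1 : (fun z => ∏ i ∈ insert a s, f i z) = f a * (fun z => ∏ i ∈ s, f i z) := by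
      funext z
      rw [Finset.prod_insert ha]
      rfl
    rw [h1]
    exact (hf a).mul ih

theorem s59b_cprod_mdiff {u : ℍ → ℂ} (hu : MDiff u) : MDiff (s59b_cprod M ℓ hℓM u) :=
  s59b_mdiff_finset_prod Finset.univ _ fun x => s59b_mdiff_comp_smul hu (s59b_rep M ℓ hℓM x)

/-- the product of the images in `s29m_M`. -/
theorem s59b_ofFun_cprod {u : ℍ → ℂ} (hu : MDiff u) :
    ∏ x : OnePoint (ZMod ℓ), (s59b_rep M ℓ hℓM x)⁻¹ • s29m_ofFun u hu =
      s29m_ofFun (s59b_cprod M ℓ hℓM u) (s59b_cprod_mdiff M ℓ hℓM hu) := by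
  have h1 : ∀ x : OnePoint (ZMod ℓ), (s59b_rep M ℓ hℓM x)⁻¹ • s29m_ofFun u hu =
      s29m_ofFun (fun z => u (s59b_rep M ℓ hℓM x • z))
        (s59b_mdiff_comp_smul hu (s59b_rep M ℓ hℓM x)) := by
    intro x
    rw [s59b_smul_ofFun]
    congr 1
    funext z
    rw [inv_inv]
  simp only [h1]
  exact s59b_ofFun_prod Finset.univ (fun x z => u (s59b_rep M ℓ hℓM x • z))
    (fun x => s59b_mdiff_comp_smul hu (s59b_rep M ℓ hℓM x)) (s59b_cprod_mdiff M ℓ hℓM hu)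

/-- a product of holomorphic functions which are not identically zero is not identically zero. -/
theorem s59b_cprod_ne_zero {u : ℍ → ℂ} (hu : MDiff u) (hu0 : ∃ τ, u τ ≠ 0) :
    ∃ τ, s59b_cprod M ℓ hℓM u τ ≠ 0 := by
  have h1 : s29m_ofFun (s59b_cprod M ℓ hℓM u) (s59b_cprod_mdiff M ℓ hℓM hu) ≠ 0 := by
    rw [← s59b_ofFun_cprod M ℓ hℓM hu]
    refine Finset.prod_ne_zero_iff.mpr fun x _ => ?_
    intro h0
    have h2 := congrArg (fun y => s59b_rep M ℓ hℓM x • y) h0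
    simp only [smul_inv_smul, smul_zero] at h2
    exact s29m_ofFun_ne_zero hu hu0 h2
  by_contra hcon
  push Not at hcon
  apply h1
  have : s59b_cprod M ℓ hℓM u = 0 := funext hcon
  unfold s29m_ofFun
  have h3 : s29m_mkO (s59b_cprod M ℓ hℓM u) (s59b_cprod_mdiff M ℓ hℓM hu) = 0 :=
    Subtype.ext this
  rw [h3, map_zero]

/-- the coset relation in `SL₂(ℤ)`: `r_x γ = γ'_x r_{σ x}`. -/
theorem s59b_rep_mul (γ : Gamma0 M) (x : OnePoint (ZMod ℓ)) :
    s59b_rep M ℓ hℓM x * (γ : SL(2, ℤ)) =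
      (((s41l_famCorA M ℓ hℓM).fam γ x : Gamma0 (M * ℓ)) : SL(2, ℤ)) *
        s59b_rep M ℓ hℓM ((s41l_famCorA M ℓ hℓM).perm γ x) := by
  have h := (s41l_famCorA M ℓ hℓM).spec γ x
  apply Subtype.ext
  rw [Matrix.SpecialLinearGroup.coe_mul, Matrix.SpecialLinearGroup.coe_mul, s59b_rep_coe,
    s59b_rep_coe]
  exact h

/-- the multiplier of the coset product. -/
theorem s59b_cprod_smul (u : ℍ → ℂ) (m : Gamma0 (M * ℓ) → ℂ)
    (hu : ∀ (δ : Gamma0 (M * ℓ)) (z : ℍ), u ((δ : SL(2, ℤ)) • z) = m δ * u z)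
    (γ : Gamma0 M) (z : ℍ) :
    s59b_cprod M ℓ hℓM u ((γ : SL(2, ℤ)) • z) =
      (∏ x : OnePoint (ZMod ℓ), m ((s41l_famCorA M ℓ hℓM).fam γ x)) * s59b_cprod M ℓ hℓM u z := by
  rw [s59b_cprod_apply, s59b_cprod_apply,
    ← Equiv.prod_comp ((s41l_famCorA M ℓ hℓM).permEquiv γ)
      (fun x => u (s59b_rep M ℓ hℓM x • z)), ← Finset.prod_mul_distrib]
  refine Finset.prod_congr rfl fun x _ => ?_
  rw [← mul_smul, s59b_rep_mul, mul_smul, hu]
  rfl

/-- invariance of the coset product of a `Γ₀(M ℓ)`-invariant function. -/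
theorem s59b_cprod_invariant (u : ℍ → ℂ)
    (hu : ∀ δ ∈ Gamma0 (M * ℓ), ∀ z : ℍ, u (δ • z) = u z)
    (γ : SL(2, ℤ)) (hγ : γ ∈ Gamma0 M) (z : ℍ) :
    s59b_cprod M ℓ hℓM u (γ • z) = s59b_cprod M ℓ hℓM u z := by
  have h := s59b_cprod_smul M ℓ hℓM u (fun _ => 1)
    (fun δ z => by rw [one_mul]; exact hu _ δ.2 z) ⟨γ, hγ⟩ z
  rw [Finset.prod_const_one, one_mul] at h
  exact h

variable {p : ℕ} [NeZero p]

/-- **push-forward of the data along `α`.** -/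
theorem s59b_mdata_alphaPush {f : ffi_F (M * ℓ)} {ψ : Additive (Gamma0 (M * ℓ)) →+ ZMod p}
    (h : s59b_MData ι (M * ℓ) p f ψ) :
    haveI : NeZero ℓ := ⟨hℓ.out.ne_zero⟩
    s59b_MData ι M p (s37e_normAlpha M ℓ f) (s41l_corA M ℓ hℓM (ZMod p) ψ) := by
  haveI : NeZero ℓ := ⟨hℓ.out.ne_zero⟩
  obtain ⟨a, b, A, ha, hb, hA, hb0, hainv, hbinv, hab, hAp, hAψ⟩ := h
  refine ⟨s59b_cprod M ℓ hℓM a, s59b_cprod M ℓ hℓM b, s59b_cprod M ℓ hℓM A,
    s59b_cprod_mdiff M ℓ hℓM ha, s59b_cprod_mdiff M ℓ hℓM hb, s59b_cprod_mdiff M ℓ hℓM hA,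
    s59b_cprod_ne_zero M ℓ hℓM hb hb0, s59b_cprod_invariant M ℓ hℓM a hainv,
    s59b_cprod_invariant M ℓ hℓM b hbinv, ?_, ?_, ?_⟩
  · -- the norm identity
    rw [s59b_norm_eq_prod ι M ℓ hℓM f, ← s59b_ofFun_cprod M ℓ hℓM hb, ← s59b_ofFun_cprod M ℓ hℓM ha,
      ← Finset.prod_mul_distrib]
    refine Finset.prod_congr rfl fun x _ => ?_
    rw [s59b_sigma_apply, ← smul_mul', hab]
  · -- the root
    intro τ
    rw [s59b_cprod_apply, s59b_cprod_apply, s59b_cprod_apply, ← Finset.prod_pow,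
      ← Finset.prod_pow, ← Finset.prod_mul_distrib]
    exact Finset.prod_congr rfl fun x _ => hAp _
  · -- the character
    intro γ τ
    rw [s59b_cprod_smul M ℓ hℓM A
      (fun δ => cexp (2 * π * I / p) ^ (ψ (Additive.ofMul δ)).val) (fun δ z => hAψ δ z) γ τ]
    congr 1
    rw [s41l_corA_apply]
    exact (s29q_zetaP_pow_val_sum p Finset.univ _).symm

end

end Fermat.Agent.Lib.S59
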