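/-
Programme R (S59), κ–push compatibility (helper1 #3278 §7; helper2, prefix `s59b_`), part 6:
**the Atkin–Lehner transform of function-level Kummer data**:

  data for `(f, ψ)` at level `M ℓ`  ⟹  data for `(w_ℓ f, w ψ)` at level `M ℓ`

(`s59b_mdata_al`), with `a₁ = a ∘ W`, `b₁ = b ∘ W`, `A₁ = A ∘ W`, `W = r_∞ · diag(ℓ, 1) ∈ GL₂(ℝ)⁺`
(the matrix `s41l_W`), `w ψ = ψ ∘ c_W` (`s41l_w`).

* `s59b_compM g hg : s29m_M →+* s29m_M` : composition with the Möbius action of `g ∈ GL₂(ℝ)⁺`;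
* `s59b_WR`, `s59b_WR_smul`, `s59b_WR_comm` (`W γ = c_W(γ) W`);
* `s59b_jd_WR` : `j(D · W z) = j(co(D) · z)` for `D ∣ M ℓ`;
* `s59b_Phi_al` : `Φ (w_ℓ f) = (Φ f) ∘ W`.
-/
import Mathlib
import Fermat.Agent.Lib.S59.BPushAlpha
import Fermat.Agent.Lib.S37.WAtkin

set_option autoImplicit false
set_option linter.unusedSectionVars false
set_option linter.style.haveILetI false

namespace Fermat.Agent.Lib.S59

open UpperHalfPlane hiding I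
open Complex ModularCurve AlgebraicCurve CongruenceSubgroup Matrix.SpecialLinearGroup ModularForm
open Fermat.Agent.Lib.FF Fermat.Agent.Lib.S28 Fermat.Agent.Lib.S29 Fermat.Agent.Lib.S37
  Fermat.Agent.Lib.S41 Fermat.Agent.Lib.ES
open P2MW.S_ModularForm_heckeT_slash_eq_self_of_mem_Gamma0.ModularForm.HeckeSlashInvariance
open scoped Real Manifold MatrixGroups

noncomputable section

local notation "Kb" => AlgebraicClosure ℚ

/-! ### composition with `g ∈ GL₂(ℝ)⁺` on `s29m_O` and `s29m_M` -/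

section Comp

variable (g : GL (Fin 2) ℝ) (hg : 0 < g.det.val)

/-- `f ↦ f ∘ g` on holomorphic functions. -/
def s59b_compO : s29m_O →+* s29m_O where
  toFun f := ⟨s29q_compFun g (f : ℍ → ℂ), s29q_compFun_mdiff hg f.2⟩
  map_one' := rfl
  map_mul' _ _ := rfl
  map_zero' := rfl
  map_add' _ _ := rfl

theorem s59b_compO_coe (f : s29m_O) :
    ((s59b_compO g hg f : s29m_O) : ℍ → ℂ) = s29q_compFun g (f : ℍ → ℂ) := rfl

theorem s59b_compO_injective : Function.Injective (s59b_compO g hg) := by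
  intro f₁ f₂ h
  apply Subtype.ext
  apply s29q_compFun_injective g
  exact congrArg (fun x : s29m_O => (x : ℍ → ℂ)) h

/-- `f ↦ f ∘ g` on the field of meromorphic functions. -/
def s59b_compM : s29m_M →+* s29m_M :=
  IsFractionRing.lift (A := s29m_O) (K := s29m_M)
    (g := (algebraMap s29m_O s29m_M).comp (s59b_compO g hg))
    (s29m_algebraMap_injective.comp (s59b_compO_injective g hg))

theorem s59b_compM_algebraMap (f : s29m_O) :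
    s59b_compM g hg (algebraMap s29m_O s29m_M f) = algebraMap s29m_O s29m_M (s59b_compO g hg f) :=
  IsFractionRing.lift_algebraMap _ f

theorem s59b_compM_ofFun {f : ℍ → ℂ} (hf : MDiff f) :
    s59b_compM g hg (s29m_ofFun f hf) =
      s29m_ofFun (s29q_compFun g f) (s29q_compFun_mdiff hg hf) :=
  s59b_compM_algebraMap g hg _

theorem s59b_compM_const (c : ℂ) :
    s59b_compM g hg (algebraMap ℂ s29m_M c) = algebraMap ℂ s29m_M c := by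
  rw [IsScalarTower.algebraMap_apply ℂ s29m_O s29m_M, s59b_compM_algebraMap]
  rfl

end Comp

/-! ### the Atkin–Lehner element `W ∈ GL₂(ℝ)⁺` -/

section WR

variable (M ℓ : ℕ) [NeZero M] [hℓ : Fact ℓ.Prime] (hℓM : ¬ ℓ ∣ M)

/-- `W = r_∞ · diag(ℓ, 1)`. -/
def s59b_WR : GL (Fin 2) ℝ :=
  mapGL ℝ (s59b_rep M ℓ hℓM OnePoint.infty) * heckeDiagMatrix ℓ

theorem s59b_WR_det_pos : 0 < (s59b_WR M ℓ hℓM).det.val := by
  have h1 : (s59b_WR M ℓ hℓM).det =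
      (mapGL ℝ (s59b_rep M ℓ hℓM OnePoint.infty)).det * (heckeDiagMatrix ℓ).det := map_mul _ _ _
  rw [h1, Units.val_mul]
  have h2 : ((mapGL ℝ (s59b_rep M ℓ hℓM OnePoint.infty)).det : ℝ) = 1 := by simp
  rw [h2, one_mul]
  exact det_heckeDiagMatrix_pos ℓ

theorem s59b_WR_smul (z : ℍ) :
    s59b_WR M ℓ hℓM • z = s59b_rep M ℓ hℓM OnePoint.infty • ffb_dmul ℓ z := by
  rw [s59b_WR, mul_smul, s29q_heckeDiagMatrix_smul]
  rfl

/-- the real matrix of `W` is the integral Atkin–Lehner matrix `s41l_W`. -/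
theorem s59b_WR_coe :
    ((s59b_WR M ℓ hℓM : GL (Fin 2) ℝ) : Matrix (Fin 2) (Fin 2) ℝ) =
      (s41l_W M ℓ hℓM).map (Int.cast : ℤ → ℝ) := by
  rw [s59b_WR, Units.val_mul, coe_mapGL_eq_map, coe_heckeDiagMatrix_eq_map hℓ.out.ne_zero,
    ← Matrix.map_mul_intCast, s59b_rep_coe, ← s41l_W_eq]

/-- **`W γ = c_W(γ) W`** in `GL₂(ℝ)`. -/
theorem s59b_WR_comm (γ : Gamma0 (M * ℓ)) :
    s59b_WR M ℓ hℓM * mapGL ℝ ((γ : Gamma0 (M * ℓ)) : SL(2, ℤ)) =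
      mapGL ℝ ((s41l_cW M ℓ hℓM γ : Gamma0 (M * ℓ)) : SL(2, ℤ)) * s59b_WR M ℓ hℓM := by
  apply Units.ext
  rw [Units.val_mul, Units.val_mul, s59b_WR_coe, coe_mapGL_eq_map, coe_mapGL_eq_map,
    ← Matrix.map_mul_intCast, ← Matrix.map_mul_intCast]
  exact congrArg (fun X : Matrix (Fin 2) (Fin 2) ℤ => X.map (Int.cast : ℤ → ℝ))
    (s41l_cW_spec M ℓ hℓM γ)

/-- `W (γ z) = c_W(γ) (W z)`. -/
theorem s59b_WR_smul_smul (γ : Gamma0 (M * ℓ)) (z : ℍ) :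
    s59b_WR M ℓ hℓM • (((γ : Gamma0 (M * ℓ)) : SL(2, ℤ)) • z) =
      ((s41l_cW M ℓ hℓM γ : Gamma0 (M * ℓ)) : SL(2, ℤ)) • (s59b_WR M ℓ hℓM • z) := by
  rw [ModularGroup.sl_moeb ((γ : Gamma0 (M * ℓ)) : SL(2, ℤ)) z,
    ModularGroup.sl_moeb ((s41l_cW M ℓ hℓM γ : Gamma0 (M * ℓ)) : SL(2, ℤ)), ← mul_smul, ← mul_smul]
  exact congrArg (fun g : GL (Fin 2) ℝ => g • z) (s59b_WR_comm M ℓ hℓM γ)

/-- **the analytic Atkin–Lehner substitution for `W`**: `j(D · W z) = j(co(D) · z)`, `D ∣ M ℓ`. -/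
theorem s59b_jd_WR (D : s28w_Idx (M * ℓ)) (z : ℍ) :
    haveI : NeZero ℓ := ⟨hℓ.out.ne_zero⟩
    ffb_jd D.1 (s59b_WR M ℓ hℓM • z) = ffb_jd (s37w_alCo M ℓ hℓ.out D).1 z := by
  haveI : NeZero ℓ := ⟨hℓ.out.ne_zero⟩
  have hst := s41l_st M ℓ hℓM
  set s := s41l_s M ℓ hℓM with hs
  set t := s41l_t M ℓ hℓM with ht
  set γ₀ : SL(2, ℤ) := s59b_rep M ℓ hℓM OnePoint.infty with hγ₀
  have hcoe : (γ₀ : Matrix (Fin 2) (Fin 2) ℤ) = !![t, -s; (M : ℤ), (ℓ : ℤ)] := by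
    rw [hγ₀, s59b_rep_coe, s41l_rA_infty]
  have g00 : γ₀ 0 0 = t := by
    show (γ₀ : Matrix (Fin 2) (Fin 2) ℤ) 0 0 = t
    rw [hcoe]; rfl
  have g01 : γ₀ 0 1 = -s := by
    show (γ₀ : Matrix (Fin 2) (Fin 2) ℤ) 0 1 = -s
    rw [hcoe]; rfl
  have g10 : γ₀ 1 0 = (M : ℤ) := by
    show (γ₀ : Matrix (Fin 2) (Fin 2) ℤ) 1 0 = (M : ℤ)
    rw [hcoe]; rfl
  have g11 : γ₀ 1 1 = (ℓ : ℤ) := by
    show (γ₀ : Matrix (Fin 2) (Fin 2) ℤ) 1 1 = (ℓ : ℤ)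
    rw [hcoe]; rfl
  rw [s59b_WR_smul]
  by_cases h : ℓ ∣ D.1
  · -- `D = d ℓ`
    have hco := s37w_alCo_of_dvd M ℓ hℓ.out D h
    obtain ⟨c', hc'⟩ := s37w_div_dvd_of_dvd M ℓ hℓ.out D h
    set d := D.1 / ℓ with hd
    have hD : D.1 = d * ℓ := (Nat.div_mul_cancel h).symm
    have hdne : NeZero d := ⟨fun h0 => NeZero.ne D.1 (by rw [hD, h0, zero_mul])⟩
    have hM : (M : ℤ) = (d : ℤ) * (c' : ℤ) := by exact_mod_cast hc'
    let γ₂ : SL(2, ℤ) := ⟨!![(ℓ : ℤ) * t, -((d : ℤ) * s); (c' : ℤ), 1], by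
      rw [Matrix.det_fin_two_of]
      rw [hM] at hst
      linear_combination hst⟩
    have key : ffb_dmul D.1 (γ₀ • ffb_dmul ℓ z) = γ₂ • ffb_dmul d z := by
      refine s37w_dmul_smul_dmul D.1 ℓ d γ₀ γ₂ (ℓ : ℤ)
        (Int.natCast_ne_zero.mpr hℓ.out.ne_zero) ?_ ?_ ?_ ?_ z
      · rw [g00]
        show (D.1 : ℤ) * t * (ℓ : ℤ) = (ℓ : ℤ) * ((ℓ : ℤ) * t * (d : ℤ))
        rw [hD]; push_cast; ring
      · rw [g01]
        show (D.1 : ℤ) * -s = (ℓ : ℤ) * -((d : ℤ) * s)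
        rw [hD]; push_cast; ring
      · rw [g10]
        show (M : ℤ) * (ℓ : ℤ) = (ℓ : ℤ) * ((c' : ℤ) * (d : ℤ))
        linear_combination (ℓ : ℤ) * hM
      · rw [g11]
        show (ℓ : ℤ) = (ℓ : ℤ) * 1
        ring
    have e1 : ffb_jd (s37w_alCo M ℓ hℓ.out D).1 z = ffb_jd d z := by
      congr 1
    rw [e1, ffb_jd_apply, ffb_jd_apply, key, ffj_smul]
  · -- `D = d ∣ M`
    have hco := s37w_alCo_of_not_dvd M ℓ hℓ.out D h
    obtain ⟨c', hc'⟩ := s37w_dvd_of_not_dvd M ℓ hℓ.out D h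
    have hM : (M : ℤ) = (D.1 : ℤ) * (c' : ℤ) := by exact_mod_cast hc'
    let γ₁ : SL(2, ℤ) := ⟨!![t, -((D.1 : ℤ) * s); (c' : ℤ), (ℓ : ℤ)], by
      rw [Matrix.det_fin_two_of]
      rw [hM] at hst
      linear_combination hst⟩
    have hne : NeZero (D.1 * ℓ) := ⟨mul_ne_zero (NeZero.ne D.1) hℓ.out.ne_zero⟩
    have key : ffb_dmul D.1 (γ₀ • ffb_dmul ℓ z) = γ₁ • ffb_dmul (D.1 * ℓ) z := by
      refine s37w_dmul_smul_dmul D.1 ℓ (D.1 * ℓ) γ₀ γ₁ 1 one_ne_zero ?_ ?_ ?_ ?_ z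
      · rw [g00]
        show (D.1 : ℤ) * t * (ℓ : ℤ) = 1 * (t * ((D.1 * ℓ : ℕ) : ℤ))
        push_cast; ring
      · rw [g01]
        show (D.1 : ℤ) * -s = 1 * -((D.1 : ℤ) * s)
        ring
      · rw [g10]
        show (M : ℤ) * (ℓ : ℤ) = 1 * ((c' : ℤ) * ((D.1 * ℓ : ℕ) : ℤ))
        push_cast
        linear_combination (ℓ : ℤ) * hM
      · rw [g11]
        show (ℓ : ℤ) = 1 * (ℓ : ℤ)
        ring
    have e1 : ffb_jd (s37w_alCo M ℓ hℓ.out D).1 z = ffb_jd (D.1 * ℓ) z := by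
      congr 1
    rw [e1, ffb_jd_apply, ffb_jd_apply, key, ffj_smul]

end WR

/-! ### `Φ ∘ w_ℓ = (· ∘ W) ∘ Φ` -/

section PhiAL

variable (ι : Kb →+* ℂ) (M ℓ : ℕ) [NeZero M] [hℓ : Fact ℓ.Prime] (hℓM : ¬ ℓ ∣ M)

theorem s59b_ofFun_congr {f g : ℍ → ℂ} (hf : MDiff f) (hg : MDiff g) (h : f = g) :
    s29m_ofFun f hf = s29m_ofFun g hg := by
  subst h
  rfl

/-- `Φ` on constants. -/
theorem s59b_Phi_const (N : ℕ) (c : Kb) :
    s59b_Phi ι N (algebraMap Kb (ffi_F N) c) = algebraMap ℂ s29m_M (ι c) := by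
  rw [s59b_Phi_apply]
  have h := s29bp_phi_const ι N c
  rw [h, s29m_inclE_const]

/-- `Φ` on the generators `j(d z)`, `d ∣ N`. -/
theorem s59b_Phi_gen (N : ℕ) [NeZero N] (d : s28w_Idx N) (x : ffi_F N)
    (hx : (x : LaurentSeries Kb) = s37w_gen N d) :
    s59b_Phi ι N x = s29m_ofFun (ffb_jd d.1) (ffb_jd_isWH N d.2).mdiff := by
  have hx' : x = s29bp_jdK Kb N d.2 := by
    apply Subtype.ext
    rw [hx, s29bp_jdK_coe]
    rfl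
  rw [hx', s59b_Phi_apply, s29bp_phi_jd, s29m_inclE_algebraMap]
  rfl

/-- **`Φ (w_ℓ f) = (Φ f) ∘ W`.** -/
theorem s59b_Phi_al (f : ffi_F (M * ℓ)) :
    haveI : NeZero ℓ := ⟨hℓ.out.ne_zero⟩
    s59b_Phi ι (M * ℓ) (s37w_al M ℓ hℓ.out hℓM f) =
      s59b_compM (s59b_WR M ℓ hℓM) (s59b_WR_det_pos M ℓ hℓM) (s59b_Phi ι (M * ℓ) f) := by
  haveI : NeZero ℓ := ⟨hℓ.out.ne_zero⟩
  letI : Algebra Kb s29m_M := ((algebraMap ℂ s29m_M).comp ι).toAlgebra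
  have halg : ∀ c : Kb, algebraMap Kb s29m_M c = algebraMap ℂ s29m_M (ι c) := fun c => rfl
  let Φa : ffi_F (M * ℓ) →ₐ[Kb] s29m_M :=
    { (s59b_Phi ι (M * ℓ) : ffi_F (M * ℓ) →+* s29m_M) with
      commutes' := fun c => by
        show s59b_Phi ι (M * ℓ) (algebraMap Kb (ffi_F (M * ℓ)) c) = _
        rw [s59b_Phi_const, halg] }
  let Ca : s29m_M →ₐ[Kb] s29m_M :=
    { (s59b_compM (s59b_WR M ℓ hℓM) (s59b_WR_det_pos M ℓ hℓM) : s29m_M →+* s29m_M) with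
      commutes' := fun c => by
        show s59b_compM (s59b_WR M ℓ hℓM) (s59b_WR_det_pos M ℓ hℓM) (algebraMap Kb s29m_M c) = _
        rw [halg, s59b_compM_const] }
  have key : Φa.comp (s37w_al M ℓ hℓ.out hℓM : ffi_F (M * ℓ) →ₐ[Kb] ffi_F (M * ℓ)) =
      Ca.comp Φa := by
    refine s37w_algHom_ext (M * ℓ) _ _ fun D x hx => ?_
    rw [AlgHom.comp_apply, AlgHom.comp_apply]
    show s59b_Phi ι (M * ℓ) (s37w_al M ℓ hℓ.out hℓM x) =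
      s59b_compM (s59b_WR M ℓ hℓM) (s59b_WR_det_pos M ℓ hℓM) (s59b_Phi ι (M * ℓ) x)
    rw [s59b_Phi_gen ι (M * ℓ) D x hx,
      s59b_Phi_gen ι (M * ℓ) (s37w_alCo M ℓ hℓ.out D) _ (s37w_al_gen M ℓ hℓ.out hℓM D x hx),
      s59b_compM_ofFun]
    refine s59b_ofFun_congr _ _ (funext fun z => ?_)
    show ffb_jd (s37w_alCo M ℓ hℓ.out D).1 z = ffb_jd D.1 (s59b_WR M ℓ hℓM • z)
    exact (s59b_jd_WR M ℓ hℓM D z).symm
  exact AlgHom.congr_fun key f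

variable {p : ℕ} [NeZero p]

/-- **the Atkin–Lehner transform of the data.** -/
theorem s59b_mdata_al {f : ffi_F (M * ℓ)} {ψ : Additive (Gamma0 (M * ℓ)) →+ ZMod p}
    (h : s59b_MData ι (M * ℓ) p f ψ) :
    haveI : NeZero ℓ := ⟨hℓ.out.ne_zero⟩
    s59b_MData ι (M * ℓ) p (s37w_al M ℓ hℓ.out hℓM f) (s41l_w M ℓ hℓM (ZMod p) ψ) := by
  haveI : NeZero ℓ := ⟨hℓ.out.ne_zero⟩
  obtain ⟨a, b, A, ha, hb, hA, hb0, hainv, hbinv, hab, hAp, hAψ⟩ := h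
  have hg := s59b_WR_det_pos M ℓ hℓM
  refine ⟨s29q_compFun (s59b_WR M ℓ hℓM) a, s29q_compFun (s59b_WR M ℓ hℓM) b,
    s29q_compFun (s59b_WR M ℓ hℓM) A, s29q_compFun_mdiff hg ha, s29q_compFun_mdiff hg hb,
    s29q_compFun_mdiff hg hA, ?_, ?_, ?_, ?_, ?_, ?_⟩
  · obtain ⟨τ, hτ⟩ := hb0
    refine ⟨(s59b_WR M ℓ hℓM)⁻¹ • τ, ?_⟩
    rw [s29q_compFun_apply, smul_inv_smul]
    exact hτ
  · intro γ hγ z
    rw [s29q_compFun_apply, s29q_compFun_apply]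
    have h1 := s59b_WR_smul_smul M ℓ hℓM ⟨γ, hγ⟩ z
    rw [h1]
    exact hainv _ (s41l_cW M ℓ hℓM ⟨γ, hγ⟩).2 _
  · intro γ hγ z
    rw [s29q_compFun_apply, s29q_compFun_apply]
    have h1 := s59b_WR_smul_smul M ℓ hℓM ⟨γ, hγ⟩ z
    rw [h1]
    exact hbinv _ (s41l_cW M ℓ hℓM ⟨γ, hγ⟩).2 _
  · have h1 := congrArg (s59b_compM (s59b_WR M ℓ hℓM) hg) hab
    rw [map_mul, s59b_compM_ofFun, s59b_compM_ofFun, ← s59b_Phi_al ι M ℓ hℓM f] at h1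
    exact h1
  · intro τ
    rw [s29q_compFun_apply, s29q_compFun_apply, s29q_compFun_apply]
    exact hAp _
  · intro γ τ
    rw [s29q_compFun_apply, s29q_compFun_apply, s59b_WR_smul_smul M ℓ hℓM γ τ, hAψ, s41l_w_apply]

/-- **push-forward of the data along `β`**: data for `(f, ψ)` at level `M ℓ` gives data for
`(Nm_α (w_ℓ f), cor_B ψ)` at level `M`. -/
theorem s59b_mdata_betaPush {f : ffi_F (M * ℓ)} {ψ : Additive (Gamma0 (M * ℓ)) →+ ZMod p}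
    (h : s59b_MData ι (M * ℓ) p f ψ) :
    haveI : NeZero ℓ := ⟨hℓ.out.ne_zero⟩
    s59b_MData ι M p (s37e_normAlpha M ℓ (s37w_al M ℓ hℓ.out hℓM f))
      (s41l_corB M ℓ hℓM (ZMod p) ψ) := by
  haveI : NeZero ℓ := ⟨hℓ.out.ne_zero⟩
  rw [s41l_corB_eq M ℓ hℓM ψ]
  exact s59b_mdata_alphaPush ι M ℓ hℓM (s59b_mdata_al ι M ℓ hℓM h)

end PhiAL

end

end Fermat.Agent.Lib.S59
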