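/-
Programme (R) = S59, node (NN)-2(b′) (helper3), file P1: **κ–push at a level `M q` with `q ∣ M`,
the `α`-half, function level.**  Twin of helper2's `BPushNorm.lean`/`BPushAlpha.lean` (case `ℓ ∤ M`,
`ℓ + 1` cosets) for the index-`q` coset family `s59u_famCorA2` (Lib/S59/UTrace).

* `s59u_repA M q j = (1 0; M j 1) ∈ Γ₀(M)` and the embeddings `s59u_sigmaA ι M q j f = Φ f ∘ r_j`;
* `s59u_normA_eq_prod` : `Φ_M (Nm_α f) = ∏_{j mod q} r_j⁻¹ • Φ_{M q} f` (degree `q`:
  `s36m_finrank_alpha_of_dvd`);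
* `s59u_mdata_alphaPush2` : data for `(f, ψ)` at level `M q` ⟹ data for
  `(Nm_α f, s59u_corA2 ψ)` at level `M`.
-/
import Mathlib
import Fermat.Agent.Lib.S59.BPushAlpha
import Fermat.Agent.Lib.S59.UTrace
import Fermat.Agent.Lib.S59.UGrp
import Fermat.Agent.Lib.S36.MFricke
import Fermat.Agent.Lib.S36.WFinite

set_option autoImplicit false
set_option linter.unusedSectionVars false
set_option linter.style.haveILetI false

namespace Fermat.Agent.Lib.S59

open UpperHalfPlane hiding I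
open Complex ModularCurve AlgebraicCurve CongruenceSubgroup
open Fermat.Agent.Lib.FF Fermat.Agent.Lib.S29 Fermat.Agent.Lib.S37 Fermat.Agent.Lib.S41
  Fermat.Agent.Lib.S36
open scoped Real Manifold MatrixGroups

noncomputable section

local notation "Kb" => AlgebraicClosure ℚ
local notation "Mat2" => Matrix (Fin 2) (Fin 2) ℤ

variable (ι : Kb →+* ℂ) (M q : ℕ) [NeZero M] [hq : Fact q.Prime] (hqM : q ∣ M)

/-- the representative `r_j = (1 0; M j 1) ∈ Γ₀(M) ≤ SL₂(ℤ)`. -/
def s59u_repA (j : ZMod q) : SL(2, ℤ) := s59u_lo ((M : ℤ) * (j.val : ℤ))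

theorem s59u_repA_mem (j : ZMod q) : s59u_repA M q j ∈ Gamma0 M := by
  rw [s59u_gamma0_iff]
  exact ⟨(j.val : ℤ), rfl⟩

theorem s59u_repA_coe (j : ZMod q) :
    ((s59u_repA M q j : SL(2, ℤ)) : Mat2) = s59u_rA2 M q j := rfl

/-- the `q` embeddings `f ↦ Φ f ∘ r_j` of `F̄(M q)` into `s29m_M`. -/
def s59u_sigmaA (j : ZMod q) : ffi_F (M * q) →+* s29m_M :=
  (MulSemiringAction.toRingHom SL(2, ℤ) s29m_M (s59u_repA M q j)⁻¹).comp (s59b_Phi ι (M * q))

theorem s59u_sigmaA_apply (j : ZMod q) (f : ffi_F (M * q)) :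
    s59u_sigmaA ι M q j f = (s59u_repA M q j)⁻¹ • s59b_Phi ι (M * q) f := rfl

/-- all the embeddings restrict to `Φ_M` on `α F̄(M)`. -/
theorem s59u_sigmaA_alpha (j : ZMod q) (y : ffi_F M) :
    s59u_sigmaA ι M q j (heckeAlphaBar Kb M q y) = s59b_Phi ι M y := by
  rw [s59u_sigmaA_apply, s59b_Phi_alpha]
  exact s59b_Phi_smul ι M (inv_mem (s59u_repA_mem M q j)) y

/-- the embeddings are pairwise distinct. -/
theorem s59u_sigmaA_injective : Function.Injective (s59u_sigmaA ι M q) := by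
  haveI : NeZero (M * q) := ⟨mul_ne_zero (NeZero.ne M) hq.out.ne_zero⟩
  intro x y hxy
  have h1 := RingHom.congr_fun hxy (s29bp_jdK Kb (M * q) (dvd_refl (M * q)))
  rw [s59u_sigmaA_apply, s59u_sigmaA_apply, s59b_Phi_jd, s59b_smul_ofFun, s59b_smul_ofFun] at h1
  have h2 : ∀ z : ℍ, ffb_jd (M * q) (s59u_repA M q x • z) =
      ffb_jd (M * q) (s59u_repA M q y • z) := by
    intro z
    unfold s29m_ofFun at h1
    have h3 := s29m_algebraMap_injective h1
    have h4 := congrFun (congrArg Subtype.val h3) z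
    simpa only [s29m_mkO_coe, inv_inv] using h4
  have h5 : s59u_repA M q y * (s59u_repA M q x)⁻¹ ∈ Gamma0 (M * q) := by
    refine ffg_mem_Gamma0_of_j_scale_eq (NeZero.ne (M * q)) (ffb_dmul (M * q))
      (fun z => by rw [ffb_dmul_coe]) _ fun z => ?_
    have h6 := h2 ((s59u_repA M q y)⁻¹ • z)
    rw [ffb_jd_apply, ffb_jd_apply, smul_inv_smul] at h6
    rw [mul_inv_rev, inv_inv, mul_smul]
    exact h6
  have h7 : s59u_rA2 M q y = s41l_i (M * q) ⟨_, h5⟩ * s59u_rA2 M q x := by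
    rw [s41l_i_apply, ← s59u_repA_coe, ← s59u_repA_coe]
    show _ = ((s59u_repA M q y * (s59u_repA M q x)⁻¹ : SL(2, ℤ)) : Mat2) * _
    rw [← Matrix.SpecialLinearGroup.coe_mul, inv_mul_cancel_right]
  exact (s59u_rA2_inj M q y x _ h7).symm

include hqM in
/-- **the norm along `α` is the product over the cosets `Γ₀(M q) \ Γ₀(M)`** (`q ∣ M`). -/
theorem s59u_normA_eq_prod (f : ffi_F (M * q)) :
    s59b_Phi ι M (s37e_normAlpha M q f) = ∏ j : ZMod q, s59u_sigmaA ι M q j f := by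
  unfold s37e_normAlpha
  letI := algebraAlong (heckeAlphaBar Kb M q)
  haveI hfin : Module.Finite (ffi_F M) (ffi_F (M * q)) := s36w_finite_alpha M q
  exact s37w_norm_eq_prod_of_embeddings (K := ffi_F M) (L := ffi_F (M * q))
    (s59b_Phi ι M) (s59u_sigmaA ι M q)
    (fun x => RingHom.ext fun y => s59u_sigmaA_alpha ι M q x y)
    (s59u_sigmaA_injective ι M q)
    (by
      have h := s36m_finrank_alpha_of_dvd M q hq.out hqM
      unfold finrankAlong at h
      rw [h, ZMod.card]) f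

/-! ### The coset product and the push-forward of the data -/

/-- the product over the cosets `Γ₀(M q) \ Γ₀(M)`. -/
def s59u_cprodA (u : ℍ → ℂ) : ℍ → ℂ :=
  fun z => ∏ j : ZMod q, u (s59u_repA M q j • z)

theorem s59u_cprodA_apply (u : ℍ → ℂ) (z : ℍ) :
    s59u_cprodA M q u z = ∏ j : ZMod q, u (s59u_repA M q j • z) := rfl

theorem s59u_cprodA_mdiff {u : ℍ → ℂ} (hu : MDiff u) : MDiff (s59u_cprodA M q u) :=
  s59b_mdiff_finset_prod Finset.univ _ fun j => s59b_mdiff_comp_smul hu (s59u_repA M q j)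

/-- the product of the images in `s29m_M`. -/
theorem s59u_ofFun_cprodA {u : ℍ → ℂ} (hu : MDiff u) :
    ∏ j : ZMod q, (s59u_repA M q j)⁻¹ • s29m_ofFun u hu =
      s29m_ofFun (s59u_cprodA M q u) (s59u_cprodA_mdiff M q hu) := by
  have h1 : ∀ j : ZMod q, (s59u_repA M q j)⁻¹ • s29m_ofFun u hu =
      s29m_ofFun (fun z => u (s59u_repA M q j • z))
        (s59b_mdiff_comp_smul hu (s59u_repA M q j)) := by
    intro j
    rw [s59b_smul_ofFun]
    congr 1
    funext z
    rw [inv_inv]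
  simp only [h1]
  exact s59b_ofFun_prod Finset.univ (fun j z => u (s59u_repA M q j • z))
    (fun j => s59b_mdiff_comp_smul hu (s59u_repA M q j)) (s59u_cprodA_mdiff M q hu)

/-- a product of holomorphic functions which are not identically zero is not identically zero. -/
theorem s59u_cprodA_ne_zero {u : ℍ → ℂ} (hu : MDiff u) (hu0 : ∃ τ, u τ ≠ 0) :
    ∃ τ, s59u_cprodA M q u τ ≠ 0 := by
  have h1 : s29m_ofFun (s59u_cprodA M q u) (s59u_cprodA_mdiff M q hu) ≠ 0 := by
    rw [← s59u_ofFun_cprodA M q hu]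
    refine Finset.prod_ne_zero_iff.mpr fun j _ => ?_
    intro h0
    have h2 := congrArg (fun y => s59u_repA M q j • y) h0
    simp only [smul_inv_smul, smul_zero] at h2
    exact s29m_ofFun_ne_zero hu hu0 h2
  by_contra hcon
  push Not at hcon
  apply h1
  have : s59u_cprodA M q u = 0 := funext hcon
  unfold s29m_ofFun
  have h3 : s29m_mkO (s59u_cprodA M q u) (s59u_cprodA_mdiff M q hu) = 0 :=
    Subtype.ext this
  rw [h3, map_zero]

/-- the coset relation in `SL₂(ℤ)`: `r_j γ = γ'_j r_{σ j}`. -/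
theorem s59u_repA_mul (γ : Gamma0 M) (j : ZMod q) :
    s59u_repA M q j * (γ : SL(2, ℤ)) =
      (((s59u_famCorA2 M q hqM).fam γ j : Gamma0 (M * q)) : SL(2, ℤ)) *
        s59u_repA M q ((s59u_famCorA2 M q hqM).perm γ j) := by
  have h := (s59u_famCorA2 M q hqM).spec γ j
  apply Subtype.ext
  rw [Matrix.SpecialLinearGroup.coe_mul, Matrix.SpecialLinearGroup.coe_mul, s59u_repA_coe,
    s59u_repA_coe]
  exact h

/-- the multiplier of the coset product. -/
theorem s59u_cprodA_smul (u : ℍ → ℂ) (m : Gamma0 (M * q) → ℂ)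
    (hu : ∀ (δ : Gamma0 (M * q)) (z : ℍ), u ((δ : SL(2, ℤ)) • z) = m δ * u z)
    (γ : Gamma0 M) (z : ℍ) :
    s59u_cprodA M q u ((γ : SL(2, ℤ)) • z) =
      (∏ j : ZMod q, m ((s59u_famCorA2 M q hqM).fam γ j)) * s59u_cprodA M q u z := by
  rw [s59u_cprodA_apply, s59u_cprodA_apply,
    ← Equiv.prod_comp ((s59u_famCorA2 M q hqM).permEquiv γ)
      (fun j => u (s59u_repA M q j • z)), ← Finset.prod_mul_distrib]
  refine Finset.prod_congr rfl fun j _ => ?_
  rw [← mul_smul, s59u_repA_mul M q hqM, mul_smul, hu]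
  rfl

include hqM in
/-- invariance of the coset product of a `Γ₀(M q)`-invariant function. -/
theorem s59u_cprodA_invariant (u : ℍ → ℂ)
    (hu : ∀ δ ∈ Gamma0 (M * q), ∀ z : ℍ, u (δ • z) = u z)
    (γ : SL(2, ℤ)) (hγ : γ ∈ Gamma0 M) (z : ℍ) :
    s59u_cprodA M q u (γ • z) = s59u_cprodA M q u z := by
  have h := s59u_cprodA_smul M q hqM u (fun _ => 1)
    (fun δ z => by rw [one_mul]; exact hu _ δ.2 z) ⟨γ, hγ⟩ z
  rw [Finset.prod_const_one, one_mul] at h
  exact h

variable {p : ℕ} [NeZero p]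

/-- **push-forward of the data along `α`, `q ∣ M`.** -/
theorem s59u_mdata_alphaPush2 {f : ffi_F (M * q)} {ψ : Additive (Gamma0 (M * q)) →+ ZMod p}
    (h : s59b_MData ι (M * q) p f ψ) :
    s59b_MData ι M p (s37e_normAlpha M q f) (s59u_corA2 M q hqM (ZMod p) ψ) := by
  obtain ⟨a, b, A, ha, hb, hA, hb0, hainv, hbinv, hab, hAp, hAψ⟩ := h
  refine ⟨s59u_cprodA M q a, s59u_cprodA M q b, s59u_cprodA M q A,
    s59u_cprodA_mdiff M q ha, s59u_cprodA_mdiff M q hb, s59u_cprodA_mdiff M q hA,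
    s59u_cprodA_ne_zero M q hb hb0, s59u_cprodA_invariant M q hqM a hainv,
    s59u_cprodA_invariant M q hqM b hbinv, ?_, ?_, ?_⟩
  · -- the norm identity
    rw [s59u_normA_eq_prod ι M q hqM f, ← s59u_ofFun_cprodA M q hb, ← s59u_ofFun_cprodA M q ha,
      ← Finset.prod_mul_distrib]
    refine Finset.prod_congr rfl fun j _ => ?_
    rw [s59u_sigmaA_apply, ← smul_mul', hab]
  · -- the root
    intro τ
    rw [s59u_cprodA_apply, s59u_cprodA_apply, s59u_cprodA_apply, ← Finset.prod_pow,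
      ← Finset.prod_pow, ← Finset.prod_mul_distrib]
    exact Finset.prod_congr rfl fun j _ => hAp _
  · -- the character
    intro γ τ
    rw [s59u_cprodA_smul M q hqM A
      (fun δ => cexp (2 * π * I / p) ^ (ψ (Additive.ofMul δ)).val) (fun δ z => hAψ δ z) γ τ]
    congr 1
    have hcor : s59u_corA2 M q hqM (ZMod p) ψ (Additive.ofMul γ)
        = ∑ j : ZMod q, ψ (Additive.ofMul ((s59u_famCorA2 M q hqM).fam γ j)) :=
      (s59u_famCorA2 M q hqM).op_apply ψ γ
    rw [hcor]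
    exact (s29q_zetaP_pow_val_sum p Finset.univ _).symm

end

end Fermat.Agent.Lib.S59
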