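/-
Programme (R) = S59, node (NN)-2(b′) (helper3), file P2: **κ–push at a level `M q` with `q ∣ M`,
the `β`-half, function level.**

* `s59u_Phi_beta` : `Φ_{M q} (β y) = (Φ_M y) ∘ diag(q, 1)`;
* `s59u_sigmaB ι M q j f = (Φ f) ∘ g_j`, `g_j = (1 j; 0 q) = heckeMatrix q j`: `q` pairwise
  distinct embeddings of `F̄(M q)` over `Φ_M` (for the `β`-structure);
* `s59u_normB_eq_prod` : `Φ_M (Nm_β f) = ∏_{j mod q} (Φ_{M q} f) ∘ g_j` (degree `q`:
  `s36m_finrank_beta_of_dvd`);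
* `s59u_mdata_betaPush2` : data for `(f, ψ)` at level `M q` ⟹ data for
  `(Nm_β f, s59u_corB2 ψ)` at level `M`.
-/
import Mathlib
import Fermat.Agent.Lib.S59.BPushAL
import Fermat.Agent.Lib.S59.UPushA

set_option autoImplicit false
set_option linter.unusedSectionVars false
set_option linter.style.haveILetI false

namespace Fermat.Agent.Lib.S59

open UpperHalfPlane hiding I
open Complex ModularCurve AlgebraicCurve CongruenceSubgroup Matrix.SpecialLinearGroup ModularForm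
open Fermat.Agent.Lib.FF Fermat.Agent.Lib.S28 Fermat.Agent.Lib.S29 Fermat.Agent.Lib.S37
  Fermat.Agent.Lib.S41 Fermat.Agent.Lib.S36 Fermat.Agent.Lib.ES
open P2MW.S_ModularForm_heckeT_slash_eq_self_of_mem_Gamma0.ModularForm.HeckeSlashInvariance
open scoped Real Manifold MatrixGroups

noncomputable section

local notation "Kb" => AlgebraicClosure ℚ
local notation "Mat2" => Matrix (Fin 2) (Fin 2) ℤ

/-! ### Generalities on `s59b_compM` -/

section CompM

/-- `compM` only depends on the Möbius action. -/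
theorem s59u_compM_congr {g g' : GL (Fin 2) ℝ} (hg : 0 < g.det.val) (hg' : 0 < g'.det.val)
    (h : ∀ z : ℍ, g • z = g' • z) : s59b_compM g hg = s59b_compM g' hg' := by
  refine IsLocalization.ringHom_ext (nonZeroDivisors s29m_O) (RingHom.ext fun f => ?_)
  rw [RingHom.comp_apply, RingHom.comp_apply, s59b_compM_algebraMap, s59b_compM_algebraMap]
  congr 1
  apply Subtype.ext
  funext z
  rw [s59b_compO_coe, s59b_compO_coe, s29q_compFun_apply, s29q_compFun_apply, h z]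

/-- `(F ∘ g') ∘ g = F ∘ (g' g)`. -/
theorem s59u_compM_compM {g g' : GL (Fin 2) ℝ} (hg : 0 < g.det.val) (hg' : 0 < g'.det.val)
    (hgg' : 0 < (g' * g).det.val) (F : s29m_M) :
    s59b_compM g hg (s59b_compM g' hg' F) = s59b_compM (g' * g) hgg' F := by
  have key : (s59b_compM g hg).comp (s59b_compM g' hg') = s59b_compM (g' * g) hgg' := by
    refine IsLocalization.ringHom_ext (nonZeroDivisors s29m_O) (RingHom.ext fun f => ?_)
    rw [RingHom.comp_apply, RingHom.comp_apply, RingHom.comp_apply, s59b_compM_algebraMap,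
      s59b_compM_algebraMap, s59b_compM_algebraMap]
    congr 1
    apply Subtype.ext
    funext z
    rw [s59b_compO_coe, s59b_compO_coe, s59b_compO_coe, s29q_compFun_apply, s29q_compFun_apply,
      s29q_compFun_apply, mul_smul]
  exact RingHom.congr_fun key F

/-- `F ∘ γ = γ⁻¹ • F` for `γ ∈ SL₂(ℤ)`. -/
theorem s59u_compM_SL (γ : SL(2, ℤ)) (hγ : 0 < (mapGL ℝ γ : GL (Fin 2) ℝ).det.val) (F : s29m_M) :
    s59b_compM (mapGL ℝ γ) hγ F = γ⁻¹ • F := by
  have key : s59b_compM (mapGL ℝ γ) hγ = MulSemiringAction.toRingHom SL(2, ℤ) s29m_M γ⁻¹ := by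
    refine IsLocalization.ringHom_ext (nonZeroDivisors s29m_O) (RingHom.ext fun f => ?_)
    rw [RingHom.comp_apply, RingHom.comp_apply, s59b_compM_algebraMap]
    show _ = γ⁻¹ • algebraMap s29m_O s29m_M f
    rw [s29m_smul_algebraMap]
    congr 1
    apply Subtype.ext
    funext z
    rw [s59b_compO_coe, s29q_compFun_apply]
    show (f : ℍ → ℂ) (γ • z) = (f : ℍ → ℂ) ((γ⁻¹)⁻¹ • z)
    rw [inv_inv]
  exact RingHom.congr_fun key F

theorem s59u_mapGL_det_pos (γ : SL(2, ℤ)) : 0 < (mapGL ℝ γ : GL (Fin 2) ℝ).det.val := by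
  have h2 : ((mapGL ℝ γ : GL (Fin 2) ℝ).det : ℝ) = 1 := by simp
  rw [h2]
  exact one_pos

end CompM

/-! ### `Φ ∘ β = (· ∘ diag(q, 1)) ∘ Φ` -/

section PhiBeta

variable (ι : Kb →+* ℂ) (M q : ℕ) [NeZero M] [hq : Fact q.Prime]

theorem s59u_jd_dmul (d : ℕ) [NeZero d] (z : ℍ) :
    haveI : NeZero (d * q) := ⟨mul_ne_zero (NeZero.ne d) hq.out.ne_zero⟩
    ffb_jd d (heckeDiagMatrix q • z) = ffb_jd (d * q) z := by
  haveI : NeZero (d * q) := ⟨mul_ne_zero (NeZero.ne d) hq.out.ne_zero⟩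
  rw [s29q_heckeDiagMatrix_smul, ffb_jd_apply, ffb_jd_apply]
  congr 1
  apply UpperHalfPlane.ext
  rw [ffb_dmul_coe, ffb_dmul_coe, ffb_dmul_coe]
  push_cast
  ring

/-- **`Φ_{M q} (β y) = (Φ_M y) ∘ diag(q, 1)`.** -/
theorem s59u_Phi_beta (y : ffi_F M) :
    s59b_Phi ι (M * q) (heckeBetaBar Kb M q y) =
      s59b_compM (heckeDiagMatrix q) (det_heckeDiagMatrix_pos q) (s59b_Phi ι M y) := by
  haveI : NeZero (M * q) := ⟨mul_ne_zero (NeZero.ne M) hq.out.ne_zero⟩
  letI : Algebra Kb s29m_M := ((algebraMap ℂ s29m_M).comp ι).toAlgebra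
  have halg : ∀ c : Kb, algebraMap Kb s29m_M c = algebraMap ℂ s29m_M (ι c) := fun c => rfl
  let Φa : ffi_F (M * q) →ₐ[Kb] s29m_M :=
    { (s59b_Phi ι (M * q) : ffi_F (M * q) →+* s29m_M) with
      commutes' := fun c => by
        show s59b_Phi ι (M * q) (algebraMap Kb (ffi_F (M * q)) c) = _
        rw [s59b_Phi_const, halg] }
  let Φ0 : ffi_F M →ₐ[Kb] s29m_M :=
    { (s59b_Phi ι M : ffi_F M →+* s29m_M) with
      commutes' := fun c => by
        show s59b_Phi ι M (algebraMap Kb (ffi_F M) c) = _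
        rw [s59b_Phi_const, halg] }
  let Ca : s29m_M →ₐ[Kb] s29m_M :=
    { (s59b_compM (heckeDiagMatrix q) (det_heckeDiagMatrix_pos q) : s29m_M →+* s29m_M) with
      commutes' := fun c => by
        show s59b_compM (heckeDiagMatrix q) (det_heckeDiagMatrix_pos q) (algebraMap Kb s29m_M c)
          = _
        rw [halg, s59b_compM_const] }
  have key : Φa.comp (heckeBetaBar Kb M q) = Ca.comp Φ0 := by
    refine s37w_algHom_ext M _ _ fun d x hx => ?_
    rw [AlgHom.comp_apply, AlgHom.comp_apply]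
    show s59b_Phi ι (M * q) (heckeBetaBar Kb M q x) =
      s59b_compM (heckeDiagMatrix q) (det_heckeDiagMatrix_pos q) (s59b_Phi ι M x)
    have hβx : ((heckeBetaBar Kb M q x : ffi_F (M * q)) : LaurentSeries Kb)
        = s37w_gen (M * q) ⟨d.1 * q, mul_dvd_mul_right d.2 q⟩ := by
      rw [coe_heckeBetaBar, hx, s37w_gen_qExpand]
      rfl
    rw [s59b_Phi_gen ι M d x hx,
      s59b_Phi_gen ι (M * q) ⟨d.1 * q, mul_dvd_mul_right d.2 q⟩ _ hβx, s59b_compM_ofFun]
    refine s59b_ofFun_congr _ _ (funext fun z => ?_)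
    show ffb_jd (d.1 * q) z = ffb_jd d.1 (heckeDiagMatrix q • z)
    exact (s59u_jd_dmul q d.1 z).symm
  exact AlgHom.congr_fun key y

end PhiBeta

/-! ### The `q` embeddings over `β` -/

section SigmaB

variable (ι : Kb →+* ℂ) (M q : ℕ) [NeZero M] [hq : Fact q.Prime]

/-- the `q` embeddings `f ↦ Φ f ∘ g_j`, `g_j = (1 j; 0 q)`, of `F̄(M q)` into `s29m_M`. -/
def s59u_sigmaB (j : ZMod q) : ffi_F (M * q) →+* s29m_M :=
  (s59b_compM (heckeMatrix q j.val) (det_heckeMatrix_pos q j.val)).comp (s59b_Phi ι (M * q))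

theorem s59u_sigmaB_apply (j : ZMod q) (f : ffi_F (M * q)) :
    s59u_sigmaB ι M q j f =
      s59b_compM (heckeMatrix q j.val) (det_heckeMatrix_pos q j.val) (s59b_Phi ι (M * q) f) := rfl

theorem s59u_T_zpow_mem (N : ℕ) (n : ℤ) : ModularGroup.T ^ n ∈ Gamma0 N := by
  rw [s59u_gamma0_iff]
  have h : ((ModularGroup.T ^ n : SL(2, ℤ)) : Mat2) 1 0 = 0 := by
    rw [ModularGroup.coe_T_zpow]
    rfl
  rw [h]
  exact dvd_zero _

/-- `diag(q, 1) · (1 j; 0 q)` acts as `T^j`. -/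
theorem s59u_diag_mul_heckeMatrix_smul (j : ℕ) (z : ℍ) :
    (heckeDiagMatrix q * heckeMatrix q j) • z
      = (mapGL ℝ (ModularGroup.T ^ (j : ℤ)) : GL (Fin 2) ℝ) • z := by
  have hq0 : (q : ℂ) ≠ 0 := by exact_mod_cast hq.out.ne_zero
  rw [mul_smul, s29q_heckeMatrix_smul, s29q_heckeDiagMatrix_smul]
  apply UpperHalfPlane.ext
  rw [ffb_dmul_coe, s29q_div_coe]
  have h1 : (((mapGL ℝ (ModularGroup.T ^ (j : ℤ)) : GL (Fin 2) ℝ) • z : ℍ) : ℂ)
      = (((ModularGroup.T ^ (j : ℤ) : SL(2, ℤ)) • z : ℍ) : ℂ) := rfl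
  rw [h1, ModularGroup.coe_T_zpow_smul_eq]
  push_cast
  field_simp

/-- all the embeddings restrict to `Φ_M` on `β F̄(M)`. -/
theorem s59u_sigmaB_beta (j : ZMod q) (y : ffi_F M) :
    s59u_sigmaB ι M q j (heckeBetaBar Kb M q y) = s59b_Phi ι M y := by
  have hdet : 0 < (heckeDiagMatrix q * heckeMatrix q j.val : GL (Fin 2) ℝ).det.val := by
    have h1 : (heckeDiagMatrix q * heckeMatrix q j.val : GL (Fin 2) ℝ).det
        = (heckeDiagMatrix q).det * (heckeMatrix q j.val).det := map_mul _ _ _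
    rw [h1, Units.val_mul]
    exact mul_pos (det_heckeDiagMatrix_pos q) (det_heckeMatrix_pos q j.val)
  rw [s59u_sigmaB_apply, s59u_Phi_beta, s59u_compM_compM _ _ hdet,
    s59u_compM_congr hdet (s59u_mapGL_det_pos (ModularGroup.T ^ (j.val : ℤ)))
      (s59u_diag_mul_heckeMatrix_smul q j.val), s59u_compM_SL]
  exact s59b_Phi_smul ι M (inv_mem (s59u_T_zpow_mem M _)) y

end SigmaB

/-! ### Distinctness of the embeddings -/

section Distinct

variable (ι : Kb →+* ℂ) (M q : ℕ) [NeZero M] [hq : Fact q.Prime]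

/-- `γ_j = (0 1; -1 -j)`. -/
def s59u_gam (j : ℤ) : SL(2, ℤ) := s59u_mk 0 1 (-1) (-j) (by ring)

/-- `(1 j; 0 q) = S · diag(q, 1) · γ_j`. -/
theorem s59u_heckeMatrix_factor (j : ℕ) :
    heckeMatrix q j = mapGL ℝ ModularGroup.S * heckeDiagMatrix q * mapGL ℝ (s59u_gam (j : ℤ)) := by
  have hq0 : q ≠ 0 := hq.out.ne_zero
  apply Units.ext
  rw [Units.val_mul, Units.val_mul, coe_heckeMatrix_eq_map hq0, coe_heckeDiagMatrix_eq_map hq0,
    coe_mapGL_eq_map, coe_mapGL_eq_map, ← Matrix.map_mul_intCast, ← Matrix.map_mul_intCast]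
  congr 1
  rw [ModularGroup.coe_S, s59u_gam, s59u_mk_coe, heckeMatZ, heckeDiagZ]
  ext a b
  fin_cases a <;> fin_cases b <;> simp [Matrix.mul_apply, Fin.sum_univ_two]

theorem s59u_jd_one (w : ℍ) : ffb_jd 1 w = ffj_j w := by
  rw [ffb_jd_apply]
  congr 1
  apply UpperHalfPlane.ext
  rw [ffb_dmul_coe, Nat.cast_one, one_mul]

/-- `j ((z + j)/q) = j (q · γ_j z)`. -/
theorem s59u_j_heckeMatrix (j : ℕ) (z : ℍ) :
    ffj_j (heckeMatrix q j • z) = ffj_j (heckeDiagMatrix q • (s59u_gam (j : ℤ) • z)) := by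
  rw [s59u_heckeMatrix_factor q j, mul_smul, mul_smul]
  have e1 : (mapGL ℝ ModularGroup.S : GL (Fin 2) ℝ)
      • (heckeDiagMatrix q • ((mapGL ℝ (s59u_gam (j : ℤ)) : GL (Fin 2) ℝ) • z))
      = ModularGroup.S • (heckeDiagMatrix q • (s59u_gam (j : ℤ) • z)) := rfl
  rw [e1, ffj_smul]

theorem s59u_gam_mul_inv_10 (i j : ℤ) :
    (s59u_gam i * (s59u_gam j)⁻¹) 1 0 = j - i := by
  rw [Matrix.SpecialLinearGroup.coe_mul, Matrix.SpecialLinearGroup.coe_inv,
    Matrix.adjugate_fin_two, Matrix.mul_apply, Fin.sum_univ_two]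
  simp [s59u_gam]
  ring

/-- the embeddings are pairwise distinct. -/
theorem s59u_sigmaB_injective : Function.Injective (s59u_sigmaB ι M q) := by
  haveI : NeZero (M * q) := ⟨mul_ne_zero (NeZero.ne M) hq.out.ne_zero⟩
  intro x y hxy
  have h1 := RingHom.congr_fun hxy (s29bp_jdK Kb (M * q) (one_dvd (M * q)))
  rw [s59u_sigmaB_apply, s59u_sigmaB_apply,
    s59b_Phi_gen ι (M * q) ⟨1, one_dvd (M * q)⟩ (s29bp_jdK Kb (M * q) (one_dvd (M * q))) rfl,
    s59b_compM_ofFun, s59b_compM_ofFun] at h1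
  have h2 : ∀ z : ℍ, ffb_jd 1 (heckeMatrix q x.val • z) = ffb_jd 1 (heckeMatrix q y.val • z) := by
    intro z
    unfold s29m_ofFun at h1
    have h3 := s29m_algebraMap_injective h1
    have h4 := congrFun (congrArg Subtype.val h3) z
    simpa only [s29m_mkO_coe, s29q_compFun_apply] using h4
  have h3 : ∀ z : ℍ, ffj_j (heckeDiagMatrix q • (s59u_gam (x.val : ℤ) • z))
      = ffj_j (heckeDiagMatrix q • (s59u_gam (y.val : ℤ) • z)) := by
    intro z
    rw [← s59u_j_heckeMatrix, ← s59u_j_heckeMatrix, ← s59u_jd_one, ← s59u_jd_one]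
    exact h2 z
  have h5 : s59u_gam (x.val : ℤ) * (s59u_gam (y.val : ℤ))⁻¹ ∈ Gamma0 q := by
    refine ffg_mem_Gamma0_of_j_eq hq.out.ne_zero _ fun z => ?_
    have h6 := h3 ((s59u_gam (y.val : ℤ))⁻¹ • z)
    rw [smul_inv_smul] at h6
    rw [mul_smul]
    exact h6
  rw [s59u_gamma0_iff, s59u_gam_mul_inv_10] at h5
  exact (s41l_val_inj q h5).symm

end Distinct

/-! ### The norm along `β` -/

section NormB

variable (ι : Kb →+* ℂ) (M q : ℕ) [NeZero M] [hq : Fact q.Prime] (hqM : q ∣ M)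

/-- the norm along `β : F̄(M) → F̄(M q)`. -/
def s59u_normBeta (f : ffi_F (M * q)) : ffi_F M :=
  letI := algebraAlong (heckeBetaBar Kb M q)
  Algebra.norm (ffi_F M) f

include hqM in
/-- **the norm along `β` is the product over the cosets `g_j = (1 j; 0 q)`** (`q ∣ M`). -/
theorem s59u_normB_eq_prod (f : ffi_F (M * q)) :
    s59b_Phi ι M (s59u_normBeta M q f) = ∏ j : ZMod q, s59u_sigmaB ι M q j f := by
  unfold s59u_normBeta
  letI := algebraAlong (heckeBetaBar Kb M q)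
  haveI hfin : Module.Finite (ffi_F M) (ffi_F (M * q)) := s36w_finite_beta M q
  exact s37w_norm_eq_prod_of_embeddings (K := ffi_F M) (L := ffi_F (M * q))
    (s59b_Phi ι M) (s59u_sigmaB ι M q)
    (fun x => RingHom.ext fun y => s59u_sigmaB_beta ι M q x y)
    (s59u_sigmaB_injective ι M q)
    (by
      have h := s36m_finrank_beta_of_dvd M q hq.out hqM
      unfold finrankAlong at h
      rw [h, ZMod.card]) f

/-- the product over the cosets `g_j`. -/
def s59u_cprodB (u : ℍ → ℂ) : ℍ → ℂ :=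
  fun z => ∏ j : ZMod q, u (heckeMatrix q j.val • z)

theorem s59u_cprodB_apply (u : ℍ → ℂ) (z : ℍ) :
    s59u_cprodB q u z = ∏ j : ZMod q, u (heckeMatrix q j.val • z) := rfl

theorem s59u_cprodB_mdiff {u : ℍ → ℂ} (hu : MDiff u) : MDiff (s59u_cprodB q u) :=
  s59b_mdiff_finset_prod Finset.univ _ fun j =>
    s29q_compFun_mdiff (det_heckeMatrix_pos q j.val) hu

/-- the product of the images in `s29m_M`. -/
theorem s59u_ofFun_cprodB {u : ℍ → ℂ} (hu : MDiff u) :
    ∏ j : ZMod q, s59b_compM (heckeMatrix q j.val) (det_heckeMatrix_pos q j.val)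
        (s29m_ofFun u hu) =
      s29m_ofFun (s59u_cprodB q u) (s59u_cprodB_mdiff q hu) := by
  have hmd : ∀ j : ZMod q, MDiff (fun z => u (heckeMatrix q j.val • z)) := fun j =>
    s29q_compFun_mdiff (det_heckeMatrix_pos q j.val) hu
  have h1 : ∀ j : ZMod q, s59b_compM (heckeMatrix q j.val) (det_heckeMatrix_pos q j.val)
      (s29m_ofFun u hu) = s29m_ofFun (fun z => u (heckeMatrix q j.val • z)) (hmd j) := by
    intro j
    rw [s59b_compM_ofFun]
    rfl
  rw [Finset.prod_congr rfl fun j _ => h1 j]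
  exact s59b_ofFun_prod Finset.univ (fun (j : ZMod q) z => u (heckeMatrix q j.val • z)) hmd
    (s59u_cprodB_mdiff q hu)

theorem s59u_cprodB_ne_zero {u : ℍ → ℂ} (hu : MDiff u) (hu0 : ∃ τ, u τ ≠ 0) :
    ∃ τ, s59u_cprodB q u τ ≠ 0 := by
  have h1 : s29m_ofFun (s59u_cprodB q u) (s59u_cprodB_mdiff q hu) ≠ 0 := by
    rw [← s59u_ofFun_cprodB q hu]
    refine Finset.prod_ne_zero_iff.mpr fun j _ => ?_
    exact (map_ne_zero _).mpr (s29m_ofFun_ne_zero hu hu0)
  by_contra hcon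
  push Not at hcon
  apply h1
  have : s59u_cprodB q u = 0 := funext hcon
  unfold s29m_ofFun
  have h3 : s29m_mkO (s59u_cprodB q u) (s59u_cprodB_mdiff q hu) = 0 :=
    Subtype.ext this
  rw [h3, map_zero]

/-- the coset relation in `GL₂(ℝ)`: `g_j γ = γ'_j g_{σ j}`. -/
theorem s59u_heckeMatrix_mul (γ : Gamma0 M) (j : ZMod q) :
    heckeMatrix q j.val * mapGL ℝ (γ : SL(2, ℤ)) =
      mapGL ℝ (((s59u_famCorB2 M q hqM).fam γ j : Gamma0 (M * q)) : SL(2, ℤ)) *
        heckeMatrix q ((s59u_famCorB2 M q hqM).perm γ j).val := by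
  have hq0 : q ≠ 0 := hq.out.ne_zero
  have h := (s59u_famCorB2 M q hqM).spec γ j
  apply Units.ext
  rw [Units.val_mul, Units.val_mul, coe_heckeMatrix_eq_map hq0, coe_heckeMatrix_eq_map hq0,
    coe_mapGL_eq_map, coe_mapGL_eq_map, ← Matrix.map_mul_intCast, ← Matrix.map_mul_intCast]
  exact congrArg (fun X : Mat2 => X.map (Int.cast : ℤ → ℝ)) h

/-- the multiplier of the coset product. -/
theorem s59u_cprodB_smul (u : ℍ → ℂ) (m : Gamma0 (M * q) → ℂ)
    (hu : ∀ (δ : Gamma0 (M * q)) (z : ℍ), u ((δ : SL(2, ℤ)) • z) = m δ * u z)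
    (γ : Gamma0 M) (z : ℍ) :
    s59u_cprodB q u ((γ : SL(2, ℤ)) • z) =
      (∏ j : ZMod q, m ((s59u_famCorB2 M q hqM).fam γ j)) * s59u_cprodB q u z := by
  rw [s59u_cprodB_apply, s59u_cprodB_apply,
    ← Equiv.prod_comp ((s59u_famCorB2 M q hqM).permEquiv γ)
      (fun j => u (heckeMatrix q j.val • z)), ← Finset.prod_mul_distrib]
  refine Finset.prod_congr rfl fun j _ => ?_
  have h1 : heckeMatrix q j.val • ((γ : SL(2, ℤ)) • z)
      = (((s59u_famCorB2 M q hqM).fam γ j : Gamma0 (M * q)) : SL(2, ℤ))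
        • (heckeMatrix q ((s59u_famCorB2 M q hqM).perm γ j).val • z) := by
    rw [ModularGroup.sl_moeb (γ : SL(2, ℤ)) z,
      ModularGroup.sl_moeb (((s59u_famCorB2 M q hqM).fam γ j : Gamma0 (M * q)) : SL(2, ℤ)),
      ← mul_smul, ← mul_smul]
    exact congrArg (fun g : GL (Fin 2) ℝ => g • z) (s59u_heckeMatrix_mul M q hqM γ j)
  rw [h1, hu]
  rfl

include hqM in
/-- invariance of the coset product of a `Γ₀(M q)`-invariant function. -/
theorem s59u_cprodB_invariant (u : ℍ → ℂ)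
    (hu : ∀ δ ∈ Gamma0 (M * q), ∀ z : ℍ, u (δ • z) = u z)
    (γ : SL(2, ℤ)) (hγ : γ ∈ Gamma0 M) (z : ℍ) :
    s59u_cprodB q u (γ • z) = s59u_cprodB q u z := by
  have h := s59u_cprodB_smul M q hqM u (fun _ => 1)
    (fun δ z => by rw [one_mul]; exact hu _ δ.2 z) ⟨γ, hγ⟩ z
  rw [Finset.prod_const_one, one_mul] at h
  exact h

variable {p : ℕ} [NeZero p]

/-- **push-forward of the data along `β`, `q ∣ M`.** -/
theorem s59u_mdata_betaPush2 {f : ffi_F (M * q)} {ψ : Additive (Gamma0 (M * q)) →+ ZMod p}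
    (h : s59b_MData ι (M * q) p f ψ) :
    s59b_MData ι M p (s59u_normBeta M q f) (s59u_corB2 M q hqM (ZMod p) ψ) := by
  obtain ⟨a, b, A, ha, hb, hA, hb0, hainv, hbinv, hab, hAp, hAψ⟩ := h
  refine ⟨s59u_cprodB q a, s59u_cprodB q b, s59u_cprodB q A,
    s59u_cprodB_mdiff q ha, s59u_cprodB_mdiff q hb, s59u_cprodB_mdiff q hA,
    s59u_cprodB_ne_zero q hb hb0, s59u_cprodB_invariant M q hqM a hainv,
    s59u_cprodB_invariant M q hqM b hbinv, ?_, ?_, ?_⟩
  · -- the norm identity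
    rw [s59u_normB_eq_prod ι M q hqM f, ← s59u_ofFun_cprodB q hb, ← s59u_ofFun_cprodB q ha,
      ← Finset.prod_mul_distrib]
    refine Finset.prod_congr rfl fun j _ => ?_
    rw [s59u_sigmaB_apply, ← map_mul, hab]
  · -- the root
    intro τ
    rw [s59u_cprodB_apply, s59u_cprodB_apply, s59u_cprodB_apply, ← Finset.prod_pow,
      ← Finset.prod_pow, ← Finset.prod_mul_distrib]
    exact Finset.prod_congr rfl fun j _ => hAp _
  · -- the character
    intro γ τ
    rw [s59u_cprodB_smul M q hqM A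
      (fun δ => cexp (2 * π * I / p) ^ (ψ (Additive.ofMul δ)).val) (fun δ z => hAψ δ z) γ τ]
    congr 1
    have hcor : s59u_corB2 M q hqM (ZMod p) ψ (Additive.ofMul γ)
        = ∑ j : ZMod q, ψ (Additive.ofMul ((s59u_famCorB2 M q hqM).fam γ j)) :=
      (s59u_famCorB2 M q hqM).op_apply ψ γ
    rw [hcor]
    exact (s29q_zetaP_pow_val_sum p Finset.univ _).symm

end NormB

end

end Fermat.Agent.Lib.S59
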