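/-
Programme (R) = S59, node (NN)-2(b′) (helper3), file P3: **κ–push compatibility at a level `M q`
with `q ∣ M`** (index-`q` cosets), for main's `s36w_alphaPush M q`, `s36w_betaPush M q`
(Lib/S36/Defs) and the transfers `s59u_corA2`, `s59u_corB2` (Lib/S59/UTrace):

  `κ_M (α_* z) = s59u_corA2 M q hqM (κ_{M q} z)`,   `κ_M (β_* z) = s59u_corB2 M q hqM (κ_{M q} z)`

with `κ_N = s59b_kappa N p` helper2's canonical Kummer map (Lib/S59/BKappa), any modulus `p ≠ 0`.
Instances of helper2's abstract two-level theorem `s59b_kappaC_push` (Lib/S59/BPush).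
-/
import Mathlib
import Fermat.Agent.Lib.S59.BKappa
import Fermat.Agent.Lib.S59.UPushB

set_option autoImplicit false
set_option linter.unusedSectionVars false
set_option linter.style.haveILetI false

namespace Fermat.Agent.Lib.S59

open UpperHalfPlane hiding I
open Complex ModularCurve AlgebraicCurve CongruenceSubgroup
open Fermat.Agent.Lib.FF Fermat.Agent.Lib.S18 Fermat.Agent.Lib.S29 Fermat.Agent.Lib.S30
  Fermat.Agent.Lib.S37 Fermat.Agent.Lib.S41 Fermat.Agent.Lib.S44
  Fermat.Agent.Lib.S35 Fermat.Agent.Lib.S33 Fermat.Agent.Lib.S36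
open scoped Real Manifold MatrixGroups

noncomputable section

local notation "Kb" => AlgebraicClosure ℚ

attribute [local instance] s29a_algebraC

section Gen

variable (M q : ℕ) [NeZero M] [hq : Fact q.Prime] {p : ℕ} [NeZero p]

/-- `α_*` on Kummer generators (arbitrary `M, q`). -/
theorem s59u_push_alpha2 (D : Divisor.degZero (K := Kb) (F := ffi_F (M * q)))
    (f : ffi_F (M * q)) (hf : f ≠ 0)
    (hDf : ∀ v : Place Kb (ffi_F (M * q)),
      v.ord f = (p : ℤ) * (D : Divisor Kb (ffi_F (M * q))) v) :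
    s37e_normAlpha M q f ≠ 0 ∧ ∃ D₀ : Divisor.degZero (K := Kb) (F := ffi_F M),
      s36w_alphaPush M q (Pic0.mk D) = Pic0.mk D₀ ∧
      ∀ v : Place Kb (ffi_F M),
        v.ord (s37e_normAlpha M q f) = (p : ℤ) * (D₀ : Divisor Kb (ffi_F M)) v := by
  refine ⟨?_, s35c_degZeroPush (heckeAlphaBar Kb M q) (s36w_alphaIntegral M q) D,
    s36w_alphaPush_mk' M q D, fun v => ?_⟩
  · unfold s37e_normAlpha
    letI := algebraAlong (heckeAlphaBar Kb M q)
    haveI : Module.Finite ↥(laurentBaseChange Kb (modularFunctionFieldFull M))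
        ↥(laurentBaseChange Kb (modularFunctionFieldFull (M * q))) :=
      s36w_finite_alpha M q
    haveI : Module.Free ↥(laurentBaseChange Kb (modularFunctionFieldFull M))
        ↥(laurentBaseChange Kb (modularFunctionFieldFull (M * q))) :=
      Module.Free.of_divisionRing _ _
    exact Algebra.norm_ne_zero_iff.mpr hf
  · rw [s35c_coe_degZeroPush]
    exact (s33t_kumGen_push _ _ (s36w_finite_alpha M q)
      (s37h_normFormulaAlong _ (s36w_finite_alpha M q)) p _ f hf
      (fun w => (hDf w).symm) v).symm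

/-- `β_*` on Kummer generators (arbitrary `M, q`). -/
theorem s59u_push_beta2 (D : Divisor.degZero (K := Kb) (F := ffi_F (M * q)))
    (f : ffi_F (M * q)) (hf : f ≠ 0)
    (hDf : ∀ v : Place Kb (ffi_F (M * q)),
      v.ord f = (p : ℤ) * (D : Divisor Kb (ffi_F (M * q))) v) :
    s59u_normBeta M q f ≠ 0 ∧ ∃ D₀ : Divisor.degZero (K := Kb) (F := ffi_F M),
      s36w_betaPush M q (Pic0.mk D) = Pic0.mk D₀ ∧
      ∀ v : Place Kb (ffi_F M),
        v.ord (s59u_normBeta M q f) = (p : ℤ) * (D₀ : Divisor Kb (ffi_F M)) v := by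
  refine ⟨?_, s35c_degZeroPush (heckeBetaBar Kb M q) (s36w_betaIntegral M q) D,
    s36w_betaPush_mk' M q D, fun v => ?_⟩
  · unfold s59u_normBeta
    letI := algebraAlong (heckeBetaBar Kb M q)
    haveI : Module.Finite ↥(laurentBaseChange Kb (modularFunctionFieldFull M))
        ↥(laurentBaseChange Kb (modularFunctionFieldFull (M * q))) :=
      s36w_finite_beta M q
    haveI : Module.Free ↥(laurentBaseChange Kb (modularFunctionFieldFull M))
        ↥(laurentBaseChange Kb (modularFunctionFieldFull (M * q))) :=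
      Module.Free.of_divisionRing _ _
    exact Algebra.norm_ne_zero_iff.mpr hf
  · rw [s35c_coe_degZeroPush]
    exact (s33t_kumGen_push _ _ (s36w_finite_beta M q)
      (s37h_normFormulaAlong _ (s36w_finite_beta M q)) p _ f hf
      (fun w => (hDf w).symm) v).symm

end Gen

/-! ### The concrete statements -/

section Push

variable (M q : ℕ) [NeZero M] [hq : Fact q.Prime] (hqM : q ∣ M) (p : ℕ) [NeZero p]

/-- **`κ_M (α_* z) = cor_A2 (κ_{M q} z)`**, `q ∣ M`. -/
theorem s59u_kappa_alphaPush2 (z : s29k_Jp (M * q) p) (z' : s29k_Jp M p)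
    (hz' : (z' : JZero M) = s36w_alphaPush M q (z : JZero (M * q))) :
    s59b_kappa M p z' = s59u_corA2 M q hqM (ZMod p) (s59b_kappa (M * q) p z) := by
  haveI : NeZero (M * q) := ⟨mul_ne_zero (NeZero.ne M) hq.out.ne_zero⟩
  haveI : FFGen Kb (s29bp_jK Kb M) := s29bp_ffGen (algebraMap Kb ℂ) M
  haveI : FFGen ℂ (s29bp_jK ℂ M) := s29bp_ffGen (RingHom.id ℂ) M
  haveI : FFGen Kb (s29bp_jK Kb (M * q)) := s29bp_ffGen (algebraMap Kb ℂ) (M * q)
  haveI : FFGen ℂ (s29bp_jK ℂ (M * q)) := s29bp_ffGen (RingHom.id ℂ) (M * q)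
  exact s59b_kappaC_push s59b_iota M q (s59b_hB (M * q) p)
    (s29a_j (K1 := ℂ) (M * q)) (s29a_phi_j (RingHom.id ℂ) (M * q))
    (s59b_hB M p) (s29a_j (K1 := ℂ) M) (s29a_phi_j (RingHom.id ℂ) M)
    (s29a_c (K1 := ℂ) (M * q)) (s29a_hc (M * q) p) (fun x => s59b_ct (M * q) p x) (fun x => rfl)
    (s29a_c (K1 := ℂ) M) (s29a_hc M p) (fun x => s59b_ct M p x) (fun x => rfl)
    (s36w_alphaPush M q) (s37e_normAlpha M q) (s59u_corA2 M q hqM (ZMod p))
    (fun D f hf hDf => s59u_push_alpha2 M q D f hf hDf)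
    (fun _ _ h => s59u_mdata_alphaPush2 s59b_iota M q hqM h) z z' hz'

/-- **`κ_M (β_* z) = cor_B2 (κ_{M q} z)`**, `q ∣ M`. -/
theorem s59u_kappa_betaPush2 (z : s29k_Jp (M * q) p) (z' : s29k_Jp M p)
    (hz' : (z' : JZero M) = s36w_betaPush M q (z : JZero (M * q))) :
    s59b_kappa M p z' = s59u_corB2 M q hqM (ZMod p) (s59b_kappa (M * q) p z) := by
  haveI : NeZero (M * q) := ⟨mul_ne_zero (NeZero.ne M) hq.out.ne_zero⟩
  haveI : FFGen Kb (s29bp_jK Kb M) := s29bp_ffGen (algebraMap Kb ℂ) M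
  haveI : FFGen ℂ (s29bp_jK ℂ M) := s29bp_ffGen (RingHom.id ℂ) M
  haveI : FFGen Kb (s29bp_jK Kb (M * q)) := s29bp_ffGen (algebraMap Kb ℂ) (M * q)
  haveI : FFGen ℂ (s29bp_jK ℂ (M * q)) := s29bp_ffGen (RingHom.id ℂ) (M * q)
  exact s59b_kappaC_push s59b_iota M q (s59b_hB (M * q) p)
    (s29a_j (K1 := ℂ) (M * q)) (s29a_phi_j (RingHom.id ℂ) (M * q))
    (s59b_hB M p) (s29a_j (K1 := ℂ) M) (s29a_phi_j (RingHom.id ℂ) M)
    (s29a_c (K1 := ℂ) (M * q)) (s29a_hc (M * q) p) (fun x => s59b_ct (M * q) p x) (fun x => rfl)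
    (s29a_c (K1 := ℂ) M) (s29a_hc M p) (fun x => s59b_ct M p x) (fun x => rfl)
    (s36w_betaPush M q) (s59u_normBeta M q) (s59u_corB2 M q hqM (ZMod p))
    (fun D f hf hDf => s59u_push_beta2 M q D f hf hDf)
    (fun _ _ h => s59u_mdata_betaPush2 s59b_iota M q hqM h) z z' hz'

/-- the restriction of `α_*` to the `p`-torsion. -/
def s59u_alphaJp2 : s29k_Jp (M * q) p →+ s29k_Jp M p :=
  ((s36w_alphaPush M q).comp
    (Pic0.torsion Kb (modularFunctionFieldBar (M * q)) p).subtype).codRestrict _ (fun x => by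
      rw [Pic0.mem_torsion]
      show (p : ℤ) • (s36w_alphaPush M q) (x : JZero (M * q)) = 0
      rw [← map_zsmul, Pic0.mem_torsion.mp x.2, map_zero])

/-- the restriction of `β_*` to the `p`-torsion. -/
def s59u_betaJp2 : s29k_Jp (M * q) p →+ s29k_Jp M p :=
  ((s36w_betaPush M q).comp
    (Pic0.torsion Kb (modularFunctionFieldBar (M * q)) p).subtype).codRestrict _ (fun x => by
      rw [Pic0.mem_torsion]
      show (p : ℤ) • (s36w_betaPush M q) (x : JZero (M * q)) = 0
      rw [← map_zsmul, Pic0.mem_torsion.mp x.2, map_zero])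

theorem s59u_alphaJp2_coe (z : s29k_Jp (M * q) p) :
    ((s59u_alphaJp2 M q p z : s29k_Jp M p) : JZero M) =
      s36w_alphaPush M q (z : JZero (M * q)) := rfl

theorem s59u_betaJp2_coe (z : s29k_Jp (M * q) p) :
    ((s59u_betaJp2 M q p z : s29k_Jp M p) : JZero M) =
      s36w_betaPush M q (z : JZero (M * q)) := rfl

/-- **κ–push compatibility, bundled form**: `κ_M ∘ α_* = cor_A2 ∘ κ_{M q}`. -/
theorem s59u_kappa_comp_alphaJp2 :
    (s59b_kappa M p).comp (s59u_alphaJp2 M q p) =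
      (s59u_corA2 M q hqM (ZMod p)).comp (s59b_kappa (M * q) p) :=
  AddMonoidHom.ext fun z => s59u_kappa_alphaPush2 M q hqM p z _ rfl

/-- **κ–push compatibility, bundled form**: `κ_M ∘ β_* = cor_B2 ∘ κ_{M q}`. -/
theorem s59u_kappa_comp_betaJp2 :
    (s59b_kappa M p).comp (s59u_betaJp2 M q p) =
      (s59u_corB2 M q hqM (ZMod p)).comp (s59b_kappa (M * q) p) :=
  AddMonoidHom.ext fun z => s59u_kappa_betaPush2 M q hqM p z _ rfl

end Push

end

end Fermat.Agent.Lib.S59
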