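/-
Programme (R) = S59, node (NN)-2(b′) (helper3), closing file: **helper2's named hypotheses
`s59b_PushA`, `s59b_PushB` (BNKinf.lean) are theorems.**

`s59b_PushA M q hqM` : `κ_n (α_* z) = cor_A2 (κ_n z)` for every modulus `n ≠ 0` (`q ∣ M` prime);
`s59b_PushB M q hqM` : the same for `β_*`/`cor_B2`.  Proofs: `s59u_kappa_alphaPush2`,
`s59u_kappa_betaPush2` (UPush.lean) through helper2's `s59b_pushA_of_kappa`, `s59b_pushB_of_kappa`
(BNBridge.lean).
-/
import Mathlib
import Fermat.Agent.Lib.S59.UPush
import Fermat.Agent.Lib.S59.BNBridge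

set_option autoImplicit false
set_option linter.unusedSectionVars false
set_option linter.style.haveILetI false

open AlgebraicCurve ModularCurve CongruenceSubgroup

namespace Fermat.Agent.Lib.S59

open Fermat.Agent.Lib.S29 Fermat.Agent.Lib.S30 Fermat.Agent.Lib.S36 Fermat.Agent.Lib.S41

noncomputable section

variable (M q : ℕ) [NeZero M] [hq : Fact q.Prime] (hqM : q ∣ M)

/-- **(b′) for `α_*`**: helper2's hypothesis `s59b_PushA` holds. -/
theorem s59u_PushA : s59b_PushA M q hqM :=
  s59b_pushA_of_kappa M q hqM fun n _ z z' hz => s59u_kappa_alphaPush2 M q hqM n z z' hz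

/-- **(b′) for `β_*`**: helper2's hypothesis `s59b_PushB` holds. -/
theorem s59u_PushB : s59b_PushB M q hqM :=
  s59b_pushB_of_kappa M q hqM fun n _ z z' hz => s59u_kappa_betaPush2 M q hqM n z z' hz

end

end Fermat.Agent.Lib.S59
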