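/-
Programme (R) = S59, node C3-rest (helper3), file 4: **the (NN)-input `hNN` of (K-END), fully wired.**

Data at a characteristic-zero point `𝒪` (a complete discrete valuation ring, finite over `ℤ_p`):
* the level `M = N ∏ Q`, `H ⊇ {u ≡ 1 mod ∏ Q}`;
* `θ : (ℤ/M)ˣ →* 𝒪ˣ` trivial on `H`, with values in a subgroup `μ` without `2`-torsion;
* an eigenclass `φ ≠ 0` in `H¹_par(Γ_H, 𝒪)`: `⟨d⟩ φ = θ(d)² φ`, `T_ℓ φ = a_ℓ φ`;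
* `ρ` with Frobenius polynomials `X² − θ(ℓ)⁻¹ a_ℓ X + ℓ` (and every such `ρ` residually absolutely
  irreducible).
Then for every `q₀ ∈ Q`, `q₀ ≠ p`, and every place `A | q₀`:
`(∀ σ ∈ I_A, θ(ε_M σ) = 1) ∨ ∃ σ ∈ I_A, charpoly ρ(σ) ≠ (X − 1)²`   (`s59u_hNN`),
which is `hNN` of helper2's `s59b_KEND_theta` (`s59b_stwM θ σ = θ (s59b_epsM M σ)` by `rfl`).

Chain: `s59u_exists_chi_theta` (the `χ_q`) → `s59u_TwistNew_int` (a `q₀`-new class `Φ` of level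
`M' q₀²` with eigenvalues `θ(ℓ)⁻¹ a_ℓ`) → `s59u_exists_heckeChar` (`χ : 𝕋 →+* 𝒪`) → helper2's
`s59b_hnew_chi` + `s59u_PushA/B` (`hnew`) → helper1's `s59k_NN`.
-/
import Mathlib
import Fermat.Agent.Lib.S59.UNewF
import Fermat.Agent.Lib.S59.UPushFinal
import Fermat.Agent.Lib.S59.UNNChar
import Fermat.Agent.Lib.S59.UNNChi
import Fermat.Agent.Lib.S59.UNNEps
import Fermat.Agent.Lib.S59.KNN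

set_option autoImplicit false
set_option linter.unusedSectionVars false
set_option linter.unusedVariables false
set_option linter.style.haveILetI false

noncomputable section

namespace Fermat.Agent.Lib.S59

open Polynomial IsLocalRing
open Fermat.Agent.Lib.S48 Fermat.Agent.Lib.ES Fermat.Agent.Lib.S29 Fermat.Agent.Lib.S30
  Fermat.Agent.Lib.S31 Fermat.Agent.Lib.S35 Fermat.Agent.Lib.S36 Fermat.Agent.Lib.S41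
  CongruenceSubgroup ModularCurve.Period
open scoped MatrixGroups TensorProduct

local notation "Qbar" => AlgebraicClosure ℚ
local notation "GQ" => (AlgebraicClosure ℚ ≃ₐ[ℚ] AlgebraicClosure ℚ)

section Core

variable (N : ℕ) [NeZero N] (Q : Finset ℕ) [NeZero (N * ∏ q ∈ Q, q)]

/-- **`hNN`, level written `N ∏ Q`, strong form**: in the left alternative `θ` is trivial on every
unit `≡ 1 mod M / q₀`. -/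
theorem s59u_hNN_core_strong (hQ : ∀ q ∈ Q, q.Prime ∧ ¬ q ∣ N)
    (H : Subgroup (ZMod (N * ∏ q ∈ Q, q))ˣ)
    (hH : s59u_ker (N * ∏ q ∈ Q, q) (∏ q ∈ Q, q) (dvd_mul_left _ _) ≤ H)
    (p : ℕ) [Fact p.Prime]
    (𝒪 : Type) [CommRing 𝒪] [IsDomain 𝒪] [IsDiscreteValuationRing 𝒪]
    [IsAdicComplete (maximalIdeal 𝒪) 𝒪] [Finite (ResidueField 𝒪)] [CharZero 𝒪] [Algebra ℤ_[p] 𝒪]
    (hp𝒪 : (p : 𝒪) ∈ maximalIdeal 𝒪)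
    (θ : (ZMod (N * ∏ q ∈ Q, q))ˣ →* 𝒪ˣ) (hθH : ∀ d ∈ H, θ d = 1)
    (μ : Subgroup 𝒪ˣ) (hμ : ∀ x ∈ μ, x ^ 2 = 1 → x = 1)
    (hθμ : ∀ d : (ZMod (N * ∏ q ∈ Q, q))ˣ, θ d ∈ μ)
    (a : ℕ → 𝒪)
    (φ : Additive (s48h_GammaH (N * ∏ q ∈ Q, q) H) →+ 𝒪) (hφ0 : φ ≠ 0)
    (hpar : IsParabolicHom (s48h_GammaH (N * ∏ q ∈ Q, q) H) φ)
    (hdiam : ∀ (σ : SL(2, ℤ)) (hσ : σ ∈ Gamma0 (N * ∏ q ∈ Q, q))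
      (du : (ZMod (N * ∏ q ∈ Q, q))ˣ),
      ((du : (ZMod (N * ∏ q ∈ Q, q))ˣ) : ZMod (N * ∏ q ∈ Q, q))
        = ((σ 1 1 : ℤ) : ZMod (N * ∏ q ∈ Q, q)) →
      s48h_diamondH H σ hσ 𝒪 φ = (((θ du : 𝒪ˣ) : 𝒪) ^ 2) • φ)
    (heig : ∀ (ℓ : ℕ) [Fact ℓ.Prime] (hℓ : ¬ ℓ ∣ N * ∏ q ∈ Q, q) (σ : SL(2, ℤ))
      (hσ : σ ∈ Gamma0 (N * ∏ q ∈ Q, q))
      (hσ11 : ((σ 1 1 : ℤ) : ZMod (N * ∏ q ∈ Q, q)) = (ℓ : ZMod (N * ∏ q ∈ Q, q))),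
      s48h_TpH H hℓ σ hσ hσ11 𝒪 φ = a ℓ • φ)
    (S : Finset ℕ) (hpS : p ∈ S) (hMS : ∀ r : ℕ, r.Prime → r ∣ N * ∏ q ∈ Q, q → r ∈ S)
    (hres : ∀ ρ : GaloisRepAdic 𝒪,
      (∀ ℓ : ℕ, ℓ.Prime → ℓ ∉ S → ∀ ℓu : (ZMod (N * ∏ q ∈ Q, q))ˣ,
        ((ℓu : (ZMod (N * ∏ q ∈ Q, q))ˣ) : ZMod (N * ∏ q ∈ Q, q)) = (ℓ : ZMod (N * ∏ q ∈ Q, q)) →
        ∀ P : ValuationSubring Qbar, P.LiesOverPrime ℓ → ∀ σ : GQ, P.IsFrobeniusAt σ ℓ →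
          (ρ.ρ σ).charpoly = X ^ 2 - C ((((θ ℓu)⁻¹ : 𝒪ˣ) : 𝒪) * a ℓ) * X + C (ℓ : 𝒪)) →
      ρ.residual.IsAbsolutelyIrreducible)
    (ρ : GaloisRepAdic 𝒪)
    (hρ : ∀ ℓ : ℕ, ℓ.Prime → ℓ ∉ S → ∀ ℓu : (ZMod (N * ∏ q ∈ Q, q))ˣ,
        ((ℓu : (ZMod (N * ∏ q ∈ Q, q))ˣ) : ZMod (N * ∏ q ∈ Q, q)) = (ℓ : ZMod (N * ∏ q ∈ Q, q)) →
        ∀ P : ValuationSubring Qbar, P.LiesOverPrime ℓ → ∀ σ : GQ, P.IsFrobeniusAt σ ℓ →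
          (ρ.ρ σ).charpoly = X ^ 2 - C ((((θ ℓu)⁻¹ : 𝒪ˣ) : 𝒪) * a ℓ) * X + C (ℓ : 𝒪))
    (q₀ : ℕ) (hq₀ : q₀ ∈ Q) (hq₀p : q₀ ≠ p)
    (A : ValuationSubring Qbar) (hA : A.LiesOverPrime q₀) :
    (∀ L₀ : ℕ, N * ∏ q ∈ Q, q = L₀ * q₀ → ∀ (x : ℤ) (du : (ZMod (N * ∏ q ∈ Q, q))ˣ),
        ((du : (ZMod (N * ∏ q ∈ Q, q))ˣ) : ZMod (N * ∏ q ∈ Q, q))
          = ((x : ℤ) : ZMod (N * ∏ q ∈ Q, q)) → (L₀ : ℤ) ∣ x - 1 → θ du = 1) ∨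
      ∃ σ ∈ A.inertiaSubgroupIn ℚ, (ρ.ρ σ).charpoly ≠ (X - 1) ^ 2 := by
  classical
  obtain ⟨χ, hχ1, hχ2⟩ := s59u_exists_chi_theta N Q hQ θ (fun d hd => hθH d (hH hd))
  have hdich : ∀ q ∈ Q, χ q = 1 ∨ (χ q) ^ 2 ≠ 1 := fun q hq =>
    s59u_chi_dichotomy μ hμ (χ q) (fun b => by
      obtain ⟨d, hd⟩ := hχ1 q hq b
      exact ⟨θ d, hθμ d, hd⟩)
  have hq₀pr : q₀.Prime := (hQ q₀ hq₀).1
  haveI : Fact q₀.Prime := ⟨hq₀pr⟩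
  haveI : NeZero q₀ := ⟨hq₀pr.ne_zero⟩
  have hcop : Nat.Coprime (N * ∏ r ∈ Q.erase q₀, r) q₀ := s59w_coprime_erase N Q hQ hq₀
  have hMq : N * ∏ q ∈ Q, q = (N * ∏ r ∈ Q.erase q₀, r) * q₀ := (s59w_erase_mul N Q hq₀).symm
  by_cases hχq₀ : χ q₀ = 1
  · -- the twist is unramified at `q₀`
    left
    intro L₀ hL₀ x du hdu hdvd
    have hL₀eq : L₀ = N * ∏ r ∈ Q.erase q₀, r :=
      Nat.eq_of_mul_eq_mul_right hq₀pr.pos (hL₀.symm.trans hMq)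
    rw [hL₀eq] at hdvd
    have h1 := hχ2 x du hdu
    have hprod : ∏ q ∈ Q, χ q ((x : ℤ) : ZMod q) = 1 := by
      refine Finset.prod_eq_one fun q hq => ?_
      by_cases hqq : q = q₀
      · rw [hqq, hχq₀]
        refine MulChar.one_apply ?_
        exact s59u_isUnit_cast_of_isCoprime (Dvd.intro_left _ hMq.symm) (s59u_isCoprime_of_unit hdu)
      · have hqr : q ∈ Q.erase q₀ := Finset.mem_erase.mpr ⟨hqq, hq⟩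
        have h2 : ((x : ℤ) : ZMod q) = 1 :=
          s59u_cast_eq_one_of_dvd (L₀ := N * ∏ r ∈ Q.erase q₀, r)
            (Dvd.dvd.mul_left (Finset.dvd_prod_of_mem (fun r' => r') hqr) N) hdvd
        rw [h2, map_one]
    rw [hprod, one_mul] at h1
    exact Units.ext (by rw [h1, Units.val_one])
  · -- the twist is ramified at `q₀`: the `q₀`-new chain
    right
    have hχsq : (χ q₀) ^ 2 ≠ 1 := (hdich q₀ hq₀).resolve_left hχq₀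
    -- `ψ = θ²` on the integers
    let ψZ : ℤ → 𝒪 := fun d =>
      if h : IsCoprime d ((N * ∏ q ∈ Q, q : ℕ) : ℤ) then
        (((θ (s59u_intUnit (N * ∏ q ∈ Q, q) d h) : 𝒪ˣ) : 𝒪) ^ 2) else 0
    have hψZ : ∀ (d : ℤ) (du : (ZMod (N * ∏ q ∈ Q, q))ˣ),
        ((du : (ZMod (N * ∏ q ∈ Q, q))ˣ) : ZMod (N * ∏ q ∈ Q, q))
          = ((d : ℤ) : ZMod (N * ∏ q ∈ Q, q)) → ψZ d = ((θ du : 𝒪ˣ) : 𝒪) ^ 2 := by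
      intro d du hdu
      have hd := s59u_isCoprime_of_unit hdu
      show (if h : IsCoprime d ((N * ∏ q ∈ Q, q : ℕ) : ℤ) then
        (((θ (s59u_intUnit (N * ∏ q ∈ Q, q) d h) : 𝒪ˣ) : 𝒪) ^ 2) else 0) = _
      rw [dif_pos hd]
      have h3 : s59u_intUnit (N * ∏ q ∈ Q, q) d hd = du :=
        s59u_unit_ext (s59u_intUnit_coe _ d hd) hdu (by simp)
      rw [h3]
    have hψper : ∀ x y : ℤ, ((N * ∏ q ∈ Q, q : ℕ) : ℤ) ∣ x - y → ψZ x = ψZ y := by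
      intro x y hxy
      have hcast : ((x : ℤ) : ZMod (N * ∏ q ∈ Q, q)) = ((y : ℤ) : ZMod (N * ∏ q ∈ Q, q)) := by
        rw [ZMod.intCast_eq_intCast_iff_dvd_sub]
        have h1 : y - x = -(x - y) := by ring
        rw [h1]
        exact (dvd_neg).mpr hxy
      have hiff : IsCoprime x ((N * ∏ q ∈ Q, q : ℕ) : ℤ) ↔
          IsCoprime y ((N * ∏ q ∈ Q, q : ℕ) : ℤ) := by
        constructor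
        · intro h
          have h2 := (ZMod.coe_int_isUnit_iff_isCoprime x (N * ∏ q ∈ Q, q)).mpr h.symm
          rw [hcast] at h2
          exact ((ZMod.coe_int_isUnit_iff_isCoprime y (N * ∏ q ∈ Q, q)).mp h2).symm
        · intro h
          have h2 := (ZMod.coe_int_isUnit_iff_isCoprime y (N * ∏ q ∈ Q, q)).mpr h.symm
          rw [← hcast] at h2
          exact ((ZMod.coe_int_isUnit_iff_isCoprime x (N * ∏ q ∈ Q, q)).mp h2).symm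
      by_cases hx : IsCoprime x ((N * ∏ q ∈ Q, q : ℕ) : ℤ)
      · rw [hψZ x (s59u_intUnit _ x hx) (s59u_intUnit_coe _ x hx),
          hψZ y (s59u_intUnit _ x hx) (by rw [s59u_intUnit_coe, hcast])]
      · have hy : ¬ IsCoprime y ((N * ∏ q ∈ Q, q : ℕ) : ℤ) := fun h => hx (hiff.mpr h)
        show (if h : IsCoprime x ((N * ∏ q ∈ Q, q : ℕ) : ℤ) then _ else 0) =
          (if h : IsCoprime y ((N * ∏ q ∈ Q, q : ℕ) : ℤ) then _ else 0)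
        rw [dif_neg hx, dif_neg hy]
    have hψχ : ∀ d : ℤ, IsCoprime d ((N * ∏ q ∈ Q, q : ℕ) : ℤ) →
        ψZ d * ∏ q ∈ Q, (χ q ((d : ℤ) : ZMod q)) ^ 2 = 1 := by
      intro d hd
      have h1 := hχ2 d (s59u_intUnit _ d hd) (s59u_intUnit_coe _ d hd)
      rw [hψZ d _ (s59u_intUnit_coe _ d hd), Finset.prod_pow, ← mul_pow, mul_comm, h1, one_pow]
    have hdiamZ : ∀ (σ : SL(2, ℤ)) (hσ : σ ∈ Gamma0 (N * ∏ q ∈ Q, q)),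
        s48h_diamondH H σ hσ 𝒪 φ = ψZ (σ 1 1) • φ := by
      intro σ hσ
      have hcσ : IsCoprime (σ 1 1) ((N * ∏ q ∈ Q, q : ℕ) : ℤ) := s59u_coprime_lowerRight hσ
      rw [hψZ (σ 1 1) (s59u_intUnit _ _ hcσ) (s59u_intUnit_coe _ _ hcσ)]
      exact hdiam σ hσ _ (s59u_intUnit_coe _ _ hcσ)
    -- the level `M' q₀²`
    obtain ⟨M', hM'⟩ : ∃ M' : ℕ, M' = N * (∏ q ∈ Q.erase q₀, q) * ∏ q ∈ Q.erase q₀, q := ⟨_, rfl⟩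
    have hprod0 : (∏ q ∈ Q.erase q₀, q) ≠ 0 :=
      Finset.prod_ne_zero_iff.mpr fun q hq => (hQ q (Finset.mem_of_mem_erase hq)).1.ne_zero
    haveI : NeZero M' := ⟨by
      rw [hM']; exact mul_ne_zero (mul_ne_zero (NeZero.ne N) hprod0) hprod0⟩
    have hq₀M' : ¬ q₀ ∣ M' := by
      rw [hM']
      intro h
      have h1 : ¬ q₀ ∣ N * ∏ q ∈ Q.erase q₀, q := fun h2 =>
        hq₀pr.one_lt.ne' (Nat.eq_one_of_dvd_coprimes hcop h2 dvd_rfl)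
      rcases (hq₀pr.dvd_mul).mp h with h2 | h2
      · exact h1 h2
      · exact h1 (Dvd.dvd.mul_left h2 N)
    have hNS : ∀ r : ℕ, r.Prime → r ∣ M' * q₀ * q₀ → r ∈ S := by
      intro r hr hdvd
      apply hMS r hr
      rw [hMq]
      rcases (hr.dvd_mul).mp hdvd with h | h
      · rcases (hr.dvd_mul).mp h with h' | h'
        · rw [hM'] at h'
          rcases (hr.dvd_mul).mp h' with h'' | h''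
          · exact Dvd.dvd.mul_right h'' q₀
          · exact Dvd.dvd.mul_right (Dvd.dvd.mul_left h'' N) q₀
        · exact Dvd.dvd.mul_left h' _
      · exact Dvd.dvd.mul_left h _
    obtain ⟨Φ, hΦpar, hΦ0, hΦeig, hcA, hcB⟩ := s59u_TwistNew_int N Q 𝒪 hQ H hH χ hdich ψZ hψper
      hψχ a φ hφ0 hpar hdiamZ heig q₀ hq₀ hχsq M' hM'
    -- the eigenvalues
    obtain ⟨y, hy⟩ : ∃ y : ℕ → 𝒪, y = fun ℓ => (∏ q ∈ Q, χ q (ℓ : ZMod q)) * a ℓ := ⟨_, rfl⟩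
    have hyθ : ∀ (ℓ : ℕ) (ℓu : (ZMod (N * ∏ q ∈ Q, q))ˣ),
        ((ℓu : (ZMod (N * ∏ q ∈ Q, q))ˣ) : ZMod (N * ∏ q ∈ Q, q)) = (ℓ : ZMod (N * ∏ q ∈ Q, q)) →
        y ℓ = (((θ ℓu)⁻¹ : 𝒪ˣ) : 𝒪) * a ℓ := by
      intro ℓ ℓu hℓu
      have h1 := hχ2 (ℓ : ℤ) ℓu (by rw [hℓu, Int.cast_natCast])
      simp only [Int.cast_natCast] at h1
      have h2 : (∏ q ∈ Q, χ q (ℓ : ZMod q)) = (((θ ℓu)⁻¹ : 𝒪ˣ) : 𝒪) := by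
        calc (∏ q ∈ Q, χ q (ℓ : ZMod q))
            = (∏ q ∈ Q, χ q (ℓ : ZMod q)) * (((θ ℓu : 𝒪ˣ) : 𝒪) * (((θ ℓu)⁻¹ : 𝒪ˣ) : 𝒪)) := by
              rw [Units.mul_inv, mul_one]
          _ = (((θ ℓu)⁻¹ : 𝒪ˣ) : 𝒪) := by rw [← mul_assoc, h1, one_mul]
      rw [hy]
      show (∏ q ∈ Q, χ q (ℓ : ZMod q)) * a ℓ = _
      rw [h2]
    have hLS : ∀ r : ℕ, r.Prime → r ∣ M' * q₀ * q₀ → r ∈ (↑S : Set ℕ) :=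
      fun r hr h => Finset.mem_coe.mpr (hNS r hr h)
    obtain ⟨χH, hχH⟩ := s59u_exists_heckeChar (M' * q₀ * q₀) (↑S : Set ℕ) 𝒪 hLS y Φ hΦpar hΦ0
      (fun ℓ _ hℓN _ => by rw [hy]; exact hΦeig ℓ hℓN)
    have hnew := s59b_hnew_chi (M' * q₀) q₀ (dvd_mul_left q₀ M') p
      (s59u_PushA (M' * q₀) q₀ (dvd_mul_left q₀ M')) (s59u_PushB (M' * q₀) q₀ (dvd_mul_left q₀ M'))
      (↑S : Set ℕ) 𝒪 χH Φ hΦpar hΦ0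
      (fun ℓ hℓ hℓN hℓS => by
        haveI : Fact ℓ.Prime := ⟨hℓ⟩
        rw [hχH ℓ hℓ hℓN hℓS, hy]
        exact hΦeig ℓ hℓN) hcA hcB
    -- the unit of `ℓ`
    have hunit : ∀ ℓ : ℕ, ℓ.Prime → ℓ ∉ S → ∃ ℓu : (ZMod (N * ∏ q ∈ Q, q))ˣ,
        ((ℓu : (ZMod (N * ∏ q ∈ Q, q))ˣ) : ZMod (N * ∏ q ∈ Q, q)) = (ℓ : ZMod (N * ∏ q ∈ Q, q)) := by
      intro ℓ hℓ hℓS
      have hℓM : ¬ ℓ ∣ N * ∏ q ∈ Q, q := fun h => hℓS (hMS ℓ hℓ h)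
      have hcopℓ : Nat.Coprime ℓ (N * ∏ q ∈ Q, q) := (Nat.Prime.coprime_iff_not_dvd hℓ).mpr hℓM
      exact ⟨ZMod.unitOfCoprime ℓ hcopℓ, ZMod.coe_unitOfCoprime ℓ hcopℓ⟩
    refine s59k_NN p M' q₀ hq₀pr hq₀p hq₀M' S hpS hNS 𝒪 hp𝒪 χH ?_ hnew ρ ?_ A hA
    · intro ρ' hρ'
      refine hres ρ' fun ℓ hℓ hℓS ℓu hℓu P hP σ hσ => ?_
      have hℓN : ¬ ℓ ∣ M' * q₀ * q₀ := fun h => hℓS (hNS ℓ hℓ h)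
      have hℓS' : ℓ ∉ (↑S : Set ℕ) := fun h => hℓS (Finset.mem_coe.mp h)
      rw [hρ' ℓ hℓ hℓN hℓS' P hP σ hσ, hχH ℓ hℓ hℓN hℓS', hyθ ℓ ℓu hℓu]
    · intro ℓ hℓ hℓN hℓS' P hP σ hσ
      have hℓS : ℓ ∉ S := fun h => hℓS' (Finset.mem_coe.mpr h)
      obtain ⟨ℓu, hℓu⟩ := hunit ℓ hℓ hℓS
      rw [hρ ℓ hℓ hℓS ℓu hℓu P hP σ hσ, hχH ℓ hℓ hℓN hℓS', hyθ ℓ ℓu hℓu]

/-- **`hNN`, level written `N ∏ Q`.** -/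
theorem s59u_hNN_core (hQ : ∀ q ∈ Q, q.Prime ∧ ¬ q ∣ N)
    (H : Subgroup (ZMod (N * ∏ q ∈ Q, q))ˣ)
    (hH : s59u_ker (N * ∏ q ∈ Q, q) (∏ q ∈ Q, q) (dvd_mul_left _ _) ≤ H)
    (p : ℕ) [Fact p.Prime]
    (𝒪 : Type) [CommRing 𝒪] [IsDomain 𝒪] [IsDiscreteValuationRing 𝒪]
    [IsAdicComplete (maximalIdeal 𝒪) 𝒪] [Finite (ResidueField 𝒪)] [CharZero 𝒪] [Algebra ℤ_[p] 𝒪]
    (hp𝒪 : (p : 𝒪) ∈ maximalIdeal 𝒪)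
    (θ : (ZMod (N * ∏ q ∈ Q, q))ˣ →* 𝒪ˣ) (hθH : ∀ d ∈ H, θ d = 1)
    (μ : Subgroup 𝒪ˣ) (hμ : ∀ x ∈ μ, x ^ 2 = 1 → x = 1)
    (hθμ : ∀ d : (ZMod (N * ∏ q ∈ Q, q))ˣ, θ d ∈ μ)
    (a : ℕ → 𝒪)
    (φ : Additive (s48h_GammaH (N * ∏ q ∈ Q, q) H) →+ 𝒪) (hφ0 : φ ≠ 0)
    (hpar : IsParabolicHom (s48h_GammaH (N * ∏ q ∈ Q, q) H) φ)
    (hdiam : ∀ (σ : SL(2, ℤ)) (hσ : σ ∈ Gamma0 (N * ∏ q ∈ Q, q))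
      (du : (ZMod (N * ∏ q ∈ Q, q))ˣ),
      ((du : (ZMod (N * ∏ q ∈ Q, q))ˣ) : ZMod (N * ∏ q ∈ Q, q))
        = ((σ 1 1 : ℤ) : ZMod (N * ∏ q ∈ Q, q)) →
      s48h_diamondH H σ hσ 𝒪 φ = (((θ du : 𝒪ˣ) : 𝒪) ^ 2) • φ)
    (heig : ∀ (ℓ : ℕ) [Fact ℓ.Prime] (hℓ : ¬ ℓ ∣ N * ∏ q ∈ Q, q) (σ : SL(2, ℤ))
      (hσ : σ ∈ Gamma0 (N * ∏ q ∈ Q, q))
      (hσ11 : ((σ 1 1 : ℤ) : ZMod (N * ∏ q ∈ Q, q)) = (ℓ : ZMod (N * ∏ q ∈ Q, q))),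
      s48h_TpH H hℓ σ hσ hσ11 𝒪 φ = a ℓ • φ)
    (S : Finset ℕ) (hpS : p ∈ S) (hMS : ∀ r : ℕ, r.Prime → r ∣ N * ∏ q ∈ Q, q → r ∈ S)
    (hres : ∀ ρ : GaloisRepAdic 𝒪,
      (∀ ℓ : ℕ, ℓ.Prime → ℓ ∉ S → ∀ ℓu : (ZMod (N * ∏ q ∈ Q, q))ˣ,
        ((ℓu : (ZMod (N * ∏ q ∈ Q, q))ˣ) : ZMod (N * ∏ q ∈ Q, q)) = (ℓ : ZMod (N * ∏ q ∈ Q, q)) →
        ∀ P : ValuationSubring Qbar, P.LiesOverPrime ℓ → ∀ σ : GQ, P.IsFrobeniusAt σ ℓ →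
          (ρ.ρ σ).charpoly = X ^ 2 - C ((((θ ℓu)⁻¹ : 𝒪ˣ) : 𝒪) * a ℓ) * X + C (ℓ : 𝒪)) →
      ρ.residual.IsAbsolutelyIrreducible)
    (ρ : GaloisRepAdic 𝒪)
    (hρ : ∀ ℓ : ℕ, ℓ.Prime → ℓ ∉ S → ∀ ℓu : (ZMod (N * ∏ q ∈ Q, q))ˣ,
        ((ℓu : (ZMod (N * ∏ q ∈ Q, q))ˣ) : ZMod (N * ∏ q ∈ Q, q)) = (ℓ : ZMod (N * ∏ q ∈ Q, q)) →
        ∀ P : ValuationSubring Qbar, P.LiesOverPrime ℓ → ∀ σ : GQ, P.IsFrobeniusAt σ ℓ →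
          (ρ.ρ σ).charpoly = X ^ 2 - C ((((θ ℓu)⁻¹ : 𝒪ˣ) : 𝒪) * a ℓ) * X + C (ℓ : 𝒪))
    (q₀ : ℕ) (hq₀ : q₀ ∈ Q) (hq₀p : q₀ ≠ p)
    (A : ValuationSubring Qbar) (hA : A.LiesOverPrime q₀) :
    (∀ σ ∈ A.inertiaSubgroupIn ℚ, θ (s59b_epsM (N * ∏ q ∈ Q, q) σ) = 1) ∨
      ∃ σ ∈ A.inertiaSubgroupIn ℚ, (ρ.ρ σ).charpoly ≠ (X - 1) ^ 2 := by
  classical
  have hq₀pr : q₀.Prime := (hQ q₀ hq₀).1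
  have hcop : Nat.Coprime (N * ∏ r ∈ Q.erase q₀, r) q₀ := s59w_coprime_erase N Q hQ hq₀
  have hMq : N * ∏ q ∈ Q, q = (N * ∏ r ∈ Q.erase q₀, r) * q₀ := (s59w_erase_mul N Q hq₀).symm
  refine (s59u_hNN_core_strong N Q hQ H hH p 𝒪 hp𝒪 θ hθH μ hμ hθμ a φ hφ0 hpar hdiam heig S hpS hMS
    hres ρ hρ q₀ hq₀ hq₀p A hA).imp (fun h σ hσ => ?_) id
  have hdvd := s59u_epsM_inertia hMq hcop A hA σ hσ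
  exact h _ hMq _ (s59b_epsM (N * ∏ q ∈ Q, q) σ)
    (by rw [Int.cast_natCast, ZMod.natCast_zmod_val]) hdvd

end Core

section General

/-- **`hNN` of (K-END)** (helper2's `s59b_KEND_theta`; `s59b_stwM θ σ = θ (s59b_epsM M σ)` by `rfl`),
for a level `M = N ∏ Q` (`Q` a set of primes not dividing `N`) and `H ⊇ {u ≡ 1 mod ∏ Q}`. -/
theorem s59u_hNN (M : ℕ) [NeZero M] (N : ℕ) [NeZero N] (Q : Finset ℕ)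
    (hMeq : M = N * ∏ q ∈ Q, q) (hQ : ∀ q ∈ Q, q.Prime ∧ ¬ q ∣ N)
    (H : Subgroup (ZMod M)ˣ)
    (hH : ∀ (x : ℤ) (u : (ZMod M)ˣ), ((x : ℤ) : ZMod (∏ q ∈ Q, q)) = 1 →
      ((u : (ZMod M)ˣ) : ZMod M) = ((x : ℤ) : ZMod M) → u ∈ H)
    (p : ℕ) [Fact p.Prime]
    (𝒪 : Type) [CommRing 𝒪] [IsDomain 𝒪] [IsDiscreteValuationRing 𝒪]
    [IsAdicComplete (maximalIdeal 𝒪) 𝒪] [Finite (ResidueField 𝒪)] [CharZero 𝒪] [Algebra ℤ_[p] 𝒪]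
    (hp𝒪 : (p : 𝒪) ∈ maximalIdeal 𝒪)
    (θ : (ZMod M)ˣ →* 𝒪ˣ) (hθH : ∀ d ∈ H, θ d = 1)
    (μ : Subgroup 𝒪ˣ) (hμ : ∀ x ∈ μ, x ^ 2 = 1 → x = 1) (hθμ : ∀ d : (ZMod M)ˣ, θ d ∈ μ)
    (a : ℕ → 𝒪)
    (φ : Additive (s48h_GammaH M H) →+ 𝒪) (hφ0 : φ ≠ 0)
    (hpar : IsParabolicHom (s48h_GammaH M H) φ)
    (hdiam : ∀ (σ : SL(2, ℤ)) (hσ : σ ∈ Gamma0 M) (du : (ZMod M)ˣ),
      ((du : (ZMod M)ˣ) : ZMod M) = ((σ 1 1 : ℤ) : ZMod M) →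
      s48h_diamondH H σ hσ 𝒪 φ = (((θ du : 𝒪ˣ) : 𝒪) ^ 2) • φ)
    (heig : ∀ (ℓ : ℕ) [Fact ℓ.Prime] (hℓ : ¬ ℓ ∣ M) (σ : SL(2, ℤ)) (hσ : σ ∈ Gamma0 M)
      (hσ11 : ((σ 1 1 : ℤ) : ZMod M) = (ℓ : ZMod M)),
      s48h_TpH H hℓ σ hσ hσ11 𝒪 φ = a ℓ • φ)
    (S : Finset ℕ) (hpS : p ∈ S) (hMS : ∀ r : ℕ, r.Prime → r ∣ M → r ∈ S)
    (hres : ∀ ρ : GaloisRepAdic 𝒪,
      (∀ ℓ : ℕ, ℓ.Prime → ℓ ∉ S → ∀ ℓu : (ZMod M)ˣ,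
        ((ℓu : (ZMod M)ˣ) : ZMod M) = (ℓ : ZMod M) →
        ∀ P : ValuationSubring Qbar, P.LiesOverPrime ℓ → ∀ σ : GQ, P.IsFrobeniusAt σ ℓ →
          (ρ.ρ σ).charpoly = X ^ 2 - C ((((θ ℓu)⁻¹ : 𝒪ˣ) : 𝒪) * a ℓ) * X + C (ℓ : 𝒪)) →
      ρ.residual.IsAbsolutelyIrreducible)
    (ρ : GaloisRepAdic 𝒪)
    (hρ : ∀ ℓ : ℕ, ℓ.Prime → ℓ ∉ S → ∀ ℓu : (ZMod M)ˣ,
        ((ℓu : (ZMod M)ˣ) : ZMod M) = (ℓ : ZMod M) →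
        ∀ P : ValuationSubring Qbar, P.LiesOverPrime ℓ → ∀ σ : GQ, P.IsFrobeniusAt σ ℓ →
          (ρ.ρ σ).charpoly = X ^ 2 - C ((((θ ℓu)⁻¹ : 𝒪ˣ) : 𝒪) * a ℓ) * X + C (ℓ : 𝒪))
    (q₀ : ℕ) (hq₀ : q₀ ∈ Q) (hq₀p : q₀ ≠ p)
    (A : ValuationSubring Qbar) (hA : A.LiesOverPrime q₀) :
    (∀ σ ∈ A.inertiaSubgroupIn ℚ, θ (s59b_epsM M σ) = 1) ∨
      ∃ σ ∈ A.inertiaSubgroupIn ℚ, (ρ.ρ σ).charpoly ≠ (X - 1) ^ 2 := by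
  subst hMeq
  refine s59u_hNN_core N Q hQ H ?_ p 𝒪 hp𝒪 θ hθH μ hμ hθμ a φ hφ0 hpar hdiam heig S hpS hMS hres ρ hρ
    q₀ hq₀ hq₀p A hA
  intro u hu
  refine hH ((((u : (ZMod (N * ∏ q ∈ Q, q))ˣ) : ZMod (N * ∏ q ∈ Q, q)).val : ℕ) : ℤ) u ?_ ?_
  · have h1 : ZMod.unitsMap (dvd_mul_left (∏ q ∈ Q, q) N) u = 1 := hu
    have h2 := congrArg (fun v : (ZMod (∏ q ∈ Q, q))ˣ => (v : ZMod (∏ q ∈ Q, q))) h1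
    simp only [ZMod.unitsMap_def, Units.coe_map, MonoidHom.coe_coe, Units.val_one,
      ZMod.castHom_apply] at h2
    rw [Int.cast_natCast, ZMod.natCast_val]
    exact h2
  · rw [Int.cast_natCast, ZMod.natCast_zmod_val]

/-- **`hNN`, strong form** (for helper5's [TR-χ]): in the left alternative `θ` is trivial on every
unit `≡ 1 mod M / q₀`. -/
theorem s59u_hNN_strong (M : ℕ) [NeZero M] (N : ℕ) [NeZero N] (Q : Finset ℕ)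
    (hMeq : M = N * ∏ q ∈ Q, q) (hQ : ∀ q ∈ Q, q.Prime ∧ ¬ q ∣ N)
    (H : Subgroup (ZMod M)ˣ)
    (hH : ∀ (x : ℤ) (u : (ZMod M)ˣ), ((x : ℤ) : ZMod (∏ q ∈ Q, q)) = 1 →
      ((u : (ZMod M)ˣ) : ZMod M) = ((x : ℤ) : ZMod M) → u ∈ H)
    (p : ℕ) [Fact p.Prime]
    (𝒪 : Type) [CommRing 𝒪] [IsDomain 𝒪] [IsDiscreteValuationRing 𝒪]
    [IsAdicComplete (maximalIdeal 𝒪) 𝒪] [Finite (ResidueField 𝒪)] [CharZero 𝒪] [Algebra ℤ_[p] 𝒪]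
    (hp𝒪 : (p : 𝒪) ∈ maximalIdeal 𝒪)
    (θ : (ZMod M)ˣ →* 𝒪ˣ) (hθH : ∀ d ∈ H, θ d = 1)
    (μ : Subgroup 𝒪ˣ) (hμ : ∀ x ∈ μ, x ^ 2 = 1 → x = 1) (hθμ : ∀ d : (ZMod M)ˣ, θ d ∈ μ)
    (a : ℕ → 𝒪)
    (φ : Additive (s48h_GammaH M H) →+ 𝒪) (hφ0 : φ ≠ 0)
    (hpar : IsParabolicHom (s48h_GammaH M H) φ)
    (hdiam : ∀ (σ : SL(2, ℤ)) (hσ : σ ∈ Gamma0 M) (du : (ZMod M)ˣ),
      ((du : (ZMod M)ˣ) : ZMod M) = ((σ 1 1 : ℤ) : ZMod M) →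
      s48h_diamondH H σ hσ 𝒪 φ = (((θ du : 𝒪ˣ) : 𝒪) ^ 2) • φ)
    (heig : ∀ (ℓ : ℕ) [Fact ℓ.Prime] (hℓ : ¬ ℓ ∣ M) (σ : SL(2, ℤ)) (hσ : σ ∈ Gamma0 M)
      (hσ11 : ((σ 1 1 : ℤ) : ZMod M) = (ℓ : ZMod M)),
      s48h_TpH H hℓ σ hσ hσ11 𝒪 φ = a ℓ • φ)
    (S : Finset ℕ) (hpS : p ∈ S) (hMS : ∀ r : ℕ, r.Prime → r ∣ M → r ∈ S)
    (hres : ∀ ρ : GaloisRepAdic 𝒪,
      (∀ ℓ : ℕ, ℓ.Prime → ℓ ∉ S → ∀ ℓu : (ZMod M)ˣ,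
        ((ℓu : (ZMod M)ˣ) : ZMod M) = (ℓ : ZMod M) →
        ∀ P : ValuationSubring Qbar, P.LiesOverPrime ℓ → ∀ σ : GQ, P.IsFrobeniusAt σ ℓ →
          (ρ.ρ σ).charpoly = X ^ 2 - C ((((θ ℓu)⁻¹ : 𝒪ˣ) : 𝒪) * a ℓ) * X + C (ℓ : 𝒪)) →
      ρ.residual.IsAbsolutelyIrreducible)
    (ρ : GaloisRepAdic 𝒪)
    (hρ : ∀ ℓ : ℕ, ℓ.Prime → ℓ ∉ S → ∀ ℓu : (ZMod M)ˣ,
        ((ℓu : (ZMod M)ˣ) : ZMod M) = (ℓ : ZMod M) →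
        ∀ P : ValuationSubring Qbar, P.LiesOverPrime ℓ → ∀ σ : GQ, P.IsFrobeniusAt σ ℓ →
          (ρ.ρ σ).charpoly = X ^ 2 - C ((((θ ℓu)⁻¹ : 𝒪ˣ) : 𝒪) * a ℓ) * X + C (ℓ : 𝒪))
    (q₀ : ℕ) (hq₀ : q₀ ∈ Q) (hq₀p : q₀ ≠ p)
    (A : ValuationSubring Qbar) (hA : A.LiesOverPrime q₀) :
    (∀ L₀ : ℕ, M = L₀ * q₀ → ∀ (x : ℤ) (du : (ZMod M)ˣ),
        ((du : (ZMod M)ˣ) : ZMod M) = ((x : ℤ) : ZMod M) → (L₀ : ℤ) ∣ x - 1 → θ du = 1) ∨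
      ∃ σ ∈ A.inertiaSubgroupIn ℚ, (ρ.ρ σ).charpoly ≠ (X - 1) ^ 2 := by
  subst hMeq
  refine s59u_hNN_core_strong N Q hQ H ?_ p 𝒪 hp𝒪 θ hθH μ hμ hθμ a φ hφ0 hpar hdiam heig S hpS hMS hres ρ hρ
    q₀ hq₀ hq₀p A hA
  intro u hu
  refine hH ((((u : (ZMod (N * ∏ q ∈ Q, q))ˣ) : ZMod (N * ∏ q ∈ Q, q)).val : ℕ) : ℤ) u ?_ ?_
  · have h1 : ZMod.unitsMap (dvd_mul_left (∏ q ∈ Q, q) N) u = 1 := hu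
    have h2 := congrArg (fun v : (ZMod (∏ q ∈ Q, q))ˣ => (v : ZMod (∏ q ∈ Q, q))) h1
    simp only [ZMod.unitsMap_def, Units.coe_map, MonoidHom.coe_coe, Units.val_one,
      ZMod.castHom_apply] at h2
    rw [Int.cast_natCast, ZMod.natCast_val]
    exact h2
  · rw [Int.cast_natCast, ZMod.natCast_zmod_val]


end General

end Fermat.Agent.Lib.S59
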