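/-
S59 (helper5, prefix `s59e_`), node B7 / [TR-χ], part B: **the type `χ` relation at a point, from (NN).**
At an eigenclass `(θ, a, φ)` over `𝒪'` at level `Γ_H(M)`, `M = N ∏ Q`, with Galois representation `ρ`
(Frobenius polynomials `X² − θ(ℓ)⁻¹ a_ℓ X + ℓ`, residually absolutely irreducible), and a prime
`q₀ ∈ Q`, `q₀ ≠ p`, at which `θ` is NOT trivial on the units `≡ 1 mod M / q₀`:
helper3's `s59u_hNN_strong` (left alternative refuted) gives an inertia element with characteristic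
polynomial `≠ (X − 1)²`, and `s59e_TRchi_point` then gives, for a uniform generator `σ` of tame inertia,
`charpoly ρ(σ) = X² − (ζ^i + ζ^{-i}) X + 1` for some `0 < i < p^v` (`q₀ = p^v c + 1`, `p ∤ c`, `ζ` a primitive
`p^v`-th root of unity of the base ring).
-/
import Mathlib
import Fermat.Agent.Lib.S59.ETRChi
import Fermat.Agent.Lib.S59.UNN
import Fermat.Agent.Lib.S59.BC8
import Fermat.Agent.Lib.S59.EAbsIrr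

set_option autoImplicit false
set_option linter.unusedSectionVars false
set_option linter.unusedVariables false
set_option linter.style.haveILetI false
set_option maxHeartbeats 1000000

noncomputable section

namespace Fermat.Agent.Lib.S59

open Matrix.SpecialLinearGroup CongruenceSubgroup ModularCurve.Period Polynomial
open Fermat.Agent.Lib.S48 IsLocalRing Fermat.Agent.Lib.S53
open scoped MatrixGroups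

local notation "Qbar" => AlgebraicClosure ℚ
local notation "GQ" => (AlgebraicClosure ℚ ≃ₐ[ℚ] AlgebraicClosure ℚ)

section Point

variable (M : ℕ) [NeZero M] (N : ℕ) [NeZero N] (Q : Finset ℕ)
  (H : Subgroup (ZMod M)ˣ) (p : ℕ) [Fact p.Prime]
  {𝒪 : Type*} [CommRing 𝒪]
  (𝒪' : Type) [CommRing 𝒪'] [IsDomain 𝒪'] [IsDiscreteValuationRing 𝒪']
  [IsAdicComplete (maximalIdeal 𝒪') 𝒪'] [Finite (ResidueField 𝒪')] [CharZero 𝒪'] [Algebra ℤ_[p] 𝒪']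
  [Algebra 𝒪 𝒪']

/-- **(NN) at a point where the nebentypus is ramified at `q₀`.** -/
theorem s59e_NN_point (hMeq : M = N * ∏ q ∈ Q, q) (hQ : ∀ q ∈ Q, q.Prime ∧ ¬ q ∣ N)
    (hH : ∀ (x : ℤ) (u : (ZMod M)ˣ), ((x : ℤ) : ZMod (∏ q ∈ Q, q)) = 1 →
      ((u : (ZMod M)ˣ) : ZMod M) = ((x : ℤ) : ZMod M) → u ∈ H)
    (hp2 : p ≠ 2) (hp𝒪 : (p : 𝒪') ∈ maximalIdeal 𝒪')
    (θ : (ZMod M)ˣ →* 𝒪'ˣ) (hθH : ∀ d ∈ H, θ d = 1)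
    (hθp : ∀ d : (ZMod M)ˣ, ∃ n : ℕ, θ d ^ (p ^ n) = 1)
    (a : ℕ → 𝒪')
    (φ : Additive (s48h_GammaH M H) →+ 𝒪') (hφ0 : φ ≠ 0)
    (hpar : IsParabolicHom (s48h_GammaH M H) φ)
    (hdiam : ∀ (σ : SL(2, ℤ)) (hσ : σ ∈ Gamma0 M) (du : (ZMod M)ˣ),
      ((du : (ZMod M)ˣ) : ZMod M) = ((σ 1 1 : ℤ) : ZMod M) →
      s48h_diamondH H σ hσ 𝒪' φ = (((θ du : 𝒪'ˣ) : 𝒪') ^ 2) • φ)
    (heig : ∀ (ℓ : ℕ) [Fact ℓ.Prime] (hℓ : ¬ ℓ ∣ M) (σ : SL(2, ℤ)) (hσ : σ ∈ Gamma0 M)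
      (hσ11 : ((σ 1 1 : ℤ) : ZMod M) = (ℓ : ZMod M)),
      s48h_TpH H hℓ σ hσ hσ11 𝒪' φ = a ℓ • φ)
    (S : Finset ℕ) (hpS : p ∈ S) (hMS : ∀ r : ℕ, r.Prime → r ∣ M → r ∈ S)
    (ρ : GaloisRepAdic 𝒪') (habs : ρ.residual.IsAbsolutelyIrreducible)
    (hρ : ∀ ℓ : ℕ, ℓ.Prime → ℓ ∉ S → ∀ ℓu : (ZMod M)ˣ,
        ((ℓu : (ZMod M)ˣ) : ZMod M) = (ℓ : ZMod M) →
        ∀ P : ValuationSubring Qbar, P.LiesOverPrime ℓ → ∀ σ : GQ, P.IsFrobeniusAt σ ℓ →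
          (ρ.ρ σ).charpoly = X ^ 2 - C ((((θ ℓu)⁻¹ : 𝒪'ˣ) : 𝒪') * a ℓ) * X + C (ℓ : 𝒪'))
    (q₀ : ℕ) (hq₀ : q₀ ∈ Q) (hq₀p : q₀ ≠ p)
    (A : ValuationSubring Qbar) (hA : A.LiesOverPrime q₀)
    (hχne : ∃ (L₀ : ℕ) (x : ℤ) (du : (ZMod M)ˣ), M = L₀ * q₀ ∧
      ((du : (ZMod M)ˣ) : ZMod M) = ((x : ℤ) : ZMod M) ∧ (L₀ : ℤ) ∣ x - 1 ∧ θ du ≠ 1) :
    ∃ σ ∈ A.inertiaSubgroupIn ℚ, (ρ.ρ σ).charpoly ≠ (X - 1) ^ 2 := by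
  classical
  have hpprime : p.Prime := Fact.out
  -- the traces as a function of `ℓ`
  let t : ℕ → 𝒪' := fun ℓ => if hc : Nat.Coprime ℓ M then
    (((θ (ZMod.unitOfCoprime ℓ hc))⁻¹ : 𝒪'ˣ) : 𝒪') * a ℓ else 0
  have hcop : ∀ ℓ : ℕ, ℓ.Prime → ℓ ∉ S → Nat.Coprime ℓ M := fun ℓ hℓ hℓS =>
    (Nat.Prime.coprime_iff_not_dvd hℓ).mpr fun hd => hℓS (hMS ℓ hℓ hd)
  have ht : ∀ (ρ' : GaloisRepAdic 𝒪'),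
      (∀ ℓ : ℕ, ℓ.Prime → ℓ ∉ S → ∀ ℓu : (ZMod M)ˣ,
        ((ℓu : (ZMod M)ˣ) : ZMod M) = (ℓ : ZMod M) →
        ∀ P : ValuationSubring Qbar, P.LiesOverPrime ℓ → ∀ σ : GQ, P.IsFrobeniusAt σ ℓ →
          (ρ'.ρ σ).charpoly = X ^ 2 - C ((((θ ℓu)⁻¹ : 𝒪'ˣ) : 𝒪') * a ℓ) * X + C (ℓ : 𝒪')) →
      ∀ ℓ : ℕ, ℓ.Prime → ℓ ∉ S → ∀ P : ValuationSubring Qbar, P.LiesOverPrime ℓ →
        ∀ σ : GQ, P.IsFrobeniusAt σ ℓ →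
          LinearMap.charpoly (ρ'.ρ σ) = X ^ 2 - C (t ℓ) * X + C (ℓ : 𝒪') := by
    intro ρ' hρ' ℓ hℓ hℓS P hP σ hσ
    have hc := hcop ℓ hℓ hℓS
    show _ = X ^ 2 - C (if hc : Nat.Coprime ℓ M then _ else _) * X + _
    rw [dif_pos hc]
    exact hρ' ℓ hℓ hℓS (ZMod.unitOfCoprime ℓ hc) (ZMod.coe_unitOfCoprime ℓ hc) P hP σ hσ
  have hres : ∀ ρ' : GaloisRepAdic 𝒪',
      (∀ ℓ : ℕ, ℓ.Prime → ℓ ∉ S → ∀ ℓu : (ZMod M)ˣ,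
        ((ℓu : (ZMod M)ˣ) : ZMod M) = (ℓ : ZMod M) →
        ∀ P : ValuationSubring Qbar, P.LiesOverPrime ℓ → ∀ σ : GQ, P.IsFrobeniusAt σ ℓ →
          (ρ'.ρ σ).charpoly = X ^ 2 - C ((((θ ℓu)⁻¹ : 𝒪'ˣ) : 𝒪') * a ℓ) * X + C (ℓ : 𝒪')) →
      ρ'.residual.IsAbsolutelyIrreducible := fun ρ' hρ' =>
    s59b_hres_gen p hp2 hp𝒪 ρ ρ' habs S t t (ht ρ hρ) (ht ρ' hρ') (fun _ _ _ => rfl)
  have hNN := s59u_hNN_strong M N Q hMeq hQ H hH p 𝒪' hp𝒪 θ hθH (s59b_muP p 𝒪')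
    (s59b_muP_sq p 𝒪' hpprime hp2) hθp a φ hφ0 hpar hdiam heig S hpS hMS hres ρ hρ q₀ hq₀ hq₀p A hA
  rcases hNN with hleft | hright
  · exfalso
    obtain ⟨L₀, x, du, hML, hdu, hLx, hne⟩ := hχne
    exact hne (hleft L₀ hML x du hdu hLx)
  · exact hright

/-- **[TR-χ] at a point, from (NN)**: the characteristic polynomial of a uniform generator of tame
inertia at `q₀`. -/
theorem s59e_chi_point (hinj : Function.Injective (algebraMap 𝒪 𝒪'))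
    (hMeq : M = N * ∏ q ∈ Q, q) (hQ : ∀ q ∈ Q, q.Prime ∧ ¬ q ∣ N)
    (hH : ∀ (x : ℤ) (u : (ZMod M)ˣ), ((x : ℤ) : ZMod (∏ q ∈ Q, q)) = 1 →
      ((u : (ZMod M)ˣ) : ZMod M) = ((x : ℤ) : ZMod M) → u ∈ H)
    (hp2 : p ≠ 2) (hp𝒪 : (p : 𝒪') ∈ maximalIdeal 𝒪')
    (θ : (ZMod M)ˣ →* 𝒪'ˣ) (hθH : ∀ d ∈ H, θ d = 1)
    (hθp : ∀ d : (ZMod M)ˣ, ∃ n : ℕ, θ d ^ (p ^ n) = 1)
    (a : ℕ → 𝒪')
    (φ : Additive (s48h_GammaH M H) →+ 𝒪') (hφ0 : φ ≠ 0)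
    (hpar : IsParabolicHom (s48h_GammaH M H) φ)
    (hdiam : ∀ (σ : SL(2, ℤ)) (hσ : σ ∈ Gamma0 M) (du : (ZMod M)ˣ),
      ((du : (ZMod M)ˣ) : ZMod M) = ((σ 1 1 : ℤ) : ZMod M) →
      s48h_diamondH H σ hσ 𝒪' φ = (((θ du : 𝒪'ˣ) : 𝒪') ^ 2) • φ)
    (heig : ∀ (ℓ : ℕ) [Fact ℓ.Prime] (hℓ : ¬ ℓ ∣ M) (σ : SL(2, ℤ)) (hσ : σ ∈ Gamma0 M)
      (hσ11 : ((σ 1 1 : ℤ) : ZMod M) = (ℓ : ZMod M)),
      s48h_TpH H hℓ σ hσ hσ11 𝒪' φ = a ℓ • φ)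
    (S : Finset ℕ) (hpS : p ∈ S) (hMS : ∀ r : ℕ, r.Prime → r ∣ M → r ∈ S)
    (ρ : GaloisRepAdic 𝒪') (habs : ρ.residual.IsAbsolutelyIrreducible)
    (hρ : ∀ ℓ : ℕ, ℓ.Prime → ℓ ∉ S → ∀ ℓu : (ZMod M)ˣ,
        ((ℓu : (ZMod M)ˣ) : ZMod M) = (ℓ : ZMod M) →
        ∀ P : ValuationSubring Qbar, P.LiesOverPrime ℓ → ∀ σ : GQ, P.IsFrobeniusAt σ ℓ →
          (ρ.ρ σ).charpoly = X ^ 2 - C ((((θ ℓu)⁻¹ : 𝒪'ˣ) : 𝒪') * a ℓ) * X + C (ℓ : 𝒪'))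
    (q₀ : ℕ) (hq₀ : q₀ ∈ Q) (hq₀p : q₀ ≠ p)
    {v c : ℕ} (hv : 0 < v) (hqv : q₀ = p ^ v * c + 1) (hc : ¬ p ∣ c)
    (ζ : 𝒪) (hζ : IsPrimitiveRoot ζ (p ^ v))
    (A : ValuationSubring Qbar) (hA : A.LiesOverPrime q₀)
    (hU : ρ.residual.IsUnramifiedAt q₀)
    (σ φq : GQ) (hσ : s59q_IsTameGen q₀ A σ) (hφq : A.IsFrobeniusAt φq q₀)
    (hχne : ∃ (L₀ : ℕ) (x : ℤ) (du : (ZMod M)ˣ), M = L₀ * q₀ ∧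
      ((du : (ZMod M)ˣ) : ZMod M) = ((x : ℤ) : ZMod M) ∧ (L₀ : ℤ) ∣ x - 1 ∧ θ du ≠ 1) :
    ∃ i : ℕ, 0 < i ∧ i < p ^ v ∧
      LinearMap.charpoly (ρ.ρ σ) =
        X ^ 2 - C (algebraMap 𝒪 𝒪' (ζ ^ i + ζ ^ (p ^ v - i))) * X + 1 := by
  classical
  have hNN := s59e_NN_point M N Q H p 𝒪' hMeq hQ hH hp2 hp𝒪 θ hθH hθp a φ hφ0 hpar hdiam heig S hpS hMS
    ρ habs hρ q₀ hq₀ hq₀p A hA hχne
  -- the determinant is cyclotomic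
  have hdet : ρ.DetIsCyclotomic p := by
    refine s59b_detCyc_of_charpoly p ρ hp𝒪 S
      (fun ℓ => if hc : Nat.Coprime ℓ M then
        (((θ (ZMod.unitOfCoprime ℓ hc))⁻¹ : 𝒪'ˣ) : 𝒪') * a ℓ else 0) ?_
    intro ℓ hℓ hℓS P hP σ' hσ'
    have hc : Nat.Coprime ℓ M :=
      (Nat.Prime.coprime_iff_not_dvd hℓ).mpr fun hd => hℓS (hMS ℓ hℓ hd)
    rw [dif_pos hc]
    exact hρ ℓ hℓ hℓS (ZMod.unitOfCoprime ℓ hc) (ZMod.coe_unitOfCoprime ℓ hc) P hP σ' hσ'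
  let bs : Module.Basis (Fin 2) 𝒪' ρ.V := Module.finBasisOfFinrankEq 𝒪' ρ.V ρ.finrank_eq
  have hq₀prime : q₀.Prime := (hQ q₀ hq₀).1
  obtain ⟨i, hi0, hi, htr, hd, -⟩ := s59e_TRchi_point (𝒪 := 𝒪) (D := 𝒪') hinj hp2 ρ bs hdet
    hq₀prime hq₀p hv hqv hc ζ hζ A hA hU σ φq hσ hφq hNN
  refine ⟨i, hi0, hi, ?_⟩
  rw [← LinearMap.charpoly_toMatrix (ρ.ρ σ) bs, ← matOf_apply, Matrix.charpoly_fin_two, htr, hd,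
    map_add, map_one]
  simp only [map_add]

end Point

end Fermat.Agent.Lib.S59
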