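/-
S59 (helper2, prefix `s59b_`), `T`-side package: **"χ IN FAMILY" = the field `hχ` of `s59i_TLevel`** (helper5 #3487).

Setting (one Taylor–Wiles level, as in helper9's `s59m_hC8_abs`): `M = N ∏ Q`, `H ≤ (ℤ/M)ˣ`, `Z` a finite free
`𝒪`-module embedded Hecke-equivariantly into `H_par(Γ_H(M), 𝒪)` (the `χ'`-eigen-part), the trace ring `T'` acting
on `Z` through `jT : T' → End_𝒪 Z` with image in `𝒪[T_ℓ, ⟨τ⟩]`, `tr ℓ ∈ T'` acting as the twisted operator, and a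
Galois representation `ρ₀` over a local ring `A₀` with a local homomorphism `f : A₀ → T'` (`A₀ = DQ.R`, `f = θ`)
whose Frobenius polynomials map to `X² − tr ℓ X + ℓ`, residually absolutely irreducible and unramified at the
primes `qB j ∈ Q` (`qB j ≡ 1 (p)`, `p^(v+1) ∤ qB j − 1`), at each of which some diamond operator `⟨τ_j⟩`,
`τ_j ≡ 1 mod M / qB j`, acts on `Z` by a scalar `c_j ≠ 1`.

Claim: for every minimal prime `𝔮` over `ker jT`: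
 (i) `algebraMap 𝒪 T' o ∉ 𝔮` for `o ≠ 0`;
 (ii) there is an index `I : s59b_chiIdx p v qB ζ` with
      `f (cpTr ρ₀ (σB j)) − (ζ^(I j) + ζ^(p^v − I j)) ∈ 𝔮`, `f (cpDt ρ₀ (σB j)) − 1 ∈ 𝔮` for all `j`
      (`σB j` a uniform generator of tame inertia at `qB j`).
Proof: the point of `𝔮` (helper9's `s59m_eigenclass_of_minimalPrime_abs`), helper5's `s59e_chi_point` there.

* `s59b_bc_residual_unram` : residual unramifiedness is preserved by base change along a local homomorphism;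
* `s59b_hchi_abs` : the claim; `s59b_hchi_eig` : the same in the shape of helper8's `s59t_TSide_level'`
  (`Z = s59t_EigT ρ' C χ' hTρ`, the ideal is `(Module.annihilator T _).comap (algebraMap T' T)`), with the binders
  of helper9's `s59m_hC8_eig`.
-/
import Mathlib
import Fermat.Agent.Lib.S59.BChiIdx
import Fermat.Agent.Lib.S59.ETRChiNN
import Fermat.Agent.Lib.S59.ETGal
import Fermat.Agent.Lib.S59.MC8Inst

set_option autoImplicit false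
set_option linter.unusedSectionVars false
set_option linter.unusedVariables false
set_option linter.style.haveILetI false
set_option synthInstance.maxHeartbeats 400000
set_option maxHeartbeats 4000000

noncomputable section

namespace Fermat.Agent.Lib.S59

open Fermat.Agent.Lib.S48
open IsLocalRing TensorProduct Polynomial
open CongruenceSubgroup ModularCurve.Period
open scoped MatrixGroups

local notation "Qbar" => AlgebraicClosure ℚ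
local notation "GQ" => (AlgebraicClosure ℚ ≃ₐ[ℚ] AlgebraicClosure ℚ)

section Unram

variable {A₀ A : Type} [CommRing A₀] [IsLocalRing A₀] [CommRing A] [IsLocalRing A]

/-- **residual unramifiedness is preserved by base change along a local homomorphism.** -/
theorem s59b_bc_residual_unram (f : A₀ →+* A) (hf : IsLocalHom f) (ρ₀ : GaloisRepAdic A₀) (q : ℕ)
    (h : ρ₀.residual.IsUnramifiedAt q) : (ρ₀.baseChangeAlong f hf).residual.IsUnramifiedAt q := by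
  letI : Algebra A₀ A := f.toAlgebra
  rw [s59e_residual_unr_iff] at h ⊢
  intro P hP τ hτ w
  have hmap : ∀ a ∈ maximalIdeal A₀, f a ∈ maximalIdeal A := fun a ha =>
    haveI := hf
    map_nonunit f a ha
  have hpure : ∀ (b : A) (x : ρ₀.V),
      (ρ₀.ρ τ).baseChange A (b ⊗ₜ[A₀] x) - b ⊗ₜ[A₀] x ∈
        (maximalIdeal A) • (⊤ : Submodule A (A ⊗[A₀] ρ₀.V)) := by
    intro b x
    rw [LinearMap.baseChange_tmul, ← TensorProduct.tmul_sub]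
    refine Submodule.smul_induction_on (p := fun y => b ⊗ₜ[A₀] y ∈
      (maximalIdeal A) • (⊤ : Submodule A (A ⊗[A₀] ρ₀.V))) (h P hP τ hτ x) ?_ ?_
    · intro a ha y _
      rw [TensorProduct.tmul_smul, TensorProduct.smul_tmul', Algebra.smul_def, ← smul_eq_mul,
        ← TensorProduct.smul_tmul']
      exact Submodule.smul_mem_smul (hmap a ha) Submodule.mem_top
    · intro x y hx hy
      rw [TensorProduct.tmul_add]
      exact Submodule.add_mem _ hx hy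
  have hall : ∀ w' : A ⊗[A₀] ρ₀.V, (ρ₀.ρ τ).baseChange A w' - w' ∈
      (maximalIdeal A) • (⊤ : Submodule A (A ⊗[A₀] ρ₀.V)) := by
    intro w'
    induction w' using TensorProduct.induction_on with
    | zero => rw [map_zero, sub_zero]; exact Submodule.zero_mem _
    | tmul b x => exact hpure b x
    | add x y hx hy =>
      rw [map_add, add_sub_add_comm]
      exact Submodule.add_mem _ hx hy
  exact hall w

end Unram

section Abs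

/-- **"χ in family"**, abstract module `Z`: see the header. -/
theorem s59b_hchi_abs {M : ℕ} [NeZero M] (N : ℕ) [NeZero N] (Q : Finset ℕ)
    (hMeq : M = N * ∏ q ∈ Q, q) (hQ : ∀ q ∈ Q, q.Prime ∧ ¬ q ∣ N)
    (H : Subgroup (ZMod M)ˣ)
    (hH : ∀ (x : ℤ) (u : (ZMod M)ˣ), ((x : ℤ) : ZMod (∏ q ∈ Q, q)) = 1 →
      ((u : (ZMod M)ˣ) : ZMod M) = ((x : ℤ) : ZMod M) → u ∈ H)
    (p : ℕ) [hpF : Fact p.Prime] (hp2 : p ≠ 2)
    {e m' : ℕ} (hnm : 2 * m' = p ^ e + 1) (hn : ∀ u : (ZMod M)ˣ, u ^ (p ^ e) ∈ H)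
    (𝒪 : Type) [CommRing 𝒪] [IsDomain 𝒪] [IsDiscreteValuationRing 𝒪]
    [IsAdicComplete (maximalIdeal 𝒪) 𝒪] [Finite (ResidueField 𝒪)] [CharZero 𝒪] [Algebra ℤ_[p] 𝒪]
    (hp𝒪 : (p : 𝒪) ∈ maximalIdeal 𝒪)
    (S : Finset ℕ) (hpS : p ∈ S) (hMS : ∀ r : ℕ, r.Prime → r ∣ M → r ∈ S)
    -- the module
    {Z : Type} [AddCommGroup Z] [Module 𝒪 Z] [Module.Finite 𝒪 Z] [Module.Free 𝒪 Z]
    (emb : Z →ₗ[𝒪] s48h_Hpar 𝒪 (s48h_GammaH M H) 𝒪) (hemb : Function.Injective emb)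
    (op : s59w_AIdx M → Module.End 𝒪 Z)
    (hop : ∀ j z, emb (op j z) = s59w_op H 𝒪 j (emb z))
    -- the trace ring
    (T' : Type) [CommRing T'] [IsLocalRing T'] [Algebra 𝒪 T']
    (jT : T' →ₐ[𝒪] Module.End 𝒪 Z)
    (hjTg : ∀ t, jT t ∈ Algebra.adjoin 𝒪 (Set.range op))
    (tr : ℕ → T')
    (htr : ∀ i : s59w_TIdx M, i.ell ∉ S → jT (tr i.ell) =
      op (Sum.inr (s59e_tau i ((p ^ e - 1) * m'))) * op (Sum.inl i))
    -- the Galois representation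
    {A₀ : Type} [CommRing A₀] [IsLocalRing A₀] (ρ₀ : GaloisRepAdic A₀) (f : A₀ →+* T')
    (hf : IsLocalHom f) (habs₀ : ρ₀.residual.IsAbsolutelyIrreducible)
    (hρ₀ : ∀ ℓ : ℕ, ℓ.Prime → ℓ ∉ S → ∀ P' : ValuationSubring Qbar, P'.LiesOverPrime ℓ →
      ∀ σ : GQ, P'.IsFrobeniusAt σ ℓ →
        ((ρ₀.ρ σ).charpoly).map f = X ^ 2 - C (tr ℓ) * X + C (ℓ : T'))
    -- the primes of type `χ`
    {m : ℕ} (qB : Fin m → ℕ) (hqBQ : ∀ j, qB j ∈ Q) (hqBp : ∀ j, qB j ≠ p)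
    (v : ℕ) (hq1 : ∀ j, p ∣ qB j - 1) (hqv : ∀ j, ¬ p ^ (v + 1) ∣ qB j - 1)
    (ζ : 𝒪) (hζ : IsPrimitiveRoot ζ (p ^ v))
    (Aj : Fin m → ValuationSubring Qbar) (hAj : ∀ j, (Aj j).LiesOverPrime (qB j))
    (σB φB : Fin m → GQ) (hσB : ∀ j, s59q_IsTameGen (qB j) (Aj j) (σB j))
    (hφB : ∀ j, (Aj j).IsFrobeniusAt (φB j) (qB j))
    (hunr₀ : ∀ j, ρ₀.residual.IsUnramifiedAt (qB j))
    (hloc : ∀ j, ∃ (τ : Gamma0 M) (c : 𝒪), c ≠ 1 ∧ (∀ z : Z, op (Sum.inr τ) z = c • z) ∧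
      ∃ (L₀ : ℕ) (hL₀ : M = L₀ * qB j),
        ZMod.unitsMap (hL₀ ▸ Dvd.intro (qB j) rfl : L₀ ∣ M) (s59w_lrUnit τ) = 1) :
    ∀ 𝔮 ∈ (RingHom.ker (jT : T' →+* Module.End 𝒪 Z)).minimalPrimes,
      (∀ o : 𝒪, o ≠ 0 → algebraMap 𝒪 T' o ∉ 𝔮) ∧
      ∃ I : s59b_chiIdx p v qB ζ, ∀ j,
        f (s59i_cpTr ρ₀ (σB j)) - algebraMap 𝒪 T' (s59b_chiZ I j + s59b_chiZ' I j) ∈ 𝔮 ∧
        f (s59i_cpDt ρ₀ (σB j)) - 1 ∈ 𝔮 := by
  classical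
  intro 𝔮 h𝔮
  have hpP : p.Prime := hpF.out
  have hn0 : 0 < p ^ e := pow_pos hpP.pos e
  -- the point
  obtain ⟨𝒪', i1, i2, i3, i4, i5, i6, i7, i8, i9, x, θ, a, φ, hker, hφ0, hpar, hθH, hθn, hdia, heig,
    hprod, hpure⟩ := s59m_eigenclass_of_minimalPrime_abs H hnm hn emb hemb op hop T' jT hjTg 𝔮 h𝔮
  letI : Algebra ℤ_[p] 𝒪' := ((algebraMap 𝒪 𝒪').comp (algebraMap ℤ_[p] 𝒪)).toAlgebra
  have hinj : Function.Injective (algebraMap 𝒪 𝒪') :=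
    s59e_algebraMap_injective_of_charZero (𝒪 := 𝒪) 𝒪'
  have hp𝒪' : (p : 𝒪') ∈ maximalIdeal 𝒪' := by
    have h1 := map_nonunit (algebraMap 𝒪 𝒪') _ hp𝒪
    rwa [map_natCast] at h1
  refine ⟨fun o ho hmem => ?_, ?_⟩
  · -- (i)
    rw [← hker, RingHom.mem_ker, AlgHom.commutes] at hmem
    exact ho (hinj (by rw [hmem, map_zero]))
  -- `θ ^ (2k) = θ⁻¹`
  have hθinv : ∀ d, ((θ d : 𝒪'ˣ) : 𝒪') ^ (2 * ((p ^ e - 1) * m')) = (((θ d)⁻¹ : 𝒪'ˣ) : 𝒪') := by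
    intro d
    rw [← Units.val_pow_eq_pow_val]
    congr 1
    refine eq_inv_of_mul_eq_one_left ?_
    rw [← pow_succ, s59m_exp_aux hn0 hnm, pow_mul, hθn, one_pow]
  have hθp : ∀ d : (ZMod M)ˣ, ∃ n : ℕ, θ d ^ (p ^ n) = 1 := fun d => ⟨e, hθn d⟩
  have hy : IsLocalHom (x : T' →+* 𝒪') := s59e_isLocalHom_of_finite T' 𝒪' x
  have hℓM : ∀ ℓ : ℕ, ℓ.Prime → ℓ ∉ S → ¬ ℓ ∣ M := fun ℓ hℓ hℓS hd => hℓS (hMS ℓ hℓ hd)
  have hytr : ∀ ℓ : ℕ, ℓ.Prime → ℓ ∉ S → ∀ ℓu : (ZMod M)ˣ,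
      ((ℓu : (ZMod M)ˣ) : ZMod M) = (ℓ : ZMod M) →
      x (tr ℓ) = (((θ ℓu)⁻¹ : 𝒪'ˣ) : 𝒪') * a ℓ := by
    intro ℓ hℓ hℓS ℓu hℓu
    let i : s59w_TIdx M := ⟨ℓ, hℓ, hℓM ℓ hℓ hℓS, (s59w_sig ℓu : SL(2, ℤ)), (s59w_sig ℓu).2, by
      rw [← s59w_lrUnit_coe, s59w_sig_spec, hℓu]⟩
    have h1 := hprod (tr ℓ) i ((p ^ e - 1) * m') ℓu hℓu (htr i hℓS)
    rw [h1, hθinv]
  -- the representation at the point
  have hg : IsLocalHom ((x : T' →+* 𝒪').comp f) :=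
    haveI := hy
    haveI := hf
    RingHom.isLocalHom_comp _ _
  set ρ : GaloisRepAdic 𝒪' := ρ₀.baseChangeAlong ((x : T' →+* 𝒪').comp f) hg with hρdef
  have hρ : ∀ ℓ : ℕ, ℓ.Prime → ℓ ∉ S → ∀ ℓu : (ZMod M)ˣ,
      ((ℓu : (ZMod M)ˣ) : ZMod M) = (ℓ : ZMod M) →
      ∀ P' : ValuationSubring Qbar, P'.LiesOverPrime ℓ → ∀ σ : GQ, P'.IsFrobeniusAt σ ℓ →
        (ρ.ρ σ).charpoly = X ^ 2 - C ((((θ ℓu)⁻¹ : 𝒪'ˣ) : 𝒪') * a ℓ) * X + C (ℓ : 𝒪') := by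
    intro ℓ hℓ hℓS ℓu hℓu P' hP' σ hσ
    rw [hρdef, s59e_bc_charpoly, ← Polynomial.map_map, hρ₀ ℓ hℓ hℓS P' hP' σ hσ,
      ← hytr ℓ hℓ hℓS ℓu hℓu]
    simp only [Polynomial.map_add, Polynomial.map_sub, Polynomial.map_mul, Polynomial.map_pow,
      Polynomial.map_X, Polynomial.map_C, map_natCast, Polynomial.map_natCast]
    rfl
  have habs : ρ.residual.IsAbsolutelyIrreducible := s59e_bc_absIrr _ hg ρ₀ habs₀
  -- the local data at each `j`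
  have key : ∀ j : Fin m, ∃ w c i : ℕ, w ≤ v ∧ qB j = p ^ w * c + 1 ∧ 0 < i ∧ i < p ^ w ∧
      LinearMap.charpoly (ρ.ρ (σB j)) = X ^ 2 - C (algebraMap 𝒪 𝒪'
        ((ζ ^ (p ^ (v - w))) ^ i + (ζ ^ (p ^ (v - w))) ^ (p ^ w - i))) * X + 1 := by
    intro j
    have hqpr : (qB j).Prime := (hQ (qB j) (hqBQ j)).1
    obtain ⟨w, c, hw0, hwv, hqwc, hpc⟩ := s59b_exists_vc hpP hqpr.one_lt (hq1 j) (hqv j)
    obtain ⟨τ, c₀, hc₀, hτc, L₀, hL₀, hτ1⟩ := hloc j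
    -- the nebentypus is not trivial at `qB j`
    have hjτ : jT (algebraMap 𝒪 T' c₀) = op (Sum.inr τ) := by
      rw [AlgHom.commutes]
      refine LinearMap.ext fun z => ?_
      rw [Module.algebraMap_end_apply, hτc]
    have hxτ : algebraMap 𝒪 𝒪' c₀ = ((θ (s59w_lrUnit τ) : 𝒪'ˣ) : 𝒪') ^ 2 := by
      rw [← hpure _ τ hjτ, AlgHom.commutes]
    have hθne : θ (s59w_lrUnit τ) ≠ 1 := by
      intro h1
      rw [h1, Units.val_one, one_pow] at hxτ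
      exact hc₀ (hinj (by rw [hxτ, map_one]))
    have hχne : ∃ (L₀' : ℕ) (x₀ : ℤ) (du : (ZMod M)ˣ), M = L₀' * qB j ∧
        ((du : (ZMod M)ˣ) : ZMod M) = ((x₀ : ℤ) : ZMod M) ∧ (L₀' : ℤ) ∣ x₀ - 1 ∧ θ du ≠ 1 := by
      refine ⟨L₀, ((τ : SL(2, ℤ)) 1 1 : ℤ), s59w_lrUnit τ, hL₀, s59w_lrUnit_coe τ, ?_, hθne⟩
      have hdvd : L₀ ∣ M := hL₀ ▸ Dvd.intro (qB j) rfl
      have h2 := congrArg (fun u : (ZMod L₀)ˣ => (u : ZMod L₀)) hτ1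
      simp only [ZMod.unitsMap_def, Units.coe_map, MonoidHom.coe_coe, Units.val_one] at h2
      rw [s59w_lrUnit_coe, map_intCast] at h2
      rw [← ZMod.intCast_zmod_eq_zero_iff_dvd, Int.cast_sub, Int.cast_one, h2, sub_self]
    have hU : ρ.residual.IsUnramifiedAt (qB j) :=
      s59b_bc_residual_unram _ hg ρ₀ (qB j) (hunr₀ j)
    have hζj : IsPrimitiveRoot (ζ ^ (p ^ (v - w))) (p ^ w) := s59b_isPrimitiveRoot_local hpP hζ hwv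
    obtain ⟨i, hi0, hi, hcp⟩ := s59e_chi_point M N Q H p 𝒪' hinj hMeq hQ hH hp2 hp𝒪' θ hθH hθp a φ
      hφ0 hpar hdia heig S hpS hMS ρ habs hρ (qB j) (hqBQ j) (hqBp j) hw0 hqwc hpc
      (ζ ^ (p ^ (v - w))) hζj (Aj j) (hAj j) hU (σB j) (φB j) (hσB j) (hφB j) hχne
    exact ⟨w, c, i, hwv, hqwc, hi0, hi, hcp⟩
  choose w c i hwv hqwc hi0 hi hcp using key
  obtain ⟨I, hI⟩ := s59b_chiIdx_of_local (qB := qB) hpP hζ.pow_eq_one w c i hwv hqwc hi0 hi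
  refine ⟨I, fun j => ?_⟩
  have e1 : LinearMap.charpoly (ρ.ρ (σB j)) = X ^ 2 - C (algebraMap 𝒪 𝒪'
      (s59b_chiZ I j + s59b_chiZ' I j)) * X + C (1 : 𝒪') := by
    rw [hcp j, (hI j).1, (hI j).2, map_one]
  have htrρ := s59i_cpTr_of_charpoly ρ (σB j) _ _ e1
  have hdtρ := s59i_cpDt_of_charpoly ρ (σB j) _ _ e1
  rw [hρdef, s59e_cpTr_map] at htrρ
  rw [hρdef, s59e_cpDt_map] at hdtρ
  constructor
  · rw [← hker, RingHom.mem_ker, map_sub, AlgHom.commutes, sub_eq_zero]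
    exact htrρ
  · rw [← hker, RingHom.mem_ker, map_sub, map_one, sub_eq_zero]
    exact hdtρ

end Abs

section Eig

variable {M : ℕ} [NeZero M] (H : Subgroup (ZMod M)ˣ)
  {𝒪 : Type} [CommRing 𝒪] [IsDomain 𝒪] [IsDiscreteValuationRing 𝒪]
  [IsAdicComplete (maximalIdeal 𝒪) 𝒪] [Finite (ResidueField 𝒪)] [CharZero 𝒪]
  {Y' : Type} [AddCommGroup Y'] [Module 𝒪 Y'] [Module.Finite 𝒪 Y']
  (j : Y' →ₗ[𝒪] s48h_Hpar 𝒪 (s48h_GammaH M H) 𝒪) (hj : Function.Injective j)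
  (opY : s59w_AIdx M → Module.End 𝒪 Y')
  (hopY : ∀ jdx y, j (opY jdx y) = s59w_op H 𝒪 jdx (j y))
  {Δ' : Type} [CommGroup Δ'] [Fintype Δ'] (ρ' : Δ' →* Module.End 𝒪 Y')
  (hρ' : ∀ δ, ∃ τ : Gamma0 M, ρ' δ = opY (Sum.inr τ))
  (C : Subgroup Δ') (χ' : Δ' →* 𝒪ˣ)
  {T : Type} [CommRing T] [Algebra 𝒪 T] [Module T Y'] [IsScalarTower 𝒪 T Y']
  (hTρ : ∀ (t : T) (δ : Δ') (y : Y'), t • ρ' δ y = ρ' δ (t • y))

include hj hopY hρ' in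
/-- **"χ in family" for `Iχ = Ann_T(eig_{C,χ'}(Y'))`** = the field `hχ` of `s59i_TLevel` in the shape of
helper8's `s59t_TSide_level'` (binders of helper9's `s59m_hC8_eig`). -/
theorem s59b_hchi_eig (N : ℕ) [NeZero N] (Q : Finset ℕ)
    (hMeq : M = N * ∏ q ∈ Q, q) (hQ : ∀ q ∈ Q, q.Prime ∧ ¬ q ∣ N)
    (hH : ∀ (x : ℤ) (u : (ZMod M)ˣ), ((x : ℤ) : ZMod (∏ q ∈ Q, q)) = 1 →
      ((u : (ZMod M)ˣ) : ZMod M) = ((x : ℤ) : ZMod M) → u ∈ H)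
    (p : ℕ) [hpF : Fact p.Prime] (hp2 : p ≠ 2)
    {e m' : ℕ} (hnm : 2 * m' = p ^ e + 1) (hn : ∀ u : (ZMod M)ˣ, u ^ (p ^ e) ∈ H)
    [Algebra ℤ_[p] 𝒪] (hp𝒪 : (p : 𝒪) ∈ maximalIdeal 𝒪)
    (S : Finset ℕ) (hpS : p ∈ S) (hMS : ∀ r : ℕ, r.Prime → r ∣ M → r ∈ S)
    -- `T` acts through `𝒪[opY]`
    (hTg : ∀ t : T, ∃ x ∈ Algebra.adjoin 𝒪 (Set.range opY), ∀ y : Y', t • y = x y)
    -- the trace ring
    (T' : Type) [CommRing T'] [IsLocalRing T'] [Algebra 𝒪 T'] [Algebra T' T] [IsScalarTower 𝒪 T' T]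
    (tr : ℕ → T')
    (htr : ∀ i : s59w_TIdx M, i.ell ∉ S → ∀ y : Y', algebraMap T' T (tr i.ell) • y =
      opY (Sum.inr (s59e_tau i ((p ^ e - 1) * m'))) (opY (Sum.inl i) y))
    -- the Galois representation
    {A₀ : Type} [CommRing A₀] [IsLocalRing A₀] (ρ₀ : GaloisRepAdic A₀) (f : A₀ →+* T')
    (hf : IsLocalHom f) (habs₀ : ρ₀.residual.IsAbsolutelyIrreducible)
    (hρ₀ : ∀ ℓ : ℕ, ℓ.Prime → ℓ ∉ S → ∀ P' : ValuationSubring Qbar, P'.LiesOverPrime ℓ →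
      ∀ σ : GQ, P'.IsFrobeniusAt σ ℓ →
        ((ρ₀.ρ σ).charpoly).map f = X ^ 2 - Polynomial.C (tr ℓ) * X + Polynomial.C (ℓ : T'))
    -- the primes of type `χ`
    {m : ℕ} (qB : Fin m → ℕ) (hqBQ : ∀ j, qB j ∈ Q) (hqBp : ∀ j, qB j ≠ p)
    (v : ℕ) (hq1 : ∀ j, p ∣ qB j - 1) (hqv : ∀ j, ¬ p ^ (v + 1) ∣ qB j - 1)
    (ζ : 𝒪) (hζ : IsPrimitiveRoot ζ (p ^ v))
    (Aj : Fin m → ValuationSubring Qbar) (hAj : ∀ j, (Aj j).LiesOverPrime (qB j))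
    (σB φB : Fin m → GQ) (hσB : ∀ j, s59q_IsTameGen (qB j) (Aj j) (σB j))
    (hφB : ∀ j, (Aj j).IsFrobeniusAt (φB j) (qB j))
    (hunr₀ : ∀ j, ρ₀.residual.IsUnramifiedAt (qB j))
    (hloc : ∀ j, ∃ (τ : Gamma0 M) (γ : Δ'), γ ∈ C ∧ ρ' γ = opY (Sum.inr τ) ∧ χ' γ ≠ 1 ∧
      ∃ (L₀ : ℕ) (hL₀ : M = L₀ * qB j),
        ZMod.unitsMap (hL₀ ▸ Dvd.intro (qB j) rfl : L₀ ∣ M) (s59w_lrUnit τ) = 1) :
    ∀ 𝔮 ∈ ((Module.annihilator T (s59t_EigT ρ' C χ' hTρ)).comap (algebraMap T' T)).minimalPrimes,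
      (∀ o : 𝒪, o ≠ 0 → algebraMap 𝒪 T' o ∉ 𝔮) ∧
      ∃ I : s59b_chiIdx p v qB ζ, ∀ j,
        f (s59i_cpTr ρ₀ (σB j)) - algebraMap 𝒪 T' (s59b_chiZ I j + s59b_chiZ' I j) ∈ 𝔮 ∧
        f (s59i_cpDt ρ₀ (σB j)) - 1 ∈ 𝔮 := by
  classical
  haveI : IsNoetherian 𝒪 Y' := isNoetherian_of_isNoetherianRing_of_finite 𝒪 Y'
  haveI : Module.Finite 𝒪 (s59t_EigT ρ' C χ' hTρ) :=
    (inferInstance : Module.Finite 𝒪 (s59t_eig ρ' C χ'))
  -- the embedding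
  let emb : s59t_EigT ρ' C χ' hTρ →ₗ[𝒪] s48h_Hpar 𝒪 (s48h_GammaH M H) 𝒪 :=
    j ∘ₗ s59t_EigT_val ρ' C χ' hTρ
  have hemb : Function.Injective emb :=
    hj.comp (s59t_EigT_val_injective ρ' C χ' hTρ)
  haveI : Module.Free 𝒪 (s59t_EigT ρ' C χ' hTρ) := s59m_free_of_emb H emb hemb
  have hop : ∀ jdx z, emb (s59m_opZ H j hj opY hopY ρ' hρ' C χ' hTρ jdx z) =
      s59w_op H 𝒪 jdx (emb z) := fun jdx z => hopY jdx _
  -- the action of `T` and of `T'`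
  let jT : T →ₐ[𝒪] Module.End 𝒪 (s59t_EigT ρ' C χ' hTρ) :=
    Algebra.lsmul 𝒪 𝒪 (s59t_EigT ρ' C χ' hTρ)
  have hjT : ∀ (t : T) (z : s59t_EigT ρ' C χ' hTρ), jT t z = t • z := fun t z => rfl
  let jT' : T' →ₐ[𝒪] Module.End 𝒪 (s59t_EigT ρ' C χ' hTρ) :=
    jT.comp (IsScalarTower.toAlgHom 𝒪 T' T)
  have hjT' : ∀ (t : T') (z : s59t_EigT ρ' C χ' hTρ), jT' t z = algebraMap T' T t • z :=
    fun t z => rfl
  have hjTg : ∀ t, jT' t ∈ Algebra.adjoin 𝒪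
      (Set.range (s59m_opZ H j hj opY hopY ρ' hρ' C χ' hTρ)) := by
    intro t
    obtain ⟨x, hx, hxt⟩ := hTg (algebraMap T' T t)
    obtain ⟨hst, hmem⟩ := s59m_restrict_mem_adjoin (s59t_eig ρ' C χ') opY
      (s59m_opY_mem_eig H j hj opY hopY ρ' hρ' C χ') hx
    have e1 : jT' t = (x.restrict hst : Module.End 𝒪 (s59t_eig ρ' C χ')) := by
      refine LinearMap.ext fun z => s59t_EigT_val_injective ρ' C χ' hTρ ?_
      rw [hjT', s59t_EigT_val_smul, hxt]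
      rfl
    rw [e1]
    exact hmem
  have hker : (Module.annihilator T (s59t_EigT ρ' C χ' hTρ)).comap (algebraMap T' T) =
      RingHom.ker (jT' : T' →+* Module.End 𝒪 (s59t_EigT ρ' C χ' hTρ)) := by
    ext t
    rw [Ideal.mem_comap, Module.mem_annihilator, RingHom.mem_ker]
    constructor
    · intro h
      exact LinearMap.ext fun z => h z
    · intro h z
      have := LinearMap.congr_fun h z
      exact this
  rw [hker]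
  refine s59b_hchi_abs (Z := s59t_EigT ρ' C χ' hTρ) N Q hMeq hQ H hH p hp2 hnm hn 𝒪 hp𝒪 S hpS hMS
    emb hemb (s59m_opZ H j hj opY hopY ρ' hρ' C χ' hTρ) hop T' jT' hjTg tr ?_ ρ₀ f hf habs₀ hρ₀
    qB hqBQ hqBp v hq1 hqv ζ hζ Aj hAj σB φB hσB hφB hunr₀ ?_
  · intro i hi
    refine LinearMap.ext fun z => s59t_EigT_val_injective ρ' C χ' hTρ ?_
    rw [hjT', s59t_EigT_val_smul, htr i hi, Module.End.mul_apply, s59m_opZ_val, s59m_opZ_val]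
  · intro j'
    obtain ⟨τ, γ, hγC, hγτ, hγ1, L₀, hL₀, hτ1⟩ := hloc j'
    refine ⟨τ, ((χ' γ : 𝒪ˣ) : 𝒪), ?_, ?_, L₀, hL₀, hτ1⟩
    · intro h1
      exact hγ1 (Units.ext (by rw [h1, Units.val_one]))
    · intro z
      refine s59t_EigT_val_injective ρ' C χ' hTρ ?_
      rw [s59m_opZ_val, ← hγτ, map_smul]
      exact (s59t_EigT_val_mem ρ' C χ' hTρ z) γ hγC

end Eig

end Fermat.Agent.Lib.S59
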