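/-
Programme (R) = S59, node [SPAN], complement (helper3): **absolute irreducibility ⇔ the matrices span `M₂`**, hence
absolute irreducibility is stable under extension of the coefficient field.

* `s59u_irr_of_span` : if the matrices of `ρ : ResidualGaloisRep k` span `M₂(k)` then `ρ` is irreducible;
* `s59u_absIrr_of_span`, `s59u_absIrr_iff_span`;
* `s59u_absIrr_baseChange`, `s59u_absIrr_baseChangeAlong` : `ρ` absolutely irreducible ⇒ `ρ ⊗_k k'` absolutely
  irreducible.
-/
import Mathlib
import Fermat.Agent.Lib.S59.USpan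

set_option autoImplicit false
set_option linter.unusedSectionVars false
set_option linter.unusedVariables false
set_option linter.unusedSimpArgs false
set_option linter.unnecessarySeqFocus false
set_option linter.style.haveILetI false

noncomputable section

namespace Fermat.Agent.Lib.S59

open Matrix Module
open Fermat.Agent.Lib.S53 (matOfRes matOfRes_apply exists_basis_baseChange_res)

section Irr

variable {k : Type} [Field k]

/-- a vector which is an eigenvector of every `2 × 2` matrix is zero. -/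
theorem s59u_no_universal_eigen (w : Fin 2 → k)
    (h : ∀ Y : Matrix (Fin 2) (Fin 2) k, ∃ c : k, Y.mulVec w = c • w) : w = 0 := by
  obtain ⟨c₁, h1⟩ := h !![0, 1; 0, 0]
  obtain ⟨c₂, h2⟩ := h !![0, 0; 1, 0]
  have h10 := congrFun h1 0
  have h11 := congrFun h1 1
  have h20 := congrFun h2 0
  have h21 := congrFun h2 1
  simp [Matrix.mulVec, dotProduct, Fin.sum_univ_two] at h10 h11 h20 h21
  -- h10 : w 1 = c₁ * w 0, h11 : 0 = c₁ * w 1 (or variants), h20 : 0 = c₂ * w 0, h21 : w 0 = c₂ * w 1
  have hw1 : w 1 = 0 := by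
    rcases h11 with h | h
    · rw [h10, h, zero_mul]
    · exact h
  have hw0 : w 0 = 0 := by
    rcases h20 with h | h
    · rw [h21, h, zero_mul]
    · exact h
  funext i
  fin_cases i
  · exact hw0
  · exact hw1

/-- **spanning ⇒ irreducible.** -/
theorem s59u_irr_of_span (ρ : ResidualGaloisRep k) (b : Basis (Fin 2) k ρ.V)
    (h : ∀ Y : Matrix (Fin 2) (Fin 2) k, Y ∈ Submodule.span k (Set.range (matOfRes ρ b))) :
    ρ.IsIrreducible := by
  intro W hW
  by_contra hcon
  push Not at hcon
  obtain ⟨hbot, htop⟩ := hcon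
  have h1 : 1 ≤ finrank k W := Submodule.one_le_finrank_iff.mpr hbot
  have h2 : finrank k W < finrank k ρ.V := Submodule.finrank_lt htop
  rw [ρ.finrank_eq] at h2
  have h3 : finrank k W = 1 := by omega
  obtain ⟨v, hv0, hv⟩ := finrank_eq_one_iff'.mp h3
  have hv0' : (v : ρ.V) ≠ 0 := fun h0 => hv0 (Subtype.ext h0)
  have heig : ∀ σ, ∃ c : k, ρ.ρ σ (v : ρ.V) = c • (v : ρ.V) := by
    intro σ
    obtain ⟨c, hc⟩ := hv ⟨ρ.ρ σ v, hW σ v v.2⟩
    exact ⟨c, (congrArg Subtype.val hc).symm⟩
  set w : Fin 2 → k := fun i => b.repr (v : ρ.V) i with hw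
  have hw0 : w ≠ 0 := by
    intro h0
    apply hv0'
    apply b.repr.injective
    ext i
    rw [map_zero, Finsupp.zero_apply]
    exact congrFun h0 i
  apply hw0
  apply s59u_no_universal_eigen
  intro Y
  have hY := h Y
  induction hY using Submodule.span_induction with
  | mem x hx =>
    obtain ⟨σ, rfl⟩ := hx
    obtain ⟨c, hc⟩ := heig σ
    refine ⟨c, ?_⟩
    have e1 := LinearMap.toMatrix_mulVec_repr b b (ρ.ρ σ) (v : ρ.V)
    rw [hc, map_smul] at e1
    rw [matOfRes_apply]
    funext i
    have := congrFun e1 i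
    simpa using this
  | zero => exact ⟨0, by rw [Matrix.zero_mulVec, zero_smul]⟩
  | add x y _ _ hx hy =>
    obtain ⟨c, hc⟩ := hx
    obtain ⟨d, hd⟩ := hy
    exact ⟨c + d, by rw [Matrix.add_mulVec, hc, hd, add_smul]⟩
  | smul a x _ hx =>
    obtain ⟨c, hc⟩ := hx
    exact ⟨a * c, by rw [Matrix.smul_mulVec, hc, mul_smul]⟩

/-- **spanning ⇒ absolutely irreducible.** -/
theorem s59u_absIrr_of_span (ρ : ResidualGaloisRep k) (b : Basis (Fin 2) k ρ.V)
    (h : ∀ Y : Matrix (Fin 2) (Fin 2) k, Y ∈ Submodule.span k (Set.range (matOfRes ρ b))) :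
    ρ.IsAbsolutelyIrreducible := by
  obtain ⟨bK, hbK⟩ := exists_basis_baseChange_res (K := AlgebraicClosure k) ρ b
  refine s59u_irr_of_span (ρ.baseChange (AlgebraicClosure k)) bK fun Y => ?_
  have h1 := s59u_span_map (algebraMap k (AlgebraicClosure k)) (fun g => matOfRes ρ b g) h Y
  have e : (Set.range fun g => (matOfRes ρ b g).map (algebraMap k (AlgebraicClosure k))) =
      Set.range (matOfRes (ρ.baseChange (AlgebraicClosure k)) bK) := by
    congr 1
    funext g
    exact (hbK g).symm
  rw [← e]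
  exact h1

theorem s59u_absIrr_iff_span (ρ : ResidualGaloisRep k) (b : Basis (Fin 2) k ρ.V) :
    ρ.IsAbsolutelyIrreducible ↔
      ∀ Y : Matrix (Fin 2) (Fin 2) k, Y ∈ Submodule.span k (Set.range (matOfRes ρ b)) :=
  ⟨fun h => s59u_span_matOfRes ρ h b, s59u_absIrr_of_span ρ b⟩

/-- **absolute irreducibility is stable under extension of the coefficient field.** -/
theorem s59u_absIrr_baseChange {k' : Type} [Field k'] [Algebra k k'] (ρ : ResidualGaloisRep k)
    (habs : ρ.IsAbsolutelyIrreducible) : (ρ.baseChange k').IsAbsolutelyIrreducible := by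
  set b := Fermat.Agent.Lib.S53.ResidualGaloisRep.someBasis ρ with hb
  obtain ⟨b', hb'⟩ := exists_basis_baseChange_res (K := k') ρ b
  refine s59u_absIrr_of_span (ρ.baseChange k') b' fun Y => ?_
  have h1 := s59u_span_map (algebraMap k k') (fun g => matOfRes ρ b g)
    (s59u_span_matOfRes ρ habs b) Y
  have e : (Set.range fun g => (matOfRes ρ b g).map (algebraMap k k')) =
      Set.range (matOfRes (ρ.baseChange k') b') := by
    congr 1
    funext g
    exact (hb' g).symm
  rw [← e]
  exact h1

theorem s59u_absIrr_baseChangeAlong {k' : Type} [Field k'] (φ : k →+* k')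
    (ρ : ResidualGaloisRep k) (habs : ρ.IsAbsolutelyIrreducible) :
    (ρ.baseChangeAlong φ).IsAbsolutelyIrreducible := by
  letI : Algebra k k' := φ.toAlgebra
  exact s59u_absIrr_baseChange (k' := k') ρ habs

end Irr

end Fermat.Agent.Lib.S59
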