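/-
helper2 (prefix `s59b_`): the residual facts of a universal deformation `DQ` needed by `s59b_hchi_eig`
(`habs₀`, `hunr₀`), and the `qB`-numerology of the `s59i_TPkg` binders (`hqBp`, `hq1`, `hqv`, `hσB`, `hφB`).
-/
import Mathlib
import Fermat.Agent.Lib.S59.LFinC1
import Fermat.Agent.Lib.S59.USpanIrr
import Fermat.Agent.Lib.S59.QFreyRE
import Fermat.Agent.Lib.S59.EHType

set_option autoImplicit false
set_option linter.unusedSectionVars false
set_option linter.unusedVariables false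
set_option linter.style.haveILetI false

noncomputable section

namespace Fermat.Agent.Lib.S59

open IsLocalRing Polynomial CuspForm FreyPackage

local notation "Qbar" => AlgebraicClosure ℚ
local notation "GQ" => (AlgebraicClosure ℚ ≃ₐ[ℚ] AlgebraicClosure ℚ)

section DQ

variable {𝒪 : Type} [CommRing 𝒪] [IsDomain 𝒪] [IsDiscreteValuationRing 𝒪]
  [IsAdicComplete (maximalIdeal 𝒪) 𝒪]
  {ρbar : ResidualGaloisRep (ResidueField 𝒪)}
  {𝒟 : ∀ ⦃A : Type⦄ [CommRing A] [IsLocalRing A] [Algebra 𝒪 A], GaloisRepAdic A → Prop}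

/-- the residual representation of a universal deformation is absolutely irreducible. -/
theorem s59b_DQ_residual_absIrr (DQ : GaloisRep.DeformationRingData 𝒪 ρbar 𝒟) :
    DQ.ρ.residual.IsAbsolutelyIrreducible := by
  obtain ⟨e⟩ := DQ.residual_isEquiv
  exact s59b_absIrr_of_isEquiv _ _ ⟨e.symm⟩
    (s59u_absIrr_baseChangeAlong (IsLocalRing.ResidueField.map (algebraMap 𝒪 DQ.R)) ρbar DQ.absIrr)

/-- the residual representation of a universal deformation is unramified where `ρ̄` is. -/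
theorem s59b_DQ_residual_unram (DQ : GaloisRep.DeformationRingData 𝒪 ρbar 𝒟) (q : ℕ)
    (h : ρbar.IsUnramifiedAt q) : DQ.ρ.residual.IsUnramifiedAt q := by
  obtain ⟨e⟩ := DQ.residual_isEquiv
  exact s59e_unram_of_res_isEquiv ⟨e.symm⟩ q
    (s59q_bcAlong_unram (IsLocalRing.ResidueField.map (algebraMap 𝒪 DQ.R)) ρbar q h)

end DQ

section Rd

variable {p : ℕ} [Fact p.Prime] {N : ℕ} {𝒪 : Type} [CommRing 𝒪] [IsDomain 𝒪]
  [IsDiscreteValuationRing 𝒪] [IsAdicComplete (maximalIdeal 𝒪) 𝒪]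
  {ρbar : ResidualGaloisRep (ResidueField 𝒪)} {S Bd : Finset ℕ}
  {𝒟 : ∀ ⦃A : Type⦄ [CommRing A] [IsLocalRing A] [Algebra 𝒪 A], GaloisRepAdic A → Prop}

theorem s59b_Rd_qB_mem (Rd : s59i_RData p N ρbar S Bd) (j : Fin Rd.m) :
    ((Rd.pr (Sum.inl j) : ℕ)) ∈ Bd := by
  have h : ((Rd.pr (Sum.inl j) : ℕ)) ∈
      Finset.univ.image (fun j : Fin Rd.m => (Rd.pr (Sum.inl j) : ℕ)) :=
    Finset.mem_image.2 ⟨j, Finset.mem_univ _, rfl⟩
  have h2 : ∀ x, x ∈ Finset.univ.image (fun j : Fin Rd.m => (Rd.pr (Sum.inl j) : ℕ)) → x ∈ Bd :=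
    fun x hx => (Finset.ext_iff.1 Rd.hprB x).1 hx
  exact h2 _ h

/-- `hunr₀` of `s59b_hchi_eig` in the `s59i_TPkg` context. -/
theorem s59b_Rd_DQ_unram (Rd : s59i_RData p N ρbar S Bd)
    (DQ : GaloisRep.DeformationRingData 𝒪 ρbar 𝒟) (j : Fin Rd.m) :
    DQ.ρ.residual.IsUnramifiedAt ((Rd.pr (Sum.inl j) : ℕ)) :=
  s59b_DQ_residual_unram DQ _ (Rd.hBunr _ (s59b_Rd_qB_mem Rd j)).2

theorem s59b_Rd_qB_ne (Rd : s59i_RData p N ρbar S Bd) (j : Fin Rd.m) :
    ((Rd.pr (Sum.inl j) : ℕ)) ≠ p :=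
  (Rd.hBunr _ (s59b_Rd_qB_mem Rd j)).1

end Rd

end Fermat.Agent.Lib.S59
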