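/-
PROGRAMME (R), final wiring, the R-SIDE PACKAGE AT THE FREY CURVE, part A (helper6, prefix `s59q_`): **dictionary between the
`p`-torsion of an integral Weierstrass model `W` and the residual representation `ρ̄` of `ρ_W ⊗ 𝒪`.**

`ρ_W = s59b_rhoW W p hΔ` (helper2), `φ : ℤ_p → 𝒪` local, `ρ̄ = (ρ_W.baseChangeAlong φ hφ).residual`.

* `s59q_bc_sub_smul_mem`, `s59q_residual_eq_smul` : if `τ` acts on `W[p]` as the multiplication by `c : ℕ`, then `ρ̄(τ) = c`;
  `s59q_residual_one_of_fix` (`c = 1`);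
* `s59q_rhobar_unram_of_model` : inertia at `q` trivial on `E[p]` (`E` a rational curve with integral model `W`) gives `ρ̄`
  unramified at `q`;
* `s59q_rhobar_central` : `ρ̄` unramified at `q` and Frobenius at `q` scalar on `E[p]` give `s59q_CentralAt ρ̄ q`;
* `s59q_charpoly_plane`, `s59q_residual_charpoly_int` : `charpoly ρ̄(σ) = X² − aX + b` with `a b : ℤ`; `s59q_residual_split`;
* `s59q_residual_detCyc` : `(ofResidualGaloisRep ρ̄).DetIsCyclotomic p`.
-/
import Fermat.Agent.Lib.S59.ETWTop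
import Fermat.Agent.Lib.S59.ETame
import Fermat.Agent.Lib.S59.EB7Rep
import Fermat.Agent.Lib.S59.QSelCount
import Fermat.Agent.Lib.S56.GDecomp
import Fermat.Agent.Lib.S56.GUnr
import Fermat.Agent.Lib.S44.SoftTransport

set_option autoImplicit false
set_option linter.style.haveILetI false
set_option linter.unusedSectionVars false

noncomputable section

namespace Fermat.Agent.Lib.S59

open Fermat.Agent.Lib.S30 Fermat.Agent.Lib.S58 Fermat.Agent.Lib.S56 Fermat.Agent.Lib.S44 ExtCitation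
open WeierstrassCurve WeierstrassCurve.Affine IsLocalRing TensorProduct Polynomial

local notation "Kb" => AlgebraicClosure ℚ
local notation "GQ" => (AlgebraicClosure ℚ ≃ₐ[ℚ] AlgebraicClosure ℚ)

section General

variable {W : WeierstrassCurve ℤ} {p : ℕ} [hp : Fact p.Prime]
  {𝒪 : Type} [CommRing 𝒪] [IsLocalRing 𝒪]

/-- `φ(p)` lies in the maximal ideal. -/
theorem s59q_phi_p_mem (φ : ℤ_[p] →+* 𝒪) (hφ : IsLocalHom φ) :
    φ (p : ℤ_[p]) ∈ maximalIdeal 𝒪 := by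
  haveI := hφ
  exact map_nonunit φ _ (s59b_p_mem p)

/-- auxiliary form of `s59q_bc_sub_smul_mem` on the tensor product. -/
theorem s59q_bc_sub_smul_mem_aux (φ : ℤ_[p] →+* 𝒪) (hφ : IsLocalHom φ) (τ : GQ) (c : ℕ)
    (h : ∀ Q : s58_Pt W, p • Q = 0 → τ • Q = c • Q) :
    letI : Algebra ℤ_[p] 𝒪 := φ.toAlgebra
    ∀ x : 𝒪 ⊗[ℤ_[p]] s59b_TW W p, (s59b_rhoFun W p τ).baseChange 𝒪 x - c • x ∈
      maximalIdeal 𝒪 • (⊤ : Submodule 𝒪 (𝒪 ⊗[ℤ_[p]] s59b_TW W p)) := by
  letI : Algebra ℤ_[p] 𝒪 := φ.toAlgebra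
  intro x
  induction x using TensorProduct.induction_on with
  | zero =>
    rw [map_zero, smul_zero, sub_zero]
    exact Submodule.zero_mem _
  | tmul b t =>
    rw [LinearMap.baseChange_tmul]
    have h1 : ((s59b_rhoFun W p τ t - (c : ℤ_[p]) • t : s59b_TW W p) : ℕ → s58_Pt W) 1 = 0 := by
      rw [s30a_sub_apply, s59b_rhoFun_apply, s30a_natCast_smul_apply, sub_eq_zero]
      refine h _ ?_
      have := s30a_pow_smul t 1
      rwa [pow_one] at this
    obtain ⟨w, hw⟩ := s30a_exists_pow_smul _ 1 h1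
    rw [pow_one] at hw
    have h2 : s59b_rhoFun W p τ t = (c : ℤ_[p]) • t + (p : ℤ_[p]) • w := by
      rw [← hw]; abel
    have h3 : b ⊗ₜ[ℤ_[p]] ((c : ℤ_[p]) • t) = c • (b ⊗ₜ[ℤ_[p]] t) := by
      rw [TensorProduct.tmul_smul, Nat.cast_smul_eq_nsmul ℤ_[p]]
    have h4 : b ⊗ₜ[ℤ_[p]] ((p : ℤ_[p]) • w) = φ (p : ℤ_[p]) • (b ⊗ₜ[ℤ_[p]] w) := by
      rw [TensorProduct.tmul_smul, TensorProduct.smul_tmul', TensorProduct.smul_tmul',
        Algebra.smul_def, smul_eq_mul]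
      rfl
    rw [h2, TensorProduct.tmul_add, h3, h4, add_sub_cancel_left]
    exact Submodule.smul_mem_smul (s59q_phi_p_mem φ hφ) Submodule.mem_top
  | add x y hx hy =>
    have : (s59b_rhoFun W p τ).baseChange 𝒪 (x + y) - c • (x + y) =
        ((s59b_rhoFun W p τ).baseChange 𝒪 x - c • x) +
          ((s59b_rhoFun W p τ).baseChange 𝒪 y - c • y) := by
      rw [map_add, smul_add]; abel
    rw [this]
    exact Submodule.add_mem _ hx hy

/-- **if `τ` acts on `W[p]` as the multiplication by `c`, then `ρ(τ) − c` maps `V` into `𝔪 V`** (`ρ = ρ_W ⊗ 𝒪`). -/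
theorem s59q_bc_sub_smul_mem (hΔ : W.Δ ≠ 0) (φ : ℤ_[p] →+* 𝒪) (hφ : IsLocalHom φ) (τ : GQ) (c : ℕ)
    (h : ∀ Q : s58_Pt W, p • Q = 0 → τ • Q = c • Q)
    (v : ((s59b_rhoW W p hΔ).baseChangeAlong φ hφ).V) :
    ((s59b_rhoW W p hΔ).baseChangeAlong φ hφ).ρ τ v - c • v ∈
      maximalIdeal 𝒪 • (⊤ : Submodule 𝒪 ((s59b_rhoW W p hΔ).baseChangeAlong φ hφ).V) :=
  s59q_bc_sub_smul_mem_aux φ hφ τ c h v

/-- auxiliary form of `s59q_residual_eq_smul` on the tensor product. -/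
theorem s59q_residual_eq_smul_aux {V : Type} [AddCommGroup V] [Module 𝒪 V] (f : Module.End 𝒪 V)
    (c : ℕ) (h : ∀ v : V, f v - c • v ∈ maximalIdeal 𝒪 • (⊤ : Submodule 𝒪 V))
    (x : ResidueField 𝒪 ⊗[𝒪] V) : f.baseChange (ResidueField 𝒪) x = c • x := by
  induction x using TensorProduct.induction_on with
  | zero => rw [map_zero, smul_zero]
  | tmul a v =>
    rw [LinearMap.baseChange_tmul, ← sub_eq_zero]
    have h1 : c • (a ⊗ₜ[𝒪] v) = a ⊗ₜ[𝒪] (c • v) := by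
      rw [← Nat.cast_smul_eq_nsmul 𝒪 c v, TensorProduct.tmul_smul, Nat.cast_smul_eq_nsmul 𝒪]
    rw [h1, ← TensorProduct.tmul_sub]
    have h2 : (1 : ResidueField 𝒪) ⊗ₜ[𝒪] (f v - c • v) = 0 :=
      (s59e_one_tmul_eq_zero_iff _).mpr (h v)
    have h3 : a ⊗ₜ[𝒪] (f v - c • v) = a • ((1 : ResidueField 𝒪) ⊗ₜ[𝒪] (f v - c • v)) := by
      rw [TensorProduct.smul_tmul', smul_eq_mul, mul_one]
    rw [h3, h2, smul_zero]
  | add x y hx hy => rw [map_add, smul_add, hx, hy]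

/-- **if `τ` acts on `W[p]` as the multiplication by `c`, then `ρ̄(τ) = c`.** -/
theorem s59q_residual_eq_smul (hΔ : W.Δ ≠ 0) (φ : ℤ_[p] →+* 𝒪) (hφ : IsLocalHom φ) (τ : GQ) (c : ℕ)
    (h : ∀ Q : s58_Pt W, p • Q = 0 → τ • Q = c • Q) :
    ((s59b_rhoW W p hΔ).baseChangeAlong φ hφ).residual.ρ τ = (c : ResidueField 𝒪) • 1 := by
  refine LinearMap.ext fun x => ?_
  rw [LinearMap.smul_apply, Module.End.one_apply, Nat.cast_smul_eq_nsmul]
  exact s59q_residual_eq_smul_aux _ c (s59q_bc_sub_smul_mem hΔ φ hφ τ c h) x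

/-- **if `τ` fixes `W[p]` pointwise, then `ρ̄(τ) = 1`.** -/
theorem s59q_residual_one_of_fix (hΔ : W.Δ ≠ 0) (φ : ℤ_[p] →+* 𝒪) (hφ : IsLocalHom φ) (τ : GQ)
    (h : ∀ Q : s58_Pt W, p • Q = 0 → τ • Q = Q) :
    ((s59b_rhoW W p hΔ).baseChangeAlong φ hφ).residual.ρ τ = 1 := by
  rw [s59q_residual_eq_smul hΔ φ hφ τ 1 (fun Q hQ => by rw [h Q hQ, one_smul]), Nat.cast_one,
    one_smul]

end General

section Transport

variable (E : WeierstrassCurve ℚ) (W : WeierstrassCurve ℤ)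
  (C : VariableChange ℚ) (hC : C • E = W.map (Int.castRingHom ℚ)) (p : ℕ) [hp : Fact p.Prime]
  {𝒪 : Type} [CommRing 𝒪] [IsLocalRing 𝒪]

include hC in
/-- a `σ` acting on `E[n]` as the multiplication by `c` acts on `W[n]` in the same way. -/
theorem s59q_smul_of_smul (n : ℕ) (σ : GQ) (c : ℕ)
    (h : ∀ x : (E.toAffine⁄Kb).Point, n • x = 0 → σ • x = c • x)
    (Q : s58_Pt W) (hQ : n • Q = 0) : σ • Q = c • Q := by
  have h1 := h (s44s_Psi E W C hC Q) ((s44s_Psi_nsmul_eq_zero E W C hC n Q).mpr hQ)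
  rw [← s44s_Psi_sigma, ← map_nsmul] at h1
  exact (s44s_Psi E W C hC).injective h1

include hC in
/-- **inertia at `q` trivial on `E[p]` gives `ρ̄` unramified at `q`.** -/
theorem s59q_rhobar_unram_of_model (hΔ : W.Δ ≠ 0) (φ : ℤ_[p] →+* 𝒪) (hφ : IsLocalHom φ) (q : ℕ)
    (h : Point.GaloisRepUnramifiedAt (K := Kb) ℚ E.toAffine p q) :
    ((s59b_rhoW W p hΔ).baseChangeAlong φ hφ).residual.IsUnramifiedAt q := by
  intro A hA τ hτ
  exact s59q_residual_one_of_fix hΔ φ hφ τ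
    (s44s_fix_of_fix E W C hC p τ (fun v => h A hA τ hτ v))

include hC in
/-- **`ρ̄` unramified at `q` with scalar Frobenius on `E[p]` is central at `q`.** -/
theorem s59q_rhobar_central (hΔ : W.Δ ≠ 0) (φ : ℤ_[p] →+* 𝒪) (hφ : IsLocalHom φ) (q : Nat.Primes)
    (hunr : ((s59b_rhoW W p hΔ).baseChangeAlong φ hφ).residual.IsUnramifiedAt q)
    (hsc : ∀ A : ValuationSubring Kb, A.LiesOverPrime q → ∀ σ : GQ, A.IsFrobeniusAt σ q →
      ∃ c : ℕ, ∀ x : (E.toAffine⁄Kb).Point, p • x = 0 → σ • x = c • x) :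
    s59q_CentralAt ((s59b_rhoW W p hΔ).baseChangeAlong φ hφ).residual q := by
  set ρb := ((s59b_rhoW W p hΔ).baseChangeAlong φ hφ).residual with hρb
  intro τ X
  obtain ⟨L, hL, hLρ⟩ := ρb.factorsThroughFiniteLevel
  obtain ⟨φq, hφq⟩ := Fermat.Agent.Lib.Frobenius.exists_isFrobeniusAt_of_liesOverPrime _ _ q.2
    (s56g_place_liesOver (q := q))
  obtain ⟨c, hc⟩ := hsc _ (s56g_place_liesOver (q := q)) φq hφq
  have hφsc : ρb.ρ φq = (c : ResidueField 𝒪) • 1 :=
    s59q_residual_eq_smul hΔ φ hφ φq c (s59q_smul_of_smul E W C hC p φq c hc)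
  obtain ⟨j, ι, hι, hfix⟩ := s56g_ifaceFrobGen q q.2 (primeLocalPlace q)
    (s56g_place_liesOver (q := q)) φq hφq L hL (primeLocalToGlobal q τ) (s56g_loc_mem_decomp (q := q) τ)
  have h1 : ρb.ρ ((φq ^ j * ι)⁻¹ * primeLocalToGlobal q τ) = 1 :=
    hLρ _ fun x hx => (IntermediateField.mem_fixingSubgroup_iff L _).1 hfix x hx
  have h2 : ρb.ρ (primeLocalToGlobal q τ) = ρb.ρ (φq ^ j * ι) := by
    have h3 : primeLocalToGlobal q τ = (φq ^ j * ι) * ((φq ^ j * ι)⁻¹ * primeLocalToGlobal q τ) := by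
      group
    rw [h3, map_mul, h1, mul_one]
  have h4 : ρb.ρ (φq ^ j * ι) = ((c : ResidueField 𝒪) ^ j) • 1 := by
    rw [map_mul, map_pow, hunr _ (s56g_place_liesOver (q := q)) ι hι, mul_one, hφsc, _root_.smul_pow,
      one_pow]
  rw [h2, h4, smul_mul_assoc, one_mul, mul_smul_comm, mul_one]

end Transport

section Charpoly

/-- the characteristic polynomial of an endomorphism of a plane. -/
theorem s59q_charpoly_plane {k : Type*} [Field k] {V : Type*} [AddCommGroup V] [Module k V]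
    [Module.Finite k V] (hdim : Module.finrank k V = 2) (f : Module.End k V) :
    LinearMap.charpoly f = X ^ 2 - C (LinearMap.trace k V f) * X + C (LinearMap.det f) := by
  let b : Module.Basis (Fin 2) k V := Module.finBasisOfFinrankEq k V hdim
  rw [← LinearMap.charpoly_toMatrix f b, Matrix.charpoly_fin_two,
    LinearMap.trace_eq_matrix_trace k b, LinearMap.det_toMatrix]

variable {p : ℕ} [hp : Fact p.Prime] {𝒪 : Type} [CommRing 𝒪] [IsLocalRing 𝒪]

/-- the image of a `p`-adic integer in the residue field of `𝒪` is an integer. -/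
theorem s59q_residue_padic_int (φ : ℤ_[p] →+* 𝒪) (hφ : IsLocalHom φ) (x : ℤ_[p]) :
    ∃ a : ℤ, residue 𝒪 (φ x) = (a : ResidueField 𝒪) := by
  refine ⟨(x.appr 1 : ℕ), ?_⟩
  have h1 := PadicInt.appr_spec 1 x
  rw [pow_one, Ideal.mem_span_singleton] at h1
  obtain ⟨y, hy⟩ := h1
  have h2 : x = (x.appr 1 : ℤ_[p]) + (p : ℤ_[p]) * y := by rw [← hy]; ring
  have h3 : residue 𝒪 (φ (p : ℤ_[p])) = 0 :=
    (residue_eq_zero_iff _).mpr (s59q_phi_p_mem φ hφ)
  conv_lhs => rw [h2]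
  rw [map_add, map_mul, map_add, map_mul, h3, zero_mul, add_zero, map_natCast, map_natCast,
    Int.cast_natCast]

/-- **`charpoly ρ̄(σ) = X² − aX + b` with integers `a`, `b`** (`ρ̄` the residual representation of a base change of a
`ℤ_p`-representation). -/
theorem s59q_residual_charpoly_int (φ : ℤ_[p] →+* 𝒪) (hφ : IsLocalHom φ) (ρ₀ : GaloisRepAdic ℤ_[p])
    (σ : GQ) :
    ∃ a b : ℤ, LinearMap.charpoly ((ρ₀.baseChangeAlong φ hφ).residual.ρ σ) =
      X ^ 2 - C (a : ResidueField 𝒪) * X + C (b : ResidueField 𝒪) := by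
  obtain ⟨a, ha⟩ := s59q_residue_padic_int φ hφ (LinearMap.trace ℤ_[p] _ (ρ₀.ρ σ))
  obtain ⟨b, hb⟩ := s59q_residue_padic_int φ hφ (LinearMap.det (ρ₀.ρ σ))
  refine ⟨a, b, ?_⟩
  rw [s59q_charpoly_plane (ρ₀.baseChangeAlong φ hφ).residual.finrank_eq, s59e_residual_trace,
    s59e_bc_trace, s59e_residual_det_eq, s59e_bc_det, ha, hb]

/-- **the characteristic polynomials of `ρ̄` split** as soon as all integral quadratics split in the residue field. -/
theorem s59q_residual_split (φ : ℤ_[p] →+* 𝒪) (hφ : IsLocalHom φ) (ρ₀ : GaloisRepAdic ℤ_[p])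
    (hsplit : ∀ a b : ℤ, ∃ α β : ResidueField 𝒪,
      α + β = (a : ResidueField 𝒪) ∧ α * β = (b : ResidueField 𝒪)) (σ : GQ) :
    ∃ α β : ResidueField 𝒪, LinearMap.charpoly ((ρ₀.baseChangeAlong φ hφ).residual.ρ σ) =
      (X - C α) * (X - C β) := by
  obtain ⟨a, b, hab⟩ := s59q_residual_charpoly_int φ hφ ρ₀ σ
  obtain ⟨α, β, h1, h2⟩ := hsplit a b
  refine ⟨α, β, ?_⟩
  rw [hab, ← h1, ← h2, C_add, C_mul]
  ring

/-- **the residual representation has cyclotomic determinant.** -/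
theorem s59q_residual_detCyc {A : Type} [CommRing A] [IsLocalRing A] (ρ : GaloisRepAdic A)
    (hdet : ρ.DetIsCyclotomic p) :
    (GaloisRepAdic.ofResidualGaloisRep ρ.residual).DetIsCyclotomic p := by
  have hp0 : ((p : ℕ) : ResidueField A) = 0 := by
    have := (residue_eq_zero_iff (p : A)).mpr hdet.1
    rwa [map_natCast] at this
  refine ⟨?_, fun n σ a ha => ?_⟩
  · rw [hp0]
    exact Submodule.zero_mem _
  · rcases Nat.eq_zero_or_pos n with rfl | hn
    · rw [pow_zero, Nat.cast_one, Ideal.span_singleton_one]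
      exact Submodule.mem_top
    · have h1 : LinearMap.det (ρ.residual.ρ σ) = (a : ResidueField A) :=
        s59e_residual_det p ρ hdet σ a fun μ hμ => ha μ (by
          obtain ⟨m, rfl⟩ := Nat.exists_eq_succ_of_ne_zero hn.ne'
          rw [pow_succ', pow_mul, hμ, one_pow])
      have h2 : LinearMap.det ((GaloisRepAdic.ofResidualGaloisRep ρ.residual).ρ σ) =
          LinearMap.det (ρ.residual.ρ σ) := rfl
      rw [h2, h1, sub_self]
      exact Submodule.zero_mem _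

end Charpoly

end Fermat.Agent.Lib.S59
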