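/-
PROGRAMME (R), final wiring, the R-SIDE PACKAGE AT THE FREY CURVE, part B (helper6, prefix `s59q_`): **the residual Frey
representation `ρ̄` with coefficients in `𝒪` satisfies every global hypothesis of `s59q_inst_flat`.**

Conventions (helper4 #3415): `P : FreyPackage`, `p = P.p`, `W = P.freyCurveInt`, `𝒪` a local `ℤ_p`-algebra with `p ∈ 𝔪`,
`ρ₀ = s59q_freyRho P hp𝒪 = (s59b_rhoW W p hΔ).baseChangeAlong (algebraMap ℤ_p 𝒪) _`, `ρ̄ = s59q_freyRhobar P hp𝒪 = ρ₀.residual`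
(both are `abbrev`s: statements about them are statements about the unfolded terms).

* `s59q_frey_modRep_irr`, `s59q_frey_habs`, `s59q_frey_hTW`, `s59q_frey_detCyc`, `s59q_frey_hdet`, `s59q_frey_hsplit`;
* `s59q_frey_unram_iff` : `ρ̄` unramified at `q` iff `P.GaloisRepUnramifiedAt q`; `s59q_frey_unram_good`;
* `s59q_freySmin`, `s59q_freySmin_p_mem`, `s59q_freySmin_hmin`, `s59q_freySmin_subset`, `s59q_freySmin_two_mem`;
* `s59q_frey_central` : `s59q_CentralAt ρ̄ q` at the primes with scalar Frobenius;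
* `s59q_frey_det_frob`, `s59q_frey_charpoly_frob`, `s59q_frey_E_dichotomy` : at an unramified prime `ℓ ≠ p` the Frobenius
  polynomial is `X² − tX + ℓ`, and either `t = ε(ℓ+1)`, `ε = ±1` (shape (E1): `(X − εℓ)(X − ε)`), or
  `(1+ℓ)²·det − ℓ·tr² ≠ 0` (shape (E2)).
-/
import Fermat.Agent.Lib.S59.QFreyRA
import Fermat.Agent.Lib.S59.BTwFrey
import Fermat.Agent.Lib.S59.BHres
import Fermat.Agent.Lib.S59.VFrey
import Fermat.Agent.Lib.S59.QSsModel

set_option autoImplicit false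
set_option linter.style.haveILetI false
set_option linter.unusedSectionVars false

noncomputable section

namespace Fermat.Agent.Lib.S59

open Fermat.Agent.Lib.S30 Fermat.Agent.Lib.S58 Fermat.Agent.Lib.S56 Fermat.Agent.Lib.S44 ExtCitation
open WeierstrassCurve WeierstrassCurve.Affine IsLocalRing TensorProduct Polynomial FreyPackage

local notation "Kb" => AlgebraicClosure ℚ
local notation "GQ" => (AlgebraicClosure ℚ ≃ₐ[ℚ] AlgebraicClosure ℚ)

variable (P : FreyPackage) [hpP : Fact P.p.Prime]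
  {𝒪 : Type} [CommRing 𝒪] [IsLocalRing 𝒪] [Algebra ℤ_[P.p] 𝒪]
  (hp𝒪 : (P.p : 𝒪) ∈ maximalIdeal 𝒪)

/-- the Frey representation with coefficients in `𝒪`. -/
abbrev s59q_freyRho : GaloisRepAdic 𝒪 :=
  (s59b_rhoW P.freyCurveInt P.p (s59q_frey_ssModel P).2.2.1).baseChangeAlong
    (algebraMap ℤ_[P.p] 𝒪) (s59b_isLocalHom_padic P.p _ hp𝒪)

/-- the residual Frey representation over the residue field of `𝒪`. -/
abbrev s59q_freyRhobar : ResidualGaloisRep (ResidueField 𝒪) := (s59q_freyRho P hp𝒪).residual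

theorem s59q_frey_p_ne_two : P.p ≠ 2 := by
  have := P.hp5
  omega

section Irr

variable (hirr : Point.GaloisRepIsIrreducible (K := Kb) ℚ P.freyCurve P.p)

include hirr in
theorem s59q_frey_modRep_irr : P.freyCurveInt.ModRepIsIrreducible P.p := by
  obtain ⟨C, hC⟩ := (s59q_frey_ssModel P).1
  exact s59b_modRep_irr P.freyCurveInt P.p P.freyCurve C hC hirr

include hirr in
/-- `ρ̄` is absolutely irreducible. -/
theorem s59q_frey_habs : (s59q_freyRhobar P hp𝒪).IsAbsolutelyIrreducible :=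
  (s59b_frey_TW P P.freyCurveInt (s59q_frey_ssModel P).1 (s59q_frey_ssModel P).2.2.1
    (s59q_frey_ssModel P).2.1 hirr (algebraMap ℤ_[P.p] 𝒪) (s59b_isLocalHom_padic P.p _ hp𝒪)).1

include hirr in
/-- the Taylor–Wiles image condition for `ρ̄`. -/
theorem s59q_frey_hTW :
    ∀ (K : Type) [Field K] [Algebra (ResidueField 𝒪) K] (G : Subgroup GQ), G.index = 2 →
      ∀ V : Submodule K ((s59q_freyRhobar P hp𝒪).baseChange K).V,
        (∀ σ ∈ G, ∀ x ∈ V, ((s59q_freyRhobar P hp𝒪).baseChange K).ρ σ x ∈ V) → V = ⊥ ∨ V = ⊤ :=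
  (s59b_frey_TW P P.freyCurveInt (s59q_frey_ssModel P).1 (s59q_frey_ssModel P).2.2.1
    (s59q_frey_ssModel P).2.1 hirr (algebraMap ℤ_[P.p] 𝒪) (s59b_isLocalHom_padic P.p _ hp𝒪)).2

include hirr in
/-- `ρ₀` has cyclotomic determinant. -/
theorem s59q_frey_detCyc : (s59q_freyRho P hp𝒪).DetIsCyclotomic P.p :=
  s59e_bc_detCyc _ _ _ P.p
    (s59b_rhoW_detCyc (s59q_frey_ssModel P).2.2.1 (s59q_frey_p_ne_two P) (s59q_frey_modRep_irr P hirr))

include hirr in
/-- `ρ̄` has cyclotomic determinant. -/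
theorem s59q_frey_hdet :
    (GaloisRepAdic.ofResidualGaloisRep (s59q_freyRhobar P hp𝒪)).DetIsCyclotomic P.p :=
  s59q_residual_detCyc _ (s59q_frey_detCyc P hp𝒪 hirr)

include hirr in
/-- the determinant of `ρ̄` at a Frobenius element at `q ≠ p`. -/
theorem s59q_frey_det_frob (q : ℕ) (hq : q.Prime) (hqp : q ≠ P.p) (A : ValuationSubring Kb)
    (hA : A.LiesOverPrime q) (φ : GQ) (hφ : A.IsFrobeniusAt φ q) :
    LinearMap.det ((s59q_freyRhobar P hp𝒪).ρ φ) = (q : ResidueField 𝒪) :=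
  s59e_det_frob (GaloisRepAdic.ofResidualGaloisRep (s59q_freyRhobar P hp𝒪))
    (s59q_frey_hdet P hp𝒪 hirr) hq hqp A hA φ hφ

include hirr in
/-- the Frobenius polynomial of `ρ̄` at `q ≠ p`. -/
theorem s59q_frey_charpoly_frob (q : ℕ) (hq : q.Prime) (hqp : q ≠ P.p) (A : ValuationSubring Kb)
    (hA : A.LiesOverPrime q) (φ : GQ) (hφ : A.IsFrobeniusAt φ q) :
    LinearMap.charpoly ((s59q_freyRhobar P hp𝒪).ρ φ) =
      X ^ 2 - C (LinearMap.trace (ResidueField 𝒪) _ ((s59q_freyRhobar P hp𝒪).ρ φ)) * X +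
        C (q : ResidueField 𝒪) := by
  rw [s59q_charpoly_plane (s59q_freyRhobar P hp𝒪).finrank_eq,
    s59q_frey_det_frob P hp𝒪 hirr q hq hqp A hA φ hφ]

include hirr in
/-- **the dichotomy at an (unramified) prime `ℓ ≠ p`**: either the Frobenius polynomial is `(X − εℓ)(X − ε)` with
`ε = ±1`, or `(1+ℓ)² det − ℓ tr² ≠ 0`. -/
theorem s59q_frey_E_dichotomy (ℓ : ℕ) (hℓ : ℓ.Prime) (hℓp : ℓ ≠ P.p) (A : ValuationSubring Kb)
    (hA : A.LiesOverPrime ℓ) (φ : GQ) (hφ : A.IsFrobeniusAt φ ℓ) :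
    (∃ ε : 𝒪, (ε = 1 ∨ ε = -1) ∧ LinearMap.charpoly ((s59q_freyRhobar P hp𝒪).ρ φ) =
        (X - C (residue 𝒪 (ε * (ℓ : 𝒪)))) * (X - C (residue 𝒪 ε))) ∨
      (1 + (ℓ : ResidueField 𝒪)) ^ 2 * LinearMap.det ((s59q_freyRhobar P hp𝒪).ρ φ) -
        (ℓ : ResidueField 𝒪) *
          LinearMap.trace (ResidueField 𝒪) _ ((s59q_freyRhobar P hp𝒪).ρ φ) ^ 2 ≠ 0 := by
  set t := LinearMap.trace (ResidueField 𝒪) _ ((s59q_freyRhobar P hp𝒪).ρ φ) with ht
  have hdet := s59q_frey_det_frob P hp𝒪 hirr ℓ hℓ hℓp A hA φ hφ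
  have hcp := s59q_frey_charpoly_frob P hp𝒪 hirr ℓ hℓ hℓp A hA φ hφ
  rw [← ht] at hcp
  by_cases h : (1 + (ℓ : ResidueField 𝒪)) ^ 2 * LinearMap.det ((s59q_freyRhobar P hp𝒪).ρ φ) -
      (ℓ : ResidueField 𝒪) * t ^ 2 = 0
  · left
    haveI : CharP (ResidueField 𝒪) P.p := s59e_charP_residue P.p hp𝒪
    have hℓ0 : (ℓ : ResidueField 𝒪) ≠ 0 := by
      intro h0
      have := (CharP.cast_eq_zero_iff (ResidueField 𝒪) P.p ℓ).mp h0
      exact hℓp ((Nat.prime_dvd_prime_iff_eq hpP.out hℓ).mp this).symm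
    rw [hdet] at h
    have h1 : (t - (1 + (ℓ : ResidueField 𝒪))) * (t + (1 + (ℓ : ResidueField 𝒪))) = 0 := by
      have h2 : (ℓ : ResidueField 𝒪) * ((t - (1 + (ℓ : ResidueField 𝒪))) *
          (t + (1 + (ℓ : ResidueField 𝒪)))) = 0 := by
        linear_combination -h
      exact (mul_eq_zero.mp h2).resolve_left hℓ0
    have hr0 : residue 𝒪 ((ℓ : ℕ) : 𝒪) = ((ℓ : ℕ) : ResidueField 𝒪) := map_natCast _ _
    rcases mul_eq_zero.mp h1 with h3 | h3
    · refine ⟨1, Or.inl rfl, ?_⟩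
      have h4 : t = 1 + (ℓ : ResidueField 𝒪) := sub_eq_zero.mp h3
      have r1 : residue 𝒪 (1 * ((ℓ : ℕ) : 𝒪)) = ((ℓ : ℕ) : ResidueField 𝒪) := by
        rw [one_mul, hr0]
      have r2 : residue 𝒪 (1 : 𝒪) = 1 := map_one _
      rw [hcp, h4, r1, r2, C_add, C_1]
      ring
    · refine ⟨-1, Or.inr rfl, ?_⟩
      have h4 : t = -(1 + (ℓ : ResidueField 𝒪)) := eq_neg_of_add_eq_zero_left h3
      have r1 : residue 𝒪 (-1 * ((ℓ : ℕ) : 𝒪)) = -((ℓ : ℕ) : ResidueField 𝒪) := by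
        rw [neg_one_mul, map_neg, hr0]
      have r2 : residue 𝒪 (-1 : 𝒪) = -1 := by rw [map_neg, map_one]
      rw [hcp, h4, r1, r2, C_neg, C_neg, C_neg, C_add, C_1]
      ring
  · right
    exact h

include hirr in
/-- the characteristic polynomials of `ρ̄` split. -/
theorem s59q_frey_hsplit (hsplit : ∀ a b : ℤ, ∃ α β : ResidueField 𝒪,
      α + β = (a : ResidueField 𝒪) ∧ α * β = (b : ResidueField 𝒪)) (σ : GQ) :
    ∃ α β : ResidueField 𝒪, LinearMap.charpoly ((s59q_freyRhobar P hp𝒪).ρ σ) =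
      (X - C α) * (X - C β) :=
  s59q_residual_split _ _ _ hsplit σ

end Irr

section Unram

/-- **`ρ̄` is unramified at `q` iff `E[p]` is.** -/
theorem s59q_frey_unram_iff (q : ℕ) :
    (s59q_freyRhobar P hp𝒪).IsUnramifiedAt q ↔ P.GaloisRepUnramifiedAt q := by
  obtain ⟨C, hC⟩ := (s59q_frey_ssModel P).1
  constructor
  · intro h A hA τ hτ x
    have h1 := s59b_fix_of_residual_one (s59q_frey_ssModel P).2.2.1 (algebraMap ℤ_[P.p] 𝒪)
      (s59b_isLocalHom_padic P.p _ hp𝒪) τ (h A hA τ hτ)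
    have hx : P.p • (s44s_Psi P.freyCurve P.freyCurveInt C hC).symm x.1 = 0 := by
      rw [← s44s_Psi_nsmul_eq_zero P.freyCurve P.freyCurveInt C hC, AddEquiv.apply_symm_apply]
      have := x.2
      rwa [Submodule.mem_torsionBy_iff, natCast_zsmul] at this
    have h2 := h1 _ hx
    rw [← s44s_Psi_symm_sigma] at h2
    apply Subtype.ext
    exact (s44s_Psi P.freyCurve P.freyCurveInt C hC).symm.injective h2
  · intro h
    exact s59q_rhobar_unram_of_model P.freyCurve P.freyCurveInt C hC P.p (s59q_frey_ssModel P).2.2.1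
      _ _ q h

/-- `ρ̄` is unramified at the primes `q ≠ p` which do not divide `abc`. -/
theorem s59q_frey_unram_good (q : ℕ) (hq : q.Prime) (hqp : q ≠ P.p)
    (hgood : ¬ (q : ℤ) ∣ P.a * P.b * P.c) : (s59q_freyRhobar P hp𝒪).IsUnramifiedAt q := by
  have hg : P.freyCurveInt.IsGoodPrimeFor q := by
    by_contra hbad
    exact hgood (((s59q_frey_ssModel P).2.2.2 q hq).1 hbad)
  have h0 := s59b_rhoW_unram (s59q_frey_ssModel P).2.2.1 (s59q_frey_p_ne_two P) q hq hqp hg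
  have h1 := s59e_bc_unram (algebraMap ℤ_[P.p] 𝒪) (s59b_isLocalHom_padic P.p _ hp𝒪) _ q h0
  intro A hA τ hτ
  show ((s59q_freyRho P hp𝒪).ρ τ).baseChange (ResidueField 𝒪) = 1
  rw [h1 A hA τ hτ]
  exact LinearMap.baseChange_one _ _

open Classical in
/-- **`Σ_min`**: `p` and the primes dividing `abc` at which `ρ̄` is ramified. -/
def s59q_freySmin : Finset ℕ :=
  insert P.p ((P.a * P.b * P.c).natAbs.primeFactors.filter
    fun q => ¬ (s59q_freyRhobar P hp𝒪).IsUnramifiedAt q)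

theorem s59q_freySmin_p_mem : P.p ∈ s59q_freySmin P hp𝒪 := Finset.mem_insert_self _ _

theorem s59q_frey_abc_ne_zero : P.a * P.b * P.c ≠ 0 :=
  mul_ne_zero (mul_ne_zero P.ha0 P.hb0) P.hc0

/-- **`hmin`**. -/
theorem s59q_freySmin_hmin (q : ℕ) (hq : q.Prime) (hqp : q ≠ P.p) :
    q ∈ s59q_freySmin P hp𝒪 ↔ ¬ (s59q_freyRhobar P hp𝒪).IsUnramifiedAt q := by
  classical
  unfold s59q_freySmin
  rw [Finset.mem_insert, Finset.mem_filter]
  constructor
  · rintro (h | h)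
    · exact absurd h hqp
    · exact h.2
  · intro h
    refine Or.inr ⟨?_, h⟩
    rw [Nat.mem_primeFactors]
    refine ⟨hq, ?_, Int.natAbs_ne_zero.mpr (s59q_frey_abc_ne_zero P)⟩
    by_contra hnd
    apply h
    refine s59q_frey_unram_good P hp𝒪 q hq hqp fun hd => hnd ?_
    exact Int.natCast_dvd.mp hd

theorem s59q_freySmin_subset (S : Finset ℕ) (hpS : P.p ∈ S)
    (hS : ∀ r : ℕ, r.Prime → (r : ℤ) ∣ P.a * P.b * P.c → r ∈ S) : s59q_freySmin P hp𝒪 ⊆ S := by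
  classical
  intro q hq
  unfold s59q_freySmin at hq
  rw [Finset.mem_insert, Finset.mem_filter] at hq
  rcases hq with rfl | ⟨hq, -⟩
  · exact hpS
  · rw [Nat.mem_primeFactors] at hq
    exact hS q hq.1 (Int.natCast_dvd.mpr hq.2.1)

theorem s59q_freySmin_prime (q : ℕ) (hq : q ∈ s59q_freySmin P hp𝒪) : q.Prime := by
  classical
  unfold s59q_freySmin at hq
  rw [Finset.mem_insert, Finset.mem_filter] at hq
  rcases hq with rfl | ⟨hq, -⟩
  · exact hpP.out
  · exact (Nat.mem_primeFactors.mp hq).1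

/-- `2 ∈ Σ_min`. -/
theorem s59q_freySmin_two_mem : 2 ∈ s59q_freySmin P hp𝒪 := by
  rw [s59q_freySmin_hmin P hp𝒪 2 Nat.prime_two (Ne.symm (s59q_frey_p_ne_two P)),
    s59q_frey_unram_iff]
  exact s59q_frey_not_unramified_two P

/-- **`hcen`**: `ρ̄` is central at the primes where `E[p]` is unramified with scalar Frobenius. -/
theorem s59q_frey_central (q : Nat.Primes) (hunr : P.GaloisRepUnramifiedAt q)
    (hsc : s59v_FreyFrobScalar P q) : s59q_CentralAt (s59q_freyRhobar P hp𝒪) q := by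
  obtain ⟨C, hC⟩ := (s59q_frey_ssModel P).1
  exact s59q_rhobar_central P.freyCurve P.freyCurveInt C hC P.p (s59q_frey_ssModel P).2.2.1 _ _ q
    ((s59q_frey_unram_iff P hp𝒪 q).mpr hunr) hsc

end Unram

end Fermat.Agent.Lib.S59
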