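/-
PROGRAMME (R) (helper3, prefix `s59u_`): **`hrad`, `hIχ`, `hI1` in the FINAL FORM of the hypotheses of helper5's
`s59e_TLevel_abs`** (`ETLvlAbs.lean`), for the concrete rings of `ERing.lean`/`ERing2.lean`:
`T′ = s59e_adj 𝒪 aM`, `T = s59e_adj 𝒪 (s59e_aB aM ρB hcomm)`, `Algebra T′ T := s59e_algTT aM ρB hcomm`,
`Iχ = Module.annihilator T (s59t_EigT ρ' C χ' hTρ)` (helper8's eigen-part, `TEigT.lean`).
* `s59u_hrad_final_T` : `Iχ.IsRadical`  (the hypothesis `hrad` of helper9's `s59m_hC8_eig`);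
* `s59u_hrad_final`   : `(Iχ.comap (algebraMap T′ T)).IsRadical`  (= `hrad` of `s59e_TLevel_abs`, any character `χ'`);
* `s59u_annihilator_EigT_ne_top` : `Module.annihilator T (s59t_EigT ρ' C χ' hTρ) ≠ ⊤` (= `hIχ`, and `hI1` for `χ' = 1`) for
  ANY commutative `𝒪`-algebra `T` acting on `Y'`, as soon as `Y'` is free of rank `d ≠ 0` over `𝒪[Δ']`
  (`s59u_annihilator_EigT_ne_top'` : the same with `Nontrivial Y'` instead of `d ≠ 0`).
-/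
import Mathlib
import Fermat.Agent.Lib.S59.UHradE
import Fermat.Agent.Lib.S59.ERing2
import Fermat.Agent.Lib.S59.TEigT

set_option autoImplicit false
set_option linter.unusedSectionVars false
set_option linter.unusedVariables false
set_option linter.style.haveILetI false

noncomputable section

namespace Fermat.Agent.Lib.S59

open Fermat.Agent.Lib.S48 CongruenceSubgroup
open scoped MatrixGroups

/-! ### `hIχ`, `hI1` -/

section NeTop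

variable {𝒪 : Type*} [CommRing 𝒪] [Nontrivial 𝒪] {Δ' : Type*} [CommGroup Δ'] [Fintype Δ']
  {Y' : Type*} [AddCommGroup Y'] [Module 𝒪 Y'] (ρ' : Δ' →* Module.End 𝒪 Y')
  (Bq C : Subgroup Δ') [Fintype Bq] [Fintype C]
  (hCB : Function.Bijective (fun x : C × Bq => ((x.1 : Δ') * (x.2 : Δ'))))
  {d : ℕ} (b' : Fin d → Y') (hb' : Function.Bijective (s59t_evalMap ρ' b'))
  (χ' : Δ' →* 𝒪ˣ)

include hCB hb' in
/-- the eigen-part of a free `𝒪[Δ']`-module of rank `d ≠ 0` is non-zero. -/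
theorem s59u_eig_nontrivial (hd : d ≠ 0) : Nontrivial (s59t_eig ρ' C χ') := by
  classical
  haveI : Nonempty (Fin d) := ⟨⟨0, Nat.pos_of_ne_zero hd⟩⟩
  haveI : Nonempty Bq := ⟨1⟩
  haveI : Nontrivial (Fin d → Bq → 𝒪) := inferInstance
  exact (s59t_eigCoord ρ' C Bq χ' hCB b' hb').symm.toEquiv.nontrivial

include hb' in
/-- a non-zero free module has positive rank. -/
theorem s59u_rank_ne_zero [Nontrivial Y'] : d ≠ 0 := by
  rintro rfl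
  obtain ⟨y, z, hyz⟩ := exists_pair_ne Y'
  obtain ⟨c, rfl⟩ := hb'.2 y
  obtain ⟨c', rfl⟩ := hb'.2 z
  exact hyz (congrArg _ (Subsingleton.elim c c'))

variable {T : Type*} [CommRing T] [Algebra 𝒪 T] [Module T Y'] [IsScalarTower 𝒪 T Y']
  (hTρ : ∀ (t : T) (δ : Δ') (y : Y'), t • ρ' δ y = ρ' δ (t • y))

include hCB hb' in
/-- **`hIχ` / `hI1`**: the annihilator of the eigen-part is a proper ideal. -/
theorem s59u_annihilator_EigT_ne_top (hd : d ≠ 0) :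
    Module.annihilator T (s59t_EigT ρ' C χ' hTρ) ≠ ⊤ := by
  intro h
  haveI : Nontrivial (s59t_EigT ρ' C χ' hTρ) := s59u_eig_nontrivial ρ' Bq C hCB b' hb' χ' hd
  obtain ⟨x, hx⟩ := exists_ne (0 : s59t_EigT ρ' C χ' hTρ)
  have h1 : (1 : T) ∈ Module.annihilator T (s59t_EigT ρ' C χ' hTρ) := by rw [h]; trivial
  rw [Module.mem_annihilator] at h1
  exact hx (by rw [← one_smul T x]; exact h1 x)

include hCB hb' in
/-- the same, with `Nontrivial Y'` instead of `d ≠ 0`. -/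
theorem s59u_annihilator_EigT_ne_top' [Nontrivial Y'] :
    Module.annihilator T (s59t_EigT ρ' C χ' hTρ) ≠ ⊤ :=
  s59u_annihilator_EigT_ne_top ρ' Bq C hCB b' hb' χ' hTρ (s59u_rank_ne_zero ρ' b' hb')

end NeTop

/-! ### `hrad` -/

section Rad

variable (N : ℕ) [NeZero N] (Q : Finset ℕ) {M : ℕ} [NeZero M] (H : Subgroup (ZMod M)ˣ)
  (𝒪 : Type*) [CommRing 𝒪] [IsDomain 𝒪] [CharZero 𝒪]
  {Y : Type*} [AddCommGroup Y] [Module 𝒪 Y]
  (j : Y →ₗ[𝒪] s48h_Hpar 𝒪 (s48h_GammaH M H) 𝒪)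
  {A : Type*} [CommRing A] (a : A →+* Module.End 𝒪 (s48h_Hpar 𝒪 (s48h_GammaH M H) 𝒪)) (k : ℕ)
  (ha : ∀ t, a t ∈ Subring.closure (Set.range (s59e_Tp' H 𝒪 k)))
  (aM : A →+* Module.End 𝒪 Y) (haM : ∀ t (z : Y), j (aM t z) = a t (j z))
  {B : Type*} [CommGroup B] (ρB : B →* Module.End 𝒪 Y)
  (hρB : ∀ β, ∃ τ : Gamma0 M, ∀ z : Y, j (ρB β z) = s59w_op H 𝒪 (Sum.inr τ) (j z))
  (hcomm : ∀ (t : A) (β : B), Commute (aM t) (ρB β))
  {Δ' : Type*} [CommGroup Δ'] [Fintype Δ'] (ρ' : Δ' →* Module.End 𝒪 Y) (C : Subgroup Δ')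
  (χ' : Δ' →* 𝒪ˣ)
  (hTρ : ∀ (t : s59e_adj 𝒪 (s59e_aB aM ρB hcomm)) (δ : Δ') (y : Y), t • ρ' δ y = ρ' δ (t • y))

/-- membership in the annihilator of the eigen-part, elementwise. -/
theorem s59u_mem_annihilator_EigT (t : s59e_adj 𝒪 (s59e_aB aM ρB hcomm)) :
    t ∈ Module.annihilator (s59e_adj 𝒪 (s59e_aB aM ρB hcomm)) (s59t_EigT (T := s59e_adj 𝒪 (s59e_aB aM ρB hcomm)) ρ' C χ' hTρ) ↔
      ∀ w ∈ ((s59t_eig ρ' C χ' : Submodule 𝒪 Y) : Set Y), (t : Module.End 𝒪 Y) w = 0 := by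
  rw [Module.mem_annihilator]
  constructor
  · intro h w hw
    have h1 := congrArg (s59t_EigT_val ρ' C χ' hTρ) (h (s59t_EigT_mk ρ' C χ' hTρ w hw))
    rw [s59t_EigT_val_smul, s59t_EigT_val_mk, map_zero] at h1
    exact h1
  · intro h x
    apply s59t_EigT_val_injective ρ' C χ' hTρ
    rw [s59t_EigT_val_smul, map_zero]
    exact h _ (s59t_EigT_val_mem ρ' C χ' hTρ x)

include ha haM hρB in
/-- **`Iχ` is radical** (`T`-form: the hypothesis `hrad` of helper9's `s59m_hC8_eig`). -/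
theorem s59u_hrad_final_T (hj : Function.Injective j) (hQ : ∀ q ∈ Q, q.Prime ∧ ¬ q ∣ N)
    (hM : M = N * ∏ q ∈ Q, q) {D : ℕ} (hDQ : D = ∏ q ∈ Q, q) (hD : D ∣ M)
    (hH : s59u_ker M D hD ≤ H) {n m : ℕ} (hnm : 2 * m = n + 1) (hn : ∀ u : (ZMod M)ˣ, u ^ n ∈ H) :
    (Module.annihilator (s59e_adj 𝒪 (s59e_aB aM ρB hcomm)) (s59t_EigT (T := s59e_adj 𝒪 (s59e_aB aM ρB hcomm)) ρ' C χ' hTρ)).IsRadical :=
  (s59u_hrad_ERing N Q H 𝒪 j a k ha aM haM ρB hρB hcomm hj hQ hM hDQ hD hH hnm hn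
    ((s59t_eig ρ' C χ' : Submodule 𝒪 Y) : Set Y) _
    (s59u_mem_annihilator_EigT 𝒪 aM ρB hcomm ρ' C χ' hTρ)).1

include ha haM hρB in
/-- **`hrad` of `s59e_TLevel_abs`**: the contraction of `Iχ` to `T′` is radical. -/
theorem s59u_hrad_final (hj : Function.Injective j) (hQ : ∀ q ∈ Q, q.Prime ∧ ¬ q ∣ N)
    (hM : M = N * ∏ q ∈ Q, q) {D : ℕ} (hDQ : D = ∏ q ∈ Q, q) (hD : D ∣ M)
    (hH : s59u_ker M D hD ≤ H) {n m : ℕ} (hnm : 2 * m = n + 1) (hn : ∀ u : (ZMod M)ˣ, u ^ n ∈ H) :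
    letI := s59e_algTT aM ρB hcomm
    ((Module.annihilator (s59e_adj 𝒪 (s59e_aB aM ρB hcomm)) (s59t_EigT (T := s59e_adj 𝒪 (s59e_aB aM ρB hcomm)) ρ' C χ' hTρ)).comap
      (algebraMap (s59e_adj 𝒪 aM) (s59e_adj 𝒪 (s59e_aB aM ρB hcomm)))).IsRadical :=
  (s59u_hrad_ERing N Q H 𝒪 j a k ha aM haM ρB hρB hcomm hj hQ hM hDQ hD hH hnm hn
    ((s59t_eig ρ' C χ' : Submodule 𝒪 Y) : Set Y) _
    (s59u_mem_annihilator_EigT 𝒪 aM ρB hcomm ρ' C χ' hTρ)).2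

end Rad

end Fermat.Agent.Lib.S59
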