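/-
S59 (helper9, prefix `s59m_`), **the hypothesis `hC8` of `s59e_TLevel_abs` in the context of `s59i_TPkg`**:
`s59m_hC8_ERing` (MC8Fin) for all Taylor–Wiles primes `qv i` at once, with
* the curve data taken at the Frey curve `W := P.freyCurveInt` (`s59q_frey_ssModel`, helper6),
* `hq₀TW` discharged from the "distinct eigenvalues" binder of `s59i_TPkg` (`s59m_TW_bridge_all`),
* `hq₀p hq₀5 hq₀g hq₀1` discharged from `(qv i).Prime ∧ qv i ∉ B ∧ P.p ^ (n + 1) ∣ qv i - 1`,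
* `hunr` discharged from `DQ` (`ρT := DQ.ρ.baseChangeAlong θ`; helper2's `s59b_DQ_residual_unram`,
  `s59b_bc_residual_unram`, helper6's `s59q_frey_unram_good`),
* `hrad` discharged by helper3's `s59u_hrad_final_T` (`hH` in the `s59u_ker` form of helper1's `s59k_hH`).
Binder list = the `section ERing` variables of MC8Fin (as helper2's `s59b_hchi_TPkg`).
-/
import Mathlib
import Fermat.Agent.Lib.S59.MC8Fin
import Fermat.Agent.Lib.S59.MTWBridge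
import Fermat.Agent.Lib.S59.UHradF
import Fermat.Agent.Lib.S59.BChiFam
import Fermat.Agent.Lib.S59.BDQRes
import Fermat.Agent.Lib.S59.QFreyRB
import Fermat.Agent.Lib.S59.TLvlFin

set_option autoImplicit false
set_option linter.unusedSectionVars false
set_option linter.unusedVariables false
set_option linter.style.haveILetI false
set_option synthInstance.maxHeartbeats 400000
set_option maxHeartbeats 4000000

noncomputable section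

namespace Fermat.Agent.Lib.S59

open Fermat.Agent.Lib.S29 Fermat.Agent.Lib.S30 Fermat.Agent.Lib.S48 Fermat.Agent.Lib.PT
open WeierstrassCurve WeierstrassCurve.Affine IsLocalRing TensorProduct Polynomial
open CongruenceSubgroup ModularCurve.Period
open scoped MatrixGroups

local notation "Qbar" => AlgebraicClosure ℚ
local notation "GQ" => (AlgebraicClosure ℚ ≃ₐ[ℚ] AlgebraicClosure ℚ)

/-- the hypothesis `hH` of `s59n_C8_final_TW` / `s59m_hC8_ERing` from `s59u_ker M D hD ≤ H`. -/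
theorem s59m_hH_of_ker {M : ℕ} [NeZero M] {H : Subgroup (ZMod M)ˣ} {D : ℕ} (hD : D ∣ M)
    (hH : s59u_ker M D hD ≤ H) (x : ℤ) (u : (ZMod M)ˣ) (hx : ((x : ℤ) : ZMod D) = 1)
    (hu : ((u : (ZMod M)ˣ) : ZMod M) = ((x : ℤ) : ZMod M)) : u ∈ H := by
  apply hH
  show u ∈ (ZMod.unitsMap hD).ker
  rw [MonoidHom.mem_ker]
  apply Units.ext
  rw [ZMod.unitsMap_def, Units.coe_map, MonoidHom.coe_coe, hu, map_intCast, hx, Units.val_one]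

/-- a Taylor–Wiles prime is `≥ 5` (indeed `> p ≥ 5`). -/
theorem s59m_five_le_of_pow_dvd {p n q : ℕ} (hp5 : 5 ≤ p) (hq : q.Prime)
    (h : p ^ (n + 1) ∣ q - 1) : 5 ≤ q := by
  have h1 : 0 < q - 1 := by have := hq.two_le; omega
  have h2 : p ^ (n + 1) ≤ q - 1 := Nat.le_of_dvd h1 h
  have h3 : p ≤ p ^ (n + 1) := Nat.le_self_pow (Nat.succ_ne_zero n) p
  omega

/-- `p ∣ q − 1` in `ℤ`. -/
theorem s59m_int_dvd_sub_one {p n q : ℕ} (hq : q.Prime) (h : p ^ (n + 1) ∣ q - 1) :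
    (p : ℤ) ∣ (q : ℤ) - 1 := by
  have h1 : p ∣ q - 1 := (dvd_pow_self p (Nat.succ_ne_zero n)).trans h
  have h2 : ((q - 1 : ℕ) : ℤ) = (q : ℤ) - 1 := by
    have := hq.one_le
    push_cast [Nat.cast_sub this]
    ring
  rw [← h2]
  exact Int.natCast_dvd_natCast.mpr h1

section TP

variable {M : ℕ} [NeZero M] (H : Subgroup (ZMod M)ˣ)
  {𝒪 : Type} [CommRing 𝒪] [IsDomain 𝒪] [IsDiscreteValuationRing 𝒪]
  [IsAdicComplete (maximalIdeal 𝒪) 𝒪] [Finite (ResidueField 𝒪)] [CharZero 𝒪]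
  {Y' : Type} [AddCommGroup Y'] [Module 𝒪 Y'] [Module.Finite 𝒪 Y']
  (j : Y' →ₗ[𝒪] s48h_Hpar 𝒪 (s48h_GammaH M H) 𝒪) (hj : Function.Injective j)
  (opY : s59w_AIdx M → Module.End 𝒪 Y')
  (hopY : ∀ jdx y, j (opY jdx y) = s59w_op H 𝒪 jdx (j y))
  {A : Type} [CommRing A] (a : A →+* Module.End 𝒪 (s48h_Hpar 𝒪 (s48h_GammaH M H) 𝒪)) (k : ℕ)
  (ha : ∀ t, a t ∈ Subring.closure (Set.range (s59e_Tp' H 𝒪 k)))
  (aM : A →+* Module.End 𝒪 Y') (haM : ∀ t (z : Y'), j (aM t z) = a t (j z))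
  {Δ' : Type} [CommGroup Δ'] [Fintype Δ'] (ρ' : Δ' →* Module.End 𝒪 Y')
  (hρ' : ∀ δ, ∃ τ : Gamma0 M, ρ' δ = opY (Sum.inr τ))
  (Bq Cs : Subgroup Δ') (χ' : Δ' →* 𝒪ˣ)
  (hcomm : ∀ (t : A) (β : Bq), Commute (aM t) ((ρ'.comp Bq.subtype) β))

include hj hopY ha haM hρ' in
/-- **`hC8` of `s59e_TLevel_abs` in the `s59i_TPkg` context.** -/
theorem s59m_hC8_TPkg [IsLocalRing (s59e_adj 𝒪 aM)]
    (hTρ : ∀ (t : s59e_adj 𝒪 (s59e_aB aM (ρ'.comp Bq.subtype) hcomm)) (δ : Δ') (y : Y'),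
      t • ρ' δ y = ρ' δ (t • y))
    -- the Frey curve
    (P : FreyPackage) [hpP : Fact P.p.Prime] (hΔ : P.freyCurveInt.Δ ≠ 0)
    (hirr : Point.GaloisRepIsIrreducible (K := Qbar) ℚ P.freyCurve P.p)
    (B : Finset ℕ) (hpB : P.p ∈ B)
    (hB2 : ∀ r : ℕ, r.Prime → (r : ℤ) ∣ P.a * P.b * P.c → r ∈ B)
    -- the numerology of the level (as `s59e_H3'`; helper1's KLvlFin)
    (N : ℕ) [NeZero N] (Q : Finset ℕ)
    (hMeq : M = N * ∏ q ∈ Q, q) (hQ : ∀ q ∈ Q, q.Prime ∧ ¬ q ∣ N)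
    {D : ℕ} (hDQ : D = ∏ q ∈ Q, q) (hD : D ∣ M) (hH : s59u_ker M D hD ≤ H)
    (hsq : Squarefree M) (h2M : 2 ∣ M) (hneg : (-1 : (ZMod M)ˣ) ∈ H)
    {e m : ℕ} (hnm : 2 * m = P.p ^ e + 1) (hn : ∀ u : (ZMod M)ˣ, u ^ (P.p ^ e) ∈ H)
    (hk : k = (P.p ^ e - 1) * m)
    [Algebra ℤ_[P.p] 𝒪] [Module.Finite ℤ_[P.p] 𝒪]
    (hp𝒪 : ((P.p : ℕ) : 𝒪) ∈ maximalIdeal 𝒪)
    (S : Finset ℕ) (hBS : B ⊆ S) (hMS : ∀ r : ℕ, r.Prime → r ∣ M → r ∈ S)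
    -- the Galois side
    {𝒟 : ∀ ⦃A : Type⦄ [CommRing A] [IsLocalRing A] [Algebra 𝒪 A], GaloisRepAdic A → Prop}
    (DQ : GaloisRep.DeformationRingData 𝒪 (s59i_rhobarF P hΔ 𝒪 hp𝒪) 𝒟)
    (θ : DQ.R →ₐ[𝒪] s59e_adj 𝒪 aM) (hθ : Function.Surjective θ)
    (tT' : ℕ → s59e_adj 𝒪 aM)
    (htT' : ∀ i : s59w_TIdx M, i.ell ∉ S → ∀ z : Y',
      j (((tT' i.ell : s59e_adj 𝒪 aM) : Module.End 𝒪 Y') z) = s59e_Tp' H 𝒪 k i (j z))
    (hfrobT : ∀ ℓ : ℕ, ℓ.Prime → ℓ ∉ S →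
      ∀ A : ValuationSubring (AlgebraicClosure ℚ), A.LiesOverPrime ℓ →
      ∀ τ : GQ, A.IsFrobeniusAt τ ℓ →
        (LinearMap.charpoly (DQ.ρ.ρ τ)).map (θ : DQ.R →+* s59e_adj 𝒪 aM) =
          Polynomial.X ^ 2 - Polynomial.C (tT' ℓ) * Polynomial.X +
            Polynomial.C ((ℓ : s59e_adj 𝒪 aM)))
    (hcong : ∀ ℓ : ℕ, ℓ.Prime → ℓ ∉ S →
      tT' ℓ - algebraMap 𝒪 (s59e_adj 𝒪 aM) ((P.freyCurveInt.apOfModel ℓ : ℤ) : 𝒪) ∈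
        maximalIdeal (s59e_adj 𝒪 aM))
    -- the Taylor–Wiles primes (binders of `s59i_TPkg`)
    (n : ℕ) {r : ℕ} (qv : Fin r → ℕ)
    (hqv : ∀ i, (qv i).Prime ∧ qv i ∉ B ∧ P.p ^ (n + 1) ∣ qv i - 1)
    (hqvQ : ∀ i, qv i ∈ Q)
    (hTW : ∀ i, ∀ A : ValuationSubring (AlgebraicClosure ℚ), A.LiesOverPrime (qv i) →
      ∀ φ : GQ, A.IsFrobeniusAt φ (qv i) →
        ∃ α β : ResidueField 𝒪, α ≠ β ∧
          LinearMap.charpoly ((s59i_rhobarF P hΔ 𝒪 hp𝒪).ρ φ) = (X - C α) * (X - C β))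
    -- the local generators of `B_Q`
    (g : Fin r → Bq)
    (hgl : ∀ i, ∃ (τ₀ : Gamma0 M) (L₀ : ℕ) (hL₀ : M = L₀ * qv i),
      ρ' ((s59t_hh P.p n g i : Bq) : Δ') = opY (Sum.inr τ₀) ∧
      ZMod.unitsMap (hL₀ ▸ Dvd.intro (qv i) rfl : L₀ ∣ M) (s59w_lrUnit τ₀) = 1) :
    letI := s59e_algTT (𝒪 := 𝒪) aM (ρ'.comp Bq.subtype) hcomm
    ∀ i, ∃ τ ∈ maximalIdeal (s59e_adj 𝒪 aM),
      ((s59e_dia (𝒪 := 𝒪) aM (ρ'.comp Bq.subtype) hcomm (s59t_hh P.p n g i) :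
          s59e_adj 𝒪 (s59e_aB aM (ρ'.comp Bq.subtype) hcomm)) -
        (s59e_dia (𝒪 := 𝒪) aM (ρ'.comp Bq.subtype) hcomm (s59t_hh P.p n g i)⁻¹ :
          s59e_adj 𝒪 (s59e_aB aM (ρ'.comp Bq.subtype) hcomm))) ^ 2 -
        algebraMap (s59e_adj 𝒪 aM) (s59e_adj 𝒪 (s59e_aB aM (ρ'.comp Bq.subtype) hcomm)) τ ∈
        Module.annihilator (s59e_adj 𝒪 (s59e_aB aM (ρ'.comp Bq.subtype) hcomm))
          (s59t_EigT (T := s59e_adj 𝒪 (s59e_aB aM (ρ'.comp Bq.subtype) hcomm)) ρ' Cs χ' hTρ) := by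
  intro i
  obtain ⟨hW, hss, -, hgoodiff⟩ := s59q_frey_ssModel P
  have hp5 := P.hp5
  have hp2 : P.p ≠ 2 := by omega
  have hmodirr : P.freyCurveInt.ModRepIsIrreducible P.p := s59q_frey_modRep_irr P hirr
  have hgoodB : ∀ q : ℕ, q.Prime → q ∉ B → P.freyCurveInt.IsGoodPrimeFor q := by
    intro q hq' hqB'
    by_contra hbad
    exact hqB' (hB2 q hq' ((hgoodiff q hq').1 hbad))
  have hgood : ∀ ℓ : ℕ, ℓ.Prime → ℓ ∉ S → P.freyCurveInt.IsGoodPrimeFor ℓ :=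
    fun ℓ hℓ hℓS => hgoodB ℓ hℓ fun h => hℓS (hBS h)
  obtain ⟨hqi, hqiB, hqidvd⟩ := hqv i
  have hqip : qv i ≠ P.p := fun h => hqiB (h ▸ hpB)
  have hqig : ¬ ((qv i : ℕ) : ℤ) ∣ P.freyCurveInt.Δ := hgoodB (qv i) hqi hqiB
  have hqi1 : (P.p : ℤ) ∣ ((qv i : ℕ) : ℤ) - 1 := s59m_int_dvd_sub_one hqi hqidvd
  have hqiTW : ¬ (P.p : ℤ) ∣ P.freyCurveInt.apOfModel (qv i) ^ 2 - 4 :=
    s59m_TW_bridge_all hΔ hp2 hmodirr (algebraMap ℤ_[P.p] 𝒪) (s59b_isLocalHom_padic P.p _ hp𝒪)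
      (qv i) hqi hqig hqip hqi1 (hTW i)
  -- the Galois representation over `T′`
  have hθl : IsLocalHom (θ : DQ.R →+* s59e_adj 𝒪 aM) := IsLocalHom.of_surjective _ hθ
  have hfrob : ∀ ℓ : ℕ, ℓ.Prime → ℓ ∉ S → ∀ P' : ValuationSubring Qbar, P'.LiesOverPrime ℓ →
      ∀ σ : GQ, P'.IsFrobeniusAt σ ℓ →
        LinearMap.charpoly ((DQ.ρ.baseChangeAlong (θ : DQ.R →+* s59e_adj 𝒪 aM) hθl).ρ σ) =
          X ^ 2 - Polynomial.C (tT' ℓ) * X + Polynomial.C (ℓ : s59e_adj 𝒪 aM) := by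
    intro ℓ hℓ hℓS P' hP' σ hσ
    rw [s59e_bc_charpoly]
    exact hfrobT ℓ hℓ hℓS P' hP' σ hσ
  have hqabc : ¬ ((qv i : ℕ) : ℤ) ∣ P.a * P.b * P.c := fun h => hqiB (hB2 _ hqi h)
  have hunr : (DQ.ρ.baseChangeAlong (θ : DQ.R →+* s59e_adj 𝒪 aM) hθl).residual.IsUnramifiedAt
      (qv i) :=
    s59b_bc_residual_unram _ hθl DQ.ρ (qv i)
      (s59b_DQ_residual_unram DQ (qv i) (s59q_frey_unram_good P hp𝒪 (qv i) hqi hqip hqabc))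
  -- radicality
  have hρB : ∀ β : Bq, ∃ τ : Gamma0 M, ∀ z : Y',
      j ((ρ'.comp Bq.subtype) β z) = s59w_op H 𝒪 (Sum.inr τ) (j z) := by
    intro β
    obtain ⟨τ, hτ⟩ := hρ' (β : Δ')
    refine ⟨τ, fun z => ?_⟩
    have e1 : (ρ'.comp Bq.subtype) β = opY (Sum.inr τ) := hτ
    rw [e1, hopY]
  have hrad := s59u_hrad_final_T N Q H 𝒪 j a k ha aM haM (ρ'.comp Bq.subtype) hρB hcomm ρ' Cs χ'
    hTρ hj hQ hMeq hDQ hD hH hnm hn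
  have hM1 : 1 < M := by
    have := Nat.le_of_dvd (Nat.pos_of_ne_zero (NeZero.ne M)) h2M
    omega
  obtain ⟨τ₀, L₀, hL₀, hβ, hτ₀⟩ := hgl i
  exact s59m_hC8_ERing H j hj opY hopY a k ha aM haM ρ' hρ' Bq Cs χ' hcomm hTρ P P.freyCurveInt hW hΔ
    hss hirr N Q hMeq hQ (fun x u hx hu => s59m_hH_of_ker hD hH x u (hDQ ▸ hx) hu) hsq hM1 hneg
    (Or.inl h2M) hnm hn hk hp𝒪 S (hBS hpB) hMS hgood hrad
    (DQ.ρ.baseChangeAlong (θ : DQ.R →+* s59e_adj 𝒪 aM) hθl) tT' htT' hfrob hcong (qv i) (hqvQ i)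
    hqip (s59m_five_le_of_pow_dvd hp5 hqi hqidvd) hqig hqi1 hqiTW hunr (s59t_hh P.p n g i) τ₀ hβ
    L₀ hL₀ hτ₀

end TP

end Fermat.Agent.Lib.S59
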