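/-
PROGRAMME R2 = S59, node [FLR], BLOCK (Z1) for helper5 (#3781) (helper4, prefix `s59f_`): **[ES-level]** —
Eichler–Shimura at a good prime `r = i₀.ell ∤ M p` (possibly inside the bad set `S`) IN THE RING CONTEXT OF
helper5's `s59e_L_hC8_TPkg` / `s59e_L_hC8_level` (ELC8b.lean):

  `∀ z, j ((θ (tr ρ^univ(σ₀)) : 𝒪[aM]) z) = T′_{i₀} (j z)`      (`σ₀` ANY Frobenius at `i₀.ell`).

The commutative ring `T = 𝒪[aM(A), T′_{i₀}|_Y]` of `s59f_ES_abs` is `s59e_adj 𝒪 aMX`, `aMX : A[X] → End_𝒪 Y`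
the polynomial extension `X ↦ T′_{i₀}|_Y` of `aM`; it is again of the shape "`aM`" over
`aX : A[X] → End H_par`, so helper3's `s59u_induced_ERing'` (reducedness) and helper9's `s59m_aM_mem_adjoin`
apply verbatim.
-/
import Mathlib
import Fermat.Agent.Lib.S59.FNewFam2
import Fermat.Agent.Lib.S59.UHradE
import Fermat.Agent.Lib.S59.MC8Fin
import Fermat.Agent.Lib.S59.MC8TP
import Fermat.Agent.Lib.S59.MC8Part
import Fermat.Agent.Lib.S59.ETGal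

set_option autoImplicit false
set_option linter.unusedSectionVars false
set_option linter.unusedVariables false
set_option linter.style.haveILetI false
set_option synthInstance.maxHeartbeats 400000
set_option maxSynthPendingDepth 3
set_option maxHeartbeats 4000000

noncomputable section

namespace Fermat.Agent.Lib.S59

open Fermat.Agent.Lib.S29 Fermat.Agent.Lib.S30 Fermat.Agent.Lib.S48 Fermat.Agent.Lib.PT
open IsLocalRing TensorProduct Polynomial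
open CongruenceSubgroup ModularCurve.Period
open scoped MatrixGroups

local notation "Qbar" => AlgebraicClosure ℚ
local notation "GQ" => (AlgebraicClosure ℚ ≃ₐ[ℚ] AlgebraicClosure ℚ)

/-- `s59i_cpTr` is the trace. -/
theorem s59f_cpTr_trace {A : Type} [CommRing A] [IsLocalRing A] (ρ : GaloisRepAdic A) (g : GQ) :
    s59i_cpTr ρ g = LinearMap.trace A ρ.V (ρ.ρ g) := by
  have bs : Module.Basis (Fin 2) A ρ.V := Module.finBasisOfFinrankEq A ρ.V ρ.finrank_eq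
  unfold s59i_cpTr
  rw [← LinearMap.charpoly_toMatrix (ρ.ρ g) bs, Matrix.charpoly_fin_two,
    LinearMap.trace_eq_matrix_trace A bs]
  simp [coeff_X_pow]

/-! ### The polynomial extension -/

section PolyExt

variable {M : ℕ} [NeZero M] (H : Subgroup (ZMod M)ˣ)
  {𝒪 : Type} [CommRing 𝒪]
  {Y' : Type} [AddCommGroup Y'] [Module 𝒪 Y']
  (j : Y' →ₗ[𝒪] s48h_Hpar 𝒪 (s48h_GammaH M H) 𝒪) (hj : Function.Injective j)
  (opY : s59w_AIdx M → Module.End 𝒪 Y')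
  (hopY : ∀ jdx y, j (opY jdx y) = s59w_op H 𝒪 jdx (j y))
  {A : Type} [CommRing A] (a : A →+* Module.End 𝒪 (s48h_Hpar 𝒪 (s48h_GammaH M H) 𝒪)) (k : ℕ)
  (ha : ∀ t, a t ∈ Subring.closure (Set.range (s59e_Tp' H 𝒪 k)))
  (aM : A →+* Module.End 𝒪 Y') (haM : ∀ t (z : Y'), j (aM t z) = a t (j z))
  (i₀ : s59w_TIdx M)

include ha in
theorem s59f_a_commute (t : A) : Commute (a t) (s59e_Tp' H 𝒪 k i₀) := by
  have h : Subring.closure (Set.range (s59e_Tp' H 𝒪 k)) ≤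
      Subring.centralizer {s59e_Tp' H 𝒪 k i₀} := by
    rw [Subring.closure_le]
    rintro _ ⟨i, rfl⟩
    rw [SetLike.mem_coe, Subring.mem_centralizer_iff]
    intro g hg
    rw [Set.mem_singleton_iff] at hg
    rw [hg]
    exact s59e_Tp'_comm H 𝒪 k i₀ i
  have := h (ha t)
  rw [Subring.mem_centralizer_iff] at this
  exact (this _ rfl).symm

/-- the polynomial extension `A[X] → End H_par`, `X ↦ T′_{i₀}`. -/
def s59f_aX : Polynomial A →+* Module.End 𝒪 (s48h_Hpar 𝒪 (s48h_GammaH M H) 𝒪) :=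
  Polynomial.eval₂RingHom' a (s59e_Tp' H 𝒪 k i₀) (s59f_a_commute H a k ha i₀)

theorem s59f_aX_C (t : A) : s59f_aX H a k ha i₀ (Polynomial.C t) = a t := by
  unfold s59f_aX
  simp

theorem s59f_aX_X : s59f_aX H a k ha i₀ Polynomial.X = s59e_Tp' H 𝒪 k i₀ := by
  unfold s59f_aX
  simp

theorem s59f_aX_mem (P : Polynomial A) :
    s59f_aX H a k ha i₀ P ∈ Subring.closure (Set.range (s59e_Tp' H 𝒪 k)) := by
  induction P using Polynomial.induction_on' with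
  | add p q hp hq => rw [map_add]; exact Subring.add_mem _ hp hq
  | monomial n t =>
    rw [← Polynomial.C_mul_X_pow_eq_monomial, map_mul, map_pow, s59f_aX_C, s59f_aX_X]
    exact Subring.mul_mem _ (ha t) (Subring.pow_mem _ (Subring.subset_closure (Set.mem_range_self i₀)) n)

/-- `T′_{i₀}` on `Y′`. -/
def s59f_t0 : Module.End 𝒪 Y' := opY (Sum.inr (s59e_tau i₀ k)) * opY (Sum.inl i₀)

include hopY in
theorem s59f_t0_j (z : Y') : j (s59f_t0 opY k i₀ z) = s59e_Tp' H 𝒪 k i₀ (j z) := by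
  unfold s59f_t0 s59e_Tp'
  rw [Module.End.mul_apply, hopY, hopY, Module.End.mul_apply]

include hj hopY ha haM in
theorem s59f_aM_commute (t : A) : Commute (aM t) (s59f_t0 opY k i₀) := by
  refine LinearMap.ext fun z => hj ?_
  rw [Module.End.mul_apply, Module.End.mul_apply, haM, s59f_t0_j H j opY hopY, s59f_t0_j H j opY hopY,
    haM]
  exact LinearMap.congr_fun (s59f_a_commute H a k ha i₀ t) (j z)

/-- the polynomial extension `A[X] → End Y′`, `X ↦ T′_{i₀}|_{Y′}`. -/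
def s59f_aMX : Polynomial A →+* Module.End 𝒪 Y' :=
  Polynomial.eval₂RingHom' aM (s59f_t0 opY k i₀) (s59f_aM_commute H j hj opY hopY a k ha aM haM i₀)

theorem s59f_aMX_C (t : A) : s59f_aMX H j hj opY hopY a k ha aM haM i₀ (Polynomial.C t) = aM t := by
  unfold s59f_aMX
  simp

theorem s59f_aMX_X :
    s59f_aMX H j hj opY hopY a k ha aM haM i₀ Polynomial.X = s59f_t0 opY k i₀ := by
  unfold s59f_aMX
  simp

theorem s59f_aMX_j (P : Polynomial A) (z : Y') :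
    j (s59f_aMX H j hj opY hopY a k ha aM haM i₀ P z) = s59f_aX H a k ha i₀ P (j z) := by
  induction P using Polynomial.induction_on' generalizing z with
  | add p q hp hq => rw [map_add, map_add, LinearMap.add_apply, LinearMap.add_apply, map_add, hp, hq]
  | monomial n t =>
    rw [← Polynomial.C_mul_X_pow_eq_monomial, map_mul, map_mul, map_pow, map_pow, s59f_aMX_C,
      s59f_aMX_X, s59f_aX_C, s59f_aX_X, Module.End.mul_apply, Module.End.mul_apply, haM]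
    congr 1
    induction n generalizing z with
    | zero => rfl
    | succ n ih =>
      rw [pow_succ, pow_succ, Module.End.mul_apply, Module.End.mul_apply, ih,
        s59f_t0_j H j opY hopY]

theorem s59f_adj_le_adjX :
    s59e_adj 𝒪 aM ≤ s59e_adj 𝒪 (s59f_aMX H j hj opY hopY a k ha aM haM i₀) := by
  refine Algebra.adjoin_mono ?_
  rintro _ ⟨t, rfl⟩
  exact ⟨Polynomial.C t, s59f_aMX_C H j hj opY hopY a k ha aM haM i₀ t⟩

end PolyExt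

/-! ### [ES-level] in the ring context of `s59e_L_hC8_TPkg` -/

section ESTP

variable {M : ℕ} [NeZero M] (H : Subgroup (ZMod M)ˣ)
  {𝒪 : Type} [CommRing 𝒪] [IsDomain 𝒪] [IsDiscreteValuationRing 𝒪]
  [IsAdicComplete (maximalIdeal 𝒪) 𝒪] [Finite (ResidueField 𝒪)] [CharZero 𝒪]
  {Y' : Type} [AddCommGroup Y'] [Module 𝒪 Y'] [Module.Finite 𝒪 Y']
  (j : Y' →ₗ[𝒪] s48h_Hpar 𝒪 (s48h_GammaH M H) 𝒪) (hj : Function.Injective j)
  (opY : s59w_AIdx M → Module.End 𝒪 Y')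
  (hopY : ∀ jdx y, j (opY jdx y) = s59w_op H 𝒪 jdx (j y))
  {A : Type} [CommRing A] (a : A →+* Module.End 𝒪 (s48h_Hpar 𝒪 (s48h_GammaH M H) 𝒪)) (k : ℕ)
  (ha : ∀ t, a t ∈ Subring.closure (Set.range (s59e_Tp' H 𝒪 k)))
  (aM : A →+* Module.End 𝒪 Y') (haM : ∀ t (z : Y'), j (aM t z) = a t (j z))

include hj hopY ha haM in
/-- **[ES-level], abstract Galois representation over `T′ = s59e_adj 𝒪 aM`.** -/
theorem s59f_ES_ERing [IsLocalRing (s59e_adj 𝒪 aM)]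
    (p : ℕ) [hpP : Fact p.Prime] (hp2 : p ≠ 2)
    (N : ℕ) [NeZero N] (Q : Finset ℕ)
    (hMeq : M = N * ∏ q ∈ Q, q) (hQ : ∀ q ∈ Q, q.Prime ∧ ¬ q ∣ N)
    {D : ℕ} (hDQ : D = ∏ q ∈ Q, q) (hD : D ∣ M) (hH : s59u_ker M D hD ≤ H)
    {e m : ℕ} (hnm : 2 * m = p ^ e + 1) (hn : ∀ u : (ZMod M)ˣ, u ^ (p ^ e) ∈ H)
    (hk : k = (p ^ e - 1) * m)
    [Algebra ℤ_[p] 𝒪]
    (hp𝒪 : ((p : ℕ) : 𝒪) ∈ maximalIdeal 𝒪)
    (S : Finset ℕ) (hpS : p ∈ S) (hMS : ∀ r : ℕ, r.Prime → r ∣ M → r ∈ S)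
    (ρT : GaloisRepAdic (s59e_adj 𝒪 aM)) (tT' : ℕ → s59e_adj 𝒪 aM)
    (htT' : ∀ i : s59w_TIdx M, i.ell ∉ S → ∀ z : Y',
      j (((tT' i.ell : s59e_adj 𝒪 aM) : Module.End 𝒪 Y') z) = s59e_Tp' H 𝒪 k i (j z))
    (hfrob : ∀ ℓ : ℕ, ℓ.Prime → ℓ ∉ S → ∀ P' : ValuationSubring Qbar, P'.LiesOverPrime ℓ →
      ∀ σ : GQ, P'.IsFrobeniusAt σ ℓ →
        LinearMap.charpoly (ρT.ρ σ) =
          X ^ 2 - Polynomial.C (tT' ℓ) * X + Polynomial.C (ℓ : s59e_adj 𝒪 aM))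
    (i₀ : s59w_TIdx M) (hi₀p : i₀.ell ≠ p)
    (A₀ : ValuationSubring Qbar) (hA₀ : A₀.LiesOverPrime i₀.ell) (σ₀ : GQ)
    (hσ₀ : A₀.IsFrobeniusAt σ₀ i₀.ell) :
    ∀ z : Y', j (((s59i_cpTr ρT σ₀ : s59e_adj 𝒪 aM) : Module.End 𝒪 Y') z) =
      s59e_Tp' H 𝒪 k i₀ (j z) := by
  classical
  set aMX := s59f_aMX H j hj opY hopY a k ha aM haM i₀ with haMX
  have hle : s59e_adj 𝒪 aM ≤ s59e_adj 𝒪 aMX := s59f_adj_le_adjX H j hj opY hopY a k ha aM haM i₀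
  letI : Algebra (s59e_adj 𝒪 aM) (s59e_adj 𝒪 aMX) :=
    (Subalgebra.inclusion hle).toRingHom.toAlgebra
  haveI : IsScalarTower 𝒪 (s59e_adj 𝒪 aM) (s59e_adj 𝒪 aMX) :=
    IsScalarTower.of_algebraMap_eq fun o => rfl
  haveI : Module.Free 𝒪 Y' := s59m_free_of_emb H j hj
  have hincl : ∀ x : s59e_adj 𝒪 aM,
      ((algebraMap (s59e_adj 𝒪 aM) (s59e_adj 𝒪 aMX) x : s59e_adj 𝒪 aMX) : Module.End 𝒪 Y') =
        (x : Module.End 𝒪 Y') := fun x => rfl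
  -- reducedness
  have hS : ∀ s ∈ Set.range aMX, s59u_Induced (s59u_anemic H 𝒪) j s := by
    rintro _ ⟨P, rfl⟩
    exact ⟨s59f_aX H a k ha i₀ P, s59u_closure_Tp'_le H 𝒪 k (s59f_aX_mem H a k ha i₀ P),
      s59f_aMX_j H j hj opY hopY a k ha aM haM i₀ P⟩
  have hI : ∀ t : s59e_adj 𝒪 aMX, t ∈ (⊥ : Ideal (s59e_adj 𝒪 aMX)) ↔
      ∀ w ∈ (Set.univ : Set Y'), (t : Module.End 𝒪 Y') w = 0 := by
    intro t
    rw [Ideal.mem_bot]
    constructor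
    · intro h w _
      rw [h]
      rfl
    · intro h
      exact Subtype.ext (LinearMap.ext fun w => h w (Set.mem_univ w))
  have hrad : (⊥ : Ideal (s59e_adj 𝒪 aMX)).IsRadical :=
    s59u_hrad_subalgebra N Q H 𝒪 hQ hMeq hDQ hD hH hnm hn j hj (Set.range aMX) hS
      (s59e_adj 𝒪 aMX) le_rfl Set.univ ⊥ hI
  -- the generators
  have hjTg : ∀ t : s59e_adj 𝒪 aMX, (s59e_adj 𝒪 aMX).val t ∈ Algebra.adjoin 𝒪 (Set.range opY) := by
    intro t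
    have h1 : s59e_adj 𝒪 aMX ≤ Algebra.adjoin 𝒪 (Set.range opY) := by
      refine Algebra.adjoin_le ?_
      rintro _ ⟨P, rfl⟩
      exact s59m_aM_mem_adjoin H j hj opY hopY (s59f_aX H a k ha i₀) k (s59f_aX_mem H a k ha i₀)
        aMX (s59f_aMX_j H j hj opY hopY a k ha aM haM i₀) P
    exact h1 t.2
  have hIχ : ∀ t : s59e_adj 𝒪 aMX, t ∈ (⊥ : Ideal (s59e_adj 𝒪 aMX)) ↔
      (s59e_adj 𝒪 aMX).val t = 0 := by
    intro t
    rw [Ideal.mem_bot]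
    constructor
    · intro h; rw [h]; rfl
    · intro h; exact Subtype.ext h
  subst hk
  have htr : ∀ i : s59w_TIdx M, i.ell ∉ S →
      (s59e_adj 𝒪 aMX).val (algebraMap (s59e_adj 𝒪 aM) (s59e_adj 𝒪 aMX) (tT' i.ell)) =
        opY (Sum.inr (s59e_tau i ((p ^ e - 1) * m))) * opY (Sum.inl i) := by
    intro i hi
    refine LinearMap.ext fun z => hj ?_
    rw [Subalgebra.val_apply, hincl, htT' i hi z, Module.End.mul_apply, hopY, hopY]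
    rfl
  set tr₀ : s59e_adj 𝒪 aMX := s59e_adjHom 𝒪 aMX Polynomial.X with htr₀
  have htr₀' : (s59e_adj 𝒪 aMX).val tr₀ =
      opY (Sum.inr (s59e_tau i₀ ((p ^ e - 1) * m))) * opY (Sum.inl i₀) := by
    rw [Subalgebra.val_apply, htr₀, s59e_adjHom_coe, haMX, s59f_aMX_X]
    rfl
  have key := s59f_ES_abs p hp2 M N Q hMeq hQ H
    (fun x u hx hu => s59m_hH_of_ker hD hH x u (hDQ ▸ hx) hu) hnm hn 𝒪 hp𝒪 S hpS hMS j hj opY hopY
    (s59e_adj 𝒪 aM) (s59e_adj 𝒪 aMX) (s59e_adj 𝒪 aMX).val hjTg ⊥ hIχ hrad ρT tT' htr hfrob i₀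
    hi₀p tr₀ htr₀' A₀ hA₀ σ₀ hσ₀
  rw [Ideal.mem_bot, sub_eq_zero] at key
  intro z
  rw [s59f_cpTr_trace, ← hincl, ← key, htr₀, s59e_adjHom_coe, haMX, s59f_aMX_X,
    s59f_t0_j H j opY hopY]

include hj hopY ha haM in
/-- **[ES-level], Galois binders of `s59e_L_hC8_TPkg`** (`DQ θ hθ tT' htT' hfrobT`). -/
theorem s59f_ES_TPkg [IsLocalRing (s59e_adj 𝒪 aM)]
    (p : ℕ) [hpP : Fact p.Prime] (hp2 : p ≠ 2)
    (N : ℕ) [NeZero N] (Q : Finset ℕ)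
    (hMeq : M = N * ∏ q ∈ Q, q) (hQ : ∀ q ∈ Q, q.Prime ∧ ¬ q ∣ N)
    {D : ℕ} (hDQ : D = ∏ q ∈ Q, q) (hD : D ∣ M) (hH : s59u_ker M D hD ≤ H)
    {e m : ℕ} (hnm : 2 * m = p ^ e + 1) (hn : ∀ u : (ZMod M)ˣ, u ^ (p ^ e) ∈ H)
    (hk : k = (p ^ e - 1) * m)
    [Algebra ℤ_[p] 𝒪]
    (hp𝒪 : ((p : ℕ) : 𝒪) ∈ maximalIdeal 𝒪)
    (S : Finset ℕ) (hpS : p ∈ S) (hMS : ∀ r : ℕ, r.Prime → r ∣ M → r ∈ S)
    {ρbar : ResidualGaloisRep (ResidueField 𝒪)}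
    {𝒟 : ∀ ⦃A : Type⦄ [CommRing A] [IsLocalRing A] [Algebra 𝒪 A], GaloisRepAdic A → Prop}
    (DQ : GaloisRep.DeformationRingData 𝒪 ρbar 𝒟)
    (θ : DQ.R →ₐ[𝒪] s59e_adj 𝒪 aM) (hθ : Function.Surjective θ)
    (tT' : ℕ → s59e_adj 𝒪 aM)
    (htT' : ∀ i : s59w_TIdx M, i.ell ∉ S → ∀ z : Y',
      j (((tT' i.ell : s59e_adj 𝒪 aM) : Module.End 𝒪 Y') z) = s59e_Tp' H 𝒪 k i (j z))
    (hfrobT : ∀ ℓ : ℕ, ℓ.Prime → ℓ ∉ S →
      ∀ A : ValuationSubring (AlgebraicClosure ℚ), A.LiesOverPrime ℓ →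
      ∀ τ : GQ, A.IsFrobeniusAt τ ℓ →
        (LinearMap.charpoly (DQ.ρ.ρ τ)).map (θ : DQ.R →+* s59e_adj 𝒪 aM) =
          Polynomial.X ^ 2 - Polynomial.C (tT' ℓ) * Polynomial.X +
            Polynomial.C ((ℓ : s59e_adj 𝒪 aM)))
    (i₀ : s59w_TIdx M) (hi₀p : i₀.ell ≠ p)
    (A₀ : ValuationSubring Qbar) (hA₀ : A₀.LiesOverPrime i₀.ell) (σ₀ : GQ)
    (hσ₀ : A₀.IsFrobeniusAt σ₀ i₀.ell) :
    ∀ z : Y', j (((θ (s59i_cpTr DQ.ρ σ₀) : s59e_adj 𝒪 aM) : Module.End 𝒪 Y') z) =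
      s59e_Tp' H 𝒪 k i₀ (j z) := by
  have hθl : IsLocalHom (θ : DQ.R →+* s59e_adj 𝒪 aM) := IsLocalHom.of_surjective _ hθ
  have hfrob : ∀ ℓ : ℕ, ℓ.Prime → ℓ ∉ S → ∀ P' : ValuationSubring Qbar, P'.LiesOverPrime ℓ →
      ∀ σ : GQ, P'.IsFrobeniusAt σ ℓ →
        LinearMap.charpoly ((DQ.ρ.baseChangeAlong (θ : DQ.R →+* s59e_adj 𝒪 aM) hθl).ρ σ) =
          X ^ 2 - Polynomial.C (tT' ℓ) * X + Polynomial.C (ℓ : s59e_adj 𝒪 aM) := by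
    intro ℓ hℓ hℓS P' hP' σ hσ
    rw [s59e_bc_charpoly]
    exact hfrobT ℓ hℓ hℓS P' hP' σ hσ
  have key := s59f_ES_ERing H j hj opY hopY a k ha aM haM p hp2 N Q hMeq hQ hDQ hD hH hnm hn hk hp𝒪
    S hpS hMS (DQ.ρ.baseChangeAlong (θ : DQ.R →+* s59e_adj 𝒪 aM) hθl) tT' htT' hfrob i₀ hi₀p A₀ hA₀
    σ₀ hσ₀
  intro z
  have := key z
  rwa [s59e_cpTr_map, RingHom.coe_coe] at this

end ESTP

/-! ### [ES-level] on the part of an idempotent (context of `s59e_L_hC8_level`) -/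

section ESPart

variable {M : ℕ} [NeZero M] (H : Subgroup (ZMod M)ˣ)
  {𝒪 : Type} [CommRing 𝒪] [IsDomain 𝒪] [IsDiscreteValuationRing 𝒪]
  [IsAdicComplete (maximalIdeal 𝒪) 𝒪] [Finite (ResidueField 𝒪)] [CharZero 𝒪]
  (ε' : Module.End 𝒪 (s48h_Hpar 𝒪 (s48h_GammaH M H) 𝒪))
  (hεop : ∀ x y, ε' (s59w_op H 𝒪 x y) = s59w_op H 𝒪 x (ε' y))

variable {A : Type} [CommRing A] (a : A →+* Module.End 𝒪 (s48h_Hpar 𝒪 (s48h_GammaH M H) 𝒪)) (k : ℕ)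
  (ha : ∀ t, a t ∈ Subring.closure (Set.range (s59e_Tp' H 𝒪 k)))
  (aM : A →+* Module.End 𝒪 (s59t_part ε'))
  (haM : ∀ t (z : s59t_part ε'), (s59t_part ε').subtype (aM t z) = a t ((s59t_part ε').subtype z))

include hεop ha haM in
/-- **(Z1) [ES-level] on `s59t_part ε'`**, binders of `s59e_L_hC8_level` (ELC8b.lean): for every good prime
`i₀.ell ≠ p` (possibly in `S`) and EVERY Frobenius `σ₀` at `i₀.ell`, `θ (tr ρ^univ(σ₀))` acts on the part as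
the twisted Hecke operator `T′_{i₀}`. -/
theorem s59f_ES_level [IsLocalRing (s59e_adj 𝒪 aM)]
    (p : ℕ) [hpP : Fact p.Prime] (hp2 : p ≠ 2)
    (N : ℕ) [NeZero N] (Q : Finset ℕ)
    (hMeq : M = N * ∏ q ∈ Q, q) (hQ : ∀ q ∈ Q, q.Prime ∧ ¬ q ∣ N)
    {D : ℕ} (hDQ : D = ∏ q ∈ Q, q) (hD : D ∣ M) (hH : s59u_ker M D hD ≤ H)
    {e m : ℕ} (hnm : 2 * m = p ^ e + 1) (hn : ∀ u : (ZMod M)ˣ, u ^ (p ^ e) ∈ H)
    (hk : k = (p ^ e - 1) * m)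
    [Algebra ℤ_[p] 𝒪]
    (hp𝒪 : ((p : ℕ) : 𝒪) ∈ maximalIdeal 𝒪)
    (S : Finset ℕ) (hpS : p ∈ S) (hMS : ∀ r : ℕ, r.Prime → r ∣ M → r ∈ S)
    {ρbar : ResidualGaloisRep (ResidueField 𝒪)}
    {𝒟 : ∀ ⦃A : Type⦄ [CommRing A] [IsLocalRing A] [Algebra 𝒪 A], GaloisRepAdic A → Prop}
    (DQ : GaloisRep.DeformationRingData 𝒪 ρbar 𝒟)
    (θ : DQ.R →ₐ[𝒪] s59e_adj 𝒪 aM) (hθ : Function.Surjective θ)
    (tT' : ℕ → s59e_adj 𝒪 aM)
    (htT' : ∀ i : s59w_TIdx M, i.ell ∉ S → ∀ z : s59t_part ε',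
      (s59t_part ε').subtype (((tT' i.ell : s59e_adj 𝒪 aM) : Module.End 𝒪 (s59t_part ε')) z) =
        s59e_Tp' H 𝒪 k i ((s59t_part ε').subtype z))
    (hfrobT : ∀ ℓ : ℕ, ℓ.Prime → ℓ ∉ S →
      ∀ A : ValuationSubring (AlgebraicClosure ℚ), A.LiesOverPrime ℓ →
      ∀ τ : GQ, A.IsFrobeniusAt τ ℓ →
        (LinearMap.charpoly (DQ.ρ.ρ τ)).map (θ : DQ.R →+* s59e_adj 𝒪 aM) =
          Polynomial.X ^ 2 - Polynomial.C (tT' ℓ) * Polynomial.X +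
            Polynomial.C ((ℓ : s59e_adj 𝒪 aM)))
    (i₀ : s59w_TIdx M) (hi₀p : i₀.ell ≠ p)
    (A₀ : ValuationSubring Qbar) (hA₀ : A₀.LiesOverPrime i₀.ell) (σ₀ : GQ)
    (hσ₀ : A₀.IsFrobeniusAt σ₀ i₀.ell) :
    ∀ z : s59t_part ε', (s59t_part ε').subtype
        (((θ (s59i_cpTr DQ.ρ σ₀) : s59e_adj 𝒪 aM) : Module.End 𝒪 (s59t_part ε')) z) =
      s59e_Tp' H 𝒪 k i₀ ((s59t_part ε').subtype z) := by
  haveI : Module.Finite 𝒪 (s48h_Hpar 𝒪 (s48h_GammaH M H) 𝒪) := s59t_Hpar_finite 𝒪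
  haveI : Module.Finite 𝒪 (s59t_part ε') := s59t_part_finite ε'
  exact s59f_ES_TPkg H (s59t_part ε').subtype Subtype.val_injective (s59m_opPart H ε' hεop)
    (fun _ _ => rfl) a k ha aM haM p hp2 N Q hMeq hQ hDQ hD hH hnm hn hk hp𝒪 S hpS hMS DQ θ hθ tT'
    htT' hfrobT i₀ hi₀p A₀ hA₀ σ₀ hσ₀

end ESPart

end Fermat.Agent.Lib.S59
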