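/-
PROGRAMME R2 = S59, node [FLR], BLOCK (Z2) for helper5 (#3781) (helper4, prefix `s59f_`): **[NEW-level]** —
on the KERNEL-NEW part (`cor z = 0 = cor (w z)`) of a Hecke-stable module at level `L r`, the trace of
`ρ^univ(Frob_r)` satisfies `τ² = (r + 1)²`, IN THE RING CONTEXT OF helper5's `s59e_L_hC8_TPkg`.

`T = T′ = s59e_adj 𝒪 aM` acting on the Hecke-stable submodule `Zs ⊆ Y′` through the restriction homomorphism
`s59f_resStab` (so `Iχ = Ann_{T′}(Zs)`, radical by helper3's `s59u_hrad_subalgebra`); then `s59f_NEW_abs`.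
-/
import Mathlib
import Fermat.Agent.Lib.S59.FZ1

set_option autoImplicit false
set_option linter.unusedSectionVars false
set_option linter.unusedVariables false
set_option linter.style.haveILetI false
set_option synthInstance.maxHeartbeats 400000
set_option maxSynthPendingDepth 3
set_option maxHeartbeats 4000000

noncomputable section

namespace Fermat.Agent.Lib.S59

open Fermat.Agent.Lib.S29 Fermat.Agent.Lib.S30 Fermat.Agent.Lib.S48 Fermat.Agent.Lib.PT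
open IsLocalRing TensorProduct Polynomial
open CongruenceSubgroup ModularCurve.Period
open scoped MatrixGroups

local notation "Qbar" => AlgebraicClosure ℚ
local notation "GQ" => (AlgebraicClosure ℚ ≃ₐ[ℚ] AlgebraicClosure ℚ)

/-! ### Restriction to an invariant submodule, as an algebra homomorphism -/

section Stab

variable {𝒪 : Type*} [CommRing 𝒪] {Y : Type*} [AddCommGroup Y] [Module 𝒪 Y] (Zs : Submodule 𝒪 Y)

/-- the subalgebra of the endomorphisms preserving `Zs`. -/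
def s59f_stab : Subalgebra 𝒪 (Module.End 𝒪 Y) where
  carrier := {x | ∀ z ∈ Zs, x z ∈ Zs}
  mul_mem' := fun {x y} hx hy z hz => hx _ (hy z hz)
  one_mem' := fun z hz => hz
  add_mem' := fun {x y} hx hy z hz => Zs.add_mem (hx z hz) (hy z hz)
  zero_mem' := fun z _ => Zs.zero_mem
  algebraMap_mem' := fun r z hz => by
    rw [Module.algebraMap_end_apply]
    exact Zs.smul_mem r hz

theorem s59f_mem_stab {x : Module.End 𝒪 Y} : x ∈ s59f_stab Zs ↔ ∀ z ∈ Zs, x z ∈ Zs := Iff.rfl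

/-- restriction to `Zs`. -/
def s59f_resStab : s59f_stab Zs →ₐ[𝒪] Module.End 𝒪 Zs where
  toFun x := x.1.restrict x.2
  map_one' := LinearMap.ext fun z => Subtype.ext rfl
  map_mul' x y := LinearMap.ext fun z => Subtype.ext rfl
  map_zero' := LinearMap.ext fun z => Subtype.ext rfl
  map_add' x y := LinearMap.ext fun z => Subtype.ext rfl
  commutes' r := LinearMap.ext fun z => Subtype.ext (by
    rw [LinearMap.coe_restrict_apply]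
    show (algebraMap 𝒪 (Module.End 𝒪 Y) r) (z : Y) = _
    rw [Module.algebraMap_end_apply, Module.algebraMap_end_apply]
    rfl)

theorem s59f_resStab_apply (x : s59f_stab Zs) (z : Zs) :
    ((s59f_resStab Zs x z : Zs) : Y) = (x : Module.End 𝒪 Y) (z : Y) := rfl

variable {J : Type*} (g : J → Module.End 𝒪 Y) (hg : ∀ j, ∀ y ∈ Zs, g j y ∈ Zs)

include hg in
theorem s59f_adjoin_le_stab : Algebra.adjoin 𝒪 (Set.range g) ≤ s59f_stab Zs := by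
  refine Algebra.adjoin_le ?_
  rintro _ ⟨j, rfl⟩
  exact hg j

end Stab

/-! ### [NEW-level] in the ring context of `s59e_L_hC8_TPkg`, level `L * r` -/

section NewTP

variable (p : ℕ) [hpP : Fact p.Prime] (N₁ : ℕ) [NeZero N₁] (r : ℕ) [NeZero r] [hr : Fact r.Prime]
  (Q : Finset ℕ) {L : ℕ} [NeZero L] [NeZero (L * r)] (H' : Subgroup (ZMod (L * r))ˣ)
  {𝒪 : Type} [CommRing 𝒪] [IsDomain 𝒪] [IsDiscreteValuationRing 𝒪]
  [IsAdicComplete (maximalIdeal 𝒪) 𝒪] [Finite (ResidueField 𝒪)] [CharZero 𝒪]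
  {Y' : Type} [AddCommGroup Y'] [Module 𝒪 Y'] [Module.Finite 𝒪 Y']
  (j : Y' →ₗ[𝒪] s48h_Hpar 𝒪 (s48h_GammaH (L * r) H') 𝒪) (hj : Function.Injective j)
  (opY : s59w_AIdx (L * r) → Module.End 𝒪 Y')
  (hopY : ∀ jdx y, j (opY jdx y) = s59w_op H' 𝒪 jdx (j y))
  {A : Type} [CommRing A]
  (a : A →+* Module.End 𝒪 (s48h_Hpar 𝒪 (s48h_GammaH (L * r) H') 𝒪)) (k : ℕ)
  (ha : ∀ t, a t ∈ Subring.closure (Set.range (s59e_Tp' H' 𝒪 k)))
  (aM : A →+* Module.End 𝒪 Y') (haM : ∀ t (z : Y'), j (aM t z) = a t (j z))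

include hj hopY ha haM in
/-- **[NEW-level], abstract Galois representation over `T′ = s59e_adj 𝒪 aM`, Hecke-stable submodule `Zs`
of kernel-new classes.** -/
theorem s59f_NEW_ERing [IsLocalRing (s59e_adj 𝒪 aM)]
    (hp2 : p ≠ 2) (hrp : r ≠ p) (hQ : ∀ q ∈ Q, q.Prime ∧ ¬ q ∣ N₁ * r)
    (hL : L = N₁ * ∏ q ∈ Q, q) (hrL : ¬ r ∣ L)
    (H : Subgroup (ZMod L)ˣ) (hD₁ : (∏ q ∈ Q, q) ∣ L)
    (hHker : s59u_ker L (∏ q ∈ Q, q) hD₁ ≤ H)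
    (hH' : ∀ u : (ZMod (L * r))ˣ, u ∈ H' ↔ ZMod.unitsMap (dvd_mul_right L r) u ∈ H)
    {e m : ℕ} (hnm : 2 * m = p ^ e + 1) (hn : ∀ u : (ZMod (L * r))ˣ, u ^ (p ^ e) ∈ H')
    (hk : k = (p ^ e - 1) * m)
    [Algebra ℤ_[p] 𝒪]
    (hp𝒪 : ((p : ℕ) : 𝒪) ∈ maximalIdeal 𝒪)
    (S : Finset ℕ) (hpS : p ∈ S) (hMS : ∀ q : ℕ, q.Prime → q ∣ L * r → q ∈ S)
    -- the kernel-new submodule
    (Zs : Submodule 𝒪 Y') (hZs : ∀ jdx, ∀ y ∈ Zs, opY jdx y ∈ Zs)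
    (hnewA : ∀ z ∈ Zs, s59f_corH hrL (s59f_isG_GammaH L H)
      (s59f_isG'_GammaH hrL rfl (dvd_mul_right L r) hH') 𝒪
      ((j z : s48h_Hpar 𝒪 (s48h_GammaH (L * r) H') 𝒪) :
        Additive (s48h_GammaH (L * r) H') →+ 𝒪) = 0)
    (hnewB : ∀ z ∈ Zs, s59f_corH hrL (s59f_isG_GammaH L H)
      (s59f_isG'_GammaH hrL rfl (dvd_mul_right L r) hH') 𝒪
      (s59f_wH hrL (s59f_isG'_GammaH hrL rfl (dvd_mul_right L r) hH') 𝒪
        ((j z : s48h_Hpar 𝒪 (s48h_GammaH (L * r) H') 𝒪) :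
          Additive (s48h_GammaH (L * r) H') →+ 𝒪)) = 0)
    -- the Galois representation
    (ρT : GaloisRepAdic (s59e_adj 𝒪 aM)) (tT' : ℕ → s59e_adj 𝒪 aM)
    (htT' : ∀ i : s59w_TIdx (L * r), i.ell ∉ S → ∀ z : Y',
      j (((tT' i.ell : s59e_adj 𝒪 aM) : Module.End 𝒪 Y') z) = s59e_Tp' H' 𝒪 k i (j z))
    (hfrob : ∀ ℓ : ℕ, ℓ.Prime → ℓ ∉ S → ∀ P' : ValuationSubring Qbar, P'.LiesOverPrime ℓ →
      ∀ σ : GQ, P'.IsFrobeniusAt σ ℓ →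
        LinearMap.charpoly (ρT.ρ σ) =
          X ^ 2 - Polynomial.C (tT' ℓ) * X + Polynomial.C (ℓ : s59e_adj 𝒪 aM))
    (A₀ : ValuationSubring Qbar) (hA₀ : A₀.LiesOverPrime r) (σ₀ : GQ)
    (hσ₀ : A₀.IsFrobeniusAt σ₀ r) :
    ∀ z ∈ Zs, ((r : 𝒪) + 1) ^ 2 • z -
      ((s59i_cpTr ρT σ₀ : s59e_adj 𝒪 aM) : Module.End 𝒪 Y')
        (((s59i_cpTr ρT σ₀ : s59e_adj 𝒪 aM) : Module.End 𝒪 Y') z) = 0 := by
  classical
  subst hk
  haveI : IsNoetherian 𝒪 Y' := isNoetherian_of_isNoetherianRing_of_finite 𝒪 Y'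
  haveI : Module.Finite 𝒪 Zs := Module.Finite.of_injective Zs.subtype Subtype.val_injective
  set emb : Zs →ₗ[𝒪] s48h_Hpar 𝒪 (s48h_GammaH (L * r) H') 𝒪 := j ∘ₗ Zs.subtype with hemb_def
  have hemb : Function.Injective emb := hj.comp Subtype.val_injective
  haveI : Module.Free 𝒪 Zs := s59m_free_of_emb H' emb hemb
  set op : s59w_AIdx (L * r) → Module.End 𝒪 Zs := fun jdx => (opY jdx).restrict (hZs jdx) with hop_def
  have hop : ∀ jdx z, emb (op jdx z) = s59w_op H' 𝒪 jdx (emb z) := fun jdx z => hopY jdx _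
  -- the ring
  have hle1 : s59e_adj 𝒪 aM ≤ Algebra.adjoin 𝒪 (Set.range opY) := by
    refine Algebra.adjoin_le ?_
    rintro _ ⟨t, rfl⟩
    exact s59m_aM_mem_adjoin H' j hj opY hopY a _ ha aM haM t
  have hle : s59e_adj 𝒪 aM ≤ s59f_stab Zs := hle1.trans (s59f_adjoin_le_stab Zs opY hZs)
  set jT : s59e_adj 𝒪 aM →ₐ[𝒪] Module.End 𝒪 Zs :=
    (s59f_resStab Zs).comp (Subalgebra.inclusion hle) with hjT_def
  have hjT : ∀ (t : s59e_adj 𝒪 aM) (z : Zs), ((jT t z : Zs) : Y') = (t : Module.End 𝒪 Y') z :=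
    fun t z => rfl
  have hjTg : ∀ t, jT t ∈ Algebra.adjoin 𝒪 (Set.range op) := by
    intro t
    obtain ⟨hst, hmem⟩ := s59m_restrict_mem_adjoin Zs opY hZs (hle1 t.2)
    exact hmem
  -- radicality
  have hS : ∀ s ∈ Set.range aM, s59u_Induced (s59u_anemic H' 𝒪) j s := by
    rintro _ ⟨t, rfl⟩
    exact ⟨a t, s59u_closure_Tp'_le H' 𝒪 _ (ha t), haM t⟩
  have hD : (∏ q ∈ Q, q) ∣ L * r := Dvd.dvd.mul_right hD₁ r
  have hHk : s59u_ker (L * r) (∏ q ∈ Q, q) hD ≤ H' := by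
    intro u hu
    rw [hH']
    apply hHker
    show ZMod.unitsMap (dvd_mul_right L r) u ∈ (ZMod.unitsMap hD₁).ker
    have hu' : ZMod.unitsMap hD u = 1 := hu
    rw [MonoidHom.mem_ker, ← MonoidHom.comp_apply, ZMod.unitsMap_comp, hu']
  have hMeq : L * r = (N₁ * r) * ∏ q ∈ Q, q := by rw [hL]; ring
  have hI : ∀ t : s59e_adj 𝒪 aM, t ∈ RingHom.ker (jT : s59e_adj 𝒪 aM →+* Module.End 𝒪 Zs) ↔
      ∀ w ∈ (Zs : Set Y'), (t : Module.End 𝒪 Y') w = 0 := by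
    intro t
    rw [RingHom.mem_ker]
    constructor
    · intro h w hw
      have := LinearMap.congr_fun h ⟨w, hw⟩
      exact congrArg Subtype.val this
    · intro h
      exact LinearMap.ext fun z => Subtype.ext (h z.1 z.2)
  have hrad : (RingHom.ker (jT : s59e_adj 𝒪 aM →+* Module.End 𝒪 Zs)).IsRadical :=
    s59u_hrad_subalgebra (N₁ * r) Q H' 𝒪 hQ hMeq rfl hD hHk hnm hn j hj (Set.range aM) hS
      (s59e_adj 𝒪 aM) le_rfl (Zs : Set Y') _ hI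
  have hIχ : ∀ t, t ∈ RingHom.ker (jT : s59e_adj 𝒪 aM →+* Module.End 𝒪 Zs) ↔ jT t = 0 :=
    fun t => RingHom.mem_ker
  have htr : ∀ i : s59w_TIdx (L * r), i.ell ∉ S →
      jT (algebraMap (s59e_adj 𝒪 aM) (s59e_adj 𝒪 aM) (tT' i.ell)) =
        op (Sum.inr (s59e_tau i ((p ^ e - 1) * m))) * op (Sum.inl i) := by
    intro i hi
    refine LinearMap.ext fun z => Subtype.ext (hj ?_)
    rw [Algebra.algebraMap_self, RingHom.id_apply, hjT, htT' i hi]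
    show _ = j (opY _ (opY _ (z : Y')))
    rw [hopY, hopY]
    rfl
  have key := s59f_NEW_abs p N₁ r Q hp2 hrp hQ hL hrL H hD₁ hHker H' hH' hnm hn 𝒪 hp𝒪 S hpS hMS
    emb hemb op hop (fun z => hnewA z.1 z.2) (fun z => hnewB z.1 z.2)
    (s59e_adj 𝒪 aM) (s59e_adj 𝒪 aM) jT hjTg _ hIχ hrad ρT tT' htr hfrob A₀ hA₀ σ₀ hσ₀
  rw [RingHom.mem_ker, Algebra.algebraMap_self, RingHom.id_apply, ← s59f_cpTr_trace] at key
  have key' : jT (((r : s59e_adj 𝒪 aM) + 1) ^ 2 - s59i_cpTr ρT σ₀ ^ 2) = 0 := key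
  intro z hz
  have h1 := congrArg Subtype.val (LinearMap.congr_fun key' ⟨z, hz⟩)
  rw [hjT] at h1
  have h0 : (((0 : Module.End 𝒪 Zs) ⟨z, hz⟩ : Zs) : Y') = 0 := rfl
  rw [h0] at h1
  have hr : ((r : s59e_adj 𝒪 aM) + 1) ^ 2 =
      algebraMap 𝒪 (s59e_adj 𝒪 aM) (((r : 𝒪) + 1) ^ 2) := by
    rw [map_pow, map_add, map_one, map_natCast]
  rw [hr, pow_two (s59i_cpTr ρT σ₀)] at h1
  exact h1

include hj hopY ha haM in
/-- **[NEW-level], Galois binders of `s59e_L_hC8_TPkg`** (`DQ θ hθ tT' htT' hfrobT`), equation form. -/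
theorem s59f_NEW_TPkg [IsLocalRing (s59e_adj 𝒪 aM)]
    (hp2 : p ≠ 2) (hrp : r ≠ p) (hQ : ∀ q ∈ Q, q.Prime ∧ ¬ q ∣ N₁ * r)
    (hL : L = N₁ * ∏ q ∈ Q, q) (hrL : ¬ r ∣ L)
    (H : Subgroup (ZMod L)ˣ) (hD₁ : (∏ q ∈ Q, q) ∣ L)
    (hHker : s59u_ker L (∏ q ∈ Q, q) hD₁ ≤ H)
    (hH' : ∀ u : (ZMod (L * r))ˣ, u ∈ H' ↔ ZMod.unitsMap (dvd_mul_right L r) u ∈ H)
    {e m : ℕ} (hnm : 2 * m = p ^ e + 1) (hn : ∀ u : (ZMod (L * r))ˣ, u ^ (p ^ e) ∈ H')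
    (hk : k = (p ^ e - 1) * m)
    [Algebra ℤ_[p] 𝒪]
    (hp𝒪 : ((p : ℕ) : 𝒪) ∈ maximalIdeal 𝒪)
    (S : Finset ℕ) (hpS : p ∈ S) (hMS : ∀ q : ℕ, q.Prime → q ∣ L * r → q ∈ S)
    (Zs : Submodule 𝒪 Y') (hZs : ∀ jdx, ∀ y ∈ Zs, opY jdx y ∈ Zs)
    (hnewA : ∀ z ∈ Zs, s59f_corH hrL (s59f_isG_GammaH L H)
      (s59f_isG'_GammaH hrL rfl (dvd_mul_right L r) hH') 𝒪
      ((j z : s48h_Hpar 𝒪 (s48h_GammaH (L * r) H') 𝒪) :
        Additive (s48h_GammaH (L * r) H') →+ 𝒪) = 0)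
    (hnewB : ∀ z ∈ Zs, s59f_corH hrL (s59f_isG_GammaH L H)
      (s59f_isG'_GammaH hrL rfl (dvd_mul_right L r) hH') 𝒪
      (s59f_wH hrL (s59f_isG'_GammaH hrL rfl (dvd_mul_right L r) hH') 𝒪
        ((j z : s48h_Hpar 𝒪 (s48h_GammaH (L * r) H') 𝒪) :
          Additive (s48h_GammaH (L * r) H') →+ 𝒪)) = 0)
    {ρbar : ResidualGaloisRep (ResidueField 𝒪)}
    {𝒟 : ∀ ⦃A : Type⦄ [CommRing A] [IsLocalRing A] [Algebra 𝒪 A], GaloisRepAdic A → Prop}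
    (DQ : GaloisRep.DeformationRingData 𝒪 ρbar 𝒟)
    (θ : DQ.R →ₐ[𝒪] s59e_adj 𝒪 aM) (hθ : Function.Surjective θ)
    (tT' : ℕ → s59e_adj 𝒪 aM)
    (htT' : ∀ i : s59w_TIdx (L * r), i.ell ∉ S → ∀ z : Y',
      j (((tT' i.ell : s59e_adj 𝒪 aM) : Module.End 𝒪 Y') z) = s59e_Tp' H' 𝒪 k i (j z))
    (hfrobT : ∀ ℓ : ℕ, ℓ.Prime → ℓ ∉ S →
      ∀ A : ValuationSubring (AlgebraicClosure ℚ), A.LiesOverPrime ℓ →
      ∀ τ : GQ, A.IsFrobeniusAt τ ℓ →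
        (LinearMap.charpoly (DQ.ρ.ρ τ)).map (θ : DQ.R →+* s59e_adj 𝒪 aM) =
          Polynomial.X ^ 2 - Polynomial.C (tT' ℓ) * Polynomial.X +
            Polynomial.C ((ℓ : s59e_adj 𝒪 aM)))
    (A₀ : ValuationSubring Qbar) (hA₀ : A₀.LiesOverPrime r) (σ₀ : GQ)
    (hσ₀ : A₀.IsFrobeniusAt σ₀ r) :
    ∀ z ∈ Zs, ((θ (s59i_cpTr DQ.ρ σ₀) : s59e_adj 𝒪 aM) : Module.End 𝒪 Y')
        (((θ (s59i_cpTr DQ.ρ σ₀) : s59e_adj 𝒪 aM) : Module.End 𝒪 Y') z) =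
      (((r : 𝒪) + 1) ^ 2) • z := by
  have hθl : IsLocalHom (θ : DQ.R →+* s59e_adj 𝒪 aM) := IsLocalHom.of_surjective _ hθ
  have hfrob : ∀ ℓ : ℕ, ℓ.Prime → ℓ ∉ S → ∀ P' : ValuationSubring Qbar, P'.LiesOverPrime ℓ →
      ∀ σ : GQ, P'.IsFrobeniusAt σ ℓ →
        LinearMap.charpoly ((DQ.ρ.baseChangeAlong (θ : DQ.R →+* s59e_adj 𝒪 aM) hθl).ρ σ) =
          X ^ 2 - Polynomial.C (tT' ℓ) * X + Polynomial.C (ℓ : s59e_adj 𝒪 aM) := by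
    intro ℓ hℓ hℓS P' hP' σ hσ
    rw [s59e_bc_charpoly]
    exact hfrobT ℓ hℓ hℓS P' hP' σ hσ
  have key := s59f_NEW_ERing p N₁ r Q H' j hj opY hopY a k ha aM haM hp2 hrp hQ hL hrL H hD₁ hHker
    hH' hnm hn hk hp𝒪 S hpS hMS Zs hZs hnewA hnewB
    (DQ.ρ.baseChangeAlong (θ : DQ.R →+* s59e_adj 𝒪 aM) hθl) tT' htT' hfrob A₀ hA₀ σ₀ hσ₀
  intro z hz
  have := key z hz
  rw [s59e_cpTr_map, RingHom.coe_coe] at this
  exact (sub_eq_zero.mp this).symm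

end NewTP

end Fermat.Agent.Lib.S59
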