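/-
PROGRAMME R2 = S59, node [FLR], BLOCK (Z2) for helper5 (#3781), part 2 (helper4, prefix `s59f_`):
**[NEW-level] for the package `(s59f_oldN …).restrict hc`**, level `N' = L q` (free `N'`, `hN'`), on
`s59t_part ε''`, ring binders of `s59e_L_hC8_level` (ELC8b.lean) at `M := N'`:

  `∀ z : part ε'', D.corA z = 0 → D.corB z = 0 → τ (τ z) = (q + 1)² • z`,  `τ = θ(tr ρ^univ(σ_q))`,

`σ_q` ANY Frobenius at `q` (the hypothesis `hnew` of helper5's `s59efl_TStep`).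
-/
import Mathlib
import Fermat.Agent.Lib.S59.FZ2
import Fermat.Agent.Lib.S59.FEps7
import Fermat.Agent.Lib.S59.TLvlQ2

set_option autoImplicit false
set_option linter.unusedSectionVars false
set_option linter.unusedVariables false
set_option linter.style.haveILetI false
set_option synthInstance.maxHeartbeats 400000
set_option maxSynthPendingDepth 3
set_option maxHeartbeats 4000000

noncomputable section

namespace Fermat.Agent.Lib.S59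

open Fermat.Agent.Lib.S29 Fermat.Agent.Lib.S30 Fermat.Agent.Lib.S48 Fermat.Agent.Lib.PT
open IsLocalRing TensorProduct Polynomial
open CongruenceSubgroup ModularCurve.Period
open scoped MatrixGroups

local notation "Qbar" => AlgebraicClosure ℚ
local notation "GQ" => (AlgebraicClosure ℚ ≃ₐ[ℚ] AlgebraicClosure ℚ)

/-- the diamond operators on `Hom(Γ_H, A)` are injective. -/
theorem s59f_diamondH_injective {N : ℕ} (H : Subgroup (ZMod N)ˣ) {σ : SL(2, ℤ)} (hσ : σ ∈ Gamma0 N)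
    {A : Type*} [AddCommGroup A] : Function.Injective (s48h_diamondH H σ hσ A) := by
  intro χ χ' h
  have h1 := congrArg (s48h_diamondH H σ⁻¹ (inv_mem hσ) A) h
  rw [s48h_diamondH_mul, s48h_diamondH_mul] at h1
  have h2 : σ * σ⁻¹ ∈ s48h_GammaH N H := by rw [mul_inv_cancel]; exact one_mem _
  rwa [s48h_diamondH_of_mem h2, s48h_diamondH_of_mem h2] at h1

section NewLevelAux

variable {L q : ℕ} [NeZero L] [NeZero (L * q)] [hq : Fact q.Prime] (hqL : ¬ q ∣ L)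
  (H : Subgroup (ZMod L)ˣ) (H' : Subgroup (ZMod (L * q))ˣ)
  (hLN : L ∣ L * q) (hH' : ∀ u : (ZMod (L * q))ˣ, u ∈ H' ↔ ZMod.unitsMap hLN u ∈ H)
  (hG' : s59f_IsG' L q H (s48h_GammaH (L * q) H'))
  {𝒪 : Type} [CommRing 𝒪] [IsDomain 𝒪] [IsDiscreteValuationRing 𝒪]
  [IsAdicComplete (maximalIdeal 𝒪) 𝒪] [Finite (ResidueField 𝒪)] [CharZero 𝒪]
  (ε'' : Module.End 𝒪 (s48h_Hpar 𝒪 (s48h_GammaH (L * q) H') 𝒪))
  (hεop : ∀ x y, ε'' (s59w_op H' 𝒪 x y) = s59w_op H' 𝒪 x (ε'' y))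

variable {A : Type} [CommRing A]
  (a : A →+* Module.End 𝒪 (s48h_Hpar 𝒪 (s48h_GammaH (L * q) H') 𝒪)) (k : ℕ)
  (ha : ∀ t, a t ∈ Subring.closure (Set.range (s59e_Tp' H' 𝒪 k)))
  (aM : A →+* Module.End 𝒪 (s59t_part ε''))
  (haM : ∀ t (z : s59t_part ε''),
    (s59t_part ε'').subtype (aM t z) = a t ((s59t_part ε'').subtype z))

include hH' hεop ha haM in
/-- (Z2) at the level `L * q` on the nose.  `N₁`, `Q` : `L = N₁ ∏ Q` with `s59u_ker L (∏ Q) ≤ H` (the level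
structure of `H`); `H'` = the full preimage of `H` (`hH'`). -/
theorem s59f_NEW_level_aux [IsLocalRing (s59e_adj 𝒪 aM)]
    (p : ℕ) [hpP : Fact p.Prime] (hp2 : p ≠ 2) (hqp : q ≠ p)
    (N₁ : ℕ) [NeZero N₁] (Q : Finset ℕ) (hQ : ∀ q' ∈ Q, q'.Prime ∧ ¬ q' ∣ N₁ * q)
    (hL : L = N₁ * ∏ q' ∈ Q, q') (hD₁ : (∏ q' ∈ Q, q') ∣ L)
    (hHker : s59u_ker L (∏ q' ∈ Q, q') hD₁ ≤ H)
    {e m : ℕ} (hnm : 2 * m = p ^ e + 1) (hn : ∀ u : (ZMod (L * q))ˣ, u ^ (p ^ e) ∈ H')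
    (hk : k = (p ^ e - 1) * m)
    [Algebra ℤ_[p] 𝒪]
    (hp𝒪 : ((p : ℕ) : 𝒪) ∈ maximalIdeal 𝒪)
    (S : Finset ℕ) (hpS : p ∈ S) (hMS : ∀ r : ℕ, r.Prime → r ∣ L * q → r ∈ S)
    {ρbar : ResidualGaloisRep (ResidueField 𝒪)}
    {𝒟 : ∀ ⦃A : Type⦄ [CommRing A] [IsLocalRing A] [Algebra 𝒪 A], GaloisRepAdic A → Prop}
    (DQ : GaloisRep.DeformationRingData 𝒪 ρbar 𝒟)
    (θ : DQ.R →ₐ[𝒪] s59e_adj 𝒪 aM) (hθ : Function.Surjective θ)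
    (tT' : ℕ → s59e_adj 𝒪 aM)
    (htT' : ∀ i : s59w_TIdx (L * q), i.ell ∉ S → ∀ z : s59t_part ε'',
      (s59t_part ε'').subtype (((tT' i.ell : s59e_adj 𝒪 aM) : Module.End 𝒪 (s59t_part ε'')) z) =
        s59e_Tp' H' 𝒪 k i ((s59t_part ε'').subtype z))
    (hfrobT : ∀ ℓ : ℕ, ℓ.Prime → ℓ ∉ S →
      ∀ A : ValuationSubring (AlgebraicClosure ℚ), A.LiesOverPrime ℓ →
      ∀ τ : GQ, A.IsFrobeniusAt τ ℓ →
        (LinearMap.charpoly (DQ.ρ.ρ τ)).map (θ : DQ.R →+* s59e_adj 𝒪 aM) =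
          Polynomial.X ^ 2 - Polynomial.C (tT' ℓ) * Polynomial.X +
            Polynomial.C ((ℓ : s59e_adj 𝒪 aM)))
    -- the package
    (e₀ : SL(2, ℤ)) (he' : e₀ ∈ Gamma0 (L * q))
    (hee : s59f_gW hqL * e₀ * e₀ ∈ s48h_GammaH (L * q) H')
    (ε' : Module.End 𝒪 (s48h_Hpar 𝒪 (s48h_GammaH L H) 𝒪))
    (hc : (s59f_oldN hqL rfl hG' 𝒪 𝒪 e₀ he' hee).Compat ε' ε'')
    -- the Frobenius
    (A₀ : ValuationSubring Qbar) (hA₀ : A₀.LiesOverPrime q) (σq : GQ)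
    (hσq : A₀.IsFrobeniusAt σq q) :
    ∀ z : s59t_part ε'',
      ((s59f_oldN hqL rfl hG' 𝒪 𝒪 e₀ he' hee).restrict hc).corA z = 0 →
      ((s59f_oldN hqL rfl hG' 𝒪 𝒪 e₀ he' hee).restrict hc).corB z = 0 →
      ((θ (s59i_cpTr DQ.ρ σq) : s59e_adj 𝒪 aM) : Module.End 𝒪 (s59t_part ε''))
          (((θ (s59i_cpTr DQ.ρ σq) : s59e_adj 𝒪 aM) : Module.End 𝒪 (s59t_part ε'')) z) =
        (((q : 𝒪) + 1) ^ 2) • z := by
  haveI : NeZero q := ⟨hq.out.ne_zero⟩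
  haveI : Module.Finite 𝒪 (s48h_Hpar 𝒪 (s48h_GammaH (L * q) H') 𝒪) := s59t_Hpar_finite 𝒪
  haveI : Module.Finite 𝒪 (s59t_part ε'') := s59t_part_finite ε''
  -- the kernel-new submodule
  obtain ⟨Zs, hZs_def⟩ : ∃ Zs : Submodule 𝒪 (s59t_part ε''), Zs =
    LinearMap.ker ((s59f_oldN hqL rfl hG' 𝒪 𝒪 e₀ he' hee).restrict hc).corA ⊓
      LinearMap.ker ((s59f_oldN hqL rfl hG' 𝒪 𝒪 e₀ he' hee).restrict hc).corB := ⟨_, rfl⟩
  have hcomp : ∀ x : s59w_AIdx (L * q),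
      (s59f_oldN hqL rfl hG' 𝒪 𝒪 e₀ he' hee).Compat (s59w_op H 𝒪 (s59t_AIdx_down hLN x)) (s59w_op H' 𝒪 x) := by
    intro x
    have := s59f_oldN_compat_wop hqL rfl hG' e₀ he' hee hLN (dvd_refl (L * q)) (R := 𝒪) x
    rwa [s59t_AIdx_down_self] at this
  have hZs : ∀ jdx, ∀ y ∈ Zs, s59m_opPart H' ε'' hεop jdx y ∈ Zs := by
    intro jdx y hy
    rw [hZs_def, Submodule.mem_inf, LinearMap.mem_ker, LinearMap.mem_ker] at hy ⊢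
    constructor
    · refine Subtype.ext ?_
      show (s59f_oldN hqL rfl hG' 𝒪 𝒪 e₀ he' hee).corA (s59w_op H' 𝒪 jdx (y : s48h_Hpar 𝒪 (s48h_GammaH (L * q) H') 𝒪)) = 0
      rw [← (hcomp jdx).corA]
      have h1 : (s59f_oldN hqL rfl hG' 𝒪 𝒪 e₀ he' hee).corA (y : s48h_Hpar 𝒪 (s48h_GammaH (L * q) H') 𝒪) = 0 :=
        congrArg Subtype.val hy.1
      rw [h1, map_zero]
    · refine Subtype.ext ?_
      show (s59f_oldN hqL rfl hG' 𝒪 𝒪 e₀ he' hee).corB (s59w_op H' 𝒪 jdx (y : s48h_Hpar 𝒪 (s48h_GammaH (L * q) H') 𝒪)) = 0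
      rw [← (hcomp jdx).corB]
      have h1 : (s59f_oldN hqL rfl hG' 𝒪 𝒪 e₀ he' hee).corB (y : s48h_Hpar 𝒪 (s48h_GammaH (L * q) H') 𝒪) = 0 :=
        congrArg Subtype.val hy.2
      rw [h1, map_zero]
  have he₀L : e₀ ∈ Gamma0 L := (s59f_Gamma0_of_mul he').1
  have hnewA : ∀ z ∈ Zs, s59f_corH hqL (s59f_isG_GammaH L H)
      (s59f_isG'_GammaH hqL rfl (dvd_mul_right L q) hH') 𝒪
      (((s59t_part ε'').subtype z : s48h_Hpar 𝒪 (s48h_GammaH (L * q) H') 𝒪) :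
        Additive (s48h_GammaH (L * q) H') →+ 𝒪) = 0 := by
    intro z hz
    rw [hZs_def, Submodule.mem_inf, LinearMap.mem_ker, LinearMap.mem_ker] at hz
    have h1 : (s59f_oldN hqL rfl hG' 𝒪 𝒪 e₀ he' hee).corA (z : s48h_Hpar 𝒪 (s48h_GammaH (L * q) H') 𝒪) = 0 :=
      congrArg Subtype.val hz.1
    exact congrArg Subtype.val h1
  have hnewB : ∀ z ∈ Zs, s59f_corH hqL (s59f_isG_GammaH L H)
      (s59f_isG'_GammaH hqL rfl (dvd_mul_right L q) hH') 𝒪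
      (s59f_wH hqL (s59f_isG'_GammaH hqL rfl (dvd_mul_right L q) hH') 𝒪
        (((s59t_part ε'').subtype z : s48h_Hpar 𝒪 (s48h_GammaH (L * q) H') 𝒪) :
          Additive (s48h_GammaH (L * q) H') →+ 𝒪)) = 0 := by
    intro z hz
    rw [hZs_def, Submodule.mem_inf, LinearMap.mem_ker, LinearMap.mem_ker] at hz
    have h1 : (s59f_oldN hqL rfl hG' 𝒪 𝒪 e₀ he' hee).corB (z : s48h_Hpar 𝒪 (s48h_GammaH (L * q) H') 𝒪) = 0 :=
      congrArg Subtype.val hz.2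
    have h2 : s59f_corH hqL (s59f_isG_GammaH L H) hG' 𝒪
        (s48h_diamondH H' e₀ he' 𝒪 (s59f_wH hqL hG' 𝒪
          ((z : s48h_Hpar 𝒪 (s48h_GammaH (L * q) H') 𝒪) :
            Additive (s48h_GammaH (L * q) H') →+ 𝒪))) = 0 := congrArg Subtype.val h1
    rw [s59f_corH_diamond hqL rfl hG' he' he₀L] at h2
    exact s59f_diamondH_injective H he₀L (h2.trans (map_zero _).symm)
  have key := s59f_NEW_TPkg p N₁ q Q H' (s59t_part ε'').subtype Subtype.val_injective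
    (s59m_opPart H' ε'' hεop) (fun _ _ => rfl) a k ha aM haM hp2 hqp hQ hL hqL H hD₁ hHker hH' hnm
    hn hk hp𝒪 S hpS hMS Zs hZs hnewA hnewB DQ θ hθ tT' htT' hfrobT A₀ hA₀ σq hσq
  intro z hzA hzB
  have hz : z ∈ Zs := by
    rw [hZs_def, Submodule.mem_inf, LinearMap.mem_ker, LinearMap.mem_ker]
    exact ⟨hzA, hzB⟩
  exact key z hz

end NewLevelAux

section NewLevel

variable {L q N' : ℕ} [NeZero L] [NeZero N'] [hq : Fact q.Prime] (hqL : ¬ q ∣ L)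
  (hN' : N' = L * q) (H : Subgroup (ZMod L)ˣ) (H' : Subgroup (ZMod N')ˣ)
  (hLN : L ∣ N') (hH' : ∀ u : (ZMod N')ˣ, u ∈ H' ↔ ZMod.unitsMap hLN u ∈ H)
  (hG' : s59f_IsG' L q H (s48h_GammaH N' H'))
  {𝒪 : Type} [CommRing 𝒪] [IsDomain 𝒪] [IsDiscreteValuationRing 𝒪]
  [IsAdicComplete (maximalIdeal 𝒪) 𝒪] [Finite (ResidueField 𝒪)] [CharZero 𝒪]
  (ε'' : Module.End 𝒪 (s48h_Hpar 𝒪 (s48h_GammaH N' H') 𝒪))
  (hεop : ∀ x y, ε'' (s59w_op H' 𝒪 x y) = s59w_op H' 𝒪 x (ε'' y))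

variable {A : Type} [CommRing A]
  (a : A →+* Module.End 𝒪 (s48h_Hpar 𝒪 (s48h_GammaH N' H') 𝒪)) (k : ℕ)
  (ha : ∀ t, a t ∈ Subring.closure (Set.range (s59e_Tp' H' 𝒪 k)))
  (aM : A →+* Module.End 𝒪 (s59t_part ε''))
  (haM : ∀ t (z : s59t_part ε''),
    (s59t_part ε'').subtype (aM t z) = a t ((s59t_part ε'').subtype z))

include hH' hεop ha haM in
/-- **(Z2) [NEW-level]**: see the header.  `N₁`, `Q` : `L = N₁ ∏ Q` with `s59u_ker L (∏ Q) ≤ H` (the level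
structure of `H`); `H'` = the full preimage of `H` (`hH'`). -/
theorem s59f_NEW_level [IsLocalRing (s59e_adj 𝒪 aM)]
    (p : ℕ) [hpP : Fact p.Prime] (hp2 : p ≠ 2) (hqp : q ≠ p)
    (N₁ : ℕ) [NeZero N₁] (Q : Finset ℕ) (hQ : ∀ q' ∈ Q, q'.Prime ∧ ¬ q' ∣ N₁ * q)
    (hL : L = N₁ * ∏ q' ∈ Q, q') (hD₁ : (∏ q' ∈ Q, q') ∣ L)
    (hHker : s59u_ker L (∏ q' ∈ Q, q') hD₁ ≤ H)
    {e m : ℕ} (hnm : 2 * m = p ^ e + 1) (hn : ∀ u : (ZMod N')ˣ, u ^ (p ^ e) ∈ H')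
    (hk : k = (p ^ e - 1) * m)
    [Algebra ℤ_[p] 𝒪]
    (hp𝒪 : ((p : ℕ) : 𝒪) ∈ maximalIdeal 𝒪)
    (S : Finset ℕ) (hpS : p ∈ S) (hMS : ∀ r : ℕ, r.Prime → r ∣ N' → r ∈ S)
    {ρbar : ResidualGaloisRep (ResidueField 𝒪)}
    {𝒟 : ∀ ⦃A : Type⦄ [CommRing A] [IsLocalRing A] [Algebra 𝒪 A], GaloisRepAdic A → Prop}
    (DQ : GaloisRep.DeformationRingData 𝒪 ρbar 𝒟)
    (θ : DQ.R →ₐ[𝒪] s59e_adj 𝒪 aM) (hθ : Function.Surjective θ)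
    (tT' : ℕ → s59e_adj 𝒪 aM)
    (htT' : ∀ i : s59w_TIdx N', i.ell ∉ S → ∀ z : s59t_part ε'',
      (s59t_part ε'').subtype (((tT' i.ell : s59e_adj 𝒪 aM) : Module.End 𝒪 (s59t_part ε'')) z) =
        s59e_Tp' H' 𝒪 k i ((s59t_part ε'').subtype z))
    (hfrobT : ∀ ℓ : ℕ, ℓ.Prime → ℓ ∉ S →
      ∀ A : ValuationSubring (AlgebraicClosure ℚ), A.LiesOverPrime ℓ →
      ∀ τ : GQ, A.IsFrobeniusAt τ ℓ →
        (LinearMap.charpoly (DQ.ρ.ρ τ)).map (θ : DQ.R →+* s59e_adj 𝒪 aM) =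
          Polynomial.X ^ 2 - Polynomial.C (tT' ℓ) * Polynomial.X +
            Polynomial.C ((ℓ : s59e_adj 𝒪 aM)))
    -- the package
    (e₀ : SL(2, ℤ)) (he' : e₀ ∈ Gamma0 N')
    (hee : s59f_gW hqL * e₀ * e₀ ∈ s48h_GammaH N' H')
    (ε' : Module.End 𝒪 (s48h_Hpar 𝒪 (s48h_GammaH L H) 𝒪))
    (hc : (s59f_oldN hqL hN' hG' 𝒪 𝒪 e₀ he' hee).Compat ε' ε'')
    -- the Frobenius
    (A₀ : ValuationSubring Qbar) (hA₀ : A₀.LiesOverPrime q) (σq : GQ)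
    (hσq : A₀.IsFrobeniusAt σq q) :
    ∀ z : s59t_part ε'',
      ((s59f_oldN hqL hN' hG' 𝒪 𝒪 e₀ he' hee).restrict hc).corA z = 0 →
      ((s59f_oldN hqL hN' hG' 𝒪 𝒪 e₀ he' hee).restrict hc).corB z = 0 →
      ((θ (s59i_cpTr DQ.ρ σq) : s59e_adj 𝒪 aM) : Module.End 𝒪 (s59t_part ε''))
          (((θ (s59i_cpTr DQ.ρ σq) : s59e_adj 𝒪 aM) : Module.End 𝒪 (s59t_part ε'')) z) =
        (((q : 𝒪) + 1) ^ 2) • z := by
  subst hN'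
  exact s59f_NEW_level_aux hqL H H' hLN hH' hG' ε'' hεop a k ha aM haM p hp2 hqp N₁ Q hQ hL hD₁ hHker
    hnm hn hk hp𝒪 S hpS hMS DQ θ hθ tT' htT' hfrobT e₀ he' hee ε' hc A₀ hA₀ σq hσq

end NewLevel

end Fermat.Agent.Lib.S59
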