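/-
S59 project, case (P), item [P8] (helper9, prefix `s59m_`): **THE NEW SUBMODULE `Z' ≤ H` AND THE TRANSPORT OF THE HECKE DATA.**

* `s59m_newSub D ε'` : for an old/new package `D : s59t_Old R Y Z` and an endomorphism `ε'` of `Z`, the submodule
  `range ε' ⊓ ker cor_A ⊓ ker cor_B` of `Z`; it is stable under every operator compatible with the package and commuting with `ε'`
  (`s59m_newSub_stable`), saturated when `Y`, `Z` are torsion-free and `ε'` is idempotent (`s59m_newSub_sat`), and it is the image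
  of `s59t_part P'` for any `P'` with `part P' = ker (cor_A, cor_B)` on `part ε'` (`s59m_newSub_eq_map`, `s59m_newEquiv`).
* `s59m_isLocScalar_conj` : local scalarity is invariant under conjugation by a linear equivalence.
* `s59m_adj_equiv` : for `e : Z₁ ≃ Z₂` intertwining `a₁ : A → End Z₁`, `a₂ : A → End Z₂`, the algebra isomorphism
  `𝒪[a₂(A)] ≃ 𝒪[a₁(A)]`, compatible with `s59e_adjHom` and with the actions.
* `s59m_out_transport` : transport of the output of (H3) (`hloc`, `θ`, `hfrobT`, `hcong`) from `a₂` to `a₁`.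
-/
import Mathlib
import Fermat.Agent.Lib.S59.TNew
import Fermat.Agent.Lib.S59.EHLoc
import Fermat.Agent.Lib.S59.ETBaseD

set_option autoImplicit false
set_option linter.unusedSectionVars false
set_option linter.unusedVariables false
set_option linter.style.haveILetI false
set_option maxHeartbeats 1600000

open IsLocalRing CuspForm

noncomputable section

namespace Fermat.Agent.Lib.S59

/-! ### The new submodule -/

section NewSub

variable {R : Type*} [CommRing R] {Y Z : Type*} [AddCommGroup Y] [Module R Y]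
  [AddCommGroup Z] [Module R Z] (D : s59t_Old R Y Z) (ε' : Module.End R Z)

/-- the new submodule of the `ε'`-part: `range ε' ⊓ ker cor_A ⊓ ker cor_B`. -/
def s59m_newSub : Submodule R Z :=
  LinearMap.range ε' ⊓ LinearMap.ker D.corA ⊓ LinearMap.ker D.corB

theorem s59m_mem_newSub (z : Z) :
    z ∈ s59m_newSub D ε' ↔ z ∈ LinearMap.range ε' ∧ D.corA z = 0 ∧ D.corB z = 0 := by
  unfold s59m_newSub
  rw [Submodule.mem_inf, Submodule.mem_inf, LinearMap.mem_ker, LinearMap.mem_ker, and_assoc]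

theorem s59m_newSub_fixed (hε' : ε' * ε' = ε') {z : Z} (hz : z ∈ s59m_newSub D ε') : ε' z = z :=
  (s59t_mem_part hε' z).mp ((s59m_mem_newSub D ε' z).mp hz).1

/-- stability under the operators compatible with the package. -/
theorem s59m_newSub_stable {X : Module.End R Y} {X' : Module.End R Z} (hX : D.Compat X X')
    (hεX' : ∀ z, ε' (X' z) = X' (ε' z)) {z : Z} (hz : z ∈ s59m_newSub D ε') :
    X' z ∈ s59m_newSub D ε' := by
  rw [s59m_mem_newSub] at hz ⊢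
  obtain ⟨⟨w, rfl⟩, hA, hB⟩ := hz
  refine ⟨⟨X' w, hεX' w⟩, ?_, ?_⟩
  · rw [← hX.corA, hA, map_zero]
  · rw [← hX.corB, hB, map_zero]

/-- saturation. -/
theorem s59m_newSub_sat (htfY : ∀ (c : R) (y : Y), c ≠ 0 → c • y = 0 → y = 0)
    (htfZ : ∀ (c : R) (z : Z), c ≠ 0 → c • z = 0 → z = 0) (hε' : ε' * ε' = ε')
    (c : R) (z : Z) (hc : c ≠ 0) (hz : c • z ∈ s59m_newSub D ε') : z ∈ s59m_newSub D ε' := by
  rw [s59m_mem_newSub] at hz ⊢
  obtain ⟨h1, hA, hB⟩ := hz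
  rw [map_smul] at hA hB
  refine ⟨(s59t_mem_part hε' z).mpr ?_, htfY c _ hc hA, htfY c _ hc hB⟩
  have h2 := (s59t_mem_part hε' _).mp h1
  rw [map_smul, ← sub_eq_zero, ← smul_sub] at h2
  exact sub_eq_zero.mp (htfZ c _ hc h2)

variable {D ε'} {ε : Module.End R Y} (h : D.Compat ε ε')
  {P' : Module.End R (s59t_part ε')}
  (hmem' : ∀ x, x ∈ s59t_part P' ↔ (D.restrict h).corA x = 0 ∧ (D.restrict h).corB x = 0)

include hmem' in
/-- the new submodule is the image of `s59t_part P'`. -/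
theorem s59m_newSub_eq_map :
    s59m_newSub D ε' = (s59t_part P').map (s59t_part ε').subtype := by
  ext z
  rw [s59m_mem_newSub, Submodule.mem_map]
  constructor
  · rintro ⟨hz, hA, hB⟩
    refine ⟨⟨z, hz⟩, (hmem' _).mpr ⟨Subtype.ext hA, Subtype.ext hB⟩, rfl⟩
  · rintro ⟨x, hx, rfl⟩
    obtain ⟨hA, hB⟩ := (hmem' x).mp hx
    exact ⟨x.2, congrArg Subtype.val hA, congrArg Subtype.val hB⟩

/-- the embedding `part P' → Z`. -/
def s59m_newEmb (P' : Module.End R (s59t_part ε')) : s59t_part P' →ₗ[R] Z :=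
  (s59t_part ε').subtype ∘ₗ (s59t_part P').subtype

theorem s59m_newEmb_apply (x : s59t_part P') :
    s59m_newEmb P' x = ((x : s59t_part ε') : Z) := rfl

theorem s59m_newEmb_injective : Function.Injective (s59m_newEmb P') := fun x y hxy =>
  Subtype.ext (Subtype.ext hxy)

include hmem' in
theorem s59m_newEmb_mem (x : s59t_part P') : s59m_newEmb P' x ∈ s59m_newSub D ε' := by
  rw [s59m_newSub_eq_map h hmem']
  exact ⟨x, x.2, rfl⟩

/-- **the linear equivalence `part P' ≃ newSub`.** -/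
def s59m_newEquiv : s59t_part P' ≃ₗ[R] s59m_newSub D ε' :=
  LinearEquiv.ofBijective
    ((s59m_newEmb P').codRestrict (s59m_newSub D ε') (s59m_newEmb_mem h hmem'))
    ⟨fun x y hxy => s59m_newEmb_injective (P' := P')
      (congrArg (fun w : s59m_newSub D ε' => (w : Z)) hxy), by
      rintro ⟨z, hz⟩
      rw [s59m_newSub_eq_map h hmem'] at hz
      obtain ⟨x, hx, rfl⟩ := hz
      exact ⟨⟨x, hx⟩, Subtype.ext rfl⟩⟩

theorem s59m_newEquiv_coe (x : s59t_part P') :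
    ((s59m_newEquiv h hmem' x : s59m_newSub D ε') : Z) = ((x : s59t_part ε') : Z) := rfl

end NewSub

/-! ### Conjugation by a linear equivalence -/

section Conj

variable {𝒪 : Type*} [CommRing 𝒪] [IsLocalRing 𝒪]
  {Z₁ Z₂ : Type*} [AddCommGroup Z₁] [Module 𝒪 Z₁] [AddCommGroup Z₂] [Module 𝒪 Z₂]

/-- local scalarity is invariant under a linear equivalence. -/
theorem s59m_isLocScalar_conj (e : Z₁ ≃ₗ[𝒪] Z₂) (x₁ : Module.End 𝒪 Z₁) (x₂ : Module.End 𝒪 Z₂)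
    (h : ∀ z, e (x₁ z) = x₂ (e z)) (c : 𝒪) (h₂ : s59e_IsLocScalar x₂ c) :
    s59e_IsLocScalar x₁ c := by
  obtain ⟨n, hn⟩ := h₂
  refine ⟨n, ?_⟩
  rw [← map_pow, s59e_red_apply] at hn ⊢
  have hpow : ∀ m : ℕ, e.toLinearMap ∘ₗ ((x₁ - c • 1) ^ m) = ((x₂ - c • 1) ^ m) ∘ₗ e.toLinearMap := by
    intro m
    induction m with
    | zero => rfl
    | succ m ih =>
      rw [pow_succ, pow_succ, Module.End.mul_eq_comp, Module.End.mul_eq_comp, ← LinearMap.comp_assoc, ih,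
        LinearMap.comp_assoc, LinearMap.comp_assoc]
      congr 1
      refine LinearMap.ext fun z => ?_
      simp only [LinearMap.comp_apply, LinearEquiv.coe_coe, LinearMap.sub_apply, LinearMap.smul_apply,
        Module.End.one_apply, map_sub, map_smul, h]
  have h1 : ((x₁ - c • 1) ^ n) = e.symm.toLinearMap ∘ₗ ((x₂ - c • 1) ^ n) ∘ₗ e.toLinearMap := by
    rw [← hpow n, ← LinearMap.comp_assoc]
    refine LinearMap.ext fun z => ?_
    simp
  rw [h1, LinearMap.baseChange_comp, LinearMap.baseChange_comp, hn, LinearMap.zero_comp,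
    LinearMap.comp_zero]

variable {A : Type*} [CommRing A]

/-- **the algebra isomorphism `𝒪[a₂(A)] ≃ 𝒪[a₁(A)]`** induced by a linear equivalence intertwining `a₁` and `a₂`. -/
theorem s59m_adj_equiv (e : Z₁ ≃ₗ[𝒪] Z₂) (a₁ : A →+* Module.End 𝒪 Z₁) (a₂ : A →+* Module.End 𝒪 Z₂)
    (h : ∀ t z, e (a₁ t z) = a₂ t (e z)) :
    ∃ E : s59e_adj 𝒪 a₂ ≃ₐ[𝒪] s59e_adj 𝒪 a₁,
      (∀ t, E (s59e_adjHom 𝒪 a₂ t) = s59e_adjHom 𝒪 a₁ t) ∧
      ∀ (x : s59e_adj 𝒪 a₂) (z : Z₁),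
        e (((E x : s59e_adj 𝒪 a₁) : Module.End 𝒪 Z₁) z) = (x : Module.End 𝒪 Z₂) (e z) := by
  set Φ : Module.End 𝒪 Z₂ ≃ₐ[𝒪] Module.End 𝒪 Z₁ := e.symm.conjAlgEquiv 𝒪 with hΦ
  have hΦa : ∀ t, Φ (a₂ t) = a₁ t := by
    intro t
    refine LinearMap.ext fun z => ?_
    rw [hΦ, LinearEquiv.conjAlgEquiv_apply]
    simp only [LinearMap.comp_apply, LinearEquiv.coe_coe, LinearEquiv.symm_symm]
    rw [← h, LinearEquiv.symm_apply_apply]
  have hmap : (s59e_adj 𝒪 a₂).map (Φ : Module.End 𝒪 Z₂ →ₐ[𝒪] Module.End 𝒪 Z₁) = s59e_adj 𝒪 a₁ := by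
    unfold s59e_adj
    rw [AlgHom.map_adjoin]
    congr 1
    ext y
    constructor
    · rintro ⟨_, ⟨t, rfl⟩, rfl⟩
      exact ⟨t, (hΦa t).symm⟩
    · rintro ⟨t, rfl⟩
      exact ⟨a₂ t, ⟨t, rfl⟩, hΦa t⟩
  refine ⟨(Φ.subalgebraMap (s59e_adj 𝒪 a₂)).trans (Subalgebra.equivOfEq _ _ hmap), ?_, ?_⟩
  · intro t
    exact Subtype.ext (hΦa t)
  · intro x z
    show e (Φ (x : Module.End 𝒪 Z₂) z) = _
    rw [hΦ, LinearEquiv.conjAlgEquiv_apply]
    simp

/-- transport of the local scalarity of `𝒪[a₂(A)]` to `𝒪[a₁(A)]`. -/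
theorem s59m_hloc_transport (e : Z₁ ≃ₗ[𝒪] Z₂) (a₁ : A →+* Module.End 𝒪 Z₁)
    (a₂ : A →+* Module.End 𝒪 Z₂)
    (E : s59e_adj 𝒪 a₂ ≃ₐ[𝒪] s59e_adj 𝒪 a₁)
    (hE : ∀ (x : s59e_adj 𝒪 a₂) (z : Z₁),
      e (((E x : s59e_adj 𝒪 a₁) : Module.End 𝒪 Z₁) z) = (x : Module.End 𝒪 Z₂) (e z))
    (hloc₂ : ∀ x ∈ s59e_adj 𝒪 a₂, ∃ d : 𝒪, s59e_IsLocScalar x d) :
    ∀ x ∈ s59e_adj 𝒪 a₁, ∃ d : 𝒪, s59e_IsLocScalar x d := by
  intro x hx
  obtain ⟨d, hd⟩ := hloc₂ (E.symm ⟨x, hx⟩ : s59e_adj 𝒪 a₂) (E.symm ⟨x, hx⟩).2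
  refine ⟨d, s59m_isLocScalar_conj e x _ (fun z => ?_) d hd⟩
  have := hE (E.symm ⟨x, hx⟩) z
  rwa [AlgEquiv.apply_symm_apply] at this

end Conj

section TOfTransport

variable {𝒪 : Type*} [CommRing 𝒪] {E₁ E₂ : Type*} [Ring E₁] [Algebra 𝒪 E₁] [Ring E₂] [Algebra 𝒪 E₂]
  {M₁ : ℕ} [NeZero M₁] (S : Set ℕ)
  (a₁ : heckeAlgebra M₁ 2 S →+* E₁) (a₂ : heckeAlgebra M₁ 2 S →+* E₂)

/-- an algebra isomorphism compatible with `s59e_adjHom` maps `s59e_tOf` to `s59e_tOf`. -/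
theorem s59m_equiv_tOf (E : s59e_adj 𝒪 a₂ ≃ₐ[𝒪] s59e_adj 𝒪 a₁)
    (hE : ∀ t, E (s59e_adjHom 𝒪 a₂ t) = s59e_adjHom 𝒪 a₁ t) (ℓ : ℕ) :
    E (s59e_tOf S a₂ ℓ) = s59e_tOf S a₁ ℓ := by
  classical
  by_cases hc : ℓ.Prime ∧ ¬ ℓ ∣ M₁ ∧ ℓ ∉ S
  · rw [s59e_tOf_eq S a₂ hc.1 hc.2.1 hc.2.2, s59e_tOf_eq S a₁ hc.1 hc.2.1 hc.2.2, hE]
  · unfold s59e_tOf
    rw [dif_neg hc, dif_neg hc, map_zero]

end TOfTransport

end Fermat.Agent.Lib.S59
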