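/-
S59 project, case (P), item [P8-top] (helper9, prefix `s59m_`), file 2: **TRANSPORT OF THE OUTPUT OF THE `p`-NEW (H3) FROM A SUBMODULE
`Z' ≤ Y` TO A TYPE `X ≃ Z'`** (in the application `X = s59t_part P'`, `Z' = s59m_newSub D ε'`, the equivalence is `s59m_newEquiv`).

Input = the `s59q_H3Out`-shaped output on `Z'` (`aZ`, `hloc`, `hTloc`, `θ : DQ.R ↠ 𝒪[aZ]`, `hfrobT` in helper6's `s59q_tT` dialect);
output = the `s59e_B2Concl`-shaped data on `X` (`aX`, `hlocX`, `IsLocalRing`, `θ'`, `hfrobT'`, `hcong` in helper5's `s59e_tOf` dialect).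
-/
import Mathlib
import Fermat.Agent.Lib.S59.MKerZ
import Fermat.Agent.Lib.S59.MC8B2
import Fermat.Agent.Lib.S59.ETB2Conv
import Fermat.Agent.Lib.S59.FZ2b

set_option autoImplicit false
set_option linter.unusedSectionVars false
set_option linter.unusedVariables false
set_option linter.style.haveILetI false
set_option maxHeartbeats 1600000
set_option synthInstance.maxHeartbeats 400000

open IsLocalRing CuspForm CongruenceSubgroup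
open Fermat.Agent.Lib.S29 Fermat.Agent.Lib.S48 Fermat.Agent.Lib.S41
open scoped MatrixGroups

noncomputable section

namespace Fermat.Agent.Lib.S59

local notation "Γℚ" => (AlgebraicClosure ℚ ≃ₐ[ℚ] AlgebraicClosure ℚ)

section Transport

variable {𝒪 : Type} [CommRing 𝒪] [IsDomain 𝒪] [IsDiscreteValuationRing 𝒪]
  [IsAdicComplete (maximalIdeal 𝒪) 𝒪] [Finite (ResidueField 𝒪)]
  {Z : Type} [AddCommGroup Z] [Module 𝒪 Z]
  {X : Type} [AddCommGroup X] [Module 𝒪 X] [Module.Free 𝒪 X] [Module.Finite 𝒪 X] [Nontrivial X]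
  (e : X ≃ₗ[𝒪] Z)
  {Mn : ℕ} [NeZero Mn] (S : Finset ℕ) (hS : ∀ q : ℕ, q.Prime → q ∣ Mn → q ∈ S)
  (aZ : heckeAlgebra Mn 2 (↑S : Set ℕ) →+* Module.End 𝒪 Z)

/-- the conjugate action on `X`. -/
def s59m_conjAct : heckeAlgebra Mn 2 (↑S : Set ℕ) →+* Module.End 𝒪 X :=
  ((e.symm.conjAlgEquiv 𝒪 : Module.End 𝒪 Z ≃ₐ[𝒪] Module.End 𝒪 X) :
    Module.End 𝒪 Z →+* Module.End 𝒪 X).comp aZ

theorem s59m_conjAct_apply (t : heckeAlgebra Mn 2 (↑S : Set ℕ)) (x : X) :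
    e (s59m_conjAct e S aZ t x) = aZ t (e x) := by
  unfold s59m_conjAct
  rw [RingHom.comp_apply]
  show e ((e.symm.conjAlgEquiv 𝒪 (aZ t)) x) = _
  rw [LinearEquiv.conjAlgEquiv_apply]
  simp

include hS in
/-- **transport of the (H3)-output along `e : X ≃ Z`.** -/
theorem s59m_H3_transport
    (hloc : ∀ x ∈ s59e_adj 𝒪 aZ, ∃ d : 𝒪, s59e_IsLocScalar x d)
    (c : ℕ → ℤ)
    (hTloc : ∀ (ℓ : ℕ) (hℓ : ℓ.Prime) (hℓN : ¬ ℓ ∣ Mn) (hℓS : ℓ ∉ (↑S : Set ℕ)),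
      s59e_IsLocScalar (aZ (heckeAlgebra.T hℓ hℓN hℓS)) (((c ℓ : ℤ) : 𝒪)))
    {ρbar : ResidualGaloisRep (ResidueField 𝒪)}
    {𝒟 : ∀ ⦃A : Type⦄ [CommRing A] [IsLocalRing A] [Algebra 𝒪 A], GaloisRepAdic A → Prop}
    (DQ : GaloisRep.DeformationRingData 𝒪 ρbar 𝒟)
    (θ : DQ.R →ₐ[𝒪] s59e_adj 𝒪 aZ) (hθ : Function.Surjective θ)
    (hfrobT : ∀ ℓ : ℕ, ℓ.Prime → ℓ ∉ S →
      ∀ A' : ValuationSubring (AlgebraicClosure ℚ), A'.LiesOverPrime ℓ →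
      ∀ τ : Γℚ, A'.IsFrobeniusAt τ ℓ →
        (LinearMap.charpoly (DQ.ρ.ρ τ)).map (θ : DQ.R →+* s59e_adj 𝒪 aZ) =
          Polynomial.X ^ 2 - Polynomial.C (s59q_tT Mn S aZ ℓ) * Polynomial.X +
            Polynomial.C ((ℓ : s59e_adj 𝒪 aZ))) :
    (∀ x ∈ s59e_adj 𝒪 (s59m_conjAct e S aZ), ∃ d : 𝒪, s59e_IsLocScalar x d) ∧
    ∃ (_ : IsLocalRing (s59e_adj 𝒪 (s59m_conjAct e S aZ)))
      (θ' : DQ.R →ₐ[𝒪] s59e_adj 𝒪 (s59m_conjAct e S aZ)),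
      Function.Surjective θ' ∧
      (∀ ℓ : ℕ, ℓ.Prime → ℓ ∉ S →
        ∀ A' : ValuationSubring (AlgebraicClosure ℚ), A'.LiesOverPrime ℓ →
        ∀ τ : Γℚ, A'.IsFrobeniusAt τ ℓ →
          (LinearMap.charpoly (DQ.ρ.ρ τ)).map
              (θ' : DQ.R →+* s59e_adj 𝒪 (s59m_conjAct e S aZ)) =
            Polynomial.X ^ 2 -
              Polynomial.C (s59e_tOf (↑S : Set ℕ) (s59m_conjAct e S aZ) ℓ) * Polynomial.X +
              Polynomial.C ((ℓ : s59e_adj 𝒪 (s59m_conjAct e S aZ)))) ∧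
      (∀ ℓ : ℕ, ℓ.Prime → ℓ ∉ S →
        s59e_tOf (↑S : Set ℕ) (s59m_conjAct e S aZ) ℓ -
          algebraMap 𝒪 (s59e_adj 𝒪 (s59m_conjAct e S aZ)) (((c ℓ : ℤ) : 𝒪)) ∈
          maximalIdeal (s59e_adj 𝒪 (s59m_conjAct e S aZ))) := by
  classical
  set aX := s59m_conjAct e S aZ with haX
  have hconj : ∀ t x, e (aX t x) = aZ t (e x) := s59m_conjAct_apply e S aZ
  obtain ⟨E, hE1, hE2⟩ := s59m_adj_equiv e aX aZ hconj
  have hlocX := s59m_hloc_transport e aX aZ E hE2 hloc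
  haveI hlr : IsLocalRing (s59e_adj 𝒪 aX) := s59e_adj_isLocalRing aX hlocX
  haveI : IsLocalHom (algebraMap 𝒪 (s59e_adj 𝒪 aX)) := s59e_adj_isLocalHom aX hlocX
  have hTX : ∀ (ℓ : ℕ) (hℓ : ℓ.Prime) (hℓS : ℓ ∉ (↑S : Set ℕ)) (hℓN : ¬ ℓ ∣ Mn),
      s59e_IsLocScalar (aX (heckeAlgebra.T hℓ hℓN hℓS)) (((c ℓ : ℤ) : 𝒪)) :=
    fun ℓ hℓ hℓS hℓN => s59m_isLocScalar_conj e _ _ (hconj _) _ (hTloc ℓ hℓ hℓN hℓS)
  refine ⟨hlocX, hlr, (E : s59e_adj 𝒪 aZ →ₐ[𝒪] s59e_adj 𝒪 aX).comp θ, ?_, ?_, ?_⟩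
  · exact E.surjective.comp hθ
  · intro ℓ hℓ hℓS A' hA' τ hτ
    have h := hfrobT ℓ hℓ hℓS A' hA' τ hτ
    have h2 := congrArg (Polynomial.map ((E : s59e_adj 𝒪 aZ →ₐ[𝒪] s59e_adj 𝒪 aX) :
      s59e_adj 𝒪 aZ →+* s59e_adj 𝒪 aX)) h
    rw [Polynomial.map_map] at h2
    have h3 : (((E : s59e_adj 𝒪 aZ →ₐ[𝒪] s59e_adj 𝒪 aX) : s59e_adj 𝒪 aZ →+* s59e_adj 𝒪 aX).comp
        (θ : DQ.R →+* s59e_adj 𝒪 aZ)) =
        (((E : s59e_adj 𝒪 aZ →ₐ[𝒪] s59e_adj 𝒪 aX).comp θ : DQ.R →ₐ[𝒪] s59e_adj 𝒪 aX) :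
          DQ.R →+* s59e_adj 𝒪 aX) := rfl
    rw [h3] at h2
    rw [h2]
    simp only [Polynomial.map_add, Polynomial.map_sub, Polynomial.map_mul, Polynomial.map_pow,
      Polynomial.map_X, Polynomial.map_C, map_natCast]
    have h4 : ((E : s59e_adj 𝒪 aZ →ₐ[𝒪] s59e_adj 𝒪 aX) : s59e_adj 𝒪 aZ →+* s59e_adj 𝒪 aX)
        (s59q_tT Mn S aZ ℓ) = s59e_tOf (↑S : Set ℕ) aX ℓ := by
      rw [s59e_tT_eq_tOf]
      exact s59m_equiv_tOf (↑S : Set ℕ) aX aZ E hE1 ℓ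
    rw [h4, Polynomial.map_natCast]
  · intro ℓ hℓ hℓS
    exact s59m_hcong_of_B2 S hS aX c hTX ℓ hℓ hℓS

end Transport

/-! ### The new submodule of helper4's package: stability, saturation, kernel-newness -/

section ZFacts

variable {𝒪 : Type} [CommRing 𝒪] [IsDomain 𝒪]

/-- `H_par(G, 𝒪)` is torsion-free. -/
theorem s59m_Hpar_torsionfree (G : Subgroup SL(2, ℤ)) (o : 𝒪) (y : s48h_Hpar 𝒪 G 𝒪) (ho : o ≠ 0)
    (h : o • y = 0) : y = 0 := by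
  apply Subtype.ext
  have h1 : o • ((y : s48h_Hpar 𝒪 G 𝒪) : Additive G →+ 𝒪) = 0 :=
    congrArg (fun z : s48h_Hpar 𝒪 G 𝒪 => (z : Additive G →+ 𝒪)) h
  refine AddMonoidHom.ext fun g => ?_
  have h2 := DFunLike.congr_fun h1 g
  rw [AddMonoidHom.smul_apply, smul_eq_mul] at h2
  exact (mul_eq_zero.mp h2).resolve_left ho

variable {L p : ℕ} [NeZero L] [hp : Fact p.Prime] (hpL : ¬ p ∣ L) {H : Subgroup (ZMod L)ˣ}
  {N' : ℕ} [NeZero N'] (hN' : N' = L * p) {H' : Subgroup (ZMod N')ˣ}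
  (hG' : s59f_IsG' L p H (s48h_GammaH N' H'))
  (e₀ : SL(2, ℤ)) (he' : e₀ ∈ Gamma0 N') (hee : s59f_gW hpL * e₀ * e₀ ∈ s48h_GammaH N' H')
  (ε' : Module.End 𝒪 (s48h_Hpar 𝒪 (s48h_GammaH N' H') 𝒪))

/-- the new submodule is stable under the anemic generators. -/
theorem s59m_newSub_op (hεop : ∀ x y, ε' (s59w_op H' 𝒪 x y) = s59w_op H' 𝒪 x (ε' y))
    (x : s59w_AIdx N') {z : s48h_Hpar 𝒪 (s48h_GammaH N' H') 𝒪}
    (hz : z ∈ s59m_newSub (s59f_oldN hpL hN' hG' 𝒪 𝒪 e₀ he' hee) ε') :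
    s59w_op H' 𝒪 x z ∈ s59m_newSub (s59f_oldN hpL hN' hG' 𝒪 𝒪 e₀ he' hee) ε' := by
  have hLN : L ∣ N' := hN' ▸ dvd_mul_right L p
  have h := s59f_oldN_compat_wop hpL hN' hG' e₀ he' hee hLN (dvd_refl N') (R := 𝒪) x
  rw [s59t_AIdx_down_self] at h
  exact s59m_newSub_stable _ _ h (hεop x) hz

/-- the new submodule is saturated. -/
theorem s59m_newSub_sat' (hε' : ε' * ε' = ε') (c : 𝒪)
    (z : s48h_Hpar 𝒪 (s48h_GammaH N' H') 𝒪) (hc : c ≠ 0)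
    (hz : c • z ∈ s59m_newSub (s59f_oldN hpL hN' hG' 𝒪 𝒪 e₀ he' hee) ε') :
    z ∈ s59m_newSub (s59f_oldN hpL hN' hG' 𝒪 𝒪 e₀ he' hee) ε' :=
  s59m_newSub_sat _ _ (fun c y hc h => s59m_Hpar_torsionfree _ c y hc h)
    (fun c y hc h => s59m_Hpar_torsionfree _ c y hc h) hε' c z hc hz

end ZFacts

section ZNew

variable {𝒪 : Type} [CommRing 𝒪] [IsDomain 𝒪]
  {L p : ℕ} [NeZero L] [NeZero (L * p)] [hp : Fact p.Prime] (hpL : ¬ p ∣ L) {H : Subgroup (ZMod L)ˣ}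
  {H' : Subgroup (ZMod (L * p))ˣ}
  (hH' : ∀ u : (ZMod (L * p))ˣ, u ∈ H' ↔ ZMod.unitsMap (dvd_mul_right L p) u ∈ H)
  (hG' : s59f_IsG' L p H (s48h_GammaH (L * p) H'))
  (e₀ : SL(2, ℤ)) (he' : e₀ ∈ Gamma0 (L * p))
  (hee : s59f_gW hpL * e₀ * e₀ ∈ s48h_GammaH (L * p) H')
  (ε' : Module.End 𝒪 (s48h_Hpar 𝒪 (s48h_GammaH (L * p) H') 𝒪))

/-- kernel-newness (A) of the new submodule, in the form of `s59m_STRICT_abs`. -/
theorem s59m_newSub_newA {z : s48h_Hpar 𝒪 (s48h_GammaH (L * p) H') 𝒪}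
    (hz : z ∈ s59m_newSub (s59f_oldN hpL rfl hG' 𝒪 𝒪 e₀ he' hee) ε') :
    s59f_corH hpL (s59f_isG_GammaH L H) (s59f_isG'_GammaH hpL rfl (dvd_mul_right L p) hH') 𝒪
      ((z : s48h_Hpar 𝒪 (s48h_GammaH (L * p) H') 𝒪) :
        Additive (s48h_GammaH (L * p) H') →+ 𝒪) = 0 := by
  have h1 := ((s59m_mem_newSub _ _ z).mp hz).2.1
  exact congrArg Subtype.val h1

/-- kernel-newness (B) of the new submodule, in the form of `s59m_STRICT_abs`. -/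
theorem s59m_newSub_newB {z : s48h_Hpar 𝒪 (s48h_GammaH (L * p) H') 𝒪}
    (hz : z ∈ s59m_newSub (s59f_oldN hpL rfl hG' 𝒪 𝒪 e₀ he' hee) ε') :
    s59f_corH hpL (s59f_isG_GammaH L H) (s59f_isG'_GammaH hpL rfl (dvd_mul_right L p) hH') 𝒪
      (s59f_wH hpL (s59f_isG'_GammaH hpL rfl (dvd_mul_right L p) hH') 𝒪
        ((z : s48h_Hpar 𝒪 (s48h_GammaH (L * p) H') 𝒪) :
          Additive (s48h_GammaH (L * p) H') →+ 𝒪)) = 0 := by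
  have h1 := ((s59m_mem_newSub _ _ z).mp hz).2.2
  have he₀L : e₀ ∈ Gamma0 L := (s59f_Gamma0_of_mul he').1
  have h2 : s59f_corH hpL (s59f_isG_GammaH L H) hG' 𝒪
      (s48h_diamondH H' e₀ he' 𝒪 (s59f_wH hpL hG' 𝒪
        ((z : s48h_Hpar 𝒪 (s48h_GammaH (L * p) H') 𝒪) :
          Additive (s48h_GammaH (L * p) H') →+ 𝒪))) = 0 := congrArg Subtype.val h1
  rw [s59f_corH_diamond hpL rfl hG' he' he₀L] at h2
  exact s59f_diamondH_injective H he₀L (h2.trans (map_zero _).symm)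

end ZNew

end Fermat.Agent.Lib.S59
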