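/-
S59 project, case (P), item [P8-top] (helper9, prefix `s59m_`), file 3: **THE `p`-NEW (H3) ON THE KERNEL PART `s59t_part P'`.**

helper8's `s59c_H3_pnew` (CPNewH3.lean: literal level `L * p`, literal `Γ₀`-level `M' * p`, submodule `Z ≤ H_par`) for a FREE level
`N'` (`hN' : N' = L * p`) and a FREE `Γ₀`-level `Mn` (`hMn : Mn = M' * p`), with `Z := s59m_newSub D' ε'` the new submodule of helper4's
package `D' = s59f_oldN hpL hN' hG' 𝒪 𝒪 e₀ he' hee`, and the output transported to the type `s59t_part P'` (`P'` any idempotent of the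
`ε'`-part with image `ker cor_A ∩ ker cor_B`), in the `s59e_tOf` dialect of `s59e_B2Concl`:
`a₀, ha1, ha2, aX, haX, hlocX, IsLocalRing, θ, hθ, hfrobT, hcong`.

Also `s59m_part_hZop` : Hecke-stability of the kernel part in the form of helper7's `s59x_levelZ`.
-/
import Mathlib
import Fermat.Agent.Lib.S59.MKerH3
import Fermat.Agent.Lib.S59.CPNewH3

set_option autoImplicit false
set_option linter.unusedSectionVars false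
set_option linter.unusedVariables false
set_option linter.style.haveILetI false
set_option maxHeartbeats 1600000
set_option synthInstance.maxHeartbeats 400000
set_option maxSynthPendingDepth 3

open IsLocalRing CuspForm CongruenceSubgroup Polynomial
open Fermat.Agent.Lib.S29 Fermat.Agent.Lib.S48 Fermat.Agent.Lib.S41 Fermat.Agent.Lib.S18
open scoped MatrixGroups

noncomputable section

namespace Fermat.Agent.Lib.S59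

local notation "Qbar" => AlgebraicClosure ℚ
local notation "GQ" => (AlgebraicClosure ℚ ≃ₐ[ℚ] AlgebraicClosure ℚ)

section Stab

variable {𝒪 : Type} [CommRing 𝒪] [IsDomain 𝒪]
  {L p : ℕ} [NeZero L] [hp : Fact p.Prime] (hpL : ¬ p ∣ L) {H : Subgroup (ZMod L)ˣ}
  {N' : ℕ} [NeZero N'] (hN' : N' = L * p) {H' : Subgroup (ZMod N')ˣ}
  (hG' : s59f_IsG' L p H (s48h_GammaH N' H'))
  (e₀ : SL(2, ℤ)) (he' : e₀ ∈ Gamma0 N') (hee : s59f_gW hpL * e₀ * e₀ ∈ s48h_GammaH N' H')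
  {ε₁' : Module.End 𝒪 (s48h_Hpar 𝒪 (s48h_GammaH L H) 𝒪)}
  {ε' : Module.End 𝒪 (s48h_Hpar 𝒪 (s48h_GammaH N' H') 𝒪)}
  (hc' : (s59f_oldN hpL hN' hG' 𝒪 𝒪 e₀ he' hee).Compat ε₁' ε')
  {P' : Module.End 𝒪 (s59t_part ε')}
  (hmem' : ∀ x, x ∈ s59t_part P' ↔
    ((s59f_oldN hpL hN' hG' 𝒪 𝒪 e₀ he' hee).restrict hc').corA x = 0 ∧
    ((s59f_oldN hpL hN' hG' 𝒪 𝒪 e₀ he' hee).restrict hc').corB x = 0)

include hmem' in
/-- **Hecke-stability of the kernel part** (all anemic generators, diamonds included). -/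
theorem s59m_part_hZop (hεop : ∀ x y, ε' (s59w_op H' 𝒪 x y) = s59w_op H' 𝒪 x (ε' y))
    (x : s59w_AIdx N') (z : s59t_part P') :
    ∃ z' : s59t_part P', ((z' : s59t_part ε') : s48h_Hpar 𝒪 (s48h_GammaH N' H') 𝒪) =
      s59w_op H' 𝒪 x ((z : s59t_part ε') : s48h_Hpar 𝒪 (s48h_GammaH N' H') 𝒪) := by
  have h1 := s59m_newSub_op hpL hN' hG' e₀ he' hee ε' hεop x (s59m_newEmb_mem hc' hmem' z)
  refine ⟨(s59m_newEquiv hc' hmem').symm ⟨_, h1⟩, ?_⟩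
  have h2 := s59m_newEquiv_coe hc' hmem' ((s59m_newEquiv hc' hmem').symm ⟨_, h1⟩)
  rw [LinearEquiv.apply_symm_apply] at h2
  exact h2.symm

end Stab

section H3Part

variable {p : ℕ} [hp : Fact p.Prime]
  {𝒪 : Type} [CommRing 𝒪] [IsDomain 𝒪] [IsDiscreteValuationRing 𝒪]
  [IsAdicComplete (maximalIdeal 𝒪) 𝒪] [Finite (ResidueField 𝒪)] [CharZero 𝒪] [Algebra ℤ_[p] 𝒪]
  {N : ℕ} {B Bd : Finset ℕ} {ρbar : ResidualGaloisRep (ResidueField 𝒪)}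
  (Rd : s59i_RData p N ρbar B Bd) (a : ℕ → ℤ)

/-- **the `p`-new (H3) on the kernel part `s59t_part P'`**, free levels. -/
theorem s59m_H3_pnew_part (hp2 : p ≠ 2) (hp𝒪 : (p : 𝒪) ∈ maximalIdeal 𝒪)
    (hord : (GaloisRepAdic.ofResidualGaloisRep ρbar).IsOrdinaryAt p)
    -- the level `Γ_{H'}(N')`, `N' = L p`
    (N₁ : ℕ) [NeZero N₁] (Q : Finset ℕ) (hQ : ∀ q ∈ Q, q.Prime ∧ ¬ q ∣ N₁ * p)
    {L : ℕ} [NeZero L] (hL : L = N₁ * ∏ q ∈ Q, q) (hpL : ¬ p ∣ L)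
    (H : Subgroup (ZMod L)ˣ) (hD₁ : (∏ q ∈ Q, q) ∣ L)
    (hHker : s59u_ker L (∏ q ∈ Q, q) hD₁ ≤ H)
    {N' : ℕ} [NeZero N'] (hN' : N' = L * p) (hLN' : L ∣ N') (H' : Subgroup (ZMod N')ˣ)
    (hH' : ∀ u : (ZMod N')ˣ, u ∈ H' ↔ ZMod.unitsMap hLN' u ∈ H)
    (hG' : s59f_IsG' L p H (s48h_GammaH N' H'))
    (e : ℕ) (hn : ∀ u : (ZMod N')ˣ, u ^ (p ^ e) ∈ H')
    -- the `Γ₀`-level `Mn = M' p`
    (M' : ℕ) [NeZero M'] (Mn : ℕ) [NeZero Mn] [Fact (HasIntegralStructure Mn 2)]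
    (hMn : Mn = M' * p)
    (hM' : M' = N₁ * (∏ q ∈ Q, q) * ∏ q ∈ Q, q) (hgood : s18_GoodLevel p M')
    (S : Finset ℕ) (hpS : p ∈ S) (hBS : B ⊆ S)
    (hS : ∀ q : ℕ, q.Prime → q ∣ Mn → q ∈ S)
    (hN₀ : Squarefree (N₁ * p)) (hN₀N : N₁ * p ∣ N)
    (Xs : Finset ℕ) (hX : ∀ q ∈ Xs, q.Prime ∧ q ∉ B) (hQX : ∀ q ∈ Q, q ∈ Bd ∨ q ∈ Xs)
    -- the idempotent
    (ε' : Module.End 𝒪 (s48h_Hpar 𝒪 (s48h_GammaH N' H') 𝒪)) (hε : ε' * ε' = ε')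
    (hεc : ∀ x, ε' * s59w_op H' 𝒪 x = s59w_op H' 𝒪 x * ε')
    (hnil : ∀ x ∈ s59t_goodB N' B, ∃ k : ℕ,
      ∀ y : s48h_Hpar 𝒪 (s48h_GammaH N' H') 𝒪,
      ((s59w_op H' 𝒪 x - s59t_cB (𝒪 := 𝒪) N' a x •
        (1 : Module.End 𝒪 (s48h_Hpar 𝒪 (s48h_GammaH N' H') 𝒪))) ^ k) (ε' y) ∈
        (maximalIdeal 𝒪 • ⊤ : Submodule 𝒪 (s48h_Hpar 𝒪 (s48h_GammaH N' H') 𝒪)))
    (hEig : ∀ ℓ : ℕ, ℓ.Prime → ℓ ∉ S → ∀ A : ValuationSubring Qbar, A.LiesOverPrime ℓ →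
      ∀ σ : GQ, A.IsFrobeniusAt σ ℓ →
        LinearMap.charpoly (ρbar.ρ σ) = X ^ 2 - C (residue 𝒪 ((a ℓ : ℤ) : 𝒪)) * X +
          C ((ℓ : ResidueField 𝒪)))
    -- the package and the kernel part
    (e₀ : SL(2, ℤ)) (he' : e₀ ∈ Gamma0 N') (hee : s59f_gW hpL * e₀ * e₀ ∈ s48h_GammaH N' H')
    {ε₁' : Module.End 𝒪 (s48h_Hpar 𝒪 (s48h_GammaH L H) 𝒪)}
    (hc' : (s59f_oldN hpL hN' hG' 𝒪 𝒪 e₀ he' hee).Compat ε₁' ε')
    {P' : Module.End 𝒪 (s59t_part ε')} (hPP' : P' * P' = P')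
    (hmem' : ∀ x, x ∈ s59t_part P' ↔
      ((s59f_oldN hpL hN' hG' 𝒪 𝒪 e₀ he' hee).restrict hc').corA x = 0 ∧
      ((s59f_oldN hpL hN' hG' 𝒪 𝒪 e₀ he' hee).restrict hc').corB x = 0)
    [Nontrivial (s59t_part P')]
    (DQ : GaloisRep.DeformationRingData 𝒪 ρbar (fun _A _ _ _ ρ =>
      GaloisRep.strictOrdinaryCondition 𝒪 p (Rd.Smin ∪ (Bd ∪ Rd.Ed) ∪ Xs) ρ ∧
        ∀ q ∈ Rd.Smin, q.Prime → q ≠ p → ρ.IsUnipotentOnInertiaAt q)) :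
    ∃ a₀ : heckeAlgebra Mn 2 (↑S : Set ℕ) →+*
        Module.End 𝒪 (s48h_Hpar 𝒪 (s48h_GammaH N' H') 𝒪),
      (∀ (ℓ : ℕ) (hℓ : ℓ.Prime) (hℓN : ¬ ℓ ∣ Mn) (hℓS : ℓ ∉ (↑S : Set ℕ))
        (i : s59w_TIdx N'), i.ell = ℓ → a₀ (heckeAlgebra.T hℓ hℓN hℓS) =
          s59e_Tp' H' 𝒪 ((p ^ e - 1) * ((p ^ e + 1) / 2)) i) ∧
      (∀ t, a₀ t ∈
        Subring.closure (Set.range (s59e_Tp' H' 𝒪 ((p ^ e - 1) * ((p ^ e + 1) / 2))))) ∧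
      ∃ aX : heckeAlgebra Mn 2 (↑S : Set ℕ) →+* Module.End 𝒪 (s59t_part P'),
        (∀ t (x : s59t_part P'),
          (((aX t x : s59t_part P') : s59t_part ε') : s48h_Hpar 𝒪 (s48h_GammaH N' H') 𝒪) =
            a₀ t ((x : s59t_part ε') : s48h_Hpar 𝒪 (s48h_GammaH N' H') 𝒪)) ∧
        (∀ x ∈ s59e_adj 𝒪 aX, ∃ d : 𝒪, s59e_IsLocScalar x d) ∧
        ∃ (_ : IsLocalRing (s59e_adj 𝒪 aX)) (θ : DQ.R →ₐ[𝒪] s59e_adj 𝒪 aX),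
          Function.Surjective θ ∧
          (∀ ℓ : ℕ, ℓ.Prime → ℓ ∉ S →
            ∀ A' : ValuationSubring Qbar, A'.LiesOverPrime ℓ →
            ∀ τ : GQ, A'.IsFrobeniusAt τ ℓ →
              (LinearMap.charpoly (DQ.ρ.ρ τ)).map (θ : DQ.R →+* s59e_adj 𝒪 aX) =
                X ^ 2 - C (s59e_tOf (↑S : Set ℕ) aX ℓ) * X + C ((ℓ : s59e_adj 𝒪 aX))) ∧
          (∀ ℓ : ℕ, ℓ.Prime → ℓ ∉ S →
            s59e_tOf (↑S : Set ℕ) aX ℓ - algebraMap 𝒪 (s59e_adj 𝒪 aX) (((a ℓ : ℤ) : 𝒪)) ∈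
              maximalIdeal (s59e_adj 𝒪 aX)) := by
  classical
  subst hN'
  subst hMn
  have hεop : ∀ x y, ε' (s59w_op H' 𝒪 x y) = s59w_op H' 𝒪 x (ε' y) :=
    fun x y => LinearMap.congr_fun (hεc x) y
  -- finiteness and freeness of the kernel part
  haveI : Module.Finite 𝒪 (s48h_Hpar 𝒪 (s48h_GammaH (L * p) H') 𝒪) := s59t_Hpar_finite 𝒪
  haveI : Module.Free 𝒪 (s48h_Hpar 𝒪 (s48h_GammaH (L * p) H') 𝒪) := s59t_Hpar_free 𝒪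
  haveI : Module.Finite 𝒪 (s59t_part ε') := s59t_part_finite ε'
  haveI : Module.Free 𝒪 (s59t_part ε') := s59t_part_free hε
  haveI : Module.Finite 𝒪 (s59t_part P') := s59t_part_finite P'
  haveI : Module.Free 𝒪 (s59t_part P') := s59t_part_free hPP'
  -- the new submodule
  have hZ0 : s59m_newSub (s59f_oldN hpL rfl hG' 𝒪 𝒪 e₀ he' hee) ε' ≠ ⊥ := by
    intro h0
    obtain ⟨x, y, hxy⟩ := exists_pair_ne (s59t_part P')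
    apply hxy
    apply (s59m_newEquiv hc' hmem').injective
    apply Subtype.ext
    have hx := (Submodule.eq_bot_iff _).mp h0 _ (s59m_newEquiv hc' hmem' x).2
    have hy := (Submodule.eq_bot_iff _).mp h0 _ (s59m_newEquiv hc' hmem' y).2
    rw [hx, hy]
  have hZε : ∀ z ∈ s59m_newSub (s59f_oldN hpL rfl hG' 𝒪 𝒪 e₀ he' hee) ε', ε' z = z :=
    fun z hz => s59m_newSub_fixed _ ε' hε hz
  have hZop : ∀ x, ∀ z ∈ s59m_newSub (s59f_oldN hpL rfl hG' 𝒪 𝒪 e₀ he' hee) ε',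
      s59w_op H' 𝒪 x z ∈ s59m_newSub (s59f_oldN hpL rfl hG' 𝒪 𝒪 e₀ he' hee) ε' :=
    fun x z hz => s59m_newSub_op hpL rfl hG' e₀ he' hee ε' hεop x hz
  have hZsat : ∀ (c : 𝒪) (y : s48h_Hpar 𝒪 (s48h_GammaH (L * p) H') 𝒪), c ≠ 0 →
      c • y ∈ s59m_newSub (s59f_oldN hpL rfl hG' 𝒪 𝒪 e₀ he' hee) ε' →
      y ∈ s59m_newSub (s59f_oldN hpL rfl hG' 𝒪 𝒪 e₀ he' hee) ε' :=
    fun c y hc hy => s59m_newSub_sat' hpL rfl hG' e₀ he' hee ε' hε c y hc hy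
  have hnewA := fun (z : s48h_Hpar 𝒪 (s48h_GammaH (L * p) H') 𝒪)
      (hz : z ∈ s59m_newSub (s59f_oldN hpL rfl hG' 𝒪 𝒪 e₀ he' hee) ε') =>
    s59m_newSub_newA hpL hH' hG' e₀ he' hee ε' hz
  have hnewB := fun (z : s48h_Hpar 𝒪 (s48h_GammaH (L * p) H') 𝒪)
      (hz : z ∈ s59m_newSub (s59f_oldN hpL rfl hG' 𝒪 𝒪 e₀ he' hee) ε') =>
    s59m_newSub_newB hpL hH' hG' e₀ he' hee ε' hz
  have k1 := s59c_H3_pnew Rd a hp2 hp𝒪 hord N₁ Q hQ hL hpL H hD₁ hHker H' hH' e hn M' hM' hgood S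
    hpS hBS hS hN₀ hN₀N Xs hX hQX
  have k2 := k1 ε' hε hεc hnil hEig
  have k3 := k2 (s59m_newSub (s59f_oldN hpL rfl hG' 𝒪 𝒪 e₀ he' hee) ε') hZ0 hZε hZop hZsat
  have k4 := k3 hnewA hnewB DQ
  obtain ⟨a₀, ha1, ha2, hout⟩ := k4
  obtain ⟨aZ, haZ, hloc, hTloc, θ, hθ, hfrob⟩ := hout
  have t1 := s59m_H3_transport (s59m_newEquiv hc' hmem') S hS aZ hloc a hTloc DQ θ hθ hfrob
  obtain ⟨hlocX, hlr, θ', hθ', hfrobT', hcong⟩ := t1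
  refine ⟨a₀, ha1, ha2, s59m_conjAct (s59m_newEquiv hc' hmem') S aZ, ?_, hlocX, hlr, θ', hθ',
    hfrobT', hcong⟩
  intro t x
  have h1 := s59m_conjAct_apply (s59m_newEquiv hc' hmem') S aZ t x
  have h2 := congrArg (fun w : s59m_newSub (s59f_oldN hpL rfl hG' 𝒪 𝒪 e₀ he' hee) ε' =>
    (w : s48h_Hpar 𝒪 (s48h_GammaH (L * p) H') 𝒪)) h1
  simp only [s59m_newEquiv_coe, haZ] at h2
  exact h2

end H3Part

end Fermat.Agent.Lib.S59
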