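/-
S59 project, case (P), route (T5w), [W4c] (helper2, prefix `s59b_`; request of helper7 #4021 (B), step 2): **THE `p`-NEW (H3) ON THE
KERNEL PART, AT THE TAYLOR–WILES LEVELS AND AT THE BASE, FOR A STRICT-ORDINARY TYPE WITH FREE FINSETS `(Sg, Su)`** — generated from
helper9's `s59m_H3_pnew_part` (MKerH3W.lean) and `s59m_baseH3` (MKerBaseH3.lean), over `s59b_H3_pnew_free` (B9PNewF.lean):
the record `Rd : s59i_RData …` and `hN₀N Xs hX hQX` are replaced by `hQu Sg Su Smin hpSg hSg hmin hSu`; the conclusions are VERBATIM.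

* **`s59b_H3_pnew_part_free`** (Taylor–Wiles levels; `DQ : strictOrdinaryCondition 𝒪 p Sg ρ ∧ ∀ q ∈ Su, …`);
* **`s59b_baseH3_free`** (base level `(N p, ⊤)`, `Q = ∅`; `hSu` is vacuous there).
-/
import Mathlib
import Fermat.Agent.Lib.S59.MKerH3W
import Fermat.Agent.Lib.S59.B9PNewF

set_option autoImplicit false
set_option linter.unusedSectionVars false
set_option linter.unusedVariables false
set_option linter.style.haveILetI false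
set_option maxHeartbeats 1600000
set_option synthInstance.maxHeartbeats 400000
set_option maxSynthPendingDepth 3

open IsLocalRing CuspForm CongruenceSubgroup Polynomial
open Fermat.Agent.Lib.S29 Fermat.Agent.Lib.S48 Fermat.Agent.Lib.S41 Fermat.Agent.Lib.S18
open scoped MatrixGroups

noncomputable section

namespace Fermat.Agent.Lib.S59

local notation "Qbar" => AlgebraicClosure ℚ
local notation "GQ" => (AlgebraicClosure ℚ ≃ₐ[ℚ] AlgebraicClosure ℚ)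

section H3PartF

variable {p : ℕ} [hp : Fact p.Prime]
  {𝒪 : Type} [CommRing 𝒪] [IsDomain 𝒪] [IsDiscreteValuationRing 𝒪]
  [IsAdicComplete (maximalIdeal 𝒪) 𝒪] [Finite (ResidueField 𝒪)] [CharZero 𝒪] [Algebra ℤ_[p] 𝒪]
  {B : Finset ℕ} {ρbar : ResidualGaloisRep (ResidueField 𝒪)} (a : ℕ → ℤ)

/-- **the `p`-new (H3) on the kernel part `s59t_part P'`**, free levels, strict type with FREE finsets `(Sg, Su)`. -/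
theorem Internal.s59b_H3_pnew_part_free (hp2 : p ≠ 2) (hp𝒪 : (p : 𝒪) ∈ maximalIdeal 𝒪)
    (hord : (GaloisRepAdic.ofResidualGaloisRep ρbar).IsOrdinaryAt p)
    -- the level `Γ_{H'}(N')`, `N' = L p`
    (N₁ : ℕ) [NeZero N₁] (Q : Finset ℕ) (hQ : ∀ q ∈ Q, q.Prime ∧ ¬ q ∣ N₁ * p)
    {L : ℕ} [NeZero L] (hL : L = N₁ * ∏ q ∈ Q, q) (hpL : ¬ p ∣ L)
    (H : Subgroup (ZMod L)ˣ) (hD₁ : (∏ q ∈ Q, q) ∣ L)
    (hHker : s59u_ker L (∏ q ∈ Q, q) hD₁ ≤ H)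
    {N' : ℕ} [NeZero N'] (hN' : N' = L * p) (hLN' : L ∣ N') (H' : Subgroup (ZMod N')ˣ)
    (hH' : ∀ u : (ZMod N')ˣ, u ∈ H' ↔ ZMod.unitsMap hLN' u ∈ H)
    (hG' : s59f_IsG' L p H (s48h_GammaH N' H'))
    (e : ℕ) (hn : ∀ u : (ZMod N')ˣ, u ^ (p ^ e) ∈ H')
    -- the `Γ₀`-level `Mn = M' p`
    (M' : ℕ) [NeZero M'] (Mn : ℕ) [NeZero Mn] [Fact (HasIntegralStructure Mn 2)]
    (hMn : Mn = M' * p)
    (hM' : M' = N₁ * (∏ q ∈ Q, q) * ∏ q ∈ Q, q) (hgood : s18_GoodLevel p M')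
    (S : Finset ℕ) (hpS : p ∈ S) (hBS : B ⊆ S)
    (hS : ∀ q : ℕ, q.Prime → q ∣ Mn → q ∈ S)
    (hN₀ : Squarefree (N₁ * p))
    (hQu : ∀ q ∈ Q, ρbar.IsUnramifiedAt q)
    (Sg Su Smin : Finset ℕ) (hpSg : p ∈ Sg)
    (hSg : ∀ q : ℕ, q.Prime → q ∣ Mn → q ∈ Sg ∨ s59e3q_E2Alt p ρbar q)
    (hmin : ∀ q : ℕ, q.Prime → q ≠ p → (q ∈ Smin ↔ ¬ ρbar.IsUnramifiedAt q))
    (hSu : ∀ q ∈ Su, q ∈ Smin ∨ q ∉ Q)
    -- the idempotent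
    (ε' : Module.End 𝒪 (s48h_Hpar 𝒪 (s48h_GammaH N' H') 𝒪)) (hε : ε' * ε' = ε')
    (hεc : ∀ x, ε' * s59w_op H' 𝒪 x = s59w_op H' 𝒪 x * ε')
    (hnil : ∀ x ∈ s59t_goodB N' B, ∃ k : ℕ,
      ∀ y : s48h_Hpar 𝒪 (s48h_GammaH N' H') 𝒪,
      ((s59w_op H' 𝒪 x - s59t_cB (𝒪 := 𝒪) N' a x •
        (1 : Module.End 𝒪 (s48h_Hpar 𝒪 (s48h_GammaH N' H') 𝒪))) ^ k) (ε' y) ∈
        (maximalIdeal 𝒪 • ⊤ : Submodule 𝒪 (s48h_Hpar 𝒪 (s48h_GammaH N' H') 𝒪)))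
    (hEig : ∀ ℓ : ℕ, ℓ.Prime → ℓ ∉ S → ∀ A : ValuationSubring Qbar, A.LiesOverPrime ℓ →
      ∀ σ : GQ, A.IsFrobeniusAt σ ℓ →
        LinearMap.charpoly (ρbar.ρ σ) = X ^ 2 - C (residue 𝒪 ((a ℓ : ℤ) : 𝒪)) * X +
          C ((ℓ : ResidueField 𝒪)))
    -- the package and the kernel part
    (e₀ : SL(2, ℤ)) (he' : e₀ ∈ Gamma0 N') (hee : s59f_gW hpL * e₀ * e₀ ∈ s48h_GammaH N' H')
    {ε₁' : Module.End 𝒪 (s48h_Hpar 𝒪 (s48h_GammaH L H) 𝒪)}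
    (hc' : (s59f_oldN hpL hN' hG' 𝒪 𝒪 e₀ he' hee).Compat ε₁' ε')
    {P' : Module.End 𝒪 (s59t_part ε')} (hPP' : P' * P' = P')
    (hmem' : ∀ x, x ∈ s59t_part P' ↔
      ((s59f_oldN hpL hN' hG' 𝒪 𝒪 e₀ he' hee).restrict hc').corA x = 0 ∧
      ((s59f_oldN hpL hN' hG' 𝒪 𝒪 e₀ he' hee).restrict hc').corB x = 0)
    [Nontrivial (s59t_part P')]
    (DQ : GaloisRep.DeformationRingData 𝒪 ρbar (fun _A _ _ _ ρ =>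
      GaloisRep.strictOrdinaryCondition 𝒪 p Sg ρ ∧
        ∀ q ∈ Su, q.Prime → q ≠ p → ρ.IsUnipotentOnInertiaAt q)) :
    ∃ a₀ : heckeAlgebra Mn 2 (↑S : Set ℕ) →+*
        Module.End 𝒪 (s48h_Hpar 𝒪 (s48h_GammaH N' H') 𝒪),
      (∀ (ℓ : ℕ) (hℓ : ℓ.Prime) (hℓN : ¬ ℓ ∣ Mn) (hℓS : ℓ ∉ (↑S : Set ℕ))
        (i : s59w_TIdx N'), i.ell = ℓ → a₀ (heckeAlgebra.T hℓ hℓN hℓS) =
          s59e_Tp' H' 𝒪 ((p ^ e - 1) * ((p ^ e + 1) / 2)) i) ∧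
      (∀ t, a₀ t ∈
        Subring.closure (Set.range (s59e_Tp' H' 𝒪 ((p ^ e - 1) * ((p ^ e + 1) / 2))))) ∧
      ∃ aX : heckeAlgebra Mn 2 (↑S : Set ℕ) →+* Module.End 𝒪 (s59t_part P'),
        (∀ t (x : s59t_part P'),
          (((aX t x : s59t_part P') : s59t_part ε') : s48h_Hpar 𝒪 (s48h_GammaH N' H') 𝒪) =
            a₀ t ((x : s59t_part ε') : s48h_Hpar 𝒪 (s48h_GammaH N' H') 𝒪)) ∧
        (∀ x ∈ s59e_adj 𝒪 aX, ∃ d : 𝒪, s59e_IsLocScalar x d) ∧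
        ∃ (_ : IsLocalRing (s59e_adj 𝒪 aX)) (θ : DQ.R →ₐ[𝒪] s59e_adj 𝒪 aX),
          Function.Surjective θ ∧
          (∀ ℓ : ℕ, ℓ.Prime → ℓ ∉ S →
            ∀ A' : ValuationSubring Qbar, A'.LiesOverPrime ℓ →
            ∀ τ : GQ, A'.IsFrobeniusAt τ ℓ →
              (LinearMap.charpoly (DQ.ρ.ρ τ)).map (θ : DQ.R →+* s59e_adj 𝒪 aX) =
                X ^ 2 - C (s59e_tOf (↑S : Set ℕ) aX ℓ) * X + C ((ℓ : s59e_adj 𝒪 aX))) ∧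
          (∀ ℓ : ℕ, ℓ.Prime → ℓ ∉ S →
            s59e_tOf (↑S : Set ℕ) aX ℓ - algebraMap 𝒪 (s59e_adj 𝒪 aX) (((a ℓ : ℤ) : 𝒪)) ∈
              maximalIdeal (s59e_adj 𝒪 aX)) := by
  classical
  subst hN'
  subst hMn
  have hεop : ∀ x y, ε' (s59w_op H' 𝒪 x y) = s59w_op H' 𝒪 x (ε' y) :=
    fun x y => LinearMap.congr_fun (hεc x) y
  -- finiteness and freeness of the kernel part
  haveI : Module.Finite 𝒪 (s48h_Hpar 𝒪 (s48h_GammaH (L * p) H') 𝒪) := s59t_Hpar_finite 𝒪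
  haveI : Module.Free 𝒪 (s48h_Hpar 𝒪 (s48h_GammaH (L * p) H') 𝒪) := s59t_Hpar_free 𝒪
  haveI : Module.Finite 𝒪 (s59t_part ε') := s59t_part_finite ε'
  haveI : Module.Free 𝒪 (s59t_part ε') := s59t_part_free hε
  haveI : Module.Finite 𝒪 (s59t_part P') := s59t_part_finite P'
  haveI : Module.Free 𝒪 (s59t_part P') := s59t_part_free hPP'
  -- the new submodule
  have hZ0 : s59m_newSub (s59f_oldN hpL rfl hG' 𝒪 𝒪 e₀ he' hee) ε' ≠ ⊥ := by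
    intro h0
    obtain ⟨x, y, hxy⟩ := exists_pair_ne (s59t_part P')
    apply hxy
    apply (s59m_newEquiv hc' hmem').injective
    apply Subtype.ext
    have hx := (Submodule.eq_bot_iff _).mp h0 _ (s59m_newEquiv hc' hmem' x).2
    have hy := (Submodule.eq_bot_iff _).mp h0 _ (s59m_newEquiv hc' hmem' y).2
    rw [hx, hy]
  have hZε : ∀ z ∈ s59m_newSub (s59f_oldN hpL rfl hG' 𝒪 𝒪 e₀ he' hee) ε', ε' z = z :=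
    fun z hz => s59m_newSub_fixed _ ε' hε hz
  have hZop : ∀ x, ∀ z ∈ s59m_newSub (s59f_oldN hpL rfl hG' 𝒪 𝒪 e₀ he' hee) ε',
      s59w_op H' 𝒪 x z ∈ s59m_newSub (s59f_oldN hpL rfl hG' 𝒪 𝒪 e₀ he' hee) ε' :=
    fun x z hz => s59m_newSub_op hpL rfl hG' e₀ he' hee ε' hεop x hz
  have hZsat : ∀ (c : 𝒪) (y : s48h_Hpar 𝒪 (s48h_GammaH (L * p) H') 𝒪), c ≠ 0 →
      c • y ∈ s59m_newSub (s59f_oldN hpL rfl hG' 𝒪 𝒪 e₀ he' hee) ε' →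
      y ∈ s59m_newSub (s59f_oldN hpL rfl hG' 𝒪 𝒪 e₀ he' hee) ε' :=
    fun c y hc hy => s59m_newSub_sat' hpL rfl hG' e₀ he' hee ε' hε c y hc hy
  have hnewA := fun (z : s48h_Hpar 𝒪 (s48h_GammaH (L * p) H') 𝒪)
      (hz : z ∈ s59m_newSub (s59f_oldN hpL rfl hG' 𝒪 𝒪 e₀ he' hee) ε') =>
    s59m_newSub_newA hpL hH' hG' e₀ he' hee ε' hz
  have hnewB := fun (z : s48h_Hpar 𝒪 (s48h_GammaH (L * p) H') 𝒪)
      (hz : z ∈ s59m_newSub (s59f_oldN hpL rfl hG' 𝒪 𝒪 e₀ he' hee) ε') =>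
    s59m_newSub_newB hpL hH' hG' e₀ he' hee ε' hz
  have k1 := s59b_H3_pnew_free a hp2 hp𝒪 hord N₁ Q hQ hL hpL H hD₁ hHker H' hH' e hn M' hM' hgood S
    hpS hBS hS hN₀ hQu Sg Su Smin hpSg hSg hmin hSu
  have k2 := k1 ε' hε hεc hnil hEig
  have k3 := k2 (s59m_newSub (s59f_oldN hpL rfl hG' 𝒪 𝒪 e₀ he' hee) ε') hZ0 hZε hZop hZsat
  have k4 := k3 hnewA hnewB DQ
  obtain ⟨a₀, ha1, ha2, hout⟩ := k4
  obtain ⟨aZ, haZ, hloc, hTloc, θ, hθ, hfrob⟩ := hout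
  have t1 := s59m_H3_transport (s59m_newEquiv hc' hmem') S hS aZ hloc a hTloc DQ θ hθ hfrob
  obtain ⟨hlocX, hlr, θ', hθ', hfrobT', hcong⟩ := t1
  refine ⟨a₀, ha1, ha2, s59m_conjAct (s59m_newEquiv hc' hmem') S aZ, ?_, hlocX, hlr, θ', hθ',
    hfrobT', hcong⟩
  intro t x
  have h1 := s59m_conjAct_apply (s59m_newEquiv hc' hmem') S aZ t x
  have h2 := congrArg (fun w : s59m_newSub (s59f_oldN hpL rfl hG' 𝒪 𝒪 e₀ he' hee) ε' =>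
    (w : s48h_Hpar 𝒪 (s48h_GammaH (L * p) H') 𝒪)) h1
  simp only [s59m_newEquiv_coe, haZ] at h2
  exact h2

export Internal (s59b_H3_pnew_part_free)

end H3PartF

section BaseH3F

variable {p : ℕ} [hp : Fact p.Prime]
  {𝒪 : Type} [CommRing 𝒪] [IsDomain 𝒪] [IsDiscreteValuationRing 𝒪]
  [IsAdicComplete (maximalIdeal 𝒪) 𝒪] [Finite (ResidueField 𝒪)] [CharZero 𝒪] [Algebra ℤ_[p] 𝒪]
  {B : Finset ℕ} {ρbar : ResidualGaloisRep (ResidueField 𝒪)} (a : ℕ → ℤ)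

/-- **the Hecke ring of the kernel part at the base level `(N p, ⊤)`**, strict type with FREE finsets `(Sg, Su)`. -/
theorem Internal.s59b_baseH3_free (hp2 : p ≠ 2) (hp𝒪 : (p : 𝒪) ∈ maximalIdeal 𝒪)
    (hord : (GaloisRepAdic.ofResidualGaloisRep ρbar).IsOrdinaryAt p)
    (N : ℕ) [NeZero N] (N₂ : ℕ) [NeZero N₂] (hN₂ : N₂ = N * p) (hpN : ¬ p ∣ N)
    (hsq₂ : Squarefree N₂) (hgood : s18_GoodLevel p N)
    (Sg Su Smin : Finset ℕ) (hpSg : p ∈ Sg)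
    (hSg : ∀ q : ℕ, q.Prime → q ∣ N₂ → q ∈ Sg ∨ s59e3q_E2Alt p ρbar q)
    (hmin : ∀ q : ℕ, q.Prime → q ≠ p → (q ∈ Smin ↔ ¬ ρbar.IsUnramifiedAt q))
    (hpB : p ∈ B) (hNB₂ : ∀ q : ℕ, q.Prime → q ∣ N₂ → q ∈ B)
    (hGb : s59f_IsG' N p (⊤ : Subgroup (ZMod N)ˣ) (s48h_GammaH N₂ (⊤ : Subgroup (ZMod N₂)ˣ)))
    (e_b : SL(2, ℤ)) (he_b : e_b ∈ Gamma0 N₂)
    (hee_b : s59f_gW hpN * e_b * e_b ∈ s48h_GammaH N₂ (⊤ : Subgroup (ZMod N₂)ˣ))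
    (ε₂ : Module.End 𝒪 (s48h_Hpar 𝒪 (s48h_GammaH N₂ (⊤ : Subgroup (ZMod N₂)ˣ)) 𝒪))
    (hε : ε₂ * ε₂ = ε₂)
    (hεc : ∀ x, ε₂ * s59w_op (⊤ : Subgroup (ZMod N₂)ˣ) 𝒪 x = s59w_op (⊤ : Subgroup (ZMod N₂)ˣ) 𝒪 x * ε₂)
    (hnil : ∀ x ∈ s59t_goodB N₂ B, ∃ k : ℕ,
      ∀ y : s48h_Hpar 𝒪 (s48h_GammaH N₂ (⊤ : Subgroup (ZMod N₂)ˣ)) 𝒪,
      ((s59w_op (⊤ : Subgroup (ZMod N₂)ˣ) 𝒪 x - s59t_cB (𝒪 := 𝒪) N₂ a x •
        (1 : Module.End 𝒪 (s48h_Hpar 𝒪 (s48h_GammaH N₂ (⊤ : Subgroup (ZMod N₂)ˣ)) 𝒪))) ^ k) (ε₂ y) ∈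
        (maximalIdeal 𝒪 • ⊤ : Submodule 𝒪 (s48h_Hpar 𝒪 (s48h_GammaH N₂ (⊤ : Subgroup (ZMod N₂)ˣ)) 𝒪)))
    (hEig : ∀ ℓ : ℕ, ℓ.Prime → ℓ ∉ B → ∀ A : ValuationSubring Qbar, A.LiesOverPrime ℓ →
      ∀ σ : GQ, A.IsFrobeniusAt σ ℓ →
        LinearMap.charpoly (ρbar.ρ σ) = X ^ 2 - C (residue 𝒪 ((a ℓ : ℤ) : 𝒪)) * X +
          C ((ℓ : ResidueField 𝒪)))
    {ε₁ : Module.End 𝒪 (s48h_Hpar 𝒪 (s48h_GammaH N (⊤ : Subgroup (ZMod N)ˣ)) 𝒪)}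
    (hcb : (s59f_oldN hpN hN₂ hGb 𝒪 𝒪 e_b he_b hee_b).Compat ε₁ ε₂)
    {P : Module.End 𝒪 (s59t_part ε₂)} (hPP : P * P = P)
    (hmem : ∀ x, x ∈ s59t_part P ↔
      ((s59f_oldN hpN hN₂ hGb 𝒪 𝒪 e_b he_b hee_b).restrict hcb).corA x = 0 ∧
      ((s59f_oldN hpN hN₂ hGb 𝒪 𝒪 e_b he_b hee_b).restrict hcb).corB x = 0)
    [Nontrivial (s59t_part P)]
    (D0 : GaloisRep.DeformationRingData 𝒪 ρbar (fun _A _ _ _ ρ =>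
      GaloisRep.strictOrdinaryCondition 𝒪 p Sg ρ ∧
        ∀ q ∈ Su, q.Prime → q ≠ p → ρ.IsUnipotentOnInertiaAt q)) :
    ∃ a₀ : heckeAlgebra N₂ 2 (↑B : Set ℕ) →+*
        Module.End 𝒪 (s48h_Hpar 𝒪 (s48h_GammaH N₂ (⊤ : Subgroup (ZMod N₂)ˣ)) 𝒪),
      (∀ (ℓ : ℕ) (hℓ : ℓ.Prime) (hℓN : ¬ ℓ ∣ N₂) (hℓS : ℓ ∉ (↑B : Set ℕ))
        (i : s59w_TIdx N₂), i.ell = ℓ → a₀ (heckeAlgebra.T hℓ hℓN hℓS) =
          s59e_Tp' (⊤ : Subgroup (ZMod N₂)ˣ) 𝒪 ((p ^ 0 - 1) * ((p ^ 0 + 1) / 2)) i) ∧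
      (∀ t, a₀ t ∈
        Subring.closure (Set.range (s59e_Tp' (⊤ : Subgroup (ZMod N₂)ˣ) 𝒪 ((p ^ 0 - 1) * ((p ^ 0 + 1) / 2))))) ∧
      ∃ aX : heckeAlgebra N₂ 2 (↑B : Set ℕ) →+* Module.End 𝒪 (s59t_part P),
        (∀ t (x : s59t_part P),
          (((aX t x : s59t_part P) : s59t_part ε₂) : s48h_Hpar 𝒪 (s48h_GammaH N₂ (⊤ : Subgroup (ZMod N₂)ˣ)) 𝒪) =
            a₀ t ((x : s59t_part ε₂) : s48h_Hpar 𝒪 (s48h_GammaH N₂ (⊤ : Subgroup (ZMod N₂)ˣ)) 𝒪)) ∧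
        (∀ x ∈ s59e_adj 𝒪 aX, ∃ d : 𝒪, s59e_IsLocScalar x d) ∧
        ∃ (_ : IsLocalRing (s59e_adj 𝒪 aX)) (θ : D0.R →ₐ[𝒪] s59e_adj 𝒪 aX),
          Function.Surjective θ ∧
          (∀ ℓ : ℕ, ℓ.Prime → ℓ ∉ B →
            ∀ A' : ValuationSubring Qbar, A'.LiesOverPrime ℓ →
            ∀ τ : GQ, A'.IsFrobeniusAt τ ℓ →
              (LinearMap.charpoly (D0.ρ.ρ τ)).map (θ : D0.R →+* s59e_adj 𝒪 aX) =
                X ^ 2 - C (s59e_tOf (↑B : Set ℕ) aX ℓ) * X + C ((ℓ : s59e_adj 𝒪 aX))) ∧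
          (∀ ℓ : ℕ, ℓ.Prime → ℓ ∉ B →
            s59e_tOf (↑B : Set ℕ) aX ℓ - algebraMap 𝒪 (s59e_adj 𝒪 aX) (((a ℓ : ℤ) : 𝒪)) ∈
              maximalIdeal (s59e_adj 𝒪 aX)) := by
  classical
  have hpP : p.Prime := Fact.out
  have hNN₂ : N ∣ N₂ := hN₂ ▸ Dvd.intro p rfl
  haveI : NeZero (N * (∏ q ∈ (∅ : Finset ℕ), q) * ∏ q ∈ (∅ : Finset ℕ), q) := by
    rw [Finset.prod_empty, mul_one, mul_one]
    infer_instance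
  haveI : Fact (HasIntegralStructure N₂ 2) := ⟨Fermat.Agent.S23.result _⟩
  have hQ : ∀ q ∈ (∅ : Finset ℕ), q.Prime ∧ ¬ q ∣ N * p := fun q hq => absurd hq (Finset.notMem_empty q)
  have hL : N = N * ∏ q ∈ (∅ : Finset ℕ), q := by rw [Finset.prod_empty, mul_one]
  have hD₁ : (∏ q ∈ (∅ : Finset ℕ), q) ∣ N := by rw [Finset.prod_empty]; exact one_dvd N
  have hMn : N₂ = N * (∏ q ∈ (∅ : Finset ℕ), q) * (∏ q ∈ (∅ : Finset ℕ), q) * p := by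
    rw [Finset.prod_empty, mul_one, mul_one]
    exact hN₂
  have hgood' : s18_GoodLevel p (N * (∏ q ∈ (∅ : Finset ℕ), q) * ∏ q ∈ (∅ : Finset ℕ), q) := by
    rw [Finset.prod_empty, mul_one, mul_one]
    exact hgood
  have hH' : ∀ u : (ZMod N₂)ˣ, u ∈ (⊤ : Subgroup (ZMod N₂)ˣ) ↔
      ZMod.unitsMap hNN₂ u ∈ (⊤ : Subgroup (ZMod N)ˣ) :=
    fun u => ⟨fun _ => Subgroup.mem_top _, fun _ => Subgroup.mem_top _⟩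
  have k1 := s59b_H3_pnew_part_free (B := B) a hp2 hp𝒪 hord N (∅ : Finset ℕ) hQ hL hpN
    (⊤ : Subgroup (ZMod N)ˣ) hD₁ le_top hN₂ hNN₂ (⊤ : Subgroup (ZMod N₂)ˣ) hH' hGb 0
    (fun u => Subgroup.mem_top _)
  have k2 := k1 (N * (∏ q ∈ (∅ : Finset ℕ), q) * ∏ q ∈ (∅ : Finset ℕ), q) N₂ hMn rfl hgood' B
    hpB (Finset.Subset.refl B) hNB₂ (hN₂ ▸ hsq₂)
    (fun q hq => absurd hq (Finset.notMem_empty q)) Sg Su Smin hpSg hSg hmin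
    (fun q _ => Or.inr (Finset.notMem_empty q))
  have k3 := k2 ε₂ hε hεc hnil hEig
  have k4 := k3 e_b he_b hee_b hcb hPP hmem D0
  exact k4

export Internal (s59b_baseH3_free)

end BaseH3F

end Fermat.Agent.Lib.S59

end
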