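/-
Programme R2 (S59), helper5 (prefix `s59e_aux`): **(PF) at `p = 3` from an auxiliary prime `r ≡ 2 (mod 3)` of the level.**

helper8's `s59t_PF N H` ("every parabolic or finite-order element of `Γ₀(N)` lies in `Γ_H`") is proved in
`s59t_PF_of_pgroup` for `(ℤ/N)ˣ/H` a `p`-group with `p` prime to `12`.  For `p = 3` it FAILS in general (elements of
order `3`); it holds again as soon as a prime `r ≡ 2 (mod 3)` divides `N`: then `x² ± x + 1` has no root modulo `N`, so
`Γ₀(N)` has no element of trace `±1`, the finite-order elements have trace `0` (`u⁴ = 1`) or are `±1`, and `4` is prime to `3`.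

* `s59e_aux_no_root`       : no root of `x² − x + 1`, `x² + x + 1` in `ZMod N` when `r ∣ N`, `r ≡ 2 (3)` prime;
* `s59e_aux_PF_of`         : (PF) from "parabolic", "`u⁴ = 1`" and "no root";
* `s59e_auxTors p N`       : the torsion hypothesis `p ⊥ 12 ∨ (p = 3 ∧ ∃ r ∣ N, r ≡ 2 (3))`, monotone in `N`;
* `s59e_aux_PF_of_pgroup`  : (PF) for `(ℤ/N)ˣ/H` a `p`-group under `s59e_auxTors p N`  (drop-in for `s59t_PF_of_pgroup`).
-/
import Mathlib
import Fermat.Agent.Lib.S59.THQ

set_option autoImplicit false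
set_option linter.unusedSectionVars false
set_option linter.style.haveILetI false

noncomputable section

namespace Fermat.Agent.Lib.S59

open Matrix MatrixGroups CongruenceSubgroup
open Fermat.Agent.Lib.S29 Fermat.Agent.Lib.S48 Fermat.Agent.Lib.S41

local notation "Mat2" => Matrix (Fin 2) (Fin 2) ℤ

/-- in `𝔽_r`, `r ≡ 2 (mod 3)`: `x² + x + 1 ≠ 0`. -/
theorem s59e_aux_no_root_field {r : ℕ} [hr : Fact r.Prime] (hr3 : r % 3 = 2) (x : ZMod r) :
    x ^ 2 + x + 1 ≠ 0 := by
  intro h
  have h3 : x ^ 3 = 1 := by linear_combination (x - 1) * h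
  have hx1 : x ≠ 1 := by
    rintro rfl
    have h4 : ((3 : ℕ) : ZMod r) = 0 := by
      push_cast
      linear_combination h
    rw [ZMod.natCast_eq_zero_iff] at h4
    have := (Nat.prime_dvd_prime_iff_eq hr.out Nat.prime_three).mp h4
    omega
  have hx0 : x ≠ 0 := by
    rintro rfl
    simp at h3
  have hord : orderOf x = 3 := by
    haveI : Fact (Nat.Prime 3) := ⟨Nat.prime_three⟩
    exact orderOf_eq_prime h3 hx1
  have hdvd : orderOf x ∣ r - 1 := orderOf_dvd_of_pow_eq_one (ZMod.pow_card_sub_one_eq_one hx0)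
  rw [hord] at hdvd
  have hr2 : 2 ≤ r := hr.out.two_le
  omega

/-- **no root of `x² ∓ x + 1` modulo `N`** when a prime `r ≡ 2 (mod 3)` divides `N`. -/
theorem s59e_aux_no_root {N r : ℕ} (hr : r.Prime) (hr3 : r % 3 = 2) (hrN : r ∣ N) (u : ZMod N) :
    u ^ 2 - u + 1 ≠ 0 ∧ u ^ 2 + u + 1 ≠ 0 := by
  haveI : Fact r.Prime := ⟨hr⟩
  let f : ZMod N →+* ZMod r := ZMod.castHom hrN (ZMod r)
  constructor
  · intro h
    have h1 := congrArg f h
    rw [map_add, map_sub, map_pow, map_one, map_zero] at h1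
    exact s59e_aux_no_root_field hr3 (-(f u)) (by linear_combination h1)
  · intro h
    have h1 := congrArg f h
    rw [map_add, map_add, map_pow, map_one, map_zero] at h1
    exact s59e_aux_no_root_field hr3 (f u) h1

section PF

variable {N : ℕ} [NeZero N] {H : Subgroup (ZMod N)ˣ}

/-- **(PF) from arithmetic, without elements of order `3`**: `H` contains the units `u` with `(u ∓ 1)² = 0`
(parabolic elements) and with `u⁴ = 1`, and `x² ∓ x + 1` has no root modulo `N`. -/
theorem s59e_aux_PF_of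
    (hpar : ∀ u : (ZMod N)ˣ, ((u : ZMod N) - 1) ^ 2 = 0 ∨ ((u : ZMod N) + 1) ^ 2 = 0 → u ∈ H)
    (hfin : ∀ u : (ZMod N)ˣ, u ^ 4 = 1 → u ∈ H)
    (hno : ∀ u : ZMod N, u ^ 2 - u + 1 ≠ 0 ∧ u ^ 2 + u + 1 ≠ 0) : s59t_PF N H := by
  intro γ hγ
  rw [s59t_mem_GammaH_iff_unit]
  have hrel := s59t_unit_rel γ
  set u := s59t_unit γ with hu
  set t : ℤ := (((γ : SL(2, ℤ)) : Mat2).trace) with ht
  have hfin' : ∀ s : ℤ, t = s → (s = 0 ∨ s = 1 ∨ s = -1) → s59t_unitHom N γ ∈ H := by
    intro s hts hs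
    rw [hts] at hrel
    rcases hs with rfl | rfl | rfl
    · apply hfin
      apply Units.ext
      rw [Units.val_pow_eq_pow_val, Units.val_one]
      show (u : ZMod N) ^ 4 = 1
      have h2 : (u : ZMod N) ^ 2 = -1 := by
        push_cast at hrel
        linear_combination hrel
      calc (u : ZMod N) ^ 4 = ((u : ZMod N) ^ 2) ^ 2 := by ring
        _ = 1 := by rw [h2]; ring
    · exfalso
      refine (hno (u : ZMod N)).1 ?_
      push_cast at hrel
      linear_combination hrel
    · exfalso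
      refine (hno (u : ZMod N)).2 ?_
      push_cast at hrel
      linear_combination hrel
  have hpar' : ∀ s : ℤ, t = s → (s = 2 ∨ s = -2) → s59t_unitHom N γ ∈ H := by
    intro s hts hs
    apply hpar
    show ((u : ZMod N) - 1) ^ 2 = 0 ∨ ((u : ZMod N) + 1) ^ 2 = 0
    rw [hts] at hrel
    rcases hs with rfl | rfl
    · left
      push_cast at hrel
      linear_combination hrel
    · right
      push_cast at hrel
      linear_combination hrel
  rcases hγ with hγ | hγ
  · have h4 : t = 2 ∨ t = -2 := by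
      have h5 : (t - 2) * (t + 2) = 0 := by linear_combination hγ
      rcases mul_eq_zero.mp h5 with h | h
      · left; omega
      · right; omega
    rcases h4 with h | h
    · exact hpar' 2 h (Or.inl rfl)
    · exact hpar' (-2) h (Or.inr rfl)
  · have hγ' : IsOfFinOrder (γ : SL(2, ℤ)) := by
      obtain ⟨n, hn, hγn⟩ := hγ.exists_pow_eq_one
      refine isOfFinOrder_iff_pow_eq_one.mpr ⟨n, hn, ?_⟩
      have := congrArg (fun g : Gamma0 N => (g : SL(2, ℤ))) hγn
      simpa using this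
    rcases s48h_finOrd_trace _ hγ' with h1 | h1 | h1
    · have : t = 2 := by
        rw [ht, h1, Matrix.SpecialLinearGroup.coe_one, Matrix.trace_one]
        rfl
      exact hpar' 2 this (Or.inl rfl)
    · have : t = -2 := by
        rw [ht, h1, Matrix.SpecialLinearGroup.coe_neg, Matrix.SpecialLinearGroup.coe_one,
          Matrix.trace_neg, Matrix.trace_one]
        rfl
      exact hpar' (-2) this (Or.inr rfl)
    · rw [abs_le] at h1
      have h6 : t = 0 ∨ t = 1 ∨ t = -1 := by omega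
      exact hfin' t rfl h6

end PF

/-- **the torsion hypothesis at `(p, N)`**: `p` is prime to `12`, or `p = 3` and a prime `r ≡ 2 (mod 3)` divides `N`. -/
def s59e_auxTors (p N : ℕ) : Prop :=
  Nat.Coprime p 12 ∨ (p = 3 ∧ ∃ r : ℕ, r.Prime ∧ r % 3 = 2 ∧ r ∣ N)

theorem s59e_auxTors_of_coprime {p : ℕ} (N : ℕ) (h : Nat.Coprime p 12) : s59e_auxTors p N := Or.inl h

theorem s59e_auxTors_of_five_le {p : ℕ} (hp : p.Prime) (hp5 : 5 ≤ p) (N : ℕ) : s59e_auxTors p N := by
  refine Or.inl ?_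
  have h12 : (12 : ℕ) = 2 ^ 2 * 3 := by norm_num
  rw [h12]
  refine Nat.Coprime.mul_right (Nat.Coprime.pow_right 2 ?_) ?_
  · exact (Nat.coprime_primes hp Nat.prime_two).2 (by omega)
  · exact (Nat.coprime_primes hp Nat.prime_three).2 (by omega)

theorem s59e_auxTors_mono {p N M : ℕ} (hNM : N ∣ M) (h : s59e_auxTors p N) : s59e_auxTors p M := by
  rcases h with h | ⟨h3, r, hr, hr3, hrN⟩
  · exact Or.inl h
  · exact Or.inr ⟨h3, r, hr, hr3, hrN.trans hNM⟩

theorem s59e_auxTors_ne_two {p N : ℕ} (h : s59e_auxTors p N) : p ≠ 2 := by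
  rcases h with h | ⟨h3, -⟩
  · rintro rfl
    norm_num at h
  · omega

/-- **(PF) for squarefree `N`, `-1 ∈ H`, `(ℤ/N)ˣ/H` a `p`-group, under the torsion hypothesis** (drop-in replacement for
helper8's `s59t_PF_of_pgroup`, which is the case `p ⊥ 12`). -/
theorem s59e_aux_PF_of_pgroup {N : ℕ} [NeZero N] {H : Subgroup (ZMod N)ˣ} (p : ℕ)
    (hp : s59e_auxTors p N) (hsq : Squarefree N)
    (hneg : (-1 : (ZMod N)ˣ) ∈ H) (hH : ∀ u : (ZMod N)ˣ, ∃ n : ℕ, u ^ (p ^ n) ∈ H) :
    s59t_PF N H := by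
  rcases hp with hp | ⟨rfl, r, hr, hr3, hrN⟩
  · exact s59t_PF_of_pgroup p hp hsq hneg hH
  · haveI : IsReduced (ZMod N) := isReduced_zmod.mpr (Or.inl hsq)
    refine s59e_aux_PF_of ?_ ?_ (s59e_aux_no_root hr hr3 hrN)
    · rintro u (h | h)
      · have h1 : (u : ZMod N) - 1 = 0 := IsReduced.eq_zero _ ⟨2, h⟩
        have h2 : u = 1 := Units.ext (sub_eq_zero.mp h1)
        rw [h2]
        exact one_mem H
      · have h1 : (u : ZMod N) + 1 = 0 := IsReduced.eq_zero _ ⟨2, h⟩
        have h2 : u = -1 := Units.ext (by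
          rw [Units.val_neg, Units.val_one]
          exact eq_neg_of_add_eq_zero_left h1)
        rw [h2]
        exact hneg
    · intro u hu
      obtain ⟨n, hn⟩ := hH u
      have hc : Nat.Coprime (3 ^ n) 4 := Nat.Coprime.pow_left n (by norm_num)
      have hb := Nat.gcd_eq_gcd_ab (3 ^ n) 4
      rw [hc.gcd_eq_one] at hb
      have h1 : u = (u ^ (3 ^ n)) ^ (Nat.gcdA (3 ^ n) 4) := by
        have h2 : (u : (ZMod N)ˣ) ^ ((1 : ℕ) : ℤ) = u := by simp
        rw [← zpow_natCast u (3 ^ n), ← _root_.zpow_mul]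
        have h3 : ((3 ^ n : ℕ) : ℤ) * Nat.gcdA (3 ^ n) 4 = ((1 : ℕ) : ℤ) - 4 * Nat.gcdB (3 ^ n) 4 := by
          rw [hb]
          push_cast
          ring
        rw [h3, _root_.zpow_sub, h2, _root_.zpow_mul]
        have h4 : (u : (ZMod N)ˣ) ^ (4 : ℤ) = 1 := by
          have := hu
          rw [← zpow_natCast] at this
          exact_mod_cast this
        rw [h4, _root_.one_zpow, inv_one, mul_one]
      rw [h1]
      exact zpow_mem hn _

end Fermat.Agent.Lib.S59
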