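/-
Programme R2 (S59), helper5 (prefix `s59e_aux`): **the weak level structure `s59b_Lvl M H` (hence `s59b_S37H M H`) under the
torsion hypothesis `s59e_auxTors p M`** — drop-in for helper2's `s59b_lvl_pgroup` / `s59b_S37H_pgroup` (which need `5 ≤ p`).

`M` squarefree, `1 < M`, `-1 ∈ H`, `2 ∣ M ∨ 3 ∣ M`, `(ℤ/M)ˣ/H` a `p`-group, and `p ⊥ 12` OR (`p = 3` and a prime `r ≡ 2 (3)`
divides `M`).  NOTE: the field `good` of `s59b_Lvl` (S18's branch condition) needs `2 ∣ M` when `3 ∤ M` — so at `p = 3 ∤ M` the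
level must be EVEN (then `r = 2` itself is an admissible auxiliary prime).
-/
import Mathlib
import Fermat.Agent.Lib.S59.EAuxPF
import Fermat.Agent.Lib.S59.BLvlP
import Fermat.Agent.Lib.S59.BC8Lvl

set_option autoImplicit false
set_option linter.unusedSectionVars false

namespace Fermat.Agent.Lib.S59

open Matrix.SpecialLinearGroup CongruenceSubgroup ModularGroup
open Fermat.Agent.Lib.S18 Fermat.Agent.Lib.S48
open scoped MatrixGroups

/-- **the patching levels under the torsion hypothesis.** -/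
theorem s59e_aux_lvl_pgroup {M : ℕ} [NeZero M] {H : Subgroup (ZMod M)ˣ} (hsq : Squarefree M)
    (hM : 1 < M) (hneg : (-1 : (ZMod M)ˣ) ∈ H) (h23 : 2 ∣ M ∨ 3 ∣ M) {p : ℕ}
    (hp12 : s59e_auxTors p M) (hpgrp : ∀ u : (ZMod M)ˣ, ∃ n : ℕ, u ^ (p ^ n) ∈ H) : s59b_Lvl M H := by
  have hPF : s59t_PF M H := s59e_aux_PF_of_pgroup p hp12 hsq hneg hpgrp
  refine ⟨hM, hneg, ?_, ?_, fun q hq hqM => s59b_good_of h23 hq hqM⟩
  · intro g hg hfin u hu
    have hγ : IsOfFinOrder (⟨g, hg⟩ : Gamma0 M) := by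
      obtain ⟨n, hn, hgn⟩ := isOfFinOrder_iff_pow_eq_one.mp hfin
      refine isOfFinOrder_iff_pow_eq_one.mpr ⟨n, hn, ?_⟩
      apply Subtype.ext
      rw [Subgroup.coe_pow, Subgroup.coe_one]
      exact hgn
    have h1 := hPF ⟨g, hg⟩ (Or.inr hγ)
    rw [s59t_mem_GammaH_iff_unit] at h1
    have hu' : u = s59t_unitHom M ⟨g, hg⟩ := by
      apply Units.ext
      rw [hu]
      rfl
    rw [hu']
    exact h1
  · intro σ k hmem u hu
    have h11 := s59b_diag_of_trace_two (M := M) (N₁ := 1) (L := M) (by rw [one_pow, one_mul]) hsq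
      (Nat.coprime_one_left M) hmem (by rw [s48c_trace_conj, s48c_T_pow_trace])
    have h1 : ((1 * M : ℕ) : ℤ) ∣ (σ⁻¹ * T ^ k * σ) 1 1 - 1 := by
      rw [← ZMod.intCast_zmod_eq_zero_iff_dvd, Int.cast_sub, Int.cast_one, h11, sub_self]
    rw [one_mul] at h1
    have h2 : (((σ⁻¹ * T ^ k * σ) 1 1 : ℤ) : ZMod M) = 1 := by
      have := (ZMod.intCast_zmod_eq_zero_iff_dvd _ M).mpr h1
      rw [Int.cast_sub, Int.cast_one, sub_eq_zero] at this
      exact this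
    have hu1 : u = 1 := by
      apply Units.ext
      rw [hu, h2, Units.val_one]
    rw [hu1]
    exact H.one_mem

/-- **`s59b_S37H M H` under the torsion hypothesis.** -/
theorem s59e_aux_S37H_pgroup {M : ℕ} [NeZero M] {H : Subgroup (ZMod M)ˣ} (hsq : Squarefree M)
    (hM : 1 < M) (hneg : (-1 : (ZMod M)ˣ) ∈ H) (h23 : 2 ∣ M ∨ 3 ∣ M) {p : ℕ}
    (hp12 : s59e_auxTors p M) (hpgrp : ∀ u : (ZMod M)ˣ, ∃ n : ℕ, u ^ (p ^ n) ∈ H) : s59b_S37H M H :=
  s59b_S37H_of_lvl (s59e_aux_lvl_pgroup hsq hM hneg h23 hp12 hpgrp)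

end Fermat.Agent.Lib.S59
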