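/-
Programme (R) = S59, node (E) module half (helper8), file 71: **comparison of two subgroups at the
SAME level.**  For `H₁ ≤ H₂ ≤ (ℤ/M)ˣ` and ONE polynomial `t` in the Hecke operators:

* `s59t_resG_injective_of_pow`, `s59t_resGHpar_injective_same`, `s59t_resHpar_injective` :
  restriction is injective on `Hom(-, 𝒪)` (char. `0`);
* `s59t_actH_transfer`, `s59t_act0_transfer` : polynomial identities descend from `Γ_{H₁}(M)` to
  `Γ_{H₂}(M)` and to `Γ₀(M)`;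
* `s59t_same_level` : if `t` acts as a non-Eisenstein idempotent at `(M, H₁)` then it does so at
  `(M, H₂)` and `s59t_TWFull` holds for the pair `(M, H₂) ← (M, H₁)`.
-/
import Mathlib
import Fermat.Agent.Lib.S59.TLvlCtl
import Fermat.Agent.Lib.S59.TCtrlTop
import Fermat.Agent.Lib.S59.THQ

set_option autoImplicit false
set_option linter.unusedSectionVars false
set_option linter.style.haveILetI false
set_option linter.unusedVariables false

noncomputable section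

namespace Fermat.Agent.Lib.S59

open Matrix MatrixGroups CongruenceSubgroup IsLocalRing
open Fermat.Agent.Lib.S29 Fermat.Agent.Lib.S48 Fermat.Agent.Lib.S41

section Inj

/-- restriction to a subgroup containing a power of every element is injective on
`Hom(-, A)`, `A` torsion-free. -/
theorem s59t_resG_injective_of_pow {G' G : Subgroup SL(2, ℤ)} (hle : G' ≤ G) {A : Type*}
    [AddCommGroup A] (hA : ∀ (k : ℕ) (a : A), k ≠ 0 → k • a = 0 → a = 0)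
    (hk : ∀ g : G, ∃ k : ℕ, k ≠ 0 ∧ (g : SL(2, ℤ)) ^ k ∈ G') :
    Function.Injective (s59t_resG hle A) := by
  intro χ₁ χ₂ h
  refine AddMonoidHom.ext fun a => ?_
  obtain ⟨g, rfl⟩ := Additive.ofMul.surjective a
  obtain ⟨k, hk0, hgk⟩ := hk g
  have h1 := DFunLike.congr_fun h (Additive.ofMul (⟨(g : SL(2, ℤ)) ^ k, hgk⟩ : G'))
  rw [s59t_resG_apply, s59t_resG_apply] at h1
  have h2 : (Additive.ofMul (⟨(g : SL(2, ℤ)) ^ k, hle hgk⟩ : G)) = k • Additive.ofMul g := by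
    rw [← ofMul_pow]
    congr 1
  have h1' : χ₁ (Additive.ofMul (⟨(g : SL(2, ℤ)) ^ k, hle hgk⟩ : G)) =
      χ₂ (Additive.ofMul (⟨(g : SL(2, ℤ)) ^ k, hle hgk⟩ : G)) := h1
  rw [h2, map_nsmul, map_nsmul] at h1'
  have h3 : k • (χ₁ (Additive.ofMul g) - χ₂ (Additive.ofMul g)) = 0 := by
    rw [smul_sub, h1', sub_self]
  exact sub_eq_zero.mp (hA k _ hk0 h3)

variable {𝒪 : Type*} [CommRing 𝒪] [IsDomain 𝒪] [CharZero 𝒪]

theorem s59t_torsionFree_of_charZero (k : ℕ) (a : 𝒪) (hk : k ≠ 0) (h : k • a = 0) : a = 0 := by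
  rw [nsmul_eq_mul] at h
  rcases mul_eq_zero.mp h with h | h
  · exact absurd (Nat.cast_eq_zero.mp h) hk
  · exact h

variable {M : ℕ} [NeZero M]

theorem s59t_pow_card_mem_GammaH (H : Subgroup (ZMod M)ˣ) {g : SL(2, ℤ)} (hg : g ∈ Gamma0 M) :
    g ^ Nat.card (ZMod M)ˣ ∈ s48h_GammaH M H := by
  have h := (s59t_mem_GammaH_iff_unit (H := H) ((⟨g, hg⟩ : Gamma0 M) ^ Nat.card (ZMod M)ˣ)).mpr
  refine h ?_
  rw [map_pow, pow_card_eq_one']
  exact one_mem H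

/-- **restriction `H_par(Γ_{H₂}(M)) → H_par(Γ_{H₁}(M))` is injective** (char. `0`). -/
theorem s59t_resGHpar_injective_same {H₁ H₂ : Subgroup (ZMod M)ˣ}
    (hle : s48h_GammaH M H₁ ≤ s48h_GammaH M H₂) :
    Function.Injective (s59t_resGHpar hle 𝒪 𝒪) := by
  intro x y hxy
  apply Subtype.ext
  refine s59t_resG_injective_of_pow hle (s59t_torsionFree_of_charZero (𝒪 := 𝒪)) ?_
    (congrArg Subtype.val hxy)
  intro g
  exact ⟨Nat.card (ZMod M)ˣ, Nat.card_pos.ne', s59t_pow_card_mem_GammaH H₁ g.2.1⟩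

/-- **restriction `H_par(Γ₀(M)) → H_par(Γ_H(M))` is injective** (char. `0`). -/
theorem s59t_resHpar_injective (H : Subgroup (ZMod M)ˣ) :
    Function.Injective (s59t_resHpar M H 𝒪 𝒪) := by
  intro x y hxy
  apply Subtype.ext
  refine AddMonoidHom.ext fun a => ?_
  obtain ⟨g, rfl⟩ := Additive.ofMul.surjective a
  have hgk : (g : SL(2, ℤ)) ^ Nat.card (ZMod M)ˣ ∈ s48h_GammaH M H :=
    s59t_pow_card_mem_GammaH H g.2
  have h1 := DFunLike.congr_fun (congrArg Subtype.val hxy)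
    (Additive.ofMul (⟨(g : SL(2, ℤ)) ^ Nat.card (ZMod M)ˣ, hgk⟩ : s48h_GammaH M H))
  have h1' : x.1 (Additive.ofMul (⟨(g : SL(2, ℤ)) ^ Nat.card (ZMod M)ˣ, hgk.1⟩ : Gamma0 M)) =
      y.1 (Additive.ofMul (⟨(g : SL(2, ℤ)) ^ Nat.card (ZMod M)ˣ, hgk.1⟩ : Gamma0 M)) := h1
  have h2 : (Additive.ofMul (⟨(g : SL(2, ℤ)) ^ Nat.card (ZMod M)ˣ, hgk.1⟩ : Gamma0 M)) =
      Nat.card (ZMod M)ˣ • Additive.ofMul g := by
    rw [← ofMul_pow]
    congr 1
  rw [h2, map_nsmul, map_nsmul] at h1'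
  have h3 : Nat.card (ZMod M)ˣ • (x.1 (Additive.ofMul g) - y.1 (Additive.ofMul g)) = 0 := by
    rw [smul_sub, h1', sub_self]
  exact sub_eq_zero.mp (s59t_torsionFree_of_charZero _ _ Nat.card_pos.ne' h3)

end Inj

section Transfer

variable {𝒪 : Type*} [CommRing 𝒪] [IsDomain 𝒪] [CharZero 𝒪]
  {N' : ℕ} [NeZero N'] (aq : ℕ → 𝒪) {M : ℕ} [NeZero M] (hM : M ∣ N')
  {H₁ H₂ : Subgroup (ZMod M)ˣ} (hle : s48h_GammaH M H₁ ≤ s48h_GammaH M H₂)

/-- restriction intertwines ALL the polynomials at equal level. -/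
theorem s59t_actH_resG_same (t : MvPolynomial (s59w_AIdx N' ⊕ ℕ) 𝒪)
    (x : s48h_Hpar 𝒪 (s48h_GammaH M H₂) 𝒪) :
    s59t_resGHpar hle 𝒪 𝒪 (s59t_actH N' aq hM H₂ t x) =
      s59t_actH N' aq hM H₁ t (s59t_resGHpar hle 𝒪 𝒪 x) :=
  s59t_actH_resG aq hM hM H₂ H₁ hle (dvd_refl M) Set.univ (fun j _ q' _ _ h => h)
    (by rw [MvPolynomial.supported_univ]; exact Algebra.mem_top) x

include hle in
/-- **polynomial identities descend from `Γ_{H₁}(M)` to `Γ_{H₂}(M)`.** -/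
theorem s59t_actH_transfer {P Q : MvPolynomial (s59w_AIdx N' ⊕ ℕ) 𝒪}
    (h : s59t_actH N' aq hM H₁ P = s59t_actH N' aq hM H₁ Q) :
    s59t_actH N' aq hM H₂ P = s59t_actH N' aq hM H₂ Q := by
  refine LinearMap.ext fun x => s59t_resGHpar_injective_same hle ?_
  rw [s59t_actH_resG_same aq hM hle, s59t_actH_resG_same aq hM hle, h]

/-- **polynomial identities descend from `Γ_H(M)` to `Γ₀(M)`.** -/
theorem s59t_act0_transfer (H : Subgroup (ZMod M)ˣ) {P Q : MvPolynomial (s59w_AIdx N' ⊕ ℕ) 𝒪}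
    (h : s59t_actH N' aq hM H P = s59t_actH N' aq hM H Q) :
    s59t_act0 aq hM P = s59t_act0 aq hM Q := by
  refine LinearMap.ext fun x => s59t_resHpar_injective H ?_
  rw [← s59t_actH_res aq hM H, ← s59t_actH_res aq hM H, h]

end Transfer

section Same

variable {𝒪 : Type} [CommRing 𝒪] [IsDomain 𝒪] [IsDiscreteValuationRing 𝒪]
  [IsAdicComplete (maximalIdeal 𝒪) 𝒪] [Finite (ResidueField 𝒪)] [CharZero 𝒪]
  {N' : ℕ} [NeZero N'] (aq : ℕ → 𝒪) {M : ℕ} [NeZero M] (hM : M ∣ N')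
  {H₁ H₂ : Subgroup (ZMod M)ˣ} (h12 : H₁ ≤ H₂)

theorem s59t_DeltaMap2_same_surjective :
    Function.Surjective (s59t_DeltaMap2 (le_refl (Gamma0 M)) (s59t_GammaH_mono h12)) := by
  intro δ
  obtain ⟨τ, rfl⟩ := QuotientGroup.mk_surjective δ
  exact ⟨QuotientGroup.mk τ, by rw [s59t_DeltaMap2_mk]⟩

set_option maxHeartbeats 3200000 in
/-- **comparison of `Γ_{H₁}(M) ≤ Γ_{H₂}(M)` at the same level, for ONE polynomial `t`**: if `t`
acts as a non-Eisenstein idempotent on `H_par(Γ_{H₁}(M))`, it does so on `H_par(Γ_{H₂}(M))`, and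
the full Taylor–Wiles control package holds for the pair. -/
theorem s59t_same_level (p : ℕ) [Fact p.Prime] [CharP (ResidueField 𝒪) p] (hp2 : p ≠ 2)
    (hPF₁ : s59t_PF M H₁) (hneg₁ : (-1 : SL(2, ℤ)) ∈ s48h_GammaH M H₁)
    (hΔ₁ : IsPGroup p (s59t_Delta M H₁))
    (B C : Subgroup (s59t_Delta M H₁)) [Fintype B] [Fintype C]
    (hBC : Function.Bijective (fun x : B × C => ((x.1 : s59t_Delta M H₁) * (x.2 : _))))
    (hφB : ∀ β ∈ B, s59t_DeltaMap2 (le_refl (Gamma0 M)) (s59t_GammaH_mono h12) β = 1)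
    (hφC : Function.Bijective (fun γ : C =>
      s59t_DeltaMap2 (le_refl (Gamma0 M)) (s59t_GammaH_mono h12) (γ : s59t_Delta M H₁)))
    (t η : MvPolynomial (s59w_AIdx N' ⊕ ℕ) 𝒪) (i₀ : s59w_TIdx N')
    (hid : s59t_actH N' aq hM H₁ t * s59t_actH N' aq hM H₁ t = s59t_actH N' aq hM H₁ t)
    (hη : s59t_actH N' aq hM H₁ (η * (MvPolynomial.X (Sum.inl (Sum.inl i₀)) ^ 2 -
      ((i₀.ell : MvPolynomial (s59w_AIdx N' ⊕ ℕ) 𝒪) + 1) ^ 2) * t) = s59t_actH N' aq hM H₁ t) :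
    s59t_actH N' aq hM H₂ t * s59t_actH N' aq hM H₂ t = s59t_actH N' aq hM H₂ t ∧
    s59t_TWFull (le_refl (Gamma0 M)) (s59t_GammaH_mono h12) B C
      (s59t_actH N' aq hM H₂ t) (s59t_actH N' aq hM H₁ t) := by
  classical
  haveI : Fact i₀.ell.Prime := ⟨i₀.prime⟩
  have hle : s48h_GammaH M H₁ ≤ s48h_GammaH M H₂ := s59t_GammaH_mono h12
  have hPF₂ : s59t_PF M H₂ := fun γ h => hle (hPF₁ γ h)
  have hneg₂ : (-1 : SL(2, ℤ)) ∈ s48h_GammaH M H₂ := hle hneg₁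
  have hΔ₂ : IsPGroup p (s59t_Delta M H₂) :=
    hΔ₁.of_surjective _ (s59t_DeltaMap2_same_surjective h12)
  -- transfer of the identities
  have hid' : s59t_actH N' aq hM H₁ (t * t) = s59t_actH N' aq hM H₁ t := by
    rw [map_mul]; exact hid
  have hid₂ : s59t_actH N' aq hM H₂ t * s59t_actH N' aq hM H₂ t = s59t_actH N' aq hM H₂ t := by
    rw [← map_mul]; exact s59t_actH_transfer aq hM hle hid'
  have hid₀ : s59t_act0 aq hM t * s59t_act0 aq hM t = s59t_act0 aq hM t := by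
    rw [← map_mul]; exact s59t_act0_transfer aq hM H₁ hid'
  have hη₂ := s59t_actH_transfer aq hM hle hη
  have hη₀ := s59t_act0_transfer aq hM H₁ hη
  refine ⟨hid₂, ?_⟩
  have hτ : Function.Bijective (s59t_iotaH (s59t_act0 aq hM t) (s59t_act0 aq hM t)
      (s59t_res0Hpar (le_refl (Gamma0 M)) 𝒪 𝒪)) :=
    s59t_iotaH_self_bijective hid₀ _ (fun y => s59t_res0Hpar_self M 𝒪 𝒪 y)
  have key := s59t_control_top_inv (le_refl (Gamma0 M)) hle hPF₂ hPF₁ p hp2 hneg₂ hneg₁ hΔ₂ hΔ₁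
    B C hBC hφB hφC
    i₀.ell (s59t_TIdx_down hM i₀).ndvd (s59t_TIdx_down hM i₀).mem (s59t_TIdx_down hM i₀).lr
    (s59t_actH N' aq hM H₂ : MvPolynomial (s59w_AIdx N' ⊕ ℕ) 𝒪 →+* _)
    (s59t_act0 aq hM : MvPolynomial (s59w_AIdx N' ⊕ ℕ) 𝒪 →+* _)
    (fun t y => s59t_actH_res aq hM H₂ t y) (fun t x => s59t_actH_cor aq hM H₂ hPF₂ t x)
    (fun t δ x => s59t_actH_rho aq hM H₂ t δ x)
    (MvPolynomial.X (Sum.inl (Sum.inl i₀))) (s59t_actH_X N' aq hM H₂ _) (s59t_act0_X aq hM _)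
    t η hid₂ hid₀ hη₂ hη₀
    i₀.ell (s59t_TIdx_down hM i₀).ndvd (s59t_TIdx_down hM i₀).mem (s59t_TIdx_down hM i₀).lr
    (s59t_actH N' aq hM H₁ : MvPolynomial (s59w_AIdx N' ⊕ ℕ) 𝒪 →+* _)
    (s59t_act0 aq hM : MvPolynomial (s59w_AIdx N' ⊕ ℕ) 𝒪 →+* _)
    (fun t y => s59t_actH_res aq hM H₁ t y) (fun t x => s59t_actH_cor aq hM H₁ hPF₁ t x)
    (fun t δ x => s59t_actH_rho aq hM H₁ t δ x)
    (MvPolynomial.X (Sum.inl (Sum.inl i₀))) (s59t_actH_X N' aq hM H₁ _) (s59t_act0_X aq hM _)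
    t η hid hid₀ hη hη₀ hτ
  obtain ⟨d, b, b', π, hb, hb', hinj, hinv, hπ1, hπ2, hπ3⟩ := key
  exact s59t_TWFull_of_tail (le_refl (Gamma0 M)) hle B C hBC hφC _ _
    (fun δ y => s59t_actH_rho aq hM H₂ t δ y) (fun δ y => s59t_actH_rho aq hM H₁ t δ y)
    d b b' π hb hb' hinj hinv hπ1 hπ2 hπ3

end Same

end Fermat.Agent.Lib.S59
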