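/-
Programme (R) = S59, node (E) module half (helper8), file 73: **the type-1 comparison at the top
Taylor–Wiles level.**  `N' = N·D`, `H' = s59t_Hmul N D H K ≤ H₂' = s59t_Hmul N D ⊤ K`
(`Γ₀` at `N`, `Γ_K` at `D`):

* `s59t_TWFull.sat` : `ι` reflects divisibility by `𝔪` (its image, the invariants, is saturated);
* `s59t_CQ_BQ_bijective`, `s59t_top2_eq_one_iff`, `s59t_top2_BQ_bijective` : `C_Q` is the kernel of
  `Δ(N',H') → Δ(N',H₂')` and `B_Q` a complement;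
* `s59t_top2` : for ONE polynomial `t` which is a non-Eisenstein idempotent at `(N', H')`:
  idempotent at `(N', H₂')`, `s59t_TWFull` for `(N', H₂') ← (N', H')` with `B := C_Q`, `C := B_Q`,
  and topological nilpotence descends to `(N', H₂')`.
-/
import Mathlib
import Fermat.Agent.Lib.S59.TSame
import Fermat.Agent.Lib.S59.TLvlCong
import Fermat.Agent.Lib.S59.TLvlQ3

set_option autoImplicit false
set_option linter.unusedSectionVars false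
set_option linter.style.haveILetI false
set_option linter.unusedVariables false

noncomputable section

namespace Fermat.Agent.Lib.S59

open Matrix MatrixGroups CongruenceSubgroup IsLocalRing
open Fermat.Agent.Lib.S29 Fermat.Agent.Lib.S48 Fermat.Agent.Lib.S41

section Sat

variable {𝒪 : Type} [CommRing 𝒪] [IsDomain 𝒪] [IsDiscreteValuationRing 𝒪]
  [IsAdicComplete (maximalIdeal 𝒪) 𝒪] [Finite (ResidueField 𝒪)]
  {N N' : ℕ} [NeZero N] [NeZero N'] {H : Subgroup (ZMod N)ˣ} {H' : Subgroup (ZMod N')ˣ}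
  (h0 : Gamma0 N' ≤ Gamma0 N) (hle : s48h_GammaH N' H' ≤ s48h_GammaH N H)

theorem s59t_Hpar_smul_cancel {ϖ : 𝒪} (hϖ : ϖ ≠ 0) {G : Subgroup SL(2, ℤ)}
    (u v : s48h_Hpar 𝒪 G 𝒪) (h : ϖ • u = ϖ • v) : u = v := by
  apply Subtype.ext
  refine AddMonoidHom.ext fun g => ?_
  have h1 := DFunLike.congr_fun (congrArg Subtype.val h) g
  have h2 : ϖ * (u : Additive G →+ 𝒪) g = ϖ * (v : Additive G →+ 𝒪) g := h1
  exact mul_left_cancel₀ hϖ h2

set_option maxHeartbeats 1600000 in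
/-- **`ι` reflects divisibility by `𝔪`**: the image of `ι` (the `B`-invariants) is saturated. -/
theorem s59t_TWFull.sat {B C : Subgroup (s59t_Delta N' H')} [Fintype B] [Fintype C]
    {ε : Module.End 𝒪 (s48h_Hpar 𝒪 (s48h_GammaH N H) 𝒪)}
    {ε' : Module.End 𝒪 (s48h_Hpar 𝒪 (s48h_GammaH N' H') 𝒪)}
    (h : s59t_TWFull h0 hle B C ε ε') (hε' : ε' * ε' = ε')
    (hφB : ∀ β ∈ B, s59t_DeltaMap2 h0 hle β = 1) (x : s59t_part ε)
    (hx : ((s59t_iotaH ε ε' (s59t_resGHpar hle 𝒪 𝒪) x : s59t_part ε') :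
      s48h_Hpar 𝒪 (s48h_GammaH N' H') 𝒪) ∈
      (maximalIdeal 𝒪 • ⊤ : Submodule 𝒪 (s48h_Hpar 𝒪 (s48h_GammaH N' H') 𝒪))) :
    (x : s48h_Hpar 𝒪 (s48h_GammaH N H) 𝒪) ∈
      (maximalIdeal 𝒪 • ⊤ : Submodule 𝒪 (s48h_Hpar 𝒪 (s48h_GammaH N H) 𝒪)) := by
  obtain ⟨hρ, hρ', d, b, b', π, hb, hb', hinj, hinv, -⟩ := h
  obtain ⟨ϖ, hϖ⟩ := IsDiscreteValuationRing.exists_irreducible 𝒪
  have hm : maximalIdeal 𝒪 = Ideal.span {ϖ} :=
    (IsDiscreteValuationRing.irreducible_iff_uniformizer ϖ).mp hϖ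
  have hϖ0 : ϖ ≠ 0 := hϖ.ne_zero
  rw [hm, s59t_mem_span_smul_top] at hx ⊢
  obtain ⟨w, hw⟩ := hx
  have hιε : ε' ((s59t_iotaH ε ε' (s59t_resGHpar hle 𝒪 𝒪) x : s59t_part ε') :
      s48h_Hpar 𝒪 (s48h_GammaH N' H') 𝒪) =
      ((s59t_iotaH ε ε' (s59t_resGHpar hle 𝒪 𝒪) x : s59t_part ε') :
      s48h_Hpar 𝒪 (s48h_GammaH N' H') 𝒪) :=
    (s59t_mem_part hε' _).mp (s59t_iotaH ε ε' (s59t_resGHpar hle 𝒪 𝒪) x).2
  have hwε : ε' w = w := by
    apply s59t_Hpar_smul_cancel hϖ0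
    rw [← map_smul, ← hw, hιε]
  obtain ⟨w', hw'⟩ : ∃ w' : s59t_part ε', (w' : s48h_Hpar 𝒪 (s48h_GammaH N' H') 𝒪) = w :=
    ⟨⟨w, (s59t_mem_part hε' w).mpr hwε⟩, rfl⟩
  have hinvw : ∀ β ∈ B, s59t_partRep (s59t_rho N' H' 𝒪 𝒪) hρ' β w' = w' := by
    intro β hβ
    apply Subtype.ext
    apply s59t_Hpar_smul_cancel hϖ0
    rw [s59t_partRep_coe, hw', ← map_smul, ← hw]
    have h1 := s59t_iotaH_partRep h0 hle hρ hρ' β x
    rw [hφB β hβ, map_one] at h1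
    have h2 := congrArg Subtype.val h1
    rw [s59t_partRep_coe] at h2
    exact h2.symm
  obtain ⟨x', hx'⟩ := hinv w' hinvw
  have hxx : x = ϖ • x' := by
    apply hinj
    apply Subtype.ext
    rw [map_smul, Submodule.coe_smul, hx', hw', hw]
  exact ⟨(x' : s48h_Hpar 𝒪 (s48h_GammaH N H) 𝒪), by rw [hxx]; rfl⟩

end Sat

/-! ### The groups -/

section Groups

variable {N D : ℕ} [NeZero N] [NeZero D] [NeZero (N * D)] {H : Subgroup (ZMod N)ˣ}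
  {K : Subgroup (ZMod D)ˣ}

theorem s59t_Hmul_le_top : s59t_Hmul N D H K ≤ s59t_Hmul N D ⊤ K :=
  inf_le_inf_right _ (Subgroup.comap_mono le_top)

/-- `C_Q × B_Q → Δ'` is bijective. -/
theorem s59t_CQ_BQ_bijective (hcop : N.Coprime D) :
    Function.Bijective (fun x : s59t_CQ N D H K × s59t_BQ N D H K =>
      ((x.1 : s59t_Delta (N * D) (s59t_Hmul N D H K)) * (x.2 : _))) := by
  have h := s59t_BQ_CQ_bijective (N := N) (D := D) (H := H) (K := K) hcop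
  constructor
  · rintro ⟨γ, β⟩ ⟨γ', β'⟩ hxy
    have h1 : (β : s59t_Delta (N * D) (s59t_Hmul N D H K)) * γ = β' * γ' := by
      have h2 : (γ : s59t_Delta (N * D) (s59t_Hmul N D H K)) * β = γ' * β' := hxy
      exact (mul_comm _ _).trans (h2.trans (mul_comm _ _))
    have h3 := h.1 (a₁ := (β, γ)) (a₂ := (β', γ')) h1
    rw [Prod.mk.injEq] at h3
    rw [h3.1, h3.2]
  · intro δ
    obtain ⟨⟨β, γ⟩, hβγ⟩ := h.2 δ
    refine ⟨(γ, β), ?_⟩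
    show (γ : s59t_Delta (N * D) (s59t_Hmul N D H K)) * β = δ
    exact (mul_comm _ _).trans hβγ

/-- the kernel of `Δ(N', H') → Δ(N', H₂')` is `C_Q`. -/
theorem s59t_top2_eq_one_iff (δ : s59t_Delta (N * D) (s59t_Hmul N D H K)) :
    s59t_DeltaMap2 (le_refl (Gamma0 (N * D)))
      (s59t_GammaH_mono (s59t_Hmul_le_top (N := N) (D := D) (H := H) (K := K))) δ = 1 ↔
      δ ∈ s59t_CQ N D H K := by
  obtain ⟨τ, rfl⟩ := QuotientGroup.mk_surjective δ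
  rw [s59t_CQ, MonoidHom.mem_ker, s59t_phiD_eq_one_iff, s59t_DeltaMap2_mk, ← s59t_mem_iff_mk]
  show (τ : SL(2, ℤ)) ∈ s48h_GammaH (N * D) (s59t_Hmul N D ⊤ K) ↔ _
  rw [s59t_mem_GammaH_iff_unit, s59t_mem_Hmul]
  exact ⟨fun h => h.2, fun h => ⟨Subgroup.mem_top _, h⟩⟩

/-- `B_Q` maps bijectively onto `Δ(N', H₂')`. -/
theorem s59t_top2_BQ_bijective (hcop : N.Coprime D) :
    Function.Bijective (fun β : s59t_BQ N D H K =>
      s59t_DeltaMap2 (le_refl (Gamma0 (N * D)))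
        (s59t_GammaH_mono (s59t_Hmul_le_top (N := N) (D := D) (H := H) (K := K)))
        (β : s59t_Delta (N * D) (s59t_Hmul N D H K))) := by
  constructor
  · intro β β' h
    have h1 : s59t_DeltaMap2 (le_refl (Gamma0 (N * D)))
        (s59t_GammaH_mono (s59t_Hmul_le_top (N := N) (D := D) (H := H) (K := K)))
        ((β : s59t_Delta (N * D) (s59t_Hmul N D H K)) *
        ((β' : s59t_Delta (N * D) (s59t_Hmul N D H K)))⁻¹) = 1 := by
      rw [map_mul, map_inv, mul_inv_eq_one]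
      exact h
    rw [s59t_top2_eq_one_iff] at h1
    have h2 := s59t_BQ_inf_CQ _ (mul_mem β.2 (inv_mem β'.2)) h1
    exact Subtype.ext (mul_inv_eq_one.mp h2)
  · intro δ
    obtain ⟨τ, rfl⟩ := QuotientGroup.mk_surjective δ
    obtain ⟨σ, hσ₁, hσ₂⟩ := s59t_exists_class (N := N) (D := D) hcop 1
      (ZMod.unitsMap (s59t_dvd_mul_right' N D) (s59t_unitHom (N * D) τ))
    have hB : (QuotientGroup.mk σ : s59t_Delta (N * D) (s59t_Hmul N D H K)) ∈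
        s59t_BQ N D H K := by
      rw [s59t_BQ, MonoidHom.mem_ker, s59t_phiN_eq_one_iff, hσ₁]
      exact one_mem H
    refine ⟨⟨_, hB⟩, ?_⟩
    show s59t_DeltaMap2 (le_refl (Gamma0 (N * D)))
        (s59t_GammaH_mono (s59t_Hmul_le_top (N := N) (D := D) (H := H) (K := K)))
        (QuotientGroup.mk σ) = QuotientGroup.mk τ
    rw [s59t_DeltaMap2_mk, QuotientGroup.eq, Subgroup.mem_subgroupOf]
    show ((⟨(σ : SL(2, ℤ)), σ.2⟩ : Gamma0 (N * D))⁻¹ * τ : Gamma0 (N * D)).1 ∈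
      s48h_GammaH (N * D) (s59t_Hmul N D ⊤ K)
    rw [s59t_mem_GammaH_iff_unit, s59t_mem_Hmul]
    refine ⟨Subgroup.mem_top _, ?_⟩
    rw [map_mul, map_mul, map_inv, map_inv]
    have hσ' : (⟨(σ : SL(2, ℤ)), σ.2⟩ : Gamma0 (N * D)) = σ := rfl
    rw [hσ', hσ₂, inv_mul_cancel]
    exact one_mem K

end Groups

section Top2

variable {𝒪 : Type} [CommRing 𝒪] [IsDomain 𝒪] [IsDiscreteValuationRing 𝒪]
  [IsAdicComplete (maximalIdeal 𝒪) 𝒪] [Finite (ResidueField 𝒪)] [CharZero 𝒪]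
  (p : ℕ) [hp : Fact p.Prime] [CharP (ResidueField 𝒪) p]
  {N D : ℕ} [NeZero N] [NeZero D] [NeZero (N * D)] (H : Subgroup (ZMod N)ˣ)
  (K : Subgroup (ZMod D)ˣ)

theorem s59t_actH_pow_sub_mul {M : ℕ} [NeZero M] (Hx : Subgroup (ZMod M)ˣ) (aq : ℕ → 𝒪)
    (t : MvPolynomial (s59w_AIdx M ⊕ ℕ) 𝒪) (x : s59w_AIdx M) (cx : 𝒪) (k : ℕ) :
    s59t_actH M aq (dvd_refl M) Hx
      ((MvPolynomial.X (Sum.inl x) - MvPolynomial.C cx) ^ k * t) =
    (s59w_op Hx 𝒪 x - cx • (1 : Module.End 𝒪 (s48h_Hpar 𝒪 (s48h_GammaH M Hx) 𝒪))) ^ k *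
      s59t_actH M aq (dvd_refl M) Hx t := by
  have h2 : s59t_actH M aq (dvd_refl M) Hx (MvPolynomial.C cx) =
      cx • (1 : Module.End 𝒪 (s48h_Hpar 𝒪 (s48h_GammaH M Hx) 𝒪)) := s59t_polyAct_C _ _ _
  rw [map_mul, map_pow, map_sub, s59t_actH_X, s59t_opH_inl, s59t_AIdx_down_self, h2]

include hp in
set_option maxHeartbeats 3200000 in
/-- **the type-1 comparison at the top level** `(N', H₂') ← (N', H')`, `H₂' = s59t_Hmul N D ⊤ K`,
for ONE polynomial `t`. -/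
theorem s59t_top2 (hp12 : Nat.Coprime p 12) (hsq' : Squarefree (N * D))
    (hnegH' : (-1 : (ZMod (N * D))ˣ) ∈ s59t_Hmul N D H K)
    (hH' : ∀ u : (ZMod (N * D))ˣ, ∃ k : ℕ, u ^ (p ^ k) ∈ s59t_Hmul N D H K)
    (hcop : N.Coprime D) (aq : ℕ → 𝒪)
    (t η : MvPolynomial (s59w_AIdx (N * D) ⊕ ℕ) 𝒪) (i₀ : s59w_TIdx (N * D))
    (hid : s59t_actH (N * D) aq (dvd_refl _) (s59t_Hmul N D H K) t *
      s59t_actH (N * D) aq (dvd_refl _) (s59t_Hmul N D H K) t =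
      s59t_actH (N * D) aq (dvd_refl _) (s59t_Hmul N D H K) t)
    (hη : s59t_actH (N * D) aq (dvd_refl _) (s59t_Hmul N D H K)
      (η * (MvPolynomial.X (Sum.inl (Sum.inl i₀)) ^ 2 -
        ((i₀.ell : MvPolynomial (s59w_AIdx (N * D) ⊕ ℕ) 𝒪) + 1) ^ 2) * t) =
      s59t_actH (N * D) aq (dvd_refl _) (s59t_Hmul N D H K) t) :
    s59t_actH (N * D) aq (dvd_refl _) (s59t_Hmul N D ⊤ K) t *
      s59t_actH (N * D) aq (dvd_refl _) (s59t_Hmul N D ⊤ K) t =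
      s59t_actH (N * D) aq (dvd_refl _) (s59t_Hmul N D ⊤ K) t ∧
    s59t_TWFull (le_refl (Gamma0 (N * D)))
      (s59t_GammaH_mono (s59t_Hmul_le_top (N := N) (D := D) (H := H) (K := K)))
      (s59t_CQ N D H K) (s59t_BQ N D H K)
      (s59t_actH (N * D) aq (dvd_refl _) (s59t_Hmul N D ⊤ K) t)
      (s59t_actH (N * D) aq (dvd_refl _) (s59t_Hmul N D H K) t) ∧
    (∀ (x : s59w_AIdx (N * D)) (cx : 𝒪),
      (∃ k : ℕ, ∀ y : s48h_Hpar 𝒪 (s48h_GammaH (N * D) (s59t_Hmul N D H K)) 𝒪,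
        ((s59w_op (s59t_Hmul N D H K) 𝒪 x - cx •
          (1 : Module.End 𝒪 (s48h_Hpar 𝒪 (s48h_GammaH (N * D) (s59t_Hmul N D H K)) 𝒪))) ^ k)
          (s59t_actH (N * D) aq (dvd_refl _) (s59t_Hmul N D H K) t y) ∈
          (maximalIdeal 𝒪 • ⊤ :
            Submodule 𝒪 (s48h_Hpar 𝒪 (s48h_GammaH (N * D) (s59t_Hmul N D H K)) 𝒪))) →
      ∃ k : ℕ, ∀ y : s48h_Hpar 𝒪 (s48h_GammaH (N * D) (s59t_Hmul N D ⊤ K)) 𝒪,
        ((s59w_op (s59t_Hmul N D ⊤ K) 𝒪 x - cx •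
          (1 : Module.End 𝒪 (s48h_Hpar 𝒪 (s48h_GammaH (N * D) (s59t_Hmul N D ⊤ K)) 𝒪))) ^ k)
          (s59t_actH (N * D) aq (dvd_refl _) (s59t_Hmul N D ⊤ K) t y) ∈
          (maximalIdeal 𝒪 • ⊤ :
            Submodule 𝒪 (s48h_Hpar 𝒪 (s48h_GammaH (N * D) (s59t_Hmul N D ⊤ K)) 𝒪))) := by
  classical
  have hp2 : p ≠ 2 := by
    rintro rfl
    norm_num at hp12
  have hle : s48h_GammaH (N * D) (s59t_Hmul N D H K) ≤ s48h_GammaH (N * D) (s59t_Hmul N D ⊤ K) :=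
    s59t_GammaH_mono (s59t_Hmul_le_top (N := N) (D := D) (H := H) (K := K))
  have hneg' : (-1 : SL(2, ℤ)) ∈ s48h_GammaH (N * D) (s59t_Hmul N D H K) :=
    s59t_neg_one_mem_GammaH_of _ hnegH'
  have hPF' : s59t_PF (N * D) (s59t_Hmul N D H K) := s59t_PF_of_pgroup p hp12 hsq' hnegH' hH'
  have hφB : ∀ β ∈ s59t_CQ N D H K, s59t_DeltaMap2 (le_refl (Gamma0 (N * D)))
      (s59t_GammaH_mono (s59t_Hmul_le_top (N := N) (D := D) (H := H) (K := K))) β = 1 :=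
    fun β hβ => (s59t_top2_eq_one_iff β).mpr hβ
  obtain ⟨hid₂, hfull⟩ := s59t_same_level aq (dvd_refl (N * D))
    (s59t_Hmul_le_top (N := N) (D := D) (H := H) (K := K)) p hp2 hPF' hneg'
    (s59t_Delta_isPGroup p hH') (s59t_CQ N D H K) (s59t_BQ N D H K)
    (s59t_CQ_BQ_bijective hcop) hφB (s59t_top2_BQ_bijective hcop) t η i₀ hid hη
  refine ⟨hid₂, hfull, ?_⟩
  rintro x cx ⟨k, hk⟩
  refine ⟨k, fun y => ?_⟩
  -- the element of the `ε₂`-part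
  obtain ⟨P, hP⟩ : ∃ P : MvPolynomial (s59w_AIdx (N * D) ⊕ ℕ) 𝒪,
      P = (MvPolynomial.X (Sum.inl x) - MvPolynomial.C cx) ^ k * t := ⟨_, rfl⟩
  have hP₂ := s59t_actH_pow_sub_mul (s59t_Hmul N D ⊤ K) aq t x cx k
  have hP₁ := s59t_actH_pow_sub_mul (s59t_Hmul N D H K) aq t x cx k
  rw [← hP] at hP₂ hP₁
  have hmem : s59t_actH (N * D) aq (dvd_refl _) (s59t_Hmul N D ⊤ K) P y ∈
      s59t_part (s59t_actH (N * D) aq (dvd_refl _) (s59t_Hmul N D ⊤ K) t) := by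
    refine ⟨s59t_actH (N * D) aq (dvd_refl _) (s59t_Hmul N D ⊤ K)
      ((MvPolynomial.X (Sum.inl x) - MvPolynomial.C cx) ^ k) y, ?_⟩
    rw [← Module.End.mul_apply, ← map_mul, hP, mul_comm t]
  have hgoal : ((s59w_op (s59t_Hmul N D ⊤ K) 𝒪 x - cx •
      (1 : Module.End 𝒪 (s48h_Hpar 𝒪 (s48h_GammaH (N * D) (s59t_Hmul N D ⊤ K)) 𝒪))) ^ k)
      (s59t_actH (N * D) aq (dvd_refl _) (s59t_Hmul N D ⊤ K) t y) =
      s59t_actH (N * D) aq (dvd_refl _) (s59t_Hmul N D ⊤ K) P y := by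
    rw [hP₂, Module.End.mul_apply]
  rw [hgoal]
  refine s59t_TWFull.sat (le_refl (Gamma0 (N * D))) hle hfull hid hφB
    ⟨s59t_actH (N * D) aq (dvd_refl _) (s59t_Hmul N D ⊤ K) P y, hmem⟩ ?_
  rw [s59t_iotaH_coe]
  show s59t_actH (N * D) aq (dvd_refl _) (s59t_Hmul N D H K) t
    (s59t_resGHpar hle 𝒪 𝒪 (s59t_actH (N * D) aq (dvd_refl _) (s59t_Hmul N D ⊤ K) P y)) ∈ _
  rw [s59t_actH_resG_same aq (dvd_refl (N * D)) hle, ← Module.End.mul_apply, ← map_mul,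
    mul_comm t P, map_mul, hP₁, mul_assoc, hid, Module.End.mul_apply]
  exact hk _

end Top2

end Fermat.Agent.Lib.S59
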