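/-
Programme (R) = S59, node (E) module half (helper8), file 74: **the concrete level package.**
`s59t_level_pkg` = `s59t_TW_level` (control `(N, H) ← (N', H')` over the FIXED base idempotent
`s59t_E0 H Bset e`) + `s59t_top2` (type-1 comparison `(N', H₂') ← (N', H')` for the SAME polynomial),
+ `s59t_TWFull.ne_zero_iff` (`ε ≠ 0 ↔ ε' ≠ 0`).
-/
import Mathlib
import Fermat.Agent.Lib.S59.TLvl2
import Fermat.Agent.Lib.S59.TBase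

set_option autoImplicit false
set_option linter.unusedSectionVars false
set_option linter.style.haveILetI false
set_option linter.unusedVariables false

noncomputable section

namespace Fermat.Agent.Lib.S59

open Matrix MatrixGroups CongruenceSubgroup IsLocalRing
open Fermat.Agent.Lib.S29 Fermat.Agent.Lib.S48 Fermat.Agent.Lib.S41

section NeZero

variable {k : Type*} [CommRing k] [Nontrivial k] {Δ : Type*} [Group Δ] [Fintype Δ]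
  {Y : Type*} [AddCommGroup Y] [Module k Y]

/-- a part which is free of rank `d` over `k[Δ]` is `≠ 0` iff `d ≠ 0`. -/
theorem s59t_part_ne_zero_iff {ε : Module.End k Y} (ρ : Δ →* Module.End k (s59t_part ε)) {d : ℕ}
    (b : Fin d → s59t_part ε) (hb : Function.Bijective (s59t_evalMap ρ b)) :
    ε ≠ 0 ↔ d ≠ 0 := by
  constructor
  · intro hε hd
    subst hd
    apply hε
    refine LinearMap.ext fun y => ?_
    obtain ⟨c, hc⟩ := hb.2 ⟨ε y, ⟨y, rfl⟩⟩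
    have hc0 : c = 0 := Subsingleton.elim _ _
    rw [hc0, map_zero] at hc
    exact (congrArg Subtype.val hc).symm
  · intro hd hε
    obtain ⟨i⟩ : Nonempty (Fin d) := ⟨⟨0, Nat.pos_of_ne_zero hd⟩⟩
    classical
    have h1 : s59t_evalMap ρ b (fun j δ => if j = i ∧ δ = 1 then (1 : k) else 0) = 0 := by
      obtain ⟨z, hz⟩ := (s59t_evalMap ρ b (fun j δ => if j = i ∧ δ = 1 then (1 : k) else 0)).2
      apply Subtype.ext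
      rw [← hz, hε]
      rfl
    have h2 := hb.1 (h1.trans (map_zero _).symm)
    have h3 := congrFun (congrFun h2 i) 1
    simp at h3

end NeZero

section Pkg

variable {𝒪 : Type} [CommRing 𝒪] [IsDomain 𝒪] [IsDiscreteValuationRing 𝒪]
  [IsAdicComplete (maximalIdeal 𝒪) 𝒪] [Finite (ResidueField 𝒪)] [CharZero 𝒪]
  {N N' : ℕ} [NeZero N] [NeZero N'] {H : Subgroup (ZMod N)ˣ} {H' : Subgroup (ZMod N')ˣ}
  (h0 : Gamma0 N' ≤ Gamma0 N) (hle : s48h_GammaH N' H' ≤ s48h_GammaH N H)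

/-- in a Taylor–Wiles pair the two parts vanish simultaneously. -/
theorem s59t_TWFull.ne_zero_iff {B C : Subgroup (s59t_Delta N' H')} [Fintype B] [Fintype C]
    {ε : Module.End 𝒪 (s48h_Hpar 𝒪 (s48h_GammaH N H) 𝒪)}
    {ε' : Module.End 𝒪 (s48h_Hpar 𝒪 (s48h_GammaH N' H') 𝒪)}
    (h : s59t_TWFull h0 hle B C ε ε') : ε ≠ 0 ↔ ε' ≠ 0 := by
  obtain ⟨hρ, hρ', d, b, b', π, hb, hb', -⟩ := h
  rw [s59t_part_ne_zero_iff _ b hb, s59t_part_ne_zero_iff _ b' hb']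

end Pkg

section Level

variable {𝒪 : Type} [CommRing 𝒪] [IsDomain 𝒪] [IsDiscreteValuationRing 𝒪]
  [IsAdicComplete (maximalIdeal 𝒪) 𝒪] [Finite (ResidueField 𝒪)] [CharZero 𝒪]
  (p : ℕ) [hp : Fact p.Prime] [CharP (ResidueField 𝒪) p] [Algebra ℤ_[p] 𝒪]
  {N : ℕ} [NeZero N] (H : Subgroup (ZMod N)ˣ) (Bset : Finset ℕ) (a : ℕ → ℤ)
  (n : ℕ) {r : ℕ} (qv : Fin r → ℕ) [NeZero (∏ j, qv j)] [NeZero (N * ∏ j, qv j)]

include hp in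
set_option maxHeartbeats 6400000 in
/-- **the concrete level package**: the Taylor–Wiles level `(N', H')`, `N' = N ∏ qv`,
`H' = s59t_Hmul N (∏ qv) H (s59t_KQ (p^n) qv)`, over the fixed base part `s59t_E0 H Bset e`, and the
type-1 level `(N', H₂')`, `H₂' = s59t_Hmul N (∏ qv) ⊤ (s59t_KQ (p^n) qv)`, for the SAME polynomial
`G * jG e₀`. -/
theorem s59t_level_pkg (hp12 : Nat.Coprime p 12)
    (hsq : Squarefree N) (hsq' : Squarefree (N * ∏ j, qv j))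
    (S37 : s59b_S37H N H) (hN1 : 1 < N) (hnegH : (-1 : (ZMod N)ˣ) ∈ H)
    (hp𝒪 : (p : 𝒪) ∈ maximalIdeal 𝒪) (hpB : p ∈ Bset)
    (hH : ∀ u : (ZMod N)ˣ, ∃ k : ℕ, u ^ (p ^ k) ∈ H)
    (hoccH : ∃ v : s48h_Hpar 𝒪 (s48h_GammaH N H) 𝒪,
      v ∉ (maximalIdeal 𝒪 • ⊤ : Submodule 𝒪 (s48h_Hpar 𝒪 (s48h_GammaH N H) 𝒪)) ∧
      (∀ i : s59w_TIdx N, i.ell ∉ Bset →
        s59w_op H 𝒪 (Sum.inl i) v - ((a i.ell : ℤ) : 𝒪) • v ∈
          (maximalIdeal 𝒪 • ⊤ : Submodule 𝒪 (s48h_Hpar 𝒪 (s48h_GammaH N H) 𝒪))) ∧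
      (∀ τ : Gamma0 N, s59w_op H 𝒪 (Sum.inr τ) v - v ∈
          (maximalIdeal 𝒪 • ⊤ : Submodule 𝒪 (s48h_Hpar 𝒪 (s48h_GammaH N H) 𝒪))))
    (hocc0 : ∃ v : s29h_Hpar 𝒪 N 𝒪,
      v ∉ (maximalIdeal 𝒪 • ⊤ : Submodule 𝒪 (s29h_Hpar 𝒪 N 𝒪)) ∧
      ∀ (ℓ : ℕ) [Fact ℓ.Prime], ¬ ℓ ∣ N → ℓ ∉ Bset →
        s29h_heckeHpar N ℓ 𝒪 𝒪 v - ((a ℓ : ℤ) : 𝒪) • v ∈
          (maximalIdeal 𝒪 • ⊤ : Submodule 𝒪 (s29h_Hpar 𝒪 N 𝒪)))
    (hcop : N.Coprime (∏ j, qv j)) (hqinj : Function.Injective qv) (hqp : ∀ j, (qv j).Prime)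
    (aq bq : ℕ → 𝒪)
    (harith : ∀ j, IsUnit (bq (qv j) - aq (qv j)) ∧
      ((qv j : ℕ) : 𝒪) - aq (qv j) * bq (qv j) ∈ maximalIdeal 𝒪 ∧
      IsUnit (1 - aq (qv j) ^ 2) ∧ IsUnit (1 - bq (qv j) ^ 2))
    (i₀ : s59w_TIdx (N * ∏ j, qv j)) (hi₀ : i₀.ell ∉ Bset)
    (hnE : IsUnit ((((a i₀.ell : ℤ) : 𝒪)) ^ 2 - ((i₀.ell : 𝒪) + 1) ^ 2))
    (hTQ : ∀ (M : ℕ) (hM : M ∣ N * ∏ j, qv j), ∀ q ∈ List.ofFn qv, ∀ [Fact q.Prime], ¬ q ∣ M →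
      ∀ e₀ : MvPolynomial ↥(s59t_goodB (N * ∏ j, qv j) Bset) 𝒪,
        1 - e₀ ∈ s59t_evalIdeal (fun x : ↥(s59t_goodB (N * ∏ j, qv j) Bset) =>
          s59t_cB (𝒪 := 𝒪) (N * ∏ j, qv j) a x) →
        s59t_act0 aq hM (s59t_jG 𝒪 (s59t_goodB (N * ∏ j, qv j) Bset) e₀) *
          s59t_act0 aq hM (s59t_jG 𝒪 (s59t_goodB (N * ∏ j, qv j) Bset) e₀) =
          s59t_act0 aq hM (s59t_jG 𝒪 (s59t_goodB (N * ∏ j, qv j) Bset) e₀) →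
        (∀ x : ↥(s59t_goodB (N * ∏ j, qv j) Bset), ∃ k : ℕ, ∀ y : s29h_Hpar 𝒪 M 𝒪,
          ((s59t_op0 (N * ∏ j, qv j) aq M (Sum.inl (x : s59w_AIdx (N * ∏ j, qv j))) -
            s59t_cB (𝒪 := 𝒪) (N * ∏ j, qv j) a x •
              (1 : Module.End 𝒪 (s29h_Hpar 𝒪 M 𝒪))) ^ k)
            (s59t_act0 aq hM (s59t_jG 𝒪 (s59t_goodB (N * ∏ j, qv j) Bset) e₀) y) ∈
            (maximalIdeal 𝒪 • ⊤ : Submodule 𝒪 (s29h_Hpar 𝒪 M 𝒪))) →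
        ∃ k : ℕ, ∀ y : s29h_Hpar 𝒪 M 𝒪,
          ((s29h_heckeHpar M q 𝒪 𝒪 - (aq q + bq q) • (1 : Module.End 𝒪 (s29h_Hpar 𝒪 M 𝒪))) ^ k)
            (s59t_act0 aq hM (s59t_jG 𝒪 (s59t_goodB (N * ∏ j, qv j) Bset) e₀) y) ∈
            (maximalIdeal 𝒪 • ⊤ : Submodule 𝒪 (s29h_Hpar 𝒪 M 𝒪)))
    (e : MvPolynomial ↥(s59t_goodB N Bset) 𝒪)
    (h1e : 1 - e ∈ s59t_evalIdeal (fun x : ↥(s59t_goodB N Bset) =>
      s59t_cB (𝒪 := 𝒪) N a (x : s59w_AIdx N)))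
    (hid : s59t_E0 H Bset e * s59t_E0 H Bset e = s59t_E0 H Bset e)
    (hnil : ∀ x ∈ s59t_goodB N Bset, ∃ k : ℕ, ∀ y : s48h_Hpar 𝒪 (s48h_GammaH N H) 𝒪,
      ((s59w_op H 𝒪 x - s59t_cB (𝒪 := 𝒪) N a x •
        (1 : Module.End 𝒪 (s48h_Hpar 𝒪 (s48h_GammaH N H) 𝒪))) ^ k)
        (s59t_E0 H Bset e y) ∈
        (maximalIdeal 𝒪 • ⊤ : Submodule 𝒪 (s48h_Hpar 𝒪 (s48h_GammaH N H) 𝒪))) :
    ∃ (e₀ : MvPolynomial ↥(s59t_goodB (N * ∏ j, qv j) Bset) 𝒪)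
      (G : MvPolynomial (s59w_AIdx (N * ∏ j, qv j) ⊕ ℕ) 𝒪),
      1 - e₀ ∈ s59t_evalIdeal (fun x : ↥(s59t_goodB (N * ∏ j, qv j) Bset) =>
        s59t_cB (𝒪 := 𝒪) (N * ∏ j, qv j) a x) ∧
      -- invertibility of everything outside the maximal ideal, on the `ε'`-part
      (∀ t : MvPolynomial ↥(s59t_goodB (N * ∏ j, qv j) Bset) 𝒪,
        t ∉ s59t_evalIdeal (fun x : ↥(s59t_goodB (N * ∏ j, qv j) Bset) =>
          s59t_cB (𝒪 := 𝒪) (N * ∏ j, qv j) a x) →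
        ∃ η : MvPolynomial ↥(s59t_goodB (N * ∏ j, qv j) Bset) 𝒪,
          s59t_actH (N * ∏ j, qv j) aq (dvd_refl _)
            (s59t_Hmul N (∏ j, qv j) H (s59t_KQ (p ^ n) qv))
            (s59t_jG 𝒪 (s59t_goodB (N * ∏ j, qv j) Bset) (η * t) *
              (G * s59t_jG 𝒪 (s59t_goodB (N * ∏ j, qv j) Bset) e₀)) =
          s59t_actH (N * ∏ j, qv j) aq (dvd_refl _)
            (s59t_Hmul N (∏ j, qv j) H (s59t_KQ (p ^ n) qv))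
            (G * s59t_jG 𝒪 (s59t_goodB (N * ∏ j, qv j) Bset) e₀)) ∧
      -- the Taylor–Wiles level `(N', H')`
      s59t_actH (N * ∏ j, qv j) aq (dvd_refl _) (s59t_Hmul N (∏ j, qv j) H (s59t_KQ (p ^ n) qv))
          (G * s59t_jG 𝒪 (s59t_goodB (N * ∏ j, qv j) Bset) e₀) *
        s59t_actH (N * ∏ j, qv j) aq (dvd_refl _)
          (s59t_Hmul N (∏ j, qv j) H (s59t_KQ (p ^ n) qv))
          (G * s59t_jG 𝒪 (s59t_goodB (N * ∏ j, qv j) Bset) e₀) =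
        s59t_actH (N * ∏ j, qv j) aq (dvd_refl _)
          (s59t_Hmul N (∏ j, qv j) H (s59t_KQ (p ^ n) qv))
          (G * s59t_jG 𝒪 (s59t_goodB (N * ∏ j, qv j) Bset) e₀) ∧
      (∀ x ∈ s59t_goodB (N * ∏ j, qv j) Bset, ∃ k : ℕ,
        ∀ y : s48h_Hpar 𝒪 (s48h_GammaH (N * ∏ j, qv j)
          (s59t_Hmul N (∏ j, qv j) H (s59t_KQ (p ^ n) qv))) 𝒪,
        ((s59w_op (s59t_Hmul N (∏ j, qv j) H (s59t_KQ (p ^ n) qv)) 𝒪 x -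
          s59t_cB (𝒪 := 𝒪) (N * ∏ j, qv j) a x •
            (1 : Module.End 𝒪 (s48h_Hpar 𝒪 (s48h_GammaH (N * ∏ j, qv j)
              (s59t_Hmul N (∏ j, qv j) H (s59t_KQ (p ^ n) qv))) 𝒪))) ^ k)
          (s59t_actH (N * ∏ j, qv j) aq (dvd_refl _)
            (s59t_Hmul N (∏ j, qv j) H (s59t_KQ (p ^ n) qv))
            (G * s59t_jG 𝒪 (s59t_goodB (N * ∏ j, qv j) Bset) e₀) y) ∈
          (maximalIdeal 𝒪 • ⊤ : Submodule 𝒪 (s48h_Hpar 𝒪 (s48h_GammaH (N * ∏ j, qv j)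
              (s59t_Hmul N (∏ j, qv j) H (s59t_KQ (p ^ n) qv))) 𝒪))) ∧
      s59t_TWFull (s59t_Gamma0_anti (s59t_dvd_mul_left' N (∏ j, qv j)))
        (s59t_GammaHmul_le (N := N) (D := ∏ j, qv j) (H := H) (K := s59t_KQ (p ^ n) qv))
        (s59t_BQ N (∏ j, qv j) H (s59t_KQ (p ^ n) qv))
        (s59t_CQ N (∏ j, qv j) H (s59t_KQ (p ^ n) qv))
        (s59t_E0 H Bset e)
        (s59t_actH (N * ∏ j, qv j) aq (dvd_refl _)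
          (s59t_Hmul N (∏ j, qv j) H (s59t_KQ (p ^ n) qv))
          (G * s59t_jG 𝒪 (s59t_goodB (N * ∏ j, qv j) Bset) e₀)) ∧
      -- the type-1 level `(N', H₂')`, same polynomial
      s59t_actH (N * ∏ j, qv j) aq (dvd_refl _) (s59t_Hmul N (∏ j, qv j) ⊤ (s59t_KQ (p ^ n) qv))
          (G * s59t_jG 𝒪 (s59t_goodB (N * ∏ j, qv j) Bset) e₀) *
        s59t_actH (N * ∏ j, qv j) aq (dvd_refl _)
          (s59t_Hmul N (∏ j, qv j) ⊤ (s59t_KQ (p ^ n) qv))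
          (G * s59t_jG 𝒪 (s59t_goodB (N * ∏ j, qv j) Bset) e₀) =
        s59t_actH (N * ∏ j, qv j) aq (dvd_refl _)
          (s59t_Hmul N (∏ j, qv j) ⊤ (s59t_KQ (p ^ n) qv))
          (G * s59t_jG 𝒪 (s59t_goodB (N * ∏ j, qv j) Bset) e₀) ∧
      (∀ x ∈ s59t_goodB (N * ∏ j, qv j) Bset, ∃ k : ℕ,
        ∀ y : s48h_Hpar 𝒪 (s48h_GammaH (N * ∏ j, qv j)
          (s59t_Hmul N (∏ j, qv j) ⊤ (s59t_KQ (p ^ n) qv))) 𝒪,
        ((s59w_op (s59t_Hmul N (∏ j, qv j) ⊤ (s59t_KQ (p ^ n) qv)) 𝒪 x -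
          s59t_cB (𝒪 := 𝒪) (N * ∏ j, qv j) a x •
            (1 : Module.End 𝒪 (s48h_Hpar 𝒪 (s48h_GammaH (N * ∏ j, qv j)
              (s59t_Hmul N (∏ j, qv j) ⊤ (s59t_KQ (p ^ n) qv))) 𝒪))) ^ k)
          (s59t_actH (N * ∏ j, qv j) aq (dvd_refl _)
            (s59t_Hmul N (∏ j, qv j) ⊤ (s59t_KQ (p ^ n) qv))
            (G * s59t_jG 𝒪 (s59t_goodB (N * ∏ j, qv j) Bset) e₀) y) ∈
          (maximalIdeal 𝒪 • ⊤ : Submodule 𝒪 (s48h_Hpar 𝒪 (s48h_GammaH (N * ∏ j, qv j)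
              (s59t_Hmul N (∏ j, qv j) ⊤ (s59t_KQ (p ^ n) qv))) 𝒪))) ∧
      s59t_TWFull (le_refl (Gamma0 (N * ∏ j, qv j)))
        (s59t_GammaH_mono (s59t_Hmul_le_top (N := N) (D := ∏ j, qv j) (H := H)
          (K := s59t_KQ (p ^ n) qv)))
        (s59t_CQ N (∏ j, qv j) H (s59t_KQ (p ^ n) qv))
        (s59t_BQ N (∏ j, qv j) H (s59t_KQ (p ^ n) qv))
        (s59t_actH (N * ∏ j, qv j) aq (dvd_refl _)
          (s59t_Hmul N (∏ j, qv j) ⊤ (s59t_KQ (p ^ n) qv))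
          (G * s59t_jG 𝒪 (s59t_goodB (N * ∏ j, qv j) Bset) e₀))
        (s59t_actH (N * ∏ j, qv j) aq (dvd_refl _)
          (s59t_Hmul N (∏ j, qv j) H (s59t_KQ (p ^ n) qv))
          (G * s59t_jG 𝒪 (s59t_goodB (N * ∏ j, qv j) Bset) e₀)) := by
  classical
  have hp2 : p ≠ 2 := by
    rintro rfl
    norm_num at hp12
  have hpodd : Odd (p ^ n) := (hp.out.odd_of_ne_two hp2).pow
  obtain ⟨e₀, G, h1e', hunit, heH', hnilH', hfull⟩ := s59t_TW_level p H Bset a n qv hp12 hsq hsq'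
    S37 hN1 hnegH hp𝒪 hpB hH hoccH hocc0 hcop hqinj hqp aq bq harith i₀ hi₀ hnE hTQ e h1e hid hnil
  -- invertibility on the `G e₀`-part
  have hunitG : ∀ t : MvPolynomial ↥(s59t_goodB (N * ∏ j, qv j) Bset) 𝒪,
      t ∉ s59t_evalIdeal (fun x : ↥(s59t_goodB (N * ∏ j, qv j) Bset) =>
        s59t_cB (𝒪 := 𝒪) (N * ∏ j, qv j) a x) →
      ∃ η : MvPolynomial ↥(s59t_goodB (N * ∏ j, qv j) Bset) 𝒪,
        s59t_actH (N * ∏ j, qv j) aq (dvd_refl _)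
          (s59t_Hmul N (∏ j, qv j) H (s59t_KQ (p ^ n) qv))
          (s59t_jG 𝒪 (s59t_goodB (N * ∏ j, qv j) Bset) (η * t) *
            (G * s59t_jG 𝒪 (s59t_goodB (N * ∏ j, qv j) Bset) e₀)) =
        s59t_actH (N * ∏ j, qv j) aq (dvd_refl _)
          (s59t_Hmul N (∏ j, qv j) H (s59t_KQ (p ^ n) qv))
          (G * s59t_jG 𝒪 (s59t_goodB (N * ∏ j, qv j) Bset) e₀) := by
    intro t ht
    obtain ⟨η, hη⟩ := hunit t ht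
    refine ⟨η, ?_⟩
    have hpoly : s59t_jG 𝒪 (s59t_goodB (N * ∏ j, qv j) Bset) (η * t) *
        (G * s59t_jG 𝒪 (s59t_goodB (N * ∏ j, qv j) Bset) e₀) =
        G * s59t_jG 𝒪 (s59t_goodB (N * ∏ j, qv j) Bset) (η * t * e₀) := by
      rw [map_mul (s59t_jG 𝒪 (s59t_goodB (N * ∏ j, qv j) Bset)) (η * t) e₀]
      ring
    rw [hpoly, map_mul, hη, ← map_mul]
  -- the non-Eisenstein element
  obtain ⟨t₀, ht₀⟩ : ∃ t₀ : MvPolynomial ↥(s59t_goodB (N * ∏ j, qv j) Bset) 𝒪, t₀ =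
      MvPolynomial.X (⟨Sum.inl i₀, s59t_inl_mem_goodB Bset i₀ hi₀⟩ :
        ↥(s59t_goodB (N * ∏ j, qv j) Bset)) ^ 2 -
        ((i₀.ell : MvPolynomial ↥(s59t_goodB (N * ∏ j, qv j) Bset) 𝒪) + 1) ^ 2 := ⟨_, rfl⟩
  have ht₀n : t₀ ∉ s59t_evalIdeal (fun x : ↥(s59t_goodB (N * ∏ j, qv j) Bset) =>
      s59t_cB (𝒪 := 𝒪) (N * ∏ j, qv j) a x) := by
    rw [s59t_not_mem_evalIdeal, ht₀]
    simp only [map_sub, map_pow, MvPolynomial.eval_X, map_add, map_natCast, map_one]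
    exact hnE
  obtain ⟨η₀, hη₀⟩ := hunitG t₀ ht₀n
  have hjt : s59t_jG 𝒪 (s59t_goodB (N * ∏ j, qv j) Bset) (η₀ * t₀) =
      s59t_jG 𝒪 (s59t_goodB (N * ∏ j, qv j) Bset) η₀ *
        (MvPolynomial.X (Sum.inl (Sum.inl i₀)) ^ 2 -
        ((i₀.ell : MvPolynomial (s59w_AIdx (N * ∏ j, qv j) ⊕ ℕ) 𝒪) + 1) ^ 2) := by
    rw [map_mul, ht₀, map_sub, map_pow, map_pow, s59t_jG_X, map_add, map_natCast, map_one]
  rw [hjt] at hη₀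
  -- the group-theoretic hypotheses at the top level
  have hnegK : (-1 : (ZMod (∏ j, qv j))ˣ) ∈ s59t_KQ (p ^ n) qv :=
    s59t_neg_one_mem_KQ (p ^ n) qv hpodd
  have hnegH' : (-1 : (ZMod (N * ∏ j, qv j))ˣ) ∈
      s59t_Hmul N (∏ j, qv j) H (s59t_KQ (p ^ n) qv) := s59t_neg_one_mem_Hmul H hnegH hnegK
  have hH' : ∀ u : (ZMod (N * ∏ j, qv j))ˣ, ∃ k : ℕ,
      u ^ (p ^ k) ∈ s59t_Hmul N (∏ j, qv j) H (s59t_KQ (p ^ n) qv) :=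
    s59t_Hmul_pgroup (N := N) (D := ∏ j, qv j) (H := H) (K := s59t_KQ (p ^ n) qv) p hH
      (fun u => ⟨n, s59t_pow_mem_KQ (p ^ n) qv u⟩)
  obtain ⟨hid₂, hfull₂, hnil₂⟩ := s59t_top2 p H (s59t_KQ (p ^ n) qv) hp12 hsq' hnegH' hH' hcop aq
    (G * s59t_jG 𝒪 (s59t_goodB (N * ∏ j, qv j) Bset) e₀)
    (s59t_jG 𝒪 (s59t_goodB (N * ∏ j, qv j) Bset) η₀) i₀ heH' hη₀
  exact ⟨e₀, G, h1e', hunitG, heH', hnilH', hfull, hid₂,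
    fun x hx => hnil₂ x _ (hnilH' x hx), hfull₂⟩

end Level

end Fermat.Agent.Lib.S59
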