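/-
S59 (helper5, prefix `s59e_`), node B7 / [TR-1]: **transfer of the type from a second Hecke module.**

* `s59e_adjoin_transfer` (Mathlib only): two families of endomorphisms `G₁ j ∈ End Z₁`, `G₂ j ∈ End Z₂`
  intertwined by an injective linear map `r : Z₂ → Z₁` (`r ∘ G₂ j = G₁ j ∘ r`) ⇒ a surjective algebra
  homomorphism `f : 𝒪[G₁] → 𝒪[G₂]`, `G₁ j ↦ G₂ j`, with `r ∘ f(t) = t ∘ r` (so `ker f` kills `r(Z₂)`).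
* `s59e_TR1_abs` : two Hecke modules `Z₁ = ε₁Y₁` (level `M₁`), `Z₂ = ε₂Y₂` (level `M₂`) as in `s59e_H3Concl`,
  `r : Z₂ ↪ Z₁` intertwining the `T_ℓ`; a representation `ρ₁` over `T₁ = 𝒪[aM₁]` and `ρ₂` over
  `T₂ = 𝒪[aM₂]` with the Frobenius polynomials `X² − T_ℓ X + ℓ` ⇒ the push-forward of `ρ₁` along
  `f : T₁ ↠ T₂` has the same characteristic polynomials as `ρ₂` everywhere ([CHAR-UNIQ]); in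
  particular it is unipotent on inertia at every `q` where `ρ₂` is (S34 at the level where `q ∥ M₂`).
-/
import Mathlib
import Fermat.Agent.Lib.S59.EHTop
import Fermat.Agent.Lib.S59.KChar

set_option autoImplicit false
set_option linter.unusedSectionVars false
set_option linter.unusedVariables false
set_option linter.style.haveILetI false

noncomputable section

namespace Fermat.Agent.Lib.S59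

open IsLocalRing Polynomial CuspForm

local notation "Qbar" => AlgebraicClosure ℚ
local notation "GQ" => (AlgebraicClosure ℚ ≃ₐ[ℚ] AlgebraicClosure ℚ)

/-! ### The transfer homomorphism -/

section Transfer

variable {𝒪 : Type*} [CommRing 𝒪] {Z₁ Z₂ : Type*} [AddCommGroup Z₁] [Module 𝒪 Z₁]
  [AddCommGroup Z₂] [Module 𝒪 Z₂]

/-- the intertwining pairs form a subalgebra. -/
def s59e_twSub (r : Z₂ →ₗ[𝒪] Z₁) : Subalgebra 𝒪 (Module.End 𝒪 Z₁ × Module.End 𝒪 Z₂) where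
  carrier := {x | ∀ z, r (x.2 z) = x.1 (r z)}
  mul_mem' := by
    intro x y hx hy z
    rw [Prod.snd_mul, Prod.fst_mul, Module.End.mul_apply, Module.End.mul_apply, hx, hy]
  one_mem' := fun z => rfl
  add_mem' := by
    intro x y hx hy z
    rw [Prod.snd_add, Prod.fst_add, LinearMap.add_apply, LinearMap.add_apply, map_add, hx, hy]
  zero_mem' := fun z => by simp
  algebraMap_mem' := by
    intro c z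
    simp [Algebra.algebraMap_eq_smul_one]

theorem s59e_adjoin_transfer {J : Type*} (G₁ : J → Module.End 𝒪 Z₁) (G₂ : J → Module.End 𝒪 Z₂)
    (r : Z₂ →ₗ[𝒪] Z₁) (hr : Function.Injective r) (h : ∀ j z, r (G₂ j z) = G₁ j (r z)) :
    ∃ f : Algebra.adjoin 𝒪 (Set.range G₁) →ₐ[𝒪] Algebra.adjoin 𝒪 (Set.range G₂),
      (∀ j, ((f ⟨G₁ j, Algebra.subset_adjoin ⟨j, rfl⟩⟩ :
        Algebra.adjoin 𝒪 (Set.range G₂)) : Module.End 𝒪 Z₂) = G₂ j) ∧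
      (∀ t z, r (((f t : Algebra.adjoin 𝒪 (Set.range G₂)) : Module.End 𝒪 Z₂) z) =
        (t : Module.End 𝒪 Z₁) (r z)) ∧
      Function.Surjective f := by
  classical
  set C : Subalgebra 𝒪 (Module.End 𝒪 Z₁ × Module.End 𝒪 Z₂) :=
    Algebra.adjoin 𝒪 (Set.range fun j => (G₁ j, G₂ j)) with hC
  have hCtw : C ≤ s59e_twSub r := by
    rw [hC, Algebra.adjoin_le_iff]
    rintro _ ⟨j, rfl⟩ z
    exact h j z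
  have hfst : C.map (AlgHom.fst 𝒪 _ _) = Algebra.adjoin 𝒪 (Set.range G₁) := by
    rw [hC, AlgHom.map_adjoin]
    congr 1
    ext x
    constructor
    · rintro ⟨_, ⟨j, rfl⟩, rfl⟩
      exact ⟨j, rfl⟩
    · rintro ⟨j, rfl⟩
      exact ⟨_, ⟨j, rfl⟩, rfl⟩
  have hsnd : C.map (AlgHom.snd 𝒪 _ _) = Algebra.adjoin 𝒪 (Set.range G₂) := by
    rw [hC, AlgHom.map_adjoin]
    congr 1
    ext x
    constructor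
    · rintro ⟨_, ⟨j, rfl⟩, rfl⟩
      exact ⟨j, rfl⟩
    · rintro ⟨j, rfl⟩
      exact ⟨_, ⟨j, rfl⟩, rfl⟩
  -- uniqueness of the second component
  have huniq : ∀ t₁ t₂ t₂', (t₁, t₂) ∈ C → (t₁, t₂') ∈ C → t₂ = t₂' := by
    intro t₁ t₂ t₂' h1 h2
    refine LinearMap.ext fun z => hr ?_
    rw [hCtw h1 z, hCtw h2 z]
  have hex : ∀ t : Algebra.adjoin 𝒪 (Set.range G₁), ∃ t₂, ((t : Module.End 𝒪 Z₁), t₂) ∈ C := by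
    rintro ⟨t, ht⟩
    rw [← hfst] at ht
    obtain ⟨x, hx, rfl⟩ := ht
    exact ⟨x.2, hx⟩
  choose g hg using hex
  have hgmem : ∀ t, g t ∈ Algebra.adjoin 𝒪 (Set.range G₂) := by
    intro t
    rw [← hsnd]
    exact ⟨_, hg t, rfl⟩
  have hchar : ∀ (t : Algebra.adjoin 𝒪 (Set.range G₁)) t₂,
      ((t : Module.End 𝒪 Z₁), t₂) ∈ C → g t = t₂ := fun t t₂ h2 => huniq _ _ _ (hg t) h2
  refine ⟨{ toFun := fun t => ⟨g t, hgmem t⟩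
            map_one' := Subtype.ext (hchar 1 1 (one_mem C))
            map_mul' := fun a b => Subtype.ext (hchar (a * b) (g a * g b) (by
              have := mul_mem (hg a) (hg b)
              rwa [Prod.mk_mul_mk] at this))
            map_zero' := Subtype.ext (hchar 0 0 (zero_mem C))
            map_add' := fun a b => Subtype.ext (hchar (a + b) (g a + g b) (by
              have := add_mem (hg a) (hg b)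
              rwa [Prod.mk_add_mk] at this))
            commutes' := fun c => Subtype.ext (hchar (algebraMap 𝒪 _ c) (algebraMap 𝒪 _ c) (by
              have := C.algebraMap_mem c
              exact this)) }, ?_, ?_, ?_⟩
  · intro j
    exact hchar ⟨G₁ j, _⟩ (G₂ j) (Algebra.subset_adjoin ⟨j, rfl⟩)
  · intro t z
    exact hCtw (hg t) z
  · rintro ⟨t₂, ht₂⟩
    rw [← hsnd] at ht₂
    obtain ⟨x, hx, rfl⟩ := ht₂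
    have hx1 : x.1 ∈ Algebra.adjoin 𝒪 (Set.range G₁) := by
      rw [← hfst]
      exact ⟨x, hx, rfl⟩
    refine ⟨⟨x.1, hx1⟩, Subtype.ext ?_⟩
    exact hchar ⟨x.1, hx1⟩ x.2 hx

/-- the same for subalgebras *equal* to the adjoined ones. -/
theorem s59e_subalg_transfer {J : Type*} (G₁ : J → Module.End 𝒪 Z₁) (G₂ : J → Module.End 𝒪 Z₂)
    (A₁ : Subalgebra 𝒪 (Module.End 𝒪 Z₁)) (A₂ : Subalgebra 𝒪 (Module.End 𝒪 Z₂))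
    (e₁ : A₁ = Algebra.adjoin 𝒪 (Set.range G₁)) (e₂ : A₂ = Algebra.adjoin 𝒪 (Set.range G₂))
    (r : Z₂ →ₗ[𝒪] Z₁) (hr : Function.Injective r) (h : ∀ j z, r (G₂ j z) = G₁ j (r z)) :
    ∃ f : A₁ →ₐ[𝒪] A₂,
      (∀ j (t : A₁), (t : Module.End 𝒪 Z₁) = G₁ j → ((f t : A₂) : Module.End 𝒪 Z₂) = G₂ j) ∧
      (∀ (t : A₁) z, r (((f t : A₂) : Module.End 𝒪 Z₂) z) = (t : Module.End 𝒪 Z₁) (r z)) ∧
      Function.Surjective f := by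
  subst e₁ e₂
  obtain ⟨f, hfG, hfr, hfs⟩ := s59e_adjoin_transfer G₁ G₂ r hr h
  refine ⟨f, fun j t ht => ?_, hfr, hfs⟩
  have : t = ⟨G₁ j, Algebra.subset_adjoin ⟨j, rfl⟩⟩ := Subtype.ext ht
  rw [this]
  exact hfG j

end Transfer

/-! ### [TR-1], abstract form -/

section TR1

variable {p : ℕ} [Fact p.Prime] (M₁ M₂ : ℕ) [NeZero M₁] [NeZero M₂] (S : Finset ℕ)
  {𝒪 : Type} [CommRing 𝒪] [IsNoetherianRing 𝒪]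
  {Z₁ Z₂ : Type} [AddCommGroup Z₁] [Module 𝒪 Z₁] [Module.Finite 𝒪 Z₁] [Module.Free 𝒪 Z₁]
  [AddCommGroup Z₂] [Module 𝒪 Z₂] [Module.Finite 𝒪 Z₂] [Module.Free 𝒪 Z₂]

/-- `𝒪[aM]` is generated by any family containing the `aM(T_ℓ)` and contained in the image. -/
theorem s59e_adj_eq_adjoin_of (M' : ℕ) [NeZero M'] {Z : Type} [AddCommGroup Z] [Module 𝒪 Z]
    (hS : ∀ q : ℕ, q.Prime → q ∣ M' → q ∈ S)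
    (aM : heckeAlgebra M' 2 (↑S : Set ℕ) →+* Module.End 𝒪 Z) {J : Type}
    (G : J → Module.End 𝒪 Z)
    (h1 : ∀ (ℓ : ℕ) (hℓ : ℓ.Prime) (hℓN : ¬ ℓ ∣ M') (hℓS : ℓ ∉ (↑S : Set ℕ)),
      ∃ j, G j = aM (heckeAlgebra.T hℓ hℓN hℓS))
    (h2 : ∀ j, ∃ t, aM t = G j) :
    s59e_adj 𝒪 aM = Algebra.adjoin 𝒪 (Set.range G) := by
  have hgen := s59e_hecke_closure M' (↑S : Set ℕ) hS
  refine le_antisymm (Algebra.adjoin_le ?_) (Algebra.adjoin_mono ?_)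
  · rintro _ ⟨t, rfl⟩
    have ht : t ∈ Subring.closure {t : heckeAlgebra M' 2 (↑S : Set ℕ) | ∃ (ℓ : ℕ) (hℓ : ℓ.Prime)
        (hℓN : ¬ ℓ ∣ M') (hℓS : ℓ ∉ (↑S : Set ℕ)), t = heckeAlgebra.T hℓ hℓN hℓS} := by
      rw [hgen]; exact Subring.mem_top t
    induction ht using Subring.closure_induction with
    | mem t ht =>
      obtain ⟨ℓ, hℓ, hℓN, hℓS, rfl⟩ := ht
      obtain ⟨j, hj⟩ := h1 ℓ hℓ hℓN hℓS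
      rw [← hj]
      exact Algebra.subset_adjoin ⟨j, rfl⟩
    | zero => rw [map_zero]; exact Subalgebra.zero_mem _
    | one => rw [map_one]; exact Subalgebra.one_mem _
    | add x y _ _ hx hy => rw [map_add]; exact Subalgebra.add_mem _ hx hy
    | neg x _ hx => rw [map_neg]; exact Subalgebra.neg_mem _ hx
    | mul x y _ _ hx hy => rw [map_mul]; exact Subalgebra.mul_mem _ hx hy
  · rintro _ ⟨j, rfl⟩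
    obtain ⟨t, ht⟩ := h2 j
    exact ⟨t, ht⟩

/-- the primes outside `S` and both levels. -/
abbrev s59e_PIdx (M₁ M₂ : ℕ) (S : Finset ℕ) : Type :=
  {ℓ : ℕ // ℓ.Prime ∧ ¬ ℓ ∣ M₁ ∧ ¬ ℓ ∣ M₂ ∧ ℓ ∉ (↑S : Set ℕ)}

/-- the transfer homomorphism between the two Hecke algebras. -/
theorem s59e_TR1_hom (hS₁ : ∀ q : ℕ, q.Prime → q ∣ M₁ → q ∈ S)
    (hS₂ : ∀ q : ℕ, q.Prime → q ∣ M₂ → q ∈ S)
    (aM₁ : heckeAlgebra M₁ 2 (↑S : Set ℕ) →+* Module.End 𝒪 Z₁)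
    (aM₂ : heckeAlgebra M₂ 2 (↑S : Set ℕ) →+* Module.End 𝒪 Z₂)
    (r : Z₂ →ₗ[𝒪] Z₁) (hr : Function.Injective r)
    (hrT : ∀ (ℓ : ℕ) (hℓ : ℓ.Prime) (h₁ : ¬ ℓ ∣ M₁) (h₂ : ¬ ℓ ∣ M₂) (hℓS : ℓ ∉ (↑S : Set ℕ)) z,
      r (aM₂ (heckeAlgebra.T hℓ h₂ hℓS) z) = aM₁ (heckeAlgebra.T hℓ h₁ hℓS) (r z)) :
    ∃ (f : s59e_adj 𝒪 aM₁ →ₐ[𝒪] s59e_adj 𝒪 aM₂),
      Function.Surjective f ∧
      (∀ (t : s59e_adj 𝒪 aM₁) (z : Z₂),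
        r (((f t : s59e_adj 𝒪 aM₂) : Module.End 𝒪 Z₂) z) = (t : Module.End 𝒪 Z₁) (r z)) ∧
      (∀ (ℓ : ℕ) (hℓ : ℓ.Prime) (h₁ : ¬ ℓ ∣ M₁) (h₂ : ¬ ℓ ∣ M₂) (hℓS : ℓ ∉ (↑S : Set ℕ)),
        f (s59e_adjHom 𝒪 aM₁ (heckeAlgebra.T hℓ h₁ hℓS)) =
          s59e_adjHom 𝒪 aM₂ (heckeAlgebra.T hℓ h₂ hℓS)) := by
  classical
  have hex1 : ∃ G₁ : s59e_PIdx M₁ M₂ S → Module.End 𝒪 Z₁,
      ∀ i, G₁ i = aM₁ (heckeAlgebra.T i.2.1 i.2.2.1 i.2.2.2.2) :=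
    ⟨fun i => aM₁ (heckeAlgebra.T i.2.1 i.2.2.1 i.2.2.2.2), fun _ => rfl⟩
  obtain ⟨G₁, hG₁⟩ := hex1
  have hex2 : ∃ G₂ : s59e_PIdx M₁ M₂ S → Module.End 𝒪 Z₂,
      ∀ i, G₂ i = aM₂ (heckeAlgebra.T i.2.1 i.2.2.2.1 i.2.2.2.2) :=
    ⟨fun i => aM₂ (heckeAlgebra.T i.2.1 i.2.2.2.1 i.2.2.2.2), fun _ => rfl⟩
  obtain ⟨G₂, hG₂⟩ := hex2
  have hnd₂ : ∀ ℓ : ℕ, ℓ.Prime → ℓ ∉ (↑S : Set ℕ) → ¬ ℓ ∣ M₂ := fun ℓ hℓ hℓS h =>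
    hℓS (Finset.mem_coe.mpr (hS₂ ℓ hℓ h))
  have hnd₁ : ∀ ℓ : ℕ, ℓ.Prime → ℓ ∉ (↑S : Set ℕ) → ¬ ℓ ∣ M₁ := fun ℓ hℓ hℓS h =>
    hℓS (Finset.mem_coe.mpr (hS₁ ℓ hℓ h))
  have e₁ : s59e_adj 𝒪 aM₁ = Algebra.adjoin 𝒪 (Set.range G₁) :=
    s59e_adj_eq_adjoin_of S M₁ hS₁ aM₁ G₁
      (fun ℓ hℓ h1 hℓS => ⟨⟨ℓ, hℓ, h1, hnd₂ ℓ hℓ hℓS, hℓS⟩, hG₁ _⟩)
      (fun j => ⟨_, (hG₁ j).symm⟩)
  have e₂ : s59e_adj 𝒪 aM₂ = Algebra.adjoin 𝒪 (Set.range G₂) :=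
    s59e_adj_eq_adjoin_of S M₂ hS₂ aM₂ G₂
      (fun ℓ hℓ h2 hℓS => ⟨⟨ℓ, hℓ, hnd₁ ℓ hℓ hℓS, h2, hℓS⟩, hG₂ _⟩)
      (fun j => ⟨_, (hG₂ j).symm⟩)
  have htr := s59e_subalg_transfer G₁ G₂ (s59e_adj 𝒪 aM₁) (s59e_adj 𝒪 aM₂) e₁ e₂ r hr
    (fun i z => by rw [hG₁, hG₂]; exact hrT i.1 i.2.1 i.2.2.1 i.2.2.2.1 i.2.2.2.2 z)
  obtain ⟨f, hfG, hfr, hfs⟩ := htr
  refine ⟨f, hfs, hfr, fun ℓ hℓ h₁ h₂ hℓS => Subtype.ext ?_⟩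
  have h1 : ((s59e_adjHom 𝒪 aM₁ (heckeAlgebra.T hℓ h₁ hℓS) : s59e_adj 𝒪 aM₁) :
      Module.End 𝒪 Z₁) = G₁ ⟨ℓ, hℓ, h₁, h₂, hℓS⟩ := (hG₁ ⟨ℓ, hℓ, h₁, h₂, hℓS⟩).symm
  have h2 : G₂ ⟨ℓ, hℓ, h₁, h₂, hℓS⟩ = ((s59e_adjHom 𝒪 aM₂ (heckeAlgebra.T hℓ h₂ hℓS) :
      s59e_adj 𝒪 aM₂) : Module.End 𝒪 Z₂) := hG₂ ⟨ℓ, hℓ, h₁, h₂, hℓS⟩
  exact (hfG ⟨ℓ, hℓ, h₁, h₂, hℓS⟩ _ h1).trans h2

/-- **[TR-1], abstract form.** -/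
theorem s59e_TR1_abs (hS₁ : ∀ q : ℕ, q.Prime → q ∣ M₁ → q ∈ S)
    (hS₂ : ∀ q : ℕ, q.Prime → q ∣ M₂ → q ∈ S)
    (aM₁ : heckeAlgebra M₁ 2 (↑S : Set ℕ) →+* Module.End 𝒪 Z₁)
    (aM₂ : heckeAlgebra M₂ 2 (↑S : Set ℕ) →+* Module.End 𝒪 Z₂)
    [IsLocalRing (s59e_adj 𝒪 aM₁)] [IsLocalRing (s59e_adj 𝒪 aM₂)]
    (r : Z₂ →ₗ[𝒪] Z₁) (hr : Function.Injective r)
    (hrT : ∀ (ℓ : ℕ) (hℓ : ℓ.Prime) (h₁ : ¬ ℓ ∣ M₁) (h₂ : ¬ ℓ ∣ M₂) (hℓS : ℓ ∉ (↑S : Set ℕ)) z,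
      r (aM₂ (heckeAlgebra.T hℓ h₂ hℓS) z) = aM₁ (heckeAlgebra.T hℓ h₁ hℓS) (r z))
    (ρ₁ : GaloisRepAdic (s59e_adj 𝒪 aM₁)) (ρ₂ : GaloisRepAdic (s59e_adj 𝒪 aM₂))
    (hρ₁ : ∀ (ℓ : ℕ) (hℓ : ℓ.Prime) (h₁ : ¬ ℓ ∣ M₁) (hℓS : ℓ ∉ (↑S : Set ℕ))
      (P : ValuationSubring Qbar), P.LiesOverPrime ℓ → ∀ σ : GQ, P.IsFrobeniusAt σ ℓ →
      LinearMap.charpoly (ρ₁.ρ σ) = X ^ 2 - C (s59e_adjHom 𝒪 aM₁ (heckeAlgebra.T hℓ h₁ hℓS)) * X +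
        C ((ℓ : s59e_adj 𝒪 aM₁)))
    (hρ₂ : ∀ (ℓ : ℕ) (hℓ : ℓ.Prime) (h₂ : ¬ ℓ ∣ M₂) (hℓS : ℓ ∉ (↑S : Set ℕ))
      (P : ValuationSubring Qbar), P.LiesOverPrime ℓ → ∀ σ : GQ, P.IsFrobeniusAt σ ℓ →
      LinearMap.charpoly (ρ₂.ρ σ) = X ^ 2 - C (s59e_adjHom 𝒪 aM₂ (heckeAlgebra.T hℓ h₂ hℓS)) * X +
        C ((ℓ : s59e_adj 𝒪 aM₂))) :
    ∃ (f : s59e_adj 𝒪 aM₁ →ₐ[𝒪] s59e_adj 𝒪 aM₂)
      (hf : IsLocalHom (f : s59e_adj 𝒪 aM₁ →+* s59e_adj 𝒪 aM₂)),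
      Function.Surjective f ∧
      (∀ (t : s59e_adj 𝒪 aM₁) (z : Z₂),
        r (((f t : s59e_adj 𝒪 aM₂) : Module.End 𝒪 Z₂) z) = (t : Module.End 𝒪 Z₁) (r z)) ∧
      (∀ (ℓ : ℕ) (hℓ : ℓ.Prime) (h₁ : ¬ ℓ ∣ M₁) (h₂ : ¬ ℓ ∣ M₂) (hℓS : ℓ ∉ (↑S : Set ℕ)),
        f (s59e_adjHom 𝒪 aM₁ (heckeAlgebra.T hℓ h₁ hℓS)) =
          s59e_adjHom 𝒪 aM₂ (heckeAlgebra.T hℓ h₂ hℓS)) ∧
      (∀ g : GQ, LinearMap.charpoly ((ρ₁.baseChangeAlong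
          (f : s59e_adj 𝒪 aM₁ →+* s59e_adj 𝒪 aM₂) hf).ρ g) = LinearMap.charpoly (ρ₂.ρ g)) ∧
      ∀ q : ℕ, ρ₂.IsUnipotentOnInertiaAt q → (ρ₁.baseChangeAlong
          (f : s59e_adj 𝒪 aM₁ →+* s59e_adj 𝒪 aM₂) hf).IsUnipotentOnInertiaAt q := by
  classical
  have htr := s59e_TR1_hom M₁ M₂ S hS₁ hS₂ aM₁ aM₂ r hr hrT
  obtain ⟨f, hfs, hfr, hfT⟩ := htr
  have hnd₂ : ∀ ℓ : ℕ, ℓ.Prime → ℓ ∉ (↑S : Set ℕ) → ¬ ℓ ∣ M₂ := fun ℓ hℓ hℓS h =>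
    hℓS (Finset.mem_coe.mpr (hS₂ ℓ hℓ h))
  have hnd₁ : ∀ ℓ : ℕ, ℓ.Prime → ℓ ∉ (↑S : Set ℕ) → ¬ ℓ ∣ M₁ := fun ℓ hℓ hℓS h =>
    hℓS (Finset.mem_coe.mpr (hS₁ ℓ hℓ h))
  have hf : IsLocalHom (f : s59e_adj 𝒪 aM₁ →+* s59e_adj 𝒪 aM₂) :=
    Function.Surjective.isLocalHom _ hfs
  haveI : Module.Finite 𝒪 (s59e_adj 𝒪 aM₂) :=
    Module.Finite.of_injective (s59e_adj 𝒪 aM₂).val.toLinearMap Subtype.val_injective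
  haveI : IsNoetherianRing (s59e_adj 𝒪 aM₂) := IsNoetherianRing.of_finite 𝒪 _
  have hcp : ∀ g : GQ, LinearMap.charpoly ((ρ₁.baseChangeAlong
      (f : s59e_adj 𝒪 aM₁ →+* s59e_adj 𝒪 aM₂) hf).ρ g) = LinearMap.charpoly (ρ₂.ρ g) := by
    refine s59k_charpoly_unique' _ ρ₂ S ?_
    intro ℓ hℓ hℓS P hP σ hσ
    have hℓS' : ℓ ∉ (↑S : Set ℕ) := fun h => hℓS (Finset.mem_coe.mp h)
    have h4 : (f : s59e_adj 𝒪 aM₁ →+* s59e_adj 𝒪 aM₂)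
        (s59e_adjHom 𝒪 aM₁ (heckeAlgebra.T hℓ (hnd₁ ℓ hℓ hℓS') hℓS')) =
        s59e_adjHom 𝒪 aM₂ (heckeAlgebra.T hℓ (hnd₂ ℓ hℓ hℓS') hℓS') :=
      hfT ℓ hℓ _ _ hℓS'
    rw [s59e_bc_charpoly, hρ₁ ℓ hℓ (hnd₁ ℓ hℓ hℓS') hℓS' P hP σ hσ,
      hρ₂ ℓ hℓ (hnd₂ ℓ hℓ hℓS') hℓS' P hP σ hσ]
    simp only [Polynomial.map_add, Polynomial.map_sub, Polynomial.map_mul, Polynomial.map_pow,
      Polynomial.map_X, Polynomial.map_C]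
    rw [h4, map_natCast]
  refine ⟨f, hf, hfs, hfr, hfT, hcp, ?_⟩
  intro q hq P hP σ hσ
  exact (hcp σ).trans (hq P hP σ hσ)

end TR1

end Fermat.Agent.Lib.S59
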