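/-
S59 (helper5, prefix `s59e_`), node B7 / [TR-1]: **the transfer to a second Hecke module, middle form.**
Level 1: `a₁ : 𝕋(Γ₀(M'₁))^S → End_𝒪 Y₁`, an idempotent `ε₁`, the restriction `aM₁` to `ε₁Y₁`, the local
ring `T₁ = 𝒪[aM₁]` and a representation `ρ₁` over `T₁` with the Frobenius polynomials
`X² − T_ℓ X + ℓ` (the output of `s59e_H3_abs`).
Level 2: the input of the Hecke half `s59e_H3_hecke` (`a₂`, `ε₂`, locally scalar commuting generators,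
the residual eigensystem of the SAME `ρbar`), and an injective `r : ε₂Y₂ → ε₁Y₁` intertwining the `T_ℓ`.
Output: `T₂ = 𝒪[aM₂]` local, a surjective local `f : T₁ → T₂` with `r ∘ f(t) = t ∘ r`, `T_ℓ ↦ T_ℓ`, and
`ρ₁ ⊗_f T₂` is unipotent on inertia at every prime `q ≠ p`, `q ∥ M'₂` (S34 at the level `M'₂`).
-/
import Mathlib
import Fermat.Agent.Lib.S59.ETR1
import Fermat.Agent.Lib.S59.EHHalf

set_option autoImplicit false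
set_option linter.unusedSectionVars false
set_option linter.unusedVariables false
set_option linter.style.haveILetI false
set_option synthInstance.maxHeartbeats 400000
set_option maxHeartbeats 1000000

noncomputable section

namespace Fermat.Agent.Lib.S59

open IsLocalRing Polynomial CuspForm

local notation "Qbar" => AlgebraicClosure ℚ
local notation "GQ" => (AlgebraicClosure ℚ ≃ₐ[ℚ] AlgebraicClosure ℚ)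

section Mid

variable {p : ℕ} [Fact p.Prime] (M'₁ M'₂ : ℕ) [NeZero M'₁] [NeZero M'₂]
  [Fact (HasIntegralStructure M'₂ 2)] (S : Finset ℕ)
  {𝒪 : Type} [CommRing 𝒪] [IsDomain 𝒪] [IsDiscreteValuationRing 𝒪]
  [IsAdicComplete (maximalIdeal 𝒪) 𝒪] [Finite (ResidueField 𝒪)] [CharZero 𝒪]
  {Y₁ : Type} [AddCommGroup Y₁] [Module 𝒪 Y₁] [Module.Free 𝒪 Y₁] [Module.Finite 𝒪 Y₁]
  {Y₂ : Type} [AddCommGroup Y₂] [Module 𝒪 Y₂] [Module.Free 𝒪 Y₂] [Module.Finite 𝒪 Y₂]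

/-- the range of an idempotent of a finite free module over a local ring is free. -/
theorem s59e_range_free {Y : Type} [AddCommGroup Y] [Module 𝒪 Y] [Module.Free 𝒪 Y]
    [Module.Finite 𝒪 Y] (ε : Module.End 𝒪 Y) (hε : ε * ε = ε) :
    Module.Free 𝒪 (LinearMap.range ε) := by
  haveI : Module.Finite 𝒪 (LinearMap.range ε) := Module.Finite.range ε
  haveI : Module.Projective 𝒪 (LinearMap.range ε) :=
    Module.Projective.of_split (LinearMap.range ε).subtype ε.rangeRestrict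
      (LinearMap.ext fun x => by
        obtain ⟨z, hz⟩ := x.2
        refine Subtype.ext ?_
        show ε (x : Y) = x
        rw [← hz, ← Module.End.mul_apply, hε])
  exact Module.free_of_flat_of_isLocalRing

/-- **[TR-1], middle form.** -/
theorem s59e_TR1_mid (hp2 : p ≠ 2) (hp𝒪 : (p : 𝒪) ∈ maximalIdeal 𝒪) (hpS : p ∈ S)
    (hS₁ : ∀ q : ℕ, q.Prime → q ∣ M'₁ → q ∈ S) (hS₂ : ∀ q : ℕ, q.Prime → q ∣ M'₂ → q ∈ S)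
    -- level 1
    (a₁ : heckeAlgebra M'₁ 2 (↑S : Set ℕ) →+* Module.End 𝒪 Y₁)
    (ε₁ : Module.End 𝒪 Y₁) (hε₁ : ε₁ * ε₁ = ε₁)
    (aM₁ : heckeAlgebra M'₁ 2 (↑S : Set ℕ) →+* Module.End 𝒪 (LinearMap.range ε₁))
    (haM₁ : ∀ t (z : LinearMap.range ε₁), ((aM₁ t z : LinearMap.range ε₁) : Y₁) = a₁ t (z : Y₁))
    [IsLocalRing (s59e_adj 𝒪 aM₁)]
    (ρ₁ : GaloisRepAdic (s59e_adj 𝒪 aM₁))
    (hρ₁ : ∀ (ℓ : ℕ) (hℓ : ℓ.Prime) (h₁ : ¬ ℓ ∣ M'₁) (hℓS : ℓ ∉ (↑S : Set ℕ))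
      (P : ValuationSubring Qbar), P.LiesOverPrime ℓ → ∀ σ : GQ, P.IsFrobeniusAt σ ℓ →
      LinearMap.charpoly (ρ₁.ρ σ) = X ^ 2 - C (s59e_adjHom 𝒪 aM₁ (heckeAlgebra.T hℓ h₁ hℓS)) * X +
        C ((ℓ : s59e_adj 𝒪 aM₁)))
    -- level 2
    (a₂ : heckeAlgebra M'₂ 2 (↑S : Set ℕ) →+* Module.End 𝒪 Y₂)
    (ε₂ : Module.End 𝒪 Y₂) (hε₂ : ε₂ * ε₂ = ε₂) (hε0₂ : ε₂ ≠ 0)
    {J : Type*} (g : J → Module.End 𝒪 Y₂) (hgg : ∀ i j, g i * g j = g j * g i)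
    (hεg : ∀ j, ε₂ * g j = g j * ε₂) (c : J → 𝒪)
    (hnil : ∀ j, ∃ k : ℕ, ∀ z, ((g j - c j • 1) ^ k) (ε₂ z) ∈
      maximalIdeal 𝒪 • (⊤ : Submodule 𝒪 Y₂))
    (cT : ℕ → 𝒪)
    (ha : ∀ (ℓ : ℕ) (hℓ : ℓ.Prime) (hℓN : ¬ ℓ ∣ M'₂) (hℓS : ℓ ∉ (↑S : Set ℕ)),
      ∃ j₁ j₂ : J, a₂ (heckeAlgebra.T hℓ hℓN hℓS) = g j₁ * g j₂ ∧ cT ℓ = c j₁ * c j₂)
    (ρbar : ResidualGaloisRep (ResidueField 𝒪)) (habs : ρbar.IsAbsolutelyIrreducible)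
    (hEig : ∀ (ℓ : ℕ) (_ : ℓ.Prime) (_ : ¬ ℓ ∣ M'₂) (_ : ℓ ∉ S),
      ∀ A : ValuationSubring Qbar, A.LiesOverPrime ℓ → ∀ σ : GQ, A.IsFrobeniusAt σ ℓ →
        LinearMap.charpoly (ρbar.ρ σ) = X ^ 2 - C (residue 𝒪 (cT ℓ)) * X +
          C ((ℓ : ResidueField 𝒪)))
    -- the comparison
    (r : LinearMap.range ε₂ →ₗ[𝒪] LinearMap.range ε₁) (hr : Function.Injective r)
    (hrT : ∀ (ℓ : ℕ) (hℓ : ℓ.Prime) (h₁ : ¬ ℓ ∣ M'₁) (h₂ : ¬ ℓ ∣ M'₂) (hℓS : ℓ ∉ (↑S : Set ℕ))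
      (z z' : LinearMap.range ε₂), (z' : Y₂) = a₂ (heckeAlgebra.T hℓ h₂ hℓS) (z : Y₂) →
      ((r z' : LinearMap.range ε₁) : Y₁) = a₁ (heckeAlgebra.T hℓ h₁ hℓS) ((r z : LinearMap.range ε₁) : Y₁)) :
    ∃ aM₂ : heckeAlgebra M'₂ 2 (↑S : Set ℕ) →+* Module.End 𝒪 (LinearMap.range ε₂),
      (∀ t (z : LinearMap.range ε₂), ((aM₂ t z : LinearMap.range ε₂) : Y₂) = a₂ t (z : Y₂)) ∧
      ∃ (_ : IsLocalRing (s59e_adj 𝒪 aM₂)) (f : s59e_adj 𝒪 aM₁ →ₐ[𝒪] s59e_adj 𝒪 aM₂)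
        (hf : IsLocalHom (f : s59e_adj 𝒪 aM₁ →+* s59e_adj 𝒪 aM₂)),
        Function.Surjective f ∧
        (∀ (t : s59e_adj 𝒪 aM₁) (z : LinearMap.range ε₂),
          r (((f t : s59e_adj 𝒪 aM₂) : Module.End 𝒪 (LinearMap.range ε₂)) z) =
            (t : Module.End 𝒪 (LinearMap.range ε₁)) (r z)) ∧
        (∀ (ℓ : ℕ) (hℓ : ℓ.Prime) (h₁ : ¬ ℓ ∣ M'₁) (h₂ : ¬ ℓ ∣ M'₂) (hℓS : ℓ ∉ (↑S : Set ℕ)),
          f (s59e_adjHom 𝒪 aM₁ (heckeAlgebra.T hℓ h₁ hℓS)) =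
            s59e_adjHom 𝒪 aM₂ (heckeAlgebra.T hℓ h₂ hℓS)) ∧
        ∀ q : ℕ, q.Prime → q ≠ p → q ∣ M'₂ → ¬ q ^ 2 ∣ M'₂ →
          (ρ₁.baseChangeAlong (f : s59e_adj 𝒪 aM₁ →+* s59e_adj 𝒪 aM₂) hf).IsUnipotentOnInertiaAt q := by
  classical
  have hH := s59e_H3_hecke M'₂ S hp2 hp𝒪 hpS hS₂ a₂ ε₂ hε₂ hε0₂ g hgg hεg c hnil cT ha ρbar habs
    hEig
  unfold s59e_H3HeckeConcl at hH
  obtain ⟨aM₂, haM₂, hlr, hlh, θ, Hd, Ψ, hΨ, hπ, hθres, hθT, hΨs, hΨa, hres, hcp⟩ := hH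
  refine ⟨aM₂, haM₂, hlr, ?_⟩
  haveI : IsLocalRing (s59e_adj 𝒪 aM₂) := hlr
  haveI : Module.Finite 𝒪 (LinearMap.range ε₁) := Module.Finite.range ε₁
  haveI : Module.Finite 𝒪 (LinearMap.range ε₂) := Module.Finite.range ε₂
  haveI : Module.Free 𝒪 (LinearMap.range ε₁) := s59e_range_free ε₁ hε₁
  haveI : Module.Free 𝒪 (LinearMap.range ε₂) := s59e_range_free ε₂ hε₂
  have hrT' : ∀ (ℓ : ℕ) (hℓ : ℓ.Prime) (h₁ : ¬ ℓ ∣ M'₁) (h₂ : ¬ ℓ ∣ M'₂) (hℓS : ℓ ∉ (↑S : Set ℕ))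
      (z : LinearMap.range ε₂),
      r (aM₂ (heckeAlgebra.T hℓ h₂ hℓS) z) = aM₁ (heckeAlgebra.T hℓ h₁ hℓS) (r z) := by
    intro ℓ hℓ h₁ h₂ hℓS z
    refine Subtype.ext ?_
    rw [haM₁]
    exact hrT ℓ hℓ h₁ h₂ hℓS z _ (haM₂ _ z)
  have hT := s59e_TR1_abs M'₁ M'₂ S hS₁ hS₂ aM₁ aM₂ r hr hrT' ρ₁
    (Hd.ρ.baseChangeAlong (Ψ : heckeLocal M'₂ (↑S : Set ℕ) 𝒪 θ →+* s59e_adj 𝒪 aM₂) hΨ) hρ₁ hcp
  obtain ⟨f, hf, hfs, hfr, hfT, hfcp, hfu⟩ := hT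
  refine ⟨f, hf, hfs, hfr, hfT, ?_⟩
  intro q hq hqp hqN hq2
  exact hfu q (s59e_bc_unip _ hΨ Hd.ρ q (s59e_hecke_unip Hd hp𝒪 hpS hS₂ q hq hqp hqN hq2))

end Mid

end Fermat.Agent.Lib.S59
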