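/-
S59 (helper5, prefix `s59e_`), node B7 / [TR-1]: **the transfer to a second Hecke module, concrete form.**
Two subgroups `H₁ ≤ H₂` of `(ℤ/M)ˣ` (so `Γ_{H₁}(M) ≤ Γ_{H₂}(M)`), the modules
`Y_i = H_par(Γ_{H_i}(M), 𝒪)`, idempotents `ε_i` commuting with the anemic generators, and helper8's
comparison map `ι = ε₁ ∘ res : ε₂Y₂ → ε₁Y₁` (injective by `s59t_control_top`).
Level 1 = the output of `s59e_H3` at `(H₁, M'₁)` (`a₁`, `aM₁`, `T₁ = 𝒪[aM₁]` local, `ρ₁` over `T₁` with the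
Frobenius polynomials); level 2 = the input of [REL] + the Hecke half at `(H₂, M'₂ = N₂ ∏_{Q₂} q²)`.
Output: `a₂`, `aM₂`, `T₂ = 𝒪[aM₂]` local, `f : T₁ ↠ T₂` with `ι ∘ f(t) = t ∘ ι` (so `ker f` kills `ι(ε₂Y₂)`),
`T_ℓ ↦ T_ℓ`, and `ρ₁ ⊗_f T₂` unipotent on inertia at every prime `q ≠ p` with `q ∥ M'₂`.
-/
import Mathlib
import Fermat.Agent.Lib.S59.ETR1Mid
import Fermat.Agent.Lib.S59.TResG
import Fermat.Agent.Lib.S59.TTWH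

set_option autoImplicit false
set_option linter.unusedSectionVars false
set_option linter.unusedVariables false
set_option linter.style.haveILetI false
set_option synthInstance.maxHeartbeats 400000
set_option maxHeartbeats 1000000

noncomputable section

namespace Fermat.Agent.Lib.S59

open Matrix.SpecialLinearGroup CongruenceSubgroup ModularCurve.Period Polynomial CuspForm
open Fermat.Agent.Lib.S48 Fermat.Agent.Lib.ES IsLocalRing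
open scoped MatrixGroups

local notation "Qbar" => AlgebraicClosure ℚ
local notation "GQ" => (AlgebraicClosure ℚ ≃ₐ[ℚ] AlgebraicClosure ℚ)

section ResOp

variable {M : ℕ} [NeZero M] {H₁ H₂ : Subgroup (ZMod M)ˣ}
  (hle : s48h_GammaH M H₁ ≤ s48h_GammaH M H₂) (R : Type*) [CommRing R]

/-- restriction `H_par(Γ_{H₂}) → H_par(Γ_{H₁})` commutes with the anemic generators. -/
theorem s59e_res_op (j : s59w_AIdx M) (χ : s48h_Hpar R (s48h_GammaH M H₂) R) :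
    s59t_resGHpar hle R R (s59w_op H₂ R j χ) = s59w_op H₁ R j (s59t_resGHpar hle R R χ) := by
  apply Subtype.ext
  rcases j with i | τ
  · haveI : Fact i.ell.Prime := ⟨i.prime⟩
    exact s59t_resG_datum hle (s48h_TpDatum H₂ i.ndvd i.sig i.mem i.lr)
      (s48h_TpDatum H₁ i.ndvd i.sig i.mem i.lr) (fun _ => rfl) (fun _ _ => rfl) χ.1
  · exact s59t_resG_datum hle (s48h_diamondDatum H₂ (τ : SL(2, ℤ)) τ.2)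
      (s48h_diamondDatum H₁ (τ : SL(2, ℤ)) τ.2) (fun _ => rfl) (fun _ _ => rfl) χ.1

/-- restriction commutes with the twisted Hecke operators `T'_ℓ`. -/
theorem s59e_res_Tp' (k : ℕ) (i : s59w_TIdx M) (χ : s48h_Hpar R (s48h_GammaH M H₂) R) :
    s59t_resGHpar hle R R (s59e_Tp' H₂ R k i χ) = s59e_Tp' H₁ R k i (s59t_resGHpar hle R R χ) := by
  unfold s59e_Tp'
  rw [Module.End.mul_apply, Module.End.mul_apply, s59e_res_op, s59e_res_op]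

end ResOp

section Concrete

variable {p : ℕ} [Fact p.Prime] {M : ℕ} [NeZero M] (H₁ H₂ : Subgroup (ZMod M)ˣ)
  (S : Finset ℕ)
  {𝒪 : Type} [CommRing 𝒪] [IsDomain 𝒪] [IsDiscreteValuationRing 𝒪]
  [IsAdicComplete (maximalIdeal 𝒪) 𝒪] [Finite (ResidueField 𝒪)] [CharZero 𝒪]

/-- **[TR-1], concrete form.** -/
theorem s59e_TR1 (hp2 : p ≠ 2) (hp𝒪 : (p : 𝒪) ∈ maximalIdeal 𝒪) (hpS : p ∈ S)
    (hle : s48h_GammaH M H₁ ≤ s48h_GammaH M H₂) {n m : ℕ} (hnm : 2 * m = n + 1)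
    -- level 1 (the output of `s59e_H3` at `H₁`)
    (M'₁ : ℕ) [NeZero M'₁] (hS₁ : ∀ q : ℕ, q.Prime → q ∣ M'₁ → q ∈ S)
    {ι₁ : Type*} [Fintype ι₁] [DecidableEq ι₁]
    (cB₁ : Module.Basis ι₁ 𝒪 (s48h_Hpar 𝒪 (s48h_GammaH M H₁) 𝒪))
    (a₁ : heckeAlgebra M'₁ 2 (↑S : Set ℕ) →+*
      Module.End 𝒪 (s48h_Hpar 𝒪 (s48h_GammaH M H₁) 𝒪))
    (ha₁ : ∀ (ℓ : ℕ) (hℓ : ℓ.Prime) (hℓN : ¬ ℓ ∣ M'₁) (hℓS : ℓ ∉ (↑S : Set ℕ)) (i : s59w_TIdx M),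
      i.ell = ℓ → a₁ (heckeAlgebra.T hℓ hℓN hℓS) = s59e_Tp' H₁ 𝒪 ((n - 1) * m) i)
    (ε₁ : Module.End 𝒪 (s48h_Hpar 𝒪 (s48h_GammaH M H₁) 𝒪)) (hε₁ : ε₁ * ε₁ = ε₁)
    (hεc₁ : ∀ i, ε₁ * s59w_op H₁ 𝒪 i = s59w_op H₁ 𝒪 i * ε₁)
    (aM₁ : heckeAlgebra M'₁ 2 (↑S : Set ℕ) →+* Module.End 𝒪 (LinearMap.range ε₁))
    (haM₁ : ∀ t (z : LinearMap.range ε₁), ((aM₁ t z : LinearMap.range ε₁) :
      s48h_Hpar 𝒪 (s48h_GammaH M H₁) 𝒪) = a₁ t (z : s48h_Hpar 𝒪 (s48h_GammaH M H₁) 𝒪))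
    [IsLocalRing (s59e_adj 𝒪 aM₁)]
    (ρ₁ : GaloisRepAdic (s59e_adj 𝒪 aM₁))
    (hρ₁ : ∀ (ℓ : ℕ) (hℓ : ℓ.Prime) (h₁ : ¬ ℓ ∣ M'₁) (hℓS : ℓ ∉ (↑S : Set ℕ))
      (P : ValuationSubring Qbar), P.LiesOverPrime ℓ → ∀ σ : GQ, P.IsFrobeniusAt σ ℓ →
      LinearMap.charpoly (ρ₁.ρ σ) = X ^ 2 - C (s59e_adjHom 𝒪 aM₁ (heckeAlgebra.T hℓ h₁ hℓS)) * X +
        C ((ℓ : s59e_adj 𝒪 aM₁)))
    -- level 2 (the input of [REL] and of the Hecke half at `H₂`)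
    (N₂ : ℕ) [NeZero N₂] (Q₂ : Finset ℕ) {ι₂ : Type*} [Fintype ι₂] [DecidableEq ι₂]
    (b₂ : Module.Basis ι₂ ℤ (s48h_M (s48h_GammaH M H₂)))
    (M'₂ : ℕ) [NeZero M'₂] [Fact (HasIntegralStructure M'₂ 2)]
    (hQ : ∀ q ∈ Q₂, q.Prime ∧ ¬ q ∣ N₂)
    (hM : M = N₂ * ∏ q ∈ Q₂, q) {D : ℕ} (hDQ : D = ∏ q ∈ Q₂, q) (hD : D ∣ M)
    (hH : s59u_ker M D hD ≤ H₂) (hn : ∀ u : (ZMod M)ˣ, u ^ n ∈ H₂)
    (hM' : M'₂ = N₂ * ∏ q ∈ Q₂, q ^ 2) (hS₂ : ∀ q : ℕ, q.Prime → q ∣ M'₂ → q ∈ S)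
    (cB₂ : Module.Basis ι₂ 𝒪 (s48h_Hpar 𝒪 (s48h_GammaH M H₂) 𝒪))
    (hcB₂ : ∀ i, ((cB₂ i : s48h_Hpar 𝒪 (s48h_GammaH M H₂) 𝒪) :
      Additive (s48h_GammaH M H₂) →+ 𝒪) = s48h_castB b₂ 𝒪 i)
    (ε₂ : Module.End 𝒪 (s48h_Hpar 𝒪 (s48h_GammaH M H₂) 𝒪)) (hε₂ : ε₂ * ε₂ = ε₂) (hε0₂ : ε₂ ≠ 0)
    (hεc₂ : ∀ i, ε₂ * s59w_op H₂ 𝒪 i = s59w_op H₂ 𝒪 i * ε₂) (c : s59w_AIdx M → 𝒪)
    (hnil : ∀ i, ∃ k : ℕ, ∀ z, ((s59w_op H₂ 𝒪 i - c i • 1) ^ k) (ε₂ z) ∈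
      maximalIdeal 𝒪 • (⊤ : Submodule 𝒪 (s48h_Hpar 𝒪 (s48h_GammaH M H₂) 𝒪)))
    (ρbar : ResidualGaloisRep (ResidueField 𝒪)) (habs : ρbar.IsAbsolutelyIrreducible)
    (hEig : ∀ (ℓ : ℕ) (_ : ℓ.Prime) (_ : ¬ ℓ ∣ M'₂) (_ : ℓ ∉ S) (i : s59w_TIdx M), i.ell = ℓ →
      ∀ A : ValuationSubring Qbar, A.LiesOverPrime ℓ → ∀ σ : GQ, A.IsFrobeniusAt σ ℓ →
        LinearMap.charpoly (ρbar.ρ σ) = X ^ 2 - C (residue 𝒪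
          (c (Sum.inr (s59e_tau i ((n - 1) * m))) * c (Sum.inl i))) * X +
          C ((ℓ : ResidueField 𝒪)))
    -- the comparison map is injective (helper8's `s59t_control_top`)
    (hinj : Function.Injective (s59t_iotaH ε₂ ε₁ (s59t_resGHpar hle 𝒪 𝒪))) :
    ∃ (a₂ : heckeAlgebra M'₂ 2 (↑S : Set ℕ) →+*
        Module.End 𝒪 (s48h_Hpar 𝒪 (s48h_GammaH M H₂) 𝒪))
      (aM₂ : heckeAlgebra M'₂ 2 (↑S : Set ℕ) →+* Module.End 𝒪 (LinearMap.range ε₂)),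
      (∀ (ℓ : ℕ) (hℓ : ℓ.Prime) (hℓN : ¬ ℓ ∣ M'₂) (hℓS : ℓ ∉ (↑S : Set ℕ)) (i : s59w_TIdx M),
        i.ell = ℓ → a₂ (heckeAlgebra.T hℓ hℓN hℓS) = s59e_Tp' H₂ 𝒪 ((n - 1) * m) i) ∧
      (∀ t (z : LinearMap.range ε₂), ((aM₂ t z : LinearMap.range ε₂) :
        s48h_Hpar 𝒪 (s48h_GammaH M H₂) 𝒪) = a₂ t (z : s48h_Hpar 𝒪 (s48h_GammaH M H₂) 𝒪)) ∧
      ∃ (_ : IsLocalRing (s59e_adj 𝒪 aM₂)) (f : s59e_adj 𝒪 aM₁ →ₐ[𝒪] s59e_adj 𝒪 aM₂)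
        (hf : IsLocalHom (f : s59e_adj 𝒪 aM₁ →+* s59e_adj 𝒪 aM₂)),
        Function.Surjective f ∧
        (∀ (t : s59e_adj 𝒪 aM₁) (z : LinearMap.range ε₂),
          s59t_iotaH ε₂ ε₁ (s59t_resGHpar hle 𝒪 𝒪)
            (((f t : s59e_adj 𝒪 aM₂) : Module.End 𝒪 (LinearMap.range ε₂)) z) =
            (t : Module.End 𝒪 (LinearMap.range ε₁))
              (s59t_iotaH ε₂ ε₁ (s59t_resGHpar hle 𝒪 𝒪) z)) ∧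
        (∀ (ℓ : ℕ) (hℓ : ℓ.Prime) (h₁ : ¬ ℓ ∣ M'₁) (h₂ : ¬ ℓ ∣ M'₂) (hℓS : ℓ ∉ (↑S : Set ℕ)),
          f (s59e_adjHom 𝒪 aM₁ (heckeAlgebra.T hℓ h₁ hℓS)) =
            s59e_adjHom 𝒪 aM₂ (heckeAlgebra.T hℓ h₂ hℓS)) ∧
        ∀ q : ℕ, q.Prime → q ≠ p → q ∣ M'₂ → ¬ q ^ 2 ∣ M'₂ →
          (ρ₁.baseChangeAlong (f : s59e_adj 𝒪 aM₁ →+* s59e_adj 𝒪 aM₂) hf).IsUnipotentOnInertiaAt
            q := by
  classical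
  haveI : Module.Free 𝒪 (s48h_Hpar 𝒪 (s48h_GammaH M H₁) 𝒪) := Module.Free.of_basis cB₁
  haveI : Module.Finite 𝒪 (s48h_Hpar 𝒪 (s48h_GammaH M H₁) 𝒪) := Module.Finite.of_basis cB₁
  haveI : Module.Free 𝒪 (s48h_Hpar 𝒪 (s48h_GammaH M H₂) 𝒪) := Module.Free.of_basis cB₂
  haveI : Module.Finite 𝒪 (s48h_Hpar 𝒪 (s48h_GammaH M H₂) 𝒪) := Module.Finite.of_basis cB₂
  have hREL := s59e_REL N₂ Q₂ H₂ b₂ M'₂ (↑S : Set ℕ) s59w_petSS hQ hM hDQ hD hH hnm hn hM' hS₂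
    cB₂ hcB₂
  obtain ⟨a₂, ha₂⟩ := hREL
  have ha21 := ha₂.1
  have hMM' : M ∣ M'₂ := by
    rw [hM, hM']
    refine Nat.mul_dvd_mul_left N₂ (Finset.prod_dvd_prod_of_dvd _ _ fun q _ => ?_)
    exact Dvd.intro _ (pow_two q).symm
  have hidx : ∀ ℓ : ℕ, ℓ.Prime → ¬ ℓ ∣ M'₂ → ∃ i : s59w_TIdx M, i.ell = ℓ := fun ℓ hℓ hℓN =>
    s59e_exists_TIdx (M := M) hℓ (fun h => hℓN (dvd_trans h hMM'))
  -- the constants `cT`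
  let cT : ℕ → 𝒪 := fun ℓ =>
    if h : ∃ i : s59w_TIdx M, i.ell = ℓ then
      c (Sum.inr (s59e_tau (Classical.choose h) ((n - 1) * m))) * c (Sum.inl (Classical.choose h))
    else 0
  have hcT : ∀ ℓ : ℕ, ℓ.Prime → ¬ ℓ ∣ M'₂ → ∃ i : s59w_TIdx M, i.ell = ℓ ∧
      cT ℓ = c (Sum.inr (s59e_tau i ((n - 1) * m))) * c (Sum.inl i) := by
    intro ℓ hℓ hℓN
    have h := hidx ℓ hℓ hℓN
    refine ⟨Classical.choose h, Classical.choose_spec h, ?_⟩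
    show (if h : ∃ i : s59w_TIdx M, i.ell = ℓ then _ else _) = _
    rw [dif_pos h]
  -- `ε₁` commutes with the twisted Hecke operators
  have hεT : ∀ (i : s59w_TIdx M) y, ε₁ (s59e_Tp' H₁ 𝒪 ((n - 1) * m) i y) =
      s59e_Tp' H₁ 𝒪 ((n - 1) * m) i (ε₁ y) := by
    intro i y
    have h1 : ε₁ * s59e_Tp' H₁ 𝒪 ((n - 1) * m) i = s59e_Tp' H₁ 𝒪 ((n - 1) * m) i * ε₁ := by
      unfold s59e_Tp'
      rw [← mul_assoc, hεc₁, mul_assoc, hεc₁, mul_assoc]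
    exact LinearMap.congr_fun h1 y
  have hmid := s59e_TR1_mid M'₁ M'₂ S hp2 hp𝒪 hpS hS₁ hS₂ a₁ ε₁ hε₁ aM₁ haM₁ ρ₁ hρ₁
    a₂ ε₂ hε₂ hε0₂ (s59w_op H₂ 𝒪) (s59w_op_comm H₂ 𝒪) hεc₂ c hnil cT
    (fun ℓ hℓ hℓN hℓS => by
      obtain ⟨i, hi, hci⟩ := hcT ℓ hℓ hℓN
      exact ⟨Sum.inr (s59e_tau i ((n - 1) * m)), Sum.inl i, ha21 ℓ hℓ hℓN hℓS i hi, hci⟩)
    ρbar habs
    (fun ℓ hℓ hℓN hℓS A hA σ hσ => by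
      obtain ⟨i, hi, hci⟩ := hcT ℓ hℓ hℓN
      rw [hci]
      exact hEig ℓ hℓ hℓN hℓS i hi A hA σ hσ)
    (s59t_iotaH ε₂ ε₁ (s59t_resGHpar hle 𝒪 𝒪)) hinj
    (fun ℓ hℓ h₁ h₂ hℓS z z' hz => by
      obtain ⟨i, hi⟩ := hidx ℓ hℓ h₂
      rw [s59t_iotaH_coe, s59t_iotaH_coe, hz, ha21 ℓ hℓ h₂ hℓS i hi, ha₁ ℓ hℓ h₁ hℓS i hi,
        s59e_res_Tp', hεT])
  obtain ⟨aM₂, haM₂, hlr, f, hf, hfs, hfr, hfT, hfu⟩ := hmid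
  exact ⟨a₂, aM₂, ha21, haM₂, hlr, f, hf, hfs, hfr, hfT, hfu⟩

end Concrete

end Fermat.Agent.Lib.S59
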