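/-
S59 (helper5, prefix `s59e_`), node B7 / [TR-1]: **the transfer to a second Hecke module, concrete form,
for the `S`-anemic family** (`s59e_Anemic S j`: all diamonds and the `T_ℓ`, `ℓ ∉ S`).  The same as
`s59e_TR1` (ETR1Top.lean) with `hεc₁`, `hεc₂`, `hnil` required only for the `S`-anemic generators —
this is what the idempotent construction (helper3's `UW6Idem`) provides.
-/
import Mathlib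
import Fermat.Agent.Lib.S59.ETR1Top
import Fermat.Agent.Lib.S59.EHTop2

set_option autoImplicit false
set_option linter.unusedSectionVars false
set_option linter.unusedVariables false
set_option linter.style.haveILetI false
set_option synthInstance.maxHeartbeats 400000
set_option maxHeartbeats 1000000

noncomputable section

namespace Fermat.Agent.Lib.S59

open Matrix.SpecialLinearGroup CongruenceSubgroup ModularCurve.Period Polynomial CuspForm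
open Fermat.Agent.Lib.S48 Fermat.Agent.Lib.ES IsLocalRing
open scoped MatrixGroups

local notation "Qbar" => AlgebraicClosure ℚ
local notation "GQ" => (AlgebraicClosure ℚ ≃ₐ[ℚ] AlgebraicClosure ℚ)

section Concrete

variable {p : ℕ} [Fact p.Prime] {M : ℕ} [NeZero M] (H₁ H₂ : Subgroup (ZMod M)ˣ)
  (S : Finset ℕ)
  {𝒪 : Type} [CommRing 𝒪] [IsDomain 𝒪] [IsDiscreteValuationRing 𝒪]
  [IsAdicComplete (maximalIdeal 𝒪) 𝒪] [Finite (ResidueField 𝒪)] [CharZero 𝒪]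

/-- **[TR-1], concrete form, `S`-anemic family**: `hεc₁`, `hεc₂`, `hnil` only for the `S`-anemic
generators. -/
theorem s59e_TR1' (hp2 : p ≠ 2) (hp𝒪 : (p : 𝒪) ∈ maximalIdeal 𝒪) (hpS : p ∈ S)
    (hle : s48h_GammaH M H₁ ≤ s48h_GammaH M H₂) {n m : ℕ} (hnm : 2 * m = n + 1)
    -- level 1 (the output of `s59e_H3` at `H₁`)
    (M'₁ : ℕ) [NeZero M'₁] (hS₁ : ∀ q : ℕ, q.Prime → q ∣ M'₁ → q ∈ S)
    {ι₁ : Type*} [Fintype ι₁] [DecidableEq ι₁]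
    (cB₁ : Module.Basis ι₁ 𝒪 (s48h_Hpar 𝒪 (s48h_GammaH M H₁) 𝒪))
    (a₁ : heckeAlgebra M'₁ 2 (↑S : Set ℕ) →+*
      Module.End 𝒪 (s48h_Hpar 𝒪 (s48h_GammaH M H₁) 𝒪))
    (ha₁ : ∀ (ℓ : ℕ) (hℓ : ℓ.Prime) (hℓN : ¬ ℓ ∣ M'₁) (hℓS : ℓ ∉ (↑S : Set ℕ)) (i : s59w_TIdx M),
      i.ell = ℓ → a₁ (heckeAlgebra.T hℓ hℓN hℓS) = s59e_Tp' H₁ 𝒪 ((n - 1) * m) i)
    (ε₁ : Module.End 𝒪 (s48h_Hpar 𝒪 (s48h_GammaH M H₁) 𝒪)) (hε₁ : ε₁ * ε₁ = ε₁)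
    (hεc₁ : ∀ j, s59e_Anemic S j → ε₁ * s59w_op H₁ 𝒪 j = s59w_op H₁ 𝒪 j * ε₁)
    (aM₁ : heckeAlgebra M'₁ 2 (↑S : Set ℕ) →+* Module.End 𝒪 (LinearMap.range ε₁))
    (haM₁ : ∀ t (z : LinearMap.range ε₁), ((aM₁ t z : LinearMap.range ε₁) :
      s48h_Hpar 𝒪 (s48h_GammaH M H₁) 𝒪) = a₁ t (z : s48h_Hpar 𝒪 (s48h_GammaH M H₁) 𝒪))
    [IsLocalRing (s59e_adj 𝒪 aM₁)]
    (ρ₁ : GaloisRepAdic (s59e_adj 𝒪 aM₁))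
    (hρ₁ : ∀ (ℓ : ℕ) (hℓ : ℓ.Prime) (h₁ : ¬ ℓ ∣ M'₁) (hℓS : ℓ ∉ (↑S : Set ℕ))
      (P : ValuationSubring Qbar), P.LiesOverPrime ℓ → ∀ σ : GQ, P.IsFrobeniusAt σ ℓ →
      LinearMap.charpoly (ρ₁.ρ σ) = X ^ 2 - C (s59e_adjHom 𝒪 aM₁ (heckeAlgebra.T hℓ h₁ hℓS)) * X +
        C ((ℓ : s59e_adj 𝒪 aM₁)))
    -- level 2 (the input of [REL] and of the Hecke half at `H₂`)
    (N₂ : ℕ) [NeZero N₂] (Q₂ : Finset ℕ) {ι₂ : Type*} [Fintype ι₂] [DecidableEq ι₂]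
    (b₂ : Module.Basis ι₂ ℤ (s48h_M (s48h_GammaH M H₂)))
    (M'₂ : ℕ) [NeZero M'₂] [Fact (HasIntegralStructure M'₂ 2)]
    (hQ : ∀ q ∈ Q₂, q.Prime ∧ ¬ q ∣ N₂)
    (hM : M = N₂ * ∏ q ∈ Q₂, q) {D : ℕ} (hDQ : D = ∏ q ∈ Q₂, q) (hD : D ∣ M)
    (hH : s59u_ker M D hD ≤ H₂) (hn : ∀ u : (ZMod M)ˣ, u ^ n ∈ H₂)
    (hM' : M'₂ = N₂ * ∏ q ∈ Q₂, q ^ 2) (hS₂ : ∀ q : ℕ, q.Prime → q ∣ M'₂ → q ∈ S)
    (cB₂ : Module.Basis ι₂ 𝒪 (s48h_Hpar 𝒪 (s48h_GammaH M H₂) 𝒪))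
    (hcB₂ : ∀ i, ((cB₂ i : s48h_Hpar 𝒪 (s48h_GammaH M H₂) 𝒪) :
      Additive (s48h_GammaH M H₂) →+ 𝒪) = s48h_castB b₂ 𝒪 i)
    (ε₂ : Module.End 𝒪 (s48h_Hpar 𝒪 (s48h_GammaH M H₂) 𝒪)) (hε₂ : ε₂ * ε₂ = ε₂) (hε0₂ : ε₂ ≠ 0)
    (hεc₂ : ∀ j, s59e_Anemic S j → ε₂ * s59w_op H₂ 𝒪 j = s59w_op H₂ 𝒪 j * ε₂)
    (c : s59w_AIdx M → 𝒪)
    (hnil : ∀ j, s59e_Anemic S j → ∃ k : ℕ, ∀ z, ((s59w_op H₂ 𝒪 j - c j • 1) ^ k) (ε₂ z) ∈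
      maximalIdeal 𝒪 • (⊤ : Submodule 𝒪 (s48h_Hpar 𝒪 (s48h_GammaH M H₂) 𝒪)))
    (ρbar : ResidualGaloisRep (ResidueField 𝒪)) (habs : ρbar.IsAbsolutelyIrreducible)
    (hEig : ∀ (ℓ : ℕ) (_ : ℓ.Prime) (_ : ¬ ℓ ∣ M'₂) (_ : ℓ ∉ S) (i : s59w_TIdx M), i.ell = ℓ →
      ∀ A : ValuationSubring Qbar, A.LiesOverPrime ℓ → ∀ σ : GQ, A.IsFrobeniusAt σ ℓ →
        LinearMap.charpoly (ρbar.ρ σ) = X ^ 2 - C (residue 𝒪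
          (c (Sum.inr (s59e_tau i ((n - 1) * m))) * c (Sum.inl i))) * X +
          C ((ℓ : ResidueField 𝒪)))
    -- the comparison map is injective (helper8's `s59t_control_top`)
    (hinj : Function.Injective (s59t_iotaH ε₂ ε₁ (s59t_resGHpar hle 𝒪 𝒪))) :
    ∃ (a₂ : heckeAlgebra M'₂ 2 (↑S : Set ℕ) →+*
        Module.End 𝒪 (s48h_Hpar 𝒪 (s48h_GammaH M H₂) 𝒪))
      (aM₂ : heckeAlgebra M'₂ 2 (↑S : Set ℕ) →+* Module.End 𝒪 (LinearMap.range ε₂)),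
      (∀ (ℓ : ℕ) (hℓ : ℓ.Prime) (hℓN : ¬ ℓ ∣ M'₂) (hℓS : ℓ ∉ (↑S : Set ℕ)) (i : s59w_TIdx M),
        i.ell = ℓ → a₂ (heckeAlgebra.T hℓ hℓN hℓS) = s59e_Tp' H₂ 𝒪 ((n - 1) * m) i) ∧
      (∀ t (z : LinearMap.range ε₂), ((aM₂ t z : LinearMap.range ε₂) :
        s48h_Hpar 𝒪 (s48h_GammaH M H₂) 𝒪) = a₂ t (z : s48h_Hpar 𝒪 (s48h_GammaH M H₂) 𝒪)) ∧
      ∃ (_ : IsLocalRing (s59e_adj 𝒪 aM₂)) (f : s59e_adj 𝒪 aM₁ →ₐ[𝒪] s59e_adj 𝒪 aM₂)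
        (hf : IsLocalHom (f : s59e_adj 𝒪 aM₁ →+* s59e_adj 𝒪 aM₂)),
        Function.Surjective f ∧
        (∀ (t : s59e_adj 𝒪 aM₁) (z : LinearMap.range ε₂),
          s59t_iotaH ε₂ ε₁ (s59t_resGHpar hle 𝒪 𝒪)
            (((f t : s59e_adj 𝒪 aM₂) : Module.End 𝒪 (LinearMap.range ε₂)) z) =
            (t : Module.End 𝒪 (LinearMap.range ε₁))
              (s59t_iotaH ε₂ ε₁ (s59t_resGHpar hle 𝒪 𝒪) z)) ∧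
        (∀ (ℓ : ℕ) (hℓ : ℓ.Prime) (h₁ : ¬ ℓ ∣ M'₁) (h₂ : ¬ ℓ ∣ M'₂) (hℓS : ℓ ∉ (↑S : Set ℕ)),
          f (s59e_adjHom 𝒪 aM₁ (heckeAlgebra.T hℓ h₁ hℓS)) =
            s59e_adjHom 𝒪 aM₂ (heckeAlgebra.T hℓ h₂ hℓS)) ∧
        ∀ q : ℕ, q.Prime → q ≠ p → q ∣ M'₂ → ¬ q ^ 2 ∣ M'₂ →
          (ρ₁.baseChangeAlong (f : s59e_adj 𝒪 aM₁ →+* s59e_adj 𝒪 aM₂) hf).IsUnipotentOnInertiaAt
            q := by
  classical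
  haveI : Module.Free 𝒪 (s48h_Hpar 𝒪 (s48h_GammaH M H₁) 𝒪) := Module.Free.of_basis cB₁
  haveI : Module.Finite 𝒪 (s48h_Hpar 𝒪 (s48h_GammaH M H₁) 𝒪) := Module.Finite.of_basis cB₁
  haveI : Module.Free 𝒪 (s48h_Hpar 𝒪 (s48h_GammaH M H₂) 𝒪) := Module.Free.of_basis cB₂
  haveI : Module.Finite 𝒪 (s48h_Hpar 𝒪 (s48h_GammaH M H₂) 𝒪) := Module.Finite.of_basis cB₂
  have hREL := s59e_REL N₂ Q₂ H₂ b₂ M'₂ (↑S : Set ℕ) s59w_petSS hQ hM hDQ hD hH hnm hn hM' hS₂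
    cB₂ hcB₂
  obtain ⟨a₂, ha₂⟩ := hREL
  have ha21 := ha₂.1
  have hMM' : M ∣ M'₂ := by
    rw [hM, hM']
    refine Nat.mul_dvd_mul_left N₂ (Finset.prod_dvd_prod_of_dvd _ _ fun q _ => ?_)
    exact Dvd.intro _ (pow_two q).symm
  have hidx : ∀ ℓ : ℕ, ℓ.Prime → ¬ ℓ ∣ M'₂ → ∃ i : s59w_TIdx M, i.ell = ℓ := fun ℓ hℓ hℓN =>
    s59e_exists_TIdx (M := M) hℓ (fun h => hℓN (dvd_trans h hMM'))
  -- the constants `cT`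
  let cT : ℕ → 𝒪 := fun ℓ =>
    if h : ∃ i : s59w_TIdx M, i.ell = ℓ then
      c (Sum.inr (s59e_tau (Classical.choose h) ((n - 1) * m))) * c (Sum.inl (Classical.choose h))
    else 0
  have hcT : ∀ ℓ : ℕ, ℓ.Prime → ¬ ℓ ∣ M'₂ → ∃ i : s59w_TIdx M, i.ell = ℓ ∧
      cT ℓ = c (Sum.inr (s59e_tau i ((n - 1) * m))) * c (Sum.inl i) := by
    intro ℓ hℓ hℓN
    have h := hidx ℓ hℓ hℓN
    refine ⟨Classical.choose h, Classical.choose_spec h, ?_⟩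
    show (if h : ∃ i : s59w_TIdx M, i.ell = ℓ then _ else _) = _
    rw [dif_pos h]
  -- `ε₁` commutes with the twisted Hecke operators
  have hεT : ∀ (i : s59w_TIdx M), i.ell ∉ S → ∀ y, ε₁ (s59e_Tp' H₁ 𝒪 ((n - 1) * m) i y) =
      s59e_Tp' H₁ 𝒪 ((n - 1) * m) i (ε₁ y) := by
    intro i hiS y
    have h1 : ε₁ * s59e_Tp' H₁ 𝒪 ((n - 1) * m) i = s59e_Tp' H₁ 𝒪 ((n - 1) * m) i * ε₁ := by
      unfold s59e_Tp'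
      rw [← mul_assoc, hεc₁ _ (s59e_anemic_inr S _), mul_assoc,
        hεc₁ _ (s59e_anemic_inl S i hiS), mul_assoc]
    exact LinearMap.congr_fun h1 y
  have hmid := s59e_TR1_mid M'₁ M'₂ S hp2 hp𝒪 hpS hS₁ hS₂ a₁ ε₁ hε₁ aM₁ haM₁ ρ₁ hρ₁
    a₂ ε₂ hε₂ hε0₂ (J := {j : s59w_AIdx M // s59e_Anemic S j})
    (fun j => s59w_op H₂ 𝒪 j.1) (fun i j => s59w_op_comm H₂ 𝒪 i.1 j.1) (fun j => hεc₂ j.1 j.2)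
    (fun j => c j.1) (fun j => hnil j.1 j.2) cT
    (fun ℓ hℓ hℓN hℓS => by
      obtain ⟨i, hi, hci⟩ := hcT ℓ hℓ hℓN
      have hiS : i.ell ∉ S := by rw [hi]; exact hℓS
      exact ⟨⟨Sum.inr (s59e_tau i ((n - 1) * m)), s59e_anemic_inr S _⟩,
        ⟨Sum.inl i, s59e_anemic_inl S i hiS⟩, ha21 ℓ hℓ hℓN hℓS i hi, hci⟩)
    ρbar habs
    (fun ℓ hℓ hℓN hℓS A hA σ hσ => by
      obtain ⟨i, hi, hci⟩ := hcT ℓ hℓ hℓN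
      rw [hci]
      exact hEig ℓ hℓ hℓN hℓS i hi A hA σ hσ)
    (s59t_iotaH ε₂ ε₁ (s59t_resGHpar hle 𝒪 𝒪)) hinj
    (fun ℓ hℓ h₁ h₂ hℓS z z' hz => by
      obtain ⟨i, hi⟩ := hidx ℓ hℓ h₂
      have hiS : i.ell ∉ S := by rw [hi]; exact hℓS
      rw [s59t_iotaH_coe, s59t_iotaH_coe, hz, ha21 ℓ hℓ h₂ hℓS i hi, ha₁ ℓ hℓ h₁ hℓS i hi,
        s59e_res_Tp', hεT i hiS])
  obtain ⟨aM₂, haM₂, hlr, f, hf, hfs, hfr, hfT, hfu⟩ := hmid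
  exact ⟨a₂, aM₂, ha21, haM₂, hlr, f, hf, hfs, hfr, hfT, hfu⟩

end Concrete

end Fermat.Agent.Lib.S59
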