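/-
PROGRAMME (R) (helper3, prefix `s59u_`), node (B4) of helper5's plan #3487: **type 1 — `h1tr`, `h1det` in the FINAL FORM
of the hypotheses of `s59e_TLevel_abs`.**

ABSTRACT CORE (this section): `Y₂ → Y'` a map onto the `C`-invariants of `Y'`, equivariant along `f : T′ → T₂`
(`ι₂ (f t • z) = t • ι₂ z`); if `f x = 0` then `x` kills the `C`-invariants, i.e. `x ∈ Ann_T (eig ρ' C 1)`.  Applied
to `x = θ(cpTr ρ₀ σ) − 2`, `θ(cpDt ρ₀ σ) − 1`, `σ` in the inertia at `q`, when the base change of `ρ₀` to `T₂` is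
unipotent on inertia at `q` (helper5's `s59e_cp_unip`).
-/
import Mathlib
import Fermat.Agent.Lib.S59.ETGal
import Fermat.Agent.Lib.S59.TEigT
import Fermat.Agent.Lib.S59.ETR1Top2
import Fermat.Agent.Lib.S59.ERing2

set_option autoImplicit false
set_option linter.unusedSectionVars false
set_option linter.unusedVariables false
set_option linter.style.haveILetI false
set_option synthInstance.maxHeartbeats 400000
set_option maxHeartbeats 1000000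

noncomputable section

namespace Fermat.Agent.Lib.S59

open Matrix.SpecialLinearGroup CongruenceSubgroup ModularCurve.Period Polynomial CuspForm
open Fermat.Agent.Lib.S48 Fermat.Agent.Lib.ES IsLocalRing
open scoped MatrixGroups

local notation "Qbar" => AlgebraicClosure ℚ
local notation "GQ" => (AlgebraicClosure ℚ ≃ₐ[ℚ] AlgebraicClosure ℚ)

section Abs

variable {𝒪 : Type*} [CommRing 𝒪] {Δ' : Type*} [CommGroup Δ'] [Fintype Δ']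
  {Y' : Type*} [AddCommGroup Y'] [Module 𝒪 Y'] (ρ' : Δ' →* Module.End 𝒪 Y') (C : Subgroup Δ')
  {T' : Type} [CommRing T'] {T : Type} [CommRing T] [Algebra 𝒪 T] [Algebra T' T]
  [Module T Y'] [IsScalarTower 𝒪 T Y']
  (hTρ : ∀ (t : T) (δ : Δ') (y : Y'), t • ρ' δ y = ρ' δ (t • y))
  {Y₂ : Type*} [AddCommGroup Y₂] (ι₂ : Y₂ →+ Y')
  (hι₂ : ∀ y ∈ s59t_eig ρ' C (1 : Δ' →* 𝒪ˣ), ∃ z, ι₂ z = y)
  {T₂ : Type} [CommRing T₂] (act₂ : T₂ → Y₂ → Y₂) (hact₂ : ∀ z, act₂ 0 z = 0)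
  (f : T' →+* T₂)
  (hfι : ∀ (t : T') (z : Y₂), ι₂ (act₂ (f t) z) = algebraMap T' T t • ι₂ z)

include hι₂ hact₂ hfι in
/-- an element of `T′` killed by `f` annihilates the `C`-invariants. -/
theorem s59u_mem_ann_of_map_eq_zero (x : T') (hx : f x = 0) :
    algebraMap T' T x ∈ Module.annihilator T (s59t_EigT ρ' C (1 : Δ' →* 𝒪ˣ) hTρ) := by
  rw [Module.mem_annihilator]
  intro w
  apply s59t_EigT_val_injective ρ' C (1 : Δ' →* 𝒪ˣ) hTρ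
  rw [s59t_EigT_val_smul, map_zero]
  obtain ⟨z, hz⟩ := hι₂ _ (s59t_EigT_val_mem ρ' C (1 : Δ' →* 𝒪ˣ) hTρ w)
  rw [← hz, ← hfι, hx, hact₂, map_zero]

variable [IsLocalRing T'] [IsLocalRing T₂]
  {A₀ : Type} [CommRing A₀] [IsLocalRing A₀] (ρ₀ : GaloisRepAdic A₀)
  (θ : A₀ →+* T') (hθ : IsLocalHom θ) (hf : IsLocalHom f)

include hι₂ hact₂ hfι in
/-- **type 1, abstract form**: if `(ρ₀ ⊗ T′) ⊗ T₂` is unipotent on inertia at `q` then `θ(tr ρ₀ σ) − 2` and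
`θ(det ρ₀ σ) − 1` annihilate the `C`-invariants of `Y'`, for every `σ` in an inertia group at `q`. -/
theorem s59u_type1_abs (q : ℕ)
    (hun : ((ρ₀.baseChangeAlong θ hθ).baseChangeAlong f hf).IsUnipotentOnInertiaAt q)
    (P : ValuationSubring Qbar) (hP : P.LiesOverPrime q) (σ : GQ)
    (hσ : σ ∈ P.inertiaSubgroupIn ℚ) :
    algebraMap T' T (θ (s59i_cpTr ρ₀ σ)) - 2 ∈
        Module.annihilator T (s59t_EigT ρ' C (1 : Δ' →* 𝒪ˣ) hTρ) ∧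
      algebraMap T' T (θ (s59i_cpDt ρ₀ σ)) - 1 ∈
        Module.annihilator T (s59t_EigT ρ' C (1 : Δ' →* 𝒪ˣ) hTρ) := by
  obtain ⟨h1, h2⟩ := s59e_cp_unip f hf (ρ₀.baseChangeAlong θ hθ) q hun P hP σ hσ
  rw [s59e_cpTr_map] at h1
  rw [s59e_cpDt_map] at h2
  constructor
  · have h := s59u_mem_ann_of_map_eq_zero ρ' C hTρ ι₂ hι₂ act₂ hact₂ f hfι
      (θ (s59i_cpTr ρ₀ σ) - 2) (by rw [map_sub, h1, map_ofNat, sub_self])
    rwa [map_sub, map_ofNat] at h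
  · have h := s59u_mem_ann_of_map_eq_zero ρ' C hTρ ι₂ hι₂ act₂ hact₂ f hfι
      (θ (s59i_cpDt ρ₀ σ) - 1) (by rw [map_sub, h2, map_one, sub_self])
    rwa [map_sub, map_one] at h

end Abs

/-! ### The final form for helper5's rings `T′ = s59e_adj 𝒪 aM₁ ⊆ T = s59e_adj 𝒪 (s59e_aB aM₁ ρB hcomm)` -/

section Final

variable {𝒪 : Type} [CommRing 𝒪]
  {Z₁ : Type} [AddCommGroup Z₁] [Module 𝒪 Z₁] {Z₂ : Type} [AddCommGroup Z₂] [Module 𝒪 Z₂]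
  (ε₁ : Module.End 𝒪 Z₁) (ε₂ : Module.End 𝒪 Z₂)
  {A₁ : Type*} [CommRing A₁] {A₂ : Type*} [CommRing A₂]
  (aM₁ : A₁ →+* Module.End 𝒪 (LinearMap.range ε₁))
  (aM₂ : A₂ →+* Module.End 𝒪 (LinearMap.range ε₂))
  [IsLocalRing (s59e_adj 𝒪 aM₁)] [IsLocalRing (s59e_adj 𝒪 aM₂)]
  (ι : LinearMap.range ε₂ →ₗ[𝒪] LinearMap.range ε₁)
  -- the outputs of `s59e_TR1'`
  (f : s59e_adj 𝒪 aM₁ →ₐ[𝒪] s59e_adj 𝒪 aM₂)
  (hf : IsLocalHom (f : s59e_adj 𝒪 aM₁ →+* s59e_adj 𝒪 aM₂))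
  (hfr : ∀ (t : s59e_adj 𝒪 aM₁) (z : LinearMap.range ε₂),
    ι (((f t : s59e_adj 𝒪 aM₂) : Module.End 𝒪 (LinearMap.range ε₂)) z) =
      (t : Module.End 𝒪 (LinearMap.range ε₁)) (ι z))
  -- the Galois side
  {A₀ : Type} [CommRing A₀] [IsLocalRing A₀] (ρ₀ : GaloisRepAdic A₀)
  (θ : A₀ →+* s59e_adj 𝒪 aM₁) (hθ : IsLocalHom θ)
  -- the diamonds on `Y' = range ε₁` and the `Cs`-invariants
  {Δ' : Type*} [CommGroup Δ'] [Fintype Δ'] (ρ' : Δ' →* Module.End 𝒪 (LinearMap.range ε₁))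
  (Bq Cs : Subgroup Δ')
  (hcomm : ∀ (t : A₁) (β : Bq), Commute (aM₁ t) ((ρ'.comp Bq.subtype) β))
  (hTρ : ∀ (t : s59e_adj 𝒪 (s59e_aB aM₁ (ρ'.comp Bq.subtype) hcomm)) (δ : Δ')
    (y : LinearMap.range ε₁), t • ρ' δ y = ρ' δ (t • y))
  (hsurj : ∀ y : LinearMap.range ε₁, (∀ β ∈ Cs, ρ' β y = y) → ∃ x, ι x = y)

include hfr hsurj in
/-- **(B4) type 1, FINAL FORM** (`h1tr`, `h1det` of `s59e_TLevel_abs` at one `σ`): from the outputs `(f, hf, hfr, hfu)`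
of helper5's `s59e_TR1'` at `(M, H₁ := H') → (M, H₂ := H₂')` (with `ι := s59t_iotaH ε₂ ε₁ (s59t_resGHpar hle 𝒪 𝒪)`,
`ρ₁ := ρ₀.baseChangeAlong θ hθ`) and `hsurj` = the 4th conjunct of helper8's `s59t_TWFull … Cs Bq ε₂ ε₁` (P2). -/
theorem s59u_type1_final (q : ℕ)
    (hfu : ((ρ₀.baseChangeAlong θ hθ).baseChangeAlong
      (f : s59e_adj 𝒪 aM₁ →+* s59e_adj 𝒪 aM₂) hf).IsUnipotentOnInertiaAt q)
    (P : ValuationSubring Qbar) (hP : P.LiesOverPrime q) (σ : GQ)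
    (hσ : σ ∈ P.inertiaSubgroupIn ℚ) :
    letI := s59e_algTT (𝒪 := 𝒪) aM₁ (ρ'.comp Bq.subtype) hcomm
    algebraMap (s59e_adj 𝒪 aM₁) (s59e_adj 𝒪 (s59e_aB aM₁ (ρ'.comp Bq.subtype) hcomm))
        (θ (s59i_cpTr ρ₀ σ)) - 2 ∈
      Module.annihilator (s59e_adj 𝒪 (s59e_aB aM₁ (ρ'.comp Bq.subtype) hcomm))
        (s59t_EigT (T := s59e_adj 𝒪 (s59e_aB aM₁ (ρ'.comp Bq.subtype) hcomm)) ρ' Cs
          (1 : Δ' →* 𝒪ˣ) hTρ) ∧
    algebraMap (s59e_adj 𝒪 aM₁) (s59e_adj 𝒪 (s59e_aB aM₁ (ρ'.comp Bq.subtype) hcomm))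
        (θ (s59i_cpDt ρ₀ σ)) - 1 ∈
      Module.annihilator (s59e_adj 𝒪 (s59e_aB aM₁ (ρ'.comp Bq.subtype) hcomm))
        (s59t_EigT (T := s59e_adj 𝒪 (s59e_aB aM₁ (ρ'.comp Bq.subtype) hcomm)) ρ' Cs
          (1 : Δ' →* 𝒪ˣ) hTρ) := by
  letI := s59e_algTT (𝒪 := 𝒪) aM₁ (ρ'.comp Bq.subtype) hcomm
  refine s59u_type1_abs ρ' Cs hTρ ι.toAddMonoidHom
    (fun y hy => hsurj y (fun β hβ => by
      have := hy β hβ
      rw [this]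
      show (((1 : Δ' →* 𝒪ˣ) β : 𝒪ˣ) : 𝒪) • y = y
      rw [MonoidHom.one_apply, Units.val_one, one_smul]))
    (fun (t : s59e_adj 𝒪 aM₂) (z : LinearMap.range ε₂) =>
      ((t : Module.End 𝒪 (LinearMap.range ε₂)) z))
    (fun z => rfl) (f : s59e_adj 𝒪 aM₁ →+* s59e_adj 𝒪 aM₂)
    (fun t z => ?_) ρ₀ θ hθ hf q hfu P hP σ hσ
  have h := hfr t z
  rw [s59e_smul_def, s59e_algTT_coe]
  exact h

omit [IsLocalRing (s59e_adj 𝒪 aM₂)] in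
include hsurj in
/-- the same with the outputs of `s59e_TR1'` packed existentially (so that no `obtain` is needed in front of the
concrete goal). -/
theorem s59u_type1_of_exists (q : ℕ) (P : ValuationSubring Qbar) (hP : P.LiesOverPrime q) (σ : GQ)
    (hσ : σ ∈ P.inertiaSubgroupIn ℚ)
    (h : ∃ (aM₂ : A₂ →+* Module.End 𝒪 (LinearMap.range ε₂))
      (_ : IsLocalRing (s59e_adj 𝒪 aM₂)) (f : s59e_adj 𝒪 aM₁ →ₐ[𝒪] s59e_adj 𝒪 aM₂)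
      (hf : IsLocalHom (f : s59e_adj 𝒪 aM₁ →+* s59e_adj 𝒪 aM₂)),
      (∀ (t : s59e_adj 𝒪 aM₁) (z : LinearMap.range ε₂),
        ι (((f t : s59e_adj 𝒪 aM₂) : Module.End 𝒪 (LinearMap.range ε₂)) z) =
          (t : Module.End 𝒪 (LinearMap.range ε₁)) (ι z)) ∧
      ((ρ₀.baseChangeAlong θ hθ).baseChangeAlong
        (f : s59e_adj 𝒪 aM₁ →+* s59e_adj 𝒪 aM₂) hf).IsUnipotentOnInertiaAt q) :
    letI := s59e_algTT (𝒪 := 𝒪) aM₁ (ρ'.comp Bq.subtype) hcomm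
    algebraMap (s59e_adj 𝒪 aM₁) (s59e_adj 𝒪 (s59e_aB aM₁ (ρ'.comp Bq.subtype) hcomm))
        (θ (s59i_cpTr ρ₀ σ)) - 2 ∈
      Module.annihilator (s59e_adj 𝒪 (s59e_aB aM₁ (ρ'.comp Bq.subtype) hcomm))
        (s59t_EigT (T := s59e_adj 𝒪 (s59e_aB aM₁ (ρ'.comp Bq.subtype) hcomm)) ρ' Cs
          (1 : Δ' →* 𝒪ˣ) hTρ) ∧
    algebraMap (s59e_adj 𝒪 aM₁) (s59e_adj 𝒪 (s59e_aB aM₁ (ρ'.comp Bq.subtype) hcomm))
        (θ (s59i_cpDt ρ₀ σ)) - 1 ∈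
      Module.annihilator (s59e_adj 𝒪 (s59e_aB aM₁ (ρ'.comp Bq.subtype) hcomm))
        (s59t_EigT (T := s59e_adj 𝒪 (s59e_aB aM₁ (ρ'.comp Bq.subtype) hcomm)) ρ' Cs
          (1 : Δ' →* 𝒪ˣ) hTρ) := by
  obtain ⟨aM₂, hlr, f, hf, hfr, hfu⟩ := h
  haveI := hlr
  exact s59u_type1_final ε₁ ε₂ aM₁ aM₂ ι f hf hfr ρ₀ θ hθ ρ' Bq Cs hcomm hTρ hsurj q hfu P hP σ hσ

end Final

end Fermat.Agent.Lib.S59
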