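/-
PROGRAMME (R) (helper3, prefix `s59u_`), node (B4): **type 1 at the concrete level** — the call of helper5's `s59e_TR1'`
at `(M, H₁) → (M, H₂)` followed by `s59u_type1_final` (`UType1.lean`).
-/
import Mathlib
import Fermat.Agent.Lib.S59.UType1

set_option autoImplicit false
set_option linter.unusedSectionVars false
set_option linter.unusedVariables false
set_option linter.style.haveILetI false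
set_option synthInstance.maxHeartbeats 400000
set_option maxHeartbeats 1000000

noncomputable section

namespace Fermat.Agent.Lib.S59

open Matrix.SpecialLinearGroup CongruenceSubgroup ModularCurve.Period Polynomial CuspForm
open Fermat.Agent.Lib.S48 Fermat.Agent.Lib.ES IsLocalRing
open scoped MatrixGroups

local notation "Qbar" => AlgebraicClosure ℚ
local notation "GQ" => (AlgebraicClosure ℚ ≃ₐ[ℚ] AlgebraicClosure ℚ)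

section Concrete

variable {p : ℕ} [Fact p.Prime] {M : ℕ} [NeZero M] (H₁ H₂ : Subgroup (ZMod M)ˣ)
  (S : Finset ℕ)
  {𝒪 : Type} [CommRing 𝒪] [IsDomain 𝒪] [IsDiscreteValuationRing 𝒪]
  [IsAdicComplete (maximalIdeal 𝒪) 𝒪] [Finite (ResidueField 𝒪)] [CharZero 𝒪]

/-- **(B4) type 1, concrete form** (binders = those of helper5's `s59e_TR1'`, with `ρ₁ := ρ₀.baseChangeAlong θ hθ`,
`hρ₁` in the `hfrobT`-shape, plus the representation `ρ'` of the diamonds on `Y' = range ε₁`, the subgroups `Bq`, `Cs`,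
and `hsurj` = the 4th conjunct of helper8's `s59t_TWFull … Cs Bq ε₂ ε₁`): for every prime `q ≠ p` with `q ∥ M'₂` and
every `σ` in an inertia group at `q`, `θ(tr ρ₀ σ) − 2` and `θ(det ρ₀ σ) − 1` annihilate the `Cs`-invariants of `Y'`. -/
theorem s59u_type1_level (hp2 : p ≠ 2) (hp𝒪 : (p : 𝒪) ∈ maximalIdeal 𝒪) (hpS : p ∈ S)
    (hle : s48h_GammaH M H₁ ≤ s48h_GammaH M H₂) {n m : ℕ} (hnm : 2 * m = n + 1)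
    -- level 1 (the output of `s59e_H3'` at `H₁`)
    (M'₁ : ℕ) [NeZero M'₁] (hS₁ : ∀ q : ℕ, q.Prime → q ∣ M'₁ → q ∈ S)
    {ι₁ : Type*} [Fintype ι₁] [DecidableEq ι₁]
    (cB₁ : Module.Basis ι₁ 𝒪 (s48h_Hpar 𝒪 (s48h_GammaH M H₁) 𝒪))
    (a₁ : heckeAlgebra M'₁ 2 (↑S : Set ℕ) →+*
      Module.End 𝒪 (s48h_Hpar 𝒪 (s48h_GammaH M H₁) 𝒪))
    (ha₁ : ∀ (ℓ : ℕ) (hℓ : ℓ.Prime) (hℓN : ¬ ℓ ∣ M'₁) (hℓS : ℓ ∉ (↑S : Set ℕ)) (i : s59w_TIdx M),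
      i.ell = ℓ → a₁ (heckeAlgebra.T hℓ hℓN hℓS) = s59e_Tp' H₁ 𝒪 ((n - 1) * m) i)
    (ε₁ : Module.End 𝒪 (s48h_Hpar 𝒪 (s48h_GammaH M H₁) 𝒪)) (hε₁ : ε₁ * ε₁ = ε₁)
    (hεc₁ : ∀ j, s59e_Anemic S j → ε₁ * s59w_op H₁ 𝒪 j = s59w_op H₁ 𝒪 j * ε₁)
    (aM₁ : heckeAlgebra M'₁ 2 (↑S : Set ℕ) →+* Module.End 𝒪 (LinearMap.range ε₁))
    (haM₁ : ∀ t (z : LinearMap.range ε₁), ((aM₁ t z : LinearMap.range ε₁) :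
      s48h_Hpar 𝒪 (s48h_GammaH M H₁) 𝒪) = a₁ t (z : s48h_Hpar 𝒪 (s48h_GammaH M H₁) 𝒪))
    [IsLocalRing (s59e_adj 𝒪 aM₁)]
    {A₀ : Type} [CommRing A₀] [IsLocalRing A₀] (ρ₀ : GaloisRepAdic A₀)
    (θ : A₀ →+* s59e_adj 𝒪 aM₁) (hθ : IsLocalHom θ)
    (hρ₁ : ∀ (ℓ : ℕ) (hℓ : ℓ.Prime) (h₁ : ¬ ℓ ∣ M'₁) (hℓS : ℓ ∉ (↑S : Set ℕ))
      (P : ValuationSubring Qbar), P.LiesOverPrime ℓ → ∀ σ : GQ, P.IsFrobeniusAt σ ℓ →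
      LinearMap.charpoly ((ρ₀.baseChangeAlong θ hθ).ρ σ) =
        X ^ 2 - C (s59e_adjHom 𝒪 aM₁ (heckeAlgebra.T hℓ h₁ hℓS)) * X +
          C ((ℓ : s59e_adj 𝒪 aM₁)))
    -- level 2 (the input of [REL] and of the Hecke half at `H₂`)
    (N₂ : ℕ) [NeZero N₂] (Q₂ : Finset ℕ) {ι₂ : Type*} [Fintype ι₂] [DecidableEq ι₂]
    (b₂ : Module.Basis ι₂ ℤ (s48h_M (s48h_GammaH M H₂)))
    (M'₂ : ℕ) [NeZero M'₂] [Fact (HasIntegralStructure M'₂ 2)]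
    (hQ : ∀ q ∈ Q₂, q.Prime ∧ ¬ q ∣ N₂)
    (hM : M = N₂ * ∏ q ∈ Q₂, q) {D : ℕ} (hDQ : D = ∏ q ∈ Q₂, q) (hD : D ∣ M)
    (hH : s59u_ker M D hD ≤ H₂) (hn : ∀ u : (ZMod M)ˣ, u ^ n ∈ H₂)
    (hM' : M'₂ = N₂ * ∏ q ∈ Q₂, q ^ 2) (hS₂ : ∀ q : ℕ, q.Prime → q ∣ M'₂ → q ∈ S)
    (cB₂ : Module.Basis ι₂ 𝒪 (s48h_Hpar 𝒪 (s48h_GammaH M H₂) 𝒪))
    (hcB₂ : ∀ i, ((cB₂ i : s48h_Hpar 𝒪 (s48h_GammaH M H₂) 𝒪) :
      Additive (s48h_GammaH M H₂) →+ 𝒪) = s48h_castB b₂ 𝒪 i)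
    (ε₂ : Module.End 𝒪 (s48h_Hpar 𝒪 (s48h_GammaH M H₂) 𝒪)) (hε₂ : ε₂ * ε₂ = ε₂) (hε0₂ : ε₂ ≠ 0)
    (hεc₂ : ∀ j, s59e_Anemic S j → ε₂ * s59w_op H₂ 𝒪 j = s59w_op H₂ 𝒪 j * ε₂)
    (c : s59w_AIdx M → 𝒪)
    (hnil : ∀ j, s59e_Anemic S j → ∃ k : ℕ, ∀ z, ((s59w_op H₂ 𝒪 j - c j • 1) ^ k) (ε₂ z) ∈
      maximalIdeal 𝒪 • (⊤ : Submodule 𝒪 (s48h_Hpar 𝒪 (s48h_GammaH M H₂) 𝒪)))
    (ρbar : ResidualGaloisRep (ResidueField 𝒪)) (habs : ρbar.IsAbsolutelyIrreducible)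
    (hEig : ∀ (ℓ : ℕ) (_ : ℓ.Prime) (_ : ¬ ℓ ∣ M'₂) (_ : ℓ ∉ S) (i : s59w_TIdx M), i.ell = ℓ →
      ∀ A : ValuationSubring Qbar, A.LiesOverPrime ℓ → ∀ σ : GQ, A.IsFrobeniusAt σ ℓ →
        LinearMap.charpoly (ρbar.ρ σ) = X ^ 2 - C (residue 𝒪
          (c (Sum.inr (s59e_tau i ((n - 1) * m))) * c (Sum.inl i))) * X +
          C ((ℓ : ResidueField 𝒪)))
    (hinj : Function.Injective (s59t_iotaH ε₂ ε₁ (s59t_resGHpar hle 𝒪 𝒪)))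
    -- the diamonds on `Y' = range ε₁` and the `Cs`-invariants
    {Δ' : Type} [CommGroup Δ'] [Fintype Δ'] (ρ' : Δ' →* Module.End 𝒪 (LinearMap.range ε₁))
    (Bq Cs : Subgroup Δ')
    (hcomm : ∀ (t : heckeAlgebra M'₁ 2 (↑S : Set ℕ)) (β : Bq),
      Commute (aM₁ t) ((ρ'.comp Bq.subtype) β))
    (hTρ : ∀ (t : s59e_adj 𝒪 (s59e_aB aM₁ (ρ'.comp Bq.subtype) hcomm)) (δ : Δ')
      (y : LinearMap.range ε₁), t • ρ' δ y = ρ' δ (t • y))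
    (hsurj : ∀ y : LinearMap.range ε₁, (∀ β ∈ Cs, ρ' β y = y) →
      ∃ x, s59t_iotaH ε₂ ε₁ (s59t_resGHpar hle 𝒪 𝒪) x = y)
    -- the prime `q ∥ M'₂` and the inertia element
    (q : ℕ) (hq : q.Prime) (hqp : q ≠ p) (hqM : q ∣ M'₂) (hq2 : ¬ q ^ 2 ∣ M'₂)
    (P : ValuationSubring Qbar) (hP : P.LiesOverPrime q) (σ : GQ)
    (hσ : σ ∈ P.inertiaSubgroupIn ℚ) :
    letI := s59e_algTT (𝒪 := 𝒪) (Y := ↥(LinearMap.range ε₁)) (A := heckeAlgebra M'₁ 2 (↑S : Set ℕ))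
      (B := ↥Bq) aM₁ (ρ'.comp Bq.subtype) hcomm
    algebraMap (s59e_adj 𝒪 aM₁) (s59e_adj 𝒪 (s59e_aB aM₁ (ρ'.comp Bq.subtype) hcomm))
        (θ (s59i_cpTr ρ₀ σ)) - 2 ∈
      Module.annihilator (s59e_adj 𝒪 (s59e_aB aM₁ (ρ'.comp Bq.subtype) hcomm))
        (s59t_EigT (𝒪 := 𝒪) (Δ := Δ') (M := ↥(LinearMap.range ε₁))
          (T := s59e_adj 𝒪 (s59e_aB aM₁ (ρ'.comp Bq.subtype) hcomm)) ρ' Cs
          (1 : Δ' →* 𝒪ˣ) hTρ) ∧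
    algebraMap (s59e_adj 𝒪 aM₁) (s59e_adj 𝒪 (s59e_aB aM₁ (ρ'.comp Bq.subtype) hcomm))
        (θ (s59i_cpDt ρ₀ σ)) - 1 ∈
      Module.annihilator (s59e_adj 𝒪 (s59e_aB aM₁ (ρ'.comp Bq.subtype) hcomm))
        (s59t_EigT (𝒪 := 𝒪) (Δ := Δ') (M := ↥(LinearMap.range ε₁))
          (T := s59e_adj 𝒪 (s59e_aB aM₁ (ρ'.comp Bq.subtype) hcomm)) ρ' Cs
          (1 : Δ' →* 𝒪ˣ) hTρ) := by
  classical
  have h : ∃ (aM₂ : heckeAlgebra M'₂ 2 (↑S : Set ℕ) →+* Module.End 𝒪 (LinearMap.range ε₂))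
      (_ : IsLocalRing (s59e_adj 𝒪 aM₂)) (f : s59e_adj 𝒪 aM₁ →ₐ[𝒪] s59e_adj 𝒪 aM₂)
      (hf : IsLocalHom (f : s59e_adj 𝒪 aM₁ →+* s59e_adj 𝒪 aM₂)),
      (∀ (t : s59e_adj 𝒪 aM₁) (z : LinearMap.range ε₂),
        s59t_iotaH ε₂ ε₁ (s59t_resGHpar hle 𝒪 𝒪)
          (((f t : s59e_adj 𝒪 aM₂) : Module.End 𝒪 (LinearMap.range ε₂)) z) =
          (t : Module.End 𝒪 (LinearMap.range ε₁))
            (s59t_iotaH ε₂ ε₁ (s59t_resGHpar hle 𝒪 𝒪) z)) ∧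
      ((ρ₀.baseChangeAlong θ hθ).baseChangeAlong
        (f : s59e_adj 𝒪 aM₁ →+* s59e_adj 𝒪 aM₂) hf).IsUnipotentOnInertiaAt q := by
    have hTR := s59e_TR1' (p := p) H₁ H₂ S hp2 hp𝒪 hpS hle hnm M'₁ hS₁ cB₁ a₁ ha₁ ε₁ hε₁ hεc₁
        aM₁ haM₁ (ρ₀.baseChangeAlong θ hθ) hρ₁
        N₂ Q₂ b₂ M'₂ hQ hM hDQ hD hH hn hM' hS₂ cB₂ hcB₂ ε₂ hε₂ hε0₂ hεc₂ c hnil ρbar habs hEig
        hinj
    refine Exists.elim hTR (fun a₂ h1 => ?_)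
    refine Exists.elim h1 (fun aM₂ h2 => ?_)
    refine Exists.elim h2.2.2 (fun hlr h3 => ?_)
    refine Exists.elim h3 (fun f h4 => ?_)
    refine Exists.elim h4 (fun hf h5 => ?_)
    exact ⟨aM₂, hlr, f, hf, h5.2.1, h5.2.2.2 q hq hqp hqM hq2⟩
  exact s59u_type1_of_exists ε₁ ε₂ aM₁ (s59t_iotaH ε₂ ε₁ (s59t_resGHpar hle 𝒪 𝒪))
    ρ₀ θ hθ ρ' Bq Cs hcomm hTρ hsurj q P hP σ hσ h

end Concrete

end Fermat.Agent.Lib.S59
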