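/-
PROGRAMME (R) (helper3, prefix `s59u_`), node (B4): **type 1 from a Taylor–Wiles pair** — `s59u_type1_level`
(`UType1L.lean`) with its level-`2` inputs read off helper8's package `s59t_TWFull … Cs Bq ε₂ ε₁`
(`hinj`, `hsurj`, `ε₂ ≠ 0`), the anemic constants `c := s59t_cB M a` (`a_ℓ` for `T_ℓ`, `1` for the diamonds,
which are topologically unipotent at a `p`-group level), the lattice bases chosen internally and the integral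
structure of `S_2(Γ₀(M'₂))` taken from S23.
-/
import Mathlib
import Fermat.Agent.S23
import Fermat.Agent.Lib.S59.UType1L
import Fermat.Agent.Lib.S59.TLvlPkg
import Fermat.Agent.Lib.S59.UW6Lat

set_option autoImplicit false
set_option linter.unusedSectionVars false
set_option linter.unusedVariables false
set_option linter.style.haveILetI false
set_option synthInstance.maxHeartbeats 400000
set_option maxHeartbeats 1000000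

noncomputable section

namespace Fermat.Agent.Lib.S59

open Matrix.SpecialLinearGroup CongruenceSubgroup ModularCurve.Period Polynomial CuspForm
open Fermat.Agent.Lib.S48 Fermat.Agent.Lib.ES IsLocalRing
open scoped MatrixGroups

local notation "Qbar" => AlgebraicClosure ℚ
local notation "GQ" => (AlgebraicClosure ℚ ≃ₐ[ℚ] AlgebraicClosure ℚ)

section Concrete

variable {p : ℕ} [Fact p.Prime] {M : ℕ} [NeZero M] (H₁ H₂ : Subgroup (ZMod M)ˣ)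
  (S : Finset ℕ)
  {𝒪 : Type} [CommRing 𝒪] [IsDomain 𝒪] [IsDiscreteValuationRing 𝒪]
  [IsAdicComplete (maximalIdeal 𝒪) 𝒪] [Finite (ResidueField 𝒪)] [CharZero 𝒪] [Algebra ℤ_[p] 𝒪]

/-- **(B4) type 1 from a Taylor–Wiles pair `(M, H₂) ← (M, H₁)`**: `s59u_type1_level` with `hinj`, `hsurj`, `ε₂ ≠ 0` read
off `s59t_TWFull (le_refl _) hle Cs Bq ε₂ ε₁`, `ρ' := s59t_partRep (s59t_rho M H₁ 𝒪 𝒪) hρ'`,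
`c := s59t_cB M a`. -/
theorem s59u_type1_full (hp2 : p ≠ 2) (hp𝒪 : (p : 𝒪) ∈ maximalIdeal 𝒪) (hpS : p ∈ S)
    (hle : s48h_GammaH M H₁ ≤ s48h_GammaH M H₂) {n m : ℕ} (hnm : 2 * m = n + 1)
    -- level 1 (the output of `s59e_H3'` at `H₁`)
    (M'₁ : ℕ) [NeZero M'₁] (hS₁ : ∀ q : ℕ, q.Prime → q ∣ M'₁ → q ∈ S)
    (a₁ : heckeAlgebra M'₁ 2 (↑S : Set ℕ) →+*
      Module.End 𝒪 (s48h_Hpar 𝒪 (s48h_GammaH M H₁) 𝒪))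
    (ha₁ : ∀ (ℓ : ℕ) (hℓ : ℓ.Prime) (hℓN : ¬ ℓ ∣ M'₁) (hℓS : ℓ ∉ (↑S : Set ℕ)) (i : s59w_TIdx M),
      i.ell = ℓ → a₁ (heckeAlgebra.T hℓ hℓN hℓS) = s59e_Tp' H₁ 𝒪 ((n - 1) * m) i)
    (ε₁ : Module.End 𝒪 (s48h_Hpar 𝒪 (s48h_GammaH M H₁) 𝒪)) (hε₁ : ε₁ * ε₁ = ε₁) (hε0₁ : ε₁ ≠ 0)
    (hεc₁ : ∀ j, ε₁ * s59w_op H₁ 𝒪 j = s59w_op H₁ 𝒪 j * ε₁)
    (aM₁ : heckeAlgebra M'₁ 2 (↑S : Set ℕ) →+* Module.End 𝒪 (LinearMap.range ε₁))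
    (haM₁ : ∀ t (z : LinearMap.range ε₁), ((aM₁ t z : LinearMap.range ε₁) :
      s48h_Hpar 𝒪 (s48h_GammaH M H₁) 𝒪) = a₁ t (z : s48h_Hpar 𝒪 (s48h_GammaH M H₁) 𝒪))
    [IsLocalRing (s59e_adj 𝒪 aM₁)]
    {A₀ : Type} [CommRing A₀] [IsLocalRing A₀] (ρ₀ : GaloisRepAdic A₀)
    (θ : A₀ →+* s59e_adj 𝒪 aM₁) (hθ : IsLocalHom θ)
    (hρ₁ : ∀ (ℓ : ℕ) (hℓ : ℓ.Prime) (h₁ : ¬ ℓ ∣ M'₁) (hℓS : ℓ ∉ (↑S : Set ℕ))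
      (P : ValuationSubring Qbar), P.LiesOverPrime ℓ → ∀ σ : GQ, P.IsFrobeniusAt σ ℓ →
      LinearMap.charpoly ((ρ₀.baseChangeAlong θ hθ).ρ σ) =
        X ^ 2 - C (s59e_adjHom 𝒪 aM₁ (heckeAlgebra.T hℓ h₁ hℓS)) * X +
          C ((ℓ : s59e_adj 𝒪 aM₁)))
    -- level 2
    (N₂ : ℕ) [NeZero N₂] (Q₂ : Finset ℕ) (M'₂ : ℕ) [NeZero M'₂]
    (hQ : ∀ q ∈ Q₂, q.Prime ∧ ¬ q ∣ N₂)
    (hM : M = N₂ * ∏ q ∈ Q₂, q) {D : ℕ} (hDQ : D = ∏ q ∈ Q₂, q) (hD : D ∣ M)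
    (hH : s59u_ker M D hD ≤ H₂) (hn : ∀ u : (ZMod M)ˣ, u ^ n ∈ H₂)
    (hM' : M'₂ = N₂ * ∏ q ∈ Q₂, q ^ 2) (hS₂ : ∀ q : ℕ, q.Prime → q ∣ M'₂ → q ∈ S)
    (ε₂ : Module.End 𝒪 (s48h_Hpar 𝒪 (s48h_GammaH M H₂) 𝒪)) (hε₂ : ε₂ * ε₂ = ε₂)
    (hεc₂ : ∀ j, ε₂ * s59w_op H₂ 𝒪 j = s59w_op H₂ 𝒪 j * ε₂)
    (Bset : Finset ℕ) (hBS : Bset ⊆ S) (a : ℕ → ℤ)
    (hnil : ∀ x ∈ s59t_goodB M Bset, ∃ k : ℕ, ∀ y : s48h_Hpar 𝒪 (s48h_GammaH M H₂) 𝒪,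
      ((s59w_op H₂ 𝒪 x - s59t_cB (𝒪 := 𝒪) M a x •
        (1 : Module.End 𝒪 (s48h_Hpar 𝒪 (s48h_GammaH M H₂) 𝒪))) ^ k) (ε₂ y) ∈
        (maximalIdeal 𝒪 • ⊤ : Submodule 𝒪 (s48h_Hpar 𝒪 (s48h_GammaH M H₂) 𝒪)))
    (hH₂p : ∀ u : (ZMod M)ˣ, ∃ k : ℕ, u ^ (p ^ k) ∈ H₂)
    (ρbar : ResidualGaloisRep (ResidueField 𝒪)) (habs : ρbar.IsAbsolutelyIrreducible)
    (hEig : ∀ ℓ : ℕ, ℓ.Prime → ¬ ℓ ∣ M'₂ → ℓ ∉ S →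
      ∀ A : ValuationSubring Qbar, A.LiesOverPrime ℓ → ∀ σ : GQ, A.IsFrobeniusAt σ ℓ →
        LinearMap.charpoly (ρbar.ρ σ) = X ^ 2 - C (residue 𝒪 ((a ℓ : ℤ) : 𝒪)) * X +
          C ((ℓ : ResidueField 𝒪)))
    -- the Taylor–Wiles package and the diamonds on `Y' = range ε₁`
    (Bq Cs : Subgroup (s59t_Delta M H₁)) [Fintype Bq] [Fintype Cs]
    (hfull : s59t_TWFull (le_refl (Gamma0 M)) hle Cs Bq ε₂ ε₁)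
    (hρ' : ∀ δ y, ε₁ (s59t_rho M H₁ 𝒪 𝒪 δ y) = s59t_rho M H₁ 𝒪 𝒪 δ (ε₁ y))
    (hcomm : ∀ (t : heckeAlgebra M'₁ 2 (↑S : Set ℕ)) (β : Bq),
      Commute (aM₁ t) (((s59t_partRep (s59t_rho M H₁ 𝒪 𝒪) hρ').comp Bq.subtype) β))
    (hTρ : ∀ (t : s59e_adj 𝒪 (s59e_aB aM₁
        ((s59t_partRep (s59t_rho M H₁ 𝒪 𝒪) hρ').comp Bq.subtype) hcomm)) (δ : s59t_Delta M H₁)
      (y : LinearMap.range ε₁), t • s59t_partRep (s59t_rho M H₁ 𝒪 𝒪) hρ' δ y =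
        s59t_partRep (s59t_rho M H₁ 𝒪 𝒪) hρ' δ (t • y))
    -- the prime `q ∥ M'₂` and the inertia element
    (q : ℕ) (hq : q.Prime) (hqp : q ≠ p) (hqM : q ∣ M'₂) (hq2 : ¬ q ^ 2 ∣ M'₂)
    (P : ValuationSubring Qbar) (hP : P.LiesOverPrime q) (σ : GQ)
    (hσ : σ ∈ P.inertiaSubgroupIn ℚ) :
    s59e_incl aM₁ ((s59t_partRep (s59t_rho M H₁ 𝒪 𝒪) hρ').comp Bq.subtype) hcomm
        (θ (s59i_cpTr ρ₀ σ)) - 2 ∈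
      Module.annihilator (s59e_adj 𝒪 (s59e_aB aM₁
          ((s59t_partRep (s59t_rho M H₁ 𝒪 𝒪) hρ').comp Bq.subtype) hcomm))
        (s59t_EigT (𝒪 := 𝒪) (Δ := s59t_Delta M H₁) (M := ↥(LinearMap.range ε₁))
          (T := s59e_adj 𝒪 (s59e_aB aM₁
            ((s59t_partRep (s59t_rho M H₁ 𝒪 𝒪) hρ').comp Bq.subtype) hcomm))
          (s59t_partRep (s59t_rho M H₁ 𝒪 𝒪) hρ') Cs (1 : s59t_Delta M H₁ →* 𝒪ˣ) hTρ) ∧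
    s59e_incl aM₁ ((s59t_partRep (s59t_rho M H₁ 𝒪 𝒪) hρ').comp Bq.subtype) hcomm
        (θ (s59i_cpDt ρ₀ σ)) - 1 ∈
      Module.annihilator (s59e_adj 𝒪 (s59e_aB aM₁
          ((s59t_partRep (s59t_rho M H₁ 𝒪 𝒪) hρ').comp Bq.subtype) hcomm))
        (s59t_EigT (𝒪 := 𝒪) (Δ := s59t_Delta M H₁) (M := ↥(LinearMap.range ε₁))
          (T := s59e_adj 𝒪 (s59e_aB aM₁
            ((s59t_partRep (s59t_rho M H₁ 𝒪 𝒪) hρ').comp Bq.subtype) hcomm))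
          (s59t_partRep (s59t_rho M H₁ 𝒪 𝒪) hρ') Cs (1 : s59t_Delta M H₁ →* 𝒪ˣ) hTρ) := by
  classical
  haveI : Fact (HasIntegralStructure M'₂ 2) := ⟨Fermat.Agent.S23.result M'₂⟩
  have hε0₂ : ε₂ ≠ 0 := (hfull.ne_zero_iff (le_refl (Gamma0 M)) hle).2 hε0₁
  obtain ⟨hρ, hρ'', d, b, b', π, hb, hb', hinj, himg, -⟩ := hfull
  have hnil' : ∀ j, s59e_Anemic S j → ∃ k : ℕ, ∀ z,
      ((s59w_op H₂ 𝒪 j - s59t_cB (𝒪 := 𝒪) M a j • 1) ^ k) (ε₂ z) ∈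
        maximalIdeal 𝒪 • (⊤ : Submodule 𝒪 (s48h_Hpar 𝒪 (s48h_GammaH M H₂) 𝒪)) := by
    intro j hj
    rcases j with i | τ
    · exact hnil (Sum.inl i) ⟨i, rfl, fun h => hj i rfl (hBS h)⟩
    · exact s59t_topNil_dia p H₂ hp𝒪 hH₂p ε₂ τ
  have hEig' : ∀ (ℓ : ℕ) (_ : ℓ.Prime) (_ : ¬ ℓ ∣ M'₂) (_ : ℓ ∉ S) (i : s59w_TIdx M), i.ell = ℓ →
      ∀ A : ValuationSubring Qbar, A.LiesOverPrime ℓ → ∀ σ : GQ, A.IsFrobeniusAt σ ℓ →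
        LinearMap.charpoly (ρbar.ρ σ) = X ^ 2 - C (residue 𝒪
          (s59t_cB (𝒪 := 𝒪) M a (Sum.inr (s59e_tau i ((n - 1) * m))) *
            s59t_cB (𝒪 := 𝒪) M a (Sum.inl i))) * X + C ((ℓ : ResidueField 𝒪)) := by
    intro ℓ hℓ h1 h2 i hi A hA σ hσ
    show LinearMap.charpoly (ρbar.ρ σ) =
      X ^ 2 - C (residue 𝒪 ((1 : 𝒪) * ((a i.ell : ℤ) : 𝒪))) * X + C ((ℓ : ResidueField 𝒪))
    rw [one_mul, hi]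
    exact hEig ℓ hℓ h1 h2 A hA σ hσ
  exact s59u_type1_level (p := p) H₁ H₂ S hp2 hp𝒪 hpS hle hnm M'₁ hS₁
    (s59u_cB (Module.Free.chooseBasis ℤ (s48h_M (s48h_GammaH M H₁))) 𝒪) a₁ ha₁ ε₁ hε₁
    (fun j _ => hεc₁ j) aM₁ haM₁ ρ₀ θ hθ hρ₁ N₂ Q₂
    (Module.Free.chooseBasis ℤ (s48h_M (s48h_GammaH M H₂))) M'₂ hQ hM hDQ hD hH hn hM' hS₂
    (s59u_cB (Module.Free.chooseBasis ℤ (s48h_M (s48h_GammaH M H₂))) 𝒪)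
    (s59u_cB_coe (Module.Free.chooseBasis ℤ (s48h_M (s48h_GammaH M H₂))) 𝒪) ε₂ hε₂ hε0₂
    (fun j _ => hεc₂ j) (s59t_cB (𝒪 := 𝒪) M a) hnil' ρbar habs hEig' hinj
    (s59t_partRep (s59t_rho M H₁ 𝒪 𝒪) hρ') Bq Cs hcomm hTρ himg q hq hqp hqM hq2 P hP σ hσ

end Concrete

end Fermat.Agent.Lib.S59
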