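/-
PROGRAMME (R) (helper3, prefix `s59u_`), node (B4): **THE FREY INSTANTIATION OF TYPE 1** — the fields `h1tr`, `h1det`
of helper5's `s59e_TLevel_ring` at the Taylor–Wiles level `(N', H')`, `N' = N ∏ qv`,
`H' = s59t_Hmul N (∏ qv) H (s59t_KQ (p^n) qv)`, via the type-1 level `(N', H₂')`,
`H₂' = s59t_Hmul N (∏ qv) ⊤ (s59t_KQ (p^n) qv)` (`N₂ = N`, `Q₂ = image qv`, `M'₂ = N ∏ qv²`, so that every prime
`q ∣ N` divides `M'₂` exactly once, `N` being squarefree).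

Inputs: the conjuncts `hid' hid₂ hnil₂ hfull₂` of `s59u_frey_level_pkg` (for a GENERIC polynomial `t'`; in the
application `t' = G * s59t_jG 𝒪 (s59t_goodB N' B) e₀`), `ε' ≠ 0`, the (B2) data `a₁ ha₁ aM haM θ hfrobT` at `(N', H')`
(`tT' = s59e_tOf ↑Sn aM`), the diamonds `hρ' hcomm hTρ`, and a prime `q ∣ N`, `q ≠ p`, with `σ` in an inertia group at `q`.
-/
import Mathlib
import Fermat.Agent.Lib.S59.UType1F
import Fermat.Agent.Lib.S59.UFreyPkg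
import Fermat.Agent.Lib.S59.KLvlFin
import Fermat.Agent.Lib.S59.ETBaseD
import Fermat.Agent.Lib.S59.BTwFrey

set_option autoImplicit false
set_option linter.unusedSectionVars false
set_option linter.unusedVariables false
set_option linter.style.haveILetI false
set_option synthInstance.maxHeartbeats 400000
set_option maxHeartbeats 1000000

noncomputable section

namespace Fermat.Agent.Lib.S59

open Matrix MatrixGroups CongruenceSubgroup IsLocalRing Polynomial FreyPackage CuspForm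
open WeierstrassCurve WeierstrassCurve.Affine WeierstrassCurve.Affine.Point
open Fermat.Agent.Lib.S29 Fermat.Agent.Lib.S48 Fermat.Agent.Lib.S41 Fermat.Agent.Lib.S44

local notation "Γℚ" => (AlgebraicClosure ℚ ≃ₐ[ℚ] AlgebraicClosure ℚ)
local notation "Qbar" => AlgebraicClosure ℚ

section Num

variable {N : ℕ} {B Sn : Finset ℕ} {r : ℕ} (qv : Fin r → ℕ)

/-- the primes of `M'₂ = N ∏ qv²` lie in `Sn ⊇ B ∪ image qv`. -/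
theorem s59u_prime_dvd_level2 (hNB : ∀ q : ℕ, q.Prime → q ∣ N → q ∈ B) (hq : ∀ i, (qv i).Prime)
    (hBS : B ⊆ Sn) (hqS : ∀ i, qv i ∈ Sn) (q : ℕ) (hqp : q.Prime)
    (h : q ∣ N * ∏ q' ∈ Finset.univ.image qv, q' ^ 2) : q ∈ Sn := by
  rcases (Nat.Prime.dvd_mul hqp).1 h with h1 | h1
  · exact hBS (hNB q hqp h1)
  · obtain ⟨q', hq', hd⟩ := (Prime.dvd_finsetProd_iff hqp.prime _).1 h1
    obtain ⟨i, -, rfl⟩ := Finset.mem_image.mp hq'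
    have := (Nat.prime_dvd_prime_iff_eq hqp (hq i)).1 (hqp.dvd_of_dvd_pow hd)
    rw [this]
    exact hqS i

/-- a prime `q ∣ N` divides `M'₂ = N ∏ qv²` exactly once (`N` squarefree, `qv i ∤ N`). -/
theorem s59u_sq_not_dvd_level2 (hsq : Squarefree N) (hq : ∀ i, (qv i).Prime)
    (hqN : ∀ i, ¬ qv i ∣ N) (q : ℕ) (hqp : q.Prime) (hqd : q ∣ N) :
    ¬ q ^ 2 ∣ N * ∏ q' ∈ Finset.univ.image qv, q' ^ 2 := by
  intro h
  have hcop : Nat.Coprime (q ^ 2) (∏ q' ∈ Finset.univ.image qv, q' ^ 2) := by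
    refine Nat.Coprime.prod_right fun q' hq' => ?_
    obtain ⟨i, -, rfl⟩ := Finset.mem_image.mp hq'
    refine Nat.Coprime.pow 2 2 ((Nat.coprime_primes hqp (hq i)).2 fun he => hqN i ?_)
    rw [← he]
    exact hqd
  have h2 : q ^ 2 ∣ N := hcop.dvd_of_dvd_mul_right h
  rw [pow_two] at h2
  exact hqp.one_lt.ne' (Nat.isUnit_iff.mp (hsq q h2))

end Num

section Gen

variable {𝒪 : Type} [CommRing 𝒪] {E : Type} [Ring E] [Algebra 𝒪 E] {M₁ : ℕ} [NeZero M₁]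
  (S : Finset ℕ) (aM : heckeAlgebra M₁ 2 (↑S : Set ℕ) →+* E) [IsLocalRing (s59e_adj 𝒪 aM)]
  {A₀ : Type} [CommRing A₀] [IsLocalRing A₀] (ρ₀ : GaloisRepAdic A₀)
  (θ : A₀ →+* s59e_adj 𝒪 aM)

/-- a surjective homomorphism onto `𝒪[aM(𝕋)]` is local. -/
theorem s59u_isLocalHom_of_surj (hθs : Function.Surjective θ) : IsLocalHom θ :=
  IsLocalHom.of_surjective _ hθs

/-- the hypothesis `hρ₁` of `s59e_TR1'` from helper5's `hfrobT` (`tT' = s59e_tOf ↑S aM`). -/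
theorem s59u_hrho1_of_hfrobT (hθ : IsLocalHom θ)
    (hfrobT : ∀ ℓ : ℕ, ℓ.Prime → ℓ ∉ S →
      ∀ A' : ValuationSubring Qbar, A'.LiesOverPrime ℓ →
      ∀ τ : Γℚ, A'.IsFrobeniusAt τ ℓ →
        (LinearMap.charpoly (ρ₀.ρ τ)).map θ =
          X ^ 2 - C (s59e_tOf (𝒪 := 𝒪) (↑S : Set ℕ) aM ℓ) * X + C ((ℓ : s59e_adj 𝒪 aM)))
    (ℓ : ℕ) (hℓ : ℓ.Prime) (h₁ : ¬ ℓ ∣ M₁) (hℓS : ℓ ∉ (↑S : Set ℕ))
    (A' : ValuationSubring Qbar) (hA' : A'.LiesOverPrime ℓ) (τ : Γℚ) (hτ : A'.IsFrobeniusAt τ ℓ) :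
    LinearMap.charpoly ((ρ₀.baseChangeAlong θ hθ).ρ τ) =
      X ^ 2 - C (s59e_adjHom 𝒪 aM (heckeAlgebra.T hℓ h₁ hℓS)) * X +
        C ((ℓ : s59e_adj 𝒪 aM)) := by
  rw [s59e_bc_charpoly, hfrobT ℓ hℓ (fun h => hℓS (Finset.mem_coe.2 h)) A' hA' τ hτ,
    s59e_tOf_eq (↑S : Set ℕ) aM hℓ h₁ hℓS]

end Gen

section Frey

variable (P : FreyPackage) [Fact P.p.Prime] (hΔ : P.freyCurveInt.Δ ≠ 0) (N : ℕ) [NeZero N]
  (hcond : P.IsConductorLevel N)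
  (hirr : GaloisRepIsIrreducible (K := AlgebraicClosure ℚ) ℚ P.freyCurve P.p)
  (B : Finset ℕ) (hB1 : ∀ r : ℕ, r.Prime → r ∣ N * P.p → r ∈ B)
  (hB2 : ∀ r : ℕ, r.Prime → (r : ℤ) ∣ P.a * P.b * P.c → r ∈ B)
  {𝒪 : Type} [CommRing 𝒪] [IsDomain 𝒪] [IsDiscreteValuationRing 𝒪]
  [IsAdicComplete (maximalIdeal 𝒪) 𝒪] [Finite (ResidueField 𝒪)] [CharZero 𝒪]
  [Algebra ℤ_[P.p] 𝒪] (hp𝒪 : ((P.p : ℕ) : 𝒪) ∈ maximalIdeal 𝒪)
  (H : Subgroup (ZMod N)ˣ)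
  (n v : ℕ) {r : ℕ} (qv : Fin r → ℕ) [NeZero (∏ j, qv j)] [NeZero (N * ∏ j, qv j)]

include hΔ hcond hirr hB1 hB2 hp𝒪 in
set_option maxHeartbeats 1600000 in
/-- **(B4) at the Frey curve**: `θ(tr ρ₀ σ) − 2` and `θ(det ρ₀ σ) − 1` annihilate the `C_Q`-invariants of
`Y' = range ε'`, for `σ` in an inertia group at a prime `q ∣ N`, `q ≠ p`. -/
theorem s59u_frey_type1 (hqinj : Function.Injective qv)
    (hqv : ∀ i, (qv i).Prime ∧ qv i ∉ B ∧ P.p ^ (n + 1) ∣ qv i - 1)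
    (aq : ℕ → 𝒪) (t' : MvPolynomial (s59w_AIdx (N * ∏ j, qv j) ⊕ ℕ) 𝒪)
    -- the Taylor–Wiles level `(N', H')`
    (hid' : s59t_actH (N * ∏ j, qv j) aq (dvd_refl _)
        (s59t_Hmul N (∏ j, qv j) H (s59t_KQ (P.p ^ n) qv)) t' *
      s59t_actH (N * ∏ j, qv j) aq (dvd_refl _)
        (s59t_Hmul N (∏ j, qv j) H (s59t_KQ (P.p ^ n) qv)) t' =
      s59t_actH (N * ∏ j, qv j) aq (dvd_refl _)
        (s59t_Hmul N (∏ j, qv j) H (s59t_KQ (P.p ^ n) qv)) t')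
    (hε0 : s59t_actH (N * ∏ j, qv j) aq (dvd_refl _)
        (s59t_Hmul N (∏ j, qv j) H (s59t_KQ (P.p ^ n) qv)) t' ≠ 0)
    -- the type-1 level `(N', H₂')`, same polynomial
    (hid₂ : s59t_actH (N * ∏ j, qv j) aq (dvd_refl _)
        (s59t_Hmul N (∏ j, qv j) ⊤ (s59t_KQ (P.p ^ n) qv)) t' *
      s59t_actH (N * ∏ j, qv j) aq (dvd_refl _)
        (s59t_Hmul N (∏ j, qv j) ⊤ (s59t_KQ (P.p ^ n) qv)) t' =
      s59t_actH (N * ∏ j, qv j) aq (dvd_refl _)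
        (s59t_Hmul N (∏ j, qv j) ⊤ (s59t_KQ (P.p ^ n) qv)) t')
    (hnil₂ : ∀ x ∈ s59t_goodB (N * ∏ j, qv j) B, ∃ k : ℕ,
      ∀ y : s48h_Hpar 𝒪 (s48h_GammaH (N * ∏ j, qv j)
        (s59t_Hmul N (∏ j, qv j) ⊤ (s59t_KQ (P.p ^ n) qv))) 𝒪,
      ((s59w_op (s59t_Hmul N (∏ j, qv j) ⊤ (s59t_KQ (P.p ^ n) qv)) 𝒪 x -
        s59t_cB (𝒪 := 𝒪) (N * ∏ j, qv j) (fun ℓ => P.freyCurveInt.apOfModel ℓ) x •
          (1 : Module.End 𝒪 (s48h_Hpar 𝒪 (s48h_GammaH (N * ∏ j, qv j)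
            (s59t_Hmul N (∏ j, qv j) ⊤ (s59t_KQ (P.p ^ n) qv))) 𝒪))) ^ k)
        (s59t_actH (N * ∏ j, qv j) aq (dvd_refl _)
          (s59t_Hmul N (∏ j, qv j) ⊤ (s59t_KQ (P.p ^ n) qv)) t' y) ∈
        (maximalIdeal 𝒪 • ⊤ : Submodule 𝒪 (s48h_Hpar 𝒪 (s48h_GammaH (N * ∏ j, qv j)
            (s59t_Hmul N (∏ j, qv j) ⊤ (s59t_KQ (P.p ^ n) qv))) 𝒪)))
    (hfull₂ : s59t_TWFull (le_refl (Gamma0 (N * ∏ j, qv j)))
      (s59t_GammaH_mono (s59t_Hmul_le_top (N := N) (D := ∏ j, qv j) (H := H)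
        (K := s59t_KQ (P.p ^ n) qv)))
      (s59t_CQ N (∏ j, qv j) H (s59t_KQ (P.p ^ n) qv))
      (s59t_BQ N (∏ j, qv j) H (s59t_KQ (P.p ^ n) qv))
      (s59t_actH (N * ∏ j, qv j) aq (dvd_refl _)
        (s59t_Hmul N (∏ j, qv j) ⊤ (s59t_KQ (P.p ^ n) qv)) t')
      (s59t_actH (N * ∏ j, qv j) aq (dvd_refl _)
        (s59t_Hmul N (∏ j, qv j) H (s59t_KQ (P.p ^ n) qv)) t'))
    -- the (B2) data at `(N', H')`
    (Sn : Finset ℕ) (hBS : B ⊆ Sn) (hqS : ∀ i, qv i ∈ Sn)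
    (Mn : ℕ) [NeZero Mn] (hSn₁ : ∀ q : ℕ, q.Prime → q ∣ Mn → q ∈ Sn)
    (a₁ : heckeAlgebra Mn 2 (↑Sn : Set ℕ) →+*
      Module.End 𝒪 (s48h_Hpar 𝒪 (s48h_GammaH (N * ∏ j, qv j)
        (s59t_Hmul N (∏ j, qv j) H (s59t_KQ (P.p ^ n) qv))) 𝒪))
    (ha₁ : ∀ (ℓ : ℕ) (hℓ : ℓ.Prime) (hℓN : ¬ ℓ ∣ Mn) (hℓS : ℓ ∉ (↑Sn : Set ℕ))
      (i : s59w_TIdx (N * ∏ j, qv j)), i.ell = ℓ →
      a₁ (heckeAlgebra.T hℓ hℓN hℓS) =
        s59e_Tp' (s59t_Hmul N (∏ j, qv j) H (s59t_KQ (P.p ^ n) qv)) 𝒪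
          ((P.p ^ (v + n) - 1) * ((P.p ^ (v + n) + 1) / 2)) i)
    (aM : heckeAlgebra Mn 2 (↑Sn : Set ℕ) →+* Module.End 𝒪 (LinearMap.range
      (s59t_actH (N * ∏ j, qv j) aq (dvd_refl _)
        (s59t_Hmul N (∏ j, qv j) H (s59t_KQ (P.p ^ n) qv)) t')))
    (haM : ∀ t (z : LinearMap.range (s59t_actH (N * ∏ j, qv j) aq (dvd_refl _)
        (s59t_Hmul N (∏ j, qv j) H (s59t_KQ (P.p ^ n) qv)) t')),
      ((aM t z : LinearMap.range (s59t_actH (N * ∏ j, qv j) aq (dvd_refl _)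
        (s59t_Hmul N (∏ j, qv j) H (s59t_KQ (P.p ^ n) qv)) t')) :
        s48h_Hpar 𝒪 (s48h_GammaH (N * ∏ j, qv j)
          (s59t_Hmul N (∏ j, qv j) H (s59t_KQ (P.p ^ n) qv))) 𝒪) =
        a₁ t (z : s48h_Hpar 𝒪 (s48h_GammaH (N * ∏ j, qv j)
          (s59t_Hmul N (∏ j, qv j) H (s59t_KQ (P.p ^ n) qv))) 𝒪))
    [IsLocalRing (s59e_adj 𝒪 aM)]
    {A₀ : Type} [CommRing A₀] [IsLocalRing A₀] (ρ₀ : GaloisRepAdic A₀)
    (θ : A₀ →+* s59e_adj 𝒪 aM) (hθs : Function.Surjective θ)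
    (hfrobT : ∀ ℓ : ℕ, ℓ.Prime → ℓ ∉ Sn →
      ∀ A' : ValuationSubring Qbar, A'.LiesOverPrime ℓ →
      ∀ τ : Γℚ, A'.IsFrobeniusAt τ ℓ →
        (LinearMap.charpoly (ρ₀.ρ τ)).map θ =
          X ^ 2 - C (s59e_tOf (𝒪 := 𝒪) (↑Sn : Set ℕ) aM ℓ) * X + C ((ℓ : s59e_adj 𝒪 aM)))
    -- the diamonds on `Y' = range ε'`
    (hρ' : ∀ δ y, s59t_actH (N * ∏ j, qv j) aq (dvd_refl _)
        (s59t_Hmul N (∏ j, qv j) H (s59t_KQ (P.p ^ n) qv)) t'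
        (s59t_rho (N * ∏ j, qv j) (s59t_Hmul N (∏ j, qv j) H (s59t_KQ (P.p ^ n) qv)) 𝒪 𝒪 δ y) =
      s59t_rho (N * ∏ j, qv j) (s59t_Hmul N (∏ j, qv j) H (s59t_KQ (P.p ^ n) qv)) 𝒪 𝒪 δ
        (s59t_actH (N * ∏ j, qv j) aq (dvd_refl _)
          (s59t_Hmul N (∏ j, qv j) H (s59t_KQ (P.p ^ n) qv)) t' y))
    (hcomm : ∀ (t : heckeAlgebra Mn 2 (↑Sn : Set ℕ))
      (β : s59t_BQ N (∏ j, qv j) H (s59t_KQ (P.p ^ n) qv)),
      Commute (aM t) (((s59t_partRep (s59t_rho (N * ∏ j, qv j)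
        (s59t_Hmul N (∏ j, qv j) H (s59t_KQ (P.p ^ n) qv)) 𝒪 𝒪) hρ').comp
          (s59t_BQ N (∏ j, qv j) H (s59t_KQ (P.p ^ n) qv)).subtype) β))
    (hTρ : ∀ (t : s59e_adj 𝒪 (s59e_aB aM
        ((s59t_partRep (s59t_rho (N * ∏ j, qv j)
          (s59t_Hmul N (∏ j, qv j) H (s59t_KQ (P.p ^ n) qv)) 𝒪 𝒪) hρ').comp
          (s59t_BQ N (∏ j, qv j) H (s59t_KQ (P.p ^ n) qv)).subtype) hcomm))
      (δ : s59t_Delta (N * ∏ j, qv j) (s59t_Hmul N (∏ j, qv j) H (s59t_KQ (P.p ^ n) qv)))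
      (y : LinearMap.range (s59t_actH (N * ∏ j, qv j) aq (dvd_refl _)
        (s59t_Hmul N (∏ j, qv j) H (s59t_KQ (P.p ^ n) qv)) t')),
      t • s59t_partRep (s59t_rho (N * ∏ j, qv j)
        (s59t_Hmul N (∏ j, qv j) H (s59t_KQ (P.p ^ n) qv)) 𝒪 𝒪) hρ' δ y =
        s59t_partRep (s59t_rho (N * ∏ j, qv j)
          (s59t_Hmul N (∏ j, qv j) H (s59t_KQ (P.p ^ n) qv)) 𝒪 𝒪) hρ' δ (t • y))
    -- the prime `q ∣ N` and the inertia element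
    (q : ℕ) (hq : q.Prime) (hqp : q ≠ P.p) (hqN : q ∣ N)
    (A : ValuationSubring Qbar) (hA : A.LiesOverPrime q) (σ : Γℚ)
    (hσ : σ ∈ A.inertiaSubgroupIn ℚ) :
    s59e_incl aM ((s59t_partRep (s59t_rho (N * ∏ j, qv j)
          (s59t_Hmul N (∏ j, qv j) H (s59t_KQ (P.p ^ n) qv)) 𝒪 𝒪) hρ').comp
          (s59t_BQ N (∏ j, qv j) H (s59t_KQ (P.p ^ n) qv)).subtype) hcomm
        (θ (s59i_cpTr ρ₀ σ)) - 2 ∈
      Module.annihilator (s59e_adj 𝒪 (s59e_aB aM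
          ((s59t_partRep (s59t_rho (N * ∏ j, qv j)
            (s59t_Hmul N (∏ j, qv j) H (s59t_KQ (P.p ^ n) qv)) 𝒪 𝒪) hρ').comp
            (s59t_BQ N (∏ j, qv j) H (s59t_KQ (P.p ^ n) qv)).subtype) hcomm))
        (s59t_EigT (𝒪 := 𝒪)
          (Δ := s59t_Delta (N * ∏ j, qv j) (s59t_Hmul N (∏ j, qv j) H (s59t_KQ (P.p ^ n) qv)))
          (M := ↥(LinearMap.range (s59t_actH (N * ∏ j, qv j) aq (dvd_refl _)
            (s59t_Hmul N (∏ j, qv j) H (s59t_KQ (P.p ^ n) qv)) t')))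
          (T := s59e_adj 𝒪 (s59e_aB aM
            ((s59t_partRep (s59t_rho (N * ∏ j, qv j)
              (s59t_Hmul N (∏ j, qv j) H (s59t_KQ (P.p ^ n) qv)) 𝒪 𝒪) hρ').comp
              (s59t_BQ N (∏ j, qv j) H (s59t_KQ (P.p ^ n) qv)).subtype) hcomm))
          (s59t_partRep (s59t_rho (N * ∏ j, qv j)
            (s59t_Hmul N (∏ j, qv j) H (s59t_KQ (P.p ^ n) qv)) 𝒪 𝒪) hρ')
          (s59t_CQ N (∏ j, qv j) H (s59t_KQ (P.p ^ n) qv))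
          (1 : s59t_Delta (N * ∏ j, qv j)
            (s59t_Hmul N (∏ j, qv j) H (s59t_KQ (P.p ^ n) qv)) →* 𝒪ˣ) hTρ) ∧
    s59e_incl aM ((s59t_partRep (s59t_rho (N * ∏ j, qv j)
          (s59t_Hmul N (∏ j, qv j) H (s59t_KQ (P.p ^ n) qv)) 𝒪 𝒪) hρ').comp
          (s59t_BQ N (∏ j, qv j) H (s59t_KQ (P.p ^ n) qv)).subtype) hcomm
        (θ (s59i_cpDt ρ₀ σ)) - 1 ∈
      Module.annihilator (s59e_adj 𝒪 (s59e_aB aM
          ((s59t_partRep (s59t_rho (N * ∏ j, qv j)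
            (s59t_Hmul N (∏ j, qv j) H (s59t_KQ (P.p ^ n) qv)) 𝒪 𝒪) hρ').comp
            (s59t_BQ N (∏ j, qv j) H (s59t_KQ (P.p ^ n) qv)).subtype) hcomm))
        (s59t_EigT (𝒪 := 𝒪)
          (Δ := s59t_Delta (N * ∏ j, qv j) (s59t_Hmul N (∏ j, qv j) H (s59t_KQ (P.p ^ n) qv)))
          (M := ↥(LinearMap.range (s59t_actH (N * ∏ j, qv j) aq (dvd_refl _)
            (s59t_Hmul N (∏ j, qv j) H (s59t_KQ (P.p ^ n) qv)) t')))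
          (T := s59e_adj 𝒪 (s59e_aB aM
            ((s59t_partRep (s59t_rho (N * ∏ j, qv j)
              (s59t_Hmul N (∏ j, qv j) H (s59t_KQ (P.p ^ n) qv)) 𝒪 𝒪) hρ').comp
              (s59t_BQ N (∏ j, qv j) H (s59t_KQ (P.p ^ n) qv)).subtype) hcomm))
          (s59t_partRep (s59t_rho (N * ∏ j, qv j)
            (s59t_Hmul N (∏ j, qv j) H (s59t_KQ (P.p ^ n) qv)) 𝒪 𝒪) hρ')
          (s59t_CQ N (∏ j, qv j) H (s59t_KQ (P.p ^ n) qv))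
          (1 : s59t_Delta (N * ∏ j, qv j)
            (s59t_Hmul N (∏ j, qv j) H (s59t_KQ (P.p ^ n) qv)) →* 𝒪ˣ) hTρ) := by
  classical
  have hp5 := P.hp5
  have hpP : P.p.Prime := Fact.out
  have hp2 : P.p ≠ 2 := by omega
  have hpB : P.p ∈ B := hB1 P.p hpP (Dvd.intro_left N rfl)
  have hNB : ∀ q : ℕ, q.Prime → q ∣ N → q ∈ B := fun q hq h => hB1 q hq (Dvd.dvd.mul_right h P.p)
  have hqpr : ∀ i, (qv i).Prime := fun i => (hqv i).1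
  have hqB : ∀ i, qv i ∉ B := fun i => (hqv i).2.1
  have hqvN : ∀ i, ¬ qv i ∣ N := s59u_qv_not_dvd qv hNB hqpr hqB
  have hsq : Squarefree N := hcond.squarefree
  have hssm := s59q_frey_ssModel P
  have hW := hssm.1
  have hss := hssm.2.1
  have hgoodiff := hssm.2.2.2
  have hmodirr : P.freyCurveInt.ModRepIsIrreducible P.p := by
    obtain ⟨C₀, hC₀⟩ := hW
    exact s59b_modRep_irr P.freyCurveInt P.p P.freyCurve C₀ hC₀ hirr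
  have habs := (s59b_frey_TW P P.freyCurveInt hW hΔ hss hirr (algebraMap ℤ_[P.p] 𝒪)
    (s59b_isLocalHom_padic P.p _ hp𝒪)).1
  have hθ : IsLocalHom θ := s59u_isLocalHom_of_surj Sn aM θ hθs
  haveI : NeZero (N * ∏ q' ∈ Finset.univ.image qv, q' ^ 2) :=
    ⟨Nat.mul_ne_zero (NeZero.ne N) (Finset.prod_ne_zero_iff.2 fun q' hq' => by
      obtain ⟨i, -, rfl⟩ := Finset.mem_image.mp hq'
      exact pow_ne_zero 2 (hqpr i).ne_zero)⟩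
  have hD : (∏ q' ∈ Finset.univ.image qv, q') ∣ N * ∏ j, qv j := by
    rw [s59k_prod_image qv hqinj]
    exact Dvd.intro_left N rfl
  -- the Frobenius polynomials of the residual Frey representation
  have hEig : ∀ ℓ : ℕ, ℓ.Prime → ¬ ℓ ∣ N * ∏ q' ∈ Finset.univ.image qv, q' ^ 2 → ℓ ∉ Sn →
      ∀ A' : ValuationSubring Qbar, A'.LiesOverPrime ℓ → ∀ τ : Γℚ, A'.IsFrobeniusAt τ ℓ →
        LinearMap.charpoly ((((s59b_rhoW P.freyCurveInt P.p hΔ).baseChangeAlong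
          (algebraMap ℤ_[P.p] 𝒪) (s59b_isLocalHom_padic P.p _ hp𝒪)).residual).ρ τ) =
          X ^ 2 - C (residue 𝒪 ((P.freyCurveInt.apOfModel ℓ : ℤ) : 𝒪)) * X +
            C ((ℓ : ResidueField 𝒪)) := by
    intro ℓ hℓ _ hℓS A' hA' τ hτ
    have hℓB : ℓ ∉ B := fun h => hℓS (hBS h)
    have hℓp : ℓ ≠ P.p := fun h => hℓB (h ▸ hpB)
    have hgood : P.freyCurveInt.IsGoodPrimeFor ℓ := by
      by_contra hbad
      exact hℓB (hB2 ℓ hℓ ((hgoodiff ℓ hℓ).1 hbad))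
    have h1 := s59b_rhobar_charpoly_frob (𝒪 := 𝒪) (W := P.freyCurveInt) (p := P.p) hΔ hp2 hmodirr
      hp𝒪 ℓ hℓ hℓp hgood A' hA' τ hτ
    rw [← map_natCast (residue 𝒪) ℓ]
    exact h1
  have hρ₁ := s59u_hrho1_of_hfrobT Sn aM ρ₀ θ hθ hfrobT
  exact s59u_type1_full (p := P.p)
    (s59t_Hmul N (∏ j, qv j) H (s59t_KQ (P.p ^ n) qv))
    (s59t_Hmul N (∏ j, qv j) ⊤ (s59t_KQ (P.p ^ n) qv)) Sn hp2 hp𝒪 (hBS hpB)
    (s59t_GammaH_mono (s59t_Hmul_le_top (N := N) (D := ∏ j, qv j) (H := H)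
      (K := s59t_KQ (P.p ^ n) qv)))
    (s59k_hnm_pow hpP hp2 (v + n)) Mn hSn₁ a₁ ha₁ _ hid' hε0
    (fun j => s59t_actH_comm_op _ aq t' j) aM haM ρ₀ θ hθ hρ₁
    N (Finset.univ.image qv) (N * ∏ q' ∈ Finset.univ.image qv, q' ^ 2)
    (s59k_hQ_top qv N hqpr hqvN) (s59k_level_eq_top qv N hqinj) rfl hD
    (s59k_hH_top qv N (P.p ^ n) hqinj rfl hD)
    (fun u => s59k_ppow_mem_Hmul_top N qv P.p v n u) rfl
    (fun q' hq' h => s59u_prime_dvd_level2 qv hNB hqpr hBS hqS q' hq' h)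
    _ hid₂ (fun j => s59t_actH_comm_op _ aq t' j) B hBS (fun ℓ => P.freyCurveInt.apOfModel ℓ) hnil₂
    (fun u => ⟨v + n, s59k_ppow_mem_Hmul_top N qv P.p v n u⟩) _ habs hEig
    (s59t_BQ N (∏ j, qv j) H (s59t_KQ (P.p ^ n) qv))
    (s59t_CQ N (∏ j, qv j) H (s59t_KQ (P.p ^ n) qv)) hfull₂ hρ' hcomm hTρ
    q hq hqp (Dvd.dvd.mul_right hqN _) (s59u_sq_not_dvd_level2 qv hsq hqpr hqvN q hq hqN)
    A hA σ hσ

end Frey

end Fermat.Agent.Lib.S59
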