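/-
Programme R (S59), node (TQ) (helper2, prefix `s59b_`): **the abstract generation statement WITH
VALUES.**

Two finite modules `Λ₁`, `Λ₂` over a noetherian local ring `𝒪`, each with a continuous action of
`G_ℚ`, "Hecke operators" `T₁ ℓ`, `T₂ ℓ` and an operator-valued determinant `D₁`, `D₂`, satisfying the
Eichler–Shimura relations at the primes outside a finite set `S'`; an `𝒪`-algebra `P` acting on both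
(`act₁`, `act₂`) such that every pair `(T₁ ℓ, T₂ ℓ)`, `ℓ ∉ S'`, and every pair `(D₁ g, D₂ g)` is the
image of ONE element of `P`.  Then every pair `(Tq₁, Tq₂)` satisfying the Eichler–Shimura relation
at one element `φ` is the image of ONE element of `P`:  apply `s59b_gen_abs` to the product module
`Λ₁ × Λ₂` and the subalgebra `range (prodMap ∘ (act₁, act₂))`.

In the application `Λ₁ = 𝒪 ⊗ T_p J₀(M)`, `Λ₂ = 𝒪 ⊗ T_p W` (`W` an elliptic curve), `T₂ ℓ = a_ℓ(W)`,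
`P` a polynomial ring: the polynomial expressing `T_q` through the `T_ℓ` takes the value `a_q(W)` at
`(a_ℓ(W))_ℓ`.
-/
import Mathlib
import Fermat.Agent.Lib.S59.BGenAbs

set_option autoImplicit false
set_option linter.unusedSectionVars false
set_option linter.unusedVariables false

noncomputable section

namespace Fermat.Agent.Lib.S59

open IsLocalRing

local notation "Qbar" => AlgebraicClosure ℚ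
local notation "GQ" => (AlgebraicClosure ℚ ≃ₐ[ℚ] AlgebraicClosure ℚ)

section Pair

variable {𝒪 : Type} [CommRing 𝒪]
  {Λ₁ : Type} [AddCommGroup Λ₁] [Module 𝒪 Λ₁] {Λ₂ : Type} [AddCommGroup Λ₂] [Module 𝒪 Λ₂]

/-- linear maps send `J • ⊤` into `J • ⊤` (no hypothesis on the ring). -/
theorem s59b_lin_mem_smul_top {V W : Type*} [AddCommGroup V] [Module 𝒪 V] [AddCommGroup W]
    [Module 𝒪 W] (J : Ideal 𝒪) (f : V →ₗ[𝒪] W) {x : V} (hx : x ∈ J • (⊤ : Submodule 𝒪 V)) :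
    f x ∈ J • (⊤ : Submodule 𝒪 W) := by
  refine Submodule.smul_induction_on hx ?_ ?_
  · intro a ha w _
    rw [map_smul]
    exact Submodule.smul_mem_smul ha Submodule.mem_top
  · intro x y hx hy
    rw [map_add]
    exact Submodule.add_mem _ hx hy

/-- a pair of elements of `J • ⊤` is in `J • ⊤`. -/
theorem s59b_prod_mem_smul_top (J : Ideal 𝒪) {x₁ : Λ₁} {x₂ : Λ₂}
    (h₁ : x₁ ∈ (J • ⊤ : Submodule 𝒪 Λ₁)) (h₂ : x₂ ∈ (J • ⊤ : Submodule 𝒪 Λ₂)) :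
    ((x₁, x₂) : Λ₁ × Λ₂) ∈ (J • ⊤ : Submodule 𝒪 (Λ₁ × Λ₂)) := by
  have e : ((x₁, x₂) : Λ₁ × Λ₂) = LinearMap.inl 𝒪 Λ₁ Λ₂ x₁ + LinearMap.inr 𝒪 Λ₁ Λ₂ x₂ := by
    simp
  rw [e]
  exact Submodule.add_mem _ (s59b_lin_mem_smul_top _ _ h₁) (s59b_lin_mem_smul_top _ _ h₂)

/-- the product of two representations. -/
def s59b_prodRep {G : Type*} [Monoid G] (ρ₁ : G →* Module.End 𝒪 Λ₁) (ρ₂ : G →* Module.End 𝒪 Λ₂) :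
    G →* Module.End 𝒪 (Λ₁ × Λ₂) :=
  ((LinearMap.prodMapAlgHom 𝒪 Λ₁ Λ₂ : _ →ₐ[𝒪] _) : _ →* _).comp (ρ₁.prod ρ₂)

theorem s59b_prodRep_apply {G : Type*} [Monoid G] (ρ₁ : G →* Module.End 𝒪 Λ₁)
    (ρ₂ : G →* Module.End 𝒪 Λ₂) (g : G) :
    s59b_prodRep ρ₁ ρ₂ g = LinearMap.prodMapAlgHom 𝒪 Λ₁ Λ₂ (ρ₁ g, ρ₂ g) := rfl

theorem s59b_prodMap_injective {f f' : Module.End 𝒪 Λ₁} {g g' : Module.End 𝒪 Λ₂}
    (h : LinearMap.prodMapAlgHom 𝒪 Λ₁ Λ₂ (f, g) = LinearMap.prodMapAlgHom 𝒪 Λ₁ Λ₂ (f', g')) :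
    f = f' ∧ g = g' := by
  constructor
  · refine LinearMap.ext fun x => ?_
    have := congrArg Prod.fst (LinearMap.congr_fun h (x, 0))
    simpa using this
  · refine LinearMap.ext fun y => ?_
    have := congrArg Prod.snd (LinearMap.congr_fun h (0, y))
    simpa using this

variable [IsLocalRing 𝒪]

/-- continuity of the product of two continuous representations. -/
theorem s59b_prodRep_cont (ρ₁ : GQ →* Module.End 𝒪 Λ₁) (ρ₂ : GQ →* Module.End 𝒪 Λ₂)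
    (h₁ : GaloisActionIsAdicContinuous 𝒪 ρ₁) (h₂ : GaloisActionIsAdicContinuous 𝒪 ρ₂) :
    GaloisActionIsAdicContinuous 𝒪 (s59b_prodRep ρ₁ ρ₂) := by
  intro n
  obtain ⟨L₁, hL₁, k₁⟩ := h₁ n
  obtain ⟨L₂, hL₂, k₂⟩ := h₂ n
  refine ⟨L₁ ⊔ L₂, IntermediateField.finiteDimensional_sup L₁ L₂, fun σ hσ v => ?_⟩
  have e : s59b_prodRep ρ₁ ρ₂ σ v - v = (ρ₁ σ v.1 - v.1, ρ₂ σ v.2 - v.2) := by
    rw [s59b_prodRep_apply]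
    rfl
  rw [e]
  exact s59b_prod_mem_smul_top _
    (k₁ σ (fun y hy => hσ y (le_sup_left (b := L₂) hy)) v.1)
    (k₂ σ (fun y hy => hσ y (le_sup_right (a := L₁) hy)) v.2)

variable [IsNoetherianRing 𝒪] [Module.Finite 𝒪 Λ₁] [Module.Finite 𝒪 Λ₂]

/-- **Abstract (GEN) with values.** -/
theorem s59b_gen_pair {P : Type*} [Semiring P] [Algebra 𝒪 P]
    (act₁ : P →ₐ[𝒪] Module.End 𝒪 Λ₁) (act₂ : P →ₐ[𝒪] Module.End 𝒪 Λ₂)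
    (ρ₁ : GQ →* Module.End 𝒪 Λ₁) (hρ₁ : GaloisActionIsAdicContinuous 𝒪 ρ₁)
    (ρ₂ : GQ →* Module.End 𝒪 Λ₂) (hρ₂ : GaloisActionIsAdicContinuous 𝒪 ρ₂)
    (D₁ : GQ →* Module.End 𝒪 Λ₁) (hD₁ : GaloisActionIsAdicContinuous 𝒪 D₁)
    (D₂ : GQ →* Module.End 𝒪 Λ₂) (hD₂ : GaloisActionIsAdicContinuous 𝒪 D₂)
    (T₁ : ℕ → Module.End 𝒪 Λ₁) (T₂ : ℕ → Module.End 𝒪 Λ₂) (S' : Finset ℕ)
    (hT : ∀ ℓ : ℕ, ℓ.Prime → ℓ ∉ S' → ∃ t : P, act₁ t = T₁ ℓ ∧ act₂ t = T₂ ℓ)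
    (hD : ∀ g : GQ, ∃ t : P, act₁ t = D₁ g ∧ act₂ t = D₂ g)
    (hcomm₁ : ∀ ℓ : ℕ, ℓ.Prime → ℓ ∉ S' → ∀ g : GQ, Commute (ρ₁ g) (T₁ ℓ))
    (hcomm₂ : ∀ ℓ : ℕ, ℓ.Prime → ℓ ∉ S' → ∀ g : GQ, Commute (ρ₂ g) (T₂ ℓ))
    (hfrob₁ : ∀ ℓ : ℕ, ℓ.Prime → ℓ ∉ S' → ∀ A : ValuationSubring Qbar, A.LiesOverPrime ℓ →
      ∀ σ : GQ, A.IsFrobeniusAt σ ℓ → ρ₁ σ * ρ₁ σ - T₁ ℓ * ρ₁ σ + D₁ σ = 0)
    (hfrob₂ : ∀ ℓ : ℕ, ℓ.Prime → ℓ ∉ S' → ∀ A : ValuationSubring Qbar, A.LiesOverPrime ℓ →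
      ∀ σ : GQ, A.IsFrobeniusAt σ ℓ → ρ₂ σ * ρ₂ σ - T₂ ℓ * ρ₂ σ + D₂ σ = 0)
    (Tq₁ : Module.End 𝒪 Λ₁) (Tq₂ : Module.End 𝒪 Λ₂) (φ : GQ)
    (hq₁ : ρ₁ φ * ρ₁ φ - Tq₁ * ρ₁ φ + D₁ φ = 0) (hq₂ : ρ₂ φ * ρ₂ φ - Tq₂ * ρ₂ φ + D₂ φ = 0) :
    ∃ t : P, act₁ t = Tq₁ ∧ act₂ t = Tq₂ := by
  set Φ : P →ₐ[𝒪] Module.End 𝒪 (Λ₁ × Λ₂) :=
    (LinearMap.prodMapAlgHom 𝒪 Λ₁ Λ₂).comp (act₁.prod act₂) with hΦ
  have hΦt : ∀ t : P, Φ t = LinearMap.prodMapAlgHom 𝒪 Λ₁ Λ₂ (act₁ t, act₂ t) := fun t => rfl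
  have hquad : ∀ (a₁ t₁ d₁ : Module.End 𝒪 Λ₁) (a₂ t₂ d₂ : Module.End 𝒪 Λ₂),
      a₁ * a₁ - t₁ * a₁ + d₁ = 0 → a₂ * a₂ - t₂ * a₂ + d₂ = 0 →
      LinearMap.prodMapAlgHom 𝒪 Λ₁ Λ₂ (a₁, a₂) * LinearMap.prodMapAlgHom 𝒪 Λ₁ Λ₂ (a₁, a₂) -
        LinearMap.prodMapAlgHom 𝒪 Λ₁ Λ₂ (t₁, t₂) * LinearMap.prodMapAlgHom 𝒪 Λ₁ Λ₂ (a₁, a₂) +
        LinearMap.prodMapAlgHom 𝒪 Λ₁ Λ₂ (d₁, d₂) = 0 := by
    intro a₁ t₁ d₁ a₂ t₂ d₂ e₁ e₂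
    rw [← map_mul, ← map_mul, ← map_sub, ← map_add]
    have : (a₁, a₂) * (a₁, a₂) - (t₁, t₂) * (a₁, a₂) + (d₁, d₂) =
        ((0, 0) : Module.End 𝒪 Λ₁ × Module.End 𝒪 Λ₂) := by
      rw [Prod.mk_mul_mk, Prod.mk_mul_mk, Prod.mk_sub_mk, Prod.mk_add_mk, e₁, e₂]
    rw [this]
    exact map_zero _
  have key := s59b_gen_abs (s59b_prodRep ρ₁ ρ₂) (s59b_prodRep_cont ρ₁ ρ₂ hρ₁ hρ₂)
    (s59b_prodRep D₁ D₂) (s59b_prodRep_cont D₁ D₂ hD₁ hD₂)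
    (fun ℓ => LinearMap.prodMapAlgHom 𝒪 Λ₁ Λ₂ (T₁ ℓ, T₂ ℓ)) Φ.range S' ?_ ?_ ?_ ?_
    (LinearMap.prodMapAlgHom 𝒪 Λ₁ Λ₂ (Tq₁, Tq₂)) φ ?_
  · obtain ⟨t, ht⟩ := (AlgHom.mem_range Φ).mp key
    rw [hΦt] at ht
    exact ⟨t, s59b_prodMap_injective ht⟩
  · intro ℓ hℓ hℓS
    obtain ⟨t, h1, h2⟩ := hT ℓ hℓ hℓS
    exact (AlgHom.mem_range Φ).mpr ⟨t, by rw [hΦt, h1, h2]⟩
  · intro g
    obtain ⟨t, h1, h2⟩ := hD g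
    exact (AlgHom.mem_range Φ).mpr ⟨t, by rw [hΦt, h1, h2, s59b_prodRep_apply]⟩
  · intro ℓ hℓ hℓS g
    show s59b_prodRep ρ₁ ρ₂ g * _ = _ * s59b_prodRep ρ₁ ρ₂ g
    rw [s59b_prodRep_apply, ← map_mul, ← map_mul, Prod.mk_mul_mk, Prod.mk_mul_mk,
      (hcomm₁ ℓ hℓ hℓS g).eq, (hcomm₂ ℓ hℓ hℓS g).eq]
  · intro ℓ hℓ hℓS A hA σ hσ
    rw [s59b_prodRep_apply, s59b_prodRep_apply]
    exact hquad _ _ _ _ _ _ (hfrob₁ ℓ hℓ hℓS A hA σ hσ) (hfrob₂ ℓ hℓ hℓS A hA σ hσ)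
  · rw [s59b_prodRep_apply, s59b_prodRep_apply]
    exact hquad _ _ _ _ _ _ hq₁ hq₂

end Pair

end Fermat.Agent.Lib.S59
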