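/-
Programme R (S59), node (TQ) (helper2, prefix `s59b_`): **(GEN) with values at the Tate modules.**

`D : s30_TateDatum M p` (main's `s30u_tateDatum M p`: the Tate module of `J₀(M)` with its Galois and
Hecke actions — UNCONDITIONAL, every level `M`), `W` an integral Weierstrass model with `Δ ≠ 0`,
`𝒪` a noetherian local `ℤ_p`-algebra with `p ∈ 𝔪`, `p` odd.  For an `𝒪`-algebra `P` acting on
`𝒪 ⊗ D.Λ` and on `𝒪 ⊗ T_p W` such that for every prime `ℓ ∤ M p` of good reduction for `W` outside a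
finite set the pair `(T_ℓ ⊗ 𝒪, a_ℓ(W))` is the image of one element of `P`:  for EVERY prime
`q ∤ M p` of good reduction for `W` the pair `(T_q ⊗ 𝒪, a_q(W))` is the image of one element of `P`.

* `s59b_cont_baseChange` : base change of a `p`-adically continuous action is continuous;
* `s59b_scalarRep`, `s59b_cycO`, `s59b_cycRep_cont` : the cyclotomic character as a continuous
  operator-valued homomorphism;
* `s59b_TW_frobQuad_base` : the Eichler–Shimura relation of `W` on `𝒪 ⊗ T_p W`;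
* **`s59b_TQ_tate`**.
-/
import Mathlib
import Fermat.Agent.Lib.Frobenius.Exists
import Fermat.Agent.Lib.S30.LFinal
import Fermat.Agent.Lib.S30.Cyc
import Fermat.Agent.Lib.S59.BTQAbs
import Fermat.Agent.Lib.S59.BDet

set_option autoImplicit false
set_option linter.unusedSectionVars false
set_option linter.unusedVariables false
set_option linter.style.haveILetI false

noncomputable section

namespace Fermat.Agent.Lib.S59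

open IsLocalRing WeierstrassCurve
open scoped TensorProduct
open Fermat.Agent.Lib.S29 Fermat.Agent.Lib.S30

local notation "Qbar" => AlgebraicClosure ℚ
local notation "GQ" => (AlgebraicClosure ℚ ≃ₐ[ℚ] AlgebraicClosure ℚ)

section Gen

variable (p : ℕ) [Fact p.Prime] (𝒪 : Type) [CommRing 𝒪] [Algebra ℤ_[p] 𝒪] [IsLocalRing 𝒪]

/-- the image of `𝔪_{ℤ_p}ⁿ` lies in `𝔪_𝒪ⁿ`. -/
theorem s59b_algebraMap_mem_pow (hp𝒪 : (p : 𝒪) ∈ maximalIdeal 𝒪) (n : ℕ) {r : ℤ_[p]}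
    (hr : r ∈ maximalIdeal ℤ_[p] ^ n) : algebraMap ℤ_[p] 𝒪 r ∈ maximalIdeal 𝒪 ^ n := by
  rw [PadicInt.maximalIdeal_eq_span_p, Ideal.span_singleton_pow, Ideal.mem_span_singleton'] at hr
  obtain ⟨a, rfl⟩ := hr
  rw [map_mul, map_pow, map_natCast]
  exact Ideal.mul_mem_left _ _ (Ideal.pow_mem_pow hp𝒪 n)

/-- **base change of a `p`-adically continuous action is continuous.** -/
theorem s59b_cont_baseChange (hp𝒪 : (p : 𝒪) ∈ maximalIdeal 𝒪) {Λ : Type} [AddCommGroup Λ]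
    [Module ℤ_[p] Λ] (ρ : GQ →* Module.End ℤ_[p] Λ)
    (h : GaloisActionIsAdicContinuous ℤ_[p] ρ) :
    GaloisActionIsAdicContinuous 𝒪 (s30f_baseChange 𝒪 ρ) := by
  intro n
  obtain ⟨L, hL, h1⟩ := h n
  refine ⟨L, hL, fun σ hσ x => ?_⟩
  induction x using TensorProduct.induction_on with
  | zero => rw [map_zero, sub_zero]; exact Submodule.zero_mem _
  | tmul b v =>
    rw [s30f_baseChange_apply, LinearMap.baseChange_tmul, ← TensorProduct.tmul_sub]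
    have hv := h1 σ hσ v
    generalize ρ σ v - v = u at hv
    refine Submodule.smul_induction_on hv ?_ ?_
    · intro r hr w _
      rw [TensorProduct.tmul_smul, ← algebraMap_smul 𝒪 r (b ⊗ₜ[ℤ_[p]] w)]
      exact Submodule.smul_mem_smul (s59b_algebraMap_mem_pow p 𝒪 hp𝒪 n hr) Submodule.mem_top
    · intro x y hx hy
      rw [TensorProduct.tmul_add]
      exact Submodule.add_mem _ hx hy
  | add x y hx hy =>
    have e : (s30f_baseChange 𝒪 ρ σ) (x + y) - (x + y) =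
        ((s30f_baseChange 𝒪 ρ σ) x - x) + ((s30f_baseChange 𝒪 ρ σ) y - y) := by
      rw [map_add]
      abel
    rw [e]
    exact Submodule.add_mem _ hx hy

/-- a scalar character as an operator-valued homomorphism. -/
def s59b_scalarRep (Λ : Type*) [AddCommGroup Λ] [Module 𝒪 Λ] (χ : GQ →* 𝒪) :
    GQ →* Module.End 𝒪 Λ :=
  ((algebraMap 𝒪 (Module.End 𝒪 Λ) : 𝒪 →+* Module.End 𝒪 Λ) : 𝒪 →* Module.End 𝒪 Λ).comp χ

theorem s59b_scalarRep_apply (Λ : Type*) [AddCommGroup Λ] [Module 𝒪 Λ] (χ : GQ →* 𝒪) (g : GQ) :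
    s59b_scalarRep 𝒪 Λ χ g = χ g • (1 : Module.End 𝒪 Λ) :=
  Algebra.algebraMap_eq_smul_one (χ g)

/-- the `p`-adic cyclotomic character with values in `𝒪`. -/
def s59b_cycO : GQ →* 𝒪 :=
  ((algebraMap ℤ_[p] 𝒪 : ℤ_[p] →+* 𝒪) : ℤ_[p] →* 𝒪).comp
    ((Units.coeHom ℤ_[p]).comp (s30c_eps p))

theorem s59b_cycO_apply (g : GQ) :
    s59b_cycO p 𝒪 g = algebraMap ℤ_[p] 𝒪 ((s30c_eps p g : ℤ_[p]ˣ) : ℤ_[p]) := rfl

theorem s59b_cycO_frob (ℓ : ℕ) (hℓ : ℓ.Prime) (hℓp : ℓ ≠ p) (A : ValuationSubring Qbar)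
    (hA : A.LiesOverPrime ℓ) (σ : GQ) (hσ : A.IsFrobeniusAt σ ℓ) : s59b_cycO p 𝒪 σ = (ℓ : 𝒪) := by
  rw [s59b_cycO_apply, s30c_frob p ℓ hℓ hℓp A hA σ hσ, map_natCast]

/-- continuity of the cyclotomic character as an operator-valued homomorphism. -/
theorem s59b_cycRep_cont (hp𝒪 : (p : 𝒪) ∈ maximalIdeal 𝒪) (Λ : Type) [AddCommGroup Λ]
    [Module 𝒪 Λ] : GaloisActionIsAdicContinuous 𝒪 (s59b_scalarRep 𝒪 Λ (s59b_cycO p 𝒪)) := by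
  intro n
  obtain ⟨L₂, hL₂, -, h2⟩ := s30c_cont p n
  refine ⟨L₂, hL₂, fun σ hσ x => ?_⟩
  obtain ⟨w, hw⟩ := h2 σ hσ
  have hc : s59b_cycO p 𝒪 σ - 1 ∈ maximalIdeal 𝒪 ^ n := by
    have e : s59b_cycO p 𝒪 σ - 1 = (p : 𝒪) ^ n * algebraMap ℤ_[p] 𝒪 w := by
      rw [s59b_cycO_apply, ← map_one (algebraMap ℤ_[p] 𝒪), ← map_sub, hw, map_mul, map_pow,
        map_natCast]
    rw [e]
    exact Ideal.mul_mem_right _ _ (Ideal.pow_mem_pow hp𝒪 n)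
  have e2 : s59b_scalarRep 𝒪 Λ (s59b_cycO p 𝒪) σ x - x = (s59b_cycO p 𝒪 σ - 1) • x := by
    rw [s59b_scalarRep_apply, LinearMap.smul_apply, Module.End.one_apply, sub_smul, one_smul]
  rw [e2]
  exact Submodule.smul_mem_smul hc Submodule.mem_top

end Gen

section Main

variable {M : ℕ} [NeZero M] (p : ℕ) [Fact p.Prime]
  (𝒪 : Type) [CommRing 𝒪] [Algebra ℤ_[p] 𝒪] [IsLocalRing 𝒪] [IsNoetherianRing 𝒪]

/-- the Eichler–Shimura relation of `W` on `𝒪 ⊗ T_p W`. -/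
theorem s59b_TW_frobQuad_base (W : WeierstrassCurve ℤ) (hp2 : p ≠ 2) (ℓ : ℕ) (hℓ : ℓ.Prime)
    (hℓp : ℓ ≠ p) (hgood : W.IsGoodPrimeFor ℓ) (A : ValuationSubring Qbar)
    (hA : A.LiesOverPrime ℓ) (σ : GQ) (hσ : A.IsFrobeniusAt σ ℓ) :
    s30f_baseChange 𝒪 (s59b_rhoFun W p) σ * s30f_baseChange 𝒪 (s59b_rhoFun W p) σ -
      (((W.apOfModel ℓ : ℤ) : 𝒪) • (1 : Module.End 𝒪 (𝒪 ⊗[ℤ_[p]] s59b_TW W p))) *
        s30f_baseChange 𝒪 (s59b_rhoFun W p) σ +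
      s59b_scalarRep 𝒪 (𝒪 ⊗[ℤ_[p]] s59b_TW W p) (s59b_cycO p 𝒪) σ = 0 := by
  have h1 := s59b_rhoW_frobQuad (W := W) (p := p) hp2 ℓ hℓ hℓp hgood A hA σ hσ
  have h2 := congrArg (LinearMap.baseChange 𝒪) h1
  rw [LinearMap.baseChange_add, LinearMap.baseChange_sub, LinearMap.baseChange_mul,
    LinearMap.baseChange_smul, LinearMap.baseChange_smul, LinearMap.baseChange_one,
    LinearMap.baseChange_zero] at h2
  rw [s59b_scalarRep_apply, s59b_cycO_frob p 𝒪 ℓ hℓ hℓp A hA σ hσ, smul_mul_assoc, one_mul,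
    s30f_baseChange_apply]
  have e1 : ((W.apOfModel ℓ : ℤ) : ℤ_[p]) • (s59b_rhoFun W p σ).baseChange 𝒪 =
      ((W.apOfModel ℓ : ℤ) : 𝒪) • (s59b_rhoFun W p σ).baseChange 𝒪 := by
    rw [← algebraMap_smul 𝒪 ((W.apOfModel ℓ : ℤ) : ℤ_[p]), map_intCast]
  have e2 : ((ℓ : ℕ) : ℤ_[p]) • (1 : Module.End 𝒪 (𝒪 ⊗[ℤ_[p]] s59b_TW W p)) =
      ((ℓ : ℕ) : 𝒪) • (1 : Module.End 𝒪 (𝒪 ⊗[ℤ_[p]] s59b_TW W p)) := by
    rw [← algebraMap_smul 𝒪 ((ℓ : ℕ) : ℤ_[p]), map_natCast]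
  rw [e1, e2] at h2
  exact h2

/-- **(GEN) with values at the Tate modules of `J₀(M)` and of `W`.** -/
theorem s59b_TQ_tate (D : s30_TateDatum M p) (W : WeierstrassCurve ℤ) (hΔ : W.Δ ≠ 0)
    (hp2 : p ≠ 2) (hp𝒪 : (p : 𝒪) ∈ maximalIdeal 𝒪)
    {P : Type*} [Semiring P] [Algebra 𝒪 P]
    (act₁ : P →ₐ[𝒪] Module.End 𝒪 (𝒪 ⊗[ℤ_[p]] D.Λ))
    (act₂ : P →ₐ[𝒪] Module.End 𝒪 (𝒪 ⊗[ℤ_[p]] s59b_TW W p)) (S' : Finset ℕ)
    (hT : ∀ (ℓ : ℕ) (hℓ : ℓ.Prime), ¬ ℓ ∣ M * p → W.IsGoodPrimeFor ℓ → ℓ ∉ S' →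
      ∃ t : P, act₁ t = (D.T ⟨ℓ, hℓ⟩).baseChange 𝒪 ∧
        act₂ t = ((W.apOfModel ℓ : ℤ) : 𝒪) • (1 : Module.End 𝒪 (𝒪 ⊗[ℤ_[p]] s59b_TW W p)))
    (q : ℕ) (hq : q.Prime) (hqMp : ¬ q ∣ M * p) (hgoodq : W.IsGoodPrimeFor q) :
    ∃ t : P, act₁ t = (D.T ⟨q, hq⟩).baseChange 𝒪 ∧
      act₂ t = ((W.apOfModel q : ℤ) : 𝒪) • (1 : Module.End 𝒪 (𝒪 ⊗[ℤ_[p]] s59b_TW W p)) := by
  classical
  have hp : p.Prime := Fact.out
  haveI : Module.Finite ℤ_[p] (s59b_TW W p) := (s59b_rhoW W p hΔ).instFinite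
  have hMp0 : M * p ≠ 0 := Nat.mul_ne_zero (NeZero.ne M) hp.ne_zero
  -- the enlarged exceptional set
  set S'' : Finset ℕ := S' ∪ (M * p).primeFactors ∪ s59b_S0 W p with hS''
  have hS : ∀ ℓ : ℕ, ℓ.Prime → ℓ ∉ S'' →
      ℓ ∉ S' ∧ ¬ ℓ ∣ M * p ∧ ℓ ≠ p ∧ W.IsGoodPrimeFor ℓ := by
    intro ℓ hℓ h
    rw [hS'', Finset.mem_union, Finset.mem_union, not_or, not_or] at h
    obtain ⟨h3, h4⟩ := s59b_of_notMem_S0 hΔ hℓ h.2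
    exact ⟨h.1.1, fun hd => h.1.2 (Nat.mem_primeFactors.mpr ⟨hℓ, hd, hMp0⟩), h3, h4⟩
  have hqp : q ≠ p := fun h => hqMp (h ▸ Dvd.intro_left M rfl)
  -- the Hecke families as functions of `ℓ : ℕ`
  set T₁ : ℕ → Module.End 𝒪 (𝒪 ⊗[ℤ_[p]] D.Λ) :=
    fun ℓ => if h : ℓ.Prime then (D.T ⟨ℓ, h⟩).baseChange 𝒪 else 0 with hT₁
  have hT₁eq : ∀ (ℓ : ℕ) (hℓ : ℓ.Prime), T₁ ℓ = (D.T ⟨ℓ, hℓ⟩).baseChange 𝒪 := by
    intro ℓ hℓ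
    rw [hT₁]
    exact dif_pos hℓ
  -- Eichler–Shimura on `𝒪 ⊗ D.Λ`
  have hquad₁ : ∀ (ℓ : ℕ) (hℓ : ℓ.Prime), ¬ ℓ ∣ M * p → ℓ ≠ p →
      ∀ A : ValuationSubring Qbar, A.LiesOverPrime ℓ → ∀ σ : GQ, A.IsFrobeniusAt σ ℓ →
        s30f_baseChange 𝒪 D.ρ σ * s30f_baseChange 𝒪 D.ρ σ -
          T₁ ℓ * s30f_baseChange 𝒪 D.ρ σ +
            s59b_scalarRep 𝒪 (𝒪 ⊗[ℤ_[p]] D.Λ) (s59b_cycO p 𝒪) σ = 0 := by
    intro ℓ hℓ hℓMp hℓp A hA σ hσ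
    have h1 := D.frobQuad ⟨ℓ, hℓ⟩ hℓMp A hA σ hσ
    have h2 := congrArg (LinearMap.baseChange 𝒪) h1
    rw [LinearMap.baseChange_add, LinearMap.baseChange_sub, LinearMap.baseChange_mul,
      LinearMap.baseChange_mul, LinearMap.baseChange_smul, LinearMap.baseChange_one,
      LinearMap.baseChange_zero] at h2
    rw [s59b_scalarRep_apply, s59b_cycO_frob p 𝒪 ℓ hℓ hℓp A hA σ hσ, hT₁eq ℓ hℓ,
      s30f_baseChange_apply]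
    have e2 : ((ℓ : ℕ) : ℤ_[p]) • (1 : Module.End 𝒪 (𝒪 ⊗[ℤ_[p]] D.Λ)) =
        ((ℓ : ℕ) : 𝒪) • (1 : Module.End 𝒪 (𝒪 ⊗[ℤ_[p]] D.Λ)) := by
      rw [← algebraMap_smul 𝒪 ((ℓ : ℕ) : ℤ_[p]), map_natCast]
    rw [e2] at h2
    exact h2
  obtain ⟨A, φ, hA, hφ⟩ := Fermat.Agent.Lib.Frobenius.exists_isFrobeniusAt q hq
  have key := s59b_gen_pair act₁ act₂
    (s30f_baseChange 𝒪 D.ρ) (s30f_continuous_baseChange p hp𝒪 D.ρ D.cont)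
    (s30f_baseChange 𝒪 (s59b_rhoFun W p))
    (s59b_cont_baseChange p 𝒪 hp𝒪 (s59b_rhoFun W p) (s59b_rhoW W p hΔ).isAdicContinuous)
    (s59b_scalarRep 𝒪 (𝒪 ⊗[ℤ_[p]] D.Λ) (s59b_cycO p 𝒪)) (s59b_cycRep_cont p 𝒪 hp𝒪 _)
    (s59b_scalarRep 𝒪 (𝒪 ⊗[ℤ_[p]] s59b_TW W p) (s59b_cycO p 𝒪)) (s59b_cycRep_cont p 𝒪 hp𝒪 _)
    T₁ (fun ℓ => ((W.apOfModel ℓ : ℤ) : 𝒪) • (1 : Module.End 𝒪 (𝒪 ⊗[ℤ_[p]] s59b_TW W p))) S''
    ?_ ?_ ?_ ?_ ?_ ?_ ((D.T ⟨q, hq⟩).baseChange 𝒪)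
    (((W.apOfModel q : ℤ) : 𝒪) • (1 : Module.End 𝒪 (𝒪 ⊗[ℤ_[p]] s59b_TW W p))) φ ?_ ?_
  · exact key
  · intro ℓ hℓ hℓS
    obtain ⟨h1, h2, h3, h4⟩ := hS ℓ hℓ hℓS
    obtain ⟨t, ht1, ht2⟩ := hT ℓ hℓ h2 h4 h1
    exact ⟨t, by rw [ht1, hT₁eq ℓ hℓ], ht2⟩
  · intro g
    refine ⟨algebraMap 𝒪 P (s59b_cycO p 𝒪 g), ?_, ?_⟩
    · rw [AlgHom.commutes]
      rfl
    · rw [AlgHom.commutes]
      rfl
  · intro ℓ hℓ hℓS g
    rw [hT₁eq ℓ hℓ]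
    exact s30f_baseChange_commute 𝒪 (D.comm ⟨ℓ, hℓ⟩ g)
  · intro ℓ hℓ hℓS g
    show _ * _ = _ * _
    rw [mul_smul_comm, mul_one, smul_mul_assoc, one_mul]
  · intro ℓ hℓ hℓS A hA σ hσ
    obtain ⟨h1, h2, h3, h4⟩ := hS ℓ hℓ hℓS
    exact hquad₁ ℓ hℓ h2 h3 A hA σ hσ
  · intro ℓ hℓ hℓS A hA σ hσ
    obtain ⟨h1, h2, h3, h4⟩ := hS ℓ hℓ hℓS
    exact s59b_TW_frobQuad_base p 𝒪 W hp2 ℓ hℓ h3 h4 A hA σ hσ
  · have := hquad₁ q hq hqMp hqp A hA φ hφ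
    rw [hT₁eq q hq] at this
    exact this
  · exact s59b_TW_frobQuad_base p 𝒪 W hp2 q hq hqp hgoodq A hA φ hφ

end Main

end Fermat.Agent.Lib.S59
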