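/-
Programme R (S59), node (TQ) (helper2, prefix `s59b_`): **(TQ)** — on the anemic `𝔪`-part of
`H_par(Γ₀(M), 𝒪)` the Hecke operator `T_q` (`q ∤ M p` a prime of good reduction of `W`, possibly
dividing the top level `N'`) is congruent to `a_q(W)` modulo `𝔪` and topologically nilpotent
operators: the input `hTQ` of helper8's Taylor–Wiles chain `s59t_chain`.

* `s59b_Compat_add/mul/algebraMap/polyAct` : compatibility of operators on `𝒪 ⊗ Λ` and on `H_par`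
  is stable under the algebra operations;
* `s59b_compat_T0` : `T_ℓ ⊗ 𝒪` on `𝒪 ⊗ T_p J₀(M)` is compatible with `T_ℓ` on `H_par(Γ₀(M), 𝒪)`
  (main's `s30i_iota`, `s30e_iota_hecke_Tz`);
* **`s59b_TQ_poly`** : there is a polynomial `t` in the anemic variables (`T_ℓ`, `ℓ ∤ N'`) with
  `t(T_ℓ) = T_q` on `H_par(Γ₀(M), 𝒪)` and `t(a') = a_q(W)` for EVERY vector `a'` with
  `a'_ℓ = a_ℓ(W)`, `ℓ ≠ p`;
* **`s59b_TQ`** : (TQ).
-/
import Mathlib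
import Fermat.Agent.Lib.S30.TateDatum
import Fermat.Agent.Lib.S59.BGenHpar
import Fermat.Agent.Lib.S59.BTQTate
import Fermat.Agent.Lib.S59.TG0Ops

set_option autoImplicit false
set_option linter.unusedSectionVars false
set_option linter.unusedVariables false
set_option linter.style.haveILetI false

open AlgebraicCurve ModularCurve CongruenceSubgroup
open scoped TensorProduct MatrixGroups

namespace Fermat.Agent.Lib.S59

open Fermat.Agent.Lib.S29 Fermat.Agent.Lib.S30 Fermat.Agent.Lib.S48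
open Matrix IsLocalRing WeierstrassCurve

noncomputable section

section CompatAlg

variable {Γ : Subgroup SL(2, ℤ)} {ι : Type*} [Fintype ι] [DecidableEq ι]
  (b : Module.Basis ι ℤ (s48h_M Γ)) (p : ℕ) [Fact p.Prime]
  {Λ : Type*} [AddCommGroup Λ] [Module ℤ_[p] Λ] (iota : ↥(s48h_M Γ) →ₗ[ℤ] Λ)
  (𝒪 : Type*) [CommRing 𝒪] [IsDomain 𝒪] [CharZero 𝒪] [Algebra ℤ_[p] 𝒪]

variable {b p iota 𝒪}

theorem s59b_Compat_add {A₁ A₂ : Module.End 𝒪 (𝒪 ⊗[ℤ_[p]] Λ)}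
    {B₁ B₂ : Module.End 𝒪 (s48h_Hpar 𝒪 Γ 𝒪)} (h₁ : s59b_Compat b p iota 𝒪 A₁ B₁)
    (h₂ : s59b_Compat b p iota 𝒪 A₂ B₂) : s59b_Compat b p iota 𝒪 (A₁ + A₂) (B₁ + B₂) := by
  intro c
  obtain ⟨c₁, e1, e2⟩ := h₁ c
  obtain ⟨c₂, e3, e4⟩ := h₂ c
  refine ⟨c₁ + c₂, ?_, ?_⟩
  · rw [LinearMap.add_apply, e1, e3, s59b_Kvec_add]
  · rw [LinearMap.add_apply, e2, e4, s59b_eigVec_add]

theorem s59b_Compat_mul {A₁ A₂ : Module.End 𝒪 (𝒪 ⊗[ℤ_[p]] Λ)}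
    {B₁ B₂ : Module.End 𝒪 (s48h_Hpar 𝒪 Γ 𝒪)} (h₁ : s59b_Compat b p iota 𝒪 A₁ B₁)
    (h₂ : s59b_Compat b p iota 𝒪 A₂ B₂) : s59b_Compat b p iota 𝒪 (A₁ * A₂) (B₁ * B₂) := by
  intro c
  obtain ⟨c', e1, e2⟩ := h₂ c
  obtain ⟨c'', e3, e4⟩ := h₁ c'
  refine ⟨c'', ?_, ?_⟩
  · rw [Module.End.mul_apply, e1, e3]
  · rw [Module.End.mul_apply, e2, e4]

theorem s59b_Compat_smul_one (r : 𝒪) :
    s59b_Compat b p iota 𝒪 (r • (1 : Module.End 𝒪 (𝒪 ⊗[ℤ_[p]] Λ)))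
      (r • (1 : Module.End 𝒪 (s48h_Hpar 𝒪 Γ 𝒪))) := by
  intro c
  refine ⟨r • c, ?_, ?_⟩
  · rw [LinearMap.smul_apply, Module.End.one_apply, s59b_Kvec_smul]
  · rw [LinearMap.smul_apply, Module.End.one_apply, s59b_eigVec_smul]

theorem s59b_Compat_one :
    s59b_Compat b p iota 𝒪 (1 : Module.End 𝒪 (𝒪 ⊗[ℤ_[p]] Λ))
      (1 : Module.End 𝒪 (s48h_Hpar 𝒪 Γ 𝒪)) := by
  intro c
  exact ⟨c, rfl, rfl⟩

/-- **polynomial actions with compatible generators are compatible.** -/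
theorem s59b_Compat_polyAct {I : Type*} (op₁ : I → Module.End 𝒪 (𝒪 ⊗[ℤ_[p]] Λ))
    (hc₁ : ∀ i j, op₁ i * op₁ j = op₁ j * op₁ i)
    (op₂ : I → Module.End 𝒪 (s48h_Hpar 𝒪 Γ 𝒪)) (hc₂ : ∀ i j, op₂ i * op₂ j = op₂ j * op₂ i)
    (h : ∀ i, s59b_Compat b p iota 𝒪 (op₁ i) (op₂ i)) (t : MvPolynomial I 𝒪) :
    s59b_Compat b p iota 𝒪 (s59t_polyAct op₁ hc₁ t) (s59t_polyAct op₂ hc₂ t) := by
  induction t using MvPolynomial.induction_on with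
  | C r =>
    rw [s59t_polyAct_C, s59t_polyAct_C]
    exact s59b_Compat_smul_one r
  | add s t hs ht =>
    rw [map_add, map_add]
    exact s59b_Compat_add hs ht
  | mul_X s i hs =>
    rw [map_mul, map_mul, s59t_polyAct_X, s59t_polyAct_X]
    exact s59b_Compat_mul hs (h i)

end CompatAlg

section Conc

variable (M : ℕ) [NeZero M] (p : ℕ) [Fact p.Prime]
  (𝒪 : Type) [CommRing 𝒪] [IsDomain 𝒪] [CharZero 𝒪] [Algebra ℤ_[p] 𝒪]

/-- a Hecke-equivariant `ι : H(ℤ) → Λ` makes `T_Λ ⊗ 𝒪` compatible with `T_ℓ` on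
`H_par(Γ₀(M), 𝒪)`. -/
theorem s59b_compat_T0_abs {ι : Type*} [Fintype ι] [DecidableEq ι]
    (b : Module.Basis ι ℤ (s29s_M M)) {Λ : Type*} [AddCommGroup Λ] [Module ℤ_[p] Λ]
    (iota : ↥(s29s_M M) →ₗ[ℤ] Λ) (ℓ : ℕ) [Fact ℓ.Prime] (TΛ : Module.End ℤ_[p] Λ)
    (hint : ∀ φ : ↥(s29s_M M), iota (s29h_heckeHpar M ℓ ℤ ℤ φ) = TΛ (iota φ)) :
    s59b_Compat (Γ := Gamma0 M) b p iota 𝒪 (TΛ.baseChange 𝒪) (s29h_heckeHpar M ℓ 𝒪 𝒪) := by
  classical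
  intro c
  refine ⟨(s29s_heckeMat b ℓ).map (Int.cast : ℤ → 𝒪) *ᵥ c, ?_, ?_⟩
  · apply Subtype.ext
    exact s29s_heckeHom_sum_castB b 𝒪 ℓ c
  · have hT : ∀ j, TΛ (iota (b j)) =
        ∑ i, ((s29s_heckeMat b ℓ).map (Int.cast : ℤ → ℤ_[p])) i j • iota (b i) := by
      intro j
      rw [← hint (b j)]
      have h1 : s29h_heckeHpar M ℓ ℤ ℤ (b j) = ∑ i, s29s_heckeMat b ℓ i j • b i := by
        have h := b.sum_repr (s29h_heckeHpar M ℓ ℤ ℤ (b j))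
        rw [← h]
        refine Finset.sum_congr rfl fun i _ => ?_
        rw [s29s_heckeMat, LinearMap.toMatrix_apply]
      rw [h1, map_sum]
      refine Finset.sum_congr rfl fun i _ => ?_
      rw [map_zsmul, Matrix.map_apply, Int.cast_smul_eq_zsmul]
    have h2 := s30e_baseChange_sum (A := 𝒪) TΛ (fun i => iota (b i)) _ hT c
    have hmat : ((s29s_heckeMat b ℓ).map (Int.cast : ℤ → ℤ_[p])).map (algebraMap ℤ_[p] 𝒪) =
        (s29s_heckeMat b ℓ).map (Int.cast : ℤ → 𝒪) := by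
      ext i j
      simp
    rw [hmat] at h2
    exact h2

/-- **`T_ℓ ⊗ 𝒪` on `𝒪 ⊗ T_p J₀(M)` is compatible with `T_ℓ` on `H_par(Γ₀(M), 𝒪)`**, `ℓ ∤ M`. -/
theorem s59b_compat_T0 {ι : Type*} [Fintype ι] [DecidableEq ι] (b : Module.Basis ι ℤ (s29s_M M))
    (ℓ : ℕ) [Fact ℓ.Prime] (hℓ : ℓ.Prime) (hℓM : ¬ ℓ ∣ M) :
    s59b_Compat (Γ := Gamma0 M) b p (s30i_iota M p) 𝒪
      ((s30a_Tz M p ⟨ℓ, hℓ⟩).baseChange 𝒪) (s29h_heckeHpar M ℓ 𝒪 𝒪) :=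
  s59b_compat_T0_abs M p 𝒪 b (s30i_iota M p) ℓ (s30a_Tz M p ⟨ℓ, hℓ⟩)
    (fun φ => s30e_iota_hecke_Tz M p ℓ hℓ hℓM φ)

end Conc

section EvalHom

variable {𝒪 : Type*} [CommRing 𝒪] [IsLocalRing 𝒪]

/-- residue of an evaluation. -/
theorem s59b_evalHom_eq {I : Type*} (a : I → 𝒪) (t : MvPolynomial I 𝒪) :
    s59t_evalHom a t = residue 𝒪 (MvPolynomial.eval a t) := by
  unfold s59t_evalHom
  induction t using MvPolynomial.induction_on with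
  | C r => simp
  | add s t hs ht => rw [map_add, map_add, map_add, hs, ht]
  | mul_X s i hs => rw [map_mul, map_mul, map_mul, hs]; simp

/-- the evaluation modulo `𝔪` only depends on the vector modulo `𝔪`. -/
theorem s59b_evalHom_congr {I : Type*} (a c : I → 𝒪) (h : ∀ i, c i - a i ∈ maximalIdeal 𝒪) :
    s59t_evalHom c = s59t_evalHom a := by
  have : (fun i => residue 𝒪 (c i)) = fun i => residue 𝒪 (a i) := by
    funext i
    rw [← sub_eq_zero, ← map_sub, residue_eq_zero_iff]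
    exact h i
  unfold s59t_evalHom
  rw [this]

end EvalHom

section Main

variable (p : ℕ) [Fact p.Prime]
  {𝒪 : Type} [CommRing 𝒪] [IsDomain 𝒪] [CharZero 𝒪] [Algebra ℤ_[p] 𝒪]
  {N' : ℕ} [NeZero N']

/-- the anemic generators on `𝒪 ⊗ T_p J₀(M)`: `T_ℓ ⊗ 𝒪` and the (trivial) diamonds. -/
def s59b_opTate (M : ℕ) [NeZero M] :
    s59w_AIdx N' → Module.End 𝒪 (𝒪 ⊗[ℤ_[p]] s30a_TJ M p)
  | Sum.inl i => (s30a_Tz M p ⟨i.ell, i.prime⟩).baseChange 𝒪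
  | Sum.inr _ => 1

theorem s59b_opTate_comm (M : ℕ) [NeZero M] (i j : s59w_AIdx N') :
    s59b_opTate p (𝒪 := 𝒪) M i * s59b_opTate p M j = s59b_opTate p M j * s59b_opTate p M i := by
  rcases i with i | τ <;> rcases j with j | τ'
  · exact (s30f_baseChange_commute 𝒪 (s30a_Tz_T_comm M p ⟨i.ell, i.prime⟩ ⟨j.ell, j.prime⟩)).eq
  · show _ * 1 = 1 * _
    rw [mul_one, one_mul]
  · show 1 * _ = _ * 1
    rw [mul_one, one_mul]
  · rfl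

variable [IsLocalRing 𝒪] [IsNoetherianRing 𝒪]

set_option maxHeartbeats 1600000 in
/-- **`T_q` on `H_par(Γ₀(M), 𝒪)` is a polynomial in the anemic generators, with value `a_q(W)` at
the eigenvalues of `W`.** -/
theorem s59b_TQ_poly (hp2 : p ≠ 2) (hp𝒪 : (p : 𝒪) ∈ maximalIdeal 𝒪) (aq : ℕ → 𝒪)
    (W : WeierstrassCurve ℤ) (hΔ : W.Δ ≠ 0) (a' : s59w_AIdx N' → 𝒪)
    (ha' : ∀ i : s59w_TIdx N', i.ell ≠ p → a' (Sum.inl i) = ((W.apOfModel i.ell : ℤ) : 𝒪))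
    (M : ℕ) (hM : M ∣ N') (q : ℕ) [Fact q.Prime] (hqM : ¬ q ∣ M) (hqp : q ≠ p)
    (hgoodq : W.IsGoodPrimeFor q) :
    ∃ t : MvPolynomial (s59w_AIdx N') 𝒪,
      s59t_act0 aq hM (MvPolynomial.rename Sum.inl t) = s29h_heckeHpar M q 𝒪 𝒪 ∧
        MvPolynomial.eval a' t = ((W.apOfModel q : ℤ) : 𝒪) := by
  classical
  haveI : NeZero M := s59t_neZero_of_dvd hM
  have hq : q.Prime := Fact.out
  have hp : p.Prime := Fact.out
  have hnd : ∀ k : s59w_TIdx N', ¬ k.ell ∣ M := fun k h => k.ndvd (dvd_trans h hM)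
  have hqMp : ¬ q ∣ M * p := by
    intro h
    rcases (Nat.Prime.dvd_mul hq).mp h with h1 | h1
    · exact hqM h1
    · exact hqp ((Nat.prime_dvd_prime_iff_eq hq hp).mp h1)
  let b := Module.finBasis ℤ ↥(s29s_M M)
  have hli := s30e_iota_linearIndependent M p (s30u_kinf M p) (s30u_kinf_spec M p) b
  -- freeness of `𝒪 ⊗ T_p W`
  haveI : Module.Free ℤ_[p] (s59b_TW W p) := (s59b_rhoW W p hΔ).instFree
  haveI : Module.Finite ℤ_[p] (s59b_TW W p) := (s59b_rhoW W p hΔ).instFinite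
  haveI : Nontrivial (𝒪 ⊗[ℤ_[p]] s59b_TW W p) := by
    apply Module.nontrivial_of_finrank_pos (R := 𝒪)
    have h2 : Module.finrank ℤ_[p] (s59b_TW W p) = 2 := (s59b_rhoW W p hΔ).finrank_eq
    rw [Module.finrank_baseChange, h2]
    norm_num
  -- the two actions
  set act₁ : MvPolynomial (s59w_AIdx N') 𝒪 →ₐ[𝒪] Module.End 𝒪 (𝒪 ⊗[ℤ_[p]] s30a_TJ M p) :=
    s59t_polyAct (s59b_opTate p (𝒪 := 𝒪) (N' := N') M) (s59b_opTate_comm p M) with hact₁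
  set act₂ : MvPolynomial (s59w_AIdx N') 𝒪 →ₐ[𝒪] Module.End 𝒪 (𝒪 ⊗[ℤ_[p]] s59b_TW W p) :=
    (Algebra.ofId 𝒪 (Module.End 𝒪 (𝒪 ⊗[ℤ_[p]] s59b_TW W p))).comp (MvPolynomial.aeval a')
    with hact₂
  have hact₂t : ∀ t, act₂ t =
      MvPolynomial.eval a' t • (1 : Module.End 𝒪 (𝒪 ⊗[ℤ_[p]] s59b_TW W p)) := by
    intro t
    rw [hact₂, AlgHom.comp_apply, Algebra.ofId_apply, Algebra.algebraMap_eq_smul_one,
      MvPolynomial.aeval_def, MvPolynomial.eval₂_eq_eval_map, Algebra.algebraMap_self,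
      MvPolynomial.map_id]
  have hT : ∀ (ℓ : ℕ) (hℓ : ℓ.Prime), ¬ ℓ ∣ M * p → W.IsGoodPrimeFor ℓ → ℓ ∉ N'.primeFactors →
      ∃ t : MvPolynomial (s59w_AIdx N') 𝒪,
        act₁ t = (s30a_Tz M p ⟨ℓ, hℓ⟩).baseChange 𝒪 ∧
        act₂ t = ((W.apOfModel ℓ : ℤ) : 𝒪) •
          (1 : Module.End 𝒪 (𝒪 ⊗[ℤ_[p]] s59b_TW W p)) := by
    intro ℓ hℓ hℓMp hg hℓS
    have hℓN' : ¬ ℓ ∣ N' := fun h => hℓS (Nat.mem_primeFactors.mpr ⟨hℓ, h, NeZero.ne N'⟩)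
    have hℓp : ℓ ≠ p := fun h => hℓMp (h ▸ Dvd.intro_left M rfl)
    haveI : Fact ℓ.Prime := ⟨hℓ⟩
    obtain ⟨σ, hσ, h11⟩ := s48h_exists_sigma_p (M := N') hℓN'
    refine ⟨MvPolynomial.X (Sum.inl ⟨ℓ, hℓ, hℓN', σ, hσ, h11⟩), ?_, ?_⟩
    · rw [hact₁, s59t_polyAct_X]
      rfl
    · rw [hact₂t, MvPolynomial.eval_X, ha' ⟨ℓ, hℓ, hℓN', σ, hσ, h11⟩ hℓp]
  obtain ⟨t, ht1, ht2⟩ := s59b_TQ_tate p 𝒪 (s30u_tateDatum M p) W hΔ hp2 hp𝒪 act₁ act₂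
    N'.primeFactors hT q hq hqMp hgoodq
  refine ⟨t, ?_, ?_⟩
  · have hcompat : s59b_Compat (Γ := Gamma0 M) b p (s30i_iota M p) 𝒪 (act₁ t)
        (s59t_act0 aq hM (MvPolynomial.rename Sum.inl t)) := by
      unfold s59t_act0
      rw [s59t_polyAct_rename]
      refine s59b_Compat_polyAct _ _ _ _ (fun i => ?_) t
      rcases i with i | τ
      · haveI : Fact i.ell.Prime := ⟨i.prime⟩
        exact s59b_compat_T0 M p 𝒪 b i.ell i.prime (hnd i)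
      · exact s59b_Compat_one
    have hcompat' := s59b_compat_T0 M p 𝒪 b q hq hqM
    have ht1' : act₁ t = (s30a_Tz M p ⟨q, hq⟩).baseChange 𝒪 := ht1
    rw [ht1'] at hcompat
    exact s59b_compat_unique (Γ := Gamma0 M) b p (s30i_iota M p) 𝒪 hli hcompat hcompat'
  · rw [hact₂t] at ht2
    exact s30d_smul_one_injective ht2

/-- **(TQ)**: on the part of `H_par(Γ₀(M), 𝒪)` cut out by an idempotent `e₀` on which the ideal
`(𝔪, X_i - c_i)` of the anemic polynomial ring is topologically nilpotent, `c_ℓ ≡ a_ℓ(W)`, the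
operator `T_q - (a_q + b_q)` is topologically nilpotent as soon as `a_q + b_q ≡ a_q(W)`. -/
theorem s59b_TQ (hp2 : p ≠ 2) (hp𝒪 : (p : 𝒪) ∈ maximalIdeal 𝒪) (aq bq : ℕ → 𝒪)
    (W : WeierstrassCurve ℤ) (hΔ : W.Δ ≠ 0) (c : s59w_AIdx N' → 𝒪)
    (hc : ∀ i : s59w_TIdx N', i.ell ≠ p →
      c (Sum.inl i) - ((W.apOfModel i.ell : ℤ) : 𝒪) ∈ maximalIdeal 𝒪)
    (e₀ : MvPolynomial (s59w_AIdx N') 𝒪) (M : ℕ) (hM : M ∣ N')
    (hnil : ∀ t ∈ s59t_evalIdeal c, ∃ n : ℕ, ∀ y : s29h_Hpar 𝒪 M 𝒪,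
      ((s59t_act0 aq hM (MvPolynomial.rename Sum.inl t)) ^ n)
        (s59t_act0 aq hM (MvPolynomial.rename Sum.inl e₀) y) ∈
        (maximalIdeal 𝒪 • ⊤ : Submodule 𝒪 (s29h_Hpar 𝒪 M 𝒪)))
    (q : ℕ) [Fact q.Prime] (hqM : ¬ q ∣ M) (hqp : q ≠ p) (hgoodq : W.IsGoodPrimeFor q)
    (haq : aq q + bq q - ((W.apOfModel q : ℤ) : 𝒪) ∈ maximalIdeal 𝒪) :
    ∃ n : ℕ, ∀ y : s29h_Hpar 𝒪 M 𝒪,
      ((s29h_heckeHpar M q 𝒪 𝒪 - (aq q + bq q) • (1 : Module.End 𝒪 (s29h_Hpar 𝒪 M 𝒪))) ^ n)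
        (s59t_act0 aq hM (MvPolynomial.rename Sum.inl e₀) y) ∈
        (maximalIdeal 𝒪 • ⊤ : Submodule 𝒪 (s29h_Hpar 𝒪 M 𝒪)) := by
  classical
  -- the modified eigenvalue vector
  set a' : s59w_AIdx N' → 𝒪 := fun j =>
    match j with
    | Sum.inl i => if i.ell = p then c (Sum.inl i) else ((W.apOfModel i.ell : ℤ) : 𝒪)
    | Sum.inr τ => c (Sum.inr τ) with ha'def
  have ha' : ∀ i : s59w_TIdx N', i.ell ≠ p → a' (Sum.inl i) = ((W.apOfModel i.ell : ℤ) : 𝒪) :=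
    fun i h => if_neg h
  have hca : ∀ j, c j - a' j ∈ maximalIdeal 𝒪 := by
    rintro (i | τ)
    · by_cases h : i.ell = p
      · have : a' (Sum.inl i) = c (Sum.inl i) := if_pos h
        rw [this, sub_self]
        exact Ideal.zero_mem _
      · rw [ha' i h]
        exact hc i h
    · have : a' (Sum.inr τ) = c (Sum.inr τ) := rfl
      rw [this, sub_self]
      exact Ideal.zero_mem _
  obtain ⟨t, ht, hval⟩ := s59b_TQ_poly p hp2 hp𝒪 aq W hΔ a' ha' M hM q hqM hqp hgoodq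
  have hmem : t - MvPolynomial.C (aq q + bq q) ∈ s59t_evalIdeal c := by
    rw [s59t_mem_evalIdeal, map_sub, s59t_evalHom_C, s59b_evalHom_congr a' c hca,
      s59b_evalHom_eq, hval, ← map_sub, residue_eq_zero_iff]
    have := Ideal.neg_mem_iff (maximalIdeal 𝒪) |>.mpr haq
    rwa [neg_sub] at this
  obtain ⟨n, hn⟩ := hnil _ hmem
  refine ⟨n, fun y => ?_⟩
  have e2 : s59t_act0 aq hM (MvPolynomial.rename Sum.inl (t - MvPolynomial.C (aq q + bq q))) =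
      s29h_heckeHpar M q 𝒪 𝒪 - (aq q + bq q) • (1 : Module.End 𝒪 (s29h_Hpar 𝒪 M 𝒪)) := by
    rw [map_sub, map_sub, MvPolynomial.rename_C, ht, ← MvPolynomial.algebraMap_eq,
      AlgHom.commutes, Algebra.algebraMap_eq_smul_one]
  rw [← e2]
  exact hn y

end Main

end

end Fermat.Agent.Lib.S59
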