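/-
Programme R (S59), node (TQ) (helper2, prefix `s59b_`): **(TQ) in the binder shape of helper8's
`s59t_TW_tau`** — the anemic idempotent `e₀` lives in the polynomial ring on a sub-family
`good ⊆ s59w_AIdx N'` of generators containing the `T_ℓ`, `ℓ ∤ N'`, `ℓ ∉ B` (`B ∋ p` finite), and the
nilpotency on the `e₀`-part is only known for the generators `X_x - c_x`, `x ∈ good`.

* `s59b_sub_C_eval_mem_span` : `u - u(c) ∈ (X_i - c_i)`;
* `s59b_nil_of_gen` : topological nilpotency of the generators `X_i - c_i` on the image of an operator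
  `ε` implies that of every element of the ideal `(𝔪, X_i - c_i)`;
* **`s59b_TQ_poly_good`** : `T_q` is a polynomial in the good generators, with value `a_q(W)`;
* **`s59b_TQ_good`** : (TQ), generator form.
-/
import Mathlib
import Fermat.Agent.Lib.S59.BTQHpar

set_option autoImplicit false
set_option linter.unusedSectionVars false
set_option linter.unusedVariables false
set_option linter.style.haveILetI false

open AlgebraicCurve ModularCurve CongruenceSubgroup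
open scoped TensorProduct MatrixGroups

namespace Fermat.Agent.Lib.S59

open Fermat.Agent.Lib.S29 Fermat.Agent.Lib.S30 Fermat.Agent.Lib.S48
open Matrix IsLocalRing WeierstrassCurve

noncomputable section

section Nil

variable {𝒪 : Type} [CommRing 𝒪] {I : Type*}

/-- `u - u(c)` lies in the ideal generated by the `X_i - c_i`. -/
theorem s59b_sub_C_eval_mem_span (c : I → 𝒪) (u : MvPolynomial I 𝒪) :
    u - MvPolynomial.C (MvPolynomial.eval c u) ∈
      Ideal.span (Set.range fun i => (MvPolynomial.X i - MvPolynomial.C (c i) :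
        MvPolynomial I 𝒪)) := by
  induction u using MvPolynomial.induction_on with
  | C r =>
    rw [MvPolynomial.eval_C, sub_self]
    exact Ideal.zero_mem _
  | add s t hs ht =>
    have e : s + t - MvPolynomial.C (MvPolynomial.eval c (s + t)) =
        (s - MvPolynomial.C (MvPolynomial.eval c s)) +
          (t - MvPolynomial.C (MvPolynomial.eval c t)) := by
      rw [map_add, map_add]
      ring
    rw [e]
    exact Ideal.add_mem _ hs ht
  | mul_X s i hs =>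
    have e : s * MvPolynomial.X i - MvPolynomial.C (MvPolynomial.eval c (s * MvPolynomial.X i)) =
        (s - MvPolynomial.C (MvPolynomial.eval c s)) * MvPolynomial.X i +
          MvPolynomial.C (MvPolynomial.eval c s) *
            (MvPolynomial.X i - MvPolynomial.C (c i)) := by
      rw [map_mul, MvPolynomial.eval_X, map_mul]
      ring
    rw [e]
    exact Ideal.add_mem _ (Ideal.mul_mem_right _ _ hs)
      (Ideal.mul_mem_left _ _ (Ideal.subset_span ⟨i, rfl⟩))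

variable {Z : Type*} [AddCommGroup Z] [Module 𝒪 Z]

/-- binomial expansion: if `aⁿ x` and `bᵐ x` are in `J • ⊤` and `a`, `b` commute then
`(a + b)ⁿ⁺ᵐ x ∈ J • ⊤`. -/
theorem s59b_add_pow_apply_mem (J : Ideal 𝒪) (a b : Module.End 𝒪 Z) (hab : Commute a b)
    {n m : ℕ} {x : Z} (ha : (a ^ n) x ∈ (J • ⊤ : Submodule 𝒪 Z))
    (hb : (b ^ m) x ∈ (J • ⊤ : Submodule 𝒪 Z)) :
    ((a + b) ^ (n + m)) x ∈ (J • ⊤ : Submodule 𝒪 Z) := by
  rw [hab.add_pow, LinearMap.sum_apply]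
  refine Submodule.sum_mem _ fun k hk => ?_
  rw [Module.End.mul_apply, Module.End.natCast_apply, map_nsmul]
  refine Submodule.smul_of_tower_mem _ _ ?_
  by_cases hkn : n ≤ k
  · have e : a ^ k * b ^ (n + m - k) = b ^ (n + m - k) * a ^ (k - n) * a ^ n :=
      calc a ^ k * b ^ (n + m - k) = b ^ (n + m - k) * a ^ k := (hab.pow_pow k (n + m - k)).eq
        _ = b ^ (n + m - k) * (a ^ (k - n) * a ^ n) := by
          rw [← pow_add, Nat.sub_add_cancel hkn]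
        _ = b ^ (n + m - k) * a ^ (k - n) * a ^ n := (mul_assoc _ _ _).symm
    rw [e, Module.End.mul_apply]
    exact s59b_lin_mem_smul_top J (b ^ (n + m - k) * a ^ (k - n)) ha
  · have hkm : m ≤ n + m - k := by omega
    have e : a ^ k * b ^ (n + m - k) = a ^ k * b ^ (n + m - k - m) * b ^ m :=
      calc a ^ k * b ^ (n + m - k) = a ^ k * (b ^ (n + m - k - m) * b ^ m) := by
            rw [← pow_add, Nat.sub_add_cancel hkm]
        _ = a ^ k * b ^ (n + m - k - m) * b ^ m := (mul_assoc _ _ _).symm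
    rw [e, Module.End.mul_apply]
    exact s59b_lin_mem_smul_top J (a ^ k * b ^ (n + m - k - m)) hb

variable [IsLocalRing 𝒪]

/-- the elements of a commutative algebra acting on `Z` which are topologically nilpotent on the
image of `ε` form an ideal. -/
def s59b_nilIdeal {P : Type*} [CommRing P] [Algebra 𝒪 P] (act : P →ₐ[𝒪] Module.End 𝒪 Z)
    (ε : Module.End 𝒪 Z) : Ideal P where
  carrier := {u | ∃ n : ℕ, ∀ y : Z,
    ((act u) ^ n) (ε y) ∈ (maximalIdeal 𝒪 • ⊤ : Submodule 𝒪 Z)}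
  zero_mem' := by
    refine ⟨1, fun y => ?_⟩
    rw [map_zero, pow_one, LinearMap.zero_apply]
    exact Submodule.zero_mem _
  add_mem' := by
    rintro u v ⟨n, hn⟩ ⟨m, hm⟩
    refine ⟨n + m, fun y => ?_⟩
    have hcomm : Commute (act u) (act v) := by
      show act u * act v = act v * act u
      rw [← map_mul, ← map_mul, mul_comm]
    rw [map_add]
    exact s59b_add_pow_apply_mem _ _ _ hcomm (hn y) (hm y)
  smul_mem' := by
    rintro g u ⟨n, hn⟩
    refine ⟨n, fun y => ?_⟩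
    have hcomm : Commute (act g) (act u) := by
      show act g * act u = act u * act g
      rw [← map_mul, ← map_mul, mul_comm]
    rw [smul_eq_mul, map_mul, hcomm.mul_pow, Module.End.mul_apply]
    exact s59b_lin_mem_smul_top (maximalIdeal 𝒪) (act g ^ n) (hn y)

theorem s59b_mem_nilIdeal {P : Type*} [CommRing P] [Algebra 𝒪 P]
    (act : P →ₐ[𝒪] Module.End 𝒪 Z) (ε : Module.End 𝒪 Z) (u : P) :
    u ∈ s59b_nilIdeal act ε ↔ ∃ n : ℕ, ∀ y : Z,
      ((act u) ^ n) (ε y) ∈ (maximalIdeal 𝒪 • ⊤ : Submodule 𝒪 Z) := Iff.rfl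

/-- **from the generators to the whole evaluation ideal**: if every `X_i - c_i` is topologically
nilpotent on the image of `ε`, so is every element of `(𝔪, X_i - c_i)`. -/
theorem s59b_nil_of_gen (act : MvPolynomial I 𝒪 →ₐ[𝒪] Module.End 𝒪 Z) (ε : Module.End 𝒪 Z)
    (c : I → 𝒪)
    (hnil : ∀ i, ∃ n : ℕ, ∀ y : Z,
      ((act (MvPolynomial.X i) - c i • (1 : Module.End 𝒪 Z)) ^ n) (ε y) ∈
        (maximalIdeal 𝒪 • ⊤ : Submodule 𝒪 Z))
    (u : MvPolynomial I 𝒪) (hu : u ∈ s59t_evalIdeal c) :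
    ∃ n : ℕ, ∀ y : Z, ((act u) ^ n) (ε y) ∈ (maximalIdeal 𝒪 • ⊤ : Submodule 𝒪 Z) := by
  rw [← s59b_mem_nilIdeal]
  -- constants of `𝔪`
  have hC : ∀ r ∈ maximalIdeal 𝒪, (MvPolynomial.C r : MvPolynomial I 𝒪) ∈ s59b_nilIdeal act ε := by
    intro r hr
    refine ⟨1, fun y => ?_⟩
    rw [pow_one, ← MvPolynomial.algebraMap_eq, AlgHom.commutes, Module.algebraMap_end_apply]
    exact Submodule.smul_mem_smul hr Submodule.mem_top
  -- the generators
  have hX : ∀ i, (MvPolynomial.X i - MvPolynomial.C (c i) : MvPolynomial I 𝒪) ∈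
      s59b_nilIdeal act ε := by
    intro i
    obtain ⟨n, hn⟩ := hnil i
    refine ⟨n, fun y => ?_⟩
    have e : act (MvPolynomial.X i - MvPolynomial.C (c i)) =
        act (MvPolynomial.X i) - c i • (1 : Module.End 𝒪 Z) := by
      rw [map_sub, ← MvPolynomial.algebraMap_eq, AlgHom.commutes,
        Algebra.algebraMap_eq_smul_one]
    rw [e]
    exact hn y
  have hspan : Ideal.span (Set.range fun i => (MvPolynomial.X i - MvPolynomial.C (c i) :
      MvPolynomial I 𝒪)) ≤ s59b_nilIdeal act ε := by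
    rw [Ideal.span_le]
    rintro _ ⟨i, rfl⟩
    exact hX i
  have hval : MvPolynomial.eval c u ∈ maximalIdeal 𝒪 := by
    rw [s59t_mem_evalIdeal, s59b_evalHom_eq, residue_eq_zero_iff] at hu
    exact hu
  have e : u = (u - MvPolynomial.C (MvPolynomial.eval c u)) +
      MvPolynomial.C (MvPolynomial.eval c u) := by ring
  rw [e]
  exact (s59b_nilIdeal act ε).add_mem (hspan (s59b_sub_C_eval_mem_span c u)) (hC _ hval)

end Nil

section Good

variable (p : ℕ) [Fact p.Prime]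
  {𝒪 : Type} [CommRing 𝒪] [IsDomain 𝒪] [CharZero 𝒪] [Algebra ℤ_[p] 𝒪]
  {N' : ℕ} [NeZero N'] [IsLocalRing 𝒪] [IsNoetherianRing 𝒪]

set_option maxHeartbeats 1600000 in
/-- **`T_q` on `H_par(Γ₀(M), 𝒪)` is a polynomial in the GOOD anemic generators, with value
`a_q(W)` at the eigenvalues of `W`.** -/
theorem s59b_TQ_poly_good (hp2 : p ≠ 2) (hp𝒪 : (p : 𝒪) ∈ maximalIdeal 𝒪) (aq : ℕ → 𝒪)
    (W : WeierstrassCurve ℤ) (hΔ : W.Δ ≠ 0) (good : Set (s59w_AIdx N')) (Bset : Finset ℕ)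
    (hgp : ∀ i : s59w_TIdx N', i.ell ∉ Bset → (Sum.inl i : s59w_AIdx N') ∈ good)
    (a' : ↥good → 𝒪)
    (ha' : ∀ (i : s59w_TIdx N') (hi : i.ell ∉ Bset),
      a' ⟨Sum.inl i, hgp i hi⟩ = ((W.apOfModel i.ell : ℤ) : 𝒪))
    (M : ℕ) (hM : M ∣ N') (q : ℕ) [Fact q.Prime] (hqM : ¬ q ∣ M) (hqp : q ≠ p)
    (hgoodq : W.IsGoodPrimeFor q) :
    ∃ t : MvPolynomial ↥good 𝒪,
      s59t_act0 aq hM (MvPolynomial.rename
        (fun x : ↥good => (Sum.inl (x : s59w_AIdx N') : s59w_AIdx N' ⊕ ℕ)) t) =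
          s29h_heckeHpar M q 𝒪 𝒪 ∧
        MvPolynomial.eval a' t = ((W.apOfModel q : ℤ) : 𝒪) := by
  classical
  haveI : NeZero M := s59t_neZero_of_dvd hM
  have hq : q.Prime := Fact.out
  have hp : p.Prime := Fact.out
  have hnd : ∀ k : s59w_TIdx N', ¬ k.ell ∣ M := fun k h => k.ndvd (dvd_trans h hM)
  have hqMp : ¬ q ∣ M * p := by
    intro h
    rcases (Nat.Prime.dvd_mul hq).mp h with h1 | h1
    · exact hqM h1
    · exact hqp ((Nat.prime_dvd_prime_iff_eq hq hp).mp h1)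
  let b := Module.finBasis ℤ ↥(s29s_M M)
  have hli := s30e_iota_linearIndependent M p (s30u_kinf M p) (s30u_kinf_spec M p) b
  -- freeness of `𝒪 ⊗ T_p W`
  haveI : Module.Free ℤ_[p] (s59b_TW W p) := (s59b_rhoW W p hΔ).instFree
  haveI : Module.Finite ℤ_[p] (s59b_TW W p) := (s59b_rhoW W p hΔ).instFinite
  haveI : Nontrivial (𝒪 ⊗[ℤ_[p]] s59b_TW W p) := by
    apply Module.nontrivial_of_finrank_pos (R := 𝒪)
    have h2 : Module.finrank ℤ_[p] (s59b_TW W p) = 2 := (s59b_rhoW W p hΔ).finrank_eq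
    rw [Module.finrank_baseChange, h2]
    norm_num
  -- the two actions
  set act₁ : MvPolynomial ↥good 𝒪 →ₐ[𝒪] Module.End 𝒪 (𝒪 ⊗[ℤ_[p]] s30a_TJ M p) :=
    s59t_polyAct (fun x : ↥good => s59b_opTate p (𝒪 := 𝒪) (N' := N') M (x : s59w_AIdx N'))
      (fun x y => s59b_opTate_comm p M (x : s59w_AIdx N') (y : s59w_AIdx N')) with hact₁
  set act₂ : MvPolynomial ↥good 𝒪 →ₐ[𝒪] Module.End 𝒪 (𝒪 ⊗[ℤ_[p]] s59b_TW W p) :=
    (Algebra.ofId 𝒪 (Module.End 𝒪 (𝒪 ⊗[ℤ_[p]] s59b_TW W p))).comp (MvPolynomial.aeval a')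
    with hact₂
  have hact₂t : ∀ t, act₂ t =
      MvPolynomial.eval a' t • (1 : Module.End 𝒪 (𝒪 ⊗[ℤ_[p]] s59b_TW W p)) := by
    intro t
    rw [hact₂, AlgHom.comp_apply, Algebra.ofId_apply, Algebra.algebraMap_eq_smul_one,
      MvPolynomial.aeval_def, MvPolynomial.eval₂_eq_eval_map, Algebra.algebraMap_self,
      MvPolynomial.map_id]
  have hT : ∀ (ℓ : ℕ) (hℓ : ℓ.Prime), ¬ ℓ ∣ M * p → W.IsGoodPrimeFor ℓ →
      ℓ ∉ N'.primeFactors ∪ Bset →
      ∃ t : MvPolynomial ↥good 𝒪,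
        act₁ t = (s30a_Tz M p ⟨ℓ, hℓ⟩).baseChange 𝒪 ∧
        act₂ t = ((W.apOfModel ℓ : ℤ) : 𝒪) •
          (1 : Module.End 𝒪 (𝒪 ⊗[ℤ_[p]] s59b_TW W p)) := by
    intro ℓ hℓ hℓMp hg hℓS
    rw [Finset.mem_union, not_or] at hℓS
    have hℓN' : ¬ ℓ ∣ N' := fun h => hℓS.1 (Nat.mem_primeFactors.mpr ⟨hℓ, h, NeZero.ne N'⟩)
    haveI : Fact ℓ.Prime := ⟨hℓ⟩
    obtain ⟨σ, hσ, h11⟩ := s48h_exists_sigma_p (M := N') hℓN'
    have hi : (⟨ℓ, hℓ, hℓN', σ, hσ, h11⟩ : s59w_TIdx N').ell ∉ Bset := hℓS.2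
    refine ⟨MvPolynomial.X ⟨Sum.inl ⟨ℓ, hℓ, hℓN', σ, hσ, h11⟩, hgp _ hi⟩, ?_, ?_⟩
    · rw [hact₁, s59t_polyAct_X]
      rfl
    · rw [hact₂t, MvPolynomial.eval_X, ha' ⟨ℓ, hℓ, hℓN', σ, hσ, h11⟩ hi]
  obtain ⟨t, ht1, ht2⟩ := s59b_TQ_tate p 𝒪 (s30u_tateDatum M p) W hΔ hp2 hp𝒪 act₁ act₂
    (N'.primeFactors ∪ Bset) hT q hq hqMp hgoodq
  refine ⟨t, ?_, ?_⟩
  · have hcompat : s59b_Compat (Γ := Gamma0 M) b p (s30i_iota M p) 𝒪 (act₁ t)
        (s59t_act0 aq hM (MvPolynomial.rename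
          (fun x : ↥good => (Sum.inl (x : s59w_AIdx N') : s59w_AIdx N' ⊕ ℕ)) t)) := by
      unfold s59t_act0
      rw [s59t_polyAct_rename]
      refine s59b_Compat_polyAct _ _ _ _ (fun x => ?_) t
      rcases x with ⟨i | τ, hx⟩
      · haveI : Fact i.ell.Prime := ⟨i.prime⟩
        exact s59b_compat_T0 M p 𝒪 b i.ell i.prime (hnd i)
      · exact s59b_Compat_one
    have hcompat' := s59b_compat_T0 M p 𝒪 b q hq hqM
    have ht1' : act₁ t = (s30a_Tz M p ⟨q, hq⟩).baseChange 𝒪 := ht1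
    rw [ht1'] at hcompat
    exact s59b_compat_unique (Γ := Gamma0 M) b p (s30i_iota M p) 𝒪 hli hcompat hcompat'
  · rw [hact₂t] at ht2
    exact s30d_smul_one_injective ht2

/-- **(TQ), generator form** (the premise `hTQ` of helper8's `s59t_TW_tau`): `good` a family of
anemic generators containing the `T_ℓ`, `ℓ ∤ N'`, `ℓ ∉ B`; `c_ℓ ≡ a_ℓ(W)` for these; every
`X_x - c_x`, `x ∈ good`, topologically nilpotent on the image of `ε₀ = e₀(T)`;
`a_q + b_q ≡ a_q(W)`.  Then `T_q - (a_q + b_q)` is topologically nilpotent on the image of `ε₀`. -/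
theorem s59b_TQ_good (hp2 : p ≠ 2) (hp𝒪 : (p : 𝒪) ∈ maximalIdeal 𝒪) (aq bq : ℕ → 𝒪)
    (W : WeierstrassCurve ℤ) (hΔ : W.Δ ≠ 0) (good : Set (s59w_AIdx N')) (c : s59w_AIdx N' → 𝒪)
    (Bset : Finset ℕ)
    (hgp : ∀ i : s59w_TIdx N', i.ell ∉ Bset → (Sum.inl i : s59w_AIdx N') ∈ good)
    (hc : ∀ i : s59w_TIdx N', i.ell ∉ Bset →
      c (Sum.inl i) - ((W.apOfModel i.ell : ℤ) : 𝒪) ∈ maximalIdeal 𝒪)
    (M : ℕ) (hM : M ∣ N') (e₀ : MvPolynomial ↥good 𝒪)
    (hnil : ∀ x : ↥good, ∃ n : ℕ, ∀ y : s29h_Hpar 𝒪 M 𝒪,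
      ((s59t_op0 N' aq M (Sum.inl (x : s59w_AIdx N')) -
        c x • (1 : Module.End 𝒪 (s29h_Hpar 𝒪 M 𝒪))) ^ n)
        (s59t_act0 aq hM (MvPolynomial.rename
          (fun x : ↥good => (Sum.inl (x : s59w_AIdx N') : s59w_AIdx N' ⊕ ℕ)) e₀) y) ∈
        (maximalIdeal 𝒪 • ⊤ : Submodule 𝒪 (s29h_Hpar 𝒪 M 𝒪)))
    (q : ℕ) [Fact q.Prime] (hqM : ¬ q ∣ M) (hqp : q ≠ p) (hgoodq : W.IsGoodPrimeFor q)
    (haq : aq q + bq q - ((W.apOfModel q : ℤ) : 𝒪) ∈ maximalIdeal 𝒪) :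
    ∃ n : ℕ, ∀ y : s29h_Hpar 𝒪 M 𝒪,
      ((s29h_heckeHpar M q 𝒪 𝒪 - (aq q + bq q) • (1 : Module.End 𝒪 (s29h_Hpar 𝒪 M 𝒪))) ^ n)
        (s59t_act0 aq hM (MvPolynomial.rename
          (fun x : ↥good => (Sum.inl (x : s59w_AIdx N') : s59w_AIdx N' ⊕ ℕ)) e₀) y) ∈
        (maximalIdeal 𝒪 • ⊤ : Submodule 𝒪 (s29h_Hpar 𝒪 M 𝒪)) := by
  classical
  -- the modified eigenvalue vector
  set a' : ↥good → 𝒪 := fun x =>
    match (x : s59w_AIdx N') with
    | Sum.inl i => if i.ell ∈ Bset then c (Sum.inl i) else ((W.apOfModel i.ell : ℤ) : 𝒪)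
    | Sum.inr τ => c (Sum.inr τ) with ha'def
  have ha' : ∀ (i : s59w_TIdx N') (hi : i.ell ∉ Bset),
      a' ⟨Sum.inl i, hgp i hi⟩ = ((W.apOfModel i.ell : ℤ) : 𝒪) := fun i hi => if_neg hi
  have hca : ∀ x : ↥good, c (x : s59w_AIdx N') - a' x ∈ maximalIdeal 𝒪 := by
    rintro ⟨i | τ, hx⟩
    · by_cases h : i.ell ∈ Bset
      · have : a' ⟨Sum.inl i, hx⟩ = c (Sum.inl i) := if_pos h
        rw [this, sub_self]
        exact Ideal.zero_mem _
      · have : a' ⟨Sum.inl i, hx⟩ = ((W.apOfModel i.ell : ℤ) : 𝒪) := if_neg h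
        rw [this]
        exact hc i h
    · have : a' ⟨Sum.inr τ, hx⟩ = c (Sum.inr τ) := rfl
      rw [this, sub_self]
      exact Ideal.zero_mem _
  obtain ⟨t, ht, hval⟩ :=
    s59b_TQ_poly_good p hp2 hp𝒪 aq W hΔ good Bset hgp a' ha' M hM q hqM hqp hgoodq
  have hmem : t - MvPolynomial.C (aq q + bq q) ∈
      s59t_evalIdeal (fun x : ↥good => c (x : s59w_AIdx N')) := by
    rw [s59t_mem_evalIdeal, map_sub, s59t_evalHom_C,
      s59b_evalHom_congr a' (fun x : ↥good => c (x : s59w_AIdx N')) hca,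
      s59b_evalHom_eq, hval, ← map_sub, residue_eq_zero_iff]
    have := Ideal.neg_mem_iff (maximalIdeal 𝒪) |>.mpr haq
    rwa [neg_sub] at this
  -- the polynomial action on the good variables
  set act : MvPolynomial ↥good 𝒪 →ₐ[𝒪] Module.End 𝒪 (s29h_Hpar 𝒪 M 𝒪) :=
    (s59t_act0 aq hM).comp (MvPolynomial.rename
      (fun x : ↥good => (Sum.inl (x : s59w_AIdx N') : s59w_AIdx N' ⊕ ℕ))) with hact
  have hactX : ∀ x : ↥good, act (MvPolynomial.X x) =
      s59t_op0 N' aq M (Sum.inl (x : s59w_AIdx N')) := by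
    intro x
    rw [hact, AlgHom.comp_apply, MvPolynomial.rename_X, s59t_act0_X]
  obtain ⟨n, hn⟩ := s59b_nil_of_gen act
    (s59t_act0 aq hM (MvPolynomial.rename
      (fun x : ↥good => (Sum.inl (x : s59w_AIdx N') : s59w_AIdx N' ⊕ ℕ)) e₀))
    (fun x : ↥good => c (x : s59w_AIdx N'))
    (fun x => by
      obtain ⟨n, hn⟩ := hnil x
      refine ⟨n, fun y => ?_⟩
      rw [hactX x]
      exact hn y)
    _ hmem
  refine ⟨n, fun y => ?_⟩
  have e2 : act (t - MvPolynomial.C (aq q + bq q)) =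
      s29h_heckeHpar M q 𝒪 𝒪 - (aq q + bq q) • (1 : Module.End 𝒪 (s29h_Hpar 𝒪 M 𝒪)) := by
    rw [map_sub, ← MvPolynomial.algebraMap_eq, AlgHom.commutes, Algebra.algebraMap_eq_smul_one]
    congr 1
  rw [← e2]
  exact hn y

end Good

end

end Fermat.Agent.Lib.S59
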