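/-
Programme R (S59), the Taylor–Wiles arithmetic inputs at the Frey curve (helper2, prefix `s59b_`):
**from "`ρ̄(Frob_q)` has distinct eigenvalues `α ≠ β` in `k`" (the Taylor–Wiles condition of
`s59i_TPkg`) and `q ≡ 1 (mod p)` to the arithmetic hypotheses `harith` of helper8's Taylor–Wiles
control theorem (`s59t_TW_control`, `s59t_chain`) and `haq` of (TQ) (`s59b_TQ_good`).**

`ρ̄ = (ρ_W ⊗ 𝒪) mod 𝔪` in the form of helper4's `s59i_rhobarF`.

* `s59b_rhobar_charpoly_frob` : `charpoly ρ̄(Frob_q) = X² − a_q(W) X + q` in `k[X]`;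
* `s59b_TW_arith` : for lifts `a, b : 𝒪` of `α, β`: `b − a` unit, `q ≡ a b`, `1 − a²`, `1 − b²` units,
  `a + b ≡ a_q(W)`.
-/
import Mathlib
import Fermat.Agent.Lib.S59.BHres

set_option autoImplicit false
set_option linter.unusedSectionVars false
set_option linter.unusedVariables false
set_option linter.style.haveILetI false

noncomputable section

namespace Fermat.Agent.Lib.S59

open IsLocalRing Polynomial WeierstrassCurve

local notation "Kb" => AlgebraicClosure ℚ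
local notation "GQ" => (AlgebraicClosure ℚ ≃ₐ[ℚ] AlgebraicClosure ℚ)

section

variable {W : WeierstrassCurve ℤ} {p : ℕ} [hp : Fact p.Prime]
  {𝒪 : Type} [CommRing 𝒪] [IsLocalRing 𝒪] [Algebra ℤ_[p] 𝒪]

/-- **the characteristic polynomial of `ρ̄(Frob_q)`** at a good prime `q ≠ p`. -/
theorem s59b_rhobar_charpoly_frob (hΔ : W.Δ ≠ 0) (hp2 : p ≠ 2) (hirr : W.ModRepIsIrreducible p)
    (hp𝒪 : (p : 𝒪) ∈ maximalIdeal 𝒪) (q : ℕ) (hq : q.Prime) (hqp : q ≠ p)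
    (hgood : W.IsGoodPrimeFor q) (A : ValuationSubring Kb) (hA : A.LiesOverPrime q) (φ : GQ)
    (hφ : A.IsFrobeniusAt φ q) :
    LinearMap.charpoly (((s59b_rhoW W p hΔ).baseChangeAlong (algebraMap ℤ_[p] 𝒪)
      (s59b_isLocalHom_padic p _ hp𝒪)).residual.ρ φ) =
      X ^ 2 - C (residue 𝒪 ((W.apOfModel q : ℤ) : 𝒪)) * X + C (residue 𝒪 ((q : ℕ) : 𝒪)) := by
  rw [s59b_residual_charpoly, s59e_bc_charpoly,
    s59b_rhoW_charpoly hΔ hp2 hirr q hq hgood hqp A hA φ hφ]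
  simp only [Polynomial.map_add, Polynomial.map_sub, Polynomial.map_mul, Polynomial.map_pow,
    Polynomial.map_X, map_intCast, map_natCast, Polynomial.map_intCast,
    Polynomial.map_natCast]

/-- **the Taylor–Wiles arithmetic at a prime `q ≡ 1 (mod p)` with distinct Frobenius
eigenvalues.** -/
theorem s59b_TW_arith (hΔ : W.Δ ≠ 0) (hp2 : p ≠ 2) (hirr : W.ModRepIsIrreducible p)
    (hp𝒪 : (p : 𝒪) ∈ maximalIdeal 𝒪) (q : ℕ) (hq : q.Prime) (hqp : q ≠ p)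
    (hgood : W.IsGoodPrimeFor q) (hq1 : p ∣ q - 1) (A : ValuationSubring Kb)
    (hA : A.LiesOverPrime q) (φ : GQ) (hφ : A.IsFrobeniusAt φ q) (α β : ResidueField 𝒪)
    (hne : α ≠ β)
    (hcp : LinearMap.charpoly (((s59b_rhoW W p hΔ).baseChangeAlong (algebraMap ℤ_[p] 𝒪)
      (s59b_isLocalHom_padic p _ hp𝒪)).residual.ρ φ) = (X - C α) * (X - C β))
    (a b : 𝒪) (ha : residue 𝒪 a = α) (hb : residue 𝒪 b = β) :
    IsUnit (b - a) ∧ ((q : ℕ) : 𝒪) - a * b ∈ maximalIdeal 𝒪 ∧ IsUnit (1 - a ^ 2) ∧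
      IsUnit (1 - b ^ 2) ∧ a + b - ((W.apOfModel q : ℤ) : 𝒪) ∈ maximalIdeal 𝒪 := by
  have h1 := s59b_rhobar_charpoly_frob (𝒪 := 𝒪) hΔ hp2 hirr hp𝒪 q hq hqp hgood A hA φ hφ
  rw [hcp] at h1
  -- compare coefficients
  have e : (X - C α) * (X - C β) = X ^ 2 - C (α + β) * X + C (α * β) := by
    rw [map_add, map_mul]
    ring
  rw [e] at h1
  have hc1 : α + β = residue 𝒪 ((W.apOfModel q : ℤ) : 𝒪) := by
    have := congrArg (fun f : (ResidueField 𝒪)[X] => f.coeff 1) h1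
    simp only [coeff_add, coeff_sub, coeff_X_pow, coeff_C_mul, coeff_X_one, coeff_C] at this
    have h2 : -(α + β) = -residue 𝒪 ((W.apOfModel q : ℤ) : 𝒪) := by simpa using this
    exact neg_injective h2
  have hc0 : α * β = residue 𝒪 ((q : ℕ) : 𝒪) := by
    have := congrArg (fun f : (ResidueField 𝒪)[X] => f.coeff 0) h1
    simp only [coeff_add, coeff_sub, coeff_X_pow, coeff_C_mul, coeff_X_zero, coeff_C_zero] at this
    simpa using this
  -- `q ≡ 1`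
  have hq1' : residue 𝒪 ((q : ℕ) : 𝒪) = 1 := by
    obtain ⟨k, hk⟩ := hq1
    have hq' : q = 1 + p * k := by
      have := hq.one_le
      omega
    rw [hq', Nat.cast_add, Nat.cast_one, Nat.cast_mul, map_add, map_one, map_mul,
      (residue_eq_zero_iff _).mpr hp𝒪, zero_mul, add_zero]
  rw [hq1'] at hc0
  have hα0 : α ≠ 0 := fun h => by rw [h, zero_mul] at hc0; exact zero_ne_one hc0
  have hβ0 : β ≠ 0 := fun h => by rw [h, mul_zero] at hc0; exact zero_ne_one hc0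
  have hunit : ∀ x : 𝒪, residue 𝒪 x ≠ 0 → IsUnit x := fun x hx => by
    by_contra hnu
    exact hx ((residue_eq_zero_iff x).mpr ((mem_maximalIdeal x).mpr hnu))
  refine ⟨hunit _ ?_, ?_, hunit _ ?_, hunit _ ?_, ?_⟩
  · rw [map_sub, ha, hb]
    exact sub_ne_zero.mpr (Ne.symm hne)
  · rw [← residue_eq_zero_iff, map_sub, map_mul, ha, hb, hq1', hc0, sub_self]
  · rw [map_sub, map_one, map_pow, ha, ← hc0]
    have : α * β - α ^ 2 = α * (β - α) := by ring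
    rw [this]
    exact mul_ne_zero hα0 (sub_ne_zero.mpr (Ne.symm hne))
  · rw [map_sub, map_one, map_pow, hb, ← hc0]
    have : α * β - β ^ 2 = β * (α - β) := by ring
    rw [this]
    exact mul_ne_zero hβ0 (sub_ne_zero.mpr hne)
  · rw [← residue_eq_zero_iff, map_sub, map_add, ha, hb, hc1, sub_self]

/-- **the Taylor–Wiles condition in `ℤ`-form** (input `hq₀TW` of helper7's `s59n_C8_final_TW`):
distinct Frobenius eigenvalues at `q ≡ 1 (mod p)` give `p ∤ a_q(W)² − 4`. -/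
theorem s59b_TW_ne_four (hΔ : W.Δ ≠ 0) (hp2 : p ≠ 2) (hirr : W.ModRepIsIrreducible p)
    (hp𝒪 : (p : 𝒪) ∈ maximalIdeal 𝒪) (q : ℕ) (hq : q.Prime) (hqp : q ≠ p)
    (hgood : W.IsGoodPrimeFor q) (hq1 : p ∣ q - 1) (A : ValuationSubring Kb)
    (hA : A.LiesOverPrime q) (φ : GQ) (hφ : A.IsFrobeniusAt φ q) (α β : ResidueField 𝒪)
    (hne : α ≠ β)
    (hcp : LinearMap.charpoly (((s59b_rhoW W p hΔ).baseChangeAlong (algebraMap ℤ_[p] 𝒪)
      (s59b_isLocalHom_padic p _ hp𝒪)).residual.ρ φ) = (X - C α) * (X - C β)) :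
    ¬ (p : ℤ) ∣ W.apOfModel q ^ 2 - 4 := by
  obtain ⟨a, ha⟩ := residue_surjective α
  obtain ⟨b, hb⟩ := residue_surjective β
  obtain ⟨hu, hqab, -, -, hab⟩ :=
    s59b_TW_arith hΔ hp2 hirr hp𝒪 q hq hqp hgood hq1 A hA φ hφ α β hne hcp a b ha hb
  intro hdvd
  obtain ⟨k, hk⟩ := hdvd
  -- `(b - a)² ≡ a_q² − 4 q ≡ a_q² − 4`
  have hq1' : ((q : ℕ) : 𝒪) - 1 ∈ maximalIdeal 𝒪 := by
    obtain ⟨k', hk'⟩ := hq1
    have hq' : q = 1 + p * k' := by
      have := hq.one_le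
      omega
    rw [hq', Nat.cast_add, Nat.cast_one, Nat.cast_mul, add_sub_cancel_left]
    exact Ideal.mul_mem_right _ _ hp𝒪
  have h4 : (((W.apOfModel q : ℤ) : 𝒪)) ^ 2 - 4 ∈ maximalIdeal 𝒪 := by
    have := congrArg (fun z : ℤ => (z : 𝒪)) hk
    simp only [Int.cast_sub, Int.cast_pow, Int.cast_mul, Int.cast_natCast, Int.cast_ofNat] at this
    rw [this]
    exact Ideal.mul_mem_right _ _ hp𝒪
  have e : (b - a) ^ 2 = (a + b - ((W.apOfModel q : ℤ) : 𝒪)) * (a + b + ((W.apOfModel q : ℤ) : 𝒪)) +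
      ((((W.apOfModel q : ℤ) : 𝒪)) ^ 2 - 4) + 4 * (((q : ℕ) : 𝒪) - a * b) -
        4 * (((q : ℕ) : 𝒪) - 1) := by ring
  have hmem : (b - a) ^ 2 ∈ maximalIdeal 𝒪 := by
    rw [e]
    exact Ideal.sub_mem _ (Ideal.add_mem _ (Ideal.add_mem _ (Ideal.mul_mem_right _ _ hab) h4)
      (Ideal.mul_mem_left _ _ hqab)) (Ideal.mul_mem_left _ _ hq1')
  exact (mem_maximalIdeal _).mp hmem (hu.pow 2)

end

end Fermat.Agent.Lib.S59
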