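/-
PROGRAMME (R) (helper3, prefix `s59u_`): **the non-Eisenstein index `i₀`** in the exact binder shape of helper8's
`s59t_base_pkg` / `s59t_level_pkg` (`(i₀ : s59w_TIdx M) (hi₀ : i₀.ell ∉ Bset) (hnE : IsUnit (a_ℓ² − (ℓ+1)²))`),
at the Frey curve, from main's `s41a_nonEis`.
-/
import Mathlib
import Fermat.Agent.Lib.S41.ANonEis
import Fermat.Agent.Lib.S59.QSsModel
import Fermat.Agent.Lib.S59.WAlg
import Fermat.Agent.Lib.EN.FreyCard

set_option autoImplicit false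
set_option linter.unusedSectionVars false
set_option linter.unusedVariables false
set_option linter.style.haveILetI false

noncomputable section

namespace Fermat.Agent.Lib.S59

open IsLocalRing CongruenceSubgroup FreyPackage
open WeierstrassCurve WeierstrassCurve.Affine WeierstrassCurve.Affine.Point
open Fermat.Agent.Lib.S41 Fermat.Agent.Lib.S48
open scoped MatrixGroups

/-- an integer prime to `p` is a unit of a local ring in which `p` is not a unit. -/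
theorem s59u_isUnit_intCast {𝒪 : Type*} [CommRing 𝒪] [IsLocalRing 𝒪] {p : ℕ} (hp : p.Prime)
    (hp𝒪 : (p : 𝒪) ∈ maximalIdeal 𝒪) {x : ℤ} (hx : ¬ (p : ℤ) ∣ x) : IsUnit ((x : ℤ) : 𝒪) := by
  by_contra hu
  have hxm : ((x : ℤ) : 𝒪) ∈ maximalIdeal 𝒪 := (mem_maximalIdeal _).2 hu
  have hcop : IsCoprime (p : ℤ) x :=
    (Prime.coprime_iff_not_dvd (Nat.prime_iff_prime_int.mp hp)).2 hx
  obtain ⟨u, v, huv⟩ := hcop
  have h1 : ((u : ℤ) : 𝒪) * (p : 𝒪) + ((v : ℤ) : 𝒪) * ((x : ℤ) : 𝒪) = 1 := by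
    have := congrArg (Int.cast : ℤ → 𝒪) huv
    push_cast at this
    exact this
  have h2 : (1 : 𝒪) ∈ maximalIdeal 𝒪 := by
    rw [← h1]
    exact Ideal.add_mem _ (Ideal.mul_mem_left _ _ hp𝒪) (Ideal.mul_mem_left _ _ hxm)
  exact (Ideal.ne_top_iff_one _).1 (maximalIdeal.isMaximal 𝒪).ne_top h2

/-- **the non-Eisenstein index at the Frey curve**: for every level `M` and every finite set `Bset` there is an index
`i₀ : s59w_TIdx M` (a prime `ℓ ∤ M` with a matrix `σ_ℓ`) outside `Bset` with `a_ℓ(W)² − (ℓ+1)²` a unit of `𝒪`. -/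
theorem s59u_exists_nonEis_idx (P : FreyPackage) [Fact P.p.Prime]
    (hirr : GaloisRepIsIrreducible (K := AlgebraicClosure ℚ) ℚ P.freyCurve P.p)
    {𝒪 : Type*} [CommRing 𝒪] [IsLocalRing 𝒪] (hp𝒪 : ((P.p : ℕ) : 𝒪) ∈ maximalIdeal 𝒪)
    (Bset : Finset ℕ) (M : ℕ) [NeZero M] :
    ∃ i₀ : s59w_TIdx M, i₀.ell ∉ Bset ∧
      IsUnit ((((P.freyCurveInt.apOfModel i₀.ell : ℤ) : 𝒪)) ^ 2 - ((i₀.ell : 𝒪) + 1) ^ 2) := by
  classical
  have hp := P.pp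
  have hp5 := P.hp5
  have hp2 : P.p ≠ 2 := by omega
  obtain ⟨hW, -⟩ := s59q_frey_ssModel P
  obtain ⟨ℓ, hℓ, hℓB, -, hℓE⟩ :=
    s41a_nonEis P.freyCurve P.freyCurveInt hW P.p hp hp2 hirr (Bset ∪ M.primeFactors)
  have hℓB' : ℓ ∉ Bset := fun h => hℓB (Finset.mem_union_left _ h)
  have hℓM : ¬ ℓ ∣ M := fun h =>
    hℓB (Finset.mem_union_right _ (Nat.mem_primeFactors.2 ⟨hℓ, h, NeZero.ne M⟩))
  haveI : Fact ℓ.Prime := ⟨hℓ⟩
  obtain ⟨σ, hσ, h11⟩ := s48h_exists_sigma_p (M := M) hℓM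
  refine ⟨⟨ℓ, hℓ, hℓM, σ, hσ, h11⟩, hℓB', ?_⟩
  have h := s59u_isUnit_intCast (𝒪 := 𝒪) hp hp𝒪 hℓE
  have h2 : ((((P.freyCurveInt.apOfModel ℓ ^ 2 - ((ℓ : ℤ) + 1) ^ 2 : ℤ)) : ℤ) : 𝒪) =
      (((P.freyCurveInt.apOfModel ℓ : ℤ) : 𝒪)) ^ 2 - ((ℓ : 𝒪) + 1) ^ 2 := by
    push_cast
    ring
  rw [h2] at h
  exact h

end Fermat.Agent.Lib.S59
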