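/-
Programme (R) = S59, node W6 (helper3), file 2: **the eigen-system of a level-`L` eigenform occurs in
`H_par(Γ_H(M), 𝒪)` modulo `𝔪`, for every `M` divisible by `L` and every `H ≤ (ℤ/M)ˣ`.**

* `s59u_period_res` : the period homomorphism of a normalised eigenform `g` of level `L`, restricted to
  `Γ_H(M)`: nonzero, in `H_par(Γ_H(M), ℂ)`, `T_ℓ`-eigen (`ℓ ∤ M`) with eigenvalue `a_ℓ(g)`, fixed by the
  diamond operators;
* `s59u_W6_int` : an integer coordinate vector `x` (in a `ℤ`-basis `b` of the lattice `H_par(Γ_H(M), ℤ)`), not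
  divisible by `p`, which is an eigenvector modulo `p` of the integer matrices `s59w_mat H b i` of the
  anemic generators: eigenvalue `a ℓ` for `T_ℓ` (`ℓ ∉ B`), `1` for the diamonds, when `s44i_LevelOcc L p a B`;
* **`s59u_W6`** : for `𝒪` a local domain of characteristic zero with `p ∈ 𝔪`: `v ∈ H_par(Γ_H(M), 𝒪)`,
  `v ∉ 𝔪 H_par`, `T_ℓ v ≡ a_ℓ v`, `⟨τ⟩ v ≡ v` modulo `𝔪 H_par`.
-/
import Mathlib
import Fermat.Agent.Lib.S29.DSPeriod
import Fermat.Agent.Lib.S44.Iface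
import Fermat.Agent.Lib.S59.UExt
import Fermat.Agent.Lib.S59.WInt
import Fermat.Agent.Lib.S59.UW6Lat

set_option autoImplicit false
set_option linter.unusedSectionVars false
set_option linter.style.haveILetI false
set_option linter.unusedVariables false

noncomputable section

namespace Fermat.Agent.Lib.S59

open CongruenceSubgroup ModularCurve ModularCurve.Period ModularFormClass IsLocalRing
open Fermat.Agent.Lib.S29 Fermat.Agent.Lib.S30 Fermat.Agent.Lib.S48 Fermat.Agent.Lib.S44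
  Fermat.Agent.Lib.ES Matrix
open scoped MatrixGroups

local notation "Zbar" => integralClosure ℤ ℂ

/-! ### The restricted period homomorphism -/

section Period

variable {L M : ℕ} [NeZero L] [NeZero M] (hLM : L ∣ M) (H : Subgroup (ZMod M)ˣ)

include hLM in
theorem s59u_GammaH_le_Gamma0_of_dvd : s48h_GammaH M H ≤ Gamma0 L := fun γ hγ =>
  s59u_gamma0_mono hLM hγ.1

include hLM in
/-- the units of `ℤ/L` : the group `Γ_⊤(L)` is `Γ₀(L)`. -/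
theorem s59u_GammaH_le_top : s48h_GammaH M H ≤ s48h_GammaH L (⊤ : Subgroup (ZMod L)ˣ) := by
  intro γ hγ
  have h0 : γ ∈ Gamma0 L := s59u_gamma0_mono hLM hγ.1
  have hcop : IsCoprime (γ 1 1) (L : ℤ) := s59u_coprime_lowerRight h0
  have hu : IsUnit (((γ 1 1 : ℤ)) : ZMod L) :=
    (ZMod.coe_int_isUnit_iff_isCoprime _ L).mpr hcop.symm
  exact ⟨h0, hu.unit, Subgroup.mem_top _, hu.unit_spec.symm⟩

variable {g : CuspForm (Gamma0 L) 2}

include hLM in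
/-- **the period homomorphism of `g`, restricted to `Γ_H(M)`.** -/
theorem s59u_period_res (hg : g.IsNormalizedEigenform) :
    ∃ χ : Additive (s48h_GammaH M H) →+ ℂ, χ ≠ 0 ∧ χ ∈ s48h_Hpar ℂ (s48h_GammaH M H) ℂ ∧
      (∀ (ℓ : ℕ) [Fact ℓ.Prime] (hℓ : ¬ ℓ ∣ M) (σ : SL(2, ℤ)) (hσ : σ ∈ Gamma0 M)
        (hσ11 : ((σ 1 1 : ℤ) : ZMod M) = (ℓ : ZMod M)),
        (s48h_TpDatum H hℓ σ hσ hσ11).heckeHom ℂ χ = qCoeff (⇑g) ℓ • χ) ∧
      ∀ (σ : SL(2, ℤ)) (hσ : σ ∈ Gamma0 M), (s48h_diamondDatum H σ hσ).heckeHom ℂ χ = χ := by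
  obtain ⟨hΦ0, hΦpar, hΦeig⟩ := s29s_period_eigen hg
  have hle : s48h_GammaH M H ≤ Gamma0 L := s59u_GammaH_le_Gamma0_of_dvd hLM H
  have hidx : (s48h_GammaH M H).index ≠ 0 := Subgroup.FiniteIndex.index_ne_zero
  refine ⟨s59u_res hle ℂ (periodMap L g), ?_, ?_, ?_, ?_⟩
  · intro h0
    exact hΦ0 (s59u_res_injective (A := ℂ) hle hidx (by rw [h0, map_zero]))
  · have hpar := s59u_res_isParabolic (A := ℂ) hle hΦpar
    refine s48h_mem_Hpar_iff.mpr ⟨hpar, fun γ hγ => ?_⟩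
    obtain ⟨n, hn, hγn⟩ := hγ.exists_pow_eq_one
    have h1 : (s59u_res hle ℂ (periodMap L g)) (Additive.ofMul (γ ^ n)) = 0 := by
      rw [hγn, ofMul_one, map_zero]
    rw [ofMul_pow, map_nsmul] at h1
    exact (smul_eq_zero.mp h1).resolve_left (Nat.cast_ne_zero.mpr hn.ne')
  · intro ℓ _ hℓ σ hσ hσ11
    have hℓL : ¬ ℓ ∣ L := fun h => hℓ (h.trans hLM)
    have hσL : σ ∈ Gamma0 L := s59u_gamma0_mono hLM hσ
    have hσ11L : ((σ 1 1 : ℤ) : ZMod L) = (ℓ : ZMod L) := s59u_cast_lowerRight hLM hσ11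
    -- step 1 : `Γ₀(L) → Γ_⊤(L)`
    have h1 := s59u_res_s29h (A := ℂ) (⊤ : Subgroup (ZMod L)ˣ) hℓL σ hσL hσ11L (periodMap L g)
    rw [hΦeig ℓ hℓL, s59u_res_smul] at h1
    -- step 2 : `Γ_⊤(L) → Γ_H(M)`
    have h2 := s59u_res_heckeHom (A := ℂ) (s59u_GammaH_le_top hLM H)
      (s48h_TpDatum (⊤ : Subgroup (ZMod L)ˣ) hℓL σ hσL hσ11L) (s48h_TpDatum H hℓ σ hσ hσ11)
      (fun _ => rfl) (fun _ _ => rfl)
      (s59u_res (s48h_GammaH_le_Gamma0 (H := (⊤ : Subgroup (ZMod L)ˣ))) ℂ (periodMap L g))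
    have h3 : s59u_res (s59u_GammaH_le_top hLM H) ℂ
        (s59u_res (s48h_GammaH_le_Gamma0 (H := (⊤ : Subgroup (ZMod L)ˣ))) ℂ (periodMap L g))
        = s59u_res hle ℂ (periodMap L g) := rfl
    rw [h3] at h2
    rw [← h2]
    show s59u_res (s59u_GammaH_le_top hLM H) ℂ
      (s48h_TpH (⊤ : Subgroup (ZMod L)ˣ) hℓL σ hσL hσ11L ℂ _) = _
    rw [← h1, s59u_res_smul, h3]
  · intro σ hσ
    refine AddMonoidHom.ext fun γ => ?_
    obtain ⟨γ, rfl⟩ := Additive.ofMul.surjective γ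
    have h1 := s48h_diamondH_apply (H := H) hσ (s59u_res hle ℂ (periodMap L g)) γ
    have h2 : s48h_diamondH H σ hσ ℂ (s59u_res hle ℂ (periodMap L g))
        = (s48h_diamondDatum H σ hσ).heckeHom ℂ (s59u_res hle ℂ (periodMap L g)) := rfl
    rw [← h2, h1, s59u_res_apply, s59u_res_apply]
    have hσL : σ ∈ Gamma0 L := s59u_gamma0_mono hLM hσ
    have h3 : Subgroup.inclusion hle
        (⟨σ * (γ : SL(2, ℤ)) * σ⁻¹, s48h_conj_mem_GammaH hσ γ.2⟩ : s48h_GammaH M H)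
        = (⟨σ, hσL⟩ : Gamma0 L) * Subgroup.inclusion hle γ * (⟨σ, hσL⟩ : Gamma0 L)⁻¹ :=
      Subtype.ext rfl
    rw [h3, ofMul_mul, ofMul_mul, map_add, map_add, ofMul_inv, map_neg]
    abel

end Period

/-! ### The integer eigenvector modulo `p` -/

section W6

variable {L M : ℕ} [NeZero L] [NeZero M] (hLM : L ∣ M) (H : Subgroup (ZMod M)ˣ)
  {ι : Type*} [Fintype ι] [DecidableEq ι] (b : Module.Basis ι ℤ (s48h_M (s48h_GammaH M H)))

/-- the eigen-equation in coordinates, for one Hecke datum. -/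
theorem s59u_coords_of_eigen {Γ : Subgroup SL(2, ℤ)} {ι : Type*} [Fintype ι] [DecidableEq ι]
    (b : Module.Basis ι ℤ (s48h_M Γ)) {X : Type*} [Fintype X] (D : s48h_MatDatum Γ X)
    (c : ι → ℂ) (e : ℂ)
    (h : D.heckeHom ℂ (∑ j, c j • s48h_castB b ℂ j) = e • ∑ j, c j • s48h_castB b ℂ j) :
    (s48h_heckeMat b D).map (Int.cast : ℤ → ℂ) *ᵥ c = e • c := by
  rw [s48h_heckeHom_sum_castB, Finset.smul_sum] at h
  simp_rw [smul_smul] at h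
  have hinj := linearIndependent_iff_injective_fintypeLinearCombination.mp
    (s48h_castB_linearIndependent_complex b)
  have h2 : Fintype.linearCombination ℂ (s48h_castB b ℂ)
      ((s48h_heckeMat b D).map (Int.cast : ℤ → ℂ) *ᵥ c) =
      Fintype.linearCombination ℂ (s48h_castB b ℂ) (e • c) := by
    rw [Fintype.linearCombination_apply, Fintype.linearCombination_apply]
    exact h
  exact hinj h2

include hLM in
/-- **W6, integer form**: an integer coordinate vector, not divisible by `p`, eigen modulo `p`. -/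
theorem s59u_W6_int (p : ℕ) [Fact p.Prime] (a : ℕ → ℤ) (B : Finset ℕ)
    (hocc : s44i_LevelOcc L p a B) :
    ∃ x : ι → ℤ, (∃ j, ¬ (p : ℤ) ∣ x j) ∧
      (∀ i : s59w_TIdx M, i.ell ∉ B →
        ∀ j, (p : ℤ) ∣ ((s59w_mat H b (Sum.inl i)) *ᵥ x) j - a i.ell * x j) ∧
      (∀ τ : Gamma0 M, ∀ j, (p : ℤ) ∣ ((s59w_mat H b (Sum.inr τ)) *ᵥ x) j - x j) := by
  classical
  obtain ⟨g, 𝔪, hg, hmax, hpm, hcong⟩ := hocc
  obtain ⟨χ, hχ0, hχ, hT, hD⟩ := s59u_period_res hLM H hg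
  obtain ⟨c, hc⟩ := s48h_exists_coeffs b χ hχ
  have hc0 : c ≠ 0 := by
    rintro rfl
    apply hχ0
    rw [hc]
    simp
  -- the complex eigenvalues
  let ev : s59w_AIdx M → ℂ := Sum.elim (fun i => qCoeff (⇑g) i.ell) (fun _ => 1)
  have heig : ∀ i : s59w_AIdx M, (s59w_mat H b i).map (Int.cast : ℤ → ℂ) *ᵥ c = ev i • c := by
    rintro (i | τ)
    · obtain ⟨ℓ, hp, hℓ, σ, hσ, h11⟩ := i
      haveI : Fact ℓ.Prime := ⟨hp⟩
      refine s59u_coords_of_eigen b (s48h_TpDatum H hℓ σ hσ h11) c _ ?_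
      rw [← hc]
      exact hT ℓ hℓ σ hσ h11
    · refine s59u_coords_of_eigen b (s48h_diamondDatum H (τ : SL(2, ℤ)) τ.2) c _ ?_
      rw [← hc, hD (τ : SL(2, ℤ)) τ.2]
      show χ = (1 : ℂ) • χ
      rw [one_smul]
  let aZ : s59w_AIdx M → Zbar := fun i =>
    ⟨ev i, s29s_isIntegral_of_eigen (s59w_mat H b i) _ c hc0 (heig i)⟩
  let I₀ : Set (s59w_AIdx M) := {i | Sum.elim (fun i' : s59w_TIdx M => i'.ell ∉ B) (fun _ => True) i}
  let a₀ : s59w_AIdx M → ℤ := Sum.elim (fun i => a i.ell) (fun _ => 1)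
  have ha₀ : ∀ i ∈ I₀, aZ i - ((a₀ i : ℤ) : Zbar) ∈ 𝔪 := by
    rintro (i | τ) hi
    · obtain ⟨α, hα, hαm⟩ := hcong i.ell i.prime hi
      have h1 : aZ (Sum.inl i) = α := Subtype.ext hα.symm
      rw [h1]
      exact hαm
    · have h1 : aZ (Sum.inr τ) - ((a₀ (Sum.inr τ) : ℤ) : Zbar) = 0 := by
        apply Subtype.ext
        show ((aZ (Sum.inr τ) - ((a₀ (Sum.inr τ) : ℤ) : Zbar) : Zbar) : ℂ) = 0
        rw [Subalgebra.coe_sub]
        show (1 : ℂ) - (((1 : ℤ) : Zbar) : ℂ) = 0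
        simp
      rw [h1]
      exact 𝔪.zero_mem
  obtain ⟨x, hx0, hx⟩ := s59u_exists_int_eigen p 𝔪 hmax hpm (fun i => s59w_mat H b i) aZ c hc0
    (fun i => heig i) I₀ a₀ ha₀
  refine ⟨x, hx0, fun i hi j => hx (Sum.inl i) hi j, fun τ j => ?_⟩
  have h1 := hx (Sum.inr τ) trivial j
  have h2 : a₀ (Sum.inr τ) = 1 := rfl
  rw [h2, one_mul] at h1
  exact h1

end W6

/-! ### The eigenvector modulo `𝔪` in `H_par(Γ_H(M), 𝒪)` -/

section W6O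

variable {L M : ℕ} [NeZero L] [NeZero M] (hLM : L ∣ M) (H : Subgroup (ZMod M)ˣ)
  {ι : Type*} [Fintype ι] [DecidableEq ι] (b : Module.Basis ι ℤ (s48h_M (s48h_GammaH M H)))
  (𝒪 : Type*) [CommRing 𝒪] [IsDomain 𝒪] [CharZero 𝒪] [IsLocalRing 𝒪]

/-- a linear functional maps `I • ⊤` into `I`. -/
theorem s59u_functional_mem {R Y : Type*} [CommRing R] [AddCommGroup Y] [Module R Y] (I : Ideal R)
    (f : Y →ₗ[R] R) {y : Y} (hy : y ∈ (I • ⊤ : Submodule R Y)) : f y ∈ I := by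
  refine Submodule.smul_induction_on hy (fun r hr z _ => ?_) (fun z z' hz hz' => ?_)
  · rw [map_smul, smul_eq_mul]
    exact I.mul_mem_right _ hr
  · rw [map_add]
    exact I.add_mem hz hz'

/-- an element all of whose coordinates lie in `I` is in `I • ⊤`. -/
theorem s59u_mem_of_coords {R Y ι : Type*} [CommRing R] [AddCommGroup Y] [Module R Y] [Fintype ι]
    (I : Ideal R) (cB : Module.Basis ι R Y) {y : Y} (hy : ∀ j, cB.repr y j ∈ I) :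
    y ∈ (I • ⊤ : Submodule R Y) := by
  rw [← cB.sum_repr y]
  exact Submodule.sum_mem _ fun j _ => Submodule.smul_mem_smul (hy j) Submodule.mem_top

/-- the integer `z` is in `𝔪` iff `p ∣ z` (one direction). -/
theorem s59u_int_mem_of_dvd {p : ℕ} (hp𝒪 : (p : 𝒪) ∈ maximalIdeal 𝒪) {z : ℤ} (h : (p : ℤ) ∣ z) :
    ((z : ℤ) : 𝒪) ∈ maximalIdeal 𝒪 := by
  obtain ⟨w, rfl⟩ := h
  push_cast
  exact (maximalIdeal 𝒪).mul_mem_right _ hp𝒪

theorem s59u_int_not_mem {p : ℕ} [Fact p.Prime] (hp𝒪 : (p : 𝒪) ∈ maximalIdeal 𝒪) {z : ℤ}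
    (h : ¬ (p : ℤ) ∣ z) : ((z : ℤ) : 𝒪) ∉ maximalIdeal 𝒪 := by
  intro hz
  have hp : p.Prime := Fact.out
  have hcop : IsCoprime (p : ℤ) z :=
    (Prime.coprime_iff_not_dvd (Nat.prime_iff_prime_int.mp hp)).mpr h
  obtain ⟨u, w, huw⟩ := hcop
  have h1 : ((u : ℤ) : 𝒪) * (p : 𝒪) + ((w : ℤ) : 𝒪) * ((z : ℤ) : 𝒪) = 1 := by
    have := congrArg (Int.cast : ℤ → 𝒪) huw
    push_cast at this
    exact this
  have h2 : (1 : 𝒪) ∈ maximalIdeal 𝒪 := by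
    rw [← h1]
    exact (maximalIdeal 𝒪).add_mem ((maximalIdeal 𝒪).mul_mem_left _ hp𝒪)
      ((maximalIdeal 𝒪).mul_mem_left _ hz)
  exact (maximalIdeal 𝒪).ne_top_iff_one.mp (IsLocalRing.maximalIdeal.isMaximal 𝒪).ne_top h2

include hLM in
/-- **W6, for a given `ℤ`-basis `b` of the lattice**: the vector `v = ∑ x_j • cB_j`. -/
theorem s59u_W6_basis (p : ℕ) [Fact p.Prime] (hp𝒪 : (p : 𝒪) ∈ maximalIdeal 𝒪) (a : ℕ → ℤ)
    (B : Finset ℕ) (hocc : s44i_LevelOcc L p a B)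
    (cB : Module.Basis ι 𝒪 (s48h_Hpar 𝒪 (s48h_GammaH M H) 𝒪))
    (hcB : ∀ i, ((cB i : s48h_Hpar 𝒪 (s48h_GammaH M H) 𝒪) : Additive (s48h_GammaH M H) →+ 𝒪)
      = s48h_castB b 𝒪 i) :
    ∃ v : s48h_Hpar 𝒪 (s48h_GammaH M H) 𝒪,
      v ∉ (maximalIdeal 𝒪 • ⊤ : Submodule 𝒪 (s48h_Hpar 𝒪 (s48h_GammaH M H) 𝒪)) ∧
      (∀ i : s59w_TIdx M, i.ell ∉ B →
        s59w_op H 𝒪 (Sum.inl i) v - ((a i.ell : ℤ) : 𝒪) • v ∈
          (maximalIdeal 𝒪 • ⊤ : Submodule 𝒪 (s48h_Hpar 𝒪 (s48h_GammaH M H) 𝒪))) ∧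
      (∀ τ : Gamma0 M, s59w_op H 𝒪 (Sum.inr τ) v - v ∈
          (maximalIdeal 𝒪 • ⊤ : Submodule 𝒪 (s48h_Hpar 𝒪 (s48h_GammaH M H) 𝒪))) := by
  classical
  obtain ⟨x, ⟨j₀, hj₀⟩, hxT, hxD⟩ := s59u_W6_int hLM H b p a B hocc
  obtain ⟨v, hv⟩ : ∃ v : s48h_Hpar 𝒪 (s48h_GammaH M H) 𝒪, v = ∑ j, ((x j : ℤ) : 𝒪) • cB j :=
    ⟨_, rfl⟩
  have hrepr : ∀ j, cB.repr v j = ((x j : ℤ) : 𝒪) := by
    intro j
    rw [hv, cB.repr_sum_self]
  -- the coordinates of `op i v - e • v`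
  have hcoord : ∀ (i : s59w_AIdx M) (e : ℤ) (j : ι),
      cB.repr (s59w_op H 𝒪 i v - ((e : ℤ) : 𝒪) • v) j
        = (((s59w_mat H b i *ᵥ x) j - e * x j : ℤ) : 𝒪) := by
    intro i e j
    rw [map_sub, map_smul, Finsupp.sub_apply, Finsupp.smul_apply, smul_eq_mul, hrepr,
      ← LinearMap.toMatrix_mulVec_repr cB cB, s59w_toMatrix_op H b cB hcB i]
    simp only [Matrix.mulVec, dotProduct, Matrix.map_apply, hrepr]
    push_cast
    rfl
  refine ⟨v, fun hmem => ?_, fun i hi => ?_, fun τ => ?_⟩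
  · have h1 := s59u_functional_mem (maximalIdeal 𝒪) (cB.coord j₀) hmem
    rw [Module.Basis.coord_apply, hrepr] at h1
    exact s59u_int_not_mem 𝒪 hp𝒪 hj₀ h1
  · refine s59u_mem_of_coords (maximalIdeal 𝒪) cB fun j => ?_
    rw [hcoord]
    exact s59u_int_mem_of_dvd 𝒪 hp𝒪 (hxT i hi j)
  · have h1 : s59w_op H 𝒪 (Sum.inr τ) v - v
        = s59w_op H 𝒪 (Sum.inr τ) v - (((1 : ℤ)) : 𝒪) • v := by
      rw [Int.cast_one, one_smul]
    rw [h1]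
    refine s59u_mem_of_coords (maximalIdeal 𝒪) cB fun j => ?_
    rw [hcoord]
    have h2 := hxD τ j
    rw [one_mul]
    exact s59u_int_mem_of_dvd 𝒪 hp𝒪 h2

include hLM in
/-- **W6**: the eigen-system `a` (which occurs at level `L ∣ M`) occurs in `H_par(Γ_H(M), 𝒪)` modulo `𝔪`. -/
theorem s59u_W6 (p : ℕ) [Fact p.Prime] (hp𝒪 : (p : 𝒪) ∈ maximalIdeal 𝒪) (a : ℕ → ℤ)
    (B : Finset ℕ) (hocc : s44i_LevelOcc L p a B) :
    ∃ v : s48h_Hpar 𝒪 (s48h_GammaH M H) 𝒪,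
      v ∉ (maximalIdeal 𝒪 • ⊤ : Submodule 𝒪 (s48h_Hpar 𝒪 (s48h_GammaH M H) 𝒪)) ∧
      (∀ i : s59w_TIdx M, i.ell ∉ B →
        s59w_op H 𝒪 (Sum.inl i) v - ((a i.ell : ℤ) : 𝒪) • v ∈
          (maximalIdeal 𝒪 • ⊤ : Submodule 𝒪 (s48h_Hpar 𝒪 (s48h_GammaH M H) 𝒪))) ∧
      (∀ τ : Gamma0 M, s59w_op H 𝒪 (Sum.inr τ) v - v ∈
          (maximalIdeal 𝒪 • ⊤ : Submodule 𝒪 (s48h_Hpar 𝒪 (s48h_GammaH M H) 𝒪))) := by
  classical
  let b := Module.Free.chooseBasis ℤ (s48h_M (s48h_GammaH M H))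
  exact s59u_W6_basis hLM H b 𝒪 p hp𝒪 a B hocc (s59u_cB b 𝒪) (s59u_cB_coe b 𝒪)

end W6O

end Fermat.Agent.Lib.S59
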