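/-
Programme (R) = S59, node W6 (helper3), file 3: **the localisation idempotent of the eigen-system of the
Frey curve on `H_par(Γ_H(M), 𝒪)`** (`ε ≠ 0`, i.e. `M¹ ≠ 0`).

Abstract part (`𝒪` local, `op : J → End_𝒪 Z` a commuting family, `c : J → 𝒪`, `v ∉ 𝔪 Z` with
`op j v ≡ c j v mod 𝔪 Z`):
* `s59u_polyAct_eigen`  : `t v ≡ t(c) v mod 𝔪 Z` for every `t ∈ 𝒪[X_j]`;
* `s59u_ker_le_evalIdeal` : `ker (𝒪[X_j] → End Z) ≤ (𝔪, X_j − c_j)` (= `h𝔫` of helper8's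
  `s59t_exists_hecke_idem(₂)` / `s59t_exists_idem_alg`);
* `s59u_exists_idem` : (`𝒪` noetherian complete, `Z` finite) `e ∈ 𝒪[X_j]`, `1 − e ∈ 𝔫`, `ε = act e` idempotent,
  `≠ 0`, commuting with the generators, `(op j − c j)` topologically nilpotent on `ε Z`: the
  `(ε, hε, hε0, hεg, c, hnil)` of helper5's `s59e_H3_abs` / `s59e_H3_hecke`.
Concrete part: `J = s59u_W6Idx M B` (the `T_ℓ`, `ℓ ∉ B`, and all diamonds), `c = s59u_W6c` (`a_ℓ`, resp. `1`):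
* `s59u_W6_ker_le`, `s59u_W6_idem` from `s59u_W6` (`s44i_LevelOcc L p a B`, `L ∣ M`).
-/
import Mathlib
import Fermat.Agent.Lib.S59.TIdem3
import Fermat.Agent.Lib.S59.TPolyAct
import Fermat.Agent.Lib.S59.UW6

set_option autoImplicit false
set_option linter.unusedSectionVars false
set_option linter.style.haveILetI false
set_option linter.unusedVariables false

noncomputable section

namespace Fermat.Agent.Lib.S59

open CongruenceSubgroup IsLocalRing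
open Fermat.Agent.Lib.S48 Fermat.Agent.Lib.S44
open scoped MatrixGroups

/-! ### Abstract part -/

section Abs

variable {𝒪 : Type*} [CommRing 𝒪] [IsLocalRing 𝒪] {Z : Type*} [AddCommGroup Z] [Module 𝒪 Z]
  {J : Type*} (op : J → Module.End 𝒪 Z) (hc : ∀ i j, op i * op j = op j * op i) (c : J → 𝒪)

/-- an endomorphism preserves `I • ⊤`. -/
theorem s59u_end_mem_smul_top (I : Ideal 𝒪) (f : Module.End 𝒪 Z) {z : Z}
    (hz : z ∈ (I • ⊤ : Submodule 𝒪 Z)) : f z ∈ (I • ⊤ : Submodule 𝒪 Z) := by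
  refine Submodule.smul_induction_on hz (fun r hr y _ => ?_) (fun y y' hy hy' => ?_)
  · rw [map_smul]
    exact Submodule.smul_mem_smul hr Submodule.mem_top
  · rw [map_add]
    exact Submodule.add_mem _ hy hy'

/-- **an eigenvector modulo `𝔪` of the generators is an eigenvector modulo `𝔪` of every polynomial.** -/
theorem s59u_polyAct_eigen (v : Z)
    (h : ∀ j, op j v - c j • v ∈ (maximalIdeal 𝒪 • ⊤ : Submodule 𝒪 Z)) (t : MvPolynomial J 𝒪) :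
    s59t_polyAct op hc t v - MvPolynomial.eval c t • v ∈
      (maximalIdeal 𝒪 • ⊤ : Submodule 𝒪 Z) := by
  induction t using MvPolynomial.induction_on with
  | C r =>
    rw [s59t_polyAct_C, MvPolynomial.eval_C, LinearMap.smul_apply, Module.End.one_apply, sub_self]
    exact Submodule.zero_mem _
  | add s t hs ht =>
    rw [map_add, map_add, LinearMap.add_apply, add_smul, add_sub_add_comm]
    exact Submodule.add_mem _ hs ht
  | mul_X s j hs =>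
    rw [map_mul, map_mul, s59t_polyAct_X, MvPolynomial.eval_X, Module.End.mul_apply]
    have h1 : s59t_polyAct op hc s (op j v) - (MvPolynomial.eval c s * c j) • v =
        s59t_polyAct op hc s (op j v - c j • v) +
          c j • (s59t_polyAct op hc s v - MvPolynomial.eval c s • v) := by
      rw [map_sub, map_smul, smul_sub, smul_smul, mul_comm (c j)]
      abel
    rw [h1]
    exact Submodule.add_mem _ (s59u_end_mem_smul_top _ _ (h j)) (Submodule.smul_mem _ _ hs)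

/-- **`𝔫 = (𝔪, X_j − c_j)` occurs in `Z`** as soon as there is an eigenvector modulo `𝔪`. -/
theorem s59u_ker_le_evalIdeal (v : Z) (hv : v ∉ (maximalIdeal 𝒪 • ⊤ : Submodule 𝒪 Z))
    (h : ∀ j, op j v - c j • v ∈ (maximalIdeal 𝒪 • ⊤ : Submodule 𝒪 Z)) :
    RingHom.ker (s59t_polyAct op hc) ≤ s59t_evalIdeal c := by
  intro t ht
  rw [RingHom.mem_ker] at ht
  by_contra hne
  obtain ⟨u, hu⟩ := (s59t_not_mem_evalIdeal c t).mp hne
  have h1 := s59u_polyAct_eigen op hc c v h t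
  rw [ht, LinearMap.zero_apply, zero_sub, ← hu] at h1
  have h2 : (u : 𝒪) • v ∈ (maximalIdeal 𝒪 • ⊤ : Submodule 𝒪 Z) := by
    have := Submodule.neg_mem _ h1
    rwa [neg_neg] at this
  have h3 : v = (↑u⁻¹ : 𝒪) • ((u : 𝒪) • v) := by
    rw [smul_smul, Units.inv_mul, one_smul]
  rw [h3] at hv
  exact hv (Submodule.smul_mem _ _ h2)

end Abs

section AbsIdem

variable {𝒪 : Type} [CommRing 𝒪] [IsLocalRing 𝒪] [IsNoetherianRing 𝒪]
  [IsAdicComplete (maximalIdeal 𝒪) 𝒪] {Z : Type} [AddCommGroup Z] [Module 𝒪 Z] [Module.Finite 𝒪 Z]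
  {J : Type} (op : J → Module.End 𝒪 Z) (hc : ∀ i j, op i * op j = op j * op i) (c : J → 𝒪)

/-- **the localisation idempotent at `𝔫 = (𝔪, X_j − c_j)`.** -/
theorem s59u_exists_idem (v : Z) (hv : v ∉ (maximalIdeal 𝒪 • ⊤ : Submodule 𝒪 Z))
    (h : ∀ j, op j v - c j • v ∈ (maximalIdeal 𝒪 • ⊤ : Submodule 𝒪 Z)) :
    ∃ e : MvPolynomial J 𝒪, 1 - e ∈ s59t_evalIdeal c ∧
      s59t_polyAct op hc e * s59t_polyAct op hc e = s59t_polyAct op hc e ∧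
      s59t_polyAct op hc e ≠ 0 ∧
      (∀ j, s59t_polyAct op hc e * op j = op j * s59t_polyAct op hc e) ∧
      (∀ j, ∃ k : ℕ, ∀ z : Z, ((op j - c j • (1 : Module.End 𝒪 Z)) ^ k) (s59t_polyAct op hc e z) ∈
        (maximalIdeal 𝒪 • ⊤ : Submodule 𝒪 Z)) ∧
      (∀ t ∈ s59t_evalIdeal c, ∃ n : ℕ, ∀ z : Z,
        ((s59t_polyAct op hc t) ^ n) (s59t_polyAct op hc e z) ∈
          (maximalIdeal 𝒪 • ⊤ : Submodule 𝒪 Z)) ∧
      (∀ t, t ∉ s59t_evalIdeal c → ∃ η : MvPolynomial J 𝒪,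
        s59t_polyAct op hc (η * t * e) = s59t_polyAct op hc e) := by
  have hker := s59u_ker_le_evalIdeal op hc c v hv h
  obtain ⟨e, h1e, hee, he0, hnil, hunit⟩ :=
    s59t_exists_hecke_idem (s59t_polyAct op hc) (s59t_evalIdeal c) hker
  refine ⟨e, h1e, hee, he0, fun j => ?_, fun j => ?_, hnil, hunit⟩
  · rw [← s59t_polyAct_X op hc j, ← map_mul, ← map_mul, mul_comm]
  · obtain ⟨k, hk⟩ := hnil _ (s59t_X_sub_C_mem_evalIdeal c j)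
    refine ⟨k, fun z => ?_⟩
    have := hk z
    rwa [map_sub, s59t_polyAct_X, s59t_polyAct_C] at this

end AbsIdem

/-! ### Concrete part -/

section Concrete

variable (M : ℕ) (B : Finset ℕ)

/-- the `B`-anemic generators: the `T_ℓ` with `ℓ ∉ B`, and all the diamonds. -/
def s59u_W6Idx : Type := {i : s59w_AIdx M // ∀ i' : s59w_TIdx M, i = Sum.inl i' → i'.ell ∉ B}

variable {M B}

/-- the `T`-generators. -/
def s59u_W6Idx.ofT (i : s59w_TIdx M) (hi : i.ell ∉ B) : s59u_W6Idx M B :=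
  ⟨Sum.inl i, fun i' h => by rw [← Sum.inl.inj h]; exact hi⟩

/-- the diamond generators. -/
def s59u_W6Idx.ofDia (τ : Gamma0 M) : s59u_W6Idx M B :=
  ⟨Sum.inr τ, fun i' h => by cases h⟩

variable (M B)

/-- the eigenvalues: `a_ℓ` for `T_ℓ`, `1` for the diamonds. -/
def s59u_W6c (a : ℕ → ℤ) (𝒪 : Type*) [CommRing 𝒪] : s59u_W6Idx M B → 𝒪 := fun j =>
  match j.1 with
  | Sum.inl i => ((a i.ell : ℤ) : 𝒪)
  | Sum.inr _ => 1

theorem s59u_W6c_T (a : ℕ → ℤ) (𝒪 : Type*) [CommRing 𝒪] (i : s59w_TIdx M) (hi : i.ell ∉ B) :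
    s59u_W6c M B a 𝒪 (s59u_W6Idx.ofT i hi) = ((a i.ell : ℤ) : 𝒪) := rfl

theorem s59u_W6c_dia (a : ℕ → ℤ) (𝒪 : Type*) [CommRing 𝒪] (τ : Gamma0 M) :
    s59u_W6c M B a 𝒪 (s59u_W6Idx.ofDia τ) = 1 := rfl

variable {M} [NeZero M] (H : Subgroup (ZMod M)ˣ)

/-- the restricted family of operators. -/
def s59u_W6op (𝒪 : Type*) [CommRing 𝒪] (j : s59u_W6Idx M B) :
    Module.End 𝒪 (s48h_Hpar 𝒪 (s48h_GammaH M H) 𝒪) := s59w_op H 𝒪 j.1

theorem s59u_W6op_comm (𝒪 : Type*) [CommRing 𝒪] (i j : s59u_W6Idx M B) :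
    s59u_W6op B H 𝒪 i * s59u_W6op B H 𝒪 j = s59u_W6op B H 𝒪 j * s59u_W6op B H 𝒪 i :=
  s59w_op_comm H 𝒪 i.1 j.1

variable {L : ℕ} [NeZero L] (hLM : L ∣ M)

include hLM in
/-- **W6**: the eigenvector modulo `𝔪` for the restricted family. -/
theorem s59u_W6_fam (𝒪 : Type*) [CommRing 𝒪] [IsDomain 𝒪] [CharZero 𝒪] [IsLocalRing 𝒪]
    (p : ℕ) [Fact p.Prime] (hp𝒪 : (p : 𝒪) ∈ maximalIdeal 𝒪) (a : ℕ → ℤ)
    (hocc : s44i_LevelOcc L p a B) :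
    ∃ v : s48h_Hpar 𝒪 (s48h_GammaH M H) 𝒪,
      v ∉ (maximalIdeal 𝒪 • ⊤ : Submodule 𝒪 (s48h_Hpar 𝒪 (s48h_GammaH M H) 𝒪)) ∧
      ∀ j : s59u_W6Idx M B, s59u_W6op B H 𝒪 j v - s59u_W6c M B a 𝒪 j • v ∈
        (maximalIdeal 𝒪 • ⊤ : Submodule 𝒪 (s48h_Hpar 𝒪 (s48h_GammaH M H) 𝒪)) := by
  obtain ⟨v, hv, hT, hD⟩ := s59u_W6 hLM H 𝒪 p hp𝒪 a B hocc
  refine ⟨v, hv, ?_⟩
  rintro ⟨i | τ, hj⟩
  · exact hT i (hj i rfl)
  · have := hD τ
    show s59w_op H 𝒪 (Sum.inr τ) v - (1 : 𝒪) • v ∈ _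
    rwa [one_smul]

include hLM in
/-- **W6, kernel form**: `ker (𝒪[X_j] → End H_par(Γ_H(M), 𝒪)) ≤ (𝔪, X_j − c_j)`. -/
theorem s59u_W6_ker_le (𝒪 : Type*) [CommRing 𝒪] [IsDomain 𝒪] [CharZero 𝒪] [IsLocalRing 𝒪]
    (p : ℕ) [Fact p.Prime] (hp𝒪 : (p : 𝒪) ∈ maximalIdeal 𝒪) (a : ℕ → ℤ)
    (hocc : s44i_LevelOcc L p a B) :
    RingHom.ker (s59t_polyAct (s59u_W6op B H 𝒪) (s59u_W6op_comm B H 𝒪)) ≤
      s59t_evalIdeal (s59u_W6c M B a 𝒪) := by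
  obtain ⟨v, hv, h⟩ := s59u_W6_fam B H hLM 𝒪 p hp𝒪 a hocc
  exact s59u_ker_le_evalIdeal _ _ _ v hv h

include hLM in
/-- **W6, idempotent form** (`ε ≠ 0`): the input `(ε, hε, hε0, hεg, c, hnil)` of helper5's
`s59e_H3_abs` / `s59e_H3_hecke` for the `B`-anemic family. -/
theorem s59u_W6_idem (𝒪 : Type) [CommRing 𝒪] [IsDomain 𝒪] [CharZero 𝒪] [IsLocalRing 𝒪]
    [IsNoetherianRing 𝒪] [IsAdicComplete (maximalIdeal 𝒪) 𝒪]
    (p : ℕ) [Fact p.Prime] (hp𝒪 : (p : 𝒪) ∈ maximalIdeal 𝒪) (a : ℕ → ℤ)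
    (hocc : s44i_LevelOcc L p a B) :
    ∃ e : MvPolynomial (s59u_W6Idx M B) 𝒪, 1 - e ∈ s59t_evalIdeal (s59u_W6c M B a 𝒪) ∧
      ∃ ε : Module.End 𝒪 (s48h_Hpar 𝒪 (s48h_GammaH M H) 𝒪),
        ε = s59t_polyAct (s59u_W6op B H 𝒪) (s59u_W6op_comm B H 𝒪) e ∧
        ε * ε = ε ∧ ε ≠ 0 ∧
        (∀ j, ε * s59u_W6op B H 𝒪 j = s59u_W6op B H 𝒪 j * ε) ∧
        (∀ j, ∃ k : ℕ, ∀ z, ((s59u_W6op B H 𝒪 j - s59u_W6c M B a 𝒪 j • 1) ^ k) (ε z) ∈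
          (maximalIdeal 𝒪 • ⊤ : Submodule 𝒪 (s48h_Hpar 𝒪 (s48h_GammaH M H) 𝒪))) ∧
        (∀ t ∈ s59t_evalIdeal (s59u_W6c M B a 𝒪), ∃ n : ℕ, ∀ z,
          ((s59t_polyAct (s59u_W6op B H 𝒪) (s59u_W6op_comm B H 𝒪) t) ^ n) (ε z) ∈
            (maximalIdeal 𝒪 • ⊤ : Submodule 𝒪 (s48h_Hpar 𝒪 (s48h_GammaH M H) 𝒪))) ∧
        (∀ t, t ∉ s59t_evalIdeal (s59u_W6c M B a 𝒪) → ∃ η : MvPolynomial (s59u_W6Idx M B) 𝒪,
          s59t_polyAct (s59u_W6op B H 𝒪) (s59u_W6op_comm B H 𝒪) (η * t * e) = ε) := by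
  classical
  haveI : Module.Finite 𝒪 (s48h_Hpar 𝒪 (s48h_GammaH M H) 𝒪) :=
    Module.Finite.of_basis
      (s59u_cB (Module.Free.chooseBasis ℤ (s48h_M (s48h_GammaH M H))) 𝒪)
  obtain ⟨v, hv, h⟩ := s59u_W6_fam B H hLM 𝒪 p hp𝒪 a hocc
  obtain ⟨e, h1e, hee, he0, hcomm, hnil, hnil', hunit⟩ :=
    s59u_exists_idem (s59u_W6op B H 𝒪) (s59u_W6op_comm B H 𝒪) (s59u_W6c M B a 𝒪) v hv h
  exact ⟨e, h1e, _, rfl, hee, he0, hcomm, hnil, hnil', hunit⟩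

end Concrete

end Fermat.Agent.Lib.S59
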