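/-
Programme (R) = S59, node W6 (helper3), file 4: **W6 at `Γ₀(M)`-level** (for helper8's `s59t_act0`):
the eigen-system of `s44i_LevelOcc L p a B` occurs in `s29h_Hpar 𝒪 M 𝒪 = H_par(Γ₀(M), 𝒪)` modulo `𝔪`,
for every `M` divisible by `L`.

* `s59u_resHparEquiv` : for `K ≤ G ≤ K` (the same subgroup written in two ways) restriction is a linear
  equivalence `H_par(G, A) ≃ H_par(K, A)`;
* `s59u_G0Equiv` : `H_par(Γ₀(M), A) ≃ H_par(Γ_⊤(M), A)`, intertwining `T_ℓ` (`s59u_G0Equiv_hecke`);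
* **`s59u_W6_G0`**, `s59u_W6_G0_ker_le` (kernel form for a family `J → ℕ` of good primes).
-/
import Mathlib
import Fermat.Agent.Lib.S59.TPolyAct
import Fermat.Agent.Lib.S59.UW6Idem

set_option autoImplicit false
set_option linter.unusedSectionVars false
set_option linter.style.haveILetI false
set_option linter.unusedVariables false

noncomputable section

namespace Fermat.Agent.Lib.S59

open CongruenceSubgroup IsLocalRing ModularCurve.Period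
open Fermat.Agent.Lib.S29 Fermat.Agent.Lib.S48 Fermat.Agent.Lib.S44
open scoped MatrixGroups

/-- a linear map maps `I • ⊤` into `I • ⊤`. -/
theorem s59u_lin_mem_smul_top {R Y Y' : Type*} [CommRing R] [AddCommGroup Y] [Module R Y]
    [AddCommGroup Y'] [Module R Y'] (I : Ideal R) (f : Y →ₗ[R] Y') {y : Y}
    (hy : y ∈ (I • ⊤ : Submodule R Y)) : f y ∈ (I • ⊤ : Submodule R Y') := by
  refine Submodule.smul_induction_on hy (fun r hr z _ => ?_) (fun z z' hz hz' => ?_)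
  · rw [map_smul]
    exact Submodule.smul_mem_smul hr Submodule.mem_top
  · rw [map_add]
    exact Submodule.add_mem _ hz hz'

section Equiv

variable {K G : Subgroup SL(2, ℤ)} (hKG : K ≤ G) (hGK : G ≤ K) (R : Type*) [Semiring R]
  (A : Type*) [AddCommGroup A] [Module R A]

theorem s59u_res_mem_Hpar {ψ : Additive G →+ A} (hψ : ψ ∈ s48h_Hpar R G A) :
    s59u_res hKG A ψ ∈ s48h_Hpar R K A := by
  refine s48h_mem_Hpar_iff.mpr ⟨s59u_res_isParabolic hKG (s48h_mem_Hpar_iff.mp hψ).1, fun γ hγ => ?_⟩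
  rw [s59u_res_apply]
  exact (s48h_mem_Hpar_iff.mp hψ).2 _ ((Subgroup.inclusion hKG).isOfFinOrder hγ)

/-- restriction between two descriptions of the same subgroup. -/
def s59u_resHparEquiv : s48h_Hpar R G A ≃ₗ[R] s48h_Hpar R K A where
  toFun ψ := ⟨s59u_res hKG A ψ.1, s59u_res_mem_Hpar hKG R A ψ.2⟩
  invFun χ := ⟨s59u_res hGK A χ.1, s59u_res_mem_Hpar hGK R A χ.2⟩
  map_add' _ _ := Subtype.ext rfl
  map_smul' _ _ := Subtype.ext rfl
  left_inv ψ := by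
    refine Subtype.ext (AddMonoidHom.ext fun g => ?_)
    obtain ⟨g, rfl⟩ := Additive.ofMul.surjective g
    rfl
  right_inv χ := by
    refine Subtype.ext (AddMonoidHom.ext fun g => ?_)
    obtain ⟨g, rfl⟩ := Additive.ofMul.surjective g
    rfl

theorem s59u_resHparEquiv_coe (ψ : s48h_Hpar R G A) :
    ((s59u_resHparEquiv hKG hGK R A ψ : s48h_Hpar R K A) : Additive K →+ A) =
      s59u_res hKG A ψ.1 := rfl

end Equiv

section G0

variable (M : ℕ) [NeZero M]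

theorem s59u_Gamma0_le_GammaH_top : Gamma0 M ≤ s48h_GammaH M (⊤ : Subgroup (ZMod M)ˣ) := by
  intro γ h0
  have hcop : IsCoprime (γ 1 1) (M : ℤ) := s59u_coprime_lowerRight h0
  have hu : IsUnit (((γ 1 1 : ℤ)) : ZMod M) :=
    (ZMod.coe_int_isUnit_iff_isCoprime _ M).mpr hcop.symm
  exact ⟨h0, hu.unit, Subgroup.mem_top _, hu.unit_spec.symm⟩

/-- `H_par(Γ₀(M), A) ≃ H_par(Γ_⊤(M), A)`. -/
def s59u_G0Equiv (R : Type*) [Semiring R] (A : Type*) [AddCommGroup A] [Module R A] :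
    s29h_Hpar R M A ≃ₗ[R] s48h_Hpar R (s48h_GammaH M (⊤ : Subgroup (ZMod M)ˣ)) A :=
  s59u_resHparEquiv (s48h_GammaH_le_Gamma0 (H := (⊤ : Subgroup (ZMod M)ˣ)))
    (s59u_Gamma0_le_GammaH_top M) R A

variable {M}

/-- the equivalence intertwines `T_ℓ`. -/
theorem s59u_G0Equiv_hecke (R : Type*) [CommRing R] (i : s59w_TIdx M) (v : s29h_Hpar R M R) :
    s59u_G0Equiv M R R
        (haveI : Fact i.ell.Prime := ⟨i.prime⟩; s29h_heckeHpar M i.ell R R v) =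
      s59w_op (⊤ : Subgroup (ZMod M)ˣ) R (Sum.inl i) (s59u_G0Equiv M R R v) := by
  haveI : Fact i.ell.Prime := ⟨i.prime⟩
  apply Subtype.ext
  exact s59u_res_s29h (A := R) (⊤ : Subgroup (ZMod M)ˣ) i.ndvd i.sig i.mem i.lr v.1

end G0

section W6G0

variable {L M : ℕ} [NeZero L] [NeZero M] (hLM : L ∣ M)
  (𝒪 : Type*) [CommRing 𝒪] [IsDomain 𝒪] [CharZero 𝒪] [IsLocalRing 𝒪]

include hLM in
/-- **W6 at `Γ₀(M)`-level.** -/
theorem s59u_W6_G0 (p : ℕ) [Fact p.Prime] (hp𝒪 : (p : 𝒪) ∈ maximalIdeal 𝒪) (a : ℕ → ℤ)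
    (B : Finset ℕ) (hocc : s44i_LevelOcc L p a B) :
    ∃ v : s29h_Hpar 𝒪 M 𝒪,
      v ∉ (maximalIdeal 𝒪 • ⊤ : Submodule 𝒪 (s29h_Hpar 𝒪 M 𝒪)) ∧
      ∀ (ℓ : ℕ) [Fact ℓ.Prime], ¬ ℓ ∣ M → ℓ ∉ B →
        s29h_heckeHpar M ℓ 𝒪 𝒪 v - ((a ℓ : ℤ) : 𝒪) • v ∈
          (maximalIdeal 𝒪 • ⊤ : Submodule 𝒪 (s29h_Hpar 𝒪 M 𝒪)) := by
  obtain ⟨v', hv', hT, -⟩ := s59u_W6 hLM (⊤ : Subgroup (ZMod M)ˣ) 𝒪 p hp𝒪 a B hocc
  refine ⟨(s59u_G0Equiv M 𝒪 𝒪).symm v', fun h => hv' ?_, fun ℓ _ hℓ hℓB => ?_⟩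
  · have := s59u_lin_mem_smul_top (maximalIdeal 𝒪) (s59u_G0Equiv M 𝒪 𝒪).toLinearMap h
    rwa [LinearEquiv.coe_coe, LinearEquiv.apply_symm_apply] at this
  · obtain ⟨σ, hσ, h11⟩ := s48h_exists_sigma_p (M := M) hℓ
    obtain ⟨i, hi⟩ : ∃ i : s59w_TIdx M, i = ⟨ℓ, Fact.out, hℓ, σ, hσ, h11⟩ := ⟨_, rfl⟩
    have hiℓ : i.ell = ℓ := by rw [hi]
    have h1 := hT i (by rw [hiℓ]; exact hℓB)
    have h2 := s59u_G0Equiv_hecke 𝒪 i ((s59u_G0Equiv M 𝒪 𝒪).symm v')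
    rw [LinearEquiv.apply_symm_apply] at h2
    rw [← h2] at h1
    have h3 := s59u_lin_mem_smul_top (maximalIdeal 𝒪) (s59u_G0Equiv M 𝒪 𝒪).symm.toLinearMap h1
    rw [LinearEquiv.coe_coe, map_sub, LinearEquiv.symm_apply_apply, map_smul] at h3
    subst hi
    exact h3

end W6G0

end Fermat.Agent.Lib.S59
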