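/-
PROGRAMME (R) (helper3, prefix `s59u_`): **THE FREY INSTANTIATION of helper8's level packages**
(`s59t_base_pkg`, `TBase.lean`; `s59t_level_pkg`, `TLvlPkg.lean`; `s59t_BQ_pres_local`, `TLocal.lean`):
all their arithmetic hypotheses are discharged from the binders of `s59i_TPkg`
(`Bset := B`, `a := fun ℓ => P.freyCurveInt.apOfModel ℓ`, `p := P.p`); the subgroup `H ≤ (ℤ/N)ˣ` stays a free
parameter with `hnegH : -1 ∈ H`, `hH : (ℤ/N)ˣ/H` a `p`-group (helper1's `s59k_H0`).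

* `s59u_frey_base_pkg`  : the conclusion of `s59t_base_pkg` VERBATIM (once, no `n`);
* `s59u_frey_level_pkg` : for `(n, qv)` with the level hypotheses of `s59i_TPkg` VERBATIM:
  `∃ aq bq, harith ∧ (aq + bq ≡ a_q) ∧ <the conclusion of s59t_level_pkg VERBATIM>`;
* `s59u_frey_level_grp` : `hCB` (`C_Q × B_Q ≃ Δ'`) and the presentation of `B_Q` with local generators at `P := p ^ n`.

Inputs: helper3 `s59u_W6`, `s59u_W6_G0`, `s59u_exists_nonEis_idx`; helper2 `s59b_lvl_pgroup`, `s59b_S37H_of_lvl`,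
`s59b_TQ_good`, `s59b_TW_arith`; `h2N : 2 ∣ N` is a hypothesis (= helper2's `s59b_two_dvd_level`, BTwoDvd).
-/
import Mathlib
import Fermat.Agent.Lib.S59.TLvlPkg
import Fermat.Agent.Lib.S59.TLocal
import Fermat.Agent.Lib.S59.BTWArith
import Fermat.Agent.Lib.S59.BTQGood
import Fermat.Agent.Lib.S59.BLvlP
import Fermat.Agent.Lib.S59.BKS37
import Fermat.Agent.Lib.S59.UNonEis
import Fermat.Agent.Lib.S59.UW6G0
import Fermat.Agent.Lib.Frobenius.Exists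

set_option autoImplicit false
set_option linter.unusedSectionVars false
set_option linter.unusedVariables false
set_option linter.style.haveILetI false

noncomputable section

namespace Fermat.Agent.Lib.S59

open Matrix MatrixGroups CongruenceSubgroup IsLocalRing Polynomial FreyPackage
open WeierstrassCurve WeierstrassCurve.Affine WeierstrassCurve.Affine.Point
open Fermat.Agent.Lib.S29 Fermat.Agent.Lib.S48 Fermat.Agent.Lib.S41 Fermat.Agent.Lib.S44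

local notation "Γℚ" => (AlgebraicClosure ℚ ≃ₐ[ℚ] AlgebraicClosure ℚ)

/-! ### Elementary numerology of the Taylor–Wiles level -/

section Num

variable {N : ℕ} {B : Finset ℕ} {p : ℕ} {r : ℕ} (qv : Fin r → ℕ)

theorem s59u_qv_not_dvd (hNB : ∀ q : ℕ, q.Prime → q ∣ N → q ∈ B) (hq : ∀ i, (qv i).Prime)
    (hqB : ∀ i, qv i ∉ B) (i : Fin r) : ¬ qv i ∣ N := fun h => hqB i (hNB _ (hq i) h)

theorem s59u_prod_qv_ne_zero (hq : ∀ i, (qv i).Prime) : ∏ j, qv j ≠ 0 :=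
  Finset.prod_ne_zero_iff.2 fun i _ => (hq i).ne_zero

theorem s59u_coprime_prod_qv (hNB : ∀ q : ℕ, q.Prime → q ∣ N → q ∈ B) (hq : ∀ i, (qv i).Prime)
    (hqB : ∀ i, qv i ∉ B) : N.Coprime (∏ j, qv j) :=
  Nat.Coprime.prod_right fun i _ =>
    (Nat.Coprime.symm ((Nat.Prime.coprime_iff_not_dvd (hq i)).2 (s59u_qv_not_dvd qv hNB hq hqB i)))

theorem s59u_squarefree_prod_qv (hq : ∀ i, (qv i).Prime) (hinj : Function.Injective qv) :
    Squarefree (∏ j, qv j) := by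
  classical
  have h : ∀ s : Finset (Fin r), Squarefree (∏ j ∈ s, qv j) := by
    intro s
    induction s using Finset.induction_on with
    | empty => simp
    | insert i s hi ih =>
      rw [Finset.prod_insert hi]
      refine (Nat.squarefree_mul_iff).2 ⟨?_, (hq i).squarefree, ih⟩
      refine Nat.Coprime.prod_right fun j hj => ?_
      refine (Nat.coprime_primes (hq i) (hq j)).2 fun h => hi ?_
      rw [hinj h]
      exact hj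
  exact h Finset.univ

theorem s59u_squarefree_level (hsq : Squarefree N) (hNB : ∀ q : ℕ, q.Prime → q ∣ N → q ∈ B)
    (hq : ∀ i, (qv i).Prime) (hqB : ∀ i, qv i ∉ B) (hinj : Function.Injective qv) :
    Squarefree (N * ∏ j, qv j) :=
  (Nat.squarefree_mul_iff).2 ⟨s59u_coprime_prod_qv qv hNB hq hqB, hsq,
    s59u_squarefree_prod_qv qv hq hinj⟩

/-- the instance `NeZero (∏ j, qv j)` (use `haveI := s59u_neZero_prod_qv qv hq`). -/
theorem s59u_neZero_prod_qv (hq : ∀ i, (qv i).Prime) : NeZero (∏ j, qv j) :=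
  ⟨s59u_prod_qv_ne_zero qv hq⟩

/-- the instance `NeZero (N * ∏ j, qv j)`. -/
theorem s59u_neZero_level (N : ℕ) [NeZero N] (hq : ∀ i, (qv i).Prime) : NeZero (N * ∏ j, qv j) :=
  ⟨mul_ne_zero (NeZero.ne N) (s59u_prod_qv_ne_zero qv hq)⟩

end Num

section Frey

variable (P : FreyPackage) [Fact P.p.Prime] (hΔ : P.freyCurveInt.Δ ≠ 0) (N : ℕ) [NeZero N]
  (hcond : P.IsConductorLevel N)
  (hirr : GaloisRepIsIrreducible (K := AlgebraicClosure ℚ) ℚ P.freyCurve P.p)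
  (B : Finset ℕ) (hB1 : ∀ r : ℕ, r.Prime → r ∣ N * P.p → r ∈ B)
  (hB2 : ∀ r : ℕ, r.Prime → (r : ℤ) ∣ P.a * P.b * P.c → r ∈ B)
  (hocc : s44i_LevelOcc N P.p (fun ℓ => P.freyCurveInt.apOfModel ℓ) B)
  {𝒪 : Type} [CommRing 𝒪] [IsDomain 𝒪] [IsDiscreteValuationRing 𝒪]
  [IsAdicComplete (maximalIdeal 𝒪) 𝒪] [Finite (ResidueField 𝒪)] [CharZero 𝒪]
  [Algebra ℤ_[P.p] 𝒪] (hp𝒪 : ((P.p : ℕ) : 𝒪) ∈ maximalIdeal 𝒪)
  (H : Subgroup (ZMod N)ˣ) (hnegH : (-1 : (ZMod N)ˣ) ∈ H)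
  (hH : ∀ u : (ZMod N)ˣ, ∃ k : ℕ, u ^ (P.p ^ k) ∈ H)

include hcond hirr hocc hp𝒪 hnegH hH in
/-- **the base package at the Frey curve** (= the conclusion of helper8's `s59t_base_pkg`, verbatim). -/
theorem s59u_frey_base_pkg :
    ∃ e : MvPolynomial ↥(s59t_goodB N B) 𝒪,
      1 - e ∈ s59t_evalIdeal (fun x : ↥(s59t_goodB N B) =>
        s59t_cB (𝒪 := 𝒪) N (fun ℓ => P.freyCurveInt.apOfModel ℓ) (x : s59w_AIdx N)) ∧
      (∀ t : MvPolynomial ↥(s59t_goodB N B) 𝒪,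
        t ∉ s59t_evalIdeal (fun x : ↥(s59t_goodB N B) =>
          s59t_cB (𝒪 := 𝒪) N (fun ℓ => P.freyCurveInt.apOfModel ℓ) (x : s59w_AIdx N)) →
        ∃ η : MvPolynomial ↥(s59t_goodB N B) 𝒪,
          s59t_E0 H B (η * t * e) = s59t_E0 H B e ∧
          s59t_E0 (⊤ : Subgroup (ZMod N)ˣ) B (η * t * e) = s59t_E0 ⊤ B e) ∧
      -- level `(N, H)`
      s59t_E0 H B e * s59t_E0 H B e = s59t_E0 H B e ∧
      s59t_E0 H B e ≠ 0 ∧
      (∀ x ∈ s59t_goodB N B, ∃ k : ℕ, ∀ y : s48h_Hpar 𝒪 (s48h_GammaH N H) 𝒪,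
        ((s59w_op H 𝒪 x - s59t_cB (𝒪 := 𝒪) N (fun ℓ => P.freyCurveInt.apOfModel ℓ) x •
          (1 : Module.End 𝒪 (s48h_Hpar 𝒪 (s48h_GammaH N H) 𝒪))) ^ k)
          (s59t_E0 H B e y) ∈
          (maximalIdeal 𝒪 • ⊤ : Submodule 𝒪 (s48h_Hpar 𝒪 (s48h_GammaH N H) 𝒪))) ∧
      -- level `(N, ⊤)`, i.e. `Γ₀(N)`
      s59t_E0 (⊤ : Subgroup (ZMod N)ˣ) B e * s59t_E0 ⊤ B e = s59t_E0 ⊤ B e ∧
      s59t_E0 (⊤ : Subgroup (ZMod N)ˣ) B e ≠ 0 ∧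
      (∀ x ∈ s59t_goodB N B, ∃ k : ℕ,
        ∀ y : s48h_Hpar 𝒪 (s48h_GammaH N (⊤ : Subgroup (ZMod N)ˣ)) 𝒪,
        ((s59w_op (⊤ : Subgroup (ZMod N)ˣ) 𝒪 x - s59t_cB (𝒪 := 𝒪) N (fun ℓ => P.freyCurveInt.apOfModel ℓ) x •
          (1 : Module.End 𝒪 (s48h_Hpar 𝒪 (s48h_GammaH N (⊤ : Subgroup (ZMod N)ˣ)) 𝒪))) ^ k)
          (s59t_E0 ⊤ B e y) ∈
          (maximalIdeal 𝒪 • ⊤ :
            Submodule 𝒪 (s48h_Hpar 𝒪 (s48h_GammaH N (⊤ : Subgroup (ZMod N)ˣ)) 𝒪))) ∧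
      -- the comparison `(N, ⊤) ← (N, H)`
      s59t_TWFull (le_refl (Gamma0 N)) (s59t_GammaH_mono (le_top : H ≤ ⊤))
        (⊤ : Subgroup (s59t_Delta N H)) (⊥ : Subgroup (s59t_Delta N H))
        (s59t_E0 (⊤ : Subgroup (ZMod N)ˣ) B e) (s59t_E0 H B e) := by
  classical
  haveI : CharP (ResidueField 𝒪) P.p := s59e_charP_residue P.p hp𝒪
  have hp5 := P.hp5
  have hpP : P.p.Prime := Fact.out
  have hp12 : Nat.Coprime P.p 12 := by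
    have h12 : (12 : ℕ) = 2 ^ 2 * 3 := by norm_num
    rw [h12]
    refine Nat.Coprime.mul_right (Nat.Coprime.pow_right 2 ?_) ?_
    · exact (Nat.coprime_primes hpP Nat.prime_two).2 (by omega)
    · exact (Nat.coprime_primes hpP Nat.prime_three).2 (by omega)
  obtain ⟨i₀, hi₀, hnE⟩ := s59u_exists_nonEis_idx P hirr (𝒪 := 𝒪) hp𝒪 B N
  exact s59t_base_pkg P.p H B (fun ℓ => P.freyCurveInt.apOfModel ℓ) hp12 hcond.squarefree hnegH hH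
    (s59u_W6_G0 (dvd_refl N) 𝒪 P.p hp𝒪 _ B hocc) i₀ hi₀ hnE


variable (n : ℕ) {r : ℕ} (qv : Fin r → ℕ) [NeZero (∏ j, qv j)] [NeZero (N * ∏ j, qv j)]

include hcond hirr hB1 hB2 hocc hnegH hH in
set_option maxHeartbeats 1600000 in
/-- **the level package at the Frey curve**: the Taylor–Wiles arithmetic `aq, bq` (lifts of the two distinct
Frobenius eigenvalues at the `qv j`) and the conclusion of helper8's `s59t_level_pkg`, verbatim. -/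
theorem s59u_frey_level_pkg (h2N : 2 ∣ N) (hqinj : Function.Injective qv)
    (hqv : ∀ i, (qv i).Prime ∧ qv i ∉ B ∧ P.p ^ (n + 1) ∣ qv i - 1)
    (hTW : ∀ i, ∀ A : ValuationSubring (AlgebraicClosure ℚ), A.LiesOverPrime (qv i) →
      ∀ φ : Γℚ, A.IsFrobeniusAt φ (qv i) →
        ∃ α β : ResidueField 𝒪, α ≠ β ∧
          LinearMap.charpoly ((((s59b_rhoW P.freyCurveInt P.p hΔ).baseChangeAlong
            (algebraMap ℤ_[P.p] 𝒪) (s59b_isLocalHom_padic P.p _ hp𝒪)).residual).ρ φ) =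
            (X - C α) * (X - C β))
    (e : MvPolynomial ↥(s59t_goodB N B) 𝒪)
    (h1e : 1 - e ∈ s59t_evalIdeal (fun x : ↥(s59t_goodB N B) =>
      s59t_cB (𝒪 := 𝒪) N (fun ℓ => P.freyCurveInt.apOfModel ℓ) (x : s59w_AIdx N)))
    (hid : s59t_E0 H B e * s59t_E0 H B e = s59t_E0 H B e)
    (hnil : ∀ x ∈ s59t_goodB N B, ∃ k : ℕ, ∀ y : s48h_Hpar 𝒪 (s48h_GammaH N H) 𝒪,
      ((s59w_op H 𝒪 x - s59t_cB (𝒪 := 𝒪) N (fun ℓ => P.freyCurveInt.apOfModel ℓ) x •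
        (1 : Module.End 𝒪 (s48h_Hpar 𝒪 (s48h_GammaH N H) 𝒪))) ^ k)
        (s59t_E0 H B e y) ∈
        (maximalIdeal 𝒪 • ⊤ : Submodule 𝒪 (s48h_Hpar 𝒪 (s48h_GammaH N H) 𝒪))) :
    ∃ aq bq : ℕ → 𝒪,
      (∀ j, IsUnit (bq (qv j) - aq (qv j)) ∧
        ((qv j : ℕ) : 𝒪) - aq (qv j) * bq (qv j) ∈ maximalIdeal 𝒪 ∧
        IsUnit (1 - aq (qv j) ^ 2) ∧ IsUnit (1 - bq (qv j) ^ 2)) ∧
      (∀ j, aq (qv j) + bq (qv j) - ((P.freyCurveInt.apOfModel (qv j) : ℤ) : 𝒪) ∈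
        maximalIdeal 𝒪) ∧
    ∃ (e₀ : MvPolynomial ↥(s59t_goodB (N * ∏ j, qv j) B) 𝒪)
      (G : MvPolynomial (s59w_AIdx (N * ∏ j, qv j) ⊕ ℕ) 𝒪),
      1 - e₀ ∈ s59t_evalIdeal (fun x : ↥(s59t_goodB (N * ∏ j, qv j) B) =>
        s59t_cB (𝒪 := 𝒪) (N * ∏ j, qv j) (fun ℓ => P.freyCurveInt.apOfModel ℓ) x) ∧
      -- invertibility of everything outside the maximal ideal, on the `ε'`-part
      (∀ t : MvPolynomial ↥(s59t_goodB (N * ∏ j, qv j) B) 𝒪,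
        t ∉ s59t_evalIdeal (fun x : ↥(s59t_goodB (N * ∏ j, qv j) B) =>
          s59t_cB (𝒪 := 𝒪) (N * ∏ j, qv j) (fun ℓ => P.freyCurveInt.apOfModel ℓ) x) →
        ∃ η : MvPolynomial ↥(s59t_goodB (N * ∏ j, qv j) B) 𝒪,
          s59t_actH (N * ∏ j, qv j) aq (dvd_refl _)
            (s59t_Hmul N (∏ j, qv j) H (s59t_KQ (P.p ^ n) qv))
            (s59t_jG 𝒪 (s59t_goodB (N * ∏ j, qv j) B) (η * t) *
              (G * s59t_jG 𝒪 (s59t_goodB (N * ∏ j, qv j) B) e₀)) =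
          s59t_actH (N * ∏ j, qv j) aq (dvd_refl _)
            (s59t_Hmul N (∏ j, qv j) H (s59t_KQ (P.p ^ n) qv))
            (G * s59t_jG 𝒪 (s59t_goodB (N * ∏ j, qv j) B) e₀)) ∧
      -- the Taylor–Wiles level `(N', H')`
      s59t_actH (N * ∏ j, qv j) aq (dvd_refl _) (s59t_Hmul N (∏ j, qv j) H (s59t_KQ (P.p ^ n) qv))
          (G * s59t_jG 𝒪 (s59t_goodB (N * ∏ j, qv j) B) e₀) *
        s59t_actH (N * ∏ j, qv j) aq (dvd_refl _)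
          (s59t_Hmul N (∏ j, qv j) H (s59t_KQ (P.p ^ n) qv))
          (G * s59t_jG 𝒪 (s59t_goodB (N * ∏ j, qv j) B) e₀) =
        s59t_actH (N * ∏ j, qv j) aq (dvd_refl _)
          (s59t_Hmul N (∏ j, qv j) H (s59t_KQ (P.p ^ n) qv))
          (G * s59t_jG 𝒪 (s59t_goodB (N * ∏ j, qv j) B) e₀) ∧
      (∀ x ∈ s59t_goodB (N * ∏ j, qv j) B, ∃ k : ℕ,
        ∀ y : s48h_Hpar 𝒪 (s48h_GammaH (N * ∏ j, qv j)
          (s59t_Hmul N (∏ j, qv j) H (s59t_KQ (P.p ^ n) qv))) 𝒪,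
        ((s59w_op (s59t_Hmul N (∏ j, qv j) H (s59t_KQ (P.p ^ n) qv)) 𝒪 x -
          s59t_cB (𝒪 := 𝒪) (N * ∏ j, qv j) (fun ℓ => P.freyCurveInt.apOfModel ℓ) x •
            (1 : Module.End 𝒪 (s48h_Hpar 𝒪 (s48h_GammaH (N * ∏ j, qv j)
              (s59t_Hmul N (∏ j, qv j) H (s59t_KQ (P.p ^ n) qv))) 𝒪))) ^ k)
          (s59t_actH (N * ∏ j, qv j) aq (dvd_refl _)
            (s59t_Hmul N (∏ j, qv j) H (s59t_KQ (P.p ^ n) qv))
            (G * s59t_jG 𝒪 (s59t_goodB (N * ∏ j, qv j) B) e₀) y) ∈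
          (maximalIdeal 𝒪 • ⊤ : Submodule 𝒪 (s48h_Hpar 𝒪 (s48h_GammaH (N * ∏ j, qv j)
              (s59t_Hmul N (∏ j, qv j) H (s59t_KQ (P.p ^ n) qv))) 𝒪))) ∧
      s59t_TWFull (s59t_Gamma0_anti (s59t_dvd_mul_left' N (∏ j, qv j)))
        (s59t_GammaHmul_le (N := N) (D := ∏ j, qv j) (H := H) (K := s59t_KQ (P.p ^ n) qv))
        (s59t_BQ N (∏ j, qv j) H (s59t_KQ (P.p ^ n) qv))
        (s59t_CQ N (∏ j, qv j) H (s59t_KQ (P.p ^ n) qv))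
        (s59t_E0 H B e)
        (s59t_actH (N * ∏ j, qv j) aq (dvd_refl _)
          (s59t_Hmul N (∏ j, qv j) H (s59t_KQ (P.p ^ n) qv))
          (G * s59t_jG 𝒪 (s59t_goodB (N * ∏ j, qv j) B) e₀)) ∧
      -- the type-1 level `(N', H₂')`, same polynomial
      s59t_actH (N * ∏ j, qv j) aq (dvd_refl _) (s59t_Hmul N (∏ j, qv j) ⊤ (s59t_KQ (P.p ^ n) qv))
          (G * s59t_jG 𝒪 (s59t_goodB (N * ∏ j, qv j) B) e₀) *
        s59t_actH (N * ∏ j, qv j) aq (dvd_refl _)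
          (s59t_Hmul N (∏ j, qv j) ⊤ (s59t_KQ (P.p ^ n) qv))
          (G * s59t_jG 𝒪 (s59t_goodB (N * ∏ j, qv j) B) e₀) =
        s59t_actH (N * ∏ j, qv j) aq (dvd_refl _)
          (s59t_Hmul N (∏ j, qv j) ⊤ (s59t_KQ (P.p ^ n) qv))
          (G * s59t_jG 𝒪 (s59t_goodB (N * ∏ j, qv j) B) e₀) ∧
      (∀ x ∈ s59t_goodB (N * ∏ j, qv j) B, ∃ k : ℕ,
        ∀ y : s48h_Hpar 𝒪 (s48h_GammaH (N * ∏ j, qv j)
          (s59t_Hmul N (∏ j, qv j) ⊤ (s59t_KQ (P.p ^ n) qv))) 𝒪,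
        ((s59w_op (s59t_Hmul N (∏ j, qv j) ⊤ (s59t_KQ (P.p ^ n) qv)) 𝒪 x -
          s59t_cB (𝒪 := 𝒪) (N * ∏ j, qv j) (fun ℓ => P.freyCurveInt.apOfModel ℓ) x •
            (1 : Module.End 𝒪 (s48h_Hpar 𝒪 (s48h_GammaH (N * ∏ j, qv j)
              (s59t_Hmul N (∏ j, qv j) ⊤ (s59t_KQ (P.p ^ n) qv))) 𝒪))) ^ k)
          (s59t_actH (N * ∏ j, qv j) aq (dvd_refl _)
            (s59t_Hmul N (∏ j, qv j) ⊤ (s59t_KQ (P.p ^ n) qv))
            (G * s59t_jG 𝒪 (s59t_goodB (N * ∏ j, qv j) B) e₀) y) ∈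
          (maximalIdeal 𝒪 • ⊤ : Submodule 𝒪 (s48h_Hpar 𝒪 (s48h_GammaH (N * ∏ j, qv j)
              (s59t_Hmul N (∏ j, qv j) ⊤ (s59t_KQ (P.p ^ n) qv))) 𝒪))) ∧
      s59t_TWFull (le_refl (Gamma0 (N * ∏ j, qv j)))
        (s59t_GammaH_mono (s59t_Hmul_le_top (N := N) (D := ∏ j, qv j) (H := H)
          (K := s59t_KQ (P.p ^ n) qv)))
        (s59t_CQ N (∏ j, qv j) H (s59t_KQ (P.p ^ n) qv))
        (s59t_BQ N (∏ j, qv j) H (s59t_KQ (P.p ^ n) qv))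
        (s59t_actH (N * ∏ j, qv j) aq (dvd_refl _)
          (s59t_Hmul N (∏ j, qv j) ⊤ (s59t_KQ (P.p ^ n) qv))
          (G * s59t_jG 𝒪 (s59t_goodB (N * ∏ j, qv j) B) e₀))
        (s59t_actH (N * ∏ j, qv j) aq (dvd_refl _)
          (s59t_Hmul N (∏ j, qv j) H (s59t_KQ (P.p ^ n) qv))
          (G * s59t_jG 𝒪 (s59t_goodB (N * ∏ j, qv j) B) e₀)) := by
  classical
  haveI : CharP (ResidueField 𝒪) P.p := s59e_charP_residue P.p hp𝒪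
  have hp5 := P.hp5
  have hpP : P.p.Prime := Fact.out
  have hp2 : P.p ≠ 2 := by omega
  have hp12 : Nat.Coprime P.p 12 := by
    have h12 : (12 : ℕ) = 2 ^ 2 * 3 := by norm_num
    rw [h12]
    refine Nat.Coprime.mul_right (Nat.Coprime.pow_right 2 ?_) ?_
    · exact (Nat.coprime_primes hpP Nat.prime_two).2 (by omega)
    · exact (Nat.coprime_primes hpP Nat.prime_three).2 (by omega)
  have hpB : P.p ∈ B := hB1 P.p hpP (Dvd.intro_left N rfl)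
  have hNB : ∀ q : ℕ, q.Prime → q ∣ N → q ∈ B := fun q hq h => hB1 q hq (Dvd.dvd.mul_right h P.p)
  have hq : ∀ i, (qv i).Prime := fun i => (hqv i).1
  have hqB : ∀ i, qv i ∉ B := fun i => (hqv i).2.1
  have hsq : Squarefree N := hcond.squarefree
  have hN1 : 1 < N := by
    have := Nat.le_of_dvd (Nat.pos_of_ne_zero (NeZero.ne N)) h2N
    omega
  obtain ⟨hW, hss, -, hgoodiff⟩ := s59q_frey_ssModel P
  have hmodirr : P.freyCurveInt.ModRepIsIrreducible P.p := by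
    obtain ⟨C₀, hC₀⟩ := hW
    exact s59b_modRep_irr P.freyCurveInt P.p P.freyCurve C₀ hC₀ hirr
  have hgood : ∀ q : ℕ, q.Prime → q ∉ B → P.freyCurveInt.IsGoodPrimeFor q := by
    intro q hq' hqB'
    by_contra hbad
    exact hqB' (hB2 q hq' ((hgoodiff q hq').1 hbad))
  have hqp : ∀ j, qv j ≠ P.p := fun j h => hqB j (h ▸ hpB)
  -- the Taylor–Wiles arithmetic
  have hex : ∀ j, ∃ a b : 𝒪, (IsUnit (b - a) ∧ ((qv j : ℕ) : 𝒪) - a * b ∈ maximalIdeal 𝒪 ∧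
      IsUnit (1 - a ^ 2) ∧ IsUnit (1 - b ^ 2)) ∧
      a + b - ((P.freyCurveInt.apOfModel (qv j) : ℤ) : 𝒪) ∈ maximalIdeal 𝒪 := by
    intro j
    obtain ⟨A, hA⟩ := Fermat.Agent.Lib.Frobenius.exists_liesOverPrime (qv j) (hq j)
    obtain ⟨φ, hφ⟩ :=
      Fermat.Agent.Lib.Frobenius.exists_isFrobeniusAt_of_liesOverPrime A (qv j) (hq j) hA
    obtain ⟨α, β, hne, hcp⟩ := hTW j A hA φ hφ
    obtain ⟨a, ha⟩ := residue_surjective α
    obtain ⟨b, hb⟩ := residue_surjective β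
    have hq1 : P.p ∣ qv j - 1 := (dvd_pow_self P.p (Nat.succ_ne_zero n)).trans (hqv j).2.2
    obtain ⟨h1, h2, h3, h4, h5⟩ := s59b_TW_arith (𝒪 := 𝒪) hΔ hp2 hmodirr hp𝒪 (qv j) (hq j)
      (hqp j) (hgood _ (hq j) (hqB j)) hq1 A hA φ hφ α β hne hcp a b ha hb
    exact ⟨a, b, ⟨h1, h2, h3, h4⟩, h5⟩
  choose av bv hav hab using hex
  obtain ⟨aq, haqd⟩ : ∃ aq : ℕ → 𝒪, aq = fun q => if h : ∃ j, qv j = q then av h.choose else 0 :=
    ⟨_, rfl⟩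
  obtain ⟨bq, hbqd⟩ : ∃ bq : ℕ → 𝒪, bq = fun q => if h : ∃ j, qv j = q then bv h.choose else 0 :=
    ⟨_, rfl⟩
  have haq : ∀ j, aq (qv j) = av j := by
    intro j
    have h : ∃ j', qv j' = qv j := ⟨j, rfl⟩
    rw [haqd]
    show (if h : ∃ j', qv j' = qv j then av h.choose else 0) = av j
    rw [dif_pos h]
    exact congrArg av (hqinj h.choose_spec)
  have hbq : ∀ j, bq (qv j) = bv j := by
    intro j
    have h : ∃ j', qv j' = qv j := ⟨j, rfl⟩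
    rw [hbqd]
    show (if h : ∃ j', qv j' = qv j then bv h.choose else 0) = bv j
    rw [dif_pos h]
    exact congrArg bv (hqinj h.choose_spec)
  have harith : ∀ j, IsUnit (bq (qv j) - aq (qv j)) ∧
      ((qv j : ℕ) : 𝒪) - aq (qv j) * bq (qv j) ∈ maximalIdeal 𝒪 ∧
      IsUnit (1 - aq (qv j) ^ 2) ∧ IsUnit (1 - bq (qv j) ^ 2) := by
    intro j
    rw [haq, hbq]
    exact hav j
  have hcong : ∀ j, aq (qv j) + bq (qv j) - ((P.freyCurveInt.apOfModel (qv j) : ℤ) : 𝒪) ∈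
      maximalIdeal 𝒪 := by
    intro j
    rw [haq, hbq]
    exact hab j
  refine ⟨aq, bq, harith, hcong, ?_⟩
  -- the level package
  have hsq' := s59u_squarefree_level qv hsq hNB hq hqB hqinj
  have hcop := s59u_coprime_prod_qv qv hNB hq hqB
  have S37 : s59b_S37H N H :=
    s59b_S37H_of_lvl (s59b_lvl_pgroup hsq hN1 hnegH (Or.inl h2N) hpP hp5 hH)
  obtain ⟨i₀, hi₀, hnE⟩ := s59u_exists_nonEis_idx P hirr (𝒪 := 𝒪) hp𝒪 B (N * ∏ j, qv j)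
  refine s59t_level_pkg P.p H B (fun ℓ => P.freyCurveInt.apOfModel ℓ) n qv hp12 hsq hsq' S37 hN1
    hnegH hp𝒪 hpB hH (s59u_W6 (dvd_refl N) H 𝒪 P.p hp𝒪 _ B hocc)
    (s59u_W6_G0 (dvd_refl N) 𝒪 P.p hp𝒪 _ B hocc) hcop hqinj hq aq bq harith i₀ hi₀ hnE ?_
    e h1e hid hnil
  -- (TQ)
  intro M hM q hqL _ hqM e₀ h1e₀ hid₀ hnil₀
  obtain ⟨j, rfl⟩ : ∃ j, qv j = q := by
    rw [List.mem_ofFn] at hqL
    exact hqL
  exact s59b_TQ_good P.p hp2 hp𝒪 aq bq P.freyCurveInt hΔ (s59t_goodB (N * ∏ j, qv j) B)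
    (s59t_cB (𝒪 := 𝒪) (N * ∏ j, qv j) (fun ℓ => P.freyCurveInt.apOfModel ℓ)) B
    (fun i hi => ⟨i, rfl, hi⟩)
    (fun i hi => by
      show ((P.freyCurveInt.apOfModel i.ell : ℤ) : 𝒪) - _ ∈ _
      rw [sub_self]
      exact Ideal.zero_mem _)
    M hM e₀ hnil₀ (qv j) hqM (hqp j) (hgood _ (hq j) (hqB j)) (hcong j)

include hcond hB1 in
/-- **the group theory of the Taylor–Wiles level**: `C_Q × B_Q ≃ Δ'` (the `hCB` of `s59e_TLevel_abs`) and helper8's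
presentation of `B_Q ≅ (ℤ/pⁿ)^r` with LOCAL generators (`s59t_BQ_pres_local` at `P := p ^ n`). -/
theorem s59u_frey_level_grp (hqinj : Function.Injective qv)
    (hqv : ∀ i, (qv i).Prime ∧ qv i ∉ B ∧ P.p ^ (n + 1) ∣ qv i - 1) :
    Function.Bijective (fun x : s59t_CQ N (∏ j, qv j) H (s59t_KQ (P.p ^ n) qv) ×
        s59t_BQ N (∏ j, qv j) H (s59t_KQ (P.p ^ n) qv) =>
      ((x.1 : s59t_Delta (N * ∏ j, qv j) (s59t_Hmul N (∏ j, qv j) H (s59t_KQ (P.p ^ n) qv))) *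
        (x.2 : s59t_Delta (N * ∏ j, qv j) (s59t_Hmul N (∏ j, qv j) H (s59t_KQ (P.p ^ n) qv))))) ∧
    ∃ g : Fin r → s59t_BQ N (∏ j, qv j) H (s59t_KQ (P.p ^ n) qv),
      Nat.card (s59t_BQ N (∏ j, qv j) H (s59t_KQ (P.p ^ n) qv)) = (P.p ^ n) ^ r ∧
      (∀ x : s59t_BQ N (∏ j, qv j) H (s59t_KQ (P.p ^ n) qv), ∃ a : Fin r → ℕ,
        x = ∏ i, g i ^ a i) ∧
      (∀ i, g i ^ (P.p ^ n) = 1) ∧
      ∀ i, ∃ τ : Gamma0 (N * ∏ j, qv j),
        (QuotientGroup.mk τ : s59t_Delta (N * ∏ j, qv j)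
          (s59t_Hmul N (∏ j, qv j) H (s59t_KQ (P.p ^ n) qv))) = (g i : s59t_Delta (N * ∏ j, qv j)
          (s59t_Hmul N (∏ j, qv j) H (s59t_KQ (P.p ^ n) qv))) ∧
        ZMod.unitsMap (Nat.div_dvd_of_dvd (s59t_qv_dvd_level qv N i))
          (s59t_unitHom (N * ∏ j, qv j) τ) = 1 := by
  classical
  have hpP : P.p.Prime := Fact.out
  have hNB : ∀ q : ℕ, q.Prime → q ∣ N → q ∈ B := fun q hq h => hB1 q hq (Dvd.dvd.mul_right h P.p)
  have hq : ∀ i, (qv i).Prime := fun i => (hqv i).1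
  have hqB : ∀ i, qv i ∉ B := fun i => (hqv i).2.1
  have hsq : Squarefree N := hcond.squarefree
  have hsq' := s59u_squarefree_level qv hsq hNB hq hqB hqinj
  have hcop := s59u_coprime_prod_qv qv hNB hq hqB
  refine ⟨?_, s59t_BQ_pres_local (P.p ^ n) qv hq hqinj
    (fun i => (pow_dvd_pow P.p (Nat.le_succ n)).trans (hqv i).2.2) (pow_ne_zero n hpP.ne_zero)
    N H hsq' hcop⟩
  have h := s59t_BQ_CQ_bijective (N := N) (D := ∏ j, qv j) (H := H) (K := s59t_KQ (P.p ^ n) qv) hcop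
  have h2 : (fun x : s59t_CQ N (∏ j, qv j) H (s59t_KQ (P.p ^ n) qv) ×
        s59t_BQ N (∏ j, qv j) H (s59t_KQ (P.p ^ n) qv) =>
      ((x.1 : s59t_Delta (N * ∏ j, qv j) (s59t_Hmul N (∏ j, qv j) H (s59t_KQ (P.p ^ n) qv))) *
        (x.2 : s59t_Delta (N * ∏ j, qv j) (s59t_Hmul N (∏ j, qv j) H (s59t_KQ (P.p ^ n) qv))))) =
      (fun x : s59t_BQ N (∏ j, qv j) H (s59t_KQ (P.p ^ n) qv) ×
        s59t_CQ N (∏ j, qv j) H (s59t_KQ (P.p ^ n) qv) =>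
      ((x.1 : s59t_Delta (N * ∏ j, qv j) (s59t_Hmul N (∏ j, qv j) H (s59t_KQ (P.p ^ n) qv))) *
        (x.2 : s59t_Delta (N * ∏ j, qv j) (s59t_Hmul N (∏ j, qv j) H (s59t_KQ (P.p ^ n) qv))))) ∘
        (Equiv.prodComm _ _) := by
    funext x
    exact mul_comm _ _
  rw [h2]
  exact h.comp (Equiv.bijective _)

end Frey

end Fermat.Agent.Lib.S59
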