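/-
PROGRAMME (R2) (helper3, prefix `s59u_W_`): **W-GENERAL copies of the Frey level packages** (`UNonEis.lean`,
`UFreyPkg.lean`): an arbitrary integral Weierstrass model `W : WeierstrassCurve ℤ` with `W.Δ ≠ 0` and
`W.ModRepIsIrreducible p` replaces the Frey curve; `a := fun ℓ => W.apOfModel ℓ`.  What was Frey-specific becomes a
HYPOTHESIS:

* `hsq : Squarefree N`, `hN1 : 1 < N`, `S37 : s59b_S37H N H` (was `s59b_lvl_pgroup` + `s59b_S37H_of_lvl` from `2 ∣ N`);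
* `hpB : p ∈ B`, `hNB : ∀ q prime, q ∣ N → q ∈ B`, `hgood : ∀ q prime, q ∉ B → W.IsGoodPrimeFor q`
  (was `hB1`, `hB2` + `s59q_frey_ssModel`);
* `hp12 : Nat.Coprime p 12` (the hypothesis of helper8's `s59t_base_pkg` / `s59t_level_pkg`; NOT available for `p = 3`).

* `s59u_W_exists_nonEis_idx` : the non-Eisenstein index (`p ≠ 2` only);
* `s59u_W_base_pkg`          : the conclusion of `s59t_base_pkg` VERBATIM;
* `s59u_W_level_pkg`         : `∃ aq bq, harith ∧ (aq + bq ≡ a_q) ∧ <the conclusion of s59t_level_pkg VERBATIM>`;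
* `s59u_W_TW_arith_fam`      : the family `aq bq` alone (`p ≠ 2` only, no `hp12`);
* `s59u_W_level_grp`         : `hCB` + the local presentation of `B_Q` (pure group theory, any prime `p`).
-/
import Mathlib
import Fermat.Agent.Lib.S59.UFreyPkg
import Fermat.Agent.Lib.S58.OLevel
import Fermat.Agent.Lib.S44.SoftTransport

set_option autoImplicit false
set_option linter.unusedSectionVars false
set_option linter.unusedVariables false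
set_option linter.style.haveILetI false

noncomputable section

namespace Fermat.Agent.Lib.S59

open Matrix MatrixGroups CongruenceSubgroup IsLocalRing Polynomial
open WeierstrassCurve WeierstrassCurve.Affine WeierstrassCurve.Affine.Point
open Fermat.Agent.Lib.S29 Fermat.Agent.Lib.S48 Fermat.Agent.Lib.S41 Fermat.Agent.Lib.S44
open Fermat.Agent.Lib.S58

local notation "Γℚ" => (AlgebraicClosure ℚ ≃ₐ[ℚ] AlgebraicClosure ℚ)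

/-- **the non-Eisenstein index for a general integral model `W`**: for every level `M` and every finite set `Bset`
there is an index `i₀ : s59w_TIdx M` (a prime `ℓ ∤ M` with a matrix `σ_ℓ`) outside `Bset` with
`a_ℓ(W)² − (ℓ+1)²` a unit of `𝒪`.  Only `p ≠ 2`. -/
theorem s59u_W_exists_nonEis_idx (W : WeierstrassCurve ℤ) (hΔ : W.Δ ≠ 0) (p : ℕ) [Fact p.Prime]
    (hp2 : p ≠ 2) (hirr : W.ModRepIsIrreducible p)
    {𝒪 : Type*} [CommRing 𝒪] [IsLocalRing 𝒪] (hp𝒪 : ((p : ℕ) : 𝒪) ∈ maximalIdeal 𝒪)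
    (Bset : Finset ℕ) (M : ℕ) [NeZero M] :
    ∃ i₀ : s59w_TIdx M, i₀.ell ∉ Bset ∧
      IsUnit ((((W.apOfModel i₀.ell : ℤ) : 𝒪)) ^ 2 - ((i₀.ell : 𝒪) + 1) ^ 2) := by
  classical
  have hp : p.Prime := Fact.out
  haveI := s58o_isElliptic W hΔ
  have hWint : W.IsIntegralModelOf (W.map (Int.castRingHom ℚ)) := ⟨1, s44s_one_smul W⟩
  obtain ⟨ℓ, hℓ, hℓB, -, hℓE⟩ :=
    s41a_nonEis (W.map (Int.castRingHom ℚ)) W hWint p hp hp2 hirr (Bset ∪ M.primeFactors)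
  have hℓB' : ℓ ∉ Bset := fun h => hℓB (Finset.mem_union_left _ h)
  have hℓM : ¬ ℓ ∣ M := fun h =>
    hℓB (Finset.mem_union_right _ (Nat.mem_primeFactors.2 ⟨hℓ, h, NeZero.ne M⟩))
  haveI : Fact ℓ.Prime := ⟨hℓ⟩
  obtain ⟨σ, hσ, h11⟩ := s48h_exists_sigma_p (M := M) hℓM
  refine ⟨⟨ℓ, hℓ, hℓM, σ, hσ, h11⟩, hℓB', ?_⟩
  have h := s59u_isUnit_intCast (𝒪 := 𝒪) hp hp𝒪 hℓE
  have h2 : ((((W.apOfModel ℓ ^ 2 - ((ℓ : ℤ) + 1) ^ 2 : ℤ)) : ℤ) : 𝒪) =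
      (((W.apOfModel ℓ : ℤ) : 𝒪)) ^ 2 - ((ℓ : 𝒪) + 1) ^ 2 := by
    push_cast
    ring
  rw [h2] at h
  exact h

section WPkg

variable (W : WeierstrassCurve ℤ) (hΔ : W.Δ ≠ 0) (p : ℕ) [Fact p.Prime]
  (hirr : W.ModRepIsIrreducible p) (N : ℕ) [NeZero N] (hsq : Squarefree N)
  (B : Finset ℕ) (hpB : p ∈ B) (hNB : ∀ q : ℕ, q.Prime → q ∣ N → q ∈ B)
  (hgood : ∀ q : ℕ, q.Prime → q ∉ B → W.IsGoodPrimeFor q)
  (hocc : s44i_LevelOcc N p (fun ℓ => W.apOfModel ℓ) B)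
  {𝒪 : Type} [CommRing 𝒪] [IsDomain 𝒪] [IsDiscreteValuationRing 𝒪]
  [IsAdicComplete (maximalIdeal 𝒪) 𝒪] [Finite (ResidueField 𝒪)] [CharZero 𝒪]
  [Algebra ℤ_[p] 𝒪] (hp𝒪 : ((p : ℕ) : 𝒪) ∈ maximalIdeal 𝒪)
  (H : Subgroup (ZMod N)ˣ) (hnegH : (-1 : (ZMod N)ˣ) ∈ H)
  (hH : ∀ u : (ZMod N)ˣ, ∃ k : ℕ, u ^ (p ^ k) ∈ H)

include hΔ hirr hsq hocc hp𝒪 hnegH hH in
/-- **the base package for a general `W`** (= the conclusion of helper8's `s59t_base_pkg`, verbatim). -/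
theorem s59u_W_base_pkg (hp12 : Nat.Coprime p 12) :
    ∃ e : MvPolynomial ↥(s59t_goodB N B) 𝒪,
      1 - e ∈ s59t_evalIdeal (fun x : ↥(s59t_goodB N B) =>
        s59t_cB (𝒪 := 𝒪) N (fun ℓ => W.apOfModel ℓ) (x : s59w_AIdx N)) ∧
      (∀ t : MvPolynomial ↥(s59t_goodB N B) 𝒪,
        t ∉ s59t_evalIdeal (fun x : ↥(s59t_goodB N B) =>
          s59t_cB (𝒪 := 𝒪) N (fun ℓ => W.apOfModel ℓ) (x : s59w_AIdx N)) →
        ∃ η : MvPolynomial ↥(s59t_goodB N B) 𝒪,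
          s59t_E0 H B (η * t * e) = s59t_E0 H B e ∧
          s59t_E0 (⊤ : Subgroup (ZMod N)ˣ) B (η * t * e) = s59t_E0 ⊤ B e) ∧
      -- level `(N, H)`
      s59t_E0 H B e * s59t_E0 H B e = s59t_E0 H B e ∧
      s59t_E0 H B e ≠ 0 ∧
      (∀ x ∈ s59t_goodB N B, ∃ k : ℕ, ∀ y : s48h_Hpar 𝒪 (s48h_GammaH N H) 𝒪,
        ((s59w_op H 𝒪 x - s59t_cB (𝒪 := 𝒪) N (fun ℓ => W.apOfModel ℓ) x •
          (1 : Module.End 𝒪 (s48h_Hpar 𝒪 (s48h_GammaH N H) 𝒪))) ^ k)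
          (s59t_E0 H B e y) ∈
          (maximalIdeal 𝒪 • ⊤ : Submodule 𝒪 (s48h_Hpar 𝒪 (s48h_GammaH N H) 𝒪))) ∧
      -- level `(N, ⊤)`, i.e. `Γ₀(N)`
      s59t_E0 (⊤ : Subgroup (ZMod N)ˣ) B e * s59t_E0 ⊤ B e = s59t_E0 ⊤ B e ∧
      s59t_E0 (⊤ : Subgroup (ZMod N)ˣ) B e ≠ 0 ∧
      (∀ x ∈ s59t_goodB N B, ∃ k : ℕ,
        ∀ y : s48h_Hpar 𝒪 (s48h_GammaH N (⊤ : Subgroup (ZMod N)ˣ)) 𝒪,
        ((s59w_op (⊤ : Subgroup (ZMod N)ˣ) 𝒪 x - s59t_cB (𝒪 := 𝒪) N (fun ℓ => W.apOfModel ℓ) x •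
          (1 : Module.End 𝒪 (s48h_Hpar 𝒪 (s48h_GammaH N (⊤ : Subgroup (ZMod N)ˣ)) 𝒪))) ^ k)
          (s59t_E0 ⊤ B e y) ∈
          (maximalIdeal 𝒪 • ⊤ :
            Submodule 𝒪 (s48h_Hpar 𝒪 (s48h_GammaH N (⊤ : Subgroup (ZMod N)ˣ)) 𝒪))) ∧
      -- the comparison `(N, ⊤) ← (N, H)`
      s59t_TWFull (le_refl (Gamma0 N)) (s59t_GammaH_mono (le_top : H ≤ ⊤))
        (⊤ : Subgroup (s59t_Delta N H)) (⊥ : Subgroup (s59t_Delta N H))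
        (s59t_E0 (⊤ : Subgroup (ZMod N)ˣ) B e) (s59t_E0 H B e) := by
  classical
  haveI : CharP (ResidueField 𝒪) p := s59e_charP_residue p hp𝒪
  have hpP : p.Prime := Fact.out
  have hp2 : p ≠ 2 := by
    rintro rfl
    exact absurd hp12 (by decide)
  obtain ⟨i₀, hi₀, hnE⟩ := s59u_W_exists_nonEis_idx W hΔ p hp2 hirr (𝒪 := 𝒪) hp𝒪 B N
  exact s59t_base_pkg p H B (fun ℓ => W.apOfModel ℓ) hp12 hsq hnegH hH
    (s59u_W6_G0 (dvd_refl N) 𝒪 p hp𝒪 _ B hocc) i₀ hi₀ hnE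

variable (n : ℕ) {r : ℕ} (qv : Fin r → ℕ) [NeZero (∏ j, qv j)] [NeZero (N * ∏ j, qv j)]

include hirr hpB hgood in
/-- **the Taylor–Wiles arithmetic family for a general `W`** (`p ≠ 2` only): lifts `aq, bq` of the two distinct
Frobenius eigenvalues at the `qv j`, with `aq + bq ≡ a_q(W)`. -/
theorem s59u_W_TW_arith_fam (hp2 : p ≠ 2) (hqinj : Function.Injective qv)
    (hqv : ∀ i, (qv i).Prime ∧ qv i ∉ B ∧ p ^ (n + 1) ∣ qv i - 1)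
    (hTW : ∀ i, ∀ A : ValuationSubring (AlgebraicClosure ℚ), A.LiesOverPrime (qv i) →
      ∀ φ : Γℚ, A.IsFrobeniusAt φ (qv i) →
        ∃ α β : ResidueField 𝒪, α ≠ β ∧
          LinearMap.charpoly ((((s59b_rhoW W p hΔ).baseChangeAlong
            (algebraMap ℤ_[p] 𝒪) (s59b_isLocalHom_padic p _ hp𝒪)).residual).ρ φ) =
            (X - C α) * (X - C β)) :
    ∃ aq bq : ℕ → 𝒪,
      (∀ j, IsUnit (bq (qv j) - aq (qv j)) ∧
        ((qv j : ℕ) : 𝒪) - aq (qv j) * bq (qv j) ∈ maximalIdeal 𝒪 ∧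
        IsUnit (1 - aq (qv j) ^ 2) ∧ IsUnit (1 - bq (qv j) ^ 2)) ∧
      (∀ j, aq (qv j) + bq (qv j) - ((W.apOfModel (qv j) : ℤ) : 𝒪) ∈ maximalIdeal 𝒪) := by
  classical
  have hpP : p.Prime := Fact.out
  have hq : ∀ i, (qv i).Prime := fun i => (hqv i).1
  have hqB : ∀ i, qv i ∉ B := fun i => (hqv i).2.1
  have hqp : ∀ j, qv j ≠ p := fun j h => hqB j (h ▸ hpB)
  have hex : ∀ j, ∃ a b : 𝒪, (IsUnit (b - a) ∧ ((qv j : ℕ) : 𝒪) - a * b ∈ maximalIdeal 𝒪 ∧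
      IsUnit (1 - a ^ 2) ∧ IsUnit (1 - b ^ 2)) ∧
      a + b - ((W.apOfModel (qv j) : ℤ) : 𝒪) ∈ maximalIdeal 𝒪 := by
    intro j
    obtain ⟨A, hA⟩ := Fermat.Agent.Lib.Frobenius.exists_liesOverPrime (qv j) (hq j)
    obtain ⟨φ, hφ⟩ :=
      Fermat.Agent.Lib.Frobenius.exists_isFrobeniusAt_of_liesOverPrime A (qv j) (hq j) hA
    obtain ⟨α, β, hne, hcp⟩ := hTW j A hA φ hφ
    obtain ⟨a, ha⟩ := residue_surjective α
    obtain ⟨b, hb⟩ := residue_surjective β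
    have hq1 : p ∣ qv j - 1 := (dvd_pow_self p (Nat.succ_ne_zero n)).trans (hqv j).2.2
    obtain ⟨h1, h2, h3, h4, h5⟩ := s59b_TW_arith (𝒪 := 𝒪) hΔ hp2 hirr hp𝒪 (qv j) (hq j)
      (hqp j) (hgood _ (hq j) (hqB j)) hq1 A hA φ hφ α β hne hcp a b ha hb
    exact ⟨a, b, ⟨h1, h2, h3, h4⟩, h5⟩
  choose av bv hav hab using hex
  obtain ⟨aq, haqd⟩ : ∃ aq : ℕ → 𝒪, aq = fun q => if h : ∃ j, qv j = q then av h.choose else 0 :=
    ⟨_, rfl⟩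
  obtain ⟨bq, hbqd⟩ : ∃ bq : ℕ → 𝒪, bq = fun q => if h : ∃ j, qv j = q then bv h.choose else 0 :=
    ⟨_, rfl⟩
  have haq : ∀ j, aq (qv j) = av j := by
    intro j
    have h : ∃ j', qv j' = qv j := ⟨j, rfl⟩
    rw [haqd]
    show (if h : ∃ j', qv j' = qv j then av h.choose else 0) = av j
    rw [dif_pos h]
    exact congrArg av (hqinj h.choose_spec)
  have hbq : ∀ j, bq (qv j) = bv j := by
    intro j
    have h : ∃ j', qv j' = qv j := ⟨j, rfl⟩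
    rw [hbqd]
    show (if h : ∃ j', qv j' = qv j then bv h.choose else 0) = bv j
    rw [dif_pos h]
    exact congrArg bv (hqinj h.choose_spec)
  refine ⟨aq, bq, fun j => ?_, fun j => ?_⟩
  · rw [haq, hbq]
    exact hav j
  · rw [haq, hbq]
    exact hab j

include hΔ hirr hsq hpB hNB hgood hocc hp𝒪 hnegH hH in
set_option maxHeartbeats 1600000 in
/-- **the level package for a general `W`**: the Taylor–Wiles arithmetic `aq, bq` and the conclusion of helper8's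
`s59t_level_pkg`, verbatim. -/
theorem s59u_W_level_pkg (hp12 : Nat.Coprime p 12) (hN1 : 1 < N) (S37 : s59b_S37H N H)
    (hqinj : Function.Injective qv)
    (hqv : ∀ i, (qv i).Prime ∧ qv i ∉ B ∧ p ^ (n + 1) ∣ qv i - 1)
    (hTW : ∀ i, ∀ A : ValuationSubring (AlgebraicClosure ℚ), A.LiesOverPrime (qv i) →
      ∀ φ : Γℚ, A.IsFrobeniusAt φ (qv i) →
        ∃ α β : ResidueField 𝒪, α ≠ β ∧
          LinearMap.charpoly ((((s59b_rhoW W p hΔ).baseChangeAlong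
            (algebraMap ℤ_[p] 𝒪) (s59b_isLocalHom_padic p _ hp𝒪)).residual).ρ φ) =
            (X - C α) * (X - C β))
    (e : MvPolynomial ↥(s59t_goodB N B) 𝒪)
    (h1e : 1 - e ∈ s59t_evalIdeal (fun x : ↥(s59t_goodB N B) =>
      s59t_cB (𝒪 := 𝒪) N (fun ℓ => W.apOfModel ℓ) (x : s59w_AIdx N)))
    (hid : s59t_E0 H B e * s59t_E0 H B e = s59t_E0 H B e)
    (hnil : ∀ x ∈ s59t_goodB N B, ∃ k : ℕ, ∀ y : s48h_Hpar 𝒪 (s48h_GammaH N H) 𝒪,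
      ((s59w_op H 𝒪 x - s59t_cB (𝒪 := 𝒪) N (fun ℓ => W.apOfModel ℓ) x •
        (1 : Module.End 𝒪 (s48h_Hpar 𝒪 (s48h_GammaH N H) 𝒪))) ^ k)
        (s59t_E0 H B e y) ∈
        (maximalIdeal 𝒪 • ⊤ : Submodule 𝒪 (s48h_Hpar 𝒪 (s48h_GammaH N H) 𝒪))) :
    ∃ aq bq : ℕ → 𝒪,
      (∀ j, IsUnit (bq (qv j) - aq (qv j)) ∧
        ((qv j : ℕ) : 𝒪) - aq (qv j) * bq (qv j) ∈ maximalIdeal 𝒪 ∧
        IsUnit (1 - aq (qv j) ^ 2) ∧ IsUnit (1 - bq (qv j) ^ 2)) ∧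
      (∀ j, aq (qv j) + bq (qv j) - ((W.apOfModel (qv j) : ℤ) : 𝒪) ∈
        maximalIdeal 𝒪) ∧
    ∃ (e₀ : MvPolynomial ↥(s59t_goodB (N * ∏ j, qv j) B) 𝒪)
      (G : MvPolynomial (s59w_AIdx (N * ∏ j, qv j) ⊕ ℕ) 𝒪),
      1 - e₀ ∈ s59t_evalIdeal (fun x : ↥(s59t_goodB (N * ∏ j, qv j) B) =>
        s59t_cB (𝒪 := 𝒪) (N * ∏ j, qv j) (fun ℓ => W.apOfModel ℓ) x) ∧
      -- invertibility of everything outside the maximal ideal, on the `ε'`-part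
      (∀ t : MvPolynomial ↥(s59t_goodB (N * ∏ j, qv j) B) 𝒪,
        t ∉ s59t_evalIdeal (fun x : ↥(s59t_goodB (N * ∏ j, qv j) B) =>
          s59t_cB (𝒪 := 𝒪) (N * ∏ j, qv j) (fun ℓ => W.apOfModel ℓ) x) →
        ∃ η : MvPolynomial ↥(s59t_goodB (N * ∏ j, qv j) B) 𝒪,
          s59t_actH (N * ∏ j, qv j) aq (dvd_refl _)
            (s59t_Hmul N (∏ j, qv j) H (s59t_KQ (p ^ n) qv))
            (s59t_jG 𝒪 (s59t_goodB (N * ∏ j, qv j) B) (η * t) *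
              (G * s59t_jG 𝒪 (s59t_goodB (N * ∏ j, qv j) B) e₀)) =
          s59t_actH (N * ∏ j, qv j) aq (dvd_refl _)
            (s59t_Hmul N (∏ j, qv j) H (s59t_KQ (p ^ n) qv))
            (G * s59t_jG 𝒪 (s59t_goodB (N * ∏ j, qv j) B) e₀)) ∧
      -- the Taylor–Wiles level `(N', H')`
      s59t_actH (N * ∏ j, qv j) aq (dvd_refl _) (s59t_Hmul N (∏ j, qv j) H (s59t_KQ (p ^ n) qv))
          (G * s59t_jG 𝒪 (s59t_goodB (N * ∏ j, qv j) B) e₀) *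
        s59t_actH (N * ∏ j, qv j) aq (dvd_refl _)
          (s59t_Hmul N (∏ j, qv j) H (s59t_KQ (p ^ n) qv))
          (G * s59t_jG 𝒪 (s59t_goodB (N * ∏ j, qv j) B) e₀) =
        s59t_actH (N * ∏ j, qv j) aq (dvd_refl _)
          (s59t_Hmul N (∏ j, qv j) H (s59t_KQ (p ^ n) qv))
          (G * s59t_jG 𝒪 (s59t_goodB (N * ∏ j, qv j) B) e₀) ∧
      (∀ x ∈ s59t_goodB (N * ∏ j, qv j) B, ∃ k : ℕ,
        ∀ y : s48h_Hpar 𝒪 (s48h_GammaH (N * ∏ j, qv j)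
          (s59t_Hmul N (∏ j, qv j) H (s59t_KQ (p ^ n) qv))) 𝒪,
        ((s59w_op (s59t_Hmul N (∏ j, qv j) H (s59t_KQ (p ^ n) qv)) 𝒪 x -
          s59t_cB (𝒪 := 𝒪) (N * ∏ j, qv j) (fun ℓ => W.apOfModel ℓ) x •
            (1 : Module.End 𝒪 (s48h_Hpar 𝒪 (s48h_GammaH (N * ∏ j, qv j)
              (s59t_Hmul N (∏ j, qv j) H (s59t_KQ (p ^ n) qv))) 𝒪))) ^ k)
          (s59t_actH (N * ∏ j, qv j) aq (dvd_refl _)
            (s59t_Hmul N (∏ j, qv j) H (s59t_KQ (p ^ n) qv))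
            (G * s59t_jG 𝒪 (s59t_goodB (N * ∏ j, qv j) B) e₀) y) ∈
          (maximalIdeal 𝒪 • ⊤ : Submodule 𝒪 (s48h_Hpar 𝒪 (s48h_GammaH (N * ∏ j, qv j)
              (s59t_Hmul N (∏ j, qv j) H (s59t_KQ (p ^ n) qv))) 𝒪))) ∧
      s59t_TWFull (s59t_Gamma0_anti (s59t_dvd_mul_left' N (∏ j, qv j)))
        (s59t_GammaHmul_le (N := N) (D := ∏ j, qv j) (H := H) (K := s59t_KQ (p ^ n) qv))
        (s59t_BQ N (∏ j, qv j) H (s59t_KQ (p ^ n) qv))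
        (s59t_CQ N (∏ j, qv j) H (s59t_KQ (p ^ n) qv))
        (s59t_E0 H B e)
        (s59t_actH (N * ∏ j, qv j) aq (dvd_refl _)
          (s59t_Hmul N (∏ j, qv j) H (s59t_KQ (p ^ n) qv))
          (G * s59t_jG 𝒪 (s59t_goodB (N * ∏ j, qv j) B) e₀)) ∧
      -- the type-1 level `(N', H₂')`, same polynomial
      s59t_actH (N * ∏ j, qv j) aq (dvd_refl _) (s59t_Hmul N (∏ j, qv j) ⊤ (s59t_KQ (p ^ n) qv))
          (G * s59t_jG 𝒪 (s59t_goodB (N * ∏ j, qv j) B) e₀) *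
        s59t_actH (N * ∏ j, qv j) aq (dvd_refl _)
          (s59t_Hmul N (∏ j, qv j) ⊤ (s59t_KQ (p ^ n) qv))
          (G * s59t_jG 𝒪 (s59t_goodB (N * ∏ j, qv j) B) e₀) =
        s59t_actH (N * ∏ j, qv j) aq (dvd_refl _)
          (s59t_Hmul N (∏ j, qv j) ⊤ (s59t_KQ (p ^ n) qv))
          (G * s59t_jG 𝒪 (s59t_goodB (N * ∏ j, qv j) B) e₀) ∧
      (∀ x ∈ s59t_goodB (N * ∏ j, qv j) B, ∃ k : ℕ,
        ∀ y : s48h_Hpar 𝒪 (s48h_GammaH (N * ∏ j, qv j)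
          (s59t_Hmul N (∏ j, qv j) ⊤ (s59t_KQ (p ^ n) qv))) 𝒪,
        ((s59w_op (s59t_Hmul N (∏ j, qv j) ⊤ (s59t_KQ (p ^ n) qv)) 𝒪 x -
          s59t_cB (𝒪 := 𝒪) (N * ∏ j, qv j) (fun ℓ => W.apOfModel ℓ) x •
            (1 : Module.End 𝒪 (s48h_Hpar 𝒪 (s48h_GammaH (N * ∏ j, qv j)
              (s59t_Hmul N (∏ j, qv j) ⊤ (s59t_KQ (p ^ n) qv))) 𝒪))) ^ k)
          (s59t_actH (N * ∏ j, qv j) aq (dvd_refl _)
            (s59t_Hmul N (∏ j, qv j) ⊤ (s59t_KQ (p ^ n) qv))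
            (G * s59t_jG 𝒪 (s59t_goodB (N * ∏ j, qv j) B) e₀) y) ∈
          (maximalIdeal 𝒪 • ⊤ : Submodule 𝒪 (s48h_Hpar 𝒪 (s48h_GammaH (N * ∏ j, qv j)
              (s59t_Hmul N (∏ j, qv j) ⊤ (s59t_KQ (p ^ n) qv))) 𝒪))) ∧
      s59t_TWFull (le_refl (Gamma0 (N * ∏ j, qv j)))
        (s59t_GammaH_mono (s59t_Hmul_le_top (N := N) (D := ∏ j, qv j) (H := H)
          (K := s59t_KQ (p ^ n) qv)))
        (s59t_CQ N (∏ j, qv j) H (s59t_KQ (p ^ n) qv))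
        (s59t_BQ N (∏ j, qv j) H (s59t_KQ (p ^ n) qv))
        (s59t_actH (N * ∏ j, qv j) aq (dvd_refl _)
          (s59t_Hmul N (∏ j, qv j) ⊤ (s59t_KQ (p ^ n) qv))
          (G * s59t_jG 𝒪 (s59t_goodB (N * ∏ j, qv j) B) e₀))
        (s59t_actH (N * ∏ j, qv j) aq (dvd_refl _)
          (s59t_Hmul N (∏ j, qv j) H (s59t_KQ (p ^ n) qv))
          (G * s59t_jG 𝒪 (s59t_goodB (N * ∏ j, qv j) B) e₀)) := by
  classical
  haveI : CharP (ResidueField 𝒪) p := s59e_charP_residue p hp𝒪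
  have hpP : p.Prime := Fact.out
  have hp2 : p ≠ 2 := by
    rintro rfl
    exact absurd hp12 (by decide)
  have hq : ∀ i, (qv i).Prime := fun i => (hqv i).1
  have hqB : ∀ i, qv i ∉ B := fun i => (hqv i).2.1
  have hqp : ∀ j, qv j ≠ p := fun j h => hqB j (h ▸ hpB)
  obtain ⟨aq, bq, harith, hcong⟩ :=
    s59u_W_TW_arith_fam W hΔ p hirr B hpB hgood (𝒪 := 𝒪) hp𝒪 n qv hp2 hqinj hqv hTW
  refine ⟨aq, bq, harith, hcong, ?_⟩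
  -- the level package
  have hsq' := s59u_squarefree_level qv hsq hNB hq hqB hqinj
  have hcop := s59u_coprime_prod_qv qv hNB hq hqB
  obtain ⟨i₀, hi₀, hnE⟩ :=
    s59u_W_exists_nonEis_idx W hΔ p hp2 hirr (𝒪 := 𝒪) hp𝒪 B (N * ∏ j, qv j)
  refine s59t_level_pkg p H B (fun ℓ => W.apOfModel ℓ) n qv hp12 hsq hsq' S37 hN1
    hnegH hp𝒪 hpB hH (s59u_W6 (dvd_refl N) H 𝒪 p hp𝒪 _ B hocc)
    (s59u_W6_G0 (dvd_refl N) 𝒪 p hp𝒪 _ B hocc) hcop hqinj hq aq bq harith i₀ hi₀ hnE ?_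
    e h1e hid hnil
  -- (TQ)
  intro M hM q hqL _ hqM e₀ h1e₀ hid₀ hnil₀
  obtain ⟨j, rfl⟩ : ∃ j, qv j = q := by
    rw [List.mem_ofFn] at hqL
    exact hqL
  exact s59b_TQ_good p hp2 hp𝒪 aq bq W hΔ (s59t_goodB (N * ∏ j, qv j) B)
    (s59t_cB (𝒪 := 𝒪) (N * ∏ j, qv j) (fun ℓ => W.apOfModel ℓ)) B
    (fun i hi => ⟨i, rfl, hi⟩)
    (fun i hi => by
      show ((W.apOfModel i.ell : ℤ) : 𝒪) - _ ∈ _
      rw [sub_self]
      exact Ideal.zero_mem _)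
    M hM e₀ hnil₀ (qv j) hqM (hqp j) (hgood _ (hq j) (hqB j)) (hcong j)

end WPkg

section Grp

variable (p : ℕ) [Fact p.Prime] (N : ℕ) [NeZero N] (hsq : Squarefree N)
  (B : Finset ℕ) (hNB : ∀ q : ℕ, q.Prime → q ∣ N → q ∈ B)
  (H : Subgroup (ZMod N)ˣ)
  (n : ℕ) {r : ℕ} (qv : Fin r → ℕ) [NeZero (∏ j, qv j)] [NeZero (N * ∏ j, qv j)]

include hsq hNB in
/-- **the group theory of the Taylor–Wiles level** (no curve, any prime `p`): `C_Q × B_Q ≃ Δ'` (the `hCB` of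
`s59e_TLevel_abs`) and helper8's presentation of `B_Q ≅ (ℤ/pⁿ)^r` with LOCAL generators. -/
theorem s59u_W_level_grp (hqinj : Function.Injective qv)
    (hqv : ∀ i, (qv i).Prime ∧ qv i ∉ B ∧ p ^ (n + 1) ∣ qv i - 1) :
    Function.Bijective (fun x : s59t_CQ N (∏ j, qv j) H (s59t_KQ (p ^ n) qv) ×
        s59t_BQ N (∏ j, qv j) H (s59t_KQ (p ^ n) qv) =>
      ((x.1 : s59t_Delta (N * ∏ j, qv j) (s59t_Hmul N (∏ j, qv j) H (s59t_KQ (p ^ n) qv))) *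
        (x.2 : s59t_Delta (N * ∏ j, qv j) (s59t_Hmul N (∏ j, qv j) H (s59t_KQ (p ^ n) qv))))) ∧
    ∃ g : Fin r → s59t_BQ N (∏ j, qv j) H (s59t_KQ (p ^ n) qv),
      Nat.card (s59t_BQ N (∏ j, qv j) H (s59t_KQ (p ^ n) qv)) = (p ^ n) ^ r ∧
      (∀ x : s59t_BQ N (∏ j, qv j) H (s59t_KQ (p ^ n) qv), ∃ a : Fin r → ℕ,
        x = ∏ i, g i ^ a i) ∧
      (∀ i, g i ^ (p ^ n) = 1) ∧
      ∀ i, ∃ τ : Gamma0 (N * ∏ j, qv j),
        (QuotientGroup.mk τ : s59t_Delta (N * ∏ j, qv j)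
          (s59t_Hmul N (∏ j, qv j) H (s59t_KQ (p ^ n) qv))) = (g i : s59t_Delta (N * ∏ j, qv j)
          (s59t_Hmul N (∏ j, qv j) H (s59t_KQ (p ^ n) qv))) ∧
        ZMod.unitsMap (Nat.div_dvd_of_dvd (s59t_qv_dvd_level qv N i))
          (s59t_unitHom (N * ∏ j, qv j) τ) = 1 := by
  classical
  have hpP : p.Prime := Fact.out
  have hq : ∀ i, (qv i).Prime := fun i => (hqv i).1
  have hqB : ∀ i, qv i ∉ B := fun i => (hqv i).2.1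
  have hsq' := s59u_squarefree_level qv hsq hNB hq hqB hqinj
  have hcop := s59u_coprime_prod_qv qv hNB hq hqB
  refine ⟨?_, s59t_BQ_pres_local (p ^ n) qv hq hqinj
    (fun i => (pow_dvd_pow p (Nat.le_succ n)).trans (hqv i).2.2) (pow_ne_zero n hpP.ne_zero)
    N H hsq' hcop⟩
  have h := s59t_BQ_CQ_bijective (N := N) (D := ∏ j, qv j) (H := H) (K := s59t_KQ (p ^ n) qv) hcop
  have h2 : (fun x : s59t_CQ N (∏ j, qv j) H (s59t_KQ (p ^ n) qv) ×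
        s59t_BQ N (∏ j, qv j) H (s59t_KQ (p ^ n) qv) =>
      ((x.1 : s59t_Delta (N * ∏ j, qv j) (s59t_Hmul N (∏ j, qv j) H (s59t_KQ (p ^ n) qv))) *
        (x.2 : s59t_Delta (N * ∏ j, qv j) (s59t_Hmul N (∏ j, qv j) H (s59t_KQ (p ^ n) qv))))) =
      (fun x : s59t_BQ N (∏ j, qv j) H (s59t_KQ (p ^ n) qv) ×
        s59t_CQ N (∏ j, qv j) H (s59t_KQ (p ^ n) qv) =>
      ((x.1 : s59t_Delta (N * ∏ j, qv j) (s59t_Hmul N (∏ j, qv j) H (s59t_KQ (p ^ n) qv))) *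
        (x.2 : s59t_Delta (N * ∏ j, qv j) (s59t_Hmul N (∏ j, qv j) H (s59t_KQ (p ^ n) qv))))) ∘
        (Equiv.prodComm _ _) := by
    funext x
    exact mul_comm _ _
  rw [h2]
  exact h.comp (Equiv.bijective _)

end Grp

end Fermat.Agent.Lib.S59
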