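/-
PROGRAMME (R2) (helper3, prefix `s59u_W_`): **W-GENERAL copy of `UFreyT1.lean`** (type 1 at the Taylor–Wiles level):
an arbitrary integral Weierstrass model `W` with `W.Δ ≠ 0`, `W.ModRepIsIrreducible p`, `p ≠ 2` (NO `hp12`, so `p = 3` is
allowed) replaces the Frey curve.  Frey-specific inputs become hypotheses: `hsq : Squarefree N`, `hpB : p ∈ B`,
`hNB : ∀ q prime, q ∣ N → q ∈ B`, `hgood : ∀ q prime, q ∉ B → W.IsGoodPrimeFor q`.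

* `s59u_W_absIrr` : the residual representation of `ρ_W ⊗ 𝒪` is absolutely irreducible (first half of helper2's
  `s59b_TW_of_unip`, which needs no unipotent element);
* `s59u_W_type1`  : the conclusion of `s59u_frey_type1` VERBATIM (with `W`, `p`).
-/
import Mathlib
import Fermat.Agent.Lib.S59.UFreyT1
import Fermat.Agent.Lib.S59.UWPkg

set_option autoImplicit false
set_option linter.unusedSectionVars false
set_option linter.unusedVariables false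
set_option linter.style.haveILetI false
set_option synthInstance.maxHeartbeats 400000
set_option maxHeartbeats 1000000

noncomputable section

namespace Fermat.Agent.Lib.S59

open Matrix MatrixGroups CongruenceSubgroup IsLocalRing Polynomial CuspForm
open WeierstrassCurve WeierstrassCurve.Affine WeierstrassCurve.Affine.Point
open Fermat.Agent.Lib.S29 Fermat.Agent.Lib.S48 Fermat.Agent.Lib.S41 Fermat.Agent.Lib.S44
open Fermat.Agent.Lib.S30 Fermat.Agent.Lib.S58 Fermat.Agent.Lib.S56 ExtCitation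

local notation "Γℚ" => (AlgebraicClosure ℚ ≃ₐ[ℚ] AlgebraicClosure ℚ)
local notation "Qbar" => AlgebraicClosure ℚ

/-- **absolute irreducibility of the residual representation of `ρ_W ⊗ 𝒪`** (`p ≠ 2`, `W[p]` irreducible). -/
theorem s59u_W_absIrr (W : WeierstrassCurve ℤ) (hΔ : W.Δ ≠ 0) (p : ℕ) [hp : Fact p.Prime] (hp2 : p ≠ 2)
    (hirr : W.ModRepIsIrreducible p)
    {𝒪 : Type} [CommRing 𝒪] [IsLocalRing 𝒪] (φ : ℤ_[p] →+* 𝒪) (hφ : IsLocalHom φ) :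
    ((s59b_rhoW W p hΔ).baseChangeAlong φ hφ).residual.IsAbsolutelyIrreducible := by
  have hpp : p.Prime := hp.out
  set ρ₀ := s59b_rhoW W p hΔ with hρ₀
  have hdet₀ : ρ₀.DetIsCyclotomic p := s59b_rhoW_detCyc hΔ hp2 hirr
  set ρ := ρ₀.baseChangeAlong φ hφ with hρ
  have hdet : ρ.DetIsCyclotomic p := s59e_bc_detCyc φ hφ ρ₀ p hdet₀
  haveI : CharP (ResidueField 𝒪) p := s59e_charP_residue p hdet.1
  haveI hc₀ : CharP (ResidueField ℤ_[p]) p := s59e_charP_residue p hdet₀.1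
  have h2 : (2 : ResidueField ℤ_[p]) ≠ 0 := by
    intro h0
    have h1 : ((2 : ℕ) : ResidueField ℤ_[p]) = 0 := by exact_mod_cast h0
    have := (CharP.cast_eq_zero_iff (ResidueField ℤ_[p]) p 2).mp h1
    have := (Nat.prime_dvd_prime_iff_eq hpp Nat.prime_two).mp this
    exact hp2 this
  have hdetc : LinearMap.det (ρ₀.residual.ρ complexConjugation) = -1 := by
    rw [s59e_residual_det p ρ₀ hdet₀ complexConjugation (p - 1)
      (fun μ hμ => s30y_conj_root p hpp.ne_zero μ hμ),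
      Nat.cast_sub hpp.one_le, CharP.cast_eq_zero, Nat.cast_one, zero_sub]
  have huniv : ∀ (K : Type) [Field K] [Algebra (ResidueField 𝒪) K],
      (ρ.residual.baseChange K).IsIrreducible := by
    intro K _ _
    apply s59e_residual_irr_transport φ hφ ρ₀ K
    haveI := hφ
    letI : Algebra (ResidueField ℤ_[p]) K :=
      ((algebraMap (ResidueField 𝒪) K).comp (ResidueField.map φ)).toAlgebra
    intro U hU
    exact s59e_univ_irr ρ₀.residual.ρ K h2 ρ₀.residual.finrank_eq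
      (s59e_rhoW_residual_irr hΔ hirr) complexConjugation complexConjugation_mul_self hdetc U hU
  exact huniv (AlgebraicClosure (ResidueField 𝒪))

section WT1

variable (W : WeierstrassCurve ℤ) (hΔ : W.Δ ≠ 0) (p : ℕ) [Fact p.Prime]
  (hirr : W.ModRepIsIrreducible p) (N : ℕ) [NeZero N] (hsq : Squarefree N)
  (B : Finset ℕ) (hpB : p ∈ B) (hNB : ∀ q : ℕ, q.Prime → q ∣ N → q ∈ B)
  (hgood : ∀ q : ℕ, q.Prime → q ∉ B → W.IsGoodPrimeFor q)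
  {𝒪 : Type} [CommRing 𝒪] [IsDomain 𝒪] [IsDiscreteValuationRing 𝒪]
  [IsAdicComplete (maximalIdeal 𝒪) 𝒪] [Finite (ResidueField 𝒪)] [CharZero 𝒪]
  [Algebra ℤ_[p] 𝒪] (hp𝒪 : ((p : ℕ) : 𝒪) ∈ maximalIdeal 𝒪)
  (H : Subgroup (ZMod N)ˣ)
  (n v : ℕ) {r : ℕ} (qv : Fin r → ℕ) [NeZero (∏ j, qv j)] [NeZero (N * ∏ j, qv j)]

include hΔ hirr hsq hpB hNB hgood hp𝒪 in
set_option maxHeartbeats 1600000 in
/-- **(B4) for a general `W`**: `θ(tr ρ₀ σ) − 2` and `θ(det ρ₀ σ) − 1` annihilate the `C_Q`-invariants of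
`Y' = range ε'`, for `σ` in an inertia group at a prime `q ∣ N`, `q ≠ p`. -/
theorem s59u_W_type1 (hp2 : p ≠ 2) (hqinj : Function.Injective qv)
    (hqv : ∀ i, (qv i).Prime ∧ qv i ∉ B ∧ p ^ (n + 1) ∣ qv i - 1)
    (aq : ℕ → 𝒪) (t' : MvPolynomial (s59w_AIdx (N * ∏ j, qv j) ⊕ ℕ) 𝒪)
    -- the Taylor–Wiles level `(N', H')`
    (hid' : s59t_actH (N * ∏ j, qv j) aq (dvd_refl _)
        (s59t_Hmul N (∏ j, qv j) H (s59t_KQ (p ^ n) qv)) t' *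
      s59t_actH (N * ∏ j, qv j) aq (dvd_refl _)
        (s59t_Hmul N (∏ j, qv j) H (s59t_KQ (p ^ n) qv)) t' =
      s59t_actH (N * ∏ j, qv j) aq (dvd_refl _)
        (s59t_Hmul N (∏ j, qv j) H (s59t_KQ (p ^ n) qv)) t')
    (hε0 : s59t_actH (N * ∏ j, qv j) aq (dvd_refl _)
        (s59t_Hmul N (∏ j, qv j) H (s59t_KQ (p ^ n) qv)) t' ≠ 0)
    -- the type-1 level `(N', H₂')`, same polynomial
    (hid₂ : s59t_actH (N * ∏ j, qv j) aq (dvd_refl _)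
        (s59t_Hmul N (∏ j, qv j) ⊤ (s59t_KQ (p ^ n) qv)) t' *
      s59t_actH (N * ∏ j, qv j) aq (dvd_refl _)
        (s59t_Hmul N (∏ j, qv j) ⊤ (s59t_KQ (p ^ n) qv)) t' =
      s59t_actH (N * ∏ j, qv j) aq (dvd_refl _)
        (s59t_Hmul N (∏ j, qv j) ⊤ (s59t_KQ (p ^ n) qv)) t')
    (hnil₂ : ∀ x ∈ s59t_goodB (N * ∏ j, qv j) B, ∃ k : ℕ,
      ∀ y : s48h_Hpar 𝒪 (s48h_GammaH (N * ∏ j, qv j)
        (s59t_Hmul N (∏ j, qv j) ⊤ (s59t_KQ (p ^ n) qv))) 𝒪,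
      ((s59w_op (s59t_Hmul N (∏ j, qv j) ⊤ (s59t_KQ (p ^ n) qv)) 𝒪 x -
        s59t_cB (𝒪 := 𝒪) (N * ∏ j, qv j) (fun ℓ => W.apOfModel ℓ) x •
          (1 : Module.End 𝒪 (s48h_Hpar 𝒪 (s48h_GammaH (N * ∏ j, qv j)
            (s59t_Hmul N (∏ j, qv j) ⊤ (s59t_KQ (p ^ n) qv))) 𝒪))) ^ k)
        (s59t_actH (N * ∏ j, qv j) aq (dvd_refl _)
          (s59t_Hmul N (∏ j, qv j) ⊤ (s59t_KQ (p ^ n) qv)) t' y) ∈
        (maximalIdeal 𝒪 • ⊤ : Submodule 𝒪 (s48h_Hpar 𝒪 (s48h_GammaH (N * ∏ j, qv j)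
            (s59t_Hmul N (∏ j, qv j) ⊤ (s59t_KQ (p ^ n) qv))) 𝒪)))
    (hfull₂ : s59t_TWFull (le_refl (Gamma0 (N * ∏ j, qv j)))
      (s59t_GammaH_mono (s59t_Hmul_le_top (N := N) (D := ∏ j, qv j) (H := H)
        (K := s59t_KQ (p ^ n) qv)))
      (s59t_CQ N (∏ j, qv j) H (s59t_KQ (p ^ n) qv))
      (s59t_BQ N (∏ j, qv j) H (s59t_KQ (p ^ n) qv))
      (s59t_actH (N * ∏ j, qv j) aq (dvd_refl _)
        (s59t_Hmul N (∏ j, qv j) ⊤ (s59t_KQ (p ^ n) qv)) t')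
      (s59t_actH (N * ∏ j, qv j) aq (dvd_refl _)
        (s59t_Hmul N (∏ j, qv j) H (s59t_KQ (p ^ n) qv)) t'))
    -- the (B2) data at `(N', H')`
    (Sn : Finset ℕ) (hBS : B ⊆ Sn) (hqS : ∀ i, qv i ∈ Sn)
    (Mn : ℕ) [NeZero Mn] (hSn₁ : ∀ q : ℕ, q.Prime → q ∣ Mn → q ∈ Sn)
    (a₁ : heckeAlgebra Mn 2 (↑Sn : Set ℕ) →+*
      Module.End 𝒪 (s48h_Hpar 𝒪 (s48h_GammaH (N * ∏ j, qv j)
        (s59t_Hmul N (∏ j, qv j) H (s59t_KQ (p ^ n) qv))) 𝒪))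
    (ha₁ : ∀ (ℓ : ℕ) (hℓ : ℓ.Prime) (hℓN : ¬ ℓ ∣ Mn) (hℓS : ℓ ∉ (↑Sn : Set ℕ))
      (i : s59w_TIdx (N * ∏ j, qv j)), i.ell = ℓ →
      a₁ (heckeAlgebra.T hℓ hℓN hℓS) =
        s59e_Tp' (s59t_Hmul N (∏ j, qv j) H (s59t_KQ (p ^ n) qv)) 𝒪
          ((p ^ (v + n) - 1) * ((p ^ (v + n) + 1) / 2)) i)
    (aM : heckeAlgebra Mn 2 (↑Sn : Set ℕ) →+* Module.End 𝒪 (LinearMap.range
      (s59t_actH (N * ∏ j, qv j) aq (dvd_refl _)
        (s59t_Hmul N (∏ j, qv j) H (s59t_KQ (p ^ n) qv)) t')))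
    (haM : ∀ t (z : LinearMap.range (s59t_actH (N * ∏ j, qv j) aq (dvd_refl _)
        (s59t_Hmul N (∏ j, qv j) H (s59t_KQ (p ^ n) qv)) t')),
      ((aM t z : LinearMap.range (s59t_actH (N * ∏ j, qv j) aq (dvd_refl _)
        (s59t_Hmul N (∏ j, qv j) H (s59t_KQ (p ^ n) qv)) t')) :
        s48h_Hpar 𝒪 (s48h_GammaH (N * ∏ j, qv j)
          (s59t_Hmul N (∏ j, qv j) H (s59t_KQ (p ^ n) qv))) 𝒪) =
        a₁ t (z : s48h_Hpar 𝒪 (s48h_GammaH (N * ∏ j, qv j)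
          (s59t_Hmul N (∏ j, qv j) H (s59t_KQ (p ^ n) qv))) 𝒪))
    [IsLocalRing (s59e_adj 𝒪 aM)]
    {A₀ : Type} [CommRing A₀] [IsLocalRing A₀] (ρ₀ : GaloisRepAdic A₀)
    (θ : A₀ →+* s59e_adj 𝒪 aM) (hθs : Function.Surjective θ)
    (hfrobT : ∀ ℓ : ℕ, ℓ.Prime → ℓ ∉ Sn →
      ∀ A' : ValuationSubring Qbar, A'.LiesOverPrime ℓ →
      ∀ τ : Γℚ, A'.IsFrobeniusAt τ ℓ →
        (LinearMap.charpoly (ρ₀.ρ τ)).map θ =
          X ^ 2 - C (s59e_tOf (𝒪 := 𝒪) (↑Sn : Set ℕ) aM ℓ) * X + C ((ℓ : s59e_adj 𝒪 aM)))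
    -- the diamonds on `Y' = range ε'`
    (hρ' : ∀ δ y, s59t_actH (N * ∏ j, qv j) aq (dvd_refl _)
        (s59t_Hmul N (∏ j, qv j) H (s59t_KQ (p ^ n) qv)) t'
        (s59t_rho (N * ∏ j, qv j) (s59t_Hmul N (∏ j, qv j) H (s59t_KQ (p ^ n) qv)) 𝒪 𝒪 δ y) =
      s59t_rho (N * ∏ j, qv j) (s59t_Hmul N (∏ j, qv j) H (s59t_KQ (p ^ n) qv)) 𝒪 𝒪 δ
        (s59t_actH (N * ∏ j, qv j) aq (dvd_refl _)
          (s59t_Hmul N (∏ j, qv j) H (s59t_KQ (p ^ n) qv)) t' y))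
    (hcomm : ∀ (t : heckeAlgebra Mn 2 (↑Sn : Set ℕ))
      (β : s59t_BQ N (∏ j, qv j) H (s59t_KQ (p ^ n) qv)),
      Commute (aM t) (((s59t_partRep (s59t_rho (N * ∏ j, qv j)
        (s59t_Hmul N (∏ j, qv j) H (s59t_KQ (p ^ n) qv)) 𝒪 𝒪) hρ').comp
          (s59t_BQ N (∏ j, qv j) H (s59t_KQ (p ^ n) qv)).subtype) β))
    (hTρ : ∀ (t : s59e_adj 𝒪 (s59e_aB aM
        ((s59t_partRep (s59t_rho (N * ∏ j, qv j)
          (s59t_Hmul N (∏ j, qv j) H (s59t_KQ (p ^ n) qv)) 𝒪 𝒪) hρ').comp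
          (s59t_BQ N (∏ j, qv j) H (s59t_KQ (p ^ n) qv)).subtype) hcomm))
      (δ : s59t_Delta (N * ∏ j, qv j) (s59t_Hmul N (∏ j, qv j) H (s59t_KQ (p ^ n) qv)))
      (y : LinearMap.range (s59t_actH (N * ∏ j, qv j) aq (dvd_refl _)
        (s59t_Hmul N (∏ j, qv j) H (s59t_KQ (p ^ n) qv)) t')),
      t • s59t_partRep (s59t_rho (N * ∏ j, qv j)
        (s59t_Hmul N (∏ j, qv j) H (s59t_KQ (p ^ n) qv)) 𝒪 𝒪) hρ' δ y =
        s59t_partRep (s59t_rho (N * ∏ j, qv j)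
          (s59t_Hmul N (∏ j, qv j) H (s59t_KQ (p ^ n) qv)) 𝒪 𝒪) hρ' δ (t • y))
    -- the prime `q ∣ N` and the inertia element
    (q : ℕ) (hq : q.Prime) (hqp : q ≠ p) (hqN : q ∣ N)
    (A : ValuationSubring Qbar) (hA : A.LiesOverPrime q) (σ : Γℚ)
    (hσ : σ ∈ A.inertiaSubgroupIn ℚ) :
    s59e_incl aM ((s59t_partRep (s59t_rho (N * ∏ j, qv j)
          (s59t_Hmul N (∏ j, qv j) H (s59t_KQ (p ^ n) qv)) 𝒪 𝒪) hρ').comp
          (s59t_BQ N (∏ j, qv j) H (s59t_KQ (p ^ n) qv)).subtype) hcomm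
        (θ (s59i_cpTr ρ₀ σ)) - 2 ∈
      Module.annihilator (s59e_adj 𝒪 (s59e_aB aM
          ((s59t_partRep (s59t_rho (N * ∏ j, qv j)
            (s59t_Hmul N (∏ j, qv j) H (s59t_KQ (p ^ n) qv)) 𝒪 𝒪) hρ').comp
            (s59t_BQ N (∏ j, qv j) H (s59t_KQ (p ^ n) qv)).subtype) hcomm))
        (s59t_EigT (𝒪 := 𝒪)
          (Δ := s59t_Delta (N * ∏ j, qv j) (s59t_Hmul N (∏ j, qv j) H (s59t_KQ (p ^ n) qv)))
          (M := ↥(LinearMap.range (s59t_actH (N * ∏ j, qv j) aq (dvd_refl _)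
            (s59t_Hmul N (∏ j, qv j) H (s59t_KQ (p ^ n) qv)) t')))
          (T := s59e_adj 𝒪 (s59e_aB aM
            ((s59t_partRep (s59t_rho (N * ∏ j, qv j)
              (s59t_Hmul N (∏ j, qv j) H (s59t_KQ (p ^ n) qv)) 𝒪 𝒪) hρ').comp
              (s59t_BQ N (∏ j, qv j) H (s59t_KQ (p ^ n) qv)).subtype) hcomm))
          (s59t_partRep (s59t_rho (N * ∏ j, qv j)
            (s59t_Hmul N (∏ j, qv j) H (s59t_KQ (p ^ n) qv)) 𝒪 𝒪) hρ')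
          (s59t_CQ N (∏ j, qv j) H (s59t_KQ (p ^ n) qv))
          (1 : s59t_Delta (N * ∏ j, qv j)
            (s59t_Hmul N (∏ j, qv j) H (s59t_KQ (p ^ n) qv)) →* 𝒪ˣ) hTρ) ∧
    s59e_incl aM ((s59t_partRep (s59t_rho (N * ∏ j, qv j)
          (s59t_Hmul N (∏ j, qv j) H (s59t_KQ (p ^ n) qv)) 𝒪 𝒪) hρ').comp
          (s59t_BQ N (∏ j, qv j) H (s59t_KQ (p ^ n) qv)).subtype) hcomm
        (θ (s59i_cpDt ρ₀ σ)) - 1 ∈
      Module.annihilator (s59e_adj 𝒪 (s59e_aB aM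
          ((s59t_partRep (s59t_rho (N * ∏ j, qv j)
            (s59t_Hmul N (∏ j, qv j) H (s59t_KQ (p ^ n) qv)) 𝒪 𝒪) hρ').comp
            (s59t_BQ N (∏ j, qv j) H (s59t_KQ (p ^ n) qv)).subtype) hcomm))
        (s59t_EigT (𝒪 := 𝒪)
          (Δ := s59t_Delta (N * ∏ j, qv j) (s59t_Hmul N (∏ j, qv j) H (s59t_KQ (p ^ n) qv)))
          (M := ↥(LinearMap.range (s59t_actH (N * ∏ j, qv j) aq (dvd_refl _)
            (s59t_Hmul N (∏ j, qv j) H (s59t_KQ (p ^ n) qv)) t')))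
          (T := s59e_adj 𝒪 (s59e_aB aM
            ((s59t_partRep (s59t_rho (N * ∏ j, qv j)
              (s59t_Hmul N (∏ j, qv j) H (s59t_KQ (p ^ n) qv)) 𝒪 𝒪) hρ').comp
              (s59t_BQ N (∏ j, qv j) H (s59t_KQ (p ^ n) qv)).subtype) hcomm))
          (s59t_partRep (s59t_rho (N * ∏ j, qv j)
            (s59t_Hmul N (∏ j, qv j) H (s59t_KQ (p ^ n) qv)) 𝒪 𝒪) hρ')
          (s59t_CQ N (∏ j, qv j) H (s59t_KQ (p ^ n) qv))
          (1 : s59t_Delta (N * ∏ j, qv j)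
            (s59t_Hmul N (∏ j, qv j) H (s59t_KQ (p ^ n) qv)) →* 𝒪ˣ) hTρ) := by
  classical
  have hpP : p.Prime := Fact.out
  have hqpr : ∀ i, (qv i).Prime := fun i => (hqv i).1
  have hqB : ∀ i, qv i ∉ B := fun i => (hqv i).2.1
  have hqvN : ∀ i, ¬ qv i ∣ N := s59u_qv_not_dvd qv hNB hqpr hqB
  have hmodirr : W.ModRepIsIrreducible p := hirr
  have habs := s59u_W_absIrr W hΔ p hp2 hirr (algebraMap ℤ_[p] 𝒪)
    (s59b_isLocalHom_padic p _ hp𝒪)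
  have hθ : IsLocalHom θ := s59u_isLocalHom_of_surj Sn aM θ hθs
  haveI : NeZero (N * ∏ q' ∈ Finset.univ.image qv, q' ^ 2) :=
    ⟨Nat.mul_ne_zero (NeZero.ne N) (Finset.prod_ne_zero_iff.2 fun q' hq' => by
      obtain ⟨i, -, rfl⟩ := Finset.mem_image.mp hq'
      exact pow_ne_zero 2 (hqpr i).ne_zero)⟩
  have hD : (∏ q' ∈ Finset.univ.image qv, q') ∣ N * ∏ j, qv j := by
    rw [s59k_prod_image qv hqinj]
    exact Dvd.intro_left N rfl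
  -- the Frobenius polynomials of the residual Frey representation
  have hEig : ∀ ℓ : ℕ, ℓ.Prime → ¬ ℓ ∣ N * ∏ q' ∈ Finset.univ.image qv, q' ^ 2 → ℓ ∉ Sn →
      ∀ A' : ValuationSubring Qbar, A'.LiesOverPrime ℓ → ∀ τ : Γℚ, A'.IsFrobeniusAt τ ℓ →
        LinearMap.charpoly ((((s59b_rhoW W p hΔ).baseChangeAlong
          (algebraMap ℤ_[p] 𝒪) (s59b_isLocalHom_padic p _ hp𝒪)).residual).ρ τ) =
          X ^ 2 - C (residue 𝒪 ((W.apOfModel ℓ : ℤ) : 𝒪)) * X +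
            C ((ℓ : ResidueField 𝒪)) := by
    intro ℓ hℓ _ hℓS A' hA' τ hτ
    have hℓB : ℓ ∉ B := fun h => hℓS (hBS h)
    have hℓp : ℓ ≠ p := fun h => hℓB (h ▸ hpB)
    have hgoodℓ : W.IsGoodPrimeFor ℓ := hgood ℓ hℓ hℓB
    have h1 := s59b_rhobar_charpoly_frob (𝒪 := 𝒪) (W := W) (p := p) hΔ hp2 hmodirr
      hp𝒪 ℓ hℓ hℓp hgoodℓ A' hA' τ hτ
    rw [← map_natCast (residue 𝒪) ℓ]
    exact h1
  have hρ₁ := s59u_hrho1_of_hfrobT Sn aM ρ₀ θ hθ hfrobT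
  exact s59u_type1_full (p := p)
    (s59t_Hmul N (∏ j, qv j) H (s59t_KQ (p ^ n) qv))
    (s59t_Hmul N (∏ j, qv j) ⊤ (s59t_KQ (p ^ n) qv)) Sn hp2 hp𝒪 (hBS hpB)
    (s59t_GammaH_mono (s59t_Hmul_le_top (N := N) (D := ∏ j, qv j) (H := H)
      (K := s59t_KQ (p ^ n) qv)))
    (s59k_hnm_pow hpP hp2 (v + n)) Mn hSn₁ a₁ ha₁ _ hid' hε0
    (fun j => s59t_actH_comm_op _ aq t' j) aM haM ρ₀ θ hθ hρ₁
    N (Finset.univ.image qv) (N * ∏ q' ∈ Finset.univ.image qv, q' ^ 2)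
    (s59k_hQ_top qv N hqpr hqvN) (s59k_level_eq_top qv N hqinj) rfl hD
    (s59k_hH_top qv N (p ^ n) hqinj rfl hD)
    (fun u => s59k_ppow_mem_Hmul_top N qv p v n u) rfl
    (fun q' hq' h => s59u_prime_dvd_level2 qv hNB hqpr hBS hqS q' hq' h)
    _ hid₂ (fun j => s59t_actH_comm_op _ aq t' j) B hBS (fun ℓ => W.apOfModel ℓ) hnil₂
    (fun u => ⟨v + n, s59k_ppow_mem_Hmul_top N qv p v n u⟩) _ habs hEig
    (s59t_BQ N (∏ j, qv j) H (s59t_KQ (p ^ n) qv))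
    (s59t_CQ N (∏ j, qv j) H (s59t_KQ (p ^ n) qv)) hfull₂ hρ' hcomm hTρ
    q hq hqp (Dvd.dvd.mul_right hqN _) (s59u_sq_not_dvd_level2 qv hsq hqpr hqvN q hq hqN)
    A hA σ hσ

end WT1

end Fermat.Agent.Lib.S59
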