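/-
PROGRAMME R2 = S59 (helper4, prefix `s59i_`): **THE TWO PACKAGES AND THE FINAL ASSEMBLY OF [IA′-core] FOR A GENERAL SEMISTABLE
`W`** — the `W`-parametrised form of `LFinC1` + `LFinal` (which are typed at the Frey curve).  Everything between the two packages
(`s59i_FINA4`, `s59i_RData`, `s59i_TBase`, `s59i_TLevel`, the patching machine) is already abstract in `ρ̄` and `a_ℓ` on main.

* `s59i_rhobarW`   : the reference residual representation `(ρ_W ⊗ 𝒪) mod 𝔪` (`s59i_rhobarF P = s59i_rhobarW P.freyCurveInt P.p`);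
* `s59i_IAHypW`    : the hypotheses of [IA′-core] in `W`-form: level `N` prime to `p`, the set `Bd` of SCALAR primes
                     (`q ∣ N`, `ρ̄` unramified at `q`, `q ≡ 1 (p)`, Frobenius scalar), every other prime `ℓ ≠ p` of `N` is either a
                     ramified prime of `ρ̄` or TOLERATED (`ℓ² ≢ 1 (p)`: it goes to `Ed` or is of type (E2)); `B ⊇` primes of `Np` and
                     the bad primes of `W`; `s44i_LevelOcc N p a_W B`;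
* `s59i_RPkgW`     : the `R`-side package (owner: helper6);  `s59i_TPkgW` : the `T`-side package (owner: helper5);
* `s59i_FinBW`     : the extraction [UNR-PT] ⇒ `s44i_LevelOcc (N / q)` for `W` (owner: helper2; `s59b_FINB` is its Frey form);
* `s59i_IAcoreW`   : [IA′-core] for `W`;  **`s59i_IAcoreW_of_pkgs : RPkgW → TPkgW → FinBW → IAcoreW`**, checked.
-/
import Mathlib
import Fermat.Agent.Lib.S59.LFinC1
import Fermat.Agent.Lib.S59.QOExtFin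

set_option autoImplicit false
set_option linter.unusedSectionVars false
set_option linter.unusedVariables false
set_option linter.style.haveILetI false
set_option maxHeartbeats 1600000

noncomputable section

namespace Fermat.Agent.Lib.S59

open IsLocalRing CuspForm Polynomial ExtCitation
open WeierstrassCurve WeierstrassCurve.Affine WeierstrassCurve.Affine.Point
open Fermat.Agent.Lib.S53 (matOf matOfRes NormData)
open Fermat.Agent.Lib.S44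

local notation "Γℚ" => (AlgebraicClosure ℚ ≃ₐ[ℚ] AlgebraicClosure ℚ)

/-- the reference residual representation `(ρ_W ⊗ 𝒪) mod 𝔪`. -/
def s59i_rhobarW (W : WeierstrassCurve ℤ) (p : ℕ) [Fact p.Prime] (hΔ : W.Δ ≠ 0)
    (𝒪 : Type) [CommRing 𝒪] [IsLocalRing 𝒪] [Algebra ℤ_[p] 𝒪]
    (hp𝒪 : ((p : ℕ) : 𝒪) ∈ maximalIdeal 𝒪) : ResidualGaloisRep (ResidueField 𝒪) :=
  ((s59b_rhoW W p hΔ).baseChangeAlong (algebraMap ℤ_[p] 𝒪)
    (s59b_isLocalHom_padic p _ hp𝒪)).residual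

/-- the Frey form is the `W`-form at `W = P.freyCurveInt`. -/
theorem s59i_rhobarF_eq_W (P : FreyPackage) [Fact P.p.Prime] (hΔ : P.freyCurveInt.Δ ≠ 0)
    (𝒪 : Type) [CommRing 𝒪] [IsLocalRing 𝒪] [Algebra ℤ_[P.p] 𝒪]
    (hp𝒪 : ((P.p : ℕ) : 𝒪) ∈ maximalIdeal 𝒪) :
    s59i_rhobarF P hΔ 𝒪 hp𝒪 = s59i_rhobarW P.freyCurveInt P.p hΔ 𝒪 hp𝒪 := rfl

/-- **the hypotheses of [IA′-core] for a general semistable `W`.** -/
structure s59i_IAHypW (W : WeierstrassCurve ℤ) (p N : ℕ) (Bd B : Finset ℕ) : Prop where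
  hss : W.IsSemistableModel
  hirr : W.ModRepIsIrreducible p
  hN0 : 0 < N
  hNsq : Squarefree N
  hpN : ¬ p ∣ N
  hne : Bd.Nonempty
  hBd : ∀ q ∈ Bd, q.Prime ∧ q ≠ p ∧ q ∣ N ∧ s59_Unr W p q ∧ p ∣ q - 1 ∧ s59_FrobScalar W p q
  /-- every other prime of the level is a ramified prime of `ρ̄` or is tolerated (`ℓ² ≢ 1 mod p`). -/
  hram : ∀ ℓ : ℕ, ℓ.Prime → ℓ ≠ p → ℓ ∣ N → ℓ ∉ Bd → ¬ s59_Unr W p ℓ ∨ ¬ p ∣ ℓ ^ 2 - 1
  hB1 : ∀ r : ℕ, r.Prime → r ∣ N * p → r ∈ B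
  hB2 : ∀ r : ℕ, r.Prime → ¬ W.IsGoodPrimeFor r → r ∈ B
  hocc : s44i_LevelOcc N p (fun ℓ => W.apOfModel ℓ) B

/-- **the `R`-side package for `W`.** -/
def s59i_RPkgW : Prop :=
  ∀ (p : ℕ) [Fact p.Prime], p ≠ 2 → ∀ (W : WeierstrassCurve ℤ) (hΔ : W.Δ ≠ 0) (N : ℕ)
    (Bd B : Finset ℕ), s59i_IAHypW W p N Bd B →
  ∀ (𝒪 : Type) [CommRing 𝒪] [IsDomain 𝒪] [IsDiscreteValuationRing 𝒪]
    [IsAdicComplete (maximalIdeal 𝒪) 𝒪] [Finite (ResidueField 𝒪)] [CharZero 𝒪]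
    [Algebra ℤ_[p] 𝒪] [Module.Finite ℤ_[p] 𝒪]
    (hp𝒪 : ((p : ℕ) : 𝒪) ∈ maximalIdeal 𝒪)
    (_ : ∀ a b : ℤ, ∃ α β : ResidueField 𝒪,
      α + β = (a : ResidueField 𝒪) ∧ α * β = (b : ResidueField 𝒪)),
    Nonempty (s59i_RData p N (s59i_rhobarW W p hΔ 𝒪 hp𝒪) B Bd)

/-- **the `T`-side package for `W`.** -/
def s59i_TPkgW : Prop :=
  ∀ (p : ℕ) [Fact p.Prime], p ≠ 2 → ∀ (W : WeierstrassCurve ℤ) (hΔ : W.Δ ≠ 0) (N : ℕ) [NeZero N]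
    (Bd B : Finset ℕ), s59i_IAHypW W p N Bd B →
  ∀ (𝒪 : Type) [CommRing 𝒪] [IsDomain 𝒪] [IsDiscreteValuationRing 𝒪]
    [IsAdicComplete (maximalIdeal 𝒪) 𝒪] [Finite (ResidueField 𝒪)] [CharZero 𝒪]
    [Algebra ℤ_[p] 𝒪] [Module.Finite ℤ_[p] 𝒪]
    (hp𝒪 : ((p : ℕ) : 𝒪) ∈ maximalIdeal 𝒪)
    (_ : ∀ a b : ℤ, ∃ α β : ResidueField 𝒪,
      α + β = (a : ResidueField 𝒪) ∧ α * β = (b : ResidueField 𝒪))
    (v : ℕ) (_ : ∀ q ∈ Bd, ¬ p ^ (v + 1) ∣ q - 1) (_ : ∃ ζ : 𝒪, IsPrimitiveRoot ζ (p ^ v))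
    (Rd : s59i_RData p N (s59i_rhobarW W p hΔ 𝒪 hp𝒪) B Bd),
  ∀ r : ℕ, 3 * Rd.m + Rd.e ≤ r →
    (∀ qv : Fin r → ℕ, Nonempty (GaloisRep.DeformationRingData 𝒪 (s59i_rhobarW W p hΔ 𝒪 hp𝒪)
      (fun _A _ _ _ ρ =>
        GaloisRep.flatCondition 𝒪 p (Rd.Smin ∪ (Bd ∪ Rd.Ed) ∪ Finset.univ.image qv) ρ ∧
          ∀ q ∈ Rd.Smin, q.Prime → q ≠ p → ρ.IsUnipotentOnInertiaAt q))) ∧
    ∃ Bs : s59i_TBase 𝒪 N B (fun ℓ => W.apOfModel ℓ) Rd.m r (s59q_ZIdx Rd.m Rd.e)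
        (s59i_rhobarW W p hΔ 𝒪 hp𝒪) (fun j => (Rd.pr (Sum.inl j) : ℕ)),
      ∀ (n : ℕ) (qv : Fin r → ℕ), Function.Injective qv →
        (∀ i, (qv i).Prime ∧ qv i ∉ B ∧ p ^ (n + 1) ∣ qv i - 1) →
        (∀ i, ∀ A : ValuationSubring (AlgebraicClosure ℚ), A.LiesOverPrime (qv i) →
          ∀ φ : Γℚ, A.IsFrobeniusAt φ (qv i) →
            ∃ α β : ResidueField 𝒪, α ≠ β ∧
              LinearMap.charpoly ((s59i_rhobarW W p hΔ 𝒪 hp𝒪).ρ φ) = (X - C α) * (X - C β)) →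
        ∀ DQ : GaloisRep.DeformationRingData 𝒪 (s59i_rhobarW W p hΔ 𝒪 hp𝒪) (fun _A _ _ _ ρ =>
          GaloisRep.flatCondition 𝒪 p (Rd.Smin ∪ (Bd ∪ Rd.Ed) ∪ Finset.univ.image qv) ρ ∧
            ∀ q ∈ Rd.Smin, q.Prime → q ≠ p → ρ.IsUnipotentOnInertiaAt q),
          Nonempty (s59i_TLevel Bs (fun j => Rd.σq (Sum.inl j)) DQ n)

/-- **FIN-B for `W`**: a characteristic-zero eigensystem of level `N` on the unramified component at some `q ∈ Bd`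
(`s59i_UnrPt`) gives an eigenform of level `N / q` (`s59b_FINB` is the Frey form). -/
def s59i_FinBW : Prop :=
  ∀ (p : ℕ) [Fact p.Prime], p ≠ 2 → ∀ (W : WeierstrassCurve ℤ) (_ : W.Δ ≠ 0) (N : ℕ) [NeZero N]
    (Bd B : Finset ℕ), s59i_IAHypW W p N Bd B →
    (∃ q ∈ Bd, s59i_UnrPt p N B (fun ℓ => W.apOfModel ℓ) q) →
    ∃ q ∈ Bd, s44i_LevelOcc (N / q) p (fun ℓ => W.apOfModel ℓ) B

/-- **[IA′-core] for a general semistable `W`** (levels prime to `p`). -/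
def s59i_IAcoreW : Prop :=
  ∀ (p : ℕ) [Fact p.Prime], p ≠ 2 → ∀ (W : WeierstrassCurve ℤ) (_ : W.Δ ≠ 0) (N : ℕ)
    (Bd B : Finset ℕ), s59i_IAHypW W p N Bd B →
    ∃ q ∈ Bd, s44i_LevelOcc (N / q) p (fun ℓ => W.apOfModel ℓ) B

/-- **[IA′-core] for `W` from the two packages and FIN-B.** -/
theorem s59i_IAcoreW_of_pkgs (HR : s59i_RPkgW) (HT : s59i_TPkgW) (HB : s59i_FinBW) :
    s59i_IAcoreW := by
  intro p hpF hp2 W hΔ N Bd B H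
  classical
  haveI hN0 : NeZero N := ⟨H.hN0.ne'⟩
  have hpp : p.Prime := hpF.out
  -- the exponent of the roots of unity
  set v : ℕ := Bd.sup id with hv
  have hvq : ∀ q ∈ Bd, ¬ p ^ (v + 1) ∣ q - 1 := by
    intro q hq hd
    have hqv : q ≤ v := Finset.le_sup (f := id) hq
    have hq2 := (H.hBd q hq).1.two_le
    have h1 : p ^ (v + 1) ≤ q - 1 := Nat.le_of_dvd (by omega) hd
    have h2 : v + 1 < p ^ (v + 1) := Nat.lt_pow_self hpp.one_lt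
    omega
  -- the coefficient ring
  obtain ⟨𝒪, i1, i2, i3, i4, i5, i6, i7, i8, i9, hp𝒪, hζ, hsplit⟩ :=
    s59q_exists_coeffRing_padic p (p ^ v) (pow_pos hpp.pos v)
  -- the two packages
  obtain ⟨Rd⟩ := HR p hp2 W hΔ N Bd B H 𝒪 hp𝒪 hsplit
  have HT' := HT p hp2 W hΔ N Bd B H 𝒪 hp𝒪 hsplit v hvq hζ Rd
  -- an index in `Bd`
  have hm : 0 < Rd.m := by
    obtain ⟨q, hq⟩ := H.hne
    have hq' : q ∈ Finset.univ.image (fun j : Fin Rd.m => (Rd.pr (Sum.inl j) : ℕ)) :=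
      (Finset.ext_iff.mp Rd.hprB _).mpr hq
    rw [Finset.mem_image] at hq'
    obtain ⟨j, -, -⟩ := hq'
    exact j.pos
  have hU := s59i_FINA4 p hp2 N B (fun ℓ => W.apOfModel ℓ) hp𝒪
    (s59i_rhobarW W p hΔ 𝒪 hp𝒪) Rd.habs Rd.hdet Rd.hsplit Rd.hTW B Rd.Smin Bd Rd.Ed Rd.hpSmin
    Rd.hSmin Rd.hBS Rd.hES Rd.hBprime Rd.hEprime Rd.hmin Rd.hBunr Rd.hEunr Rd.hBE Rd.hcen Rd.Nd
    Rd.m Rd.e Rd.pr Rd.hprB Rd.hprE Rd.hBinj Rd.hEinj Rd.σq Rd.φq Rd.hσq Rd.hφq Rd.D Rd.P Rd.P'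
    Rd.hPP' Rd.hP'P Rd.αE Rd.βE Rd.hαβ Rd.hαβ' Rd.hdiag Rd.hαE Rd.hβE Rd.hDu Rd.hqB HT' ⟨0, hm⟩
  have hmem : ((Rd.pr (Sum.inl ⟨0, hm⟩) : ℕ)) ∈ Bd := by
    have h1 : ((Rd.pr (Sum.inl ⟨0, hm⟩) : ℕ)) ∈
        Finset.univ.image (fun j : Fin Rd.m => (Rd.pr (Sum.inl j) : ℕ)) :=
      Finset.mem_image_of_mem (fun j : Fin Rd.m => (Rd.pr (Sum.inl j) : ℕ))
        (Finset.mem_univ (⟨0, hm⟩ : Fin Rd.m))
    exact (Finset.ext_iff.mp Rd.hprB _).mp h1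
  exact HB p hp2 W hΔ N Bd B H ⟨_, hmem, hU⟩

end Fermat.Agent.Lib.S59
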