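/-
Programme R2 (S59), helper5 (prefix `s59e_`): **Frobenius characteristic polynomials of the reference residual
representation `ρ̄_W = (ρ_W ⊗ 𝒪) mod 𝔪` of a GENERAL integral Weierstrass curve `W`**.

The COMMON DEFINITION of `ρ̄_W` is helper4's `s59i_rhobarW W p hΔ 𝒪 hp𝒪` (LFinW1.lean; `s59i_rhobarF_eq_W` is the Frey
form, by `rfl`); this file only adds

* `s59e_rhobarW_charpoly_frob`  : `charpoly ρ̄_W(Frob_ℓ) = X² − ā_ℓ(W) X + ℓ` for `ℓ ∉ B` (`B ∋ p`, `B ⊇` bad primes of `W`);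
* `s59e_rhobarW_unram_good`     : `ρ̄_W` is unramified at the good primes `q ≠ p`.
-/
import Mathlib
import Fermat.Agent.Lib.S59.LFinW1
import Fermat.Agent.Lib.S59.BTWArith

set_option autoImplicit false
set_option linter.unusedSectionVars false
set_option linter.unusedVariables false

noncomputable section

namespace Fermat.Agent.Lib.S59

open IsLocalRing Polynomial WeierstrassCurve

local notation "Γℚ" => (AlgebraicClosure ℚ ≃ₐ[ℚ] AlgebraicClosure ℚ)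

/-- **Frobenius characteristic polynomials of `ρ̄_W` away from `B`.** -/
theorem s59e_rhobarW_charpoly_frob {W : WeierstrassCurve ℤ} {p : ℕ} [Fact p.Prime] (hΔ : W.Δ ≠ 0)
    (hp2 : p ≠ 2) (hirr : W.ModRepIsIrreducible p)
    {𝒪 : Type} [CommRing 𝒪] [IsLocalRing 𝒪] [Algebra ℤ_[p] 𝒪]
    (hp𝒪 : ((p : ℕ) : 𝒪) ∈ maximalIdeal 𝒪) (B : Finset ℕ) (hpB : p ∈ B)
    (hB2 : ∀ r : ℕ, r.Prime → ¬ W.IsGoodPrimeFor r → r ∈ B)
    (ℓ : ℕ) (hℓ : ℓ.Prime) (hℓB : ℓ ∉ B)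
    (A : ValuationSubring (AlgebraicClosure ℚ)) (hA : A.LiesOverPrime ℓ) (σ : Γℚ)
    (hσ : A.IsFrobeniusAt σ ℓ) :
    LinearMap.charpoly ((s59i_rhobarW W p hΔ 𝒪 hp𝒪).ρ σ) =
      X ^ 2 - C (residue 𝒪 ((W.apOfModel ℓ : ℤ) : 𝒪)) * X + C ((ℓ : ResidueField 𝒪)) := by
  have hℓp : ℓ ≠ p := fun h => hℓB (h ▸ hpB)
  have hgood : W.IsGoodPrimeFor ℓ := by
    by_contra hbad
    exact hℓB (hB2 ℓ hℓ hbad)
  have h1 := s59b_rhobar_charpoly_frob (𝒪 := 𝒪) (W := W) (p := p) hΔ hp2 hirr hp𝒪 ℓ hℓ hℓp hgood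
    A hA σ hσ
  rw [← map_natCast (residue 𝒪) ℓ]
  exact h1

/-- **`ρ̄_W` is unramified at the good primes `q ≠ p`.** -/
theorem s59e_rhobarW_unram_good {W : WeierstrassCurve ℤ} {p : ℕ} [Fact p.Prime] (hΔ : W.Δ ≠ 0)
    (hp2 : p ≠ 2) {𝒪 : Type} [CommRing 𝒪] [IsLocalRing 𝒪] [Algebra ℤ_[p] 𝒪]
    (hp𝒪 : ((p : ℕ) : 𝒪) ∈ maximalIdeal 𝒪) (q : ℕ) (hq : q.Prime) (hqp : q ≠ p)
    (hg : W.IsGoodPrimeFor q) : (s59i_rhobarW W p hΔ 𝒪 hp𝒪).IsUnramifiedAt q := by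
  have h0 := s59b_rhoW_unram hΔ hp2 q hq hqp hg
  have h1 := s59e_bc_unram (algebraMap ℤ_[p] 𝒪) (s59b_isLocalHom_padic p _ hp𝒪) _ q h0
  intro A hA τ hτ
  show ((((s59b_rhoW W p hΔ).baseChangeAlong (algebraMap ℤ_[p] 𝒪)
    (s59b_isLocalHom_padic p _ hp𝒪)).ρ τ)).baseChange (ResidueField 𝒪) = 1
  rw [h1 A hA τ hτ]
  exact LinearMap.baseChange_one _ _

end Fermat.Agent.Lib.S59
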