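/-
Programme (R) = S59, node (E) module half (helper8), file 75: **the annihilators of the eigen-parts
are proper** (`hI1`, `hIχ` of `s59i_TLevel`, abstractly).  In the binder context of helper5's
`s59e_TLevel_abs`: the `χ'`-eigen-part at level `n` surjects (`k3`) onto the nontrivial `χ`-eigen-part
at the base level, so it is nontrivial; the `1`-eigen-part is `𝒪`-linearly isomorphic to the
`χ'`-eigen-part (`s59t_eigEquiv`, the module being free over the group ring).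
-/
import Mathlib
import Fermat.Agent.Lib.S59.TEigT

set_option autoImplicit false
set_option linter.unusedSectionVars false
set_option linter.unusedVariables false

open scoped BigOperators

noncomputable section

namespace Fermat.Agent.Lib.S59

section AnnNe

variable {𝒪 : Type*} [CommRing 𝒪]
  {Δ : Type*} [CommGroup Δ] [Fintype Δ] {Y : Type*} [AddCommGroup Y] [Module 𝒪 Y]
  (ρ : Δ →* Module.End 𝒪 Y) (χ : Δ →* 𝒪ˣ)
  {R : Type*} [CommRing R] [Algebra 𝒪 R] [Module R Y] [IsScalarTower 𝒪 R Y]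
  (hRρ : ∀ (t : R) (δ : Δ) (y : Y), t • ρ δ y = ρ δ (t • y))
  {Δ' : Type*} [CommGroup Δ'] [Fintype Δ'] {Y' : Type*} [AddCommGroup Y'] [Module 𝒪 Y']
  (ρ' : Δ' →* Module.End 𝒪 Y') (Bq C : Subgroup Δ') [Fintype Bq] [Fintype C]
  (hCB : Function.Bijective (fun x : C × Bq => ((x.1 : Δ') * (x.2 : Δ'))))
  {d : ℕ} (b' : Fin d → Y') (hb' : Function.Bijective (s59t_evalMap ρ' b'))
  (π : Y' →ₗ[𝒪] Y)
  {T : Type*} [CommRing T] [Algebra 𝒪 T] [Module T Y'] [IsScalarTower 𝒪 T Y']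
  (hTρ : ∀ (t : T) (δ : Δ') (y : Y'), t • ρ' δ y = ρ' δ (t • y))
  (χ' : Δ' →* 𝒪ˣ)

/-- a nontrivial eigen-part has a proper annihilator. -/
theorem s59t_annEigT_ne_top_of_nontrivial (h : Nontrivial (s59t_eig ρ' C χ')) :
    Module.annihilator T (s59t_EigT ρ' C χ' hTρ) ≠ ⊤ := by
  intro htop
  have h1 : (1 : T) ∈ Module.annihilator T (s59t_EigT ρ' C χ' hTρ) := by
    rw [htop]; exact Submodule.mem_top
  rw [Module.mem_annihilator] at h1
  obtain ⟨x, y, hxy⟩ := h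
  apply hxy
  have hx := h1 (s59t_EigT_mk ρ' C χ' hTρ x.1 x.2)
  have hy := h1 (s59t_EigT_mk ρ' C χ' hTρ y.1 y.2)
  rw [one_smul] at hx hy
  have hx' := congrArg (s59t_EigT_val ρ' C χ' hTρ) hx
  have hy' := congrArg (s59t_EigT_val ρ' C χ' hTρ) hy
  rw [s59t_EigT_val_mk, map_zero] at hx' hy'
  exact Subtype.ext (hx'.trans hy'.symm)

/-- the level-`n` eigen-part is nontrivial, as it surjects onto the nontrivial base eigen-part. -/
theorem s59t_eig_nontrivial_of_surj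
    (k3 : ∀ x ∈ s59t_eig ρ ⊤ χ, ∃ y ∈ s59t_eig ρ' C χ', π y = x)
    (hnt : Nontrivial (s59t_EigT ρ ⊤ χ hRρ)) : Nontrivial (s59t_eig ρ' C χ') := by
  obtain ⟨x, y, hxy⟩ := hnt
  obtain ⟨x', hx', hx'π⟩ := k3 (s59t_EigT_val ρ ⊤ χ hRρ x) (s59t_EigT_val_mem ρ ⊤ χ hRρ x)
  obtain ⟨y', hy', hy'π⟩ := k3 (s59t_EigT_val ρ ⊤ χ hRρ y) (s59t_EigT_val_mem ρ ⊤ χ hRρ y)
  refine ⟨⟨x', hx'⟩, ⟨y', hy'⟩, fun h => hxy ?_⟩
  have h' : x' = y' := congrArg Subtype.val h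
  apply s59t_EigT_val_injective ρ ⊤ χ hRρ
  rw [← hx'π, ← hy'π, h']

/-- **`hIχ`**: the annihilator of the `χ'`-eigen-part at level `n` is proper. -/
theorem s59t_annEigT_ne_top_chi
    (k3 : ∀ x ∈ s59t_eig ρ ⊤ χ, ∃ y ∈ s59t_eig ρ' C χ', π y = x)
    (hnt : Nontrivial (s59t_EigT ρ ⊤ χ hRρ)) :
    Module.annihilator T (s59t_EigT ρ' C χ' hTρ) ≠ ⊤ :=
  s59t_annEigT_ne_top_of_nontrivial ρ' C hTρ χ' (s59t_eig_nontrivial_of_surj ρ χ hRρ ρ' C π χ' k3 hnt)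

include hCB hb' in
/-- **`hI1`**: the annihilator of the `1`-eigen-part at level `n` is proper (the `1`-eigen-part is
`𝒪`-isomorphic to the `χ'`-eigen-part, the module being free over the group ring). -/
theorem s59t_annEigT_ne_top_one
    (k3 : ∀ x ∈ s59t_eig ρ ⊤ χ, ∃ y ∈ s59t_eig ρ' C χ', π y = x)
    (hnt : Nontrivial (s59t_EigT ρ ⊤ χ hRρ)) :
    Module.annihilator T (s59t_EigT ρ' C (1 : Δ' →* 𝒪ˣ) hTρ) ≠ ⊤ := by
  have h := s59t_eig_nontrivial_of_surj ρ χ hRρ ρ' C π χ' k3 hnt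
  have h1 : Nontrivial (s59t_eig ρ' C (1 : Δ' →* 𝒪ˣ)) :=
    (s59t_eigEquiv ρ' C Bq χ' hCB b' hb').symm.toEquiv.nontrivial
  exact s59t_annEigT_ne_top_of_nontrivial ρ' C hTρ 1 h1

end AnnNe

end Fermat.Agent.Lib.S59
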