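/-
S59 (helper5, prefix `s59e_`), `T`-side package: **THE LEVEL THEOREM FOR THE RINGS OF `ERing.lean`.**
`s59e_TLevel_abs` specialised to `T′ = 𝒪[aM(A)]`, `T = 𝒪[aM(A), ρ'(B_Q)] ⊆ End_𝒪 Y'`: all the instance
hypotheses (locality, completeness, finiteness, `IsTestAlgebra`, `hlocT`, `huu`, `hgenT`, `hTρ`, `hdia`), the
surjectivity of the descent `ψ` ([DENS]) and `hI1`, `hIχ` are PROVED here from
* `hlocA`  : `T′` consists of locally scalar endomorphisms,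
* `hFa`    : the `aM t` commute with the diamonds `ρ' δ`,
* the presentation `(g, hcard, hgen, hord)` of `B_Q`.
-/
import Mathlib
import Fermat.Agent.Lib.S59.ETLvlAbs
import Fermat.Agent.Lib.S59.ERing2
import Fermat.Agent.Lib.S59.TAnnNe

set_option autoImplicit false
set_option linter.unusedSectionVars false
set_option linter.unusedVariables false
set_option linter.style.haveILetI false
set_option maxHeartbeats 1600000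
set_option synthInstance.maxHeartbeats 400000

noncomputable section

namespace Fermat.Agent.Lib.S59

open IsLocalRing MvPowerSeries CuspForm
open Fermat.Agent.Lib.Deform (IsTestAlgebra)

local notation "Γℚ" => (AlgebraicClosure ℚ ≃ₐ[ℚ] AlgebraicClosure ℚ)

section Ring

variable {p : ℕ} [hp : Fact p.Prime]
  {𝒪 : Type} [CommRing 𝒪] [IsDomain 𝒪] [IsDiscreteValuationRing 𝒪]
  [IsAdicComplete (maximalIdeal 𝒪) 𝒪] [Finite (ResidueField 𝒪)] [CharZero 𝒪]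
  {N : ℕ} [NeZero N] {B : Finset ℕ} {a : ℕ → ℤ} {m : ℕ}
  {ρbar : ResidualGaloisRep (ResidueField 𝒪)} {qB : Fin m → ℕ}
  (D : s59e_BaseD 𝒪 N B a m ρbar qB) (r : ℕ) (σ : Type) [DecidableEq σ] [Fintype σ]
  (hp2 : p ≠ 2) (hpm : (p : 𝒪) ∈ maximalIdeal 𝒪) (σB : Fin m → Γℚ)
  {𝒟 : ∀ ⦃A : Type⦄ [CommRing A] [IsLocalRing A] [Algebra 𝒪 A], GaloisRepAdic A → Prop}
  (DQ : GaloisRep.DeformationRingData 𝒪 ρbar 𝒟) (n : ℕ)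
  {Δ' : Type} [CommGroup Δ'] [Fintype Δ'] {Y' : Type} [AddCommGroup Y'] [Module 𝒪 Y']
  [Module.Free 𝒪 Y'] [Module.Finite 𝒪 Y'] [Nontrivial Y']
  (ρ' : Δ' →* Module.End 𝒪 Y') (Bq C : Subgroup Δ') [Fintype Bq] [Fintype C]
  (hCB : Function.Bijective (fun x : C × Bq => ((x.1 : Δ') * (x.2 : Δ'))))
  (b' : Fin D.d → Y') (hb' : Function.Bijective (s59t_evalMap ρ' b'))
  (π : Y' →ₗ[𝒪] D.Y)
  {A : Type} [CommRing A] (aM : A →+* Module.End 𝒪 Y') [IsLocalRing (s59e_adj 𝒪 aM)]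
  (hcomm : ∀ (t : A) (β : Bq), Commute (aM t) ((ρ'.comp Bq.subtype) β))
  (hFa : ∀ (t : A) (δ : Δ'), Commute (aM t) (ρ' δ))
  (hlocA : ∀ x ∈ s59e_adj 𝒪 aM, ∃ d : 𝒪, s59e_IsLocScalar x d)
  (hTρ : ∀ (t : s59e_adj 𝒪 (s59e_aB aM (ρ'.comp Bq.subtype) hcomm)) (δ : Δ') (y : Y'),
    t • ρ' δ y = ρ' δ (t • y))
  -- type 1
  (h2 : ∀ y ∈ s59t_eig ρ' C (1 : Δ' →* 𝒪ˣ), π y ∈ s59t_eig D.ρΔ ⊤ (1 : D.Δ →* 𝒪ˣ))
  (h3 : ∀ x ∈ s59t_eig D.ρΔ ⊤ (1 : D.Δ →* 𝒪ˣ), ∃ y ∈ s59t_eig ρ' C (1 : Δ' →* 𝒪ˣ), π y = x)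
  (h4 : ∀ y ∈ s59t_eig ρ' C (1 : Δ' →* 𝒪ˣ), π y = 0 → y ∈ Submodule.span 𝒪
    {z : Y' | ∃ β ∈ Bq, ∃ y' ∈ s59t_eig ρ' C (1 : Δ' →* 𝒪ˣ), z = ρ' β y' - y'})
  -- type χ
  (χ' : Δ' →* 𝒪ˣ)
  (k2 : ∀ y ∈ s59t_eig ρ' C χ', π y ∈ s59t_eig D.ρΔ ⊤ D.χ)
  (k3 : ∀ x ∈ s59t_eig D.ρΔ ⊤ D.χ, ∃ y ∈ s59t_eig ρ' C χ', π y = x)
  (k4 : ∀ y ∈ s59t_eig ρ' C χ', π y = 0 → y ∈ Submodule.span 𝒪
    {z : Y' | ∃ β ∈ Bq, ∃ y' ∈ s59t_eig ρ' C χ', z = ρ' β y' - y'})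
  (hχ' : ∀ γ ∈ C, ((χ' γ : 𝒪ˣ) : 𝒪) - 1 ∈ (Ideal.span {D.ϖ} : Ideal 𝒪))
  -- the descent to the base level
  (ψ : s59e_adj 𝒪 (s59e_aB aM (ρ'.comp Bq.subtype) hcomm) →ₐ[𝒪] D.R')
  (hψl : IsLocalHom (ψ : s59e_adj 𝒪 (s59e_aB aM (ρ'.comp Bq.subtype) hcomm) →+* D.R'))
  (hψd : ∀ β, ψ (s59e_dia aM (ρ'.comp Bq.subtype) hcomm β) = 1)
  (hπψ : ∀ (t : s59e_adj 𝒪 (s59e_aB aM (ρ'.comp Bq.subtype) hcomm)) (y : Y'),
    π (t • y) = ψ t • π y)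
  -- the Taylor–Wiles group
  (g : Fin r → Bq) (hcard : Nat.card Bq = (p ^ n) ^ r)
  (hgen : ∀ β : Bq, ∃ a : Fin r → ℕ, β = ∏ i, g i ^ a i) (hord : ∀ i, g i ^ (p ^ n) = 1)
  -- the Galois side
  (θ : DQ.R →ₐ[𝒪] s59e_adj 𝒪 aM) (hθ : Function.Surjective θ)
  (Sn : Finset ℕ) (hSn : ∀ ℓ : ℕ, ℓ.Prime → ℓ ∉ Sn → ¬ ℓ ∣ N ∧ ℓ ∉ (↑B : Set ℕ))
  (tT' : ℕ → s59e_adj 𝒪 aM)
  (hfrobT : ∀ ℓ : ℕ, ℓ.Prime → ℓ ∉ Sn →
    ∀ A' : ValuationSubring (AlgebraicClosure ℚ), A'.LiesOverPrime ℓ →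
    ∀ τ : Γℚ, A'.IsFrobeniusAt τ ℓ →
      (LinearMap.charpoly (DQ.ρ.ρ τ)).map (θ : DQ.R →+* s59e_adj 𝒪 aM) =
        Polynomial.X ^ 2 - Polynomial.C (tT' ℓ) * Polynomial.X +
          Polynomial.C ((ℓ : s59e_adj 𝒪 aM)))
  (hψt : ∀ ℓ : ℕ, ℓ.Prime → ℓ ∉ Sn →
    ψ (s59e_incl aM (ρ'.comp Bq.subtype) hcomm (tT' ℓ)) = D.tR' ℓ)
  -- the Galois-theoretic fields, in final form
  (h1tr : ∀ j, s59e_incl aM (ρ'.comp Bq.subtype) hcomm (θ (s59i_cpTr DQ.ρ (σB j))) - 2 ∈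
    Module.annihilator (s59e_adj 𝒪 (s59e_aB aM (ρ'.comp Bq.subtype) hcomm))
      (s59t_EigT (T := s59e_adj 𝒪 (s59e_aB aM (ρ'.comp Bq.subtype) hcomm)) ρ' C
        (1 : Δ' →* 𝒪ˣ) hTρ))
  (h1det : ∀ j, s59e_incl aM (ρ'.comp Bq.subtype) hcomm (θ (s59i_cpDt DQ.ρ (σB j))) - 1 ∈
    Module.annihilator (s59e_adj 𝒪 (s59e_aB aM (ρ'.comp Bq.subtype) hcomm))
      (s59t_EigT (T := s59e_adj 𝒪 (s59e_aB aM (ρ'.comp Bq.subtype) hcomm)) ρ' C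
        (1 : Δ' →* 𝒪ˣ) hTρ))
  (hrad : letI := s59e_algTT aM (ρ'.comp Bq.subtype) hcomm
    ((Module.annihilator (s59e_adj 𝒪 (s59e_aB aM (ρ'.comp Bq.subtype) hcomm))
      (s59t_EigT (T := s59e_adj 𝒪 (s59e_aB aM (ρ'.comp Bq.subtype) hcomm)) ρ' C χ' hTρ)).comap
      (algebraMap (s59e_adj 𝒪 aM) (s59e_adj 𝒪 (s59e_aB aM (ρ'.comp Bq.subtype) hcomm)))).IsRadical)
  (hχ : letI := s59e_algTT aM (ρ'.comp Bq.subtype) hcomm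
    ∀ 𝔮 ∈ ((Module.annihilator (s59e_adj 𝒪 (s59e_aB aM (ρ'.comp Bq.subtype) hcomm))
        (s59t_EigT (T := s59e_adj 𝒪 (s59e_aB aM (ρ'.comp Bq.subtype) hcomm)) ρ' C χ' hTρ)).comap
      (algebraMap (s59e_adj 𝒪 aM)
        (s59e_adj 𝒪 (s59e_aB aM (ρ'.comp Bq.subtype) hcomm)))).minimalPrimes,
    (∀ o : 𝒪, o ≠ 0 → algebraMap 𝒪 (s59e_adj 𝒪 aM) o ∉ 𝔮) ∧
    ∃ i : D.ι, ∀ j, θ (s59i_cpTr DQ.ρ (σB j)) -
        algebraMap 𝒪 (s59e_adj 𝒪 aM) (D.ζ i j + D.ζ' i j) ∈ 𝔮 ∧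
      θ (s59i_cpDt DQ.ρ (σB j)) - 1 ∈ 𝔮)
  (hC8 : ∀ i, ∃ τ ∈ maximalIdeal (s59e_adj 𝒪 aM),
    ((s59e_dia aM (ρ'.comp Bq.subtype) hcomm (s59t_hh p n g i) :
        s59e_adj 𝒪 (s59e_aB aM (ρ'.comp Bq.subtype) hcomm)) -
      (s59e_dia aM (ρ'.comp Bq.subtype) hcomm (s59t_hh p n g i)⁻¹ :
        s59e_adj 𝒪 (s59e_aB aM (ρ'.comp Bq.subtype) hcomm))) ^ 2 -
      s59e_incl aM (ρ'.comp Bq.subtype) hcomm τ ∈
      Module.annihilator (s59e_adj 𝒪 (s59e_aB aM (ρ'.comp Bq.subtype) hcomm))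
        (s59t_EigT (T := s59e_adj 𝒪 (s59e_aB aM (ρ'.comp Bq.subtype) hcomm)) ρ' C χ' hTρ))

include hCB hb' hFa hlocA h2 h3 h4 k2 k3 k4 hχ' hψl hψd hπψ hcard hgen hord hθ hSn hfrobT hψt h1tr
  h1det hrad hχ hC8 in
/-- **the level theorem for the rings `T′ = 𝒪[aM(A)] ⊆ T = 𝒪[aM(A), ρ'(B_Q)]`.** -/
theorem s59e_TLevel_ring : Nonempty (s59i_TLevel (D.toTBase (p := p) r σ hp2 hpm) σB DQ n) := by
  classical
  letI := s59e_algTT aM (ρ'.comp Bq.subtype) hcomm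
  haveI : IsLocalHom (algebraMap 𝒪 (s59e_adj 𝒪 aM)) := s59e_adj_isLocalHom aM hlocA
  -- the elements of `B_Q` have `p`-power order
  have hBp : ∀ β : Bq, β ^ (p ^ n) = 1 := by
    intro β
    obtain ⟨e, rfl⟩ := hgen β
    rw [← Finset.prod_pow]
    refine Finset.prod_eq_one fun i _ => ?_
    rw [← pow_mul, mul_comm, pow_mul, hord i, one_pow]
  have hlocB : ∀ β, ∃ d : 𝒪, s59e_IsLocScalar ((ρ'.comp Bq.subtype) β) d := fun β =>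
    ⟨1, s59e_isLocScalar_of_pow_eq_one p n hpm _ (by rw [← map_pow, hBp β, map_one])⟩
  have hlocTT := s59e_adjB_locScalar aM (ρ'.comp Bq.subtype) hcomm hlocA hlocB
  haveI : IsLocalRing (s59e_adj 𝒪 (s59e_aB aM (ρ'.comp Bq.subtype) hcomm)) :=
    s59e_adj_isLocalRing _ hlocTT
  haveI : IsLocalHom (algebraMap 𝒪 (s59e_adj 𝒪 (s59e_aB aM (ρ'.comp Bq.subtype) hcomm))) :=
    s59e_adj_isLocalHom _ hlocTT
  haveI : IsNoetherianRing (s59e_adj 𝒪 aM) := s59e_adj_noeth aM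
  haveI : IsAdicComplete (maximalIdeal (s59e_adj 𝒪 aM)) (s59e_adj 𝒪 aM) := s59e_adj_complete aM
  haveI : IsAdicComplete (maximalIdeal (s59e_adj 𝒪 (s59e_aB aM (ρ'.comp Bq.subtype) hcomm)))
      (s59e_adj 𝒪 (s59e_aB aM (ρ'.comp Bq.subtype) hcomm)) := s59e_adj_complete _
  haveI : IsScalarTower 𝒪 (s59e_adj 𝒪 aM)
      (s59e_adj 𝒪 (s59e_aB aM (ρ'.comp Bq.subtype) hcomm)) :=
    s59e_towerTT aM (ρ'.comp Bq.subtype) hcomm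
  haveI : Module.Finite (s59e_adj 𝒪 aM) (s59e_adj 𝒪 (s59e_aB aM (ρ'.comp Bq.subtype) hcomm)) :=
    s59e_finiteTT aM (ρ'.comp Bq.subtype) hcomm
  have hT' : IsTestAlgebra 𝒪 (s59e_adj 𝒪 aM) := s59e_testAlgebra aM AlgEquiv.refl hlocA
  have hlocT : ∀ x ∈ maximalIdeal (s59e_adj 𝒪 aM),
      algebraMap (s59e_adj 𝒪 aM) (s59e_adj 𝒪 (s59e_aB aM (ρ'.comp Bq.subtype) hcomm)) x ∈
        maximalIdeal (s59e_adj 𝒪 (s59e_aB aM (ρ'.comp Bq.subtype) hcomm)) :=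
    fun x hx => s59e_incl_maximal aM (ρ'.comp Bq.subtype) hcomm hlocA x hx
  have huu : ∀ β : Bq, (s59e_dia aM (ρ'.comp Bq.subtype) hcomm β :
      s59e_adj 𝒪 (s59e_aB aM (ρ'.comp Bq.subtype) hcomm)) - 1 ∈
      maximalIdeal (s59e_adj 𝒪 (s59e_aB aM (ρ'.comp Bq.subtype) hcomm)) :=
    fun β => s59e_dia_sub_one_mem aM (ρ'.comp Bq.subtype) hcomm p hpm β n (hBp β)
  have hgenT := s59e_hgenT (𝒪 := 𝒪) aM (ρ'.comp Bq.subtype) hcomm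
  have hψs : Function.Surjective ψ :=
    s59e_psi_surj D DQ hlocT ψ hψl θ hθ Sn hSn tT' hfrobT hψt
  have hI1 := s59t_annEigT_ne_top_one
    (T := s59e_adj 𝒪 (s59e_aB aM (ρ'.comp Bq.subtype) hcomm)) D.ρΔ D.χ D.hRρ ρ' Bq C hCB b' hb' π
    hTρ χ' k3 D.hM'nt
  have hIχ := s59t_annEigT_ne_top_chi
    (T := s59e_adj 𝒪 (s59e_aB aM (ρ'.comp Bq.subtype) hcomm)) D.ρΔ D.χ D.hRρ ρ' C π hTρ χ' k3
    D.hM'nt
  exact s59e_TLevel_abs D r σ hp2 hpm σB DQ n ρ' Bq C hCB b' hb' π (s59e_adj 𝒪 aM) hT'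
    (s59e_adj 𝒪 (s59e_aB aM (ρ'.comp Bq.subtype) hcomm)) hlocT hTρ
    (s59e_dia aM (ρ'.comp Bq.subtype) hcomm) (s59e_hdia aM (ρ'.comp Bq.subtype) hcomm)
    h2 h3 h4 χ' k2 k3 k4 hχ' ψ hψs hψd hπψ g hcard hgen hord huu hgenT θ hθ Sn hSn tT' hfrobT hψt
    hI1 h1tr h1det hIχ hrad hχ hC8

/-- an `𝒪`-algebra homomorphism from a local ring to a local ring finite over `𝒪` is local. -/
theorem s59e_algHom_isLocalHom {𝒪₀ : Type} [CommRing 𝒪₀] (T₀ : Type) [CommRing T₀]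
    [IsLocalRing T₀] [Algebra 𝒪₀ T₀]
    (R₀ : Type) [CommRing R₀] [IsLocalRing R₀] [Algebra 𝒪₀ R₀] [Module.Finite 𝒪₀ R₀]
    (ψ₀ : T₀ →ₐ[𝒪₀] R₀) : IsLocalHom (ψ₀ : T₀ →+* R₀) := by
  letI : Algebra T₀ R₀ := (ψ₀ : T₀ →+* R₀).toAlgebra
  haveI : IsScalarTower 𝒪₀ T₀ R₀ := IsScalarTower.of_algebraMap_eq fun o => (ψ₀.commutes o).symm
  haveI : Algebra.IsIntegral 𝒪₀ R₀ := Algebra.IsIntegral.of_finite 𝒪₀ R₀
  haveI : Algebra.IsIntegral T₀ R₀ := Algebra.IsIntegral.tower_top (S := T₀) (T := R₀) 𝒪₀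
  have hmax : ((maximalIdeal R₀).comap (algebraMap T₀ R₀)).IsMaximal :=
    Ideal.isMaximal_comap_of_isIntegral_of_isMaximal (maximalIdeal R₀)
  have heq : (maximalIdeal R₀).comap (algebraMap T₀ R₀) = maximalIdeal T₀ :=
    IsLocalRing.eq_maximalIdeal hmax
  refine ⟨fun t ht => ?_⟩
  by_contra hnu
  have h1 : t ∈ maximalIdeal T₀ := (mem_maximalIdeal t).mpr hnu
  rw [← heq, Ideal.mem_comap] at h1
  exact (mem_maximalIdeal _).mp h1 ht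

variable (hR'fin : Module.Finite 𝒪 D.R')

include hCB hb' hFa hlocA h2 h3 h4 k2 k3 k4 hχ' hψd hπψ hcard hgen hord hθ hSn hfrobT hψt h1tr
  h1det hrad hχ hC8 hR'fin in
/-- **the level theorem for the rings `T′ ⊆ T`, locality of `ψ` proved** (`R'` finite over `𝒪`). -/
theorem s59e_TLevel_ring' : Nonempty (s59i_TLevel (D.toTBase (p := p) r σ hp2 hpm) σB DQ n) := by
  classical
  have hBp : ∀ β : Bq, β ^ (p ^ n) = 1 := by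
    intro β
    obtain ⟨e, rfl⟩ := hgen β
    rw [← Finset.prod_pow]
    refine Finset.prod_eq_one fun i _ => ?_
    rw [← pow_mul, mul_comm, pow_mul, hord i, one_pow]
  have hlocB : ∀ β, ∃ d : 𝒪, s59e_IsLocScalar ((ρ'.comp Bq.subtype) β) d := fun β =>
    ⟨1, s59e_isLocScalar_of_pow_eq_one p n hpm _ (by rw [← map_pow, hBp β, map_one])⟩
  have hlocTT := s59e_adjB_locScalar aM (ρ'.comp Bq.subtype) hcomm hlocA hlocB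
  haveI : IsLocalRing (s59e_adj 𝒪 (s59e_aB aM (ρ'.comp Bq.subtype) hcomm)) :=
    s59e_adj_isLocalRing _ hlocTT
  haveI := hR'fin
  have hψl : IsLocalHom (ψ : s59e_adj 𝒪 (s59e_aB aM (ρ'.comp Bq.subtype) hcomm) →+* D.R') :=
    s59e_algHom_isLocalHom _ _ ψ
  exact s59e_TLevel_ring D r σ hp2 hpm σB DQ n ρ' Bq C hCB b' hb' π aM hcomm hFa hlocA hTρ
    h2 h3 h4 χ' k2 k3 k4 hχ' ψ hψl hψd hπψ g hcard hgen hord θ hθ Sn hSn tT' hfrobT hψt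
    h1tr h1det hrad hχ hC8

end Ring

end Fermat.Agent.Lib.S59
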