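/-
Programme R2 (S59), node [LIFT-min] = FIN-L, `T`-side (helper5, prefix `s59e_L_` / `s59e_TLevelL`): **THE LEVEL RECORD FOR FIN-L
AND THE LEVEL THEOREM FOR THE RINGS OF `ERing.lean`.**

helper4's `s59f_FINL_abs` (FLiftT.lean) needs, beyond the landed `s59i_TLevel`:
  (i) `ψ` is `𝒪`-linear (`hψ𝒪`); (ii) [C8] with the SPECIFIC `τ = θ(tr ρ_Q(σ_q)² − 4)`, `σ_q ∈ I_q` (`hC8`, as membership in the
  annihilator of the level module `L0.N`; `hσQ` gives `tr ρ_∅(σ_q) = 2`); (iii) the variables lie in `𝔞` (`s59e_L_frameA_*`).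

* `s59e_L_frameA_CX / _X / _le` : `𝔞 = s59t_frameA σ (ker constantCoeff)` contains `C (X i)`, `X j`, and is generated by them;
* `s59e_TLevelL`             : the record at the Taylor–Wiles level `n` (ONE module, the type-`1` part `eig_{⊤,1}(Y)` of the base);
* `s59e_L_psi_surj`          : [DENS] for explicit base data (copy of `s59e_psi_surj`);
* `s59e_TLevelL_ring`        : the level theorem (`T′ = 𝒪[aM(A)]`, `T = 𝒪[aM(A), ρ'(B_Q)]`), from helper8's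
                               `s59t_TSide_level'`.
-/
import Mathlib
import Fermat.Agent.Lib.S59.ETLvlRing
import Fermat.Agent.Lib.S59.LChiRing

set_option autoImplicit false
set_option linter.unusedSectionVars false
set_option linter.unusedVariables false
set_option linter.style.haveILetI false
set_option maxHeartbeats 1600000
set_option synthInstance.maxHeartbeats 400000

noncomputable section

namespace Fermat.Agent.Lib.S59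

open IsLocalRing MvPowerSeries CuspForm
open Fermat.Agent.Lib.Deform (IsTestAlgebra)

local notation "Γℚ" => (AlgebraicClosure ℚ ≃ₐ[ℚ] AlgebraicClosure ℚ)

/-! ### The augmentation ideal -/

section FrameAL

variable (σ : Type) [DecidableEq σ] [Fintype σ] {𝒪 : Type} [CommRing 𝒪] {r : ℕ}

theorem s59e_L_frameA_CX (i : Fin r) :
    (C (X i) : MvPowerSeries σ (MvPowerSeries (Fin r) 𝒪)) ∈
      s59t_frameA σ (RingHom.ker (constantCoeff (σ := Fin r) (R := 𝒪))) := by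
  rw [s59t_mem_frameA, RingHom.mem_ker, constantCoeff_C, constantCoeff_X]

theorem s59e_L_frameA_X (j : σ) :
    (X j : MvPowerSeries σ (MvPowerSeries (Fin r) 𝒪)) ∈
      s59t_frameA σ (RingHom.ker (constantCoeff (σ := Fin r) (R := 𝒪))) := by
  rw [s59t_mem_frameA, RingHom.mem_ker, constantCoeff_X, map_zero]

theorem s59e_L_frameA_le :
    s59t_frameA σ (RingHom.ker (constantCoeff (σ := Fin r) (R := 𝒪))) ≤
      Ideal.span (Set.range (fun i : Fin r =>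
        (C (X i) : MvPowerSeries σ (MvPowerSeries (Fin r) 𝒪))) ∪ Set.range (fun j : σ =>
        (X j : MvPowerSeries σ (MvPowerSeries (Fin r) 𝒪)))) := by
  intro s hs
  rw [s59t_mem_frameA, RingHom.mem_ker] at hs
  have hsplit : s = (s - C (constantCoeff s)) + C (constantCoeff s) := by ring
  rw [hsplit]
  refine Ideal.add_mem _ ?_ ?_
  · exact Ideal.span_mono Set.subset_union_right (s59l_sub_C_mem s)
  · have h1 := s59l_sub_C_mem (constantCoeff s)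
    rw [hs, map_zero, sub_zero] at h1
    have h2 := Ideal.mem_map_of_mem (C (σ := σ) (R := MvPowerSeries (Fin r) 𝒪)) h1
    rw [Ideal.map_span] at h2
    refine Ideal.span_mono ?_ h2
    rintro _ ⟨_, ⟨i, rfl⟩, rfl⟩
    exact Or.inl ⟨i, rfl⟩

end FrameAL

/-! ### The record -/

/-- **the `T`-side of FIN-L at the Taylor–Wiles level `n`**: the inputs of helper4's `s59f_FINL_abs` at one level, over the base
`(R, M, ρR)`. -/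
structure s59e_TLevelL (𝒪 : Type) [CommRing 𝒪] [IsDomain 𝒪] [IsDiscreteValuationRing 𝒪]
    [IsAdicComplete (maximalIdeal 𝒪) 𝒪] (p n r : ℕ) (σ : Type)
    (R : Type) [CommRing R] [IsLocalRing R] [Algebra 𝒪 R] (M : Type) [AddCommGroup M] [Module R M]
    (ρR : GaloisRepAdic R) (d : ℕ) (qv : Fin r → ℕ)
    {ρbar : ResidualGaloisRep (ResidueField 𝒪)}
    {𝒟 : ∀ ⦃A : Type⦄ [CommRing A] [IsLocalRing A] [Algebra 𝒪 A], GaloisRepAdic A → Prop}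
    (DQ : GaloisRep.DeformationRingData 𝒪 ρbar 𝒟) : Type 1 where
  /-- the TRACE ring `T′ = 𝒪[T_ℓ]` -/
  T' : Type
  [iT'1 : CommRing T']
  [iT'2 : IsLocalRing T']
  [iT'3 : IsNoetherianRing T']
  [iT'4 : IsAdicComplete (maximalIdeal T') T']
  [iT'5 : Algebra 𝒪 T']
  /-- the ring `T ⊇ T′` with the square roots of the diamond operators -/
  T : Type
  [iT1 : CommRing T]
  [iT2 : IsLocalRing T]
  [iT4 : IsAdicComplete (maximalIdeal T) T]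
  [iT5 : Algebra 𝒪 T]
  [iT6 : Algebra T' T]
  [iT7 : IsScalarTower 𝒪 T' T]
  [iT8 : Module.Finite T' T]
  θ : DQ.R →ₐ[𝒪] T'
  hθ : Function.Surjective θ
  L0 : s59p_Level (MvPowerSeries σ (MvPowerSeries (Fin r) 𝒪)) (MvPowerSeries σ T) R M
    (s59t_frameA σ (RingHom.ker (constantCoeff (σ := Fin r) (R := 𝒪))))
    (s59t_frameJ σ (s59t_JH 𝒪 p n r))
  hd : L0.d = d
  std : MvPowerSeries σ (MvPowerSeries (Fin r) 𝒪) →ₐ[𝒪] MvPowerSeries σ T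
  hstd : ∀ x, L0.φ x = std x
  hψ𝒪 : ∀ t : 𝒪, L0.ψ (algebraMap 𝒪 (MvPowerSeries σ T) t) = algebraMap 𝒪 R t
  uu : Fin r → Tˣ
  huu : ∀ i, ((uu i : Tˣ) : T) - 1 ∈ maximalIdeal T
  hgen : Algebra.adjoin T' (Set.range (fun i => ((uu i : Tˣ) : T)) ∪
    Set.range (fun i => (((uu i)⁻¹ : Tˣ) : T))) = ⊤
  hstdX : ∀ i, std (C (X i)) = C (((uu i : Tˣ) : T) - (((uu i)⁻¹ : Tˣ) : T))
  hstdz : ∀ j, std (X j) = X j
  /-- the inertia elements at the Taylor–Wiles primes -/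
  σQ : Fin r → Γℚ
  hσQ : ∀ i, ∃ A : ValuationSubring (AlgebraicClosure ℚ), A.LiesOverPrime (qv i) ∧
    σQ i ∈ A.inertiaSubgroupIn ℚ
  /-- [C8] with the specific `τ`, on the level module -/
  hC8 : ∀ i, (C ((((uu i : Tˣ) : T) - (((uu i)⁻¹ : Tˣ) : T)) ^ 2 -
      algebraMap T' T (θ (s59i_cpTr DQ.ρ (σQ i) ^ 2 - 4))) : MvPowerSeries σ T) ∈
    Module.annihilator (MvPowerSeries σ T) L0.N
  /-- the common trace function -/
  hτ : ∀ g, L0.ψ (C (algebraMap T' T (θ (s59i_cpTr DQ.ρ g)))) = s59i_cpTr ρR g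

attribute [instance] s59e_TLevelL.iT'1 s59e_TLevelL.iT'2 s59e_TLevelL.iT'3 s59e_TLevelL.iT'4
  s59e_TLevelL.iT'5 s59e_TLevelL.iT1 s59e_TLevelL.iT2 s59e_TLevelL.iT4 s59e_TLevelL.iT5
  s59e_TLevelL.iT6 s59e_TLevelL.iT7 s59e_TLevelL.iT8

/-- **the `T`-side of FIN-L at the base level** (chosen once): the base Hecke ring `R = T_∅` with its module `M`, the
Galois representation `ρR` of type `𝒟₀` and the surjection `ν : R_∅ ↠ T_∅` (the inputs `R, M, ρR, ν` of helper4's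
`s59f_FINL_abs`). -/
structure s59e_TBaseL (𝒪 : Type) [CommRing 𝒪] [IsDomain 𝒪] [IsDiscreteValuationRing 𝒪]
    [IsAdicComplete (maximalIdeal 𝒪) 𝒪]
    {ρbar : ResidualGaloisRep (ResidueField 𝒪)}
    {𝒟₀ : ∀ ⦃A : Type⦄ [CommRing A] [IsLocalRing A] [Algebra 𝒪 A], GaloisRepAdic A → Prop}
    (D0 : GaloisRep.DeformationRingData 𝒪 ρbar 𝒟₀) : Type 1 where
  R : Type
  [iR1 : CommRing R]
  [iR2 : IsLocalRing R]
  [iR3 : IsNoetherianRing R]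
  [iR4 : IsAdicComplete (maximalIdeal R) R]
  [iR5 : Algebra 𝒪 R]
  [iR6 : IsLocalHom (algebraMap 𝒪 R)]
  [iR7 : Module.Finite 𝒪 R]
  hRres : Function.Surjective (residue R ∘ algebraMap 𝒪 R)
  M : Type
  [iM1 : AddCommGroup M]
  [iM2 : Module R M]
  [iM3 : Module.Finite R M]
  [iM4 : Nontrivial M]
  ν : D0.R →ₐ[𝒪] R
  hνs : Function.Surjective ν
  ρR : GaloisRepAdic R
  hν : ∀ g, ν (s59i_cpTr D0.ρ g) = s59i_cpTr ρR g
  hρR : 𝒟₀ ρR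
  hresR : ρR.residual.IsEquiv
    (ρbar.baseChangeAlong (IsLocalRing.ResidueField.map (algebraMap 𝒪 R)))
  d : ℕ

attribute [instance] s59e_TBaseL.iR1 s59e_TBaseL.iR2 s59e_TBaseL.iR3 s59e_TBaseL.iR4
  s59e_TBaseL.iR5 s59e_TBaseL.iR6 s59e_TBaseL.iR7 s59e_TBaseL.iM1 s59e_TBaseL.iM2 s59e_TBaseL.iM3
  s59e_TBaseL.iM4

/-! ### [DENS] for explicit base data -/

section Dens

variable {𝒪 : Type} [CommRing 𝒪] [IsDomain 𝒪] [IsDiscreteValuationRing 𝒪]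
  [IsAdicComplete (maximalIdeal 𝒪) 𝒪]
  {ρbar : ResidualGaloisRep (ResidueField 𝒪)}
  {𝒟 : ∀ ⦃A : Type⦄ [CommRing A] [IsLocalRing A] [Algebra 𝒪 A], GaloisRepAdic A → Prop}
  (DQ : GaloisRep.DeformationRingData 𝒪 ρbar 𝒟)
  {N : ℕ} {B : Finset ℕ}
  (R : Type) [CommRing R] [IsLocalRing R] [IsNoetherianRing R] [Algebra 𝒪 R]
  (ρR : GaloisRepAdic R) (tR : ℕ → R)
  (hfrobR : ∀ (ℓ : ℕ), ℓ.Prime → ¬ ℓ ∣ N → ℓ ∉ (↑B : Set ℕ) →
    ∀ A : ValuationSubring (AlgebraicClosure ℚ), A.LiesOverPrime ℓ →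
    ∀ g : Γℚ, A.IsFrobeniusAt g ℓ →
      LinearMap.charpoly (ρR.ρ g) =
        Polynomial.X ^ 2 - Polynomial.C (tR ℓ) * Polynomial.X + Polynomial.C ((ℓ : R)))
  {T' : Type} [CommRing T'] [IsLocalRing T'] [Algebra 𝒪 T']
  {T : Type} [CommRing T] [IsLocalRing T] [Algebra 𝒪 T] [Algebra T' T]
  (hlocT : ∀ x ∈ maximalIdeal T', algebraMap T' T x ∈ maximalIdeal T)
  (ψ : T →ₐ[𝒪] R) (hψl : IsLocalHom (ψ : T →+* R))
  (θ : DQ.R →ₐ[𝒪] T') (hθ : Function.Surjective θ)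
  (Sn : Finset ℕ) (hSn : ∀ ℓ : ℕ, ℓ.Prime → ℓ ∉ Sn → ¬ ℓ ∣ N ∧ ℓ ∉ (↑B : Set ℕ))
  (tT' : ℕ → T')
  (hfrobT : ∀ ℓ : ℕ, ℓ.Prime → ℓ ∉ Sn →
    ∀ A : ValuationSubring (AlgebraicClosure ℚ), A.LiesOverPrime ℓ →
    ∀ τ : Γℚ, A.IsFrobeniusAt τ ℓ →
      (LinearMap.charpoly (DQ.ρ.ρ τ)).map (θ : DQ.R →+* T') =
        Polynomial.X ^ 2 - Polynomial.C (tT' ℓ) * Polynomial.X + Polynomial.C ((ℓ : T')))
  (hψt : ∀ ℓ : ℕ, ℓ.Prime → ℓ ∉ Sn → ψ (algebraMap T' T (tT' ℓ)) = tR ℓ)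

include hfrobR hlocT hψl hθ hSn hfrobT hψt in
/-- **the common trace function**: `cpTr ρR γ = ψ(θ(cpTr ρ_Q γ))` for EVERY `γ` ([CHAR-UNIQ]). -/
theorem s59e_L_cp_compat (γ : Γℚ) :
    s59i_cpTr ρR γ = ψ (algebraMap T' T (θ (s59i_cpTr DQ.ρ γ))) := by
  have hθl : IsLocalHom (θ : DQ.R →+* T') := IsLocalHom.of_surjective _ hθ
  have hal : IsLocalHom (algebraMap T' T) :=
    ((IsLocalRing.local_hom_TFAE (algebraMap T' T)).out 0 2).mpr (by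
      rw [Ideal.map_le_iff_le_comap]
      exact fun x hx => hlocT x hx)
  let F : DQ.R →+* R := ((ψ : T →+* R).comp (algebraMap T' T)).comp (θ : DQ.R →+* T')
  have hFl : IsLocalHom F := by
    haveI := hθl
    haveI := hal
    haveI := hψl
    exact RingHom.isLocalHom_comp _ _
  refine (s59e_cp_compat F hFl DQ.ρ ρR Sn ?_ γ).1
  intro ℓ hℓ hℓS A hA τ hτ
  obtain ⟨hℓN, hℓB⟩ := hSn ℓ hℓ hℓS
  rw [hfrobR ℓ hℓ hℓN hℓB A hA τ hτ]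
  have h1 := hfrobT ℓ hℓ hℓS A hA τ hτ
  have h2 : (LinearMap.charpoly (DQ.ρ.ρ τ)).map F =
      ((LinearMap.charpoly (DQ.ρ.ρ τ)).map (θ : DQ.R →+* T')).map
        ((ψ : T →+* R).comp (algebraMap T' T)) := by
    rw [Polynomial.map_map]
  rw [h2, h1]
  simp only [Polynomial.map_add, Polynomial.map_sub, Polynomial.map_mul, Polynomial.map_pow,
    Polynomial.map_X, Polynomial.map_C, RingHom.comp_apply, RingHom.coe_coe, map_natCast,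
    Polynomial.map_natCast, hψt ℓ hℓ hℓS]

variable (hgenR : Algebra.adjoin 𝒪 {x : R | ∃ ℓ : ℕ, ℓ.Prime ∧ ¬ ℓ ∣ N ∧ ℓ ∉ (↑B : Set ℕ) ∧
  x = tR ℓ} = ⊤)

include hfrobR hlocT hψl hθ hSn hfrobT hψt hgenR in
/-- **[DENS]: the descent `ψ : T → R` is surjective.** -/
theorem s59e_L_psi_surj : Function.Surjective ψ := by
  have hrange : (⊤ : Subalgebra 𝒪 R) ≤ ψ.range := by
    rw [← hgenR]
    refine Algebra.adjoin_le ?_
    rintro _ ⟨ℓ, hℓ, hℓN, hℓB, rfl⟩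
    obtain ⟨A, τ, hA, hτ⟩ := Fermat.Agent.Lib.Frobenius.exists_isFrobeniusAt ℓ hℓ
    have h1 := s59i_cpTr_of_charpoly ρR τ _ _ (hfrobR ℓ hℓ hℓN hℓB A hA τ hτ)
    rw [← h1, s59e_L_cp_compat DQ R ρR tR hfrobR hlocT ψ hψl θ hθ Sn hSn tT' hfrobT hψt τ]
    exact ⟨algebraMap T' T (θ (s59i_cpTr DQ.ρ τ)), rfl⟩
  intro x
  obtain ⟨t, ht⟩ := hrange (Algebra.mem_top (x := x))
  exact ⟨t, ht⟩

end Dens

/-! ### The level theorem -/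

section Ring

variable {p : ℕ} [hp : Fact p.Prime]
  {𝒪 : Type} [CommRing 𝒪] [IsDomain 𝒪] [IsDiscreteValuationRing 𝒪]
  [IsAdicComplete (maximalIdeal 𝒪) 𝒪] [Finite (ResidueField 𝒪)] [CharZero 𝒪]
  {ρbar : ResidualGaloisRep (ResidueField 𝒪)}
  (r : ℕ) (σ : Type) [DecidableEq σ] [Fintype σ]
  (hp2 : p ≠ 2) (hpm : (p : 𝒪) ∈ maximalIdeal 𝒪)
  {𝒟 : ∀ ⦃A : Type⦄ [CommRing A] [IsLocalRing A] [Algebra 𝒪 A], GaloisRepAdic A → Prop}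
  (DQ : GaloisRep.DeformationRingData 𝒪 ρbar 𝒟) (n : ℕ)
  -- the base
  {N : ℕ} {B : Finset ℕ}
  {Δ : Type} [CommGroup Δ] [Fintype Δ] {Y : Type} [AddCommGroup Y] [Module 𝒪 Y]
  (ρΔ : Δ →* Module.End 𝒪 Y)
  (R : Type) [CommRing R] [IsLocalRing R] [IsNoetherianRing R] [Algebra 𝒪 R] [Module.Finite 𝒪 R]
  [Module R Y] [IsScalarTower 𝒪 R Y]
  (hRρ : ∀ (t : R) (δ : Δ) (y : Y), t • ρΔ δ y = ρΔ δ (t • y))
  (ρR : GaloisRepAdic R) (tR : ℕ → R)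
  (hfrobR : ∀ (ℓ : ℕ), ℓ.Prime → ¬ ℓ ∣ N → ℓ ∉ (↑B : Set ℕ) →
    ∀ A : ValuationSubring (AlgebraicClosure ℚ), A.LiesOverPrime ℓ →
    ∀ g : Γℚ, A.IsFrobeniusAt g ℓ →
      LinearMap.charpoly (ρR.ρ g) =
        Polynomial.X ^ 2 - Polynomial.C (tR ℓ) * Polynomial.X + Polynomial.C ((ℓ : R)))
  (hgenR : Algebra.adjoin 𝒪 {x : R | ∃ ℓ : ℕ, ℓ.Prime ∧ ¬ ℓ ∣ N ∧ ℓ ∉ (↑B : Set ℕ) ∧
    x = tR ℓ} = ⊤)
  (d : ℕ)
  -- the level
  {Δ' : Type} [CommGroup Δ'] [Fintype Δ'] {Y' : Type} [AddCommGroup Y'] [Module 𝒪 Y']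
  [Module.Free 𝒪 Y'] [Module.Finite 𝒪 Y'] [Nontrivial Y']
  (ρ' : Δ' →* Module.End 𝒪 Y') (Bq C : Subgroup Δ') [Fintype Bq] [Fintype C]
  (hCB : Function.Bijective (fun x : C × Bq => ((x.1 : Δ') * (x.2 : Δ'))))
  (b' : Fin d → Y') (hb' : Function.Bijective (s59t_evalMap ρ' b'))
  (π : Y' →ₗ[𝒪] Y)
  {A : Type} [CommRing A] (aM : A →+* Module.End 𝒪 Y') [IsLocalRing (s59e_adj 𝒪 aM)]
  (hcomm : ∀ (t : A) (β : Bq), Commute (aM t) ((ρ'.comp Bq.subtype) β))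
  (hlocA : ∀ x ∈ s59e_adj 𝒪 aM, ∃ d : 𝒪, s59e_IsLocScalar x d)
  (hTρ : ∀ (t : s59e_adj 𝒪 (s59e_aB aM (ρ'.comp Bq.subtype) hcomm)) (δ : Δ') (y : Y'),
    t • ρ' δ y = ρ' δ (t • y))
  -- type 1
  (h2 : ∀ y ∈ s59t_eig ρ' C (1 : Δ' →* 𝒪ˣ), π y ∈ s59t_eig ρΔ ⊤ (1 : Δ →* 𝒪ˣ))
  (h3 : ∀ x ∈ s59t_eig ρΔ ⊤ (1 : Δ →* 𝒪ˣ), ∃ y ∈ s59t_eig ρ' C (1 : Δ' →* 𝒪ˣ), π y = x)
  (h4 : ∀ y ∈ s59t_eig ρ' C (1 : Δ' →* 𝒪ˣ), π y = 0 → y ∈ Submodule.span 𝒪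
    {z : Y' | ∃ β ∈ Bq, ∃ y' ∈ s59t_eig ρ' C (1 : Δ' →* 𝒪ˣ), z = ρ' β y' - y'})
  -- the descent to the base level
  (ψ : s59e_adj 𝒪 (s59e_aB aM (ρ'.comp Bq.subtype) hcomm) →ₐ[𝒪] R)
  (hψd : ∀ β, ψ (s59e_dia aM (ρ'.comp Bq.subtype) hcomm β) = 1)
  (hπψ : ∀ (t : s59e_adj 𝒪 (s59e_aB aM (ρ'.comp Bq.subtype) hcomm)) (y : Y'),
    π (t • y) = ψ t • π y)
  -- the Taylor–Wiles group
  (g : Fin r → Bq) (hcard : Nat.card Bq = (p ^ n) ^ r)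
  (hgen : ∀ β : Bq, ∃ a : Fin r → ℕ, β = ∏ i, g i ^ a i) (hord : ∀ i, g i ^ (p ^ n) = 1)
  -- the Galois side
  (θ : DQ.R →ₐ[𝒪] s59e_adj 𝒪 aM) (hθ : Function.Surjective θ)
  (Sn : Finset ℕ) (hSn : ∀ ℓ : ℕ, ℓ.Prime → ℓ ∉ Sn → ¬ ℓ ∣ N ∧ ℓ ∉ (↑B : Set ℕ))
  (tT' : ℕ → s59e_adj 𝒪 aM)
  (hfrobT : ∀ ℓ : ℕ, ℓ.Prime → ℓ ∉ Sn →
    ∀ A' : ValuationSubring (AlgebraicClosure ℚ), A'.LiesOverPrime ℓ →
    ∀ τ : Γℚ, A'.IsFrobeniusAt τ ℓ →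
      (LinearMap.charpoly (DQ.ρ.ρ τ)).map (θ : DQ.R →+* s59e_adj 𝒪 aM) =
        Polynomial.X ^ 2 - Polynomial.C (tT' ℓ) * Polynomial.X +
          Polynomial.C ((ℓ : s59e_adj 𝒪 aM)))
  (hψt : ∀ ℓ : ℕ, ℓ.Prime → ℓ ∉ Sn →
    ψ (s59e_incl aM (ρ'.comp Bq.subtype) hcomm (tT' ℓ)) = tR ℓ)
  -- [C8], with the inertia elements
  (qv : Fin r → ℕ)
  (hC8 : ∀ i, ∃ σ₀ : Γℚ,
    (∃ A' : ValuationSubring (AlgebraicClosure ℚ), A'.LiesOverPrime (qv i) ∧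
      σ₀ ∈ A'.inertiaSubgroupIn ℚ) ∧
    ((s59e_dia aM (ρ'.comp Bq.subtype) hcomm (s59t_hh p n g i) :
        s59e_adj 𝒪 (s59e_aB aM (ρ'.comp Bq.subtype) hcomm)) -
      (s59e_dia aM (ρ'.comp Bq.subtype) hcomm (s59t_hh p n g i)⁻¹ :
        s59e_adj 𝒪 (s59e_aB aM (ρ'.comp Bq.subtype) hcomm))) ^ 2 -
      s59e_incl aM (ρ'.comp Bq.subtype) hcomm (θ (s59i_cpTr DQ.ρ σ₀ ^ 2 - 4)) ∈
      Module.annihilator (s59e_adj 𝒪 (s59e_aB aM (ρ'.comp Bq.subtype) hcomm))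
        (s59t_EigT (T := s59e_adj 𝒪 (s59e_aB aM (ρ'.comp Bq.subtype) hcomm)) ρ' C
          (1 : Δ' →* 𝒪ˣ) hTρ))

include hp2 hpm hCB hb' hlocA h2 h3 h4 hψd hπψ hcard hgen hord hθ hSn hfrobT hψt hC8 hfrobR hgenR in
/-- **the level theorem of FIN-L for the rings `T′ = 𝒪[aM(A)] ⊆ T = 𝒪[aM(A), ρ'(B_Q)]`.** -/
theorem s59e_TLevelL_ring :
    Nonempty (s59e_TLevelL 𝒪 p n r σ R (s59t_EigT ρΔ ⊤ (1 : Δ →* 𝒪ˣ) hRρ) ρR d qv DQ) := by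
  classical
  letI := s59e_algTT aM (ρ'.comp Bq.subtype) hcomm
  haveI : IsLocalHom (algebraMap 𝒪 (s59e_adj 𝒪 aM)) := s59e_adj_isLocalHom aM hlocA
  -- the elements of `B_Q` have `p`-power order
  have hBp : ∀ β : Bq, β ^ (p ^ n) = 1 := by
    intro β
    obtain ⟨e, rfl⟩ := hgen β
    rw [← Finset.prod_pow]
    refine Finset.prod_eq_one fun i _ => ?_
    rw [← pow_mul, mul_comm, pow_mul, hord i, one_pow]
  have hlocB : ∀ β, ∃ d : 𝒪, s59e_IsLocScalar ((ρ'.comp Bq.subtype) β) d := fun β =>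
    ⟨1, s59e_isLocScalar_of_pow_eq_one p n hpm _ (by rw [← map_pow, hBp β, map_one])⟩
  have hlocTT := s59e_adjB_locScalar aM (ρ'.comp Bq.subtype) hcomm hlocA hlocB
  haveI : IsLocalRing (s59e_adj 𝒪 (s59e_aB aM (ρ'.comp Bq.subtype) hcomm)) :=
    s59e_adj_isLocalRing _ hlocTT
  haveI : IsLocalHom (algebraMap 𝒪 (s59e_adj 𝒪 (s59e_aB aM (ρ'.comp Bq.subtype) hcomm))) :=
    s59e_adj_isLocalHom _ hlocTT
  haveI : IsNoetherianRing (s59e_adj 𝒪 aM) := s59e_adj_noeth aM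
  haveI : IsAdicComplete (maximalIdeal (s59e_adj 𝒪 aM)) (s59e_adj 𝒪 aM) := s59e_adj_complete aM
  haveI : IsAdicComplete (maximalIdeal (s59e_adj 𝒪 (s59e_aB aM (ρ'.comp Bq.subtype) hcomm)))
      (s59e_adj 𝒪 (s59e_aB aM (ρ'.comp Bq.subtype) hcomm)) := s59e_adj_complete _
  haveI : IsScalarTower 𝒪 (s59e_adj 𝒪 aM)
      (s59e_adj 𝒪 (s59e_aB aM (ρ'.comp Bq.subtype) hcomm)) :=
    s59e_towerTT aM (ρ'.comp Bq.subtype) hcomm
  haveI : Module.Finite (s59e_adj 𝒪 aM) (s59e_adj 𝒪 (s59e_aB aM (ρ'.comp Bq.subtype) hcomm)) :=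
    s59e_finiteTT aM (ρ'.comp Bq.subtype) hcomm
  have hlocT : ∀ x ∈ maximalIdeal (s59e_adj 𝒪 aM),
      algebraMap (s59e_adj 𝒪 aM) (s59e_adj 𝒪 (s59e_aB aM (ρ'.comp Bq.subtype) hcomm)) x ∈
        maximalIdeal (s59e_adj 𝒪 (s59e_aB aM (ρ'.comp Bq.subtype) hcomm)) :=
    fun x hx => s59e_incl_maximal aM (ρ'.comp Bq.subtype) hcomm hlocA x hx
  have huu : ∀ β : Bq, (s59e_dia aM (ρ'.comp Bq.subtype) hcomm β :
      s59e_adj 𝒪 (s59e_aB aM (ρ'.comp Bq.subtype) hcomm)) - 1 ∈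
      maximalIdeal (s59e_adj 𝒪 (s59e_aB aM (ρ'.comp Bq.subtype) hcomm)) :=
    fun β => s59e_dia_sub_one_mem aM (ρ'.comp Bq.subtype) hcomm p hpm β n (hBp β)
  have hgenT := s59e_hgenT (𝒪 := 𝒪) aM (ρ'.comp Bq.subtype) hcomm
  have hψl : IsLocalHom (ψ : s59e_adj 𝒪 (s59e_aB aM (ρ'.comp Bq.subtype) hcomm) →+* R) :=
    s59e_algHom_isLocalHom _ _ ψ
  have hcp := s59e_L_cp_compat DQ R ρR tR hfrobR hlocT ψ hψl θ hθ Sn hSn tT' hfrobT hψt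
  have hψs : Function.Surjective ψ :=
    s59e_L_psi_surj DQ R ρR tR hfrobR hlocT ψ hψl θ hθ Sn hSn tT' hfrobT hψt hgenR
  -- the level
  obtain ⟨L0, -, std, uu, hd, -, hstd, -, -, huuv, hstdX, hstdz, hann1, -, hψ1, -, -, -⟩ :=
    s59t_TSide_level' (σ := σ) (ρ := ρΔ) (ρ' := ρ') (B := Bq) (C := C) hCB b' hb' π
      (T := s59e_adj 𝒪 (s59e_aB aM (ρ'.comp Bq.subtype) hcomm)) hTρ
      (s59e_dia aM (ρ'.comp Bq.subtype) hcomm) (s59e_hdia aM (ρ'.comp Bq.subtype) hcomm)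
      h2 h3 h4 (R := R) hRρ ψ hψs hψd hπψ (1 : Δ →* 𝒪ˣ) (1 : Δ' →* 𝒪ˣ) h2 h3 h4
      (R' := R) hRρ ψ hψs hψd hπψ hp2 hpm g hcard hgen hord (0 : 𝒪)
      (fun γ _ => by rw [MonoidHom.one_apply, Units.val_one, sub_self]; exact Ideal.zero_mem _)
      (s59t_JH 𝒪 p n r) rfl
  -- the inverse of `uu`
  have huuinv : ∀ i, (((uu i)⁻¹ : (s59e_adj 𝒪 (s59e_aB aM (ρ'.comp Bq.subtype) hcomm))ˣ) :
      s59e_adj 𝒪 (s59e_aB aM (ρ'.comp Bq.subtype) hcomm)) =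
      s59e_dia aM (ρ'.comp Bq.subtype) hcomm (s59t_hh p n g i)⁻¹ := by
    intro i
    have h1 : ((uu i : (s59e_adj 𝒪 (s59e_aB aM (ρ'.comp Bq.subtype) hcomm))ˣ) :
        s59e_adj 𝒪 (s59e_aB aM (ρ'.comp Bq.subtype) hcomm)) *
        s59e_dia aM (ρ'.comp Bq.subtype) hcomm (s59t_hh p n g i)⁻¹ = 1 := by
      rw [huuv i, ← map_mul, mul_inv_cancel, map_one]
    exact (Units.inv_eq_of_mul_eq_one_right h1)
  choose σQ hσQ hC8' using hC8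
  refine ⟨{
    T' := s59e_adj 𝒪 aM
    T := s59e_adj 𝒪 (s59e_aB aM (ρ'.comp Bq.subtype) hcomm)
    θ := θ
    hθ := hθ
    L0 := L0
    hd := hd
    std := std
    hstd := hstd
    hψ𝒪 := fun t => by
      rw [hψ1, MvPowerSeries.algebraMap_apply, MvPowerSeries.constantCoeff_C]
      exact ψ.commutes t
    uu := uu
    huu := fun i => by rw [huuv i]; exact huu _
    hgen := ?_
    hstdX := hstdX
    hstdz := hstdz
    σQ := σQ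
    hσQ := hσQ
    hC8 := fun i => ?_
    hτ := fun γ => ?_ }⟩
  · -- hgen
    rw [eq_top_iff, ← hgenT]
    refine Algebra.adjoin_le ?_
    rintro _ ⟨β, rfl⟩
    obtain ⟨e, he⟩ := hgen β
    have hodd : Odd (p ^ n) := Odd.pow (hp.out.odd_of_ne_two hp2)
    have hg2 : ∀ i, g i = s59t_hh p n g i ^ 2 := by
      intro i
      obtain ⟨k, hk⟩ := hodd
      have h1 : (p ^ n + 1) / 2 * 2 = p ^ n + 1 := by omega
      unfold s59t_hh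
      rw [← pow_mul, h1, pow_succ, hord i, one_mul]
    have h3 : (s59e_dia aM (ρ'.comp Bq.subtype) hcomm β :
        s59e_adj 𝒪 (s59e_aB aM (ρ'.comp Bq.subtype) hcomm)) =
        ∏ i, ((uu i : (s59e_adj 𝒪 (s59e_aB aM (ρ'.comp Bq.subtype) hcomm))ˣ) :
          s59e_adj 𝒪 (s59e_aB aM (ρ'.comp Bq.subtype) hcomm)) ^ (2 * e i) := by
      rw [he, map_prod]
      refine Finset.prod_congr rfl fun i _ => ?_
      rw [huuv i, pow_mul, ← map_pow (s59e_dia aM (ρ'.comp Bq.subtype) hcomm) (s59t_hh p n g i) 2,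
        ← hg2 i, ← map_pow (s59e_dia aM (ρ'.comp Bq.subtype) hcomm) (g i) (e i)]
    show (s59e_dia aM (ρ'.comp Bq.subtype) hcomm β :
      s59e_adj 𝒪 (s59e_aB aM (ρ'.comp Bq.subtype) hcomm)) ∈ _
    rw [h3]
    refine Subalgebra.prod_mem _ fun i _ => Subalgebra.pow_mem _ ?_ _
    exact Algebra.subset_adjoin (Or.inl ⟨i, rfl⟩)
  · -- hC8
    refine hann1 _ fun e => ?_
    rw [MvPowerSeries.coeff_C]
    split_ifs with he
    · rw [huuv i, huuinv i]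
      exact hC8' i
    · exact Submodule.zero_mem _
  · -- hτ
    rw [hψ1, MvPowerSeries.constantCoeff_C]
    exact (hcp γ).symm

end Ring

end Fermat.Agent.Lib.S59
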