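/-
Programme (R) = S59, node (E) module half (helper8), file 76: **the invariants as a Hecke module**
((M3) of the base record).  If `ι : Z → Y` is an injective `𝒪`-linear map whose image is the
`B`-invariants of `Y`, `R'` acts on `Y` commuting with `ρ`, `R` acts on `Z` and `f : R' → R` satisfies
`ι (f t • z) = t • ι z`, then `s59t_EigT ρ B 1 ≃+ Z`, `f`-semilinearly.  Applied to
`ι = ε' ∘ res` of a `s59t_TWFull` package (image `= B`-invariants).
-/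
import Mathlib
import Fermat.Agent.Lib.S59.TEigT
import Fermat.Agent.Lib.S59.TLvlCtl

set_option autoImplicit false
set_option linter.unusedSectionVars false
set_option linter.unusedVariables false
set_option linter.style.haveILetI false

open scoped BigOperators

noncomputable section

namespace Fermat.Agent.Lib.S59

section Abs

variable {𝒪 : Type*} [CommRing 𝒪]
  {Δ : Type*} [CommGroup Δ] [Fintype Δ] {Y : Type*} [AddCommGroup Y] [Module 𝒪 Y]
  (ρ : Δ →* Module.End 𝒪 Y) (B : Subgroup Δ)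
  {R' : Type*} [CommRing R'] [Algebra 𝒪 R'] [Module R' Y] [IsScalarTower 𝒪 R' Y]
  (hRρ : ∀ (t : R') (δ : Δ) (y : Y), t • ρ δ y = ρ δ (t • y))
  {Z : Type*} [AddCommGroup Z] [Module 𝒪 Z] (ι : Z →ₗ[𝒪] Y)
  {R : Type*} [CommRing R] [Module R Z] (f : R' →+* R)

/-- **(M3), abstractly**: an injective `ι : Z → Y` with image the `B`-invariants identifies the
`1`-eigen-part (as a module over `R'`) with `Z` (as a module over `R`), `f`-semilinearly. -/
theorem s59t_eigT_equiv_of_iota (hinj : Function.Injective ι)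
    (hmem : ∀ z, ι z ∈ s59t_eig ρ B (1 : Δ →* 𝒪ˣ))
    (hsurj : ∀ y ∈ s59t_eig ρ B (1 : Δ →* 𝒪ˣ), ∃ z, ι z = y)
    (hfι : ∀ (t : R') (z : Z), ι (f t • z) = t • ι z) :
    ∃ e : s59t_EigT ρ B (1 : Δ →* 𝒪ˣ) hRρ ≃+ Z, ∀ (t : R') (x : s59t_EigT ρ B (1 : Δ →* 𝒪ˣ) hRρ),
      e (t • x) = f t • e x := by
  classical
  -- the inverse map `Z → EigT`
  let g : Z →+ s59t_EigT ρ B (1 : Δ →* 𝒪ˣ) hRρ :=
    { toFun := fun z => s59t_EigT_mk ρ B 1 hRρ (ι z) (hmem z)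
      map_zero' := s59t_EigT_val_injective ρ B 1 hRρ (by
        rw [s59t_EigT_val_mk, map_zero, map_zero])
      map_add' := fun z z' => s59t_EigT_val_injective ρ B 1 hRρ (by
        rw [s59t_EigT_val_mk, map_add, map_add, s59t_EigT_val_mk, s59t_EigT_val_mk]) }
  have hgval : ∀ z, s59t_EigT_val ρ B 1 hRρ (g z) = ι z := fun z => rfl
  have hgbij : Function.Bijective g := by
    refine ⟨fun z z' h => hinj ?_, fun x => ?_⟩
    · rw [← hgval, ← hgval, h]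
    · obtain ⟨z, hz⟩ := hsurj _ (s59t_EigT_val_mem ρ B 1 hRρ x)
      exact ⟨z, s59t_EigT_val_injective ρ B 1 hRρ (by rw [hgval, hz])⟩
  let E : Z ≃+ s59t_EigT ρ B (1 : Δ →* 𝒪ˣ) hRρ := AddEquiv.ofBijective g hgbij
  refine ⟨E.symm, fun t x => ?_⟩
  apply E.injective
  rw [AddEquiv.apply_symm_apply]
  apply s59t_EigT_val_injective ρ B 1 hRρ
  show _ = s59t_EigT_val ρ B 1 hRρ (g (f t • E.symm x))
  rw [hgval, hfι, s59t_EigT_val_smul]
  congr 1
  have : s59t_EigT_val ρ B 1 hRρ (E (E.symm x)) = ι (E.symm x) := hgval _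
  rw [AddEquiv.apply_symm_apply] at this
  exact this

end Abs

section Concrete

open Matrix MatrixGroups CongruenceSubgroup IsLocalRing
open Fermat.Agent.Lib.S29 Fermat.Agent.Lib.S48 Fermat.Agent.Lib.S41

variable {𝒪 : Type} [CommRing 𝒪] [IsDomain 𝒪] [IsDiscreteValuationRing 𝒪]
  [IsAdicComplete (maximalIdeal 𝒪) 𝒪] [Finite (ResidueField 𝒪)]
  {N N' : ℕ} [NeZero N] [NeZero N'] {H : Subgroup (ZMod N)ˣ} {H' : Subgroup (ZMod N')ˣ}
  (h0 : Gamma0 N' ≤ Gamma0 N) (hle : s48h_GammaH N' H' ≤ s48h_GammaH N H)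

set_option maxHeartbeats 3200000 in
/-- **(M3)** for a `s59t_TWFull` package: `ι = ε' ∘ res : part ε → part ε'` identifies `part ε`
(a module over `R`) with the `B`-invariants of `part ε'` (a module over `R'`), `f`-semilinearly. -/
theorem s59t_TWFull.eigT_equiv {B C : Subgroup (s59t_Delta N' H')} [Fintype B] [Fintype C]
    {ε : Module.End 𝒪 (s48h_Hpar 𝒪 (s48h_GammaH N H) 𝒪)}
    {ε' : Module.End 𝒪 (s48h_Hpar 𝒪 (s48h_GammaH N' H') 𝒪)}
    (hfull : s59t_TWFull h0 hle B C ε ε')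
    (hρ' : ∀ δ y, ε' (s59t_rho N' H' 𝒪 𝒪 δ y) = s59t_rho N' H' 𝒪 𝒪 δ (ε' y))
    {R' : Type*} [CommRing R'] [Algebra 𝒪 R'] [Module R' (s59t_part ε')]
    [IsScalarTower 𝒪 R' (s59t_part ε')]
    (hRρ : ∀ (t : R') (δ : s59t_Delta N' H') (y : s59t_part ε'),
      t • s59t_partRep (s59t_rho N' H' 𝒪 𝒪) hρ' δ y =
        s59t_partRep (s59t_rho N' H' 𝒪 𝒪) hρ' δ (t • y))
    {R : Type*} [CommRing R] [Module R (s59t_part ε)] (f : R' →+* R)
    (hfι : ∀ (t : R') (z : s59t_part ε),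
      s59t_iotaH ε ε' (s59t_resGHpar hle 𝒪 𝒪) (f t • z) =
        t • s59t_iotaH ε ε' (s59t_resGHpar hle 𝒪 𝒪) z) :
    ∃ e : s59t_EigT (s59t_partRep (s59t_rho N' H' 𝒪 𝒪) hρ') B
        (1 : s59t_Delta N' H' →* 𝒪ˣ) hRρ ≃+ s59t_part ε,
      ∀ (t : R') (x : s59t_EigT (s59t_partRep (s59t_rho N' H' 𝒪 𝒪) hρ') B
        (1 : s59t_Delta N' H' →* 𝒪ˣ) hRρ), e (t • x) = f t • e x := by
  obtain ⟨hρ, hρ'', d, b, b', π, hb, hb', hinj, himg, hιπ, hπs, -⟩ := hfull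
  have hmem : ∀ z, s59t_iotaH ε ε' (s59t_resGHpar hle 𝒪 𝒪) z ∈
      s59t_eig (s59t_partRep (s59t_rho N' H' 𝒪 𝒪) hρ') B (1 : s59t_Delta N' H' →* 𝒪ˣ) := by
    intro z
    obtain ⟨y, rfl⟩ := hπs z
    rw [hιπ]
    exact s59t_normPsi_mem _ B 1 y
  have hsurj : ∀ y ∈ s59t_eig (s59t_partRep (s59t_rho N' H' 𝒪 𝒪) hρ') B
      (1 : s59t_Delta N' H' →* 𝒪ˣ), ∃ z, s59t_iotaH ε ε' (s59t_resGHpar hle 𝒪 𝒪) z = y := by
    intro y hy
    refine himg y fun β hβ => ?_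
    have := hy β hβ
    rw [this, MonoidHom.one_apply, Units.val_one, one_smul]
  exact s59t_eigT_equiv_of_iota (𝒪 := 𝒪) (Y := s59t_part ε') (Z := s59t_part ε) (R' := R') (R := R)
    (s59t_partRep (s59t_rho N' H' 𝒪 𝒪) hρ') B hRρ
    (s59t_iotaH ε ε' (s59t_resGHpar hle 𝒪 𝒪)) f hinj hmem hsurj hfι

end Concrete

end Fermat.Agent.Lib.S59
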