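/-
S59 (helper2, prefix `s59b_`), (B1) **THE BASE HECKE DATA** (helper5 #3513/#3515), abstract form:
`Nonempty (s59e_BaseH B a ρbar qB (s59t_rho N H₁ 𝒪 𝒪) ε₁ hρ (s59w_op H₁ 𝒪))` for abstract idempotents `ε₁` (level
`(N, H₁)`) and `ε₂` (level `(N, ⊤)`), from helper5's `s59e_H3_hecke'` at `(N, H₁)`, `s59e_TR1'` for `H₁ ≤ ⊤`,
helper8's (M3) `s59t_TWFull.eigT_equiv`, and Brauer–Nesbitt (`s59b_hres_of_frob`).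
-/
import Mathlib
import Fermat.Agent.Lib.S59.ETBaseD
import Fermat.Agent.Lib.S59.ETR1Top2
import Fermat.Agent.Lib.S59.TBaseMod
import Fermat.Agent.Lib.S59.BBaseRes
import Fermat.Agent.Lib.S59.UW6Lat
import Fermat.Agent.Lib.S59.TBase

set_option autoImplicit false
set_option linter.unusedSectionVars false
set_option linter.unusedVariables false
set_option linter.style.haveILetI false
set_option synthInstance.maxHeartbeats 400000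
set_option maxHeartbeats 8000000

noncomputable section

namespace Fermat.Agent.Lib.S59

open Matrix.SpecialLinearGroup CongruenceSubgroup ModularCurve.Period Polynomial CuspForm
open Fermat.Agent.Lib.S48 Fermat.Agent.Lib.ES IsLocalRing
open scoped MatrixGroups

local notation "Qbar" => AlgebraicClosure ℚ
local notation "GQ" => (AlgebraicClosure ℚ ≃ₐ[ℚ] AlgebraicClosure ℚ)

section Gen

variable {𝒪 : Type*} [CommRing 𝒪] {E : Type*} [Ring E] [Algebra 𝒪 E]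
  {M₁ : ℕ} [NeZero M₁] (B : Finset ℕ)

/-- **`hgenR'`**: `𝒪[aM(𝕋)]` is generated by the `aM(T_ℓ)`, `ℓ ∤ N`, `ℓ ∉ B` (`N ∣ M₁`, the primes of `M₁` in
`B`). -/
theorem s59b_adjoin_tOf (hS : ∀ q : ℕ, q.Prime → q ∣ M₁ → q ∈ B)
    (aM : heckeAlgebra M₁ 2 (↑B : Set ℕ) →+* E) (N : ℕ) (hNM : N ∣ M₁) :
    Algebra.adjoin 𝒪 {x : s59e_adj 𝒪 aM | ∃ ℓ : ℕ, ℓ.Prime ∧ ¬ ℓ ∣ N ∧
      ℓ ∉ (↑B : Set ℕ) ∧ x = s59e_tOf (↑B : Set ℕ) aM ℓ} = ⊤ := by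
  rw [eq_top_iff, ← s59e_adjHom_gen 𝒪 aM]
  refine Algebra.adjoin_le ?_
  rintro _ ⟨t, rfl⟩
  have ht : t ∈ Subring.closure {t : heckeAlgebra M₁ 2 (↑B : Set ℕ) | ∃ (ℓ : ℕ) (hℓ : ℓ.Prime)
      (hℓN : ¬ ℓ ∣ M₁) (hℓS : ℓ ∉ (↑B : Set ℕ)), t = heckeAlgebra.T hℓ hℓN hℓS} := by
    rw [s59e_hecke_closure M₁ (↑B : Set ℕ) (fun q hq hqM => Finset.mem_coe.mpr (hS q hq hqM))]
    exact Subring.mem_top t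
  induction ht using Subring.closure_induction with
  | mem t ht =>
    obtain ⟨ℓ, hℓ, hℓN, hℓS, rfl⟩ := ht
    refine Algebra.subset_adjoin ⟨ℓ, hℓ, fun h => hℓN (dvd_trans h hNM), hℓS, ?_⟩
    exact (s59e_tOf_eq (↑B : Set ℕ) aM hℓ hℓN hℓS).symm
  | zero => rw [map_zero]; exact Subalgebra.zero_mem _
  | one => rw [map_one]; exact Subalgebra.one_mem _
  | add x y _ _ hx hy => rw [map_add]; exact Subalgebra.add_mem _ hx hy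
  | neg x _ hx => rw [map_neg]; exact Subalgebra.neg_mem _ hx
  | mul x y _ _ hx hy => rw [map_mul]; exact Subalgebra.mul_mem _ hx hy

end Gen

section GenLoc

variable {𝒪 : Type} [CommRing 𝒪] [IsLocalRing 𝒪] {E : Type} [Ring E] [Algebra 𝒪 E]
  {M₁ : ℕ} [NeZero M₁] (S : Set ℕ) (aM : heckeAlgebra M₁ 2 S →+* E)
  [IsLocalRing (s59e_adj 𝒪 aM)]

/-- the Frobenius polynomial in terms of `s59e_tOf`. -/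
theorem s59b_charpoly_tOf (ρ : GaloisRepAdic (s59e_adj 𝒪 aM)) (σ : GQ) {ℓ : ℕ} (hℓ : ℓ.Prime)
    (hℓN : ¬ ℓ ∣ M₁) (hℓS : ℓ ∉ S)
    (h : LinearMap.charpoly (ρ.ρ σ) =
      X ^ 2 - C (s59e_adjHom 𝒪 aM (heckeAlgebra.T hℓ hℓN hℓS)) * X + C ((ℓ : s59e_adj 𝒪 aM))) :
    LinearMap.charpoly (ρ.ρ σ) =
      X ^ 2 - C (s59e_tOf S aM ℓ) * X + C ((ℓ : s59e_adj 𝒪 aM)) := by
  rw [s59e_tOf_eq S aM hℓ hℓN hℓS]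
  exact h

variable [IsLocalHom (algebraMap 𝒪 (s59e_adj 𝒪 aM))]

/-- the congruence `aM(T_ℓ) ≡ c` from the eigen-system `θ`. -/
theorem s59b_tOf_sub_mem (θ : heckeAlgebra M₁ 2 S →+* ResidueField 𝒪)
    (hres : ∀ t, residue (s59e_adj 𝒪 aM) (s59e_adjHom 𝒪 aM t) =
      ResidueField.map (algebraMap 𝒪 (s59e_adj 𝒪 aM)) (θ t))
    {ℓ : ℕ} (hℓ : ℓ.Prime) (hℓN : ¬ ℓ ∣ M₁) (hℓS : ℓ ∉ S) (c : 𝒪)
    (hθ : θ (heckeAlgebra.T hℓ hℓN hℓS) = residue 𝒪 c) :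
    s59e_tOf S aM ℓ - algebraMap 𝒪 (s59e_adj 𝒪 aM) c ∈ maximalIdeal (s59e_adj 𝒪 aM) := by
  rw [s59e_tOf_eq S aM hℓ hℓN hℓS]
  refine s59b_sub_algebraMap_mem_of_residue _ _ ?_
  rw [hres, hθ]

end GenLoc

/-! ### The abstract form of (B1) -/

section Abs

variable {p : ℕ} [Fact p.Prime] {N : ℕ} [NeZero N] (H₁ : Subgroup (ZMod N)ˣ) (B : Finset ℕ)
  {𝒪 : Type} [CommRing 𝒪] [IsDomain 𝒪] [IsDiscreteValuationRing 𝒪]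
  [IsAdicComplete (maximalIdeal 𝒪) 𝒪] [Finite (ResidueField 𝒪)] [CharZero 𝒪]

/-- **(B1), abstract idempotents**: the base Hecke data from (H3) at `(N, H₁)`, [TR-1] for `H₁ ≤ ⊤`, (M3) and
Brauer–Nesbitt. -/
theorem s59b_baseH_abs (hp2 : p ≠ 2) (hp𝒪 : (p : 𝒪) ∈ maximalIdeal 𝒪) (hpB : p ∈ B)
    (a : ℕ → ℤ) {m : ℕ} (qB : Fin m → ℕ)
    (hqB : ∀ j, (qB j).Prime ∧ qB j ≠ p ∧ qB j ∣ N ∧ ¬ qB j ^ 2 ∣ N)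
    -- numerology of (H3) at `H₁`
    (N₃ : ℕ) [NeZero N₃] (Q : Finset ℕ) (hQ : ∀ q ∈ Q, q.Prime ∧ ¬ q ∣ N₃)
    (hM : N = N₃ * ∏ q ∈ Q, q) {D : ℕ} (hDQ : D = ∏ q ∈ Q, q) (hD : D ∣ N)
    (hH : s59u_ker N D hD ≤ H₁) {n k : ℕ} (hnm : 2 * k = n + 1)
    (hn : ∀ u : (ZMod N)ˣ, u ^ n ∈ H₁)
    (M₁ : ℕ) [NeZero M₁] [Fact (HasIntegralStructure M₁ 2)] [Fact (HasIntegralStructure N 2)]
    (hM₁ : M₁ = N₃ * ∏ q ∈ Q, q ^ 2) (hS₁ : ∀ q : ℕ, q.Prime → q ∣ M₁ → q ∈ B)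
    -- the idempotents
    (ε₁ : Module.End 𝒪 (s48h_Hpar 𝒪 (s48h_GammaH N H₁) 𝒪)) (hε₁ : ε₁ * ε₁ = ε₁) (hε0₁ : ε₁ ≠ 0)
    (hεc₁ : ∀ j, s59e_Anemic B j → ε₁ * s59w_op H₁ 𝒪 j = s59w_op H₁ 𝒪 j * ε₁)
    (hnil₁ : ∀ j, s59e_Anemic B j → ∃ k : ℕ, ∀ z,
      ((s59w_op H₁ 𝒪 j - s59t_cB (𝒪 := 𝒪) N a j • 1) ^ k) (ε₁ z) ∈
        maximalIdeal 𝒪 • (⊤ : Submodule 𝒪 (s48h_Hpar 𝒪 (s48h_GammaH N H₁) 𝒪)))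
    (ε₂ : Module.End 𝒪 (s48h_Hpar 𝒪 (s48h_GammaH N (⊤ : Subgroup (ZMod N)ˣ)) 𝒪))
    (hε₂ : ε₂ * ε₂ = ε₂) (hε0₂ : ε₂ ≠ 0)
    (hεc₂ : ∀ j, s59e_Anemic B j → ε₂ * s59w_op (⊤ : Subgroup (ZMod N)ˣ) 𝒪 j =
      s59w_op (⊤ : Subgroup (ZMod N)ˣ) 𝒪 j * ε₂)
    (hnil₂ : ∀ j, s59e_Anemic B j → ∃ k : ℕ, ∀ z,
      ((s59w_op (⊤ : Subgroup (ZMod N)ˣ) 𝒪 j - s59t_cB (𝒪 := 𝒪) N a j • 1) ^ k) (ε₂ z) ∈
        maximalIdeal 𝒪 • (⊤ : Submodule 𝒪 (s48h_Hpar 𝒪 (s48h_GammaH N ⊤) 𝒪)))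
    (hfull : s59t_TWFull (le_refl (Gamma0 N)) (s59t_GammaH_mono (le_top : H₁ ≤ ⊤))
      (⊤ : Subgroup (s59t_Delta N H₁)) (⊥ : Subgroup (s59t_Delta N H₁)) ε₂ ε₁)
    (hρ : ∀ δ y, ε₁ (s59t_rho N H₁ 𝒪 𝒪 δ y) = s59t_rho N H₁ 𝒪 𝒪 δ (ε₁ y))
    (ρbar : ResidualGaloisRep (ResidueField 𝒪)) (habs : ρbar.IsAbsolutelyIrreducible)
    (hEig : ∀ ℓ : ℕ, ℓ.Prime → ℓ ∉ B → ∀ A : ValuationSubring Qbar, A.LiesOverPrime ℓ →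
      ∀ σ : GQ, A.IsFrobeniusAt σ ℓ →
        LinearMap.charpoly (ρbar.ρ σ) =
          X ^ 2 - C (residue 𝒪 ((a ℓ : ℤ) : 𝒪)) * X + C ((ℓ : ResidueField 𝒪))) :
    ∃ W : s59e_BaseH B a ρbar qB (s59t_rho N H₁ 𝒪 𝒪) ε₁ hρ (s59w_op H₁ 𝒪),
      W.M₁ = M₁ ∧ W.k₀ = (n - 1) * k := by
  classical
  -- (H3), Hecke half, at `(N, H₁)`
  let b₁ := Module.Free.chooseBasis ℤ (s48h_M (s48h_GammaH N H₁))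
  have hEig₁ : ∀ (ℓ : ℕ) (_ : ℓ.Prime) (_ : ¬ ℓ ∣ M₁) (_ : ℓ ∉ B) (i : s59w_TIdx N), i.ell = ℓ →
      ∀ A : ValuationSubring Qbar, A.LiesOverPrime ℓ → ∀ σ : GQ, A.IsFrobeniusAt σ ℓ →
        LinearMap.charpoly (ρbar.ρ σ) = X ^ 2 - C (residue 𝒪
          (s59t_cB (𝒪 := 𝒪) N a (Sum.inr (s59e_tau i ((n - 1) * k))) *
            s59t_cB (𝒪 := 𝒪) N a (Sum.inl i))) * X + C ((ℓ : ResidueField 𝒪)) := by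
    intro ℓ hℓ hℓN hℓS i hi A hA σ hσ
    show LinearMap.charpoly (ρbar.ρ σ) =
      X ^ 2 - C (residue 𝒪 ((1 : 𝒪) * ((a i.ell : ℤ) : 𝒪))) * X + C ((ℓ : ResidueField 𝒪))
    rw [one_mul, hi]
    exact hEig ℓ hℓ hℓS A hA σ hσ
  obtain ⟨a₁, cT, ha1, ha2, hcT, hconcl⟩ :=
    s59e_H3_hecke' (p := p) N₃ Q (M := N) H₁ b₁ M₁ B hp2 hp𝒪 hpB hQ hM hDQ hD hH hnm hn hM₁ hS₁
      (s59u_cB b₁ 𝒪) (s59u_cB_coe b₁ 𝒪) ε₁ hε₁ hε0₁ hεc₁ (s59t_cB (𝒪 := 𝒪) N a) hnil₁ ρbar habs hEig₁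
  unfold s59e_H3HeckeConcl at hconcl
  obtain ⟨aM₁, haM₁, hloc, hlh, θ, Hd, Ψ, hΨ, hπ, hres, hθ, hΨs, hΨπ, hresid, hfrobΨ⟩ := hconcl
  haveI := hloc
  haveI := hlh
  obtain ⟨ρR', hfrobR', habsR'⟩ : ∃ ρR' : GaloisRepAdic (s59e_adj 𝒪 aM₁),
      (∀ (ℓ : ℕ) (hℓ : ℓ.Prime) (hℓN : ¬ ℓ ∣ M₁) (hℓS : ℓ ∉ (↑B : Set ℕ))
        (A : ValuationSubring Qbar), A.LiesOverPrime ℓ → ∀ σ : GQ, A.IsFrobeniusAt σ ℓ →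
        LinearMap.charpoly (ρR'.ρ σ) =
          X ^ 2 - C (s59e_adjHom 𝒪 aM₁ (heckeAlgebra.T hℓ hℓN hℓS)) * X +
            C ((ℓ : s59e_adj 𝒪 aM₁))) ∧ ρR'.residual.IsAbsolutelyIrreducible :=
    ⟨_, hfrobΨ, s59e_bc_absIrr _ hΨ Hd.ρ Hd.residual_absIrr⟩
  -- [TR-1] for `H₁ ≤ ⊤`
  let b₂ := Module.Free.chooseBasis ℤ (s48h_M (s48h_GammaH N (⊤ : Subgroup (ZMod N)ˣ)))
  have hNM₁ : N ∣ M₁ := by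
    rw [hM, hM₁]
    refine Nat.mul_dvd_mul_left N₃ (Finset.prod_dvd_prod_of_dvd _ _ fun q _ => ?_)
    exact Dvd.intro _ (pow_two q).symm
  have hS₂ : ∀ q : ℕ, q.Prime → q ∣ N → q ∈ B := fun q hq hqN => hS₁ q hq (dvd_trans hqN hNM₁)
  have hEig₂ : ∀ (ℓ : ℕ) (_ : ℓ.Prime) (_ : ¬ ℓ ∣ N) (_ : ℓ ∉ B) (i : s59w_TIdx N), i.ell = ℓ →
      ∀ A : ValuationSubring Qbar, A.LiesOverPrime ℓ → ∀ σ : GQ, A.IsFrobeniusAt σ ℓ →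
        LinearMap.charpoly (ρbar.ρ σ) = X ^ 2 - C (residue 𝒪
          (s59t_cB (𝒪 := 𝒪) N a (Sum.inr (s59e_tau i ((n - 1) * k))) *
            s59t_cB (𝒪 := 𝒪) N a (Sum.inl i))) * X + C ((ℓ : ResidueField 𝒪)) := by
    intro ℓ hℓ hℓN hℓS i hi A hA σ hσ
    show LinearMap.charpoly (ρbar.ρ σ) =
      X ^ 2 - C (residue 𝒪 ((1 : 𝒪) * ((a i.ell : ℤ) : 𝒪))) * X + C ((ℓ : ResidueField 𝒪))
    rw [one_mul, hi]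
    exact hEig ℓ hℓ hℓS A hA σ hσ
  have hinj : Function.Injective (s59t_iotaH ε₂ ε₁
      (s59t_resGHpar (s59t_GammaH_mono (le_top : H₁ ≤ ⊤)) 𝒪 𝒪)) := by
    obtain ⟨_, _, _, _, _, _, _, _, hinj, -⟩ := hfull
    exact hinj
  obtain ⟨a₂, aM₂, ha₂, haM₂, hloc₂, f, hfl, hfs, hfι, hfT, hunip⟩ :=
    s59e_TR1' (p := p) H₁ (⊤ : Subgroup (ZMod N)ˣ) B hp2 hp𝒪 hpB
      (s59t_GammaH_mono (le_top : H₁ ≤ ⊤)) hnm M₁ hS₁ (s59u_cB b₁ 𝒪) a₁ ha1 ε₁ hε₁ hεc₁ aM₁ haM₁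
      ρR' hfrobR'
      N (∅ : Finset ℕ) b₂ N (fun q hq => absurd hq (Finset.notMem_empty q))
      (by rw [Finset.prod_empty, mul_one]) (D := 1) (by rw [Finset.prod_empty]) (one_dvd N) le_top
      (fun u => Subgroup.mem_top _) (by rw [Finset.prod_empty, mul_one]) hS₂
      (s59u_cB b₂ 𝒪) (s59u_cB_coe b₂ 𝒪) ε₂ hε₂ hε0₂ hεc₂ (s59t_cB (𝒪 := 𝒪) N a) hnil₂ ρbar habs
      hEig₂ hinj
  haveI := hloc₂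
  haveI := hfl
  -- freeness and finiteness
  haveI : Module.Free 𝒪 (s48h_Hpar 𝒪 (s48h_GammaH N H₁) 𝒪) := Module.Free.of_basis (s59u_cB b₁ 𝒪)
  haveI : Module.Finite 𝒪 (s48h_Hpar 𝒪 (s48h_GammaH N H₁) 𝒪) :=
    Module.Finite.of_basis (s59u_cB b₁ 𝒪)
  haveI : Module.Free 𝒪 (s48h_Hpar 𝒪 (s48h_GammaH N (⊤ : Subgroup (ZMod N)ˣ)) 𝒪) :=
    Module.Free.of_basis (s59u_cB b₂ 𝒪)
  haveI : Module.Finite 𝒪 (s48h_Hpar 𝒪 (s48h_GammaH N (⊤ : Subgroup (ZMod N)ˣ)) 𝒪) :=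
    Module.Finite.of_basis (s59u_cB b₂ 𝒪)
  have hfree₁ : Module.Free 𝒪 (LinearMap.range ε₁) := s59t_part_free hε₁
  have hfin₁ : Module.Finite 𝒪 (LinearMap.range ε₁) := s59t_part_finite ε₁
  have hfree₂ : Module.Free 𝒪 (LinearMap.range ε₂) := s59t_part_free hε₂
  have hfin₂ : Module.Finite 𝒪 (LinearMap.range ε₂) := s59t_part_finite ε₂
  -- `a₁ t` commutes with the diamonds
  have hcomm1 : ∀ (t : heckeAlgebra M₁ 2 (↑B : Set ℕ)) (δ : s59t_Delta N H₁),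
      Commute (a₁ t) (s59t_rho N H₁ 𝒪 𝒪 δ) := by
    intro t δ
    obtain ⟨τ, rfl⟩ := QuotientGroup.mk_surjective δ
    rw [s59t_rho_eq_op]
    have h1 : Subring.closure (Set.range (s59e_Tp' H₁ 𝒪 ((n - 1) * k))) ≤
        Subring.centralizer {s59w_op H₁ 𝒪 (Sum.inr ⟨((τ : SL(2, ℤ)))⁻¹, inv_mem τ.2⟩)} := by
      refine (Subring.closure_le).mpr ?_
      rintro _ ⟨i, rfl⟩
      rw [SetLike.mem_coe, Subring.mem_centralizer_iff]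
      intro g hg
      rw [Set.mem_singleton_iff] at hg
      rw [hg]
      unfold s59e_Tp'
      have hc : ∀ x y : s59w_AIdx N, Commute (s59w_op H₁ 𝒪 x) (s59w_op H₁ 𝒪 y) :=
        fun x y => s59w_op_comm H₁ 𝒪 x y
      exact ((hc _ _).mul_right (hc _ _)).eq
    have h2 := h1 (ha2 t)
    rw [Subring.mem_centralizer_iff] at h2
    exact (h2 _ rfl).symm
  have hcommρ : ∀ (t : heckeAlgebra M₁ 2 (↑B : Set ℕ)) (δ : s59t_Delta N H₁),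
      Commute (aM₁ t) (s59t_partRep (s59t_rho N H₁ 𝒪 𝒪) hρ δ) := by
    intro t δ
    refine LinearMap.ext fun z => Subtype.ext ?_
    rw [Module.End.mul_apply, Module.End.mul_apply, haM₁, s59t_partRep_coe, s59t_partRep_coe, haM₁]
    exact LinearMap.congr_fun (hcomm1 t δ).eq (z : s48h_Hpar 𝒪 (s48h_GammaH N H₁) 𝒪)
  have hRρ : ∀ (t : s59e_adj 𝒪 aM₁) (δ : s59t_Delta N H₁) (y : LinearMap.range ε₁),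
      t • s59t_partRep (s59t_rho N H₁ 𝒪 𝒪) hρ δ y =
        s59t_partRep (s59t_rho N H₁ 𝒪 𝒪) hρ δ (t • y) := by
    intro t δ y
    have h := s59e_adj_commute_rho (𝒪 := 𝒪) aM₁ (s59t_partRep (s59t_rho N H₁ 𝒪 𝒪) hρ) hcommρ t.2 δ
    exact LinearMap.congr_fun h.eq y
  -- `𝒪 → R` is local
  have hlh₂ : IsLocalHom (algebraMap 𝒪 (s59e_adj 𝒪 aM₂)) :=
    s59b_isLocalHom_algebraMap_of_algHom f hfl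
  haveI := hlh₂
  -- (M3)
  have hfι' : ∀ (t : s59e_adj 𝒪 aM₁) (z : s59t_part ε₂),
      s59t_iotaH ε₂ ε₁ (s59t_resGHpar (s59t_GammaH_mono (le_top : H₁ ≤ ⊤)) 𝒪 𝒪)
        ((f : s59e_adj 𝒪 aM₁ →+* s59e_adj 𝒪 aM₂) t • z) =
        t • s59t_iotaH ε₂ ε₁ (s59t_resGHpar (s59t_GammaH_mono (le_top : H₁ ≤ ⊤)) 𝒪 𝒪) z :=
    fun t z => hfι t z
  obtain ⟨e, he⟩ := hfull.eigT_equiv (le_refl (Gamma0 N)) (s59t_GammaH_mono (le_top : H₁ ≤ ⊤)) hρ hRρ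
    (f : s59e_adj 𝒪 aM₁ →+* s59e_adj 𝒪 aM₂) hfι'
  -- the constants
  have hcTa : ∀ ℓ : ℕ, ℓ.Prime → ¬ ℓ ∣ M₁ → cT ℓ = ((a ℓ : ℤ) : 𝒪) := by
    intro ℓ hℓ hℓM
    obtain ⟨i, hi, hci⟩ := hcT ℓ hℓ hℓM
    rw [hci]
    show (1 : 𝒪) * ((a i.ell : ℤ) : 𝒪) = _
    rw [one_mul, hi]
  have hℓM : ∀ ℓ : ℕ, ℓ.Prime → ℓ ∉ B → ¬ ℓ ∣ M₁ := fun ℓ hℓ hℓB h => hℓB (hS₁ ℓ hℓ h)
  have hcong₁ : ∀ ℓ : ℕ, ℓ.Prime → ℓ ∉ B →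
      s59e_tOf (↑B : Set ℕ) aM₁ ℓ - algebraMap 𝒪 (s59e_adj 𝒪 aM₁) ((a ℓ : ℤ) : 𝒪) ∈
        maximalIdeal (s59e_adj 𝒪 aM₁) := by
    intro ℓ hℓ hℓB
    have hℓB' : ℓ ∉ (↑B : Set ℕ) := fun h => hℓB (Finset.mem_coe.mp h)
    exact s59b_tOf_sub_mem (↑B : Set ℕ) aM₁ θ hres hℓ (hℓM ℓ hℓ hℓB) hℓB' _
      ((hθ ℓ hℓ (hℓM ℓ hℓ hℓB) hℓB').trans (congrArg (residue 𝒪) (hcTa ℓ hℓ (hℓM ℓ hℓ hℓB))))
  have hfrob₁ : ∀ ℓ : ℕ, ℓ.Prime → ℓ ∉ B → ∀ P : ValuationSubring Qbar, P.LiesOverPrime ℓ →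
      ∀ σ : GQ, P.IsFrobeniusAt σ ℓ →
        LinearMap.charpoly (ρR'.ρ σ) = X ^ 2 - C (s59e_tOf (↑B : Set ℕ) aM₁ ℓ) * X +
          C ((ℓ : s59e_adj 𝒪 aM₁)) := by
    intro ℓ hℓ hℓB P hP σ hσ
    have hℓB' : ℓ ∉ (↑B : Set ℕ) := fun h => hℓB (Finset.mem_coe.mp h)
    exact s59b_charpoly_tOf (↑B : Set ℕ) aM₁ ρR' σ hℓ (hℓM ℓ hℓ hℓB) hℓB'
      (hfrobR' ℓ hℓ (hℓM ℓ hℓ hℓB) hℓB' P hP σ hσ)
  haveI := hfree₂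
  haveI := hfin₂
  have hnoeth₂ := s59e_adj_noeth (𝒪 := 𝒪) (Y := LinearMap.range ε₂) aM₂
  haveI : IsNoetherianRing (s59e_adj 𝒪 aM₂) := hnoeth₂
  have hresR := s59b_hresR_of_frob p hp2 hp𝒪 f hfl ρR' habsR' B (s59e_tOf (↑B : Set ℕ) aM₁)
    (fun ℓ => ((a ℓ : ℤ) : 𝒪)) hfrob₁ hcong₁ ρbar hEig
  have hcompl₂ := s59e_adj_complete (𝒪 := 𝒪) (Y := LinearMap.range ε₂) aM₂
  have hfinR₂ := s59e_adj_finite (𝒪 := 𝒪) (Y := LinearMap.range ε₂) aM₂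
  have hfinM₂ : Module.Finite (s59e_adj 𝒪 aM₂) (LinearMap.range ε₂) :=
    Module.Finite.of_restrictScalars_finite 𝒪 (s59e_adj 𝒪 aM₂) (LinearMap.range ε₂)
  have hπR : ∀ (ℓ : ℕ) (hℓ : ℓ.Prime) (hℓN : ¬ ℓ ∣ N) (hℓB : ℓ ∉ (↑B : Set ℕ)),
      s59e_adjHom 𝒪 aM₂ (heckeAlgebra.T hℓ hℓN hℓB) = f (s59e_tOf (↑B : Set ℕ) aM₁ ℓ) := by
    intro ℓ hℓ hℓN hℓB
    have hℓB' : ℓ ∉ B := fun h => hℓB (Finset.mem_coe.mpr h)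
    exact ((congrArg f (s59e_tOf_eq (↑B : Set ℕ) aM₁ hℓ (hℓM ℓ hℓ hℓB') hℓB)).trans
      (hfT ℓ hℓ (hℓM ℓ hℓ hℓB') hℓN hℓB)).symm
  have hπa : ∀ (ℓ : ℕ) (hℓ : ℓ.Prime) (hℓN : ¬ ℓ ∣ N) (hℓB : ℓ ∉ (↑B : Set ℕ)),
      s59e_adjHom 𝒪 aM₂ (heckeAlgebra.T hℓ hℓN hℓB) - ((a ℓ : ℤ) : s59e_adj 𝒪 aM₂) ∈
        maximalIdeal (s59e_adj 𝒪 aM₂) := by
    intro ℓ hℓ hℓN hℓB
    have hℓB' : ℓ ∉ B := fun h => hℓB (Finset.mem_coe.mpr h)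
    exact s59b_sub_intCast_mem f hfl _ _ (hπR ℓ hℓ hℓN hℓB) (a ℓ) (hcong₁ ℓ hℓ hℓB')
  refine ⟨{
    M₁ := M₁
    hM₁ := hS₁
    k₀ := (n - 1) * k
    a₁ := a₁
    ha₁ := fun ℓ hℓ hℓN hℓS i hi => ha1 ℓ hℓ hℓN hℓS i hi
    aM₁ := aM₁
    haM₁ := haM₁
    iloc := hloc
    ilh := hlh
    hfree := hfree₁
    hfin := hfin₁
    hRρ := hRρ
    R := s59e_adj 𝒪 aM₂
    iR2 := hloc₂
    iR3 := hnoeth₂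
    iR4 := hcompl₂
    iR6 := hfinR₂
    iR7 := hlh₂
    M := LinearMap.range ε₂
    iM3 := hfinM₂
    f := f
    hf := hfs
    hfl := hfl
    e := e
    he := he
    ρR' := ρR'
    hfrob' := fun ℓ hℓ hℓN hℓB A hA g hg =>
      hfrob₁ ℓ hℓ (fun h => hℓB (Finset.mem_coe.mpr h)) A hA g hg
    hgenR' := s59b_adjoin_tOf B hS₁ aM₁ N hNM₁
    πR := s59e_adjHom 𝒪 aM₂
    hπR := hπR
    hπa := hπa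
    hresR := hresR
    hunipR := fun j => hunip (qB j) (hqB j).1 (hqB j).2.1 (hqB j).2.2.1 (hqB j).2.2.2 }, rfl, rfl⟩

end Abs

end Fermat.Agent.Lib.S59
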