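/-
S59 (helper2, prefix `s59b_`), (B1) **THE BASE HECKE DATA at the Frey curve** (helper5 #3515):
* `s59b_baseH_E0` : `s59b_baseH_abs` for the idempotents `s59t_E0 H B e`, `s59t_E0 ⊤ B e` of helper8's base package
  (hypotheses = conjuncts of `s59t_base_pkg` / helper3's `s59u_frey_base_pkg`);
* `s59b_baseH`    : the base Hecke data at `H₀ = s59k_H0 (p^v) qB N hdvd` for the Frey curve, with
  `W.M₁ = (N / ∏ qB) * ∏_{q ∈ image qB} q²`, `W.k₀ = (p^v − 1) * ((p^v + 1) / 2)`.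
-/
import Mathlib
import Fermat.Agent.S23
import Fermat.Agent.Lib.S59.BBaseH
import Fermat.Agent.Lib.S59.KLvlFin
import Fermat.Agent.Lib.S59.BTWArith
import Fermat.Agent.Lib.S59.QFreyRB
import Fermat.Agent.Lib.S59.LFinC1

set_option autoImplicit false
set_option linter.unusedSectionVars false
set_option linter.unusedVariables false
set_option linter.style.haveILetI false
set_option synthInstance.maxHeartbeats 400000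
set_option maxHeartbeats 8000000

noncomputable section

namespace Fermat.Agent.Lib.S59

open Matrix.SpecialLinearGroup CongruenceSubgroup ModularCurve.Period Polynomial CuspForm
open Fermat.Agent.Lib.S48 Fermat.Agent.Lib.ES IsLocalRing Fermat.Agent.Lib.S44
open WeierstrassCurve WeierstrassCurve.Affine WeierstrassCurve.Affine.Point FreyPackage
open scoped MatrixGroups

local notation "Qbar" => AlgebraicClosure ℚ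
local notation "GQ" => (AlgebraicClosure ℚ ≃ₐ[ℚ] AlgebraicClosure ℚ)

section E0

variable {p : ℕ} [Fact p.Prime] {N : ℕ} [NeZero N] (H : Subgroup (ZMod N)ˣ) (B : Finset ℕ)
  {𝒪 : Type} [CommRing 𝒪] [IsDomain 𝒪] [IsDiscreteValuationRing 𝒪]
  [IsAdicComplete (maximalIdeal 𝒪) 𝒪] [Finite (ResidueField 𝒪)] [CharZero 𝒪] [Algebra ℤ_[p] 𝒪]

/-- **(B1) for the idempotents of the base package.** -/
theorem s59b_baseH_E0 (hp2 : p ≠ 2) (hp𝒪 : (p : 𝒪) ∈ maximalIdeal 𝒪) (hpB : p ∈ B)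
    (a : ℕ → ℤ) {m : ℕ} (qB : Fin m → ℕ)
    (hqB : ∀ j, (qB j).Prime ∧ qB j ≠ p ∧ qB j ∣ N ∧ ¬ qB j ^ 2 ∣ N)
    (hH : ∀ u : (ZMod N)ˣ, ∃ k : ℕ, u ^ (p ^ k) ∈ H)
    -- numerology of (H3) at `H`
    (N₃ : ℕ) [NeZero N₃] (Q : Finset ℕ) (hQ : ∀ q ∈ Q, q.Prime ∧ ¬ q ∣ N₃)
    (hM : N = N₃ * ∏ q ∈ Q, q) {D : ℕ} (hDQ : D = ∏ q ∈ Q, q) (hD : D ∣ N)
    (hHk : s59u_ker N D hD ≤ H) {n k : ℕ} (hnm : 2 * k = n + 1)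
    (hn : ∀ u : (ZMod N)ˣ, u ^ n ∈ H)
    (M₁ : ℕ) [NeZero M₁] [Fact (HasIntegralStructure M₁ 2)] [Fact (HasIntegralStructure N 2)]
    (hM₁ : M₁ = N₃ * ∏ q ∈ Q, q ^ 2) (hS₁ : ∀ q : ℕ, q.Prime → q ∣ M₁ → q ∈ B)
    -- the base package
    (e : MvPolynomial ↥(s59t_goodB N B) 𝒪)
    (hid₁ : s59t_E0 H B e * s59t_E0 H B e = s59t_E0 H B e) (hne₁ : s59t_E0 H B e ≠ 0)
    (hnil₁ : ∀ x ∈ s59t_goodB N B, ∃ k : ℕ, ∀ y : s48h_Hpar 𝒪 (s48h_GammaH N H) 𝒪,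
      ((s59w_op H 𝒪 x - s59t_cB (𝒪 := 𝒪) N a x •
        (1 : Module.End 𝒪 (s48h_Hpar 𝒪 (s48h_GammaH N H) 𝒪))) ^ k) (s59t_E0 H B e y) ∈
        (maximalIdeal 𝒪 • ⊤ : Submodule 𝒪 (s48h_Hpar 𝒪 (s48h_GammaH N H) 𝒪)))
    (hid₂ : s59t_E0 (⊤ : Subgroup (ZMod N)ˣ) B e * s59t_E0 ⊤ B e = s59t_E0 ⊤ B e)
    (hne₂ : s59t_E0 (⊤ : Subgroup (ZMod N)ˣ) B e ≠ 0)
    (hnil₂ : ∀ x ∈ s59t_goodB N B, ∃ k : ℕ,
      ∀ y : s48h_Hpar 𝒪 (s48h_GammaH N (⊤ : Subgroup (ZMod N)ˣ)) 𝒪,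
      ((s59w_op (⊤ : Subgroup (ZMod N)ˣ) 𝒪 x - s59t_cB (𝒪 := 𝒪) N a x •
        (1 : Module.End 𝒪 (s48h_Hpar 𝒪 (s48h_GammaH N (⊤ : Subgroup (ZMod N)ˣ)) 𝒪))) ^ k)
        (s59t_E0 ⊤ B e y) ∈
        (maximalIdeal 𝒪 • ⊤ :
          Submodule 𝒪 (s48h_Hpar 𝒪 (s48h_GammaH N (⊤ : Subgroup (ZMod N)ˣ)) 𝒪)))
    (hfull : s59t_TWFull (le_refl (Gamma0 N)) (s59t_GammaH_mono (le_top : H ≤ ⊤))
      (⊤ : Subgroup (s59t_Delta N H)) (⊥ : Subgroup (s59t_Delta N H))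
      (s59t_E0 (⊤ : Subgroup (ZMod N)ˣ) B e) (s59t_E0 H B e))
    (hρ : ∀ δ y, s59t_E0 H B e (s59t_rho N H 𝒪 𝒪 δ y) = s59t_rho N H 𝒪 𝒪 δ (s59t_E0 H B e y))
    (ρbar : ResidualGaloisRep (ResidueField 𝒪)) (habs : ρbar.IsAbsolutelyIrreducible)
    (hEig : ∀ ℓ : ℕ, ℓ.Prime → ℓ ∉ B → ∀ A : ValuationSubring Qbar, A.LiesOverPrime ℓ →
      ∀ σ : GQ, A.IsFrobeniusAt σ ℓ →
        LinearMap.charpoly (ρbar.ρ σ) =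
          X ^ 2 - C (residue 𝒪 ((a ℓ : ℤ) : 𝒪)) * X + C ((ℓ : ResidueField 𝒪))) :
    ∃ W : s59e_BaseH B a ρbar qB (s59t_rho N H 𝒪 𝒪) (s59t_E0 H B e) hρ (s59w_op H 𝒪),
      W.M₁ = M₁ ∧ W.k₀ = (n - 1) * k := by
  have hεc : ∀ (K : Subgroup (ZMod N)ˣ) (j : s59w_AIdx N),
      s59t_E0 K B e * s59w_op K 𝒪 j = s59w_op K 𝒪 j * s59t_E0 K B e := by
    intro K j
    rw [← s59t_actH_eq_E0 K B (fun _ => (0 : 𝒪)) e]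
    exact s59t_actH_comm_op K _ _ j
  have hnilA : ∀ (K : Subgroup (ZMod N)ˣ) (hK : ∀ u : (ZMod N)ˣ, ∃ k : ℕ, u ^ (p ^ k) ∈ K)
      (hnilK : ∀ x ∈ s59t_goodB N B, ∃ k : ℕ, ∀ y : s48h_Hpar 𝒪 (s48h_GammaH N K) 𝒪,
        ((s59w_op K 𝒪 x - s59t_cB (𝒪 := 𝒪) N a x •
          (1 : Module.End 𝒪 (s48h_Hpar 𝒪 (s48h_GammaH N K) 𝒪))) ^ k) (s59t_E0 K B e y) ∈
          (maximalIdeal 𝒪 • ⊤ : Submodule 𝒪 (s48h_Hpar 𝒪 (s48h_GammaH N K) 𝒪)))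
      (j : s59w_AIdx N), s59e_Anemic B j → ∃ k : ℕ, ∀ z,
        ((s59w_op K 𝒪 j - s59t_cB (𝒪 := 𝒪) N a j • 1) ^ k) (s59t_E0 K B e z) ∈
          maximalIdeal 𝒪 • (⊤ : Submodule 𝒪 (s48h_Hpar 𝒪 (s48h_GammaH N K) 𝒪)) := by
    intro K hK hnilK j hj
    rcases j with i | τ
    · exact hnilK (Sum.inl i) (s59t_inl_mem_goodB B i (hj i rfl))
    · exact s59t_topNil_dia p K hp𝒪 hK (s59t_E0 K B e) τ
  exact s59b_baseH_abs H B hp2 hp𝒪 hpB a qB hqB N₃ Q hQ hM hDQ hD hHk hnm hn M₁ hM₁ hS₁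
    (s59t_E0 H B e) hid₁ hne₁ (fun j _ => hεc H j) (hnilA H hH hnil₁)
    (s59t_E0 (⊤ : Subgroup (ZMod N)ˣ) B e) hid₂ hne₂ (fun j _ => hεc ⊤ j)
    (hnilA ⊤ (fun u => ⟨0, Subgroup.mem_top _⟩) hnil₂) hfull hρ ρbar habs hEig

end E0

section Frey

variable (P : FreyPackage) [Fact P.p.Prime] (hΔ : P.freyCurveInt.Δ ≠ 0) (N : ℕ) [NeZero N]
  (hcond : P.IsConductorLevel N)
  (hirr : GaloisRepIsIrreducible (K := AlgebraicClosure ℚ) ℚ P.freyCurve P.p)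
  (B : Finset ℕ) (hB1 : ∀ r : ℕ, r.Prime → r ∣ N * P.p → r ∈ B)
  (hB2 : ∀ r : ℕ, r.Prime → (r : ℤ) ∣ P.a * P.b * P.c → r ∈ B)
  {𝒪 : Type} [CommRing 𝒪] [IsDomain 𝒪] [IsDiscreteValuationRing 𝒪]
  [IsAdicComplete (maximalIdeal 𝒪) 𝒪] [Finite (ResidueField 𝒪)] [CharZero 𝒪]
  [Algebra ℤ_[P.p] 𝒪] (hp𝒪 : ((P.p : ℕ) : 𝒪) ∈ maximalIdeal 𝒪)

include hcond hirr hB1 hB2 in
/-- **(B1): the base Hecke data at the Frey curve**, level `(N, H₀)`, `H₀ = s59k_H0 (p^v) qB N hdvd`. -/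
theorem s59b_baseH {m : ℕ} (qB : Fin m → ℕ) (hqBinj : Function.Injective qB)
    (hqBpr : ∀ j, (qB j).Prime) (hqBp : ∀ j, qB j ≠ P.p) (v : ℕ) (hdvd : ∏ j, qB j ∣ N)
    (e : MvPolynomial ↥(s59t_goodB N B) 𝒪)
    (hid₁ : s59t_E0 (s59k_H0 (P.p ^ v) qB N hdvd) B e * s59t_E0 (s59k_H0 (P.p ^ v) qB N hdvd) B e =
      s59t_E0 (s59k_H0 (P.p ^ v) qB N hdvd) B e)
    (hne₁ : s59t_E0 (s59k_H0 (P.p ^ v) qB N hdvd) B e ≠ 0)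
    (hnil₁ : ∀ x ∈ s59t_goodB N B, ∃ k : ℕ,
      ∀ y : s48h_Hpar 𝒪 (s48h_GammaH N (s59k_H0 (P.p ^ v) qB N hdvd)) 𝒪,
      ((s59w_op (s59k_H0 (P.p ^ v) qB N hdvd) 𝒪 x -
        s59t_cB (𝒪 := 𝒪) N (fun ℓ => P.freyCurveInt.apOfModel ℓ) x •
        (1 : Module.End 𝒪 (s48h_Hpar 𝒪 (s48h_GammaH N (s59k_H0 (P.p ^ v) qB N hdvd)) 𝒪))) ^ k)
        (s59t_E0 (s59k_H0 (P.p ^ v) qB N hdvd) B e y) ∈
        (maximalIdeal 𝒪 • ⊤ :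
          Submodule 𝒪 (s48h_Hpar 𝒪 (s48h_GammaH N (s59k_H0 (P.p ^ v) qB N hdvd)) 𝒪)))
    (hid₂ : s59t_E0 (⊤ : Subgroup (ZMod N)ˣ) B e * s59t_E0 ⊤ B e = s59t_E0 ⊤ B e)
    (hne₂ : s59t_E0 (⊤ : Subgroup (ZMod N)ˣ) B e ≠ 0)
    (hnil₂ : ∀ x ∈ s59t_goodB N B, ∃ k : ℕ,
      ∀ y : s48h_Hpar 𝒪 (s48h_GammaH N (⊤ : Subgroup (ZMod N)ˣ)) 𝒪,
      ((s59w_op (⊤ : Subgroup (ZMod N)ˣ) 𝒪 x -
        s59t_cB (𝒪 := 𝒪) N (fun ℓ => P.freyCurveInt.apOfModel ℓ) x •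
        (1 : Module.End 𝒪 (s48h_Hpar 𝒪 (s48h_GammaH N (⊤ : Subgroup (ZMod N)ˣ)) 𝒪))) ^ k)
        (s59t_E0 ⊤ B e y) ∈
        (maximalIdeal 𝒪 • ⊤ :
          Submodule 𝒪 (s48h_Hpar 𝒪 (s48h_GammaH N (⊤ : Subgroup (ZMod N)ˣ)) 𝒪)))
    (hfull : s59t_TWFull (le_refl (Gamma0 N))
      (s59t_GammaH_mono (le_top : s59k_H0 (P.p ^ v) qB N hdvd ≤ ⊤))
      (⊤ : Subgroup (s59t_Delta N (s59k_H0 (P.p ^ v) qB N hdvd)))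
      (⊥ : Subgroup (s59t_Delta N (s59k_H0 (P.p ^ v) qB N hdvd)))
      (s59t_E0 (⊤ : Subgroup (ZMod N)ˣ) B e) (s59t_E0 (s59k_H0 (P.p ^ v) qB N hdvd) B e))
    (hρ : ∀ δ y, s59t_E0 (s59k_H0 (P.p ^ v) qB N hdvd) B e
        (s59t_rho N (s59k_H0 (P.p ^ v) qB N hdvd) 𝒪 𝒪 δ y) =
      s59t_rho N (s59k_H0 (P.p ^ v) qB N hdvd) 𝒪 𝒪 δ
        (s59t_E0 (s59k_H0 (P.p ^ v) qB N hdvd) B e y)) :
    ∃ W : s59e_BaseH B (fun ℓ => P.freyCurveInt.apOfModel ℓ) (s59i_rhobarF P hΔ 𝒪 hp𝒪) qB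
        (s59t_rho N (s59k_H0 (P.p ^ v) qB N hdvd) 𝒪 𝒪)
        (s59t_E0 (s59k_H0 (P.p ^ v) qB N hdvd) B e) hρ (s59w_op (s59k_H0 (P.p ^ v) qB N hdvd) 𝒪),
      W.M₁ = (N / ∏ j, qB j) * ∏ q ∈ Finset.univ.image qB, q ^ 2 ∧
      W.k₀ = (P.p ^ v - 1) * ((P.p ^ v + 1) / 2) := by
  classical
  have hp5 := P.hp5
  have hp2 : P.p ≠ 2 := by omega
  have hpP : P.p.Prime := Fact.out
  have hpB : P.p ∈ B := hB1 P.p hpP (Dvd.intro_left N rfl)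
  have hNB : ∀ q : ℕ, q.Prime → q ∣ N → q ∈ B := fun q hq hqN =>
    hB1 q hq (Dvd.dvd.mul_right hqN P.p)
  have hsq : Squarefree N := hcond.squarefree
  have hqBN : ∀ j, qB j ∣ N := fun j => (s59t_dvd_prod qB j).trans hdvd
  obtain ⟨hW, hss, -, hgoodiff⟩ := s59q_frey_ssModel P
  have hmodirr : P.freyCurveInt.ModRepIsIrreducible P.p := s59q_frey_modRep_irr P hirr
  -- numerology
  have hprodpos : 0 < ∏ j, qB j := Finset.prod_pos fun j _ => (hqBpr j).pos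
  haveI : NeZero (N / ∏ j, qB j) :=
    ⟨(Nat.div_pos (Nat.le_of_dvd (Nat.pos_of_ne_zero (NeZero.ne N)) hdvd) hprodpos).ne'⟩
  have hprod2 : ∏ q ∈ Finset.univ.image qB, q ^ 2 ≠ 0 := by
    refine Finset.prod_ne_zero_iff.mpr fun q hq => ?_
    obtain ⟨j, -, rfl⟩ := Finset.mem_image.mp hq
    exact pow_ne_zero 2 (hqBpr j).ne_zero
  haveI : NeZero ((N / ∏ j, qB j) * ∏ q ∈ Finset.univ.image qB, q ^ 2) :=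
    ⟨mul_ne_zero (NeZero.ne (N / ∏ j, qB j)) hprod2⟩
  haveI : Fact (HasIntegralStructure ((N / ∏ j, qB j) * ∏ q ∈ Finset.univ.image qB, q ^ 2) 2) :=
    ⟨Fermat.Agent.S23.result _⟩
  haveI : Fact (HasIntegralStructure N 2) := ⟨Fermat.Agent.S23.result N⟩
  have hD : ∏ q ∈ Finset.univ.image qB, q ∣ N := by
    rw [s59k_prod_image qB hqBinj]
    exact hdvd
  have hS₁ : ∀ q : ℕ, q.Prime → q ∣ (N / ∏ j, qB j) * ∏ q ∈ Finset.univ.image qB, q ^ 2 → q ∈ B := by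
    intro q hq hqM
    refine hNB q hq ?_
    rcases (Nat.Prime.dvd_mul hq).mp hqM with h | h
    · exact h.trans (Nat.div_dvd_of_dvd hdvd)
    · obtain ⟨q', hq', hqq'⟩ := (Prime.dvd_finsetProd_iff hq.prime _).mp h
      obtain ⟨j, -, rfl⟩ := Finset.mem_image.mp hq'
      have h1 : q ∣ qB j := hq.dvd_of_dvd_pow hqq'
      exact h1.trans (hqBN j)
  have hqB : ∀ j, (qB j).Prime ∧ qB j ≠ P.p ∧ qB j ∣ N ∧ ¬ qB j ^ 2 ∣ N := by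
    intro j
    refine ⟨hqBpr j, hqBp j, hqBN j, fun h => ?_⟩
    rw [pow_two] at h
    exact (hqBpr j).one_lt.ne' (Nat.isUnit_iff.mp (hsq (qB j) h))
  have hEig : ∀ ℓ : ℕ, ℓ.Prime → ℓ ∉ B → ∀ A : ValuationSubring Qbar, A.LiesOverPrime ℓ →
      ∀ σ : GQ, A.IsFrobeniusAt σ ℓ →
        LinearMap.charpoly ((s59i_rhobarF P hΔ 𝒪 hp𝒪).ρ σ) =
          X ^ 2 - C (residue 𝒪 ((P.freyCurveInt.apOfModel ℓ : ℤ) : 𝒪)) * X +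
            C ((ℓ : ResidueField 𝒪)) := by
    intro ℓ hℓ hℓS A hA σ hσ
    have hℓp : ℓ ≠ P.p := fun h => hℓS (h ▸ hpB)
    have hgood : P.freyCurveInt.IsGoodPrimeFor ℓ := by
      by_contra hbad
      exact hℓS (hB2 ℓ hℓ ((hgoodiff ℓ hℓ).1 hbad))
    have h1 := s59b_rhobar_charpoly_frob (𝒪 := 𝒪) (W := P.freyCurveInt) (p := P.p) hΔ hp2 hmodirr
      hp𝒪 ℓ hℓ hℓp hgood A hA σ hσ
    rw [← map_natCast (residue 𝒪) ℓ]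
    exact h1
  exact s59b_baseH_E0 (p := P.p) (s59k_H0 (P.p ^ v) qB N hdvd) B hp2 hp𝒪 hpB
    (fun ℓ => P.freyCurveInt.apOfModel ℓ) qB hqB (s59k_H0_pgroup qB N hdvd P.p v)
    (N / ∏ j, qB j) (Finset.univ.image qB) (s59k_hQ_base qB N hdvd hsq hqBpr)
    (s59k_level_eq_base qB N hdvd hqBinj) rfl hD
    (s59k_hH_base qB N hdvd (P.p ^ v) hqBinj rfl hD) (s59k_hnm_pow hpP hp2 v)
    (s59k_pow_mem_H0 (P.p ^ v) qB N hdvd)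
    ((N / ∏ j, qB j) * ∏ q ∈ Finset.univ.image qB, q ^ 2) rfl hS₁ e hid₁ hne₁ hnil₁ hid₂ hne₂ hnil₂
    hfull hρ (s59i_rhobarF P hΔ 𝒪 hp𝒪) (s59q_frey_habs P hp𝒪 hirr) hEig

end Frey

end Fermat.Agent.Lib.S59
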