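/-
S59 (helper2, prefix `s59b_`): **the hypothesis `hχ` of `s59e_TLevel_abs` in the context of `s59i_TPkg`**:
`s59b_hchi_ERing` with the Galois-theoretic inputs taken from the `R`-side data `Rd : s59i_RData …` and the universal
deformation `DQ` (`ρ₀ := DQ.ρ`, `f := θ`, `qB j := Rd.pr (inl j)`, `σB j := Rd.σq (inl j)`, `φB j := Rd.φq (inl j)`,
`Aj j := primeLocalPlace (Rd.pr (inl j))`).
-/
import Mathlib
import Fermat.Agent.Lib.S59.BChiFin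
import Fermat.Agent.Lib.S59.BDQRes
import Fermat.Agent.Lib.S56.ZPre

set_option autoImplicit false
set_option linter.unusedSectionVars false
set_option linter.unusedVariables false
set_option linter.style.haveILetI false
set_option synthInstance.maxHeartbeats 400000
set_option maxHeartbeats 4000000

noncomputable section

namespace Fermat.Agent.Lib.S59

open Fermat.Agent.Lib.S48
open IsLocalRing TensorProduct Polynomial ExtCitation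
open CongruenceSubgroup ModularCurve.Period
open scoped MatrixGroups

local notation "Qbar" => AlgebraicClosure ℚ
local notation "GQ" => (AlgebraicClosure ℚ ≃ₐ[ℚ] AlgebraicClosure ℚ)

section ERing

variable {M : ℕ} [NeZero M] (H : Subgroup (ZMod M)ˣ)
  {𝒪 : Type} [CommRing 𝒪] [IsDomain 𝒪] [IsDiscreteValuationRing 𝒪]
  [IsAdicComplete (maximalIdeal 𝒪) 𝒪] [Finite (ResidueField 𝒪)] [CharZero 𝒪]
  {Y' : Type} [AddCommGroup Y'] [Module 𝒪 Y'] [Module.Finite 𝒪 Y']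
  (j : Y' →ₗ[𝒪] s48h_Hpar 𝒪 (s48h_GammaH M H) 𝒪) (hj : Function.Injective j)
  (opY : s59w_AIdx M → Module.End 𝒪 Y')
  (hopY : ∀ jdx y, j (opY jdx y) = s59w_op H 𝒪 jdx (j y))
  {A : Type} [CommRing A] (a : A →+* Module.End 𝒪 (s48h_Hpar 𝒪 (s48h_GammaH M H) 𝒪)) (k : ℕ)
  (ha : ∀ t, a t ∈ Subring.closure (Set.range (s59e_Tp' H 𝒪 k)))
  (aM : A →+* Module.End 𝒪 Y') (haM : ∀ t (z : Y'), j (aM t z) = a t (j z))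
  {Δ' : Type} [CommGroup Δ'] [Fintype Δ'] (ρ' : Δ' →* Module.End 𝒪 Y')
  (hρ' : ∀ δ, ∃ τ : Gamma0 M, ρ' δ = opY (Sum.inr τ))
  (Bq Cs : Subgroup Δ') (χ' : Δ' →* 𝒪ˣ)
  (hcomm : ∀ (t : A) (β : Bq), Commute (aM t) ((ρ'.comp Bq.subtype) β))

include hj hopY ha haM hρ' in
/-- **`hχ` of `s59e_TLevel_abs` in the `s59i_TPkg` context.** -/
theorem s59b_hchi_TPkg [IsLocalRing (s59e_adj 𝒪 aM)]
    (hTρ : ∀ (t : s59e_adj 𝒪 (s59e_aB aM (ρ'.comp Bq.subtype) hcomm)) (δ : Δ') (y : Y'),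
      t • ρ' δ y = ρ' δ (t • y))
    (N : ℕ) [NeZero N] (Q : Finset ℕ)
    (hMeq : M = N * ∏ q ∈ Q, q) (hQ : ∀ q ∈ Q, q.Prime ∧ ¬ q ∣ N)
    (hH : ∀ (x : ℤ) (u : (ZMod M)ˣ), ((x : ℤ) : ZMod (∏ q ∈ Q, q)) = 1 →
      ((u : (ZMod M)ˣ) : ZMod M) = ((x : ℤ) : ZMod M) → u ∈ H)
    (p : ℕ) [hpF : Fact p.Prime] (hp2 : p ≠ 2)
    {e m' : ℕ} (hnm : 2 * m' = p ^ e + 1) (hn : ∀ u : (ZMod M)ˣ, u ^ (p ^ e) ∈ H)
    (hk : k = (p ^ e - 1) * m')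
    [Algebra ℤ_[p] 𝒪] (hp𝒪 : (p : 𝒪) ∈ maximalIdeal 𝒪)
    (S : Finset ℕ) (hpS : p ∈ S) (hMS : ∀ r : ℕ, r.Prime → r ∣ M → r ∈ S)
    (tT' : ℕ → s59e_adj 𝒪 aM)
    (htT' : ∀ i : s59w_TIdx M, i.ell ∉ S → ∀ z : Y',
      j (((tT' i.ell : s59e_adj 𝒪 aM) : Module.End 𝒪 Y') z) = s59e_Tp' H 𝒪 k i (j z))
    -- the `R`-side
    {N₀ : ℕ} {ρbar : ResidualGaloisRep (ResidueField 𝒪)} {Sg Bd : Finset ℕ}
    (Rd : s59i_RData p N₀ ρbar Sg Bd)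
    {𝒟 : ∀ ⦃A : Type⦄ [CommRing A] [IsLocalRing A] [Algebra 𝒪 A], GaloisRepAdic A → Prop}
    (DQ : GaloisRep.DeformationRingData 𝒪 ρbar 𝒟)
    (θ : DQ.R →ₐ[𝒪] s59e_adj 𝒪 aM) (hθ : Function.Surjective θ)
    (hfrobT : ∀ ℓ : ℕ, ℓ.Prime → ℓ ∉ S →
      ∀ A : ValuationSubring (AlgebraicClosure ℚ), A.LiesOverPrime ℓ →
      ∀ τ : GQ, A.IsFrobeniusAt τ ℓ →
        (LinearMap.charpoly (DQ.ρ.ρ τ)).map (θ : DQ.R →+* s59e_adj 𝒪 aM) =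
          Polynomial.X ^ 2 - Polynomial.C (tT' ℓ) * Polynomial.X +
            Polynomial.C ((ℓ : s59e_adj 𝒪 aM)))
    -- the primes of type `χ`
    (hBdQ : ∀ q ∈ Bd, q ∈ Q) (hBd1 : ∀ q ∈ Bd, p ∣ q - 1)
    (v : ℕ) (hBdv : ∀ q ∈ Bd, ¬ p ^ (v + 1) ∣ q - 1)
    (ζ : 𝒪) (hζ : IsPrimitiveRoot ζ (p ^ v))
    (hloc : ∀ j : Fin Rd.m, ∃ (τ : Gamma0 M) (γ : Δ'), γ ∈ Cs ∧ ρ' γ = opY (Sum.inr τ) ∧
      χ' γ ≠ 1 ∧ ∃ (L₀ : ℕ) (hL₀ : M = L₀ * ((Rd.pr (Sum.inl j) : ℕ))),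
        ZMod.unitsMap (hL₀ ▸ Dvd.intro ((Rd.pr (Sum.inl j) : ℕ)) rfl : L₀ ∣ M)
          (s59w_lrUnit τ) = 1) :
    letI := s59e_algTT (𝒪 := 𝒪) aM (ρ'.comp Bq.subtype) hcomm
    ∀ 𝔮 ∈ ((Module.annihilator (s59e_adj 𝒪 (s59e_aB aM (ρ'.comp Bq.subtype) hcomm))
        (s59t_EigT (T := s59e_adj 𝒪 (s59e_aB aM (ρ'.comp Bq.subtype) hcomm)) ρ' Cs χ' hTρ)).comap
        (algebraMap (s59e_adj 𝒪 aM)
          (s59e_adj 𝒪 (s59e_aB aM (ρ'.comp Bq.subtype) hcomm)))).minimalPrimes,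
      (∀ o : 𝒪, o ≠ 0 → algebraMap 𝒪 (s59e_adj 𝒪 aM) o ∉ 𝔮) ∧
      ∃ I : s59b_chiIdx p v (fun j : Fin Rd.m => ((Rd.pr (Sum.inl j) : ℕ))) ζ, ∀ j,
        θ (s59i_cpTr DQ.ρ (Rd.σq (Sum.inl j))) -
            algebraMap 𝒪 (s59e_adj 𝒪 aM) (s59b_chiZ I j + s59b_chiZ' I j) ∈ 𝔮 ∧
        θ (s59i_cpDt DQ.ρ (Rd.σq (Sum.inl j))) - 1 ∈ 𝔮 := by
  have hθl : IsLocalHom (θ : DQ.R →+* s59e_adj 𝒪 aM) := IsLocalHom.of_surjective _ hθ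
  exact s59b_hchi_ERing H j hj opY hopY a k ha aM haM ρ' hρ' Bq Cs χ' hcomm hTρ N Q hMeq hQ hH p hp2
    hnm hn hk hp𝒪 S hpS hMS tT' htT' DQ.ρ (θ : DQ.R →+* s59e_adj 𝒪 aM) hθl
    (s59b_DQ_residual_absIrr DQ) hfrobT
    (fun j : Fin Rd.m => ((Rd.pr (Sum.inl j) : ℕ)))
    (fun j => hBdQ _ (s59b_Rd_qB_mem Rd j)) (fun j => s59b_Rd_qB_ne Rd j) v
    (fun j => hBd1 _ (s59b_Rd_qB_mem Rd j)) (fun j => hBdv _ (s59b_Rd_qB_mem Rd j)) ζ hζ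
    (fun j => primeLocalPlace (Rd.pr (Sum.inl j)))
    (fun j => Fermat.Agent.Lib.S56.s56z_place_liesOver (Rd.pr (Sum.inl j)))
    (fun j => Rd.σq (Sum.inl j)) (fun j => Rd.φq (Sum.inl j))
    (fun j => Rd.hσq (Sum.inl j)) (fun j => Rd.hφq (Sum.inl j))
    (fun j => s59b_Rd_DQ_unram Rd DQ j) hloc

end ERing

end Fermat.Agent.Lib.S59
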