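/-
[E] FINAL ASSEMBLY (helper4, prefix `s59i_`), part C2: the `R`-side package, piece (b): **the set `Smin`** of the primes
where `ρ̄ = s59i_rhobarF` is ramified (together with `p`), `hmin`, `Smin ⊆ B`, `ρ̄` ramified at `2` ([FREY-2]) and at the
primes `ℓ ≥ 5` of the level outside `Bd` (`hram`).
-/
import Mathlib
import Fermat.Agent.Lib.S59.LFinC1
import Fermat.Agent.Lib.S59.QTwFrey
import Fermat.Agent.Lib.S59.QSsModel

set_option autoImplicit false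
set_option linter.unusedSectionVars false
set_option linter.unusedVariables false
set_option linter.style.haveILetI false
set_option maxHeartbeats 1600000

noncomputable section

namespace Fermat.Agent.Lib.S59

open IsLocalRing CuspForm Polynomial ExtCitation FreyPackage
open WeierstrassCurve WeierstrassCurve.Affine WeierstrassCurve.Affine.Point

local notation "Γℚ" => (AlgebraicClosure ℚ ≃ₐ[ℚ] AlgebraicClosure ℚ)

section SminSec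

variable (P : FreyPackage) [hpF : Fact P.p.Prime] (hΔ : P.freyCurveInt.Δ ≠ 0)
  (𝒪 : Type) [CommRing 𝒪] [IsLocalRing 𝒪] [Algebra ℤ_[P.p] 𝒪]
  (hp𝒪 : ((P.p : ℕ) : 𝒪) ∈ maximalIdeal 𝒪)

/-- `ρ̄` is unramified at the good primes `q ≠ p`. -/
theorem s59i_rhobarF_unram_good (q : ℕ) (hq : q.Prime) (hqp : q ≠ P.p)
    (hgood : P.freyCurveInt.IsGoodPrimeFor q) : (s59i_rhobarF P hΔ 𝒪 hp𝒪).IsUnramifiedAt q := by
  have hp5 := P.hp5
  have hp2 : P.p ≠ 2 := by omega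
  have h1 := s59b_rhoW_unram (W := P.freyCurveInt) (p := P.p) hΔ hp2 q hq hqp hgood
  have h2 := Fermat.Agent.Lib.S56.s56a_isUnramifiedAt_baseChange (algebraMap ℤ_[P.p] 𝒪)
    (s59b_isLocalHom_padic P.p _ hp𝒪) (s59b_rhoW P.freyCurveInt P.p hΔ) h1
  intro A hA σ hσ
  show ((((s59b_rhoW P.freyCurveInt P.p hΔ).baseChangeAlong (algebraMap ℤ_[P.p] 𝒪)
    (s59b_isLocalHom_padic P.p _ hp𝒪)).ρ σ).baseChange (ResidueField 𝒪)) = 1
  rw [h2 A hA σ hσ, LinearMap.baseChange_one]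

/-- `ρ̄` unramified at `q` ⇒ the mod-`p` representation of the Frey curve is unramified at `q`. -/
theorem s59i_frey_unram_of_rhobarF (q : ℕ)
    (h : (s59i_rhobarF P hΔ 𝒪 hp𝒪).IsUnramifiedAt q) : P.GaloisRepUnramifiedAt q := by
  obtain ⟨C, hC⟩ := (s59q_frey_ssModel P).1
  intro A hA σ hσ x
  by_contra hne
  obtain ⟨Q, hQ, hQne⟩ := s59b_moves_of_moves P.freyCurveInt P.p P.freyCurve C hC σ ⟨x, hne⟩
  exact hQne (s59b_fix_of_residual_one hΔ (algebraMap ℤ_[P.p] 𝒪)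
    (s59b_isLocalHom_padic P.p _ hp𝒪) σ (h A hA σ hσ) Q hQ)

/-- **[FREY-2]** in the `ρ̄`-form. -/
theorem s59i_rhobarF_ramified_two : ¬ (s59i_rhobarF P hΔ 𝒪 hp𝒪).IsUnramifiedAt 2 := fun h =>
  s59q_frey_not_unramified_two P (s59i_frey_unram_of_rhobarF P hΔ 𝒪 hp𝒪 2 h)

open Classical in
/-- the set `Σ_min`: `p` and the primes of `abc` where `ρ̄` is ramified. -/
def s59i_Smin : Finset ℕ :=
  insert P.p (((P.a * P.b * P.c).natAbs.primeFactors).filter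
    (fun q => ¬ (s59i_rhobarF P hΔ 𝒪 hp𝒪).IsUnramifiedAt q))

theorem s59i_p_mem_Smin : P.p ∈ s59i_Smin P hΔ 𝒪 hp𝒪 := Finset.mem_insert_self _ _

theorem s59i_Smin_hmin (q : ℕ) (hq : q.Prime) (hqp : q ≠ P.p) :
    q ∈ s59i_Smin P hΔ 𝒪 hp𝒪 ↔ ¬ (s59i_rhobarF P hΔ 𝒪 hp𝒪).IsUnramifiedAt q := by
  classical
  have habc : P.a * P.b * P.c ≠ 0 := mul_ne_zero (mul_ne_zero P.ha0 P.hb0) P.hc0
  rw [s59i_Smin, Finset.mem_insert, Finset.mem_filter]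
  constructor
  · rintro (h | ⟨-, h⟩)
    · exact absurd h hqp
    · exact h
  · intro h
    refine Or.inr ⟨?_, h⟩
    rw [Nat.mem_primeFactors]
    refine ⟨hq, ?_, Int.natAbs_ne_zero.mpr habc⟩
    have hbad : ¬ P.freyCurveInt.IsGoodPrimeFor q := fun hg =>
      h (s59i_rhobarF_unram_good P hΔ 𝒪 hp𝒪 q hq hqp hg)
    have := ((s59q_frey_ssModel P).2.2.2 q hq).1 hbad
    exact Int.natCast_dvd.mp this

theorem s59i_Smin_subset (N : ℕ) (B : Finset ℕ)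
    (hB1 : ∀ r : ℕ, r.Prime → r ∣ N * P.p → r ∈ B)
    (hB2 : ∀ r : ℕ, r.Prime → (r : ℤ) ∣ P.a * P.b * P.c → r ∈ B) :
    s59i_Smin P hΔ 𝒪 hp𝒪 ⊆ B := by
  classical
  intro q hq
  rw [s59i_Smin, Finset.mem_insert, Finset.mem_filter] at hq
  rcases hq with rfl | ⟨hq, -⟩
  · exact hB1 _ P.pp (Dvd.intro_left N rfl)
  · rw [Nat.mem_primeFactors] at hq
    exact hB2 q hq.1 (Int.natCast_dvd.mpr hq.2.1)

/-- the primes `ℓ ≥ 5` of the level outside `Bd` are in `Σ_min`; `2` is in `Σ_min`. -/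
theorem s59i_mem_Smin_of_hram (N : ℕ) (Bd : Finset ℕ)
    (hram : ∀ ℓ : ℕ, ℓ.Prime → 5 ≤ ℓ → ℓ ≠ P.p → ℓ ∣ N → ℓ ∉ Bd → ¬ P.GaloisRepUnramifiedAt ℓ)
    (ℓ : ℕ) (hℓ : ℓ.Prime) (h5 : 5 ≤ ℓ) (hℓp : ℓ ≠ P.p) (hℓN : ℓ ∣ N) (hℓB : ℓ ∉ Bd) :
    ℓ ∈ s59i_Smin P hΔ 𝒪 hp𝒪 :=
  (s59i_Smin_hmin P hΔ 𝒪 hp𝒪 ℓ hℓ hℓp).2 fun h =>
    hram ℓ hℓ h5 hℓp hℓN hℓB (s59i_frey_unram_of_rhobarF P hΔ 𝒪 hp𝒪 ℓ h)

theorem s59i_two_mem_Smin : 2 ∈ s59i_Smin P hΔ 𝒪 hp𝒪 := by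
  have hp5 := P.hp5
  exact (s59i_Smin_hmin P hΔ 𝒪 hp𝒪 2 Nat.prime_two (by omega)).2
    (s59i_rhobarF_ramified_two P hΔ 𝒪 hp𝒪)

end SminSec

end Fermat.Agent.Lib.S59
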