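/-
S59 (helper2, prefix `s59b_`), node [TWO] (helper5 #3472): **`2 ∣ N` under the binders of `s59i_TPkg`**, and the
BASE-LEVEL Hecke–Galois datum at `(N, ⊤)` away from `B` lifting the residual Frey representation.

* `s59b_base_H3`     : helper3's W6 idempotent `ε ≠ 0` on `H_par(Γ₀(N), 𝒪)` and the conclusion
                       `s59e_H3HeckeConcl` of helper5's `s59e_H3_hecke'` for it (`M = M' = N`, `Q = ∅`, `S = B`);
* `s59b_base_datum`  : hence `θ`, `Hd : HeckeGaloisRepDatum N ↑B 𝒪 θ (heckeLocal …)` with `Hd.ρ.residual ≅ ρ̄`;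
* `s59b_two_dvd_level` : `2 ∣ N` (`ρ̄` is ramified at `2`, a representation of level `N` is unramified outside `N p`).
-/
import Mathlib
import Fermat.Agent.S23
import Fermat.Agent.Lib.S59.UW6Idem
import Fermat.Agent.Lib.S59.EHTop2
import Fermat.Agent.Lib.S59.EHType
import Fermat.Agent.Lib.S59.LFinC2
import Fermat.Agent.Lib.S59.BTWArith
import Fermat.Agent.Lib.S59.QFreyRB

set_option autoImplicit false
set_option linter.unusedSectionVars false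
set_option linter.unusedVariables false
set_option linter.style.haveILetI false
set_option synthInstance.maxHeartbeats 400000
set_option maxHeartbeats 1600000

noncomputable section

namespace Fermat.Agent.Lib.S59

open IsLocalRing CuspForm Polynomial ExtCitation FreyPackage CongruenceSubgroup
open WeierstrassCurve WeierstrassCurve.Affine WeierstrassCurve.Affine.Point
open Fermat.Agent.Lib.S48 Fermat.Agent.Lib.S44
open scoped MatrixGroups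

local notation "Qbar" => AlgebraicClosure ℚ
local notation "GQ" => (AlgebraicClosure ℚ ≃ₐ[ℚ] AlgebraicClosure ℚ)

/-- the constants of the anemic generators at level `N`: `a_ℓ` for `T_ℓ`, `1` for the diamonds. -/
def s59b_baseC (N : ℕ) (a : ℕ → ℤ) (𝒪 : Type) [CommRing 𝒪] : s59w_AIdx N → 𝒪 := fun j =>
  match j with
  | Sum.inl i => ((a i.ell : ℤ) : 𝒪)
  | Sum.inr _ => 1

section Base

variable (P : FreyPackage) [Fact P.p.Prime] (hΔ : P.freyCurveInt.Δ ≠ 0) (N : ℕ) [NeZero N]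
  (hirr : GaloisRepIsIrreducible (K := AlgebraicClosure ℚ) ℚ P.freyCurve P.p)
  (B : Finset ℕ) (hB1 : ∀ r : ℕ, r.Prime → r ∣ N * P.p → r ∈ B)
  (hB2 : ∀ r : ℕ, r.Prime → (r : ℤ) ∣ P.a * P.b * P.c → r ∈ B)
  (hocc : s44i_LevelOcc N P.p (fun ℓ => P.freyCurveInt.apOfModel ℓ) B)
  (𝒪 : Type) [CommRing 𝒪] [IsDomain 𝒪] [IsDiscreteValuationRing 𝒪]
  [IsAdicComplete (maximalIdeal 𝒪) 𝒪] [Finite (ResidueField 𝒪)] [CharZero 𝒪]
  [Algebra ℤ_[P.p] 𝒪] (hp𝒪 : ((P.p : ℕ) : 𝒪) ∈ maximalIdeal 𝒪)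

include hirr hB1 hB2 hocc in
/-- **the base level `(N, ⊤)`**: the W6 idempotent and the Hecke half of (H3) for it. -/
theorem s59b_base_H3 :
    haveI : Fact (HasIntegralStructure N 2) := ⟨Fermat.Agent.S23.result N⟩
    ∃ (ε : Module.End 𝒪 (s48h_Hpar 𝒪 (s48h_GammaH N (⊤ : Subgroup (ZMod N)ˣ)) 𝒪))
      (a : heckeAlgebra N 2 (↑B : Set ℕ) →+*
        Module.End 𝒪 (s48h_Hpar 𝒪 (s48h_GammaH N (⊤ : Subgroup (ZMod N)ˣ)) 𝒪)) (cT : ℕ → 𝒪),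
      ε * ε = ε ∧ ε ≠ 0 ∧
      (∀ j, s59e_Anemic B j → ε * s59w_op (⊤ : Subgroup (ZMod N)ˣ) 𝒪 j =
        s59w_op (⊤ : Subgroup (ZMod N)ˣ) 𝒪 j * ε) ∧
      (∀ j, s59e_Anemic B j → ∃ k : ℕ, ∀ z,
        ((s59w_op (⊤ : Subgroup (ZMod N)ˣ) 𝒪 j -
          s59b_baseC N (fun ℓ => P.freyCurveInt.apOfModel ℓ) 𝒪 j • 1) ^ k) (ε z) ∈
          maximalIdeal 𝒪 • (⊤ : Submodule 𝒪 (s48h_Hpar 𝒪 (s48h_GammaH N ⊤) 𝒪))) ∧
      (∀ (ℓ : ℕ) (hℓ : ℓ.Prime) (hℓN : ¬ ℓ ∣ N) (hℓS : ℓ ∉ (↑B : Set ℕ)) (i : s59w_TIdx N),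
        i.ell = ℓ → a (heckeAlgebra.T hℓ hℓN hℓS) = s59e_Tp' (⊤ : Subgroup (ZMod N)ˣ) 𝒪 0 i) ∧
      (∀ ℓ : ℕ, ℓ.Prime → ¬ ℓ ∣ N → cT ℓ = ((P.freyCurveInt.apOfModel ℓ : ℤ) : 𝒪)) ∧
      s59e_H3HeckeConcl N B a ε cT (s59i_rhobarF P hΔ 𝒪 hp𝒪) := by
  classical
  haveI : Fact (HasIntegralStructure N 2) := ⟨Fermat.Agent.S23.result N⟩
  have hp5 := P.hp5
  have hp2 : P.p ≠ 2 := by omega
  have hpP : P.p.Prime := Fact.out
  have hpB : P.p ∈ B := hB1 P.p hpP (Dvd.intro_left N rfl)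
  have hNB : ∀ q : ℕ, q.Prime → q ∣ N → q ∈ B := fun q hq hqN =>
    hB1 q hq (Dvd.dvd.mul_right hqN P.p)
  obtain ⟨hW, hss, -, hgoodiff⟩ := s59q_frey_ssModel P
  have hmodirr : P.freyCurveInt.ModRepIsIrreducible P.p := s59q_frey_modRep_irr P hirr
  -- the W6 idempotent
  obtain ⟨e, -, ε, -, hεε, hε0, hcomm, hnil, -, -⟩ :=
    s59u_W6_idem (M := N) B (⊤ : Subgroup (ZMod N)ˣ) (L := N) (dvd_refl N) 𝒪 P.p hp𝒪
      (fun ℓ => P.freyCurveInt.apOfModel ℓ) hocc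
  have hεc : ∀ j, s59e_Anemic B j → ε * s59w_op (⊤ : Subgroup (ZMod N)ˣ) 𝒪 j =
      s59w_op (⊤ : Subgroup (ZMod N)ˣ) 𝒪 j * ε := fun j hj => hcomm ⟨j, hj⟩
  have hnil' : ∀ j, s59e_Anemic B j → ∃ k : ℕ, ∀ z,
      ((s59w_op (⊤ : Subgroup (ZMod N)ˣ) 𝒪 j -
        s59b_baseC N (fun ℓ => P.freyCurveInt.apOfModel ℓ) 𝒪 j • 1) ^ k) (ε z) ∈
        maximalIdeal 𝒪 • (⊤ : Submodule 𝒪 (s48h_Hpar 𝒪 (s48h_GammaH N ⊤) 𝒪)) := by
    intro j hj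
    rcases j with i | τ
    · exact hnil ⟨Sum.inl i, hj⟩
    · exact hnil ⟨Sum.inr τ, hj⟩
  -- (H3), Hecke half
  let b := Module.Free.chooseBasis ℤ (s48h_M (s48h_GammaH N (⊤ : Subgroup (ZMod N)ˣ)))
  have hD : (1 : ℕ) ∣ N := one_dvd N
  have hEig : ∀ (ℓ : ℕ) (_ : ℓ.Prime) (_ : ¬ ℓ ∣ N) (_ : ℓ ∉ B) (i : s59w_TIdx N), i.ell = ℓ →
      ∀ A : ValuationSubring Qbar, A.LiesOverPrime ℓ → ∀ σ : GQ, A.IsFrobeniusAt σ ℓ →
        LinearMap.charpoly ((s59i_rhobarF P hΔ 𝒪 hp𝒪).ρ σ) = X ^ 2 - C (residue 𝒪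
          (s59b_baseC N (fun ℓ => P.freyCurveInt.apOfModel ℓ) 𝒪
              (Sum.inr (s59e_tau i ((1 - 1) * 1))) *
            s59b_baseC N (fun ℓ => P.freyCurveInt.apOfModel ℓ) 𝒪 (Sum.inl i))) * X +
          C ((ℓ : ResidueField 𝒪)) := by
    intro ℓ hℓ hℓN hℓS i hi A hA σ hσ
    have hℓp : ℓ ≠ P.p := fun h => hℓS (h ▸ hpB)
    have hgood : P.freyCurveInt.IsGoodPrimeFor ℓ := by
      by_contra hbad
      exact hℓS (hB2 ℓ hℓ ((hgoodiff ℓ hℓ).1 hbad))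
    have h1 := s59b_rhobar_charpoly_frob (𝒪 := 𝒪) (W := P.freyCurveInt) (p := P.p) hΔ hp2 hmodirr
      hp𝒪 ℓ hℓ hℓp hgood A hA σ hσ
    show LinearMap.charpoly ((s59i_rhobarF P hΔ 𝒪 hp𝒪).ρ σ) =
      X ^ 2 - C (residue 𝒪 ((1 : 𝒪) * ((P.freyCurveInt.apOfModel i.ell : ℤ) : 𝒪))) * X +
        C ((ℓ : ResidueField 𝒪))
    rw [one_mul, hi, ← map_natCast (residue 𝒪) ℓ]
    exact h1
  obtain ⟨a, cT, ha1, -, hcT, hconcl⟩ :=
    s59e_H3_hecke' (p := P.p) N (∅ : Finset ℕ) (M := N) (⊤ : Subgroup (ZMod N)ˣ) b N B hp2 hp𝒪 hpB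
      (fun q hq => absurd hq (Finset.notMem_empty q))
      (by rw [Finset.prod_empty, mul_one]) (D := 1) (by rw [Finset.prod_empty]) hD le_top
      (n := 1) (m := 1) (by norm_num) (fun u => Subgroup.mem_top _)
      (by rw [Finset.prod_empty, mul_one]) hNB (s59u_cB b 𝒪) (s59u_cB_coe b 𝒪) ε hεε hε0 hεc
      (s59b_baseC N (fun ℓ => P.freyCurveInt.apOfModel ℓ) 𝒪) hnil'
      (s59i_rhobarF P hΔ 𝒪 hp𝒪) (s59q_frey_habs P hp𝒪 hirr) hEig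
  refine ⟨ε, a, cT, hεε, hε0, hεc, hnil', ?_, ?_, hconcl⟩
  · intro ℓ hℓ hℓN hℓS i hi
    exact ha1 ℓ hℓ hℓN hℓS i hi
  · intro ℓ hℓ hℓN
    obtain ⟨i, hi, hci⟩ := hcT ℓ hℓ hℓN
    rw [hci]
    show (1 : 𝒪) * ((P.freyCurveInt.apOfModel i.ell : ℤ) : 𝒪) = _
    rw [one_mul, hi]

include hirr hB1 hB2 hocc in
/-- **the base-level Hecke–Galois datum**: an eigen-system `θ` of level `N` away from `B`, the datum over the
full local Hecke algebra, and the identification of its residual representation with `ρ̄`. -/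
theorem s59b_base_datum :
    haveI : Fact (HasIntegralStructure N 2) := ⟨Fermat.Agent.S23.result N⟩
    ∃ (θ : heckeAlgebra N 2 (↑B : Set ℕ) →+* ResidueField 𝒪)
      (Hd : HeckeGaloisRepDatum N (↑B : Set ℕ) 𝒪 θ (heckeLocal N (↑B : Set ℕ) 𝒪 θ)),
      Hd.π = heckeLocal.π N (↑B : Set ℕ) 𝒪 θ ∧
      (∀ (ℓ : ℕ) (hℓ : ℓ.Prime) (hℓN : ¬ ℓ ∣ N) (hℓS : ℓ ∉ (↑B : Set ℕ)),
        θ (heckeAlgebra.T hℓ hℓN hℓS) =
          residue 𝒪 ((P.freyCurveInt.apOfModel ℓ : ℤ) : 𝒪)) ∧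
      Hd.ρ.residual.IsEquiv ((s59i_rhobarF P hΔ 𝒪 hp𝒪).baseChangeAlong
        (ResidueField.map (algebraMap 𝒪 (heckeLocal N (↑B : Set ℕ) 𝒪 θ)))) := by
  classical
  haveI : Fact (HasIntegralStructure N 2) := ⟨Fermat.Agent.S23.result N⟩
  obtain ⟨ε, a, cT, -, -, -, -, -, hcT, hconcl⟩ :=
    s59b_base_H3 P hΔ N hirr B hB1 hB2 hocc 𝒪 hp𝒪
  obtain ⟨aM, -, -, -, θ, Hd, Ψ, hΨ, hπ, -, hθ, -, -, hres, -⟩ := hconcl
  refine ⟨θ, Hd, hπ, fun ℓ hℓ hℓN hℓS => ?_, hres⟩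
  rw [hθ ℓ hℓ hℓN hℓS, hcT ℓ hℓ hℓN]

include hΔ hirr hB1 hB2 hocc hp𝒪 in
/-- **[TWO]**: under the binders of `s59i_TPkg`, the level is even. -/
theorem s59b_two_dvd_level : 2 ∣ N := by
  classical
  haveI : Fact (HasIntegralStructure N 2) := ⟨Fermat.Agent.S23.result N⟩
  have hp5 := P.hp5
  have hpP : P.p.Prime := Fact.out
  have hpB : P.p ∈ B := hB1 P.p hpP (Dvd.intro_left N rfl)
  have hNB : ∀ q : ℕ, q.Prime → q ∣ N → q ∈ B := fun q hq hqN =>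
    hB1 q hq (Dvd.dvd.mul_right hqN P.p)
  obtain ⟨θ, Hd, -, -, hres⟩ := s59b_base_datum P hΔ N hirr B hB1 hB2 hocc 𝒪 hp𝒪
  by_contra h2
  exact s59i_rhobarF_ramified_two P hΔ 𝒪 hp𝒪
    (s59e_rhobar_unram_of_hres Hd hp𝒪 hpB hNB (s59i_rhobarF P hΔ 𝒪 hp𝒪) hres 2 Nat.prime_two
      (by omega) h2)

end Base

end Fermat.Agent.Lib.S59
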