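/-
S59 (helper2, prefix `s59b_`): **[EXIST-DQ] at the Frey curve = the FIRST CONJUNCT of `s59i_TPkg`**, from the
base-level Hecke–Galois datum `s59b_base_datum` (BTwoDvd) and helper6's `s59q_existDQ_of_datum` (QFreyRE).
-/
import Mathlib
import Fermat.Agent.Lib.S59.BTwoDvd
import Fermat.Agent.Lib.S59.QFreyRE

set_option autoImplicit false
set_option linter.unusedSectionVars false
set_option linter.unusedVariables false
set_option linter.style.haveILetI false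
set_option synthInstance.maxHeartbeats 400000
set_option maxHeartbeats 1600000

noncomputable section

namespace Fermat.Agent.Lib.S59

open IsLocalRing CuspForm Polynomial ExtCitation FreyPackage
open WeierstrassCurve WeierstrassCurve.Affine WeierstrassCurve.Affine.Point
open Fermat.Agent.Lib.S44

/-- **[EXIST-DQ]**: the universal deformation rings of the Taylor–Wiles types exist (first conjunct of the
conclusion of `s59i_TPkg`, verbatim). -/
theorem s59b_existDQ (P : FreyPackage) [Fact P.p.Prime] (hΔ : P.freyCurveInt.Δ ≠ 0) (N : ℕ) [NeZero N]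
    (hcond : P.IsConductorLevel N) (hpN : ¬ P.p ∣ N)
    (hirr : GaloisRepIsIrreducible (K := AlgebraicClosure ℚ) ℚ P.freyCurve P.p)
    (Bd : Finset ℕ)
    (B : Finset ℕ) (hB1 : ∀ r : ℕ, r.Prime → r ∣ N * P.p → r ∈ B)
    (hB2 : ∀ r : ℕ, r.Prime → (r : ℤ) ∣ P.a * P.b * P.c → r ∈ B)
    (hocc : s44i_LevelOcc N P.p (fun ℓ => P.freyCurveInt.apOfModel ℓ) B)
    (𝒪 : Type) [CommRing 𝒪] [IsDomain 𝒪] [IsDiscreteValuationRing 𝒪]
    [IsAdicComplete (maximalIdeal 𝒪) 𝒪] [Finite (ResidueField 𝒪)] [CharZero 𝒪]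
    [Algebra ℤ_[P.p] 𝒪] (hp𝒪 : ((P.p : ℕ) : 𝒪) ∈ maximalIdeal 𝒪)
    (Rd : s59i_RData P.p N (s59i_rhobarF P hΔ 𝒪 hp𝒪) B Bd) (r : ℕ) :
    ∀ qv : Fin r → ℕ, Nonempty (GaloisRep.DeformationRingData 𝒪 (s59i_rhobarF P hΔ 𝒪 hp𝒪)
      (fun _A _ _ _ ρ =>
        GaloisRep.flatCondition 𝒪 P.p (Rd.Smin ∪ (Bd ∪ Rd.Ed) ∪ Finset.univ.image qv) ρ ∧
          ∀ q ∈ Rd.Smin, q.Prime → q ≠ P.p → ρ.IsUnipotentOnInertiaAt q)) := by
  classical
  intro qv
  haveI : Fact (HasIntegralStructure N 2) := ⟨Fermat.Agent.S23.result N⟩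
  have hp5 := P.hp5
  have hp2 : P.p ≠ 2 := by omega
  have hpP : P.p.Prime := Fact.out
  have hpB : P.p ∈ B := hB1 P.p hpP (Dvd.intro_left N rfl)
  have hNB : ∀ q : ℕ, q.Prime → q ∣ N → q ∈ B := fun q hq hqN =>
    hB1 q hq (Dvd.dvd.mul_right hqN P.p)
  obtain ⟨θ, Hd, -, -, hres⟩ := s59b_base_datum P hΔ N hirr B hB1 hB2 hocc 𝒪 hp𝒪
  exact s59q_existDQ_of_datum Rd hp2 hp𝒪 N B hpN hpB hNB N (∅ : Finset ℕ)
    (by rw [Finset.prod_empty, mul_one]) hcond.squarefree (dvd_refl N)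
    (fun q hq => absurd hq (Finset.notMem_empty q)) Hd hres qv

end Fermat.Agent.Lib.S59
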