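/-
helper2 (prefix `s59b_`): **the hypothesis `hloc` of `s59b_hchi_eig` at the concrete Taylor–Wiles level.**
Level `N * D` (`N`, `D` coprime), `Δ' = s59t_Delta (N * D) (s59t_Hmul N D H K)`, `C = s59t_CQ N D H K`,
`χ' = χ.comp (s59t_phiN N D H K)`: for every prime `qB j ∣ N` at which the character `ψ` (of `χ`) is non-trivial
on the `qB j`-local units, there are `τ ∈ Γ₀(N D)` and `γ ∈ C` with `ρ' γ = ⟨τ⟩`, `χ' γ ≠ 1` and lower right
entry of `τ` `≡ 1` modulo `N D / qB j`.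
-/
import Mathlib
import Fermat.Agent.Lib.S59.TDeltaQ
import Fermat.Agent.Lib.S59.WDia
import Fermat.Agent.Lib.S59.WAlg
import Fermat.Agent.Lib.S48.DescAsm

set_option autoImplicit false
set_option linter.unusedSectionVars false
set_option linter.unusedVariables false
set_option linter.style.haveILetI false

noncomputable section

namespace Fermat.Agent.Lib.S59

open Matrix MatrixGroups CongruenceSubgroup
open Fermat.Agent.Lib.S48

/-- the value of `unitsMap` on a unit, through the natural representative. -/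
theorem s59b_unitsMap_eq_one_iff {M d : ℕ} [NeZero M] (h : d ∣ M) (u : (ZMod M)ˣ) :
    ZMod.unitsMap h u = 1 ↔ ((u : ZMod M).val) ≡ 1 [MOD d] := by
  rw [← ZMod.natCast_eq_natCast_iff, Nat.cast_one]
  constructor
  · intro h1
    have h2 := congrArg (fun w : (ZMod d)ˣ => (w : ZMod d)) h1
    simp only [ZMod.unitsMap_def, Units.coe_map, MonoidHom.coe_coe, Units.val_one] at h2
    rw [← h2]
    conv_rhs => rw [← ZMod.natCast_zmod_val (u : ZMod M)]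
    rw [map_natCast]
  · intro h1
    apply Units.ext
    simp only [ZMod.unitsMap_def, Units.coe_map, MonoidHom.coe_coe, Units.val_one]
    rw [← h1]
    conv_lhs => rw [← ZMod.natCast_zmod_val (u : ZMod M)]
    rw [map_natCast]

/-- a unit trivial modulo two coprime divisors is trivial modulo their product. -/
theorem s59b_unitsMap_eq_one_mul {M a b : ℕ} [NeZero M] (ha : a ∣ M) (hb : b ∣ M)
    (hab : a * b ∣ M) (hcop : a.Coprime b) (u : (ZMod M)ˣ)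
    (h1 : ZMod.unitsMap ha u = 1) (h2 : ZMod.unitsMap hb u = 1) : ZMod.unitsMap hab u = 1 := by
  rw [s59b_unitsMap_eq_one_iff] at h1 h2 ⊢
  exact (Nat.modEq_and_modEq_iff_modEq_mul hcop).mp ⟨h1, h2⟩

section Loc

variable {N D : ℕ} [NeZero N] [NeZero D] [NeZero (N * D)] (hcop : N.Coprime D)
  (H : Subgroup (ZMod N)ˣ) (K : Subgroup (ZMod D)ˣ)
  {𝒪 : Type*} [CommRing 𝒪] {Y' : Type*} [AddCommGroup Y'] [Module 𝒪 Y']
  (opY : s59w_AIdx (N * D) → Module.End 𝒪 Y')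
  (ρ' : s59t_Delta (N * D) (s59t_Hmul N D H K) →* Module.End 𝒪 Y')
  (hρmk : ∀ τ : Gamma0 (N * D), ρ' (QuotientGroup.mk τ) =
    opY (Sum.inr ⟨((τ : SL(2, ℤ)))⁻¹, inv_mem τ.2⟩))
  (ψ : (ZMod N)ˣ →* 𝒪ˣ) (χ : s59t_Delta N H →* 𝒪ˣ)
  (hχmk : ∀ τ : Gamma0 N, χ (QuotientGroup.mk τ) = ψ (s59t_unitHom N τ))

include hcop hρmk hχmk in
/-- `hloc` at one prime `q ∣ N`. -/
theorem s59b_hloc_one (q : ℕ) (hqN : q ∣ N) (u : (ZMod N)ˣ)
    (hu1 : ZMod.unitsMap (Nat.div_dvd_of_dvd hqN) u = 1) (huψ : ψ u ≠ 1) :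
    ∃ (τ : Gamma0 (N * D)) (γ : s59t_Delta (N * D) (s59t_Hmul N D H K)),
      γ ∈ s59t_CQ N D H K ∧ ρ' γ = opY (Sum.inr τ) ∧ (χ.comp (s59t_phiN N D H K)) γ ≠ 1 ∧
      ∃ (L₀ : ℕ) (hL₀ : N * D = L₀ * q),
        ZMod.unitsMap (hL₀ ▸ Dvd.intro q rfl : L₀ ∣ N * D) (s59w_lrUnit τ) = 1 := by
  obtain ⟨u', hu'1, hu'2⟩ := s59t_crt_units N D hcop u 1
  obtain ⟨σ, hσ, hσu⟩ := s48desc_exists_sigma (N * D) u'⁻¹
  have hτu : s59t_unitHom (N * D) ⟨σ, hσ⟩ = u'⁻¹ := Units.ext hσu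
  have hinv : (⟨(σ)⁻¹, inv_mem hσ⟩ : Gamma0 (N * D)) = (⟨σ, hσ⟩ : Gamma0 (N * D))⁻¹ := rfl
  have hlr : s59w_lrUnit (⟨(σ)⁻¹, inv_mem hσ⟩ : Gamma0 (N * D)) = u' := by
    have h1 : s59w_lrUnit (⟨(σ)⁻¹, inv_mem hσ⟩ : Gamma0 (N * D)) =
        s59t_unitHom (N * D) (⟨(σ)⁻¹, inv_mem hσ⟩ : Gamma0 (N * D)) := rfl
    rw [h1, hinv, map_inv, hτu, inv_inv]
  refine ⟨⟨(σ)⁻¹, inv_mem hσ⟩, QuotientGroup.mk (⟨σ, hσ⟩ : Gamma0 (N * D)), ?_, hρmk ⟨σ, hσ⟩, ?_,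
    (N / q) * D, ?_, ?_⟩
  · -- `γ ∈ C`
    rw [s59t_CQ, MonoidHom.mem_ker, s59t_phiD_eq_one_iff, hτu, map_inv, hu'2, inv_one]
    exact one_mem _
  · -- `χ' γ ≠ 1`
    rw [MonoidHom.comp_apply, s59t_phiN, s59t_DeltaMap2_mk, hχmk,
      ← s59t_unitsMap_unit (s59t_dvd_mul_left' N D) ⟨σ, hσ⟩, hτu, map_inv, hu'1, map_inv]
    intro h
    exact huψ (inv_eq_one.mp h)
  · -- the level
    have hN : N / q * q = N := Nat.div_mul_cancel hqN
    calc N * D = (N / q * q) * D := by rw [hN]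
      _ = N / q * D * q := by ring
  · -- the lower right entry
    rw [hlr]
    have hdN : N / q ∣ N := Nat.div_dvd_of_dvd hqN
    have ha : N / q ∣ N * D := hdN.trans (s59t_dvd_mul_left' N D)
    have hb : D ∣ N * D := s59t_dvd_mul_right' N D
    have hab : N / q * D ∣ N * D := Nat.mul_dvd_mul_right hdN D
    have hc : (N / q).Coprime D := Nat.Coprime.coprime_dvd_left hdN hcop
    have h1 : ZMod.unitsMap ha u' = 1 := by
      have := DFunLike.congr_fun (ZMod.unitsMap_comp hdN (s59t_dvd_mul_left' N D)) u'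
      rw [MonoidHom.comp_apply, hu'1, hu1] at this
      exact this.symm
    exact s59b_unitsMap_eq_one_mul ha hb hab hc u' h1 hu'2

include hcop hρmk hχmk in
/-- **`hloc` of `s59b_hchi_eig` at the level `N * D`**, from helper1's `s59k_exists_chi`. -/
theorem s59b_hloc_level {m : ℕ} (qB : Fin m → ℕ) (hdvd : ∏ j, qB j ∣ N)
    (hu : ∀ j, ∃ u : (ZMod N)ˣ,
      ZMod.unitsMap (Nat.div_dvd_of_dvd ((s59t_dvd_prod qB j).trans hdvd)) u = 1 ∧
      (∀ k, k ≠ j → ZMod.unitsMap ((s59t_dvd_prod qB k).trans hdvd) u = 1) ∧ ψ u ≠ 1) :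
    ∀ j, ∃ (τ : Gamma0 (N * D)) (γ : s59t_Delta (N * D) (s59t_Hmul N D H K)),
      γ ∈ s59t_CQ N D H K ∧ ρ' γ = opY (Sum.inr τ) ∧ (χ.comp (s59t_phiN N D H K)) γ ≠ 1 ∧
      ∃ (L₀ : ℕ) (hL₀ : N * D = L₀ * qB j),
        ZMod.unitsMap (hL₀ ▸ Dvd.intro (qB j) rfl : L₀ ∣ N * D) (s59w_lrUnit τ) = 1 := by
  intro j
  obtain ⟨u, hu1, -, hu3⟩ := hu j
  exact s59b_hloc_one hcop H K opY ρ' hρmk ψ χ hχmk (qB j) ((s59t_dvd_prod qB j).trans hdvd) u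
    hu1 hu3

end Loc

end Fermat.Agent.Lib.S59
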