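/-
S59 (helper5, prefix `s59e_`): **type 1 (`h1tr`, `h1det`) from the package data**: helper3's `s59u_type1_level` with its
inputs in the shapes delivered by the level package (`hεc` for all generators, `hnil` on the good generators + the
`p`-group property for the diamonds, `hEig` in terms of `a_ℓ`, `hfrobT` in terms of `s59e_tOf`).
-/
import Mathlib
import Fermat.Agent.Lib.S59.UType1L
import Fermat.Agent.Lib.S59.ETBaseD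
import Fermat.Agent.Lib.S59.UW6Lat
import Fermat.Agent.Lib.S59.TIndH

set_option autoImplicit false
set_option linter.unusedSectionVars false
set_option linter.unusedVariables false
set_option linter.style.haveILetI false
set_option synthInstance.maxHeartbeats 400000
set_option maxSynthPendingDepth 3
set_option maxHeartbeats 1600000

noncomputable section

namespace Fermat.Agent.Lib.S59

open Matrix.SpecialLinearGroup CongruenceSubgroup ModularCurve.Period Polynomial CuspForm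
open Fermat.Agent.Lib.S48 Fermat.Agent.Lib.ES IsLocalRing
open scoped MatrixGroups

local notation "Qbar" => AlgebraicClosure ℚ
local notation "GQ" => (AlgebraicClosure ℚ ≃ₐ[ℚ] AlgebraicClosure ℚ)

section Frob

variable {𝒪 : Type} [CommRing 𝒪] {E : Type} [Ring E] [Algebra 𝒪 E]
  (M' : ℕ) [NeZero M'] (S : Finset ℕ) (aM : heckeAlgebra M' 2 (↑S : Set ℕ) →+* E)
  [IsLocalRing (s59e_adj 𝒪 aM)]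
  {A₀ : Type} [CommRing A₀] [IsLocalRing A₀] (ρ₀ : GaloisRepAdic A₀)
  (θ : A₀ →+* s59e_adj 𝒪 aM) (hθ : IsLocalHom θ)

/-- `hfrobT` (in terms of `s59e_tOf`) gives the Frobenius characteristic polynomials of the base change. -/
theorem s59e_hrho1_of_hfrobT
    (hfrobT : ∀ ℓ : ℕ, ℓ.Prime → ℓ ∉ S →
      ∀ A' : ValuationSubring Qbar, A'.LiesOverPrime ℓ →
      ∀ τ : GQ, A'.IsFrobeniusAt τ ℓ →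
        (LinearMap.charpoly (ρ₀.ρ τ)).map θ =
          X ^ 2 - C (s59e_tOf (𝒪 := 𝒪) (↑S : Set ℕ) aM ℓ) * X + C ((ℓ : s59e_adj 𝒪 aM)))
    (ℓ : ℕ) (hℓ : ℓ.Prime) (h₁ : ¬ ℓ ∣ M') (hℓS : ℓ ∉ (↑S : Set ℕ))
    (P : ValuationSubring Qbar) (hP : P.LiesOverPrime ℓ) (σ : GQ) (hσ : P.IsFrobeniusAt σ ℓ) :
    LinearMap.charpoly ((ρ₀.baseChangeAlong θ hθ).ρ σ) =
      X ^ 2 - C (s59e_adjHom 𝒪 aM (heckeAlgebra.T hℓ h₁ hℓS)) * X + C ((ℓ : s59e_adj 𝒪 aM)) := by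
  rw [s59e_bc_charpoly, hfrobT ℓ hℓ (fun h => hℓS (Finset.mem_coe.mpr h)) P hP σ hσ,
    s59e_tOf_eq (𝒪 := 𝒪) (↑S : Set ℕ) aM hℓ h₁ hℓS]

end Frob

section Pkg

variable {p : ℕ} [Fact p.Prime] {M : ℕ} [NeZero M] (H₁ H₂ : Subgroup (ZMod M)ˣ)
  (S B : Finset ℕ)
  {𝒪 : Type} [CommRing 𝒪] [IsDomain 𝒪] [IsDiscreteValuationRing 𝒪]
  [IsAdicComplete (maximalIdeal 𝒪) 𝒪] [Finite (ResidueField 𝒪)] [CharZero 𝒪] [Algebra ℤ_[p] 𝒪]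

/-- **type 1 from the package data.** -/
theorem s59e_type1_pkg (hBS : B ⊆ S) (hp2 : p ≠ 2) (hp𝒪 : (p : 𝒪) ∈ maximalIdeal 𝒪) (hpS : p ∈ S)
    (hle : s48h_GammaH M H₁ ≤ s48h_GammaH M H₂) {n m : ℕ} (hnm : 2 * m = n + 1)
    -- level 1 (the output of (B2))
    (M'₁ : ℕ) [NeZero M'₁] (hS₁ : ∀ q : ℕ, q.Prime → q ∣ M'₁ → q ∈ S)
    (a₁ : heckeAlgebra M'₁ 2 (↑S : Set ℕ) →+*
      Module.End 𝒪 (s48h_Hpar 𝒪 (s48h_GammaH M H₁) 𝒪))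
    (ha₁ : ∀ (ℓ : ℕ) (hℓ : ℓ.Prime) (hℓN : ¬ ℓ ∣ M'₁) (hℓS : ℓ ∉ (↑S : Set ℕ)) (i : s59w_TIdx M),
      i.ell = ℓ → a₁ (heckeAlgebra.T hℓ hℓN hℓS) = s59e_Tp' H₁ 𝒪 ((n - 1) * m) i)
    (ε₁ : Module.End 𝒪 (s48h_Hpar 𝒪 (s48h_GammaH M H₁) 𝒪)) (hε₁ : ε₁ * ε₁ = ε₁)
    (hεc₁ : ∀ j, ε₁ * s59w_op H₁ 𝒪 j = s59w_op H₁ 𝒪 j * ε₁)
    (aM₁ : heckeAlgebra M'₁ 2 (↑S : Set ℕ) →+* Module.End 𝒪 (LinearMap.range ε₁))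
    (haM₁ : ∀ t (z : LinearMap.range ε₁), ((aM₁ t z : LinearMap.range ε₁) :
      s48h_Hpar 𝒪 (s48h_GammaH M H₁) 𝒪) = a₁ t (z : s48h_Hpar 𝒪 (s48h_GammaH M H₁) 𝒪))
    [IsLocalRing (s59e_adj 𝒪 aM₁)]
    {A₀ : Type} [CommRing A₀] [IsLocalRing A₀] (ρ₀ : GaloisRepAdic A₀)
    (θ : A₀ →+* s59e_adj 𝒪 aM₁) (hθ : IsLocalHom θ)
    (hfrobT : ∀ ℓ : ℕ, ℓ.Prime → ℓ ∉ S →
      ∀ A' : ValuationSubring Qbar, A'.LiesOverPrime ℓ →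
      ∀ τ : GQ, A'.IsFrobeniusAt τ ℓ →
        (LinearMap.charpoly (ρ₀.ρ τ)).map θ =
          X ^ 2 - C (s59e_tOf (𝒪 := 𝒪) (↑S : Set ℕ) aM₁ ℓ) * X + C ((ℓ : s59e_adj 𝒪 aM₁)))
    -- level 2
    (N₂ : ℕ) [NeZero N₂] (Q₂ : Finset ℕ)
    (M'₂ : ℕ) [NeZero M'₂] [Fact (HasIntegralStructure M'₂ 2)]
    (hQ : ∀ q ∈ Q₂, q.Prime ∧ ¬ q ∣ N₂)
    (hM : M = N₂ * ∏ q ∈ Q₂, q) {D : ℕ} (hDQ : D = ∏ q ∈ Q₂, q) (hD : D ∣ M)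
    (hH : s59u_ker M D hD ≤ H₂) (hn : ∀ u : (ZMod M)ˣ, u ^ n ∈ H₂)
    (hM' : M'₂ = N₂ * ∏ q ∈ Q₂, q ^ 2) (hS₂ : ∀ q : ℕ, q.Prime → q ∣ M'₂ → q ∈ S)
    (ε₂ : Module.End 𝒪 (s48h_Hpar 𝒪 (s48h_GammaH M H₂) 𝒪)) (hε₂ : ε₂ * ε₂ = ε₂) (hε0₂ : ε₂ ≠ 0)
    (hεc₂ : ∀ j, ε₂ * s59w_op H₂ 𝒪 j = s59w_op H₂ 𝒪 j * ε₂)
    (a : ℕ → ℤ) (hH₂p : ∀ u : (ZMod M)ˣ, ∃ k : ℕ, u ^ (p ^ k) ∈ H₂)
    (hnil₂ : ∀ x ∈ s59t_goodB M B, ∃ k : ℕ, ∀ y : s48h_Hpar 𝒪 (s48h_GammaH M H₂) 𝒪,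
      ((s59w_op H₂ 𝒪 x - s59t_cB (𝒪 := 𝒪) M a x •
        (1 : Module.End 𝒪 (s48h_Hpar 𝒪 (s48h_GammaH M H₂) 𝒪))) ^ k) (ε₂ y) ∈
        (maximalIdeal 𝒪 • ⊤ : Submodule 𝒪 (s48h_Hpar 𝒪 (s48h_GammaH M H₂) 𝒪)))
    (ρbar : ResidualGaloisRep (ResidueField 𝒪)) (habs : ρbar.IsAbsolutelyIrreducible)
    (hEig : ∀ ℓ : ℕ, ℓ.Prime → ℓ ∉ S → ∀ A : ValuationSubring Qbar, A.LiesOverPrime ℓ →
      ∀ σ : GQ, A.IsFrobeniusAt σ ℓ →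
        LinearMap.charpoly (ρbar.ρ σ) =
          X ^ 2 - C (residue 𝒪 ((a ℓ : ℤ) : 𝒪)) * X + C ((ℓ : ResidueField 𝒪)))
    (hinj : Function.Injective (s59t_iotaH ε₂ ε₁ (s59t_resGHpar hle 𝒪 𝒪)))
    -- the diamonds on `Y' = range ε₁` and the `Cs`-invariants
    {Δ' : Type} [CommGroup Δ'] [Fintype Δ'] (ρ' : Δ' →* Module.End 𝒪 (LinearMap.range ε₁))
    (Bq Cs : Subgroup Δ')
    (hcomm : ∀ (t : heckeAlgebra M'₁ 2 (↑S : Set ℕ)) (β : Bq),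
      Commute (aM₁ t) ((ρ'.comp Bq.subtype) β))
    (hTρ : ∀ (t : s59e_adj 𝒪 (s59e_aB aM₁ (ρ'.comp Bq.subtype) hcomm)) (δ : Δ')
      (y : LinearMap.range ε₁), t • ρ' δ y = ρ' δ (t • y))
    (hsurj : ∀ y : LinearMap.range ε₁, (∀ β ∈ Cs, ρ' β y = y) →
      ∃ x, s59t_iotaH ε₂ ε₁ (s59t_resGHpar hle 𝒪 𝒪) x = y)
    -- the prime `q ∥ M'₂` and the inertia element
    (q : ℕ) (hq : q.Prime) (hqp : q ≠ p) (hqM : q ∣ M'₂) (hq2 : ¬ q ^ 2 ∣ M'₂)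
    (P : ValuationSubring Qbar) (hP : P.LiesOverPrime q) (σ : GQ)
    (hσ : σ ∈ P.inertiaSubgroupIn ℚ) :
    s59e_incl aM₁ (ρ'.comp Bq.subtype) hcomm (θ (s59i_cpTr ρ₀ σ)) - 2 ∈
      Module.annihilator (s59e_adj 𝒪 (s59e_aB aM₁ (ρ'.comp Bq.subtype) hcomm))
        (s59t_EigT (T := s59e_adj 𝒪 (s59e_aB aM₁ (ρ'.comp Bq.subtype) hcomm)) ρ' Cs
          (1 : Δ' →* 𝒪ˣ) hTρ) ∧
    s59e_incl aM₁ (ρ'.comp Bq.subtype) hcomm (θ (s59i_cpDt ρ₀ σ)) - 1 ∈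
      Module.annihilator (s59e_adj 𝒪 (s59e_aB aM₁ (ρ'.comp Bq.subtype) hcomm))
        (s59t_EigT (T := s59e_adj 𝒪 (s59e_aB aM₁ (ρ'.comp Bq.subtype) hcomm)) ρ' Cs
          (1 : Δ' →* 𝒪ˣ) hTρ) := by
  classical
  let b₁ := Module.Free.chooseBasis ℤ (s48h_M (s48h_GammaH M H₁))
  let b₂ := Module.Free.chooseBasis ℤ (s48h_M (s48h_GammaH M H₂))
  have hEig₂ : ∀ (ℓ : ℕ) (_ : ℓ.Prime) (_ : ¬ ℓ ∣ M'₂) (_ : ℓ ∉ S) (i : s59w_TIdx M), i.ell = ℓ →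
      ∀ A : ValuationSubring Qbar, A.LiesOverPrime ℓ → ∀ σ : GQ, A.IsFrobeniusAt σ ℓ →
        LinearMap.charpoly (ρbar.ρ σ) = X ^ 2 - C (residue 𝒪
          (s59t_cB (𝒪 := 𝒪) M a (Sum.inr (s59e_tau i ((n - 1) * m))) *
            s59t_cB (𝒪 := 𝒪) M a (Sum.inl i))) * X + C ((ℓ : ResidueField 𝒪)) := by
    intro ℓ hℓ hℓN hℓS i hi A hA σ hσ
    show LinearMap.charpoly (ρbar.ρ σ) =
      X ^ 2 - C (residue 𝒪 ((1 : 𝒪) * ((a i.ell : ℤ) : 𝒪))) * X + C ((ℓ : ResidueField 𝒪))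
    rw [one_mul, hi]
    exact hEig ℓ hℓ hℓS A hA σ hσ
  have hnilA : ∀ j : s59w_AIdx M, s59e_Anemic S j → ∃ k : ℕ, ∀ z,
      ((s59w_op H₂ 𝒪 j - s59t_cB (𝒪 := 𝒪) M a j • 1) ^ k) (ε₂ z) ∈
        maximalIdeal 𝒪 • (⊤ : Submodule 𝒪 (s48h_Hpar 𝒪 (s48h_GammaH M H₂) 𝒪)) := by
    intro j hj
    rcases j with i | τ
    · exact hnil₂ (Sum.inl i) (s59t_inl_mem_goodB B i (fun h => hj i rfl (hBS h)))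
    · exact s59t_topNil_dia p H₂ hp𝒪 hH₂p ε₂ τ
  exact s59u_type1_level (p := p) H₁ H₂ S hp2 hp𝒪 hpS hle hnm M'₁ hS₁ (s59u_cB b₁ 𝒪) a₁ ha₁ ε₁ hε₁
    (fun j _ => hεc₁ j) aM₁ haM₁ ρ₀ θ hθ (s59e_hrho1_of_hfrobT M'₁ S aM₁ ρ₀ θ hθ hfrobT)
    N₂ Q₂ b₂ M'₂ hQ hM hDQ hD hH hn hM' hS₂ (s59u_cB b₂ 𝒪) (s59u_cB_coe b₂ 𝒪) ε₂ hε₂ hε0₂
    (fun j _ => hεc₂ j) (s59t_cB (𝒪 := 𝒪) M a) hnilA ρbar habs hEig₂ hinj ρ' Bq Cs hcomm hTρ hsurj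
    q hq hqp hqM hq2 P hP σ hσ

end Pkg

end Fermat.Agent.Lib.S59
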