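/-
Programme (R) = S59 / S43, helper1: **(P8) the numerology of the concrete Taylor–Wiles levels**
(request #3466 of helper5, re-routed by helper8 #3474).

Fixed data: the level `N`, the "bad" primes `qB : Fin m → ℕ` with `∏ j, qB j ∣ N`, an exponent `P₀`
(`= p ^ v`); the Taylor–Wiles primes `qv : Fin r → ℕ`, an exponent `Pn` (`= p ^ n`).

* `s59k_H0 P₀ qB N hdvd ≤ (ℤ/N)ˣ` : the units whose image in `(ℤ/∏ qB)ˣ` lies in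
  `s59t_KQ P₀ qB` (i.e. is a `P₀`-th power modulo every `qB j`);
* at `(N, H₀)`: `s59k_ker_le_H0`, `s59k_pow_mem_H0`, `s59k_neg_one_mem_H0`, `s59k_H0_pgroup`;
* at `(N ∏ qv, H' = s59t_Hmul N D H₀ K)` and `(N ∏ qv, H₂' = s59t_Hmul N D ⊤ K)`, `K = s59t_KQ Pn qv`:
  `s59k_ker_le_Hmul`, `s59k_ker_le_Hmul_top`, `s59k_pow_mem_Hmul`, `s59k_pow_mem_Hmul_top`,
  `s59k_neg_one_mem_Hmul`, `s59k_neg_one_mem_Hmul_top`, `s59k_Hmul_le_top`, and the `p`-power forms.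
-/
import Mathlib
import Fermat.Agent.Lib.S59.TDeltaQ
import Fermat.Agent.Lib.S59.UGrp

set_option autoImplicit false
set_option linter.unusedSectionVars false

noncomputable section

namespace Fermat.Agent.Lib.S59

open Fermat.Agent.Lib.S48 CongruenceSubgroup

/-! ### generalities on `ZMod.unitsMap` -/

theorem s59k_unitsMap_unitsMap {a b c : ℕ} (hab : a ∣ b) (hbc : b ∣ c) (u : (ZMod c)ˣ) :
    ZMod.unitsMap hab (ZMod.unitsMap hbc u) = ZMod.unitsMap (hab.trans hbc) u := by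
  rw [← ZMod.unitsMap_comp hab hbc]
  rfl

theorem s59k_unitsMap_eq_one {a b c : ℕ} (hab : a ∣ b) (hbc : b ∣ c) (hac : a ∣ c) (u : (ZMod c)ˣ)
    (h : ZMod.unitsMap hbc u = 1) : ZMod.unitsMap hac u = 1 := by
  have h1 := s59k_unitsMap_unitsMap hab hbc u
  rw [h, map_one] at h1
  exact h1.symm

theorem s59k_unitsMap_neg_one {a b : ℕ} (hab : a ∣ b) :
    ZMod.unitsMap hab (-1 : (ZMod b)ˣ) = -1 := by
  apply Units.ext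
  rw [ZMod.unitsMap_def, Units.coe_map]
  simp only [Units.val_neg, Units.val_one, MonoidHom.coe_coe, map_neg, map_one]

theorem s59k_ker_mono {Lev D D' : ℕ} (hD : D ∣ Lev) (hD' : D' ∣ Lev) (h : D ∣ D') :
    s59u_ker Lev D' hD' ≤ s59u_ker Lev D hD := by
  intro u hu
  exact s59k_unitsMap_eq_one h hD' hD u hu

/-! ### the group `H₀` -/

section H0

variable (P₀ : ℕ) {m : ℕ} (qB : Fin m → ℕ) (N : ℕ) (hdvd : ∏ j, qB j ∣ N)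

/-- **`H₀ ≤ (ℤ/N)ˣ`**: the units which are `P₀`-th powers modulo every `qB j`. -/
def s59k_H0 : Subgroup (ZMod N)ˣ := (s59t_KQ P₀ qB).comap (ZMod.unitsMap hdvd)

theorem s59k_mem_H0 (u : (ZMod N)ˣ) :
    u ∈ s59k_H0 P₀ qB N hdvd ↔ ZMod.unitsMap hdvd u ∈ s59t_KQ P₀ qB := Iff.rfl

/-- entrywise form: `u ∈ H₀` iff `u mod qB j` is a `P₀`-th power for every `j`. -/
theorem s59k_mem_H0_iff (u : (ZMod N)ˣ) :
    u ∈ s59k_H0 P₀ qB N hdvd ↔ ∀ j, ∃ w : (ZMod (qB j))ˣ,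
      w ^ P₀ = ZMod.unitsMap ((s59t_dvd_prod qB j).trans hdvd) u := by
  rw [s59k_mem_H0, s59t_mem_KQ]
  refine forall_congr' fun j => ?_
  rw [s59k_unitsMap_unitsMap]

/-- the units `≡ 1 mod D'` lie in `H₀` as soon as `∏ qB ∣ D'`. -/
theorem s59k_ker_le_H0 {D' : ℕ} (hD' : D' ∣ N) (h : ∏ j, qB j ∣ D') :
    s59u_ker N D' hD' ≤ s59k_H0 P₀ qB N hdvd := by
  intro u hu
  rw [s59k_mem_H0, s59k_unitsMap_eq_one h hD' hdvd u hu]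
  exact one_mem _

theorem s59k_pow_mem_H0 (u : (ZMod N)ˣ) : u ^ P₀ ∈ s59k_H0 P₀ qB N hdvd := by
  rw [s59k_mem_H0, map_pow]
  exact s59t_pow_mem_KQ P₀ qB _

theorem s59k_neg_one_mem_H0 (hP : Odd P₀) : (-1 : (ZMod N)ˣ) ∈ s59k_H0 P₀ qB N hdvd := by
  rw [s59k_mem_H0, s59k_unitsMap_neg_one]
  exact s59t_neg_one_mem_KQ P₀ qB hP

/-- `(ℤ/N)ˣ / H₀` is a `p`-group when `P₀ = p ^ v` (helper8's `hH`). -/
theorem s59k_H0_pgroup (p v : ℕ) (u : (ZMod N)ˣ) :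
    ∃ k : ℕ, u ^ (p ^ k) ∈ s59k_H0 (p ^ v) qB N hdvd :=
  ⟨v, s59k_pow_mem_H0 (p ^ v) qB N hdvd u⟩

end H0

/-! ### the top level -/

section Top

variable (P₀ : ℕ) {m : ℕ} (qB : Fin m → ℕ) (N : ℕ) (hdvd : ∏ j, qB j ∣ N)
  (Pn : ℕ) {r : ℕ} (qv : Fin r → ℕ)

/-- `H' ≤ H₂'`. -/
theorem s59k_Hmul_le_top (H : Subgroup (ZMod N)ˣ) :
    s59t_Hmul N (∏ i, qv i) H (s59t_KQ Pn qv) ≤ s59t_Hmul N (∏ i, qv i) ⊤ (s59t_KQ Pn qv) :=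
  inf_le_inf_right _ (Subgroup.comap_mono le_top)

/-- the units `≡ 1 mod D'` lie in `H'` as soon as `∏ qB ∣ D'` and `∏ qv ∣ D'`. -/
theorem s59k_ker_le_Hmul {D' : ℕ} (hD' : D' ∣ N * ∏ i, qv i) (h1 : ∏ j, qB j ∣ D')
    (h2 : ∏ i, qv i ∣ D') :
    s59u_ker (N * ∏ i, qv i) D' hD' ≤
      s59t_Hmul N (∏ i, qv i) (s59k_H0 P₀ qB N hdvd) (s59t_KQ Pn qv) := by
  intro u hu
  have hu' : ZMod.unitsMap hD' u = 1 := hu
  rw [s59t_mem_Hmul, s59k_mem_H0, s59k_unitsMap_unitsMap]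
  constructor
  · rw [s59k_unitsMap_eq_one h1 hD' _ u hu']
    exact one_mem _
  · rw [s59k_unitsMap_eq_one h2 hD' _ u hu']
    exact one_mem _

/-- the units `≡ 1 mod D'` lie in `H₂'` as soon as `∏ qv ∣ D'`. -/
theorem s59k_ker_le_Hmul_top {D' : ℕ} (hD' : D' ∣ N * ∏ i, qv i) (h2 : ∏ i, qv i ∣ D') :
    s59u_ker (N * ∏ i, qv i) D' hD' ≤ s59t_Hmul N (∏ i, qv i) ⊤ (s59t_KQ Pn qv) := by
  intro u hu
  have hu' : ZMod.unitsMap hD' u = 1 := hu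
  rw [s59t_mem_Hmul]
  refine ⟨Subgroup.mem_top _, ?_⟩
  rw [s59k_unitsMap_eq_one h2 hD' _ u hu']
  exact one_mem _

/-- the exact shape for `D' = ∏ qB * ∏ qv`. -/
theorem s59k_ker_le_Hmul' :
    s59u_ker (N * ∏ i, qv i) ((∏ j, qB j) * ∏ i, qv i) (Nat.mul_dvd_mul_right hdvd _) ≤
      s59t_Hmul N (∏ i, qv i) (s59k_H0 P₀ qB N hdvd) (s59t_KQ Pn qv) :=
  s59k_ker_le_Hmul P₀ qB N hdvd Pn qv _ (Dvd.intro _ rfl) (Dvd.intro_left _ rfl)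

/-- the exact shape for `D' = ∏ qv`. -/
theorem s59k_ker_le_Hmul_top' :
    s59u_ker (N * ∏ i, qv i) (∏ i, qv i) (Dvd.intro_left N rfl) ≤
      s59t_Hmul N (∏ i, qv i) ⊤ (s59t_KQ Pn qv) :=
  s59k_ker_le_Hmul_top N Pn qv _ (dvd_refl _)

theorem s59k_pow_mem_Hmul (u : (ZMod (N * ∏ i, qv i))ˣ) :
    u ^ (P₀ * Pn) ∈ s59t_Hmul N (∏ i, qv i) (s59k_H0 P₀ qB N hdvd) (s59t_KQ Pn qv) := by
  rw [s59t_mem_Hmul]
  constructor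
  · rw [mul_comm P₀ Pn, pow_mul, map_pow]
    exact s59k_pow_mem_H0 P₀ qB N hdvd _
  · rw [pow_mul, map_pow]
    exact s59t_pow_mem_KQ Pn qv _

theorem s59k_pow_mem_Hmul_top (u : (ZMod (N * ∏ i, qv i))ˣ) :
    u ^ Pn ∈ s59t_Hmul N (∏ i, qv i) ⊤ (s59t_KQ Pn qv) := by
  rw [s59t_mem_Hmul]
  refine ⟨Subgroup.mem_top _, ?_⟩
  rw [map_pow]
  exact s59t_pow_mem_KQ Pn qv _

theorem s59k_neg_one_mem_Hmul (hP₀ : Odd P₀) (hPn : Odd Pn) :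
    (-1 : (ZMod (N * ∏ i, qv i))ˣ) ∈
      s59t_Hmul N (∏ i, qv i) (s59k_H0 P₀ qB N hdvd) (s59t_KQ Pn qv) := by
  rw [s59t_mem_Hmul, s59k_unitsMap_neg_one, s59k_unitsMap_neg_one]
  exact ⟨s59k_neg_one_mem_H0 P₀ qB N hdvd hP₀, s59t_neg_one_mem_KQ Pn qv hPn⟩

theorem s59k_neg_one_mem_Hmul_top (hPn : Odd Pn) :
    (-1 : (ZMod (N * ∏ i, qv i))ˣ) ∈ s59t_Hmul N (∏ i, qv i) ⊤ (s59t_KQ Pn qv) := by
  rw [s59t_mem_Hmul, s59k_unitsMap_neg_one, s59k_unitsMap_neg_one]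
  exact ⟨Subgroup.mem_top _, s59t_neg_one_mem_KQ Pn qv hPn⟩

/-! #### the `p`-power forms (`P₀ = p ^ v`, `Pn = p ^ n`) -/

theorem s59k_odd_pow {p : ℕ} (hp : p.Prime) (hp2 : p ≠ 2) (k : ℕ) : Odd (p ^ k) :=
  (hp.odd_of_ne_two hp2).pow

theorem s59k_ppow_mem_Hmul (p v n : ℕ) (u : (ZMod (N * ∏ i, qv i))ˣ) :
    u ^ (p ^ (v + n)) ∈
      s59t_Hmul N (∏ i, qv i) (s59k_H0 (p ^ v) qB N hdvd) (s59t_KQ (p ^ n) qv) := by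
  rw [pow_add]
  exact s59k_pow_mem_Hmul (p ^ v) qB N hdvd (p ^ n) qv u

theorem s59k_ppow_mem_Hmul_top (p v n : ℕ) (u : (ZMod (N * ∏ i, qv i))ˣ) :
    u ^ (p ^ (v + n)) ∈ s59t_Hmul N (∏ i, qv i) ⊤ (s59t_KQ (p ^ n) qv) := by
  rw [pow_add, pow_mul]
  exact s59k_pow_mem_Hmul_top N (p ^ n) qv _

/-- helper8's `hH` at the top level. -/
theorem s59k_Hmul_pgroup (p v n : ℕ) (u : (ZMod (N * ∏ i, qv i))ˣ) :
    ∃ k : ℕ, u ^ (p ^ k) ∈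
      s59t_Hmul N (∏ i, qv i) (s59k_H0 (p ^ v) qB N hdvd) (s59t_KQ (p ^ n) qv) :=
  ⟨v + n, s59k_ppow_mem_Hmul qB N hdvd qv p v n u⟩

end Top

end Fermat.Agent.Lib.S59
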