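/-
Programme (R) = S59 / S43, helper1: **(P7) the character `χ` of `Δ₀ = Δ(N, H₀)`**
(request #3466 of helper5, re-routed by helper8 #3474).

`p` prime, `qB : Fin m → ℕ` distinct primes dividing the squarefree `N`, `p ∣ qB j - 1`,
`ζ : 𝒪` a primitive `p ^ v`-th root of unity, `1 ≤ v`; `H₀ = s59k_H0 (p ^ v) qB N hdvd`.

* `s59k_exists_char_cyclic` : a character of a finite cyclic group with prescribed value (of order
  dividing `p ∣ |G|`) at a generator;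
* **`s59k_exists_psi`** : a character `ψ : (ℤ/N)ˣ →* 𝒪ˣ`, trivial on `H₀`, all of whose values are
  powers of `ζ`, and which is non-trivial on the `qB j`-local units `u ≡ 1 mod N / qB j`, for every
  `j`;
* **`s59k_exists_chi`** : the same as a character `χ` of `Δ₀ = Γ₀(N)/Γ_{H₀}(N)`:
  `χ (mk τ) = ψ (d(τ) mod N)`, `(χ δ : 𝒪) - 1 ∈ span {ζ - 1}`, and for every `j` a `τ_j ∈ Γ₀(N)` with
  lower right entry `≡ 1 mod N / qB j` and `χ (mk τ_j) ≠ 1`.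
-/
import Mathlib
import Fermat.Agent.Lib.S59.KLvlGrp

set_option autoImplicit false
set_option linter.unusedSectionVars false
set_option linter.style.haveILetI false

noncomputable section

namespace Fermat.Agent.Lib.S59

open Fermat.Agent.Lib.S48 CongruenceSubgroup
open scoped MatrixGroups

/-- a character of a finite cyclic group with prescribed value at a generator. -/
theorem s59k_exists_char_cyclic {G : Type*} [Group G] [IsCyclic G] [Finite G] {A : Type*} [Group A]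
    (ω : A) {p : ℕ} (hω : ω ^ p = 1) (hp : p ∣ Nat.card G) :
    ∃ (ψ : G →* A) (g : G), ψ g = ω ∧ ∀ x, ∃ k : ℕ, ψ x = ω ^ k := by
  obtain ⟨g, hg⟩ := IsCyclic.exists_generator (α := G)
  have hord : orderOf g = Nat.card G := orderOf_eq_card_of_forall_mem_zpowers hg
  have h1 : orderOf ω ∣ orderOf g := by
    rw [hord]
    exact (orderOf_dvd_of_pow_eq_one hω).trans hp
  refine ⟨monoidHomOfForallMemZpowers hg h1, g, monoidHomOfForallMemZpowers_apply_gen hg h1,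
    fun x => ?_⟩
  obtain ⟨k, rfl⟩ := (Submonoid.mem_powers_iff _ _).mp ((mem_powers_iff_mem_zpowers (x := g)).mpr (hg x))
  exact ⟨k, by rw [map_pow, monoidHomOfForallMemZpowers_apply_gen]⟩

/-- the local characters. -/
theorem s59k_exists_local {p : ℕ} {A : Type*} [Group A] (q : ℕ) (hq : q.Prime) (hpq : p ∣ q - 1)
    (ω : A) (hω : ω ^ p = 1) :
    ∃ (ψ : (ZMod q)ˣ →* A) (g : (ZMod q)ˣ), ψ g = ω ∧ ∀ x, ∃ k : ℕ, ψ x = ω ^ k := by
  haveI : Fact q.Prime := ⟨hq⟩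
  refine s59k_exists_char_cyclic ω hω ?_
  rw [Nat.card_eq_fintype_card, ZMod.card_units_eq_totient, Nat.totient_prime hq]
  exact hpq

/-- a unit of `ℤ/N` with prescribed component at `q` and trivial component away from `q`. -/
theorem s59k_exists_local_unit {N q : ℕ} (hq : q.Prime) (hqN : q ∣ N) (hcop : Nat.Coprime q (N / q))
    (g : (ZMod q)ˣ) :
    ∃ u : (ZMod N)ˣ, ZMod.unitsMap hqN u = g ∧
      ZMod.unitsMap (Nat.div_dvd_of_dvd hqN) u = 1 := by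
  haveI : NeZero q := ⟨hq.ne_zero⟩
  have hN : q * (N / q) = N := Nat.mul_div_cancel' hqN
  set a : ℕ := ((g : (ZMod q)ˣ) : ZMod q).val with ha
  have haq : Nat.Coprime a q := ZMod.val_coe_unit_coprime g
  obtain ⟨x, hx1, hx2⟩ := Nat.chineseRemainder hcop a 1
  have h1 : Nat.Coprime x q := by
    have := Nat.ModEq.gcd_eq hx1
    rw [Nat.Coprime, this]
    exact haq
  have h2 : Nat.Coprime x (N / q) := by
    have := Nat.ModEq.gcd_eq hx2
    rw [Nat.Coprime, this]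
    exact Nat.gcd_one_left _
  have hxN : Nat.Coprime x N := by
    rw [← hN]
    exact Nat.Coprime.mul_right h1 h2
  refine ⟨ZMod.unitOfCoprime x hxN, Units.ext ?_, Units.ext ?_⟩
  · rw [ZMod.unitsMap_def, Units.coe_map, MonoidHom.coe_coe, ZMod.coe_unitOfCoprime, map_natCast,
      (ZMod.natCast_eq_natCast_iff x a q).mpr hx1, ha, ZMod.natCast_zmod_val]
  · rw [ZMod.unitsMap_def, Units.coe_map, MonoidHom.coe_coe, ZMod.coe_unitOfCoprime, map_natCast,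
      (ZMod.natCast_eq_natCast_iff x 1 (N / q)).mpr hx2, Nat.cast_one, Units.val_one]

section Chi

variable {p : ℕ} (hp : p.Prime) (v : ℕ) (hv : 1 ≤ v) {m : ℕ} (qB : Fin m → ℕ)
  (hqB : ∀ j, (qB j).Prime) (hinj : Function.Injective qB) (hpq : ∀ j, p ∣ qB j - 1)
  (N : ℕ) (hsq : Squarefree N) (hdvd : ∏ j, qB j ∣ N)
  {𝒪 : Type*} [CommRing 𝒪] (ζ : 𝒪) (hζ : IsPrimitiveRoot ζ (p ^ v))

include hp hv hqB hinj hpq hsq hζ in
/-- **(P7), on the units**: the character `ψ` of `(ℤ/N)ˣ`. -/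
theorem s59k_exists_psi :
    ∃ ψ : (ZMod N)ˣ →* 𝒪ˣ,
      (∀ u ∈ s59k_H0 (p ^ v) qB N hdvd, ψ u = 1) ∧
      (∀ u, ∃ k : ℕ, ((ψ u : 𝒪ˣ) : 𝒪) = ζ ^ k) ∧
      (∀ u, ((ψ u : 𝒪ˣ) : 𝒪) - 1 ∈ Ideal.span {ζ - 1}) ∧
      ∀ j, ∃ u : (ZMod N)ˣ,
        ZMod.unitsMap (Nat.div_dvd_of_dvd ((s59t_dvd_prod qB j).trans hdvd)) u = 1 ∧
        (∀ k, k ≠ j → ZMod.unitsMap ((s59t_dvd_prod qB k).trans hdvd) u = 1) ∧ ψ u ≠ 1 := by
  classical
  have hpv : p ^ v ≠ 0 := (pow_pos hp.pos v).ne'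
  -- the unit `ζ` and the `p`-th root of unity `ω`
  set ζu : 𝒪ˣ := (hζ.isUnit hpv).unit with hζu
  have hζu_coe : ((ζu : 𝒪ˣ) : 𝒪) = ζ := IsUnit.unit_spec _
  have hζu_pow : ζu ^ (p ^ v) = 1 := by
    apply Units.ext
    rw [Units.val_pow_eq_pow_val, hζu_coe, hζ.pow_eq_one, Units.val_one]
  have hpv' : p ^ v = p ^ (v - 1) * p := by
    rw [← pow_succ, Nat.sub_add_cancel hv]
  set ω : 𝒪ˣ := ζu ^ (p ^ (v - 1)) with hω
  have hωp : ω ^ p = 1 := by rw [hω, ← pow_mul, ← hpv', hζu_pow]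
  have hωpv : ω ^ (p ^ v) = 1 := by rw [hpv', mul_comm, pow_mul, hωp, one_pow]
  have hω1 : ω ≠ 1 := by
    intro h
    have h1 : IsPrimitiveRoot (ζ ^ (p ^ (v - 1))) p := hζ.pow (pow_pos hp.pos v) hpv'
    have h2 : ζ ^ (p ^ (v - 1)) = 1 := by
      have := congrArg (fun w : 𝒪ˣ => (w : 𝒪)) h
      simp only [hω, Units.val_pow_eq_pow_val, hζu_coe, Units.val_one] at this
      exact this
    exact h1.ne_one hp.one_lt h2
  -- local characters
  have hloc : ∀ j, ∃ (ψ : (ZMod (qB j))ˣ →* 𝒪ˣ) (g : (ZMod (qB j))ˣ), ψ g = ω ∧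
      ∀ x, ∃ k : ℕ, ψ x = ω ^ k := fun j => s59k_exists_local (qB j) (hqB j) (hpq j) ω hωp
  choose ψl gl hgl hval using hloc
  have hj : ∀ j, qB j ∣ N := fun j => (s59t_dvd_prod qB j).trans hdvd
  set ψ : (ZMod N)ˣ →* 𝒪ˣ := ∏ j, (ψl j).comp (ZMod.unitsMap (hj j)) with hψ
  have hψ_apply : ∀ u, ψ u = ∏ j, ψl j (ZMod.unitsMap (hj j) u) := by
    intro u
    rw [hψ, MonoidHom.finset_prod_apply]
    rfl
  -- all values are powers of `ω`
  have hvalω : ∀ u, ∃ k : ℕ, ψ u = ω ^ k := by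
    intro u
    choose k hk using fun j => hval j (ZMod.unitsMap (hj j) u)
    refine ⟨∑ j, k j, ?_⟩
    rw [hψ_apply, ← Finset.prod_pow_eq_pow_sum]
    exact Finset.prod_congr rfl fun j _ => hk j
  have hvalζ : ∀ u, ∃ k : ℕ, ((ψ u : 𝒪ˣ) : 𝒪) = ζ ^ k := by
    intro u
    obtain ⟨k, hk⟩ := hvalω u
    refine ⟨p ^ (v - 1) * k, ?_⟩
    rw [hk, hω, ← pow_mul, Units.val_pow_eq_pow_val, hζu_coe]
  refine ⟨ψ, ?_, hvalζ, ?_, ?_⟩
  · -- `ψ` kills `H₀`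
    intro u hu
    rw [s59k_mem_H0_iff] at hu
    rw [hψ_apply]
    refine Finset.prod_eq_one fun j _ => ?_
    obtain ⟨w, hw⟩ := hu j
    obtain ⟨k, hk⟩ := hval j w
    rw [← hw, map_pow, hk, ← pow_mul, mul_comm, pow_mul, hωpv, one_pow]
  · intro u
    obtain ⟨k, hk⟩ := hvalζ u
    rw [hk, Ideal.mem_span_singleton]
    have := sub_dvd_pow_sub_pow ζ 1 k
    rwa [one_pow] at this
  · intro j
    have hN : qB j * (N / qB j) = N := Nat.mul_div_cancel' (hj j)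
    have hcop : Nat.Coprime (qB j) (N / qB j) := by
      have h1 : Squarefree (qB j * (N / qB j)) := by rw [hN]; exact hsq
      exact (Nat.squarefree_mul_iff.mp h1).1
    obtain ⟨u, hu1, hu2⟩ := s59k_exists_local_unit (hqB j) (hj j) hcop (gl j)
    have hu3 : ∀ k, k ≠ j → ZMod.unitsMap (hj k) u = 1 := by
      intro k hkj
      have hcop' : Nat.Coprime (qB k) (qB j) :=
        (Nat.coprime_primes (hqB k) (hqB j)).mpr (hinj.ne hkj)
      have hkL : qB k ∣ N / qB j := by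
        have h1 : qB k ∣ (N / qB j) * qB j := by rw [mul_comm, hN]; exact hj k
        exact Nat.Coprime.dvd_of_dvd_mul_right hcop' h1
      exact s59k_unitsMap_eq_one hkL (Nat.div_dvd_of_dvd (hj j)) (hj k) u hu2
    refine ⟨u, hu2, hu3, ?_⟩
    rw [hψ_apply, Finset.prod_eq_single j]
    · rw [hu1, hgl j]
      exact hω1
    · intro k _ hkj
      rw [hu3 k hkj, map_one]
    · intro h
      exact absurd (Finset.mem_univ j) h

variable [NeZero N]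

include hp hv hqB hinj hpq hsq hζ in
/-- **(P7)**: the character `χ` of `Δ₀ = Δ(N, H₀)`. -/
theorem s59k_exists_chi :
    ∃ (ψ : (ZMod N)ˣ →* 𝒪ˣ) (χ : s59t_Delta N (s59k_H0 (p ^ v) qB N hdvd) →* 𝒪ˣ),
      (∀ τ : Gamma0 N, χ (QuotientGroup.mk τ) = ψ (s59t_unitHom N τ)) ∧
      (∀ u ∈ s59k_H0 (p ^ v) qB N hdvd, ψ u = 1) ∧
      (∀ u, ∃ k : ℕ, ((ψ u : 𝒪ˣ) : 𝒪) = ζ ^ k) ∧
      (∀ δ, ∃ k : ℕ, ((χ δ : 𝒪ˣ) : 𝒪) = ζ ^ k) ∧
      (∀ δ, ((χ δ : 𝒪ˣ) : 𝒪) - 1 ∈ Ideal.span {ζ - 1}) ∧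
      (∀ j, ∃ u : (ZMod N)ˣ,
        ZMod.unitsMap (Nat.div_dvd_of_dvd ((s59t_dvd_prod qB j).trans hdvd)) u = 1 ∧
        (∀ k, k ≠ j → ZMod.unitsMap ((s59t_dvd_prod qB k).trans hdvd) u = 1) ∧ ψ u ≠ 1) ∧
      ∀ j, ∃ τ : Gamma0 N, (((N / qB j : ℕ) : ℤ) ∣ (τ : SL(2, ℤ)) 1 1 - 1) ∧
        ZMod.unitsMap (Nat.div_dvd_of_dvd ((s59t_dvd_prod qB j).trans hdvd))
          (s59t_unitHom N τ) = 1 ∧
        χ (QuotientGroup.mk τ) ≠ 1 := by
  obtain ⟨ψ, h1, h2, h3, h4⟩ := s59k_exists_psi hp v hv qB hqB hinj hpq N hsq hdvd ζ hζ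
  have hker : (s48h_GammaH N (s59k_H0 (p ^ v) qB N hdvd)).subgroupOf (Gamma0 N) ≤
      (ψ.comp (s59t_unitHom N)).ker := by
    intro τ hτ
    rw [MonoidHom.mem_ker, MonoidHom.comp_apply]
    exact h1 _ ((s59t_mem_GammaH_iff_unit τ).mp (Subgroup.mem_subgroupOf.mp hτ))
  set χ : s59t_Delta N (s59k_H0 (p ^ v) qB N hdvd) →* 𝒪ˣ :=
    QuotientGroup.lift _ (ψ.comp (s59t_unitHom N)) hker with hχ
  have hχmk : ∀ τ : Gamma0 N, χ (QuotientGroup.mk τ) = ψ (s59t_unitHom N τ) := fun τ => rfl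
  refine ⟨ψ, χ, hχmk, h1, h2, ?_, ?_, h4, ?_⟩
  · intro δ
    obtain ⟨τ, rfl⟩ := QuotientGroup.mk_surjective δ
    rw [hχmk]
    exact h2 _
  · intro δ
    obtain ⟨τ, rfl⟩ := QuotientGroup.mk_surjective δ
    rw [hχmk]
    exact h3 _
  · intro j
    obtain ⟨u, hu1, -, hu3⟩ := h4 j
    obtain ⟨σ, hσ, hσu⟩ := s48desc_exists_sigma N u
    have hτu : s59t_unitHom N ⟨σ, hσ⟩ = u := Units.ext hσu
    refine ⟨⟨σ, hσ⟩, ?_, by rw [hτu]; exact hu1, by rw [hχmk, hτu]; exact hu3⟩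
    -- the lower right entry
    have hL : N / qB j ∣ N := Nat.div_dvd_of_dvd ((s59t_dvd_prod qB j).trans hdvd)
    have h5 := congrArg (fun w : (ZMod (N / qB j))ˣ => (w : ZMod (N / qB j))) hu1
    simp only [ZMod.unitsMap_def, Units.coe_map, MonoidHom.coe_coe, Units.val_one] at h5
    rw [← hσu, map_intCast] at h5
    have h6 : (((σ 1 1 - 1 : ℤ)) : ZMod (N / qB j)) = 0 := by
      push_cast
      rw [h5, sub_self]
    exact (ZMod.intCast_zmod_eq_zero_iff_dvd _ _).mp h6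

end Chi

end Fermat.Agent.Lib.S59
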