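/-
S59 (helper7, prefix `s59n_`), `T`-side package, item (B3): **THE DESCENT `ψ : T_n → R'`, concrete half.**

Base level `(N, H)` (idempotent `ε`), Taylor–Wiles level `(N', H')`, `N ∣ N'` (idempotent `ε'`), control map
`π : ε' H_par(Γ_{H'}(N')) → ε H_par(Γ_H(N))` (helper8's `s59t_TWFull`).  The Hecke algebras act through the twisted
operators `T'_ℓ = ⟨σ_ℓ^k⟩ T_ℓ` (helper5's `s59e_H3'`), with exponents `k'` (level `n`) and `k` (base level).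

* `s59n_AIdx_down_refl`, `s59n_res_op`, `s59n_tau_down`, `s59n_res_Tp'` : restriction `Γ_H(N) → Γ_{H'}(N')` intertwines the
  anemic generators and the twisted operators (same exponent);
* `s59n_op_pow_congr`, `s59n_Tp'_exp` : the twist only depends on the exponent modulo `P₀` when `u^{P₀} ∈ H` for all `u`;
* `s59n_twist_exp_modEq` : THE arithmetic of the two exponents: `(P' - 1) m' ≡ (P₀ - 1) m₀ [MOD P₀]` for
  `2 m' = P' + 1`, `2 m₀ = P₀ + 1`, `P₀ ∣ P'`, `P₀` odd;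
* `s59n_descent_T` : `aM' (T_ℓ)` descends along `π` to `aM (T_ℓ)`;
* `s59n_descent_lvl` : **(B3)**: `ψ : T_n →ₐ[𝒪] R'` with `hπψ`, `hψd`, `hψt` (and `s59n_descent_lvl_local`: `hψl`).
-/
import Mathlib
import Fermat.Agent.Lib.S59.NDescPsi
import Fermat.Agent.Lib.S59.TLvlCtl
import Fermat.Agent.Lib.S59.EHTop2

set_option autoImplicit false
set_option linter.unusedSectionVars false
set_option linter.unusedVariables false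
set_option linter.style.haveILetI false
set_option maxHeartbeats 1000000
set_option synthInstance.maxHeartbeats 400000

noncomputable section

namespace Fermat.Agent.Lib.S59

open Matrix MatrixGroups CongruenceSubgroup IsLocalRing CuspForm
open Fermat.Agent.Lib.S29 Fermat.Agent.Lib.S48 Fermat.Agent.Lib.S41

/-! ### Restriction and the anemic generators -/

section Res

variable {𝒪 : Type} [CommRing 𝒪] {N N' : ℕ} [NeZero N] [NeZero N']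
  {H : Subgroup (ZMod N)ˣ} {H' : Subgroup (ZMod N')ˣ}

theorem s59n_AIdx_down_refl (x : s59w_AIdx N') : s59t_AIdx_down (dvd_refl N') x = x := by
  rcases x with i | τ <;> rfl

/-- restriction `Γ_H(N) → Γ_{H'}(N')` intertwines the anemic generators of level `N'`. -/
theorem s59n_res_op (hN : N ∣ N') (hle : s48h_GammaH N' H' ≤ s48h_GammaH N H)
    (x : s59w_AIdx N') (y : s48h_Hpar 𝒪 (s48h_GammaH N H) 𝒪) :
    s59t_resGHpar hle 𝒪 𝒪 (s59w_op H 𝒪 (s59t_AIdx_down hN x) y) =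
      s59w_op H' 𝒪 x (s59t_resGHpar hle 𝒪 𝒪 y) := by
  have h := s59t_opH_resG (𝒪 := 𝒪) (N' := N') (fun _ => (0 : 𝒪)) hN (dvd_refl N') H H' hle hN
    (Sum.inl x) (fun q' h => by cases h) y
  rw [s59t_opH_inl, s59t_opH_inl, s59n_AIdx_down_refl] at h
  exact h

/-- the twisting element of an index of level `N'`, seen at level `N`. -/
theorem s59n_tau_down (hN : N ∣ N') (i' : s59w_TIdx N') (k : ℕ) :
    s59t_AIdx_down hN (Sum.inr (s59e_tau i' k)) =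
      (Sum.inr (s59e_tau (s59t_TIdx_down hN i') k) : s59w_AIdx N) := by
  show (Sum.inr _ : s59w_AIdx N) = Sum.inr _
  congr 1

/-- restriction intertwines the twisted Hecke operators (same exponent). -/
theorem s59n_res_Tp' (hN : N ∣ N') (hle : s48h_GammaH N' H' ≤ s48h_GammaH N H) (k : ℕ)
    (i' : s59w_TIdx N') (y : s48h_Hpar 𝒪 (s48h_GammaH N H) 𝒪) :
    s59t_resGHpar hle 𝒪 𝒪 (s59e_Tp' H 𝒪 k (s59t_TIdx_down hN i') y) =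
      s59e_Tp' H' 𝒪 k i' (s59t_resGHpar hle 𝒪 𝒪 y) := by
  unfold s59e_Tp'
  rw [Module.End.mul_apply, Module.End.mul_apply, ← s59n_tau_down hN i' k, s59n_res_op hN hle]
  congr 1
  exact s59n_res_op hN hle (Sum.inl i') y

end Res

/-! ### The twist only depends on the exponent modulo the exponent of `Δ` -/

section Exp

variable {𝒪 : Type} [CommRing 𝒪] {N : ℕ} [NeZero N] {H : Subgroup (ZMod N)ˣ}

/-- a diamond operator as a value of the diamond representation. -/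
theorem s59n_op_inr_eq_rho (τ : Gamma0 N) :
    s59w_op H 𝒪 (Sum.inr τ) = s59t_rho N H 𝒪 𝒪 (QuotientGroup.mk τ⁻¹) := by
  rw [s59t_rho_eq_op]
  congr 2
  apply Subtype.ext
  simp

/-- `u^{P₀} ∈ H` for all `u` ⇒ `Δ = Γ₀(N)/Γ_H(N)` is killed by `P₀`. -/
theorem s59n_Delta_pow_eq_one (P₀ : ℕ) (hP₀ : ∀ u : (ZMod N)ˣ, u ^ P₀ ∈ H)
    (δ : s59t_Delta N H) : δ ^ P₀ = 1 := by
  obtain ⟨τ, rfl⟩ := QuotientGroup.mk_surjective δ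
  rw [← QuotientGroup.mk_pow, ← s59t_mem_iff_mk, s59t_mem_GammaH_iff_unit, map_pow]
  exact hP₀ _

theorem s59n_op_pow_congr (P₀ : ℕ) (hP₀ : ∀ u : (ZMod N)ˣ, u ^ P₀ ∈ H) {k k' : ℕ}
    (hk : k' ≡ k [MOD P₀]) (τ : Gamma0 N) :
    s59w_op H 𝒪 (Sum.inr (τ ^ k')) = s59w_op H 𝒪 (Sum.inr (τ ^ k)) := by
  rw [s59n_op_inr_eq_rho, s59n_op_inr_eq_rho]
  congr 1
  rw [QuotientGroup.mk_inv, QuotientGroup.mk_inv, QuotientGroup.mk_pow, QuotientGroup.mk_pow]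
  congr 1
  have h1 : (QuotientGroup.mk τ : s59t_Delta N H) ^ P₀ = 1 := s59n_Delta_pow_eq_one P₀ hP₀ _
  have h2 : orderOf (QuotientGroup.mk τ : s59t_Delta N H) ∣ P₀ := orderOf_dvd_of_pow_eq_one h1
  exact pow_eq_pow_iff_modEq.mpr (hk.of_dvd h2)

/-- the twisted Hecke operator only depends on the exponent modulo `P₀`. -/
theorem s59n_Tp'_exp (P₀ : ℕ) (hP₀ : ∀ u : (ZMod N)ˣ, u ^ P₀ ∈ H) {k k' : ℕ}
    (hk : k' ≡ k [MOD P₀]) (i : s59w_TIdx N) : s59e_Tp' H 𝒪 k' i = s59e_Tp' H 𝒪 k i := by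
  unfold s59e_Tp' s59e_tau
  rw [s59n_op_pow_congr P₀ hP₀ hk]

/-- **the arithmetic of the two twisting exponents.** -/
theorem s59n_twist_exp_modEq {P₀ P' m₀ m' : ℕ} (hodd : Odd P₀) (hdvd : P₀ ∣ P')
    (hm₀ : 2 * m₀ = P₀ + 1) (hm' : 2 * m' = P' + 1) :
    (P' - 1) * m' ≡ (P₀ - 1) * m₀ [MOD P₀] := by
  have hP₀ : 1 ≤ P₀ := by
    obtain ⟨c, hc⟩ := hodd
    omega
  have hP' : 1 ≤ P' := by omega
  -- it suffices to compare the doubles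
  have hcop : Nat.Coprime P₀ 2 := (Nat.coprime_two_left.mpr hodd).symm
  refine Nat.ModEq.cancel_left_of_coprime (c := 2) hcop ?_
  · have h1 : 2 * ((P' - 1) * m') = (P' - 1) * (P' + 1) := by rw [← hm']; ring
    have h2 : 2 * ((P₀ - 1) * m₀) = (P₀ - 1) * (P₀ + 1) := by rw [← hm₀]; ring
    rw [h1, h2]
    -- both sides are `≡ -1`, i.e. both `+ 1` are `≡ 0`
    have h3 : (P' - 1) * (P' + 1) + 1 = P' * P' := by
      obtain ⟨c, rfl⟩ : ∃ c, P' = c + 1 := ⟨P' - 1, by omega⟩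
      simp only [Nat.add_sub_cancel]
      ring
    have h4 : (P₀ - 1) * (P₀ + 1) + 1 = P₀ * P₀ := by
      obtain ⟨c, rfl⟩ : ∃ c, P₀ = c + 1 := ⟨P₀ - 1, by omega⟩
      simp only [Nat.add_sub_cancel]
      ring
    have h5 : (P' - 1) * (P' + 1) + 1 ≡ (P₀ - 1) * (P₀ + 1) + 1 [MOD P₀] := by
      rw [h3, h4]
      have e1 : P' * P' ≡ 0 [MOD P₀] := (Nat.modEq_zero_iff_dvd).mpr (hdvd.mul_right _)
      have e2 : P₀ * P₀ ≡ 0 [MOD P₀] := (Nat.modEq_zero_iff_dvd).mpr (Dvd.intro _ rfl)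
      exact e1.trans e2.symm
    exact Nat.ModEq.add_right_cancel' 1 h5

end Exp

/-! ### The descent of the Hecke operators and of the Hecke ring -/

section Main

variable {𝒪 : Type} [CommRing 𝒪] {N N' : ℕ} [NeZero N] [NeZero N']
  {H : Subgroup (ZMod N)ˣ} {H' : Subgroup (ZMod N')ˣ}
  (hN : N ∣ N') (h0 : Gamma0 N' ≤ Gamma0 N) (hle : s48h_GammaH N' H' ≤ s48h_GammaH N H)
  (ε : Module.End 𝒪 (s48h_Hpar 𝒪 (s48h_GammaH N H) 𝒪))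
  (ε' : Module.End 𝒪 (s48h_Hpar 𝒪 (s48h_GammaH N' H') 𝒪))
  (hεc : ∀ j : s59w_AIdx N, ε * s59w_op H 𝒪 j = s59w_op H 𝒪 j * ε)
  (hεc' : ∀ j : s59w_AIdx N', ε' * s59w_op H' 𝒪 j = s59w_op H' 𝒪 j * ε')
  (hρ : ∀ δ y, ε (s59t_rho N H 𝒪 𝒪 δ y) = s59t_rho N H 𝒪 𝒪 δ (ε y))
  (hρ' : ∀ δ y, ε' (s59t_rho N' H' 𝒪 𝒪 δ y) = s59t_rho N' H' 𝒪 𝒪 δ (ε' y))
  (π : s59t_part ε' →ₗ[𝒪] s59t_part ε) (hπs : Function.Surjective π)
  (hπdia : ∀ δ' y, π (s59t_partRep (s59t_rho N' H' 𝒪 𝒪) hρ' δ' y) =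
      s59t_partRep (s59t_rho N H 𝒪 𝒪) hρ (s59t_DeltaMap2 h0 hle δ') (π y))
  (hπop : ∀ (T : Module.End 𝒪 (s48h_Hpar 𝒪 (s48h_GammaH N H) 𝒪))
      (T' : Module.End 𝒪 (s48h_Hpar 𝒪 (s48h_GammaH N' H') 𝒪))
      (hT : ∀ y, ε (T y) = T (ε y)) (hT' : ∀ y, ε' (T' y) = T' (ε' y)),
      (∀ x, s59t_resGHpar hle 𝒪 𝒪 (T x) = T' (s59t_resGHpar hle 𝒪 𝒪 x)) →
      (∀ δ' y, T' (s59t_rho N' H' 𝒪 𝒪 δ' y) = s59t_rho N' H' 𝒪 𝒪 δ' (T' y)) →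
      ∀ y, π (s59t_partMap T' hT' y) = s59t_partMap T hT (π y))
  -- the Hecke data at the Taylor–Wiles level
  (M' : ℕ) [NeZero M'] (S : Finset ℕ) (hN'M' : N' ∣ M')
  (a' : heckeAlgebra M' 2 (↑S : Set ℕ) →+* Module.End 𝒪 (s48h_Hpar 𝒪 (s48h_GammaH N' H') 𝒪))
  (k' : ℕ)
  (ha' : ∀ (ℓ : ℕ) (hℓ : ℓ.Prime) (hℓN : ¬ ℓ ∣ M') (hℓS : ℓ ∉ (↑S : Set ℕ)) (i : s59w_TIdx N'),
    i.ell = ℓ → a' (heckeAlgebra.T hℓ hℓN hℓS) = s59e_Tp' H' 𝒪 k' i)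
  (aM' : heckeAlgebra M' 2 (↑S : Set ℕ) →+* Module.End 𝒪 (LinearMap.range ε'))
  (haM' : ∀ t (z : LinearMap.range ε'), ((aM' t z : LinearMap.range ε') :
    s48h_Hpar 𝒪 (s48h_GammaH N' H') 𝒪) = a' t (z : s48h_Hpar 𝒪 (s48h_GammaH N' H') 𝒪))
  -- the Hecke data at the base level
  (M₀ : ℕ) [NeZero M₀] (S₀ : Finset ℕ)
  (a : heckeAlgebra M₀ 2 (↑S₀ : Set ℕ) →+* Module.End 𝒪 (s48h_Hpar 𝒪 (s48h_GammaH N H) 𝒪))
  (k : ℕ)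
  (ha : ∀ (ℓ : ℕ) (hℓ : ℓ.Prime) (hℓN : ¬ ℓ ∣ M₀) (hℓS : ℓ ∉ (↑S₀ : Set ℕ)) (i : s59w_TIdx N),
    i.ell = ℓ → a (heckeAlgebra.T hℓ hℓN hℓS) = s59e_Tp' H 𝒪 k i)
  (aM : heckeAlgebra M₀ 2 (↑S₀ : Set ℕ) →+* Module.End 𝒪 (LinearMap.range ε))
  (haM : ∀ t (z : LinearMap.range ε), ((aM t z : LinearMap.range ε) :
    s48h_Hpar 𝒪 (s48h_GammaH N H) 𝒪) = a t (z : s48h_Hpar 𝒪 (s48h_GammaH N H) 𝒪))
  -- the exponents
  (P₀ : ℕ) (hP₀ : ∀ u : (ZMod N)ˣ, u ^ P₀ ∈ H) (hk : k' ≡ k [MOD P₀])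

include hN hεc hεc' hπop hN'M' ha' haM' ha haM hP₀ hk in
/-- **`aM' (T_ℓ)` descends along `π` to `aM (T_ℓ)`.** -/
theorem s59n_descent_T (ℓ : ℕ) (hℓ : ℓ.Prime) (h1 : ¬ ℓ ∣ M') (h2 : ℓ ∉ (↑S : Set ℕ))
    (h3 : ¬ ℓ ∣ M₀) (h4 : ℓ ∉ (↑S₀ : Set ℕ)) :
    ∀ y, π (aM' (heckeAlgebra.T hℓ h1 h2) y) = aM (heckeAlgebra.T hℓ h3 h4) (π y) := by
  obtain ⟨i', hi'⟩ := s59e_exists_TIdx (M := N') hℓ (fun h => h1 (dvd_trans h hN'M'))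
  have hcomm : ∀ (i : s59w_TIdx N) (y : s48h_Hpar 𝒪 (s48h_GammaH N H) 𝒪),
      ε (s59e_Tp' H 𝒪 k' i y) = s59e_Tp' H 𝒪 k' i (ε y) := by
    intro i y
    have h : ε * s59e_Tp' H 𝒪 k' i = s59e_Tp' H 𝒪 k' i * ε := by
      unfold s59e_Tp'
      rw [← mul_assoc, hεc, mul_assoc, hεc, mul_assoc]
    exact LinearMap.congr_fun h y
  have hcomm' : ∀ (y : s48h_Hpar 𝒪 (s48h_GammaH N' H') 𝒪),
      ε' (s59e_Tp' H' 𝒪 k' i' y) = s59e_Tp' H' 𝒪 k' i' (ε' y) := by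
    intro y
    have h : ε' * s59e_Tp' H' 𝒪 k' i' = s59e_Tp' H' 𝒪 k' i' * ε' := by
      unfold s59e_Tp'
      rw [← mul_assoc, hεc', mul_assoc, hεc', mul_assoc]
    exact LinearMap.congr_fun h y
  have hTρ : ∀ δ' y, s59e_Tp' H' 𝒪 k' i' (s59t_rho N' H' 𝒪 𝒪 δ' y) =
      s59t_rho N' H' 𝒪 𝒪 δ' (s59e_Tp' H' 𝒪 k' i' y) := by
    intro δ' y
    obtain ⟨τ, rfl⟩ := QuotientGroup.mk_surjective δ'
    rw [s59t_rho_eq_op]
    have h : s59e_Tp' H' 𝒪 k' i' * s59w_op H' 𝒪 (Sum.inr ⟨(τ : SL(2, ℤ))⁻¹, inv_mem τ.2⟩) =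
        s59w_op H' 𝒪 (Sum.inr ⟨(τ : SL(2, ℤ))⁻¹, inv_mem τ.2⟩) * s59e_Tp' H' 𝒪 k' i' := by
      unfold s59e_Tp'
      rw [mul_assoc, s59w_op_comm H' 𝒪 (Sum.inl i'), ← mul_assoc,
        s59w_op_comm H' 𝒪 (Sum.inr (s59e_tau i' k')), mul_assoc]
    exact LinearMap.congr_fun h y
  have key := hπop (s59e_Tp' H 𝒪 k' (s59t_TIdx_down hN i')) (s59e_Tp' H' 𝒪 k' i')
    (hcomm _) hcomm' (fun x => s59n_res_Tp' hN hle k' i' x) hTρ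
  intro y
  have e1 : aM' (heckeAlgebra.T hℓ h1 h2) y = s59t_partMap (s59e_Tp' H' 𝒪 k' i') hcomm' y := by
    apply Subtype.ext
    rw [haM', ha' ℓ hℓ h1 h2 i' hi', s59t_partMap_coe]
  have e2 : aM (heckeAlgebra.T hℓ h3 h4) (π y) =
      s59t_partMap (s59e_Tp' H 𝒪 k' (s59t_TIdx_down hN i')) (hcomm _) (π y) := by
    apply Subtype.ext
    rw [haM, ha ℓ hℓ h3 h4 (s59t_TIdx_down hN i') hi', s59t_partMap_coe,
      s59n_Tp'_exp P₀ hP₀ hk]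
  rw [e1, e2]
  exact key y

variable (hS : ∀ q : ℕ, q.Prime → q ∣ M' → q ∈ S) (hM₀ : M₀ ∣ M') (hS₀ : S₀ ⊆ S)
  (Bq : Subgroup (s59t_Delta N' H')) (hBq : ∀ β ∈ Bq, s59t_DeltaMap2 h0 hle β = 1)
  (hcomm : ∀ (t : heckeAlgebra M' 2 (↑S : Set ℕ)) (β : Bq),
    Commute (aM' t) (((s59t_partRep (s59t_rho N' H' 𝒪 𝒪) hρ').comp Bq.subtype) β))

include hN hεc hεc' hπs hπdia hπop hN'M' ha' haM' ha haM hP₀ hk hS hM₀ hS₀ hBq in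
/-- **(B3): the descent `ψ : T_n → R'`** (`T_n = 𝒪[aM'(𝕋), ρ'(Bq)]`, `R' = 𝒪[aM(𝕋₀)]`): `hπψ`, `hψd`, `hψt`. -/
theorem s59n_descent_lvl :
    ∃ ψ : s59e_adj 𝒪 (s59e_aB aM' ((s59t_partRep (s59t_rho N' H' 𝒪 𝒪) hρ').comp Bq.subtype) hcomm)
        →ₐ[𝒪] s59e_adj 𝒪 aM,
      (∀ (t : s59e_adj 𝒪 (s59e_aB aM' ((s59t_partRep (s59t_rho N' H' 𝒪 𝒪) hρ').comp Bq.subtype)
          hcomm)) (y : LinearMap.range ε'), π (t • y) = ψ t • π y) ∧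
      (∀ β : Bq, ψ (s59e_dia aM' ((s59t_partRep (s59t_rho N' H' 𝒪 𝒪) hρ').comp Bq.subtype)
        hcomm β) = 1) ∧
      (∀ (ℓ : ℕ) (hℓ : ℓ.Prime) (h1 : ¬ ℓ ∣ M') (h2 : ℓ ∉ (↑S : Set ℕ)) (h3 : ¬ ℓ ∣ M₀)
        (h4 : ℓ ∉ (↑S₀ : Set ℕ)),
        ψ (s59e_incl aM' ((s59t_partRep (s59t_rho N' H' 𝒪 𝒪) hρ').comp Bq.subtype) hcomm
          (s59e_adjHom 𝒪 aM' (heckeAlgebra.T hℓ h1 h2))) =
          s59e_adjHom 𝒪 aM (heckeAlgebra.T hℓ h3 h4)) := by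
  classical
  have hT := s59n_descent_T hN hle ε ε' hεc hεc' π hπop M' S hN'M' a' k' ha' aM' haM' M₀ S₀ a k ha
    aM haM P₀ hP₀ hk
  have hB : ∀ (β : Bq) (y : LinearMap.range ε'),
      π (((s59t_partRep (s59t_rho N' H' 𝒪 𝒪) hρ').comp Bq.subtype) β y) = π y := by
    intro β y
    show π (s59t_partRep (s59t_rho N' H' 𝒪 𝒪) hρ' (β : s59t_Delta N' H') y) = π y
    rw [hπdia, hBq β β.2, map_one]
    rfl
  exact s59n_descent_hecke_range ε' ε π hπs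
    (S := (↑S : Set ℕ)) hS (S₀ := (↑S₀ : Set ℕ)) hM₀ (Finset.coe_subset.mpr hS₀) aM'
    ((s59t_partRep (s59t_rho N' H' 𝒪 𝒪) hρ').comp Bq.subtype) hcomm aM hT hB

end Main

end Fermat.Agent.Lib.S59
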