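/-
PROGRAMME (R) (helper3, prefix `s59u_`): two ABSTRACT module lemmas for the base record (helper5 #3500, (M1), (M4)):
* `s59u_EigT_top_nontrivial` (M1): for `Y` free of rank `d ≠ 0` over `𝒪[Δ]`, the `χ`-eigen-part `s59t_EigT ρ ⊤ χ hTρ`
  is nontrivial, for EVERY character `χ`;
* `s59u_rank_unique` (M4): the rank of a free `𝒪[Δ]`-module is unique.
-/
import Mathlib
import Fermat.Agent.Lib.S59.UHradF

set_option autoImplicit false
set_option linter.unusedSectionVars false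
set_option linter.unusedVariables false
set_option linter.style.haveILetI false

noncomputable section

namespace Fermat.Agent.Lib.S59

section

variable {𝒪 : Type*} [CommRing 𝒪] [Nontrivial 𝒪] {Δ : Type*} [CommGroup Δ] [Fintype Δ]
  {Y : Type*} [AddCommGroup Y] [Module 𝒪 Y] (ρ : Δ →* Module.End 𝒪 Y)

/-- `⊤ × ⊥ ≃ Δ`. -/
theorem s59u_top_bot_bijective :
    Function.Bijective (fun x : (⊤ : Subgroup Δ) × (⊥ : Subgroup Δ) => ((x.1 : Δ) * (x.2 : Δ))) := by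
  constructor
  · rintro ⟨⟨a, ha⟩, ⟨b, hb⟩⟩ ⟨⟨a', ha'⟩, ⟨b', hb'⟩⟩ h
    rw [Subgroup.mem_bot] at hb hb'
    subst hb hb'
    simp only [mul_one] at h
    subst h
    rfl
  · intro δ
    exact ⟨⟨⟨δ, Subgroup.mem_top δ⟩, 1⟩, by simp⟩

variable {d : ℕ} (b : Fin d → Y) (hb : Function.Bijective (s59t_evalMap ρ b))

include hb in
/-- (M1), submodule form. -/
theorem s59u_eig_top_nontrivial (hd : d ≠ 0) (χ : Δ →* 𝒪ˣ) :
    Nontrivial (s59t_eig ρ (⊤ : Subgroup Δ) χ) := by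
  classical
  letI : Fintype (⊤ : Subgroup Δ) := Fintype.ofFinite _
  letI : Fintype (⊥ : Subgroup Δ) := Fintype.ofFinite _
  exact s59u_eig_nontrivial ρ (⊥ : Subgroup Δ) (⊤ : Subgroup Δ) s59u_top_bot_bijective b hb χ hd

include hb in
/-- **(M1)**: the `χ`-part of a free `𝒪[Δ]`-module of rank `d ≠ 0` is nontrivial. -/
theorem s59u_EigT_top_nontrivial (hd : d ≠ 0) (χ : Δ →* 𝒪ˣ)
    {T : Type*} [CommRing T] [Algebra 𝒪 T] [Module T Y] [IsScalarTower 𝒪 T Y]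
    (hTρ : ∀ (t : T) (δ : Δ) (y : Y), t • ρ δ y = ρ δ (t • y)) :
    Nontrivial (s59t_EigT ρ (⊤ : Subgroup Δ) χ hTρ) :=
  s59u_eig_top_nontrivial ρ b hb hd χ

include hb in
/-- **(M4)**: the rank of a free `𝒪[Δ]`-module is unique. -/
theorem s59u_rank_unique {d₂ : ℕ} (b₂ : Fin d₂ → Y)
    (hb₂ : Function.Bijective (s59t_evalMap ρ b₂)) : d = d₂ := by
  classical
  let e₁ : (Fin d → Δ → 𝒪) ≃ₗ[𝒪] Y := LinearEquiv.ofBijective _ hb
  let e₂ : (Fin d₂ → Δ → 𝒪) ≃ₗ[𝒪] Y := LinearEquiv.ofBijective _ hb₂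
  have h := (e₁.trans e₂.symm).finrank_eq
  have hf : ∀ k : ℕ, Module.finrank 𝒪 (Fin k → Δ → 𝒪) = k * Fintype.card Δ := by
    intro k
    rw [Module.finrank_pi_fintype]
    simp
  rw [hf, hf] at h
  exact Nat.eq_of_mul_eq_mul_right Fintype.card_pos h

end

end Fermat.Agent.Lib.S59
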