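/-
Programme R2 (S59), helper5 (prefix `s59e_W_`): **the base-level Hecke–Galois data for a GENERAL `W`** —
`W`-parametrised copies of helper2's Frey wrappers (`s59b_base_H3`, `s59b_base_datum` (BTwoDvd), `s59b_existDQ` (BExistDQ),
`s59b_baseH` (BBaseHF)).  The Frey package enters those only through: `p ≠ 2`, `W[p]` irreducible, `ρ̄_W` absolutely
irreducible, `N` squarefree, "bad primes of `W` lie in `B`" — all hypotheses here.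

* `s59e_W_base_H3`, `s59e_W_base_datum` : the W6 idempotent at `(N, ⊤)` and the Hecke–Galois datum lifting `ρ̄_W`;
* `s59e_W_existDQ` : [EXIST-DQ] (FLAT problem, `p ∤ N`) for `Rd : s59i_RData p N ρ̄_W B Bd`;
* `s59e_W_baseH`   : (B1) the base Hecke data at `H₀ = s59k_H0 (p^v) qB N hdvd`.
-/
import Mathlib
import Fermat.Agent.Lib.S59.EWRho
import Fermat.Agent.Lib.S59.BTwoDvd
import Fermat.Agent.Lib.S59.BExistDQ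
import Fermat.Agent.Lib.S59.BBaseHF

set_option autoImplicit false
set_option linter.unusedSectionVars false
set_option linter.unusedVariables false
set_option linter.style.haveILetI false
set_option synthInstance.maxHeartbeats 400000
set_option maxHeartbeats 8000000

noncomputable section

namespace Fermat.Agent.Lib.S59

open IsLocalRing CuspForm Polynomial ExtCitation CongruenceSubgroup
open WeierstrassCurve WeierstrassCurve.Affine WeierstrassCurve.Affine.Point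
open Fermat.Agent.Lib.S48 Fermat.Agent.Lib.S44
open scoped MatrixGroups

local notation "Qbar" => AlgebraicClosure ℚ
local notation "GQ" => (AlgebraicClosure ℚ ≃ₐ[ℚ] AlgebraicClosure ℚ)

section Base

variable (W : WeierstrassCurve ℤ) (p : ℕ) [Fact p.Prime] (hΔ : W.Δ ≠ 0) (hp2 : p ≠ 2)
  (hirr : W.ModRepIsIrreducible p) (N : ℕ) [NeZero N]
  (B : Finset ℕ) (hB1 : ∀ r : ℕ, r.Prime → r ∣ N * p → r ∈ B)
  (hB2 : ∀ r : ℕ, r.Prime → ¬ W.IsGoodPrimeFor r → r ∈ B)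
  (hocc : s44i_LevelOcc N p (fun ℓ => W.apOfModel ℓ) B)
  (𝒪 : Type) [CommRing 𝒪] [IsDomain 𝒪] [IsDiscreteValuationRing 𝒪]
  [IsAdicComplete (maximalIdeal 𝒪) 𝒪] [Finite (ResidueField 𝒪)] [CharZero 𝒪]
  [Algebra ℤ_[p] 𝒪] (hp𝒪 : ((p : ℕ) : 𝒪) ∈ maximalIdeal 𝒪)
  (habs : (s59i_rhobarW W p hΔ 𝒪 hp𝒪).IsAbsolutelyIrreducible)

include hp2 hirr hB1 hB2 hocc habs in
/-- **the base level `(N, ⊤)`**: the W6 idempotent and the Hecke half of (H3) for it. -/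
theorem s59e_W_base_H3 :
    haveI : Fact (HasIntegralStructure N 2) := ⟨Fermat.Agent.S23.result N⟩
    ∃ (ε : Module.End 𝒪 (s48h_Hpar 𝒪 (s48h_GammaH N (⊤ : Subgroup (ZMod N)ˣ)) 𝒪))
      (a : heckeAlgebra N 2 (↑B : Set ℕ) →+*
        Module.End 𝒪 (s48h_Hpar 𝒪 (s48h_GammaH N (⊤ : Subgroup (ZMod N)ˣ)) 𝒪)) (cT : ℕ → 𝒪),
      ε * ε = ε ∧ ε ≠ 0 ∧
      (∀ j, s59e_Anemic B j → ε * s59w_op (⊤ : Subgroup (ZMod N)ˣ) 𝒪 j =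
        s59w_op (⊤ : Subgroup (ZMod N)ˣ) 𝒪 j * ε) ∧
      (∀ j, s59e_Anemic B j → ∃ k : ℕ, ∀ z,
        ((s59w_op (⊤ : Subgroup (ZMod N)ˣ) 𝒪 j -
          s59b_baseC N (fun ℓ => W.apOfModel ℓ) 𝒪 j • 1) ^ k) (ε z) ∈
          maximalIdeal 𝒪 • (⊤ : Submodule 𝒪 (s48h_Hpar 𝒪 (s48h_GammaH N ⊤) 𝒪))) ∧
      (∀ (ℓ : ℕ) (hℓ : ℓ.Prime) (hℓN : ¬ ℓ ∣ N) (hℓS : ℓ ∉ (↑B : Set ℕ)) (i : s59w_TIdx N),
        i.ell = ℓ → a (heckeAlgebra.T hℓ hℓN hℓS) = s59e_Tp' (⊤ : Subgroup (ZMod N)ˣ) 𝒪 0 i) ∧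
      (∀ ℓ : ℕ, ℓ.Prime → ¬ ℓ ∣ N → cT ℓ = ((W.apOfModel ℓ : ℤ) : 𝒪)) ∧
      s59e_H3HeckeConcl N B a ε cT (s59i_rhobarW W p hΔ 𝒪 hp𝒪) := by
  classical
  haveI : Fact (HasIntegralStructure N 2) := ⟨Fermat.Agent.S23.result N⟩
  have hpP : p.Prime := Fact.out
  have hpB : p ∈ B := hB1 p hpP (Dvd.intro_left N rfl)
  have hNB : ∀ q : ℕ, q.Prime → q ∣ N → q ∈ B := fun q hq hqN =>
    hB1 q hq (Dvd.dvd.mul_right hqN p)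
  -- the W6 idempotent
  obtain ⟨e, -, ε, -, hεε, hε0, hcomm, hnil, -, -⟩ :=
    s59u_W6_idem (M := N) B (⊤ : Subgroup (ZMod N)ˣ) (L := N) (dvd_refl N) 𝒪 p hp𝒪
      (fun ℓ => W.apOfModel ℓ) hocc
  have hεc : ∀ j, s59e_Anemic B j → ε * s59w_op (⊤ : Subgroup (ZMod N)ˣ) 𝒪 j =
      s59w_op (⊤ : Subgroup (ZMod N)ˣ) 𝒪 j * ε := fun j hj => hcomm ⟨j, hj⟩
  have hnil' : ∀ j, s59e_Anemic B j → ∃ k : ℕ, ∀ z,
      ((s59w_op (⊤ : Subgroup (ZMod N)ˣ) 𝒪 j -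
        s59b_baseC N (fun ℓ => W.apOfModel ℓ) 𝒪 j • 1) ^ k) (ε z) ∈
        maximalIdeal 𝒪 • (⊤ : Submodule 𝒪 (s48h_Hpar 𝒪 (s48h_GammaH N ⊤) 𝒪)) := by
    intro j hj
    rcases j with i | τ
    · exact hnil ⟨Sum.inl i, hj⟩
    · exact hnil ⟨Sum.inr τ, hj⟩
  -- (H3), Hecke half
  let b := Module.Free.chooseBasis ℤ (s48h_M (s48h_GammaH N (⊤ : Subgroup (ZMod N)ˣ)))
  have hD : (1 : ℕ) ∣ N := one_dvd N
  have hEig : ∀ (ℓ : ℕ) (_ : ℓ.Prime) (_ : ¬ ℓ ∣ N) (_ : ℓ ∉ B) (i : s59w_TIdx N), i.ell = ℓ →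
      ∀ A : ValuationSubring Qbar, A.LiesOverPrime ℓ → ∀ σ : GQ, A.IsFrobeniusAt σ ℓ →
        LinearMap.charpoly ((s59i_rhobarW W p hΔ 𝒪 hp𝒪).ρ σ) = X ^ 2 - C (residue 𝒪
          (s59b_baseC N (fun ℓ => W.apOfModel ℓ) 𝒪
              (Sum.inr (s59e_tau i ((1 - 1) * 1))) *
            s59b_baseC N (fun ℓ => W.apOfModel ℓ) 𝒪 (Sum.inl i))) * X +
          C ((ℓ : ResidueField 𝒪)) := by
    intro ℓ hℓ hℓN hℓS i hi A hA σ hσ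
    have h1 := s59e_rhobarW_charpoly_frob hΔ hp2 hirr hp𝒪 B hpB hB2 ℓ hℓ hℓS A hA σ hσ
    show LinearMap.charpoly ((s59i_rhobarW W p hΔ 𝒪 hp𝒪).ρ σ) =
      X ^ 2 - C (residue 𝒪 ((1 : 𝒪) * ((W.apOfModel i.ell : ℤ) : 𝒪))) * X +
        C ((ℓ : ResidueField 𝒪))
    rw [one_mul, hi]
    exact h1
  obtain ⟨a, cT, ha1, -, hcT, hconcl⟩ :=
    s59e_H3_hecke' (p := p) N (∅ : Finset ℕ) (M := N) (⊤ : Subgroup (ZMod N)ˣ) b N B hp2 hp𝒪 hpB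
      (fun q hq => absurd hq (Finset.notMem_empty q))
      (by rw [Finset.prod_empty, mul_one]) (D := 1) (by rw [Finset.prod_empty]) hD le_top
      (n := 1) (m := 1) (by norm_num) (fun u => Subgroup.mem_top _)
      (by rw [Finset.prod_empty, mul_one]) hNB (s59u_cB b 𝒪) (s59u_cB_coe b 𝒪) ε hεε hε0 hεc
      (s59b_baseC N (fun ℓ => W.apOfModel ℓ) 𝒪) hnil'
      (s59i_rhobarW W p hΔ 𝒪 hp𝒪) habs hEig
  refine ⟨ε, a, cT, hεε, hε0, hεc, hnil', ?_, ?_, hconcl⟩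
  · intro ℓ hℓ hℓN hℓS i hi
    exact ha1 ℓ hℓ hℓN hℓS i hi
  · intro ℓ hℓ hℓN
    obtain ⟨i, hi, hci⟩ := hcT ℓ hℓ hℓN
    rw [hci]
    show (1 : 𝒪) * ((W.apOfModel i.ell : ℤ) : 𝒪) = _
    rw [one_mul, hi]

include hp2 hirr hB1 hB2 hocc habs in
/-- **the base-level Hecke–Galois datum**: an eigen-system `θ` of level `N` away from `B`, the datum over the
full local Hecke algebra, and the identification of its residual representation with `ρ̄`. -/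
theorem s59e_W_base_datum :
    haveI : Fact (HasIntegralStructure N 2) := ⟨Fermat.Agent.S23.result N⟩
    ∃ (θ : heckeAlgebra N 2 (↑B : Set ℕ) →+* ResidueField 𝒪)
      (Hd : HeckeGaloisRepDatum N (↑B : Set ℕ) 𝒪 θ (heckeLocal N (↑B : Set ℕ) 𝒪 θ)),
      Hd.π = heckeLocal.π N (↑B : Set ℕ) 𝒪 θ ∧
      (∀ (ℓ : ℕ) (hℓ : ℓ.Prime) (hℓN : ¬ ℓ ∣ N) (hℓS : ℓ ∉ (↑B : Set ℕ)),
        θ (heckeAlgebra.T hℓ hℓN hℓS) =
          residue 𝒪 ((W.apOfModel ℓ : ℤ) : 𝒪)) ∧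
      Hd.ρ.residual.IsEquiv ((s59i_rhobarW W p hΔ 𝒪 hp𝒪).baseChangeAlong
        (ResidueField.map (algebraMap 𝒪 (heckeLocal N (↑B : Set ℕ) 𝒪 θ)))) := by
  classical
  haveI : Fact (HasIntegralStructure N 2) := ⟨Fermat.Agent.S23.result N⟩
  obtain ⟨ε, a, cT, -, -, -, -, -, hcT, hconcl⟩ :=
    s59e_W_base_H3 W p hΔ hp2 hirr N B hB1 hB2 hocc 𝒪 hp𝒪 habs
  obtain ⟨aM, -, -, -, θ, Hd, Ψ, hΨ, hπ, -, hθ, -, -, hres, -⟩ := hconcl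
  refine ⟨θ, Hd, hπ, fun ℓ hℓ hℓN hℓS => ?_, hres⟩
  rw [hθ ℓ hℓ hℓN hℓS, hcT ℓ hℓ hℓN]


include hp2 hirr hB1 hB2 hocc habs in
/-- **[EXIST-DQ] for a general `W`** (FLAT problem, `p ∤ N`): the universal deformation rings of the Taylor–Wiles types
exist (the first conjunct of the `T`-side contract, verbatim). -/
theorem s59e_W_existDQ (hsq : Squarefree N) (hpN : ¬ p ∣ N) (Bd : Finset ℕ)
    (Rd : s59i_RData p N (s59i_rhobarW W p hΔ 𝒪 hp𝒪) B Bd) (r : ℕ) :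
    ∀ qv : Fin r → ℕ, Nonempty (GaloisRep.DeformationRingData 𝒪 (s59i_rhobarW W p hΔ 𝒪 hp𝒪)
      (fun _A _ _ _ ρ =>
        GaloisRep.flatCondition 𝒪 p (Rd.Smin ∪ (Bd ∪ Rd.Ed) ∪ Finset.univ.image qv) ρ ∧
          ∀ q ∈ Rd.Smin, q.Prime → q ≠ p → ρ.IsUnipotentOnInertiaAt q)) := by
  classical
  intro qv
  haveI : Fact (HasIntegralStructure N 2) := ⟨Fermat.Agent.S23.result N⟩
  have hpP : p.Prime := Fact.out
  have hpB : p ∈ B := hB1 p hpP (Dvd.intro_left N rfl)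
  have hNB : ∀ q : ℕ, q.Prime → q ∣ N → q ∈ B := fun q hq hqN =>
    hB1 q hq (Dvd.dvd.mul_right hqN p)
  obtain ⟨θ, Hd, -, -, hres⟩ := s59e_W_base_datum W p hΔ hp2 hirr N B hB1 hB2 hocc 𝒪 hp𝒪 habs
  exact s59q_existDQ_of_datum Rd hp2 hp𝒪 N B hpN hpB hNB N (∅ : Finset ℕ)
    (by rw [Finset.prod_empty, mul_one]) hsq (dvd_refl N)
    (fun q hq => absurd hq (Finset.notMem_empty q)) Hd hres qv

include hp2 hirr hB1 hB2 habs in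
/-- **(B1): the base Hecke data for a general `W`**, level `(N, H₀)`, `H₀ = s59k_H0 (p^v) qB N hdvd`. -/
theorem s59e_W_baseH (hsq : Squarefree N) {m : ℕ} (qB : Fin m → ℕ) (hqBinj : Function.Injective qB)
    (hqBpr : ∀ j, (qB j).Prime) (hqBp : ∀ j, qB j ≠ p) (v : ℕ) (hdvd : ∏ j, qB j ∣ N)
    (e : MvPolynomial ↥(s59t_goodB N B) 𝒪)
    (hid₁ : s59t_E0 (s59k_H0 (p ^ v) qB N hdvd) B e * s59t_E0 (s59k_H0 (p ^ v) qB N hdvd) B e =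
      s59t_E0 (s59k_H0 (p ^ v) qB N hdvd) B e)
    (hne₁ : s59t_E0 (s59k_H0 (p ^ v) qB N hdvd) B e ≠ 0)
    (hnil₁ : ∀ x ∈ s59t_goodB N B, ∃ k : ℕ,
      ∀ y : s48h_Hpar 𝒪 (s48h_GammaH N (s59k_H0 (p ^ v) qB N hdvd)) 𝒪,
      ((s59w_op (s59k_H0 (p ^ v) qB N hdvd) 𝒪 x -
        s59t_cB (𝒪 := 𝒪) N (fun ℓ => W.apOfModel ℓ) x •
        (1 : Module.End 𝒪 (s48h_Hpar 𝒪 (s48h_GammaH N (s59k_H0 (p ^ v) qB N hdvd)) 𝒪))) ^ k)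
        (s59t_E0 (s59k_H0 (p ^ v) qB N hdvd) B e y) ∈
        (maximalIdeal 𝒪 • ⊤ :
          Submodule 𝒪 (s48h_Hpar 𝒪 (s48h_GammaH N (s59k_H0 (p ^ v) qB N hdvd)) 𝒪)))
    (hid₂ : s59t_E0 (⊤ : Subgroup (ZMod N)ˣ) B e * s59t_E0 ⊤ B e = s59t_E0 ⊤ B e)
    (hne₂ : s59t_E0 (⊤ : Subgroup (ZMod N)ˣ) B e ≠ 0)
    (hnil₂ : ∀ x ∈ s59t_goodB N B, ∃ k : ℕ,
      ∀ y : s48h_Hpar 𝒪 (s48h_GammaH N (⊤ : Subgroup (ZMod N)ˣ)) 𝒪,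
      ((s59w_op (⊤ : Subgroup (ZMod N)ˣ) 𝒪 x -
        s59t_cB (𝒪 := 𝒪) N (fun ℓ => W.apOfModel ℓ) x •
        (1 : Module.End 𝒪 (s48h_Hpar 𝒪 (s48h_GammaH N (⊤ : Subgroup (ZMod N)ˣ)) 𝒪))) ^ k)
        (s59t_E0 ⊤ B e y) ∈
        (maximalIdeal 𝒪 • ⊤ :
          Submodule 𝒪 (s48h_Hpar 𝒪 (s48h_GammaH N (⊤ : Subgroup (ZMod N)ˣ)) 𝒪)))
    (hfull : s59t_TWFull (le_refl (Gamma0 N))
      (s59t_GammaH_mono (le_top : s59k_H0 (p ^ v) qB N hdvd ≤ ⊤))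
      (⊤ : Subgroup (s59t_Delta N (s59k_H0 (p ^ v) qB N hdvd)))
      (⊥ : Subgroup (s59t_Delta N (s59k_H0 (p ^ v) qB N hdvd)))
      (s59t_E0 (⊤ : Subgroup (ZMod N)ˣ) B e) (s59t_E0 (s59k_H0 (p ^ v) qB N hdvd) B e))
    (hρ : ∀ δ y, s59t_E0 (s59k_H0 (p ^ v) qB N hdvd) B e
        (s59t_rho N (s59k_H0 (p ^ v) qB N hdvd) 𝒪 𝒪 δ y) =
      s59t_rho N (s59k_H0 (p ^ v) qB N hdvd) 𝒪 𝒪 δ
        (s59t_E0 (s59k_H0 (p ^ v) qB N hdvd) B e y)) :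
    ∃ W : s59e_BaseH B (fun ℓ => W.apOfModel ℓ) (s59i_rhobarW W p hΔ 𝒪 hp𝒪) qB
        (s59t_rho N (s59k_H0 (p ^ v) qB N hdvd) 𝒪 𝒪)
        (s59t_E0 (s59k_H0 (p ^ v) qB N hdvd) B e) hρ (s59w_op (s59k_H0 (p ^ v) qB N hdvd) 𝒪),
      W.M₁ = (N / ∏ j, qB j) * ∏ q ∈ Finset.univ.image qB, q ^ 2 ∧
      W.k₀ = (p ^ v - 1) * ((p ^ v + 1) / 2) := by
  classical
  have hpP : p.Prime := Fact.out
  have hpB : p ∈ B := hB1 p hpP (Dvd.intro_left N rfl)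
  have hNB : ∀ q : ℕ, q.Prime → q ∣ N → q ∈ B := fun q hq hqN =>
    hB1 q hq (Dvd.dvd.mul_right hqN p)
  have hqBN : ∀ j, qB j ∣ N := fun j => (s59t_dvd_prod qB j).trans hdvd
  -- numerology
  have hprodpos : 0 < ∏ j, qB j := Finset.prod_pos fun j _ => (hqBpr j).pos
  haveI : NeZero (N / ∏ j, qB j) :=
    ⟨(Nat.div_pos (Nat.le_of_dvd (Nat.pos_of_ne_zero (NeZero.ne N)) hdvd) hprodpos).ne'⟩
  have hprod2 : ∏ q ∈ Finset.univ.image qB, q ^ 2 ≠ 0 := by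
    refine Finset.prod_ne_zero_iff.mpr fun q hq => ?_
    obtain ⟨j, -, rfl⟩ := Finset.mem_image.mp hq
    exact pow_ne_zero 2 (hqBpr j).ne_zero
  haveI : NeZero ((N / ∏ j, qB j) * ∏ q ∈ Finset.univ.image qB, q ^ 2) :=
    ⟨mul_ne_zero (NeZero.ne (N / ∏ j, qB j)) hprod2⟩
  haveI : Fact (HasIntegralStructure ((N / ∏ j, qB j) * ∏ q ∈ Finset.univ.image qB, q ^ 2) 2) :=
    ⟨Fermat.Agent.S23.result _⟩
  haveI : Fact (HasIntegralStructure N 2) := ⟨Fermat.Agent.S23.result N⟩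
  have hD : ∏ q ∈ Finset.univ.image qB, q ∣ N := by
    rw [s59k_prod_image qB hqBinj]
    exact hdvd
  have hS₁ : ∀ q : ℕ, q.Prime → q ∣ (N / ∏ j, qB j) * ∏ q ∈ Finset.univ.image qB, q ^ 2 → q ∈ B := by
    intro q hq hqM
    refine hNB q hq ?_
    rcases (Nat.Prime.dvd_mul hq).mp hqM with h | h
    · exact h.trans (Nat.div_dvd_of_dvd hdvd)
    · obtain ⟨q', hq', hqq'⟩ := (Prime.dvd_finsetProd_iff hq.prime _).mp h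
      obtain ⟨j, -, rfl⟩ := Finset.mem_image.mp hq'
      have h1 : q ∣ qB j := hq.dvd_of_dvd_pow hqq'
      exact h1.trans (hqBN j)
  have hqB : ∀ j, (qB j).Prime ∧ qB j ≠ p ∧ qB j ∣ N ∧ ¬ qB j ^ 2 ∣ N := by
    intro j
    refine ⟨hqBpr j, hqBp j, hqBN j, fun h => ?_⟩
    rw [pow_two] at h
    exact (hqBpr j).one_lt.ne' (Nat.isUnit_iff.mp (hsq (qB j) h))
  have hEig : ∀ ℓ : ℕ, ℓ.Prime → ℓ ∉ B → ∀ A : ValuationSubring Qbar, A.LiesOverPrime ℓ →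
      ∀ σ : GQ, A.IsFrobeniusAt σ ℓ →
        LinearMap.charpoly ((s59i_rhobarW W p hΔ 𝒪 hp𝒪).ρ σ) =
          X ^ 2 - C (residue 𝒪 ((W.apOfModel ℓ : ℤ) : 𝒪)) * X +
            C ((ℓ : ResidueField 𝒪)) := by
    intro ℓ hℓ hℓS A hA σ hσ
    exact s59e_rhobarW_charpoly_frob hΔ hp2 hirr hp𝒪 B hpB hB2 ℓ hℓ hℓS A hA σ hσ
  exact s59b_baseH_E0 (p := p) (s59k_H0 (p ^ v) qB N hdvd) B hp2 hp𝒪 hpB
    (fun ℓ => W.apOfModel ℓ) qB hqB (s59k_H0_pgroup qB N hdvd p v)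
    (N / ∏ j, qB j) (Finset.univ.image qB) (s59k_hQ_base qB N hdvd hsq hqBpr)
    (s59k_level_eq_base qB N hdvd hqBinj) rfl hD
    (s59k_hH_base qB N hdvd (p ^ v) hqBinj rfl hD) (s59k_hnm_pow hpP hp2 v)
    (s59k_pow_mem_H0 (p ^ v) qB N hdvd)
    ((N / ∏ j, qB j) * ∏ q ∈ Finset.univ.image qB, q ^ 2) rfl hS₁ e hid₁ hne₁ hnil₁ hid₂ hne₂ hnil₂
    hfull hρ (s59i_rhobarW W p hΔ 𝒪 hp𝒪) habs hEig


end Base

end Fermat.Agent.Lib.S59
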