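/-
Programme R2 (S59), helper5 (prefix `s59e_aux`): **helper8's level packages under the torsion hypothesis `s59e_auxTors`**
(`p ⊥ 12`, OR `p = 3` and a prime `r ≡ 2 (mod 3)` divides the base level `N`).

VERBATIM copies of `s59t_base_pkg` (TBase), `s59t_TW_level` (TLvlQ3), `s59t_top2` (TLvl2), `s59t_level_pkg` (TLvlPkg) with the
hypothesis `hp12 : Nat.Coprime p 12` replaced by `hp12 : s59e_auxTors p N` (resp. `p (N * D)` for `top2`); the only changes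
in the proofs are `p ≠ 2` (`s59e_auxTors_ne_two`) and (PF) (`s59e_aux_PF_of_pgroup` instead of `s59t_PF_of_pgroup`).
-/
import Mathlib
import Fermat.Agent.Lib.S59.TLvlPkg
import Fermat.Agent.Lib.S59.EAuxPF

set_option autoImplicit false
set_option linter.unusedSectionVars false
set_option linter.style.haveILetI false
set_option linter.unusedVariables false

noncomputable section

namespace Fermat.Agent.Lib.S59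

open Matrix MatrixGroups CongruenceSubgroup IsLocalRing
open Fermat.Agent.Lib.S29 Fermat.Agent.Lib.S48 Fermat.Agent.Lib.S41


section AuxBase

variable {𝒪 : Type} [CommRing 𝒪] [IsDomain 𝒪] [IsDiscreteValuationRing 𝒪]
  [IsAdicComplete (maximalIdeal 𝒪) 𝒪] [Finite (ResidueField 𝒪)] [CharZero 𝒪]
  (p : ℕ) [hp : Fact p.Prime] [CharP (ResidueField 𝒪) p]
  {N : ℕ} [NeZero N] (H : Subgroup (ZMod N)ˣ) (Bset : Finset ℕ) (a : ℕ → ℤ)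

include hp in
set_option maxHeartbeats 3200000 in
/-- **the base package.** -/
theorem s59e_aux_base_pkg (hp12 : s59e_auxTors p N) (hsq : Squarefree N)
    (hnegH : (-1 : (ZMod N)ˣ) ∈ H) (hH : ∀ u : (ZMod N)ˣ, ∃ k : ℕ, u ^ (p ^ k) ∈ H)
    (hocc0 : ∃ v : s29h_Hpar 𝒪 N 𝒪,
      v ∉ (maximalIdeal 𝒪 • ⊤ : Submodule 𝒪 (s29h_Hpar 𝒪 N 𝒪)) ∧
      ∀ (ℓ : ℕ) [Fact ℓ.Prime], ¬ ℓ ∣ N → ℓ ∉ Bset →
        s29h_heckeHpar N ℓ 𝒪 𝒪 v - ((a ℓ : ℤ) : 𝒪) • v ∈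
          (maximalIdeal 𝒪 • ⊤ : Submodule 𝒪 (s29h_Hpar 𝒪 N 𝒪)))
    (i₀ : s59w_TIdx N) (hi₀ : i₀.ell ∉ Bset)
    (hnE : IsUnit ((((a i₀.ell : ℤ) : 𝒪)) ^ 2 - ((i₀.ell : 𝒪) + 1) ^ 2)) :
    ∃ e : MvPolynomial ↥(s59t_goodB N Bset) 𝒪,
      1 - e ∈ s59t_evalIdeal (fun x : ↥(s59t_goodB N Bset) =>
        s59t_cB (𝒪 := 𝒪) N a (x : s59w_AIdx N)) ∧
      (∀ t : MvPolynomial ↥(s59t_goodB N Bset) 𝒪,
        t ∉ s59t_evalIdeal (fun x : ↥(s59t_goodB N Bset) =>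
          s59t_cB (𝒪 := 𝒪) N a (x : s59w_AIdx N)) →
        ∃ η : MvPolynomial ↥(s59t_goodB N Bset) 𝒪,
          s59t_E0 H Bset (η * t * e) = s59t_E0 H Bset e ∧
          s59t_E0 (⊤ : Subgroup (ZMod N)ˣ) Bset (η * t * e) = s59t_E0 ⊤ Bset e) ∧
      -- level `(N, H)`
      s59t_E0 H Bset e * s59t_E0 H Bset e = s59t_E0 H Bset e ∧
      s59t_E0 H Bset e ≠ 0 ∧
      (∀ x ∈ s59t_goodB N Bset, ∃ k : ℕ, ∀ y : s48h_Hpar 𝒪 (s48h_GammaH N H) 𝒪,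
        ((s59w_op H 𝒪 x - s59t_cB (𝒪 := 𝒪) N a x •
          (1 : Module.End 𝒪 (s48h_Hpar 𝒪 (s48h_GammaH N H) 𝒪))) ^ k)
          (s59t_E0 H Bset e y) ∈
          (maximalIdeal 𝒪 • ⊤ : Submodule 𝒪 (s48h_Hpar 𝒪 (s48h_GammaH N H) 𝒪))) ∧
      -- level `(N, ⊤)`, i.e. `Γ₀(N)`
      s59t_E0 (⊤ : Subgroup (ZMod N)ˣ) Bset e * s59t_E0 ⊤ Bset e = s59t_E0 ⊤ Bset e ∧
      s59t_E0 (⊤ : Subgroup (ZMod N)ˣ) Bset e ≠ 0 ∧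
      (∀ x ∈ s59t_goodB N Bset, ∃ k : ℕ,
        ∀ y : s48h_Hpar 𝒪 (s48h_GammaH N (⊤ : Subgroup (ZMod N)ˣ)) 𝒪,
        ((s59w_op (⊤ : Subgroup (ZMod N)ˣ) 𝒪 x - s59t_cB (𝒪 := 𝒪) N a x •
          (1 : Module.End 𝒪 (s48h_Hpar 𝒪 (s48h_GammaH N (⊤ : Subgroup (ZMod N)ˣ)) 𝒪))) ^ k)
          (s59t_E0 ⊤ Bset e y) ∈
          (maximalIdeal 𝒪 • ⊤ :
            Submodule 𝒪 (s48h_Hpar 𝒪 (s48h_GammaH N (⊤ : Subgroup (ZMod N)ˣ)) 𝒪))) ∧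
      -- the comparison `(N, ⊤) ← (N, H)`
      s59t_TWFull (le_refl (Gamma0 N)) (s59t_GammaH_mono (le_top : H ≤ ⊤))
        (⊤ : Subgroup (s59t_Delta N H)) (⊥ : Subgroup (s59t_Delta N H))
        (s59t_E0 (⊤ : Subgroup (ZMod N)ˣ) Bset e) (s59t_E0 H Bset e) := by
  classical
  have hp2 : p ≠ 2 := s59e_auxTors_ne_two hp12
  haveI : Fact i₀.ell.Prime := ⟨i₀.prime⟩
  obtain ⟨aq, haq⟩ : ∃ aq : ℕ → 𝒪, aq = fun _ => 0 := ⟨_, rfl⟩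
  have hocc : ∃ v : s29h_Hpar 𝒪 N 𝒪,
      v ∉ (maximalIdeal 𝒪 • ⊤ : Submodule 𝒪 (s29h_Hpar 𝒪 N 𝒪)) ∧
      ∀ x ∈ s59t_goodB N Bset,
        s59t_op0 N aq N (Sum.inl x) v - s59t_cB (𝒪 := 𝒪) N a x • v ∈
          (maximalIdeal 𝒪 • ⊤ : Submodule 𝒪 (s29h_Hpar 𝒪 N 𝒪)) := by
    obtain ⟨v, hv, hvT⟩ := hocc0
    refine ⟨v, hv, ?_⟩
    rintro x ⟨i, rfl, hi⟩
    haveI : Fact i.ell.Prime := ⟨i.prime⟩
    exact hvT i.ell i.ndvd hi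
  obtain ⟨e, h1e, hee, hnil, hunit, hne⟩ := s59t_exists_e0 aq (dvd_refl N)
    (⊤ : Subgroup (ZMod N)ˣ) H (s59t_goodB N Bset) (s59t_cB (𝒪 := 𝒪) N a) hocc
  -- components
  have heT : s59t_actH N aq (dvd_refl N) (⊤ : Subgroup (ZMod N)ˣ) (s59t_jG 𝒪 (s59t_goodB N Bset) e) *
      s59t_actH N aq (dvd_refl N) ⊤ (s59t_jG 𝒪 (s59t_goodB N Bset) e) =
      s59t_actH N aq (dvd_refl N) ⊤ (s59t_jG 𝒪 (s59t_goodB N Bset) e) :=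
    congrArg (fun x : s59t_ETot 𝒪 (⊤ : Subgroup (ZMod N)ˣ) H => x.2.1) hee
  have heH : s59t_actH N aq (dvd_refl N) H (s59t_jG 𝒪 (s59t_goodB N Bset) e) *
      s59t_actH N aq (dvd_refl N) H (s59t_jG 𝒪 (s59t_goodB N Bset) e) =
      s59t_actH N aq (dvd_refl N) H (s59t_jG 𝒪 (s59t_goodB N Bset) e) :=
    congrArg (fun x : s59t_ETot 𝒪 (⊤ : Subgroup (ZMod N)ˣ) H => x.2.2) hee
  have hunit' : ∀ t : MvPolynomial ↥(s59t_goodB N Bset) 𝒪,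
      t ∉ s59t_evalIdeal (fun x : ↥(s59t_goodB N Bset) =>
        s59t_cB (𝒪 := 𝒪) N a (x : s59w_AIdx N)) →
      ∃ η : MvPolynomial ↥(s59t_goodB N Bset) 𝒪,
        s59t_E0 H Bset (η * t * e) = s59t_E0 H Bset e ∧
        s59t_E0 (⊤ : Subgroup (ZMod N)ˣ) Bset (η * t * e) = s59t_E0 ⊤ Bset e := by
    intro t ht
    obtain ⟨η, hη⟩ := hunit t ht
    refine ⟨η, ?_, ?_⟩
    · rw [← s59t_actH_eq_E0 H Bset aq, ← s59t_actH_eq_E0 H Bset aq]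
      exact congrArg (fun x : s59t_ETot 𝒪 (⊤ : Subgroup (ZMod N)ˣ) H => x.2.2) hη
    · rw [← s59t_actH_eq_E0 ⊤ Bset aq, ← s59t_actH_eq_E0 ⊤ Bset aq]
      exact congrArg (fun x : s59t_ETot 𝒪 (⊤ : Subgroup (ZMod N)ˣ) H => x.2.1) hη
  -- non-vanishing
  have hneH : ∀ K : Subgroup (ZMod N)ˣ,
      s59t_actH N aq (dvd_refl N) K (s59t_jG 𝒪 (s59t_goodB N Bset) e) ≠ 0 := by
    intro K h0
    refine hne ?_
    have h1 : s59t_actH N aq (dvd_refl N) K (s59t_jG 𝒪 (s59t_goodB N Bset) e) =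
        s59t_actH N aq (dvd_refl N) K 0 := by rw [h0, map_zero]
    have h2 := s59t_act0_transfer aq (dvd_refl N) K h1
    rw [h2, map_zero]
  -- the group-theoretic hypotheses
  have hneg : (-1 : SL(2, ℤ)) ∈ s48h_GammaH N H := s59t_neg_one_mem_GammaH_of H hnegH
  have hPF : s59t_PF N H := s59e_aux_PF_of_pgroup p hp12 hsq hnegH hH
  -- the non-Eisenstein element
  obtain ⟨t₀, ht₀⟩ : ∃ t₀ : MvPolynomial ↥(s59t_goodB N Bset) 𝒪, t₀ =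
      MvPolynomial.X (⟨Sum.inl i₀, s59t_inl_mem_goodB Bset i₀ hi₀⟩ : ↥(s59t_goodB N Bset)) ^ 2 -
        ((i₀.ell : MvPolynomial ↥(s59t_goodB N Bset) 𝒪) + 1) ^ 2 := ⟨_, rfl⟩
  have ht₀n : t₀ ∉ s59t_evalIdeal (fun x : ↥(s59t_goodB N Bset) =>
      s59t_cB (𝒪 := 𝒪) N a (x : s59w_AIdx N)) := by
    rw [s59t_not_mem_evalIdeal, ht₀]
    simp only [map_sub, map_pow, MvPolynomial.eval_X, map_add, map_natCast, map_one]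
    exact hnE
  obtain ⟨η₀, hη₀⟩ := hunit t₀ ht₀n
  have hjt : s59t_jG 𝒪 (s59t_goodB N Bset) (η₀ * t₀ * e) =
      s59t_jG 𝒪 (s59t_goodB N Bset) η₀ * (MvPolynomial.X (Sum.inl (Sum.inl i₀)) ^ 2 -
        ((i₀.ell : MvPolynomial (s59w_AIdx N ⊕ ℕ) 𝒪) + 1) ^ 2) *
        s59t_jG 𝒪 (s59t_goodB N Bset) e := by
    rw [map_mul, map_mul, ht₀, map_sub, map_pow, map_pow, s59t_jG_X, map_add, map_natCast,
      map_one]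
  rw [hjt] at hη₀
  have hηH : s59t_actH N aq (dvd_refl N) H
      (s59t_jG 𝒪 (s59t_goodB N Bset) η₀ * (MvPolynomial.X (Sum.inl (Sum.inl i₀)) ^ 2 -
        ((i₀.ell : MvPolynomial (s59w_AIdx N ⊕ ℕ) 𝒪) + 1) ^ 2) *
        s59t_jG 𝒪 (s59t_goodB N Bset) e) =
      s59t_actH N aq (dvd_refl N) H (s59t_jG 𝒪 (s59t_goodB N Bset) e) :=
    congrArg (fun x : s59t_ETot 𝒪 (⊤ : Subgroup (ZMod N)ˣ) H => x.2.2) hη₀
  -- the comparison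
  have hBC : Function.Bijective (fun x : (⊤ : Subgroup (s59t_Delta N H)) ×
      (⊥ : Subgroup (s59t_Delta N H)) => ((x.1 : s59t_Delta N H) * (x.2 : s59t_Delta N H))) := by
    constructor
    · rintro ⟨⟨x, hx⟩, ⟨y, hy⟩⟩ ⟨⟨x', hx'⟩, ⟨y', hy'⟩⟩ h
      have hy1 : y = 1 := Subgroup.mem_bot.mp hy
      have hy1' : y' = 1 := Subgroup.mem_bot.mp hy'
      subst hy1 hy1'
      have hxx : x = x' := by simpa using h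
      subst hxx
      rfl
    · intro δ
      exact ⟨⟨⟨δ, Subgroup.mem_top δ⟩, ⟨1, Subgroup.mem_bot.mpr rfl⟩⟩, mul_one δ⟩
  have hφB : ∀ β ∈ (⊤ : Subgroup (s59t_Delta N H)),
      s59t_DeltaMap2 (le_refl (Gamma0 N)) (s59t_GammaH_mono (le_top : H ≤ ⊤)) β = 1 :=
    fun β _ => Subsingleton.elim _ _
  have hφC : Function.Bijective (fun γ : (⊥ : Subgroup (s59t_Delta N H)) =>
      s59t_DeltaMap2 (le_refl (Gamma0 N)) (s59t_GammaH_mono (le_top : H ≤ ⊤))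
        (γ : s59t_Delta N H)) := by
    constructor
    · intro x y _
      exact Subsingleton.elim _ _
    · intro δ
      exact ⟨1, Subsingleton.elim _ _⟩
  obtain ⟨-, hfull⟩ := s59t_same_level aq (dvd_refl N) (le_top : H ≤ ⊤) p hp2 hPF hneg
    (s59t_Delta_isPGroup p hH) ⊤ ⊥ hBC hφB hφC
    (s59t_jG 𝒪 (s59t_goodB N Bset) e) (s59t_jG 𝒪 (s59t_goodB N Bset) η₀) i₀ heH hηH
  rw [s59t_actH_eq_E0, s59t_actH_eq_E0] at hfull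
  refine ⟨e, h1e, hunit', ?_, ?_, ?_, ?_, ?_, ?_, hfull⟩
  · rw [← s59t_actH_eq_E0 H Bset aq]; exact heH
  · rw [← s59t_actH_eq_E0 H Bset aq]; exact hneH H
  · intro x hx
    have h := s59t_nilH'_of_e0 aq (dvd_refl N) (⊤ : Subgroup (ZMod N)ˣ) H (s59t_goodB N Bset)
      (s59t_cB (𝒪 := 𝒪) N a) e hnil ⟨x, hx⟩
    rw [s59t_actH_eq_E0] at h
    exact h
  · rw [← s59t_actH_eq_E0 ⊤ Bset aq]; exact heT
  · rw [← s59t_actH_eq_E0 ⊤ Bset aq]; exact hneH ⊤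
  · intro x hx
    have h := s59t_nilH_of_e0 aq (dvd_refl N) (⊤ : Subgroup (ZMod N)ˣ) H (s59t_goodB N Bset)
      (s59t_cB (𝒪 := 𝒪) N a) e hnil ⟨x, hx⟩
    rw [s59t_actH_eq_E0, s59t_opH_inl, s59t_AIdx_down_self] at h
    exact h

end AuxBase

section AuxLevel

variable {𝒪 : Type} [CommRing 𝒪] [IsDomain 𝒪] [IsDiscreteValuationRing 𝒪]
  [IsAdicComplete (maximalIdeal 𝒪) 𝒪] [Finite (ResidueField 𝒪)] [CharZero 𝒪]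
  (p : ℕ) [hp : Fact p.Prime] [CharP (ResidueField 𝒪) p] [Algebra ℤ_[p] 𝒪]
  {N : ℕ} [NeZero N] (H : Subgroup (ZMod N)ˣ) (Bset : Finset ℕ) (a : ℕ → ℤ)
  (n : ℕ) {r : ℕ} (qv : Fin r → ℕ) [NeZero (∏ j, qv j)] [NeZero (N * ∏ j, qv j)]

include hp in
set_option maxHeartbeats 6400000 in
/-- **the Taylor–Wiles level over the fixed base part.** -/
theorem s59e_aux_TW_level (hp12 : s59e_auxTors p N)
    (hsq : Squarefree N) (hsq' : Squarefree (N * ∏ j, qv j))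
    (S37 : s59b_S37H N H) (hN1 : 1 < N) (hnegH : (-1 : (ZMod N)ˣ) ∈ H)
    (hp𝒪 : (p : 𝒪) ∈ maximalIdeal 𝒪) (hpB : p ∈ Bset)
    (hH : ∀ u : (ZMod N)ˣ, ∃ k : ℕ, u ^ (p ^ k) ∈ H)
    -- (OCC) at level `(N, H)` and at `Γ₀(N)` (helper3's `s59u_W6`, `s59u_W6_G0`, verbatim)
    (hoccH : ∃ v : s48h_Hpar 𝒪 (s48h_GammaH N H) 𝒪,
      v ∉ (maximalIdeal 𝒪 • ⊤ : Submodule 𝒪 (s48h_Hpar 𝒪 (s48h_GammaH N H) 𝒪)) ∧
      (∀ i : s59w_TIdx N, i.ell ∉ Bset →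
        s59w_op H 𝒪 (Sum.inl i) v - ((a i.ell : ℤ) : 𝒪) • v ∈
          (maximalIdeal 𝒪 • ⊤ : Submodule 𝒪 (s48h_Hpar 𝒪 (s48h_GammaH N H) 𝒪))) ∧
      (∀ τ : Gamma0 N, s59w_op H 𝒪 (Sum.inr τ) v - v ∈
          (maximalIdeal 𝒪 • ⊤ : Submodule 𝒪 (s48h_Hpar 𝒪 (s48h_GammaH N H) 𝒪))))
    (hocc0 : ∃ v : s29h_Hpar 𝒪 N 𝒪,
      v ∉ (maximalIdeal 𝒪 • ⊤ : Submodule 𝒪 (s29h_Hpar 𝒪 N 𝒪)) ∧
      ∀ (ℓ : ℕ) [Fact ℓ.Prime], ¬ ℓ ∣ N → ℓ ∉ Bset →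
        s29h_heckeHpar N ℓ 𝒪 𝒪 v - ((a ℓ : ℤ) : 𝒪) • v ∈
          (maximalIdeal 𝒪 • ⊤ : Submodule 𝒪 (s29h_Hpar 𝒪 N 𝒪)))
    -- the Taylor–Wiles primes
    (hcop : N.Coprime (∏ j, qv j)) (hqinj : Function.Injective qv) (hqp : ∀ j, (qv j).Prime)
    (aq bq : ℕ → 𝒪)
    (harith : ∀ j, IsUnit (bq (qv j) - aq (qv j)) ∧
      ((qv j : ℕ) : 𝒪) - aq (qv j) * bq (qv j) ∈ maximalIdeal 𝒪 ∧
      IsUnit (1 - aq (qv j) ^ 2) ∧ IsUnit (1 - bq (qv j) ^ 2))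
    (i₀ : s59w_TIdx (N * ∏ j, qv j)) (hi₀ : i₀.ell ∉ Bset)
    (hnE : IsUnit ((((a i₀.ell : ℤ) : 𝒪)) ^ 2 - ((i₀.ell : 𝒪) + 1) ^ 2))
    (hTQ : ∀ (M : ℕ) (hM : M ∣ N * ∏ j, qv j), ∀ q ∈ List.ofFn qv, ∀ [Fact q.Prime], ¬ q ∣ M →
      ∀ e₀ : MvPolynomial ↥(s59t_goodB (N * ∏ j, qv j) Bset) 𝒪,
        1 - e₀ ∈ s59t_evalIdeal (fun x : ↥(s59t_goodB (N * ∏ j, qv j) Bset) =>
          s59t_cB (𝒪 := 𝒪) (N * ∏ j, qv j) a x) →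
        s59t_act0 aq hM (s59t_jG 𝒪 (s59t_goodB (N * ∏ j, qv j) Bset) e₀) *
          s59t_act0 aq hM (s59t_jG 𝒪 (s59t_goodB (N * ∏ j, qv j) Bset) e₀) =
          s59t_act0 aq hM (s59t_jG 𝒪 (s59t_goodB (N * ∏ j, qv j) Bset) e₀) →
        (∀ x : ↥(s59t_goodB (N * ∏ j, qv j) Bset), ∃ k : ℕ, ∀ y : s29h_Hpar 𝒪 M 𝒪,
          ((s59t_op0 (N * ∏ j, qv j) aq M (Sum.inl (x : s59w_AIdx (N * ∏ j, qv j))) -
            s59t_cB (𝒪 := 𝒪) (N * ∏ j, qv j) a x •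
              (1 : Module.End 𝒪 (s29h_Hpar 𝒪 M 𝒪))) ^ k)
            (s59t_act0 aq hM (s59t_jG 𝒪 (s59t_goodB (N * ∏ j, qv j) Bset) e₀) y) ∈
            (maximalIdeal 𝒪 • ⊤ : Submodule 𝒪 (s29h_Hpar 𝒪 M 𝒪))) →
        ∃ k : ℕ, ∀ y : s29h_Hpar 𝒪 M 𝒪,
          ((s29h_heckeHpar M q 𝒪 𝒪 - (aq q + bq q) • (1 : Module.End 𝒪 (s29h_Hpar 𝒪 M 𝒪))) ^ k)
            (s59t_act0 aq hM (s59t_jG 𝒪 (s59t_goodB (N * ∏ j, qv j) Bset) e₀) y) ∈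
            (maximalIdeal 𝒪 • ⊤ : Submodule 𝒪 (s29h_Hpar 𝒪 M 𝒪)))
    -- the fixed base idempotent
    (e : MvPolynomial ↥(s59t_goodB N Bset) 𝒪)
    (h1e : 1 - e ∈ s59t_evalIdeal (fun x : ↥(s59t_goodB N Bset) =>
      s59t_cB (𝒪 := 𝒪) N a (x : s59w_AIdx N)))
    (hid : s59t_E0 H Bset e * s59t_E0 H Bset e = s59t_E0 H Bset e)
    (hnil : ∀ x ∈ s59t_goodB N Bset, ∃ k : ℕ, ∀ y : s48h_Hpar 𝒪 (s48h_GammaH N H) 𝒪,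
      ((s59w_op H 𝒪 x - s59t_cB (𝒪 := 𝒪) N a x •
        (1 : Module.End 𝒪 (s48h_Hpar 𝒪 (s48h_GammaH N H) 𝒪))) ^ k)
        (s59t_E0 H Bset e y) ∈
        (maximalIdeal 𝒪 • ⊤ : Submodule 𝒪 (s48h_Hpar 𝒪 (s48h_GammaH N H) 𝒪))) :
    ∃ (e₀ : MvPolynomial ↥(s59t_goodB (N * ∏ j, qv j) Bset) 𝒪)
      (G : MvPolynomial (s59w_AIdx (N * ∏ j, qv j) ⊕ ℕ) 𝒪),
      1 - e₀ ∈ s59t_evalIdeal (fun x : ↥(s59t_goodB (N * ∏ j, qv j) Bset) =>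
        s59t_cB (𝒪 := 𝒪) (N * ∏ j, qv j) a x) ∧
      (∀ t : MvPolynomial ↥(s59t_goodB (N * ∏ j, qv j) Bset) 𝒪,
        t ∉ s59t_evalIdeal (fun x : ↥(s59t_goodB (N * ∏ j, qv j) Bset) =>
          s59t_cB (𝒪 := 𝒪) (N * ∏ j, qv j) a x) →
        ∃ η : MvPolynomial ↥(s59t_goodB (N * ∏ j, qv j) Bset) 𝒪,
          s59t_actH (N * ∏ j, qv j) aq (dvd_refl _)
            (s59t_Hmul N (∏ j, qv j) H (s59t_KQ (p ^ n) qv))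
            (s59t_jG 𝒪 (s59t_goodB (N * ∏ j, qv j) Bset) (η * t * e₀)) =
          s59t_actH (N * ∏ j, qv j) aq (dvd_refl _)
            (s59t_Hmul N (∏ j, qv j) H (s59t_KQ (p ^ n) qv))
            (s59t_jG 𝒪 (s59t_goodB (N * ∏ j, qv j) Bset) e₀)) ∧
      s59t_actH (N * ∏ j, qv j) aq (dvd_refl _) (s59t_Hmul N (∏ j, qv j) H (s59t_KQ (p ^ n) qv))
          (G * s59t_jG 𝒪 (s59t_goodB (N * ∏ j, qv j) Bset) e₀) *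
        s59t_actH (N * ∏ j, qv j) aq (dvd_refl _)
          (s59t_Hmul N (∏ j, qv j) H (s59t_KQ (p ^ n) qv))
          (G * s59t_jG 𝒪 (s59t_goodB (N * ∏ j, qv j) Bset) e₀) =
        s59t_actH (N * ∏ j, qv j) aq (dvd_refl _)
          (s59t_Hmul N (∏ j, qv j) H (s59t_KQ (p ^ n) qv))
          (G * s59t_jG 𝒪 (s59t_goodB (N * ∏ j, qv j) Bset) e₀) ∧
      (∀ x ∈ s59t_goodB (N * ∏ j, qv j) Bset, ∃ k : ℕ,
        ∀ y : s48h_Hpar 𝒪 (s48h_GammaH (N * ∏ j, qv j)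
          (s59t_Hmul N (∏ j, qv j) H (s59t_KQ (p ^ n) qv))) 𝒪,
        ((s59w_op (s59t_Hmul N (∏ j, qv j) H (s59t_KQ (p ^ n) qv)) 𝒪 x -
          s59t_cB (𝒪 := 𝒪) (N * ∏ j, qv j) a x •
            (1 : Module.End 𝒪 (s48h_Hpar 𝒪 (s48h_GammaH (N * ∏ j, qv j)
              (s59t_Hmul N (∏ j, qv j) H (s59t_KQ (p ^ n) qv))) 𝒪))) ^ k)
          (s59t_actH (N * ∏ j, qv j) aq (dvd_refl _)
            (s59t_Hmul N (∏ j, qv j) H (s59t_KQ (p ^ n) qv))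
            (G * s59t_jG 𝒪 (s59t_goodB (N * ∏ j, qv j) Bset) e₀) y) ∈
          (maximalIdeal 𝒪 • ⊤ : Submodule 𝒪 (s48h_Hpar 𝒪 (s48h_GammaH (N * ∏ j, qv j)
              (s59t_Hmul N (∏ j, qv j) H (s59t_KQ (p ^ n) qv))) 𝒪))) ∧
      s59t_TWFull (s59t_Gamma0_anti (s59t_dvd_mul_left' N (∏ j, qv j)))
        (s59t_GammaHmul_le (N := N) (D := ∏ j, qv j) (H := H) (K := s59t_KQ (p ^ n) qv))
        (s59t_BQ N (∏ j, qv j) H (s59t_KQ (p ^ n) qv))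
        (s59t_CQ N (∏ j, qv j) H (s59t_KQ (p ^ n) qv))
        (s59t_E0 H Bset e)
        (s59t_actH (N * ∏ j, qv j) aq (dvd_refl _)
          (s59t_Hmul N (∏ j, qv j) H (s59t_KQ (p ^ n) qv))
          (G * s59t_jG 𝒪 (s59t_goodB (N * ∏ j, qv j) Bset) e₀)) := by
  classical
  have hp2 : p ≠ 2 := s59e_auxTors_ne_two hp12
  have hpodd : Odd (p ^ n) := (hp.out.odd_of_ne_two hp2).pow
  have hN : N ∣ N * ∏ j, qv j := s59t_dvd_mul_left' N (∏ j, qv j)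
  have hL : (List.ofFn qv).Nodup := List.nodup_ofFn.mpr hqinj
  have hLp : ∀ q ∈ List.ofFn qv, q.Prime ∧ ¬ q ∣ N := by
    intro q hq
    obtain ⟨j, rfl⟩ := (List.mem_ofFn' qv q).mp hq
    refine ⟨hqp j, fun hdvd => ?_⟩
    have h1 : qv j ∣ ∏ j, qv j := Finset.dvd_prod_of_mem qv (Finset.mem_univ j)
    have h2 : qv j ∣ Nat.gcd N (∏ j, qv j) := Nat.dvd_gcd hdvd h1
    rw [hcop.gcd_eq_one] at h2
    exact (hqp j).one_lt.ne' (Nat.dvd_one.mp h2)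
  have hN' : N * ∏ j, qv j = N * (List.ofFn qv).prod := by rw [List.prod_ofFn]
  have harith' : ∀ q ∈ List.ofFn qv, IsUnit (bq q - aq q) ∧
      (q : 𝒪) - aq q * bq q ∈ maximalIdeal 𝒪 ∧ IsUnit (1 - aq q ^ 2) ∧ IsUnit (1 - bq q ^ 2) := by
    intro q hq
    obtain ⟨j, rfl⟩ := (List.mem_ofFn' qv q).mp hq
    exact harith j
  have hocc : ∃ v : s29h_Hpar 𝒪 N 𝒪,
      v ∉ (maximalIdeal 𝒪 • ⊤ : Submodule 𝒪 (s29h_Hpar 𝒪 N 𝒪)) ∧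
      ∀ x ∈ s59t_goodB (N * ∏ j, qv j) Bset,
        s59t_op0 (N * ∏ j, qv j) aq N (Sum.inl x) v - s59t_cB (𝒪 := 𝒪) (N * ∏ j, qv j) a x • v ∈
          (maximalIdeal 𝒪 • ⊤ : Submodule 𝒪 (s29h_Hpar 𝒪 N 𝒪)) := by
    obtain ⟨v, hv, hvT⟩ := hocc0
    refine ⟨v, hv, ?_⟩
    rintro x ⟨i, rfl, hi⟩
    haveI : Fact i.ell.Prime := ⟨i.prime⟩
    exact hvT i.ell (fun h => i.ndvd (dvd_trans h hN)) hi
  -- the group-theoretic hypotheses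
  have hneg : (-1 : SL(2, ℤ)) ∈ s48h_GammaH N H := s59t_neg_one_mem_GammaH_of H hnegH
  have hnegK : (-1 : (ZMod (∏ j, qv j))ˣ) ∈ s59t_KQ (p ^ n) qv :=
    s59t_neg_one_mem_KQ (p ^ n) qv hpodd
  have hnegH' : (-1 : (ZMod (N * ∏ j, qv j))ˣ) ∈
      s59t_Hmul N (∏ j, qv j) H (s59t_KQ (p ^ n) qv) := s59t_neg_one_mem_Hmul H hnegH hnegK
  have hneg' : (-1 : SL(2, ℤ)) ∈
      s48h_GammaH (N * ∏ j, qv j) (s59t_Hmul N (∏ j, qv j) H (s59t_KQ (p ^ n) qv)) :=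
    s59t_neg_one_mem_GammaH_of _ hnegH'
  have hH' : ∀ u : (ZMod (N * ∏ j, qv j))ˣ, ∃ k : ℕ,
      u ^ (p ^ k) ∈ s59t_Hmul N (∏ j, qv j) H (s59t_KQ (p ^ n) qv) :=
    s59t_Hmul_pgroup (N := N) (D := ∏ j, qv j) (H := H) (K := s59t_KQ (p ^ n) qv) p hH
      (fun u => ⟨n, s59t_pow_mem_KQ (p ^ n) qv u⟩)
  have hPF : s59t_PF N H := s59e_aux_PF_of_pgroup p hp12 hsq hnegH hH
  have hPF' : s59t_PF (N * ∏ j, qv j) (s59t_Hmul N (∏ j, qv j) H (s59t_KQ (p ^ n) qv)) :=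
    s59e_aux_PF_of_pgroup p (s59e_auxTors_mono (Dvd.intro _ rfl) hp12) hsq' hnegH' hH'
  have hconcl := s59t_TW_control (𝒪 := 𝒪) (N := N) (N' := N * ∏ j, qv j) (H := H)
    (H' := s59t_Hmul N (∏ j, qv j) H (s59t_KQ (p ^ n) qv))
    (s59t_Gamma0_anti (s59t_dvd_mul_left' N (∏ j, qv j)))
    (s59t_GammaHmul_le (N := N) (D := ∏ j, qv j) (H := H) (K := s59t_KQ (p ^ n) qv))
    hPF hPF' p hp2 hneg hneg' (s59t_Delta_isPGroup p hH) (s59t_Delta_isPGroup p hH')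
    (s59t_BQ N (∏ j, qv j) H (s59t_KQ (p ^ n) qv)) (s59t_CQ N (∏ j, qv j) H (s59t_KQ (p ^ n) qv))
    (s59t_BQ_CQ_bijective (N := N) (D := ∏ j, qv j) (H := H) (K := s59t_KQ (p ^ n) qv) hcop)
    (fun β hβ => MonoidHom.mem_ker.mp hβ)
    (s59t_phiN_CQ_bijective (N := N) (D := ∏ j, qv j) (H := H) (K := s59t_KQ (p ^ n) qv) hcop)
    hN (List.ofFn qv) hL hLp hN' aq bq harith'
    (s59t_goodB (N * ∏ j, qv j) Bset) (s59t_cB (𝒪 := 𝒪) (N * ∏ j, qv j) a) i₀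
    (s59t_inl_mem_goodB Bset i₀ hi₀) hnE hocc hTQ
  obtain ⟨e₀, G, h1e', hunit, heH, heH', hnilH, hnilH', hfull⟩ :=
    s59t_TWFull_of_concl (s59t_Gamma0_anti (s59t_dvd_mul_left' N (∏ j, qv j)))
      (s59t_GammaHmul_le (N := N) (D := ∏ j, qv j) (H := H) (K := s59t_KQ (p ^ n) qv))
      (s59t_BQ N (∏ j, qv j) H (s59t_KQ (p ^ n) qv)) (s59t_CQ N (∏ j, qv j) H (s59t_KQ (p ^ n) qv))
      (s59t_BQ_CQ_bijective (N := N) (D := ∏ j, qv j) (H := H) (K := s59t_KQ (p ^ n) qv) hcop)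
      (s59t_phiN_CQ_bijective (N := N) (D := ∏ j, qv j) (H := H) (K := s59t_KQ (p ^ n) qv) hcop)
      hN aq _ _ hconcl
  have hid2 : s59t_actH N aq (dvd_refl N) H (s59t_jG 𝒪 (s59t_goodB N Bset) e) *
      s59t_actH N aq (dvd_refl N) H (s59t_jG 𝒪 (s59t_goodB N Bset) e) =
      s59t_actH N aq (dvd_refl N) H (s59t_jG 𝒪 (s59t_goodB N Bset) e) := by
    rw [s59t_actH_eq_E0]; exact hid
  have hnil2 : ∀ x ∈ s59t_goodB N Bset, ∃ k : ℕ, ∀ y : s48h_Hpar 𝒪 (s48h_GammaH N H) 𝒪,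
      ((s59t_opH N aq (dvd_refl N) H (Sum.inl x) - s59t_cB (𝒪 := 𝒪) N a x •
        (1 : Module.End 𝒪 (s48h_Hpar 𝒪 (s48h_GammaH N H) 𝒪))) ^ k)
        (s59t_actH N aq (dvd_refl N) H (s59t_jG 𝒪 (s59t_goodB N Bset) e) y) ∈
        (maximalIdeal 𝒪 • ⊤ : Submodule 𝒪 (s48h_Hpar 𝒪 (s48h_GammaH N H) 𝒪)) := by
    intro x hx
    rw [s59t_actH_eq_E0, s59t_opH_inl, s59t_AIdx_down_self]
    exact hnil x hx
  have hind := s59t_actH_indep p hN H Bset a S37 hN1 hnegH hp𝒪 hpB hH hoccH aq e₀ h1e' heH hnilH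
    e h1e hid2 hnil2
  rw [s59t_actH_eq_E0] at hind
  exact ⟨e₀, G, h1e', fun t ht => (hunit t ht).imp fun η h => h.2, heH', hnilH',
    hfull.congr_base _ _ hind⟩

end AuxLevel

section AuxTop2

variable {𝒪 : Type} [CommRing 𝒪] [IsDomain 𝒪] [IsDiscreteValuationRing 𝒪]
  [IsAdicComplete (maximalIdeal 𝒪) 𝒪] [Finite (ResidueField 𝒪)] [CharZero 𝒪]
  (p : ℕ) [hp : Fact p.Prime] [CharP (ResidueField 𝒪) p]
  {N D : ℕ} [NeZero N] [NeZero D] [NeZero (N * D)] (H : Subgroup (ZMod N)ˣ)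
  (K : Subgroup (ZMod D)ˣ)

include hp in
set_option maxHeartbeats 3200000 in
/-- **the type-1 comparison at the top level** `(N', H₂') ← (N', H')`, `H₂' = s59t_Hmul N D ⊤ K`,
for ONE polynomial `t`. -/
theorem s59e_aux_top2 (hp12 : s59e_auxTors p (N * D)) (hsq' : Squarefree (N * D))
    (hnegH' : (-1 : (ZMod (N * D))ˣ) ∈ s59t_Hmul N D H K)
    (hH' : ∀ u : (ZMod (N * D))ˣ, ∃ k : ℕ, u ^ (p ^ k) ∈ s59t_Hmul N D H K)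
    (hcop : N.Coprime D) (aq : ℕ → 𝒪)
    (t η : MvPolynomial (s59w_AIdx (N * D) ⊕ ℕ) 𝒪) (i₀ : s59w_TIdx (N * D))
    (hid : s59t_actH (N * D) aq (dvd_refl _) (s59t_Hmul N D H K) t *
      s59t_actH (N * D) aq (dvd_refl _) (s59t_Hmul N D H K) t =
      s59t_actH (N * D) aq (dvd_refl _) (s59t_Hmul N D H K) t)
    (hη : s59t_actH (N * D) aq (dvd_refl _) (s59t_Hmul N D H K)
      (η * (MvPolynomial.X (Sum.inl (Sum.inl i₀)) ^ 2 -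
        ((i₀.ell : MvPolynomial (s59w_AIdx (N * D) ⊕ ℕ) 𝒪) + 1) ^ 2) * t) =
      s59t_actH (N * D) aq (dvd_refl _) (s59t_Hmul N D H K) t) :
    s59t_actH (N * D) aq (dvd_refl _) (s59t_Hmul N D ⊤ K) t *
      s59t_actH (N * D) aq (dvd_refl _) (s59t_Hmul N D ⊤ K) t =
      s59t_actH (N * D) aq (dvd_refl _) (s59t_Hmul N D ⊤ K) t ∧
    s59t_TWFull (le_refl (Gamma0 (N * D)))
      (s59t_GammaH_mono (s59t_Hmul_le_top (N := N) (D := D) (H := H) (K := K)))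
      (s59t_CQ N D H K) (s59t_BQ N D H K)
      (s59t_actH (N * D) aq (dvd_refl _) (s59t_Hmul N D ⊤ K) t)
      (s59t_actH (N * D) aq (dvd_refl _) (s59t_Hmul N D H K) t) ∧
    (∀ (x : s59w_AIdx (N * D)) (cx : 𝒪),
      (∃ k : ℕ, ∀ y : s48h_Hpar 𝒪 (s48h_GammaH (N * D) (s59t_Hmul N D H K)) 𝒪,
        ((s59w_op (s59t_Hmul N D H K) 𝒪 x - cx •
          (1 : Module.End 𝒪 (s48h_Hpar 𝒪 (s48h_GammaH (N * D) (s59t_Hmul N D H K)) 𝒪))) ^ k)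
          (s59t_actH (N * D) aq (dvd_refl _) (s59t_Hmul N D H K) t y) ∈
          (maximalIdeal 𝒪 • ⊤ :
            Submodule 𝒪 (s48h_Hpar 𝒪 (s48h_GammaH (N * D) (s59t_Hmul N D H K)) 𝒪))) →
      ∃ k : ℕ, ∀ y : s48h_Hpar 𝒪 (s48h_GammaH (N * D) (s59t_Hmul N D ⊤ K)) 𝒪,
        ((s59w_op (s59t_Hmul N D ⊤ K) 𝒪 x - cx •
          (1 : Module.End 𝒪 (s48h_Hpar 𝒪 (s48h_GammaH (N * D) (s59t_Hmul N D ⊤ K)) 𝒪))) ^ k)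
          (s59t_actH (N * D) aq (dvd_refl _) (s59t_Hmul N D ⊤ K) t y) ∈
          (maximalIdeal 𝒪 • ⊤ :
            Submodule 𝒪 (s48h_Hpar 𝒪 (s48h_GammaH (N * D) (s59t_Hmul N D ⊤ K)) 𝒪))) := by
  classical
  have hp2 : p ≠ 2 := s59e_auxTors_ne_two hp12
  have hle : s48h_GammaH (N * D) (s59t_Hmul N D H K) ≤ s48h_GammaH (N * D) (s59t_Hmul N D ⊤ K) :=
    s59t_GammaH_mono (s59t_Hmul_le_top (N := N) (D := D) (H := H) (K := K))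
  have hneg' : (-1 : SL(2, ℤ)) ∈ s48h_GammaH (N * D) (s59t_Hmul N D H K) :=
    s59t_neg_one_mem_GammaH_of _ hnegH'
  have hPF' : s59t_PF (N * D) (s59t_Hmul N D H K) := s59e_aux_PF_of_pgroup p hp12 hsq' hnegH' hH'
  have hφB : ∀ β ∈ s59t_CQ N D H K, s59t_DeltaMap2 (le_refl (Gamma0 (N * D)))
      (s59t_GammaH_mono (s59t_Hmul_le_top (N := N) (D := D) (H := H) (K := K))) β = 1 :=
    fun β hβ => (s59t_top2_eq_one_iff β).mpr hβ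
  obtain ⟨hid₂, hfull⟩ := s59t_same_level aq (dvd_refl (N * D))
    (s59t_Hmul_le_top (N := N) (D := D) (H := H) (K := K)) p hp2 hPF' hneg'
    (s59t_Delta_isPGroup p hH') (s59t_CQ N D H K) (s59t_BQ N D H K)
    (s59t_CQ_BQ_bijective hcop) hφB (s59t_top2_BQ_bijective hcop) t η i₀ hid hη
  refine ⟨hid₂, hfull, ?_⟩
  rintro x cx ⟨k, hk⟩
  refine ⟨k, fun y => ?_⟩
  -- the element of the `ε₂`-part
  obtain ⟨P, hP⟩ : ∃ P : MvPolynomial (s59w_AIdx (N * D) ⊕ ℕ) 𝒪,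
      P = (MvPolynomial.X (Sum.inl x) - MvPolynomial.C cx) ^ k * t := ⟨_, rfl⟩
  have hP₂ := s59t_actH_pow_sub_mul (s59t_Hmul N D ⊤ K) aq t x cx k
  have hP₁ := s59t_actH_pow_sub_mul (s59t_Hmul N D H K) aq t x cx k
  rw [← hP] at hP₂ hP₁
  have hmem : s59t_actH (N * D) aq (dvd_refl _) (s59t_Hmul N D ⊤ K) P y ∈
      s59t_part (s59t_actH (N * D) aq (dvd_refl _) (s59t_Hmul N D ⊤ K) t) := by
    refine ⟨s59t_actH (N * D) aq (dvd_refl _) (s59t_Hmul N D ⊤ K)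
      ((MvPolynomial.X (Sum.inl x) - MvPolynomial.C cx) ^ k) y, ?_⟩
    rw [← Module.End.mul_apply, ← map_mul, hP, mul_comm t]
  have hgoal : ((s59w_op (s59t_Hmul N D ⊤ K) 𝒪 x - cx •
      (1 : Module.End 𝒪 (s48h_Hpar 𝒪 (s48h_GammaH (N * D) (s59t_Hmul N D ⊤ K)) 𝒪))) ^ k)
      (s59t_actH (N * D) aq (dvd_refl _) (s59t_Hmul N D ⊤ K) t y) =
      s59t_actH (N * D) aq (dvd_refl _) (s59t_Hmul N D ⊤ K) P y := by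
    rw [hP₂, Module.End.mul_apply]
  rw [hgoal]
  refine s59t_TWFull.sat (le_refl (Gamma0 (N * D))) hle hfull hid hφB
    ⟨s59t_actH (N * D) aq (dvd_refl _) (s59t_Hmul N D ⊤ K) P y, hmem⟩ ?_
  rw [s59t_iotaH_coe]
  show s59t_actH (N * D) aq (dvd_refl _) (s59t_Hmul N D H K) t
    (s59t_resGHpar hle 𝒪 𝒪 (s59t_actH (N * D) aq (dvd_refl _) (s59t_Hmul N D ⊤ K) P y)) ∈ _
  rw [s59t_actH_resG_same aq (dvd_refl (N * D)) hle, ← Module.End.mul_apply, ← map_mul,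
    mul_comm t P, map_mul, hP₁, mul_assoc, hid, Module.End.mul_apply]
  exact hk _

end AuxTop2

section AuxLevelPkg

variable {𝒪 : Type} [CommRing 𝒪] [IsDomain 𝒪] [IsDiscreteValuationRing 𝒪]
  [IsAdicComplete (maximalIdeal 𝒪) 𝒪] [Finite (ResidueField 𝒪)] [CharZero 𝒪]
  (p : ℕ) [hp : Fact p.Prime] [CharP (ResidueField 𝒪) p] [Algebra ℤ_[p] 𝒪]
  {N : ℕ} [NeZero N] (H : Subgroup (ZMod N)ˣ) (Bset : Finset ℕ) (a : ℕ → ℤ)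
  (n : ℕ) {r : ℕ} (qv : Fin r → ℕ) [NeZero (∏ j, qv j)] [NeZero (N * ∏ j, qv j)]

include hp in
set_option maxHeartbeats 6400000 in
/-- **the concrete level package**: the Taylor–Wiles level `(N', H')`, `N' = N ∏ qv`,
`H' = s59t_Hmul N (∏ qv) H (s59t_KQ (p^n) qv)`, over the fixed base part `s59t_E0 H Bset e`, and the
type-1 level `(N', H₂')`, `H₂' = s59t_Hmul N (∏ qv) ⊤ (s59t_KQ (p^n) qv)`, for the SAME polynomial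
`G * jG e₀`. -/
theorem s59e_aux_level_pkg (hp12 : s59e_auxTors p N)
    (hsq : Squarefree N) (hsq' : Squarefree (N * ∏ j, qv j))
    (S37 : s59b_S37H N H) (hN1 : 1 < N) (hnegH : (-1 : (ZMod N)ˣ) ∈ H)
    (hp𝒪 : (p : 𝒪) ∈ maximalIdeal 𝒪) (hpB : p ∈ Bset)
    (hH : ∀ u : (ZMod N)ˣ, ∃ k : ℕ, u ^ (p ^ k) ∈ H)
    (hoccH : ∃ v : s48h_Hpar 𝒪 (s48h_GammaH N H) 𝒪,
      v ∉ (maximalIdeal 𝒪 • ⊤ : Submodule 𝒪 (s48h_Hpar 𝒪 (s48h_GammaH N H) 𝒪)) ∧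
      (∀ i : s59w_TIdx N, i.ell ∉ Bset →
        s59w_op H 𝒪 (Sum.inl i) v - ((a i.ell : ℤ) : 𝒪) • v ∈
          (maximalIdeal 𝒪 • ⊤ : Submodule 𝒪 (s48h_Hpar 𝒪 (s48h_GammaH N H) 𝒪))) ∧
      (∀ τ : Gamma0 N, s59w_op H 𝒪 (Sum.inr τ) v - v ∈
          (maximalIdeal 𝒪 • ⊤ : Submodule 𝒪 (s48h_Hpar 𝒪 (s48h_GammaH N H) 𝒪))))
    (hocc0 : ∃ v : s29h_Hpar 𝒪 N 𝒪,
      v ∉ (maximalIdeal 𝒪 • ⊤ : Submodule 𝒪 (s29h_Hpar 𝒪 N 𝒪)) ∧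
      ∀ (ℓ : ℕ) [Fact ℓ.Prime], ¬ ℓ ∣ N → ℓ ∉ Bset →
        s29h_heckeHpar N ℓ 𝒪 𝒪 v - ((a ℓ : ℤ) : 𝒪) • v ∈
          (maximalIdeal 𝒪 • ⊤ : Submodule 𝒪 (s29h_Hpar 𝒪 N 𝒪)))
    (hcop : N.Coprime (∏ j, qv j)) (hqinj : Function.Injective qv) (hqp : ∀ j, (qv j).Prime)
    (aq bq : ℕ → 𝒪)
    (harith : ∀ j, IsUnit (bq (qv j) - aq (qv j)) ∧
      ((qv j : ℕ) : 𝒪) - aq (qv j) * bq (qv j) ∈ maximalIdeal 𝒪 ∧
      IsUnit (1 - aq (qv j) ^ 2) ∧ IsUnit (1 - bq (qv j) ^ 2))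
    (i₀ : s59w_TIdx (N * ∏ j, qv j)) (hi₀ : i₀.ell ∉ Bset)
    (hnE : IsUnit ((((a i₀.ell : ℤ) : 𝒪)) ^ 2 - ((i₀.ell : 𝒪) + 1) ^ 2))
    (hTQ : ∀ (M : ℕ) (hM : M ∣ N * ∏ j, qv j), ∀ q ∈ List.ofFn qv, ∀ [Fact q.Prime], ¬ q ∣ M →
      ∀ e₀ : MvPolynomial ↥(s59t_goodB (N * ∏ j, qv j) Bset) 𝒪,
        1 - e₀ ∈ s59t_evalIdeal (fun x : ↥(s59t_goodB (N * ∏ j, qv j) Bset) =>
          s59t_cB (𝒪 := 𝒪) (N * ∏ j, qv j) a x) →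
        s59t_act0 aq hM (s59t_jG 𝒪 (s59t_goodB (N * ∏ j, qv j) Bset) e₀) *
          s59t_act0 aq hM (s59t_jG 𝒪 (s59t_goodB (N * ∏ j, qv j) Bset) e₀) =
          s59t_act0 aq hM (s59t_jG 𝒪 (s59t_goodB (N * ∏ j, qv j) Bset) e₀) →
        (∀ x : ↥(s59t_goodB (N * ∏ j, qv j) Bset), ∃ k : ℕ, ∀ y : s29h_Hpar 𝒪 M 𝒪,
          ((s59t_op0 (N * ∏ j, qv j) aq M (Sum.inl (x : s59w_AIdx (N * ∏ j, qv j))) -
            s59t_cB (𝒪 := 𝒪) (N * ∏ j, qv j) a x •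
              (1 : Module.End 𝒪 (s29h_Hpar 𝒪 M 𝒪))) ^ k)
            (s59t_act0 aq hM (s59t_jG 𝒪 (s59t_goodB (N * ∏ j, qv j) Bset) e₀) y) ∈
            (maximalIdeal 𝒪 • ⊤ : Submodule 𝒪 (s29h_Hpar 𝒪 M 𝒪))) →
        ∃ k : ℕ, ∀ y : s29h_Hpar 𝒪 M 𝒪,
          ((s29h_heckeHpar M q 𝒪 𝒪 - (aq q + bq q) • (1 : Module.End 𝒪 (s29h_Hpar 𝒪 M 𝒪))) ^ k)
            (s59t_act0 aq hM (s59t_jG 𝒪 (s59t_goodB (N * ∏ j, qv j) Bset) e₀) y) ∈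
            (maximalIdeal 𝒪 • ⊤ : Submodule 𝒪 (s29h_Hpar 𝒪 M 𝒪)))
    (e : MvPolynomial ↥(s59t_goodB N Bset) 𝒪)
    (h1e : 1 - e ∈ s59t_evalIdeal (fun x : ↥(s59t_goodB N Bset) =>
      s59t_cB (𝒪 := 𝒪) N a (x : s59w_AIdx N)))
    (hid : s59t_E0 H Bset e * s59t_E0 H Bset e = s59t_E0 H Bset e)
    (hnil : ∀ x ∈ s59t_goodB N Bset, ∃ k : ℕ, ∀ y : s48h_Hpar 𝒪 (s48h_GammaH N H) 𝒪,
      ((s59w_op H 𝒪 x - s59t_cB (𝒪 := 𝒪) N a x •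
        (1 : Module.End 𝒪 (s48h_Hpar 𝒪 (s48h_GammaH N H) 𝒪))) ^ k)
        (s59t_E0 H Bset e y) ∈
        (maximalIdeal 𝒪 • ⊤ : Submodule 𝒪 (s48h_Hpar 𝒪 (s48h_GammaH N H) 𝒪))) :
    ∃ (e₀ : MvPolynomial ↥(s59t_goodB (N * ∏ j, qv j) Bset) 𝒪)
      (G : MvPolynomial (s59w_AIdx (N * ∏ j, qv j) ⊕ ℕ) 𝒪),
      1 - e₀ ∈ s59t_evalIdeal (fun x : ↥(s59t_goodB (N * ∏ j, qv j) Bset) =>
        s59t_cB (𝒪 := 𝒪) (N * ∏ j, qv j) a x) ∧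
      -- invertibility of everything outside the maximal ideal, on the `ε'`-part
      (∀ t : MvPolynomial ↥(s59t_goodB (N * ∏ j, qv j) Bset) 𝒪,
        t ∉ s59t_evalIdeal (fun x : ↥(s59t_goodB (N * ∏ j, qv j) Bset) =>
          s59t_cB (𝒪 := 𝒪) (N * ∏ j, qv j) a x) →
        ∃ η : MvPolynomial ↥(s59t_goodB (N * ∏ j, qv j) Bset) 𝒪,
          s59t_actH (N * ∏ j, qv j) aq (dvd_refl _)
            (s59t_Hmul N (∏ j, qv j) H (s59t_KQ (p ^ n) qv))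
            (s59t_jG 𝒪 (s59t_goodB (N * ∏ j, qv j) Bset) (η * t) *
              (G * s59t_jG 𝒪 (s59t_goodB (N * ∏ j, qv j) Bset) e₀)) =
          s59t_actH (N * ∏ j, qv j) aq (dvd_refl _)
            (s59t_Hmul N (∏ j, qv j) H (s59t_KQ (p ^ n) qv))
            (G * s59t_jG 𝒪 (s59t_goodB (N * ∏ j, qv j) Bset) e₀)) ∧
      -- the Taylor–Wiles level `(N', H')`
      s59t_actH (N * ∏ j, qv j) aq (dvd_refl _) (s59t_Hmul N (∏ j, qv j) H (s59t_KQ (p ^ n) qv))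
          (G * s59t_jG 𝒪 (s59t_goodB (N * ∏ j, qv j) Bset) e₀) *
        s59t_actH (N * ∏ j, qv j) aq (dvd_refl _)
          (s59t_Hmul N (∏ j, qv j) H (s59t_KQ (p ^ n) qv))
          (G * s59t_jG 𝒪 (s59t_goodB (N * ∏ j, qv j) Bset) e₀) =
        s59t_actH (N * ∏ j, qv j) aq (dvd_refl _)
          (s59t_Hmul N (∏ j, qv j) H (s59t_KQ (p ^ n) qv))
          (G * s59t_jG 𝒪 (s59t_goodB (N * ∏ j, qv j) Bset) e₀) ∧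
      (∀ x ∈ s59t_goodB (N * ∏ j, qv j) Bset, ∃ k : ℕ,
        ∀ y : s48h_Hpar 𝒪 (s48h_GammaH (N * ∏ j, qv j)
          (s59t_Hmul N (∏ j, qv j) H (s59t_KQ (p ^ n) qv))) 𝒪,
        ((s59w_op (s59t_Hmul N (∏ j, qv j) H (s59t_KQ (p ^ n) qv)) 𝒪 x -
          s59t_cB (𝒪 := 𝒪) (N * ∏ j, qv j) a x •
            (1 : Module.End 𝒪 (s48h_Hpar 𝒪 (s48h_GammaH (N * ∏ j, qv j)
              (s59t_Hmul N (∏ j, qv j) H (s59t_KQ (p ^ n) qv))) 𝒪))) ^ k)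
          (s59t_actH (N * ∏ j, qv j) aq (dvd_refl _)
            (s59t_Hmul N (∏ j, qv j) H (s59t_KQ (p ^ n) qv))
            (G * s59t_jG 𝒪 (s59t_goodB (N * ∏ j, qv j) Bset) e₀) y) ∈
          (maximalIdeal 𝒪 • ⊤ : Submodule 𝒪 (s48h_Hpar 𝒪 (s48h_GammaH (N * ∏ j, qv j)
              (s59t_Hmul N (∏ j, qv j) H (s59t_KQ (p ^ n) qv))) 𝒪))) ∧
      s59t_TWFull (s59t_Gamma0_anti (s59t_dvd_mul_left' N (∏ j, qv j)))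
        (s59t_GammaHmul_le (N := N) (D := ∏ j, qv j) (H := H) (K := s59t_KQ (p ^ n) qv))
        (s59t_BQ N (∏ j, qv j) H (s59t_KQ (p ^ n) qv))
        (s59t_CQ N (∏ j, qv j) H (s59t_KQ (p ^ n) qv))
        (s59t_E0 H Bset e)
        (s59t_actH (N * ∏ j, qv j) aq (dvd_refl _)
          (s59t_Hmul N (∏ j, qv j) H (s59t_KQ (p ^ n) qv))
          (G * s59t_jG 𝒪 (s59t_goodB (N * ∏ j, qv j) Bset) e₀)) ∧
      -- the type-1 level `(N', H₂')`, same polynomial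
      s59t_actH (N * ∏ j, qv j) aq (dvd_refl _) (s59t_Hmul N (∏ j, qv j) ⊤ (s59t_KQ (p ^ n) qv))
          (G * s59t_jG 𝒪 (s59t_goodB (N * ∏ j, qv j) Bset) e₀) *
        s59t_actH (N * ∏ j, qv j) aq (dvd_refl _)
          (s59t_Hmul N (∏ j, qv j) ⊤ (s59t_KQ (p ^ n) qv))
          (G * s59t_jG 𝒪 (s59t_goodB (N * ∏ j, qv j) Bset) e₀) =
        s59t_actH (N * ∏ j, qv j) aq (dvd_refl _)
          (s59t_Hmul N (∏ j, qv j) ⊤ (s59t_KQ (p ^ n) qv))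
          (G * s59t_jG 𝒪 (s59t_goodB (N * ∏ j, qv j) Bset) e₀) ∧
      (∀ x ∈ s59t_goodB (N * ∏ j, qv j) Bset, ∃ k : ℕ,
        ∀ y : s48h_Hpar 𝒪 (s48h_GammaH (N * ∏ j, qv j)
          (s59t_Hmul N (∏ j, qv j) ⊤ (s59t_KQ (p ^ n) qv))) 𝒪,
        ((s59w_op (s59t_Hmul N (∏ j, qv j) ⊤ (s59t_KQ (p ^ n) qv)) 𝒪 x -
          s59t_cB (𝒪 := 𝒪) (N * ∏ j, qv j) a x •
            (1 : Module.End 𝒪 (s48h_Hpar 𝒪 (s48h_GammaH (N * ∏ j, qv j)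
              (s59t_Hmul N (∏ j, qv j) ⊤ (s59t_KQ (p ^ n) qv))) 𝒪))) ^ k)
          (s59t_actH (N * ∏ j, qv j) aq (dvd_refl _)
            (s59t_Hmul N (∏ j, qv j) ⊤ (s59t_KQ (p ^ n) qv))
            (G * s59t_jG 𝒪 (s59t_goodB (N * ∏ j, qv j) Bset) e₀) y) ∈
          (maximalIdeal 𝒪 • ⊤ : Submodule 𝒪 (s48h_Hpar 𝒪 (s48h_GammaH (N * ∏ j, qv j)
              (s59t_Hmul N (∏ j, qv j) ⊤ (s59t_KQ (p ^ n) qv))) 𝒪))) ∧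
      s59t_TWFull (le_refl (Gamma0 (N * ∏ j, qv j)))
        (s59t_GammaH_mono (s59t_Hmul_le_top (N := N) (D := ∏ j, qv j) (H := H)
          (K := s59t_KQ (p ^ n) qv)))
        (s59t_CQ N (∏ j, qv j) H (s59t_KQ (p ^ n) qv))
        (s59t_BQ N (∏ j, qv j) H (s59t_KQ (p ^ n) qv))
        (s59t_actH (N * ∏ j, qv j) aq (dvd_refl _)
          (s59t_Hmul N (∏ j, qv j) ⊤ (s59t_KQ (p ^ n) qv))
          (G * s59t_jG 𝒪 (s59t_goodB (N * ∏ j, qv j) Bset) e₀))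
        (s59t_actH (N * ∏ j, qv j) aq (dvd_refl _)
          (s59t_Hmul N (∏ j, qv j) H (s59t_KQ (p ^ n) qv))
          (G * s59t_jG 𝒪 (s59t_goodB (N * ∏ j, qv j) Bset) e₀)) := by
  classical
  have hp2 : p ≠ 2 := s59e_auxTors_ne_two hp12
  have hpodd : Odd (p ^ n) := (hp.out.odd_of_ne_two hp2).pow
  obtain ⟨e₀, G, h1e', hunit, heH', hnilH', hfull⟩ := s59e_aux_TW_level p H Bset a n qv hp12 hsq hsq'
    S37 hN1 hnegH hp𝒪 hpB hH hoccH hocc0 hcop hqinj hqp aq bq harith i₀ hi₀ hnE hTQ e h1e hid hnil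
  -- invertibility on the `G e₀`-part
  have hunitG : ∀ t : MvPolynomial ↥(s59t_goodB (N * ∏ j, qv j) Bset) 𝒪,
      t ∉ s59t_evalIdeal (fun x : ↥(s59t_goodB (N * ∏ j, qv j) Bset) =>
        s59t_cB (𝒪 := 𝒪) (N * ∏ j, qv j) a x) →
      ∃ η : MvPolynomial ↥(s59t_goodB (N * ∏ j, qv j) Bset) 𝒪,
        s59t_actH (N * ∏ j, qv j) aq (dvd_refl _)
          (s59t_Hmul N (∏ j, qv j) H (s59t_KQ (p ^ n) qv))
          (s59t_jG 𝒪 (s59t_goodB (N * ∏ j, qv j) Bset) (η * t) *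
            (G * s59t_jG 𝒪 (s59t_goodB (N * ∏ j, qv j) Bset) e₀)) =
        s59t_actH (N * ∏ j, qv j) aq (dvd_refl _)
          (s59t_Hmul N (∏ j, qv j) H (s59t_KQ (p ^ n) qv))
          (G * s59t_jG 𝒪 (s59t_goodB (N * ∏ j, qv j) Bset) e₀) := by
    intro t ht
    obtain ⟨η, hη⟩ := hunit t ht
    refine ⟨η, ?_⟩
    have hpoly : s59t_jG 𝒪 (s59t_goodB (N * ∏ j, qv j) Bset) (η * t) *
        (G * s59t_jG 𝒪 (s59t_goodB (N * ∏ j, qv j) Bset) e₀) =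
        G * s59t_jG 𝒪 (s59t_goodB (N * ∏ j, qv j) Bset) (η * t * e₀) := by
      rw [map_mul (s59t_jG 𝒪 (s59t_goodB (N * ∏ j, qv j) Bset)) (η * t) e₀]
      ring
    rw [hpoly, map_mul, hη, ← map_mul]
  -- the non-Eisenstein element
  obtain ⟨t₀, ht₀⟩ : ∃ t₀ : MvPolynomial ↥(s59t_goodB (N * ∏ j, qv j) Bset) 𝒪, t₀ =
      MvPolynomial.X (⟨Sum.inl i₀, s59t_inl_mem_goodB Bset i₀ hi₀⟩ :
        ↥(s59t_goodB (N * ∏ j, qv j) Bset)) ^ 2 -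
        ((i₀.ell : MvPolynomial ↥(s59t_goodB (N * ∏ j, qv j) Bset) 𝒪) + 1) ^ 2 := ⟨_, rfl⟩
  have ht₀n : t₀ ∉ s59t_evalIdeal (fun x : ↥(s59t_goodB (N * ∏ j, qv j) Bset) =>
      s59t_cB (𝒪 := 𝒪) (N * ∏ j, qv j) a x) := by
    rw [s59t_not_mem_evalIdeal, ht₀]
    simp only [map_sub, map_pow, MvPolynomial.eval_X, map_add, map_natCast, map_one]
    exact hnE
  obtain ⟨η₀, hη₀⟩ := hunitG t₀ ht₀n
  have hjt : s59t_jG 𝒪 (s59t_goodB (N * ∏ j, qv j) Bset) (η₀ * t₀) =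
      s59t_jG 𝒪 (s59t_goodB (N * ∏ j, qv j) Bset) η₀ *
        (MvPolynomial.X (Sum.inl (Sum.inl i₀)) ^ 2 -
        ((i₀.ell : MvPolynomial (s59w_AIdx (N * ∏ j, qv j) ⊕ ℕ) 𝒪) + 1) ^ 2) := by
    rw [map_mul, ht₀, map_sub, map_pow, map_pow, s59t_jG_X, map_add, map_natCast, map_one]
  rw [hjt] at hη₀
  -- the group-theoretic hypotheses at the top level
  have hnegK : (-1 : (ZMod (∏ j, qv j))ˣ) ∈ s59t_KQ (p ^ n) qv :=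
    s59t_neg_one_mem_KQ (p ^ n) qv hpodd
  have hnegH' : (-1 : (ZMod (N * ∏ j, qv j))ˣ) ∈
      s59t_Hmul N (∏ j, qv j) H (s59t_KQ (p ^ n) qv) := s59t_neg_one_mem_Hmul H hnegH hnegK
  have hH' : ∀ u : (ZMod (N * ∏ j, qv j))ˣ, ∃ k : ℕ,
      u ^ (p ^ k) ∈ s59t_Hmul N (∏ j, qv j) H (s59t_KQ (p ^ n) qv) :=
    s59t_Hmul_pgroup (N := N) (D := ∏ j, qv j) (H := H) (K := s59t_KQ (p ^ n) qv) p hH
      (fun u => ⟨n, s59t_pow_mem_KQ (p ^ n) qv u⟩)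
  obtain ⟨hid₂, hfull₂, hnil₂⟩ := s59e_aux_top2 p H (s59t_KQ (p ^ n) qv) (s59e_auxTors_mono (Dvd.intro _ rfl) hp12) hsq' hnegH' hH' hcop aq
    (G * s59t_jG 𝒪 (s59t_goodB (N * ∏ j, qv j) Bset) e₀)
    (s59t_jG 𝒪 (s59t_goodB (N * ∏ j, qv j) Bset) η₀) i₀ heH' hη₀
  exact ⟨e₀, G, h1e', hunitG, heH', hnilH', hfull, hid₂,
    fun x hx => hnil₂ x _ (hnilH' x hx), hfull₂⟩

end AuxLevelPkg


end Fermat.Agent.Lib.S59
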