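/-
Programme R2 (S59), helper5 (prefix `s59e_W_`): **the base and level packages for a GENERAL `W`, valid for `p = 3` too** —
scripted copies of helper3's `s59u_W_base_pkg`, `s59u_W_level_pkg` (UWPkg.lean) with the hypothesis
`hp12 : Nat.Coprime p 12` replaced by `hp12 : s59e_auxTors p N` (EAuxPF: `p ⊥ 12`, or `p = 3` and a prime `r ≡ 2 (mod 3)`
divides `N`), calling `s59e_aux_base_pkg` / `s59e_aux_level_pkg` (EAuxLvl) instead of helper8's `s59t_base_pkg` /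
`s59t_level_pkg`.  Conclusions VERBATIM.

* `s59e_W_base_pkg`, `s59e_W_level_pkg`.
-/
import Mathlib
import Fermat.Agent.Lib.S59.UWPkg
import Fermat.Agent.Lib.S59.EAuxLvl

set_option autoImplicit false
set_option linter.unusedSectionVars false
set_option linter.unusedVariables false
set_option linter.style.haveILetI false

noncomputable section

namespace Fermat.Agent.Lib.S59

open Matrix MatrixGroups CongruenceSubgroup IsLocalRing Polynomial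
open WeierstrassCurve WeierstrassCurve.Affine WeierstrassCurve.Affine.Point
open Fermat.Agent.Lib.S29 Fermat.Agent.Lib.S48 Fermat.Agent.Lib.S41 Fermat.Agent.Lib.S44
open Fermat.Agent.Lib.S58

local notation "Γℚ" => (AlgebraicClosure ℚ ≃ₐ[ℚ] AlgebraicClosure ℚ)

section WPkg

variable (W : WeierstrassCurve ℤ) (hΔ : W.Δ ≠ 0) (p : ℕ) [Fact p.Prime]
  (hirr : W.ModRepIsIrreducible p) (N : ℕ) [NeZero N] (hsq : Squarefree N)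
  (B : Finset ℕ) (hpB : p ∈ B) (hNB : ∀ q : ℕ, q.Prime → q ∣ N → q ∈ B)
  (hgood : ∀ q : ℕ, q.Prime → q ∉ B → W.IsGoodPrimeFor q)
  (hocc : s44i_LevelOcc N p (fun ℓ => W.apOfModel ℓ) B)
  {𝒪 : Type} [CommRing 𝒪] [IsDomain 𝒪] [IsDiscreteValuationRing 𝒪]
  [IsAdicComplete (maximalIdeal 𝒪) 𝒪] [Finite (ResidueField 𝒪)] [CharZero 𝒪]
  [Algebra ℤ_[p] 𝒪] (hp𝒪 : ((p : ℕ) : 𝒪) ∈ maximalIdeal 𝒪)
  (H : Subgroup (ZMod N)ˣ) (hnegH : (-1 : (ZMod N)ˣ) ∈ H)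
  (hH : ∀ u : (ZMod N)ˣ, ∃ k : ℕ, u ^ (p ^ k) ∈ H)

include hΔ hirr hsq hocc hp𝒪 hnegH hH in
/-- **the base package for a general `W`** (= the conclusion of helper8's `s59t_base_pkg`, verbatim). -/
theorem s59e_W_base_pkg (hp12 : s59e_auxTors p N) :
    ∃ e : MvPolynomial ↥(s59t_goodB N B) 𝒪,
      1 - e ∈ s59t_evalIdeal (fun x : ↥(s59t_goodB N B) =>
        s59t_cB (𝒪 := 𝒪) N (fun ℓ => W.apOfModel ℓ) (x : s59w_AIdx N)) ∧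
      (∀ t : MvPolynomial ↥(s59t_goodB N B) 𝒪,
        t ∉ s59t_evalIdeal (fun x : ↥(s59t_goodB N B) =>
          s59t_cB (𝒪 := 𝒪) N (fun ℓ => W.apOfModel ℓ) (x : s59w_AIdx N)) →
        ∃ η : MvPolynomial ↥(s59t_goodB N B) 𝒪,
          s59t_E0 H B (η * t * e) = s59t_E0 H B e ∧
          s59t_E0 (⊤ : Subgroup (ZMod N)ˣ) B (η * t * e) = s59t_E0 ⊤ B e) ∧
      -- level `(N, H)`
      s59t_E0 H B e * s59t_E0 H B e = s59t_E0 H B e ∧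
      s59t_E0 H B e ≠ 0 ∧
      (∀ x ∈ s59t_goodB N B, ∃ k : ℕ, ∀ y : s48h_Hpar 𝒪 (s48h_GammaH N H) 𝒪,
        ((s59w_op H 𝒪 x - s59t_cB (𝒪 := 𝒪) N (fun ℓ => W.apOfModel ℓ) x •
          (1 : Module.End 𝒪 (s48h_Hpar 𝒪 (s48h_GammaH N H) 𝒪))) ^ k)
          (s59t_E0 H B e y) ∈
          (maximalIdeal 𝒪 • ⊤ : Submodule 𝒪 (s48h_Hpar 𝒪 (s48h_GammaH N H) 𝒪))) ∧
      -- level `(N, ⊤)`, i.e. `Γ₀(N)`
      s59t_E0 (⊤ : Subgroup (ZMod N)ˣ) B e * s59t_E0 ⊤ B e = s59t_E0 ⊤ B e ∧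
      s59t_E0 (⊤ : Subgroup (ZMod N)ˣ) B e ≠ 0 ∧
      (∀ x ∈ s59t_goodB N B, ∃ k : ℕ,
        ∀ y : s48h_Hpar 𝒪 (s48h_GammaH N (⊤ : Subgroup (ZMod N)ˣ)) 𝒪,
        ((s59w_op (⊤ : Subgroup (ZMod N)ˣ) 𝒪 x - s59t_cB (𝒪 := 𝒪) N (fun ℓ => W.apOfModel ℓ) x •
          (1 : Module.End 𝒪 (s48h_Hpar 𝒪 (s48h_GammaH N (⊤ : Subgroup (ZMod N)ˣ)) 𝒪))) ^ k)
          (s59t_E0 ⊤ B e y) ∈
          (maximalIdeal 𝒪 • ⊤ :
            Submodule 𝒪 (s48h_Hpar 𝒪 (s48h_GammaH N (⊤ : Subgroup (ZMod N)ˣ)) 𝒪))) ∧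
      -- the comparison `(N, ⊤) ← (N, H)`
      s59t_TWFull (le_refl (Gamma0 N)) (s59t_GammaH_mono (le_top : H ≤ ⊤))
        (⊤ : Subgroup (s59t_Delta N H)) (⊥ : Subgroup (s59t_Delta N H))
        (s59t_E0 (⊤ : Subgroup (ZMod N)ˣ) B e) (s59t_E0 H B e) := by
  classical
  haveI : CharP (ResidueField 𝒪) p := s59e_charP_residue p hp𝒪
  have hpP : p.Prime := Fact.out
  have hp2 : p ≠ 2 := s59e_auxTors_ne_two hp12
  obtain ⟨i₀, hi₀, hnE⟩ := s59u_W_exists_nonEis_idx W hΔ p hp2 hirr (𝒪 := 𝒪) hp𝒪 B N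
  exact s59e_aux_base_pkg p H B (fun ℓ => W.apOfModel ℓ) hp12 hsq hnegH hH
    (s59u_W6_G0 (dvd_refl N) 𝒪 p hp𝒪 _ B hocc) i₀ hi₀ hnE

variable (n : ℕ) {r : ℕ} (qv : Fin r → ℕ) [NeZero (∏ j, qv j)] [NeZero (N * ∏ j, qv j)]

include hΔ hirr hsq hpB hNB hgood hocc hp𝒪 hnegH hH in
set_option maxHeartbeats 1600000 in
/-- **the level package for a general `W`**: the Taylor–Wiles arithmetic `aq, bq` and the conclusion of helper8's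
`s59t_level_pkg`, verbatim. -/
theorem s59e_W_level_pkg (hp12 : s59e_auxTors p N) (hN1 : 1 < N) (S37 : s59b_S37H N H)
    (hqinj : Function.Injective qv)
    (hqv : ∀ i, (qv i).Prime ∧ qv i ∉ B ∧ p ^ (n + 1) ∣ qv i - 1)
    (hTW : ∀ i, ∀ A : ValuationSubring (AlgebraicClosure ℚ), A.LiesOverPrime (qv i) →
      ∀ φ : Γℚ, A.IsFrobeniusAt φ (qv i) →
        ∃ α β : ResidueField 𝒪, α ≠ β ∧
          LinearMap.charpoly ((((s59b_rhoW W p hΔ).baseChangeAlong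
            (algebraMap ℤ_[p] 𝒪) (s59b_isLocalHom_padic p _ hp𝒪)).residual).ρ φ) =
            (X - C α) * (X - C β))
    (e : MvPolynomial ↥(s59t_goodB N B) 𝒪)
    (h1e : 1 - e ∈ s59t_evalIdeal (fun x : ↥(s59t_goodB N B) =>
      s59t_cB (𝒪 := 𝒪) N (fun ℓ => W.apOfModel ℓ) (x : s59w_AIdx N)))
    (hid : s59t_E0 H B e * s59t_E0 H B e = s59t_E0 H B e)
    (hnil : ∀ x ∈ s59t_goodB N B, ∃ k : ℕ, ∀ y : s48h_Hpar 𝒪 (s48h_GammaH N H) 𝒪,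
      ((s59w_op H 𝒪 x - s59t_cB (𝒪 := 𝒪) N (fun ℓ => W.apOfModel ℓ) x •
        (1 : Module.End 𝒪 (s48h_Hpar 𝒪 (s48h_GammaH N H) 𝒪))) ^ k)
        (s59t_E0 H B e y) ∈
        (maximalIdeal 𝒪 • ⊤ : Submodule 𝒪 (s48h_Hpar 𝒪 (s48h_GammaH N H) 𝒪))) :
    ∃ aq bq : ℕ → 𝒪,
      (∀ j, IsUnit (bq (qv j) - aq (qv j)) ∧
        ((qv j : ℕ) : 𝒪) - aq (qv j) * bq (qv j) ∈ maximalIdeal 𝒪 ∧
        IsUnit (1 - aq (qv j) ^ 2) ∧ IsUnit (1 - bq (qv j) ^ 2)) ∧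
      (∀ j, aq (qv j) + bq (qv j) - ((W.apOfModel (qv j) : ℤ) : 𝒪) ∈
        maximalIdeal 𝒪) ∧
    ∃ (e₀ : MvPolynomial ↥(s59t_goodB (N * ∏ j, qv j) B) 𝒪)
      (G : MvPolynomial (s59w_AIdx (N * ∏ j, qv j) ⊕ ℕ) 𝒪),
      1 - e₀ ∈ s59t_evalIdeal (fun x : ↥(s59t_goodB (N * ∏ j, qv j) B) =>
        s59t_cB (𝒪 := 𝒪) (N * ∏ j, qv j) (fun ℓ => W.apOfModel ℓ) x) ∧
      -- invertibility of everything outside the maximal ideal, on the `ε'`-part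
      (∀ t : MvPolynomial ↥(s59t_goodB (N * ∏ j, qv j) B) 𝒪,
        t ∉ s59t_evalIdeal (fun x : ↥(s59t_goodB (N * ∏ j, qv j) B) =>
          s59t_cB (𝒪 := 𝒪) (N * ∏ j, qv j) (fun ℓ => W.apOfModel ℓ) x) →
        ∃ η : MvPolynomial ↥(s59t_goodB (N * ∏ j, qv j) B) 𝒪,
          s59t_actH (N * ∏ j, qv j) aq (dvd_refl _)
            (s59t_Hmul N (∏ j, qv j) H (s59t_KQ (p ^ n) qv))
            (s59t_jG 𝒪 (s59t_goodB (N * ∏ j, qv j) B) (η * t) *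
              (G * s59t_jG 𝒪 (s59t_goodB (N * ∏ j, qv j) B) e₀)) =
          s59t_actH (N * ∏ j, qv j) aq (dvd_refl _)
            (s59t_Hmul N (∏ j, qv j) H (s59t_KQ (p ^ n) qv))
            (G * s59t_jG 𝒪 (s59t_goodB (N * ∏ j, qv j) B) e₀)) ∧
      -- the Taylor–Wiles level `(N', H')`
      s59t_actH (N * ∏ j, qv j) aq (dvd_refl _) (s59t_Hmul N (∏ j, qv j) H (s59t_KQ (p ^ n) qv))
          (G * s59t_jG 𝒪 (s59t_goodB (N * ∏ j, qv j) B) e₀) *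
        s59t_actH (N * ∏ j, qv j) aq (dvd_refl _)
          (s59t_Hmul N (∏ j, qv j) H (s59t_KQ (p ^ n) qv))
          (G * s59t_jG 𝒪 (s59t_goodB (N * ∏ j, qv j) B) e₀) =
        s59t_actH (N * ∏ j, qv j) aq (dvd_refl _)
          (s59t_Hmul N (∏ j, qv j) H (s59t_KQ (p ^ n) qv))
          (G * s59t_jG 𝒪 (s59t_goodB (N * ∏ j, qv j) B) e₀) ∧
      (∀ x ∈ s59t_goodB (N * ∏ j, qv j) B, ∃ k : ℕ,
        ∀ y : s48h_Hpar 𝒪 (s48h_GammaH (N * ∏ j, qv j)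
          (s59t_Hmul N (∏ j, qv j) H (s59t_KQ (p ^ n) qv))) 𝒪,
        ((s59w_op (s59t_Hmul N (∏ j, qv j) H (s59t_KQ (p ^ n) qv)) 𝒪 x -
          s59t_cB (𝒪 := 𝒪) (N * ∏ j, qv j) (fun ℓ => W.apOfModel ℓ) x •
            (1 : Module.End 𝒪 (s48h_Hpar 𝒪 (s48h_GammaH (N * ∏ j, qv j)
              (s59t_Hmul N (∏ j, qv j) H (s59t_KQ (p ^ n) qv))) 𝒪))) ^ k)
          (s59t_actH (N * ∏ j, qv j) aq (dvd_refl _)
            (s59t_Hmul N (∏ j, qv j) H (s59t_KQ (p ^ n) qv))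
            (G * s59t_jG 𝒪 (s59t_goodB (N * ∏ j, qv j) B) e₀) y) ∈
          (maximalIdeal 𝒪 • ⊤ : Submodule 𝒪 (s48h_Hpar 𝒪 (s48h_GammaH (N * ∏ j, qv j)
              (s59t_Hmul N (∏ j, qv j) H (s59t_KQ (p ^ n) qv))) 𝒪))) ∧
      s59t_TWFull (s59t_Gamma0_anti (s59t_dvd_mul_left' N (∏ j, qv j)))
        (s59t_GammaHmul_le (N := N) (D := ∏ j, qv j) (H := H) (K := s59t_KQ (p ^ n) qv))
        (s59t_BQ N (∏ j, qv j) H (s59t_KQ (p ^ n) qv))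
        (s59t_CQ N (∏ j, qv j) H (s59t_KQ (p ^ n) qv))
        (s59t_E0 H B e)
        (s59t_actH (N * ∏ j, qv j) aq (dvd_refl _)
          (s59t_Hmul N (∏ j, qv j) H (s59t_KQ (p ^ n) qv))
          (G * s59t_jG 𝒪 (s59t_goodB (N * ∏ j, qv j) B) e₀)) ∧
      -- the type-1 level `(N', H₂')`, same polynomial
      s59t_actH (N * ∏ j, qv j) aq (dvd_refl _) (s59t_Hmul N (∏ j, qv j) ⊤ (s59t_KQ (p ^ n) qv))
          (G * s59t_jG 𝒪 (s59t_goodB (N * ∏ j, qv j) B) e₀) *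
        s59t_actH (N * ∏ j, qv j) aq (dvd_refl _)
          (s59t_Hmul N (∏ j, qv j) ⊤ (s59t_KQ (p ^ n) qv))
          (G * s59t_jG 𝒪 (s59t_goodB (N * ∏ j, qv j) B) e₀) =
        s59t_actH (N * ∏ j, qv j) aq (dvd_refl _)
          (s59t_Hmul N (∏ j, qv j) ⊤ (s59t_KQ (p ^ n) qv))
          (G * s59t_jG 𝒪 (s59t_goodB (N * ∏ j, qv j) B) e₀) ∧
      (∀ x ∈ s59t_goodB (N * ∏ j, qv j) B, ∃ k : ℕ,
        ∀ y : s48h_Hpar 𝒪 (s48h_GammaH (N * ∏ j, qv j)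
          (s59t_Hmul N (∏ j, qv j) ⊤ (s59t_KQ (p ^ n) qv))) 𝒪,
        ((s59w_op (s59t_Hmul N (∏ j, qv j) ⊤ (s59t_KQ (p ^ n) qv)) 𝒪 x -
          s59t_cB (𝒪 := 𝒪) (N * ∏ j, qv j) (fun ℓ => W.apOfModel ℓ) x •
            (1 : Module.End 𝒪 (s48h_Hpar 𝒪 (s48h_GammaH (N * ∏ j, qv j)
              (s59t_Hmul N (∏ j, qv j) ⊤ (s59t_KQ (p ^ n) qv))) 𝒪))) ^ k)
          (s59t_actH (N * ∏ j, qv j) aq (dvd_refl _)
            (s59t_Hmul N (∏ j, qv j) ⊤ (s59t_KQ (p ^ n) qv))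
            (G * s59t_jG 𝒪 (s59t_goodB (N * ∏ j, qv j) B) e₀) y) ∈
          (maximalIdeal 𝒪 • ⊤ : Submodule 𝒪 (s48h_Hpar 𝒪 (s48h_GammaH (N * ∏ j, qv j)
              (s59t_Hmul N (∏ j, qv j) ⊤ (s59t_KQ (p ^ n) qv))) 𝒪))) ∧
      s59t_TWFull (le_refl (Gamma0 (N * ∏ j, qv j)))
        (s59t_GammaH_mono (s59t_Hmul_le_top (N := N) (D := ∏ j, qv j) (H := H)
          (K := s59t_KQ (p ^ n) qv)))
        (s59t_CQ N (∏ j, qv j) H (s59t_KQ (p ^ n) qv))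
        (s59t_BQ N (∏ j, qv j) H (s59t_KQ (p ^ n) qv))
        (s59t_actH (N * ∏ j, qv j) aq (dvd_refl _)
          (s59t_Hmul N (∏ j, qv j) ⊤ (s59t_KQ (p ^ n) qv))
          (G * s59t_jG 𝒪 (s59t_goodB (N * ∏ j, qv j) B) e₀))
        (s59t_actH (N * ∏ j, qv j) aq (dvd_refl _)
          (s59t_Hmul N (∏ j, qv j) H (s59t_KQ (p ^ n) qv))
          (G * s59t_jG 𝒪 (s59t_goodB (N * ∏ j, qv j) B) e₀)) := by
  classical
  haveI : CharP (ResidueField 𝒪) p := s59e_charP_residue p hp𝒪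
  have hpP : p.Prime := Fact.out
  have hp2 : p ≠ 2 := s59e_auxTors_ne_two hp12
  have hq : ∀ i, (qv i).Prime := fun i => (hqv i).1
  have hqB : ∀ i, qv i ∉ B := fun i => (hqv i).2.1
  have hqp : ∀ j, qv j ≠ p := fun j h => hqB j (h ▸ hpB)
  obtain ⟨aq, bq, harith, hcong⟩ :=
    s59u_W_TW_arith_fam W hΔ p hirr B hpB hgood (𝒪 := 𝒪) hp𝒪 n qv hp2 hqinj hqv hTW
  refine ⟨aq, bq, harith, hcong, ?_⟩
  -- the level package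
  have hsq' := s59u_squarefree_level qv hsq hNB hq hqB hqinj
  have hcop := s59u_coprime_prod_qv qv hNB hq hqB
  obtain ⟨i₀, hi₀, hnE⟩ :=
    s59u_W_exists_nonEis_idx W hΔ p hp2 hirr (𝒪 := 𝒪) hp𝒪 B (N * ∏ j, qv j)
  refine s59e_aux_level_pkg p H B (fun ℓ => W.apOfModel ℓ) n qv hp12 hsq hsq' S37 hN1
    hnegH hp𝒪 hpB hH (s59u_W6 (dvd_refl N) H 𝒪 p hp𝒪 _ B hocc)
    (s59u_W6_G0 (dvd_refl N) 𝒪 p hp𝒪 _ B hocc) hcop hqinj hq aq bq harith i₀ hi₀ hnE ?_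
    e h1e hid hnil
  -- (TQ)
  intro M hM q hqL _ hqM e₀ h1e₀ hid₀ hnil₀
  obtain ⟨j, rfl⟩ : ∃ j, qv j = q := by
    rw [List.mem_ofFn] at hqL
    exact hqL
  exact s59b_TQ_good p hp2 hp𝒪 aq bq W hΔ (s59t_goodB (N * ∏ j, qv j) B)
    (s59t_cB (𝒪 := 𝒪) (N * ∏ j, qv j) (fun ℓ => W.apOfModel ℓ)) B
    (fun i hi => ⟨i, rfl, hi⟩)
    (fun i hi => by
      show ((W.apOfModel i.ell : ℤ) : 𝒪) - _ ∈ _
      rw [sub_self]
      exact Ideal.zero_mem _)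
    M hM e₀ hnil₀ (qv j) hqM (hqp j) (hgood _ (hq j) (hqB j)) (hcong j)

end WPkg

section Grp

variable (p : ℕ) [Fact p.Prime] (N : ℕ) [NeZero N] (hsq : Squarefree N)
  (B : Finset ℕ) (hNB : ∀ q : ℕ, q.Prime → q ∣ N → q ∈ B)
  (H : Subgroup (ZMod N)ˣ)
  (n : ℕ) {r : ℕ} (qv : Fin r → ℕ) [NeZero (∏ j, qv j)] [NeZero (N * ∏ j, qv j)]

end Grp

end Fermat.Agent.Lib.S59

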