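/-
Programme R2 (S59), node [LIFT-min] = FIN-L, `T`-side (helper5, prefix `s59e_`): **THE `T`-SIDE PACKAGE OF FIN-L FOR A GENERAL
SEMISTABLE `W`** (flat case `p ∤ N`, `p ≥ 5`, `2 ∣ N ∨ 3 ∣ N`): all the `T`-side inputs of helper4's `s59f_FINL_abs`
(FLiftT.lean) at the level `Γ₀(N)` (no auxiliary group `H₀`, no type `χ`).

* `D0`  : a universal ring of the flat type `Σ₀ = Rd.Smin ∪ (Bd ∪ Rd.Ed) ∪ ∅` (unipotent at `Rd.Smin`);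
* base  : `Y = ε H_par(Γ₀(N), 𝒪)` (`ε = s59t_E0 ⊤ B e`), `R = T_∅ = 𝒪[aM₀(𝕋)] ⊆ End_𝒪 Y` (helper6's (H3) `s59q_H3_RData` at
          `(N, ⊤)`, `Q = ∅`), `ν = θ₀ : D0.R ↠ R`, `ρR = D0.ρ ⊗_ν R` (type `𝒟₀` by `s59x_twType_baseChange`, `hresR` by
          Brauer–Nesbitt), `M = eig_{⊤,1}(Y)` (finite, nontrivial);
* level : `Y' = ε' H_par(Γ_{H'}(N ∏ qv), 𝒪)`, `H' = s59t_Hmul N (∏ qv) ⊤ (s59t_KQ (p^n) qv)`; `T′ = 𝒪[aM(𝕋)]`, `T = T′[B_Q]`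
          ((H3) at `(N ∏ qv, H')`, `Q = image qv`), the descent `ψ : T → R` (`s59n_descent_lvl`), [C8] with the inertia
          elements (`s59e_L_hC8_level`), and the level theorem `s59e_TLevelL_ring`.

* `s59e_TPkgL_level` : the level part, over explicit base data;
* `s59e_TPkgL` : `∃ Bs : s59e_TBaseL 𝒪 D0, ∀ n qv …, ∀ DQ, Nonempty (s59e_TLevelL 𝒪 p n r σ Bs.R Bs.M Bs.ρR Bs.d qv DQ)`.
-/
import Mathlib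
import Fermat.Agent.Lib.S59.LFinW1
import Fermat.Agent.Lib.S59.ETPkg
import Fermat.Agent.Lib.S59.EWRho
import Fermat.Agent.Lib.S59.EWBase
import Fermat.Agent.Lib.S59.EWPkg
import Fermat.Agent.Lib.S59.EAuxS37
import Fermat.Agent.Lib.S59.UWPkg
import Fermat.Agent.Lib.S59.ELC8b
import Fermat.Agent.Lib.S59.ELLvl
import Fermat.Agent.Lib.S59.XDefFlat
import Fermat.Agent.Lib.S59.BDQRes
import Fermat.Agent.Lib.S59.BBaseRes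

set_option autoImplicit false
set_option linter.unusedSectionVars false
set_option linter.unusedVariables false
set_option linter.style.haveILetI false
set_option maxHeartbeats 0
set_option synthInstance.maxHeartbeats 400000
set_option maxSynthPendingDepth 3

noncomputable section

namespace Fermat.Agent.Lib.S59

open IsLocalRing CuspForm Polynomial ExtCitation CongruenceSubgroup
open WeierstrassCurve WeierstrassCurve.Affine WeierstrassCurve.Affine.Point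
open Fermat.Agent.Lib.S48 Fermat.Agent.Lib.S44
open scoped MatrixGroups

local notation "Γℚ" => (AlgebraicClosure ℚ ≃ₐ[ℚ] AlgebraicClosure ℚ)

/-- the range of a nonzero endomorphism is nontrivial. -/
theorem s59e_L_range_nontrivial {R M : Type*} [Semiring R] [AddCommMonoid M] [Module R M]
    (f : M →ₗ[R] M) (hf : f ≠ 0) : Nontrivial (LinearMap.range f) := by
  by_contra hnt
  rw [not_nontrivial_iff_subsingleton] at hnt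
  apply hf
  refine LinearMap.ext fun y => ?_
  have h0 : (⟨f y, ⟨y, rfl⟩⟩ : LinearMap.range f) = 0 := Subsingleton.elim _ _
  exact congrArg Subtype.val h0

/-- **the level part of the `T`-side package of FIN-L**, over explicit base data at `(N, ⊤)`. -/
theorem s59e_TPkgL_level (p : ℕ) [Fact p.Prime] (hp5 : 5 ≤ p) (W : WeierstrassCurve ℤ) (hΔ : W.Δ ≠ 0)
    (N : ℕ) [NeZero N] (Bd B : Finset ℕ)
    (hirr : W.ModRepIsIrreducible p) (hsq : Squarefree N) (hpN : ¬ p ∣ N)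
    (hB1 : ∀ r : ℕ, r.Prime → r ∣ N * p → r ∈ B)
    (hB2 : ∀ r : ℕ, r.Prime → ¬ W.IsGoodPrimeFor r → r ∈ B)
    (hocc : s44i_LevelOcc N p (fun ℓ => W.apOfModel ℓ) B)
    (h23 : 2 ∣ N ∨ 3 ∣ N)
    (𝒪 : Type) [CommRing 𝒪] [IsDomain 𝒪] [IsDiscreteValuationRing 𝒪]
    [IsAdicComplete (maximalIdeal 𝒪) 𝒪] [Finite (ResidueField 𝒪)] [CharZero 𝒪]
    [Algebra ℤ_[p] 𝒪] [Module.Finite ℤ_[p] 𝒪]
    (hp𝒪 : ((p : ℕ) : 𝒪) ∈ maximalIdeal 𝒪)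
    (Rd : s59i_RData p N (s59i_rhobarW W p hΔ 𝒪 hp𝒪) B Bd)
    (r : ℕ) (σ : Type) [DecidableEq σ] [Fintype σ]
    -- the base data
    (e : MvPolynomial ↥(s59t_goodB N B) 𝒪)
    (h1e : 1 - e ∈ s59t_evalIdeal (fun x : ↥(s59t_goodB N B) =>
      s59t_cB (𝒪 := 𝒪) N (fun ℓ => W.apOfModel ℓ) (x : s59w_AIdx N)))
    (hid : (s59t_E0 (⊤ : Subgroup (ZMod N)ˣ) B e) * (s59t_E0 (⊤ : Subgroup (ZMod N)ˣ) B e) = (s59t_E0 (⊤ : Subgroup (ZMod N)ˣ) B e))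
    (hnil : ∀ x ∈ s59t_goodB N B, ∃ k : ℕ,
      ∀ y : s48h_Hpar 𝒪 (s48h_GammaH N (⊤ : Subgroup (ZMod N)ˣ)) 𝒪,
      ((s59w_op (⊤ : Subgroup (ZMod N)ˣ) 𝒪 x - s59t_cB (𝒪 := 𝒪) N (fun ℓ => W.apOfModel ℓ) x •
        (1 : Module.End 𝒪 (s48h_Hpar 𝒪 (s48h_GammaH N (⊤ : Subgroup (ZMod N)ˣ)) 𝒪))) ^ k)
        ((s59t_E0 (⊤ : Subgroup (ZMod N)ˣ) B e) y) ∈
        (maximalIdeal 𝒪 • ⊤ :
          Submodule 𝒪 (s48h_Hpar 𝒪 (s48h_GammaH N (⊤ : Subgroup (ZMod N)ˣ)) 𝒪)))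
    (hρ : ∀ δ y, (s59t_E0 (⊤ : Subgroup (ZMod N)ˣ) B e) (s59t_rho N (⊤ : Subgroup (ZMod N)ˣ) 𝒪 𝒪 δ y) = s59t_rho N (⊤ : Subgroup (ZMod N)ˣ) 𝒪 𝒪 δ ((s59t_E0 (⊤ : Subgroup (ZMod N)ˣ) B e) y))
    (d : ℕ) (hd0 : d ≠ 0)
    (b0 : Fin d → LinearMap.range (s59t_E0 (⊤ : Subgroup (ZMod N)ˣ) B e))
    (hb0 : Function.Bijective (s59t_evalMap (s59t_partRep (s59t_rho N (⊤ : Subgroup (ZMod N)ˣ) 𝒪 𝒪) hρ) b0))
    (a₀ : heckeAlgebra N 2 (↑B : Set ℕ) →+*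
      Module.End 𝒪 (s48h_Hpar 𝒪 (s48h_GammaH N (⊤ : Subgroup (ZMod N)ˣ)) 𝒪))
    (ha1₀ : ∀ (ℓ : ℕ) (hℓ : ℓ.Prime) (hℓN : ¬ ℓ ∣ N) (hℓS : ℓ ∉ (↑B : Set ℕ)) (i : s59w_TIdx N),
      i.ell = ℓ → a₀ (heckeAlgebra.T hℓ hℓN hℓS) = s59e_Tp' (⊤ : Subgroup (ZMod N)ˣ) 𝒪 ((p ^ 0 - 1) * ((p ^ 0 + 1) / 2)) i)
    (aM₀ : heckeAlgebra N 2 (↑B : Set ℕ) →+* Module.End 𝒪 (LinearMap.range (s59t_E0 (⊤ : Subgroup (ZMod N)ˣ) B e)))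
    (haM₀ : ∀ t (z : LinearMap.range (s59t_E0 (⊤ : Subgroup (ZMod N)ˣ) B e)), ((aM₀ t z : LinearMap.range (s59t_E0 (⊤ : Subgroup (ZMod N)ˣ) B e)) :
      s48h_Hpar 𝒪 (s48h_GammaH N (⊤ : Subgroup (ZMod N)ˣ)) 𝒪) =
        a₀ t (z : s48h_Hpar 𝒪 (s48h_GammaH N (⊤ : Subgroup (ZMod N)ˣ)) 𝒪))
    [IsLocalRing (s59e_adj 𝒪 aM₀)] [IsNoetherianRing (s59e_adj 𝒪 aM₀)]
    [Module.Finite 𝒪 (s59e_adj 𝒪 aM₀)]
    (hRρ : ∀ (t : s59e_adj 𝒪 aM₀) (δ : s59t_Delta N (⊤ : Subgroup (ZMod N)ˣ)) (y : LinearMap.range (s59t_E0 (⊤ : Subgroup (ZMod N)ˣ) B e)),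
      t • (s59t_partRep (s59t_rho N (⊤ : Subgroup (ZMod N)ˣ) 𝒪 𝒪) hρ) δ y = (s59t_partRep (s59t_rho N (⊤ : Subgroup (ZMod N)ˣ) 𝒪 𝒪) hρ) δ (t • y))
    (ρR : GaloisRepAdic (s59e_adj 𝒪 aM₀))
    (hfrobR : ∀ (ℓ : ℕ), ℓ.Prime → ¬ ℓ ∣ N → ℓ ∉ (↑B : Set ℕ) →
      ∀ A : ValuationSubring (AlgebraicClosure ℚ), A.LiesOverPrime ℓ →
      ∀ g : Γℚ, A.IsFrobeniusAt g ℓ →
        LinearMap.charpoly (ρR.ρ g) =
          Polynomial.X ^ 2 - Polynomial.C (s59e_tOf (↑B : Set ℕ) aM₀ ℓ) * Polynomial.X +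
            Polynomial.C ((ℓ : s59e_adj 𝒪 aM₀)))
    (hgenR : Algebra.adjoin 𝒪 {x : s59e_adj 𝒪 aM₀ | ∃ ℓ : ℕ, ℓ.Prime ∧ ¬ ℓ ∣ N ∧
      ℓ ∉ (↑B : Set ℕ) ∧ x = s59e_tOf (↑B : Set ℕ) aM₀ ℓ} = ⊤)
    -- the level
    (n : ℕ) (qv : Fin r → ℕ) (hqinj : Function.Injective qv)
    (hqv : ∀ i, (qv i).Prime ∧ qv i ∉ B ∧ p ^ (n + 1) ∣ qv i - 1)
    (hTW : ∀ i, ∀ A : ValuationSubring (AlgebraicClosure ℚ), A.LiesOverPrime (qv i) →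
      ∀ φ : Γℚ, A.IsFrobeniusAt φ (qv i) →
        ∃ α β : ResidueField 𝒪, α ≠ β ∧
          LinearMap.charpoly ((s59i_rhobarW W p hΔ 𝒪 hp𝒪).ρ φ) = (X - C α) * (X - C β))
    (DQ : GaloisRep.DeformationRingData 𝒪 (s59i_rhobarW W p hΔ 𝒪 hp𝒪) (fun _A _ _ _ ρ =>
      GaloisRep.flatCondition 𝒪 p (Rd.Smin ∪ (Bd ∪ Rd.Ed) ∪ Finset.univ.image qv) ρ ∧
        ∀ q ∈ Rd.Smin, q.Prime → q ≠ p → ρ.IsUnipotentOnInertiaAt q)) :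
    Nonempty (s59e_TLevelL 𝒪 p n r σ (s59e_adj 𝒪 aM₀)
      (s59t_EigT (s59t_partRep (s59t_rho N (⊤ : Subgroup (ZMod N)ˣ) 𝒪 𝒪) hρ) ⊤ (1 : s59t_Delta N (⊤ : Subgroup (ZMod N)ˣ) →* 𝒪ˣ) hRρ) ρR d qv DQ) := by
  classical
  have hpP : p.Prime := Fact.out
  have hp2 : p ≠ 2 := by omega
  have htors : s59e_auxTors p N := s59e_auxTors_of_five_le hpP hp5 N
  have hN1 : 1 < N := by
    rcases h23 with h | h
    · have := Nat.le_of_dvd (Nat.pos_of_ne_zero (NeZero.ne N)) h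
      omega
    · have := Nat.le_of_dvd (Nat.pos_of_ne_zero (NeZero.ne N)) h
      omega
  have hgoodB : ∀ q : ℕ, q.Prime → q ∉ B → W.IsGoodPrimeFor q := by
    intro q hq hqB
    by_contra hbad
    exact hqB (hB2 q hq hbad)
  have hNB : ∀ q : ℕ, q.Prime → q ∣ N → q ∈ B := fun q hq h => hB1 q hq (Dvd.dvd.mul_right h p)
  have hpB : p ∈ B := hB1 p hpP (Dvd.intro_left N rfl)
  have hnegH : (-1 : (ZMod N)ˣ) ∈ (⊤ : Subgroup (ZMod N)ˣ) := Subgroup.mem_top _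
  have hH : ∀ u : (ZMod N)ˣ, ∃ k : ℕ, u ^ (p ^ k) ∈ (⊤ : Subgroup (ZMod N)ˣ) :=
    fun u => ⟨0, Subgroup.mem_top _⟩
  have hEigB : ∀ ℓ : ℕ, ℓ.Prime → ℓ ∉ B →
      ∀ A : ValuationSubring (AlgebraicClosure ℚ), A.LiesOverPrime ℓ →
      ∀ σ : Γℚ, A.IsFrobeniusAt σ ℓ →
        LinearMap.charpoly ((s59i_rhobarW W p hΔ 𝒪 hp𝒪).ρ σ) =
          X ^ 2 - C (residue 𝒪 ((W.apOfModel ℓ : ℤ) : 𝒪)) * X +
            C ((ℓ : ResidueField 𝒪)) := fun ℓ hℓ hℓS A hA σ hσ =>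
    s59e_rhobarW_charpoly_frob hΔ hp2 hirr hp𝒪 B hpB hB2 ℓ hℓ hℓS A hA σ hσ
  have hqvpr : ∀ i, (qv i).Prime := fun i => (hqv i).1
  haveI : NeZero (∏ j, qv j) := s59u_neZero_prod_qv qv hqvpr
  haveI : NeZero (N * ∏ j, qv j) := s59u_neZero_level qv N hqvpr
  obtain ⟨aq, bq, harith, haqbq, e₀, G, h1e₀, hunit', hid', hnil', hP1, -, -, -⟩ :=
    s59e_W_level_pkg W hΔ p hirr N hsq B hpB hNB hgoodB hocc hp𝒪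
      (⊤ : Subgroup (ZMod N)ˣ) hnegH hH n qv htors hN1
      (s59e_aux_S37H_pgroup hsq hN1 hnegH h23 htors hH) hqinj hqv hTW e h1e hid hnil
  obtain ⟨hCB, g, hcard, hgen, hord, hgloc⟩ :=
    s59u_W_level_grp p N hsq B hNB (⊤ : Subgroup (ZMod N)ˣ) n qv hqinj hqv
  -- the module side (P1)
  obtain ⟨hρ1, hρ', dn, bn, bn', π, hbn, hbn', hιinj, hιsurj, hιπ, hπsurj, hπker, hπdia, hπeq,
    ⟨h2, h3, h4⟩, -⟩ := hP1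
  have hdn : d = dn := (s59u_rank_unique _ bn hbn b0 hb0).symm
  subst hdn
  -- the module `Y' = ε' H_par` is finite free and nonzero
  let bZ := Module.Free.chooseBasis ℤ (s48h_M (s48h_GammaH (N * ∏ j, qv j) (s59t_Hmul N (∏ j, qv j) (⊤ : Subgroup (ZMod N)ˣ) (s59t_KQ (p ^ n) qv))))
  haveI : Module.Free 𝒪 (s48h_Hpar 𝒪 (s48h_GammaH (N * ∏ j, qv j) (s59t_Hmul N (∏ j, qv j) (⊤ : Subgroup (ZMod N)ˣ) (s59t_KQ (p ^ n) qv))) 𝒪) :=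
    Module.Free.of_basis (s59u_cB bZ 𝒪)
  haveI : Module.Finite 𝒪 (s48h_Hpar 𝒪 (s48h_GammaH (N * ∏ j, qv j) (s59t_Hmul N (∏ j, qv j) (⊤ : Subgroup (ZMod N)ˣ) (s59t_KQ (p ^ n) qv))) 𝒪) :=
    Module.Finite.of_basis (s59u_cB bZ 𝒪)
  haveI : Module.Finite 𝒪 (LinearMap.range (s59t_actH (N * ∏ j, qv j) aq (dvd_refl _) (s59t_Hmul N (∏ j, qv j) (⊤ : Subgroup (ZMod N)ˣ) (s59t_KQ (p ^ n) qv)) (G * s59t_jG 𝒪 (s59t_goodB (N * ∏ j, qv j) B) e₀))) := s59t_part_finite _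
  haveI : Module.Free 𝒪 (LinearMap.range (s59t_actH (N * ∏ j, qv j) aq (dvd_refl _) (s59t_Hmul N (∏ j, qv j) (⊤ : Subgroup (ZMod N)ˣ) (s59t_KQ (p ^ n) qv)) (G * s59t_jG 𝒪 (s59t_goodB (N * ∏ j, qv j) B) e₀))) := s59t_part_free hid'
  have hε'ne := (s59t_part_ne_zero_iff _ bn' hbn').2 hd0
  haveI : Nontrivial (LinearMap.range (s59t_actH (N * ∏ j, qv j) aq (dvd_refl _) (s59t_Hmul N (∏ j, qv j) (⊤ : Subgroup (ZMod N)ˣ) (s59t_KQ (p ^ n) qv)) (G * s59t_jG 𝒪 (s59t_goodB (N * ∏ j, qv j) B) e₀))) := s59e_L_range_nontrivial _ hε'ne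
  -- the numerology of the level
  have hqvN : ∀ i, ¬ qv i ∣ N := fun i h => (hqv i).2.1 (hNB _ (hqvpr i) h)
  have hMeq₂ := s59k_level_eq_top qv N hqinj
  have hD₂ : ∏ q ∈ Finset.univ.image qv, q ∣ N * ∏ i, qv i := Dvd.intro_left N hMeq₂.symm
  have hQ := s59k_hQ_top qv N hqvpr hqvN
  haveI : NeZero (N * ∏ q ∈ Finset.univ.image qv, q ^ 2) :=
    ⟨Nat.mul_ne_zero (NeZero.ne N) (Finset.prod_ne_zero_iff.mpr fun q hq =>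
      pow_ne_zero 2 (hQ q hq).1.ne_zero)⟩
  haveI : Fact (HasIntegralStructure (N * ∏ q ∈ Finset.univ.image qv, q ^ 2) 2) := ⟨Fermat.Agent.S23.result _⟩
  have hS₂ : ∀ q : ℕ, q.Prime → q ∣ (N * ∏ q ∈ Finset.univ.image qv, q ^ 2) → q ∈ (B ∪ Finset.univ.image qv) := by
    intro q hq hqM
    rcases (Nat.Prime.dvd_mul hq).mp hqM with h | h
    · exact Finset.mem_union_left _ (hNB q hq h)
    · obtain ⟨q', hq', hqq'⟩ := (Prime.dvd_finsetProd_iff (Nat.prime_iff.mp hq) _).mp h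
      obtain ⟨i, -, rfl⟩ := Finset.mem_image.mp hq'
      have hqe : q = qv i := (Nat.prime_dvd_prime_iff_eq hq (hqvpr i)).mp (hq.dvd_of_dvd_pow hqq')
      subst hqe
      exact Finset.mem_union_right _ (Finset.mem_image_of_mem qv (Finset.mem_univ i))
  have hMS : ∀ q : ℕ, q.Prime → q ∣ N * ∏ j, qv j → q ∈ (B ∪ Finset.univ.image qv) := by
    intro q hq hqM
    rcases (Nat.Prime.dvd_mul hq).mp hqM with h | h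
    · exact Finset.mem_union_left _ (hNB q hq h)
    · obtain ⟨i, -, hi⟩ := (Prime.dvd_finsetProd_iff (Nat.prime_iff.mp hq) _).mp h
      have hqe : q = qv i := (Nat.prime_dvd_prime_iff_eq hq (hqvpr i)).mp hi
      subst hqe
      exact Finset.mem_union_right _ (Finset.mem_image_of_mem qv (Finset.mem_univ i))
  have hpM' : ¬ p ∣ (N * ∏ q ∈ Finset.univ.image qv, q ^ 2) := by
    intro h
    rcases (Nat.Prime.dvd_mul hpP).mp h with h | h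
    · exact hpN h
    · obtain ⟨q', hq', hqq'⟩ := (Prime.dvd_finsetProd_iff (Nat.prime_iff.mp hpP) _).mp h
      obtain ⟨i, -, rfl⟩ := Finset.mem_image.mp hq'
      have hqe : p = qv i :=
        (Nat.prime_dvd_prime_iff_eq hpP (hqvpr i)).mp (hpP.dvd_of_dvd_pow hqq')
      exact (hqv i).2.1 (hqe ▸ hpB)
  have hX : ∀ q ∈ Finset.univ.image qv, q.Prime ∧ q ∉ B := by
    intro q hq
    obtain ⟨i, -, rfl⟩ := Finset.mem_image.mp hq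
    exact ⟨hqvpr i, (hqv i).2.1⟩
  have hnm := s59k_hnm_pow hpP hp2 (0 + n)
  have hn := s59k_ppow_mem_Hmul_top N qv p 0 n
  have hHker := s59k_hH_top qv N (p ^ n) hqinj rfl hD₂
  -- `ε'` commutes with the anemic generators
  have hεc' : ∀ jdx : s59w_AIdx (N * ∏ j, qv j),
      (s59t_actH (N * ∏ j, qv j) aq (dvd_refl _) (s59t_Hmul N (∏ j, qv j) (⊤ : Subgroup (ZMod N)ˣ) (s59t_KQ (p ^ n) qv)) (G * s59t_jG 𝒪 (s59t_goodB (N * ∏ j, qv j) B) e₀)) * s59w_op (s59t_Hmul N (∏ j, qv j) (⊤ : Subgroup (ZMod N)ˣ) (s59t_KQ (p ^ n) qv)) 𝒪 jdx = s59w_op (s59t_Hmul N (∏ j, qv j) (⊤ : Subgroup (ZMod N)ˣ) (s59t_KQ (p ^ n) qv)) 𝒪 jdx * (s59t_actH (N * ∏ j, qv j) aq (dvd_refl _) (s59t_Hmul N (∏ j, qv j) (⊤ : Subgroup (ZMod N)ˣ) (s59t_KQ (p ^ n) qv)) (G * s59t_jG 𝒪 (s59t_goodB (N * ∏ j, qv j) B) e₀)) :=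
    fun jdx => s59t_actH_comm_op _ aq _ jdx
  -- (B2) the Hecke ring at level `n`
  have hH3 := s59q_H3_RData Rd (fun ℓ => W.apOfModel ℓ) hp2 hp𝒪 N (Finset.univ.image qv)
    (s59t_Hmul N (∏ j, qv j) (⊤ : Subgroup (ZMod N)ˣ) (s59t_KQ (p ^ n) qv)) (N * ∏ q ∈ Finset.univ.image qv, q ^ 2) (B ∪ Finset.univ.image qv) (Finset.mem_union_left _ hpB) Finset.subset_union_left hpM' hQ hMeq₂ rfl hD₂
    hHker (0 + n) hn rfl hS₂ hsq (dvd_refl N) (Finset.univ.image qv) hX (fun q hq => Or.inr hq)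
    (s59t_actH (N * ∏ j, qv j) aq (dvd_refl _) (s59t_Hmul N (∏ j, qv j) (⊤ : Subgroup (ZMod N)ˣ) (s59t_KQ (p ^ n) qv)) (G * s59t_jG 𝒪 (s59t_goodB (N * ∏ j, qv j) B) e₀)) hid' hε'ne hεc' hnil'
    (fun ℓ hℓ hℓS => hEigB ℓ hℓ (fun h => hℓS (Finset.mem_union_left _ h))) DQ
  have hB2c : s59e_B2Concl (s59t_Hmul N (∏ j, qv j) (⊤ : Subgroup (ZMod N)ˣ) (s59t_KQ (p ^ n) qv)) (s59t_actH (N * ∏ j, qv j) aq (dvd_refl _) (s59t_Hmul N (∏ j, qv j) (⊤ : Subgroup (ZMod N)ˣ) (s59t_KQ (p ^ n) qv)) (G * s59t_jG 𝒪 (s59t_goodB (N * ∏ j, qv j) B) e₀)) (N * ∏ q ∈ Finset.univ.image qv, q ^ 2) (B ∪ Finset.univ.image qv) ((p ^ (0 + n) - 1) * ((p ^ (0 + n) + 1) / 2)) (fun ℓ => ((W.apOfModel ℓ : ℤ) : 𝒪)) DQ :=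
    Exists.elim hH3 fun a' h' =>
      s59e_B2Concl_of_H3Out _ _ _ _ _ (fun ℓ => W.apOfModel ℓ) hS₂ DQ a' h'.1 h'.2.1 h'.2.2
  obtain ⟨a, aM, ha1, ha2, haM, hlocA, hlr, θ, hθ, hfrobT, hcong⟩ := hB2c
  have hFa : ∀ t δ, Commute (aM t) ((s59t_partRep (s59t_rho (N * ∏ j, qv j) _ 𝒪 𝒪) hρ') δ) :=
    s59e_hFa_part _ _ hρ' a _ ha2 aM haM
  have hcomm : ∀ (t : heckeAlgebra (N * ∏ q ∈ Finset.univ.image qv, q ^ 2) 2 (↑(B ∪ Finset.univ.image qv) : Set ℕ)) (β : (s59t_BQ N (∏ j, qv j) (⊤ : Subgroup (ZMod N)ˣ) (s59t_KQ (p ^ n) qv))),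
      Commute (aM t) (((s59t_partRep (s59t_rho (N * ∏ j, qv j) _ 𝒪 𝒪) hρ').comp (s59t_BQ N (∏ j, qv j) (⊤ : Subgroup (ZMod N)ˣ) (s59t_KQ (p ^ n) qv)).subtype) β) :=
    fun t β => hFa t β
  haveI : IsLocalRing (s59e_adj 𝒪 aM) := hlr
  have hTρ : ∀ (t : s59e_adj 𝒪 (s59e_aB aM _ hcomm)) δ y,
      t • (s59t_partRep (s59t_rho (N * ∏ j, qv j) _ 𝒪 𝒪) hρ') δ y = (s59t_partRep (s59t_rho (N * ∏ j, qv j) _ 𝒪 𝒪) hρ') δ (t • y) := fun t δ y =>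
    s59e_hTρ aM _ hcomm ((s59t_partRep (s59t_rho (N * ∏ j, qv j) _ 𝒪 𝒪) hρ') δ)
      (fun s => hFa s δ) (fun β => (Commute.all (β : s59t_Delta (N * ∏ j, qv j) _) δ).map
        (s59t_partRep (s59t_rho (N * ∏ j, qv j) _ 𝒪 𝒪) hρ')) t y
  -- (B3) the descent
  have hB3 := s59n_descent_lvl (s59t_dvd_mul_left' N (∏ j, qv j))
    (s59t_Gamma0_anti (s59t_dvd_mul_left' N (∏ j, qv j)))
    (s59t_GammaHmul_le (N := N) (D := ∏ j, qv j) (H := (⊤ : Subgroup (ZMod N)ˣ)) (K := s59t_KQ (p ^ n) qv))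
    (s59t_E0 (⊤ : Subgroup (ZMod N)ˣ) B e) (s59t_actH (N * ∏ j, qv j) aq (dvd_refl _) (s59t_Hmul N (∏ j, qv j) (⊤ : Subgroup (ZMod N)ˣ) (s59t_KQ (p ^ n) qv)) (G * s59t_jG 𝒪 (s59t_goodB (N * ∏ j, qv j) B) e₀)) (fun jdx => s59e_E0_comm_op _ B e jdx) hεc' hρ hρ' π hπsurj hπdia hπeq
    (N * ∏ q ∈ Finset.univ.image qv, q ^ 2) (B ∪ Finset.univ.image qv)
    (hMeq₂ ▸ Nat.mul_dvd_mul_left _ (Finset.prod_dvd_prod_of_dvd _ _ fun q _ =>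
      Dvd.intro _ (pow_two q).symm))
    a ((p ^ (0 + n) - 1) * ((p ^ (0 + n) + 1) / 2)) ha1 aM haM N B a₀ ((p ^ 0 - 1) * ((p ^ 0 + 1) / 2)) ha1₀ aM₀ haM₀ 1
    (fun u => Subgroup.mem_top _) (Nat.modEq_one) hS₂ (Dvd.intro _ rfl) Finset.subset_union_left
    (s59t_BQ N (∏ j, qv j) (⊤ : Subgroup (ZMod N)ˣ) (s59t_KQ (p ^ n) qv)) (fun β hβ => MonoidHom.mem_ker.mp hβ) hcomm
  obtain ⟨ψ, hπψ, hψd, hψt0⟩ := hB3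
  have hψt : ∀ ℓ : ℕ, ℓ.Prime → ℓ ∉ (B ∪ Finset.univ.image qv) →
      ψ (s59e_incl aM _ hcomm (s59e_tOf _ aM ℓ)) = s59e_tOf (↑B : Set ℕ) aM₀ ℓ := by
    intro ℓ hℓ hℓS
    have k1 : ¬ ℓ ∣ (N * ∏ q ∈ Finset.univ.image qv, q ^ 2) := fun h => hℓS (hS₂ ℓ hℓ h)
    have k2 : ℓ ∉ (↑(B ∪ Finset.univ.image qv) : Set ℕ) := fun h => hℓS (Finset.mem_coe.mp h)
    have k4 : ℓ ∉ (↑B : Set ℕ) := fun h => hℓS (Finset.mem_union_left _ (Finset.mem_coe.mp h))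
    have k3 : ¬ ℓ ∣ N := fun h => k4 (Finset.mem_coe.mpr (hNB ℓ hℓ h))
    exact (congrArg (fun x => ψ (s59e_incl aM _ hcomm x)) (s59e_tOf_eq _ aM hℓ k1 k2)).trans
      ((hψt0 ℓ hℓ k1 k2 k3 k4).trans (s59e_tOf_eq _ aM₀ hℓ k3 k4).symm)
  -- `hC8`, with the inertia elements
  have hC8 := s59e_L_hC8_level (s59t_Hmul N (∏ j, qv j) (⊤ : Subgroup (ZMod N)ˣ) (s59t_KQ (p ^ n) qv)) (s59t_actH (N * ∏ j, qv j) aq (dvd_refl _) (s59t_Hmul N (∏ j, qv j) (⊤ : Subgroup (ZMod N)ˣ) (s59t_KQ (p ^ n) qv)) (G * s59t_jG 𝒪 (s59t_goodB (N * ∏ j, qv j) B) e₀)) (fun x y => LinearMap.congr_fun (hεc' x) y) hρ' a ((p ^ (0 + n) - 1) * ((p ^ (0 + n) + 1) / 2)) ha2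
    aM haM (s59t_BQ N (∏ j, qv j) (⊤ : Subgroup (ZMod N)ˣ) (s59t_KQ (p ^ n) qv)) (s59t_CQ N (∏ j, qv j) (⊤ : Subgroup (ZMod N)ˣ) (s59t_KQ (p ^ n) qv)) (1 : s59t_Delta (N * ∏ j, qv j) (s59t_Hmul N (∏ j, qv j) (⊤ : Subgroup (ZMod N)ˣ) (s59t_KQ (p ^ n) qv)) →* 𝒪ˣ) hcomm hTρ
    p hp5 W hΔ hirr B hpB hB2 N (Finset.univ.image qv) hMeq₂ hQ rfl hD₂ hHker
    (s59u_squarefree_level qv hsq hNB hqvpr (fun i => (hqv i).2.1) hqinj)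
    (h23.imp (fun h => Dvd.dvd.mul_right h _) (fun h => Dvd.dvd.mul_right h _))
    (s59k_neg_one_mem_Hmul_top N (p ^ n) qv (s59k_odd_pow hpP hp2 n))
    hnm hn rfl hp𝒪 (B ∪ Finset.univ.image qv) Finset.subset_union_left hMS DQ θ hθ (s59e_tOf _ aM)
    (s59e_htT'_part _ _ _ a _ ha1 aM haM hS₂) hfrobT hcong n qv hqv
    (fun i => Finset.mem_image_of_mem qv (Finset.mem_univ i)) hTW (s59t_qv_dvd_level qv N) g hgloc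
  exact s59e_TLevelL_ring r σ hp2 hp𝒪 DQ n (s59t_partRep (s59t_rho N (⊤ : Subgroup (ZMod N)ˣ) 𝒪 𝒪) hρ) (s59e_adj 𝒪 aM₀) hRρ ρR
    (s59e_tOf (↑B : Set ℕ) aM₀) hfrobR hgenR d
    (s59t_partRep (s59t_rho (N * ∏ j, qv j) _ 𝒪 𝒪) hρ') _ _ hCB bn' hbn' π aM hcomm hlocA hTρ h2 h3 h4 ψ hψd hπψ g hcard hgen hord θ hθ
    (B ∪ Finset.univ.image qv) (fun ℓ hℓ hℓS => ⟨fun h => hℓS (Finset.mem_union_left _ (hNB ℓ hℓ h)),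
      fun h => hℓS (Finset.mem_union_left _ (by exact_mod_cast h))⟩)
    (s59e_tOf _ aM) hfrobT hψt qv hC8

/-- **the `T`-side package of FIN-L for a general semistable `W`** (`p ≥ 5`, `p ∤ N`, `2 ∣ N ∨ 3 ∣ N`). -/
theorem s59e_TPkgL (p : ℕ) [Fact p.Prime] (hp5 : 5 ≤ p) (W : WeierstrassCurve ℤ) (hΔ : W.Δ ≠ 0)
    (N : ℕ) [NeZero N] (Bd B : Finset ℕ)
    (hirr : W.ModRepIsIrreducible p) (hsq : Squarefree N) (hpN : ¬ p ∣ N)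
    (hB1 : ∀ r : ℕ, r.Prime → r ∣ N * p → r ∈ B)
    (hB2 : ∀ r : ℕ, r.Prime → ¬ W.IsGoodPrimeFor r → r ∈ B)
    (hocc : s44i_LevelOcc N p (fun ℓ => W.apOfModel ℓ) B)
    (h23 : 2 ∣ N ∨ 3 ∣ N)
    (𝒪 : Type) [CommRing 𝒪] [IsDomain 𝒪] [IsDiscreteValuationRing 𝒪]
    [IsAdicComplete (maximalIdeal 𝒪) 𝒪] [Finite (ResidueField 𝒪)] [CharZero 𝒪]
    [Algebra ℤ_[p] 𝒪] [Module.Finite ℤ_[p] 𝒪]
    (hp𝒪 : ((p : ℕ) : 𝒪) ∈ maximalIdeal 𝒪)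
    (Rd : s59i_RData p N (s59i_rhobarW W p hΔ 𝒪 hp𝒪) B Bd)
    (D0 : GaloisRep.DeformationRingData 𝒪 (s59i_rhobarW W p hΔ 𝒪 hp𝒪) (fun _A _ _ _ ρ =>
      GaloisRep.flatCondition 𝒪 p (Rd.Smin ∪ (Bd ∪ Rd.Ed) ∪ (∅ : Finset ℕ)) ρ ∧
        ∀ q ∈ Rd.Smin, q.Prime → q ≠ p → ρ.IsUnipotentOnInertiaAt q))
    (r : ℕ) (σ : Type) [DecidableEq σ] [Fintype σ] :
    ∃ Bs : s59e_TBaseL 𝒪 D0,
      ∀ (n : ℕ) (qv : Fin r → ℕ), Function.Injective qv →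
        (∀ i, (qv i).Prime ∧ qv i ∉ B ∧ p ^ (n + 1) ∣ qv i - 1) →
        (∀ i, ∀ A : ValuationSubring (AlgebraicClosure ℚ), A.LiesOverPrime (qv i) →
          ∀ φ : Γℚ, A.IsFrobeniusAt φ (qv i) →
            ∃ α β : ResidueField 𝒪, α ≠ β ∧
              LinearMap.charpoly ((s59i_rhobarW W p hΔ 𝒪 hp𝒪).ρ φ) = (X - C α) * (X - C β)) →
        ∀ DQ : GaloisRep.DeformationRingData 𝒪 (s59i_rhobarW W p hΔ 𝒪 hp𝒪) (fun _A _ _ _ ρ =>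
          GaloisRep.flatCondition 𝒪 p (Rd.Smin ∪ (Bd ∪ Rd.Ed) ∪ Finset.univ.image qv) ρ ∧
            ∀ q ∈ Rd.Smin, q.Prime → q ≠ p → ρ.IsUnipotentOnInertiaAt q),
          Nonempty (s59e_TLevelL 𝒪 p n r σ Bs.R Bs.M Bs.ρR Bs.d qv DQ) := by
  classical
  have hpP : p.Prime := Fact.out
  have hp2 : p ≠ 2 := by omega
  have htors : s59e_auxTors p N := s59e_auxTors_of_five_le hpP hp5 N
  have hNB : ∀ q : ℕ, q.Prime → q ∣ N → q ∈ B := fun q hq h => hB1 q hq (Dvd.dvd.mul_right h p)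
  have hpB : p ∈ B := hB1 p hpP (Dvd.intro_left N rfl)
  have hnegH : (-1 : (ZMod N)ˣ) ∈ (⊤ : Subgroup (ZMod N)ˣ) := Subgroup.mem_top _
  have hH : ∀ u : (ZMod N)ˣ, ∃ k : ℕ, u ^ (p ^ k) ∈ (⊤ : Subgroup (ZMod N)ˣ) :=
    fun u => ⟨0, Subgroup.mem_top _⟩
  have hEigB : ∀ ℓ : ℕ, ℓ.Prime → ℓ ∉ B →
      ∀ A : ValuationSubring (AlgebraicClosure ℚ), A.LiesOverPrime ℓ →
      ∀ σ : Γℚ, A.IsFrobeniusAt σ ℓ →
        LinearMap.charpoly ((s59i_rhobarW W p hΔ 𝒪 hp𝒪).ρ σ) =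
          X ^ 2 - C (residue 𝒪 ((W.apOfModel ℓ : ℤ) : 𝒪)) * X +
            C ((ℓ : ResidueField 𝒪)) := fun ℓ hℓ hℓS A hA σ hσ =>
    s59e_rhobarW_charpoly_frob hΔ hp2 hirr hp𝒪 B hpB hB2 ℓ hℓ hℓS A hA σ hσ
  -- the base package at `(N, ⊤)`
  obtain ⟨e, h1e, hunit, hid, hne, hnil, -, -, -, hP3⟩ :=
    s59e_W_base_pkg W hΔ p hirr N hsq B hocc (𝒪 := 𝒪) hp𝒪
      (⊤ : Subgroup (ZMod N)ˣ) hnegH hH htors
  obtain ⟨-, hρ, d, -, b0, -, -, hb0, -⟩ := hP3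
  have hd0 : d ≠ 0 := (s59t_part_ne_zero_iff _ b0 hb0).1 hne
  haveI hYnt : Nontrivial (LinearMap.range (s59t_E0 (⊤ : Subgroup (ZMod N)ˣ) B e)) := s59e_L_range_nontrivial _ hne
  -- (B2) at the base level
  haveI : Fact (HasIntegralStructure N 2) := ⟨Fermat.Agent.S23.result N⟩
  have hH3₀ := s59q_H3_RData Rd (fun ℓ => W.apOfModel ℓ) hp2 hp𝒪 N (∅ : Finset ℕ)
    (⊤ : Subgroup (ZMod N)ˣ) N B hpB (Finset.Subset.refl B) hpN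
    (fun q hq => absurd hq (Finset.notMem_empty q))
    (by rw [Finset.prod_empty, mul_one]) (D := 1) (by rw [Finset.prod_empty]) (one_dvd N) le_top
    0 (fun u => Subgroup.mem_top _) (by rw [Finset.prod_empty, mul_one]) hNB hsq (dvd_refl N)
    (∅ : Finset ℕ) (fun q hq => absurd hq (Finset.notMem_empty q))
    (fun q hq => absurd hq (Finset.notMem_empty q))
    (s59t_E0 (⊤ : Subgroup (ZMod N)ˣ) B e) hid hne (fun jdx => s59e_E0_comm_op _ B e jdx) hnil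
    hEigB D0
  have hB2₀ : s59e_B2Concl (⊤ : Subgroup (ZMod N)ˣ) (s59t_E0 (⊤ : Subgroup (ZMod N)ˣ) B e) N B
      ((p ^ 0 - 1) * ((p ^ 0 + 1) / 2)) (fun ℓ => ((W.apOfModel ℓ : ℤ) : 𝒪)) D0 :=
    Exists.elim hH3₀ fun a' h' =>
      s59e_B2Concl_of_H3Out _ _ _ _ _ (fun ℓ => W.apOfModel ℓ) hNB D0 a' h'.1 h'.2.1 h'.2.2
  obtain ⟨a₀, aM₀, ha1₀, ha2₀, haM₀, hlocA₀, hlr₀, θ₀, hθ₀, hfrob₀, hcong₀⟩ := hB2₀
  haveI : IsLocalRing (s59e_adj 𝒪 aM₀) := hlr₀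
  haveI hlh₀ : IsLocalHom (algebraMap 𝒪 (s59e_adj 𝒪 aM₀)) := s59e_adj_isLocalHom aM₀ hlocA₀
  -- freeness and finiteness of `Y`
  let bZ₀ := Module.Free.chooseBasis ℤ (s48h_M (s48h_GammaH N (⊤ : Subgroup (ZMod N)ˣ)))
  haveI : Module.Free 𝒪 (s48h_Hpar 𝒪 (s48h_GammaH N (⊤ : Subgroup (ZMod N)ˣ)) 𝒪) :=
    Module.Free.of_basis (s59u_cB bZ₀ 𝒪)
  haveI : Module.Finite 𝒪 (s48h_Hpar 𝒪 (s48h_GammaH N (⊤ : Subgroup (ZMod N)ˣ)) 𝒪) :=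
    Module.Finite.of_basis (s59u_cB bZ₀ 𝒪)
  haveI hfin₀ : Module.Finite 𝒪 (LinearMap.range (s59t_E0 (⊤ : Subgroup (ZMod N)ˣ) B e)) :=
    s59t_part_finite _
  haveI hfree₀ : Module.Free 𝒪 (LinearMap.range (s59t_E0 (⊤ : Subgroup (ZMod N)ˣ) B e)) :=
    s59t_part_free hid
  haveI hnoeth₀ : IsNoetherianRing (s59e_adj 𝒪 aM₀) := s59e_adj_noeth aM₀
  haveI hcompl₀ : IsAdicComplete (maximalIdeal (s59e_adj 𝒪 aM₀)) (s59e_adj 𝒪 aM₀) :=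
    s59e_adj_complete aM₀
  haveI hfinR₀ : Module.Finite 𝒪 (s59e_adj 𝒪 aM₀) := s59e_adj_finite aM₀
  have hT'₀ : Fermat.Agent.Lib.Deform.IsTestAlgebra 𝒪 (s59e_adj 𝒪 aM₀) :=
    s59e_testAlgebra aM₀ AlgEquiv.refl hlocA₀
  -- the diamonds commute with the Hecke ring
  have hFa₀ : ∀ t δ, Commute (aM₀ t) ((s59t_partRep (s59t_rho N (⊤ : Subgroup (ZMod N)ˣ) 𝒪 𝒪) hρ) δ) :=
    s59e_hFa_part _ _ hρ a₀ _ ha2₀ aM₀ haM₀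
  have hRρ : ∀ (t : s59e_adj 𝒪 aM₀) (δ : s59t_Delta N (⊤ : Subgroup (ZMod N)ˣ))
      (y : LinearMap.range (s59t_E0 (⊤ : Subgroup (ZMod N)ˣ) B e)),
      t • (s59t_partRep (s59t_rho N (⊤ : Subgroup (ZMod N)ˣ) 𝒪 𝒪) hρ) δ y = (s59t_partRep (s59t_rho N (⊤ : Subgroup (ZMod N)ˣ) 𝒪 𝒪) hρ) δ (t • y) := by
    intro t δ y
    have h := s59e_adj_commute_rho (𝒪 := 𝒪) aM₀ (s59t_partRep (s59t_rho N (⊤ : Subgroup (ZMod N)ˣ) 𝒪 𝒪) hρ) hFa₀ t.2 δ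
    exact LinearMap.congr_fun h.eq y
  -- the module `M`
  have hMnt := s59u_EigT_top_nontrivial _ b0 hb0 hd0 (1 : s59t_Delta N (⊤ : Subgroup (ZMod N)ˣ) →* 𝒪ˣ)
    hRρ
  have hMfin : Module.Finite (s59e_adj 𝒪 aM₀) (s59t_EigT _ ⊤
      (1 : s59t_Delta N (⊤ : Subgroup (ZMod N)ˣ) →* 𝒪ˣ) hRρ) := by
    haveI : IsNoetherian 𝒪 (LinearMap.range (s59t_E0 (⊤ : Subgroup (ZMod N)ˣ) B e)) :=
      isNoetherian_of_isNoetherianRing_of_finite 𝒪 _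
    haveI : Module.Finite 𝒪 (s59t_EigT _ ⊤
        (1 : s59t_Delta N (⊤ : Subgroup (ZMod N)ˣ) →* 𝒪ˣ) hRρ) :=
      Module.Finite.of_injective (s59t_EigT_val _ ⊤ _ hRρ) (s59t_EigT_val_injective _ ⊤ _ hRρ)
    exact Module.Finite.of_restrictScalars_finite 𝒪 _ _
  -- the Galois representation over `R`
  have hθ₀l : IsLocalHom (θ₀ : D0.R →+* s59e_adj 𝒪 aM₀) := IsLocalHom.of_surjective _ hθ₀
  have hfrobR : ∀ (ℓ : ℕ), ℓ.Prime → ¬ ℓ ∣ N → ℓ ∉ (↑B : Set ℕ) →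
      ∀ A : ValuationSubring (AlgebraicClosure ℚ), A.LiesOverPrime ℓ →
      ∀ g : Γℚ, A.IsFrobeniusAt g ℓ →
        LinearMap.charpoly ((D0.ρ.baseChangeAlong (θ₀ : D0.R →+* s59e_adj 𝒪 aM₀) hθ₀l).ρ g) =
          Polynomial.X ^ 2 - Polynomial.C (s59e_tOf (↑B : Set ℕ) aM₀ ℓ) * Polynomial.X +
            Polynomial.C ((ℓ : s59e_adj 𝒪 aM₀)) := by
    intro ℓ hℓ hℓN hℓB A hA g hg
    rw [s59e_bc_charpoly]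
    exact hfrob₀ ℓ hℓ (fun h => hℓB (Finset.mem_coe.mpr h)) A hA g hg
  have hpR : ((p : ℕ) : s59e_adj 𝒪 aM₀) ∈ maximalIdeal (s59e_adj 𝒪 aM₀) := by
    have := map_nonunit (algebraMap 𝒪 (s59e_adj 𝒪 aM₀)) ((p : ℕ) : 𝒪) hp𝒪
    rwa [map_natCast] at this
  have hresR := s59b_hres_of_frob p hp2 hpR
    (D0.ρ.baseChangeAlong (θ₀ : D0.R →+* s59e_adj 𝒪 aM₀) hθ₀l)
    (s59e_bc_absIrr (θ₀ : D0.R →+* s59e_adj 𝒪 aM₀) hθ₀l D0.ρ (s59b_DQ_residual_absIrr D0)) B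
    (s59e_tOf (↑B : Set ℕ) aM₀) (fun ℓ => ((W.apOfModel ℓ : ℤ) : 𝒪))
    (fun ℓ hℓ hℓB A hA g hg => hfrobR ℓ hℓ (fun h => hℓB (hNB ℓ hℓ h))
      (fun h => hℓB (Finset.mem_coe.mp h)) A hA g hg)
    hcong₀ (s59i_rhobarW W p hΔ 𝒪 hp𝒪) hEigB
  have hρR0 : (GaloisRep.flatCondition 𝒪 p (Rd.Smin ∪ (Bd ∪ Rd.Ed) ∪ (∅ : Finset ℕ))
      (D0.ρ.baseChangeAlong (θ₀ : D0.R →+* s59e_adj 𝒪 aM₀) hθ₀l) ∧
      ∀ q ∈ Rd.Smin, q.Prime → q ≠ p →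
        (D0.ρ.baseChangeAlong (θ₀ : D0.R →+* s59e_adj 𝒪 aM₀) hθ₀l).IsUnipotentOnInertiaAt q) := by
    haveI : Finite (ResidueField (s59e_adj 𝒪 aM₀)) := hT'₀.finite_residueField
    exact s59x_twType_baseChange (𝒪 := 𝒪) (s59x_locCond_flat p) _ Rd.Smin
      (θ₀ : D0.R →+* s59e_adj 𝒪 aM₀) hθ₀l inferInstance D0.ρ D0.isOfType
  have hgenR : Algebra.adjoin 𝒪 {x : s59e_adj 𝒪 aM₀ | ∃ ℓ : ℕ, ℓ.Prime ∧ ¬ ℓ ∣ N ∧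
      ℓ ∉ (↑B : Set ℕ) ∧ x = s59e_tOf (↑B : Set ℕ) aM₀ ℓ} = ⊤ :=
    s59b_adjoin_tOf B hNB aM₀ N (dvd_refl N)
  refine ⟨{
    R := s59e_adj 𝒪 aM₀
    hRres := hT'₀.residue_surjective
    M := s59t_EigT (s59t_partRep (s59t_rho N (⊤ : Subgroup (ZMod N)ˣ) 𝒪 𝒪) hρ) ⊤
      (1 : s59t_Delta N (⊤ : Subgroup (ZMod N)ˣ) →* 𝒪ˣ) hRρ
    iM3 := hMfin
    iM4 := hMnt
    ν := θ₀
    hνs := hθ₀
    ρR := D0.ρ.baseChangeAlong (θ₀ : D0.R →+* s59e_adj 𝒪 aM₀) hθ₀l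
    hν := fun g => (s59e_cpTr_map (θ₀ : D0.R →+* s59e_adj 𝒪 aM₀) hθ₀l D0.ρ g).symm
    hρR := hρR0
    hresR := hresR
    d := d }, ?_⟩
  -- the levels
  intro n qv hqinj hqv hTW DQ
  exact s59e_TPkgL_level p hp5 W hΔ N Bd B hirr hsq hpN hB1 hB2 hocc h23 𝒪 hp𝒪 Rd r σ e h1e hid
    hnil hρ d hd0 b0 hb0 a₀ ha1₀ aM₀ haM₀ hRρ _ hfrobR hgenR n qv hqinj hqv hTW DQ

end Fermat.Agent.Lib.S59
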