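/-
PROGRAMME (R2) = S59, case (P), item [P8-H] (helper7, prefix `s59x_`), file 1: **GLUE FOR A STABLE SUB-PART.**

`Y' = s59t_part ε'` the part of an idempotent `ε'` of `H_par(Γ_H(M), 𝒪)` commuting with all anemic operators (`hεop`) and the
diamonds (`hερ`); `P'` an endomorphism of `Y'` commuting with the diamond representation (`hP'`) whose part `Z' = s59t_part P'`
is STABLE under the anemic operators (`hZop`) — in case (P): `Z' = ker (cor_A, cor_B)`, which is a `Δ'`-summand of `Y'` but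
NOT the part of a Hecke-equivariant idempotent.  Twins, for `Z'`, of the glue facts of `ETLvlOps.lean` / `MC8Part.lean`:
* `s59x_jZ`, `s59x_jZ_injective`   : `j : Z' → H_par`;
* `s59x_opZ`, `s59x_opZ_coe`       : the anemic operators on `Z'`;
* `s59x_partRepZ_mk/_exists`       : every `ρ^Z δ` is a diamond operator;
* `s59x_hgl_Z`                     : locality of `uu i = s59t_hh p n g i` on `Z'` (the hypothesis `hgl` of `s59e_L_hC8_TPkg`);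
* `s59x_hFa_Z`                     : a Hecke action on `Z'` induced by `a` (values in the ring generated by the `T'_ℓ`) commutes
                                     with the diamonds;
* `s59x_htT'_Z`                    : `htT'` of `s59e_L_hC8_TPkg` on `Z'`.
-/
import Mathlib
import Fermat.Agent.Lib.S59.MC8Part
import Fermat.Agent.Lib.S59.ETLvlOps

set_option autoImplicit false
set_option linter.unusedSectionVars false
set_option linter.unusedVariables false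
set_option linter.style.haveILetI false
set_option synthInstance.maxHeartbeats 400000
set_option maxSynthPendingDepth 3
set_option maxHeartbeats 1600000

noncomputable section

namespace Fermat.Agent.Lib.S59

open Fermat.Agent.Lib.S48 CongruenceSubgroup CuspForm
open scoped MatrixGroups

section SubPart

variable {M : ℕ} [NeZero M] (H : Subgroup (ZMod M)ˣ) {𝒪 : Type} [CommRing 𝒪]
  (ε' : Module.End 𝒪 (s48h_Hpar 𝒪 (s48h_GammaH M H) 𝒪))
  (hεop : ∀ x y, ε' (s59w_op H 𝒪 x y) = s59w_op H 𝒪 x (ε' y))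
  (hερ : ∀ δ y, ε' (s59t_rho M H 𝒪 𝒪 δ y) = s59t_rho M H 𝒪 𝒪 δ (ε' y))
  (P' : Module.End 𝒪 (s59t_part ε'))
  (hP' : ∀ δ x, P' (s59t_partRep (s59t_rho M H 𝒪 𝒪) hερ δ x) =
    s59t_partRep (s59t_rho M H 𝒪 𝒪) hερ δ (P' x))
  (hZop : ∀ (x : s59w_AIdx M) (z : s59t_part ε'), z ∈ s59t_part P' →
    s59m_opPart H ε' hεop x z ∈ s59t_part P')

/-- the inclusion `Z' → H_par`. -/
def s59x_jZ : s59t_part P' →ₗ[𝒪] s48h_Hpar 𝒪 (s48h_GammaH M H) 𝒪 :=
  (s59t_part ε').subtype ∘ₗ (s59t_part P').subtype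

theorem s59x_jZ_apply (z : s59t_part P') :
    s59x_jZ H ε' P' z = ((z : s59t_part ε') : s48h_Hpar 𝒪 (s48h_GammaH M H) 𝒪) := rfl

theorem s59x_jZ_injective : Function.Injective (s59x_jZ H ε' P') := fun _ _ h =>
  Subtype.ext (Subtype.ext h)

/-- the anemic operators on `Z'`. -/
def s59x_opZ (x : s59w_AIdx M) : Module.End 𝒪 (s59t_part P') :=
  (s59m_opPart H ε' hεop x).restrict (fun z hz => hZop x z hz)

theorem s59x_opZ_coe (x : s59w_AIdx M) (y : s59t_part P') :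
    s59x_jZ H ε' P' (s59x_opZ H ε' hεop P' hZop x y) =
      s59w_op H 𝒪 x (s59x_jZ H ε' P' y) := rfl

/-- `ρ^Z (mk τ) = op^Z (inr τ⁻¹)`. -/
theorem s59x_partRepZ_mk (τ : Gamma0 M) :
    s59t_partRep (s59t_partRep (s59t_rho M H 𝒪 𝒪) hερ) hP'
        (QuotientGroup.mk τ : s59t_Delta M H) =
      s59x_opZ H ε' hεop P' hZop (Sum.inr τ⁻¹) := by
  refine LinearMap.ext fun y => Subtype.ext ?_
  show s59t_partRep (s59t_rho M H 𝒪 𝒪) hερ (QuotientGroup.mk τ : s59t_Delta M H)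
      (y : s59t_part ε') = s59m_opPart H ε' hεop (Sum.inr τ⁻¹) (y : s59t_part ε')
  rw [s59m_partRep_mk H ε' hεop hερ τ]

/-- every `ρ^Z δ` is a diamond operator. -/
theorem s59x_partRepZ_exists (δ : s59t_Delta M H) :
    ∃ τ : Gamma0 M, s59t_partRep (s59t_partRep (s59t_rho M H 𝒪 𝒪) hερ) hP' δ =
      s59x_opZ H ε' hεop P' hZop (Sum.inr τ) := by
  obtain ⟨τ, rfl⟩ := QuotientGroup.mk_surjective δ
  exact ⟨τ⁻¹, s59x_partRepZ_mk H ε' hεop hερ P' hP' hZop τ⟩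

/-- **locality of `uu i = s59t_hh p n g i` on `Z'`** (twin of `s59m_hgl_part`). -/
theorem s59x_hgl_Z {r : ℕ} (qv : Fin r → ℕ) (hqM : ∀ i, qv i ∣ M)
    (Bq : Subgroup (s59t_Delta M H)) (g : Fin r → Bq)
    (hgloc : ∀ i, ∃ τ : Gamma0 M,
      (QuotientGroup.mk τ : s59t_Delta M H) = (g i : s59t_Delta M H) ∧
      ZMod.unitsMap (Nat.div_dvd_of_dvd (hqM i)) (s59t_unitHom M τ) = 1) (p n : ℕ) :
    ∀ i, ∃ (τ₀ : Gamma0 M) (L₀ : ℕ) (hL₀ : M = L₀ * qv i),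
      s59t_partRep (s59t_partRep (s59t_rho M H 𝒪 𝒪) hερ) hP'
          ((s59t_hh p n g i : Bq) : s59t_Delta M H) =
        s59x_opZ H ε' hεop P' hZop (Sum.inr τ₀) ∧
      ZMod.unitsMap (hL₀ ▸ Dvd.intro (qv i) rfl : L₀ ∣ M) (s59w_lrUnit τ₀) = 1 := by
  intro i
  obtain ⟨τ, hτ, hu⟩ := hgloc i
  refine ⟨(τ ^ ((p ^ n + 1) / 2))⁻¹, M / qv i, (Nat.div_mul_cancel (hqM i)).symm, ?_, ?_⟩
  · have e : ((s59t_hh p n g i : Bq) : s59t_Delta M H) =
        (QuotientGroup.mk (τ ^ ((p ^ n + 1) / 2)) : s59t_Delta M H) := by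
      rw [QuotientGroup.mk_pow, hτ]
      rfl
    exact (congrArg (fun δ => s59t_partRep (s59t_partRep (s59t_rho M H 𝒪 𝒪) hερ) hP' δ) e).trans
      (s59x_partRepZ_mk H ε' hεop hερ P' hP' hZop (τ ^ ((p ^ n + 1) / 2)))
  · show ZMod.unitsMap (Nat.div_dvd_of_dvd (hqM i))
      (s59t_unitHom M (τ ^ ((p ^ n + 1) / 2))⁻¹) = 1
    rw [map_inv, map_pow, map_inv, map_pow, hu, one_pow, inv_one]

variable {A : Type} [CommRing A]
  (a : A →+* Module.End 𝒪 (s48h_Hpar 𝒪 (s48h_GammaH M H) 𝒪)) (k : ℕ)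
  (ha : ∀ t, a t ∈ Subring.closure (Set.range (s59e_Tp' H 𝒪 k)))
  (aZ : A →+* Module.End 𝒪 (s59t_part P'))
  (haZ : ∀ t (z : s59t_part P'), s59x_jZ H ε' P' (aZ t z) = a t (s59x_jZ H ε' P' z))

include ha haZ in
/-- `hFa` on `Z'`: the Hecke operators commute with the diamond representation. -/
theorem s59x_hFa_Z (t : A) (δ : s59t_Delta M H) :
    Commute (aZ t) (s59t_partRep (s59t_partRep (s59t_rho M H 𝒪 𝒪) hερ) hP' δ) := by
  obtain ⟨τ, rfl⟩ := QuotientGroup.mk_surjective δ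
  refine LinearMap.ext fun z => s59x_jZ_injective H ε' P' ?_
  have h := LinearMap.congr_fun (s59e_closure_comm_op H k (a t) (ha t)
    (Sum.inr ⟨((τ : SL(2, ℤ)))⁻¹, inv_mem τ.2⟩)).eq (s59x_jZ H ε' P' z)
  have h1 : s59x_jZ H ε' P'
      (aZ t (s59t_partRep (s59t_partRep (s59t_rho M H 𝒪 𝒪) hερ) hP' (QuotientGroup.mk τ) z)) =
      a t (s59w_op H 𝒪 (Sum.inr ⟨((τ : SL(2, ℤ)))⁻¹, inv_mem τ.2⟩) (s59x_jZ H ε' P' z)) :=
    haZ t _
  have h2 : s59x_jZ H ε' P'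
      (s59t_partRep (s59t_partRep (s59t_rho M H 𝒪 𝒪) hερ) hP' (QuotientGroup.mk τ) (aZ t z)) =
      s59w_op H 𝒪 (Sum.inr ⟨((τ : SL(2, ℤ)))⁻¹, inv_mem τ.2⟩) (a t (s59x_jZ H ε' P' z)) :=
    congrArg (s59w_op H 𝒪 (Sum.inr ⟨((τ : SL(2, ℤ)))⁻¹, inv_mem τ.2⟩)) (haZ t z)
  exact h1.trans (h.trans h2.symm)

end SubPart

section TT

variable {M : ℕ} [NeZero M] (H : Subgroup (ZMod M)ˣ) {𝒪 : Type} [CommRing 𝒪]
  (ε' : Module.End 𝒪 (s48h_Hpar 𝒪 (s48h_GammaH M H) 𝒪))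
  (P' : Module.End 𝒪 (s59t_part ε'))
  {M' : ℕ} [NeZero M'] (S : Finset ℕ)
  (a : heckeAlgebra M' 2 (↑S : Set ℕ) →+* Module.End 𝒪 (s48h_Hpar 𝒪 (s48h_GammaH M H) 𝒪)) (k : ℕ)
  (ha1 : ∀ (ℓ : ℕ) (hℓ : ℓ.Prime) (hℓN : ¬ ℓ ∣ M') (hℓS : ℓ ∉ (↑S : Set ℕ)) (i : s59w_TIdx M),
    i.ell = ℓ → a (heckeAlgebra.T hℓ hℓN hℓS) = s59e_Tp' H 𝒪 k i)
  (aZ : heckeAlgebra M' 2 (↑S : Set ℕ) →+* Module.End 𝒪 (s59t_part P'))
  (haZ : ∀ t (z : s59t_part P'), s59x_jZ H ε' P' (aZ t z) = a t (s59x_jZ H ε' P' z))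
  (hS : ∀ q : ℕ, q.Prime → q ∣ M' → q ∈ S)

include ha1 haZ hS in
/-- `htT'` on `Z'` (twin of `s59e_htT'_part`). -/
theorem s59x_htT'_Z (i : s59w_TIdx M) (hi : i.ell ∉ S) (z : s59t_part P') :
    s59x_jZ H ε' P'
      (((s59e_tOf (↑S : Set ℕ) aZ i.ell : s59e_adj 𝒪 aZ) :
        Module.End 𝒪 (s59t_part P')) z) =
      s59e_Tp' H 𝒪 k i (s59x_jZ H ε' P' z) := by
  have hN : ¬ i.ell ∣ M' := fun h => hi (hS _ i.prime h)
  have hS' : i.ell ∉ (↑S : Set ℕ) := fun h => hi (Finset.mem_coe.mp h)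
  rw [s59e_tOf_coe (↑S : Set ℕ) aZ i.prime hN hS', haZ, ha1 i.ell i.prime hN hS' i rfl]

end TT

end Fermat.Agent.Lib.S59

end
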