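/-
PROGRAMME (R2) = S59, case (P), NON-MINIMAL half, item [WALL] / [W4c] (helper7, prefix `s59x_`): **THE TRACE RING OF A LEVEL, ABSTRACT MODULE,
ANY TAYLOR–WILES TYPE** — twin of helper5's `s59efl_trace_facts` (EFlrTr.lean) with the part `ε′H_par` replaced by an ABSTRACT finite free
nonzero `𝒪`-module `Y` (for us: the kernel pair `s59t_part P'`) and the flat type by `s59x_TWType 𝒪 p Lp Sg Smin` for any local condition
`Lp` (`s59x_LocCond Lp`; for us the strict-ordinary one).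

* `s59x_trace_factsZ` : `𝒪[aZ]` is a test algebra (noetherian, complete, `𝒪 → 𝒪[aZ]` local, residue field `𝔽`), `DQ.ρ ⊗_θ 𝒪[aZ]` has residual
  representation `ρ̄_W` and is of the type of `DQ` (= the inputs `hres𝒪₁`, `hθl₁`, `h𝒟₁`, `hres₁` of `Internal.s59x_step_concZ`).
-/
import Mathlib
import Fermat.Agent.Lib.S59.EWRho
import Fermat.Agent.Lib.S59.ERing2
import Fermat.Agent.Lib.S59.ETWRes
import Fermat.Agent.Lib.S59.BBaseRes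
import Fermat.Agent.Lib.S59.BDQRes
import Fermat.Agent.Lib.S59.EAbsIrr
import Fermat.Agent.Lib.S59.EHLoc
import Fermat.Agent.Lib.S59.XDefCond

set_option autoImplicit false
set_option linter.unusedSectionVars false
set_option linter.unusedVariables false
set_option linter.style.haveILetI false
set_option maxHeartbeats 1600000
set_option synthInstance.maxHeartbeats 400000
set_option maxSynthPendingDepth 3

noncomputable section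

namespace Fermat.Agent.Lib.S59

open IsLocalRing CuspForm Polynomial ExtCitation CongruenceSubgroup
open WeierstrassCurve WeierstrassCurve.Affine WeierstrassCurve.Affine.Point
open Fermat.Agent.Lib.S48 Fermat.Agent.Lib.S44
open scoped MatrixGroups

local notation "Γℚ" => (AlgebraicClosure ℚ ≃ₐ[ℚ] AlgebraicClosure ℚ)

/-- **the trace ring of a level is a test algebra carrying a deformation of the type of `DQ`** (abstract module, any Taylor–Wiles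
type). -/
theorem s59x_trace_factsZ (p : ℕ) [Fact p.Prime] (hp2 : p ≠ 2) (W : WeierstrassCurve ℤ) (hΔ : W.Δ ≠ 0)
    (B : Finset ℕ) (hirr : W.ModRepIsIrreducible p) (hpB : p ∈ B)
    (hB2 : ∀ r : ℕ, r.Prime → ¬ W.IsGoodPrimeFor r → r ∈ B)
    (𝒪 : Type) [CommRing 𝒪] [IsDomain 𝒪] [IsDiscreteValuationRing 𝒪]
    [IsAdicComplete (maximalIdeal 𝒪) 𝒪] [Finite (ResidueField 𝒪)] [CharZero 𝒪]
    [Algebra ℤ_[p] 𝒪] [Module.Finite ℤ_[p] 𝒪]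
    (hp𝒪 : ((p : ℕ) : 𝒪) ∈ maximalIdeal 𝒪)
    {Lp : ∀ ⦃A : Type⦄ [CommRing A] [IsLocalRing A], GaloisRepAdic A → Prop}
    (hL : s59x_LocCond Lp) (Sg Smin : Finset ℕ)
    (DQ : GaloisRep.DeformationRingData 𝒪 (s59i_rhobarW W p hΔ 𝒪 hp𝒪) (s59x_TWType 𝒪 p Lp Sg Smin))
    {Y : Type} [AddCommGroup Y] [Module 𝒪 Y] [Module.Free 𝒪 Y] [Module.Finite 𝒪 Y] [Nontrivial Y]
    {A : Type} [CommRing A] (aZ : A →+* Module.End 𝒪 Y)
    (hlocA : ∀ x ∈ s59e_adj 𝒪 aZ, ∃ d : 𝒪, s59e_IsLocScalar x d)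
    [IsLocalRing (s59e_adj 𝒪 aZ)]
    (θ : DQ.R →ₐ[𝒪] s59e_adj 𝒪 aZ) (hθ : Function.Surjective θ)
    (S : Finset ℕ) (hBS : B ⊆ S) (tT' : ℕ → s59e_adj 𝒪 aZ)
    (hfrobT : ∀ ℓ : ℕ, ℓ.Prime → ℓ ∉ S →
      ∀ A' : ValuationSubring (AlgebraicClosure ℚ), A'.LiesOverPrime ℓ →
      ∀ τ : Γℚ, A'.IsFrobeniusAt τ ℓ →
        (LinearMap.charpoly (DQ.ρ.ρ τ)).map (θ : DQ.R →+* s59e_adj 𝒪 aZ) =
          Polynomial.X ^ 2 - Polynomial.C (tT' ℓ) * Polynomial.X +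
            Polynomial.C ((ℓ : s59e_adj 𝒪 aZ)))
    (hcong : ∀ ℓ : ℕ, ℓ.Prime → ℓ ∉ S →
      tT' ℓ - algebraMap 𝒪 (s59e_adj 𝒪 aZ) (((W.apOfModel ℓ : ℤ) : 𝒪)) ∈
        maximalIdeal (s59e_adj 𝒪 aZ)) :
    ∃ (hlh : IsLocalHom (algebraMap 𝒪 (s59e_adj 𝒪 aZ)))
      (hθl : IsLocalHom (θ : DQ.R →+* s59e_adj 𝒪 aZ)),
      IsNoetherianRing (s59e_adj 𝒪 aZ) ∧
      IsAdicComplete (maximalIdeal (s59e_adj 𝒪 aZ)) (s59e_adj 𝒪 aZ) ∧
      Function.Surjective (residue (s59e_adj 𝒪 aZ) ∘ algebraMap 𝒪 (s59e_adj 𝒪 aZ)) ∧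
      ((DQ.ρ.baseChangeAlong (θ : DQ.R →+* s59e_adj 𝒪 aZ) hθl).residual.IsEquiv
        ((s59i_rhobarW W p hΔ 𝒪 hp𝒪).baseChangeAlong
          (ResidueField.map (algebraMap 𝒪 (s59e_adj 𝒪 aZ))))) ∧
      s59x_TWType 𝒪 p Lp Sg Smin (DQ.ρ.baseChangeAlong (θ : DQ.R →+* s59e_adj 𝒪 aZ) hθl) := by
  classical
  have hpP : p.Prime := Fact.out
  have hEigB : ∀ ℓ : ℕ, ℓ.Prime → ℓ ∉ S →
      ∀ A : ValuationSubring (AlgebraicClosure ℚ), A.LiesOverPrime ℓ →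
      ∀ σ : Γℚ, A.IsFrobeniusAt σ ℓ →
        LinearMap.charpoly ((s59i_rhobarW W p hΔ 𝒪 hp𝒪).ρ σ) =
          X ^ 2 - C (residue 𝒪 ((W.apOfModel ℓ : ℤ) : 𝒪)) * X +
            C ((ℓ : ResidueField 𝒪)) := fun ℓ hℓ hℓS A hA σ hσ =>
    s59e_rhobarW_charpoly_frob hΔ hp2 hirr hp𝒪 B hpB hB2 ℓ hℓ (fun h => hℓS (hBS h)) A hA σ hσ
  haveI hlh : IsLocalHom (algebraMap 𝒪 (s59e_adj 𝒪 aZ)) := s59e_adj_isLocalHom aZ hlocA
  haveI hnoeth : IsNoetherianRing (s59e_adj 𝒪 aZ) := s59e_adj_noeth aZ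
  haveI hcompl : IsAdicComplete (maximalIdeal (s59e_adj 𝒪 aZ)) (s59e_adj 𝒪 aZ) :=
    s59e_adj_complete aZ
  haveI hfinR : Module.Finite 𝒪 (s59e_adj 𝒪 aZ) := s59e_adj_finite aZ
  have hT' : Fermat.Agent.Lib.Deform.IsTestAlgebra 𝒪 (s59e_adj 𝒪 aZ) :=
    s59e_testAlgebra aZ AlgEquiv.refl hlocA
  have hθl : IsLocalHom (θ : DQ.R →+* s59e_adj 𝒪 aZ) := IsLocalHom.of_surjective _ hθ
  have hfrobR : ∀ (ℓ : ℕ), ℓ.Prime → ℓ ∉ S →
      ∀ A : ValuationSubring (AlgebraicClosure ℚ), A.LiesOverPrime ℓ →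
      ∀ g : Γℚ, A.IsFrobeniusAt g ℓ →
        LinearMap.charpoly ((DQ.ρ.baseChangeAlong (θ : DQ.R →+* s59e_adj 𝒪 aZ) hθl).ρ g) =
          Polynomial.X ^ 2 - Polynomial.C (tT' ℓ) * Polynomial.X +
            Polynomial.C ((ℓ : s59e_adj 𝒪 aZ)) := by
    intro ℓ hℓ hℓS A hA g hg
    rw [s59e_bc_charpoly]
    exact hfrobT ℓ hℓ hℓS A hA g hg
  have hpR : ((p : ℕ) : s59e_adj 𝒪 aZ) ∈ maximalIdeal (s59e_adj 𝒪 aZ) := by
    have := map_nonunit (algebraMap 𝒪 (s59e_adj 𝒪 aZ)) ((p : ℕ) : 𝒪) hp𝒪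
    rwa [map_natCast] at this
  have hresR := s59b_hres_of_frob p hp2 hpR
    (DQ.ρ.baseChangeAlong (θ : DQ.R →+* s59e_adj 𝒪 aZ) hθl)
    (s59e_bc_absIrr (θ : DQ.R →+* s59e_adj 𝒪 aZ) hθl DQ.ρ (s59b_DQ_residual_absIrr DQ)) S
    tT' (fun ℓ => ((W.apOfModel ℓ : ℤ) : 𝒪)) hfrobR hcong (s59i_rhobarW W p hΔ 𝒪 hp𝒪) hEigB
  have hρR0 : s59x_TWType 𝒪 p Lp Sg Smin
      (DQ.ρ.baseChangeAlong (θ : DQ.R →+* s59e_adj 𝒪 aZ) hθl) := by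
    haveI : Finite (ResidueField (s59e_adj 𝒪 aZ)) := hT'.finite_residueField
    exact s59x_twType_baseChange (𝒪 := 𝒪) hL Sg Smin
      (θ : DQ.R →+* s59e_adj 𝒪 aZ) hθl inferInstance DQ.ρ DQ.isOfType
  exact ⟨hlh, hθl, hnoeth, hcompl, hT'.residue_surjective, hresR, hρR0⟩

end Fermat.Agent.Lib.S59

end
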