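/-
S59 project, case (P), route (T5w), [W4c] (helper2, prefix `s59x_` at helper7's request #4021 (B), step 3): **THE BASE DATA OF THE KERNEL PAIR AT
THE BASE LEVEL `(N p, ⊤)`, STRICT-ORDINARY TYPE WITH FREE FINSETS `(Sg, Su)`** — the kernel-pair twin of helper5's `s59efl_base_pkg`
(EFlrBaseP.lean).  (generated by a script.)

For a semistable `W`, multiplicative at `p`, a `p`-free level `N` good for `p`, `N₂ = N p`, and a universal ring `D0` of the type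
`strict(Sg) ∧ unip(Su)`:
* the idempotent polynomials `e₁` (level `N`), `e` (level `N₂`) of `s59e_W_base_pkg`, the compatibility `hcbp` of helper4's
  `p`-package `s59f_oldN` (normalising element `e_b`, e.g. `1`) with `(E₀(e₁), E₀(e))`, the `𝒪[Δ]`-bases `b₁`, `b₂`
  (`s59b_kerBase_W_mult`, B9P4W.lean);
* the base kernel `P` (`hP hPP hmem`), `hbase` (`(cor_A, cor_B)` is ONTO), its rank `d₂ - 2 d₁ ≠ 0` with a basis `b` (and `d₁ ≠ 0`)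
  (`s59b_kerBase_P`, B9KerBaseW.lean);
* the Hecke ring `R = 𝒪[aZ₀]` of `Z = s59t_part P` (`s59b_baseH3_free`, B9PNewF2.lean) with `θ₀ : D0.R ↠ R`, in the `s59x_jZ` dialect of
  helper7's `Internal.s59x_levelZ_rec`, and the seven facts of `s59efl_base_facts` for the module
  `M = eig_{⊤,1}(Z)` (helper7's `s59x_trace_factsZ`, NXTrZ.lean).
-/
import Mathlib
import Fermat.Agent.Lib.S59.B9P4W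
import Fermat.Agent.Lib.S59.B9PNewF2
import Fermat.Agent.Lib.S59.NXTrZ
import Fermat.Agent.Lib.S59.NXKerH1
import Fermat.Agent.Lib.S59.ELPkg
import Fermat.Agent.Lib.S59.XDefOrd

set_option autoImplicit false
set_option linter.unusedSectionVars false
set_option linter.unusedVariables false
set_option linter.style.haveILetI false
set_option maxHeartbeats 0
set_option synthInstance.maxHeartbeats 400000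
set_option maxSynthPendingDepth 3

noncomputable section

namespace Fermat.Agent.Lib.S59

open IsLocalRing CuspForm Polynomial ExtCitation CongruenceSubgroup
open WeierstrassCurve WeierstrassCurve.Affine WeierstrassCurve.Affine.Point
open Fermat.Agent.Lib.S48 Fermat.Agent.Lib.S44 Fermat.Agent.Lib.S18
open scoped MatrixGroups

local notation "Γℚ" => (AlgebraicClosure ℚ ≃ₐ[ℚ] AlgebraicClosure ℚ)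

/-- a representation of a trivial group commutes with every scalar action. -/
theorem s59b_smul_rho_subsingleton {R : Type*} [CommRing R] {Δ : Type*} [Group Δ] [Subsingleton Δ]
    {Y : Type*} [AddCommGroup Y] [Module R Y] (ρ : Δ →* Module.End R Y)
    {T : Type*} [SMul T Y] (t : T) (δ : Δ) (y : Y) : t • ρ δ y = ρ δ (t • y) := by
  have hδ : ρ δ = 1 := by rw [Subsingleton.elim δ 1, _root_.map_one]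
  rw [hδ, Module.End.one_apply, Module.End.one_apply]

/-- **the base data of the kernel pair at the base level `(N p, ⊤)`, strict type with free finsets.** -/
theorem Internal.s59x_base_pkgZ (p : ℕ) [Fact p.Prime] (hp2 : p ≠ 2) (W : WeierstrassCurve ℤ) (hΔ : W.Δ ≠ 0)
    (N : ℕ) [NeZero N] (N₂ : ℕ) [NeZero N₂] (hN₂ : N₂ = N * p) (B : Finset ℕ)
    (hirr : W.ModRepIsIrreducible p) (hss : W.IsSemistableModel) (hmult : ¬ W.IsGoodPrimeFor p)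
    (hsq₂ : Squarefree N₂) (hpN : ¬ p ∣ N) (hgood : s18_GoodLevel p N) (hp12 : s59e_auxTors p N)
    (hB1 : ∀ r : ℕ, r.Prime → r ∣ N * p → r ∈ B)
    (hB2 : ∀ r : ℕ, r.Prime → ¬ W.IsGoodPrimeFor r → r ∈ B)
    (hocc₁ : s44i_LevelOcc N p (fun ℓ => W.apOfModel ℓ) B)
    (hocc₂ : s44i_LevelOcc N₂ p (fun ℓ => W.apOfModel ℓ) B)
    (𝒪 : Type) [CommRing 𝒪] [IsDomain 𝒪] [IsDiscreteValuationRing 𝒪]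
    [IsAdicComplete (maximalIdeal 𝒪) 𝒪] [Finite (ResidueField 𝒪)] [CharZero 𝒪]
    [Algebra ℤ_[p] 𝒪] [Module.Finite ℤ_[p] 𝒪]
    (hp𝒪 : ((p : ℕ) : 𝒪) ∈ maximalIdeal 𝒪)
    -- the `p`-package at the base (helper4's `s59f_oldN`), normalising element `e_b`
    (hGb : s59f_IsG' N p (⊤ : Subgroup (ZMod N)ˣ) (s48h_GammaH N₂ (⊤ : Subgroup (ZMod N₂)ˣ)))
    (e_b : SL(2, ℤ)) (he_b : e_b ∈ Gamma0 N₂)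
    (hee_b : s59f_gW hpN * e_b * e_b ∈ s48h_GammaH N₂ (⊤ : Subgroup (ZMod N₂)ˣ))
    -- the type
    (Sg Su Smin : Finset ℕ) (hpSg : p ∈ Sg)
    (hSg : ∀ q : ℕ, q.Prime → q ∣ N₂ → q ∈ Sg ∨ s59e3q_E2Alt p (s59i_rhobarW W p hΔ 𝒪 hp𝒪) q)
    (hmin : ∀ q : ℕ, q.Prime → q ≠ p → (q ∈ Smin ↔ ¬ (s59i_rhobarW W p hΔ 𝒪 hp𝒪).IsUnramifiedAt q))
    (D0 : GaloisRep.DeformationRingData 𝒪 (s59i_rhobarW W p hΔ 𝒪 hp𝒪) (fun _A _ _ _ ρ =>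
      GaloisRep.strictOrdinaryCondition 𝒪 p Sg ρ ∧
        ∀ q ∈ Su, q.Prime → q ≠ p → ρ.IsUnipotentOnInertiaAt q)) :
    -- the `p`-free level `N`
    ∃ (e₁ : MvPolynomial ↥(s59t_goodB N B) 𝒪),
    ∃ (h1e₁ : 1 - e₁ ∈ s59t_evalIdeal (fun x : ↥(s59t_goodB N B) =>
      s59t_cB (𝒪 := 𝒪) N (fun ℓ => W.apOfModel ℓ) (x : s59w_AIdx N))),
    ∃ (hid₁ : (s59t_E0 (⊤ : Subgroup (ZMod N)ˣ) B e₁) * (s59t_E0 (⊤ : Subgroup (ZMod N)ˣ) B e₁) = (s59t_E0 (⊤ : Subgroup (ZMod N)ˣ) B e₁)),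
    ∃ (hnil₁ : ∀ x ∈ s59t_goodB N B, ∃ k : ℕ, ∀ y : (s48h_Hpar 𝒪 (s48h_GammaH N (⊤ : Subgroup (ZMod N)ˣ)) 𝒪),
      ((s59w_op (⊤ : Subgroup (ZMod N)ˣ) 𝒪 x - s59t_cB (𝒪 := 𝒪) N (fun ℓ => W.apOfModel ℓ) x •
        (1 : Module.End 𝒪 (s48h_Hpar 𝒪 (s48h_GammaH N (⊤ : Subgroup (ZMod N)ˣ)) 𝒪))) ^ k) ((s59t_E0 (⊤ : Subgroup (ZMod N)ˣ) B e₁) y) ∈
        (maximalIdeal 𝒪 • ⊤ : Submodule 𝒪 (s48h_Hpar 𝒪 (s48h_GammaH N (⊤ : Subgroup (ZMod N)ˣ)) 𝒪))),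
    ∃ (hρ₁ : ∀ δ y, (s59t_E0 (⊤ : Subgroup (ZMod N)ˣ) B e₁) ((s59t_rho N (⊤ : Subgroup (ZMod N)ˣ) 𝒪 𝒪) δ y) = (s59t_rho N (⊤ : Subgroup (ZMod N)ˣ) 𝒪 𝒪) δ ((s59t_E0 (⊤ : Subgroup (ZMod N)ˣ) B e₁) y)),
    -- the level `N₂ = N p`
    ∃ (e : MvPolynomial ↥(s59t_goodB N₂ B) 𝒪),
    ∃ (h1e : 1 - e ∈ s59t_evalIdeal (fun x : ↥(s59t_goodB N₂ B) =>
      s59t_cB (𝒪 := 𝒪) N₂ (fun ℓ => W.apOfModel ℓ) (x : s59w_AIdx N₂))),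
    ∃ (hid : (s59t_E0 (⊤ : Subgroup (ZMod N₂)ˣ) B e) * (s59t_E0 (⊤ : Subgroup (ZMod N₂)ˣ) B e) = (s59t_E0 (⊤ : Subgroup (ZMod N₂)ˣ) B e)),
    ∃ (hnil : ∀ x ∈ s59t_goodB N₂ B, ∃ k : ℕ, ∀ y : (s48h_Hpar 𝒪 (s48h_GammaH N₂ (⊤ : Subgroup (ZMod N₂)ˣ)) 𝒪),
      ((s59w_op (⊤ : Subgroup (ZMod N₂)ˣ) 𝒪 x - s59t_cB (𝒪 := 𝒪) N₂ (fun ℓ => W.apOfModel ℓ) x •
        (1 : Module.End 𝒪 (s48h_Hpar 𝒪 (s48h_GammaH N₂ (⊤ : Subgroup (ZMod N₂)ˣ)) 𝒪))) ^ k) ((s59t_E0 (⊤ : Subgroup (ZMod N₂)ˣ) B e) y) ∈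
        (maximalIdeal 𝒪 • ⊤ : Submodule 𝒪 (s48h_Hpar 𝒪 (s48h_GammaH N₂ (⊤ : Subgroup (ZMod N₂)ˣ)) 𝒪))),
    ∃ (hρ : ∀ δ y, (s59t_E0 (⊤ : Subgroup (ZMod N₂)ˣ) B e) ((s59t_rho N₂ (⊤ : Subgroup (ZMod N₂)ˣ) 𝒪 𝒪) δ y) = (s59t_rho N₂ (⊤ : Subgroup (ZMod N₂)ˣ) 𝒪 𝒪) δ ((s59t_E0 (⊤ : Subgroup (ZMod N₂)ˣ) B e) y)),
    -- the `p`-package and the `𝒪[Δ]`-bases
    ∃ (hcbp : (s59f_oldN hpN hN₂ hGb 𝒪 𝒪 e_b he_b hee_b).Compat (s59t_E0 (⊤ : Subgroup (ZMod N)ˣ) B e₁) (s59t_E0 (⊤ : Subgroup (ZMod N₂)ˣ) B e)),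
    ∃ (d₁ : ℕ), ∃ (d₂ : ℕ),
    ∃ (b₁ : Fin d₁ → s59t_part (s59t_E0 (⊤ : Subgroup (ZMod N)ˣ) B e₁)),
    ∃ (hb₁ : Function.Bijective (s59t_evalMap (s59t_partRep (s59t_rho N (⊤ : Subgroup (ZMod N)ˣ) 𝒪 𝒪) hρ₁) b₁)),
    ∃ (b₂ : Fin d₂ → s59t_part (s59t_E0 (⊤ : Subgroup (ZMod N₂)ˣ) B e)),
    ∃ (hb₂ : Function.Bijective (s59t_evalMap (s59t_partRep (s59t_rho N₂ (⊤ : Subgroup (ZMod N₂)ˣ) 𝒪 𝒪) hρ) b₂)),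
    -- the base kernel
    ∃ (P : Module.End 𝒪 (s59t_part (s59t_E0 (⊤ : Subgroup (ZMod N₂)ˣ) B e))),
    ∃ (hP : ∀ δ x, P (s59t_partRep (s59t_rho N₂ (⊤ : Subgroup (ZMod N₂)ˣ) 𝒪 𝒪) hρ δ x) = s59t_partRep (s59t_rho N₂ (⊤ : Subgroup (ZMod N₂)ˣ) 𝒪 𝒪) hρ δ (P x)),
    ∃ (hPP : P * P = P),
    ∃ (hmem : ∀ x, x ∈ s59t_part P ↔
      ((s59f_oldN hpN hN₂ hGb 𝒪 𝒪 e_b he_b hee_b).restrict hcbp).corA x = 0 ∧ ((s59f_oldN hpN hN₂ hGb 𝒪 𝒪 e_b he_b hee_b).restrict hcbp).corB x = 0),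
    ∃ (hbase : ∀ y₁ y₂ : s59t_part (s59t_E0 (⊤ : Subgroup (ZMod N)ˣ) B e₁), ∃ z : s59t_part (s59t_E0 (⊤ : Subgroup (ZMod N₂)ˣ) B e),
      ((s59f_oldN hpN hN₂ hGb 𝒪 𝒪 e_b he_b hee_b).restrict hcbp).corA z = y₁ ∧ ((s59f_oldN hpN hN₂ hGb 𝒪 𝒪 e_b he_b hee_b).restrict hcbp).corB z = y₂),
    ∃ (hd1 : d₁ ≠ 0),
    ∃ (hd0 : d₂ - 2 * d₁ ≠ 0),
    ∃ (b : Fin (d₂ - 2 * d₁) → s59t_part P),
    ∃ (hb : Function.Bijective (s59t_evalMap (s59t_partRep (s59t_partRep (s59t_rho N₂ (⊤ : Subgroup (ZMod N₂)ˣ) 𝒪 𝒪) hρ) hP) b)),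
    -- the Hecke ring of the kernel
    ∃ (a₀ : (heckeAlgebra N₂ 2 (↑B : Set ℕ)) →+* Module.End 𝒪 (s48h_Hpar 𝒪 (s48h_GammaH N₂ (⊤ : Subgroup (ZMod N₂)ˣ)) 𝒪)),
    ∃ (ha1₀ : ∀ (ℓ : ℕ) (hℓ : ℓ.Prime) (hℓN : ¬ ℓ ∣ N₂) (hℓS : ℓ ∉ (↑B : Set ℕ)) (i : s59w_TIdx N₂),
      i.ell = ℓ → a₀ (heckeAlgebra.T hℓ hℓN hℓS) = s59e_Tp' (⊤ : Subgroup (ZMod N₂)ˣ) 𝒪 ((p ^ 0 - 1) * ((p ^ 0 + 1) / 2)) i),
    ∃ (aZ₀ : (heckeAlgebra N₂ 2 (↑B : Set ℕ)) →+* Module.End 𝒪 (s59t_part P)),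
    ∃ (haZ₀ : ∀ t (z : s59t_part P), s59x_jZ (⊤ : Subgroup (ZMod N₂)ˣ) (s59t_E0 (⊤ : Subgroup (ZMod N₂)ˣ) B e) P (aZ₀ t z) = a₀ t (s59x_jZ (⊤ : Subgroup (ZMod N₂)ˣ) (s59t_E0 (⊤ : Subgroup (ZMod N₂)ˣ) B e) P z)),
    ∃ (_ : IsLocalRing (s59e_adj 𝒪 aZ₀)),
    ∃ (_ : IsNoetherianRing (s59e_adj 𝒪 aZ₀)),
    ∃ (_ : Module.Finite 𝒪 (s59e_adj 𝒪 aZ₀)),
    ∃ (_ : IsAdicComplete (maximalIdeal (s59e_adj 𝒪 aZ₀)) (s59e_adj 𝒪 aZ₀)),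
    ∃ (_ : IsLocalHom (algebraMap 𝒪 (s59e_adj 𝒪 aZ₀))),
    ∃ (hRρ : ∀ (t : (s59e_adj 𝒪 aZ₀)) (δ : (s59t_Delta N₂ (⊤ : Subgroup (ZMod N₂)ˣ))) (y : s59t_part P),
      t • (s59t_partRep (s59t_partRep (s59t_rho N₂ (⊤ : Subgroup (ZMod N₂)ˣ) 𝒪 𝒪) hρ) hP) δ y = (s59t_partRep (s59t_partRep (s59t_rho N₂ (⊤ : Subgroup (ZMod N₂)ˣ) 𝒪 𝒪) hρ) hP) δ (t • y)),
    ∃ (θ₀ : D0.R →ₐ[𝒪] (s59e_adj 𝒪 aZ₀)),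
    ∃ (hθ₀ : Function.Surjective θ₀),
    ∃ (hθ₀l : IsLocalHom (θ₀ : D0.R →+* (s59e_adj 𝒪 aZ₀))),
      Function.Surjective (residue (s59e_adj 𝒪 aZ₀) ∘ algebraMap 𝒪 (s59e_adj 𝒪 aZ₀)) ∧
      Module.Finite (s59e_adj 𝒪 aZ₀) (s59t_EigT (s59t_partRep (s59t_partRep (s59t_rho N₂ (⊤ : Subgroup (ZMod N₂)ˣ) 𝒪 𝒪) hρ) hP) ⊤ (1 : (s59t_Delta N₂ (⊤ : Subgroup (ZMod N₂)ˣ)) →* 𝒪ˣ) hRρ) ∧
      Nontrivial (s59t_EigT (s59t_partRep (s59t_partRep (s59t_rho N₂ (⊤ : Subgroup (ZMod N₂)ˣ) 𝒪 𝒪) hρ) hP) ⊤ (1 : (s59t_Delta N₂ (⊤ : Subgroup (ZMod N₂)ˣ)) →* 𝒪ˣ) hRρ) ∧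
      (∀ (ℓ : ℕ), ℓ.Prime → ¬ ℓ ∣ N₂ → ℓ ∉ (↑B : Set ℕ) →
        ∀ A : ValuationSubring (AlgebraicClosure ℚ), A.LiesOverPrime ℓ →
        ∀ g : Γℚ, A.IsFrobeniusAt g ℓ →
          LinearMap.charpoly ((D0.ρ.baseChangeAlong (θ₀ : D0.R →+* (s59e_adj 𝒪 aZ₀)) hθ₀l).ρ g) =
            Polynomial.X ^ 2 - Polynomial.C (s59e_tOf (↑B : Set ℕ) aZ₀ ℓ) * Polynomial.X +
              Polynomial.C ((ℓ : (s59e_adj 𝒪 aZ₀)))) ∧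
      (Algebra.adjoin 𝒪 {x : (s59e_adj 𝒪 aZ₀) | ∃ ℓ : ℕ, ℓ.Prime ∧ ¬ ℓ ∣ N₂ ∧
        ℓ ∉ (↑B : Set ℕ) ∧ x = s59e_tOf (↑B : Set ℕ) aZ₀ ℓ} = ⊤) ∧
      ((D0.ρ.baseChangeAlong (θ₀ : D0.R →+* (s59e_adj 𝒪 aZ₀)) hθ₀l).residual.IsEquiv
        ((s59i_rhobarW W p hΔ 𝒪 hp𝒪).baseChangeAlong (ResidueField.map (algebraMap 𝒪 (s59e_adj 𝒪 aZ₀))))) ∧
      (GaloisRep.strictOrdinaryCondition 𝒪 p Sg (D0.ρ.baseChangeAlong (θ₀ : D0.R →+* (s59e_adj 𝒪 aZ₀)) hθ₀l) ∧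
        ∀ q ∈ Su, q.Prime → q ≠ p → (D0.ρ.baseChangeAlong (θ₀ : D0.R →+* (s59e_adj 𝒪 aZ₀)) hθ₀l).IsUnipotentOnInertiaAt q) ∧
      (∀ g, θ₀ (s59i_cpTr D0.ρ g) = s59i_cpTr (D0.ρ.baseChangeAlong (θ₀ : D0.R →+* (s59e_adj 𝒪 aZ₀)) hθ₀l) g) := by
  classical
  refine Classical.byContradiction fun hcontra => ?_
  have hpP : p.Prime := Fact.out
  have hNN₂ : N ∣ N₂ := hN₂ ▸ Dvd.intro p rfl
  have hNB : ∀ q : ℕ, q.Prime → q ∣ N → q ∈ B := fun q hq h => hB1 q hq (Dvd.dvd.mul_right h p)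
  have hNB₂ : ∀ q : ℕ, q.Prime → q ∣ N₂ → q ∈ B := fun q hq h => hB1 q hq (hN₂ ▸ h)
  have hpB : p ∈ B := hB1 p hpP (Dvd.intro_left N rfl)
  have habs : (s59i_rhobarW W p hΔ 𝒪 hp𝒪).IsAbsolutelyIrreducible := D0.absIrr
  have hord : (GaloisRepAdic.ofResidualGaloisRep (s59i_rhobarW W p hΔ 𝒪 hp𝒪)).IsOrdinaryAt p :=
    (s59b_rhobarW_resStrict W hΔ p hp2 hirr hss hmult (𝒪 := 𝒪) hp𝒪).isOrdinaryAt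
  have hEigB : ∀ ℓ : ℕ, ℓ.Prime → ℓ ∉ B →
      ∀ A : ValuationSubring (AlgebraicClosure ℚ), A.LiesOverPrime ℓ →
      ∀ σ : Γℚ, A.IsFrobeniusAt σ ℓ →
        LinearMap.charpoly ((s59i_rhobarW W p hΔ 𝒪 hp𝒪).ρ σ) =
          X ^ 2 - C (residue 𝒪 ((W.apOfModel ℓ : ℤ) : 𝒪)) * X +
            C ((ℓ : ResidueField 𝒪)) := fun ℓ hℓ hℓS A hA σ hσ =>
    s59e_rhobarW_charpoly_frob hΔ hp2 hirr hp𝒪 B hpB hB2 ℓ hℓ hℓS A hA σ hσ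
  -- the kernel base: the idempotents, the compatibility, `(cor_A, cor_B)` onto, a non-zero element of the kernel
  have hk := s59b_kerBase_W_mult W hΔ p hirr hss hmult N N₂ hN₂ hsq₂ hpN hgood B hpB hNB hB2 hocc₁ hocc₂
    (𝒪 := 𝒪) hp𝒪 hp12 habs hGb e_b he_b hee_b
  obtain ⟨e₁, e₂, hB₁, hB₂, hcb, hbase, hne⟩ := hk
  unfold s59b_BaseW at hB₁ hB₂
  obtain ⟨h1e₁, -, hid₁, hne₁, hnil₁, hP3₁⟩ := hB₁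
  obtain ⟨h1e₂, -, hid₂, hne₂, hnil₂, hP3₂⟩ := hB₂
  obtain ⟨-, hρ₁, d₁, -, b₁, -, -, hb₁, -⟩ := hP3₁
  obtain ⟨-, hρ₂, d₂, -, b₂, -, -, hb₂, -⟩ := hP3₂
  -- the base kernel
  have hkP := s59b_kerBase_P (p := p) (𝒪 := 𝒪) hpN hN₂ hGb e_b he_b hee_b hp𝒪 hρ₁ hρ₂ hcb
    b₁ hb₁ b₂ hb₂ hbase hne
  obtain ⟨-, hd0, P, hP, hPP, hmem, b, hb⟩ := hkP
  have hd1 : d₁ ≠ 0 := (s59t_part_ne_zero_iff _ b₁ hb₁).1 hne₁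
  -- freeness and finiteness
  let bZ₀ := Module.Free.chooseBasis ℤ (s48h_M (s48h_GammaH N₂ (⊤ : Subgroup (ZMod N₂)ˣ)))
  haveI : Module.Free 𝒪 (s48h_Hpar 𝒪 (s48h_GammaH N₂ (⊤ : Subgroup (ZMod N₂)ˣ)) 𝒪) := Module.Free.of_basis (s59u_cB bZ₀ 𝒪)
  haveI : Module.Finite 𝒪 (s48h_Hpar 𝒪 (s48h_GammaH N₂ (⊤ : Subgroup (ZMod N₂)ˣ)) 𝒪) := Module.Finite.of_basis (s59u_cB bZ₀ 𝒪)
  haveI hfinY : Module.Finite 𝒪 (s59t_part (s59t_E0 (⊤ : Subgroup (ZMod N₂)ˣ) B e₂)) := s59t_part_finite _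
  haveI hfreeY : Module.Free 𝒪 (s59t_part (s59t_E0 (⊤ : Subgroup (ZMod N₂)ˣ) B e₂)) := s59t_part_free hid₂
  haveI hfinZ : Module.Finite 𝒪 (s59t_part P) := s59t_part_finite _
  haveI hfreeZ : Module.Free 𝒪 (s59t_part P) := s59t_part_free hPP
  have hPne : P ≠ 0 := (s59t_part_ne_zero_iff _ b hb).2 hd0
  haveI hZnt : Nontrivial (s59t_part P) := s59e_L_range_nontrivial _ hPne
  -- the Hecke ring of the kernel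
  have h3 := s59b_baseH3_free (B := B) (ρbar := (s59i_rhobarW W p hΔ 𝒪 hp𝒪)) (fun ℓ => W.apOfModel ℓ) hp2 hp𝒪 hord
    N N₂ hN₂ hpN hsq₂ hgood Sg Su Smin hpSg hSg hmin hpB hNB₂ hGb e_b he_b hee_b
    (s59t_E0 (⊤ : Subgroup (ZMod N₂)ˣ) B e₂) hid₂ (fun x => s59e_E0_comm_op _ B e₂ x) hnil₂ hEigB hcb hPP hmem D0
  obtain ⟨a₀, ha1₀, ha2₀, aX, haX, hlocA, hlr, θ, hθ, hfrob, hcong⟩ := h3
  haveI : IsLocalRing (s59e_adj 𝒪 aX) := hlr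
  haveI hlh : IsLocalHom (algebraMap 𝒪 (s59e_adj 𝒪 aX)) := s59e_adj_isLocalHom aX hlocA
  have hnoeth : IsNoetherianRing (s59e_adj 𝒪 aX) := s59e_adj_noeth aX
  have hcompl : IsAdicComplete (maximalIdeal (s59e_adj 𝒪 aX)) (s59e_adj 𝒪 aX) := s59e_adj_complete aX
  haveI hfinR : Module.Finite 𝒪 (s59e_adj 𝒪 aX) := s59e_adj_finite aX
  -- the trace ring facts
  have htr := s59x_trace_factsZ p hp2 W hΔ B hirr hpB hB2 𝒪 hp𝒪 (s59x_locCond_ord p hp2) Sg Su D0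
    (Y := s59t_part P) aX hlocA θ hθ B (Finset.Subset.refl B) (s59e_tOf (↑B : Set ℕ) aX) hfrob hcong
  obtain ⟨hlh', hθl, hnoeth', hcompl', hRres, hresR, htype⟩ := htr
  -- the diamonds at `⊤` are trivial
  have hRρ : ∀ (t : (s59e_adj 𝒪 aX)) (δ : (s59t_Delta N₂ (⊤ : Subgroup (ZMod N₂)ˣ))) (y : s59t_part P),
      t • (s59t_partRep (s59t_partRep (s59t_rho N₂ (⊤ : Subgroup (ZMod N₂)ˣ) 𝒪 𝒪) hρ₂) hP) δ y = (s59t_partRep (s59t_partRep (s59t_rho N₂ (⊤ : Subgroup (ZMod N₂)ˣ) 𝒪 𝒪) hρ₂) hP) δ (t • y) := by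
    intro t δ y
    exact s59b_smul_rho_subsingleton _ t δ y
  have hMnt := s59u_EigT_top_nontrivial _ b hb hd0 (1 : (s59t_Delta N₂ (⊤ : Subgroup (ZMod N₂)ˣ)) →* 𝒪ˣ) hRρ
  have hMfin : Module.Finite (s59e_adj 𝒪 aX) (s59t_EigT (s59t_partRep (s59t_partRep (s59t_rho N₂ (⊤ : Subgroup (ZMod N₂)ˣ) 𝒪 𝒪) hρ₂) hP) ⊤ (1 : (s59t_Delta N₂ (⊤ : Subgroup (ZMod N₂)ˣ)) →* 𝒪ˣ) hRρ) := by
    haveI : IsNoetherian 𝒪 (s59t_part P) := isNoetherian_of_isNoetherianRing_of_finite 𝒪 _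
    haveI : Module.Finite 𝒪 (s59t_EigT (s59t_partRep (s59t_partRep (s59t_rho N₂ (⊤ : Subgroup (ZMod N₂)ˣ) 𝒪 𝒪) hρ₂) hP) ⊤ (1 : (s59t_Delta N₂ (⊤ : Subgroup (ZMod N₂)ˣ)) →* 𝒪ˣ) hRρ) :=
      Module.Finite.of_injective (s59t_EigT_val _ ⊤ _ hRρ) (s59t_EigT_val_injective _ ⊤ _ hRρ)
    exact Module.Finite.of_restrictScalars_finite 𝒪 _ _
  have hfrobR : ∀ (ℓ : ℕ), ℓ.Prime → ¬ ℓ ∣ N₂ → ℓ ∉ (↑B : Set ℕ) →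
      ∀ A : ValuationSubring (AlgebraicClosure ℚ), A.LiesOverPrime ℓ →
      ∀ g : Γℚ, A.IsFrobeniusAt g ℓ →
        LinearMap.charpoly ((D0.ρ.baseChangeAlong (θ : D0.R →+* (s59e_adj 𝒪 aX)) hθl).ρ g) =
          Polynomial.X ^ 2 - Polynomial.C (s59e_tOf (↑B : Set ℕ) aX ℓ) * Polynomial.X +
            Polynomial.C ((ℓ : (s59e_adj 𝒪 aX))) := fun ℓ hℓ hℓN hℓB A hA g hg =>
    (s59e_bc_charpoly (θ : D0.R →+* (s59e_adj 𝒪 aX)) hθl D0.ρ g).trans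
      (hfrob ℓ hℓ (fun h => hℓB (Finset.mem_coe.mpr h)) A hA g hg)
  have hgenR : Algebra.adjoin 𝒪 {x : (s59e_adj 𝒪 aX) | ∃ ℓ : ℕ, ℓ.Prime ∧ ¬ ℓ ∣ N₂ ∧
      ℓ ∉ (↑B : Set ℕ) ∧ x = s59e_tOf (↑B : Set ℕ) aX ℓ} = ⊤ :=
    s59b_adjoin_tOf B hNB₂ aX N₂ (dvd_refl N₂)
  exact hcontra ⟨e₁, h1e₁, hid₁, hnil₁, hρ₁, e₂, h1e₂, hid₂, hnil₂, hρ₂, hcb, d₁, d₂, b₁, hb₁, b₂, hb₂,
    P, hP, hPP, hmem, hbase, hd1, hd0, b, hb, a₀, ha1₀, aX, haX, hlr, hnoeth, hfinR, hcompl, hlh,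
    hRρ, θ, hθ, hθl, hRres, hMfin, hMnt, hfrobR, hgenR, hresR, htype,
    fun g => (s59e_cpTr_map (θ : D0.R →+* (s59e_adj 𝒪 aX)) hθl D0.ρ g).symm⟩

export Internal (s59x_base_pkgZ)

end Fermat.Agent.Lib.S59

end
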