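/-
S59 project, case (P), item [P6] (helper9): **RAISE-p, abstract core, file 1: the kernel of an equivariant
surjection of free `R[Δ]`-modules is free.**

`R` a local ring with `p ∈ 𝔪_R`, `Δ` a finite commutative `p`-group, `F₂`, `F₁` free over `R[Δ]` of ranks `d₂`, `d₁`
(in helper8's `s59t_evalMap` form), `f_A, f_B : F₂ → F₁` equivariant with `(f_A, f_B) : F₂ → F₁²` ONTO.  Then
`2 d₁ ≤ d₂` and there is an equivariant idempotent `P` of `F₂` with image `ker f_A ∩ ker f_B`, and this kernel is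
free over `R[Δ]` of rank `d₂ - 2 d₁` (`s59m_ker_free`; `s59m_ker_free_part`: in the form `s59t_part P`,
`s59t_partRep`, ready for helper8's level constructor).

Method: `F` with the `R[Δ]`-module structure of its representation (`s59m_RepMod`); `R[Δ]` is local (helper8's
`s59t_grpAlg_isLocalRing`); a surjection onto a free module splits, a direct summand of a finite free module over a
local ring is free (`Module.free_of_flat_of_isLocalRing`), ranks add.
-/
import Mathlib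
import Fermat.Agent.Lib.S59.TGrpAlg
import Fermat.Agent.Lib.S59.TFree
import Fermat.Agent.Lib.S59.TWrap

set_option autoImplicit false
set_option linter.unusedSectionVars false
set_option linter.unusedVariables false
set_option linter.style.haveILetI false

open scoped BigOperators
open IsLocalRing

noncomputable section

namespace Fermat.Agent.Lib.S59

section RepMod

variable {R : Type*} [CommRing R] {Δ : Type*} [CommGroup Δ] {V : Type*} [AddCommGroup V] [Module R V]

/-- `V` with the `R[Δ]`-module structure of the representation `ρ`. -/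
def s59m_RepMod (_ρ : Δ →* Module.End R V) : Type _ := V

instance s59m_RepMod.instAddCommGroup (ρ : Δ →* Module.End R V) : AddCommGroup (s59m_RepMod ρ) :=
  inferInstanceAs (AddCommGroup V)

/-- the ring homomorphism `R[Δ] → End_R V` of a representation. -/
def s59m_repHom (ρ : Δ →* Module.End R V) : MonoidAlgebra R Δ →+* Module.End R V :=
  (MonoidAlgebra.lift R (Module.End R V) Δ ρ : MonoidAlgebra R Δ →ₐ[R] Module.End R V)

instance s59m_RepMod.instModule (ρ : Δ →* Module.End R V) :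
    Module (MonoidAlgebra R Δ) (s59m_RepMod ρ) :=
  Module.compHom V (s59m_repHom ρ)

/-- the identity `V → s59m_RepMod ρ`. -/
def s59m_toRep (ρ : Δ →* Module.End R V) : V ≃+ s59m_RepMod ρ := AddEquiv.refl V

theorem s59m_smul_def (ρ : Δ →* Module.End R V) (x : MonoidAlgebra R Δ) (v : s59m_RepMod ρ) :
    x • v = s59m_toRep ρ (s59m_repHom ρ x ((s59m_toRep ρ).symm v)) := rfl

theorem s59m_of_smul (ρ : Δ →* Module.End R V) (δ : Δ) (v : s59m_RepMod ρ) :
    MonoidAlgebra.of R Δ δ • v = s59m_toRep ρ (ρ δ ((s59m_toRep ρ).symm v)) := by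
  rw [s59m_smul_def]
  congr 2
  show (MonoidAlgebra.lift R (Module.End R V) Δ ρ) (MonoidAlgebra.of R Δ δ) = ρ δ
  rw [MonoidAlgebra.lift_of]

theorem s59m_algebraMap_smul (ρ : Δ →* Module.End R V) (r : R) (v : s59m_RepMod ρ) :
    algebraMap R (MonoidAlgebra R Δ) r • v = s59m_toRep ρ (r • (s59m_toRep ρ).symm v) := by
  rw [s59m_smul_def]
  congr 1
  show (MonoidAlgebra.lift R (Module.End R V) Δ ρ) (algebraMap R (MonoidAlgebra R Δ) r) _ = _
  rw [AlgHom.commutes, Module.algebraMap_end_apply]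

variable [Fintype Δ]

/-- coefficients: `R[Δ] ≃ₗ[R] (Δ → R)`. -/
def s59m_coef (R : Type*) [CommRing R] (Δ : Type*) [CommGroup Δ] [Fintype Δ] :
    MonoidAlgebra R Δ ≃ₗ[R] (Δ → R) :=
  (MonoidAlgebra.coeffLinearEquiv R).trans (Finsupp.linearEquivFunOnFinite R R Δ)

theorem s59m_coef_apply (x : MonoidAlgebra R Δ) (δ : Δ) : s59m_coef R Δ x δ = x.coeff δ := rfl

/-- the action in coordinates: `x • v = ∑_δ x_δ • ρ δ v`. -/
theorem s59m_smul_eq_sum (ρ : Δ →* Module.End R V) (x : MonoidAlgebra R Δ) (v : s59m_RepMod ρ) :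
    x • v = s59m_toRep ρ (∑ δ, s59m_coef R Δ x δ • ρ δ ((s59m_toRep ρ).symm v)) := by
  rw [s59m_smul_def]
  congr 1
  show (MonoidAlgebra.lift R (Module.End R V) Δ ρ) x _ = _
  rw [MonoidAlgebra.lift_apply,
    Finsupp.sum_fintype x.coeff (fun a b => b • ρ a) (fun i => zero_smul _ _), LinearMap.sum_apply]
  rfl

/-- helper8's evaluation map is the `R[Δ]`-linear combination. -/
theorem s59m_evalMap_eq (ρ : Δ →* Module.End R V) {d : ℕ} (b : Fin d → V) (c : Fin d → Δ → R) :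
    s59m_toRep ρ (s59t_evalMap ρ b c) =
      ∑ i, (s59m_coef R Δ).symm (c i) • s59m_toRep ρ (b i) := by
  rw [s59t_evalMap_apply, map_sum]
  refine Finset.sum_congr rfl fun i _ => ?_
  rw [s59m_smul_eq_sum]
  congr 1

end RepMod

section FreeRep

variable {R : Type*} [CommRing R] {Δ : Type*} [CommGroup Δ] [Fintype Δ]
  {V : Type*} [AddCommGroup V] [Module R V]

/-- the `R[Δ]`-linear map `R[Δ]^d → V` of a family. -/
def s59m_lin (ρ : Δ →* Module.End R V) {d : ℕ} (b : Fin d → V) :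
    (Fin d → MonoidAlgebra R Δ) →ₗ[MonoidAlgebra R Δ] s59m_RepMod ρ :=
  Fintype.linearCombination (MonoidAlgebra R Δ) (fun i => s59m_toRep ρ (b i))

theorem s59m_lin_apply (ρ : Δ →* Module.End R V) {d : ℕ} (b : Fin d → V)
    (x : Fin d → MonoidAlgebra R Δ) : s59m_lin ρ b x = ∑ i, x i • s59m_toRep ρ (b i) := by
  rw [s59m_lin, Fintype.linearCombination_apply]

theorem s59m_lin_eq_evalMap (ρ : Δ →* Module.End R V) {d : ℕ} (b : Fin d → V)
    (x : Fin d → MonoidAlgebra R Δ) :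
    s59m_lin ρ b x = s59m_toRep ρ (s59t_evalMap ρ b (fun i => s59m_coef R Δ (x i))) := by
  rw [s59m_lin_apply, s59m_evalMap_eq]
  refine Finset.sum_congr rfl fun i _ => ?_
  rw [LinearEquiv.symm_apply_apply]

theorem s59m_lin_bijective (ρ : Δ →* Module.End R V) {d : ℕ} (b : Fin d → V)
    (hb : Function.Bijective (s59t_evalMap ρ b)) : Function.Bijective (s59m_lin ρ b) := by
  constructor
  · intro x y hxy
    rw [s59m_lin_eq_evalMap, s59m_lin_eq_evalMap] at hxy
    have h1 := hb.1 ((s59m_toRep ρ).injective hxy)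
    funext i
    exact (s59m_coef R Δ).injective (congrFun h1 i)
  · intro v
    obtain ⟨c, hc⟩ := hb.2 ((s59m_toRep ρ).symm v)
    refine ⟨fun i => (s59m_coef R Δ).symm (c i), ?_⟩
    rw [s59m_lin_eq_evalMap]
    have : (fun i => s59m_coef R Δ ((s59m_coef R Δ).symm (c i))) = c := by
      funext i
      rw [LinearEquiv.apply_symm_apply]
    rw [this, hc, AddEquiv.apply_symm_apply]

/-- the `R[Δ]`-linear equivalence `R[Δ]^d ≃ V` of a basis in `s59t_evalMap` form. -/
def s59m_linEquiv (ρ : Δ →* Module.End R V) {d : ℕ} (b : Fin d → V)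
    (hb : Function.Bijective (s59t_evalMap ρ b)) :
    (Fin d → MonoidAlgebra R Δ) ≃ₗ[MonoidAlgebra R Δ] s59m_RepMod ρ :=
  LinearEquiv.ofBijective (s59m_lin ρ b) (s59m_lin_bijective ρ b hb)

theorem s59m_free_of_evalMap (ρ : Δ →* Module.End R V) {d : ℕ} (b : Fin d → V)
    (hb : Function.Bijective (s59t_evalMap ρ b)) :
    Module.Free (MonoidAlgebra R Δ) (s59m_RepMod ρ) :=
  Module.Free.of_equiv (s59m_linEquiv ρ b hb)

theorem s59m_finite_of_evalMap (ρ : Δ →* Module.End R V) {d : ℕ} (b : Fin d → V)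
    (hb : Function.Bijective (s59t_evalMap ρ b)) :
    Module.Finite (MonoidAlgebra R Δ) (s59m_RepMod ρ) :=
  Module.Finite.equiv (s59m_linEquiv ρ b hb)

theorem s59m_finrank_of_evalMap [Nontrivial R] (ρ : Δ →* Module.End R V) {d : ℕ} (b : Fin d → V)
    (hb : Function.Bijective (s59t_evalMap ρ b)) :
    Module.finrank (MonoidAlgebra R Δ) (s59m_RepMod ρ) = d := by
  rw [← (s59m_linEquiv ρ b hb).finrank_eq, Module.finrank_fin_fun]

/-- an equivariant `R`-linear map is `R[Δ]`-linear. -/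
def s59m_linOfEquivariant {W : Type*} [AddCommGroup W] [Module R W]
    (ρ : Δ →* Module.End R V) (ρ' : Δ →* Module.End R W) (f : V →ₗ[R] W)
    (hf : ∀ δ x, f (ρ δ x) = ρ' δ (f x)) :
    s59m_RepMod ρ →ₗ[MonoidAlgebra R Δ] s59m_RepMod ρ' where
  toFun v := s59m_toRep ρ' (f ((s59m_toRep ρ).symm v))
  map_add' v w := by
    rw [map_add, map_add, map_add]
  map_smul' x v := by
    rw [RingHom.id_apply, s59m_smul_eq_sum, s59m_smul_eq_sum, AddEquiv.symm_apply_apply, map_sum,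
      AddEquiv.symm_apply_apply]
    congr 1
    refine Finset.sum_congr rfl fun δ _ => ?_
    rw [map_smul, hf]

theorem s59m_linOfEquivariant_apply {W : Type*} [AddCommGroup W] [Module R W]
    (ρ : Δ →* Module.End R V) (ρ' : Δ →* Module.End R W) (f : V →ₗ[R] W)
    (hf : ∀ δ x, f (ρ δ x) = ρ' δ (f x)) (v : s59m_RepMod ρ) :
    s59m_linOfEquivariant ρ ρ' f hf v = s59m_toRep ρ' (f ((s59m_toRep ρ).symm v)) := rfl

/-- an `R[Δ]`-linear endomorphism as an `R`-linear one. -/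
def s59m_endOfLin (ρ : Δ →* Module.End R V)
    (P : s59m_RepMod ρ →ₗ[MonoidAlgebra R Δ] s59m_RepMod ρ) : Module.End R V where
  toFun v := (s59m_toRep ρ).symm (P (s59m_toRep ρ v))
  map_add' v w := by
    rw [map_add, map_add, map_add]
  map_smul' r v := by
    have h1 : s59m_toRep ρ (r • v) = algebraMap R (MonoidAlgebra R Δ) r • s59m_toRep ρ v := by
      rw [s59m_algebraMap_smul, AddEquiv.symm_apply_apply]
    rw [RingHom.id_apply, h1, map_smul, s59m_algebraMap_smul, AddEquiv.symm_apply_apply]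

theorem s59m_endOfLin_apply (ρ : Δ →* Module.End R V)
    (P : s59m_RepMod ρ →ₗ[MonoidAlgebra R Δ] s59m_RepMod ρ) (v : V) :
    s59m_endOfLin ρ P v = (s59m_toRep ρ).symm (P (s59m_toRep ρ v)) := rfl

theorem s59m_endOfLin_equivariant (ρ : Δ →* Module.End R V)
    (P : s59m_RepMod ρ →ₗ[MonoidAlgebra R Δ] s59m_RepMod ρ) (δ : Δ) (v : V) :
    s59m_endOfLin ρ P (ρ δ v) = ρ δ (s59m_endOfLin ρ P v) := by
  have h1 : s59m_toRep ρ (ρ δ v) = MonoidAlgebra.of R Δ δ • s59m_toRep ρ v := by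
    rw [s59m_of_smul, AddEquiv.symm_apply_apply]
  rw [s59m_endOfLin_apply, h1, map_smul, s59m_of_smul, AddEquiv.symm_apply_apply]
  rfl

end FreeRep

section KerFree

variable {p : ℕ} [hp : Fact p.Prime] {R : Type*} [CommRing R] [IsLocalRing R]
  {Δ : Type*} [CommGroup Δ] [Fintype Δ]
  {F₂ : Type*} [AddCommGroup F₂] [Module R F₂] {F₁ : Type*} [AddCommGroup F₁] [Module R F₁]

/-- **the kernel of an equivariant surjection `F₂ → F₁²` of free `R[Δ]`-modules is a free direct summand.** -/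
theorem s59m_ker_free (hpm : (p : R) ∈ maximalIdeal R) (hΔ : ∀ δ : Δ, ∃ n : ℕ, δ ^ (p ^ n) = 1)
    (ρ₂ : Δ →* Module.End R F₂) (ρ₁ : Δ →* Module.End R F₁)
    {d₂ d₁ : ℕ} (b₂ : Fin d₂ → F₂) (hb₂ : Function.Bijective (s59t_evalMap ρ₂ b₂))
    (b₁ : Fin d₁ → F₁) (hb₁ : Function.Bijective (s59t_evalMap ρ₁ b₁))
    (fA fB : F₂ →ₗ[R] F₁) (hfA : ∀ δ x, fA (ρ₂ δ x) = ρ₁ δ (fA x))
    (hfB : ∀ δ x, fB (ρ₂ δ x) = ρ₁ δ (fB x))
    (hsurj : ∀ y₁ y₂ : F₁, ∃ z : F₂, fA z = y₁ ∧ fB z = y₂) :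
    2 * d₁ ≤ d₂ ∧ ∃ P : Module.End R F₂, P * P = P ∧ (∀ δ x, P (ρ₂ δ x) = ρ₂ δ (P x)) ∧
      (∀ x, fA (P x) = 0) ∧ (∀ x, fB (P x) = 0) ∧ (∀ x, fA x = 0 → fB x = 0 → P x = x) ∧
      ∃ b : Fin (d₂ - 2 * d₁) → F₂, (∀ i, fA (b i) = 0) ∧ (∀ i, fB (b i) = 0) ∧
        Function.Injective (s59t_evalMap ρ₂ b) ∧
        ∀ x, fA x = 0 → fB x = 0 → ∃ c, s59t_evalMap ρ₂ b c = x := by
  classical
  haveI : IsLocalRing (MonoidAlgebra R Δ) := s59t_grpAlg_isLocalRing hpm hΔ
  haveI := s59m_free_of_evalMap ρ₂ b₂ hb₂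
  haveI := s59m_finite_of_evalMap ρ₂ b₂ hb₂
  haveI := s59m_free_of_evalMap ρ₁ b₁ hb₁
  haveI := s59m_finite_of_evalMap ρ₁ b₁ hb₁
  set gA := s59m_linOfEquivariant ρ₂ ρ₁ fA hfA with hgA
  set gB := s59m_linOfEquivariant ρ₂ ρ₁ fB hfB with hgB
  set g : s59m_RepMod ρ₂ →ₗ[MonoidAlgebra R Δ] (s59m_RepMod ρ₁ × s59m_RepMod ρ₁) :=
    gA.prod gB with hg
  have hgapp : ∀ x, g x = (gA x, gB x) := fun x => rfl
  have hgsurj : Function.Surjective g := by
    rintro ⟨y₁, y₂⟩
    obtain ⟨z, h1, h2⟩ := hsurj ((s59m_toRep ρ₁).symm y₁) ((s59m_toRep ρ₁).symm y₂)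
    refine ⟨s59m_toRep ρ₂ z, ?_⟩
    rw [hgapp, s59m_linOfEquivariant_apply, s59m_linOfEquivariant_apply,
      AddEquiv.symm_apply_apply, h1, h2, AddEquiv.apply_symm_apply, AddEquiv.apply_symm_apply]
  obtain ⟨s, hs⟩ := Module.projective_lifting_property g LinearMap.id hgsurj
  have hgs : ∀ y, g (s y) = y := fun y => LinearMap.congr_fun hs y
  set PΛ : s59m_RepMod ρ₂ →ₗ[MonoidAlgebra R Δ] s59m_RepMod ρ₂ := LinearMap.id - s ∘ₗ g with hPΛ
  have hPΛa : ∀ x, PΛ x = x - s (g x) := fun x => rfl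
  have hgP : ∀ x, g (PΛ x) = 0 := by
    intro x
    rw [hPΛa, map_sub, hgs, sub_self]
  have hPk : ∀ x, g x = 0 → PΛ x = x := by
    intro x hx
    rw [hPΛa, hx, map_zero, sub_zero]
  set K : Submodule (MonoidAlgebra R Δ) (s59m_RepMod ρ₂) := LinearMap.ker g with hK
  set π : s59m_RepMod ρ₂ →ₗ[MonoidAlgebra R Δ] K :=
    PΛ.codRestrict K (fun x => LinearMap.mem_ker.mpr (hgP x)) with hπ
  have hπK : π ∘ₗ K.subtype = LinearMap.id := by
    refine LinearMap.ext fun x => Subtype.ext ?_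
    exact hPk x.1 (LinearMap.mem_ker.mp x.2)
  haveI : Module.Projective (MonoidAlgebra R Δ) K := Module.Projective.of_split K.subtype π hπK
  haveI : Module.Finite (MonoidAlgebra R Δ) K :=
    Module.Finite.of_surjective π (fun k => ⟨k.1, LinearMap.congr_fun hπK k⟩)
  haveI : Module.Free (MonoidAlgebra R Δ) K := Module.free_of_flat_of_isLocalRing
  -- the splitting
  let e : s59m_RepMod ρ₂ ≃ₗ[MonoidAlgebra R Δ] K × (s59m_RepMod ρ₁ × s59m_RepMod ρ₁) :=
    LinearEquiv.ofLinearMap (π.prod g) (K.subtype.coprod s)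
      (by
        refine LinearMap.ext fun x => ?_
        obtain ⟨k, y⟩ := x
        rw [LinearMap.comp_apply, LinearMap.coprod_apply, LinearMap.id_apply]
        show (π (K.subtype k + s y), g (K.subtype k + s y)) = (k, y)
        rw [map_add, map_add, hgs]
        have h1 : g (K.subtype k) = 0 := LinearMap.mem_ker.mp k.2
        have h2 : π (K.subtype k) = k := LinearMap.congr_fun hπK k
        have h3 : π (s y) = 0 := by
          apply Subtype.ext
          show PΛ (s y) = 0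
          rw [hPΛa, hgs, sub_self]
        rw [h1, h2, h3, add_zero, zero_add])
      (by
        refine LinearMap.ext fun x => ?_
        rw [LinearMap.comp_apply, LinearMap.id_apply]
        show PΛ x + s (g x) = x
        rw [hPΛa, sub_add_cancel])
  have hrank : d₂ = Module.finrank (MonoidAlgebra R Δ) K + (d₁ + d₁) := by
    rw [← s59m_finrank_of_evalMap ρ₂ b₂ hb₂, e.finrank_eq, Module.finrank_prod, Module.finrank_prod,
      s59m_finrank_of_evalMap ρ₁ b₁ hb₁]
  have hle : 2 * d₁ ≤ d₂ := by omega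
  have hdK : Module.finrank (MonoidAlgebra R Δ) K = d₂ - 2 * d₁ := by omega
  refine ⟨hle, s59m_endOfLin ρ₂ PΛ, ?_, fun δ x => s59m_endOfLin_equivariant ρ₂ PΛ δ x, ?_, ?_, ?_, ?_⟩
  · refine LinearMap.ext fun x => ?_
    rw [Module.End.mul_apply, s59m_endOfLin_apply, s59m_endOfLin_apply, AddEquiv.apply_symm_apply,
      hPk _ (hgP _)]
  · intro x
    have := congrArg Prod.fst (hgP (s59m_toRep ρ₂ x))
    rw [hgapp, s59m_linOfEquivariant_apply] at this
    exact this
  · intro x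
    have := congrArg Prod.snd (hgP (s59m_toRep ρ₂ x))
    rw [hgapp, s59m_linOfEquivariant_apply] at this
    exact this
  · intro x hA hB
    have h0 : g (s59m_toRep ρ₂ x) = 0 := by
      rw [hgapp, s59m_linOfEquivariant_apply,
        s59m_linOfEquivariant_apply, AddEquiv.symm_apply_apply, hA, hB, map_zero]
      rfl
    rw [s59m_endOfLin_apply, hPk _ h0, AddEquiv.symm_apply_apply]
  · -- the basis
    let β : Module.Basis (Fin (d₂ - 2 * d₁)) (MonoidAlgebra R Δ) K :=
      (Module.finBasis (MonoidAlgebra R Δ) K).reindex (finCongr hdK)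
    have hβg : ∀ i, g (β i : s59m_RepMod ρ₂) = 0 := fun i => LinearMap.mem_ker.mp (β i).2
    have hev : ∀ c : Fin (d₂ - 2 * d₁) → Δ → R,
        s59m_toRep ρ₂ (s59t_evalMap ρ₂ (fun i => (s59m_toRep ρ₂).symm (β i : s59m_RepMod ρ₂)) c) =
          ((∑ i, (s59m_coef R Δ).symm (c i) • β i : K) : s59m_RepMod ρ₂) := by
      intro c
      rw [s59m_evalMap_eq, Submodule.coe_sum]
      refine Finset.sum_congr rfl fun i _ => ?_
      rw [Submodule.coe_smul, AddEquiv.apply_symm_apply]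
    refine ⟨fun i => (s59m_toRep ρ₂).symm (β i : s59m_RepMod ρ₂), ?_, ?_, ?_, ?_⟩
    · intro i
      have := congrArg Prod.fst (hβg i)
      rw [hgapp, s59m_linOfEquivariant_apply] at this
      exact this
    · intro i
      have := congrArg Prod.snd (hβg i)
      rw [hgapp, s59m_linOfEquivariant_apply] at this
      exact this
    · intro c c' hcc
      have h1 : (∑ i, (s59m_coef R Δ).symm (c i) • β i : K) =
          ∑ i, (s59m_coef R Δ).symm (c' i) • β i := by
        apply Subtype.ext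
        rw [← hev, ← hev, hcc]
      have h2 : (fun i => (s59m_coef R Δ).symm (c i)) = fun i => (s59m_coef R Δ).symm (c' i) := by
        have h3 := β.equivFun.symm.injective (a₁ := fun i => (s59m_coef R Δ).symm (c i))
          (a₂ := fun i => (s59m_coef R Δ).symm (c' i))
        apply h3
        rw [Module.Basis.equivFun_symm_apply, Module.Basis.equivFun_symm_apply]
        exact h1
      funext i
      exact (s59m_coef R Δ).symm.injective (congrFun h2 i)
    · intro x hA hB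
      have h0 : g (s59m_toRep ρ₂ x) = 0 := by
        rw [hgapp, s59m_linOfEquivariant_apply,
          s59m_linOfEquivariant_apply, AddEquiv.symm_apply_apply, hA, hB, map_zero]
        rfl
      set k : K := ⟨s59m_toRep ρ₂ x, LinearMap.mem_ker.mpr h0⟩ with hk
      refine ⟨fun i => s59m_coef R Δ (β.repr k i), ?_⟩
      apply (s59m_toRep ρ₂).injective
      rw [hev]
      have h4 : (∑ i, (s59m_coef R Δ).symm (s59m_coef R Δ (β.repr k i)) • β i : K) = k := by
        simp only [LinearEquiv.symm_apply_apply]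
        exact β.sum_repr k
      rw [h4]

/-- coercion of helper8's evaluation map on a part. -/
theorem s59m_evalMap_part_coe (ρ₂ : Δ →* Module.End R F₂) {P : Module.End R F₂}
    (hP : ∀ δ x, P (ρ₂ δ x) = ρ₂ δ (P x)) {d : ℕ} (b : Fin d → s59t_part P) (c : Fin d → Δ → R) :
    ((s59t_evalMap (s59t_partRep ρ₂ hP) b c : s59t_part P) : F₂) =
      s59t_evalMap ρ₂ (fun i => (b i : F₂)) c := by
  rw [s59t_evalMap_apply, s59t_evalMap_apply, Submodule.coe_sum]
  refine Finset.sum_congr rfl fun i _ => ?_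
  rw [Submodule.coe_sum]
  refine Finset.sum_congr rfl fun δ _ => ?_
  rw [Submodule.coe_smul]
  rfl

/-- **the kernel of an equivariant surjection `F₂ → F₁²` of free `R[Δ]`-modules**, in the form of a part
`s59t_part P` with its representation `s59t_partRep ρ₂ hP`. -/
theorem s59m_ker_free_part (hpm : (p : R) ∈ maximalIdeal R) (hΔ : ∀ δ : Δ, ∃ n : ℕ, δ ^ (p ^ n) = 1)
    (ρ₂ : Δ →* Module.End R F₂) (ρ₁ : Δ →* Module.End R F₁)
    {d₂ d₁ : ℕ} (b₂ : Fin d₂ → F₂) (hb₂ : Function.Bijective (s59t_evalMap ρ₂ b₂))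
    (b₁ : Fin d₁ → F₁) (hb₁ : Function.Bijective (s59t_evalMap ρ₁ b₁))
    (fA fB : F₂ →ₗ[R] F₁) (hfA : ∀ δ x, fA (ρ₂ δ x) = ρ₁ δ (fA x))
    (hfB : ∀ δ x, fB (ρ₂ δ x) = ρ₁ δ (fB x))
    (hsurj : ∀ y₁ y₂ : F₁, ∃ z : F₂, fA z = y₁ ∧ fB z = y₂) :
    2 * d₁ ≤ d₂ ∧ ∃ (P : Module.End R F₂) (hP : ∀ δ x, P (ρ₂ δ x) = ρ₂ δ (P x)), P * P = P ∧
      (∀ x, x ∈ s59t_part P ↔ fA x = 0 ∧ fB x = 0) ∧
      ∃ b : Fin (d₂ - 2 * d₁) → s59t_part P,
        Function.Bijective (s59t_evalMap (s59t_partRep ρ₂ hP) b) := by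
  obtain ⟨hle, P, hPP, hP, hA, hB, hPk, b, hbA, hbB, hinj, hsur⟩ :=
    s59m_ker_free hpm hΔ ρ₂ ρ₁ b₂ hb₂ b₁ hb₁ fA fB hfA hfB hsurj
  have hmem : ∀ x, x ∈ s59t_part P ↔ fA x = 0 ∧ fB x = 0 := by
    intro x
    constructor
    · rintro ⟨y, rfl⟩
      exact ⟨hA y, hB y⟩
    · rintro ⟨h1, h2⟩
      exact ⟨x, hPk x h1 h2⟩
  refine ⟨hle, P, hP, hPP, hmem, fun i => ⟨b i, (hmem _).mpr ⟨hbA i, hbB i⟩⟩, ?_, ?_⟩
  · intro c c' hcc
    apply hinj
    have := congrArg (fun z : s59t_part P => (z : F₂)) hcc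
    simp only [s59m_evalMap_part_coe] at this
    exact this
  · intro x
    obtain ⟨c, hc⟩ := hsur x.1 ((hmem _).mp x.2).1 ((hmem _).mp x.2).2
    refine ⟨c, Subtype.ext ?_⟩
    rw [s59m_evalMap_part_coe]
    exact hc

end KerFree

end Fermat.Agent.Lib.S59
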