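/-
Programme (R) = S59, node (E) module half (helper8), file 78: **the module-side binders of the
abstract level theorem**, extracted from a `s59t_TWFull` package.

* `s59t_TWFullAbs ρZ ρZ' φ res B C ε ε'` : the GENERIC form of `s59t_TWFull` (arbitrary modules `Z`, `Z'`
  with group actions, `φ : Δ' → Δ`, `res : Z → Z'`); `s59t_TWFull_iff_abs` (by `Iff.rfl`);
* `s59t_TWFullAbs.level_binders` : with the rank of the level-`n` module normalised to the rank `d₀`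
  of a given basis at the base level (rank uniqueness), the outputs in the exact binder shapes of
  helper5's `s59e_TLevel_abs`: `b' hb' π h2 h3 h4 (χ' := χ.comp φ) k2 k3 k4`, plus the
  `ι`/`π` clauses.  Stated generically, so that it elaborates fast and instantiates by unification.
-/
import Mathlib
import Fermat.Agent.Lib.S59.TLvlCtl
import Fermat.Agent.Lib.S59.TLvlFin

set_option autoImplicit false
set_option linter.unusedSectionVars false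
set_option linter.style.haveILetI false
set_option linter.unusedVariables false

noncomputable section

namespace Fermat.Agent.Lib.S59

open Matrix MatrixGroups CongruenceSubgroup IsLocalRing
open Fermat.Agent.Lib.S29 Fermat.Agent.Lib.S48 Fermat.Agent.Lib.S41

section Gen

variable {𝒪 : Type} [CommRing 𝒪]
  {Δ Δ' : Type} [CommGroup Δ] [Fintype Δ] [CommGroup Δ'] [Fintype Δ']
  {Z Z' : Type} [AddCommGroup Z] [Module 𝒪 Z] [AddCommGroup Z'] [Module 𝒪 Z']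
  (ρZ : Δ →* Module.End 𝒪 Z) (ρZ' : Δ' →* Module.End 𝒪 Z') (φ : Δ' →* Δ) (res : Z →ₗ[𝒪] Z')
  (B C : Subgroup Δ') [Fintype B] [Fintype C] (ε : Module.End 𝒪 Z) (ε' : Module.End 𝒪 Z')

/-- the generic form of `s59t_TWFull`. -/
def s59t_TWFullAbs : Prop :=
  ∃ (hρ : ∀ δ y, ε (ρZ δ y) = ρZ δ (ε y))
    (hρ' : ∀ δ y, ε' (ρZ' δ y) = ρZ' δ (ε' y))
    (d : ℕ) (b : Fin d → s59t_part ε) (b' : Fin d → s59t_part ε')
    (π : s59t_part ε' →ₗ[𝒪] s59t_part ε),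
    Function.Bijective (s59t_evalMap (s59t_partRep ρZ hρ) b) ∧
    Function.Bijective (s59t_evalMap (s59t_partRep ρZ' hρ') b') ∧
    Function.Injective (s59t_iotaH ε ε' res) ∧
    (∀ y : s59t_part ε', (∀ β ∈ B, s59t_partRep ρZ' hρ' β y = y) →
      ∃ x, s59t_iotaH ε ε' res x = y) ∧
    (∀ y, s59t_iotaH ε ε' res (π y) = s59t_normPsi (s59t_partRep ρZ' hρ') B 1 y) ∧
    Function.Surjective π ∧
    LinearMap.ker π = Submodule.span 𝒪 {z : s59t_part ε' |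
      ∃ β ∈ B, ∃ y, z = s59t_partRep ρZ' hρ' β y - y} ∧
    (∀ δ' y, π (s59t_partRep ρZ' hρ' δ' y) = s59t_partRep ρZ hρ (φ δ') (π y)) ∧
    (∀ (T : Module.End 𝒪 Z) (T' : Module.End 𝒪 Z')
      (hT : ∀ y, ε (T y) = T (ε y)) (hT' : ∀ y, ε' (T' y) = T' (ε' y)),
      (∀ x, res (T x) = T' (res x)) →
      (∀ δ' y, T' (ρZ' δ' y) = ρZ' δ' (T' y)) →
      ∀ y, π (s59t_partMap T' hT' y) = s59t_partMap T hT (π y)) ∧
    ((∀ y ∈ s59t_eig (s59t_partRep ρZ' hρ') C (1 : Δ' →* 𝒪ˣ),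
        π y ∈ s59t_eig (s59t_partRep ρZ hρ) ⊤ (1 : Δ →* 𝒪ˣ)) ∧
      (∀ x ∈ s59t_eig (s59t_partRep ρZ hρ) ⊤ (1 : Δ →* 𝒪ˣ),
        ∃ y ∈ s59t_eig (s59t_partRep ρZ' hρ') C (1 : Δ' →* 𝒪ˣ), π y = x) ∧
      (∀ y ∈ s59t_eig (s59t_partRep ρZ' hρ') C (1 : Δ' →* 𝒪ˣ),
        π y = 0 → y ∈ Submodule.span 𝒪 {z : s59t_part ε' | ∃ β ∈ B,
          ∃ y' ∈ s59t_eig (s59t_partRep ρZ' hρ') C (1 : Δ' →* 𝒪ˣ),
          z = s59t_partRep ρZ' hρ' β y' - y'})) ∧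
    (∀ χ : Δ →* 𝒪ˣ,
      (∀ y ∈ s59t_eig (s59t_partRep ρZ' hρ') C (χ.comp φ),
        π y ∈ s59t_eig (s59t_partRep ρZ hρ) ⊤ χ) ∧
      (∀ x ∈ s59t_eig (s59t_partRep ρZ hρ) ⊤ χ,
        ∃ y ∈ s59t_eig (s59t_partRep ρZ' hρ') C (χ.comp φ), π y = x) ∧
      (∀ y ∈ s59t_eig (s59t_partRep ρZ' hρ') C (χ.comp φ),
        π y = 0 → y ∈ Submodule.span 𝒪 {z : s59t_part ε' | ∃ β ∈ B,
          ∃ y' ∈ s59t_eig (s59t_partRep ρZ' hρ') C (χ.comp φ),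
          z = s59t_partRep ρZ' hρ' β y' - y'}))

variable {ρZ ρZ' φ res B C ε ε'}

/-- **the module-side binders of `s59e_TLevel_abs`** from a (generic) Taylor–Wiles package, with
the rank normalised to that of a given basis `b₀` at the base level. -/
theorem s59t_TWFullAbs.level_binders [Nontrivial 𝒪]
    (hfull : s59t_TWFullAbs ρZ ρZ' φ res B C ε ε')
    (hρ : ∀ δ y, ε (ρZ δ y) = ρZ δ (ε y)) (hρ' : ∀ δ y, ε' (ρZ' δ y) = ρZ' δ (ε' y))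
    {d₀ : ℕ} (b₀ : Fin d₀ → s59t_part ε)
    (hb₀ : Function.Bijective (s59t_evalMap (s59t_partRep ρZ hρ) b₀))
    (χ : Δ →* 𝒪ˣ) :
    ∃ (b' : Fin d₀ → s59t_part ε') (π : s59t_part ε' →ₗ[𝒪] s59t_part ε),
      Function.Bijective (s59t_evalMap (s59t_partRep ρZ' hρ') b') ∧
      -- `h2 h3 h4`
      (∀ y ∈ s59t_eig (s59t_partRep ρZ' hρ') C (1 : Δ' →* 𝒪ˣ),
        π y ∈ s59t_eig (s59t_partRep ρZ hρ) ⊤ (1 : Δ →* 𝒪ˣ)) ∧
      (∀ x ∈ s59t_eig (s59t_partRep ρZ hρ) ⊤ (1 : Δ →* 𝒪ˣ),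
        ∃ y ∈ s59t_eig (s59t_partRep ρZ' hρ') C (1 : Δ' →* 𝒪ˣ), π y = x) ∧
      (∀ y ∈ s59t_eig (s59t_partRep ρZ' hρ') C (1 : Δ' →* 𝒪ˣ),
        π y = 0 → y ∈ Submodule.span 𝒪 {z : s59t_part ε' | ∃ β ∈ B,
          ∃ y' ∈ s59t_eig (s59t_partRep ρZ' hρ') C (1 : Δ' →* 𝒪ˣ),
          z = s59t_partRep ρZ' hρ' β y' - y'}) ∧
      -- `k2 k3 k4`
      (∀ y ∈ s59t_eig (s59t_partRep ρZ' hρ') C (χ.comp φ),
        π y ∈ s59t_eig (s59t_partRep ρZ hρ) ⊤ χ) ∧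
      (∀ x ∈ s59t_eig (s59t_partRep ρZ hρ) ⊤ χ,
        ∃ y ∈ s59t_eig (s59t_partRep ρZ' hρ') C (χ.comp φ), π y = x) ∧
      (∀ y ∈ s59t_eig (s59t_partRep ρZ' hρ') C (χ.comp φ),
        π y = 0 → y ∈ Submodule.span 𝒪 {z : s59t_part ε' | ∃ β ∈ B,
          ∃ y' ∈ s59t_eig (s59t_partRep ρZ' hρ') C (χ.comp φ),
          z = s59t_partRep ρZ' hρ' β y' - y'}) ∧
      -- `ι`, `π`
      Function.Injective (s59t_iotaH ε ε' res) ∧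
      (∀ y : s59t_part ε', (∀ β ∈ B, s59t_partRep ρZ' hρ' β y = y) →
        ∃ x, s59t_iotaH ε ε' res x = y) ∧
      (∀ y, s59t_iotaH ε ε' res (π y) = s59t_normPsi (s59t_partRep ρZ' hρ') B 1 y) ∧
      Function.Surjective π ∧
      (∀ δ' y, π (s59t_partRep ρZ' hρ' δ' y) = s59t_partRep ρZ hρ (φ δ') (π y)) ∧
      (∀ (T : Module.End 𝒪 Z) (T' : Module.End 𝒪 Z')
        (hT : ∀ y, ε (T y) = T (ε y)) (hT' : ∀ y, ε' (T' y) = T' (ε' y)),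
        (∀ x, res (T x) = T' (res x)) →
        (∀ δ' y, T' (ρZ' δ' y) = ρZ' δ' (T' y)) →
        ∀ y, π (s59t_partMap T' hT' y) = s59t_partMap T hT (π y)) := by
  obtain ⟨hρ1, hρ1', d, b, b', π, hb, hb', hinj, himg, hιπ, hπs, hker, hπd, hπT,
    ⟨h2, h3, h4⟩, hk⟩ := hfull
  have hd : d = d₀ := s59t_evalMap_rank_unique (s59t_partRep ρZ hρ) b b₀ hb hb₀
  subst hd
  obtain ⟨k2, k3, k4⟩ := hk χ
  exact ⟨b', π, hb', h2, h3, h4, k2, k3, k4, hinj, himg, hιπ, hπs, hπd, hπT⟩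

/-- the character `χ' = χ ∘ φ` is congruent to `1` modulo `ϖ` if `χ` is (`hχ'`). -/
theorem s59t_chi_comp_sub_one_mem (φ : Δ' →* Δ) (χ : Δ →* 𝒪ˣ) (ϖ : 𝒪)
    (hχϖ : ∀ δ : Δ, ((χ δ : 𝒪ˣ) : 𝒪) - 1 ∈ (Ideal.span {ϖ} : Ideal 𝒪)) (C : Subgroup Δ') :
    ∀ γ ∈ C, (((χ.comp φ) γ : 𝒪ˣ) : 𝒪) - 1 ∈ (Ideal.span {ϖ} : Ideal 𝒪) :=
  fun γ _ => hχϖ _

end Gen

section Concrete

variable {𝒪 : Type} [CommRing 𝒪] [IsDomain 𝒪] [IsDiscreteValuationRing 𝒪]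
  [IsAdicComplete (maximalIdeal 𝒪) 𝒪] [Finite (ResidueField 𝒪)]
  {N N' : ℕ} [NeZero N] [NeZero N'] {H : Subgroup (ZMod N)ˣ} {H' : Subgroup (ZMod N')ˣ}
  (h0 : Gamma0 N' ≤ Gamma0 N) (hle : s48h_GammaH N' H' ≤ s48h_GammaH N H)

set_option maxHeartbeats 1600000 in
/-- `s59t_TWFull` is the generic package at the cohomology modules. -/
theorem s59t_TWFull_iff_abs (B C : Subgroup (s59t_Delta N' H')) [Fintype B] [Fintype C]
    (ε : Module.End 𝒪 (s48h_Hpar 𝒪 (s48h_GammaH N H) 𝒪))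
    (ε' : Module.End 𝒪 (s48h_Hpar 𝒪 (s48h_GammaH N' H') 𝒪)) :
    s59t_TWFull h0 hle B C ε ε' ↔
      s59t_TWFullAbs (s59t_rho N H 𝒪 𝒪) (s59t_rho N' H' 𝒪 𝒪) (s59t_DeltaMap2 h0 hle)
        (s59t_resGHpar hle 𝒪 𝒪) B C ε ε' := Iff.rfl

end Concrete

end Fermat.Agent.Lib.S59
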