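/-
S59 project, [SPEC-T±-abs] (helper2, claimed #3889): **the cut lemma for Taylor–Wiles packages.**

A package `s59t_TWFullAbs ρZ ρZ' φ res B C ε ε'` (helper8, `TLvlBind.lean`; `s59t_TWFull` is the same
statement at the cohomology modules, `s59t_TWFull_iff_abs`) cut by a pair of idempotents `e : End Z`,
`e' : End Z'` that commute with `ε`, `ε'` and with the diamonds `ρZ`, `ρZ'` and are intertwined by `res`
is again a package, for `ε e`, `ε' e'`: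

* `s59b_TWFullAbs_cut` (generic modules) and `s59b_TWFull_cut` (helper8's concrete `s59t_TWFull`);
* `s59b_part_cut_free` : the `e`-cut of a free `ε`-part is free over `R[Δ]`;
* `s59b_retract_free` : an equivariant retract of a free `R[Δ]`-module is free (`R` local, `p ∈ 𝔪_R`, `Δ` a finite
  commutative `p`-group) — helper9's `s59m_RepMod` language + `Module.free_of_flat_of_isLocalRing`;
* `s59b_rank_add`, `s59b_rank_le_of_semilinear_surj` : ranks add along a decomposition into two retracts, and a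
  `φ`-semilinear surjection cannot raise the rank (both through `R`-ranks);
* `s59b_tr_*` : transfer of the clauses (`ι` injective with image the `B`-invariants, `ι π = N_B`, `π` onto with
  kernel the augmentation part, diamond equivariance, control for all characters) along a pair of equivariant
  retracts; the Hecke equivariance of the cut `π` follows from `ι₁` injective and `ι₁ π₁ = N_B` (`s59b_tr_hecke`).

Proof of the rank equality `d₁ = d₁'`: with the complementary idempotents `1 - e`, `1 - e'` one has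
`d₁ + d₂ = d = d₁' + d₂'`, and `d₁ ≤ d₁'`, `d₂ ≤ d₂'` because the cut `π` is onto.
-/
import Mathlib
import Fermat.Agent.Lib.S59.TLvlBind
import Fermat.Agent.Lib.S59.MKerFree

set_option autoImplicit false
set_option linter.unusedSectionVars false
set_option linter.style.haveILetI false
set_option linter.unusedVariables false

open scoped BigOperators
open IsLocalRing

noncomputable section

namespace Fermat.Agent.Lib.S59

section FreeRetract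

variable {p : ℕ} [hp : Fact p.Prime] {R : Type*} [CommRing R]
  {Δ : Type*} [CommGroup Δ] [Fintype Δ]
  {V : Type*} [AddCommGroup V] [Module R V] {V₁ : Type*} [AddCommGroup V₁] [Module R V₁]

/-- helper8's evaluation map through helper9's `R[Δ]`-linear combination. -/
theorem s59b_evalMap_eq_lin (ρ : Δ →* Module.End R V) {d : ℕ} (b : Fin d → V)
    (c : Fin d → Δ → R) :
    s59t_evalMap ρ b c =
      (s59m_toRep ρ).symm (s59m_lin ρ b (fun i => (s59m_coef R Δ).symm (c i))) := by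
  rw [s59m_lin_eq_evalMap, AddEquiv.symm_apply_apply]
  congr 1

theorem s59b_evalMap_bijective_of_lin (ρ : Δ →* Module.End R V) {d : ℕ} (b : Fin d → V)
    (h : Function.Bijective (s59m_lin ρ b)) : Function.Bijective (s59t_evalMap ρ b) := by
  constructor
  · intro c c' hcc
    rw [s59b_evalMap_eq_lin, s59b_evalMap_eq_lin] at hcc
    have h1 := h.1 ((s59m_toRep ρ).symm.injective hcc)
    funext i
    exact (s59m_coef R Δ).symm.injective (congrFun h1 i)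
  · intro v
    obtain ⟨x, hx⟩ := h.2 (s59m_toRep ρ v)
    refine ⟨fun i => s59m_coef R Δ (x i), ?_⟩
    rw [s59b_evalMap_eq_lin]
    have h2 : (fun i => (s59m_coef R Δ).symm (s59m_coef R Δ (x i))) = x := by
      funext i
      rw [LinearEquiv.symm_apply_apply]
    rw [h2, hx, AddEquiv.symm_apply_apply]

theorem s59b_lin_bijective_of_basis (ρ : Δ →* Module.End R V) {d : ℕ}
    (β : Module.Basis (Fin d) (MonoidAlgebra R Δ) (s59m_RepMod ρ)) :
    Function.Bijective (s59m_lin ρ (fun i => (s59m_toRep ρ).symm (β i))) := by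
  have h : ∀ x, s59m_lin ρ (fun i => (s59m_toRep ρ).symm (β i)) x = β.equivFun.symm x := by
    intro x
    rw [s59m_lin_apply, Module.Basis.equivFun_symm_apply]
    refine Finset.sum_congr rfl fun i _ => ?_
    rw [AddEquiv.apply_symm_apply]
  constructor
  · intro x y hxy
    rw [h, h] at hxy
    exact β.equivFun.symm.injective hxy
  · intro v
    obtain ⟨x, hx⟩ := β.equivFun.symm.surjective v
    exact ⟨x, (h x).trans hx⟩

/-- **an equivariant retract of a free `R[Δ]`-module is free** (`R` local, `p ∈ 𝔪_R`, `Δ` a finite commutative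
`p`-group), in helper8's `s59t_evalMap` form. -/
theorem s59b_retract_free [IsLocalRing R] (hpm : (p : R) ∈ maximalIdeal R)
    (hΔ : ∀ δ : Δ, ∃ n : ℕ, δ ^ (p ^ n) = 1)
    (ρ : Δ →* Module.End R V) (ρ₁ : Δ →* Module.End R V₁) {d : ℕ} (b : Fin d → V)
    (hb : Function.Bijective (s59t_evalMap ρ b))
    (i : V₁ →ₗ[R] V) (c : V →ₗ[R] V₁) (hi : ∀ δ x, i (ρ₁ δ x) = ρ δ (i x))
    (hc : ∀ δ x, c (ρ δ x) = ρ₁ δ (c x)) (hci : ∀ x, c (i x) = x) :
    ∃ (d₁ : ℕ) (b₁ : Fin d₁ → V₁), Function.Bijective (s59t_evalMap ρ₁ b₁) := by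
  classical
  haveI : IsLocalRing (MonoidAlgebra R Δ) := s59t_grpAlg_isLocalRing hpm hΔ
  haveI := s59m_free_of_evalMap ρ b hb
  haveI := s59m_finite_of_evalMap ρ b hb
  set iΛ := s59m_linOfEquivariant ρ₁ ρ i hi with hiΛ
  set cΛ := s59m_linOfEquivariant ρ ρ₁ c hc with hcΛ
  have hcomp : cΛ ∘ₗ iΛ = LinearMap.id := by
    refine LinearMap.ext fun x => ?_
    show s59m_toRep ρ₁ (c ((s59m_toRep ρ).symm (s59m_toRep ρ (i ((s59m_toRep ρ₁).symm x))))) = x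
    rw [AddEquiv.symm_apply_apply, hci, AddEquiv.apply_symm_apply]
  haveI : Module.Projective (MonoidAlgebra R Δ) (s59m_RepMod ρ₁) :=
    Module.Projective.of_split iΛ cΛ hcomp
  haveI : Module.Finite (MonoidAlgebra R Δ) (s59m_RepMod ρ₁) :=
    Module.Finite.of_surjective cΛ (fun k => ⟨iΛ k, LinearMap.congr_fun hcomp k⟩)
  haveI : Module.Free (MonoidAlgebra R Δ) (s59m_RepMod ρ₁) := Module.free_of_flat_of_isLocalRing
  let β := Module.finBasis (MonoidAlgebra R Δ) (s59m_RepMod ρ₁)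
  exact ⟨_, fun i => (s59m_toRep ρ₁).symm (β i),
    s59b_evalMap_bijective_of_lin ρ₁ _ (s59b_lin_bijective_of_basis ρ₁ β)⟩

end FreeRetract

section Ranks

variable {R : Type*} [CommRing R] [Nontrivial R]
  {Δ : Type*} [CommGroup Δ] [Fintype Δ] {Δ' : Type*} [CommGroup Δ'] [Fintype Δ']
  {V : Type*} [AddCommGroup V] [Module R V] {V₁ : Type*} [AddCommGroup V₁] [Module R V₁]
  {V₂ : Type*} [AddCommGroup V₂] [Module R V₂] {V' : Type*} [AddCommGroup V'] [Module R V']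

theorem s59b_finrank_coef (m : ℕ) :
    Module.finrank R (Fin m → Δ → R) = m * Fintype.card Δ := by
  rw [Module.finrank_pi_fintype, Finset.sum_const, Finset.card_univ, Fintype.card_fin,
    Module.finrank_pi, smul_eq_mul]

/-- the `R`-rank of a free `R[Δ]`-module of rank `d`. -/
theorem s59b_finrank_of_evalMap (ρ : Δ →* Module.End R V) {d : ℕ} (b : Fin d → V)
    (hb : Function.Bijective (s59t_evalMap ρ b)) :
    Module.Free R V ∧ Module.Finite R V ∧ Module.finrank R V = d * Fintype.card Δ := by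
  classical
  let e : (Fin d → Δ → R) ≃ₗ[R] V := LinearEquiv.ofBijective _ hb
  refine ⟨Module.Free.of_equiv e, Module.Finite.equiv e, ?_⟩
  rw [← e.finrank_eq, s59b_finrank_coef]

/-- ranks add along a decomposition into two retracts. -/
theorem s59b_rank_add (ρ : Δ →* Module.End R V) (ρ₁ : Δ →* Module.End R V₁)
    (ρ₂ : Δ →* Module.End R V₂) {d d₁ d₂ : ℕ}
    (b : Fin d → V) (hb : Function.Bijective (s59t_evalMap ρ b))
    (b₁ : Fin d₁ → V₁) (hb₁ : Function.Bijective (s59t_evalMap ρ₁ b₁))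
    (b₂ : Fin d₂ → V₂) (hb₂ : Function.Bijective (s59t_evalMap ρ₂ b₂))
    (i₁ : V₁ →ₗ[R] V) (c₁ : V →ₗ[R] V₁) (i₂ : V₂ →ₗ[R] V) (c₂ : V →ₗ[R] V₂)
    (h11 : ∀ x, c₁ (i₁ x) = x) (h22 : ∀ x, c₂ (i₂ x) = x)
    (h12 : ∀ x, c₁ (i₂ x) = 0) (h21 : ∀ x, c₂ (i₁ x) = 0)
    (hsum : ∀ x, i₁ (c₁ x) + i₂ (c₂ x) = x) : d = d₁ + d₂ := by
  classical
  obtain ⟨_, _, hr⟩ := s59b_finrank_of_evalMap ρ b hb
  obtain ⟨_, _, hr₁⟩ := s59b_finrank_of_evalMap ρ₁ b₁ hb₁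
  obtain ⟨_, _, hr₂⟩ := s59b_finrank_of_evalMap ρ₂ b₂ hb₂
  let e : V ≃ₗ[R] V₁ × V₂ :=
    LinearEquiv.ofLinearMap (c₁.prod c₂) (i₁.coprod i₂)
      (by
        refine LinearMap.ext fun x => ?_
        obtain ⟨x₁, x₂⟩ := x
        rw [LinearMap.comp_apply, LinearMap.coprod_apply, LinearMap.id_apply]
        show (c₁ (i₁ x₁ + i₂ x₂), c₂ (i₁ x₁ + i₂ x₂)) = (x₁, x₂)
        rw [map_add, map_add, h11, h22, h12, h21, add_zero, zero_add])
      (by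
        refine LinearMap.ext fun x => ?_
        rw [LinearMap.comp_apply, LinearMap.id_apply]
        show i₁ (c₁ x) + i₂ (c₂ x) = x
        exact hsum x)
  have h1 := e.finrank_eq
  rw [Module.finrank_prod, hr, hr₁, hr₂, ← add_mul] at h1
  exact Nat.eq_of_mul_eq_mul_right Fintype.card_pos h1

/-- push-forward of coefficients along `φ : Δ' → Δ`. -/
def s59b_pushCoef (φ : Δ' →* Δ) [DecidableEq Δ] {d : ℕ} (c : Fin d → Δ' → R) : Fin d → Δ → R :=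
  fun i δ => ∑ δ', if φ δ' = δ then c i δ' else 0

theorem s59b_evalMap_pushCoef [DecidableEq Δ] (ρ : Δ →* Module.End R V)
    (ρ' : Δ' →* Module.End R V') (φ : Δ' →* Δ) (π : V' →ₗ[R] V)
    (hπ : ∀ δ' y, π (ρ' δ' y) = ρ (φ δ') (π y)) {d : ℕ} (b' : Fin d → V')
    (c : Fin d → Δ' → R) :
    s59t_evalMap ρ (fun i => π (b' i)) (s59b_pushCoef φ c) = π (s59t_evalMap ρ' b' c) := by
  rw [s59t_evalMap_apply, s59t_evalMap_apply, map_sum]
  refine Finset.sum_congr rfl fun i _ => ?_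
  rw [map_sum]
  have h1 : ∀ δ : Δ, s59b_pushCoef φ c i δ • ρ δ (π (b' i)) =
      ∑ δ', if φ δ' = δ then c i δ' • ρ (φ δ') (π (b' i)) else 0 := by
    intro δ
    rw [s59b_pushCoef, Finset.sum_smul]
    refine Finset.sum_congr rfl fun δ' _ => ?_
    split_ifs with h
    · rw [h]
    · rw [zero_smul]
  rw [Finset.sum_congr rfl fun δ _ => h1 δ, Finset.sum_comm]
  refine Finset.sum_congr rfl fun δ' _ => ?_
  rw [Finset.sum_ite_eq Finset.univ (φ δ') (fun _ => c i δ' • ρ (φ δ') (π (b' i))),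
    if_pos (Finset.mem_univ _), map_smul, hπ]

/-- a semilinear surjection cannot raise the rank. -/
theorem s59b_rank_le_of_semilinear_surj (ρ : Δ →* Module.End R V)
    (ρ' : Δ' →* Module.End R V') (φ : Δ' →* Δ) (π : V' →ₗ[R] V)
    (hπ : ∀ δ' y, π (ρ' δ' y) = ρ (φ δ') (π y)) (hs : Function.Surjective π) {d d' : ℕ}
    (b : Fin d → V) (hb : Function.Bijective (s59t_evalMap ρ b))
    (b' : Fin d' → V') (hb' : Function.Surjective (s59t_evalMap ρ' b')) : d ≤ d' := by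
  classical
  obtain ⟨_, _, hr⟩ := s59b_finrank_of_evalMap ρ b hb
  have hsurj : Function.Surjective (s59t_evalMap ρ (fun i => π (b' i))) := by
    intro x
    obtain ⟨y, rfl⟩ := hs x
    obtain ⟨c, rfl⟩ := hb' y
    exact ⟨s59b_pushCoef φ c, s59b_evalMap_pushCoef ρ ρ' φ π hπ b' c⟩
  have h1 := LinearMap.finrank_le_finrank_of_surjective hsurj
  rw [hr, s59b_finrank_coef] at h1
  exact Nat.le_of_mul_le_mul_right h1 Fintype.card_pos

end Ranks

section Transfer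

variable {𝒪 : Type*} [CommRing 𝒪] {Δ Δ' : Type*} [CommGroup Δ] [CommGroup Δ'] [Fintype Δ] [Fintype Δ']
  {X X' X₁ X₁' : Type*} [AddCommGroup X] [Module 𝒪 X] [AddCommGroup X'] [Module 𝒪 X']
  [AddCommGroup X₁] [Module 𝒪 X₁] [AddCommGroup X₁'] [Module 𝒪 X₁']
  (ρ : Δ →* Module.End 𝒪 X) (ρ' : Δ' →* Module.End 𝒪 X')
  (ρ₁ : Δ →* Module.End 𝒪 X₁) (ρ₁' : Δ' →* Module.End 𝒪 X₁')
  (φ : Δ' →* Δ) (B C : Subgroup Δ') (D : Subgroup Δ)
  (i : X₁ →ₗ[𝒪] X) (c : X →ₗ[𝒪] X₁) (i' : X₁' →ₗ[𝒪] X') (c' : X' →ₗ[𝒪] X₁')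
  (π : X' →ₗ[𝒪] X)

/-- the cut of `π` to the retracts. -/
def s59b_cutPi : X₁' →ₗ[𝒪] X₁ := c ∘ₗ π ∘ₗ i'

theorem s59b_cutPi_apply (y : X₁') : s59b_cutPi c i' π y = c (π (i' y)) := rfl

variable {ρ ρ' ρ₁ ρ₁' φ B C D i c i' c' π}

theorem s59b_tr_incl (hci' : ∀ y, c' (i' y) = y) (hπE : ∀ y, π (i' (c' y)) = i (c (π y)))
    (y : X₁') : i (s59b_cutPi c i' π y) = π (i' y) := by
  rw [s59b_cutPi_apply, ← hπE, hci']

theorem s59b_tr_surj (hci : ∀ x, c (i x) = x) (hπE : ∀ y, π (i' (c' y)) = i (c (π y)))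
    (hs : Function.Surjective π) : Function.Surjective (s59b_cutPi c i' π) := by
  intro x
  obtain ⟨y₀, hy₀⟩ := hs (i x)
  refine ⟨c' y₀, ?_⟩
  rw [s59b_cutPi_apply, hπE, hy₀, hci, hci]

theorem s59b_tr_equiv (hi' : ∀ δ x, i' (ρ₁' δ x) = ρ' δ (i' x))
    (hc : ∀ δ x, c (ρ δ x) = ρ₁ δ (c x))
    (hπφ : ∀ δ' y, π (ρ' δ' y) = ρ (φ δ') (π y)) (δ' : Δ') (y : X₁') :
    s59b_cutPi c i' π (ρ₁' δ' y) = ρ₁ (φ δ') (s59b_cutPi c i' π y) := by
  rw [s59b_cutPi_apply, s59b_cutPi_apply, hi', hπφ, hc]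

theorem s59b_tr_eig_incl (hi' : ∀ δ x, i' (ρ₁' δ x) = ρ' δ (i' x)) (ψ' : Δ' →* 𝒪ˣ)
    {y : X₁'} (hy : y ∈ s59t_eig ρ₁' C ψ') : i' y ∈ s59t_eig ρ' C ψ' := by
  intro γ hγ
  rw [← hi', hy γ hγ, map_smul]

theorem s59b_tr_eig_cut (hc' : ∀ δ x, c' (ρ' δ x) = ρ₁' δ (c' x)) (ψ' : Δ' →* 𝒪ˣ)
    {y : X'} (hy : y ∈ s59t_eig ρ' C ψ') : c' y ∈ s59t_eig ρ₁' C ψ' := by
  intro γ hγ
  rw [← hc', hy γ hγ, map_smul]

theorem s59b_tr_ker (hi' : ∀ δ x, i' (ρ₁' δ x) = ρ' δ (i' x))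
    (hc' : ∀ δ x, c' (ρ' δ x) = ρ₁' δ (c' x)) (hci' : ∀ y, c' (i' y) = y)
    (hπE : ∀ y, π (i' (c' y)) = i (c (π y)))
    (hker : LinearMap.ker π = Submodule.span 𝒪 {z : X' | ∃ β ∈ B, ∃ y, z = ρ' β y - y}) :
    LinearMap.ker (s59b_cutPi c i' π) =
      Submodule.span 𝒪 {z : X₁' | ∃ β ∈ B, ∃ y, z = ρ₁' β y - y} := by
  apply le_antisymm
  · intro z hz
    rw [LinearMap.mem_ker] at hz
    have h1 : π (i' z) = 0 := by
      rw [← s59b_tr_incl hci' hπE z, hz, map_zero]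
    have h2 : i' z ∈ Submodule.span 𝒪 {z : X' | ∃ β ∈ B, ∃ y, z = ρ' β y - y} := by
      rw [← hker]
      exact LinearMap.mem_ker.mpr h1
    have h3 := Submodule.mem_map_of_mem (f := c') h2
    rw [hci', Submodule.map_span] at h3
    refine Submodule.span_mono ?_ h3
    rintro _ ⟨w, ⟨β, hβ, y, rfl⟩, rfl⟩
    exact ⟨β, hβ, c' y, by rw [map_sub, hc']⟩
  · rw [Submodule.span_le]
    rintro _ ⟨β, hβ, y, rfl⟩
    have h4 : ρ' β (i' y) - i' y ∈ LinearMap.ker π := by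
      rw [hker]
      exact Submodule.subset_span ⟨β, hβ, i' y, rfl⟩
    rw [SetLike.mem_coe, LinearMap.mem_ker, s59b_cutPi_apply, map_sub, hi',
      LinearMap.mem_ker.mp h4, map_zero]

/-- the control clauses pass to the retracts. -/
theorem s59b_tr_ctl (hi : ∀ δ x, i (ρ₁ δ x) = ρ δ (i x)) (hc : ∀ δ x, c (ρ δ x) = ρ₁ δ (c x))
    (hi' : ∀ δ x, i' (ρ₁' δ x) = ρ' δ (i' x))
    (hc' : ∀ δ x, c' (ρ' δ x) = ρ₁' δ (c' x)) (hci : ∀ x, c (i x) = x)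
    (hci' : ∀ y, c' (i' y) = y)
    (hπE : ∀ y, π (i' (c' y)) = i (c (π y))) (ψ : Δ →* 𝒪ˣ) (ψ' : Δ' →* 𝒪ˣ)
    (h2 : ∀ y ∈ s59t_eig ρ' C ψ', π y ∈ s59t_eig ρ D ψ)
    (h3 : ∀ x ∈ s59t_eig ρ D ψ, ∃ y ∈ s59t_eig ρ' C ψ', π y = x)
    (h4 : ∀ y ∈ s59t_eig ρ' C ψ', π y = 0 → y ∈ Submodule.span 𝒪 {z : X' | ∃ β ∈ B,
      ∃ y' ∈ s59t_eig ρ' C ψ', z = ρ' β y' - y'}) :
    (∀ y ∈ s59t_eig ρ₁' C ψ', s59b_cutPi c i' π y ∈ s59t_eig ρ₁ D ψ) ∧
    (∀ x ∈ s59t_eig ρ₁ D ψ, ∃ y ∈ s59t_eig ρ₁' C ψ', s59b_cutPi c i' π y = x) ∧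
    (∀ y ∈ s59t_eig ρ₁' C ψ', s59b_cutPi c i' π y = 0 →
      y ∈ Submodule.span 𝒪 {z : X₁' | ∃ β ∈ B,
        ∃ y' ∈ s59t_eig ρ₁' C ψ', z = ρ₁' β y' - y'}) := by
  refine ⟨?_, ?_, ?_⟩
  · intro y hy
    rw [s59b_cutPi_apply]
    exact s59b_tr_eig_cut hc ψ (h2 _ (s59b_tr_eig_incl hi' ψ' hy))
  · intro x hx
    obtain ⟨y₀, hy₀, hπy₀⟩ := h3 _ (s59b_tr_eig_incl hi ψ hx)
    refine ⟨c' y₀, s59b_tr_eig_cut hc' ψ' hy₀, ?_⟩
    rw [s59b_cutPi_apply, hπE, hπy₀, hci, hci]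
  · intro y hy h0
    have h1 : π (i' y) = 0 := by
      rw [← s59b_tr_incl hci' hπE y, h0, map_zero]
    have h5 := Submodule.mem_map_of_mem (f := c') (h4 _ (s59b_tr_eig_incl hi' ψ' hy) h1)
    rw [hci', Submodule.map_span] at h5
    refine Submodule.span_mono ?_ h5
    rintro _ ⟨w, ⟨β, hβ, y', hy', rfl⟩, rfl⟩
    exact ⟨β, hβ, c' y', s59b_tr_eig_cut hc' ψ' hy', by rw [map_sub, hc']⟩

variable [Fintype B]

theorem s59b_normPsi_comm {M M' : Type*} [AddCommGroup M] [Module 𝒪 M] [AddCommGroup M']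
    [Module 𝒪 M'] (σ : Δ' →* Module.End 𝒪 M) (σ' : Δ' →* Module.End 𝒪 M') (f : M →ₗ[𝒪] M')
    (hf : ∀ δ x, f (σ δ x) = σ' δ (f x)) (ψ' : Δ' →* 𝒪ˣ) (x : M) :
    f (s59t_normPsi σ B ψ' x) = s59t_normPsi σ' B ψ' (f x) := by
  rw [s59t_normPsi_apply, s59t_normPsi_apply, map_sum]
  refine Finset.sum_congr rfl fun β _ => ?_
  rw [map_smul, hf]

/-- the `ι`-clauses pass to the retracts. -/
theorem s59b_tr_iota (hi' : ∀ δ x, i' (ρ₁' δ x) = ρ' δ (i' x))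
    (hci : ∀ x, c (i x) = x) (hci' : ∀ y, c' (i' y) = y)
    (hπE : ∀ y, π (i' (c' y)) = i (c (π y)))
    (ι : X →ₗ[𝒪] X') (ι₁ : X₁ →ₗ[𝒪] X₁') (hι1 : ∀ x, i' (ι₁ x) = ι (i x))
    (hι2 : ∀ x, ι₁ (c x) = c' (ι x)) (ψ' : Δ' →* 𝒪ˣ)
    (hinj : Function.Injective ι)
    (himg : ∀ y : X', (∀ β ∈ B, ρ' β y = y) → ∃ x, ι x = y)
    (hιπ : ∀ y, ι (π y) = s59t_normPsi ρ' B ψ' y) :
    Function.Injective ι₁ ∧
    (∀ y : X₁', (∀ β ∈ B, ρ₁' β y = y) → ∃ x, ι₁ x = y) ∧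
    (∀ y, ι₁ (s59b_cutPi c i' π y) = s59t_normPsi ρ₁' B ψ' y) := by
  have hiinj : Function.Injective i := fun x y h => by rw [← hci x, ← hci y, h]
  have hi'inj : Function.Injective i' := fun x y h => by rw [← hci' x, ← hci' y, h]
  refine ⟨?_, ?_, ?_⟩
  · intro x y hxy
    apply hiinj
    apply hinj
    rw [← hι1, ← hι1, hxy]
  · intro y hy
    obtain ⟨x₀, hx₀⟩ := himg (i' y) (fun β hβ => by rw [← hi', hy β hβ])
    exact ⟨c x₀, by rw [hι2, hx₀, hci']⟩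
  · intro y
    apply hi'inj
    rw [hι1, s59b_tr_incl hci' hπE, hιπ, s59b_normPsi_comm ρ₁' ρ' i' hi']

/-- the Hecke-equivariance of the cut `π`, from the injectivity of `ι₁` and `ι₁ ∘ π₁ = N`. -/
theorem s59b_tr_hecke (π₁ : X₁' →ₗ[𝒪] X₁) (ι₁ : X₁ →ₗ[𝒪] X₁') (ψ' : Δ' →* 𝒪ˣ)
    (hinj : Function.Injective ι₁) (hιπ : ∀ y, ι₁ (π₁ y) = s59t_normPsi ρ₁' B ψ' y)
    (T : Module.End 𝒪 X₁) (T' : Module.End 𝒪 X₁') (hιT : ∀ x, ι₁ (T x) = T' (ι₁ x))
    (hT' : ∀ δ x, T' (ρ₁' δ x) = ρ₁' δ (T' x)) (y : X₁') : π₁ (T' y) = T (π₁ y) := by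
  apply hinj
  rw [hιπ, hιT, hιπ, s59b_normPsi_comm ρ₁' ρ₁' T' hT']

end Transfer

section CutOne

variable {R : Type*} [CommRing R] {Δ : Type*} [CommGroup Δ]
  {Y : Type*} [AddCommGroup Y] [Module R Y] {ρ : Δ →* Module.End R Y}
  {ε e : Module.End R Y}

theorem s59b_cut_comm (hρ : ∀ δ y, ε (ρ δ y) = ρ δ (ε y)) (heρ : ∀ δ y, e (ρ δ y) = ρ δ (e y)) :
    ∀ δ y, (ε * e) (ρ δ y) = ρ δ ((ε * e) y) := by
  intro δ y
  rw [Module.End.mul_apply, Module.End.mul_apply, heρ, hρ]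

theorem s59b_cut_fix (he : e * e = e) (heε : ∀ y, ε (e y) = e (ε y)) (x : s59t_part (ε * e)) :
    e (x : Y) = x := by
  obtain ⟨_, z, rfl⟩ := x
  show e (ε (e z)) = ε (e z)
  rw [← heε, ← Module.End.mul_apply e e, he]

variable (ε e) in
/-- the inclusion `(ε e) Y ⊆ ε Y`. -/
def s59b_inclPart : s59t_part (ε * e) →ₗ[R] s59t_part ε :=
  Submodule.inclusion (by
    rintro _ ⟨z, rfl⟩
    exact ⟨e z, rfl⟩)

theorem s59b_inclPart_coe (x : s59t_part (ε * e)) : ((s59b_inclPart ε e x : s59t_part ε) : Y) = x :=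
  rfl

theorem s59b_cutPart_aux (he : e * e = e) (heε : ∀ y, ε (e y) = e (ε y)) :
    ∀ y, (ε * e) (e y) = e (ε y) := by
  intro y
  rw [Module.End.mul_apply, ← Module.End.mul_apply e e, he, heε]

/-- the projection `ε Y → (ε e) Y`, `x ↦ e x`. -/
def s59b_cutPart (he : e * e = e) (heε : ∀ y, ε (e y) = e (ε y)) :
    s59t_part ε →ₗ[R] s59t_part (ε * e) :=
  s59t_partMap (ε := ε) (ε' := ε * e) e (s59b_cutPart_aux he heε)

theorem s59b_cutPart_coe (he : e * e = e) (heε : ∀ y, ε (e y) = e (ε y)) (x : s59t_part ε) :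
    ((s59b_cutPart he heε x : s59t_part (ε * e)) : Y) = e (x : Y) := rfl

theorem s59b_cut_incl (he : e * e = e) (heε : ∀ y, ε (e y) = e (ε y)) (x : s59t_part (ε * e)) :
    s59b_cutPart he heε (s59b_inclPart ε e x) = x :=
  Subtype.ext (s59b_cut_fix he heε x)

theorem s59b_incl_cut (he : e * e = e) (heε : ∀ y, ε (e y) = e (ε y)) (x : s59t_part ε) :
    s59b_inclPart ε e (s59b_cutPart he heε x) = s59t_partMap (ε := ε) (ε' := ε) e heε x :=
  Subtype.ext rfl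

theorem s59b_inclPart_equiv (hρ : ∀ δ y, ε (ρ δ y) = ρ δ (ε y))
    (heρ : ∀ δ y, e (ρ δ y) = ρ δ (e y)) (δ : Δ) (x : s59t_part (ε * e)) :
    s59b_inclPart ε e (s59t_partRep ρ (s59b_cut_comm hρ heρ) δ x) =
      s59t_partRep ρ hρ δ (s59b_inclPart ε e x) :=
  Subtype.ext rfl

theorem s59b_cutPart_equiv (he : e * e = e) (heε : ∀ y, ε (e y) = e (ε y))
    (hρ : ∀ δ y, ε (ρ δ y) = ρ δ (ε y))
    (heρ : ∀ δ y, e (ρ δ y) = ρ δ (e y)) (δ : Δ) (x : s59t_part ε) :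
    s59b_cutPart he heε (s59t_partRep ρ hρ δ x) =
      s59t_partRep ρ (s59b_cut_comm hρ heρ) δ (s59b_cutPart he heε x) :=
  Subtype.ext (heρ δ x)

/-! the complementary idempotent -/

theorem s59b_compl_idem (he : e * e = e) : (1 - e) * (1 - e) = 1 - e := by
  rw [mul_sub, sub_mul, sub_mul, one_mul, mul_one, one_mul, he, sub_self, sub_zero]

theorem s59b_compl_apply (y : Y) : (1 - e : Module.End R Y) y = y - e y := rfl

theorem s59b_compl_eps (heε : ∀ y, ε (e y) = e (ε y)) : ∀ y, ε ((1 - e : Module.End R Y) y) =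
    (1 - e : Module.End R Y) (ε y) := by
  intro y
  rw [s59b_compl_apply, s59b_compl_apply, map_sub, heε]

theorem s59b_compl_rho (heρ : ∀ δ y, e (ρ δ y) = ρ δ (e y)) :
    ∀ δ y, (1 - e : Module.End R Y) (ρ δ y) = ρ δ ((1 - e : Module.End R Y) y) := by
  intro δ y
  rw [s59b_compl_apply, s59b_compl_apply, map_sub, heρ]

theorem s59b_cut_cross (he : e * e = e) (heε : ∀ y, ε (e y) = e (ε y))
    (x : s59t_part (ε * (1 - e))) : e (x : Y) = 0 := by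
  obtain ⟨_, z, rfl⟩ := x
  show e (ε ((1 - e : Module.End R Y) z)) = 0
  rw [← heε, s59b_compl_apply, map_sub, ← Module.End.mul_apply e e, he, sub_self, map_zero]

end CutOne

section Cut

variable {p : ℕ} [hp : Fact p.Prime] {𝒪 : Type} [CommRing 𝒪] [IsLocalRing 𝒪]
  {Δ Δ' : Type} [CommGroup Δ] [Fintype Δ] [CommGroup Δ'] [Fintype Δ']
  {Z Z' : Type} [AddCommGroup Z] [Module 𝒪 Z] [AddCommGroup Z'] [Module 𝒪 Z']
  {ρZ : Δ →* Module.End 𝒪 Z} {ρZ' : Δ' →* Module.End 𝒪 Z'} {φ : Δ' →* Δ} {res : Z →ₗ[𝒪] Z'}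
  {B C : Subgroup Δ'} [Fintype B] {ε : Module.End 𝒪 Z} {ε' : Module.End 𝒪 Z'}

/-- `ι₁` and `ι` agree on `(ε e) Z`. -/
theorem s59b_iota_incl {e : Module.End 𝒪 Z} {e' : Module.End 𝒪 Z'} (he : e * e = e)
    (heε : ∀ y, ε (e y) = e (ε y)) (hres : ∀ x, res (e x) = e' (res x))
    (x : s59t_part (ε * e)) :
    s59b_inclPart ε' e' (s59t_iotaH (ε * e) (ε' * e') res x) =
      s59t_iotaH ε ε' res (s59b_inclPart ε e x) := by
  apply Subtype.ext
  show ε' (e' (res (x : Z))) = ε' (res (x : Z))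
  rw [← hres, s59b_cut_fix he heε]

theorem s59b_iota_cut {e : Module.End 𝒪 Z} {e' : Module.End 𝒪 Z'} (he : e * e = e)
    (he' : e' * e' = e')
    (heε : ∀ y, ε (e y) = e (ε y)) (heε' : ∀ y, ε' (e' y) = e' (ε' y))
    (hres : ∀ x, res (e x) = e' (res x)) (x : s59t_part ε) :
    s59t_iotaH (ε * e) (ε' * e') res (s59b_cutPart he heε x) =
      s59b_cutPart he' heε' (s59t_iotaH ε ε' res x) := by
  apply Subtype.ext
  show ε' (e' (res (e (x : Z)))) = e' (ε' (res (x : Z)))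
  rw [hres, ← Module.End.mul_apply e' e', he', heε']

/-- **[SPEC-T±-abs], the cut lemma**: a Taylor–Wiles package `s59t_TWFullAbs … ε ε'` cut by a pair of
idempotents `e`, `e'` (commuting with `ε`, `ε'` and the diamonds, intertwined by `res`) is again
a Taylor–Wiles package, for `ε e`, `ε' e'`. -/
theorem s59b_TWFullAbs_cut (hpm : (p : 𝒪) ∈ maximalIdeal 𝒪)
    (hΔ : ∀ δ : Δ, ∃ n : ℕ, δ ^ (p ^ n) = 1) (hΔ' : ∀ δ : Δ', ∃ n : ℕ, δ ^ (p ^ n) = 1)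
    (hfull : s59t_TWFullAbs ρZ ρZ' φ res B C ε ε')
    (e : Module.End 𝒪 Z) (e' : Module.End 𝒪 Z') (he : e * e = e) (he' : e' * e' = e')
    (heε : ∀ y, ε (e y) = e (ε y)) (heε' : ∀ y, ε' (e' y) = e' (ε' y))
    (heρ : ∀ δ y, e (ρZ δ y) = ρZ δ (e y)) (heρ' : ∀ δ y, e' (ρZ' δ y) = ρZ' δ (e' y))
    (hres : ∀ x, res (e x) = e' (res x)) :
    s59t_TWFullAbs ρZ ρZ' φ res B C (ε * e) (ε' * e') := by
  classical
  obtain ⟨hρ, hρ', d, b, b', π, hb, hb', hinj, himg, hιπ, hπs, hker, hπd, hπT,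
    ⟨h2, h3, h4⟩, hk⟩ := hfull
  -- the four retracts
  have hρ₁ := s59b_cut_comm hρ heρ
  have hρ₁' := s59b_cut_comm hρ' heρ'
  have hf := s59b_compl_idem he
  have hf' := s59b_compl_idem he'
  have hfε := s59b_compl_eps (ε := ε) heε
  have hfε' := s59b_compl_eps (ε := ε') heε'
  have hfρ := s59b_compl_rho (ρ := ρZ) heρ
  have hfρ' := s59b_compl_rho (ρ := ρZ') heρ'
  have hρ₂ := s59b_cut_comm hρ hfρ
  have hρ₂' := s59b_cut_comm hρ' hfρ'
  have hfres : ∀ x, res ((1 - e : Module.End 𝒪 Z) x) = (1 - e' : Module.End 𝒪 Z') (res x) := by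
    intro x
    rw [s59b_compl_apply, s59b_compl_apply, map_sub, hres]
  -- `π` commutes with the cuts
  have hπE : ∀ y, π (s59b_inclPart ε' e' (s59b_cutPart he' heε' y)) =
      s59b_inclPart ε e (s59b_cutPart he heε (π y)) := by
    intro y
    rw [s59b_incl_cut, s59b_incl_cut]
    exact hπT e e' heε heε' hres heρ' y
  have hπF : ∀ y, π (s59b_inclPart ε' (1 - e') (s59b_cutPart hf' hfε' y)) =
      s59b_inclPart ε (1 - e) (s59b_cutPart hf hfε (π y)) := by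
    intro y
    rw [s59b_incl_cut, s59b_incl_cut]
    exact hπT (1 - e) (1 - e') hfε hfε' hfres hfρ' y
  -- freeness
  obtain ⟨d₁, b₁, hb₁⟩ := s59b_retract_free hpm hΔ (s59t_partRep ρZ hρ) (s59t_partRep ρZ hρ₁) b hb
    (s59b_inclPart ε e) (s59b_cutPart he heε) (s59b_inclPart_equiv hρ heρ)
    (s59b_cutPart_equiv he heε hρ heρ) (s59b_cut_incl he heε)
  obtain ⟨d₂, b₂, hb₂⟩ := s59b_retract_free hpm hΔ (s59t_partRep ρZ hρ) (s59t_partRep ρZ hρ₂) b hb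
    (s59b_inclPart ε (1 - e)) (s59b_cutPart hf hfε) (s59b_inclPart_equiv hρ hfρ)
    (s59b_cutPart_equiv hf hfε hρ hfρ) (s59b_cut_incl hf hfε)
  obtain ⟨d₁', b₁', hb₁'⟩ := s59b_retract_free hpm hΔ' (s59t_partRep ρZ' hρ')
    (s59t_partRep ρZ' hρ₁') b' hb'
    (s59b_inclPart ε' e') (s59b_cutPart he' heε') (s59b_inclPart_equiv hρ' heρ')
    (s59b_cutPart_equiv he' heε' hρ' heρ') (s59b_cut_incl he' heε')
  obtain ⟨d₂', b₂', hb₂'⟩ := s59b_retract_free hpm hΔ' (s59t_partRep ρZ' hρ')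
    (s59t_partRep ρZ' hρ₂') b' hb'
    (s59b_inclPart ε' (1 - e')) (s59b_cutPart hf' hfε') (s59b_inclPart_equiv hρ' hfρ')
    (s59b_cutPart_equiv hf' hfε' hρ' hfρ') (s59b_cut_incl hf' hfε')
  -- ranks
  have hadd : d = d₁ + d₂ := by
    refine s59b_rank_add (s59t_partRep ρZ hρ) (s59t_partRep ρZ hρ₁) (s59t_partRep ρZ hρ₂)
      b hb b₁ hb₁ b₂ hb₂ (s59b_inclPart ε e) (s59b_cutPart he heε)
      (s59b_inclPart ε (1 - e)) (s59b_cutPart hf hfε) (s59b_cut_incl he heε)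
      (s59b_cut_incl hf hfε) ?_ ?_ ?_
    · intro x
      exact Subtype.ext (s59b_cut_cross he heε x)
    · intro x
      apply Subtype.ext
      show (1 - e : Module.End 𝒪 Z) (x : Z) = 0
      rw [s59b_compl_apply, s59b_cut_fix he heε, sub_self]
    · intro x
      apply Subtype.ext
      show e (x : Z) + (1 - e : Module.End 𝒪 Z) (x : Z) = x
      rw [s59b_compl_apply, add_sub_cancel]
  have hadd' : d = d₁' + d₂' := by
    refine s59b_rank_add (s59t_partRep ρZ' hρ') (s59t_partRep ρZ' hρ₁') (s59t_partRep ρZ' hρ₂')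
      b' hb' b₁' hb₁' b₂' hb₂' (s59b_inclPart ε' e') (s59b_cutPart he' heε')
      (s59b_inclPart ε' (1 - e')) (s59b_cutPart hf' hfε') (s59b_cut_incl he' heε')
      (s59b_cut_incl hf' hfε') ?_ ?_ ?_
    · intro x
      exact Subtype.ext (s59b_cut_cross he' heε' x)
    · intro x
      apply Subtype.ext
      show (1 - e' : Module.End 𝒪 Z') (x : Z') = 0
      rw [s59b_compl_apply, s59b_cut_fix he' heε', sub_self]
    · intro x
      apply Subtype.ext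
      show e' (x : Z') + (1 - e' : Module.End 𝒪 Z') (x : Z') = x
      rw [s59b_compl_apply, add_sub_cancel]
  have hle₁ : d₁ ≤ d₁' :=
    s59b_rank_le_of_semilinear_surj (s59t_partRep ρZ hρ₁) (s59t_partRep ρZ' hρ₁') φ
      (s59b_cutPi (s59b_cutPart he heε) (s59b_inclPart ε' e') π)
      (s59b_tr_equiv (s59b_inclPart_equiv hρ' heρ') (s59b_cutPart_equiv he heε hρ heρ) hπd)
      (s59b_tr_surj (s59b_cut_incl he heε) hπE hπs) b₁ hb₁ b₁' hb₁'.2
  have hle₂ : d₂ ≤ d₂' :=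
    s59b_rank_le_of_semilinear_surj (s59t_partRep ρZ hρ₂) (s59t_partRep ρZ' hρ₂') φ
      (s59b_cutPi (s59b_cutPart hf hfε) (s59b_inclPart ε' (1 - e')) π)
      (s59b_tr_equiv (s59b_inclPart_equiv hρ' hfρ') (s59b_cutPart_equiv hf hfε hρ hfρ) hπd)
      (s59b_tr_surj (s59b_cut_incl hf hfε) hπF hπs) b₂ hb₂ b₂' hb₂'.2
  have hd : d₁' = d₁ := by omega
  subst hd
  -- the `ι`-clauses
  obtain ⟨kinj, kimg, kιπ⟩ := s59b_tr_iota (B := B) (s59b_inclPart_equiv hρ' heρ')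
    (s59b_cut_incl he heε) (s59b_cut_incl he' heε') hπE
    (s59t_iotaH ε ε' res) (s59t_iotaH (ε * e) (ε' * e') res)
    (s59b_iota_incl he heε hres) (s59b_iota_cut he he' heε heε' hres) 1 hinj himg hιπ
  refine ⟨hρ₁, hρ₁', d₁', b₁, b₁', s59b_cutPi (s59b_cutPart he heε) (s59b_inclPart ε' e') π,
    hb₁, hb₁', kinj, kimg, kιπ,
    s59b_tr_surj (s59b_cut_incl he heε) hπE hπs,
    s59b_tr_ker (s59b_inclPart_equiv hρ' heρ') (s59b_cutPart_equiv he' heε' hρ' heρ')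
      (s59b_cut_incl he' heε') hπE hker,
    s59b_tr_equiv (s59b_inclPart_equiv hρ' heρ') (s59b_cutPart_equiv he heε hρ heρ) hπd,
    ?_, ?_, ?_⟩
  · intro T T' hT hT' hTres hTρ' y
    refine s59b_tr_hecke (B := B) (ρ₁' := s59t_partRep ρZ' hρ₁') _ _ 1 kinj kιπ
      (s59t_partMap T hT) (s59t_partMap T' hT') ?_ ?_ y
    · intro x
      apply Subtype.ext
      show (ε' * e') (res (T (x : Z))) = T' ((ε' * e') (res (x : Z)))
      rw [hTres, hT']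
    · intro δ x
      exact Subtype.ext (hTρ' δ x)
  · exact s59b_tr_ctl (s59b_inclPart_equiv hρ heρ) (s59b_cutPart_equiv he heε hρ heρ)
      (s59b_inclPart_equiv hρ' heρ') (s59b_cutPart_equiv he' heε' hρ' heρ')
      (s59b_cut_incl he heε) (s59b_cut_incl he' heε') hπE 1 1 h2 h3 h4
  · intro χ
    obtain ⟨k2, k3, k4⟩ := hk χ
    exact s59b_tr_ctl (s59b_inclPart_equiv hρ heρ) (s59b_cutPart_equiv he heε hρ heρ)
      (s59b_inclPart_equiv hρ' heρ') (s59b_cutPart_equiv he' heε' hρ' heρ')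
      (s59b_cut_incl he heε) (s59b_cut_incl he' heε') hπE χ (χ.comp φ) k2 k3 k4

end Cut

section CutFree

variable {p : ℕ} [hp : Fact p.Prime] {R : Type*} [CommRing R] [IsLocalRing R]
  {Δ : Type*} [CommGroup Δ] [Fintype Δ]
  {Y : Type*} [AddCommGroup Y] [Module R Y] {ρ : Δ →* Module.End R Y}
  {ε : Module.End R Y}

/-- the `e`-cut of a free `ε`-part is free (over `R[Δ]`). -/
theorem s59b_part_cut_free (hpm : (p : R) ∈ maximalIdeal R)
    (hΔ : ∀ δ : Δ, ∃ n : ℕ, δ ^ (p ^ n) = 1) (hρ : ∀ δ y, ε (ρ δ y) = ρ δ (ε y))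
    {d : ℕ} (b : Fin d → s59t_part ε)
    (hb : Function.Bijective (s59t_evalMap (s59t_partRep ρ hρ) b))
    (e : Module.End R Y) (he : e * e = e) (heε : ∀ y, ε (e y) = e (ε y))
    (heρ : ∀ δ y, e (ρ δ y) = ρ δ (e y)) :
    ∃ (d₁ : ℕ) (b₁ : Fin d₁ → s59t_part (ε * e)),
      Function.Bijective (s59t_evalMap (s59t_partRep ρ (s59b_cut_comm hρ heρ)) b₁) :=
  s59b_retract_free hpm hΔ (s59t_partRep ρ hρ) (s59t_partRep ρ (s59b_cut_comm hρ heρ)) b hb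
    (s59b_inclPart ε e) (s59b_cutPart he heε) (s59b_inclPart_equiv hρ heρ)
    (s59b_cutPart_equiv he heε hρ heρ) (s59b_cut_incl he heε)

end CutFree

section CutConcrete

open Matrix MatrixGroups CongruenceSubgroup
open Fermat.Agent.Lib.S29 Fermat.Agent.Lib.S48 Fermat.Agent.Lib.S41

variable {p : ℕ} [hp : Fact p.Prime] {𝒪 : Type} [CommRing 𝒪] [IsDomain 𝒪]
  [IsDiscreteValuationRing 𝒪]
  [IsAdicComplete (maximalIdeal 𝒪) 𝒪] [Finite (ResidueField 𝒪)]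
  {N N' : ℕ} [NeZero N] [NeZero N'] {H : Subgroup (ZMod N)ˣ} {H' : Subgroup (ZMod N')ˣ}
  (h0 : Gamma0 N' ≤ Gamma0 N) (hle : s48h_GammaH N' H' ≤ s48h_GammaH N H)

/-- **[SPEC-T±], module side**: the cut lemma for helper8's concrete `s59t_TWFull`. -/
theorem s59b_TWFull_cut (hpm : (p : 𝒪) ∈ maximalIdeal 𝒪)
    (hΔ : ∀ δ : s59t_Delta N H, ∃ n : ℕ, δ ^ (p ^ n) = 1)
    (hΔ' : ∀ δ : s59t_Delta N' H', ∃ n : ℕ, δ ^ (p ^ n) = 1)
    (B C : Subgroup (s59t_Delta N' H')) [Fintype B] [Fintype C]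
    (ε : Module.End 𝒪 (s48h_Hpar 𝒪 (s48h_GammaH N H) 𝒪))
    (ε' : Module.End 𝒪 (s48h_Hpar 𝒪 (s48h_GammaH N' H') 𝒪))
    (hfull : s59t_TWFull h0 hle B C ε ε')
    (e : Module.End 𝒪 (s48h_Hpar 𝒪 (s48h_GammaH N H) 𝒪))
    (e' : Module.End 𝒪 (s48h_Hpar 𝒪 (s48h_GammaH N' H') 𝒪))
    (he : e * e = e) (he' : e' * e' = e')
    (heε : ∀ y, ε (e y) = e (ε y)) (heε' : ∀ y, ε' (e' y) = e' (ε' y))
    (heρ : ∀ δ y, e (s59t_rho N H 𝒪 𝒪 δ y) = s59t_rho N H 𝒪 𝒪 δ (e y))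
    (heρ' : ∀ δ y, e' (s59t_rho N' H' 𝒪 𝒪 δ y) = s59t_rho N' H' 𝒪 𝒪 δ (e' y))
    (hres : ∀ x, s59t_resGHpar hle 𝒪 𝒪 (e x) = e' (s59t_resGHpar hle 𝒪 𝒪 x)) :
    s59t_TWFull h0 hle B C (ε * e) (ε' * e') := by
  have h1 := (s59t_TWFull_iff_abs h0 hle B C ε ε').mp hfull
  have h2 := s59b_TWFullAbs_cut hpm hΔ hΔ' h1 e e' he he' heε heε' heρ heρ' hres
  exact (s59t_TWFull_iff_abs h0 hle B C (ε * e) (ε' * e')).mpr h2

end CutConcrete

end Fermat.Agent.Lib.S59
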