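/-
[E] FINAL ASSEMBLY (helper4, prefix `s59i_`), FIN-A0: CONJUGATION-INVARIANCE TOOLBOX.
`V′ V = 1` in `M₂(C)`; the conjugates `V′ A V` have the same trace, determinant, the same polynomial
relations; entries in an ideal stay in the ideal.  The framed matrices `U′ · C(ρ(g)) · U` over
`T′⟦z⟧` and their images under `MvPowerSeries.map f`.
-/
import Mathlib
import Fermat.Agent.Lib.S59.LInstM

set_option autoImplicit false
set_option linter.unusedSectionVars false
set_option linter.unusedVariables false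
set_option linter.style.haveILetI false

noncomputable section

namespace Fermat.Agent.Lib.S59

open IsLocalRing MvPowerSeries

section Conj

variable {C : Type*} [CommRing C] (V V' : Matrix (Fin 2) (Fin 2) C) (hV : V' * V = 1)

include hV

theorem s59i_conj_VV' : V * V' = 1 := mul_eq_one_comm.mp hV

theorem s59i_conj_trace (A : Matrix (Fin 2) (Fin 2) C) : (V' * A * V).trace = A.trace := by
  rw [Matrix.trace_mul_comm, ← mul_assoc, s59i_conj_VV' V V' hV, one_mul]

theorem s59i_conj_det (A : Matrix (Fin 2) (Fin 2) C) : (V' * A * V).det = A.det := by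
  have h := congrArg Matrix.det hV
  rw [Matrix.det_mul, Matrix.det_one] at h
  rw [Matrix.det_mul, Matrix.det_mul]
  linear_combination A.det * h

theorem s59i_conj_mul (A B : Matrix (Fin 2) (Fin 2) C) :
    (V' * A * V) * (V' * B * V) = V' * (A * B) * V := by
  have h := s59i_conj_VV' V V' hV
  calc (V' * A * V) * (V' * B * V) = V' * A * (V * V') * B * V := by
        simp only [mul_assoc]
    _ = V' * (A * B) * V := by rw [h, mul_one]; simp only [mul_assoc]

theorem s59i_conj_one : V' * (1 : Matrix (Fin 2) (Fin 2) C) * V = 1 := by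
  rw [mul_one, hV]

theorem s59i_conj_pow (A : Matrix (Fin 2) (Fin 2) C) (k : ℕ) :
    (V' * A * V) ^ k = V' * A ^ k * V := by
  induction k with
  | zero => rw [pow_zero, pow_zero, s59i_conj_one V V' hV]
  | succ k ih => rw [pow_succ, ih, s59i_conj_mul V V' hV, pow_succ]

theorem s59i_conj_sub_one (A : Matrix (Fin 2) (Fin 2) C) :
    V' * A * V - 1 = V' * (A - 1) * V := by
  rw [mul_sub, sub_mul, mul_one, hV]

omit hV in
theorem s59i_conj_smul (c : C) (A : Matrix (Fin 2) (Fin 2) C) :
    V' * (c • A) * V = c • (V' * A * V) := by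
  rw [Matrix.mul_smul, Matrix.smul_mul]

omit hV in
theorem s59i_conj_mem (I : Ideal C) (X : Matrix (Fin 2) (Fin 2) C) (hX : ∀ i j, X i j ∈ I)
    (i j : Fin 2) : (V' * X * V) i j ∈ I := by
  rw [Matrix.mul_apply]
  refine Ideal.sum_mem _ fun k _ => Ideal.mul_mem_right _ _ ?_
  rw [Matrix.mul_apply]
  exact Ideal.sum_mem _ fun l _ => Ideal.mul_mem_left _ _ (hX l k)

omit hV in
/-- `tr A = 2`, `det A = 1` ⇒ `(A − 1)² = 0`. -/
theorem s59i_unip_of_tr_det (A : Matrix (Fin 2) (Fin 2) C) (htr : A.trace = 2) (hdet : A.det = 1) :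
    (A - 1) * (A - 1) = 0 := by
  have h := s59i_cayley A
  rw [htr, hdet, one_smul] at h
  have e : (A - 1) * (A - 1) = A * A - (2 : C) • A + 1 := by
    rw [sub_mul, mul_sub, mul_sub, mul_one, one_mul, mul_one, two_smul]
    abel
  rw [e, h]
  abel

/-- the type-`1` relations for a conjugate. -/
theorem s59i_conj_type1 (A Φ : Matrix (Fin 2) (Fin 2) C) (q : ℕ) (htr : A.trace = 2)
    (hdet : A.det = 1) (ht : Φ * A = A ^ q * Φ) :
    (V' * A * V - 1) * (V' * A * V - 1) = 0 ∧ (V' * A * V).trace = 2 ∧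
      (V' * Φ * V) * (V' * A * V - 1) = (q : C) • ((V' * A * V - 1) * (V' * Φ * V)) := by
  have h1 : (V' * A * V - 1) * (V' * A * V - 1) = 0 :=
    s59i_unip_of_tr_det _ ((s59i_conj_trace V V' hV A).trans htr)
      ((s59i_conj_det V V' hV A).trans hdet)
  refine ⟨h1, (s59i_conj_trace V V' hV A).trans htr, ?_⟩
  refine s59i_tame_unip _ _ q h1 ?_
  rw [s59i_conj_mul V V' hV, ht, s59i_conj_pow V V' hV, s59i_conj_mul V V' hV]

theorem s59i_conj_ht (i2 : C) (Φ : Matrix (Fin 2) (Fin 2) C) :
    s59i_ht i2 (V' * Φ * V) = i2 * Φ.trace := by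
  have h := s59i_conj_trace V V' hV Φ
  rw [Matrix.trace_fin_two] at h
  rw [s59i_ht, h]

end Conj

section MapC

variable {T : Type*} [CommRing T] {σ : Type*}

theorem s59i_mapC_trace (A : Matrix (Fin 2) (Fin 2) T) :
    (A.map (C : T →+* MvPowerSeries σ T)).trace = C A.trace := by
  rw [Matrix.trace_fin_two, Matrix.trace_fin_two, map_add]
  rfl

theorem s59i_mapC_det (A : Matrix (Fin 2) (Fin 2) T) :
    (A.map (C : T →+* MvPowerSeries σ T)).det = C A.det := by
  rw [Matrix.det_fin_two, Matrix.det_fin_two, map_sub, map_mul, map_mul]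
  rfl

theorem s59i_map_pow' {T₂ : Type*} [CommRing T₂] (f : T →+* T₂) (A : Matrix (Fin 2) (Fin 2) T)
    (k : ℕ) : (A ^ k).map f = A.map f ^ k := by
  have := map_pow f.mapMatrix A k
  simpa [RingHom.mapMatrix_apply] using this

theorem s59i_map_trace' {T₂ : Type*} [CommRing T₂] (f : T →+* T₂)
    (A : Matrix (Fin 2) (Fin 2) T) : (A.map f).trace = f A.trace := by
  rw [Matrix.trace_fin_two, Matrix.trace_fin_two, map_add]
  rfl

theorem s59i_map_det' {T₂ : Type*} [CommRing T₂] (f : T →+* T₂)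
    (A : Matrix (Fin 2) (Fin 2) T) : (A.map f).det = f A.det := by
  rw [Matrix.det_fin_two, Matrix.det_fin_two, map_sub, map_mul, map_mul]
  rfl

end MapC

end Fermat.Agent.Lib.S59
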