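/-
[E] INSTANTIATION, ring half (helper4, prefix `s59i_`), part 4: THE MAPS `Θ_n`, `φ_n` AND `hdim`.
  * `s59i_Theta γ s hs : P⟦s_1..s_r⟧ →+* U` for `γ : P →+* U`, `U` complete local, `s i ∈ 𝔪_U`:
    `Θ (C a) = γ a`, `Θ (X i) = s i`;
  * `s59i_phi_exists` : `S = S₀⟦z⟧`, `S₀ = 𝒪⟦s_1..s_r⟧`; for ANY `𝒪`-algebra map `std : S → U` with
    `std (C (X i)) = s i` and lifts `ẑ j ∈ 𝔪_𝒫` of `std (X j)` under `γ` there is
    `φ : S →+* 𝒫⟦s⟧` with `Θ ∘ φ = std` (`φ (C (X i)) = X i`, `φ (X j) = C (ẑ j)`);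
  * `s59i_hdim` : `dim 𝒪 + (3m + (g + 3e)) ≤ dim S` as soon as `3m + g + 3e ≤ r + #z`.
-/
import Mathlib
import Fermat.Agent.Lib.S59.PDim
import Fermat.Agent.Lib.S59.LDom

set_option autoImplicit false
set_option linter.unusedSectionVars false
set_option linter.unusedVariables false
set_option linter.style.haveILetI false

noncomputable section

namespace Fermat.Agent.Lib.S59

open IsLocalRing MvPowerSeries Fermat.Agent.Lib.Deform

section Theta

variable {P : Type*} [CommRing P] {U : Type*} [CommRing U] [IsLocalRing U]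
  [IsAdicComplete (maximalIdeal U) U] {ρ : Type*} [Finite ρ]

/-- the map `P⟦s⟧ → U` extending `γ : P → U` by `X i ↦ s i ∈ 𝔪_U`. -/
def s59i_Theta (γ : P →+* U) (s : ρ → U) (hs : ∀ i, s i ∈ maximalIdeal U) :
    MvPowerSeries ρ P →+* U :=
  letI := γ.toAlgebra
  (evalHom (R := P) (maximalIdeal U) s hs : MvPowerSeries ρ P →ₐ[P] U).toRingHom

theorem s59i_Theta_C (γ : P →+* U) (s : ρ → U) (hs : ∀ i, s i ∈ maximalIdeal U) (a : P) :
    s59i_Theta γ s hs (C a) = γ a := by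
  letI := γ.toAlgebra
  show (evalHom (R := P) (maximalIdeal U) s hs : MvPowerSeries ρ P →ₐ[P] U) (C a) = γ a
  rw [s59l_algHom_C]
  rfl

theorem s59i_Theta_X (γ : P →+* U) (s : ρ → U) (hs : ∀ i, s i ∈ maximalIdeal U) (i : ρ) :
    s59i_Theta γ s hs (X i) = s i := by
  letI := γ.toAlgebra
  show (evalHom (R := P) (maximalIdeal U) s hs : MvPowerSeries ρ P →ₐ[P] U) (X i) = s i
  exact evalHom_X _ s hs i

end Theta

section Ext

variable {P : Type*} [CommRing P] {U : Type*} [CommRing U] [IsLocalRing U]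
  [IsHausdorff (maximalIdeal U) U] {ρ : Type*} [Finite ρ]

/-- two ring maps out of `P⟦x⟧` into a separated local ring which agree on the constants and on
the variables (sent into `𝔪_U`) are equal. -/
theorem s59i_ringHom_ext (f g : MvPowerSeries ρ P →+* U) (hC : ∀ a, f (C a) = g (C a))
    (hXm : ∀ i, f (X i) ∈ maximalIdeal U) (hX : ∀ i, f (X i) = g (X i)) : f = g := by
  letI := (f.comp (C (σ := ρ) (R := P))).toAlgebra
  have hal : ∀ a : P, algebraMap P (MvPowerSeries ρ P) a = C a := fun a => by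
    rw [MvPowerSeries.algebraMap_apply, Algebra.algebraMap_self, RingHom.id_apply]
  have hf' : ∀ a : P, f (algebraMap P (MvPowerSeries ρ P) a) = algebraMap P U a := fun a => by
    rw [hal]
    rfl
  have hg' : ∀ a : P, g (algebraMap P (MvPowerSeries ρ P) a) = algebraMap P U a := fun a => by
    rw [hal, ← hC]
    rfl
  let f' : MvPowerSeries ρ P →ₐ[P] U := { f with commutes' := hf' }
  let g' : MvPowerSeries ρ P →ₐ[P] U := { g with commutes' := hg' }
  have h := algHom_ext_of_X (maximalIdeal U) (φ := f') (ψ := g') hXm hX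
  refine RingHom.ext fun x => ?_
  exact congrArg (fun F : MvPowerSeries ρ P →ₐ[P] U => F x) h

end Ext

section Phi

variable {𝒪 : Type*} [CommRing 𝒪] {Q : Type*} [CommRing Q] [IsLocalRing Q]
  [IsAdicComplete (maximalIdeal Q) Q] [Algebra 𝒪 Q]
  {U : Type*} [CommRing U] [IsLocalRing U] [IsAdicComplete (maximalIdeal U) U] [Algebra 𝒪 U]
  {σ : Type*} [Finite σ] {r : ℕ}

/-- **the structure maps `φ_n : S → Q⟦s⟧`.**  `S = 𝒪⟦s_1..s_r⟧⟦z⟧`; `std : S → U` any `𝒪`-algebra map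
(the action of `S_∞` on the framed Hecke ring) with `std (C (X i)) = s i`; `ẑ j ∈ 𝔪_Q` lifts of
`std (X j)` under `γ`. -/
theorem s59i_phi_exists (γ : Q →ₐ[𝒪] U) (s : Fin r → U) (hs : ∀ i, s i ∈ maximalIdeal U)
    (std : MvPowerSeries σ (MvPowerSeries (Fin r) 𝒪) →ₐ[𝒪] U)
    (hstdX : ∀ i, std (C (X i)) = s i) (hstdm : ∀ j, std (X j) ∈ maximalIdeal U)
    (z : σ → Q) (hzm : ∀ j, z j ∈ maximalIdeal Q) (hz : ∀ j, γ (z j) = std (X j)) :
    ∃ φ : MvPowerSeries σ (MvPowerSeries (Fin r) 𝒪) →+* MvPowerSeries (Fin r) Q,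
      (∀ x, s59i_Theta (γ : Q →+* U) s hs (φ x) = std x) ∧ (∀ i, φ (C (X i)) = X i) ∧
        ∀ j, φ (X j) = C (z j) := by
  have hzm' : ∀ j, (C (z j) : MvPowerSeries (Fin r) Q) ∈ maximalIdeal (MvPowerSeries (Fin r) Q) := by
    intro j
    rw [mem_maximalIdeal, mem_nonunits_iff, MvPowerSeries.isUnit_iff_constantCoeff,
      constantCoeff_C]
    exact hzm j
  set j₀ : MvPowerSeries (Fin r) 𝒪 →+* MvPowerSeries (Fin r) Q :=
    MvPowerSeries.map (algebraMap 𝒪 Q) with hj₀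
  set φ := s59i_Theta j₀ (fun j => (C (z j) : MvPowerSeries (Fin r) Q)) hzm' with hφ
  have hφC : ∀ f, φ (C f) = j₀ f := fun f => s59i_Theta_C j₀ _ hzm' f
  have hφX : ∀ j, φ (X j) = C (z j) := fun j => s59i_Theta_X j₀ _ hzm' j
  refine ⟨φ, ?_, fun i => ?_, hφX⟩
  · -- first on `S₀`
    have h0 : ((s59i_Theta (γ : Q →+* U) s hs).comp j₀ : MvPowerSeries (Fin r) 𝒪 →+* U) =
        (std : MvPowerSeries σ (MvPowerSeries (Fin r) 𝒪) →+* U).comp
          (C (σ := σ) (R := MvPowerSeries (Fin r) 𝒪)) := by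
      refine s59i_ringHom_ext _ _ (fun o => ?_) (fun i => ?_) (fun i => ?_)
      · rw [RingHom.comp_apply, RingHom.comp_apply, hj₀, map_C, s59i_Theta_C]
        have e1 : (C (C o) : MvPowerSeries σ (MvPowerSeries (Fin r) 𝒪)) =
            algebraMap 𝒪 (MvPowerSeries σ (MvPowerSeries (Fin r) 𝒪)) o := by
          rw [MvPowerSeries.algebraMap_apply, MvPowerSeries.algebraMap_apply,
            Algebra.algebraMap_self, RingHom.id_apply]
        rw [e1]
        show γ (algebraMap 𝒪 Q o) = std (algebraMap 𝒪 _ o)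
        rw [γ.commutes, std.commutes]
      · rw [RingHom.comp_apply, hj₀, map_X, s59i_Theta_X]
        exact hs i
      · rw [RingHom.comp_apply, RingHom.comp_apply, hj₀, map_X, s59i_Theta_X]
        exact (hstdX i).symm
    have h1 : ((s59i_Theta (γ : Q →+* U) s hs).comp φ :
        MvPowerSeries σ (MvPowerSeries (Fin r) 𝒪) →+* U) =
        (std : MvPowerSeries σ (MvPowerSeries (Fin r) 𝒪) →+* U) := by
      refine s59i_ringHom_ext _ _ (fun f => ?_) (fun j => ?_) (fun j => ?_)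
      · rw [RingHom.comp_apply, hφC]
        exact congrArg (fun F : MvPowerSeries (Fin r) 𝒪 →+* U => F f) h0
      · rw [RingHom.comp_apply, hφX, s59i_Theta_C]
        show γ (z j) ∈ _
        rw [hz]
        exact hstdm j
      · rw [RingHom.comp_apply, hφX, s59i_Theta_C]
        exact hz j
    intro x
    exact congrArg (fun F : MvPowerSeries σ (MvPowerSeries (Fin r) 𝒪) →+* U => F x) h1
  · rw [hφC, hj₀, map_X]

end Phi

section Dim

/-- `Θ` is onto as soon as `γ` is. -/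
theorem s59i_Theta_surjective {P : Type*} [CommRing P] {U : Type*} [CommRing U] [IsLocalRing U]
    [IsAdicComplete (maximalIdeal U) U] {ρ : Type*} [Finite ρ] (γ : P →+* U) (s : ρ → U)
    (hs : ∀ i, s i ∈ maximalIdeal U) (hγ : Function.Surjective γ) :
    Function.Surjective (s59i_Theta γ s hs) := fun u => by
  obtain ⟨a, rfl⟩ := hγ u
  exact ⟨C a, s59i_Theta_C γ s hs a⟩

/-- **`Θ` is onto `T⟦z⟧`** when `γ` is onto `T′⟦z⟧` (`T′ → T` the ring generated by the Galois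
traces, `γ = (T′⟦z⟧ → T⟦z⟧) ∘ γ'`) and `T` is spanned over `T′` by finitely many monomials in the
`s i` (e.g. `s^α`, `α ∈ {0,1}^r`, when `s_i² ∈ T′`). -/
theorem s59i_Theta_surjective_of_monomials {P : Type*} [CommRing P] {T' T : Type*} [CommRing T']
    [CommRing T] {σ : Type*} [Finite σ] [IsLocalRing (MvPowerSeries σ T)]
    [IsAdicComplete (maximalIdeal (MvPowerSeries σ T)) (MvPowerSeries σ T)] {ρ : Type*} [Fintype ρ]
    (ι : T' →+* T) (γ' : P →+* MvPowerSeries σ T') (hγ' : Function.Surjective γ') (s : ρ → T)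
    (hs : ∀ i, (C (s i) : MvPowerSeries σ T) ∈ maximalIdeal (MvPowerSeries σ T))
    {K : ℕ} (mon : Fin K → ρ → ℕ)
    (hfin : ∀ t : T, ∃ c : Fin K → T', t = ∑ k, ι (c k) * ∏ i, s i ^ mon k i) :
    Function.Surjective (s59i_Theta ((MvPowerSeries.map ι).comp γ')
      (fun i => (C (s i) : MvPowerSeries σ T)) hs) := by
  classical
  intro f
  choose c hc using fun d : σ →₀ ℕ => hfin (coeff d f)
  choose a ha using fun k : Fin K => hγ' (fun d => c d k : MvPowerSeries σ T')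
  refine ⟨∑ k, C (a k) * ∏ i, (X i : MvPowerSeries ρ P) ^ mon k i, ?_⟩
  rw [map_sum]
  have h1 : ∀ k, s59i_Theta ((MvPowerSeries.map ι).comp γ')
      (fun i => (C (s i) : MvPowerSeries σ T)) hs
        (C (a k) * ∏ i, (X i : MvPowerSeries ρ P) ^ mon k i) =
      MvPowerSeries.map ι (fun d => c d k : MvPowerSeries σ T') *
        C (∏ i, s i ^ mon k i) := by
    intro k
    rw [map_mul, s59i_Theta_C, map_prod, RingHom.comp_apply, ha, map_prod]
    congr 1
    refine Finset.prod_congr rfl fun i _ => ?_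
    rw [map_pow, s59i_Theta_X, map_pow]
  rw [Finset.sum_congr rfl fun k _ => h1 k]
  ext d
  rw [map_sum, hc d]
  refine Finset.sum_congr rfl fun k _ => ?_
  rw [mul_comm (MvPowerSeries.map ι _), coeff_C_mul, coeff_map, mul_comm]
  rfl

/-- the span of the monomials `∏ s_i^{e_i}`, `e_i ≤ D`. -/
def s59i_monSpan (A : Type*) [CommRing A] {T : Type*} [CommRing T] [Algebra A T] {ρ : Type*}
    [Fintype ρ] (s : ρ → T) (D : ℕ) : Submodule A T :=
  Submodule.span A (Set.range fun e : ρ → Fin (D + 1) => ∏ i, s i ^ (e i : ℕ))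

theorem s59i_monSpan_mono (A : Type*) [CommRing A] {T : Type*} [CommRing T] [Algebra A T]
    {ρ : Type*} [Fintype ρ] (s : ρ → T) {D D' : ℕ} (h : D ≤ D') :
    s59i_monSpan A s D ≤ s59i_monSpan A s D' := by
  refine Submodule.span_mono ?_
  rintro _ ⟨e, rfl⟩
  exact ⟨fun i => Fin.castLE (by omega) (e i), rfl⟩

theorem s59i_monSpan_mul (A : Type*) [CommRing A] {T : Type*} [CommRing T] [Algebra A T]
    {ρ : Type*} [Fintype ρ] (s : ρ → T) (D : ℕ) {x y : T} (hx : x ∈ s59i_monSpan A s D)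
    (hy : y ∈ s59i_monSpan A s D) : x * y ∈ s59i_monSpan A s (D + D) := by
  have h := Submodule.mul_mem_mul hx hy
  unfold s59i_monSpan at h ⊢
  rw [Submodule.span_mul_span] at h
  refine Submodule.span_mono ?_ h
  rintro _ ⟨_, ⟨e, rfl⟩, _, ⟨e', rfl⟩, rfl⟩
  refine ⟨fun i => ⟨(e i : ℕ) + (e' i : ℕ), by have := (e i).2; have := (e' i).2; omega⟩, ?_⟩
  show ∏ i, s i ^ ((e i : ℕ) + (e' i : ℕ)) =
    (∏ i, s i ^ (e i : ℕ)) * ∏ i, s i ^ (e' i : ℕ)
  rw [← Finset.prod_mul_distrib]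
  exact Finset.prod_congr rfl fun i _ => pow_add _ _ _

/-- **finitely many monomials span**: `T = A[s_i]` noetherian as an `A`-module. -/
theorem s59i_exists_monomials (A : Type*) [CommRing A] {T : Type*} [CommRing T] [Algebra A T]
    [IsNoetherian A T] {ρ : Type*} [Fintype ρ] (s : ρ → T)
    (hadj : Algebra.adjoin A (Set.range s) = ⊤) :
    ∃ (K : ℕ) (mon : Fin K → ρ → ℕ), ∀ t : T, ∃ c : Fin K → A,
      t = ∑ k, algebraMap A T (c k) * ∏ i, s i ^ mon k i := by
  classical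
  obtain ⟨D₀, hD₀⟩ := monotone_stabilizes_iff_noetherian.mpr (inferInstance : IsNoetherian A T)
    ⟨fun D => s59i_monSpan A s D, fun D D' h => s59i_monSpan_mono A s h⟩
  have hstab : ∀ D, D₀ ≤ D → s59i_monSpan A s D = s59i_monSpan A s D₀ := fun D h =>
    (hD₀ D h).symm
  set D := D₀ + 1 with hD
  have hDD : s59i_monSpan A s (D + D) = s59i_monSpan A s D := by
    rw [hstab (D + D) (by omega), hstab D (by omega)]
  have hall : ∀ t : T, t ∈ s59i_monSpan A s D := by
    intro t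
    have ht : t ∈ Algebra.adjoin A (Set.range s) := hadj ▸ Algebra.mem_top
    refine Algebra.adjoin_induction ?_ ?_ ?_ ?_ ht
    · rintro _ ⟨i, rfl⟩
      refine Submodule.subset_span ⟨fun j => if j = i then ⟨1, by omega⟩ else ⟨0, by omega⟩, ?_⟩
      show ∏ j, s j ^ ((if j = i then (⟨1, by omega⟩ : Fin (D + 1)) else ⟨0, by omega⟩ : Fin (D + 1)) : ℕ)
        = s i
      rw [Finset.prod_eq_single i]
      · have h1 : 1 % (D + 1) = 1 := Nat.mod_eq_of_lt (by omega)
        simp [h1]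
      · intro j _ hj
        simp [hj]
      · intro h
        exact absurd (Finset.mem_univ i) h
    · intro a
      rw [Algebra.algebraMap_eq_smul_one]
      refine Submodule.smul_mem _ _ (Submodule.subset_span ⟨fun _ => ⟨0, by omega⟩, ?_⟩)
      simp
    · intro x y _ _ hx hy
      exact add_mem hx hy
    · intro x y _ _ hx hy
      rw [← hDD]
      exact s59i_monSpan_mul A s D hx hy
  refine ⟨Fintype.card (ρ → Fin (D + 1)),
    fun k i => ((Fintype.equivFin (ρ → Fin (D + 1))).symm k i : ℕ), fun t => ?_⟩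
  have ht := hall t
  unfold s59i_monSpan at ht
  rw [Submodule.mem_span_range_iff_exists_fun] at ht
  obtain ⟨c, hc⟩ := ht
  refine ⟨fun k => c ((Fintype.equivFin (ρ → Fin (D + 1))).symm k), ?_⟩
  rw [← hc, ← Equiv.sum_comp (Fintype.equivFin (ρ → Fin (D + 1))).symm]
  refine Finset.sum_congr rfl fun k _ => ?_
  rw [Algebra.smul_def]

/-- **`hdim`** for `S = 𝒪⟦s_1..s_r⟧⟦z_1..z_f⟧`. -/
theorem s59i_dim_S (𝒪 : Type) [CommRing 𝒪] [IsLocalRing 𝒪] [IsNoetherianRing 𝒪] (r f : ℕ) :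
    ringKrullDim (MvPowerSeries (Fin f) (MvPowerSeries (Fin r) 𝒪)) =
      ringKrullDim 𝒪 + ((r + f : ℕ) : WithBot ℕ∞) := by
  rw [s59p_pmdim (MvPowerSeries (Fin r) 𝒪) f, s59p_pmdim 𝒪 r, add_assoc]
  congr 1

theorem s59i_hdim (𝒪 : Type) [CommRing 𝒪] [IsLocalRing 𝒪] [IsNoetherianRing 𝒪] (m e g r f : ℕ)
    (h : 3 * m + (g + e * 3) ≤ r + f) :
    ringKrullDim 𝒪 + ((3 * m + (g + e * 3) : ℕ) : WithBot ℕ∞) ≤
      ringKrullDim (MvPowerSeries (Fin f) (MvPowerSeries (Fin r) 𝒪)) := by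
  rw [s59i_dim_S]
  gcongr

/-- `dim B⟦x_σ⟧ = dim B + #σ` for any finite index type. -/
theorem s59i_dim_mvPowerSeries (B : Type) [CommRing B] [IsLocalRing B] [IsNoetherianRing B]
    (σ : Type) [Fintype σ] :
    ringKrullDim (MvPowerSeries σ B) = ringKrullDim B + ((Fintype.card σ : ℕ) : WithBot ℕ∞) := by
  rw [ringKrullDim_eq_of_ringEquiv
    (MvPowerSeries.renameEquiv B (Fintype.equivFin σ)).toRingEquiv, s59p_pmdim B (Fintype.card σ)]

/-- **`hdim`** for `S = 𝒪⟦s_1..s_r⟧⟦z_σ⟧`, any finite index type `σ` of framing variables. -/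
theorem s59i_hdim' (𝒪 : Type) [CommRing 𝒪] [IsLocalRing 𝒪] [IsNoetherianRing 𝒪] (m e g r : ℕ)
    (σ : Type) [Fintype σ] (h : 3 * m + (g + e * 3) ≤ r + Fintype.card σ) :
    ringKrullDim 𝒪 + ((3 * m + (g + e * 3) : ℕ) : WithBot ℕ∞) ≤
      ringKrullDim (MvPowerSeries σ (MvPowerSeries (Fin r) 𝒪)) := by
  rw [s59i_dim_mvPowerSeries, s59p_pmdim 𝒪 r, add_assoc]
  gcongr
  exact_mod_cast h

end Dim

end Fermat.Agent.Lib.S59
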