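/-
[E] FINAL ASSEMBLY, abstract pieces (helper4, prefix `s59i_`), part 1: THE FULL HECKE RING IS
GENERATED OVER THE TRACE RING BY THE `s_i = u_i − u_i⁻¹`.
`T` local, finite over `T′`, generated over `T′` by units `u_i ≡ 1 mod 𝔪_T` and their inverses
(`u_i = ⟨δ_i⟩^{1/2}` the square roots of the diamond operators), `2 ∈ Tˣ`.  Then
`T = T′[s_1, …, s_r]` with `s_i = u_i − u_i⁻¹` (Nakayama over `A = T′[s]`: `u_i − 1 = s_i u_i (u_i+1)⁻¹`),
hence (with `s59i_exists_monomials`, `s59i_Theta_surjective_of_monomials`) the map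
`Θ : 𝒫⟦s⟧ → T⟦z⟧` is ONTO as soon as `γ′ : 𝒫 → T′⟦z⟧` is.
-/
import Mathlib
import Fermat.Agent.Lib.S59.LInstT

set_option autoImplicit false
set_option linter.unusedSectionVars false
set_option linter.unusedVariables false
set_option linter.style.haveILetI false

noncomputable section

namespace Fermat.Agent.Lib.S59

open IsLocalRing MvPowerSeries

section Gen

variable {T' T : Type*} [CommRing T'] [CommRing T] [IsLocalRing T] [Algebra T' T]
  [Module.Finite T' T] {ρ : Type*} [Fintype ρ]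

/-- `1 + x` is a unit for `x ∈ 𝔪`. -/
theorem s59i_isUnit_add_of_mem {R : Type*} [CommRing R] [IsLocalRing R] (c x : R) (hc : IsUnit c)
    (hx : x ∈ maximalIdeal R) : IsUnit (c + x) := by
  by_contra hn
  have h1 : c + x ∈ maximalIdeal R := hn
  have h2 : c ∈ maximalIdeal R := by
    have := Ideal.sub_mem _ h1 hx
    rwa [add_sub_cancel_right] at this
  exact h2 hc

/-- **`T = T′[u_i − u_i⁻¹]`.** -/
theorem s59i_adjoin_sub_inv (u : ρ → Tˣ) (hu : ∀ i, (u i : T) - 1 ∈ maximalIdeal T)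
    (h2 : IsUnit (2 : T))
    (hgen : Algebra.adjoin T' (Set.range (fun i => (u i : T)) ∪
      Set.range (fun i => (((u i)⁻¹ : Tˣ) : T))) = ⊤) :
    Algebra.adjoin T' (Set.range fun i => (u i : T) - (((u i)⁻¹ : Tˣ) : T)) = ⊤ := by
  classical
  set s : ρ → T := fun i => (u i : T) - (((u i)⁻¹ : Tˣ) : T) with hs
  set A : Subalgebra T' T := Algebra.adjoin T' (Set.range s) with hA
  -- `u⁻¹ − 1 ∈ 𝔪`, `s_i ∈ 𝔪`
  have huinv : ∀ i, (((u i)⁻¹ : Tˣ) : T) - 1 = -((((u i)⁻¹ : Tˣ) : T) * ((u i : T) - 1)) := by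
    intro i
    rw [mul_sub, Units.inv_mul, mul_one]
    ring
  have huinvm : ∀ i, (((u i)⁻¹ : Tˣ) : T) - 1 ∈ maximalIdeal T := by
    intro i
    rw [huinv]
    exact Ideal.neg_mem_iff _ |>.mpr (Ideal.mul_mem_left _ _ (hu i))
  have hsm : ∀ i, s i ∈ maximalIdeal T := by
    intro i
    have e : s i = ((u i : T) - 1) - ((((u i)⁻¹ : Tˣ) : T) - 1) := by simp only [hs]; ring
    rw [e]
    exact Ideal.sub_mem _ (hu i) (huinvm i)
  -- `u + 1` is a unit
  have hu1 : ∀ i, IsUnit ((u i : T) + 1) := by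
    intro i
    have e : (u i : T) + 1 = 2 + ((u i : T) - 1) := by ring
    rw [e]
    exact s59i_isUnit_add_of_mem 2 _ h2 (hu i)
  -- the ideal `J = (s_i) T`
  set J : Ideal T := Ideal.span (Set.range s) with hJ
  have hsJ : ∀ i, s i ∈ J := fun i => Ideal.subset_span ⟨i, rfl⟩
  have huJ : ∀ i, (u i : T) - 1 ∈ J := by
    intro i
    obtain ⟨w, hw⟩ := hu1 i
    have e : (u i : T) - 1 = s i * ((u i : T) * ((w⁻¹ : Tˣ) : T)) := by
      have h1 : ((u i : T) + 1) * ((w⁻¹ : Tˣ) : T) = 1 := by rw [← hw, Units.mul_inv]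
      have h3 : s i * (u i : T) = ((u i : T) - 1) * ((u i : T) + 1) := by
        simp only [hs]
        rw [sub_mul, Units.inv_mul]
        ring
      calc (u i : T) - 1 = ((u i : T) - 1) * (((u i : T) + 1) * ((w⁻¹ : Tˣ) : T)) := by
            rw [h1, mul_one]
        _ = s i * ((u i : T) * ((w⁻¹ : Tˣ) : T)) := by rw [← mul_assoc, ← h3, mul_assoc]
    rw [e]
    exact Ideal.mul_mem_right _ _ (hsJ i)
  have huinvJ : ∀ i, (((u i)⁻¹ : Tˣ) : T) - 1 ∈ J := by
    intro i
    rw [huinv]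
    exact Ideal.neg_mem_iff _ |>.mpr (Ideal.mul_mem_left _ _ (huJ i))
  -- every element is in `A + J`
  have hP : ∀ t : T, ∃ a : A, t - (a : T) ∈ J := by
    intro t
    have ht : t ∈ Algebra.adjoin T' (Set.range (fun i => (u i : T)) ∪
        Set.range (fun i => (((u i)⁻¹ : Tˣ) : T))) := hgen ▸ Algebra.mem_top
    refine Algebra.adjoin_induction ?_ ?_ ?_ ?_ ht
    · rintro _ (⟨i, rfl⟩ | ⟨i, rfl⟩)
      · exact ⟨1, by simpa using huJ i⟩
      · exact ⟨1, by simpa using huinvJ i⟩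
    · intro r
      exact ⟨algebraMap T' A r, by simp⟩
    · rintro x y _ _ ⟨a, ha⟩ ⟨b, hb⟩
      refine ⟨a + b, ?_⟩
      have e : x + y - ((a + b : A) : T) = (x - (a : T)) + (y - (b : T)) := by
        push_cast; ring
      rw [e]
      exact Ideal.add_mem _ ha hb
    · rintro x y _ _ ⟨a, ha⟩ ⟨b, hb⟩
      refine ⟨a * b, ?_⟩
      have e : x * y - ((a * b : A) : T) = (x - (a : T)) * y + (a : T) * (y - (b : T)) := by
        push_cast; ring
      rw [e]
      exact Ideal.add_mem _ (Ideal.mul_mem_right _ _ ha) (Ideal.mul_mem_left _ _ hb)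
  -- Nakayama over `A`
  haveI : Module.Finite A T := Module.Finite.of_restrictScalars_finite T' A T
  have hint : (algebraMap A T).IsIntegral := by
    intro t
    exact IsIntegral.of_finite A t
  have hinj : Function.Injective (algebraMap A T) := Subtype.val_injective
  haveI : IsLocalHom (algebraMap A T) := RingHom.IsIntegral.isLocalHom hint hinj
  set s' : ρ → A := fun i => ⟨s i, Algebra.subset_adjoin ⟨i, rfl⟩⟩ with hs'
  set I : Ideal A := Ideal.span (Set.range s') with hI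
  have hIjac : I ≤ Ideal.jacobson ⊥ := by
    rw [hI, Ideal.span_le]
    rintro _ ⟨i, rfl⟩
    rw [SetLike.mem_coe, Ideal.mem_jacobson_bot]
    intro y
    refine (isUnit_map_iff (algebraMap A T) _).mp ?_
    have e : algebraMap A T (s' i * y + 1) = 1 + s i * (y : T) := by
      rw [map_add, map_mul, map_one, add_comm]
      rfl
    rw [e]
    exact s59i_isUnit_add_of_mem 1 _ isUnit_one (Ideal.mul_mem_right _ _ (hsm i))
  have hNN : (⊤ : Submodule A T) ≤ LinearMap.range (Algebra.linearMap A T) ⊔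
      I • (⊤ : Submodule A T) := by
    intro t _
    obtain ⟨a, ha⟩ := hP t
    have e : t = (a : T) + (t - (a : T)) := by ring
    rw [e]
    refine Submodule.add_mem_sup ⟨a, rfl⟩ ?_
    rw [hJ] at ha
    obtain ⟨c, hc⟩ := (Ideal.mem_span_range_iff_exists_fun).mp ha
    rw [← hc]
    refine Submodule.sum_mem _ fun i _ => ?_
    have e2 : c i * s i = s' i • c i := by
      rw [mul_comm]
      rfl
    rw [e2]
    exact Submodule.smul_mem_smul (Ideal.subset_span ⟨i, rfl⟩) Submodule.mem_top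
  have hle := Submodule.le_of_le_smul_of_le_jacobson_bot (Module.Finite.fg_top) hIjac hNN
  rw [eq_top_iff]
  intro t _
  obtain ⟨a, ha⟩ := hle (Submodule.mem_top : t ∈ (⊤ : Submodule A T))
  rw [← ha]
  exact a.2

end Gen

section ThetaOnto

/-- **`Θ` is onto `T⟦z⟧`**: `γ′ : 𝒫 → T′⟦z⟧` onto, `T` finite over the noetherian `T′` and
generated by the units `u_i ≡ 1` and their inverses, `s_i ↦ u_i − u_i⁻¹`. -/
theorem s59i_Theta_surjective_of_units {P : Type*} [CommRing P] {T' T : Type*} [CommRing T']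
    [IsNoetherianRing T'] [CommRing T] [IsLocalRing T] [Algebra T' T] [Module.Finite T' T]
    {σ : Type*} [Finite σ] [IsLocalRing (MvPowerSeries σ T)]
    [IsAdicComplete (maximalIdeal (MvPowerSeries σ T)) (MvPowerSeries σ T)] {ρ : Type*} [Fintype ρ]
    (γ' : P →+* MvPowerSeries σ T') (hγ' : Function.Surjective γ')
    (u : ρ → Tˣ) (hu : ∀ i, (u i : T) - 1 ∈ maximalIdeal T) (h2 : IsUnit (2 : T))
    (hgen : Algebra.adjoin T' (Set.range (fun i => (u i : T)) ∪
      Set.range (fun i => (((u i)⁻¹ : Tˣ) : T))) = ⊤)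
    (hs : ∀ i, (C ((u i : T) - (((u i)⁻¹ : Tˣ) : T)) : MvPowerSeries σ T) ∈
      maximalIdeal (MvPowerSeries σ T)) :
    Function.Surjective (s59i_Theta ((MvPowerSeries.map (algebraMap T' T)).comp γ')
      (fun i => (C ((u i : T) - (((u i)⁻¹ : Tˣ) : T)) : MvPowerSeries σ T)) hs) := by
  haveI : IsNoetherian T' T := isNoetherian_of_isNoetherianRing_of_finite T' T
  obtain ⟨K, mon, hmon⟩ := s59i_exists_monomials T'
    (fun i => (u i : T) - (((u i)⁻¹ : Tˣ) : T)) (s59i_adjoin_sub_inv u hu h2 hgen)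
  exact s59i_Theta_surjective_of_monomials (algebraMap T' T) γ' hγ' _ hs mon hmon

/-- `C x ∈ 𝔪` for `x ∈ 𝔪`. -/
theorem s59i_C_mem_maximalIdeal {T : Type*} [CommRing T] [IsLocalRing T] {σ : Type*}
    [IsLocalRing (MvPowerSeries σ T)] (x : T) (hx : x ∈ maximalIdeal T) :
    (C x : MvPowerSeries σ T) ∈ maximalIdeal (MvPowerSeries σ T) := by
  rw [IsLocalRing.mem_maximalIdeal, mem_nonunits_iff, MvPowerSeries.isUnit_iff_constantCoeff,
    constantCoeff_C]
  exact hx

end ThetaOnto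

end Fermat.Agent.Lib.S59
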