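/-
(R) S59, [PM] the patching machine (helper4, prefix `s59p_`), part 9: **[PM1w']** = [PM1w] with
the additional information needed by the Ihara-avoidance assembly over one ring `𝒫`:
the limits keep every annihilator common to all levels, and the values of `ψ`, `φ` which do not
depend on the level.
-/
import Mathlib
import Fermat.Agent.Lib.S59.PPair

set_option autoImplicit false
set_option linter.unusedSectionVars false
set_option linter.unusedVariables false
set_option linter.style.haveILetI false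
set_option maxHeartbeats 1600000

namespace Fermat.Agent.Lib.S59

open IsLocalRing Fermat.Agent.Lib.Deform

section limit'

variable {S : Type} [CommRing S] [IsLocalRing S] [IsNoetherianRing S]
  [IsAdicComplete (maximalIdeal S) S] [Finite (ResidueField S)]
  {A : Type} [CommRing A] [IsLocalRing A] [IsNoetherianRing A]
  [IsAdicComplete (maximalIdeal A) A] [Finite (ResidueField A)]
  {R : Type} [CommRing R] [IsLocalRing R] [IsNoetherianRing R]
  [IsAdicComplete (maximalIdeal R) R]
  {M : Type} [AddCommGroup M] [Module R M] [Module.Finite R M]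
  {𝔞 : Ideal S} {J : ℕ → Ideal S}
  (L : ∀ n, s59p_Level S A R M 𝔞 (J n)) {d : ℕ} (hd : ∀ n, (L n).d = d)

/-- the extra properties of the limit level. -/
theorem s59p_limit_extra (Li : s59p_Level S A R M 𝔞 ⊥) (hdi : Li.d = d)
    (hφ : ∀ n s, (L n).φ s - Li.φ s ∈ maximalIdeal A ^ n)
    (hψ : ∀ n a, (L n).ψ a - Li.ψ a ∈ maximalIdeal R ^ n)
    (hK : s59p_K Li hdi = s59p_Kinf L hd) :
    (∀ a : A, (∀ n, a ∈ Module.annihilator A (L n).N) → a ∈ Module.annihilator A Li.N) ∧
    (∀ (a : A) (c : R), (∀ n, (L n).ψ a = c) → Li.ψ a = c) ∧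
    (∀ (s : S) (c : A), (∀ n, (L n).φ s = c) → Li.φ s = c) := by
  classical
  refine ⟨?_, ?_, ?_⟩
  · intro a ha
    refine s59p_mem_ann_of_b Li fun k => ?_
    have hk : k = Fin.cast hdi.symm (Fin.cast hdi k) := by
      apply Fin.ext; simp
    have h1 : a • (Pi.single (Fin.cast hdi k) 1 : Fin d → A) ∈ s59p_K Li hdi := by
      rw [hK, s59p_mem_Kinf]
      intro n
      refine ⟨a • (Pi.single (Fin.cast hdi k) 1 : Fin d → A), ?_, fun j => by simp⟩
      rw [s59p_mem_K, map_smul]
      exact Module.mem_annihilator.mp (ha n) _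
    rw [s59p_mem_K, map_smul, s59p_Φ_single] at h1
    rw [hk]
    exact h1
  · intro a c hc
    refine eq_of_forall_sub_mem_pow (maximalIdeal R) fun n => ?_
    have := hψ n a
    rw [hc n] at this
    have e : Li.ψ a - c = -(c - Li.ψ a) := by ring
    rw [e]
    exact neg_mem this
  · intro s c hc
    refine eq_of_forall_sub_mem_pow (maximalIdeal A) fun n => ?_
    have := hφ n s
    rw [hc n] at this
    have e : Li.φ s - c = -(c - Li.φ s) := by ring
    rw [e]
    exact neg_mem this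

end limit'

/-- **[PM1w']** compactness for a pair of weakly congruent sequences of levels: the limits along a
common subsequence `ms` are weakly congruent, `φ`, `ψ` converge to those of the limits, and the
limits keep every annihilator common to all levels. -/
theorem s59p_pm1w' (S : Type) [CommRing S] [IsLocalRing S] [IsNoetherianRing S]
    [IsAdicComplete (maximalIdeal S) S] [Finite (ResidueField S)]
    (A : Type) [CommRing A] [IsLocalRing A] [IsNoetherianRing A]
    [IsAdicComplete (maximalIdeal A) A] [Finite (ResidueField A)]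
    (A' : Type) [CommRing A'] [IsLocalRing A'] [IsNoetherianRing A']
    [IsAdicComplete (maximalIdeal A') A'] [Finite (ResidueField A')]
    (R : Type) [CommRing R] [IsLocalRing R] [IsNoetherianRing R]
    [IsAdicComplete (maximalIdeal R) R]
    (R' : Type) [CommRing R'] [IsLocalRing R'] [IsNoetherianRing R']
    [IsAdicComplete (maximalIdeal R') R']
    (M : Type) [AddCommGroup M] [Module R M] [Module.Finite R M]
    (M' : Type) [AddCommGroup M'] [Module R' M'] [Module.Finite R' M']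
    (𝔞 : Ideal S) (J : ℕ → Ideal S) (hJ : ∀ n, J n ≤ maximalIdeal S ^ n)
    (ϖ : A) (ϖ' : A') (ι : A ⧸ Ideal.span {ϖ} ≃+* A' ⧸ Ideal.span {ϖ'})
    (L : ∀ n, s59p_Level S A R M 𝔞 (J n)) (L' : ∀ n, s59p_Level S A' R' M' 𝔞 (J n))
    (d d' : ℕ) (hd : ∀ n, (L n).d = d) (hd' : ∀ n, (L' n).d = d')
    (hW : ∀ n, s59p_WCong ϖ ϖ' ι (L n) (L' n)) :
    ∃ (ms : ℕ → ℕ) (Linf : s59p_Level S A R M 𝔞 ⊥) (Linf' : s59p_Level S A' R' M' 𝔞 ⊥),
      s59p_WCong ϖ ϖ' ι Linf Linf' ∧
      (∀ n s, (L (ms n)).φ s - Linf.φ s ∈ maximalIdeal A ^ n) ∧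
      (∀ n a, (L (ms n)).ψ a - Linf.ψ a ∈ maximalIdeal R ^ n) ∧
      (∀ a : A, (∀ n, a ∈ Module.annihilator A (L n).N) → a ∈ Module.annihilator A Linf.N) ∧
      (∀ n s, (L' (ms n)).φ s - Linf'.φ s ∈ maximalIdeal A' ^ n) ∧
      (∀ n a, (L' (ms n)).ψ a - Linf'.ψ a ∈ maximalIdeal R' ^ n) ∧
      (∀ a : A', (∀ n, a ∈ Module.annihilator A' (L' n).N) →
        a ∈ Module.annihilator A' Linf'.N) := by
  classical
  obtain ⟨ms, hms, hC, hC'⟩ := s59p_select₂ L hd L' hd' hJ
  obtain ⟨Li, hdi, hφi, hψi, hK⟩ := s59p_limit (J := fun n => J (ms n)) (fun n => L (ms n))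
    (fun n => hd (ms n)) hC
  obtain ⟨Li', hdi', hφi', hψi', hK'⟩ := s59p_limit (J := fun n => J (ms n))
    (fun n => L' (ms n)) (fun n => hd' (ms n)) hC'
  obtain ⟨e1, e2, e3⟩ := s59p_limit_extra (J := fun n => J (ms n)) (fun n => L (ms n))
    (fun n => hd (ms n)) Li hdi hφi hψi hK
  obtain ⟨e1', e2', e3'⟩ := s59p_limit_extra (J := fun n => J (ms n)) (fun n => L' (ms n))
    (fun n => hd' (ms n)) Li' hdi' hφi' hψi' hK'
  refine ⟨ms, Li, Li', ?_, hφi, hψi, fun a ha => e1 a fun n => ha _, hφi', hψi',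
    fun a ha => e1' a fun n => ha _⟩
  intro t a a' haa' H
  rw [s59p_smul_le_iff Li hdi] at H
  rw [s59p_smul_le_iff Li' hdi']
  have hstep2 : ∀ n, t ≤ n → ∀ x : (L (ms n)).N, a • x ∈
      (Ideal.span {ϖ} ⊔ maximalIdeal A ^ t) • (⊤ : Submodule A (L (ms n)).N) := by
    intro n htn
    rw [s59p_smul_le_iff (L (ms n)) (hd (ms n))]
    intro j
    obtain ⟨k, hk, u, hu, hau⟩ := H j
    rw [hK] at hk
    obtain ⟨kn, hkn, hkkn⟩ := hk n
    refine ⟨kn, hkn, u + (k - kn), fun i => ?_, ?_⟩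
    · exact Ideal.add_mem _ (hu i)
        (Ideal.mem_sup_right (Ideal.pow_le_pow_right htn (hkkn i)))
    · rw [hau]; abel
  have hstep3 : ∀ n, t ≤ n → ∀ j : Fin d', ∃ k' ∈ s59p_K (L' (ms n)) (hd' (ms n)),
      ∃ u' : Fin d' → A', (∀ i, u' i ∈ Ideal.span {ϖ'} ⊔ maximalIdeal A' ^ t) ∧
        a' • (Pi.single j 1 : Fin d' → A') = k' + u' := by
    intro n htn
    rw [← s59p_smul_le_iff (L' (ms n)) (hd' (ms n))]
    exact hW (ms n) t a a' haa' (hstep2 n htn)
  intro j
  obtain ⟨m, τ, hτ⟩ := (Submodule.fg_iff_exists_fin_generating_family).mp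
    (IsNoetherian.noetherian (Ideal.span {ϖ'} ⊔ maximalIdeal A' ^ t))
  have hτ' : Ideal.span (Set.range τ) = Ideal.span {ϖ'} ⊔ maximalIdeal A' ^ t := hτ
  have hτmem : ∀ l, τ l ∈ Ideal.span {ϖ'} ⊔ maximalIdeal A' ^ t := fun l =>
    hτ' ▸ Ideal.subset_span ⟨l, rfl⟩
  choose k' hk' u' hu' hau' using fun n => hstep3 (max n t) (le_max_right n t) j
  have hw : ∀ n, ∃ w : Fin m → Fin d' → A', ∀ i, u' n i = ∑ l, τ l * w l i := by
    intro n
    have h1 : ∀ i, ∃ c : Fin m → A', ∑ l, c l * τ l = u' n i := fun i => by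
      have := hu' n i
      rw [← hτ'] at this
      exact (Ideal.mem_span_range_iff_exists_fun).mp this
    choose c hc using h1
    exact ⟨fun l i => c i l, fun i => by
      rw [← hc i]; exact Finset.sum_congr rfl fun l _ => mul_comm _ _⟩
  choose w hw using hw
  haveI hfinq : ∀ n, Finite (A' ⧸ maximalIdeal A' ^ n) := fun n => s59p_finite_quot_pow A' n
  obtain ⟨w', hw'⟩ := s59c_exists_cluster (maximalIdeal A') (ι := Fin m × Fin d')
    (fun n p => w n p.1 p.2)
  set uu : Fin d' → A' := fun i => ∑ l, τ l * w' (l, i) with huu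
  refine ⟨a' • Pi.single j 1 - uu, ?_, uu, fun i => ?_, by abel⟩
  · rw [hK']
    refine s59p_mem_Kinf_of _ _ hC' fun n => ?_
    obtain ⟨n', hnn', hcl⟩ := hw' n
    refine ⟨max n' t, hnn'.trans (le_max_left _ _), k' n', hk' n', fun i => ?_⟩
    have e : (a' • (Pi.single j 1 : Fin d' → A') - uu) i - k' n' i =
        ∑ l, τ l * (w n' l i - w' (l, i)) := by
      have h1 : (a' • (Pi.single j 1 : Fin d' → A')) i = k' n' i + u' n' i := by
        rw [hau' n']; rfl
      rw [Pi.sub_apply, h1, hw n' i, huu]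
      simp only [mul_sub, Finset.sum_sub_distrib]
      ring
    rw [e]
    exact Ideal.sum_mem _ fun l _ => Ideal.mul_mem_left _ _ (hcl (l, i))
  · rw [huu]
    exact Ideal.sum_mem _ fun l _ => Ideal.mul_mem_right _ _ (hτmem l)

end Fermat.Agent.Lib.S59
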