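/-
(R) S59, [PM] the patching machine (helper4, prefix `s59p_`), part 8: variants of the support
lemmas for levels over ONE big ring `𝒫` carrying several local conditions as IDEALS
(used by the Ihara-avoidance assembly): [PM2d'], [PM3A'], [PM3Bw'], [PMunr].
-/
import Mathlib
import Fermat.Agent.Lib.S59.PSupp
import Fermat.Agent.Lib.S59.PPair

set_option autoImplicit false
set_option linter.unusedSectionVars false
set_option linter.unusedVariables false
set_option linter.style.haveILetI false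

namespace Fermat.Agent.Lib.S59

open IsLocalRing Polynomial

/-- **[PM2d']** a minimal prime of `Ann N` contains no strictly smaller prime `q` with
`dim A/q ≤ dim S`. -/
theorem s59p_pm2d' (S : Type) [CommRing S] [IsDomain S] [IsLocalRing S] [IsNoetherianRing S]
    (A : Type) [CommRing A] [IsNoetherianRing A]
    (R : Type) [CommRing R] (M : Type) [AddCommGroup M] [Module R M] (𝔞 : Ideal S)
    (L : s59p_Level S A R M 𝔞 ⊥) (𝔓 : Ideal A)
    (h𝔓 : 𝔓 ∈ (Module.annihilator A L.N).minimalPrimes)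
    (q : Ideal A) [hq : q.IsPrime] (hq𝔓 : q ≤ 𝔓)
    (hdim : ringKrullDim (A ⧸ q) ≤ ringKrullDim S) : 𝔓 ≤ q := by
  obtain ⟨-, -, hc, -⟩ := s59p_pm2 S A R M 𝔞 L 𝔓 h𝔓
  by_contra hnot
  obtain ⟨a, ha𝔓, haq⟩ := Set.not_subset.mp hnot
  have hnzd : Ideal.Quotient.mk q a ∈ nonZeroDivisors (A ⧸ q) := by
    rw [mem_nonZeroDivisors_iff_ne_zero, Ne, Ideal.Quotient.eq_zero_iff_mem]
    exact haq
  have h1 : ringKrullDim (A ⧸ 𝔓) + 1 ≤ ringKrullDim (A ⧸ q) :=
    ringKrullDim_succ_le_of_surjective (Ideal.Quotient.factor hq𝔓)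
      (Ideal.Quotient.factor_surjective hq𝔓) hnzd (by
        rw [Ideal.Quotient.factor_mk, Ideal.Quotient.eq_zero_iff_mem]
        exact ha𝔓)
  have h3 : ringKrullDim S + 1 ≤ ringKrullDim S :=
    (add_le_add_left hc 1).trans (h1.trans hdim)
  have hne_top : ringKrullDim S ≠ ⊤ := ringKrullDim_ne_top
  have hne_bot : ringKrullDim S ≠ ⊥ := ringKrullDim_ne_bot
  obtain ⟨e, he⟩ := WithBot.ne_bot_iff_exists.mp hne_bot
  rw [← he] at h3 hne_top
  have he_top : e ≠ ⊤ := fun h => hne_top (by rw [h]; rfl)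
  obtain ⟨n, rfl⟩ := ENat.ne_top_iff_exists.mp he_top
  have h4 : ((n + 1 : ℕ) : WithBot ℕ∞) ≤ (n : ℕ) := by
    have : (((n : ℕ) : ℕ∞) : WithBot ℕ∞) + 1 = ((n + 1 : ℕ) : WithBot ℕ∞) := by
      push_cast; rfl
    rw [← this]
    exact h3
  have h5 : n + 1 ≤ n := by exact_mod_cast h4
  omega

/-- **[PM3A']** if a prime `𝔎` of the right dimension kills `N` then `Ann N = 𝔎`. -/
theorem s59p_pm3A' (S : Type) [CommRing S] [IsDomain S] [IsLocalRing S] [IsNoetherianRing S]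
    (A : Type) [CommRing A] [IsNoetherianRing A]
    (R : Type) [CommRing R] (M : Type) [AddCommGroup M] [Module R M] [Nontrivial M]
    (𝔞 : Ideal S) (L : s59p_Level S A R M 𝔞 ⊥) (𝔎 : Ideal A) [h𝔎 : 𝔎.IsPrime]
    (hkill : 𝔎 ≤ Module.annihilator A L.N)
    (hdim : ringKrullDim (A ⧸ 𝔎) ≤ ringKrullDim S) :
    Module.annihilator A L.N = 𝔎 := by
  have hN : Module.annihilator A L.N ≠ ⊤ := by
    intro h
    have h1 : (1 : A) ∈ Module.annihilator A L.N := h ▸ Submodule.mem_top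
    rw [Module.mem_annihilator] at h1
    obtain ⟨y, hy⟩ := exists_ne (0 : M)
    obtain ⟨x, rfl⟩ := L.π_surjective y
    apply hy
    have := h1 x
    rw [one_smul] at this
    rw [this, map_zero]
  refine le_antisymm ?_ hkill
  have hall : ∀ 𝔓 ∈ (Module.annihilator A L.N).minimalPrimes, 𝔓 = 𝔎 := by
    intro 𝔓 h𝔓
    exact le_antisymm
      (s59p_pm2d' S A R M 𝔞 L 𝔓 h𝔓 𝔎 (hkill.trans h𝔓.1.2) hdim) (hkill.trans h𝔓.1.2)
  calc Module.annihilator A L.N ≤ (Module.annihilator A L.N).radical := Ideal.le_radical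
    _ = sInf (Module.annihilator A L.N).minimalPrimes := Ideal.sInf_minimalPrimes.symm
    _ ≤ 𝔎 := by
      obtain ⟨⟨𝔓, h𝔓⟩⟩ := Ideal.nonempty_minimalPrimes hN
      exact sInf_le (hall 𝔓 h𝔓 ▸ h𝔓)

/-- **[PMunr]** a prime `𝔓₀` of the right dimension which lies below every prime of `Supp N`
contained in `𝔮 ∈ Supp N` is a minimal prime of `Supp N`. -/
theorem s59p_unr (S : Type) [CommRing S] [IsDomain S] [IsLocalRing S] [IsNoetherianRing S]
    (A : Type) [CommRing A] [IsNoetherianRing A]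
    (R : Type) [CommRing R] (M : Type) [AddCommGroup M] [Module R M]
    (𝔞 : Ideal S) (L : s59p_Level S A R M 𝔞 ⊥) (𝔮 : Ideal A) [h𝔮 : 𝔮.IsPrime]
    (hle : Module.annihilator A L.N ≤ 𝔮) (𝔓₀ : Ideal A) [h𝔓₀ : 𝔓₀.IsPrime]
    (hdim : ringKrullDim (A ⧸ 𝔓₀) ≤ ringKrullDim S)
    (hbelow : ∀ 𝔓' : Ideal A, 𝔓'.IsPrime → Module.annihilator A L.N ≤ 𝔓' → 𝔓' ≤ 𝔮 → 𝔓₀ ≤ 𝔓') :
    𝔓₀ ∈ (Module.annihilator A L.N).minimalPrimes := by
  obtain ⟨𝔓', h𝔓', h𝔓'le⟩ := Ideal.exists_minimalPrimes_le hle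
  have h1 : 𝔓₀ ≤ 𝔓' := hbelow 𝔓' h𝔓'.1.1 h𝔓'.1.2 h𝔓'le
  have h2 : 𝔓' ≤ 𝔓₀ := s59p_pm2d' S A R M 𝔞 L 𝔓' h𝔓' 𝔓₀ h1 hdim
  rw [le_antisymm h1 h2]
  exact h𝔓'

/-- **[PM3Bw']** Ihara avoidance from a weak congruence, without any hypothesis on `Ann N'`. -/
theorem s59p_pm3Bw' (S : Type) [CommRing S] (A : Type) [CommRing A] [IsLocalRing A]
    (A' : Type) [CommRing A'] [IsLocalRing A'] [IsNoetherianRing A']
    (R : Type) [CommRing R] (R' : Type) [CommRing R']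
    (M : Type) [AddCommGroup M] [Module R M] (M' : Type) [AddCommGroup M'] [Module R' M']
    (𝔞 J : Ideal S) (ϖ : A) (ϖ' : A') (ι : A ⧸ Ideal.span {ϖ} ≃+* A' ⧸ Ideal.span {ϖ'})
    (L : s59p_Level S A R M 𝔞 J) (L' : s59p_Level S A' R' M' 𝔞 J)
    (hW : s59p_WCong ϖ ϖ' ι L L') (a : A) (ha : a ∈ Module.annihilator A L.N) (a' : A')
    (haa' : ι (Ideal.Quotient.mk _ a) = Ideal.Quotient.mk _ a') :
    ∃ n : ℕ, a' ^ n ∈ Module.annihilator A' L'.N ⊔ Ideal.span {ϖ'} := by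
  have h0 : ∀ t, ∀ x' : L'.N, a' • x' ∈
      (Ideal.span {ϖ'} ⊔ maximalIdeal A' ^ t) • (⊤ : Submodule A' L'.N) := by
    intro t
    refine hW t a a' haa' fun x => ?_
    rw [(Module.mem_annihilator.mp ha) x]
    exact Submodule.zero_mem _
  have h1 : ∀ x' : L'.N, a' • x' ∈ (Ideal.span {ϖ'}) • (⊤ : Submodule A' L'.N) := by
    intro x'
    rw [← Submodule.Quotient.mk_eq_zero]
    refine s59c_eq_zero_of_forall_mem (maximalIdeal A') fun t => ?_
    have h2 := h0 t x'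
    refine Submodule.smul_induction_on h2 ?_ ?_
    · intro r hr n _
      obtain ⟨r₁, hr₁, r₂, hr₂, rfl⟩ := Submodule.mem_sup.mp hr
      rw [add_smul, Submodule.Quotient.mk_add]
      have e1 : (Submodule.Quotient.mk (r₁ • n) :
          L'.N ⧸ (Ideal.span {ϖ'}) • (⊤ : Submodule A' L'.N)) = 0 := by
        rw [Submodule.Quotient.mk_eq_zero]
        exact Submodule.smul_mem_smul hr₁ Submodule.mem_top
      rw [e1, zero_add, Submodule.Quotient.mk_smul]
      exact Submodule.smul_mem_smul hr₂ Submodule.mem_top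
    · intro y y' hy hy'
      rw [Submodule.Quotient.mk_add]
      exact Submodule.add_mem _ hy hy'
  exact s59p_pow_mem_of_smul_le (Ideal.span {ϖ'}) a' h1

end Fermat.Agent.Lib.S59
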