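/-
[IA′] THE ABSTRACT IHARA-AVOIDANCE ASSEMBLY (helper4): commutative algebra only.
Two sequences of patching levels over ONE acting ring `A` (type 1 and type χ), weakly congruent
modulo `ϖ`; on the χ-side a finite family of primes `𝒦_i` of the right dimension whose
intersection kills all levels; a prime `𝔮 ∋ ϖ` containing all `𝒦_i` at which the type-1 relations
cut out the unramified locus.  Conclusion: a characteristic-zero point of `Supp M¹_∅` at which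
all the `V_{j,k}` vanish.
  * `s59p_ihara_transfer`  (A)  `Ann N' ≤ 𝔮 ∋ ϖ`, weak congruence ⇒ `Ann N ≤ 𝔮`;
  * `s59p_unr_point`       (B)  `Ann N ≤ 𝔮`, every prime of `Supp N` inside `𝔮` contains `𝔲`
                                 ⇒ a point of `Supp M` over `𝔞` containing `ψ 𝔲`;
  * `s59p_chi_support`     (C)  `⋂ 𝒦_i ≤ Ann N'`, `dim A/𝒦_i ≤ dim S`, `𝒦_i ≤ 𝔮` ⇒ `Ann N' ≤ 𝔮`;
  * `s59l_IA_abs`                the assembly over the flat ring `𝒫 = s59l_Flat 𝒪 m g`.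
-/
import Mathlib
import Fermat.Agent.Lib.S59.LFlat
import Fermat.Agent.Lib.S59.PSupp2
import Fermat.Agent.Lib.S59.PPair2

set_option autoImplicit false
set_option linter.unusedSectionVars false
set_option linter.unusedVariables false
set_option linter.style.haveILetI false

noncomputable section

namespace Fermat.Agent.Lib.S59

open IsLocalRing MvPowerSeries Fermat.Agent.Lib.Deform

/-- **(A) Ihara transfer.** -/
theorem s59p_ihara_transfer (S : Type) [CommRing S] (A : Type) [CommRing A] [IsLocalRing A]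
    [IsNoetherianRing A] (R : Type) [CommRing R] (R' : Type) [CommRing R']
    (M : Type) [AddCommGroup M] [Module R M] (M' : Type) [AddCommGroup M'] [Module R' M']
    (𝔞 J : Ideal S) (ϖ : A) (L : s59p_Level S A R M 𝔞 J) (L' : s59p_Level S A R' M' 𝔞 J)
    (hW : s59p_WCong ϖ ϖ (RingEquiv.refl _) L L') (𝔮 : Ideal A) [h𝔮 : 𝔮.IsPrime] (hϖ : ϖ ∈ 𝔮)
    (h' : Module.annihilator A L'.N ≤ 𝔮) : Module.annihilator A L.N ≤ 𝔮 := by
  intro a ha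
  obtain ⟨n, hn⟩ := s59p_pm3Bw' S A A R R' M M' 𝔞 J ϖ ϖ (RingEquiv.refl _) L L' hW a ha a rfl
  have h1 : Module.annihilator A L'.N ⊔ Ideal.span {ϖ} ≤ 𝔮 :=
    sup_le h' ((Ideal.span_singleton_le_iff_mem _).mpr hϖ)
  exact h𝔮.mem_of_pow_mem n (h1 hn)

/-- **(B) the unramified point.** -/
theorem s59p_unr_point (S : Type) [CommRing S] [IsDomain S] [IsLocalRing S] [IsNoetherianRing S]
    (A : Type) [CommRing A] [IsNoetherianRing A]
    (R : Type) [CommRing R] (M : Type) [AddCommGroup M] [Module R M] (𝔞 : Ideal S) [𝔞.IsPrime]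
    (L : s59p_Level S A R M 𝔞 ⊥) (𝔮 : Ideal A) [h𝔮 : 𝔮.IsPrime]
    (hle : Module.annihilator A L.N ≤ 𝔮) (𝔲 : Set A)
    (hbelow : ∀ 𝔓 : Ideal A, 𝔓.IsPrime → Module.annihilator A L.N ≤ 𝔓 → 𝔓 ≤ 𝔮 → 𝔲 ⊆ 𝔓) :
    ∃ 𝔭 : Ideal R, 𝔭.IsPrime ∧ Module.annihilator R M ≤ 𝔭 ∧ (∀ x ∈ 𝔲, L.ψ x ∈ 𝔭) ∧
      Ideal.comap (L.ψ.comp L.φ) 𝔭 = 𝔞 := by
  obtain ⟨𝔓, h𝔓, h𝔓le⟩ := Ideal.exists_minimalPrimes_le hle
  obtain ⟨𝔭, hp, hann, hmap, hcomap⟩ := s59p_pm3C S A R M 𝔞 L 𝔓 h𝔓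
  refine ⟨𝔭, hp, hann, fun x hx => ?_, hcomap⟩
  exact hmap (Ideal.mem_map_of_mem _ (hbelow 𝔓 h𝔓.1.1 h𝔓.1.2 h𝔓le hx))

/-- **(C) the support on the χ-side.** -/
theorem s59p_chi_support (S : Type) [CommRing S] [IsDomain S] [IsLocalRing S]
    [IsNoetherianRing S] (A : Type) [CommRing A] [IsNoetherianRing A]
    (R : Type) [CommRing R] (M : Type) [AddCommGroup M] [Module R M] [Nontrivial M]
    (𝔞 : Ideal S) (L : s59p_Level S A R M 𝔞 ⊥) {ι : Type*} (s : Finset ι) (𝒦 : ι → Ideal A)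
    (h𝒦 : ∀ i ∈ s, (𝒦 i).IsPrime)
    (hdim : ∀ i ∈ s, ringKrullDim (A ⧸ 𝒦 i) ≤ ringKrullDim S)
    (hkill : s.inf 𝒦 ≤ Module.annihilator A L.N) (𝔮 : Ideal A) (h𝔮 : ∀ i ∈ s, 𝒦 i ≤ 𝔮) :
    Module.annihilator A L.N ≤ 𝔮 := by
  have hN : Module.annihilator A L.N ≠ ⊤ := by
    intro h
    have h1 : (1 : A) ∈ Module.annihilator A L.N := h ▸ Submodule.mem_top
    rw [Module.mem_annihilator] at h1
    obtain ⟨y, hy⟩ := exists_ne (0 : M)
    obtain ⟨x, rfl⟩ := L.π_surjective y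
    apply hy
    have := h1 x
    rw [one_smul] at this
    rw [this, map_zero]
  obtain ⟨⟨𝔓, h𝔓⟩⟩ := Ideal.nonempty_minimalPrimes hN
  obtain ⟨i, his, hi⟩ := (h𝔓.1.1.inf_le').mp (hkill.trans h𝔓.1.2)
  haveI := h𝒦 i his
  have h2 : 𝔓 ≤ 𝒦 i := s59p_pm2d' S A R M 𝔞 L 𝔓 h𝔓 (𝒦 i) hi (hdim i his)
  exact h𝔓.1.2.trans (h2.trans (h𝔮 i his))

/-- **[IA′-abs] the Ihara-avoidance assembly over the flat ring `𝒫 = s59l_Flat 𝒪 m g`.**
`L n` = the type-1 levels, `L' n` = the type-χ levels (same `S`, same acting ring `𝒫`), weakly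
congruent modulo `ϖ`; the χ-levels are killed by `⋂_i 𝒦_{θ i}` (finitely many types
`θ i : Fin m → 𝒪`, "type ≠ 1"); the 1-levels are killed by the honest type-1 relations
`N_j² = 0`, `(Φ_j N_j − u_j N_j Φ_j)_{b,c} = 0` (`Φ_j = a_j + W_j`, `a_j² = u_j + Q(W_j)`).
Then there is a prime `𝔭` of `R` (the level-∅ type-1 ring) in the support of `M`, lying over `𝔞`
(characteristic zero), which contains the images `c j k` of all `V_{j,k}`. -/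
theorem s59l_IA_abs {𝒪 : Type} [CommRing 𝒪] [IsLocalRing 𝒪] [IsNoetherianRing 𝒪] [IsDomain 𝒪]
    [IsAdicComplete (maximalIdeal 𝒪) 𝒪] [Finite (ResidueField 𝒪)]
    (i2 : 𝒪) (hi2 : 2 * i2 = 1) (ϖ : 𝒪) (hϖ : ϖ ∈ maximalIdeal 𝒪) (m g : ℕ)
    (S : Type) [CommRing S] [IsDomain S] [IsLocalRing S] [IsNoetherianRing S]
    [IsAdicComplete (maximalIdeal S) S] [Finite (ResidueField S)]
    (hdim : ringKrullDim 𝒪 + ((3 * m + g : ℕ) : WithBot ℕ∞) ≤ ringKrullDim S)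
    (R : Type) [CommRing R] [IsLocalRing R] [IsNoetherianRing R]
    [IsAdicComplete (maximalIdeal R) R]
    (R' : Type) [CommRing R'] [IsLocalRing R'] [IsNoetherianRing R']
    [IsAdicComplete (maximalIdeal R') R']
    (M : Type) [AddCommGroup M] [Module R M] [Module.Finite R M]
    (M' : Type) [AddCommGroup M'] [Module R' M'] [Module.Finite R' M'] [Nontrivial M']
    (𝔞 : Ideal S) [𝔞.IsPrime] (J : ℕ → Ideal S) (hJ : ∀ n, J n ≤ maximalIdeal S ^ n)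
    (L : ∀ n, s59p_Level S (s59l_Flat 𝒪 m g) R M 𝔞 (J n))
    (L' : ∀ n, s59p_Level S (s59l_Flat 𝒪 m g) R' M' 𝔞 (J n))
    (d d' : ℕ) (hd : ∀ n, (L n).d = d) (hd' : ∀ n, (L' n).d = d')
    (hW : ∀ n, s59p_WCong (C ϖ : s59l_Flat 𝒪 m g) (C ϖ) (RingEquiv.refl _) (L n) (L' n))
    {ι : Type} [Fintype ι] (θ : ι → Fin m → 𝒪) (hθ : ∀ i j, s59l_Hyp (θ i j))
    (hχ : ∀ n, (Finset.univ.inf fun i => s59l_KK (θ i) (hθ i) g) ≤
      Module.annihilator (s59l_Flat 𝒪 m g) (L' n).N)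
    (u : Fin m → 𝒪) (hu : ∀ j, u j - 1 ∈ maximalIdeal 𝒪) (a : Fin m → s59l_Flat 𝒪 m g)
    (ha : ∀ j, a j ^ 2 = C (u j) + (s59l_W j 0 ^ 2 + s59l_W j 1 * s59l_W j 2))
    (h0 : ∀ n j, s59l_r0 (s59l_V j 0 : s59l_Flat 𝒪 m g) (s59l_V j 1) (s59l_V j 2) ∈
      Module.annihilator (s59l_Flat 𝒪 m g) (L n).N)
    (h2 : ∀ n j, s59l_r2 (s59l_V j 0 : s59l_Flat 𝒪 m g) (s59l_V j 1) (s59l_W j 0) (s59l_W j 1)
      (a j) (C (u j)) ∈ Module.annihilator (s59l_Flat 𝒪 m g) (L n).N)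
    (h3 : ∀ n j, s59l_r3 (s59l_V j 0 : s59l_Flat 𝒪 m g) (s59l_V j 2) (s59l_W j 0) (s59l_W j 2)
      (a j) (C (u j)) ∈ Module.annihilator (s59l_Flat 𝒪 m g) (L n).N)
    (c : Fin m → Fin 3 → R) (hc : ∀ n j k, (L n).ψ (s59l_V j k) = c j k)
    (κ : S →+* R) (hκ : ∀ n s, (L n).ψ ((L n).φ s) = κ s) :
    ∃ 𝔭 : Ideal R, 𝔭.IsPrime ∧ Module.annihilator R M ≤ 𝔭 ∧ (∀ j k, c j k ∈ 𝔭) ∧
      Ideal.comap κ 𝔭 = 𝔞 := by
  obtain ⟨ms, Li, Li', hWi, hφ, hψ, hann, -, -, hann'⟩ := s59p_pm1w' S (s59l_Flat 𝒪 m g)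
    (s59l_Flat 𝒪 m g) R R' M M' 𝔞 J hJ (C ϖ) (C ϖ) (RingEquiv.refl _) L L' d d' hd hd' hW
  -- the χ-side
  have hq' : Module.annihilator (s59l_Flat 𝒪 m g) Li'.N ≤ s59l_q 𝒪 m g := by
    refine s59p_chi_support S (s59l_Flat 𝒪 m g) R' M' 𝔞 Li' Finset.univ
      (fun i => s59l_KK (θ i) (hθ i) g) (fun i _ => inferInstance)
      (fun i _ => (s59l_KK_dim (θ i) (hθ i) g).trans hdim) ?_ (s59l_q 𝒪 m g)
      (fun i _ => s59l_KK_le_q (θ i) (hθ i) g)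
    intro F hF
    exact hann' F fun n => hχ n hF
  -- the transfer
  have hq : Module.annihilator (s59l_Flat 𝒪 m g) Li.N ≤ s59l_q 𝒪 m g :=
    s59p_ihara_transfer S (s59l_Flat 𝒪 m g) R R' M M' 𝔞 ⊥ (C ϖ) Li Li' hWi (s59l_q 𝒪 m g)
      (s59l_C_mem_q m g hϖ) hq'
  -- the unramified point
  obtain ⟨𝔭, hp, hann𝔭, hV, hcomap⟩ := s59p_unr_point S (s59l_Flat 𝒪 m g) R M 𝔞 Li
    (s59l_q 𝒪 m g) hq (Set.range fun p : Fin m × Fin 3 => (s59l_V p.1 p.2 : s59l_Flat 𝒪 m g))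
    (by
      intro 𝔓 h𝔓 hle𝔓 hle𝔮
      haveI := h𝔓
      have key := s59l_loc_unr i2 hi2 u hu a ha 𝔓 hle𝔮
        (fun j => hle𝔓 (hann _ fun n => h0 n j)) (fun j => hle𝔓 (hann _ fun n => h2 n j))
        (fun j => hle𝔓 (hann _ fun n => h3 n j))
      rintro _ ⟨p, rfl⟩
      exact key p.1 p.2)
  refine ⟨𝔭, hp, hann𝔭, fun j k => ?_, ?_⟩
  · have h1 : Li.ψ (s59l_V j k) = c j k := by
      refine eq_of_forall_sub_mem_pow (maximalIdeal R) fun n => ?_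
      have := hψ n (s59l_V j k)
      rw [hc] at this
      have e : Li.ψ (s59l_V j k) - c j k = -(c j k - Li.ψ (s59l_V j k)) := by ring
      rw [e]
      exact neg_mem this
    rw [← h1]
    exact hV _ ⟨(j, k), rfl⟩
  · have h1 : Li.ψ.comp Li.φ = κ := by
      refine RingHom.ext fun s => ?_
      rw [RingHom.comp_apply]
      refine eq_of_forall_sub_mem_pow (maximalIdeal R) fun n => ?_
      have e : Li.ψ (Li.φ s) - κ s =
          -(((L (ms n)).ψ ((L (ms n)).φ s) - Li.ψ ((L (ms n)).φ s)) +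
            Li.ψ ((L (ms n)).φ s - Li.φ s)) := by
        rw [hκ, map_sub]; ring
      rw [e]
      refine neg_mem (Ideal.add_mem _ (hψ n _) ?_)
      exact s59p_surj_mem_pow _ Li.ψ_surjective (hφ n s)
    rw [← h1]
    exact hcomap

end Fermat.Agent.Lib.S59
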