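/-
[IA′] THE ABSTRACT IHARA-AVOIDANCE ASSEMBLY, E-tolerant version (helper4).
  * `s59p_chi_support'` : (C) with conclusion `∃ i, Ann N' ≤ 𝒦_i`;
  * `s59l_IA_gen`       : the assembly over a general acting ring `A` with a finite family of
                          pairs of primes `𝒦_i ≤ 𝔮_i ∋ ϖ`, each `𝔮_i` generic at the primes of `B`;
  * `s59l_IA_tol`       : the assembly over `𝒫^E = s59l_FlatE 𝒪 m e g` (framed primes `B ⊔ E`,
                          no condition at `E`), family `(θ_i, ch)`.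
-/
import Mathlib
import Fermat.Agent.Lib.S59.LAsm
import Fermat.Agent.Lib.S59.LTol

set_option autoImplicit false
set_option linter.unusedSectionVars false
set_option linter.unusedVariables false
set_option linter.style.haveILetI false

noncomputable section

namespace Fermat.Agent.Lib.S59

open IsLocalRing MvPowerSeries Fermat.Agent.Lib.Deform

/-- **(C′) the support on the χ-side**: `Ann N'` is contained in one of the `𝒦_i`. -/
theorem s59p_chi_support' (S : Type) [CommRing S] [IsDomain S] [IsLocalRing S]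
    [IsNoetherianRing S] (A : Type) [CommRing A] [IsNoetherianRing A]
    (R : Type) [CommRing R] (M : Type) [AddCommGroup M] [Module R M] [Nontrivial M]
    (𝔞 : Ideal S) (L : s59p_Level S A R M 𝔞 ⊥) {ι : Type*} (s : Finset ι) (𝒦 : ι → Ideal A)
    (h𝒦 : ∀ i ∈ s, (𝒦 i).IsPrime)
    (hdim : ∀ i ∈ s, ringKrullDim (A ⧸ 𝒦 i) ≤ ringKrullDim S)
    (hkill : s.inf 𝒦 ≤ Module.annihilator A L.N) :
    ∃ i ∈ s, Module.annihilator A L.N ≤ 𝒦 i := by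
  have hN : Module.annihilator A L.N ≠ ⊤ := by
    intro h
    have h1 : (1 : A) ∈ Module.annihilator A L.N := h ▸ Submodule.mem_top
    rw [Module.mem_annihilator] at h1
    obtain ⟨y, hy⟩ := exists_ne (0 : M)
    obtain ⟨x, rfl⟩ := L.π_surjective y
    apply hy
    have := h1 x
    rw [one_smul] at this
    rw [this, map_zero]
  obtain ⟨⟨𝔓, h𝔓⟩⟩ := Ideal.nonempty_minimalPrimes hN
  obtain ⟨i, his, hi⟩ := (h𝔓.1.1.inf_le').mp (hkill.trans h𝔓.1.2)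
  haveI := h𝒦 i his
  have h2 : 𝔓 ≤ 𝒦 i := s59p_pm2d' S A R M 𝔞 L 𝔓 h𝔓 (𝒦 i) hi (hdim i his)
  exact ⟨i, his, h𝔓.1.2.trans h2⟩

/-- **[IA′-gen] the Ihara-avoidance assembly over a general acting ring `A`.** -/
theorem s59l_IA_gen
    (S : Type) [CommRing S] [IsDomain S] [IsLocalRing S] [IsNoetherianRing S]
    [IsAdicComplete (maximalIdeal S) S] [Finite (ResidueField S)]
    (A : Type) [CommRing A] [IsLocalRing A] [IsNoetherianRing A]
    [IsAdicComplete (maximalIdeal A) A] [Finite (ResidueField A)]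
    (R : Type) [CommRing R] [IsLocalRing R] [IsNoetherianRing R]
    [IsAdicComplete (maximalIdeal R) R]
    (R' : Type) [CommRing R'] [IsLocalRing R'] [IsNoetherianRing R']
    [IsAdicComplete (maximalIdeal R') R']
    (M : Type) [AddCommGroup M] [Module R M] [Module.Finite R M]
    (M' : Type) [AddCommGroup M'] [Module R' M'] [Module.Finite R' M'] [Nontrivial M']
    (𝔞 : Ideal S) [𝔞.IsPrime] (J : ℕ → Ideal S) (hJ : ∀ n, J n ≤ maximalIdeal S ^ n)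
    (L : ∀ n, s59p_Level S A R M 𝔞 (J n)) (L' : ∀ n, s59p_Level S A R' M' 𝔞 (J n))
    (d d' : ℕ) (hd : ∀ n, (L n).d = d) (hd' : ∀ n, (L' n).d = d')
    (ϖ : A) (hW : ∀ n, s59p_WCong ϖ ϖ (RingEquiv.refl _) (L n) (L' n))
    {ι : Type} [Fintype ι] (𝒦 𝔮 : ι → Ideal A) (h𝒦 : ∀ i, (𝒦 i).IsPrime)
    (h𝔮 : ∀ i, (𝔮 i).IsPrime) (hle : ∀ i, 𝒦 i ≤ 𝔮 i) (hϖ : ∀ i, ϖ ∈ 𝔮 i)
    (hdim : ∀ i, ringKrullDim (A ⧸ 𝒦 i) ≤ ringKrullDim S)
    (hχ : ∀ n, Finset.univ.inf 𝒦 ≤ Module.annihilator A (L' n).N)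
    {m : ℕ} (v w : Fin m → Fin 3 → A) (u a : Fin m → A)
    (ha : ∀ j, a j ^ 2 = u j + (w j 0 ^ 2 + w j 1 * w j 2))
    (hgen : ∀ i j, 1 - u j ∈ 𝔮 i ∧ (2 : A) ∉ 𝔮 i ∧ w j 0 ∉ 𝔮 i ∧
      w j 0 ^ 2 + w j 1 * w j 2 ∉ 𝔮 i)
    (h0 : ∀ n j, s59l_r0 (v j 0) (v j 1) (v j 2) ∈ Module.annihilator A (L n).N)
    (h2 : ∀ n j, s59l_r2 (v j 0) (v j 1) (w j 0) (w j 1) (a j) (u j) ∈
      Module.annihilator A (L n).N)
    (h3 : ∀ n j, s59l_r3 (v j 0) (v j 2) (w j 0) (w j 2) (a j) (u j) ∈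
      Module.annihilator A (L n).N)
    (c : Fin m → Fin 3 → R) (hc : ∀ n j k, (L n).ψ (v j k) = c j k)
    (κ : S →+* R) (hκ : ∀ n s, (L n).ψ ((L n).φ s) = κ s) :
    ∃ 𝔭 : Ideal R, 𝔭.IsPrime ∧ Module.annihilator R M ≤ 𝔭 ∧ (∀ j k, c j k ∈ 𝔭) ∧
      Ideal.comap κ 𝔭 = 𝔞 := by
  obtain ⟨ms, Li, Li', hWi, hφ, hψ, hann, -, -, hann'⟩ := s59p_pm1w' S A A R R' M M' 𝔞 J hJ
    ϖ ϖ (RingEquiv.refl _) L L' d d' hd hd' hW
  -- the χ-side
  obtain ⟨i, -, hi⟩ := s59p_chi_support' S A R' M' 𝔞 Li' Finset.univ 𝒦 (fun i _ => h𝒦 i)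
    (fun i _ => hdim i) (by
      intro F hF
      exact hann' F fun n => hχ n hF)
  have hq' : Module.annihilator A Li'.N ≤ 𝔮 i := hi.trans (hle i)
  haveI := h𝔮 i
  -- the transfer
  have hq : Module.annihilator A Li.N ≤ 𝔮 i :=
    s59p_ihara_transfer S A R R' M M' 𝔞 ⊥ ϖ Li Li' hWi (𝔮 i) (hϖ i) hq'
  -- the unramified point
  obtain ⟨𝔭, hp, hann𝔭, hV, hcomap⟩ := s59p_unr_point S A R M 𝔞 Li (𝔮 i) hq
    (Set.range fun p : Fin m × Fin 3 => v p.1 p.2)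
    (by
      intro 𝔓 h𝔓 hle𝔓 hle𝔮
      haveI := h𝔓
      rintro _ ⟨p, rfl⟩
      obtain ⟨g1, g2, g3, g4⟩ := hgen i p.1
      obtain ⟨he, hb, hc'⟩ := s59l_unr_of_prime (v p.1 0) (v p.1 1) (v p.1 2) (w p.1 0)
        (w p.1 1) (w p.1 2) (a p.1) (u p.1) (ha p.1) (𝔮 i) g1 g2 g3 g4 𝔓 hle𝔮
        (hle𝔓 (hann _ fun n => h0 n p.1)) (hle𝔓 (hann _ fun n => h2 n p.1))
        (hle𝔓 (hann _ fun n => h3 n p.1))
      obtain ⟨j, k⟩ := p
      fin_cases k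
      · exact he
      · exact hb
      · exact hc')
  refine ⟨𝔭, hp, hann𝔭, fun j k => ?_, ?_⟩
  · have h1 : Li.ψ (v j k) = c j k := by
      refine eq_of_forall_sub_mem_pow (maximalIdeal R) fun n => ?_
      have := hψ n (v j k)
      rw [hc] at this
      have e : Li.ψ (v j k) - c j k = -(c j k - Li.ψ (v j k)) := by ring
      rw [e]
      exact neg_mem this
    rw [← h1]
    exact hV _ ⟨(j, k), rfl⟩
  · have h1 : Li.ψ.comp Li.φ = κ := by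
      refine RingHom.ext fun s => ?_
      rw [RingHom.comp_apply]
      refine eq_of_forall_sub_mem_pow (maximalIdeal R) fun n => ?_
      have e : Li.ψ (Li.φ s) - κ s =
          -(((L (ms n)).ψ ((L (ms n)).φ s) - Li.ψ ((L (ms n)).φ s)) +
            Li.ψ ((L (ms n)).φ s - Li.φ s)) := by
        rw [hκ, map_sub]; ring
      rw [e]
      refine neg_mem (Ideal.add_mem _ (hψ n _) ?_)
      exact s59p_surj_mem_pow _ Li.ψ_surjective (hφ n s)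
    rw [← h1]
    exact hcomap

/-- **[IA′-tol] the Ihara-avoidance assembly over `𝒫^E = s59l_FlatE 𝒪 m e g`**: framed primes
`B` (`m` of them; type 1 versus types `χ_{θ i}`) and `E` (`e` of them; `ρ̄` unramified,
`ℓ₀ ≢ ±1`, no local condition).  The χ-levels are killed by `⋂_{(i,ch)} 𝒦_{θ i, ch}`; the
1-levels by the honest type-1 relations at `B` (nothing is needed at `E`). -/
theorem s59l_IA_tol {𝒪 : Type} [CommRing 𝒪] [IsLocalRing 𝒪] [IsNoetherianRing 𝒪] [IsDomain 𝒪]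
    [IsAdicComplete (maximalIdeal 𝒪) 𝒪] [Finite (ResidueField 𝒪)]
    (ϖ : 𝒪) (hϖ : ϖ ∈ maximalIdeal 𝒪) (m e g : ℕ) (D : s59l_EData 𝒪 e)
    (S : Type) [CommRing S] [IsDomain S] [IsLocalRing S] [IsNoetherianRing S]
    [IsAdicComplete (maximalIdeal S) S] [Finite (ResidueField S)]
    (hdim : ringKrullDim 𝒪 + ((3 * m + (g + e * 3) : ℕ) : WithBot ℕ∞) ≤ ringKrullDim S)
    (R : Type) [CommRing R] [IsLocalRing R] [IsNoetherianRing R]
    [IsAdicComplete (maximalIdeal R) R]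
    (R' : Type) [CommRing R'] [IsLocalRing R'] [IsNoetherianRing R']
    [IsAdicComplete (maximalIdeal R') R']
    (M : Type) [AddCommGroup M] [Module R M] [Module.Finite R M]
    (M' : Type) [AddCommGroup M'] [Module R' M'] [Module.Finite R' M'] [Nontrivial M']
    (𝔞 : Ideal S) [𝔞.IsPrime] (J : ℕ → Ideal S) (hJ : ∀ n, J n ≤ maximalIdeal S ^ n)
    (L : ∀ n, s59p_Level S (s59l_FlatE 𝒪 m e g) R M 𝔞 (J n))
    (L' : ∀ n, s59p_Level S (s59l_FlatE 𝒪 m e g) R' M' 𝔞 (J n))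
    (d d' : ℕ) (hd : ∀ n, (L n).d = d) (hd' : ∀ n, (L' n).d = d')
    (hW : ∀ n, s59p_WCong (C ϖ : s59l_FlatE 𝒪 m e g) (C ϖ) (RingEquiv.refl _) (L n) (L' n))
    {ι : Type} [Fintype ι] (θ : ι → Fin m → 𝒪) (hθ : ∀ i j, s59l_Hyp (θ i j))
    (hχ : ∀ n, (Finset.univ.inf fun p : ι × (Fin e → Bool) =>
        s59l_KKE D (θ p.1) (hθ p.1) g p.2) ≤
      Module.annihilator (s59l_FlatE 𝒪 m e g) (L' n).N)
    (u : Fin m → 𝒪) (hu : ∀ j, u j - 1 ∈ maximalIdeal 𝒪) (a : Fin m → s59l_FlatE 𝒪 m e g)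
    (ha : ∀ j, a j ^ 2 = C (u j) + (s59l_WB j 0 ^ 2 + s59l_WB j 1 * s59l_WB j 2))
    (h0 : ∀ n j, s59l_r0 (s59l_VB j 0 : s59l_FlatE 𝒪 m e g) (s59l_VB j 1) (s59l_VB j 2) ∈
      Module.annihilator (s59l_FlatE 𝒪 m e g) (L n).N)
    (h2 : ∀ n j, s59l_r2 (s59l_VB j 0 : s59l_FlatE 𝒪 m e g) (s59l_VB j 1) (s59l_WB j 0)
      (s59l_WB j 1) (a j) (C (u j)) ∈ Module.annihilator (s59l_FlatE 𝒪 m e g) (L n).N)
    (h3 : ∀ n j, s59l_r3 (s59l_VB j 0 : s59l_FlatE 𝒪 m e g) (s59l_VB j 2) (s59l_WB j 0)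
      (s59l_WB j 2) (a j) (C (u j)) ∈ Module.annihilator (s59l_FlatE 𝒪 m e g) (L n).N)
    (c : Fin m → Fin 3 → R) (hc : ∀ n j k, (L n).ψ (s59l_VB j k) = c j k)
    (κ : S →+* R) (hκ : ∀ n s, (L n).ψ ((L n).φ s) = κ s) :
    ∃ 𝔭 : Ideal R, 𝔭.IsPrime ∧ Module.annihilator R M ≤ 𝔭 ∧ (∀ j k, c j k ∈ 𝔭) ∧
      Ideal.comap κ 𝔭 = 𝔞 := by
  refine s59l_IA_gen S (s59l_FlatE 𝒪 m e g) R R' M M' 𝔞 J hJ L L' d d' hd hd' (C ϖ) hW
    (ι := ι × (Fin e → Bool))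
    (fun p => s59l_KKE D (θ p.1) (hθ p.1) g p.2) (fun p => s59l_qE D m g p.2)
    (fun p => inferInstance) (fun p => inferInstance)
    (fun p => s59l_KKE_le_qE D (θ p.1) (hθ p.1) g p.2)
    (fun p => s59l_C_mem_qE D m g p.2 hϖ)
    (fun p => (s59l_KKE_dim D (θ p.1) (hθ p.1) g p.2).trans hdim) hχ
    (fun j k => s59l_VB j k) (fun j k => s59l_WB j k) (fun j => C (u j)) a ha ?_ h0 h2 h3 c hc
    κ hκ
  intro p j
  have h𝔮 : (s59l_qE D m g p.2).IsPrime := inferInstance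
  refine ⟨?_, ?_, s59l_WB_not_mem_qE D g p.2 j, s59l_QB_not_mem_qE D g p.2 j⟩
  · have := s59l_C_mem_qE D m g p.2 (hu j)
    rw [map_sub, map_one] at this
    rw [← neg_sub]
    exact neg_mem this
  · intro h
    have h1 : (2 : s59l_FlatE 𝒪 m e g) * C D.i2 = 1 := s59l_two_mul_C_i2 D
    have : (1 : s59l_FlatE 𝒪 m e g) ∈ s59l_qE D m g p.2 := h1 ▸ Ideal.mul_mem_right _ _ h
    exact (Ideal.ne_top_iff_one _).mp h𝔮.ne_top this

end Fermat.Agent.Lib.S59
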