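/-
[IA′] the S⁺⁺-variant (helper4), commutative algebra:
  * `s59l_quot_finite`   : `P⟦s_1..s_r⟧ ⧸ I` is a FINITE `P`-module as soon as `I` contains the
                            relations `s_i² − t_i` (`t_i ∈ 𝔪_P`) — complete Nakayama;
  * `s59p_krullDim_ge_of_integral` : an integral ring map does not raise the Krull dimension;
  * `s59l_lying_over`, `s59l_comap_eq_of_dim` : going-up for `P → A ⧸ 𝔓` integral.
-/
import Mathlib
import Fermat.Agent.Lib.S59.LChiRing
import Fermat.Agent.Lib.S59.PSupp2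

set_option autoImplicit false
set_option linter.unusedSectionVars false
set_option linter.unusedVariables false
set_option linter.style.haveILetI false

noncomputable section

namespace Fermat.Agent.Lib.S59

open IsLocalRing MvPowerSeries Fermat.Agent.Lib.Deform

/-! ### powers of sums of principal ideals -/

theorem s59l_sup_pow_le_sup_sq {A : Type*} [CommRing A] {ρ : Type*} (x : ρ → A) (s : Finset ρ) :
    (s.sup fun i => Ideal.span {x i}) ^ (2 * s.card + 1) ≤ s.sup fun i => Ideal.span {x i ^ 2} := by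
  classical
  induction s using Finset.induction_on with
  | empty => simp
  | insert i s hi ih =>
    rw [Finset.sup_insert, Finset.sup_insert, Finset.card_insert_of_notMem hi]
    have e : 2 * (s.card + 1) + 1 = 2 + (2 * s.card + 1) := by ring
    rw [e]
    refine Ideal.sup_pow_add_le_pow_sup_pow.trans (sup_le_sup ?_ ih)
    rw [Ideal.span_singleton_pow]

theorem s59l_sup_pow_succ_le {A : Type*} [CommRing A] (I K : Ideal A) (n : ℕ) :
    (I ⊔ K) ^ (n + 1) ≤ I ^ n ⊔ K := by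
  have := Ideal.sup_pow_add_le_pow_sup_pow (I := I) (J := K) (n := n) (m := 1)
  rwa [pow_one] at this

/-- `𝔪 ^ (2r+2) ≤ (s_i²) + 𝔪_P` in `P⟦s_1..s_r⟧`. -/
theorem s59l_max_pow_le {P : Type*} [CommRing P] [IsLocalRing P] {ρ : Type*} [Fintype ρ] :
    maximalIdeal (MvPowerSeries ρ P) ^ (2 * Fintype.card ρ + 1 + 1) ≤
      Ideal.span (Set.range fun i : ρ => (X i : MvPowerSeries ρ P) ^ 2) ⊔
        (maximalIdeal P).map (C (σ := ρ) (R := P)) := by
  classical
  have h1 : maximalIdeal (MvPowerSeries ρ P) ≤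
      Ideal.span (Set.range (X : ρ → MvPowerSeries ρ P)) ⊔
        (maximalIdeal P).map (C (σ := ρ) (R := P)) := by
    intro x hx
    have h0 : constantCoeff x ∈ maximalIdeal P := by
      rw [mem_maximalIdeal, mem_nonunits_iff, MvPowerSeries.isUnit_iff_constantCoeff] at hx
      exact hx
    have hsplit : x = (x - C (constantCoeff x)) + C (constantCoeff x) := by ring
    rw [hsplit]
    exact Ideal.add_mem _ (Ideal.mem_sup_left (s59l_sub_C_mem x))
      (Ideal.mem_sup_right (Ideal.mem_map_of_mem _ h0))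
  have h2 : Ideal.span (Set.range (X : ρ → MvPowerSeries ρ P)) =
      Finset.univ.sup fun i => Ideal.span {(X i : MvPowerSeries ρ P)} := by
    refine le_antisymm ?_ ?_
    · rw [Ideal.span_le]
      rintro _ ⟨i, rfl⟩
      exact (Finset.le_sup (f := fun i => Ideal.span {(X i : MvPowerSeries ρ P)})
        (Finset.mem_univ i)) (Ideal.subset_span rfl)
    · refine Finset.sup_le fun i _ => ?_
      rw [Ideal.span_le, Set.singleton_subset_iff]
      exact Ideal.subset_span ⟨i, rfl⟩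
  have h3 : (Finset.univ.sup fun i => Ideal.span {(X i : MvPowerSeries ρ P) ^ 2}) ≤
      Ideal.span (Set.range fun i : ρ => (X i : MvPowerSeries ρ P) ^ 2) := by
    refine Finset.sup_le fun i _ => ?_
    rw [Ideal.span_le, Set.singleton_subset_iff]
    exact Ideal.subset_span ⟨i, rfl⟩
  calc maximalIdeal (MvPowerSeries ρ P) ^ (2 * Fintype.card ρ + 1 + 1)
      ≤ (Ideal.span (Set.range (X : ρ → MvPowerSeries ρ P)) ⊔
          (maximalIdeal P).map (C (σ := ρ) (R := P))) ^ (2 * Fintype.card ρ + 1 + 1) :=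
        Ideal.pow_right_mono h1 _
    _ ≤ Ideal.span (Set.range (X : ρ → MvPowerSeries ρ P)) ^ (2 * Fintype.card ρ + 1) ⊔
          (maximalIdeal P).map (C (σ := ρ) (R := P)) := s59l_sup_pow_succ_le _ _ _
    _ ≤ _ := by
        refine sup_le_sup ?_ le_rfl
        rw [h2]
        have := s59l_sup_pow_le_sup_sq (fun i => (X i : MvPowerSeries ρ P)) Finset.univ
        rw [Finset.card_univ] at this
        exact this.trans h3

/-! ### finiteness -/

/-- **`P⟦s⟧ ⧸ I` is finite over `P`** when `I ∋ s_i² − t_i`, `t_i ∈ 𝔪_P`. -/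
theorem s59l_quot_finite {P : Type*} [CommRing P] [IsLocalRing P] [IsNoetherianRing P]
    [IsAdicComplete (maximalIdeal P) P] [Finite (ResidueField P)] {ρ : Type*} [Finite ρ]
    (I : Ideal (MvPowerSeries ρ P)) (hI : I ≠ ⊤) (t : ρ → P) (ht : ∀ i, t i ∈ maximalIdeal P)
    (hrel : ∀ i, (X i : MvPowerSeries ρ P) ^ 2 - C (t i) ∈ I) :
    Module.Finite P (MvPowerSeries ρ P ⧸ I) := by
  classical
  haveI := Fintype.ofFinite ρ
  haveI hloc : IsLocalRing (MvPowerSeries ρ P ⧸ I) := s59l_quot_isLocalRing I hI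
  have halg : ∀ p : P, algebraMap P (MvPowerSeries ρ P ⧸ I) p = Ideal.Quotient.mk I (C p) := by
    intro p
    show Ideal.Quotient.mk I (algebraMap P (MvPowerSeries ρ P) p) = _
    rw [MvPowerSeries.algebraMap_apply, Algebra.algebraMap_self, RingHom.id_apply]
  -- Hausdorff
  have hmap_le : (maximalIdeal P).map (algebraMap P (MvPowerSeries ρ P ⧸ I)) ≤ maximalIdeal (MvPowerSeries ρ P ⧸ I) := by
    rw [Ideal.map_le_iff_le_comap]
    intro p hp
    rw [Ideal.mem_comap, halg]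
    exact s59p_surj_mem (Ideal.Quotient.mk I) Ideal.Quotient.mk_surjective (s59l_C_mem hp)
  haveI hH : IsHausdorff (maximalIdeal P) (MvPowerSeries ρ P ⧸ I) := IsHausdorff.of_map hmap_le
  -- finiteness modulo `𝔪_P`
  set N := 2 * Fintype.card ρ + 1 + 1 with hN
  haveI hfinN : Finite (MvPowerSeries ρ P ⧸ maximalIdeal (MvPowerSeries ρ P) ^ N) :=
    s59p_finite_quot_pow _ N
  set Q := (MvPowerSeries ρ P ⧸ I) ⧸ (maximalIdeal P • ⊤ : Submodule P (MvPowerSeries ρ P ⧸ I)) with hQ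
  set φ : MvPowerSeries ρ P → Q := fun x => Submodule.Quotient.mk (Ideal.Quotient.mk I x)
    with hφ
  have hφsub : ∀ x y, x - y ∈ maximalIdeal (MvPowerSeries ρ P) ^ N → φ x = φ y := by
    intro x y hxy
    have h1 := s59l_max_pow_le (P := P) (ρ := ρ) hxy
    obtain ⟨a, ha, b, hb, hab⟩ := Submodule.mem_sup.mp h1
    -- `mk a ∈ 𝔪_P • ⊤`, `mk b ∈ 𝔪_P • ⊤`
    have hsq : ∀ i, Ideal.Quotient.mk I ((X i : MvPowerSeries ρ P) ^ 2) ∈
        (maximalIdeal P • ⊤ : Submodule P (MvPowerSeries ρ P ⧸ I)) := by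
      intro i
      have : Ideal.Quotient.mk I ((X i : MvPowerSeries ρ P) ^ 2) = t i • (1 : (MvPowerSeries ρ P ⧸ I)) := by
        rw [← Algebra.algebraMap_eq_smul_one, halg]
        exact Ideal.Quotient.eq.mpr (hrel i)
      rw [this]
      exact Submodule.smul_mem_smul (ht i) Submodule.mem_top
    have hmem : ∀ z ∈ Ideal.span (Set.range fun i : ρ => (X i : MvPowerSeries ρ P) ^ 2) ⊔
        (maximalIdeal P).map (C (σ := ρ) (R := P)),
        Ideal.Quotient.mk I z ∈ (maximalIdeal P • ⊤ : Submodule P (MvPowerSeries ρ P ⧸ I)) := by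
      -- the set of such `z` is an ideal
      have hideal : ∀ z, Ideal.Quotient.mk I z ∈ (maximalIdeal P • ⊤ : Submodule P (MvPowerSeries ρ P ⧸ I)) ↔
          Ideal.Quotient.mk I z ∈ (maximalIdeal P).map (algebraMap P (MvPowerSeries ρ P ⧸ I)) := by
        intro z
        rw [Ideal.smul_top_eq_map]
        exact Iff.rfl
      intro z hz
      rw [hideal]
      have : Ideal.span (Set.range fun i : ρ => (X i : MvPowerSeries ρ P) ^ 2) ⊔
          (maximalIdeal P).map (C (σ := ρ) (R := P)) ≤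
          Ideal.comap (Ideal.Quotient.mk I) ((maximalIdeal P).map (algebraMap P (MvPowerSeries ρ P ⧸ I))) := by
        refine sup_le ?_ ?_
        · rw [Ideal.span_le]
          rintro _ ⟨i, rfl⟩
          rw [SetLike.mem_coe, Ideal.mem_comap, ← hideal]
          exact hsq i
        · rw [Ideal.map_le_iff_le_comap]
          intro p hp
          rw [Ideal.mem_comap, Ideal.mem_comap, ← halg]
          exact Ideal.mem_map_of_mem _ hp
      exact this hz
    have h2 : Ideal.Quotient.mk I (x - y) ∈ (maximalIdeal P • ⊤ : Submodule P (MvPowerSeries ρ P ⧸ I)) :=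
      hmem _ h1
    show Submodule.Quotient.mk (Ideal.Quotient.mk I x) = Submodule.Quotient.mk _
    rw [Submodule.Quotient.eq, ← map_sub]
    exact h2
  have hφsurj : Function.Surjective φ := by
    intro q
    obtain ⟨y, rfl⟩ := Submodule.Quotient.mk_surjective _ q
    obtain ⟨x, rfl⟩ := Ideal.Quotient.mk_surjective y
    exact ⟨x, rfl⟩
  haveI hQfin : Finite Q := by
    refine Finite.of_surjective
      (fun q : MvPowerSeries ρ P ⧸ maximalIdeal (MvPowerSeries ρ P) ^ N => φ (Quotient.out q)) ?_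
    intro q
    obtain ⟨x, rfl⟩ := hφsurj q
    refine ⟨Ideal.Quotient.mk _ x, ?_⟩
    refine hφsub _ _ ?_
    rw [← Ideal.Quotient.eq, Ideal.Quotient.mk_out]
  -- complete Nakayama
  set k := Nat.card Q with hk
  have e : Q ≃ Fin k := Finite.equivFin Q
  choose ℓ hℓ using fun i : Fin k => Submodule.Quotient.mk_surjective
    (maximalIdeal P • ⊤ : Submodule P (MvPowerSeries ρ P ⧸ I)) (e.symm i)
  set f : (Fin k → P) →ₗ[P] (MvPowerSeries ρ P ⧸ I) := Fintype.linearCombination P ℓ with hf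
  haveI : IsPrecomplete (maximalIdeal P) (Fin k → P) := s59c_isPrecomplete_of_finite _
  have hsurj : Function.Surjective f := by
    refine surjective_of_mkQ_comp_surjective (I := maximalIdeal P) ?_
    intro q
    refine ⟨Pi.single (e q) 1, ?_⟩
    rw [LinearMap.comp_apply, hf, Fintype.linearCombination_apply_single, one_smul,
      Submodule.mkQ_apply, hℓ, Equiv.symm_apply_apply]
  exact Module.Finite.of_surjective f hsurj

/-! ### going-up -/

/-- an integral ring map does not raise the Krull dimension. -/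
theorem s59p_krullDim_ge_of_integral {S D : Type*} [CommRing S] [CommRing D] (f : S →+* D)
    (hint : f.IsIntegral) : ringKrullDim D ≤ ringKrullDim S := by
  letI : Algebra S D := f.toAlgebra
  unfold ringKrullDim
  refine Order.krullDim_le_of_strictMono (fun p : PrimeSpectrum D => PrimeSpectrum.comap f p) ?_
  intro p q hpq
  have hlt : p.asIdeal < q.asIdeal := hpq
  obtain ⟨x, hxq, hxp⟩ := Set.exists_of_ssubset hlt
  exact Ideal.comap_lt_comap_of_integral_mem_sdiff (R := S) hlt.le ⟨hxq, hxp⟩ (hint x)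

/-- lying over for `P → A ⧸ 𝔓` integral. -/
theorem s59l_lying_over {P A : Type*} [CommRing P] [CommRing A] (j : P →+* A) (𝔓 : Ideal A)
    [h𝔓 : 𝔓.IsPrime] (hint : ((Ideal.Quotient.mk 𝔓).comp j).IsIntegral) (𝔮 : Ideal P)
    [h𝔮 : 𝔮.IsPrime] (hle : Ideal.comap j 𝔓 ≤ 𝔮) :
    ∃ 𝔮' : Ideal A, 𝔮'.IsPrime ∧ 𝔓 ≤ 𝔮' ∧ Ideal.comap j 𝔮' = 𝔮 := by
  letI : Algebra P (A ⧸ 𝔓) := ((Ideal.Quotient.mk 𝔓).comp j).toAlgebra
  haveI : Algebra.IsIntegral P (A ⧸ 𝔓) := ⟨hint⟩
  obtain ⟨Q, -, hQ, hQ2⟩ := Ideal.exists_ideal_over_prime_of_isIntegral 𝔮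
    (⊥ : Ideal (A ⧸ 𝔓)) (by
      intro x hx
      rw [Ideal.mem_comap, Ideal.mem_bot] at hx
      apply hle
      rw [Ideal.mem_comap]
      exact Ideal.Quotient.eq_zero_iff_mem.mp hx)
  haveI := hQ
  refine ⟨Ideal.comap (Ideal.Quotient.mk 𝔓) Q, Ideal.comap_isPrime _ _, ?_, ?_⟩
  · intro x hx
    rw [Ideal.mem_comap, Ideal.Quotient.eq_zero_iff_mem.mpr hx]
    exact Q.zero_mem
  · rw [Ideal.comap_comap]
    exact hQ2

/-- the contraction of `𝔓` is the prime `𝒦` it contains, by dimension. -/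
theorem s59l_comap_eq_of_dim {P A : Type*} [CommRing P] [CommRing A] (j : P →+* A)
    (𝔓 : Ideal A) [h𝔓 : 𝔓.IsPrime] (hint : ((Ideal.Quotient.mk 𝔓).comp j).IsIntegral)
    (𝒦 : Ideal P) [h𝒦 : 𝒦.IsPrime] (hle : 𝒦 ≤ Ideal.comap j 𝔓) (δ : WithBot ℕ∞)
    (hδtop : δ ≠ ⊤) (hδbot : δ ≠ ⊥) (h1 : ringKrullDim (P ⧸ 𝒦) ≤ δ)
    (h2 : δ ≤ ringKrullDim (A ⧸ 𝔓)) : Ideal.comap j 𝔓 = 𝒦 := by
  refine le_antisymm ?_ hle
  by_contra hnot
  obtain ⟨a, ha𝔓, haq⟩ := Set.not_subset.mp hnot
  have hnzd : Ideal.Quotient.mk 𝒦 a ∈ nonZeroDivisors (P ⧸ 𝒦) := by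
    rw [mem_nonZeroDivisors_iff_ne_zero, Ne, Ideal.Quotient.eq_zero_iff_mem]
    exact haq
  have h3 : ringKrullDim (P ⧸ Ideal.comap j 𝔓) + 1 ≤ ringKrullDim (P ⧸ 𝒦) :=
    ringKrullDim_succ_le_of_surjective (Ideal.Quotient.factor hle)
      (Ideal.Quotient.factor_surjective hle) hnzd (by
        rw [Ideal.Quotient.factor_mk, Ideal.Quotient.eq_zero_iff_mem]
        exact ha𝔓)
  -- the induced integral map
  set g : P ⧸ Ideal.comap j 𝔓 →+* A ⧸ 𝔓 :=
    Ideal.Quotient.lift _ ((Ideal.Quotient.mk 𝔓).comp j) (by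
      intro x hx
      rw [RingHom.comp_apply]
      exact Ideal.Quotient.eq_zero_iff_mem.mpr hx) with hg
  have hgint : g.IsIntegral := by
    refine RingHom.IsIntegral.tower_top (Ideal.Quotient.mk (Ideal.comap j 𝔓)) g ?_
    have : g.comp (Ideal.Quotient.mk (Ideal.comap j 𝔓)) = (Ideal.Quotient.mk 𝔓).comp j := by
      ext x; rfl
    rw [this]
    exact hint
  have h4 : ringKrullDim (A ⧸ 𝔓) ≤ ringKrullDim (P ⧸ Ideal.comap j 𝔓) :=
    s59p_krullDim_ge_of_integral g hgint
  have h5 : δ + 1 ≤ δ := (add_le_add_left (h2.trans h4) 1).trans (h3.trans h1)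
  obtain ⟨e, he⟩ := WithBot.ne_bot_iff_exists.mp hδbot
  rw [← he] at h5 hδtop
  have he_top : e ≠ ⊤ := fun h => hδtop (by rw [h]; rfl)
  obtain ⟨n, rfl⟩ := ENat.ne_top_iff_exists.mp he_top
  have h6 : ((n + 1 : ℕ) : WithBot ℕ∞) ≤ (n : ℕ) := by
    have : (((n : ℕ) : ℕ∞) : WithBot ℕ∞) + 1 = ((n + 1 : ℕ) : WithBot ℕ∞) := by
      push_cast; rfl
    rw [← this]
    exact h5
  have h7 : n + 1 ≤ n := by exact_mod_cast h6
  omega

end Fermat.Agent.Lib.S59
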