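/-
(R) S59, [PM] the patching machine (helper4, prefix `s59p_`), part 10: **[PM1w'']** = [PM1w'] with
"convergent annihilators" and finitely many extra sequences of elements which converge along the
selected subsequence (needed for level-dependent relations such as `s_i² − t_{i,n} ∈ Ann N_n`).
-/
import Mathlib
import Fermat.Agent.Lib.S59.PPair2

set_option autoImplicit false
set_option linter.unusedSectionVars false
set_option linter.unusedVariables false
set_option linter.style.haveILetI false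
set_option maxHeartbeats 1600000

namespace Fermat.Agent.Lib.S59

open IsLocalRing Fermat.Agent.Lib.Deform

section select₂w

variable {S : Type} [CommRing S] [IsLocalRing S] [IsNoetherianRing S]
  [IsAdicComplete (maximalIdeal S) S] [Finite (ResidueField S)]
  {A : Type} [CommRing A] [IsLocalRing A] [IsNoetherianRing A]
  [IsAdicComplete (maximalIdeal A) A] [Finite (ResidueField A)]
  {A' : Type} [CommRing A'] [IsLocalRing A'] [IsNoetherianRing A']
  [IsAdicComplete (maximalIdeal A') A'] [Finite (ResidueField A')]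
  {R : Type} [CommRing R] [IsLocalRing R] [IsNoetherianRing R]
  [IsAdicComplete (maximalIdeal R) R]
  {R' : Type} [CommRing R'] [IsLocalRing R'] [IsNoetherianRing R']
  [IsAdicComplete (maximalIdeal R') R']
  {M : Type} [AddCommGroup M] [Module R M] [Module.Finite R M]
  {M' : Type} [AddCommGroup M'] [Module R' M'] [Module.Finite R' M']
  {𝔞 : Ideal S} {J : ℕ → Ideal S}
  (L : ∀ n, s59p_Level S A R M 𝔞 (J n)) {d : ℕ} (hd : ∀ n, (L n).d = d)
  (L' : ∀ n, s59p_Level S A' R' M' 𝔞 (J n)) {d' : ℕ} (hd' : ∀ n, (L' n).d = d')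

/-- a common convergent subsequence for two sequences of levels, together with an arbitrary
additional sequence of profiles in finite sets. -/
theorem s59p_select₂_with (hJ : ∀ n, J n ≤ maximalIdeal S ^ n)
    {P' : ℕ → Type} [∀ n, Finite (P' n)] (F' : ℕ → ∀ n, P' n) :
    ∃ ms : ℕ → ℕ, (∀ n, n ≤ ms n) ∧
      s59p_Conv (J := fun n => J (ms n)) (fun n => L (ms n)) (fun n => hd (ms n)) ∧
      s59p_Conv (J := fun n => J (ms n)) (fun n => L' (ms n)) (fun n => hd' (ms n)) ∧
      ∀ n n', n ≤ n' → F' (ms n) n = F' (ms n') n := by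
  classical
  haveI hkR' : Finite (ResidueField R') :=
    s59p_finite_residueField (L' 0).ψ (L' 0).ψ_surjective
  obtain ⟨ms, hms, hC, hF⟩ := s59p_select_with L hd hJ
    (P' := fun n => s59p_Prof S A' R' M' d' n × P' n)
    (fun m n => (s59p_prof (L' m) (hd' m) n, F' m n))
  exact ⟨ms, hms, hC,
    s59p_conv_of_prof L' hd' hJ ms hms (fun n n' h => congrArg Prod.fst (hF n n' h)),
    fun n n' h => congrArg Prod.snd (hF n n' h)⟩

end select₂w

section limit''

variable {S : Type} [CommRing S] [IsLocalRing S] [IsNoetherianRing S]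
  [IsAdicComplete (maximalIdeal S) S] [Finite (ResidueField S)]
  {A : Type} [CommRing A] [IsLocalRing A] [IsNoetherianRing A]
  [IsAdicComplete (maximalIdeal A) A] [Finite (ResidueField A)]
  {R : Type} [CommRing R] [IsLocalRing R] [IsNoetherianRing R]
  [IsAdicComplete (maximalIdeal R) R]
  {M : Type} [AddCommGroup M] [Module R M] [Module.Finite R M]
  {𝔞 : Ideal S} {J : ℕ → Ideal S}
  (L : ∀ n, s59p_Level S A R M 𝔞 (J n)) {d : ℕ} (hd : ∀ n, (L n).d = d)

/-- **convergent annihilators**: if `a n` kills `N_n` and `a n → a∞` then `a∞` kills `N_∞`. -/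
theorem s59p_limit_conv_ann (Li : s59p_Level S A R M 𝔞 ⊥) (hdi : Li.d = d)
    (hK : s59p_K Li hdi = s59p_Kinf L hd) (a : ℕ → A) (ainf : A)
    (ha : ∀ n, a n ∈ Module.annihilator A (L n).N)
    (hconv : ∀ n, a n - ainf ∈ maximalIdeal A ^ n) :
    ainf ∈ Module.annihilator A Li.N := by
  classical
  refine s59p_mem_ann_of_b Li fun k => ?_
  have hk : k = Fin.cast hdi.symm (Fin.cast hdi k) := by
    apply Fin.ext; simp
  have h1 : ainf • (Pi.single (Fin.cast hdi k) 1 : Fin d → A) ∈ s59p_K Li hdi := by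
    rw [hK, s59p_mem_Kinf]
    intro n
    refine ⟨a n • (Pi.single (Fin.cast hdi k) 1 : Fin d → A), ?_, fun j => ?_⟩
    · rw [s59p_mem_K, map_smul]
      exact Module.mem_annihilator.mp (ha n) _
    · have e : (ainf • (Pi.single (Fin.cast hdi k) 1 : Fin d → A)) j -
          (a n • (Pi.single (Fin.cast hdi k) 1 : Fin d → A)) j =
          -((a n - ainf) * (Pi.single (Fin.cast hdi k) 1 : Fin d → A) j) := by
        simp only [Pi.smul_apply, smul_eq_mul]; ring
      rw [e]
      exact neg_mem (Ideal.mul_mem_right _ _ (hconv n))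
  rw [s59p_mem_K, map_smul, s59p_Φ_single] at h1
  rw [hk]
  exact h1

end limit''

/-- the limit of weakly congruent convergent sequences of levels is weakly congruent. -/
theorem s59p_wcong_limit (S : Type) [CommRing S] [IsLocalRing S] [IsNoetherianRing S]
    [IsAdicComplete (maximalIdeal S) S] [Finite (ResidueField S)]
    (A : Type) [CommRing A] [IsLocalRing A] [IsNoetherianRing A]
    [IsAdicComplete (maximalIdeal A) A] [Finite (ResidueField A)]
    (A' : Type) [CommRing A'] [IsLocalRing A'] [IsNoetherianRing A']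
    [IsAdicComplete (maximalIdeal A') A'] [Finite (ResidueField A')]
    (R : Type) [CommRing R] [IsLocalRing R] [IsNoetherianRing R]
    [IsAdicComplete (maximalIdeal R) R]
    (R' : Type) [CommRing R'] [IsLocalRing R'] [IsNoetherianRing R']
    [IsAdicComplete (maximalIdeal R') R']
    (M : Type) [AddCommGroup M] [Module R M] [Module.Finite R M]
    (M' : Type) [AddCommGroup M'] [Module R' M'] [Module.Finite R' M']
    (𝔞 : Ideal S) (J : ℕ → Ideal S)
    (ϖ : A) (ϖ' : A') (ι : A ⧸ Ideal.span {ϖ} ≃+* A' ⧸ Ideal.span {ϖ'})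
    (L : ∀ n, s59p_Level S A R M 𝔞 (J n)) (L' : ∀ n, s59p_Level S A' R' M' 𝔞 (J n))
    (d d' : ℕ) (hd : ∀ n, (L n).d = d) (hd' : ∀ n, (L' n).d = d')
    (hW : ∀ n, s59p_WCong ϖ ϖ' ι (L n) (L' n))
    (hC' : s59p_Conv L' hd')
    (Li : s59p_Level S A R M 𝔞 ⊥) (hdi : Li.d = d) (hK : s59p_K Li hdi = s59p_Kinf L hd)
    (Li' : s59p_Level S A' R' M' 𝔞 ⊥) (hdi' : Li'.d = d')
    (hK' : s59p_K Li' hdi' = s59p_Kinf L' hd') :
    s59p_WCong ϖ ϖ' ι Li Li' := by
  classical
  intro t a a' haa' H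
  rw [s59p_smul_le_iff Li hdi] at H
  rw [s59p_smul_le_iff Li' hdi']
  have hstep2 : ∀ n, t ≤ n → ∀ x : (L n).N, a • x ∈
      (Ideal.span {ϖ} ⊔ maximalIdeal A ^ t) • (⊤ : Submodule A (L n).N) := by
    intro n htn
    rw [s59p_smul_le_iff (L n) (hd n)]
    intro j
    obtain ⟨k, hk, u, hu, hau⟩ := H j
    rw [hK] at hk
    obtain ⟨kn, hkn, hkkn⟩ := hk n
    refine ⟨kn, hkn, u + (k - kn), fun i => ?_, ?_⟩
    · exact Ideal.add_mem _ (hu i)
        (Ideal.mem_sup_right (Ideal.pow_le_pow_right htn (hkkn i)))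
    · rw [hau]; abel
  have hstep3 : ∀ n, t ≤ n → ∀ j : Fin d', ∃ k' ∈ s59p_K (L' n) (hd' n),
      ∃ u' : Fin d' → A', (∀ i, u' i ∈ Ideal.span {ϖ'} ⊔ maximalIdeal A' ^ t) ∧
        a' • (Pi.single j 1 : Fin d' → A') = k' + u' := by
    intro n htn
    rw [← s59p_smul_le_iff (L' n) (hd' n)]
    exact hW n t a a' haa' (hstep2 n htn)
  intro j
  obtain ⟨m, τ, hτ⟩ := (Submodule.fg_iff_exists_fin_generating_family).mp
    (IsNoetherian.noetherian (Ideal.span {ϖ'} ⊔ maximalIdeal A' ^ t))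
  have hτ' : Ideal.span (Set.range τ) = Ideal.span {ϖ'} ⊔ maximalIdeal A' ^ t := hτ
  have hτmem : ∀ l, τ l ∈ Ideal.span {ϖ'} ⊔ maximalIdeal A' ^ t := fun l =>
    hτ' ▸ Ideal.subset_span ⟨l, rfl⟩
  choose k' hk' u' hu' hau' using fun n => hstep3 (max n t) (le_max_right n t) j
  have hw : ∀ n, ∃ w : Fin m → Fin d' → A', ∀ i, u' n i = ∑ l, τ l * w l i := by
    intro n
    have h1 : ∀ i, ∃ c : Fin m → A', ∑ l, c l * τ l = u' n i := fun i => by
      have := hu' n i
      rw [← hτ'] at this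
      exact (Ideal.mem_span_range_iff_exists_fun).mp this
    choose c hc using h1
    exact ⟨fun l i => c i l, fun i => by
      rw [← hc i]; exact Finset.sum_congr rfl fun l _ => mul_comm _ _⟩
  choose w hw using hw
  haveI hfinq : ∀ n, Finite (A' ⧸ maximalIdeal A' ^ n) := fun n => s59p_finite_quot_pow A' n
  obtain ⟨w', hw'⟩ := s59c_exists_cluster (maximalIdeal A') (ι := Fin m × Fin d')
    (fun n p => w n p.1 p.2)
  set uu : Fin d' → A' := fun i => ∑ l, τ l * w' (l, i) with huu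
  refine ⟨a' • Pi.single j 1 - uu, ?_, uu, fun i => ?_, by abel⟩
  · rw [hK']
    refine s59p_mem_Kinf_of _ _ hC' fun n => ?_
    obtain ⟨n', hnn', hcl⟩ := hw' n
    refine ⟨max n' t, hnn'.trans (le_max_left _ _), k' n', hk' n', fun i => ?_⟩
    have e : (a' • (Pi.single j 1 : Fin d' → A') - uu) i - k' n' i =
        ∑ l, τ l * (w n' l i - w' (l, i)) := by
      have h1 : (a' • (Pi.single j 1 : Fin d' → A')) i = k' n' i + u' n' i := by
        rw [hau' n']; rfl
      rw [Pi.sub_apply, h1, hw n' i, huu]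
      simp only [mul_sub, Finset.sum_sub_distrib]
      ring
    rw [e]
    exact Ideal.sum_mem _ fun l _ => Ideal.mul_mem_left _ _ (hcl (l, i))
  · rw [huu]
    exact Ideal.sum_mem _ fun l _ => Ideal.mul_mem_right _ _ (hτmem l)

/-- **[PM1w'']** compactness for a pair of weakly congruent sequences of levels, with convergent
annihilators and finitely many extra convergent sequences of elements. -/
theorem s59p_pm1w'' (S : Type) [CommRing S] [IsLocalRing S] [IsNoetherianRing S]
    [IsAdicComplete (maximalIdeal S) S] [Finite (ResidueField S)]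
    (A : Type) [CommRing A] [IsLocalRing A] [IsNoetherianRing A]
    [IsAdicComplete (maximalIdeal A) A] [Finite (ResidueField A)]
    (A' : Type) [CommRing A'] [IsLocalRing A'] [IsNoetherianRing A']
    [IsAdicComplete (maximalIdeal A') A'] [Finite (ResidueField A')]
    (R : Type) [CommRing R] [IsLocalRing R] [IsNoetherianRing R]
    [IsAdicComplete (maximalIdeal R) R]
    (R' : Type) [CommRing R'] [IsLocalRing R'] [IsNoetherianRing R']
    [IsAdicComplete (maximalIdeal R') R']
    (M : Type) [AddCommGroup M] [Module R M] [Module.Finite R M]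
    (M' : Type) [AddCommGroup M'] [Module R' M'] [Module.Finite R' M']
    (𝔞 : Ideal S) (J : ℕ → Ideal S) (hJ : ∀ n, J n ≤ maximalIdeal S ^ n)
    (ϖ : A) (ϖ' : A') (ι : A ⧸ Ideal.span {ϖ} ≃+* A' ⧸ Ideal.span {ϖ'})
    (L : ∀ n, s59p_Level S A R M 𝔞 (J n)) (L' : ∀ n, s59p_Level S A' R' M' 𝔞 (J n))
    (d d' : ℕ) (hd : ∀ n, (L n).d = d) (hd' : ∀ n, (L' n).d = d')
    (hW : ∀ n, s59p_WCong ϖ ϖ' ι (L n) (L' n))
    {κ κ' : Type} [Finite κ] [Finite κ'] (t : ℕ → κ → A) (t' : ℕ → κ' → A') :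
    ∃ (ms : ℕ → ℕ) (Linf : s59p_Level S A R M 𝔞 ⊥) (Linf' : s59p_Level S A' R' M' 𝔞 ⊥)
      (tinf : κ → A) (tinf' : κ' → A'),
      s59p_WCong ϖ ϖ' ι Linf Linf' ∧
      (∀ n s, (L (ms n)).φ s - Linf.φ s ∈ maximalIdeal A ^ n) ∧
      (∀ n a, (L (ms n)).ψ a - Linf.ψ a ∈ maximalIdeal R ^ n) ∧
      (∀ (a : ℕ → A) (ainf : A), (∀ n, a n ∈ Module.annihilator A (L n).N) →
        (∀ n, a (ms n) - ainf ∈ maximalIdeal A ^ n) → ainf ∈ Module.annihilator A Linf.N) ∧
      (∀ n i, t (ms n) i - tinf i ∈ maximalIdeal A ^ n) ∧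
      (∀ n s, (L' (ms n)).φ s - Linf'.φ s ∈ maximalIdeal A' ^ n) ∧
      (∀ n a, (L' (ms n)).ψ a - Linf'.ψ a ∈ maximalIdeal R' ^ n) ∧
      (∀ (a : ℕ → A') (ainf : A'), (∀ n, a n ∈ Module.annihilator A' (L' n).N) →
        (∀ n, a (ms n) - ainf ∈ maximalIdeal A' ^ n) →
          ainf ∈ Module.annihilator A' Linf'.N) ∧
      (∀ n i, t' (ms n) i - tinf' i ∈ maximalIdeal A' ^ n) := by
  classical
  haveI hfin : ∀ n, Finite ((κ → A ⧸ maximalIdeal A ^ n) × (κ' → A' ⧸ maximalIdeal A' ^ n)) :=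
    fun n => by
      haveI := s59p_finite_quot_pow A n
      haveI := s59p_finite_quot_pow A' n
      infer_instance
  obtain ⟨ms, hms, hC, hC', hF⟩ := s59p_select₂_with L hd L' hd' hJ
    (P' := fun n => (κ → A ⧸ maximalIdeal A ^ n) × (κ' → A' ⧸ maximalIdeal A' ^ n))
    (fun m n => (fun i => Ideal.Quotient.mk _ (t m i), fun i => Ideal.Quotient.mk _ (t' m i)))
  obtain ⟨Li, hdi, hφi, hψi, hK⟩ := s59p_limit (J := fun n => J (ms n)) (fun n => L (ms n))
    (fun n => hd (ms n)) hC
  obtain ⟨Li', hdi', hφi', hψi', hK'⟩ := s59p_limit (J := fun n => J (ms n))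
    (fun n => L' (ms n)) (fun n => hd' (ms n)) hC'
  -- the limits of the extra sequences
  have hcau : ∀ i n n', n ≤ n' → t (ms n) i - t (ms n') i ∈ maximalIdeal A ^ n := by
    intro i n n' h
    have := congrFun (congrArg Prod.fst (hF n n' h)) i
    exact Ideal.Quotient.eq.mp this
  have hcau' : ∀ i n n', n ≤ n' → t' (ms n) i - t' (ms n') i ∈ maximalIdeal A' ^ n := by
    intro i n n' h
    have := congrFun (congrArg Prod.snd (hF n n' h)) i
    exact Ideal.Quotient.eq.mp this
  choose tinf htinf using fun i => s59c_cauchy_lim (maximalIdeal A) (fun n => t (ms n) i)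
    (hcau i)
  choose tinf' htinf' using fun i => s59c_cauchy_lim (maximalIdeal A') (fun n => t' (ms n) i)
    (hcau' i)
  refine ⟨ms, Li, Li', tinf, tinf', ?_, hφi, hψi, ?_, fun n i => htinf i n, hφi', hψi', ?_,
    fun n i => htinf' i n⟩
  · exact s59p_wcong_limit S A A' R R' M M' 𝔞 (fun n => J (ms n)) ϖ ϖ' ι (fun n => L (ms n))
      (fun n => L' (ms n)) d d' (fun n => hd (ms n)) (fun n => hd' (ms n)) (fun n => hW (ms n))
      hC' Li hdi hK Li' hdi' hK'
  · intro a ainf ha hconv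
    exact s59p_limit_conv_ann (J := fun n => J (ms n)) (fun n => L (ms n))
      (fun n => hd (ms n)) Li hdi hK (fun n => a (ms n)) ainf (fun n => ha (ms n)) hconv
  · intro a ainf ha hconv
    exact s59p_limit_conv_ann (J := fun n => J (ms n)) (fun n => L' (ms n))
      (fun n => hd' (ms n)) Li' hdi' hK' (fun n => a (ms n)) ainf (fun n => ha (ms n)) hconv

end Fermat.Agent.Lib.S59
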