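/-
[IA′] THE ABSTRACT IHARA-AVOIDANCE ASSEMBLY, S⁺⁺-variant (helper4): NO SIGN LEMMA.
Acting ring `A = P⟦s_1..s_r⟧` (`s_i` acts as `⟨δ_i⟩^{1/2} − ⟨δ_i⟩^{-1/2}`, so `S_∞ → A` is
level-independent on the diamond variables), the primes `𝒦_i ≤ 𝔮_i` live in `P`, and on the
χ-side the level-dependent relations `s_i² − t_{i,n} ∈ Ann N'_n` (`t_{i,n} ∈ 𝔪_P` = "exact
inertial type at the TW primes, without the sign").
  * `s59l_IA_sq_gen` : general `P`;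
  * `s59l_IA_sq`     : `P = 𝒫^E = s59l_FlatE 𝒪 m e g`, family `(θ_i, ch)`.
-/
import Mathlib
import Fermat.Agent.Lib.S59.LAsmE
import Fermat.Agent.Lib.S59.LInt
import Fermat.Agent.Lib.S59.PPair3

set_option autoImplicit false
set_option linter.unusedSectionVars false
set_option linter.unusedVariables false
set_option linter.style.haveILetI false
set_option maxHeartbeats 1600000

noncomputable section

namespace Fermat.Agent.Lib.S59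

open IsLocalRing MvPowerSeries Fermat.Agent.Lib.Deform

/-- **[IA′-sq-raw]** the assembly with the limit `ψ_∞` exposed (on the constants `C (v j k)` it
is the limit of the `ψ_n` along the subsequence `ms`). -/
theorem s59l_IA_sq_raw
    (S : Type) [CommRing S] [IsDomain S] [IsLocalRing S] [IsNoetherianRing S]
    [IsAdicComplete (maximalIdeal S) S] [Finite (ResidueField S)]
    (P : Type) [CommRing P] [IsLocalRing P] [IsNoetherianRing P]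
    [IsAdicComplete (maximalIdeal P) P] [Finite (ResidueField P)] (r : ℕ)
    [IsNoetherianRing (MvPowerSeries (Fin r) P)]
    (R : Type) [CommRing R] [IsLocalRing R] [IsNoetherianRing R]
    [IsAdicComplete (maximalIdeal R) R]
    (R' : Type) [CommRing R'] [IsLocalRing R'] [IsNoetherianRing R']
    [IsAdicComplete (maximalIdeal R') R']
    (M : Type) [AddCommGroup M] [Module R M] [Module.Finite R M]
    (M' : Type) [AddCommGroup M'] [Module R' M'] [Module.Finite R' M'] [Nontrivial M']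
    (𝔞 : Ideal S) [𝔞.IsPrime] (J : ℕ → Ideal S) (hJ : ∀ n, J n ≤ maximalIdeal S ^ n)
    (L : ∀ n, s59p_Level S (MvPowerSeries (Fin r) P) R M 𝔞 (J n))
    (L' : ∀ n, s59p_Level S (MvPowerSeries (Fin r) P) R' M' 𝔞 (J n))
    (d d' : ℕ) (hd : ∀ n, (L n).d = d) (hd' : ∀ n, (L' n).d = d')
    (ϖ : P) (hW : ∀ n, s59p_WCong (C ϖ : MvPowerSeries (Fin r) P) (C ϖ) (RingEquiv.refl _)
      (L n) (L' n))
    {ι : Type} [Fintype ι] (𝒦 𝔮 : ι → Ideal P) (h𝒦 : ∀ i, (𝒦 i).IsPrime)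
    (h𝔮 : ∀ i, (𝔮 i).IsPrime) (hle : ∀ i, 𝒦 i ≤ 𝔮 i) (hϖ : ∀ i, ϖ ∈ 𝔮 i)
    (hdim : ∀ i, ringKrullDim (P ⧸ 𝒦 i) ≤ ringKrullDim S)
    (hχ : ∀ n, ∀ F ∈ Finset.univ.inf 𝒦, (C F : MvPowerSeries (Fin r) P) ∈
      Module.annihilator (MvPowerSeries (Fin r) P) (L' n).N)
    (t' : ℕ → Fin r → P) (ht'm : ∀ n i, t' n i ∈ maximalIdeal P)
    (ht' : ∀ n i, (X i : MvPowerSeries (Fin r) P) ^ 2 - C (t' n i) ∈
      Module.annihilator (MvPowerSeries (Fin r) P) (L' n).N)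
    {m : ℕ} (v w : Fin m → Fin 3 → P) (u a : Fin m → P)
    (ha : ∀ j, a j ^ 2 = u j + (w j 0 ^ 2 + w j 1 * w j 2))
    (hgen : ∀ i j, 1 - u j ∈ 𝔮 i ∧ (2 : P) ∉ 𝔮 i ∧ w j 0 ∉ 𝔮 i ∧
      w j 0 ^ 2 + w j 1 * w j 2 ∉ 𝔮 i)
    (h0 : ∀ n j, s59l_r0 (C (v j 0) : MvPowerSeries (Fin r) P) (C (v j 1)) (C (v j 2)) ∈
      Module.annihilator (MvPowerSeries (Fin r) P) (L n).N)
    (h2 : ∀ n j, s59l_r2 (C (v j 0) : MvPowerSeries (Fin r) P) (C (v j 1)) (C (w j 0))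
      (C (w j 1)) (C (a j)) (C (u j)) ∈ Module.annihilator (MvPowerSeries (Fin r) P) (L n).N)
    (h3 : ∀ n j, s59l_r3 (C (v j 0) : MvPowerSeries (Fin r) P) (C (v j 2)) (C (w j 0))
      (C (w j 2)) (C (a j)) (C (u j)) ∈ Module.annihilator (MvPowerSeries (Fin r) P) (L n).N)
    (κ : S →+* R) (hκ : ∀ n s, (L n).ψ ((L n).φ s) = κ s) :
    ∃ (ms : ℕ → ℕ) (ψinf : MvPowerSeries (Fin r) P →+* R) (𝔭 : Ideal R), 𝔭.IsPrime ∧
      Module.annihilator R M ≤ 𝔭 ∧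
      (∀ n a, (L (ms n)).ψ a - ψinf a ∈ maximalIdeal R ^ n) ∧
      (∀ j k, ψinf (C (v j k)) ∈ 𝔭) ∧ Ideal.comap κ 𝔭 = 𝔞 := by
  classical
  obtain ⟨ms, Li, Li', -, tinf', hWi, hφ, hψ, hann, -, -, -, hann', htinf'⟩ :=
    s59p_pm1w'' S (MvPowerSeries (Fin r) P) (MvPowerSeries (Fin r) P) R R' M M' 𝔞 J hJ
      (C ϖ) (C ϖ) (RingEquiv.refl _) L L' d d' hd hd' hW (κ := PEmpty) (κ' := Fin r)
      (fun _ i => i.elim) (fun n i => (C (t' n i) : MvPowerSeries (Fin r) P))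
  -- the limit of the `t'` in `P`
  set tP : Fin r → P := fun i => constantCoeff (tinf' i) with htP
  have htPconv : ∀ n i, t' (ms n) i - tP i ∈ maximalIdeal P ^ n := by
    intro n i
    have h1 := s59p_surj_mem_pow (constantCoeff (σ := Fin r) (R := P))
      (fun p => ⟨C p, constantCoeff_C p⟩) (htinf' n i)
    rw [map_sub, constantCoeff_C] at h1
    exact h1
  have htPm : ∀ i, tP i ∈ maximalIdeal P := by
    intro i
    have h1 := htPconv 1 i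
    rw [pow_one] at h1
    have := Ideal.sub_mem _ (ht'm (ms 1) i) h1
    rwa [sub_sub_cancel] at this
  -- the relations on the limit
  have hsq : ∀ i, (X i : MvPowerSeries (Fin r) P) ^ 2 - C (tP i) ∈
      Module.annihilator (MvPowerSeries (Fin r) P) Li'.N := by
    intro i
    refine hann' (fun n => (X i : MvPowerSeries (Fin r) P) ^ 2 - C (t' n i)) _
      (fun n => ht' n i) fun n => ?_
    have e : (X i : MvPowerSeries (Fin r) P) ^ 2 - C (t' (ms n) i) - (X i ^ 2 - C (tP i)) =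
        -(C (t' (ms n) i - tP i)) := by
      rw [map_sub]; ring
    rw [e]
    exact neg_mem (s59p_map_mem_pow (C (σ := Fin r) (R := P)) (htPconv n i))
  have hkill : ∀ F ∈ Finset.univ.inf 𝒦, (C F : MvPowerSeries (Fin r) P) ∈
      Module.annihilator (MvPowerSeries (Fin r) P) Li'.N := by
    intro F hF
    refine hann' (fun _ => C F) _ (fun n => hχ n F hF) fun n => ?_
    rw [sub_self]
    exact zero_mem _
  -- a minimal prime of the support on the χ-side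
  have hN : Module.annihilator (MvPowerSeries (Fin r) P) Li'.N ≠ ⊤ := by
    intro h
    have h1 : (1 : MvPowerSeries (Fin r) P) ∈
        Module.annihilator (MvPowerSeries (Fin r) P) Li'.N := h ▸ Submodule.mem_top
    rw [Module.mem_annihilator] at h1
    obtain ⟨y, hy⟩ := exists_ne (0 : M')
    obtain ⟨x, rfl⟩ := Li'.π_surjective y
    apply hy
    have := h1 x
    rw [one_smul] at this
    rw [this, map_zero]
  obtain ⟨⟨𝔓', h𝔓'⟩⟩ := Ideal.nonempty_minimalPrimes hN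
  haveI hP'prime : 𝔓'.IsPrime := h𝔓'.1.1
  obtain ⟨-, -, hc', -⟩ := s59p_pm2 S (MvPowerSeries (Fin r) P) R' M' 𝔞 Li' 𝔓' h𝔓'
  have hcomap_le : Finset.univ.inf 𝒦 ≤ Ideal.comap (C (σ := Fin r) (R := P)) 𝔓' := by
    intro F hF
    rw [Ideal.mem_comap]
    exact h𝔓'.1.2 (hkill F hF)
  obtain ⟨i, -, hi⟩ := ((Ideal.comap_isPrime (C (σ := Fin r) (R := P)) 𝔓').inf_le').mp hcomap_le
  haveI := h𝒦 i
  haveI := h𝔮 i
  -- integrality
  haveI hfin : Module.Finite P (MvPowerSeries (Fin r) P ⧸ 𝔓') :=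
    s59l_quot_finite 𝔓' hP'prime.ne_top tP htPm fun k => h𝔓'.1.2 (hsq k)
  have hint : ((Ideal.Quotient.mk 𝔓').comp (C (σ := Fin r) (R := P))).IsIntegral := by
    have h1 : (algebraMap P (MvPowerSeries (Fin r) P ⧸ 𝔓')).IsIntegral :=
      (Algebra.IsIntegral.of_finite P (MvPowerSeries (Fin r) P ⧸ 𝔓')).isIntegral
    have h2 : algebraMap P (MvPowerSeries (Fin r) P ⧸ 𝔓') =
        (Ideal.Quotient.mk 𝔓').comp (C (σ := Fin r) (R := P)) := by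
      refine RingHom.ext fun p => ?_
      show Ideal.Quotient.mk 𝔓' (algebraMap P (MvPowerSeries (Fin r) P) p) = _
      rw [MvPowerSeries.algebraMap_apply, Algebra.algebraMap_self, RingHom.id_apply]
      rfl
    rw [← h2]
    exact h1
  have heq : Ideal.comap (C (σ := Fin r) (R := P)) 𝔓' = 𝒦 i :=
    s59l_comap_eq_of_dim (C (σ := Fin r) (R := P)) 𝔓' hint (𝒦 i) hi (ringKrullDim S)
      ringKrullDim_ne_top ringKrullDim_ne_bot (hdim i) hc'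
  obtain ⟨𝔮', h𝔮', h𝔓𝔮, hcomap𝔮⟩ := s59l_lying_over (C (σ := Fin r) (R := P)) 𝔓' hint (𝔮 i)
    (heq ▸ hle i)
  haveI := h𝔮'
  have hmem𝔮' : ∀ p : P, (C p : MvPowerSeries (Fin r) P) ∈ 𝔮' ↔ p ∈ 𝔮 i := by
    intro p
    rw [← hcomap𝔮, Ideal.mem_comap]
  have hq' : Module.annihilator (MvPowerSeries (Fin r) P) Li'.N ≤ 𝔮' := h𝔓'.1.2.trans h𝔓𝔮
  -- the transfer
  have hq : Module.annihilator (MvPowerSeries (Fin r) P) Li.N ≤ 𝔮' :=
    s59p_ihara_transfer S (MvPowerSeries (Fin r) P) R R' M M' 𝔞 ⊥ (C ϖ) Li Li' hWi 𝔮'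
      ((hmem𝔮' ϖ).mpr (hϖ i)) hq'
  -- the unramified point
  have hannc : ∀ x : MvPowerSeries (Fin r) P,
      (∀ n, x ∈ Module.annihilator (MvPowerSeries (Fin r) P) (L n).N) →
        x ∈ Module.annihilator (MvPowerSeries (Fin r) P) Li.N := by
    intro x hx
    refine hann (fun _ => x) x hx fun n => ?_
    rw [sub_self]
    exact zero_mem _
  obtain ⟨𝔭, hp, hann𝔭, hV, hcomap⟩ := s59p_unr_point S (MvPowerSeries (Fin r) P) R M 𝔞 Li 𝔮' hq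
    (Set.range fun p : Fin m × Fin 3 => (C (v p.1 p.2) : MvPowerSeries (Fin r) P))
    (by
      intro 𝔓 h𝔓 hle𝔓 hle𝔮
      haveI := h𝔓
      rintro _ ⟨p, rfl⟩
      obtain ⟨g1, g2, g3, g4⟩ := hgen i p.1
      have ha' : (C (a p.1) : MvPowerSeries (Fin r) P) ^ 2 =
          C (u p.1) + (C (w p.1 0) ^ 2 + C (w p.1 1) * C (w p.1 2)) := by
        rw [← map_pow, ha p.1, map_add, map_add, map_pow, map_mul]
      have g1' : (1 : MvPowerSeries (Fin r) P) - C (u p.1) ∈ 𝔮' := by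
        have := (hmem𝔮' (1 - u p.1)).mpr g1
        rwa [map_sub, map_one] at this
      have g2' : (2 : MvPowerSeries (Fin r) P) ∉ 𝔮' := by
        intro h
        apply g2
        rw [← hmem𝔮', map_ofNat]
        exact h
      have g3' : (C (w p.1 0) : MvPowerSeries (Fin r) P) ∉ 𝔮' := fun h => g3 ((hmem𝔮' _).mp h)
      have g4' : (C (w p.1 0) : MvPowerSeries (Fin r) P) ^ 2 + C (w p.1 1) * C (w p.1 2) ∉ 𝔮' := by
        intro h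
        apply g4
        rw [← hmem𝔮', map_add, map_pow, map_mul]
        exact h
      obtain ⟨he, hb, hc''⟩ := s59l_unr_of_prime (C (v p.1 0) : MvPowerSeries (Fin r) P)
        (C (v p.1 1)) (C (v p.1 2)) (C (w p.1 0)) (C (w p.1 1)) (C (w p.1 2)) (C (a p.1))
        (C (u p.1)) ha' 𝔮' g1' g2' g3' g4' 𝔓 hle𝔮
        (hle𝔓 (hannc _ fun n => h0 n p.1)) (hle𝔓 (hannc _ fun n => h2 n p.1))
        (hle𝔓 (hannc _ fun n => h3 n p.1))
      obtain ⟨j, k⟩ := p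
      fin_cases k
      · exact he
      · exact hb
      · exact hc'')
  refine ⟨ms, Li.ψ, 𝔭, hp, hann𝔭, hψ, fun j k => hV _ ⟨(j, k), rfl⟩, ?_⟩
  · have h1 : Li.ψ.comp Li.φ = κ := by
      refine RingHom.ext fun s => ?_
      rw [RingHom.comp_apply]
      refine eq_of_forall_sub_mem_pow (maximalIdeal R) fun n => ?_
      have e : Li.ψ (Li.φ s) - κ s =
          -(((L (ms n)).ψ ((L (ms n)).φ s) - Li.ψ ((L (ms n)).φ s)) +
            Li.ψ ((L (ms n)).φ s - Li.φ s)) := by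
        rw [hκ, map_sub]; ring
      rw [e]
      refine neg_mem (Ideal.add_mem _ (hψ n _) ?_)
      exact s59p_surj_mem_pow _ Li.ψ_surjective (hφ n s)
    rw [← h1]
    exact hcomap

/-- Krull: an element of `𝔭 + 𝔪 ^ n` for all `n` lies in the prime `𝔭` (complete noetherian local
ring). -/
theorem s59l_mem_of_forall_mem_sup_pow {R : Type} [CommRing R] [IsLocalRing R] [IsNoetherianRing R]
    [IsAdicComplete (maximalIdeal R) R] (𝔭 : Ideal R) [h𝔭 : 𝔭.IsPrime] (x : R)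
    (hx : ∀ n, x ∈ 𝔭 ⊔ maximalIdeal R ^ n) : x ∈ 𝔭 := by
  haveI : IsLocalRing (R ⧸ 𝔭) := s59l_quot_isLocalRing 𝔭 h𝔭.ne_top
  haveI : IsAdicComplete (maximalIdeal (R ⧸ 𝔭)) (R ⧸ 𝔭) := s59l_quot_complete 𝔭
  rw [← Ideal.Quotient.eq_zero_iff_mem]
  refine eq_of_forall_sub_mem_pow (maximalIdeal (R ⧸ 𝔭)) fun n => ?_
  rw [sub_zero]
  obtain ⟨y, hy, z, hz, rfl⟩ := Submodule.mem_sup.mp (hx n)
  rw [map_add, Ideal.Quotient.eq_zero_iff_mem.mpr hy, zero_add]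
  exact s59p_surj_mem_pow _ Ideal.Quotient.mk_surjective hz

/-- **[IA′-sq-gen], ideal form of the conclusion**: the entries `ψ_n (C (v j k))` may depend on the
level; any ideal `𝔲` of `R` contained in the ideal they generate, for every `n`, lies in `𝔭`. -/
theorem s59l_IA_sq_gen_ideal
    (S : Type) [CommRing S] [IsDomain S] [IsLocalRing S] [IsNoetherianRing S]
    [IsAdicComplete (maximalIdeal S) S] [Finite (ResidueField S)]
    (P : Type) [CommRing P] [IsLocalRing P] [IsNoetherianRing P]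
    [IsAdicComplete (maximalIdeal P) P] [Finite (ResidueField P)] (r : ℕ)
    [IsNoetherianRing (MvPowerSeries (Fin r) P)]
    (R : Type) [CommRing R] [IsLocalRing R] [IsNoetherianRing R]
    [IsAdicComplete (maximalIdeal R) R]
    (R' : Type) [CommRing R'] [IsLocalRing R'] [IsNoetherianRing R']
    [IsAdicComplete (maximalIdeal R') R']
    (M : Type) [AddCommGroup M] [Module R M] [Module.Finite R M]
    (M' : Type) [AddCommGroup M'] [Module R' M'] [Module.Finite R' M'] [Nontrivial M']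
    (𝔞 : Ideal S) [𝔞.IsPrime] (J : ℕ → Ideal S) (hJ : ∀ n, J n ≤ maximalIdeal S ^ n)
    (L : ∀ n, s59p_Level S (MvPowerSeries (Fin r) P) R M 𝔞 (J n))
    (L' : ∀ n, s59p_Level S (MvPowerSeries (Fin r) P) R' M' 𝔞 (J n))
    (d d' : ℕ) (hd : ∀ n, (L n).d = d) (hd' : ∀ n, (L' n).d = d')
    (ϖ : P) (hW : ∀ n, s59p_WCong (C ϖ : MvPowerSeries (Fin r) P) (C ϖ) (RingEquiv.refl _)
      (L n) (L' n))
    {ι : Type} [Fintype ι] (𝒦 𝔮 : ι → Ideal P) (h𝒦 : ∀ i, (𝒦 i).IsPrime)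
    (h𝔮 : ∀ i, (𝔮 i).IsPrime) (hle : ∀ i, 𝒦 i ≤ 𝔮 i) (hϖ : ∀ i, ϖ ∈ 𝔮 i)
    (hdim : ∀ i, ringKrullDim (P ⧸ 𝒦 i) ≤ ringKrullDim S)
    (hχ : ∀ n, ∀ F ∈ Finset.univ.inf 𝒦, (C F : MvPowerSeries (Fin r) P) ∈
      Module.annihilator (MvPowerSeries (Fin r) P) (L' n).N)
    (t' : ℕ → Fin r → P) (ht'm : ∀ n i, t' n i ∈ maximalIdeal P)
    (ht' : ∀ n i, (X i : MvPowerSeries (Fin r) P) ^ 2 - C (t' n i) ∈
      Module.annihilator (MvPowerSeries (Fin r) P) (L' n).N)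
    {m : ℕ} (v w : Fin m → Fin 3 → P) (u a : Fin m → P)
    (ha : ∀ j, a j ^ 2 = u j + (w j 0 ^ 2 + w j 1 * w j 2))
    (hgen : ∀ i j, 1 - u j ∈ 𝔮 i ∧ (2 : P) ∉ 𝔮 i ∧ w j 0 ∉ 𝔮 i ∧
      w j 0 ^ 2 + w j 1 * w j 2 ∉ 𝔮 i)
    (h0 : ∀ n j, s59l_r0 (C (v j 0) : MvPowerSeries (Fin r) P) (C (v j 1)) (C (v j 2)) ∈
      Module.annihilator (MvPowerSeries (Fin r) P) (L n).N)
    (h2 : ∀ n j, s59l_r2 (C (v j 0) : MvPowerSeries (Fin r) P) (C (v j 1)) (C (w j 0))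
      (C (w j 1)) (C (a j)) (C (u j)) ∈ Module.annihilator (MvPowerSeries (Fin r) P) (L n).N)
    (h3 : ∀ n j, s59l_r3 (C (v j 0) : MvPowerSeries (Fin r) P) (C (v j 2)) (C (w j 0))
      (C (w j 2)) (C (a j)) (C (u j)) ∈ Module.annihilator (MvPowerSeries (Fin r) P) (L n).N)
    (𝔲 : Ideal R) (hc : ∀ n, 𝔲 ≤ Ideal.span
      (Set.range fun p : Fin m × Fin 3 => (L n).ψ (C (v p.1 p.2))))
    (κ : S →+* R) (hκ : ∀ n s, (L n).ψ ((L n).φ s) = κ s) :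
    ∃ 𝔭 : Ideal R, 𝔭.IsPrime ∧ Module.annihilator R M ≤ 𝔭 ∧ 𝔲 ≤ 𝔭 ∧
      Ideal.comap κ 𝔭 = 𝔞 := by
  obtain ⟨ms, ψinf, 𝔭, hp, hann, hψ, hV, hcomap⟩ := s59l_IA_sq_raw S P r R R' M M' 𝔞 J hJ L L' d d'
    hd hd' ϖ hW 𝒦 𝔮 h𝒦 h𝔮 hle hϖ hdim hχ t' ht'm ht' v w u a ha hgen h0 h2 h3 κ hκ
  haveI := hp
  refine ⟨𝔭, hp, hann, fun x hx => ?_, hcomap⟩
  refine s59l_mem_of_forall_mem_sup_pow 𝔭 x fun n => ?_
  have h1 := hc (ms n) hx
  refine (Ideal.span_le (I := 𝔭 ⊔ maximalIdeal R ^ n)).mpr ?_ h1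
  rintro _ ⟨p, rfl⟩
  have e : (L (ms n)).ψ (C (v p.1 p.2)) =
      ψinf (C (v p.1 p.2)) + ((L (ms n)).ψ (C (v p.1 p.2)) - ψinf (C (v p.1 p.2))) := by ring
  show (L (ms n)).ψ (C (v p.1 p.2)) ∈ 𝔭 ⊔ maximalIdeal R ^ n
  rw [e]
  exact Submodule.add_mem_sup (hV p.1 p.2) (hψ n _)

/-- **[IA′-sq-gen]** (level-independent entries). -/
theorem s59l_IA_sq_gen
    (S : Type) [CommRing S] [IsDomain S] [IsLocalRing S] [IsNoetherianRing S]
    [IsAdicComplete (maximalIdeal S) S] [Finite (ResidueField S)]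
    (P : Type) [CommRing P] [IsLocalRing P] [IsNoetherianRing P]
    [IsAdicComplete (maximalIdeal P) P] [Finite (ResidueField P)] (r : ℕ)
    [IsNoetherianRing (MvPowerSeries (Fin r) P)]
    (R : Type) [CommRing R] [IsLocalRing R] [IsNoetherianRing R]
    [IsAdicComplete (maximalIdeal R) R]
    (R' : Type) [CommRing R'] [IsLocalRing R'] [IsNoetherianRing R']
    [IsAdicComplete (maximalIdeal R') R']
    (M : Type) [AddCommGroup M] [Module R M] [Module.Finite R M]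
    (M' : Type) [AddCommGroup M'] [Module R' M'] [Module.Finite R' M'] [Nontrivial M']
    (𝔞 : Ideal S) [𝔞.IsPrime] (J : ℕ → Ideal S) (hJ : ∀ n, J n ≤ maximalIdeal S ^ n)
    (L : ∀ n, s59p_Level S (MvPowerSeries (Fin r) P) R M 𝔞 (J n))
    (L' : ∀ n, s59p_Level S (MvPowerSeries (Fin r) P) R' M' 𝔞 (J n))
    (d d' : ℕ) (hd : ∀ n, (L n).d = d) (hd' : ∀ n, (L' n).d = d')
    (ϖ : P) (hW : ∀ n, s59p_WCong (C ϖ : MvPowerSeries (Fin r) P) (C ϖ) (RingEquiv.refl _)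
      (L n) (L' n))
    {ι : Type} [Fintype ι] (𝒦 𝔮 : ι → Ideal P) (h𝒦 : ∀ i, (𝒦 i).IsPrime)
    (h𝔮 : ∀ i, (𝔮 i).IsPrime) (hle : ∀ i, 𝒦 i ≤ 𝔮 i) (hϖ : ∀ i, ϖ ∈ 𝔮 i)
    (hdim : ∀ i, ringKrullDim (P ⧸ 𝒦 i) ≤ ringKrullDim S)
    (hχ : ∀ n, ∀ F ∈ Finset.univ.inf 𝒦, (C F : MvPowerSeries (Fin r) P) ∈
      Module.annihilator (MvPowerSeries (Fin r) P) (L' n).N)
    (t' : ℕ → Fin r → P) (ht'm : ∀ n i, t' n i ∈ maximalIdeal P)
    (ht' : ∀ n i, (X i : MvPowerSeries (Fin r) P) ^ 2 - C (t' n i) ∈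
      Module.annihilator (MvPowerSeries (Fin r) P) (L' n).N)
    {m : ℕ} (v w : Fin m → Fin 3 → P) (u a : Fin m → P)
    (ha : ∀ j, a j ^ 2 = u j + (w j 0 ^ 2 + w j 1 * w j 2))
    (hgen : ∀ i j, 1 - u j ∈ 𝔮 i ∧ (2 : P) ∉ 𝔮 i ∧ w j 0 ∉ 𝔮 i ∧
      w j 0 ^ 2 + w j 1 * w j 2 ∉ 𝔮 i)
    (h0 : ∀ n j, s59l_r0 (C (v j 0) : MvPowerSeries (Fin r) P) (C (v j 1)) (C (v j 2)) ∈
      Module.annihilator (MvPowerSeries (Fin r) P) (L n).N)
    (h2 : ∀ n j, s59l_r2 (C (v j 0) : MvPowerSeries (Fin r) P) (C (v j 1)) (C (w j 0))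
      (C (w j 1)) (C (a j)) (C (u j)) ∈ Module.annihilator (MvPowerSeries (Fin r) P) (L n).N)
    (h3 : ∀ n j, s59l_r3 (C (v j 0) : MvPowerSeries (Fin r) P) (C (v j 2)) (C (w j 0))
      (C (w j 2)) (C (a j)) (C (u j)) ∈ Module.annihilator (MvPowerSeries (Fin r) P) (L n).N)
    (c : Fin m → Fin 3 → R) (hc : ∀ n j k, (L n).ψ (C (v j k)) = c j k)
    (κ : S →+* R) (hκ : ∀ n s, (L n).ψ ((L n).φ s) = κ s) :
    ∃ 𝔭 : Ideal R, 𝔭.IsPrime ∧ Module.annihilator R M ≤ 𝔭 ∧ (∀ j k, c j k ∈ 𝔭) ∧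
      Ideal.comap κ 𝔭 = 𝔞 := by
  obtain ⟨𝔭, hp, hann, h𝔲, hcomap⟩ := s59l_IA_sq_gen_ideal S P r R R' M M' 𝔞 J hJ L L' d d'
    hd hd' ϖ hW 𝒦 𝔮 h𝒦 h𝔮 hle hϖ hdim hχ t' ht'm ht' v w u a ha hgen h0 h2 h3
    (Ideal.span (Set.range fun p : Fin m × Fin 3 => c p.1 p.2))
    (fun n => Ideal.span_mono (by
      rintro _ ⟨p, rfl⟩
      exact ⟨p, hc n p.1 p.2⟩)) κ hκ
  exact ⟨𝔭, hp, hann, fun j k => h𝔲 (Ideal.subset_span ⟨(j, k), rfl⟩), hcomap⟩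

/-- **[IA′-sq], ideal form** over `A = 𝒫^E⟦s_1..s_r⟧`: framed primes `B ⊔ E`, `r` Taylor–Wiles primes
whose diamond operators act through `s_i`; NO sign lemma; the entries of the traceless part of
`ρ(σ_q)`, `q ∈ B`, at level `∅` may depend on `n` (only the ideal they generate matters). -/
theorem s59l_IA_sq_ideal {𝒪 : Type} [CommRing 𝒪] [IsLocalRing 𝒪] [IsNoetherianRing 𝒪] [IsDomain 𝒪]
    [IsAdicComplete (maximalIdeal 𝒪) 𝒪] [Finite (ResidueField 𝒪)]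
    (ϖ : 𝒪) (hϖ : ϖ ∈ maximalIdeal 𝒪) (m e g r : ℕ) (D : s59l_EData 𝒪 e)
    (S : Type) [CommRing S] [IsDomain S] [IsLocalRing S] [IsNoetherianRing S]
    [IsAdicComplete (maximalIdeal S) S] [Finite (ResidueField S)]
    (hdim : ringKrullDim 𝒪 + ((3 * m + (g + e * 3) : ℕ) : WithBot ℕ∞) ≤ ringKrullDim S)
    (R : Type) [CommRing R] [IsLocalRing R] [IsNoetherianRing R]
    [IsAdicComplete (maximalIdeal R) R]
    (R' : Type) [CommRing R'] [IsLocalRing R'] [IsNoetherianRing R']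
    [IsAdicComplete (maximalIdeal R') R']
    (M : Type) [AddCommGroup M] [Module R M] [Module.Finite R M]
    (M' : Type) [AddCommGroup M'] [Module R' M'] [Module.Finite R' M'] [Nontrivial M']
    (𝔞 : Ideal S) [𝔞.IsPrime] (J : ℕ → Ideal S) (hJ : ∀ n, J n ≤ maximalIdeal S ^ n)
    (L : ∀ n, s59p_Level S (MvPowerSeries (Fin r) (s59l_FlatE 𝒪 m e g)) R M 𝔞 (J n))
    (L' : ∀ n, s59p_Level S (MvPowerSeries (Fin r) (s59l_FlatE 𝒪 m e g)) R' M' 𝔞 (J n))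
    (d d' : ℕ) (hd : ∀ n, (L n).d = d) (hd' : ∀ n, (L' n).d = d')
    (hW : ∀ n, s59p_WCong (C (C ϖ) : MvPowerSeries (Fin r) (s59l_FlatE 𝒪 m e g)) (C (C ϖ))
      (RingEquiv.refl _) (L n) (L' n))
    {ι : Type} [Fintype ι] (θ : ι → Fin m → 𝒪) (hθ : ∀ i j, s59l_Hyp (θ i j))
    (hχ : ∀ n, ∀ F ∈ (Finset.univ.inf fun p : ι × (Fin e → Bool) =>
        s59l_KKE D (θ p.1) (hθ p.1) g p.2),
      (C F : MvPowerSeries (Fin r) (s59l_FlatE 𝒪 m e g)) ∈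
        Module.annihilator (MvPowerSeries (Fin r) (s59l_FlatE 𝒪 m e g)) (L' n).N)
    (t' : ℕ → Fin r → s59l_FlatE 𝒪 m e g)
    (ht'm : ∀ n i, t' n i ∈ maximalIdeal (s59l_FlatE 𝒪 m e g))
    (ht' : ∀ n i, (X i : MvPowerSeries (Fin r) (s59l_FlatE 𝒪 m e g)) ^ 2 - C (t' n i) ∈
      Module.annihilator (MvPowerSeries (Fin r) (s59l_FlatE 𝒪 m e g)) (L' n).N)
    (u : Fin m → 𝒪) (hu : ∀ j, u j - 1 ∈ maximalIdeal 𝒪) (a : Fin m → s59l_FlatE 𝒪 m e g)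
    (ha : ∀ j, a j ^ 2 = C (u j) + (s59l_WB j 0 ^ 2 + s59l_WB j 1 * s59l_WB j 2))
    (h0 : ∀ n j, s59l_r0 (C (s59l_VB j 0) : MvPowerSeries (Fin r) (s59l_FlatE 𝒪 m e g))
      (C (s59l_VB j 1)) (C (s59l_VB j 2)) ∈
      Module.annihilator (MvPowerSeries (Fin r) (s59l_FlatE 𝒪 m e g)) (L n).N)
    (h2 : ∀ n j, s59l_r2 (C (s59l_VB j 0) : MvPowerSeries (Fin r) (s59l_FlatE 𝒪 m e g))
      (C (s59l_VB j 1)) (C (s59l_WB j 0)) (C (s59l_WB j 1)) (C (a j)) (C (C (u j))) ∈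
      Module.annihilator (MvPowerSeries (Fin r) (s59l_FlatE 𝒪 m e g)) (L n).N)
    (h3 : ∀ n j, s59l_r3 (C (s59l_VB j 0) : MvPowerSeries (Fin r) (s59l_FlatE 𝒪 m e g))
      (C (s59l_VB j 2)) (C (s59l_WB j 0)) (C (s59l_WB j 2)) (C (a j)) (C (C (u j))) ∈
      Module.annihilator (MvPowerSeries (Fin r) (s59l_FlatE 𝒪 m e g)) (L n).N)
    (𝔲 : Ideal R) (hc : ∀ n, 𝔲 ≤ Ideal.span
      (Set.range fun p : Fin m × Fin 3 => (L n).ψ (C (s59l_VB p.1 p.2))))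
    (κ : S →+* R) (hκ : ∀ n s, (L n).ψ ((L n).φ s) = κ s) :
    ∃ 𝔭 : Ideal R, 𝔭.IsPrime ∧ Module.annihilator R M ≤ 𝔭 ∧ 𝔲 ≤ 𝔭 ∧
      Ideal.comap κ 𝔭 = 𝔞 := by
  refine s59l_IA_sq_gen_ideal S (s59l_FlatE 𝒪 m e g) r R R' M M' 𝔞 J hJ L L' d d' hd hd' (C ϖ) hW
    (ι := ι × (Fin e → Bool))
    (fun p => s59l_KKE D (θ p.1) (hθ p.1) g p.2) (fun p => s59l_qE D m g p.2)
    (fun p => inferInstance) (fun p => inferInstance)
    (fun p => s59l_KKE_le_qE D (θ p.1) (hθ p.1) g p.2)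
    (fun p => s59l_C_mem_qE D m g p.2 hϖ)
    (fun p => (s59l_KKE_dim D (θ p.1) (hθ p.1) g p.2).trans hdim) hχ t' ht'm ht'
    (fun j k => s59l_VB j k) (fun j k => s59l_WB j k) (fun j => C (u j)) a ha ?_ h0 h2 h3 𝔲 hc
    κ hκ
  intro p j
  have h𝔮 : (s59l_qE D m g p.2).IsPrime := inferInstance
  refine ⟨?_, ?_, s59l_WB_not_mem_qE D g p.2 j, s59l_QB_not_mem_qE D g p.2 j⟩
  · have := s59l_C_mem_qE D m g p.2 (hu j)
    rw [map_sub, map_one] at this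
    rw [← neg_sub]
    exact neg_mem this
  · intro h
    have h1 : (2 : s59l_FlatE 𝒪 m e g) * C D.i2 = 1 := s59l_two_mul_C_i2 D
    have : (1 : s59l_FlatE 𝒪 m e g) ∈ s59l_qE D m g p.2 := h1 ▸ Ideal.mul_mem_right _ _ h
    exact (Ideal.ne_top_iff_one _).mp h𝔮.ne_top this

/-- **[IA′-sq] the Ihara-avoidance assembly over `A = 𝒫^E⟦s_1..s_r⟧`** (level-independent
entries). -/
theorem s59l_IA_sq {𝒪 : Type} [CommRing 𝒪] [IsLocalRing 𝒪] [IsNoetherianRing 𝒪] [IsDomain 𝒪]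
    [IsAdicComplete (maximalIdeal 𝒪) 𝒪] [Finite (ResidueField 𝒪)]
    (ϖ : 𝒪) (hϖ : ϖ ∈ maximalIdeal 𝒪) (m e g r : ℕ) (D : s59l_EData 𝒪 e)
    (S : Type) [CommRing S] [IsDomain S] [IsLocalRing S] [IsNoetherianRing S]
    [IsAdicComplete (maximalIdeal S) S] [Finite (ResidueField S)]
    (hdim : ringKrullDim 𝒪 + ((3 * m + (g + e * 3) : ℕ) : WithBot ℕ∞) ≤ ringKrullDim S)
    (R : Type) [CommRing R] [IsLocalRing R] [IsNoetherianRing R]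
    [IsAdicComplete (maximalIdeal R) R]
    (R' : Type) [CommRing R'] [IsLocalRing R'] [IsNoetherianRing R']
    [IsAdicComplete (maximalIdeal R') R']
    (M : Type) [AddCommGroup M] [Module R M] [Module.Finite R M]
    (M' : Type) [AddCommGroup M'] [Module R' M'] [Module.Finite R' M'] [Nontrivial M']
    (𝔞 : Ideal S) [𝔞.IsPrime] (J : ℕ → Ideal S) (hJ : ∀ n, J n ≤ maximalIdeal S ^ n)
    (L : ∀ n, s59p_Level S (MvPowerSeries (Fin r) (s59l_FlatE 𝒪 m e g)) R M 𝔞 (J n))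
    (L' : ∀ n, s59p_Level S (MvPowerSeries (Fin r) (s59l_FlatE 𝒪 m e g)) R' M' 𝔞 (J n))
    (d d' : ℕ) (hd : ∀ n, (L n).d = d) (hd' : ∀ n, (L' n).d = d')
    (hW : ∀ n, s59p_WCong (C (C ϖ) : MvPowerSeries (Fin r) (s59l_FlatE 𝒪 m e g)) (C (C ϖ))
      (RingEquiv.refl _) (L n) (L' n))
    {ι : Type} [Fintype ι] (θ : ι → Fin m → 𝒪) (hθ : ∀ i j, s59l_Hyp (θ i j))
    (hχ : ∀ n, ∀ F ∈ (Finset.univ.inf fun p : ι × (Fin e → Bool) =>
        s59l_KKE D (θ p.1) (hθ p.1) g p.2),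
      (C F : MvPowerSeries (Fin r) (s59l_FlatE 𝒪 m e g)) ∈
        Module.annihilator (MvPowerSeries (Fin r) (s59l_FlatE 𝒪 m e g)) (L' n).N)
    (t' : ℕ → Fin r → s59l_FlatE 𝒪 m e g)
    (ht'm : ∀ n i, t' n i ∈ maximalIdeal (s59l_FlatE 𝒪 m e g))
    (ht' : ∀ n i, (X i : MvPowerSeries (Fin r) (s59l_FlatE 𝒪 m e g)) ^ 2 - C (t' n i) ∈
      Module.annihilator (MvPowerSeries (Fin r) (s59l_FlatE 𝒪 m e g)) (L' n).N)
    (u : Fin m → 𝒪) (hu : ∀ j, u j - 1 ∈ maximalIdeal 𝒪) (a : Fin m → s59l_FlatE 𝒪 m e g)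
    (ha : ∀ j, a j ^ 2 = C (u j) + (s59l_WB j 0 ^ 2 + s59l_WB j 1 * s59l_WB j 2))
    (h0 : ∀ n j, s59l_r0 (C (s59l_VB j 0) : MvPowerSeries (Fin r) (s59l_FlatE 𝒪 m e g))
      (C (s59l_VB j 1)) (C (s59l_VB j 2)) ∈
      Module.annihilator (MvPowerSeries (Fin r) (s59l_FlatE 𝒪 m e g)) (L n).N)
    (h2 : ∀ n j, s59l_r2 (C (s59l_VB j 0) : MvPowerSeries (Fin r) (s59l_FlatE 𝒪 m e g))
      (C (s59l_VB j 1)) (C (s59l_WB j 0)) (C (s59l_WB j 1)) (C (a j)) (C (C (u j))) ∈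
      Module.annihilator (MvPowerSeries (Fin r) (s59l_FlatE 𝒪 m e g)) (L n).N)
    (h3 : ∀ n j, s59l_r3 (C (s59l_VB j 0) : MvPowerSeries (Fin r) (s59l_FlatE 𝒪 m e g))
      (C (s59l_VB j 2)) (C (s59l_WB j 0)) (C (s59l_WB j 2)) (C (a j)) (C (C (u j))) ∈
      Module.annihilator (MvPowerSeries (Fin r) (s59l_FlatE 𝒪 m e g)) (L n).N)
    (c : Fin m → Fin 3 → R) (hc : ∀ n j k, (L n).ψ (C (s59l_VB j k)) = c j k)
    (κ : S →+* R) (hκ : ∀ n s, (L n).ψ ((L n).φ s) = κ s) :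
    ∃ 𝔭 : Ideal R, 𝔭.IsPrime ∧ Module.annihilator R M ≤ 𝔭 ∧ (∀ j k, c j k ∈ 𝔭) ∧
      Ideal.comap κ 𝔭 = 𝔞 := by
  obtain ⟨𝔭, hp, hann, h𝔲, hcomap⟩ := s59l_IA_sq_ideal ϖ hϖ m e g r D S hdim R R' M M' 𝔞 J hJ L L'
    d d' hd hd' hW θ hθ hχ t' ht'm ht' u hu a ha h0 h2 h3
    (Ideal.span (Set.range fun p : Fin m × Fin 3 => c p.1 p.2))
    (fun n => Ideal.span_mono (by
      rintro _ ⟨p, rfl⟩
      exact ⟨p, hc n p.1 p.2⟩)) κ hκ
  exact ⟨𝔭, hp, hann, fun j k => h𝔲 (Ideal.subset_span ⟨(j, k), rfl⟩), hcomap⟩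

end Fermat.Agent.Lib.S59
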