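/-
[E] INSTANTIATION, ring half (helper4, prefix `s59i_`), part 3: RESTRICTION OF THE ACTING RING.
A level `L` over the acting ring `U` (e.g. `U = T_n⟦z⟧`, the framed Hecke ring itself) and a ring map
`Θ : A → U` with `Θ ∘ φ_A = L.φ`, `L.ψ ∘ Θ` onto, give a level `s59i_restrict` over `A` with the SAME
module, `a • x = Θ a • x`.  Then
  * `Θ a = 0 ⇒ a ∈ Ann` (`s59i_restrict_ann`), more generally `Θ a ∈ Ann_U ⇒ a ∈ Ann_A`;
  * for `Θ` onto, weak congruences over `U` restrict to weak congruences over `A`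
    (`s59i_restrict_wcong`).
-/
import Mathlib
import Fermat.Agent.Lib.S59.PGraph
import Fermat.Agent.Lib.S59.PLevel

set_option autoImplicit false
set_option linter.unusedSectionVars false
set_option linter.unusedVariables false
set_option linter.style.haveILetI false

noncomputable section

namespace Fermat.Agent.Lib.S59

open IsLocalRing

section Restrict

variable {S : Type} [CommRing S] {A : Type} [CommRing A] {U : Type} [CommRing U]
  {R : Type} [CommRing R] {M : Type} [AddCommGroup M] [Module R M] {𝔞 J : Ideal S}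

/-- `I • N` does not depend on the ring through which the ideal acts (`⊆`, no surjectivity). -/
theorem s59i_smul_top_le {N : Type*} [AddCommGroup N] [Module U N] (Θ : A →+* U) (I : Ideal A)
    (x : N) :
    letI : Module A N := Module.compHom N Θ
    x ∈ (I • (⊤ : Submodule A N)) → x ∈ ((I.map Θ) • (⊤ : Submodule U N)) := by
  letI : Module A N := Module.compHom N Θ
  intro hx
  refine Submodule.smul_induction_on hx ?_ ?_
  · intro a ha y _
    show Θ a • y ∈ _
    exact Submodule.smul_mem_smul (Ideal.mem_map_of_mem Θ ha) Submodule.mem_top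
  · intro y y' hy hy'
    exact Submodule.add_mem _ hy hy'

/-- the converse inclusion for an extended ideal `𝔞 A`. -/
theorem s59i_smul_top_ge_map {N : Type*} [AddCommGroup N] [Module U N] (Θ : A →+* U)
    (φA : S →+* A) (𝔞 : Ideal S) (x : N) :
    letI : Module A N := Module.compHom N Θ
    x ∈ ((𝔞.map (Θ.comp φA)) • (⊤ : Submodule U N)) →
      x ∈ ((𝔞.map φA) • (⊤ : Submodule A N)) := by
  letI : Module A N := Module.compHom N Θ
  intro hx
  have key : ∀ u ∈ Ideal.map (Θ.comp φA) 𝔞, ∀ y : N,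
      u • y ∈ ((𝔞.map φA) • (⊤ : Submodule A N)) := by
    intro u hu
    refine Submodule.span_induction ?_ ?_ ?_ ?_ hu
    · rintro _ ⟨s, hs, rfl⟩ y
      have : (Θ.comp φA) s • y = (φA s • y : N) := rfl
      rw [this]
      exact Submodule.smul_mem_smul (Ideal.mem_map_of_mem φA hs) Submodule.mem_top
    · intro y
      rw [zero_smul]
      exact zero_mem _
    · intro u₁ u₂ _ _ h₁ h₂ y
      rw [add_smul]
      exact add_mem (h₁ y) (h₂ y)
    · intro c u₁ _ h₁ y
      rw [smul_eq_mul, mul_comm, mul_smul]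
      exact h₁ (c • y)
  refine Submodule.smul_induction_on hx ?_ ?_
  · intro u hu y _
    exact key u hu y
  · intro y y' hy hy'
    exact Submodule.add_mem _ hy hy'

/-- the converse inclusion for `Θ` onto. -/
theorem s59i_smul_top_ge_surj {N : Type*} [AddCommGroup N] [Module U N] (Θ : A →+* U)
    (hΘ : Function.Surjective Θ) (I : Ideal A) (x : N) :
    letI : Module A N := Module.compHom N Θ
    x ∈ ((I.map Θ) • (⊤ : Submodule U N)) → x ∈ (I • (⊤ : Submodule A N)) := by
  letI : Module A N := Module.compHom N Θ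
  intro hx
  refine Submodule.smul_induction_on hx ?_ ?_
  · intro u hu y _
    obtain ⟨a, ha, rfl⟩ := (Ideal.mem_map_iff_of_surjective Θ hΘ).mp hu
    have : Θ a • y = (a • y : N) := rfl
    rw [this]
    exact Submodule.smul_mem_smul ha Submodule.mem_top
  · intro y y' hy hy'
    exact Submodule.add_mem _ hy hy'

/-- **restriction of the acting ring** along `Θ : A → U`. -/
def s59i_restrict (L : s59p_Level S U R M 𝔞 J) (Θ : A →+* U) (φA : S →+* A)
    (hφ : ∀ s, Θ (φA s) = L.φ s) (hψ : Function.Surjective (L.ψ.comp Θ)) :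
    s59p_Level S A R M 𝔞 J :=
  letI : Module A L.N := Module.compHom L.N Θ
  { N := L.N
    φ := φA
    ψ := L.ψ.comp Θ
    ψ_surjective := hψ
    ψ_φ := fun s hs => by
      rw [RingHom.comp_apply, hφ]
      exact L.ψ_φ s hs
    π := L.π
    π_smul := fun a x => L.π_smul (Θ a) x
    π_surjective := L.π_surjective
    ker_π := fun x => by
      have hmap : Ideal.map (Θ.comp φA) 𝔞 = Ideal.map L.φ 𝔞 := by
        congr 1
        exact RingHom.ext hφ
      rw [L.ker_π x]
      constructor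
      · intro h
        rw [← hmap] at h
        exact s59i_smul_top_ge_map Θ φA 𝔞 x h
      · intro h
        have := s59i_smul_top_le Θ (𝔞.map φA) x h
        rwa [Ideal.map_map, hmap] at this
    d := L.d
    b := L.b
    b_span := fun x => by
      obtain ⟨c, hc⟩ := L.b_span x
      refine ⟨c, ?_⟩
      rw [hc]
      refine Finset.sum_congr rfl fun i _ => ?_
      show L.φ (c i) • L.b i = Θ (φA (c i)) • L.b i
      rw [hφ]
    b_rel := fun c => by
      rw [← L.b_rel c]
      have : ∑ i, φA (c i) • L.b i = ∑ i, L.φ (c i) • L.b i := by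
        refine Finset.sum_congr rfl fun i _ => ?_
        show Θ (φA (c i)) • L.b i = L.φ (c i) • L.b i
        rw [hφ]
      rw [this] }

@[simp] theorem s59i_restrict_ψ (L : s59p_Level S U R M 𝔞 J) (Θ : A →+* U) (φA : S →+* A)
    (hφ : ∀ s, Θ (φA s) = L.φ s) (hψ : Function.Surjective (L.ψ.comp Θ)) (a : A) :
    (s59i_restrict L Θ φA hφ hψ).ψ a = L.ψ (Θ a) := rfl

@[simp] theorem s59i_restrict_φ (L : s59p_Level S U R M 𝔞 J) (Θ : A →+* U) (φA : S →+* A)
    (hφ : ∀ s, Θ (φA s) = L.φ s) (hψ : Function.Surjective (L.ψ.comp Θ)) :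
    (s59i_restrict L Θ φA hφ hψ).φ = φA := rfl

@[simp] theorem s59i_restrict_d (L : s59p_Level S U R M 𝔞 J) (Θ : A →+* U) (φA : S →+* A)
    (hφ : ∀ s, Θ (φA s) = L.φ s) (hψ : Function.Surjective (L.ψ.comp Θ)) :
    (s59i_restrict L Θ φA hφ hψ).d = L.d := rfl

/-- `Θ a ∈ Ann_U N ⇒ a ∈ Ann_A N`. -/
theorem s59i_restrict_ann (L : s59p_Level S U R M 𝔞 J) (Θ : A →+* U) (φA : S →+* A)
    (hφ : ∀ s, Θ (φA s) = L.φ s) (hψ : Function.Surjective (L.ψ.comp Θ)) (a : A)
    (h : Θ a ∈ Module.annihilator U L.N) :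
    a ∈ Module.annihilator A (s59i_restrict L Θ φA hφ hψ).N := by
  rw [Module.mem_annihilator] at h ⊢
  intro x
  exact h x

/-- `Θ a = 0 ⇒ a ∈ Ann_A N`. -/
theorem s59i_restrict_ann_of_eq_zero (L : s59p_Level S U R M 𝔞 J) (Θ : A →+* U) (φA : S →+* A)
    (hφ : ∀ s, Θ (φA s) = L.φ s) (hψ : Function.Surjective (L.ψ.comp Θ)) (a : A)
    (h : Θ a = 0) : a ∈ Module.annihilator A (s59i_restrict L Θ φA hφ hψ).N := by
  refine s59i_restrict_ann L Θ φA hφ hψ a ?_
  rw [h]
  exact zero_mem _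

end Restrict

section WCong

variable {S : Type} [CommRing S] {A : Type} [CommRing A] [IsLocalRing A] {U : Type} [CommRing U]
  [IsLocalRing U] {R : Type} [CommRing R] {R' : Type} [CommRing R']
  {M : Type} [AddCommGroup M] [Module R M] {M' : Type} [AddCommGroup M'] [Module R' M']
  {𝔞 J : Ideal S}

/-- a surjection of local rings maps the maximal ideal onto the maximal ideal. -/
theorem s59i_map_maximalIdeal (Θ : A →+* U) (hΘ : Function.Surjective Θ) :
    (maximalIdeal A).map Θ = maximalIdeal U := by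
  refine le_antisymm ?_ ?_
  · rw [Ideal.map_le_iff_le_comap]
    intro a ha
    exact s59p_surj_mem Θ hΘ ha
  · intro u hu
    obtain ⟨a, rfl⟩ := hΘ u
    refine Ideal.mem_map_of_mem Θ ?_
    rw [mem_maximalIdeal, mem_nonunits_iff] at hu ⊢
    exact fun h => hu (h.map Θ)

/-- **weak congruences restrict** along a surjection `Θ : A ↠ U` of the acting rings. -/
theorem s59i_restrict_wcong (L : s59p_Level S U R M 𝔞 J) (L' : s59p_Level S U R' M' 𝔞 J)
    (Θ : A →+* U) (hΘ : Function.Surjective Θ) (φA φA' : S →+* A)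
    (hφ : ∀ s, Θ (φA s) = L.φ s) (hφ' : ∀ s, Θ (φA' s) = L'.φ s)
    (hψ : Function.Surjective (L.ψ.comp Θ)) (hψ' : Function.Surjective (L'.ψ.comp Θ))
    (ϖ : A) (hW : s59p_WCong (Θ ϖ) (Θ ϖ) (RingEquiv.refl _) L L') :
    s59p_WCong ϖ ϖ (RingEquiv.refl _) (s59i_restrict L Θ φA hφ hψ)
      (s59i_restrict L' Θ φA' hφ' hψ') := by
  intro t a a' haa' h x'
  have hmap : (Ideal.span {ϖ} ⊔ maximalIdeal A ^ t).map Θ =
      Ideal.span {Θ ϖ} ⊔ maximalIdeal U ^ t := by
    rw [Ideal.map_sup, Ideal.map_span, Set.image_singleton, Ideal.map_pow,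
      s59i_map_maximalIdeal Θ hΘ]
  have haa : (RingEquiv.refl (U ⧸ Ideal.span {Θ ϖ})) (Ideal.Quotient.mk _ (Θ a)) =
      Ideal.Quotient.mk _ (Θ a') := by
    rw [RingEquiv.refl_apply, Ideal.Quotient.eq] at haa' ⊢
    rw [Ideal.mem_span_singleton] at haa' ⊢
    obtain ⟨c, hc⟩ := haa'
    exact ⟨Θ c, by rw [← map_sub, hc, map_mul]⟩
  have h1 : ∀ x : L.N, Θ a • x ∈
      (Ideal.span {Θ ϖ} ⊔ maximalIdeal U ^ t) • (⊤ : Submodule U L.N) := by
    intro x
    have := s59i_smul_top_le (N := L.N) Θ (Ideal.span {ϖ} ⊔ maximalIdeal A ^ t) _ (h x)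
    rw [hmap] at this
    exact this
  have h2 : ∀ y' : L'.N, Θ a' • y' ∈
      (Ideal.span {Θ ϖ} ⊔ maximalIdeal U ^ t) • (⊤ : Submodule U L'.N) :=
    hW t (Θ a) (Θ a') haa h1
  have h3 := h2 x'
  rw [← hmap] at h3
  exact s59i_smul_top_ge_surj (N := L'.N) Θ hΘ _ _ h3

end WCong

end Fermat.Agent.Lib.S59
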