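/-
[E] INSTANTIATION, ring half (helper4, prefix `s59i_`), part 5: THE TOP THEOREM WITH NAMED
HYPOTHESES.  `s59i_IA_inst` = `s59l_IA_sq_ideal` with the type-1 relations at `B` replaced by
CONJUGATION-INVARIANT MATRIX IDENTITIES for the framed `Σ_{n,j} = ρ(σ_j)`, `Φ_{n,j} = ρ(φ_j)` over
ANY ring `Cn n` through which `A″ = 𝒫^E⟦s⟧` acts on `N_n` (`q n a = 0 ⇒ a ∈ Ann N_n`), and the
χ-side hypotheses in the form produced by `s59i_kill_ps` / `s59i_RelE_of_matrices`: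
  type 1, `j ∈ B`:  `(Σ − 1)² = 0`, `tr Σ = 2`, `Φ (Σ − 1) = u_j • (Σ − 1) Φ`, `½ tr Φ = q (a_j)`
                    (`a_j² = u_j + Q(W_j)` in `𝒫^E`; `s59i_hac_of_det` gets the last one from
                    `det Φ = u_j` and the residual sign);
  type χ:           `γ'_n := q'_n ∘ C` dies on `⋂ 𝒦_{θ_i,ch}`; `(q'_n s_i)² ∈ q'_n(C 𝔪_{𝒫^E})`.
-/
import Mathlib
import Fermat.Agent.Lib.S59.LAsmS
import Fermat.Agent.Lib.S59.LInstM
import Fermat.Agent.Lib.S59.LInstK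
import Fermat.Agent.Lib.S59.LInstR
import Fermat.Agent.Lib.S59.LInstT

set_option autoImplicit false
set_option linter.unusedSectionVars false
set_option linter.unusedVariables false
set_option linter.style.haveILetI false
set_option maxHeartbeats 1600000

noncomputable section

namespace Fermat.Agent.Lib.S59

open IsLocalRing MvPowerSeries Fermat.Agent.Lib.Deform

/-- the half trace of `Φ` is the image of `a = ±√(u + Q(W))`: from `det Φ = u` and the residual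
sign `ε`. -/
theorem s59i_hac_of_det {P C : Type*} [CommRing P] [CommRing C] [IsLocalRing C] (f : P →+* C)
    (i2 u a w0 w1 w2 ε : P) (hi2 : 2 * i2 = 1) (hε : ε ^ 2 = 1)
    (ha : a ^ 2 = u + (w0 ^ 2 + w1 * w2)) (Ph : Matrix (Fin 2) (Fin 2) C)
    (hW : ∀ k, f ((![w0, w1, w2] : Fin 3 → P) k) = s59i_tl (f i2) Ph k)
    (hdet : Ph.det = f u) (hares : f a - f ε ∈ maximalIdeal C)
    (hres : s59i_ht (f i2) Ph - f ε ∈ maximalIdeal C) : f a = s59i_ht (f i2) Ph := by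
  have hi2' : (2 : C) * f i2 = 1 := by
    rw [← map_ofNat f 2, ← map_mul, hi2, map_one]
  have hε' : f ε ^ 2 = 1 := by rw [← map_pow, hε, map_one]
  refine s59l_sqrt_unique (f a) (s59i_ht (f i2) Ph) (f ε) (f i2) hε' hi2' ?_ hares hres
  rw [s59i_sq_of_det (f i2) (f u) hi2' Ph hdet, ← hW 0, ← hW 1, ← hW 2, ← map_pow, ha]
  simp only [Matrix.cons_val_zero, Matrix.cons_val_one, Matrix.cons_val_two, map_add, map_mul,
    map_pow]
  rfl

variable {𝒪 : Type} [CommRing 𝒪] [IsLocalRing 𝒪] [IsNoetherianRing 𝒪] [IsDomain 𝒪]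
  [IsAdicComplete (maximalIdeal 𝒪) 𝒪] [Finite (ResidueField 𝒪)]

/-- the χ-side hypothesis `hχ` of the assembly from the kill property of `γ' = q' ∘ C`. -/
theorem s59i_hχ_of_ker {m e g r : ℕ} (I : Ideal (s59l_FlatE 𝒪 m e g)) {C' : Type*} [CommRing C']
    {N' : Type*} [AddCommGroup N'] [Module (MvPowerSeries (Fin r) (s59l_FlatE 𝒪 m e g)) N']
    (q' : MvPowerSeries (Fin r) (s59l_FlatE 𝒪 m e g) →+* C')
    (hq' : ∀ a, q' a = 0 → a ∈ Module.annihilator (MvPowerSeries (Fin r) (s59l_FlatE 𝒪 m e g)) N')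
    (hker : I ≤ RingHom.ker (q'.comp (C (σ := Fin r) (R := s59l_FlatE 𝒪 m e g)))) :
    ∀ F ∈ I, (C F : MvPowerSeries (Fin r) (s59l_FlatE 𝒪 m e g)) ∈
      Module.annihilator (MvPowerSeries (Fin r) (s59l_FlatE 𝒪 m e g)) N' := by
  intro F hF
  exact hq' _ (hker hF)

/-- **[E] the instantiated assembly, named hypotheses.** -/
theorem s59i_IA_inst
    (ϖ : 𝒪) (hϖ : ϖ ∈ maximalIdeal 𝒪) (m e g r : ℕ) (D : s59l_EData 𝒪 e)
    (S : Type) [CommRing S] [IsDomain S] [IsLocalRing S] [IsNoetherianRing S]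
    [IsAdicComplete (maximalIdeal S) S] [Finite (ResidueField S)]
    (hdim : ringKrullDim 𝒪 + ((3 * m + (g + e * 3) : ℕ) : WithBot ℕ∞) ≤ ringKrullDim S)
    (R : Type) [CommRing R] [IsLocalRing R] [IsNoetherianRing R]
    [IsAdicComplete (maximalIdeal R) R]
    (R' : Type) [CommRing R'] [IsLocalRing R'] [IsNoetherianRing R']
    [IsAdicComplete (maximalIdeal R') R']
    (M : Type) [AddCommGroup M] [Module R M] [Module.Finite R M]
    (M' : Type) [AddCommGroup M'] [Module R' M'] [Module.Finite R' M'] [Nontrivial M']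
    (𝔞 : Ideal S) [𝔞.IsPrime] (J : ℕ → Ideal S) (hJ : ∀ n, J n ≤ maximalIdeal S ^ n)
    (L : ∀ n, s59p_Level S (MvPowerSeries (Fin r) (s59l_FlatE 𝒪 m e g)) R M 𝔞 (J n))
    (L' : ∀ n, s59p_Level S (MvPowerSeries (Fin r) (s59l_FlatE 𝒪 m e g)) R' M' 𝔞 (J n))
    (d d' : ℕ) (hd : ∀ n, (L n).d = d) (hd' : ∀ n, (L' n).d = d')
    (hW : ∀ n, s59p_WCong (C (C ϖ) : MvPowerSeries (Fin r) (s59l_FlatE 𝒪 m e g)) (C (C ϖ))
      (RingEquiv.refl _) (L n) (L' n))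
    -- the type-1 side: the rings through which `A″` acts, and the framed matrices at `B`
    (Cn : ℕ → Type) [∀ n, CommRing (Cn n)]
    (q : ∀ n, MvPowerSeries (Fin r) (s59l_FlatE 𝒪 m e g) →+* Cn n)
    (hq : ∀ n a, q n a = 0 →
      a ∈ Module.annihilator (MvPowerSeries (Fin r) (s59l_FlatE 𝒪 m e g)) (L n).N)
    (u : Fin m → 𝒪) (hu : ∀ j, u j - 1 ∈ maximalIdeal 𝒪) (a : Fin m → s59l_FlatE 𝒪 m e g)
    (ha : ∀ j, a j ^ 2 = C (u j) + (s59l_WB j 0 ^ 2 + s59l_WB j 1 * s59l_WB j 2))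
    (Sg Ph : ∀ n, Fin m → Matrix (Fin 2) (Fin 2) (Cn n))
    (hV : ∀ n j k, q n (C (s59l_VB j k)) = s59i_tl (q n (C (C D.i2))) (Sg n j) k)
    (hWc : ∀ n j k, q n (C (s59l_WB j k)) = s59i_tl (q n (C (C D.i2))) (Ph n j) k)
    (hac : ∀ n j, q n (C (a j)) = s59i_ht (q n (C (C D.i2))) (Ph n j))
    (h1 : ∀ n j, (Sg n j - 1) * (Sg n j - 1) = 0) (htr : ∀ n j, (Sg n j).trace = 2)
    (htame : ∀ n j, Ph n j * (Sg n j - 1) = q n (C (C (u j))) • ((Sg n j - 1) * Ph n j))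
    -- the χ-side
    {ι : Type} [Fintype ι] (θ : ι → Fin m → 𝒪) (hθ : ∀ i j, s59l_Hyp (θ i j))
    (hχ : ∀ n, ∀ F ∈ (Finset.univ.inf fun p : ι × (Fin e → Bool) =>
        s59l_KKE D (θ p.1) (hθ p.1) g p.2),
      (C F : MvPowerSeries (Fin r) (s59l_FlatE 𝒪 m e g)) ∈
        Module.annihilator (MvPowerSeries (Fin r) (s59l_FlatE 𝒪 m e g)) (L' n).N)
    (hs : ∀ n i, ∃ t ∈ maximalIdeal (s59l_FlatE 𝒪 m e g),
      (X i : MvPowerSeries (Fin r) (s59l_FlatE 𝒪 m e g)) ^ 2 - C t ∈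
        Module.annihilator (MvPowerSeries (Fin r) (s59l_FlatE 𝒪 m e g)) (L' n).N)
    -- the conclusion
    (𝔲 : Ideal R) (hc : ∀ n, 𝔲 ≤ Ideal.span
      (Set.range fun p : Fin m × Fin 3 => (L n).ψ (C (s59l_VB p.1 p.2))))
    (κ : S →+* R) (hκ : ∀ n s, (L n).ψ ((L n).φ s) = κ s) :
    ∃ 𝔭 : Ideal R, 𝔭.IsPrime ∧ Module.annihilator R M ≤ 𝔭 ∧ 𝔲 ≤ 𝔭 ∧
      Ideal.comap κ 𝔭 = 𝔞 := by
  choose t' ht'm ht' using hs
  have hi2 : ∀ n, (2 : Cn n) * q n (C (C D.i2)) = 1 := fun n => by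
    rw [← map_ofNat (q n) 2, ← map_ofNat (C (σ := Fin r) (R := s59l_FlatE 𝒪 m e g)) 2,
      ← map_ofNat (C (σ := s59l_IdxE m e g) (R := 𝒪)) 2, ← map_mul, ← map_mul, ← map_mul, D.hi2,
      map_one, map_one, map_one]
  refine s59l_IA_sq_ideal ϖ hϖ m e g r D S hdim R R' M M' 𝔞 J hJ L L' d d' hd hd' hW θ hθ hχ
    t' ht'm ht' u hu a ha (fun n j => hq n _ ?_) (fun n j => hq n _ ?_) (fun n j => hq n _ ?_)
    𝔲 hc κ hκ
  · have := s59i_r0_of_unip (q n (C (C D.i2))) (hi2 n) (Sg n j) (h1 n j) (htr n j)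
    rw [← hV, ← hV, ← hV] at this
    rw [← this]
    simp only [s59l_r0, map_add, map_mul, map_pow]
  · obtain ⟨h2, -, -⟩ := s59i_r234_of_tame (q n (C (C D.i2))) (q n (C (C (u j)))) (hi2 n)
      (Sg n j) (Ph n j) (htr n j) (htame n j)
    rw [← hV, ← hV, ← hWc, ← hWc, ← hac] at h2
    rw [← h2]
    simp only [s59l_r2, map_add, map_mul, map_sub, map_one]
  · obtain ⟨-, h3, -⟩ := s59i_r234_of_tame (q n (C (C D.i2))) (q n (C (C (u j)))) (hi2 n)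
      (Sg n j) (Ph n j) (htr n j) (htame n j)
    rw [← hV, ← hV, ← hWc, ← hWc, ← hac] at h3
    rw [← h3]
    simp only [s59l_r3, map_add, map_mul, map_sub, map_one]

end Fermat.Agent.Lib.S59
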