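/-
[E] INSTANTIATION, ring half (helper4, prefix `s59i_`), part 6: THE MIDDLE THEOREM = the interface
between the three suppliers.
  * MODULE HALF (helper8): levels `L0 n`, `L0' n` over the acting ring `𝕌 n` (= `T_n⟦z⟧`, `T_n` the ONE
    Hecke ring acting on `M¹_n ⊕ M^χ_n`), `S = 𝒪⟦s_1..s_r⟧⟦z_σ⟧`, both with structure map `std n`,
    weakly congruent mod `ϖ` over `𝕌 n` (from `s59p_Cong` by `s59p_congW`);
  * BRIDGE (helper6): `γ n : 𝒫^E →ₐ[𝒪] 𝕌 n`, lifts of the `std n (X j)`, `Θ n` onto;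
  * RELATIONS (B7/C8): through ring maps `p n : 𝕌 n → Cn n` (type 1), `p' n : 𝕌 n → Cn' n` (type χ)
    which factor the actions on `N_n`, `N'_n`: matrix identities at `B` (type 1), the kill
    property of `p' n ∘ γ n` (`s59i_kill_ps`/`s59i_RelE_of_matrices`) and `(p' s_i)² ∈ p'(γ 𝔪)`.
Everything about `A″ = 𝒫^E⟦s⟧`, `Θ n`, `φ n`, the restriction and `hdim` is done here.
-/
import Mathlib
import Fermat.Agent.Lib.S59.LInst

set_option autoImplicit false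
set_option linter.unusedSectionVars false
set_option linter.unusedVariables false
set_option linter.style.haveILetI false
set_option maxHeartbeats 1600000

noncomputable section

namespace Fermat.Agent.Lib.S59

open IsLocalRing MvPowerSeries Fermat.Agent.Lib.Deform

variable {𝒪 : Type} [CommRing 𝒪] [IsLocalRing 𝒪] [IsNoetherianRing 𝒪] [IsDomain 𝒪]
  [IsAdicComplete (maximalIdeal 𝒪) 𝒪] [Finite (ResidueField 𝒪)]

/-- **[E] the middle theorem.** -/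
theorem s59i_IA_mid
    (ϖ : 𝒪) (hϖ : ϖ ∈ maximalIdeal 𝒪) (m e g r : ℕ) (D : s59l_EData 𝒪 e)
    {σ : Type} [Fintype σ] (hcount : 3 * m + (g + e * 3) ≤ r + Fintype.card σ)
    (R : Type) [CommRing R] [IsLocalRing R] [IsNoetherianRing R]
    [IsAdicComplete (maximalIdeal R) R]
    (R' : Type) [CommRing R'] [IsLocalRing R'] [IsNoetherianRing R']
    [IsAdicComplete (maximalIdeal R') R']
    (M : Type) [AddCommGroup M] [Module R M] [Module.Finite R M]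
    (M' : Type) [AddCommGroup M'] [Module R' M'] [Module.Finite R' M'] [Nontrivial M']
    (𝔞 : Ideal (MvPowerSeries σ (MvPowerSeries (Fin r) 𝒪))) [𝔞.IsPrime]
    (J : ℕ → Ideal (MvPowerSeries σ (MvPowerSeries (Fin r) 𝒪)))
    (hJ : ∀ n, J n ≤ maximalIdeal (MvPowerSeries σ (MvPowerSeries (Fin r) 𝒪)) ^ n)
    -- the module half
    (𝕌 : ℕ → Type) [∀ n, CommRing (𝕌 n)] [∀ n, IsLocalRing (𝕌 n)]
    [∀ n, IsAdicComplete (maximalIdeal (𝕌 n)) (𝕌 n)] [∀ n, Algebra 𝒪 (𝕌 n)]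
    (L0 : ∀ n, s59p_Level (MvPowerSeries σ (MvPowerSeries (Fin r) 𝒪)) (𝕌 n) R M 𝔞 (J n))
    (L0' : ∀ n, s59p_Level (MvPowerSeries σ (MvPowerSeries (Fin r) 𝒪)) (𝕌 n) R' M' 𝔞 (J n))
    (d d' : ℕ) (hd : ∀ n, (L0 n).d = d) (hd' : ∀ n, (L0' n).d = d')
    (std : ∀ n, MvPowerSeries σ (MvPowerSeries (Fin r) 𝒪) →ₐ[𝒪] 𝕌 n)
    (hstd : ∀ n x, (L0 n).φ x = std n x) (hstd' : ∀ n x, (L0' n).φ x = std n x)
    (hW0 : ∀ n, s59p_WCong (algebraMap 𝒪 (𝕌 n) ϖ) (algebraMap 𝒪 (𝕌 n) ϖ) (RingEquiv.refl _)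
      (L0 n) (L0' n))
    -- the bridge
    (γ : ∀ n, s59l_FlatE 𝒪 m e g →ₐ[𝒪] 𝕌 n) (s : ∀ n, Fin r → 𝕌 n)
    (hsm : ∀ n i, s n i ∈ maximalIdeal (𝕌 n))
    (hstdX : ∀ n i, std n (C (X i)) = s n i) (hstdm : ∀ n j, std n (X j) ∈ maximalIdeal (𝕌 n))
    (hz : ∀ n j, ∃ z ∈ maximalIdeal (s59l_FlatE 𝒪 m e g), γ n z = std n (X j))
    (hΘ : ∀ n, Function.Surjective
      (s59i_Theta (γ n : s59l_FlatE 𝒪 m e g →+* 𝕌 n) (s n) (hsm n)))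
    -- the relations, type 1
    (Cn : ℕ → Type) [∀ n, CommRing (Cn n)] (p : ∀ n, 𝕌 n →+* Cn n)
    (hp : ∀ n x, p n x = 0 → x ∈ Module.annihilator (𝕌 n) (L0 n).N)
    (u : Fin m → 𝒪) (hu : ∀ j, u j - 1 ∈ maximalIdeal 𝒪) (a : Fin m → s59l_FlatE 𝒪 m e g)
    (ha : ∀ j, a j ^ 2 = C (u j) + (s59l_WB j 0 ^ 2 + s59l_WB j 1 * s59l_WB j 2))
    (Sg Ph : ∀ n, Fin m → Matrix (Fin 2) (Fin 2) (Cn n))
    (hV : ∀ n j k, p n (γ n (s59l_VB j k)) =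
      s59i_tl (p n (algebraMap 𝒪 (𝕌 n) D.i2)) (Sg n j) k)
    (hWc : ∀ n j k, p n (γ n (s59l_WB j k)) =
      s59i_tl (p n (algebraMap 𝒪 (𝕌 n) D.i2)) (Ph n j) k)
    (hac : ∀ n j, p n (γ n (a j)) = s59i_ht (p n (algebraMap 𝒪 (𝕌 n) D.i2)) (Ph n j))
    (h1 : ∀ n j, (Sg n j - 1) * (Sg n j - 1) = 0) (htr : ∀ n j, (Sg n j).trace = 2)
    (htame : ∀ n j, Ph n j * (Sg n j - 1) =
      p n (algebraMap 𝒪 (𝕌 n) (u j)) • ((Sg n j - 1) * Ph n j))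
    -- the relations, type χ
    (Cn' : ℕ → Type) [∀ n, CommRing (Cn' n)] (p' : ∀ n, 𝕌 n →+* Cn' n)
    (hp' : ∀ n x, p' n x = 0 → x ∈ Module.annihilator (𝕌 n) (L0' n).N)
    {ι : Type} [Fintype ι] (θ : ι → Fin m → 𝒪) (hθ : ∀ i j, s59l_Hyp (θ i j))
    (hker : ∀ n, (Finset.univ.inf fun pr : ι × (Fin e → Bool) =>
        s59l_KKE D (θ pr.1) (hθ pr.1) g pr.2) ≤
      RingHom.ker ((p' n).comp (γ n : s59l_FlatE 𝒪 m e g →+* 𝕌 n)))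
    (hs2 : ∀ n i, ∃ t ∈ maximalIdeal (s59l_FlatE 𝒪 m e g), p' n (s n i) ^ 2 = p' n (γ n t))
    -- the conclusion
    (𝔲 : Ideal R) (hc : ∀ n, 𝔲 ≤ Ideal.span
      (Set.range fun pr : Fin m × Fin 3 => (L0 n).ψ (γ n (s59l_VB pr.1 pr.2))))
    (κ : MvPowerSeries σ (MvPowerSeries (Fin r) 𝒪) →+* R)
    (hκ : ∀ n x, (L0 n).ψ ((L0 n).φ x) = κ x) :
    ∃ 𝔭 : Ideal R, 𝔭.IsPrime ∧ Module.annihilator R M ≤ 𝔭 ∧ 𝔲 ≤ 𝔭 ∧
      Ideal.comap κ 𝔭 = 𝔞 := by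
  classical
  haveI : IsDomain (MvPowerSeries σ (MvPowerSeries (Fin r) 𝒪)) := NoZeroDivisors.to_isDomain _
  -- the maps `Θ n`, `φ n`
  set Θ : ∀ n, MvPowerSeries (Fin r) (s59l_FlatE 𝒪 m e g) →+* 𝕌 n := fun n =>
    s59i_Theta (γ n : s59l_FlatE 𝒪 m e g →+* 𝕌 n) (s n) (hsm n) with hΘdef
  have hΘC : ∀ n x, Θ n (C x) = γ n x := fun n x => s59i_Theta_C _ (s n) (hsm n) x
  have hΘX : ∀ n i, Θ n (X i) = s n i := fun n i => s59i_Theta_X _ (s n) (hsm n) i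
  have hΘ𝒪 : ∀ n (o : 𝒪), Θ n (C (C o)) = algebraMap 𝒪 (𝕌 n) o := fun n o => by
    rw [hΘC, s59l_algHom_C]
  choose z hzm hzγ using hz
  choose φ hφΘ hφ1 hφ2 using fun n => s59i_phi_exists (γ n) (s n) (hsm n) (std n) (hstdX n)
    (hstdm n) (z n) (hzm n) (hzγ n)
  have hφ0 : ∀ n x, Θ n (φ n x) = (L0 n).φ x := fun n x => (hφΘ n x).trans (hstd n x).symm
  have hφ0' : ∀ n x, Θ n (φ n x) = (L0' n).φ x := fun n x => (hφΘ n x).trans (hstd' n x).symm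
  have hψs : ∀ n, Function.Surjective ((L0 n).ψ.comp (Θ n)) := fun n =>
    (L0 n).ψ_surjective.comp (hΘ n)
  have hψs' : ∀ n, Function.Surjective ((L0' n).ψ.comp (Θ n)) := fun n =>
    (L0' n).ψ_surjective.comp (hΘ n)
  -- the restricted levels
  set L : ∀ n, s59p_Level (MvPowerSeries σ (MvPowerSeries (Fin r) 𝒪))
      (MvPowerSeries (Fin r) (s59l_FlatE 𝒪 m e g)) R M 𝔞 (J n) := fun n =>
    s59i_restrict (L0 n) (Θ n) (φ n) (hφ0 n) (hψs n) with hL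
  set L' : ∀ n, s59p_Level (MvPowerSeries σ (MvPowerSeries (Fin r) 𝒪))
      (MvPowerSeries (Fin r) (s59l_FlatE 𝒪 m e g)) R' M' 𝔞 (J n) := fun n =>
    s59i_restrict (L0' n) (Θ n) (φ n) (hφ0' n) (hψs' n) with hL'
  have hW : ∀ n, s59p_WCong (C (C ϖ) : MvPowerSeries (Fin r) (s59l_FlatE 𝒪 m e g)) (C (C ϖ))
      (RingEquiv.refl _) (L n) (L' n) := by
    intro n
    refine s59i_restrict_wcong (L0 n) (L0' n) (Θ n) (hΘ n) (φ n) (φ n) (hφ0 n) (hφ0' n) (hψs n)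
      (hψs' n) (C (C ϖ)) ?_
    rw [hΘ𝒪]
    exact hW0 n
  refine s59i_IA_inst ϖ hϖ m e g r D (MvPowerSeries σ (MvPowerSeries (Fin r) 𝒪))
    (s59i_hdim' 𝒪 m e g r σ hcount) R R' M M' 𝔞 J hJ L L' d d' hd hd' hW
    Cn (fun n => (p n).comp (Θ n))
    (fun n x hx => s59i_restrict_ann (L0 n) (Θ n) (φ n) (hφ0 n) (hψs n) x (hp n _ hx))
    u hu a ha Sg Ph ?_ ?_ ?_ h1 htr ?_ θ hθ ?_ ?_ 𝔲 ?_ κ ?_
  · intro n j k
    rw [RingHom.comp_apply, RingHom.comp_apply, hΘC, hΘ𝒪]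
    exact hV n j k
  · intro n j k
    rw [RingHom.comp_apply, RingHom.comp_apply, hΘC, hΘ𝒪]
    exact hWc n j k
  · intro n j
    rw [RingHom.comp_apply, RingHom.comp_apply, hΘC, hΘ𝒪]
    exact hac n j
  · intro n j
    rw [RingHom.comp_apply, hΘ𝒪]
    exact htame n j
  · intro n
    refine s59i_hχ_of_ker _ ((p' n).comp (Θ n))
      (fun x hx => s59i_restrict_ann (L0' n) (Θ n) (φ n) (hφ0' n) (hψs' n) x (hp' n _ hx)) ?_
    intro F hF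
    have := hker n hF
    rw [RingHom.mem_ker, RingHom.comp_apply] at this ⊢
    show (p' n) ((Θ n) (C F)) = 0
    rw [hΘC]
    exact this
  · intro n i
    obtain ⟨t, htm, ht⟩ := hs2 n i
    refine ⟨t, htm, s59i_restrict_ann (L0' n) (Θ n) (φ n) (hφ0' n) (hψs' n) _ (hp' n _ ?_)⟩
    rw [map_sub, map_pow, hΘX, hΘC, map_sub, map_pow, ht, sub_self]
  · intro n
    refine (hc n).trans (Ideal.span_mono ?_)
    rintro _ ⟨pr, rfl⟩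
    refine ⟨pr, ?_⟩
    show (L0 n).ψ (Θ n (C (s59l_VB pr.1 pr.2))) = _
    rw [hΘC]
  · intro n x
    show (L0 n).ψ (Θ n (φ n x)) = κ x
    rw [hφ0, hκ]

end Fermat.Agent.Lib.S59
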