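/-
[E] FINAL ASSEMBLY (helper4, prefix `s59i_`), FIN-A1, part 1: THE FRAMED MATRICES AND THE TYPE-`χ` RELATIONS AT A
CHARACTERISTIC-ZERO PRIME.
`T′` a complete noetherian local `𝒪`-algebra (the trace ring at one level), `ρm : G →* M₂(T′)` the
matrices of the Galois representation in a basis, frames `U t`, `U′ t` (`U′ U = 1`) over `T′⟦z⟧`,
`γ′ : 𝒫^E → T′⟦z⟧` with the bridge equations (helper6).  For a prime `𝔮` of `T′` of characteristic
zero at which `tr ρm(σ_j) = ζ_j + ζ_j⁻¹`, `det ρm(σ_j) = 1`, the composite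
`𝒫^E → (T′/𝔮)⟦z⟧` satisfies `s59l_RelE D θ` with `θ_j = (ζ_j − ζ_j⁻¹)/2`.  The tame relations,
`det ρm(φ) = q` and the residual conditions are hypotheses over `T′` itself.
-/
import Mathlib
import Fermat.Agent.Lib.S59.LFinA0
import Fermat.Agent.Lib.S59.LInstMid
import Fermat.Agent.Lib.S59.LInstU
import Fermat.Agent.Lib.S59.LFinT

set_option autoImplicit false
set_option linter.unusedSectionVars false
set_option linter.unusedVariables false
set_option linter.style.haveILetI false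
set_option maxHeartbeats 1600000

noncomputable section

namespace Fermat.Agent.Lib.S59

open IsLocalRing MvPowerSeries

section Framed

variable {T' : Type} [CommRing T'] {σ : Type} {G : Type} [Monoid G] {ι : Type}
  (ρm : G →* Matrix (Fin 2) (Fin 2) T')
  (U U' : ι → Matrix (Fin 2) (Fin 2) (MvPowerSeries σ T'))

/-- the framed matrix `U′_t · C(ρ(x)) · U_t`. -/
def s59i_Fm (t : ι) (x : G) : Matrix (Fin 2) (Fin 2) (MvPowerSeries σ T') :=
  U' t * (ρm x).map (C : T' →+* MvPowerSeries σ T') * U t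

theorem s59i_Fm_map {T₂ : Type} [CommRing T₂] (f : T' →+* T₂) (t : ι) (x : G) :
    (s59i_Fm ρm U U' t x).map (MvPowerSeries.map f) =
      (U' t).map (MvPowerSeries.map f) *
        ((ρm x).map f).map (C : T₂ →+* MvPowerSeries σ T₂) * (U t).map (MvPowerSeries.map f) := by
  rw [s59i_Fm, Matrix.map_mul, Matrix.map_mul, Matrix.map_map, Matrix.map_map]
  congr 2
  ext i j : 1
  simp only [Matrix.map_apply, Function.comp_apply, MvPowerSeries.map_C]

theorem s59i_frame_map {T₂ : Type} [CommRing T₂] (f : T' →+* T₂) (hU : ∀ t, U' t * U t = 1)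
    (t : ι) : (U' t).map (MvPowerSeries.map (σ := σ) f) * (U t).map (MvPowerSeries.map f) = 1 := by
  rw [← Matrix.map_mul, hU, Matrix.map_one _ (map_zero _) (map_one _)]

end Framed

section Bridge

variable {𝒪 : Type} [CommRing 𝒪] {m e g : ℕ} (D : s59l_EData 𝒪 e)
  {T' : Type} [CommRing T'] [Algebra 𝒪 T'] {σ : Type} {G : Type} [Monoid G]
  (ρm : G →* Matrix (Fin 2) (Fin 2) T')
  (U U' : Fin m ⊕ Fin e → Matrix (Fin 2) (Fin 2) (MvPowerSeries σ T'))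

/-- **the bridge equations** (the output of helper6's `s59q_inst_flat/ord`). -/
def s59i_BridgeEqs (γ' : s59l_FlatE 𝒪 m e g →ₐ[𝒪] MvPowerSeries σ T')
    (σB φB : Fin m → G) (σE φE : Fin e → G) : Prop :=
  (∀ j k, γ' (s59l_VB j k) = s59i_tl (algebraMap 𝒪 (MvPowerSeries σ T') D.i2)
    (s59i_Fm ρm U U' (Sum.inl j) (σB j)) k) ∧
  (∀ j k, γ' (s59l_WB j k) = s59i_tl (algebraMap 𝒪 (MvPowerSeries σ T') D.i2)
    (s59i_Fm ρm U U' (Sum.inl j) (φB j)) k) ∧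
  (∀ l k, γ' (s59l_VE l k) = s59i_tl (algebraMap 𝒪 (MvPowerSeries σ T') D.i2)
    (s59i_Fm ρm U U' (Sum.inr l) (σE l)) k) ∧
  (∀ l k, γ' (s59l_WE l k) = s59i_tl (algebraMap 𝒪 (MvPowerSeries σ T') D.i2)
    (s59i_Fm ρm U U' (Sum.inr l) (φE l)) k -
      algebraMap 𝒪 (MvPowerSeries σ T') ((![D.f0 l, 0, 0] : Fin 3 → 𝒪) k))

end Bridge

section Lift

/-- a lift in the maximal ideal of a variable `X j` of the target. -/
theorem s59i_fa_hz {P : Type*} [CommRing P] [IsLocalRing P] {T' T : Type*} [CommRing T']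
    [Nontrivial T'] [CommRing T] {σ : Type*} (γ' : P →+* MvPowerSeries σ T')
    (hγ' : Function.Surjective γ') (f : T' →+* T) (j : σ) :
    ∃ z ∈ maximalIdeal P, MvPowerSeries.map f (γ' z) = X j := by
  obtain ⟨z, hz⟩ := hγ' (X j)
  refine ⟨z, ?_, by rw [hz, MvPowerSeries.map_X]⟩
  rw [mem_maximalIdeal, mem_nonunits_iff]
  intro hu
  have h1 : IsUnit (X j : MvPowerSeries σ T') := hz ▸ hu.map γ'
  rw [MvPowerSeries.isUnit_iff_constantCoeff, MvPowerSeries.constantCoeff_X] at h1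
  exact not_isUnit_zero h1

/-- a surjective ring homomorphism onto a power series ring over a local ring maps the maximal
ideal into the maximal ideal. -/
theorem s59i_surj_mem {P : Type*} [CommRing P] [IsLocalRing P] {C : Type*} [CommRing C]
    [IsLocalRing C] (f : P →+* C) (hf : Function.Surjective f) (x : P)
    (hx : x ∈ maximalIdeal P) : f x ∈ maximalIdeal C := by
  haveI : IsLocalHom f := IsLocalHom.of_surjective f hf
  exact map_nonunit f x hx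

end Lift

section MapLocal

variable {T' K : Type*} [CommRing T'] [IsLocalRing T'] [CommRing K] [IsLocalRing K] {σ : Type*}

theorem s59i_mem_maximalIdeal_iff_constantCoeff (y : MvPowerSeries σ T') :
    y ∈ maximalIdeal (MvPowerSeries σ T') ↔ constantCoeff y ∈ maximalIdeal T' := by
  rw [mem_maximalIdeal, mem_nonunits_iff, MvPowerSeries.isUnit_iff_constantCoeff, mem_maximalIdeal,
    mem_nonunits_iff]

theorem s59i_map_mem_maximalIdeal (f : T' →+* K) (hf : ∀ x ∈ maximalIdeal T', f x ∈ maximalIdeal K)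
    (y : MvPowerSeries σ T') (hy : y ∈ maximalIdeal (MvPowerSeries σ T')) :
    MvPowerSeries.map f y ∈ maximalIdeal (MvPowerSeries σ K) := by
  rw [s59i_mem_maximalIdeal_iff_constantCoeff] at hy ⊢
  rw [MvPowerSeries.constantCoeff_map]
  exact hf _ hy

end MapLocal

section RelAtPrime

variable {𝒪 : Type} [CommRing 𝒪] [IsLocalRing 𝒪] [IsNoetherianRing 𝒪] [IsDomain 𝒪]
  [IsAdicComplete (maximalIdeal 𝒪) 𝒪] [Finite (ResidueField 𝒪)]
variable {m e g : ℕ} (D : s59l_EData 𝒪 e) {σ : Type} [Finite σ]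
variable {T' : Type} [CommRing T'] [IsLocalRing T'] [Algebra 𝒪 T']
variable {G : Type} [Monoid G] (ρm : G →* Matrix (Fin 2) (Fin 2) T')
  (U U' : Fin m ⊕ Fin e → Matrix (Fin 2) (Fin 2) (MvPowerSeries σ T'))
  (hU : ∀ t, U' t * U t = 1)
  (γ' : s59l_FlatE 𝒪 m e g →ₐ[𝒪] MvPowerSeries σ T') (hγ' : Function.Surjective γ')
  (σB φB : Fin m → G) (σE φE : Fin e → G)
  (hB : s59i_BridgeEqs D ρm U U' γ' σB φB σE φE)

include hU hγ' hB in
/-- **the type-`χ` relations at a characteristic-zero prime of the trace ring.** -/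
theorem s59i_fa_relE
    (hloc𝒪 : ∀ t ∈ maximalIdeal 𝒪, algebraMap 𝒪 T' t ∈ maximalIdeal T')
    (qB : Fin m → ℕ) (qE : Fin e → ℕ) (hDu : ∀ l, D.u l = ((qE l : ℕ) : 𝒪))
    (htameB : ∀ j, ρm (φB j) * ρm (σB j) = ρm (σB j) ^ qB j * ρm (φB j))
    (htameE : ∀ l, ρm (φE l) * ρm (σE l) = ρm (σE l) ^ qE l * ρm (φE l))
    (hdetE : ∀ l, (ρm (φE l)).det = ((qE l : ℕ) : T'))
    (hresAE : ∀ l a b, (ρm (σE l) - 1) a b ∈ maximalIdeal T')
    (hresE : ∀ l, algebraMap 𝒪 T' D.i2 * (ρm (φE l)).trace - algebraMap 𝒪 T' (D.a0 l) ∈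
      maximalIdeal T')
    (𝔮 : Ideal T') [h𝔮 : 𝔮.IsPrime] [IsLocalRing (T' ⧸ 𝔮)]
    (hchar : ∀ o : 𝒪, o ≠ 0 → algebraMap 𝒪 T' o ∉ 𝔮)
    (ζ ζ' : Fin m → 𝒪) (hζ : ∀ j, ζ j * ζ' j = 1) (hζq : ∀ j, ζ j ^ qB j = ζ j)
    (hζne : ∀ j, ζ j ≠ ζ' j)
    (htr : ∀ j, (ρm (σB j)).trace - algebraMap 𝒪 T' (ζ j + ζ' j) ∈ 𝔮)
    (hdet : ∀ j, (ρm (σB j)).det - 1 ∈ 𝔮) :
    s59l_RelE D (fun j => D.i2 * (ζ j - ζ' j))
      ((MvPowerSeries.mapAlgHom (σ := σ) (Ideal.Quotient.mkₐ 𝒪 𝔮)).comp γ') := by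
  classical
  haveI : IsDomain (T' ⧸ 𝔮) := Ideal.Quotient.isDomain 𝔮
  haveI : IsDomain (MvPowerSeries σ (T' ⧸ 𝔮)) := NoZeroDivisors.to_isDomain _
  set f : T' →+* T' ⧸ 𝔮 := Ideal.Quotient.mk 𝔮 with hf
  set F : MvPowerSeries σ T' →+* MvPowerSeries σ (T' ⧸ 𝔮) := MvPowerSeries.map f with hF
  set φ : s59l_FlatE 𝒪 m e g →ₐ[𝒪] MvPowerSeries σ (T' ⧸ 𝔮) :=
    (MvPowerSeries.mapAlgHom (σ := σ) (Ideal.Quotient.mkₐ 𝒪 𝔮)).comp γ' with hφ
  have hφF : ∀ x, φ x = F (γ' x) := fun x => rfl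
  -- `F` on constants of `𝒪`
  have hF𝒪 : ∀ o : 𝒪, F (algebraMap 𝒪 (MvPowerSeries σ T') o) =
      algebraMap 𝒪 (MvPowerSeries σ (T' ⧸ 𝔮)) o := fun o =>
    (MvPowerSeries.mapAlgHom (σ := σ) (Ideal.Quotient.mkₐ 𝒪 𝔮)).commutes o
  have hCf𝒪 : ∀ o : 𝒪, (C (f (algebraMap 𝒪 T' o)) : MvPowerSeries σ (T' ⧸ 𝔮)) =
      algebraMap 𝒪 (MvPowerSeries σ (T' ⧸ 𝔮)) o := fun o => by
    rw [MvPowerSeries.algebraMap_apply, hf, Ideal.Quotient.mk_algebraMap]
  -- locality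
  have hfloc : ∀ x ∈ maximalIdeal T', f x ∈ maximalIdeal (T' ⧸ 𝔮) := fun x hx =>
    s59i_surj_mem f Ideal.Quotient.mk_surjective x hx
  have hCfloc : ∀ x ∈ maximalIdeal T', (C (f x) : MvPowerSeries σ (T' ⧸ 𝔮)) ∈
      maximalIdeal (MvPowerSeries σ (T' ⧸ 𝔮)) := fun x hx =>
    s59i_C_mem_maximalIdeal _ (hfloc x hx)
  -- nonzero constants are regular
  have hreg : ∀ o : 𝒪, o ≠ 0 → ∀ x : MvPowerSeries σ (T' ⧸ 𝔮),
      algebraMap 𝒪 (MvPowerSeries σ (T' ⧸ 𝔮)) o * x = 0 → x = 0 := by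
    intro o ho x hx
    have hne : algebraMap 𝒪 (MvPowerSeries σ (T' ⧸ 𝔮)) o ≠ 0 := by
      rw [← hCf𝒪]
      intro h0
      have h1 := congrArg (constantCoeff (σ := σ) (R := T' ⧸ 𝔮)) h0
      rw [constantCoeff_C, map_zero, hf, Ideal.Quotient.eq_zero_iff_mem] at h1
      exact hchar o ho h1
    exact (mul_eq_zero.mp hx).resolve_left hne
  -- the framed matrices
  set Vm : Fin m ⊕ Fin e → Matrix (Fin 2) (Fin 2) (MvPowerSeries σ (T' ⧸ 𝔮)) :=
    fun t => (U t).map F with hVm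
  set Vm' : Fin m ⊕ Fin e → Matrix (Fin 2) (Fin 2) (MvPowerSeries σ (T' ⧸ 𝔮)) :=
    fun t => (U' t).map F with hVm'
  have hVV : ∀ t, Vm' t * Vm t = 1 := fun t => s59i_frame_map U U' f hU t
  set cm : G → Matrix (Fin 2) (Fin 2) (MvPowerSeries σ (T' ⧸ 𝔮)) :=
    fun x => ((ρm x).map f).map (C : (T' ⧸ 𝔮) →+* MvPowerSeries σ (T' ⧸ 𝔮)) with hcm
  have hFm : ∀ t x, (s59i_Fm ρm U U' t x).map F = Vm' t * cm x * Vm t := fun t x =>
    s59i_Fm_map ρm U U' f t x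
  have hcm_mul : ∀ x y, cm x * cm y = cm (x * y) := fun x y => by
    simp only [hcm]
    rw [map_mul, Matrix.map_mul, Matrix.map_mul]
  have hcm_pow : ∀ x k, cm x ^ k = cm (x ^ k) := fun x k => by
    simp only [hcm]
    rw [map_pow, s59i_map_pow', s59i_map_pow']
  have hcm_tr : ∀ x, (cm x).trace = C (f (ρm x).trace) := fun x => by
    simp only [hcm]
    rw [s59i_mapC_trace, s59i_map_trace']
  have hcm_det : ∀ x, (cm x).det = C (f (ρm x).det) := fun x => by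
    simp only [hcm]
    rw [s59i_mapC_det, s59i_map_det']
  have hi2 : (2 : MvPowerSeries σ (T' ⧸ 𝔮)) * algebraMap 𝒪 _ D.i2 = 1 := by
    rw [← map_ofNat (algebraMap 𝒪 (MvPowerSeries σ (T' ⧸ 𝔮))) 2, ← map_mul, D.hi2, map_one]
  -- tame relations for the constant matrices
  have htB : ∀ j, cm (φB j) * cm (σB j) = cm (σB j) ^ qB j * cm (φB j) := fun j => by
    rw [hcm_pow, hcm_mul, hcm_mul]
    simp only [hcm]
    rw [map_mul, map_mul, map_pow, htameB j]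
  have htE : ∀ l, cm (φE l) * cm (σE l) = cm (σE l) ^ qE l * cm (φE l) := fun l => by
    rw [hcm_pow, hcm_mul, hcm_mul]
    simp only [hcm]
    rw [map_mul, map_mul, map_pow, htameE l]
  -- unipotence at `E` over `T'`
  have hunipE : ∀ l, (ρm (σE l)).det = 1 ∧ (ρm (σE l)).trace = 2 := by
    intro l
    have hq𝒪 : algebraMap 𝒪 T' (D.u l) = ((qE l : ℕ) : T') := by rw [hDu, map_natCast]
    have hdu : IsUnit (ρm (φE l)).det := by
      rw [hdetE, ← hq𝒪]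
      exact (D.hu0 l).map _
    have hinv : (ρm (φE l))⁻¹ * ρm (φE l) = 1 := Matrix.nonsing_inv_mul _ hdu
    have hℓ : IsUnit ((((qE l : ℕ) : T')) ^ 2 - 1) := by
      have e : (((qE l : ℕ) : T')) ^ 2 - 1 = algebraMap 𝒪 T' (-((1 - D.u l) * (1 + D.u l))) := by
        rw [map_neg, map_mul, map_sub, map_add, map_one, hq𝒪]
        ring
      rw [e]
      exact (((D.hu1 l).mul (D.hu2 l)).neg).map _
    obtain ⟨h1, h2, -⟩ := s59i_unip_of_tame (ρm (σE l)) (ρm (φE l)) (ρm (φE l))⁻¹ hinv (qE l) hℓ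
      (htameE l) (hresAE l)
    exact ⟨h1, h2⟩
  refine s59i_RelE_of_matrices D _ φ ?_ ?_
    (fun j => (s59i_Fm ρm U U' (Sum.inl j) (σB j)).map F)
    (fun j => (s59i_Fm ρm U U' (Sum.inl j) (φB j)).map F)
    (fun l => (s59i_Fm ρm U U' (Sum.inr l) (σE l)).map F)
    (fun l => (s59i_Fm ρm U U' (Sum.inr l) (φE l)).map F) ?_ ?_ ?_ ?_
    (fun j => ζ j + ζ' j) ?_ ?_ ?_ ?_ ?_ ?_ ?_ ?_ ?_ ?_
  · -- loc
    intro t ht
    rw [← hCf𝒪]
    exact hCfloc _ (hloc𝒪 t ht)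
  · -- mem
    intro s
    rw [hφF]
    refine s59i_map_mem_maximalIdeal f hfloc _ ?_
    refine s59i_surj_mem (γ' : s59l_FlatE 𝒪 m e g →+* MvPowerSeries σ T') hγ' _ ?_
    rw [s59i_mem_maximalIdeal_iff_constantCoeff, MvPowerSeries.constantCoeff_X]
    exact Ideal.zero_mem _
  · -- hV
    intro j k
    rw [hφF, hB.1 j k, ← hF𝒪, s59i_tl_map]
  · intro j k
    rw [hφF, hB.2.1 j k, ← hF𝒪, s59i_tl_map]
  · intro l k
    rw [hφF, hB.2.2.1 l k, ← hF𝒪, s59i_tl_map]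
  · intro l k
    rw [hφF, hB.2.2.2 l k, map_sub, hF𝒪, ← hF𝒪 D.i2, s59i_tl_map]
  · -- htθ
    intro j
    show (D.i2 * (ζ j + ζ' j)) ^ 2 - 1 = (D.i2 * (ζ j - ζ' j)) ^ 2
    linear_combination (4 * D.i2 ^ 2) * hζ j + (2 * D.i2 + 1) * D.hi2
  · -- htr
    intro j
    show ((s59i_Fm ρm U U' (Sum.inl j) (σB j)).map F).trace = _
    rw [hFm, s59i_conj_trace _ _ (hVV _), hcm_tr, ← hCf𝒪]
    congr 1
    rw [← sub_eq_zero, ← map_sub, hf, Ideal.Quotient.eq_zero_iff_mem]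
    exact htr j
  · -- hdet
    intro j
    show ((s59i_Fm ρm U U' (Sum.inl j) (σB j)).map F).det = 1
    rw [hFm, s59i_conj_det _ _ (hVV _), hcm_det]
    have : f (ρm (σB j)).det = 1 := by
      rw [← sub_eq_zero, ← map_one f, ← map_sub, hf, Ideal.Quotient.eq_zero_iff_mem]
      exact hdet j
    rw [this, map_one]
  · -- hcomm
    intro j
    show (s59i_Fm ρm U U' (Sum.inl j) (φB j)).map F * (s59i_Fm ρm U U' (Sum.inl j) (σB j)).map F =
      (s59i_Fm ρm U U' (Sum.inl j) (σB j)).map F * (s59i_Fm ρm U U' (Sum.inl j) (φB j)).map F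
    have htr' : ((s59i_Fm ρm U U' (Sum.inl j) (σB j)).map F).trace =
        algebraMap 𝒪 (MvPowerSeries σ (T' ⧸ 𝔮)) (ζ j) +
          algebraMap 𝒪 (MvPowerSeries σ (T' ⧸ 𝔮)) (ζ' j) := by
      rw [hFm, s59i_conj_trace _ _ (hVV _), hcm_tr, ← map_add, ← hCf𝒪]
      congr 1
      rw [← sub_eq_zero, ← map_sub, hf, Ideal.Quotient.eq_zero_iff_mem]
      exact htr j
    have hdet' : ((s59i_Fm ρm U U' (Sum.inl j) (σB j)).map F).det = 1 := by
      rw [hFm, s59i_conj_det _ _ (hVV _), hcm_det]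
      have : f (ρm (σB j)).det = 1 := by
        rw [← sub_eq_zero, ← map_one f, ← map_sub, hf, Ideal.Quotient.eq_zero_iff_mem]
        exact hdet j
      rw [this, map_one]
    refine s59i_tame_chi _ _ (algebraMap 𝒪 _ (ζ j)) (algebraMap 𝒪 _ (ζ' j)) ?_ (qB j) ?_ ?_ htr'
      hdet' ?_
    · rw [← map_mul, hζ, map_one]
    · rw [← map_pow, hζq]
    · intro x hx
      rw [← map_sub, mul_comm] at hx
      exact hreg _ (sub_ne_zero.mpr (hζne j)) x hx
    · rw [hFm, hFm, s59i_conj_mul _ _ (hVV _), htB, s59i_conj_pow _ _ (hVV _),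
        s59i_conj_mul _ _ (hVV _)]
  · -- htf
    intro j x hx
    refine hreg _ ?_ x hx
    refine mul_ne_zero ?_ (sub_ne_zero.mpr (hζne j))
    intro h0
    have := D.hi2
    rw [h0, mul_zero] at this
    exact zero_ne_one this
  · -- hE1
    intro l
    show ((s59i_Fm ρm U U' (Sum.inr l) (σE l)).map F - 1) *
      ((s59i_Fm ρm U U' (Sum.inr l) (σE l)).map F - 1) = 0
    rw [hFm]
    refine (s59i_conj_type1 _ _ (hVV _) (cm (σE l)) (cm (φE l)) (qE l) ?_ ?_ (htE l)).1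
    · rw [hcm_tr, (hunipE l).2, map_ofNat, map_ofNat]
    · rw [hcm_det, (hunipE l).1, map_one, map_one]
  · -- hEtr
    intro l
    show ((s59i_Fm ρm U U' (Sum.inr l) (σE l)).map F).trace = 2
    rw [hFm, s59i_conj_trace _ _ (hVV _), hcm_tr, (hunipE l).2, map_ofNat, map_ofNat]
  · -- hEt
    intro l
    show (s59i_Fm ρm U U' (Sum.inr l) (φE l)).map F *
      ((s59i_Fm ρm U U' (Sum.inr l) (σE l)).map F - 1) = algebraMap 𝒪 _ (D.u l) •
        (((s59i_Fm ρm U U' (Sum.inr l) (σE l)).map F - 1) *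
          (s59i_Fm ρm U U' (Sum.inr l) (φE l)).map F)
    rw [hFm, hFm, hDu, map_natCast]
    refine (s59i_conj_type1 _ _ (hVV _) (cm (σE l)) (cm (φE l)) (qE l) ?_ ?_ (htE l)).2.2
    · rw [hcm_tr, (hunipE l).2, map_ofNat, map_ofNat]
    · rw [hcm_det, (hunipE l).1, map_one, map_one]
  · -- hEdet
    intro l
    show ((s59i_Fm ρm U U' (Sum.inr l) (φE l)).map F).det = algebraMap 𝒪 _ (D.u l)
    rw [hFm, s59i_conj_det _ _ (hVV _), hcm_det, hdetE, hDu, map_natCast, map_natCast, map_natCast]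
  · -- hEres
    intro l
    show s59i_ht (algebraMap 𝒪 _ D.i2) ((s59i_Fm ρm U U' (Sum.inr l) (φE l)).map F) -
      algebraMap 𝒪 _ (D.a0 l) ∈ maximalIdeal (MvPowerSeries σ (T' ⧸ 𝔮))
    rw [hFm, s59i_conj_ht _ _ (hVV _), hcm_tr, ← hCf𝒪, ← hCf𝒪, ← map_mul, ← map_sub, ← map_mul,
      ← map_sub]
    exact hCfloc _ (hresE l)

end RelAtPrime

end Fermat.Agent.Lib.S59
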