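/-
[E] INSTANTIATION, ring half (helper4, prefix `s59i_`), part 8: THE RAMIFICATION IDEAL IS DETERMINED
BY THE TRACE FUNCTION (no Carayol needed).  For `ρ : G → M₂(R)` whose image spans `M₂(R)` over `R`
(absolutely irreducible residual representation + Nakayama) and any matrix `A` (think `A = ρ(σ_q)`):
  `span (s59i_tl i2 A) = span { tr(A ρ(g)) − ½ tr A · tr ρ(g) : g ∈ G }`,
and the right-hand side only involves traces of `ρ(σ_q g)`, `ρ(σ_q)`, `ρ(g)`: it is the same for all
representations with the same trace function, in particular for the push-forwards to `R = T¹_∅` of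
the representations at the Taylor–Wiles levels `n` (whatever their bases).  This gives a
level-independent ideal `𝔲` for the hypothesis `hc` of `s59i_IA_mid`, and `𝔲 ≤ 𝔭` gives
`s59i_tl (ρ_∅(σ_q)) ⊂ 𝔭` for ANY representation `ρ_∅` over `R` with that trace.
  * `s59i_tlIdeal_eq_trace`  : the identity of ideals;
  * `s59i_span_of_residual`  : Nakayama: the span condition follows from the residual one;
  * `s59i_span_of_odd`       : the residual span condition for `ρ̄(c) = diag(1, −1)`,
                                `ρ̄(g)₀₁ ≠ 0`, `ρ̄(h)₁₀ ≠ 0` (irreducible + odd).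
-/
import Mathlib
import Fermat.Agent.Lib.S59.LInstM

set_option autoImplicit false
set_option linter.unusedSectionVars false
set_option linter.unusedVariables false
set_option linter.unusedSimpArgs false
set_option linter.unnecessarySeqFocus false

noncomputable section

namespace Fermat.Agent.Lib.S59

open IsLocalRing

section TraceIdeal

variable {G : Type*} {R : Type*} [CommRing R]

/-- the linear form `Y ↦ tr(A Y) − ½ tr A · tr Y` (= `tr(A₀ Y)`, `A₀` the traceless part). -/
def s59i_trForm (i2 : R) (A : Matrix (Fin 2) (Fin 2) R) :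
    Matrix (Fin 2) (Fin 2) R →ₗ[R] R where
  toFun Y := (A * Y).trace - i2 * A.trace * Y.trace
  map_add' Y Z := by rw [mul_add, Matrix.trace_add, Matrix.trace_add]; ring
  map_smul' r Y := by
    rw [Matrix.mul_smul, Matrix.trace_smul, Matrix.trace_smul, RingHom.id_apply, smul_eq_mul,
      smul_eq_mul]
    ring

theorem s59i_trForm_apply (i2 : R) (A Y : Matrix (Fin 2) (Fin 2) R) :
    s59i_trForm i2 A Y = (A * Y).trace - i2 * A.trace * Y.trace := rfl

/-- explicit formula in coordinates. -/
theorem s59i_trForm_eq (i2 : R) (hi2 : 2 * i2 = 1) (A Y : Matrix (Fin 2) (Fin 2) R) :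
    s59i_trForm i2 A Y = s59i_tl i2 A 0 * (Y 0 0 - Y 1 1) + s59i_tl i2 A 1 * Y 1 0 +
      s59i_tl i2 A 2 * Y 0 1 := by
  rw [s59i_trForm_apply, Matrix.trace_fin_two, Matrix.trace_fin_two, Matrix.trace_fin_two]
  simp only [Matrix.mul_apply, Fin.sum_univ_two, s59i_tl_zero, s59i_tl_one, s59i_tl_two]
  linear_combination (-(A 0 0 * Y 0 0 + A 1 1 * Y 1 1)) * hi2

/-- **the ramification ideal is a trace ideal.** -/
theorem s59i_tlIdeal_eq_trace (i2 : R) (hi2 : 2 * i2 = 1) (ρ : G → Matrix (Fin 2) (Fin 2) R)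
    (hspan : ∀ Y : Matrix (Fin 2) (Fin 2) R, Y ∈ Submodule.span R (Set.range ρ))
    (A : Matrix (Fin 2) (Fin 2) R) :
    Ideal.span (Set.range (s59i_tl i2 A)) =
      Ideal.span (Set.range fun g => (A * ρ g).trace - i2 * A.trace * (ρ g).trace) := by
  refine le_antisymm ?_ ?_
  · -- each coordinate is the value of the form at a matrix unit
    have hmap : ∀ Y : Matrix (Fin 2) (Fin 2) R, s59i_trForm i2 A Y ∈
        Ideal.span (Set.range fun g => (A * ρ g).trace - i2 * A.trace * (ρ g).trace) := by
      intro Y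
      have h1 : s59i_trForm i2 A Y ∈ (Submodule.span R (Set.range ρ)).map (s59i_trForm i2 A) :=
        Submodule.mem_map_of_mem (hspan Y)
      rw [Submodule.map_span] at h1
      refine Submodule.span_mono ?_ h1
      rintro _ ⟨_, ⟨g, rfl⟩, rfl⟩
      exact ⟨g, rfl⟩
    rw [Ideal.span_le]
    rintro _ ⟨k, rfl⟩
    fin_cases k
    · have := hmap (Matrix.of ![![1, 0], ![0, 0]])
      rw [s59i_trForm_eq i2 hi2] at this
      simpa using this
    · have := hmap (Matrix.of ![![0, 0], ![1, 0]])
      rw [s59i_trForm_eq i2 hi2] at this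
      simpa using this
    · have := hmap (Matrix.of ![![0, 1], ![0, 0]])
      rw [s59i_trForm_eq i2 hi2] at this
      simpa using this
  · rw [Ideal.span_le]
    rintro _ ⟨g, rfl⟩
    have := s59i_trForm_eq i2 hi2 A (ρ g)
    rw [s59i_trForm_apply] at this
    show (A * ρ g).trace - i2 * A.trace * (ρ g).trace ∈ _
    rw [this]
    refine Ideal.add_mem _ (Ideal.add_mem _ ?_ ?_) ?_
    · exact Ideal.mul_mem_right _ _ (Ideal.subset_span ⟨0, rfl⟩)
    · exact Ideal.mul_mem_right _ _ (Ideal.subset_span ⟨1, rfl⟩)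
    · exact Ideal.mul_mem_right _ _ (Ideal.subset_span ⟨2, rfl⟩)

end TraceIdeal

section Span

variable {G : Type*}

/-- a matrix with entries in `I` lies in `I • ⊤`. -/
theorem s59i_mem_smul_top_of_entries {R : Type*} [CommRing R] (I : Ideal R)
    (W : Matrix (Fin 2) (Fin 2) R) (hW : ∀ i j, W i j ∈ I) :
    W ∈ I • (⊤ : Submodule R (Matrix (Fin 2) (Fin 2) R)) := by
  rw [Matrix.matrix_eq_sum_single W]
  refine Submodule.sum_mem _ fun i _ => Submodule.sum_mem _ fun j _ => ?_
  have : Matrix.single i j (W i j) = W i j • Matrix.single i j (1 : R) := by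
    rw [Matrix.smul_single, smul_eq_mul, mul_one]
  rw [this]
  exact Submodule.smul_mem_smul (hW i j) Submodule.mem_top

/-- **Nakayama**: if the residual matrices span `M₂(k)`, the matrices span `M₂(R)`. -/
theorem s59i_span_of_residual {R : Type*} [CommRing R] [IsLocalRing R]
    (ρ : G → Matrix (Fin 2) (Fin 2) R)
    (hres : ∀ Y : Matrix (Fin 2) (Fin 2) (ResidueField R), Y ∈
      Submodule.span (ResidueField R) (Set.range fun g => (ρ g).map (residue R)))
    (Y : Matrix (Fin 2) (Fin 2) R) : Y ∈ Submodule.span R (Set.range ρ) := by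
  set N := Submodule.span R (Set.range ρ) with hN
  set π : Matrix (Fin 2) (Fin 2) R →ₗ[R] Matrix (Fin 2) (Fin 2) (ResidueField R) :=
    (Algebra.linearMap R (ResidueField R)).mapMatrix with hπ
  have hπapp : ∀ Z, π Z = Z.map (residue R) := fun Z => rfl
  have hsurj : Function.Surjective (algebraMap R (ResidueField R)) := residue_surjective
  have htop : (⊤ : Submodule R (Matrix (Fin 2) (Fin 2) R)) ≤ N := by
    refine Submodule.le_of_le_smul_of_le_jacobson_bot (I := maximalIdeal R) Module.Finite.fg_top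
      (maximalIdeal_le_jacobson _) ?_
    intro Z _
    have h1 : π Z ∈ Submodule.span R (Set.range fun g => (ρ g).map (residue R)) := by
      rw [← Submodule.restrictScalars_span R (ResidueField R) hsurj]
      exact hres (π Z)
    have h2 : Submodule.span R (Set.range fun g => (ρ g).map (residue R)) = N.map π := by
      rw [hN, Submodule.map_span]
      congr 1
      ext W
      constructor
      · rintro ⟨g, rfl⟩
        exact ⟨ρ g, ⟨g, rfl⟩, rfl⟩
      · rintro ⟨_, ⟨g, rfl⟩, rfl⟩
        exact ⟨g, rfl⟩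
    rw [h2] at h1
    obtain ⟨Z', hZ', hZZ'⟩ := h1
    have h3 : Z - Z' ∈ maximalIdeal R • (⊤ : Submodule R (Matrix (Fin 2) (Fin 2) R)) := by
      refine s59i_mem_smul_top_of_entries _ _ fun i j => ?_
      have := congrFun (congrFun hZZ' i) j
      rw [hπapp, hπapp, Matrix.map_apply, Matrix.map_apply] at this
      rw [Matrix.sub_apply, ← residue_eq_zero_iff, map_sub, this, sub_self]
    have e : Z = Z' + (Z - Z') := by abel
    rw [e]
    exact Submodule.add_mem_sup hZ' h3
  exact htop Submodule.mem_top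

theorem s59i_e01 {k : Type*} [Field k] (X : Matrix (Fin 2) (Fin 2) k) :
    X + !![1, 0; 0, -1] * X - X * !![1, 0; 0, -1] - !![1, 0; 0, -1] * X * !![1, 0; 0, -1] =
      (4 * X 0 1) • Matrix.single (0 : Fin 2) (1 : Fin 2) (1 : k) := by
  ext i j
  fin_cases i <;> fin_cases j <;>
    simp [Matrix.mul_apply, Fin.sum_univ_two, Matrix.single_apply, Matrix.vecMul, dotProduct] <;>
    ring

theorem s59i_e10 {k : Type*} [Field k] (X : Matrix (Fin 2) (Fin 2) k) :
    X - !![1, 0; 0, -1] * X + X * !![1, 0; 0, -1] - !![1, 0; 0, -1] * X * !![1, 0; 0, -1] =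
      (4 * X 1 0) • Matrix.single (1 : Fin 2) (0 : Fin 2) (1 : k) := by
  ext i j
  fin_cases i <;> fin_cases j <;>
    simp [Matrix.mul_apply, Fin.sum_univ_two, Matrix.single_apply, Matrix.vecMul, dotProduct] <;>
    ring

theorem s59i_e00 {k : Type*} [Field k] : (1 : Matrix (Fin 2) (Fin 2) k) + !![1, 0; 0, -1] =
      (2 : k) • Matrix.single (0 : Fin 2) (0 : Fin 2) (1 : k) := by
  ext i j
  fin_cases i <;> fin_cases j <;>
    simp [Matrix.single_apply, Matrix.one_apply] <;> ring

theorem s59i_e11 {k : Type*} [Field k] : (1 : Matrix (Fin 2) (Fin 2) k) - !![1, 0; 0, -1] =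
      (2 : k) • Matrix.single (1 : Fin 2) (1 : Fin 2) (1 : k) := by
  ext i j
  fin_cases i <;> fin_cases j <;>
    simp [Matrix.single_apply, Matrix.one_apply] <;> ring

/-- **the residual span condition** for an irreducible odd representation in a basis adapted to
complex conjugation: `ρ̄(c) = diag(1, −1)`, `ρ̄(g)₀₁ ≠ 0`, `ρ̄(h)₁₀ ≠ 0`. -/
theorem s59i_span_of_odd [Monoid G] {k : Type*} [Field k] (h2 : (2 : k) ≠ 0)
    (r : G →* Matrix (Fin 2) (Fin 2) k) (c g h : G)
    (hc : r c = !![1, 0; 0, -1]) (hg : r g 0 1 ≠ 0) (hh : r h 1 0 ≠ 0)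
    (Y : Matrix (Fin 2) (Fin 2) k) : Y ∈ Submodule.span k (Set.range r) := by
  have hmem : ∀ x : G, r x ∈ Submodule.span k (Set.range r) := fun x =>
    Submodule.subset_span ⟨x, rfl⟩
  have h4 : (4 : k) ≠ 0 := by
    have : (4 : k) = 2 * 2 := by norm_num
    rw [this]
    exact mul_ne_zero h2 h2
  have hunit : ∀ i j : Fin 2, Matrix.single i j (1 : k) ∈ Submodule.span k (Set.range r) := by
    intro i j
    fin_cases i <;> fin_cases j
    · show Matrix.single (0 : Fin 2) (0 : Fin 2) (1 : k) ∈ _
      have h : (2 : k) • Matrix.single (0 : Fin 2) (0 : Fin 2) (1 : k) ∈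
          Submodule.span k (Set.range r) := by
        rw [← s59i_e00, ← hc, ← map_one r]
        exact add_mem (hmem 1) (hmem c)
      have := Submodule.smul_mem _ (2 : k)⁻¹ h
      rwa [smul_smul, inv_mul_cancel₀ h2, one_smul] at this
    · show Matrix.single (0 : Fin 2) (1 : Fin 2) (1 : k) ∈ _
      have h : (4 * r g 0 1) • Matrix.single (0 : Fin 2) (1 : Fin 2) (1 : k) ∈
          Submodule.span k (Set.range r) := by
        rw [← s59i_e01, ← hc, ← map_mul, ← map_mul, ← map_mul]
        exact sub_mem (sub_mem (add_mem (hmem g) (hmem _)) (hmem _)) (hmem _)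
      have := Submodule.smul_mem _ (4 * r g 0 1)⁻¹ h
      rwa [smul_smul, inv_mul_cancel₀ (mul_ne_zero h4 hg), one_smul] at this
    · show Matrix.single (1 : Fin 2) (0 : Fin 2) (1 : k) ∈ _
      have h' : (4 * r h 1 0) • Matrix.single (1 : Fin 2) (0 : Fin 2) (1 : k) ∈
          Submodule.span k (Set.range r) := by
        rw [← s59i_e10, ← hc, ← map_mul, ← map_mul, ← map_mul]
        exact sub_mem (add_mem (sub_mem (hmem h) (hmem _)) (hmem _)) (hmem _)
      have := Submodule.smul_mem _ (4 * r h 1 0)⁻¹ h'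
      rwa [smul_smul, inv_mul_cancel₀ (mul_ne_zero h4 hh), one_smul] at this
    · show Matrix.single (1 : Fin 2) (1 : Fin 2) (1 : k) ∈ _
      have h : (2 : k) • Matrix.single (1 : Fin 2) (1 : Fin 2) (1 : k) ∈
          Submodule.span k (Set.range r) := by
        rw [← s59i_e11, ← hc, ← map_one r]
        exact sub_mem (hmem 1) (hmem c)
      have := Submodule.smul_mem _ (2 : k)⁻¹ h
      rwa [smul_smul, inv_mul_cancel₀ h2, one_smul] at this
  rw [Matrix.matrix_eq_sum_single Y]
  refine Submodule.sum_mem _ fun i _ => Submodule.sum_mem _ fun j _ => ?_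
  have : Matrix.single i j (Y i j) = Y i j • Matrix.single i j (1 : k) := by
    rw [Matrix.smul_single, smul_eq_mul, mul_one]
  rw [this]
  exact Submodule.smul_mem _ _ (hunit i j)

end Span

end Fermat.Agent.Lib.S59
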