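/-
[E] FINAL ASSEMBLY (helper4, prefix `s59i_`), FIN-A1, part 2: single-level lemmas.
 * `s59i_fa_hker`  : the kill property `⋂ 𝒦_{θ_i,ch} ≤ ker(𝒫^E → (T′/I′)⟦z⟧)` from the relations at the minimal
                     primes over the radical ideal `I′` (the annihilator of the type-`χ` part in the trace ring);
 * `s59i_fa_type1` : the type-`1` matrix relations for the framed matrices over `K⟦z⟧`, `T′ → K`;
 * `s59i_fa_hc`    : the ramification ideal is the trace ideal (conjugation-invariant form of `s59i_tlIdeal_eq_trace`).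
-/
import Mathlib
import Fermat.Agent.Lib.S59.LFinA1
import Fermat.Agent.Lib.S59.LInstS

set_option autoImplicit false
set_option linter.unusedSectionVars false
set_option linter.unusedVariables false
set_option linter.style.haveILetI false
set_option maxHeartbeats 1600000

noncomputable section

namespace Fermat.Agent.Lib.S59

open IsLocalRing MvPowerSeries

section Kill

variable {𝒪 : Type} [CommRing 𝒪] [IsLocalRing 𝒪] [IsNoetherianRing 𝒪] [IsDomain 𝒪]
  [IsAdicComplete (maximalIdeal 𝒪) 𝒪] [Finite (ResidueField 𝒪)]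
variable {m e g : ℕ} (D : s59l_EData 𝒪 e) {σ : Type} [Finite σ]
variable {T' : Type} [CommRing T'] [IsLocalRing T'] [IsNoetherianRing T']
  [IsAdicComplete (maximalIdeal T') T'] [Algebra 𝒪 T']
variable {G : Type} [Monoid G] (ρm : G →* Matrix (Fin 2) (Fin 2) T')
  (U U' : Fin m ⊕ Fin e → Matrix (Fin 2) (Fin 2) (MvPowerSeries σ T'))
  (hU : ∀ t, U' t * U t = 1)
  (γ' : s59l_FlatE 𝒪 m e g →ₐ[𝒪] MvPowerSeries σ T') (hγ' : Function.Surjective γ')
  (σB φB : Fin m → G) (σE φE : Fin e → G)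
  (hB : s59i_BridgeEqs D ρm U U' γ' σB φB σE φE)

include hU hγ' hB in
/-- **the kill property from the relations at the minimal primes over `I′`.** -/
theorem s59i_fa_hker
    (hloc𝒪 : ∀ t ∈ maximalIdeal 𝒪, algebraMap 𝒪 T' t ∈ maximalIdeal T')
    (qB : Fin m → ℕ) (qE : Fin e → ℕ) (hDu : ∀ l, D.u l = ((qE l : ℕ) : 𝒪))
    (htameB : ∀ j, ρm (φB j) * ρm (σB j) = ρm (σB j) ^ qB j * ρm (φB j))
    (htameE : ∀ l, ρm (φE l) * ρm (σE l) = ρm (σE l) ^ qE l * ρm (φE l))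
    (hdetE : ∀ l, (ρm (φE l)).det = ((qE l : ℕ) : T'))
    (hresAE : ∀ l a b, (ρm (σE l) - 1) a b ∈ maximalIdeal T')
    (hresE : ∀ l, algebraMap 𝒪 T' D.i2 * (ρm (φE l)).trace - algebraMap 𝒪 T' (D.a0 l) ∈
      maximalIdeal T')
    {ι : Type} [Fintype ι] (ζ ζ' : ι → Fin m → 𝒪) (hζ : ∀ i j, ζ i j * ζ' i j = 1)
    (hζq : ∀ i j, ζ i j ^ qB j = ζ i j) (hζne : ∀ i j, ζ i j ≠ ζ' i j)
    (hθ : ∀ i j, s59l_Hyp (D.i2 * (ζ i j - ζ' i j)))
    (I' : Ideal T') (hrad : I'.IsRadical)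
    (h : ∀ 𝔮 ∈ I'.minimalPrimes, (∀ o : 𝒪, o ≠ 0 → algebraMap 𝒪 T' o ∉ 𝔮) ∧
      ∃ i, ∀ j, (ρm (σB j)).trace - algebraMap 𝒪 T' (ζ i j + ζ' i j) ∈ 𝔮 ∧
        (ρm (σB j)).det - 1 ∈ 𝔮) :
    (Finset.univ.inf fun p : ι × (Fin e → Bool) =>
        s59l_KKE D (fun j => D.i2 * (ζ p.1 j - ζ' p.1 j)) (hθ p.1) g p.2) ≤
      RingHom.ker ((MvPowerSeries.mapAlgHom (σ := σ) (Ideal.Quotient.mkₐ 𝒪 I')).comp γ') := by
  classical
  haveI hloc : ∀ k : {𝔮 : Ideal T' // 𝔮 ∈ I'.minimalPrimes}, IsLocalRing (T' ⧸ k.1) := fun k =>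
    s59l_quot_isLocalRing k.1 k.2.1.1.ne_top
  haveI hcomp : ∀ k : {𝔮 : Ideal T' // 𝔮 ∈ I'.minimalPrimes},
      IsAdicComplete (maximalIdeal (T' ⧸ k.1)) (T' ⧸ k.1) := fun k => s59l_quot_complete k.1
  haveI hdom : ∀ k : {𝔮 : Ideal T' // 𝔮 ∈ I'.minimalPrimes}, IsDomain (T' ⧸ k.1) := fun k =>
    haveI := k.2.1.1
    Ideal.Quotient.isDomain k.1
  haveI hdom' : ∀ k : {𝔮 : Ideal T' // 𝔮 ∈ I'.minimalPrimes},
      IsDomain (MvPowerSeries σ (T' ⧸ k.1)) := fun k => NoZeroDivisors.to_isDomain _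
  refine s59i_kill_family D (fun i j => D.i2 * (ζ i j - ζ' i j)) hθ g
    ((MvPowerSeries.mapAlgHom (σ := σ) (Ideal.Quotient.mkₐ 𝒪 I')).comp γ')
    (κ := {𝔮 : Ideal T' // 𝔮 ∈ I'.minimalPrimes})
    (fun k => MvPowerSeries σ (T' ⧸ k.1))
    (fun k => MvPowerSeries.mapAlgHom (σ := σ) (Ideal.Quotient.factorₐ 𝒪 (k.2.1.2 : I' ≤ k.1)))
    ?_ ?_
  · -- joint injectivity
    intro x hx
    ext d
    rw [map_zero]
    obtain ⟨c, hc⟩ := Ideal.Quotient.mk_surjective (coeff d x)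
    rw [← hc, Ideal.Quotient.eq_zero_iff_mem, ← hrad.radical, ← Ideal.sInf_minimalPrimes,
      Submodule.mem_sInf]
    intro 𝔮 h𝔮
    have h1 := congrArg (coeff d) (hx ⟨𝔮, h𝔮⟩)
    rw [map_zero] at h1
    have h2 : coeff d (MvPowerSeries.mapAlgHom (σ := σ)
        (Ideal.Quotient.factorₐ 𝒪 (h𝔮.1.2 : I' ≤ 𝔮)) x) =
        Ideal.Quotient.factor (h𝔮.1.2 : I' ≤ 𝔮) (coeff d x) := by
      show coeff d (MvPowerSeries.map _ x) = _
      rw [coeff_map]
      rfl
    rw [h2, ← hc, Ideal.Quotient.factor_mk, Ideal.Quotient.eq_zero_iff_mem] at h1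
    exact h1
  · -- the relations
    rintro ⟨𝔮, h𝔮⟩
    obtain ⟨hchar, i, hi⟩ := h 𝔮 h𝔮
    refine ⟨i, ?_⟩
    haveI := h𝔮.1.1
    haveI : IsLocalRing (T' ⧸ 𝔮) := hloc ⟨𝔮, h𝔮⟩
    have key := s59i_fa_relE D ρm U U' hU γ' hγ' σB φB σE φE hB hloc𝒪 qB qE hDu htameB htameE
      hdetE hresAE hresE 𝔮 hchar (ζ i) (ζ' i) (hζ i) (hζq i) (hζne i) (fun j => (hi j).1)
      (fun j => (hi j).2)
    have e : (MvPowerSeries.mapAlgHom (σ := σ) (Ideal.Quotient.factorₐ 𝒪 (h𝔮.1.2 : I' ≤ 𝔮))).comp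
        ((MvPowerSeries.mapAlgHom (σ := σ) (Ideal.Quotient.mkₐ 𝒪 I')).comp γ') =
        (MvPowerSeries.mapAlgHom (σ := σ) (Ideal.Quotient.mkₐ 𝒪 𝔮)).comp γ' := by
      apply AlgHom.ext
      intro x
      ext d
      simp only [AlgHom.comp_apply]
      show coeff d (MvPowerSeries.map _ (MvPowerSeries.map _ (γ' x))) =
        coeff d (MvPowerSeries.map _ (γ' x))
      rw [coeff_map, coeff_map, coeff_map]
      exact Ideal.Quotient.factor_mk (h𝔮.1.2 : I' ≤ 𝔮) _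
    rw [e]
    exact key

end Kill

section Type1

variable {T' : Type} [CommRing T'] [IsLocalRing T'] {σ : Type} {m e : ℕ}
variable {G : Type} [Monoid G] (ρm : G →* Matrix (Fin 2) (Fin 2) T')
  (U U' : Fin m ⊕ Fin e → Matrix (Fin 2) (Fin 2) (MvPowerSeries σ T'))
  (hU : ∀ t, U' t * U t = 1)

include hU in
/-- **the type-`1` relations** for the framed matrices pushed along `T′ → K`. -/
theorem s59i_fa_type1 {K : Type} [CommRing K] [IsLocalRing K] (f : T' →+* K)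
    (hfloc : ∀ x ∈ maximalIdeal T', f x ∈ maximalIdeal K) (t : Fin m ⊕ Fin e) (x y : G) (q : ℕ)
    (htame : ρm y * ρm x = ρm x ^ q * ρm y) (hdetF : (ρm y).det = ((q : ℕ) : T'))
    (i2 ε : T') (hres : i2 * (ρm y).trace - ε ∈ maximalIdeal T')
    (h1tr : f (ρm x).trace = 2) (h1det : f (ρm x).det = 1) :
    ((s59i_Fm ρm U U' t x).map (MvPowerSeries.map f) - 1) *
        ((s59i_Fm ρm U U' t x).map (MvPowerSeries.map f) - 1) = 0 ∧
      ((s59i_Fm ρm U U' t x).map (MvPowerSeries.map f)).trace = 2 ∧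
      (s59i_Fm ρm U U' t y).map (MvPowerSeries.map f) *
          ((s59i_Fm ρm U U' t x).map (MvPowerSeries.map f) - 1) =
        ((q : ℕ) : MvPowerSeries σ K) •
          (((s59i_Fm ρm U U' t x).map (MvPowerSeries.map f) - 1) *
            (s59i_Fm ρm U U' t y).map (MvPowerSeries.map f)) ∧
      ((s59i_Fm ρm U U' t y).map (MvPowerSeries.map f)).det = ((q : ℕ) : MvPowerSeries σ K) ∧
      s59i_ht (MvPowerSeries.map f (C i2)) ((s59i_Fm ρm U U' t y).map (MvPowerSeries.map f)) -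
        MvPowerSeries.map f (C ε) ∈ maximalIdeal (MvPowerSeries σ K) := by
  have hVV := s59i_frame_map U U' f hU t
  set cm : G → Matrix (Fin 2) (Fin 2) (MvPowerSeries σ K) :=
    fun x => ((ρm x).map f).map (C : K →+* MvPowerSeries σ K) with hcm
  have hFm : ∀ x, (s59i_Fm ρm U U' t x).map (MvPowerSeries.map f) =
      (U' t).map (MvPowerSeries.map f) * cm x * (U t).map (MvPowerSeries.map f) := fun x =>
    s59i_Fm_map ρm U U' f t x
  have hcm_mul : ∀ x y, cm x * cm y = cm (x * y) := fun x y => by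
    simp only [hcm]
    rw [map_mul, Matrix.map_mul, Matrix.map_mul]
  have hcm_pow : ∀ x k, cm x ^ k = cm (x ^ k) := fun x k => by
    simp only [hcm]
    rw [map_pow, s59i_map_pow', s59i_map_pow']
  have hcm_tr : ∀ x, (cm x).trace = C (f (ρm x).trace) := fun x => by
    simp only [hcm]
    rw [s59i_mapC_trace, s59i_map_trace']
  have hcm_det : ∀ x, (cm x).det = C (f (ρm x).det) := fun x => by
    simp only [hcm]
    rw [s59i_mapC_det, s59i_map_det']
  have ht : cm y * cm x = cm x ^ q * cm y := by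
    rw [hcm_pow, hcm_mul, hcm_mul]
    simp only [hcm]
    rw [map_mul, map_mul, map_pow, htame]
  have htr' : (cm x).trace = 2 := by rw [hcm_tr, h1tr, map_ofNat]
  have hdet' : (cm x).det = 1 := by rw [hcm_det, h1det, map_one]
  obtain ⟨k1, k2, k3⟩ := s59i_conj_type1 _ _ hVV (cm x) (cm y) q htr' hdet' ht
  rw [hFm, hFm]
  refine ⟨k1, k2, k3, ?_, ?_⟩
  · rw [s59i_conj_det _ _ hVV, hcm_det, hdetF, map_natCast, map_natCast]
  · rw [s59i_conj_ht _ _ hVV, hcm_tr, MvPowerSeries.map_C, MvPowerSeries.map_C, ← map_mul,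
      ← map_mul, ← map_sub, ← map_sub]
    exact s59i_C_mem_maximalIdeal _ (hfloc _ hres)

end Type1

section TraceIdeal

variable {R : Type*} [CommRing R] {G : Type*} [Monoid G]

/-- conjugation preserves the spanning property. -/
theorem s59i_span_conj (W W' : Matrix (Fin 2) (Fin 2) R) (hW : W' * W = 1)
    (r : G → Matrix (Fin 2) (Fin 2) R)
    (hspan : ∀ Y : Matrix (Fin 2) (Fin 2) R, Y ∈ Submodule.span R (Set.range r))
    (Y : Matrix (Fin 2) (Fin 2) R) :
    Y ∈ Submodule.span R (Set.range fun g => W' * r g * W) := by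
  have hW2 : W * W' = 1 := mul_eq_one_comm.mp hW
  set L : Matrix (Fin 2) (Fin 2) R →ₗ[R] Matrix (Fin 2) (Fin 2) R :=
    { toFun := fun Z => W' * Z * W
      map_add' := fun Z Z' => by rw [mul_add, add_mul]
      map_smul' := fun c Z => by
        rw [RingHom.id_apply, Matrix.mul_smul, Matrix.smul_mul] } with hL
  have h1 : W * Y * W' ∈ Submodule.span R (Set.range r) := hspan _
  have h2 : L (W * Y * W') ∈ (Submodule.span R (Set.range r)).map L :=
    Submodule.mem_map_of_mem h1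
  rw [Submodule.map_span, ← Set.range_comp] at h2
  have e : L (W * Y * W') = Y := by
    show W' * (W * Y * W') * W = Y
    calc W' * (W * Y * W') * W = (W' * W) * Y * (W' * W) := by simp only [mul_assoc]
      _ = Y := by rw [hW, one_mul, mul_one]
  rw [e] at h2
  exact h2

/-- **the ramification ideal of a conjugate of `ρ(x)` is the trace ideal**: for a monoid
homomorphism `r : G →* M₂(R)` whose image spans, with trace function `τ`, and `W′ W = 1`,
`span (tl (W′ r(x) W)) = span {τ(x g) − ½ τ(x) τ(g)}`. -/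
theorem s59i_fa_hc (i2 : R) (hi2 : 2 * i2 = 1) (W W' : Matrix (Fin 2) (Fin 2) R)
    (hW : W' * W = 1) (r : G →* Matrix (Fin 2) (Fin 2) R)
    (hspan : ∀ Y : Matrix (Fin 2) (Fin 2) R, Y ∈ Submodule.span R (Set.range r))
    (τ : G → R) (hτ : ∀ g, (r g).trace = τ g) (x : G) :
    Ideal.span (Set.range (s59i_tl i2 (W' * r x * W))) =
      Ideal.span (Set.range fun g => τ (x * g) - i2 * τ x * τ g) := by
  rw [s59i_tlIdeal_eq_trace i2 hi2 (fun g => W' * r g * W) (s59i_span_conj W W' hW r hspan)]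
  congr 2
  funext g
  rw [s59i_conj_mul W W' hW, ← map_mul, s59i_conj_trace W W' hW, s59i_conj_trace W W' hW,
    s59i_conj_trace W W' hW, hτ, hτ, hτ]

end TraceIdeal

end Fermat.Agent.Lib.S59
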