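/-
[E] FINAL ASSEMBLY (helper4, prefix `s59i_`), FIN-A1, part 3: **THE CONJUGATION-INVARIANT FORM OF `s59i_IA_mid`.**
Per level `n`: the trace ring `T′ n` (complete noetherian local `𝒪`-algebra), the Hecke ring `T n ⊇ T′ n`
(local, complete, finite over `T′ n`, generated by the units `uu n i ≡ 1` = square roots of the diamond
operators at the Taylor–Wiles primes), acting on both levels through `𝕌 n = (T n)⟦z⟧`; the matrices
`ρm n : G →* M₂(T′ n)` of the Galois representation, helper6's bridge `γ′ n : 𝒫^E ↠ (T′ n)⟦z⟧` with the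
bridge equations for the framed matrices.  Hypotheses over `T′ n`: the tame relations, `det ρ(φ) = q`,
residual conditions.  Type `1`: `tr ρ(σ_j) ≡ 2`, `det ρ(σ_j) ≡ 1` modulo the annihilator `I1 n` of the
type-`1` level.  Type `χ`: at every minimal prime `𝔮` over the (radical) trace of the annihilator `Iχ n`:
characteristic zero, `tr ρ(σ_j) ≡ ζ + ζ⁻¹`, `det ρ(σ_j) ≡ 1`; and `(u − u⁻¹)² ∈ T′ n + Iχ n` (C8).
Conclusion: a prime `𝔭 ⊇ Ann_R M` over `𝔞` containing the TRACE IDEAL of ramification at `B`.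
-/
import Mathlib
import Fermat.Agent.Lib.S59.LFinA2

set_option autoImplicit false
set_option linter.unusedSectionVars false
set_option linter.unusedVariables false
set_option linter.style.haveILetI false
set_option maxHeartbeats 3200000

noncomputable section

namespace Fermat.Agent.Lib.S59

open IsLocalRing MvPowerSeries Fermat.Agent.Lib.Deform

variable {𝒪 : Type} [CommRing 𝒪] [IsLocalRing 𝒪] [IsNoetherianRing 𝒪] [IsDomain 𝒪]
  [IsAdicComplete (maximalIdeal 𝒪) 𝒪] [Finite (ResidueField 𝒪)]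

/-- coefficientwise description of `map f x = 0`. -/
theorem s59i_map_eq_zero_iff {σ : Type*} {A B : Type*} [CommRing A] [CommRing B] (f : A →+* B)
    (x : MvPowerSeries σ A) : MvPowerSeries.map f x = 0 ↔ ∀ d, f (coeff d x) = 0 := by
  constructor
  · intro h d
    have := congrArg (coeff d) h
    rwa [coeff_map, map_zero] at this
  · intro h
    ext d
    rw [coeff_map, map_zero, h]

/-- **FIN-A1.** -/
theorem s59i_FINA1
    (ϖ : 𝒪) (hϖ : ϖ ∈ maximalIdeal 𝒪) (m e r : ℕ) (D : s59l_EData 𝒪 e)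
    {σ : Type} [Fintype σ] [DecidableEq σ]
    (hcount : 3 * m + ((r + m + e) + e * 3) ≤ r + Fintype.card σ)
    (R : Type) [CommRing R] [IsLocalRing R] [IsNoetherianRing R]
    [IsAdicComplete (maximalIdeal R) R]
    (R' : Type) [CommRing R'] [IsLocalRing R'] [IsNoetherianRing R']
    [IsAdicComplete (maximalIdeal R') R']
    (M : Type) [AddCommGroup M] [Module R M] [Module.Finite R M]
    (M' : Type) [AddCommGroup M'] [Module R' M'] [Module.Finite R' M'] [Nontrivial M']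
    (𝔞 : Ideal (MvPowerSeries σ (MvPowerSeries (Fin r) 𝒪))) [𝔞.IsPrime]
    (J : ℕ → Ideal (MvPowerSeries σ (MvPowerSeries (Fin r) 𝒪)))
    (hJ : ∀ n, J n ≤ maximalIdeal (MvPowerSeries σ (MvPowerSeries (Fin r) 𝒪)) ^ n)
    -- the rings
    (T' T : ℕ → Type) [∀ n, CommRing (T' n)] [∀ n, IsLocalRing (T' n)]
    [∀ n, IsNoetherianRing (T' n)] [∀ n, IsAdicComplete (maximalIdeal (T' n)) (T' n)]
    [∀ n, Algebra 𝒪 (T' n)]
    [∀ n, CommRing (T n)] [∀ n, IsLocalRing (T n)]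
    [∀ n, IsAdicComplete (maximalIdeal (T n)) (T n)]
    [∀ n, Algebra 𝒪 (T n)] [∀ n, Algebra (T' n) (T n)] [∀ n, IsScalarTower 𝒪 (T' n) (T n)]
    [∀ n, Module.Finite (T' n) (T n)]
    (hloc𝒪 : ∀ n, ∀ t ∈ maximalIdeal 𝒪, algebraMap 𝒪 (T' n) t ∈ maximalIdeal (T' n))
    (hlocT : ∀ n, ∀ x ∈ maximalIdeal (T' n), algebraMap (T' n) (T n) x ∈ maximalIdeal (T n))
    -- the module half
    (L0 : ∀ n, s59p_Level (MvPowerSeries σ (MvPowerSeries (Fin r) 𝒪)) (MvPowerSeries σ (T n)) R M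
      𝔞 (J n))
    (L0' : ∀ n, s59p_Level (MvPowerSeries σ (MvPowerSeries (Fin r) 𝒪)) (MvPowerSeries σ (T n)) R' M'
      𝔞 (J n))
    (d d' : ℕ) (hd : ∀ n, (L0 n).d = d) (hd' : ∀ n, (L0' n).d = d')
    (std : ∀ n, MvPowerSeries σ (MvPowerSeries (Fin r) 𝒪) →ₐ[𝒪] MvPowerSeries σ (T n))
    (hstd : ∀ n x, (L0 n).φ x = std n x) (hstd' : ∀ n x, (L0' n).φ x = std n x)
    (hW0 : ∀ n, s59p_WCong (algebraMap 𝒪 (MvPowerSeries σ (T n)) ϖ)
      (algebraMap 𝒪 (MvPowerSeries σ (T n)) ϖ) (RingEquiv.refl _) (L0 n) (L0' n))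
    -- the units
    (uu : ∀ n, Fin r → (T n)ˣ) (huu : ∀ n i, ((uu n i : (T n)ˣ) : T n) - 1 ∈ maximalIdeal (T n))
    (hgen : ∀ n, Algebra.adjoin (T' n) (Set.range (fun i => ((uu n i : (T n)ˣ) : T n)) ∪
      Set.range (fun i => (((uu n i)⁻¹ : (T n)ˣ) : T n))) = ⊤)
    (hstdX : ∀ n i, std n (C (X i)) =
      C (((uu n i : (T n)ˣ) : T n) - (((uu n i)⁻¹ : (T n)ˣ) : T n)))
    (hstdz : ∀ n j, std n (X j) = X j)
    -- the bridge
    (γ' : ∀ n, s59l_FlatE 𝒪 m e (r + m + e) →ₐ[𝒪] MvPowerSeries σ (T' n))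
    (hγ' : ∀ n, Function.Surjective (γ' n))
    {G : Type} [Monoid G] (ρm : ∀ n, G →* Matrix (Fin 2) (Fin 2) (T' n))
    (U U' : ∀ n, Fin m ⊕ Fin e → Matrix (Fin 2) (Fin 2) (MvPowerSeries σ (T' n)))
    (hU : ∀ n t, U' n t * U n t = 1)
    (σB φB : Fin m → G) (σE φE : Fin e → G)
    (hB : ∀ n, s59i_BridgeEqs D (ρm n) (U n) (U' n) (γ' n) σB φB σE φE)
    -- constants and relations over the trace rings
    (qB : Fin m → ℕ) (hqB : ∀ j, ((qB j : ℕ) : 𝒪) - 1 ∈ maximalIdeal 𝒪)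
    (qE : Fin e → ℕ) (hDu : ∀ l, D.u l = ((qE l : ℕ) : 𝒪))
    (εB : Fin m → 𝒪) (hεB : ∀ j, εB j ^ 2 = 1)
    (htameB : ∀ n j, ρm n (φB j) * ρm n (σB j) = ρm n (σB j) ^ qB j * ρm n (φB j))
    (htameE : ∀ n l, ρm n (φE l) * ρm n (σE l) = ρm n (σE l) ^ qE l * ρm n (φE l))
    (hdetB : ∀ n j, (ρm n (φB j)).det = ((qB j : ℕ) : T' n))
    (hdetE : ∀ n l, (ρm n (φE l)).det = ((qE l : ℕ) : T' n))
    (hresB : ∀ n j, algebraMap 𝒪 (T' n) D.i2 * (ρm n (φB j)).trace -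
      algebraMap 𝒪 (T' n) (εB j) ∈ maximalIdeal (T' n))
    (hresAE : ∀ n l a b, (ρm n (σE l) - 1) a b ∈ maximalIdeal (T' n))
    (hresE : ∀ n l, algebraMap 𝒪 (T' n) D.i2 * (ρm n (φE l)).trace -
      algebraMap 𝒪 (T' n) (D.a0 l) ∈ maximalIdeal (T' n))
    -- type 1
    (I1 : ∀ n, Ideal (T n)) (hI1 : ∀ n, I1 n ≠ ⊤)
    (hann1 : ∀ n (x : MvPowerSeries σ (T n)), (∀ d, coeff d x ∈ I1 n) →
      x ∈ Module.annihilator (MvPowerSeries σ (T n)) (L0 n).N)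
    (h1tr : ∀ n j, algebraMap (T' n) (T n) (ρm n (σB j)).trace - 2 ∈ I1 n)
    (h1det : ∀ n j, algebraMap (T' n) (T n) (ρm n (σB j)).det - 1 ∈ I1 n)
    -- type χ
    (Iχ : ∀ n, Ideal (T n)) (hIχ : ∀ n, Iχ n ≠ ⊤)
    (hannχ : ∀ n (x : MvPowerSeries σ (T n)), (∀ d, coeff d x ∈ Iχ n) →
      x ∈ Module.annihilator (MvPowerSeries σ (T n)) (L0' n).N)
    {ι : Type} [Fintype ι] (ζ ζ' : ι → Fin m → 𝒪) (hζ : ∀ i j, ζ i j * ζ' i j = 1)
    (hζq : ∀ i j, ζ i j ^ qB j = ζ i j) (hζne : ∀ i j, ζ i j ≠ ζ' i j)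
    (hζm : ∀ i j, ζ i j - ζ' i j ∈ maximalIdeal 𝒪)
    (hrad : ∀ n, ((Iχ n).comap (algebraMap (T' n) (T n))).IsRadical)
    (hχ : ∀ n, ∀ 𝔮 ∈ ((Iχ n).comap (algebraMap (T' n) (T n))).minimalPrimes,
      (∀ o : 𝒪, o ≠ 0 → algebraMap 𝒪 (T' n) o ∉ 𝔮) ∧
      ∃ i, ∀ j, (ρm n (σB j)).trace - algebraMap 𝒪 (T' n) (ζ i j + ζ' i j) ∈ 𝔮 ∧
        (ρm n (σB j)).det - 1 ∈ 𝔮)
    (hC8 : ∀ n i, ∃ τ ∈ maximalIdeal (T' n),
      (((uu n i : (T n)ˣ) : T n) - (((uu n i)⁻¹ : (T n)ˣ) : T n)) ^ 2 -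
        algebraMap (T' n) (T n) τ ∈ Iχ n)
    -- the trace function over `R`
    (i2R : R) (hi2R : 2 * i2R = 1) (τ : G → R)
    (hτ : ∀ n g, ((ρm n g).map fun x => (L0 n).ψ (C (algebraMap (T' n) (T n) x))).trace = τ g)
    (hspan : ∀ n, ∀ Y : Matrix (Fin 2) (Fin 2) R, Y ∈ Submodule.span R
      (Set.range fun g => (ρm n g).map fun x => (L0 n).ψ (C (algebraMap (T' n) (T n) x))))
    (κ : MvPowerSeries σ (MvPowerSeries (Fin r) 𝒪) →+* R)
    (hκ : ∀ n x, (L0 n).ψ ((L0 n).φ x) = κ x) :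
    ∃ 𝔭 : Ideal R, 𝔭.IsPrime ∧ Module.annihilator R M ≤ 𝔭 ∧
      (∀ j g, τ (σB j * g) - i2R * τ (σB j) * τ g ∈ 𝔭) ∧ Ideal.comap κ 𝔭 = 𝔞 := by
  classical
  -- local instances
  haveI hQ1 : ∀ n, IsLocalRing (T n ⧸ I1 n) := fun n => s59l_quot_isLocalRing _ (hI1 n)
  haveI hQχ : ∀ n, IsLocalRing (T n ⧸ Iχ n) := fun n => s59l_quot_isLocalRing _ (hIχ n)
  -- the maps
  set Γ : ∀ n, MvPowerSeries σ (T' n) →ₐ[𝒪] MvPowerSeries σ (T n) := fun n =>
    MvPowerSeries.mapAlgHom (σ := σ) (IsScalarTower.toAlgHom 𝒪 (T' n) (T n)) with hΓ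
  have hΓmap : ∀ n y, Γ n y = MvPowerSeries.map (algebraMap (T' n) (T n)) y := fun n y => rfl
  set γ : ∀ n, s59l_FlatE 𝒪 m e (r + m + e) →ₐ[𝒪] MvPowerSeries σ (T n) := fun n =>
    (Γ n).comp (γ' n) with hγ
  have hγΓ : ∀ n x, γ n x = Γ n (γ' n x) := fun n x => rfl
  set s : ∀ n, Fin r → MvPowerSeries σ (T n) := fun n i =>
    C (((uu n i : (T n)ˣ) : T n) - (((uu n i)⁻¹ : (T n)ˣ) : T n)) with hs
  have h2T : ∀ n, IsUnit (2 : T n) := fun n => by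
    have : (2 : T n) * algebraMap 𝒪 (T n) D.i2 = 1 := by
      rw [← map_ofNat (algebraMap 𝒪 (T n)) 2, ← map_mul, D.hi2, map_one]
    exact IsUnit.of_mul_eq_one _ this
  have hsm0 : ∀ n i, ((uu n i : (T n)ˣ) : T n) - (((uu n i)⁻¹ : (T n)ˣ) : T n) ∈
      maximalIdeal (T n) := by
    intro n i
    have e : ((uu n i : (T n)ˣ) : T n) - (((uu n i)⁻¹ : (T n)ˣ) : T n) =
        (((uu n i : (T n)ˣ) : T n) - 1) +
          (((uu n i)⁻¹ : (T n)ˣ) : T n) * (((uu n i : (T n)ˣ) : T n) - 1) := by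
      rw [mul_sub, Units.inv_mul, mul_one]
      ring
    rw [e]
    exact Ideal.add_mem _ (huu n i) (Ideal.mul_mem_left _ _ (huu n i))
  have hsm : ∀ n i, s n i ∈ maximalIdeal (MvPowerSeries σ (T n)) := fun n i =>
    s59i_C_mem_maximalIdeal _ (hsm0 n i)
  have hstdm : ∀ n j, std n (X j) ∈ maximalIdeal (MvPowerSeries σ (T n)) := by
    intro n j
    rw [hstdz, s59i_mem_maximalIdeal_iff_constantCoeff, MvPowerSeries.constantCoeff_X]
    exact Ideal.zero_mem _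
  have hz : ∀ n j, ∃ z ∈ maximalIdeal (s59l_FlatE 𝒪 m e (r + m + e)), γ n z = std n (X j) := by
    intro n j
    obtain ⟨z, hzm, hz⟩ := s59i_fa_hz (γ' n : s59l_FlatE 𝒪 m e (r + m + e) →+* _) (hγ' n)
      (algebraMap (T' n) (T n)) j
    exact ⟨z, hzm, by rw [hstdz]; exact hz⟩
  have hΘ : ∀ n, Function.Surjective
      (s59i_Theta (γ n : s59l_FlatE 𝒪 m e (r + m + e) →+* MvPowerSeries σ (T n)) (s n) (hsm n)) :=
    fun n => s59i_Theta_surjective_of_units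
      (γ' n : s59l_FlatE 𝒪 m e (r + m + e) →+* MvPowerSeries σ (T' n)) (hγ' n) (uu n) (huu n)
      (h2T n) (hgen n) (hsm n)
  -- constants
  have hγ𝒪 : ∀ n (o : 𝒪), γ n (C o) = algebraMap 𝒪 (MvPowerSeries σ (T n)) o := fun n o =>
    s59l_algHom_C (γ n) o
  have hγ'𝒪 : ∀ n (o : 𝒪), γ' n (C o) = C (algebraMap 𝒪 (T' n) o) := fun n o => by
    rw [s59l_algHom_C (γ' n) o, MvPowerSeries.algebraMap_apply]
  -- the type-1 quotient
  set f1 : ∀ n, T' n →+* T n ⧸ I1 n := fun n =>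
    (Ideal.Quotient.mk (I1 n)).comp (algebraMap (T' n) (T n)) with hf1
  set p : ∀ n, MvPowerSeries σ (T n) →+* MvPowerSeries σ (T n ⧸ I1 n) := fun n =>
    MvPowerSeries.map (Ideal.Quotient.mk (I1 n)) with hp
  have hpΓ : ∀ n y, p n (Γ n y) = MvPowerSeries.map (f1 n) y := by
    intro n y
    ext d
    rw [hΓmap]
    simp only [hp, hf1, coeff_map, RingHom.comp_apply]
  have hpann : ∀ n x, p n x = 0 → x ∈ Module.annihilator (MvPowerSeries σ (T n)) (L0 n).N := by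
    intro n x hx
    refine hann1 n x fun d => ?_
    have := (s59i_map_eq_zero_iff _ x).mp hx d
    rwa [Ideal.Quotient.eq_zero_iff_mem] at this
  have hf1loc : ∀ n, ∀ x ∈ maximalIdeal (T' n), f1 n x ∈ maximalIdeal (T n ⧸ I1 n) :=
    fun n x hx => s59i_surj_mem (Ideal.Quotient.mk (I1 n)) Ideal.Quotient.mk_surjective _
      (hlocT n x hx)
  have hp𝒪 : ∀ n (o : 𝒪), p n (algebraMap 𝒪 (MvPowerSeries σ (T n)) o) =
      MvPowerSeries.map (f1 n) (C (algebraMap 𝒪 (T' n) o)) := by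
    intro n o
    rw [← hγ𝒪, hγΓ, hpΓ, hγ'𝒪]
  set Sg : ∀ n, Fin m → Matrix (Fin 2) (Fin 2) (MvPowerSeries σ (T n ⧸ I1 n)) := fun n j =>
    (s59i_Fm (ρm n) (U n) (U' n) (Sum.inl j) (σB j)).map (MvPowerSeries.map (f1 n)) with hSg
  set Ph : ∀ n, Fin m → Matrix (Fin 2) (Fin 2) (MvPowerSeries σ (T n ⧸ I1 n)) := fun n j =>
    (s59i_Fm (ρm n) (U n) (U' n) (Sum.inl j) (φB j)).map (MvPowerSeries.map (f1 n)) with hPh
  have hT1 : ∀ n j, _ := fun n j =>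
    s59i_fa_type1 (ρm n) (U n) (U' n) (hU n) (f1 n) (hf1loc n) (Sum.inl j) (σB j) (φB j) (qB j)
      (htameB n j) (hdetB n j) (algebraMap 𝒪 (T' n) D.i2) (algebraMap 𝒪 (T' n) (εB j))
      (hresB n j)
      (by
        show Ideal.Quotient.mk (I1 n) (algebraMap (T' n) (T n) (ρm n (σB j)).trace) = 2
        rw [← sub_eq_zero, ← map_ofNat (Ideal.Quotient.mk (I1 n)) 2, ← map_sub,
          Ideal.Quotient.eq_zero_iff_mem]
        exact h1tr n j)
      (by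
        show Ideal.Quotient.mk (I1 n) (algebraMap (T' n) (T n) (ρm n (σB j)).det) = 1
        rw [← sub_eq_zero, ← map_one (Ideal.Quotient.mk (I1 n)), ← map_sub,
          Ideal.Quotient.eq_zero_iff_mem]
        exact h1det n j)
  have hV : ∀ n j k, p n (γ n (s59l_VB j k)) =
      s59i_tl (p n (algebraMap 𝒪 (MvPowerSeries σ (T n)) D.i2)) (Sg n j) k := by
    intro n j k
    rw [hγΓ, hpΓ, (hB n).1 j k, hp𝒪, ← MvPowerSeries.algebraMap_apply, s59i_tl_map]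
  have hWc : ∀ n j k, p n (γ n (s59l_WB j k)) =
      s59i_tl (p n (algebraMap 𝒪 (MvPowerSeries σ (T n)) D.i2)) (Ph n j) k := by
    intro n j k
    rw [hγΓ, hpΓ, (hB n).2.1 j k, hp𝒪, ← MvPowerSeries.algebraMap_apply, s59i_tl_map]
  -- the square roots
  have hsq : ∀ j, ∃ a : s59l_FlatE 𝒪 m e (r + m + e),
      a ^ 2 = C ((qB j : ℕ) : 𝒪) + (s59l_WB j 0 ^ 2 + s59l_WB j 1 * s59l_WB j 2) ∧
        a - C (εB j) ∈ maximalIdeal (s59l_FlatE 𝒪 m e (r + m + e)) := by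
    intro j
    refine s59l_exists_sqrt _ (C (εB j)) (C D.i2) ?_ ?_ ?_
    · rw [← map_pow, hεB, map_one]
    · rw [← map_ofNat (C : 𝒪 →+* s59l_FlatE 𝒪 m e (r + m + e)) 2, ← map_mul, D.hi2, map_one]
    · have hX : ∀ t, (X t : s59l_FlatE 𝒪 m e (r + m + e)) ∈
          maximalIdeal (s59l_FlatE 𝒪 m e (r + m + e)) := by
        intro t
        rw [s59i_mem_maximalIdeal_iff_constantCoeff, MvPowerSeries.constantCoeff_X]
        exact Ideal.zero_mem _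
      have e : C ((qB j : ℕ) : 𝒪) + (s59l_WB j 0 ^ 2 + s59l_WB j 1 * s59l_WB j 2) - 1 =
          (C (((qB j : ℕ) : 𝒪) - 1) : s59l_FlatE 𝒪 m e (r + m + e)) +
            (s59l_WB j 0 ^ 2 + s59l_WB j 1 * s59l_WB j 2) := by
        rw [map_sub, map_one]
        ring
      rw [e]
      refine Ideal.add_mem _ (s59i_C_mem_maximalIdeal _ (hqB j)) (Ideal.add_mem _ ?_ ?_)
      · rw [pow_two]
        exact Ideal.mul_mem_left _ _ (hX _)
      · exact Ideal.mul_mem_left _ _ (hX _)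
  choose a ha haε using hsq
  -- `f = p ∘ γ` maps the maximal ideal into the maximal ideal
  have hpγm : ∀ n x, x ∈ maximalIdeal (s59l_FlatE 𝒪 m e (r + m + e)) →
      p n (γ n x) ∈ maximalIdeal (MvPowerSeries σ (T n ⧸ I1 n)) := by
    intro n x hx
    rw [hγΓ, hpΓ]
    have h0 : (γ' n) x ∈ maximalIdeal (MvPowerSeries σ (T' n)) :=
      s59i_surj_mem ((γ' n : s59l_FlatE 𝒪 m e (r + m + e) →ₐ[𝒪] MvPowerSeries σ (T' n)) :
        s59l_FlatE 𝒪 m e (r + m + e) →+* MvPowerSeries σ (T' n)) (hγ' n) x hx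
    exact s59i_map_mem_maximalIdeal (f1 n) (hf1loc n) _ h0
  have hac : ∀ n j, p n (γ n (a j)) =
      s59i_ht (p n (algebraMap 𝒪 (MvPowerSeries σ (T n)) D.i2)) (Ph n j) := by
    intro n j
    have key := s59i_hac_of_det ((p n).comp (γ n : s59l_FlatE 𝒪 m e (r + m + e) →+* _))
      (C D.i2) (C ((qB j : ℕ) : 𝒪)) (a j) (s59l_WB j 0) (s59l_WB j 1) (s59l_WB j 2) (C (εB j))
      (by rw [← map_ofNat (C : 𝒪 →+* s59l_FlatE 𝒪 m e (r + m + e)) 2, ← map_mul, D.hi2, map_one])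
      (by rw [← map_pow, hεB, map_one]) (ha j) (Ph n j) ?_ ?_ ?_ ?_
    · simp only [RingHom.comp_apply, RingHom.coe_coe, hγ𝒪] at key
      exact key
    · intro k
      simp only [RingHom.comp_apply, RingHom.coe_coe, hγ𝒪]
      fin_cases k
      · exact hWc n j 0
      · exact hWc n j 1
      · exact hWc n j 2
    · simp only [RingHom.comp_apply, RingHom.coe_coe, hγ𝒪]
      rw [(hT1 n j).2.2.2.1, map_natCast, map_natCast]
    · simp only [RingHom.comp_apply, RingHom.coe_coe]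
      rw [← map_sub, ← map_sub]
      exact hpγm n _ (haε j)
    · simp only [RingHom.comp_apply, RingHom.coe_coe, hγ𝒪]
      rw [hp𝒪, hp𝒪]
      exact (hT1 n j).2.2.2.2
  have h1 : ∀ n j, (Sg n j - 1) * (Sg n j - 1) = 0 := fun n j => (hT1 n j).1
  have htr : ∀ n j, (Sg n j).trace = 2 := fun n j => (hT1 n j).2.1
  have htame : ∀ n j, Ph n j * (Sg n j - 1) =
      p n (algebraMap 𝒪 (MvPowerSeries σ (T n)) ((qB j : ℕ) : 𝒪)) • ((Sg n j - 1) * Ph n j) := by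
    intro n j
    rw [map_natCast, map_natCast]
    exact (hT1 n j).2.2.1
  -- the type-χ quotient
  set p' : ∀ n, MvPowerSeries σ (T n) →+* MvPowerSeries σ (T n ⧸ Iχ n) := fun n =>
    MvPowerSeries.map (Ideal.Quotient.mk (Iχ n)) with hp'
  have hp'ann : ∀ n x, p' n x = 0 →
      x ∈ Module.annihilator (MvPowerSeries σ (T n)) (L0' n).N := by
    intro n x hx
    refine hannχ n x fun d => ?_
    have := (s59i_map_eq_zero_iff _ x).mp hx d
    rwa [Ideal.Quotient.eq_zero_iff_mem] at this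
  have hθ : ∀ i j, s59l_Hyp (D.i2 * (ζ i j - ζ' i j)) := by
    intro i j
    refine ⟨Ideal.mul_mem_left _ _ (hζm i j), mul_ne_zero ?_ (sub_ne_zero.mpr (hζne i j)),
      ⟨D.i2, D.hi2⟩⟩
    intro h0
    have := D.hi2
    rw [h0, mul_zero] at this
    exact zero_ne_one this
  have hker : ∀ n, (Finset.univ.inf fun pr : ι × (Fin e → Bool) =>
        s59l_KKE D (fun j => D.i2 * (ζ pr.1 j - ζ' pr.1 j)) (hθ pr.1) (r + m + e) pr.2) ≤
      RingHom.ker ((p' n).comp (γ n : s59l_FlatE 𝒪 m e (r + m + e) →+* MvPowerSeries σ (T n))) := by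
    intro n
    refine (s59i_fa_hker D (ρm n) (U n) (U' n) (hU n) (γ' n) (hγ' n) σB φB σE φE (hB n) (hloc𝒪 n)
      qB qE hDu (htameB n) (htameE n) (hdetE n) (hresAE n) (hresE n) ζ ζ' hζ hζq hζne hθ _
      (hrad n) (hχ n)).trans ?_
    intro F hF
    rw [RingHom.mem_ker] at hF ⊢
    have h1 : ∀ d, coeff d (γ' n F) ∈ (Iχ n).comap (algebraMap (T' n) (T n)) := by
      intro d
      have h2 := congrArg (coeff d) hF
      rw [map_zero] at h2
      have h3 : coeff d ((MvPowerSeries.mapAlgHom (σ := σ) (Ideal.Quotient.mkₐ 𝒪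
          ((Iχ n).comap (algebraMap (T' n) (T n))))).comp (γ' n) F) =
          Ideal.Quotient.mk _ (coeff d (γ' n F)) := by
        simp only [AlgHom.comp_apply]
        show coeff d (MvPowerSeries.map _ (γ' n F)) = _
        rw [coeff_map]
        rfl
      rw [h3, Ideal.Quotient.eq_zero_iff_mem] at h2
      exact h2
    show p' n (γ n F) = 0
    rw [hγΓ, hΓmap, s59i_map_eq_zero_iff]
    intro d
    rw [coeff_map, Ideal.Quotient.eq_zero_iff_mem]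
    exact h1 d
  have hs2 : ∀ n i, ∃ t ∈ maximalIdeal (s59l_FlatE 𝒪 m e (r + m + e)),
      p' n (s n i) ^ 2 = p' n (γ n t) := by
    intro n i
    obtain ⟨τ0, hτ0m, hτ0⟩ := hC8 n i
    obtain ⟨t, ht⟩ := hγ' n (C τ0)
    refine ⟨t, ?_, ?_⟩
    · rw [mem_maximalIdeal, mem_nonunits_iff]
      intro hu
      have h1 : IsUnit (C τ0 : MvPowerSeries σ (T' n)) := ht ▸ hu.map (γ' n)
      rw [MvPowerSeries.isUnit_iff_constantCoeff, constantCoeff_C] at h1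
      exact hτ0m h1
    · rw [hγΓ, ht, hΓmap, MvPowerSeries.map_C, ← map_pow]
      simp only [hs, hp']
      rw [← map_pow, MvPowerSeries.map_C, MvPowerSeries.map_C]
      congr 1
      rw [← sub_eq_zero, ← map_sub, Ideal.Quotient.eq_zero_iff_mem]
      exact hτ0
  -- the trace ideal
  set 𝔲 : Ideal R := Ideal.span (Set.range fun pr : Fin m × G =>
    τ (σB pr.1 * pr.2) - i2R * τ (σB pr.1) * τ pr.2) with h𝔲
  have hc : ∀ n, 𝔲 ≤ Ideal.span (Set.range fun pr : Fin m × Fin 3 =>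
      (L0 n).ψ (γ n (s59l_VB pr.1 pr.2))) := by
    intro n
    set ψ' : MvPowerSeries σ (T' n) →+* R :=
      ((L0 n).ψ).comp (Γ n : MvPowerSeries σ (T' n) →+* MvPowerSeries σ (T n)) with hψ'
    set ψ₀ : T' n →+* R := ψ'.comp C with hψ₀
    have hψ₀f : (fun x => (L0 n).ψ (C (algebraMap (T' n) (T n) x))) = ψ₀ := by
      funext x
      show _ = (L0 n).ψ (Γ n (C x))
      rw [hΓmap, MvPowerSeries.map_C]
    have hi2ψ : ψ' (algebraMap 𝒪 (MvPowerSeries σ (T' n)) D.i2) = i2R := by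
      have h1 : (2 : R) * ψ' (algebraMap 𝒪 (MvPowerSeries σ (T' n)) D.i2) = 1 := by
        rw [← map_ofNat ψ' 2, ← map_mul, ← map_ofNat (algebraMap 𝒪 (MvPowerSeries σ (T' n))) 2,
          ← map_mul, D.hi2, map_one, map_one]
      calc ψ' (algebraMap 𝒪 (MvPowerSeries σ (T' n)) D.i2)
          = ψ' (algebraMap 𝒪 (MvPowerSeries σ (T' n)) D.i2) * (2 * i2R) := by
            rw [hi2R, mul_one]
        _ = (2 * ψ' (algebraMap 𝒪 (MvPowerSeries σ (T' n)) D.i2)) * i2R := by ring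
        _ = i2R := by rw [h1, one_mul]
    set rr : G →* Matrix (Fin 2) (Fin 2) R :=
      ((ψ₀.mapMatrix : Matrix (Fin 2) (Fin 2) (T' n) →+* Matrix (Fin 2) (Fin 2) R) :
        Matrix (Fin 2) (Fin 2) (T' n) →* Matrix (Fin 2) (Fin 2) R).comp (ρm n) with hrr
    have hrr_app : ∀ g, rr g = (ρm n g).map ψ₀ := fun g => rfl
    have hspan' : ∀ Y : Matrix (Fin 2) (Fin 2) R, Y ∈ Submodule.span R (Set.range rr) := by
      intro Y
      have := hspan n Y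
      rw [hψ₀f] at this
      exact this
    have hτ' : ∀ g, (rr g).trace = τ g := by
      intro g
      rw [hrr_app, ← hτ n g, hψ₀f]
    rw [h𝔲, Ideal.span_le]
    rintro _ ⟨⟨j, g⟩, rfl⟩
    have hWW : (U' n (Sum.inl j)).map ψ' * (U n (Sum.inl j)).map ψ' = 1 := by
      rw [← Matrix.map_mul, hU, Matrix.map_one _ (map_zero _) (map_one _)]
    have hkey := s59i_fa_hc i2R hi2R ((U n (Sum.inl j)).map ψ') ((U' n (Sum.inl j)).map ψ') hWW rr
      hspan' τ hτ' (σB j)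
    have hmem : τ (σB j * g) - i2R * τ (σB j) * τ g ∈
        Ideal.span (Set.range fun g => τ (σB j * g) - i2R * τ (σB j) * τ g) :=
      Ideal.subset_span ⟨g, rfl⟩
    rw [← hkey] at hmem
    refine (Ideal.span_mono ?_) hmem
    rintro _ ⟨k, rfl⟩
    refine ⟨(j, k), ?_⟩
    show (L0 n).ψ (γ n (s59l_VB j k)) = _
    have e1 : (L0 n).ψ (γ n (s59l_VB j k)) = ψ' (γ' n (s59l_VB j k)) := rfl
    have hFmψ : (s59i_Fm (ρm n) (U n) (U' n) (Sum.inl j) (σB j)).map ψ' =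
        (U' n (Sum.inl j)).map ψ' * rr (σB j) * (U n (Sum.inl j)).map ψ' := by
      rw [s59i_Fm, Matrix.map_mul, Matrix.map_mul, Matrix.map_map]
      rfl
    rw [e1, (hB n).1 j k, ← hi2ψ, ← hFmψ, s59i_tl_map]
  -- the assembly
  obtain ⟨𝔭, h𝔭, hann, hu𝔭, hcomap⟩ := s59i_IA_mid ϖ hϖ m e (r + m + e) r D hcount R R' M M' 𝔞 J hJ
    (fun n => MvPowerSeries σ (T n)) L0 L0' d d' hd hd' std hstd hstd' hW0 γ s hsm hstdX hstdm hz hΘ
    (fun n => MvPowerSeries σ (T n ⧸ I1 n)) p hpann (fun j => ((qB j : ℕ) : 𝒪)) hqB a ha Sg Ph hV hWc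
    hac h1 htr htame (fun n => MvPowerSeries σ (T n ⧸ Iχ n)) p' hp'ann
    (fun i j => D.i2 * (ζ i j - ζ' i j)) hθ hker hs2 𝔲 hc κ hκ
  refine ⟨𝔭, h𝔭, hann, fun j g => hu𝔭 (Ideal.subset_span ⟨(j, g), rfl⟩), hcomap⟩

end Fermat.Agent.Lib.S59
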