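/-
[E] FINAL ASSEMBLY (helper4, prefix `s59i_`): THE CUT `[UNR-PT]` between the patching side (FIN-A) and
the extraction side (FIN-B), in the vocabulary of the Prelude only.

`s59i_UnrPt p N B a q` : the eigen-system `a` modulo `p` (away from the finite set `B`) lifts to a
characteristic-zero eigen-system `χ` of the anemic Hecke algebra of `S₂(Γ₀(N))`, with values in a
local noetherian domain `𝒪'` finite over `ℤ_p`, together with a two-dimensional Galois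
representation `ρ` over `𝒪'` with the Frobenius polynomials of `χ` which is UNRAMIFIED at one place
over `q`.
-/
import Mathlib
import Fermat.Prelude.Def_CuspForm_HeckeGaloisRepDatum

set_option autoImplicit false

noncomputable section

namespace Fermat.Agent.Lib.S59

open IsLocalRing Polynomial CuspForm

/-- **[UNR-PT]** -/
def s59i_UnrPt (p : ℕ) [Fact p.Prime] (N : ℕ) [NeZero N] (B : Finset ℕ) (a : ℕ → ℤ) (q : ℕ) :
    Prop :=
  ∃ (𝒪' : Type) (_ : CommRing 𝒪') (_ : IsDomain 𝒪') (_ : IsLocalRing 𝒪') (_ : IsNoetherianRing 𝒪')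
    (_ : CharZero 𝒪') (_ : Algebra ℤ_[p] 𝒪') (_ : Module.Finite ℤ_[p] 𝒪')
    (χ : heckeAlgebra N 2 (↑B : Set ℕ) →+* 𝒪') (ρ : GaloisRepAdic 𝒪'),
    (∀ (ℓ : ℕ) (hℓ : ℓ.Prime) (hℓN : ¬ ℓ ∣ N) (hℓB : ℓ ∉ (↑B : Set ℕ)),
      χ (heckeAlgebra.T hℓ hℓN hℓB) - ((a ℓ : ℤ) : 𝒪') ∈ maximalIdeal 𝒪') ∧
    (∀ (ℓ : ℕ) (hℓ : ℓ.Prime) (hℓN : ¬ ℓ ∣ N) (hℓB : ℓ ∉ (↑B : Set ℕ)),
      ∀ A : ValuationSubring (AlgebraicClosure ℚ), A.LiesOverPrime ℓ →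
      ∀ σ : AlgebraicClosure ℚ ≃ₐ[ℚ] AlgebraicClosure ℚ, A.IsFrobeniusAt σ ℓ →
        LinearMap.charpoly (ρ.ρ σ) =
          X ^ 2 - C (χ (heckeAlgebra.T hℓ hℓN hℓB)) * X + C ((ℓ : 𝒪'))) ∧
    ∃ A : ValuationSubring (AlgebraicClosure ℚ), A.LiesOverPrime q ∧
      ∀ σ ∈ A.inertiaSubgroupIn ℚ, ρ.ρ σ = 1

end Fermat.Agent.Lib.S59
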