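/-
PROGRAMME (R), bridge (iii), concrete instance (helper6, prefix `s59q_`), part B: **the frames `U_t = P_t (1 + Z_t)` over
`T⟦z⟧`** (`Z_t` a `2 × 2` matrix of variables, `P_t ∈ GL₂(𝒪)`), their images under a tangent vector, and the two local
tools: `s59q_framed_eps_free` (entries `ε`-free ⇒ framed matrix `ε`-free) and `s59q_zeta_offdiag_eq` (the off-diagonal
frame variables are determined where the residual Frobenius is `diag(α, β)`, `α ≠ β`).
-/
import Fermat.Agent.Lib.S59.QBrInstA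

set_option autoImplicit false
set_option linter.style.haveILetI false
set_option linter.unusedSectionVars false

noncomputable section

namespace Fermat.Agent.Lib.S59

open IsLocalRing Module ExtCitation Fermat.Agent.Lib.S56
open Fermat.Agent.Lib.S53 (matOf matOfRes NormData)
open Fermat.Agent.Lib.Deform

attribute [local instance] Fermat.Agent.Lib.Deform.dualNumberAlgebra

local notation "Γℚ" => (AlgebraicClosure ℚ ≃ₐ[ℚ] AlgebraicClosure ℚ)

section DualMat

variable {k : Type} [Field k]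

theorem s59q_fstM_add (A B : Matrix (Fin 2) (Fin 2) (DualNumber k)) :
    s56a_fstM (A + B) = s56a_fstM A + s56a_fstM B := by
  ext i j; simp

theorem s59q_sndM_add (A B : Matrix (Fin 2) (Fin 2) (DualNumber k)) :
    s56a_sndM (A + B) = s56a_sndM A + s56a_sndM B := by
  ext i j; simp

end DualMat

/-- the coordinates `(i2 (M₀₀ - M₁₁), M₀₁, M₁₀)` of the trace-free part of a `2 × 2` matrix. -/
def s59q_tl {A : Type*} [CommRing A] (i2 : A) (M : Matrix (Fin 2) (Fin 2) A) : Fin 3 → A :=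
  ![i2 * (M 0 0 - M 1 1), M 0 1, M 1 0]

section Framed

variable {𝒪 : Type} [CommRing 𝒪] [IsDomain 𝒪] [IsDiscreteValuationRing 𝒪]
  [IsAdicComplete (maximalIdeal 𝒪) 𝒪]
  {ρbar : ResidualGaloisRep (ResidueField 𝒪)}
  {𝒟 : ∀ ⦃A : Type⦄ [CommRing A] [IsLocalRing A] [Algebra 𝒪 A], GaloisRepAdic A → Prop}
  (D : GaloisRep.DeformationRingData 𝒪 ρbar 𝒟) (N : NormData ρbar)
  (bR : Basis (Fin 2) D.R D.ρ.V)
  (hbR : ∀ σ i j, matOf D.ρ bR σ i j - algebraMap 𝒪 D.R (N.Mtil σ i j) ∈ maximalIdeal D.R)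
  {C : Type} [CommRing C] [Algebra 𝒪 C] (ψ : D.R →ₐ[𝒪] C)

include hbR in
/-- the constant part of a framed matrix. -/
theorem s59q_fstM_framed (f : C →ₐ[𝒪] DualNumber (ResidueField 𝒪))
    (U U' : Matrix (Fin 2) (Fin 2) C) (g : Γℚ) :
    s56a_fstM ((U' * (matOf D.ρ bR g).map ψ * U).map f) =
      s56a_fstM (U'.map f) * matOfRes ρbar N.b g * s56a_fstM (U.map f) := by
  rw [← s59q_famOf_framed, s56a_fstM_mul, s56a_fstM_mul, s56a_fst_famOf D N bR hbR]

include hbR in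
/-- **entries `ε`-free ⇒ framed matrix `ε`-free** (no surjectivity hypothesis on `f ∘ ψ`). -/
theorem s59q_framed_eps_free (p : ℕ) [Fact p.Prime] (h𝒟 : s56a_TangentStable 𝒪 𝒟 p)
    (f : C →ₐ[𝒪] DualNumber (ResidueField 𝒪))
    (U U' : Matrix (Fin 2) (Fin 2) C) (hUU' : U * U' = 1) (hU'U : U' * U = 1) (g : Γℚ)
    (h01 : (f ((U' * (matOf D.ρ bR g).map ψ * U) 0 1)).snd = 0)
    (h10 : (f ((U' * (matOf D.ρ bR g).map ψ * U) 1 0)).snd = 0)
    (hd : (f ((U' * (matOf D.ρ bR g).map ψ * U) 0 0)).snd =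
      (f ((U' * (matOf D.ρ bR g).map ψ * U) 1 1)).snd)
    (htr : (matOfRes ρbar N.b g).trace ≠ 0) :
    s56a_sndM ((U' * (matOf D.ρ bR g).map ψ * U).map f) = 0 := by
  have hVV' : U.map f * U'.map f = 1 := by
    rw [← Matrix.map_mul, hUU', Matrix.map_one _ (map_zero f) (map_one f)]
  have hV'V : U'.map f * U.map f = 1 := by
    rw [← Matrix.map_mul, hU'U, Matrix.map_one _ (map_zero f) (map_one f)]
  refine s59q_sndM_eq_zero_of_entries _ h01 h10 hd ?_ ?_
  · rw [← s59q_famOf_framed, Matrix.det_mul, Matrix.det_mul]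
    have h1 : (U'.map f).det * (U.map f).det = 1 := by
      rw [← Matrix.det_mul, hV'V, Matrix.det_one]
    have e : (U'.map f).det * (s56a_famOf D bR (f.comp ψ) g).det * (U.map f).det =
        (s56a_famOf D bR (f.comp ψ) g).det * ((U'.map f).det * (U.map f).det) := by ring
    rw [e, h1, mul_one]
    exact s59q_det_famOf_snd D bR p h𝒟 (f.comp ψ) g
  · have h1 := s59q_fstM_framed D N bR hbR ψ f U U' g
    have h2 : s56a_fstM (U.map f) * s56a_fstM (U'.map f) = 1 := by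
      rw [← s56a_fstM_mul, hVV', s56a_fstM_one]
    have h3 : (s56a_fstM ((U' * (matOf D.ρ bR g).map ψ * U).map f)).trace =
        (matOfRes ρbar N.b g).trace := by
      rw [h1, Matrix.trace_mul_comm, ← mul_assoc, h2, one_mul]
    rw [Matrix.trace_fin_two] at h3
    rw [← s56a_fstM_apply, ← s56a_fstM_apply, h3]
    exact htr

end Framed

section Frames

variable {𝒪 : Type} [CommRing 𝒪] [IsDomain 𝒪] [IsDiscreteValuationRing 𝒪]
  [IsAdicComplete (maximalIdeal 𝒪) 𝒪]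
  {T : Type} [CommRing T] [IsLocalRing T] [Algebra 𝒪 T] {F : Type}

/-- the matrix of variables at `t`. -/
def s59q_Zmat (T : Type) [CommRing T] {F : Type} (t : F) :
    Matrix (Fin 2) (Fin 2) (MvPowerSeries (F × Fin 2 × Fin 2) T) :=
  Matrix.of fun i j => MvPowerSeries.X (t, i, j)

theorem s59q_Zmat_apply (t : F) (i j : Fin 2) :
    s59q_Zmat T t i j = MvPowerSeries.X (t, i, j) := rfl

theorem s59q_isUnit_det_one_add_Zmat (t : F) : IsUnit (1 + s59q_Zmat T t).det := by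
  rw [MvPowerSeries.isUnit_iff_constantCoeff, RingHom.map_det]
  have h : (MvPowerSeries.constantCoeff (σ := F × Fin 2 × Fin 2) (R := T)).mapMatrix
      (1 + s59q_Zmat T t) = 1 := by
    ext i j
    rw [RingHom.mapMatrix_apply, Matrix.map_apply, Matrix.add_apply, map_add, s59q_Zmat_apply,
      MvPowerSeries.constantCoeff_X, add_zero]
    by_cases hij : i = j
    · subst hij; rw [Matrix.one_apply_eq, Matrix.one_apply_eq, map_one]
    · rw [Matrix.one_apply_ne hij, Matrix.one_apply_ne hij, map_zero]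
  rw [h, Matrix.det_one]
  exact isUnit_one

/-- the frame `P (1 + Z_t)`. -/
def s59q_frameU (T : Type) [CommRing T] [Algebra 𝒪 T] {F : Type} (P : Matrix (Fin 2) (Fin 2) 𝒪)
    (t : F) : Matrix (Fin 2) (Fin 2) (MvPowerSeries (F × Fin 2 × Fin 2) T) :=
  P.map (algebraMap 𝒪 (MvPowerSeries (F × Fin 2 × Fin 2) T)) * (1 + s59q_Zmat T t)

/-- its inverse `(1 + Z_t)⁻¹ P'`. -/
def s59q_frameU' (T : Type) [CommRing T] [Algebra 𝒪 T] {F : Type} (P' : Matrix (Fin 2) (Fin 2) 𝒪)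
    (t : F) : Matrix (Fin 2) (Fin 2) (MvPowerSeries (F × Fin 2 × Fin 2) T) :=
  (1 + s59q_Zmat T t)⁻¹ * P'.map (algebraMap 𝒪 (MvPowerSeries (F × Fin 2 × Fin 2) T))

theorem s59q_frameU_mul (P P' : Matrix (Fin 2) (Fin 2) 𝒪) (hPP' : P * P' = 1) (t : F) :
    s59q_frameU T P t * s59q_frameU' T P' t = 1 := by
  rw [s59q_frameU, s59q_frameU']
  have h1 := Matrix.mul_nonsing_inv (1 + s59q_Zmat T t) (s59q_isUnit_det_one_add_Zmat t)
  calc P.map (algebraMap 𝒪 _) * (1 + s59q_Zmat T t) *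
        ((1 + s59q_Zmat T t)⁻¹ * P'.map (algebraMap 𝒪 _))
      = P.map (algebraMap 𝒪 _) * ((1 + s59q_Zmat T t) * (1 + s59q_Zmat T t)⁻¹) *
          P'.map (algebraMap 𝒪 _) := by simp only [mul_assoc]
    _ = 1 := by
        rw [h1, mul_one, ← Matrix.map_mul, hPP',
          Matrix.map_one _ (map_zero _) (map_one _)]

theorem s59q_frameU'_mul (P P' : Matrix (Fin 2) (Fin 2) 𝒪) (hP'P : P' * P = 1) (t : F) :
    s59q_frameU' T P' t * s59q_frameU T P t = 1 := by
  rw [s59q_frameU, s59q_frameU']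
  have h1 := Matrix.nonsing_inv_mul (1 + s59q_Zmat T t) (s59q_isUnit_det_one_add_Zmat t)
  calc (1 + s59q_Zmat T t)⁻¹ * P'.map (algebraMap 𝒪 _) *
        (P.map (algebraMap 𝒪 _) * (1 + s59q_Zmat T t))
      = (1 + s59q_Zmat T t)⁻¹ * (P'.map (algebraMap 𝒪 _) * P.map (algebraMap 𝒪 _)) *
          (1 + s59q_Zmat T t) := by simp only [mul_assoc]
    _ = 1 := by
        rw [← Matrix.map_mul, hP'P, Matrix.map_one _ (map_zero _) (map_one _), mul_one, h1]

variable [Finite F]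

/-- the `ε`-parts of the images of the frame variables at `t`. -/
def s59q_zeta (f : MvPowerSeries (F × Fin 2 × Fin 2) T →ₐ[𝒪] DualNumber (ResidueField 𝒪)) (t : F) :
    Matrix (Fin 2) (Fin 2) (ResidueField 𝒪) :=
  Matrix.of fun i j => (f (MvPowerSeries.X (t, i, j))).snd

theorem s59q_zeta_apply (f : MvPowerSeries (F × Fin 2 × Fin 2) T →ₐ[𝒪] DualNumber (ResidueField 𝒪))
    (t : F) (i j : Fin 2) : s59q_zeta f t i j = (f (MvPowerSeries.X (t, i, j))).snd := rfl

/-- constant matrices map to constant matrices. -/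
theorem s59q_map_const {C : Type} [CommRing C] [Algebra 𝒪 C]
    (P : Matrix (Fin 2) (Fin 2) 𝒪) (f : C →ₐ[𝒪] DualNumber (ResidueField 𝒪)) :
    (P.map (algebraMap 𝒪 C)).map f = s56a_inlM (P.map (residue 𝒪)) := by
  ext i j : 1
  rw [Matrix.map_apply, Matrix.map_apply, f.commutes, dualNumber_algebraMap_apply]
  rfl

variable (hC : IsTestAlgebra 𝒪 (MvPowerSeries (F × Fin 2 × Fin 2) T))
  (f : MvPowerSeries (F × Fin 2 × Fin 2) T →ₐ[𝒪] DualNumber (ResidueField 𝒪))

include hC in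
theorem s59q_Zmat_map_fst (t : F) : s56a_fstM ((s59q_Zmat T t).map f) = 0 := by
  ext i j
  rw [s56a_fstM_apply, Matrix.map_apply, s59q_Zmat_apply, Matrix.zero_apply, s59q_fst_tangent hC,
    resk_eq_zero_iff]
  exact X_mem_maximalIdeal _

theorem s59q_Zmat_map_snd (t : F) : s56a_sndM ((s59q_Zmat T t).map f) = s59q_zeta f t := rfl

include hC in
theorem s59q_frameU_fst (P : Matrix (Fin 2) (Fin 2) 𝒪) (t : F) :
    s56a_fstM ((s59q_frameU T P t).map f) = P.map (residue 𝒪) := by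
  rw [s59q_frameU, Matrix.map_mul, s56a_fstM_mul, s59q_map_const, s56a_fstM_inlM,
    Matrix.map_add _ (map_add f), Matrix.map_one _ (map_zero f) (map_one f), s59q_fstM_add,
    s56a_fstM_one, s59q_Zmat_map_fst hC f t, add_zero, mul_one]

include hC in
theorem s59q_frameU_snd (P : Matrix (Fin 2) (Fin 2) 𝒪) (t : F) :
    s56a_sndM ((s59q_frameU T P t).map f) = P.map (residue 𝒪) * s59q_zeta f t := by
  rw [s59q_frameU, Matrix.map_mul, s56a_sndM_mul, s59q_map_const, s56a_fstM_inlM, s56a_sndM_inlM,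
    Matrix.map_add _ (map_add f), Matrix.map_one _ (map_zero f) (map_one f), s59q_sndM_add,
    s56a_sndM_one, s59q_Zmat_map_snd, zero_add, zero_mul, add_zero]

include hC in
theorem s59q_frameU'_fst (P P' : Matrix (Fin 2) (Fin 2) 𝒪) (hPP' : P * P' = 1)
    (hP'P : P' * P = 1) (t : F) :
    s56a_fstM ((s59q_frameU' T P' t).map f) = P'.map (residue 𝒪) := by
  have h1 : s56a_fstM ((s59q_frameU' T P' t).map f) * s56a_fstM ((s59q_frameU T P t).map f) = 1 := by
    rw [← s56a_fstM_mul, ← Matrix.map_mul, s59q_frameU'_mul P P' hP'P t,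
      Matrix.map_one _ (map_zero f) (map_one f), s56a_fstM_one]
  rw [s59q_frameU_fst hC f P t] at h1
  have h2 : P.map (residue 𝒪) * P'.map (residue 𝒪) = 1 := by
    rw [← Matrix.map_mul, hPP', Matrix.map_one _ (map_zero _) (map_one _)]
  calc s56a_fstM ((s59q_frameU' T P' t).map f)
      = s56a_fstM ((s59q_frameU' T P' t).map f) * (P.map (residue 𝒪) * P'.map (residue 𝒪)) := by
        rw [h2, mul_one]
    _ = P'.map (residue 𝒪) := by rw [← mul_assoc, h1, one_mul]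

end Frames

section OffDiag

variable {𝒪 : Type} [CommRing 𝒪] [IsDomain 𝒪] [IsDiscreteValuationRing 𝒪]
  [IsAdicComplete (maximalIdeal 𝒪) 𝒪]
  {ρbar : ResidualGaloisRep (ResidueField 𝒪)}
  {𝒟 : ∀ ⦃A : Type⦄ [CommRing A] [IsLocalRing A] [Algebra 𝒪 A], GaloisRepAdic A → Prop}
  (D : GaloisRep.DeformationRingData 𝒪 ρbar 𝒟) (N : NormData ρbar)
  (bR : Basis (Fin 2) D.R D.ρ.V)
  (hbR : ∀ σ i j, matOf D.ρ bR σ i j - algebraMap 𝒪 D.R (N.Mtil σ i j) ∈ maximalIdeal D.R)
  {T : Type} [CommRing T] [IsLocalRing T] [Algebra 𝒪 T] {F : Type} [Finite F]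
  (ψ : D.R →ₐ[𝒪] MvPowerSeries (F × Fin 2 × Fin 2) T)
  (hC : IsTestAlgebra 𝒪 (MvPowerSeries (F × Fin 2 × Fin 2) T))

include hbR hC in
/-- **the off-diagonal frame variables are determined** at a place where the residual matrix is `diag(α, β)`, `α ≠ β`,
in the residual frame. -/
theorem s59q_zeta_offdiag_eq
    (f f' : MvPowerSeries (F × Fin 2 × Fin 2) T →ₐ[𝒪] DualNumber (ResidueField 𝒪))
    (hff' : f.comp ψ = f'.comp ψ) (t : F) (P P' : Matrix (Fin 2) (Fin 2) 𝒪) (hPP' : P * P' = 1)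
    (hP'P : P' * P = 1) (g : Γℚ) (α β : ResidueField 𝒪) (hαβ : α ≠ β)
    (hdiag : P'.map (residue 𝒪) * matOfRes ρbar N.b g * P.map (residue 𝒪) =
      Matrix.diagonal ![α, β])
    (h : s56a_sndM ((s59q_frameU' T P' t * (matOf D.ρ bR g).map ψ * s59q_frameU T P t).map f) = 0)
    (h' : s56a_sndM ((s59q_frameU' T P' t * (matOf D.ρ bR g).map ψ * s59q_frameU T P t).map f') = 0) :
    s59q_zeta f' t 0 1 = s59q_zeta f t 0 1 ∧ s59q_zeta f' t 1 0 = s59q_zeta f t 1 0 := by
  have hcomm := s59q_frame_diff_comm D N bR hbR ψ hC f f' hff' (s59q_frameU T P t)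
    (s59q_frameU' T P' t) (s59q_frameU_mul P P' hPP' t) (s59q_frameU'_mul P P' hP'P t) g h h'
  rw [s59q_frameU_snd hC f' P t, s59q_frameU_snd hC f P t, s59q_frameU'_fst hC f P P' hPP' hP'P t,
    ← mul_sub] at hcomm
  set Pb := P.map (residue 𝒪) with hPb
  set Pb' := P'.map (residue 𝒪) with hPb'
  set R := matOfRes ρbar N.b g with hR
  set Dz := s59q_zeta f' t - s59q_zeta f t with hDz
  have e2 : Pb' * Pb = 1 := by
    rw [hPb, hPb', ← Matrix.map_mul, hP'P, Matrix.map_one _ (map_zero _) (map_one _)]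
  have key : Dz * Matrix.diagonal ![α, β] = Matrix.diagonal ![α, β] * Dz := by
    rw [← hdiag]
    calc Dz * (Pb' * R * Pb) = (Pb' * Pb) * Dz * (Pb' * R * Pb) := by rw [e2, one_mul]
      _ = Pb' * (Pb * Dz * Pb' * R) * Pb := by simp only [mul_assoc]
      _ = Pb' * (R * (Pb * Dz * Pb')) * Pb := by rw [hcomm]
      _ = (Pb' * R * Pb) * Dz * (Pb' * Pb) := by simp only [mul_assoc]
      _ = (Pb' * R * Pb) * Dz := by rw [e2, mul_one]
  obtain ⟨h01, h10⟩ := s59q_diag_of_comm Dz α β hαβ key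
  rw [hDz, Matrix.sub_apply, sub_eq_zero] at h01 h10
  exact ⟨h01, h10⟩

end OffDiag

end Fermat.Agent.Lib.S59
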