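/-
PROGRAMME (R) (helper6, prefix `s59q_`): **from the output of Ihara avoidance to the trace condition of the extraction.**

`s59q_unr_mod_of_isTameGen`: an adically continuous action `ρ` on a finite module `V` over a noetherian local ring `A` of
residue characteristic `p ≠ q`, residually trivial on `I_P`; `𝔭` ANY ideal of `A`; if `ρ(σ) ≡ 1` modulo `𝔭 V` for a uniform
generator `σ` of tame inertia, then `ρ(τ) ≡ 1` modulo `𝔭 V` for every `τ ∈ I_P`.
`s59q_trace_inv_of_isTameGen`: rank two, matrix form: if the three coordinates `s59q_tl` of `ρ(σ)` lie in `𝔭` and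
`tr ρ(σ) = 2`, then `tr ρ(τ h) ≡ tr ρ(h)` modulo `𝔭` for all `τ ∈ I_P`, `h ∈ G_ℚ` (the hypothesis `hIt` of helper9's
`s59m_extract`, with `t = tr ρ` modulo `𝔭`).
-/
import Fermat.Agent.Lib.S59.QBrUnifUse
import Fermat.Agent.Lib.S59.QBrInstB

set_option autoImplicit false
set_option linter.style.haveILetI false
set_option linter.unusedSectionVars false

noncomputable section

namespace Fermat.Agent.Lib.S59

open IsLocalRing Module Fermat.Agent.Lib.S56
open Fermat.Agent.Lib.S53 (matOf)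

local notation "Γℚ" => (AlgebraicClosure ℚ ≃ₐ[ℚ] AlgebraicClosure ℚ)

section Quot

variable {A : Type} [CommRing A] {V : Type} [AddCommGroup V] [Module A V]

theorem s59q_smul_top_le_comap (𝔭 : Ideal A) (f : Module.End A V) :
    (𝔭 • (⊤ : Submodule A V)) ≤ (𝔭 • (⊤ : Submodule A V)).comap f := by
  rw [← Submodule.map_le_iff_le_comap, Submodule.map_smul'']
  exact Submodule.smul_mono le_rfl le_top

/-- the action induced on `V ⧸ 𝔭 V`. -/
def s59q_quotRep (ρ : Γℚ →* Module.End A V) (𝔭 : Ideal A) :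
    Γℚ →* Module.End A (V ⧸ (𝔭 • (⊤ : Submodule A V))) where
  toFun g := Submodule.mapQ _ _ (ρ g) (s59q_smul_top_le_comap 𝔭 (ρ g))
  map_one' := by
    ext v
    simp
  map_mul' g h := by
    ext v
    simp [map_mul]

theorem s59q_quotRep_mk (ρ : Γℚ →* Module.End A V) (𝔭 : Ideal A) (g : Γℚ) (v : V) :
    s59q_quotRep ρ 𝔭 g (Submodule.Quotient.mk v) = Submodule.Quotient.mk (ρ g v) := rfl

theorem s59q_mk_mem_smul_top (𝔭 I : Ideal A) {v : V} (hv : v ∈ I • (⊤ : Submodule A V)) :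
    (Submodule.Quotient.mk v : V ⧸ (𝔭 • (⊤ : Submodule A V))) ∈
      I • (⊤ : Submodule A (V ⧸ (𝔭 • (⊤ : Submodule A V)))) := by
  have h1 : Submodule.map (𝔭 • (⊤ : Submodule A V)).mkQ (I • (⊤ : Submodule A V)) ≤
      I • (⊤ : Submodule A (V ⧸ (𝔭 • (⊤ : Submodule A V)))) := by
    rw [Submodule.map_smul'']
    exact Submodule.smul_mono le_rfl le_top
  exact h1 (Submodule.mem_map_of_mem hv)

end Quot

section Unr

variable {A : Type} [CommRing A] [IsLocalRing A] [IsNoetherianRing A]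
  {V : Type} [AddCommGroup V] [Module A V] [Module.Finite A V]

/-- **unramifiedness modulo an arbitrary ideal is tested on a uniform generator of tame inertia.** -/
theorem s59q_unr_mod_of_isTameGen (ρ : Γℚ →* Module.End A V)
    (hcont : GaloisActionIsAdicContinuous A ρ) (p : ℕ) (hpp : p.Prime)
    (hpA : ((p : ℕ) : A) ∈ maximalIdeal A) (q : ℕ) (hq : q.Prime) (hqp : q ≠ p)
    (P : ValuationSubring (AlgebraicClosure ℚ))
    (hres : ∀ τ ∈ P.inertiaSubgroupIn ℚ, ∀ v : V,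
      ρ τ v - v ∈ (maximalIdeal A) • (⊤ : Submodule A V))
    (σ : Γℚ) (hσ : s59q_IsTameGen q P σ) (𝔭 : Ideal A)
    (h1 : ∀ v : V, ρ σ v - v ∈ 𝔭 • (⊤ : Submodule A V)) :
    ∀ τ ∈ P.inertiaSubgroupIn ℚ, ∀ v : V, ρ τ v - v ∈ 𝔭 • (⊤ : Submodule A V) := by
  have hcont' : GaloisActionIsAdicContinuous A (s59q_quotRep ρ 𝔭) := by
    intro n
    obtain ⟨L, hL, hLσ⟩ := hcont n
    refine ⟨L, hL, fun g hg w => ?_⟩
    obtain ⟨v, rfl⟩ := Submodule.Quotient.mk_surjective _ w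
    rw [s59q_quotRep_mk, ← Submodule.Quotient.mk_sub]
    exact s59q_mk_mem_smul_top 𝔭 _ (hLσ g hg v)
  have hres' : ∀ τ ∈ P.inertiaSubgroupIn ℚ, ∀ w : V ⧸ (𝔭 • (⊤ : Submodule A V)),
      s59q_quotRep ρ 𝔭 τ w - w ∈ (maximalIdeal A) • (⊤ : Submodule A _) := by
    intro τ hτ w
    obtain ⟨v, rfl⟩ := Submodule.Quotient.mk_surjective _ w
    rw [s59q_quotRep_mk, ← Submodule.Quotient.mk_sub]
    exact s59q_mk_mem_smul_top 𝔭 _ (hres τ hτ v)
  have h1' : s59q_quotRep ρ 𝔭 σ = 1 := by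
    ext v
    show s59q_quotRep ρ 𝔭 σ (Submodule.Quotient.mk v) = Submodule.Quotient.mk v
    rw [s59q_quotRep_mk, ← sub_eq_zero, ← Submodule.Quotient.mk_sub,
      Submodule.Quotient.mk_eq_zero]
    exact h1 v
  intro τ hτ v
  have h2 := s59q_unr_of_isTameGen (s59q_quotRep ρ 𝔭) hcont' p hpp hpA q hq hqp P hres' σ hσ h1' τ hτ
  have h3 := LinearMap.congr_fun h2 (Submodule.Quotient.mk v)
  rw [s59q_quotRep_mk, Module.End.one_apply, ← sub_eq_zero, ← Submodule.Quotient.mk_sub,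
    Submodule.Quotient.mk_eq_zero] at h3
  exact h3

end Unr

section Trace

variable {A : Type} [CommRing A] [IsLocalRing A] [IsNoetherianRing A]

/-- coordinates of an element of `𝔭 V` lie in `𝔭`. -/
theorem s59q_repr_mem_of_mem_smul_top {V : Type} [AddCommGroup V] [Module A V]
    (b : Basis (Fin 2) A V) (𝔭 : Ideal A) {v : V} (hv : v ∈ 𝔭 • (⊤ : Submodule A V)) (i : Fin 2) :
    b.repr v i ∈ 𝔭 := by
  refine Submodule.smul_induction_on hv ?_ ?_
  · intro r hr n _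
    rw [map_smul, Finsupp.smul_apply, smul_eq_mul]
    exact 𝔭.mul_mem_right _ hr
  · intro x y hx hy
    rw [map_add, Finsupp.add_apply]
    exact 𝔭.add_mem hx hy

/-- **the trace condition of the extraction from the output of Ihara avoidance.** -/
theorem s59q_trace_inv_of_isTameGen (ρ : GaloisRepAdic A) (b : Basis (Fin 2) A ρ.V)
    (p : ℕ) (hpp : p.Prime) (hpA : ((p : ℕ) : A) ∈ maximalIdeal A) (q : ℕ) (hq : q.Prime)
    (hqp : q ≠ p) (P : ValuationSubring (AlgebraicClosure ℚ))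
    (hres : ∀ τ ∈ P.inertiaSubgroupIn ℚ, ∀ v : ρ.V,
      ρ.ρ τ v - v ∈ (maximalIdeal A) • (⊤ : Submodule A ρ.V))
    (σ : Γℚ) (hσ : s59q_IsTameGen q P σ) (i2 : A) (hi2 : 2 * i2 = 1) (𝔭 : Ideal A)
    (htr : (matOf ρ b σ).trace = 2) (htl : ∀ k, s59q_tl i2 (matOf ρ b σ) k ∈ 𝔭) :
    (∀ τ ∈ P.inertiaSubgroupIn ℚ, ∀ i j, (matOf ρ b τ - 1) i j ∈ 𝔭) ∧
    ∀ τ ∈ P.inertiaSubgroupIn ℚ, ∀ h : Γℚ,
      (matOf ρ b (τ * h)).trace - (matOf ρ b h).trace ∈ 𝔭 := by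
  set Sg := matOf ρ b σ with hSg
  -- `Sg ≡ 1` modulo `𝔭`
  have h01 : Sg 0 1 ∈ 𝔭 := htl 1
  have h10 : Sg 1 0 ∈ 𝔭 := htl 2
  have hd : Sg 0 0 - Sg 1 1 ∈ 𝔭 := by
    have h := 𝔭.mul_mem_left 2 (htl 0)
    have e : (2 : A) * s59q_tl i2 Sg 0 = Sg 0 0 - Sg 1 1 := by
      show (2 : A) * (i2 * (Sg 0 0 - Sg 1 1)) = _
      rw [← mul_assoc, hi2, one_mul]
    rwa [e] at h
  rw [Matrix.trace_fin_two] at htr
  have h00 : Sg 0 0 - 1 ∈ 𝔭 := by
    have h := 𝔭.mul_mem_left i2 hd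
    have e : i2 * (Sg 0 0 - Sg 1 1) = Sg 0 0 - 1 := by
      have h11 : Sg 1 1 = 2 - Sg 0 0 := by rw [← htr]; ring
      rw [h11]
      calc i2 * (Sg 0 0 - (2 - Sg 0 0)) = (2 * i2) * (Sg 0 0 - 1) := by ring
        _ = Sg 0 0 - 1 := by rw [hi2, one_mul]
    rwa [e] at h
  have h11 : Sg 1 1 - 1 ∈ 𝔭 := by
    have e : Sg 1 1 - 1 = -(Sg 0 0 - 1) := by
      have h11' : Sg 1 1 = 2 - Sg 0 0 := by rw [← htr]; ring
      rw [h11']; ring
    rw [e]
    exact 𝔭.neg_mem h00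
  have hSg1 : ∀ i j, (Sg - 1) i j ∈ 𝔭 := by
    intro i j
    fin_cases i <;> fin_cases j
    · simpa using h00
    · simpa using h01
    · simpa using h10
    · simpa using h11
  -- `ρ σ ≡ 1` modulo `𝔭 V`
  have h1 : ∀ v : ρ.V, ρ.ρ σ v - v ∈ 𝔭 • (⊤ : Submodule A ρ.V) := by
    intro v
    have e : ρ.ρ σ v - v = ∑ i, (∑ j, (Sg - 1) i j * b.repr v j) • b i := by
      have h2 : (ρ.ρ σ - 1) v = ρ.ρ σ v - v := by
        rw [LinearMap.sub_apply, Module.End.one_apply]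
      rw [← h2]
      have h3 : LinearMap.toMatrix b b (ρ.ρ σ - 1) = Sg - 1 := by
        rw [map_sub, LinearMap.toMatrix_one, hSg, Fermat.Agent.Lib.S53.matOf_apply]
      conv_lhs => rw [← b.sum_repr ((ρ.ρ σ - 1) v)]
      refine Finset.sum_congr rfl fun i _ => ?_
      rw [← h3, ← LinearMap.toMatrix_mulVec_repr b b (ρ.ρ σ - 1) v]
      rfl
    rw [e]
    refine Submodule.sum_mem _ fun i _ => Submodule.smul_mem_smul ?_ Submodule.mem_top
    exact 𝔭.sum_mem fun j _ => 𝔭.mul_mem_right _ (hSg1 i j)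
  have hall := s59q_unr_mod_of_isTameGen ρ.ρ ρ.isAdicContinuous p hpp hpA q hq hqp P hres σ hσ 𝔭 h1
  have hent : ∀ τ ∈ P.inertiaSubgroupIn ℚ, ∀ i j, (matOf ρ b τ - 1) i j ∈ 𝔭 := by
    intro τ hτ i j
    have h3 : matOf ρ b τ - 1 = LinearMap.toMatrix b b (ρ.ρ τ - 1) := by
      rw [map_sub, LinearMap.toMatrix_one, Fermat.Agent.Lib.S53.matOf_apply]
    rw [h3, LinearMap.toMatrix_apply, LinearMap.sub_apply, Module.End.one_apply]
    exact s59q_repr_mem_of_mem_smul_top b 𝔭 (hall τ hτ (b j)) i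
  refine ⟨hent, fun τ hτ h => ?_⟩
  have e : (matOf ρ b (τ * h)).trace - (matOf ρ b h).trace =
      ((matOf ρ b τ - 1) * matOf ρ b h).trace := by
    rw [map_mul, sub_mul, one_mul, Matrix.trace_sub]
  rw [e, Matrix.trace, Finset.sum_congr rfl (fun i _ => Matrix.diag_apply _ i)]
  refine 𝔭.sum_mem fun i _ => ?_
  rw [Matrix.mul_apply]
  exact 𝔭.sum_mem fun j _ => 𝔭.mul_mem_right _ (hent τ hτ i j)

end Trace

end Fermat.Agent.Lib.S59
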