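/-
[E] FINAL ASSEMBLY (helper4, prefix `s59i_`), FIN-A2: FROM THE PRIME OF IHARA AVOIDANCE TO `[UNR-PT]`.

`R` a local noetherian `ℤ_p`-algebra, finite over `ℤ_p` (the Hecke ring `T¹_∅` acting on the
type-`1` module at level `N`), `πR : heckeAlgebra N 2 B →+* R`, `ρ : GaloisRepAdic R` with the
Frobenius polynomials `X² − πR(T_ℓ) X + ℓ`, residually unramified at `q`, `σ` a uniform generator
of tame inertia at `primeLocalPlace q`, `tr ρ(σ) = 2`; `𝔭` a prime of `R` of characteristic zero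
containing the three coordinates `s59q_tl` of `ρ(σ)` (the output `𝔲 ≤ 𝔭` of `s59i_IA_mid`).
Then `[UNR-PT]` holds with `𝒪' = R ⧸ 𝔭` (helper6's glue `s59q_trace_inv_of_isTameGen`).
-/
import Mathlib
import Fermat.Agent.Lib.S59.LUnrPt
import Fermat.Agent.Lib.S59.QBrUnr

set_option autoImplicit false
set_option linter.unusedSectionVars false
set_option linter.unusedVariables false
set_option linter.style.haveILetI false

noncomputable section

namespace Fermat.Agent.Lib.S59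

open IsLocalRing Polynomial CuspForm TensorProduct
open Fermat.Agent.Lib.S53 (matOf)

local notation "Γℚ" => (AlgebraicClosure ℚ ≃ₐ[ℚ] AlgebraicClosure ℚ)

section BaseChange

variable {A : Type} [CommRing A] {V : Type} [AddCommGroup V] [Module A V]

/-- an endomorphism congruent to `1` modulo `𝔭 V` becomes `1` after base change to an `A`-algebra
killed by `𝔭`. -/
theorem s59i_baseChange_eq_one {B : Type} [CommRing B] [Algebra A B] (𝔭 : Ideal A)
    (h𝔭 : ∀ a ∈ 𝔭, algebraMap A B a = 0) (f : Module.End A V)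
    (h : ∀ v : V, f v - v ∈ 𝔭 • (⊤ : Submodule A V)) :
    f.baseChange B = 1 := by
  apply LinearMap.ext
  intro x
  induction x using TensorProduct.induction_on with
  | zero => rw [map_zero, map_zero]
  | tmul c v =>
    rw [LinearMap.baseChange_tmul, Module.End.one_apply, ← sub_eq_zero, ← TensorProduct.tmul_sub]
    refine Submodule.smul_induction_on (p := fun x => c ⊗ₜ[A] x = 0) (h v) ?_ ?_
    · intro a ha w _
      rw [TensorProduct.tmul_smul, TensorProduct.smul_tmul', Algebra.smul_def, h𝔭 a ha, zero_mul,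
        TensorProduct.zero_tmul]
    · intro x y hx hy
      rw [TensorProduct.tmul_add, hx, hy, add_zero]
  | add x y hx hy => rw [map_add, hx, hy, map_add]

/-- matrix entries in `𝔭` ⇒ congruent to `1` modulo `𝔭 V`. -/
theorem s59i_sub_mem_of_matrix (b : Module.Basis (Fin 2) A V) (𝔭 : Ideal A) (f : Module.End A V)
    (h : ∀ i j, (LinearMap.toMatrix b b f - 1) i j ∈ 𝔭) (v : V) :
    f v - v ∈ 𝔭 • (⊤ : Submodule A V) := by
  have hb : ∀ j, f (b j) - b j ∈ 𝔭 • (⊤ : Submodule A V) := by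
    intro j
    have e : f (b j) - b j = ∑ i, (LinearMap.toMatrix b b f - 1) i j • b i := by
      have h1 : f (b j) = ∑ i, (LinearMap.toMatrix b b f) i j • b i := by
        conv_lhs => rw [← b.sum_repr (f (b j))]
        refine Finset.sum_congr rfl fun i _ => ?_
        rw [LinearMap.toMatrix_apply]
      have h2 : b j = ∑ i, (1 : Matrix (Fin 2) (Fin 2) A) i j • b i := by
        rw [Finset.sum_eq_single j]
        · rw [Matrix.one_apply_eq, one_smul]
        · intro i _ hij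
          rw [Matrix.one_apply_ne hij, zero_smul]
        · intro hj
          exact absurd (Finset.mem_univ j) hj
      conv_lhs => rw [h1]
      conv_lhs => rw [h2]
      rw [← Finset.sum_sub_distrib]
      refine Finset.sum_congr rfl fun i _ => ?_
      rw [Matrix.sub_apply, sub_smul]
    rw [e]
    exact Submodule.sum_mem _ fun i _ => Submodule.smul_mem_smul (h i j) Submodule.mem_top
  have hv : v = ∑ j, b.repr v j • b j := (b.sum_repr v).symm
  have e : f v - v = ∑ j, b.repr v j • (f (b j) - b j) := by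
    conv_lhs => rw [hv]
    rw [map_sum, ← Finset.sum_sub_distrib]
    refine Finset.sum_congr rfl fun j _ => ?_
    rw [map_smul, smul_sub]
  rw [e]
  exact Submodule.sum_mem _ fun j _ => Submodule.smul_mem _ _ (hb j)

end BaseChange

section Main

variable (p : ℕ) [hp : Fact p.Prime] (N : ℕ) [NeZero N] (B : Finset ℕ) (a : ℕ → ℤ)

/-- **FIN-A2: the prime of Ihara avoidance gives `[UNR-PT]`.** -/
theorem s59i_unrPt_of_prime (q : ℕ) (hq : q.Prime) (hqp : q ≠ p)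
    {R : Type} [CommRing R] [IsLocalRing R] [IsNoetherianRing R] [Algebra ℤ_[p] R]
    [Module.Finite ℤ_[p] R] (hpR : ((p : ℕ) : R) ∈ maximalIdeal R)
    (πR : heckeAlgebra N 2 (↑B : Set ℕ) →+* R) (ρ : GaloisRepAdic R)
    (hπa : ∀ (ℓ : ℕ) (hℓ : ℓ.Prime) (hℓN : ¬ ℓ ∣ N) (hℓB : ℓ ∉ (↑B : Set ℕ)),
      πR (heckeAlgebra.T hℓ hℓN hℓB) - ((a ℓ : ℤ) : R) ∈ maximalIdeal R)
    (hfrob : ∀ (ℓ : ℕ) (hℓ : ℓ.Prime) (hℓN : ¬ ℓ ∣ N) (hℓB : ℓ ∉ (↑B : Set ℕ)),
      ∀ A : ValuationSubring (AlgebraicClosure ℚ), A.LiesOverPrime ℓ →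
      ∀ σ : Γℚ, A.IsFrobeniusAt σ ℓ →
        LinearMap.charpoly (ρ.ρ σ) =
          X ^ 2 - C (πR (heckeAlgebra.T hℓ hℓN hℓB)) * X + C ((ℓ : R)))
    (P : ValuationSubring (AlgebraicClosure ℚ)) (hP : P.LiesOverPrime q)
    (hres : ∀ τ ∈ P.inertiaSubgroupIn ℚ, ∀ v : ρ.V,
      ρ.ρ τ v - v ∈ (maximalIdeal R) • (⊤ : Submodule R ρ.V))
    (b : Module.Basis (Fin 2) R ρ.V) (σ : Γℚ) (hσ : s59q_IsTameGen q P σ)
    (i2 : R) (hi2 : 2 * i2 = 1) (htr : (matOf ρ b σ).trace = 2)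
    (𝔭 : Ideal R) [h𝔭 : 𝔭.IsPrime] (h0 : ∀ n : ℕ, ((n : ℕ) : R) ∈ 𝔭 → n = 0)
    (htl : ∀ k, s59q_tl i2 (matOf ρ b σ) k ∈ 𝔭) :
    s59i_UnrPt p N B a q := by
  classical
  haveI : Nontrivial (R ⧸ 𝔭) := Ideal.Quotient.nontrivial_iff.mpr h𝔭.ne_top
  haveI : IsLocalRing (R ⧸ 𝔭) :=
    IsLocalRing.of_surjective' (Ideal.Quotient.mk 𝔭) Ideal.Quotient.mk_surjective
  have hloc : IsLocalHom (Ideal.Quotient.mk 𝔭) :=
    IsLocalHom.of_surjective _ Ideal.Quotient.mk_surjective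
  haveI : CharZero (R ⧸ 𝔭) := by
    refine ⟨fun m n hmn => ?_⟩
    wlog hle : m ≤ n generalizing m n
    · exact (this n m hmn.symm (le_of_not_ge hle)).symm
    obtain ⟨k, rfl⟩ := Nat.exists_eq_add_of_le hle
    have h1 : ((k : ℕ) : R ⧸ 𝔭) = 0 := by
      have : ((m : ℕ) : R ⧸ 𝔭) = ((m : ℕ) : R ⧸ 𝔭) + ((k : ℕ) : R ⧸ 𝔭) := by
        rw [← Nat.cast_add]; exact hmn
      exact (add_eq_left.mp this.symm)
    have h2 : ((k : ℕ) : R) ∈ 𝔭 := by
      rw [← Ideal.Quotient.eq_zero_iff_mem, map_natCast]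
      exact h1
    rw [h0 k h2, add_zero]
  haveI : Module.Finite ℤ_[p] (R ⧸ 𝔭) :=
    Module.Finite.of_surjective (Ideal.Quotient.mkₐ ℤ_[p] 𝔭).toLinearMap
      (Ideal.Quotient.mkₐ_surjective ℤ_[p] 𝔭)
  obtain ⟨hI, -⟩ := s59q_trace_inv_of_isTameGen ρ b p hp.out hpR q hq hqp P hres σ hσ i2 hi2 𝔭
    htr htl
  refine ⟨R ⧸ 𝔭, inferInstance, inferInstance, inferInstance, inferInstance, inferInstance,
    inferInstance, inferInstance, (Ideal.Quotient.mk 𝔭).comp πR,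
    ρ.baseChangeAlong (Ideal.Quotient.mk 𝔭) hloc, ?_, ?_, P, hP, ?_⟩
  · intro ℓ hℓ hℓN hℓB
    have h1 := hπa ℓ hℓ hℓN hℓB
    have h2 : (Ideal.Quotient.mk 𝔭) (πR (heckeAlgebra.T hℓ hℓN hℓB) - ((a ℓ : ℤ) : R)) ∈
        maximalIdeal (R ⧸ 𝔭) := by
      rw [IsLocalRing.mem_maximalIdeal, mem_nonunits_iff]
      intro hu
      exact h1 ((isUnit_map_iff (Ideal.Quotient.mk 𝔭) _).mp hu)
    rwa [map_sub, map_intCast] at h2
  · intro ℓ hℓ hℓN hℓB A hA τ hτ
    have h1 := hfrob ℓ hℓ hℓN hℓB A hA τ hτ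
    letI : Algebra R (R ⧸ 𝔭) := (Ideal.Quotient.mk 𝔭).toAlgebra
    show LinearMap.charpoly ((ρ.ρ τ).baseChange (R ⧸ 𝔭)) = _
    rw [LinearMap.charpoly_baseChange, h1, Polynomial.map_add, Polynomial.map_sub,
      Polynomial.map_mul, Polynomial.map_pow, Polynomial.map_X, Polynomial.map_C, Polynomial.map_C,
      map_natCast (algebraMap R (R ⧸ 𝔭))]
    rfl
  · intro τ hτ
    letI : Algebra R (R ⧸ 𝔭) := (Ideal.Quotient.mk 𝔭).toAlgebra
    show (ρ.ρ τ).baseChange (R ⧸ 𝔭) = 1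
    exact s59i_baseChange_eq_one 𝔭 (fun a ha => Ideal.Quotient.eq_zero_iff_mem.mpr ha) (ρ.ρ τ)
      (s59i_sub_mem_of_matrix b 𝔭 (ρ.ρ τ) (fun i j => hI τ hτ i j))

end Main

end Fermat.Agent.Lib.S59
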