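/-
[E] FINAL ASSEMBLY (helper4, prefix `s59i_`), FIN-A, part 4: `s59i_FINA1` + `s59i_unrPt_of_prime` ⇒ `[UNR-PT]`.
`G := Γℚ`; `R` (the Hecke ring `T¹_∅` acting on the type-`1` module at level `N`) is finite over `ℤ_p` and carries
`πR : heckeAlgebra N 2 B →+* R` and `ρR : GaloisRepAdic R` with the Frobenius polynomials of `πR`, whose matrices
span `M₂(R)` and whose trace function is the common trace function `τ` of the pushed-forward level-`n`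
representations.  The prime `𝔭` of `s59i_FINA1` contains the trace ideal of ramification at `σB j₀`, hence
(`s59i_tlIdeal_eq_trace`) the `tl`-coordinates of `ρR(σB j₀)`; `𝔭` has characteristic zero since it lies
over `𝔞`.  Output: `s59i_UnrPt p N B a (qB j₀)`.
-/
import Mathlib
import Fermat.Agent.Lib.S59.LFinA3
import Fermat.Agent.Lib.S59.LFinPt

set_option autoImplicit false
set_option linter.unusedSectionVars false
set_option linter.unusedVariables false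
set_option linter.style.haveILetI false
set_option maxHeartbeats 3200000

noncomputable section

namespace Fermat.Agent.Lib.S59

open IsLocalRing MvPowerSeries CuspForm
open Fermat.Agent.Lib.S53 (matOf)

local notation "Γℚ" => (AlgebraicClosure ℚ ≃ₐ[ℚ] AlgebraicClosure ℚ)

variable {𝒪 : Type} [CommRing 𝒪] [IsLocalRing 𝒪] [IsNoetherianRing 𝒪] [IsDomain 𝒪]
  [IsAdicComplete (maximalIdeal 𝒪) 𝒪] [Finite (ResidueField 𝒪)]

/-- **FIN-A (abstract top): the patching data give `[UNR-PT]`.** -/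
theorem s59i_FINA2
    (p : ℕ) [hp : Fact p.Prime] (N : ℕ) [NeZero N] (B : Finset ℕ) (a : ℕ → ℤ)
    (ϖ : 𝒪) (hϖ : ϖ ∈ maximalIdeal 𝒪) (m e r : ℕ) (D : s59l_EData 𝒪 e)
    {σ : Type} [Fintype σ] [DecidableEq σ]
    (hcount : 3 * m + ((r + m + e) + e * 3) ≤ r + Fintype.card σ)
    (R : Type) [CommRing R] [IsLocalRing R] [IsNoetherianRing R]
    [IsAdicComplete (maximalIdeal R) R] [Algebra ℤ_[p] R] [Module.Finite ℤ_[p] R]
    (hpR : ((p : ℕ) : R) ∈ maximalIdeal R)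
    (R' : Type) [CommRing R'] [IsLocalRing R'] [IsNoetherianRing R']
    [IsAdicComplete (maximalIdeal R') R']
    (M : Type) [AddCommGroup M] [Module R M] [Module.Finite R M]
    (M' : Type) [AddCommGroup M'] [Module R' M'] [Module.Finite R' M'] [Nontrivial M']
    (𝔞 : Ideal (MvPowerSeries σ (MvPowerSeries (Fin r) 𝒪))) [𝔞.IsPrime]
    (h𝔞0 : ∀ k : ℕ, ((k : ℕ) : MvPowerSeries σ (MvPowerSeries (Fin r) 𝒪)) ∈ 𝔞 → k = 0)
    (J : ℕ → Ideal (MvPowerSeries σ (MvPowerSeries (Fin r) 𝒪)))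
    (hJ : ∀ n, J n ≤ maximalIdeal (MvPowerSeries σ (MvPowerSeries (Fin r) 𝒪)) ^ n)
    -- the representation over `R`
    (πR : heckeAlgebra N 2 (↑B : Set ℕ) →+* R) (ρR : GaloisRepAdic R)
    (hπa : ∀ (ℓ : ℕ) (hℓ : ℓ.Prime) (hℓN : ¬ ℓ ∣ N) (hℓB : ℓ ∉ (↑B : Set ℕ)),
      πR (heckeAlgebra.T hℓ hℓN hℓB) - ((a ℓ : ℤ) : R) ∈ maximalIdeal R)
    (hfrob : ∀ (ℓ : ℕ) (hℓ : ℓ.Prime) (hℓN : ¬ ℓ ∣ N) (hℓB : ℓ ∉ (↑B : Set ℕ)),
      ∀ A : ValuationSubring (AlgebraicClosure ℚ), A.LiesOverPrime ℓ →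
      ∀ g : Γℚ, A.IsFrobeniusAt g ℓ →
        LinearMap.charpoly (ρR.ρ g) =
          Polynomial.X ^ 2 - Polynomial.C (πR (heckeAlgebra.T hℓ hℓN hℓB)) * Polynomial.X +
            Polynomial.C ((ℓ : R)))
    (bRR : Module.Basis (Fin 2) R ρR.V)
    (hspanR : ∀ Y : Matrix (Fin 2) (Fin 2) R, Y ∈ Submodule.span R
      (Set.range fun g : Γℚ => matOf ρR bRR g))
    (i2R : R) (hi2R : 2 * i2R = 1)
    -- the rings
    (T' T : ℕ → Type) [∀ n, CommRing (T' n)] [∀ n, IsLocalRing (T' n)]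
    [∀ n, IsNoetherianRing (T' n)] [∀ n, IsAdicComplete (maximalIdeal (T' n)) (T' n)]
    [∀ n, Algebra 𝒪 (T' n)]
    [∀ n, CommRing (T n)] [∀ n, IsLocalRing (T n)]
    [∀ n, IsAdicComplete (maximalIdeal (T n)) (T n)]
    [∀ n, Algebra 𝒪 (T n)] [∀ n, Algebra (T' n) (T n)] [∀ n, IsScalarTower 𝒪 (T' n) (T n)]
    [∀ n, Module.Finite (T' n) (T n)]
    (hloc𝒪 : ∀ n, ∀ t ∈ maximalIdeal 𝒪, algebraMap 𝒪 (T' n) t ∈ maximalIdeal (T' n))
    (hlocT : ∀ n, ∀ x ∈ maximalIdeal (T' n), algebraMap (T' n) (T n) x ∈ maximalIdeal (T n))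
    -- the module half
    (L0 : ∀ n, s59p_Level (MvPowerSeries σ (MvPowerSeries (Fin r) 𝒪)) (MvPowerSeries σ (T n)) R M
      𝔞 (J n))
    (L0' : ∀ n, s59p_Level (MvPowerSeries σ (MvPowerSeries (Fin r) 𝒪)) (MvPowerSeries σ (T n)) R' M'
      𝔞 (J n))
    (d d' : ℕ) (hd : ∀ n, (L0 n).d = d) (hd' : ∀ n, (L0' n).d = d')
    (std : ∀ n, MvPowerSeries σ (MvPowerSeries (Fin r) 𝒪) →ₐ[𝒪] MvPowerSeries σ (T n))
    (hstd : ∀ n x, (L0 n).φ x = std n x) (hstd' : ∀ n x, (L0' n).φ x = std n x)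
    (hW0 : ∀ n, s59p_WCong (algebraMap 𝒪 (MvPowerSeries σ (T n)) ϖ)
      (algebraMap 𝒪 (MvPowerSeries σ (T n)) ϖ) (RingEquiv.refl _) (L0 n) (L0' n))
    -- the units
    (uu : ∀ n, Fin r → (T n)ˣ) (huu : ∀ n i, ((uu n i : (T n)ˣ) : T n) - 1 ∈ maximalIdeal (T n))
    (hgen : ∀ n, Algebra.adjoin (T' n) (Set.range (fun i => ((uu n i : (T n)ˣ) : T n)) ∪
      Set.range (fun i => (((uu n i)⁻¹ : (T n)ˣ) : T n))) = ⊤)
    (hstdX : ∀ n i, std n (C (X i)) =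
      C (((uu n i : (T n)ˣ) : T n) - (((uu n i)⁻¹ : (T n)ˣ) : T n)))
    (hstdz : ∀ n j, std n (X j) = X j)
    -- the bridge
    (γ' : ∀ n, s59l_FlatE 𝒪 m e (r + m + e) →ₐ[𝒪] MvPowerSeries σ (T' n))
    (hγ' : ∀ n, Function.Surjective (γ' n))
    (ρm : ∀ n, Γℚ →* Matrix (Fin 2) (Fin 2) (T' n))
    (U U' : ∀ n, Fin m ⊕ Fin e → Matrix (Fin 2) (Fin 2) (MvPowerSeries σ (T' n)))
    (hU : ∀ n t, U' n t * U n t = 1)
    (σB φB : Fin m → Γℚ) (σE φE : Fin e → Γℚ)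
    (hB : ∀ n, s59i_BridgeEqs D (ρm n) (U n) (U' n) (γ' n) σB φB σE φE)
    -- constants and relations over the trace rings
    (qB : Fin m → ℕ) (hqB : ∀ j, ((qB j : ℕ) : 𝒪) - 1 ∈ maximalIdeal 𝒪)
    (qE : Fin e → ℕ) (hDu : ∀ l, D.u l = ((qE l : ℕ) : 𝒪))
    (εB : Fin m → 𝒪) (hεB : ∀ j, εB j ^ 2 = 1)
    (htameB : ∀ n j, ρm n (φB j) * ρm n (σB j) = ρm n (σB j) ^ qB j * ρm n (φB j))
    (htameE : ∀ n l, ρm n (φE l) * ρm n (σE l) = ρm n (σE l) ^ qE l * ρm n (φE l))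
    (hdetB : ∀ n j, (ρm n (φB j)).det = ((qB j : ℕ) : T' n))
    (hdetE : ∀ n l, (ρm n (φE l)).det = ((qE l : ℕ) : T' n))
    (hresB : ∀ n j, algebraMap 𝒪 (T' n) D.i2 * (ρm n (φB j)).trace -
      algebraMap 𝒪 (T' n) (εB j) ∈ maximalIdeal (T' n))
    (hresAE : ∀ n l a b, (ρm n (σE l) - 1) a b ∈ maximalIdeal (T' n))
    (hresE : ∀ n l, algebraMap 𝒪 (T' n) D.i2 * (ρm n (φE l)).trace -
      algebraMap 𝒪 (T' n) (D.a0 l) ∈ maximalIdeal (T' n))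
    -- type 1
    (I1 : ∀ n, Ideal (T n)) (hI1 : ∀ n, I1 n ≠ ⊤)
    (hann1 : ∀ n (x : MvPowerSeries σ (T n)), (∀ d, coeff d x ∈ I1 n) →
      x ∈ Module.annihilator (MvPowerSeries σ (T n)) (L0 n).N)
    (h1tr : ∀ n j, algebraMap (T' n) (T n) (ρm n (σB j)).trace - 2 ∈ I1 n)
    (h1det : ∀ n j, algebraMap (T' n) (T n) (ρm n (σB j)).det - 1 ∈ I1 n)
    -- type χ
    (Iχ : ∀ n, Ideal (T n)) (hIχ : ∀ n, Iχ n ≠ ⊤)
    (hannχ : ∀ n (x : MvPowerSeries σ (T n)), (∀ d, coeff d x ∈ Iχ n) →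
      x ∈ Module.annihilator (MvPowerSeries σ (T n)) (L0' n).N)
    {ι : Type} [Fintype ι] (ζ ζ' : ι → Fin m → 𝒪) (hζ : ∀ i j, ζ i j * ζ' i j = 1)
    (hζq : ∀ i j, ζ i j ^ qB j = ζ i j) (hζne : ∀ i j, ζ i j ≠ ζ' i j)
    (hζm : ∀ i j, ζ i j - ζ' i j ∈ maximalIdeal 𝒪)
    (hrad : ∀ n, ((Iχ n).comap (algebraMap (T' n) (T n))).IsRadical)
    (hχ : ∀ n, ∀ 𝔮 ∈ ((Iχ n).comap (algebraMap (T' n) (T n))).minimalPrimes,
      (∀ o : 𝒪, o ≠ 0 → algebraMap 𝒪 (T' n) o ∉ 𝔮) ∧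
      ∃ i, ∀ j, (ρm n (σB j)).trace - algebraMap 𝒪 (T' n) (ζ i j + ζ' i j) ∈ 𝔮 ∧
        (ρm n (σB j)).det - 1 ∈ 𝔮)
    (hC8 : ∀ n i, ∃ τ ∈ maximalIdeal (T' n),
      (((uu n i : (T n)ˣ) : T n) - (((uu n i)⁻¹ : (T n)ˣ) : T n)) ^ 2 -
        algebraMap (T' n) (T n) τ ∈ Iχ n)
    -- the common trace function
    (hτ : ∀ n g, ((ρm n g).map fun x => (L0 n).ψ (C (algebraMap (T' n) (T n) x))).trace =
      (matOf ρR bRR g).trace)
    (hspan : ∀ n, ∀ Y : Matrix (Fin 2) (Fin 2) R, Y ∈ Submodule.span R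
      (Set.range fun g => (ρm n g).map fun x => (L0 n).ψ (C (algebraMap (T' n) (T n) x))))
    (κ : MvPowerSeries σ (MvPowerSeries (Fin r) 𝒪) →+* R)
    (hκ : ∀ n x, (L0 n).ψ ((L0 n).φ x) = κ x)
    -- the prime to be removed
    (j₀ : Fin m) (hq : (qB j₀).Prime) (hqp : qB j₀ ≠ p)
    (Pq : ValuationSubring (AlgebraicClosure ℚ)) (hPq : Pq.LiesOverPrime (qB j₀))
    (hresq : ∀ g ∈ Pq.inertiaSubgroupIn ℚ, ∀ v : ρR.V,
      ρR.ρ g v - v ∈ (maximalIdeal R) • (⊤ : Submodule R ρR.V))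
    (hσq : s59q_IsTameGen (qB j₀) Pq (σB j₀))
    (htrq : (matOf ρR bRR (σB j₀)).trace = 2) :
    s59i_UnrPt p N B a (qB j₀) := by
  classical
  obtain ⟨𝔭, h𝔭, -, hu𝔭, hcomap⟩ := s59i_FINA1 ϖ hϖ m e r D hcount R R' M M' 𝔞 J hJ T' T hloc𝒪 hlocT
    L0 L0' d d' hd hd' std hstd hstd' hW0 uu huu hgen hstdX hstdz γ' hγ' ρm U U' hU σB φB σE φE hB
    qB hqB qE hDu εB hεB htameB htameE hdetB hdetE hresB hresAE hresE I1 hI1 hann1 h1tr h1det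
    Iχ hIχ hannχ ζ ζ' hζ hζq hζne hζm hrad hχ hC8 i2R hi2R (fun g => (matOf ρR bRR g).trace)
    hτ hspan κ hκ
  haveI := h𝔭
  refine s59i_unrPt_of_prime p N B a (qB j₀) hq hqp hpR πR ρR hπa hfrob Pq hPq hresq bRR (σB j₀) hσq
    i2R hi2R htrq 𝔭 ?_ ?_
  · -- characteristic zero
    intro k hk
    refine h𝔞0 k ?_
    rw [← hcomap, Ideal.mem_comap, map_natCast]
    exact hk
  · -- the `tl`-coordinates
    intro k
    have h1 := s59i_tlIdeal_eq_trace i2R hi2R (fun g : Γℚ => matOf ρR bRR g) hspanR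
      (matOf ρR bRR (σB j₀))
    have h2 : s59i_tl i2R (matOf ρR bRR (σB j₀)) k ∈
        Ideal.span (Set.range (s59i_tl i2R (matOf ρR bRR (σB j₀)))) :=
      Ideal.subset_span ⟨k, rfl⟩
    rw [h1] at h2
    have h3 : Ideal.span (Set.range fun g : Γℚ =>
        (matOf ρR bRR (σB j₀) * matOf ρR bRR g).trace -
          i2R * (matOf ρR bRR (σB j₀)).trace * (matOf ρR bRR g).trace) ≤ 𝔭 := by
      rw [Ideal.span_le]
      rintro _ ⟨g, rfl⟩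
      have := hu𝔭 j₀ g
      rw [map_mul] at this
      exact this
    exact h3 h2

end Fermat.Agent.Lib.S59
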