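/-
[E] FINAL ASSEMBLY (helper4, prefix `s59i_`), FIN-A, part 5: THE `R`-SIDE ADAPTER.
The conclusion of helper6's `s59q_inst_flat` (a surjection `γ : 𝒫^E → T⟦z⟧` with the four families of
equations in the framed matrices `s59q_Fm`) is `s59i_BridgeEqs` for
`ρm := g ↦ θ(matOf DQ.ρ bR g)`, `U t := s59q_frameU T (P t) t`, `U′ t := s59q_frameU' T (P′ t) t`.
-/
import Mathlib
import Fermat.Agent.Lib.S59.LFinA4
import Fermat.Agent.Lib.S59.QBrInstE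

set_option autoImplicit false
set_option linter.unusedSectionVars false
set_option linter.unusedVariables false
set_option linter.style.haveILetI false
set_option maxHeartbeats 1600000

noncomputable section

namespace Fermat.Agent.Lib.S59

open IsLocalRing MvPowerSeries
open Fermat.Agent.Lib.S53 (matOf matOfRes NormData)

local notation "Γℚ" => (AlgebraicClosure ℚ ≃ₐ[ℚ] AlgebraicClosure ℚ)

section RSide

variable {𝒪 : Type} [CommRing 𝒪] [IsDomain 𝒪] [IsDiscreteValuationRing 𝒪]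
  [IsAdicComplete (maximalIdeal 𝒪) 𝒪]
  {ρbar : ResidualGaloisRep (ResidueField 𝒪)}
  {𝒟 : ∀ ⦃A : Type⦄ [CommRing A] [IsLocalRing A] [Algebra 𝒪 A], GaloisRepAdic A → Prop}
  (DQ : GaloisRep.DeformationRingData 𝒪 ρbar 𝒟)
  (bR : Module.Basis (Fin 2) DQ.R DQ.ρ.V)
  {T : Type} [CommRing T] [IsLocalRing T] [Algebra 𝒪 T]
  {m e : ℕ}

/-- the matrices of the universal representation pushed forward along `θ`. -/
def s59i_rhoM (θ : DQ.R →ₐ[𝒪] T) : Γℚ →* Matrix (Fin 2) (Fin 2) T :=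
  (((θ : DQ.R →+* T).mapMatrix : Matrix (Fin 2) (Fin 2) DQ.R →+* Matrix (Fin 2) (Fin 2) T) :
    Matrix (Fin 2) (Fin 2) DQ.R →* Matrix (Fin 2) (Fin 2) T).comp (matOf DQ.ρ bR)

theorem s59i_rhoM_apply (θ : DQ.R →ₐ[𝒪] T) (g : Γℚ) :
    s59i_rhoM DQ bR θ g = (matOf DQ.ρ bR g).map θ := rfl

theorem s59i_Fm_eq_inst (θ : DQ.R →ₐ[𝒪] T) (P P' : Fin m ⊕ Fin e → Matrix (Fin 2) (Fin 2) 𝒪)
    (t : Fin m ⊕ Fin e) (g : Γℚ) :
    s59i_Fm (s59i_rhoM DQ bR θ) (fun t => s59q_frameU T (P t) t)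
      (fun t => s59q_frameU' T (P' t) t) t g = s59q_Fm DQ bR θ P P' t g := by
  rw [s59i_Fm, s59q_Fm, s59i_rhoM_apply]
  congr 2

/-- **the `R`-side adapter.** -/
theorem s59i_bridgeEqs_of_inst (D : s59l_EData 𝒪 e) (θ : DQ.R →ₐ[𝒪] T)
    (P P' : Fin m ⊕ Fin e → Matrix (Fin 2) (Fin 2) 𝒪) (σq φq : Fin m ⊕ Fin e → Γℚ)
    (αE βE : Fin e → 𝒪) (hf0 : ∀ l, D.i2 * (αE l - βE l) = D.f0 l) {g : ℕ}
    (γ : MvPowerSeries (s59q_GIdx m e g) 𝒪 →ₐ[𝒪] MvPowerSeries (s59q_ZIdx m e) T)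
    (h1 : ∀ j k, γ (MvPowerSeries.X (Sum.inl (j, k))) =
      s59q_tl (algebraMap 𝒪 _ D.i2) (s59q_Fm DQ bR θ P P' (Sum.inl j) (σq (Sum.inl j))) k)
    (h2 : ∀ j k, γ (MvPowerSeries.X (Sum.inr (Sum.inl (j, k)))) =
      s59q_tl (algebraMap 𝒪 _ D.i2) (s59q_Fm DQ bR θ P P' (Sum.inl j) (φq (Sum.inl j))) k)
    (h3 : ∀ l k, γ (MvPowerSeries.X (Sum.inr (Sum.inr (Sum.inl (l, k))))) =
      s59q_tl (algebraMap 𝒪 _ D.i2) (s59q_Fm DQ bR θ P P' (Sum.inr l) (σq (Sum.inr l))) k)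
    (h4 : ∀ l k, γ (MvPowerSeries.X (Sum.inr (Sum.inr (Sum.inr (Sum.inl (l, k)))))) =
      s59q_tl (algebraMap 𝒪 _ D.i2) (s59q_Fm DQ bR θ P P' (Sum.inr l) (φq (Sum.inr l))) k -
        algebraMap 𝒪 _ ((![D.i2 * (αE l - βE l), 0, 0] : Fin 3 → 𝒪) k)) :
    s59i_BridgeEqs (g := g) D (s59i_rhoM DQ bR θ) (fun t => s59q_frameU T (P t) t)
      (fun t => s59q_frameU' T (P' t) t) γ (fun j => σq (Sum.inl j)) (fun j => φq (Sum.inl j))
      (fun l => σq (Sum.inr l)) (fun l => φq (Sum.inr l)) := by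
  refine ⟨fun j k => ?_, fun j k => ?_, fun l k => ?_, fun l k => ?_⟩
  · rw [s59i_Fm_eq_inst]; exact h1 j k
  · rw [s59i_Fm_eq_inst]; exact h2 j k
  · rw [s59i_Fm_eq_inst]; exact h3 l k
  · rw [s59i_Fm_eq_inst, ← hf0 l]; exact h4 l k

end RSide

end Fermat.Agent.Lib.S59
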