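/-
[E] FINAL ASSEMBLY (helper4, prefix `s59i_`), FIN-A, part B2: GLUE LEMMAS between the contract of the
`T`-side (`LFinB1`), the `R`-side (`LFinA5`) and `s59i_FINA2`.
-/
import Mathlib
import Fermat.Agent.Lib.S59.LFinB1
import Fermat.Agent.Lib.S59.LFinA5

set_option autoImplicit false
set_option linter.unusedSectionVars false
set_option linter.unusedVariables false
set_option linter.style.haveILetI false
set_option maxHeartbeats 1600000

noncomputable section

namespace Fermat.Agent.Lib.S59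

open IsLocalRing MvPowerSeries
open Fermat.Agent.Lib.S53 (matOf matOfRes NormData matOf_apply matOfRes_apply)

local notation "Γℚ" => (AlgebraicClosure ℚ ≃ₐ[ℚ] AlgebraicClosure ℚ)

section CPMat

variable {A : Type} [CommRing A] [IsLocalRing A]

theorem s59i_cpTr_eq_trace (ρ : GaloisRepAdic A) (b : Module.Basis (Fin 2) A ρ.V) (g : Γℚ) :
    s59i_cpTr ρ g = (matOf ρ b g).trace := by
  rw [s59i_cpTr, matOf_apply, ← LinearMap.charpoly_toMatrix (ρ.ρ g) b,
    Matrix.trace_eq_neg_charpoly_coeff]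
  simp

theorem s59i_cpDt_eq_det (ρ : GaloisRepAdic A) (b : Module.Basis (Fin 2) A ρ.V) (g : Γℚ) :
    s59i_cpDt ρ g = (matOf ρ b g).det := by
  rw [s59i_cpDt, matOf_apply, ← LinearMap.charpoly_toMatrix (ρ.ρ g) b,
    Matrix.det_eq_sign_charpoly_coeff]
  simp

/-- unipotent on inertia ⇒ trace `2`. -/
theorem s59i_trace_two_of_unip (ρ : GaloisRepAdic A) (b : Module.Basis (Fin 2) A ρ.V) (q : ℕ)
    (h : ρ.IsUnipotentOnInertiaAt q) (P : ValuationSubring (AlgebraicClosure ℚ))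
    (hP : P.LiesOverPrime q) (g : Γℚ) (hg : g ∈ P.inertiaSubgroupIn ℚ) :
    (matOf ρ b g).trace = 2 := by
  rw [← s59i_cpTr_eq_trace, s59i_cpTr, h P hP g hg]
  have : ((Polynomial.X - 1 : Polynomial A) ^ 2) =
      Polynomial.X ^ 2 - Polynomial.C 2 * Polynomial.X + Polynomial.C 1 := by
    rw [map_one, map_ofNat]; ring
  rw [this]
  simp [Polynomial.coeff_X_pow, Polynomial.coeff_C, Polynomial.coeff_one]

end CPMat

section Push

variable {𝒪 : Type} [CommRing 𝒪] [IsDomain 𝒪] [IsDiscreteValuationRing 𝒪]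
  [IsAdicComplete (maximalIdeal 𝒪) 𝒪]
  {ρbar : ResidualGaloisRep (ResidueField 𝒪)}
  {𝒟 : ∀ ⦃A : Type⦄ [CommRing A] [IsLocalRing A] [Algebra 𝒪 A], GaloisRepAdic A → Prop}
  (DQ : GaloisRep.DeformationRingData 𝒪 ρbar 𝒟) (Nd : NormData ρbar)
  (bR : Module.Basis (Fin 2) DQ.R DQ.ρ.V)
  (hbR : ∀ σ i j, matOf DQ.ρ bR σ i j - algebraMap 𝒪 DQ.R (Nd.Mtil σ i j) ∈ maximalIdeal DQ.R)
  {T' : Type} [CommRing T'] [IsLocalRing T'] [Algebra 𝒪 T'] (θ : DQ.R →ₐ[𝒪] T')

theorem s59i_rhoM_trace (g : Γℚ) : (s59i_rhoM DQ bR θ g).trace = θ (s59i_cpTr DQ.ρ g) := by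
  rw [s59i_rhoM_apply, s59i_cpTr_eq_trace DQ.ρ bR, Matrix.trace_fin_two, Matrix.trace_fin_two,
    map_add]
  rfl

theorem s59i_rhoM_det (g : Γℚ) : (s59i_rhoM DQ bR θ g).det = θ (s59i_cpDt DQ.ρ g) := by
  rw [s59i_rhoM_apply, s59i_cpDt_eq_det DQ.ρ bR, Matrix.det_fin_two, Matrix.det_fin_two,
    map_sub, map_mul, map_mul]
  rfl

include hbR in
theorem s59i_rhoM_cong (hθl : ∀ x ∈ maximalIdeal DQ.R, θ x ∈ maximalIdeal T') (g : Γℚ)
    (a b : Fin 2) :
    s59i_rhoM DQ bR θ g a b - algebraMap 𝒪 T' (Nd.Mtil g a b) ∈ maximalIdeal T' := by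
  have h := hθl _ (hbR g a b)
  rw [map_sub, AlgHom.commutes] at h
  exact h

end Push

section Resid

variable {𝒪 T' : Type} [CommRing 𝒪] [IsLocalRing 𝒪] [CommRing T'] [IsLocalRing T'] [Algebra 𝒪 T']
  (hloc : ∀ t ∈ maximalIdeal 𝒪, algebraMap 𝒪 T' t ∈ maximalIdeal T')
  (X : Matrix (Fin 2) (Fin 2) T') (X0 : Matrix (Fin 2) (Fin 2) 𝒪)
  (hX : ∀ a b, X a b - algebraMap 𝒪 T' (X0 a b) ∈ maximalIdeal T')

include hloc hX in
theorem s59i_res_halftrace (i2 c : 𝒪) (h0 : i2 * X0.trace - c ∈ maximalIdeal 𝒪) :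
    algebraMap 𝒪 T' i2 * X.trace - algebraMap 𝒪 T' c ∈ maximalIdeal T' := by
  have e : algebraMap 𝒪 T' i2 * X.trace - algebraMap 𝒪 T' c =
      algebraMap 𝒪 T' i2 * ((X 0 0 - algebraMap 𝒪 T' (X0 0 0)) +
        (X 1 1 - algebraMap 𝒪 T' (X0 1 1))) + algebraMap 𝒪 T' (i2 * X0.trace - c) := by
    rw [Matrix.trace_fin_two, Matrix.trace_fin_two, map_sub, map_mul, map_add]
    ring
  rw [e]
  exact Ideal.add_mem _ (Ideal.mul_mem_left _ _ (Ideal.add_mem _ (hX 0 0) (hX 1 1))) (hloc _ h0)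

include hloc hX in
theorem s59i_res_sub_one (h0 : ∀ a b, (X0 - 1) a b ∈ maximalIdeal 𝒪) (a b : Fin 2) :
    (X - 1) a b ∈ maximalIdeal T' := by
  have e : (X - 1) a b = (X a b - algebraMap 𝒪 T' (X0 a b)) + algebraMap 𝒪 T' ((X0 - 1) a b) := by
    rw [Matrix.sub_apply, Matrix.sub_apply, map_sub]
    by_cases hab : a = b
    · subst hab; rw [Matrix.one_apply_eq, Matrix.one_apply_eq, map_one]; ring
    · rw [Matrix.one_apply_ne hab, Matrix.one_apply_ne hab, map_zero]; ring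
  rw [e]
  exact Ideal.add_mem _ (hX a b) (hloc _ (h0 a b))

end Resid

section Span

variable {𝒪 : Type} [CommRing 𝒪] [IsLocalRing 𝒪] {G : Type} (Mt : G → Matrix (Fin 2) (Fin 2) 𝒪)
  (hspanbar : ∀ Y : Matrix (Fin 2) (Fin 2) (ResidueField 𝒪), Y ∈
    Submodule.span (ResidueField 𝒪) (Set.range fun g => (Mt g).map (residue 𝒪)))

include hspanbar in
/-- matrices over `𝒪` spanning residually span after any base change. -/
theorem s59i_span_Mtil {R₁ : Type} [CommRing R₁] (φ : 𝒪 →+* R₁) (Y : Matrix (Fin 2) (Fin 2) R₁) :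
    Y ∈ Submodule.span R₁ (Set.range fun g => (Mt g).map φ) := by
  classical
  have h𝒪 : ∀ Z : Matrix (Fin 2) (Fin 2) 𝒪, Z ∈ Submodule.span 𝒪 (Set.range Mt) :=
    fun Z => s59i_span_of_residual Mt hspanbar Z
  -- the images of all matrices over `𝒪`
  have himg : ∀ Z : Matrix (Fin 2) (Fin 2) 𝒪,
      Z.map φ ∈ Submodule.span R₁ (Set.range fun g => (Mt g).map φ) := by
    intro Z
    have hZ := h𝒪 Z
    induction hZ using Submodule.span_induction with
    | mem x hx =>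
        obtain ⟨g, rfl⟩ := hx
        exact Submodule.subset_span ⟨g, rfl⟩
    | zero =>
        have : (0 : Matrix (Fin 2) (Fin 2) 𝒪).map φ = 0 := by
          ext i j; simp
        rw [this]; exact Submodule.zero_mem _
    | add x y _ _ hx hy =>
        have : (x + y).map φ = x.map φ + y.map φ := by
          ext i j; simp
        rw [this]; exact Submodule.add_mem _ hx hy
    | smul c x _ hx =>
        have : (c • x).map φ = φ c • x.map φ := by
          ext i j; simp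
        rw [this]; exact Submodule.smul_mem _ _ hx
  rw [Matrix.matrix_eq_sum_single Y]
  refine Submodule.sum_mem _ fun i _ => Submodule.sum_mem _ fun j _ => ?_
  have e : Matrix.single i j (Y i j) = Y i j • (Matrix.single i j (1 : 𝒪)).map φ := by
    ext a b
    simp only [Matrix.smul_apply, Matrix.map_apply, Matrix.single_apply, smul_eq_mul]
    split_ifs <;> simp
  rw [e]
  exact Submodule.smul_mem _ _ (himg _)

include hspanbar in
/-- matrices congruent to the images of the `Mt g` span (Nakayama). -/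
theorem s59i_span_of_cong {R₁ : Type} [CommRing R₁] [IsLocalRing R₁] (φ : 𝒪 →+* R₁)
    (ρ : G → Matrix (Fin 2) (Fin 2) R₁)
    (hcong : ∀ g a b, ρ g a b - φ (Mt g a b) ∈ maximalIdeal R₁)
    (Y : Matrix (Fin 2) (Fin 2) R₁) : Y ∈ Submodule.span R₁ (Set.range ρ) := by
  refine s59i_span_of_residual ρ (fun Z => ?_) Y
  have h1 := s59i_span_Mtil Mt hspanbar ((residue R₁).comp φ) Z
  have h2 : (fun g => (ρ g).map (residue R₁)) = fun g => (Mt g).map ((residue R₁).comp φ) := by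
    funext g
    ext a b
    rw [Matrix.map_apply, Matrix.map_apply, RingHom.comp_apply, ← sub_eq_zero, ← map_sub,
      residue_eq_zero_iff]
    exact hcong g a b
  rw [h2]
  exact h1

end Span

section Unram

variable {𝒪 : Type} [CommRing 𝒪] [IsLocalRing 𝒪]
  {ρbar : ResidualGaloisRep (ResidueField 𝒪)} (Nd : NormData ρbar)

/-- `ρ̄` unramified at `q` ⇒ the chosen lifts of the matrices of inertia elements are `≡ 1`. -/
theorem s59i_Mtil_sub_one_of_unram (q : ℕ) (hunr : ρbar.IsUnramifiedAt q)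
    (P : ValuationSubring (AlgebraicClosure ℚ)) (hP : P.LiesOverPrime q) (g : Γℚ)
    (hg : g ∈ P.inertiaSubgroupIn ℚ) (a b : Fin 2) :
    (Nd.Mtil g - 1) a b ∈ maximalIdeal 𝒪 := by
  have h1 : matOfRes ρbar Nd.b g = 1 := by
    rw [matOfRes_apply, hunr P hP g hg]
    exact LinearMap.toMatrix_one Nd.b
  have h2 := congrFun (congrFun (Nd.hMtil g) a) b
  rw [h1, Matrix.map_apply] at h2
  rw [← residue_eq_zero_iff, Matrix.sub_apply, map_sub, h2]
  by_cases hab : a = b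
  · subst hab; rw [Matrix.one_apply_eq, Matrix.one_apply_eq, map_one, sub_self]
  · rw [Matrix.one_apply_ne hab, Matrix.one_apply_ne hab, map_zero, sub_self]

/-- residual triviality on inertia for a lift of `ρ̄`. -/
theorem s59i_hresq_of_unram {R : Type} [CommRing R] [IsLocalRing R] [Algebra 𝒪 R]
    (hloc : ∀ t ∈ maximalIdeal 𝒪, algebraMap 𝒪 R t ∈ maximalIdeal R)
    (ρR : GaloisRepAdic R) (bRR : Module.Basis (Fin 2) R ρR.V)
    (hbRR : ∀ σ i j, matOf ρR bRR σ i j - algebraMap 𝒪 R (Nd.Mtil σ i j) ∈ maximalIdeal R)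
    (q : ℕ) (hunr : ρbar.IsUnramifiedAt q)
    (P : ValuationSubring (AlgebraicClosure ℚ)) (hP : P.LiesOverPrime q) :
    ∀ g ∈ P.inertiaSubgroupIn ℚ, ∀ v : ρR.V,
      ρR.ρ g v - v ∈ (maximalIdeal R) • (⊤ : Submodule R ρR.V) := by
  intro g hg v
  refine s59i_sub_mem_of_matrix bRR (maximalIdeal R) (ρR.ρ g) ?_ v
  intro i j
  exact s59i_res_sub_one hloc (matOf ρR bRR g) (Nd.Mtil g) (hbRR g)
    (s59i_Mtil_sub_one_of_unram Nd q hunr P hP g hg) i j

end Unram

end Fermat.Agent.Lib.S59
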