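/-
PROGRAMME R2 = S59, node [LIFT-min] = FIN-L (helper4, prefix `s59f_`), part C: CARAYOL'S LEMMA FOR `GL₂`.
`B` a local ring, `ρ₁, ρ₂ : G →* M₂(B)` with the same trace function, both spanning `M₂(B)` over `B`
(absolutely irreducible residual representation + Nakayama: `s59u_span_adic`).  Then `ρ₂ = U ρ₁ U⁻¹`.
Proof: the kernel of `B[G] → M₂(B)` is the radical of the trace form, hence the same for `ρ₁` and `ρ₂`;
this gives the `B`-algebra endomorphism `Φ` of `M₂(B)` with `Φ ∘ ρ₁ = ρ₂`, and an explicit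
Skolem–Noether: `U = [P e_c | Q e_c]`, `P = Φ(E₀₀)`, `Q = Φ(E₁₀)`, `c` with `P c c` a unit
(`tr P = 1`), with left inverse `(P c c)⁻¹ [e_cᵀ P ; e_cᵀ Φ(E₀₁)]`.
  * `s59f_carayol_mat`  : matrix form;
  * `s59f_carayol`      : two `GaloisRepAdic B` with the same `cpTr`, residually absolutely
                          irreducible, are equivalent.
-/
import Mathlib
import Fermat.Agent.Lib.S59.USpan
import Fermat.Agent.Lib.S59.LFinB2

set_option autoImplicit false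
set_option linter.unusedSectionVars false
set_option linter.unusedVariables false
set_option linter.style.haveILetI false
set_option maxHeartbeats 1600000

noncomputable section

namespace Fermat.Agent.Lib.S59

open IsLocalRing Matrix
open Fermat.Agent.Lib.S53 (matOf isEquiv_of_matOf_eq exists_basis_conj)

local notation "Γℚ" => (AlgebraicClosure ℚ ≃ₐ[ℚ] AlgebraicClosure ℚ)

section Mat

variable {B : Type*} [CommRing B] {G : Type*} [Monoid G]
  (ρ₁ ρ₂ : G →* Matrix (Fin 2) (Fin 2) B)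

/-- the linear extension `B[G] → M₂(B)`. -/
def s59f_lc (ρ : G →* Matrix (Fin 2) (Fin 2) B) : (G →₀ B) →ₗ[B] Matrix (Fin 2) (Fin 2) B :=
  Finsupp.linearCombination B (fun g => ρ g)

theorem s59f_lc_single (ρ : G →* Matrix (Fin 2) (Fin 2) B) (g : G) (b : B) :
    s59f_lc ρ (Finsupp.single g b) = b • ρ g := by
  rw [s59f_lc, Finsupp.linearCombination_single]

theorem s59f_lc_surjective (ρ : G →* Matrix (Fin 2) (Fin 2) B)
    (hs : ∀ Y : Matrix (Fin 2) (Fin 2) B, Y ∈ Submodule.span B (Set.range ρ)) :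
    Function.Surjective (s59f_lc ρ) := by
  intro Y
  have h := hs Y
  rw [← Finsupp.range_linearCombination] at h
  exact h

/-- left translation on `B[G]`. -/
theorem s59f_lc_mapDomain (ρ : G →* Matrix (Fin 2) (Fin 2) B) (g : G) (c : G →₀ B) :
    s59f_lc ρ (Finsupp.mapDomain (fun h => g * h) c) = ρ g * s59f_lc ρ c := by
  induction c using Finsupp.induction_linear with
  | zero => rw [Finsupp.mapDomain_zero, map_zero, mul_zero]
  | add c c' h h' => rw [Finsupp.mapDomain_add, map_add, map_add, mul_add, h, h']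
  | single h b =>
    rw [Finsupp.mapDomain_single, s59f_lc_single, s59f_lc_single, map_mul, Matrix.mul_smul]

/-- right translation on `B[G]`. -/
theorem s59f_lc_mapDomain_right (ρ : G →* Matrix (Fin 2) (Fin 2) B) (g : G) (c : G →₀ B) :
    s59f_lc ρ (Finsupp.mapDomain (fun h => h * g) c) = s59f_lc ρ c * ρ g := by
  induction c using Finsupp.induction_linear with
  | zero => rw [Finsupp.mapDomain_zero, map_zero, zero_mul]
  | add c c' h h' => rw [Finsupp.mapDomain_add, map_add, map_add, add_mul, h, h']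
  | single h b =>
    rw [Finsupp.mapDomain_single, s59f_lc_single, s59f_lc_single, map_mul, Matrix.smul_mul]

variable {ρ₁ ρ₂}

/-- the traces of the linear extensions agree. -/
theorem s59f_lc_trace (htr : ∀ g, (ρ₁ g).trace = (ρ₂ g).trace) (c : G →₀ B) :
    (s59f_lc ρ₁ c).trace = (s59f_lc ρ₂ c).trace := by
  induction c using Finsupp.induction_linear with
  | zero => rw [map_zero, map_zero]
  | add c c' h h' => rw [map_add, map_add, Matrix.trace_add, Matrix.trace_add, h, h']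
  | single h b => rw [s59f_lc_single, s59f_lc_single, Matrix.trace_smul, Matrix.trace_smul, htr]

/-- a `2 × 2` matrix orthogonal to everything for the trace form is zero. -/
theorem s59f_eq_zero_of_trace (Y : Matrix (Fin 2) (Fin 2) B)
    (h : ∀ Z : Matrix (Fin 2) (Fin 2) B, (Y * Z).trace = 0) : Y = 0 := by
  have h00 := h !![1, 0; 0, 0]
  have h01 := h !![0, 0; 1, 0]
  have h10 := h !![0, 1; 0, 0]
  have h11 := h !![0, 0; 0, 1]
  simp only [Matrix.trace_fin_two, Matrix.mul_apply, Fin.sum_univ_two, Matrix.of_apply,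
    Matrix.cons_val', Matrix.cons_val_zero, Matrix.cons_val_one, Matrix.empty_val',
    Matrix.cons_val_fin_one, mul_one, mul_zero, add_zero, zero_add] at h00 h01 h10 h11
  ext i j
  fin_cases i <;> fin_cases j
  · exact h00
  · exact h01
  · exact h10
  · exact h11

/-- **the kernel of `B[G] → M₂(B)` only depends on the trace function.** -/
theorem s59f_lc_ker (htr : ∀ g, (ρ₁ g).trace = (ρ₂ g).trace)
    (hs₂ : ∀ Y : Matrix (Fin 2) (Fin 2) B, Y ∈ Submodule.span B (Set.range ρ₂))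
    (c : G →₀ B) (hc : s59f_lc ρ₁ c = 0) : s59f_lc ρ₂ c = 0 := by
  refine s59f_eq_zero_of_trace _ fun Z => ?_
  have hZ := hs₂ Z
  induction hZ using Submodule.span_induction with
  | mem x hx =>
    obtain ⟨g, rfl⟩ := hx
    rw [← s59f_lc_mapDomain_right, ← s59f_lc_trace htr, s59f_lc_mapDomain_right, hc, zero_mul,
      Matrix.trace_zero]
  | zero => rw [mul_zero, Matrix.trace_zero]
  | add x y _ _ hx hy => rw [mul_add, Matrix.trace_add, hx, hy, add_zero]
  | smul b x _ hx => rw [Matrix.mul_smul, Matrix.trace_smul, hx, smul_zero]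

end Mat

section Phi

variable {B : Type*} [CommRing B] {G : Type*} [Monoid G]
  {ρ₁ ρ₂ : G →* Matrix (Fin 2) (Fin 2) B}
  (htr : ∀ g, (ρ₁ g).trace = (ρ₂ g).trace)
  (hs₁ : ∀ Y : Matrix (Fin 2) (Fin 2) B, Y ∈ Submodule.span B (Set.range ρ₁))
  (hs₂ : ∀ Y : Matrix (Fin 2) (Fin 2) B, Y ∈ Submodule.span B (Set.range ρ₂))

/-- the map `Φ : M₂(B) → M₂(B)` with `Φ (Σ b_g ρ₁ g) = Σ b_g ρ₂ g`. -/
def s59f_Phi (hs₁ : ∀ Y : Matrix (Fin 2) (Fin 2) B, Y ∈ Submodule.span B (Set.range ρ₁))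
    (ρ₂ : G →* Matrix (Fin 2) (Fin 2) B) (X : Matrix (Fin 2) (Fin 2) B) :
    Matrix (Fin 2) (Fin 2) B :=
  s59f_lc ρ₂ (Function.surjInv (s59f_lc_surjective ρ₁ hs₁) X)

include htr hs₂ in
theorem s59f_Phi_lc (c : G →₀ B) : s59f_Phi hs₁ ρ₂ (s59f_lc ρ₁ c) = s59f_lc ρ₂ c := by
  unfold s59f_Phi
  have h1 := Function.surjInv_eq (s59f_lc_surjective ρ₁ hs₁) (s59f_lc ρ₁ c)
  have h2 : s59f_lc ρ₁ (Function.surjInv (s59f_lc_surjective ρ₁ hs₁) (s59f_lc ρ₁ c) - c) = 0 := by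
    rw [map_sub, h1, sub_self]
  have h3 := s59f_lc_ker htr hs₂ _ h2
  rw [map_sub, sub_eq_zero] at h3
  exact h3

include htr hs₂ in
theorem s59f_Phi_add (X Y : Matrix (Fin 2) (Fin 2) B) :
    s59f_Phi hs₁ ρ₂ (X + Y) = s59f_Phi hs₁ ρ₂ X + s59f_Phi hs₁ ρ₂ Y := by
  obtain ⟨c, rfl⟩ := s59f_lc_surjective ρ₁ hs₁ X
  obtain ⟨c', rfl⟩ := s59f_lc_surjective ρ₁ hs₁ Y
  rw [← map_add, s59f_Phi_lc htr hs₁ hs₂, s59f_Phi_lc htr hs₁ hs₂, s59f_Phi_lc htr hs₁ hs₂, map_add]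

include htr hs₂ in
theorem s59f_Phi_smul (b : B) (X : Matrix (Fin 2) (Fin 2) B) :
    s59f_Phi hs₁ ρ₂ (b • X) = b • s59f_Phi hs₁ ρ₂ X := by
  obtain ⟨c, rfl⟩ := s59f_lc_surjective ρ₁ hs₁ X
  rw [← map_smul, s59f_Phi_lc htr hs₁ hs₂, s59f_Phi_lc htr hs₁ hs₂, map_smul]

include htr hs₂ in
theorem s59f_Phi_zero : s59f_Phi hs₁ ρ₂ 0 = 0 := by
  have := s59f_Phi_lc htr hs₁ hs₂ 0
  rwa [map_zero, map_zero] at this

include htr hs₂ in
theorem s59f_Phi_rho_mul (g : G) (X : Matrix (Fin 2) (Fin 2) B) :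
    s59f_Phi hs₁ ρ₂ (ρ₁ g * X) = ρ₂ g * s59f_Phi hs₁ ρ₂ X := by
  obtain ⟨c, rfl⟩ := s59f_lc_surjective ρ₁ hs₁ X
  rw [← s59f_lc_mapDomain, s59f_Phi_lc htr hs₁ hs₂, s59f_Phi_lc htr hs₁ hs₂, s59f_lc_mapDomain]

include htr hs₂ in
theorem s59f_Phi_mul (X Y : Matrix (Fin 2) (Fin 2) B) :
    s59f_Phi hs₁ ρ₂ (X * Y) = s59f_Phi hs₁ ρ₂ X * s59f_Phi hs₁ ρ₂ Y := by
  obtain ⟨c, rfl⟩ := s59f_lc_surjective ρ₁ hs₁ X
  rw [s59f_Phi_lc htr hs₁ hs₂]
  induction c using Finsupp.induction_linear with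
  | zero => rw [map_zero, map_zero, zero_mul, zero_mul, s59f_Phi_zero htr hs₁ hs₂]
  | add c c' h h' =>
    rw [map_add, map_add, add_mul, add_mul, s59f_Phi_add htr hs₁ hs₂, h, h']
  | single h b =>
    rw [s59f_lc_single, s59f_lc_single, Matrix.smul_mul, Matrix.smul_mul,
      s59f_Phi_smul htr hs₁ hs₂, s59f_Phi_rho_mul htr hs₁ hs₂]

include htr hs₂ in
theorem s59f_Phi_trace (X : Matrix (Fin 2) (Fin 2) B) : (s59f_Phi hs₁ ρ₂ X).trace = X.trace := by
  obtain ⟨c, rfl⟩ := s59f_lc_surjective ρ₁ hs₁ X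
  rw [s59f_Phi_lc htr hs₁ hs₂, s59f_lc_trace htr]

include htr hs₂ in
theorem s59f_Phi_rho (g : G) : s59f_Phi hs₁ ρ₂ (ρ₁ g) = ρ₂ g := by
  have := s59f_Phi_lc htr hs₁ hs₂ (Finsupp.single g 1)
  rwa [s59f_lc_single, s59f_lc_single, one_smul, one_smul] at this

end Phi

section Main

variable {B : Type*} [CommRing B] [IsLocalRing B] {G : Type*} [Monoid G]

/-- **Carayol's lemma, matrix form.** -/
theorem s59f_carayol_mat (ρ₁ ρ₂ : G →* Matrix (Fin 2) (Fin 2) B)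
    (htr : ∀ g, (ρ₁ g).trace = (ρ₂ g).trace)
    (hs₁ : ∀ Y : Matrix (Fin 2) (Fin 2) B, Y ∈ Submodule.span B (Set.range ρ₁))
    (hs₂ : ∀ Y : Matrix (Fin 2) (Fin 2) B, Y ∈ Submodule.span B (Set.range ρ₂)) :
    ∃ U U' : Matrix (Fin 2) (Fin 2) B, U * U' = 1 ∧ U' * U = 1 ∧
      ∀ g, ρ₂ g = U * ρ₁ g * U' := by
  set Φ := s59f_Phi hs₁ ρ₂ with hΦ
  have hmul := s59f_Phi_mul htr hs₁ hs₂
  have hadd := s59f_Phi_add htr hs₁ hs₂
  have hsmul := s59f_Phi_smul htr hs₁ hs₂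
  set E00 : Matrix (Fin 2) (Fin 2) B := !![1, 0; 0, 0] with hE00
  set E10 : Matrix (Fin 2) (Fin 2) B := !![0, 0; 1, 0] with hE10
  set E01 : Matrix (Fin 2) (Fin 2) B := !![0, 1; 0, 0] with hE01
  set P := Φ E00 with hP
  set Q := Φ E10 with hQ
  set Rm := Φ E01 with hRm
  have e1 : E00 * E00 = E00 := by
    ext i j; fin_cases i <;> fin_cases j <;> simp [hE00, Matrix.mul_apply, Fin.sum_univ_two]
  have e2 : E00 * E10 = 0 := by
    ext i j; fin_cases i <;> fin_cases j <;> simp [hE00, hE10, Matrix.mul_apply, Fin.sum_univ_two]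
  have e3 : E01 * E00 = 0 := by
    ext i j; fin_cases i <;> fin_cases j <;> simp [hE00, hE01, Matrix.mul_apply, Fin.sum_univ_two]
  have e4 : E01 * E10 = E00 := by
    ext i j
    fin_cases i <;> fin_cases j <;>
      simp [hE00, hE01, hE10, Matrix.mul_apply, Fin.sum_univ_two]
  have hΦ0 : Φ 0 = 0 := s59f_Phi_zero htr hs₁ hs₂
  have hPP : P * P = P := by rw [hP, ← hmul, e1]
  have hPQ : P * Q = 0 := by rw [hP, hQ, ← hmul, e2]; exact hΦ0
  have hRP : Rm * P = 0 := by rw [hRm, hP, ← hmul, e3]; exact hΦ0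
  have hRQ : Rm * Q = P := by rw [hRm, hQ, ← hmul, e4]
  have htrP : P 0 0 + P 1 1 = 1 := by
    have := s59f_Phi_trace htr hs₁ hs₂ E00
    rw [Matrix.trace_fin_two, Matrix.trace_fin_two] at this
    rw [hP, this, hE00]
    simp
  -- the intertwining relations
  have hint0 : ∀ g, ρ₂ g * P = ρ₁ g 0 0 • P + ρ₁ g 1 0 • Q := by
    intro g
    have e : ρ₁ g * E00 = ρ₁ g 0 0 • E00 + ρ₁ g 1 0 • E10 := by
      ext i j
      fin_cases i <;> fin_cases j <;>
        simp [hE00, hE10, Matrix.mul_apply, Fin.sum_univ_two]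
    rw [hP, ← s59f_Phi_rho_mul htr hs₁ hs₂, e, hadd, hsmul, hsmul]
  have hint1 : ∀ g, ρ₂ g * Q = ρ₁ g 0 1 • P + ρ₁ g 1 1 • Q := by
    intro g
    have e : ρ₁ g * E10 = ρ₁ g 0 1 • E00 + ρ₁ g 1 1 • E10 := by
      ext i j
      fin_cases i <;> fin_cases j <;>
        simp [hE00, hE10, Matrix.mul_apply, Fin.sum_univ_two]
    rw [hQ, ← s59f_Phi_rho_mul htr hs₁ hs₂, e, hadd, hsmul, hsmul]
  -- a unit diagonal entry of `P`
  obtain ⟨c, hc⟩ : ∃ c : Fin 2, IsUnit (P c c) := by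
    rcases IsLocalRing.isUnit_or_isUnit_of_add_one htrP with h | h
    · exact ⟨0, h⟩
    · exact ⟨1, h⟩
  obtain ⟨u, hu⟩ := hc
  set U : Matrix (Fin 2) (Fin 2) B := Matrix.of fun i j => if j = 0 then P i c else Q i c with hU
  set V : Matrix (Fin 2) (Fin 2) B := Matrix.of fun i j => if i = 0 then P c j else Rm c j with hV
  have hVU : V * U = (u : B) • (1 : Matrix (Fin 2) (Fin 2) B) := by
    have h00 := congrFun (congrFun hPP c) c
    have h01 := congrFun (congrFun hPQ c) c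
    have h10 := congrFun (congrFun hRP c) c
    have h11 := congrFun (congrFun hRQ c) c
    simp only [Matrix.mul_apply, Fin.sum_univ_two, Matrix.zero_apply] at h00 h01 h10 h11
    ext i j
    fin_cases i <;> fin_cases j <;>
      simp [hU, hV, Matrix.mul_apply, Fin.sum_univ_two, hu, h00, h01, h10, h11]
  set U' : Matrix (Fin 2) (Fin 2) B := ((u⁻¹ : Bˣ) : B) • V with hU'
  have hU'U : U' * U = 1 := by
    rw [hU', Matrix.smul_mul, hVU, smul_smul, Units.inv_mul, one_smul]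
  have hUU' : U * U' = 1 := mul_eq_one_comm.mp hU'U
  have hintU : ∀ g, ρ₂ g * U = U * ρ₁ g := by
    intro g
    have h0 := hint0 g
    have h1 := hint1 g
    ext i j
    have h0' := congrFun (congrFun h0 i) c
    have h1' := congrFun (congrFun h1 i) c
    simp only [Matrix.mul_apply, Fin.sum_univ_two, Matrix.add_apply, Matrix.smul_apply,
      smul_eq_mul] at h0' h1'
    fin_cases j
    · simp only [hU, Matrix.mul_apply, Fin.sum_univ_two, Matrix.of_apply]
      simp only [Fin.zero_eta, Fin.isValue, ↓reduceIte, one_ne_zero]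
      rw [h0']
      ring
    · simp only [hU, Matrix.mul_apply, Fin.sum_univ_two, Matrix.of_apply]
      simp only [Fin.mk_one, Fin.isValue, one_ne_zero, ↓reduceIte]
      rw [h1']
      ring
  refine ⟨U, U', hUU', hU'U, fun g => ?_⟩
  rw [← hintU, mul_assoc, hUU', mul_one]

end Main

section Rep

variable {B : Type} [CommRing B] [IsLocalRing B]

/-- **Carayol's lemma**: two residually absolutely irreducible `GaloisRepAdic B` with the same
trace function are equivalent. -/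
theorem s59f_carayol (ρ₁ ρ₂ : GaloisRepAdic B)
    (h₁ : ρ₁.residual.IsAbsolutelyIrreducible) (h₂ : ρ₂.residual.IsAbsolutelyIrreducible)
    (htr : ∀ g, s59i_cpTr ρ₁ g = s59i_cpTr ρ₂ g) : ρ₁.IsEquiv ρ₂ := by
  obtain ⟨b₁⟩ : Nonempty (Module.Basis (Fin 2) B ρ₁.V) :=
    ⟨(Module.finBasisOfFinrankEq B ρ₁.V ρ₁.finrank_eq)⟩
  obtain ⟨b₂⟩ : Nonempty (Module.Basis (Fin 2) B ρ₂.V) :=
    ⟨(Module.finBasisOfFinrankEq B ρ₂.V ρ₂.finrank_eq)⟩
  obtain ⟨U, U', hUU', hU'U, hconj⟩ := s59f_carayol_mat (matOf ρ₁ b₁) (matOf ρ₂ b₂)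
    (fun g => by rw [← s59i_cpTr_eq_trace, ← s59i_cpTr_eq_trace, htr])
    (s59u_span_adic ρ₁ h₁ b₁) (s59u_span_adic ρ₂ h₂ b₂)
  obtain ⟨b', hb'⟩ := exists_basis_conj ρ₁ b₁ U U' hUU' hU'U
  refine isEquiv_of_matOf_eq b' b₂ fun σ => ?_
  rw [hb', hconj]

end Rep

end Fermat.Agent.Lib.S59
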