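/-
PROGRAMME (R), bridge (iii) (helper6, prefix `s59q_`): **from a count of tangent vectors to generators,
relative to a set `E` of known elements.**

`s59q_exists_gens_mod`: `R` a noetherian local test `𝒪`-algebra, `E ⊆ R` any set; if `k^(s+1)` does not embed
into `{f : R →ₐ[𝒪] k[ε] | f(E) = 0}`, then `𝔪_R ≤ (E) + (x₁,…,x_s) + 𝔪_𝒪 R` for suitable `x_i ∈ 𝔪_R`.
(Main's `s56a_exists_injective_of_lt` / `s56a_exists_gens` applied to `R ⧸ (E)`.)
`s59q_gens_push`: such a generation statement is transported along a surjection of local rings.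
-/
import Fermat.Agent.Lib.S56.ATangent

set_option autoImplicit false
set_option linter.style.haveILetI false

noncomputable section

namespace Fermat.Agent.Lib.S59

open IsLocalRing Fermat.Agent.Lib.Deform Fermat.Agent.Lib.S56

section GensMod

variable {𝒪 : Type} [CommRing 𝒪] [IsLocalRing 𝒪]
variable {R : Type} [CommRing R] [IsLocalRing R] [Algebra 𝒪 R]

/-- the quotient of a test algebra by a proper ideal is a test algebra. -/
theorem s59q_isTestAlgebra_quotient (hR : IsTestAlgebra 𝒪 R) (I : Ideal R) [Nontrivial (R ⧸ I)]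
    [IsLocalRing (R ⧸ I)] : IsTestAlgebra 𝒪 (R ⧸ I) := by
  haveI : IsLocalHom (Ideal.Quotient.mk I) :=
    IsLocalHom.of_surjective (Ideal.Quotient.mk I) Ideal.Quotient.mk_surjective
  haveI := hR.isLocalHom
  refine ⟨?_, ?_⟩
  · have h : algebraMap 𝒪 (R ⧸ I) = (Ideal.Quotient.mk I).comp (algebraMap 𝒪 R) := rfl
    rw [h]
    exact RingHom.isLocalHom_comp _ _
  · intro y
    obtain ⟨z, rfl⟩ := IsLocalRing.residue_surjective y
    obtain ⟨a, rfl⟩ := Ideal.Quotient.mk_surjective z
    obtain ⟨t, ht⟩ := hR.exists_sub_mem a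
    refine ⟨t, ?_⟩
    rw [Function.comp_apply, ← sub_eq_zero, ← map_sub, IsLocalRing.residue_eq_zero_iff]
    have h1 : algebraMap 𝒪 (R ⧸ I) t - Ideal.Quotient.mk I a = Ideal.Quotient.mk I (-(a - algebraMap 𝒪 R t)) := by
      rw [map_neg, map_sub, neg_sub]
      rfl
    rw [h1]
    exact map_nonunit (Ideal.Quotient.mk I) _ (neg_mem ht)

variable [IsNoetherianRing R]

/-- **generators modulo a set of known elements, from a count of tangent vectors.** -/
theorem s59q_exists_gens_mod (hR : IsTestAlgebra 𝒪 R) (E : Set R) (s : ℕ)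
    (h : letI := dualNumberAlgebra 𝒪
      ¬ ∃ F : (Fin (s + 1) → ResidueField 𝒪) →
          {f : R →ₐ[𝒪] DualNumber (ResidueField 𝒪) // ∀ e ∈ E, f e = 0}, Function.Injective F) :
    ∃ x : Fin s → R, (∀ i, x i ∈ maximalIdeal R) ∧
      maximalIdeal R ≤ Ideal.span (E ∪ Set.range x) ⊔ (maximalIdeal 𝒪).map (algebraMap 𝒪 R) := by
  letI := dualNumberAlgebra 𝒪
  by_cases htop : Ideal.span E = ⊤
  · refine ⟨fun _ => 0, fun _ => zero_mem _, ?_⟩
    have h1 : Ideal.span (E ∪ Set.range fun _ : Fin s => (0 : R)) = ⊤ :=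
      top_le_iff.1 (htop ▸ Ideal.span_mono Set.subset_union_left)
    rw [h1]
    exact le_sup_of_le_left le_top
  set I : Ideal R := Ideal.span E with hI
  haveI : Nontrivial (R ⧸ I) := Ideal.Quotient.nontrivial_iff.2 htop
  haveI : IsLocalRing (R ⧸ I) :=
    IsLocalRing.of_surjective' (Ideal.Quotient.mk I) Ideal.Quotient.mk_surjective
  haveI : IsLocalHom (Ideal.Quotient.mk I) :=
    IsLocalHom.of_surjective (Ideal.Quotient.mk I) Ideal.Quotient.mk_surjective
  have hR' : IsTestAlgebra 𝒪 (R ⧸ I) := s59q_isTestAlgebra_quotient hR I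
  have hd : Module.finrank (ResidueField (R ⧸ I)) (s56a_RelCot hR') ≤ s := by
    by_contra hlt
    obtain ⟨F, hF⟩ := s56a_exists_injective_of_lt hR' s (by omega)
    refine h ⟨fun a => ⟨(F a).comp (Ideal.Quotient.mkₐ 𝒪 I), fun e he => ?_⟩, ?_⟩
    · have : Ideal.Quotient.mkₐ 𝒪 I e = 0 := by
        rw [Ideal.Quotient.mkₐ_eq_mk]
        exact Ideal.Quotient.eq_zero_iff_mem.2 (Ideal.subset_span he)
      rw [AlgHom.comp_apply, this, map_zero]
    · intro a a' haa
      have h1 : (F a).comp (Ideal.Quotient.mkₐ 𝒪 I) = (F a').comp (Ideal.Quotient.mkₐ 𝒪 I) :=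
        congrArg Subtype.val haa
      refine hF (AlgHom.ext fun y => ?_)
      obtain ⟨z, rfl⟩ := Ideal.Quotient.mk_surjective y
      exact congrArg (fun ψ : R →ₐ[𝒪] DualNumber (ResidueField 𝒪) => ψ z) h1
  obtain ⟨x', hx', hgen⟩ := s56a_exists_gens hR' s hd
  have hlift : ∀ i, ∃ y : R, Ideal.Quotient.mk I y = x' i := fun i =>
    Ideal.Quotient.mk_surjective (x' i)
  choose x hx using hlift
  have hxm : ∀ i, x i ∈ maximalIdeal R := by
    intro i
    by_contra hu
    rw [mem_maximalIdeal, mem_nonunits_iff, not_not] at hu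
    have h1 := (hu.map (Ideal.Quotient.mk I))
    rw [hx i] at h1
    exact (mem_maximalIdeal _).1 (hx' i) h1
  refine ⟨x, hxm, fun z hz => ?_⟩
  have hz' : Ideal.Quotient.mk I z ∈ maximalIdeal (R ⧸ I) := map_nonunit _ _ hz
  have h2 := hgen hz'
  -- pull back the membership
  set J : Ideal R := Ideal.span (E ∪ Set.range x) ⊔ (maximalIdeal 𝒪).map (algebraMap 𝒪 R) with hJ
  have hIJ : I ≤ J := le_sup_of_le_left (Ideal.span_mono Set.subset_union_left)
  have hle : Ideal.span (Set.range x') ⊔ (maximalIdeal 𝒪).map (algebraMap 𝒪 (R ⧸ I)) ≤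
      J.map (Ideal.Quotient.mk I) := by
    refine sup_le ?_ ?_
    · rw [Ideal.span_le]
      rintro _ ⟨i, rfl⟩
      rw [← hx i]
      exact Ideal.mem_map_of_mem _ (Ideal.mem_sup_left (Ideal.subset_span (Or.inr ⟨i, rfl⟩)))
    · rw [Ideal.map_le_iff_le_comap]
      intro t ht
      rw [Ideal.mem_comap]
      have : algebraMap 𝒪 (R ⧸ I) t = Ideal.Quotient.mk I (algebraMap 𝒪 R t) := rfl
      rw [this]
      exact Ideal.mem_map_of_mem _ (Ideal.mem_sup_right (Ideal.mem_map_of_mem _ ht))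
  have h3 := hle h2
  rw [Ideal.mem_map_iff_of_surjective _ Ideal.Quotient.mk_surjective] at h3
  obtain ⟨w, hw, hwz⟩ := h3
  have h4 : z - w ∈ I := by
    rw [← Ideal.Quotient.eq_zero_iff_mem, map_sub, hwz, sub_self]
  have : z = (z - w) + w := by ring
  rw [this]
  exact J.add_mem (hIJ h4) hw

end GensMod

section Push

variable {𝒪 : Type} [CommRing 𝒪] [IsLocalRing 𝒪]
variable {R : Type} [CommRing R] [IsLocalRing R] [Algebra 𝒪 R]
variable {T : Type} [CommRing T] [IsLocalRing T] [Algebra 𝒪 T]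

/-- a generation statement for the maximal ideal is transported along a surjection. -/
theorem s59q_gens_push (φ : R →ₐ[𝒪] T) (hφ : Function.Surjective φ) (G : Set R)
    (hgen : maximalIdeal R ≤ Ideal.span G ⊔ (maximalIdeal 𝒪).map (algebraMap 𝒪 R)) :
    maximalIdeal T ≤ Ideal.span (φ '' G) ⊔ (maximalIdeal 𝒪).map (algebraMap 𝒪 T) := by
  haveI : IsLocalHom (φ : R →+* T) := IsLocalHom.of_surjective (φ : R →+* T) hφ
  intro y hy
  obtain ⟨z, rfl⟩ := hφ y
  have hz : z ∈ maximalIdeal R := by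
    by_contra hu
    rw [mem_maximalIdeal, mem_nonunits_iff, not_not] at hu
    exact (mem_maximalIdeal _).1 hy (hu.map φ)
  have h1 := Ideal.mem_map_of_mem (φ : R →+* T) (hgen hz)
  rw [Ideal.map_sup, Ideal.map_span, Ideal.map_map] at h1
  have h2 : ((φ : R →+* T).comp (algebraMap 𝒪 R)) = algebraMap 𝒪 T := by
    ext t
    exact φ.commutes t
  rw [h2] at h1
  exact h1

end Push

end Fermat.Agent.Lib.S59
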