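/-
PROGRAMME R2 = S59, node [LIFT-min] = FIN-L (helper4, prefix `s59f_`), part K: MAPS BETWEEN UNIVERSAL
DEFORMATION RINGS.  `D0`, `DQ` universal rings for two conditions `𝒟₀ ⇒ 𝒟Q` (e.g. the minimal problem
and the problem with the Taylor–Wiles primes `Q` added to the ramification set).
  * `s59f_univ_ext`        : two `𝒪`-algebra maps `D.R → B` whose push-forwards of the universal
                             representation have the trace function of ONE representation `ρB` of type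
                             `𝒟` (residually `ρ̄`) are equal (Carayol + uniqueness in the universal
                             property);
  * `s59f_kappa_exists`    : the canonical map `κ : DQ.R → D0.R`;
  * `s59f_kappa_surjective`: `κ` is onto (injectivity on tangent spaces: a tangent vector of `D0.R`
                             killing `κ(𝔪)` gives the trivial deformation, `s56a_TangentStable 𝒟₀`).
-/
import Mathlib
import Fermat.Agent.Lib.S59.FLiftC
import Fermat.Agent.Lib.S59.BDQRes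
import Fermat.Agent.Lib.S59.QBrAlg
import Fermat.Agent.Lib.S59.ETGal
import Fermat.Agent.Lib.S56.ADict
import Fermat.Agent.Lib.S59.EAbsIrr

set_option autoImplicit false
set_option linter.unusedSectionVars false
set_option linter.unusedVariables false
set_option linter.style.haveILetI false
set_option maxHeartbeats 1600000

noncomputable section

namespace Fermat.Agent.Lib.S59

open IsLocalRing
open Fermat.Agent.Lib.S53 (matOf matOfRes NormData isEquiv_of_matOf_eq exists_basis_conj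
  exists_basis_baseChangeAlong exists_basis_of_isEquiv toRep toRepBasis matOf_toRep)
open Fermat.Agent.Lib.Deform (dualNumberAlgebra IsTestAlgebra isTestAlgebra_dualNumber
  dualNumber_algebraMap_apply dualNumber_mem_maximalIdeal_iff isLocalHom_of_isTestAlgebra)
open Fermat.Agent.Lib.S56

local notation "Γℚ" => (AlgebraicClosure ℚ ≃ₐ[ℚ] AlgebraicClosure ℚ)

variable {𝒪 : Type} [CommRing 𝒪] [IsDomain 𝒪] [IsDiscreteValuationRing 𝒪]
  [IsAdicComplete (maximalIdeal 𝒪) 𝒪]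
  {ρbar : ResidualGaloisRep (ResidueField 𝒪)}

section Ext

variable {𝒟 : ∀ ⦃A : Type⦄ [CommRing A] [IsLocalRing A] [Algebra 𝒪 A], GaloisRepAdic A → Prop}

/-- **two maps out of a universal ring with the same trace function are equal.** -/
theorem s59f_univ_ext (D : GaloisRep.DeformationRingData 𝒪 ρbar 𝒟)
    {B : Type} [CommRing B] [IsLocalRing B] [IsNoetherianRing B]
    [IsAdicComplete (maximalIdeal B) B] [Algebra 𝒪 B] [IsLocalHom (algebraMap 𝒪 B)]
    (hB : Function.Surjective (residue B ∘ algebraMap 𝒪 B))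
    (ρB : GaloisRepAdic B) (h𝒟 : 𝒟 ρB)
    (hres : ρB.residual.IsEquiv (ρbar.baseChangeAlong (ResidueField.map (algebraMap 𝒪 B))))
    (f₁ f₂ : D.R →ₐ[𝒪] B)
    (h₁ : ∀ g, f₁ (s59i_cpTr D.ρ g) = s59i_cpTr ρB g)
    (h₂ : ∀ g, f₂ (s59i_cpTr D.ρ g) = s59i_cpTr ρB g) : f₁ = f₂ := by
  have hBt : IsTestAlgebra 𝒪 B := ⟨inferInstance, hB⟩
  have hf₁ : IsLocalHom (f₁ : D.R →+* B) := isLocalHom_of_isTestAlgebra hBt f₁
  have hf₂ : IsLocalHom (f₂ : D.R →+* B) := isLocalHom_of_isTestAlgebra hBt f₂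
  have habsB : ρB.residual.IsAbsolutelyIrreducible := by
    obtain ⟨e⟩ := hres
    exact s59b_absIrr_of_isEquiv _ _ ⟨e.symm⟩
      (s59u_absIrr_baseChangeAlong (ResidueField.map (algebraMap 𝒪 B)) ρbar D.absIrr)
  have habsD := s59b_DQ_residual_absIrr D
  have e₁ : (D.ρ.baseChangeAlong (f₁ : D.R →+* B) hf₁).IsEquiv ρB :=
    s59f_carayol _ _ (s59e_bc_absIrr _ hf₁ D.ρ habsD) habsB
      (fun g => by rw [s59e_cpTr_map]; exact h₁ g)
  have e₂ : (D.ρ.baseChangeAlong (f₂ : D.R →+* B) hf₂).IsEquiv ρB :=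
    s59f_carayol _ _ (s59e_bc_absIrr _ hf₂ D.ρ habsD) habsB
      (fun g => by rw [s59e_cpTr_map]; exact h₂ g)
  exact (D.universal B hB ρB h𝒟 hres).unique ⟨hf₁, e₁⟩ ⟨hf₂, e₂⟩

end Ext

section Kappa

variable {𝒟₀ 𝒟Q : ∀ ⦃A : Type⦄ [CommRing A] [IsLocalRing A] [Algebra 𝒪 A], GaloisRepAdic A → Prop}
  (D0 : GaloisRep.DeformationRingData 𝒪 ρbar 𝒟₀) (DQ : GaloisRep.DeformationRingData 𝒪 ρbar 𝒟Q)

/-- **the canonical map `κ : DQ.R → D0.R`.** -/
theorem s59f_kappa_exists (h𝒟 : 𝒟Q D0.ρ) :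
    ∃ κ : DQ.R →ₐ[𝒪] D0.R, ∃ hκ : IsLocalHom (κ : DQ.R →+* D0.R),
      (DQ.ρ.baseChangeAlong (κ : DQ.R →+* D0.R) hκ).IsEquiv D0.ρ := by
  obtain ⟨κ, ⟨hκ, e⟩, -⟩ := DQ.universal D0.R D0.residue_surjective D0.ρ h𝒟 D0.residual_isEquiv
  exact ⟨κ, hκ, e⟩

theorem s59f_kappa_trace (κ : DQ.R →ₐ[𝒪] D0.R) (hκ : IsLocalHom (κ : DQ.R →+* D0.R))
    (e : (DQ.ρ.baseChangeAlong (κ : DQ.R →+* D0.R) hκ).IsEquiv D0.ρ) (g : Γℚ) :
    κ (s59i_cpTr DQ.ρ g) = s59i_cpTr D0.ρ g := by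
  have h1 := s59e_cpTr_map (κ : DQ.R →+* D0.R) hκ DQ.ρ g
  rw [← RingHom.coe_coe, ← h1]
  obtain ⟨e'⟩ := e
  unfold s59i_cpTr
  rw [Fermat.Agent.S54.charpoly_eq_of_equiv e']

end Kappa

section Surj

attribute [local instance] Fermat.Agent.Lib.Deform.dualNumberAlgebra

variable {𝒟₀ 𝒟Q : ∀ ⦃A : Type⦄ [CommRing A] [IsLocalRing A] [Algebra 𝒪 A], GaloisRepAdic A → Prop}
  (D0 : GaloisRep.DeformationRingData 𝒪 ρbar 𝒟₀) (DQ : GaloisRep.DeformationRingData 𝒪 ρbar 𝒟Q)
  (N : NormData ρbar) (p : ℕ) [Fact p.Prime] (h𝒟 : s56a_TangentStable 𝒪 𝒟₀ p)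
  (κ : DQ.R →ₐ[𝒪] D0.R) (hκ : IsLocalHom (κ : DQ.R →+* D0.R))
  (e : (DQ.ρ.baseChangeAlong (κ : DQ.R →+* D0.R) hκ).IsEquiv D0.ρ)

/-- the trivial tangent vector attached to a homomorphism to `k[ε]`. -/
def s59f_triv (f : D0.R →ₐ[𝒪] DualNumber (ResidueField 𝒪)) :
    D0.R →ₐ[𝒪] DualNumber (ResidueField 𝒪) :=
  { ((TrivSqZeroExt.inlHom (ResidueField 𝒪) (ResidueField 𝒪)).comp
      ((TrivSqZeroExt.fstHom (ResidueField 𝒪) (ResidueField 𝒪) (ResidueField 𝒪) :
        DualNumber (ResidueField 𝒪) →+* ResidueField 𝒪).comp (f : D0.R →+* _))) with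
    commutes' := fun t => by
      show TrivSqZeroExt.inl (TrivSqZeroExt.fst (f (algebraMap 𝒪 D0.R t))) = _
      rw [f.commutes, dualNumber_algebraMap_apply, TrivSqZeroExt.fst_inl] }

theorem s59f_triv_apply (f : D0.R →ₐ[𝒪] DualNumber (ResidueField 𝒪)) (x : D0.R) :
    s59f_triv D0 f x = TrivSqZeroExt.inl (f x).fst := rfl

theorem s59f_triv_not_surjective (f : D0.R →ₐ[𝒪] DualNumber (ResidueField 𝒪)) :
    ¬ Function.Surjective (s59f_triv D0 f) := by
  intro h
  obtain ⟨x, hx⟩ := h (TrivSqZeroExt.inr 1)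
  have := congrArg TrivSqZeroExt.snd hx
  rw [s59f_triv_apply, TrivSqZeroExt.snd_inl, TrivSqZeroExt.snd_inr] at this
  exact zero_ne_one this

include N h𝒟 e in
/-- **a tangent vector of `D0.R` killing `κ(𝔪)` is not surjective.** -/
theorem s59f_not_surjective_of_kill [Finite (ResidueField 𝒪)]
    (f : D0.R →ₐ[𝒪] DualNumber (ResidueField 𝒪))
    (hf : ∀ x ∈ maximalIdeal DQ.R, f (κ x) = 0) : ¬ Function.Surjective f := by
  intro hsurj
  set f₀ := s59f_triv D0 f with hf₀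
  have hfl := s56a_isLocalHom_hom D0 f
  have hf₀l := s56a_isLocalHom_hom D0 f₀
  -- the two maps agree on the image of `κ`
  have hagree : ∀ x : DQ.R, f₀ (κ x) = f (κ x) := by
    intro x
    obtain ⟨c, hc⟩ := (s56a_isTestAlgebra_R DQ).exists_sub_mem x
    have h1 : f (κ x) = algebraMap 𝒪 _ c := by
      have := hf _ hc
      rw [map_sub, map_sub, AlgHom.commutes, AlgHom.commutes, sub_eq_zero] at this
      exact this
    rw [hf₀, s59f_triv_apply, h1, dualNumber_algebraMap_apply, TrivSqZeroExt.fst_inl]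
  -- a basis of `D0.ρ` with entries in the image of `κ`
  obtain ⟨bQ, hbQ⟩ := s56a_exists_basisR DQ N
  obtain ⟨bκ, hbκ⟩ := exists_basis_baseChangeAlong DQ.ρ bQ (κ : DQ.R →+* D0.R) hκ
  obtain ⟨b0, hb0⟩ := exists_basis_of_isEquiv e bκ
  have hb0' : ∀ σ, matOf D0.ρ b0 σ = (matOf DQ.ρ bQ σ).map κ := fun σ => by rw [hb0, hbκ]; rfl
  have hb0R : ∀ σ i j, matOf D0.ρ b0 σ i j - algebraMap 𝒪 D0.R (N.Mtil σ i j) ∈
      maximalIdeal D0.R := by
    intro σ i j
    rw [hb0', Matrix.map_apply, ← κ.commutes, ← map_sub]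
    haveI := hκ
    exact map_nonunit (κ : DQ.R →+* D0.R) _ (hbQ σ i j)
  -- the target representation
  set ρA : GaloisRepAdic (DualNumber (ResidueField 𝒪)) :=
    toRep (s56a_famOf D0 b0 f) (s56a_matContinuous_famOf D0 b0 f) with hρA
  obtain ⟨bf, hbf⟩ := exists_basis_baseChangeAlong D0.ρ b0
    (f : D0.R →+* DualNumber (ResidueField 𝒪)) hfl
  obtain ⟨bf₀, hbf₀⟩ := exists_basis_baseChangeAlong D0.ρ b0
    (f₀ : D0.R →+* DualNumber (ResidueField 𝒪)) hf₀l
  have ef : (D0.ρ.baseChangeAlong (f : D0.R →+* DualNumber (ResidueField 𝒪)) hfl).IsEquiv ρA := by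
    refine isEquiv_of_matOf_eq bf (toRepBasis _ _) fun σ => ?_
    rw [hbf, matOf_toRep]
    rfl
  have ef₀ : (D0.ρ.baseChangeAlong (f₀ : D0.R →+* DualNumber (ResidueField 𝒪)) hf₀l).IsEquiv
      ρA := by
    refine isEquiv_of_matOf_eq bf₀ (toRepBasis _ _) fun σ => ?_
    rw [hbf₀, matOf_toRep, s56a_famOf_apply, hb0']
    refine Matrix.ext fun i j => ?_
    simp only [Matrix.map_apply]
    exact hagree _
  have h𝒟A : 𝒟₀ ρA := h𝒟.of_isEquiv ef (s56a_isOfType_baseChange D0 p h𝒟 f hsurj)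
  haveI : IsLocalHom (algebraMap 𝒪 (DualNumber (ResidueField 𝒪))) :=
    (isTestAlgebra_dualNumber 𝒪).isLocalHom
  have hres : ρA.residual.IsEquiv
      (ρbar.baseChangeAlong (ResidueField.map (algebraMap 𝒪 (DualNumber (ResidueField 𝒪))))) :=
    @Fermat.Agent.Lib.S53.residual_isEquiv_of_res 𝒪 _ _ ρbar N _ _ _ _
      (ResidueField.map (algebraMap 𝒪 (DualNumber (ResidueField 𝒪)))).toAlgebra
      Fermat.Agent.Lib.S53.residueField_map_compat _ _ (s56a_famOf_res D0 N b0 hb0R f)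
  haveI : Finite (DualNumber (ResidueField 𝒪)) := Fermat.Agent.Lib.Deform.finite_dualNumber 𝒪
  haveI : IsAdicComplete (maximalIdeal (DualNumber (ResidueField 𝒪)))
      (DualNumber (ResidueField 𝒪)) :=
    Fermat.Agent.Lib.Deform.isAdicComplete_of_isArtinianRing _
  have huniv := D0.universal (DualNumber (ResidueField 𝒪))
    (isTestAlgebra_dualNumber 𝒪).residue_surjective ρA h𝒟A hres
  have heq : f = f₀ := huniv.unique ⟨hfl, ef⟩ ⟨hf₀l, ef₀⟩
  exact s59f_triv_not_surjective D0 f (heq ▸ hsurj)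

include N h𝒟 e in
/-- **`κ : DQ.R → D0.R` is onto.** -/
theorem s59f_kappa_surjective [Finite (ResidueField 𝒪)] : Function.Surjective κ := by
  haveI := hκ
  have hR0 := s56a_isTestAlgebra_R D0
  have hRQ := s56a_isTestAlgebra_R DQ
  set E : Set D0.R := (fun x => κ x) '' (maximalIdeal DQ.R : Set DQ.R) with hE
  -- the count of tangent vectors
  have hcount : ¬ ∃ F : (Fin (0 + 1) → ResidueField 𝒪) →
      {f : D0.R →ₐ[𝒪] DualNumber (ResidueField 𝒪) // ∀ e ∈ E, f e = 0},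
      Function.Injective F := by
    rintro ⟨F, hF⟩
    have hns : ∀ g : {f : D0.R →ₐ[𝒪] DualNumber (ResidueField 𝒪) // ∀ e ∈ E, f e = 0},
        ¬ Function.Surjective g.1 := fun g =>
      s59f_not_surjective_of_kill D0 DQ N p h𝒟 κ hκ e g.1 fun x hx => g.2 _ ⟨x, hx, rfl⟩
    have h1 : F (fun _ => 0) = F (fun _ => 1) :=
      Subtype.ext (s56a_eq_of_not_surjective D0 _ _ (hns _) (hns _))
    have h2 := congrFun (hF h1) 0
    exact zero_ne_one h2
  obtain ⟨x, -, hgen⟩ := s59q_exists_gens_mod hR0 E 0 hcount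
  -- the image of the maximal ideal generates the maximal ideal
  have hle : maximalIdeal D0.R ≤ (maximalIdeal DQ.R).map (κ : DQ.R →+* D0.R) := by
    refine hgen.trans (sup_le ?_ ?_)
    · rw [Ideal.span_le]
      rintro _ (⟨y, hy, rfl⟩ | ⟨i, -⟩)
      · exact Ideal.mem_map_of_mem _ hy
      · exact i.elim0
    · rw [Ideal.map_le_iff_le_comap]
      intro t ht
      rw [Ideal.mem_comap, ← κ.commutes]
      exact Ideal.mem_map_of_mem _ (hRQ.algebraMap_mem ht)
  have hge : (maximalIdeal DQ.R).map (κ : DQ.R →+* D0.R) ≤ maximalIdeal D0.R := by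
    rw [Ideal.map_le_iff_le_comap]
    intro y hy
    exact map_nonunit (κ : DQ.R →+* D0.R) y hy
  have heq : (maximalIdeal DQ.R).map (κ : DQ.R →+* D0.R) = maximalIdeal D0.R :=
    le_antisymm hge hle
  haveI : IsHausdorff ((maximalIdeal DQ.R).map (κ : DQ.R →+* D0.R)) D0.R := by
    rw [heq]; infer_instance
  refine surjective_of_mk_map_comp_surjective (I := maximalIdeal DQ.R)
    (κ : DQ.R →+* D0.R) ?_
  intro q
  obtain ⟨a, rfl⟩ := Ideal.Quotient.mk_surjective q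
  obtain ⟨t, ht⟩ := hR0.exists_sub_mem a
  refine ⟨algebraMap 𝒪 DQ.R t, ?_⟩
  rw [RingHom.comp_apply, Ideal.Quotient.eq, heq]
  have : (κ : DQ.R →+* D0.R) (algebraMap 𝒪 DQ.R t) = algebraMap 𝒪 D0.R t := κ.commutes t
  rw [this, ← neg_sub]
  exact neg_mem ht

end Surj

end Fermat.Agent.Lib.S59
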