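/-
Programme R2 (S59), node [PATCH-FLR], `T`-side, **(T1) joint levels** (helper5, prefix `s59efl_`): **TRANSFER OF THE HECKE-RING DATA ALONG
`κ : DQ.R → DQ′.R`** (two deformation data of types `𝒟 ⊇ 𝒟′`).  If `θ′ : DQ′.R → T′` has the Frobenius characteristic polynomials
`X² − t_ℓ X + ℓ`, so has `θ := θ′ ∘ κ : DQ.R → T′`; `θ` is onto as soon as the `t_ℓ` generate `T′`; and `θ` kills the coefficients
`f(ρ(g)v − v)` of `ρ = DQ.ρ` for every `g` acting trivially on `DQ′.ρ` (`hunr0` of helper4's `s59f_TLevelF`: the base level is unramified at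
the raising primes).
-/
import Mathlib
import Fermat.Agent.Lib.S59.FLiftK
import Fermat.Agent.Lib.S56.ZPre

set_option autoImplicit false
set_option linter.unusedSectionVars false
set_option linter.unusedVariables false
set_option linter.style.haveILetI false

noncomputable section

namespace Fermat.Agent.Lib.S59

open IsLocalRing TensorProduct

local notation "Γℚ" => (AlgebraicClosure ℚ ≃ₐ[ℚ] AlgebraicClosure ℚ)

section Kappa

variable {𝒪 : Type} [CommRing 𝒪] [IsDomain 𝒪] [IsDiscreteValuationRing 𝒪]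
  [IsAdicComplete (maximalIdeal 𝒪) 𝒪]
  {ρbar : ResidualGaloisRep (ResidueField 𝒪)}
  {𝒟 𝒟' : ∀ ⦃A : Type⦄ [CommRing A] [IsLocalRing A] [Algebra 𝒪 A], GaloisRepAdic A → Prop}
  (DQ : GaloisRep.DeformationRingData 𝒪 ρbar 𝒟) (DQ' : GaloisRep.DeformationRingData 𝒪 ρbar 𝒟')
  (κ : DQ.R →ₐ[𝒪] DQ'.R) (hκ : IsLocalHom (κ : DQ.R →+* DQ'.R))
  (e : (DQ.ρ.baseChangeAlong (κ : DQ.R →+* DQ'.R) hκ).IsEquiv DQ'.ρ)

include e in
/-- `κ` maps the characteristic polynomials of `DQ.ρ` to those of `DQ′.ρ`. -/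
theorem s59efl_kappa_charpoly (g : Γℚ) :
    (LinearMap.charpoly (DQ.ρ.ρ g)).map (κ : DQ.R →+* DQ'.R) = LinearMap.charpoly (DQ'.ρ.ρ g) := by
  obtain ⟨e'⟩ := e
  rw [Fermat.Agent.S54.charpoly_eq_of_equiv e' g, Fermat.Agent.S54.charpoly_baseChangeAlong]

/-- a general fact: if `g` acts trivially on the base change `B ⊗_A V`, then `φ` kills the coefficients `f (ρ(g) v − v)`. -/
theorem s59efl_bc_kill {A B : Type} [CommRing A] [IsLocalRing A] [CommRing B] [IsLocalRing B]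
    (φ : A →+* B) (hφ : IsLocalHom φ) (ρ : GaloisRepAdic A) (g : Γℚ)
    (hg : (ρ.baseChangeAlong φ hφ).ρ g = 1) (f : Module.Dual A ρ.V) (v : ρ.V) :
    φ (f (ρ.ρ g v - v)) = 0 := by
  letI : Algebra A B := φ.toAlgebra
  have h1 : (ρ.ρ g).baseChange B ((1 : B) ⊗ₜ[A] v) = (1 : B) ⊗ₜ[A] v := by
    have := LinearMap.congr_fun hg ((1 : B) ⊗ₜ[A] v)
    exact this
  rw [LinearMap.baseChange_tmul] at h1
  have h2 := congrArg (Module.Dual.baseChange B f) h1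
  rw [Module.Dual.baseChange_apply_tmul, Module.Dual.baseChange_apply_tmul] at h2
  have e1 : ∀ a : A, a • (1 : B) = φ a := fun a => by
    rw [Algebra.smul_def, mul_one]; rfl
  rw [e1, e1] at h2
  have h3 : φ (f (ρ.ρ g v)) = φ (f v) := h2
  rw [map_sub, map_sub, h3, sub_self]

include e in
/-- **`κ` kills the coefficients `f (ρ(g) v − v)` for every `g` acting trivially on `DQ′.ρ`.** -/
theorem s59efl_kappa_unr (g : Γℚ) (hg : DQ'.ρ.ρ g = 1) (f : Module.Dual DQ.R DQ.ρ.V)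
    (v : DQ.ρ.V) : κ (f (DQ.ρ.ρ g v - v)) = 0 := by
  obtain ⟨e'⟩ := e
  refine s59efl_bc_kill (κ : DQ.R →+* DQ'.R) hκ DQ.ρ g ?_ f v
  refine LinearMap.ext fun x => ?_
  apply e'.toLinearEquiv.injective
  rw [e'.map_apply, hg]
  rfl

end Kappa

section Surj

variable {𝒪 : Type} [CommRing 𝒪] [IsDomain 𝒪] [IsDiscreteValuationRing 𝒪]
  [IsAdicComplete (maximalIdeal 𝒪) 𝒪]
  {ρbar : ResidualGaloisRep (ResidueField 𝒪)}
  {𝒟 : ∀ ⦃A : Type⦄ [CommRing A] [IsLocalRing A] [Algebra 𝒪 A], GaloisRepAdic A → Prop}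
  (DQ : GaloisRep.DeformationRingData 𝒪 ρbar 𝒟)
  {T' : Type} [CommRing T'] [Algebra 𝒪 T'] (θ : DQ.R →ₐ[𝒪] T') (S : Finset ℕ) (t : ℕ → T')

/-- **`θ` is onto as soon as the Frobenius traces generate `T′`.** -/
theorem s59efl_theta_surjective
    (hfrob : ∀ ℓ : ℕ, ℓ.Prime → ℓ ∉ S →
      ∀ A' : ValuationSubring (AlgebraicClosure ℚ), A'.LiesOverPrime ℓ →
      ∀ τ : Γℚ, A'.IsFrobeniusAt τ ℓ →
        (LinearMap.charpoly (DQ.ρ.ρ τ)).map (θ : DQ.R →+* T') =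
          Polynomial.X ^ 2 - Polynomial.C (t ℓ) * Polynomial.X + Polynomial.C ((ℓ : T')))
    (hgen : Algebra.adjoin 𝒪 {x : T' | ∃ ℓ : ℕ, ℓ.Prime ∧ ℓ ∉ S ∧ x = t ℓ} = ⊤) :
    Function.Surjective θ := by
  have hle : Algebra.adjoin 𝒪 {x : T' | ∃ ℓ : ℕ, ℓ.Prime ∧ ℓ ∉ S ∧ x = t ℓ} ≤ θ.range := by
    refine Algebra.adjoin_le ?_
    rintro _ ⟨ℓ, hℓ, hℓS, rfl⟩
    obtain ⟨τ, hτ⟩ := Fermat.Agent.Lib.S56.s56z_exists_frob ⟨ℓ, hℓ⟩
    have h1 := hfrob ℓ hℓ hℓS _ (Fermat.Agent.Lib.S56.s56z_place_liesOver ⟨ℓ, hℓ⟩) τ hτ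
    have h2 := congrArg (fun P => Polynomial.coeff P 1) h1
    simp only [Polynomial.coeff_map, Polynomial.coeff_add, Polynomial.coeff_sub,
      Polynomial.coeff_X_pow, Polynomial.coeff_C_mul, Polynomial.coeff_X_one,
      Polynomial.coeff_C] at h2
    norm_num at h2
    refine ⟨-(LinearMap.charpoly (DQ.ρ.ρ τ)).coeff 1, ?_⟩
    rw [map_neg]
    exact neg_eq_iff_eq_neg.mpr h2
  intro x
  have hx : x ∈ θ.range := hle (hgen ▸ Algebra.mem_top)
  exact hx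

end Surj

end Fermat.Agent.Lib.S59
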