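/-
Programme R2 (S59), node [PATCH-FLR], `T`-side, leaf (L-B) of helper5 (#3859), written by helper2:
**the deformation ring `DQ⁰` of the type WITHOUT the raising primes and the canonical surjection `κ : DQ.R ↠ DQ⁰.R`.**

`Dm` a deformation ring of a minimal type `(Σ_m, Σ_u⁰)`, `Σ_m ⊆ Σ⁰ ⊆ Σ`; `DQ` of type `(Σ, Σ_u)` with
`Σ_u ⊆ Σ_u⁰ ∪ (Σ⁰)ᶜ`.  Then the ring `DQ⁰` of type `(Σ⁰, Σ_u⁰)` exists (`s59q_exists_DQ_flat`, the lift `Dm.ρ`),
its universal representation is of the type of `DQ` (unramified ⇒ unipotent on inertia), hence `κ : DQ.R → DQ⁰.R`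
(`s59f_kappa_exists`), onto (`s59f_kappa_surjective`), compatible with characteristic polynomials
(`s59efl_kappa_charpoly`) and killing the inertia coefficients at every prime `q ∉ Σ⁰` (`s59efl_kappa_unr`).
-/
import Mathlib
import Fermat.Agent.Lib.S59.EFlrB2
import Fermat.Agent.Lib.S59.QExistDQ
import Fermat.Agent.Lib.S56.AStable

set_option autoImplicit false
set_option linter.unusedSectionVars false
set_option linter.unusedVariables false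
set_option linter.style.haveILetI false
set_option maxHeartbeats 1600000

noncomputable section

namespace Fermat.Agent.Lib.S59

open IsLocalRing GaloisRep
open Fermat.Agent.Lib.S53 (NormData)
open Fermat.Agent.Lib.S56

section UnipOfUnram

variable {A : Type} [CommRing A] [IsLocalRing A]

/-- an unramified representation is unipotent on inertia (local copy of helper4's `s59f_unip_of_unram`,
to keep the closure of this file small). -/
theorem s59b_unip_of_unram_at (ρ : GaloisRepAdic A) (q : ℕ) (h : ρ.IsUnramifiedAt q) :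
    ρ.IsUnipotentOnInertiaAt q := by
  intro P hP σ hσ
  rw [h P hP σ hσ]
  set b : Module.Basis (Fin 2) A ρ.V := Module.finBasisOfFinrankEq A ρ.V ρ.finrank_eq with hb
  rw [← LinearMap.charpoly_toMatrix (1 : Module.End A ρ.V) b]
  have e : LinearMap.toMatrix b b (1 : Module.End A ρ.V) = 1 := LinearMap.toMatrix_one b
  rw [e, Matrix.charpoly_one, Fintype.card_fin]

end UnipOfUnram

section DQ0

variable (p : ℕ) [Fact p.Prime] (hp2 : p ≠ 2)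
  {𝒪 : Type} [CommRing 𝒪] [IsDomain 𝒪] [IsDiscreteValuationRing 𝒪]
  [IsAdicComplete (maximalIdeal 𝒪) 𝒪] [Finite (ResidueField 𝒪)]
  (hp𝒪 : (p : 𝒪) ∈ maximalIdeal 𝒪)
  (ρbar : ResidualGaloisRep (ResidueField 𝒪)) (habs : ρbar.IsAbsolutelyIrreducible)
  (Nd : NormData ρbar)

include hp2 hp𝒪 habs Nd in
/-- **(L-B): the ring `DQ⁰` without the raising primes and `κ : DQ.R ↠ DQ⁰.R`.** -/
theorem s59efl_exists_DQ0 (Sgm Sg0 Su0 Sg Su : Finset ℕ) (hm0 : Sgm ⊆ Sg0) (h0 : Sg0 ⊆ Sg)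
    (hpSg0 : p ∈ Sg0)
    (hunr : ∀ q : ℕ, q.Prime → q ∉ Sg0 → ρbar.IsUnramifiedAt q)
    (hSu : ∀ q ∈ Su, q ∈ Su0 ∨ q ∉ Sg0)
    (Dm : DeformationRingData 𝒪 ρbar (fun _A _ _ _ ρ =>
      flatCondition 𝒪 p Sgm ρ ∧ ∀ q ∈ Su0, q.Prime → q ≠ p → ρ.IsUnipotentOnInertiaAt q))
    (DQ : DeformationRingData 𝒪 ρbar (fun _A _ _ _ ρ =>
      flatCondition 𝒪 p Sg ρ ∧ ∀ q ∈ Su, q.Prime → q ≠ p → ρ.IsUnipotentOnInertiaAt q)) :
    ∃ (DQ0 : DeformationRingData 𝒪 ρbar (fun _A _ _ _ ρ =>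
        flatCondition 𝒪 p Sg0 ρ ∧ ∀ q ∈ Su0, q.Prime → q ≠ p → ρ.IsUnipotentOnInertiaAt q))
      (κ : DQ.R →ₐ[𝒪] DQ0.R), Function.Surjective κ ∧
      (∀ g, (LinearMap.charpoly (DQ.ρ.ρ g)).map (κ : DQ.R →+* DQ0.R) =
        LinearMap.charpoly (DQ0.ρ.ρ g)) ∧
      ∀ q : ℕ, q.Prime → q ≠ p → q ∉ Sg0 →
        ∀ A : ValuationSubring (AlgebraicClosure ℚ), A.LiesOverPrime q →
        ∀ σ ∈ A.inertiaSubgroupIn ℚ, ∀ (f : Module.Dual DQ.R DQ.ρ.V) (v : DQ.ρ.V),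
          κ (f (DQ.ρ.ρ σ v - v)) = 0 := by
  obtain ⟨DQ0⟩ := s59q_exists_DQ_flat p hp2 hp𝒪 ρbar habs Sgm Sg0 Su0 hm0 hpSg0 hunr inferInstance
    Dm.residue_surjective Dm.ρ Dm.isOfType Dm.residual_isEquiv
  -- `DQ0.ρ` is of the type of `DQ`
  have htype : flatCondition 𝒪 p Sg DQ0.ρ ∧
      ∀ q ∈ Su, q.Prime → q ≠ p → DQ0.ρ.IsUnipotentOnInertiaAt q := by
    refine ⟨⟨DQ0.isOfType.1.1, DQ0.isOfType.1.2.1,
      fun q hq hqS => DQ0.isOfType.1.2.2 q hq fun h' => hqS (h0 h')⟩, fun q hqSu hq hqp => ?_⟩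
    rcases hSu q hqSu with h | h
    · exact DQ0.isOfType.2 q h hq hqp
    · exact s59b_unip_of_unram_at DQ0.ρ q (DQ0.isOfType.1.2.2 q hq h)
  obtain ⟨κ, hκ, eκ⟩ := s59f_kappa_exists DQ0 DQ htype
  refine ⟨DQ0, κ, ?_, ?_, ?_⟩
  · exact s59f_kappa_surjective DQ0 DQ Nd p (s56a_tangentStable_flat 𝒪 p _ _) κ hκ eκ
  · exact fun g => s59efl_kappa_charpoly DQ DQ0 κ hκ eκ g
  · intro q hq hqp hqS A hA σ hσ f v
    exact s59efl_kappa_unr DQ DQ0 κ hκ eκ σ (DQ0.isOfType.1.2.2 q hq hqS A hA σ hσ) f v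

end DQ0

end Fermat.Agent.Lib.S59
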