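/-
S59 project, [SPEC-T±-abs] (helper2, claimed #3889), file 2: **the abstract sign idempotents.**

`u` an involution of an `R`-module `Z`, `2` invertible in `R`, `s = ± 1` (`s * s = 1`):
`e_s = s59b_sgnIdem u s = (1 + s u) / 2`.

* `s59b_sgnIdem_idem`, `s59b_sgnIdem_add_neg` (`e_s + e_{-s} = 1`), `s59b_one_sub_sgnIdem`, `s59b_sgnIdem_orth`,
  `s59b_sgnIdem_eigen` (`u e_s = s e_s`), `s59b_sgnIdem_fix` / `_kill`, `s59b_mem_part_sgnIdem_iff`
  (the `e_s`-part is the `s`-eigenspace of `u`);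
* `s59b_sgnIdem_comm` (commutes with everything commuting with `u`), `s59b_sgnIdem_intertwine`;
* over helper8's package `s59t_Old` with `u = D.w` : `s59b_old_sgn_fix` (the `s`-old classes `resA y + s resB y` lie
  in the `e_s`-summand, for BOTH signs), `s59b_sgn_resA`, `s59b_corA_sgn`, `s59b_corB_sgn`, `s59b_sgnIdem_compat`
  (from a `D.Compat ε ε'`), `s59b_sgnIdem_hom` (from helper4's `s59f_OldHom`);
* **`s59b_TWFullAbs_cut_sgn`, `s59b_TWFull_cut_sgn`** : the cut lemma of `B9Cut.lean` for `(ε e_s, ε' e_s')`;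
* `s59b_isUnit_two`, `s59b_invertibleTwo` : `2` is invertible in a local ring of odd residue characteristic.
-/
import Mathlib
import Fermat.Agent.Lib.S59.TNew
import Fermat.Agent.Lib.S59.FOldH8
import Fermat.Agent.Lib.S59.B9Cut

set_option autoImplicit false
set_option linter.unusedSectionVars false
set_option linter.style.haveILetI false
set_option linter.unusedVariables false

noncomputable section

namespace Fermat.Agent.Lib.S59

section Sgn

variable {R : Type*} [CommRing R] [Invertible (2 : R)] {Z : Type*} [AddCommGroup Z] [Module R Z]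
  {Z' : Type*} [AddCommGroup Z'] [Module R Z']

/-- the sign idempotent `e_s = (1 + s u) / 2` of an involution `u` (`s = ± 1`). -/
def s59b_sgnIdem (u : Module.End R Z) (s : R) : Module.End R Z := (⅟2 : R) • (1 + s • u)

theorem s59b_sgnIdem_apply (u : Module.End R Z) (s : R) (z : Z) :
    s59b_sgnIdem u s z = (⅟2 : R) • (z + s • u z) := rfl

theorem s59b_two_smul_sgnIdem (u : Module.End R Z) (s : R) (z : Z) :
    (2 : R) • s59b_sgnIdem u s z = z + s • u z := by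
  rw [s59b_sgnIdem_apply, smul_smul, mul_invOf_self, one_smul]

theorem s59b_invOf_two_add (z : Z) : (⅟2 : R) • z + (⅟2 : R) • z = z := by
  rw [← add_smul, ← two_mul, mul_invOf_self, one_smul]

/-- `u e_s = s e_s`. -/
theorem s59b_sgnIdem_eigen {u : Module.End R Z} (hu : ∀ z, u (u z) = z) {s : R} (hs : s * s = 1)
    (z : Z) : u (s59b_sgnIdem u s z) = s • s59b_sgnIdem u s z := by
  have h1 : s • (z + s • u z) = u z + s • z := by
    rw [smul_add, smul_smul, hs, one_smul, add_comm]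
  rw [s59b_sgnIdem_apply, map_smul, map_add, map_smul, hu, smul_comm s (⅟2 : R), h1]

/-- `e_s` fixes the `s`-eigenvectors of `u`. -/
theorem s59b_sgnIdem_fix {u : Module.End R Z} {s : R} (hs : s * s = 1) {z : Z}
    (hz : u z = s • z) : s59b_sgnIdem u s z = z := by
  rw [s59b_sgnIdem_apply, hz, smul_smul, hs, one_smul, smul_add, s59b_invOf_two_add]

/-- `e_s` kills the `(-s)`-eigenvectors of `u`. -/
theorem s59b_sgnIdem_kill {u : Module.End R Z} {s : R} (hs : s * s = 1) {z : Z}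
    (hz : u z = (-s) • z) : s59b_sgnIdem u s z = 0 := by
  rw [s59b_sgnIdem_apply, hz, smul_smul, mul_neg, hs, neg_smul, one_smul, add_neg_cancel,
    smul_zero]

/-- `e_s` is idempotent. -/
theorem s59b_sgnIdem_idem {u : Module.End R Z} (hu : ∀ z, u (u z) = z) {s : R} (hs : s * s = 1) :
    s59b_sgnIdem u s * s59b_sgnIdem u s = s59b_sgnIdem u s := by
  refine LinearMap.ext fun z => ?_
  rw [Module.End.mul_apply]
  exact s59b_sgnIdem_fix hs (s59b_sgnIdem_eigen hu hs z)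

/-- `e_s + e_{-s} = 1`. -/
theorem s59b_sgnIdem_add_neg (u : Module.End R Z) (s : R) :
    s59b_sgnIdem u s + s59b_sgnIdem u (-s) = 1 := by
  refine LinearMap.ext fun z => ?_
  rw [LinearMap.add_apply, s59b_sgnIdem_apply, s59b_sgnIdem_apply, ← smul_add, neg_smul]
  have h : z + s • u z + (z + -(s • u z)) = z + z := by abel
  rw [h, smul_add, s59b_invOf_two_add]
  rfl

/-- `1 - e_s = e_{-s}`. -/
theorem s59b_one_sub_sgnIdem (u : Module.End R Z) (s : R) :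
    1 - s59b_sgnIdem u s = s59b_sgnIdem u (-s) := by
  rw [← s59b_sgnIdem_add_neg u s, add_sub_cancel_left]

/-- `e_s e_{-s} = 0`. -/
theorem s59b_sgnIdem_orth {u : Module.End R Z} (hu : ∀ z, u (u z) = z) {s : R} (hs : s * s = 1) :
    s59b_sgnIdem u s * s59b_sgnIdem u (-s) = 0 := by
  refine LinearMap.ext fun z => ?_
  rw [Module.End.mul_apply, LinearMap.zero_apply]
  have hs' : (-s) * (-s) = 1 := by rw [neg_mul_neg, hs]
  refine s59b_sgnIdem_kill hs ?_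
  exact s59b_sgnIdem_eigen hu hs' z

/-- the `e_s`-part is the `s`-eigenspace of `u`. -/
theorem s59b_mem_part_sgnIdem_iff {u : Module.End R Z} (hu : ∀ z, u (u z) = z) {s : R}
    (hs : s * s = 1) (z : Z) : z ∈ s59t_part (s59b_sgnIdem u s) ↔ u z = s • z := by
  constructor
  · rintro ⟨w, rfl⟩
    exact s59b_sgnIdem_eigen hu hs w
  · intro h
    exact ⟨z, s59b_sgnIdem_fix hs h⟩

/-- an operator intertwining `u` and `u'` intertwines `e_s` and `e_s'`. -/
theorem s59b_sgnIdem_intertwine {u : Module.End R Z} {u' : Module.End R Z'} (f : Z →ₗ[R] Z')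
    (hf : ∀ z, f (u z) = u' (f z)) (s : R) (z : Z) :
    f (s59b_sgnIdem u s z) = s59b_sgnIdem u' s (f z) := by
  rw [s59b_sgnIdem_apply, s59b_sgnIdem_apply, map_smul, map_add, map_smul, hf]

/-- `e_s` commutes with everything commuting with `u`. -/
theorem s59b_sgnIdem_comm {u : Module.End R Z} (T : Module.End R Z) (hT : ∀ z, T (u z) = u (T z))
    (s : R) (z : Z) : T (s59b_sgnIdem u s z) = s59b_sgnIdem u s (T z) :=
  s59b_sgnIdem_intertwine T hT s z

end Sgn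

section SgnOld

variable {R : Type*} [CommRing R] [Invertible (2 : R)] {Y Z : Type*} [AddCommGroup Y] [Module R Y]
  [AddCommGroup Z] [Module R Z] (D : s59t_Old R Y Z)

/-- the `s`-old classes `resA y + s resB y` are `s`-eigenvectors of `w`. -/
theorem s59b_old_w_sign {s : R} (hs : s * s = 1) (y : Y) :
    D.w (D.resA y + s • D.resB y) = s • (D.resA y + s • D.resB y) := by
  rw [map_add, map_smul, D.resB_eq, D.w_w, smul_add, smul_smul, hs, one_smul, add_comm]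

/-- **the `s`-old classes lie in the `e_s`-summand.** -/
theorem s59b_old_sgn_fix {s : R} (hs : s * s = 1) (y : Y) :
    s59b_sgnIdem D.w s (D.resA y + s • D.resB y) = D.resA y + s • D.resB y :=
  s59b_sgnIdem_fix hs (s59b_old_w_sign D hs y)

/-- `e_s (resA y) = (resA y + s resB y) / 2`: every old class of type `A` has both components. -/
theorem s59b_sgn_resA (s : R) (y : Y) :
    s59b_sgnIdem D.w s (D.resA y) = (⅟2 : R) • (D.resA y + s • D.resB y) := by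
  rw [s59b_sgnIdem_apply, D.resB_eq]

/-- `corA ∘ e_s = (corA + s corB) / 2`. -/
theorem s59b_corA_sgn (s : R) (z : Z) :
    D.corA (s59b_sgnIdem D.w s z) = (⅟2 : R) • (D.corA z + s • D.corB z) := by
  rw [s59b_sgnIdem_apply, map_smul, map_add, map_smul, D.corA_w]

/-- `corB ∘ e_s = s corA ∘ e_s`. -/
theorem s59b_corB_sgn {s : R} (hs : s * s = 1) (z : Z) :
    D.corB (s59b_sgnIdem D.w s z) = s • D.corA (s59b_sgnIdem D.w s z) := by
  rw [D.corB_eq, s59b_sgnIdem_eigen D.w_w hs, map_smul]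

variable {D}

/-- `e_s` commutes with the top idempotent of a compatible pair. -/
theorem s59b_sgnIdem_compat {ε : Module.End R Y} {ε' : Module.End R Z} (h : D.Compat ε ε')
    (s : R) (z : Z) : ε' (s59b_sgnIdem D.w s z) = s59b_sgnIdem D.w s (ε' z) :=
  s59b_sgnIdem_comm ε' h.w s z

/-- a morphism of packages intertwines the sign idempotents. -/
theorem s59b_sgnIdem_hom {Y₀ Z₀ : Type*} [AddCommGroup Y₀] [Module R Y₀] [AddCommGroup Z₀]
    [Module R Z₀] {D₀ : s59t_Old R Y₀ Z₀} {ρY : Y₀ →ₗ[R] Y} {ρZ : Z₀ →ₗ[R] Z}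
    (h : s59f_OldHom D₀ D ρY ρZ) (s : R) (z : Z₀) :
    ρZ (s59b_sgnIdem D₀.w s z) = s59b_sgnIdem D.w s (ρZ z) :=
  s59b_sgnIdem_intertwine ρZ h.w s z

end SgnOld

section SgnCut

open IsLocalRing

variable {p : ℕ} [hp : Fact p.Prime] {𝒪 : Type} [CommRing 𝒪] [IsLocalRing 𝒪] [Invertible (2 : 𝒪)]
  {Δ Δ' : Type} [CommGroup Δ] [Fintype Δ] [CommGroup Δ'] [Fintype Δ']
  {Z Z' : Type} [AddCommGroup Z] [Module 𝒪 Z] [AddCommGroup Z'] [Module 𝒪 Z']
  {ρZ : Δ →* Module.End 𝒪 Z} {ρZ' : Δ' →* Module.End 𝒪 Z'} {φ : Δ' →* Δ} {res : Z →ₗ[𝒪] Z'}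
  {B C : Subgroup Δ'} [Fintype B] {ε : Module.End 𝒪 Z} {ε' : Module.End 𝒪 Z'}

/-- **[SPEC-T±-abs]**: a Taylor–Wiles package cut by the sign idempotents of a pair of involutions `u`, `u'`
(commuting with `ε`, `ε'` and the diamonds, intertwined by `res`). -/
theorem s59b_TWFullAbs_cut_sgn (hpm : (p : 𝒪) ∈ maximalIdeal 𝒪)
    (hΔ : ∀ δ : Δ, ∃ n : ℕ, δ ^ (p ^ n) = 1) (hΔ' : ∀ δ : Δ', ∃ n : ℕ, δ ^ (p ^ n) = 1)
    (hfull : s59t_TWFullAbs ρZ ρZ' φ res B C ε ε')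
    (u : Module.End 𝒪 Z) (u' : Module.End 𝒪 Z') (hu : ∀ z, u (u z) = z) (hu' : ∀ z, u' (u' z) = z)
    (huε : ∀ y, ε (u y) = u (ε y)) (huε' : ∀ y, ε' (u' y) = u' (ε' y))
    (huρ : ∀ δ y, u (ρZ δ y) = ρZ δ (u y)) (huρ' : ∀ δ y, u' (ρZ' δ y) = ρZ' δ (u' y))
    (hres : ∀ x, res (u x) = u' (res x)) (s : 𝒪) (hs : s * s = 1) :
    s59t_TWFullAbs ρZ ρZ' φ res B C (ε * s59b_sgnIdem u s) (ε' * s59b_sgnIdem u' s) :=
  s59b_TWFullAbs_cut hpm hΔ hΔ' hfull (s59b_sgnIdem u s) (s59b_sgnIdem u' s)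
    (s59b_sgnIdem_idem hu hs) (s59b_sgnIdem_idem hu' hs)
    (s59b_sgnIdem_comm ε huε s) (s59b_sgnIdem_comm ε' huε' s)
    (fun δ y => (s59b_sgnIdem_comm (ρZ δ) (fun z => (huρ δ z).symm) s y).symm)
    (fun δ y => (s59b_sgnIdem_comm (ρZ' δ) (fun z => (huρ' δ z).symm) s y).symm)
    (s59b_sgnIdem_intertwine res hres s)

end SgnCut

section SgnConcrete

open IsLocalRing Matrix MatrixGroups CongruenceSubgroup
open Fermat.Agent.Lib.S29 Fermat.Agent.Lib.S48 Fermat.Agent.Lib.S41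

/-- `2` is a unit of a local ring of odd residue characteristic. -/
theorem s59b_isUnit_two {𝒪 : Type*} [CommRing 𝒪] [IsLocalRing 𝒪] {p : ℕ}
    (hpm : (p : 𝒪) ∈ maximalIdeal 𝒪) (hodd : Odd p) : IsUnit (2 : 𝒪) := by
  by_contra h
  have h2 : (2 : 𝒪) ∈ maximalIdeal 𝒪 := (IsLocalRing.mem_maximalIdeal _).mpr h
  obtain ⟨k, hk⟩ := hodd
  have h1 : (1 : 𝒪) = (p : 𝒪) - 2 * (k : 𝒪) := by
    rw [hk]
    push_cast
    ring
  have h3 : (1 : 𝒪) ∈ maximalIdeal 𝒪 := by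
    rw [h1]
    exact Ideal.sub_mem _ hpm (Ideal.mul_mem_right _ _ h2)
  exact (Ideal.ne_top_iff_one _).mp (IsLocalRing.maximalIdeal.isMaximal 𝒪).ne_top h3

/-- the `Invertible (2 : 𝒪)` structure for odd residue characteristic. -/
@[reducible] def s59b_invertibleTwo {𝒪 : Type*} [CommRing 𝒪] [IsLocalRing 𝒪] {p : ℕ}
    (hpm : (p : 𝒪) ∈ maximalIdeal 𝒪) (hodd : Odd p) : Invertible (2 : 𝒪) :=
  (s59b_isUnit_two hpm hodd).invertible

variable {p : ℕ} [hp : Fact p.Prime] {𝒪 : Type} [CommRing 𝒪] [IsDomain 𝒪]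
  [IsDiscreteValuationRing 𝒪]
  [IsAdicComplete (maximalIdeal 𝒪) 𝒪] [Finite (ResidueField 𝒪)] [Invertible (2 : 𝒪)]
  {N N' : ℕ} [NeZero N] [NeZero N'] {H : Subgroup (ZMod N)ˣ} {H' : Subgroup (ZMod N')ˣ}
  (h0 : Gamma0 N' ≤ Gamma0 N) (hle : s48h_GammaH N' H' ≤ s48h_GammaH N H)

/-- **[SPEC-T±], module side**: helper8's concrete Taylor–Wiles package `s59t_TWFull` cut by the sign idempotents
of a pair of involutions `u`, `u'` (e.g. the normalised Atkin–Lehner operators `(s59f_oldN …).w` of helper4's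
packages at the two levels: `.w` of `s59f_oldN_hom`, `s59f_oldN_compat_rho` and of the `Compat ε₀ ε`). -/
theorem s59b_TWFull_cut_sgn (hpm : (p : 𝒪) ∈ maximalIdeal 𝒪)
    (hΔ : ∀ δ : s59t_Delta N H, ∃ n : ℕ, δ ^ (p ^ n) = 1)
    (hΔ' : ∀ δ : s59t_Delta N' H', ∃ n : ℕ, δ ^ (p ^ n) = 1)
    (B C : Subgroup (s59t_Delta N' H')) [Fintype B] [Fintype C]
    (ε : Module.End 𝒪 (s48h_Hpar 𝒪 (s48h_GammaH N H) 𝒪))
    (ε' : Module.End 𝒪 (s48h_Hpar 𝒪 (s48h_GammaH N' H') 𝒪))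
    (hfull : s59t_TWFull h0 hle B C ε ε')
    (u : Module.End 𝒪 (s48h_Hpar 𝒪 (s48h_GammaH N H) 𝒪))
    (u' : Module.End 𝒪 (s48h_Hpar 𝒪 (s48h_GammaH N' H') 𝒪))
    (hu : ∀ z, u (u z) = z) (hu' : ∀ z, u' (u' z) = z)
    (huε : ∀ y, ε (u y) = u (ε y)) (huε' : ∀ y, ε' (u' y) = u' (ε' y))
    (huρ : ∀ δ y, u (s59t_rho N H 𝒪 𝒪 δ y) = s59t_rho N H 𝒪 𝒪 δ (u y))
    (huρ' : ∀ δ y, u' (s59t_rho N' H' 𝒪 𝒪 δ y) = s59t_rho N' H' 𝒪 𝒪 δ (u' y))
    (hres : ∀ x, s59t_resGHpar hle 𝒪 𝒪 (u x) = u' (s59t_resGHpar hle 𝒪 𝒪 x))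
    (s : 𝒪) (hs : s * s = 1) :
    s59t_TWFull h0 hle B C (ε * s59b_sgnIdem u s) (ε' * s59b_sgnIdem u' s) := by
  have h1 := (s59t_TWFull_iff_abs h0 hle B C ε ε').mp hfull
  have h2 := s59b_TWFullAbs_cut_sgn hpm hΔ hΔ' h1 u u' hu hu' huε huε' huρ huρ' hres s hs
  exact (s59t_TWFull_iff_abs h0 hle B C _ _).mpr h2

end SgnConcrete

end Fermat.Agent.Lib.S59
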