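/-
S59 project, (c2-a) of helper1's #3912 (helper2): **the concrete sign idempotents `e_±` at the Taylor–Wiles levels.**

Levels (helper5's / helper8's dialect with `N = N₀ q`; `q = 2` in the application, `D = ∏ qv`,
`K = s59t_KQ (p ^ n) qv`): base `(N₀ q, ⊤)`, Taylor–Wiles level `(N₀ q D, s59t_Hmul (N₀ q) D ⊤ K)`.
`u' = s59b_epm_u hqL K R e he' hee` := the `w` of helper4's package `s59f_oldN` for `N₀ D → N₀ q D` (= his normalised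
Atkin–Lehner operator `s59f_wtN`, `⟨e⟩ ∘ w_q`), `u = s59b_epm_u0 …` := the `w` of the package `N₀ → N₀ q` with the SAME `e`
(`s59f_hee_cross`); at the base level `u` is the plain `w_q`, independent of `e, D, K` (`s59b_epm_u0_eq`).

* `s59b_epm_u_u`, `s59b_epm_u0_u0` : involutions; `s59b_epm_res` : `res ∘ u = u' ∘ res` (`s59b_epm_hom`: restriction is
  a morphism of the two packages); `s59b_epm_rho`, `s59b_epm_rho0` : commute with the diamonds `s59t_rho`;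
  `s59b_epm_wop`, `s59b_epm_wop0` : commute with all anemic generators `s59w_op`;
* `s59b_epm_gW_pow`, `s59b_epm_hn`, **`s59b_epm_exists_e`** : the binders `e he' hee` exist at every level
  (`e = γ_W ^ ((P - 1) m)`, `2 m = P + 1`, `P = p ^ n` odd);
* **`s59b_epm_TWFull_cut`** : `s59t_TWFull … ε ε'` ⟹ `s59t_TWFull … (ε e_s) (ε' e_s')` with
  `e_s = s59b_sgnIdem u s`, `e_s' = s59b_sgnIdem u' s` (needs only that `ε`, `ε'` commute with `u`, `u'`, and that the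
  diamond group of the level is a `p`-group);
* the other binders of `s59efl_level_abs` for the cut pair: `s59b_epm_cut_wop`, `s59b_epm_cut_wop0` (`hεc'`, `hεc`),
  `s59b_epm_cut_idem` (`hid'`), `s59b_epm_base_free` (`hρ d b0 hb0`), `s59b_epm_sgn_rho`, `s59b_epm_sgn_rho0`;
* algebra: `s59b_sgnIdem_mul_comm`, `s59b_cut_idem`, `s59b_cut_mul_comm`, `s59b_old_U_of_corB`
  (`U = - w` on classes killed by `corB`), `s59b_old_U_of_new_sign`.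
The `s`-old classes `resA y + s resB y` of the base package lie in the `e_s`-summand for BOTH signs:
`s59b_old_sgn_fix (s59b_epm_pkg0 …)` (B9Sgn).
-/
import Mathlib
import Fermat.Agent.Lib.S59.FEps7
import Fermat.Agent.Lib.S59.TLvlQ2
import Fermat.Agent.Lib.S59.B9Sgn

set_option autoImplicit false
set_option linter.unusedSectionVars false
set_option linter.unusedVariables false
set_option linter.style.haveILetI false

open scoped BigOperators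

noncomputable section

namespace Fermat.Agent.Lib.S59

open Matrix MatrixGroups CongruenceSubgroup IsLocalRing
open Fermat.Agent.Lib.S29 Fermat.Agent.Lib.S48 Fermat.Agent.Lib.S41

section EPm

variable {N₀ q D : ℕ} [NeZero N₀] [hq : Fact q.Prime]
  [NeZero (N₀ * q)] [NeZero (N₀ * D)] [NeZero (N₀ * q * D)]
  (hqN : ¬ q ∣ N₀) (hqL : ¬ q ∣ N₀ * D) (K : Subgroup (ZMod D)ˣ)
  (R : Type*) [CommRing R]
  (e : SL(2, ℤ)) (he' : e ∈ Gamma0 (N₀ * q * D))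
  (hee : s59f_gW hqL * e * e ∈
    s48h_GammaH (N₀ * q * D) (s59t_Hmul (N₀ * q) D (⊤ : Subgroup (ZMod (N₀ * q))ˣ) K))

include hqL in
/-- `Γ_{H'}(N₀ q D)` is a group `G'` for `(N₀ D, q, H)` (`H`, `H'` the Taylor–Wiles subgroups over `⊤`). -/
theorem s59b_epm_isG' :
    s59f_IsG' (N₀ * D) q (s59t_Hmul N₀ D (⊤ : Subgroup (ZMod N₀)ˣ) K)
      (s48h_GammaH (N₀ * q * D) (s59t_Hmul (N₀ * q) D (⊤ : Subgroup (ZMod (N₀ * q))ˣ) K)) :=
  s59f_isG'_Hmul hqL ⊤ ⊤ (fun u => ⟨fun _ => Subgroup.mem_top _, fun _ => Subgroup.mem_top _⟩) K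

include he' in
theorem s59b_epm_he0 : e ∈ Gamma0 (N₀ * q) :=
  s59t_Gamma0_anti (s59t_dvd_mul_left' (N₀ * q) D) he'

include hee in
theorem s59b_epm_hee0 :
    s59f_gW hqN * e * e ∈ s48h_GammaH (N₀ * q) (⊤ : Subgroup (ZMod (N₀ * q))ˣ) :=
  s59f_hee_cross hqN hqL (s59t_dvd_mul_left' N₀ D) (s59f_isG'_top hqN)
    (s59t_GammaHmul_le (N := N₀ * q) (D := D) (H := (⊤ : Subgroup (ZMod (N₀ * q))ˣ)) (K := K)) hee

/-- helper4's old/new package at the Taylor–Wiles level `N₀ D → N₀ q D`. -/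
def s59b_epm_pkg :
    s59t_Old R (s48h_Hpar R (s48h_GammaH (N₀ * D) (s59t_Hmul N₀ D (⊤ : Subgroup (ZMod N₀)ˣ) K)) R)
      (s48h_Hpar R (s48h_GammaH (N₀ * q * D)
        (s59t_Hmul (N₀ * q) D (⊤ : Subgroup (ZMod (N₀ * q))ˣ) K)) R) :=
  s59f_oldN hqL s59f_hN'_TW (s59b_epm_isG' hqL K) R R e he' hee

/-- helper4's old/new package at the base level `N₀ → N₀ q` (same `e`). -/
def s59b_epm_pkg0 :
    s59t_Old R (s48h_Hpar R (s48h_GammaH N₀ (⊤ : Subgroup (ZMod N₀)ˣ)) R)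
      (s48h_Hpar R (s48h_GammaH (N₀ * q) (⊤ : Subgroup (ZMod (N₀ * q))ˣ)) R) :=
  s59f_oldN hqN rfl (s59f_isG'_top hqN) R R e (s59b_epm_he0 e he')
    (s59b_epm_hee0 hqN hqL K e hee)

/-- **the involution `u'`** (normalised Atkin–Lehner operator at `q`) at the Taylor–Wiles level. -/
def s59b_epm_u : Module.End R (s48h_Hpar R (s48h_GammaH (N₀ * q * D)
    (s59t_Hmul (N₀ * q) D (⊤ : Subgroup (ZMod (N₀ * q))ˣ) K)) R) :=
  (s59b_epm_pkg hqL K R e he' hee).w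

/-- **the involution `u`** at the base level `Γ₀(N₀ q)`. -/
def s59b_epm_u0 : Module.End R (s48h_Hpar R (s48h_GammaH (N₀ * q)
    (⊤ : Subgroup (ZMod (N₀ * q))ˣ)) R) :=
  (s59b_epm_pkg0 hqN hqL K R e he' hee).w

theorem s59b_epm_u_u (z) :
    s59b_epm_u hqL K R e he' hee (s59b_epm_u hqL K R e he' hee z) = z :=
  (s59b_epm_pkg hqL K R e he' hee).w_w z

theorem s59b_epm_u0_u0 (z) :
    s59b_epm_u0 hqN hqL K R e he' hee (s59b_epm_u0 hqN hqL K R e he' hee z) = z :=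
  (s59b_epm_pkg0 hqN hqL K R e he' hee).w_w z

/-- restriction from the base level to the Taylor–Wiles level is a morphism of packages. -/
theorem s59b_epm_hom :
    s59f_OldHom (s59b_epm_pkg0 hqN hqL K R e he' hee) (s59b_epm_pkg hqL K R e he' hee)
      (s59t_resGHpar (s59t_GammaHmul_le (N := N₀) (D := D) (H := (⊤ : Subgroup (ZMod N₀)ˣ))
        (K := K)) R R)
      (s59t_resGHpar (s59t_GammaHmul_le (N := N₀ * q) (D := D)
        (H := (⊤ : Subgroup (ZMod (N₀ * q))ˣ)) (K := K)) R R) :=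
  s59f_oldN_hom hqN hqL (s59t_dvd_mul_left' N₀ D) rfl s59f_hN'_TW (s59f_isG'_top hqN)
    (s59b_epm_isG' hqL K) _ _ R R e (s59b_epm_he0 e he') he'
    (s59b_epm_hee0 hqN hqL K e hee) hee

/-- **`res ∘ u = u' ∘ res`.** -/
theorem s59b_epm_res (x) :
    s59t_resGHpar (s59t_GammaHmul_le (N := N₀ * q) (D := D)
        (H := (⊤ : Subgroup (ZMod (N₀ * q))ˣ)) (K := K)) R R
        (s59b_epm_u0 hqN hqL K R e he' hee x) =
      s59b_epm_u hqL K R e he' hee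
        (s59t_resGHpar (s59t_GammaHmul_le (N := N₀ * q) (D := D)
          (H := (⊤ : Subgroup (ZMod (N₀ * q))ˣ)) (K := K)) R R x) :=
  (s59b_epm_hom hqN hqL K R e he' hee).w x

/-- `u'` commutes with the diamonds of the Taylor–Wiles level. -/
theorem s59b_epm_rho (δ' : s59t_Delta (N₀ * q * D)
    (s59t_Hmul (N₀ * q) D (⊤ : Subgroup (ZMod (N₀ * q))ˣ) K)) (z) :
    s59b_epm_u hqL K R e he' hee (s59t_rho (N₀ * q * D)
      (s59t_Hmul (N₀ * q) D (⊤ : Subgroup (ZMod (N₀ * q))ˣ) K) R R δ' z) =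
    s59t_rho (N₀ * q * D) (s59t_Hmul (N₀ * q) D (⊤ : Subgroup (ZMod (N₀ * q))ˣ) K) R R δ'
      (s59b_epm_u hqL K R e he' hee z) :=
  ((s59f_oldN_compat_rho (R := R) (A := R) hqL s59f_hN'_TW (s59b_epm_isG' hqL K) e he' hee
    (s59t_Gamma0_anti (s59f_dvd_TW (q := q)))
    ((s59b_epm_isG' hqL K).le (s59f_isG_GammaH _ _)) δ').w z).symm

/-- `u` commutes with the diamonds of the base level. -/
theorem s59b_epm_rho0 (δ : s59t_Delta (N₀ * q) (⊤ : Subgroup (ZMod (N₀ * q))ˣ)) (z) :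
    s59b_epm_u0 hqN hqL K R e he' hee
      (s59t_rho (N₀ * q) (⊤ : Subgroup (ZMod (N₀ * q))ˣ) R R δ z) =
    s59t_rho (N₀ * q) (⊤ : Subgroup (ZMod (N₀ * q))ˣ) R R δ
      (s59b_epm_u0 hqN hqL K R e he' hee z) :=
  ((s59f_oldN_compat_rho (R := R) (A := R) hqN rfl (s59f_isG'_top hqN) e (s59b_epm_he0 e he')
    (s59b_epm_hee0 hqN hqL K e hee)
    (s59t_Gamma0_anti (Dvd.intro q rfl))
    ((s59f_isG'_top hqN).le (s59f_isG_GammaH _ _)) δ).w z).symm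

/-- `u'` commutes with the anemic generators of the Taylor–Wiles level. -/
theorem s59b_epm_wop (x : s59w_AIdx (N₀ * q * D)) (z) :
    s59b_epm_u hqL K R e he' hee
      (s59w_op (s59t_Hmul (N₀ * q) D (⊤ : Subgroup (ZMod (N₀ * q))ˣ) K) R x z) =
    s59w_op (s59t_Hmul (N₀ * q) D (⊤ : Subgroup (ZMod (N₀ * q))ˣ) K) R x
      (s59b_epm_u hqL K R e he' hee z) := by
  have h := (s59f_oldN_compat_wop (R := R) hqL s59f_hN'_TW (s59b_epm_isG' hqL K) e he' hee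
    (s59f_dvd_TW (q := q)) (dvd_refl (N₀ * q * D)) x).w z
  rw [s59t_AIdx_down_self] at h
  exact h.symm

/-- `u` commutes with the anemic generators of the base level. -/
theorem s59b_epm_wop0 (x : s59w_AIdx (N₀ * q)) (z) :
    s59b_epm_u0 hqN hqL K R e he' hee
      (s59w_op (⊤ : Subgroup (ZMod (N₀ * q))ˣ) R x z) =
    s59w_op (⊤ : Subgroup (ZMod (N₀ * q))ˣ) R x (s59b_epm_u0 hqN hqL K R e he' hee z) := by
  have h := (s59f_oldN_compat_wop (R := R) hqN rfl (s59f_isG'_top hqN) e (s59b_epm_he0 e he')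
    (s59b_epm_hee0 hqN hqL K e hee)
    (Dvd.intro q rfl : N₀ ∣ N₀ * q) (dvd_refl (N₀ * q)) x).w z
  rw [s59t_AIdx_down_self] at h
  exact h.symm

/-- **at the base level `u` is the (unnormalised) Atkin–Lehner operator `w_q`**: it does not depend on `e`, `D`, `K`. -/
theorem s59b_epm_u0_eq (z) :
    s59b_epm_u0 hqN hqL K R e he' hee z = s59f_wN hqN (s59f_isG'_top hqN) R R z := by
  have hmem : e ∈ s48h_GammaH (N₀ * q) (⊤ : Subgroup (ZMod (N₀ * q))ˣ) :=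
    ⟨s59b_epm_he0 e he', s59t_unitHom (N₀ * q) ⟨e, s59b_epm_he0 e he'⟩, Subgroup.mem_top _, rfl⟩
  show s59f_diaL R R (⊤ : Subgroup (ZMod (N₀ * q))ˣ) e (s59b_epm_he0 e he')
    (s59f_wN hqN (s59f_isG'_top hqN) R R z) = _
  apply Subtype.ext
  rw [s59f_diaL_coe]
  exact s48h_diamondH_of_mem hmem _

end EPm

section EPmE

variable {L q N' : ℕ} [NeZero L] [NeZero N'] [hq : Fact q.Prime] (hqL : ¬ q ∣ L)
  (hN' : N' = L * q)

include hN' in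
/-- **a uniform choice of `e`**: `e = γ_W ^ ((n - 1) m)`, `2 m = n + 1`, when `(ℤ/N')ˣ / H'` has exponent dividing `n`
(`γ_W e e = γ_W ^ (n n)`); this is helper4's `s59f_eW hqL k` (FZ1b). -/
theorem s59b_epm_gW_pow {H' : Subgroup (ZMod N')ˣ} {n m : ℕ} (hnm : 2 * m = n + 1)
    (hn : ∀ u : (ZMod N')ˣ, u ^ n ∈ H') :
    s59f_gW hqL ^ ((n - 1) * m) ∈ Gamma0 N' ∧
      s59f_gW hqL * s59f_gW hqL ^ ((n - 1) * m) * s59f_gW hqL ^ ((n - 1) * m) ∈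
        s48h_GammaH N' H' := by
  subst hN'
  have hn0 : 0 < n := by omega
  refine ⟨pow_mem (s59f_gW_mem hqL) _, ?_⟩
  set g : Gamma0 (L * q) := ⟨s59f_gW hqL, s59f_gW_mem hqL⟩ with hg
  have harith : 1 + (n - 1) * m + (n - 1) * m = n * n := by
    obtain ⟨k, rfl⟩ : ∃ k, n = k + 1 := ⟨n - 1, by omega⟩
    have h1 : k + 1 - 1 = k := by omega
    rw [h1]
    have h2 : m + m = k + 2 := by omega
    calc 1 + k * m + k * m = 1 + k * (m + m) := by ring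
      _ = 1 + k * (k + 2) := by rw [h2]
      _ = (k + 1) * (k + 1) := by ring
  have h1 : s59f_gW hqL * s59f_gW hqL ^ ((n - 1) * m) * s59f_gW hqL ^ ((n - 1) * m) =
      ((g ^ (n * n) : Gamma0 (L * q)) : SL(2, ℤ)) := by
    rw [SubgroupClass.coe_pow, ← harith, pow_add, pow_add, pow_one]
  rw [h1]
  refine ⟨(g ^ (n * n)).2, s59t_unitHom (L * q) (g ^ (n * n)), ?_, ?_⟩
  · rw [map_pow, pow_mul]
    exact hn _
  · rfl

end EPmE

section EPmEx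

variable {N₀ q : ℕ} [NeZero N₀] [hq : Fact q.Prime] [NeZero (N₀ * q)]
  {r : ℕ} (qv : Fin r → ℕ) [NeZero (N₀ * ∏ j, qv j)] [NeZero (N₀ * q * ∏ j, qv j)]
  (hqL : ¬ q ∣ N₀ * ∏ j, qv j) (P : ℕ)

theorem s59b_epm_hn (u : (ZMod (N₀ * q * ∏ j, qv j))ˣ) :
    u ^ P ∈ s59t_Hmul (N₀ * q) (∏ j, qv j) (⊤ : Subgroup (ZMod (N₀ * q))ˣ) (s59t_KQ P qv) := by
  rw [s59t_mem_Hmul]
  refine ⟨Subgroup.mem_top _, ?_⟩
  rw [map_pow]
  exact s59t_pow_mem_KQ P qv _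

/-- **the binders `e he' hee` exist at every Taylor–Wiles level** (`P = p ^ n` odd): `e = γ_W ^ ((P - 1) m)`,
`2 m = P + 1`. -/
theorem s59b_epm_exists_e (hP : Odd P) :
    ∃ (e : SL(2, ℤ)) (_ : e ∈ Gamma0 (N₀ * q * ∏ j, qv j)),
      s59f_gW hqL * e * e ∈ s48h_GammaH (N₀ * q * ∏ j, qv j)
        (s59t_Hmul (N₀ * q) (∏ j, qv j) (⊤ : Subgroup (ZMod (N₀ * q))ˣ) (s59t_KQ P qv)) := by
  obtain ⟨k, hk⟩ := hP
  have hnm : 2 * (k + 1) = P + 1 := by omega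
  obtain ⟨h1, h2⟩ := s59b_epm_gW_pow hqL (s59f_hN'_TW (N₀ := N₀) (q := q) (D := ∏ j, qv j))
    hnm (s59b_epm_hn qv P)
  exact ⟨_, h1, h2⟩

end EPmEx

section CutAlg

variable {R : Type*} [CommRing R] {Z : Type*} [AddCommGroup Z] [Module R Z]

/-- `e_s` commutes (as a product) with everything commuting with `u`. -/
theorem s59b_sgnIdem_mul_comm [Invertible (2 : R)] {u T : Module.End R Z}
    (hT : ∀ z, T (u z) = u (T z)) (s : R) :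
    s59b_sgnIdem u s * T = T * s59b_sgnIdem u s :=
  LinearMap.ext fun z => (s59b_sgnIdem_comm T hT s z).symm

/-- the product of two commuting idempotents is idempotent. -/
theorem s59b_cut_idem {ε e : Module.End R Z} (hε : ε * ε = ε) (he : e * e = e)
    (hc : ∀ y, ε (e y) = e (ε y)) : (ε * e) * (ε * e) = ε * e := by
  refine LinearMap.ext fun z => ?_
  show ε (e (ε (e z))) = ε (e z)
  rw [← hc (e z), ← Module.End.mul_apply e e, he, ← Module.End.mul_apply ε ε, hε]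

/-- the product of two operators commuting with `T` commutes with `T`. -/
theorem s59b_cut_mul_comm {ε e T : Module.End R Z} (hε : ε * T = T * ε) (he : e * T = T * e) :
    (ε * e) * T = T * (ε * e) := by
  rw [mul_assoc, he, ← mul_assoc, hε, mul_assoc]

/-- on a class killed by `corB`, `U = - w`. -/
theorem s59b_old_U_of_corB {Y : Type*} [AddCommGroup Y] [Module R Y] (D : s59t_Old R Y Z) {z : Z}
    (hz : D.corB z = 0) : D.U z = - D.w z := by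
  rw [D.U_eq, hz, map_zero, zero_sub]

/-- on a kernel-new class of sign `s` (`w z = s z`), `U z = - s z`. -/
theorem s59b_old_U_of_new_sign {Y : Type*} [AddCommGroup Y] [Module R Y] (D : s59t_Old R Y Z)
    {z : Z} {s : R} (hz : D.corB z = 0) (hw : D.w z = s • z) : D.U z = (-s) • z := by
  rw [s59b_old_U_of_corB D hz, hw, neg_smul]

end CutAlg

section EPmCut

variable {p : ℕ} [hp : Fact p.Prime] {𝒪 : Type} [CommRing 𝒪] [IsDomain 𝒪]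
  [IsDiscreteValuationRing 𝒪]
  [IsAdicComplete (maximalIdeal 𝒪) 𝒪] [Finite (ResidueField 𝒪)] [Invertible (2 : 𝒪)]
  {N₀ q D : ℕ} [NeZero N₀] [hq : Fact q.Prime]
  [NeZero (N₀ * q)] [NeZero (N₀ * D)] [NeZero (N₀ * q * D)]
  (hqN : ¬ q ∣ N₀) (hqL : ¬ q ∣ N₀ * D) (K : Subgroup (ZMod D)ˣ)
  (e : SL(2, ℤ)) (he' : e ∈ Gamma0 (N₀ * q * D))
  (hee : s59f_gW hqL * e * e ∈
    s48h_GammaH (N₀ * q * D) (s59t_Hmul (N₀ * q) D (⊤ : Subgroup (ZMod (N₀ * q))ˣ) K))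

/-- **[SPEC-T±], module side, at helper5's/helper8's levels** (`N = N₀ q` with `q = 2` in the application,
`D = ∏ qv`, `K = s59t_KQ (p ^ n) qv`): the Taylor–Wiles package of `(ε, ε')` cut by the sign idempotents of the
normalised Atkin–Lehner involutions at `q`. -/
theorem s59b_epm_TWFull_cut (hpm : (p : 𝒪) ∈ maximalIdeal 𝒪)
    (hΔ' : ∀ δ : s59t_Delta (N₀ * q * D)
      (s59t_Hmul (N₀ * q) D (⊤ : Subgroup (ZMod (N₀ * q))ˣ) K), ∃ n : ℕ, δ ^ (p ^ n) = 1)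
    (h0 : Gamma0 (N₀ * q * D) ≤ Gamma0 (N₀ * q))
    (B C : Subgroup (s59t_Delta (N₀ * q * D)
      (s59t_Hmul (N₀ * q) D (⊤ : Subgroup (ZMod (N₀ * q))ˣ) K))) [Fintype B] [Fintype C]
    (ε : Module.End 𝒪 (s48h_Hpar 𝒪 (s48h_GammaH (N₀ * q) (⊤ : Subgroup (ZMod (N₀ * q))ˣ)) 𝒪))
    (ε' : Module.End 𝒪 (s48h_Hpar 𝒪 (s48h_GammaH (N₀ * q * D)
      (s59t_Hmul (N₀ * q) D (⊤ : Subgroup (ZMod (N₀ * q))ˣ) K)) 𝒪))
    (hfull : s59t_TWFull h0 (s59t_GammaHmul_le (N := N₀ * q) (D := D)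
      (H := (⊤ : Subgroup (ZMod (N₀ * q))ˣ)) (K := K)) B C ε ε')
    (huε : ∀ y, ε (s59b_epm_u0 hqN hqL K 𝒪 e he' hee y) =
      s59b_epm_u0 hqN hqL K 𝒪 e he' hee (ε y))
    (huε' : ∀ y, ε' (s59b_epm_u hqL K 𝒪 e he' hee y) = s59b_epm_u hqL K 𝒪 e he' hee (ε' y))
    (s : 𝒪) (hs : s * s = 1) :
    s59t_TWFull h0 (s59t_GammaHmul_le (N := N₀ * q) (D := D)
      (H := (⊤ : Subgroup (ZMod (N₀ * q))ˣ)) (K := K)) B C
      (ε * s59b_sgnIdem (s59b_epm_u0 hqN hqL K 𝒪 e he' hee) s)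
      (ε' * s59b_sgnIdem (s59b_epm_u hqL K 𝒪 e he' hee) s) :=
  s59b_TWFull_cut_sgn h0 _ hpm (fun δ => ⟨0, Subsingleton.elim _ _⟩) hΔ' B C ε ε' hfull
    (s59b_epm_u0 hqN hqL K 𝒪 e he' hee) (s59b_epm_u hqL K 𝒪 e he' hee)
    (s59b_epm_u0_u0 hqN hqL K 𝒪 e he' hee) (s59b_epm_u_u hqL K 𝒪 e he' hee) huε huε'
    (s59b_epm_rho0 hqN hqL K 𝒪 e he' hee) (s59b_epm_rho hqL K 𝒪 e he' hee)
    (s59b_epm_res hqN hqL K 𝒪 e he' hee) s hs

/-- the cut idempotent of the Taylor–Wiles level commutes with the anemic generators (`hεc'` of `s59efl_level_abs`). -/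
theorem s59b_epm_cut_wop (ε' : Module.End 𝒪 (s48h_Hpar 𝒪 (s48h_GammaH (N₀ * q * D)
      (s59t_Hmul (N₀ * q) D (⊤ : Subgroup (ZMod (N₀ * q))ˣ) K)) 𝒪))
    (hεc' : ∀ jdx : s59w_AIdx (N₀ * q * D),
      ε' * s59w_op (s59t_Hmul (N₀ * q) D (⊤ : Subgroup (ZMod (N₀ * q))ˣ) K) 𝒪 jdx =
        s59w_op (s59t_Hmul (N₀ * q) D (⊤ : Subgroup (ZMod (N₀ * q))ˣ) K) 𝒪 jdx * ε')
    (s : 𝒪) (jdx : s59w_AIdx (N₀ * q * D)) :
    (ε' * s59b_sgnIdem (s59b_epm_u hqL K 𝒪 e he' hee) s) *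
        s59w_op (s59t_Hmul (N₀ * q) D (⊤ : Subgroup (ZMod (N₀ * q))ˣ) K) 𝒪 jdx =
      s59w_op (s59t_Hmul (N₀ * q) D (⊤ : Subgroup (ZMod (N₀ * q))ˣ) K) 𝒪 jdx *
        (ε' * s59b_sgnIdem (s59b_epm_u hqL K 𝒪 e he' hee) s) :=
  s59b_cut_mul_comm (hεc' jdx)
    (s59b_sgnIdem_mul_comm (fun z => (s59b_epm_wop hqL K 𝒪 e he' hee jdx z).symm) s)

/-- the cut idempotent of the base level commutes with the anemic generators (`hεc` of `s59efl_level_abs`). -/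
theorem s59b_epm_cut_wop0 (ε : Module.End 𝒪 (s48h_Hpar 𝒪 (s48h_GammaH (N₀ * q)
      (⊤ : Subgroup (ZMod (N₀ * q))ˣ)) 𝒪))
    (hεc : ∀ jdx : s59w_AIdx (N₀ * q),
      ε * s59w_op (⊤ : Subgroup (ZMod (N₀ * q))ˣ) 𝒪 jdx =
        s59w_op (⊤ : Subgroup (ZMod (N₀ * q))ˣ) 𝒪 jdx * ε)
    (s : 𝒪) (jdx : s59w_AIdx (N₀ * q)) :
    (ε * s59b_sgnIdem (s59b_epm_u0 hqN hqL K 𝒪 e he' hee) s) *
        s59w_op (⊤ : Subgroup (ZMod (N₀ * q))ˣ) 𝒪 jdx =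
      s59w_op (⊤ : Subgroup (ZMod (N₀ * q))ˣ) 𝒪 jdx *
        (ε * s59b_sgnIdem (s59b_epm_u0 hqN hqL K 𝒪 e he' hee) s) :=
  s59b_cut_mul_comm (hεc jdx)
    (s59b_sgnIdem_mul_comm (fun z => (s59b_epm_wop0 hqN hqL K 𝒪 e he' hee jdx z).symm) s)

/-- `hid'` for the cut idempotent of the Taylor–Wiles level. -/
theorem s59b_epm_cut_idem (ε' : Module.End 𝒪 (s48h_Hpar 𝒪 (s48h_GammaH (N₀ * q * D)
      (s59t_Hmul (N₀ * q) D (⊤ : Subgroup (ZMod (N₀ * q))ˣ) K)) 𝒪)) (hid' : ε' * ε' = ε')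
    (huε' : ∀ y, ε' (s59b_epm_u hqL K 𝒪 e he' hee y) = s59b_epm_u hqL K 𝒪 e he' hee (ε' y))
    (s : 𝒪) (hs : s * s = 1) :
    (ε' * s59b_sgnIdem (s59b_epm_u hqL K 𝒪 e he' hee) s) *
        (ε' * s59b_sgnIdem (s59b_epm_u hqL K 𝒪 e he' hee) s) =
      ε' * s59b_sgnIdem (s59b_epm_u hqL K 𝒪 e he' hee) s :=
  s59b_cut_idem hid' (s59b_sgnIdem_idem (s59b_epm_u_u hqL K 𝒪 e he' hee) hs)
    (s59b_sgnIdem_comm ε' huε' s)

/-- `e_s` commutes with the diamonds of the base level. -/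
theorem s59b_epm_sgn_rho0 (s : 𝒪) (δ : s59t_Delta (N₀ * q) (⊤ : Subgroup (ZMod (N₀ * q))ˣ)) (y) :
    s59b_sgnIdem (s59b_epm_u0 hqN hqL K 𝒪 e he' hee) s
      (s59t_rho (N₀ * q) (⊤ : Subgroup (ZMod (N₀ * q))ˣ) 𝒪 𝒪 δ y) =
    s59t_rho (N₀ * q) (⊤ : Subgroup (ZMod (N₀ * q))ˣ) 𝒪 𝒪 δ
      (s59b_sgnIdem (s59b_epm_u0 hqN hqL K 𝒪 e he' hee) s y) :=
  (s59b_sgnIdem_comm (s59t_rho (N₀ * q) (⊤ : Subgroup (ZMod (N₀ * q))ˣ) 𝒪 𝒪 δ)
    (fun z => (s59b_epm_rho0 hqN hqL K 𝒪 e he' hee δ z).symm) s y).symm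

/-- `e_s'` commutes with the diamonds of the Taylor–Wiles level. -/
theorem s59b_epm_sgn_rho (s : 𝒪) (δ' : s59t_Delta (N₀ * q * D)
    (s59t_Hmul (N₀ * q) D (⊤ : Subgroup (ZMod (N₀ * q))ˣ) K)) (y) :
    s59b_sgnIdem (s59b_epm_u hqL K 𝒪 e he' hee) s
      (s59t_rho (N₀ * q * D) (s59t_Hmul (N₀ * q) D (⊤ : Subgroup (ZMod (N₀ * q))ˣ) K) 𝒪 𝒪 δ' y) =
    s59t_rho (N₀ * q * D) (s59t_Hmul (N₀ * q) D (⊤ : Subgroup (ZMod (N₀ * q))ˣ) K) 𝒪 𝒪 δ'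
      (s59b_sgnIdem (s59b_epm_u hqL K 𝒪 e he' hee) s y) :=
  (s59b_sgnIdem_comm (s59t_rho (N₀ * q * D)
      (s59t_Hmul (N₀ * q) D (⊤ : Subgroup (ZMod (N₀ * q))ˣ) K) 𝒪 𝒪 δ')
    (fun z => (s59b_epm_rho hqL K 𝒪 e he' hee δ' z).symm) s y).symm

/-- **the base binders `hρ d b0 hb0` of `s59efl_level_abs` for the cut idempotent**: the `e_s`-cut of a free `ε`-part
of the base level is free. -/
theorem s59b_epm_base_free (hpm : (p : 𝒪) ∈ maximalIdeal 𝒪)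
    (ε : Module.End 𝒪 (s48h_Hpar 𝒪 (s48h_GammaH (N₀ * q) (⊤ : Subgroup (ZMod (N₀ * q))ˣ)) 𝒪))
    (hρ : ∀ δ y, ε (s59t_rho (N₀ * q) (⊤ : Subgroup (ZMod (N₀ * q))ˣ) 𝒪 𝒪 δ y) =
      s59t_rho (N₀ * q) (⊤ : Subgroup (ZMod (N₀ * q))ˣ) 𝒪 𝒪 δ (ε y))
    {d : ℕ} (b0 : Fin d → LinearMap.range ε)
    (hb0 : Function.Bijective (s59t_evalMap
      (s59t_partRep (s59t_rho (N₀ * q) (⊤ : Subgroup (ZMod (N₀ * q))ˣ) 𝒪 𝒪) hρ) b0))
    (huε : ∀ y, ε (s59b_epm_u0 hqN hqL K 𝒪 e he' hee y) =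
      s59b_epm_u0 hqN hqL K 𝒪 e he' hee (ε y))
    (s : 𝒪) (hs : s * s = 1) :
    ∃ (hρ₁ : ∀ δ y, (ε * s59b_sgnIdem (s59b_epm_u0 hqN hqL K 𝒪 e he' hee) s)
        (s59t_rho (N₀ * q) (⊤ : Subgroup (ZMod (N₀ * q))ˣ) 𝒪 𝒪 δ y) =
        s59t_rho (N₀ * q) (⊤ : Subgroup (ZMod (N₀ * q))ˣ) 𝒪 𝒪 δ
          ((ε * s59b_sgnIdem (s59b_epm_u0 hqN hqL K 𝒪 e he' hee) s) y))
      (d₁ : ℕ)
      (b₁ : Fin d₁ → LinearMap.range (ε * s59b_sgnIdem (s59b_epm_u0 hqN hqL K 𝒪 e he' hee) s)),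
      Function.Bijective (s59t_evalMap
        (s59t_partRep (s59t_rho (N₀ * q) (⊤ : Subgroup (ZMod (N₀ * q))ˣ) 𝒪 𝒪) hρ₁) b₁) := by
  obtain ⟨d₁, b₁, hb₁⟩ := s59b_part_cut_free (p := p) hpm (fun δ => ⟨0, Subsingleton.elim _ _⟩) hρ
    b0 hb0 (s59b_sgnIdem (s59b_epm_u0 hqN hqL K 𝒪 e he' hee) s)
    (s59b_sgnIdem_idem (s59b_epm_u0_u0 hqN hqL K 𝒪 e he' hee) hs)
    (s59b_sgnIdem_comm ε huε s) (s59b_epm_sgn_rho0 hqN hqL K e he' hee s)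
  exact ⟨_, d₁, b₁, hb₁⟩

end EPmCut

end Fermat.Agent.Lib.S59
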