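/-
S59 project, case (P), item [P6] (helper9): **RAISE-p, abstract core, file 2: surjectivity at the Taylor–Wiles level.**

Setting (helper8's Taylor–Wiles data, twice): base modules `Y₁`, `Y₂` with representations of `Δ`, level modules
`Y₁'`, `Y₂'` with representations of `Δ' = C × B`, free over `𝒪[Δ']` (`s59t_evalMap` form), control maps
`π_j : Y_j' → Y_j` (`h2, h3, h4` of `s59t_TSide_level'`: `π_j` maps the `C`-invariants onto the `Δ`-invariants with kernel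
the `B`-augmentation), and equivariant maps `c_A, c_B : Y₂ → Y₁`, `c_A', c_B' : Y₂' → Y₁'` compatible with the `π_j`
(`(c_A, c_B) = ` the two degeneracy maps `(α_*, β_*)` at the raising prime).

* `s59m_nak2`      : Nakayama over `R[Δ]` for a pair of maps (helper8's `s59t_nak_surjective` on `F' × F'`);
* `s59m_eigRep`    : the representation on an eigen-submodule;
* `s59m_surj_eig`  : if `(c_A, c_B)` is onto at the base (on `Δ`-invariants) then `(c_A', c_B')` is onto on `C`-invariants;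
* `s59m_surj_full` : ... and then `(c_A', c_B') : Y₂' → Y₁'²` is onto (norm trick + Nakayama).
-/
import Mathlib
import Fermat.Agent.Lib.S59.MKerFree
import Fermat.Agent.Lib.S59.TType
import Fermat.Agent.Lib.S59.TNak

set_option autoImplicit false
set_option linter.unusedSectionVars false
set_option linter.unusedVariables false
set_option linter.style.haveILetI false

open scoped BigOperators
open IsLocalRing

noncomputable section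

namespace Fermat.Agent.Lib.S59

section Nak2

variable {p : ℕ} [Fact p.Prime] {Δ : Type*} [Group Δ]
  {R : Type*} [CommRing R] [IsLocalRing R] [Finite (ResidueField R)] [CharP (ResidueField R) p]
  {F F' : Type*} [AddCommGroup F] [Module R F] [AddCommGroup F'] [Module R F']
  [Module.Finite R F']

/-- the diagonal representation on `F' × F'`. -/
def s59m_prodRep (ρ' : Δ →* Module.End R F') : Δ →* Module.End R (F' × F') where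
  toFun δ := (ρ' δ).prodMap (ρ' δ)
  map_one' := by
    refine LinearMap.ext fun x => ?_
    rw [map_one]
    rfl
  map_mul' δ γ := by
    refine LinearMap.ext fun x => ?_
    rw [map_mul]
    rfl

theorem s59m_prodRep_apply (ρ' : Δ →* Module.End R F') (δ : Δ) (x : F' × F') :
    s59m_prodRep ρ' δ x = (ρ' δ x.1, ρ' δ x.2) := rfl

/-- **Nakayama over `R[Δ]` for a pair of equivariant maps.** -/
theorem s59m_nak2 (hΔ : IsPGroup p Δ) (ρ : Δ →* Module.End R F) (ρ' : Δ →* Module.End R F')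
    (fA fB : F →ₗ[R] F') (hfA : ∀ δ x, fA (ρ δ x) = ρ' δ (fA x))
    (hfB : ∀ δ x, fB (ρ δ x) = ρ' δ (fB x))
    (haug : ∀ y₁ y₂ : F', ∃ x : F,
      y₁ - fA x ∈ Submodule.span R {z : F' | ∃ (δ : Δ) (w : F'), z = ρ' δ w - w} ∧
      y₂ - fB x ∈ Submodule.span R {z : F' | ∃ (δ : Δ) (w : F'), z = ρ' δ w - w})
    (y₁ y₂ : F') : ∃ x : F, fA x = y₁ ∧ fB x = y₂ := by
  set S : Submodule R F' := Submodule.span R {z : F' | ∃ (δ : Δ) (w : F'), z = ρ' δ w - w} with hS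
  set S2 : Submodule R (F' × F') :=
    Submodule.span R {z : F' × F' | ∃ (δ : Δ) (w : F' × F'), z = s59m_prodRep ρ' δ w - w} with hS2
  have hl : ∀ z ∈ S, ((z, 0) : F' × F') ∈ S2 := by
    intro z hz
    have h1 : S.map (LinearMap.inl R F' F') ≤ S2 := by
      rw [hS, Submodule.map_span, Submodule.span_le]
      rintro _ ⟨_, ⟨δ, w, rfl⟩, rfl⟩
      refine Submodule.subset_span ⟨δ, (w, 0), ?_⟩
      rw [s59m_prodRep_apply]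
      show ((ρ' δ) w - w, (0 : F')) = ((ρ' δ) w, (ρ' δ) 0) - (w, 0)
      rw [map_zero, Prod.mk_sub_mk, sub_zero]
    exact h1 ⟨z, hz, rfl⟩
  have hr : ∀ z ∈ S, ((0, z) : F' × F') ∈ S2 := by
    intro z hz
    have h1 : S.map (LinearMap.inr R F' F') ≤ S2 := by
      rw [hS, Submodule.map_span, Submodule.span_le]
      rintro _ ⟨_, ⟨δ, w, rfl⟩, rfl⟩
      refine Submodule.subset_span ⟨δ, (0, w), ?_⟩
      rw [s59m_prodRep_apply]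
      show ((0 : F'), (ρ' δ) w - w) = ((ρ' δ) 0, (ρ' δ) w) - (0, w)
      rw [map_zero, Prod.mk_sub_mk, sub_zero]
    exact h1 ⟨z, hz, rfl⟩
  have hsur := s59t_nak_surjective (p := p) hΔ ρ (s59m_prodRep ρ') (fA.prod fB)
    (fun δ x => by
      show (fA (ρ δ x), fB (ρ δ x)) = _
      rw [hfA, hfB]
      rfl)
    (fun y => by
      obtain ⟨x, h1, h2⟩ := haug y.1 y.2
      refine ⟨x, ?_⟩
      have e : y - (fA.prod fB) x = (y.1 - fA x, 0) + (0, y.2 - fB x) := by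
        show y - (fA x, fB x) = _
        rw [Prod.mk_add_mk, add_zero, zero_add]
        rfl
      rw [e]
      exact S2.add_mem (hl _ h1) (hr _ h2))
  obtain ⟨x, hx⟩ := hsur (y₁, y₂)
  exact ⟨x, congrArg Prod.fst hx, congrArg Prod.snd hx⟩

end Nak2

section EigRep

variable {𝒪 : Type*} [CommRing 𝒪] {Δ : Type*} [CommGroup Δ] [Fintype Δ]
  {M : Type*} [AddCommGroup M] [Module 𝒪 M]

/-- the representation of `Δ` on the `ψ`-eigen-submodule for a subgroup. -/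
def s59m_eigRep (ρ : Δ →* Module.End 𝒪 M) (C : Subgroup Δ) [Fintype C] (ψ : Δ →* 𝒪ˣ) :
    Δ →* Module.End 𝒪 (s59t_eig ρ C ψ) where
  toFun δ := s59t_eigEnd ρ C ψ (ρ δ) (fun β _ x => s59t_rho_comm ρ δ β x)
  map_one' := by
    refine LinearMap.ext fun x => Subtype.ext ?_
    rw [s59t_eigEnd_coe, map_one]
    rfl
  map_mul' δ γ := by
    refine LinearMap.ext fun x => Subtype.ext ?_
    rw [s59t_eigEnd_coe, map_mul]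
    rfl

theorem s59m_eigRep_coe (ρ : Δ →* Module.End 𝒪 M) (C : Subgroup Δ) [Fintype C] (ψ : Δ →* 𝒪ˣ)
    (δ : Δ) (x : s59t_eig ρ C ψ) : ((s59m_eigRep ρ C ψ δ x : s59t_eig ρ C ψ) : M) = ρ δ (x : M) :=
  s59t_eigEnd_coe ρ C ψ (ρ δ) (fun β _ x => s59t_rho_comm ρ δ β x) x

end EigRep

section Surj

variable {p : ℕ} [Fact p.Prime] {𝒪 : Type*} [CommRing 𝒪] [IsLocalRing 𝒪] [Finite (ResidueField 𝒪)]
  [CharP (ResidueField 𝒪) p] [IsNoetherianRing 𝒪]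
  {Δ : Type*} [CommGroup Δ] [Fintype Δ] {Δ' : Type*} [CommGroup Δ'] [Fintype Δ']
  {Y₁ : Type*} [AddCommGroup Y₁] [Module 𝒪 Y₁] {Y₂ : Type*} [AddCommGroup Y₂] [Module 𝒪 Y₂]
  {Y₁' : Type*} [AddCommGroup Y₁'] [Module 𝒪 Y₁'] [Module.Finite 𝒪 Y₁']
  {Y₂' : Type*} [AddCommGroup Y₂'] [Module 𝒪 Y₂']
  (ρ₁ : Δ →* Module.End 𝒪 Y₁) (ρ₂ : Δ →* Module.End 𝒪 Y₂)
  (ρ₁' : Δ' →* Module.End 𝒪 Y₁') (ρ₂' : Δ' →* Module.End 𝒪 Y₂')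
  (B C : Subgroup Δ') [Fintype B] [Fintype C]
  (π₁ : Y₁' →ₗ[𝒪] Y₁) (π₂ : Y₂' →ₗ[𝒪] Y₂)
  (cA cB : Y₂ →ₗ[𝒪] Y₁) (cA' cB' : Y₂' →ₗ[𝒪] Y₁')
  (hcA' : ∀ δ x, cA' (ρ₂' δ x) = ρ₁' δ (cA' x)) (hcB' : ∀ δ x, cB' (ρ₂' δ x) = ρ₁' δ (cB' x))
  (hπA : ∀ y, π₁ (cA' y) = cA (π₂ y)) (hπB : ∀ y, π₁ (cB' y) = cB (π₂ y))

/-- an equivariant map preserves the eigen-submodules. -/
theorem s59m_map_mem_eig {M M' : Type*} [AddCommGroup M] [Module 𝒪 M] [AddCommGroup M']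
    [Module 𝒪 M'] (ρ : Δ' →* Module.End 𝒪 M) (ρ' : Δ' →* Module.End 𝒪 M') (f : M →ₗ[𝒪] M')
    (hf : ∀ δ x, f (ρ δ x) = ρ' δ (f x)) (ψ : Δ' →* 𝒪ˣ) {x : M} (hx : x ∈ s59t_eig ρ C ψ) :
    f x ∈ s59t_eig ρ' C ψ := by
  intro β hβ
  rw [← hf, hx β hβ, map_smul]

/-- transfer of a span membership from the ambient module to the eigen-submodule. -/
theorem s59m_span_eig_of_span {M : Type*} [AddCommGroup M] [Module 𝒪 M]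
    (ρ : Δ' →* Module.End 𝒪 M) (z : s59t_eig ρ C (1 : Δ' →* 𝒪ˣ))
    (hz : (z : M) ∈ Submodule.span 𝒪 {z : M | ∃ β ∈ B, ∃ y' ∈ s59t_eig ρ C (1 : Δ' →* 𝒪ˣ),
      z = ρ β y' - y'}) :
    z ∈ Submodule.span 𝒪 {z : s59t_eig ρ C (1 : Δ' →* 𝒪ˣ) | ∃ (δ : Δ')
      (w : s59t_eig ρ C (1 : Δ' →* 𝒪ˣ)), z = s59m_eigRep ρ C 1 δ w - w} := by
  have h1 : Submodule.span 𝒪 {z : M | ∃ β ∈ B, ∃ y' ∈ s59t_eig ρ C (1 : Δ' →* 𝒪ˣ),
      z = ρ β y' - y'} ≤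
      (Submodule.span 𝒪 {z : s59t_eig ρ C (1 : Δ' →* 𝒪ˣ) | ∃ (δ : Δ')
        (w : s59t_eig ρ C (1 : Δ' →* 𝒪ˣ)), z = s59m_eigRep ρ C 1 δ w - w}).map
        (s59t_eig ρ C (1 : Δ' →* 𝒪ˣ)).subtype := by
    rw [Submodule.span_le]
    rintro _ ⟨β, hβ, y', hy', rfl⟩
    refine ⟨s59m_eigRep ρ C 1 β ⟨y', hy'⟩ - ⟨y', hy'⟩, Submodule.subset_span ⟨β, ⟨y', hy'⟩, rfl⟩, ?_⟩
    rw [map_sub, Submodule.subtype_apply, Submodule.subtype_apply, s59m_eigRep_coe]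
  obtain ⟨z', hz', hzz'⟩ := h1 hz
  have : z' = z := Subtype.ext hzz'
  rw [← this]
  exact hz'

include hcA' hcB' hπA hπB in
/-- **surjectivity on the `C`-invariants at the Taylor–Wiles level**, from surjectivity at the base. -/
theorem s59m_surj_eig (hΔ' : IsPGroup p Δ')
    (h2₁ : ∀ y ∈ s59t_eig ρ₁' C (1 : Δ' →* 𝒪ˣ), π₁ y ∈ s59t_eig ρ₁ ⊤ (1 : Δ →* 𝒪ˣ))
    (h4₁ : ∀ y ∈ s59t_eig ρ₁' C (1 : Δ' →* 𝒪ˣ), π₁ y = 0 → y ∈ Submodule.span 𝒪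
      {z : Y₁' | ∃ β ∈ B, ∃ y' ∈ s59t_eig ρ₁' C (1 : Δ' →* 𝒪ˣ), z = ρ₁' β y' - y'})
    (h3₂ : ∀ x ∈ s59t_eig ρ₂ ⊤ (1 : Δ →* 𝒪ˣ), ∃ y ∈ s59t_eig ρ₂' C (1 : Δ' →* 𝒪ˣ), π₂ y = x)
    (hbase : ∀ y₁ ∈ s59t_eig ρ₁ ⊤ (1 : Δ →* 𝒪ˣ), ∀ y₂ ∈ s59t_eig ρ₁ ⊤ (1 : Δ →* 𝒪ˣ),
      ∃ z ∈ s59t_eig ρ₂ ⊤ (1 : Δ →* 𝒪ˣ), cA z = y₁ ∧ cB z = y₂)
    (w₁ : Y₁') (hw₁ : w₁ ∈ s59t_eig ρ₁' C (1 : Δ' →* 𝒪ˣ))
    (w₂ : Y₁') (hw₂ : w₂ ∈ s59t_eig ρ₁' C (1 : Δ' →* 𝒪ˣ)) :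
    ∃ x ∈ s59t_eig ρ₂' C (1 : Δ' →* 𝒪ˣ), cA' x = w₁ ∧ cB' x = w₂ := by
  classical
  set E₁ := s59t_eig ρ₁' C (1 : Δ' →* 𝒪ˣ) with hE₁
  set E₂ := s59t_eig ρ₂' C (1 : Δ' →* 𝒪ˣ) with hE₂
  haveI : Module.Finite 𝒪 E₁ := Module.Finite.of_injective E₁.subtype E₁.injective_subtype
  set fA : E₂ →ₗ[𝒪] E₁ := cA'.restrict
    (fun x hx => s59m_map_mem_eig C ρ₂' ρ₁' cA' hcA' 1 hx) with hfA
  set fB : E₂ →ₗ[𝒪] E₁ := cB'.restrict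
    (fun x hx => s59m_map_mem_eig C ρ₂' ρ₁' cB' hcB' 1 hx) with hfB
  have hfAc : ∀ x : E₂, ((fA x : E₁) : Y₁') = cA' (x : Y₂') := fun x => rfl
  have hfBc : ∀ x : E₂, ((fB x : E₁) : Y₁') = cB' (x : Y₂') := fun x => rfl
  have key := s59m_nak2 (p := p) hΔ' (s59m_eigRep ρ₂' C 1) (s59m_eigRep ρ₁' C 1) fA fB
    (fun δ x => Subtype.ext (by
      rw [hfAc, s59m_eigRep_coe, s59m_eigRep_coe, hfAc, hcA']))
    (fun δ x => Subtype.ext (by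
      rw [hfBc, s59m_eigRep_coe, s59m_eigRep_coe, hfBc, hcB']))
    (fun v₁ v₂ => by
      obtain ⟨z, hz, hzA, hzB⟩ := hbase (π₁ v₁) (h2₁ _ v₁.2) (π₁ v₂) (h2₁ _ v₂.2)
      obtain ⟨y, hy, hyz⟩ := h3₂ z hz
      refine ⟨⟨y, hy⟩, ?_, ?_⟩
      · apply s59m_span_eig_of_span B C ρ₁'
        refine h4₁ _ (v₁ - fA ⟨y, hy⟩).2 ?_
        rw [Submodule.coe_sub, hfAc, map_sub, hπA, hyz, hzA, sub_self]
      · apply s59m_span_eig_of_span B C ρ₁'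
        refine h4₁ _ (v₂ - fB ⟨y, hy⟩).2 ?_
        rw [Submodule.coe_sub, hfBc, map_sub, hπB, hyz, hzB, sub_self])
    ⟨w₁, hw₁⟩ ⟨w₂, hw₂⟩
  obtain ⟨x, hxA, hxB⟩ := key
  exact ⟨x.1, x.2, congrArg Subtype.val hxA, congrArg Subtype.val hxB⟩

include hcA' hcB' hπA hπB in
/-- **surjectivity of `(c_A', c_B') : Y₂' → Y₁'²` at the Taylor–Wiles level**, from surjectivity at the base. -/
theorem s59m_surj_full (hΔ' : IsPGroup p Δ')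
    (hCB : Function.Bijective (fun x : C × B => ((x.1 : Δ') * (x.2 : Δ'))))
    {d₁ d₂ : ℕ} (b₁' : Fin d₁ → Y₁') (hb₁' : Function.Bijective (s59t_evalMap ρ₁' b₁'))
    (b₂' : Fin d₂ → Y₂') (hb₂' : Function.Bijective (s59t_evalMap ρ₂' b₂'))
    (h2₁ : ∀ y ∈ s59t_eig ρ₁' C (1 : Δ' →* 𝒪ˣ), π₁ y ∈ s59t_eig ρ₁ ⊤ (1 : Δ →* 𝒪ˣ))
    (h4₁ : ∀ y ∈ s59t_eig ρ₁' C (1 : Δ' →* 𝒪ˣ), π₁ y = 0 → y ∈ Submodule.span 𝒪
      {z : Y₁' | ∃ β ∈ B, ∃ y' ∈ s59t_eig ρ₁' C (1 : Δ' →* 𝒪ˣ), z = ρ₁' β y' - y'})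
    (h3₂ : ∀ x ∈ s59t_eig ρ₂ ⊤ (1 : Δ →* 𝒪ˣ), ∃ y ∈ s59t_eig ρ₂' C (1 : Δ' →* 𝒪ˣ), π₂ y = x)
    (hbase : ∀ y₁ ∈ s59t_eig ρ₁ ⊤ (1 : Δ →* 𝒪ˣ), ∀ y₂ ∈ s59t_eig ρ₁ ⊤ (1 : Δ →* 𝒪ˣ),
      ∃ z ∈ s59t_eig ρ₂ ⊤ (1 : Δ →* 𝒪ˣ), cA z = y₁ ∧ cB z = y₂)
    (y₁ y₂ : Y₁') : ∃ x : Y₂', cA' x = y₁ ∧ cB' x = y₂ := by
  classical
  have hN : ∀ (f : Y₂' →ₗ[𝒪] Y₁') (hf : ∀ δ x, f (ρ₂' δ x) = ρ₁' δ (f x)) (x : Y₂'),
      f (s59t_normPsi ρ₂' C 1 x) = s59t_normPsi ρ₁' C 1 (f x) := by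
    intro f hf x
    rw [s59t_normPsi_apply, s59t_normPsi_apply, map_sum]
    refine Finset.sum_congr rfl fun β _ => ?_
    rw [map_smul, hf]
  have haugC : ∀ z : Y₁', s59t_normPsi ρ₁' C 1 z = 0 →
      z ∈ Submodule.span 𝒪 {z : Y₁' | ∃ (δ : Δ') (w : Y₁'), z = ρ₁' δ w - w} := by
    intro z hz
    have h1 : z ∈ LinearMap.ker (s59t_normPsi ρ₁' C 1) := LinearMap.mem_ker.mpr hz
    rw [s59t_normOne_ker ρ₁' C B hCB b₁' hb₁'] at h1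
    refine Submodule.span_mono ?_ h1
    rintro _ ⟨β, -, y, rfl⟩
    exact ⟨β, y, rfl⟩
  refine s59m_nak2 (p := p) hΔ' ρ₂' ρ₁' cA' cB' hcA' hcB' (fun v₁ v₂ => ?_) y₁ y₂
  obtain ⟨x, hx, hxA, hxB⟩ := s59m_surj_eig ρ₁ ρ₂ ρ₁' ρ₂' B C π₁ π₂ cA cB cA' cB' hcA' hcB' hπA hπB
    hΔ' h2₁ h4₁ h3₂ hbase _ (s59t_normPsi_mem ρ₁' C 1 v₁) _ (s59t_normPsi_mem ρ₁' C 1 v₂)
  rw [s59t_eig_one_eq_range ρ₂' C B hCB b₂' hb₂'] at hx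
  obtain ⟨x', rfl⟩ := hx
  refine ⟨x', haugC _ ?_, haugC _ ?_⟩
  · rw [map_sub, ← hN cA' hcA', hxA, sub_self]
  · rw [map_sub, ← hN cB' hcB', hxB, sub_self]

end Surj

end Fermat.Agent.Lib.S59
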