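/-
S59 project, case (P), item [P6] (helper9): **RAISE-p, abstract core, file 3: control for the kernels.**

Setting of `MKerCtl.lean`.  `P'` (resp. `P`) an equivariant idempotent of `Y₂'` (resp. `Y₂`) with image
`ker c_A' ∩ ker c_B'` (resp. `ker c_A ∩ ker c_B`) — as produced by `s59m_ker_free_part`.  Then the control map
`π₂` restricts to `π_K : P' Y₂' → P Y₂` (`s59m_kerPi`) and the three control hypotheses `h2`, `h3`, `h4` of helper8's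
level constructor `s59t_TSide_level'` hold for `(P' Y₂', P Y₂, π_K)`:
* `s59m_ker_h2`, `s59m_ker_h3`, `s59m_ker_h4`.
Also: `s59m_eig_lift` (an equivariant surjection with an equivariant projection onto its kernel is onto on invariants),
`s59m_surj_of_mod` (Nakayama: onto modulo `𝔪` ⇒ onto, for a pair of maps).
-/
import Mathlib
import Fermat.Agent.Lib.S59.MKerCtl

set_option autoImplicit false
set_option linter.unusedSectionVars false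
set_option linter.unusedVariables false
set_option linter.style.haveILetI false

open scoped BigOperators
open IsLocalRing

noncomputable section

namespace Fermat.Agent.Lib.S59

section NakMod

variable {R : Type*} [CommRing R] [IsLocalRing R]
  {F F' : Type*} [AddCommGroup F] [Module R F] [AddCommGroup F'] [Module R F'] [Module.Finite R F']

/-- **Nakayama for a pair of maps**: onto modulo `𝔪` implies onto. -/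
theorem s59m_surj_of_mod (fA fB : F →ₗ[R] F')
    (h : ∀ y₁ y₂ : F', ∃ z : F, fA z - y₁ ∈ (maximalIdeal R • ⊤ : Submodule R F') ∧
      fB z - y₂ ∈ (maximalIdeal R • ⊤ : Submodule R F'))
    (y₁ y₂ : F') : ∃ z : F, fA z = y₁ ∧ fB z = y₂ := by
  have hl : ∀ a ∈ (maximalIdeal R • ⊤ : Submodule R F'),
      ((a, 0) : F' × F') ∈ (maximalIdeal R • ⊤ : Submodule R (F' × F')) := by
    intro a ha
    have h1 : (maximalIdeal R • ⊤ : Submodule R F').map (LinearMap.inl R F' F') ≤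
        (maximalIdeal R • ⊤ : Submodule R (F' × F')) := by
      rw [Submodule.map_smul'']
      exact smul_mono_right _ le_top
    exact h1 ⟨a, ha, rfl⟩
  have hr : ∀ a ∈ (maximalIdeal R • ⊤ : Submodule R F'),
      ((0, a) : F' × F') ∈ (maximalIdeal R • ⊤ : Submodule R (F' × F')) := by
    intro a ha
    have h1 : (maximalIdeal R • ⊤ : Submodule R F').map (LinearMap.inr R F' F') ≤
        (maximalIdeal R • ⊤ : Submodule R (F' × F')) := by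
      rw [Submodule.map_smul'']
      exact smul_mono_right _ le_top
    exact h1 ⟨a, ha, rfl⟩
  have htop : (⊤ : Submodule R (F' × F')) ≤ LinearMap.range (fA.prod fB) := by
    refine Submodule.le_of_le_smul_of_le_jacobson_bot (I := maximalIdeal R)
      (Module.Finite.fg_top) ?_ ?_
    · rw [IsLocalRing.jacobson_eq_maximalIdeal ⊥ bot_ne_top]
    · rintro ⟨v₁, v₂⟩ -
      obtain ⟨z, h1, h2⟩ := h v₁ v₂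
      have e : ((v₁, v₂) : F' × F') = (fA.prod fB) z + ((-(fA z - v₁), 0) + (0, -(fB z - v₂))) := by
        show _ = (fA z, fB z) + _
        rw [Prod.mk_add_mk, Prod.mk_add_mk, add_zero, zero_add, neg_sub, neg_sub,
          add_sub_cancel, add_sub_cancel]
      rw [e]
      exact Submodule.add_mem_sup (LinearMap.mem_range_self _ z)
        (Submodule.add_mem _ (hl _ (Submodule.neg_mem _ h1)) (hr _ (Submodule.neg_mem _ h2)))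
  obtain ⟨z, hz⟩ := htop (Submodule.mem_top (x := ((y₁, y₂) : F' × F')))
  exact ⟨z, congrArg Prod.fst hz, congrArg Prod.snd hz⟩

end NakMod

section Lift

variable {𝒪 : Type*} [CommRing 𝒪] {Δ' : Type*} [CommGroup Δ'] [Fintype Δ']
  {Y₁' : Type*} [AddCommGroup Y₁'] [Module 𝒪 Y₁'] {Y₂' : Type*} [AddCommGroup Y₂'] [Module 𝒪 Y₂']
  (ρ₁' : Δ' →* Module.End 𝒪 Y₁') (ρ₂' : Δ' →* Module.End 𝒪 Y₂')
  (C : Subgroup Δ')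
  (cA' cB' : Y₂' →ₗ[𝒪] Y₁')
  (hcA' : ∀ δ x, cA' (ρ₂' δ x) = ρ₁' δ (cA' x)) (hcB' : ∀ δ x, cB' (ρ₂' δ x) = ρ₁' δ (cB' x))
  (P' : Module.End 𝒪 Y₂') (hP' : ∀ δ x, P' (ρ₂' δ x) = ρ₂' δ (P' x))
  (hA' : ∀ x, cA' (P' x) = 0) (hB' : ∀ x, cB' (P' x) = 0)
  (hPk' : ∀ x, cA' x = 0 → cB' x = 0 → P' x = x)

include hcA' hcB' hP' hA' hB' hPk' in
/-- an equivariant surjection with an equivariant projection onto its kernel is onto on invariants. -/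
theorem s59m_eig_lift (hsurj : ∀ y₁ y₂ : Y₁', ∃ x : Y₂', cA' x = y₁ ∧ cB' x = y₂)
    (w₁ : Y₁') (hw₁ : w₁ ∈ s59t_eig ρ₁' C (1 : Δ' →* 𝒪ˣ))
    (w₂ : Y₁') (hw₂ : w₂ ∈ s59t_eig ρ₁' C (1 : Δ' →* 𝒪ˣ)) :
    ∃ x ∈ s59t_eig ρ₂' C (1 : Δ' →* 𝒪ˣ), cA' x = w₁ ∧ cB' x = w₂ := by
  obtain ⟨z, hzA, hzB⟩ := hsurj w₁ w₂
  refine ⟨z - P' z, ?_, ?_, ?_⟩
  · intro γ hγ
    rw [MonoidHom.one_apply, Units.val_one, one_smul]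
    have hw₁' := hw₁ γ hγ
    have hw₂' := hw₂ γ hγ
    rw [MonoidHom.one_apply, Units.val_one, one_smul] at hw₁' hw₂'
    have ht : P' (ρ₂' γ z - z) = ρ₂' γ z - z := by
      apply hPk'
      · rw [map_sub, hcA', hzA, hw₁', sub_self]
      · rw [map_sub, hcB', hzB, hw₂', sub_self]
    rw [map_sub, hP'] at ht
    rw [map_sub, ← hP']
    have : ρ₂' γ z - P' (ρ₂' γ z) = z - P' z := by
      rw [hP']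
      have e : ρ₂' γ z - ρ₂' γ (P' z) = (ρ₂' γ z - z) - (ρ₂' γ (P' z) - P' z) + (z - P' z) := by abel
      rw [e, ← ht, sub_self, zero_add]
    exact this
  · rw [map_sub, hA', sub_zero, hzA]
  · rw [map_sub, hB', sub_zero, hzB]

include hcA' hcB' hP' in
/-- `s59m_eig_lift` for a projection given by its image. -/
theorem s59m_eig_lift' (hPP' : P' * P' = P')
    (hmem' : ∀ x, x ∈ s59t_part P' ↔ cA' x = 0 ∧ cB' x = 0)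
    (hsurj : ∀ y₁ y₂ : Y₁', ∃ x : Y₂', cA' x = y₁ ∧ cB' x = y₂)
    (w₁ : Y₁') (hw₁ : w₁ ∈ s59t_eig ρ₁' C (1 : Δ' →* 𝒪ˣ))
    (w₂ : Y₁') (hw₂ : w₂ ∈ s59t_eig ρ₁' C (1 : Δ' →* 𝒪ˣ)) :
    ∃ x ∈ s59t_eig ρ₂' C (1 : Δ' →* 𝒪ˣ), cA' x = w₁ ∧ cB' x = w₂ :=
  s59m_eig_lift ρ₁' ρ₂' C cA' cB' hcA' hcB' P' hP'
    (fun x => ((hmem' _).mp ⟨x, rfl⟩).1) (fun x => ((hmem' _).mp ⟨x, rfl⟩).2)
    (fun x h1 h2 => (s59t_mem_part hPP' x).mp ((hmem' x).mpr ⟨h1, h2⟩)) hsurj w₁ hw₁ w₂ hw₂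

end Lift

section KerCtl

variable {𝒪 : Type*} [CommRing 𝒪]
  {Δ : Type*} [CommGroup Δ] [Fintype Δ] {Δ' : Type*} [CommGroup Δ'] [Fintype Δ']
  {Y₁ : Type*} [AddCommGroup Y₁] [Module 𝒪 Y₁] {Y₂ : Type*} [AddCommGroup Y₂] [Module 𝒪 Y₂]
  {Y₁' : Type*} [AddCommGroup Y₁'] [Module 𝒪 Y₁']
  {Y₂' : Type*} [AddCommGroup Y₂'] [Module 𝒪 Y₂']
  (ρ₁ : Δ →* Module.End 𝒪 Y₁) (ρ₂ : Δ →* Module.End 𝒪 Y₂)
  (ρ₁' : Δ' →* Module.End 𝒪 Y₁') (ρ₂' : Δ' →* Module.End 𝒪 Y₂')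
  (B C : Subgroup Δ') [Fintype B] [Fintype C]
  (π₁ : Y₁' →ₗ[𝒪] Y₁) (π₂ : Y₂' →ₗ[𝒪] Y₂)
  (cA cB : Y₂ →ₗ[𝒪] Y₁) (cA' cB' : Y₂' →ₗ[𝒪] Y₁')
  (hcA' : ∀ δ x, cA' (ρ₂' δ x) = ρ₁' δ (cA' x)) (hcB' : ∀ δ x, cB' (ρ₂' δ x) = ρ₁' δ (cB' x))
  (hπA : ∀ y, π₁ (cA' y) = cA (π₂ y)) (hπB : ∀ y, π₁ (cB' y) = cB (π₂ y))
  {P : Module.End 𝒪 Y₂} (hP : ∀ δ x, P (ρ₂ δ x) = ρ₂ δ (P x))
  (hmem : ∀ x, x ∈ s59t_part P ↔ cA x = 0 ∧ cB x = 0)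
  {P' : Module.End 𝒪 Y₂'} (hP' : ∀ δ x, P' (ρ₂' δ x) = ρ₂' δ (P' x)) (hPP' : P' * P' = P')
  (hmem' : ∀ x, x ∈ s59t_part P' ↔ cA' x = 0 ∧ cB' x = 0)

/-- membership in an eigen-submodule of a part. -/
theorem s59m_mem_eig_part {Δ₀ : Type*} [CommGroup Δ₀] [Fintype Δ₀] {Y : Type*} [AddCommGroup Y]
    [Module 𝒪 Y] (ρ : Δ₀ →* Module.End 𝒪 Y) {ε : Module.End 𝒪 Y}
    (hε : ∀ δ x, ε (ρ δ x) = ρ δ (ε x)) (C₀ : Subgroup Δ₀) (ψ : Δ₀ →* 𝒪ˣ)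
    (y : s59t_part ε) : y ∈ s59t_eig (s59t_partRep ρ hε) C₀ ψ ↔ (y : Y) ∈ s59t_eig ρ C₀ ψ := by
  constructor
  · intro h β hβ
    have := congrArg (fun z : s59t_part ε => (z : Y)) (h β hβ)
    exact this
  · intro h β hβ
    exact Subtype.ext (h β hβ)

include hπA hπB hmem hmem' in
/-- the control map `π₂` maps `ker (c_A', c_B')` to `ker (c_A, c_B)`. -/
theorem s59m_kerPi_mem (y : s59t_part P') : π₂ (y : Y₂') ∈ s59t_part P := by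
  rw [hmem]
  obtain ⟨h1, h2⟩ := (hmem' _).mp y.2
  exact ⟨by rw [← hπA, h1, map_zero], by rw [← hπB, h2, map_zero]⟩

/-- **the control map of the kernels** `π_K : P' Y₂' → P Y₂`. -/
def s59m_kerPi : s59t_part P' →ₗ[𝒪] s59t_part P :=
  (π₂.comp (s59t_part P').subtype).codRestrict (s59t_part P)
    (fun y => s59m_kerPi_mem π₁ π₂ cA cB cA' cB' hπA hπB hmem hmem' y)

theorem s59m_kerPi_coe (y : s59t_part P') :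
    ((s59m_kerPi π₁ π₂ cA cB cA' cB' hπA hπB hmem hmem' y : s59t_part P) : Y₂) = π₂ (y : Y₂') := rfl

/-- **(h2) for the kernels.** -/
theorem s59m_ker_h2
    (h2₂ : ∀ y ∈ s59t_eig ρ₂' C (1 : Δ' →* 𝒪ˣ), π₂ y ∈ s59t_eig ρ₂ ⊤ (1 : Δ →* 𝒪ˣ))
    (y : s59t_part P') (hy : y ∈ s59t_eig (s59t_partRep ρ₂' hP') C (1 : Δ' →* 𝒪ˣ)) :
    s59m_kerPi π₁ π₂ cA cB cA' cB' hπA hπB hmem hmem' y ∈
      s59t_eig (s59t_partRep ρ₂ hP) ⊤ (1 : Δ →* 𝒪ˣ) := by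
  refine (s59m_mem_eig_part ρ₂ hP ⊤ 1 _).mpr ?_
  rw [s59m_kerPi_coe]
  exact h2₂ _ ((s59m_mem_eig_part ρ₂' hP' C 1 y).mp hy)

include hcA' hcB' in
/-- lifting the `B`-augmentation of the invariants of `Y₁'` through `(c_A', c_B')`. -/
theorem s59m_aug_lift
    (hsurjE : ∀ w₁ ∈ s59t_eig ρ₁' C (1 : Δ' →* 𝒪ˣ), ∀ w₂ ∈ s59t_eig ρ₁' C (1 : Δ' →* 𝒪ˣ),
      ∃ x ∈ s59t_eig ρ₂' C (1 : Δ' →* 𝒪ˣ), cA' x = w₁ ∧ cB' x = w₂)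
    (a₁ : Y₁') (ha₁ : a₁ ∈ Submodule.span 𝒪
      {z : Y₁' | ∃ β ∈ B, ∃ y' ∈ s59t_eig ρ₁' C (1 : Δ' →* 𝒪ˣ), z = ρ₁' β y' - y'})
    (a₂ : Y₁') (ha₂ : a₂ ∈ Submodule.span 𝒪
      {z : Y₁' | ∃ β ∈ B, ∃ y' ∈ s59t_eig ρ₁' C (1 : Δ' →* 𝒪ˣ), z = ρ₁' β y' - y'}) :
    ∃ u ∈ Submodule.span 𝒪
      {z : Y₂' | ∃ β ∈ B, ∃ y' ∈ s59t_eig ρ₂' C (1 : Δ' →* 𝒪ˣ), z = ρ₂' β y' - y'},
      cA' u = a₁ ∧ cB' u = a₂ := by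
  set A₂ : Submodule 𝒪 Y₂' := Submodule.span 𝒪
    {z : Y₂' | ∃ β ∈ B, ∃ y' ∈ s59t_eig ρ₂' C (1 : Δ' →* 𝒪ˣ), z = ρ₂' β y' - y'} with hA₂
  have h0 : (0 : Y₁') ∈ s59t_eig ρ₁' C (1 : Δ' →* 𝒪ˣ) := Submodule.zero_mem _
  have hl : ∀ a ∈ Submodule.span 𝒪
      {z : Y₁' | ∃ β ∈ B, ∃ y' ∈ s59t_eig ρ₁' C (1 : Δ' →* 𝒪ˣ), z = ρ₁' β y' - y'},
      ∃ u ∈ A₂, cA' u = a ∧ cB' u = 0 := by
    intro a ha
    refine Submodule.span_induction (p := fun a _ => ∃ u ∈ A₂, cA' u = a ∧ cB' u = 0)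
      ?_ ?_ ?_ ?_ ha
    · rintro _ ⟨β, hβ, w, hw, rfl⟩
      obtain ⟨y', hy', e1, e2⟩ := hsurjE w hw 0 h0
      refine ⟨ρ₂' β y' - y', Submodule.subset_span ⟨β, hβ, y', hy', rfl⟩, ?_, ?_⟩
      · rw [map_sub, hcA', e1]
      · rw [map_sub, hcB', e2, map_zero, sub_self]
    · exact ⟨0, A₂.zero_mem, map_zero _, map_zero _⟩
    · rintro x y _ _ ⟨u, hu, e1, e2⟩ ⟨v, hv, e3, e4⟩
      exact ⟨u + v, A₂.add_mem hu hv, by rw [map_add, e1, e3], by rw [map_add, e2, e4, add_zero]⟩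
    · rintro r x _ ⟨u, hu, e1, e2⟩
      exact ⟨r • u, A₂.smul_mem r hu, by rw [map_smul, e1], by rw [map_smul, e2, smul_zero]⟩
  have hr : ∀ a ∈ Submodule.span 𝒪
      {z : Y₁' | ∃ β ∈ B, ∃ y' ∈ s59t_eig ρ₁' C (1 : Δ' →* 𝒪ˣ), z = ρ₁' β y' - y'},
      ∃ u ∈ A₂, cA' u = 0 ∧ cB' u = a := by
    intro a ha
    refine Submodule.span_induction (p := fun a _ => ∃ u ∈ A₂, cA' u = 0 ∧ cB' u = a)
      ?_ ?_ ?_ ?_ ha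
    · rintro _ ⟨β, hβ, w, hw, rfl⟩
      obtain ⟨y', hy', e1, e2⟩ := hsurjE 0 h0 w hw
      refine ⟨ρ₂' β y' - y', Submodule.subset_span ⟨β, hβ, y', hy', rfl⟩, ?_, ?_⟩
      · rw [map_sub, hcA', e1, map_zero, sub_self]
      · rw [map_sub, hcB', e2]
    · exact ⟨0, A₂.zero_mem, map_zero _, map_zero _⟩
    · rintro x y _ _ ⟨u, hu, e1, e2⟩ ⟨v, hv, e3, e4⟩
      exact ⟨u + v, A₂.add_mem hu hv, by rw [map_add, e1, e3, add_zero], by rw [map_add, e2, e4]⟩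
    · rintro r x _ ⟨u, hu, e1, e2⟩
      exact ⟨r • u, A₂.smul_mem r hu, by rw [map_smul, e1, smul_zero], by rw [map_smul, e2]⟩
  obtain ⟨u, hu, e1, e2⟩ := hl a₁ ha₁
  obtain ⟨v, hv, e3, e4⟩ := hr a₂ ha₂
  exact ⟨u + v, A₂.add_mem hu hv, by rw [map_add, e1, e3, add_zero], by rw [map_add, e2, e4, zero_add]⟩

include hcA' hcB' in
/-- **(h3) for the kernels.** -/
theorem s59m_ker_h3
    (hsurjE : ∀ w₁ ∈ s59t_eig ρ₁' C (1 : Δ' →* 𝒪ˣ), ∀ w₂ ∈ s59t_eig ρ₁' C (1 : Δ' →* 𝒪ˣ),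
      ∃ x ∈ s59t_eig ρ₂' C (1 : Δ' →* 𝒪ˣ), cA' x = w₁ ∧ cB' x = w₂)
    (h4₁ : ∀ y ∈ s59t_eig ρ₁' C (1 : Δ' →* 𝒪ˣ), π₁ y = 0 → y ∈ Submodule.span 𝒪
      {z : Y₁' | ∃ β ∈ B, ∃ y' ∈ s59t_eig ρ₁' C (1 : Δ' →* 𝒪ˣ), z = ρ₁' β y' - y'})
    (h3₂ : ∀ x ∈ s59t_eig ρ₂ ⊤ (1 : Δ →* 𝒪ˣ), ∃ y ∈ s59t_eig ρ₂' C (1 : Δ' →* 𝒪ˣ), π₂ y = x)
    (hπβ : ∀ β ∈ B, ∀ y, π₂ (ρ₂' β y) = π₂ y)
    (x : s59t_part P) (hx : x ∈ s59t_eig (s59t_partRep ρ₂ hP) ⊤ (1 : Δ →* 𝒪ˣ)) :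
    ∃ y ∈ s59t_eig (s59t_partRep ρ₂' hP') C (1 : Δ' →* 𝒪ˣ),
      s59m_kerPi π₁ π₂ cA cB cA' cB' hπA hπB hmem hmem' y = x := by
  have hx' : (x : Y₂) ∈ s59t_eig ρ₂ ⊤ (1 : Δ →* 𝒪ˣ) := (s59m_mem_eig_part ρ₂ hP ⊤ 1 x).mp hx
  obtain ⟨y₀, hy₀, hy₀x⟩ := h3₂ _ hx'
  obtain ⟨hxA, hxB⟩ := (hmem _).mp x.2
  have hEA : cA' y₀ ∈ s59t_eig ρ₁' C (1 : Δ' →* 𝒪ˣ) := fun β hβ => by
    rw [← hcA', hy₀ β hβ, map_smul]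
  have hEB : cB' y₀ ∈ s59t_eig ρ₁' C (1 : Δ' →* 𝒪ˣ) := fun β hβ => by
    rw [← hcB', hy₀ β hβ, map_smul]
  have hA0 : π₁ (cA' y₀) = 0 := by rw [hπA, hy₀x, hxA]
  have hB0 : π₁ (cB' y₀) = 0 := by rw [hπB, hy₀x, hxB]
  obtain ⟨u, hu, huA, huB⟩ := s59m_aug_lift ρ₁' ρ₂' B C cA' cB' hcA' hcB' hsurjE _
    (h4₁ _ hEA hA0) _ (h4₁ _ hEB hB0)
  -- `u` lies in the invariants and is killed by `π₂`
  have huE : u ∈ s59t_eig ρ₂' C (1 : Δ' →* 𝒪ˣ) := by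
    have hle : Submodule.span 𝒪
        {z : Y₂' | ∃ β ∈ B, ∃ y' ∈ s59t_eig ρ₂' C (1 : Δ' →* 𝒪ˣ), z = ρ₂' β y' - y'} ≤
        s59t_eig ρ₂' C (1 : Δ' →* 𝒪ˣ) := by
      rw [Submodule.span_le]
      rintro _ ⟨β, -, y', hy', rfl⟩
      exact Submodule.sub_mem _ (s59t_rho_mem_eig ρ₂' C 1 hy' β) hy'
    exact hle hu
  have huπ : π₂ u = 0 := by
    have hle : Submodule.span 𝒪
        {z : Y₂' | ∃ β ∈ B, ∃ y' ∈ s59t_eig ρ₂' C (1 : Δ' →* 𝒪ˣ), z = ρ₂' β y' - y'} ≤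
        LinearMap.ker π₂ := by
      rw [Submodule.span_le]
      rintro _ ⟨β, hβ, y', -, rfl⟩
      rw [SetLike.mem_coe, LinearMap.mem_ker, map_sub, hπβ β hβ, sub_self]
    exact LinearMap.mem_ker.mp (hle hu)
  have hyK : y₀ - u ∈ s59t_part P' := by
    rw [hmem']
    exact ⟨by rw [map_sub, huA, sub_self], by rw [map_sub, huB, sub_self]⟩
  refine ⟨⟨y₀ - u, hyK⟩, ?_, ?_⟩
  · refine (s59m_mem_eig_part ρ₂' hP' C 1 _).mpr ?_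
    exact Submodule.sub_mem _ hy₀ huE
  · apply Subtype.ext
    rw [s59m_kerPi_coe]
    show π₂ (y₀ - u) = x
    rw [map_sub, huπ, sub_zero, hy₀x]

include hPP' in
/-- **(h4) for the kernels.** -/
theorem s59m_ker_h4
    (h4₂ : ∀ y ∈ s59t_eig ρ₂' C (1 : Δ' →* 𝒪ˣ), π₂ y = 0 → y ∈ Submodule.span 𝒪
      {z : Y₂' | ∃ β ∈ B, ∃ y' ∈ s59t_eig ρ₂' C (1 : Δ' →* 𝒪ˣ), z = ρ₂' β y' - y'})
    (y : s59t_part P') (hy : y ∈ s59t_eig (s59t_partRep ρ₂' hP') C (1 : Δ' →* 𝒪ˣ))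
    (hy0 : s59m_kerPi π₁ π₂ cA cB cA' cB' hπA hπB hmem hmem' y = 0) :
    y ∈ Submodule.span 𝒪 {z : s59t_part P' | ∃ β ∈ B,
      ∃ y' ∈ s59t_eig (s59t_partRep ρ₂' hP') C (1 : Δ' →* 𝒪ˣ),
        z = s59t_partRep ρ₂' hP' β y' - y'} := by
  have hy' : (y : Y₂') ∈ s59t_eig ρ₂' C (1 : Δ' →* 𝒪ˣ) := (s59m_mem_eig_part ρ₂' hP' C 1 y).mp hy
  have h0 : π₂ (y : Y₂') = 0 := by
    have := congrArg (fun z : s59t_part P => (z : Y₂)) hy0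
    exact this
  have h1 := h4₂ _ hy' h0
  have h2 : s59t_proj P' (y : Y₂') ∈ (Submodule.span 𝒪
      {z : Y₂' | ∃ β ∈ B, ∃ y' ∈ s59t_eig ρ₂' C (1 : Δ' →* 𝒪ˣ), z = ρ₂' β y' - y'}).map
      (s59t_proj P') := ⟨_, h1, rfl⟩
  rw [s59t_proj_of_mem hPP', Submodule.map_span] at h2
  refine Submodule.span_mono ?_ h2
  rintro _ ⟨_, ⟨β, hβ, y', hy'E, rfl⟩, rfl⟩
  refine ⟨β, hβ, s59t_proj P' y', ?_, ?_⟩
  · refine (s59m_mem_eig_part ρ₂' hP' C 1 _).mpr ?_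
    rw [s59t_proj_coe]
    intro γ hγ
    rw [← hP', hy'E γ hγ, map_smul]
  · apply Subtype.ext
    rw [map_sub, Submodule.coe_sub, Submodule.coe_sub, s59t_proj_coe, s59t_proj_coe, hP']
    rfl

end KerCtl

section KerTW

variable {p : ℕ} [Fact p.Prime] {𝒪 : Type*} [CommRing 𝒪] [IsLocalRing 𝒪] [Finite (ResidueField 𝒪)]
  [CharP (ResidueField 𝒪) p] [IsNoetherianRing 𝒪]
  {Δ : Type*} [CommGroup Δ] [Fintype Δ] {Δ' : Type*} [CommGroup Δ'] [Fintype Δ']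
  {Y₁ : Type*} [AddCommGroup Y₁] [Module 𝒪 Y₁] {Y₂ : Type*} [AddCommGroup Y₂] [Module 𝒪 Y₂]
  {Y₁' : Type*} [AddCommGroup Y₁'] [Module 𝒪 Y₁'] [Module.Finite 𝒪 Y₁']
  {Y₂' : Type*} [AddCommGroup Y₂'] [Module 𝒪 Y₂']
  (ρ₁ : Δ →* Module.End 𝒪 Y₁) (ρ₂ : Δ →* Module.End 𝒪 Y₂)
  (ρ₁' : Δ' →* Module.End 𝒪 Y₁') (ρ₂' : Δ' →* Module.End 𝒪 Y₂')
  (B C : Subgroup Δ') [Fintype B] [Fintype C]
  (π₁ : Y₁' →ₗ[𝒪] Y₁) (π₂ : Y₂' →ₗ[𝒪] Y₂)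
  (cA cB : Y₂ →ₗ[𝒪] Y₁) (cA' cB' : Y₂' →ₗ[𝒪] Y₁')
  (hcA : ∀ δ x, cA (ρ₂ δ x) = ρ₁ δ (cA x)) (hcB : ∀ δ x, cB (ρ₂ δ x) = ρ₁ δ (cB x))
  (hcA' : ∀ δ x, cA' (ρ₂' δ x) = ρ₁' δ (cA' x)) (hcB' : ∀ δ x, cB' (ρ₂' δ x) = ρ₁' δ (cB' x))
  (hπA : ∀ y, π₁ (cA' y) = cA (π₂ y)) (hπB : ∀ y, π₁ (cB' y) = cB (π₂ y))
  {P : Module.End 𝒪 Y₂} (hP : ∀ δ x, P (ρ₂ δ x) = ρ₂ δ (P x)) (hPP : P * P = P)
  (hmem : ∀ x, x ∈ s59t_part P ↔ cA x = 0 ∧ cB x = 0)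

include hcA hcB hcA' hcB' hPP in
/-- **RAISE-p at one Taylor–Wiles level, abstract form.**  Base: `(c_A, c_B) : Y₂ → Y₁²` onto, `P` an equivariant
idempotent of `Y₂` with image the kernel (chosen ONCE, e.g. by `s59m_ker_free_part` at the base).  Level: `Y₁'`, `Y₂'` free
over `𝒪[Δ']` of ranks `d₁`, `d₂`, with control to the base.  Then `(c_A', c_B')` is onto, its kernel is `P' Y₂'` for an
equivariant idempotent `P'`, free over `𝒪[Δ']` of rank `d₂ - 2 d₁`, and `(P' Y₂', P Y₂, π_K)` satisfies the control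
hypotheses `h2, h3, h4` of `s59t_TSide_level'`. -/
theorem s59m_kerTW_level (hpm : (p : 𝒪) ∈ maximalIdeal 𝒪) (hΔ' : ∀ δ : Δ', ∃ n : ℕ, δ ^ (p ^ n) = 1)
    (hCB : Function.Bijective (fun x : C × B => ((x.1 : Δ') * (x.2 : Δ'))))
    {d₁ d₂ : ℕ} (b₁' : Fin d₁ → Y₁') (hb₁' : Function.Bijective (s59t_evalMap ρ₁' b₁'))
    (b₂' : Fin d₂ → Y₂') (hb₂' : Function.Bijective (s59t_evalMap ρ₂' b₂'))
    (h2₁ : ∀ y ∈ s59t_eig ρ₁' C (1 : Δ' →* 𝒪ˣ), π₁ y ∈ s59t_eig ρ₁ ⊤ (1 : Δ →* 𝒪ˣ))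
    (h4₁ : ∀ y ∈ s59t_eig ρ₁' C (1 : Δ' →* 𝒪ˣ), π₁ y = 0 → y ∈ Submodule.span 𝒪
      {z : Y₁' | ∃ β ∈ B, ∃ y' ∈ s59t_eig ρ₁' C (1 : Δ' →* 𝒪ˣ), z = ρ₁' β y' - y'})
    (h2₂ : ∀ y ∈ s59t_eig ρ₂' C (1 : Δ' →* 𝒪ˣ), π₂ y ∈ s59t_eig ρ₂ ⊤ (1 : Δ →* 𝒪ˣ))
    (h3₂ : ∀ x ∈ s59t_eig ρ₂ ⊤ (1 : Δ →* 𝒪ˣ), ∃ y ∈ s59t_eig ρ₂' C (1 : Δ' →* 𝒪ˣ), π₂ y = x)
    (h4₂ : ∀ y ∈ s59t_eig ρ₂' C (1 : Δ' →* 𝒪ˣ), π₂ y = 0 → y ∈ Submodule.span 𝒪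
      {z : Y₂' | ∃ β ∈ B, ∃ y' ∈ s59t_eig ρ₂' C (1 : Δ' →* 𝒪ˣ), z = ρ₂' β y' - y'})
    (hπβ : ∀ β ∈ B, ∀ y, π₂ (ρ₂' β y) = π₂ y)
    (hbase : ∀ y₁ y₂ : Y₁, ∃ z : Y₂, cA z = y₁ ∧ cB z = y₂) :
    2 * d₁ ≤ d₂ ∧ (∀ y₁ y₂ : Y₁', ∃ x : Y₂', cA' x = y₁ ∧ cB' x = y₂) ∧
    ∃ (P' : Module.End 𝒪 Y₂') (hP' : ∀ δ x, P' (ρ₂' δ x) = ρ₂' δ (P' x)), P' * P' = P' ∧
      ∃ hmem' : ∀ x, x ∈ s59t_part P' ↔ cA' x = 0 ∧ cB' x = 0,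
      (∃ b' : Fin (d₂ - 2 * d₁) → s59t_part P',
        Function.Bijective (s59t_evalMap (s59t_partRep ρ₂' hP') b')) ∧
      (∀ y ∈ s59t_eig (s59t_partRep ρ₂' hP') C (1 : Δ' →* 𝒪ˣ),
        s59m_kerPi π₁ π₂ cA cB cA' cB' hπA hπB hmem hmem' y ∈
          s59t_eig (s59t_partRep ρ₂ hP) ⊤ (1 : Δ →* 𝒪ˣ)) ∧
      (∀ x ∈ s59t_eig (s59t_partRep ρ₂ hP) ⊤ (1 : Δ →* 𝒪ˣ),
        ∃ y ∈ s59t_eig (s59t_partRep ρ₂' hP') C (1 : Δ' →* 𝒪ˣ),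
          s59m_kerPi π₁ π₂ cA cB cA' cB' hπA hπB hmem hmem' y = x) ∧
      (∀ y ∈ s59t_eig (s59t_partRep ρ₂' hP') C (1 : Δ' →* 𝒪ˣ),
        s59m_kerPi π₁ π₂ cA cB cA' cB' hπA hπB hmem hmem' y = 0 →
        y ∈ Submodule.span 𝒪 {z : s59t_part P' | ∃ β ∈ B,
          ∃ y' ∈ s59t_eig (s59t_partRep ρ₂' hP') C (1 : Δ' →* 𝒪ˣ),
            z = s59t_partRep ρ₂' hP' β y' - y'}) := by
  have hbaseE := s59m_eig_lift' ρ₁ ρ₂ (⊤ : Subgroup Δ) cA cB hcA hcB P hP hPP hmem hbase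
  have hsurj' : ∀ y₁ y₂ : Y₁', ∃ x : Y₂', cA' x = y₁ ∧ cB' x = y₂ :=
    s59m_surj_full (p := p) ρ₁ ρ₂ ρ₁' ρ₂' B C π₁ π₂ cA cB cA' cB' hcA' hcB' hπA hπB hΔ' hCB b₁' hb₁'
      b₂' hb₂' h2₁ h4₁ h3₂ hbaseE
  obtain ⟨hle, P', hP', hPP', hmem', b', hb'⟩ :=
    s59m_ker_free_part (p := p) hpm hΔ' ρ₂' ρ₁' b₂' hb₂' b₁' hb₁' cA' cB' hcA' hcB' hsurj'
  have hsurjE' := s59m_eig_lift' ρ₁' ρ₂' C cA' cB' hcA' hcB' P' hP' hPP' hmem' hsurj'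
  refine ⟨hle, hsurj', P', hP', hPP', hmem', ⟨b', hb'⟩, ?_, ?_, ?_⟩
  · exact fun y hy => s59m_ker_h2 ρ₂ ρ₂' C π₁ π₂ cA cB cA' cB' hπA hπB hP hmem hP' hmem' h2₂ y hy
  · exact fun x hx => s59m_ker_h3 ρ₂ ρ₁' ρ₂' B C π₁ π₂ cA cB cA' cB' hcA' hcB' hπA hπB hP hmem hP'
      hmem' hsurjE' h4₁ h3₂ hπβ x hx
  · exact fun y hy hy0 => s59m_ker_h4 ρ₂' B C π₁ π₂ cA cB cA' cB' hπA hπB hmem hP' hPP' hmem' h4₂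
      y hy hy0

end KerTW

end Fermat.Agent.Lib.S59
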