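/-
S59 project, case (P), item [P6] (helper9): **RAISE-p, abstract core, file 4: the new part is non-zero.**

`D : s59t_Old 𝒪 Y Z` (helper8's level-`N`/level-`N q` package: `res_A, res_B : Y → Z`, `cor_A, cor_B : Z → Y`,
`cor ∘ res = ((q+1, T), (T, q+1))`), `𝒪` local, `q ∈ 𝔪` (the raising prime is the residue characteristic), `Y ≠ 0` finite.
If Ihara holds modulo `𝔪` ((T4): `(res_A, res_B)` injective modulo `𝔪`), `(cor_A, cor_B)` is onto ((T5) + Nakayama)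
and `T² - 1` is nilpotent modulo `𝔪` ([P4]: `a_p² ≡ 1`), then `ker cor_A ∩ ker cor_B ≠ 0`
(`s59m_new_ne_zero`): otherwise `cor` is an isomorphism, and for `y ∉ 𝔪 Y` with `(T² - 1) y ∈ 𝔪 Y` the element
`z = res_A ((q+1) y) - res_B (T y)` has `cor z ∈ 𝔪 Y²`, hence `z ∈ 𝔪 Z`, hence `(q+1) y ∈ 𝔪 Y` by (T4).
-/
import Mathlib
import Fermat.Agent.Lib.S59.TOld

set_option autoImplicit false
set_option linter.unusedSectionVars false
set_option linter.unusedVariables false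
set_option linter.style.haveILetI false

open IsLocalRing

namespace Fermat.Agent.Lib.S59

section NewNe

variable {𝒪 : Type*} [CommRing 𝒪] [IsLocalRing 𝒪]
  {Y : Type*} [AddCommGroup Y] [Module 𝒪 Y] [Module.Finite 𝒪 Y] [Nontrivial Y]
  {Z : Type*} [AddCommGroup Z] [Module 𝒪 Z]

/-- **the `q`-new part is non-zero** when `T² ≡ 1` modulo `𝔪` and `q ∈ 𝔪`. -/
theorem s59m_new_ne_zero (D : s59t_Old 𝒪 Y Z) (hqq : D.qq ∈ maximalIdeal 𝒪)
    (hT4 : ∀ y₁ y₂ : Y, D.resA y₁ + D.resB y₂ ∈ (maximalIdeal 𝒪 • ⊤ : Submodule 𝒪 Z) →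
      y₁ ∈ (maximalIdeal 𝒪 • ⊤ : Submodule 𝒪 Y) ∧ y₂ ∈ (maximalIdeal 𝒪 • ⊤ : Submodule 𝒪 Y))
    (hsur : ∀ y₁ y₂ : Y, ∃ z : Z, D.corA z = y₁ ∧ D.corB z = y₂)
    (hnil : ∃ k : ℕ, ∀ y : Y, ((D.T * D.T - 1) ^ k) y ∈ (maximalIdeal 𝒪 • ⊤ : Submodule 𝒪 Y)) :
    ∃ z : Z, z ≠ 0 ∧ D.corA z = 0 ∧ D.corB z = 0 := by
  classical
  by_contra hcon
  have hinj : ∀ z : Z, D.corA z = 0 → D.corB z = 0 → z = 0 := by
    intro z h1 h2
    by_contra hz
    exact hcon ⟨z, hz, h1, h2⟩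
  set 𝔪Y : Submodule 𝒪 Y := maximalIdeal 𝒪 • ⊤ with h𝔪Y
  set S : Module.End 𝒪 Y := D.T * D.T - 1 with hS
  -- an element outside `𝔪 Y`
  obtain ⟨y, hy⟩ : ∃ y : Y, y ∉ 𝔪Y := by
    by_contra hall
    have hall' : ∀ y : Y, y ∈ 𝔪Y := fun y => by
      by_contra h
      exact hall ⟨y, h⟩
    have h1 : (⊤ : Submodule 𝒪 Y) ≤ maximalIdeal 𝒪 • ⊤ := fun y _ => hall' y
    have h2 : (⊤ : Submodule 𝒪 Y) = ⊥ :=
      Submodule.eq_bot_of_le_smul_of_le_jacobson_bot (maximalIdeal 𝒪) ⊤ Module.Finite.fg_top h1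
        (by rw [IsLocalRing.jacobson_eq_maximalIdeal ⊥ bot_ne_top])
    obtain ⟨a, b, hab⟩ := exists_pair_ne Y
    have ha : a ∈ (⊥ : Submodule 𝒪 Y) := h2 ▸ Submodule.mem_top
    have hb : b ∈ (⊥ : Submodule 𝒪 Y) := h2 ▸ Submodule.mem_top
    rw [Submodule.mem_bot] at ha hb
    exact hab (ha.trans hb.symm)
  -- minimal exponent
  obtain ⟨k, hk⟩ := hnil
  have hex : ∃ k : ℕ, (S ^ k) y ∈ 𝔪Y := ⟨k, hk y⟩
  set k₀ := Nat.find hex with hk₀
  have hk₀mem : (S ^ k₀) y ∈ 𝔪Y := Nat.find_spec hex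
  have hk₀pos : k₀ ≠ 0 := by
    intro h0
    rw [h0, pow_zero, Module.End.one_apply] at hk₀mem
    exact hy hk₀mem
  obtain ⟨j, hj⟩ := Nat.exists_eq_succ_of_ne_zero hk₀pos
  set y' : Y := (S ^ j) y with hy'
  have hy'not : y' ∉ 𝔪Y := by
    intro h
    have := Nat.find_min hex (m := j) (by omega)
    exact this h
  have hSy' : S y' ∈ 𝔪Y := by
    have : S y' = (S ^ k₀) y := by
      rw [hj, pow_succ', Module.End.mul_apply]
    rw [this]
    exact hk₀mem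
  -- the element `z`
  set z : Z := D.resA ((D.qq + 1) • y') - D.resB (D.T y') with hz
  have hzA : D.corA z = (D.qq * D.qq + 2 * D.qq) • y' - S y' := by
    rw [hz, map_sub, D.corA_resA, D.corA_resB, hS, LinearMap.sub_apply, Module.End.mul_apply,
      Module.End.one_apply, smul_smul]
    have e : ((D.qq + 1) * (D.qq + 1)) • y' = (D.qq * D.qq + 2 * D.qq) • y' + y' := by
      rw [show (D.qq + 1) * (D.qq + 1) = (D.qq * D.qq + 2 * D.qq) + 1 by ring, add_smul, one_smul]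
    rw [e]
    abel
  have hzB : D.corB z = 0 := by
    rw [hz, map_sub, D.corB_resA, D.corB_resB, map_smul, sub_self]
  have hzAmem : D.corA z ∈ 𝔪Y := by
    rw [hzA]
    refine Submodule.sub_mem _ ?_ hSy'
    exact Submodule.smul_mem_smul (Ideal.add_mem _ (Ideal.mul_mem_left _ _ hqq)
      (Ideal.mul_mem_left _ _ hqq)) Submodule.mem_top
  -- `z ∈ 𝔪 Z`
  have hlift : ∀ a ∈ 𝔪Y, ∃ z₁ ∈ (maximalIdeal 𝒪 • ⊤ : Submodule 𝒪 Z),
      D.corA z₁ = a ∧ D.corB z₁ = 0 := by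
    intro a ha
    refine Submodule.smul_induction_on ha ?_ ?_
    · intro r hr w _
      obtain ⟨zw, h1, h2⟩ := hsur w 0
      exact ⟨r • zw, Submodule.smul_mem_smul hr Submodule.mem_top, by rw [map_smul, h1],
        by rw [map_smul, h2, smul_zero]⟩
    · rintro a b ⟨z₁, hz₁, e1, e2⟩ ⟨z₂, hz₂, e3, e4⟩
      exact ⟨z₁ + z₂, Submodule.add_mem _ hz₁ hz₂, by rw [map_add, e1, e3],
        by rw [map_add, e2, e4, add_zero]⟩
  obtain ⟨z₁, hz₁, e1, e2⟩ := hlift _ hzAmem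
  have hzz₁ : z = z₁ := by
    have := hinj (z - z₁) (by rw [map_sub, e1, sub_self]) (by rw [map_sub, hzB, e2, sub_self])
    exact sub_eq_zero.mp this
  have hzmem : D.resA ((D.qq + 1) • y') + D.resB (-(D.T y')) ∈
      (maximalIdeal 𝒪 • ⊤ : Submodule 𝒪 Z) := by
    rw [map_neg, ← sub_eq_add_neg, ← hz, hzz₁]
    exact hz₁
  obtain ⟨h1, -⟩ := hT4 _ _ hzmem
  -- `q + 1` is a unit
  have hu : IsUnit (D.qq + 1) := by
    by_contra hnu
    have h2 : D.qq + 1 ∈ maximalIdeal 𝒪 := (mem_maximalIdeal _).mpr hnu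
    have h3 : (1 : 𝒪) ∈ maximalIdeal 𝒪 := by
      have := Ideal.sub_mem _ h2 hqq
      rwa [add_sub_cancel_left] at this
    exact (Ideal.ne_top_iff_one _).mp (maximalIdeal.isMaximal 𝒪).ne_top h3
  obtain ⟨u, hu'⟩ := hu
  apply hy'not
  have : y' = ((u⁻¹ : 𝒪ˣ) : 𝒪) • ((D.qq + 1) • y') := by
    rw [smul_smul, ← hu', Units.inv_mul, one_smul]
  rw [this]
  exact Submodule.smul_mem _ _ h1

end NewNe

end Fermat.Agent.Lib.S59
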