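/-
Programme R (S59), case (P), item [P8-M-base] (helper2, prefix `s59b_`; binders = `section Parts` of helper9's
`MIharaP4.lean` at `q := p`).

At the `Γ_⊤`-base of the Taylor–Wiles chain, for the level-`N`/level-`N p` package
`D = (s59f_oldN hpN hN' hG' 𝒪 𝒪 e he' hee).restrict hc` on the `ε`-parts (raising prime = residue characteristic):

* `s59b_oldN_T_top` : `D.T = s59w_op ⊤ 𝒪 (inl ip)` for `ip.ell = p` (through `Γ₀(N) → Γ_⊤(N)`);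
* **`s59b_cor_surj_base`** : `(cor_A, cor_B) : ε' H(N p) → (ε H(N))²` is ONTO (helper9's (T5) at `q = p` + Nakayama);
* `s59b_hnil_base` : the hypothesis `hnil` of `s59m_new_ne_zero` from the operator form `hnilp` ([P4]);
* **`s59b_new_ne_zero_base`** : `ker cor_A ∩ ker cor_B ≠ 0` on `ε' H(N p)` (helper9's `s59m_new_ne_zero` fed with
  (T4) = `s59m_ihara_part_top`, (T5) and [P4]).
-/
import Mathlib
import Fermat.Agent.Lib.S59.MIharaP4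
import Fermat.Agent.Lib.S59.MKerCtl2
import Fermat.Agent.Lib.S59.MKerNe

set_option autoImplicit false
set_option linter.unusedSectionVars false
set_option linter.unusedVariables false
set_option linter.style.haveILetI false

noncomputable section

namespace Fermat.Agent.Lib.S59

open CongruenceSubgroup IsLocalRing
open Fermat.Agent.Lib.S29 Fermat.Agent.Lib.S41 Fermat.Agent.Lib.S48 ModularCurve.Period
open scoped MatrixGroups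

section TTop

variable (𝒪 : Type) [CommRing 𝒪] [IsDomain 𝒪] [IsDiscreteValuationRing 𝒪]
  {N q N' : ℕ} [NeZero N] [hq : Fact q.Prime] (hqN : ¬ q ∣ N) [NeZero N'] (hN' : N' = N * q)
  (hG' : s59f_IsG' N q (⊤ : Subgroup (ZMod N)ˣ)
    (s48h_GammaH N' (⊤ : Subgroup (ZMod N')ˣ)))
  (e : SL(2, ℤ)) (he' : e ∈ Gamma0 N')
  (hee : s59f_gW hqN * e * e ∈ s48h_GammaH N' (⊤ : Subgroup (ZMod N')ˣ))

/-- **`T` of the `Γ_⊤`-package is `T_q`** (`= s59w_op ⊤ 𝒪 (inl iq)` for any index `iq` with `iq.ell = q`). -/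
theorem s59b_oldN_T_top (iq : s59w_TIdx N) (hiq : iq.ell = q)
    (y : s48h_Hpar 𝒪 (s48h_GammaH N (⊤ : Subgroup (ZMod N)ˣ)) 𝒪) :
    (s59f_oldN hqN hN' hG' 𝒪 𝒪 e he' hee).T y =
      s59w_op (⊤ : Subgroup (ZMod N)ˣ) 𝒪 (Sum.inl iq) y := by
  subst hN'
  subst hiq
  obtain ⟨y₀, rfl⟩ := (s59f_topEquiv N 𝒪 𝒪).surjective y
  rw [s59f_topEquiv_apply]
  have h1 := (s59f_oldTop_hom hqN 𝒪 𝒪 hG' e he' hee).T y₀
  rw [← h1]
  exact s59f_res_top_T 𝒪 iq y₀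

end TTop

section Base

variable (𝒪 : Type) [CommRing 𝒪] [IsDomain 𝒪] [IsDiscreteValuationRing 𝒪]
  (p : ℕ) [hp : Fact p.Prime] [CharP (ResidueField 𝒪) p]
  {N N' : ℕ} [NeZero N] (hpN : ¬ p ∣ N) [NeZero N'] (hN' : N' = N * p)
  (hG' : s59f_IsG' N p (⊤ : Subgroup (ZMod N)ˣ)
    (s48h_GammaH N' (⊤ : Subgroup (ZMod N')ˣ)))
  (e : SL(2, ℤ)) (he' : e ∈ Gamma0 N')
  (hee : s59f_gW hpN * e * e ∈ s48h_GammaH N' (⊤ : Subgroup (ZMod N')ˣ))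
  {ε : Module.End 𝒪 (s48h_Hpar 𝒪 (s48h_GammaH N (⊤ : Subgroup (ZMod N)ˣ)) 𝒪)}
  {ε' : Module.End 𝒪 (s48h_Hpar 𝒪 (s48h_GammaH N' (⊤ : Subgroup (ZMod N')ˣ)) 𝒪)}
  (hc : (s59f_oldN hpN hN' hG' 𝒪 𝒪 e he' hee).Compat ε ε')

/-- **(T5) + Nakayama at the base, `q = p`**: `(cor_A, cor_B)` is onto `(ε H(N))²`. -/
theorem s59b_cor_surj_base [Module.Finite 𝒪 (s59t_part ε)] [Finite (ResidueField 𝒪)] (hp2 : p ≠ 2)
    (i : s59w_TIdx N) (hi : ¬ i.ell ∣ N * p * p) (hε : ε * ε = ε)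
    (hεT : ∀ y, ε (s59w_op (⊤ : Subgroup (ZMod N)ˣ) 𝒪 (Sum.inl i) y) =
      s59w_op (⊤ : Subgroup (ZMod N)ˣ) 𝒪 (Sum.inl i) (ε y))
    (a : 𝒪) (hu : IsUnit (a ^ 2 - ((i.ell : 𝒪) + 1) ^ 2))
    (hnil_i : ∃ k : ℕ, ∀ y, ((s59w_op (⊤ : Subgroup (ZMod N)ˣ) 𝒪 (Sum.inl i) -
      a • (1 : Module.End 𝒪 (s48h_Hpar 𝒪 (s48h_GammaH N (⊤ : Subgroup (ZMod N)ˣ)) 𝒪))) ^ k)
        (ε y) ∈ (maximalIdeal 𝒪 • ⊤ :
          Submodule 𝒪 (s48h_Hpar 𝒪 (s48h_GammaH N (⊤ : Subgroup (ZMod N)ˣ)) 𝒪)))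
    (y₁ y₂ : s59t_part ε) :
    ∃ z : s59t_part ε',
      ((s59f_oldN hpN hN' hG' 𝒪 𝒪 e he' hee).restrict hc).corA z = y₁ ∧
      ((s59f_oldN hpN hN' hG' 𝒪 𝒪 e he' hee).restrict hc).corB z = y₂ :=
  by
  have h := fun v₁ v₂ : s59t_part ε =>
    s59m_dual_part_top 𝒪 p hpN hN' hG' e he' hee hc hp2 i hi hε hεT a hu hnil_i v₁ v₂
  set D := (s59f_oldN hpN hN' hG' 𝒪 𝒪 e he' hee).restrict hc with hD
  have key := @s59m_surj_of_mod 𝒪 _ _ (s59t_part ε') (s59t_part ε) _ _ _ _ _ D.corA D.corB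
  exact key h y₁ y₂

/-- the operator-form `[P4]` hypothesis gives the `hnil` of `s59m_new_ne_zero` on the `ε`-part. -/
theorem s59b_hnil_base (hε : ε * ε = ε) (ip : s59w_TIdx N) (hip : ip.ell = p)
    (hnilp : ∃ m : ℕ, ∀ y, ((s59w_op (⊤ : Subgroup (ZMod N)ˣ) 𝒪 (Sum.inl ip) *
        s59w_op (⊤ : Subgroup (ZMod N)ˣ) 𝒪 (Sum.inl ip) - 1) ^ m)
        (ε y) ∈ (maximalIdeal 𝒪 • ⊤ :
          Submodule 𝒪 (s48h_Hpar 𝒪 (s48h_GammaH N (⊤ : Subgroup (ZMod N)ˣ)) 𝒪))) :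
    ∃ k : ℕ, ∀ y : s59t_part ε,
      ((((s59f_oldN hpN hN' hG' 𝒪 𝒪 e he' hee).restrict hc).T *
        ((s59f_oldN hpN hN' hG' 𝒪 𝒪 e he' hee).restrict hc).T - 1) ^ k) y ∈
        (maximalIdeal 𝒪 • ⊤ : Submodule 𝒪 (s59t_part ε)) := by
  obtain ⟨m, hm⟩ := hnilp
  refine ⟨m, fun y => ?_⟩
  rw [s59t_part_smul_top_iff _ hε]
  have key : ∀ (k : ℕ) (x : s59t_part ε),
      ((((((s59f_oldN hpN hN' hG' 𝒪 𝒪 e he' hee).restrict hc).T *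
        ((s59f_oldN hpN hN' hG' 𝒪 𝒪 e he' hee).restrict hc).T - 1) ^ k) x : s59t_part ε) :
        s48h_Hpar 𝒪 (s48h_GammaH N (⊤ : Subgroup (ZMod N)ˣ)) 𝒪) =
      ((s59w_op (⊤ : Subgroup (ZMod N)ˣ) 𝒪 (Sum.inl ip) *
        s59w_op (⊤ : Subgroup (ZMod N)ˣ) 𝒪 (Sum.inl ip) - 1) ^ k) (x : _) := by
    intro k
    induction k with
    | zero => intro x; simp
    | succ k ih =>
      intro x
      rw [pow_succ, Module.End.mul_apply, ih, pow_succ, Module.End.mul_apply]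
      congr 1
      show (s59f_oldN hpN hN' hG' 𝒪 𝒪 e he' hee).T
          ((s59f_oldN hpN hN' hG' 𝒪 𝒪 e he' hee).T (x : _)) - (x : _) = _
      rw [s59b_oldN_T_top 𝒪 hpN hN' hG' e he' hee ip hip,
        s59b_oldN_T_top 𝒪 hpN hN' hG' e he' hee ip hip]
      rfl
  rw [key]
  have hy := (s59t_mem_part hε _).mp y.2
  rw [← hy]
  exact hm _

include p in
/-- **the `p`-new part at the base is non-zero**: `ker cor_A ∩ ker cor_B ≠ 0` on `ε' H(N p)`. -/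
theorem s59b_new_ne_zero_base [Module.Finite 𝒪 (s59t_part ε)] [Nontrivial (s59t_part ε)]
    [Finite (ResidueField 𝒪)] (hp2 : p ≠ 2)
    (i : s59w_TIdx N) (hi : ¬ i.ell ∣ N * p * p) (hε : ε * ε = ε)
    (hεT : ∀ y, ε (s59w_op (⊤ : Subgroup (ZMod N)ˣ) 𝒪 (Sum.inl i) y) =
      s59w_op (⊤ : Subgroup (ZMod N)ˣ) 𝒪 (Sum.inl i) (ε y))
    (a : 𝒪) (hu : IsUnit (a ^ 2 - ((i.ell : 𝒪) + 1) ^ 2))
    (hnil_i : ∃ k : ℕ, ∀ y, ((s59w_op (⊤ : Subgroup (ZMod N)ˣ) 𝒪 (Sum.inl i) -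
      a • (1 : Module.End 𝒪 (s48h_Hpar 𝒪 (s48h_GammaH N (⊤ : Subgroup (ZMod N)ˣ)) 𝒪))) ^ k)
        (ε y) ∈ (maximalIdeal 𝒪 • ⊤ :
          Submodule 𝒪 (s48h_Hpar 𝒪 (s48h_GammaH N (⊤ : Subgroup (ZMod N)ˣ)) 𝒪)))
    (ip : s59w_TIdx N) (hip : ip.ell = p)
    (hnilp : ∃ m : ℕ, ∀ y, ((s59w_op (⊤ : Subgroup (ZMod N)ˣ) 𝒪 (Sum.inl ip) *
        s59w_op (⊤ : Subgroup (ZMod N)ˣ) 𝒪 (Sum.inl ip) - 1) ^ m)
        (ε y) ∈ (maximalIdeal 𝒪 • ⊤ :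
          Submodule 𝒪 (s48h_Hpar 𝒪 (s48h_GammaH N (⊤ : Subgroup (ZMod N)ˣ)) 𝒪))) :
    ∃ z : s59t_part ε', z ≠ 0 ∧
      ((s59f_oldN hpN hN' hG' 𝒪 𝒪 e he' hee).restrict hc).corA z = 0 ∧
      ((s59f_oldN hpN hN' hG' 𝒪 𝒪 e he' hee).restrict hc).corB z = 0 := by
  have hiq : i.ell ≠ p := by
    intro h
    apply hi
    rw [h]
    exact Dvd.intro_left _ rfl
  have hqq : ((s59f_oldN hpN hN' hG' 𝒪 𝒪 e he' hee).restrict hc).qq ∈ maximalIdeal 𝒪 := by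
    show ((p : ℕ) : 𝒪) ∈ maximalIdeal 𝒪
    rw [← Ideal.Quotient.eq_zero_iff_mem]
    show (IsLocalRing.residue 𝒪) ((p : ℕ) : 𝒪) = 0
    rw [map_natCast]
    exact CharP.cast_eq_zero _ p
  exact s59m_new_ne_zero ((s59f_oldN hpN hN' hG' 𝒪 𝒪 e he' hee).restrict hc) hqq
    (fun x y h => s59m_ihara_part_top 𝒪 p hpN hN' hG' e he' hee hc i hiq hε hεT a hu hnil_i x y h)
    (fun y₁ y₂ => s59b_cor_surj_base 𝒪 p hpN hN' hG' e he' hee hc hp2 i hi hε hεT a hu hnil_i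
      y₁ y₂)
    (s59b_hnil_base 𝒪 p hpN hN' hG' e he' hee hc hε ip hip hnilp)

end Base

end Fermat.Agent.Lib.S59
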