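/-
Programme R2 (S59), [PATCH-FLR] `T`-side (T1), helper5 (prefix `s59ex_`): **THE EXTENDED OUTPUT OF THE TAYLOR–WILES LEVEL
PACKAGE** — the three internal facts of helper8's `s59t_TW_control` (TLvlQ2.lean) that the compatibility of the idempotents
`ε′_t` across the levels `N_t ∏ qv` needs, as ONE predicate on the polynomials `(e₀, G)`:

`s59ex_LvlX N' H' aq good c L e₀ G` :
  (X0) `1 - e₀ ∈ evalIdeal c`;
  (X1) the anemic part `ε⁰ = actH (jG e₀)` is an idempotent of `H_par(Γ_{H'}(N'), 𝒪)`;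
  (X2) the good generators `x - c x` are topologically nilpotent on the WHOLE `ε⁰`-part (not only on the `G ε⁰`-part);
  (X3) `G = ∏_{q ∈ L} f q`, `f q` supported on the anemic variables and `X_{inr q}`, and `f q` is THE `a_q`-part projector
       of `U_q` on the `ε⁰`-part (`s59t_IsAlpha`).
-/
import Mathlib
import Fermat.Agent.Lib.S59.TLvlQ

set_option autoImplicit false
set_option linter.unusedSectionVars false
set_option linter.style.haveILetI false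
set_option synthInstance.maxHeartbeats 400000

noncomputable section

namespace Fermat.Agent.Lib.S59

open Matrix MatrixGroups CongruenceSubgroup IsLocalRing
open Fermat.Agent.Lib.S29 Fermat.Agent.Lib.S48 Fermat.Agent.Lib.S41

variable {𝒪 : Type} [CommRing 𝒪] [IsLocalRing 𝒪] [IsNoetherianRing 𝒪]
  [IsAdicComplete (maximalIdeal 𝒪) 𝒪]

/-- **the extended output of the Taylor–Wiles level package** at the level `(N', H')`. -/
def s59ex_LvlX (N' : ℕ) [NeZero N'] (H' : Subgroup (ZMod N')ˣ) (aq : ℕ → 𝒪)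
    (good : Set (s59w_AIdx N')) (c : s59w_AIdx N' → 𝒪) (L : List ℕ)
    (e₀ : MvPolynomial ↥good 𝒪) (G : MvPolynomial (s59w_AIdx N' ⊕ ℕ) 𝒪) : Prop :=
  1 - e₀ ∈ s59t_evalIdeal (fun x : ↥good => c x) ∧
  s59t_actH N' aq (dvd_refl N') H' (s59t_jG 𝒪 good e₀) *
      s59t_actH N' aq (dvd_refl N') H' (s59t_jG 𝒪 good e₀) =
    s59t_actH N' aq (dvd_refl N') H' (s59t_jG 𝒪 good e₀) ∧
  (∀ x ∈ good, ∃ n : ℕ, ∀ y : s48h_Hpar 𝒪 (s48h_GammaH N' H') 𝒪,
    ((s59w_op H' 𝒪 x - c x • (1 : Module.End 𝒪 (s48h_Hpar 𝒪 (s48h_GammaH N' H') 𝒪))) ^ n)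
      (s59t_actH N' aq (dvd_refl N') H' (s59t_jG 𝒪 good e₀) y) ∈
      (maximalIdeal 𝒪 • ⊤ : Submodule 𝒪 (s48h_Hpar 𝒪 (s48h_GammaH N' H') 𝒪))) ∧
  ∃ f : ℕ → MvPolynomial (s59w_AIdx N' ⊕ ℕ) 𝒪, G = (L.map f).prod ∧
    (∀ q, f q ∈ MvPolynomial.supported 𝒪
      (Set.range (Sum.inl : s59w_AIdx N' → s59w_AIdx N' ⊕ ℕ) ∪ {Sum.inr q})) ∧
    ∀ q, s59t_IsAlpha
      (Z := s59t_part (s59t_actH N' aq (dvd_refl N') H' (s59t_jG 𝒪 good e₀)))
      (s59t_partMap (ε := s59t_actH N' aq (dvd_refl N') H' (s59t_jG 𝒪 good e₀))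
        (ε' := s59t_actH N' aq (dvd_refl N') H' (s59t_jG 𝒪 good e₀))
        (s59t_actH N' aq (dvd_refl N') H' (MvPolynomial.X (Sum.inr q)))
        (s59t_alg_comm (s59t_actH N' aq (dvd_refl N') H') (s59t_jG 𝒪 good e₀)
          (MvPolynomial.X (Sum.inr q)))) (aq q)
      (s59t_partMap (ε := s59t_actH N' aq (dvd_refl N') H' (s59t_jG 𝒪 good e₀))
        (ε' := s59t_actH N' aq (dvd_refl N') H' (s59t_jG 𝒪 good e₀))
        (s59t_actH N' aq (dvd_refl N') H' (f q))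
        (s59t_alg_comm (s59t_actH N' aq (dvd_refl N') H') (s59t_jG 𝒪 good e₀) (f q)))

end Fermat.Agent.Lib.S59
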