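/-
PROGRAMME R2 = S59, node [FLR], `T`-side, block (Y1) (helper4, prefix `s59f_`): **the FULL
Taylor–Wiles idempotent `ε′ = actH (G · jG e₀)` of a higher level, pushed down, IS the native one.**

Levels `L₀ ∣ L₁`, `Γ_{H₁}(L₁) ≤ Γ_{H₀}(L₀)`, every prime dividing `L₁` but not `L₀` lies in `Bset`, and
the primes of the list `Lq` that divide `L₁` divide `L₀`.  From helper5's extended outputs
`s59ex_LvlX` (EXDef.lean) at both levels: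
* `s59f_alpha_eq` : the `a_q`-part projector polynomial of level `L₁`, pushed down, acts on the
  anemic part of level `L₀` as the native `a_q`-part projector (naturality of the `a`-part projector
  along the injective `res`, `s59t_alpha_natural`);
* **`s59f_eps_eq`** : `actH L₁ aq _ H₀ (G₁ * jG e₁) = actH L₀ aq _ H₀ (G₀ * jG e₀)` — contract (Y1) of
  helper5's #3756.
-/
import Mathlib
import Fermat.Agent.Lib.S59.FEps2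
import Fermat.Agent.Lib.S59.EXDef

set_option autoImplicit false
set_option linter.unusedSectionVars false
set_option linter.unusedVariables false
set_option linter.style.haveILetI false

noncomputable section

namespace Fermat.Agent.Lib.S59

open Matrix MatrixGroups CongruenceSubgroup IsLocalRing
open Fermat.Agent.Lib.S29 Fermat.Agent.Lib.S48 Fermat.Agent.Lib.S41

section Eps

variable {𝒪 : Type} [CommRing 𝒪] [IsDomain 𝒪] [IsDiscreteValuationRing 𝒪]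
  [IsAdicComplete (maximalIdeal 𝒪) 𝒪] [CharZero 𝒪]
  {L₀ L₁ : ℕ} [NeZero L₀] [NeZero L₁] (h01 : L₀ ∣ L₁)
  (H₀ : Subgroup (ZMod L₀)ˣ) (H₁ : Subgroup (ZMod L₁)ˣ)
  (hle : s48h_GammaH L₁ H₁ ≤ s48h_GammaH L₀ H₀) (Bset : Finset ℕ) (a : ℕ → ℤ) (aq : ℕ → 𝒪)

/-- the `U`-generators do not depend on the index level. -/
theorem s59f_opH_inr (q' : ℕ) :
    s59t_opH L₁ aq h01 H₀ (Sum.inr q') = s59t_opH L₀ aq (dvd_refl L₀) H₀ (Sum.inr q') := rfl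

include hle in
set_option maxHeartbeats 3200000 in
/-- **the `a_q`-part projector of level `L₁`, pushed down, is the native one on the anemic part.** -/
theorem s59f_alpha_eq (q' : ℕ) (hq' : q'.Prime → q' ∣ L₁ → q' ∣ L₀)
    (e₁ : MvPolynomial ↥(s59t_goodB L₁ Bset) 𝒪) (e₀ : MvPolynomial ↥(s59t_goodB L₀ Bset) 𝒪)
    (hε : s59t_actH L₁ aq h01 H₀ (s59t_jG 𝒪 (s59t_goodB L₁ Bset) e₁) =
      s59t_actH L₀ aq (dvd_refl L₀) H₀ (s59t_jG 𝒪 (s59t_goodB L₀ Bset) e₀))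
    (f₁ : MvPolynomial (s59w_AIdx L₁ ⊕ ℕ) 𝒪) (f₀ : MvPolynomial (s59w_AIdx L₀ ⊕ ℕ) 𝒪)
    (hs₁ : f₁ ∈ MvPolynomial.supported 𝒪
      (Set.range (Sum.inl : s59w_AIdx L₁ → s59w_AIdx L₁ ⊕ ℕ) ∪ {Sum.inr q'}))
    (hα₁ : s59t_IsAlpha
      (Z := s59t_part (s59t_actH L₁ aq (dvd_refl L₁) H₁ (s59t_jG 𝒪 (s59t_goodB L₁ Bset) e₁)))
      (s59t_partMap (ε := s59t_actH L₁ aq (dvd_refl L₁) H₁ (s59t_jG 𝒪 (s59t_goodB L₁ Bset) e₁))
        (ε' := s59t_actH L₁ aq (dvd_refl L₁) H₁ (s59t_jG 𝒪 (s59t_goodB L₁ Bset) e₁))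
        (s59t_actH L₁ aq (dvd_refl L₁) H₁ (MvPolynomial.X (Sum.inr q')))
        (s59t_alg_comm (s59t_actH L₁ aq (dvd_refl L₁) H₁) (s59t_jG 𝒪 (s59t_goodB L₁ Bset) e₁)
          (MvPolynomial.X (Sum.inr q')))) (aq q')
      (s59t_partMap (ε := s59t_actH L₁ aq (dvd_refl L₁) H₁ (s59t_jG 𝒪 (s59t_goodB L₁ Bset) e₁))
        (ε' := s59t_actH L₁ aq (dvd_refl L₁) H₁ (s59t_jG 𝒪 (s59t_goodB L₁ Bset) e₁))
        (s59t_actH L₁ aq (dvd_refl L₁) H₁ f₁)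
        (s59t_alg_comm (s59t_actH L₁ aq (dvd_refl L₁) H₁) (s59t_jG 𝒪 (s59t_goodB L₁ Bset) e₁) f₁)))
    (hα₀ : s59t_IsAlpha
      (Z := s59t_part (s59t_actH L₀ aq (dvd_refl L₀) H₀ (s59t_jG 𝒪 (s59t_goodB L₀ Bset) e₀)))
      (s59t_partMap (ε := s59t_actH L₀ aq (dvd_refl L₀) H₀ (s59t_jG 𝒪 (s59t_goodB L₀ Bset) e₀))
        (ε' := s59t_actH L₀ aq (dvd_refl L₀) H₀ (s59t_jG 𝒪 (s59t_goodB L₀ Bset) e₀))
        (s59t_actH L₀ aq (dvd_refl L₀) H₀ (MvPolynomial.X (Sum.inr q')))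
        (s59t_alg_comm (s59t_actH L₀ aq (dvd_refl L₀) H₀) (s59t_jG 𝒪 (s59t_goodB L₀ Bset) e₀)
          (MvPolynomial.X (Sum.inr q')))) (aq q')
      (s59t_partMap (ε := s59t_actH L₀ aq (dvd_refl L₀) H₀ (s59t_jG 𝒪 (s59t_goodB L₀ Bset) e₀))
        (ε' := s59t_actH L₀ aq (dvd_refl L₀) H₀ (s59t_jG 𝒪 (s59t_goodB L₀ Bset) e₀))
        (s59t_actH L₀ aq (dvd_refl L₀) H₀ f₀)
        (s59t_alg_comm (s59t_actH L₀ aq (dvd_refl L₀) H₀) (s59t_jG 𝒪 (s59t_goodB L₀ Bset) e₀) f₀)))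
    (y : s48h_Hpar 𝒪 (s48h_GammaH L₀ H₀) 𝒪) :
    s59t_actH L₁ aq h01 H₀ f₁
        (s59t_actH L₀ aq (dvd_refl L₀) H₀ (s59t_jG 𝒪 (s59t_goodB L₀ Bset) e₀) y) =
      s59t_actH L₀ aq (dvd_refl L₀) H₀ f₀
        (s59t_actH L₀ aq (dvd_refl L₀) H₀ (s59t_jG 𝒪 (s59t_goodB L₀ Bset) e₀) y) := by
  have hrinj : Function.Injective (s59t_resGHpar hle 𝒪 𝒪) := s59f_resGHpar_injective hle
  have hint := s59f_res_anemic h01 H₀ H₁ hle Bset aq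
  -- `res` maps the level-`L₀` anemic part to the level-`L₁` anemic part
  have hrε : ∀ z, s59t_actH L₁ aq (dvd_refl L₁) H₁ (s59t_jG 𝒪 (s59t_goodB L₁ Bset) e₁)
      (s59t_resGHpar hle 𝒪 𝒪 z) = s59t_resGHpar hle 𝒪 𝒪
        (s59t_actH L₀ aq (dvd_refl L₀) H₀ (s59t_jG 𝒪 (s59t_goodB L₀ Bset) e₀) z) := by
    intro z
    rw [← hε, hint]
  haveI := s59t_part_finite
    (s59t_actH L₀ aq (dvd_refl L₀) H₀ (s59t_jG 𝒪 (s59t_goodB L₀ Bset) e₀))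
  haveI := s59t_part_finite
    (s59t_actH L₁ aq (dvd_refl L₁) H₁ (s59t_jG 𝒪 (s59t_goodB L₁ Bset) e₁))
  -- intertwining of the pushed-down polynomials supported on the anemic variables and `U_{q'}`
  have hS : ∀ j ∈ (Set.range (Sum.inl : s59w_AIdx L₁ → s59w_AIdx L₁ ⊕ ℕ) ∪ {Sum.inr q'}),
      ∀ q'' : ℕ, j = Sum.inr q'' → q''.Prime → q'' ∣ L₁ → q'' ∣ L₀ := by
    rintro j (⟨x, rfl⟩ | hj) q'' hq''
    · cases hq''
    · rw [Set.mem_singleton_iff] at hj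
      rw [hj] at hq''
      cases hq''
      exact hq'
  have hUint : ∀ z, s59t_resGHpar hle 𝒪 𝒪
      (s59t_actH L₀ aq (dvd_refl L₀) H₀ (MvPolynomial.X (Sum.inr q')) z) =
      s59t_actH L₁ aq (dvd_refl L₁) H₁ (MvPolynomial.X (Sum.inr q'))
        (s59t_resGHpar hle 𝒪 𝒪 z) := by
    intro z
    rw [s59t_actH_X, s59t_actH_X, ← s59f_opH_inr h01 H₀ aq q']
    exact s59t_opH_resG aq h01 (dvd_refl L₁) H₀ H₁ hle h01 (Sum.inr q')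
      (fun q'' hq'' => by cases hq''; exact hq') z
  have hnat := s59t_alpha_natural hα₀ hα₁
    (s59t_partMap (ε := s59t_actH L₀ aq (dvd_refl L₀) H₀ (s59t_jG 𝒪 (s59t_goodB L₀ Bset) e₀))
      (ε' := s59t_actH L₁ aq (dvd_refl L₁) H₁ (s59t_jG 𝒪 (s59t_goodB L₁ Bset) e₁))
      (s59t_resGHpar hle 𝒪 𝒪) hrε)
    (fun z => Subtype.ext (hUint z.1))
    ⟨_, ⟨y, rfl⟩⟩
  have hnat' := congrArg Subtype.val hnat
  rw [s59t_partMap_coe, s59t_partMap_coe, s59t_partMap_coe, s59t_partMap_coe] at hnat'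
  apply hrinj
  rw [s59t_actH_resG aq h01 (dvd_refl L₁) H₀ H₁ hle h01 _ hS hs₁]
  exact hnat'.symm

include hle in
set_option maxHeartbeats 3200000 in
/-- **contract (Y1)**: the Taylor–Wiles idempotent of level `L₁`, pushed down to `(L₀, H₀)`, is the
native Taylor–Wiles idempotent of level `L₀`. -/
theorem s59f_eps_eq
    (hB : ∀ ℓ : ℕ, ℓ.Prime → ℓ ∣ L₁ → ¬ ℓ ∣ L₀ → ℓ ∈ Bset)
    (Lq : List ℕ) (hLq : ∀ q' ∈ Lq, q'.Prime → q' ∣ L₁ → q' ∣ L₀)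
    {e₀ : MvPolynomial ↥(s59t_goodB L₀ Bset) 𝒪} {G₀ : MvPolynomial (s59w_AIdx L₀ ⊕ ℕ) 𝒪}
    {e₁ : MvPolynomial ↥(s59t_goodB L₁ Bset) 𝒪} {G₁ : MvPolynomial (s59w_AIdx L₁ ⊕ ℕ) 𝒪}
    (hX₀ : s59ex_LvlX L₀ H₀ aq (s59t_goodB L₀ Bset) (s59t_cB L₀ a) Lq e₀ G₀)
    (hX₁ : s59ex_LvlX L₁ H₁ aq (s59t_goodB L₁ Bset) (s59t_cB L₁ a) Lq e₁ G₁) :
    s59t_actH L₁ aq h01 H₀ (G₁ * s59t_jG 𝒪 (s59t_goodB L₁ Bset) e₁) =
      s59t_actH L₀ aq (dvd_refl L₀) H₀ (G₀ * s59t_jG 𝒪 (s59t_goodB L₀ Bset) e₀) := by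
  obtain ⟨h1e₀, hid₀, hnil₀, f₀, hG₀, hs₀, hα₀⟩ := hX₀
  obtain ⟨h1e₁, hid₁, hnil₁, f₁, hG₁, hs₁, hα₁⟩ := hX₁
  have hε := s59f_anemic_eq h01 H₀ H₁ hle Bset a aq hB e₁ h1e₁ hid₁ hnil₁ e₀ h1e₀ hid₀ hnil₀
  rw [map_mul, map_mul, hε, hG₁, hG₀, map_list_prod, map_list_prod, List.map_map, List.map_map]
  have hcomm₁ : ∀ A ∈ Lq.map (⇑(s59t_actH L₁ aq h01 H₀) ∘ f₁),
      A * s59t_actH L₀ aq (dvd_refl L₀) H₀ (s59t_jG 𝒪 (s59t_goodB L₀ Bset) e₀) =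
        s59t_actH L₀ aq (dvd_refl L₀) H₀ (s59t_jG 𝒪 (s59t_goodB L₀ Bset) e₀) * A := by
    intro A hA
    obtain ⟨q', -, rfl⟩ := List.mem_map.mp hA
    rw [← hε, Function.comp_apply, ← map_mul, ← map_mul, mul_comm]
  have hcomm₀ : ∀ A ∈ Lq.map (⇑(s59t_actH L₀ aq (dvd_refl L₀) H₀) ∘ f₀),
      A * s59t_actH L₀ aq (dvd_refl L₀) H₀ (s59t_jG 𝒪 (s59t_goodB L₀ Bset) e₀) =
        s59t_actH L₀ aq (dvd_refl L₀) H₀ (s59t_jG 𝒪 (s59t_goodB L₀ Bset) e₀) * A := by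
    intro A hA
    obtain ⟨q', -, rfl⟩ := List.mem_map.mp hA
    rw [Function.comp_apply, ← map_mul, ← map_mul, mul_comm]
  rw [s59f_list_prod_idem _ hid₀ _ hcomm₁, s59f_list_prod_idem _ hid₀ _ hcomm₀, List.map_map,
    List.map_map]
  congr 2
  refine List.map_congr_left fun q' hq' => ?_
  refine LinearMap.ext fun y => ?_
  simp only [Function.comp_apply, Module.End.mul_apply]
  exact s59f_alpha_eq h01 H₀ H₁ hle Bset aq q' (hLq q' hq') e₁ e₀ hε (f₁ q') (f₀ q') (hs₁ q')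
    (hα₁ q') (hα₀ q') y

end Eps

end Fermat.Agent.Lib.S59
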