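/-
PROGRAMME R2 = S59, node [FLR], `T`-side, **the `Γ_H`-level old/new package: adapters to the
operator families of the Taylor–Wiles levels** (helper4, prefix `s59f_`).
* `s59f_compat_smul` : scalars commute with every package;
* `s59f_oldH_compat_wop` : the package `s59f_oldH` (coefficients `A = R`) commutes with the anemic
  generators `s59w_op` of a common top level `Nt` (`L q ∣ Nt`);
* **`s59f_oldH_compat_opH`** : … with helper8's family `s59t_opH Nt aq _ _ idx` for every index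
  `idx ≠ Sum.inr q`;
* `s59f_oldH_compat_rho` : … with the diamond representations `s59t_rho`;
* `s59f_pi_compat_up`, `s59f_pi_compat_down` : a level-changing map commutes with the control maps
  `π` (characterised by `ι ∘ π = norm`, `ι` injective).
-/
import Mathlib
import Fermat.Agent.Lib.S59.FOldH8
import Fermat.Agent.Lib.S59.TGHOps

set_option autoImplicit false
set_option linter.unusedSectionVars false
set_option linter.unusedVariables false
set_option linter.style.haveILetI false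

noncomputable section

namespace Fermat.Agent.Lib.S59

open CongruenceSubgroup ModularCurve.Period
open Fermat.Agent.Lib.ES Fermat.Agent.Lib.S29 Fermat.Agent.Lib.S41 Fermat.Agent.Lib.S48
open scoped MatrixGroups OnePoint

local notation "Mat2" => Matrix (Fin 2) (Fin 2) ℤ

section Smul

variable {R : Type*} [CommRing R] {Y Z : Type*} [AddCommGroup Y] [Module R Y]
  [AddCommGroup Z] [Module R Z]

/-- scalars commute with every package. -/
theorem s59f_compat_smul (D : s59t_Old R Y Z) (c : R) :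
    D.Compat (c • (1 : Module.End R Y)) (c • (1 : Module.End R Z)) where
  resA y := by simp
  resB y := by simp
  corA z := by simp
  corB z := by simp
  T y := by simp
  U z := by simp
  w z := by simp

end Smul

section Ops

variable {L q : ℕ} [NeZero L] [hq : Fact q.Prime] (hqL : ¬ q ∣ L) {H : Subgroup (ZMod L)ˣ}
  {H' : Subgroup (ZMod (L * q))ˣ} (hG' : s59f_IsG' L q H (s48h_GammaH (L * q) H'))
  {R : Type*} [CommRing R] (e : SL(2, ℤ)) (he' : e ∈ Gamma0 (L * q))
  (hee : s59f_gW hqL * e * e ∈ s48h_GammaH (L * q) H')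
  {Nt : ℕ} (hLt : L ∣ Nt) (hLqt : L * q ∣ Nt)

/-- **the package commutes with the anemic generators of a common top level.** -/
theorem s59f_oldH_compat_wop (x : s59w_AIdx Nt) :
    haveI : NeZero (L * q) := ⟨Nat.mul_ne_zero (NeZero.ne L) hq.out.ne_zero⟩
    (s59f_oldH hqL hG' R R e he' hee).Compat (s59w_op H R (s59t_AIdx_down hLt x))
      (s59w_op H' R (s59t_AIdx_down hLqt x)) := by
  rcases x with i | τ
  · obtain ⟨ℓ, hp, hℓ, σ, hσ, h11⟩ := i
    haveI : Fact ℓ.Prime := ⟨hp⟩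
    have hℓ' : ¬ ℓ ∣ L * q := fun h => hℓ (dvd_trans h hLqt)
    have hℓL : ¬ ℓ ∣ L := fun h => hℓ (dvd_trans h hLt)
    exact s59f_oldH_compat_Tp hqL hG' e he' hee hℓ' hℓL
      (s59t_TIdx_down hLqt ⟨ℓ, hp, hℓ, σ, hσ, h11⟩).mem (s59t_TIdx_down hLqt ⟨ℓ, hp, hℓ, σ, hσ, h11⟩).lr
      (s59t_TIdx_down hLt ⟨ℓ, hp, hℓ, σ, hσ, h11⟩).mem (s59t_TIdx_down hLt ⟨ℓ, hp, hℓ, σ, hσ, h11⟩).lr
  · exact s59f_oldH_compat_diamond hqL hG' e he' hee _ _

/-- **the package commutes with helper8's operator family `s59t_opH`** at every index except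
`U_q`/`a_q`. -/
theorem s59f_oldH_compat_opH (aq : ℕ → R) (idx : s59w_AIdx Nt ⊕ ℕ) (hidx : idx ≠ Sum.inr q) :
    haveI : NeZero (L * q) := ⟨Nat.mul_ne_zero (NeZero.ne L) hq.out.ne_zero⟩
    (s59f_oldH hqL hG' R R e he' hee).Compat (s59t_opH Nt aq hLt H idx)
      (s59t_opH Nt aq hLqt H' idx) := by
  haveI : NeZero (L * q) := ⟨Nat.mul_ne_zero (NeZero.ne L) hq.out.ne_zero⟩
  rcases idx with x | q'
  · exact s59f_oldH_compat_wop hqL hG' e he' hee hLt hLqt x
  · by_cases h : q'.Prime ∧ q' ∣ L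
    · have h' : q'.Prime ∧ q' ∣ L * q := ⟨h.1, Dvd.dvd.mul_right h.2 q⟩
      rw [s59t_opH_U_pos Nt aq hLt H h, s59t_opH_U_pos Nt aq hLqt H' h']
      haveI : Fact q'.Prime := ⟨h.1⟩
      exact s59f_oldH_compat_Uq hqL hG' e he' hee h'.2 h.2
    · have h' : ¬ (q'.Prime ∧ q' ∣ L * q) := by
        rintro ⟨hp, hd⟩
        rcases (Nat.Prime.dvd_mul hp).mp hd with h1 | h1
        · exact h ⟨hp, h1⟩
        · exact hidx (by rw [(Nat.prime_dvd_prime_iff_eq hp hq.out).mp h1])
      rw [s59t_opH_U_neg Nt aq hLt H h, s59t_opH_U_neg Nt aq hLqt H' h']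
      exact s59f_compat_smul _ _

end Ops

section Rho

variable {L q : ℕ} [NeZero L] [hq : Fact q.Prime] (hqL : ¬ q ∣ L) {H : Subgroup (ZMod L)ˣ}
  {H' : Subgroup (ZMod (L * q))ˣ} (hG' : s59f_IsG' L q H (s48h_GammaH (L * q) H'))
  {R : Type*} [CommRing R] {A : Type*} [AddCommGroup A] [Module R A]
  (e : SL(2, ℤ)) (he' : e ∈ Gamma0 (L * q))
  (hee : s59f_gW hqL * e * e ∈ s48h_GammaH (L * q) H')

/-- **the package commutes with the diamond representations.** -/
theorem s59f_oldH_compat_rho (h0 : Gamma0 (L * q) ≤ Gamma0 L)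
    (hle : s48h_GammaH (L * q) H' ≤ s48h_GammaH L H) :
    haveI : NeZero (L * q) := ⟨Nat.mul_ne_zero (NeZero.ne L) hq.out.ne_zero⟩
    ∀ δ' : s59t_Delta (L * q) H',
    (s59f_oldH hqL hG' R A e he' hee).Compat (s59t_rho L H R A (s59t_DeltaMap2 h0 hle δ'))
      (s59t_rho (L * q) H' R A δ') := by
  haveI : NeZero (L * q) := ⟨Nat.mul_ne_zero (NeZero.ne L) hq.out.ne_zero⟩
  intro δ'
  obtain ⟨τ, rfl⟩ := QuotientGroup.mk_surjective δ'
  exact s59f_oldH_compat_diamond hqL hG' e he' hee (inv_mem τ.2) (inv_mem (h0 τ.2))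

end Rho

/-! ### Compatibility with the control maps -/

section Pi

variable {P P' Pq Pq' : Type*}

/-- a level-raising map `f' : P' → Pq'` over `f : P → Pq` commutes with the control maps. -/
theorem s59f_pi_compat_up (ι : P → P') (ιq : Pq → Pq') (hιq : Function.Injective ιq)
    (𝒩 : P' → P') (𝒩q : Pq' → Pq') (π : P' → P) (πq : Pq' → Pq)
    (hπ : ∀ y, ι (π y) = 𝒩 y) (hπq : ∀ y, ιq (πq y) = 𝒩q y)
    (f : P → Pq) (f' : P' → Pq') (hf : ∀ x, ιq (f x) = f' (ι x))
    (hN : ∀ y, f' (𝒩 y) = 𝒩q (f' y)) (y : P') : πq (f' y) = f (π y) :=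
  hιq (by rw [hπq, hf, hπ, hN])

/-- a level-lowering map `g' : Pq' → P'` over `g : Pq → P` commutes with the control maps. -/
theorem s59f_pi_compat_down (ι : P → P') (ιq : Pq → Pq') (hι : Function.Injective ι)
    (𝒩 : P' → P') (𝒩q : Pq' → Pq') (π : P' → P) (πq : Pq' → Pq)
    (hπ : ∀ y, ι (π y) = 𝒩 y) (hπq : ∀ y, ιq (πq y) = 𝒩q y)
    (g : Pq → P) (g' : Pq' → P') (hg : ∀ x, ι (g x) = g' (ιq x))
    (hN : ∀ z, g' (𝒩q z) = 𝒩 (g' z)) (z : Pq') : π (g' z) = g (πq z) :=
  hι (by rw [hπ, hg, hπq, hN])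

end Pi

end Fermat.Agent.Lib.S59
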