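/-
PROGRAMME R2 = S59, node [FLR], `T`-side, block (Y), SHAPE REQUEST of helper5's #3756 (helper4,
prefix `s59f_`): **the `Γ_H`-level old/new package for a level `N'` with `hN' : N' = L * q`** (no
module has to be cast: helper5's level-`(t+1)` module is `H_par(Γ_{H'}(N₀ * q * ∏ qv), 𝒪)`).

The data `res`, `cor`, `w`, `⟨e⟩` are defined for ANY `N'` (they only use
`hG' : s59f_IsG' L q H (s48h_GammaH N' H')`); the proofs substitute `hN'` and quote `FOldH7–9`.
* `s59f_resN`, `s59f_corN`, `s59f_wN`, `s59f_wtN`, **`s59f_oldN`**; for `hN' = rfl` it is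
  `s59f_oldH` (`s59f_oldN_eq`);
* `s59f_oldN_resA/_corA/_w/_qq`, `s59f_oldN_T : T = ⟨e⟩ T_q`, `s59f_oldN_U : U = U_q ⟨e⟩`;
* `s59f_oldN_compat_wop`, **`s59f_oldN_compat_opH`** (every index `≠ inr q` of a common top level
  `Nt`), `s59f_oldN_compat_rho`;
* `s59f_compat_polyAct` (abstract) and **`s59f_oldN_compat_actH`** : the package commutes with the
  polynomial Hecke operators `s59t_actH Nt aq _ _ t`, `t` supported away from `inr q`;
* **`s59f_oldN_hom`** : restriction from a lower level `(L₀, H₀)` intertwines the two packages.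
-/
import Mathlib
import Fermat.Agent.Lib.S59.FOldH9

set_option autoImplicit false
set_option linter.unusedSectionVars false
set_option linter.unusedVariables false
set_option linter.style.haveILetI false

noncomputable section

namespace Fermat.Agent.Lib.S59

open CongruenceSubgroup ModularCurve.Period
open Fermat.Agent.Lib.ES Fermat.Agent.Lib.S29 Fermat.Agent.Lib.S41 Fermat.Agent.Lib.S48
open scoped MatrixGroups OnePoint

local notation "Mat2" => Matrix (Fin 2) (Fin 2) ℤ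

/-! ### Polynomials in compatible operators -/

section Poly

variable {R : Type*} [CommRing R] {Y Z : Type*} [AddCommGroup Y] [Module R Y]
  [AddCommGroup Z] [Module R Z] (D : s59t_Old R Y Z) {I : Type*}

/-- **the package commutes with the polynomials in compatible operators.** -/
theorem s59f_compat_polyAct (op : I → Module.End R Y) (hc : ∀ i j, op i * op j = op j * op i)
    (op' : I → Module.End R Z) (hc' : ∀ i j, op' i * op' j = op' j * op' i) (S : Set I)
    (h : ∀ i ∈ S, D.Compat (op i) (op' i)) {t : MvPolynomial I R}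
    (ht : t ∈ MvPolynomial.supported R S) :
    D.Compat (s59t_polyAct op hc t) (s59t_polyAct op' hc' t) where
  resA y := (s59t_polyAct_intertwine_supported op hc op' hc' S D.resA
    (fun i hi z => ((h i hi).resA z).symm) ht y).symm
  resB y := (s59t_polyAct_intertwine_supported op hc op' hc' S D.resB
    (fun i hi z => ((h i hi).resB z).symm) ht y).symm
  corA z := (s59t_polyAct_intertwine_supported op' hc' op hc S D.corA
    (fun i hi z => ((h i hi).corA z).symm) ht z).symm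
  corB z := (s59t_polyAct_intertwine_supported op' hc' op hc S D.corB
    (fun i hi z => ((h i hi).corB z).symm) ht z).symm
  T y := (s59t_polyAct_intertwine_supported op hc op hc S D.T
    (fun i hi z => ((h i hi).T z).symm) ht y).symm
  U z := (s59t_polyAct_intertwine_supported op' hc' op' hc' S D.U
    (fun i hi z => ((h i hi).U z).symm) ht z).symm
  w z := (s59t_polyAct_intertwine_supported op' hc' op' hc' S D.w
    (fun i hi z => ((h i hi).w z).symm) ht z).symm

end Poly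

/-! ### The package at a level `N' = L q` -/

section Def

variable {L q N' : ℕ} [NeZero L] [NeZero N'] [hq : Fact q.Prime] (hqL : ¬ q ∣ L)
  (hN' : N' = L * q) {H : Subgroup (ZMod L)ˣ} {H' : Subgroup (ZMod N')ˣ}
  (hG' : s59f_IsG' L q H (s48h_GammaH N' H'))
  (R : Type*) [CommRing R] (A : Type*) [AddCommGroup A] [Module R A]

/-- restriction `H(Γ_H(L), A) → H(Γ_{H'}(N'), A)`. -/
def s59f_resN : s48h_Hpar R (s48h_GammaH L H) A →ₗ[R] s48h_Hpar R (s48h_GammaH N' H') A :=
  s59t_resGHpar (hG'.le (s59f_isG_GammaH L H)) R A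

/-- the transfer `H(Γ_{H'}(N'), A) → H(Γ_H(L), A)`. -/
def s59f_corN : s48h_Hpar R (s48h_GammaH N' H') A →ₗ[R] s48h_Hpar R (s48h_GammaH L H) A :=
  s59f_opHpar R (s59f_famCorA hqL (s59f_isG_GammaH L H) hG')
    (fun x => by rw [s59f_famCorA_g, s59f_rA_det]; exact one_ne_zero)

/-- the Atkin–Lehner operator on `H(Γ_{H'}(N'), A)`. -/
def s59f_wN : Module.End R (s48h_Hpar R (s48h_GammaH N' H') A) :=
  (s59f_WDatum hqL hG').heckeHpar R

/-- the normalised Atkin–Lehner operator `w̃ = ⟨e⟩ ∘ w`. -/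
def s59f_wtN (e : SL(2, ℤ)) (he' : e ∈ Gamma0 N') :
    Module.End R (s48h_Hpar R (s48h_GammaH N' H') A) :=
  s59f_diaL R A H' e he' ∘ₗ s59f_wN hqL hG' R A

include hN' in
theorem s59f_corN_resN (y : s48h_Hpar R (s48h_GammaH L H) A) :
    s59f_corN hqL hG' R A (s59f_resN hG' R A y) = ((q : R) + 1) • y := by
  subst hN'
  exact s59f_corL_resL hqL hG' R A y

include hN' in
theorem s59f_wtN_wtN (e : SL(2, ℤ)) (he' : e ∈ Gamma0 N')
    (hee : s59f_gW hqL * e * e ∈ s48h_GammaH N' H')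
    (z : s48h_Hpar R (s48h_GammaH N' H') A) :
    s59f_wtN hqL hG' R A e he' (s59f_wtN hqL hG' R A e he' z) = z := by
  subst hN'
  exact s59f_wtL_wtL hqL hG' R A e he' hee z

/-- **the old/new package at `Γ_H`-level, level `N' = L q`.** -/
def s59f_oldN (e : SL(2, ℤ)) (he' : e ∈ Gamma0 N')
    (hee : s59f_gW hqL * e * e ∈ s48h_GammaH N' H') :
    s59t_Old R (s48h_Hpar R (s48h_GammaH L H) A) (s48h_Hpar R (s48h_GammaH N' H') A) :=
  s59f_oldOfW (q : R) (s59f_resN hG' R A) (s59f_corN hqL hG' R A) (s59f_wtN hqL hG' R A e he')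
    (s59f_corN_resN hqL hN' hG' R A) (s59f_wtN_wtN hqL hN' hG' R A e he' hee)

end Def

section Basic

variable {L q : ℕ} [NeZero L] [hq : Fact q.Prime] (hqL : ¬ q ∣ L)
  {H : Subgroup (ZMod L)ˣ}
  {R : Type*} [CommRing R] {A : Type*} [AddCommGroup A] [Module R A]

/-- for `N' = L * q` on the nose it is `s59f_oldH`. -/
theorem s59f_oldN_eq [NeZero (L * q)] {H' : Subgroup (ZMod (L * q))ˣ}
    (hG' : s59f_IsG' L q H (s48h_GammaH (L * q) H')) (e : SL(2, ℤ))
    (he' : e ∈ Gamma0 (L * q)) (hee : s59f_gW hqL * e * e ∈ s48h_GammaH (L * q) H') :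
    s59f_oldN hqL rfl hG' R A e he' hee = s59f_oldH hqL hG' R A e he' hee := rfl

variable {N' : ℕ} [NeZero N'] (hN' : N' = L * q) {H' : Subgroup (ZMod N')ˣ}
  (hG' : s59f_IsG' L q H (s48h_GammaH N' H'))
  (e : SL(2, ℤ)) (he' : e ∈ Gamma0 N') (hee : s59f_gW hqL * e * e ∈ s48h_GammaH N' H')

@[simp] theorem s59f_oldN_qq : (s59f_oldN hqL hN' hG' R A e he' hee).qq = (q : R) := rfl

theorem s59f_oldN_resA (hle : s48h_GammaH N' H' ≤ s48h_GammaH L H) :
    (s59f_oldN hqL hN' hG' R A e he' hee).resA = s59t_resGHpar hle R A := rfl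

theorem s59f_oldN_corA :
    (s59f_oldN hqL hN' hG' R A e he' hee).corA = s59f_corN hqL hG' R A := rfl

theorem s59f_oldN_w :
    (s59f_oldN hqL hN' hG' R A e he' hee).w = s59f_wtN hqL hG' R A e he' := rfl

/-- **`T = ⟨e⟩ ∘ T_q`** (`T_q` with `σ_q = γ_W`). -/
theorem s59f_oldN_T (he : e ∈ Gamma0 L) (y : s48h_Hpar R (s48h_GammaH L H) A) :
    (s59f_oldN hqL hN' hG' R A e he' hee).T y =
      s59f_diaL R A H e he
        ((s48h_TpDatum H hqL (s59f_gW hqL) (s59f_gW_mem_L hqL) (s59f_gW_lr hqL)).heckeHpar R y) := by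
  subst hN'
  exact s59f_oldH_T hqL hG' e he' hee he y

/-- **`U = U_q ∘ ⟨e⟩`.** -/
theorem s59f_oldN_U (hqN' : q ∣ N') (z : s48h_Hpar R (s48h_GammaH N' H') A) :
    (s59f_oldN hqL hN' hG' R A e he' hee).U z =
      (s59w_UqDatum H' hqN').heckeHpar R (s59f_diaL R A H' e he' z) := by
  subst hN'
  exact s59f_oldH_U hqL hG' e he' hee hqN' z

/-- **the package commutes with the diamond representations.** -/
theorem s59f_oldN_compat_rho (h0 : Gamma0 N' ≤ Gamma0 L)
    (hle : s48h_GammaH N' H' ≤ s48h_GammaH L H) (δ' : s59t_Delta N' H') :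
    (s59f_oldN hqL hN' hG' R A e he' hee).Compat (s59t_rho L H R A (s59t_DeltaMap2 h0 hle δ'))
      (s59t_rho N' H' R A δ') := by
  subst hN'
  exact s59f_oldH_compat_rho hqL hG' e he' hee h0 hle δ'

end Basic

section Ops

variable {L q : ℕ} [NeZero L] [hq : Fact q.Prime] (hqL : ¬ q ∣ L)
  {H : Subgroup (ZMod L)ˣ} {R : Type*} [CommRing R]
  {N' : ℕ} [NeZero N'] (hN' : N' = L * q) {H' : Subgroup (ZMod N')ˣ}
  (hG' : s59f_IsG' L q H (s48h_GammaH N' H'))
  (e : SL(2, ℤ)) (he' : e ∈ Gamma0 N') (hee : s59f_gW hqL * e * e ∈ s48h_GammaH N' H')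
  {Nt : ℕ} (hLt : L ∣ Nt) (hN't : N' ∣ Nt)

/-- **the package commutes with the anemic generators of a common top level.** -/
theorem s59f_oldN_compat_wop (x : s59w_AIdx Nt) :
    (s59f_oldN hqL hN' hG' R R e he' hee).Compat (s59w_op H R (s59t_AIdx_down hLt x))
      (s59w_op H' R (s59t_AIdx_down hN't x)) := by
  subst hN'
  exact s59f_oldH_compat_wop hqL hG' e he' hee hLt hN't x

/-- **the package commutes with helper8's operator family `s59t_opH`** at every index except
`U_q`/`a_q`. -/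
theorem s59f_oldN_compat_opH (aq : ℕ → R) (idx : s59w_AIdx Nt ⊕ ℕ) (hidx : idx ≠ Sum.inr q) :
    (s59f_oldN hqL hN' hG' R R e he' hee).Compat (s59t_opH Nt aq hLt H idx)
      (s59t_opH Nt aq hN't H' idx) := by
  subst hN'
  exact s59f_oldH_compat_opH hqL hG' e he' hee hLt hN't aq idx hidx

/-- **the package commutes with the polynomial Hecke operators** supported away from `U_q`. -/
theorem s59f_oldN_compat_actH (aq : ℕ → R) {t : MvPolynomial (s59w_AIdx Nt ⊕ ℕ) R}
    (ht : t ∈ MvPolynomial.supported R {idx : s59w_AIdx Nt ⊕ ℕ | idx ≠ Sum.inr q}) :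
    (s59f_oldN hqL hN' hG' R R e he' hee).Compat (s59t_actH Nt aq hLt H t)
      (s59t_actH Nt aq hN't H' t) :=
  s59f_compat_polyAct _ _ _ _ _ _
    (fun idx hidx => s59f_oldN_compat_opH hqL hN' hG' e he' hee hLt hN't aq idx hidx) ht

end Ops

/-! ### Restriction from a lower level -/

section Hom

variable {L₀ L q : ℕ} [NeZero L₀] [NeZero L] [hq : Fact q.Prime] (hqL₀ : ¬ q ∣ L₀) (hqL : ¬ q ∣ L)
  (hL : L₀ ∣ L) {H₀ : Subgroup (ZMod L₀)ˣ} {H : Subgroup (ZMod L)ˣ}
  {N₀' N' : ℕ} [NeZero N₀'] [NeZero N'] (hN₀' : N₀' = L₀ * q) (hN' : N' = L * q)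
  {H₀' : Subgroup (ZMod N₀')ˣ} {H' : Subgroup (ZMod N')ˣ}
  (hG₀' : s59f_IsG' L₀ q H₀ (s48h_GammaH N₀' H₀'))
  (hG' : s59f_IsG' L q H (s48h_GammaH N' H'))
  (hle : s48h_GammaH L H ≤ s48h_GammaH L₀ H₀)
  (hle' : s48h_GammaH N' H' ≤ s48h_GammaH N₀' H₀')
  (R : Type*) [CommRing R] (A : Type*) [AddCommGroup A] [Module R A]
  (e : SL(2, ℤ)) (he₀' : e ∈ Gamma0 N₀') (he' : e ∈ Gamma0 N')
  (hee₀ : s59f_gW hqL₀ * e * e ∈ s48h_GammaH N₀' H₀')
  (hee : s59f_gW hqL * e * e ∈ s48h_GammaH N' H')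

include hL in
/-- **restriction from the level `(L₀, H₀)` to the level `(L, H)` intertwines the two old/new
packages.** -/
theorem s59f_oldN_hom :
    s59f_OldHom (s59f_oldN hqL₀ hN₀' hG₀' R A e he₀' hee₀) (s59f_oldN hqL hN' hG' R A e he' hee)
      (s59t_resGHpar hle R A) (s59t_resGHpar hle' R A) := by
  subst hN₀' hN'
  exact s59f_oldH_hom hqL₀ hqL hL hG₀' hG' hle hle' R A e he₀' he' hee₀ hee

end Hom

end Fermat.Agent.Lib.S59
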