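/-
PROGRAMME R2 = S59, node [FLR], `T`-side, block (Y2) of helper5's #3756 (helper4, prefix `s59f_`):
**the old/new package on the parts of the Taylor–Wiles idempotents.**

`L`, `q ∤ L` prime, `q ∈ Bset`, `N' = L q`, `H'` the preimage of `H`; `Lq` a list of primes with
`q ∉ Lq` (the Taylor–Wiles primes).
* `s59f_compat_restrict` : operators compatible with the package and commuting with compatible
  idempotents are compatible with the restricted package;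
* `s59f_OldHom.restrict` : a morphism of packages induces a morphism of the restricted packages
  through `ι = ε' ∘ ρ` (`s59t_iotaH`);
* **`s59f_oldN_compat_eps`** : `(s59f_oldN …).Compat ε′_t ε′_{t+1}` for the Taylor–Wiles
  idempotents `ε′ = actH (G · jG e₀)` of two levels satisfying helper5's `s59ex_LvlX` (by (Y1) =
  `s59f_eps_eq`);
* **`s59f_oldN_compat_E0`** : the base analogue with `s59t_E0` (by (Y0) = `s59f_anemic_eq_E0`).
-/
import Mathlib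
import Fermat.Agent.Lib.S59.FEps3
import Fermat.Agent.Lib.S59.FEps4
import Fermat.Agent.Lib.S59.TTWH

set_option autoImplicit false
set_option linter.unusedSectionVars false
set_option linter.unusedVariables false
set_option linter.style.haveILetI false

noncomputable section

namespace Fermat.Agent.Lib.S59

open Matrix MatrixGroups CongruenceSubgroup IsLocalRing
open Fermat.Agent.Lib.S29 Fermat.Agent.Lib.S48 Fermat.Agent.Lib.S41

/-! ### Restriction of compatibilities and of morphisms to the parts -/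

section Abs

variable {R : Type*} [CommRing R] {Y Z : Type*} [AddCommGroup Y] [Module R Y]
  [AddCommGroup Z] [Module R Z] {D : s59t_Old R Y Z}
  {ε : Module.End R Y} {ε' : Module.End R Z}

/-- operators compatible with the package and commuting with the idempotents are compatible with
the restricted package. -/
theorem s59f_compat_restrict (h : D.Compat ε ε') {X : Module.End R Y} {X' : Module.End R Z}
    (hX : D.Compat X X') (hεX : ∀ y, ε (X y) = X (ε y)) (hεX' : ∀ z, ε' (X' z) = X' (ε' z)) :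
    (D.restrict h).Compat (s59t_partMap X hεX) (s59t_partMap X' hεX') where
  resA y := Subtype.ext (hX.resA y.1)
  resB y := Subtype.ext (hX.resB y.1)
  corA z := Subtype.ext (hX.corA z.1)
  corB z := Subtype.ext (hX.corB z.1)
  T y := Subtype.ext (hX.T y.1)
  U z := Subtype.ext (hX.U z.1)
  w z := Subtype.ext (hX.w z.1)

variable {Y₀ Z₀ : Type*} [AddCommGroup Y₀] [Module R Y₀] [AddCommGroup Z₀] [Module R Z₀]
  {D₀ : s59t_Old R Y₀ Z₀} {ε₀ : Module.End R Y₀} {ε₀' : Module.End R Z₀}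

/-- **a morphism of packages induces a morphism of the restricted packages** through
`ι = ε ∘ ρ`. -/
theorem s59f_OldHom.restrict {ρY : Y₀ →ₗ[R] Y} {ρZ : Z₀ →ₗ[R] Z} (hρ : s59f_OldHom D₀ D ρY ρZ)
    (h₀ : D₀.Compat ε₀ ε₀') (h : D.Compat ε ε') :
    s59f_OldHom (D₀.restrict h₀) (D.restrict h) (s59t_iotaH ε₀ ε ρY) (s59t_iotaH ε₀' ε' ρZ) := by
  refine s59f_OldHom.of_three _ _ _ _ (fun y => Subtype.ext ?_) (fun z => Subtype.ext ?_)
    (fun z => Subtype.ext ?_)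
  · show ε' (ρZ (D₀.resA y.1)) = D.resA (ε (ρY y.1))
    rw [hρ.resA, h.resA]
  · show ε (ρY (D₀.corA z.1)) = D.corA (ε' (ρZ z.1))
    rw [hρ.corA, h.corA]
  · show ε' (ρZ (D₀.w z.1)) = D.w (ε' (ρZ z.1))
    rw [hρ.w, h.w]

end Abs

/-! ### The Taylor–Wiles idempotents -/

section Eps

variable {𝒪 : Type} [CommRing 𝒪] [IsDomain 𝒪] [IsDiscreteValuationRing 𝒪]
  [IsAdicComplete (maximalIdeal 𝒪) 𝒪] [CharZero 𝒪]
  {L q : ℕ} [NeZero L] [hq : Fact q.Prime] (hqL : ¬ q ∣ L)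
  {H : Subgroup (ZMod L)ˣ} {N' : ℕ} [NeZero N'] (hN' : N' = L * q) {H' : Subgroup (ZMod N')ˣ}
  (hG' : s59f_IsG' L q H (s48h_GammaH N' H'))
  (e : SL(2, ℤ)) (he' : e ∈ Gamma0 N') (hee : s59f_gW hqL * e * e ∈ s48h_GammaH N' H')
  (Bset : Finset ℕ) (a : ℕ → ℤ) (aq : ℕ → 𝒪)

include hN' in
theorem s59f_dvd_of_eq : L ∣ N' := hN' ▸ Dvd.intro q rfl

include hN' hq in
theorem s59f_hB_of_mem (hqB : q ∈ Bset) : ∀ ℓ : ℕ, ℓ.Prime → ℓ ∣ N' → ¬ ℓ ∣ L → ℓ ∈ Bset := by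
  intro ℓ hℓ hd hnd
  rw [hN'] at hd
  rcases (Nat.Prime.dvd_mul hℓ).mp hd with h | h
  · exact absurd h hnd
  · rw [(Nat.prime_dvd_prime_iff_eq hℓ hq.out).mp h]
    exact hqB

include hN' hq in
theorem s59f_hLq_of_not_mem (Lq : List ℕ) (hqLq : q ∉ Lq) :
    ∀ q' ∈ Lq, q'.Prime → q' ∣ N' → q' ∣ L := by
  intro q' hq' hp hd
  rw [hN'] at hd
  rcases (Nat.Prime.dvd_mul hp).mp hd with h | h
  · exact h
  · rw [(Nat.prime_dvd_prime_iff_eq hp hq.out).mp h] at hq'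
    exact absurd hq' hqLq

/-- the Taylor–Wiles polynomial is supported away from `U_q`. -/
theorem s59f_supported_of_LvlX {M : ℕ} [NeZero M] {K : Subgroup (ZMod M)ˣ} (Lq : List ℕ)
    (hqLq : q ∉ Lq) {good : Set (s59w_AIdx M)} {c : s59w_AIdx M → 𝒪}
    {e₁ : MvPolynomial ↥good 𝒪} {G₁ : MvPolynomial (s59w_AIdx M ⊕ ℕ) 𝒪}
    (hX : s59ex_LvlX M K aq good c Lq e₁ G₁) :
    G₁ * s59t_jG 𝒪 good e₁ ∈
      MvPolynomial.supported 𝒪 {idx : s59w_AIdx M ⊕ ℕ | idx ≠ Sum.inr q} := by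
  obtain ⟨-, -, -, f, hG, hs, -⟩ := hX
  refine Subalgebra.mul_mem _ ?_ ?_
  · rw [hG]
    refine Subalgebra.list_prod_mem _ ?_
    intro t ht
    obtain ⟨q', hq', rfl⟩ := List.mem_map.mp ht
    refine MvPolynomial.supported_mono ?_ (hs q')
    rintro j (⟨x, rfl⟩ | hj)
    · exact fun h => by cases h
    · rw [Set.mem_singleton_iff] at hj
      rw [hj]
      intro h
      rw [Sum.inr.injEq] at h
      exact hqLq (h ▸ hq')
  · refine s59t_jG_mem_supported good e₁ _ ?_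
    rintro _ ⟨x, rfl⟩
    exact fun h => by cases h

include hN' in
set_option maxHeartbeats 1600000 in
/-- **(Y2)**: the package is compatible with the Taylor–Wiles idempotents of the two levels. -/
theorem s59f_oldN_compat_eps (hqB : q ∈ Bset) (Lq : List ℕ) (hqLq : q ∉ Lq)
    {e₀ : MvPolynomial ↥(s59t_goodB L Bset) 𝒪} {G₀ : MvPolynomial (s59w_AIdx L ⊕ ℕ) 𝒪}
    {e₁ : MvPolynomial ↥(s59t_goodB N' Bset) 𝒪} {G₁ : MvPolynomial (s59w_AIdx N' ⊕ ℕ) 𝒪}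
    (hX₀ : s59ex_LvlX L H aq (s59t_goodB L Bset) (s59t_cB L a) Lq e₀ G₀)
    (hX₁ : s59ex_LvlX N' H' aq (s59t_goodB N' Bset) (s59t_cB N' a) Lq e₁ G₁) :
    (s59f_oldN hqL hN' hG' 𝒪 𝒪 e he' hee).Compat
      (s59t_actH L aq (dvd_refl L) H (G₀ * s59t_jG 𝒪 (s59t_goodB L Bset) e₀))
      (s59t_actH N' aq (dvd_refl N') H' (G₁ * s59t_jG 𝒪 (s59t_goodB N' Bset) e₁)) := by
  have h01 : L ∣ N' := s59f_dvd_of_eq hN'
  have hle : s48h_GammaH N' H' ≤ s48h_GammaH L H := hG'.le (s59f_isG_GammaH L H)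
  rw [← s59f_eps_eq h01 H H' hle Bset a aq (s59f_hB_of_mem hN' Bset hqB) Lq
    (s59f_hLq_of_not_mem hN' Lq hqLq) hX₀ hX₁]
  exact s59f_oldN_compat_actH hqL hN' hG' e he' hee h01 (dvd_refl N') aq
    (s59f_supported_of_LvlX aq Lq hqLq hX₁)

include hN' in
set_option maxHeartbeats 1600000 in
/-- **(Y2), base analogue**: the package is compatible with the base idempotents `s59t_E0` of the
two levels. -/
theorem s59f_oldN_compat_E0 (hqB : q ∈ Bset)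
    (e₁ : MvPolynomial ↥(s59t_goodB N' Bset) 𝒪)
    (h1e₁ : 1 - e₁ ∈ s59t_evalIdeal (fun x : ↥(s59t_goodB N' Bset) =>
      s59t_cB (𝒪 := 𝒪) N' a (x : s59w_AIdx N')))
    (hid₁ : s59t_E0 H' Bset e₁ * s59t_E0 H' Bset e₁ = s59t_E0 H' Bset e₁)
    (hnil₁ : ∀ x ∈ s59t_goodB N' Bset, ∃ n : ℕ, ∀ y : s48h_Hpar 𝒪 (s48h_GammaH N' H') 𝒪,
      ((s59w_op H' 𝒪 x - s59t_cB (𝒪 := 𝒪) N' a x •
        (1 : Module.End 𝒪 (s48h_Hpar 𝒪 (s48h_GammaH N' H') 𝒪))) ^ n)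
        (s59t_E0 H' Bset e₁ y) ∈
        (maximalIdeal 𝒪 • ⊤ : Submodule 𝒪 (s48h_Hpar 𝒪 (s48h_GammaH N' H') 𝒪)))
    (e₀ : MvPolynomial ↥(s59t_goodB L Bset) 𝒪)
    (h1e₀ : 1 - e₀ ∈ s59t_evalIdeal (fun x : ↥(s59t_goodB L Bset) =>
      s59t_cB (𝒪 := 𝒪) L a (x : s59w_AIdx L)))
    (hid₀ : s59t_E0 H Bset e₀ * s59t_E0 H Bset e₀ = s59t_E0 H Bset e₀)
    (hnil₀ : ∀ x ∈ s59t_goodB L Bset, ∃ n : ℕ, ∀ y : s48h_Hpar 𝒪 (s48h_GammaH L H) 𝒪,
      ((s59w_op H 𝒪 x - s59t_cB (𝒪 := 𝒪) L a x •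
        (1 : Module.End 𝒪 (s48h_Hpar 𝒪 (s48h_GammaH L H) 𝒪))) ^ n)
        (s59t_E0 H Bset e₀ y) ∈
        (maximalIdeal 𝒪 • ⊤ : Submodule 𝒪 (s48h_Hpar 𝒪 (s48h_GammaH L H) 𝒪))) :
    (s59f_oldN hqL hN' hG' 𝒪 𝒪 e he' hee).Compat (s59t_E0 H Bset e₀) (s59t_E0 H' Bset e₁) := by
  have h01 : L ∣ N' := s59f_dvd_of_eq hN'
  have hle : s48h_GammaH N' H' ≤ s48h_GammaH L H := hG'.le (s59f_isG_GammaH L H)
  rw [← s59f_anemic_eq_E0 h01 H H' hle Bset a (fun _ => (0 : 𝒪)) (s59f_hB_of_mem hN' Bset hqB)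
    e₁ h1e₁ hid₁ hnil₁ e₀ h1e₀ hid₀ hnil₀, ← s59t_actH_eq_E0 H' Bset (fun _ => (0 : 𝒪)) e₁]
  refine s59f_oldN_compat_actH hqL hN' hG' e he' hee h01 (dvd_refl N') (fun _ => (0 : 𝒪)) ?_
  refine s59t_jG_mem_supported (s59t_goodB N' Bset) e₁ _ ?_
  rintro _ ⟨x, rfl⟩
  exact fun h => by cases h

end Eps

end Fermat.Agent.Lib.S59
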