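/-
S59 project, case (P), item [P8-M] (helper9, prefix `s59m_`), file 1: **RAISE-p AT ONE TAYLOR–WILES LEVEL, PACKAGE FORM.**

Two Taylor–Wiles packages in helper8's generic form `s59t_TWFullAbs` (TLvlBind.lean): side 1 (levels `N`, `N Q`) and side 2
(levels `N p`, `N p Q`), with diamond groups `Δ₁, Δ₁'` and `Δ₂, Δ₂'`, `χ' : Δ₂' → Δ₁'` BIJECTIVE (the level structure at `N p Q`
is the full preimage of the one at `N Q`), `χ : Δ₂ → Δ₁`; two old/new packages `Db` (base) and `D'` (level), `s59t_Old`,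
compatible with the idempotents and the diamond operators and intertwined by the restriction maps (`s59f_OldHom`, helper4).
Given the base kernel `P` (an equivariant idempotent of `ε₂ Z₂` with image `ker cor_A ∩ ker cor_B`, chosen ONCE) and the
surjectivity of `(cor_A, cor_B)` at the base, the conclusion of `s59m_kerTW_level` (MKerCtl2.lean) for the kernel at the level:
an equivariant idempotent `P'` of `ε₂' Z₂'` with image the kernel, free over `𝒪[Δ₂']` of rank `d₂ - 2 d₁`, the control map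
`π_K : P' → P` induced by the control map `π₂` of side 2, and the three control clauses `h2, h3, h4`.
-/
import Mathlib
import Fermat.Agent.Lib.S59.MKerCtl2
import Fermat.Agent.Lib.S59.TLvlBind
import Fermat.Agent.Lib.S59.FEps5

set_option autoImplicit false
set_option linter.unusedSectionVars false
set_option linter.unusedVariables false
set_option linter.style.haveILetI false
set_option maxHeartbeats 1600000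

open IsLocalRing

noncomputable section

namespace Fermat.Agent.Lib.S59

/-! ### Transport of eigen-submodules and norms along a group isomorphism -/

section Transport

variable {𝒪 : Type*} [CommRing 𝒪] {Δ Δ' : Type*} [CommGroup Δ] [Fintype Δ] [CommGroup Δ'] [Fintype Δ']
  {M : Type*} [AddCommGroup M] [Module 𝒪 M]

/-- the invariants of `C₂ = χ'⁻¹(C₁)` for `ρ ∘ χ'` are the invariants of `C₁` for `ρ`, when `χ'` is onto. -/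
theorem s59m_eig_comp_iff (ρ : Δ →* Module.End 𝒪 M) (χ' : Δ' →* Δ) (hχ' : Function.Surjective χ')
    (C₁ : Subgroup Δ) (C₂ : Subgroup Δ') (hC : C₂ = C₁.comap χ') (y : M) :
    y ∈ s59t_eig (ρ.comp χ') C₂ (1 : Δ' →* 𝒪ˣ) ↔ y ∈ s59t_eig ρ C₁ (1 : Δ →* 𝒪ˣ) := by
  constructor
  · intro h γ hγ
    obtain ⟨γ', rfl⟩ := hχ' γ
    have hγ' : γ' ∈ C₂ := by rw [hC]; exact hγ
    have := h γ' hγ'
    simpa using this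
  · intro h γ' hγ'
    have hγ : χ' γ' ∈ C₁ := by rw [hC] at hγ'; exact hγ'
    have := h (χ' γ') hγ
    simpa using this

/-- the `B₂`-norm for `ρ ∘ χ'` is the `B₁`-norm for `ρ`, when `χ'` is bijective and `B₂ = χ'⁻¹(B₁)`. -/
theorem s59m_normPsi_comp (ρ : Δ →* Module.End 𝒪 M) (χ' : Δ' →* Δ) (hχ' : Function.Bijective χ')
    (B₁ : Subgroup Δ) [Fintype B₁] (B₂ : Subgroup Δ') [Fintype B₂] (hB : B₂ = B₁.comap χ') (y : M) :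
    s59t_normPsi (ρ.comp χ') B₂ (1 : Δ' →* 𝒪ˣ) y = s59t_normPsi ρ B₁ (1 : Δ →* 𝒪ˣ) y := by
  rw [s59t_normPsi_apply, s59t_normPsi_apply]
  have hmem0 : ∀ x : Δ', x ∈ B₂ → χ' x ∈ B₁ := by
    intro x hx
    rw [hB] at hx
    exact hx
  have hmem : ∀ β : B₂, χ' (β : Δ') ∈ B₁ := fun β => hmem0 _ β.2
  let e : B₂ ≃ B₁ := Equiv.ofBijective (fun β => ⟨χ' (β : Δ'), hmem β⟩) (by
    constructor
    · intro β β' h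
      exact Subtype.ext (hχ'.1 (congrArg Subtype.val h))
    · intro β₁
      obtain ⟨γ', hγ'⟩ := hχ'.2 (β₁ : Δ)
      have hγ'B : γ' ∈ B₂ := by
        rw [hB]
        show χ' γ' ∈ B₁
        rw [hγ']
        exact β₁.2
      exact ⟨⟨γ', hγ'B⟩, Subtype.ext hγ'⟩)
  refine Fintype.sum_equiv e _ _ fun β => ?_
  simp only [MonoidHom.one_apply, inv_one, Units.val_one, one_smul, MonoidHom.comp_apply]
  rfl

end Transport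

/-! ### The output -/

section Concl

variable {𝒪 : Type*} [CommRing 𝒪] {Δ Δ' : Type*} [CommGroup Δ] [Fintype Δ] [CommGroup Δ'] [Fintype Δ']
  {Y₁' : Type*} [AddCommGroup Y₁'] [Module 𝒪 Y₁'] {Y₂ : Type*} [AddCommGroup Y₂] [Module 𝒪 Y₂]
  {Y₂' : Type*} [AddCommGroup Y₂'] [Module 𝒪 Y₂']

/-- **the output of RAISE-p at one Taylor–Wiles level**: an equivariant idempotent `P'` of `Y₂'` with image
`ker c_A' ∩ ker c_B'`, free over `𝒪[Δ']` of rank `dK`, the control map `π_K : P' Y₂' → P Y₂` induced by `π₂`, and the control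
clauses `h2, h3, h4` of `s59t_TSide_level'` for `(P' Y₂', P Y₂, π_K)`. -/
def s59m_KerConcl (ρ₂ : Δ →* Module.End 𝒪 Y₂) (ρ₂' : Δ' →* Module.End 𝒪 Y₂') (B C : Subgroup Δ')
    (π₂ : Y₂' →ₗ[𝒪] Y₂) (cA' cB' : Y₂' →ₗ[𝒪] Y₁')
    {P : Module.End 𝒪 Y₂} (hP : ∀ δ x, P (ρ₂ δ x) = ρ₂ δ (P x)) (dK : ℕ) : Prop :=
  ∃ (P' : Module.End 𝒪 Y₂') (hP' : ∀ δ x, P' (ρ₂' δ x) = ρ₂' δ (P' x)),
    P' * P' = P' ∧
    (∀ x, x ∈ s59t_part P' ↔ cA' x = 0 ∧ cB' x = 0) ∧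
    (∃ b' : Fin dK → s59t_part P',
      Function.Bijective (s59t_evalMap (s59t_partRep ρ₂' hP') b')) ∧
    ∃ πK : s59t_part P' →ₗ[𝒪] s59t_part P,
      (∀ y, ((πK y : s59t_part P) : Y₂) = π₂ (y : Y₂')) ∧
      (∀ y ∈ s59t_eig (s59t_partRep ρ₂' hP') C (1 : Δ' →* 𝒪ˣ),
        πK y ∈ s59t_eig (s59t_partRep ρ₂ hP) ⊤ (1 : Δ →* 𝒪ˣ)) ∧
      (∀ x ∈ s59t_eig (s59t_partRep ρ₂ hP) ⊤ (1 : Δ →* 𝒪ˣ),
        ∃ y ∈ s59t_eig (s59t_partRep ρ₂' hP') C (1 : Δ' →* 𝒪ˣ), πK y = x) ∧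
      (∀ y ∈ s59t_eig (s59t_partRep ρ₂' hP') C (1 : Δ' →* 𝒪ˣ),
        πK y = 0 → y ∈ Submodule.span 𝒪 {z : s59t_part P' | ∃ β ∈ B,
          ∃ y' ∈ s59t_eig (s59t_partRep ρ₂' hP') C (1 : Δ' →* 𝒪ˣ),
            z = s59t_partRep ρ₂' hP' β y' - y'})

end Concl

/-! ### The package -/

section Pkg

variable {p : ℕ} [Fact p.Prime] {𝒪 : Type} [CommRing 𝒪] [IsLocalRing 𝒪] [Finite (ResidueField 𝒪)]
  [CharP (ResidueField 𝒪) p] [IsNoetherianRing 𝒪]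
  {Δ₁ Δ₂ Δ₁' Δ₂' : Type} [CommGroup Δ₁] [Fintype Δ₁] [CommGroup Δ₂] [Fintype Δ₂]
  [CommGroup Δ₁'] [Fintype Δ₁'] [CommGroup Δ₂'] [Fintype Δ₂']
  {Z₁ Z₂ Z₁' Z₂' : Type} [AddCommGroup Z₁] [Module 𝒪 Z₁] [AddCommGroup Z₂] [Module 𝒪 Z₂]
  [AddCommGroup Z₁'] [Module 𝒪 Z₁'] [Module.Finite 𝒪 Z₁'] [AddCommGroup Z₂'] [Module 𝒪 Z₂']
  (ρZ₁ : Δ₁ →* Module.End 𝒪 Z₁) (ρZ₂ : Δ₂ →* Module.End 𝒪 Z₂)
  (ρZ₁' : Δ₁' →* Module.End 𝒪 Z₁') (ρZ₂' : Δ₂' →* Module.End 𝒪 Z₂')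
  (φ₁ : Δ₁' →* Δ₁) (φ₂ : Δ₂' →* Δ₂) (χ : Δ₂ →* Δ₁) (χ' : Δ₂' →* Δ₁')
  (res₁ : Z₁ →ₗ[𝒪] Z₁') (res₂ : Z₂ →ₗ[𝒪] Z₂')
  (B₁ C₁ : Subgroup Δ₁') [Fintype B₁] [Fintype C₁] (B₂ C₂ : Subgroup Δ₂') [Fintype B₂] [Fintype C₂]
  (ε₁ : Module.End 𝒪 Z₁) (ε₂ : Module.End 𝒪 Z₂) (ε₁' : Module.End 𝒪 Z₁') (ε₂' : Module.End 𝒪 Z₂')
  (Db : s59t_Old 𝒪 Z₁ Z₂) (D' : s59t_Old 𝒪 Z₁' Z₂')

/-- **RAISE-p at one Taylor–Wiles level, package form.** -/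
theorem s59m_kerTW_pkg (hpm : (p : 𝒪) ∈ maximalIdeal 𝒪)
    (hΔ' : ∀ δ : Δ₂', ∃ n : ℕ, δ ^ (p ^ n) = 1)
    (hCB : Function.Bijective (fun x : C₂ × B₂ => ((x.1 : Δ₂') * (x.2 : Δ₂'))))
    (hχ' : Function.Bijective χ') (hB : B₂ = B₁.comap χ') (hC : C₂ = C₁.comap χ')
    (hF₁ : s59t_TWFullAbs ρZ₁ ρZ₁' φ₁ res₁ B₁ C₁ ε₁ ε₁')
    (hF₂ : s59t_TWFullAbs ρZ₂ ρZ₂' φ₂ res₂ B₂ C₂ ε₂ ε₂')
    (hρ₁ : ∀ δ y, ε₁ (ρZ₁ δ y) = ρZ₁ δ (ε₁ y)) (hρ₂ : ∀ δ y, ε₂ (ρZ₂ δ y) = ρZ₂ δ (ε₂ y))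
    (hρ₁' : ∀ δ y, ε₁' (ρZ₁' δ y) = ρZ₁' δ (ε₁' y)) (hρ₂' : ∀ δ y, ε₂' (ρZ₂' δ y) = ρZ₂' δ (ε₂' y))
    (hcb : Db.Compat ε₁ ε₂) (hc' : D'.Compat ε₁' ε₂')
    (hDbρ : ∀ δ : Δ₂, Db.Compat (ρZ₁ (χ δ)) (ρZ₂ δ))
    (hD'ρ : ∀ δ : Δ₂', D'.Compat (ρZ₁' (χ' δ)) (ρZ₂' δ))
    (hom : s59f_OldHom Db D' res₁ res₂)
    {d₁ d₂ : ℕ} (b₁ : Fin d₁ → s59t_part ε₁)
    (hb₁ : Function.Bijective (s59t_evalMap (s59t_partRep ρZ₁ hρ₁) b₁))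
    (b₂ : Fin d₂ → s59t_part ε₂)
    (hb₂ : Function.Bijective (s59t_evalMap (s59t_partRep ρZ₂ hρ₂) b₂))
    {P : Module.End 𝒪 (s59t_part ε₂)}
    (hP : ∀ δ x, P (s59t_partRep ρZ₂ hρ₂ δ x) = s59t_partRep ρZ₂ hρ₂ δ (P x)) (hPP : P * P = P)
    (hmem : ∀ x, x ∈ s59t_part P ↔
      (Db.restrict hcb).corA x = 0 ∧ (Db.restrict hcb).corB x = 0)
    (hbase : ∀ y₁ y₂ : s59t_part ε₁, ∃ z : s59t_part ε₂,
      (Db.restrict hcb).corA z = y₁ ∧ (Db.restrict hcb).corB z = y₂) :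
    2 * d₁ ≤ d₂ ∧
    ∃ π₂ : s59t_part ε₂' →ₗ[𝒪] s59t_part ε₂,
      (∀ y, s59t_iotaH ε₂ ε₂' res₂ (π₂ y) =
        s59t_normPsi (s59t_partRep ρZ₂' hρ₂') B₂ (1 : Δ₂' →* 𝒪ˣ) y) ∧
      (∀ y₁ y₂ : s59t_part ε₁', ∃ x : s59t_part ε₂',
        (D'.restrict hc').corA x = y₁ ∧ (D'.restrict hc').corB x = y₂) ∧
      s59m_KerConcl (s59t_partRep ρZ₂ hρ₂) (s59t_partRep ρZ₂' hρ₂') B₂ C₂ π₂
        (D'.restrict hc').corA (D'.restrict hc').corB hP (d₂ - 2 * d₁) := by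
  classical
  obtain ⟨hρ1a, hρ1'a, dn₁, bn₁, bn₁', π₁, hbn₁, hbn₁', hιinj₁, hιsurj₁, hιπ₁, hπsurj₁, hπker₁, hπdia₁,
    hπeq₁, ⟨h2₁, h3₁, h4₁⟩, hk₁⟩ := hF₁
  obtain ⟨hρ2a, hρ2'a, dn₂, bn₂, bn₂', π₂, hbn₂, hbn₂', hιinj₂, hιsurj₂, hιπ₂, hπsurj₂, hπker₂, hπdia₂,
    hπeq₂, ⟨h2₂, h3₂, h4₂⟩, hk₂⟩ := hF₂
  have hd₁ : dn₁ = d₁ := s59t_evalMap_rank_unique (s59t_partRep ρZ₁ hρ₁) bn₁ b₁ hbn₁ hb₁
  have hd₂ : dn₂ = d₂ := s59t_evalMap_rank_unique (s59t_partRep ρZ₂ hρ₂) bn₂ b₂ hbn₂ hb₂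
  subst hd₁ hd₂
  haveI : Module.Finite 𝒪 (s59t_part ε₁') := s59t_part_finite ε₁'
  -- the representations of `Δ₂`, `Δ₂'` on side 1
  set ρ₁ : Δ₂ →* Module.End 𝒪 (s59t_part ε₁) := (s59t_partRep ρZ₁ hρ₁).comp χ with hρ₁def
  set ρ₁' : Δ₂' →* Module.End 𝒪 (s59t_part ε₁') := (s59t_partRep ρZ₁' hρ₁').comp χ' with hρ₁'def
  -- the morphism of the restricted packages
  have homR := hom.restrict hcb hc'
  -- equivariance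
  have hcA : ∀ δ x, (Db.restrict hcb).corA (s59t_partRep ρZ₂ hρ₂ δ x) =
      ρ₁ δ ((Db.restrict hcb).corA x) := fun δ x => Subtype.ext ((hDbρ δ).corA x.1).symm
  have hcB : ∀ δ x, (Db.restrict hcb).corB (s59t_partRep ρZ₂ hρ₂ δ x) =
      ρ₁ δ ((Db.restrict hcb).corB x) := fun δ x => Subtype.ext ((hDbρ δ).corB x.1).symm
  have hcA' : ∀ δ x, (D'.restrict hc').corA (s59t_partRep ρZ₂' hρ₂' δ x) =
      ρ₁' δ ((D'.restrict hc').corA x) := fun δ x => Subtype.ext ((hD'ρ δ).corA x.1).symm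
  have hcB' : ∀ δ x, (D'.restrict hc').corB (s59t_partRep ρZ₂' hρ₂' δ x) =
      ρ₁' δ ((D'.restrict hc').corB x) := fun δ x => Subtype.ext ((hD'ρ δ).corB x.1).symm
  -- the control maps commute with the transfers
  have hπX : ∀ (c : s59t_part ε₂ →ₗ[𝒪] s59t_part ε₁) (c' : s59t_part ε₂' →ₗ[𝒪] s59t_part ε₁'),
      (∀ z, s59t_iotaH ε₁ ε₁' res₁ (c z) = c' (s59t_iotaH ε₂ ε₂' res₂ z)) →
      (∀ δ x, c' (s59t_partRep ρZ₂' hρ₂' δ x) = ρ₁' δ (c' x)) →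
      ∀ y, π₁ (c' y) = c (π₂ y) := by
    intro c c' hcc hc'eq y
    apply hιinj₁
    rw [hιπ₁, hcc, hιπ₂, ← s59m_normPsi_comp (s59t_partRep ρZ₁' hρ₁') χ' hχ' B₁ B₂ hB]
    rw [s59t_normPsi_apply, s59t_normPsi_apply, map_sum]
    refine Finset.sum_congr rfl fun β _ => ?_
    rw [map_smul, hc'eq]
  have hπA : ∀ y, π₁ ((D'.restrict hc').corA y) = (Db.restrict hcb).corA (π₂ y) :=
    hπX _ _ homR.corA hcA'
  have hπB : ∀ y, π₁ ((D'.restrict hc').corB y) = (Db.restrict hcb).corB (π₂ y) :=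
    hπX _ _ homR.corB hcB'
  -- freeness of side 1 over `𝒪[Δ₂']`
  have hb₁'' : Function.Bijective (s59t_evalMap ρ₁' bn₁') :=
    s59t_evalMap_comp_bijective (s59t_partRep ρZ₁' hρ₁') χ' hχ' bn₁' hbn₁'
  -- the control clauses of side 1, transported
  have hE₁ : ∀ y, y ∈ s59t_eig ρ₁' C₂ (1 : Δ₂' →* 𝒪ˣ) ↔
      y ∈ s59t_eig (s59t_partRep ρZ₁' hρ₁') C₁ (1 : Δ₁' →* 𝒪ˣ) := fun y =>
    s59m_eig_comp_iff (s59t_partRep ρZ₁' hρ₁') χ' hχ'.2 C₁ C₂ hC y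
  have h2₁' : ∀ y ∈ s59t_eig ρ₁' C₂ (1 : Δ₂' →* 𝒪ˣ), π₁ y ∈ s59t_eig ρ₁ ⊤ (1 : Δ₂ →* 𝒪ˣ) := by
    intro y hy δ _
    have h := h2₁ y ((hE₁ y).mp hy) (χ δ) (Subgroup.mem_top _)
    show (s59t_partRep ρZ₁ hρ₁) (χ δ) (π₁ y) = (((1 : Δ₂ →* 𝒪ˣ) δ : 𝒪ˣ) : 𝒪) • π₁ y
    simpa using h
  have h4₁' : ∀ y ∈ s59t_eig ρ₁' C₂ (1 : Δ₂' →* 𝒪ˣ), π₁ y = 0 → y ∈ Submodule.span 𝒪
      {z : s59t_part ε₁' | ∃ β ∈ B₂, ∃ y' ∈ s59t_eig ρ₁' C₂ (1 : Δ₂' →* 𝒪ˣ), z = ρ₁' β y' - y'} := by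
    intro y hy hy0
    have h := h4₁ y ((hE₁ y).mp hy) hy0
    refine Submodule.span_mono ?_ h
    rintro _ ⟨β, hβ, y', hy', rfl⟩
    obtain ⟨β', rfl⟩ := hχ'.2 β
    exact ⟨β', by rw [hB]; exact hβ, y', (hE₁ y').mpr hy', rfl⟩
  have hπβ : ∀ β ∈ B₂, ∀ y, π₂ (s59t_partRep ρZ₂' hρ₂' β y) = π₂ y := by
    intro β hβ y
    have hk : s59t_partRep ρZ₂' hρ₂' β y - y ∈ LinearMap.ker π₂ := by
      rw [hπker₂]
      exact Submodule.subset_span ⟨β, hβ, y, rfl⟩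
    have := LinearMap.mem_ker.mp hk
    rw [map_sub, sub_eq_zero] at this
    exact this
  obtain ⟨hle, hsurj', P', hP', hPP', hmem', hb', k2, k3, k4⟩ :=
    s59m_kerTW_level (p := p) ρ₁ (s59t_partRep ρZ₂ hρ₂) ρ₁' (s59t_partRep ρZ₂' hρ₂') B₂ C₂ π₁ π₂
      (Db.restrict hcb).corA (Db.restrict hcb).corB (D'.restrict hc').corA (D'.restrict hc').corB
      hcA hcB hcA' hcB' hπA hπB hP hPP hmem hpm hΔ' hCB bn₁' hb₁'' bn₂' hbn₂' h2₁' h4₁' h2₂ h3₂ h4₂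
      hπβ hbase
  exact ⟨hle, π₂, hιπ₂, hsurj', P', hP', hPP', hmem', hb',
    s59m_kerPi π₁ π₂ _ _ _ _ hπA hπB hmem hmem', fun y => rfl, k2, k3, k4⟩

end Pkg

end Fermat.Agent.Lib.S59
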