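/-
S59 project, case (P), item [P8-M] (helper9, prefix `s59m_`), file 2: **RAISE-p AT ONE TAYLOR–WILES LEVEL, CONCRETE FORM.**

`s59m_kerTW_pkg` (MKerPkg.lean) for helper8's packages `s59t_TWFull` at the levels `(N, Hb) ← (L, H₁)` (side 1) and
`(N₂, Hb₂) ← (N', H₂)` (side 2), `N₂ = N p`, `N' = L p`, and helper4's old/new packages `s59f_oldN` at the base `(N, N₂)` and at the
level `(L, N')`, with the SAME normalising element `e₀` (FEps4.lean: `s59f_oldN_hom`, `s59f_oldN_compat_rho`).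

Also: `s59m_DeltaMap2_comp` (functoriality of `s59t_DeltaMap2`), `s59m_DeltaMap2_bijective` (the map `Δ(N', H') → Δ(L, H)` is bijective
when `H'` is the full preimage of `H`), `s59m_ker_comap` (kernels and `comap`).
-/
import Mathlib
import Fermat.Agent.Lib.S59.MKerPkg
import Fermat.Agent.Lib.S59.THQ
import Fermat.Agent.Lib.S59.TFin

set_option autoImplicit false
set_option linter.unusedSectionVars false
set_option linter.unusedVariables false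
set_option linter.style.haveILetI false
set_option maxHeartbeats 1600000

open IsLocalRing CongruenceSubgroup
open Fermat.Agent.Lib.S48
open scoped MatrixGroups

noncomputable section

namespace Fermat.Agent.Lib.S59

/-! ### The diamond groups -/

section Delta

variable {N N' N'' : ℕ} [NeZero N] [NeZero N'] [NeZero N'']
  {H : Subgroup (ZMod N)ˣ} {H' : Subgroup (ZMod N')ˣ} {H'' : Subgroup (ZMod N'')ˣ}

/-- functoriality of `s59t_DeltaMap2`. -/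
theorem s59m_DeltaMap2_comp (h0 : Gamma0 N' ≤ Gamma0 N) (hle : s48h_GammaH N' H' ≤ s48h_GammaH N H)
    (h0' : Gamma0 N'' ≤ Gamma0 N') (hle' : s48h_GammaH N'' H'' ≤ s48h_GammaH N' H')
    (h0'' : Gamma0 N'' ≤ Gamma0 N) (hle'' : s48h_GammaH N'' H'' ≤ s48h_GammaH N H)
    (δ : s59t_Delta N'' H'') :
    s59t_DeltaMap2 h0 hle (s59t_DeltaMap2 h0' hle' δ) = s59t_DeltaMap2 h0'' hle'' δ := by
  obtain ⟨τ, rfl⟩ := QuotientGroup.mk_surjective δ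
  rfl

/-- `Δ(N', H') → Δ(N, H)` is bijective when `H'` is the full preimage of `H`. -/
theorem s59m_DeltaMap2_bijective (hN : N ∣ N')
    (hH' : ∀ u : (ZMod N')ˣ, u ∈ H' ↔ ZMod.unitsMap hN u ∈ H)
    (hle : s48h_GammaH N' H' ≤ s48h_GammaH N H) :
    Function.Bijective (s59t_DeltaMap2 (s59t_Gamma0_anti hN) hle) := by
  constructor
  · rw [injective_iff_map_eq_one]
    intro δ hδ
    obtain ⟨τ, rfl⟩ := QuotientGroup.mk_surjective δ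
    rw [s59t_DeltaMap2_eq_one_iff hN hle τ, ← hH'] at hδ
    rw [← s59t_mem_iff_mk, s59t_mem_GammaH_iff_unit]
    exact hδ
  · intro δ
    obtain ⟨τ, rfl⟩ := QuotientGroup.mk_surjective δ
    obtain ⟨u', hu'⟩ := ZMod.unitsMap_surjective hN (s59t_unitHom N τ)
    obtain ⟨σ, h1, -, h3⟩ := s48h_exists_sigma N' 1 (Nat.coprime_one_left N') u'
    have hσ : σ ∈ Gamma0 N' := by
      rw [Gamma0_mem, ZMod.intCast_zmod_eq_zero_iff_dvd]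
      have : ((N' : ℤ) * ((1 : ℕ) : ℤ)) = (N' : ℤ) := by rw [Nat.cast_one, mul_one]
      rw [this] at h1
      exact h1
    refine ⟨QuotientGroup.mk ⟨σ, hσ⟩, ?_⟩
    rw [s59t_DeltaMap2_mk]
    set τ₁ : Gamma0 N := ⟨σ, s59t_Gamma0_anti hN hσ⟩ with hτ₁
    have hunit : s59t_unitHom N τ₁ = s59t_unitHom N τ := by
      rw [← hu']
      apply Units.ext
      show ((σ 1 1 : ℤ) : ZMod N) = ((ZMod.unitsMap hN u' : (ZMod N)ˣ) : ZMod N)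
      have h4 := congrArg (ZMod.castHom hN (ZMod N)) h3
      rw [map_intCast] at h4
      rw [h4]
      rfl
    symm
    rw [QuotientGroup.eq, Subgroup.mem_subgroupOf]
    have h5 : ((τ⁻¹ * τ₁ : Gamma0 N) : SL(2, ℤ)) ∈ s48h_GammaH N H := by
      rw [s59t_mem_GammaH_iff_unit, map_mul, map_inv, hunit, inv_mul_cancel]
      exact one_mem H
    exact h5

end Delta

section KerComap

variable {G₁ G₂ G₃ G₄ : Type*} [Group G₁] [Group G₂] [Group G₃] [Group G₄]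

/-- `ker φ₂ = χ'⁻¹(ker φ₁)` in a commutative square with `χ` injective. -/
theorem s59m_ker_comap (φ₁ : G₁ →* G₃) (φ₂ : G₂ →* G₄) (χ' : G₂ →* G₁) (χ : G₄ →* G₃)
    (hχ : Function.Injective χ) (hsq : ∀ δ, χ (φ₂ δ) = φ₁ (χ' δ)) :
    φ₂.ker = φ₁.ker.comap χ' := by
  ext δ
  rw [MonoidHom.mem_ker, Subgroup.mem_comap, MonoidHom.mem_ker, ← hsq]
  constructor
  · intro h
    rw [h, map_one]
  · intro h
    exact hχ (h.trans (map_one χ).symm)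

end KerComap

/-! ### The levels `(N D, H × K)` and `(N₂ D, H₂ × K)`, `N ∣ N₂` -/

section HmulLevels

variable {N N₂ D : ℕ} [NeZero N] [NeZero N₂] [NeZero D] [NeZero (N * D)] [NeZero (N₂ * D)]
  (hNN₂ : N ∣ N₂) {Hb : Subgroup (ZMod N)ˣ} {Hb₂ : Subgroup (ZMod N₂)ˣ}
  (hHb : ∀ u : (ZMod N₂)ˣ, u ∈ Hb₂ ↔ ZMod.unitsMap hNN₂ u ∈ Hb) (K : Subgroup (ZMod D)ˣ)

include hHb in
/-- `H₂ × K` at the level `N₂ D` is the full preimage of `H × K` at the level `N D`. -/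
theorem s59m_Hmul_preimage (u : (ZMod (N₂ * D))ˣ) :
    u ∈ s59t_Hmul N₂ D Hb₂ K ↔
      ZMod.unitsMap (Nat.mul_dvd_mul_right hNN₂ D) u ∈ s59t_Hmul N D Hb K := by
  rw [s59t_mem_Hmul, s59t_mem_Hmul, hHb]
  have e1 : ZMod.unitsMap hNN₂ (ZMod.unitsMap (s59t_dvd_mul_left' N₂ D) u) =
      ZMod.unitsMap (s59t_dvd_mul_left' N D) (ZMod.unitsMap (Nat.mul_dvd_mul_right hNN₂ D) u) := by
    have h1 := DFunLike.congr_fun (ZMod.unitsMap_comp hNN₂ (s59t_dvd_mul_left' N₂ D)) u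
    have h2 := DFunLike.congr_fun
      (ZMod.unitsMap_comp (s59t_dvd_mul_left' N D) (Nat.mul_dvd_mul_right hNN₂ D)) u
    rw [MonoidHom.comp_apply] at h1 h2
    rw [h1, h2]
  have e2 : ZMod.unitsMap (s59t_dvd_mul_right' N₂ D) u =
      ZMod.unitsMap (s59t_dvd_mul_right' N D) (ZMod.unitsMap (Nat.mul_dvd_mul_right hNN₂ D) u) := by
    have h2 := DFunLike.congr_fun
      (ZMod.unitsMap_comp (s59t_dvd_mul_right' N D) (Nat.mul_dvd_mul_right hNN₂ D)) u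
    rw [MonoidHom.comp_apply] at h2
    rw [h2]
  rw [e1, e2]

include hHb in
theorem s59m_GammaHmul_le_level :
    s48h_GammaH (N₂ * D) (s59t_Hmul N₂ D Hb₂ K) ≤ s48h_GammaH (N * D) (s59t_Hmul N D Hb K) := by
  have h1 : s59t_Hmul N₂ D Hb₂ K =
      (s59t_Hmul N D Hb K).comap (ZMod.unitsMap (Nat.mul_dvd_mul_right hNN₂ D)) := by
    ext u
    exact s59m_Hmul_preimage hNN₂ hHb K u
  rw [h1]
  exact s59t_GammaH_comap_le (Nat.mul_dvd_mul_right hNN₂ D) _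

include hHb in
theorem s59m_GammaH_le_base : s48h_GammaH N₂ Hb₂ ≤ s48h_GammaH N Hb := by
  have h1 : Hb₂ = Hb.comap (ZMod.unitsMap hNN₂) := by
    ext u
    exact hHb u
  rw [h1]
  exact s59t_GammaH_comap_le hNN₂ _

variable (h0' : Gamma0 (N₂ * D) ≤ Gamma0 (N * D))
  (hle' : s48h_GammaH (N₂ * D) (s59t_Hmul N₂ D Hb₂ K) ≤ s48h_GammaH (N * D) (s59t_Hmul N D Hb K))

include hHb in
/-- `χ' : Δ(N₂ D) → Δ(N D)` is bijective. -/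
theorem s59m_chi'_bijective : Function.Bijective (s59t_DeltaMap2 h0' hle') :=
  s59m_DeltaMap2_bijective (Nat.mul_dvd_mul_right hNN₂ D) (s59m_Hmul_preimage hNN₂ hHb K) hle'

include hHb in
/-- `B_Q` at the level `N₂ D` is the preimage of `B_Q` at the level `N D`. -/
theorem s59m_BQ_comap :
    s59t_BQ N₂ D Hb₂ K = (s59t_BQ N D Hb K).comap (s59t_DeltaMap2 h0' hle') := by
  refine s59m_ker_comap (s59t_phiN N D Hb K) (s59t_phiN N₂ D Hb₂ K) (s59t_DeltaMap2 h0' hle')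
    (s59t_DeltaMap2 (s59t_Gamma0_anti hNN₂) (s59m_GammaH_le_base hNN₂ hHb))
    (s59m_DeltaMap2_bijective hNN₂ hHb _).1 fun δ => ?_
  unfold s59t_phiN
  rw [s59m_DeltaMap2_comp _ _ _ _ (s59t_Gamma0_anti (dvd_mul_of_dvd_left hNN₂ D))
    (s59t_GammaHmul_le.trans (s59m_GammaH_le_base hNN₂ hHb)),
    s59m_DeltaMap2_comp _ _ _ _ (s59t_Gamma0_anti (dvd_mul_of_dvd_left hNN₂ D))
    (s59t_GammaHmul_le.trans (s59m_GammaH_le_base hNN₂ hHb))]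

/-- `C_Q` at the level `N₂ D` is the preimage of `C_Q` at the level `N D`. -/
theorem s59m_CQ_comap :
    s59t_CQ N₂ D Hb₂ K = (s59t_CQ N D Hb K).comap (s59t_DeltaMap2 h0' hle') := by
  refine s59m_ker_comap (s59t_phiD N D Hb K) (s59t_phiD N₂ D Hb₂ K) (s59t_DeltaMap2 h0' hle')
    (MonoidHom.id _) (fun _ _ h => h) fun δ => ?_
  unfold s59t_phiD
  rw [MonoidHom.id_apply, s59m_DeltaMap2_comp _ _ _ _
    (s59t_Gamma0_anti (s59t_dvd_mul_right' N₂ D)) s59t_GammaHmul_le']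

end HmulLevels

/-! ### The concrete package -/

section Conc

variable {p : ℕ} [hp : Fact p.Prime] {𝒪 : Type} [CommRing 𝒪] [IsLocalRing 𝒪]
  [Finite (ResidueField 𝒪)] [CharP (ResidueField 𝒪) p] [IsNoetherianRing 𝒪]
  {N N₂ : ℕ} [NeZero N] [NeZero N₂] (hpN : ¬ p ∣ N) (hN₂ : N₂ = N * p)
  {Hb : Subgroup (ZMod N)ˣ} {Hb₂ : Subgroup (ZMod N₂)ˣ}
  (hGb : s59f_IsG' N p Hb (s48h_GammaH N₂ Hb₂))
  {L N' : ℕ} [NeZero L] [NeZero N'] (hpL : ¬ p ∣ L) (hN' : N' = L * p) (hNL : N ∣ L)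
  {H₁ : Subgroup (ZMod L)ˣ} {H₂ : Subgroup (ZMod N')ˣ}
  (hG' : s59f_IsG' L p H₁ (s48h_GammaH N' H₂))
  (h0₁ : Gamma0 L ≤ Gamma0 N) (hle₁ : s48h_GammaH L H₁ ≤ s48h_GammaH N Hb)
  (h0₂ : Gamma0 N' ≤ Gamma0 N₂) (hle₂ : s48h_GammaH N' H₂ ≤ s48h_GammaH N₂ Hb₂)
  (h0b : Gamma0 N₂ ≤ Gamma0 N) (hleb : s48h_GammaH N₂ Hb₂ ≤ s48h_GammaH N Hb)
  (h0' : Gamma0 N' ≤ Gamma0 L) (hle' : s48h_GammaH N' H₂ ≤ s48h_GammaH L H₁)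
  (e₀ : SL(2, ℤ)) (he'b : e₀ ∈ Gamma0 N₂) (he' : e₀ ∈ Gamma0 N')
  (heeb : s59f_gW hpN * e₀ * e₀ ∈ s48h_GammaH N₂ Hb₂)
  (hee : s59f_gW hpL * e₀ * e₀ ∈ s48h_GammaH N' H₂)
  (B₁ C₁ : Subgroup (s59t_Delta L H₁)) [Fintype B₁] [Fintype C₁]
  (B₂ C₂ : Subgroup (s59t_Delta N' H₂)) [Fintype B₂] [Fintype C₂]
  (ε₁ : Module.End 𝒪 (s48h_Hpar 𝒪 (s48h_GammaH N Hb) 𝒪))
  (ε₂ : Module.End 𝒪 (s48h_Hpar 𝒪 (s48h_GammaH N₂ Hb₂) 𝒪))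
  (ε₁' : Module.End 𝒪 (s48h_Hpar 𝒪 (s48h_GammaH L H₁) 𝒪))
  (ε₂' : Module.End 𝒪 (s48h_Hpar 𝒪 (s48h_GammaH N' H₂) 𝒪))

include hNL h0b hleb in
/-- **RAISE-p at one Taylor–Wiles level, concrete form.** -/
theorem s59m_kerTW_conc (hpm : (p : 𝒪) ∈ maximalIdeal 𝒪)
    (hΔ' : ∀ δ : s59t_Delta N' H₂, ∃ n : ℕ, δ ^ (p ^ n) = 1)
    (hCB : Function.Bijective (fun x : C₂ × B₂ =>
      ((x.1 : s59t_Delta N' H₂) * (x.2 : s59t_Delta N' H₂))))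
    (hχ' : Function.Bijective (s59t_DeltaMap2 h0' hle'))
    (hB : B₂ = B₁.comap (s59t_DeltaMap2 h0' hle'))
    (hC : C₂ = C₁.comap (s59t_DeltaMap2 h0' hle'))
    (hP1₁ : s59t_TWFull h0₁ hle₁ B₁ C₁ ε₁ ε₁') (hP1₂ : s59t_TWFull h0₂ hle₂ B₂ C₂ ε₂ ε₂')
    (hρ₁ : ∀ δ y, ε₁ (s59t_rho N Hb 𝒪 𝒪 δ y) = s59t_rho N Hb 𝒪 𝒪 δ (ε₁ y))
    (hρ₂ : ∀ δ y, ε₂ (s59t_rho N₂ Hb₂ 𝒪 𝒪 δ y) = s59t_rho N₂ Hb₂ 𝒪 𝒪 δ (ε₂ y))
    (hρ₁' : ∀ δ y, ε₁' (s59t_rho L H₁ 𝒪 𝒪 δ y) = s59t_rho L H₁ 𝒪 𝒪 δ (ε₁' y))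
    (hρ₂' : ∀ δ y, ε₂' (s59t_rho N' H₂ 𝒪 𝒪 δ y) = s59t_rho N' H₂ 𝒪 𝒪 δ (ε₂' y))
    (hcb : (s59f_oldN hpN hN₂ hGb 𝒪 𝒪 e₀ he'b heeb).Compat ε₁ ε₂)
    (hc' : (s59f_oldN hpL hN' hG' 𝒪 𝒪 e₀ he' hee).Compat ε₁' ε₂')
    {d₁ d₂ : ℕ} (b₁ : Fin d₁ → s59t_part ε₁)
    (hb₁ : Function.Bijective (s59t_evalMap (s59t_partRep (s59t_rho N Hb 𝒪 𝒪) hρ₁) b₁))
    (b₂ : Fin d₂ → s59t_part ε₂)
    (hb₂ : Function.Bijective (s59t_evalMap (s59t_partRep (s59t_rho N₂ Hb₂ 𝒪 𝒪) hρ₂) b₂))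
    {P : Module.End 𝒪 (s59t_part ε₂)}
    (hP : ∀ δ x, P (s59t_partRep (s59t_rho N₂ Hb₂ 𝒪 𝒪) hρ₂ δ x) =
      s59t_partRep (s59t_rho N₂ Hb₂ 𝒪 𝒪) hρ₂ δ (P x)) (hPP : P * P = P)
    (hmem : ∀ x, x ∈ s59t_part P ↔
      ((s59f_oldN hpN hN₂ hGb 𝒪 𝒪 e₀ he'b heeb).restrict hcb).corA x = 0 ∧
      ((s59f_oldN hpN hN₂ hGb 𝒪 𝒪 e₀ he'b heeb).restrict hcb).corB x = 0)
    (hbase : ∀ y₁ y₂ : s59t_part ε₁, ∃ z : s59t_part ε₂,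
      ((s59f_oldN hpN hN₂ hGb 𝒪 𝒪 e₀ he'b heeb).restrict hcb).corA z = y₁ ∧
      ((s59f_oldN hpN hN₂ hGb 𝒪 𝒪 e₀ he'b heeb).restrict hcb).corB z = y₂) :
    2 * d₁ ≤ d₂ ∧
    ∃ π₂ : s59t_part ε₂' →ₗ[𝒪] s59t_part ε₂,
      (∀ y, s59t_iotaH ε₂ ε₂' (s59t_resGHpar hle₂ 𝒪 𝒪) (π₂ y) =
        s59t_normPsi (s59t_partRep (s59t_rho N' H₂ 𝒪 𝒪) hρ₂') B₂
          (1 : s59t_Delta N' H₂ →* 𝒪ˣ) y) ∧
      (∀ y₁ y₂ : s59t_part ε₁', ∃ x : s59t_part ε₂',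
        ((s59f_oldN hpL hN' hG' 𝒪 𝒪 e₀ he' hee).restrict hc').corA x = y₁ ∧
        ((s59f_oldN hpL hN' hG' 𝒪 𝒪 e₀ he' hee).restrict hc').corB x = y₂) ∧
      s59m_KerConcl (s59t_partRep (s59t_rho N₂ Hb₂ 𝒪 𝒪) hρ₂)
        (s59t_partRep (s59t_rho N' H₂ 𝒪 𝒪) hρ₂') B₂ C₂ π₂
        ((s59f_oldN hpL hN' hG' 𝒪 𝒪 e₀ he' hee).restrict hc').corA
        ((s59f_oldN hpL hN' hG' 𝒪 𝒪 e₀ he' hee).restrict hc').corB hP (d₂ - 2 * d₁) := by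
  haveI : Module.Finite 𝒪 (s48h_Hpar 𝒪 (s48h_GammaH L H₁) 𝒪) := s59t_Hpar_finite 𝒪
  exact s59m_kerTW_pkg (p := p) (s59t_rho N Hb 𝒪 𝒪) (s59t_rho N₂ Hb₂ 𝒪 𝒪) (s59t_rho L H₁ 𝒪 𝒪)
    (s59t_rho N' H₂ 𝒪 𝒪) (s59t_DeltaMap2 h0₁ hle₁) (s59t_DeltaMap2 h0₂ hle₂)
    (s59t_DeltaMap2 h0b hleb) (s59t_DeltaMap2 h0' hle') (s59t_resGHpar hle₁ 𝒪 𝒪)
    (s59t_resGHpar hle₂ 𝒪 𝒪) B₁ C₁ B₂ C₂ ε₁ ε₂ ε₁' ε₂'
    (s59f_oldN hpN hN₂ hGb 𝒪 𝒪 e₀ he'b heeb) (s59f_oldN hpL hN' hG' 𝒪 𝒪 e₀ he' hee)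
    hpm hΔ' hCB hχ' hB hC
    hP1₁ hP1₂
    hρ₁ hρ₂ hρ₁' hρ₂' hcb hc'
    (fun δ => s59f_oldN_compat_rho hpN hN₂ hGb e₀ he'b heeb h0b hleb δ)
    (fun δ => s59f_oldN_compat_rho hpL hN' hG' e₀ he' hee h0' hle' δ)
    (s59f_oldN_hom hpN hpL hNL hN₂ hN' hGb hG' hle₁ hle₂ 𝒪 𝒪 e₀ he'b he' heeb hee)
    b₁ hb₁ b₂ hb₂ hP hPP hmem hbase

end Conc

end Fermat.Agent.Lib.S59
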