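/-
Programme R (S59), case (P), item [P8-base-W] (helper2, prefix `s59b_`; statement by helper9, board #3890 §3).

The `W`-specific BASE of the kernel pair: `N` prime to `p`, `N₂ = N p`, everything at `H = ⊤`.

* `s59b_BaseW W N B 𝒪 e` : the conclusion of helper5's `s59e_W_base_pkg` at `(N, ⊤)` as a predicate on `e`;
* **`s59b_kerBase_W`** : idempotent polynomials `e₁` (level `N`), `e₂` (level `N p`) with `s59b_BaseW`, the compatibility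
  `hcb` of helper4's package `s59f_oldN` with `(E₀(e₁), E₀(e₂))`, `(cor_A, cor_B)` ONTO and a non-zero element of
  `ker cor_A ∩ ker cor_B`; the `[P4]` input `hP4` (`(T_p² - 1)^m E₀(e₁) ⊆ 𝔪`) is a hypothesis;
* **`s59b_kerBase_P`** : the base kernel `P` (equivariant idempotent of `E₀(e₂) H(N p)` with image the kernel, free of
  rank `d₂ - 2 d₁ ≠ 0`), by helper9's `s59m_ker_free_part`.
-/
import Mathlib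
import Fermat.Agent.Lib.S59.B9KerBase
import Fermat.Agent.Lib.S59.EWPkg
import Fermat.Agent.Lib.S59.FEps5
import Fermat.Agent.Lib.S59.MKerFree
import Fermat.Agent.Lib.S59.MKerConc
import Fermat.Agent.Lib.S59.ETLvlOps

set_option autoImplicit false
set_option linter.unusedSectionVars false
set_option linter.unusedVariables false
set_option linter.style.haveILetI false

noncomputable section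

namespace Fermat.Agent.Lib.S59

open Matrix MatrixGroups CongruenceSubgroup IsLocalRing Polynomial
open Fermat.Agent.Lib.S29 Fermat.Agent.Lib.S48 Fermat.Agent.Lib.S41 Fermat.Agent.Lib.S44
open Fermat.Agent.Lib.S58

/-- the conclusion of helper5's `s59e_W_base_pkg` at `(N, ⊤)` as a predicate on `e` (the two `H`-clauses merged). -/
def s59b_BaseW (W : WeierstrassCurve ℤ) (N : ℕ) [NeZero N] (B : Finset ℕ) (𝒪 : Type) [CommRing 𝒪] [IsDomain 𝒪]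
    [IsDiscreteValuationRing 𝒪] (e : MvPolynomial ↥(s59t_goodB N B) 𝒪) : Prop :=
  1 - e ∈ s59t_evalIdeal (fun x : ↥(s59t_goodB N B) =>
    s59t_cB (𝒪 := 𝒪) N (fun ℓ => W.apOfModel ℓ) (x : s59w_AIdx N)) ∧
  (∀ t : MvPolynomial ↥(s59t_goodB N B) 𝒪, t ∉ s59t_evalIdeal (fun x : ↥(s59t_goodB N B) =>
        s59t_cB (𝒪 := 𝒪) N (fun ℓ => W.apOfModel ℓ) (x : s59w_AIdx N)) →
      ∃ η : MvPolynomial ↥(s59t_goodB N B) 𝒪,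
        s59t_E0 (⊤ : Subgroup (ZMod N)ˣ) B (η * t * e) = s59t_E0 ⊤ B e) ∧
  s59t_E0 (⊤ : Subgroup (ZMod N)ˣ) B e * s59t_E0 ⊤ B e = s59t_E0 ⊤ B e ∧
  s59t_E0 (⊤ : Subgroup (ZMod N)ˣ) B e ≠ 0 ∧
  (∀ x ∈ s59t_goodB N B, ∃ k : ℕ,
    ∀ y : s48h_Hpar 𝒪 (s48h_GammaH N (⊤ : Subgroup (ZMod N)ˣ)) 𝒪,
      ((s59w_op (⊤ : Subgroup (ZMod N)ˣ) 𝒪 x - s59t_cB (𝒪 := 𝒪) N (fun ℓ => W.apOfModel ℓ) x •
        (1 : Module.End 𝒪 (s48h_Hpar 𝒪 (s48h_GammaH N (⊤ : Subgroup (ZMod N)ˣ)) 𝒪))) ^ k)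
        (s59t_E0 ⊤ B e y) ∈
        (maximalIdeal 𝒪 • ⊤ :
          Submodule 𝒪 (s48h_Hpar 𝒪 (s48h_GammaH N (⊤ : Subgroup (ZMod N)ˣ)) 𝒪))) ∧
  s59t_TWFull (le_refl (Gamma0 N)) (s59t_GammaH_mono (le_top : (⊤ : Subgroup (ZMod N)ˣ) ≤ ⊤))
      (⊤ : Subgroup (s59t_Delta N (⊤ : Subgroup (ZMod N)ˣ))) (⊥ : Subgroup (s59t_Delta N ⊤))
      (s59t_E0 (⊤ : Subgroup (ZMod N)ˣ) B e) (s59t_E0 ⊤ B e)

/-- a prime outside `B` does not divide `N p p` when `B` contains `p` and the prime divisors of `N`. -/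
theorem s59b_not_dvd_aux {ℓ N p : ℕ} (B : Finset ℕ) (hℓ : ℓ.Prime) (hp : p.Prime) (hℓB : ℓ ∉ B)
    (hpB : p ∈ B) (hNB : ∀ q : ℕ, q.Prime → q ∣ N → q ∈ B) : ¬ ℓ ∣ N * p * p := by
  intro h
  have hℓp : ℓ ≠ p := fun h' => hℓB (h' ▸ hpB)
  rcases (Nat.Prime.dvd_mul hℓ).mp h with h | h
  · rcases (Nat.Prime.dvd_mul hℓ).mp h with h | h
    · exact hℓB (hNB _ hℓ h)
    · exact hℓp ((Nat.prime_dvd_prime_iff_eq hℓ hp).mp h)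
  · exact hℓp ((Nat.prime_dvd_prime_iff_eq hℓ hp).mp h)

section BaseW

variable (W : WeierstrassCurve ℤ) (hΔ : W.Δ ≠ 0) (p : ℕ) [Fact p.Prime]
  (hirr : W.ModRepIsIrreducible p)
  (N : ℕ) [NeZero N] (N₂ : ℕ) [NeZero N₂] (hN₂ : N₂ = N * p) (hsq₂ : Squarefree N₂) (hpN : ¬ p ∣ N)
  (B : Finset ℕ) (hpB : p ∈ B) (hNB : ∀ q : ℕ, q.Prime → q ∣ N → q ∈ B)
  (hocc₁ : s44i_LevelOcc N p (fun ℓ => W.apOfModel ℓ) B)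
  (hocc₂ : s44i_LevelOcc N₂ p (fun ℓ => W.apOfModel ℓ) B)
  {𝒪 : Type} [CommRing 𝒪] [IsDomain 𝒪] [IsDiscreteValuationRing 𝒪]
  [IsAdicComplete (maximalIdeal 𝒪) 𝒪]
  [Finite (ResidueField 𝒪)] [CharZero 𝒪] [Algebra ℤ_[p] 𝒪]
  (hp𝒪 : ((p : ℕ) : 𝒪) ∈ maximalIdeal 𝒪) (hp12 : s59e_auxTors p N)
  (hGb : s59f_IsG' N p (⊤ : Subgroup (ZMod N)ˣ) (s48h_GammaH N₂ (⊤ : Subgroup (ZMod N₂)ˣ)))
  (e₀ : SL(2, ℤ)) (he'b : e₀ ∈ Gamma0 N₂)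
  (heeb : s59f_gW hpN * e₀ * e₀ ∈ s48h_GammaH N₂ (⊤ : Subgroup (ZMod N₂)ˣ))

include hΔ hirr hsq₂ hocc₁ hp𝒪 hp12 hN₂ in
/-- the base package at `(N, ⊤)` in the form `s59b_BaseW`. -/
theorem s59b_baseW_exists_left : ∃ e₁ : MvPolynomial ↥(s59t_goodB N B) 𝒪, s59b_BaseW W N B 𝒪 e₁ := by
  have hsq : Squarefree N := by
    rw [hN₂] at hsq₂
    exact Squarefree.of_mul_left hsq₂
  have hnegH : (-1 : (ZMod N)ˣ) ∈ (⊤ : Subgroup (ZMod N)ˣ) := Subgroup.mem_top _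
  have hH : ∀ u : (ZMod N)ˣ, ∃ k : ℕ, u ^ (p ^ k) ∈ (⊤ : Subgroup (ZMod N)ˣ) :=
    fun u => ⟨0, Subgroup.mem_top _⟩
  obtain ⟨e, h1e, hunit, hid, hne, hnil, -, -, -, hP3⟩ :=
    s59e_W_base_pkg W hΔ p hirr N hsq B hocc₁ (𝒪 := 𝒪) hp𝒪
      (⊤ : Subgroup (ZMod N)ˣ) hnegH hH hp12
  refine ⟨e, h1e, ?_, hid, hne, hnil, hP3⟩
  intro t ht
  obtain ⟨η, h1, -⟩ := hunit t ht
  exact ⟨η, h1⟩

include hΔ hirr hsq₂ hocc₂ hp𝒪 hp12 hN₂ in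
/-- the base package at `(N p, ⊤)` in the form `s59b_BaseW`. -/
theorem s59b_baseW_exists_right :
    ∃ e₂ : MvPolynomial ↥(s59t_goodB N₂ B) 𝒪, s59b_BaseW W N₂ B 𝒪 e₂ := by
  have hnegH : (-1 : (ZMod N₂)ˣ) ∈ (⊤ : Subgroup (ZMod N₂)ˣ) := Subgroup.mem_top _
  have hH : ∀ u : (ZMod N₂)ˣ, ∃ k : ℕ, u ^ (p ^ k) ∈ (⊤ : Subgroup (ZMod N₂)ˣ) :=
    fun u => ⟨0, Subgroup.mem_top _⟩
  have hp12' : s59e_auxTors p N₂ := s59e_auxTors_mono (by rw [hN₂]; exact Dvd.intro _ rfl) hp12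
  obtain ⟨e, h1e, hunit, hid, hne, hnil, -, -, -, hP3⟩ :=
    s59e_W_base_pkg W hΔ p hirr N₂ hsq₂ B hocc₂ (𝒪 := 𝒪) hp𝒪
      (⊤ : Subgroup (ZMod N₂)ˣ) hnegH hH hp12'
  refine ⟨e, h1e, ?_, hid, hne, hnil, hP3⟩
  intro t ht
  obtain ⟨η, h1, -⟩ := hunit t ht
  exact ⟨η, h1⟩

include hΔ hirr hsq₂ hocc₁ hocc₂ hp𝒪 hp12 hN₂ hpB hNB in
set_option maxHeartbeats 1600000 in
/-- **[P8-base-W]**: the `W`-specific base of the kernel pair. -/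
theorem s59b_kerBase_W
    (hP4 : ∀ e₁ : MvPolynomial ↥(s59t_goodB N B) 𝒪, s59b_BaseW W N B 𝒪 e₁ →
      ∀ ip : s59w_TIdx N, ip.ell = p →
      ∃ m : ℕ, ∀ y, ((s59w_op (⊤ : Subgroup (ZMod N)ˣ) 𝒪 (Sum.inl ip) *
          s59w_op (⊤ : Subgroup (ZMod N)ˣ) 𝒪 (Sum.inl ip) - 1) ^ m)
        (s59t_E0 (⊤ : Subgroup (ZMod N)ˣ) B e₁ y) ∈ (maximalIdeal 𝒪 • ⊤ :
          Submodule 𝒪 (s48h_Hpar 𝒪 (s48h_GammaH N (⊤ : Subgroup (ZMod N)ˣ)) 𝒪))) :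
    ∃ (e₁ : MvPolynomial ↥(s59t_goodB N B) 𝒪) (e₂ : MvPolynomial ↥(s59t_goodB N₂ B) 𝒪),
      s59b_BaseW W N B 𝒪 e₁ ∧ s59b_BaseW W N₂ B 𝒪 e₂ ∧
      ∃ hcb : (s59f_oldN hpN hN₂ hGb 𝒪 𝒪 e₀ he'b heeb).Compat
          (s59t_E0 (⊤ : Subgroup (ZMod N)ˣ) B e₁) (s59t_E0 (⊤ : Subgroup (ZMod N₂)ˣ) B e₂),
        (∀ y₁ y₂ : s59t_part (s59t_E0 (⊤ : Subgroup (ZMod N)ˣ) B e₁),
          ∃ z : s59t_part (s59t_E0 (⊤ : Subgroup (ZMod N₂)ˣ) B e₂),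
            ((s59f_oldN hpN hN₂ hGb 𝒪 𝒪 e₀ he'b heeb).restrict hcb).corA z = y₁ ∧
            ((s59f_oldN hpN hN₂ hGb 𝒪 𝒪 e₀ he'b heeb).restrict hcb).corB z = y₂) ∧
        ∃ z : s59t_part (s59t_E0 (⊤ : Subgroup (ZMod N₂)ˣ) B e₂), z ≠ 0 ∧
          ((s59f_oldN hpN hN₂ hGb 𝒪 𝒪 e₀ he'b heeb).restrict hcb).corA z = 0 ∧
          ((s59f_oldN hpN hN₂ hGb 𝒪 𝒪 e₀ he'b heeb).restrict hcb).corB z = 0 := by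
  classical
  haveI : CharP (ResidueField 𝒪) p := s59e_charP_residue p hp𝒪
  have hpP : p.Prime := Fact.out
  have hp2 : p ≠ 2 := s59e_auxTors_ne_two hp12
  have hex1 := s59b_baseW_exists_left W hΔ p hirr N N₂ hN₂ hsq₂ B hocc₁ (𝒪 := 𝒪) hp𝒪 hp12
  have hex2 := s59b_baseW_exists_right W hΔ p hirr N N₂ hN₂ hsq₂ B hocc₂ (𝒪 := 𝒪) hp𝒪 hp12
  obtain ⟨e₁, hB₁⟩ := hex1
  obtain ⟨e₂, hB₂⟩ := hex2
  -- the index of `T_p` and the `[P4]` input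
  have hexσ := s48h_exists_sigma_p (M := N) hpN
  obtain ⟨σp, hσp, hσp11⟩ := hexσ
  have hexip : ∃ ip : s59w_TIdx N, ip.ell = p := ⟨⟨p, hpP, hpN, σp, hσp, hσp11⟩, rfl⟩
  obtain ⟨ip, hip⟩ := hexip
  have hnilp := hP4 e₁ hB₁ ip hip
  clear hP4
  have hB₁' := hB₁
  have hB₂' := hB₂
  unfold s59b_BaseW at hB₁' hB₂'
  obtain ⟨h1e₁, -, hid₁, hne₁, hnil₁, hP3₁⟩ := hB₁'
  obtain ⟨h1e₂, -, hid₂, hne₂, hnil₂, hP3₂⟩ := hB₂'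
  have hcb := s59f_oldN_compat_E0 hpN hN₂ hGb e₀ he'b heeb B (fun ℓ => W.apOfModel ℓ) hpB
    e₂ h1e₂ hid₂ hnil₂ e₁ h1e₁ hid₁ hnil₁
  refine ⟨e₁, e₂, hB₁, hB₂, hcb, ?_⟩
  -- the auxiliary (non-Eisenstein) prime
  have hexi := s59u_W_exists_nonEis_idx W hΔ p hp2 hirr (𝒪 := 𝒪) hp𝒪 B N
  obtain ⟨i, hiB, hu⟩ := hexi
  have hi : ¬ i.ell ∣ N * p * p := s59b_not_dvd_aux B i.prime hpP hiB hpB hNB
  have hεT : ∀ y, s59t_E0 (⊤ : Subgroup (ZMod N)ˣ) B e₁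
      (s59w_op (⊤ : Subgroup (ZMod N)ˣ) 𝒪 (Sum.inl i) y) =
      s59w_op (⊤ : Subgroup (ZMod N)ˣ) 𝒪 (Sum.inl i) (s59t_E0 (⊤ : Subgroup (ZMod N)ˣ) B e₁ y) := by
    intro y
    have h := LinearMap.congr_fun (s59e_E0_comm_op (⊤ : Subgroup (ZMod N)ˣ) B e₁ (Sum.inl i)) y
    rw [Module.End.mul_apply, Module.End.mul_apply] at h
    exact h
  have hnil_i := hnil₁ (Sum.inl i) (s59t_inl_mem_goodB (Bset := B) i hiB)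
  -- finiteness, non-triviality
  let bZ₀ := Module.Free.chooseBasis ℤ (s48h_M (s48h_GammaH N (⊤ : Subgroup (ZMod N)ˣ)))
  haveI : Module.Finite 𝒪 (s48h_Hpar 𝒪 (s48h_GammaH N (⊤ : Subgroup (ZMod N)ˣ)) 𝒪) :=
    Module.Finite.of_basis (s59u_cB bZ₀ 𝒪)
  haveI hfin₀ : Module.Finite 𝒪 (s59t_part (s59t_E0 (⊤ : Subgroup (ZMod N)ˣ) B e₁)) :=
    s59t_part_finite _
  haveI hnt₀ : Nontrivial (s59t_part (s59t_E0 (⊤ : Subgroup (ZMod N)ˣ) B e₁)) := by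
    by_contra hnt
    rw [not_nontrivial_iff_subsingleton] at hnt
    apply hne₁
    refine LinearMap.ext fun y => ?_
    have h0 : (⟨s59t_E0 (⊤ : Subgroup (ZMod N)ˣ) B e₁ y, ⟨y, rfl⟩⟩ :
        s59t_part (s59t_E0 (⊤ : Subgroup (ZMod N)ˣ) B e₁)) = 0 := Subsingleton.elim _ _
    exact congrArg Subtype.val h0
  refine ⟨fun y₁ y₂ => s59b_cor_surj_base 𝒪 p hpN hN₂ hGb e₀ he'b heeb hcb hp2 i hi hid₁ hεT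
      (((W.apOfModel i.ell : ℤ) : 𝒪)) hu hnil_i y₁ y₂, ?_⟩
  exact s59b_new_ne_zero_base 𝒪 p hpN hN₂ hGb e₀ he'b heeb hcb hp2 i hi hid₁ hεT
    (((W.apOfModel i.ell : ℤ) : 𝒪)) hu hnil_i ip hip hnilp

end BaseW

/-! ### The base kernel `P` -/

section BaseP

variable {p : ℕ} [hp : Fact p.Prime] {𝒪 : Type} [CommRing 𝒪] [IsLocalRing 𝒪]
  {N N₂ : ℕ} [NeZero N] [NeZero N₂] (hpN : ¬ p ∣ N) (hN₂ : N₂ = N * p)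
  {Hb : Subgroup (ZMod N)ˣ} {Hb₂ : Subgroup (ZMod N₂)ˣ}
  (hGb : s59f_IsG' N p Hb (s48h_GammaH N₂ Hb₂))
  (h0b : Gamma0 N₂ ≤ Gamma0 N) (hleb : s48h_GammaH N₂ Hb₂ ≤ s48h_GammaH N Hb)
  (e₀ : SL(2, ℤ)) (he'b : e₀ ∈ Gamma0 N₂)
  (heeb : s59f_gW hpN * e₀ * e₀ ∈ s48h_GammaH N₂ Hb₂)
  {ε₁ : Module.End 𝒪 (s48h_Hpar 𝒪 (s48h_GammaH N Hb) 𝒪)}
  {ε₂ : Module.End 𝒪 (s48h_Hpar 𝒪 (s48h_GammaH N₂ Hb₂) 𝒪)}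

/-- **the base kernel `P`**, general base level structure `(Hb, Hb₂)` (the diamond group of `(N₂, Hb₂)` a
`p`-group): an equivariant idempotent of `ε₂ H(N p)` with image `ker cor_A ∩ ker cor_B`, free of rank
`d₂ - 2 d₁ ≠ 0` over the diamond group ring. -/
theorem s59b_kerBase_P_gen (hpm : (p : 𝒪) ∈ maximalIdeal 𝒪)
    (hΔ : ∀ δ : s59t_Delta N₂ Hb₂, ∃ n : ℕ, δ ^ (p ^ n) = 1)
    (hρ₁ : ∀ δ y, ε₁ (s59t_rho N Hb 𝒪 𝒪 δ y) = s59t_rho N Hb 𝒪 𝒪 δ (ε₁ y))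
    (hρ₂ : ∀ δ y, ε₂ (s59t_rho N₂ Hb₂ 𝒪 𝒪 δ y) = s59t_rho N₂ Hb₂ 𝒪 𝒪 δ (ε₂ y))
    (hcb : (s59f_oldN hpN hN₂ hGb 𝒪 𝒪 e₀ he'b heeb).Compat ε₁ ε₂)
    {d₁ d₂ : ℕ} (b₁ : Fin d₁ → s59t_part ε₁)
    (hb₁ : Function.Bijective (s59t_evalMap
      ((s59t_partRep (s59t_rho N Hb 𝒪 𝒪) hρ₁).comp (s59t_DeltaMap2 h0b hleb)) b₁))
    (b₂ : Fin d₂ → s59t_part ε₂)
    (hb₂ : Function.Bijective (s59t_evalMap (s59t_partRep (s59t_rho N₂ Hb₂ 𝒪 𝒪) hρ₂) b₂))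
    (hbase : ∀ y₁ y₂ : s59t_part ε₁, ∃ z : s59t_part ε₂,
      ((s59f_oldN hpN hN₂ hGb 𝒪 𝒪 e₀ he'b heeb).restrict hcb).corA z = y₁ ∧
      ((s59f_oldN hpN hN₂ hGb 𝒪 𝒪 e₀ he'b heeb).restrict hcb).corB z = y₂)
    (hne : ∃ z : s59t_part ε₂, z ≠ 0 ∧
      ((s59f_oldN hpN hN₂ hGb 𝒪 𝒪 e₀ he'b heeb).restrict hcb).corA z = 0 ∧
      ((s59f_oldN hpN hN₂ hGb 𝒪 𝒪 e₀ he'b heeb).restrict hcb).corB z = 0) :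
    2 * d₁ ≤ d₂ ∧ d₂ - 2 * d₁ ≠ 0 ∧
    ∃ (P : Module.End 𝒪 (s59t_part ε₂))
      (hP : ∀ δ x, P (s59t_partRep (s59t_rho N₂ Hb₂ 𝒪 𝒪) hρ₂ δ x) =
        s59t_partRep (s59t_rho N₂ Hb₂ 𝒪 𝒪) hρ₂ δ (P x)),
      P * P = P ∧
      (∀ x, x ∈ s59t_part P ↔
        ((s59f_oldN hpN hN₂ hGb 𝒪 𝒪 e₀ he'b heeb).restrict hcb).corA x = 0 ∧
        ((s59f_oldN hpN hN₂ hGb 𝒪 𝒪 e₀ he'b heeb).restrict hcb).corB x = 0) ∧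
      ∃ b : Fin (d₂ - 2 * d₁) → s59t_part P,
        Function.Bijective (s59t_evalMap
          (s59t_partRep (s59t_partRep (s59t_rho N₂ Hb₂ 𝒪 𝒪) hρ₂) hP) b) := by
  classical
  have hDρ := fun δ => s59f_oldN_compat_rho (R := 𝒪) (A := 𝒪) hpN hN₂ hGb e₀ he'b heeb h0b hleb δ
  have hfA : ∀ δ x, ((s59f_oldN hpN hN₂ hGb 𝒪 𝒪 e₀ he'b heeb).restrict hcb).corA
      (s59t_partRep (s59t_rho N₂ Hb₂ 𝒪 𝒪) hρ₂ δ x) =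
      ((s59t_partRep (s59t_rho N Hb 𝒪 𝒪) hρ₁).comp (s59t_DeltaMap2 h0b hleb)) δ
        (((s59f_oldN hpN hN₂ hGb 𝒪 𝒪 e₀ he'b heeb).restrict hcb).corA x) :=
    fun δ x => Subtype.ext ((hDρ δ).corA x.1).symm
  have hfB : ∀ δ x, ((s59f_oldN hpN hN₂ hGb 𝒪 𝒪 e₀ he'b heeb).restrict hcb).corB
      (s59t_partRep (s59t_rho N₂ Hb₂ 𝒪 𝒪) hρ₂ δ x) =
      ((s59t_partRep (s59t_rho N Hb 𝒪 𝒪) hρ₁).comp (s59t_DeltaMap2 h0b hleb)) δ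
        (((s59f_oldN hpN hN₂ hGb 𝒪 𝒪 e₀ he'b heeb).restrict hcb).corB x) :=
    fun δ x => Subtype.ext ((hDρ δ).corB x.1).symm
  have key := s59m_ker_free_part (p := p) (R := 𝒪) (Δ := s59t_Delta N₂ Hb₂)
    (F₂ := s59t_part ε₂) (F₁ := s59t_part ε₁) hpm hΔ
  have key2 := key (s59t_partRep (s59t_rho N₂ Hb₂ 𝒪 𝒪) hρ₂)
    ((s59t_partRep (s59t_rho N Hb 𝒪 𝒪) hρ₁).comp (s59t_DeltaMap2 h0b hleb)) (d₂ := d₂) (d₁ := d₁)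
  have key3 := key2 b₂ hb₂
  have key4 := key3 b₁ hb₁
  have key5 := key4 ((s59f_oldN hpN hN₂ hGb 𝒪 𝒪 e₀ he'b heeb).restrict hcb).corA
    ((s59f_oldN hpN hN₂ hGb 𝒪 𝒪 e₀ he'b heeb).restrict hcb).corB
  have key6 := key5 hfA
  have key7 := key6 hfB
  have hker := key7 hbase
  clear key key2 key3 key4 key5 key6 key7
  obtain ⟨hle, P, hP, hPP, hmem, b, hb⟩ := hker
  refine ⟨hle, ?_, P, hP, hPP, hmem, b, hb⟩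
  -- the rank is non-zero
  intro h0
  obtain ⟨z, hz, hzA, hzB⟩ := hne
  apply hz
  have hzP : z ∈ s59t_part P := (hmem z).mpr ⟨hzA, hzB⟩
  obtain ⟨c, hc⟩ := hb.2 ⟨z, hzP⟩
  haveI : IsEmpty (Fin (d₂ - 2 * d₁)) := by
    rw [h0]
    exact Fin.isEmpty
  have hc0 : c = 0 := Subsingleton.elim _ _
  rw [hc0, map_zero] at hc
  exact (congrArg Subtype.val hc).symm

end BaseP

section BasePTop

variable {p : ℕ} [hp : Fact p.Prime] {𝒪 : Type} [CommRing 𝒪] [IsLocalRing 𝒪]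
  {N N₂ : ℕ} [NeZero N] [NeZero N₂] (hpN : ¬ p ∣ N) (hN₂ : N₂ = N * p)
  (hGb : s59f_IsG' N p (⊤ : Subgroup (ZMod N)ˣ) (s48h_GammaH N₂ (⊤ : Subgroup (ZMod N₂)ˣ)))
  (e₀ : SL(2, ℤ)) (he'b : e₀ ∈ Gamma0 N₂)
  (heeb : s59f_gW hpN * e₀ * e₀ ∈ s48h_GammaH N₂ (⊤ : Subgroup (ZMod N₂)ˣ))
  {ε₁ : Module.End 𝒪 (s48h_Hpar 𝒪 (s48h_GammaH N (⊤ : Subgroup (ZMod N)ˣ)) 𝒪)}
  {ε₂ : Module.End 𝒪 (s48h_Hpar 𝒪 (s48h_GammaH N₂ (⊤ : Subgroup (ZMod N₂)ˣ)) 𝒪)}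

/-- **the base kernel `P` at `H = ⊤`** (the base inputs `P hP hPP hmem` of helper9's `s59m_kerTW_conc`, with the rank
`d₂ - 2 d₁ ≠ 0`). -/
theorem s59b_kerBase_P (hpm : (p : 𝒪) ∈ maximalIdeal 𝒪)
    (hρ₁ : ∀ δ y, ε₁ (s59t_rho N (⊤ : Subgroup (ZMod N)ˣ) 𝒪 𝒪 δ y) =
      s59t_rho N (⊤ : Subgroup (ZMod N)ˣ) 𝒪 𝒪 δ (ε₁ y))
    (hρ₂ : ∀ δ y, ε₂ (s59t_rho N₂ (⊤ : Subgroup (ZMod N₂)ˣ) 𝒪 𝒪 δ y) =
      s59t_rho N₂ (⊤ : Subgroup (ZMod N₂)ˣ) 𝒪 𝒪 δ (ε₂ y))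
    (hcb : (s59f_oldN hpN hN₂ hGb 𝒪 𝒪 e₀ he'b heeb).Compat ε₁ ε₂)
    {d₁ d₂ : ℕ} (b₁ : Fin d₁ → s59t_part ε₁)
    (hb₁ : Function.Bijective (s59t_evalMap
      (s59t_partRep (s59t_rho N (⊤ : Subgroup (ZMod N)ˣ) 𝒪 𝒪) hρ₁) b₁))
    (b₂ : Fin d₂ → s59t_part ε₂)
    (hb₂ : Function.Bijective (s59t_evalMap
      (s59t_partRep (s59t_rho N₂ (⊤ : Subgroup (ZMod N₂)ˣ) 𝒪 𝒪) hρ₂) b₂))
    (hbase : ∀ y₁ y₂ : s59t_part ε₁, ∃ z : s59t_part ε₂,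
      ((s59f_oldN hpN hN₂ hGb 𝒪 𝒪 e₀ he'b heeb).restrict hcb).corA z = y₁ ∧
      ((s59f_oldN hpN hN₂ hGb 𝒪 𝒪 e₀ he'b heeb).restrict hcb).corB z = y₂)
    (hne : ∃ z : s59t_part ε₂, z ≠ 0 ∧
      ((s59f_oldN hpN hN₂ hGb 𝒪 𝒪 e₀ he'b heeb).restrict hcb).corA z = 0 ∧
      ((s59f_oldN hpN hN₂ hGb 𝒪 𝒪 e₀ he'b heeb).restrict hcb).corB z = 0) :
    2 * d₁ ≤ d₂ ∧ d₂ - 2 * d₁ ≠ 0 ∧
    ∃ (P : Module.End 𝒪 (s59t_part ε₂))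
      (hP : ∀ δ x, P (s59t_partRep (s59t_rho N₂ (⊤ : Subgroup (ZMod N₂)ˣ) 𝒪 𝒪) hρ₂ δ x) =
        s59t_partRep (s59t_rho N₂ (⊤ : Subgroup (ZMod N₂)ˣ) 𝒪 𝒪) hρ₂ δ (P x)),
      P * P = P ∧
      (∀ x, x ∈ s59t_part P ↔
        ((s59f_oldN hpN hN₂ hGb 𝒪 𝒪 e₀ he'b heeb).restrict hcb).corA x = 0 ∧
        ((s59f_oldN hpN hN₂ hGb 𝒪 𝒪 e₀ he'b heeb).restrict hcb).corB x = 0) ∧
      ∃ b : Fin (d₂ - 2 * d₁) → s59t_part P,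
        Function.Bijective (s59t_evalMap
          (s59t_partRep (s59t_partRep (s59t_rho N₂ (⊤ : Subgroup (ZMod N₂)ˣ) 𝒪 𝒪) hρ₂) hP) b) := by
  have h0b : Gamma0 N₂ ≤ Gamma0 N := s59t_Gamma0_anti (by rw [hN₂]; exact Dvd.intro _ rfl)
  have hleb : s48h_GammaH N₂ (⊤ : Subgroup (ZMod N₂)ˣ) ≤ s48h_GammaH N (⊤ : Subgroup (ZMod N)ˣ) :=
    hGb.le (s59f_isG_GammaH N ⊤)
  have hΔ : ∀ δ : s59t_Delta N₂ (⊤ : Subgroup (ZMod N₂)ˣ), ∃ n : ℕ, δ ^ (p ^ n) = 1 :=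
    fun δ => ⟨0, Subsingleton.elim _ _⟩
  have hχ : Function.Bijective (s59t_DeltaMap2 h0b hleb) :=
    ⟨fun x y _ => Subsingleton.elim x y, fun y => ⟨1, Subsingleton.elim _ _⟩⟩
  have j1 := s59t_evalMap_comp_bijective (R := 𝒪) (Δ := s59t_Delta N (⊤ : Subgroup (ZMod N)ˣ))
    (Δ' := s59t_Delta N₂ (⊤ : Subgroup (ZMod N₂)ˣ)) (V := s59t_part ε₁)
    (s59t_partRep (s59t_rho N (⊤ : Subgroup (ZMod N)ˣ) 𝒪 𝒪) hρ₁) (s59t_DeltaMap2 h0b hleb) hχ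
    (d := d₁)
  have hb₁' := j1 b₁ hb₁
  have k1 := s59b_kerBase_P_gen (p := p) (𝒪 := 𝒪) hpN hN₂ hGb h0b hleb e₀ he'b heeb
    (ε₁ := ε₁) (ε₂ := ε₂) hpm hΔ
  have k2 := k1 hρ₁ hρ₂ hcb (d₁ := d₁) (d₂ := d₂)
  have k3 := k2 b₁ hb₁'
  have k4 := k3 b₂ hb₂
  have k5 := k4 hbase
  exact k5 hne

end BasePTop

end Fermat.Agent.Lib.S59
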