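/-
PROGRAMME R2 = S59, case (P) non-minimal, leaf [W1] (helper2, prefix `s59b_`), file A: **the Galois core of the sharp
local bound for the condition "strict ∧ flat" at `p`.**

`s59b_lp0_core` : `p` odd, `P` a place of `ℚ̄` over `p`, `Good` a class of number fields with the Kummer bound
`s56f_KB`, `ψ : G_ℚ → k` the mod `p` cyclotomic character.  Any two GOOD `ψ`-cocycles `h`, `h'` on `D_P` (cocycle
identity on `D_P`, vanishing on `D_P ∩ G_L` for a good `L`) are proportional modulo coboundaries: either `h` is a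
coboundary on `D_P`, or `h' = c • h + ∂m` on `D_P`.

Proof: helper3's character count (`s56f_cc_f1`, no `5 ≤ p`) on `V₁` and helper8's rigidity (`s56f_wc_rigid`), with
the local dictionary of `F3WildAsm` (`π₁`, `ζ`, `τ`, a Frobenius fixing `π₁`, the tame field `K₁`).
-/
import Mathlib
import Fermat.Agent.Lib.S56.F3WildFinal

set_option autoImplicit false
set_option linter.style.haveILetI false
set_option linter.unusedVariables false

noncomputable section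

namespace Fermat.Agent.Lib.S59

open Fermat.Agent.Lib.S56 Fermat.Agent.Lib.PT Fermat.Agent.Lib.Frey Polynomial Module

local notation "Qbar" => AlgebraicClosure ℚ
local notation "GQ" => (AlgebraicClosure ℚ ≃ₐ[ℚ] AlgebraicClosure ℚ)

/-- good `ψ`-cocycles on `D_P`: the cocycle identity on `D_P`, vanishing on `D_P ∩ G_L` for a good `L`. -/
def s59b_GoodFun {k : Type} [Field k] (P : ValuationSubring Qbar)
    (Good : IntermediateField ℚ Qbar → Prop) (ψ h : GQ → k) : Prop :=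
  (∀ g ∈ P.decompositionSubgroup ℚ, ∀ g' ∈ P.decompositionSubgroup ℚ,
    h (g * g') = h g + ψ g * h g') ∧
  ∃ L, Good L ∧ ∀ g ∈ P.decompositionSubgroup ℚ, g ∈ L.fixingSubgroup → h g = 0

section Core

variable {p : ℕ} [hpF : Fact p.Prime] {k : Type} [Field k] [Algebra (ZMod p) k]

/-- the value of the cyclotomic character at an element with a known exponent on `ζ`. -/
theorem s59b_psi_of_zpow {ζ : Qbar} (hζ : ζ ^ p = 1) (hζ1 : ζ ≠ 1) (ψ : GQ → k)
    (hψspec : ∀ (σ : GQ) (a : ℕ), (∀ μ : Qbar, μ ^ p = 1 → σ μ = μ ^ a) → ψ σ = (a : k))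
    (σ : GQ) (a : ZMod p) (hσ : σ ζ = s56f_zpow ζ a) : ψ σ = algebraMap (ZMod p) k a := by
  have hprim : IsPrimitiveRoot ζ p := by
    have hord : orderOf ζ = p := by
      have hdvd : orderOf ζ ∣ p := orderOf_dvd_of_pow_eq_one hζ
      rcases (Nat.dvd_prime hpF.out).mp hdvd with h1 | h1
      · exact absurd (orderOf_eq_one_iff.mp h1) hζ1
      · exact h1
    rw [← hord]
    exact IsPrimitiveRoot.orderOf ζ
  haveI : NeZero p := ⟨hpF.out.ne_zero⟩
  have h1 : ψ σ = ((a.val : ℕ) : k) := by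
    refine hψspec σ a.val (fun μ hμ => ?_)
    obtain ⟨i, _, rfl⟩ := hprim.eq_pow_of_pow_eq_one hμ
    rw [map_pow, hσ]
    unfold s56f_zpow
    rw [← pow_mul, ← pow_mul, mul_comm]
  rw [h1]
  have h2 : algebraMap (ZMod p) k a = algebraMap (ZMod p) k ((a.val : ℕ) : ZMod p) := by
    rw [ZMod.natCast_zmod_val]
  rw [h2, map_natCast]

/-- **the Galois core**: good cyclotomic cocycles on `D_P` are proportional modulo coboundaries. -/
theorem s59b_lp0_core (hp2 : p ≠ 2) [Finite k] [CharP k p]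
    (P : ValuationSubring Qbar) (hP : P.LiesOverPrime p)
    (Good : IntermediateField ℚ Qbar → Prop) (hGfd : ∀ L, Good L → FiniteDimensional ℚ L)
    (hKB : s56f_KB p P Good)
    (ψ : GQ → k) (hψmul : ∀ g h, ψ (g * h) = ψ g * ψ h)
    (hψspec : ∀ (σ : GQ) (a : ℕ), (∀ μ : Qbar, μ ^ p = 1 → σ μ = μ ^ a) → ψ σ = (a : k))
    (h h' : GQ → k) (hh : s59b_GoodFun P Good ψ h) (hh' : s59b_GoodFun P Good ψ h') :
    (∃ m : k, ∀ g ∈ P.decompositionSubgroup ℚ, h g = (ψ g - 1) * m) ∨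
    (∃ c m : k, ∀ g ∈ P.decompositionSubgroup ℚ, h' g = c * h g + (ψ g - 1) * m) := by
  have hp : p.Prime := hpF.out
  -- the local dictionary
  have he1 : 0 < p ^ 2 - 1 := by
    have : 2 ≤ p := hp.two_le
    have : 4 ≤ p ^ 2 := by nlinarith
    omega
  obtain ⟨π₁, hπ₁⟩ : ∃ π₁ : Qbar, π₁ ^ (p ^ 2 - 1) = -(p : Qbar) :=
    IsAlgClosed.exists_pow_nat_eq _ he1
  obtain ⟨ζ, hζp, hζ1⟩ := s56f_wa_exists_zeta p
  have d := s56f_ifaceDict p P hP π₁ ζ hπ₁ hζp hζ1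
  obtain ⟨τ, ξ, aτ, T, hgenI, hexpI⟩ :=
    s56f_wa_exists_tau s56f_ifaceTameGen s56f_ifaceOmega hp2 hP hπ₁ hζp hζ1
  obtain ⟨φ, hφ, hφπ⟩ := s56f_ifaceFrobPi p hp P hP π₁ hπ₁
  have hφD : φ ∈ P.decompositionSubgroup ℚ := hφ.mem_decompositionSubgroup
  have hτD : τ ∈ P.decompositionSubgroup ℚ := T.memD
  have hτI : τ ∈ P.inertiaSubgroupIn ℚ := T.mem
  have hID : ∀ σ ∈ P.inertiaSubgroupIn ℚ, σ ∈ P.decompositionSubgroup ℚ :=
    fun σ hσ => s56f_wa_inertia_le hσ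
  have hV₁I : ∀ σ ∈ s56f_V1 P π₁, σ ∈ P.inertiaSubgroupIn ℚ := fun σ hσ => hσ.1
  obtain ⟨K₁, hK₁fd, hK₁n, hK₁t, hζK, hπK, hV₁K, -⟩ :=
    s56f_ifaceK1 p hp hp2 P hP π₁ ζ hπ₁ hζp hζ1 1 one_pos
  -- the character
  have hψ1 : ψ 1 = 1 := by
    have := hψspec 1 1 (fun μ _ => by rw [AlgEquiv.one_apply, pow_one])
    rwa [Nat.cast_one] at this
  have hψne : ∀ σ, ψ σ ≠ 0 := by
    intro σ h0
    have h1 := hψmul σ σ⁻¹
    rw [mul_inv_cancel, hψ1, h0, zero_mul] at h1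
    exact one_ne_zero h1
  have hψU : ∀ u ∈ P.decompositionSubgroup ℚ, u ∈ K₁.fixingSubgroup → ψ u = 1 := by
    intro u _ huK
    have huζ : u ζ = s56f_zpow ζ (1 : ZMod p) := by
      have h1 : u ζ = ζ := (IntermediateField.mem_fixingSubgroup_iff K₁ u).mp huK ζ hζK
      rw [h1]
      unfold s56f_zpow
      haveI : Fact (1 < p) := ⟨hp.one_lt⟩
      rw [ZMod.val_one, pow_one]
    rw [s59b_psi_of_zpow hζp hζ1 ψ hψspec u 1 huζ, map_one]
  have hψτ : ψ τ = algebraMap (ZMod p) k aτ := s59b_psi_of_zpow hζp hζ1 ψ hψspec τ aτ T.zeta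
  have hψτ1 : ψ τ ≠ 1 := by
    rw [hψτ]
    intro h1
    apply T.a_ne_one d hp2
    apply (algebraMap (ZMod p) k).injective
    rw [h1, map_one]
  have hψτp : ψ τ ^ p = ψ τ := by
    rw [hψτ, ← map_pow, ZMod.pow_card]
  obtain ⟨aφ, hφζ⟩ := s56f_wa_exists_exp hζp hζ1 φ
  obtain ⟨lam0, hlam⟩ := s56f_wa_exists_lam0 p k
  -- the two cocycles lie in `𝓗_ψ(D)`
  obtain ⟨hcoc, L, hL, hvan⟩ := hh
  obtain ⟨hcoc', L', hL', hvan'⟩ := hh'
  have hInH := s56f_wa_InH d hKB hL (hGfd L hL) hK₁fd hK₁n hK₁t hζK hV₁K ψ h hψU hcoc hvan lam0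
  have hInH' := s56f_wa_InH d hKB hL' (hGfd L' hL') hK₁fd hK₁n hK₁t hζK hV₁K ψ h' hψU hcoc' hvan'
    lam0
  have hτD' : τ ∈ (↑(P.decompositionSubgroup ℚ) : Set GQ) := hτD
  have hφD' : φ ∈ (↑(P.decompositionSubgroup ℚ) : Set GQ) := hφD
  have hcc := s56f_cc_f1 s56f_ifaceHit s56f_ifaceCount s56f_ifaceArith1 d T hτD' (ψ := ψ)
    (hψne τ) hψτp hlam hφ hφD' hφζ (hψne φ)
  have hψV : ∀ u ∈ s56f_V1 P π₁, ψ u = 1 := fun u hu =>
    hψU u (hID u (hV₁I u hu)) (hV₁K u hu)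
  have hrigid : ∀ f : GQ → k,
      (∀ g ∈ P.decompositionSubgroup ℚ, ∀ g' ∈ P.decompositionSubgroup ℚ,
        f (g * g') = f g + ψ g * f g') →
      (∀ u ∈ s56f_V1 P π₁, f u = 0) →
      ∃ m : k, ∀ g ∈ P.decompositionSubgroup ℚ, f g = (ψ g - 1) * m := fun f hf hfV =>
    s56f_wc_rigid (P.decompositionSubgroup ℚ) (P.inertiaSubgroupIn ℚ) (s56f_V1 P π₁) hV₁I hID
      (fun g hg ι hι => s56f_wa_inertia_conj hg hι) τ hτI hgenI ψ (fun g _ g' _ => hψmul g g')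
      hψV hψτ1 f hf hfV
  by_cases hV : ∀ u ∈ s56f_V1 P π₁, h u = 0
  · exact Or.inl (hrigid h hcoc hV)
  · right
    push_neg at hV
    obtain ⟨c, hc⟩ := hcc.2 h h' hInH hInH' hV
    obtain ⟨m, hm⟩ := hrigid (fun g => h' g - c * h g) (fun g hg g' hg' => by
      show h' (g * g') - c * h (g * g') = h' g - c * h g + ψ g * (h' g' - c * h g')
      rw [hcoc g hg g' hg', hcoc' g hg g' hg']
      ring) (fun u hu => by
      show h' u - c * h u = 0
      rw [hc u hu, sub_self])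
    refine ⟨c, m, fun g hg => ?_⟩
    have := hm g hg
    have h2 : h' g - c * h g = (ψ g - 1) * m := this
    linear_combination h2

end Core

end Fermat.Agent.Lib.S59
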