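/-
PROGRAMME R2 = S59, case (P) non-minimal, leaf [W1] (helper2, prefix `s59b_`), file B: **the `k`-linear sharp bound
`dim_k (L_p^{strict} ⊓ H¹_Good) ≤ h⁰(G_p, ad⁰ρ̄)`.**

* `s59b_finrank_le_one_of_prop` : a subspace any two of whose elements are proportional has dimension `≤ 1`;
* `s59b_bound_of_tri_sub` : helper5's rank–nullity (`s56o_bound_of_tri`) for a SUBSPACE `𝒰 ⊇ δ'(Z)` of
  `H¹_cont(G, k(χ))`: `dim Ψ_*(𝒰) + 1 ≤ h⁰(G, ad⁰ρ̄) + dim 𝒰`;
* `s59b_H1G_cases` : an element of helper3's `s56f_H1G` is `0` or has a good cocycle (`Good` stable under sup);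
* `s59b_Lp_inf_H1G_le` : `L_p^{strict} ⊓ H¹_Good ⊆ Ψ_*(𝒰)`, `𝒰` = the good classes of `H¹_cont(G, k(χ))`.
-/
import Mathlib
import Fermat.Agent.Lib.S56.OBound
import Fermat.Agent.Lib.S56.IfaceF3

set_option autoImplicit false
set_option linter.style.haveILetI false
set_option linter.unusedVariables false

noncomputable section

namespace Fermat.Agent.Lib.S59

open Fermat.Agent.Lib.S56 groupCohomology ExtCitation CategoryTheory Module

local notation "Qbar" => AlgebraicClosure ℚ
local notation "GQ" => (AlgebraicClosure ℚ ≃ₐ[ℚ] AlgebraicClosure ℚ)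

/-- a subspace any two of whose elements are proportional is finite-dimensional of dimension `≤ 1`. -/
theorem s59b_finrank_le_one_of_prop {k : Type*} [Field k] {V : Type*} [AddCommGroup V] [Module k V]
    (U : Submodule k V) (h : ∀ y ∈ U, ∀ y' ∈ U, y = 0 ∨ ∃ c : k, y' = c • y) :
    Module.Finite k ↥U ∧ finrank k ↥U ≤ 1 := by
  by_cases hU : ∃ y ∈ U, y ≠ 0
  · obtain ⟨y, hy, hy0⟩ := hU
    have hle : U ≤ Submodule.span k {y} := by
      intro y' hy'
      rcases h y hy y' hy' with h0 | ⟨c, rfl⟩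
      · exact absurd h0 hy0
      · exact Submodule.smul_mem _ c (Submodule.mem_span_singleton_self y)
    haveI : Module.Finite k ↥(Submodule.span k {y}) := Module.Finite.span_singleton k y
    refine ⟨Submodule.finiteDimensional_of_le hle, ?_⟩
    calc finrank k ↥U ≤ finrank k ↥(Submodule.span k {y}) := Submodule.finrank_mono hle
      _ = 1 := finrank_span_singleton hy0
  · have hbot : U = ⊥ := by
      rw [eq_bot_iff]
      intro y hy
      by_contra hy0
      exact hU ⟨y, hy, hy0⟩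
    subst hbot
    refine ⟨inferInstance, ?_⟩
    rw [finrank_bot]
    exact Nat.zero_le 1

section Tri

variable {k : Type} [Field k] {G : Type} [Group G]
variable {ρbar : ResidualGaloisRep k} {r : G →* GQ} {χ : G →* kˣ}
  {b : Module.Basis (Fin 2) k ρbar.V}

/-- **the rank–nullity of `s56o_bound_of_tri` for a subspace `𝒰 ⊇ δ'(Z)`.** -/
theorem s59b_bound_of_tri_sub (h : s56o_Tri ρbar r χ b)
    (𝒰 : Submodule k ↥(continuousH1 r (ofChar χ))) [Module.Finite k ↥𝒰]
    (hδ : ∀ Y, s56o_deltaH h Y ∈ 𝒰) (d : ℕ) (hd : finrank k ↥𝒰 ≤ d) :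
    finrank k ↥((𝒰.map (continuousH1 r (ofChar χ)).subtype).map (s56o_PsiH h)) + 1 ≤
      finrank k (H0 (Rep.res r (s56a_ad0 ρbar))) + d := by
  set Ψ𝒰 : ↥𝒰 →ₗ[k] H1 (Rep.res r (s56a_ad0 ρbar)) :=
    (s56o_PsiH h) ∘ₗ (continuousH1 r (ofChar χ)).subtype ∘ₗ 𝒰.subtype with hΨ𝒰
  have ha := LinearMap.finrank_range_add_finrank_ker Ψ𝒰
  have hrange : LinearMap.range Ψ𝒰 =
      (𝒰.map (continuousH1 r (ofChar χ)).subtype).map (s56o_PsiH h) := by
    rw [hΨ𝒰, LinearMap.range_comp, LinearMap.range_comp, Submodule.range_subtype]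
  set δ𝒰 : ↥(s56o_Z ρbar r b) →ₗ[k] ↥𝒰 := LinearMap.codRestrict 𝒰 (s56o_deltaH h) hδ with hδ𝒰
  have hb : LinearMap.range δ𝒰 ≤ LinearMap.ker Ψ𝒰 := by
    rintro _ ⟨Y, rfl⟩
    rw [LinearMap.mem_ker]
    exact s56o_PsiH_deltaH h Y
  have hb' := Submodule.finrank_mono hb
  have hc := LinearMap.finrank_range_add_finrank_ker δ𝒰
  have hker : LinearMap.ker δ𝒰 = LinearMap.ker (s56o_deltaH h) := LinearMap.ker_codRestrict _ _ _
  have hd1 : finrank k ↥(LinearMap.ker δ𝒰) ≤
      finrank k ↥((Rep.res r (s56a_ad0 ρbar)).ρ.invariants) + 1 := by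
    rw [hker, ← Submodule.finrank_map_subtype_eq (s56o_Z ρbar r b) (LinearMap.ker (s56o_deltaH h))]
    refine (Submodule.finrank_mono (s56o_ker_deltaH_le h)).trans ?_
    refine (Submodule.finrank_add_le_finrank_add_finrank _ _).trans ?_
    rw [finrank_span_singleton (s56o_n0'_ne_zero ρbar r b)]
  have he := s56o_two_le_finrank_Z h
  rw [s56o_finrank_H0, ← hrange]
  omega

end Tri

section H1G

variable {k : Type} [Field k] (ρbar : ResidualGaloisRep k) {G : Type} [Group G] (r : G →* GQ)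

/-- an element of `H¹_Good` is `0` or has a good cocycle (`Good` stable under composita). -/
theorem s59b_H1G_cases (Good : IntermediateField ℚ Qbar → Prop)
    (hsup : ∀ L L', Good L → Good L' → Good (L ⊔ L'))
    (x : H1 (Rep.res r (s56a_ad0 ρbar))) (hx : x ∈ s56f_H1G ρbar r Good) :
    x = 0 ∨ ∃ L : IntermediateField ℚ Qbar, Good L ∧ (∀ σ ∈ L.fixingSubgroup, ρbar.ρ σ = 1) ∧
      ∃ c : cocycles₁ (Rep.res r (s56a_ad0 ρbar)),
        (∀ g : G, r g ∈ L.fixingSubgroup → c g = 0) ∧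
          (H1π (Rep.res r (s56a_ad0 ρbar))).hom c = x := by
  unfold s56f_H1G at hx
  induction hx using Submodule.span_induction with
  | mem x hx => exact Or.inr hx
  | zero => exact Or.inl rfl
  | add x y _ _ ihx ihy =>
    rcases ihx with rfl | ⟨L, hL, hker, c, hvan, rfl⟩
    · rw [zero_add]; exact ihy
    · rcases ihy with rfl | ⟨L', hL', hker', c', hvan', rfl⟩
      · rw [add_zero]; exact Or.inr ⟨L, hL, hker, c, hvan, rfl⟩
      · refine Or.inr ⟨L ⊔ L', hsup L L' hL hL', fun σ hσ => hker σ ?_, c + c', fun g hg => ?_, ?_⟩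
        · exact IntermediateField.fixingSubgroup_antitone (le_sup_left : L ≤ L ⊔ L') hσ
        · have h1 : c g = 0 := hvan g
            (IntermediateField.fixingSubgroup_antitone (le_sup_left : L ≤ L ⊔ L') hg)
          have h2 : c' g = 0 := hvan' g
            (IntermediateField.fixingSubgroup_antitone (le_sup_right : L' ≤ L ⊔ L') hg)
          show c g + c' g = 0
          rw [h1, h2, add_zero]
        · rw [map_add]
  | smul a x _ ihx =>
    rcases ihx with rfl | ⟨L, hL, hker, c, hvan, rfl⟩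
    · rw [smul_zero]; exact Or.inl rfl
    · refine Or.inr ⟨L, hL, hker, a • c, fun g hg => ?_, ?_⟩
      · show a • c g = 0
        rw [hvan g hg, smul_zero]
      · rw [map_smul]

end H1G

end Fermat.Agent.Lib.S59
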