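/-
PROGRAMME R2 = S59, case (P) non-minimal, leaf [W1] (helper2, prefix `s59b_`), file C: **the good classes of
`H¹_cont(G, k(χ))` and the inclusion `L_p^{strict} ⊓ H¹_Good ⊆ Ψ_*(𝒰)`.**

* `s59b_U` : the subspace `𝒰` of `H¹_cont(G, k(χ))` of the classes with a level-constant cocycle vanishing on
  `r⁻¹(G_L)` for a good `L` with `G_L ⊆ ker ρ̄` (a subspace as soon as ONE such `L₀` exists);
* `s59b_deltaH_mem_U` : `δ'(Z) ⊆ 𝒰`;
* `s59b_Lp_inf_H1G_le` : `L_p^{strict} ⊓ H¹_Good ⊆ Ψ_*(𝒰)`;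
* `s59b_finrank_inf_le` : hence `dim_k (L_p^{strict} ⊓ H¹_Good) ≤ h⁰(G, ad⁰ρ̄)` as soon as any two elements of `𝒰` are
  proportional.
-/
import Mathlib
import Fermat.Agent.Lib.S59.B9Lp0B

set_option autoImplicit false
set_option linter.style.haveILetI false
set_option linter.unusedVariables false

noncomputable section

namespace Fermat.Agent.Lib.S59

open Fermat.Agent.Lib.S56 groupCohomology ExtCitation CategoryTheory Module

local notation "Qbar" => AlgebraicClosure ℚ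
local notation "GQ" => (AlgebraicClosure ℚ ≃ₐ[ℚ] AlgebraicClosure ℚ)

section U

variable {k : Type} [Field k] (ρbar : ResidualGaloisRep k) {G : Type} [Group G] (r : G →* GQ)
  (χ : G →* kˣ) (Good : IntermediateField ℚ Qbar → Prop)

/-- the good cocycles of `k(χ)`: level-constant, vanishing on `r⁻¹(G_L)`, `L` good, `G_L ⊆ ker ρ̄`. -/
def s59b_IsGoodCoc (f : cocycles₁ (ofChar χ)) : Prop :=
  IsLevelConstant₁ r f ∧ ∃ L : IntermediateField ℚ Qbar, Good L ∧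
    (∀ σ ∈ L.fixingSubgroup, ρbar.ρ σ = 1) ∧ ∀ g : G, r g ∈ L.fixingSubgroup → (f g : k) = 0

variable (hsup : ∀ L L', Good L → Good L' → Good (L ⊔ L'))
  (L₀ : IntermediateField ℚ Qbar) (hL₀ : Good L₀) (hker₀ : ∀ σ ∈ L₀.fixingSubgroup, ρbar.ρ σ = 1)

/-- **the good classes** of `H¹_cont(G, k(χ))`. -/
def s59b_U : Submodule k ↥(continuousH1 r (ofChar χ)) where
  carrier := {y | ∃ f : cocycles₁ (ofChar χ), s59b_IsGoodCoc ρbar r χ Good f ∧
    (H1π (ofChar χ)).hom f = (y : H1 (ofChar χ))}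
  add_mem' := by
    rintro y y' ⟨f, ⟨hlev, L, hL, hker, hvan⟩, hf⟩ ⟨f', ⟨hlev', L', hL', hker', hvan'⟩, hf'⟩
    refine ⟨f + f', ⟨hlev.add hlev', L ⊔ L', hsup L L' hL hL', fun σ hσ => hker σ ?_,
      fun g hg => ?_⟩, ?_⟩
    · exact IntermediateField.fixingSubgroup_antitone (le_sup_left : L ≤ L ⊔ L') hσ
    · have h1 : (f g : k) = 0 := hvan g
        (IntermediateField.fixingSubgroup_antitone (le_sup_left : L ≤ L ⊔ L') hg)
      have h2 : (f' g : k) = 0 := hvan' g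
        (IntermediateField.fixingSubgroup_antitone (le_sup_right : L' ≤ L ⊔ L') hg)
      show (f g : k) + (f' g : k) = 0
      rw [h1, h2, add_zero]
    · rw [map_add, hf, hf']
      rfl
  zero_mem' := by
    obtain ⟨F, hF, -⟩ := ρbar.factorsThroughFiniteLevel
    refine ⟨0, ⟨⟨F, hF, fun _ _ _ => rfl⟩, L₀, hL₀, hker₀, fun _ _ => rfl⟩, ?_⟩
    rw [map_zero]
    rfl
  smul_mem' := by
    rintro a y ⟨f, ⟨hlev, L, hL, hker, hvan⟩, hf⟩
    refine ⟨a • f, ⟨?_, L, hL, hker, fun g hg => ?_⟩, ?_⟩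
    · obtain ⟨F, hF, h⟩ := hlev
      refine ⟨F, hF, fun g s hs => ?_⟩
      show a • (f (g * s) : k) = a • (f g : k)
      rw [h g s hs]
    · show a • (f g : k) = 0
      rw [hvan g hg, smul_zero]
    · rw [map_smul, hf]
      rfl

theorem s59b_mem_U (y : ↥(continuousH1 r (ofChar χ))) :
    y ∈ s59b_U ρbar r χ Good hsup L₀ hL₀ hker₀ ↔
      ∃ f : cocycles₁ (ofChar χ), s59b_IsGoodCoc ρbar r χ Good f ∧
        (H1π (ofChar χ)).hom f = (y : H1 (ofChar χ)) := Iff.rfl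

end U

section Incl

variable {k : Type} [Field k] {ρbar : ResidualGaloisRep k} {G : Type} [Group G] {r : G →* GQ}
  {χ : G →* kˣ} {b : Module.Basis (Fin 2) k ρbar.V} (Good : IntermediateField ℚ Qbar → Prop)
  (hsup : ∀ L L', Good L → Good L' → Good (L ⊔ L'))
  (L₀ : IntermediateField ℚ Qbar) (hL₀ : Good L₀) (hker₀ : ∀ σ ∈ L₀.fixingSubgroup, ρbar.ρ σ = 1)

/-- the action of `g` on `ad⁰ρ̄` is trivial when `ρ̄ (r g) = 1`. -/
theorem s59b_rho_eq_of_ker (g : G) (hg : ρbar.ρ (r g) = 1) (m : ↑(Rep.res r (s56a_ad0 ρbar))) :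
    (Rep.res r (s56a_ad0 ρbar)).ρ g m = m := by
  have h3 : ρbar.ρ (r g)⁻¹ = 1 := by
    have := s56o_rho_mul_inv ρbar (r g)
    rwa [hg, one_mul] at this
  apply s56o_val_injective ρbar r
  rw [s56o_val_rho, hg, h3, one_mul, mul_one]

/-- **`δ'(Z) ⊆ 𝒰`.** -/
theorem s59b_deltaH_mem_U (h : s56o_Tri ρbar r χ b) (Y : ↥(s56o_Z ρbar r b)) :
    s56o_deltaH h Y ∈ s59b_U ρbar r χ Good hsup L₀ hL₀ hker₀ := by
  refine ⟨s56o_deltaC h Y, ⟨s56o_delta0_level Y, L₀, hL₀, hker₀, fun g hg => ?_⟩, ?_⟩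
  · show s56o_delta0 ρbar r b Y g = 0
    rw [s56o_delta0_apply, s59b_rho_eq_of_ker g (hker₀ _ hg), sub_self, map_zero, map_zero]
  · exact (s56o_deltaH_coe h Y).symm

/-- **`L_p^{strict} ⊓ H¹_Good ⊆ Ψ_*(𝒰)`.** -/
theorem s59b_Lp_inf_H1G_le (h : s56o_Tri ρbar r χ b) {Lbar : Submodule k ρbar.V}
    (hLb : Lbar = Submodule.span k {b 0}) :
    s56o_Lp ρbar Lbar r ⊓ s56f_H1G ρbar r Good ≤
      ((s59b_U ρbar r χ Good hsup L₀ hL₀ hker₀).map (continuousH1 r (ofChar χ)).subtype).map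
        (s56o_PsiH h) := by
  rintro x ⟨hxL, hxG⟩
  obtain ⟨y, hy, rfl⟩ := s56o_Lp_le_map h hLb hxL
  rcases s59b_H1G_cases ρbar r Good hsup _ hxG with h0 | ⟨L, hL, hker, c', hvan, hc'⟩
  · rw [h0]
    exact Submodule.zero_mem _
  · obtain ⟨f, hflev, rfl⟩ := (mem_continuousH1_iff r (ofChar χ) y).mp hy
    refine ⟨(H1π (ofChar χ)).hom f, ⟨⟨(H1π (ofChar χ)).hom f, hy⟩, ?_, rfl⟩, rfl⟩
    refine ⟨f, ⟨hflev, L, hL, hker, fun g hg => ?_⟩, rfl⟩
    -- `Ψ ∘ f - c'` is a coboundary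
    rw [s56o_PsiH_H1π] at hc'
    have h1 : (H1π (Rep.res r (s56a_ad0 ρbar))).hom
        ((mapCocycles₁ (MonoidHom.id G) (s56o_phi h)).hom f - c') = 0 := by
      rw [map_sub, hc', sub_self]
    obtain ⟨m, hm⟩ := (H1π_eq_zero_iff _).mp h1
    have h2 := congrFun hm g
    rw [d₀₁_hom_apply, s59b_rho_eq_of_ker g (hker _ hg), sub_self] at h2
    have h3 : ((mapCocycles₁ (MonoidHom.id G) (s56o_phi h)).hom f : G → _) g - c' g = 0 :=
      h2.symm
    rw [s56o_mapCocycles_apply, hvan g hg, sub_zero] at h3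
    rcases smul_eq_zero.mp h3 with h4 | h4
    · exact h4
    · exact absurd h4 (s56o_n0'_ne_zero ρbar r b)

/-- **the `k`-linear sharp bound**, given that any two elements of `𝒰` are proportional. -/
theorem s59b_finrank_inf_le (h : s56o_Tri ρbar r χ b) {Lbar : Submodule k ρbar.V}
    (hLb : Lbar = Submodule.span k {b 0})
    (hprop : ∀ y ∈ s59b_U ρbar r χ Good hsup L₀ hL₀ hker₀,
      ∀ y' ∈ s59b_U ρbar r χ Good hsup L₀ hL₀ hker₀, y = 0 ∨ ∃ c : k, y' = c • y) :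
    Module.Finite k ↥(s56o_Lp ρbar Lbar r ⊓ s56f_H1G ρbar r Good) ∧
    finrank k ↥(s56o_Lp ρbar Lbar r ⊓ s56f_H1G ρbar r Good) ≤
      finrank k ↥(Rep.res r (s56a_ad0 ρbar)).ρ.invariants := by
  obtain ⟨hfin, h1⟩ := s59b_finrank_le_one_of_prop _ hprop
  haveI := hfin
  have hle := s59b_Lp_inf_H1G_le Good hsup L₀ hL₀ hker₀ h hLb
  have hb := s59b_bound_of_tri_sub h (s59b_U ρbar r χ Good hsup L₀ hL₀ hker₀)
    (s59b_deltaH_mem_U Good hsup L₀ hL₀ hker₀ h) 1 h1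
  rw [s56o_finrank_H0] at hb
  haveI : Module.Finite k ↥(((s59b_U ρbar r χ Good hsup L₀ hL₀ hker₀).map
      (continuousH1 r (ofChar χ)).subtype).map (s56o_PsiH h)) := Module.Finite.map _ _
  refine ⟨Submodule.finiteDimensional_of_le hle, ?_⟩
  have h2 := Submodule.finrank_mono hle
  omega

end Incl

end Fermat.Agent.Lib.S59
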