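/-
PROGRAMME R2 = S59, case (P) non-minimal, leaf [W1] (helper2, prefix `s59b_`), file D: **THE SHARP LOCAL BOUND for
"strict ∧ flat" at `p`, every odd `p`, NO OPEN INPUT.**

`s59b_lpBound0` : `dim_{𝔽_p} L_p ≤ h⁰(G_p, M)` (NO `+ [k : 𝔽_p]`) for the canonical local condition `s56z_Lp` of
`Pp := DetIsCyclotomic ∧ IsStrictOrdinaryAt p ∧ IsFlatAt p`.

Chain: the local classes of such first-order lifts lie in `L_p^{strict} ⊓ H¹_Good` (`s56o_locRes_mem_Lp`,
`s56l_locRes_mem_H1G`); `L_p^{strict} ⊓ H¹_Good ⊆ Ψ_*(𝒰)` (`B9Lp0C`); any two elements of `𝒰` are proportional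
(`s59b_lp0_core`, `B9Lp0A`, through the dictionary `G_p ≃ D_P` of `LMainGlue`); rank–nullity (`B9Lp0B`); the
`k → 𝔽_p` dictionary (`ARes`).
-/
import Mathlib
import Fermat.Agent.Lib.S59.B9Lp0A
import Fermat.Agent.Lib.S59.B9Lp0C
import Fermat.Agent.Lib.S56.LFlatWire

set_option autoImplicit false
set_option linter.style.haveILetI false
set_option linter.unusedVariables false

noncomputable section

namespace Fermat.Agent.Lib.S59

open Fermat.Agent.Lib.S56 Fermat.Agent.Lib.Frey Fermat.Agent.Lib.PT GaloisRep groupCohomology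
  ExtCitation CategoryTheory Module Polynomial

local notation "Qbar" => AlgebraicClosure ℚ
local notation "GQ" => (AlgebraicClosure ℚ ≃ₐ[ℚ] AlgebraicClosure ℚ)

section Bridge

variable (p : ℕ) [Fact p.Prime] (k : Type) [Field k] [Algebra (ZMod p) k]

/-- the mod `p` cyclotomic character of `G_ℚ` with values in `k`, as a function. -/
def s59b_cycK (σ : GQ) : k :=
  ((Units.map ((algebraMap (ZMod p) k : ZMod p →+* k) : ZMod p →* k) (cycloChar p σ) : kˣ) : k)

theorem s59b_cycK_mul (g h : GQ) : s59b_cycK p k (g * h) = s59b_cycK p k g * s59b_cycK p k h := by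
  unfold s59b_cycK
  rw [map_mul, map_mul, Units.val_mul]

theorem s59b_cycK_spec (σ : GQ) (a : ℕ) (ha : ∀ μ : Qbar, μ ^ p = 1 → σ μ = μ ^ a) :
    s59b_cycK p k σ = (a : k) := s56o_cyclo_spec p k σ a ha

theorem s59b_chiP_eq (g : primeLocalGaloisGroup (pPrime p)) :
    (s56a_chiP p k g : k) = s59b_cycK p k (primeLocalToGlobal (pPrime p) g) := rfl

variable {p k}

open Classical in
/-- a cocycle of `k(χ̄)` on `G_p` as a function on `G_ℚ` (zero outside `D_P`). -/
def s59b_funOfCoc (f : cocycles₁ (ofChar (s56a_chiP p k))) : GQ → k := fun σ =>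
  if h : ∃ g : primeLocalGaloisGroup (pPrime p), primeLocalToGlobal (pPrime p) g = σ then
    (f h.choose : k) else 0

theorem s59b_funOfCoc_apply (f : cocycles₁ (ofChar (s56a_chiP p k)))
    (g : primeLocalGaloisGroup (pPrime p)) :
    s59b_funOfCoc f (primeLocalToGlobal (pPrime p) g) = (f g : k) := by
  have h : ∃ g' : primeLocalGaloisGroup (pPrime p),
      primeLocalToGlobal (pPrime p) g' = primeLocalToGlobal (pPrime p) g := ⟨g, rfl⟩
  rw [s59b_funOfCoc, dif_pos h]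
  have h2 : h.choose = g := s56l_loc_injective h.choose_spec
  rw [h2]

/-- the cocycle identity of `k(χ̄)` in coordinates. -/
theorem s59b_coc_mul (f : cocycles₁ (ofChar (s56a_chiP p k)))
    (g h : primeLocalGaloisGroup (pPrime p)) :
    (f (g * h) : k) = (f g : k) + (s56a_chiP p k g : k) * (f h : k) := by
  have h1 := (mem_cocycles₁_iff (f : primeLocalGaloisGroup (pPrime p) → _)).mp f.2 g h
  rw [add_comm]
  exact h1

/-- a good cocycle of `k(χ̄)` gives a good `ψ`-cocycle on `D_P`. -/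
theorem s59b_goodFun_funOfCoc (ρbar : ResidualGaloisRep k)
    (Good : IntermediateField ℚ Qbar → Prop) (f : cocycles₁ (ofChar (s56a_chiP p k)))
    (hf : s59b_IsGoodCoc ρbar (primeLocalToGlobal (pPrime p)) (s56a_chiP p k) Good f) :
    s59b_GoodFun (primeLocalPlace (pPrime p)) Good (s59b_cycK p k) (s59b_funOfCoc f) := by
  obtain ⟨-, L, hL, -, hvan⟩ := hf
  refine ⟨fun g hg g' hg' => ?_, L, hL, fun g hg hgL => ?_⟩
  · obtain ⟨a, rfl⟩ := s56l_exists_loc_eq hg
    obtain ⟨a', rfl⟩ := s56l_exists_loc_eq hg'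
    rw [← map_mul, s59b_funOfCoc_apply, s59b_funOfCoc_apply, s59b_funOfCoc_apply, s59b_coc_mul,
      s59b_chiP_eq]
  · obtain ⟨a, rfl⟩ := s56l_exists_loc_eq hg
    rw [s59b_funOfCoc_apply]
    exact hvan a hgL

/-- a cocycle of `k(χ̄)` which is `(ψ - 1) m` on `D_P` has trivial class. -/
theorem s59b_class_zero_of_cob (f : cocycles₁ (ofChar (s56a_chiP p k))) (m : k)
    (hm : ∀ g ∈ (primeLocalPlace (pPrime p)).decompositionSubgroup ℚ,
      s59b_funOfCoc f g = (s59b_cycK p k g - 1) * m) :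
    (H1π (ofChar (s56a_chiP p k))).hom f = 0 := by
  refine (H1π_eq_zero_iff _).mpr ⟨m, funext fun a => ?_⟩
  rw [d₀₁_hom_apply]
  have h1 := hm _ (s56l_loc_mem_decomp a)
  rw [s59b_funOfCoc_apply, ← s59b_chiP_eq] at h1
  show (s56a_chiP p k a : k) * m - m = (f a : k)
  rw [h1]
  ring

end Bridge

section Main

variable (p : ℕ) [Fact p.Prime] {k : Type} [Field k] [Algebra (ZMod p) k]
  (ρbar : ResidualGaloisRep k)

/-- **any two good classes of `H¹_cont(G_p, k(χ̄))` are proportional.** -/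
theorem s59b_U_prop (hp2 : p ≠ 2) [Finite k] [CharP k p]
    (Good : IntermediateField ℚ Qbar → Prop)
    (hsup : ∀ L L', Good L → Good L' → Good (L ⊔ L'))
    (hfd : ∀ L, Good L → FiniteDimensional ℚ L)
    (hKB : s56f_KB p (primeLocalPlace (pPrime p)) Good)
    (L₀ : IntermediateField ℚ Qbar) (hL₀ : Good L₀) (hker₀ : ∀ σ ∈ L₀.fixingSubgroup, ρbar.ρ σ = 1)
    (y : ↥(continuousH1 (primeLocalToGlobal (pPrime p)) (ofChar (s56a_chiP p k))))
    (hy : y ∈ s59b_U ρbar (primeLocalToGlobal (pPrime p)) (s56a_chiP p k) Good hsup L₀ hL₀ hker₀)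
    (y' : ↥(continuousH1 (primeLocalToGlobal (pPrime p)) (ofChar (s56a_chiP p k))))
    (hy' : y' ∈ s59b_U ρbar (primeLocalToGlobal (pPrime p)) (s56a_chiP p k) Good hsup L₀ hL₀ hker₀) :
    y = 0 ∨ ∃ c : k, y' = c • y := by
  obtain ⟨f, hf, hfy⟩ := hy
  obtain ⟨f', hf', hfy'⟩ := hy'
  have hP : (primeLocalPlace (pPrime p)).LiesOverPrime p := ptg_padicPlace_liesOver p
  rcases s59b_lp0_core hp2 (primeLocalPlace (pPrime p)) hP Good hfd hKB (s59b_cycK p k)
      (s59b_cycK_mul p k) (s59b_cycK_spec p k) (s59b_funOfCoc f) (s59b_funOfCoc f')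
      (s59b_goodFun_funOfCoc ρbar Good f hf) (s59b_goodFun_funOfCoc ρbar Good f' hf') with
    ⟨m, hm⟩ | ⟨c, m, hm⟩
  · left
    apply Subtype.ext
    rw [← hfy, s59b_class_zero_of_cob f m hm]
    rfl
  · right
    refine ⟨c, Subtype.ext ?_⟩
    have h1 : (H1π (ofChar (s56a_chiP p k))).hom (f' - c • f) = 0 := by
      refine s59b_class_zero_of_cob (f' - c • f) m (fun g hg => ?_)
      obtain ⟨a, rfl⟩ := s56l_exists_loc_eq hg
      have h2 := hm _ hg
      rw [s59b_funOfCoc_apply, s59b_funOfCoc_apply] at h2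
      rw [s59b_funOfCoc_apply]
      show (f' a : k) - c • (f a : k) = _
      rw [h2, smul_eq_mul]
      ring
    rw [map_sub, map_smul, sub_eq_zero] at h1
    rw [← hfy', h1, hfy]
    rfl

/-- **the `k`-linear sharp bound at `p`**: `dim_k (L_p^{strict} ⊓ H¹_Good) ≤ h⁰(G_p, ad⁰ρ̄)`. -/
theorem s59b_lp0_k (hp2 : p ≠ 2) [Finite k] [CharP k p] (hp0 : (p : k) = 0)
    (Good : IntermediateField ℚ Qbar → Prop)
    (hsup : ∀ L L', Good L → Good L' → Good (L ⊔ L'))
    (hfd : ∀ L, Good L → FiniteDimensional ℚ L)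
    (hKB : s56f_KB p (primeLocalPlace (pPrime p)) Good) :
    Module.Finite k ↥(s56o_Lp ρbar (s56o_ordLine ρbar p (primeLocalPlace (pPrime p)))
        (primeLocalToGlobal (pPrime p)) ⊓ s56f_H1G ρbar (primeLocalToGlobal (pPrime p)) Good) ∧
    finrank k ↥(s56o_Lp ρbar (s56o_ordLine ρbar p (primeLocalPlace (pPrime p)))
        (primeLocalToGlobal (pPrime p)) ⊓ s56f_H1G ρbar (primeLocalToGlobal (pPrime p)) Good) ≤
      finrank k ↥(Rep.res (primeLocalToGlobal (pPrime p)) (s56a_ad0 ρbar)).ρ.invariants := by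
  have hr := s56a_primeLocalToGlobal_mem p
  by_cases hex : ∃ L : Submodule k ρbar.V, s56o_IsOrdLine ρbar p (primeLocalPlace (pPrime p)) L
  swap
  · rw [s56o_ordLine, dif_neg hex, s56o_Lp_bot, bot_inf_eq]
    refine ⟨inferInstance, ?_⟩
    rw [finrank_bot]
    exact Nat.zero_le _
  by_cases hexL : ∃ L₀, Good L₀ ∧ ∀ σ ∈ L₀.fixingSubgroup, ρbar.ρ σ = 1
  swap
  · have hbot : s56f_H1G ρbar (primeLocalToGlobal (pPrime p)) Good = ⊥ := by
      rw [s56f_H1G, Submodule.span_eq_bot]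
      rintro x ⟨L, hL, hker, -⟩
      exact absurd ⟨L, hL, hker⟩ hexL
    rw [hbot, inf_bot_eq]
    refine ⟨inferInstance, ?_⟩
    rw [finrank_bot]
    exact Nat.zero_le _
  obtain ⟨L₀, hL₀, hker₀⟩ := hexL
  have hL : s56o_IsOrdLine ρbar p (primeLocalPlace (pPrime p))
      (s56o_ordLine ρbar p (primeLocalPlace (pPrime p))) := by
    rw [s56o_ordLine, dif_pos hex]
    exact hex.choose_spec
  obtain ⟨b, hLb, htri⟩ := s56o_exists_basis ρbar _ hL.1 (primeLocalToGlobal (pPrime p))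
    (s56a_chiP p k)
    (s56o_actsTriangular_of_isOrdLine ρbar p (primeLocalPlace (pPrime p)) hL
      (primeLocalToGlobal (pPrime p)) hr (s56a_chiP p k) (s56a_chiP_spec p k))
  exact s59b_finrank_inf_le Good hsup L₀ hL₀ hker₀ htri hLb
    (s59b_U_prop p ρbar hp2 Good hsup hfd hKB L₀ hL₀ hker₀)

end Main

section Final

/-- the numerical form of the `k → 𝔽_p` dictionary WITHOUT the `+ [k : F]` (companion of
`s56a_lpBound_of_mapF`). -/
theorem s59b_lpBound0_of_mapF (F : Type) [Field F] {k : Type} [Field k] [Algebra F k] {G : Type}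
    [Group G] (A : Rep.{0} k G) (L : Submodule k (H1 A)) [Module.Finite F k]
    [Module.Finite k ↥L] (C : Submodule F (H1 (s56a_resF F A))) (X : Set ↥C)
    (hX : ∀ x ∈ X, ∃ y ∈ L, s56a_H1Res F A y = (x : H1 (s56a_resF F A)))
    (hn : finrank k ↥L ≤ finrank k ↥A.ρ.invariants) :
    finrank F ↥(Submodule.span F X) ≤ finrank F ↥(s56a_resF F A).ρ.invariants := by
  rw [s56a_finrank_invariants_res]
  calc finrank F ↥(Submodule.span F X) ≤ finrank F k * finrank k ↥L :=
        s56a_finrank_span_le_of_mapF F A L C X hX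
    _ ≤ finrank F k * finrank k ↥A.ρ.invariants := Nat.mul_le_mul_left _ hn

/-- **the sharp form of the contract (T2)**: `dim_{𝔽_p} L_p ≤ h⁰(G_p, M)`. -/
def s59b_LpBound0 (p : ℕ) [Fact p.Prime] {k : Type} [Field k] [Algebra (ZMod p) k]
    (ρbar : ResidualGaloisRep k) (Pp : GaloisRepAdic (DualNumber k) → Prop) : Prop :=
  finrank (ZMod p) ↥(s56z_Lp p ρbar Pp (pPrime p)) ≤
    finrank (ZMod p) ↥(Rep.res (primeLocalToGlobal (pPrime p)) (s56z_M p ρbar)).ρ.invariants

/-- the sharp bound implies the usual one. -/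
theorem s59b_lpBound_of_lpBound0 (p : ℕ) [Fact p.Prime] {k : Type} [Field k] [Algebra (ZMod p) k]
    (ρbar : ResidualGaloisRep k) (Pp : GaloisRepAdic (DualNumber k) → Prop)
    (h : s59b_LpBound0 p ρbar Pp) : s56z_LpBound p ρbar Pp :=
  le_trans h (Nat.le_add_right _ _)

/-- **[W1] THE SHARP LOCAL BOUND for "strict ∧ flat", every odd `p`, UNCONDITIONAL.** -/
theorem s59b_lpBound0 (p : ℕ) [Fact p.Prime] {k : Type} [Field k] [Algebra (ZMod p) k]
    (ρbar : ResidualGaloisRep k) [Module.Finite (ZMod p) k] (hp2 : p ≠ 2) :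
    s59b_LpBound0 p ρbar
      (fun ρ => ρ.DetIsCyclotomic p ∧ ρ.IsStrictOrdinaryAt p ∧ ρ.IsFlatAt p) := by
  have hpp : p.Prime := Fact.out
  have hp0 : (p : k) = 0 := s56a_natCast_eq_zero_of_algebra p k
  haveI : Finite k := Module.finite_of_finite (ZMod p)
  haveI : CharP k p := (CharP.charP_iff_prime_eq_zero hpp).2 hp0
  have hP : (primeLocalPlace (pPrime p)).LiesOverPrime p := ptg_padicPlace_liesOver p
  have hr := s56a_primeLocalToGlobal_mem p
  obtain ⟨hfin, hbound⟩ := s59b_lp0_k p ρbar hp2 hp0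
    (s56l_Good p hpp (primeLocalPlace (pPrime p)) hP) (fun L L' => s56l_Good_sup L L')
    (fun L hL => hL.1) (s56r_kb p hpp _ hP)
  haveI := hfin
  refine s59b_lpBound0_of_mapF (ZMod p) (Rep.res (primeLocalToGlobal (pPrime p)) (s56a_ad0 ρbar))
    (s56o_Lp ρbar (s56o_ordLine ρbar p (primeLocalPlace (pPrime p)))
      (primeLocalToGlobal (pPrime p)) ⊓
      s56f_H1G ρbar (primeLocalToGlobal (pPrime p))
        (s56l_Good p hpp (primeLocalPlace (pPrime p)) hP)) _ _ ?_ hbound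
  rintro x ⟨c, hc, ⟨hdet, hso, hflat⟩, hx⟩
  refine ⟨_, ⟨(s56o_locRes_mem_Lp p hp2 hp0 ρbar c hc hdet hso (primeLocalPlace (pPrime p)) hP
      (primeLocalToGlobal (pPrime p)) hr).2,
    s56l_locRes_mem_H1G p ρbar hp0 c hc hflat hpp hP (primeLocalToGlobal (pPrime p))⟩, ?_⟩
  have h1 := (s56a_H1Res_map (ZMod p) (s56a_ad0 ρbar) (primeLocalToGlobal (pPrime p))
    ((H1π (s56a_ad0 ρbar)).hom c)).symm
  rw [s56a_H1Res_π] at h1
  exact h1.trans hx.symm

/-- the same bound with the property bracketed as `(det ∧ strict) ∧ flat` (the shape `hW1` of helper6's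
`s59q_selmer_sfJ` / `s59q_bridge_sfJ`). -/
theorem s59b_lpBound0' (p : ℕ) [Fact p.Prime] {k : Type} [Field k] [Algebra (ZMod p) k]
    (ρbar : ResidualGaloisRep k) [Module.Finite (ZMod p) k] (hp2 : p ≠ 2) :
    finrank (ZMod p) ↥(s56z_Lp p ρbar
      (fun ρ => (ρ.DetIsCyclotomic p ∧ ρ.IsStrictOrdinaryAt p) ∧ ρ.IsFlatAt p) (pPrime p)) ≤
    finrank (ZMod p) ↥(Rep.res (primeLocalToGlobal (pPrime p)) (s56z_M p ρbar)).ρ.invariants := by
  have h : (fun ρ : GaloisRepAdic (DualNumber k) =>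
      (ρ.DetIsCyclotomic p ∧ ρ.IsStrictOrdinaryAt p) ∧ ρ.IsFlatAt p) =
      (fun ρ => ρ.DetIsCyclotomic p ∧ ρ.IsStrictOrdinaryAt p ∧ ρ.IsFlatAt p) :=
    funext fun ρ => propext and_assoc
  rw [h]
  exact s59b_lpBound0 p ρbar hp2

end Final

end Fermat.Agent.Lib.S59
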