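/-
Programme R (S59), case (P), item [P4] BRIDGE (helper2, prefix `s59b_`), file 1: **the abstract core**.

From the `J`-side statement "`T_p - c` is nilpotent on the `θ`-primary part of `J[p]`" to the cohomological
statement "`T_p - c` is topologically nilpotent on the `ε`-part of a free `𝒪`-module `V` with an integral structure".

Setting: `L` a free `ℤ`-module with basis `b`, `V` a free `𝒪`-module with basis `bV` (`𝒪` local, residue
characteristic `p`), `castL : L → V` the map `b i ↦ bV i`; an additive map `φ₀ : L → J` into an abelian group with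
`p • φ₀ h = 0` and `φ₀ h = 0 → h ∈ p L`.  Operators come in triples `(Z, B, BV)` on `(J, L, V)` intertwined by `φ₀`
and `castL`.

* `s59b_addHom_mulVec` : integer matrices commute with additive maps `𝒪 → ZMod p`;
* `s59b_castL`, `s59b_CptV`, `s59b_CptJ` : the lattice map and the two compatibilities, closed under the ring
  operations;
* `s59b_Rel f u h` : the coordinates of `h` are congruent to `f` of the coordinates of `u`; transported by compatible
  operators (`s59b_Rel_apply`);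
* `s59b_exists_addHom` : additive maps `𝒪 → ZMod p` killing `𝔪` separate the points of `𝒪 / 𝔪`;
* **`s59b_P4_abs`** : the bridge.
-/
import Mathlib
import Fermat.Agent.Lib.S33.RealPrim

set_option autoImplicit false
set_option linter.unusedSectionVars false
set_option linter.unusedVariables false
set_option linter.style.haveILetI false

namespace Fermat.Agent.Lib.S59

open IsLocalRing Fermat.Agent.Lib.S33

section Coord

variable {p : ℕ} {𝒪 : Type*} [CommRing 𝒪] {ι : Type*} [Fintype ι] [DecidableEq ι]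

/-- integer matrices commute with additive maps. -/
theorem s59b_addHom_mulVec (f : 𝒪 →+ ZMod p) (M : Matrix ι ι ℤ) (c : ι → 𝒪) (i : ι) :
    f ((M.map (Int.cast : ℤ → 𝒪)).mulVec c i) =
      (M.map (Int.cast : ℤ → ZMod p)).mulVec (fun l => f (c l)) i := by
  simp only [Matrix.mulVec, dotProduct, Matrix.map_apply, map_sum]
  refine Finset.sum_congr rfl fun l _ => ?_
  rw [← zsmul_eq_mul, map_zsmul, zsmul_eq_mul]

/-- casting an integral matrix-vector product. -/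
theorem s59b_intCast_mulVec (M : Matrix ι ι ℤ) (n : ι → ℤ) (i : ι) :
    ((M.mulVec n i : ℤ) : ZMod p) =
      (M.map (Int.cast : ℤ → ZMod p)).mulVec (fun l => ((n l : ℤ) : ZMod p)) i := by
  simp only [Matrix.mulVec, dotProduct, Matrix.map_apply, Int.cast_sum, Int.cast_mul]

end Coord

section Abs

variable {p : ℕ} [hp : Fact p.Prime]
  {𝒪 : Type*} [CommRing 𝒪]
  {ι : Type*} [Fintype ι] [DecidableEq ι]
  {L : Type*} [AddCommGroup L] (b : Module.Basis ι ℤ L)
  {V : Type*} [AddCommGroup V] [Module 𝒪 V] (bV : Module.Basis ι 𝒪 V)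

/-- the lattice map `L → V`, `b i ↦ bV i`. -/
noncomputable def s59b_castL : L →ₗ[ℤ] V := b.constr ℤ (fun i => bV i)

theorem s59b_castL_basis (i : ι) : s59b_castL b bV (b i) = bV i := b.constr_basis ℤ _ i

theorem s59b_castL_eq_sum (h : L) :
    s59b_castL b bV h = ∑ j, ((b.repr h j : ℤ) : 𝒪) • bV j := by
  rw [s59b_castL, Module.Basis.constr_apply_fintype]
  refine Finset.sum_congr rfl fun j _ => ?_
  rw [Module.Basis.equivFun_apply, Int.cast_smul_eq_zsmul]

theorem s59b_repr_castL (h : L) (i : ι) :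
    bV.repr (s59b_castL b bV h) i = ((b.repr h i : ℤ) : 𝒪) := by
  rw [s59b_castL_eq_sum, map_sum, Finsupp.coe_finset_sum, Finset.sum_apply,
    Finset.sum_eq_single i]
  · rw [map_smul, Module.Basis.repr_self, Finsupp.smul_apply, Finsupp.single_eq_same, smul_eq_mul,
      mul_one]
  · intro j _ hj
    rw [map_smul, Module.Basis.repr_self, Finsupp.smul_apply, Finsupp.single_eq_of_ne hj.symm,
      smul_zero]
  · intro h; exact absurd (Finset.mem_univ i) h

/-- compatibility of an operator on the lattice with an operator on `V`. -/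
def s59b_CptV (B : Module.End ℤ L) (BV : Module.End 𝒪 V) : Prop :=
  ∀ h, BV (s59b_castL b bV h) = s59b_castL b bV (B h)

variable {b bV}

theorem s59b_CptV_one : s59b_CptV b bV 1 1 := fun _ => rfl

theorem s59b_CptV_intCast (n : ℤ) :
    s59b_CptV b bV (n • (1 : Module.End ℤ L)) ((n : 𝒪) • (1 : Module.End 𝒪 V)) := by
  intro h
  rw [LinearMap.smul_apply, LinearMap.smul_apply, Module.End.one_apply, Module.End.one_apply,
    map_zsmul, Int.cast_smul_eq_zsmul]

theorem s59b_CptV_add {B₁ B₂ : Module.End ℤ L} {BV₁ BV₂ : Module.End 𝒪 V}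
    (h₁ : s59b_CptV b bV B₁ BV₁) (h₂ : s59b_CptV b bV B₂ BV₂) :
    s59b_CptV b bV (B₁ + B₂) (BV₁ + BV₂) := by
  intro h
  rw [LinearMap.add_apply, LinearMap.add_apply, h₁ h, h₂ h, map_add]

theorem s59b_CptV_neg {B : Module.End ℤ L} {BV : Module.End 𝒪 V}
    (h₁ : s59b_CptV b bV B BV) : s59b_CptV b bV (-B) (-BV) := by
  intro h
  rw [LinearMap.neg_apply, LinearMap.neg_apply, h₁ h, map_neg]

theorem s59b_CptV_sub {B₁ B₂ : Module.End ℤ L} {BV₁ BV₂ : Module.End 𝒪 V}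
    (h₁ : s59b_CptV b bV B₁ BV₁) (h₂ : s59b_CptV b bV B₂ BV₂) :
    s59b_CptV b bV (B₁ - B₂) (BV₁ - BV₂) := by
  intro h
  rw [LinearMap.sub_apply, LinearMap.sub_apply, h₁ h, h₂ h, map_sub]

theorem s59b_CptV_mul {B₁ B₂ : Module.End ℤ L} {BV₁ BV₂ : Module.End 𝒪 V}
    (h₁ : s59b_CptV b bV B₁ BV₁) (h₂ : s59b_CptV b bV B₂ BV₂) :
    s59b_CptV b bV (B₁ * B₂) (BV₁ * BV₂) := by
  intro h
  rw [Module.End.mul_apply, Module.End.mul_apply, h₂ h, h₁ (B₂ h)]

theorem s59b_CptV_pow {B : Module.End ℤ L} {BV : Module.End 𝒪 V}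
    (h₁ : s59b_CptV b bV B BV) (r : ℕ) : s59b_CptV b bV (B ^ r) (BV ^ r) := by
  induction r with
  | zero => rw [pow_zero, pow_zero]; exact s59b_CptV_one
  | succ r ih => rw [pow_succ, pow_succ]; exact s59b_CptV_mul ih h₁

/-- the matrix of a compatible operator on `V` is the integer matrix of the operator on `L`. -/
theorem s59b_CptV_toMatrix {B : Module.End ℤ L} {BV : Module.End 𝒪 V}
    (hc : s59b_CptV b bV B BV) :
    LinearMap.toMatrix bV bV BV = (LinearMap.toMatrix b b B).map (Int.cast : ℤ → 𝒪) := by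
  ext i l
  rw [LinearMap.toMatrix_apply, Matrix.map_apply, LinearMap.toMatrix_apply,
    ← s59b_castL_basis b bV l, hc (b l), s59b_repr_castL]

theorem s59b_CptV_repr {B : Module.End ℤ L} {BV : Module.End 𝒪 V}
    (hc : s59b_CptV b bV B BV) (u : V) (i : ι) :
    bV.repr (BV u) i =
      ((LinearMap.toMatrix b b B).map (Int.cast : ℤ → 𝒪)).mulVec (fun l => bV.repr u l) i := by
  rw [← s59b_CptV_toMatrix hc]
  exact (congrFun (LinearMap.toMatrix_mulVec_repr bV bV BV u) i).symm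

theorem s59b_repr_end (B : Module.End ℤ L) (h : L) (i : ι) :
    b.repr (B h) i = (LinearMap.toMatrix b b B).mulVec (fun l => b.repr h l) i :=
  (congrFun (LinearMap.toMatrix_mulVec_repr b b B h) i).symm

variable (b bV)

/-- the coordinates of `h` are congruent modulo `p` to `f` of the coordinates of `u`. -/
def s59b_Rel (f : 𝒪 →+ ZMod p) (u : V) (h : L) : Prop :=
  ∀ i, ((b.repr h i : ℤ) : ZMod p) = f (bV.repr u i)

variable {b bV}

theorem s59b_Rel_apply {f : 𝒪 →+ ZMod p} {u : V} {h : L} (hr : s59b_Rel b bV f u h)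
    {B : Module.End ℤ L} {BV : Module.End 𝒪 V} (hc : s59b_CptV b bV B BV) :
    s59b_Rel b bV f (BV u) (B h) := by
  intro i
  rw [s59b_CptV_repr hc, s59b_addHom_mulVec, s59b_repr_end, s59b_intCast_mulVec]
  congr 1
  funext l
  exact hr l

/-- existence of a lattice vector with prescribed coordinates modulo `p`. -/
theorem s59b_exists_Rel (f : 𝒪 →+ ZMod p) (u : V) : ∃ h : L, s59b_Rel b bV f u h := by
  haveI : NeZero p := ⟨hp.out.ne_zero⟩
  refine ⟨b.equivFun.symm (fun i => ((f (bV.repr u i)).val : ℤ)), fun i => ?_⟩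
  have h1 : b.repr (b.equivFun.symm (fun i => ((f (bV.repr u i)).val : ℤ))) i =
      ((f (bV.repr u i)).val : ℤ) := by
    have := congrFun (b.equivFun.apply_symm_apply (fun i => ((f (bV.repr u i)).val : ℤ))) i
    rwa [Module.Basis.equivFun_apply] at this
  rw [h1, Int.cast_natCast, ZMod.natCast_val, ZMod.cast_id', id]

end Abs

section Local

variable {p : ℕ} [hp : Fact p.Prime]
  {𝒪 : Type*} [CommRing 𝒪] [IsLocalRing 𝒪] [CharP (ResidueField 𝒪) p]
  {ι : Type*} [Fintype ι] [DecidableEq ι]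
  {V : Type*} [AddCommGroup V] [Module 𝒪 V] (bV : Module.Basis ι 𝒪 V)

/-- membership in `𝔪 V` in coordinates. -/
theorem s59b_mem_smul_top_iff_repr (u : V) :
    u ∈ (maximalIdeal 𝒪 • ⊤ : Submodule 𝒪 V) ↔ ∀ i, bV.repr u i ∈ maximalIdeal 𝒪 := by
  constructor
  · intro hu
    refine Submodule.smul_induction_on hu ?_ ?_
    · intro r hr w _ i
      rw [map_smul, Finsupp.smul_apply, smul_eq_mul]
      exact Ideal.mul_mem_right _ _ hr
    · intro x y hx hy i
      rw [map_add, Finsupp.add_apply]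
      exact Ideal.add_mem _ (hx i) (hy i)
  · intro h
    rw [← bV.sum_repr u]
    exact Submodule.sum_mem _ fun i _ => Submodule.smul_mem_smul (h i) Submodule.mem_top

/-- additive maps `𝒪 → ZMod p` killing `𝔪` separate the points of the residue field. -/
theorem s59b_exists_addHom (x : 𝒪) (hx : x ∉ maximalIdeal 𝒪) :
    ∃ f : 𝒪 →+ ZMod p, (∀ a ∈ maximalIdeal 𝒪, f a = 0) ∧ f x ≠ 0 := by
  letI : Algebra (ZMod p) (ResidueField 𝒪) := ZMod.algebra _ p
  have hx' : residue 𝒪 x ≠ 0 := fun h => hx ((residue_eq_zero_iff x).mp h)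
  obtain ⟨φ, hφ⟩ := Module.Projective.exists_dual_ne_zero (ZMod p) hx'
  refine ⟨φ.toAddMonoidHom.comp (residue 𝒪).toAddMonoidHom, fun a ha => ?_, hφ⟩
  show φ (residue 𝒪 a) = 0
  rw [(residue_eq_zero_iff a).mpr ha, map_zero]

end Local

section Main

variable {p : ℕ} [hp : Fact p.Prime]
  {𝒪 : Type*} [CommRing 𝒪] [IsLocalRing 𝒪] [CharP (ResidueField 𝒪) p]
  {ι : Type*} [Fintype ι] [DecidableEq ι]
  {L : Type*} [AddCommGroup L] (b : Module.Basis ι ℤ L)
  {V : Type*} [AddCommGroup V] [Module 𝒪 V] (bV : Module.Basis ι 𝒪 V)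
  {J : Type*} [AddCommGroup J] (φ₀ : L →+ J)

/-- compatibility of an operator on `J` with an operator on the lattice. -/
def s59b_CptJ (Z : Module.End ℤ J) (B : Module.End ℤ L) : Prop := ∀ h, Z (φ₀ h) = φ₀ (B h)

variable {φ₀}

theorem s59b_CptJ_one : s59b_CptJ φ₀ 1 1 := fun _ => rfl

theorem s59b_CptJ_zero : s59b_CptJ φ₀ 0 0 := fun h => by
  rw [LinearMap.zero_apply, LinearMap.zero_apply, map_zero]

theorem s59b_CptJ_intCast (n : ℤ) :
    s59b_CptJ φ₀ (n • (1 : Module.End ℤ J)) (n • (1 : Module.End ℤ L)) := by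
  intro h
  rw [LinearMap.smul_apply, LinearMap.smul_apply, Module.End.one_apply, Module.End.one_apply,
    map_zsmul]

theorem s59b_CptJ_add {Z₁ Z₂ : Module.End ℤ J} {B₁ B₂ : Module.End ℤ L}
    (h₁ : s59b_CptJ φ₀ Z₁ B₁) (h₂ : s59b_CptJ φ₀ Z₂ B₂) : s59b_CptJ φ₀ (Z₁ + Z₂) (B₁ + B₂) := by
  intro h
  rw [LinearMap.add_apply, LinearMap.add_apply, h₁ h, h₂ h, map_add]

theorem s59b_CptJ_neg {Z : Module.End ℤ J} {B : Module.End ℤ L}
    (h₁ : s59b_CptJ φ₀ Z B) : s59b_CptJ φ₀ (-Z) (-B) := by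
  intro h
  rw [LinearMap.neg_apply, LinearMap.neg_apply, h₁ h, map_neg]

theorem s59b_CptJ_sub {Z₁ Z₂ : Module.End ℤ J} {B₁ B₂ : Module.End ℤ L}
    (h₁ : s59b_CptJ φ₀ Z₁ B₁) (h₂ : s59b_CptJ φ₀ Z₂ B₂) : s59b_CptJ φ₀ (Z₁ - Z₂) (B₁ - B₂) := by
  intro h
  rw [LinearMap.sub_apply, LinearMap.sub_apply, h₁ h, h₂ h, map_sub]

theorem s59b_CptJ_mul {Z₁ Z₂ : Module.End ℤ J} {B₁ B₂ : Module.End ℤ L}
    (h₁ : s59b_CptJ φ₀ Z₁ B₁) (h₂ : s59b_CptJ φ₀ Z₂ B₂) : s59b_CptJ φ₀ (Z₁ * Z₂) (B₁ * B₂) := by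
  intro h
  rw [Module.End.mul_apply, Module.End.mul_apply, h₂ h, h₁ (B₂ h)]

theorem s59b_CptJ_pow {Z : Module.End ℤ J} {B : Module.End ℤ L}
    (h₁ : s59b_CptJ φ₀ Z B) (r : ℕ) : s59b_CptJ φ₀ (Z ^ r) (B ^ r) := by
  induction r with
  | zero => rw [pow_zero, pow_zero]; exact s59b_CptJ_one
  | succ r ih => rw [pow_succ, pow_succ]; exact s59b_CptJ_mul ih h₁

variable (φ₀)

/-- **the [P4] bridge, abstract form.**  `gens` a set of Hecke pairs `(x, Z)`, `x ∈ 𝕋`, `Z ∈ End J`; every generator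
is matched by a lattice operator `B` and an element `t` of a commutative `𝒪`-algebra `P` acting on `V`, with
`ev t = θ x`; every `t ∈ ker ev` is topologically nilpotent on the image of `E`.  If `(Tp - cp)^m` kills the
`θ`-primary part of `J[p]`, then `(TpV - cp)^m` maps the image of `E` into `𝔪 V`. -/
theorem s59b_P4_abs
    (hφtors : ∀ h, p • φ₀ h = 0)
    (hφker : ∀ h, φ₀ h = 0 → ∀ i, (p : ℤ) ∣ b.repr h i)
    {𝕋 : Type*} [CommRing 𝕋] (θ : 𝕋 →+* ResidueField 𝒪)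
    (gens : Set (𝕋 × Module.End ℤ J))
    {P : Type*} [CommRing P] [Algebra 𝒪 P] (act : P →ₐ[𝒪] Module.End 𝒪 V)
    (ev : P →+* ResidueField 𝒪) (E : Module.End 𝒪 V)
    (hnil : ∀ t : P, ev t = 0 → ∃ r : ℕ, ∀ y : V,
      ((act t) ^ r) (E y) ∈ (maximalIdeal 𝒪 • ⊤ : Submodule 𝒪 V))
    (hgens : ∀ z ∈ gens, ∃ (B : Module.End ℤ L) (t : P),
      s59b_CptJ φ₀ z.2 B ∧ s59b_CptV b bV B (act t) ∧ ev t = θ z.1)
    (Tp : Module.End ℤ J) (TpL : Module.End ℤ L) (TpV : Module.End 𝒪 V)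
    (hTp1 : s59b_CptJ φ₀ Tp TpL) (hTp2 : s59b_CptV b bV TpL TpV)
    (cp : ℤ) (m : ℕ)
    (hP4 : ∀ y ∈ s33r_primTors θ p gens,
      ((Tp - cp • (1 : Module.End ℤ J)) ^ m) y = 0) (y : V) :
    ((TpV - (cp : 𝒪) • (1 : Module.End 𝒪 V)) ^ m) (E y) ∈
      (maximalIdeal 𝒪 • ⊤ : Submodule 𝒪 V) := by
  classical
  -- step 0: the closure
  have hcl : ∀ z ∈ Subring.closure gens, ∃ (B : Module.End ℤ L) (t : P),
      s59b_CptJ φ₀ z.2 B ∧ s59b_CptV b bV B (act t) ∧ ev t = θ z.1 := by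
    intro z hz
    induction hz using Subring.closure_induction with
    | mem z hz => exact hgens z hz
    | zero =>
      refine ⟨0, 0, s59b_CptJ_zero, ?_, ?_⟩
      · intro h
        rw [map_zero, LinearMap.zero_apply, LinearMap.zero_apply, map_zero]
      · rw [map_zero, Prod.fst_zero, map_zero]
    | one =>
      refine ⟨1, 1, s59b_CptJ_one, ?_, ?_⟩
      · rw [map_one]; exact s59b_CptV_one
      · rw [map_one, Prod.fst_one, map_one]
    | add z₁ z₂ _ _ ih₁ ih₂ =>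
      obtain ⟨B₁, t₁, a₁, b₁, c₁⟩ := ih₁
      obtain ⟨B₂, t₂, a₂, b₂, c₂⟩ := ih₂
      refine ⟨B₁ + B₂, t₁ + t₂, s59b_CptJ_add a₁ a₂, ?_, ?_⟩
      · rw [map_add]; exact s59b_CptV_add b₁ b₂
      · rw [map_add, Prod.fst_add, map_add, c₁, c₂]
    | neg z _ ih =>
      obtain ⟨B₁, t₁, a₁, b₁, c₁⟩ := ih
      refine ⟨-B₁, -t₁, s59b_CptJ_neg a₁, ?_, ?_⟩
      · rw [map_neg]; exact s59b_CptV_neg b₁
      · rw [map_neg, Prod.fst_neg, map_neg, c₁]
    | mul z₁ z₂ _ _ ih₁ ih₂ =>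
      obtain ⟨B₁, t₁, a₁, b₁, c₁⟩ := ih₁
      obtain ⟨B₂, t₂, a₂, b₂, c₂⟩ := ih₂
      refine ⟨B₁ * B₂, t₁ * t₂, s59b_CptJ_mul a₁ a₂, ?_, ?_⟩
      · rw [map_mul]; exact s59b_CptV_mul b₁ b₂
      · rw [map_mul, Prod.fst_mul, map_mul, c₁, c₂]
  -- reduction to coordinates and functionals
  rw [s59b_mem_smul_top_iff_repr bV]
  intro i
  by_contra hxi
  obtain ⟨f, hf𝔪, hfx⟩ := s59b_exists_addHom (p := p) _ hxi
  set u : V := E y with hu
  obtain ⟨h, hrel⟩ := s59b_exists_Rel (b := b) (bV := bV) f u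
  -- a lattice vector related to an element of `𝔪 V` lies in `p L`, hence dies in `J`
  have hkill : ∀ (u' : V) (h' : L), s59b_Rel b bV f u' h' →
      u' ∈ (maximalIdeal 𝒪 • ⊤ : Submodule 𝒪 V) → φ₀ h' = 0 := by
    intro u' h' hr hu'
    rw [s59b_mem_smul_top_iff_repr bV] at hu'
    have hdiv : ∀ l, (p : ℤ) ∣ b.repr h' l := by
      intro l
      have h0 : ((b.repr h' l : ℤ) : ZMod p) = 0 := by rw [hr l, hf𝔪 _ (hu' l)]
      exact (ZMod.intCast_zmod_eq_zero_iff_dvd _ p).mp h0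
    choose n hn using hdiv
    have e : h' = p • ∑ l, n l • b l := by
      conv_lhs => rw [← b.sum_repr h']
      rw [Finset.smul_sum]
      refine Finset.sum_congr rfl fun l _ => ?_
      rw [hn l, mul_smul, natCast_zsmul]
    rw [e, map_nsmul, hφtors]
  -- `φ₀ h` lies in the primary part
  have hmem : φ₀ h ∈ s33r_primTors θ p gens := by
    refine ⟨hφtors h, fun z hz hθ => ?_⟩
    obtain ⟨B, t, a₁, b₁, c₁⟩ := hcl z hz
    obtain ⟨r, hr⟩ := hnil t (c₁.trans hθ)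
    refine ⟨r, ?_⟩
    rw [s59b_CptJ_pow a₁ r h]
    exact hkill _ _ (s59b_Rel_apply hrel (s59b_CptV_pow b₁ r)) (hr y)
  -- apply [P4-J]
  have hJ : s59b_CptJ φ₀ ((Tp - cp • (1 : Module.End ℤ J)) ^ m)
      ((TpL - cp • (1 : Module.End ℤ L)) ^ m) :=
    s59b_CptJ_pow (s59b_CptJ_sub hTp1 (s59b_CptJ_intCast cp)) m
  have hV : s59b_CptV b bV ((TpL - cp • (1 : Module.End ℤ L)) ^ m)
      ((TpV - (cp : 𝒪) • (1 : Module.End 𝒪 V)) ^ m) :=
    s59b_CptV_pow (s59b_CptV_sub hTp2 (s59b_CptV_intCast cp)) m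
  have h0 := hP4 _ hmem
  rw [hJ h] at h0
  have hdiv := hφker _ h0 i
  have hrel' := s59b_Rel_apply hrel hV i
  rw [(ZMod.intCast_zmod_eq_zero_iff_dvd _ p).mpr hdiv] at hrel'
  exact hfx hrel'.symm

end Main

end Fermat.Agent.Lib.S59
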