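/-
Programme R (S59), case (P), item [P4] BRIDGE (helper2, prefix `s59b_`), file 2: **the instance on
`H_par(Γ₀(M), 𝒪)`**.

* `s59b_hparBasis` : the `𝒪`-basis `castB` of `H_par(Γ₀(M), 𝒪)` (`𝒪` a domain of characteristic zero), and
  `s59b_castL_hpar` : the lattice map of `B9P4Abs` is the cast of coefficients;
* `s59b_CptV_hecke` : `T_ℓ` on `H(ℤ)` and on `H_par(Γ₀(M), 𝒪)` are compatible;
* `s59b_phi0` : `H(ℤ) → J₀(M)(ℚ̄)`, `h ↦ (ι h) 1` (first layer of `s30i_iota`), `p`-torsion valued, kernel `p H(ℤ)`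
  (`s59b_phi0_ker`), `T_ℓ`-equivariant for every `ℓ ∤ M`, `ℓ = p` included (`s59b_CptJ_hecke`);
* **`s59b_P4_good`** : (TQ)-shaped statement at `q := p`: if `(T_p - cp)^m` kills the `θ`-primary part of
  `J₀(M)[p]` (helper8's [P4-J]) then `(T_p - cp)^m` maps the `ε₀`-part of `H_par(Γ₀(M), 𝒪)` into `𝔪 H_par`.
-/
import Mathlib
import Fermat.Agent.Lib.S59.B9P4Abs
import Fermat.Agent.Lib.S59.BTQGood
import Fermat.Agent.Lib.S59.BNEig
import Fermat.Agent.Lib.S33.RealTop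

set_option autoImplicit false
set_option linter.unusedSectionVars false
set_option linter.unusedVariables false
set_option linter.style.haveILetI false

open AlgebraicCurve ModularCurve CongruenceSubgroup
open scoped MatrixGroups

namespace Fermat.Agent.Lib.S59

open Fermat.Agent.Lib.S29 Fermat.Agent.Lib.S30 Fermat.Agent.Lib.S31 Fermat.Agent.Lib.S33
  Fermat.Agent.Lib.S48
open Matrix IsLocalRing

noncomputable section

section Basis

variable {M : ℕ} [NeZero M] {ι : Type*} [Fintype ι] [DecidableEq ι]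
  (b : Module.Basis ι ℤ ↥(s29s_M M)) (𝒪 : Type*) [CommRing 𝒪] [IsDomain 𝒪] [CharZero 𝒪]

/-- the vectors `castB` as elements of `H_par(Γ₀(M), 𝒪)`. -/
def s59b_hparVec (i : ι) : s29h_Hpar 𝒪 M 𝒪 :=
  ⟨s29s_castB b 𝒪 i, s29s_cast_mem_Hpar 𝒪 𝒪 (b i).2⟩

theorem s59b_hparVec_coe (i : ι) :
    ((s59b_hparVec b 𝒪 i : s29h_Hpar 𝒪 M 𝒪) : Additive (Gamma0 M) →+ 𝒪) = s29s_castB b 𝒪 i := rfl

theorem s59b_hparVec_li : LinearIndependent 𝒪 (s59b_hparVec b 𝒪) := by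
  refine LinearIndependent.of_comp (s29h_Hpar 𝒪 M 𝒪).subtype ?_
  exact s30e_castB_linearIndependent b 𝒪

theorem s59b_hparVec_span : ⊤ ≤ Submodule.span 𝒪 (Set.range (s59b_hparVec b 𝒪)) := by
  intro x _
  obtain ⟨c, hc⟩ := s59b_exists_coeffs0 b 𝒪 (x : Additive (Gamma0 M) →+ 𝒪) x.2
  have e : x = ∑ i, c i • s59b_hparVec b 𝒪 i := by
    apply Subtype.ext
    rw [hc, Submodule.coe_sum]
    refine Finset.sum_congr rfl fun i _ => ?_
    rw [Submodule.coe_smul, s59b_hparVec_coe]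
  rw [e]
  exact Submodule.sum_mem _ fun i _ =>
    Submodule.smul_mem _ _ (Submodule.subset_span ⟨i, rfl⟩)

/-- **the `𝒪`-basis `castB` of `H_par(Γ₀(M), 𝒪)`.** -/
def s59b_hparBasis : Module.Basis ι 𝒪 (s29h_Hpar 𝒪 M 𝒪) :=
  Module.Basis.mk (s59b_hparVec_li b 𝒪) (s59b_hparVec_span b 𝒪)

theorem s59b_hparBasis_apply (i : ι) : s59b_hparBasis b 𝒪 i = s59b_hparVec b 𝒪 i := by
  rw [s59b_hparBasis, Module.Basis.mk_apply]

/-- the lattice map `H(ℤ) → H_par(Γ₀(M), 𝒪)` is the cast of coefficients. -/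
theorem s59b_castL_hpar (h : ↥(s29s_M M)) :
    ((s59b_castL b (s59b_hparBasis b 𝒪) h : s29h_Hpar 𝒪 M 𝒪) : Additive (Gamma0 M) →+ 𝒪) =
      s29s_cast 𝒪 (h : Additive (Gamma0 M) →+ ℤ) := by
  rw [s59b_castL_eq_sum, Submodule.coe_sum]
  have e : (h : Additive (Gamma0 M) →+ ℤ) =
      ∑ j, b.repr h j • (b j : Additive (Gamma0 M) →+ ℤ) := by
    have h1 := b.sum_repr h
    have h2 := congrArg (fun x : ↥(s29s_M M) => (x : Additive (Gamma0 M) →+ ℤ)) h1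
    simp only [Submodule.coe_sum, Submodule.coe_smul] at h2
    exact h2.symm
  conv_rhs => rw [e]
  rw [map_sum]
  refine Finset.sum_congr rfl fun j _ => ?_
  rw [Submodule.coe_smul, s59b_hparBasis_apply, s59b_hparVec_coe, s29s_cast_zsmul]
  rfl

/-- **`T_ℓ` on the lattice and on `H_par(Γ₀(M), 𝒪)` are compatible.** -/
theorem s59b_CptV_hecke (ℓ : ℕ) [Fact ℓ.Prime] :
    s59b_CptV b (s59b_hparBasis b 𝒪) (s29h_heckeHpar M ℓ ℤ ℤ) (s29h_heckeHpar M ℓ 𝒪 𝒪) := by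
  intro h
  apply Subtype.ext
  rw [s29h_heckeHpar_coe, s59b_castL_hpar, s59b_castL_hpar, s29h_heckeHpar_coe, s29s_heckeHom_cast]

end Basis

section Phi

variable (M : ℕ) [NeZero M] (p : ℕ) [Fact p.Prime]

/-- **the first layer of `ι : H(ℤ) → T_p J₀(M)`.** -/
def s59b_phi0 : ↥(s29s_M M) →+ JZero M where
  toFun h := ((s30i_iota M p h : s30a_TJ M p) : ℕ → JZero M) 1
  map_zero' := by rw [map_zero]; rfl
  map_add' x y := by rw [map_add]; rfl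

theorem s59b_phi0_apply (h : ↥(s29s_M M)) :
    s59b_phi0 M p h = ((s30i_iota M p h : s30a_TJ M p) : ℕ → JZero M) 1 := rfl

theorem s59b_phi0_tors (h : ↥(s29s_M M)) : p • s59b_phi0 M p h = 0 := by
  have := s30a_pow_smul (s30i_iota M p h) 1
  rwa [pow_one] at this

/-- `φ₀` is Hecke equivariant at every prime `ℓ ∤ M` (including `ℓ = p`). -/
theorem s59b_CptJ_hecke (ℓ : ℕ) [hℓ : Fact ℓ.Prime] (hℓM : ¬ ℓ ∣ M) :
    s59b_CptJ (s59b_phi0 M p) (heckeOperatorBar M ⟨ℓ, hℓ.out⟩) (s29h_heckeHpar M ℓ ℤ ℤ) := by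
  intro h
  rw [s59b_phi0_apply, s59b_phi0_apply, s30i_iota_hecke M p ℓ hℓM h]
  rfl

variable {M p}

/-- the values of a lattice vector killed by `φ₀` are divisible by `p`. -/
theorem s59b_phi0_ker_val (h : ↥(s29s_M M)) (h0 : s59b_phi0 M p h = 0)
    (γ : Additive (Gamma0 M)) : (p : ℤ) ∣ (h : Additive (Gamma0 M) →+ ℤ) γ := by
  have h1 := s30i_kappa_iota M p h 1
  have h2 : (⟨((s30i_iota M p h : s30a_TJ M p) : ℕ → JZero M) 1,
      s30i_mem_Jp M p _ 1⟩ : s29k_Jp M (p ^ 1)) = 0 := Subtype.ext h0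
  rw [h2, map_zero] at h1
  have h3 := DFunLike.congr_fun h1 γ
  rw [s29s_cast_apply, AddMonoidHom.zero_apply] at h3
  have h4 := (ZMod.intCast_zmod_eq_zero_iff_dvd _ (p ^ 1)).mp h3.symm
  rwa [pow_one] at h4

variable {ι : Type*} [Fintype ι] [DecidableEq ι] (b : Module.Basis ι ℤ ↥(s29s_M M))

/-- **the kernel of `φ₀` is `p H(ℤ)`.** -/
theorem s59b_phi0_ker (h : ↥(s29s_M M)) (h0 : s59b_phi0 M p h = 0) (i : ι) :
    (p : ℤ) ∣ b.repr h i := by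
  have hli := s29s_castB_linearIndependent_zmod b p
  rw [Fintype.linearIndependent_iff] at hli
  have e : (h : Additive (Gamma0 M) →+ ℤ) =
      ∑ j, b.repr h j • (b j : Additive (Gamma0 M) →+ ℤ) := by
    have h1 := b.sum_repr h
    have h2 := congrArg (fun x : ↥(s29s_M M) => (x : Additive (Gamma0 M) →+ ℤ)) h1
    simp only [Submodule.coe_sum, Submodule.coe_smul] at h2
    exact h2.symm
  have hsum : ∑ j, ((b.repr h j : ℤ) : ZMod p) • s29s_castB b (ZMod p) j = 0 := by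
    refine AddMonoidHom.ext fun γ => ?_
    rw [AddMonoidHom.finsetSum_apply, AddMonoidHom.zero_apply]
    have h1 := s59b_phi0_ker_val h h0 γ
    rw [← ZMod.intCast_zmod_eq_zero_iff_dvd, e, AddMonoidHom.finsetSum_apply, Int.cast_sum] at h1
    rw [← h1]
    refine Finset.sum_congr rfl fun j _ => ?_
    rw [AddMonoidHom.smul_apply, AddMonoidHom.smul_apply, smul_eq_mul, smul_eq_mul, Int.cast_mul]
    rfl
  have := hli _ hsum i
  exact (ZMod.intCast_zmod_eq_zero_iff_dvd _ p).mp this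

end Phi

section Main

variable (p : ℕ) [hp : Fact p.Prime]
  {𝒪 : Type} [CommRing 𝒪] [IsDomain 𝒪] [CharZero 𝒪] [IsLocalRing 𝒪]
  [CharP (ResidueField 𝒪) p]
  {N' : ℕ} [NeZero N']

set_option maxHeartbeats 1600000 in
/-- **the [P4] bridge, (TQ)-shaped at `q := p`.**  `good` a family of anemic generators containing the `T_ℓ`,
`ℓ ∤ N'`, `ℓ ∉ B`; every `X_x - c_x`, `x ∈ good`, topologically nilpotent on the image of `ε₀ = e₀(T)` in
`H_par(Γ₀(M), 𝒪)`, `p ∤ M`; `θ` a character of the Hecke algebra of level `N` with `θ(T_ℓ) = c_ℓ mod 𝔪` for `ℓ ∉ S₁`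
(`S₁ ⊇ primes(N') ∪ B`).  If `(T_p - cp)^m` kills the `θ`-primary part of `J₀(M)(ℚ̄)[p]`, then `(T_p - cp)^m` maps the
image of `ε₀` into `𝔪 H_par(Γ₀(M), 𝒪)`. -/
theorem s59b_P4_good (aq : ℕ → 𝒪) (good : Set (s59w_AIdx N')) (c : s59w_AIdx N' → 𝒪)
    (Bset : Finset ℕ)
    (hgp : ∀ i : s59w_TIdx N', i.ell ∉ Bset → (Sum.inl i : s59w_AIdx N') ∈ good)
    (M : ℕ) (hM : M ∣ N') (e₀ : MvPolynomial ↥good 𝒪)
    (hnil : ∀ x : ↥good, ∃ n : ℕ, ∀ y : s29h_Hpar 𝒪 M 𝒪,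
      ((s59t_op0 N' aq M (Sum.inl (x : s59w_AIdx N')) -
        c x • (1 : Module.End 𝒪 (s29h_Hpar 𝒪 M 𝒪))) ^ n)
        (s59t_act0 aq hM (MvPolynomial.rename
          (fun x : ↥good => (Sum.inl (x : s59w_AIdx N') : s59w_AIdx N' ⊕ ℕ)) e₀) y) ∈
        (maximalIdeal 𝒪 • ⊤ : Submodule 𝒪 (s29h_Hpar 𝒪 M 𝒪)))
    (hpM : ¬ p ∣ M)
    {N : ℕ} [NeZero N] {S : Finset ℕ}
    (θ : CuspForm.heckeAlgebra N 2 (↑S : Set ℕ) →+* ResidueField 𝒪) (S₁ : Finset ℕ)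
    (hS₁ : ∀ ℓ : ℕ, ℓ.Prime → ℓ ∉ S₁ → ¬ ℓ ∣ N' ∧ ℓ ∉ Bset)
    (hθ : ∀ i : s59w_TIdx N', i.ell ∉ S₁ →
      residue 𝒪 (c (Sum.inl i)) = θ (s31e_tau N S i.ell))
    (cp : ℤ) (m : ℕ)
    (hP4 : haveI : NeZero M := s59t_neZero_of_dvd hM
      ∀ y ∈ s33r_thetaTors θ M p S₁,
        ((heckeOperatorBar M ⟨p, hp.out⟩ - cp • (1 : Module.End ℤ (JZero M))) ^ m) y = 0)
    (y : s29h_Hpar 𝒪 M 𝒪) :
    ((s29h_heckeHpar M p 𝒪 𝒪 - (cp : 𝒪) • (1 : Module.End 𝒪 (s29h_Hpar 𝒪 M 𝒪))) ^ m)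
      (s59t_act0 aq hM (MvPolynomial.rename
        (fun x : ↥good => (Sum.inl (x : s59w_AIdx N') : s59w_AIdx N' ⊕ ℕ)) e₀) y) ∈
      (maximalIdeal 𝒪 • ⊤ : Submodule 𝒪 (s29h_Hpar 𝒪 M 𝒪)) := by
  classical
  haveI : NeZero M := s59t_neZero_of_dvd hM
  have hnd : ∀ k : s59w_TIdx N', ¬ k.ell ∣ M := fun k h => k.ndvd (dvd_trans h hM)
  let b := Module.finBasis ℤ ↥(s29s_M M)
  -- the polynomial action on the good variables
  set act : MvPolynomial ↥good 𝒪 →ₐ[𝒪] Module.End 𝒪 (s29h_Hpar 𝒪 M 𝒪) :=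
    (s59t_act0 aq hM).comp (MvPolynomial.rename
      (fun x : ↥good => (Sum.inl (x : s59w_AIdx N') : s59w_AIdx N' ⊕ ℕ))) with hact
  have hactX : ∀ x : ↥good, act (MvPolynomial.X x) =
      s59t_op0 N' aq M (Sum.inl (x : s59w_AIdx N')) := by
    intro x
    rw [hact, AlgHom.comp_apply, MvPolynomial.rename_X, s59t_act0_X]
  set E : Module.End 𝒪 (s29h_Hpar 𝒪 M 𝒪) := s59t_act0 aq hM (MvPolynomial.rename
    (fun x : ↥good => (Sum.inl (x : s59w_AIdx N') : s59w_AIdx N' ⊕ ℕ)) e₀) with hE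
  refine s59b_P4_abs (p := p) b (s59b_hparBasis b 𝒪) (s59b_phi0 M p) (s59b_phi0_tors M p)
    (fun h h0 i => s59b_phi0_ker b h h0 i) θ (s33r_gensJ (N := N) (S := S) M S₁) act
    (s59t_evalHom (fun x : ↥good => c (x : s59w_AIdx N'))) E ?_ ?_
    (heckeOperatorBar M ⟨p, hp.out⟩) (s29h_heckeHpar M p ℤ ℤ) (s29h_heckeHpar M p 𝒪 𝒪)
    (s59b_CptJ_hecke M p p hpM) (s59b_CptV_hecke b 𝒪 p) cp m hP4 y
  · -- topological nilpotency of the evaluation ideal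
    intro t ht
    exact s59b_nil_of_gen act E (fun x : ↥good => c (x : s59w_AIdx N'))
      (fun x => by
        obtain ⟨n, hn⟩ := hnil x
        refine ⟨n, fun y => ?_⟩
        rw [hactX x]
        exact hn y)
      t ((s59t_mem_evalIdeal _ t).mpr ht)
  · -- the generators
    rintro z ⟨ℓ, hℓ, hℓS₁, rfl⟩
    obtain ⟨hℓN', hℓB⟩ := hS₁ ℓ hℓ hℓS₁
    haveI : Fact ℓ.Prime := ⟨hℓ⟩
    obtain ⟨σ, hσ, h11⟩ := s48h_exists_sigma_p (M := N') hℓN'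
    set i : s59w_TIdx N' := ⟨ℓ, hℓ, hℓN', σ, hσ, h11⟩ with hi
    have hig : (Sum.inl i : s59w_AIdx N') ∈ good := hgp i hℓB
    refine ⟨s29h_heckeHpar M ℓ ℤ ℤ, MvPolynomial.X ⟨Sum.inl i, hig⟩,
      s59b_CptJ_hecke M p ℓ (hnd i), ?_, ?_⟩
    · rw [hactX]
      exact s59b_CptV_hecke b 𝒪 ℓ
    · rw [s59t_evalHom_X]
      exact hθ i hℓS₁

end Main

end

end Fermat.Agent.Lib.S59
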