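/-
Programme R (S59), case (P), item [P4] BRIDGE (helper2, prefix `s59b_`), file 3: **the op-form twin at the `Γ_⊤`-base**
(helper9 #3862 §2).

`H_par(Γ₀(N), 𝒪) ≃ H_par(Γ_⊤(N), 𝒪)` by restriction (`s59b_topRes`, inverse `s59b_topInv`), intertwining
`s29h_heckeHpar N ℓ` with `s59w_op ⊤ 𝒪 (inl i)` (`i.ell = ℓ`) and the polynomial action `s59t_act0` with helper8's
base idempotent action `s59t_E0 ⊤ B`.  Transport of `s59b_P4_good`: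

* **`s59b_P4_top`** : if `(T_p - cp)^m` kills the `θ`-primary part of `J₀(N)[p]` then
  `(s59w_op ⊤ 𝒪 (inl ip) - cp)^m` maps the image of `s59t_E0 ⊤ B e` into `𝔪 H_par(Γ_⊤(N), 𝒪)` (`ip.ell = p`);
* `s59b_P4_top_sq` : hence `(T_p² - 1)^m` does, when `cp² = 1` (the `hnil` of helper9's `s59m_new_ne_zero`, operator
  form).
-/
import Mathlib
import Fermat.Agent.Lib.S59.B9P4Inst
import Fermat.Agent.Lib.S59.TLvlQ3
import Fermat.Agent.Lib.S59.TDia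
import Fermat.Agent.Lib.S59.TResG

set_option autoImplicit false
set_option linter.unusedSectionVars false
set_option linter.unusedVariables false
set_option linter.style.haveILetI false

open AlgebraicCurve ModularCurve CongruenceSubgroup
open scoped MatrixGroups

namespace Fermat.Agent.Lib.S59

open Fermat.Agent.Lib.S29 Fermat.Agent.Lib.S30 Fermat.Agent.Lib.S31 Fermat.Agent.Lib.S33
  Fermat.Agent.Lib.S48
open Matrix IsLocalRing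

noncomputable section

section TopEquiv

variable (M : ℕ) [NeZero M] (R : Type*) [CommRing R] (A : Type*) [AddCommGroup A] [Module R A]

theorem s59b_Gamma0_le_top : Gamma0 M ≤ s48h_GammaH M (⊤ : Subgroup (ZMod M)ˣ) :=
  fun g hg => s59t_mem_GammaH_top M ⟨g, hg⟩

/-- restriction `H_par(Γ₀(M), A) → H_par(Γ_⊤(M), A)`. -/
def s59b_topRes : s29h_Hpar R M A →ₗ[R] s48h_Hpar R (s48h_GammaH M (⊤ : Subgroup (ZMod M)ˣ)) A :=
  s59t_resHpar M ⊤ R A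

/-- its inverse. -/
def s59b_topInv : s48h_Hpar R (s48h_GammaH M (⊤ : Subgroup (ZMod M)ˣ)) A →ₗ[R] s29h_Hpar R M A :=
  s59t_resGHpar (s59b_Gamma0_le_top M) R A

theorem s59b_topInv_res (y : s29h_Hpar R M A) : s59b_topInv M R A (s59b_topRes M R A y) = y := by
  apply Subtype.ext
  refine AddMonoidHom.ext fun a => ?_
  obtain ⟨γ, rfl⟩ := Additive.ofMul.surjective a
  rfl

theorem s59b_res_topInv (z : s48h_Hpar R (s48h_GammaH M (⊤ : Subgroup (ZMod M)ˣ)) A) :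
    s59b_topRes M R A (s59b_topInv M R A z) = z := by
  apply Subtype.ext
  refine AddMonoidHom.ext fun a => ?_
  obtain ⟨γ, rfl⟩ := Additive.ofMul.surjective a
  rfl

end TopEquiv

section Inter

variable {𝒪 : Type*} [CommRing 𝒪] {Z Z' : Type*} [AddCommGroup Z] [Module 𝒪 Z] [AddCommGroup Z']
  [Module 𝒪 Z']

/-- intertwining passes to `(A - s)^m`. -/
theorem s59b_intertwine_sub_pow (f : Z →ₗ[𝒪] Z') (A : Module.End 𝒪 Z) (B : Module.End 𝒪 Z')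
    (h : ∀ z, f (A z) = B (f z)) (s : 𝒪) (m : ℕ) (z : Z) :
    f (((A - s • (1 : Module.End 𝒪 Z)) ^ m) z) = ((B - s • (1 : Module.End 𝒪 Z')) ^ m) (f z) := by
  induction m generalizing z with
  | zero => rw [pow_zero, pow_zero, Module.End.one_apply, Module.End.one_apply]
  | succ m ih =>
    rw [pow_succ, pow_succ, Module.End.mul_apply, Module.End.mul_apply, ih]
    congr 1
    rw [LinearMap.sub_apply, LinearMap.sub_apply, LinearMap.smul_apply, LinearMap.smul_apply,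
      Module.End.one_apply, Module.End.one_apply, map_sub, map_smul, h]

/-- `(T² - 1)^m = (T + A)^m (T - A)^m` for a central involution `A`. -/
theorem s59b_sq_sub_one_pow {R : Type*} [Ring R] (T A : R) (hA : A * A = 1)
    (hAT : A * T = T * A) (m : ℕ) :
    (T * T - 1) ^ m = (T + A) ^ m * (T - A) ^ m := by
  have hfac : T * T - 1 = (T + A) * (T - A) := by
    rw [add_mul, mul_sub, mul_sub, hAT, hA]
    abel
  have h1 : Commute T A := hAT.symm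
  have hcomm : Commute (T + A) (T - A) :=
    ((Commute.refl T).add_left h1.symm).sub_right (h1.add_left (Commute.refl A))
  rw [hfac, hcomm.mul_pow]

end Inter

section Main

variable (p : ℕ) [hp : Fact p.Prime]
  {𝒪 : Type} [CommRing 𝒪] [IsDomain 𝒪] [CharZero 𝒪] [IsLocalRing 𝒪]
  [CharP (ResidueField 𝒪) p]
  {N : ℕ} [NeZero N]

/-- `T_ℓ` at `Γ₀`-level and at `Γ_⊤`-level. -/
theorem s59b_topRes_T (i : s59w_TIdx N) (y : s29h_Hpar 𝒪 N 𝒪) :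
    s59b_topRes N 𝒪 𝒪
        ((haveI : Fact i.ell.Prime := ⟨i.prime⟩; s29h_heckeHpar N i.ell 𝒪 𝒪) y) =
      s59w_op (⊤ : Subgroup (ZMod N)ˣ) 𝒪 (Sum.inl i) (s59b_topRes N 𝒪 𝒪 y) := by
  haveI : Fact i.ell.Prime := ⟨i.prime⟩
  apply Subtype.ext
  exact s59t_res_hecke (H := (⊤ : Subgroup (ZMod N)ˣ)) (ℓ := i.ell) i.ndvd i.mem i.lr y.1

/-- the polynomial actions at `Γ₀`-level and at `Γ_⊤`-level. -/
theorem s59b_topRes_act (aq : ℕ → 𝒪) (Bset : Finset ℕ)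
    (e : MvPolynomial ↥(s59t_goodB N Bset) 𝒪) (y : s29h_Hpar 𝒪 N 𝒪) :
    s59b_topRes N 𝒪 𝒪 (s59t_act0 aq (dvd_refl N) (MvPolynomial.rename
        (fun x : ↥(s59t_goodB N Bset) => (Sum.inl (x : s59w_AIdx N) : s59w_AIdx N ⊕ ℕ)) e) y) =
      s59t_E0 (⊤ : Subgroup (ZMod N)ˣ) Bset e (s59b_topRes N 𝒪 𝒪 y) := by
  unfold s59t_act0 s59t_E0
  rw [s59t_polyAct_rename]
  refine s59t_polyAct_intertwine _ _ _ _ (s59b_topRes N 𝒪 𝒪) ?_ e y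
  rintro ⟨x, i, rfl, hi⟩ z
  exact s59b_topRes_T i z

set_option maxHeartbeats 1600000 in
/-- **the [P4] bridge at the `Γ_⊤`-base, operator form.** -/
theorem s59b_P4_top (Bset : Finset ℕ) (c : s59w_AIdx N → 𝒪)
    (e : MvPolynomial ↥(s59t_goodB N Bset) 𝒪)
    (hnil : ∀ x ∈ s59t_goodB N Bset, ∃ k : ℕ,
      ∀ y : s48h_Hpar 𝒪 (s48h_GammaH N (⊤ : Subgroup (ZMod N)ˣ)) 𝒪,
      ((s59w_op (⊤ : Subgroup (ZMod N)ˣ) 𝒪 x - c x •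
        (1 : Module.End 𝒪 (s48h_Hpar 𝒪 (s48h_GammaH N (⊤ : Subgroup (ZMod N)ˣ)) 𝒪))) ^ k)
        ((s59t_E0 (⊤ : Subgroup (ZMod N)ˣ) Bset e) y) ∈
        (maximalIdeal 𝒪 • ⊤ :
          Submodule 𝒪 (s48h_Hpar 𝒪 (s48h_GammaH N (⊤ : Subgroup (ZMod N)ˣ)) 𝒪)))
    (hpN : ¬ p ∣ N)
    {N₀ : ℕ} [NeZero N₀] {S : Finset ℕ}
    (θ : CuspForm.heckeAlgebra N₀ 2 (↑S : Set ℕ) →+* ResidueField 𝒪) (S₁ : Finset ℕ)
    (hS₁ : ∀ ℓ : ℕ, ℓ.Prime → ℓ ∉ S₁ → ¬ ℓ ∣ N ∧ ℓ ∉ Bset)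
    (hθ : ∀ i : s59w_TIdx N, i.ell ∉ S₁ →
      residue 𝒪 (c (Sum.inl i)) = θ (s31e_tau N₀ S i.ell))
    (cp : ℤ) (m : ℕ)
    (hP4 : ∀ y ∈ s33r_thetaTors θ N p S₁,
      ((heckeOperatorBar N ⟨p, hp.out⟩ - cp • (1 : Module.End ℤ (JZero N))) ^ m) y = 0)
    (ip : s59w_TIdx N) (hip : ip.ell = p)
    (y : s48h_Hpar 𝒪 (s48h_GammaH N (⊤ : Subgroup (ZMod N)ˣ)) 𝒪) :
    ((s59w_op (⊤ : Subgroup (ZMod N)ˣ) 𝒪 (Sum.inl ip) - (cp : 𝒪) •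
      (1 : Module.End 𝒪 (s48h_Hpar 𝒪 (s48h_GammaH N (⊤ : Subgroup (ZMod N)ˣ)) 𝒪))) ^ m)
      ((s59t_E0 (⊤ : Subgroup (ZMod N)ˣ) Bset e) y) ∈
      (maximalIdeal 𝒪 • ⊤ :
        Submodule 𝒪 (s48h_Hpar 𝒪 (s48h_GammaH N (⊤ : Subgroup (ZMod N)ˣ)) 𝒪)) := by
  classical
  set Rr := s59b_topRes N 𝒪 𝒪 with hRr
  set Ri := s59b_topInv N 𝒪 𝒪 with hRi
  set aq : ℕ → 𝒪 := fun _ => 0 with haq
  -- the `Γ₀`-level statement
  have key : ∀ y₀ : s29h_Hpar 𝒪 N 𝒪,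
      ((s29h_heckeHpar N p 𝒪 𝒪 - (cp : 𝒪) • (1 : Module.End 𝒪 (s29h_Hpar 𝒪 N 𝒪))) ^ m)
        (s59t_act0 aq (dvd_refl N) (MvPolynomial.rename
          (fun x : ↥(s59t_goodB N Bset) => (Sum.inl (x : s59w_AIdx N) : s59w_AIdx N ⊕ ℕ)) e) y₀) ∈
        (maximalIdeal 𝒪 • ⊤ : Submodule 𝒪 (s29h_Hpar 𝒪 N 𝒪)) := by
    refine s59b_P4_good p aq (s59t_goodB N Bset) c Bset (fun i hi => ⟨i, rfl, hi⟩) N (dvd_refl N) e
      ?_ hpN θ S₁ hS₁ hθ cp m hP4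
    rintro ⟨x, hx⟩
    obtain ⟨k, hk⟩ := hnil x hx
    refine ⟨k, fun y₀ => ?_⟩
    obtain ⟨i, rfl, hi⟩ := hx
    have h1 := hk (Rr y₀)
    rw [← s59b_topRes_act aq Bset e y₀,
      ← s59b_intertwine_sub_pow Rr (s59t_op0 N aq N (Sum.inl (Sum.inl i)))
        (s59w_op (⊤ : Subgroup (ZMod N)ˣ) 𝒪 (Sum.inl i)) (fun z => s59b_topRes_T i z)
        (c (Sum.inl i)) k] at h1
    have h2 := s59b_lin_mem_smul_top (maximalIdeal 𝒪) Ri h1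
    rwa [hRi, hRr, s59b_topInv_res] at h2
  -- transport
  have hy : y = Rr (Ri y) := (s59b_res_topInv N 𝒪 𝒪 y).symm
  rw [hy, ← s59b_topRes_act aq Bset e (Ri y)]
  obtain ⟨ℓ, hℓ, hℓN, σ, hσ, h11⟩ := ip
  change ℓ = p at hip
  subst hip
  rw [← s59b_intertwine_sub_pow Rr (s29h_heckeHpar N ℓ 𝒪 𝒪)
    (s59w_op (⊤ : Subgroup (ZMod N)ˣ) 𝒪 (Sum.inl ⟨ℓ, hℓ, hℓN, σ, hσ, h11⟩))
    (fun z => s59b_topRes_T ⟨ℓ, hℓ, hℓN, σ, hσ, h11⟩ z) (cp : 𝒪) m]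
  exact s59b_lin_mem_smul_top (maximalIdeal 𝒪) Rr (key (Ri y))

set_option maxHeartbeats 1600000 in
/-- **`T_p² - 1` is topologically nilpotent on the base part** (`cp² = 1`): the `hnil` of helper9's
`s59m_new_ne_zero`, operator form. -/
theorem s59b_P4_top_sq (Bset : Finset ℕ) (c : s59w_AIdx N → 𝒪)
    (e : MvPolynomial ↥(s59t_goodB N Bset) 𝒪)
    (hnil : ∀ x ∈ s59t_goodB N Bset, ∃ k : ℕ,
      ∀ y : s48h_Hpar 𝒪 (s48h_GammaH N (⊤ : Subgroup (ZMod N)ˣ)) 𝒪,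
      ((s59w_op (⊤ : Subgroup (ZMod N)ˣ) 𝒪 x - c x •
        (1 : Module.End 𝒪 (s48h_Hpar 𝒪 (s48h_GammaH N (⊤ : Subgroup (ZMod N)ˣ)) 𝒪))) ^ k)
        ((s59t_E0 (⊤ : Subgroup (ZMod N)ˣ) Bset e) y) ∈
        (maximalIdeal 𝒪 • ⊤ :
          Submodule 𝒪 (s48h_Hpar 𝒪 (s48h_GammaH N (⊤ : Subgroup (ZMod N)ˣ)) 𝒪)))
    (hpN : ¬ p ∣ N)
    {N₀ : ℕ} [NeZero N₀] {S : Finset ℕ}
    (θ : CuspForm.heckeAlgebra N₀ 2 (↑S : Set ℕ) →+* ResidueField 𝒪) (S₁ : Finset ℕ)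
    (hS₁ : ∀ ℓ : ℕ, ℓ.Prime → ℓ ∉ S₁ → ¬ ℓ ∣ N ∧ ℓ ∉ Bset)
    (hθ : ∀ i : s59w_TIdx N, i.ell ∉ S₁ →
      residue 𝒪 (c (Sum.inl i)) = θ (s31e_tau N₀ S i.ell))
    (cp : ℤ) (hcp : cp * cp = 1) (m : ℕ)
    (hP4 : ∀ y ∈ s33r_thetaTors θ N p S₁,
      ((heckeOperatorBar N ⟨p, hp.out⟩ - cp • (1 : Module.End ℤ (JZero N))) ^ m) y = 0)
    (ip : s59w_TIdx N) (hip : ip.ell = p)
    (y : s48h_Hpar 𝒪 (s48h_GammaH N (⊤ : Subgroup (ZMod N)ˣ)) 𝒪) :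
    ((s59w_op (⊤ : Subgroup (ZMod N)ˣ) 𝒪 (Sum.inl ip) *
        s59w_op (⊤ : Subgroup (ZMod N)ˣ) 𝒪 (Sum.inl ip) - 1) ^ m)
      ((s59t_E0 (⊤ : Subgroup (ZMod N)ˣ) Bset e) y) ∈
      (maximalIdeal 𝒪 • ⊤ :
        Submodule 𝒪 (s48h_Hpar 𝒪 (s48h_GammaH N (⊤ : Subgroup (ZMod N)ˣ)) 𝒪)) := by
  set T := s59w_op (⊤ : Subgroup (ZMod N)ˣ) 𝒪 (Sum.inl ip) with hT
  set A : Module.End 𝒪 (s48h_Hpar 𝒪 (s48h_GammaH N (⊤ : Subgroup (ZMod N)ˣ)) 𝒪) :=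
    (cp : 𝒪) • 1 with hAdef
  have hcp' : ((cp : 𝒪)) * (cp : 𝒪) = 1 := by
    rw [← Int.cast_mul, hcp, Int.cast_one]
  have hA : A * A = 1 := by
    refine LinearMap.ext fun z => ?_
    rw [Module.End.mul_apply, hAdef, LinearMap.smul_apply, LinearMap.smul_apply,
      Module.End.one_apply, smul_smul, hcp', one_smul]
  have hAT : A * T = T * A := by
    refine LinearMap.ext fun z => ?_
    rw [Module.End.mul_apply, Module.End.mul_apply, hAdef, LinearMap.smul_apply,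
      LinearMap.smul_apply, Module.End.one_apply, Module.End.one_apply, map_smul]
  have h := LinearMap.congr_fun (s59b_sq_sub_one_pow T A hA hAT m)
    ((s59t_E0 (⊤ : Subgroup (ZMod N)ˣ) Bset e) y)
  rw [Module.End.mul_apply] at h
  rw [h]
  exact s59b_lin_mem_smul_top (maximalIdeal 𝒪) _
    (s59b_P4_top p Bset c e hnil hpN θ S₁ hS₁ hθ cp m hP4 ip hip y)

end Main

end

end Fermat.Agent.Lib.S59
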