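/-
Programme R (S59), case (P), item [P4], END TO END (helper2, prefix `s59b_`): **`a_p² ≡ 1` on the base module.**

helper8's [P4-J] (`s59c_P4_pts_smul`, CP4Inst.lean: for a Hecke–Galois datum `H` whose residual representation is
STRICTLY ordinary at `p`, `T_p - c` is nilpotent on the `θ`-primary part of `J₀(N)(ℚ̄)[p]`, `c = ±1`) composed with the
bridge `s59b_P4_top` / `s59b_P4_top_sq` (B9P4Top.lean), with the auxiliary finite set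
`S₁ := S ∪ primes(N) ∪ B` chosen once and for all.

* **`s59b_P4_full`** : `∃ cp, cp² = 1 ∧ ∃ m, ∀ y, ((s59w_op ⊤ 𝒪 (inl ip) - cp)^m) (s59t_E0 ⊤ B e y) ∈ 𝔪 H_par(Γ_⊤(N), 𝒪)`;
* **`s59b_P4_full_sq`** : `∃ m, ∀ y, ((T_p T_p - 1)^m) (s59t_E0 ⊤ B e y) ∈ 𝔪 H_par(Γ_⊤(N), 𝒪)` — the `hnil` of helper9's
  `s59m_new_ne_zero`, operator form.
-/
import Mathlib
import Fermat.Agent.Lib.S59.B9P4Top
import Fermat.Agent.Lib.S59.CP4Inst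

set_option autoImplicit false
set_option linter.unusedSectionVars false
set_option linter.unusedVariables false
set_option linter.style.haveILetI false
set_option synthInstance.maxHeartbeats 400000

open AlgebraicCurve ModularCurve CongruenceSubgroup
open scoped MatrixGroups

namespace Fermat.Agent.Lib.S59

open Fermat.Agent.Lib.S29 Fermat.Agent.Lib.S30 Fermat.Agent.Lib.S31 Fermat.Agent.Lib.S33
  Fermat.Agent.Lib.S48 Fermat.Agent.Lib.S18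
open Matrix IsLocalRing

noncomputable section

section Full

variable {p : ℕ} [hp : Fact p.Prime] {N₀ : ℕ} [NeZero N₀] {S : Finset ℕ}
  {𝒪 : Type} [CommRing 𝒪] [IsDomain 𝒪] [IsDiscreteValuationRing 𝒪]
  [IsAdicComplete (IsLocalRing.maximalIdeal 𝒪) 𝒪] [CharZero 𝒪]
  {θ : CuspForm.heckeAlgebra N₀ 2 (↑S : Set ℕ) →+* IsLocalRing.ResidueField 𝒪}
  {T : Type} [CommRing T] [IsLocalRing T] [IsNoetherianRing T]
  [IsAdicComplete (IsLocalRing.maximalIdeal T) T] [Algebra 𝒪 T] [IsLocalHom (algebraMap 𝒪 T)]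
  [Module.Finite 𝒪 T] [Module.Free 𝒪 T]
  (H : CuspForm.HeckeGaloisRepDatum N₀ (↑S : Set ℕ) 𝒪 θ T)

/-- the residue field of `𝒪` has characteristic `p`. -/
theorem s59b_charP_res_of_mem (hp𝒪 : (p : 𝒪) ∈ maximalIdeal 𝒪) : CharP (ResidueField 𝒪) p := by
  have h4 : ((p : ℕ) : ResidueField 𝒪) = 0 := by
    rw [← map_natCast (residue 𝒪)]
    exact (residue_eq_zero_iff _).mpr hp𝒪
  exact (CharP.charP_iff_prime_eq_zero hp.out).mpr h4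

set_option maxHeartbeats 1600000 in
/-- **[P4] end to end, `T_p - cp`.** -/
theorem s59b_P4_full [Finite (ResidueField 𝒪)] (hp2 : p ≠ 2)
    (hp𝒪 : (p : 𝒪) ∈ maximalIdeal 𝒪) (hpS : p ∈ S)
    (hNS : ∀ q : ℕ, q.Prime → q ∣ N₀ → q ∈ S)
    (hstr : (GaloisRepAdic.ofResidualGaloisRep H.ρ.residual).IsStrictOrdinaryAt p)
    {N : ℕ} [NeZero N] (hgood : s18_GoodLevel p N)
    (Bset : Finset ℕ) (c : s59w_AIdx N → 𝒪)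
    (e : MvPolynomial ↥(s59t_goodB N Bset) 𝒪)
    (hnil : ∀ x ∈ s59t_goodB N Bset, ∃ k : ℕ,
      ∀ y : s48h_Hpar 𝒪 (s48h_GammaH N (⊤ : Subgroup (ZMod N)ˣ)) 𝒪,
      ((s59w_op (⊤ : Subgroup (ZMod N)ˣ) 𝒪 x - c x •
        (1 : Module.End 𝒪 (s48h_Hpar 𝒪 (s48h_GammaH N (⊤ : Subgroup (ZMod N)ˣ)) 𝒪))) ^ k)
        ((s59t_E0 (⊤ : Subgroup (ZMod N)ˣ) Bset e) y) ∈
        (maximalIdeal 𝒪 • ⊤ :
          Submodule 𝒪 (s48h_Hpar 𝒪 (s48h_GammaH N (⊤ : Subgroup (ZMod N)ˣ)) 𝒪)))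
    (hθ : ∀ i : s59w_TIdx N, i.ell ∉ S → i.ell ∉ Bset →
      residue 𝒪 (c (Sum.inl i)) = θ (s31e_tau N₀ S i.ell))
    (ip : s59w_TIdx N) (hip : ip.ell = p) :
    ∃ cp : ℤ, cp * cp = 1 ∧ ∃ m : ℕ,
      ∀ y : s48h_Hpar 𝒪 (s48h_GammaH N (⊤ : Subgroup (ZMod N)ˣ)) 𝒪,
      ((s59w_op (⊤ : Subgroup (ZMod N)ˣ) 𝒪 (Sum.inl ip) - (cp : 𝒪) •
        (1 : Module.End 𝒪 (s48h_Hpar 𝒪 (s48h_GammaH N (⊤ : Subgroup (ZMod N)ˣ)) 𝒪))) ^ m)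
        ((s59t_E0 (⊤ : Subgroup (ZMod N)ˣ) Bset e) y) ∈
        (maximalIdeal 𝒪 • ⊤ :
          Submodule 𝒪 (s48h_Hpar 𝒪 (s48h_GammaH N (⊤ : Subgroup (ZMod N)ˣ)) 𝒪)) := by
  classical
  haveI : CharP (ResidueField 𝒪) p := s59b_charP_res_of_mem hp𝒪
  set S₁ : Finset ℕ := S ∪ N.primeFactors ∪ Bset with hS₁def
  have hSS₁ : S ⊆ S₁ := fun q hq => Finset.mem_union_left _ (Finset.mem_union_left _ hq)
  have hMS₁ : ∀ q : ℕ, q.Prime → q ∣ N → q ∈ S₁ := fun q hq hqN =>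
    Finset.mem_union_left _ (Finset.mem_union_right _
      (Nat.mem_primeFactors.mpr ⟨hq, hqN, NeZero.ne N⟩))
  have hS₁ : ∀ ℓ : ℕ, ℓ.Prime → ℓ ∉ S₁ → ¬ ℓ ∣ N ∧ ℓ ∉ Bset := by
    intro ℓ hℓ hℓS₁
    exact ⟨fun h => hℓS₁ (hMS₁ ℓ hℓ h), fun h => hℓS₁ (Finset.mem_union_right _ h)⟩
  obtain ⟨cp, hcp, m, hm⟩ :=
    s59c_P4_pts_smul H hp.out hp2 hp𝒪 hpS hNS hstr hgood hSS₁ hMS₁
  refine ⟨cp, hcp, m, fun y => ?_⟩
  exact s59b_P4_top p Bset c e hnil hgood.1 θ S₁ hS₁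
    (fun i hi => hθ i (fun h => hi (hSS₁ h)) (fun h => hi (Finset.mem_union_right _ h)))
    cp m hm ip hip y

set_option maxHeartbeats 1600000 in
/-- **[P4] end to end, `T_p² - 1`** (the `hnil` of `s59m_new_ne_zero`, operator form). -/
theorem s59b_P4_full_sq [Finite (ResidueField 𝒪)] (hp2 : p ≠ 2)
    (hp𝒪 : (p : 𝒪) ∈ maximalIdeal 𝒪) (hpS : p ∈ S)
    (hNS : ∀ q : ℕ, q.Prime → q ∣ N₀ → q ∈ S)
    (hstr : (GaloisRepAdic.ofResidualGaloisRep H.ρ.residual).IsStrictOrdinaryAt p)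
    {N : ℕ} [NeZero N] (hgood : s18_GoodLevel p N)
    (Bset : Finset ℕ) (c : s59w_AIdx N → 𝒪)
    (e : MvPolynomial ↥(s59t_goodB N Bset) 𝒪)
    (hnil : ∀ x ∈ s59t_goodB N Bset, ∃ k : ℕ,
      ∀ y : s48h_Hpar 𝒪 (s48h_GammaH N (⊤ : Subgroup (ZMod N)ˣ)) 𝒪,
      ((s59w_op (⊤ : Subgroup (ZMod N)ˣ) 𝒪 x - c x •
        (1 : Module.End 𝒪 (s48h_Hpar 𝒪 (s48h_GammaH N (⊤ : Subgroup (ZMod N)ˣ)) 𝒪))) ^ k)
        ((s59t_E0 (⊤ : Subgroup (ZMod N)ˣ) Bset e) y) ∈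
        (maximalIdeal 𝒪 • ⊤ :
          Submodule 𝒪 (s48h_Hpar 𝒪 (s48h_GammaH N (⊤ : Subgroup (ZMod N)ˣ)) 𝒪)))
    (hθ : ∀ i : s59w_TIdx N, i.ell ∉ S → i.ell ∉ Bset →
      residue 𝒪 (c (Sum.inl i)) = θ (s31e_tau N₀ S i.ell))
    (ip : s59w_TIdx N) (hip : ip.ell = p) :
    ∃ m : ℕ, ∀ y : s48h_Hpar 𝒪 (s48h_GammaH N (⊤ : Subgroup (ZMod N)ˣ)) 𝒪,
      ((s59w_op (⊤ : Subgroup (ZMod N)ˣ) 𝒪 (Sum.inl ip) *
          s59w_op (⊤ : Subgroup (ZMod N)ˣ) 𝒪 (Sum.inl ip) - 1) ^ m)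
        ((s59t_E0 (⊤ : Subgroup (ZMod N)ˣ) Bset e) y) ∈
        (maximalIdeal 𝒪 • ⊤ :
          Submodule 𝒪 (s48h_Hpar 𝒪 (s48h_GammaH N (⊤ : Subgroup (ZMod N)ˣ)) 𝒪)) := by
  classical
  haveI : CharP (ResidueField 𝒪) p := s59b_charP_res_of_mem hp𝒪
  set S₁ : Finset ℕ := S ∪ N.primeFactors ∪ Bset with hS₁def
  have hSS₁ : S ⊆ S₁ := fun q hq => Finset.mem_union_left _ (Finset.mem_union_left _ hq)
  have hMS₁ : ∀ q : ℕ, q.Prime → q ∣ N → q ∈ S₁ := fun q hq hqN =>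
    Finset.mem_union_left _ (Finset.mem_union_right _
      (Nat.mem_primeFactors.mpr ⟨hq, hqN, NeZero.ne N⟩))
  have hS₁ : ∀ ℓ : ℕ, ℓ.Prime → ℓ ∉ S₁ → ¬ ℓ ∣ N ∧ ℓ ∉ Bset := by
    intro ℓ hℓ hℓS₁
    exact ⟨fun h => hℓS₁ (hMS₁ ℓ hℓ h), fun h => hℓS₁ (Finset.mem_union_right _ h)⟩
  obtain ⟨cp, hcp, m, hm⟩ :=
    s59c_P4_pts_smul H hp.out hp2 hp𝒪 hpS hNS hstr hgood hSS₁ hMS₁
  refine ⟨m, fun y => ?_⟩
  exact s59b_P4_top_sq p Bset c e hnil hgood.1 θ S₁ hS₁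
    (fun i hi => hθ i (fun h => hi (hSS₁ h)) (fun h => hi (Finset.mem_union_right _ h)))
    cp hcp m hm ip hip y

end Full

end

end Fermat.Agent.Lib.S59
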