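/-
Programme R (S59), case (P), item [P8-base-W] (iii), file 1 (helper2, prefix `s59b_`): **transfers of RESIDUAL STRICT
ORDINARITY** `(ofResidualGaloisRep r).IsStrictOrdinaryAt p` (the hypothesis `hstr` of helper8's [P4-J] `s59c_P4_pts_smul`
and of `s59b_P4_full_sq`) — the strict twins of helper6's `s59q_resOrd_of_ord / _baseChange / _of_equiv`:

* `s59b_resStrict_of_strict`   : the residual representation of a strictly ordinary representation is strictly ordinary;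
* `s59b_resStrict_baseChange`  : … passes to an extension of scalars `ResidualGaloisRep.baseChangeAlong ψ`;
* `s59b_resStrict_of_equiv`, `s59b_resStrict_of_isEquiv` : … passes along an equivalence.
-/
import Mathlib
import Fermat.Agent.Lib.S59.EOrdBC
import Fermat.Prelude.Def_GaloisRep_StrictOrdinary
import Fermat.Prelude.Def_GaloisRep_ResidualEquiv

set_option autoImplicit false
set_option linter.unusedSectionVars false
set_option linter.unusedVariables false
set_option linter.style.haveILetI false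

noncomputable section

namespace Fermat.Agent.Lib.S59

open IsLocalRing TensorProduct

local notation "Qbar" => AlgebraicClosure ℚ
local notation "GQ" => (AlgebraicClosure ℚ ≃ₐ[ℚ] AlgebraicClosure ℚ)

section ResStrict

/-- the residual representation of a strictly ordinary representation is strictly ordinary. -/
theorem s59b_resStrict_of_strict {A : Type} [CommRing A] [IsLocalRing A] (ρ : GaloisRepAdic A)
    (p : ℕ) (h : ρ.IsStrictOrdinaryAt p) :
    (GaloisRepAdic.ofResidualGaloisRep ρ.residual).IsStrictOrdinaryAt p := by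
  have hp0 : ((p : ℕ) : ResidueField A) = 0 := by
    rw [← map_natCast (residue A)]
    exact (residue_eq_zero_iff _).mpr h.1
  refine ⟨?_, fun P hP => ?_⟩
  · rw [hp0]
    exact Ideal.zero_mem _
  obtain ⟨L, ⟨b, hLb⟩, hD, hI, hchar⟩ := h.2 P hP
  let b' : Module.Basis (Fin 2) (ResidueField A) (ResidueField A ⊗[A] ρ.V) :=
    Algebra.TensorProduct.basis (ResidueField A) b
  have hb'0 : b' 0 = (1 : ResidueField A) ⊗ₜ[A] b 0 := Algebra.TensorProduct.basis_apply b 0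
  have hspan : Submodule.span (ResidueField A) {(1 : ResidueField A) ⊗ₜ[A] b 0} =
      Submodule.span (ResidueField A) {b' 0} := by rw [hb'0]
  have hDst : ∀ σ ∈ P.decompositionSubgroup ℚ,
      ∀ v ∈ Submodule.span (ResidueField A) {(1 : ResidueField A) ⊗ₜ[A] b 0},
      (ρ.ρ σ).baseChange (ResidueField A) v ∈
        Submodule.span (ResidueField A) {(1 : ResidueField A) ⊗ₜ[A] b 0} := by
    intro σ hσ v hv
    obtain ⟨x, z, hx, -, -⟩ := hchar σ hσ
    rw [s59e_baseChange_smul_line (A := ResidueField A) (b 0) (ρ.ρ σ) x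
      (by rw [← hLb]; exact hx) v hv]
    exact Submodule.smul_mem _ _ hv
  have hIn : ∀ σ ∈ P.inertiaSubgroupIn ℚ, ∀ v : ResidueField A ⊗[A] ρ.V,
      (ρ.ρ σ).baseChange (ResidueField A) v - v ∈
        Submodule.span (ResidueField A) {(1 : ResidueField A) ⊗ₜ[A] b 0} := by
    intro σ hσ v
    have h1 := s59e_baseChange_sub_mem (A := ResidueField A) (b 0) (ρ.ρ σ) 1
      (fun v => by rw [one_smul, ← hLb]; exact hI σ hσ v) v
    rwa [map_one, one_smul] at h1
  have hCh : ∀ σ ∈ P.decompositionSubgroup ℚ, ∃ x z : ResidueField A,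
      (∀ w ∈ Submodule.span (ResidueField A) {(1 : ResidueField A) ⊗ₜ[A] b 0},
        (ρ.ρ σ).baseChange (ResidueField A) w = x • w) ∧
      (∀ v : ResidueField A ⊗[A] ρ.V,
        (ρ.ρ σ).baseChange (ResidueField A) v - z • v ∈
          Submodule.span (ResidueField A) {(1 : ResidueField A) ⊗ₜ[A] b 0}) ∧
      ∀ (n a : ℕ), (∀ μ : Qbar, μ ^ p ^ n = 1 → σ μ = μ ^ a) →
        x - (a : ResidueField A) * z ∈ Ideal.span {((p ^ n : ℕ) : ResidueField A)} := by
    intro σ hσ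
    obtain ⟨x, z, hx, hz, hcong⟩ := hchar σ hσ
    refine ⟨algebraMap A (ResidueField A) x, algebraMap A (ResidueField A) z, ?_, ?_, ?_⟩
    · intro w hw
      exact s59e_baseChange_smul_line (A := ResidueField A) (b 0) (ρ.ρ σ) x
        (by rw [← hLb]; exact hx) w hw
    · intro v
      exact s59e_baseChange_sub_mem (A := ResidueField A) (b 0) (ρ.ρ σ) z
        (fun v => by rw [← hLb]; exact hz v) v
    · intro n a ha
      have h1 := hcong n a ha
      rw [Ideal.mem_span_singleton] at h1 ⊢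
      obtain ⟨y, hy⟩ := h1
      refine ⟨algebraMap A (ResidueField A) y, ?_⟩
      have := congrArg (algebraMap A (ResidueField A)) hy
      rw [map_sub, map_mul, map_natCast, map_mul, map_natCast] at this
      exact this
  exact ⟨Submodule.span (ResidueField A) {(1 : ResidueField A) ⊗ₜ[A] b 0}, ⟨b', hspan⟩, hDst, hIn,
    hCh⟩

/-- residual strict ordinarity passes to an extension of scalars. -/
theorem s59b_resStrict_baseChange {k k' : Type} [Field k] [Field k'] (ψ : k →+* k')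
    (r : ResidualGaloisRep k) (p : ℕ)
    (h : (GaloisRepAdic.ofResidualGaloisRep r).IsStrictOrdinaryAt p) :
    (GaloisRepAdic.ofResidualGaloisRep (r.baseChangeAlong ψ)).IsStrictOrdinaryAt p := by
  letI : Algebra k k' := ψ.toAlgebra
  have hp0 : ((p : ℕ) : k) = 0 := by
    have h1 := h.1
    rw [IsLocalRing.maximalIdeal_eq_bot] at h1
    exact h1
  have hp0' : ((p : ℕ) : k') = 0 := by
    rw [← map_natCast ψ, hp0, map_zero]
  refine ⟨?_, fun P hP => ?_⟩
  · rw [hp0']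
    exact Ideal.zero_mem _
  obtain ⟨L, ⟨b, hLb⟩, hD, hI, hchar⟩ := h.2 P hP
  let L₀ : Submodule k r.V := L
  let b₀ : Module.Basis (Fin 2) k r.V := b
  have hLb₀ : L₀ = Submodule.span k {b₀ 0} := hLb
  have hI' : ∀ σ ∈ P.inertiaSubgroupIn ℚ, ∀ v : r.V, r.ρ σ v - v ∈ L₀ := hI
  have hchar' : ∀ σ ∈ P.decompositionSubgroup ℚ, ∃ x z : k,
      (∀ w ∈ L₀, r.ρ σ w = x • w) ∧ (∀ v : r.V, r.ρ σ v - z • v ∈ L₀) ∧
      ∀ (n a : ℕ), (∀ μ : Qbar, μ ^ p ^ n = 1 → σ μ = μ ^ a) →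
        x - (a : k) * z ∈ Ideal.span {((p ^ n : ℕ) : k)} := hchar
  let b' : Module.Basis (Fin 2) k' (k' ⊗[k] r.V) := Algebra.TensorProduct.basis k' b₀
  have hb'0 : b' 0 = (1 : k') ⊗ₜ[k] b₀ 0 := Algebra.TensorProduct.basis_apply b₀ 0
  have hspan : Submodule.span k' {(1 : k') ⊗ₜ[k] b₀ 0} = Submodule.span k' {b' 0} := by rw [hb'0]
  have hDst : ∀ σ ∈ P.decompositionSubgroup ℚ,
      ∀ v ∈ Submodule.span k' {(1 : k') ⊗ₜ[k] b₀ 0},
      (r.ρ σ).baseChange k' v ∈ Submodule.span k' {(1 : k') ⊗ₜ[k] b₀ 0} := by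
    intro σ hσ v hv
    obtain ⟨x, z, hx, -, -⟩ := hchar' σ hσ
    rw [s59e_baseChange_smul_line (A := k') (b₀ 0) (r.ρ σ) x
      (by rw [← hLb₀]; exact hx) v hv]
    exact Submodule.smul_mem _ _ hv
  have hIn : ∀ σ ∈ P.inertiaSubgroupIn ℚ, ∀ v : k' ⊗[k] r.V,
      (r.ρ σ).baseChange k' v - v ∈ Submodule.span k' {(1 : k') ⊗ₜ[k] b₀ 0} := by
    intro σ hσ v
    have h1 := s59e_baseChange_sub_mem (A := k') (b₀ 0) (r.ρ σ) 1
      (fun v => by rw [one_smul, ← hLb₀]; exact hI' σ hσ v) v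
    rwa [map_one, one_smul] at h1
  have hCh : ∀ σ ∈ P.decompositionSubgroup ℚ, ∃ x z : k',
      (∀ w ∈ Submodule.span k' {(1 : k') ⊗ₜ[k] b₀ 0}, (r.ρ σ).baseChange k' w = x • w) ∧
      (∀ v : k' ⊗[k] r.V,
        (r.ρ σ).baseChange k' v - z • v ∈ Submodule.span k' {(1 : k') ⊗ₜ[k] b₀ 0}) ∧
      ∀ (n a : ℕ), (∀ μ : Qbar, μ ^ p ^ n = 1 → σ μ = μ ^ a) →
        x - (a : k') * z ∈ Ideal.span {((p ^ n : ℕ) : k')} := by
    intro σ hσ
    obtain ⟨x, z, hx, hz, hcong⟩ := hchar' σ hσ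
    refine ⟨algebraMap k k' x, algebraMap k k' z, ?_, ?_, ?_⟩
    · intro w hw
      exact s59e_baseChange_smul_line (A := k') (b₀ 0) (r.ρ σ) x
        (by rw [← hLb₀]; exact hx) w hw
    · intro v
      exact s59e_baseChange_sub_mem (A := k') (b₀ 0) (r.ρ σ) z
        (fun v => by rw [← hLb₀]; exact hz v) v
    · intro n a ha
      have h1 := hcong n a ha
      rw [Ideal.mem_span_singleton] at h1 ⊢
      obtain ⟨y, hy⟩ := h1
      refine ⟨algebraMap k k' y, ?_⟩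
      have := congrArg (algebraMap k k') hy
      rw [map_sub, map_mul, map_natCast, map_mul, map_natCast] at this
      exact this
  exact ⟨Submodule.span k' {(1 : k') ⊗ₜ[k] b₀ 0}, ⟨b', hspan⟩, hDst, hIn, hCh⟩

/-- residual strict ordinarity passes along an equivalence. -/
theorem s59b_resStrict_of_equiv {k : Type} [Field k] {r₁ r₂ : ResidualGaloisRep k}
    (e : ResidualGaloisRep.Equiv r₁ r₂) (p : ℕ)
    (h : (GaloisRepAdic.ofResidualGaloisRep r₁).IsStrictOrdinaryAt p) :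
    (GaloisRepAdic.ofResidualGaloisRep r₂).IsStrictOrdinaryAt p := by
  refine ⟨h.1, fun P hP => ?_⟩
  obtain ⟨L, ⟨b, hLb⟩, hD, hI, hchar⟩ := h.2 P hP
  let L₀ : Submodule k r₁.V := L
  let b₀ : Module.Basis (Fin 2) k r₁.V := b
  have hLb₀ : L₀ = Submodule.span k {b₀ 0} := hLb
  have hD' : ∀ σ ∈ P.decompositionSubgroup ℚ, ∀ v ∈ L₀, r₁.ρ σ v ∈ L₀ := hD
  have hI' : ∀ σ ∈ P.inertiaSubgroupIn ℚ, ∀ v : r₁.V, r₁.ρ σ v - v ∈ L₀ := hI
  have hchar' : ∀ σ ∈ P.decompositionSubgroup ℚ, ∃ x z : k,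
      (∀ w ∈ L₀, r₁.ρ σ w = x • w) ∧ (∀ v : r₁.V, r₁.ρ σ v - z • v ∈ L₀) ∧
      ∀ (n a : ℕ), (∀ μ : Qbar, μ ^ p ^ n = 1 → σ μ = μ ^ a) →
        x - (a : k) * z ∈ Ideal.span {((p ^ n : ℕ) : k)} := hchar
  let b₂ : Module.Basis (Fin 2) k r₂.V := b₀.map e.toLinearEquiv
  have hb₂ : b₂ 0 = e.toLinearEquiv (b₀ 0) := Module.Basis.map_apply b₀ e.toLinearEquiv 0
  let L₂ : Submodule k r₂.V := L₀.map e.toLinearEquiv.toLinearMap
  have hL₂ : L₂ = Submodule.span k {b₂ 0} := by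
    show L₀.map e.toLinearEquiv.toLinearMap = _
    rw [hLb₀, Submodule.map_span, Set.image_singleton, hb₂]
    rfl
  have hDst : ∀ σ ∈ P.decompositionSubgroup ℚ, ∀ v ∈ L₂, r₂.ρ σ v ∈ L₂ := by
    intro σ hσ v hv
    obtain ⟨w, hw, rfl⟩ := Submodule.mem_map.mp hv
    have h1 : r₂.ρ σ (e.toLinearEquiv w) = e.toLinearEquiv (r₁.ρ σ w) := (e.map_apply σ w).symm
    show r₂.ρ σ (e.toLinearEquiv w) ∈ L₂
    rw [h1]
    exact Submodule.mem_map_of_mem (hD' σ hσ w hw)
  have hIn : ∀ σ ∈ P.inertiaSubgroupIn ℚ, ∀ v : r₂.V, r₂.ρ σ v - v ∈ L₂ := by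
    intro σ hσ v
    obtain ⟨w, rfl⟩ := e.toLinearEquiv.surjective v
    have h1 : r₂.ρ σ (e.toLinearEquiv w) - e.toLinearEquiv w = e.toLinearEquiv (r₁.ρ σ w - w) := by
      rw [map_sub, e.map_apply]
    rw [h1]
    exact Submodule.mem_map_of_mem (hI' σ hσ w)
  have hCh : ∀ σ ∈ P.decompositionSubgroup ℚ, ∃ x z : k,
      (∀ w ∈ L₂, r₂.ρ σ w = x • w) ∧ (∀ v : r₂.V, r₂.ρ σ v - z • v ∈ L₂) ∧
      ∀ (n a : ℕ), (∀ μ : Qbar, μ ^ p ^ n = 1 → σ μ = μ ^ a) →
        x - (a : k) * z ∈ Ideal.span {((p ^ n : ℕ) : k)} := by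
    intro σ hσ
    obtain ⟨x, z, hx, hz, hcong⟩ := hchar' σ hσ
    refine ⟨x, z, ?_, ?_, hcong⟩
    · intro w hw
      obtain ⟨u, hu, rfl⟩ := Submodule.mem_map.mp hw
      show r₂.ρ σ (e.toLinearEquiv u) = x • e.toLinearEquiv u
      rw [← e.map_apply, hx u hu, map_smul]
    · intro v
      obtain ⟨w, rfl⟩ := e.toLinearEquiv.surjective v
      have h1 : r₂.ρ σ (e.toLinearEquiv w) - z • e.toLinearEquiv w =
          e.toLinearEquiv (r₁.ρ σ w - z • w) := by
        rw [map_sub, e.map_apply, map_smul]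
      rw [h1]
      exact Submodule.mem_map_of_mem (hz w)
  exact ⟨L₂, ⟨b₂, hL₂⟩, hDst, hIn, hCh⟩

theorem s59b_resStrict_of_isEquiv {k : Type} [Field k] {r₁ r₂ : ResidualGaloisRep k}
    (h12 : r₁.IsEquiv r₂) (p : ℕ)
    (h : (GaloisRepAdic.ofResidualGaloisRep r₁).IsStrictOrdinaryAt p) :
    (GaloisRepAdic.ofResidualGaloisRep r₂).IsStrictOrdinaryAt p := by
  obtain ⟨e⟩ := h12
  exact s59b_resStrict_of_equiv e p h

end ResStrict

end Fermat.Agent.Lib.S59
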