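/-
S59 (E4), step 9: the `ℤ_p`-linear algebra of ordinarity on an abstract Tate module.
`Pt` an abelian group with `#Pt[pⁿ] = p²ⁿ`, `T = s30a_Tp Pt p`, `E ⊂ Pt` a `p`-divisible subgroup
with `E[p] ≠ 0` and `Pt[p] ⊄ E`.  Then the submodule `s59b_line E = {t | ∀ n, t n ∈ E}` of `T` is
`ℤ_p · b 0` for a basis `b` of `T` such that `j • (b 1) n ∈ E → pⁿ ∣ j` (`s59b_exists_line_basis`).
-/
import Mathlib
import Fermat.Agent.Lib.S59.BTate

set_option autoImplicit false
set_option linter.unusedSectionVars false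
set_option linter.style.haveILetI false

namespace Fermat.Agent.Lib.S59

open Fermat.Agent.Lib.S30

section Bij

variable {A : Type*} [AddCommGroup A] {p : ℕ} [hp : Fact p.Prime] {d : ℕ}

/-- a family of the Tate module whose first layer is independent modulo `p` is a basis
(the proof of `s59b_tp_equiv`, for a given family). -/
theorem s59b_lc_bijective (hcard : ∀ n : ℕ, Nat.card (s59b_tor A (p ^ n)) = p ^ (d * n))
    (v : Fin d → s30a_Tp A p)
    (hv : ∀ c : Fin d → ℤ, ∑ i, c i • ((v i : s30a_Tp A p) : ℕ → A) 1 = 0 →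
      ∀ i, (p : ℤ) ∣ c i) :
    Function.Bijective (Fintype.linearCombination ℤ_[p] v) := by
  have hΦ : ∀ a : Fin d → ℤ_[p], Fintype.linearCombination ℤ_[p] v a = ∑ i, a i • v i :=
    fun a => Fintype.linearCombination_apply ℤ_[p] v a
  refine ⟨?_, ?_⟩
  · rw [← LinearMap.ker_eq_bot, LinearMap.ker_eq_bot']
    intro a ha
    funext i
    rw [Pi.zero_apply, ← PadicInt.ext_of_toZModPow]
    intro n
    rw [map_zero]
    have h1 : ∑ i, (a i).appr n • ((v i : s30a_Tp A p) : ℕ → A) n = 0 := by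
      rw [← s59b_lc_apply, ← hΦ, ha]
      rfl
    have h2 := s59b_coord_unique v hv n (fun i => (a i).appr n) (fun _ => 0)
      (by simpa using h1) i
    rw [Nat.cast_zero] at h2
    exact h2
  · intro x
    have hex := fun n : ℕ => s59b_coord_exists hcard v hv n ((x : ℕ → A) n) (s30a_pow_smul x n)
    choose c hc using hex
    have hcompat : ∀ (i : Fin d) (n : ℕ),
        ZMod.castHom (pow_dvd_pow p (Nat.le_succ n)) (ZMod (p ^ n)) (c (n + 1) i) = c n i := by
      intro i n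
      haveI : NeZero (p ^ n) := ⟨pow_ne_zero _ hp.out.ne_zero⟩
      haveI : NeZero (p ^ (n + 1)) := ⟨pow_ne_zero _ hp.out.ne_zero⟩
      have h1 : ∑ i, (c (n + 1) i).val • ((v i : s30a_Tp A p) : ℕ → A) n =
          ∑ i, (c n i).val • ((v i : s30a_Tp A p) : ℕ → A) n := by
        rw [hc n, ← s30a_succ x n, ← hc (n + 1), Finset.smul_sum]
        refine Finset.sum_congr rfl fun j _ => ?_
        rw [smul_comm, s30a_succ]
      have h2 := s59b_coord_unique v hv n (fun i => (c (n + 1) i).val) (fun i => (c n i).val) h1 i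
      rw [ZMod.natCast_zmod_val (c n i)] at h2
      rw [← h2, ZMod.castHom_apply, ZMod.natCast_val]
    let a : Fin d → ℤ_[p] := fun i => s30u_lim p ⟨fun n => c n i, hcompat i⟩
    have ha : ∀ (i : Fin d) (n : ℕ), PadicInt.toZModPow n (a i) = c n i :=
      fun i n => s30u_lim_spec p ⟨fun n => c n i, hcompat i⟩ n
    refine ⟨a, ?_⟩
    rw [hΦ]
    refine s30a_ext fun n => ?_
    haveI : NeZero (p ^ n) := ⟨pow_ne_zero _ hp.out.ne_zero⟩
    rw [s59b_lc_apply, ← hc n]
    refine Finset.sum_congr rfl fun i _ => ?_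
    exact s30a_appr_smul_eq (a i) (c n i).val
      ((ha i n).trans (ZMod.natCast_zmod_val (c n i)).symm) (s30a_pow_smul (v i) n)

/-- the basis attached to such a family. -/
noncomputable def s59b_basisOf (v : Fin d → s30a_Tp A p)
    (hbij : Function.Bijective (Fintype.linearCombination ℤ_[p] v)) :
    Module.Basis (Fin d) ℤ_[p] (s30a_Tp A p) :=
  Module.Basis.ofEquivFun (LinearEquiv.ofBijective (Fintype.linearCombination ℤ_[p] v) hbij).symm

theorem s59b_basisOf_apply (v : Fin d → s30a_Tp A p)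
    (hbij : Function.Bijective (Fintype.linearCombination ℤ_[p] v)) (i : Fin d) :
    s59b_basisOf v hbij i = v i := by
  classical
  rw [s59b_basisOf, Module.Basis.coe_ofEquivFun, LinearEquiv.symm_symm]
  show (LinearEquiv.ofBijective (Fintype.linearCombination ℤ_[p] v) hbij) (Pi.single i 1) = v i
  rw [LinearEquiv.ofBijective_apply, Fintype.linearCombination_apply_single, one_smul]

end Bij

section Line

variable {Pt : Type*} [AddCommGroup Pt] {p : ℕ} [hp : Fact p.Prime]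

/-- the submodule of the Tate module of the sequences with all components in `E`. -/
def s59b_line (E : AddSubgroup Pt) : Submodule ℤ_[p] (s30a_Tp Pt p) where
  carrier := {t | ∀ n, (t : ℕ → Pt) n ∈ E}
  add_mem' := fun {a b} ha hb n => by
    rw [s30a_add_apply]; exact E.add_mem (ha n) (hb n)
  zero_mem' := fun n => E.zero_mem
  smul_mem' := fun c {t} ht n => by
    show ((c • t : s30a_Tp Pt p) : ℕ → Pt) n ∈ E
    rw [s30a_smul_apply]; exact E.nsmul_mem (ht n) _

theorem s59b_mem_line {E : AddSubgroup Pt} {t : s30a_Tp Pt p} :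
    t ∈ s59b_line E ↔ ∀ n, (t : ℕ → Pt) n ∈ E := Iff.rfl

/-- a multiple of a point of order `p` outside `S` lies in `S` only if the multiplier is
divisible by `p`. -/
theorem s59b_dvd_of_zsmul_mem {x : Pt} (hx : p • x = 0) {S : AddSubgroup Pt} (hxS : x ∉ S) {c : ℤ}
    (hc : c • x ∈ S) : (p : ℤ) ∣ c := by
  by_contra h
  have hcop : IsCoprime (p : ℤ) c :=
    (Nat.prime_iff_prime_int.mp hp.out).irreducible.coprime_iff_not_dvd.mpr h
  obtain ⟨u, w, huw⟩ := hcop
  apply hxS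
  have h2 : ((u * (p : ℤ) + w * c) : ℤ) • x = x := by rw [huw, one_smul]
  rw [add_smul, mul_smul, mul_smul, natCast_zsmul, hx, smul_zero, zero_add] at h2
  rw [← h2]
  exact S.zsmul_mem hc w

/-- a compatible sequence of `p`-power division points inside a `p`-divisible subgroup. -/
theorem s59b_exists_lift_line {E : AddSubgroup Pt} (hdiv : ∀ Q ∈ E, ∃ S ∈ E, p • S = Q) {R : Pt}
    (hR : R ∈ E) (hpR : p • R = 0) :
    ∃ t : s30a_Tp Pt p, t ∈ s59b_line E ∧ (t : ℕ → Pt) 1 = R := by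
  classical
  choose! f hfE hf using hdiv
  have hmem : ∀ k : ℕ, f^[k] R ∈ E := by
    intro k
    induction k with
    | zero => exact hR
    | succ k ih => rw [Function.iterate_succ_apply']; exact hfE _ ih
  let g : ℕ → Pt := fun n => Nat.casesOn n 0 (fun k => f^[k] R)
  have hg0 : g 0 = 0 := rfl
  have hgs : ∀ k, g (k + 1) = f^[k] R := fun k => rfl
  have hgT : g ∈ s30a_Tp Pt p := by
    refine ⟨hg0, fun n => ?_⟩
    cases n with
    | zero => rw [hgs, hg0]; exact hpR
    | succ k => rw [hgs, hgs, Function.iterate_succ_apply']; exact hf _ (hmem k)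
  refine ⟨⟨g, hgT⟩, fun n => ?_, rfl⟩
  cases n with
  | zero => show g 0 ∈ E; rw [hg0]; exact E.zero_mem
  | succ k => exact hmem k

/-- if the first layer of `t` is not in `E`, then `j • t n ∈ E` forces `pⁿ ∣ j`. -/
theorem s59b_dvd_of_zsmul_level {E : AddSubgroup Pt} (t : s30a_Tp Pt p)
    (ht : (t : ℕ → Pt) 1 ∉ E) :
    ∀ (n : ℕ) (j : ℤ), j • (t : ℕ → Pt) n ∈ E → ((p ^ n : ℕ) : ℤ) ∣ j := by
  intro n
  induction n with
  | zero => intro j _; simp
  | succ n ih =>
    intro j hj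
    have h1 : j • (t : ℕ → Pt) 1 ∈ E := by
      have := E.nsmul_mem hj (p ^ n)
      rwa [smul_comm, s30a_pow_smul_add t n 1] at this
    have hp1 : p • (t : ℕ → Pt) 1 = 0 := by
      have := s30a_succ t 0
      rwa [s30a_zero] at this
    obtain ⟨j', rfl⟩ := s59b_dvd_of_zsmul_mem hp1 ht h1
    have h2 : j' • (t : ℕ → Pt) n ∈ E := by
      rwa [mul_comm, mul_smul, natCast_zsmul, s30a_succ] at hj
    obtain ⟨k, rfl⟩ := ih j' h2
    exact ⟨k, by push_cast; ring⟩

/-- **the line of the formal group in the Tate module.** -/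
theorem s59b_exists_line_basis (hcard : ∀ n : ℕ, Nat.card (s59b_tor Pt (p ^ n)) = p ^ (2 * n))
    (E : AddSubgroup Pt) (hnot : ∃ P : Pt, p • P = 0 ∧ P ∉ E)
    (hex : ∃ R : Pt, p • R = 0 ∧ R ≠ 0 ∧ R ∈ E) (hdiv : ∀ Q ∈ E, ∃ S ∈ E, p • S = Q) :
    ∃ b : Module.Basis (Fin 2) ℤ_[p] (s30a_Tp Pt p),
      s59b_line E = Submodule.span ℤ_[p] {b 0} ∧ ((b 1 : s30a_Tp Pt p) : ℕ → Pt) 1 ∉ E := by
  obtain ⟨P, hpP, hPE⟩ := hnot
  obtain ⟨R, hpR, hR0, hRE⟩ := hex
  obtain ⟨t₀, ht₀L, ht₀1⟩ := s59b_exists_lift_line hdiv hRE hpR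
  obtain ⟨t₁, ht₁1⟩ := s59b_proj_surjective hcard 1 P (by rw [pow_one]; exact hpP)
  have hv : ∀ c : Fin 2 → ℤ, ∑ i, c i • ((![t₀, t₁] i : s30a_Tp Pt p) : ℕ → Pt) 1 = 0 →
      ∀ i, (p : ℤ) ∣ c i := by
    intro c hc
    rw [Fin.sum_univ_two] at hc
    simp only [Matrix.cons_val_zero, Matrix.cons_val_one] at hc
    rw [ht₀1, ht₁1] at hc
    have h1 : (p : ℤ) ∣ c 1 := by
      refine s59b_dvd_of_zsmul_mem hpP hPE (c := c 1) ?_
      have : c 1 • P = -(c 0 • R) := eq_neg_of_add_eq_zero_right hc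
      rw [this]
      exact E.neg_mem (E.zsmul_mem hRE _)
    have h0 : (p : ℤ) ∣ c 0 := by
      obtain ⟨k, hk⟩ := h1
      rw [hk, mul_smul, natCast_zsmul, smul_comm, hpP, smul_zero, add_zero] at hc
      refine s59b_dvd_of_zsmul_mem hpR (S := ⊥) ?_ (c := c 0) ?_
      · rw [AddSubgroup.mem_bot]; exact hR0
      · rw [AddSubgroup.mem_bot]; exact hc
    intro i
    fin_cases i
    · exact h0
    · exact h1
  have hbij := s59b_lc_bijective hcard ![t₀, t₁] hv
  set b := s59b_basisOf ![t₀, t₁] hbij with hb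
  have hb0 : b 0 = t₀ := s59b_basisOf_apply _ hbij 0
  have hb1 : b 1 = t₁ := s59b_basisOf_apply _ hbij 1
  have ht₁E : ((t₁ : s30a_Tp Pt p) : ℕ → Pt) 1 ∉ E := by rw [ht₁1]; exact hPE
  refine ⟨b, le_antisymm ?_ ?_, by rw [hb1]; exact ht₁E⟩
  · intro t ht
    have hrep : t = b.repr t 0 • t₀ + b.repr t 1 • t₁ := by
      conv_lhs => rw [← b.sum_repr t, Fin.sum_univ_two, hb0, hb1]
    obtain ⟨α, hα⟩ : ∃ α : ℤ_[p], b.repr t 0 = α := ⟨_, rfl⟩
    obtain ⟨β, hβ⟩ : ∃ β : ℤ_[p], b.repr t 1 = β := ⟨_, rfl⟩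
    rw [hα, hβ] at hrep
    have hβL : β • t₁ ∈ s59b_line E := by
      have e : β • t₁ = t - α • t₀ := by rw [hrep]; abel
      rw [e]
      exact Submodule.sub_mem _ ht (Submodule.smul_mem _ _ ht₀L)
    have hβ0 : β = 0 := by
      rw [← PadicInt.ext_of_toZModPow]
      intro n
      rw [map_zero]
      have h1 := hβL n
      rw [s30a_smul_apply] at h1
      have hd := s59b_dvd_of_zsmul_level t₁ ht₁E n ((β.appr n : ℕ) : ℤ)
        (by rwa [natCast_zsmul])
      show ((β.appr n : ℕ) : ZMod (p ^ n)) = 0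
      rw [ZMod.natCast_eq_zero_iff]
      exact Int.natCast_dvd_natCast.mp hd
    rw [hrep, hβ0, zero_smul, add_zero, hb0]
    exact Submodule.mem_span_singleton.mpr ⟨α, rfl⟩
  · rw [Submodule.span_singleton_le_iff_mem, hb0]
    exact ht₀L

end Line

end Fermat.Agent.Lib.S59
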