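/-
S59 (E4), final step: **`ρ_W` is strictly ordinary at a multiplicative odd prime `p`**
(`s59b_rhoW_strictOrd`).  The line is `L = {t ∈ T_p W | ∀ n, t n ∈ E₁}` (`s59b_line`), with the
local data of `BOrdTrans` and the linear algebra of `BOrdAlg`; the character on the quotient
satisfies `z² ≡ 1`, the one on the line is `x` with `x z = det = ε_p`, which gives the cyclotomic
congruence `x ≡ a z (mod pⁿ)`.
-/
import Mathlib
import Fermat.Agent.Lib.S59.BOrdAlg
import Fermat.Agent.Lib.S59.BOrdTrans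
import Fermat.Agent.Lib.S59.BDet
import Fermat.Prelude.Def_GaloisRep_StrictOrdinary

set_option autoImplicit false
set_option linter.unusedSectionVars false

namespace Fermat.Agent.Lib.S59

open Fermat.Agent.Lib.S30 Fermat.Agent.Lib.S58
open WeierstrassCurve IsLocalRing

local notation "Kb" => AlgebraicClosure ℚ

variable {W : WeierstrassCurve ℤ} {p : ℕ} [hp : Fact p.Prime]

/-- `z ≡ c (mod pⁿ)` from the `n`-th approximation. -/
theorem s59b_sub_mem_span (z : ℤ_[p]) (n : ℕ) (c : ℤ)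
    (h : ((p ^ n : ℕ) : ℤ) ∣ ((z.appr n : ℕ) : ℤ) - c) :
    z - (c : ℤ_[p]) ∈ Ideal.span {((p ^ n : ℕ) : ℤ_[p])} := by
  obtain ⟨k, hk⟩ := h
  have h1 : z - (z.appr n : ℤ_[p]) ∈ Ideal.span {((p ^ n : ℕ) : ℤ_[p])} := by
    have := PadicInt.appr_spec n z
    rwa [Nat.cast_pow]
  have h2 : ((z.appr n : ℕ) : ℤ_[p]) - (c : ℤ_[p]) = ((p ^ n : ℕ) : ℤ_[p]) * (k : ℤ_[p]) := by
    have := congrArg (Int.cast : ℤ → ℤ_[p]) hk
    push_cast at this ⊢
    exact this
  have h3 : z - (c : ℤ_[p]) =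
      (z - (z.appr n : ℤ_[p])) + (((z.appr n : ℕ) : ℤ_[p]) - (c : ℤ_[p])) := by ring
  rw [h3, h2]
  exact Ideal.add_mem _ h1 (Ideal.mul_mem_right _ _ (Ideal.subset_span rfl))

/-- the content of strict ordinarity, on the Tate module itself. -/
theorem s59b_strictOrd_aux (hΔ : W.Δ ≠ 0) (hp2 : p ≠ 2) (hirr : W.ModRepIsIrreducible p)
    (hbad : (p : ℤ) ∣ W.Δ) (hc4 : ¬ (p : ℤ) ∣ W.c₄) (A : ValuationSubring Kb)
    (hA : A.LiesOverPrime p) :
    ∃ L : Submodule ℤ_[p] (s59b_TW W p),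
      (∃ b : Module.Basis (Fin 2) ℤ_[p] (s59b_TW W p), L = Submodule.span ℤ_[p] {b 0}) ∧
      (∀ σ ∈ A.decompositionSubgroup ℚ, ∀ v ∈ L, s59b_rhoFun W p σ v ∈ L) ∧
      (∀ σ ∈ A.inertiaSubgroupIn ℚ, ∀ v : s59b_TW W p, s59b_rhoFun W p σ v - v ∈ L) ∧
      (∀ σ ∈ A.decompositionSubgroup ℚ, ∃ x z : ℤ_[p],
        (∀ w ∈ L, s59b_rhoFun W p σ w = x • w) ∧
        (∀ v : s59b_TW W p, s59b_rhoFun W p σ v - z • v ∈ L) ∧
        ∀ (n a : ℕ), (∀ μ : Kb, μ ^ p ^ n = 1 → σ μ = μ ^ a) →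
          x - (a : ℤ_[p]) * z ∈ Ideal.span {((p ^ n : ℕ) : ℤ_[p])}) := by
  obtain ⟨E, hE⟩ := s59b_exists_ordData W hp.out hp2 hΔ hbad hc4 A hA
  obtain ⟨b, hL, hb1⟩ := s59b_exists_line_basis (s59b_card_tor W p hΔ) E hE.exists_notMem
    hE.exists_mem hE.divisible
  have hDL : ∀ σ ∈ A.decompositionSubgroup ℚ, ∀ t ∈ s59b_line (p := p) E,
      s59b_rhoFun W p σ t ∈ s59b_line (p := p) E := by
    intro σ hσ t ht n
    rw [s59b_rhoFun_apply]
    exact hE.smul_mem σ hσ _ (ht n)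
  have hb0L : b 0 ∈ s59b_line (p := p) E := by
    rw [hL]; exact Submodule.mem_span_singleton_self _
  refine ⟨s59b_line (p := p) E, ⟨b, hL⟩, hDL, ?_, ?_⟩
  · intro σ hσ t n
    rw [s30a_sub_apply, s59b_rhoFun_apply]
    exact hE.inertia σ hσ n _ (s30a_pow_smul t n)
  · intro σ hσ
    obtain ⟨f, hf⟩ : ∃ f : Module.End ℤ_[p] (s59b_TW W p), f = s59b_rhoFun W p σ := ⟨_, rfl⟩
    have hfL : f (b 0) ∈ Submodule.span ℤ_[p] {b 0} := by
      rw [← hL, hf]; exact hDL σ hσ _ hb0L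
    obtain ⟨x, hx⟩ := Submodule.mem_span_singleton.mp hfL
    obtain ⟨a, ha⟩ : ∃ a : ℤ_[p], b.repr (f (b 1)) 0 = a := ⟨_, rfl⟩
    obtain ⟨z, hz⟩ : ∃ z : ℤ_[p], b.repr (f (b 1)) 1 = z := ⟨_, rfl⟩
    have hf1 : f (b 1) = a • b 0 + z • b 1 := by
      conv_lhs => rw [← b.sum_repr (f (b 1)), Fin.sum_univ_two, ha, hz]
    rw [← hf]
    refine ⟨x, z, ?_, ?_, ?_⟩
    · intro w hw
      rw [hL] at hw
      obtain ⟨c, rfl⟩ := Submodule.mem_span_singleton.mp hw
      rw [map_smul, ← hx, smul_comm]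
    · intro t
      have hrep : t = b.repr t 0 • b 0 + b.repr t 1 • b 1 := by
        conv_lhs => rw [← b.sum_repr t, Fin.sum_univ_two]
      rw [hL]
      refine Submodule.mem_span_singleton.mpr
        ⟨b.repr t 0 * x + b.repr t 1 * a - z * b.repr t 0, ?_⟩
      conv_rhs => rw [hrep]
      rw [map_add, map_smul, map_smul, ← hx, hf1]
      module
    · intro n a' ha'
      obtain ⟨I, hI⟩ : ∃ I : Ideal ℤ_[p], I = Ideal.span {((p ^ n : ℕ) : ℤ_[p])} := ⟨_, rfl⟩
      rw [← hI]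
      -- the determinant
      have h00 : b.repr (f (b 0)) 0 = x := by
        rw [← hx, map_smul, b.repr_self]; simp
      have h10 : b.repr (f (b 0)) 1 = 0 := by
        rw [← hx, map_smul, b.repr_self]; simp
      have hdet : LinearMap.det f = x * z := by
        rw [← LinearMap.det_toMatrix b, Matrix.det_fin_two, LinearMap.toMatrix_apply,
          LinearMap.toMatrix_apply, LinearMap.toMatrix_apply, LinearMap.toMatrix_apply, h00, h10,
          hz, mul_zero, sub_zero]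
      have hcyc : x * z - (a' : ℤ_[p]) ∈ I := by
        have h1 : LinearMap.det (s59b_rhoFun W p σ) - (a' : ℤ_[p]) ∈
            Ideal.span {((p ^ n : ℕ) : ℤ_[p])} := (s59b_rhoW_detCyc hΔ hp2 hirr).2 n σ a' ha'
        rw [← hf, hdet, ← hI] at h1
        exact h1
      have hunit : IsUnit z := by
        have h1 : x * z = ((s30y_eps p σ : ℤ_[p]ˣ) : ℤ_[p]) := by
          rw [← hdet, hf]; exact s59b_rhoFun_det hΔ hp2 hirr σ
        exact isUnit_of_mul_isUnit_right (h1 ▸ Units.isUnit _)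
      -- `z ≡ ± 1`
      have hcomp : σ • ((b 1 : s59b_TW W p) : ℕ → s58_Pt W) n =
          a.appr n • ((b 0 : s59b_TW W p) : ℕ → s58_Pt W) n +
            z.appr n • ((b 1 : s59b_TW W p) : ℕ → s58_Pt W) n := by
        have h1 := congrArg (fun t : s59b_TW W p => (t : ℕ → s58_Pt W) n) hf1
        simp only [hf, s59b_rhoFun_apply, s30a_add_apply, s30a_smul_apply] at h1
        exact h1
      have hz2 : z * z - 1 ∈ I := by
        rcases hE.pm σ hσ n _ (s30a_pow_smul (b 1) n) with h1 | h1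
        · have h2 : (((z.appr n : ℕ) : ℤ) - 1) • ((b 1 : s59b_TW W p) : ℕ → s58_Pt W) n ∈ E := by
            have e : (((z.appr n : ℕ) : ℤ) - 1) • ((b 1 : s59b_TW W p) : ℕ → s58_Pt W) n =
                (σ • ((b 1 : s59b_TW W p) : ℕ → s58_Pt W) n -
                  ((b 1 : s59b_TW W p) : ℕ → s58_Pt W) n) -
                a.appr n • ((b 0 : s59b_TW W p) : ℕ → s58_Pt W) n := by
              rw [hcomp, sub_smul, natCast_zsmul, one_smul]; abel
            rw [e]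
            exact E.sub_mem h1 (E.nsmul_mem (hb0L n) _)
          have h3 := s59b_sub_mem_span z n 1 (s59b_dvd_of_zsmul_level (b 1) hb1 n _ h2)
          rw [Int.cast_one, ← hI] at h3
          have e : z * z - 1 = (z - 1) * (z + 1) := by ring
          rw [e]
          exact Ideal.mul_mem_right _ _ h3
        · have h2 : (((z.appr n : ℕ) : ℤ) - (-1)) • ((b 1 : s59b_TW W p) : ℕ → s58_Pt W) n ∈ E := by
            have e : (((z.appr n : ℕ) : ℤ) - (-1)) • ((b 1 : s59b_TW W p) : ℕ → s58_Pt W) n =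
                (σ • ((b 1 : s59b_TW W p) : ℕ → s58_Pt W) n +
                  ((b 1 : s59b_TW W p) : ℕ → s58_Pt W) n) -
                a.appr n • ((b 0 : s59b_TW W p) : ℕ → s58_Pt W) n := by
              rw [hcomp, sub_smul, natCast_zsmul, neg_smul, one_smul]; abel
            rw [e]
            exact E.sub_mem h1 (E.nsmul_mem (hb0L n) _)
          have h3 := s59b_sub_mem_span z n (-1) (s59b_dvd_of_zsmul_level (b 1) hb1 n _ h2)
          rw [Int.cast_neg, Int.cast_one, ← hI] at h3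
          have e : z * z - 1 = (z - 1) * (z - -1) := by ring
          rw [e]
          exact Ideal.mul_mem_left _ _ h3
      -- conclusion
      have hmul : z * (x - (a' : ℤ_[p]) * z) ∈ I := by
        have e : z * (x - (a' : ℤ_[p]) * z) =
            (x * z - (a' : ℤ_[p])) - (a' : ℤ_[p]) * (z * z - 1) := by ring
        rw [e]
        exact Ideal.sub_mem _ hcyc (Ideal.mul_mem_left _ _ hz2)
      obtain ⟨u, hu⟩ := hunit
      have e : x - (a' : ℤ_[p]) * z = ((u⁻¹ : ℤ_[p]ˣ) : ℤ_[p]) * (z * (x - (a' : ℤ_[p]) * z)) := by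
        rw [← mul_assoc, ← hu, Units.inv_mul, one_mul]
      rw [e]
      exact Ideal.mul_mem_left _ _ hmul

/-- **[E4] `ρ_W` is strictly ordinary at a multiplicative odd prime.** -/
theorem s59b_rhoW_strictOrd (hΔ : W.Δ ≠ 0) (hp2 : p ≠ 2) (hirr : W.ModRepIsIrreducible p)
    (hbad : (p : ℤ) ∣ W.Δ) (hc4 : ¬ (p : ℤ) ∣ W.c₄) :
    (s59b_rhoW W p hΔ).IsStrictOrdinaryAt p :=
  ⟨s59b_p_mem p, fun A hA => s59b_strictOrd_aux hΔ hp2 hirr hbad hc4 A hA⟩

end Fermat.Agent.Lib.S59
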