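/-
S59 (E4), packaging: strict ordinarity of `ρ_W` at a bad odd prime of a semistable model.
-/
import Mathlib
import Fermat.Agent.Lib.S59.BOrd

set_option autoImplicit false

namespace Fermat.Agent.Lib.S59

open WeierstrassCurve

variable {W : WeierstrassCurve ℤ} {p : ℕ} [hp : Fact p.Prime]

/-- **[E4]** in the form used by the packaging of `(E)`. -/
theorem s59b_rhoW_strictOrd_of_semistable (hΔ : W.Δ ≠ 0) (hp2 : p ≠ 2)
    (hirr : W.ModRepIsIrreducible p) (hss : W.IsSemistableModel) (hbad : ¬ W.IsGoodPrimeFor p) :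
    (s59b_rhoW W p hΔ).IsStrictOrdinaryAt p :=
  s59b_rhoW_strictOrd hΔ hp2 hirr (not_not.mp hbad) (hss p hp.out (not_not.mp hbad))

end Fermat.Agent.Lib.S59
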