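/-
Programme R (S59), case (P), item [P8-base-W] (iii), file 2 (helper2, prefix `s59b_`): **discharge of the `[P4]` input `hP4`
of `s59b_kerBase_W` for a semistable `W`, multiplicative at `p`.**

For `e₁` with `s59b_BaseW W N B 𝒪 e₁` (the base idempotent `ε = E₀(e₁)` at `(N, ⊤)`), helper5's `s59e_H3_hecke'` (level `N`,
`Q = ∅`, `S = B`) gives an eigensystem `θ` of level `N` away from `B`, the Hecke–Galois datum `Hd` over the full local Hecke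
algebra and `Hd.ρ.residual ≅ ρ̄_W ⊗ k_T`; `ρ̄_W` is STRICTLY ordinary at `p` ([E4] `s59b_rhoW_strictOrd_of_semistable`,
base change, residual, extension of scalars, equivalence: `B9StrictRes.lean`); then `[P4]` end to end (`s59b_P4_full_sq`):

* **`s59b_hP4_W`** : `∀ e₁, s59b_BaseW W N B 𝒪 e₁ → ∀ ip, ip.ell = p → ∃ m, ∀ y, ((T_p T_p - 1)^m) (E₀(e₁) y) ∈ 𝔪 H_par`
  — verbatim the hypothesis `hP4` of `s59b_kerBase_W`;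
* **`s59b_kerBase_W_mult`** : `s59b_kerBase_W` with `hP4` discharged.
-/
import Mathlib
import Fermat.Agent.S23
import Fermat.Agent.Lib.S59.B9KerBaseW
import Fermat.Agent.Lib.S59.B9P4Full
import Fermat.Agent.Lib.S59.B9StrictRes
import Fermat.Agent.Lib.S59.EHTop2
import Fermat.Agent.Lib.S59.ETRChiPt
import Fermat.Agent.Lib.S59.BOrdSS
import Fermat.Agent.Lib.S59.BTWArith

set_option autoImplicit false
set_option linter.unusedSectionVars false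
set_option linter.unusedVariables false
set_option linter.style.haveILetI false
set_option synthInstance.maxHeartbeats 400000

noncomputable section

namespace Fermat.Agent.Lib.S59

open Matrix MatrixGroups CongruenceSubgroup IsLocalRing Polynomial CuspForm
open Fermat.Agent.Lib.S29 Fermat.Agent.Lib.S48 Fermat.Agent.Lib.S41 Fermat.Agent.Lib.S44
open Fermat.Agent.Lib.S31 Fermat.Agent.Lib.S18

local notation "Qbar" => AlgebraicClosure ℚ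
local notation "GQ" => (AlgebraicClosure ℚ ≃ₐ[ℚ] AlgebraicClosure ℚ)

section P4W

variable (W : WeierstrassCurve ℤ) (hΔ : W.Δ ≠ 0) (p : ℕ) [Fact p.Prime] (hp2 : p ≠ 2)
  (hirr : W.ModRepIsIrreducible p) (hss : W.IsSemistableModel) (hmult : ¬ W.IsGoodPrimeFor p)
  (N : ℕ) [NeZero N] (hgood : s18_GoodLevel p N)
  (B : Finset ℕ) (hpB : p ∈ B) (hNB : ∀ q : ℕ, q.Prime → q ∣ N → q ∈ B)
  (hB2 : ∀ r : ℕ, r.Prime → ¬ W.IsGoodPrimeFor r → r ∈ B)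
  {𝒪 : Type} [CommRing 𝒪] [IsDomain 𝒪] [IsDiscreteValuationRing 𝒪]
  [IsAdicComplete (maximalIdeal 𝒪) 𝒪] [Finite (ResidueField 𝒪)] [CharZero 𝒪] [Algebra ℤ_[p] 𝒪]
  (hp𝒪 : ((p : ℕ) : 𝒪) ∈ maximalIdeal 𝒪)
  (habs : (((s59b_rhoW W p hΔ).baseChangeAlong (algebraMap ℤ_[p] 𝒪)
    (s59b_isLocalHom_padic p _ hp𝒪)).residual).IsAbsolutelyIrreducible)

include hp2 hirr hss hmult in
/-- `ρ̄_W = (ρ_W ⊗ 𝒪) mod 𝔪` is strictly ordinary at `p` when `W` is multiplicative at `p`. -/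
theorem s59b_rhobarW_resStrict :
    (GaloisRepAdic.ofResidualGaloisRep (((s59b_rhoW W p hΔ).baseChangeAlong (algebraMap ℤ_[p] 𝒪)
      (s59b_isLocalHom_padic p _ hp𝒪)).residual)).IsStrictOrdinaryAt p := by
  have hstrW : (s59b_rhoW W p hΔ).IsStrictOrdinaryAt p :=
    s59b_rhoW_strictOrd_of_semistable hΔ hp2 hirr hss hmult
  have hstr𝒪 := s59e_bc_strictOrd (algebraMap ℤ_[p] 𝒪) (s59b_isLocalHom_padic p _ hp𝒪) _ p hstrW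
  exact s59b_resStrict_of_strict _ p hstr𝒪

include hp2 hirr hss hmult hgood hpB hNB hB2 habs in
set_option maxHeartbeats 1600000 in
/-- **the `[P4]` input of `s59b_kerBase_W` for `W` multiplicative at `p`.** -/
theorem s59b_hP4_W :
    ∀ e₁ : MvPolynomial ↥(s59t_goodB N B) 𝒪, s59b_BaseW W N B 𝒪 e₁ →
      ∀ ip : s59w_TIdx N, ip.ell = p →
      ∃ m : ℕ, ∀ y, ((s59w_op (⊤ : Subgroup (ZMod N)ˣ) 𝒪 (Sum.inl ip) *
          s59w_op (⊤ : Subgroup (ZMod N)ˣ) 𝒪 (Sum.inl ip) - 1) ^ m)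
        (s59t_E0 (⊤ : Subgroup (ZMod N)ˣ) B e₁ y) ∈ (maximalIdeal 𝒪 • ⊤ :
          Submodule 𝒪 (s48h_Hpar 𝒪 (s48h_GammaH N (⊤ : Subgroup (ZMod N)ˣ)) 𝒪)) := by
  intro e₁ hB₁ ip hip
  classical
  haveI : Fact (HasIntegralStructure N 2) := ⟨Fermat.Agent.S23.result N⟩
  have hpP : p.Prime := Fact.out
  have hB₁' := hB₁
  unfold s59b_BaseW at hB₁'
  obtain ⟨h1e₁, -, hid₁, hne₁, hnil₁, -⟩ := hB₁'
  have hεc : ∀ j, s59e_Anemic B j →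
      s59t_E0 (⊤ : Subgroup (ZMod N)ˣ) B e₁ * s59w_op (⊤ : Subgroup (ZMod N)ˣ) 𝒪 j =
        s59w_op (⊤ : Subgroup (ZMod N)ˣ) 𝒪 j * s59t_E0 (⊤ : Subgroup (ZMod N)ˣ) B e₁ :=
    fun j _ => s59e_E0_comm_op (⊤ : Subgroup (ZMod N)ˣ) B e₁ j
  have hnil' : ∀ j, s59e_Anemic B j → ∃ k : ℕ, ∀ z,
      ((s59w_op (⊤ : Subgroup (ZMod N)ˣ) 𝒪 j -
        s59t_cB (𝒪 := 𝒪) N (fun ℓ => W.apOfModel ℓ) j • 1) ^ k)
        (s59t_E0 (⊤ : Subgroup (ZMod N)ˣ) B e₁ z) ∈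
        maximalIdeal 𝒪 • (⊤ : Submodule 𝒪 (s48h_Hpar 𝒪 (s48h_GammaH N ⊤) 𝒪)) := by
    intro j hj
    rcases j with i | τ
    · exact hnil₁ (Sum.inl i) (s59t_inl_mem_goodB (Bset := B) i (hj i rfl))
    · refine ⟨1, fun z => ?_⟩
      have h1 : s59w_op (⊤ : Subgroup (ZMod N)ˣ) 𝒪 (Sum.inr τ) = 1 :=
        s59e_op_inr_of_mem (⊤ : Subgroup (ZMod N)ˣ) 𝒪 τ (s59t_mem_GammaH_top N τ)
      have h2 : s59t_cB (𝒪 := 𝒪) N (fun ℓ => W.apOfModel ℓ) (Sum.inr τ) = 1 := rfl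
      rw [h1, h2, one_smul, pow_one]
      have h0 : ((1 : Module.End 𝒪 (s48h_Hpar 𝒪 (s48h_GammaH N (⊤ : Subgroup (ZMod N)ˣ)) 𝒪)) - 1)
          (s59t_E0 (⊤ : Subgroup (ZMod N)ˣ) B e₁ z) = 0 :=
        sub_self (s59t_E0 (⊤ : Subgroup (ZMod N)ˣ) B e₁ z)
      rw [h0]
      exact Submodule.zero_mem _
  -- (H3), Hecke half, at `(N, ⊤)`
  let b := Module.Free.chooseBasis ℤ (s48h_M (s48h_GammaH N (⊤ : Subgroup (ZMod N)ˣ)))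
  have hEig : ∀ (ℓ : ℕ) (_ : ℓ.Prime) (_ : ¬ ℓ ∣ N) (_ : ℓ ∉ B) (i : s59w_TIdx N), i.ell = ℓ →
      ∀ A : ValuationSubring Qbar, A.LiesOverPrime ℓ → ∀ σ : GQ, A.IsFrobeniusAt σ ℓ →
        LinearMap.charpoly ((((s59b_rhoW W p hΔ).baseChangeAlong (algebraMap ℤ_[p] 𝒪)
          (s59b_isLocalHom_padic p _ hp𝒪)).residual).ρ σ) = X ^ 2 - C (residue 𝒪
          (s59t_cB (𝒪 := 𝒪) N (fun ℓ => W.apOfModel ℓ) (Sum.inr (s59e_tau i ((1 - 1) * 1))) *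
            s59t_cB (𝒪 := 𝒪) N (fun ℓ => W.apOfModel ℓ) (Sum.inl i))) * X +
          C ((ℓ : ResidueField 𝒪)) := by
    intro ℓ hℓ hℓN hℓS i hi A hA σ hσ
    have hℓp : ℓ ≠ p := fun h => hℓS (h ▸ hpB)
    have hgoodℓ : W.IsGoodPrimeFor ℓ := by
      by_contra hbad
      exact hℓS (hB2 ℓ hℓ hbad)
    have h1 := s59b_rhobar_charpoly_frob (𝒪 := 𝒪) (W := W) (p := p) hΔ hp2 hirr
      hp𝒪 ℓ hℓ hℓp hgoodℓ A hA σ hσ
    show LinearMap.charpoly ((((s59b_rhoW W p hΔ).baseChangeAlong (algebraMap ℤ_[p] 𝒪)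
          (s59b_isLocalHom_padic p _ hp𝒪)).residual).ρ σ) =
      X ^ 2 - C (residue 𝒪 ((1 : 𝒪) * ((W.apOfModel i.ell : ℤ) : 𝒪))) * X +
        C ((ℓ : ResidueField 𝒪))
    rw [one_mul, hi, ← map_natCast (residue 𝒪) ℓ]
    exact h1
  have h3 := s59e_H3_hecke' (p := p) N (∅ : Finset ℕ) (M := N) (⊤ : Subgroup (ZMod N)ˣ) b N B
      hp2 hp𝒪 hpB (fun q hq => absurd hq (Finset.notMem_empty q))
      (by rw [Finset.prod_empty, mul_one]) (D := 1) (by rw [Finset.prod_empty]) (one_dvd N) le_top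
      (n := 1) (m := 1) (by norm_num) (fun u => Subgroup.mem_top _)
      (by rw [Finset.prod_empty, mul_one]) hNB (s59u_cB b 𝒪) (s59u_cB_coe b 𝒪)
      (s59t_E0 (⊤ : Subgroup (ZMod N)ˣ) B e₁) hid₁ hne₁ hεc
      (s59t_cB (𝒪 := 𝒪) N (fun ℓ => W.apOfModel ℓ)) hnil'
      (((s59b_rhoW W p hΔ).baseChangeAlong (algebraMap ℤ_[p] 𝒪)
        (s59b_isLocalHom_padic p _ hp𝒪)).residual) habs hEig
  obtain ⟨a, cT, ha1, -, hcT, hconcl⟩ := h3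
  obtain ⟨aM, -, -, -, θ, Hd, Ψ, hΨ, hπ, -, hθ, -, -, hres, -⟩ := hconcl
  -- strict ordinarity of the residual representation of the datum
  have hstr1 := s59b_rhobarW_resStrict W hΔ p hp2 hirr hss hmult (𝒪 := 𝒪) hp𝒪
  have hstr2 := s59b_resStrict_baseChange
    (ResidueField.map (algebraMap 𝒪 (heckeLocal N (↑B : Set ℕ) 𝒪 θ))) _ p hstr1
  have hstr : (GaloisRepAdic.ofResidualGaloisRep Hd.ρ.residual).IsStrictOrdinaryAt p := by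
    obtain ⟨e⟩ := hres
    exact s59b_resStrict_of_equiv e.symm p hstr2
  -- the eigenvalues of `θ`
  have hθ' : ∀ i : s59w_TIdx N, i.ell ∉ B → i.ell ∉ B →
      residue 𝒪 (s59t_cB (𝒪 := 𝒪) N (fun ℓ => W.apOfModel ℓ) (Sum.inl i)) =
        θ (s31e_tau N B i.ell) := by
    intro i hiB _
    have hiS : i.ell ∉ (↑B : Set ℕ) := fun h => hiB (Finset.mem_coe.mp h)
    rw [s31e_tau_of N B i.prime i.ndvd hiS, hθ i.ell i.prime i.ndvd hiS]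
    obtain ⟨i', hi', hci⟩ := hcT i.ell i.prime i.ndvd
    rw [hci]
    show residue 𝒪 ((W.apOfModel i.ell : ℤ) : 𝒪) =
      residue 𝒪 ((1 : 𝒪) * ((W.apOfModel i'.ell : ℤ) : 𝒪))
    rw [one_mul, hi']
  exact s59b_P4_full_sq Hd hp2 hp𝒪 hpB hNB hstr hgood B
    (s59t_cB (𝒪 := 𝒪) N (fun ℓ => W.apOfModel ℓ)) e₁ hnil₁ hθ' ip hip

end P4W

section KerBaseMult

variable (W : WeierstrassCurve ℤ) (hΔ : W.Δ ≠ 0) (p : ℕ) [Fact p.Prime]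
  (hirr : W.ModRepIsIrreducible p) (hss : W.IsSemistableModel) (hmult : ¬ W.IsGoodPrimeFor p)
  (N : ℕ) [NeZero N] (N₂ : ℕ) [NeZero N₂] (hN₂ : N₂ = N * p) (hsq₂ : Squarefree N₂) (hpN : ¬ p ∣ N)
  (hgood : s18_GoodLevel p N)
  (B : Finset ℕ) (hpB : p ∈ B) (hNB : ∀ q : ℕ, q.Prime → q ∣ N → q ∈ B)
  (hB2 : ∀ r : ℕ, r.Prime → ¬ W.IsGoodPrimeFor r → r ∈ B)
  (hocc₁ : s44i_LevelOcc N p (fun ℓ => W.apOfModel ℓ) B)
  (hocc₂ : s44i_LevelOcc N₂ p (fun ℓ => W.apOfModel ℓ) B)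
  {𝒪 : Type} [CommRing 𝒪] [IsDomain 𝒪] [IsDiscreteValuationRing 𝒪]
  [IsAdicComplete (maximalIdeal 𝒪) 𝒪]
  [Finite (ResidueField 𝒪)] [CharZero 𝒪] [Algebra ℤ_[p] 𝒪]
  (hp𝒪 : ((p : ℕ) : 𝒪) ∈ maximalIdeal 𝒪) (hp12 : s59e_auxTors p N)
  (habs : (((s59b_rhoW W p hΔ).baseChangeAlong (algebraMap ℤ_[p] 𝒪)
    (s59b_isLocalHom_padic p _ hp𝒪)).residual).IsAbsolutelyIrreducible)
  (hGb : s59f_IsG' N p (⊤ : Subgroup (ZMod N)ˣ) (s48h_GammaH N₂ (⊤ : Subgroup (ZMod N₂)ˣ)))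
  (e₀ : SL(2, ℤ)) (he'b : e₀ ∈ Gamma0 N₂)
  (heeb : s59f_gW hpN * e₀ * e₀ ∈ s48h_GammaH N₂ (⊤ : Subgroup (ZMod N₂)ˣ))

include hΔ hirr hss hmult hsq₂ hgood hocc₁ hocc₂ hp𝒪 hp12 hN₂ hpB hNB hB2 habs in
set_option maxHeartbeats 1600000 in
/-- **[P8-base-W] with `[P4]` discharged**: the conclusion of `s59b_kerBase_W` for a semistable `W`, multiplicative
at `p`, at a level `N` good for `p`. -/
theorem s59b_kerBase_W_mult :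
    ∃ (e₁ : MvPolynomial ↥(s59t_goodB N B) 𝒪) (e₂ : MvPolynomial ↥(s59t_goodB N₂ B) 𝒪),
      s59b_BaseW W N B 𝒪 e₁ ∧ s59b_BaseW W N₂ B 𝒪 e₂ ∧
      ∃ hcb : (s59f_oldN hpN hN₂ hGb 𝒪 𝒪 e₀ he'b heeb).Compat
          (s59t_E0 (⊤ : Subgroup (ZMod N)ˣ) B e₁) (s59t_E0 (⊤ : Subgroup (ZMod N₂)ˣ) B e₂),
        (∀ y₁ y₂ : s59t_part (s59t_E0 (⊤ : Subgroup (ZMod N)ˣ) B e₁),
          ∃ z : s59t_part (s59t_E0 (⊤ : Subgroup (ZMod N₂)ˣ) B e₂),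
            ((s59f_oldN hpN hN₂ hGb 𝒪 𝒪 e₀ he'b heeb).restrict hcb).corA z = y₁ ∧
            ((s59f_oldN hpN hN₂ hGb 𝒪 𝒪 e₀ he'b heeb).restrict hcb).corB z = y₂) ∧
        ∃ z : s59t_part (s59t_E0 (⊤ : Subgroup (ZMod N₂)ˣ) B e₂), z ≠ 0 ∧
          ((s59f_oldN hpN hN₂ hGb 𝒪 𝒪 e₀ he'b heeb).restrict hcb).corA z = 0 ∧
          ((s59f_oldN hpN hN₂ hGb 𝒪 𝒪 e₀ he'b heeb).restrict hcb).corB z = 0 := by
  have hp2 : p ≠ 2 := s59e_auxTors_ne_two hp12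
  have hP4 := s59b_hP4_W W hΔ p hp2 hirr hss hmult N hgood B hpB hNB hB2 (𝒪 := 𝒪) hp𝒪 habs
  exact s59b_kerBase_W W hΔ p hirr N N₂ hN₂ hsq₂ hpN B hpB hNB hocc₁ hocc₂ hp𝒪 hp12 hGb e₀ he'b heeb
    hP4

end KerBaseMult

end Fermat.Agent.Lib.S59
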