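/-
PROGRAMME R2 = S59, node [FLR], leaves (T4)+(T5), **abstract part** (helper4, prefix `s59f_`).
Linear algebra on vectors on which a Hecke operator `T` is topologically `a`
(`(T − a)^k x ∈ I Y`) and `a − s` is a unit:
* `s59f_end_smul_top` : `I Y` is stable under every endomorphism;
* `s59f_topnil_inj`   : such `x` with `(T − s) x ∈ I Y` lie in `I Y`;
* `s59f_topnil_surj`  : every such `m` is `(T − s) (Q m)` modulo `I Y`, `Q` a polynomial in `T`
  (it commutes with everything that commutes with `T`).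
Used by `FIharaPart.lean` ((T4), (T5) on the parts of idempotents).  Mathlib only.
-/
import Mathlib

set_option autoImplicit false
set_option linter.unusedSectionVars false
set_option linter.unusedVariables false

namespace Fermat.Agent.Lib.S59

section TopNil

variable {𝒪 : Type*} [CommRing 𝒪] {Y : Type*} [AddCommGroup Y] [Module 𝒪 Y] (I : Ideal 𝒪)

/-- `I • ⊤` is stable under every endomorphism. -/
theorem s59f_end_smul_top (D : Module.End 𝒪 Y) {x : Y} (hx : x ∈ I • (⊤ : Submodule 𝒪 Y)) :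
    D x ∈ I • (⊤ : Submodule 𝒪 Y) := by
  refine Submodule.smul_induction_on hx ?_ ?_
  · intro a ha y _
    rw [map_smul]
    exact Submodule.smul_mem_smul ha Submodule.mem_top
  · intro y y' hy hy'
    rw [map_add]
    exact Submodule.add_mem _ hy hy'

theorem s59f_end_pow_smul_top (D : Module.End 𝒪 Y) (j : ℕ) {x : Y}
    (hx : x ∈ I • (⊤ : Submodule 𝒪 Y)) : (D ^ j) x ∈ I • (⊤ : Submodule 𝒪 Y) :=
  s59f_end_smul_top I (D ^ j) hx

/-- **injectivity of `T − s` modulo `I`** on vectors on which `T − a` is nilpotent modulo `I`,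
`a − s` a unit. -/
theorem s59f_topnil_inj (T : Module.End 𝒪 Y) (a s : 𝒪) (hu : IsUnit (a - s)) (k : ℕ) (x : Y)
    (hk : ((T - a • (1 : Module.End 𝒪 Y)) ^ k) x ∈ I • (⊤ : Submodule 𝒪 Y))
    (hx : (T - s • (1 : Module.End 𝒪 Y)) x ∈ I • (⊤ : Submodule 𝒪 Y)) :
    x ∈ I • (⊤ : Submodule 𝒪 Y) := by
  set D : Module.End 𝒪 Y := T - a • (1 : Module.End 𝒪 Y) with hD
  set u : 𝒪 := a - s with hudef
  have hDx : D x + u • x ∈ I • (⊤ : Submodule 𝒪 Y) := by
    have e : D x + u • x = (T - s • (1 : Module.End 𝒪 Y)) x := by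
      simp only [hD, hudef, LinearMap.sub_apply, LinearMap.smul_apply, Module.End.one_apply,
        sub_smul]
      abel
    rw [e]
    exact hx
  have key : ∀ j : ℕ, (D ^ j) x - (-u) ^ j • x ∈ I • (⊤ : Submodule 𝒪 Y) := by
    intro j
    induction j with
    | zero =>
      simp only [pow_zero, Module.End.one_apply, one_smul, sub_self]
      exact Submodule.zero_mem _
    | succ j ih =>
      have e : (D ^ (j + 1)) x - (-u) ^ (j + 1) • x =
          (D ^ j) (D x + u • x) + (-u) • ((D ^ j) x - (-u) ^ j • x) := by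
        rw [pow_succ, Module.End.mul_apply, map_add, map_smul, smul_sub, smul_smul, pow_succ]
        rw [neg_smul, mul_comm ((-u) ^ j) (-u)]
        abel
      rw [e]
      exact Submodule.add_mem _ (s59f_end_pow_smul_top I D j hDx) (Submodule.smul_mem _ _ ih)
  have h1 : (-u) ^ k • x ∈ I • (⊤ : Submodule 𝒪 Y) := by
    have := Submodule.sub_mem _ hk (key k)
    rwa [sub_sub_cancel] at this
  have hunit : IsUnit ((-u) ^ k) := (hu.neg).pow k
  obtain ⟨v, hv⟩ := hunit
  have h2 := Submodule.smul_mem (I • (⊤ : Submodule 𝒪 Y)) (↑v⁻¹ : 𝒪) h1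
  rwa [← hv, smul_smul, Units.inv_mul, one_smul] at h2

/-- **surjectivity of `T − s` modulo `I`**: `m ≡ (T − s) (Q m)` for an endomorphism `Q` commuting
with everything that commutes with `T`. -/
theorem s59f_topnil_surj (T : Module.End 𝒪 Y) (a s : 𝒪) (hu : IsUnit (a - s)) (k : ℕ) :
    ∃ Q : Module.End 𝒪 Y, (∀ E : Module.End 𝒪 Y, E * T = T * E → E * Q = Q * E) ∧
      ∀ m : Y, ((T - a • (1 : Module.End 𝒪 Y)) ^ k) m ∈ I • (⊤ : Submodule 𝒪 Y) →
        (T - s • (1 : Module.End 𝒪 Y)) (Q m) - m ∈ I • (⊤ : Submodule 𝒪 Y) := by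
  set D : Module.End 𝒪 Y := T - a • (1 : Module.End 𝒪 Y) with hD
  obtain ⟨v, hv⟩ := hu
  set w : 𝒪 := -(↑v⁻¹ : 𝒪) with hw
  -- `Q = v⁻¹ ∑_{j<k} (w D)^j`
  set G : Module.End 𝒪 Y := w • D with hG
  set Q : Module.End 𝒪 Y := (↑v⁻¹ : 𝒪) • ∑ j ∈ Finset.range k, G ^ j with hQ
  have hTD : T - s • (1 : Module.End 𝒪 Y) = (↑v : 𝒪) • ((1 : Module.End 𝒪 Y) - G) := by
    rw [hG, hw, hD, hv]
    have h1 : (a - s) * (↑v⁻¹ : 𝒪) = 1 := by rw [← hv]; exact Units.mul_inv v
    rw [smul_sub, smul_smul, mul_neg, h1, neg_smul, one_smul, sub_neg_eq_add, sub_smul]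
    abel
  refine ⟨Q, ?_, ?_⟩
  · intro E hE
    have hED : E * D = D * E := by
      rw [hD, mul_sub, sub_mul, hE]
      simp
    have hEG : E * G = G * E := by
      rw [hG, mul_smul_comm, hED, smul_mul_assoc]
    have hEGj : ∀ j : ℕ, E * G ^ j = G ^ j * E := by
      intro j
      induction j with
      | zero => simp
      | succ j ih => rw [pow_succ, ← mul_assoc, ih, mul_assoc, hEG, ← mul_assoc]
    rw [hQ, mul_smul_comm, smul_mul_assoc, Finset.mul_sum, Finset.sum_mul]
    congr 1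
    exact Finset.sum_congr rfl fun j _ => hEGj j
  · intro m hm
    have h1 : ((1 : Module.End 𝒪 Y) - G) * ∑ j ∈ Finset.range k, G ^ j = 1 - G ^ k :=
      mul_neg_geom_sum G k
    have h2 : (T - s • (1 : Module.End 𝒪 Y)) * Q = 1 - G ^ k := by
      rw [hTD, hQ, smul_mul_assoc, mul_smul_comm, smul_smul, Units.mul_inv, one_smul, h1]
    have h3 : (T - s • (1 : Module.End 𝒪 Y)) (Q m) - m = -((G ^ k) m) := by
      rw [← Module.End.mul_apply, h2, LinearMap.sub_apply, Module.End.one_apply]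
      abel
    rw [h3]
    refine Submodule.neg_mem _ ?_
    have h4 : G ^ k = w ^ k • D ^ k := by
      rw [hG, smul_pow]
    rw [h4, LinearMap.smul_apply]
    exact Submodule.smul_mem _ _ hm

end TopNil

end Fermat.Agent.Lib.S59
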