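/-
Programme (R) = S59, node (H2) (helper8), file 23: **`H(Γ, 𝒪) = H(Γ, ℤ) ⊗ 𝒪`** for a DVR `𝒪` with
finite residue field: for a `ℤ`-basis `b` of the lattice `s48h_M Γ`, the classes `s48h_castB b 𝒪`
form an `𝒪`-basis of `s48h_Hpar 𝒪 Γ 𝒪` (`s59t_castBasis`); all Hecke operators `D.heckeHom` are
given on it by the integer matrices `s48h_heckeMat` (helper3's `s48h_heckeHom_castB`).
-/
import Mathlib
import Fermat.Agent.Lib.S59.TFin

set_option autoImplicit false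
set_option linter.unusedSectionVars false
set_option linter.style.haveILetI false

noncomputable section

namespace Fermat.Agent.Lib.S59

open Matrix MatrixGroups OnePoint ModularCurve.Period CongruenceSubgroup IsLocalRing
open Fermat.Agent.Lib.S29 Fermat.Agent.Lib.S48 Fermat.Agent.Lib.S41
open scoped BigOperators

variable {𝒪 : Type*} [CommRing 𝒪] [IsDomain 𝒪] [IsDiscreteValuationRing 𝒪]
  [Finite (ResidueField 𝒪)]
  {Γ : Subgroup SL(2, ℤ)} [Fintype (SL(2, ℤ) ⧸ Γ)] [Group.FG Γ]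
  {ι : Type*} [Fintype ι] [DecidableEq ι] (b : Module.Basis ι ℤ (s48h_M Γ))

/-- the family `castB` inside `H(Γ, 𝒪)`. -/
def s59t_cBas (i : ι) : s48h_Hpar 𝒪 Γ 𝒪 :=
  ⟨s48h_castB b 𝒪 i, s48h_cast_mem_Hpar 𝒪 𝒪 (b i).2⟩

theorem s59t_cB_coe (i : ι) :
    ((s59t_cBas (𝒪 := 𝒪) b i : s48h_Hpar 𝒪 Γ 𝒪) : Additive Γ →+ 𝒪) = s48h_castB b 𝒪 i := rfl

/-- the cast of a lattice element is in the span of `castB`. -/
theorem s59t_cast_mem_span (χ : Additive Γ →+ ℤ) (hχ : χ ∈ s48h_M Γ) :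
    (⟨s48h_cast 𝒪 χ, s48h_cast_mem_Hpar 𝒪 𝒪 hχ⟩ : s48h_Hpar 𝒪 Γ 𝒪) ∈
      Submodule.span 𝒪 (Set.range (s59t_cBas (𝒪 := 𝒪) b)) := by
  have h1 := b.sum_repr ⟨χ, hχ⟩
  have h2 : χ = ∑ i, b.repr ⟨χ, hχ⟩ i • (b i : Additive Γ →+ ℤ) := by
    have := congrArg (fun y : s48h_M Γ => (y : Additive Γ →+ ℤ)) h1
    simp only [Submodule.coe_sum, Submodule.coe_smul] at this
    exact this.symm
  have h3 : (⟨s48h_cast 𝒪 χ, s48h_cast_mem_Hpar 𝒪 𝒪 hχ⟩ : s48h_Hpar 𝒪 Γ 𝒪) =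
      ∑ i, ((b.repr ⟨χ, hχ⟩ i : ℤ) : 𝒪) • s59t_cBas (𝒪 := 𝒪) b i := by
    apply Subtype.ext
    rw [Submodule.coe_sum]
    simp only [Submodule.coe_smul, s59t_cB_coe]
    conv_lhs => rw [h2]
    rw [map_sum]
    refine Finset.sum_congr rfl fun i _ => ?_
    rw [s48h_cast_zsmul]
    rfl
  rw [h3]
  exact Submodule.sum_mem _ fun i _ => Submodule.smul_mem _ _ (Submodule.subset_span ⟨i, rfl⟩)

/-- **`castB` spans `H(Γ, 𝒪)`.** -/
theorem s59t_cB_span (p : ℕ) [Fact p.Prime] [CharP (ResidueField 𝒪) p] (hΓ : (-1 : SL(2, ℤ)) ∈ Γ) :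
    Submodule.span 𝒪 (Set.range (s59t_cBas (𝒪 := 𝒪) b)) = ⊤ := by
  classical
  haveI : Module.Finite 𝒪 (s48h_Hpar 𝒪 Γ 𝒪) := s59t_Hpar_finite 𝒪
  obtain ⟨ϖ, hϖ⟩ := IsDiscreteValuationRing.exists_irreducible 𝒪
  have hm : maximalIdeal 𝒪 = Ideal.span {ϖ} :=
    (IsDiscreteValuationRing.irreducible_iff_uniformizer ϖ).mp hϖ
  have hϖ0 : ϖ ≠ 0 := hϖ.ne_zero
  set L := Submodule.span 𝒪 (Set.range (s59t_cBas (𝒪 := 𝒪) b)) with hL
  apply top_le_iff.mp
  refine Submodule.le_of_le_smul_of_le_jacobson_bot (I := maximalIdeal 𝒪)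
    (Module.Finite.fg_top) ?_ ?_
  · rw [IsLocalRing.jacobson_eq_maximalIdeal ⊥ bot_ne_top]
  · intro y _
    -- reduce `y` and lift the reduction inside `L`
    set yb : Additive Γ →+ ResidueField 𝒪 :=
      (RingHom.toAddMonoidHom (residue 𝒪)).comp (y : Additive Γ →+ 𝒪) with hyb
    have hybH : yb ∈ s48h_Hpar (ResidueField 𝒪) Γ (ResidueField 𝒪) :=
      s59t_comp_mem_Hpar (R := 𝒪) (S := ResidueField 𝒪) _ y.2
    letI : Algebra (ZMod p) (ResidueField 𝒪) := ZMod.algebra (ResidueField 𝒪) p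
    haveI : Module.Finite (ZMod p) (ResidueField 𝒪) := Module.Finite.of_finite
    let c := Module.finBasis (ZMod p) (ResidueField 𝒪)
    have hxi : ∀ i, (s59t_gI c i).comp yb ∈ s48h_Hpar (ZMod p) Γ (ZMod p) := fun i =>
      s59t_comp_mem_Hpar _ hybH
    choose χ hχ hχx using fun i => s59t_lift b p hΓ _ (hxi i)
    choose ct hct using fun i => residue_surjective (R := 𝒪) (c i)
    set y' : s48h_Hpar 𝒪 Γ 𝒪 :=
      ∑ i, ct i • (⟨s48h_cast 𝒪 (χ i), s48h_cast_mem_Hpar 𝒪 𝒪 (hχ i)⟩ : s48h_Hpar 𝒪 Γ 𝒪) with hy'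
    have hy'L : y' ∈ L :=
      Submodule.sum_mem _ fun i _ => Submodule.smul_mem _ _ (s59t_cast_mem_span b _ (hχ i))
    have hred : (RingHom.toAddMonoidHom (residue 𝒪)).comp (y' : Additive Γ →+ 𝒪) = yb := by
      refine AddMonoidHom.ext fun γ => ?_
      conv_rhs => rw [s59t_decomp c yb]
      rw [AddMonoidHom.comp_apply, hy', Submodule.coe_sum, AddMonoidHom.finsetSum_apply,
        AddMonoidHom.finsetSum_apply]
      show residue 𝒪 (∑ i, _) = _
      rw [map_sum]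
      refine Finset.sum_congr rfl fun i _ => ?_
      rw [Submodule.coe_smul, AddMonoidHom.smul_apply, s48h_cast_apply, smul_eq_mul, map_mul, hct,
        map_intCast, AddMonoidHom.comp_apply, s59t_fI_apply, ← hχx i, s48h_cast_apply,
        Algebra.smul_def, map_intCast, mul_comm]
    have hdiff : y - y' ∈ (maximalIdeal 𝒪 • ⊤ : Submodule 𝒪 (s48h_Hpar 𝒪 Γ 𝒪)) := by
      rw [s59t_mem_smul_top_iff ϖ hϖ0 hm, Submodule.coe_sub, AddMonoidHom.comp_sub, hred,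
        sub_self]
    have : y = y' + (y - y') := by abel
    rw [this]
    exact Submodule.add_mem_sup hy'L hdiff

/-- a relation between the `castB` over `𝒪` has all coefficients in `𝔪`. -/
theorem s59t_cB_rel_residue (p : ℕ) [Fact p.Prime] [CharP (ResidueField 𝒪) p] (m : ι → 𝒪)
    (hm : ∑ i, m i • s59t_cBas (𝒪 := 𝒪) b i = 0) (i : ι) : residue 𝒪 (m i) = 0 := by
  classical
  letI : Algebra (ZMod p) (ResidueField 𝒪) := ZMod.algebra (ResidueField 𝒪) p
  haveI : Module.Finite (ZMod p) (ResidueField 𝒪) := Module.Finite.of_finite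
  let c := Module.finBasis (ZMod p) (ResidueField 𝒪)
  -- the relation evaluated at `γ`
  have hγ : ∀ γ : Additive Γ, ∑ i, m i * (((b i : Additive Γ →+ ℤ) γ : ℤ) : 𝒪) = 0 := by
    intro γ
    have h1 := congrArg (fun y : s48h_Hpar 𝒪 Γ 𝒪 => (y : Additive Γ →+ 𝒪) γ) hm
    simp only [Submodule.coe_sum, Submodule.coe_smul, s59t_cB_coe, AddMonoidHom.finsetSum_apply,
      AddMonoidHom.smul_apply, s48h_castB_apply, smul_eq_mul, ZeroMemClass.coe_zero,
      AddMonoidHom.zero_apply] at h1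
    exact h1
  -- coordinates
  have hcoord : ∀ l, ∑ i, c.repr (residue 𝒪 (m i)) l • s48h_castB b (ZMod p) i = 0 := by
    intro l
    refine AddMonoidHom.ext fun γ => ?_
    rw [AddMonoidHom.finsetSum_apply, AddMonoidHom.zero_apply]
    have h2 := congrArg (fun x : 𝒪 => c.repr (residue 𝒪 x) l) (hγ γ)
    simp only [map_sum, map_mul, map_intCast, map_zero, Finsupp.coe_finsetSum, Finset.sum_apply,
      Finsupp.coe_zero, Pi.zero_apply] at h2
    rw [← h2]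
    refine Finset.sum_congr rfl fun i _ => ?_
    rw [AddMonoidHom.smul_apply, s48h_castB_apply, smul_eq_mul]
    have h3 : residue 𝒪 (m i) * (((b i : Additive Γ →+ ℤ) γ : ℤ) : ResidueField 𝒪) =
        ((((b i : Additive Γ →+ ℤ) γ : ℤ) : ZMod p)) • residue 𝒪 (m i) := by
      rw [Algebra.smul_def, map_intCast, mul_comm]
    rw [h3, _root_.map_smul, Finsupp.smul_apply, smul_eq_mul, mul_comm]
  have hli := s48h_castB_linearIndependent_zmod b p
  rw [Fintype.linearIndependent_iff] at hli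
  have h4 : ∀ l, c.repr (residue 𝒪 (m i)) l = 0 := fun l => hli _ (hcoord l) i
  have h5 : c.repr (residue 𝒪 (m i)) = 0 := Finsupp.ext h4
  exact (LinearEquiv.map_eq_zero_iff c.repr).mp h5

/-- **`castB` is linearly independent over `𝒪`.** -/
theorem s59t_cB_linearIndependent (p : ℕ) [Fact p.Prime] [CharP (ResidueField 𝒪) p] :
    LinearIndependent 𝒪 (s59t_cBas (𝒪 := 𝒪) b) := by
  classical
  obtain ⟨ϖ, hϖ⟩ := IsDiscreteValuationRing.exists_irreducible 𝒪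
  have hm : maximalIdeal 𝒪 = Ideal.span {ϖ} :=
    (IsDiscreteValuationRing.irreducible_iff_uniformizer ϖ).mp hϖ
  have hϖ0 : ϖ ≠ 0 := hϖ.ne_zero
  rw [Fintype.linearIndependent_iff]
  intro m hrel
  -- every coefficient is divisible by every power of `ϖ`
  have hdiv : ∀ n : ℕ, ∀ m : ι → 𝒪, ∑ i, m i • s59t_cBas (𝒪 := 𝒪) b i = 0 →
      ∀ i, ϖ ^ n ∣ m i := by
    intro n
    induction n with
    | zero => intro m _ i; simp
    | succ n ih =>
      intro m hrel i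
      have h1 : ∀ j, ϖ ∣ m j := by
        intro j
        have h2 := s59t_cB_rel_residue b p m hrel j
        have h3 : m j ∈ maximalIdeal 𝒪 := (residue_eq_zero_iff _).mp h2
        rw [hm] at h3
        exact Ideal.mem_span_singleton.mp h3
      choose m' hm' using h1
      have hrel' : ∑ j, m' j • s59t_cBas (𝒪 := 𝒪) b j = 0 := by
        have h4 : ϖ • ∑ j, m' j • s59t_cBas (𝒪 := 𝒪) b j = 0 := by
          rw [Finset.smul_sum, ← hrel]
          refine Finset.sum_congr rfl fun j _ => ?_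
          rw [smul_smul, ← hm' j]
        haveI : Module.IsTorsionFree 𝒪 (Additive Γ →+ 𝒪) := s59t_isTorsionFree_hom 𝒪
        exact (smul_eq_zero.mp h4).resolve_left hϖ0
      obtain ⟨k, hk⟩ := ih m' hrel' i
      exact ⟨k, by rw [hm' i, hk, pow_succ]; ring⟩
  intro i
  have h6 : ∀ n : ℕ, m i ∈ maximalIdeal 𝒪 ^ n := by
    intro n
    rw [hm, Ideal.span_singleton_pow]
    exact Ideal.mem_span_singleton.mpr (hdiv n m hrel i)
  have h7 : m i ∈ (⨅ n : ℕ, maximalIdeal 𝒪 ^ n : Ideal 𝒪) := (Submodule.mem_iInf _).mpr h6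
  rw [Ideal.iInf_pow_eq_bot_of_isLocalRing _ Ideal.IsPrime.ne_top'] at h7
  exact h7

/-- **the `𝒪`-basis `castB` of `H(Γ, 𝒪)`.** -/
def s59t_castBasis (p : ℕ) [Fact p.Prime] [CharP (ResidueField 𝒪) p]
    (hΓ : (-1 : SL(2, ℤ)) ∈ Γ) : Module.Basis ι 𝒪 (s48h_Hpar 𝒪 Γ 𝒪) :=
  Module.Basis.mk (s59t_cB_linearIndependent b p) (s59t_cB_span b p hΓ).ge

theorem s59t_castBasis_apply (p : ℕ) [Fact p.Prime] [CharP (ResidueField 𝒪) p]
    (hΓ : (-1 : SL(2, ℤ)) ∈ Γ) (i : ι) :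
    ((s59t_castBasis (𝒪 := 𝒪) b p hΓ i : s48h_Hpar 𝒪 Γ 𝒪) : Additive Γ →+ 𝒪) =
      s48h_castB b 𝒪 i := by
  rw [s59t_castBasis, Module.Basis.mk_apply]
  rfl

/-- **the Hecke operator of any datum on the basis `castB`**: the integer matrix `s48h_heckeMat`. -/
theorem s59t_heckeHpar_castBasis (p : ℕ) [Fact p.Prime] [CharP (ResidueField 𝒪) p]
    (hΓ : (-1 : SL(2, ℤ)) ∈ Γ) {X : Type*} [Fintype X] (D : s48h_MatDatum Γ X) (j : ι) :
    D.heckeHpar 𝒪 (s59t_castBasis (𝒪 := 𝒪) b p hΓ j) =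
      ∑ i, ((s48h_heckeMat b D i j : ℤ) : 𝒪) • s59t_castBasis (𝒪 := 𝒪) b p hΓ i := by
  apply Subtype.ext
  rw [s48h_MatDatum.heckeHpar_coe, Submodule.coe_sum, s59t_castBasis_apply, s48h_heckeHom_castB]
  refine Finset.sum_congr rfl fun i _ => ?_
  rw [Submodule.coe_smul, s59t_castBasis_apply]

/-- the matrix of a Hecke operator on `H(Γ, 𝒪)` in the basis `castB` is the integer matrix. -/
theorem s59t_toMatrix_heckeHpar (p : ℕ) [Fact p.Prime] [CharP (ResidueField 𝒪) p]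
    (hΓ : (-1 : SL(2, ℤ)) ∈ Γ) {X : Type*} [Fintype X] (D : s48h_MatDatum Γ X) :
    LinearMap.toMatrix (s59t_castBasis (𝒪 := 𝒪) b p hΓ) (s59t_castBasis (𝒪 := 𝒪) b p hΓ)
        (D.heckeHpar 𝒪) = (s48h_heckeMat b D).map (Int.cast : ℤ → 𝒪) := by
  ext i j
  rw [LinearMap.toMatrix_apply, s59t_heckeHpar_castBasis, map_sum, Finsupp.coe_finsetSum,
    Finset.sum_apply, Matrix.map_apply]
  rw [Finset.sum_eq_single i]
  · rw [_root_.map_smul, Module.Basis.repr_self, Finsupp.smul_apply, Finsupp.single_eq_same,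
      smul_eq_mul, mul_one]
  · intro k _ hk
    rw [_root_.map_smul, Module.Basis.repr_self, Finsupp.smul_apply, Finsupp.single_eq_of_ne (Ne.symm hk),
      smul_zero]
  · intro h; exact absurd (Finset.mem_univ i) h

end Fermat.Agent.Lib.S59
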