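/-
PROGRAMME R2 = S59, node [FLR], leaves (T4)+(T5), **concrete part over `𝒪`, full modules**
(helper4, prefix `s59f_`).  `𝒪` a DVR with residue field of characteristic `p`, `q ∤ N` a prime,
`q ≠ p`, `Y = H_par(Γ₀(N), 𝒪)`, `Z = H_par(Γ₀(N q), 𝒪)`, `D = s59t_oldData N q hqN 𝒪 𝒪`.
* `s59f_ihara_O`   : (T4) `resA x + resB y ∈ 𝔪 Z ⇒ T_ℓ χ − (ℓ+1) χ ∈ 𝔪 Y`, `χ = T_r² x − (r+1)² x`
  (main's K-MAIN `s41ki_kmain` with coefficients `𝒪/𝔪` + gluing `s41ki_glue_x` + saturation);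
* `s59f_ihara_O_op`: the same in operator form, for `x` AND for `y` (Atkin–Lehner symmetry);
* `s59f_dual_O`    : (T5) for all `y₁ y₂ ∈ Y` there is `z ∈ Z` with `P y₁ ≡ corA z`,
  `P y₂ ≡ corB z` mod `𝔪 Y`, `P = T⁴ − 2 s² T² + s⁴`, `T = T_ℓ₀`, `s = ℓ₀ + 1`
  (main's `s41g_theta2` over `ℤ` + the `𝒪`-span of the integral classes `s59t_cB_span`).
-/
import Mathlib
import Fermat.Agent.Lib.S41.KFinal
import Fermat.Agent.Lib.S41.DIhara2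
import Fermat.Agent.Lib.S41.GTheta2
import Fermat.Agent.Lib.S59.TNew
import Fermat.Agent.Lib.S59.TBasis
import Fermat.Agent.Lib.S59.FIharaAbs

set_option autoImplicit false
set_option linter.unusedSectionVars false
set_option linter.unusedVariables false
set_option linter.style.haveILetI false

noncomputable section

namespace Fermat.Agent.Lib.S59

open CongruenceSubgroup IsLocalRing
open Fermat.Agent.Lib.S29 Fermat.Agent.Lib.S41 Fermat.Agent.Lib.S48 ModularCurve.Period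
open scoped MatrixGroups

section T4

variable (𝒪 : Type) [CommRing 𝒪] [IsDomain 𝒪] [IsDiscreteValuationRing 𝒪]
  (p : ℕ) [hp : Fact p.Prime] [CharP (ResidueField 𝒪) p]
  (N q : ℕ) [NeZero N] [hq : Fact q.Prime] (hqN : ¬ q ∣ N)

/-- reduction of a class modulo `𝔪`. -/
def s59f_redHom {N' : ℕ} (ψ : Additive (Gamma0 N') →+ 𝒪) :
    Additive (Gamma0 N') →+ ResidueField 𝒪 :=
  (residue 𝒪).toAddMonoidHom.comp ψ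

theorem s59f_redHom_apply {N' : ℕ} (ψ : Additive (Gamma0 N') →+ 𝒪) (γ : Additive (Gamma0 N')) :
    s59f_redHom 𝒪 ψ γ = residue 𝒪 (ψ γ) := rfl

/-- `y ∈ 𝔪 • ⊤` iff the reduction of `y` vanishes. -/
theorem s59f_mem_smul_top_iff_red {N' : ℕ} (y : s29h_Hpar 𝒪 N' 𝒪) :
    y ∈ (maximalIdeal 𝒪 • ⊤ : Submodule 𝒪 (s29h_Hpar 𝒪 N' 𝒪)) ↔
      s59f_redHom 𝒪 (y : Additive (Gamma0 N') →+ 𝒪) = 0 := by
  obtain ⟨ϖ, hϖ⟩ := IsDiscreteValuationRing.exists_irreducible 𝒪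
  have hm : maximalIdeal 𝒪 = Ideal.span {ϖ} :=
    (IsDiscreteValuationRing.irreducible_iff_uniformizer ϖ).mp hϖ
  exact s59t_mem_smul_top_iff (Γ := Gamma0 N') ϖ hϖ.ne_zero hm y

/-- **(T4) over `𝒪`.** -/
theorem s59f_ihara_O (hpq : p ≠ q) (ℓ r : ℕ) [Fact ℓ.Prime] [Fact r.Prime] (hℓ : ¬ ℓ ∣ N)
    (hr : ¬ r ∣ N) (hrq : r ≠ q) (x y : s29h_Hpar 𝒪 N 𝒪)
    (h : (s59t_oldData N q hqN 𝒪 𝒪).resA x + (s59t_oldData N q hqN 𝒪 𝒪).resB y ∈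
      (maximalIdeal 𝒪 • ⊤ : Submodule 𝒪 (s29h_Hpar 𝒪 (N * q) 𝒪))) :
    s29h_heckeHpar N ℓ 𝒪 𝒪
        (s29h_heckeHpar N r 𝒪 𝒪 (s29h_heckeHpar N r 𝒪 𝒪 x) - (r + 1) • (r + 1) • x) -
      (ℓ + 1) • (s29h_heckeHpar N r 𝒪 𝒪 (s29h_heckeHpar N r 𝒪 𝒪 x) - (r + 1) • (r + 1) • x) ∈
      (maximalIdeal 𝒪 • ⊤ : Submodule 𝒪 (s29h_Hpar 𝒪 N 𝒪)) := by
  set k := ResidueField 𝒪 with hk
  set f : 𝒪 →+ k := (residue 𝒪).toAddMonoidHom with hf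
  -- the reductions
  set xb : Additive (Gamma0 N) →+ k := f.comp x.1 with hxb
  set yb : Additive (Gamma0 N) →+ k := f.comp y.1 with hyb
  have hxy : s41l_resA N q k xb + s41l_resB N q hqN k yb = 0 := by
    have h1 := (s59f_mem_smul_top_iff_red 𝒪 _).mp h
    have h2 : s59f_redHom 𝒪 (s41l_resA N q 𝒪 x.1 + s41l_resB N q hqN 𝒪 y.1) = 0 := h1
    rw [s59f_redHom, AddMonoidHom.comp_add] at h2
    rw [hxb, hyb]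
    rw [show s41l_resA N q k (f.comp x.1) = f.comp (s41l_resA N q 𝒪 x.1) from
      (s41l_famResA N q).op_natural f x.1,
      show s41l_resB N q hqN k (f.comp y.1) = f.comp (s41l_resB N q hqN 𝒪 y.1) from
      (s41l_famResB N q hqN).op_natural f y.1]
    exact h2
  obtain ⟨φ', hφ'⟩ := s41ki_glue_x N q hqN xb yb hxy
  have hxpar : IsParabolicHom (Gamma0 N) xb := by
    intro γ hγ
    show f (x.1 (Additive.ofMul γ)) = 0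
    rw [x.2.1 γ hγ, map_zero]
  have hA : ∀ a : k, p • a = 0 := by
    intro a
    rw [nsmul_eq_mul, CharP.cast_eq_zero, zero_mul]
  have hNq : Nat.Coprime N q := ((Nat.Prime.coprime_iff_not_dvd hq.out).mpr hqN).symm
  have key := s41ki_kmain N q hq.out hNq p hp.out hpq k hA φ' xb hφ' hxpar ℓ r hℓ hr hrq
  rw [s59f_mem_smul_top_iff_red]
  -- the class over `𝒪`
  set χ : Additive (Gamma0 N) →+ 𝒪 :=
    s29h_heckeHom N r 𝒪 (s29h_heckeHom N r 𝒪 x.1) - (r + 1) • (r + 1) • x.1 with hχ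
  have hχb : f.comp χ =
      s29h_heckeHom N r k (s29h_heckeHom N r k xb) - (r + 1) • (r + 1) • xb := by
    rw [hχ, AddMonoidHom.comp_sub, ← s29h_heckeHom_comp, ← s29h_heckeHom_comp]
    congr 1
  have hgoal : s59f_redHom 𝒪 (s29h_heckeHom N ℓ 𝒪 χ - (ℓ + 1) • χ) = 0 := by
    rw [s59f_redHom, AddMonoidHom.comp_sub, ← s29h_heckeHom_comp]
    have e : f.comp ((ℓ + 1) • χ) = (ℓ + 1) • f.comp χ := by
      refine AddMonoidHom.ext fun γ => ?_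
      simp only [AddMonoidHom.comp_apply, AddMonoidHom.smul_apply, map_nsmul]
    rw [← hf, e, hχb, key, sub_self]
  exact hgoal


/-- **(T4) over `𝒪`, operator form, for both components.** -/
theorem s59f_ihara_O_op (hpq : p ≠ q) (ℓ r : ℕ) [Fact ℓ.Prime] [Fact r.Prime] (hℓ : ¬ ℓ ∣ N)
    (hr : ¬ r ∣ N) (hrq : r ≠ q) (x y : s29h_Hpar 𝒪 N 𝒪)
    (h : (s59t_oldData N q hqN 𝒪 𝒪).resA x + (s59t_oldData N q hqN 𝒪 𝒪).resB y ∈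
      (maximalIdeal 𝒪 • ⊤ : Submodule 𝒪 (s29h_Hpar 𝒪 (N * q) 𝒪))) :
    (s29h_heckeHpar N ℓ 𝒪 𝒪 - ((ℓ : 𝒪) + 1) • (1 : Module.End 𝒪 (s29h_Hpar 𝒪 N 𝒪)))
        ((s29h_heckeHpar N r 𝒪 𝒪 - ((r : 𝒪) + 1) • (1 : Module.End 𝒪 (s29h_Hpar 𝒪 N 𝒪)))
          ((s29h_heckeHpar N r 𝒪 𝒪 + ((r : 𝒪) + 1) • (1 : Module.End 𝒪 (s29h_Hpar 𝒪 N 𝒪))) x)) ∈
        (maximalIdeal 𝒪 • ⊤ : Submodule 𝒪 (s29h_Hpar 𝒪 N 𝒪)) ∧
    (s29h_heckeHpar N ℓ 𝒪 𝒪 - ((ℓ : 𝒪) + 1) • (1 : Module.End 𝒪 (s29h_Hpar 𝒪 N 𝒪)))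
        ((s29h_heckeHpar N r 𝒪 𝒪 - ((r : 𝒪) + 1) • (1 : Module.End 𝒪 (s29h_Hpar 𝒪 N 𝒪)))
          ((s29h_heckeHpar N r 𝒪 𝒪 + ((r : 𝒪) + 1) • (1 : Module.End 𝒪 (s29h_Hpar 𝒪 N 𝒪))) y)) ∈
        (maximalIdeal 𝒪 • ⊤ : Submodule 𝒪 (s29h_Hpar 𝒪 N 𝒪)) := by
  set D := s59t_oldData N q hqN 𝒪 𝒪 with hD
  have conv : ∀ v : s29h_Hpar 𝒪 N 𝒪,
      (s29h_heckeHpar N ℓ 𝒪 𝒪 - ((ℓ : 𝒪) + 1) • (1 : Module.End 𝒪 (s29h_Hpar 𝒪 N 𝒪)))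
        ((s29h_heckeHpar N r 𝒪 𝒪 - ((r : 𝒪) + 1) • (1 : Module.End 𝒪 (s29h_Hpar 𝒪 N 𝒪)))
          ((s29h_heckeHpar N r 𝒪 𝒪 + ((r : 𝒪) + 1) • (1 : Module.End 𝒪 (s29h_Hpar 𝒪 N 𝒪))) v)) =
      s29h_heckeHpar N ℓ 𝒪 𝒪
        (s29h_heckeHpar N r 𝒪 𝒪 (s29h_heckeHpar N r 𝒪 𝒪 v) - (r + 1) • (r + 1) • v) -
      (ℓ + 1) • (s29h_heckeHpar N r 𝒪 𝒪 (s29h_heckeHpar N r 𝒪 𝒪 v) - (r + 1) • (r + 1) • v) := by
    intro v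
    have e1 : ∀ (n : ℕ) (u : s29h_Hpar 𝒪 N 𝒪), (n + 1) • u = ((n : 𝒪) + 1) • u := by
      intro n u
      rw [← Nat.cast_smul_eq_nsmul 𝒪 (n + 1) u]
      push_cast
      rfl
    rw [e1 r, e1 r, e1 ℓ]
    simp only [LinearMap.sub_apply, LinearMap.add_apply, LinearMap.smul_apply,
      Module.End.one_apply, map_sub, map_add, map_smul]
    module
  have hw : D.resA y + D.resB x ∈
      (maximalIdeal 𝒪 • ⊤ : Submodule 𝒪 (s29h_Hpar 𝒪 (N * q) 𝒪)) := by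
    have h1 := s59f_end_smul_top (maximalIdeal 𝒪) D.w h
    rw [map_add, ← D.resB_eq, D.resB_eq y, D.w_w, add_comm] at h1
    exact h1
  refine ⟨?_, ?_⟩
  · rw [conv x]
    exact s59f_ihara_O 𝒪 p N q hqN hpq ℓ r hℓ hr hrq x y h
  · rw [conv y]
    exact s59f_ihara_O 𝒪 p N q hqN hpq ℓ r hℓ hr hrq y x hw

end T4

section T5

variable (N ℓ₀ : ℕ) [Fact ℓ₀.Prime]

/-- the operator `P(T) = T⁴ − 2 s² T² + s⁴` on raw classes, `ℕ`-multiples (natural in `A`). -/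
def s59f_Praw (A : Type*) [AddCommGroup A] (ψ : Additive (Gamma0 N) →+ A) :
    Additive (Gamma0 N) →+ A :=
  s29h_heckeHom N ℓ₀ A (s29h_heckeHom N ℓ₀ A (s29h_heckeHom N ℓ₀ A (s29h_heckeHom N ℓ₀ A ψ))) -
    (2 * (ℓ₀ + 1) ^ 2) • s29h_heckeHom N ℓ₀ A (s29h_heckeHom N ℓ₀ A ψ) + ((ℓ₀ + 1) ^ 4) • ψ

theorem s59f_comp_nsmul {G A B : Type*} [AddZeroClass G] [AddCommGroup A] [AddCommGroup B]
    (f : A →+ B) (n : ℕ) (ψ : G →+ A) : f.comp (n • ψ) = n • f.comp ψ := by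
  refine AddMonoidHom.ext fun γ => ?_
  simp only [AddMonoidHom.comp_apply, AddMonoidHom.smul_apply, map_nsmul]

theorem s59f_Praw_comp {A B : Type*} [AddCommGroup A] [AddCommGroup B] (f : A →+ B)
    (ψ : Additive (Gamma0 N) →+ A) :
    s59f_Praw N ℓ₀ B (f.comp ψ) = f.comp (s59f_Praw N ℓ₀ A ψ) := by
  unfold s59f_Praw
  rw [AddMonoidHom.comp_add, AddMonoidHom.comp_sub, s59f_comp_nsmul, s59f_comp_nsmul,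
    s29h_heckeHom_comp, s29h_heckeHom_comp, s29h_heckeHom_comp, s29h_heckeHom_comp]

/-- `P` over `ℤ` in the spelling of `s41g_theta2`. -/
theorem s59f_Praw_int (ψ : Additive (Gamma0 N) →+ ℤ) :
    s59f_Praw N ℓ₀ ℤ ψ =
      s29h_heckeHom N ℓ₀ ℤ (s29h_heckeHom N ℓ₀ ℤ
          (s29h_heckeHom N ℓ₀ ℤ (s29h_heckeHom N ℓ₀ ℤ ψ))) -
        (2 * ((ℓ₀ : ℤ) + 1) ^ 2) • s29h_heckeHom N ℓ₀ ℤ (s29h_heckeHom N ℓ₀ ℤ ψ) +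
        (((ℓ₀ : ℤ) + 1) ^ 4) • ψ := by
  unfold s59f_Praw
  rw [← natCast_zsmul, ← natCast_zsmul]
  push_cast
  rfl

theorem s59f_Praw_zero (A : Type*) [AddCommGroup A] : s59f_Praw N ℓ₀ A 0 = 0 := by
  unfold s59f_Praw
  simp

end T5

section T5main

variable (𝒪 : Type) [CommRing 𝒪] [IsDomain 𝒪] [IsDiscreteValuationRing 𝒪]
  [Finite (ResidueField 𝒪)] (p : ℕ) [hp : Fact p.Prime] [CharP (ResidueField 𝒪) p]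
  (N q : ℕ) [NeZero N] [hq : Fact q.Prime] (hqN : ¬ q ∣ N) (ℓ₀ : ℕ) [Fact ℓ₀.Prime]

/-- the operator `(T − s)² (T + s)²`, `T = T_ℓ₀`, `s = ℓ₀ + 1`, on `H_par(Γ₀(N), 𝒪)`. -/
def s59f_PTop : Module.End 𝒪 (s29h_Hpar 𝒪 N 𝒪) :=
  (s29h_heckeHpar N ℓ₀ 𝒪 𝒪 - ((ℓ₀ : 𝒪) + 1) • (1 : Module.End 𝒪 (s29h_Hpar 𝒪 N 𝒪))) *
    ((s29h_heckeHpar N ℓ₀ 𝒪 𝒪 - ((ℓ₀ : 𝒪) + 1) • (1 : Module.End 𝒪 (s29h_Hpar 𝒪 N 𝒪))) *
      ((s29h_heckeHpar N ℓ₀ 𝒪 𝒪 + ((ℓ₀ : 𝒪) + 1) • (1 : Module.End 𝒪 (s29h_Hpar 𝒪 N 𝒪))) *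
        (s29h_heckeHpar N ℓ₀ 𝒪 𝒪 + ((ℓ₀ : 𝒪) + 1) • (1 : Module.End 𝒪 (s29h_Hpar 𝒪 N 𝒪)))))

theorem s59f_PTop_coe (y : s29h_Hpar 𝒪 N 𝒪) :
    ((s59f_PTop 𝒪 N ℓ₀ y : s29h_Hpar 𝒪 N 𝒪) : Additive (Gamma0 N) →+ 𝒪) =
      s59f_Praw N ℓ₀ 𝒪 (y : Additive (Gamma0 N) →+ 𝒪) := by
  have e : s59f_PTop 𝒪 N ℓ₀ y =
      s29h_heckeHpar N ℓ₀ 𝒪 𝒪 (s29h_heckeHpar N ℓ₀ 𝒪 𝒪
          (s29h_heckeHpar N ℓ₀ 𝒪 𝒪 (s29h_heckeHpar N ℓ₀ 𝒪 𝒪 y))) -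
        (2 * (ℓ₀ + 1) ^ 2) • s29h_heckeHpar N ℓ₀ 𝒪 𝒪 (s29h_heckeHpar N ℓ₀ 𝒪 𝒪 y) +
        ((ℓ₀ + 1) ^ 4) • y := by
    rw [← Nat.cast_smul_eq_nsmul 𝒪 (2 * (ℓ₀ + 1) ^ 2), ← Nat.cast_smul_eq_nsmul 𝒪 ((ℓ₀ + 1) ^ 4)]
    push_cast
    unfold s59f_PTop
    simp only [Module.End.mul_apply, LinearMap.sub_apply, LinearMap.add_apply,
      LinearMap.smul_apply, Module.End.one_apply, map_sub, map_add, map_smul]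
    module
  rw [e]
  rfl

/-- `p ∈ 𝔪`. -/
theorem s59f_p_mem : ((p : ℕ) : 𝒪) ∈ maximalIdeal 𝒪 := by
  rw [← residue_eq_zero_iff, map_natCast, CharP.cast_eq_zero]

/-- the set `{y | ∃ z, P y − cA z ∈ K ∧ cB z ∈ K}` as a submodule. -/
def s59f_hitSub {R : Type*} [CommRing R] {Y Z : Type*} [AddCommGroup Y] [Module R Y]
    [AddCommGroup Z] [Module R Z] (P : Y →ₗ[R] Y) (cA cB : Z →ₗ[R] Y) (K : Submodule R Y) :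
    Submodule R Y where
  carrier := {y | ∃ z : Z, P y - cA z ∈ K ∧ cB z ∈ K}
  zero_mem' := ⟨0, by simp, by simp⟩
  add_mem' := by
    rintro y y' ⟨z, h1, h2⟩ ⟨z', h1', h2'⟩
    refine ⟨z + z', ?_, ?_⟩
    · have : P (y + y') - cA (z + z') = (P y - cA z) + (P y' - cA z') := by
        rw [map_add, map_add]; abel
      rw [this]
      exact K.add_mem h1 h1'
    · rw [map_add]
      exact K.add_mem h2 h2'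
  smul_mem' := by
    rintro a y ⟨z, h1, h2⟩
    refine ⟨a • z, ?_, ?_⟩
    · have : P (a • y) - cA (a • z) = a • (P y - cA z) := by
        rw [map_smul, map_smul, smul_sub]
      rw [this]
      exact K.smul_mem a h1
    · rw [map_smul]
      exact K.smul_mem a h2

theorem s59f_mem_hitSub {R : Type*} [CommRing R] {Y Z : Type*} [AddCommGroup Y] [Module R Y]
    [AddCommGroup Z] [Module R Z] (P : Y →ₗ[R] Y) (cA cB : Z →ₗ[R] Y) (K : Submodule R Y) (y : Y) :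
    y ∈ s59f_hitSub P cA cB K ↔ ∃ z : Z, P y - cA z ∈ K ∧ cB z ∈ K := Iff.rfl

/-- cast of `(p : ℤ) • ψ`. -/
theorem s59f_cast_p_smul {N' : ℕ} (ψ : Additive (Gamma0 N') →+ ℤ) :
    (Int.castAddHom 𝒪).comp (((p : ℕ) : ℤ) • ψ) =
      ((p : ℕ) : 𝒪) • (Int.castAddHom 𝒪).comp ψ := by
  refine AddMonoidHom.ext fun γ => ?_
  simp

/-- the integral classes are hit modulo `𝔪` (from `s41g_theta2`). -/
theorem s59f_dual_int (hp2 : p ≠ 2) (hqp : q ≠ p) (hℓ₀ : ¬ ℓ₀ ∣ N * q * p)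
    (χ : Additive (Gamma0 N) →+ ℤ) (hχ : χ ∈ s29h_Hpar ℤ N ℤ) :
    (⟨s29s_cast 𝒪 χ, s29s_cast_mem_Hpar 𝒪 𝒪 hχ⟩ : s29h_Hpar 𝒪 N 𝒪) ∈
        s59f_hitSub (s59f_PTop 𝒪 N ℓ₀) (s59t_oldData N q hqN 𝒪 𝒪).corA
          (s59t_oldData N q hqN 𝒪 𝒪).corB
          (maximalIdeal 𝒪 • ⊤ : Submodule 𝒪 (s29h_Hpar 𝒪 N 𝒪)) ∧
    (⟨s29s_cast 𝒪 χ, s29s_cast_mem_Hpar 𝒪 𝒪 hχ⟩ : s29h_Hpar 𝒪 N 𝒪) ∈
        s59f_hitSub (s59f_PTop 𝒪 N ℓ₀) (s59t_oldData N q hqN 𝒪 𝒪).corB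
          (s59t_oldData N q hqN 𝒪 𝒪).corA
          (maximalIdeal 𝒪 • ⊤ : Submodule 𝒪 (s29h_Hpar 𝒪 N 𝒪)) := by
  have hI2 := s41_ihara2_of_kmain s41ki_kmain N q hqN p hp2 hqp ℓ₀ hℓ₀
  have hℓ₀N : ¬ ℓ₀ ∣ N := fun h => hℓ₀ (Dvd.dvd.mul_right (Dvd.dvd.mul_right h q) p)
  have hpm : ∀ u : s29h_Hpar 𝒪 N 𝒪, ((p : ℕ) : 𝒪) • u ∈
      (maximalIdeal 𝒪 • ⊤ : Submodule 𝒪 (s29h_Hpar 𝒪 N 𝒪)) := fun u =>
    Submodule.smul_mem_smul (s59f_p_mem 𝒪 p) Submodule.mem_top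
  set c : ℤ →+ 𝒪 := Int.castAddHom 𝒪 with hc
  -- transport of an integral identity
  have tr : ∀ (cor : ∀ A : Type, [AddCommGroup A] →
        (Additive (Gamma0 (N * q)) →+ A) →+ (Additive (Gamma0 N) →+ A))
      (hnat : ∀ ψ : Additive (Gamma0 (N * q)) →+ ℤ, cor 𝒪 (c.comp ψ) = c.comp (cor ℤ ψ))
      (u : Additive (Gamma0 N) →+ ℤ) (z y' : _),
      s59f_Praw N ℓ₀ ℤ u = cor ℤ z + ((p : ℕ) : ℤ) • y' →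
      s59f_Praw N ℓ₀ 𝒪 (c.comp u) - cor 𝒪 (c.comp z) = ((p : ℕ) : 𝒪) • c.comp y' := by
    intro cor hnat u z y' e
    rw [s59f_Praw_comp, e, AddMonoidHom.comp_add, hnat, s59f_cast_p_smul, add_sub_cancel_left]
  have natA : ∀ ψ : Additive (Gamma0 (N * q)) →+ ℤ,
      s41l_corA N q hqN 𝒪 (c.comp ψ) = c.comp (s41l_corA N q hqN ℤ ψ) := fun ψ =>
    (s41l_famCorA N q hqN).op_natural c ψ
  have natB : ∀ ψ : Additive (Gamma0 (N * q)) →+ ℤ,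
      s41l_corB N q hqN 𝒪 (c.comp ψ) = c.comp (s41l_corB N q hqN ℤ ψ) := fun ψ =>
    (s41l_famCorB N q hqN).op_natural c ψ
  constructor
  · obtain ⟨z, hz, y₁', hy₁', y₂', hy₂', e1, e2⟩ :=
      s41g_theta2 N q p ℓ₀ hqN hℓ₀N hp2 hI2 χ hχ 0 (zero_mem _)
    rw [← s59f_Praw_int] at e1 e2
    have t1 := tr (fun A _ => s41l_corA N q hqN A) natA χ z y₁' e1
    have t2 := tr (fun A _ => s41l_corB N q hqN A) natB 0 z y₂' e2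
    refine ⟨⟨s29s_cast 𝒪 z, s29s_cast_mem_Hpar 𝒪 𝒪 hz⟩, ?_, ?_⟩
    · have e : s59f_PTop 𝒪 N ℓ₀ ⟨s29s_cast 𝒪 χ, s29s_cast_mem_Hpar 𝒪 𝒪 hχ⟩ -
          (s59t_oldData N q hqN 𝒪 𝒪).corA ⟨s29s_cast 𝒪 z, s29s_cast_mem_Hpar 𝒪 𝒪 hz⟩ =
          ((p : ℕ) : 𝒪) • (⟨s29s_cast 𝒪 y₁', s29s_cast_mem_Hpar 𝒪 𝒪 hy₁'⟩ : s29h_Hpar 𝒪 N 𝒪) := by
        apply Subtype.ext
        rw [Submodule.coe_sub, s59f_PTop_coe]
        exact t1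
      rw [e]
      exact hpm _
    · have e : (s59t_oldData N q hqN 𝒪 𝒪).corB ⟨s29s_cast 𝒪 z, s29s_cast_mem_Hpar 𝒪 𝒪 hz⟩ =
          -(((p : ℕ) : 𝒪) • (⟨s29s_cast 𝒪 y₂', s29s_cast_mem_Hpar 𝒪 𝒪 hy₂'⟩ :
            s29h_Hpar 𝒪 N 𝒪)) := by
        apply Subtype.ext
        have t3 : (0 : Additive (Gamma0 N) →+ 𝒪) - s41l_corB N q hqN 𝒪 (c.comp z) =
            ((p : ℕ) : 𝒪) • c.comp y₂' := by
          have h0 : s59f_Praw N ℓ₀ 𝒪 (c.comp (0 : Additive (Gamma0 N) →+ ℤ)) = 0 := by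
            rw [AddMonoidHom.comp_zero, s59f_Praw_zero]
          rw [← h0]
          exact t2
        rw [zero_sub] at t3
        rw [Submodule.coe_neg]
        exact neg_eq_iff_eq_neg.mp t3
      rw [e]
      exact Submodule.neg_mem _ (hpm _)
  · obtain ⟨z, hz, y₁', hy₁', y₂', hy₂', e1, e2⟩ :=
      s41g_theta2 N q p ℓ₀ hqN hℓ₀N hp2 hI2 0 (zero_mem _) χ hχ
    rw [← s59f_Praw_int] at e1 e2
    have t1 := tr (fun A _ => s41l_corA N q hqN A) natA 0 z y₁' e1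
    have t2 := tr (fun A _ => s41l_corB N q hqN A) natB χ z y₂' e2
    refine ⟨⟨s29s_cast 𝒪 z, s29s_cast_mem_Hpar 𝒪 𝒪 hz⟩, ?_, ?_⟩
    · have e : s59f_PTop 𝒪 N ℓ₀ ⟨s29s_cast 𝒪 χ, s29s_cast_mem_Hpar 𝒪 𝒪 hχ⟩ -
          (s59t_oldData N q hqN 𝒪 𝒪).corB ⟨s29s_cast 𝒪 z, s29s_cast_mem_Hpar 𝒪 𝒪 hz⟩ =
          ((p : ℕ) : 𝒪) • (⟨s29s_cast 𝒪 y₂', s29s_cast_mem_Hpar 𝒪 𝒪 hy₂'⟩ : s29h_Hpar 𝒪 N 𝒪) := by
        apply Subtype.ext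
        rw [Submodule.coe_sub, s59f_PTop_coe]
        exact t2
      rw [e]
      exact hpm _
    · have e : (s59t_oldData N q hqN 𝒪 𝒪).corA ⟨s29s_cast 𝒪 z, s29s_cast_mem_Hpar 𝒪 𝒪 hz⟩ =
          -(((p : ℕ) : 𝒪) • (⟨s29s_cast 𝒪 y₁', s29s_cast_mem_Hpar 𝒪 𝒪 hy₁'⟩ :
            s29h_Hpar 𝒪 N 𝒪)) := by
        apply Subtype.ext
        have t3 : (0 : Additive (Gamma0 N) →+ 𝒪) - s41l_corA N q hqN 𝒪 (c.comp z) =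
            ((p : ℕ) : 𝒪) • c.comp y₁' := by
          have h0 : s59f_Praw N ℓ₀ 𝒪 (c.comp (0 : Additive (Gamma0 N) →+ ℤ)) = 0 := by
            rw [AddMonoidHom.comp_zero, s59f_Praw_zero]
          rw [← h0]
          exact t1
        rw [zero_sub] at t3
        rw [Submodule.coe_neg]
        exact neg_eq_iff_eq_neg.mp t3
      rw [e]
      exact Submodule.neg_mem _ (hpm _)

include p in
/-- a submodule of `H_par(Γ₀(N), 𝒪)` containing the integral classes is everything. -/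
theorem s59f_top_of_int (S : Submodule 𝒪 (s29h_Hpar 𝒪 N 𝒪))
    (hS : ∀ (χ : Additive (Gamma0 N) →+ ℤ) (hχ : χ ∈ s29h_Hpar ℤ N ℤ),
      (⟨s29s_cast 𝒪 χ, s29s_cast_mem_Hpar 𝒪 𝒪 hχ⟩ : s29h_Hpar 𝒪 N 𝒪) ∈ S) : S = ⊤ := by
  classical
  haveI : Fintype (SL(2, ℤ) ⧸ Gamma0 N) := Fintype.ofFinite _
  haveI : Group.FG (Gamma0 N) := Fermat.Agent.Lib.ES.groupFG_Gamma0 N
  let b := Module.Free.chooseBasis ℤ (s48h_M (Gamma0 N))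
  have hspan := s59t_cB_span (𝒪 := 𝒪) b p (s41g_neg_one_mem N)
  have hle : Submodule.span 𝒪 (Set.range (s59t_cBas (𝒪 := 𝒪) b)) ≤
      (S : Submodule 𝒪 (s48h_Hpar 𝒪 (Gamma0 N) 𝒪)) := by
    apply Submodule.span_le.mpr
    rintro _ ⟨i, rfl⟩
    exact hS (b i).1 (b i).2
  rw [hspan] at hle
  exact top_le_iff.mp hle

/-- **(T5) over `𝒪`**: `(cor_A, cor_B)` hits `(P y₁, P y₂)` modulo `𝔪`. -/
theorem s59f_dual_O (hp2 : p ≠ 2) (hqp : q ≠ p) (hℓ₀ : ¬ ℓ₀ ∣ N * q * p)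
    (y₁ y₂ : s29h_Hpar 𝒪 N 𝒪) :
    ∃ z : s29h_Hpar 𝒪 (N * q) 𝒪,
      s59f_PTop 𝒪 N ℓ₀ y₁ - (s59t_oldData N q hqN 𝒪 𝒪).corA z ∈
        (maximalIdeal 𝒪 • ⊤ : Submodule 𝒪 (s29h_Hpar 𝒪 N 𝒪)) ∧
      s59f_PTop 𝒪 N ℓ₀ y₂ - (s59t_oldData N q hqN 𝒪 𝒪).corB z ∈
        (maximalIdeal 𝒪 • ⊤ : Submodule 𝒪 (s29h_Hpar 𝒪 N 𝒪)) := by
  set D := s59t_oldData N q hqN 𝒪 𝒪 with hD
  set K : Submodule 𝒪 (s29h_Hpar 𝒪 N 𝒪) := maximalIdeal 𝒪 • ⊤ with hK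
  have h1 : s59f_hitSub (s59f_PTop 𝒪 N ℓ₀) D.corA D.corB K = ⊤ :=
    s59f_top_of_int 𝒪 p N _ fun χ hχ => (s59f_dual_int 𝒪 p N q hqN ℓ₀ hp2 hqp hℓ₀ χ hχ).1
  have h2 : s59f_hitSub (s59f_PTop 𝒪 N ℓ₀) D.corB D.corA K = ⊤ :=
    s59f_top_of_int 𝒪 p N _ fun χ hχ => (s59f_dual_int 𝒪 p N q hqN ℓ₀ hp2 hqp hℓ₀ χ hχ).2
  have m1 : y₁ ∈ s59f_hitSub (s59f_PTop 𝒪 N ℓ₀) D.corA D.corB K := by
    rw [h1]; exact Submodule.mem_top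
  have m2 : y₂ ∈ s59f_hitSub (s59f_PTop 𝒪 N ℓ₀) D.corB D.corA K := by
    rw [h2]; exact Submodule.mem_top
  obtain ⟨z₁, ha1, hb1⟩ := m1
  obtain ⟨z₂, hb2, ha2⟩ := m2
  refine ⟨z₁ + z₂, ?_, ?_⟩
  · have e : s59f_PTop 𝒪 N ℓ₀ y₁ - D.corA (z₁ + z₂) =
        (s59f_PTop 𝒪 N ℓ₀ y₁ - D.corA z₁) - D.corA z₂ := by
      rw [map_add]; abel
    rw [e]
    exact K.sub_mem ha1 ha2
  · have e : s59f_PTop 𝒪 N ℓ₀ y₂ - D.corB (z₁ + z₂) =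
        (s59f_PTop 𝒪 N ℓ₀ y₂ - D.corB z₂) - D.corB z₁ := by
      rw [map_add]; abel
    rw [e]
    exact K.sub_mem hb2 hb1

end T5main


end Fermat.Agent.Lib.S59
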