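/-
PROGRAMME R2 = S59, node [FLR], leaves (T4)+(T5), **on the parts of compatible idempotents**
(helper4, prefix `s59f_`).  `D : s59t_Old R Y Z` a level `N → N q` package, `ε`, `ε'` compatible
idempotents (`D.Compat ε ε'`), `T` a Hecke operator commuting with `ε`, topologically `a` on `ε Y`
(`(T − a)^k ε Y ⊆ I Y`), `a ∓ s` units.
* `s59f_ihara_part_abs` : (T4) on parts from (T4) on the full modules in the operator form of
  `s59f_ihara_O_op`;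
* `s59f_dual_part_abs`  : (T5) on parts from (T5) on the full modules in the form of `s59f_dual_O`;
* **`s59f_ihara_part`, `s59f_dual_part`** : the two leaves for `ε H_par(Γ₀(N), 𝒪) → ε' H_par(Γ₀(N q), 𝒪)`
  (`s59t_oldData`, `.restrict hc`), `T = T_ℓ₀`, `a² − (ℓ₀ + 1)² ∈ 𝒪ˣ` (non-Eisenstein `ℓ₀`).
-/
import Mathlib
import Fermat.Agent.Lib.S59.FIharaO

set_option autoImplicit false
set_option linter.unusedSectionVars false
set_option linter.unusedVariables false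
set_option linter.style.haveILetI false

noncomputable section

namespace Fermat.Agent.Lib.S59

open CongruenceSubgroup IsLocalRing
open Fermat.Agent.Lib.S29 Fermat.Agent.Lib.S41 Fermat.Agent.Lib.S48 ModularCurve.Period
open scoped MatrixGroups

section Abs

variable {R : Type*} [CommRing R] {Y Z : Type*} [AddCommGroup Y] [Module R Y]
  [AddCommGroup Z] [Module R Z] (D : s59t_Old R Y Z)
  {ε : Module.End R Y} {ε' : Module.End R Z} (hc : D.Compat ε ε') (I : Ideal R)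

/-- `ε` fixes `(T − s) v` if it fixes `v` and commutes with `T`. -/
theorem s59f_fix_sub (T : Module.End R Y) (hεT : ∀ y, ε (T y) = T (ε y)) (s : R) (v : Y)
    (hv : ε v = v) : ε ((T - s • (1 : Module.End R Y)) v) = (T - s • (1 : Module.End R Y)) v := by
  simp only [LinearMap.sub_apply, LinearMap.smul_apply, Module.End.one_apply, map_sub, map_smul,
    hεT, hv]

theorem s59f_add_eq_sub (T : Module.End R Y) (s : R) :
    T + s • (1 : Module.End R Y) = T - (-s) • (1 : Module.End R Y) := by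
  rw [neg_smul, sub_neg_eq_add]

/-- peeling one factor `T − s` on the `ε`-part. -/
theorem s59f_peel (T : Module.End R Y) (hεT : ∀ y, ε (T y) = T (ε y)) (a s : R)
    (hu : IsUnit (a - s)) (k : ℕ)
    (hn : ∀ y, ((T - a • (1 : Module.End R Y)) ^ k) (ε y) ∈ I • (⊤ : Submodule R Y))
    (v : Y) (hv : ε v = v)
    (h : (T - s • (1 : Module.End R Y)) v ∈ I • (⊤ : Submodule R Y)) :
    v ∈ I • (⊤ : Submodule R Y) := by
  refine s59f_topnil_inj I T a s hu k v ?_ h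
  rw [← hv]
  exact hn v

include hc in
/-- **(T4) on the parts**, abstract form. -/
theorem s59f_ihara_part_abs (hε : ε * ε = ε)
    (Tl Tr : Module.End R Y) (hεl : ∀ y, ε (Tl y) = Tl (ε y)) (hεr : ∀ y, ε (Tr y) = Tr (ε y))
    (al sl ar sr : R) (hu1 : IsUnit (al - sl)) (hu2 : IsUnit (ar - sr)) (hu3 : IsUnit (ar + sr))
    (kl kr : ℕ)
    (hnl : ∀ y, ((Tl - al • (1 : Module.End R Y)) ^ kl) (ε y) ∈ I • (⊤ : Submodule R Y))
    (hnr : ∀ y, ((Tr - ar • (1 : Module.End R Y)) ^ kr) (ε y) ∈ I • (⊤ : Submodule R Y))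
    (hI : ∀ x y : Y, D.resA x + D.resB y ∈ I • (⊤ : Submodule R Z) →
      (Tl - sl • (1 : Module.End R Y)) ((Tr - sr • (1 : Module.End R Y))
          ((Tr + sr • (1 : Module.End R Y)) x)) ∈ I • (⊤ : Submodule R Y) ∧
        (Tl - sl • (1 : Module.End R Y)) ((Tr - sr • (1 : Module.End R Y))
          ((Tr + sr • (1 : Module.End R Y)) y)) ∈ I • (⊤ : Submodule R Y))
    (x y : s59t_part ε)
    (h : (D.restrict hc).resA x + (D.restrict hc).resB y ∈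
      (I • ⊤ : Submodule R (s59t_part ε'))) :
    x ∈ (I • ⊤ : Submodule R (s59t_part ε)) ∧ y ∈ (I • ⊤ : Submodule R (s59t_part ε)) := by
  have h' : D.resA (x : Y) + D.resB (y : Y) ∈ I • (⊤ : Submodule R Z) :=
    Submodule.smul_top_le_comap_smul_top I (s59t_part ε').subtype h
  obtain ⟨hx, hy⟩ := hI x y h'
  have hu3' : IsUnit (ar - -sr) := by rwa [sub_neg_eq_add]
  have main : ∀ v : s59t_part ε,
      (Tl - sl • (1 : Module.End R Y)) ((Tr - sr • (1 : Module.End R Y))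
          ((Tr + sr • (1 : Module.End R Y)) (v : Y))) ∈ I • (⊤ : Submodule R Y) →
      v ∈ (I • ⊤ : Submodule R (s59t_part ε)) := by
    intro v hv
    have hfix : ε (v : Y) = v := (s59t_mem_part hε _).mp v.2
    rw [s59f_add_eq_sub] at hv
    have f1 := s59f_fix_sub Tr hεr (-sr) (v : Y) hfix
    have f2 := s59f_fix_sub Tr hεr sr _ f1
    have s1 := s59f_peel I Tl hεl al sl hu1 kl hnl _ f2 hv
    have s2 := s59f_peel I Tr hεr ar sr hu2 kr hnr _ f1 s1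
    have s3 := s59f_peel I Tr hεr ar (-sr) hu3' kr hnr _ hfix s2
    exact (s59t_part_smul_top_iff I hε v).mpr s3
  exact ⟨main x hx, main y hy⟩

/-- approximate inverse of `(T − s)` on the `ε`-part: the output stays in the `ε`-part. -/
theorem s59f_unpeel (T : Module.End R Y) (hεT : ∀ y, ε (T y) = T (ε y)) (a s : R)
    (hu : IsUnit (a - s)) (k : ℕ)
    (hn : ∀ y, ((T - a • (1 : Module.End R Y)) ^ k) (ε y) ∈ I • (⊤ : Submodule R Y))
    (v : Y) (hv : ε v = v) :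
    ∃ u : Y, ε u = u ∧ (T - s • (1 : Module.End R Y)) u - v ∈ I • (⊤ : Submodule R Y) := by
  obtain ⟨Q, hQ1, hQ2⟩ := s59f_topnil_surj I T a s hu k
  have hεTm : ε * T = T * ε := LinearMap.ext fun y => hεT y
  have hεQ : ε * Q = Q * ε := hQ1 ε hεTm
  refine ⟨Q v, ?_, hQ2 v ?_⟩
  · have := LinearMap.congr_fun hεQ v
    simp only [Module.End.mul_apply] at this
    rw [this, hv]
  · rw [← hv]
    exact hn v

include hc in
/-- **(T5) on the parts**, abstract form. -/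
theorem s59f_dual_part_abs (hε : ε * ε = ε)
    (T : Module.End R Y) (hεT : ∀ y, ε (T y) = T (ε y)) (a s : R)
    (hu1 : IsUnit (a - s)) (hu2 : IsUnit (a + s)) (k : ℕ)
    (hn : ∀ y, ((T - a • (1 : Module.End R Y)) ^ k) (ε y) ∈ I • (⊤ : Submodule R Y))
    (hI : ∀ y₁ y₂ : Y, ∃ z : Z,
      (T - s • (1 : Module.End R Y)) ((T - s • (1 : Module.End R Y))
          ((T + s • (1 : Module.End R Y)) ((T + s • (1 : Module.End R Y)) y₁))) - D.corA z ∈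
        I • (⊤ : Submodule R Y) ∧
      (T - s • (1 : Module.End R Y)) ((T - s • (1 : Module.End R Y))
          ((T + s • (1 : Module.End R Y)) ((T + s • (1 : Module.End R Y)) y₂))) - D.corB z ∈
        I • (⊤ : Submodule R Y))
    (y₁ y₂ : s59t_part ε) :
    ∃ z : s59t_part ε',
      (D.restrict hc).corA z - y₁ ∈ (I • ⊤ : Submodule R (s59t_part ε)) ∧
      (D.restrict hc).corB z - y₂ ∈ (I • ⊤ : Submodule R (s59t_part ε)) := by
  have hu2' : IsUnit (a - -s) := by rwa [sub_neg_eq_add]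
  set K : Submodule R Y := I • ⊤ with hK
  -- approximate preimage under `F = (T − s)² (T + s)²`
  have pre : ∀ v : Y, ε v = v → ∃ u : Y, ε u = u ∧
      (T - s • (1 : Module.End R Y)) ((T - s • (1 : Module.End R Y))
          ((T + s • (1 : Module.End R Y)) ((T + s • (1 : Module.End R Y)) u))) - v ∈ K := by
    intro v hv
    obtain ⟨u₁, f1, e1⟩ := s59f_unpeel I T hεT a s hu1 k hn v hv
    obtain ⟨u₂, f2, e2⟩ := s59f_unpeel I T hεT a s hu1 k hn u₁ f1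
    obtain ⟨u₃, f3, e3⟩ := s59f_unpeel I T hεT a (-s) hu2' k hn u₂ f2
    obtain ⟨u₄, f4, e4⟩ := s59f_unpeel I T hεT a (-s) hu2' k hn u₃ f3
    rw [← s59f_add_eq_sub] at e3 e4
    refine ⟨u₄, f4, ?_⟩
    set A := T - s • (1 : Module.End R Y) with hA
    set B := T + s • (1 : Module.End R Y) with hB
    have g4 : A (A (B (B u₄ - u₃))) ∈ K :=
      s59f_end_smul_top I A (s59f_end_smul_top I A (s59f_end_smul_top I B e4))
    have g3 : A (A (B u₃ - u₂)) ∈ K := s59f_end_smul_top I A (s59f_end_smul_top I A e3)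
    have g2 : A (A u₂ - u₁) ∈ K := s59f_end_smul_top I A e2
    have e : A (A (B (B u₄))) - v =
        A (A (B (B u₄ - u₃))) + A (A (B u₃ - u₂)) + A (A u₂ - u₁) + (A u₁ - v) := by
      simp only [map_sub]
      abel
    rw [e]
    exact K.add_mem (K.add_mem (K.add_mem g4 g3) g2) e1
  have fix1 : ε (y₁ : Y) = y₁ := (s59t_mem_part hε _).mp y₁.2
  have fix2 : ε (y₂ : Y) = y₂ := (s59t_mem_part hε _).mp y₂.2
  obtain ⟨u₁, -, e1⟩ := pre y₁ fix1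
  obtain ⟨u₂, -, e2⟩ := pre y₂ fix2
  obtain ⟨z, hz1, hz2⟩ := hI u₁ u₂
  refine ⟨⟨ε' z, ⟨z, rfl⟩⟩, ?_, ?_⟩
  · rw [s59t_part_smul_top_iff I hε]
    show D.corA (ε' z) - (y₁ : Y) ∈ K
    rw [← hc.corA, ← fix1]
    have := K.sub_mem (s59f_end_smul_top I ε e1) (s59f_end_smul_top I ε hz1)
    rw [← map_sub, sub_sub_sub_cancel_left] at this
    rw [← map_sub]
    exact this
  · rw [s59t_part_smul_top_iff I hε]
    show D.corB (ε' z) - (y₂ : Y) ∈ K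
    rw [← hc.corB, ← fix2]
    have := K.sub_mem (s59f_end_smul_top I ε e2) (s59f_end_smul_top I ε hz2)
    rw [← map_sub, sub_sub_sub_cancel_left] at this
    rw [← map_sub]
    exact this

end Abs

section Concrete

variable (𝒪 : Type) [CommRing 𝒪] [IsDomain 𝒪] [IsDiscreteValuationRing 𝒪]
  (p : ℕ) [hp : Fact p.Prime] [CharP (ResidueField 𝒪) p]
  (N q : ℕ) [NeZero N] [hq : Fact q.Prime] (hqN : ¬ q ∣ N) (ℓ₀ : ℕ) [Fact ℓ₀.Prime]
  {ε : Module.End 𝒪 (s29h_Hpar 𝒪 N 𝒪)} {ε' : Module.End 𝒪 (s29h_Hpar 𝒪 (N * q) 𝒪)}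
  (hc : (s59t_oldData N q hqN 𝒪 𝒪).Compat ε ε')

theorem s59f_units_of_sq {a s : 𝒪} (hu : IsUnit (a ^ 2 - s ^ 2)) :
    IsUnit (a - s) ∧ IsUnit (a + s) := by
  have e : a ^ 2 - s ^ 2 = (a - s) * (a + s) := by ring
  rw [e] at hu
  exact ⟨isUnit_of_mul_isUnit_left hu, isUnit_of_mul_isUnit_right hu⟩

/-- **(T4) base-level Ihara modulo `𝔪` on the `ε`-parts**: `(ε Y / 𝔪)² → ε' Z / 𝔪`,
`(x, y) ↦ res_A x + res_B y`, is injective. -/
theorem s59f_ihara_part (hpq : p ≠ q) (hℓ₀N : ¬ ℓ₀ ∣ N) (hℓ₀q : ℓ₀ ≠ q) (hε : ε * ε = ε)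
    (hεT : ∀ y, ε (s29h_heckeHpar N ℓ₀ 𝒪 𝒪 y) = s29h_heckeHpar N ℓ₀ 𝒪 𝒪 (ε y))
    (a : 𝒪) (hu : IsUnit (a ^ 2 - ((ℓ₀ : 𝒪) + 1) ^ 2))
    (hnil : ∃ k : ℕ, ∀ y, ((s29h_heckeHpar N ℓ₀ 𝒪 𝒪 -
      a • (1 : Module.End 𝒪 (s29h_Hpar 𝒪 N 𝒪))) ^ k) (ε y) ∈
        (maximalIdeal 𝒪 • ⊤ : Submodule 𝒪 (s29h_Hpar 𝒪 N 𝒪)))
    (x y : s59t_part ε)
    (h : ((s59t_oldData N q hqN 𝒪 𝒪).restrict hc).resA x +
        ((s59t_oldData N q hqN 𝒪 𝒪).restrict hc).resB y ∈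
      (maximalIdeal 𝒪 • ⊤ : Submodule 𝒪 (s59t_part ε'))) :
    x ∈ (maximalIdeal 𝒪 • ⊤ : Submodule 𝒪 (s59t_part ε)) ∧
      y ∈ (maximalIdeal 𝒪 • ⊤ : Submodule 𝒪 (s59t_part ε)) := by
  obtain ⟨k, hk⟩ := hnil
  obtain ⟨hu1, hu2⟩ := s59f_units_of_sq 𝒪 hu
  exact s59f_ihara_part_abs (s59t_oldData N q hqN 𝒪 𝒪) hc (maximalIdeal 𝒪) hε
    (s29h_heckeHpar N ℓ₀ 𝒪 𝒪) (s29h_heckeHpar N ℓ₀ 𝒪 𝒪) hεT hεT a ((ℓ₀ : 𝒪) + 1) a
    ((ℓ₀ : 𝒪) + 1) hu1 hu1 hu2 k k hk hk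
    (fun x y hxy => s59f_ihara_O_op 𝒪 p N q hqN hpq ℓ₀ ℓ₀ hℓ₀N hℓ₀N hℓ₀q x y hxy) x y h

/-- **(T5) the dual of base-level Ihara modulo `𝔪` on the `ε`-parts**:
`ε' Z → (ε Y / 𝔪)²`, `z ↦ (cor_A z, cor_B z)`, is onto. -/
theorem s59f_dual_part [Finite (ResidueField 𝒪)] (hp2 : p ≠ 2) (hqp : q ≠ p)
    (hℓ₀ : ¬ ℓ₀ ∣ N * q * p) (hε : ε * ε = ε)
    (hεT : ∀ y, ε (s29h_heckeHpar N ℓ₀ 𝒪 𝒪 y) = s29h_heckeHpar N ℓ₀ 𝒪 𝒪 (ε y))
    (a : 𝒪) (hu : IsUnit (a ^ 2 - ((ℓ₀ : 𝒪) + 1) ^ 2))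
    (hnil : ∃ k : ℕ, ∀ y, ((s29h_heckeHpar N ℓ₀ 𝒪 𝒪 -
      a • (1 : Module.End 𝒪 (s29h_Hpar 𝒪 N 𝒪))) ^ k) (ε y) ∈
        (maximalIdeal 𝒪 • ⊤ : Submodule 𝒪 (s29h_Hpar 𝒪 N 𝒪)))
    (y₁ y₂ : s59t_part ε) :
    ∃ z : s59t_part ε',
      ((s59t_oldData N q hqN 𝒪 𝒪).restrict hc).corA z - y₁ ∈
        (maximalIdeal 𝒪 • ⊤ : Submodule 𝒪 (s59t_part ε)) ∧
      ((s59t_oldData N q hqN 𝒪 𝒪).restrict hc).corB z - y₂ ∈
        (maximalIdeal 𝒪 • ⊤ : Submodule 𝒪 (s59t_part ε)) := by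
  obtain ⟨k, hk⟩ := hnil
  obtain ⟨hu1, hu2⟩ := s59f_units_of_sq 𝒪 hu
  exact s59f_dual_part_abs (s59t_oldData N q hqN 𝒪 𝒪) hc (maximalIdeal 𝒪) hε
    (s29h_heckeHpar N ℓ₀ 𝒪 𝒪) hεT a ((ℓ₀ : 𝒪) + 1) hu1 hu2 k hk
    (fun y₁ y₂ => s59f_dual_O 𝒪 p N q hqN ℓ₀ hp2 hqp hℓ₀ y₁ y₂) y₁ y₂

end Concrete

end Fermat.Agent.Lib.S59
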