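/-
PROGRAMME R2 = S59, node [FLR], block (Z3) (helper4, prefix `s59f_`): **the leaves (T4), (T5) at the
base level of the Taylor–Wiles chain**, i.e. for the `Γ_⊤`-level package `s59f_oldN … ⊤`.
* `s59f_topEquiv` : `H_par(Γ₀(M), A) ≃ H_par(Γ_⊤(M), A)` (restriction);
* `s59f_oldTop_hom` : restriction intertwines helper8's `Γ₀`-package `s59t_oldData` with the
  `Γ_⊤`-package `s59f_oldN … ⊤`;
* `s59f_ihara_top_op`, `s59f_dual_top` : the transports of `s59f_ihara_O_op`, `s59f_dual_O`;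
* **`s59f_ihara_part_top`, `s59f_dual_part_top`** : (T4), (T5) on the parts of compatible idempotents.
-/
import Mathlib
import Fermat.Agent.Lib.S59.FIharaPart
import Fermat.Agent.Lib.S59.FEps7
import Fermat.Agent.Lib.S59.TG0Ops
import Fermat.Agent.Lib.S59.TChain
import Fermat.Agent.Lib.S59.FTwNew4

set_option autoImplicit false
set_option linter.unusedSectionVars false
set_option linter.unusedVariables false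
set_option linter.style.haveILetI false

noncomputable section

namespace Fermat.Agent.Lib.S59

open CongruenceSubgroup IsLocalRing
open Fermat.Agent.Lib.S29 Fermat.Agent.Lib.S41 Fermat.Agent.Lib.S48 ModularCurve.Period
open scoped MatrixGroups

local notation "Mat2" => Matrix (Fin 2) (Fin 2) ℤ

/-! ### `H_par(Γ₀(M)) ≃ H_par(Γ_⊤(M))` -/

section Top

variable (M : ℕ) [NeZero M]

variable (R : Type*) [CommRing R] (A : Type*) [AddCommGroup A] [Module R A]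

/-- the inverse of the restriction at `H = ⊤`. -/
def s59f_topInv :
    s48h_Hpar R (s48h_GammaH M (⊤ : Subgroup (ZMod M)ˣ)) A →ₗ[R] s29h_Hpar R M A :=
  s59t_resGHpar (s59f_Gamma0_le_top (M := M)) R A

theorem s59f_topInv_res (y : s29h_Hpar R M A) :
    s59f_topInv M R A (s59t_resHpar M ⊤ R A y) = y := by
  apply Subtype.ext
  refine AddMonoidHom.ext fun a => ?_
  obtain ⟨γ, rfl⟩ := Additive.ofMul.surjective a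
  rfl

theorem s59f_res_topInv (z : s48h_Hpar R (s48h_GammaH M (⊤ : Subgroup (ZMod M)ˣ)) A) :
    s59t_resHpar M ⊤ R A (s59f_topInv M R A z) = z := by
  apply Subtype.ext
  refine AddMonoidHom.ext fun a => ?_
  obtain ⟨γ, rfl⟩ := Additive.ofMul.surjective a
  rfl

/-- **`H_par(Γ₀(M), A) ≃ H_par(Γ_⊤(M), A)`.** -/
def s59f_topEquiv :
    s29h_Hpar R M A ≃ₗ[R] s48h_Hpar R (s48h_GammaH M (⊤ : Subgroup (ZMod M)ˣ)) A :=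
  LinearEquiv.ofLinearMap (s59t_resHpar M ⊤ R A) (s59f_topInv M R A)
    (LinearMap.ext fun z => s59f_res_topInv M R A z)
    (LinearMap.ext fun y => s59f_topInv_res M R A y)

theorem s59f_topEquiv_apply (y : s29h_Hpar R M A) :
    s59f_topEquiv M R A y = s59t_resHpar M ⊤ R A y := rfl

theorem s59f_topEquiv_symm_apply
    (z : s48h_Hpar R (s48h_GammaH M (⊤ : Subgroup (ZMod M)ˣ)) A) :
    s59t_resHpar M ⊤ R A ((s59f_topEquiv M R A).symm z) = z :=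
  (s59f_topEquiv M R A).apply_symm_apply z

end Top

/-- a linear equivalence preserves `I • ⊤`. -/
theorem s59f_equiv_mem_smul_top {R : Type*} [CommRing R] {Y Z : Type*} [AddCommGroup Y]
    [Module R Y] [AddCommGroup Z] [Module R Z] (f : Y ≃ₗ[R] Z) (I : Ideal R) (y : Y) :
    f y ∈ (I • ⊤ : Submodule R Z) ↔ y ∈ (I • ⊤ : Submodule R Y) := by
  constructor
  · intro h
    have := Submodule.smul_top_le_comap_smul_top I (f.symm : Z →ₗ[R] Y) h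
    simpa using this
  · intro h
    exact Submodule.smul_top_le_comap_smul_top I (f : Y →ₗ[R] Z) h


/-! ### The morphism of packages -/

section Hom

variable {N q : ℕ} [NeZero N] [hq : Fact q.Prime] (hqN : ¬ q ∣ N) [NeZero (N * q)]

variable (A : Type*) [AddCommGroup A]

variable (R : Type*) [CommRing R] [Module R A]
  (hG' : s59f_IsG' N q (⊤ : Subgroup (ZMod N)ˣ)
    (s48h_GammaH (N * q) (⊤ : Subgroup (ZMod (N * q))ˣ)))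
  (e : SL(2, ℤ)) (he' : e ∈ Gamma0 (N * q))
  (hee : s59f_gW hqN * e * e ∈ s48h_GammaH (N * q) (⊤ : Subgroup (ZMod (N * q))ˣ))

/-- **restriction `Γ₀ → Γ_⊤` intertwines helper8's `Γ₀`-package with the `Γ_⊤`-package.** -/
theorem s59f_oldTop_hom :
    s59f_OldHom (s59t_oldData N q hqN R A) (s59f_oldN hqN rfl hG' R A e he' hee)
      (s59t_resHpar N ⊤ R A) (s59t_resHpar (N * q) ⊤ R A) := by
  have hle : s48h_GammaH N (⊤ : Subgroup (ZMod N)ˣ) ≤ Gamma0 N := s48h_GammaH_le_Gamma0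
  have hle' : s48h_GammaH (N * q) (⊤ : Subgroup (ZMod (N * q))ˣ) ≤ Gamma0 (N * q) :=
    s48h_GammaH_le_Gamma0
  refine s59f_OldHom.of_three _ _ _ _ (fun y => ?_) (fun z => Subtype.ext ?_)
    (fun z => Subtype.ext ?_)
  · rw [s59t_resA_eq_res0]
    rfl
  · show s59t_resG hle A (s41l_corA N q hqN A z.1) =
      s59f_corH hqN (s59f_isG_GammaH N ⊤) hG' A (s59t_resG hle' A z.1)
    rw [← s59f_corH_Gamma0]
    exact s59f_corH_resX hqN hqN (dvd_refl N) s59f_isG_Gamma0 (s59f_isG'_Gamma0 hqN)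
      (s59f_isG_GammaH N ⊤) hG' hle hle' z.1
  · show s59t_resG hle' A (s41l_w N q hqN A z.1) =
      s48h_diamondH ⊤ e he' A (s59f_wH hqN hG' A (s59t_resG hle' A z.1))
    rw [← s59f_wH_Gamma0, ← s59f_wH_resX hqN hqN (dvd_refl N) (s59f_isG'_Gamma0 hqN) hG' hle' z.1]
    exact (s48h_diamondH_of_mem (s59t_mem_GammaH_top (N * q) ⟨e, he'⟩) _).symm

end Hom

/-! ### The transports of (T4), (T5) -/

section Main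

variable (𝒪 : Type) [CommRing 𝒪] [IsDomain 𝒪] [IsDiscreteValuationRing 𝒪]
  (p : ℕ) [hp : Fact p.Prime] [CharP (ResidueField 𝒪) p]
  {N q : ℕ} [NeZero N] [hq : Fact q.Prime] (hqN : ¬ q ∣ N) [NeZero (N * q)]
  (hG' : s59f_IsG' N q (⊤ : Subgroup (ZMod N)ˣ)
    (s48h_GammaH (N * q) (⊤ : Subgroup (ZMod (N * q))ˣ)))
  (e : SL(2, ℤ)) (he' : e ∈ Gamma0 (N * q))
  (hee : s59f_gW hqN * e * e ∈ s48h_GammaH (N * q) (⊤ : Subgroup (ZMod (N * q))ˣ))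

/-- `T_ℓ` at `Γ₀`-level and at `Γ_⊤`-level. -/
theorem s59f_res_top_T (i : s59w_TIdx N) (y : s29h_Hpar 𝒪 N 𝒪) :
    s59t_resHpar N ⊤ 𝒪 𝒪
        ((haveI : Fact i.ell.Prime := ⟨i.prime⟩; s29h_heckeHpar N i.ell 𝒪 𝒪) y) =
      s59w_op (⊤ : Subgroup (ZMod N)ˣ) 𝒪 (Sum.inl i) (s59t_resHpar N ⊤ 𝒪 𝒪 y) := by
  haveI : Fact i.ell.Prime := ⟨i.prime⟩
  apply Subtype.ext
  exact s59t_res_hecke (H := (⊤ : Subgroup (ZMod N)ˣ)) (ℓ := i.ell) i.ndvd i.mem i.lr y.1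

/-- the same for `T_ℓ − s`. -/
theorem s59f_res_top_Ts (i : s59w_TIdx N) (s : 𝒪) (y : s29h_Hpar 𝒪 N 𝒪) :
    s59t_resHpar N ⊤ 𝒪 𝒪
        (((haveI : Fact i.ell.Prime := ⟨i.prime⟩; s29h_heckeHpar N i.ell 𝒪 𝒪) -
          s • (1 : Module.End 𝒪 (s29h_Hpar 𝒪 N 𝒪))) y) =
      (s59w_op (⊤ : Subgroup (ZMod N)ˣ) 𝒪 (Sum.inl i) -
        s • (1 : Module.End 𝒪 (s48h_Hpar 𝒪 (s48h_GammaH N (⊤ : Subgroup (ZMod N)ˣ)) 𝒪)))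
        (s59t_resHpar N ⊤ 𝒪 𝒪 y) := by
  rw [LinearMap.sub_apply, LinearMap.sub_apply, map_sub, s59f_res_top_T, LinearMap.smul_apply,
    LinearMap.smul_apply, Module.End.one_apply, Module.End.one_apply, map_smul]

/-- the same for `T_ℓ + s`. -/
theorem s59f_res_top_Tp (i : s59w_TIdx N) (s : 𝒪) (y : s29h_Hpar 𝒪 N 𝒪) :
    s59t_resHpar N ⊤ 𝒪 𝒪
        (((haveI : Fact i.ell.Prime := ⟨i.prime⟩; s29h_heckeHpar N i.ell 𝒪 𝒪) +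
          s • (1 : Module.End 𝒪 (s29h_Hpar 𝒪 N 𝒪))) y) =
      (s59w_op (⊤ : Subgroup (ZMod N)ˣ) 𝒪 (Sum.inl i) +
        s • (1 : Module.End 𝒪 (s48h_Hpar 𝒪 (s48h_GammaH N (⊤ : Subgroup (ZMod N)ˣ)) 𝒪)))
        (s59t_resHpar N ⊤ 𝒪 𝒪 y) := by
  rw [LinearMap.add_apply, LinearMap.add_apply, map_add, s59f_res_top_T, LinearMap.smul_apply,
    LinearMap.smul_apply, Module.End.one_apply, Module.End.one_apply, map_smul]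

/-- **(T4) at `Γ_⊤`-level, operator form.** -/
theorem s59f_ihara_top_op (hpq : p ≠ q) (i r : s59w_TIdx N) (hrq : r.ell ≠ q)
    (x y : s48h_Hpar 𝒪 (s48h_GammaH N (⊤ : Subgroup (ZMod N)ˣ)) 𝒪)
    (h : (s59f_oldN hqN rfl hG' 𝒪 𝒪 e he' hee).resA x +
        (s59f_oldN hqN rfl hG' 𝒪 𝒪 e he' hee).resB y ∈
      (maximalIdeal 𝒪 • ⊤ :
        Submodule 𝒪 (s48h_Hpar 𝒪 (s48h_GammaH (N * q) (⊤ : Subgroup (ZMod (N * q))ˣ)) 𝒪))) :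
    (s59w_op (⊤ : Subgroup (ZMod N)ˣ) 𝒪 (Sum.inl i) - ((i.ell : 𝒪) + 1) • 1)
        ((s59w_op (⊤ : Subgroup (ZMod N)ˣ) 𝒪 (Sum.inl r) - ((r.ell : 𝒪) + 1) • 1)
          ((s59w_op (⊤ : Subgroup (ZMod N)ˣ) 𝒪 (Sum.inl r) + ((r.ell : 𝒪) + 1) • 1) x)) ∈
        (maximalIdeal 𝒪 • ⊤ :
          Submodule 𝒪 (s48h_Hpar 𝒪 (s48h_GammaH N (⊤ : Subgroup (ZMod N)ˣ)) 𝒪)) ∧
    (s59w_op (⊤ : Subgroup (ZMod N)ˣ) 𝒪 (Sum.inl i) - ((i.ell : 𝒪) + 1) • 1)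
        ((s59w_op (⊤ : Subgroup (ZMod N)ˣ) 𝒪 (Sum.inl r) - ((r.ell : 𝒪) + 1) • 1)
          ((s59w_op (⊤ : Subgroup (ZMod N)ˣ) 𝒪 (Sum.inl r) + ((r.ell : 𝒪) + 1) • 1) y)) ∈
        (maximalIdeal 𝒪 • ⊤ :
          Submodule 𝒪 (s48h_Hpar 𝒪 (s48h_GammaH N (⊤ : Subgroup (ZMod N)ˣ)) 𝒪)) := by
  haveI : Fact i.ell.Prime := ⟨i.prime⟩
  haveI : Fact r.ell.Prime := ⟨r.prime⟩
  have hom := s59f_oldTop_hom hqN 𝒪 𝒪 hG' e he' hee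
  set E := s59f_topEquiv N 𝒪 𝒪 with hE
  set E' := s59f_topEquiv (N * q) 𝒪 𝒪 with hE'
  obtain ⟨x₀, rfl⟩ := E.surjective x
  obtain ⟨y₀, rfl⟩ := E.surjective y
  have h₀ : (s59t_oldData N q hqN 𝒪 𝒪).resA x₀ + (s59t_oldData N q hqN 𝒪 𝒪).resB y₀ ∈
      (maximalIdeal 𝒪 • ⊤ : Submodule 𝒪 (s29h_Hpar 𝒪 (N * q) 𝒪)) := by
    rw [← s59f_equiv_mem_smul_top E', map_add]
    have e1 := hom.resA x₀
    have e2 := hom.resB y₀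
    rw [← s59f_topEquiv_apply, ← s59f_topEquiv_apply] at e1 e2
    rw [e1, e2]
    exact h
  obtain ⟨k1, k2⟩ := s59f_ihara_O_op 𝒪 p N q hqN hpq i.ell r.ell i.ndvd r.ndvd hrq x₀ y₀ h₀
  have tr : ∀ v : s29h_Hpar 𝒪 N 𝒪,
      E ((s29h_heckeHpar N i.ell 𝒪 𝒪 - ((i.ell : 𝒪) + 1) • (1 : Module.End 𝒪 (s29h_Hpar 𝒪 N 𝒪)))
        ((s29h_heckeHpar N r.ell 𝒪 𝒪 - ((r.ell : 𝒪) + 1) • (1 : Module.End 𝒪 (s29h_Hpar 𝒪 N 𝒪)))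
          ((s29h_heckeHpar N r.ell 𝒪 𝒪 +
            ((r.ell : 𝒪) + 1) • (1 : Module.End 𝒪 (s29h_Hpar 𝒪 N 𝒪))) v))) =
      (s59w_op (⊤ : Subgroup (ZMod N)ˣ) 𝒪 (Sum.inl i) - ((i.ell : 𝒪) + 1) • 1)
        ((s59w_op (⊤ : Subgroup (ZMod N)ˣ) 𝒪 (Sum.inl r) - ((r.ell : 𝒪) + 1) • 1)
          ((s59w_op (⊤ : Subgroup (ZMod N)ˣ) 𝒪 (Sum.inl r) + ((r.ell : 𝒪) + 1) • 1) (E v))) := by
    intro v
    rw [s59f_topEquiv_apply, s59f_topEquiv_apply, s59f_res_top_Ts, s59f_res_top_Ts,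
      s59f_res_top_Tp]
  refine ⟨?_, ?_⟩
  · rw [← tr]
    exact (s59f_equiv_mem_smul_top E _ _).mpr k1
  · rw [← tr]
    exact (s59f_equiv_mem_smul_top E _ _).mpr k2


/-- **(T5) at `Γ_⊤`-level, operator form.** -/
theorem s59f_dual_top [Finite (ResidueField 𝒪)] (hp2 : p ≠ 2) (hqp : q ≠ p) (i : s59w_TIdx N)
    (hi : ¬ i.ell ∣ N * q * p)
    (y₁ y₂ : s48h_Hpar 𝒪 (s48h_GammaH N (⊤ : Subgroup (ZMod N)ˣ)) 𝒪) :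
    ∃ z : s48h_Hpar 𝒪 (s48h_GammaH (N * q) (⊤ : Subgroup (ZMod (N * q))ˣ)) 𝒪,
      (s59w_op (⊤ : Subgroup (ZMod N)ˣ) 𝒪 (Sum.inl i) - ((i.ell : 𝒪) + 1) • 1)
        ((s59w_op (⊤ : Subgroup (ZMod N)ˣ) 𝒪 (Sum.inl i) - ((i.ell : 𝒪) + 1) • 1)
          ((s59w_op (⊤ : Subgroup (ZMod N)ˣ) 𝒪 (Sum.inl i) + ((i.ell : 𝒪) + 1) • 1)
            ((s59w_op (⊤ : Subgroup (ZMod N)ˣ) 𝒪 (Sum.inl i) + ((i.ell : 𝒪) + 1) • 1) y₁))) -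
          (s59f_oldN hqN rfl hG' 𝒪 𝒪 e he' hee).corA z ∈
        (maximalIdeal 𝒪 • ⊤ :
          Submodule 𝒪 (s48h_Hpar 𝒪 (s48h_GammaH N (⊤ : Subgroup (ZMod N)ˣ)) 𝒪)) ∧
      (s59w_op (⊤ : Subgroup (ZMod N)ˣ) 𝒪 (Sum.inl i) - ((i.ell : 𝒪) + 1) • 1)
        ((s59w_op (⊤ : Subgroup (ZMod N)ˣ) 𝒪 (Sum.inl i) - ((i.ell : 𝒪) + 1) • 1)
          ((s59w_op (⊤ : Subgroup (ZMod N)ˣ) 𝒪 (Sum.inl i) + ((i.ell : 𝒪) + 1) • 1)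
            ((s59w_op (⊤ : Subgroup (ZMod N)ˣ) 𝒪 (Sum.inl i) + ((i.ell : 𝒪) + 1) • 1) y₂))) -
          (s59f_oldN hqN rfl hG' 𝒪 𝒪 e he' hee).corB z ∈
        (maximalIdeal 𝒪 • ⊤ :
          Submodule 𝒪 (s48h_Hpar 𝒪 (s48h_GammaH N (⊤ : Subgroup (ZMod N)ˣ)) 𝒪)) := by
  haveI : Fact i.ell.Prime := ⟨i.prime⟩
  have hom := s59f_oldTop_hom hqN 𝒪 𝒪 hG' e he' hee
  set E := s59f_topEquiv N 𝒪 𝒪 with hE
  set E' := s59f_topEquiv (N * q) 𝒪 𝒪 with hE'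
  obtain ⟨x₁, rfl⟩ := E.surjective y₁
  obtain ⟨x₂, rfl⟩ := E.surjective y₂
  obtain ⟨z₀, k1, k2⟩ := s59f_dual_O 𝒪 p N q hqN i.ell hp2 hqp hi x₁ x₂
  have tr : ∀ v : s29h_Hpar 𝒪 N 𝒪,
      E (s59f_PTop 𝒪 N i.ell v) =
      (s59w_op (⊤ : Subgroup (ZMod N)ˣ) 𝒪 (Sum.inl i) - ((i.ell : 𝒪) + 1) • 1)
        ((s59w_op (⊤ : Subgroup (ZMod N)ˣ) 𝒪 (Sum.inl i) - ((i.ell : 𝒪) + 1) • 1)
          ((s59w_op (⊤ : Subgroup (ZMod N)ˣ) 𝒪 (Sum.inl i) + ((i.ell : 𝒪) + 1) • 1)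
            ((s59w_op (⊤ : Subgroup (ZMod N)ˣ) 𝒪 (Sum.inl i) + ((i.ell : 𝒪) + 1) • 1)
              (E v)))) := by
    intro v
    unfold s59f_PTop
    rw [Module.End.mul_apply, Module.End.mul_apply, Module.End.mul_apply, s59f_topEquiv_apply,
      s59f_topEquiv_apply, s59f_res_top_Ts, s59f_res_top_Ts, s59f_res_top_Tp, s59f_res_top_Tp]
  refine ⟨E' z₀, ?_, ?_⟩
  · have e1 := hom.corA z₀
    rw [← s59f_topEquiv_apply, ← s59f_topEquiv_apply] at e1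
    rw [← tr, ← e1, ← map_sub]
    exact (s59f_equiv_mem_smul_top E _ _).mpr k1
  · have e1 := hom.corB z₀
    rw [← s59f_topEquiv_apply, ← s59f_topEquiv_apply] at e1
    rw [← tr, ← e1, ← map_sub]
    exact (s59f_equiv_mem_smul_top E _ _).mpr k2

end Main

/-! ### The two leaves on the parts -/

section Parts

variable (𝒪 : Type) [CommRing 𝒪] [IsDomain 𝒪] [IsDiscreteValuationRing 𝒪]
  (p : ℕ) [hp : Fact p.Prime] [CharP (ResidueField 𝒪) p]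
  {N q N' : ℕ} [NeZero N] [hq : Fact q.Prime] (hqN : ¬ q ∣ N) [NeZero N'] (hN' : N' = N * q)
  (hG' : s59f_IsG' N q (⊤ : Subgroup (ZMod N)ˣ)
    (s48h_GammaH N' (⊤ : Subgroup (ZMod N')ˣ)))
  (e : SL(2, ℤ)) (he' : e ∈ Gamma0 N')
  (hee : s59f_gW hqN * e * e ∈ s48h_GammaH N' (⊤ : Subgroup (ZMod N')ˣ))
  {ε : Module.End 𝒪 (s48h_Hpar 𝒪 (s48h_GammaH N (⊤ : Subgroup (ZMod N)ˣ)) 𝒪)}
  {ε' : Module.End 𝒪 (s48h_Hpar 𝒪 (s48h_GammaH N' (⊤ : Subgroup (ZMod N')ˣ)) 𝒪)}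
  (hc : (s59f_oldN hqN hN' hG' 𝒪 𝒪 e he' hee).Compat ε ε')

/-- **(T4) at the base of the Taylor–Wiles chain**: Ihara modulo `𝔪` on the `ε`-parts of
`H_par(Γ_⊤(N), 𝒪) → H_par(Γ_⊤(N q), 𝒪)`. -/
theorem s59f_ihara_part_top (hpq : p ≠ q) (i : s59w_TIdx N) (hiq : i.ell ≠ q) (hε : ε * ε = ε)
    (hεT : ∀ y, ε (s59w_op (⊤ : Subgroup (ZMod N)ˣ) 𝒪 (Sum.inl i) y) =
      s59w_op (⊤ : Subgroup (ZMod N)ˣ) 𝒪 (Sum.inl i) (ε y))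
    (a : 𝒪) (hu : IsUnit (a ^ 2 - ((i.ell : 𝒪) + 1) ^ 2))
    (hnil : ∃ k : ℕ, ∀ y, ((s59w_op (⊤ : Subgroup (ZMod N)ˣ) 𝒪 (Sum.inl i) -
      a • (1 : Module.End 𝒪 (s48h_Hpar 𝒪 (s48h_GammaH N (⊤ : Subgroup (ZMod N)ˣ)) 𝒪))) ^ k)
        (ε y) ∈ (maximalIdeal 𝒪 • ⊤ :
          Submodule 𝒪 (s48h_Hpar 𝒪 (s48h_GammaH N (⊤ : Subgroup (ZMod N)ˣ)) 𝒪)))
    (x y : s59t_part ε)
    (h : ((s59f_oldN hqN hN' hG' 𝒪 𝒪 e he' hee).restrict hc).resA x +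
        ((s59f_oldN hqN hN' hG' 𝒪 𝒪 e he' hee).restrict hc).resB y ∈
      (maximalIdeal 𝒪 • ⊤ : Submodule 𝒪 (s59t_part ε'))) :
    x ∈ (maximalIdeal 𝒪 • ⊤ : Submodule 𝒪 (s59t_part ε)) ∧
      y ∈ (maximalIdeal 𝒪 • ⊤ : Submodule 𝒪 (s59t_part ε)) := by
  subst hN'
  obtain ⟨k, hk⟩ := hnil
  obtain ⟨hu1, hu2⟩ := s59f_units_of_sq 𝒪 hu
  exact s59f_ihara_part_abs (s59f_oldN hqN rfl hG' 𝒪 𝒪 e he' hee) hc (maximalIdeal 𝒪) hε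
    (s59w_op (⊤ : Subgroup (ZMod N)ˣ) 𝒪 (Sum.inl i))
    (s59w_op (⊤ : Subgroup (ZMod N)ˣ) 𝒪 (Sum.inl i)) hεT hεT a ((i.ell : 𝒪) + 1) a
    ((i.ell : 𝒪) + 1) hu1 hu1 hu2 k k hk hk
    (fun x y hxy => s59f_ihara_top_op 𝒪 p hqN hG' e he' hee hpq i i hiq x y hxy) x y h

/-- **(T5) at the base of the Taylor–Wiles chain**: the dual of Ihara modulo `𝔪` on the `ε`-parts. -/
theorem s59f_dual_part_top [Finite (ResidueField 𝒪)] (hp2 : p ≠ 2) (hqp : q ≠ p)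
    (i : s59w_TIdx N) (hi : ¬ i.ell ∣ N * q * p) (hε : ε * ε = ε)
    (hεT : ∀ y, ε (s59w_op (⊤ : Subgroup (ZMod N)ˣ) 𝒪 (Sum.inl i) y) =
      s59w_op (⊤ : Subgroup (ZMod N)ˣ) 𝒪 (Sum.inl i) (ε y))
    (a : 𝒪) (hu : IsUnit (a ^ 2 - ((i.ell : 𝒪) + 1) ^ 2))
    (hnil : ∃ k : ℕ, ∀ y, ((s59w_op (⊤ : Subgroup (ZMod N)ˣ) 𝒪 (Sum.inl i) -
      a • (1 : Module.End 𝒪 (s48h_Hpar 𝒪 (s48h_GammaH N (⊤ : Subgroup (ZMod N)ˣ)) 𝒪))) ^ k)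
        (ε y) ∈ (maximalIdeal 𝒪 • ⊤ :
          Submodule 𝒪 (s48h_Hpar 𝒪 (s48h_GammaH N (⊤ : Subgroup (ZMod N)ˣ)) 𝒪)))
    (y₁ y₂ : s59t_part ε) :
    ∃ z : s59t_part ε',
      ((s59f_oldN hqN hN' hG' 𝒪 𝒪 e he' hee).restrict hc).corA z - y₁ ∈
        (maximalIdeal 𝒪 • ⊤ : Submodule 𝒪 (s59t_part ε)) ∧
      ((s59f_oldN hqN hN' hG' 𝒪 𝒪 e he' hee).restrict hc).corB z - y₂ ∈
        (maximalIdeal 𝒪 • ⊤ : Submodule 𝒪 (s59t_part ε)) := by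
  subst hN'
  obtain ⟨k, hk⟩ := hnil
  obtain ⟨hu1, hu2⟩ := s59f_units_of_sq 𝒪 hu
  exact s59f_dual_part_abs (s59f_oldN hqN rfl hG' 𝒪 𝒪 e he' hee) hc (maximalIdeal 𝒪) hε
    (s59w_op (⊤ : Subgroup (ZMod N)ˣ) 𝒪 (Sum.inl i)) hεT a ((i.ell : 𝒪) + 1) hu1 hu2 k hk
    (fun y₁ y₂ => s59f_dual_top 𝒪 p hqN hG' e he' hee hp2 hqp i hi y₁ y₂) y₁ y₂

end Parts

end Fermat.Agent.Lib.S59
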