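/-
Programme R (S59), case (P), item [P4-odd] (helper2, prefix `s59b_`): **`[P4]` at a level `N` from `[P4]` at the
level `N q`, through the `q`-old embedding.**

`[P4]` (`s59b_hP4_W`, B9P4W.lean: `(T_p² - 1)` is nilpotent modulo `𝔪` on the `ρ̄_W`-part of `H_par(Γ_⊤(N), 𝒪)`, `W`
multiplicative at `p`) needs the `p`-free level `N` to be GOOD for `p` (`s18_GoodLevel p N`: for `p = 3` this is
`2 ∣ N`), because it goes through the good reduction of `X(N)` at `p`.  For an ODD level `N` (`p = 3`) we import it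
from the even level `N q`, `q = 2`: helper4's old/new package `s59f_oldN` (`⊤ → ⊤`) has
* `resA ∘ T_p = T_p ∘ resA` (`s59f_oldN_compat_wop`),
* `resA ∘ E₀(e₁) = E₀(e₂) ∘ resA` (`s59f_oldN_compat_E0`, needs `q ∈ B`),
* `resA` injective modulo `𝔪` on the `ρ̄_W`-part (Ihara at `q`, `s59f_ihara_part_top` with `y := 0`; `p ≠ q` only).

* `s59b_intertwine_pow`, `s59b_nil_transfer` : the abstract transfer;
* **`s59b_hP4_W_up`** : the conclusion of `s59b_hP4_W` VERBATIM at the level `N`, under `s18_GoodLevel p (N q)`;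
* **`s59b_kerBase_W_mult_up`** : `s59b_kerBase_W_mult` ([P8-base-W], RAISE-`p`: the base kernel pair is `≠ 0`) likewise.
-/
import Mathlib
import Fermat.Agent.Lib.S59.B9P4W
import Fermat.Agent.Lib.S59.FZ3
import Fermat.Agent.Lib.S59.FEps5

set_option autoImplicit false
set_option linter.unusedSectionVars false
set_option linter.unusedVariables false
set_option linter.style.haveILetI false
set_option synthInstance.maxHeartbeats 400000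

noncomputable section

namespace Fermat.Agent.Lib.S59

open Matrix MatrixGroups CongruenceSubgroup IsLocalRing Polynomial CuspForm
open Fermat.Agent.Lib.S29 Fermat.Agent.Lib.S48 Fermat.Agent.Lib.S41 Fermat.Agent.Lib.S44
open Fermat.Agent.Lib.S31 Fermat.Agent.Lib.S18

/-! ### The abstract transfer -/

section Abs

variable {R : Type*} [CommRing R] {Y Z : Type*} [AddCommGroup Y] [Module R Y] [AddCommGroup Z]
  [Module R Z]

/-- an intertwining map intertwines the powers. -/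
theorem s59b_intertwine_pow (f : Y →ₗ[R] Z) (g : Module.End R Y) (g' : Module.End R Z)
    (h : ∀ y, f (g y) = g' (f y)) (m : ℕ) (y : Y) : f ((g ^ m) y) = (g' ^ m) (f y) := by
  induction m generalizing y with
  | zero => rw [pow_zero, pow_zero, Module.End.one_apply, Module.End.one_apply]
  | succ k ih =>
    rw [pow_succ, pow_succ, Module.End.mul_apply, Module.End.mul_apply, ih, h]

/-- **nilpotence of `T² - 1` modulo `I` on an `ε`-part passes down along an equivariant map which is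
injective modulo `I` on the `ε`-part.** -/
theorem s59b_nil_transfer (I : Ideal R) (f : Y →ₗ[R] Z) (ε T : Module.End R Y)
    (ε' T' : Module.End R Z) (hfT : ∀ y, f (T y) = T' (f y)) (hfε : ∀ y, f (ε y) = ε' (f y))
    (hεT : ∀ y, ε (T y) = T (ε y))
    (hinj : ∀ y, f (ε y) ∈ I • (⊤ : Submodule R Z) → ε y ∈ I • (⊤ : Submodule R Y))
    (m : ℕ) (h' : ∀ z, ((T' * T' - 1) ^ m) (ε' z) ∈ I • (⊤ : Submodule R Z)) (y : Y) :
    ((T * T - 1) ^ m) (ε y) ∈ I • (⊤ : Submodule R Y) := by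
  have hg : ∀ y, f ((T * T - 1) y) = (T' * T' - 1) (f y) := by
    intro y
    rw [LinearMap.sub_apply, LinearMap.sub_apply, Module.End.mul_apply, Module.End.mul_apply,
      Module.End.one_apply, Module.End.one_apply, map_sub, hfT, hfT]
  have hεg : ∀ y, ε ((T * T - 1) y) = (T * T - 1) (ε y) := by
    intro y
    rw [LinearMap.sub_apply, LinearMap.sub_apply, Module.End.mul_apply, Module.End.mul_apply,
      Module.End.one_apply, Module.End.one_apply, map_sub, hεT, hεT]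
  have hεP : ε (((T * T - 1) ^ m) y) = ((T * T - 1) ^ m) (ε y) :=
    s59b_intertwine_pow ε _ _ hεg m y
  rw [← hεP]
  apply hinj
  rw [hεP, s59b_intertwine_pow f _ _ hg m, hfε]
  exact h' (f y)

end Abs

/-! ### `[P4]` one level up -/

section Up

variable (W : WeierstrassCurve ℤ) (hΔ : W.Δ ≠ 0) (p : ℕ) [Fact p.Prime] (hp2 : p ≠ 2)
  (hirr : W.ModRepIsIrreducible p) (hss : W.IsSemistableModel) (hmult : ¬ W.IsGoodPrimeFor p)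
  (N : ℕ) [NeZero N] (q : ℕ) [hq : Fact q.Prime] (hqN : ¬ q ∣ N) (hpq : p ≠ q)
  [NeZero (N * q)] (hsq' : Squarefree (N * q)) (hgood' : s18_GoodLevel p (N * q))
  (B : Finset ℕ) (hpB : p ∈ B) (hqB : q ∈ B) (hNB : ∀ r : ℕ, r.Prime → r ∣ N → r ∈ B)
  (hB2 : ∀ r : ℕ, r.Prime → ¬ W.IsGoodPrimeFor r → r ∈ B)
  (hocc' : s44i_LevelOcc (N * q) p (fun ℓ => W.apOfModel ℓ) B)
  {𝒪 : Type} [CommRing 𝒪] [IsDomain 𝒪] [IsDiscreteValuationRing 𝒪]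
  [IsAdicComplete (maximalIdeal 𝒪) 𝒪] [Finite (ResidueField 𝒪)] [CharZero 𝒪] [Algebra ℤ_[p] 𝒪]
  (hp𝒪 : ((p : ℕ) : 𝒪) ∈ maximalIdeal 𝒪) (hp12 : s59e_auxTors p N)
  (habs : (((s59b_rhoW W p hΔ).baseChangeAlong (algebraMap ℤ_[p] 𝒪)
    (s59b_isLocalHom_padic p _ hp𝒪)).residual).IsAbsolutelyIrreducible)

include hp2 hirr hss hmult hqN hpq hsq' hgood' hpB hqB hNB hB2 hocc' hp12 habs in
set_option maxHeartbeats 1600000 in
/-- **`[P4]` at the level `N` from the level `N q`** (the conclusion of `s59b_hP4_W` verbatim). -/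
theorem s59b_hP4_W_up :
    ∀ e₁ : MvPolynomial ↥(s59t_goodB N B) 𝒪, s59b_BaseW W N B 𝒪 e₁ →
      ∀ ip : s59w_TIdx N, ip.ell = p →
      ∃ m : ℕ, ∀ y, ((s59w_op (⊤ : Subgroup (ZMod N)ˣ) 𝒪 (Sum.inl ip) *
          s59w_op (⊤ : Subgroup (ZMod N)ˣ) 𝒪 (Sum.inl ip) - 1) ^ m)
        (s59t_E0 (⊤ : Subgroup (ZMod N)ˣ) B e₁ y) ∈ (maximalIdeal 𝒪 • ⊤ :
          Submodule 𝒪 (s48h_Hpar 𝒪 (s48h_GammaH N (⊤ : Subgroup (ZMod N)ˣ)) 𝒪)) := by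
  intro e₁ hB₁ ip hip
  classical
  haveI : CharP (ResidueField 𝒪) p := s59e_charP_residue p hp𝒪
  have hpP : p.Prime := Fact.out
  have hqP : q.Prime := hq.out
  -- the base package one level up
  have hNB' : ∀ r : ℕ, r.Prime → r ∣ N * q → r ∈ B := by
    intro r hr h
    rcases (Nat.Prime.dvd_mul hr).mp h with h | h
    · exact hNB r hr h
    · rw [(Nat.prime_dvd_prime_iff_eq hr hqP).mp h]
      exact hqB
  have hnegH : (-1 : (ZMod (N * q))ˣ) ∈ (⊤ : Subgroup (ZMod (N * q))ˣ) := Subgroup.mem_top _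
  have hH : ∀ u : (ZMod (N * q))ˣ, ∃ k : ℕ, u ^ (p ^ k) ∈ (⊤ : Subgroup (ZMod (N * q))ˣ) :=
    fun u => ⟨0, Subgroup.mem_top _⟩
  have hp12' : s59e_auxTors p (N * q) := s59e_auxTors_mono (Dvd.intro _ rfl) hp12
  have hpk := s59e_W_base_pkg W hΔ p hirr (N * q) hsq' B hocc' (𝒪 := 𝒪) hp𝒪
      (⊤ : Subgroup (ZMod (N * q))ˣ) hnegH hH hp12'
  obtain ⟨e₂, h1e₂, hunit₂, hid₂, hne₂, hnil₂, -, -, -, hP3₂⟩ := hpk
  have hB₂ : s59b_BaseW W (N * q) B 𝒪 e₂ := by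
    refine ⟨h1e₂, ?_, hid₂, hne₂, hnil₂, hP3₂⟩
    intro t ht
    obtain ⟨η, h1, -⟩ := hunit₂ t ht
    exact ⟨η, h1⟩
  -- `[P4]` one level up
  have hpNq : ¬ p ∣ N * q := hgood'.1
  have hexσ := s48h_exists_sigma_p (M := N * q) hpNq
  obtain ⟨σp, hσp, hσp11⟩ := hexσ
  obtain ⟨ip', hip'⟩ : ∃ ip' : s59w_TIdx (N * q), ip'.ell = p :=
    ⟨⟨p, hpP, hpNq, σp, hσp, hσp11⟩, rfl⟩
  have hP4' := s59b_hP4_W W hΔ p hp2 hirr hss hmult (N * q) hgood' B hpB hNB' hB2 (𝒪 := 𝒪) hp𝒪 habs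
    e₂ hB₂ ip' hip'
  obtain ⟨m, hm⟩ := hP4'
  refine ⟨m, ?_⟩
  -- the package
  have hG' : s59f_IsG' N q (⊤ : Subgroup (ZMod N)ˣ)
      (s48h_GammaH (N * q) (⊤ : Subgroup (ZMod (N * q))ˣ)) := s59f_isG'_top hqN
  have he' : (1 : SL(2, ℤ)) ∈ Gamma0 (N * q) := one_mem _
  have hee : s59f_gW hqN * 1 * 1 ∈ s48h_GammaH (N * q) (⊤ : Subgroup (ZMod (N * q))ˣ) := by
    rw [mul_one, mul_one]
    exact s59t_mem_GammaH_top (N * q) (⟨s59f_gW hqN, s59f_gW_mem hqN⟩ : Gamma0 (N * q))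
  have hB₁' := hB₁
  unfold s59b_BaseW at hB₁'
  obtain ⟨h1e₁, -, hid₁, hne₁, hnil₁, -⟩ := hB₁'
  have hcb := s59f_oldN_compat_E0 hqN rfl hG' 1 he' hee B (fun ℓ => W.apOfModel ℓ) hqB
    e₂ h1e₂ hid₂ hnil₂ e₁ h1e₁ hid₁ hnil₁
  -- `T_p` at the two levels
  have hcT := s59f_oldN_compat_wop (R := 𝒪) hqN rfl hG' 1 he' hee (Dvd.intro q rfl)
    (dvd_refl (N * q)) (Sum.inl ip')
  have hT' : s59w_op (⊤ : Subgroup (ZMod (N * q))ˣ) 𝒪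
      (s59t_AIdx_down (dvd_refl (N * q)) (Sum.inl ip')) =
      s59w_op (⊤ : Subgroup (ZMod (N * q))ˣ) 𝒪 (Sum.inl ip') := by
    rw [s59t_AIdx_down_self]
  have hT : s59w_op (⊤ : Subgroup (ZMod N)ˣ) 𝒪
      (s59t_AIdx_down (Dvd.intro q rfl : N ∣ N * q) (Sum.inl ip')) =
      s59w_op (⊤ : Subgroup (ZMod N)ˣ) 𝒪 (Sum.inl ip) :=
    s59e_op_inl_congr (⊤ : Subgroup (ZMod N)ˣ) 𝒪 (hip'.trans hip.symm)
  rw [hT, hT'] at hcT
  -- the non-Eisenstein index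
  have hexi := s59u_W_exists_nonEis_idx W hΔ p hp2 hirr (𝒪 := 𝒪) hp𝒪 B N
  obtain ⟨i, hiB, hu⟩ := hexi
  have hiq : i.ell ≠ q := fun h => hiB (h ▸ hqB)
  have hεT : ∀ (j : s59w_AIdx N) (y), s59t_E0 (⊤ : Subgroup (ZMod N)ˣ) B e₁
      (s59w_op (⊤ : Subgroup (ZMod N)ˣ) 𝒪 j y) =
      s59w_op (⊤ : Subgroup (ZMod N)ˣ) 𝒪 j (s59t_E0 (⊤ : Subgroup (ZMod N)ˣ) B e₁ y) := by
    intro j y
    have h := LinearMap.congr_fun (s59e_E0_comm_op (⊤ : Subgroup (ZMod N)ˣ) B e₁ j) y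
    rw [Module.End.mul_apply, Module.End.mul_apply] at h
    exact h
  have hnil_i := hnil₁ (Sum.inl i) (s59t_inl_mem_goodB (Bset := B) i hiB)
  -- injectivity modulo `𝔪` on the part
  have hinj : ∀ y, (s59f_oldN hqN rfl hG' 𝒪 𝒪 1 he' hee).resA
      (s59t_E0 (⊤ : Subgroup (ZMod N)ˣ) B e₁ y) ∈ (maximalIdeal 𝒪 • ⊤ : Submodule 𝒪
        (s48h_Hpar 𝒪 (s48h_GammaH (N * q) (⊤ : Subgroup (ZMod (N * q))ˣ)) 𝒪)) →
      s59t_E0 (⊤ : Subgroup (ZMod N)ˣ) B e₁ y ∈ (maximalIdeal 𝒪 • ⊤ : Submodule 𝒪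
        (s48h_Hpar 𝒪 (s48h_GammaH N (⊤ : Subgroup (ZMod N)ˣ)) 𝒪)) := by
    intro y hy
    let x : s59t_part (s59t_E0 (⊤ : Subgroup (ZMod N)ˣ) B e₁) :=
      ⟨s59t_E0 (⊤ : Subgroup (ZMod N)ˣ) B e₁ y, ⟨y, rfl⟩⟩
    have h0 : ((s59f_oldN hqN rfl hG' 𝒪 𝒪 1 he' hee).restrict hcb).resA x +
        ((s59f_oldN hqN rfl hG' 𝒪 𝒪 1 he' hee).restrict hcb).resB 0 ∈
        (maximalIdeal 𝒪 • ⊤ : Submodule 𝒪 (s59t_part (s59t_E0
          (⊤ : Subgroup (ZMod (N * q))ˣ) B e₂))) := by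
      rw [map_zero, add_zero, s59t_part_smul_top_iff (maximalIdeal 𝒪) hid₂]
      exact hy
    have h1 := s59f_ihara_part_top 𝒪 p hqN rfl hG' 1 he' hee hcb hpq i hiq hid₁
      (hεT (Sum.inl i)) (((W.apOfModel i.ell : ℤ) : 𝒪)) hu hnil_i x 0 h0
    exact (s59t_part_smul_top_iff (maximalIdeal 𝒪) hid₁ x).mp h1.1
  intro y
  exact s59b_nil_transfer (maximalIdeal 𝒪) (s59f_oldN hqN rfl hG' 𝒪 𝒪 1 he' hee).resA
    (s59t_E0 (⊤ : Subgroup (ZMod N)ˣ) B e₁) (s59w_op (⊤ : Subgroup (ZMod N)ˣ) 𝒪 (Sum.inl ip))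
    (s59t_E0 (⊤ : Subgroup (ZMod (N * q))ˣ) B e₂)
    (s59w_op (⊤ : Subgroup (ZMod (N * q))ˣ) 𝒪 (Sum.inl ip'))
    (fun y => (hcT.resA y).symm) (fun y => (hcb.resA y).symm) (hεT (Sum.inl ip)) hinj m hm y

end Up

/-! ### [P8-base-W] with `[P4]` imported from the level `N q` -/

section KerBaseUp

variable (W : WeierstrassCurve ℤ) (hΔ : W.Δ ≠ 0) (p : ℕ) [Fact p.Prime]
  (hirr : W.ModRepIsIrreducible p) (hss : W.IsSemistableModel) (hmult : ¬ W.IsGoodPrimeFor p)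
  (N : ℕ) [NeZero N] (N₂ : ℕ) [NeZero N₂] (hN₂ : N₂ = N * p) (hsq₂ : Squarefree N₂) (hpN : ¬ p ∣ N)
  (q : ℕ) [hq : Fact q.Prime] (hqN : ¬ q ∣ N) (hpq : p ≠ q)
  [NeZero (N * q)] (hsq' : Squarefree (N * q)) (hgood' : s18_GoodLevel p (N * q))
  (B : Finset ℕ) (hpB : p ∈ B) (hqB : q ∈ B) (hNB : ∀ r : ℕ, r.Prime → r ∣ N → r ∈ B)
  (hB2 : ∀ r : ℕ, r.Prime → ¬ W.IsGoodPrimeFor r → r ∈ B)
  (hocc₁ : s44i_LevelOcc N p (fun ℓ => W.apOfModel ℓ) B)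
  (hocc₂ : s44i_LevelOcc N₂ p (fun ℓ => W.apOfModel ℓ) B)
  (hocc' : s44i_LevelOcc (N * q) p (fun ℓ => W.apOfModel ℓ) B)
  {𝒪 : Type} [CommRing 𝒪] [IsDomain 𝒪] [IsDiscreteValuationRing 𝒪]
  [IsAdicComplete (maximalIdeal 𝒪) 𝒪]
  [Finite (ResidueField 𝒪)] [CharZero 𝒪] [Algebra ℤ_[p] 𝒪]
  (hp𝒪 : ((p : ℕ) : 𝒪) ∈ maximalIdeal 𝒪) (hp12 : s59e_auxTors p N)
  (habs : (((s59b_rhoW W p hΔ).baseChangeAlong (algebraMap ℤ_[p] 𝒪)
    (s59b_isLocalHom_padic p _ hp𝒪)).residual).IsAbsolutelyIrreducible)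
  (hGb : s59f_IsG' N p (⊤ : Subgroup (ZMod N)ˣ) (s48h_GammaH N₂ (⊤ : Subgroup (ZMod N₂)ˣ)))
  (e₀ : SL(2, ℤ)) (he'b : e₀ ∈ Gamma0 N₂)
  (heeb : s59f_gW hpN * e₀ * e₀ ∈ s48h_GammaH N₂ (⊤ : Subgroup (ZMod N₂)ˣ))

include hΔ hirr hss hmult hsq₂ hqN hpq hsq' hgood' hocc₁ hocc₂ hocc' hp𝒪 hp12 hN₂ hpB hqB hNB hB2
  habs in
set_option maxHeartbeats 1600000 in
/-- **[P8-base-W] (RAISE-`p`) at a level `N` which need not be good for `p`**: the conclusion of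
`s59b_kerBase_W_mult` verbatim, with `s18_GoodLevel p N` replaced by `s18_GoodLevel p (N q)` for an
auxiliary prime `q ∈ B`, `q ∤ N`, `q ≠ p` (`p = 3`, `N` odd, `q = 2`). -/
theorem Internal.s59b_kerBase_W_mult_up :
    ∃ (e₁ : MvPolynomial ↥(s59t_goodB N B) 𝒪) (e₂ : MvPolynomial ↥(s59t_goodB N₂ B) 𝒪),
      s59b_BaseW W N B 𝒪 e₁ ∧ s59b_BaseW W N₂ B 𝒪 e₂ ∧
      ∃ hcb : (s59f_oldN hpN hN₂ hGb 𝒪 𝒪 e₀ he'b heeb).Compat
          (s59t_E0 (⊤ : Subgroup (ZMod N)ˣ) B e₁) (s59t_E0 (⊤ : Subgroup (ZMod N₂)ˣ) B e₂),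
        (∀ y₁ y₂ : s59t_part (s59t_E0 (⊤ : Subgroup (ZMod N)ˣ) B e₁),
          ∃ z : s59t_part (s59t_E0 (⊤ : Subgroup (ZMod N₂)ˣ) B e₂),
            ((s59f_oldN hpN hN₂ hGb 𝒪 𝒪 e₀ he'b heeb).restrict hcb).corA z = y₁ ∧
            ((s59f_oldN hpN hN₂ hGb 𝒪 𝒪 e₀ he'b heeb).restrict hcb).corB z = y₂) ∧
        ∃ z : s59t_part (s59t_E0 (⊤ : Subgroup (ZMod N₂)ˣ) B e₂), z ≠ 0 ∧
          ((s59f_oldN hpN hN₂ hGb 𝒪 𝒪 e₀ he'b heeb).restrict hcb).corA z = 0 ∧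
          ((s59f_oldN hpN hN₂ hGb 𝒪 𝒪 e₀ he'b heeb).restrict hcb).corB z = 0 := by
  have hp2 : p ≠ 2 := s59e_auxTors_ne_two hp12
  have hP4 := s59b_hP4_W_up W hΔ p hp2 hirr hss hmult N q hqN hpq hsq' hgood' B hpB hqB hNB hB2
    hocc' (𝒪 := 𝒪) hp𝒪 hp12 habs
  exact s59b_kerBase_W W hΔ p hirr N N₂ hN₂ hsq₂ hpN B hpB hNB hocc₁ hocc₂ hp𝒪 hp12 hGb e₀ he'b heeb
    hP4

export Internal (s59b_kerBase_W_mult_up)

end KerBaseUp

end Fermat.Agent.Lib.S59
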