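/-
PROGRAMME R2 = S59, node [FLR] "FAMILY LEVEL RAISING" — contract graph (helper4, prefix `s59f_`;
companion of `PGraph.lean`).  Pure commutative algebra in the interface: no Galois theory, no
coefficient ring, no power series.

WHAT IT IS FOR.  In [LIFT] the form produced by [LOWER] is unramified at the primes
`q₁, …, q_k ∣ Δ_W` at which `ρ̄` is unramified, whereas `ρ_W` is Steinberg there.  With the honest
local condition "unipotent inertia" at the `q_t` the patched ring `A = R_∞` has the components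
`C_I` (`I ⊂ {1..k}` = the set of primes where the deformation is Steinberg); the form lives on
`C_∅`, `ρ_W` on `C_{1..k}`.  [FLR] climbs from `C_∅` to `C_{1..k}` one prime at a time, by Ribet's
Gram-determinant argument run at a height-one prime of the PATCHED ring.

THE OBJECTS (all at the patched level, `J = ⊥`; `s59p_Level` is the level of `PGraph.lean`).
  `LH t`  = the patched FULL Hecke module of level `N_t = M q₁ ⋯ q_t`              (`t = 0..k`),
  `LQ t`  = the patched `q_{t+1}`-NEW QUOTIENT of level `N_{t+1}`                  (`t = 0..k-1`),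
  `s59f_Raise (LH t) (LH (t+1)) (LQ t) G` = the A-linear degeneracy maps
      `i : N_t × N_t → N_{t+1}`,  `tr : N_{t+1} → N_t × N_t`,  `pr : N_{t+1} → NQ_t`
      with `pr` onto, `ker pr = range i`, `tr` onto and `tr ∘ i = G` (the Gram matrix
      `G = (q+1, T_q; T_q, q+1)`, entries in `A`), `δ = det G`.
  `𝔎 t`   = the prime of `A` cutting out the component "Steinberg at `q₁..q_t`, unramified at
      `q_{t+1}..q_k`".

NODES.
  [F-STEP]  (`s59f_step`, PROVED here)  `Ann N_t ≤ 𝔎 t`  ⇒  `Ann N_{t+1} ≤ 𝔎 (t+1)`, from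
      `s59f_Raise`, `𝔫 t ≤ rad Ann NQ_t` (local–global at `q_{t+1}` for new forms: (F5)), and the
      ring hypotheses (R2), (R3) below.  Uses [PM2] for the level `LQ t` and the Gram lemma
      `s59f_gram_mem` (`𝔔 ∈ Supp N`, `det G ∈ 𝔔` ⇒ `𝔔 ∈ Supp (N² / G N²)`).
  [F-CHAIN] (`s59f_chain`, PROVED here) the induction over `t`, base case by [PM3A′].
  [F-PT]    (`s59f_points`, PROVED here) `Ann N_k ≤ 𝔎 k` ⇒ every prime of `R_k` lying on the
      component `𝔎 k` is in the support of `M_k` ("`ρ_W` is modular of level `N_k`").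
  [F-RING]  (`s59f_RingData`, a contract on `A`, to be proved for the explicit local rings):
      (R1) `dim A ≤ dim S`, `𝔎 0` prime, `dim A/𝔎 0 ≤ dim S`;
      (R2) for every step a WITNESS prime `𝔔 t ⊇ 𝔎 t` with `δ t = det (G t) ∈ 𝔔 t` (e.g. the generic
           point of the intersection of the unramified and the Steinberg branch at `q_{t+1}`);
      (R3) the only minimal prime of `A` below `𝔔 t` containing the ideal `𝔫 t` ("new at
           `q_{t+1}`": it kills `NQ_t` up to radical) is `𝔎 (t+1)`.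
  [F-PM1]   (`s59f_FPM1`, a contract, = [PM1] for a chain of levels WITH the maps `i, tr, pr`):
      levels with `s59f_Raise` for every `n` ⇒ limit levels (along ONE subsequence) with
      `s59f_Raise`.  To be proved by carrying matrices of `i, tr, pr` in the profiles of `PSelect`.
  FINITE LEVEL (the `T`-side, in `s59f_Raise` form for every `n`): (F1) Ihara ⇒ `NQ` is free over
      `S/J_n` (Nakayama from main's `Γ₀`-level Ihara), (F2) `tr` onto, (F3) `tr ∘ i = G`, (F5).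
-/
import Mathlib
import Fermat.Agent.Lib.S59.PSupp2

set_option autoImplicit false
set_option linter.style.haveILetI false

namespace Fermat.Agent.Lib.S59

open IsLocalRing

/-- **the Gram lemma.**  `N` a finite `A`-module in whose support the prime `𝔔` lies, `G` a
`2 × 2` matrix over `A` with `det G ∈ 𝔔`.  If `a • (N × N) ⊆ G (N × N)` then `a ∈ 𝔔`
(i.e. `𝔔 ∈ Supp (N² / G N²)`). -/
theorem s59f_gram_mem {A N : Type*} [CommRing A] [AddCommGroup N] [Module A N]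
    [Module.Finite A N] (𝔔 : Ideal A) [h𝔔 : 𝔔.IsPrime]
    (hN : Module.annihilator A N ≤ 𝔔) (g11 g12 g21 g22 a : A)
    (hδ : g11 * g22 - g12 * g21 ∈ 𝔔)
    (ha : ∀ x y : N, ∃ u v : N, a • x = g11 • u + g12 • v ∧ a • y = g21 • u + g22 • v) :
    a ∈ 𝔔 := by
  -- the determinant trick in the form: `b N ⊆ 𝔔 N ⇒ b ∈ 𝔔`.
  have key : ∀ b : A, (∀ x : N, b • x ∈ 𝔔 • (⊤ : Submodule A N)) → b ∈ 𝔔 := by
    intro b hb
    obtain ⟨n, hn⟩ := s59p_pow_mem_of_smul_le 𝔔 b hb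
    have h1 : Module.annihilator A N ⊔ 𝔔 = 𝔔 := sup_eq_right.mpr hN
    rw [h1] at hn
    exact h𝔔.mem_of_pow_mem n hn
  set δ := g11 * g22 - g12 * g21 with hδdef
  -- `a g_{kl} N ⊆ δ N`
  have h22 : ∀ x : N, (a * g22) • x ∈ 𝔔 • (⊤ : Submodule A N) := by
    intro x
    obtain ⟨u, v, h1, h2⟩ := ha x 0
    have e : (a * g22) • x = δ • u := by
      have e1 : g22 • (a • x) - g12 • (a • (0 : N)) = δ • u := by
        rw [h1, h2, hδdef]
        simp only [smul_add, smul_smul, sub_smul]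
        rw [mul_comm g22 g11, mul_comm g22 g12]
        abel
      rw [smul_zero, smul_zero, sub_zero, smul_smul, mul_comm] at e1
      exact e1
    rw [e]
    exact Submodule.smul_mem_smul hδ Submodule.mem_top
  have h21 : ∀ x : N, (a * g21) • x ∈ 𝔔 • (⊤ : Submodule A N) := by
    intro x
    obtain ⟨u, v, h1, h2⟩ := ha x 0
    have e : (a * g21) • x = -(δ • v) := by
      have e1 : g21 • (a • x) - g11 • (a • (0 : N)) = -(δ • v) := by
        rw [h1, h2, hδdef]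
        simp only [smul_add, smul_smul, sub_smul]
        rw [mul_comm g21 g11, mul_comm g11 g22, mul_comm g21 g12]
        abel
      rw [smul_zero, smul_zero, sub_zero, smul_smul, mul_comm] at e1
      exact e1
    rw [e]
    exact Submodule.neg_mem _ (Submodule.smul_mem_smul hδ Submodule.mem_top)
  have h12 : ∀ y : N, (a * g12) • y ∈ 𝔔 • (⊤ : Submodule A N) := by
    intro y
    obtain ⟨u, v, h1, h2⟩ := ha 0 y
    have e : (a * g12) • y = -(δ • u) := by
      have e1 : g12 • (a • y) - g22 • (a • (0 : N)) = -(δ • u) := by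
        rw [h1, h2, hδdef]
        simp only [smul_add, smul_smul, sub_smul]
        rw [mul_comm g22 g11, mul_comm g22 g12, mul_comm g12 g22]
        abel
      rw [smul_zero, smul_zero, sub_zero, smul_smul, mul_comm] at e1
      exact e1
    rw [e]
    exact Submodule.neg_mem _ (Submodule.smul_mem_smul hδ Submodule.mem_top)
  have h11 : ∀ y : N, (a * g11) • y ∈ 𝔔 • (⊤ : Submodule A N) := by
    intro y
    obtain ⟨u, v, h1, h2⟩ := ha 0 y
    have e : (a * g11) • y = δ • v := by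
      have e1 : g11 • (a • y) - g21 • (a • (0 : N)) = δ • v := by
        rw [h1, h2, hδdef]
        simp only [smul_add, smul_smul, sub_smul]
        rw [mul_comm g21 g11, mul_comm g21 g12]
        abel
      rw [smul_zero, smul_zero, sub_zero, smul_smul, mul_comm] at e1
      exact e1
    rw [e]
    exact Submodule.smul_mem_smul hδ Submodule.mem_top
  by_contra hna
  have hent : ∀ g : A, (∀ x : N, (a * g) • x ∈ 𝔔 • (⊤ : Submodule A N)) → g ∈ 𝔔 := by
    intro g hg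
    rcases h𝔔.mem_or_mem (key (a * g) hg) with h | h
    · exact absurd h hna
    · exact h
  have e11 := hent g11 h11
  have e12 := hent g12 h12
  have e21 := hent g21 h21
  have e22 := hent g22 h22
  -- all entries in `𝔔`: `a N ⊆ 𝔔 N`
  refine hna (key a fun x => ?_)
  obtain ⟨u, v, h1, -⟩ := ha x 0
  rw [h1]
  exact Submodule.add_mem _ (Submodule.smul_mem_smul e11 Submodule.mem_top)
    (Submodule.smul_mem_smul e12 Submodule.mem_top)

/-- the degeneracy package between two consecutive patched modules and the new quotient: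
`i : N × N → N'`, `tr : N' → N × N`, `pr : N' → NQ`, all `A`-linear, `pr` onto with kernel
`range i`, `tr` onto, `tr ∘ i = G`. -/
structure s59f_Raise {S : Type} [CommRing S] {A : Type} [CommRing A]
    {R : Type} [CommRing R] {M : Type} [AddCommGroup M] [Module R M]
    {R' : Type} [CommRing R'] {M' : Type} [AddCommGroup M'] [Module R' M']
    {RQ : Type} [CommRing RQ] {MQ : Type} [AddCommGroup MQ] [Module RQ MQ]
    {𝔞 J : Ideal S}
    (LH : s59p_Level S A R M 𝔞 J) (LH' : s59p_Level S A R' M' 𝔞 J)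
    (LQ : s59p_Level S A RQ MQ 𝔞 J) (g11 g12 g21 g22 : A) : Prop where
  ex : ∃ (i : LH.N × LH.N →ₗ[A] LH'.N) (tr : LH'.N →ₗ[A] LH.N × LH.N) (pr : LH'.N →ₗ[A] LQ.N),
    Function.Surjective pr ∧ (∀ z : LH'.N, pr z = 0 ↔ z ∈ LinearMap.range i) ∧
    Function.Surjective tr ∧
    ∀ u v : LH.N, tr (i (u, v)) = (g11 • u + g12 • v, g21 • u + g22 • v)

section step

variable {S : Type} [CommRing S] {A : Type} [CommRing A]
  {R : Type} [CommRing R] {M : Type} [AddCommGroup M] [Module R M]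
  {R' : Type} [CommRing R'] {M' : Type} [AddCommGroup M'] [Module R' M']
  {RQ : Type} [CommRing RQ] {MQ : Type} [AddCommGroup MQ] [Module RQ MQ]
  {𝔞 J : Ideal S}
  {LH : s59p_Level S A R M 𝔞 J} {LH' : s59p_Level S A R' M' 𝔞 J}
  {LQ : s59p_Level S A RQ MQ 𝔞 J} {g11 g12 g21 g22 : A}

/-- `Supp NQ ⊆ Supp N'`. -/
theorem s59f_ann_le (h : s59f_Raise LH LH' LQ g11 g12 g21 g22) :
    Module.annihilator A LH'.N ≤ Module.annihilator A LQ.N := by
  obtain ⟨i, tr, pr, hpr, -, -, -⟩ := h.ex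
  intro a ha
  rw [Module.mem_annihilator] at ha ⊢
  intro y
  obtain ⟨z, rfl⟩ := hpr y
  rw [← map_smul, ha z, map_zero]

/-- `N² / G N²` is a quotient of `NQ`: an element killing `NQ` maps `N²` into `G N²`. -/
theorem s59f_omega (h : s59f_Raise LH LH' LQ g11 g12 g21 g22) (a : A)
    (ha : a ∈ Module.annihilator A LQ.N) (x y : LH.N) :
    ∃ u v : LH.N, a • x = g11 • u + g12 • v ∧ a • y = g21 • u + g22 • v := by
  obtain ⟨i, tr, pr, -, hker, htr, hG⟩ := h.ex
  obtain ⟨z, hz⟩ := htr (x, y)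
  have h1 : pr (a • z) = 0 := by
    rw [map_smul, (Module.mem_annihilator.mp ha) (pr z)]
  obtain ⟨⟨u, v⟩, huv⟩ := (hker (a • z)).mp h1
  refine ⟨u, v, ?_, ?_⟩
  · have := congrArg Prod.fst (hG u v)
    rw [huv, map_smul, hz] at this
    exact this
  · have := congrArg Prod.snd (hG u v)
    rw [huv, map_smul, hz] at this
    exact this

end step

/-- **[F-STEP]** one step of family level raising.  `𝔫` = an ideal killing the new quotient up to
radical (it contains the Gram determinant on the Steinberg branch), `𝔔` = a witness prime on the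
component `𝔎` at which the Gram determinant vanishes (e.g. the generic point of the intersection of
the two branches). -/
theorem s59f_step (S : Type) [CommRing S] [IsDomain S] [IsLocalRing S] [IsNoetherianRing S]
    (A : Type) [CommRing A] [IsNoetherianRing A]
    (R : Type) [CommRing R] (M : Type) [AddCommGroup M] [Module R M]
    (R' : Type) [CommRing R'] (M' : Type) [AddCommGroup M'] [Module R' M']
    (RQ : Type) [CommRing RQ] (MQ : Type) [AddCommGroup MQ] [Module RQ MQ]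
    (𝔞 : Ideal S)
    (LH : s59p_Level S A R M 𝔞 ⊥) (LH' : s59p_Level S A R' M' 𝔞 ⊥)
    (LQ : s59p_Level S A RQ MQ 𝔞 ⊥) (g11 g12 g21 g22 : A)
    (hR : s59f_Raise LH LH' LQ g11 g12 g21 g22)
    (hdimA : ringKrullDim A ≤ ringKrullDim S)
    (𝔫 : Ideal A) (h𝔫 : 𝔫 ≤ (Module.annihilator A LQ.N).radical)
    (𝔎 𝔎' : Ideal A) (h𝔎 : Module.annihilator A LH.N ≤ 𝔎)
    (𝔔 : Ideal A) [h𝔔 : 𝔔.IsPrime] (h𝔎𝔔 : 𝔎 ≤ 𝔔) (hδ𝔔 : g11 * g22 - g12 * g21 ∈ 𝔔)
    (hR3 : ∀ 𝔓 ∈ minimalPrimes A, 𝔓 ≤ 𝔔 → 𝔫 ≤ 𝔓 → 𝔓 = 𝔎') :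
    Module.annihilator A LH'.N ≤ 𝔎' := by
  -- `𝔔 ∈ Supp NQ`
  have hQ𝔔 : Module.annihilator A LQ.N ≤ 𝔔 := by
    intro a ha
    exact s59f_gram_mem 𝔔 (h𝔎.trans h𝔎𝔔) g11 g12 g21 g22 a hδ𝔔 (s59f_omega hR a ha)
  obtain ⟨𝔓, h𝔓, h𝔓𝔔⟩ := Ideal.exists_minimalPrimes_le hQ𝔔
  have h𝔓min : 𝔓 ∈ minimalPrimes A := (s59p_pm2 S A RQ MQ 𝔞 LQ 𝔓 h𝔓).2.2.2 hdimA
  have h𝔫𝔓 : 𝔫 ≤ 𝔓 :=
    h𝔫.trans ((Ideal.IsPrime.radical_le_iff h𝔓.1.1).mpr h𝔓.1.2)
  have := hR3 𝔓 h𝔓min h𝔓𝔔 h𝔫𝔓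
  rw [← this]
  exact (s59f_ann_le hR).trans h𝔓.1.2

/-- **[F-RING]** the contract on the patched ring: the chain of components `𝔎 0, …, 𝔎 k`, the
Gram determinants `δ t` (`= det (G t)`, the step `t → t+1`), the ideals `𝔫 t` ("new at the
`(t+1)`-st prime") and the witness primes `𝔔 t`. -/
structure s59f_RingData (S : Type) [CommRing S] (A : Type) [CommRing A] (k : ℕ)
    (𝔎 : ℕ → Ideal A) (δ : ℕ → A) (𝔫 : ℕ → Ideal A) : Prop where
  dimA : ringKrullDim A ≤ ringKrullDim S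
  prime0 : (𝔎 0).IsPrime
  dim0 : ringKrullDim (A ⧸ 𝔎 0) ≤ ringKrullDim S
  wit : ∀ t < k, ∃ 𝔔 : Ideal A, 𝔔.IsPrime ∧ 𝔎 t ≤ 𝔔 ∧ δ t ∈ 𝔔 ∧
    ∀ 𝔓 ∈ minimalPrimes A, 𝔓 ≤ 𝔔 → 𝔫 t ≤ 𝔓 → 𝔓 = 𝔎 (t + 1)

/-- **[F-CHAIN]** family level raising along a chain of `k` primes: if the level-`0` module lives
on the component `𝔎 0` then the level-`t` module has the component `𝔎 t` in its support. -/
theorem s59f_chain (S : Type) [CommRing S] [IsDomain S] [IsLocalRing S] [IsNoetherianRing S]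
    (A : Type) [CommRing A] [IsNoetherianRing A] (𝔞 : Ideal S) (k : ℕ)
    (R : ℕ → Type) [∀ t, CommRing (R t)] (M : ℕ → Type) [∀ t, AddCommGroup (M t)]
    [∀ t, Module (R t) (M t)]
    (RQ : ℕ → Type) [∀ t, CommRing (RQ t)] (MQ : ℕ → Type) [∀ t, AddCommGroup (MQ t)]
    [∀ t, Module (RQ t) (MQ t)]
    (LH : ∀ t, s59p_Level S A (R t) (M t) 𝔞 ⊥) (LQ : ∀ t, s59p_Level S A (RQ t) (MQ t) 𝔞 ⊥)
    (g11 g12 g21 g22 : ℕ → A) (𝔎 𝔫 : ℕ → Ideal A)
    (hring : s59f_RingData S A k 𝔎 (fun t => g11 t * g22 t - g12 t * g21 t) 𝔫)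
    (hraise : ∀ t < k, s59f_Raise (LH t) (LH (t + 1)) (LQ t) (g11 t) (g12 t) (g21 t) (g22 t))
    (h𝔫 : ∀ t < k, 𝔫 t ≤ (Module.annihilator A (LQ t).N).radical)
    [Nontrivial (M 0)] (h0 : 𝔎 0 ≤ Module.annihilator A (LH 0).N) :
    ∀ t ≤ k, Module.annihilator A (LH t).N ≤ 𝔎 t := by
  intro t
  induction t with
  | zero =>
    intro _
    haveI := hring.prime0
    exact (s59p_pm3A' S A (R 0) (M 0) 𝔞 (LH 0) (𝔎 0) h0 hring.dim0).le
  | succ t ih =>
    intro ht
    have htk : t < k := ht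
    obtain ⟨𝔔, h𝔔, h𝔎𝔔, hδ𝔔, hcl⟩ := hring.wit t htk
    exact s59f_step S A (R t) (M t) (R (t + 1)) (M (t + 1)) (RQ t) (MQ t) 𝔞 (LH t) (LH (t + 1))
      (LQ t) (g11 t) (g12 t) (g21 t) (g22 t) (hraise t htk) hring.dimA (𝔫 t) (h𝔫 t htk) (𝔎 t)
      (𝔎 (t + 1)) (ih htk.le) 𝔔 h𝔎𝔔 hδ𝔔 hcl

/-- **[F-PT]** every prime of `R` lying on a component in the support of `N` is in the support
of `M`. -/
theorem s59f_points {S : Type} [CommRing S] {A : Type} [CommRing A]
    {R : Type} [CommRing R] {M : Type} [AddCommGroup M] [Module R M] {𝔞 J : Ideal S}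
    (L : s59p_Level S A R M 𝔞 J) (𝔎 : Ideal A) (h𝔎 : Module.annihilator A L.N ≤ 𝔎)
    (𝔭 : Ideal R) [h𝔭 : 𝔭.IsPrime] (hle : 𝔎 ≤ Ideal.comap L.ψ 𝔭) :
    Module.annihilator R M ≤ 𝔭 := by
  intro r hr
  obtain ⟨a, rfl⟩ := L.ψ_surjective r
  set 𝔵 := Ideal.comap L.ψ 𝔭 with h𝔵
  haveI : 𝔵.IsPrime := Ideal.comap_isPrime L.ψ 𝔭
  -- `a N ⊆ φ(𝔞) N ⊆ 𝔵 N`
  have h1 : ∀ x : L.N, a • x ∈ 𝔵 • (⊤ : Submodule A L.N) := by
    intro x
    have h2 : L.π (a • x) = 0 := by
      rw [L.π_smul, (Module.mem_annihilator.mp hr) (L.π x)]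
    have h3 := (L.ker_π (a • x)).mp h2
    have h4 : 𝔞.map L.φ ≤ 𝔵 := by
      rw [Ideal.map_le_iff_le_comap]
      intro s hs
      rw [Ideal.mem_comap, h𝔵, Ideal.mem_comap, L.ψ_φ s hs]
      exact Ideal.zero_mem _
    exact Submodule.smul_mono_left h4 h3
  obtain ⟨n, hn⟩ := s59p_pow_mem_of_smul_le 𝔵 a h1
  have h5 : Module.annihilator A L.N ⊔ 𝔵 = 𝔵 := sup_eq_right.mpr (h𝔎.trans hle)
  rw [h5] at hn
  have ha : a ∈ 𝔵 := Ideal.IsPrime.mem_of_pow_mem (inferInstance : 𝔵.IsPrime) n hn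
  exact Ideal.mem_comap.mp ha

/-- **[F-PM1]** compactness for a chain of levels with their degeneracy packages: limits along ONE
subsequence.  (Contract; the proof carries the matrices of `i`, `tr`, `pr` in the profiles.) -/
def s59f_FPM1 : Prop :=
  ∀ (S : Type) [CommRing S] [IsLocalRing S] [IsNoetherianRing S]
    [IsAdicComplete (maximalIdeal S) S] [Finite (ResidueField S)]
    (A : Type) [CommRing A] [IsLocalRing A] [IsNoetherianRing A]
    [IsAdicComplete (maximalIdeal A) A] [Finite (ResidueField A)]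
    (𝔞 : Ideal S) (J : ℕ → Ideal S), (∀ n, J n ≤ maximalIdeal S ^ n) →
    ∀ (k : ℕ)
    (R : ℕ → Type) [∀ t, CommRing (R t)] [∀ t, IsLocalRing (R t)] [∀ t, IsNoetherianRing (R t)]
    [∀ t, IsAdicComplete (maximalIdeal (R t)) (R t)]
    (M : ℕ → Type) [∀ t, AddCommGroup (M t)] [∀ t, Module (R t) (M t)]
    [∀ t, Module.Finite (R t) (M t)]
    (RQ : ℕ → Type) [∀ t, CommRing (RQ t)] [∀ t, IsLocalRing (RQ t)]
    [∀ t, IsNoetherianRing (RQ t)] [∀ t, IsAdicComplete (maximalIdeal (RQ t)) (RQ t)]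
    (MQ : ℕ → Type) [∀ t, AddCommGroup (MQ t)] [∀ t, Module (RQ t) (MQ t)]
    [∀ t, Module.Finite (RQ t) (MQ t)]
    (LH : ∀ t n, s59p_Level S A (R t) (M t) 𝔞 (J n))
    (LQ : ∀ t n, s59p_Level S A (RQ t) (MQ t) 𝔞 (J n))
    (d dQ : ℕ → ℕ), (∀ t n, (LH t n).d = d t) → (∀ t n, (LQ t n).d = dQ t) →
    ∀ (g11 g12 g21 g22 : ℕ → A),
    (∀ t < k, ∀ n, s59f_Raise (LH t n) (LH (t + 1) n) (LQ t n) (g11 t) (g12 t) (g21 t) (g22 t)) →
    ∀ (𝔫 : ℕ → Ideal A), (∀ t < k, ∀ n, 𝔫 t ≤ Module.annihilator A (LQ t n).N) →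
    ∀ (𝔎₀ : Ideal A), (∀ n, 𝔎₀ ≤ Module.annihilator A (LH 0 n).N) →
    ∃ (LH' : ∀ t, s59p_Level S A (R t) (M t) 𝔞 ⊥) (LQ' : ∀ t, s59p_Level S A (RQ t) (MQ t) 𝔞 ⊥),
      (∀ t < k, s59f_Raise (LH' t) (LH' (t + 1)) (LQ' t) (g11 t) (g12 t) (g21 t) (g22 t)) ∧
      (∀ t < k, 𝔫 t ≤ Module.annihilator A (LQ' t).N) ∧
      𝔎₀ ≤ Module.annihilator A (LH' 0).N

end Fermat.Agent.Lib.S59
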