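/-
PROGRAMME R2 = S59, node [FLR] (helper4, prefix `s59f_`): **[F-STEP′], [F-CHAIN′] — family level
raising over a FLAT acting ring with the kill property** (the style of `LTol` / `s59p_pm2d'`).

In `FGraph` the acting ring `A` is the honest patched ring (`dim A ≤ dim S`).  The landed machine
uses instead a flat power series ring `A = 𝒫^E` which maps onto every level-`n` framed deformation
ring, a finite family of primes `𝒦 i` (`i ∈ s`: the components of the honest ring, `dim A/𝒦 i ≤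
dim S`) and the KILL property `⋂ 𝒦 i ≤ Ann N` (the relations of the local deformation rings kill the
patched modules).  Here the Gram step and the induction are re-cut in this style:

* `s59f_step'`      : `Ann N_t ≤ 𝔎` + witness prime `𝔔 ⊇ 𝔎` with `det G ∈ 𝔔` + kill property for
                      `NQ_t` + "the only component below `𝔔` containing `𝔫` is `𝒦 i₁`"
                      ⇒ `Ann N_{t+1} ≤ 𝒦 i₁`;
* `s59f_RingData'`  : the contract on `(A, 𝒦)` along a chain of components `c 0, …, c k`;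
* `s59f_chain'`     : the induction, base case by [PM3A′].
-/
import Mathlib
import Fermat.Agent.Lib.S59.FGraph

set_option autoImplicit false
set_option linter.style.haveILetI false

namespace Fermat.Agent.Lib.S59

open IsLocalRing

/-- **[F-STEP′]** one step of family level raising over a flat acting ring with the kill
property. -/
theorem s59f_step' (S : Type) [CommRing S] [IsDomain S] [IsLocalRing S] [IsNoetherianRing S]
    (A : Type) [CommRing A] [IsNoetherianRing A]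
    (R : Type) [CommRing R] (M : Type) [AddCommGroup M] [Module R M]
    (R' : Type) [CommRing R'] (M' : Type) [AddCommGroup M'] [Module R' M']
    (RQ : Type) [CommRing RQ] (MQ : Type) [AddCommGroup MQ] [Module RQ MQ]
    (𝔞 : Ideal S)
    (LH : s59p_Level S A R M 𝔞 ⊥) (LH' : s59p_Level S A R' M' 𝔞 ⊥)
    (LQ : s59p_Level S A RQ MQ 𝔞 ⊥) (g11 g12 g21 g22 : A)
    (hR : s59f_Raise LH LH' LQ g11 g12 g21 g22)
    {ι : Type*} (s : Finset ι) (𝒦 : ι → Ideal A) (h𝒦 : ∀ i ∈ s, (𝒦 i).IsPrime)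
    (hdim : ∀ i ∈ s, ringKrullDim (A ⧸ 𝒦 i) ≤ ringKrullDim S)
    (hkillQ : s.inf 𝒦 ≤ Module.annihilator A LQ.N)
    (𝔫 : Ideal A) (h𝔫 : 𝔫 ≤ (Module.annihilator A LQ.N).radical)
    (𝔎 : Ideal A) (h𝔎 : Module.annihilator A LH.N ≤ 𝔎)
    (𝔔 : Ideal A) [h𝔔 : 𝔔.IsPrime] (h𝔎𝔔 : 𝔎 ≤ 𝔔) (hδ𝔔 : g11 * g22 - g12 * g21 ∈ 𝔔)
    (i₁ : ι) (hR3 : ∀ i ∈ s, 𝒦 i ≤ 𝔔 → 𝔫 ≤ 𝒦 i → i = i₁) :
    Module.annihilator A LH'.N ≤ 𝒦 i₁ := by
  -- `𝔔 ∈ Supp NQ`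
  have hQ𝔔 : Module.annihilator A LQ.N ≤ 𝔔 := by
    intro a ha
    exact s59f_gram_mem 𝔔 (h𝔎.trans h𝔎𝔔) g11 g12 g21 g22 a hδ𝔔 (s59f_omega hR a ha)
  obtain ⟨𝔓, h𝔓, h𝔓𝔔⟩ := Ideal.exists_minimalPrimes_le hQ𝔔
  -- `𝔓` is one of the components
  obtain ⟨i, his, hi⟩ := (h𝔓.1.1.inf_le').mp (hkillQ.trans h𝔓.1.2)
  haveI := h𝒦 i his
  have h2 : 𝔓 ≤ 𝒦 i := s59p_pm2d' S A RQ MQ 𝔞 LQ 𝔓 h𝔓 (𝒦 i) hi (hdim i his)
  have h𝔓eq : 𝔓 = 𝒦 i := le_antisymm h2 hi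
  have h𝔫𝔓 : 𝔫 ≤ 𝔓 :=
    h𝔫.trans ((Ideal.IsPrime.radical_le_iff h𝔓.1.1).mpr h𝔓.1.2)
  have hi1 : i = i₁ := hR3 i his (h𝔓eq ▸ h𝔓𝔔) (h𝔓eq ▸ h𝔫𝔓)
  rw [← hi1, ← h𝔓eq]
  exact (s59f_ann_le hR).trans h𝔓.1.2

/-- **[F-RING′]** the contract on the flat acting ring `A` with its family of component primes
`𝒦 i`, `i ∈ s`, along the chain of components `c 0, …, c k`: Gram determinants `δ t`, the ideals
`𝔫 t` ("new at the `(t+1)`-st prime") and the witness primes. -/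
structure s59f_RingData' (S : Type) [CommRing S] (A : Type) [CommRing A] {ι : Type*}
    (s : Finset ι) (𝒦 : ι → Ideal A) (k : ℕ) (c : ℕ → ι) (δ : ℕ → A) (𝔫 : ℕ → Ideal A) :
    Prop where
  prime : ∀ i ∈ s, (𝒦 i).IsPrime
  dim : ∀ i ∈ s, ringKrullDim (A ⧸ 𝒦 i) ≤ ringKrullDim S
  mem0 : c 0 ∈ s
  wit : ∀ t < k, ∃ 𝔔 : Ideal A, 𝔔.IsPrime ∧ 𝒦 (c t) ≤ 𝔔 ∧ δ t ∈ 𝔔 ∧
    ∀ i ∈ s, 𝒦 i ≤ 𝔔 → 𝔫 t ≤ 𝒦 i → i = c (t + 1)

/-- **[F-CHAIN′]** family level raising along a chain of `k` primes over a flat acting ring with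
the kill property. -/
theorem s59f_chain' (S : Type) [CommRing S] [IsDomain S] [IsLocalRing S] [IsNoetherianRing S]
    (A : Type) [CommRing A] [IsNoetherianRing A] (𝔞 : Ideal S) (k : ℕ)
    (R : ℕ → Type) [∀ t, CommRing (R t)] (M : ℕ → Type) [∀ t, AddCommGroup (M t)]
    [∀ t, Module (R t) (M t)]
    (RQ : ℕ → Type) [∀ t, CommRing (RQ t)] (MQ : ℕ → Type) [∀ t, AddCommGroup (MQ t)]
    [∀ t, Module (RQ t) (MQ t)]
    (LH : ∀ t, s59p_Level S A (R t) (M t) 𝔞 ⊥) (LQ : ∀ t, s59p_Level S A (RQ t) (MQ t) 𝔞 ⊥)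
    (g11 g12 g21 g22 : ℕ → A) {ι : Type*} (s : Finset ι) (𝒦 : ι → Ideal A) (c : ℕ → ι)
    (𝔫 : ℕ → Ideal A)
    (hring : s59f_RingData' S A s 𝒦 k c (fun t => g11 t * g22 t - g12 t * g21 t) 𝔫)
    (hraise : ∀ t < k, s59f_Raise (LH t) (LH (t + 1)) (LQ t) (g11 t) (g12 t) (g21 t) (g22 t))
    (hkillQ : ∀ t < k, s.inf 𝒦 ≤ Module.annihilator A (LQ t).N)
    (h𝔫 : ∀ t < k, 𝔫 t ≤ (Module.annihilator A (LQ t).N).radical)
    [Nontrivial (M 0)] (h0 : 𝒦 (c 0) ≤ Module.annihilator A (LH 0).N) :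
    ∀ t ≤ k, Module.annihilator A (LH t).N ≤ 𝒦 (c t) := by
  intro t
  induction t with
  | zero =>
    intro _
    haveI := hring.prime (c 0) hring.mem0
    exact (s59p_pm3A' S A (R 0) (M 0) 𝔞 (LH 0) (𝒦 (c 0)) h0 (hring.dim (c 0) hring.mem0)).le
  | succ t ih =>
    intro ht
    have htk : t < k := ht
    obtain ⟨𝔔, h𝔔, h𝔎𝔔, hδ𝔔, hcl⟩ := hring.wit t htk
    exact s59f_step' S A (R t) (M t) (R (t + 1)) (M (t + 1)) (RQ t) (MQ t) 𝔞 (LH t) (LH (t + 1))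
      (LQ t) (g11 t) (g12 t) (g21 t) (g22 t) (hraise t htk) s 𝒦 hring.prime hring.dim
      (hkillQ t htk) (𝔫 t) (h𝔫 t htk) (𝒦 (c t)) (ih htk.le) 𝔔 h𝔎𝔔 hδ𝔔 (c (t + 1)) hcl

end Fermat.Agent.Lib.S59
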