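/-
PROGRAMME R2 = S59, node [FLR], case (P) non-minimal (helper2, prefix `s59b_`): **the Gram step and the
chain with a WEAK trace clause.**

On the kernel pairs `Z_t = ker cor_p` the clause "`tr` onto" of `s59f_Raise` is not available (it is
Ihara's lemma on the `p`-new part).  What IS available is: one element `b` of the acting ring which kills
`coker tr` (`b • (N × N) ⊆ range tr`) and lies outside the witness prime `𝔔` of the step.  The Gram step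
`s59f_step'` and the chain `s59f_chain'` survive verbatim:

* `s59b_RaiseW`     : `s59f_Raise` with `Function.Surjective tr` replaced by `∀ z, b • z ∈ range tr`;
* `s59b_raiseW_of_raise` : the strong package is the weak one with `b = 1`;
* `s59b_omega_w`    : `a ∈ Ann NQ` ⟹ `(b * a) • N² ⊆ G N²`;
* `s59b_step_w`     : `s59f_step'` for `s59b_RaiseW`, with the extra hypothesis `b ∉ 𝔔`;
* `s59b_RingDataW`  : `s59f_RingData'` + `b t ∉ 𝔔_t`;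
* `s59b_chain_w`    : the induction.
-/
import Mathlib
import Fermat.Agent.Lib.S59.FGraph2

set_option autoImplicit false
set_option linter.style.haveILetI false

namespace Fermat.Agent.Lib.S59

open IsLocalRing

/-- the degeneracy package of one step with a WEAK trace clause: `b` kills the cokernel of `tr`. -/
structure s59b_RaiseW {S : Type} [CommRing S] {A : Type} [CommRing A]
    {R : Type} [CommRing R] {M : Type} [AddCommGroup M] [Module R M]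
    {R' : Type} [CommRing R'] {M' : Type} [AddCommGroup M'] [Module R' M']
    {RQ : Type} [CommRing RQ] {MQ : Type} [AddCommGroup MQ] [Module RQ MQ]
    {𝔞 J : Ideal S}
    (LH : s59p_Level S A R M 𝔞 J) (LH' : s59p_Level S A R' M' 𝔞 J)
    (LQ : s59p_Level S A RQ MQ 𝔞 J) (g11 g12 g21 g22 b : A) : Prop where
  ex : ∃ (i : LH.N × LH.N →ₗ[A] LH'.N) (tr : LH'.N →ₗ[A] LH.N × LH.N) (pr : LH'.N →ₗ[A] LQ.N),
    Function.Surjective pr ∧ (∀ z : LH'.N, pr z = 0 ↔ z ∈ LinearMap.range i) ∧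
    (∀ z : LH.N × LH.N, b • z ∈ LinearMap.range tr) ∧
    ∀ u v : LH.N, tr (i (u, v)) = (g11 • u + g12 • v, g21 • u + g22 • v)

section step

variable {S : Type} [CommRing S] {A : Type} [CommRing A]
  {R : Type} [CommRing R] {M : Type} [AddCommGroup M] [Module R M]
  {R' : Type} [CommRing R'] {M' : Type} [AddCommGroup M'] [Module R' M']
  {RQ : Type} [CommRing RQ] {MQ : Type} [AddCommGroup MQ] [Module RQ MQ]
  {𝔞 J : Ideal S}
  {LH : s59p_Level S A R M 𝔞 J} {LH' : s59p_Level S A R' M' 𝔞 J}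
  {LQ : s59p_Level S A RQ MQ 𝔞 J} {g11 g12 g21 g22 b : A}

/-- the strong package is the weak one with `b = 1`. -/
theorem s59b_raiseW_of_raise (h : s59f_Raise LH LH' LQ g11 g12 g21 g22) :
    s59b_RaiseW LH LH' LQ g11 g12 g21 g22 1 := by
  obtain ⟨i, tr, pr, hpr, hker, htr, hG⟩ := h.ex
  refine ⟨⟨i, tr, pr, hpr, hker, fun z => ?_, hG⟩⟩
  rw [one_smul]
  exact htr z

/-- `Supp NQ ⊆ Supp N'`. -/
theorem s59b_ann_le_w (h : s59b_RaiseW LH LH' LQ g11 g12 g21 g22 b) :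
    Module.annihilator A LH'.N ≤ Module.annihilator A LQ.N := by
  obtain ⟨i, tr, pr, hpr, -, -, -⟩ := h.ex
  intro a ha
  rw [Module.mem_annihilator] at ha ⊢
  intro y
  obtain ⟨z, rfl⟩ := hpr y
  rw [← map_smul, ha z, map_zero]

/-- an element killing `NQ`, multiplied by `b`, maps `N²` into `G N²`. -/
theorem s59b_omega_w (h : s59b_RaiseW LH LH' LQ g11 g12 g21 g22 b) (a : A)
    (ha : a ∈ Module.annihilator A LQ.N) (x y : LH.N) :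
    ∃ u v : LH.N, (b * a) • x = g11 • u + g12 • v ∧ (b * a) • y = g21 • u + g22 • v := by
  obtain ⟨i, tr, pr, -, hker, htr, hG⟩ := h.ex
  obtain ⟨z, hz⟩ := htr (x, y)
  have h1 : pr (a • z) = 0 := by
    rw [map_smul, (Module.mem_annihilator.mp ha) (pr z)]
  obtain ⟨⟨u, v⟩, huv⟩ := (hker (a • z)).mp h1
  have hz' : tr (a • z) = ((b * a) • x, (b * a) • y) := by
    rw [map_smul, hz, mul_comm b a, mul_smul, mul_smul]
    rfl
  refine ⟨u, v, ?_, ?_⟩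
  · have := congrArg Prod.fst (hG u v)
    rw [huv, hz'] at this
    exact this
  · have := congrArg Prod.snd (hG u v)
    rw [huv, hz'] at this
    exact this

end step

/-- **[F-STEP′], weak form**: `s59f_step'` with `tr` onto replaced by "`b` kills `coker tr`, `b ∉ 𝔔`". -/
theorem s59b_step_w (S : Type) [CommRing S] [IsDomain S] [IsLocalRing S] [IsNoetherianRing S]
    (A : Type) [CommRing A] [IsNoetherianRing A]
    (R : Type) [CommRing R] (M : Type) [AddCommGroup M] [Module R M]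
    (R' : Type) [CommRing R'] (M' : Type) [AddCommGroup M'] [Module R' M']
    (RQ : Type) [CommRing RQ] (MQ : Type) [AddCommGroup MQ] [Module RQ MQ]
    (𝔞 : Ideal S)
    (LH : s59p_Level S A R M 𝔞 ⊥) (LH' : s59p_Level S A R' M' 𝔞 ⊥)
    (LQ : s59p_Level S A RQ MQ 𝔞 ⊥) (g11 g12 g21 g22 b : A)
    (hR : s59b_RaiseW LH LH' LQ g11 g12 g21 g22 b)
    {ι : Type*} (s : Finset ι) (𝒦 : ι → Ideal A) (h𝒦 : ∀ i ∈ s, (𝒦 i).IsPrime)
    (hdim : ∀ i ∈ s, ringKrullDim (A ⧸ 𝒦 i) ≤ ringKrullDim S)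
    (hkillQ : s.inf 𝒦 ≤ Module.annihilator A LQ.N)
    (𝔫 : Ideal A) (h𝔫 : 𝔫 ≤ (Module.annihilator A LQ.N).radical)
    (𝔎 : Ideal A) (h𝔎 : Module.annihilator A LH.N ≤ 𝔎)
    (𝔔 : Ideal A) [h𝔔 : 𝔔.IsPrime] (h𝔎𝔔 : 𝔎 ≤ 𝔔) (hδ𝔔 : g11 * g22 - g12 * g21 ∈ 𝔔)
    (hb𝔔 : b ∉ 𝔔)
    (i₁ : ι) (hR3 : ∀ i ∈ s, 𝒦 i ≤ 𝔔 → 𝔫 ≤ 𝒦 i → i = i₁) :
    Module.annihilator A LH'.N ≤ 𝒦 i₁ := by
  -- `𝔔 ∈ Supp NQ`
  have hQ𝔔 : Module.annihilator A LQ.N ≤ 𝔔 := by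
    intro a ha
    have hba : b * a ∈ 𝔔 :=
      s59f_gram_mem 𝔔 (h𝔎.trans h𝔎𝔔) g11 g12 g21 g22 (b * a) hδ𝔔 (s59b_omega_w hR a ha)
    exact (h𝔔.mem_or_mem hba).resolve_left hb𝔔
  obtain ⟨𝔓, h𝔓, h𝔓𝔔⟩ := Ideal.exists_minimalPrimes_le hQ𝔔
  -- `𝔓` is one of the components
  obtain ⟨i, his, hi⟩ := (h𝔓.1.1.inf_le').mp (hkillQ.trans h𝔓.1.2)
  haveI := h𝒦 i his
  have h2 : 𝔓 ≤ 𝒦 i := s59p_pm2d' S A RQ MQ 𝔞 LQ 𝔓 h𝔓 (𝒦 i) hi (hdim i his)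
  have h𝔓eq : 𝔓 = 𝒦 i := le_antisymm h2 hi
  have h𝔫𝔓 : 𝔫 ≤ 𝔓 :=
    h𝔫.trans ((Ideal.IsPrime.radical_le_iff h𝔓.1.1).mpr h𝔓.1.2)
  have hi1 : i = i₁ := hR3 i his (h𝔓eq ▸ h𝔓𝔔) (h𝔓eq ▸ h𝔫𝔓)
  rw [← hi1, ← h𝔓eq]
  exact (s59b_ann_le_w hR).trans h𝔓.1.2

/-- **[F-RING′], weak form**: `s59f_RingData'` with witness primes avoiding the elements `b t`. -/
structure s59b_RingDataW (S : Type) [CommRing S] (A : Type) [CommRing A] {ι : Type*}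
    (s : Finset ι) (𝒦 : ι → Ideal A) (k : ℕ) (c : ℕ → ι) (δ : ℕ → A) (𝔫 : ℕ → Ideal A)
    (b : ℕ → A) : Prop where
  prime : ∀ i ∈ s, (𝒦 i).IsPrime
  dim : ∀ i ∈ s, ringKrullDim (A ⧸ 𝒦 i) ≤ ringKrullDim S
  mem0 : c 0 ∈ s
  wit : ∀ t < k, ∃ 𝔔 : Ideal A, 𝔔.IsPrime ∧ 𝒦 (c t) ≤ 𝔔 ∧ δ t ∈ 𝔔 ∧ b t ∉ 𝔔 ∧
    ∀ i ∈ s, 𝒦 i ≤ 𝔔 → 𝔫 t ≤ 𝒦 i → i = c (t + 1)

/-- **[F-CHAIN′], weak form.** -/
theorem s59b_chain_w (S : Type) [CommRing S] [IsDomain S] [IsLocalRing S] [IsNoetherianRing S]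
    (A : Type) [CommRing A] [IsNoetherianRing A] (𝔞 : Ideal S) (k : ℕ)
    (R : ℕ → Type) [∀ t, CommRing (R t)] (M : ℕ → Type) [∀ t, AddCommGroup (M t)]
    [∀ t, Module (R t) (M t)]
    (RQ : ℕ → Type) [∀ t, CommRing (RQ t)] (MQ : ℕ → Type) [∀ t, AddCommGroup (MQ t)]
    [∀ t, Module (RQ t) (MQ t)]
    (LH : ∀ t, s59p_Level S A (R t) (M t) 𝔞 ⊥) (LQ : ∀ t, s59p_Level S A (RQ t) (MQ t) 𝔞 ⊥)
    (g11 g12 g21 g22 b : ℕ → A) {ι : Type*} (s : Finset ι) (𝒦 : ι → Ideal A) (c : ℕ → ι)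
    (𝔫 : ℕ → Ideal A)
    (hring : s59b_RingDataW S A s 𝒦 k c (fun t => g11 t * g22 t - g12 t * g21 t) 𝔫 b)
    (hraise : ∀ t < k,
      s59b_RaiseW (LH t) (LH (t + 1)) (LQ t) (g11 t) (g12 t) (g21 t) (g22 t) (b t))
    (hkillQ : ∀ t < k, s.inf 𝒦 ≤ Module.annihilator A (LQ t).N)
    (h𝔫 : ∀ t < k, 𝔫 t ≤ (Module.annihilator A (LQ t).N).radical)
    [Nontrivial (M 0)] (h0 : 𝒦 (c 0) ≤ Module.annihilator A (LH 0).N) :
    ∀ t ≤ k, Module.annihilator A (LH t).N ≤ 𝒦 (c t) := by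
  intro t
  induction t with
  | zero =>
    intro _
    haveI := hring.prime (c 0) hring.mem0
    exact (s59p_pm3A' S A (R 0) (M 0) 𝔞 (LH 0) (𝒦 (c 0)) h0 (hring.dim (c 0) hring.mem0)).le
  | succ t ih =>
    intro ht
    have htk : t < k := ht
    obtain ⟨𝔔, h𝔔, h𝔎𝔔, hδ𝔔, hb𝔔, hcl⟩ := hring.wit t htk
    exact s59b_step_w S A (R t) (M t) (R (t + 1)) (M (t + 1)) (RQ t) (MQ t) 𝔞 (LH t) (LH (t + 1))
      (LQ t) (g11 t) (g12 t) (g21 t) (g22 t) (b t) (hraise t htk) s 𝒦 hring.prime hring.dim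
      (hkillQ t htk) (𝔫 t) (h𝔫 t htk) (𝒦 (c t)) (ih htk.le) 𝔔 h𝔎𝔔 hδ𝔔 hb𝔔 (c (t + 1)) hcl

end Fermat.Agent.Lib.S59
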