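/-
PROGRAMME R2 = S59, node [FLR], **[F-PM1] part 1** (helper4, prefix `s59f_`): the degeneracy package
`s59f_Raise` in MATRIX form and its passage to the limit.

A level `L` with `L.d = d` is presented as `N = A^d ⧸ K`, `K = s59p_K L h`.  An `A`-linear map
`N → N'` is a matrix `F` (`d' × d`) with `F K ⊆ K'`, up to matrices with columns in `K'`.

* `s59f_E I d`        : the vectors of `A^d` with all entries in the ideal `I`;
* `s59f_Klim K`       : the limit `⋂ n, (K n + 𝔪^n A^d)` of a sequence of submodules of `A^d`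
                        (`= s59p_Kinf` for the kernels of a sequence of levels: `s59f_Kinf_eq`);
* `s59f_KConv K`      : `K n' ⊆ K n + 𝔪^n A^d` for `n ≤ n'` (`s59p_Conv.K`);
* `s59f_MatRaise K K' KQ g11 g12 g21 g22 I1 I2 T1 T2 P` : the package `s59f_Raise` in terms of the
                        matrices `I1, I2` (of `i`), `T1, T2` (of `tr`), `P` (of `pr`);
* **`s59f_matRaise_limit`** : convergent kernels + Cauchy matrices + `s59f_MatRaise` at every `n`
                        ⇒ `s59f_MatRaise` for the limit kernels and the limit matrices.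
-/
import Mathlib
import Fermat.Agent.Lib.S59.FGraph
import Fermat.Agent.Lib.S59.PSelect

set_option autoImplicit false
set_option linter.unusedSectionVars false
set_option linter.unusedVariables false
set_option linter.style.haveILetI false
set_option maxHeartbeats 1600000

namespace Fermat.Agent.Lib.S59

open IsLocalRing Fermat.Agent.Lib.Deform

section mat

variable {A : Type} [CommRing A]

/-- the vectors with all entries in the ideal `I`. -/
def s59f_E (I : Ideal A) (d : ℕ) : Submodule A (Fin d → A) :=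
  Submodule.pi Set.univ (fun _ : Fin d => (I : Submodule A A))

theorem s59f_mem_E {I : Ideal A} {d : ℕ} {g : Fin d → A} : g ∈ s59f_E I d ↔ ∀ j, g j ∈ I := by
  unfold s59f_E
  rw [Submodule.mem_pi]
  exact ⟨fun h j => h j (Set.mem_univ j), fun h j _ => h j⟩

theorem s59f_E_mono {I I' : Ideal A} (h : I ≤ I') (d : ℕ) : s59f_E I d ≤ s59f_E I' d := by
  intro g hg
  rw [s59f_mem_E] at hg ⊢
  exact fun j => h (hg j)

theorem s59f_mulVec_mem_E {m n : ℕ} (I : Ideal A) (F : Matrix (Fin m) (Fin n) A) {g : Fin n → A}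
    (hg : g ∈ s59f_E I n) : F.mulVec g ∈ s59f_E I m := by
  rw [s59f_mem_E] at hg ⊢
  intro i
  show ∑ j, F i j * g j ∈ I
  exact Ideal.sum_mem _ fun j _ => Ideal.mul_mem_left _ _ (hg j)

theorem s59f_mulVec_mem_E' {m n : ℕ} (I : Ideal A) {F : Matrix (Fin m) (Fin n) A}
    (hF : ∀ i j, F i j ∈ I) (g : Fin n → A) : F.mulVec g ∈ s59f_E I m := by
  rw [s59f_mem_E]
  intro i
  show ∑ j, F i j * g j ∈ I
  exact Ideal.sum_mem _ fun j _ => Ideal.mul_mem_right _ _ (hF i j)

/-- congruent matrices applied to congruent vectors give congruent vectors. -/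
theorem s59f_mulVec_sub_mem {m n : ℕ} (I : Ideal A) {F F' : Matrix (Fin m) (Fin n) A}
    (hF : ∀ i j, F i j - F' i j ∈ I) {g g' : Fin n → A} (hg : g - g' ∈ s59f_E I n) :
    F.mulVec g - F'.mulVec g' ∈ s59f_E I m := by
  have e : F.mulVec g - F'.mulVec g' = (F - F').mulVec g + F'.mulVec (g - g') := by
    rw [Matrix.sub_mulVec, Matrix.mulVec_sub]; abel
  rw [e]
  exact Submodule.add_mem _ (s59f_mulVec_mem_E' I (F := F - F') (fun i j => hF i j) g)
    (s59f_mulVec_mem_E I F' hg)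

theorem s59f_mulVec_sub_mem_same {m n : ℕ} (I : Ideal A) {F F' : Matrix (Fin m) (Fin n) A}
    (hF : ∀ i j, F i j - F' i j ∈ I) (g : Fin n → A) :
    F.mulVec g - F'.mulVec g ∈ s59f_E I m :=
  s59f_mulVec_sub_mem I hF (by rw [sub_self]; exact Submodule.zero_mem _)

/-- the same for a composite `T (I1 u + I2 v)`. -/
theorem s59f_comp_sub_mem {m n : ℕ} (I : Ideal A) {T T' : Matrix (Fin m) (Fin n) A}
    {l : ℕ} {I1 I1' I2 I2' : Matrix (Fin n) (Fin l) A}
    (hT : ∀ i j, T i j - T' i j ∈ I) (hI1 : ∀ i j, I1 i j - I1' i j ∈ I)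
    (hI2 : ∀ i j, I2 i j - I2' i j ∈ I) (u v : Fin l → A) :
    T.mulVec (I1.mulVec u + I2.mulVec v) - T'.mulVec (I1'.mulVec u + I2'.mulVec v) ∈
      s59f_E I m := by
  refine s59f_mulVec_sub_mem I hT ?_
  have e : (I1.mulVec u + I2.mulVec v) - (I1'.mulVec u + I2'.mulVec v) =
      (I1.mulVec u - I1'.mulVec u) + (I2.mulVec v - I2'.mulVec v) := by abel
  rw [e]
  exact Submodule.add_mem _ (s59f_mulVec_sub_mem_same I hI1 u) (s59f_mulVec_sub_mem_same I hI2 v)

/-- small elements have small preimages modulo `KQ`. -/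
theorem s59f_surj_small {m n : ℕ} {P : Matrix (Fin m) (Fin n) A} {KQ : Submodule A (Fin m → A)}
    (hP : ∀ w : Fin m → A, ∃ z : Fin n → A, w - P.mulVec z ∈ KQ) (I : Ideal A)
    {e : Fin m → A} (he : e ∈ s59f_E I m) :
    ∃ z : Fin n → A, z ∈ s59f_E I n ∧ e - P.mulVec z ∈ KQ := by
  classical
  choose zz hzz using fun j : Fin m => hP (Pi.single j 1)
  refine ⟨∑ j, e j • zz j, ?_, ?_⟩
  · refine Submodule.sum_mem _ fun j _ => ?_
    rw [s59f_mem_E]
    intro i
    rw [Pi.smul_apply, smul_eq_mul]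
    exact Ideal.mul_mem_right _ _ ((s59f_mem_E.mp he) j)
  · have e1 : e = ∑ j, e j • (Pi.single j 1 : Fin m → A) := by
      funext i
      rw [Finset.sum_apply]
      simp only [Pi.smul_apply, Pi.single_apply, smul_eq_mul, mul_ite, mul_one, mul_zero]
      rw [Finset.sum_ite_eq Finset.univ i, if_pos (Finset.mem_univ i)]
    have e2 : P.mulVec (∑ j, e j • zz j) = ∑ j, e j • P.mulVec (zz j) := by
      rw [← Matrix.mulVecLin_apply, map_sum]
      refine Finset.sum_congr rfl fun j _ => ?_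
      rw [map_smul, Matrix.mulVecLin_apply]
    have e3 : e - P.mulVec (∑ j, e j • zz j) =
        ∑ j, e j • ((Pi.single j 1 : Fin m → A) - P.mulVec (zz j)) := by
      rw [e2]
      simp only [smul_sub]
      rw [Finset.sum_sub_distrib, ← e1]
    rw [e3]
    exact Submodule.sum_mem _ fun j _ => Submodule.smul_mem _ _ (hzz j)

/-- the package `s59f_Raise` in matrix form. -/
structure s59f_MatRaise {d d' dQ : ℕ} (K : Submodule A (Fin d → A))
    (K' : Submodule A (Fin d' → A)) (KQ : Submodule A (Fin dQ → A)) (g11 g12 g21 g22 : A)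
    (I1 I2 : Matrix (Fin d') (Fin d) A) (T1 T2 : Matrix (Fin d) (Fin d') A)
    (P : Matrix (Fin dQ) (Fin d') A) : Prop where
  hI1 : ∀ g ∈ K, I1.mulVec g ∈ K'
  hI2 : ∀ g ∈ K, I2.mulVec g ∈ K'
  hT1 : ∀ g ∈ K', T1.mulVec g ∈ K
  hT2 : ∀ g ∈ K', T2.mulVec g ∈ K
  hP : ∀ g ∈ K', P.mulVec g ∈ KQ
  hPsurj : ∀ w : Fin dQ → A, ∃ z : Fin d' → A, w - P.mulVec z ∈ KQ
  hker : ∀ z : Fin d' → A, P.mulVec z ∈ KQ ↔
    ∃ u v : Fin d → A, z - I1.mulVec u - I2.mulVec v ∈ K'
  hTsurj : ∀ x y : Fin d → A, ∃ z : Fin d' → A, T1.mulVec z - x ∈ K ∧ T2.mulVec z - y ∈ K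
  hG1 : ∀ u v : Fin d → A,
    T1.mulVec (I1.mulVec u + I2.mulVec v) - (g11 • u + g12 • v) ∈ K
  hG2 : ∀ u v : Fin d → A,
    T2.mulVec (I1.mulVec u + I2.mulVec v) - (g21 • u + g22 • v) ∈ K

end mat

section lim

variable {A : Type} [CommRing A] [IsLocalRing A]

/-- the limit of a sequence of submodules of `A^d`. -/
def s59f_Klim {d : ℕ} (K : ℕ → Submodule A (Fin d → A)) : Submodule A (Fin d → A) :=
  ⨅ n, K n ⊔ s59f_E (maximalIdeal A ^ n) d

theorem s59f_mem_Klim {d : ℕ} {K : ℕ → Submodule A (Fin d → A)} {g : Fin d → A} :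
    g ∈ s59f_Klim K ↔ ∀ n, g ∈ K n ⊔ s59f_E (maximalIdeal A ^ n) d :=
  Submodule.mem_iInf _

/-- convergence of a sequence of submodules. -/
def s59f_KConv {d : ℕ} (K : ℕ → Submodule A (Fin d → A)) : Prop :=
  ∀ n n', n ≤ n' → K n' ≤ K n ⊔ s59f_E (maximalIdeal A ^ n) d

theorem s59f_mem_Klim_of {d : ℕ} {K : ℕ → Submodule A (Fin d → A)} (hK : s59f_KConv K)
    {g : Fin d → A} (h : ∀ n, ∃ n', n ≤ n' ∧ g ∈ K n' ⊔ s59f_E (maximalIdeal A ^ n) d) :
    g ∈ s59f_Klim K := by
  rw [s59f_mem_Klim]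
  intro n
  obtain ⟨n', hnn', hg⟩ := h n
  exact (sup_le (hK n n' hnn') le_sup_right) hg

/-- Cauchy sequences of matrices. -/
def s59f_MCauchy {m n : ℕ} (F : ℕ → Matrix (Fin m) (Fin n) A) : Prop :=
  ∀ k k', k ≤ k' → ∀ i j, F k i j - F k' i j ∈ maximalIdeal A ^ k

theorem s59f_mat_lim [IsPrecomplete (maximalIdeal A) A] {m n : ℕ}
    {F : ℕ → Matrix (Fin m) (Fin n) A} (hF : s59f_MCauchy F) :
    ∃ Fi : Matrix (Fin m) (Fin n) A, ∀ k i j, F k i j - Fi i j ∈ maximalIdeal A ^ k := by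
  choose Fi hFi using fun i j => s59c_cauchy_lim (maximalIdeal A) (fun k => F k i j)
    (fun k k' h => hF k k' h i j)
  exact ⟨Matrix.of Fi, fun k i j => hFi i j k⟩

/-- a limit matrix maps `K n + 𝔪^n` into `K' n + 𝔪^n`. -/
theorem s59f_lim_maps {m n : ℕ} (N : ℕ) {F Fi : Matrix (Fin m) (Fin n) A}
    (hF : ∀ i j, Fi i j - F i j ∈ maximalIdeal A ^ N)
    {K : Submodule A (Fin n → A)} {K' : Submodule A (Fin m → A)}
    (hmap : ∀ g ∈ K, F.mulVec g ∈ K') {g : Fin n → A}
    (hg : g ∈ K ⊔ s59f_E (maximalIdeal A ^ N) n) :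
    Fi.mulVec g ∈ K' ⊔ s59f_E (maximalIdeal A ^ N) m := by
  obtain ⟨k, hk, e, he, rfl⟩ := Submodule.mem_sup.mp hg
  have e1 : Fi.mulVec (k + e) = F.mulVec k + (Fi.mulVec (k + e) - F.mulVec k) := by abel
  rw [e1]
  refine Submodule.add_mem_sup (hmap k hk) (s59f_mulVec_sub_mem _ hF ?_)
  rw [add_sub_cancel_left]
  exact he

variable [IsNoetherianRing A] [IsAdicComplete (maximalIdeal A) A] [Finite (ResidueField A)]

/-- **the limit of the matrix packages.** -/
theorem s59f_matRaise_limit {d d' dQ : ℕ}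
    (K : ℕ → Submodule A (Fin d → A)) (K' : ℕ → Submodule A (Fin d' → A))
    (KQ : ℕ → Submodule A (Fin dQ → A))
    (hK : s59f_KConv K) (hK' : s59f_KConv K') (hKQ : s59f_KConv KQ)
    (g11 g12 g21 g22 : A)
    (I1 I2 : ℕ → Matrix (Fin d') (Fin d) A) (T1 T2 : ℕ → Matrix (Fin d) (Fin d') A)
    (P : ℕ → Matrix (Fin dQ) (Fin d') A)
    (hI1 : s59f_MCauchy I1) (hI2 : s59f_MCauchy I2) (hT1 : s59f_MCauchy T1)
    (hT2 : s59f_MCauchy T2) (hP : s59f_MCauchy P)
    (hR : ∀ n, s59f_MatRaise (K n) (K' n) (KQ n) g11 g12 g21 g22 (I1 n) (I2 n) (T1 n) (T2 n)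
      (P n)) :
    ∃ (I1i I2i : Matrix (Fin d') (Fin d) A) (T1i T2i : Matrix (Fin d) (Fin d') A)
      (Pi : Matrix (Fin dQ) (Fin d') A),
      s59f_MatRaise (s59f_Klim K) (s59f_Klim K') (s59f_Klim KQ) g11 g12 g21 g22
        I1i I2i T1i T2i Pi := by
  classical
  haveI hfinq : ∀ n, Finite (A ⧸ maximalIdeal A ^ n) := fun n => s59p_finite_quot_pow A n
  obtain ⟨I1i, hI1i⟩ := s59f_mat_lim hI1
  obtain ⟨I2i, hI2i⟩ := s59f_mat_lim hI2
  obtain ⟨T1i, hT1i⟩ := s59f_mat_lim hT1
  obtain ⟨T2i, hT2i⟩ := s59f_mat_lim hT2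
  obtain ⟨Pi, hPi⟩ := s59f_mat_lim hP
  -- the symmetric forms, at precision `n` for a level `m ≥ n`
  have hsym : ∀ {a b : ℕ} {F : ℕ → Matrix (Fin a) (Fin b) A} {Fi : Matrix (Fin a) (Fin b) A},
      (∀ k i j, F k i j - Fi i j ∈ maximalIdeal A ^ k) →
      ∀ n m, n ≤ m → ∀ i j, Fi i j - F m i j ∈ maximalIdeal A ^ n := by
    intro a b F Fi h n m hnm i j
    have := neg_mem (Ideal.pow_le_pow_right hnm (h m i j))
    rwa [neg_sub] at this
  have hI1s := hsym hI1i
  have hI2s := hsym hI2i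
  have hT1s := hsym hT1i
  have hT2s := hsym hT2i
  have hPs := hsym hPi
  have hmono : ∀ {e n m : ℕ}, n ≤ m →
      s59f_E (maximalIdeal A ^ m) e ≤ s59f_E (maximalIdeal A ^ n) e :=
    fun h => s59f_E_mono (Ideal.pow_le_pow_right h) _
  refine ⟨I1i, I2i, T1i, T2i, Pi, ?_⟩
  constructor
  · intro g hg
    rw [s59f_mem_Klim] at hg ⊢
    exact fun n => s59f_lim_maps n (hI1s n n le_rfl) (hR n).hI1 (hg n)
  · intro g hg
    rw [s59f_mem_Klim] at hg ⊢
    exact fun n => s59f_lim_maps n (hI2s n n le_rfl) (hR n).hI2 (hg n)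
  · intro g hg
    rw [s59f_mem_Klim] at hg ⊢
    exact fun n => s59f_lim_maps n (hT1s n n le_rfl) (hR n).hT1 (hg n)
  · intro g hg
    rw [s59f_mem_Klim] at hg ⊢
    exact fun n => s59f_lim_maps n (hT2s n n le_rfl) (hR n).hT2 (hg n)
  · intro g hg
    rw [s59f_mem_Klim] at hg ⊢
    exact fun n => s59f_lim_maps n (hPs n n le_rfl) (hR n).hP (hg n)
  · -- `pr` onto
    intro w
    choose z hz using fun n => (hR n).hPsurj w
    obtain ⟨z', hz'⟩ := s59c_exists_cluster (maximalIdeal A) (ι := Fin d') z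
    refine ⟨z', s59f_mem_Klim_of hKQ fun n => ?_⟩
    obtain ⟨m, hnm, hc⟩ := hz' n
    refine ⟨m, hnm, ?_⟩
    have e : w - Pi.mulVec z' = (w - (P m).mulVec (z m)) +
        -(Pi.mulVec z' - (P m).mulVec (z m)) := by abel
    rw [e]
    refine Submodule.add_mem_sup (hz m) (Submodule.neg_mem _ ?_)
    refine s59f_mulVec_sub_mem _ (hPs n m hnm) (s59f_mem_E.mpr fun j => ?_)
    have := neg_mem (hc j)
    rwa [neg_sub] at this
  · -- exactness
    intro z
    constructor
    · intro hz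
      rw [s59f_mem_Klim] at hz
      have hstep : ∀ n, ∃ u v : Fin d → A, z - (I1 n).mulVec u - (I2 n).mulVec v ∈
          K' n ⊔ s59f_E (maximalIdeal A ^ n) d' := by
        intro n
        have h1 : (P n).mulVec z ∈ KQ n ⊔ s59f_E (maximalIdeal A ^ n) dQ := by
          have e : (P n).mulVec z = Pi.mulVec z + -(Pi.mulVec z - (P n).mulVec z) := by abel
          rw [e]
          exact Submodule.add_mem _ (hz n) (Submodule.mem_sup_right
            (Submodule.neg_mem _ (s59f_mulVec_sub_mem_same _ (hPs n n le_rfl) z)))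
        obtain ⟨kq, hkq, e, he, hsum⟩ := Submodule.mem_sup.mp h1
        obtain ⟨z'', hz''E, he2⟩ := s59f_surj_small (hR n).hPsurj _ he
        have h2 : (P n).mulVec (z - z'') ∈ KQ n := by
          have : (P n).mulVec (z - z'') = kq + (e - (P n).mulVec z'') := by
            rw [Matrix.mulVec_sub, ← hsum]; abel
          rw [this]
          exact Submodule.add_mem _ hkq he2
        obtain ⟨u, v, huv⟩ := ((hR n).hker (z - z'')).mp h2
        refine ⟨u, v, ?_⟩
        have : z - (I1 n).mulVec u - (I2 n).mulVec v =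
            (z - z'' - (I1 n).mulVec u - (I2 n).mulVec v) + z'' := by abel
        rw [this]
        exact Submodule.add_mem_sup huv hz''E
      choose u v huv using hstep
      obtain ⟨uv', huv'⟩ := s59c_exists_cluster (maximalIdeal A) (ι := Fin d ⊕ Fin d)
        (fun n => Sum.elim (u n) (v n))
      refine ⟨fun j => uv' (Sum.inl j), fun j => uv' (Sum.inr j),
        s59f_mem_Klim_of hK' fun n => ?_⟩
      obtain ⟨m, hnm, hc⟩ := huv' n
      refine ⟨m, hnm, ?_⟩
      have e : z - I1i.mulVec (fun j => uv' (Sum.inl j)) - I2i.mulVec (fun j => uv' (Sum.inr j)) =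
          (z - (I1 m).mulVec (u m) - (I2 m).mulVec (v m)) +
            (-(I1i.mulVec (fun j => uv' (Sum.inl j)) - (I1 m).mulVec (u m)) +
              -(I2i.mulVec (fun j => uv' (Sum.inr j)) - (I2 m).mulVec (v m))) := by abel
      rw [e]
      refine Submodule.add_mem _ ((sup_le_sup_left (hmono hnm) _) (huv m))
        (Submodule.mem_sup_right (Submodule.add_mem _ (Submodule.neg_mem _ ?_)
          (Submodule.neg_mem _ ?_)))
      · refine s59f_mulVec_sub_mem _ (hI1s n m hnm) (s59f_mem_E.mpr fun j => ?_)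
        have := neg_mem (hc (Sum.inl j))
        rwa [neg_sub] at this
      · refine s59f_mulVec_sub_mem _ (hI2s n m hnm) (s59f_mem_E.mpr fun j => ?_)
        have := neg_mem (hc (Sum.inr j))
        rwa [neg_sub] at this
    · rintro ⟨u, v, huv⟩
      rw [s59f_mem_Klim] at huv ⊢
      intro n
      have e : Pi.mulVec z = Pi.mulVec (z - I1i.mulVec u - I2i.mulVec v) +
          ((P n).mulVec ((I1 n).mulVec u + (I2 n).mulVec v) +
            (Pi.mulVec (I1i.mulVec u + I2i.mulVec v) -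
              (P n).mulVec ((I1 n).mulVec u + (I2 n).mulVec v))) := by
        simp only [Matrix.mulVec_sub, Matrix.mulVec_add]; abel
      rw [e]
      refine Submodule.add_mem _ (s59f_lim_maps n (hPs n n le_rfl) (hR n).hP (huv n))
        (Submodule.add_mem_sup ?_ ?_)
      · exact ((hR n).hker _).mpr ⟨u, v, by
          rw [sub_sub, sub_self]; exact Submodule.zero_mem _⟩
      · exact s59f_comp_sub_mem _ (hPs n n le_rfl) (hI1s n n le_rfl) (hI2s n n le_rfl) u v
  · -- `tr` onto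
    intro x y
    choose z hz1 hz2 using fun n => (hR n).hTsurj x y
    obtain ⟨z', hz'⟩ := s59c_exists_cluster (maximalIdeal A) (ι := Fin d') z
    refine ⟨z', s59f_mem_Klim_of hK fun n => ?_, s59f_mem_Klim_of hK fun n => ?_⟩
    · obtain ⟨m, hnm, hc⟩ := hz' n
      refine ⟨m, hnm, ?_⟩
      have e : T1i.mulVec z' - x = ((T1 m).mulVec (z m) - x) +
          (T1i.mulVec z' - (T1 m).mulVec (z m)) := by abel
      rw [e]
      refine Submodule.add_mem_sup (hz1 m)
        (s59f_mulVec_sub_mem _ (hT1s n m hnm) (s59f_mem_E.mpr fun j => ?_))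
      have := neg_mem (hc j)
      rwa [neg_sub] at this
    · obtain ⟨m, hnm, hc⟩ := hz' n
      refine ⟨m, hnm, ?_⟩
      have e : T2i.mulVec z' - y = ((T2 m).mulVec (z m) - y) +
          (T2i.mulVec z' - (T2 m).mulVec (z m)) := by abel
      rw [e]
      refine Submodule.add_mem_sup (hz2 m)
        (s59f_mulVec_sub_mem _ (hT2s n m hnm) (s59f_mem_E.mpr fun j => ?_))
      have := neg_mem (hc j)
      rwa [neg_sub] at this
  · intro u v
    rw [s59f_mem_Klim]
    intro n
    have e : T1i.mulVec (I1i.mulVec u + I2i.mulVec v) - (g11 • u + g12 • v) =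
        ((T1 n).mulVec ((I1 n).mulVec u + (I2 n).mulVec v) - (g11 • u + g12 • v)) +
        (T1i.mulVec (I1i.mulVec u + I2i.mulVec v) -
          (T1 n).mulVec ((I1 n).mulVec u + (I2 n).mulVec v)) := by abel
    rw [e]
    exact Submodule.add_mem_sup ((hR n).hG1 u v)
      (s59f_comp_sub_mem _ (hT1s n n le_rfl) (hI1s n n le_rfl) (hI2s n n le_rfl) u v)
  · intro u v
    rw [s59f_mem_Klim]
    intro n
    have e : T2i.mulVec (I1i.mulVec u + I2i.mulVec v) - (g21 • u + g22 • v) =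
        ((T2 n).mulVec ((I1 n).mulVec u + (I2 n).mulVec v) - (g21 • u + g22 • v)) +
        (T2i.mulVec (I1i.mulVec u + I2i.mulVec v) -
          (T2 n).mulVec ((I1 n).mulVec u + (I2 n).mulVec v)) := by abel
    rw [e]
    exact Submodule.add_mem_sup ((hR n).hG2 u v)
      (s59f_comp_sub_mem _ (hT2s n n le_rfl) (hI1s n n le_rfl) (hI2s n n le_rfl) u v)

end lim

end Fermat.Agent.Lib.S59
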