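/-
PROGRAMME R2 = S59, case (P) non-minimal, [W3-abs] (helper2, prefix `s59b_`), file 1: **the WEAK degeneracy package
`s59b_RaiseW` in MATRIX form and its passage to the limit** (twin of helper4's `FPm1A.lean`: `s59f_MatRaise`,
`s59f_matRaise_limit`).  The clause "`tr` onto" is replaced by "`b • (x, y) ∈ range tr`" for a FIXED `b : A`; the limit
passes by cluster points exactly as before.
-/
import Mathlib
import Fermat.Agent.Lib.S59.FPm1A
import Fermat.Agent.Lib.S59.B9StepW

set_option autoImplicit false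
set_option linter.unusedSectionVars false
set_option linter.unusedVariables false
set_option linter.style.haveILetI false
set_option maxHeartbeats 1600000

namespace Fermat.Agent.Lib.S59

open IsLocalRing Fermat.Agent.Lib.Deform

section mat

variable {A : Type} [CommRing A]

/-- the package `s59b_RaiseW` in matrix form. -/
structure s59b_MatRaiseW {d d' dQ : ℕ} (K : Submodule A (Fin d → A))
    (K' : Submodule A (Fin d' → A)) (KQ : Submodule A (Fin dQ → A)) (g11 g12 g21 g22 b : A)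
    (I1 I2 : Matrix (Fin d') (Fin d) A) (T1 T2 : Matrix (Fin d) (Fin d') A)
    (P : Matrix (Fin dQ) (Fin d') A) : Prop where
  hI1 : ∀ g ∈ K, I1.mulVec g ∈ K'
  hI2 : ∀ g ∈ K, I2.mulVec g ∈ K'
  hT1 : ∀ g ∈ K', T1.mulVec g ∈ K
  hT2 : ∀ g ∈ K', T2.mulVec g ∈ K
  hP : ∀ g ∈ K', P.mulVec g ∈ KQ
  hPsurj : ∀ w : Fin dQ → A, ∃ z : Fin d' → A, w - P.mulVec z ∈ KQ
  hker : ∀ z : Fin d' → A, P.mulVec z ∈ KQ ↔
    ∃ u v : Fin d → A, z - I1.mulVec u - I2.mulVec v ∈ K'
  hTw : ∀ x y : Fin d → A, ∃ z : Fin d' → A, T1.mulVec z - b • x ∈ K ∧ T2.mulVec z - b • y ∈ K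
  hG1 : ∀ u v : Fin d → A,
    T1.mulVec (I1.mulVec u + I2.mulVec v) - (g11 • u + g12 • v) ∈ K
  hG2 : ∀ u v : Fin d → A,
    T2.mulVec (I1.mulVec u + I2.mulVec v) - (g21 • u + g22 • v) ∈ K

end mat

section lim

variable {A : Type} [CommRing A] [IsLocalRing A]
variable [IsNoetherianRing A] [IsAdicComplete (maximalIdeal A) A] [Finite (ResidueField A)]

/-- **the limit of the matrix packages.** -/
theorem s59b_matRaiseW_limit {d d' dQ : ℕ}
    (K : ℕ → Submodule A (Fin d → A)) (K' : ℕ → Submodule A (Fin d' → A))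
    (KQ : ℕ → Submodule A (Fin dQ → A))
    (hK : s59f_KConv K) (hK' : s59f_KConv K') (hKQ : s59f_KConv KQ)
    (g11 g12 g21 g22 b : A)
    (I1 I2 : ℕ → Matrix (Fin d') (Fin d) A) (T1 T2 : ℕ → Matrix (Fin d) (Fin d') A)
    (P : ℕ → Matrix (Fin dQ) (Fin d') A)
    (hI1 : s59f_MCauchy I1) (hI2 : s59f_MCauchy I2) (hT1 : s59f_MCauchy T1)
    (hT2 : s59f_MCauchy T2) (hP : s59f_MCauchy P)
    (hR : ∀ n, s59b_MatRaiseW (K n) (K' n) (KQ n) g11 g12 g21 g22 b (I1 n) (I2 n) (T1 n) (T2 n)
      (P n)) :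
    ∃ (I1i I2i : Matrix (Fin d') (Fin d) A) (T1i T2i : Matrix (Fin d) (Fin d') A)
      (Pi : Matrix (Fin dQ) (Fin d') A),
      s59b_MatRaiseW (s59f_Klim K) (s59f_Klim K') (s59f_Klim KQ) g11 g12 g21 g22 b
        I1i I2i T1i T2i Pi := by
  classical
  haveI hfinq : ∀ n, Finite (A ⧸ maximalIdeal A ^ n) := fun n => s59p_finite_quot_pow A n
  obtain ⟨I1i, hI1i⟩ := s59f_mat_lim hI1
  obtain ⟨I2i, hI2i⟩ := s59f_mat_lim hI2
  obtain ⟨T1i, hT1i⟩ := s59f_mat_lim hT1
  obtain ⟨T2i, hT2i⟩ := s59f_mat_lim hT2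
  obtain ⟨Pi, hPi⟩ := s59f_mat_lim hP
  -- the symmetric forms, at precision `n` for a level `m ≥ n`
  have hsym : ∀ {a b : ℕ} {F : ℕ → Matrix (Fin a) (Fin b) A} {Fi : Matrix (Fin a) (Fin b) A},
      (∀ k i j, F k i j - Fi i j ∈ maximalIdeal A ^ k) →
      ∀ n m, n ≤ m → ∀ i j, Fi i j - F m i j ∈ maximalIdeal A ^ n := by
    intro a b F Fi h n m hnm i j
    have := neg_mem (Ideal.pow_le_pow_right hnm (h m i j))
    rwa [neg_sub] at this
  have hI1s := hsym hI1i
  have hI2s := hsym hI2i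
  have hT1s := hsym hT1i
  have hT2s := hsym hT2i
  have hPs := hsym hPi
  have hmono : ∀ {e n m : ℕ}, n ≤ m →
      s59f_E (maximalIdeal A ^ m) e ≤ s59f_E (maximalIdeal A ^ n) e :=
    fun h => s59f_E_mono (Ideal.pow_le_pow_right h) _
  refine ⟨I1i, I2i, T1i, T2i, Pi, ?_⟩
  constructor
  · intro g hg
    rw [s59f_mem_Klim] at hg ⊢
    exact fun n => s59f_lim_maps n (hI1s n n le_rfl) (hR n).hI1 (hg n)
  · intro g hg
    rw [s59f_mem_Klim] at hg ⊢
    exact fun n => s59f_lim_maps n (hI2s n n le_rfl) (hR n).hI2 (hg n)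
  · intro g hg
    rw [s59f_mem_Klim] at hg ⊢
    exact fun n => s59f_lim_maps n (hT1s n n le_rfl) (hR n).hT1 (hg n)
  · intro g hg
    rw [s59f_mem_Klim] at hg ⊢
    exact fun n => s59f_lim_maps n (hT2s n n le_rfl) (hR n).hT2 (hg n)
  · intro g hg
    rw [s59f_mem_Klim] at hg ⊢
    exact fun n => s59f_lim_maps n (hPs n n le_rfl) (hR n).hP (hg n)
  · -- `pr` onto
    intro w
    choose z hz using fun n => (hR n).hPsurj w
    obtain ⟨z', hz'⟩ := s59c_exists_cluster (maximalIdeal A) (ι := Fin d') z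
    refine ⟨z', s59f_mem_Klim_of hKQ fun n => ?_⟩
    obtain ⟨m, hnm, hc⟩ := hz' n
    refine ⟨m, hnm, ?_⟩
    have e : w - Pi.mulVec z' = (w - (P m).mulVec (z m)) +
        -(Pi.mulVec z' - (P m).mulVec (z m)) := by abel
    rw [e]
    refine Submodule.add_mem_sup (hz m) (Submodule.neg_mem _ ?_)
    refine s59f_mulVec_sub_mem _ (hPs n m hnm) (s59f_mem_E.mpr fun j => ?_)
    have := neg_mem (hc j)
    rwa [neg_sub] at this
  · -- exactness
    intro z
    constructor
    · intro hz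
      rw [s59f_mem_Klim] at hz
      have hstep : ∀ n, ∃ u v : Fin d → A, z - (I1 n).mulVec u - (I2 n).mulVec v ∈
          K' n ⊔ s59f_E (maximalIdeal A ^ n) d' := by
        intro n
        have h1 : (P n).mulVec z ∈ KQ n ⊔ s59f_E (maximalIdeal A ^ n) dQ := by
          have e : (P n).mulVec z = Pi.mulVec z + -(Pi.mulVec z - (P n).mulVec z) := by abel
          rw [e]
          exact Submodule.add_mem _ (hz n) (Submodule.mem_sup_right
            (Submodule.neg_mem _ (s59f_mulVec_sub_mem_same _ (hPs n n le_rfl) z)))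
        obtain ⟨kq, hkq, e, he, hsum⟩ := Submodule.mem_sup.mp h1
        obtain ⟨z'', hz''E, he2⟩ := s59f_surj_small (hR n).hPsurj _ he
        have h2 : (P n).mulVec (z - z'') ∈ KQ n := by
          have : (P n).mulVec (z - z'') = kq + (e - (P n).mulVec z'') := by
            rw [Matrix.mulVec_sub, ← hsum]; abel
          rw [this]
          exact Submodule.add_mem _ hkq he2
        obtain ⟨u, v, huv⟩ := ((hR n).hker (z - z'')).mp h2
        refine ⟨u, v, ?_⟩
        have : z - (I1 n).mulVec u - (I2 n).mulVec v =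
            (z - z'' - (I1 n).mulVec u - (I2 n).mulVec v) + z'' := by abel
        rw [this]
        exact Submodule.add_mem_sup huv hz''E
      choose u v huv using hstep
      obtain ⟨uv', huv'⟩ := s59c_exists_cluster (maximalIdeal A) (ι := Fin d ⊕ Fin d)
        (fun n => Sum.elim (u n) (v n))
      refine ⟨fun j => uv' (Sum.inl j), fun j => uv' (Sum.inr j),
        s59f_mem_Klim_of hK' fun n => ?_⟩
      obtain ⟨m, hnm, hc⟩ := huv' n
      refine ⟨m, hnm, ?_⟩
      have e : z - I1i.mulVec (fun j => uv' (Sum.inl j)) - I2i.mulVec (fun j => uv' (Sum.inr j)) =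
          (z - (I1 m).mulVec (u m) - (I2 m).mulVec (v m)) +
            (-(I1i.mulVec (fun j => uv' (Sum.inl j)) - (I1 m).mulVec (u m)) +
              -(I2i.mulVec (fun j => uv' (Sum.inr j)) - (I2 m).mulVec (v m))) := by abel
      rw [e]
      refine Submodule.add_mem _ ((sup_le_sup_left (hmono hnm) _) (huv m))
        (Submodule.mem_sup_right (Submodule.add_mem _ (Submodule.neg_mem _ ?_)
          (Submodule.neg_mem _ ?_)))
      · refine s59f_mulVec_sub_mem _ (hI1s n m hnm) (s59f_mem_E.mpr fun j => ?_)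
        have := neg_mem (hc (Sum.inl j))
        rwa [neg_sub] at this
      · refine s59f_mulVec_sub_mem _ (hI2s n m hnm) (s59f_mem_E.mpr fun j => ?_)
        have := neg_mem (hc (Sum.inr j))
        rwa [neg_sub] at this
    · rintro ⟨u, v, huv⟩
      rw [s59f_mem_Klim] at huv ⊢
      intro n
      have e : Pi.mulVec z = Pi.mulVec (z - I1i.mulVec u - I2i.mulVec v) +
          ((P n).mulVec ((I1 n).mulVec u + (I2 n).mulVec v) +
            (Pi.mulVec (I1i.mulVec u + I2i.mulVec v) -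
              (P n).mulVec ((I1 n).mulVec u + (I2 n).mulVec v))) := by
        simp only [Matrix.mulVec_sub, Matrix.mulVec_add]; abel
      rw [e]
      refine Submodule.add_mem _ (s59f_lim_maps n (hPs n n le_rfl) (hR n).hP (huv n))
        (Submodule.add_mem_sup ?_ ?_)
      · exact ((hR n).hker _).mpr ⟨u, v, by
          rw [sub_sub, sub_self]; exact Submodule.zero_mem _⟩
      · exact s59f_comp_sub_mem _ (hPs n n le_rfl) (hI1s n n le_rfl) (hI2s n n le_rfl) u v
  · -- the weak trace clause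
    intro x y
    choose z hz1 hz2 using fun n => (hR n).hTw x y
    obtain ⟨z', hz'⟩ := s59c_exists_cluster (maximalIdeal A) (ι := Fin d') z
    refine ⟨z', s59f_mem_Klim_of hK fun n => ?_, s59f_mem_Klim_of hK fun n => ?_⟩
    · obtain ⟨m, hnm, hc⟩ := hz' n
      refine ⟨m, hnm, ?_⟩
      have e : T1i.mulVec z' - b • x = ((T1 m).mulVec (z m) - b • x) +
          (T1i.mulVec z' - (T1 m).mulVec (z m)) := by abel
      rw [e]
      refine Submodule.add_mem_sup (hz1 m)
        (s59f_mulVec_sub_mem _ (hT1s n m hnm) (s59f_mem_E.mpr fun j => ?_))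
      have := neg_mem (hc j)
      rwa [neg_sub] at this
    · obtain ⟨m, hnm, hc⟩ := hz' n
      refine ⟨m, hnm, ?_⟩
      have e : T2i.mulVec z' - b • y = ((T2 m).mulVec (z m) - b • y) +
          (T2i.mulVec z' - (T2 m).mulVec (z m)) := by abel
      rw [e]
      refine Submodule.add_mem_sup (hz2 m)
        (s59f_mulVec_sub_mem _ (hT2s n m hnm) (s59f_mem_E.mpr fun j => ?_))
      have := neg_mem (hc j)
      rwa [neg_sub] at this
  · intro u v
    rw [s59f_mem_Klim]
    intro n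
    have e : T1i.mulVec (I1i.mulVec u + I2i.mulVec v) - (g11 • u + g12 • v) =
        ((T1 n).mulVec ((I1 n).mulVec u + (I2 n).mulVec v) - (g11 • u + g12 • v)) +
        (T1i.mulVec (I1i.mulVec u + I2i.mulVec v) -
          (T1 n).mulVec ((I1 n).mulVec u + (I2 n).mulVec v)) := by abel
    rw [e]
    exact Submodule.add_mem_sup ((hR n).hG1 u v)
      (s59f_comp_sub_mem _ (hT1s n n le_rfl) (hI1s n n le_rfl) (hI2s n n le_rfl) u v)
  · intro u v
    rw [s59f_mem_Klim]
    intro n
    have e : T2i.mulVec (I1i.mulVec u + I2i.mulVec v) - (g21 • u + g22 • v) =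
        ((T2 n).mulVec ((I1 n).mulVec u + (I2 n).mulVec v) - (g21 • u + g22 • v)) +
        (T2i.mulVec (I1i.mulVec u + I2i.mulVec v) -
          (T2 n).mulVec ((I1 n).mulVec u + (I2 n).mulVec v)) := by abel
    rw [e]
    exact Submodule.add_mem_sup ((hR n).hG2 u v)
      (s59f_comp_sub_mem _ (hT2s n n le_rfl) (hI1s n n le_rfl) (hI2s n n le_rfl) u v)

end lim

end Fermat.Agent.Lib.S59
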