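/-
PROGRAMME R2 = S59, node [FLR], **[F-PM1] part 2** (helper4, prefix `s59f_`): translation between
the degeneracy package `s59f_Raise` of three levels and the matrix package `s59f_MatRaise` of their
kernels (`FPm1A`), and the link of `s59f_Klim` / `s59f_KConv` with `s59p_Kinf` / `s59p_Conv`.
-/
import Mathlib
import Fermat.Agent.Lib.S59.FPm1A

set_option autoImplicit false
set_option linter.unusedSectionVars false
set_option linter.unusedVariables false
set_option linter.style.haveILetI false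
set_option maxHeartbeats 1600000

namespace Fermat.Agent.Lib.S59

open IsLocalRing Fermat.Agent.Lib.Deform

section level

variable {S : Type} [CommRing S] {A : Type} [CommRing A]
  {R : Type} [CommRing R] {M : Type} [AddCommGroup M] [Module R M]
  {R' : Type} [CommRing R'] {M' : Type} [AddCommGroup M'] [Module R' M']
  {RQ : Type} [CommRing RQ] {MQ : Type} [AddCommGroup MQ] [Module RQ MQ]
  {𝔞 J : Ideal S}

/-- a matrix of a linear map between the modules of two levels. -/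
theorem s59f_exists_matrix (L : s59p_Level S A R M 𝔞 J) {d : ℕ} (h : L.d = d)
    (L' : s59p_Level S A R' M' 𝔞 J) {d' : ℕ} (h' : L'.d = d') (f : L.N →ₗ[A] L'.N) :
    ∃ F : Matrix (Fin d') (Fin d) A, ∀ g, s59p_Φ L' h' (F.mulVec g) = f (s59p_Φ L h g) := by
  classical
  choose c hc using fun j : Fin d => s59p_Φ_surjective L' h' (f (s59p_bb L h j))
  refine ⟨Matrix.of fun i j => c j i, fun g => ?_⟩
  have e1 : (Matrix.of fun i j => c j i).mulVec g = ∑ j, g j • c j := by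
    funext i
    rw [Finset.sum_apply]
    show ∑ j, c j i * g j = ∑ j, (g j • c j) i
    exact Finset.sum_congr rfl fun j _ => by rw [Pi.smul_apply, smul_eq_mul, mul_comm]
  rw [e1, map_sum, s59p_Φ_apply, map_sum]
  refine Finset.sum_congr rfl fun j _ => ?_
  rw [map_smul, hc j, map_smul]

/-- the linear map of a matrix which respects the kernels. -/
theorem s59f_exists_map (L : s59p_Level S A R M 𝔞 J) {d : ℕ} (h : L.d = d)
    (L' : s59p_Level S A R' M' 𝔞 J) {d' : ℕ} (h' : L'.d = d') (F : Matrix (Fin d') (Fin d) A)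
    (hF : ∀ g ∈ s59p_K L h, F.mulVec g ∈ s59p_K L' h') :
    ∃ f : L.N →ₗ[A] L'.N, ∀ g, f (s59p_Φ L h g) = s59p_Φ L' h' (F.mulVec g) := by
  classical
  set Φ := s59p_Φ L h with hΦ
  have hsurj : Function.Surjective Φ := s59p_Φ_surjective L h
  set comp : (Fin d → A) →ₗ[A] L'.N := (s59p_Φ L' h').comp F.mulVecLin with hcomp
  have hle : LinearMap.ker Φ ≤ LinearMap.ker comp := by
    intro g hg
    rw [LinearMap.mem_ker, hcomp, LinearMap.comp_apply, Matrix.mulVecLin_apply]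
    exact (s59p_mem_K L' h').mp (hF g hg)
  refine ⟨((LinearMap.ker Φ).liftQ comp hle).comp
    (Φ.quotKerEquivOfSurjective hsurj).symm.toLinearMap, fun g => ?_⟩
  have e1 : (Φ.quotKerEquivOfSurjective hsurj).symm (Φ g) = Submodule.Quotient.mk g := by
    rw [LinearEquiv.symm_apply_eq]
    rfl
  rw [LinearMap.comp_apply, LinearEquiv.coe_coe, e1, Submodule.liftQ_apply, hcomp,
    LinearMap.comp_apply, Matrix.mulVecLin_apply]

variable {LH : s59p_Level S A R M 𝔞 J} {LH' : s59p_Level S A R' M' 𝔞 J}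
  {LQ : s59p_Level S A RQ MQ 𝔞 J} {g11 g12 g21 g22 : A} {d d' dQ : ℕ}

/-- **`s59f_Raise` ⇒ `s59f_MatRaise`.** -/
theorem s59f_matRaise_of_raise (h : LH.d = d) (h' : LH'.d = d') (hQ : LQ.d = dQ)
    (hR : s59f_Raise LH LH' LQ g11 g12 g21 g22) :
    ∃ (I1 I2 : Matrix (Fin d') (Fin d) A) (T1 T2 : Matrix (Fin d) (Fin d') A)
      (P : Matrix (Fin dQ) (Fin d') A),
      s59f_MatRaise (s59p_K LH h) (s59p_K LH' h') (s59p_K LQ hQ) g11 g12 g21 g22
        I1 I2 T1 T2 P := by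
  classical
  obtain ⟨i, tr, pr, hpr, hker, htr, hG⟩ := hR.ex
  set i1 : LH.N →ₗ[A] LH'.N := i.comp (LinearMap.inl A LH.N LH.N) with hi1
  set i2 : LH.N →ₗ[A] LH'.N := i.comp (LinearMap.inr A LH.N LH.N) with hi2
  set tr1 : LH'.N →ₗ[A] LH.N := (LinearMap.fst A LH.N LH.N).comp tr with htr1
  set tr2 : LH'.N →ₗ[A] LH.N := (LinearMap.snd A LH.N LH.N).comp tr with htr2
  have hi : ∀ x y : LH.N, i (x, y) = i1 x + i2 y := by
    intro x y
    rw [hi1, hi2, LinearMap.comp_apply, LinearMap.comp_apply, ← map_add]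
    congr 1
    simp
  have htr1' : ∀ z, tr1 z = (tr z).1 := fun z => rfl
  have htr2' : ∀ z, tr2 z = (tr z).2 := fun z => rfl
  obtain ⟨I1, hI1⟩ := s59f_exists_matrix LH h LH' h' i1
  obtain ⟨I2, hI2⟩ := s59f_exists_matrix LH h LH' h' i2
  obtain ⟨T1, hT1⟩ := s59f_exists_matrix LH' h' LH h tr1
  obtain ⟨T2, hT2⟩ := s59f_exists_matrix LH' h' LH h tr2
  obtain ⟨P, hP⟩ := s59f_exists_matrix LH' h' LQ hQ pr
  have hII : ∀ u v : Fin d → A, s59p_Φ LH' h' (I1.mulVec u + I2.mulVec v) =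
      i (s59p_Φ LH h u, s59p_Φ LH h v) := by
    intro u v
    rw [map_add, hI1, hI2, hi]
  refine ⟨I1, I2, T1, T2, P, ?_⟩
  constructor
  · intro g hg
    rw [s59p_mem_K] at hg ⊢
    rw [hI1, hg, map_zero]
  · intro g hg
    rw [s59p_mem_K] at hg ⊢
    rw [hI2, hg, map_zero]
  · intro g hg
    rw [s59p_mem_K] at hg ⊢
    rw [hT1, hg, map_zero]
  · intro g hg
    rw [s59p_mem_K] at hg ⊢
    rw [hT2, hg, map_zero]
  · intro g hg
    rw [s59p_mem_K] at hg ⊢
    rw [hP, hg, map_zero]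
  · intro w
    obtain ⟨z', hz'⟩ := hpr (s59p_Φ LQ hQ w)
    obtain ⟨z, rfl⟩ := s59p_Φ_surjective LH' h' z'
    refine ⟨z, ?_⟩
    rw [s59p_mem_K, map_sub, hP, hz', sub_self]
  · intro z
    constructor
    · intro hz
      rw [s59p_mem_K, hP] at hz
      obtain ⟨⟨x, y⟩, hxy⟩ := (hker _).mp hz
      obtain ⟨u, rfl⟩ := s59p_Φ_surjective LH h x
      obtain ⟨v, rfl⟩ := s59p_Φ_surjective LH h y
      refine ⟨u, v, ?_⟩
      rw [s59p_mem_K, sub_sub, map_sub, hII, hxy, sub_self]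
    · rintro ⟨u, v, huv⟩
      rw [s59p_mem_K, sub_sub, map_sub, hII, sub_eq_zero] at huv
      rw [s59p_mem_K, hP, huv]
      exact (hker _).mpr ⟨_, rfl⟩
  · intro x y
    obtain ⟨z', hz'⟩ := htr (s59p_Φ LH h x, s59p_Φ LH h y)
    obtain ⟨z, rfl⟩ := s59p_Φ_surjective LH' h' z'
    refine ⟨z, ?_, ?_⟩
    · rw [s59p_mem_K, map_sub, hT1, htr1', hz', sub_self]
    · rw [s59p_mem_K, map_sub, hT2, htr2', hz', sub_self]
  · intro u v
    rw [s59p_mem_K, map_sub, hT1, htr1', hII, hG, map_add, map_smul, map_smul, sub_self]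
  · intro u v
    rw [s59p_mem_K, map_sub, hT2, htr2', hII, hG, map_add, map_smul, map_smul, sub_self]

/-- **`s59f_MatRaise` ⇒ `s59f_Raise`.** -/
theorem s59f_raise_of_matRaise (h : LH.d = d) (h' : LH'.d = d') (hQ : LQ.d = dQ)
    {I1 I2 : Matrix (Fin d') (Fin d) A} {T1 T2 : Matrix (Fin d) (Fin d') A}
    {P : Matrix (Fin dQ) (Fin d') A}
    (hM : s59f_MatRaise (s59p_K LH h) (s59p_K LH' h') (s59p_K LQ hQ) g11 g12 g21 g22
      I1 I2 T1 T2 P) :
    s59f_Raise LH LH' LQ g11 g12 g21 g22 := by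
  classical
  obtain ⟨i1, hi1⟩ := s59f_exists_map LH h LH' h' I1 hM.hI1
  obtain ⟨i2, hi2⟩ := s59f_exists_map LH h LH' h' I2 hM.hI2
  obtain ⟨tr1, htr1⟩ := s59f_exists_map LH' h' LH h T1 hM.hT1
  obtain ⟨tr2, htr2⟩ := s59f_exists_map LH' h' LH h T2 hM.hT2
  obtain ⟨pr, hpr⟩ := s59f_exists_map LH' h' LQ hQ P hM.hP
  have hII : ∀ u v : Fin d → A, i1 (s59p_Φ LH h u) + i2 (s59p_Φ LH h v) =
      s59p_Φ LH' h' (I1.mulVec u + I2.mulVec v) := by
    intro u v
    rw [map_add, hi1, hi2]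
  refine ⟨⟨i1.coprod i2, tr1.prod tr2, pr, ?_, ?_, ?_, ?_⟩⟩
  · intro y
    obtain ⟨w, rfl⟩ := s59p_Φ_surjective LQ hQ y
    obtain ⟨z, hz⟩ := hM.hPsurj w
    refine ⟨s59p_Φ LH' h' z, ?_⟩
    rw [hpr]
    rw [s59p_mem_K, map_sub, sub_eq_zero] at hz
    exact hz.symm
  · intro z'
    obtain ⟨z, rfl⟩ := s59p_Φ_surjective LH' h' z'
    rw [hpr, ← s59p_mem_K, hM.hker z]
    constructor
    · rintro ⟨u, v, huv⟩
      rw [s59p_mem_K, sub_sub, map_sub, sub_eq_zero] at huv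
      refine ⟨(s59p_Φ LH h u, s59p_Φ LH h v), ?_⟩
      rw [LinearMap.coprod_apply, hII, huv]
    · rintro ⟨⟨x, y⟩, hxy⟩
      obtain ⟨u, rfl⟩ := s59p_Φ_surjective LH h x
      obtain ⟨v, rfl⟩ := s59p_Φ_surjective LH h y
      refine ⟨u, v, ?_⟩
      rw [LinearMap.coprod_apply, hII] at hxy
      rw [s59p_mem_K, sub_sub, map_sub, hxy, sub_self]
  · rintro ⟨x, y⟩
    obtain ⟨u, rfl⟩ := s59p_Φ_surjective LH h x
    obtain ⟨v, rfl⟩ := s59p_Φ_surjective LH h y
    obtain ⟨z, hz1, hz2⟩ := hM.hTsurj u v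
    refine ⟨s59p_Φ LH' h' z, ?_⟩
    rw [s59p_mem_K, map_sub, sub_eq_zero] at hz1 hz2
    show (tr1 (s59p_Φ LH' h' z), tr2 (s59p_Φ LH' h' z)) = _
    rw [htr1, htr2, hz1, hz2]
  · intro x y
    obtain ⟨u, rfl⟩ := s59p_Φ_surjective LH h x
    obtain ⟨v, rfl⟩ := s59p_Φ_surjective LH h y
    have h1 := hM.hG1 u v
    have h2 := hM.hG2 u v
    rw [s59p_mem_K, map_sub, sub_eq_zero, map_add, map_smul, map_smul] at h1 h2
    rw [LinearMap.coprod_apply, hII]
    show (tr1 (s59p_Φ LH' h' (I1.mulVec u + I2.mulVec v)),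
      tr2 (s59p_Φ LH' h' (I1.mulVec u + I2.mulVec v))) = _
    rw [htr1, htr2, h1, h2]

end level

section conv

variable {S : Type} [CommRing S] [IsLocalRing S] [IsNoetherianRing S]
  [IsAdicComplete (maximalIdeal S) S] [Finite (ResidueField S)]
  {A : Type} [CommRing A] [IsLocalRing A] [IsNoetherianRing A]
  [IsAdicComplete (maximalIdeal A) A] [Finite (ResidueField A)]
  {R : Type} [CommRing R] [IsLocalRing R] [IsNoetherianRing R]
  [IsAdicComplete (maximalIdeal R) R]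
  {M : Type} [AddCommGroup M] [Module R M] [Module.Finite R M]
  {𝔞 : Ideal S} {J : ℕ → Ideal S}
  (L : ∀ n, s59p_Level S A R M 𝔞 (J n)) {d : ℕ} (hd : ∀ n, (L n).d = d)

theorem s59f_near_iff {d : ℕ} (K : Submodule A (Fin d → A)) (I : Ideal A) (g : Fin d → A) :
    g ∈ K ⊔ s59f_E I d ↔ ∃ k ∈ K, ∀ j, g j - k j ∈ I := by
  constructor
  · intro hg
    obtain ⟨k, hk, e, he, rfl⟩ := Submodule.mem_sup.mp hg
    refine ⟨k, hk, fun j => ?_⟩
    rw [Pi.add_apply, add_sub_cancel_left]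
    exact (s59f_mem_E.mp he) j
  · rintro ⟨k, hk, hgk⟩
    have : g = k + (g - k) := by abel
    rw [this]
    exact Submodule.add_mem_sup hk (s59f_mem_E.mpr fun j => hgk j)

/-- `s59p_Kinf` is the limit `s59f_Klim` of the kernels. -/
theorem s59f_Kinf_eq : s59p_Kinf L hd = s59f_Klim (fun n => s59p_K (L n) (hd n)) := by
  ext g
  rw [s59p_mem_Kinf, s59f_mem_Klim]
  exact forall_congr' fun n => (s59f_near_iff _ _ g).symm

/-- the kernels of a convergent sequence of levels converge. -/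
theorem s59f_KConv_of_conv (hC : s59p_Conv L hd) :
    s59f_KConv (fun n => s59p_K (L n) (hd n)) := by
  intro n n' hnn' k' hk'
  obtain ⟨k, hk, hkk'⟩ := hC.K n n' hnn' k' hk'
  exact (s59f_near_iff _ _ k').mpr ⟨k, hk, hkk'⟩

end conv

end Fermat.Agent.Lib.S59
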