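/-
PROGRAMME R2 = S59, case (P) non-minimal, [W3-abs] (helper2, prefix `s59b_`), file 2: translation between the WEAK
degeneracy package `s59b_RaiseW` of three levels and the weak matrix package `s59b_MatRaiseW` of their kernels (twin of
helper4's `FPm1B.lean`: `s59f_matRaise_of_raise`, `s59f_raise_of_matRaise`).
-/
import Mathlib
import Fermat.Agent.Lib.S59.FPm1B
import Fermat.Agent.Lib.S59.B9Pm1WA

set_option autoImplicit false
set_option linter.unusedSectionVars false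
set_option linter.unusedVariables false
set_option linter.style.haveILetI false
set_option maxHeartbeats 1600000

namespace Fermat.Agent.Lib.S59

open IsLocalRing Fermat.Agent.Lib.Deform

section level

variable {S : Type} [CommRing S] {A : Type} [CommRing A]
  {R : Type} [CommRing R] {M : Type} [AddCommGroup M] [Module R M]
  {R' : Type} [CommRing R'] {M' : Type} [AddCommGroup M'] [Module R' M']
  {RQ : Type} [CommRing RQ] {MQ : Type} [AddCommGroup MQ] [Module RQ MQ]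
  {𝔞 J : Ideal S}

variable {LH : s59p_Level S A R M 𝔞 J} {LH' : s59p_Level S A R' M' 𝔞 J}
  {LQ : s59p_Level S A RQ MQ 𝔞 J} {g11 g12 g21 g22 b : A} {d d' dQ : ℕ}

/-- **`s59b_RaiseW` ⇒ `s59b_MatRaiseW`.** -/
theorem s59b_matRaiseW_of_raiseW (h : LH.d = d) (h' : LH'.d = d') (hQ : LQ.d = dQ)
    (hR : s59b_RaiseW LH LH' LQ g11 g12 g21 g22 b) :
    ∃ (I1 I2 : Matrix (Fin d') (Fin d) A) (T1 T2 : Matrix (Fin d) (Fin d') A)
      (P : Matrix (Fin dQ) (Fin d') A),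
      s59b_MatRaiseW (s59p_K LH h) (s59p_K LH' h') (s59p_K LQ hQ) g11 g12 g21 g22 b
        I1 I2 T1 T2 P := by
  classical
  obtain ⟨i, tr, pr, hpr, hker, htr, hG⟩ := hR.ex
  set i1 : LH.N →ₗ[A] LH'.N := i.comp (LinearMap.inl A LH.N LH.N) with hi1
  set i2 : LH.N →ₗ[A] LH'.N := i.comp (LinearMap.inr A LH.N LH.N) with hi2
  set tr1 : LH'.N →ₗ[A] LH.N := (LinearMap.fst A LH.N LH.N).comp tr with htr1
  set tr2 : LH'.N →ₗ[A] LH.N := (LinearMap.snd A LH.N LH.N).comp tr with htr2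
  have hi : ∀ x y : LH.N, i (x, y) = i1 x + i2 y := by
    intro x y
    rw [hi1, hi2, LinearMap.comp_apply, LinearMap.comp_apply, ← map_add]
    congr 1
    simp
  have htr1' : ∀ z, tr1 z = (tr z).1 := fun z => rfl
  have htr2' : ∀ z, tr2 z = (tr z).2 := fun z => rfl
  obtain ⟨I1, hI1⟩ := s59f_exists_matrix LH h LH' h' i1
  obtain ⟨I2, hI2⟩ := s59f_exists_matrix LH h LH' h' i2
  obtain ⟨T1, hT1⟩ := s59f_exists_matrix LH' h' LH h tr1
  obtain ⟨T2, hT2⟩ := s59f_exists_matrix LH' h' LH h tr2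
  obtain ⟨P, hP⟩ := s59f_exists_matrix LH' h' LQ hQ pr
  have hII : ∀ u v : Fin d → A, s59p_Φ LH' h' (I1.mulVec u + I2.mulVec v) =
      i (s59p_Φ LH h u, s59p_Φ LH h v) := by
    intro u v
    rw [map_add, hI1, hI2, hi]
  refine ⟨I1, I2, T1, T2, P, ?_⟩
  constructor
  · intro g hg
    rw [s59p_mem_K] at hg ⊢
    rw [hI1, hg, map_zero]
  · intro g hg
    rw [s59p_mem_K] at hg ⊢
    rw [hI2, hg, map_zero]
  · intro g hg
    rw [s59p_mem_K] at hg ⊢
    rw [hT1, hg, map_zero]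
  · intro g hg
    rw [s59p_mem_K] at hg ⊢
    rw [hT2, hg, map_zero]
  · intro g hg
    rw [s59p_mem_K] at hg ⊢
    rw [hP, hg, map_zero]
  · intro w
    obtain ⟨z', hz'⟩ := hpr (s59p_Φ LQ hQ w)
    obtain ⟨z, rfl⟩ := s59p_Φ_surjective LH' h' z'
    refine ⟨z, ?_⟩
    rw [s59p_mem_K, map_sub, hP, hz', sub_self]
  · intro z
    constructor
    · intro hz
      rw [s59p_mem_K, hP] at hz
      obtain ⟨⟨x, y⟩, hxy⟩ := (hker _).mp hz
      obtain ⟨u, rfl⟩ := s59p_Φ_surjective LH h x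
      obtain ⟨v, rfl⟩ := s59p_Φ_surjective LH h y
      refine ⟨u, v, ?_⟩
      rw [s59p_mem_K, sub_sub, map_sub, hII, hxy, sub_self]
    · rintro ⟨u, v, huv⟩
      rw [s59p_mem_K, sub_sub, map_sub, hII, sub_eq_zero] at huv
      rw [s59p_mem_K, hP, huv]
      exact (hker _).mpr ⟨_, rfl⟩
  · intro x y
    obtain ⟨z', hz'⟩ := htr (s59p_Φ LH h x, s59p_Φ LH h y)
    obtain ⟨z, rfl⟩ := s59p_Φ_surjective LH' h' z'
    refine ⟨z, ?_, ?_⟩
    · rw [s59p_mem_K, map_sub, hT1, htr1', hz', map_smul, Prod.smul_fst, sub_self]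
    · rw [s59p_mem_K, map_sub, hT2, htr2', hz', map_smul, Prod.smul_snd, sub_self]
  · intro u v
    rw [s59p_mem_K, map_sub, hT1, htr1', hII, hG, map_add, map_smul, map_smul, sub_self]
  · intro u v
    rw [s59p_mem_K, map_sub, hT2, htr2', hII, hG, map_add, map_smul, map_smul, sub_self]

/-- **`s59b_MatRaiseW` ⇒ `s59b_RaiseW`.** -/
theorem s59b_raiseW_of_matRaiseW (h : LH.d = d) (h' : LH'.d = d') (hQ : LQ.d = dQ)
    {I1 I2 : Matrix (Fin d') (Fin d) A} {T1 T2 : Matrix (Fin d) (Fin d') A}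
    {P : Matrix (Fin dQ) (Fin d') A}
    (hM : s59b_MatRaiseW (s59p_K LH h) (s59p_K LH' h') (s59p_K LQ hQ) g11 g12 g21 g22 b
      I1 I2 T1 T2 P) :
    s59b_RaiseW LH LH' LQ g11 g12 g21 g22 b := by
  classical
  obtain ⟨i1, hi1⟩ := s59f_exists_map LH h LH' h' I1 hM.hI1
  obtain ⟨i2, hi2⟩ := s59f_exists_map LH h LH' h' I2 hM.hI2
  obtain ⟨tr1, htr1⟩ := s59f_exists_map LH' h' LH h T1 hM.hT1
  obtain ⟨tr2, htr2⟩ := s59f_exists_map LH' h' LH h T2 hM.hT2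
  obtain ⟨pr, hpr⟩ := s59f_exists_map LH' h' LQ hQ P hM.hP
  have hII : ∀ u v : Fin d → A, i1 (s59p_Φ LH h u) + i2 (s59p_Φ LH h v) =
      s59p_Φ LH' h' (I1.mulVec u + I2.mulVec v) := by
    intro u v
    rw [map_add, hi1, hi2]
  refine ⟨⟨i1.coprod i2, tr1.prod tr2, pr, ?_, ?_, ?_, ?_⟩⟩
  · intro y
    obtain ⟨w, rfl⟩ := s59p_Φ_surjective LQ hQ y
    obtain ⟨z, hz⟩ := hM.hPsurj w
    refine ⟨s59p_Φ LH' h' z, ?_⟩
    rw [hpr]
    rw [s59p_mem_K, map_sub, sub_eq_zero] at hz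
    exact hz.symm
  · intro z'
    obtain ⟨z, rfl⟩ := s59p_Φ_surjective LH' h' z'
    rw [hpr, ← s59p_mem_K, hM.hker z]
    constructor
    · rintro ⟨u, v, huv⟩
      rw [s59p_mem_K, sub_sub, map_sub, sub_eq_zero] at huv
      refine ⟨(s59p_Φ LH h u, s59p_Φ LH h v), ?_⟩
      rw [LinearMap.coprod_apply, hII, huv]
    · rintro ⟨⟨x, y⟩, hxy⟩
      obtain ⟨u, rfl⟩ := s59p_Φ_surjective LH h x
      obtain ⟨v, rfl⟩ := s59p_Φ_surjective LH h y
      refine ⟨u, v, ?_⟩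
      rw [LinearMap.coprod_apply, hII] at hxy
      rw [s59p_mem_K, sub_sub, map_sub, hxy, sub_self]
  · rintro ⟨x, y⟩
    obtain ⟨u, rfl⟩ := s59p_Φ_surjective LH h x
    obtain ⟨v, rfl⟩ := s59p_Φ_surjective LH h y
    obtain ⟨z, hz1, hz2⟩ := hM.hTw u v
    refine ⟨s59p_Φ LH' h' z, ?_⟩
    rw [s59p_mem_K, map_sub, sub_eq_zero, map_smul] at hz1 hz2
    show (tr1 (s59p_Φ LH' h' z), tr2 (s59p_Φ LH' h' z)) = _
    rw [htr1, htr2, hz1, hz2]
    rfl
  · intro x y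
    obtain ⟨u, rfl⟩ := s59p_Φ_surjective LH h x
    obtain ⟨v, rfl⟩ := s59p_Φ_surjective LH h y
    have h1 := hM.hG1 u v
    have h2 := hM.hG2 u v
    rw [s59p_mem_K, map_sub, sub_eq_zero, map_add, map_smul, map_smul] at h1 h2
    rw [LinearMap.coprod_apply, hII]
    show (tr1 (s59p_Φ LH' h' (I1.mulVec u + I2.mulVec v)),
      tr2 (s59p_Φ LH' h' (I1.mulVec u + I2.mulVec v))) = _
    rw [htr1, htr2, h1, h2]

end level

end Fermat.Agent.Lib.S59
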