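/-
PROGRAMME R2 = S59, node [FLR], **[F-PM1] part 3** (helper4, prefix `s59f_`): the common
subsequence for the `k + 1` full and the `k` new-quotient sequences of levels, with the matrices of
the degeneracy maps in the profiles, and **`s59f_fpm1 : s59f_FPM1`** (the contract of `FGraph`).
-/
import Mathlib
import Fermat.Agent.Lib.S59.FPm1B

set_option autoImplicit false
set_option linter.unusedSectionVars false
set_option linter.unusedVariables false
set_option linter.style.haveILetI false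
set_option maxHeartbeats 1600000

namespace Fermat.Agent.Lib.S59

open IsLocalRing Fermat.Agent.Lib.Deform

section mprof

variable (A : Type) [CommRing A] [IsLocalRing A]

/-- the type of the profiles of precision `n` of the five matrices of a degeneracy package. -/
abbrev s59f_MProf (a b c n : ℕ) : Type :=
  (Fin b → Fin a → A ⧸ maximalIdeal A ^ n) × (Fin b → Fin a → A ⧸ maximalIdeal A ^ n) ×
    (Fin a → Fin b → A ⧸ maximalIdeal A ^ n) × (Fin a → Fin b → A ⧸ maximalIdeal A ^ n) ×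
    (Fin c → Fin b → A ⧸ maximalIdeal A ^ n)

variable {A}

/-- the profile of precision `n` of five matrices. -/
def s59f_mprof {a b c : ℕ} (I1 I2 : Matrix (Fin b) (Fin a) A) (T1 T2 : Matrix (Fin a) (Fin b) A)
    (P : Matrix (Fin c) (Fin b) A) (n : ℕ) : s59f_MProf A a b c n :=
  (fun i j => Ideal.Quotient.mk _ (I1 i j), fun i j => Ideal.Quotient.mk _ (I2 i j),
    fun i j => Ideal.Quotient.mk _ (T1 i j), fun i j => Ideal.Quotient.mk _ (T2 i j),
    fun i j => Ideal.Quotient.mk _ (P i j))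

theorem s59f_mprof_eq {a b c n : ℕ} {I1 I2 I1' I2' : Matrix (Fin b) (Fin a) A}
    {T1 T2 T1' T2' : Matrix (Fin a) (Fin b) A} {P P' : Matrix (Fin c) (Fin b) A}
    (h : s59f_mprof I1 I2 T1 T2 P n = s59f_mprof I1' I2' T1' T2' P' n) :
    (∀ i j, I1 i j - I1' i j ∈ maximalIdeal A ^ n) ∧
    (∀ i j, I2 i j - I2' i j ∈ maximalIdeal A ^ n) ∧
    (∀ i j, T1 i j - T1' i j ∈ maximalIdeal A ^ n) ∧
    (∀ i j, T2 i j - T2' i j ∈ maximalIdeal A ^ n) ∧
    (∀ i j, P i j - P' i j ∈ maximalIdeal A ^ n) := by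
  simp only [s59f_mprof, Prod.mk.injEq] at h
  obtain ⟨h1, h2, h3, h4, h5⟩ := h
  exact ⟨fun i j => Ideal.Quotient.eq.mp (congrFun (congrFun h1 i) j),
    fun i j => Ideal.Quotient.eq.mp (congrFun (congrFun h2 i) j),
    fun i j => Ideal.Quotient.eq.mp (congrFun (congrFun h3 i) j),
    fun i j => Ideal.Quotient.eq.mp (congrFun (congrFun h4 i) j),
    fun i j => Ideal.Quotient.eq.mp (congrFun (congrFun h5 i) j)⟩

end mprof

/-- annihilators pass to the limit. -/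
theorem s59f_ann_limit {S : Type} [CommRing S] {A : Type} [CommRing A] [IsLocalRing A]
    {R : Type} [CommRing R] {M : Type} [AddCommGroup M] [Module R M] {𝔞 : Ideal S}
    {J : ℕ → Ideal S} (L : ∀ n, s59p_Level S A R M 𝔞 (J n)) {d : ℕ} (hd : ∀ n, (L n).d = d)
    (Li : s59p_Level S A R M 𝔞 ⊥) (hdi : Li.d = d)
    (hK : s59p_K Li hdi = s59f_Klim (fun n => s59p_K (L n) (hd n)))
    (a : A) (ha : ∀ n, a ∈ Module.annihilator A (L n).N) :
    a ∈ Module.annihilator A Li.N := by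
  rw [Module.mem_annihilator]
  intro x
  obtain ⟨g, rfl⟩ := s59p_Φ_surjective Li hdi x
  rw [← map_smul, ← s59p_mem_K, hK, s59f_mem_Klim]
  intro n
  refine Submodule.mem_sup_left ?_
  rw [s59p_mem_K, map_smul]
  exact (Module.mem_annihilator.mp (ha n)) _

/-- **[F-PM1]** -/
theorem s59f_fpm1 : s59f_FPM1 := by
  intro S _ _ _ _ _ A _ _ _ _ _ 𝔞 J hJ k R _ _ _ _ M _ _ _ RQ _ _ _ _ MQ _ _ _ LH LQ d dQ hd hdQ
    g11 g12 g21 g22 hraise 𝔫 h𝔫 𝔎₀ h𝔎₀
  classical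
  haveI hkR : ∀ t, Finite (ResidueField (R t)) := fun t =>
    s59p_finite_residueField (LH t 0).ψ (LH t 0).ψ_surjective
  haveI hkRQ : ∀ t, Finite (ResidueField (RQ t)) := fun t =>
    s59p_finite_residueField (LQ t 0).ψ (LQ t 0).ψ_surjective
  haveI hfinq : ∀ n, Finite (A ⧸ maximalIdeal A ^ n) := fun n => s59p_finite_quot_pow A n
  -- the matrices
  have hmat : ∀ t n, ∃ (I1 I2 : Matrix (Fin (d (t + 1))) (Fin (d t)) A)
      (T1 T2 : Matrix (Fin (d t)) (Fin (d (t + 1))) A)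
      (P : Matrix (Fin (dQ t)) (Fin (d (t + 1))) A),
      t < k → s59f_MatRaise (s59p_K (LH t n) (hd t n)) (s59p_K (LH (t + 1) n) (hd (t + 1) n))
        (s59p_K (LQ t n) (hdQ t n)) (g11 t) (g12 t) (g21 t) (g22 t) I1 I2 T1 T2 P := by
    intro t n
    by_cases ht : t < k
    · obtain ⟨I1, I2, T1, T2, P, h⟩ :=
        s59f_matRaise_of_raise (hd t n) (hd (t + 1) n) (hdQ t n) (hraise t ht n)
      exact ⟨I1, I2, T1, T2, P, fun _ => h⟩
    · exact ⟨0, 0, 0, 0, 0, fun h => absurd h ht⟩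
  choose I1 I2 T1 T2 P hMR using hmat
  -- the common subsequence
  obtain ⟨x, hx⟩ := s59c_cluster
    (P := fun n => ∀ t : Fin (k + 1), s59p_Prof S A (R t) (M t) (d t) n ×
      s59p_Prof S A (RQ t) (MQ t) (dQ t) n × s59f_MProf A (d t) (d (t + 1)) (dQ t) n)
    (fun m n t => (s59p_prof (LH t m) (hd t m) n, s59p_prof (LQ t m) (hdQ t m) n,
      s59f_mprof (I1 t m) (I2 t m) (T1 t m) (T2 t m) (P t m) n))
  choose ms hms hmsx using hx
  have hF : ∀ n n', n ≤ n' → ∀ t : Fin (k + 1),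
      ((s59p_prof (LH t (ms n)) (hd t (ms n)) n, s59p_prof (LQ t (ms n)) (hdQ t (ms n)) n,
        s59f_mprof (I1 t (ms n)) (I2 t (ms n)) (T1 t (ms n)) (T2 t (ms n)) (P t (ms n)) n) :
        s59p_Prof S A (R t) (M t) (d t) n ×
          s59p_Prof S A (RQ t) (MQ t) (dQ t) n × s59f_MProf A (d t) (d (t + 1)) (dQ t) n) =
      (s59p_prof (LH t (ms n')) (hd t (ms n')) n, s59p_prof (LQ t (ms n')) (hdQ t (ms n')) n,
        s59f_mprof (I1 t (ms n')) (I2 t (ms n')) (T1 t (ms n')) (T2 t (ms n')) (P t (ms n')) n) :=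
    fun n n' h t => congrFun ((hmsx n n le_rfl).trans (hmsx n' n h).symm) t
  have hCH : ∀ t, t ≤ k → s59p_Conv (J := fun n => J (ms n)) (fun n => LH t (ms n))
      (fun n => hd t (ms n)) := fun t ht =>
    s59p_conv_of_prof (LH t) (hd t) hJ ms hms
      (fun n n' h => congrArg Prod.fst (hF n n' h ⟨t, Nat.lt_succ_of_le ht⟩))
  have hCQ : ∀ t, t ≤ k → s59p_Conv (J := fun n => J (ms n)) (fun n => LQ t (ms n))
      (fun n => hdQ t (ms n)) := fun t ht =>
    s59p_conv_of_prof (LQ t) (hdQ t) hJ ms hms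
      (fun n n' h => congrArg (fun p => p.2.1) (hF n n' h ⟨t, Nat.lt_succ_of_le ht⟩))
  -- the limits
  have hlimH : ∀ t, ∃ Li : s59p_Level S A (R t) (M t) 𝔞 ⊥, t ≤ k → ∃ hdi : Li.d = d t,
      s59p_K Li hdi = s59f_Klim (fun n => s59p_K (LH t (ms n)) (hd t (ms n))) := by
    intro t
    by_cases ht : t ≤ k
    · obtain ⟨Li, hdi, -, -, hK⟩ := s59p_limit (J := fun n => J (ms n))
        (fun n => LH t (ms n)) (fun n => hd t (ms n)) (hCH t ht)
      exact ⟨Li, fun _ => ⟨hdi, hK.trans (s59f_Kinf_eq _ _)⟩⟩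
    · obtain ⟨Li⟩ := s59p_pm1 S A (R t) (M t) 𝔞 J hJ (LH t) (d t) (hd t)
      exact ⟨Li, fun h => absurd h ht⟩
  have hlimQ : ∀ t, ∃ Li : s59p_Level S A (RQ t) (MQ t) 𝔞 ⊥, t ≤ k → ∃ hdi : Li.d = dQ t,
      s59p_K Li hdi = s59f_Klim (fun n => s59p_K (LQ t (ms n)) (hdQ t (ms n))) := by
    intro t
    by_cases ht : t ≤ k
    · obtain ⟨Li, hdi, -, -, hK⟩ := s59p_limit (J := fun n => J (ms n))
        (fun n => LQ t (ms n)) (fun n => hdQ t (ms n)) (hCQ t ht)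
      exact ⟨Li, fun _ => ⟨hdi, hK.trans (s59f_Kinf_eq _ _)⟩⟩
    · obtain ⟨Li⟩ := s59p_pm1 S A (RQ t) (MQ t) 𝔞 J hJ (LQ t) (dQ t) (hdQ t)
      exact ⟨Li, fun h => absurd h ht⟩
  choose LH' hLH' using hlimH
  choose LQ' hLQ' using hlimQ
  refine ⟨LH', LQ', ?_, ?_, ?_⟩
  · intro t ht
    obtain ⟨hdi, hK⟩ := hLH' t ht.le
    obtain ⟨hdi', hK'⟩ := hLH' (t + 1) ht
    obtain ⟨hdiQ, hKQ⟩ := hLQ' t ht.le
    have hprof : ∀ n n', n ≤ n' →
        s59f_mprof (I1 t (ms n)) (I2 t (ms n)) (T1 t (ms n)) (T2 t (ms n)) (P t (ms n)) n =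
        s59f_mprof (I1 t (ms n')) (I2 t (ms n')) (T1 t (ms n')) (T2 t (ms n')) (P t (ms n')) n :=
      fun n n' h => congrArg (fun p => p.2.2) (hF n n' h ⟨t, Nat.lt_succ_of_le ht.le⟩)
    obtain ⟨I1i, I2i, T1i, T2i, Pi, hM⟩ := s59f_matRaise_limit
      (fun n => s59p_K (LH t (ms n)) (hd t (ms n)))
      (fun n => s59p_K (LH (t + 1) (ms n)) (hd (t + 1) (ms n)))
      (fun n => s59p_K (LQ t (ms n)) (hdQ t (ms n)))
      (s59f_KConv_of_conv _ _ (hCH t ht.le)) (s59f_KConv_of_conv _ _ (hCH (t + 1) ht))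
      (s59f_KConv_of_conv _ _ (hCQ t ht.le)) (g11 t) (g12 t) (g21 t) (g22 t)
      (fun n => I1 t (ms n)) (fun n => I2 t (ms n)) (fun n => T1 t (ms n))
      (fun n => T2 t (ms n)) (fun n => P t (ms n))
      (fun n n' h => (s59f_mprof_eq (hprof n n' h)).1)
      (fun n n' h => (s59f_mprof_eq (hprof n n' h)).2.1)
      (fun n n' h => (s59f_mprof_eq (hprof n n' h)).2.2.1)
      (fun n n' h => (s59f_mprof_eq (hprof n n' h)).2.2.2.1)
      (fun n n' h => (s59f_mprof_eq (hprof n n' h)).2.2.2.2)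
      (fun n => hMR t (ms n) ht)
    refine s59f_raise_of_matRaise (I1 := I1i) (I2 := I2i) (T1 := T1i) (T2 := T2i) (P := Pi)
      hdi hdi' hdiQ ?_
    rw [hK, hK', hKQ]
    exact hM
  · intro t ht a ha
    obtain ⟨hdiQ, hKQ⟩ := hLQ' t ht.le
    exact s59f_ann_limit (fun n => LQ t (ms n)) (fun n => hdQ t (ms n)) (LQ' t) hdiQ hKQ a
      (fun n => h𝔫 t ht (ms n) ha)
  · intro a ha
    obtain ⟨hdi, hK⟩ := hLH' 0 (Nat.zero_le k)
    exact s59f_ann_limit (fun n => LH 0 (ms n)) (fun n => hd 0 (ms n)) (LH' 0) hdi hK a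
      (fun n => h𝔎₀ (ms n) ha)

end Fermat.Agent.Lib.S59
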