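/-
PROGRAMME R2 = S59, case (P) non-minimal, [W3-abs] (helper2, prefix `s59b_`), file 3: **[F-PM1] for the WEAK degeneracy
packages** (twin of helper4's `FPm1C.lean`: `s59f_fpm1`): compactness for a chain of levels with their weak packages
`s59b_RaiseW … (b t)`, limits along ONE subsequence; the elements `b t : A` are fixed.
-/
import Mathlib
import Fermat.Agent.Lib.S59.FPm1C
import Fermat.Agent.Lib.S59.B9Pm1WB

set_option autoImplicit false
set_option linter.unusedSectionVars false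
set_option linter.unusedVariables false
set_option linter.style.haveILetI false
set_option maxHeartbeats 1600000

namespace Fermat.Agent.Lib.S59

open IsLocalRing Fermat.Agent.Lib.Deform

/-- **[F-PM1], weak form.** -/
theorem s59b_fpm1_w :
  ∀ (S : Type) [CommRing S] [IsLocalRing S] [IsNoetherianRing S]
    [IsAdicComplete (maximalIdeal S) S] [Finite (ResidueField S)]
    (A : Type) [CommRing A] [IsLocalRing A] [IsNoetherianRing A]
    [IsAdicComplete (maximalIdeal A) A] [Finite (ResidueField A)]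
    (𝔞 : Ideal S) (J : ℕ → Ideal S), (∀ n, J n ≤ maximalIdeal S ^ n) →
    ∀ (k : ℕ)
    (R : ℕ → Type) [∀ t, CommRing (R t)] [∀ t, IsLocalRing (R t)] [∀ t, IsNoetherianRing (R t)]
    [∀ t, IsAdicComplete (maximalIdeal (R t)) (R t)]
    (M : ℕ → Type) [∀ t, AddCommGroup (M t)] [∀ t, Module (R t) (M t)]
    [∀ t, Module.Finite (R t) (M t)]
    (RQ : ℕ → Type) [∀ t, CommRing (RQ t)] [∀ t, IsLocalRing (RQ t)]
    [∀ t, IsNoetherianRing (RQ t)] [∀ t, IsAdicComplete (maximalIdeal (RQ t)) (RQ t)]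
    (MQ : ℕ → Type) [∀ t, AddCommGroup (MQ t)] [∀ t, Module (RQ t) (MQ t)]
    [∀ t, Module.Finite (RQ t) (MQ t)]
    (LH : ∀ t n, s59p_Level S A (R t) (M t) 𝔞 (J n))
    (LQ : ∀ t n, s59p_Level S A (RQ t) (MQ t) 𝔞 (J n))
    (d dQ : ℕ → ℕ), (∀ t n, (LH t n).d = d t) → (∀ t n, (LQ t n).d = dQ t) →
    ∀ (g11 g12 g21 g22 b : ℕ → A),
    (∀ t < k, ∀ n, s59b_RaiseW (LH t n) (LH (t + 1) n) (LQ t n) (g11 t) (g12 t) (g21 t) (g22 t) (b t)) →
    ∀ (𝔫 : ℕ → Ideal A), (∀ t < k, ∀ n, 𝔫 t ≤ Module.annihilator A (LQ t n).N) →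
    ∀ (𝔎₀ : Ideal A), (∀ n, 𝔎₀ ≤ Module.annihilator A (LH 0 n).N) →
    ∃ (LH' : ∀ t, s59p_Level S A (R t) (M t) 𝔞 ⊥) (LQ' : ∀ t, s59p_Level S A (RQ t) (MQ t) 𝔞 ⊥),
      (∀ t < k, s59b_RaiseW (LH' t) (LH' (t + 1)) (LQ' t) (g11 t) (g12 t) (g21 t) (g22 t) (b t)) ∧
      (∀ t < k, 𝔫 t ≤ Module.annihilator A (LQ' t).N) ∧
      𝔎₀ ≤ Module.annihilator A (LH' 0).N := by
  intro S _ _ _ _ _ A _ _ _ _ _ 𝔞 J hJ k R _ _ _ _ M _ _ _ RQ _ _ _ _ MQ _ _ _ LH LQ d dQ hd hdQ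
    g11 g12 g21 g22 b hraise 𝔫 h𝔫 𝔎₀ h𝔎₀
  classical
  haveI hkR : ∀ t, Finite (ResidueField (R t)) := fun t =>
    s59p_finite_residueField (LH t 0).ψ (LH t 0).ψ_surjective
  haveI hkRQ : ∀ t, Finite (ResidueField (RQ t)) := fun t =>
    s59p_finite_residueField (LQ t 0).ψ (LQ t 0).ψ_surjective
  haveI hfinq : ∀ n, Finite (A ⧸ maximalIdeal A ^ n) := fun n => s59p_finite_quot_pow A n
  -- the matrices
  have hmat : ∀ t n, ∃ (I1 I2 : Matrix (Fin (d (t + 1))) (Fin (d t)) A)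
      (T1 T2 : Matrix (Fin (d t)) (Fin (d (t + 1))) A)
      (P : Matrix (Fin (dQ t)) (Fin (d (t + 1))) A),
      t < k → s59b_MatRaiseW (s59p_K (LH t n) (hd t n)) (s59p_K (LH (t + 1) n) (hd (t + 1) n))
        (s59p_K (LQ t n) (hdQ t n)) (g11 t) (g12 t) (g21 t) (g22 t) (b t) I1 I2 T1 T2 P := by
    intro t n
    by_cases ht : t < k
    · obtain ⟨I1, I2, T1, T2, P, h⟩ :=
        s59b_matRaiseW_of_raiseW (hd t n) (hd (t + 1) n) (hdQ t n) (hraise t ht n)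
      exact ⟨I1, I2, T1, T2, P, fun _ => h⟩
    · exact ⟨0, 0, 0, 0, 0, fun h => absurd h ht⟩
  choose I1 I2 T1 T2 P hMR using hmat
  -- the common subsequence
  obtain ⟨x, hx⟩ := s59c_cluster
    (P := fun n => ∀ t : Fin (k + 1), s59p_Prof S A (R t) (M t) (d t) n ×
      s59p_Prof S A (RQ t) (MQ t) (dQ t) n × s59f_MProf A (d t) (d (t + 1)) (dQ t) n)
    (fun m n t => (s59p_prof (LH t m) (hd t m) n, s59p_prof (LQ t m) (hdQ t m) n,
      s59f_mprof (I1 t m) (I2 t m) (T1 t m) (T2 t m) (P t m) n))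
  choose ms hms hmsx using hx
  have hF : ∀ n n', n ≤ n' → ∀ t : Fin (k + 1),
      ((s59p_prof (LH t (ms n)) (hd t (ms n)) n, s59p_prof (LQ t (ms n)) (hdQ t (ms n)) n,
        s59f_mprof (I1 t (ms n)) (I2 t (ms n)) (T1 t (ms n)) (T2 t (ms n)) (P t (ms n)) n) :
        s59p_Prof S A (R t) (M t) (d t) n ×
          s59p_Prof S A (RQ t) (MQ t) (dQ t) n × s59f_MProf A (d t) (d (t + 1)) (dQ t) n) =
      (s59p_prof (LH t (ms n')) (hd t (ms n')) n, s59p_prof (LQ t (ms n')) (hdQ t (ms n')) n,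
        s59f_mprof (I1 t (ms n')) (I2 t (ms n')) (T1 t (ms n')) (T2 t (ms n')) (P t (ms n')) n) :=
    fun n n' h t => congrFun ((hmsx n n le_rfl).trans (hmsx n' n h).symm) t
  have hCH : ∀ t, t ≤ k → s59p_Conv (J := fun n => J (ms n)) (fun n => LH t (ms n))
      (fun n => hd t (ms n)) := fun t ht =>
    s59p_conv_of_prof (LH t) (hd t) hJ ms hms
      (fun n n' h => congrArg Prod.fst (hF n n' h ⟨t, Nat.lt_succ_of_le ht⟩))
  have hCQ : ∀ t, t ≤ k → s59p_Conv (J := fun n => J (ms n)) (fun n => LQ t (ms n))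
      (fun n => hdQ t (ms n)) := fun t ht =>
    s59p_conv_of_prof (LQ t) (hdQ t) hJ ms hms
      (fun n n' h => congrArg (fun p => p.2.1) (hF n n' h ⟨t, Nat.lt_succ_of_le ht⟩))
  -- the limits
  have hlimH : ∀ t, ∃ Li : s59p_Level S A (R t) (M t) 𝔞 ⊥, t ≤ k → ∃ hdi : Li.d = d t,
      s59p_K Li hdi = s59f_Klim (fun n => s59p_K (LH t (ms n)) (hd t (ms n))) := by
    intro t
    by_cases ht : t ≤ k
    · obtain ⟨Li, hdi, -, -, hK⟩ := s59p_limit (J := fun n => J (ms n))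
        (fun n => LH t (ms n)) (fun n => hd t (ms n)) (hCH t ht)
      exact ⟨Li, fun _ => ⟨hdi, hK.trans (s59f_Kinf_eq _ _)⟩⟩
    · obtain ⟨Li⟩ := s59p_pm1 S A (R t) (M t) 𝔞 J hJ (LH t) (d t) (hd t)
      exact ⟨Li, fun h => absurd h ht⟩
  have hlimQ : ∀ t, ∃ Li : s59p_Level S A (RQ t) (MQ t) 𝔞 ⊥, t ≤ k → ∃ hdi : Li.d = dQ t,
      s59p_K Li hdi = s59f_Klim (fun n => s59p_K (LQ t (ms n)) (hdQ t (ms n))) := by
    intro t
    by_cases ht : t ≤ k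
    · obtain ⟨Li, hdi, -, -, hK⟩ := s59p_limit (J := fun n => J (ms n))
        (fun n => LQ t (ms n)) (fun n => hdQ t (ms n)) (hCQ t ht)
      exact ⟨Li, fun _ => ⟨hdi, hK.trans (s59f_Kinf_eq _ _)⟩⟩
    · obtain ⟨Li⟩ := s59p_pm1 S A (RQ t) (MQ t) 𝔞 J hJ (LQ t) (dQ t) (hdQ t)
      exact ⟨Li, fun h => absurd h ht⟩
  choose LH' hLH' using hlimH
  choose LQ' hLQ' using hlimQ
  refine ⟨LH', LQ', ?_, ?_, ?_⟩
  · intro t ht
    obtain ⟨hdi, hK⟩ := hLH' t ht.le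
    obtain ⟨hdi', hK'⟩ := hLH' (t + 1) ht
    obtain ⟨hdiQ, hKQ⟩ := hLQ' t ht.le
    have hprof : ∀ n n', n ≤ n' →
        s59f_mprof (I1 t (ms n)) (I2 t (ms n)) (T1 t (ms n)) (T2 t (ms n)) (P t (ms n)) n =
        s59f_mprof (I1 t (ms n')) (I2 t (ms n')) (T1 t (ms n')) (T2 t (ms n')) (P t (ms n')) n :=
      fun n n' h => congrArg (fun p => p.2.2) (hF n n' h ⟨t, Nat.lt_succ_of_le ht.le⟩)
    obtain ⟨I1i, I2i, T1i, T2i, Pi, hM⟩ := s59b_matRaiseW_limit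
      (fun n => s59p_K (LH t (ms n)) (hd t (ms n)))
      (fun n => s59p_K (LH (t + 1) (ms n)) (hd (t + 1) (ms n)))
      (fun n => s59p_K (LQ t (ms n)) (hdQ t (ms n)))
      (s59f_KConv_of_conv _ _ (hCH t ht.le)) (s59f_KConv_of_conv _ _ (hCH (t + 1) ht))
      (s59f_KConv_of_conv _ _ (hCQ t ht.le)) (g11 t) (g12 t) (g21 t) (g22 t) (b t)
      (fun n => I1 t (ms n)) (fun n => I2 t (ms n)) (fun n => T1 t (ms n))
      (fun n => T2 t (ms n)) (fun n => P t (ms n))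
      (fun n n' h => (s59f_mprof_eq (hprof n n' h)).1)
      (fun n n' h => (s59f_mprof_eq (hprof n n' h)).2.1)
      (fun n n' h => (s59f_mprof_eq (hprof n n' h)).2.2.1)
      (fun n n' h => (s59f_mprof_eq (hprof n n' h)).2.2.2.1)
      (fun n n' h => (s59f_mprof_eq (hprof n n' h)).2.2.2.2)
      (fun n => hMR t (ms n) ht)
    refine s59b_raiseW_of_matRaiseW (I1 := I1i) (I2 := I2i) (T1 := T1i) (T2 := T2i) (P := Pi)
      hdi hdi' hdiQ ?_
    rw [hK, hK', hKQ]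
    exact hM
  · intro t ht a ha
    obtain ⟨hdiQ, hKQ⟩ := hLQ' t ht.le
    exact s59f_ann_limit (fun n => LQ t (ms n)) (fun n => hdQ t (ms n)) (LQ' t) hdiQ hKQ a
      (fun n => h𝔫 t ht (ms n) ha)
  · intro a ha
    obtain ⟨hdi, hK⟩ := hLH' 0 (Nat.zero_le k)
    exact s59f_ann_limit (fun n => LH 0 (ms n)) (fun n => hd 0 (ms n)) (LH' 0) hdi hK a
      (fun n => h𝔎₀ (ms n) ha)

end Fermat.Agent.Lib.S59
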