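/-
PROGRAMME R2 = S59, node [FLR], **the `T`-side contract of `s59f_Raise`** (helper4, prefix `s59f_`).

`FGraph.lean` / `FGraph2.lean` consume, for every step `t → t+1` (raising at the prime `q = q_{t+1}`)
and every Taylor–Wiles level `n`, a package `s59f_Raise (LH t n) (LH (t+1) n) (LQ t n) G`
(`A`-linear maps `i`, `tr`, `pr`; `pr` onto with kernel `im i`; `tr` onto; `tr ∘ i = G`) in which
the new quotient `LQ t n` is itself a LEVEL, i.e. FREE over `S/J_n`.  This file reduces all of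
that to statements which do not mention the quotient and in which Ihara's lemma only occurs at
the BASE level and modulo `𝔪_S`:

  **`s59f_raise_of_T`**.  INPUT, for two levels `LH`, `LH'` over the same `(S, A, 𝔞, J)`, with the
  same `φ : S → A`, `S` and `A` local, `J ≤ 𝔪_S`, `𝔞 ≤ 𝔪_S`, `φ` local:
   (T2) `A`-linear `i : N × N → N'`, `tr : N' → N × N` with `tr ∘ i = G` (`G` with entries in `A`);
   (T3) additive base maps `i₀ : M × M → M'`, `tr₀ : M' → M × M` with `π' ∘ i = i₀ ∘ (π × π)`,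
        `(π × π) ∘ tr = tr₀ ∘ π'`;
   (T4) IHARA at the base level modulo `𝔪_S`: `i₀ (m₁, m₂) ∈ 𝔪_S M' ⇒ m₁, m₂ ∈ 𝔪_S M`;
   (T5) DUAL IHARA at the base level: `tr₀` is onto modulo `𝔪_S M × 𝔪_S M`;
   (T7) the base new quotient `ρ : M' → MQ`, `R'`-linear, onto, `ker ρ = im i₀`;
   (T6) an ideal `𝔫` of `A` with `𝔫 N' ⊆ im i` (for FLR: `𝔫 = (δ)`, `δ = (q+1)² - T_q²`, which
        kills the `q`-new quotient because `U_q² = 1` there and `tr ρ(Frob_q) = (q+1) U_q`).
  OUTPUT: a level `LQ` over `(R', MQ)` with `2 d + d_Q = d'`, `s59f_Raise LH LH' LQ G`, and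
  `𝔫 ≤ Ann NQ` — exactly the per-`(t, n)` input of `s59f_FPM1` (proved: `s59f_fpm1`).

The steps: `s59f_ihara_up` (Ihara at level `n` modulo `𝔪_S` from the base level, since
`N/𝔞 N = M`), `s59f_quot_basis` (a map of free `S/J`-modules which is injective modulo `𝔪_S` is a
split injection with free cokernel: `s59f_split_free`, from Mathlib's
`IsLocalRing.split_injective_iff_lTensor_residueField_injective`), `s59f_quotLevel` (the quotient
level), `s59f_tr_surj` (Nakayama over `A`).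
-/
import Mathlib
import Fermat.Agent.Lib.S59.FGraph
import Fermat.Agent.Lib.S59.PLevel

set_option autoImplicit false
set_option linter.unusedSectionVars false
set_option linter.unusedVariables false
set_option linter.style.haveILetI false

namespace Fermat.Agent.Lib.S59

open IsLocalRing

section generic

variable {S : Type} [CommRing S]

/-- a linear map between function modules maps vectors with entries in `J` to such vectors. -/
theorem s59f_pi_mem_of_mem {ι κ : Type} [Fintype ι] [DecidableEq ι] (J : Ideal S)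
    (f : (ι → S) →ₗ[S] (κ → S)) {c : ι → S} (hc : ∀ i, c i ∈ J) (j : κ) : f c j ∈ J := by
  have e : c = ∑ i, c i • (Pi.single i 1 : ι → S) := by
    funext k
    rw [Finset.sum_apply]
    simp only [Pi.smul_apply, Pi.single_apply, smul_eq_mul, mul_ite, mul_one, mul_zero]
    rw [Finset.sum_ite_eq Finset.univ k, if_pos (Finset.mem_univ k)]
  rw [e, map_sum, Finset.sum_apply]
  refine Ideal.sum_mem _ fun i _ => ?_
  rw [map_smul, Pi.smul_apply, smul_eq_mul]
  exact Ideal.mul_mem_right _ _ (hc i)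

theorem s59f_mem_smul_top_pi {ι : Type} [Fintype ι] [DecidableEq ι] (I : Ideal S) (w : ι → S) :
    w ∈ I • (⊤ : Submodule S (ι → S)) ↔ ∀ j, w j ∈ I := by
  constructor
  · intro hw
    refine Submodule.smul_induction_on hw ?_ ?_
    · intro r hr n _ j
      rw [Pi.smul_apply, smul_eq_mul]
      exact Ideal.mul_mem_right _ _ hr
    · intro x y hx hy j
      rw [Pi.add_apply]
      exact Ideal.add_mem _ (hx j) (hy j)
  · intro hw
    have e : w = ∑ i, w i • (Pi.single i 1 : ι → S) := by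
      funext k
      rw [Finset.sum_apply]
      simp only [Pi.smul_apply, Pi.single_apply, smul_eq_mul, mul_ite, mul_one, mul_zero]
      rw [Finset.sum_ite_eq Finset.univ k, if_pos (Finset.mem_univ k)]
    rw [e]
    exact Submodule.sum_mem _ fun i _ => Submodule.smul_mem_smul (hw i) Submodule.mem_top

/-- **split injections of free modules over a local ring.**  `l : V → S^n` linear, `V` finite free,
injective modulo the maximal ideal ⇒ `S^n = l V ⊕ S^dQ`. -/
theorem s59f_split_free [IsLocalRing S] {V : Type} [AddCommGroup V] [Module S V]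
    [Module.Finite S V] [Module.Free S V] {n : ℕ} (l : V →ₗ[S] (Fin n → S))
    (hl : ∀ v, l v ∈ maximalIdeal S • (⊤ : Submodule S (Fin n → S)) →
      v ∈ maximalIdeal S • (⊤ : Submodule S V)) :
    ∃ (dQ : ℕ) (E : (V × (Fin dQ → S)) ≃ₗ[S] (Fin n → S)),
      Module.finrank S V + dQ = n ∧ ∀ v, E (v, 0) = l v := by
  classical
  -- `1 ⊗ x = 0 ↔ x ∈ 𝔪 X`
  have key : ∀ (X : Type) [AddCommGroup X] [Module S X] (x : X),
      (1 : ResidueField S) ⊗ₜ[S] x = 0 ↔ x ∈ maximalIdeal S • (⊤ : Submodule S X) := by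
    intro X _ _ x
    have e := LinearMap.ker_tensorProductMk (R := S) (Q := X) (I := maximalIdeal S)
    rw [← e, LinearMap.mem_ker, TensorProduct.mk_apply]
    rfl
  -- injectivity after tensoring with the residue field
  have hinj : Function.Injective (l.lTensor (ResidueField S)) := by
    rw [injective_iff_map_eq_zero]
    intro y hy
    obtain ⟨v, rfl⟩ := TensorProduct.mk_surjective S V (ResidueField S)
      Ideal.Quotient.mk_surjective y
    rw [TensorProduct.mk_apply, LinearMap.lTensor_tmul] at hy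
    rw [TensorProduct.mk_apply]
    exact (key V v).mpr (hl v ((key _ (l v)).mp hy))
  obtain ⟨l', hl'⟩ :=
    (IsLocalRing.split_injective_iff_lTensor_residueField_injective l).mpr hinj
  have hl'' : ∀ v, l' (l v) = v := fun v => LinearMap.congr_fun hl' v
  -- the complement `K = ker l'`
  set K : Submodule S (Fin n → S) := LinearMap.ker l' with hK
  -- the decomposition `V × K ≃ S^n`
  let E0 : (V × K) ≃ₗ[S] (Fin n → S) :=
    { toFun := fun p => l p.1 + (p.2 : Fin n → S)
      map_add' := by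
        intro p p'
        simp only [Prod.fst_add, Prod.snd_add, map_add, Submodule.coe_add]
        abel
      map_smul' := by
        intro a p
        simp only [Prod.smul_fst, Prod.smul_snd, map_smul, Submodule.coe_smul, RingHom.id_apply,
          smul_add]
      invFun := fun w => (l' w, ⟨w - l (l' w), by
        rw [hK, LinearMap.mem_ker, map_sub, hl'', sub_self]⟩)
      left_inv := by
        rintro ⟨v, κ, hκ⟩
        have hκ' : l' κ = 0 := hκ
        ext
        · simp only [map_add, hl'', hκ', add_zero]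
        · simp only [map_add, hl'', hκ', add_zero, add_sub_cancel_left]
      right_inv := by
        intro w
        simp only [add_sub_cancel] }
  haveI : Module.Finite S K := Module.Finite.of_surjective
    ((LinearMap.snd S V K).comp E0.symm.toLinearMap) (by
      intro κ
      exact ⟨E0 (0, κ), by simp⟩)
  haveI : Module.Projective S K := Module.Projective.of_split (M := Fin n → S) K.subtype
    (LinearMap.codRestrict K (LinearMap.id - l.comp l') (fun w => by
      rw [hK, LinearMap.mem_ker, LinearMap.sub_apply, LinearMap.id_apply, LinearMap.comp_apply,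
        map_sub, hl'', sub_self])) (by
      ext ⟨κ, hκ⟩ : 2
      have hκ' : l' κ = 0 := hκ
      simp only [LinearMap.comp_apply, Submodule.subtype_apply, LinearMap.codRestrict_apply,
        LinearMap.sub_apply, LinearMap.id_apply, hκ', map_zero, sub_zero])
  haveI : Module.Free S K := Module.free_of_flat_of_isLocalRing
  let bK := Module.finBasis S K
  let E1 : (V × (Fin (Module.finrank S K) → S)) ≃ₗ[S] (V × K) :=
    LinearEquiv.prodCongr (LinearEquiv.refl S V) bK.equivFun.symm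
  refine ⟨Module.finrank S K, E1.trans E0, ?_, ?_⟩
  · have h1 := LinearEquiv.finrank_eq E0
    rw [Module.finrank_prod, Module.finrank_fin_fun] at h1
    exact h1
  · intro v
    show l v + ((bK.equivFun.symm 0 : K) : Fin n → S) = l v
    rw [map_zero, Submodule.coe_zero, add_zero]

end generic

section lvl

variable {S : Type} [CommRing S] {A : Type} [CommRing A] {R : Type} [CommRing R]
  {M : Type} [AddCommGroup M] [Module R M] {𝔞 J : Ideal S} (L : s59p_Level S A R M 𝔞 J)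
  {d : ℕ} (h : L.d = d)

/-- `(𝔠 A) N` is the set of the `∑ φ (c_i) b_i` with `c_i ∈ 𝔠`. -/
theorem s59f_smul_top_eq_Nsub (𝔠 : Ideal S) :
    (𝔠.map L.φ) • (⊤ : Submodule A L.N) = s59p_Nsub L h 𝔠 := by
  apply le_antisymm
  · rw [Submodule.smul_le]
    have h1 : 𝔠.map L.φ ≤ (s59p_Nsub L h 𝔠).colon (⊤ : Submodule A L.N) := by
      rw [Ideal.map_le_iff_le_comap]
      intro s hs
      rw [Ideal.mem_comap, Submodule.mem_colon]
      intro n _
      obtain ⟨c, rfl⟩ := s59p_exists_Φ_φ L h n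
      rw [s59p_Φ_smul_φ]
      exact ⟨fun i => s * c i, fun i => Ideal.mul_mem_right _ _ hs, rfl⟩
    intro r hr n hn
    exact (Submodule.mem_colon.mp (h1 hr)) n hn
  · rintro x ⟨c, hc, rfl⟩
    rw [s59p_Φ_apply]
    exact Submodule.sum_mem _ fun i _ =>
      Submodule.smul_mem_smul (Ideal.mem_map_of_mem _ (hc i)) Submodule.mem_top

theorem s59f_Φ_φ_sub (c c' : Fin d → S) :
    s59p_Φ L h (fun i => L.φ (c i)) - s59p_Φ L h (fun i => L.φ (c' i)) =
      s59p_Φ L h (fun i => L.φ (c i - c' i)) := by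
  rw [← map_sub]
  congr 1
  funext i
  rw [Pi.sub_apply, map_sub]

/-- the coefficients of an element of `(𝔠 A) N` are in `𝔠` (if `J ≤ 𝔠`). -/
theorem s59f_coeff_mem {𝔠 : Ideal S} (hJ : J ≤ 𝔠) (c : Fin d → S)
    (hx : s59p_Φ L h (fun i => L.φ (c i)) ∈ (𝔠.map L.φ) • (⊤ : Submodule A L.N)) :
    ∀ i, c i ∈ 𝔠 := by
  rw [s59f_smul_top_eq_Nsub L h] at hx
  obtain ⟨c', hc', e⟩ := hx
  have h1 : s59p_Φ L h (fun i => L.φ (c i - c' i)) = 0 := by
    rw [← s59f_Φ_φ_sub, e, sub_self]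
  have h2 := (s59p_Φ_φ_eq_zero_iff L h _).mp h1
  intro i
  have : c i = (c i - c' i) + c' i := by ring
  rw [this]
  exact Ideal.add_mem _ (hJ (h2 i)) (hc' i)

/-- `J` kills `N`. -/
theorem s59f_J_smul {s : S} (hs : s ∈ J) (x : L.N) : L.φ s • x = 0 := by
  obtain ⟨c, rfl⟩ := s59p_exists_Φ_φ L rfl x
  rw [s59p_Φ_smul_φ, s59p_Φ_φ_eq_zero_iff]
  exact fun i => Ideal.mul_mem_right _ _ hs

/-- `π (I N) ⊆ ψ(I) M`. -/
theorem s59f_π_mem (I : Ideal A) {x : L.N} (hx : x ∈ I • (⊤ : Submodule A L.N)) :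
    L.π x ∈ (I.map L.ψ) • (⊤ : Submodule R M) := by
  refine Submodule.smul_induction_on hx ?_ ?_
  · intro r hr n _
    rw [L.π_smul]
    exact Submodule.smul_mem_smul (Ideal.mem_map_of_mem _ hr) Submodule.mem_top
  · intro x y hx hy
    rw [map_add]
    exact Submodule.add_mem _ hx hy

/-- `π⁻¹ (ψ(I) M) = I N` if `𝔞 A ⊆ I`. -/
theorem s59f_π_lift (I : Ideal A) (hI : 𝔞.map L.φ ≤ I) {x : L.N}
    (hx : L.π x ∈ (I.map L.ψ) • (⊤ : Submodule R M)) : x ∈ I • (⊤ : Submodule A L.N) := by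
  have key : ∀ m ∈ (I.map L.ψ) • (⊤ : Submodule R M),
      ∃ x' ∈ I • (⊤ : Submodule A L.N), L.π x' = m := by
    intro m hm
    refine Submodule.smul_induction_on hm ?_ ?_
    · intro r hr m _
      obtain ⟨a, ha, rfl⟩ := (Ideal.mem_map_iff_of_surjective L.ψ L.ψ_surjective).mp hr
      obtain ⟨n, rfl⟩ := L.π_surjective m
      exact ⟨a • n, Submodule.smul_mem_smul ha Submodule.mem_top, L.π_smul a n⟩
    · rintro m₁ m₂ ⟨x₁, hx₁, rfl⟩ ⟨x₂, hx₂, rfl⟩
      exact ⟨x₁ + x₂, Submodule.add_mem _ hx₁ hx₂, map_add _ _ _⟩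
  obtain ⟨x', hx', e⟩ := key _ hx
  have h0 : L.π (x - x') = 0 := by rw [map_sub, e, sub_self]
  have h1 : x - x' ∈ (𝔞.map L.φ) • (⊤ : Submodule A L.N) := (L.ker_π _).mp h0
  have h2 : x - x' ∈ I • (⊤ : Submodule A L.N) := Submodule.smul_mono_left hI h1
  have : x = (x - x') + x' := by abel
  rw [this]
  exact Submodule.add_mem _ h2 hx'

end lvl

section two

variable {S : Type} [CommRing S] {A : Type} [CommRing A]
  {R : Type} [CommRing R] {M : Type} [AddCommGroup M] [Module R M]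
  {R' : Type} [CommRing R'] {M' : Type} [AddCommGroup M'] [Module R' M']
  {𝔞 J : Ideal S}
  (LH : s59p_Level S A R M 𝔞 J) (LH' : s59p_Level S A R' M' 𝔞 J)

/-- **Ihara at level `n` from Ihara at the base level.**  `i₀` = the base-level map, compatible
with `i` under the control maps `π`. -/
theorem s59f_ihara_up (𝔠 : Ideal S) (h𝔞 : 𝔞 ≤ 𝔠)
    (i : LH.N × LH.N →ₗ[A] LH'.N) (i₀ : M × M → M')
    (hcompat : ∀ x y, LH'.π (i (x, y)) = i₀ (LH.π x, LH.π y))
    (h₀ : ∀ m₁ m₂ : M, i₀ (m₁, m₂) ∈ ((𝔠.map LH'.φ).map LH'.ψ) • (⊤ : Submodule R' M') →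
      m₁ ∈ ((𝔠.map LH.φ).map LH.ψ) • (⊤ : Submodule R M) ∧
      m₂ ∈ ((𝔠.map LH.φ).map LH.ψ) • (⊤ : Submodule R M))
    (x y : LH.N) (hxy : i (x, y) ∈ (𝔠.map LH'.φ) • (⊤ : Submodule A LH'.N)) :
    x ∈ (𝔠.map LH.φ) • (⊤ : Submodule A LH.N) ∧ y ∈ (𝔠.map LH.φ) • (⊤ : Submodule A LH.N) := by
  have h1 := s59f_π_mem LH' _ hxy
  rw [hcompat] at h1
  obtain ⟨h2, h3⟩ := h₀ _ _ h1
  have hI : 𝔞.map LH.φ ≤ 𝔠.map LH.φ := Ideal.map_mono h𝔞
  exact ⟨s59f_π_lift LH _ hI h2, s59f_π_lift LH _ hI h3⟩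

end two


section basis

variable {S : Type} [CommRing S] [IsLocalRing S] {A : Type} [CommRing A]
  {R : Type} [CommRing R] {M : Type} [AddCommGroup M] [Module R M]
  {R' : Type} [CommRing R'] {M' : Type} [AddCommGroup M'] [Module R' M']
  {𝔞 J : Ideal S}
  (LH : s59p_Level S A R M 𝔞 J) (LH' : s59p_Level S A R' M' 𝔞 J)

/-- `Φ'(φ ∘ (u + ∑ e_r w_r)) = Φ'(φ ∘ u) + ∑ φ(e_r) Φ'(φ ∘ w_r)`. -/
theorem s59f_Φ_φ_lin {d' : ℕ} (h' : LH'.d = d') {ι : Type} [Fintype ι] (u : Fin d' → S)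
    (e : ι → S) (w : ι → Fin d' → S) :
    s59p_Φ LH' h' (fun m => LH'.φ ((u + ∑ r, e r • w r) m)) =
      s59p_Φ LH' h' (fun m => LH'.φ (u m)) +
        ∑ r, LH'.φ (e r) • s59p_Φ LH' h' (fun m => LH'.φ (w r m)) := by
  classical
  have e1 : ∀ r, LH'.φ (e r) • s59p_Φ LH' h' (fun m => LH'.φ (w r m)) =
      s59p_Φ LH' h' (fun m => LH'.φ (e r * w r m)) := fun r => s59p_Φ_smul_φ LH' h' _ _
  rw [Finset.sum_congr rfl fun r _ => e1 r, s59p_Φ_φ_sum, s59p_Φ_φ_add]
  congr 1
  funext m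
  congr 1
  rw [Pi.add_apply, Finset.sum_apply]
  rfl

/-- **the complement basis.**  If `i` is injective modulo `𝔪_S` (Ihara at level `n`) then
`N' = i (N × N) ⊕ (S/J)^dQ`. -/
theorem s59f_quot_basis (hφ : LH'.φ = LH.φ) {d d' : ℕ} (h : LH.d = d) (h' : LH'.d = d')
    (hJ : J ≤ maximalIdeal S) (i : LH.N × LH.N →ₗ[A] LH'.N)
    (hIh : ∀ x y, i (x, y) ∈ ((maximalIdeal S).map LH'.φ) • (⊤ : Submodule A LH'.N) →
      x ∈ ((maximalIdeal S).map LH.φ) • (⊤ : Submodule A LH.N) ∧
      y ∈ ((maximalIdeal S).map LH.φ) • (⊤ : Submodule A LH.N)) :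
    ∃ (dQ : ℕ) (f : Fin dQ → LH'.N), d + d + dQ = d' ∧
      (∀ z : LH'.N, ∃ (x y : LH.N) (c : Fin dQ → S),
        z = i (x, y) + ∑ r, LH'.φ (c r) • f r) ∧
      (∀ (x y : LH.N) (c : Fin dQ → S), i (x, y) + ∑ r, LH'.φ (c r) • f r = 0 →
        x = 0 ∧ y = 0 ∧ ∀ r, c r ∈ J) := by
  classical
  set Φ := s59p_Φ LH h with hΦ
  set Φ' := s59p_Φ LH' h' with hΦ'
  -- the rows of the matrix of `i`
  choose P1 hP1 using fun j => s59p_exists_Φ_φ LH' h' (i (s59p_bb LH h j, 0))
  choose P2 hP2 using fun j => s59p_exists_Φ_φ LH' h' (i (0, s59p_bb LH h j))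
  let l : ((Fin d → S) × (Fin d → S)) →ₗ[S] (Fin d' → S) :=
    (Fintype.linearCombination S P1).comp (LinearMap.fst S _ _) +
      (Fintype.linearCombination S P2).comp (LinearMap.snd S _ _)
  have hl_apply : ∀ c c' : Fin d → S, l (c, c') = (∑ j, c j • P1 j) + ∑ j, c' j • P2 j := by
    intro c c'
    rfl
  -- the key identity
  have KI : ∀ c c' : Fin d → S,
      i (Φ (fun j => LH.φ (c j)), Φ (fun j => LH.φ (c' j))) =
        Φ' (fun m => LH'.φ (l (c, c') m)) := by
    intro c c'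
    have e1 : (Φ (fun j => LH.φ (c j)), Φ (fun j => LH.φ (c' j))) =
        ∑ j, LH.φ (c j) • ((s59p_bb LH h j, 0) : LH.N × LH.N) +
          ∑ j, LH.φ (c' j) • ((0, s59p_bb LH h j) : LH.N × LH.N) := by
      ext
      · simp only [Prod.fst_add, Prod.fst_sum, Prod.smul_fst, smul_zero, Finset.sum_const_zero,
          add_zero]
        rfl
      · simp only [Prod.snd_add, Prod.snd_sum, Prod.smul_snd, smul_zero, Finset.sum_const_zero,
          zero_add]
        rfl
    rw [e1, map_add, map_sum, map_sum]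
    simp only [map_smul, hP1, hP2, ← hφ]
    have e2 : l (c, c') = (0 : Fin d' → S) + ∑ r : Fin d ⊕ Fin d,
        (Sum.elim c c' r) • (Sum.elim P1 P2 r) := by
      rw [hl_apply, zero_add, Fintype.sum_sum_type]
      rfl
    rw [e2, s59f_Φ_φ_lin LH' h' 0 (Sum.elim c c') (Sum.elim P1 P2), Fintype.sum_sum_type]
    have e3 : Φ' (fun m => LH'.φ ((0 : Fin d' → S) m)) = 0 := by
      have : (fun m => LH'.φ ((0 : Fin d' → S) m)) = (0 : Fin d' → A) := by
        funext m; simp
      rw [this, map_zero]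
    rw [e3, zero_add]
    rfl
  -- the hypothesis of the splitting lemma
  have hl : ∀ v, l v ∈ maximalIdeal S • (⊤ : Submodule S (Fin d' → S)) →
      v ∈ maximalIdeal S • (⊤ : Submodule S ((Fin d → S) × (Fin d → S))) := by
    rintro ⟨c, c'⟩ hv
    have h1 : ∀ m, l (c, c') m ∈ maximalIdeal S := (s59f_mem_smul_top_pi _ _).mp hv
    have h2 : Φ' (fun m => LH'.φ (l (c, c') m)) ∈
        ((maximalIdeal S).map LH'.φ) • (⊤ : Submodule A LH'.N) := by
      rw [s59f_smul_top_eq_Nsub LH' h']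
      exact ⟨_, h1, rfl⟩
    rw [← KI] at h2
    obtain ⟨h3, h4⟩ := hIh _ _ h2
    have hc := s59f_coeff_mem LH h hJ c h3
    have hc' := s59f_coeff_mem LH h hJ c' h4
    have e : ((c, c') : (Fin d → S) × (Fin d → S)) =
        ∑ j, c j • ((Pi.single j 1, 0) : (Fin d → S) × (Fin d → S)) +
          ∑ j, c' j • ((0, Pi.single j 1) : (Fin d → S) × (Fin d → S)) := by
      ext k
      · simp only [Prod.fst_add, Prod.fst_sum, Prod.smul_fst, smul_zero, Finset.sum_const_zero,
          add_zero, Finset.sum_apply, Pi.smul_apply, Pi.single_apply, smul_eq_mul, mul_ite,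
          mul_one, mul_zero]
        rw [Finset.sum_ite_eq Finset.univ k, if_pos (Finset.mem_univ k)]
      · simp only [Prod.snd_add, Prod.snd_sum, Prod.smul_snd, smul_zero, Finset.sum_const_zero,
          zero_add, Finset.sum_apply, Pi.smul_apply, Pi.single_apply, smul_eq_mul, mul_ite,
          mul_one, mul_zero]
        rw [Finset.sum_ite_eq Finset.univ k, if_pos (Finset.mem_univ k)]
    rw [e]
    exact Submodule.add_mem _
      (Submodule.sum_mem _ fun j _ => Submodule.smul_mem_smul (hc j) Submodule.mem_top)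
      (Submodule.sum_mem _ fun j _ => Submodule.smul_mem_smul (hc' j) Submodule.mem_top)
  obtain ⟨dQ, E, hrank, hE⟩ := s59f_split_free l hl
  have hrank' : d + d + dQ = d' := by
    rw [Module.finrank_prod, Module.finrank_fin_fun] at hrank
    exact hrank
  -- the complement basis
  let wQ : Fin dQ → Fin d' → S := fun r => E (0, Pi.single r 1)
  let f : Fin dQ → LH'.N := fun r => Φ' (fun m => LH'.φ (wQ r m))
  have KI2 : ∀ (c c' : Fin d → S) (e : Fin dQ → S),
      i (Φ (fun j => LH.φ (c j)), Φ (fun j => LH.φ (c' j))) + ∑ r, LH'.φ (e r) • f r =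
        Φ' (fun m => LH'.φ (E ((c, c'), e) m)) := by
    intro c c' e
    have e1 : E ((c, c'), e) = l (c, c') + ∑ r, e r • wQ r := by
      have e2 : (((c, c'), e) : ((Fin d → S) × (Fin d → S)) × (Fin dQ → S)) =
          ((c, c'), 0) + ∑ r, e r • ((0, Pi.single r 1) :
            ((Fin d → S) × (Fin d → S)) × (Fin dQ → S)) := by
        ext k
        · simp [Prod.fst_sum]
        · simp [Prod.fst_sum]
        · simp only [Prod.snd_add, Prod.snd_sum, Prod.smul_snd, zero_add, Finset.sum_apply,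
            Pi.smul_apply, Pi.single_apply, smul_eq_mul, mul_ite, mul_one, mul_zero]
          rw [Finset.sum_ite_eq Finset.univ k, if_pos (Finset.mem_univ k)]
      rw [e2, map_add, map_sum, hE]
      congr 1
      exact Finset.sum_congr rfl fun r _ => map_smul _ _ _
    rw [e1, s59f_Φ_φ_lin LH' h' _ e wQ, KI]
  refine ⟨dQ, f, hrank', ?_, ?_⟩
  · intro z
    obtain ⟨w, rfl⟩ := s59p_exists_Φ_φ LH' h' z
    refine ⟨Φ (fun j => LH.φ ((E.symm w).1.1 j)), Φ (fun j => LH.φ ((E.symm w).1.2 j)),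
      (E.symm w).2, ?_⟩
    rw [KI2]
    have : (((E.symm w).1.1, (E.symm w).1.2), (E.symm w).2) = E.symm w := rfl
    rw [this, LinearEquiv.apply_symm_apply]
  · intro x y e hxy
    obtain ⟨c, rfl⟩ := s59p_exists_Φ_φ LH h x
    obtain ⟨c', rfl⟩ := s59p_exists_Φ_φ LH h y
    rw [KI2] at hxy
    have h1 := (s59p_Φ_φ_eq_zero_iff LH' h' _).mp hxy
    set w := E ((c, c'), e) with hw
    have hsymm : E.symm w = ((c, c'), e) := by rw [hw, LinearEquiv.symm_apply_apply]
    have hc : ∀ j, c j ∈ J := by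
      intro j
      have := s59f_pi_mem_of_mem J ((LinearMap.fst S _ _).comp
        ((LinearMap.fst S _ _).comp E.symm.toLinearMap)) h1 j
      simp only [LinearMap.comp_apply, LinearEquiv.coe_coe, hsymm, LinearMap.fst_apply] at this
      exact this
    have hc' : ∀ j, c' j ∈ J := by
      intro j
      have := s59f_pi_mem_of_mem J ((LinearMap.snd S _ _).comp
        ((LinearMap.fst S _ _).comp E.symm.toLinearMap)) h1 j
      simp only [LinearMap.comp_apply, LinearEquiv.coe_coe, hsymm, LinearMap.fst_apply,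
        LinearMap.snd_apply] at this
      exact this
    have he : ∀ r, e r ∈ J := by
      intro r
      have := s59f_pi_mem_of_mem J ((LinearMap.snd S _ _).comp E.symm.toLinearMap) h1 r
      simp only [LinearMap.comp_apply, LinearEquiv.coe_coe, hsymm, LinearMap.snd_apply] at this
      exact this
    exact ⟨(s59p_Φ_φ_eq_zero_iff LH h _).mpr hc, (s59p_Φ_φ_eq_zero_iff LH h _).mpr hc', he⟩

end basis

section quot

variable {S : Type} [CommRing S] {A : Type} [CommRing A]
  {R : Type} [CommRing R] {M : Type} [AddCommGroup M] [Module R M]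
  {R' : Type} [CommRing R'] {M' : Type} [AddCommGroup M'] [Module R' M']
  {𝔞 J : Ideal S}
  (LH : s59p_Level S A R M 𝔞 J) (LH' : s59p_Level S A R' M' 𝔞 J)
  (i : LH.N × LH.N →ₗ[A] LH'.N)
  {MQ : Type} [AddCommGroup MQ] [Module R' MQ] (ρ : M' →ₗ[R'] MQ)

/-- `ρ ∘ π'` as a semilinear map. -/
def s59f_ρπ : LH'.N →ₛₗ[LH'.ψ] MQ where
  toFun z := ρ (LH'.π z)
  map_add' x y := by rw [map_add, map_add]
  map_smul' a x := by rw [LH'.π_smul, map_smul]

theorem s59f_ρπ_apply (z : LH'.N) : s59f_ρπ LH' ρ z = ρ (LH'.π z) := rfl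

theorem s59f_range_le_ker (hρi : ∀ x y, ρ (LH'.π (i (x, y))) = 0) :
    LinearMap.range i ≤ LinearMap.ker (s59f_ρπ LH' ρ) := by
  rintro _ ⟨⟨x, y⟩, rfl⟩
  rw [LinearMap.mem_ker, s59f_ρπ_apply]
  exact hρi x y

/-- **the quotient level** `N' ⧸ i (N × N)` over the base module `MQ = M' ⧸ i₀ (M × M)`. -/
noncomputable def s59f_quotLevel (hρ : Function.Surjective ρ)
    (hρi : ∀ x y, ρ (LH'.π (i (x, y))) = 0)
    (hρk : ∀ z, ρ (LH'.π z) = 0 → ∃ x y, LH'.π (z - i (x, y)) = 0)
    (dQ : ℕ) (f : Fin dQ → LH'.N)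
    (hspan : ∀ z : LH'.N, ∃ (x y : LH.N) (c : Fin dQ → S),
        z = i (x, y) + ∑ r, LH'.φ (c r) • f r)
    (hrel : ∀ (x y : LH.N) (c : Fin dQ → S), i (x, y) + ∑ r, LH'.φ (c r) • f r = 0 →
        ∀ r, c r ∈ J) :
    s59p_Level S A R' MQ 𝔞 J where
  N := LH'.N ⧸ LinearMap.range i
  φ := LH'.φ
  ψ := LH'.ψ
  ψ_surjective := LH'.ψ_surjective
  ψ_φ := LH'.ψ_φ
  π := ((LinearMap.range i).liftQ (s59f_ρπ LH' ρ)
    (s59f_range_le_ker LH LH' i ρ hρi)).toAddMonoidHom
  π_smul := by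
    intro a q
    exact LinearMap.map_smulₛₗ ((LinearMap.range i).liftQ (s59f_ρπ LH' ρ)
      (s59f_range_le_ker LH LH' i ρ hρi)) a q
  π_surjective := by
    intro m
    obtain ⟨m', rfl⟩ := hρ m
    obtain ⟨z, rfl⟩ := LH'.π_surjective m'
    exact ⟨Submodule.Quotient.mk z, rfl⟩
  ker_π := by
    intro q
    obtain ⟨z, rfl⟩ := Submodule.Quotient.mk_surjective _ q
    have hmap : (𝔞.map LH'.φ) • (⊤ : Submodule A (LH'.N ⧸ LinearMap.range i)) =
        Submodule.map (LinearMap.range i).mkQ ((𝔞.map LH'.φ) • (⊤ : Submodule A LH'.N)) := by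
      rw [Submodule.map_smul'', Submodule.map_top, Submodule.range_mkQ]
    constructor
    · intro hz
      have hz' : ρ (LH'.π z) = 0 := hz
      obtain ⟨x, y, hxy⟩ := hρk z hz'
      have h1 := (LH'.ker_π _).mp hxy
      rw [hmap]
      refine ⟨z - i (x, y), h1, ?_⟩
      rw [Submodule.mkQ_apply, Submodule.Quotient.mk_sub, sub_eq_self,
        Submodule.Quotient.mk_eq_zero]
      exact ⟨(x, y), rfl⟩
    · intro hz
      rw [hmap] at hz
      obtain ⟨z', hz', e⟩ := hz
      rw [← e]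
      have h1 := (LH'.ker_π z').mpr hz'
      show ρ (LH'.π z') = 0
      rw [h1, map_zero]
  d := dQ
  b := fun r => Submodule.Quotient.mk (f r)
  b_span := by
    intro q
    obtain ⟨z, rfl⟩ := Submodule.Quotient.mk_surjective _ q
    obtain ⟨x, y, c, rfl⟩ := hspan z
    refine ⟨c, ?_⟩
    have h0 : (Submodule.Quotient.mk (i (x, y)) : LH'.N ⧸ LinearMap.range i) = 0 :=
      (Submodule.Quotient.mk_eq_zero _).mpr (LinearMap.mem_range_self i (x, y))
    rw [Submodule.Quotient.mk_add, h0, zero_add, ← Submodule.mkQ_apply, map_sum]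
    exact Finset.sum_congr rfl fun r _ => map_smul _ _ _
  b_rel := by
    intro c
    have e : (∑ r, LH'.φ (c r) • (Submodule.Quotient.mk (f r) : LH'.N ⧸ LinearMap.range i)) =
        Submodule.Quotient.mk (∑ r, LH'.φ (c r) • f r) := by
      rw [← Submodule.mkQ_apply, map_sum]
      exact Finset.sum_congr rfl fun r _ => (map_smul (LinearMap.range i).mkQ _ _).symm
    rw [e, Submodule.Quotient.mk_eq_zero]
    constructor
    · rintro ⟨⟨x, y⟩, hxy⟩
      refine hrel (-x) (-y) c ?_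
      have : ((-x, -y) : LH.N × LH.N) = -(x, y) := rfl
      rw [this, map_neg, hxy, neg_add_cancel]
    · intro hc
      have : ∑ r, LH'.φ (c r) • f r = 0 :=
        Finset.sum_eq_zero fun r _ => s59f_J_smul LH' (hc r) (f r)
      rw [this]
      exact Submodule.zero_mem _

end quot

section final

variable {S : Type} [CommRing S] [IsLocalRing S] {A : Type} [CommRing A] [IsLocalRing A]
  {R : Type} [CommRing R] {M : Type} [AddCommGroup M] [Module R M]
  {R' : Type} [CommRing R'] {M' : Type} [AddCommGroup M'] [Module R' M']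
  {𝔞 J : Ideal S}
  (LH : s59p_Level S A R M 𝔞 J) (LH' : s59p_Level S A R' M' 𝔞 J)

/-- **`tr` is onto if it is onto modulo `𝔪` at the base level** (Nakayama over `A`). -/
theorem s59f_tr_surj (I : Ideal A) (hI : I ≤ maximalIdeal A) (h𝔞 : 𝔞.map LH.φ ≤ I)
    (tr : LH'.N →ₗ[A] LH.N × LH.N) (tr₀ : M' → M × M)
    (hcompat : ∀ z, (LH.π (tr z).1, LH.π (tr z).2) = tr₀ (LH'.π z))
    (h₀ : ∀ m₁ m₂ : M, ∃ m' : M',
      (tr₀ m').1 - m₁ ∈ (I.map LH.ψ) • (⊤ : Submodule R M) ∧
      (tr₀ m').2 - m₂ ∈ (I.map LH.ψ) • (⊤ : Submodule R M)) :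
    Function.Surjective tr := by
  have hprod : ∀ u v : LH.N, u ∈ I • (⊤ : Submodule A LH.N) → v ∈ I • (⊤ : Submodule A LH.N) →
      ((u, v) : LH.N × LH.N) ∈ I • (⊤ : Submodule A (LH.N × LH.N)) := by
    intro u v hu hv
    have h1 : ∀ u ∈ I • (⊤ : Submodule A LH.N),
        ((u, 0) : LH.N × LH.N) ∈ I • (⊤ : Submodule A (LH.N × LH.N)) := by
      intro u hu
      refine Submodule.smul_induction_on hu ?_ ?_
      · intro r hr n _
        have : ((r • n, 0) : LH.N × LH.N) = r • ((n, 0) : LH.N × LH.N) := by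
          ext <;> simp
        rw [this]
        exact Submodule.smul_mem_smul hr Submodule.mem_top
      · intro x y hx hy
        have : ((x + y, 0) : LH.N × LH.N) = (x, 0) + (y, 0) := by ext <;> simp
        rw [this]
        exact Submodule.add_mem _ hx hy
    have h2 : ∀ v ∈ I • (⊤ : Submodule A LH.N),
        ((0, v) : LH.N × LH.N) ∈ I • (⊤ : Submodule A (LH.N × LH.N)) := by
      intro v hv
      refine Submodule.smul_induction_on hv ?_ ?_
      · intro r hr n _
        have : ((0, r • n) : LH.N × LH.N) = r • ((0, n) : LH.N × LH.N) := by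
          ext <;> simp
        rw [this]
        exact Submodule.smul_mem_smul hr Submodule.mem_top
      · intro x y hx hy
        have : ((0, x + y) : LH.N × LH.N) = (0, x) + (0, y) := by ext <;> simp
        rw [this]
        exact Submodule.add_mem _ hx hy
    have : ((u, v) : LH.N × LH.N) = (u, 0) + (0, v) := by ext <;> simp
    rw [this]
    exact Submodule.add_mem _ (h1 u hu) (h2 v hv)
  have hsup : (⊤ : Submodule A (LH.N × LH.N)) ≤
      LinearMap.range tr ⊔ I • (⊤ : Submodule A (LH.N × LH.N)) := by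
    rintro ⟨x, y⟩ -
    obtain ⟨m', hm1, hm2⟩ := h₀ (LH.π x) (LH.π y)
    obtain ⟨z, rfl⟩ := LH'.π_surjective m'
    rw [← hcompat] at hm1 hm2
    have h1 : (tr z).1 - x ∈ I • (⊤ : Submodule A LH.N) := by
      refine s59f_π_lift LH I h𝔞 ?_
      rw [map_sub]
      exact hm1
    have h2 : (tr z).2 - y ∈ I • (⊤ : Submodule A LH.N) := by
      refine s59f_π_lift LH I h𝔞 ?_
      rw [map_sub]
      exact hm2
    have e : ((x, y) : LH.N × LH.N) = tr z - ((tr z).1 - x, (tr z).2 - y) := by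
      ext <;> simp
    rw [e]
    exact Submodule.sub_mem _ (Submodule.mem_sup_left (LinearMap.mem_range_self tr z))
      (Submodule.mem_sup_right (hprod _ _ h1 h2))
  have hjac : I ≤ Ideal.jacobson (⊥ : Ideal A) := by
    rw [IsLocalRing.jacobson_eq_maximalIdeal ⊥ bot_ne_top]
    exact hI
  have hfg : (⊤ : Submodule A (LH.N × LH.N)).FG := Module.Finite.fg_top
  have := Submodule.le_of_le_smul_of_le_jacobson_bot hfg hjac hsup
  rw [← LinearMap.range_eq_top]
  exact top_le_iff.mp this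

/-- **the `T`-side reduction of the degeneracy package.**  INPUT at level `n` (all `A`-linear):
`i`, `tr` with `tr ∘ i = G`; their compatibility with base-level maps `i₀`, `tr₀`; Ihara's lemma
and its dual at the BASE level modulo `𝔪_S`; the base quotient `ρ : M' → MQ`, `ker ρ = im i₀`;
an ideal `𝔫` with `𝔫 N' ⊆ i (N × N)`.  OUTPUT: the quotient level `LQ` (free of rank `d' - 2d` over
`S/J`), the package `s59f_Raise LH LH' LQ G`, and `𝔫 ≤ Ann NQ`. -/
theorem s59f_raise_of_T (hφ : LH'.φ = LH.φ) (hJ : J ≤ maximalIdeal S) (h𝔞 : 𝔞 ≤ maximalIdeal S)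
    (hloc : (maximalIdeal S).map LH.φ ≤ maximalIdeal A)
    (i : LH.N × LH.N →ₗ[A] LH'.N) (tr : LH'.N →ₗ[A] LH.N × LH.N) (g11 g12 g21 g22 : A)
    (hG : ∀ u v : LH.N, tr (i (u, v)) = (g11 • u + g12 • v, g21 • u + g22 • v))
    (i₀ : M × M → M') (tr₀ : M' → M × M)
    (hi : ∀ x y, LH'.π (i (x, y)) = i₀ (LH.π x, LH.π y))
    (htr : ∀ z, (LH.π (tr z).1, LH.π (tr z).2) = tr₀ (LH'.π z))
    (hIh : ∀ m₁ m₂ : M,
      i₀ (m₁, m₂) ∈ (((maximalIdeal S).map LH'.φ).map LH'.ψ) • (⊤ : Submodule R' M') →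
      m₁ ∈ (((maximalIdeal S).map LH.φ).map LH.ψ) • (⊤ : Submodule R M) ∧
      m₂ ∈ (((maximalIdeal S).map LH.φ).map LH.ψ) • (⊤ : Submodule R M))
    (hIh' : ∀ m₁ m₂ : M, ∃ m' : M',
      (tr₀ m').1 - m₁ ∈ (((maximalIdeal S).map LH.φ).map LH.ψ) • (⊤ : Submodule R M) ∧
      (tr₀ m').2 - m₂ ∈ (((maximalIdeal S).map LH.φ).map LH.ψ) • (⊤ : Submodule R M))
    {MQ : Type} [AddCommGroup MQ] [Module R' MQ] (ρ : M' →ₗ[R'] MQ)
    (hρ : Function.Surjective ρ) (hρker : ∀ m' : M', ρ m' = 0 ↔ ∃ m₁ m₂, i₀ (m₁, m₂) = m')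
    (𝔫 : Ideal A) (h𝔫 : ∀ a ∈ 𝔫, ∀ z : LH'.N, a • z ∈ LinearMap.range i) :
    ∃ LQ : s59p_Level S A R' MQ 𝔞 J, LH.d + LH.d + LQ.d = LH'.d ∧
      s59f_Raise LH LH' LQ g11 g12 g21 g22 ∧ 𝔫 ≤ Module.annihilator A LQ.N := by
  classical
  -- Ihara at level `n`
  have hIhn := s59f_ihara_up LH LH' (maximalIdeal S) h𝔞 i i₀ hi hIh
  obtain ⟨dQ, f, hrank, hspan, hrel⟩ := s59f_quot_basis LH LH' hφ rfl rfl hJ i hIhn
  have hρi : ∀ x y, ρ (LH'.π (i (x, y))) = 0 := by
    intro x y
    rw [hi, hρker]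
    exact ⟨_, _, rfl⟩
  have hρk : ∀ z, ρ (LH'.π z) = 0 → ∃ x y, LH'.π (z - i (x, y)) = 0 := by
    intro z hz
    obtain ⟨m₁, m₂, e⟩ := (hρker _).mp hz
    obtain ⟨x, rfl⟩ := LH.π_surjective m₁
    obtain ⟨y, rfl⟩ := LH.π_surjective m₂
    exact ⟨x, y, by rw [map_sub, hi, e, sub_self]⟩
  let LQ := s59f_quotLevel LH LH' i ρ hρ hρi hρk dQ f hspan
    (fun x y c hxy => (hrel x y c hxy).2.2)
  have htrs : Function.Surjective tr :=
    s59f_tr_surj LH LH' ((maximalIdeal S).map LH.φ) hloc (Ideal.map_mono h𝔞) tr tr₀ htr hIh'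
  refine ⟨LQ, hrank, ⟨⟨i, tr, (LinearMap.range i).mkQ, Submodule.mkQ_surjective _, ?_, htrs, hG⟩⟩,
    ?_⟩
  · intro z
    exact Submodule.Quotient.mk_eq_zero _
  · intro a ha
    rw [Module.mem_annihilator]
    intro q
    obtain ⟨z, rfl⟩ := Submodule.Quotient.mk_surjective _ q
    exact (Submodule.Quotient.mk_eq_zero _).mpr (h𝔫 a ha z)

end final

end Fermat.Agent.Lib.S59
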