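/-
PROGRAMME R2 = S59, node [FLR] in its WEAK-TRACE form ([W3], abstract half; helper2, prefix `s59b_`).

Twins of helper4's `FRaiseT.lean` / `FRaiseT2.lean` in which the clause "`tr` is onto" (which was
obtained there by Nakayama from the DUAL Ihara lemma at the base level, `hIh'`) is replaced by the
level-`n` INPUT "`b` kills the cokernel of `tr`":

* `s59b_raiseW_of_T`     : twin of `s59f_raise_of_T`; `hIh'` is gone, `hTw` comes in;
* `s59b_TStepW`          : twin of `s59f_TStep` (one step, one Taylor–Wiles level, as a `Prop`);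
* `s59b_raiseW_of_TStepW`: twin of `s59f_raise_of_TStep`;
* `s59b_patch_of_T_w`    : twin of `s59f_patch_of_T` (patched levels with `s59b_RaiseW`);
* `s59b_FLR_main_w`      : twin of `s59f_FLR_main` over `s59b_RingDataW`;
* `s59b_FLR_points_w`    : twin of `s59f_FLR_points`.
-/
import Mathlib
import Fermat.Agent.Lib.S59.FRaiseT2
import Fermat.Agent.Lib.S59.B9Pm1WD

set_option autoImplicit false
set_option linter.unusedSectionVars false
set_option linter.unusedVariables false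
set_option linter.style.haveILetI false
set_option maxHeartbeats 1600000

namespace Fermat.Agent.Lib.S59

open IsLocalRing

/-- **the `T`-side reduction of the degeneracy package, weak trace clause.**  As
`s59f_raise_of_T`, but the dual Ihara lemma at the base level is replaced by the level-`n` input
`hTw : b • (N × N) ⊆ range tr`. -/
theorem s59b_raiseW_of_T {S : Type} [CommRing S] [IsLocalRing S] {A : Type} [CommRing A]
    [IsLocalRing A]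
    {R : Type} [CommRing R] {M : Type} [AddCommGroup M] [Module R M]
    {R' : Type} [CommRing R'] {M' : Type} [AddCommGroup M'] [Module R' M']
    {𝔞 J : Ideal S}
    (LH : s59p_Level S A R M 𝔞 J) (LH' : s59p_Level S A R' M' 𝔞 J)
    (hφ : LH'.φ = LH.φ) (hJ : J ≤ maximalIdeal S) (h𝔞 : 𝔞 ≤ maximalIdeal S)
    (i : LH.N × LH.N →ₗ[A] LH'.N) (tr : LH'.N →ₗ[A] LH.N × LH.N) (g11 g12 g21 g22 b : A)
    (hG : ∀ u v : LH.N, tr (i (u, v)) = (g11 • u + g12 • v, g21 • u + g22 • v))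
    (i₀ : M × M → M')
    (hi : ∀ x y, LH'.π (i (x, y)) = i₀ (LH.π x, LH.π y))
    (hIh : ∀ m₁ m₂ : M,
      i₀ (m₁, m₂) ∈ (((maximalIdeal S).map LH'.φ).map LH'.ψ) • (⊤ : Submodule R' M') →
      m₁ ∈ (((maximalIdeal S).map LH.φ).map LH.ψ) • (⊤ : Submodule R M) ∧
      m₂ ∈ (((maximalIdeal S).map LH.φ).map LH.ψ) • (⊤ : Submodule R M))
    (hTw : ∀ u v : LH.N, ∃ z : LH'.N, tr z = b • ((u, v) : LH.N × LH.N))
    {MQ : Type} [AddCommGroup MQ] [Module R' MQ] (ρ : M' →ₗ[R'] MQ)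
    (hρ : Function.Surjective ρ) (hρker : ∀ m' : M', ρ m' = 0 ↔ ∃ m₁ m₂, i₀ (m₁, m₂) = m')
    (𝔫 : Ideal A) (h𝔫 : ∀ a ∈ 𝔫, ∀ z : LH'.N, a • z ∈ LinearMap.range i) :
    ∃ LQ : s59p_Level S A R' MQ 𝔞 J, LH.d + LH.d + LQ.d = LH'.d ∧
      s59b_RaiseW LH LH' LQ g11 g12 g21 g22 b ∧ 𝔫 ≤ Module.annihilator A LQ.N := by
  classical
  -- Ihara at level `n`
  have hIhn := s59f_ihara_up LH LH' (maximalIdeal S) h𝔞 i i₀ hi hIh
  obtain ⟨dQ, f, hrank, hspan, hrel⟩ := s59f_quot_basis LH LH' hφ rfl rfl hJ i hIhn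
  have hρi : ∀ x y, ρ (LH'.π (i (x, y))) = 0 := by
    intro x y
    rw [hi, hρker]
    exact ⟨_, _, rfl⟩
  have hρk : ∀ z, ρ (LH'.π z) = 0 → ∃ x y, LH'.π (z - i (x, y)) = 0 := by
    intro z hz
    obtain ⟨m₁, m₂, e⟩ := (hρker _).mp hz
    obtain ⟨x, rfl⟩ := LH.π_surjective m₁
    obtain ⟨y, rfl⟩ := LH.π_surjective m₂
    exact ⟨x, y, by rw [map_sub, hi, e, sub_self]⟩
  let LQ := s59f_quotLevel LH LH' i ρ hρ hρi hρk dQ f hspan
    (fun x y c hxy => (hrel x y c hxy).2.2)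
  have htrw : ∀ z : LH.N × LH.N, b • z ∈ LinearMap.range tr := by
    rintro ⟨u, v⟩
    obtain ⟨z, hz⟩ := hTw u v
    exact ⟨z, hz⟩
  refine ⟨LQ, hrank, ⟨⟨i, tr, (LinearMap.range i).mkQ, Submodule.mkQ_surjective _, ?_, htrw, hG⟩⟩,
    ?_⟩
  · intro z
    exact Submodule.Quotient.mk_eq_zero _
  · intro a ha
    rw [Module.mem_annihilator]
    intro q
    obtain ⟨z, rfl⟩ := Submodule.Quotient.mk_surjective _ q
    exact (Submodule.Quotient.mk_eq_zero _).mpr (h𝔫 a ha z)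

/-- the `T`-side leaves for one step and one Taylor–Wiles level, weak trace clause. -/
structure s59b_TStepW {S : Type} [CommRing S] [IsLocalRing S] {A : Type} [CommRing A]
    {R : Type} [CommRing R] {M : Type} [AddCommGroup M] [Module R M]
    {R' : Type} [CommRing R'] {M' : Type} [AddCommGroup M'] [Module R' M'] {𝔞 J : Ideal S}
    (LH : s59p_Level S A R M 𝔞 J) (LH' : s59p_Level S A R' M' 𝔞 J) (g11 g12 g21 g22 b : A)
    {MQ : Type} [AddCommGroup MQ] [Module R' MQ] (ρ : M' →ₗ[R'] MQ) (𝔫 : Ideal A) : Prop where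
  hφ : LH'.φ = LH.φ
  ex : ∃ (i : LH.N × LH.N →ₗ[A] LH'.N) (tr : LH'.N →ₗ[A] LH.N × LH.N)
      (i₀ : M × M → M'),
    (∀ u v : LH.N, tr (i (u, v)) = (g11 • u + g12 • v, g21 • u + g22 • v)) ∧
    (∀ x y, LH'.π (i (x, y)) = i₀ (LH.π x, LH.π y)) ∧
    (∀ m₁ m₂ : M,
      i₀ (m₁, m₂) ∈ (((maximalIdeal S).map LH'.φ).map LH'.ψ) • (⊤ : Submodule R' M') →
      m₁ ∈ (((maximalIdeal S).map LH.φ).map LH.ψ) • (⊤ : Submodule R M) ∧
      m₂ ∈ (((maximalIdeal S).map LH.φ).map LH.ψ) • (⊤ : Submodule R M)) ∧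
    (∀ u v : LH.N, ∃ z : LH'.N, tr z = b • ((u, v) : LH.N × LH.N)) ∧
    (∀ m' : M', ρ m' = 0 ↔ ∃ m₁ m₂, i₀ (m₁, m₂) = m') ∧
    (∀ a ∈ 𝔫, ∀ z : LH'.N, a • z ∈ LinearMap.range i)

/-- `s59b_raiseW_of_T` in terms of `s59b_TStepW`. -/
theorem s59b_raiseW_of_TStepW {S : Type} [CommRing S] [IsLocalRing S] {A : Type} [CommRing A]
    [IsLocalRing A] {R : Type} [CommRing R] {M : Type} [AddCommGroup M] [Module R M]
    {R' : Type} [CommRing R'] {M' : Type} [AddCommGroup M'] [Module R' M'] {𝔞 J : Ideal S}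
    (LH : s59p_Level S A R M 𝔞 J) (LH' : s59p_Level S A R' M' 𝔞 J) (g11 g12 g21 g22 b : A)
    {MQ : Type} [AddCommGroup MQ] [Module R' MQ] (ρ : M' →ₗ[R'] MQ) (𝔫 : Ideal A)
    (hJ : J ≤ maximalIdeal S) (h𝔞 : 𝔞 ≤ maximalIdeal S)
    (hρ : Function.Surjective ρ)
    (hT : s59b_TStepW LH LH' g11 g12 g21 g22 b ρ 𝔫) :
    ∃ LQ : s59p_Level S A R' MQ 𝔞 J, LH.d + LH.d + LQ.d = LH'.d ∧
      s59b_RaiseW LH LH' LQ g11 g12 g21 g22 b ∧ 𝔫 ≤ Module.annihilator A LQ.N := by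
  obtain ⟨i, tr, i₀, hG, hi, hIh, hTw, hρker, h𝔫⟩ := hT.ex
  exact s59b_raiseW_of_T LH LH' hT.hφ hJ h𝔞 i tr g11 g12 g21 g22 b hG i₀ hi hIh hTw ρ hρ
    hρker 𝔫 h𝔫

/-- **patching the `T`-side, weak trace clause.** -/
theorem s59b_patch_of_T_w (S : Type) [CommRing S] [IsLocalRing S] [IsNoetherianRing S]
    [IsAdicComplete (maximalIdeal S) S] [Finite (ResidueField S)]
    (A : Type) [CommRing A] [IsLocalRing A] [IsNoetherianRing A]
    [IsAdicComplete (maximalIdeal A) A] [Finite (ResidueField A)]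
    (𝔞 : Ideal S) (h𝔞 : 𝔞 ≤ maximalIdeal S) (J : ℕ → Ideal S)
    (hJ : ∀ n, J n ≤ maximalIdeal S ^ (n + 1)) (k : ℕ)
    (R : ℕ → Type) [∀ t, CommRing (R t)] [∀ t, IsLocalRing (R t)] [∀ t, IsNoetherianRing (R t)]
    [∀ t, IsAdicComplete (maximalIdeal (R t)) (R t)]
    (M : ℕ → Type) [∀ t, AddCommGroup (M t)] [∀ t, Module (R t) (M t)]
    [∀ t, Module.Finite (R t) (M t)]
    (MQ : ℕ → Type) [∀ t, AddCommGroup (MQ t)] [∀ t, Module (R (t + 1)) (MQ t)]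
    (ρ : ∀ t, M (t + 1) →ₗ[R (t + 1)] MQ t) (hρ : ∀ t, Function.Surjective (ρ t))
    (hρinj : ∀ t, k ≤ t → Function.Injective (ρ t))
    (LH : ∀ t n, s59p_Level S A (R t) (M t) 𝔞 (J n)) (d : ℕ → ℕ) (hd : ∀ t n, (LH t n).d = d t)
    (g11 g12 g21 g22 b : ℕ → A) (𝔫 : ℕ → Ideal A)
    (hT : ∀ t < k, ∀ n, s59b_TStepW (LH t n) (LH (t + 1) n) (g11 t) (g12 t) (g21 t) (g22 t) (b t)
      (ρ t) (𝔫 t)) :
    ∃ (ms : ℕ → ℕ) (LHi : ∀ t, s59p_Level S A (R t) (M t) 𝔞 ⊥)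
      (LQi : ∀ t, s59p_Level S A (R (t + 1)) (MQ t) 𝔞 ⊥),
      (∀ n, n ≤ ms n) ∧
      (∀ t < k,
        s59b_RaiseW (LHi t) (LHi (t + 1)) (LQi t) (g11 t) (g12 t) (g21 t) (g22 t) (b t)) ∧
      (∀ t < k, 𝔫 t ≤ Module.annihilator A (LQi t).N) ∧
      (∀ t ≤ k, ∀ a : A, (∀ n, a ∈ Module.annihilator A (LH t n).N) →
        a ∈ Module.annihilator A (LHi t).N) ∧
      (∀ t ≤ k, ∀ n a, (LH t (ms n)).ψ a - (LHi t).ψ a ∈ maximalIdeal (R t) ^ n) ∧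
      (∀ t ≤ k, ∀ n s, (LH t (ms n)).φ s - (LHi t).φ s ∈ maximalIdeal A ^ n) := by
  classical
  haveI : ∀ t, Module.Finite (R (t + 1)) (MQ t) := fun t =>
    Module.Finite.of_surjective (ρ t) (hρ t)
  have hJ1 : ∀ n, J n ≤ maximalIdeal S := fun n =>
    (hJ n).trans (Ideal.pow_le_self (Nat.succ_ne_zero n))
  have hJn : ∀ n, J n ≤ maximalIdeal S ^ n := fun n =>
    (hJ n).trans (Ideal.pow_le_pow_right (Nat.le_succ n))
  -- the new quotients at every level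
  have hQ : ∀ t n, ∃ LQ : s59p_Level S A (R (t + 1)) (MQ t) 𝔞 (J n),
      (t < k → d t + d t + LQ.d = d (t + 1) ∧
        s59b_RaiseW (LH t n) (LH (t + 1) n) LQ (g11 t) (g12 t) (g21 t) (g22 t) (b t) ∧
        𝔫 t ≤ Module.annihilator A LQ.N) ∧
      (¬ t < k → LQ.d = d (t + 1)) := by
    intro t n
    by_cases ht : t < k
    · obtain ⟨LQ, h1, h2, h3⟩ := s59b_raiseW_of_TStepW (LH t n) (LH (t + 1) n) (g11 t) (g12 t)
        (g21 t) (g22 t) (b t) (ρ t) (𝔫 t) (hJ1 n) h𝔞 (hρ t) (hT t ht n)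
      refine ⟨LQ, fun _ => ⟨?_, h2, h3⟩, fun h => absurd ht h⟩
      rw [← hd t n, ← hd (t + 1) n]; exact h1
    · refine ⟨s59f_pushLevel (LH (t + 1) n) (ρ t) ⟨hρinj t (not_lt.mp ht), hρ t⟩,
        fun h => absurd h ht, fun _ => hd (t + 1) n⟩
  choose LQ hLQ1 hLQ2 using hQ
  let dQ : ℕ → ℕ := fun t => if t < k then d (t + 1) - (d t + d t) else d (t + 1)
  have hdQ : ∀ t n, (LQ t n).d = dQ t := by
    intro t n
    by_cases ht : t < k
    · have := (hLQ1 t n ht).1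
      simp only [dQ, if_pos ht]
      omega
    · simp only [dQ, if_neg ht]
      exact hLQ2 t n ht
  obtain ⟨ms, LHi, LQi, hms, h1, h2, h3, h4, h5⟩ := s59b_fpm1s_w S A 𝔞 J hJn k R M
    (fun t => R (t + 1)) MQ LH LQ d dQ hd hdQ g11 g12 g21 g22 b
    (fun t ht n => (hLQ1 t n ht).2.1)
  refine ⟨ms, LHi, LQi, hms, h1, ?_, ?_, h4, h5⟩
  · intro t ht a ha
    exact h3 t ht.le a fun n => (hLQ1 t (ms n) ht).2.2 ha
  · intro t ht a ha
    exact h2 t ht a fun n => ha (ms n)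

/-- **[FLR], main theorem, weak trace clause**: the weak `T`-side leaves + the ring contract
`s59b_RingDataW` (with `b t ∉ 𝔔_t`) ⇒ the patched module of level `N_t` is supported on the
component `𝒦 (c t)`, for all `t ≤ k`. -/
theorem s59b_FLR_main_w (S : Type) [CommRing S] [IsDomain S] [IsLocalRing S] [IsNoetherianRing S]
    [IsAdicComplete (maximalIdeal S) S] [Finite (ResidueField S)]
    (A : Type) [CommRing A] [IsLocalRing A] [IsNoetherianRing A]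
    [IsAdicComplete (maximalIdeal A) A] [Finite (ResidueField A)]
    (𝔞 : Ideal S) (h𝔞 : 𝔞 ≤ maximalIdeal S) (J : ℕ → Ideal S)
    (hJ : ∀ n, J n ≤ maximalIdeal S ^ (n + 1)) (k : ℕ)
    (R : ℕ → Type) [∀ t, CommRing (R t)] [∀ t, IsLocalRing (R t)] [∀ t, IsNoetherianRing (R t)]
    [∀ t, IsAdicComplete (maximalIdeal (R t)) (R t)]
    (M : ℕ → Type) [∀ t, AddCommGroup (M t)] [∀ t, Module (R t) (M t)]
    [∀ t, Module.Finite (R t) (M t)] [Nontrivial (M 0)]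
    (MQ : ℕ → Type) [∀ t, AddCommGroup (MQ t)] [∀ t, Module (R (t + 1)) (MQ t)]
    (ρ : ∀ t, M (t + 1) →ₗ[R (t + 1)] MQ t) (hρ : ∀ t, Function.Surjective (ρ t))
    (hρinj : ∀ t, k ≤ t → Function.Injective (ρ t))
    (LH : ∀ t n, s59p_Level S A (R t) (M t) 𝔞 (J n)) (d : ℕ → ℕ) (hd : ∀ t n, (LH t n).d = d t)
    (g11 g12 g21 g22 b : ℕ → A) (𝔫 : ℕ → Ideal A)
    (hT : ∀ t < k, ∀ n, s59b_TStepW (LH t n) (LH (t + 1) n) (g11 t) (g12 t) (g21 t) (g22 t) (b t)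
      (ρ t) (𝔫 t))
    {ι : Type*} (s : Finset ι) (𝒦 : ι → Ideal A) (c : ℕ → ι)
    (hring : s59b_RingDataW S A s 𝒦 k c (fun t => g11 t * g22 t - g12 t * g21 t) 𝔫 b)
    (hkill : ∀ t ≤ k, ∀ n, s.inf 𝒦 ≤ Module.annihilator A (LH t n).N)
    (h0 : ∀ n, 𝒦 (c 0) ≤ Module.annihilator A (LH 0 n).N) :
    ∃ (ms : ℕ → ℕ) (LHi : ∀ t, s59p_Level S A (R t) (M t) 𝔞 ⊥), (∀ n, n ≤ ms n) ∧
      (∀ t ≤ k, Module.annihilator A (LHi t).N ≤ 𝒦 (c t)) ∧
      (∀ t ≤ k, ∀ n a, (LH t (ms n)).ψ a - (LHi t).ψ a ∈ maximalIdeal (R t) ^ n) ∧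
      (∀ t ≤ k, ∀ n s, (LH t (ms n)).φ s - (LHi t).φ s ∈ maximalIdeal A ^ n) := by
  obtain ⟨ms, LHi, LQi, hms, h1, h2, h3, h4, h5⟩ := s59b_patch_of_T_w S A 𝔞 h𝔞 J hJ k R M MQ ρ hρ
    hρinj LH d hd g11 g12 g21 g22 b 𝔫 hT
  refine ⟨ms, LHi, hms, ?_, h4, h5⟩
  refine s59b_chain_w S A 𝔞 k R M (fun t => R (t + 1)) MQ LHi LQi g11 g12 g21 g22 b s 𝒦 c 𝔫 hring
    h1 ?_ (fun t ht => (h2 t ht).trans Ideal.le_radical) ?_
  · intro t ht a ha
    exact s59b_ann_le_w (h1 t ht) (h3 (t + 1) ht a fun n => hkill (t + 1) ht n ha)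
  · intro a ha
    exact h3 0 (Nat.zero_le k) a fun n => h0 n ha

/-- **[FLR] + [F-PT], weak trace clause**: a point `x` of `R_k` whose pull-backs to `A` all lie on
the last component is in the support of `M_k`. -/
theorem s59b_FLR_points_w (S : Type) [CommRing S] [IsDomain S] [IsLocalRing S]
    [IsNoetherianRing S]
    [IsAdicComplete (maximalIdeal S) S] [Finite (ResidueField S)]
    (A : Type) [CommRing A] [IsLocalRing A] [IsNoetherianRing A]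
    [IsAdicComplete (maximalIdeal A) A] [Finite (ResidueField A)]
    (𝔞 : Ideal S) (h𝔞 : 𝔞 ≤ maximalIdeal S) (J : ℕ → Ideal S)
    (hJ : ∀ n, J n ≤ maximalIdeal S ^ (n + 1)) (k : ℕ)
    (R : ℕ → Type) [∀ t, CommRing (R t)] [∀ t, IsLocalRing (R t)] [∀ t, IsNoetherianRing (R t)]
    [∀ t, IsAdicComplete (maximalIdeal (R t)) (R t)]
    (M : ℕ → Type) [∀ t, AddCommGroup (M t)] [∀ t, Module (R t) (M t)]
    [∀ t, Module.Finite (R t) (M t)] [Nontrivial (M 0)]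
    (MQ : ℕ → Type) [∀ t, AddCommGroup (MQ t)] [∀ t, Module (R (t + 1)) (MQ t)]
    (ρ : ∀ t, M (t + 1) →ₗ[R (t + 1)] MQ t) (hρ : ∀ t, Function.Surjective (ρ t))
    (hρinj : ∀ t, k ≤ t → Function.Injective (ρ t))
    (LH : ∀ t n, s59p_Level S A (R t) (M t) 𝔞 (J n)) (d : ℕ → ℕ) (hd : ∀ t n, (LH t n).d = d t)
    (g11 g12 g21 g22 b : ℕ → A) (𝔫 : ℕ → Ideal A)
    (hT : ∀ t < k, ∀ n, s59b_TStepW (LH t n) (LH (t + 1) n) (g11 t) (g12 t) (g21 t) (g22 t) (b t)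
      (ρ t) (𝔫 t))
    {ι : Type*} (s : Finset ι) (𝒦 : ι → Ideal A) (c : ℕ → ι)
    (hring : s59b_RingDataW S A s 𝒦 k c (fun t => g11 t * g22 t - g12 t * g21 t) 𝔫 b)
    (hkill : ∀ t ≤ k, ∀ n, s.inf 𝒦 ≤ Module.annihilator A (LH t n).N)
    (h0 : ∀ n, 𝒦 (c 0) ≤ Module.annihilator A (LH 0 n).N)
    (𝒪 : Type) [CommRing 𝒪] [IsDomain 𝒪] [IsLocalRing 𝒪] [IsNoetherianRing 𝒪]
    (x : R k →+* 𝒪) (hx : ∀ r ∈ maximalIdeal (R k), x r ∈ maximalIdeal 𝒪)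
    (hxK : ∀ g ∈ 𝒦 (c k), ∀ n, x ((LH k n).ψ g) = 0) :
    Module.annihilator (R k) (M k) ≤ RingHom.ker x := by
  obtain ⟨ms, LHi, hms, h1, h2, -⟩ := s59b_FLR_main_w S A 𝔞 h𝔞 J hJ k R M MQ ρ hρ hρinj LH d hd
    g11 g12 g21 g22 b 𝔫 hT s 𝒦 c hring hkill h0
  haveI : (RingHom.ker x).IsPrime := RingHom.ker_isPrime x
  refine s59f_points (LHi k) (𝒦 (c k)) (h1 k le_rfl) (RingHom.ker x) ?_
  intro g hg
  rw [Ideal.mem_comap, RingHom.mem_ker]
  have hpow : ∀ n (r : R k), r ∈ maximalIdeal (R k) ^ n → x r ∈ maximalIdeal 𝒪 ^ n := by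
    intro n r hr
    have h3 : Ideal.map x (maximalIdeal (R k)) ≤ maximalIdeal 𝒪 := by
      rw [Ideal.map_le_iff_le_comap]
      exact fun r hr => hx r hr
    have h4 := Ideal.mem_map_of_mem x hr
    rw [Ideal.map_pow] at h4
    exact Ideal.pow_right_mono h3 n h4
  have hmem : ∀ n, x ((LHi k).ψ g) ∈ maximalIdeal 𝒪 ^ n := by
    intro n
    have h3 := hpow n _ (h2 k le_rfl n g)
    rw [map_sub, hxK g hg (ms n), zero_sub] at h3
    have := Ideal.neg_mem_iff (maximalIdeal 𝒪 ^ n) |>.mp h3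
    exact this
  have hbot := Ideal.iInf_pow_eq_bot_of_isLocalRing (maximalIdeal 𝒪)
    (Ideal.IsPrime.ne_top inferInstance)
  have : x ((LHi k).ψ g) ∈ ⨅ n, maximalIdeal 𝒪 ^ n := by
    rw [Ideal.mem_iInf]
    exact hmem
  rw [hbot] at this
  exact this

end Fermat.Agent.Lib.S59
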