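/-
PROGRAMME (R), bridge (iii), concrete instance (helper6, prefix `s59q_`), part C: **local lemmas for the instance.**
* `s59q_weak_of_tl`: a tangent vector under which the three coordinates `s59q_tl` of `M` are `ε`-free makes the
  off-diagonal entries and the difference of the diagonal entries `ε`-free;
* `s59q_tl_sub_mem`: the coordinates of a framed matrix minus the coordinates of its residual value lie in `𝔪`;
* `s59q_scalar_of_central`: at a place where `ρ̄|G_q` is central, `ρ̄(g)` is a scalar matrix for `g ∈ D_q`.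
-/
import Fermat.Agent.Lib.S59.QBrInstB

set_option autoImplicit false
set_option linter.style.haveILetI false
set_option linter.unusedSectionVars false

noncomputable section

namespace Fermat.Agent.Lib.S59

open IsLocalRing Module ExtCitation Fermat.Agent.Lib.S56
open Fermat.Agent.Lib.S53 (matOf matOfRes NormData)
open Fermat.Agent.Lib.Deform

attribute [local instance] Fermat.Agent.Lib.Deform.dualNumberAlgebra

local notation "Γℚ" => (AlgebraicClosure ℚ ≃ₐ[ℚ] AlgebraicClosure ℚ)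

section Mat

variable {k : Type*} [CommRing k]

theorem s59q_trace_conj (A B B' : Matrix (Fin 2) (Fin 2) k) (h : B * B' = 1) :
    (B' * A * B).trace = A.trace := by
  rw [Matrix.trace_mul_comm, ← mul_assoc, h, one_mul]

theorem s59q_tl_one (i2 : k) : s59q_tl i2 (1 : Matrix (Fin 2) (Fin 2) k) = 0 := by
  funext j
  fin_cases j <;> simp [s59q_tl]

theorem s59q_tl_smul_one (i2 c : k) : s59q_tl i2 (c • (1 : Matrix (Fin 2) (Fin 2) k)) = 0 := by
  funext j
  fin_cases j <;> simp [s59q_tl]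

theorem s59q_tl_diagonal (i2 a b : k) :
    s59q_tl i2 (Matrix.diagonal ![a, b]) = ![i2 * (a - b), 0, 0] := by
  funext j
  fin_cases j <;> simp [s59q_tl]

end Mat

section Weak

variable {𝒪 : Type} [CommRing 𝒪] [IsDomain 𝒪] [IsDiscreteValuationRing 𝒪]
  [IsAdicComplete (maximalIdeal 𝒪) 𝒪]
  {C : Type} [CommRing C] [Algebra 𝒪 C]

/-- coordinates `ε`-free ⇒ the three entries used by `s59q_framed_eps_free` are `ε`-free. -/
theorem s59q_weak_of_tl (f : C →ₐ[𝒪] DualNumber (ResidueField 𝒪)) (i2 : 𝒪) (hi2 : 2 * i2 = 1)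
    (M : Matrix (Fin 2) (Fin 2) C)
    (h : ∀ j, (f (s59q_tl (algebraMap 𝒪 C i2) M j)).snd = 0) :
    (f (M 0 1)).snd = 0 ∧ (f (M 1 0)).snd = 0 ∧ (f (M 0 0)).snd = (f (M 1 1)).snd := by
  refine ⟨h 1, h 2, ?_⟩
  have h0 := h 0
  have e : s59q_tl (algebraMap 𝒪 C i2) M 0 = algebraMap 𝒪 C i2 * (M 0 0 - M 1 1) := rfl
  rw [e, map_mul, f.commutes, dualNumber_algebraMap_apply, map_sub, TrivSqZeroExt.snd_mul,
    TrivSqZeroExt.snd_inl, TrivSqZeroExt.fst_inl, smul_zero, add_zero,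
    TrivSqZeroExt.snd_sub, smul_eq_mul] at h0
  have hne : residue 𝒪 i2 ≠ 0 := by
    intro h0'
    have := congrArg (residue 𝒪) hi2
    rw [map_mul, h0', mul_zero, map_one] at this
    exact zero_ne_one this
  exact sub_eq_zero.1 ((mul_eq_zero.1 h0).resolve_left hne)

theorem s59q_snd_eq_zero_of_sub_const (f : C →ₐ[𝒪] DualNumber (ResidueField 𝒪)) (x : C) (c : 𝒪)
    (h : f (x - algebraMap 𝒪 C c) = 0) : (f x).snd = 0 := by
  rw [map_sub, f.commutes, sub_eq_zero] at h
  rw [h, dualNumber_algebraMap_apply, TrivSqZeroExt.snd_inl]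

theorem s59q_two_ne_zero (i2 : 𝒪) (hi2 : 2 * i2 = 1) : (2 : ResidueField 𝒪) ≠ 0 := by
  intro h
  have := congrArg (residue 𝒪) hi2
  rw [map_mul, map_ofNat, h, zero_mul, map_one] at this
  exact zero_ne_one this

end Weak

section Mem

variable {𝒪 : Type} [CommRing 𝒪] [IsDomain 𝒪] [IsDiscreteValuationRing 𝒪]
  [IsAdicComplete (maximalIdeal 𝒪) 𝒪]
  {ρbar : ResidualGaloisRep (ResidueField 𝒪)}
  {𝒟 : ∀ ⦃A : Type⦄ [CommRing A] [IsLocalRing A] [Algebra 𝒪 A], GaloisRepAdic A → Prop}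
  (D : GaloisRep.DeformationRingData 𝒪 ρbar 𝒟) (N : NormData ρbar)
  (bR : Basis (Fin 2) D.R D.ρ.V)
  (hbR : ∀ σ i j, matOf D.ρ bR σ i j - algebraMap 𝒪 D.R (N.Mtil σ i j) ∈ maximalIdeal D.R)
  {T : Type} [CommRing T] [IsLocalRing T] [Algebra 𝒪 T] {F : Type} [Finite F]
  (ψ : D.R →ₐ[𝒪] MvPowerSeries (F × Fin 2 × Fin 2) T)
  (hC : IsTestAlgebra 𝒪 (MvPowerSeries (F × Fin 2 × Fin 2) T))

include hbR hC in
/-- the constant part of the framed matrix `U_t⁻¹ ρ(g) U_t` is `P̄' ρ̄(g) P̄`. -/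
theorem s59q_fstM_frame (f : MvPowerSeries (F × Fin 2 × Fin 2) T →ₐ[𝒪] DualNumber (ResidueField 𝒪))
    (t : F) (P P' : Matrix (Fin 2) (Fin 2) 𝒪) (hPP' : P * P' = 1) (hP'P : P' * P = 1) (g : Γℚ) :
    s56a_fstM ((s59q_frameU' T P' t * (matOf D.ρ bR g).map ψ * s59q_frameU T P t).map f) =
      P'.map (residue 𝒪) * matOfRes ρbar N.b g * P.map (residue 𝒪) := by
  rw [s59q_fstM_framed D N bR hbR ψ f, s59q_frameU'_fst hC f P P' hPP' hP'P t,
    s59q_frameU_fst hC f P t]

include hbR hC in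
/-- **the coordinates of a framed matrix are congruent to the coordinates of its residual value.** -/
theorem s59q_tl_sub_mem (t : F) (P P' : Matrix (Fin 2) (Fin 2) 𝒪) (hPP' : P * P' = 1)
    (hP'P : P' * P = 1) (g : Γℚ) (i2 : 𝒪) (c : Fin 3 → 𝒪)
    (hc : ∀ j, residue 𝒪 (c j) = s59q_tl (residue 𝒪 i2)
      (P'.map (residue 𝒪) * matOfRes ρbar N.b g * P.map (residue 𝒪)) j) (j : Fin 3) :
    s59q_tl (algebraMap 𝒪 (MvPowerSeries (F × Fin 2 × Fin 2) T) i2)
        (s59q_frameU' T P' t * (matOf D.ρ bR g).map ψ * s59q_frameU T P t) j -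
      algebraMap 𝒪 (MvPowerSeries (F × Fin 2 × Fin 2) T) (c j) ∈
        maximalIdeal (MvPowerSeries (F × Fin 2 × Fin 2) T) := by
  set f₀ : MvPowerSeries (F × Fin 2 × Fin 2) T →ₐ[𝒪] DualNumber (ResidueField 𝒪) :=
    dualNumberHom (resk hC) (fun _ => 0) (fun _ _ => by rw [add_zero])
      (fun _ _ => by rw [mul_zero, mul_zero, add_zero]) (fun _ => rfl) with hf₀
  set Fm := s59q_frameU' T P' t * (matOf D.ρ bR g).map ψ * s59q_frameU T P t with hFm
  have hfst := s59q_fstM_frame D N bR hbR ψ hC f₀ t P P' hPP' hP'P g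
  rw [← hFm] at hfst
  have hent : ∀ a b, (f₀ (Fm a b)).fst =
      (P'.map (residue 𝒪) * matOfRes ρbar N.b g * P.map (residue 𝒪)) a b := by
    intro a b
    rw [← hfst, s56a_fstM_apply, Matrix.map_apply]
  rw [← resk_eq_zero_iff hC, ← s59q_fst_tangent hC f₀, map_sub, TrivSqZeroExt.fst_sub, f₀.commutes,
    dualNumber_algebraMap_apply, TrivSqZeroExt.fst_inl, hc j, sub_eq_zero]
  fin_cases j
  · show (f₀ (algebraMap 𝒪 _ i2 * (Fm 0 0 - Fm 1 1))).fst = _
    rw [map_mul, f₀.commutes, dualNumber_algebraMap_apply, TrivSqZeroExt.fst_mul,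
      TrivSqZeroExt.fst_inl, map_sub, TrivSqZeroExt.fst_sub, hent, hent]
    rfl
  · show (f₀ (Fm 0 1)).fst = _
    rw [hent]; rfl
  · show (f₀ (Fm 1 0)).fst = _
    rw [hent]; rfl

end Mem

section Central

variable {k : Type} [Field k] (ρbar : ResidualGaloisRep k)

/-- at a place where `ρ̄|G_q` is central, `ρ̄(g)` is scalar for `g` in the decomposition group. -/
theorem s59q_scalar_of_central (q : Nat.Primes) (hcen : s59q_CentralAt ρbar q)
    (b : Basis (Fin 2) k ρbar.V) (g : Γℚ)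
    (hg : g ∈ (primeLocalPlace q).decompositionSubgroup ℚ) :
    ∃ c : k, matOfRes ρbar b g = c • (1 : Matrix (Fin 2) (Fin 2) k) := by
  obtain ⟨τ, rfl⟩ := s56g_exists_loc_eq q hg
  set R := matOfRes ρbar b (primeLocalToGlobal q τ) with hR
  have hcomm : ∀ X : Matrix (Fin 2) (Fin 2) k, R * X = X * R := by
    intro X
    have h := hcen τ (Matrix.toLin b b X)
    have h2 := congrArg (LinearMap.toMatrix b b) h
    rw [Module.End.mul_eq_comp, Module.End.mul_eq_comp, LinearMap.toMatrix_comp b b b,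
      LinearMap.toMatrix_comp b b b, LinearMap.toMatrix_toLin] at h2
    exact h2
  have h1 := hcomm !![0, 1; 0, 0]
  have h2 := hcomm !![0, 0; 1, 0]
  have e1 := congrFun (congrFun h1 0) 1
  have e2 := congrFun (congrFun h1 1) 1
  have e3 := congrFun (congrFun h2 0) 0
  simp [Matrix.mul_apply, Fin.sum_univ_two] at e1 e2 e3
  refine ⟨R 0 0, ?_⟩
  ext i j
  fin_cases i <;> fin_cases j
  · simp
  · simpa using e3
  · simpa using e2
  · simpa using e1.symm

end Central

end Fermat.Agent.Lib.S59
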