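/-
PROGRAMME R2 = S59, node [FLR], leaf [BR-ii] (+ the frame part of [BR-iii]) (helper4, prefix `s59f_`):
**the bridge with frames for a GENERAL residual Frobenius at the unramified framed primes**, part 1:
the local lemmas.  Generalisation of helper6's `QBrInstB/C` (which need `ρ̄(φ) = diag(ᾱ, β̄)`,
`ᾱ ≠ ±β̄`): the three coordinates of the framed Frobenius are
  `(λ₀ Φ₀₀ + λ₁ Φ₁₁ − s₀, Φ₀₁ − s₁, Φ₁₀ − s₂)`,
and all that is needed is `λ̄₀ Φ̄₀₀ − λ̄₁ Φ̄₁₁ ≠ 0` (`Φ̄` = the residual framed Frobenius):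
  * type (i)   `Φ̄ = diag(ᾱ, β̄)`, `ᾱ ≠ ±β̄` : `λ = (1/2, −1/2)` (helper6's case);
  * type (ii)  `Φ̄ = diag(ᾱ, −ᾱ)`            : `λ = (1/2, 1/2)` — the half-trace is a coordinate;
  * type (iii) `Φ̄ = ᾱ (1 1; 0 1)`           : `λ = (1/2, −1/2)`.
* `s59f_sndM_eq_zero_of_entriesG`, `s59f_framed_eps_freeG` : entries `ε`-free ⇒ framed matrix `ε`-free;
* `s59f_tlG`, `s59f_weak_of_tlG`, `s59f_tlG_sub_mem` : the coordinates;
* `s59f_zeta_eq_of_centraliser` : the frame variables are determined modulo the centraliser of `Φ̄`.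
-/
import Mathlib
import Fermat.Agent.Lib.S59.QBrInstD

set_option autoImplicit false
set_option linter.style.haveILetI false
set_option linter.unusedSectionVars false
set_option linter.unusedVariables false

noncomputable section

namespace Fermat.Agent.Lib.S59

open IsLocalRing Module ExtCitation Fermat.Agent.Lib.S56
open Fermat.Agent.Lib.S53 (matOf matOfRes NormData)
open Fermat.Agent.Lib.Deform

attribute [local instance] Fermat.Agent.Lib.Deform.dualNumberAlgebra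

local notation "Γℚ" => (AlgebraicClosure ℚ ≃ₐ[ℚ] AlgebraicClosure ℚ)

section Mat

variable {k : Type} [Field k]

/-- off-diagonal entries `ε`-free, a linear form `λ₀ A₀₀ + λ₁ A₁₁` of the diagonal `ε`-free, determinant
`ε`-free and `λ₀ Ā₀₀ − λ₁ Ā₁₁ ≠ 0` ⇒ the matrix is `ε`-free. -/
theorem s59f_sndM_eq_zero_of_entriesG (A : Matrix (Fin 2) (Fin 2) (DualNumber k)) (l0 l1 : k)
    (h01 : (A 0 1).snd = 0) (h10 : (A 1 0).snd = 0)
    (hd : l0 * (A 0 0).snd + l1 * (A 1 1).snd = 0)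
    (hdet : A.det.snd = 0) (hne : l0 * (A 0 0).fst - l1 * (A 1 1).fst ≠ 0) : s56a_sndM A = 0 := by
  rw [Matrix.det_fin_two] at hdet
  simp only [TrivSqZeroExt.snd_sub, TrivSqZeroExt.snd_mul, smul_eq_mul, MulOpposite.smul_eq_mul_unop,
    MulOpposite.unop_op, h01, h10, mul_zero, zero_mul, add_zero, sub_zero] at hdet
  -- `hdet : a d' + a' d = 0` (in some order)
  have e0 : (l0 * (A 0 0).fst - l1 * (A 1 1).fst) * (A 0 0).snd = 0 := by
    linear_combination (A 0 0).fst * hd - l1 * hdet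
  have e1 : (l0 * (A 0 0).fst - l1 * (A 1 1).fst) * (A 1 1).snd = 0 := by
    linear_combination (-(A 1 1).fst) * hd + l0 * hdet
  have hs0 : (A 0 0).snd = 0 := (mul_eq_zero.1 e0).resolve_left hne
  have hs1 : (A 1 1).snd = 0 := (mul_eq_zero.1 e1).resolve_left hne
  ext i j
  fin_cases i <;> fin_cases j
  · exact hs0
  · exact h01
  · exact h10
  · exact hs1

end Mat

/-- the coordinates `(λ₀ M₀₀ + λ₁ M₁₁, M₀₁, M₁₀)` of a `2 × 2` matrix. -/
def s59f_tlG {A : Type*} [CommRing A] (lam : Fin 2 → A) (M : Matrix (Fin 2) (Fin 2) A) :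
    Fin 3 → A :=
  ![lam 0 * M 0 0 + lam 1 * M 1 1, M 0 1, M 1 0]

section Framed

variable {𝒪 : Type} [CommRing 𝒪] [IsDomain 𝒪] [IsDiscreteValuationRing 𝒪]
  [IsAdicComplete (maximalIdeal 𝒪) 𝒪]
  {ρbar : ResidualGaloisRep (ResidueField 𝒪)}
  {𝒟 : ∀ ⦃A : Type⦄ [CommRing A] [IsLocalRing A] [Algebra 𝒪 A], GaloisRepAdic A → Prop}
  (D : GaloisRep.DeformationRingData 𝒪 ρbar 𝒟) (N : NormData ρbar)
  (bR : Basis (Fin 2) D.R D.ρ.V)
  (hbR : ∀ σ i j, matOf D.ρ bR σ i j - algebraMap 𝒪 D.R (N.Mtil σ i j) ∈ maximalIdeal D.R)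
  {C : Type} [CommRing C] [Algebra 𝒪 C] (ψ : D.R →ₐ[𝒪] C)

include hbR in
/-- **entries `ε`-free ⇒ framed matrix `ε`-free**, general linear form of the diagonal. -/
theorem s59f_framed_eps_freeG (p : ℕ) [Fact p.Prime] (h𝒟 : s56a_TangentStable 𝒪 𝒟 p)
    (f : C →ₐ[𝒪] DualNumber (ResidueField 𝒪))
    (U U' : Matrix (Fin 2) (Fin 2) C) (hUU' : U * U' = 1) (hU'U : U' * U = 1) (g : Γℚ)
    (l0 l1 : ResidueField 𝒪)
    (h01 : (f ((U' * (matOf D.ρ bR g).map ψ * U) 0 1)).snd = 0)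
    (h10 : (f ((U' * (matOf D.ρ bR g).map ψ * U) 1 0)).snd = 0)
    (hd : l0 * (f ((U' * (matOf D.ρ bR g).map ψ * U) 0 0)).snd +
      l1 * (f ((U' * (matOf D.ρ bR g).map ψ * U) 1 1)).snd = 0)
    (hne : l0 * (f ((U' * (matOf D.ρ bR g).map ψ * U) 0 0)).fst -
      l1 * (f ((U' * (matOf D.ρ bR g).map ψ * U) 1 1)).fst ≠ 0) :
    s56a_sndM ((U' * (matOf D.ρ bR g).map ψ * U).map f) = 0 := by
  have hV'V : U'.map f * U.map f = 1 := by
    rw [← Matrix.map_mul, hU'U, Matrix.map_one _ (map_zero f) (map_one f)]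
  refine s59f_sndM_eq_zero_of_entriesG _ l0 l1 h01 h10 hd ?_ hne
  rw [← s59q_famOf_framed, Matrix.det_mul, Matrix.det_mul]
  have h1 : (U'.map f).det * (U.map f).det = 1 := by
    rw [← Matrix.det_mul, hV'V, Matrix.det_one]
  have e : (U'.map f).det * (s56a_famOf D bR (f.comp ψ) g).det * (U.map f).det =
      (s56a_famOf D bR (f.comp ψ) g).det * ((U'.map f).det * (U.map f).det) := by ring
  rw [e, h1, mul_one]
  exact s59q_det_famOf_snd D bR p h𝒟 (f.comp ψ) g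

end Framed

section Weak

variable {𝒪 : Type} [CommRing 𝒪] [IsDomain 𝒪] [IsDiscreteValuationRing 𝒪]
  [IsAdicComplete (maximalIdeal 𝒪) 𝒪]
  {C : Type} [CommRing C] [Algebra 𝒪 C]

/-- coordinates `ε`-free ⇒ the three conditions used by `s59f_framed_eps_freeG`. -/
theorem s59f_weak_of_tlG (f : C →ₐ[𝒪] DualNumber (ResidueField 𝒪)) (lam : Fin 2 → 𝒪)
    (M : Matrix (Fin 2) (Fin 2) C)
    (h : ∀ j, (f (s59f_tlG (fun i => algebraMap 𝒪 C (lam i)) M j)).snd = 0) :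
    (f (M 0 1)).snd = 0 ∧ (f (M 1 0)).snd = 0 ∧
      residue 𝒪 (lam 0) * (f (M 0 0)).snd + residue 𝒪 (lam 1) * (f (M 1 1)).snd = 0 := by
  refine ⟨h 1, h 2, ?_⟩
  have h0 := h 0
  have e : s59f_tlG (fun i => algebraMap 𝒪 C (lam i)) M 0 =
      algebraMap 𝒪 C (lam 0) * M 0 0 + algebraMap 𝒪 C (lam 1) * M 1 1 := rfl
  rw [e, map_add, map_mul, map_mul, f.commutes, f.commutes, dualNumber_algebraMap_apply,
    dualNumber_algebraMap_apply] at h0
  simp only [TrivSqZeroExt.snd_add, TrivSqZeroExt.snd_mul, TrivSqZeroExt.snd_inl,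
    TrivSqZeroExt.fst_inl, smul_zero, add_zero, smul_eq_mul] at h0
  exact h0

end Weak

section Mem

variable {𝒪 : Type} [CommRing 𝒪] [IsDomain 𝒪] [IsDiscreteValuationRing 𝒪]
  [IsAdicComplete (maximalIdeal 𝒪) 𝒪]
  {ρbar : ResidualGaloisRep (ResidueField 𝒪)}
  {𝒟 : ∀ ⦃A : Type⦄ [CommRing A] [IsLocalRing A] [Algebra 𝒪 A], GaloisRepAdic A → Prop}
  (D : GaloisRep.DeformationRingData 𝒪 ρbar 𝒟) (N : NormData ρbar)
  (bR : Basis (Fin 2) D.R D.ρ.V)
  (hbR : ∀ σ i j, matOf D.ρ bR σ i j - algebraMap 𝒪 D.R (N.Mtil σ i j) ∈ maximalIdeal D.R)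
  {T : Type} [CommRing T] [IsLocalRing T] [Algebra 𝒪 T] {F : Type} [Finite F]
  (ψ : D.R →ₐ[𝒪] MvPowerSeries (F × Fin 2 × Fin 2) T)
  (hC : IsTestAlgebra 𝒪 (MvPowerSeries (F × Fin 2 × Fin 2) T))

include hbR hC in
/-- the entries of the constant part of a framed matrix under a tangent vector. -/
theorem s59f_fst_frame_entry
    (f : MvPowerSeries (F × Fin 2 × Fin 2) T →ₐ[𝒪] DualNumber (ResidueField 𝒪))
    (t : F) (P P' : Matrix (Fin 2) (Fin 2) 𝒪) (hPP' : P * P' = 1) (hP'P : P' * P = 1) (g : Γℚ)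
    (a b : Fin 2) :
    (f ((s59q_frameU' T P' t * (matOf D.ρ bR g).map ψ * s59q_frameU T P t) a b)).fst =
      (P'.map (residue 𝒪) * matOfRes ρbar N.b g * P.map (residue 𝒪)) a b := by
  rw [← s59q_fstM_frame D N bR hbR ψ hC f t P P' hPP' hP'P g, s56a_fstM_apply, Matrix.map_apply]

include hbR hC in
/-- **the general coordinates of a framed matrix are congruent to those of its residual value.** -/
theorem s59f_tlG_sub_mem (t : F) (P P' : Matrix (Fin 2) (Fin 2) 𝒪) (hPP' : P * P' = 1)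
    (hP'P : P' * P = 1) (g : Γℚ) (lam : Fin 2 → 𝒪) (c : Fin 3 → 𝒪)
    (hc : ∀ j, residue 𝒪 (c j) = s59f_tlG (fun i => residue 𝒪 (lam i))
      (P'.map (residue 𝒪) * matOfRes ρbar N.b g * P.map (residue 𝒪)) j) (j : Fin 3) :
    s59f_tlG (fun i => algebraMap 𝒪 (MvPowerSeries (F × Fin 2 × Fin 2) T) (lam i))
        (s59q_frameU' T P' t * (matOf D.ρ bR g).map ψ * s59q_frameU T P t) j -
      algebraMap 𝒪 (MvPowerSeries (F × Fin 2 × Fin 2) T) (c j) ∈
        maximalIdeal (MvPowerSeries (F × Fin 2 × Fin 2) T) := by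
  set f₀ : MvPowerSeries (F × Fin 2 × Fin 2) T →ₐ[𝒪] DualNumber (ResidueField 𝒪) :=
    dualNumberHom (resk hC) (fun _ => 0) (fun _ _ => by rw [add_zero])
      (fun _ _ => by rw [mul_zero, mul_zero, add_zero]) (fun _ => rfl) with hf₀
  set Fm := s59q_frameU' T P' t * (matOf D.ρ bR g).map ψ * s59q_frameU T P t with hFm
  have hent : ∀ a b, (f₀ (Fm a b)).fst =
      (P'.map (residue 𝒪) * matOfRes ρbar N.b g * P.map (residue 𝒪)) a b := fun a b =>
    s59f_fst_frame_entry D N bR hbR ψ hC f₀ t P P' hPP' hP'P g a b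
  rw [← resk_eq_zero_iff hC, ← s59q_fst_tangent hC f₀, map_sub, TrivSqZeroExt.fst_sub, f₀.commutes,
    dualNumber_algebraMap_apply, TrivSqZeroExt.fst_inl, hc j, sub_eq_zero]
  fin_cases j
  · show (f₀ (algebraMap 𝒪 _ (lam 0) * Fm 0 0 + algebraMap 𝒪 _ (lam 1) * Fm 1 1)).fst = _
    rw [map_add, map_mul, map_mul, f₀.commutes, f₀.commutes, dualNumber_algebraMap_apply,
      dualNumber_algebraMap_apply, TrivSqZeroExt.fst_add, TrivSqZeroExt.fst_mul,
      TrivSqZeroExt.fst_mul, TrivSqZeroExt.fst_inl, TrivSqZeroExt.fst_inl, hent, hent]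
    rfl
  · show (f₀ (Fm 0 1)).fst = _
    rw [hent]; rfl
  · show (f₀ (Fm 1 0)).fst = _
    rw [hent]; rfl

include hbR hC in
/-- **the frame variables are determined modulo the centraliser of the residual framed matrix.** -/
theorem s59f_zeta_sub_comm
    (f f' : MvPowerSeries (F × Fin 2 × Fin 2) T →ₐ[𝒪] DualNumber (ResidueField 𝒪))
    (hff' : f.comp ψ = f'.comp ψ) (t : F) (P P' : Matrix (Fin 2) (Fin 2) 𝒪) (hPP' : P * P' = 1)
    (hP'P : P' * P = 1) (g : Γℚ)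
    (h : s56a_sndM ((s59q_frameU' T P' t * (matOf D.ρ bR g).map ψ * s59q_frameU T P t).map f) = 0)
    (h' : s56a_sndM ((s59q_frameU' T P' t * (matOf D.ρ bR g).map ψ * s59q_frameU T P t).map f') = 0) :
    (s59q_zeta f' t - s59q_zeta f t) *
        (P'.map (residue 𝒪) * matOfRes ρbar N.b g * P.map (residue 𝒪)) =
      (P'.map (residue 𝒪) * matOfRes ρbar N.b g * P.map (residue 𝒪)) *
        (s59q_zeta f' t - s59q_zeta f t) := by
  have hcomm := s59q_frame_diff_comm D N bR hbR ψ hC f f' hff' (s59q_frameU T P t)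
    (s59q_frameU' T P' t) (s59q_frameU_mul P P' hPP' t) (s59q_frameU'_mul P P' hP'P t) g h h'
  rw [s59q_frameU_snd hC f' P t, s59q_frameU_snd hC f P t, s59q_frameU'_fst hC f P P' hPP' hP'P t,
    ← mul_sub] at hcomm
  set Pb := P.map (residue 𝒪) with hPb
  set Pb' := P'.map (residue 𝒪) with hPb'
  set R := matOfRes ρbar N.b g with hR
  set Dz := s59q_zeta f' t - s59q_zeta f t with hDz
  have e2 : Pb' * Pb = 1 := by
    rw [hPb, hPb', ← Matrix.map_mul, hP'P, Matrix.map_one _ (map_zero _) (map_one _)]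
  calc Dz * (Pb' * R * Pb) = (Pb' * Pb) * Dz * (Pb' * R * Pb) := by rw [e2, one_mul]
    _ = Pb' * (Pb * Dz * Pb' * R) * Pb := by simp only [mul_assoc]
    _ = Pb' * (R * (Pb * Dz * Pb')) * Pb := by rw [hcomm]
    _ = (Pb' * R * Pb) * Dz * (Pb' * Pb) := by simp only [mul_assoc]
    _ = (Pb' * R * Pb) * Dz := by rw [e2, mul_one]

end Mem

/-! ### The three centralisers -/

section Centr

variable {k : Type} [Field k]

/-- a matrix commuting with `diag(α, β)`, `α ≠ β`, and vanishing on the diagonal is `0`. -/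
theorem s59f_centr_diag (Δ : Matrix (Fin 2) (Fin 2) k) (α β : k) (hαβ : α ≠ β)
    (hc : Δ * Matrix.diagonal ![α, β] = Matrix.diagonal ![α, β] * Δ)
    (h0 : Δ 0 0 = 0) (h1 : Δ 1 1 = 0) : Δ = 0 := by
  obtain ⟨h01, h10⟩ := s59q_diag_of_comm Δ α β hαβ hc
  ext i j
  fin_cases i <;> fin_cases j
  · exact h0
  · exact h01
  · exact h10
  · exact h1

/-- a matrix commuting with `α (1 c; 0 1)`, `α c ≠ 0`, and vanishing at `(0,0)`, `(0,1)` is `0`. -/
theorem s59f_centr_jordan (Δ : Matrix (Fin 2) (Fin 2) k) (α c : k) (hc0 : c ≠ 0)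
    (hc : Δ * !![α, c; 0, α] = !![α, c; 0, α] * Δ)
    (h0 : Δ 0 0 = 0) (h1 : Δ 0 1 = 0) : Δ = 0 := by
  have e00 := congrFun (congrFun hc 0) 0
  have e01 := congrFun (congrFun hc 0) 1
  simp [Matrix.mul_apply, Fin.sum_univ_two] at e00 e01
  -- e00 : Δ00 α = α Δ00 + c Δ10 ;  e01 : Δ00 c + Δ01 α = α Δ01 + c Δ11
  have h10 : Δ 1 0 = 0 := by
    have : c * Δ 1 0 = 0 := by linear_combination -e00
    exact (mul_eq_zero.1 this).resolve_left hc0
  have h11 : Δ 1 1 = 0 := by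
    have : c * Δ 1 1 = 0 := by rw [h0, h1] at e01; linear_combination -e01
    exact (mul_eq_zero.1 this).resolve_left hc0
  ext i j
  fin_cases i <;> fin_cases j
  · exact h0
  · exact h1
  · exact h10
  · exact h11

end Centr

end Fermat.Agent.Lib.S59
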