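/-
PROGRAMME R2 = S59, node [FLR] / [F-RING]: **THE LOCAL NODE WITH ARBITRARY SMOOTH LOCAL MODELS**
(helper4, prefix `s59r_`).  Generalises `LTol.lean` (primes `ℓ₀ ≢ ±1 (p)`) to a family of `r` primes
each of which carries its own LOCAL MODEL `Λ l : s59r_Model 𝒪`:

  * the local flat ring `𝒪⟦u₀..u₅⟧` (`u₀,u₁,u₂` = the entries `(N₁₁,N₁₂,N₂₁)` of `ρ(σ_l) − 1`,
    `u₃,u₄,u₅` = three coordinates of `ρ(φ_l)`, the convention being part of the model);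
  * `nc` components, each a smooth `𝒪⟦y₀,y₁,y₂⟧` given by its parametrisation `par c : Fin 6 → 𝒪⟦y⟧`
    with a section on variables (`sec`, `par_sec`);
  * the local relations `rel` and the local kill property `kill`: a point of the local ring with
    values in a complete local DOMAIN, flat over `𝒪`, which satisfies `rel` lies on a component;
  * `dist`: no component contains another one.

Global: `𝒫^Λ = s59r_Flat 𝒪 m r g = 𝒪⟦VB, WB (m primes of type χ_θ, as in LFlat), U (r × 6), x⟧`,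
`π_ch : 𝒫^Λ ↠ 𝒫_{m, g+3r}` for `ch : ∀ l, Fin (Λ l).nc`, `𝒦_{θ,ch} := π_ch⁻¹ 𝒦_θ`:
primality, `dim ≤ dim 𝒪 + 3m + g + 3r`, the kill property `s59r_KK_kill(_reduced)`, and the
local–global dictionary `s59r_loc_mem_KK` (`loc_l x ∈ 𝒦_{θ,ch} ⇔ Par_{ch l} x = 0`).
-/
import Mathlib
import Fermat.Agent.Lib.S59.LTol

set_option autoImplicit false
set_option linter.unusedSectionVars false
set_option linter.unusedVariables false
set_option linter.style.haveILetI false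

noncomputable section

namespace Fermat.Agent.Lib.S59

open IsLocalRing MvPowerSeries Fermat.Agent.Lib.Deform

/-- the local flat ring `𝒪⟦u₀..u₅⟧`. -/
abbrev s59r_Loc (𝒪 : Type) [CommRing 𝒪] : Type := MvPowerSeries (Fin 6) 𝒪

/-- the parameter ring `𝒪⟦y₀,y₁,y₂⟧` of a component. -/
abbrev s59r_Par (𝒪 : Type) [CommRing 𝒪] : Type := MvPowerSeries (Fin 3) 𝒪

section Model

variable (𝒪 : Type) [CommRing 𝒪] [IsLocalRing 𝒪] [IsNoetherianRing 𝒪] [IsDomain 𝒪]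
  [IsAdicComplete (maximalIdeal 𝒪) 𝒪] [Finite (ResidueField 𝒪)]

/-- **a smooth local model.** -/
structure s59r_Model : Type 1 where
  nc : ℕ
  par : Fin nc → Fin 6 → s59r_Par 𝒪
  par_mem : ∀ c k, par c k ∈ maximalIdeal (s59r_Par 𝒪)
  sec : Fin nc → Fin 3 → Fin 6
  par_sec : ∀ c j, par c (sec c j) = X j
  rel : ∀ (T : Type) [CommRing T] [IsLocalRing T] [Algebra 𝒪 T], (Fin 6 → T) → Prop
  kill : ∀ (T : Type) [CommRing T] [IsLocalRing T] [IsDomain T]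
    [IsAdicComplete (maximalIdeal T) T] [Algebra 𝒪 T],
    Function.Injective (algebraMap 𝒪 T) →
    (∀ t ∈ maximalIdeal 𝒪, algebraMap 𝒪 T t ∈ maximalIdeal T) →
    ∀ v : Fin 6 → T, (∀ k, v k ∈ maximalIdeal T) → rel T v →
    ∃ (c : Fin nc) (y : Fin 3 → T) (hy : ∀ j, y j ∈ maximalIdeal T),
      ∀ k, v k = evalHom (maximalIdeal T) y hy (par c k)
  dist : ∀ c c' : Fin nc,
    (∀ x : s59r_Loc 𝒪, evalHom (maximalIdeal (s59r_Par 𝒪)) (par c') (par_mem c') x = 0 →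
      evalHom (maximalIdeal (s59r_Par 𝒪)) (par c) (par_mem c) x = 0) → c' = c

variable {𝒪}

/-- the parametrisation of the component `c` as a map of rings. -/
def s59r_ParHom (Λ : s59r_Model 𝒪) (c : Fin Λ.nc) : s59r_Loc 𝒪 →ₐ[𝒪] s59r_Par 𝒪 :=
  evalHom (maximalIdeal (s59r_Par 𝒪)) (Λ.par c) (Λ.par_mem c)

theorem s59r_ParHom_X (Λ : s59r_Model 𝒪) (c : Fin Λ.nc) (k : Fin 6) :
    s59r_ParHom Λ c (X k) = Λ.par c k := evalHom_X _ _ _ k

theorem s59r_ParHom_C (Λ : s59r_Model 𝒪) (c : Fin Λ.nc) (t : 𝒪) :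
    s59r_ParHom Λ c (C t) = C t := by
  rw [s59l_algHom_C, MvPowerSeries.algebraMap_apply, Algebra.algebraMap_self, RingHom.id_apply]

end Model

/-- the variables of `𝒫^Λ`. -/
abbrev s59r_Idx (m r g : ℕ) : Type :=
  (Fin m × Fin 3) ⊕ (Fin m × Fin 3) ⊕ (Fin r × Fin 6) ⊕ Fin g

/-- the flat power series ring `𝒫^Λ`. -/
abbrev s59r_Flat (𝒪 : Type) [CommRing 𝒪] (m r g : ℕ) : Type :=
  MvPowerSeries (s59r_Idx m r g) 𝒪

section Vars

variable {𝒪 : Type} [CommRing 𝒪] {m r g : ℕ}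

/-- `(N₁₁, N₁₂, N₂₁)` of `N = ρ(σ_j) − 1`, `j ∈ B`. -/
def s59r_VB (j : Fin m) (k : Fin 3) : s59r_Flat 𝒪 m r g := X (Sum.inl (j, k))

/-- `((Φ₁₁−Φ₂₂)/2, Φ₁₂, Φ₂₁)` of `Φ = ρ(φ_j)`, `j ∈ B`. -/
def s59r_WB (j : Fin m) (k : Fin 3) : s59r_Flat 𝒪 m r g := X (Sum.inr (Sum.inl (j, k)))

/-- the six local variables at the prime `l`. -/
def s59r_U (l : Fin r) (k : Fin 6) : s59r_Flat 𝒪 m r g :=
  X (Sum.inr (Sum.inr (Sum.inl (l, k))))

/-- the global variables. -/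
def s59r_XG (i : Fin g) : s59r_Flat 𝒪 m r g := X (Sum.inr (Sum.inr (Sum.inr i)))

end Vars

section Prod

variable {𝒪 : Type} [CommRing 𝒪] [IsLocalRing 𝒪] [IsNoetherianRing 𝒪] [IsDomain 𝒪]
  [IsAdicComplete (maximalIdeal 𝒪) 𝒪] [Finite (ResidueField 𝒪)]

variable {m r g : ℕ} (Λ : Fin r → s59r_Model 𝒪)

/-- the local ring at `l` inside `𝒫^Λ`. -/
def s59r_loc (m g : ℕ) (l : Fin r) : s59r_Loc 𝒪 →ₐ[𝒪] s59r_Flat 𝒪 m r g :=
  evalHom (maximalIdeal (s59r_Flat 𝒪 m r g)) (fun k => s59r_U l k)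
    (fun k => X_mem_maximalIdeal _)

theorem s59r_loc_X (l : Fin r) (k : Fin 6) :
    s59r_loc (𝒪 := 𝒪) m g l (X k) = s59r_U l k := evalHom_X _ _ _ k

/-- the parameter ring of the prime `l` inside the target `𝒫_{m, g+3r}`. -/
def s59r_emb (m g : ℕ) (l : Fin r) : s59r_Par 𝒪 →ₐ[𝒪] s59l_Flat 𝒪 m (g + r * 3) :=
  evalHom (maximalIdeal (s59l_Flat 𝒪 m (g + r * 3))) (fun j => s59l_yE m g l j)
    (fun j => s59l_yE_mem l j)

theorem s59r_emb_X (l : Fin r) (j : Fin 3) :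
    s59r_emb (𝒪 := 𝒪) m g l (X j) = s59l_yE m g l j := evalHom_X _ _ _ j

theorem s59r_emb_mem (l : Fin r) {x : s59r_Par 𝒪} (hx : x ∈ maximalIdeal (s59r_Par 𝒪)) :
    s59r_emb (𝒪 := 𝒪) m g l x ∈ maximalIdeal (s59l_Flat 𝒪 m (g + r * 3)) := by
  refine s59l_algHom_mem_max (s59r_emb m g l) (fun s => ?_) (fun t ht => ?_) hx
  · rw [s59r_emb_X]; exact s59l_yE_mem l s
  · rw [MvPowerSeries.algebraMap_apply, Algebra.algebraMap_self, RingHom.id_apply]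
    exact s59l_C_mem ht

/-- the type of the choices of components. -/
abbrev s59r_Ch : Type := ∀ l : Fin r, Fin (Λ l).nc

/-- the images of the variables under `π_ch`. -/
def s59r_piVals (m g : ℕ) (ch : s59r_Ch Λ) : s59r_Idx m r g → s59l_Flat 𝒪 m (g + r * 3) :=
  Sum.elim (fun p => s59l_V p.1 p.2)
    (Sum.elim (fun p => s59l_W p.1 p.2)
      (Sum.elim (fun p => s59r_emb m g p.1 ((Λ p.1).par (ch p.1) p.2))
        (fun i => s59l_Xv (s59l_xe r g (Sum.inl i)))))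

theorem s59r_piVals_mem (m g : ℕ) (ch : s59r_Ch Λ) (s : s59r_Idx m r g) :
    s59r_piVals Λ m g ch s ∈ maximalIdeal (s59l_Flat 𝒪 m (g + r * 3)) := by
  rcases s with p | p | p | i
  · exact X_mem_maximalIdeal _
  · exact X_mem_maximalIdeal _
  · exact s59r_emb_mem p.1 ((Λ p.1).par_mem _ _)
  · exact X_mem_maximalIdeal _

/-- **the projection `π_ch : 𝒫^Λ → 𝒫_{m, g+3r}`** onto the component `ch`. -/
def s59r_pi (m g : ℕ) (ch : s59r_Ch Λ) :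
    s59r_Flat 𝒪 m r g →ₐ[𝒪] s59l_Flat 𝒪 m (g + r * 3) :=
  evalHom (maximalIdeal (s59l_Flat 𝒪 m (g + r * 3))) (s59r_piVals Λ m g ch)
    (s59r_piVals_mem Λ m g ch)

theorem s59r_pi_X (ch : s59r_Ch Λ) (s : s59r_Idx m r g) :
    s59r_pi Λ m g ch (X s) = s59r_piVals Λ m g ch s := evalHom_X _ _ _ s

theorem s59r_pi_VB (ch : s59r_Ch Λ) (j : Fin m) (k : Fin 3) :
    s59r_pi Λ m g ch (s59r_VB j k) = s59l_V j k := by
  rw [s59r_VB, s59r_pi_X]; rfl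

theorem s59r_pi_WB (ch : s59r_Ch Λ) (j : Fin m) (k : Fin 3) :
    s59r_pi Λ m g ch (s59r_WB j k) = s59l_W j k := by
  rw [s59r_WB, s59r_pi_X]; rfl

theorem s59r_pi_U (ch : s59r_Ch Λ) (l : Fin r) (k : Fin 6) :
    s59r_pi Λ m g ch (s59r_U l k) = s59r_emb m g l ((Λ l).par (ch l) k) := by
  rw [s59r_U, s59r_pi_X]; rfl

theorem s59r_pi_XG (ch : s59r_Ch Λ) (i : Fin g) :
    s59r_pi Λ m g ch (s59r_XG i) = s59l_Xv (s59l_xe r g (Sum.inl i)) := by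
  rw [s59r_XG, s59r_pi_X]; rfl

theorem s59r_pi_C (ch : s59r_Ch Λ) (t : 𝒪) : s59r_pi Λ m g ch (C t) = C t := by
  rw [s59l_algHom_C, MvPowerSeries.algebraMap_apply, Algebra.algebraMap_self, RingHom.id_apply]

/-- **the local–global square**: `π_ch ∘ loc_l = emb_l ∘ Par_{ch l}`. -/
theorem s59r_pi_loc (ch : s59r_Ch Λ) (l : Fin r) :
    (s59r_pi Λ m g ch).comp (s59r_loc m g l) =
      (s59r_emb m g l).comp (s59r_ParHom (Λ l) (ch l)) := by
  refine algHom_ext_of_X (maximalIdeal (s59l_Flat 𝒪 m (g + r * 3))) (fun k => ?_) (fun k => ?_)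
  · rw [AlgHom.comp_apply, s59r_loc_X, s59r_pi_U]
    exact s59r_emb_mem l ((Λ l).par_mem _ _)
  · rw [AlgHom.comp_apply, AlgHom.comp_apply, s59r_loc_X, s59r_pi_U, s59r_ParHom_X]

theorem s59r_pi_loc_apply (ch : s59r_Ch Λ) (l : Fin r) (x : s59r_Loc 𝒪) :
    s59r_pi Λ m g ch (s59r_loc m g l x) = s59r_emb m g l (s59r_ParHom (Λ l) (ch l) x) := by
  have := congrArg (fun f => f x) (s59r_pi_loc (m := m) (g := g) Λ ch l)
  simpa using this

/-- the images of the variables under the section of `π_ch`. -/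
def s59r_secVals (m g : ℕ) (ch : s59r_Ch Λ) : s59l_Idx m (g + r * 3) → s59r_Flat 𝒪 m r g :=
  Sum.elim (fun p => s59r_VB p.1 p.2)
    (Sum.elim (fun p => s59r_WB p.1 p.2)
      (fun i => Sum.elim (fun i => s59r_XG i)
        (fun p => s59r_U p.1 ((Λ p.1).sec (ch p.1) p.2)) ((s59l_xe r g).symm i)))

theorem s59r_secVals_isX (ch : s59r_Ch Λ) (s : s59l_Idx m (g + r * 3)) :
    ∃ s', (s59r_secVals Λ m g ch s : s59r_Flat 𝒪 m r g) = X s' := by
  rcases s with p | p | i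
  · exact ⟨_, rfl⟩
  · exact ⟨_, rfl⟩
  · show ∃ s', Sum.elim _ _ ((s59l_xe r g).symm i) = X s'
    rcases (s59l_xe r g).symm i with i0 | p
    · exact ⟨_, rfl⟩
    · exact ⟨_, rfl⟩

theorem s59r_secVals_mem (ch : s59r_Ch Λ) (s : s59l_Idx m (g + r * 3)) :
    (s59r_secVals Λ m g ch s : s59r_Flat 𝒪 m r g) ∈ maximalIdeal (s59r_Flat 𝒪 m r g) := by
  obtain ⟨s', hs'⟩ := s59r_secVals_isX Λ ch s
  rw [hs']
  exact X_mem_maximalIdeal _

/-- **the section `σ_ch`** of `π_ch` (variables to variables). -/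
def s59r_secH (m g : ℕ) (ch : s59r_Ch Λ) :
    s59l_Flat 𝒪 m (g + r * 3) →ₐ[𝒪] s59r_Flat 𝒪 m r g :=
  evalHom (maximalIdeal (s59r_Flat 𝒪 m r g)) (s59r_secVals Λ m g ch) (s59r_secVals_mem Λ ch)

theorem s59r_secH_X (ch : s59r_Ch Λ) (s : s59l_Idx m (g + r * 3)) :
    s59r_secH Λ m g ch (X s) = s59r_secVals Λ m g ch s := evalHom_X _ _ _ s

theorem s59r_secH_V (ch : s59r_Ch Λ) (j : Fin m) (k : Fin 3) :
    s59r_secH Λ m g ch (s59l_V j k) = s59r_VB j k := by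
  rw [s59l_V, s59r_secH_X]; rfl

theorem s59r_secH_W (ch : s59r_Ch Λ) (j : Fin m) (k : Fin 3) :
    s59r_secH Λ m g ch (s59l_W j k) = s59r_WB j k := by
  rw [s59l_W, s59r_secH_X]; rfl

theorem s59r_secH_xl (ch : s59r_Ch Λ) (i : Fin g) :
    s59r_secH Λ m g ch (s59l_Xv (s59l_xe r g (Sum.inl i))) = s59r_XG i := by
  rw [s59l_Xv, s59r_secH_X]
  show Sum.elim _ _ ((s59l_xe r g).symm (s59l_xe r g (Sum.inl i))) = _
  rw [Equiv.symm_apply_apply]; rfl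

theorem s59r_secH_y (ch : s59r_Ch Λ) (l : Fin r) (j : Fin 3) :
    s59r_secH Λ m g ch (s59l_yE m g l j) = s59r_U l ((Λ l).sec (ch l) j) := by
  rw [s59l_yE, s59l_Xv, s59r_secH_X]
  show Sum.elim _ _ ((s59l_xe r g).symm (s59l_xe r g (Sum.inr (l, j)))) = _
  rw [Equiv.symm_apply_apply]; rfl

/-- `π_ch ∘ σ_ch = id`. -/
theorem s59r_pi_secH (ch : s59r_Ch Λ) :
    (s59r_pi Λ m g ch).comp (s59r_secH Λ m g ch) = AlgHom.id 𝒪 _ := by
  have key : ∀ s, ((s59r_pi Λ m g ch).comp (s59r_secH Λ m g ch)) (X s) = X s := by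
    intro s
    rw [AlgHom.comp_apply]
    rcases s with p | p | i
    · show s59r_pi Λ m g ch (s59r_secH Λ m g ch (s59l_V p.1 p.2)) = s59l_V p.1 p.2
      rw [s59r_secH_V, s59r_pi_VB]
    · show s59r_pi Λ m g ch (s59r_secH Λ m g ch (s59l_W p.1 p.2)) = s59l_W p.1 p.2
      rw [s59r_secH_W, s59r_pi_WB]
    · obtain ⟨t, rfl⟩ : ∃ t, i = s59l_xe r g t := ⟨(s59l_xe r g).symm i, by simp⟩
      rcases t with i0 | ⟨l, j⟩
      · show s59r_pi Λ m g ch (s59r_secH Λ m g ch (s59l_Xv (s59l_xe r g (Sum.inl i0)))) = _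
        rw [s59r_secH_xl, s59r_pi_XG]; rfl
      · show s59r_pi Λ m g ch (s59r_secH Λ m g ch (s59l_yE m g l j)) = s59l_yE m g l j
        rw [s59r_secH_y, s59r_pi_U, (Λ l).par_sec, s59r_emb_X]
  refine algHom_ext_of_X (maximalIdeal (s59l_Flat 𝒪 m (g + r * 3))) ?_ ?_
  · intro s
    rw [key]
    exact X_mem_maximalIdeal _
  · intro s
    rw [key]; rfl

theorem s59r_pi_surjective (ch : s59r_Ch Λ) : Function.Surjective (s59r_pi Λ m g ch) := by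
  intro y
  refine ⟨s59r_secH Λ m g ch y, ?_⟩
  have := congrArg (fun f => f y) (s59r_pi_secH (m := m) (g := g) Λ ch)
  simpa using this

/-! ### the primes -/

/-- **the prime `𝒦_{θ,ch}`** of `𝒫^Λ`. -/
def s59r_KK (θ : Fin m → 𝒪) (hθ : ∀ j, s59l_Hyp (θ j)) (g : ℕ) (ch : s59r_Ch Λ) :
    Ideal (s59r_Flat 𝒪 m r g) :=
  Ideal.comap (s59r_pi Λ m g ch) (s59l_KK θ hθ (g + r * 3))

instance s59r_KK_isPrime (θ : Fin m → 𝒪) (hθ : ∀ j, s59l_Hyp (θ j)) (g : ℕ)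
    (ch : s59r_Ch Λ) : (s59r_KK Λ θ hθ g ch).IsPrime := by
  rw [s59r_KK]
  exact Ideal.comap_isPrime _ _

/-- **dimension.** -/
theorem s59r_KK_dim (θ : Fin m → 𝒪) (hθ : ∀ j, s59l_Hyp (θ j)) (g : ℕ) (ch : s59r_Ch Λ) :
    ringKrullDim (s59r_Flat 𝒪 m r g ⧸ s59r_KK Λ θ hθ g ch) ≤
      ringKrullDim 𝒪 + ((3 * m + (g + r * 3) : ℕ) : WithBot ℕ∞) := by
  have hsurj : Function.Surjective ((Ideal.Quotient.mk (s59l_KK θ hθ (g + r * 3))).comp
      (s59r_pi Λ m g ch : s59r_Flat 𝒪 m r g →+* s59l_Flat 𝒪 m (g + r * 3))) :=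
    Ideal.Quotient.mk_surjective.comp (s59r_pi_surjective Λ ch)
  have hker : RingHom.ker ((Ideal.Quotient.mk (s59l_KK θ hθ (g + r * 3))).comp
      (s59r_pi Λ m g ch : s59r_Flat 𝒪 m r g →+* s59l_Flat 𝒪 m (g + r * 3))) =
      s59r_KK Λ θ hθ g ch := by
    rw [← RingHom.comap_ker, Ideal.mk_ker]; rfl
  have e1 := (Ideal.quotEquivOfEq hker.symm).trans (RingHom.quotientKerEquivOfSurjective hsurj)
  rw [ringKrullDim_eq_of_ringEquiv e1]
  exact s59l_KK_dim θ hθ (g + r * 3)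

end Prod

end Fermat.Agent.Lib.S59
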