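/-
PROGRAMME R2 = S59, node [FLR] / [F-RING] (helper4, prefix `s59r_`): the local node with smooth
local models, part 2 — **the local–global dictionary and the kill property**.

* `s59r_inj_of_vars`  : an `𝒪`-algebra map `𝒪⟦y₀,y₁,y₂⟧ → B⟦x₁..x_n⟧` (`𝒪 ↪ B`) which sends the
  variables to distinct variables is injective (retraction + change of coefficients);
* `s59r_loc_mem_KK`   : `loc_l x ∈ 𝒦_{θ,ch} ⇔ Par_{ch l} x = 0`;
* `s59r_Rel`, **`s59r_KK_kill`**, `s59r_KK_kill_reduced` : the kill property.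
-/
import Mathlib
import Fermat.Agent.Lib.S59.RProd

set_option autoImplicit false
set_option linter.unusedSectionVars false
set_option linter.unusedVariables false
set_option linter.style.haveILetI false

noncomputable section

namespace Fermat.Agent.Lib.S59

open IsLocalRing MvPowerSeries Fermat.Agent.Lib.Deform

section inj

variable {𝒪 : Type} [CommRing 𝒪]

/-- an `𝒪`-algebra map `𝒪⟦y⟧ → B⟦x⟧` which sends variables to distinct variables is injective
(if `𝒪 → B` is). -/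
theorem s59r_inj_of_vars {B : Type} [CommRing B] [IsLocalRing B]
    [IsAdicComplete (maximalIdeal B) B] [Algebra 𝒪 B]
    (hinj : Function.Injective (algebraMap 𝒪 B)) {n : ℕ} (ι : Fin 3 → Fin n)
    (hι : Function.Injective ι) (E : MvPowerSeries (Fin 3) 𝒪 →ₐ[𝒪] MvPowerSeries (Fin n) B)
    (hE : ∀ j, E (X j) = X (ι j)) : Function.Injective E := by
  classical
  -- the retraction
  let rv : Fin n → MvPowerSeries (Fin 3) B := fun i =>
    if h : ∃ j, ι j = i then X (Classical.choose h) else 0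
  have hrv : ∀ i, rv i ∈ maximalIdeal (MvPowerSeries (Fin 3) B) := by
    intro i
    show (if h : ∃ j, ι j = i then X (Classical.choose h) else 0) ∈ _
    split_ifs
    · exact X_mem_maximalIdeal _
    · exact zero_mem _
  let ret : MvPowerSeries (Fin n) B →ₐ[B] MvPowerSeries (Fin 3) B :=
    evalHom (maximalIdeal (MvPowerSeries (Fin 3) B)) rv hrv
  have hretX : ∀ j, ret (X (ι j)) = X j := by
    intro j
    have h : ∃ j', ι j' = ι j := ⟨j, rfl⟩
    show evalHom _ rv hrv (X (ι j)) = X j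
    rw [evalHom_X]
    show (if h : ∃ j', ι j' = ι j then X (Classical.choose h) else 0) = X j
    rw [dif_pos h, hι (Classical.choose_spec h)]
  have hretC : ∀ b : B, ret (C b) = C b := by
    intro b
    rw [s59l_algHom_C, MvPowerSeries.algebraMap_apply, Algebra.algebraMap_self, RingHom.id_apply]
  -- the composite as an `𝒪`-algebra map
  let comp : MvPowerSeries (Fin 3) 𝒪 →ₐ[𝒪] MvPowerSeries (Fin 3) B :=
    { toRingHom := ret.toRingHom.comp E.toRingHom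
      commutes' := by
        intro t
        show ret (E (algebraMap 𝒪 _ t)) = algebraMap 𝒪 _ t
        rw [E.commutes, MvPowerSeries.algebraMap_apply, hretC, MvPowerSeries.algebraMap_apply] }
  have hcomp : ∀ f, comp f = ret (E f) := fun f => rfl
  have heq : comp = mapAlgHom (Algebra.ofId 𝒪 B) := by
    refine algHom_ext_of_X (maximalIdeal (MvPowerSeries (Fin 3) B)) (fun j => ?_) (fun j => ?_)
    · rw [hcomp, hE, hretX]
      exact X_mem_maximalIdeal _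
    · rw [hcomp, hE, hretX, mapAlgHom_apply, map_X]
  rw [injective_iff_map_eq_zero]
  intro f hf
  have h1 : comp f = 0 := by rw [hcomp, hf, map_zero]
  rw [heq, mapAlgHom_apply] at h1
  ext d
  have h2 := congrArg (coeff d) h1
  rw [coeff_map, map_zero] at h2
  rw [map_zero]
  exact hinj (by rw [map_zero]; exact h2)

end inj

section Dict

variable {𝒪 : Type} [CommRing 𝒪] [IsLocalRing 𝒪] [IsNoetherianRing 𝒪] [IsDomain 𝒪]
  [IsAdicComplete (maximalIdeal 𝒪) 𝒪] [Finite (ResidueField 𝒪)]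

variable {m r g : ℕ} (Λ : Fin r → s59r_Model 𝒪) (θ : Fin m → 𝒪) (hθ : ∀ j, s59l_Hyp (θ j))

/-- the index of the variable `y_{l,j}`. -/
def s59r_yIdx (r g : ℕ) (l : Fin r) (j : Fin 3) : Fin (g + r * 3) := s59l_xe r g (Sum.inr (l, j))

theorem s59r_yIdx_inj {r g : ℕ} {l l' : Fin r} {j j' : Fin 3}
    (h : s59r_yIdx r g l j = s59r_yIdx r g l' j') : l = l' ∧ j = j' := by
  have := (s59l_xe r g).injective h
  have h2 := Sum.inr_injective this
  exact ⟨congrArg Prod.fst h2, congrArg Prod.snd h2⟩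

theorem s59r_Psi_yE (l : Fin r) (j : Fin 3) :
    s59l_Psi (s59l_stage m θ hθ) (g + r * 3) (s59l_yE m g l j) = X (s59r_yIdx r g l j) := by
  rw [s59l_yE, s59l_Psi_Xv]; rfl

/-- `Ψ ∘ emb_l : 𝒪⟦y⟧ → A^χ⟦x⟧`. -/
def s59r_PsiEmb (g : ℕ) (l : Fin r) :
    s59r_Par 𝒪 →ₐ[𝒪] MvPowerSeries (Fin (g + r * 3)) (s59l_stage m θ hθ).A :=
  (s59l_Psi (s59l_stage m θ hθ) (g + r * 3)).comp (s59r_emb m g l)

theorem s59r_PsiEmb_apply (g : ℕ) (l : Fin r) (x : s59r_Par 𝒪) :
    s59r_PsiEmb θ hθ g l x =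
      s59l_Psi (s59l_stage m θ hθ) (g + r * 3) (s59r_emb m g l x) := rfl

theorem s59r_PsiEmb_X (g : ℕ) (l : Fin r) (j : Fin 3) :
    s59r_PsiEmb θ hθ g l (X j) = X (s59r_yIdx r g l j) := by
  rw [s59r_PsiEmb_apply, s59r_emb_X, s59r_Psi_yE]

theorem s59r_PsiEmb_injective (g : ℕ) (l : Fin r) :
    Function.Injective (s59r_PsiEmb θ hθ g l) :=
  s59r_inj_of_vars (s59l_stage m θ hθ).inj (fun j => s59r_yIdx r g l j)
    (fun j j' h => (s59r_yIdx_inj h).2) _ (s59r_PsiEmb_X θ hθ g l)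

/-- **the local–global dictionary.** -/
theorem s59r_loc_mem_KK (g : ℕ) (ch : s59r_Ch Λ) (l : Fin r) (x : s59r_Loc 𝒪) :
    s59r_loc m g l x ∈ s59r_KK Λ θ hθ g ch ↔ s59r_ParHom (Λ l) (ch l) x = 0 := by
  rw [s59r_KK, Ideal.mem_comap, s59l_KK, RingHom.mem_ker, s59r_pi_loc_apply,
    ← s59r_PsiEmb_apply]
  constructor
  · intro h
    exact s59r_PsiEmb_injective θ hθ g l (by rw [h, map_zero])
  · intro h
    rw [h, map_zero]

end Dict

section Kill

variable {𝒪 : Type} [CommRing 𝒪] [IsLocalRing 𝒪] [IsNoetherianRing 𝒪] [IsDomain 𝒪]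
  [IsAdicComplete (maximalIdeal 𝒪) 𝒪] [Finite (ResidueField 𝒪)]

variable {m r g : ℕ} (Λ : Fin r → s59r_Model 𝒪)

/-- the relations for an `𝒪`-algebra map out of `𝒫^Λ`: type `χ_{θ j}` at `j ∈ B`, the local
relations of the model at the other primes. -/
structure s59r_Rel (θ : Fin m → 𝒪) {T : Type} [CommRing T] [IsLocalRing T] [Algebra 𝒪 T]
    (φ : s59r_Flat 𝒪 m r g →ₐ[𝒪] T) : Prop where
  loc : ∀ t ∈ maximalIdeal 𝒪, algebraMap 𝒪 T t ∈ maximalIdeal T
  inj : Function.Injective (algebraMap 𝒪 T)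
  mem : ∀ s, φ (X s) ∈ maximalIdeal T
  quad : ∀ j, φ (s59r_VB j 0) ^ 2 + φ (s59r_VB j 1) * φ (s59r_VB j 2) =
    algebraMap 𝒪 T (θ j) ^ 2
  minor : ∀ j k k', φ (s59r_WB j k) * φ (s59r_VB j k') = φ (s59r_WB j k') * φ (s59r_VB j k)
  tf : ∀ j, ∀ x : T, algebraMap 𝒪 T (θ j) * x = 0 → x = 0
  reg : ∀ l, (Λ l).rel T (fun k => φ (s59r_U l k))

/-- **(K-kill).**  A complete local domain point of `𝒫^Λ`, flat over `𝒪`, of type `χ_θ` at `B`
and satisfying the local relations at the other primes, kills `𝒦_{θ,ch}` for some `ch`. -/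
theorem s59r_KK_kill (θ : Fin m → 𝒪) (hθ : ∀ j, s59l_Hyp (θ j)) (g : ℕ) {T : Type}
    [CommRing T] [IsLocalRing T] [IsDomain T] [IsAdicComplete (maximalIdeal T) T] [Algebra 𝒪 T]
    (φ : s59r_Flat 𝒪 m r g →ₐ[𝒪] T) (hφ : s59r_Rel Λ θ φ) :
    ∃ ch : s59r_Ch Λ, s59r_KK Λ θ hθ g ch ≤ RingHom.ker φ := by
  classical
  choose c y hy hv using fun l => (Λ l).kill T hφ.inj hφ.loc (fun k => φ (s59r_U l k))
    (fun k => hφ.mem _) (hφ.reg l)
  refine ⟨c, ?_⟩
  -- the factor map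
  let χv : s59l_Idx m (g + r * 3) → T :=
    Sum.elim (fun p => φ (s59r_VB p.1 p.2))
      (Sum.elim (fun p => φ (s59r_WB p.1 p.2))
        (fun i => Sum.elim (fun i => φ (s59r_XG i)) (fun p => y p.1 p.2) ((s59l_xe r g).symm i)))
  have hχv : ∀ s, χv s ∈ maximalIdeal T := by
    intro s
    rcases s with p | p | i
    · exact hφ.mem _
    · exact hφ.mem _
    · show Sum.elim _ _ ((s59l_xe r g).symm i) ∈ _
      rcases (s59l_xe r g).symm i with i0 | p
      · exact hφ.mem _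
      · exact hy p.1 p.2
  let χ : s59l_Flat 𝒪 m (g + r * 3) →ₐ[𝒪] T := evalHom (maximalIdeal T) χv hχv
  have hχX : ∀ s, χ (X s) = χv s := fun s => evalHom_X _ _ _ s
  have hχV : ∀ j k, χ (s59l_V j k) = φ (s59r_VB j k) := fun j k => by
    rw [s59l_V, hχX]; rfl
  have hχW : ∀ j k, χ (s59l_W j k) = φ (s59r_WB j k) := fun j k => by
    rw [s59l_W, hχX]; rfl
  have hχx : ∀ i, χ (s59l_Xv (s59l_xe r g (Sum.inl i))) = φ (s59r_XG i) := fun i => by
    rw [s59l_Xv, hχX]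
    show Sum.elim _ _ ((s59l_xe r g).symm (s59l_xe r g (Sum.inl i))) = _
    rw [Equiv.symm_apply_apply]; rfl
  have hχy : ∀ l j, χ (s59l_yE m g l j) = y l j := fun l j => by
    rw [s59l_yE, s59l_Xv, hχX]
    show Sum.elim _ _ ((s59l_xe r g).symm (s59l_xe r g (Sum.inr (l, j)))) = _
    rw [Equiv.symm_apply_apply]; rfl
  have hrel : s59l_RelChi θ χ := by
    refine ⟨fun s => by rw [hχX]; exact hχv s, fun j => ?_, fun j k k' => ?_, hφ.tf⟩
    · rw [hχV, hχV, hχV]; exact hφ.quad j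
    · rw [hχV, hχV, hχW, hχW]; exact hφ.minor j k k'
  have hkill := s59l_KK_kill θ hθ (g + r * 3) χ hrel
  -- `χ ∘ emb_l = ev_{y l}`
  have hemb : ∀ l, χ.comp (s59r_emb m g l) = evalHom (maximalIdeal T) (y l) (hy l) := by
    intro l
    refine algHom_ext_of_X (maximalIdeal T) (fun j => ?_) (fun j => ?_)
    · rw [AlgHom.comp_apply, s59r_emb_X, hχy]
      exact hy l j
    · rw [AlgHom.comp_apply, s59r_emb_X, hχy, evalHom_X]
  have heq : φ = χ.comp (s59r_pi Λ m g c) := by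
    refine algHom_ext_of_X (maximalIdeal T) hφ.mem fun s => ?_
    rw [AlgHom.comp_apply]
    rcases s with p | p | ⟨l, k⟩ | i
    · show φ (s59r_VB p.1 p.2) = χ (s59r_pi Λ m g c (s59r_VB p.1 p.2))
      rw [s59r_pi_VB, hχV]
    · show φ (s59r_WB p.1 p.2) = χ (s59r_pi Λ m g c (s59r_WB p.1 p.2))
      rw [s59r_pi_WB, hχW]
    · show φ (s59r_U l k) = χ (s59r_pi Λ m g c (s59r_U l k))
      rw [s59r_pi_U, hv l k]
      have := congrArg (fun f => f ((Λ l).par (c l) k)) (hemb l)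
      simp only [AlgHom.comp_apply] at this
      rw [this]
    · show φ (s59r_XG i) = χ (s59r_pi Λ m g c (s59r_XG i))
      rw [s59r_pi_XG, hχx]
  intro F hF
  rw [s59r_KK, Ideal.mem_comap] at hF
  have := hkill hF
  rw [RingHom.mem_ker] at this ⊢
  rw [heq, AlgHom.comp_apply, this]

/-- **(K-kill) for reduced rings**: if every irreducible component of a reduced complete local
noetherian `𝒪`-algebra `Cr` is flat over `𝒪`, of type `χ_{θ i}` at `B` for some `i`, and satisfies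
the local relations at the other primes, then `⋂_{(i,ch)} 𝒦_{θ i, ch}` dies in `Cr`. -/
theorem s59r_KK_kill_reduced {ι : Type} [Fintype ι] (θ : ι → Fin m → 𝒪)
    (hθ : ∀ i j, s59l_Hyp (θ i j)) (g : ℕ) {Cr : Type} [CommRing Cr] [IsLocalRing Cr]
    [IsNoetherianRing Cr] [IsAdicComplete (maximalIdeal Cr) Cr] [IsReduced Cr] [Algebra 𝒪 Cr]
    (φ : s59r_Flat 𝒪 m r g →ₐ[𝒪] Cr)
    (h : ∀ 𝔭 ∈ minimalPrimes Cr, ∀ [IsLocalRing (Cr ⧸ 𝔭)], ∃ i,
      s59r_Rel Λ (θ i) ((Ideal.Quotient.mkₐ 𝒪 𝔭).comp φ)) :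
    (Finset.univ.inf fun p : ι × s59r_Ch Λ => s59r_KK Λ (θ p.1) (hθ p.1) g p.2) ≤
      RingHom.ker φ := by
  classical
  refine s59l_kill_reduced (φ : s59r_Flat 𝒪 m r g →+* Cr) _ fun 𝔭 h𝔭 F hF => ?_
  haveI : 𝔭.IsPrime := h𝔭.1.1
  haveI : IsLocalRing (Cr ⧸ 𝔭) := s59l_quot_isLocalRing 𝔭 (Ideal.IsPrime.ne_top inferInstance)
  haveI : IsAdicComplete (maximalIdeal (Cr ⧸ 𝔭)) (Cr ⧸ 𝔭) := s59l_quot_complete 𝔭
  haveI : IsDomain (Cr ⧸ 𝔭) := Ideal.Quotient.isDomain 𝔭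
  obtain ⟨i, hi⟩ := h 𝔭 h𝔭
  obtain ⟨ch, hch⟩ := s59r_KK_kill Λ (θ i) (hθ i) g _ hi
  have h1 : F ∈ s59r_KK Λ (θ i) (hθ i) g ch :=
    (Finset.inf_le (f := fun p : ι × s59r_Ch Λ => s59r_KK Λ (θ p.1) (hθ p.1) g p.2)
      (Finset.mem_univ (i, ch))) hF
  have h2 := hch h1
  rw [RingHom.mem_ker, AlgHom.comp_apply, Ideal.Quotient.mkₐ_eq_mk,
    Ideal.Quotient.eq_zero_iff_mem] at h2
  exact h2

end Kill

end Fermat.Agent.Lib.S59
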