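/-
PROGRAMME R2 = S59, node [FLR] / [F-RING] (helper4, prefix `s59r_`): the local node with smooth
local models, part 3 — **the ring contract `s59f_RingData'` from LOCAL raise data.**

For each prime `l` a `s59r_RaiseData (Λ l)`: the unramified component `unr`, the target component
`tgt`, the local Gram determinant `δ`, and a local witness `σ : 𝒪⟦y⟧ → 𝒪⟦y⟧` (a point of the
unramified component) with
  (w1) `δ` vanishes at the witness;
  (w2) the only component through the witness which contains `δ` is `tgt`.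
Together with `Λ.dist` (no component contains another one) this gives **`s59r_ringData`**: the
contract `s59f_RingData'` for `𝒫^Λ`, the primes `𝒦_{θ,ch}` and the chain
`c t = (l ↦ if l < t then tgt_l else unr_l)`.
-/
import Mathlib
import Fermat.Agent.Lib.S59.RKill
import Fermat.Agent.Lib.S59.FGraph2

set_option autoImplicit false
set_option linter.unusedSectionVars false
set_option linter.unusedVariables false
set_option linter.style.haveILetI false

noncomputable section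

namespace Fermat.Agent.Lib.S59

open IsLocalRing MvPowerSeries Fermat.Agent.Lib.Deform

section Raise

variable {𝒪 : Type} [CommRing 𝒪] [IsLocalRing 𝒪] [IsNoetherianRing 𝒪] [IsDomain 𝒪]
  [IsAdicComplete (maximalIdeal 𝒪) 𝒪] [Finite (ResidueField 𝒪)]

/-- **local raise data** for a model. -/
structure s59r_RaiseData (Λ : s59r_Model 𝒪) : Type where
  unr : Fin Λ.nc
  tgt : Fin Λ.nc
  δ : s59r_Loc 𝒪
  σ : Fin 3 → s59r_Par 𝒪
  σ_mem : ∀ j, σ j ∈ maximalIdeal (s59r_Par 𝒪)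
  w1 : evalHom (R := 𝒪) (maximalIdeal (s59r_Par 𝒪)) σ σ_mem (s59r_ParHom Λ unr δ) = 0
  w2 : ∀ c : Fin Λ.nc,
    (∀ x : s59r_Loc 𝒪, s59r_ParHom Λ c x = 0 →
      evalHom (R := 𝒪) (maximalIdeal (s59r_Par 𝒪)) σ σ_mem (s59r_ParHom Λ unr x) = 0) →
    s59r_ParHom Λ c δ = 0 → c = tgt

/-- the witness substitution as a map of rings. -/
def s59r_RaiseData.sub {Λ : s59r_Model 𝒪} (D : s59r_RaiseData Λ) :
    s59r_Par 𝒪 →ₐ[𝒪] s59r_Par 𝒪 :=
  evalHom (maximalIdeal (s59r_Par 𝒪)) D.σ D.σ_mem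

theorem s59r_RaiseData.sub_X {Λ : s59r_Model 𝒪} (D : s59r_RaiseData Λ) (j : Fin 3) :
    D.sub (X j) = D.σ j := evalHom_X _ _ _ j

variable {m r g : ℕ} (Λ : Fin r → s59r_Model 𝒪) (θ : Fin m → 𝒪) (hθ : ∀ j, s59l_Hyp (θ j))
  (D : ∀ l, s59r_RaiseData (Λ l))

/-- the images of the variables under the global witness substitution at the prime `t`. -/
def s59r_sigVals (g : ℕ) (t : Fin r) :
    Fin (g + r * 3) → MvPowerSeries (Fin (g + r * 3)) (s59l_stage m θ hθ).A := fun i =>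
  if h : ∃ j, s59r_yIdx r g t j = i then s59r_PsiEmb θ hθ g t ((D t).σ (Classical.choose h))
  else X i

theorem s59r_PsiEmb_mem (g : ℕ) (l : Fin r) {x : s59r_Par 𝒪}
    (hx : x ∈ maximalIdeal (s59r_Par 𝒪)) :
    s59r_PsiEmb θ hθ g l x ∈
      maximalIdeal (MvPowerSeries (Fin (g + r * 3)) (s59l_stage m θ hθ).A) := by
  refine s59l_algHom_mem_max (s59r_PsiEmb θ hθ g l) (fun s => ?_) (fun t ht => ?_) hx
  · rw [s59r_PsiEmb_X]; exact X_mem_maximalIdeal _
  · rw [MvPowerSeries.algebraMap_apply]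
    refine s59l_C_mem ?_
    have hl : IsLocalHom (algebraMap 𝒪 (s59l_stage m θ hθ).A) := inferInstance
    by_contra hne
    have hu : IsUnit (algebraMap 𝒪 (s59l_stage m θ hθ).A t) := by
      rwa [mem_maximalIdeal, mem_nonunits_iff, not_not] at hne
    exact ht (hl.map_nonunit t hu)

theorem s59r_sigVals_mem (g : ℕ) (t : Fin r) (i : Fin (g + r * 3)) :
    s59r_sigVals Λ θ hθ D g t i ∈
      maximalIdeal (MvPowerSeries (Fin (g + r * 3)) (s59l_stage m θ hθ).A) := by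
  unfold s59r_sigVals
  split_ifs
  · exact s59r_PsiEmb_mem θ hθ g t ((D t).σ_mem _)
  · exact X_mem_maximalIdeal _

/-- the global witness substitution at the prime `t`. -/
def s59r_Sig (g : ℕ) (t : Fin r) :
    MvPowerSeries (Fin (g + r * 3)) (s59l_stage m θ hθ).A →ₐ[(s59l_stage m θ hθ).A]
      MvPowerSeries (Fin (g + r * 3)) (s59l_stage m θ hθ).A :=
  evalHom (maximalIdeal (MvPowerSeries (Fin (g + r * 3)) (s59l_stage m θ hθ).A))
    (s59r_sigVals Λ θ hθ D g t) (s59r_sigVals_mem Λ θ hθ D g t)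

theorem s59r_Sig_y_self (g : ℕ) (t : Fin r) (j : Fin 3) :
    s59r_Sig Λ θ hθ D g t (X (s59r_yIdx r g t j)) = s59r_PsiEmb θ hθ g t ((D t).σ j) := by
  have h : ∃ j', s59r_yIdx r g t j' = s59r_yIdx r g t j := ⟨j, rfl⟩
  rw [s59r_Sig, evalHom_X]
  show (if h : ∃ j', s59r_yIdx r g t j' = s59r_yIdx r g t j then _ else _) = _
  rw [dif_pos h, (s59r_yIdx_inj (Classical.choose_spec h)).2]

theorem s59r_Sig_y_other (g : ℕ) (t l : Fin r) (hl : l ≠ t) (j : Fin 3) :
    s59r_Sig Λ θ hθ D g t (X (s59r_yIdx r g l j)) = X (s59r_yIdx r g l j) := by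
  rw [s59r_Sig, evalHom_X]
  show (if h : ∃ j', s59r_yIdx r g t j' = s59r_yIdx r g l j then _ else _) = _
  rw [dif_neg]
  rintro ⟨j', hj'⟩
  exact hl (s59r_yIdx_inj hj').1.symm

theorem s59r_Sig_C (g : ℕ) (t : Fin r) (a : (s59l_stage m θ hθ).A) :
    s59r_Sig Λ θ hθ D g t (C a) = C a := by
  rw [s59l_algHom_C, MvPowerSeries.algebraMap_apply, Algebra.algebraMap_self, RingHom.id_apply]

/-- `Σ_t ∘ Ψ ∘ emb_l` as an `𝒪`-algebra map. -/
def s59r_SigEmb (g : ℕ) (t l : Fin r) :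
    s59r_Par 𝒪 →ₐ[𝒪] MvPowerSeries (Fin (g + r * 3)) (s59l_stage m θ hθ).A :=
  { toRingHom := (s59r_Sig Λ θ hθ D g t).toRingHom.comp (s59r_PsiEmb θ hθ g l).toRingHom
    commutes' := by
      intro a
      show s59r_Sig Λ θ hθ D g t (s59r_PsiEmb θ hθ g l (algebraMap 𝒪 _ a)) = algebraMap 𝒪 _ a
      rw [(s59r_PsiEmb θ hθ g l).commutes, MvPowerSeries.algebraMap_apply, s59r_Sig_C] }

theorem s59r_SigEmb_apply (g : ℕ) (t l : Fin r) (x : s59r_Par 𝒪) :
    s59r_SigEmb Λ θ hθ D g t l x = s59r_Sig Λ θ hθ D g t (s59r_PsiEmb θ hθ g l x) := rfl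

theorem s59r_SigEmb_self (g : ℕ) (t : Fin r) :
    s59r_SigEmb Λ θ hθ D g t t = (s59r_PsiEmb θ hθ g t).comp (D t).sub := by
  refine algHom_ext_of_X
    (maximalIdeal (MvPowerSeries (Fin (g + r * 3)) (s59l_stage m θ hθ).A))
    (fun j => ?_) (fun j => ?_)
  · rw [s59r_SigEmb_apply, s59r_PsiEmb_X, s59r_Sig_y_self]
    exact s59r_PsiEmb_mem θ hθ g t ((D t).σ_mem _)
  · rw [s59r_SigEmb_apply, s59r_PsiEmb_X, s59r_Sig_y_self, AlgHom.comp_apply,
      s59r_RaiseData.sub_X]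

theorem s59r_SigEmb_other (g : ℕ) (t l : Fin r) (hl : l ≠ t) :
    s59r_SigEmb Λ θ hθ D g t l = s59r_PsiEmb θ hθ g l := by
  refine algHom_ext_of_X
    (maximalIdeal (MvPowerSeries (Fin (g + r * 3)) (s59l_stage m θ hθ).A))
    (fun j => ?_) (fun j => ?_)
  · rw [s59r_SigEmb_apply, s59r_PsiEmb_X, s59r_Sig_y_other Λ θ hθ D g t l hl]
    exact X_mem_maximalIdeal _
  · rw [s59r_SigEmb_apply, s59r_PsiEmb_X, s59r_Sig_y_other Λ θ hθ D g t l hl]

/-- the witness map `Σ_t ∘ Ψ ∘ π_ch`. -/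
def s59r_wit (g : ℕ) (ch : s59r_Ch Λ) (t : Fin r) :
    s59r_Flat 𝒪 m r g →+* MvPowerSeries (Fin (g + r * 3)) (s59l_stage m θ hθ).A :=
  (s59r_Sig Λ θ hθ D g t).toRingHom.comp
    ((s59l_Psi (s59l_stage m θ hθ) (g + r * 3)).toRingHom.comp (s59r_pi Λ m g ch).toRingHom)

theorem s59r_wit_apply (g : ℕ) (ch : s59r_Ch Λ) (t : Fin r) (x : s59r_Flat 𝒪 m r g) :
    s59r_wit Λ θ hθ D g ch t x = s59r_Sig Λ θ hθ D g t
      (s59l_Psi (s59l_stage m θ hθ) (g + r * 3) (s59r_pi Λ m g ch x)) := rfl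

/-- **the witness prime** at the prime `t`, over the component `ch`. -/
def s59r_Q (g : ℕ) (ch : s59r_Ch Λ) (t : Fin r) : Ideal (s59r_Flat 𝒪 m r g) :=
  RingHom.ker (s59r_wit Λ θ hθ D g ch t)

instance s59r_Q_isPrime (g : ℕ) (ch : s59r_Ch Λ) (t : Fin r) :
    (s59r_Q Λ θ hθ D g ch t).IsPrime := by
  haveI : IsDomain (MvPowerSeries (Fin (g + r * 3)) (s59l_stage m θ hθ).A) :=
    NoZeroDivisors.to_isDomain _
  rw [s59r_Q]
  exact RingHom.ker_isPrime _

theorem s59r_KK_le_Q (g : ℕ) (ch : s59r_Ch Λ) (t : Fin r) :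
    s59r_KK Λ θ hθ g ch ≤ s59r_Q Λ θ hθ D g ch t := by
  intro x hx
  rw [s59r_KK, Ideal.mem_comap, s59l_KK, RingHom.mem_ker] at hx
  rw [s59r_Q, RingHom.mem_ker, s59r_wit_apply, hx, map_zero]

theorem s59r_wit_loc (g : ℕ) (ch : s59r_Ch Λ) (t l : Fin r) (x : s59r_Loc 𝒪) :
    s59r_wit Λ θ hθ D g ch t (s59r_loc m g l x) =
      s59r_SigEmb Λ θ hθ D g t l (s59r_ParHom (Λ l) (ch l) x) := by
  rw [s59r_wit_apply, s59r_pi_loc_apply, s59r_SigEmb_apply, s59r_PsiEmb_apply]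

/-- membership of local elements in the witness prime, at the prime `t`. -/
theorem s59r_loc_mem_Q_self (g : ℕ) (ch : s59r_Ch Λ) (t : Fin r) (x : s59r_Loc 𝒪) :
    s59r_loc m g t x ∈ s59r_Q Λ θ hθ D g ch t ↔
      (D t).sub (s59r_ParHom (Λ t) (ch t) x) = 0 := by
  rw [s59r_Q, RingHom.mem_ker, s59r_wit_loc, s59r_SigEmb_self, AlgHom.comp_apply]
  constructor
  · intro h
    exact s59r_PsiEmb_injective θ hθ g t (by rw [h, map_zero])
  · intro h
    rw [h, map_zero]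

/-- membership of local elements in the witness prime, away from `t`. -/
theorem s59r_loc_mem_Q_other (g : ℕ) (ch : s59r_Ch Λ) (t l : Fin r) (hl : l ≠ t)
    (x : s59r_Loc 𝒪) :
    s59r_loc m g l x ∈ s59r_Q Λ θ hθ D g ch t ↔ s59r_ParHom (Λ l) (ch l) x = 0 := by
  rw [s59r_Q, RingHom.mem_ker, s59r_wit_loc, s59r_SigEmb_other Λ θ hθ D g t l hl]
  constructor
  · intro h
    exact s59r_PsiEmb_injective θ hθ g l (by rw [h, map_zero])
  · intro h
    rw [h, map_zero]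

/-- the chain of components: the target at the first `t` primes, unramified at the others. -/
def s59r_chain (t : ℕ) : s59r_Ch Λ := fun l => if l.val < t then (D l).tgt else (D l).unr

/-- the Gram determinants along the chain. -/
def s59r_delta (m g : ℕ) (t : ℕ) : s59r_Flat 𝒪 m r g :=
  if h : t < r then s59r_loc m g ⟨t, h⟩ (D ⟨t, h⟩).δ else 0

/-- **[F-RING′] for smooth local models.** -/
theorem s59r_ringData (g : ℕ) (S : Type) [CommRing S]
    (hS : ringKrullDim 𝒪 + ((3 * m + (g + r * 3) : ℕ) : WithBot ℕ∞) ≤ ringKrullDim S) :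
    s59f_RingData' S (s59r_Flat 𝒪 m r g) (Finset.univ : Finset (s59r_Ch Λ))
      (fun ch => s59r_KK Λ θ hθ g ch) r (s59r_chain Λ D) (s59r_delta Λ D m g)
      (fun t => Ideal.span {s59r_delta Λ D m g t}) where
  prime := fun ch _ => inferInstance
  dim := fun ch _ => (s59r_KK_dim Λ θ hθ g ch).trans hS
  mem0 := Finset.mem_univ _
  wit := by
    intro t ht
    have hct : s59r_chain Λ D t ⟨t, ht⟩ = (D ⟨t, ht⟩).unr := by
      simp [s59r_chain]
    refine ⟨s59r_Q Λ θ hθ D g (s59r_chain Λ D t) ⟨t, ht⟩, inferInstance,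
      s59r_KK_le_Q Λ θ hθ D g _ _, ?_, ?_⟩
    · show s59r_delta Λ D m g t ∈ _
      rw [s59r_delta, dif_pos ht, s59r_loc_mem_Q_self, hct]
      exact (D ⟨t, ht⟩).w1
    · intro ch' _ hle h𝔫
      have hδ : s59r_loc m g ⟨t, ht⟩ (D ⟨t, ht⟩).δ ∈ s59r_KK Λ θ hθ g ch' := by
        refine h𝔫 (Ideal.subset_span ?_)
        rw [s59r_delta, dif_pos ht]
        exact Set.mem_singleton _
      rw [s59r_loc_mem_KK] at hδ
      have h1 : ch' ⟨t, ht⟩ = (D ⟨t, ht⟩).tgt := by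
        refine (D ⟨t, ht⟩).w2 _ (fun x hx => ?_) hδ
        have h2 : s59r_loc m g ⟨t, ht⟩ x ∈ s59r_KK Λ θ hθ g ch' :=
          (s59r_loc_mem_KK Λ θ hθ g ch' _ x).mpr hx
        have h3 := hle h2
        rw [s59r_loc_mem_Q_self, hct] at h3
        exact h3
      funext l'
      by_cases hl : l' = ⟨t, ht⟩
      · subst hl
        rw [h1]
        simp [s59r_chain]
      · have h4 : ch' l' = s59r_chain Λ D t l' := by
          refine (Λ l').dist _ _ (fun x hx => ?_)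
          have h2 : s59r_loc m g l' x ∈ s59r_KK Λ θ hθ g ch' :=
            (s59r_loc_mem_KK Λ θ hθ g ch' _ x).mpr hx
          have h3 := hle h2
          rw [s59r_loc_mem_Q_other Λ θ hθ D g _ _ _ hl] at h3
          exact h3
        rw [h4]
        have hne : l'.val ≠ t := fun h => hl (Fin.ext h)
        simp only [s59r_chain]
        by_cases h2 : l'.val < t
        · rw [if_pos h2, if_pos (Nat.lt_succ_of_lt h2)]
        · rw [if_neg h2, if_neg (by omega)]

end Raise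

end Fermat.Agent.Lib.S59
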