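/-
PROGRAMME R2 = S59, node [FLR], **the `R`-side contract for GENERIC smooth local models**, part 1
(helper4, prefix `s59f_`): **the local bridge datum `s59f_LocBr`** of a raising prime with a smooth
local model.  It bundles

  * the model `Λ`, its raise data `D`, the constant `u` (`= q`);
  * the coordinates of the bridge at the prime: `lam`, `sh`, the free positions `fp`, and a lift
    `M0` of the residual framed Frobenius (the inputs `hlam`, `hsh`, `hfp` of `s59f_inst_flatG`);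
  * `unr_par`   : the unramified component is `N = 0`;
  * `relOf`     : the local relations from the conjugation-invariant matrix identities
                  (unipotent, tame relation, `det Φ = u`, residual Frobenius);
  * `g12`, `hg12`, `trOf` : the element `g12 = tr Φ` of the local ring, with
                  `(u+1)² − g12² = δ`;
  * `tr0`, `tgtOf` : a ramified point with `tr Φ = tr0` lies on the target component.

The coordinates of a pair `(Σ, Φ)`: `s59f_coordG`.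
-/
import Mathlib
import Fermat.Agent.Lib.S59.RRing
import Fermat.Agent.Lib.S59.FBrG1

set_option autoImplicit false
set_option linter.unusedSectionVars false
set_option linter.unusedVariables false
set_option linter.style.haveILetI false

noncomputable section

namespace Fermat.Agent.Lib.S59

open IsLocalRing MvPowerSeries Fermat.Agent.Lib.Deform

/-- the six coordinates `(tl Σ; tlG_λ Φ − sh)` of a pair `(Σ, Φ)` at a raising prime with a smooth
local model. -/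
def s59f_coordG {C : Type*} [CommRing C] (i2 : C) (lam : Fin 2 → C) (sh : Fin 3 → C)
    (Sg Ph : Matrix (Fin 2) (Fin 2) C) : Fin 6 → C :=
  ![s59q_tl i2 Sg 0, s59q_tl i2 Sg 1, s59q_tl i2 Sg 2,
    s59f_tlG lam Ph 0 - sh 0, s59f_tlG lam Ph 1 - sh 1, s59f_tlG lam Ph 2 - sh 2]

theorem s59f_coordG_left {C : Type*} [CommRing C] (i2 : C) (lam : Fin 2 → C) (sh : Fin 3 → C)
    (Sg Ph : Matrix (Fin 2) (Fin 2) C) (k : Fin 3) :
    s59f_coordG i2 lam sh Sg Ph (Fin.castAdd 3 k) = s59q_tl i2 Sg k := by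
  fin_cases k <;> rfl

theorem s59f_coordG_right {C : Type*} [CommRing C] (i2 : C) (lam : Fin 2 → C) (sh : Fin 3 → C)
    (Sg Ph : Matrix (Fin 2) (Fin 2) C) (k : Fin 3) :
    s59f_coordG i2 lam sh Sg Ph (Fin.natAdd 3 k) = s59f_tlG lam Ph k - sh k := by
  fin_cases k <;> rfl

/-- **the local bridge datum** of a raising prime with a smooth local model. -/
structure s59f_LocBr (𝒪 : Type) [CommRing 𝒪] [IsLocalRing 𝒪] [IsNoetherianRing 𝒪] [IsDomain 𝒪]
    [IsAdicComplete (maximalIdeal 𝒪) 𝒪] [Finite (ResidueField 𝒪)] (i2 : 𝒪) : Type 1 where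
  Λ : s59r_Model 𝒪
  D : s59r_RaiseData Λ
  u : 𝒪
  lam : Fin 2 → 𝒪
  sh : Fin 3 → 𝒪
  M0 : Matrix (Fin 2) (Fin 2) 𝒪
  fp : Fin 2 → Fin 2 × Fin 2
  hlam : residue 𝒪 (lam 0) * (M0.map (residue 𝒪)) 0 0 -
    residue 𝒪 (lam 1) * (M0.map (residue 𝒪)) 1 1 ≠ 0
  hsh : ∀ k, residue 𝒪 (sh k) =
    s59f_tlG (fun i => residue 𝒪 (lam i)) (M0.map (residue 𝒪)) k
  hfp : ∀ Δ : Matrix (Fin 2) (Fin 2) (ResidueField 𝒪),
    Δ * M0.map (residue 𝒪) = M0.map (residue 𝒪) * Δ →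
    Δ (fp 0).1 (fp 0).2 = 0 → Δ (fp 1).1 (fp 1).2 = 0 → Δ = 0
  unr_par : Λ.par D.unr = ![0, 0, 0, X 0, X 1, X 2]
  relOf : ∀ (T : Type) [CommRing T] [IsLocalRing T] [Algebra 𝒪 T]
    (Sg Ph : Matrix (Fin 2) (Fin 2) T),
    (Sg - 1) * (Sg - 1) = 0 → Sg.trace = 2 →
    Ph * (Sg - 1) = algebraMap 𝒪 T u • ((Sg - 1) * Ph) → Ph.det = algebraMap 𝒪 T u →
    (∀ i j, Ph i j - algebraMap 𝒪 T (M0 i j) ∈ maximalIdeal T) →
    Λ.rel T (s59f_coordG (algebraMap 𝒪 T i2) (fun i => algebraMap 𝒪 T (lam i))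
      (fun k => algebraMap 𝒪 T (sh k)) Sg Ph)
  g12 : s59r_Loc 𝒪
  hg12 : (C (u + 1) : s59r_Loc 𝒪) * C (u + 1) - g12 * g12 = D.δ
  trOf : ∀ (T : Type) [CommRing T] [IsLocalRing T] [Algebra 𝒪 T] (f : s59r_Loc 𝒪 →ₐ[𝒪] T)
    (Ph : Matrix (Fin 2) (Fin 2) T),
    (∀ a ∈ maximalIdeal (s59r_Loc 𝒪), f a ∈ maximalIdeal T) →
    (∀ k : Fin 3, f (X (Fin.natAdd 3 k)) =
      s59f_tlG (fun i => algebraMap 𝒪 T (lam i)) Ph k - algebraMap 𝒪 T (sh k)) →
    Ph.det = algebraMap 𝒪 T u →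
    (∀ i j, Ph i j - algebraMap 𝒪 T (M0 i j) ∈ maximalIdeal T) →
    f g12 = Ph.trace
  tr0 : 𝒪
  tgtOf : ∀ (T : Type) [CommRing T] [IsLocalRing T] [IsDomain T]
    [IsAdicComplete (maximalIdeal T) T] [Algebra 𝒪 T],
    Function.Injective (algebraMap 𝒪 T) →
    (∀ t ∈ maximalIdeal 𝒪, algebraMap 𝒪 T t ∈ maximalIdeal T) →
    ∀ (v : Fin 6 → T) (hv : ∀ k, v k ∈ maximalIdeal T), Λ.rel T v →
    ¬ (v 0 = 0 ∧ v 1 = 0 ∧ v 2 = 0) →
    evalHom (R := 𝒪) (maximalIdeal T) v hv g12 = algebraMap 𝒪 T tr0 →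
    ∃ (y : Fin 3 → T) (hy : ∀ j, y j ∈ maximalIdeal T),
      ∀ k, v k = evalHom (R := 𝒪) (maximalIdeal T) y hy (Λ.par D.tgt k)

end Fermat.Agent.Lib.S59
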