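/-
[E] INSTANTIATION, ring half (helper4, prefix `s59i_`), part 2: THE KILL STEP for the framed
χ-side Hecke rings.
  * `s59i_kill_family` : a point `φ : 𝒫^E → Cr` (ANY `𝒪`-algebra `Cr`) dies on `⋂_{(i,ch)} 𝒦_{θ_i,ch}`
    as soon as a jointly injective family of maps `Cr → D_k` to complete local domains is given,
    each `D_k`-point being of type `χ_{θ_i}` at `B` and unipotent at `E` (`s59l_RelE`).
  * `s59i_kill_ps` : `Cr = T′⟦z⟧`, `T′` reduced complete noetherian local, the family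
    `(T′/𝔭)⟦z⟧`, `𝔭` minimal prime of `T′` (no reducedness of `T′⟦z⟧` needed).
-/
import Mathlib
import Fermat.Agent.Lib.S59.LTol

set_option autoImplicit false
set_option linter.unusedSectionVars false
set_option linter.unusedVariables false
set_option linter.style.haveILetI false

noncomputable section

namespace Fermat.Agent.Lib.S59

open IsLocalRing MvPowerSeries Fermat.Agent.Lib.Deform

variable {𝒪 : Type} [CommRing 𝒪] [IsLocalRing 𝒪] [IsNoetherianRing 𝒪] [IsDomain 𝒪]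
  [IsAdicComplete (maximalIdeal 𝒪) 𝒪] [Finite (ResidueField 𝒪)]

variable {m e : ℕ} (D : s59l_EData 𝒪 e)

/-- **(K-kill) for a jointly injective family of complete local domain quotients.** -/
theorem s59i_kill_family {ι : Type} [Fintype ι] (θ : ι → Fin m → 𝒪)
    (hθ : ∀ i j, s59l_Hyp (θ i j)) (g : ℕ) {Cr : Type} [CommRing Cr] [Algebra 𝒪 Cr]
    (φ : s59l_FlatE 𝒪 m e g →ₐ[𝒪] Cr) {κ : Type} (Dk : κ → Type) [∀ k, CommRing (Dk k)]
    [∀ k, IsLocalRing (Dk k)] [∀ k, IsDomain (Dk k)]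
    [∀ k, IsAdicComplete (maximalIdeal (Dk k)) (Dk k)] [∀ k, Algebra 𝒪 (Dk k)]
    (q : ∀ k, Cr →ₐ[𝒪] Dk k) (hq : ∀ x : Cr, (∀ k, q k x = 0) → x = 0)
    (h : ∀ k, ∃ i, s59l_RelE D (θ i) ((q k).comp φ)) :
    (Finset.univ.inf fun p : ι × (Fin e → Bool) => s59l_KKE D (θ p.1) (hθ p.1) g p.2) ≤
      RingHom.ker φ := by
  intro F hF
  rw [RingHom.mem_ker]
  refine hq _ fun k => ?_
  obtain ⟨i, hi⟩ := h k
  obtain ⟨ch, hch⟩ := s59l_KKE_kill D (θ i) (hθ i) g _ hi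
  have h1 : F ∈ s59l_KKE D (θ i) (hθ i) g ch :=
    (Finset.inf_le (f := fun p : ι × (Fin e → Bool) => s59l_KKE D (θ p.1) (hθ p.1) g p.2)
      (Finset.mem_univ (i, ch))) hF
  have h2 := hch h1
  rw [RingHom.mem_ker, AlgHom.comp_apply] at h2
  exact h2

/-- a power series over a reduced ring which dies in `(T′/𝔭)⟦z⟧` for every minimal prime `𝔭`
is zero. -/
theorem s59i_eq_zero_of_map_mk {σ : Type*} {T' : Type*} [CommRing T'] [IsReduced T']
    (x : MvPowerSeries σ T')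
    (hx : ∀ 𝔭 ∈ minimalPrimes T', MvPowerSeries.map (Ideal.Quotient.mk 𝔭) x = 0) : x = 0 := by
  ext d
  rw [map_zero]
  have h1 : coeff d x ∈ sInf (minimalPrimes T') := by
    rw [Submodule.mem_sInf]
    intro 𝔭 h𝔭
    have := congrArg (coeff d) (hx 𝔭 h𝔭)
    rw [coeff_map, map_zero, Ideal.Quotient.eq_zero_iff_mem] at this
    exact this
  have h2 : sInf (minimalPrimes T') = (⊥ : Ideal T') := by
    rw [minimalPrimes, Ideal.sInf_minimalPrimes]
    exact nilradical_eq_zero T'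
  rw [h2] at h1
  exact h1

/-- **(K-kill) for `T′⟦z⟧`**, `T′` a reduced complete noetherian local `𝒪`-algebra: it suffices
that for every minimal prime `𝔭` of `T′` the point `𝒫^E → (T′/𝔭)⟦z⟧` is of type `χ_{θ_i}` at `B`
(some `i`) and unipotent at `E`. -/
theorem s59i_kill_ps {ι : Type} [Fintype ι] (θ : ι → Fin m → 𝒪)
    (hθ : ∀ i j, s59l_Hyp (θ i j)) (g : ℕ) {σ : Type} [Finite σ] {T' : Type} [CommRing T']
    [IsLocalRing T'] [IsNoetherianRing T'] [IsAdicComplete (maximalIdeal T') T'] [IsReduced T']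
    [Algebra 𝒪 T'] (φ : s59l_FlatE 𝒪 m e g →ₐ[𝒪] MvPowerSeries σ T')
    (h : ∀ 𝔭 ∈ minimalPrimes T', ∀ [IsLocalRing (T' ⧸ 𝔭)], ∃ i,
      s59l_RelE D (θ i) ((MvPowerSeries.mapAlgHom (σ := σ) (Ideal.Quotient.mkₐ 𝒪 𝔭)).comp φ)) :
    (Finset.univ.inf fun p : ι × (Fin e → Bool) => s59l_KKE D (θ p.1) (hθ p.1) g p.2) ≤
      RingHom.ker φ := by
  haveI hloc : ∀ k : minimalPrimes T', IsLocalRing (T' ⧸ k.1) := fun k =>
    s59l_quot_isLocalRing k.1 k.2.1.1.ne_top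
  haveI hcomp : ∀ k : minimalPrimes T', IsAdicComplete (maximalIdeal (T' ⧸ k.1)) (T' ⧸ k.1) :=
    fun k => s59l_quot_complete k.1
  haveI hdom : ∀ k : minimalPrimes T', IsDomain (T' ⧸ k.1) := fun k =>
    haveI := k.2.1.1
    Ideal.Quotient.isDomain k.1
  haveI hdom' : ∀ k : minimalPrimes T', IsDomain (MvPowerSeries σ (T' ⧸ k.1)) := fun k =>
    NoZeroDivisors.to_isDomain _
  refine s59i_kill_family D θ hθ g φ (κ := minimalPrimes T')
    (fun k => MvPowerSeries σ (T' ⧸ k.1))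
    (fun k => MvPowerSeries.mapAlgHom (σ := σ) (Ideal.Quotient.mkₐ 𝒪 k.1)) ?_
    (fun k => h k.1 k.2)
  intro x hx
  refine s59i_eq_zero_of_map_mk x fun 𝔭 h𝔭 => ?_
  exact hx ⟨𝔭, h𝔭⟩

/-- `𝒪`-torsion-freeness passes to `(T′/𝔭)⟦z⟧`, `𝔭` a minimal prime of the `𝒪`-torsion-free ring
`T′` (the field `tf` of `s59l_RelE`; also: `algebraMap 𝒪 _ o ≠ 0` for `o ≠ 0`). -/
theorem s59i_tf_ps {σ : Type*} {T' : Type*} [CommRing T'] [Algebra 𝒪 T']
    (htf : ∀ o : 𝒪, o ≠ 0 → ∀ x : T', algebraMap 𝒪 T' o * x = 0 → x = 0)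
    (𝔭 : Ideal T') (h𝔭 : 𝔭 ∈ minimalPrimes T') (o : 𝒪) (ho : o ≠ 0)
    (x : MvPowerSeries σ (T' ⧸ 𝔭)) (hx : algebraMap 𝒪 (MvPowerSeries σ (T' ⧸ 𝔭)) o * x = 0) :
    x = 0 := by
  haveI := h𝔭.1.1
  haveI : IsDomain (T' ⧸ 𝔭) := Ideal.Quotient.isDomain 𝔭
  have hne : algebraMap 𝒪 (MvPowerSeries σ (T' ⧸ 𝔭)) o ≠ 0 := by
    intro h0
    have h1 := congrArg (constantCoeff (σ := σ) (R := T' ⧸ 𝔭)) h0
    rw [MvPowerSeries.algebraMap_apply, constantCoeff_C, map_zero] at h1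
    have h2 : algebraMap 𝒪 T' o ∈ 𝔭 := by
      rw [← Ideal.Quotient.eq_zero_iff_mem]
      exact h1
    have h3 : algebraMap 𝒪 T' o ∈ nonZeroDivisors T' := by
      rw [mem_nonZeroDivisors_iff_right]
      intro y hy
      refine htf o ho y ?_
      rw [mul_comm]
      exact hy
    exact Set.disjoint_left.mp (Ideal.disjoint_nonZeroDivisors_of_mem_minimalPrimes h𝔭) h2 h3
  rcases mul_eq_zero.mp hx with h | h
  · exact absurd h hne
  · exact h

end Fermat.Agent.Lib.S59
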