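/-
PROGRAMME R2 = S59, node [FLR], **the `R`-side contract for GENERIC smooth local models**, part 2
(helper4, prefix `s59f_`): transport lemmas and the kill property over power series.

* `s59f_type1_map`   : the type-1 identities `(Σ−1)² = 0`, `tr Σ = 2`, `Φ(Σ−1) = u (Σ−1)Φ`,
                       `det Φ = u` are preserved by ring homomorphisms;
* `s59f_coordG_map`  : the coordinates `s59f_coordG` commute with `𝒪`-algebra homomorphisms;
* `s59f_framed_type1`: the type-1 identities for the framed matrices `U′ ρ(g) U` over `R′⟦z⟧`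
                       from `tr ρ(σ) = 2`, `det ρ(σ) = 1`, the tame relation and `det ρ(φ) = q`
                       over `R′`;
* `s59f_KG`, `s59f_kill_family`, **`s59f_kill_psG`** : helper3's primes `𝒦_{b,ch}` for `m₀ = 0`,
                       and (K-kill) for `T₁⟦z⟧`, `T₁` reduced: it suffices to have the relations
                       over `(T₁/𝔭)⟦z⟧` for every minimal prime `𝔭` of `T₁`.
-/
import Mathlib
import Fermat.Agent.Lib.S59.FAsmG1
import Fermat.Agent.Lib.S59.R2Mat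
import Fermat.Agent.Lib.S59.LFinA1
import Fermat.Agent.Lib.S59.LInstK

set_option autoImplicit false
set_option linter.unusedSectionVars false
set_option linter.unusedVariables false
set_option linter.style.haveILetI false
set_option maxHeartbeats 1600000

noncomputable section

namespace Fermat.Agent.Lib.S59

open IsLocalRing MvPowerSeries Fermat.Agent.Lib.Deform

section Transport

variable {C T : Type*} [CommRing C] [CommRing T]

/-- the type-1 identities are preserved by ring homomorphisms. -/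
theorem s59f_type1_map (Ψ : C →+* T) (A Φ : Matrix (Fin 2) (Fin 2) C) (u : C)
    (h1 : (A - 1) * (A - 1) = 0) (htr : A.trace = 2) (ht : Φ * (A - 1) = u • ((A - 1) * Φ))
    (hdet : Φ.det = u) :
    (A.map Ψ - 1) * (A.map Ψ - 1) = 0 ∧ (A.map Ψ).trace = 2 ∧
      Φ.map Ψ * (A.map Ψ - 1) = Ψ u • ((A.map Ψ - 1) * Φ.map Ψ) ∧ (Φ.map Ψ).det = Ψ u := by
  have hsub : A.map Ψ - 1 = (A - 1).map Ψ := by
    ext i j
    simp only [Matrix.map_apply, Matrix.sub_apply, Matrix.one_apply, map_sub]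
    split_ifs <;> simp
  refine ⟨?_, ?_, ?_, ?_⟩
  · rw [hsub, ← Matrix.map_mul, h1, Matrix.map_zero _ (map_zero Ψ)]
  · rw [s59i_map_trace', htr, map_ofNat]
  · rw [hsub, ← Matrix.map_mul, ← Matrix.map_mul, ht]
    ext i j
    simp only [Matrix.map_apply, Matrix.smul_apply, smul_eq_mul, map_mul]
  · rw [s59i_map_det', hdet]

end Transport

section Coord

variable {𝒪 : Type} [CommRing 𝒪] {C T : Type*} [CommRing C] [CommRing T] [Algebra 𝒪 C]
  [Algebra 𝒪 T]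

/-- the coordinates commute with `𝒪`-algebra homomorphisms. -/
theorem s59f_coordG_map (Ψ : C →ₐ[𝒪] T) (i2 : 𝒪) (lam : Fin 2 → 𝒪) (sh : Fin 3 → 𝒪)
    (Sg Ph : Matrix (Fin 2) (Fin 2) C) (k : Fin 6) :
    Ψ (s59f_coordG (algebraMap 𝒪 C i2) (fun i => algebraMap 𝒪 C (lam i))
      (fun k => algebraMap 𝒪 C (sh k)) Sg Ph k) =
      s59f_coordG (algebraMap 𝒪 T i2) (fun i => algebraMap 𝒪 T (lam i))
        (fun k => algebraMap 𝒪 T (sh k)) (Sg.map Ψ) (Ph.map Ψ) k := by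
  fin_cases k <;>
    simp [s59f_coordG, s59q_tl, s59f_tlG, Matrix.map_apply, map_sub, map_add, map_mul,
      AlgHom.commutes]

end Coord

section Framed

variable {R' : Type} [CommRing R'] {σ : Type} {G : Type} [Monoid G] {ι : Type}
  (ρm : G →* Matrix (Fin 2) (Fin 2) R')
  (U U' : ι → Matrix (Fin 2) (Fin 2) (MvPowerSeries σ R')) (hU : ∀ t, U' t * U t = 1)

include hU in
/-- **the type-1 identities for the framed matrices** over `R′⟦z⟧`. -/
theorem s59f_framed_type1 (t : ι) (sg ph : G) (q : ℕ) (htr : (ρm sg).trace = 2)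
    (hdet1 : (ρm sg).det = 1) (htame : ρm ph * ρm sg = ρm sg ^ q * ρm ph)
    (hdetφ : (ρm ph).det = (q : R')) :
    (s59i_Fm ρm U U' t sg - 1) * (s59i_Fm ρm U U' t sg - 1) = 0 ∧
      (s59i_Fm ρm U U' t sg).trace = 2 ∧
      s59i_Fm ρm U U' t ph * (s59i_Fm ρm U U' t sg - 1) =
        ((q : ℕ) : MvPowerSeries σ R') • ((s59i_Fm ρm U U' t sg - 1) * s59i_Fm ρm U U' t ph) ∧
      (s59i_Fm ρm U U' t ph).det = ((q : ℕ) : MvPowerSeries σ R') ∧
      (s59i_Fm ρm U U' t ph).trace = C (ρm ph).trace := by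
  set cm : G → Matrix (Fin 2) (Fin 2) (MvPowerSeries σ R') :=
    fun x => (ρm x).map (C : R' →+* MvPowerSeries σ R') with hcm
  have hcm_mul : ∀ x y, cm x * cm y = cm (x * y) := fun x y => by
    simp only [hcm]
    rw [map_mul, Matrix.map_mul]
  have hcm_pow : ∀ x k, cm x ^ k = cm (x ^ k) := fun x k => by
    simp only [hcm]
    rw [map_pow, s59i_map_pow']
  have ht' : cm ph * cm sg = cm sg ^ q * cm ph := by
    rw [hcm_pow, hcm_mul, hcm_mul]
    simp only [hcm]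
    rw [map_mul, map_mul, map_pow, htame]
  have htr' : (cm sg).trace = 2 := by
    simp only [hcm]
    rw [s59i_mapC_trace, htr, map_ofNat]
  have hdet' : (cm sg).det = 1 := by
    simp only [hcm]
    rw [s59i_mapC_det, hdet1, map_one]
  obtain ⟨h1, h2, h3⟩ := s59i_conj_type1 (U t) (U' t) (hU t) (cm sg) (cm ph) q htr' hdet' ht'
  refine ⟨h1, h2, h3, ?_, ?_⟩
  · show (U' t * cm ph * U t).det = _
    rw [s59i_conj_det _ _ (hU t)]
    simp only [hcm]
    rw [s59i_mapC_det, hdetφ, map_natCast]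
  · show (U' t * cm ph * U t).trace = _
    rw [s59i_conj_trace _ _ (hU t)]
    simp only [hcm]
    rw [s59i_mapC_trace]

end Framed

section KillPS

variable {𝒪 : Type} [CommRing 𝒪] [IsLocalRing 𝒪] [IsNoetherianRing 𝒪] [IsDomain 𝒪]
  [IsAdicComplete (maximalIdeal 𝒪) 𝒪] [Finite (ResidueField 𝒪)]

/-- the empty family of parameters of type `χ`. -/
def s59f_th0 (𝒪 : Type) : Fin 0 → 𝒪 := fun j => j.elim0

theorem s59f_th0_hyp (j : Fin 0) : s59l_Hyp (s59f_th0 𝒪 j) := j.elim0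

variable {r r4 : ℕ} (Λ : Fin r → s59r_Model 𝒪) (ϑ : Fin r4 → 𝒪) (hϑ : ∀ i, s59l_Hyp (ϑ i))

/-- **the primes `𝒦_{b,ch}`** of `𝒫 = s59r_Flat 𝒪 (0 + r₄) r g`: no prime of type `χ`, `r₄` primes of
type (iv), `r` primes with smooth local models. -/
def s59f_KG (g : ℕ) (p : (Fin r4 → Bool) × s59r_Ch Λ) : Ideal (s59r_Flat 𝒪 (0 + r4) r g) :=
  s59u_r2_KK Λ (s59u_r2_kappa (s59f_th0 𝒪) ϑ p.1)
    (s59u_r2_kappa_hyp (s59f_th0 𝒪) ϑ s59f_th0_hyp hϑ p.1) g p.2

/-- **(K-kill) for a jointly injective family of complete local domain quotients.** -/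
theorem s59f_kill_family (g : ℕ) {Cr : Type} [CommRing Cr] [Algebra 𝒪 Cr]
    (φ : s59r_Flat 𝒪 (0 + r4) r g →ₐ[𝒪] Cr) {κ : Type} (Dk : κ → Type) [∀ k, CommRing (Dk k)]
    [∀ k, IsLocalRing (Dk k)] [∀ k, IsDomain (Dk k)]
    [∀ k, IsAdicComplete (maximalIdeal (Dk k)) (Dk k)] [∀ k, Algebra 𝒪 (Dk k)]
    (q : ∀ k, Cr →ₐ[𝒪] Dk k) (hq : ∀ x : Cr, (∀ k, q k x = 0) → x = 0)
    (h : ∀ k, ∃ b : Fin r4 → Bool,
      s59u_r2_Rel Λ (s59u_r2_kappa (s59f_th0 𝒪) ϑ b) ((q k).comp φ)) :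
    (Finset.univ.inf (s59f_KG Λ ϑ hϑ g)) ≤ RingHom.ker φ := by
  intro F hF
  rw [RingHom.mem_ker]
  refine hq _ fun k => ?_
  obtain ⟨b, hb⟩ := h k
  obtain ⟨ch, hch⟩ := s59u_r2_KK_kill Λ (s59u_r2_kappa (s59f_th0 𝒪) ϑ b)
    (s59u_r2_kappa_hyp (s59f_th0 𝒪) ϑ s59f_th0_hyp hϑ b) g _ hb
  have h1 : F ∈ s59f_KG Λ ϑ hϑ g (b, ch) :=
    (Finset.inf_le (f := s59f_KG Λ ϑ hϑ g) (Finset.mem_univ (b, ch))) hF
  have h2 := hch h1
  rw [RingHom.mem_ker, AlgHom.comp_apply] at h2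
  exact h2

/-- **(K-kill) for `T₁⟦z⟧`**, `T₁` a reduced complete noetherian local `𝒪`-algebra. -/
theorem s59f_kill_psG (g : ℕ) {σ : Type} [Finite σ] {T' : Type} [CommRing T']
    [IsLocalRing T'] [IsNoetherianRing T'] [IsAdicComplete (maximalIdeal T') T'] [IsReduced T']
    [Algebra 𝒪 T'] (φ : s59r_Flat 𝒪 (0 + r4) r g →ₐ[𝒪] MvPowerSeries σ T')
    (h : ∀ 𝔭 ∈ minimalPrimes T', ∀ [IsLocalRing (T' ⧸ 𝔭)], ∃ b : Fin r4 → Bool,
      s59u_r2_Rel Λ (s59u_r2_kappa (s59f_th0 𝒪) ϑ b)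
        ((MvPowerSeries.mapAlgHom (σ := σ) (Ideal.Quotient.mkₐ 𝒪 𝔭)).comp φ)) :
    (Finset.univ.inf (s59f_KG Λ ϑ hϑ g)) ≤ RingHom.ker φ := by
  haveI hloc : ∀ k : minimalPrimes T', IsLocalRing (T' ⧸ k.1) := fun k =>
    s59l_quot_isLocalRing k.1 k.2.1.1.ne_top
  haveI hcomp : ∀ k : minimalPrimes T', IsAdicComplete (maximalIdeal (T' ⧸ k.1)) (T' ⧸ k.1) :=
    fun k => s59l_quot_complete k.1
  haveI hdom : ∀ k : minimalPrimes T', IsDomain (T' ⧸ k.1) := fun k =>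
    haveI := k.2.1.1
    Ideal.Quotient.isDomain k.1
  haveI hdom' : ∀ k : minimalPrimes T', IsDomain (MvPowerSeries σ (T' ⧸ k.1)) := fun k =>
    NoZeroDivisors.to_isDomain _
  refine s59f_kill_family Λ ϑ hϑ g φ (κ := minimalPrimes T')
    (fun k => MvPowerSeries σ (T' ⧸ k.1))
    (fun k => MvPowerSeries.mapAlgHom (σ := σ) (Ideal.Quotient.mkₐ 𝒪 k.1)) ?_
    (fun k => h k.1 k.2)
  intro x hx
  refine s59i_eq_zero_of_map_mk x fun 𝔭 h𝔭 => ?_
  exact hx ⟨𝔭, h𝔭⟩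

end KillPS

end Fermat.Agent.Lib.S59
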