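/-
PROGRAMME R2 = S59, node [FLR], **the `R`-side contract for GENERIC smooth local models**, part 3
(helper4, prefix `s59f_`): **(Rkill) over an abstract framed bridge.**

Setting: `R′` a local `𝒪`-algebra (the deformation ring `(DQ n).R`, whose type makes the inertia at
the raising primes unipotent), `ρm : G →* M₂(R′)` the matrices of the universal representation,
frames `U t`, `U′ t` over `R′⟦z⟧`, `γ : 𝒫 = s59r_Flat 𝒪 (0 + r₄) r g ↠ R′⟦z⟧` with the bridge equations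
`s59f_BridgeEqsG`, the Galois facts `s59f_GalG` over `R′` (`tr ρ(σ_t) = 2`, `det ρ(σ_t) = 1`, tame
relation, `det ρ(φ_t) = q_t`, residual Frobenius).  Then `⋂ 𝒦_{b,ch}` dies in `T₁⟦z⟧` for every
reduced `𝒪`-torsion-free complete noetherian local quotient `T₁` of `R′`.
-/
import Mathlib
import Fermat.Agent.Lib.S59.FAsmG2

set_option autoImplicit false
set_option linter.unusedSectionVars false
set_option linter.unusedVariables false
set_option linter.style.haveILetI false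
set_option maxHeartbeats 1600000

noncomputable section

namespace Fermat.Agent.Lib.S59

open IsLocalRing MvPowerSeries Fermat.Agent.Lib.Deform

section RkillG

variable {𝒪 : Type} [CommRing 𝒪] [IsLocalRing 𝒪] [IsNoetherianRing 𝒪] [IsDomain 𝒪]
  [IsAdicComplete (maximalIdeal 𝒪) 𝒪] [Finite (ResidueField 𝒪)]
variable {i2 : 𝒪} {r r4 g : ℕ} (L : Fin r → s59f_LocBr 𝒪 i2) (ε4 u4 : Fin r4 → 𝒪)
variable {σ : Type} {R' : Type} [CommRing R'] [IsLocalRing R'] [Algebra 𝒪 R']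
  {G : Type} [Monoid G] (ρm : G →* Matrix (Fin 2) (Fin 2) R')
  (U U' : Fin r4 ⊕ Fin r → Matrix (Fin 2) (Fin 2) (MvPowerSeries σ R'))
  (γ : s59r_Flat 𝒪 (0 + r4) r g →ₐ[𝒪] MvPowerSeries σ R')
  (sg ph : Fin r4 ⊕ Fin r → G) (qn : Fin r4 ⊕ Fin r → ℕ)

/-- **the bridge equations**, generic form (the output of `s59f_inst_flatG/_ordG` after
re-indexing). -/
def s59f_BridgeEqsG : Prop :=
  (∀ i k, γ (s59r_VB (Fin.natAdd 0 i) k) = s59i_tl (algebraMap 𝒪 (MvPowerSeries σ R') i2)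
    (s59i_Fm ρm U U' (Sum.inl i) (sg (Sum.inl i))) k) ∧
  (∀ i k, γ (s59r_WB (Fin.natAdd 0 i) k) = s59i_tl (algebraMap 𝒪 (MvPowerSeries σ R') i2)
    (s59i_Fm ρm U U' (Sum.inl i) (ph (Sum.inl i))) k) ∧
  (∀ l k, γ (s59r_U l k) = s59f_coordG (algebraMap 𝒪 (MvPowerSeries σ R') i2)
    (fun i => algebraMap 𝒪 (MvPowerSeries σ R') ((L l).lam i))
    (fun k => algebraMap 𝒪 (MvPowerSeries σ R') ((L l).sh k))
    (s59i_Fm ρm U U' (Sum.inr l) (sg (Sum.inr l)))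
    (s59i_Fm ρm U U' (Sum.inr l) (ph (Sum.inr l))) k)

/-- **the Galois facts over `R′`** at the raising primes. -/
structure s59f_GalG : Prop where
  loc𝒪 : ∀ t ∈ maximalIdeal 𝒪, algebraMap 𝒪 R' t ∈ maximalIdeal R'
  frame : ∀ t, U' t * U t = 1
  tr : ∀ t, (ρm (sg t)).trace = 2
  det1 : ∀ t, (ρm (sg t)).det = 1
  tame : ∀ t, ρm (ph t) * ρm (sg t) = ρm (sg t) ^ qn t * ρm (ph t)
  detφ : ∀ t, (ρm (ph t)).det = ((qn t : ℕ) : R')
  qu : ∀ l, (L l).u = ((qn (Sum.inr l) : ℕ) : 𝒪)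
  qu4 : ∀ i, u4 i = ((qn (Sum.inl i) : ℕ) : 𝒪)
  res : ∀ l i j, s59i_Fm ρm U U' (Sum.inr l) (ph (Sum.inr l)) i j -
    algebraMap 𝒪 (MvPowerSeries σ R') ((L l).M0 i j) ∈ maximalIdeal (MvPowerSeries σ R')
  res4 : ∀ i, s59i_ht (algebraMap 𝒪 (MvPowerSeries σ R') i2)
      (s59i_Fm ρm U U' (Sum.inl i) (ph (Sum.inl i))) -
    algebraMap 𝒪 (MvPowerSeries σ R') (ε4 i * (u4 i + 1) * i2) ∈
      maximalIdeal (MvPowerSeries σ R')

variable {L ε4 u4 ρm U U' γ sg ph qn}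

/-- the type-1 identities of the framed matrices over `R′⟦z⟧`. -/
theorem s59f_GalG.type1 (hG : s59f_GalG L ε4 u4 ρm U U' sg ph qn) (t : Fin r4 ⊕ Fin r) :
    (s59i_Fm ρm U U' t (sg t) - 1) * (s59i_Fm ρm U U' t (sg t) - 1) = 0 ∧
      (s59i_Fm ρm U U' t (sg t)).trace = 2 ∧
      s59i_Fm ρm U U' t (ph t) * (s59i_Fm ρm U U' t (sg t) - 1) =
        ((qn t : ℕ) : MvPowerSeries σ R') •
          ((s59i_Fm ρm U U' t (sg t) - 1) * s59i_Fm ρm U U' t (ph t)) ∧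
      (s59i_Fm ρm U U' t (ph t)).det = ((qn t : ℕ) : MvPowerSeries σ R') ∧
      (s59i_Fm ρm U U' t (ph t)).trace = C (ρm (ph t)).trace :=
  s59f_framed_type1 ρm U U' hG.frame t (sg t) (ph t) (qn t) (hG.tr t) (hG.det1 t) (hG.tame t)
    (hG.detφ t)

variable [Finite σ]

/-- **the relations over a local domain** `T` receiving `R′⟦z⟧` by a local `𝒪`-algebra map. -/
theorem s59f_G_rel (hi2 : 2 * i2 = 1) (hε4 : ∀ i, ε4 i ^ 2 = 1)
    (hϑ : ∀ i, s59l_Hyp (s59u_r2_theta4 i2 ε4 u4 i))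
    (hu0 : ∀ i, u4 i ≠ 0) (hu1 : ∀ i, 1 - u4 i ≠ 0) (hu2 : ∀ i, IsUnit (1 + u4 i))
    (hγ : Function.Surjective γ)
    (hB : s59f_BridgeEqsG L ρm U U' γ sg ph) (hG : s59f_GalG L ε4 u4 ρm U U' sg ph qn)
    {T : Type} [CommRing T] [IsLocalRing T] [IsDomain T] [Algebra 𝒪 T]
    (Ψ : MvPowerSeries σ R' →ₐ[𝒪] T)
    (hΨ : ∀ a ∈ maximalIdeal (MvPowerSeries σ R'), Ψ a ∈ maximalIdeal T)
    (hinj : Function.Injective (algebraMap 𝒪 T)) :
    ∃ b : Fin r4 → Bool, s59u_r2_Rel (fun l => (L l).Λ)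
      (s59u_r2_kappa (s59f_th0 𝒪) (s59u_r2_theta4 i2 ε4 u4) b) (Ψ.comp γ) := by
  classical
  have hΨ𝒪 : ∀ o : 𝒪, Ψ (algebraMap 𝒪 (MvPowerSeries σ R') o) = algebraMap 𝒪 T o := Ψ.commutes
  have hΨn : ∀ n : ℕ, (Ψ : MvPowerSeries σ R' →+* T) ((n : ℕ) : MvPowerSeries σ R') = (n : T) :=
    fun n => map_natCast _ n
  -- the mapped framed matrices and their identities
  set Sg : Fin r4 ⊕ Fin r → Matrix (Fin 2) (Fin 2) T :=
    fun t => (s59i_Fm ρm U U' t (sg t)).map Ψ with hSg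
  set Ph : Fin r4 ⊕ Fin r → Matrix (Fin 2) (Fin 2) T :=
    fun t => (s59i_Fm ρm U U' t (ph t)).map Ψ with hPh
  have hid : ∀ t, (Sg t - 1) * (Sg t - 1) = 0 ∧ (Sg t).trace = 2 ∧
      Ph t * (Sg t - 1) = ((qn t : ℕ) : T) • ((Sg t - 1) * Ph t) ∧
      (Ph t).det = ((qn t : ℕ) : T) := by
    intro t
    obtain ⟨h1, h2, h3, h4, -⟩ := hG.type1 t
    have := s59f_type1_map (Ψ : MvPowerSeries σ R' →+* T) _ _ _ h1 h2 h3 h4
    rw [hΨn] at this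
    exact this
  have hq4 : ∀ i, algebraMap 𝒪 T (u4 i) = ((qn (Sum.inl i) : ℕ) : T) := fun i => by
    rw [hG.qu4, map_natCast]
  have hqE : ∀ l, algebraMap 𝒪 T ((L l).u) = ((qn (Sum.inr l) : ℕ) : T) := fun l => by
    rw [hG.qu, map_natCast]
  refine s59u_r2_rel_of_matrices (fun l => (L l).Λ) i2 hi2 (s59f_th0 𝒪) s59f_th0_hyp ε4 u4 hε4 hϑ
    (Ψ.comp γ) ?_ hinj ?_ (fun j => j.elim0) (fun j => j.elim0)
    (fun i => Sg (Sum.inl i)) (fun i => Ph (Sum.inl i)) (fun j => j.elim0) (fun j => j.elim0)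
    ?_ ?_ (fun j => j.elim0) (fun j => j.elim0) (fun j => j.elim0) (fun j => j.elim0)
    (fun j => j.elim0) ?_ ?_ ?_ ?_ ?_ hu0 hu1 hu2 ?_
  · -- loc
    intro t ht
    rw [← hΨ𝒪]
    refine hΨ _ ?_
    rw [MvPowerSeries.algebraMap_apply]
    exact s59i_C_mem_maximalIdeal _ (hG.loc𝒪 t ht)
  · -- mem
    intro s
    rw [AlgHom.comp_apply]
    refine hΨ _ ?_
    refine s59i_surj_mem (γ : s59r_Flat 𝒪 (0 + r4) r g →+* MvPowerSeries σ R') hγ _ ?_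
    rw [s59i_mem_maximalIdeal_iff_constantCoeff, MvPowerSeries.constantCoeff_X]
    exact Ideal.zero_mem _
  · -- hV4
    intro i k
    rw [AlgHom.comp_apply, hB.1 i k, ← hΨ𝒪]
    exact (s59i_tl_map (Ψ : MvPowerSeries σ R' →+* T) _ _ k).symm
  · -- hW4
    intro i k
    rw [AlgHom.comp_apply, hB.2.1 i k, ← hΨ𝒪]
    exact (s59i_tl_map (Ψ : MvPowerSeries σ R' →+* T) _ _ k).symm
  · exact fun i => (hid (Sum.inl i)).1
  · exact fun i => (hid (Sum.inl i)).2.1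
  · intro i
    rw [hq4]
    exact (hid (Sum.inl i)).2.2.1
  · intro i
    rw [hq4]
    exact (hid (Sum.inl i)).2.2.2
  · -- h4res
    intro i
    have h := hΨ _ (hG.res4 i)
    rw [map_sub, hΨ𝒪] at h
    have e := s59i_ht_map (Ψ : MvPowerSeries σ R' →+* T)
      (algebraMap 𝒪 (MvPowerSeries σ R') i2) (s59i_Fm ρm U U' (Sum.inl i) (ph (Sum.inl i)))
    rw [RingHom.coe_coe, hΨ𝒪] at e
    rw [e]
    exact h
  · -- the smooth models
    intro l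
    have hfun : (fun k => (Ψ.comp γ) (s59r_U l k)) =
        s59f_coordG (algebraMap 𝒪 T i2) (fun i => algebraMap 𝒪 T ((L l).lam i))
          (fun k => algebraMap 𝒪 T ((L l).sh k)) (Sg (Sum.inr l)) (Ph (Sum.inr l)) := by
      funext k
      rw [AlgHom.comp_apply, hB.2.2 l k]
      exact s59f_coordG_map Ψ i2 _ _ _ _ k
    show (L l).Λ.rel T (fun k => (Ψ.comp γ) (s59r_U l k))
    rw [hfun]
    refine (L l).relOf T (Sg (Sum.inr l)) (Ph (Sum.inr l)) (hid _).1 (hid _).2.1 ?_ ?_ ?_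
    · rw [hqE]
      exact (hid _).2.2.1
    · rw [hqE]
      exact (hid _).2.2.2
    · intro i j
      have h := hΨ _ (hG.res l i j)
      rw [map_sub, hΨ𝒪] at h
      exact h

/-- **(Rkill), generic form.** -/
theorem s59f_G_Rkill (hi2 : 2 * i2 = 1) (hε4 : ∀ i, ε4 i ^ 2 = 1)
    (hϑ : ∀ i, s59l_Hyp (s59u_r2_theta4 i2 ε4 u4 i))
    (hu0 : ∀ i, u4 i ≠ 0) (hu1 : ∀ i, 1 - u4 i ≠ 0) (hu2 : ∀ i, IsUnit (1 + u4 i))
    (hγ : Function.Surjective γ)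
    (hB : s59f_BridgeEqsG L ρm U U' γ sg ph) (hG : s59f_GalG L ε4 u4 ρm U U' sg ph qn)
    (T₁ : Type) [CommRing T₁] [IsLocalRing T₁] [IsNoetherianRing T₁]
    [IsAdicComplete (maximalIdeal T₁) T₁] [IsReduced T₁] [Algebra 𝒪 T₁]
    (htf : ∀ o : 𝒪, o ≠ 0 → ∀ x : T₁, algebraMap 𝒪 T₁ o * x = 0 → x = 0)
    (f : R' →ₐ[𝒪] T₁) (hf : Function.Surjective f) :
    ∀ F ∈ Finset.univ.inf (s59f_KG (fun l => (L l).Λ) (s59u_r2_theta4 i2 ε4 u4) hϑ g),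
      MvPowerSeries.map (σ := σ) (f : R' →+* T₁) (γ F) = 0 := by
  intro F hF
  set φ : s59r_Flat 𝒪 (0 + r4) r g →ₐ[𝒪] MvPowerSeries σ T₁ :=
    (MvPowerSeries.mapAlgHom (σ := σ) f).comp γ with hφ
  have hker := s59f_kill_psG (fun l => (L l).Λ) (s59u_r2_theta4 i2 ε4 u4) hϑ g φ ?_
  · have := hker hF
    rw [RingHom.mem_ker] at this
    exact this
  intro 𝔭 h𝔭 _
  haveI := h𝔭.1.1
  haveI : IsDomain (T₁ ⧸ 𝔭) := Ideal.Quotient.isDomain 𝔭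
  haveI : IsDomain (MvPowerSeries σ (T₁ ⧸ 𝔭)) := NoZeroDivisors.to_isDomain _
  set Ψ : MvPowerSeries σ R' →ₐ[𝒪] MvPowerSeries σ (T₁ ⧸ 𝔭) :=
    (MvPowerSeries.mapAlgHom (σ := σ) (Ideal.Quotient.mkₐ 𝒪 𝔭)).comp
      (MvPowerSeries.mapAlgHom (σ := σ) f) with hΨdef
  have hcomp : (MvPowerSeries.mapAlgHom (σ := σ) (Ideal.Quotient.mkₐ 𝒪 𝔭)).comp φ = Ψ.comp γ :=
    rfl
  rw [hcomp]
  refine s59f_G_rel hi2 hε4 hϑ hu0 hu1 hu2 hγ hB hG Ψ ?_ ?_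
  · -- locality of `Ψ`
    intro a ha
    show MvPowerSeries.map (Ideal.Quotient.mk 𝔭) (MvPowerSeries.map (f : R' →+* T₁) a) ∈ _
    refine s59i_map_mem_maximalIdeal (Ideal.Quotient.mk 𝔭)
      (fun x hx => s59i_surj_mem _ Ideal.Quotient.mk_surjective x hx) _ ?_
    exact s59i_map_mem_maximalIdeal (f : R' →+* T₁)
      (fun x hx => s59i_surj_mem (f : R' →+* T₁) hf x hx) _ ha
  · -- injectivity of `𝒪 → (T₁/𝔭)⟦z⟧`
    rw [injective_iff_map_eq_zero]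
    intro o ho
    by_contra hne
    have h1 := s59i_tf_ps (σ := σ) htf 𝔭 h𝔭 o hne 1 (by rw [mul_one, ho])
    exact one_ne_zero h1

end RkillG

end Fermat.Agent.Lib.S59
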