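/-
PROGRAMME R2 = S59, node [FLR], `T`-side: **assembly of `s59f_TStep` from an old/new package**
(helper4, prefix `s59f_`).
* `s59f_T6_of_ES`     : (T6) from the Eichler–Shimura relation at the raised prime: in an `s59t_Old`
  package with `T = τ ∈ R` (scalar) and `U² − τ U + q = 0` on `Z`, the element
  `(q + 1)² − τ²` maps `Z` into `resA Y + resB Y` (pure algebra: `U ≡ −w`, `U² ≡ 1` mod old);
* `s59f_smul_top_alg` : `(I.map (algebraMap 𝒪 R)) • ⊤ = I • ⊤` as sets (`R`-module vs `𝒪`-module);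
* `s59f_map_map_eq`   : `(𝔐.map φ).map ψ = I.map (algebraMap 𝒪 R)` when `𝔐 = 𝔞 + I·S`, `ψ ∘ φ`
  kills `𝔞` and is `𝒪`-linear;
* **`s59f_TStep_of_old`** : two levels `LH`, `LH'` over the same `(S, A, φ)`, an `A`-linear
  `s59t_Old` package `D` between `LH.N` and `LH'.N` with `T = τ ∈ A`, additive base maps compatible
  with `π`, base-level Ihara (T4) and its dual (T5), `ker ρ = old`, and the Eichler–Shimura
  relation `U² − τ U + q = 0` on `LH'.N`  ⇒  `s59f_TStep LH LH' (q+1) τ τ (q+1) ρ (δ)`.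
-/
import Mathlib
import Fermat.Agent.Lib.S59.TOld
import Fermat.Agent.Lib.S59.FRaiseT2

set_option autoImplicit false
set_option linter.unusedSectionVars false
set_option linter.unusedVariables false
set_option linter.style.haveILetI false

namespace Fermat.Agent.Lib.S59

open IsLocalRing

section T6

variable {R : Type*} [CommRing R] {Y Z : Type*} [AddCommGroup Y] [Module R Y]
  [AddCommGroup Z] [Module R Z] (D : s59t_Old R Y Z)

/-- the old submodule `resA Y + resB Y`. -/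
def s59f_oldSub : Submodule R Z := LinearMap.range D.resA ⊔ LinearMap.range D.resB

theorem s59f_resA_mem_old (y : Y) : D.resA y ∈ s59f_oldSub D :=
  Submodule.mem_sup_left ⟨y, rfl⟩

theorem s59f_resB_mem_old (y : Y) : D.resB y ∈ s59f_oldSub D :=
  Submodule.mem_sup_right ⟨y, rfl⟩

theorem s59f_mem_old_iff (z : Z) :
    z ∈ s59f_oldSub D ↔ ∃ y₁ y₂ : Y, D.resA y₁ + D.resB y₂ = z := by
  constructor
  · intro h
    obtain ⟨a, ⟨y₁, rfl⟩, b, ⟨y₂, rfl⟩, rfl⟩ := Submodule.mem_sup.mp h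
    exact ⟨y₁, y₂, rfl⟩
  · rintro ⟨y₁, y₂, rfl⟩
    exact Submodule.add_mem _ (s59f_resA_mem_old D y₁) (s59f_resB_mem_old D y₂)

/-- `U` preserves the old submodule. -/
theorem s59f_U_old {o : Z} (ho : o ∈ s59f_oldSub D) : D.U o ∈ s59f_oldSub D := by
  obtain ⟨y₁, y₂, rfl⟩ := (s59f_mem_old_iff D o).mp ho
  rw [map_add, D.U_resA, D.U_resB]
  exact Submodule.add_mem _
    (Submodule.sub_mem _ (s59f_resA_mem_old D _) (s59f_resB_mem_old D _))
    (Submodule.smul_mem _ _ (s59f_resA_mem_old D _))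

/-- `U + w` has values in the old submodule. -/
theorem s59f_U_add_w_old (z : Z) : D.U z + D.w z ∈ s59f_oldSub D := by
  rw [← D.resA_corB]
  exact s59f_resA_mem_old D _

/-- `U² ≡ 1` modulo old. -/
theorem s59f_UU_sub_old (z : Z) : D.U (D.U z) - z ∈ s59f_oldSub D := by
  have e : D.U (D.U z) - z = D.U (D.U z + D.w z) - (D.U (D.w z) + D.w (D.w z)) := by
    rw [map_add, D.w_w]
    abel
  rw [e]
  exact Submodule.sub_mem _ (s59f_U_old D (s59f_U_add_w_old D z)) (s59f_U_add_w_old D (D.w z))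

/-- **(T6) from Eichler–Shimura at the raised prime.** -/
theorem s59f_T6_of_ES (τ : R) (hES : ∀ z, D.U (D.U z) - τ • D.U z + D.qq • z = 0) (z : Z) :
    ((D.qq + 1) ^ 2 - τ ^ 2) • z ∈ s59f_oldSub D := by
  set O := s59f_oldSub D with hO
  -- (f) `τ U z − (q + 1) z ∈ O`
  have f : ∀ z, τ • D.U z - (D.qq + 1) • z ∈ O := by
    intro z
    have e : τ • D.U z - (D.qq + 1) • z = D.U (D.U z) - z := by
      have := hES z
      rw [add_smul, one_smul]
      rw [sub_add_eq_add_sub, sub_eq_zero] at this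
      rw [← this]
      abel
    rw [e]
    exact s59f_UU_sub_old D z
  -- (g) `τ z − (q + 1) U z ∈ O`
  have g : ∀ z, τ • z - (D.qq + 1) • D.U z ∈ O := by
    intro z
    have h1 := f (D.U z)
    have h2 := O.smul_mem τ (s59f_UU_sub_old D z)
    have e : τ • z - (D.qq + 1) • D.U z =
        (τ • D.U (D.U z) - (D.qq + 1) • D.U z) - τ • (D.U (D.U z) - z) := by
      rw [smul_sub]
      abel
    rw [e]
    exact O.sub_mem h1 h2
  have h1 := O.smul_mem τ (g z)
  have h2 := O.smul_mem (D.qq + 1) (f z)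
  have e : ((D.qq + 1) ^ 2 - τ ^ 2) • z =
      -(τ • (τ • z - (D.qq + 1) • D.U z) + (D.qq + 1) • (τ • D.U z - (D.qq + 1) • z)) := by
    simp only [smul_sub, smul_smul, sub_smul]
    rw [mul_comm τ (D.qq + 1), pow_two, pow_two]
    abel
  rw [e]
  exact O.neg_mem (O.add_mem h1 h2)

end T6

section Conv

variable {𝒪 : Type*} [CommRing 𝒪] {R : Type*} [CommRing R] [Algebra 𝒪 R]
  {M : Type*} [AddCommGroup M] [Module 𝒪 M] [Module R M] [IsScalarTower 𝒪 R M]

/-- `(I R) M = I M` as sets. -/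
theorem s59f_smul_top_alg (I : Ideal 𝒪) (m : M) :
    m ∈ (I.map (algebraMap 𝒪 R)) • (⊤ : Submodule R M) ↔ m ∈ I • (⊤ : Submodule 𝒪 M) := by
  constructor
  · intro h
    refine Submodule.smul_induction_on h ?_ ?_
    · intro r hr x _
      -- `r ∈ I R`: induction on the span
      have key : ∀ r ∈ I.map (algebraMap 𝒪 R), ∀ x : M, r • x ∈ I • (⊤ : Submodule 𝒪 M) := by
        intro r hr
        refine Submodule.span_induction ?_ ?_ ?_ ?_ hr
        · rintro _ ⟨a, ha, rfl⟩ x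
          rw [algebraMap_smul]
          exact Submodule.smul_mem_smul ha Submodule.mem_top
        · intro x
          rw [zero_smul]
          exact Submodule.zero_mem _
        · intro r₁ r₂ _ _ h₁ h₂ x
          rw [add_smul]
          exact Submodule.add_mem _ (h₁ x) (h₂ x)
        · intro c r₁ _ h₁ x
          rw [smul_eq_mul, mul_comm, mul_smul]
          exact h₁ (c • x)
      exact key r hr x
    · intro x y hx hy
      exact Submodule.add_mem _ hx hy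
  · intro h
    refine Submodule.smul_induction_on h ?_ ?_
    · intro a ha x _
      rw [← algebraMap_smul R a x]
      exact Submodule.smul_mem_smul (Ideal.mem_map_of_mem _ ha) Submodule.mem_top
    · intro x y hx hy
      exact Submodule.add_mem _ hx hy

variable {S : Type*} [CommRing S] [Algebra 𝒪 S] {A : Type*} [CommRing A]

/-- `ψ(φ(𝔐)) R = I R` when `𝔐 = 𝔞 + I S`, `ψ ∘ φ` kills `𝔞` and is `𝒪`-linear. -/
theorem s59f_map_map_eq (φ : S →+* A) (ψ : A →+* R) (𝔞 : Ideal S)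
    (hψφ : ∀ s ∈ 𝔞, ψ (φ s) = 0)
    (h𝒪 : ∀ c : 𝒪, ψ (φ (algebraMap 𝒪 S c)) = algebraMap 𝒪 R c) (I : Ideal 𝒪) (𝔐 : Ideal S)
    (h1 : ∀ s ∈ 𝔐, ∃ c ∈ I, s - algebraMap 𝒪 S c ∈ 𝔞)
    (h2 : ∀ c ∈ I, algebraMap 𝒪 S c ∈ 𝔐) :
    (𝔐.map φ).map ψ = I.map (algebraMap 𝒪 R) := by
  rw [Ideal.map_map]
  apply le_antisymm
  · rw [Ideal.map_le_iff_le_comap]
    intro s hs
    obtain ⟨c, hc, hsc⟩ := h1 s hs
    rw [Ideal.mem_comap, RingHom.comp_apply]
    have e : ψ (φ s) = algebraMap 𝒪 R c := by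
      have := hψφ _ hsc
      rw [map_sub, map_sub, sub_eq_zero] at this
      rw [this, h𝒪]
    rw [e]
    exact Ideal.mem_map_of_mem _ hc
  · rw [Ideal.map_le_iff_le_comap]
    intro c hc
    rw [Ideal.mem_comap, ← h𝒪 c]
    exact Ideal.mem_map_of_mem (ψ.comp φ) (h2 c hc)

end Conv

section Assemble

/-- **assembly of the `T`-side leaves of one step at one Taylor–Wiles level.** -/
theorem s59f_TStep_of_old {S : Type} [CommRing S] [IsLocalRing S] {A : Type} [CommRing A]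
    {R : Type} [CommRing R] {M : Type} [AddCommGroup M] [Module R M]
    {R' : Type} [CommRing R'] {M' : Type} [AddCommGroup M'] [Module R' M'] {𝔞 J : Ideal S}
    (LH : s59p_Level S A R M 𝔞 J) (LH' : s59p_Level S A R' M' 𝔞 J) (hφ : LH'.φ = LH.φ)
    (D : s59t_Old A LH.N LH'.N) (τ : A) (hT : ∀ y, D.T y = τ • y)
    (rA₀ rB₀ : M →+ M') (cA₀ cB₀ : M' →+ M)
    (hrA : ∀ x, LH'.π (D.resA x) = rA₀ (LH.π x)) (hrB : ∀ x, LH'.π (D.resB x) = rB₀ (LH.π x))
    (hcA : ∀ z, LH.π (D.corA z) = cA₀ (LH'.π z)) (hcB : ∀ z, LH.π (D.corB z) = cB₀ (LH'.π z))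
    (hT4 : ∀ m₁ m₂ : M,
      rA₀ m₁ + rB₀ m₂ ∈ (((maximalIdeal S).map LH'.φ).map LH'.ψ) • (⊤ : Submodule R' M') →
      m₁ ∈ (((maximalIdeal S).map LH.φ).map LH.ψ) • (⊤ : Submodule R M) ∧
      m₂ ∈ (((maximalIdeal S).map LH.φ).map LH.ψ) • (⊤ : Submodule R M))
    (hT5 : ∀ m₁ m₂ : M, ∃ m' : M',
      cA₀ m' - m₁ ∈ (((maximalIdeal S).map LH.φ).map LH.ψ) • (⊤ : Submodule R M) ∧
      cB₀ m' - m₂ ∈ (((maximalIdeal S).map LH.φ).map LH.ψ) • (⊤ : Submodule R M))
    {MQ : Type} [AddCommGroup MQ] [Module R' MQ] (ρ : M' →ₗ[R'] MQ)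
    (hρ : ∀ m' : M', ρ m' = 0 ↔ ∃ m₁ m₂, rA₀ m₁ + rB₀ m₂ = m')
    (hES : ∀ z, D.U (D.U z) - τ • D.U z + D.qq • z = 0) :
    s59f_TStep LH LH' (D.qq + 1) τ τ (D.qq + 1) ρ (Ideal.span {(D.qq + 1) ^ 2 - τ ^ 2}) := by
  refine ⟨hφ, D.resA.coprod D.resB, D.corA.prod D.corB, fun m => rA₀ m.1 + rB₀ m.2,
    fun m' => (cA₀ m', cB₀ m'), ?_, ?_, ?_, ?_, ?_, ?_, ?_⟩
  · intro u v
    rw [LinearMap.coprod_apply]
    show (D.corA (D.resA u + D.resB v), D.corB (D.resA u + D.resB v)) = _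
    simp only [map_add, D.corA_resA, D.corA_resB, D.corB_resA, D.corB_resB, hT]
  · intro x y
    rw [LinearMap.coprod_apply, map_add, hrA, hrB]
  · intro z
    show (LH.π (D.corA z), LH.π (D.corB z)) = _
    rw [hcA, hcB]
  · intro m₁ m₂ h
    exact hT4 m₁ m₂ h
  · intro m₁ m₂
    exact hT5 m₁ m₂
  · intro m'
    rw [hρ m']
  · intro a ha z
    obtain ⟨c, rfl⟩ := Ideal.mem_span_singleton'.mp ha
    have h1 := s59f_T6_of_ES D τ hES (c • z)
    obtain ⟨y₁, y₂, h2⟩ := (s59f_mem_old_iff D _).mp h1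
    refine ⟨(y₁, y₂), ?_⟩
    rw [LinearMap.coprod_apply, h2, mul_smul, smul_comm]

end Assemble

end Fermat.Agent.Lib.S59
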