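/-
PROGRAMME R2 = S59, node [FLR], `T`-side: **(T6) from the `q`-new part only** (helper4, prefix
`s59f_`).  The Eichler–Shimura hypothesis [ES-q] of `s59f_TStep_of_old` (a SIGNED relation
`U² − τ U + q = 0` on the whole of `Z`) is replaced by the UNSIGNED statement on the kernel-new part

  [NEW-q]  `corA z = 0 → corB z = 0 → ((q + 1)² − τ²) • z = 0`,

at the price of squaring the Gram determinant: `δ² Z ⊆ resA Y + resB Y`, `δ = (q + 1)² − τ²`.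
For the ring contract this costs nothing: `s59f_RingData'` only sees the primes containing `𝔫 t`.
* `s59f_T6sq_of_new`      : `δ² • z ∈ old` from [NEW-q] (pure algebra: `δ z − i(adj(G) tr z)` is new);
* **`s59f_TStep_of_new`** : `s59f_TStep_of_old` with [NEW-q] instead of [ES-q], ideal `span{δ²}`;
* `s59f_ringData_of_le`   : the ring contract for ideals `𝔫'` with the same minimal primes;
  `s59f_ringData_sq` : `𝔫 t = span{δ t}` ⟶ `span{δ t ^ 2}`.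
-/
import Mathlib
import Fermat.Agent.Lib.S59.FStepAbs
import Fermat.Agent.Lib.S59.FGraph2

set_option autoImplicit false
set_option linter.unusedSectionVars false
set_option linter.unusedVariables false
set_option linter.style.haveILetI false

namespace Fermat.Agent.Lib.S59

open IsLocalRing

section T6sq

variable {R : Type*} [CommRing R] {Y Z : Type*} [AddCommGroup Y] [Module R Y]
  [AddCommGroup Z] [Module R Z] (D : s59t_Old R Y Z)

/-- **(T6) squared, from the new part.** -/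
theorem s59f_T6sq_of_new (τ : R) (hT : ∀ y, D.T y = τ • y)
    (hnew : ∀ z, D.corA z = 0 → D.corB z = 0 → ((D.qq + 1) ^ 2 - τ ^ 2) • z = 0) (z : Z) :
    ((D.qq + 1) ^ 2 - τ ^ 2) ^ 2 • z ∈ s59f_oldSub D := by
  obtain ⟨δ, hδ⟩ : ∃ δ : R, δ = (D.qq + 1) ^ 2 - τ ^ 2 := ⟨_, rfl⟩
  obtain ⟨a, ha⟩ : ∃ a : Y, a = D.corA z := ⟨_, rfl⟩
  obtain ⟨b, hb⟩ : ∃ b : Y, b = D.corB z := ⟨_, rfl⟩
  obtain ⟨y₁, hy₁⟩ : ∃ y₁ : Y, y₁ = (D.qq + 1) • a - τ • b := ⟨_, rfl⟩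
  obtain ⟨y₂, hy₂⟩ : ∃ y₂ : Y, y₂ = (D.qq + 1) • b - τ • a := ⟨_, rfl⟩
  obtain ⟨o, ho⟩ : ∃ o : Z, o = D.resA y₁ + D.resB y₂ := ⟨_, rfl⟩
  have hoO : o ∈ s59f_oldSub D := (s59f_mem_old_iff D o).mpr ⟨y₁, y₂, ho.symm⟩
  have hA : D.corA (δ • z - o) = 0 := by
    rw [map_sub, map_smul, ho, map_add, D.corA_resA, D.corA_resB, hT, ← ha, hy₁, hy₂, hδ]
    simp only [smul_sub, smul_smul, sub_smul]
    rw [pow_two, pow_two, mul_comm τ (D.qq + 1)]
    abel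
  have hB : D.corB (δ • z - o) = 0 := by
    rw [map_sub, map_smul, ho, map_add, D.corB_resA, D.corB_resB, hT, ← hb, hy₁, hy₂, hδ]
    simp only [smul_sub, smul_smul, sub_smul]
    rw [pow_two, pow_two, mul_comm τ (D.qq + 1)]
    abel
  have h1 := hnew _ hA hB
  rw [← hδ, smul_sub, sub_eq_zero, smul_smul, ← pow_two] at h1
  rw [← hδ, h1]
  exact Submodule.smul_mem _ _ hoO

end T6sq

section Assemble

/-- **assembly of the `T`-side leaves of one step at one Taylor–Wiles level, [NEW-q] form.** -/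
theorem s59f_TStep_of_new {S : Type} [CommRing S] [IsLocalRing S] {A : Type} [CommRing A]
    {R : Type} [CommRing R] {M : Type} [AddCommGroup M] [Module R M]
    {R' : Type} [CommRing R'] {M' : Type} [AddCommGroup M'] [Module R' M'] {𝔞 J : Ideal S}
    (LH : s59p_Level S A R M 𝔞 J) (LH' : s59p_Level S A R' M' 𝔞 J) (hφ : LH'.φ = LH.φ)
    (D : s59t_Old A LH.N LH'.N) (τ : A) (hT : ∀ y, D.T y = τ • y)
    (rA₀ rB₀ : M →+ M') (cA₀ cB₀ : M' →+ M)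
    (hrA : ∀ x, LH'.π (D.resA x) = rA₀ (LH.π x)) (hrB : ∀ x, LH'.π (D.resB x) = rB₀ (LH.π x))
    (hcA : ∀ z, LH.π (D.corA z) = cA₀ (LH'.π z)) (hcB : ∀ z, LH.π (D.corB z) = cB₀ (LH'.π z))
    (hT4 : ∀ m₁ m₂ : M,
      rA₀ m₁ + rB₀ m₂ ∈ (((maximalIdeal S).map LH'.φ).map LH'.ψ) • (⊤ : Submodule R' M') →
      m₁ ∈ (((maximalIdeal S).map LH.φ).map LH.ψ) • (⊤ : Submodule R M) ∧
      m₂ ∈ (((maximalIdeal S).map LH.φ).map LH.ψ) • (⊤ : Submodule R M))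
    (hT5 : ∀ m₁ m₂ : M, ∃ m' : M',
      cA₀ m' - m₁ ∈ (((maximalIdeal S).map LH.φ).map LH.ψ) • (⊤ : Submodule R M) ∧
      cB₀ m' - m₂ ∈ (((maximalIdeal S).map LH.φ).map LH.ψ) • (⊤ : Submodule R M))
    {MQ : Type} [AddCommGroup MQ] [Module R' MQ] (ρ : M' →ₗ[R'] MQ)
    (hρ : ∀ m' : M', ρ m' = 0 ↔ ∃ m₁ m₂, rA₀ m₁ + rB₀ m₂ = m')
    (hnew : ∀ z, D.corA z = 0 → D.corB z = 0 → ((D.qq + 1) ^ 2 - τ ^ 2) • z = 0) :
    s59f_TStep LH LH' (D.qq + 1) τ τ (D.qq + 1) ρ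
      (Ideal.span {((D.qq + 1) ^ 2 - τ ^ 2) ^ 2}) := by
  refine ⟨hφ, D.resA.coprod D.resB, D.corA.prod D.corB, fun m => rA₀ m.1 + rB₀ m.2,
    fun m' => (cA₀ m', cB₀ m'), ?_, ?_, ?_, ?_, ?_, ?_, ?_⟩
  · intro u v
    rw [LinearMap.coprod_apply]
    show (D.corA (D.resA u + D.resB v), D.corB (D.resA u + D.resB v)) = _
    simp only [map_add, D.corA_resA, D.corA_resB, D.corB_resA, D.corB_resB, hT]
  · intro x y
    rw [LinearMap.coprod_apply, map_add, hrA, hrB]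
  · intro z
    show (LH.π (D.corA z), LH.π (D.corB z)) = _
    rw [hcA, hcB]
  · intro m₁ m₂ h
    exact hT4 m₁ m₂ h
  · intro m₁ m₂
    exact hT5 m₁ m₂
  · intro m'
    rw [hρ m']
  · intro a ha z
    obtain ⟨c, rfl⟩ := Ideal.mem_span_singleton'.mp ha
    have h1 := s59f_T6sq_of_new D τ hT hnew (c • z)
    obtain ⟨y₁, y₂, h2⟩ := (s59f_mem_old_iff D _).mp h1
    refine ⟨(y₁, y₂), ?_⟩
    rw [LinearMap.coprod_apply, h2, mul_smul, smul_comm]

end Assemble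

section Ring

variable {S : Type} [CommRing S] {A : Type} [CommRing A] {ι : Type*} {s : Finset ι}
  {𝒦 : ι → Ideal A} {k : ℕ} {c : ℕ → ι} {δ : ℕ → A} {𝔫 𝔫' : ℕ → Ideal A}

/-- the ring contract only sees the primes over `𝔫 t`. -/
theorem s59f_ringData_of_le (h : s59f_RingData' S A s 𝒦 k c δ 𝔫)
    (hle : ∀ t < k, ∀ i ∈ s, 𝔫' t ≤ 𝒦 i → 𝔫 t ≤ 𝒦 i) : s59f_RingData' S A s 𝒦 k c δ 𝔫' where
  prime := h.prime
  dim := h.dim
  mem0 := h.mem0
  wit := by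
    intro t ht
    obtain ⟨𝔔, h1, h2, h3, h4⟩ := h.wit t ht
    exact ⟨𝔔, h1, h2, h3, fun i hi hi𝔔 hn => h4 i hi hi𝔔 (hle t ht i hi hn)⟩

/-- `𝔫 t = span{δ t}` may be replaced by `span{δ t ^ 2}`. -/
theorem s59f_ringData_sq (d : ℕ → A)
    (h : s59f_RingData' S A s 𝒦 k c δ (fun t => Ideal.span {d t})) :
    s59f_RingData' S A s 𝒦 k c δ (fun t => Ideal.span {d t ^ 2}) := by
  refine s59f_ringData_of_le h (fun t _ i hi hn => ?_)
  haveI := h.prime i hi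
  rw [Ideal.span_singleton_le_iff_mem] at hn ⊢
  exact Ideal.IsPrime.mem_of_pow_mem inferInstance 2 hn

end Ring

end Fermat.Agent.Lib.S59
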