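/-
PROGRAMME R2 = S59, node [FLR], **the `R`-side contract for GENERIC smooth local models**, part 4
(helper4, prefix `s59f_`): **the Gram elements, `hδ`, (Rτ) and the ring contract.**

* `s59f_a4`      : the square root `a_i` of `u_i + Q(W_i)` in `𝒫`, `a_i ≡ ε_i`, at a prime of type (iv);
* `s59f_g12G`    : `g12 t = loc_l (g12 of the model)` resp. `2 a_i` along the order `step`;
* `s59f_G_hδ`    : `(q_t + 1)(q_t + 1) − g12 t · g12 t = δ t` (`δ` = helper3's `s59u_r2_delta`);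
* `s59f_G_Rτ`    : `γ (g12 t) = C (tr ρ(φ_t))`;
* `s59f_G_ring`  : the contract `s59f_RingData'` with `𝔫 t = span{δ t ^ 2}`.
-/
import Mathlib
import Fermat.Agent.Lib.S59.FAsmG3
import Fermat.Agent.Lib.S59.FStepNew
import Fermat.Agent.Lib.S59.LInst

set_option autoImplicit false
set_option linter.unusedSectionVars false
set_option linter.unusedVariables false
set_option linter.style.haveILetI false
set_option maxHeartbeats 1600000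

noncomputable section

namespace Fermat.Agent.Lib.S59

open IsLocalRing MvPowerSeries Fermat.Agent.Lib.Deform

section GramG

variable {𝒪 : Type} [CommRing 𝒪] [IsLocalRing 𝒪] [IsNoetherianRing 𝒪] [IsDomain 𝒪]
  [IsAdicComplete (maximalIdeal 𝒪) 𝒪] [Finite (ResidueField 𝒪)]
variable {i2 : 𝒪} {r r4 : ℕ} (g : ℕ) (L : Fin r → s59f_LocBr 𝒪 i2) (ε4 u4 : Fin r4 → 𝒪)

/-- `u − 1 = 2 ε ϑ` for `ϑ = ε (u − 1)/2`. -/
theorem s59f_u4_sub_one (hi2 : 2 * i2 = 1) (hε4 : ∀ i, ε4 i ^ 2 = 1) (i : Fin r4) :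
    u4 i - 1 = 2 * ε4 i * s59u_r2_theta4 i2 ε4 u4 i := by
  unfold s59u_r2_theta4
  linear_combination (-(u4 i - 1)) * (2 * i2) * hε4 i - (u4 i - 1) * hi2

/-- `4 ϑ² = (u − 1)²`. -/
theorem s59f_four_theta4_sq (hi2 : 2 * i2 = 1) (hε4 : ∀ i, ε4 i ^ 2 = 1) (i : Fin r4) :
    4 * s59u_r2_theta4 i2 ε4 u4 i ^ 2 = (u4 i - 1) ^ 2 := by
  unfold s59u_r2_theta4
  have h4 : (4 : 𝒪) * i2 ^ 2 = 1 := by
    calc (4 : 𝒪) * i2 ^ 2 = (2 * i2) ^ 2 := by ring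
      _ = 1 := by rw [hi2, one_pow]
  calc 4 * (ε4 i * (u4 i - 1) * i2) ^ 2 = ε4 i ^ 2 * (u4 i - 1) ^ 2 * (4 * i2 ^ 2) := by ring
    _ = (u4 i - 1) ^ 2 := by rw [hε4 i, h4]; ring

theorem s59f_u4_sub_one_mem (hi2 : 2 * i2 = 1) (hε4 : ∀ i, ε4 i ^ 2 = 1)
    (hϑ : ∀ i, s59l_Hyp (s59u_r2_theta4 i2 ε4 u4 i)) (i : Fin r4) :
    u4 i - 1 ∈ maximalIdeal 𝒪 := by
  rw [s59f_u4_sub_one ε4 u4 hi2 hε4 i]
  exact Ideal.mul_mem_left _ _ (hϑ i).mem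

/-- the square root of `u_i + Q(W_i)` congruent to `ε_i`. -/
theorem s59f_a4_exists (hi2 : 2 * i2 = 1) (hε4 : ∀ i, ε4 i ^ 2 = 1)
    (hϑ : ∀ i, s59l_Hyp (s59u_r2_theta4 i2 ε4 u4 i)) (i : Fin r4) :
    ∃ a : s59r_Flat 𝒪 (0 + r4) r g,
      a ^ 2 = C (u4 i) + (s59r_WB (Fin.natAdd 0 i) 0 ^ 2 +
        s59r_WB (Fin.natAdd 0 i) 1 * s59r_WB (Fin.natAdd 0 i) 2) ∧
      a - C (ε4 i) ∈ maximalIdeal (s59r_Flat 𝒪 (0 + r4) r g) := by
  refine s59l_exists_sqrt _ (C (ε4 i)) (C i2) ?_ ?_ ?_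
  · rw [← map_pow, hε4 i, map_one]
  · rw [← map_ofNat (C (σ := s59r_Idx (0 + r4) r g) (R := 𝒪)) 2, ← map_mul, hi2, map_one]
  · have e : (C (u4 i) + (s59r_WB (Fin.natAdd 0 i) 0 ^ 2 +
        s59r_WB (Fin.natAdd 0 i) 1 * s59r_WB (Fin.natAdd 0 i) 2) - 1 : s59r_Flat 𝒪 (0 + r4) r g) =
        C (u4 i - 1) + (s59r_WB (Fin.natAdd 0 i) 0 * s59r_WB (Fin.natAdd 0 i) 0 +
          s59r_WB (Fin.natAdd 0 i) 1 * s59r_WB (Fin.natAdd 0 i) 2) := by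
      rw [map_sub, map_one]; ring
    rw [e]
    refine Ideal.add_mem _ (s59l_C_mem (s59f_u4_sub_one_mem ε4 u4 hi2 hε4 hϑ i))
      (Ideal.add_mem _ (Ideal.mul_mem_left _ _ (X_mem_maximalIdeal _))
        (Ideal.mul_mem_left _ _ (X_mem_maximalIdeal _)))

/-- **the half trace `a_i`** at the prime `i` of type (iv). -/
def s59f_a4 (hi2 : 2 * i2 = 1) (hε4 : ∀ i, ε4 i ^ 2 = 1)
    (hϑ : ∀ i, s59l_Hyp (s59u_r2_theta4 i2 ε4 u4 i)) (i : Fin r4) : s59r_Flat 𝒪 (0 + r4) r g :=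
  Classical.choose (s59f_a4_exists (r := r) g ε4 u4 hi2 hε4 hϑ i)

theorem s59f_a4_sq (hi2 : 2 * i2 = 1) (hε4 : ∀ i, ε4 i ^ 2 = 1)
    (hϑ : ∀ i, s59l_Hyp (s59u_r2_theta4 i2 ε4 u4 i)) (i : Fin r4) :
    s59f_a4 (r := r) g ε4 u4 hi2 hε4 hϑ i ^ 2 = C (u4 i) + (s59r_WB (Fin.natAdd 0 i) 0 ^ 2 +
      s59r_WB (Fin.natAdd 0 i) 1 * s59r_WB (Fin.natAdd 0 i) 2) :=
  (Classical.choose_spec (s59f_a4_exists (r := r) g ε4 u4 hi2 hε4 hϑ i)).1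

theorem s59f_a4_res (hi2 : 2 * i2 = 1) (hε4 : ∀ i, ε4 i ^ 2 = 1)
    (hϑ : ∀ i, s59l_Hyp (s59u_r2_theta4 i2 ε4 u4 i)) (i : Fin r4) :
    s59f_a4 (r := r) g ε4 u4 hi2 hε4 hϑ i - C (ε4 i) ∈
      maximalIdeal (s59r_Flat 𝒪 (0 + r4) r g) :=
  (Classical.choose_spec (s59f_a4_exists (r := r) g ε4 u4 hi2 hε4 hϑ i)).2

/-- **the elements `g12 t`** along the order `step` of the raising primes. -/
def s59f_g12G (hi2 : 2 * i2 = 1) (hε4 : ∀ i, ε4 i ^ 2 = 1)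
    (hϑ : ∀ i, s59l_Hyp (s59u_r2_theta4 i2 ε4 u4 i)) (step : ℕ → Fin r ⊕ Fin r4) (t : ℕ) :
    s59r_Flat 𝒪 (0 + r4) r g :=
  Sum.elim (fun l => s59r_loc (0 + r4) g l (L l).g12)
    (fun i => 2 * s59f_a4 (r := r) g ε4 u4 hi2 hε4 hϑ i) (step t)

/-- the constants `u_t` along the order. -/
def s59f_uG (step : ℕ → Fin r ⊕ Fin r4) (t : ℕ) : 𝒪 :=
  Sum.elim (fun l => (L l).u) u4 (step t)

/-- **`hδ`**: `(u_t + 1)(u_t + 1) − g12 t · g12 t = δ t`. -/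
theorem s59f_G_hδ (hi2 : 2 * i2 = 1) (hε4 : ∀ i, ε4 i ^ 2 = 1)
    (hϑ : ∀ i, s59l_Hyp (s59u_r2_theta4 i2 ε4 u4 i)) (step : ℕ → Fin r ⊕ Fin r4) (t : ℕ) :
    (C (s59f_uG L u4 step t + 1) : s59r_Flat 𝒪 (0 + r4) r g) * C (s59f_uG L u4 step t + 1) -
      s59f_g12G g L ε4 u4 hi2 hε4 hϑ step t * s59f_g12G g L ε4 u4 hi2 hε4 hϑ step t =
      s59u_r2_delta (fun l => (L l).Λ) (fun l => (L l).D) (Fin.natAdd 0)
        (s59u_r2_theta4 i2 ε4 u4) g step t := by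
  unfold s59f_g12G s59f_uG s59u_r2_delta
  rcases step t with l | i
  · simp only [Sum.elim_inl]
    rw [← (L l).hg12, map_sub, map_mul, map_mul, s59l_algHom_C]
    rfl
  · simp only [Sum.elim_inr]
    exact s59u_r2_gram (Fin.natAdd 0 i) (u4 i) _ (s59f_four_theta4_sq ε4 u4 hi2 hε4 i) _
      (s59f_a4_sq g ε4 u4 hi2 hε4 hϑ i)

/-- **`hδ`** in the form of `s59f_FLR_asm`. -/
theorem s59f_G_hδ' (hi2 : 2 * i2 = 1) (hε4 : ∀ i, ε4 i ^ 2 = 1)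
    (hϑ : ∀ i, s59l_Hyp (s59u_r2_theta4 i2 ε4 u4 i)) (step : ℕ → Fin r ⊕ Fin r4) (t : ℕ)
    (q : ℕ) (hq : s59f_uG L u4 step t = ((q : ℕ) : 𝒪)) :
    (((q : ℕ) : s59r_Flat 𝒪 (0 + r4) r g) + 1) * (((q : ℕ) : s59r_Flat 𝒪 (0 + r4) r g) + 1) -
      s59f_g12G g L ε4 u4 hi2 hε4 hϑ step t * s59f_g12G g L ε4 u4 hi2 hε4 hϑ step t =
      s59u_r2_delta (fun l => (L l).Λ) (fun l => (L l).D) (Fin.natAdd 0)
        (s59u_r2_theta4 i2 ε4 u4) g step t := by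
  rw [← s59f_G_hδ g L ε4 u4 hi2 hε4 hϑ step t, hq, map_add, map_one, map_natCast]

/-- **the ring contract** with `𝔫 t = span{δ t ^ 2}`. -/
theorem s59f_G_ring (hi2 : 2 * i2 = 1) (hϑ : ∀ i, s59l_Hyp (s59u_r2_theta4 i2 ε4 u4 i))
    (step : ℕ → Fin r ⊕ Fin r4) (k : ℕ) (hstep : ∀ t < k, ∀ t' < t, step t' ≠ step t)
    (S : Type) [CommRing S]
    (hS : ringKrullDim 𝒪 + ((3 * (0 + r4) + (g + r * 3) : ℕ) : WithBot ℕ∞) ≤ ringKrullDim S) :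
    s59f_RingData' S (s59r_Flat 𝒪 (0 + r4) r g)
      (Finset.univ : Finset ((Fin r4 → Bool) × s59r_Ch (fun l => (L l).Λ)))
      (s59f_KG (fun l => (L l).Λ) (s59u_r2_theta4 i2 ε4 u4) hϑ g) k
      (s59u_r2_chain (fun l => (L l).Λ) (fun l => (L l).D) step)
      (s59u_r2_delta (fun l => (L l).Λ) (fun l => (L l).D) (Fin.natAdd 0)
        (s59u_r2_theta4 i2 ε4 u4) g step)
      (fun t => Ideal.span {s59u_r2_delta (fun l => (L l).Λ) (fun l => (L l).D) (Fin.natAdd 0)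
        (s59u_r2_theta4 i2 ε4 u4) g step t ^ 2}) :=
  s59f_ringData_sq _ (s59u_r2_ringData_append (fun l => (L l).Λ) (fun l => (L l).D) (s59f_th0 𝒪)
    (s59u_r2_theta4 i2 ε4 u4) i2 hi2 s59f_th0_hyp hϑ step k hstep g S hS)

end GramG

section RtauG

variable {𝒪 : Type} [CommRing 𝒪] [IsLocalRing 𝒪] [IsNoetherianRing 𝒪] [IsDomain 𝒪]
  [IsAdicComplete (maximalIdeal 𝒪) 𝒪] [Finite (ResidueField 𝒪)]
variable {i2 : 𝒪} {r r4 g : ℕ} {L : Fin r → s59f_LocBr 𝒪 i2} {ε4 u4 : Fin r4 → 𝒪}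
variable {σ : Type} [Finite σ] {R' : Type} [CommRing R'] [IsLocalRing R'] [Algebra 𝒪 R']
  {G : Type} [Monoid G] {ρm : G →* Matrix (Fin 2) (Fin 2) R'}
  {U U' : Fin r4 ⊕ Fin r → Matrix (Fin 2) (Fin 2) (MvPowerSeries σ R')}
  {γ : s59r_Flat 𝒪 (0 + r4) r g →ₐ[𝒪] MvPowerSeries σ R'}
  {sg ph : Fin r4 ⊕ Fin r → G} {qn : Fin r4 ⊕ Fin r → ℕ}

/-- **(Rτ), generic form**: `γ (g12 t) = C (tr ρ(φ_t))`. -/
theorem s59f_G_Rτ (hi2 : 2 * i2 = 1) (hε4 : ∀ i, ε4 i ^ 2 = 1)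
    (hϑ : ∀ i, s59l_Hyp (s59u_r2_theta4 i2 ε4 u4 i))
    (hγ : Function.Surjective γ)
    (hB : s59f_BridgeEqsG L ρm U U' γ sg ph) (hG : s59f_GalG L ε4 u4 ρm U U' sg ph qn)
    (step : ℕ → Fin r ⊕ Fin r4) (t : ℕ) :
    γ (s59f_g12G g L ε4 u4 hi2 hε4 hϑ step t) =
      C (ρm (ph (Sum.swap (step t)))).trace := by
  have hγloc : ∀ a ∈ maximalIdeal (s59r_Flat 𝒪 (0 + r4) r g),
      γ a ∈ maximalIdeal (MvPowerSeries σ R') := fun a ha =>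
    s59i_surj_mem (γ : s59r_Flat 𝒪 (0 + r4) r g →+* MvPowerSeries σ R') hγ a ha
  have hloc𝒪 : ∀ t ∈ maximalIdeal 𝒪,
      algebraMap 𝒪 (MvPowerSeries σ R') t ∈ maximalIdeal (MvPowerSeries σ R') := by
    intro t ht
    rw [MvPowerSeries.algebraMap_apply]
    exact s59i_C_mem_maximalIdeal _ (hG.loc𝒪 t ht)
  unfold s59f_g12G
  rcases step t with l | i
  · -- a smooth prime
    simp only [Sum.elim_inl, Sum.swap_inl]
    obtain ⟨-, -, -, h4, h5⟩ := hG.type1 (Sum.inr l)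
    rw [← h5]
    have h := (L l).trOf (MvPowerSeries σ R') (γ.comp (s59r_loc (0 + r4) g l))
      (s59i_Fm ρm U U' (Sum.inr l) (ph (Sum.inr l))) ?_ ?_ ?_ (hG.res l)
    · rw [AlgHom.comp_apply] at h
      exact h
    · intro a ha
      rw [AlgHom.comp_apply]
      refine hγloc _ ?_
      refine s59l_algHom_mem_max (s59r_loc (0 + r4) g l) (fun s => ?_) (fun t ht => ?_) ha
      · rw [s59r_loc_X]
        exact X_mem_maximalIdeal _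
      · rw [MvPowerSeries.algebraMap_apply, Algebra.algebraMap_self, RingHom.id_apply]
        exact s59l_C_mem ht
    · intro k
      rw [AlgHom.comp_apply, s59r_loc_X, hB.2.2 l (Fin.natAdd 3 k), s59f_coordG_right]
    · rw [h4, hG.qu, map_natCast]
  · -- a prime of type (iv)
    simp only [Sum.elim_inr, Sum.swap_inr]
    obtain ⟨-, -, -, h4, h5⟩ := hG.type1 (Sum.inl i)
    have hCγ : ∀ o : 𝒪, γ (C o) = algebraMap 𝒪 (MvPowerSeries σ R') o := fun o =>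
      s59l_algHom_C γ o
    have hi2' : (2 : MvPowerSeries σ R') * algebraMap 𝒪 (MvPowerSeries σ R') i2 = 1 := by
      rw [← map_ofNat (algebraMap 𝒪 (MvPowerSeries σ R')) 2, ← map_mul, hi2, map_one]
    have key : γ (s59f_a4 (r := r) g ε4 u4 hi2 hε4 hϑ i) =
        s59i_ht (γ (C i2)) (s59i_Fm ρm U U' (Sum.inl i) (ph (Sum.inl i))) := by
      refine s59i_hac_of_det (γ : s59r_Flat 𝒪 (0 + r4) r g →+* MvPowerSeries σ R') (C i2)
        (C (u4 i)) _ (s59r_WB (Fin.natAdd 0 i) 0) (s59r_WB (Fin.natAdd 0 i) 1)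
        (s59r_WB (Fin.natAdd 0 i) 2) (C (ε4 i)) ?_ ?_ (s59f_a4_sq g ε4 u4 hi2 hε4 hϑ i) _ ?_ ?_ ?_ ?_
      · rw [← map_ofNat (C (σ := s59r_Idx (0 + r4) r g) (R := 𝒪)) 2, ← map_mul, hi2, map_one]
      · rw [← map_pow, hε4 i, map_one]
      · intro k
        rw [RingHom.coe_coe, hCγ]
        fin_cases k
        · exact hB.2.1 i 0
        · exact hB.2.1 i 1
        · exact hB.2.1 i 2
      · rw [RingHom.coe_coe, hCγ, h4, hG.qu4, map_natCast]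
      · rw [← map_sub]
        exact hγloc _ (s59f_a4_res g ε4 u4 hi2 hε4 hϑ i)
      · rw [RingHom.coe_coe, hCγ, hCγ]
        have h := hG.res4 i
        have e : s59i_ht (algebraMap 𝒪 (MvPowerSeries σ R') i2)
              (s59i_Fm ρm U U' (Sum.inl i) (ph (Sum.inl i))) -
            algebraMap 𝒪 (MvPowerSeries σ R') (ε4 i) =
            (s59i_ht (algebraMap 𝒪 (MvPowerSeries σ R') i2)
              (s59i_Fm ρm U U' (Sum.inl i) (ph (Sum.inl i))) -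
              algebraMap 𝒪 (MvPowerSeries σ R') (ε4 i * (u4 i + 1) * i2)) +
            algebraMap 𝒪 (MvPowerSeries σ R') (s59u_r2_theta4 i2 ε4 u4 i) := by
          have e0 : ε4 i * (u4 i + 1) * i2 - ε4 i = s59u_r2_theta4 i2 ε4 u4 i := by
            unfold s59u_r2_theta4
            linear_combination (ε4 i) * hi2
          rw [← e0, map_sub]
          ring
        rw [e]
        exact Ideal.add_mem _ h (hloc𝒪 _ (hϑ i).mem)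
    rw [map_mul, map_ofNat, key, hCγ, ← h5, s59i_ht, Matrix.trace_fin_two]
    linear_combination (s59i_Fm ρm U U' (Sum.inl i) (ph (Sum.inl i)) 0 0 +
      s59i_Fm ρm U U' (Sum.inl i) (ph (Sum.inl i)) 1 1) * hi2'

end RtauG

end Fermat.Agent.Lib.S59
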