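/-
PROGRAMME R2 = S59, node [FLR] in its WEAK-TRACE form, **the RING side** (helper2, prefix `s59b_`).

The weak ring contract `s59b_RingDataW` (B9StepW.lean) = helper4's `s59f_RingData'` + "the marked
element `b t` does NOT lie in the witness prime `𝔔_t`".  Here: the production instance of
`s59f_RingData'` (helper3's `s59u_r2_ringData`, `s59u_r2_ringData_append`; helper4's
`s59f_ringData_of_le`, `s59f_ringData_sq`, `s59f_G_ring`) twinned for the marked element
`b t = X_{i₀}` = ONE GLOBAL variable `s59r_XG i₀` of `𝒫^Λ` (the same for every step `t`):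
the witness primes are kernels of substitutions which FIX the global variables.

* `s59b_X_ne_zero`, `s59b_Sig_xl`;
* `s59b_XG_not_mem_Q`, `s59b_XG_not_mem_Q4` : `X_{i₀} ∉ 𝔔` for the two kinds of witness primes;
* `s59b_r2_ringDataW`, `s59b_r2_ringDataW_append` : twins of helper3's theorems;
* `s59b_ringDataW_of_le`, `s59b_ringDataW_sq`     : twins of helper4's (FStepNew);
* `s59b_G_ringW`                                  : twin of helper4's `s59f_G_ring` (FAsmG4);
* `s59b_ringData_of_W`                            : the weak contract implies the strong one.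
-/
import Mathlib
import Fermat.Agent.Lib.S59.FAsmG4
import Fermat.Agent.Lib.S59.B9StepW

set_option autoImplicit false
set_option linter.unusedSectionVars false
set_option linter.unusedVariables false
set_option linter.style.haveILetI false
set_option maxHeartbeats 1600000

noncomputable section

namespace Fermat.Agent.Lib.S59

open IsLocalRing MvPowerSeries Fermat.Agent.Lib.Deform

section NotMem

variable {𝒪 : Type} [CommRing 𝒪] [IsLocalRing 𝒪] [IsNoetherianRing 𝒪] [IsDomain 𝒪]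
  [IsAdicComplete (maximalIdeal 𝒪) 𝒪] [Finite (ResidueField 𝒪)]

variable {m r g : ℕ} (Λ : Fin r → s59r_Model 𝒪) (κ : Fin m → s59u_st_Kind 𝒪)
  (hκ : ∀ j, (κ j).Hyp) (D : ∀ l, s59r_RaiseData (Λ l))

/-- a variable of a power series ring over a nontrivial ring is not zero. -/
theorem s59b_X_ne_zero {σ : Type*} {R : Type*} [CommRing R] [Nontrivial R] (i : σ) :
    (X i : MvPowerSeries σ R) ≠ 0 := by
  classical
  intro h
  have h1 := congrArg (MvPowerSeries.coeff (Finsupp.single i 1)) h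
  rw [MvPowerSeries.coeff_X, if_pos rfl, map_zero] at h1
  exact one_ne_zero h1

/-- the global witness substitution at `t` fixes the global variables. -/
theorem s59b_Sig_xl (t : Fin r) (i : Fin g) :
    s59u_r2_Sig Λ κ hκ D g t (X (s59l_xe r g (Sum.inl i))) = X (s59l_xe r g (Sum.inl i)) := by
  rw [s59u_r2_Sig, evalHom_X]
  show (if h : ∃ j', s59r_yIdx r g t j' = s59l_xe r g (Sum.inl i) then _ else _) = _
  rw [dif_neg]
  rintro ⟨j', hj'⟩
  have := (s59l_xe r g).injective hj'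
  exact Sum.inr_ne_inl this

/-- **a global variable does not lie in the witness prime of a smooth raising prime.** -/
theorem s59b_XG_not_mem_Q (ch : s59r_Ch Λ) (t : Fin r) (i : Fin g) :
    (s59r_XG i : s59r_Flat 𝒪 m r g) ∉ s59u_r2_Q Λ κ hκ D g ch t := by
  rw [s59u_r2_Q, RingHom.mem_ker, s59u_r2_wit_apply, s59r_pi_XG, s59u_st_Psi_Xv, s59b_Sig_xl]
  exact s59b_X_ne_zero _

/-- **a global variable does not lie in the witness prime of a raising prime of type (iv).** -/
theorem s59b_XG_not_mem_Q4 (ch : s59r_Ch Λ) (j : Fin m) (hj : κ j = .unr) (θ : 𝒪)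
    (hθ : θ ∈ maximalIdeal 𝒪) (i : Fin g) :
    (s59r_XG i : s59r_Flat 𝒪 m r g) ∉ s59u_r2_Q4 Λ κ hκ g ch j hj θ hθ := by
  rw [s59u_r2_Q4, Ideal.mem_comap, s59r_pi_XG, s59u_st_Q, RingHom.mem_ker, s59u_st_wit,
    RingHom.comp_apply]
  show ¬ MvPowerSeries.map _ (s59u_st_Psi _ (g + r * 3) (s59l_Xv (s59l_xe r g (Sum.inl i)))) = 0
  rw [s59u_st_Psi_Xv, MvPowerSeries.map_X]
  exact s59b_X_ne_zero _

end NotMem

section ChainW

variable {𝒪 : Type} [CommRing 𝒪] [IsLocalRing 𝒪] [IsNoetherianRing 𝒪] [IsDomain 𝒪]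
  [IsAdicComplete (maximalIdeal 𝒪) 𝒪] [Finite (ResidueField 𝒪)]

variable {m r r4 : ℕ} (Λ : Fin r → s59r_Model 𝒪) (D : ∀ l, s59r_RaiseData (Λ l))
  (κ : (Fin r4 → Bool) → Fin m → s59u_st_Kind 𝒪) (hκ : ∀ b j, (κ b j).Hyp)
  (J : Fin r4 → Fin m) (ϑ : Fin r4 → 𝒪)

/-- **[F-RING′], weak form, for smooth local models AND primes of type (iv)**, along any order of
the raising primes, with the marked element `X_{i₀}` (a global variable). -/
theorem s59b_r2_ringDataW (i2 : 𝒪) (hi2 : 2 * i2 = 1) (hJ : Function.Injective J)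
    (hϑ : ∀ i, ϑ i ∈ maximalIdeal 𝒪)
    (hκJ : ∀ b i, κ b (J i) =
      if b i = true then s59u_st_Kind.st (ϑ i) else s59u_st_Kind.unr)
    (step : ℕ → Fin r ⊕ Fin r4) (k : ℕ) (hstep : ∀ t < k, ∀ t' < t, step t' ≠ step t)
    (g : ℕ) (i₀ : Fin g) (S : Type) [CommRing S]
    (hS : ringKrullDim 𝒪 + ((3 * m + (g + r * 3) : ℕ) : WithBot ℕ∞) ≤ ringKrullDim S) :
    s59b_RingDataW S (s59r_Flat 𝒪 m r g)
      (Finset.univ : Finset ((Fin r4 → Bool) × s59r_Ch Λ))
      (fun p => s59u_r2_KK Λ (κ p.1) (hκ p.1) g p.2) k (s59u_r2_chain Λ D step)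
      (s59u_r2_delta Λ D J ϑ g step)
      (fun t => Ideal.span {s59u_r2_delta Λ D J ϑ g step t}) (fun _ => s59r_XG i₀) where
  prime := fun p _ => inferInstance
  dim := fun p _ => (s59u_r2_KK_dim Λ (κ p.1) (hκ p.1) g p.2).trans hS
  mem0 := Finset.mem_univ _
  wit := by
    classical
    intro t ht
    set b := (s59u_r2_chain Λ D step t).1 with hb
    set ch := (s59u_r2_chain Λ D step t).2 with hch
    have hfst : ∀ i, b i = true ↔ ∃ t', t' < t ∧ step t' = Sum.inr i :=
      s59u_r2_chain_fst Λ D step t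
    rcases hst : step t with l | i₄
    · -- a smooth prime
      have hct : ch l = (D l).unr := by
        refine s59u_r2_chain_snd_neg Λ D step t l ?_
        rintro ⟨t', ht', h⟩
        exact hstep t ht t' ht' (h.trans hst.symm)
      refine ⟨s59u_r2_Q Λ (κ b) (hκ b) D g ch l, inferInstance,
        s59u_r2_KK_le_Q Λ (κ b) (hκ b) D g ch l, ?_,
        s59b_XG_not_mem_Q Λ (κ b) (hκ b) D ch l i₀, ?_⟩
      · show s59u_r2_delta Λ D J ϑ g step t ∈ _
        rw [s59u_r2_delta, hst, Sum.elim_inl, s59u_r2_loc_mem_Q_self, hct]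
        exact (D l).w1
      · rintro ⟨b', ch'⟩ _ hle h𝔫
        have hδ : s59r_loc m g l (D l).δ ∈ s59u_r2_KK Λ (κ b') (hκ b') g ch' := by
          refine h𝔫 (Ideal.subset_span ?_)
          rw [s59u_r2_delta, hst]
          exact Set.mem_singleton _
        rw [s59u_r2_loc_mem_KK] at hδ
        have h1 : ch' l = (D l).tgt := by
          refine (D l).w2 _ (fun x hx => ?_) hδ
          have h2 : s59r_loc m g l x ∈ s59u_r2_KK Λ (κ b') (hκ b') g ch' :=
            (s59u_r2_loc_mem_KK Λ (κ b') (hκ b') g ch' l x).mpr hx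
          have h3 := hle h2
          rw [s59u_r2_loc_mem_Q_self, hct] at h3
          exact h3
        have h2 : ∀ l', l' ≠ l → ch' l' = ch l' := by
          intro l' hl
          refine (Λ l').dist _ _ (fun x hx => ?_)
          have h2 : s59r_loc m g l' x ∈ s59u_r2_KK Λ (κ b') (hκ b') g ch' :=
            (s59u_r2_loc_mem_KK Λ (κ b') (hκ b') g ch' l' x).mpr hx
          have h3 := hle h2
          rw [s59u_r2_loc_mem_Q_other Λ (κ b) (hκ b) D g _ _ _ hl] at h3
          exact h3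
        have h3 : ∀ i, b' i = b i := by
          intro i
          rcases hb'i : b' i with _ | _ <;> rcases hbi' : b i with _ | _
          · rfl
          · exfalso
            have e1 : κ b' (J i) = .unr := by rw [hκJ, if_neg (by simp [hb'i])]
            have e2 : κ b (J i) = .st (ϑ i) := by rw [hκJ, if_pos hbi']
            exact s59u_r2_VB_not_mem_Q Λ (κ b) (hκ b) D ch l (J i) (ϑ i) e2
              (hle (s59u_r2_VB_mem_KK Λ (κ b') (hκ b') ch' (J i) e1 2))
          · exfalso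
            have e1 : κ b' (J i) = .st (ϑ i) := by rw [hκJ, if_pos hb'i]
            have e2 : κ b (J i) = .unr := by rw [hκJ, if_neg (by simp [hbi'])]
            exact s59u_r2_quadWB_not_mem_Q Λ (κ b) (hκ b) D ch l (J i) e2 _
              (hle (s59u_r2_quadWB_mem_KK Λ (κ b') (hκ b') ch' (J i) (ϑ i) e1))
          · rfl
        refine Prod.ext (funext fun i => ?_) (funext fun l' => ?_)
        · show b' i = _
          rw [h3 i, s59u_r2_chain_succ_fst_ne Λ D step t i (by rw [hst]; exact Sum.inl_ne_inr)]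
        · show ch' l' = _
          by_cases hl : l' = l
          · subst hl
            rw [h1, s59u_r2_chain_succ_snd_self Λ D step t l' hst]
          · rw [h2 l' hl, s59u_r2_chain_succ_snd_ne Λ D step t l'
              (by rw [hst]; intro h; exact hl (Sum.inl_injective h).symm)]
    · -- a prime of type (iv)
      have hbi : ¬ b i₄ = true := by
        rw [hfst]
        rintro ⟨t', ht', h⟩
        exact hstep t ht t' ht' (h.trans hst.symm)
      have hj : κ b (J i₄) = .unr := by rw [hκJ, if_neg hbi]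
      refine ⟨s59u_r2_Q4 Λ (κ b) (hκ b) g ch (J i₄) hj (ϑ i₄) (hϑ i₄), inferInstance,
        s59u_r2_KK_le_Q4 Λ (κ b) (hκ b) g ch (J i₄) hj (ϑ i₄) (hϑ i₄), ?_,
        s59b_XG_not_mem_Q4 Λ (κ b) (hκ b) ch (J i₄) hj (ϑ i₄) (hϑ i₄) i₀, ?_⟩
      · show s59u_r2_delta Λ D J ϑ g step t ∈ _
        rw [s59u_r2_delta, hst, Sum.elim_inr]
        exact Ideal.mul_mem_left _ _
          (s59u_r2_quadWB_mem_Q4 Λ (κ b) (hκ b) ch (J i₄) hj (ϑ i₄) (hϑ i₄))
      · rintro ⟨b', ch'⟩ _ hle h𝔫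
        have hδ : s59u_r2_quadWB r g (J i₄) (ϑ i₄ ^ 2) ∈
            s59u_r2_KK Λ (κ b') (hκ b') g ch' := by
          rw [← s59u_r2_neg_four_mul_mem i2 hi2]
          refine h𝔫 (Ideal.subset_span ?_)
          rw [s59u_r2_delta, hst]
          exact Set.mem_singleton _
        have h1 : b' i₄ = true := by
          by_contra hne
          have e1 : κ b' (J i₄) = .unr := by rw [hκJ, if_neg hne]
          exact s59u_r2_quadWB_not_mem_KK Λ (κ b') (hκ b') ch' (J i₄) e1 _ hδ
        have h2 : ∀ i, i ≠ i₄ → b' i = b i := by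
          intro i hi
          have hJi : J i ≠ J i₄ := fun h => hi (hJ h)
          rcases hb'i : b' i with _ | _ <;> rcases hbi' : b i with _ | _
          · rfl
          · exfalso
            have e1 : κ b' (J i) = .unr := by rw [hκJ, if_neg (by simp [hb'i])]
            have e2 : κ b (J i) = .st (ϑ i) := by rw [hκJ, if_pos hbi']
            exact s59u_r2_VB_not_mem_Q4 Λ (κ b) (hκ b) ch (J i₄) hj (ϑ i₄) (hϑ i₄) (J i) hJi
              (ϑ i) e2 (hle (s59u_r2_VB_mem_KK Λ (κ b') (hκ b') ch' (J i) e1 2))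
          · exfalso
            have e1 : κ b' (J i) = .st (ϑ i) := by rw [hκJ, if_pos hb'i]
            have e2 : κ b (J i) = .unr := by rw [hκJ, if_neg (by simp [hbi'])]
            exact s59u_r2_quadWB_not_mem_Q4 Λ (κ b) (hκ b) ch (J i₄) hj (ϑ i₄) (hϑ i₄) (J i)
              hJi e2 _ (hle (s59u_r2_quadWB_mem_KK Λ (κ b') (hκ b') ch' (J i) (ϑ i) e1))
          · rfl
        have h3 : ∀ l, ch' l = ch l := by
          intro l
          refine (Λ l).dist _ _ (fun x hx => ?_)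
          have h4 : s59r_loc m g l x ∈ s59u_r2_KK Λ (κ b') (hκ b') g ch' :=
            (s59u_r2_loc_mem_KK Λ (κ b') (hκ b') g ch' l x).mpr hx
          exact (s59u_r2_loc_mem_Q4 Λ (κ b) (hκ b) g ch (J i₄) hj (ϑ i₄) (hϑ i₄) l x).mp
            (hle h4)
        refine Prod.ext (funext fun i => ?_) (funext fun l => ?_)
        · show b' i = _
          by_cases hi : i = i₄
          · subst hi
            rw [h1, s59u_r2_chain_succ_fst_self Λ D step t i hst]
          · rw [h2 i hi, s59u_r2_chain_succ_fst_ne Λ D step t i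
              (by rw [hst]; intro h; exact hi (Sum.inr_injective h).symm)]
        · show ch' l = _
          rw [h3 l, s59u_r2_chain_succ_snd_ne Λ D step t l (by rw [hst]; exact Sum.inr_ne_inl)]

end ChainW

section AppendW

variable {𝒪 : Type} [CommRing 𝒪] [IsLocalRing 𝒪] [IsNoetherianRing 𝒪] [IsDomain 𝒪]
  [IsAdicComplete (maximalIdeal 𝒪) 𝒪] [Finite (ResidueField 𝒪)]

variable {m₀ r r4 : ℕ} (Λ : Fin r → s59r_Model 𝒪) (D : ∀ l, s59r_RaiseData (Λ l))
  (θ : Fin m₀ → 𝒪) (ϑ : Fin r4 → 𝒪)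

/-- **[F-RING′], weak form**, concrete form: `m₀` primes of type `χ`, `r₄` raising primes of type
(iv), `r` raising primes with smooth local models; marked element `X_{i₀}`. -/
theorem s59b_r2_ringDataW_append (i2 : 𝒪) (hi2 : 2 * i2 = 1) (hθ : ∀ j, s59l_Hyp (θ j))
    (hϑ : ∀ i, s59l_Hyp (ϑ i)) (step : ℕ → Fin r ⊕ Fin r4) (k : ℕ)
    (hstep : ∀ t < k, ∀ t' < t, step t' ≠ step t) (g : ℕ) (i₀ : Fin g) (S : Type) [CommRing S]
    (hS : ringKrullDim 𝒪 + ((3 * (m₀ + r4) + (g + r * 3) : ℕ) : WithBot ℕ∞) ≤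
      ringKrullDim S) :
    s59b_RingDataW S (s59r_Flat 𝒪 (m₀ + r4) r g)
      (Finset.univ : Finset ((Fin r4 → Bool) × s59r_Ch Λ))
      (fun p => s59u_r2_KK Λ (s59u_r2_kappa θ ϑ p.1) (s59u_r2_kappa_hyp θ ϑ hθ hϑ p.1) g p.2) k
      (s59u_r2_chain Λ D step) (s59u_r2_delta Λ D (Fin.natAdd m₀) ϑ g step)
      (fun t => Ideal.span {s59u_r2_delta Λ D (Fin.natAdd m₀) ϑ g step t})
      (fun _ => s59r_XG i₀) :=
  s59b_r2_ringDataW Λ D (s59u_r2_kappa θ ϑ) (s59u_r2_kappa_hyp θ ϑ hθ hϑ) (Fin.natAdd m₀) ϑ i2 hi2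
    (Fin.natAdd_injective r4 m₀) (fun i => (hϑ i).mem)
    (fun b i => s59u_r2_kappa_right θ ϑ b i) step k hstep g i₀ S hS

end AppendW

section RingW

variable {S : Type} [CommRing S] {A : Type} [CommRing A] {ι : Type*} {s : Finset ι}
  {𝒦 : ι → Ideal A} {k : ℕ} {c : ℕ → ι} {δ : ℕ → A} {𝔫 𝔫' : ℕ → Ideal A} {b : ℕ → A}

/-- the weak ring contract implies the strong one. -/
theorem s59b_ringData_of_W (h : s59b_RingDataW S A s 𝒦 k c δ 𝔫 b) :
    s59f_RingData' S A s 𝒦 k c δ 𝔫 where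
  prime := h.prime
  dim := h.dim
  mem0 := h.mem0
  wit := by
    intro t ht
    obtain ⟨𝔔, h1, h2, h3, -, h4⟩ := h.wit t ht
    exact ⟨𝔔, h1, h2, h3, h4⟩

/-- the weak ring contract only sees the primes over `𝔫 t`. -/
theorem s59b_ringDataW_of_le (h : s59b_RingDataW S A s 𝒦 k c δ 𝔫 b)
    (hle : ∀ t < k, ∀ i ∈ s, 𝔫' t ≤ 𝒦 i → 𝔫 t ≤ 𝒦 i) : s59b_RingDataW S A s 𝒦 k c δ 𝔫' b where
  prime := h.prime
  dim := h.dim
  mem0 := h.mem0
  wit := by
    intro t ht
    obtain ⟨𝔔, h1, h2, h3, hb, h4⟩ := h.wit t ht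
    exact ⟨𝔔, h1, h2, h3, hb, fun i hi hi𝔔 hn => h4 i hi hi𝔔 (hle t ht i hi hn)⟩

/-- `𝔫 t = span{δ t}` may be replaced by `span{δ t ^ 2}`. -/
theorem s59b_ringDataW_sq (d : ℕ → A)
    (h : s59b_RingDataW S A s 𝒦 k c δ (fun t => Ideal.span {d t}) b) :
    s59b_RingDataW S A s 𝒦 k c δ (fun t => Ideal.span {d t ^ 2}) b := by
  refine s59b_ringDataW_of_le h (fun t _ i hi hn => ?_)
  haveI := h.prime i hi
  rw [Ideal.span_singleton_le_iff_mem] at hn ⊢
  exact Ideal.IsPrime.mem_of_pow_mem inferInstance 2 hn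

end RingW

section GramGW

variable {𝒪 : Type} [CommRing 𝒪] [IsLocalRing 𝒪] [IsNoetherianRing 𝒪] [IsDomain 𝒪]
  [IsAdicComplete (maximalIdeal 𝒪) 𝒪] [Finite (ResidueField 𝒪)]
variable {i2 : 𝒪} {r r4 : ℕ} (g : ℕ) (L : Fin r → s59f_LocBr 𝒪 i2) (ε4 u4 : Fin r4 → 𝒪)

/-- **the weak ring contract** with `𝔫 t = span{δ t ^ 2}` and the marked element `X_{i₀}`: twin of
helper4's `s59f_G_ring`. -/
theorem s59b_G_ringW (hi2 : 2 * i2 = 1) (hϑ : ∀ i, s59l_Hyp (s59u_r2_theta4 i2 ε4 u4 i))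
    (step : ℕ → Fin r ⊕ Fin r4) (k : ℕ) (hstep : ∀ t < k, ∀ t' < t, step t' ≠ step t)
    (i₀ : Fin g) (S : Type) [CommRing S]
    (hS : ringKrullDim 𝒪 + ((3 * (0 + r4) + (g + r * 3) : ℕ) : WithBot ℕ∞) ≤ ringKrullDim S) :
    s59b_RingDataW S (s59r_Flat 𝒪 (0 + r4) r g)
      (Finset.univ : Finset ((Fin r4 → Bool) × s59r_Ch (fun l => (L l).Λ)))
      (s59f_KG (fun l => (L l).Λ) (s59u_r2_theta4 i2 ε4 u4) hϑ g) k
      (s59u_r2_chain (fun l => (L l).Λ) (fun l => (L l).D) step)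
      (s59u_r2_delta (fun l => (L l).Λ) (fun l => (L l).D) (Fin.natAdd 0)
        (s59u_r2_theta4 i2 ε4 u4) g step)
      (fun t => Ideal.span {s59u_r2_delta (fun l => (L l).Λ) (fun l => (L l).D) (Fin.natAdd 0)
        (s59u_r2_theta4 i2 ε4 u4) g step t ^ 2})
      (fun _ => s59r_XG i₀) :=
  s59b_ringDataW_sq _ (s59b_r2_ringDataW_append (fun l => (L l).Λ) (fun l => (L l).D)
    (s59f_th0 𝒪) (s59u_r2_theta4 i2 ε4 u4) i2 hi2 s59f_th0_hyp hϑ step k hstep g i₀ S hS)

end GramGW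

end Fermat.Agent.Lib.S59
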