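/-
PROGRAMME R2 = S59, node [FLR] in its WEAK-TRACE form, **THE `T`-SIDE INTERFACE** (helper2, prefix
`s59b_`): the weak twins of helper4's `s59f_TStep` (FRaiseT2) and `s59f_TLevelF` (FAsmPkg).

* `s59b_TStepWJ LH LH' g11 g12 g21 g22 B ρ 𝔫` : `s59b_TStepW` (B9Pm1WE) for a whole SET `B ⊆ A` of
  marked elements with the SAME `i`, `tr`, `i₀`: clause (T5w) `∀ b ∈ B, ∀ u v, ∃ z, tr z = b • (u, v)`;
* `s59b_TStepW_of_J`   : `s59b_TStepWJ … B …` ⟹ `s59b_TStepW … b …` for every `b ∈ Ideal.span B`;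
* `s59b_TStepWJ_of_TStep` : helper4's STRONG contract `s59f_TStep` gives the weak one for EVERY `B`
  (so a flat-type `T`-side package is a weak package too);
* `s59b_TLevelFW … DQ Jm` : `s59f_TLevelF` with `hT : s59b_TStepWJ … ((fun x => C (θ x)) '' Jm) …`;
* `s59b_TLevelFW.hTγ` : the hypothesis `hT` of the abstract theorem (`s59b_TStepW` at
  `b = γT bP`) from `γ bP ∈ Ideal.span (C '' Jm)`.
-/
import Mathlib
import Fermat.Agent.Lib.S59.FAsmPkg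
import Fermat.Agent.Lib.S59.B9Pm1WE

set_option autoImplicit false
set_option linter.unusedSectionVars false
set_option linter.unusedVariables false
set_option linter.style.haveILetI false
set_option maxHeartbeats 3200000
set_option synthInstance.maxHeartbeats 400000

noncomputable section

namespace Fermat.Agent.Lib.S59

open IsLocalRing MvPowerSeries
open Fermat.Agent.Lib.S53 (matOf NormData)
open Fermat.Agent.Lib.S56

local notation "Γℚ" => (AlgebraicClosure ℚ ≃ₐ[ℚ] AlgebraicClosure ℚ)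

/-- the `T`-side leaves for one step and one Taylor–Wiles level, weak trace clause for a SET `B`
of marked elements. -/
structure s59b_TStepWJ {S : Type} [CommRing S] [IsLocalRing S] {A : Type} [CommRing A]
    {R : Type} [CommRing R] {M : Type} [AddCommGroup M] [Module R M]
    {R' : Type} [CommRing R'] {M' : Type} [AddCommGroup M'] [Module R' M'] {𝔞 J : Ideal S}
    (LH : s59p_Level S A R M 𝔞 J) (LH' : s59p_Level S A R' M' 𝔞 J) (g11 g12 g21 g22 : A)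
    (B : Set A)
    {MQ : Type} [AddCommGroup MQ] [Module R' MQ] (ρ : M' →ₗ[R'] MQ) (𝔫 : Ideal A) : Prop where
  hφ : LH'.φ = LH.φ
  ex : ∃ (i : LH.N × LH.N →ₗ[A] LH'.N) (tr : LH'.N →ₗ[A] LH.N × LH.N)
      (i₀ : M × M → M'),
    (∀ u v : LH.N, tr (i (u, v)) = (g11 • u + g12 • v, g21 • u + g22 • v)) ∧
    (∀ x y, LH'.π (i (x, y)) = i₀ (LH.π x, LH.π y)) ∧
    (∀ m₁ m₂ : M,
      i₀ (m₁, m₂) ∈ (((maximalIdeal S).map LH'.φ).map LH'.ψ) • (⊤ : Submodule R' M') →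
      m₁ ∈ (((maximalIdeal S).map LH.φ).map LH.ψ) • (⊤ : Submodule R M) ∧
      m₂ ∈ (((maximalIdeal S).map LH.φ).map LH.ψ) • (⊤ : Submodule R M)) ∧
    (∀ b ∈ B, ∀ u v : LH.N, ∃ z : LH'.N, tr z = b • ((u, v) : LH.N × LH.N)) ∧
    (∀ m' : M', ρ m' = 0 ↔ ∃ m₁ m₂, i₀ (m₁, m₂) = m') ∧
    (∀ a ∈ 𝔫, ∀ z : LH'.N, a • z ∈ LinearMap.range i)

/-- the weak contract for a set gives the weak contract for every element of its span. -/
theorem s59b_TStepW_of_J {S : Type} [CommRing S] [IsLocalRing S] {A : Type} [CommRing A]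
    {R : Type} [CommRing R] {M : Type} [AddCommGroup M] [Module R M]
    {R' : Type} [CommRing R'] {M' : Type} [AddCommGroup M'] [Module R' M'] {𝔞 J : Ideal S}
    {LH : s59p_Level S A R M 𝔞 J} {LH' : s59p_Level S A R' M' 𝔞 J} {g11 g12 g21 g22 : A}
    {B : Set A}
    {MQ : Type} [AddCommGroup MQ] [Module R' MQ] {ρ : M' →ₗ[R'] MQ} {𝔫 : Ideal A}
    (h : s59b_TStepWJ LH LH' g11 g12 g21 g22 B ρ 𝔫) {b : A} (hb : b ∈ Ideal.span B) :
    s59b_TStepW LH LH' g11 g12 g21 g22 b ρ 𝔫 := by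
  obtain ⟨i, tr, i₀, hG, hi, hIh, hTw, hρker, h𝔫⟩ := h.ex
  refine ⟨h.hφ, i, tr, i₀, hG, hi, hIh, ?_, hρker, h𝔫⟩
  refine Submodule.span_induction (p := fun b _ => ∀ u v : LH.N, ∃ z : LH'.N,
    tr z = b • ((u, v) : LH.N × LH.N)) ?_ ?_ ?_ ?_ hb
  · intro b hb u v
    exact hTw b hb u v
  · intro u v
    exact ⟨0, by rw [map_zero, zero_smul]⟩
  · intro x y _ _ hx hy u v
    obtain ⟨z₁, h₁⟩ := hx u v
    obtain ⟨z₂, h₂⟩ := hy u v
    exact ⟨z₁ + z₂, by rw [map_add, h₁, h₂, add_smul]⟩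
  · intro a x _ hx u v
    obtain ⟨z, hz⟩ := hx u v
    exact ⟨a • z, by rw [map_smul, hz, smul_smul, smul_eq_mul]⟩

/-- helper4's STRONG contract gives the weak one, for every set of marked elements. -/
theorem s59b_TStepWJ_of_TStep {S : Type} [CommRing S] [IsLocalRing S] {A : Type} [CommRing A]
    [IsLocalRing A]
    {R : Type} [CommRing R] {M : Type} [AddCommGroup M] [Module R M]
    {R' : Type} [CommRing R'] {M' : Type} [AddCommGroup M'] [Module R' M'] {𝔞 J : Ideal S}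
    {LH : s59p_Level S A R M 𝔞 J} {LH' : s59p_Level S A R' M' 𝔞 J} {g11 g12 g21 g22 : A}
    {MQ : Type} [AddCommGroup MQ] [Module R' MQ] {ρ : M' →ₗ[R'] MQ} {𝔫 : Ideal A}
    (h𝔞 : 𝔞 ≤ maximalIdeal S) (hloc : (maximalIdeal S).map LH.φ ≤ maximalIdeal A)
    (h : s59f_TStep LH LH' g11 g12 g21 g22 ρ 𝔫) (B : Set A) :
    s59b_TStepWJ LH LH' g11 g12 g21 g22 B ρ 𝔫 := by
  obtain ⟨i, tr, i₀, tr₀, hG, hi, htr, hIh, hIh', hρker, h𝔫⟩ := h.ex
  have htrs : Function.Surjective tr :=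
    s59f_tr_surj LH LH' ((maximalIdeal S).map LH.φ) hloc (Ideal.map_mono h𝔞) tr tr₀ htr hIh'
  exact ⟨h.hφ, i, tr, i₀, hG, hi, hIh, fun b _ u v => htrs _, hρker, h𝔫⟩

/-- **the `T`-side of [PATCH-FLR] at the Taylor–Wiles level `n`, WEAK trace clause**: verbatim
helper4's `s59f_TLevelF` except for the field `hT` (`s59b_TStepWJ` instead of `s59f_TStep`) and the
extra parameter `Jm ⊆ DQ.R` (for us: the kernel of `R^{str}_{Q_n} ↠ R^{str ∧ flat}_{Q_n}`). -/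
structure s59b_TLevelFW (𝒪 : Type) [CommRing 𝒪] [IsDomain 𝒪] [IsDiscreteValuationRing 𝒪]
    [IsAdicComplete (maximalIdeal 𝒪) 𝒪] (p n r : ℕ) (σ : Type) (k : ℕ)
    {ρbar : ResidualGaloisRep (ResidueField 𝒪)}
    {𝒟₀ : ∀ ⦃A : Type⦄ [CommRing A] [IsLocalRing A] [Algebra 𝒪 A], GaloisRepAdic A → Prop}
    {D0 : GaloisRep.DeformationRingData 𝒪 ρbar 𝒟₀} (Bs : s59f_TBaseF 𝒪 k D0)
    (qv : Fin r → ℕ) (qr : ℕ → ℕ) (φr σr : ℕ → Γℚ)
    {𝒟 : ∀ ⦃A : Type⦄ [CommRing A] [IsLocalRing A] [Algebra 𝒪 A], GaloisRepAdic A → Prop}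
    (DQ : GaloisRep.DeformationRingData 𝒪 ρbar 𝒟) (Jm : Set DQ.R) : Type 1 where
  /-- the TRACE ring -/
  T' : Type
  [iT'1 : CommRing T']
  [iT'2 : IsLocalRing T']
  [iT'3 : IsNoetherianRing T']
  [iT'4 : IsAdicComplete (maximalIdeal T') T']
  [iT'5 : Algebra 𝒪 T']
  [iT'6 : IsReduced T']
  htf : ∀ o : 𝒪, o ≠ 0 → ∀ x : T', algebraMap 𝒪 T' o * x = 0 → x = 0
  /-- the TOP Hecke ring `T_k(n) ⊇ T′` with the square roots of the diamond operators -/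
  T : Type
  [iT1 : CommRing T]
  [iT2 : IsLocalRing T]
  [iT4 : IsAdicComplete (maximalIdeal T) T]
  [iT5 : Algebra 𝒪 T]
  [iT6 : Algebra T' T]
  [iT7 : IsScalarTower 𝒪 T' T]
  [iT8 : Module.Finite T' T]
  hlocT : ∀ a ∈ maximalIdeal T', algebraMap T' T a ∈ maximalIdeal T
  θ : DQ.R →ₐ[𝒪] T'
  hθ : Function.Surjective θ
  /-- the levels `N_t Q_n`, all over `T⟦z⟧` -/
  L0 : ∀ t, s59p_Level (MvPowerSeries σ (MvPowerSeries (Fin r) 𝒪)) (MvPowerSeries σ T)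
    (Bs.R t) (Bs.M t)
    (s59t_frameA σ (RingHom.ker (constantCoeff (σ := Fin r) (R := 𝒪))))
    (s59t_frameJ σ (s59t_JH 𝒪 p n r))
  hd : ∀ t, (L0 t).d = Bs.d t
  std : MvPowerSeries σ (MvPowerSeries (Fin r) 𝒪) →ₐ[𝒪] MvPowerSeries σ T
  hstd : ∀ t x, (L0 t).φ x = std x
  hψ𝒪 : ∀ t (o : 𝒪), (L0 t).ψ (algebraMap 𝒪 (MvPowerSeries σ T) o) = algebraMap 𝒪 (Bs.R t) o
  uu : Fin r → Tˣ
  huu : ∀ i, ((uu i : Tˣ) : T) - 1 ∈ maximalIdeal T
  hgen : Algebra.adjoin T' (Set.range (fun i => ((uu i : Tˣ) : T)) ∪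
    Set.range (fun i => (((uu i)⁻¹ : Tˣ) : T))) = ⊤
  hstdX : ∀ i, std (C (X i)) = C (((uu i : Tˣ) : T) - (((uu i)⁻¹ : Tˣ) : T))
  hstdz : ∀ j, std (X j) = X j
  /-- the inertia elements at the Taylor–Wiles primes (may depend on the level `t`) -/
  σQ : ℕ → Fin r → Γℚ
  hσQ : ∀ t i, ∃ A : ValuationSubring (AlgebraicClosure ℚ), A.LiesOverPrime (qv i) ∧
    σQ t i ∈ A.inertiaSubgroupIn ℚ
  /-- [C8] on every level module -/
  hC8 : ∀ t, t ≤ k → ∀ i, (C ((((uu i : Tˣ) : T) - (((uu i)⁻¹ : Tˣ) : T)) ^ 2 -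
      algebraMap T' T (θ (s59i_cpTr DQ.ρ (σQ t i) ^ 2 - 4))) : MvPowerSeries σ T) ∈
    Module.annihilator (MvPowerSeries σ T) (L0 t).N
  /-- the common trace function -/
  hτ : ∀ t g, (L0 t).ψ (C (algebraMap T' T (θ (s59i_cpTr DQ.ρ g)))) = s59i_cpTr (Bs.ρR t) g
  /-- the steps, WEAK trace clause: every `C (θ x)`, `x ∈ Jm`, kills the cokernel of `tr` -/
  hT : ∀ t, t < k → s59b_TStepWJ (L0 t) (L0 (t + 1))
    (C ((qr t : ℕ) : T) + 1 : MvPowerSeries σ T)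
    (C (algebraMap T' T (θ (s59i_cpTr DQ.ρ (φr t)))))
    (C (algebraMap T' T (θ (s59i_cpTr DQ.ρ (φr t)))))
    (C ((qr t : ℕ) : T) + 1 : MvPowerSeries σ T)
    ((fun x : DQ.R => (C (algebraMap T' T (θ x)) : MvPowerSeries σ T)) '' Jm)
    (Bs.ρ t)
    (Ideal.span {(((C ((qr t : ℕ) : T) + 1 : MvPowerSeries σ T)) ^ 2 -
      (C (algebraMap T' T (θ (s59i_cpTr DQ.ρ (φr t)))) : MvPowerSeries σ T) ^ 2) ^ 2})
  /-- the base level `N_0 Q_n` is unramified at the raising primes -/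
  hunr0 : ∀ l, l < k → ∀ (f : Module.Dual DQ.R DQ.ρ.V) (v : DQ.ρ.V),
    (C (algebraMap T' T (θ (f (DQ.ρ.ρ (σr l) v - v)))) : MvPowerSeries σ T) ∈
      Module.annihilator (MvPowerSeries σ T) (L0 0).N

attribute [instance] s59b_TLevelFW.iT'1 s59b_TLevelFW.iT'2 s59b_TLevelFW.iT'3 s59b_TLevelFW.iT'4
  s59b_TLevelFW.iT'5 s59b_TLevelFW.iT'6 s59b_TLevelFW.iT1 s59b_TLevelFW.iT2 s59b_TLevelFW.iT4
  s59b_TLevelFW.iT5 s59b_TLevelFW.iT6 s59b_TLevelFW.iT7 s59b_TLevelFW.iT8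

section Adapter

variable {𝒪 : Type} [CommRing 𝒪] [IsDomain 𝒪] [IsDiscreteValuationRing 𝒪]
  [IsAdicComplete (maximalIdeal 𝒪) 𝒪] {p n r : ℕ} {σ : Type} {k : ℕ}
  {ρbar : ResidualGaloisRep (ResidueField 𝒪)}
  {𝒟₀ : ∀ ⦃A : Type⦄ [CommRing A] [IsLocalRing A] [Algebra 𝒪 A], GaloisRepAdic A → Prop}
  {D0 : GaloisRep.DeformationRingData 𝒪 ρbar 𝒟₀} {Bs : s59f_TBaseF 𝒪 k D0}
  {qv : Fin r → ℕ} {qr : ℕ → ℕ} {φr σr : ℕ → Γℚ}
  {𝒟 : ∀ ⦃A : Type⦄ [CommRing A] [IsLocalRing A] [Algebra 𝒪 A], GaloisRepAdic A → Prop}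
  {DQ : GaloisRep.DeformationRingData 𝒪 ρbar 𝒟}

/-- the marked element `γT bP` lies in the span of the `C (θ x)`, `x ∈ Jm`, as soon as `γ bP` lies in
the span of the `C x`, `x ∈ Jm`. -/
theorem s59b_gammaT_mem_span {P B T' T : Type} [CommRing P] [CommRing B] [CommRing T']
    [CommRing T] [Algebra T' T] {σ : Type} (γ : P →+* MvPowerSeries σ B) (θ : B →+* T')
    (Jm : Set B) (bP : P)
    (hb : γ bP ∈ Ideal.span ((fun x : B => (C x : MvPowerSeries σ B)) '' Jm)) :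
    s59f_gammaT (T := T) γ θ bP ∈
      Ideal.span ((fun x : B => (C (algebraMap T' T (θ x)) : MvPowerSeries σ T)) '' Jm) := by
  rw [s59f_gammaT_apply]
  have h1 := Ideal.mem_map_of_mem (MvPowerSeries.map (σ := σ) θ) hb
  have h2 := Ideal.mem_map_of_mem (MvPowerSeries.map (σ := σ) (algebraMap T' T)) h1
  rw [Ideal.map_span, Ideal.map_span] at h2
  refine Ideal.span_mono ?_ h2
  rintro _ ⟨_, ⟨_, ⟨x, hx, rfl⟩, rfl⟩, rfl⟩
  refine ⟨x, hx, ?_⟩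
  show _ = MvPowerSeries.map (algebraMap T' T) (MvPowerSeries.map θ (C x))
  rw [MvPowerSeries.map_C, MvPowerSeries.map_C]

/-- **the hypothesis `hT` of the abstract weak theorem** from the weak `T`-side package and the
mark `γ bP ∈ span (C '' Jm)`. -/
theorem s59b_TLevelFW.hTγ {Jm : Set DQ.R}
    (TL : s59b_TLevelFW 𝒪 p n r σ k Bs qv qr φr σr DQ Jm)
    {P : Type} [CommRing P] (γ : P →+* MvPowerSeries σ DQ.R) (bP : P)
    (hb : γ bP ∈ Ideal.span ((fun x : DQ.R => (C x : MvPowerSeries σ DQ.R)) '' Jm))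
    (t : ℕ) (ht : t < k) :
    s59b_TStepW (TL.L0 t) (TL.L0 (t + 1))
      (C ((qr t : ℕ) : TL.T) + 1 : MvPowerSeries σ TL.T)
      (C (algebraMap TL.T' TL.T (TL.θ (s59i_cpTr DQ.ρ (φr t)))))
      (C (algebraMap TL.T' TL.T (TL.θ (s59i_cpTr DQ.ρ (φr t)))))
      (C ((qr t : ℕ) : TL.T) + 1 : MvPowerSeries σ TL.T)
      (s59f_gammaT (T := TL.T) γ (TL.θ : DQ.R →+* TL.T') bP)
      (Bs.ρ t)
      (Ideal.span {(((C ((qr t : ℕ) : TL.T) + 1 : MvPowerSeries σ TL.T)) ^ 2 -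
        (C (algebraMap TL.T' TL.T (TL.θ (s59i_cpTr DQ.ρ (φr t)))) : MvPowerSeries σ TL.T) ^ 2) ^ 2}) :=
  s59b_TStepW_of_J (TL.hT t ht) (s59b_gammaT_mem_span γ (TL.θ : DQ.R →+* TL.T') Jm bP hb)

end Adapter

end Fermat.Agent.Lib.S59
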