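/-
PROGRAMME R2 = S59, case (P) non-minimal, the WALL, leaf (K2)(b) of helper7's #3954/#3966 (helper2,
prefix `s59b_`): **two-prime commutation of the level maps at `Γ_H`-level, abstract layer, part 1.**

Setting (helper4's FOldH2–FOldH8): a level `L`, `H ≤ (ℤ/L)ˣ`, two DISTINCT primes `p, q ∤ L`, levels
`Np` (`L ∣ Np`, `p ∣ Np`, `q ∤ Np`), `Nq` (`L ∣ Nq`, `p ∤ Nq`), four groups
  `G  = Γ_H(L)`,   `Gp = Γ_{Hp}(Np)` (= the elements of `G` with `p ∣ γ₁₀`),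
  `Gq = Γ_{Hq}(Nq)`,   `Gpq` (= the elements of `Gp` with `q ∣ γ₁₀` = the elements of `Gq` with `p ∣ γ₁₀`).
* `s59b_corH_corH` : **(cc)** `cor_p ∘ cor_q' = cor_q ∘ cor_p'` on `Hom(Gpq, A)`
  (both are the transfer `Gpq → G`: product families + independence of the representatives);
* `s59b_WDatumX`   : the Atkin–Lehner matrix `W_{Np, q}` of the UPPER level as a matrix datum on the
  LOWER group `Gq` (`W_{Np,q} = g_X W_{L,q}`, `g_X ∈ Gq`); `s59b_WDatumX_heckeHom` : its operator is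
  the Atkin–Lehner operator `w_q` of the lower level;
* `s59b_corH_wH`   : **(cw)** `cor_p' ∘ w_q' = w_q ∘ cor_p'` (`Hom(Gpq, A) → Hom(Gq, A)`).
-/
import Mathlib
import Fermat.Agent.Lib.S59.FOldH8

set_option autoImplicit false
set_option linter.unusedSectionVars false
set_option linter.unusedVariables false
set_option linter.style.haveILetI false

noncomputable section

namespace Fermat.Agent.Lib.S59

open CongruenceSubgroup ModularCurve.Period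
open Fermat.Agent.Lib.ES Fermat.Agent.Lib.S29 Fermat.Agent.Lib.S41 Fermat.Agent.Lib.S48
open scoped MatrixGroups

local notation "Mat2" => Matrix (Fin 2) (Fin 2) ℤ

section CC

variable {L p q Np Nq : ℕ} [NeZero L] [NeZero Np] [NeZero Nq] [hp : Fact p.Prime]
  [hq : Fact q.Prime]
  (hpL : ¬ p ∣ L) (hqL : ¬ q ∣ L) (hpNq : ¬ p ∣ Nq) (hqNp : ¬ q ∣ Np)
  (hLNp : L ∣ Np) (hLNq : L ∣ Nq)
  {H : Subgroup (ZMod L)ˣ} {Hp : Subgroup (ZMod Np)ˣ} {Hq : Subgroup (ZMod Nq)ˣ}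
  {G Gp Gq Gpq : Subgroup SL(2, ℤ)}
  (hG : s59f_IsG L H G)
  (hGp : s59f_IsG' L p H Gp) (hGp0 : s59f_IsG Np Hp Gp)
  (hGq : s59f_IsG' L q H Gq) (hGq0 : s59f_IsG Nq Hq Gq)
  (hGpq_p : s59f_IsG' Nq p Hq Gpq) (hGpq_q : s59f_IsG' Np q Hp Gpq)

include hLNp hGp0 hGpq_q hGp in
/-- the product family `r^q_y(Np) · r^p_x(L)` of `cor_p ∘ cor_q'` has pairwise distinct cosets. -/
theorem s59b_prod_inj (y y' : OnePoint (ZMod q)) (x x' : OnePoint (ZMod p)) (h : Gpq)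
    (e : s59f_rA Np q hqNp y * s59f_rA L p hpL x =
      s59f_i Gpq h * (s59f_rA Np q hqNp y' * s59f_rA L p hpL x')) : y = y' ∧ x = x' := by
  have hle : Gpq ≤ Gp := hGpq_q.le hGp0
  -- `r^p_x = (a⁻¹ h a') r^p_x'` with `a = r^q_y`, `a' = r^q_y'` in `Gp`
  set a : Gp := s59f_rhoA hqNp hGp0 y with ha
  set a' : Gp := s59f_rhoA hqNp hGp0 y' with ha'
  have hia : s59f_i Gp a = s59f_rA Np q hqNp y := rfl
  have hia' : s59f_i Gp a' = s59f_rA Np q hqNp y' := rfl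
  set h' : Gp := ⟨(h : SL(2, ℤ)), hle h.2⟩ with hh'
  have hih' : s59f_i Gp h' = s59f_i Gpq h := rfl
  have e1 : s59f_rA L p hpL x = s59f_i Gp (a⁻¹ * h' * a') * s59f_rA L p hpL x' := by
    rw [map_mul, map_mul, Matrix.mul_assoc, Matrix.mul_assoc, hih', hia', ← e, ← hia,
      s59f_i_inv_mul_cancel_left]
  have hx : x = x' := s59f_rA_inj hpL hGp x x' _ e1
  subst hx
  refine ⟨?_, rfl⟩
  have e2 : s59f_rA Np q hqNp y = s59f_i Gpq h * s59f_rA Np q hqNp y' := by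
    refine s48h_mul_right_cancel (M := s59f_rA L p hpL x)
      (by rw [s59f_rA_det]; exact one_ne_zero) ?_
    rw [e, Matrix.mul_assoc]
  exact s59f_rA_inj hqNp hGpq_q y y' h e2

include hLNp in
/-- the family of `cor_p ∘ cor_q'`: representatives `r^q_y(Np) · r^p_x(L)`. -/
def s59b_famCC : s41l_Fam (s59f_i Gpq) (s59f_i G) (OnePoint (ZMod q) × OnePoint (ZMod p)) :=
  (s59f_famCorA hqNp hGp0 hGpq_q).prod (s59f_famCorA hpL hG hGp)
    (fun y y' x x' h e => s59b_prod_inj hpL hqNp hLNp hGp hGp0 hGpq_q y y' x x' h e)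

include hLNp in
theorem s59b_famCC_op {A : Type*} [AddCommGroup A] (ψ : Additive Gpq →+ A) :
    (s59b_famCC hpL hqNp hLNp hG hGp hGp0 hGpq_q).op A ψ =
      s59f_corH hpL hG hGp A (s59f_corH hqNp hGp0 hGpq_q A ψ) :=
  s41l_Fam.op_prod _ _ _ ψ

include hLNp hGq hGq0 hGpq_p in
/-- every representative of `cor_p ∘ cor_q'` lies in a coset of a representative of
`cor_q ∘ cor_p'`. -/
theorem s59b_prod_dec (y : OnePoint (ZMod q)) (x : OnePoint (ZMod p)) :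
    ∃ (x' : OnePoint (ZMod p)) (y' : OnePoint (ZMod q)) (h : Gpq),
      s59f_rA Nq p hpNq x' * s59f_rA L q hqL y' =
        s59f_i Gpq h * (s59f_rA Np q hqNp y * s59f_rA L p hpL x) := by
  set m : Mat2 := s59f_rA Np q hqNp y * s59f_rA L p hpL x with hm
  have hdet : m.det = 1 := by rw [hm, Matrix.det_mul, s59f_rA_det, s59f_rA_det, mul_one]
  have hcls : s59f_cls L H 1 m := by
    have := s59f_cls_mul (s59f_rA_clsX hqNp H hLNp y) (s59f_rA_cls L p hpL H x)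
    simpa using this
  obtain ⟨y', h₁, e₁⟩ := s59f_dec_A hqL hGq m hdet hcls
  obtain ⟨x', h₂, e₂⟩ := s59f_dec_A hpNq hGpq_p (s59f_i Gq h₁) (s59f_i_det Gq h₁) (hGq0.cls h₁)
  refine ⟨x', y', h₂⁻¹, ?_⟩
  rw [e₁, e₂, Matrix.mul_assoc, ← Matrix.mul_assoc, ← map_mul, inv_mul_cancel, map_one,
    Matrix.one_mul]

include hLNp hLNq in
/-- **(cc)**: `cor_p ∘ cor_q' = cor_q ∘ cor_p'`. -/
theorem s59b_corH_corH {A : Type*} [AddCommGroup A] (ψ : Additive Gpq →+ A) :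
    s59f_corH hpL hG hGp A (s59f_corH hqNp hGp0 hGpq_q A ψ) =
      s59f_corH hqL hG hGq A (s59f_corH hpNq hGq0 hGpq_p A ψ) := by
  rw [← s59b_famCC_op hpL hqNp hLNp hG hGp hGp0 hGpq_q ψ,
    ← s59b_famCC_op hqL hpNq hLNq hG hGq hGq0 hGpq_p ψ]
  refine (DFunLike.congr_fun (s41l_Fam.op_eq_of_cosets
    (s59b_famCC hpL hqNp hLNp hG hGp hGp0 hGpq_q) (s59b_famCC hqL hpNq hLNq hG hGq hGq0 hGpq_p) 1
    (fun m => by rw [one_mul, mul_one]) (fun a b hab => by rwa [one_mul, one_mul] at hab)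
    (by rw [Fintype.card_prod, Fintype.card_prod, mul_comm]) ?_) ψ).symm
  rintro ⟨y, x⟩
  obtain ⟨x', y', h, e⟩ := s59b_prod_dec hpL hqL hpNq hqNp hLNp hGq hGq0 hGpq_p y x
  exact ⟨(x', y'), h, by rw [one_mul]; exact e⟩

end CC

section CW

variable {L p q Np Nq : ℕ} [NeZero L] [NeZero Np] [NeZero Nq] [hp : Fact p.Prime]
  [hq : Fact q.Prime]
  (hqL : ¬ q ∣ L) (hpNq : ¬ p ∣ Nq) (hqNp : ¬ q ∣ Np)
  (hLNp : L ∣ Np) (hpNp : p ∣ Np) (hpq : p ≠ q)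
  {H : Subgroup (ZMod L)ˣ} {Hp : Subgroup (ZMod Np)ˣ} {Hq : Subgroup (ZMod Nq)ˣ}
  {Gq Gpq : Subgroup SL(2, ℤ)}
  (hGq : s59f_IsG' L q H Gq) (hGq0 : s59f_IsG Nq Hq Gq)
  (hGpq_p : s59f_IsG' Nq p Hq Gpq) (hGpq_q : s59f_IsG' Np q Hp Gpq)

include hLNp in
/-- `W_{Np,q} γ = (g_X c_W(γ) g_X⁻¹) W_{Np,q}` for `γ ∈ Gq`. -/
theorem s59b_WX_ex (γ : Gq) :
    s41l_W Np q hqNp * s59f_i Gq γ =
      s59f_i Gq (s59f_gXel hqL hqNp hLNp hGq * s59f_cW hqL hGq γ *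
        (s59f_gXel hqL hqNp hLNp hGq)⁻¹) * s41l_W Np q hqNp := by
  have hX := s59f_gX_mul hqL hqNp
  have h1 := s59f_cW_spec hqL hGq γ
  have h2 : s59f_i Gq (s59f_gXel hqL hqNp hLNp hGq)⁻¹ * s41l_W Np q hqNp = s41l_W L q hqL := by
    rw [← hX, ← s59f_i_gXel hqL hqNp hLNp hGq, s59f_i_inv_mul_cancel_left]
  rw [map_mul, map_mul, Matrix.mul_assoc, h2, Matrix.mul_assoc, ← h1, ← Matrix.mul_assoc,
    s59f_i_gXel, hX]

/-- **the Atkin–Lehner matrix of the upper level `Np` as a matrix datum on the lower group `Gq`.** -/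
def s59b_WDatumX : s48h_MatDatum Gq Unit where
  α _ := s41l_W Np q hqNp
  det_ne _ := s59f_W_det_ne hqNp
  perm _ := 1
  perm_mul _ _ _ := rfl
  ex γ _ := ⟨s59f_gXel hqL hqNp hLNp hGq * s59f_cW hqL hGq γ *
    (s59f_gXel hqL hqNp hLNp hGq)⁻¹, s59b_WX_ex hqL hqNp hLNp hGq γ⟩

include hLNp in
/-- its operator is the Atkin–Lehner operator of the lower level. -/
theorem s59b_WDatumX_heckeHom {A : Type*} [AddCommGroup A] (φ : Additive Gq →+ A) :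
    (s59b_WDatumX hqL hqNp hLNp hGq).heckeHom A φ = s59f_wH hqL hGq A φ := by
  refine AddMonoidHom.ext fun a => ?_
  obtain ⟨γ, rfl⟩ := Additive.ofMul.surjective a
  rw [s59f_wH_apply, (s59b_WDatumX hqL hqNp hLNp hGq).heckeHom_apply_of_family φ γ
    (fun _ => s59f_gXel hqL hqNp hLNp hGq * s59f_cW hqL hGq γ *
      (s59f_gXel hqL hqNp hLNp hGq)⁻¹) (fun _ => s59b_WX_ex hqL hqNp hLNp hGq γ)]
  rw [Fintype.sum_unique, ofMul_mul, ofMul_mul, map_add, map_add, ofMul_inv, map_neg]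
  abel

include hLNp hpNp hpq in
/-- **(cw)**: the transfer at `p` intertwines the Atkin–Lehner operators at `q` of the two levels. -/
theorem s59b_corH_wH {A : Type*} [AddCommGroup A] (ψ : Additive Gpq →+ A) :
    s59f_corH hpNq hGq0 hGpq_p A (s59f_wH hqNp hGpq_q A ψ) =
      s59f_wH hqL hGq A (s59f_corH hpNq hGq0 hGpq_p A ψ) := by
  have hirr : ∀ {Γ : Subgroup SL(2, ℤ)} (D : s48h_MatDatum Γ Unit), s59w_Irred D :=
    fun D x y k _ => Subsingleton.elim x y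
  rw [← s59b_WDatumX_heckeHom hqL hqNp hLNp hGq]
  refine s59f_corH_datum hpNq hGq0 hGpq_p (s59b_WDatumX hqL hqNp hLNp hGq)
    (s59f_WDatum hqNp hGpq_q) (fun _ => rfl) (hirr _) (hirr _) (fun _ => ?_) ψ
  show (p : ℤ) ∣ (s41l_W Np q hqNp) 1 0 ∧ ¬ (p : ℤ) ∣ (s41l_W Np q hqNp) 1 1
  have h10 : (s41l_W Np q hqNp) 1 0 = (q : ℤ) * (Np : ℤ) := by rw [s41l_W]; rfl
  have h11 : (s41l_W Np q hqNp) 1 1 = (q : ℤ) := by rw [s41l_W]; rfl
  rw [h10, h11]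
  refine ⟨Dvd.dvd.mul_left (Int.natCast_dvd_natCast.mpr hpNp) _, ?_⟩
  intro h
  have h1 : p ∣ q := Int.natCast_dvd_natCast.mp h
  exact hpq ((Nat.prime_dvd_prime_iff_eq hp.out hq.out).mp h1)

end CW

end Fermat.Agent.Lib.S59
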