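/-
PROGRAMME R2 = S59, case (P) non-minimal, the WALL, leaf (K2)(b) (helper2, prefix `s59b_`):
**two-prime commutation of the level maps at `Γ_H`-level, abstract layer, part 2: the two
Atkin–Lehner operators commute.**

Setting of `B9TwoPrA.lean`, with `Np = L p`, `Nq = L q` on the nose.
* `s59b_conjW_entry…` : the entries of helper4's `s59f_conjW` (`W⁻¹ m W`);
* `s59b_conjW_clsX`  : the conjugate by `W_{N,q}` has the same class at every level `L₀ ∣ N`;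
* `s59b_decW`        : a matrix whose first column is divisible by `p` is `k · W_{N,p}`, `k` explicit;
* `s59b_mem_Gpq`     : `γ ∈ Gpq ↔ p ∣ γ₁₀ ∧ q ∣ γ₁₀ ∧ cls_{L,H} 1 γ`;
* `s59b_W_conj_dec`  : `W_q⁻¹ W_p W_q = k' W_p` with `k' ∈ Gpq`;
* **`s59b_wH_wH_comm`** : **(ww)** `w_q ∘ w_p = w_p ∘ w_q` on `Hom(Gpq, A)`.
-/
import Mathlib
import Fermat.Agent.Lib.S59.B9TwoPrA

set_option autoImplicit false
set_option linter.unusedSectionVars false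
set_option linter.unusedVariables false
set_option linter.style.haveILetI false

noncomputable section

namespace Fermat.Agent.Lib.S59

open CongruenceSubgroup ModularCurve.Period
open Fermat.Agent.Lib.ES Fermat.Agent.Lib.S29 Fermat.Agent.Lib.S41 Fermat.Agent.Lib.S48
open scoped MatrixGroups

local notation "Mat2" => Matrix (Fin 2) (Fin 2) ℤ

section Entries

variable {L q : ℕ} [NeZero L] [hq : Fact q.Prime] (hqL : ¬ q ∣ L)

theorem s59b_conjW_00 (m : Mat2) (c' : ℤ) :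
    (s59f_conjW hqL m c') 0 0 = ((q : ℤ) * m 0 0 + s41l_s L q hqL * m 1 0) * s41l_t L q hqL +
        ((q : ℤ) * m 0 1 + s41l_s L q hqL * m 1 1) * (L : ℤ) := by
  rw [s59f_conjW]; rfl

theorem s59b_conjW_01 (m : Mat2) (c' : ℤ) :
    (s59f_conjW hqL m c') 0 1 = -(m 0 0 * s41l_s L q hqL) + (q : ℤ) * m 0 1 +
      s41l_s L q hqL * m 1 1 - s41l_s L q hqL ^ 2 * c' := by
  rw [s59f_conjW]; rfl

theorem s59b_conjW_10 (m : Mat2) (c' : ℤ) :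
    (s59f_conjW hqL m c') 1 0 =
      (q : ℤ) * ((L : ℤ) * (s41l_t L q hqL * (m 1 1 - m 0 0) - (L : ℤ) * m 0 1) +
        s41l_t L q hqL ^ 2 * m 1 0) := by
  rw [s59f_conjW]; rfl

theorem s59b_conjW_11 (m : Mat2) (c' : ℤ) :
    (s59f_conjW hqL m c') 1 1 = (L : ℤ) * s41l_s L q hqL * m 0 0 -
      s41l_t L q hqL * s41l_s L q hqL * m 1 0 - (L : ℤ) * (q : ℤ) * m 0 1 +
        s41l_t L q hqL * (q : ℤ) * m 1 1 := by
  rw [s59f_conjW]; rfl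

theorem s59b_W_00 : (s41l_W L q hqL) 0 0 = (q : ℤ) * s41l_t L q hqL := by rw [s41l_W]; rfl

theorem s59b_W_01 : (s41l_W L q hqL) 0 1 = -s41l_s L q hqL := by rw [s41l_W]; rfl

theorem s59b_W_10 : (s41l_W L q hqL) 1 0 = (q : ℤ) * (L : ℤ) := by rw [s41l_W]; rfl

theorem s59b_W_11 : (s41l_W L q hqL) 1 1 = (q : ℤ) := by rw [s41l_W]; rfl

/-- `q t ≡ 1` modulo every divisor `L₀` of `L`. -/
theorem s59b_qt_castX {L₀ : ℕ} (hL : L₀ ∣ L) :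
    (((q : ℤ) * s41l_t L q hqL : ℤ) : ZMod L₀) = 1 := by
  obtain ⟨k, hk⟩ := hL
  have hst := s41l_st L q hqL
  have hLz : (L : ℤ) = (L₀ : ℤ) * (k : ℤ) := by rw [hk]; push_cast; ring
  have e : (q : ℤ) * s41l_t L q hqL = 1 - (L₀ : ℤ) * ((k : ℤ) * s41l_s L q hqL) := by
    linear_combination hst - s41l_s L q hqL * hLz
  rw [e, Int.cast_sub, Int.cast_one, Int.cast_mul, Int.cast_natCast, ZMod.natCast_self, zero_mul,
    sub_zero]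

/-- **the conjugate `W⁻¹ m W` has the same class at every level `L₀ ∣ L`.** -/
theorem s59b_conjW_clsX {L₀ : ℕ} [NeZero L₀] (hL : L₀ ∣ L) {H₀ : Subgroup (ZMod L₀)ˣ}
    (m : Mat2) (c' : ℤ) {c : (ZMod L₀)ˣ} (hm : s59f_cls L₀ H₀ c m) :
    s59f_cls L₀ H₀ c (s59f_conjW hqL m c') := by
  obtain ⟨⟨e, he⟩, u, hu, hmu⟩ := hm
  obtain ⟨k, hk⟩ := hL
  have hLz : (L : ℤ) = (L₀ : ℤ) * (k : ℤ) := by rw [hk]; push_cast; ring
  refine ⟨?_, u, hu, ?_⟩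
  · rw [s59b_conjW_10, he, hLz]
    exact ⟨(q : ℤ) * ((k : ℤ) * (s41l_t L q hqL * (m 1 1 - m 0 0) - (L₀ : ℤ) * (k : ℤ) * m 0 1) +
      s41l_t L q hqL ^ 2 * e), by ring⟩
  · have h1 : (s59f_conjW hqL m c') 0 0 = ((q : ℤ) * s41l_t L q hqL) * m 0 0 +
        (L₀ : ℤ) * (s41l_s L q hqL * e * s41l_t L q hqL +
          (k : ℤ) * ((q : ℤ) * m 0 1 + s41l_s L q hqL * m 1 1)) := by
      rw [s59b_conjW_00, he, hLz]
      ring
    rw [h1, Int.cast_add, Int.cast_mul, s59b_qt_castX hqL ⟨k, hk⟩, one_mul,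
      Int.cast_mul (L₀ : ℤ), Int.cast_natCast, ZMod.natCast_self, zero_mul, add_zero]
    exact hmu

/-- **a matrix whose first column is divisible by `q` is a left multiple of `W`.** -/
theorem s59b_decW (m : Mat2) (a c : ℤ) (h00 : m 0 0 = (q : ℤ) * a) (h10 : m 1 0 = (q : ℤ) * c) :
    m = !![(q : ℤ) * a - m 0 1 * (L : ℤ), a * s41l_s L q hqL + m 0 1 * s41l_t L q hqL;
      (q : ℤ) * c - m 1 1 * (L : ℤ), c * s41l_s L q hqL + m 1 1 * s41l_t L q hqL] *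
      s41l_W L q hqL := by
  have hst := s41l_st L q hqL
  have hm : m = !![m 0 0, m 0 1; m 1 0, m 1 1] := Matrix.eta_fin_two m
  rw [s41l_W, Matrix.mul_fin_two]
  conv_lhs => rw [hm]
  have e00 : m 0 0 = ((q : ℤ) * a - m 0 1 * (L : ℤ)) * ((q : ℤ) * s41l_t L q hqL) +
      (a * s41l_s L q hqL + m 0 1 * s41l_t L q hqL) * ((q : ℤ) * (L : ℤ)) := by
    rw [h00]
    linear_combination (-(q : ℤ) * a) * hst
  have e01 : m 0 1 = ((q : ℤ) * a - m 0 1 * (L : ℤ)) * (-s41l_s L q hqL) +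
      (a * s41l_s L q hqL + m 0 1 * s41l_t L q hqL) * (q : ℤ) := by
    linear_combination (-m 0 1) * hst
  have e10 : m 1 0 = ((q : ℤ) * c - m 1 1 * (L : ℤ)) * ((q : ℤ) * s41l_t L q hqL) +
      (c * s41l_s L q hqL + m 1 1 * s41l_t L q hqL) * ((q : ℤ) * (L : ℤ)) := by
    rw [h10]
    linear_combination (-(q : ℤ) * c) * hst
  have e11 : m 1 1 = ((q : ℤ) * c - m 1 1 * (L : ℤ)) * (-s41l_s L q hqL) +
      (c * s41l_s L q hqL + m 1 1 * s41l_t L q hqL) * (q : ℤ) := by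
    linear_combination (-m 1 1) * hst
  rw [← e00, ← e01, ← e10, ← e11]

end Entries

section WW

variable {L p q Np Nq : ℕ} [NeZero L] [NeZero Np] [NeZero Nq] [hp : Fact p.Prime]
  [hq : Fact q.Prime]
  (hpNq : ¬ p ∣ Nq) (hqNp : ¬ q ∣ Np) (hNp : Np = L * p) (hNq : Nq = L * q)
  {H : Subgroup (ZMod L)ˣ} {Hp : Subgroup (ZMod Np)ˣ} {Hq : Subgroup (ZMod Nq)ˣ}
  {Gp Gpq : Subgroup SL(2, ℤ)}
  (hGp : s59f_IsG' L p H Gp) (hGp0 : s59f_IsG Np Hp Gp)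
  (hGpq_p : s59f_IsG' Nq p Hq Gpq) (hGpq_q : s59f_IsG' Np q Hp Gpq)

include hGp hGp0 hGpq_q in
/-- `Gpq` in terms of the level `L`. -/
theorem s59b_mem_Gpq (γ : SL(2, ℤ)) :
    γ ∈ Gpq ↔ (q : ℤ) ∣ (γ : Mat2) 1 0 ∧ (p : ℤ) ∣ (γ : Mat2) 1 0 ∧ s59f_cls L H 1 (γ : Mat2) := by
  rw [hGpq_q γ, ← hGp0 γ, hGp γ]

include hNp hNq hGp hGp0 hGpq_q in
/-- **`W_q⁻¹ W_p W_q = k' W_p` with `k' ∈ Gpq`.** -/
theorem s59b_W_conj_dec :
    ∃ (m' : Mat2) (k' : Gpq), s41l_W Np q hqNp * m' = s41l_W Nq p hpNq * s41l_W Np q hqNp ∧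
      m' = s59f_i Gpq k' * s41l_W Nq p hpNq := by
  -- notation
  set s := s41l_s Nq p hpNq with hs
  set t := s41l_t Nq p hpNq with ht
  set s' := s41l_s Np q hqNp with hs'
  set t' := s41l_t Np q hqNp with ht'
  have hst : s * (Nq : ℤ) + t * (p : ℤ) = 1 := s41l_st Nq p hpNq
  have hst' : s' * (Np : ℤ) + t' * (q : ℤ) = 1 := s41l_st Np q hqNp
  have hNpz : (Np : ℤ) = (L : ℤ) * (p : ℤ) := by rw [hNp]; push_cast; ring
  have hNqz : (Nq : ℤ) = (L : ℤ) * (q : ℤ) := by rw [hNq]; push_cast; ring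
  set W := s41l_W Nq p hpNq with hW
  have w00 : W 0 0 = (p : ℤ) * t := s59b_W_00 hpNq
  have w01 : W 0 1 = -s := s59b_W_01 hpNq
  have w10 : W 1 0 = (p : ℤ) * (Nq : ℤ) := s59b_W_10 hpNq
  have w11 : W 1 1 = (p : ℤ) := s59b_W_11 hpNq
  -- the conjugate
  have hc' : W 1 0 = (q : ℤ) * ((p : ℤ) * (L : ℤ)) := by rw [w10, hNqz]; ring
  obtain ⟨m', hm'⟩ : ∃ m' : Mat2, m' = s59f_conjW hqNp W ((p : ℤ) * (L : ℤ)) := ⟨_, rfl⟩
  have hWm : s41l_W Np q hqNp * m' = W * s41l_W Np q hqNp :=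
    hm' ▸ s59f_W_mul_conjW hqNp W _ hc'
  have hdet : m'.det = (p : ℤ) := by
    rw [hm', s59f_conjW_det hqNp W _ hc', hW, s41l_W_det]
  -- the entries of the conjugate
  obtain ⟨a, ha⟩ : ∃ a : ℤ, a = ((q : ℤ) * t + s' * (Nq : ℤ)) * t' +
      (s' * (p : ℤ) - (q : ℤ) * s) * (L : ℤ) := ⟨_, rfl⟩
  obtain ⟨c, hc⟩ : ∃ c : ℤ, c = (q : ℤ) * ((L : ℤ) * (t' * ((p : ℤ) - (p : ℤ) * t) +
      (L : ℤ) * (p : ℤ) * s) + t' ^ 2 * (Nq : ℤ)) := ⟨_, rfl⟩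
  have m00 : m' 0 0 = (p : ℤ) * a := by
    rw [hm', s59b_conjW_00, w00, w01, w10, w11, ha, hNpz]
    ring
  have m10 : m' 1 0 = (p : ℤ) * c := by
    rw [hm', s59b_conjW_10, w00, w01, w10, w11, hc, hNpz]
    ring
  have m11 : m' 1 1 = (p : ℤ) * ((L : ℤ) * (p : ℤ) * s' * t - t' * s' * (Nq : ℤ) +
      (L : ℤ) * (q : ℤ) * s + t' * (q : ℤ)) := by
    rw [hm', s59b_conjW_11, w00, w01, w10, w11, hNpz]
    ring
  -- the class of the conjugate at the level `L`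
  have hLNp : L ∣ Np := ⟨p, hNp⟩
  have hLNq : L ∣ Nq := ⟨q, hNq⟩
  have hWcls : s59f_cls L H 1 W := by
    refine ⟨?_, 1, one_mem _, ?_⟩
    · rw [w10, hNqz]
      exact ⟨(p : ℤ) * (q : ℤ), by ring⟩
    · rw [w00, s59b_qt_castX hpNq hLNq]
      simp
  have hm'cls : s59f_cls L H 1 m' := hm' ▸ s59b_conjW_clsX hqNp hLNp W _ hWcls
  -- the decomposition
  obtain ⟨k, hk⟩ : ∃ k : Mat2, k = !![(p : ℤ) * a - m' 0 1 * (Nq : ℤ), a * s + m' 0 1 * t;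
      (p : ℤ) * c - m' 1 1 * (Nq : ℤ), c * s + m' 1 1 * t] := ⟨_, rfl⟩
  have hdec : m' = k * W := by
    rw [hk, hW]
    exact s59b_decW hpNq m' a c m00 m10
  have hkdet : k.det = 1 := by
    have h := congrArg Matrix.det hdec
    rw [Matrix.det_mul, hdet, hW, s41l_W_det] at h
    have hp0 : (p : ℤ) ≠ 0 := s41l_l_ne_zero p
    exact (mul_right_cancel₀ hp0 (by rw [one_mul]; exact h)).symm
  have k00 : k 0 0 = (p : ℤ) * a - m' 0 1 * (Nq : ℤ) := by rw [hk]; rfl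
  have k10 : k 1 0 = (p : ℤ) * c - m' 1 1 * (Nq : ℤ) := by rw [hk]; rfl
  have hkmem : (⟨k, hkdet⟩ : SL(2, ℤ)) ∈ Gpq := by
    refine (s59b_mem_Gpq hGp hGp0 hGpq_q (⟨k, hkdet⟩ : SL(2, ℤ))).mpr ?_
    show (q : ℤ) ∣ k 1 0 ∧ (p : ℤ) ∣ k 1 0 ∧ s59f_cls L H 1 k
    refine ⟨?_, ?_, ?_, ?_⟩
    · rw [k10, hc, hNqz]
      exact ⟨(p : ℤ) * ((L : ℤ) * (t' * ((p : ℤ) - (p : ℤ) * t) + (L : ℤ) * (p : ℤ) * s) +
        t' ^ 2 * ((L : ℤ) * (q : ℤ))) - m' 1 1 * (L : ℤ), by ring⟩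
    · rw [k10, m11]
      exact ⟨c - ((L : ℤ) * (p : ℤ) * s' * t - t' * s' * (Nq : ℤ) + (L : ℤ) * (q : ℤ) * s +
        t' * (q : ℤ)) * (Nq : ℤ), by ring⟩
    · rw [k10, hc, hNqz]
      exact ⟨(p : ℤ) * ((q : ℤ) * ((t' * ((p : ℤ) - (p : ℤ) * t) + (L : ℤ) * (p : ℤ) * s) +
        t' ^ 2 * (q : ℤ))) - m' 1 1 * (q : ℤ), by ring⟩
    · obtain ⟨-, u, hu, hmu⟩ := hm'cls
      refine ⟨u, hu, ?_⟩
      rw [k00, ← m00, hNqz, Int.cast_sub, Int.cast_mul, Int.cast_mul, Int.cast_natCast,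
        ZMod.natCast_self, zero_mul, mul_zero, sub_zero]
      exact hmu
  exact ⟨m', ⟨⟨k, hkdet⟩, hkmem⟩, hWm, hdec⟩

include hNp hNq hGp hGp0 in
/-- **(ww)**: the Atkin–Lehner operators at `p` and at `q` commute. -/
theorem s59b_wH_wH_comm {A : Type*} [AddCommGroup A] (ψ : Additive Gpq →+ A) :
    s59f_wH hqNp hGpq_q A (s59f_wH hpNq hGpq_p A ψ) =
      s59f_wH hpNq hGpq_p A (s59f_wH hqNp hGpq_q A ψ) := by
  refine s59f_wH_datum hqNp hGpq_q (s59f_WDatum hpNq hGpq_p) (m := 1)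
    (s59f_WDatum_irr hpNq hGpq_p 1) isCoprime_one_right (fun _ => ?_) ψ
  obtain ⟨m', k', hWm, hdec⟩ := s59b_W_conj_dec hpNq hqNp hNp hNq hGp hGp0 hGpq_q
  refine ⟨(), s59f_cW hqNp hGpq_q k', ?_⟩
  exact s59f_conj_of_dec hqNp hGpq_q (s41l_W Nq p hpNq) m' _ hWm k' hdec

end WW

end Fermat.Agent.Lib.S59
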