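/-
PROGRAMME R2 = S59, case (P) non-minimal, the WALL, leaf (K2)(b) of helper7's #3954/#3966 (helper2,
prefix `s59b_`): **two-prime commutation of helper4's old/new packages `s59f_oldN`.**

Levels `L`, `Np = L p`, `Nq = L q`, `Npq = Nq p = Np q` (`p ≠ q` primes not dividing `L`), groups
`Γ_H(L)`, `Γ_{Hp}(Np)`, `Γ_{Hq}(Nq)`, `Γ_{Hpq}(Npq)` linked by four `s59f_IsG'` hypotheses, the SAME
normalising element `ep` for the two `p`-packages and the SAME `eq` for the two `q`-packages: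
  `Dp_t     = s59f_oldN hpL  hNp    hGp    R A ep hep  heep`   (`L  → Np`),
  `Dp_{t+1} = s59f_oldN hpNq hNpq_p hGpq_p R A ep hep' heep'`  (`Nq → Npq`),
  `Dq♭      = s59f_oldN hqL  hNq    hGq    R A eq heq  heeq`   (`L  → Nq`),
  `Dqᵖ      = s59f_oldN hqNp hNpq_q hGpq_q R A eq heq' heeq'`  (`Np → Npq`).
* `s59b_wH_diamondN` : `w` commutes with the diamond operators at a level `N' = L q`;
* `s59b_corN_corN` (cc), `s59b_corN_wtN` (cw), `s59b_wtN_wtN_comm` (ww) at `H_par`-level;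
* **`s59b_oldN_compat_wt`** : `Dqᵖ.Compat Dp_t.w Dp_{t+1}.w`;
* **`s59b_oldN_cohomA`** : `s59f_OldHom Dqᵖ Dq♭ Dp_t.corA Dp_{t+1}.corA`;
* **`s59b_oldN_cohomB`** : `s59f_OldHom Dqᵖ Dq♭ Dp_t.corB Dp_{t+1}.corB`;
* `s59b_oldN_reshomA/B` : `s59f_OldHom Dq♭ Dqᵖ Dp_t.resA/B Dp_{t+1}.resA/B` (from `s59f_oldN_hom`);
* `s59b_OldHom_comp_compat`, `s59b_compat_comp_OldHom` : abstract composition remarks.
-/
import Mathlib
import Fermat.Agent.Lib.S59.FEps4
import Fermat.Agent.Lib.S59.WComm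
import Fermat.Agent.Lib.S59.B9TwoPrB

set_option autoImplicit false
set_option linter.unusedSectionVars false
set_option linter.unusedVariables false
set_option linter.style.haveILetI false

noncomputable section

namespace Fermat.Agent.Lib.S59

open CongruenceSubgroup ModularCurve.Period
open Fermat.Agent.Lib.ES Fermat.Agent.Lib.S29 Fermat.Agent.Lib.S41 Fermat.Agent.Lib.S48
open scoped MatrixGroups

local notation "Mat2" => Matrix (Fin 2) (Fin 2) ℤ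

/-- **`w` commutes with the diamond operators**, level `N' = L q`. -/
theorem s59b_wH_diamondN {L q N' : ℕ} [NeZero L] [NeZero N'] [hq : Fact q.Prime] (hqL : ¬ q ∣ L)
    (hN' : N' = L * q) {H : Subgroup (ZMod L)ˣ} {H' : Subgroup (ZMod N')ˣ}
    (hG' : s59f_IsG' L q H (s48h_GammaH N' H')) {σ : SL(2, ℤ)} (hσ' : σ ∈ Gamma0 N')
    {A : Type*} [AddCommGroup A] (ψ : Additive (s48h_GammaH N' H') →+ A) :
    s59f_wH hqL hG' A (s48h_diamondH H' σ hσ' A ψ) =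
      s48h_diamondH H' σ hσ' A (s59f_wH hqL hG' A ψ) := by
  subst hN'
  exact s59f_wH_diamond hqL hG' hσ' ψ

/-- an abstract remark: a morphism of packages composed with a compatible pair. -/
theorem s59b_OldHom_comp_compat {R : Type*} [CommRing R] {Y₀ Z₀ Y Z : Type*} [AddCommGroup Y₀]
    [Module R Y₀] [AddCommGroup Z₀] [Module R Z₀] [AddCommGroup Y] [Module R Y] [AddCommGroup Z]
    [Module R Z] {D₀ : s59t_Old R Y₀ Z₀} {D : s59t_Old R Y Z} {ρY : Y₀ →ₗ[R] Y}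
    {ρZ : Z₀ →ₗ[R] Z} (h : s59f_OldHom D₀ D ρY ρZ) {ε : Module.End R Y₀} {ε' : Module.End R Z₀}
    (hc : D₀.Compat ε ε') : s59f_OldHom D₀ D (ρY ∘ₗ ε) (ρZ ∘ₗ ε') := by
  refine s59f_OldHom.of_three _ _ _ _ (fun y => ?_) (fun z => ?_) (fun z => ?_)
  · rw [LinearMap.comp_apply, LinearMap.comp_apply, hc.resA, h.resA]
  · rw [LinearMap.comp_apply, LinearMap.comp_apply, hc.corA, h.corA]
  · rw [LinearMap.comp_apply, LinearMap.comp_apply, hc.w, h.w]

/-- a compatible pair composed with a morphism of packages. -/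
theorem s59b_compat_comp_OldHom {R : Type*} [CommRing R] {Y₀ Z₀ Y Z : Type*} [AddCommGroup Y₀]
    [Module R Y₀] [AddCommGroup Z₀] [Module R Z₀] [AddCommGroup Y] [Module R Y] [AddCommGroup Z]
    [Module R Z] {D₀ : s59t_Old R Y₀ Z₀} {D : s59t_Old R Y Z} {ρY : Y₀ →ₗ[R] Y}
    {ρZ : Z₀ →ₗ[R] Z} (h : s59f_OldHom D₀ D ρY ρZ) {ε : Module.End R Y} {ε' : Module.End R Z}
    (hc : D.Compat ε ε') : s59f_OldHom D₀ D (ε ∘ₗ ρY) (ε' ∘ₗ ρZ) := by
  refine s59f_OldHom.of_three _ _ _ _ (fun y => ?_) (fun z => ?_) (fun z => ?_)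
  · rw [LinearMap.comp_apply, LinearMap.comp_apply, h.resA, hc.resA]
  · rw [LinearMap.comp_apply, LinearMap.comp_apply, h.corA, hc.corA]
  · rw [LinearMap.comp_apply, LinearMap.comp_apply, h.w, hc.w]

section TwoPrime

variable {L p q Np Nq Npq : ℕ} [NeZero L] [NeZero Np] [NeZero Nq] [NeZero Npq]
  [hp : Fact p.Prime] [hq : Fact q.Prime]
  (hpL : ¬ p ∣ L) (hqL : ¬ q ∣ L) (hpNq : ¬ p ∣ Nq) (hqNp : ¬ q ∣ Np)
  (hNp : Np = L * p) (hNq : Nq = L * q) (hNpq_p : Npq = Nq * p) (hNpq_q : Npq = Np * q)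
  {H : Subgroup (ZMod L)ˣ} {Hp : Subgroup (ZMod Np)ˣ} {Hq : Subgroup (ZMod Nq)ˣ}
  {Hpq : Subgroup (ZMod Npq)ˣ}
  (hGp : s59f_IsG' L p H (s48h_GammaH Np Hp)) (hGq : s59f_IsG' L q H (s48h_GammaH Nq Hq))
  (hGpq_p : s59f_IsG' Nq p Hq (s48h_GammaH Npq Hpq))
  (hGpq_q : s59f_IsG' Np q Hp (s48h_GammaH Npq Hpq))
  (R : Type*) [CommRing R] (A : Type*) [AddCommGroup A] [Module R A]

include hNp hNq in
/-- **(cc)** at `H_par`-level: the two composite transfers `Γ_{Hpq}(Npq) → Γ_H(L)` agree. -/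
theorem s59b_corN_corN (z : s48h_Hpar R (s48h_GammaH Npq Hpq) A) :
    s59f_corN hpL hGp R A (s59f_corN hqNp hGpq_q R A z) =
      s59f_corN hqL hGq R A (s59f_corN hpNq hGpq_p R A z) :=
  Subtype.ext (s59b_corH_corH hpL hqL hpNq hqNp ⟨p, hNp⟩ ⟨q, hNq⟩ (s59f_isG_GammaH L H) hGp
    (s59f_isG_GammaH Np Hp) hGq (s59f_isG_GammaH Nq Hq) hGpq_p hGpq_q z.1)

include hNp hNpq_p in
/-- **(cw)** at `H_par`-level: the transfer at `p` intertwines the normalised Atkin–Lehner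
operators at `q` of the two levels. -/
theorem s59b_corN_wtN (eq : SL(2, ℤ)) (heq : eq ∈ Gamma0 Nq) (heq' : eq ∈ Gamma0 Npq)
    (z : s48h_Hpar R (s48h_GammaH Npq Hpq) A) :
    s59f_corN hpNq hGpq_p R A (s59f_wtN hqNp hGpq_q R A eq heq' z) =
      s59f_wtN hqL hGq R A eq heq (s59f_corN hpNq hGpq_p R A z) := by
  have hpq : p ≠ q := by
    rintro rfl
    exact hqNp (hNp ▸ dvd_mul_left _ _)
  apply Subtype.ext
  show s59f_corH hpNq (s59f_isG_GammaH Nq Hq) hGpq_p A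
      (s48h_diamondH Hpq eq heq' A (s59f_wH hqNp hGpq_q A z.1)) =
    s48h_diamondH Hq eq heq A (s59f_wH hqL hGq A
      (s59f_corH hpNq (s59f_isG_GammaH Nq Hq) hGpq_p A z.1))
  rw [s59f_corH_diamond hpNq hNpq_p hGpq_p heq' heq,
    s59b_corH_wH hqL hpNq hqNp ⟨p, hNp⟩ (hNp ▸ dvd_mul_left _ _) hpq hGq (s59f_isG_GammaH Nq Hq)
      hGpq_p hGpq_q z.1]

include hNp hNq hNpq_p hNpq_q hGp in
/-- **(ww)** at `H_par`-level: the normalised Atkin–Lehner operators at `p` and at `q` commute. -/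
theorem s59b_wtN_wtN_comm (ep : SL(2, ℤ)) (hep' : ep ∈ Gamma0 Npq) (eq : SL(2, ℤ))
    (heq' : eq ∈ Gamma0 Npq) (z : s48h_Hpar R (s48h_GammaH Npq Hpq) A) :
    s59f_wtN hpNq hGpq_p R A ep hep' (s59f_wtN hqNp hGpq_q R A eq heq' z) =
      s59f_wtN hqNp hGpq_q R A eq heq' (s59f_wtN hpNq hGpq_p R A ep hep' z) := by
  apply Subtype.ext
  show s48h_diamondH Hpq ep hep' A (s59f_wH hpNq hGpq_p A
      (s48h_diamondH Hpq eq heq' A (s59f_wH hqNp hGpq_q A z.1))) =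
    s48h_diamondH Hpq eq heq' A (s59f_wH hqNp hGpq_q A
      (s48h_diamondH Hpq ep hep' A (s59f_wH hpNq hGpq_p A z.1)))
  rw [s59b_wH_diamondN hpNq hNpq_p hGpq_p heq', s59b_wH_diamondN hqNp hNpq_q hGpq_q hep',
    s59b_wH_wH_comm hpNq hqNp hNp hNq hGp (s59f_isG_GammaH Np Hp) hGpq_p hGpq_q z.1,
    s59w_diamondH_comm heq' hep']

variable (ep : SL(2, ℤ)) (hep : ep ∈ Gamma0 Np) (hep' : ep ∈ Gamma0 Npq)
  (heep : s59f_gW hpL * ep * ep ∈ s48h_GammaH Np Hp)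
  (heep' : s59f_gW hpNq * ep * ep ∈ s48h_GammaH Npq Hpq)
  (eq : SL(2, ℤ)) (heq : eq ∈ Gamma0 Nq) (heq' : eq ∈ Gamma0 Npq)
  (heeq : s59f_gW hqL * eq * eq ∈ s48h_GammaH Nq Hq)
  (heeq' : s59f_gW hqNp * eq * eq ∈ s48h_GammaH Npq Hpq)

include hNq hGq in
/-- **the `q`-package of the upper level commutes with the normalised Atkin–Lehner operators at
`p`.** -/
theorem s59b_oldN_compat_wt :
    (s59f_oldN hqNp hNpq_q hGpq_q R A eq heq' heeq').Compat
      (s59f_oldN hpL hNp hGp R A ep hep heep).w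
      (s59f_oldN hpNq hNpq_p hGpq_p R A ep hep' heep').w := by
  have hhom := s59f_oldN_hom hpL hpNq ⟨q, hNq⟩ hNp hNpq_p hGp hGpq_p
    (hGq.le (s59f_isG_GammaH L H)) (hGpq_q.le (s59f_isG_GammaH Np Hp)) R A ep hep hep' heep heep'
  refine s59f_oldOfW_compat _ _ _ _ _ _ _ _ (fun y => ?_) (fun z => ?_) (fun z => ?_)
  · exact (hhom.w y).symm
  · exact (s59b_corN_wtN hpL hqNp hpNq hNq hNpq_q hGp hGpq_q hGpq_p R A ep hep hep' z).symm
  · exact s59b_wtN_wtN_comm hpNq hqNp hNp hNq hNpq_p hNpq_q hGp hGpq_p hGpq_q R A ep hep' eq heq' z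

include hNq hGq in
/-- **(K2)(b), `A`-direction: the transfers at `p` (lower and upper level) intertwine the two
`q`-packages.** -/
theorem s59b_oldN_cohomA :
    s59f_OldHom (s59f_oldN hqNp hNpq_q hGpq_q R A eq heq' heeq')
      (s59f_oldN hqL hNq hGq R A eq heq heeq)
      (s59f_oldN hpL hNp hGp R A ep hep heep).corA
      (s59f_oldN hpNq hNpq_p hGpq_p R A ep hep' heep').corA := by
  have hhom := s59f_oldN_hom hpL hpNq ⟨q, hNq⟩ hNp hNpq_p hGp hGpq_p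
    (hGq.le (s59f_isG_GammaH L H)) (hGpq_q.le (s59f_isG_GammaH Np Hp)) R A ep hep hep' heep heep'
  refine s59f_OldHom.of_three _ _ _ _ (fun y => ?_) (fun z => ?_) (fun z => ?_)
  · exact (hhom.corA y).symm
  · exact s59b_corN_corN hpL hqL hpNq hqNp hNp hNq hGp hGq hGpq_p hGpq_q R A z
  · exact s59b_corN_wtN hqL hpNq hqNp hNp hNpq_p hGq hGpq_p hGpq_q R A eq heq heq' z

include hNq hGq in
/-- **(K2)(b), `B`-direction.** -/
theorem s59b_oldN_cohomB :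
    s59f_OldHom (s59f_oldN hqNp hNpq_q hGpq_q R A eq heq' heeq')
      (s59f_oldN hqL hNq hGq R A eq heq heeq)
      (s59f_oldN hpL hNp hGp R A ep hep heep).corB
      (s59f_oldN hpNq hNpq_p hGpq_p R A ep hep' heep').corB :=
  s59b_OldHom_comp_compat
    (s59b_oldN_cohomA hpL hqL hpNq hqNp hNp hNq hNpq_p hNpq_q hGp hGq hGpq_p hGpq_q R A ep hep hep'
      heep heep' eq heq heq' heeq heeq')
    (s59b_oldN_compat_wt hpL hpNq hqNp hNp hNq hNpq_p hNpq_q hGp hGq hGpq_p hGpq_q R A ep hep hep'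
      heep heep' eq heq' heeq')

include hNp hGp in
/-- the restriction direction, `A`: `res_p` (lower and upper level) intertwines the two
`q`-packages (helper4's `s59f_oldN_hom`). -/
theorem s59b_oldN_reshomA :
    s59f_OldHom (s59f_oldN hqL hNq hGq R A eq heq heeq)
      (s59f_oldN hqNp hNpq_q hGpq_q R A eq heq' heeq')
      (s59f_oldN hpL hNp hGp R A ep hep heep).resA
      (s59f_oldN hpNq hNpq_p hGpq_p R A ep hep' heep').resA :=
  s59f_oldN_hom hqL hqNp ⟨p, hNp⟩ hNq hNpq_q hGq hGpq_q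
    (hGp.le (s59f_isG_GammaH L H)) (hGpq_p.le (s59f_isG_GammaH Nq Hq)) R A eq heq heq' heeq heeq'

include hNq hGq in
/-- the restriction direction, `B`. -/
theorem s59b_oldN_reshomB :
    s59f_OldHom (s59f_oldN hqL hNq hGq R A eq heq heeq)
      (s59f_oldN hqNp hNpq_q hGpq_q R A eq heq' heeq')
      (s59f_oldN hpL hNp hGp R A ep hep heep).resB
      (s59f_oldN hpNq hNpq_p hGpq_p R A ep hep' heep').resB :=
  s59b_compat_comp_OldHom
    (s59b_oldN_reshomA hpL hqL hpNq hqNp hNp hNq hNpq_p hNpq_q hGp hGq hGpq_p hGpq_q R A ep hep hep'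
      heep heep' eq heq heq' heeq heeq')
    (s59b_oldN_compat_wt hpL hpNq hqNp hNp hNq hNpq_p hNpq_q hGp hGq hGpq_p hGpq_q R A ep hep hep'
      heep heep' eq heq' heeq')

end TwoPrime

end Fermat.Agent.Lib.S59
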