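/-
S59 (helper2, prefix `s59b_`): **the hypothesis `hχ` of helper5's `s59e_TLevel_abs` (ETLvlAbs), final form, for
helper5's concrete rings** `T′ = s59e_adj 𝒪 aM`, `T = s59e_adj 𝒪 (s59e_aB aM ρB hcomm)` (`ρB = ρ'|_{B_Q}`),
`Algebra T′ T = s59e_algTT`, with the binder list of helper3's UHradE / helper9's `s59m_hC8_ERing` (MC8Fin).
-/
import Mathlib
import Fermat.Agent.Lib.S59.BChiFam
import Fermat.Agent.Lib.S59.MC8Fin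

set_option autoImplicit false
set_option linter.unusedSectionVars false
set_option linter.unusedVariables false
set_option linter.style.haveILetI false
set_option synthInstance.maxHeartbeats 400000
set_option maxHeartbeats 4000000

noncomputable section

namespace Fermat.Agent.Lib.S59

open Fermat.Agent.Lib.S48
open IsLocalRing TensorProduct Polynomial
open CongruenceSubgroup ModularCurve.Period
open scoped MatrixGroups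

local notation "Qbar" => AlgebraicClosure ℚ
local notation "GQ" => (AlgebraicClosure ℚ ≃ₐ[ℚ] AlgebraicClosure ℚ)

section ERing

variable {M : ℕ} [NeZero M] (H : Subgroup (ZMod M)ˣ)
  {𝒪 : Type} [CommRing 𝒪] [IsDomain 𝒪] [IsDiscreteValuationRing 𝒪]
  [IsAdicComplete (maximalIdeal 𝒪) 𝒪] [Finite (ResidueField 𝒪)] [CharZero 𝒪]
  {Y' : Type} [AddCommGroup Y'] [Module 𝒪 Y'] [Module.Finite 𝒪 Y']
  (j : Y' →ₗ[𝒪] s48h_Hpar 𝒪 (s48h_GammaH M H) 𝒪) (hj : Function.Injective j)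
  (opY : s59w_AIdx M → Module.End 𝒪 Y')
  (hopY : ∀ jdx y, j (opY jdx y) = s59w_op H 𝒪 jdx (j y))
  {A : Type} [CommRing A] (a : A →+* Module.End 𝒪 (s48h_Hpar 𝒪 (s48h_GammaH M H) 𝒪)) (k : ℕ)
  (ha : ∀ t, a t ∈ Subring.closure (Set.range (s59e_Tp' H 𝒪 k)))
  (aM : A →+* Module.End 𝒪 Y') (haM : ∀ t (z : Y'), j (aM t z) = a t (j z))
  {Δ' : Type} [CommGroup Δ'] [Fintype Δ'] (ρ' : Δ' →* Module.End 𝒪 Y')
  (hρ' : ∀ δ, ∃ τ : Gamma0 M, ρ' δ = opY (Sum.inr τ))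
  (Bq Cs : Subgroup Δ') (χ' : Δ' →* 𝒪ˣ)
  (hcomm : ∀ (t : A) (β : Bq), Commute (aM t) ((ρ'.comp Bq.subtype) β))

include hj hopY ha haM hρ' in
/-- **`hχ` ("χ in family") for helper5's concrete rings** `T′ = s59e_adj 𝒪 aM`,
`T = s59e_adj 𝒪 (s59e_aB aM ρB hcomm)`, `ρB = ρ'|_{B_Q}`, in the form of `s59e_TLevel_abs`. -/
theorem s59b_hchi_ERing [IsLocalRing (s59e_adj 𝒪 aM)]
    (hTρ : ∀ (t : s59e_adj 𝒪 (s59e_aB aM (ρ'.comp Bq.subtype) hcomm)) (δ : Δ') (y : Y'),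
      t • ρ' δ y = ρ' δ (t • y))
    (N : ℕ) [NeZero N] (Q : Finset ℕ)
    (hMeq : M = N * ∏ q ∈ Q, q) (hQ : ∀ q ∈ Q, q.Prime ∧ ¬ q ∣ N)
    (hH : ∀ (x : ℤ) (u : (ZMod M)ˣ), ((x : ℤ) : ZMod (∏ q ∈ Q, q)) = 1 →
      ((u : (ZMod M)ˣ) : ZMod M) = ((x : ℤ) : ZMod M) → u ∈ H)
    (p : ℕ) [hpF : Fact p.Prime] (hp2 : p ≠ 2)
    {e m' : ℕ} (hnm : 2 * m' = p ^ e + 1) (hn : ∀ u : (ZMod M)ˣ, u ^ (p ^ e) ∈ H)
    (hk : k = (p ^ e - 1) * m')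
    [Algebra ℤ_[p] 𝒪] (hp𝒪 : (p : 𝒪) ∈ maximalIdeal 𝒪)
    (S : Finset ℕ) (hpS : p ∈ S) (hMS : ∀ r : ℕ, r.Prime → r ∣ M → r ∈ S)
    (tT' : ℕ → s59e_adj 𝒪 aM)
    (htT' : ∀ i : s59w_TIdx M, i.ell ∉ S → ∀ z : Y',
      j (((tT' i.ell : s59e_adj 𝒪 aM) : Module.End 𝒪 Y') z) = s59e_Tp' H 𝒪 k i (j z))
    -- the Galois representation
    {A₀ : Type} [CommRing A₀] [IsLocalRing A₀] (ρ₀ : GaloisRepAdic A₀) (f : A₀ →+* s59e_adj 𝒪 aM)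
    (hf : IsLocalHom f) (habs₀ : ρ₀.residual.IsAbsolutelyIrreducible)
    (hρ₀ : ∀ ℓ : ℕ, ℓ.Prime → ℓ ∉ S → ∀ P' : ValuationSubring Qbar, P'.LiesOverPrime ℓ →
      ∀ σ : GQ, P'.IsFrobeniusAt σ ℓ →
        ((ρ₀.ρ σ).charpoly).map f =
          X ^ 2 - Polynomial.C (tT' ℓ) * X + Polynomial.C (ℓ : s59e_adj 𝒪 aM))
    -- the primes of type `χ`
    {m : ℕ} (qB : Fin m → ℕ) (hqBQ : ∀ j, qB j ∈ Q) (hqBp : ∀ j, qB j ≠ p)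
    (v : ℕ) (hq1 : ∀ j, p ∣ qB j - 1) (hqv : ∀ j, ¬ p ^ (v + 1) ∣ qB j - 1)
    (ζ : 𝒪) (hζ : IsPrimitiveRoot ζ (p ^ v))
    (Aj : Fin m → ValuationSubring Qbar) (hAj : ∀ j, (Aj j).LiesOverPrime (qB j))
    (σB φB : Fin m → GQ) (hσB : ∀ j, s59q_IsTameGen (qB j) (Aj j) (σB j))
    (hφB : ∀ j, (Aj j).IsFrobeniusAt (φB j) (qB j))
    (hunr₀ : ∀ j, ρ₀.residual.IsUnramifiedAt (qB j))
    (hloc : ∀ j, ∃ (τ : Gamma0 M) (γ : Δ'), γ ∈ Cs ∧ ρ' γ = opY (Sum.inr τ) ∧ χ' γ ≠ 1 ∧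
      ∃ (L₀ : ℕ) (hL₀ : M = L₀ * qB j),
        ZMod.unitsMap (hL₀ ▸ Dvd.intro (qB j) rfl : L₀ ∣ M) (s59w_lrUnit τ) = 1) :
    letI := s59e_algTT (𝒪 := 𝒪) aM (ρ'.comp Bq.subtype) hcomm
    ∀ 𝔮 ∈ ((Module.annihilator (s59e_adj 𝒪 (s59e_aB aM (ρ'.comp Bq.subtype) hcomm))
        (s59t_EigT (T := s59e_adj 𝒪 (s59e_aB aM (ρ'.comp Bq.subtype) hcomm)) ρ' Cs χ' hTρ)).comap
        (algebraMap (s59e_adj 𝒪 aM)
          (s59e_adj 𝒪 (s59e_aB aM (ρ'.comp Bq.subtype) hcomm)))).minimalPrimes,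
      (∀ o : 𝒪, o ≠ 0 → algebraMap 𝒪 (s59e_adj 𝒪 aM) o ∉ 𝔮) ∧
      ∃ I : s59b_chiIdx p v qB ζ, ∀ j,
        f (s59i_cpTr ρ₀ (σB j)) -
            algebraMap 𝒪 (s59e_adj 𝒪 aM) (s59b_chiZ I j + s59b_chiZ' I j) ∈ 𝔮 ∧
        f (s59i_cpDt ρ₀ (σB j)) - 1 ∈ 𝔮 := by
  letI := s59e_algTT (𝒪 := 𝒪) aM (ρ'.comp Bq.subtype) hcomm
  haveI := s59e_towerTT (𝒪 := 𝒪) aM (ρ'.comp Bq.subtype) hcomm
  subst hk
  refine s59b_hchi_eig H j hj opY hopY ρ' hρ' Cs χ' hTρ N Q hMeq hQ hH p hp2 hnm hn hp𝒪 S hpS hMS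
    ?_ (s59e_adj 𝒪 aM) tT' ?_ ρ₀ f hf habs₀ hρ₀ qB hqBQ hqBp v hq1 hqv ζ hζ Aj hAj σB φB hσB hφB
    hunr₀ hloc
  · intro t
    exact ⟨(t : Module.End 𝒪 Y'),
      s59m_adjB_le_adjoin H j hj opY hopY a _ ha aM haM ρ' hρ' Bq hcomm t.2, fun y => rfl⟩
  · intro i hi y
    apply hj
    have h1 : algebraMap (s59e_adj 𝒪 aM) (s59e_adj 𝒪 (s59e_aB aM (ρ'.comp Bq.subtype) hcomm))
        (tT' i.ell) • y = ((tT' i.ell : s59e_adj 𝒪 aM) : Module.End 𝒪 Y') y := by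
      rw [s59e_smul_def, s59e_algTT_coe]
    rw [h1, htT' i hi y, hopY, hopY]
    rfl

end ERing

end Fermat.Agent.Lib.S59
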