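/-
Programme (R) / [IA′], node D = EXTRACTION (helper9, prefix `s59m_`): **THE ABSTRACT CORE** (Mathlib only).

A group `G` acts linearly on a module `W`; `t d : G → R` ("trace" and "determinant") with the Cayley–Hamilton
relations `g² - t(g) g + d(g) = 0` on `W` (Eichler–Shimura + density, on the `x`-part of a Tate module), `d`
multiplicative.  `I ⊆ G` ("inertia at `q`") with `t (σ h) = t h`, `d σ = 1` for `σ ∈ I` (the abstract representation
with trace `t` is trivial on `I`).

* `s59m_ext_sq_zero`   : `(σ - 1)² = 0` on `W` for `σ ∈ I`;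
* `s59m_ext_anti`      : `N h + h N = t(h) N` for `N = σ - 1`;
* `s59m_ext_ker_stable`: the fixed space of `σ ∈ I` is `G`-stable (NOT formal: `I` is not normal in `G`);
* `s59m_ext_abs_sq`    : over a field, `W ≠ 0` finite-dimensional: if moreover a Frobenius `φ` (`d φ = q`, `q² ≠ ± q`)
  satisfies `φ² v = q² v` on the `I`-fixed vectors, then `W` contains a `G`-stable LINE `K v`, `g v = χ(g) v`,
  `χ(g)² - t(g) χ(g) + d(g) = 0`.  (Consumer: this contradicts the irreducibility of the residual representation.)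
* `s59m_ext_abs`       : the same with the TORIC relation `φ v = - q w v` on the `I`-fixed vectors (`w` an involution
  commuting with `G`) instead of `φ² = q²`.
-/
import Mathlib

set_option autoImplicit false

namespace Fermat.Agent.Lib.S59

section Ring

variable {R : Type*} [CommRing R] {W : Type*} [AddCommGroup W] [Module R W]
  {G : Type*} [Group G] (ρ : G →* Module.End R W) (t d : G → R)

/-- `(σ - 1)² = 0`. -/
theorem s59m_ext_sq_zero (hrel : ∀ g, ρ g * ρ g - t g • ρ g + d g • (1 : Module.End R W) = 0)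
    (t1 : t 1 = 2) {σ : G} (hσt : ∀ h, t (σ * h) = t h) (hσd : d σ = 1) :
    (ρ σ - 1) * (ρ σ - 1) = 0 := by
  have h1 := hrel σ
  have h2 : t σ = 2 := by
    have := hσt 1
    rw [mul_one] at this
    rw [this, t1]
  rw [h2, hσd, one_smul] at h1
  have e : (ρ σ - 1) * (ρ σ - 1) = ρ σ * ρ σ - (2 : R) • ρ σ + 1 := by
    rw [two_smul]
    noncomm_ring
  rw [e, h1]

/-- `N h + h N = t(h) N`, `N = σ - 1`. -/
theorem s59m_ext_anti (hrel : ∀ g, ρ g * ρ g - t g • ρ g + d g • (1 : Module.End R W) = 0)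
    (hd : ∀ g h, d (g * h) = d g * d h) (t1 : t 1 = 2)
    (hreg : ∀ (h : G) (A : Module.End R W), d h • A = 0 → A = 0)
    {σ : G} (hσt : ∀ h, t (σ * h) = t h) (hσd : d σ = 1) (h : G) :
    (ρ σ - 1) * ρ h + ρ h * (ρ σ - 1) = t h • (ρ σ - 1) := by
  set N : Module.End R W := ρ σ - 1 with hN
  set H : Module.End R W := ρ h with hH
  have hNN : N * N = 0 := s59m_ext_sq_zero ρ t d hrel t1 hσt hσd
  have hS : ρ σ = 1 + N := by rw [hN]; abel
  -- R2
  have R2 : H * H = t h • H - d h • (1 : Module.End R W) := by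
    have := hrel h
    rw [← hH] at this
    rw [← sub_eq_zero, ← this]
    abel
  -- R1
  have R1 : (1 + N) * H * ((1 + N) * H) = t h • ((1 + N) * H) - d h • (1 : Module.End R W) := by
    have := hrel (σ * h)
    rw [map_mul, hσt h, hd σ h, hσd, one_mul, hS, ← hH] at this
    rw [← sub_eq_zero, ← this]
    abel
  -- `(1 + N) (H N H) = d h N`
  have e1 : (1 + N) * (H * N * H) = d h • N := by
    have e : (1 + N) * H * ((1 + N) * H) = H * H + H * N * H + N * (H * H) + N * (H * N * H) := by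
      noncomm_ring
    rw [e, R2] at R1
    have e' : (1 + N) * (H * N * H) = H * N * H + N * (H * N * H) := by noncomm_ring
    rw [e']
    have : H * N * H + N * (H * N * H) =
        (t h • H - d h • (1 : Module.End R W) + H * N * H + N * (t h • H - d h • (1 : Module.End R W))
          + N * (H * N * H)) - (t h • ((1 + N) * H) - d h • (1 : Module.End R W)) + d h • N := by
      simp only [mul_sub, mul_smul_comm, mul_one, add_mul, one_mul, smul_add]
      abel
    rw [this, R1, sub_self, zero_add]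
  -- `H N H = d h N`
  have e2 : H * N * H = d h • N := by
    have e3 : (1 - N) * ((1 + N) * (H * N * H)) = H * N * H := by
      have : (1 - N) * (1 + N) = 1 := by
        have : (1 - N) * (1 + N) = 1 - N * N := by noncomm_ring
        rw [this, hNN, sub_zero]
      rw [← mul_assoc, this, one_mul]
    have e4 : (1 - N) * (d h • N) = d h • N := by
      rw [mul_smul_comm, sub_mul, one_mul, hNN, sub_zero]
    calc H * N * H = (1 - N) * ((1 + N) * (H * N * H)) := e3.symm
      _ = (1 - N) * (d h • N) := by rw [e1]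
      _ = d h • N := e4
  -- multiply by `t h - H`
  have e5 : d h • (N * H) = d h • (t h • N - H * N) := by
    have e6 : (t h • (1 : Module.End R W) - H) * (H * N * H) = d h • (N * H) := by
      have : (t h • (1 : Module.End R W) - H) * H = d h • (1 : Module.End R W) := by
        rw [sub_mul, smul_mul_assoc, one_mul, R2]
        abel
      rw [mul_assoc H N H, ← mul_assoc _ H (N * H), this, smul_mul_assoc, one_mul]
    rw [e2] at e6
    rw [← e6, mul_smul_comm, sub_mul, smul_mul_assoc, one_mul]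
  have e7 : N * H - (t h • N - H * N) = 0 := by
    apply hreg h
    rw [smul_sub, e5, sub_self]
  rw [sub_eq_zero] at e7
  rw [e7]
  abel

/-- **the fixed space of `σ ∈ I` is `G`-stable.** -/
theorem s59m_ext_ker_stable (hrel : ∀ g, ρ g * ρ g - t g • ρ g + d g • (1 : Module.End R W) = 0)
    (hd : ∀ g h, d (g * h) = d g * d h) (t1 : t 1 = 2)
    (hreg : ∀ (h : G) (A : Module.End R W), d h • A = 0 → A = 0)
    {σ : G} (hσt : ∀ h, t (σ * h) = t h) (hσd : d σ = 1) (h : G) (v : W) (hv : ρ σ v = v) :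
    ρ σ (ρ h v) = ρ h v := by
  have h1 := s59m_ext_anti ρ t d hrel hd t1 hreg hσt hσd h
  have h2 := congrArg (fun A : Module.End R W => A v) h1
  simp only [LinearMap.add_apply, Module.End.mul_apply, LinearMap.sub_apply, Module.End.one_apply,
    LinearMap.smul_apply, hv, sub_self, map_zero, smul_zero, add_zero] at h2
  exact sub_eq_zero.mp h2

end Ring

section Field

variable {K : Type*} [Field K] {W : Type*} [AddCommGroup W] [Module K W] [FiniteDimensional K W]
  [Nontrivial W] {G : Type*} [Group G] (ρ : G →* Module.End K W) (t d : G → K)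

/-- **THE ABSTRACT CORE OF THE EXTRACTION STEP**, in the form "`φ² = q²` on the `I`-fixed vectors". -/
theorem s59m_ext_abs_sq (hrel : ∀ g, ρ g * ρ g - t g • ρ g + d g • (1 : Module.End K W) = 0)
    (hd : ∀ g h, d (g * h) = d g * d h) (hd0 : ∀ g, d g ≠ 0)
    (I : Set G) (hIt : ∀ σ ∈ I, ∀ h, t (σ * h) = t h) (hId : ∀ σ ∈ I, d σ = 1)
    (φ : G) (q : K) (hφ : d φ = q) (hq1 : q * q - q ≠ 0) (hq2 : q * q + q ≠ 0)
    (hsq : ∀ v : W, (∀ σ ∈ I, ρ σ v = v) → ρ φ (ρ φ v) = (q * q) • v) :
    ∃ v : W, v ≠ 0 ∧ ∃ χ : G → K, ∀ g, ρ g v = χ g • v ∧ χ g * χ g - t g * χ g + d g = 0 := by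
  classical
  -- `d 1 = 1`, `t 1 = 2`
  have d1 : d 1 = 1 := by
    have h := hd 1 1
    rw [mul_one] at h
    have h0 := hd0 1
    field_simp at h
    exact h.symm
  obtain ⟨v₀, hv₀⟩ := exists_ne (0 : W)
  have t1 : t 1 = 2 := by
    have h := congrArg (fun A : Module.End K W => A v₀) (hrel 1)
    simp only [map_one, mul_one, d1, one_smul, LinearMap.add_apply, LinearMap.sub_apply,
      Module.End.one_apply, LinearMap.smul_apply, LinearMap.zero_apply] at h
    have h2 : ((2 : K) - t 1) • v₀ = 0 := by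
      rw [sub_smul, two_smul]
      rw [← h]
      abel
    rcases smul_eq_zero.mp h2 with h3 | h3
    · exact (sub_eq_zero.mp h3).symm
    · exact absurd h3 hv₀
  have hreg : ∀ (h : G) (A : Module.End K W), d h • A = 0 → A = 0 := fun h A hA =>
    (smul_eq_zero.mp hA).resolve_left (hd0 h)
  -- minimal non-zero `G`-stable subspace
  set 𝒮 : Set (Submodule K W) := {L | L ≠ ⊥ ∧ ∀ g : G, ∀ v ∈ L, ρ g v ∈ L} with h𝒮
  have h𝒮ne : 𝒮.Nonempty := ⟨⊤, top_ne_bot, fun _ _ _ => Submodule.mem_top⟩
  obtain ⟨L, hL𝒮, hmin⟩ := WellFounded.has_min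
    (measure (fun L : Submodule K W => Module.finrank K L)).wf 𝒮 h𝒮ne
  obtain ⟨hL0, hLG⟩ := hL𝒮
  -- `I` acts trivially on `L`
  have hLI : ∀ σ ∈ I, ∀ v ∈ L, ρ σ v = v := by
    intro σ hσ
    set Kσ : Submodule K W := L ⊓ LinearMap.ker (ρ σ - 1) with hKσ
    have hmemK : ∀ v, v ∈ Kσ ↔ v ∈ L ∧ ρ σ v = v := by
      intro v
      rw [hKσ, Submodule.mem_inf, LinearMap.mem_ker, LinearMap.sub_apply, Module.End.one_apply,
        sub_eq_zero]
    have hNN := s59m_ext_sq_zero ρ t d hrel t1 (hIt σ hσ) (hId σ hσ)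
    have hKG : ∀ g : G, ∀ v ∈ Kσ, ρ g v ∈ Kσ := by
      intro g v hv
      rw [hmemK] at hv ⊢
      exact ⟨hLG g v hv.1,
        s59m_ext_ker_stable ρ t d hrel hd t1 hreg (hIt σ hσ) (hId σ hσ) g v hv.2⟩
    have hK0 : Kσ ≠ ⊥ := by
      by_cases hall : ∀ v ∈ L, ρ σ v = v
      · intro h0
        apply hL0
        rw [eq_bot_iff]
        intro v hv
        rw [← h0]
        exact (hmemK v).mpr ⟨hv, hall v hv⟩
      · push Not at hall
        obtain ⟨v, hvL, hv⟩ := hall
        intro h0
        have hmem : ρ σ v - v ∈ Kσ := by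
          rw [hmemK]
          refine ⟨L.sub_mem (hLG σ v hvL) hvL, ?_⟩
          have h2 := congrArg (fun A : Module.End K W => A v) hNN
          simp only [Module.End.mul_apply, LinearMap.sub_apply, Module.End.one_apply,
            LinearMap.zero_apply] at h2
          exact sub_eq_zero.mp h2
        rw [h0, Submodule.mem_bot, sub_eq_zero] at hmem
        exact hv hmem
    have hle : Kσ ≤ L := inf_le_left
    have hfr : Module.finrank K L ≤ Module.finrank K Kσ := not_lt.mp (hmin Kσ ⟨hK0, hKG⟩)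
    have heq : Kσ = L := Submodule.eq_of_le_of_finrank_le hle hfr
    intro v hv
    rw [← heq] at hv
    exact ((hmemK v).mp hv).2
  -- `φ² = q²` on `L`
  have hφφ : ∀ v ∈ L, ρ φ (ρ φ v) = (q * q) • v := fun v hv =>
    hsq v (fun σ hσ => hLI σ hσ v hv)
  have hrelv : ∀ (g : G) (v : W), ρ g (ρ g v) - t g • ρ g v + d g • v = 0 := by
    intro g v
    have := congrArg (fun A : Module.End K W => A v) (hrel g)
    simpa only [LinearMap.add_apply, LinearMap.sub_apply, Module.End.mul_apply,
      LinearMap.smul_apply, Module.End.one_apply, LinearMap.zero_apply] using this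
  -- `t φ ≠ 0`, `φ = μ` on `L`
  obtain ⟨v₁, hv₁L, hv₁0⟩ := Submodule.exists_mem_ne_zero_of_ne_bot hL0
  have htφ : ∀ v ∈ L, t φ • ρ φ v = (q * q + q) • v := by
    intro v hv
    have h1 := hrelv φ v
    rw [hφφ v hv, hφ] at h1
    have h2 : t φ • ρ φ v - (q * q + q) • v = -((q * q) • v - t φ • ρ φ v + q • v) := by
      rw [add_smul]; abel
    rw [h1, neg_zero] at h2
    exact sub_eq_zero.mp h2
  have htφ0 : t φ ≠ 0 := by
    intro h0
    have := htφ v₁ hv₁L
    rw [h0, zero_smul] at this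
    rcases smul_eq_zero.mp this.symm with h | h
    · exact hq2 h
    · exact hv₁0 h
  set μ : K := (q * q + q) / t φ with hμ
  have hφμ : ∀ v ∈ L, ρ φ v = μ • v := by
    intro v hv
    have := htφ v hv
    rw [hμ, div_eq_inv_mul, mul_smul, ← this, smul_smul, inv_mul_cancel₀ htφ0, one_smul]
  have hμμ : μ * μ = q * q := by
    have h1 := hφφ v₁ hv₁L
    rw [hφμ v₁ hv₁L, map_smul, hφμ v₁ hv₁L, smul_smul] at h1
    have h2 : (μ * μ - q * q) • v₁ = 0 := by rw [sub_smul, h1, sub_self]
    rcases smul_eq_zero.mp h2 with h | h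
    · exact sub_eq_zero.mp h
    · exact absurd h hv₁0
  -- every `h` is a scalar on `L`
  have hscal : ∀ (h : G), ∀ v ∈ L,
      (μ * μ * t h - μ * t (φ * h)) • ρ h v = ((q * q - q) * d h) • v := by
    intro h v hv
    have hhv : ρ h v ∈ L := hLG h v hv
    have hhhv : ρ h (ρ h v) ∈ L := hLG h _ hhv
    have e1 : ρ (φ * h) v = μ • ρ h v := by rw [map_mul, Module.End.mul_apply, hφμ _ hhv]
    have e2 : ρ (φ * h) (ρ h v) = μ • ρ h (ρ h v) := by
      rw [map_mul, Module.End.mul_apply, hφμ _ hhhv]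
    have h1 := hrelv (φ * h) v
    rw [e1, map_smul, e2, hd, hφ] at h1
    have h2 := hrelv h v
    have h3 : ρ h (ρ h v) = t h • ρ h v - d h • v := by
      rw [← sub_eq_zero, ← h2]; abel
    rw [h3] at h1
    have : (μ * μ * t h - μ * t (φ * h)) • ρ h v - ((q * q - q) * d h) • v =
        μ • μ • (t h • ρ h v - d h • v) - t (φ * h) • μ • ρ h v + (q * d h) • v := by
      rw [← hμμ]
      module
    rw [← sub_eq_zero, this, h1]
  have hc0 : ∀ h : G, μ * μ * t h - μ * t (φ * h) ≠ 0 := by
    intro h h0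
    have := hscal h v₁ hv₁L
    rw [h0, zero_smul] at this
    rcases smul_eq_zero.mp this.symm with h' | h'
    · rcases mul_eq_zero.mp h' with h'' | h''
      · exact hq1 h''
      · exact hd0 h h''
    · exact hv₁0 h'
  refine ⟨v₁, hv₁0, fun h => ((q * q - q) * d h) / (μ * μ * t h - μ * t (φ * h)), fun h => ?_⟩
  have hχ : ρ h v₁ = (((q * q - q) * d h) / (μ * μ * t h - μ * t (φ * h))) • v₁ := by
    have := hscal h v₁ hv₁L
    rw [div_eq_inv_mul, mul_smul, ← this, smul_smul, inv_mul_cancel₀ (hc0 h), one_smul]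
  refine ⟨hχ, ?_⟩
  set χh := ((q * q - q) * d h) / (μ * μ * t h - μ * t (φ * h)) with hχh
  have h1 := hrelv h v₁
  rw [hχ, map_smul, hχ] at h1
  have h2 : (χh * χh - t h * χh + d h) • v₁ = 0 := by
    rw [← h1]
    simp only [add_smul, sub_smul, mul_smul]
  rcases smul_eq_zero.mp h2 with h | h
  · exact h
  · exact absurd h hv₁0

/-- **THE ABSTRACT CORE OF THE EXTRACTION STEP**, in the form "`φ = − q w` on the `I`-fixed vectors" for an involution
`w` commuting with `G`. -/
theorem s59m_ext_abs (hrel : ∀ g, ρ g * ρ g - t g • ρ g + d g • (1 : Module.End K W) = 0)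
    (hd : ∀ g h, d (g * h) = d g * d h) (hd0 : ∀ g, d g ≠ 0)
    (I : Set G) (hIt : ∀ σ ∈ I, ∀ h, t (σ * h) = t h) (hId : ∀ σ ∈ I, d σ = 1)
    (φ : G) (q : K) (hφ : d φ = q) (hq1 : q * q - q ≠ 0) (hq2 : q * q + q ≠ 0)
    (w : Module.End K W) (hw : w * w = 1) (hwc : ∀ g, w * ρ g = ρ g * w)
    (htor : ∀ v : W, (∀ σ ∈ I, ρ σ v = v) → ρ φ v = -(q • w v)) :
    ∃ v : W, v ≠ 0 ∧ ∃ χ : G → K, ∀ g, ρ g v = χ g • v ∧ χ g * χ g - t g * χ g + d g = 0 := by
  have hwv : ∀ (g : G) (v : W), w (ρ g v) = ρ g (w v) := by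
    intro g v
    have := congrArg (fun A : Module.End K W => A v) (hwc g)
    simpa only [Module.End.mul_apply] using this
  have hww : ∀ v : W, w (w v) = v := by
    intro v
    have := congrArg (fun A : Module.End K W => A v) hw
    simpa only [Module.End.mul_apply, Module.End.one_apply] using this
  refine s59m_ext_abs_sq ρ t d hrel hd hd0 I hIt hId φ q hφ hq1 hq2 fun v hv => ?_
  rw [htor v hv, map_neg, map_smul, ← hwv, htor v hv, map_neg, map_smul, hww, smul_neg, neg_neg,
    smul_smul]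

end Field

end Fermat.Agent.Lib.S59
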