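/-
Programme (R) / [IA′], node D = EXTRACTION (helper9, prefix `s59m_`): **THE ABSTRACT CORE OVER A DOMAIN** (Mathlib only).

`𝒪` a domain, `U ≠ 0` a finitely generated torsion-free `𝒪`-module (an "eigen-lattice"), a group `G` acting `𝒪`-linearly
with the Cayley–Hamilton relations `g² - t(g) g + d(g) = 0` (`t d : G → 𝒪`, `d` multiplicative, nowhere zero), `I ⊆ G`
with `t (σ h) = t h`, `d σ = 1` (`σ ∈ I`), `φ ∈ G` with `d φ = q`, `q² ≠ ± q`, and `φ² u = q² u` on the `I`-fixed `u`.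

`s59m_ext_line` : there is a non-zero `G`-stable `𝒪`-submodule `Λ₀ ≤ U` (the saturation of a line) on which `G` acts
COMMUTATIVELY.  (Base change to `K = Frac 𝒪` and `s59m_ext_abs_sq`.)
-/
import Fermat.Agent.Lib.S59.MExtAbs

set_option autoImplicit false
set_option linter.style.haveILetI false

namespace Fermat.Agent.Lib.S59

open TensorProduct

section BC

variable {𝒪 : Type*} [CommRing 𝒪] [IsDomain 𝒪]
  {U : Type*} [AddCommGroup U] [Module 𝒪 U] [Module.Finite 𝒪 U] [Module.IsTorsionFree 𝒪 U]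
  [Nontrivial U]
  {G : Type*} [Group G] (ρ : G →* Module.End 𝒪 U) (t d : G → 𝒪)

set_option maxHeartbeats 1600000 in
/-- **the abstract core of the extraction step over a domain.** -/
theorem s59m_ext_line
    (hrel : ∀ g u, ρ g (ρ g u) - t g • ρ g u + d g • u = 0)
    (hd : ∀ g h, d (g * h) = d g * d h) (hd0 : ∀ g, d g ≠ 0)
    (I : Set G) (hIt : ∀ σ ∈ I, ∀ h, t (σ * h) = t h) (hId : ∀ σ ∈ I, d σ = 1)
    (φ : G) (q : 𝒪) (hφ : d φ = q) (hq1 : q * q - q ≠ 0) (hq2 : q * q + q ≠ 0)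
    (hsq : ∀ u : U, (∀ σ ∈ I, ρ σ u = u) → ρ φ (ρ φ u) = (q * q) • u) :
    ∃ Λ₀ : Submodule 𝒪 U, Λ₀ ≠ ⊥ ∧ (∀ g, ∀ u ∈ Λ₀, ρ g u ∈ Λ₀) ∧
      ∀ g h, ∀ u ∈ Λ₀, ρ g (ρ h u) = ρ h (ρ g u) := by
  classical
  set K := FractionRing 𝒪 with hK
  set ι : U →ₗ[𝒪] K ⊗[𝒪] U := TensorProduct.mk 𝒪 K U 1 with hι
  haveI hloc : IsLocalizedModule (nonZeroDivisors 𝒪) ι :=
    IsLocalization.tensorProduct_isLocalizedModule (S := nonZeroDivisors 𝒪) (A := K) (M := U)
  have hinjK : Function.Injective (algebraMap 𝒪 K) := IsFractionRing.injective 𝒪 K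
  -- `ι` is injective
  have hιinj : Function.Injective ι := by
    rw [injective_iff_map_eq_zero]
    intro u hu
    obtain ⟨s, hs⟩ := (IsLocalizedModule.eq_zero_iff (nonZeroDivisors 𝒪) ι).mp hu
    have hs' : (s : 𝒪) • u = 0 := hs
    rcases smul_eq_zero.mp hs' with h | h
    · exact absurd h (nonZeroDivisors.coe_ne_zero s)
    · exact h
  -- every element is a fraction
  have hfrac : ∀ w : K ⊗[𝒪] U, ∃ (s : 𝒪) (u : U), s ≠ 0 ∧ (algebraMap 𝒪 K s) • w = ι u := by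
    intro w
    obtain ⟨⟨u, s⟩, hs⟩ := IsLocalizedModule.surj (nonZeroDivisors 𝒪) ι w
    refine ⟨(s : 𝒪), u, nonZeroDivisors.coe_ne_zero s, ?_⟩
    rw [algebraMap_smul]
    exact hs
  have hcancel : ∀ (s : 𝒪), s ≠ 0 → ∀ w w' : K ⊗[𝒪] U,
      (algebraMap 𝒪 K s) • w = (algebraMap 𝒪 K s) • w' → w = w' := by
    intro s hs w w' h
    have hs' : algebraMap 𝒪 K s ≠ 0 := fun h0 => hs (hinjK (h0.trans (map_zero _).symm))
    exact smul_right_injective _ hs' h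
  -- the base-changed representation
  set ρK : G →* Module.End K (K ⊗[𝒪] U) :=
    ((Module.End.baseChangeHom 𝒪 K U : Module.End 𝒪 U →ₐ[𝒪] Module.End K (K ⊗[𝒪] U)) :
      Module.End 𝒪 U →* Module.End K (K ⊗[𝒪] U)).comp ρ with hρK
  have hρι : ∀ g u, ρK g (ι u) = ι (ρ g u) := by
    intro g u
    show (LinearMap.baseChange K (ρ g)) ((1 : K) ⊗ₜ[𝒪] u) = (1 : K) ⊗ₜ[𝒪] (ρ g u)
    rw [LinearMap.baseChange_tmul]
  have hιsmul : ∀ (a : 𝒪) (u : U), ι (a • u) = (algebraMap 𝒪 K a) • ι u := by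
    intro a u
    rw [map_smul, algebraMap_smul]
  haveI : Nontrivial (K ⊗[𝒪] U) := by
    obtain ⟨u, hu⟩ := exists_ne (0 : U)
    exact ⟨⟨ι u, 0, fun h => hu (hιinj (h.trans (map_zero ι).symm))⟩⟩
  set tK : G → K := fun g => algebraMap 𝒪 K (t g) with htK
  set dK : G → K := fun g => algebraMap 𝒪 K (d g) with hdK
  -- the relations over `K`
  have hrelK : ∀ g, ρK g * ρK g - tK g • ρK g + dK g • (1 : Module.End K (K ⊗[𝒪] U)) = 0 := by
    intro g
    apply LinearMap.ext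
    intro w
    obtain ⟨s, u, hs, hsw⟩ := hfrac w
    apply hcancel s hs
    rw [← map_smul, hsw]
    simp only [LinearMap.add_apply, LinearMap.sub_apply, Module.End.mul_apply, LinearMap.smul_apply,
      Module.End.one_apply, LinearMap.zero_apply, smul_zero]
    rw [hρι, hρι, htK, hdK]
    simp only
    rw [← hιsmul, ← hιsmul, ← map_sub, ← map_add, hrel, map_zero]
  have hdKmul : ∀ g h, dK (g * h) = dK g * dK h := fun g h => by
    simp only [hdK]
    rw [hd, map_mul]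
  have hdK0 : ∀ g, dK g ≠ 0 := fun g h0 => hd0 g (hinjK (h0.trans (map_zero _).symm))
  have hItK : ∀ σ ∈ I, ∀ h, tK (σ * h) = tK h := fun σ hσ h => by
    simp only [htK]
    rw [hIt σ hσ h]
  have hIdK : ∀ σ ∈ I, dK σ = 1 := fun σ hσ => by
    simp only [hdK]
    rw [hId σ hσ, map_one]
  set qK : K := algebraMap 𝒪 K q with hqK
  have hφK : dK φ = qK := by
    simp only [hdK]
    rw [hφ]
  have hq1K : qK * qK - qK ≠ 0 := by
    rw [hqK, ← map_mul, ← map_sub]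
    exact fun h0 => hq1 (hinjK (h0.trans (map_zero _).symm))
  have hq2K : qK * qK + qK ≠ 0 := by
    rw [hqK, ← map_mul, ← map_add]
    exact fun h0 => hq2 (hinjK (h0.trans (map_zero _).symm))
  have hsqK : ∀ w : K ⊗[𝒪] U, (∀ σ ∈ I, ρK σ w = w) → ρK φ (ρK φ w) = (qK * qK) • w := by
    intro w hw
    obtain ⟨s, u, hs, hsw⟩ := hfrac w
    have hu : ∀ σ ∈ I, ρ σ u = u := by
      intro σ hσ
      apply hιinj
      rw [← hρι, ← hsw, map_smul, hw σ hσ]
    have h1 := hsq u hu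
    apply hcancel s hs
    rw [← map_smul, ← map_smul, hsw, hρι, hρι, h1, hιsmul, ← hsw, map_mul, hqK, smul_comm]
  obtain ⟨v, hv0, χ, hχ⟩ := s59m_ext_abs_sq ρK tK dK hrelK hdKmul hdK0 I hItK hIdK φ qK hφK hq1K hq2K
    hsqK
  -- the saturation of the line
  set Λ₀ : Submodule 𝒪 U :=
    { carrier := {u | ∃ c : K, ι u = c • v}
      zero_mem' := ⟨0, by rw [map_zero, zero_smul]⟩
      add_mem' := by
        rintro x y ⟨c, hc⟩ ⟨c', hc'⟩
        exact ⟨c + c', by rw [map_add, hc, hc', add_smul]⟩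
      smul_mem' := by
        rintro a x ⟨c, hc⟩
        exact ⟨algebraMap 𝒪 K a * c, by rw [hιsmul, hc, mul_smul]⟩ } with hΛ₀
  have hmem : ∀ u, u ∈ Λ₀ ↔ ∃ c : K, ι u = c • v := fun u => Iff.rfl
  refine ⟨Λ₀, ?_, ?_, ?_⟩
  · obtain ⟨s, u₀, hs, hsv⟩ := hfrac v
    intro hbot
    have hu₀ : u₀ ∈ Λ₀ := (hmem u₀).mpr ⟨algebraMap 𝒪 K s, hsv.symm⟩
    rw [hbot, Submodule.mem_bot] at hu₀
    rw [hu₀, map_zero] at hsv
    apply hv0
    apply hcancel s hs
    rw [hsv, smul_zero]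
  · intro g u hu
    obtain ⟨c, hc⟩ := (hmem u).mp hu
    exact (hmem _).mpr ⟨c * χ g, by rw [← hρι, hc, map_smul, (hχ g).1, mul_smul]⟩
  · intro g h u hu
    obtain ⟨c, hc⟩ := (hmem u).mp hu
    apply hιinj
    rw [← hρι, ← hρι, ← hρι, ← hρι, hc, map_smul, map_smul, map_smul, map_smul, (hχ h).1, (hχ g).1,
      map_smul, map_smul, (hχ h).1, (hχ g).1, smul_comm (χ h) (χ g)]

end BC

end Fermat.Agent.Lib.S59
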