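/-
Programme (R) / node [IA′] / D = EXTRACTION, the geometric input (helper9, prefix `s59m_`).

Level `M q` (`q ≥ 5` prime, `q ∤ M`, `M` arbitrary), `p ≥ 5` prime, `p ≠ q`, `P ∣ q` a place of `ℚ̄`, `a : ℕ → ℤ`,
`B ⊇ {r ∣ M q p}`.  ASSUME the eigensystem `a` does NOT occur on `J₀(M)[p]` (`hnoM`).  Let `V` be a SET of points of
`J₀(M q)[p ^ k]` such that
* every point of `V` is fixed by the inertia group `I_P` (no `G_ℚ`-stability is asked),
* every point of `V` is a generalised eigen-point for `a` (`s59m_GEig`),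
* `T_ℓ₀ - (ℓ₀ + 1)` is surjective on `V` for one prime `ℓ₀ ∤ M q` (a non-Eisenstein prime).
Then, for every Frobenius element `σ` at `P`:

* `s59m_toric_of_geig_I`   : every point of `V` is toric (exponent `p ^ k`)     ([A]ₙ helper7 + [B]ₙ `s59m_redN`);
* `s59m_frob_of_geig_I`    : `σ z = − q · w_q z` on `V`                           ([C]ₙ helper7);
* **`s59m_frob_sq_of_geig_I`** : `σ² z = q² z` on `V` (no `σ`-stability of `V` needed: `w_q` commutes with `G_ℚ`).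
-/
import Fermat.Agent.Lib.S59.MRedNAsm
import Fermat.Agent.Lib.S59.NFinI
import Fermat.Agent.Lib.S59.NGeoN

set_option autoImplicit false
set_option linter.style.haveILetI false
set_option linter.unusedSectionVars false

noncomputable section

namespace Fermat.Agent.Lib.S59

open ModularCurve Fermat.Agent.Lib.S44

local notation "Kb" => AlgebraicClosure ℚ
local notation "Γℚ" => (AlgebraicClosure ℚ ≃ₐ[ℚ] AlgebraicClosure ℚ)

section Geo

variable (M q : ℕ) [NeZero M] [hq : Fact q.Prime] (hqM : ¬ q ∣ M) (h5 : 5 ≤ q)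
  (p : ℕ) [hp : Fact p.Prime] (hp5 : 5 ≤ p) (hpq : p ≠ q) (k : ℕ)
  (P : ValuationSubring Kb) (hP : P.LiesOverPrime q)
  (a : ℕ → ℤ) (B : Finset ℕ) (hB : ∀ r : ℕ, r.Prime → r ∣ M * q * p → r ∈ B)
  (hnoM : ¬ ∃ y : JZero M, y ≠ 0 ∧ s44i_Eig M p a B y)
  (ℓ₀ : Nat.Primes) (hℓ₀ : ¬ (ℓ₀ : ℕ) ∣ M * q)
  (V : Set (JZero (M * q)))
  (hVI : ∀ z ∈ V, ∀ τ ∈ P.inertiaSubgroupIn ℚ, τ • z = z)
  (hVE : ∀ z ∈ V, s59m_GEig (M * q) (p ^ k) a B z)
  (hsurj : ∀ z ∈ V, ∃ z' ∈ V,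
    heckeOperatorBar (M * q) ℓ₀ z' - (((ℓ₀ : ℕ) + 1 : ℕ) : ℤ) • z' = z)

include hp5 in
theorem s59m_pk_coprime_six : (p ^ k).Coprime 6 := by
  apply Nat.Coprime.pow_left
  have h2 : ¬ 2 ∣ p := fun h => by
    have := (Nat.prime_dvd_prime_iff_eq Nat.prime_two hp.out).mp h
    omega
  have h3 : ¬ 3 ∣ p := fun h => by
    have := (Nat.prime_dvd_prime_iff_eq Nat.prime_three hp.out).mp h
    omega
  have h6 : (6 : ℕ) = 2 * 3 := by norm_num
  rw [h6]
  exact Nat.Coprime.mul_right ((Nat.Prime.coprime_iff_not_dvd Nat.prime_two).mpr h2).symm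
    ((Nat.Prime.coprime_iff_not_dvd Nat.prime_three).mpr h3).symm

include hpq in
theorem s59m_q_not_dvd_pk : ¬ q ∣ p ^ k := fun h =>
  hpq ((Nat.prime_dvd_prime_iff_eq hq.out hp.out).mp (hq.out.dvd_of_dvd_pow h)).symm

include h5 hp5 hpq hP hB hnoM hℓ₀ hVI hVE hsurj in
/-- every point of `V` is toric. -/
theorem s59m_toric_of_geig_I : ∀ z ∈ V, s59m_Toric M q (p ^ k) hqM P z := by
  intro z hz
  have hfin : s59n_Finite M q (p ^ k) hqM P z :=
    s59n_fin_surj_I M q hqM h5 (p ^ k) (pow_ne_zero k hp.out.ne_zero) (s59m_pk_coprime_six p hp5 k)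
      P hP ℓ₀ hℓ₀ V (fun z hz => (hVE z hz).1) hVI hsurj z hz
  rcases s59m_redN M q hqM h5 p hpq k P hP a B hB z (hVE z hz) hfin with h | h
  · exact absurd h hnoM
  · exact h

include hqM h5 hp5 hpq hP hB hnoM hℓ₀ hVI hVE hsurj in
/-- a Frobenius element at `P` acts as `− q · w_q` on `V`. -/
theorem s59m_frob_of_geig_I {σ : Γℚ} (hσ : P.IsFrobeniusAt σ q) :
    haveI : NeZero q := ⟨hq.out.ne_zero⟩
    ∀ z ∈ V, σ • z = (-(q : ℤ)) • s59m_wq M q hq.out hqM z := by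
  haveI : NeZero q := ⟨hq.out.ne_zero⟩
  intro z hz
  exact s59n_toric_geo_n M q hqM h5 (p ^ k) (pow_ne_zero k hp.out.ne_zero)
    (s59m_q_not_dvd_pk q p hpq k) P hP
    (s59m_toric_of_geig_I M q hqM h5 p hp5 hpq k P hP a B hB hnoM ℓ₀ hℓ₀ V hVI hVE hsurj z hz) hσ

include hqM h5 hp5 hpq hP hB hnoM hℓ₀ hVI hVE hsurj in
/-- **the square of a Frobenius element at `P` is `q²` on `V`.** -/
theorem s59m_frob_sq_of_geig_I {σ : Γℚ} (hσ : P.IsFrobeniusAt σ q) :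
    ∀ z ∈ V, σ • σ • z = ((q : ℤ) ^ 2) • z := by
  haveI : NeZero q := ⟨hq.out.ne_zero⟩
  intro z hz
  have h1 := s59m_frob_of_geig_I M q hqM h5 p hp5 hpq k P hP a B hB hnoM ℓ₀ hℓ₀ V hVI hVE hsurj
    hσ z hz
  have hcomm : ∀ (n : ℤ) (y : JZero (M * q)), σ • (n • y) = n • (σ • y) := fun n y =>
    map_zsmul (DistribSMul.toAddMonoidHom (JZero (M * q)) σ) n y
  rw [h1, hcomm, ← s59m_wq_smul, h1, map_zsmul, s59m_wq_wq, ← mul_smul]
  congr 1
  ring

end Geo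

end Fermat.Agent.Lib.S59
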