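/-
Programme (R) / node [IA′] / D = EXTRACTION, the end of the argument (NL) (helper9, prefix `s59m_`).

**No commutative piece.**  `W` a Weierstrass curve over `ℤ` with `W[p]` irreducible (`p` odd), `Z ≤ J₀(N)[p]` a subgroup
stable under `G_ℚ` and the good Hecke operators, on which `T_ℓ = a_ℓ(W)`.  If complex conjugation `c` commutes with
the action of `G_ℚ` on `Z` (e.g. if `G_ℚ` acts on `Z` through a commutative quotient), then `Z = 0`.

Proof: `Z = Z⁺ ⊕ Z⁻` (eigenspaces of `c`, `p` odd), both stable; on `Z^δ` the element `c` acts as the integer `δ = ± 1`,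
so by the soft endgame of Mazur's principle (`s59m_end'`: an element acting on a stable eigen-piece as an integer scalar
`δ` has `δ² = χ_p`) `1 = χ_p(c) = − 1` in `𝔽_p`.

* `s59m_chi_conj` : `χ_p(c) = − 1`;
* `s59m_no_comm`  : the statement above.
-/
import Fermat.Agent.Lib.S59.MEnd
import Fermat.Agent.Lib.S30.CycConj
import Fermat.Agent.Lib.S30.TateLevel

set_option autoImplicit false
set_option linter.style.haveILetI false
set_option linter.unusedSectionVars false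

namespace Fermat.Agent.Lib.S59

open Module ModularCurve WeierstrassCurve WeierstrassCurve.Affine
open Fermat.Agent.Lib.S33 Fermat.Agent.Lib.S41 Fermat.Agent.Lib.S44 Fermat.Agent.Lib.S58
open Fermat.Agent.Lib.S30

local notation "Γℚ" => (AlgebraicClosure ℚ ≃ₐ[ℚ] AlgebraicClosure ℚ)
local notation "Kb" => AlgebraicClosure ℚ

noncomputable section

/-- **the mod `p` cyclotomic character of complex conjugation is `− 1`.** -/
theorem s59m_chi_conj (p : ℕ) [hp : Fact p.Prime] :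
    ((s33r_chi p complexConjugation : (ZMod p)ˣ) : ZMod p) = -1 := by
  have h := s33r_chi_eq_of_acts (p := p) complexConjugation (p - 1)
    (fun ζ hζ => s30c2_conj_root ζ p hζ hp.out.ne_zero)
  rw [← h, Nat.cast_sub hp.out.one_le, ZMod.natCast_self, Nat.cast_one, zero_sub]

/-- the `δ`-eigenspace of complex conjugation in `Z`. -/
def s59m_conjPart {N : ℕ} [NeZero N] (Z : Submodule ℤ (JZero N)) (δ : ℤ) : Submodule ℤ (JZero N) where
  carrier := {z | z ∈ Z ∧ (complexConjugation : Γℚ) • z = δ • z}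
  zero_mem' := ⟨Z.zero_mem, by rw [smul_zero, smul_zero]⟩
  add_mem' := by
    rintro x y ⟨hx, hx'⟩ ⟨hy, hy'⟩
    exact ⟨Z.add_mem hx hy, by rw [smul_add, hx', hy', zsmul_add]⟩
  smul_mem' := by
    rintro n x ⟨hx, hx'⟩
    refine ⟨Z.smul_mem n hx, ?_⟩
    have h1 : (complexConjugation : Γℚ) • (n • x) = n • ((complexConjugation : Γℚ) • x) :=
      map_zsmul (DistribSMul.toAddMonoidHom (JZero N) (complexConjugation : Γℚ)) n x
    rw [h1, hx', smul_comm]

theorem s59m_mem_conjPart {N : ℕ} [NeZero N] {Z : Submodule ℤ (JZero N)} {δ : ℤ} {z : JZero N} :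
    z ∈ s59m_conjPart Z δ ↔ z ∈ Z ∧ (complexConjugation : Γℚ) • z = δ • z := Iff.rfl

variable (W : WeierstrassCurve ℤ) (hΔ : W.Δ ≠ 0) {p : ℕ} [hp : Fact p.Prime]

include hΔ in
/-- **(NL): no non-zero stable eigen-piece of `J₀(N)[p]` on which complex conjugation is central.** -/
theorem s59m_no_comm (hp2 : p ≠ 2)
    (hirrU : ∀ U : AddSubgroup (s58_Pt W), U ≤ (s44s_Wp W p).toAddSubgroup →
      (∀ g : Γℚ, ∀ v ∈ U, g • v ∈ U) → U = ⊥ ∨ U = (s44s_Wp W p).toAddSubgroup)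
    {N : ℕ} [NeZero N]
    {S₁ : Finset ℕ} (hpS : p ∈ S₁) (hNS : ∀ q : ℕ, q.Prime → q ∣ N → q ∈ S₁)
    (hΔS : ∀ q : ℕ, q.Prime → (q : ℤ) ∣ W.Δ → q ∈ S₁)
    {Z : Submodule ℤ (JZero N)} (hZ : s33r_Stable N p S₁ Z)
    (hZeig : ∀ ℓ : Nat.Primes, (ℓ : ℕ) ∉ S₁ → ∀ y ∈ Z,
      heckeOperatorBar N ℓ y = W.apOfModel ℓ • y)
    (hcomm : ∀ g : Γℚ, ∀ z ∈ Z,
      (complexConjugation : Γℚ) • g • z = g • (complexConjugation : Γℚ) • z) :
    ∀ z ∈ Z, z = 0 := by
  classical
  set c : Γℚ := complexConjugation with hc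
  have hcc : ∀ z : JZero N, c • c • z = z := by
    intro z
    rw [← mul_smul, hc, complexConjugation_mul_self, one_smul]
  have hzs : ∀ (σ : Γℚ) (n : ℤ) (y : JZero N), σ • (n • y) = n • (σ • y) := fun σ n y =>
    map_zsmul (DistribSMul.toAddMonoidHom (JZero N) σ) n y
  -- the eigenspaces are stable
  have hst : ∀ δ : ℤ, s33r_Stable N p S₁ (s59m_conjPart Z δ) := by
    intro δ
    refine ⟨fun y hy => hZ.tors y hy.1, fun σ y hy => ?_, fun ℓ hℓ y hy => ?_⟩
    · refine ⟨hZ.gal σ y hy.1, ?_⟩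
      rw [← hc, hcomm σ y hy.1, hy.2, hzs]
    · refine ⟨hZ.hecke ℓ hℓ y hy.1, ?_⟩
      rw [← hc, s30a_pt_comm, hy.2, map_zsmul]
  -- no non-zero eigenvector of `c` with eigenvalue `± 1`
  have hkey : ∀ δ : ℤ, δ ^ 2 = 1 → ∀ z ∈ s59m_conjPart Z δ, z = 0 := by
    intro δ hδ z hz
    by_contra hz0
    have h := (s59m_end' W hΔ hp2 hirrU hpS hNS hΔS (hst δ)
      (fun ℓ hℓ y hy => hZeig ℓ hℓ y hy.1) ⟨z, hz, hz0⟩ c δ (fun y hy => hy.2)).1
    rw [hc, s59m_chi_conj, ← Int.cast_pow, hδ, Int.cast_one] at h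
    have h2 : ((2 : ℕ) : ZMod p) = 0 := by
      have : (1 : ZMod p) + 1 = 0 := by
        nth_rewrite 1 [h]
        exact neg_add_cancel 1
      rw [Nat.cast_ofNat, ← one_add_one_eq_two]
      exact this
    have h3 : p ∣ 2 := (ZMod.natCast_eq_zero_iff 2 p).mp h2
    exact hp2 ((Nat.prime_dvd_prime_iff_eq hp.out Nat.prime_two).mp h3)
  intro z hz
  have hcz : c • z ∈ Z := hZ.gal c z hz
  have h1 : z + c • z ∈ s59m_conjPart Z 1 :=
    ⟨Z.add_mem hz hcz, by rw [← hc, smul_add, hcc, one_smul, add_comm]⟩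
  have h2 : z - c • z ∈ s59m_conjPart Z (-1) :=
    ⟨Z.sub_mem hz hcz, by rw [← hc, smul_sub, hcc, neg_smul, one_smul, neg_sub]⟩
  have e1 := hkey 1 (by norm_num) _ h1
  have e2 := hkey (-1) (by norm_num) _ h2
  have e3 : (2 : ℤ) • z = 0 := by
    have : (2 : ℤ) • z = (z + c • z) + (z - c • z) := by
      rw [show (2 : ℤ) = 1 + 1 by norm_num, add_zsmul, one_zsmul]; abel
    rw [this, e1, e2, add_zero]
  -- `p` odd, `p • z = 0`, `2 • z = 0` ⇒ `z = 0`
  have hpz : (p : ℤ) • z = 0 := by rw [natCast_zsmul]; exact hZ.tors z hz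
  have hcop : IsCoprime (2 : ℤ) (p : ℤ) := by
    have : Nat.Coprime 2 p := (Nat.coprime_primes Nat.prime_two hp.out).mpr (Ne.symm hp2)
    exact_mod_cast Nat.isCoprime_iff_coprime.mpr this
  obtain ⟨u, v, huv⟩ := hcop
  calc z = (1 : ℤ) • z := (one_smul ℤ z).symm
    _ = (u * 2 + v * (p : ℤ)) • z := by rw [huv]
    _ = u • ((2 : ℤ) • z) + v • ((p : ℤ) • z) := by rw [add_zsmul, mul_zsmul, mul_zsmul]
    _ = 0 := by rw [e3, hpz, smul_zero, smul_zero, add_zero]

end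

end Fermat.Agent.Lib.S59
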