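/-
Programme (R) / [IA′], node D = EXTRACTION (helper9, prefix `s59m_`): **THE EXTRACTION THEOREM.**

Level `M q` (`q ≥ 5` prime, `q ∤ M`, `M` arbitrary), `p ≥ 5` prime, `p ≠ q`, `P ∣ q` a place of `ℚ̄`, `φ` a Frobenius
element at `P`; `W` a Weierstrass curve over `ℤ` with `W[p]` irreducible, `a_ℓ = a_ℓ(W)`, `B ⊇ {r ∣ M q p Δ_W}`,
`ℓ₀ ∉ B`.

**INPUT = a characteristic-zero eigen-lattice at level `M q` which is "unramified at `q`":**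
* `𝒪` a domain of characteristic zero, `U ≠ 0` a finitely generated torsion-free `𝒪`-module with an `𝒪`-linear action `ρ`
  of `G_ℚ`;
* `t d : G_ℚ → 𝒪` with `g² - t(g) g + d(g) = 0` on `U`, `d` multiplicative, nowhere zero, `d φ = q`
  (Eichler–Shimura + density; `d` = cyclotomic character);
* THE TRACE CONDITION at `q`: `t (σ h) = t h`, `d σ = 1` for `σ ∈ I_P` (the abstract representation with trace `t` is
  trivial on `I_P`);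
* "reduction maps" `r k i : U →+ J₀(M q)(ℚ̄)` (`k : ℕ`, `i : ι`), landing in the `p ^ k`-torsion, `G_ℚ`-equivariant,
  jointly separating (`hr_sep`), with `T_ℓ (r k i u) = r k i (x ℓ • u)` for `ℓ ∉ B` (`x ℓ ∈ 𝒪` = the eigenvalue of `T_ℓ`),
  `(x ℓ - a_ℓ) ^ m ∈ p 𝒪` for some `m` (the eigensystem reduces to `a`), `x ℓ₀ - (ℓ₀ + 1)` a unit of `𝒪`
  (`ℓ₀` non-Eisenstein).
  (Examples: `U ≤ T_p J₀(M q)` the part killed by a prime of the `ℤ_p`-Hecke algebra, `ι = Unit`, `r k _` = the `k`-th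
  component; or `U ≤ 𝒪' ⊗ T_p J₀(M q)` an eigen-lattice, `ι = Hom_{ℤ_p}(𝒪', ℤ_p)`, `r k f` = `k`-th component of `f ⊗ 1`.)

**OUTPUT** (`s59m_extract`): the eigensystem `a` occurs on `J₀(M)[p]`: `∃ y ≠ 0, s44i_Eig M p a B y`.

Proof.  If not, every `I_P`-fixed `u ∈ U` reduces to points which are finite ([A]ₙ, helper7), hence toric ([B]ₙ), hence
`φ² = q²` on them ([C]ₙ, helper7): `φ² = q²` on `U^{I_P}` (`MExtGeo`).  The abstract core (`MExtBC`/`MExtAbs`) gives a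
non-zero `G_ℚ`-stable `Λ₀ ≤ U` with commutative action; its reduction to a suitable `J₀(M q)[p ^ k]` contains a non-zero
stable eigen-piece `Z ≤ J₀(M q)[p]` with commutative `G_ℚ`-action, contradicting `MExtNL` (complex conjugation).
-/
import Fermat.Agent.Lib.S59.MExtBC
import Fermat.Agent.Lib.S59.MExtGeo
import Fermat.Agent.Lib.S59.MExtNL

set_option autoImplicit false
set_option linter.style.haveILetI false
set_option linter.unusedSectionVars false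

noncomputable section

namespace Fermat.Agent.Lib.S59

open ModularCurve AlgebraicCurve Fermat.Agent.Lib.S44 Fermat.Agent.Lib.S33 Fermat.Agent.Lib.S30
  Fermat.Agent.Lib.S58 Fermat.Agent.Lib.S29 Fermat.Agent.Lib.S15

local notation "Kb" => AlgebraicClosure ℚ
local notation "Γℚ" => (AlgebraicClosure ℚ ≃ₐ[ℚ] AlgebraicClosure ℚ)

/-- a common kernel vector inside a stable subgroup. -/
theorem s59m_exists_common_ker_in {A : Type*} [AddCommGroup A] {ι : Type*}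
    (D : ι → Module.End ℤ A) (hcomm : ∀ i j, D i * D j = D j * D i)
    (S : Submodule ℤ A) (hS : ∀ i, ∀ z ∈ S, D i z ∈ S) (p k : ℕ)
    (hfin : {y : A | p ^ k • y = 0}.Finite)
    (z : A) (hzS : z ∈ S) (hz : z ≠ 0) (hpz : p ^ k • z = 0) (hnil : ∀ i, ∃ m : ℕ, (D i ^ m) z = 0) :
    ∃ y ∈ S, y ≠ 0 ∧ p • y = 0 ∧ ∀ i, D i y = 0 := by
  classical
  set D' : ι → Module.End ℤ ↥S := fun i => (D i).restrict (hS i) with hD'
  have hcomm' : ∀ i j, D' i * D' j = D' j * D' i := by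
    intro i j
    apply LinearMap.ext
    intro y
    apply Subtype.ext
    have h := congrArg (fun f : Module.End ℤ A => f (y : A)) (hcomm i j)
    simpa only [hD', Module.End.mul_apply, LinearMap.restrict_coe_apply] using h
  have hfin' : {y : ↥S | p ^ k • y = 0}.Finite := by
    have hinj : Set.InjOn (fun y : ↥S => (y : A)) {y : ↥S | p ^ k • y = 0} :=
      fun a _ b _ hab => Subtype.ext hab
    refine Set.Finite.of_finite_image (hfin.subset ?_) hinj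
    rintro _ ⟨y, hy, rfl⟩
    show p ^ k • (y : A) = 0
    have h1 : ((p ^ k • y : ↥S) : A) = 0 := by
      have : p ^ k • y = 0 := hy
      rw [this]; rfl
    rwa [Submodule.coe_smul_of_tower] at h1
  have hz' : (⟨z, hzS⟩ : ↥S) ≠ 0 := fun h => hz (congrArg Subtype.val h)
  have hpz' : p ^ k • (⟨z, hzS⟩ : ↥S) = 0 := by
    apply Subtype.ext
    rw [Submodule.coe_smul_of_tower]
    exact hpz
  have hnil' : ∀ i, ∃ m : ℕ, (D' i ^ m) (⟨z, hzS⟩ : ↥S) = 0 := by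
    intro i
    obtain ⟨m, hm⟩ := hnil i
    refine ⟨m, ?_⟩
    apply Subtype.ext
    rw [hD']
    simp only
    rw [Module.End.pow_restrict, LinearMap.restrict_coe_apply]
    exact hm
  obtain ⟨y, hy0, hpy, hy⟩ := s59m_exists_common_ker D' hcomm' p k hfin' ⟨z, hzS⟩ hz' hpz' hnil'
  refine ⟨(y : A), y.2, fun h => hy0 (Subtype.ext h), ?_, fun i => ?_⟩
  · have := congrArg Subtype.val hpy
    rwa [Submodule.coe_smul_of_tower] at this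
  · have := congrArg Subtype.val (hy i)
    simpa only [hD', LinearMap.restrict_coe_apply, ZeroMemClass.coe_zero] using this

section Extract

variable (M q : ℕ) [NeZero M] [hq : Fact q.Prime] (hqM : ¬ q ∣ M) (h5 : 5 ≤ q)
  (p : ℕ) [hp : Fact p.Prime] (hp5 : 5 ≤ p) (hpq : p ≠ q)
  (P : ValuationSubring Kb) (hP : P.LiesOverPrime q) (φ : Γℚ) (hφ : P.IsFrobeniusAt φ q)
  (W : WeierstrassCurve ℤ) (hΔ : W.Δ ≠ 0)
  (hirrU : ∀ U : AddSubgroup (s58_Pt W), U ≤ (s44s_Wp W p).toAddSubgroup →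
    (∀ g : Γℚ, ∀ v ∈ U, g • v ∈ U) → U = ⊥ ∨ U = (s44s_Wp W p).toAddSubgroup)
  (B : Finset ℕ) (hB : ∀ r : ℕ, r.Prime → r ∣ M * q * p → r ∈ B)
  (hΔB : ∀ r : ℕ, r.Prime → (r : ℤ) ∣ W.Δ → r ∈ B)
  (ℓ₀ : Nat.Primes) (hℓ₀ : (ℓ₀ : ℕ) ∉ B)
  {𝒪 : Type*} [CommRing 𝒪] [IsDomain 𝒪] [CharZero 𝒪]
  {U : Type*} [AddCommGroup U] [Module 𝒪 U] [Module.Finite 𝒪 U] [Module.IsTorsionFree 𝒪 U]
  [Nontrivial U]
  (ρ : Γℚ →* Module.End 𝒪 U) (t d : Γℚ → 𝒪)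
  (hrel : ∀ g u, ρ g (ρ g u) - t g • ρ g u + d g • u = 0)
  (hd : ∀ g h, d (g * h) = d g * d h) (hd0 : ∀ g, d g ≠ 0) (hdφ : d φ = (q : 𝒪))
  (hIt : ∀ σ ∈ P.inertiaSubgroupIn ℚ, ∀ h, t (σ * h) = t h)
  (hId : ∀ σ ∈ P.inertiaSubgroupIn ℚ, d σ = 1)
  (x : Nat.Primes → 𝒪)
  (hx : ∀ ℓ : Nat.Primes, (ℓ : ℕ) ∉ B →
    ∃ (m : ℕ) (c : 𝒪), (x ℓ - ((W.apOfModel ℓ : ℤ) : 𝒪)) ^ m = (p : 𝒪) * c)
  (hx₀ : IsUnit (x ℓ₀ - ((((ℓ₀ : ℕ) + 1 : ℕ) : ℕ) : 𝒪)))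
  {ι : Type*} (r : ℕ → ι → U →+ JZero (M * q))
  (hr_tors : ∀ k i u, p ^ k • r k i u = 0)
  (hr_gal : ∀ k i (g : Γℚ) u, r k i (ρ g u) = g • r k i u)
  (hr_T : ∀ k i (ℓ : Nat.Primes), (ℓ : ℕ) ∉ B → ∀ u,
    heckeOperatorBar (M * q) ℓ (r k i u) = r k i (x ℓ • u))
  (hr_sep : ∀ u, (∀ k i, r k i u = 0) → u = 0)

include hr_T in
/-- `(T_ℓ - a_ℓ)^m` on a reduction. -/
theorem s59m_ext_pow (a : ℕ → ℤ) (k : ℕ) (i : ι) (ℓ : Nat.Primes) (hℓ : (ℓ : ℕ) ∉ B) (m : ℕ) (u : U) :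
    ((heckeOperatorBar (M * q) ℓ - (a ℓ) • (1 : Module.End ℤ (JZero (M * q)))) ^ m) (r k i u) =
      r k i ((x ℓ - ((a ℓ : ℤ) : 𝒪)) ^ m • u) := by
  induction m generalizing u with
  | zero => rw [pow_zero, pow_zero, Module.End.one_apply, one_smul]
  | succ m ih =>
    have h1 : (heckeOperatorBar (M * q) ℓ - (a ℓ) • (1 : Module.End ℤ (JZero (M * q)))) (r k i u) =
        r k i ((x ℓ - ((a ℓ : ℤ) : 𝒪)) • u) := by
      rw [LinearMap.sub_apply, LinearMap.smul_apply, Module.End.one_apply, hr_T k i ℓ hℓ u, sub_smul,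
        map_sub, Int.cast_smul_eq_zsmul, map_zsmul]
    rw [pow_succ, Module.End.mul_apply, h1, ih, pow_succ, mul_smul]

include hx hr_tors hr_T in
/-- the reductions are generalised eigen-points. -/
theorem s59m_ext_geig (k : ℕ) (i : ι) (u : U) :
    s59m_GEig (M * q) (p ^ k) (fun ℓ => W.apOfModel ℓ) B (r k i u) := by
  refine ⟨hr_tors k i u, fun ℓ hℓ => ?_⟩
  obtain ⟨m, c, hm⟩ := hx ℓ hℓ
  refine ⟨m * k, ?_⟩
  have h1 : ((heckeOperatorBar (M * q) ℓ -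
      (W.apOfModel ℓ) • (1 : Module.End ℤ (JZero (M * q)))) ^ (m * k)) (r k i u) =
      r k i ((x ℓ - ((W.apOfModel ℓ : ℤ) : 𝒪)) ^ (m * k) • u) :=
    s59m_ext_pow M q B x r hr_T (fun ℓ => W.apOfModel ℓ) k i ℓ hℓ (m * k) u
  rw [h1, pow_mul, hm, mul_pow, mul_smul, ← Nat.cast_pow, Nat.cast_smul_eq_nsmul, map_nsmul,
    hr_tors]

include hqM h5 hp5 hpq hP hφ hB hℓ₀ hx hx₀ hr_tors hr_gal hr_T hr_sep in
/-- **`φ² = q²` on the `I_P`-fixed part of `U`** when the eigensystem does not occur at level `M`. -/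
theorem s59m_ext_frob_sq
    (hnoM : ¬ ∃ y : JZero M, y ≠ 0 ∧ s44i_Eig M p (fun ℓ => W.apOfModel ℓ) B y)
    (u : U) (hu : ∀ σ ∈ P.inertiaSubgroupIn ℚ, ρ σ u = u) :
    ρ φ (ρ φ u) = ((q : 𝒪) * (q : 𝒪)) • u := by
  apply sub_eq_zero.mp
  apply hr_sep
  intro k i
  rw [map_sub, sub_eq_zero, hr_gal, hr_gal]
  have hℓ₀' : ¬ (ℓ₀ : ℕ) ∣ M * q := fun h => hℓ₀ (hB _ ℓ₀.2 (h.mul_right p))
  set V : Set (JZero (M * q)) :=
    {z | ∃ (i : ι) (u : U), (∀ σ ∈ P.inertiaSubgroupIn ℚ, ρ σ u = u) ∧ r k i u = z} with hV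
  have hVI : ∀ z ∈ V, ∀ τ ∈ P.inertiaSubgroupIn ℚ, τ • z = z := by
    rintro z ⟨i, u, hu, rfl⟩ τ hτ
    rw [← hr_gal, hu τ hτ]
  have hVE : ∀ z ∈ V, s59m_GEig (M * q) (p ^ k) (fun ℓ => W.apOfModel ℓ) B z := by
    rintro z ⟨i, u, -, rfl⟩
    exact s59m_ext_geig M q p W B x hx r hr_tors hr_T k i u
  have hsurj : ∀ z ∈ V, ∃ z' ∈ V,
      heckeOperatorBar (M * q) ℓ₀ z' - (((ℓ₀ : ℕ) + 1 : ℕ) : ℤ) • z' = z := by
    rintro z ⟨i, u, hu, rfl⟩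
    set e : 𝒪ˣ := hx₀.unit with he
    have he' : ((e : 𝒪ˣ) : 𝒪) = x ℓ₀ - ((((ℓ₀ : ℕ) + 1 : ℕ) : ℕ) : 𝒪) := hx₀.unit_spec
    set u' : U := ((e⁻¹ : 𝒪ˣ) : 𝒪) • u with hu'
    have hu'I : ∀ σ ∈ P.inertiaSubgroupIn ℚ, ρ σ u' = u' := fun σ hσ => by
      rw [hu', map_smul, hu σ hσ]
    refine ⟨r k i u', ⟨i, u', hu'I, rfl⟩, ?_⟩
    rw [hr_T k i ℓ₀ hℓ₀ u', natCast_zsmul, ← map_nsmul, ← map_sub, ← Nat.cast_smul_eq_nsmul 𝒪,
      ← sub_smul, ← he', hu', smul_smul, Units.mul_inv, one_smul]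
  have h1 := s59m_frob_sq_of_geig_I M q hqM h5 p hp5 hpq k P hP (fun ℓ => W.apOfModel ℓ) B hB hnoM
    ℓ₀ hℓ₀' V hVI hVE hsurj hφ (r k i u) ⟨i, u, hu, rfl⟩
  rw [h1]
  have h2 : ((q : 𝒪) * (q : 𝒪)) • u = (q * q : ℕ) • u := by
    rw [← Nat.cast_smul_eq_nsmul 𝒪, Nat.cast_mul]
  rw [h2, map_nsmul, ← natCast_zsmul]
  congr 1
  push_cast
  ring

include hqM h5 hp5 hpq hP hφ hΔ hirrU hB hΔB hℓ₀ hrel hd hd0 hdφ hIt hId hx hx₀ hr_tors hr_gal hr_T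
  hr_sep in
/-- **THE EXTRACTION THEOREM.** -/
theorem s59m_extract : ∃ y : JZero M, y ≠ 0 ∧ s44i_Eig M p (fun ℓ => W.apOfModel ℓ) B y := by
  classical
  by_contra hnoM
  set a : ℕ → ℤ := fun ℓ => W.apOfModel ℓ with ha
  have hq2 : 2 ≤ q := hq.out.two_le
  -- the abstract core
  have hq1' : (q : 𝒪) * (q : 𝒪) - (q : 𝒪) ≠ 0 := by
    have h1 : (q : 𝒪) * (q : 𝒪) - (q : 𝒪) = ((q * (q - 1) : ℕ) : 𝒪) := by
      rw [Nat.cast_mul, Nat.cast_sub (by omega : 1 ≤ q), Nat.cast_one]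
      ring
    rw [h1]
    exact Nat.cast_ne_zero.mpr (Nat.mul_ne_zero (by omega) (by omega))
  have hq2' : (q : 𝒪) * (q : 𝒪) + (q : 𝒪) ≠ 0 := by
    have h1 : (q : 𝒪) * (q : 𝒪) + (q : 𝒪) = ((q * q + q : ℕ) : 𝒪) := by
      rw [Nat.cast_add, Nat.cast_mul]
    rw [h1]
    exact Nat.cast_ne_zero.mpr (by positivity)
  obtain ⟨Λ₀, hΛ0, hΛG, hΛc⟩ := s59m_ext_line ρ t d hrel hd hd0
    (↑(P.inertiaSubgroupIn ℚ) : Set Γℚ) hIt hId φ (q : 𝒪) hdφ hq1' hq2'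
    (fun u hu => s59m_ext_frob_sq M q hqM h5 p hp5 hpq P hP φ hφ W B hB ℓ₀ hℓ₀ ρ x hx hx₀ r hr_tors
      hr_gal hr_T hr_sep hnoM u hu)
  obtain ⟨u₀, hu₀Λ, hu₀⟩ := Submodule.exists_mem_ne_zero_of_ne_bot hΛ0
  obtain ⟨k, i, hki⟩ : ∃ k i, r k i u₀ ≠ 0 := by
    by_contra hcon
    push Not at hcon
    exact hu₀ (hr_sep u₀ hcon)
  -- the image of `Λ₀` in `J₀(M q)[p ^ k]`
  set Z₁ : Submodule ℤ (JZero (M * q)) :=
    (Λ₀.toAddSubgroup.map (r k i)).toIntSubmodule with hZ₁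
  have hmem₁ : ∀ z, z ∈ Z₁ ↔ ∃ u ∈ Λ₀, r k i u = z := fun z => Iff.rfl
  have hzs : ∀ (σ : Γℚ) (n : ℤ) (y : JZero (M * q)), σ • (n • y) = n • (σ • y) := fun σ n y =>
    map_zsmul (DistribSMul.toAddMonoidHom (JZero (M * q)) σ) n y
  have hns : ∀ (σ : Γℚ) (n : ℕ) (y : JZero (M * q)), σ • (n • y) = n • (σ • y) := fun σ n y =>
    map_nsmul (DistribSMul.toAddMonoidHom (JZero (M * q)) σ) n y
  set D : {ℓ : Nat.Primes // (ℓ : ℕ) ∉ B} → Module.End ℤ (JZero (M * q)) :=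
    fun j => heckeOperatorBar (M * q) j.1 - (a j.1) • (1 : Module.End ℤ (JZero (M * q))) with hD
  have hDcomm : ∀ j j', D j * D j' = D j' * D j := by
    intro j j'
    have hjM : ¬ ((j.1 : Nat.Primes) : ℕ) ∣ M * q := fun h => j.2 (hB _ j.1.2 (h.mul_right p))
    have hj'M : ¬ ((j'.1 : Nat.Primes) : ℕ) ∣ M * q := fun h => j'.2 (hB _ j'.1.2 (h.mul_right p))
    have hc : Commute (heckeOperatorBar (M * q) j.1) (heckeOperatorBar (M * q) j'.1) :=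
      m15a_comm_good (M * q) j.1 j'.1 hjM hj'M
    have h1 : Commute (heckeOperatorBar (M * q) j.1)
        (heckeOperatorBar (M * q) j'.1 - (a j'.1) • (1 : Module.End ℤ (JZero (M * q)))) :=
      hc.sub_right (Commute.smul_right (Commute.one_right _) _)
    have h2 : Commute ((a j.1) • (1 : Module.End ℤ (JZero (M * q))))
        (heckeOperatorBar (M * q) j'.1 - (a j'.1) • (1 : Module.End ℤ (JZero (M * q)))) :=
      Commute.smul_left (Commute.one_left _) _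
    exact (h1.sub_left h2).eq
  have hDZ₁ : ∀ j, ∀ z ∈ Z₁, D j z ∈ Z₁ := by
    rintro j z ⟨u, hu, rfl⟩
    refine (hmem₁ _).mpr ⟨(x j.1 - ((a j.1 : ℤ) : 𝒪)) • u, Λ₀.smul_mem _ hu, ?_⟩
    have h1 := s59m_ext_pow M q B x r hr_T a k i j.1 j.2 1 u
    rw [pow_one, pow_one] at h1
    exact h1.symm
  haveI : NeZero (p ^ k) := ⟨pow_ne_zero k hp.out.ne_zero⟩
  haveI hfinT : Finite (s29k_Jp (M * q) (p ^ k)) := s30a_finite_torsion (M * q) (p ^ k)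
  have hfin : {y : JZero (M * q) | p ^ k • y = 0}.Finite := by
    have hset : {y : JZero (M * q) | p ^ k • y = 0} =
        ((Pic0.torsion Kb (modularFunctionFieldBar (M * q)) (p ^ k) : AddSubgroup (JZero (M * q))) :
          Set (JZero (M * q))) := by
      ext y
      rw [Set.mem_setOf_eq, SetLike.mem_coe, Pic0.mem_torsion, natCast_zsmul]
    rw [hset]
    exact Set.toFinite _
  obtain ⟨y, hyZ₁, hy0, hpy, hDy⟩ := s59m_exists_common_ker_in D hDcomm Z₁ hDZ₁ p k hfin (r k i u₀)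
    ((hmem₁ _).mpr ⟨u₀, hu₀Λ, rfl⟩) hki (hr_tors k i u₀)
    (fun j => (s59m_ext_geig M q p W B x hx r hr_tors hr_T k i u₀).2 j.1 j.2)
  have hDy' : ∀ ℓ : Nat.Primes, (ℓ : ℕ) ∉ B → heckeOperatorBar (M * q) ℓ y = a ℓ • y := by
    intro ℓ hℓ
    have h1 := hDy ⟨ℓ, hℓ⟩
    rw [hD] at h1
    simp only at h1
    rw [s59m_D_apply, neg_smul, ← sub_eq_add_neg, sub_eq_zero] at h1
    exact h1
  -- the stable eigen-piece
  set Z : Submodule ℤ (JZero (M * q)) :=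
    { carrier := {z | z ∈ Z₁ ∧ p • z = 0 ∧
        ∀ ℓ : Nat.Primes, (ℓ : ℕ) ∉ B → heckeOperatorBar (M * q) ℓ z = a ℓ • z}
      zero_mem' := ⟨Z₁.zero_mem, nsmul_zero _, fun ℓ _ => by rw [map_zero, zsmul_zero]⟩
      add_mem' := by
        rintro z z' ⟨h1, h2, h3⟩ ⟨h1', h2', h3'⟩
        refine ⟨Z₁.add_mem h1 h1', by rw [nsmul_add, h2, h2', add_zero], fun ℓ hℓ => ?_⟩
        rw [map_add, h3 ℓ hℓ, h3' ℓ hℓ, zsmul_add]
      smul_mem' := by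
        rintro n z ⟨h1, h2, h3⟩
        refine ⟨Z₁.smul_mem n h1, ?_, fun ℓ hℓ => ?_⟩
        · rw [← natCast_zsmul, ← mul_zsmul, mul_comm (p : ℤ) n, mul_zsmul, natCast_zsmul, h2,
            zsmul_zero]
        · rw [map_zsmul, h3 ℓ hℓ, ← mul_zsmul, mul_comm n (a ℓ), mul_zsmul] } with hZ
  have hmemZ : ∀ z, z ∈ Z ↔ z ∈ Z₁ ∧ p • z = 0 ∧
      ∀ ℓ : Nat.Primes, (ℓ : ℕ) ∉ B → heckeOperatorBar (M * q) ℓ z = a ℓ • z := fun z => Iff.rfl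
  have hZst : s33r_Stable (M * q) p B Z := by
    refine ⟨fun z hz => hz.2.1, fun σ z hz => ?_, fun ℓ hℓ z hz => ?_⟩
    · obtain ⟨⟨u, hu, rfl⟩, h2, h3⟩ := hz
      refine (hmemZ _).mpr ⟨(hmem₁ _).mpr ⟨ρ σ u, hΛG σ u hu, hr_gal k i σ u⟩, ?_, fun ℓ hℓ => ?_⟩
      · rw [← hns, h2]
        exact map_zero (DistribSMul.toAddMonoidHom (JZero (M * q)) σ)
      · rw [← s30a_pt_comm, h3 ℓ hℓ, hzs]
    · rw [hz.2.2 ℓ hℓ]
      exact Z.smul_mem _ hz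
  have hZeig : ∀ ℓ : Nat.Primes, (ℓ : ℕ) ∉ B → ∀ z ∈ Z,
      heckeOperatorBar (M * q) ℓ z = W.apOfModel ℓ • z := fun ℓ hℓ z hz => hz.2.2 ℓ hℓ
  have hZcomm : ∀ g : Γℚ, ∀ z ∈ Z,
      (complexConjugation : Γℚ) • g • z = g • (complexConjugation : Γℚ) • z := by
    rintro g z ⟨⟨u, hu, rfl⟩, -, -⟩
    rw [← hr_gal, ← hr_gal, ← hr_gal, ← hr_gal, hΛc _ _ u hu]
  have hp2 : p ≠ 2 := by omega
  have hpS : p ∈ B := hB p hp.out (Dvd.intro_left _ rfl)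
  have hNS : ∀ r : ℕ, r.Prime → r ∣ M * q → r ∈ B := fun r hr h => hB r hr (h.mul_right p)
  exact hy0 (s59m_no_comm W hΔ hp2 hirrU hpS hNS hΔB hZst hZeig hZcomm y
    ((hmemZ y).mpr ⟨hyZ₁, hpy, hDy'⟩))

end Extract

end Fermat.Agent.Lib.S59
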