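/-
Programme (R) / [IA′], node D = EXTRACTION (helper9, prefix `s59m_`): **THE EXTRACTION THEOREM ON MAIN'S TATE MODULE.**

Instantiation of `s59m_extract` with
* `𝒪` a domain of characteristic zero, noetherian, free as a `ℤ_[p]`-module (e.g. a DVR finite over `ℤ_p`),
* `U = Λ_x ≤ 𝒪 ⊗[ℤ_[p]] T_p J₀(M q)` (main's `s30a_TJ (M * q) p`) the `x`-eigen-lattice for the `T_ℓ`, `ℓ ∉ B`
  (non-zero: `v₀`),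
* the reduction maps `r k f v = ` the `k`-th component of `(f ⊗ 1) v ∈ ℤ_[p] ⊗ T_p = T_p`, `f ∈ Hom_{ℤ_p}(𝒪, ℤ_p)`.

`s59m_extract_TJ`: if the Cayley–Hamilton relations `g² - t(g) g + d(g) = 0` hold on `Λ_x` with a trace function `t`
invariant under left translation by `I_P` (`P ∣ q`), `d φ = q`, `x_ℓ ≡ a_ℓ(W)`, `x_ℓ₀ - (ℓ₀ + 1)` a unit, then the
eigensystem of `W` occurs on `J₀(M)[p]`.
-/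
import Fermat.Agent.Lib.S59.MExtract
import Fermat.Agent.Lib.S30.TateDatum

set_option autoImplicit false
set_option linter.style.haveILetI false
set_option linter.unusedSectionVars false

noncomputable section

namespace Fermat.Agent.Lib.S59

open ModularCurve AlgebraicCurve TensorProduct Fermat.Agent.Lib.S44 Fermat.Agent.Lib.S33
  Fermat.Agent.Lib.S30 Fermat.Agent.Lib.S58 Fermat.Agent.Lib.S29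

local notation "Kb" => AlgebraicClosure ℚ
local notation "Γℚ" => (AlgebraicClosure ℚ ≃ₐ[ℚ] AlgebraicClosure ℚ)

/-! ### Reduction maps on `𝒪 ⊗ T_p A` -/

section Red

variable (A : Type*) [AddCommGroup A] (p : ℕ) [hp : Fact p.Prime]
  (𝒪 : Type*) [CommRing 𝒪] [Algebra ℤ_[p] 𝒪]

/-- the `k`-th component of `(f ⊗ 1) v`. -/
def s59m_redT (k : ℕ) (f : 𝒪 →ₗ[ℤ_[p]] ℤ_[p]) : 𝒪 ⊗[ℤ_[p]] s30a_Tp A p →+ A :=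
  (s30a_proj A p k).comp
    ((TensorProduct.lid ℤ_[p] (s30a_Tp A p)).toLinearMap.comp
      (f.rTensor (s30a_Tp A p))).toAddMonoidHom

variable {A p 𝒪}

theorem s59m_redT_tmul (k : ℕ) (f : 𝒪 →ₗ[ℤ_[p]] ℤ_[p]) (c : 𝒪) (y : s30a_Tp A p) :
    s59m_redT A p 𝒪 k f (c ⊗ₜ[ℤ_[p]] y) = ((f c • y : s30a_Tp A p) : ℕ → A) k := by
  show s30a_proj A p k ((TensorProduct.lid ℤ_[p] (s30a_Tp A p))
    ((f.rTensor (s30a_Tp A p)) (c ⊗ₜ[ℤ_[p]] y))) = _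
  rw [LinearMap.rTensor_tmul, TensorProduct.lid_tmul, s30a_proj_apply]

theorem s59m_redT_tors (k : ℕ) (f : 𝒪 →ₗ[ℤ_[p]] ℤ_[p]) (v : 𝒪 ⊗[ℤ_[p]] s30a_Tp A p) :
    p ^ k • s59m_redT A p 𝒪 k f v = 0 :=
  s30a_pow_smul _ k

theorem s59m_redT_baseChange' (E : Module.End ℤ_[p] (s30a_Tp A p)) (e : A →+ A)
    (hE : ∀ (y : s30a_Tp A p) (n : ℕ), ((E y : s30a_Tp A p) : ℕ → A) n = e ((y : ℕ → A) n))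
    (k : ℕ) (f : 𝒪 →ₗ[ℤ_[p]] ℤ_[p]) (v : 𝒪 ⊗[ℤ_[p]] s30a_Tp A p) :
    s59m_redT A p 𝒪 k f (E.baseChange 𝒪 v) = e (s59m_redT A p 𝒪 k f v) := by
  induction v using TensorProduct.induction_on with
  | zero => rw [map_zero, map_zero, map_zero]
  | tmul c y =>
    rw [LinearMap.baseChange_tmul, s59m_redT_tmul, s59m_redT_tmul, ← map_smul, hE]
  | add a b ha hb => simp only [map_add, ha, hb]

theorem s59m_redT_baseChange (e : AddMonoid.End A) (k : ℕ) (f : 𝒪 →ₗ[ℤ_[p]] ℤ_[p])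
    (v : 𝒪 ⊗[ℤ_[p]] s30a_Tp A p) :
    s59m_redT A p 𝒪 k f ((s30a_map A p e).baseChange 𝒪 v) = e (s59m_redT A p 𝒪 k f v) :=
  s59m_redT_baseChange' (s30a_map A p e) e (fun _ _ => rfl) k f v

theorem s59m_redT_sep [Module.Free ℤ_[p] 𝒪] (v : 𝒪 ⊗[ℤ_[p]] s30a_Tp A p)
    (h : ∀ k f, s59m_redT A p 𝒪 k f v = 0) : v = 0 := by
  classical
  set b := Module.Free.chooseBasis ℤ_[p] 𝒪 with hb
  apply (TensorProduct.equivFinsuppOfBasisLeft (N := s30a_Tp A p) b).injective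
  rw [map_zero]
  apply Finsupp.ext
  intro i
  rw [TensorProduct.equivFinsuppOfBasisLeft_apply, Finsupp.zero_apply]
  apply s30a_ext
  intro k
  exact h k (b.coord i)

end Red

/-! ### The eigen-lattice `Λ_x ≤ 𝒪 ⊗ T_p J₀(N)` -/

section Lam

variable (N : ℕ) [NeZero N] (p : ℕ) [hp : Fact p.Prime]
  (𝒪 : Type*) [CommRing 𝒪] [Algebra ℤ_[p] 𝒪] (B : Finset ℕ) (x : Nat.Primes → 𝒪)

/-- the `x`-eigen-lattice (for the `T_ℓ`, `ℓ ∉ B`) in `𝒪 ⊗ T_p J₀(N)`. -/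
def s59m_LamX : Submodule 𝒪 (𝒪 ⊗[ℤ_[p]] s30a_TJ N p) where
  carrier := {v | ∀ ℓ : Nat.Primes, (ℓ : ℕ) ∉ B → (s30a_Tz N p ℓ).baseChange 𝒪 v = x ℓ • v}
  zero_mem' := fun ℓ _ => by rw [map_zero, smul_zero]
  add_mem' := fun {a b} ha hb ℓ hℓ => by rw [map_add, ha ℓ hℓ, hb ℓ hℓ, smul_add]
  smul_mem' := fun c a ha ℓ hℓ => by rw [map_smul, ha ℓ hℓ, smul_comm]

variable {N p 𝒪 B x}

theorem s59m_mem_LamX {v : 𝒪 ⊗[ℤ_[p]] s30a_TJ N p} :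
    v ∈ s59m_LamX N p 𝒪 B x ↔
      ∀ ℓ : Nat.Primes, (ℓ : ℕ) ∉ B → (s30a_Tz N p ℓ).baseChange 𝒪 v = x ℓ • v := Iff.rfl

variable (N p 𝒪)

/-- the Galois action on `𝒪 ⊗ T_p J₀(N)`. -/
def s59m_rhoAmb : Γℚ →* Module.End 𝒪 (𝒪 ⊗[ℤ_[p]] s30a_TJ N p) :=
  ((Module.End.baseChangeHom ℤ_[p] 𝒪 (s30a_TJ N p) :
      Module.End ℤ_[p] (s30a_TJ N p) →ₐ[ℤ_[p]] Module.End 𝒪 (𝒪 ⊗[ℤ_[p]] s30a_TJ N p)) :
    Module.End ℤ_[p] (s30a_TJ N p) →* Module.End 𝒪 (𝒪 ⊗[ℤ_[p]] s30a_TJ N p)).comp (s30a_rho N p)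

theorem s59m_rhoAmb_apply (g : Γℚ) :
    s59m_rhoAmb N p 𝒪 g = (s30a_rho N p g).baseChange 𝒪 := rfl

variable {N p 𝒪}

theorem s59m_rho_mem_LamX (g : Γℚ) (v : 𝒪 ⊗[ℤ_[p]] s30a_TJ N p)
    (hv : v ∈ s59m_LamX N p 𝒪 B x) : s59m_rhoAmb N p 𝒪 g v ∈ s59m_LamX N p 𝒪 B x := by
  intro ℓ hℓ
  have h1 : (s30a_Tz N p ℓ).baseChange 𝒪 * (s30a_rho N p g).baseChange 𝒪 =
      (s30a_rho N p g).baseChange 𝒪 * (s30a_Tz N p ℓ).baseChange 𝒪 := by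
    rw [← LinearMap.baseChange_mul, ← LinearMap.baseChange_mul, (s30a_Tz_comm N p ℓ g).eq]
  have h2 : (s30a_Tz N p ℓ).baseChange 𝒪 ((s30a_rho N p g).baseChange 𝒪 v) =
      (s30a_rho N p g).baseChange 𝒪 ((s30a_Tz N p ℓ).baseChange 𝒪 v) :=
    congrArg (fun F : Module.End 𝒪 (𝒪 ⊗[ℤ_[p]] s30a_TJ N p) => F v) h1
  show (s30a_Tz N p ℓ).baseChange 𝒪 ((s30a_rho N p g).baseChange 𝒪 v) =
    x ℓ • (s30a_rho N p g).baseChange 𝒪 v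
  rw [h2, hv ℓ hℓ, map_smul]

variable (N p 𝒪 B x)

/-- the Galois action on the eigen-lattice, one element. -/
def s59m_rhoLam1 (g : Γℚ) : Module.End 𝒪 ↥(s59m_LamX N p 𝒪 B x) :=
  (s59m_rhoAmb N p 𝒪 g).restrict (s59m_rho_mem_LamX g)

variable {N p 𝒪 B x}

theorem s59m_rhoLam1_coe (g : Γℚ) (u : ↥(s59m_LamX N p 𝒪 B x)) :
    ((s59m_rhoLam1 N p 𝒪 B x g u : ↥(s59m_LamX N p 𝒪 B x)) : 𝒪 ⊗[ℤ_[p]] s30a_TJ N p) =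
      s59m_rhoAmb N p 𝒪 g (u : 𝒪 ⊗[ℤ_[p]] s30a_TJ N p) := rfl

variable (N p 𝒪 B x)

/-- the Galois action on the eigen-lattice. -/
def s59m_rhoLam : Γℚ →* Module.End 𝒪 ↥(s59m_LamX N p 𝒪 B x) where
  toFun := s59m_rhoLam1 N p 𝒪 B x
  map_one' := by
    apply LinearMap.ext
    intro u
    apply Subtype.ext
    have h1 : s59m_rhoAmb N p 𝒪 1 = 1 := (s59m_rhoAmb N p 𝒪).map_one
    exact congrArg (fun F : Module.End 𝒪 (𝒪 ⊗[ℤ_[p]] s30a_TJ N p) =>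
      F (u : 𝒪 ⊗[ℤ_[p]] s30a_TJ N p)) h1
  map_mul' := by
    intro g h
    apply LinearMap.ext
    intro u
    apply Subtype.ext
    have h1 : s59m_rhoAmb N p 𝒪 (g * h) = s59m_rhoAmb N p 𝒪 g * s59m_rhoAmb N p 𝒪 h :=
      (s59m_rhoAmb N p 𝒪).map_mul g h
    exact congrArg (fun F : Module.End 𝒪 (𝒪 ⊗[ℤ_[p]] s30a_TJ N p) =>
      F (u : 𝒪 ⊗[ℤ_[p]] s30a_TJ N p)) h1

variable {N p 𝒪 B x}

theorem s59m_rhoLam_coe (g : Γℚ) (u : ↥(s59m_LamX N p 𝒪 B x)) :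
    ((s59m_rhoLam N p 𝒪 B x g u : ↥(s59m_LamX N p 𝒪 B x)) : 𝒪 ⊗[ℤ_[p]] s30a_TJ N p) =
      (s30a_rho N p g).baseChange 𝒪 (u : 𝒪 ⊗[ℤ_[p]] s30a_TJ N p) := rfl

variable (N p 𝒪 B x)

/-- the reduction maps on the eigen-lattice. -/
def s59m_redLam (k : ℕ) (f : 𝒪 →ₗ[ℤ_[p]] ℤ_[p]) : ↥(s59m_LamX N p 𝒪 B x) →+ JZero N :=
  (s59m_redT (JZero N) p 𝒪 k f).comp (s59m_LamX N p 𝒪 B x).subtype.toAddMonoidHom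

variable {N p 𝒪 B x}

theorem s59m_redLam_apply (k : ℕ) (f : 𝒪 →ₗ[ℤ_[p]] ℤ_[p]) (u : ↥(s59m_LamX N p 𝒪 B x)) :
    s59m_redLam N p 𝒪 B x k f u =
      s59m_redT (JZero N) p 𝒪 k f (u : 𝒪 ⊗[ℤ_[p]] s30a_TJ N p) := rfl

theorem s59m_redLam_gal (k : ℕ) (f : 𝒪 →ₗ[ℤ_[p]] ℤ_[p]) (g : Γℚ)
    (u : ↥(s59m_LamX N p 𝒪 B x)) :
    s59m_redLam N p 𝒪 B x k f (s59m_rhoLam N p 𝒪 B x g u) = g • s59m_redLam N p 𝒪 B x k f u :=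
  s59m_redT_baseChange' (s30a_rho N p g) (DistribMulAction.toAddMonoidEnd Γℚ (JZero N) g)
    (fun _ _ => rfl) k f (u : 𝒪 ⊗[ℤ_[p]] s30a_TJ N p)

theorem s59m_redLam_hecke (k : ℕ) (f : 𝒪 →ₗ[ℤ_[p]] ℤ_[p]) (ℓ : Nat.Primes) (hℓB : (ℓ : ℕ) ∉ B)
    (hℓN : ¬ (ℓ : ℕ) ∣ N) (u : ↥(s59m_LamX N p 𝒪 B x)) :
    heckeOperatorBar N ℓ (s59m_redLam N p 𝒪 B x k f u) = s59m_redLam N p 𝒪 B x k f (x ℓ • u) := by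
  have e1 : s30a_Tz N p ℓ = s30a_T N p ℓ := s30a_Tz_of_not_dvd N p hℓN
  have e2 : ((x ℓ • u : ↥(s59m_LamX N p 𝒪 B x)) : 𝒪 ⊗[ℤ_[p]] s30a_TJ N p) =
      (s30a_T N p ℓ).baseChange 𝒪 (u : 𝒪 ⊗[ℤ_[p]] s30a_TJ N p) := by
    have h := u.2 ℓ hℓB
    rw [e1] at h
    exact h.symm
  have e3 := s59m_redT_baseChange' (𝒪 := 𝒪) (s30a_T N p ℓ) (heckeOperatorBar N ℓ).toAddMonoidHom
    (fun _ _ => rfl) k f (u : 𝒪 ⊗[ℤ_[p]] s30a_TJ N p)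
  exact e3.symm.trans (congrArg (fun v => s59m_redT (JZero N) p 𝒪 k f v) e2.symm)

theorem s59m_redLam_sep [Module.Free ℤ_[p] 𝒪] (u : ↥(s59m_LamX N p 𝒪 B x))
    (hu : ∀ k f, s59m_redLam N p 𝒪 B x k f u = 0) : u = 0 :=
  Subtype.ext (s59m_redT_sep _ (fun k f => hu k f))

end Lam

/-! ### The instantiation -/

section TJ

variable (M q : ℕ) [NeZero M] [hq : Fact q.Prime] (hqM : ¬ q ∣ M) (h5 : 5 ≤ q)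
  (p : ℕ) [hp : Fact p.Prime] (hp5 : 5 ≤ p) (hpq : p ≠ q)
  (P : ValuationSubring Kb) (hP : P.LiesOverPrime q) (φ : Γℚ) (hφ : P.IsFrobeniusAt φ q)
  (W : WeierstrassCurve ℤ) (hΔ : W.Δ ≠ 0)
  (hirrU : ∀ U : AddSubgroup (s58_Pt W), U ≤ (s44s_Wp W p).toAddSubgroup →
    (∀ g : Γℚ, ∀ v ∈ U, g • v ∈ U) → U = ⊥ ∨ U = (s44s_Wp W p).toAddSubgroup)
  (B : Finset ℕ) (hB : ∀ r : ℕ, r.Prime → r ∣ M * q * p → r ∈ B)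
  (hΔB : ∀ r : ℕ, r.Prime → (r : ℤ) ∣ W.Δ → r ∈ B)
  (ℓ₀ : Nat.Primes) (hℓ₀ : (ℓ₀ : ℕ) ∉ B)
  {𝒪 : Type*} [CommRing 𝒪] [IsDomain 𝒪] [CharZero 𝒪] [IsNoetherianRing 𝒪] [Algebra ℤ_[p] 𝒪]
  [Module.Free ℤ_[p] 𝒪]
  (t d : Γℚ → 𝒪)
  (hd : ∀ g h, d (g * h) = d g * d h) (hd0 : ∀ g, d g ≠ 0) (hdφ : d φ = (q : 𝒪))
  (hIt : ∀ σ ∈ P.inertiaSubgroupIn ℚ, ∀ h, t (σ * h) = t h)
  (hId : ∀ σ ∈ P.inertiaSubgroupIn ℚ, d σ = 1)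
  (x : Nat.Primes → 𝒪)
  (hx : ∀ ℓ : Nat.Primes, (ℓ : ℕ) ∉ B →
    ∃ (m : ℕ) (c : 𝒪), (x ℓ - ((W.apOfModel ℓ : ℤ) : 𝒪)) ^ m = (p : 𝒪) * c)
  (hx₀ : IsUnit (x ℓ₀ - ((((ℓ₀ : ℕ) + 1 : ℕ) : ℕ) : 𝒪)))
  (v₀ : 𝒪 ⊗[ℤ_[p]] s30a_TJ (M * q) p) (hv₀ : v₀ ≠ 0)
  (hv₀x : ∀ ℓ : Nat.Primes, (ℓ : ℕ) ∉ B → (s30a_Tz (M * q) p ℓ).baseChange 𝒪 v₀ = x ℓ • v₀)
  (hQ : ∀ (g : Γℚ) (v : 𝒪 ⊗[ℤ_[p]] s30a_TJ (M * q) p),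
    (∀ ℓ : Nat.Primes, (ℓ : ℕ) ∉ B → (s30a_Tz (M * q) p ℓ).baseChange 𝒪 v = x ℓ • v) →
    (s30a_rho (M * q) p g).baseChange 𝒪 ((s30a_rho (M * q) p g).baseChange 𝒪 v) -
      t g • (s30a_rho (M * q) p g).baseChange 𝒪 v + d g • v = 0)

include hqM h5 hp5 hpq hP hφ hΔ hirrU hB hΔB hℓ₀ hd hd0 hdφ hIt hId hx hx₀ hv₀ hv₀x hQ in
/-- **THE EXTRACTION THEOREM on the Tate module of `J₀(M q)`.** -/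
theorem s59m_extract_TJ : ∃ y : JZero M, y ≠ 0 ∧ s44i_Eig M p (fun ℓ => W.apOfModel ℓ) B y := by
  classical
  haveI : Nontrivial ↥(s59m_LamX (M * q) p 𝒪 B x) :=
    ⟨⟨⟨v₀, hv₀x⟩, 0, fun h => hv₀ (congrArg Subtype.val h)⟩⟩
  have hrel : ∀ g (u : ↥(s59m_LamX (M * q) p 𝒪 B x)),
      s59m_rhoLam (M * q) p 𝒪 B x g (s59m_rhoLam (M * q) p 𝒪 B x g u) -
        t g • s59m_rhoLam (M * q) p 𝒪 B x g u + d g • u = 0 := by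
    intro g u
    apply Subtype.ext
    exact hQ g (u : 𝒪 ⊗[ℤ_[p]] s30a_TJ (M * q) p) u.2
  have hℓN : ∀ ℓ : Nat.Primes, (ℓ : ℕ) ∉ B → ¬ (ℓ : ℕ) ∣ M * q := fun ℓ hℓ h =>
    hℓ (hB _ ℓ.2 (h.mul_right p))
  have h1 : ∀ (k : ℕ) (f : 𝒪 →ₗ[ℤ_[p]] ℤ_[p]) (u : ↥(s59m_LamX (M * q) p 𝒪 B x)),
      p ^ k • s59m_redLam (M * q) p 𝒪 B x k f u = 0 := fun k f u => s59m_redT_tors k f _
  have h2 := fun (k : ℕ) (f : 𝒪 →ₗ[ℤ_[p]] ℤ_[p]) (g : Γℚ)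
      (u : ↥(s59m_LamX (M * q) p 𝒪 B x)) => s59m_redLam_gal (x := x) (B := B) k f g u
  have h3 := fun (k : ℕ) (f : 𝒪 →ₗ[ℤ_[p]] ℤ_[p]) (ℓ : Nat.Primes) (hℓ : (ℓ : ℕ) ∉ B)
      (u : ↥(s59m_LamX (M * q) p 𝒪 B x)) => s59m_redLam_hecke k f ℓ hℓ (hℓN ℓ hℓ) u
  have h4 := fun (u : ↥(s59m_LamX (M * q) p 𝒪 B x)) hu =>
    s59m_redLam_sep (x := x) (B := B) u hu
  refine s59m_extract M q hqM h5 p hp5 hpq P hP φ hφ W hΔ hirrU B hB hΔB ℓ₀ hℓ₀ (𝒪 := 𝒪)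
    (U := ↥(s59m_LamX (M * q) p 𝒪 B x))
    (s59m_rhoLam (M * q) p 𝒪 B x) t d ?_ hd hd0 hdφ hIt hId x hx hx₀
    (s59m_redLam (M * q) p 𝒪 B x) ?_ ?_ ?_ ?_
  · exact hrel
  · exact h1
  · exact h2
  · exact h3
  · exact h4

end TJ

end Fermat.Agent.Lib.S59
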