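/-
Programme (R), FIN-B (helper2, prefix `s59b_`): **from the cut [UNR-PT] (`s59i_UnrPt`, helper4's
`LUnrPt.lean`) to the level lowering `s44i_LevelOcc (N / q)`.**

`s59i_UnrPt p N B a q` provides a local noetherian domain `𝒪'` finite over `ℤ_p`, a character `χ` of
the Hecke algebra of level `N` congruent to `a`, and a `GaloisRepAdic 𝒪'` with the Frobenius
polynomials of `χ`, trivial on an inertia group at `q`.  We feed helper9's extraction theorem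
`s59m_extract_TJ` and [M2′] `s59b_old`:

* `s59b_p_mem_of_finite`, `s59b_exists_pow_eq_p_mul_of_finite`, `s59b_isUnit_intCast_of_not_dvd` :
  commutative algebra of `𝒪'`;
* `s59b_finB_cont` : adic continuity of the Galois action on the eigen-lattice `s59m_LamX`;
* `s59b_finB_Q` : **(Q)** the quadratic relation `g² − tr ρ(g) g + det ρ(g) = 0` on the eigen-lattice
  (Eichler–Shimura on `T_p J₀(N)` + `s59b_Q_of_frob_sub`);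
* `s59b_det_frob` : `det ρ(φ) = q` for a Frobenius element at `q ≠ p` (cyclotomic determinant);
* `s59b_levelOcc_of_unrPt` : `s59i_UnrPt P.p (M q) B a q ⟹ s44i_LevelOcc M P.p a B`;
* **`s59b_FINB`** : the hypotheses of `s59i_IAcoreF` + `∃ q ∈ Bd, s59i_UnrPt …` give
  `∃ q ∈ Bd, s44i_LevelOcc (N / q) …`.
-/
import Mathlib
import Fermat.Agent.Lib.S59.BQDens
import Fermat.Agent.Lib.S59.EHDet
import Fermat.Agent.Lib.S59.LUnrPt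
import Fermat.Agent.Lib.S59.MExtTJ
import Fermat.Agent.Lib.S59.MFrey
import Fermat.Agent.Lib.S59.BOld
import Fermat.Agent.Lib.S30.TateDatum
import Fermat.Agent.Lib.Frobenius.Exists

set_option autoImplicit false
set_option linter.style.haveILetI false
set_option linter.unusedSectionVars false

noncomputable section

namespace Fermat.Agent.Lib.S59

open WeierstrassCurve WeierstrassCurve.Affine WeierstrassCurve.Affine.Point FreyPackage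
open ModularCurve AlgebraicCurve TensorProduct IsLocalRing Polynomial CuspForm
open Fermat.Agent.Lib.S44 Fermat.Agent.Lib.S12 Fermat.Agent.Lib.S58 Fermat.Agent.Lib.S41
  Fermat.Agent.Lib.S33 Fermat.Agent.Lib.S30 Fermat.Agent.Lib.S29

local notation "Kb" => AlgebraicClosure ℚ
local notation "Γℚ" => (AlgebraicClosure ℚ ≃ₐ[ℚ] AlgebraicClosure ℚ)

/-! ### Commutative algebra of `𝒪'` -/

section Alg

variable (p : ℕ) [hp : Fact p.Prime] {𝒪' : Type} [CommRing 𝒪'] [IsLocalRing 𝒪'] [Algebra ℤ_[p] 𝒪']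
  [Module.Finite ℤ_[p] 𝒪']

theorem s59b_natCast_smul_eq (z : 𝒪') : (p : ℤ_[p]) • z = (p : 𝒪') * z := by
  rw [Algebra.smul_def, map_natCast]

/-- `p` lies in the maximal ideal of a local ring finite over `ℤ_p`. -/
theorem s59b_p_mem_of_finite : (p : 𝒪') ∈ maximalIdeal 𝒪' := by
  by_contra h
  have hu : IsUnit (p : 𝒪') := by
    by_contra hnu
    exact h ((mem_maximalIdeal _).mpr (mem_nonunits_iff.mpr hnu))
  obtain ⟨u, hu⟩ := hu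
  have hle : (⊤ : Submodule ℤ_[p] 𝒪') ≤ maximalIdeal ℤ_[p] • (⊤ : Submodule ℤ_[p] 𝒪') := by
    intro z _
    have hz : z = (p : ℤ_[p]) • ((↑u⁻¹ : 𝒪') * z) := by
      rw [s59b_natCast_smul_eq, ← mul_assoc, ← hu, Units.mul_inv, one_mul]
    rw [hz]
    refine Submodule.smul_mem_smul ?_ Submodule.mem_top
    rw [PadicInt.maximalIdeal_eq_span_p]
    exact Ideal.subset_span rfl
  have hbot := Submodule.eq_bot_of_le_smul_of_le_jacobson_bot (maximalIdeal ℤ_[p])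
    (⊤ : Submodule ℤ_[p] 𝒪') Module.Finite.fg_top hle
    (by rw [IsLocalRing.jacobson_eq_maximalIdeal ⊥ bot_ne_top])
  have h1 : (1 : 𝒪') ∈ (⊤ : Submodule ℤ_[p] 𝒪') := Submodule.mem_top
  rw [hbot, Submodule.mem_bot] at h1
  exact one_ne_zero h1

/-- an element of the maximal ideal has a power divisible by `p`. -/
theorem s59b_exists_pow_eq_p_mul_of_finite {y : 𝒪'} (hy : y ∈ maximalIdeal 𝒪') :
    ∃ (m : ℕ) (c : 𝒪'), y ^ m = (p : 𝒪') * c := by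
  classical
  set N : Submodule ℤ_[p] 𝒪' := maximalIdeal ℤ_[p] • (⊤ : Submodule ℤ_[p] 𝒪') with hN
  haveI : Finite (ℤ_[p] ⧸ maximalIdeal ℤ_[p]) :=
    Finite.of_equiv (ZMod p) (PadicInt.residueField (p := p)).symm.toEquiv
  haveI : Finite (𝒪' ⧸ (⊤ : Submodule ℤ_[p] 𝒪')) := inferInstance
  haveI : Finite (𝒪' ⧸ N) :=
    Submodule.finite_quotient_smul (maximalIdeal ℤ_[p]) (N := (⊤ : Submodule ℤ_[p] 𝒪'))
      Module.Finite.fg_top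
  obtain ⟨m, m', hne, heq⟩ := Finite.exists_ne_map_eq_of_infinite
    (fun m : ℕ => (Submodule.Quotient.mk (p := N) (y ^ m) : 𝒪' ⧸ N))
  -- the core: `m < m'`
  have key : ∀ m m' : ℕ, m < m' → y ^ m - y ^ m' ∈ N → ∃ (e : ℕ) (c : 𝒪'), y ^ e = (p : 𝒪') * c := by
    intro m m' hlt hmem
    rw [hN, PadicInt.maximalIdeal_eq_span_p, Submodule.ideal_span_singleton_smul] at hmem
    obtain ⟨w, -, hw⟩ := (Submodule.mem_smul_pointwise_iff_exists _ _ _).mp hmem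
    rw [s59b_natCast_smul_eq] at hw
    obtain ⟨k, rfl⟩ : ∃ k, m' = m + (k + 1) := ⟨m' - m - 1, by omega⟩
    have hyk : y ^ (k + 1) ∈ maximalIdeal 𝒪' :=
      Ideal.pow_mem_of_mem _ hy _ (Nat.succ_pos k)
    have hunit : IsUnit (1 - y ^ (k + 1)) := by
      by_contra hnu
      have h1 : 1 - y ^ (k + 1) ∈ maximalIdeal 𝒪' := (mem_maximalIdeal _).mpr (mem_nonunits_iff.mpr hnu)
      have h2 : (1 : 𝒪') ∈ maximalIdeal 𝒪' := by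
        have := Ideal.add_mem _ h1 hyk
        rwa [sub_add_cancel] at this
      exact (Ideal.ne_top_iff_one _).mp (IsLocalRing.maximalIdeal.isMaximal 𝒪').ne_top h2
    obtain ⟨u, hu⟩ := hunit
    refine ⟨m, w * ↑u⁻¹, ?_⟩
    have h3 : y ^ m * (↑u : 𝒪') = (p : 𝒪') * w := by
      rw [hu, hw, pow_add]
      ring
    calc y ^ m = y ^ m * (↑u : 𝒪') * ↑u⁻¹ := by rw [mul_assoc, Units.mul_inv, mul_one]
      _ = (p : 𝒪') * (w * ↑u⁻¹) := by rw [h3, mul_assoc]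
  have hsub : ∀ a b : ℕ, (Submodule.Quotient.mk (p := N) (y ^ a) : 𝒪' ⧸ N) =
      Submodule.Quotient.mk (p := N) (y ^ b) → y ^ a - y ^ b ∈ N := fun a b h =>
    (Submodule.Quotient.eq N).mp h
  rcases lt_or_gt_of_ne hne with hlt | hlt
  · exact key m m' hlt (hsub m m' heq)
  · exact key m' m hlt (hsub m' m heq.symm)

/-- an integer prime to `p` is a unit of `𝒪'`. -/
theorem s59b_isUnit_intCast_of_not_dvd {n : ℤ} (hn : ¬ (p : ℤ) ∣ n) : IsUnit ((n : ℤ) : 𝒪') := by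
  have h1 : IsUnit ((n : ℤ) : ℤ_[p]) := by
    rw [PadicInt.isUnit_iff]
    by_contra hne
    have hlt : ‖((n : ℤ) : ℤ_[p])‖ < 1 := lt_of_le_of_ne (PadicInt.norm_le_one _) hne
    exact hn ((PadicInt.norm_int_lt_one_iff_dvd n).mp hlt)
  have h2 := h1.map (algebraMap ℤ_[p] 𝒪')
  rwa [map_intCast] at h2

end Alg

/-! ### Generic lemmas (no Tate module in sight) -/

section Gen

variable (p : ℕ) [hp : Fact p.Prime] {𝒪' : Type} [CommRing 𝒪'] [IsDomain 𝒪'] [IsLocalRing 𝒪']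
  [Algebra ℤ_[p] 𝒪'] {Λ : Type} [AddCommGroup Λ] [Module ℤ_[p] Λ]

/-- base change of a congruence `f v − v ∈ r Λ`. -/
theorem s59b_baseChange_sub_smul {R Λ : Type*} [CommRing R] [AddCommGroup Λ] [Module R Λ]
    (A : Type*) [CommRing A] [Algebra R A] (f : Module.End R Λ) (r : R)
    (hf : ∀ v : Λ, ∃ w : Λ, f v - v = r • w) (u : A ⊗[R] Λ) :
    ∃ w : A ⊗[R] Λ, f.baseChange A u - u = algebraMap R A r • w := by
  induction u using TensorProduct.induction_on with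
  | zero => exact ⟨0, by simp⟩
  | tmul c v =>
    obtain ⟨w, hw⟩ := hf v
    refine ⟨c ⊗ₜ[R] w, ?_⟩
    rw [LinearMap.baseChange_tmul, ← TensorProduct.tmul_sub, hw, TensorProduct.tmul_smul,
      algebraMap_smul]
  | add u u' hu hu' =>
    obtain ⟨w, hw⟩ := hu
    obtain ⟨w', hw'⟩ := hu'
    refine ⟨w + w', ?_⟩
    rw [map_add, smul_add, ← hw, ← hw']
    abel

/-- saturation of a joint eigen-submodule of a torsion-free module. -/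
theorem s59b_sat_of_eigen {ι : Type*} (Pr : ι → Prop) (T : ι → Module.End 𝒪' (𝒪' ⊗[ℤ_[p]] Λ))
    (x : ι → 𝒪') [Module.IsTorsionFree 𝒪' (𝒪' ⊗[ℤ_[p]] Λ)]
    (E : Submodule 𝒪' (𝒪' ⊗[ℤ_[p]] Λ))
    (hmem : ∀ w, w ∈ E ↔ ∀ i, Pr i → T i w = x i • w) {r : 𝒪'} (hr : r ≠ 0)
    {w : 𝒪' ⊗[ℤ_[p]] Λ} (hw : r • w ∈ E) : w ∈ E := by
  rw [hmem] at hw ⊢
  intro i hi
  have h3 := hw i hi
  rw [map_smul, smul_comm] at h3
  have h4 : r • (T i w - x i • w) = 0 := by rw [smul_sub, h3, sub_self]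
  exact sub_eq_zero.mp ((smul_eq_zero.mp h4).resolve_left hr)

/-- adic continuity on a stable, `p`-saturated submodule of `𝒪' ⊗ Λ`. -/
theorem s59b_cont_restrict_gen (hp𝒪 : (p : 𝒪') ∈ maximalIdeal 𝒪')
    (ρ : Γℚ →* Module.End ℤ_[p] Λ)
    (hcont : ∀ k : ℕ, ∃ L : IntermediateField ℚ Kb, FiniteDimensional ℚ L ∧
      (∀ σ : Γℚ, ∀ z ∈ L, σ z ∈ L) ∧
      ∀ σ : Γℚ, (∀ z ∈ L, σ z = z) → ∀ v : Λ, ∃ w : Λ, ρ σ v - v = (p : ℤ_[p]) ^ k • w)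
    (E : Submodule 𝒪' (𝒪' ⊗[ℤ_[p]] Λ))
    (hsat : ∀ (n : ℕ) (w : 𝒪' ⊗[ℤ_[p]] Λ), ((p : 𝒪') ^ n) • w ∈ E → w ∈ E)
    (ρE : Γℚ →* Module.End 𝒪' ↥E)
    (hρE : ∀ (g : Γℚ) (u : ↥E), ((ρE g u : ↥E) : 𝒪' ⊗[ℤ_[p]] Λ) =
      (ρ g).baseChange 𝒪' (u : 𝒪' ⊗[ℤ_[p]] Λ)) :
    GaloisActionIsAdicContinuous 𝒪' (V := ↥E) ρE := by
  intro n
  obtain ⟨L, hL, -, h1⟩ := hcont n
  refine ⟨L, hL, fun σ hσ u => ?_⟩
  obtain ⟨w, hw⟩ := s59b_baseChange_sub_smul 𝒪' (ρ σ) ((p : ℤ_[p]) ^ n)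
    (fun v => h1 σ hσ v) (u : 𝒪' ⊗[ℤ_[p]] Λ)
  rw [map_pow, map_natCast] at hw
  have hwmem : w ∈ E := by
    apply hsat n
    rw [← hw, ← hρE]
    exact Submodule.sub_mem _ (ρE σ u).2 u.2
  have hgoal : ρE σ u - u = ((p : 𝒪') ^ n) • (⟨w, hwmem⟩ : ↥E) := by
    apply Subtype.ext
    rw [Submodule.coe_sub, hρE]
    exact hw
  rw [hgoal]
  exact Submodule.smul_mem_smul (Ideal.pow_mem_pow hp𝒪 n) Submodule.mem_top

/-- base change of a quadratic relation, on a vector on which `T` acts by the scalar `a`. -/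
theorem s59b_quad_baseChange (F T : Module.End ℤ_[p] Λ) (c : ℕ)
    (h : F * F - T * F + (c : ℤ_[p]) • (1 : Module.End ℤ_[p] Λ) = 0) (u : 𝒪' ⊗[ℤ_[p]] Λ) (a : 𝒪')
    (hT : T.baseChange 𝒪' (F.baseChange 𝒪' u) = a • F.baseChange 𝒪' u) :
    F.baseChange 𝒪' (F.baseChange 𝒪' u) - a • F.baseChange 𝒪' u + (c : 𝒪') • u = 0 := by
  have h' := congrArg (fun G : Module.End ℤ_[p] Λ => G.baseChange 𝒪' u) h
  simp only [LinearMap.baseChange_add, LinearMap.baseChange_sub, LinearMap.baseChange_mul,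
    LinearMap.baseChange_smul, LinearMap.baseChange_one, LinearMap.baseChange_zero,
    LinearMap.add_apply, LinearMap.sub_apply, Module.End.mul_apply, LinearMap.smul_apply,
    Module.End.one_apply, LinearMap.zero_apply] at h'
  rw [hT] at h'
  rw [← h']
  congr 1
  rw [← algebraMap_smul 𝒪' (c : ℤ_[p]), map_natCast]

/-- the trivial character is continuous. -/
theorem s59b_one_charContinuous : s30_CharContinuous (1 : Γℚ →* 𝒪'ˣ) := by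
  intro n
  refine ⟨⊥, inferInstance, fun σ _ => ?_⟩
  rw [MonoidHom.one_apply, Units.val_one, sub_self]
  exact Ideal.zero_mem _

/-- trace and determinant from the characteristic polynomial. -/
theorem s59b_trdet_of_charpoly' (ρ : GaloisRepAdic 𝒪') (g : Γℚ) (t d : 𝒪')
    (h : (ρ.ρ g).charpoly = X ^ 2 - C t * X + C d) :
    LinearMap.trace 𝒪' ρ.V (ρ.ρ g) = t ∧ LinearMap.det (ρ.ρ g) = d := by
  let b : Module.Basis (Fin 2) 𝒪' ρ.V := Module.finBasisOfFinrankEq 𝒪' ρ.V ρ.finrank_eq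
  rw [s59k_charpoly_two b] at h
  constructor
  · have := congrArg (fun f : 𝒪'[X] => f.coeff 1) h
    simp only [coeff_add, coeff_sub, coeff_X_pow, coeff_C_mul, coeff_X_one, coeff_C] at this
    simpa using this
  · have := congrArg (fun f : 𝒪'[X] => f.coeff 0) h
    simp only [coeff_add, coeff_sub, coeff_X_pow, coeff_C_mul, coeff_X_zero, coeff_C_zero] at this
    simpa using this

/-- the Frobenius relation on a submodule, in the shape of `s59b_Q_of_frob_sub` with the trivial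
twist. -/
theorem s59b_frob_rel_gen (ρ : GaloisRepAdic 𝒪') (σ : Γℚ) (a : 𝒪') (c : ℕ)
    (hchar : LinearMap.charpoly (ρ.ρ σ) = X ^ 2 - C a * X + C (c : 𝒪'))
    (E : Submodule 𝒪' (𝒪' ⊗[ℤ_[p]] Λ)) (ρE : Γℚ →* Module.End 𝒪' ↥E)
    (F : Module.End ℤ_[p] Λ)
    (hρE : ∀ u : ↥E, ((ρE σ u : ↥E) : 𝒪' ⊗[ℤ_[p]] Λ) = F.baseChange 𝒪' (u : 𝒪' ⊗[ℤ_[p]] Λ))
    (hquad : ∀ u : ↥E, F.baseChange 𝒪' (F.baseChange 𝒪' (u : 𝒪' ⊗[ℤ_[p]] Λ)) -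
      a • F.baseChange 𝒪' (u : 𝒪' ⊗[ℤ_[p]] Λ) + (c : 𝒪') • (u : 𝒪' ⊗[ℤ_[p]] Λ) = 0)
    (u : ↥E) :
    ρE σ (ρE σ u) - ((((1 : Γℚ →* 𝒪'ˣ) σ : 𝒪'ˣ) : 𝒪') * LinearMap.trace 𝒪' ρ.V (ρ.ρ σ)) • ρE σ u +
      ((((1 : Γℚ →* 𝒪'ˣ) σ : 𝒪'ˣ) : 𝒪') ^ 2 * LinearMap.det (ρ.ρ σ)) • u = 0 := by
  obtain ⟨htr, hdet⟩ := s59b_trdet_of_charpoly' ρ σ _ _ hchar
  rw [MonoidHom.one_apply, Units.val_one, one_mul, one_pow, one_mul, htr, hdet]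
  apply Subtype.ext
  rw [Submodule.coe_add, Submodule.coe_sub, Submodule.coe_smul, Submodule.coe_smul, hρE, hρE,
    Submodule.coe_zero]
  exact hquad u

end Gen

/-! ### Continuity and (Q) on the eigen-lattice -/

section Lattice

variable (N p : ℕ) [NeZero N] [hp : Fact p.Prime] {𝒪' : Type} [CommRing 𝒪'] [IsDomain 𝒪']
  [IsLocalRing 𝒪'] [IsNoetherianRing 𝒪'] [CharZero 𝒪'] [Algebra ℤ_[p] 𝒪'] [Module.Finite ℤ_[p] 𝒪']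
  (B : Finset ℕ) (x : Nat.Primes → 𝒪')

/-- the eigen-lattice is finite over `𝒪'`. -/
theorem s59b_finB_finite : Module.Finite 𝒪' ↥(s59m_LamX N p 𝒪' B x) := by
  haveI : Module.Finite ℤ_[p] (s30a_TJ N p) := (s30u_tateDatum N p).instFinite
  haveI : Module.Finite 𝒪' (𝒪' ⊗[ℤ_[p]] s30a_TJ N p) := Module.Finite.base_change ℤ_[p] 𝒪' _
  exact Module.IsNoetherian.finite 𝒪' _

/-- the eigen-lattice is saturated. -/
theorem s59b_finB_sat (n : ℕ) (w : 𝒪' ⊗[ℤ_[p]] s30a_TJ N p)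
    (hw : ((p : 𝒪') ^ n) • w ∈ s59m_LamX N p 𝒪' B x) : w ∈ s59m_LamX N p 𝒪' B x := by
  haveI : Module.Free ℤ_[p] (s30a_TJ N p) := (s30u_tateDatum N p).instFree
  haveI : Module.IsTorsionFree 𝒪' (𝒪' ⊗[ℤ_[p]] s30a_TJ N p) := inferInstance
  have hp0 : (p : 𝒪') ≠ 0 := Nat.cast_ne_zero.mpr hp.out.ne_zero
  exact s59b_sat_of_eigen p (fun ℓ : Nat.Primes => (ℓ : ℕ) ∉ B)
    (fun ℓ => (s30a_Tz N p ℓ).baseChange 𝒪') x (s59m_LamX N p 𝒪' B x) (fun _ => Iff.rfl)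
    (pow_ne_zero n hp0) hw

/-- **adic continuity** of the Galois action on the eigen-lattice. -/
theorem s59b_finB_cont :
    GaloisActionIsAdicContinuous 𝒪' (V := ↥(s59m_LamX N p 𝒪' B x)) (s59m_rhoLam N p 𝒪' B x) :=
  s59b_cont_restrict_gen p (s59b_p_mem_of_finite p) (s30a_rho N p) (s30a_cont N p)
    (s59m_LamX N p 𝒪' B x) (s59b_finB_sat N p B x) (s59m_rhoLam N p 𝒪' B x)
    (fun _ _ => rfl)

/-- the Frobenius relations on the eigen-lattice. -/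
theorem s59b_finB_frob (hB : ∀ r : ℕ, r.Prime → r ∣ N * p → r ∈ B) (ρ : GaloisRepAdic 𝒪')
    (hchar : ∀ ℓ : Nat.Primes, (ℓ : ℕ) ∉ B →
      ∀ A : ValuationSubring Kb, A.LiesOverPrime ℓ → ∀ σ : Γℚ, A.IsFrobeniusAt σ ℓ →
        LinearMap.charpoly (ρ.ρ σ) = X ^ 2 - C (x ℓ) * X + C (((ℓ : ℕ) : 𝒪')))
    (ℓ : ℕ) (hℓ : ℓ.Prime) (hℓB : ℓ ∉ B) (A : ValuationSubring Kb) (hA : A.LiesOverPrime ℓ)
    (σ : Γℚ) (hσ : A.IsFrobeniusAt σ ℓ) (u : ↥(s59m_LamX N p 𝒪' B x)) :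
    s59m_rhoLam N p 𝒪' B x σ (s59m_rhoLam N p 𝒪' B x σ u) -
      ((((1 : Γℚ →* 𝒪'ˣ) σ : 𝒪'ˣ) : 𝒪') * LinearMap.trace 𝒪' ρ.V (ρ.ρ σ)) •
        s59m_rhoLam N p 𝒪' B x σ u +
      ((((1 : Γℚ →* 𝒪'ˣ) σ : 𝒪'ˣ) : 𝒪') ^ 2 * LinearMap.det (ρ.ρ σ)) • u = 0 := by
  have hℓNp : ¬ ((⟨ℓ, hℓ⟩ : Nat.Primes) : ℕ) ∣ N * p := fun h => hℓB (hB ℓ hℓ h)
  refine s59b_frob_rel_gen p ρ σ (x ⟨ℓ, hℓ⟩) ℓ (hchar ⟨ℓ, hℓ⟩ hℓB A hA σ hσ)
    (s59m_LamX N p 𝒪' B x) (s59m_rhoLam N p 𝒪' B x) (s30a_rho N p σ) (fun _ => rfl)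
    (fun u' => ?_) u
  exact s59b_quad_baseChange p (s30a_rho N p σ) (s30a_Tz N p ⟨ℓ, hℓ⟩) ℓ
    (s30a_Tz_frobQuad N p ⟨ℓ, hℓ⟩ hℓNp A hA σ hσ) (u' : 𝒪' ⊗[ℤ_[p]] s30a_TJ N p) (x ⟨ℓ, hℓ⟩)
    (s59m_rho_mem_LamX σ _ u'.2 ⟨ℓ, hℓ⟩ hℓB)

/-- **(Q)** on the eigen-lattice, submodule form. -/
theorem s59b_finB_Q_sub (hB : ∀ r : ℕ, r.Prime → r ∣ N * p → r ∈ B) (ρ : GaloisRepAdic 𝒪')
    (hchar : ∀ ℓ : Nat.Primes, (ℓ : ℕ) ∉ B →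
      ∀ A : ValuationSubring Kb, A.LiesOverPrime ℓ → ∀ σ : Γℚ, A.IsFrobeniusAt σ ℓ →
        LinearMap.charpoly (ρ.ρ σ) = X ^ 2 - C (x ℓ) * X + C (((ℓ : ℕ) : 𝒪')))
    (g : Γℚ) (u : ↥(s59m_LamX N p 𝒪' B x)) :
    s59m_rhoLam N p 𝒪' B x g (s59m_rhoLam N p 𝒪' B x g u) -
      ((((1 : Γℚ →* 𝒪'ˣ) g : 𝒪'ˣ) : 𝒪') * LinearMap.trace 𝒪' ρ.V (ρ.ρ g)) •
        s59m_rhoLam N p 𝒪' B x g u +
      ((((1 : Γℚ →* 𝒪'ˣ) g : 𝒪'ˣ) : 𝒪') ^ 2 * LinearMap.det (ρ.ρ g)) • u = 0 :=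
  s59b_Q_of_frob_sub (s59m_LamX N p 𝒪' B x) (s59b_finB_finite N p B x) ρ (1 : Γℚ →* 𝒪'ˣ)
    s59b_one_charContinuous (s59m_rhoLam N p 𝒪' B x) (s59b_finB_cont N p B x) B
    (s59b_finB_frob N p B x hB ρ hchar) g u

/-- coercion of the quadratic expression, generic. -/
theorem s59b_coe_quad {R W : Type*} [CommRing R] [AddCommGroup W] [Module R W] (E : Submodule R W)
    (G : Module.End R ↥E) (G' : Module.End R W) (hG : ∀ u : ↥E, ((G u : ↥E) : W) = G' (u : W))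
    (s t d : R) (hs : s = 1) (u : ↥E)
    (h : G (G u) - (s * t) • G u + (s ^ 2 * d) • u = 0) :
    G' (G' (u : W)) - t • G' (u : W) + d • (u : W) = 0 := by
  subst hs
  rw [one_mul, one_pow, one_mul] at h
  have h1 := congrArg (fun z : ↥E => (z : W)) h
  simp only [Submodule.coe_add, Submodule.coe_sub, Submodule.coe_smul, Submodule.coe_zero, hG] at h1
  exact h1

/-- **(Q)** on the eigen-lattice of `𝒪' ⊗ T_p J₀(N)`. -/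
theorem s59b_finB_Q (hB : ∀ r : ℕ, r.Prime → r ∣ N * p → r ∈ B) (ρ : GaloisRepAdic 𝒪')
    (hchar : ∀ ℓ : Nat.Primes, (ℓ : ℕ) ∉ B →
      ∀ A : ValuationSubring Kb, A.LiesOverPrime ℓ → ∀ σ : Γℚ, A.IsFrobeniusAt σ ℓ →
        LinearMap.charpoly (ρ.ρ σ) = X ^ 2 - C (x ℓ) * X + C (((ℓ : ℕ) : 𝒪')))
    (g : Γℚ) (v : 𝒪' ⊗[ℤ_[p]] s30a_TJ N p)
    (hv : ∀ ℓ : Nat.Primes, (ℓ : ℕ) ∉ B → (s30a_Tz N p ℓ).baseChange 𝒪' v = x ℓ • v) :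
    (s30a_rho N p g).baseChange 𝒪' ((s30a_rho N p g).baseChange 𝒪' v) -
      LinearMap.trace 𝒪' ρ.V (ρ.ρ g) • (s30a_rho N p g).baseChange 𝒪' v +
      LinearMap.det (ρ.ρ g) • v = 0 :=
  s59b_coe_quad (s59m_LamX N p 𝒪' B x) (s59m_rhoLam N p 𝒪' B x g)
    ((s30a_rho N p g).baseChange 𝒪') (fun _ => rfl) _ _ _
    (by rw [MonoidHom.one_apply, Units.val_one]) ⟨v, hv⟩
    (s59b_finB_Q_sub N p B x hB ρ hchar g ⟨v, hv⟩)

end Lattice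

/-! ### The determinant at a Frobenius element -/

section Det

variable (p : ℕ) [hp : Fact p.Prime] {𝒪' : Type} [CommRing 𝒪'] [IsLocalRing 𝒪'] [IsNoetherianRing 𝒪']

/-- `det ρ(φ) = q` for a Frobenius element `φ` at `q ≠ p`, when the determinant is cyclotomic. -/
theorem s59b_det_frob (ρ : GaloisRepAdic 𝒪') (hdet : ρ.DetIsCyclotomic p) (q : ℕ) (hq : q.Prime)
    (hqp : q ≠ p) (A : ValuationSubring Kb) (hA : A.LiesOverPrime q) (φ : Γℚ)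
    (hφ : A.IsFrobeniusAt φ q) : LinearMap.det (ρ.ρ φ) = (q : 𝒪') := by
  apply s59k_eq_of_forall_sub_mem
  intro m
  have h1 := hdet.2 m φ q (fun μ hμ =>
    s29y_apply_root_of_residue A (s30y_neZero_pow p m).ne
      (s30y_residue_pow_ne_zero p hq hqp A hA m) ⟨φ, hφ.mem_decompositionSubgroup⟩ q
      (fun z => hφ.smul_residue_eq z) hμ)
  have h2 : Ideal.span {((p ^ m : ℕ) : 𝒪')} ≤ maximalIdeal 𝒪' ^ m := by
    rw [Ideal.span_le, Set.singleton_subset_iff, Nat.cast_pow]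
    exact Ideal.pow_mem_pow hdet.1 m
  exact h2 h1

end Det

/-! ### The extraction -/

section Main

/-- **FIN-B at one prime**: `s59i_UnrPt` at level `M q` gives the occurrence at level `M`. -/
theorem s59b_levelOcc_of_unrPt (P : FreyPackage) (W : WeierstrassCurve ℤ)
    (hW : W.IsIntegralModelOf P.freyCurve) (M q : ℕ) [NeZero M] [hqF : Fact q.Prime]
    [hpF : Fact P.p.Prime] (hcond : P.IsConductorLevel (M * q)) (hq5 : 5 ≤ q) (hqp : q ≠ P.p)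
    (hirr : GaloisRepIsIrreducible (K := AlgebraicClosure ℚ) ℚ P.freyCurve P.p)
    (B : Finset ℕ) (hB1 : ∀ r : ℕ, r.Prime → r ∣ M * q * P.p → r ∈ B)
    (hB2 : ∀ r : ℕ, r.Prime → ¬ W.IsGoodPrimeFor r → r ∈ B)
    (hU : s59i_UnrPt P.p (M * q) B (fun ℓ => W.apOfModel ℓ) q) :
    s44i_LevelOcc M P.p (fun ℓ => W.apOfModel ℓ) B := by
  classical
  have hp := P.pp
  have hq := hqF.out
  have hp5 := P.hp5
  have hp2 : P.p ≠ 2 := by omega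
  have hqM : ¬ q ∣ M := by
    rintro ⟨k, rfl⟩
    exact hcond.sq_not_dvd hq ⟨k, by ring⟩
  have hΔ : W.Δ ≠ 0 := s59v_Δ_ne_zero P W hW
  have hΔB : ∀ r : ℕ, r.Prime → (r : ℤ) ∣ W.Δ → r ∈ B := fun r hr hd =>
    hB2 r hr (fun hgood => hgood hd)
  -- a non-Eisenstein prime outside `B`
  obtain ⟨ℓ₁, hℓ₁, hℓ₁B, -, hℓ₁E⟩ := s41a_nonEis P.freyCurve W hW P.p hp hp2 hirr B
  have hne : ¬ ((P.p : ℕ) : ℤ) ∣ W.apOfModel ℓ₁ - ((ℓ₁ : ℕ) + 1) := by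
    intro hd
    apply hℓ₁E
    have h1 : W.apOfModel ℓ₁ ^ 2 - ((ℓ₁ : ℤ) + 1) ^ 2 =
        (W.apOfModel ℓ₁ - ((ℓ₁ : ℤ) + 1)) * (W.apOfModel ℓ₁ + ((ℓ₁ : ℤ) + 1)) := by ring
    rw [h1]
    exact Dvd.dvd.mul_right hd _
  obtain ⟨Cv, hCv⟩ := hW
  -- the data of [UNR-PT]
  obtain ⟨𝒪', i1, i2, i3, i4, i5, i6, i7, χ, ρ, hcong, hchar, Pl, hPl, hunr⟩ := hU
  haveI : Module.IsTorsionFree ℤ_[P.p] 𝒪' := s30e_isTorsionFree_padicInt P.p 𝒪'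
  haveI : Module.Free ℤ_[P.p] 𝒪' := Module.free_of_finite_type_torsion_free'
  have hp𝒪 : (P.p : 𝒪') ∈ maximalIdeal 𝒪' := s59b_p_mem_of_finite P.p
  obtain ⟨φ, hφ⟩ := Fermat.Agent.Lib.Frobenius.exists_isFrobeniusAt_of_liesOverPrime Pl q hq hPl
  have hℓN : ∀ ℓ : Nat.Primes, (ℓ : ℕ) ∉ B → ¬ (ℓ : ℕ) ∣ M * q := fun ℓ hℓ h =>
    hℓ (hB1 _ ℓ.2 (h.mul_right P.p))
  -- the eigenvalues
  set x : Nat.Primes → 𝒪' := fun ℓ =>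
    if h : (ℓ : ℕ) ∈ B then 0 else χ (heckeAlgebra.T ℓ.2 (hℓN ℓ h) h) with hx
  have hxℓ : ∀ (ℓ : Nat.Primes) (h : (ℓ : ℕ) ∉ B), x ℓ = χ (heckeAlgebra.T ℓ.2 (hℓN ℓ h) h) := by
    intro ℓ h
    rw [hx]
    exact dif_neg h
  have hchar' : ∀ ℓ : Nat.Primes, (ℓ : ℕ) ∉ B →
      ∀ A : ValuationSubring Kb, A.LiesOverPrime ℓ → ∀ σ : Γℚ, A.IsFrobeniusAt σ ℓ →
        LinearMap.charpoly (ρ.ρ σ) = X ^ 2 - C (x ℓ) * X + C (((ℓ : ℕ) : 𝒪')) := by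
    intro ℓ hℓ A hA σ hσ
    rw [hxℓ ℓ hℓ]
    exact hchar ℓ ℓ.2 (hℓN ℓ hℓ) hℓ A hA σ hσ
  -- the determinant
  have hdetcyc : ρ.DetIsCyclotomic P.p := by
    refine s59e_detCyc_of_frob P.p ρ hp𝒪 B ?_
    intro ℓ hℓ hℓB A hA σ hσ
    exact (s59b_trdet_of_charpoly' ρ σ _ _ (hchar' ⟨ℓ, hℓ⟩ hℓB A hA σ hσ)).2
  set t : Γℚ → 𝒪' := fun g => LinearMap.trace 𝒪' ρ.V (ρ.ρ g) with ht
  set d : Γℚ → 𝒪' := fun g => LinearMap.det (ρ.ρ g) with hd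
  have hdmul : ∀ g h, d (g * h) = d g * d h := fun g h => by
    rw [hd]
    show LinearMap.det (ρ.ρ (g * h)) = _
    rw [map_mul, map_mul]
  have hd0 : ∀ g, d g ≠ 0 := by
    intro g h0
    have h1 : d g * d g⁻¹ = 1 := by
      rw [← hdmul, mul_inv_cancel]
      show LinearMap.det (ρ.ρ 1) = 1
      rw [map_one, map_one]
    rw [h0, zero_mul] at h1
    exact zero_ne_one h1
  have hdφ : d φ = (q : 𝒪') := s59b_det_frob P.p ρ hdetcyc q hq hqp Pl hPl φ hφ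
  have hIt : ∀ σ ∈ Pl.inertiaSubgroupIn ℚ, ∀ h, t (σ * h) = t h := by
    intro σ hσ h
    show LinearMap.trace 𝒪' ρ.V (ρ.ρ (σ * h)) = LinearMap.trace 𝒪' ρ.V (ρ.ρ h)
    rw [map_mul, hunr σ hσ, one_mul]
  have hId : ∀ σ ∈ Pl.inertiaSubgroupIn ℚ, d σ = 1 := by
    intro σ hσ
    show LinearMap.det (ρ.ρ σ) = 1
    rw [hunr σ hσ, map_one]
  -- congruences
  have hxcong : ∀ ℓ : Nat.Primes, (ℓ : ℕ) ∉ B →
      x ℓ - ((W.apOfModel ℓ : ℤ) : 𝒪') ∈ maximalIdeal 𝒪' := by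
    intro ℓ hℓ
    rw [hxℓ ℓ hℓ]
    exact hcong ℓ ℓ.2 (hℓN ℓ hℓ) hℓ
  have hxp : ∀ ℓ : Nat.Primes, (ℓ : ℕ) ∉ B →
      ∃ (m : ℕ) (c : 𝒪'), (x ℓ - ((W.apOfModel ℓ : ℤ) : 𝒪')) ^ m = (P.p : 𝒪') * c :=
    fun ℓ hℓ => s59b_exists_pow_eq_p_mul_of_finite P.p (hxcong ℓ hℓ)
  have hx₀ : IsUnit (x ⟨ℓ₁, hℓ₁⟩ - ((((ℓ₁ : ℕ) + 1 : ℕ) : ℕ) : 𝒪')) := by
    have hu : IsUnit (((W.apOfModel ℓ₁ - ((ℓ₁ : ℕ) + 1) : ℤ) : ℤ) : 𝒪') :=
      s59b_isUnit_intCast_of_not_dvd P.p hne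
    have hm := hxcong ⟨ℓ₁, hℓ₁⟩ hℓ₁B
    by_contra hnu
    have h1 : x ⟨ℓ₁, hℓ₁⟩ - ((((ℓ₁ : ℕ) + 1 : ℕ) : ℕ) : 𝒪') ∈ maximalIdeal 𝒪' :=
      (mem_maximalIdeal _).mpr (mem_nonunits_iff.mpr hnu)
    have h2 : (((W.apOfModel ℓ₁ - ((ℓ₁ : ℕ) + 1) : ℤ) : ℤ) : 𝒪') ∈ maximalIdeal 𝒪' := by
      have h3 := Ideal.sub_mem _ h1 hm
      have e : x ⟨ℓ₁, hℓ₁⟩ - ((((ℓ₁ : ℕ) + 1 : ℕ) : ℕ) : 𝒪') -
          (x ⟨ℓ₁, hℓ₁⟩ - ((W.apOfModel ((⟨ℓ₁, hℓ₁⟩ : Nat.Primes) : ℕ) : ℤ) : 𝒪')) =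
          (((W.apOfModel ℓ₁ - ((ℓ₁ : ℕ) + 1) : ℤ) : ℤ) : 𝒪') := by
        push_cast
        ring
      rwa [e] at h3
    exact ((mem_maximalIdeal _).mp h2) hu
  -- the eigenvector
  obtain ⟨v₀, hv₀, hv₀χ⟩ := (s30u_tateDatum (M * q) P.p).eig B 𝒪' χ
  have hv₀x : ∀ ℓ : Nat.Primes, (ℓ : ℕ) ∉ B →
      (s30a_Tz (M * q) P.p ℓ).baseChange 𝒪' v₀ = x ℓ • v₀ := by
    intro ℓ hℓ
    rw [hxℓ ℓ hℓ]
    exact hv₀χ ℓ ℓ.2 (hℓN ℓ hℓ) hℓ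
  -- (Q)
  have hQ : ∀ (g : Γℚ) (v : 𝒪' ⊗[ℤ_[P.p]] s30a_TJ (M * q) P.p),
      (∀ ℓ : Nat.Primes, (ℓ : ℕ) ∉ B → (s30a_Tz (M * q) P.p ℓ).baseChange 𝒪' v = x ℓ • v) →
      (s30a_rho (M * q) P.p g).baseChange 𝒪' ((s30a_rho (M * q) P.p g).baseChange 𝒪' v) -
        t g • (s30a_rho (M * q) P.p g).baseChange 𝒪' v + d g • v = 0 :=
    fun g v hv => s59b_finB_Q (M * q) P.p B x hB1 ρ hchar' g v hv
  obtain ⟨y, hy0, hy⟩ := s59m_extract_TJ M q hqM hq5 P.p hp5 (Ne.symm hqp) Pl hPl φ hφ W hΔ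
    (s59m_irrU_of_irr P.freyCurve W Cv hCv P.p hirr) B hB1 hΔB ⟨ℓ₁, hℓ₁⟩ hℓ₁B t d hdmul hd0 hdφ
    hIt hId x hxp hx₀ v₀ hv₀ hv₀x hQ
  exact s59b_old M P.p hp hp2 (fun ℓ => W.apOfModel ℓ) B
    (fun r hr hdv => hB1 r hr (by
      obtain ⟨c, hc⟩ := hdv
      exact ⟨c * q, by rw [mul_right_comm, hc, mul_assoc]⟩)) y hy0 hy

/-- **FIN-B**, in the shape of helper3's `s59i_IAcoreF` (VCore.lean): under its hypotheses, a point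
[UNR-PT] at some `q ∈ Bd` removes `q` from the level. -/
theorem s59b_FINB (P : FreyPackage) (W : WeierstrassCurve ℤ)
    (hW : W.IsIntegralModelOf P.freyCurve) (N : ℕ) [hN : NeZero N] [hpF : Fact P.p.Prime]
    (hcond : P.IsConductorLevel N)
    (hirr : GaloisRepIsIrreducible (K := AlgebraicClosure ℚ) ℚ P.freyCurve P.p)
    (Bd : Finset ℕ)
    (hBd : ∀ q ∈ Bd, q.Prime ∧ q ≠ P.p ∧ q ∣ N ∧ P.GaloisRepUnramifiedAt q ∧ P.p ∣ q - 1 ∧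
      s59v_FreyFrobScalar P q)
    (B : Finset ℕ) (hB1 : ∀ r : ℕ, r.Prime → r ∣ N * P.p → r ∈ B)
    (hB2 : ∀ r : ℕ, r.Prime → ¬ W.IsGoodPrimeFor r → r ∈ B)
    (hU : ∃ q ∈ Bd, s59i_UnrPt P.p N B (fun ℓ => W.apOfModel ℓ) q) :
    ∃ q ∈ Bd, s44i_LevelOcc (N / q) P.p (fun ℓ => W.apOfModel ℓ) B := by
  obtain ⟨q, hqBd, hUq⟩ := hU
  obtain ⟨hq, hqp, hqN, -, hpq1, -⟩ := hBd q hqBd
  refine ⟨q, hqBd, ?_⟩
  have hp5 := P.hp5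
  have hq5 : 5 ≤ q := by
    have h2 := hq.two_le
    have h1 : P.p ≤ q - 1 := Nat.le_of_dvd (by omega) hpq1
    omega
  obtain ⟨M, rfl⟩ : ∃ M, N = M * q := ⟨N / q, (Nat.div_mul_cancel hqN).symm⟩
  rw [Nat.mul_div_cancel M hq.pos]
  haveI : NeZero M := ⟨fun h => hN.out (by rw [h, zero_mul])⟩
  haveI : Fact q.Prime := ⟨hq⟩
  exact s59b_levelOcc_of_unrPt P W hW M q hcond hq5 hqp hirr B hB1 hB2 hUq

end Main

end Fermat.Agent.Lib.S59
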