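/-
Programme (R) / node (NN)-2 (c1′) (helper2, prefix `s59b_`), part 3: **the hypotheses `s59b_PushA`,
`s59b_PushB` of BNKinf/BNEig from the κ–push (b′) stated for the canonical Kummer map `s59b_kappa`**
(BKappa.lean; `s59b_kappa N n = s30k_kappa N n` definitionally).
-/
import Mathlib
import Fermat.Agent.Lib.S59.BKappa
import Fermat.Agent.Lib.S59.BNKinf

set_option autoImplicit false
set_option linter.unusedSectionVars false
set_option linter.style.haveILetI false

open AlgebraicCurve ModularCurve CongruenceSubgroup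

namespace Fermat.Agent.Lib.S59

open Fermat.Agent.Lib.S29 Fermat.Agent.Lib.S30 Fermat.Agent.Lib.S36 Fermat.Agent.Lib.S41

noncomputable section

/-- the canonical Kummer map of BKappa is the Kummer map of Lib/S30/KN. -/
theorem s59b_kappa_eq_s30k (N : ℕ) [NeZero N] (n : ℕ) [NeZero n] :
    s59b_kappa N n = s30k_kappa N n := rfl

variable (M q : ℕ) [NeZero M] [hq : Fact q.Prime] (hqM : q ∣ M)

/-- (b′) for `α_*` in the `s59b_kappa` vocabulary gives `s59b_PushA`. -/
theorem s59b_pushA_of_kappa
    (h : haveI : NeZero q := ⟨hq.out.ne_zero⟩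
      ∀ (n : ℕ) [NeZero n] (z : s29k_Jp (M * q) n) (z' : s29k_Jp M n),
        (z' : JZero M) = s36w_alphaPush M q (z : JZero (M * q)) →
          s59b_kappa M n z' = s59u_corA2 M q hqM (ZMod n) (s59b_kappa (M * q) n z)) :
    s59b_PushA M q hqM :=
  fun n _ z z' hz => h n z z' hz

/-- (b′) for `β_*` in the `s59b_kappa` vocabulary gives `s59b_PushB`. -/
theorem s59b_pushB_of_kappa
    (h : haveI : NeZero q := ⟨hq.out.ne_zero⟩
      ∀ (n : ℕ) [NeZero n] (z : s29k_Jp (M * q) n) (z' : s29k_Jp M n),
        (z' : JZero M) = s36w_betaPush M q (z : JZero (M * q)) →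
          s59b_kappa M n z' = s59u_corB2 M q hqM (ZMod n) (s59b_kappa (M * q) n z)) :
    s59b_PushB M q hqM :=
  fun n _ z z' hz => h n z z' hz

end

end Fermat.Agent.Lib.S59
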