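/-
S59 (E4), step 6: the Legendre-type model of a general Weierstrass curve over an algebraically
closed field of characteristic `≠ 2`: the three roots `e₁, e₂, e₃` of the `2`-division cubic
`4 X³ + b₂ X² + 2 b₄ X + b₆`, and the change of variables `x = x' + e₁`,
`y = y' − (a₁/2) x' − (a₃ + e₁ a₁)/2` to `Y² = X (X − (e₂ − e₁)) (X − (e₃ − e₁))`.
-/
import Mathlib
import Fermat.Agent.Lib.Frey.VarChangeMap
import Fermat.Agent.Lib.Frey.Defs

set_option autoImplicit false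
set_option linter.unusedSectionVars false

namespace Fermat.Agent.Lib.S59

open WeierstrassCurve Polynomial
open Fermat.Agent.Lib.Frey

variable {K : Type*} [Field K]

/-- the roots of the `2`-division cubic (Vieta form). -/
structure s59b_Roots (W : WeierstrassCurve K) (e₁ e₂ e₃ : K) : Prop where
  hb₂ : W.b₂ = -4 * (e₁ + e₂ + e₃)
  hb₄ : 2 * W.b₄ = 4 * (e₁ * e₂ + e₁ * e₃ + e₂ * e₃)
  hb₆ : W.b₆ = -4 * (e₁ * e₂ * e₃)

theorem s59b_Roots.perm₁₂ {W : WeierstrassCurve K} {e₁ e₂ e₃ : K} (h : s59b_Roots W e₁ e₂ e₃) :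
    s59b_Roots W e₂ e₁ e₃ :=
  ⟨by rw [h.hb₂]; ring, by rw [h.hb₄]; ring, by rw [h.hb₆]; ring⟩

theorem s59b_Roots.perm₂₃ {W : WeierstrassCurve K} {e₁ e₂ e₃ : K} (h : s59b_Roots W e₁ e₂ e₃) :
    s59b_Roots W e₁ e₃ e₂ :=
  ⟨by rw [h.hb₂]; ring, by rw [h.hb₄]; ring, by rw [h.hb₆]; ring⟩

/-- the cubic factors. -/
theorem s59b_Roots.eval {W : WeierstrassCurve K} {e₁ e₂ e₃ : K} (h : s59b_Roots W e₁ e₂ e₃)
    (x : K) : 4 * x ^ 3 + W.b₂ * x ^ 2 + 2 * W.b₄ * x + W.b₆ =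
      4 * ((x - e₁) * (x - e₂) * (x - e₃)) := by
  rw [h.hb₂, h.hb₄, h.hb₆]; ring

/-- existence of the roots over an algebraically closed field. -/
theorem s59b_exists_roots [IsAlgClosed K] (W : WeierstrassCurve K) (h4 : (4 : K) ≠ 0) :
    ∃ e₁ e₂ e₃ : K, s59b_Roots W e₁ e₂ e₃ := by
  have ha : W.twoTorsionPolynomial.a ≠ 0 := h4
  obtain ⟨x, y, z, h3⟩ := (Cubic.splits_iff_roots_eq_three (φ := RingHom.id K) ha).mp
    (IsAlgClosed.splits _)
  have hb := Cubic.b_eq_three_roots (φ := RingHom.id K) ha h3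
  have hc := Cubic.c_eq_three_roots (φ := RingHom.id K) ha h3
  have hd := Cubic.d_eq_three_roots (φ := RingHom.id K) ha h3
  simp only [RingHom.id_apply, twoTorsionPolynomial] at hb hc hd
  exact ⟨x, y, z, ⟨by linear_combination hb, by linear_combination hc, by linear_combination hd⟩⟩

variable (W : WeierstrassCurve K) (e₁ : K)

/-- the change of variables to the Legendre-type model with `e₁` at the origin. -/
noncomputable def s59b_C : VariableChange K := ⟨1, e₁, -(W.a₁ / 2), -((W.a₃ + e₁ * W.a₁) / 2)⟩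

@[simp] theorem s59b_C_u : (s59b_C W e₁).u = 1 := rfl
@[simp] theorem s59b_C_r : (s59b_C W e₁).r = e₁ := rfl
@[simp] theorem s59b_C_s : (s59b_C W e₁).s = -(W.a₁ / 2) := rfl
@[simp] theorem s59b_C_t : (s59b_C W e₁).t = -((W.a₃ + e₁ * W.a₁) / 2) := rfl

variable {W e₁}

/-- **the Legendre-type model.** -/
theorem s59b_C_smul (h2 : (2 : K) ≠ 0) {e₂ e₃ : K} (h : s59b_Roots W e₁ e₂ e₃) :
    s59b_C W e₁ • W = fl_curve (e₂ - e₁) (e₃ - e₁) := by
  have h4 : (4 : K) ≠ 0 := by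
    have : (4 : K) = 2 * 2 := by norm_num
    rw [this]; exact mul_ne_zero h2 h2
  have hb₂ := h.hb₂
  have hb₄ := h.hb₄
  have hb₆ := h.hb₆
  simp only [b₂, b₄, b₆] at hb₂ hb₄ hb₆
  obtain ⟨s, hs⟩ : ∃ s : K, W.a₁ / 2 = s := ⟨_, rfl⟩
  obtain ⟨t, ht⟩ : ∃ t : K, (W.a₃ + e₁ * W.a₁) / 2 = t := ⟨_, rfl⟩
  have ha1 : W.a₁ = 2 * s := by rw [← hs]; field_simp
  have ha3 : W.a₃ = 2 * t - e₁ * (2 * s) := by rw [← ht, ← ha1]; field_simp; ring
  ext
  · rw [variableChange_a₁, fl_curve_a₁]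
    simp only [s59b_C_u, s59b_C_s, inv_one, Units.val_one, one_mul, hs]
    rw [ha1]; ring
  · rw [variableChange_a₂, fl_curve_a₂]
    simp only [s59b_C_u, s59b_C_s, s59b_C_r, inv_one, Units.val_one, one_pow, one_mul, hs]
    apply mul_left_cancel₀ h4
    rw [ha1] at hb₂ ⊢
    linear_combination hb₂
  · rw [variableChange_a₃, fl_curve_a₃]
    simp only [s59b_C_u, s59b_C_r, s59b_C_t, inv_one, Units.val_one, one_pow, one_mul, ht]
    rw [ha3, ha1]; ring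
  · rw [variableChange_a₄, fl_curve_a₄]
    simp only [s59b_C_u, s59b_C_r, s59b_C_s, s59b_C_t, inv_one, Units.val_one, one_pow, one_mul,
      hs, ht]
    apply mul_left_cancel₀ h4
    rw [ha1, ha3] at hb₄
    rw [ha1] at hb₂
    rw [ha3, ha1]
    linear_combination hb₄ + (2 * e₁) * hb₂
  · rw [variableChange_a₆, fl_curve_a₆]
    simp only [s59b_C_u, s59b_C_r, s59b_C_t, inv_one, Units.val_one, one_pow, one_mul, ht]
    apply mul_left_cancel₀ h4
    rw [ha3] at hb₆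
    rw [ha1, ha3] at hb₄
    rw [ha1] at hb₂
    rw [ha3, ha1]
    linear_combination hb₆ + e₁ * hb₄ + e₁ ^ 2 * hb₂

/-- the discriminant in terms of the roots. -/
theorem s59b_Δ_roots (h2 : (2 : K) ≠ 0) {e₂ e₃ : K} (h : s59b_Roots W e₁ e₂ e₃) :
    W.Δ = 16 * (e₂ - e₁) ^ 2 * (e₃ - e₁) ^ 2 * (e₂ - e₃) ^ 2 := by
  have h1 := variableChange_Δ W (s59b_C W e₁)
  rw [s59b_C_smul h2 h] at h1
  simp only [s59b_C_u, inv_one, Units.val_one, one_pow, one_mul] at h1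
  rw [← h1]
  simp only [WeierstrassCurve.Δ, WeierstrassCurve.b₂, WeierstrassCurve.b₄, WeierstrassCurve.b₆,
    WeierstrassCurve.b₈, fl_curve_a₁, fl_curve_a₂, fl_curve_a₃, fl_curve_a₄, fl_curve_a₆]
  ring

/-- `c₄` in terms of the roots. -/
theorem s59b_c₄_roots (h2 : (2 : K) ≠ 0) {e₂ e₃ : K} (h : s59b_Roots W e₁ e₂ e₃) :
    W.c₄ = 16 * ((e₂ - e₁) ^ 2 - (e₂ - e₁) * (e₃ - e₁) + (e₃ - e₁) ^ 2) := by
  have h1 := variableChange_c₄ W (s59b_C W e₁)
  rw [s59b_C_smul h2 h] at h1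
  simp only [s59b_C_u, inv_one, Units.val_one, one_pow, one_mul] at h1
  rw [← h1]
  simp only [WeierstrassCurve.c₄, WeierstrassCurve.b₂, WeierstrassCurve.b₄, fl_curve_a₁,
    fl_curve_a₂, fl_curve_a₃, fl_curve_a₄]
  ring

end Fermat.Agent.Lib.S59
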