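/-
S59 (E4), step 2: reduction on the Legendre-type model `Y² = X (X − δ) (X − ε)` over a valuation
subring `A` of `K` (`δ ∈ 𝔪`, `ε` a unit, `2` a unit), in the frame of an additive `ℚ`-valued
valuation `v` with `0 ≤ v x ↔ x ∈ A`.

* `E₀ = {v X ≤ 0} ∪ {0}` is a subgroup (from the parallelogram law `fuc_law_leg`);
* the extended reduction relation `s59b_R P P̃` (`P ∈ E₁ ∧ P̃ = 0`, or `s58g_Red P P̃`) is additive
  and its domain is `E₀`;
* the special fibre is the nodal cubic `s58x_Node _ γ (−γ)`, `γ² = −ε̃`.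
-/
import Mathlib
import Fermat.Agent.Lib.Frey.ULevelGlue
import Fermat.Agent.Lib.Frey.E1Sub
import Fermat.Agent.Lib.S58.GRed
import Fermat.Agent.Lib.S58.XNode

set_option autoImplicit false
set_option linter.unusedSectionVars false

namespace Fermat.Agent.Lib.S59

open WeierstrassCurve WeierstrassCurve.Affine WeierstrassCurve.Affine.Point IsLocalRing
open Fermat.Agent.Lib.Frey Fermat.Agent.Lib.S41 Fermat.Agent.Lib.S58

variable {K : Type*} [Field K] [DecidableEq K] (A : ValuationSubring K)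
  [DecidableEq (ResidueField A)] (v : AddValuation K (WithTop ℚ))

/-- the Legendre-type model over `A`. -/
abbrev s59b_WL (δ ε : A) : WeierstrassCurve A := ⟨0, -(δ + ε), 0, δ * ε, 0⟩

theorem s59b_WL_K (δ ε : A) : s41a_WK A (s59b_WL A δ ε) = fl_curve (δ : K) (ε : K) := rfl

theorem s59b_WL_k (δ ε : A) :
    s41a_Wk A (s59b_WL A δ ε) = fl_curve (residue A δ) (residue A ε) := rfl

/-- the standing hypotheses. -/
structure s59b_Leg (δ ε : A) (m : ℚ) : Prop where
  hv0 : ∀ x : K, 0 ≤ v x ↔ x ∈ A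
  hv1 : ∀ x : K, 0 < v x ↔ x ∈ A.nonunits
  hm : 0 < m
  hδ : v (δ : K) = (m : ℚ)
  hε : v (ε : K) = 0
  h2 : v (2 : K) = 0

/-- points of the generic fibre (canonical form in this file: `s41a_WK`). -/
abbrev s59b_PtK (δ ε : A) : Type _ := (s41a_WK A (s59b_WL A δ ε)).toAffine.Point

/-- points of the special fibre (canonical form in this file: `s41a_Wk`). -/
abbrev s59b_Ptk (δ ε : A) : Type _ := (s41a_Wk A (s59b_WL A δ ε)).toAffine.Point

variable {A v} {δ ε : A} {m : ℚ}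

local notation "PtK" => s59b_PtK A δ ε
local notation "Ptk" => s59b_Ptk A δ ε


theorem s59b_lt_zero_iff (H : s59b_Leg A v δ ε m) (x : K) : v x < 0 ↔ x ∉ A := by
  rw [← H.hv0 x, not_le]

theorem s59b_eq_zero_iff (H : s59b_Leg A v δ ε m) (a : A) : v (a : K) = 0 ↔ residue A a ≠ 0 := by
  have h0 : 0 ≤ v (a : K) := (H.hv0 _).mpr a.2
  rw [Ne, residue_eq_zero_iff, ← ValuationSubring.coe_mem_nonunits_iff, ← H.hv1]
  constructor
  · intro h; rw [h]; exact lt_irrefl 0
  · intro h; exact le_antisymm (not_lt.mp h) h0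

theorem s59b_res_δ (H : s59b_Leg A v δ ε m) : residue A δ = 0 := by
  rw [residue_eq_zero_iff, ← ValuationSubring.coe_mem_nonunits_iff, ← H.hv1, H.hδ]
  exact_mod_cast H.hm

theorem s59b_res_ε (H : s59b_Leg A v δ ε m) : residue A ε ≠ 0 :=
  (s59b_eq_zero_iff H ε).mp H.hε

theorem s59b_res_two (H : s59b_Leg A v δ ε m) : (2 : ResidueField A) ≠ 0 := by
  have h := (s59b_eq_zero_iff H (2 : A)).mp (by exact_mod_cast H.h2)
  rwa [map_ofNat] at h

/-! ### `E₀` is a subgroup -/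

theorem s59b_lvl_zero_iff (H : s59b_Leg A v δ ε m) (P : PtK) :
    fuc_lvl v m P = 0 ↔ fl_InE0 v P := by
  constructor
  · exact fuc_inE0_of_lvl_zero v H.hm
  · rintro (rfl | ⟨x, y, h, rfl, hx⟩)
    · exact fuc_lvl_zero v m
    · exact fuc_lvl_eq_of_isLvl v H.hm h (Or.inl ⟨hx, rfl⟩)

theorem s59b_law (H : s59b_Leg A v δ ε m) :
    fuc_Law (fuc_lvl v m (W := (s41a_WK A (s59b_WL A δ ε)).toAffine)) m :=
  fuc_law_leg (δ := (δ : K)) (ε := (ε : K)) v H.hm H.hδ H.hε H.h2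

theorem s59b_E0_add_sub (H : s59b_Leg A v δ ε m) {P Q : PtK} (hP : fl_InE0 v P)
    (hQ : fl_InE0 v Q) : fl_InE0 v (P + Q) ∧ fl_InE0 v (P - Q) := by
  rw [← s59b_lvl_zero_iff H] at hP hQ ⊢
  rw [← s59b_lvl_zero_iff H]
  have hm := H.hm
  rcases s59b_law H P Q with ⟨h1, h2⟩ | ⟨h1, h2⟩
  · rw [h1, h2, hP, hQ]; simp [hm.le]
  · rw [h1, h2, hP, hQ]; simp [hm.le]

theorem s59b_E0_add (H : s59b_Leg A v δ ε m) {P Q : PtK} (hP : fl_InE0 v P)
    (hQ : fl_InE0 v Q) : fl_InE0 v (P + Q) := (s59b_E0_add_sub H hP hQ).1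

theorem s59b_E0_sub (H : s59b_Leg A v δ ε m) {P Q : PtK} (hP : fl_InE0 v P)
    (hQ : fl_InE0 v Q) : fl_InE0 v (P - Q) := (s59b_E0_add_sub H hP hQ).2

theorem s59b_E0_neg {P : PtK} (hP : fl_InE0 v P) : fl_InE0 v (-P) := by
  rcases hP with rfl | ⟨x, y, h, rfl, hx⟩
  · left; exact _root_.neg_zero
  · right; exact ⟨x, _, _, neg_some h, hx⟩

/-- adding a point of `E₀` does not change the level. -/
theorem s59b_lvl_add_E0 (H : s59b_Leg A v δ ε m) (P : PtK) {Q : PtK} (hQ : fl_InE0 v Q) :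
    fuc_lvl v m (P + Q) = fuc_lvl v m P := by
  rw [← s59b_lvl_zero_iff H] at hQ
  have h0 := fuc_lvl_nonneg v H.hm P
  have h1 := fuc_lvl_le v H.hm P
  rcases s59b_law H P Q with ⟨h, -⟩ | ⟨h, -⟩
  · rw [h, hQ, add_zero, sub_zero]
    exact min_eq_left (by linarith)
  · rw [h, hQ, sub_zero]
    exact abs_of_nonneg h0

/-! ### `E₁` is a subgroup -/

theorem s59b_E1_add (H : s59b_Leg A v δ ε m) {P Q : PtK} (hP : fl_InE1 v P) (hQ : fl_InE1 v Q) :
    fl_InE1 v (P + Q) := by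
  refine fab_E1_add v rfl rfl ?_ ?_ ?_ hP hQ
  · exact (H.hv0 _).mpr (neg_mem (add_mem δ.2 ε.2))
  · exact (H.hv0 _).mpr (mul_mem δ.2 ε.2)
  · exact (H.hv0 _).mpr A.zero_mem

theorem s59b_E1_sub (H : s59b_Leg A v δ ε m) {P Q : PtK} (hP : fl_InE1 v P) (hQ : fl_InE1 v Q) :
    fl_InE1 v (P - Q) := by
  rw [sub_eq_add_neg]
  exact s59b_E1_add H hP (fab_E1_neg v hQ)

theorem s59b_E1_nsmul (H : s59b_Leg A v δ ε m) {P : PtK} (hP : fl_InE1 v P) (k : ℕ) :
    fl_InE1 v (k • P) := by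
  induction k with
  | zero => rw [zero_nsmul]; exact Or.inl rfl
  | succ k ih => rw [succ_nsmul]; exact s59b_E1_add H ih hP

/-! ### the reduction relation -/

/-- membership in `E₁` for a point in the frame of `s58g_Red`. -/
theorem s59b_frd_E1_iff (H : s59b_Leg A v δ ε m) (P : PtK) :
    frd_E1 A.valuation (s41a_WK A (s59b_WL A δ ε)).toAffine P ↔ fl_InE1 v P := by
  constructor
  · rintro (h | ⟨x, y, h, hP, hx⟩)
    · exact Or.inl h
    · refine Or.inr ⟨x, y, h, hP, ?_⟩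
      rw [s59b_lt_zero_iff H, ← A.valuation_le_one_iff, not_le]
      exact hx
  · rintro (h | ⟨x, y, h, hP, hx⟩)
    · exact Or.inl h
    · refine Or.inr ⟨x, y, h, hP, ?_⟩
      rw [s59b_lt_zero_iff H, ← A.valuation_le_one_iff, not_le] at hx
      exact hx

/-- a point related to something by `s58g_Red` is integral, affine, not in `E₁`. -/
theorem s59b_red_not_E1 (H : s59b_Leg A v δ ε m) {P : PtK} {Pt : Ptk}
    (h : s58g_Red A (s59b_WL A δ ε) P Pt) : ¬ fl_InE1 v P := by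
  obtain ⟨a, b, h₁, h₂, rfl, rfl⟩ := h
  rintro (h0 | ⟨x, y, h', he, hx⟩)
  · exact Point.some_ne_zero _ h0
  · rw [Point.some.injEq] at he
    rw [s59b_lt_zero_iff H, ← he.1] at hx
    exact hx a.2

/-- the equation of the special fibre. -/
theorem s59b_special_eqn (H : s59b_Leg A v δ ε m) {x y : ResidueField A} :
    (s41a_Wk A (s59b_WL A δ ε)).toAffine.Equation x y ↔ y ^ 2 = x * x * (x - residue A ε) :=
  (fl_curve_equation_iff (residue A δ) (residue A ε) x y).trans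
    (by rw [s59b_res_δ H, sub_zero])

theorem s59b_special_a₁ : (s41a_Wk A (s59b_WL A δ ε)).toAffine.a₁ = 0 :=
  _root_.map_zero (residue A)

theorem s59b_special_a₂ (H : s59b_Leg A v δ ε m) :
    (s41a_Wk A (s59b_WL A δ ε)).toAffine.a₂ = -residue A ε := by
  show residue A (-(δ + ε)) = _
  rw [map_neg, map_add, s59b_res_δ H, zero_add]

theorem s59b_special_a₃ : (s41a_Wk A (s59b_WL A δ ε)).toAffine.a₃ = 0 :=
  _root_.map_zero (residue A)

theorem s59b_special_a₄ (H : s59b_Leg A v δ ε m) :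
    (s41a_Wk A (s59b_WL A δ ε)).toAffine.a₄ = 0 := by
  show residue A (δ * ε) = 0
  rw [map_mul, s59b_res_δ H, zero_mul]

theorem s59b_special_a₆ : (s41a_Wk A (s59b_WL A δ ε)).toAffine.a₆ = 0 :=
  _root_.map_zero (residue A)

/-- the partial derivatives on the special fibre. -/
theorem s59b_special_ns (H : s59b_Leg A v δ ε m) {x y : ResidueField A} :
    (s41a_Wk A (s59b_WL A δ ε)).toAffine.Nonsingular x y ↔
      (s41a_Wk A (s59b_WL A δ ε)).toAffine.Equation x y ∧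
        (-(3 * x ^ 2 - 2 * residue A ε * x) ≠ 0 ∨ 2 * y ≠ 0) := by
  rw [Affine.nonsingular_iff', s59b_special_a₁, s59b_special_a₂ H, s59b_special_a₃,
    s59b_special_a₄ H]
  have e1 : (0 : ResidueField A) * y - (3 * x ^ 2 + 2 * -residue A ε * x + 0) =
      -(3 * x ^ 2 - 2 * residue A ε * x) := by ring
  have e2 : 2 * y + 0 * x + 0 = 2 * y := by ring
  rw [e1, e2]

/-- on the special fibre, nonsingular points have `x ≠ 0`. -/
theorem s59b_special_x_ne_zero (H : s59b_Leg A v δ ε m) {x y : ResidueField A}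
    (h : (s41a_Wk A (s59b_WL A δ ε)).toAffine.Nonsingular x y) : x ≠ 0 := by
  rintro rfl
  rw [s59b_special_ns H] at h
  obtain ⟨he, hs⟩ := h
  rw [s59b_special_eqn H] at he
  have hy : y = 0 := by
    have : y ^ 2 = 0 := by rw [he]; ring
    exact pow_eq_zero_iff (two_ne_zero) |>.mp this
  subst hy
  rcases hs with hs | hs
  · apply hs; ring
  · apply hs; ring

/-- on the special fibre, points with `x ≠ 0` are nonsingular. -/
theorem s59b_special_nonsingular (H : s59b_Leg A v δ ε m) {x y : ResidueField A}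
    (he : (s41a_Wk A (s59b_WL A δ ε)).toAffine.Equation x y) (hx : x ≠ 0) :
    (s41a_Wk A (s59b_WL A δ ε)).toAffine.Nonsingular x y := by
  rw [s59b_special_ns H]
  refine ⟨he, ?_⟩
  rw [s59b_special_eqn H] at he
  by_contra hcon
  rw [not_or, not_not, not_not] at hcon
  obtain ⟨h1, h2⟩ := hcon
  have hy : y = 0 := (mul_eq_zero.mp h2).resolve_left (s59b_res_two H)
  subst hy
  have hxε : x = residue A ε := by
    have : x * x * (x - residue A ε) = 0 := by linear_combination -he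
    rcases mul_eq_zero.mp this with h | h
    · exact absurd (mul_self_eq_zero.mp h) hx
    · exact sub_eq_zero.mp h
  apply s59b_res_ε H
  have : residue A ε * residue A ε = 0 := by
    rw [hxε] at h1; linear_combination -h1
  exact mul_self_eq_zero.mp this

/-- `s58g_Red` forces `v X = 0`. -/
theorem s59b_red_val (H : s59b_Leg A v δ ε m) {P : PtK} {Pt : Ptk}
    (h : s58g_Red A (s59b_WL A δ ε) P Pt) :
    ∃ (x y : K) (hns : (s41a_WK A (s59b_WL A δ ε)).toAffine.Nonsingular x y),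
      P = Point.some x y hns ∧ v x = 0 := by
  obtain ⟨a, b, h₁, h₂, rfl, rfl⟩ := h
  exact ⟨a, b, h₁, rfl, (s59b_eq_zero_iff H a).mpr (s59b_special_x_ne_zero H h₂)⟩

theorem s59b_red_E0 (H : s59b_Leg A v δ ε m) {P : PtK} {Pt : Ptk}
    (h : s58g_Red A (s59b_WL A δ ε) P Pt) : fl_InE0 v P := by
  obtain ⟨x, y, hns, rfl, hx⟩ := s59b_red_val H h
  exact Or.inr ⟨x, y, hns, rfl, hx.le⟩

/-- a point of `E₀ ∖ E₁` has a reduction. -/
theorem s59b_exists_red (H : s59b_Leg A v δ ε m) {P : PtK} (h0 : fl_InE0 v P)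
    (h1 : ¬ fl_InE1 v P) : ∃ Pt : Ptk, s58g_Red A (s59b_WL A δ ε) P Pt := by
  rcases h0 with rfl | ⟨x, y, h, rfl, hx⟩
  · exact absurd (Or.inl rfl) h1
  have hx0 : 0 ≤ v x := by
    by_contra hcon
    exact h1 (Or.inr ⟨x, y, h, rfl, not_le.mp hcon⟩)
  have hxA : x ∈ A := (H.hv0 x).mp hx0
  have hyA : y ∈ A := s41a_y_mem A (s59b_WL A δ ε) hxA h.1
  have hvx : v x = 0 := le_antisymm hx hx0
  have hres : residue A ⟨x, hxA⟩ ≠ 0 := (s59b_eq_zero_iff H ⟨x, hxA⟩).mp hvx
  have heA : (s59b_WL A δ ε).toAffine.Equation ⟨x, hxA⟩ ⟨y, hyA⟩ :=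
    s58g_equation_of_nonsingular (A := A) (W := s59b_WL A δ ε) (a := ⟨x, hxA⟩) (b := ⟨y, hyA⟩) h
  have hek : (s41a_Wk A (s59b_WL A δ ε)).toAffine.Equation
      (residue A ⟨x, hxA⟩) (residue A ⟨y, hyA⟩) :=
    Affine.Equation.map (residue A) heA
  have hnk := s59b_special_nonsingular H hek hres
  exact ⟨_, ⟨x, hxA⟩, ⟨y, hyA⟩, h, hnk, rfl, rfl⟩

/-- **the extended reduction relation.** -/
def s59b_R (P : PtK) (Pt : Ptk) : Prop :=
  (fl_InE1 v P ∧ Pt = 0) ∨ s58g_Red A (s59b_WL A δ ε) P Pt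

theorem s59b_R_exists (H : s59b_Leg A v δ ε m) {P : PtK} (h0 : fl_InE0 v P) :
    ∃ Pt : Ptk, s59b_R (v := v) P Pt := by
  by_cases h1 : fl_InE1 v P
  · exact ⟨0, Or.inl ⟨h1, rfl⟩⟩
  · obtain ⟨Pt, h⟩ := s59b_exists_red H h0 h1
    exact ⟨Pt, Or.inr h⟩

theorem s59b_R_E0 (H : s59b_Leg A v δ ε m) {P : PtK} {Pt : Ptk} (h : s59b_R (v := v) P Pt) :
    fl_InE0 v P := by
  rcases h with ⟨h, -⟩ | h
  · exact h.inE0
  · exact s59b_red_E0 H h

theorem s59b_R_E1_iff (H : s59b_Leg A v δ ε m) {P : PtK} {Pt : Ptk} (h : s59b_R (v := v) P Pt) :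
    fl_InE1 v P ↔ Pt = 0 := by
  rcases h with ⟨h, h'⟩ | h
  · exact ⟨fun _ => h', fun _ => h⟩
  · exact ⟨fun h1 => absurd h1 (s59b_red_not_E1 H h), fun h0 => absurd h0 (s58g_red_ne_zero h).2⟩

theorem s59b_R_neg {P : PtK} {Pt : Ptk} (h : s59b_R (v := v) P Pt) :
    s59b_R (v := v) (-P) (-Pt) := by
  rcases h with ⟨h, rfl⟩ | h
  · exact Or.inl ⟨fab_E1_neg v h, _root_.neg_zero⟩
  · exact Or.inr (s58g_red_neg h)

/-- `E₁ + Red ⊆ Red` with the same reduction. -/
theorem s59b_red_add_E1 (H : s59b_Leg A v δ ε m) {S Q : PtK} {Qt : Ptk} (hS : fl_InE1 v S)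
    (hQ : s58g_Red A (s59b_WL A δ ε) Q Qt) : s58g_Red A (s59b_WL A δ ε) (S + Q) Qt := by
  have h0 : fl_InE0 v (S + Q) := s59b_E0_add H hS.inE0 (s59b_red_E0 H hQ)
  have h1 : ¬ fl_InE1 v (S + Q) := by
    intro h
    apply s59b_red_not_E1 H hQ
    have := s59b_E1_sub H h hS
    rwa [add_sub_cancel_left] at this
  obtain ⟨Tt, hT⟩ := s59b_exists_red H h0 h1
  have hSred : ∀ Xt : Ptk, ¬ s58g_Red A (s59b_WL A δ ε) S Xt := fun Xt hX =>
    s59b_red_not_E1 H hX hS
  by_cases hTQ : Tt = Qt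
  · rw [← hTQ]; exact hT
  exfalso
  by_cases hTQ' : Tt = -Qt
  · -- `S + Q` and `-Q` have the same reduction, so `S + 2Q ∈ E₁`, so `2Q ∈ E₁`
    have hnQ := s58g_red_neg hQ
    rw [← hTQ'] at hnQ
    have h2 := (s59b_frd_E1_iff H _).mp (s58g_sub_mem_E1 hT hnQ)
    have h3 : fl_InE1 v (Q + Q) := by
      have := s59b_E1_sub H h2 hS
      have e : S + Q - -Q - S = Q + Q := by abel
      rwa [e] at this
    have hne : Qt ≠ -Qt := by
      intro h
      apply hTQ
      rw [hTQ', ← h]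
    exact s59b_red_not_E1 H (s58g_red_add_self hQ hne) h3
  · -- `S = (S + Q) - Q` would be integral
    have hnQ := s58g_red_neg hQ
    have := s58g_red_add hT hnQ hTQ' (by rwa [neg_neg])
    rw [← sub_eq_add_neg, add_sub_cancel_right] at this
    exact hSred _ this

/-- **additivity of the extended reduction relation.** -/
theorem s59b_R_add (H : s59b_Leg A v δ ε m) {P Q : PtK} {Pt Qt : Ptk}
    (hP : s59b_R (v := v) P Pt) (hQ : s59b_R (v := v) Q Qt) :
    s59b_R (v := v) (P + Q) (Pt + Qt) := by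
  rcases hP with ⟨hP, rfl⟩ | hP
  · rcases hQ with ⟨hQ, rfl⟩ | hQ
    · exact Or.inl ⟨s59b_E1_add H hP hQ, add_zero 0⟩
    · rw [zero_add]
      exact Or.inr (s59b_red_add_E1 H hP hQ)
  · rcases hQ with ⟨hQ, rfl⟩ | hQ
    · rw [add_zero, add_comm]
      exact Or.inr (s59b_red_add_E1 H hQ hP)
    · by_cases h1 : Pt = -Qt
      · -- opposite reductions
        left
        refine ⟨?_, by rw [h1, neg_add_cancel]⟩
        have hnQ := s58g_red_neg hQ
        rw [← h1] at hnQ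
        have := (s59b_frd_E1_iff H _).mp (s58g_sub_mem_E1 hP hnQ)
        rwa [sub_neg_eq_add] at this
      · by_cases h2 : Pt = Qt
        · -- equal reductions
          subst h2
          have hS := (s59b_frd_E1_iff H _).mp (s58g_sub_mem_E1 hP hQ)
          have h2Q := s58g_red_add_self hQ (fun h => h1 h)
          have := s59b_red_add_E1 H hS h2Q
          have e : P - Q + (Q + Q) = P + Q := by abel
          rw [e] at this
          exact Or.inr this
        · exact Or.inr (s58g_red_add hP hQ h2 h1)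

theorem s59b_R_zero : s59b_R (v := v) (0 : PtK) (0 : Ptk) :=
  Or.inl ⟨Or.inl rfl, rfl⟩

theorem s59b_R_nsmul (H : s59b_Leg A v δ ε m) {P : PtK} {Pt : Ptk} (hP : s59b_R (v := v) P Pt)
    (k : ℕ) : s59b_R (v := v) (k • P) (k • Pt) := by
  induction k with
  | zero => rw [zero_nsmul, zero_nsmul]; exact s59b_R_zero
  | succ k ih => rw [succ_nsmul, succ_nsmul]; exact s59b_R_add H ih hP

/-! ### the node -/

/-- the special fibre is a nodal cubic in normal form. -/
theorem s59b_node (H : s59b_Leg A v δ ε m) {γ : ResidueField A} (hγ : γ ^ 2 = -residue A ε) :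
    s58x_Node (s41a_Wk A (s59b_WL A δ ε)) γ (-γ) where
  h₁ := by
    have := s59b_special_a₁ (A := A) (δ := δ) (ε := ε)
    rw [show (s41a_Wk A (s59b_WL A δ ε)).a₁ = 0 from this]; ring
  h₂ := by
    rw [show (s41a_Wk A (s59b_WL A δ ε)).a₂ = -residue A ε from s59b_special_a₂ H]
    linear_combination -hγ
  h₃ := s59b_special_a₃
  h₄ := s59b_special_a₄ H
  h₆ := s59b_special_a₆
  hne := by
    intro h
    have h2 : (2 : ResidueField A) * γ = 0 := by linear_combination h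
    have hγ0 : γ = 0 := (mul_eq_zero.mp h2).resolve_left (s59b_res_two H)
    apply s59b_res_ε H
    rw [hγ0] at hγ
    have : residue A ε = -(0 : ResidueField A) ^ 2 := by rw [hγ]; ring
    rw [this]; ring

end Fermat.Agent.Lib.S59
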