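/-
S59 (E4), step 3: torsion on the Legendre-type model at residue characteristic `p`.

* `s59b_E0_torsion`: a `pⁿ`-torsion point of `E₀` lies in `E₁` (the special fibre is `𝔾_m`, which
  has no `p`-torsion in characteristic `p`);
* `s59b_exists_torsion_not_E1` (the crux): NOT every `p`-torsion point lies in `E₁`.  If all roots
  of `b_p` were non-integral, then evaluating `x(pP) · b_p(x(P)) = a_p(x(P))` at lifts of the points
  `X(u)` of the node would give `∏ (X(u) − r̃ᵢ) = c · X(uᵖ)` for all `u ≠ 1`, which is impossible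
  at `u = 1` (pole of order `2p²` against `2p`).
-/
import Mathlib
import Fermat.Agent.Lib.S59.BOrdRed
import Fermat.Agent.Lib.EN.Pointwise
import Fermat.Agent.Lib.EN.PFPrime

set_option autoImplicit false
set_option linter.unusedSectionVars false

namespace Fermat.Agent.Lib.S59

open WeierstrassCurve WeierstrassCurve.Affine WeierstrassCurve.Affine.Point IsLocalRing Polynomial
open Fermat.Agent.Lib.Frey Fermat.Agent.Lib.S41 Fermat.Agent.Lib.S58 Fermat.Agent.Lib.EN

/-! ### the nodal cubic: surjectivity of the parametrisation, `p`-th powers -/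

section Node

variable {k : Type*} [Field k] [DecidableEq k] {W : WeierstrassCurve k} {α β : k}

/-- surjectivity of the parametrisation of the nodal cubic away from the node. -/
theorem s59b_node_param (h : s58x_Node W α β) {x y : k} (he : W.toAffine.Equation x y)
    (hx : x ≠ 0) : ∃ u : kˣ, (u : k) ≠ 1 ∧ s58x_X α β u = x ∧ s58x_Y α β u = y := by
  rw [Affine.equation_iff, h.h₁, h.h₂, h.h₃, h.h₄, h.h₆] at he
  have hd : α - β ≠ 0 := sub_ne_zero.mpr h.hne
  have hprod : (y - α * x) * (y - β * x) = x ^ 3 := by linear_combination he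
  have hx3 : x ^ 3 ≠ 0 := pow_ne_zero 3 hx
  have hA : y - α * x ≠ 0 := fun h0 => hx3 (by rw [← hprod, h0, zero_mul])
  have hB : y - β * x ≠ 0 := fun h0 => hx3 (by rw [← hprod, h0, mul_zero])
  have hu0 : (y - α * x) / (y - β * x) ≠ 0 := div_ne_zero hA hB
  have h1u : 1 - (y - α * x) / (y - β * x) = (α - β) * x / (y - β * x) := by
    rw [eq_div_iff hB, sub_mul, one_mul, div_mul_cancel₀ _ hB]; ring
  have h1u0 : 1 - (y - α * x) / (y - β * x) ≠ 0 := by
    rw [h1u]; exact div_ne_zero (mul_ne_zero hd hx) hB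
  refine ⟨Units.mk0 _ hu0, ?_, ?_, ?_⟩
  · rw [Units.val_mk0]
    intro h1
    apply h1u0
    rw [h1, sub_self]
  · rw [Units.val_mk0, s58x_X, h1u]
    field_simp
    linear_combination hprod
  · rw [Units.val_mk0, s58x_Y, h1u]
    field_simp
    linear_combination (y * (α - β)) * hprod

/-- a nonsingular point of the node form is not above `x = 0`. -/
theorem s59b_node_x_ne_zero (h : s58x_Node W α β) {x y : k}
    (hns : W.toAffine.Nonsingular x y) : x ≠ 0 := by
  intro hx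
  subst hx
  rw [Affine.nonsingular_iff'] at hns
  obtain ⟨he, hd⟩ := hns
  rw [Affine.equation_iff, h.h₁, h.h₂, h.h₃, h.h₄, h.h₆] at he
  have hy : y = 0 := by
    have : y ^ 2 = 0 := by linear_combination he
    exact (pow_eq_zero_iff two_ne_zero).mp this
  subst hy
  rw [h.h₁, h.h₂, h.h₃, h.h₄] at hd
  rcases hd with hd | hd <;> exact hd (by ring)

/-- every nonsingular point of the node form has a parameter. -/
theorem s59b_node_pt_surj (h : s58x_Node W α β) (P : W.toAffine.Point) :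
    ∃ u : kˣ, s58x_pt h u = P := by
  rcases P with _ | ⟨x, y, hns⟩
  · exact ⟨1, s58x_pt_one h⟩
  · obtain ⟨u, hu1, hX, hY⟩ := s59b_node_param h hns.1 (s59b_node_x_ne_zero h hns)
    refine ⟨u, ?_⟩
    rw [s58x_pt_of_ne h hu1]
    exact s58x_some_eq _ _ hX hY

/-- in characteristic `p` the only `pⁿ`-th root of unity is `1`. -/
theorem s59b_pow_char_eq_one {p : ℕ} (hp : p.Prime) [CharP k p] {u : k} {n : ℕ}
    (h : u ^ p ^ n = 1) : u = 1 := by
  have : Fact p.Prime := ⟨hp⟩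
  have h0 : (u - 1) ^ p ^ n = 0 := by rw [sub_pow_char_pow, h, one_pow, sub_self]
  exact sub_eq_zero.mp (pow_eq_zero_iff (pow_ne_zero n hp.ne_zero) |>.mp h0)

/-- a `pⁿ`-torsion point of a nodal cubic in characteristic `p` is trivial. -/
theorem s59b_node_torsion (h : s58x_Node W α β) {p : ℕ} (hp : p.Prime) [CharP k p] {n : ℕ}
    {P : W.toAffine.Point} (hP : p ^ n • P = 0) : P = 0 := by
  obtain ⟨u, rfl⟩ := s59b_node_pt_surj h P
  rw [← s58x_pt_pow, s58x_pt_eq_zero_iff] at hP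
  have h1 : (u : k) ^ p ^ n = 1 := by
    have := congrArg Units.val hP
    simpa using this
  have h2 : (u : k) = 1 := s59b_pow_char_eq_one hp h1
  rw [s58x_pt_eq_zero_iff]
  exact Units.ext h2

end Node

/-! ### torsion in `E₀` -/

variable {K : Type*} [Field K] [DecidableEq K] {A : ValuationSubring K}
  [DecidableEq (ResidueField A)] {v : AddValuation K (WithTop ℚ)} {δ ε : A} {m : ℚ}

/-- a square root of `-ε̃`. -/
theorem s59b_exists_gamma [IsAlgClosed (ResidueField A)] (ε : A) :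
    ∃ γ : ResidueField A, γ ^ 2 = -residue A ε :=
  IsAlgClosed.exists_pow_nat_eq _ (by norm_num)

/-- **a `pⁿ`-torsion point of `E₀` lies in `E₁`.** -/
theorem s59b_E0_torsion (H : s59b_Leg A v δ ε m) [IsAlgClosed (ResidueField A)] {p : ℕ}
    (hp : p.Prime) [CharP (ResidueField A) p] {P : s59b_PtK A δ ε} (h0 : fl_InE0 v P) (n : ℕ)
    (hP : p ^ n • P = 0) : fl_InE1 v P := by
  obtain ⟨Pt, hR⟩ := s59b_R_exists H h0
  have hR' := s59b_R_nsmul H hR (p ^ n)
  rw [hP] at hR'
  have hz : p ^ n • Pt = 0 := (s59b_R_E1_iff H hR').mp (Or.inl rfl)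
  obtain ⟨γ, hγ⟩ := s59b_exists_gamma ε
  have hPt : Pt = 0 := s59b_node_torsion (s59b_node H hγ) hp hz
  exact (s59b_R_E1_iff H hR).mpr hPt

/-- if `p • P ∈ E₁` and `P ∈ E₀` then `P ∈ E₁`. -/
theorem s59b_E0_of_nsmul_E1 (H : s59b_Leg A v δ ε m) [IsAlgClosed (ResidueField A)] {p : ℕ}
    (hp : p.Prime) [CharP (ResidueField A) p] {P : s59b_PtK A δ ε} (h0 : fl_InE0 v P)
    (hP : fl_InE1 v (p • P)) : fl_InE1 v P := by
  obtain ⟨Pt, hR⟩ := s59b_R_exists H h0
  have hR' := s59b_R_nsmul H hR p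
  have hz : p • Pt = 0 := (s59b_R_E1_iff H hR').mp hP
  obtain ⟨γ, hγ⟩ := s59b_exists_gamma ε
  have hPt : Pt = 0 := s59b_node_torsion (n := 1) (s59b_node H hγ) hp (by rwa [pow_one])
  exact (s59b_R_E1_iff H hR).mpr hPt

/-! ### residues -/

/-- `z ∈ A` has residue `zb`. -/
def s59b_Res (A : ValuationSubring K) (z : K) (zb : ResidueField A) : Prop :=
  ∃ c : A, (c : K) = z ∧ residue A c = zb

theorem s59b_res_coe (a : A) : s59b_Res A (a : K) (residue A a) := ⟨a, rfl, rfl⟩

theorem s59b_res_unique {z : K} {zb zb' : ResidueField A} (h : s59b_Res A z zb)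
    (h' : s59b_Res A z zb') : zb = zb' := by
  obtain ⟨c, hc, rfl⟩ := h
  obtain ⟨c', hc', rfl⟩ := h'
  have : c = c' := Subtype.ext (hc.trans hc'.symm)
  rw [this]

theorem s59b_res_mul {z w : K} {zb wb : ResidueField A} (h₁ : s59b_Res A z zb)
    (h₂ : s59b_Res A w wb) : s59b_Res A (z * w) (zb * wb) := by
  obtain ⟨c, rfl, rfl⟩ := h₁
  obtain ⟨d, rfl, rfl⟩ := h₂
  exact ⟨c * d, by push_cast; rfl, map_mul _ _ _⟩

theorem s59b_res_sub {z w : K} {zb wb : ResidueField A} (h₁ : s59b_Res A z zb)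
    (h₂ : s59b_Res A w wb) : s59b_Res A (z - w) (zb - wb) := by
  obtain ⟨c, rfl, rfl⟩ := h₁
  obtain ⟨d, rfl, rfl⟩ := h₂
  exact ⟨c - d, by push_cast; rfl, map_sub _ _ _⟩

theorem s59b_res_one : s59b_Res A (1 : K) (1 : ResidueField A) :=
  ⟨1, rfl, map_one _⟩

theorem s59b_res_mem {z : K} {zb : ResidueField A} (h : s59b_Res A z zb) : z ∈ A := by
  obtain ⟨c, rfl, -⟩ := h
  exact c.2

/-- residues of the product over a multiset of integral elements. -/
theorem s59b_res_prod_int (M : Multiset K) (hM : ∀ r ∈ M, r ∈ A) :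
    ∃ Mb : Multiset (ResidueField A), Multiset.card Mb = Multiset.card M ∧
      ∀ (x : K) (xb : ResidueField A), s59b_Res A x xb →
        s59b_Res A (M.map (x - ·)).prod (Mb.map (xb - ·)).prod := by
  induction M using Multiset.induction with
  | empty =>
    refine ⟨0, rfl, fun x xb _ => ?_⟩
    simp only [Multiset.map_zero, Multiset.prod_zero]
    exact s59b_res_one
  | cons r M ih =>
    obtain ⟨Mb, hcard, hMb⟩ := ih (fun r' hr' => hM r' (Multiset.mem_cons_of_mem hr'))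
    have hr : r ∈ A := hM r (Multiset.mem_cons_self r M)
    refine ⟨residue A ⟨r, hr⟩ ::ₘ Mb, by simp [hcard], fun x xb hx => ?_⟩
    simp only [Multiset.map_cons, Multiset.prod_cons]
    exact s59b_res_mul (s59b_res_sub hx (s59b_res_coe ⟨r, hr⟩)) (hMb x xb hx)

/-- the product over a multiset of non-integral elements, at an integral point, is a principal unit
times the value at `0`. -/
theorem s59b_prod_nonint (H : s59b_Leg A v δ ε m) (N : Multiset K) (hN : ∀ ρ ∈ N, v ρ < 0) {x : K}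
    (hx : x ∈ A) :
    ∃ w : K, s59b_Res A w 1 ∧ (N.map (x - ·)).prod = w * (N.map (0 - ·)).prod := by
  induction N using Multiset.induction with
  | empty =>
    refine ⟨1, s59b_res_one, ?_⟩
    simp
  | cons ρ N ih =>
    obtain ⟨w, hw, hprod⟩ := ih (fun ρ' hρ' => hN ρ' (Multiset.mem_cons_of_mem hρ'))
    have hρ : v ρ < 0 := hN ρ (Multiset.mem_cons_self ρ N)
    have hρ0 : ρ ≠ 0 := by
      rintro rfl
      rw [v.map_zero] at hρ
      exact absurd hρ (not_lt.mpr le_top)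
    -- `x / ρ` lies in the maximal ideal
    have hq : 0 < v (x / ρ) := by
      rw [div_eq_mul_inv, v.map_mul, v.map_inv]
      have hx0 : 0 ≤ v x := (H.hv0 x).mpr hx
      obtain ⟨r, hr⟩ := fuc_exists_ex v hρ0
      rw [hr] at hρ ⊢
      have hr0 : r < 0 := by exact_mod_cast hρ
      have h1 : (0 : WithTop ℚ) < ((-r : ℚ) : WithTop ℚ) := by exact_mod_cast (by linarith)
      calc (0 : WithTop ℚ) < 0 + ((-r : ℚ) : WithTop ℚ) := by rwa [zero_add]
        _ ≤ v x + -(r : WithTop ℚ) := add_le_add hx0 (le_of_eq (by norm_cast))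
    have hqA : x / ρ ∈ A := (H.hv0 _).mp hq.le
    have hqres : residue A ⟨x / ρ, hqA⟩ = 0 := by
      rw [residue_eq_zero_iff, ← ValuationSubring.coe_mem_nonunits_iff, ← H.hv1]
      exact hq
    have hfac : s59b_Res A (1 - x / ρ) 1 := by
      have := s59b_res_sub s59b_res_one (s59b_res_coe (A := A) ⟨x / ρ, hqA⟩)
      rwa [hqres, sub_zero] at this
    refine ⟨(1 - x / ρ) * w, by simpa using s59b_res_mul hfac hw, ?_⟩
    simp only [Multiset.map_cons, Multiset.prod_cons, hprod]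
    field_simp
    ring

/-! ### generic points -/

/-- the discriminant of the Legendre-type model does not vanish. -/
theorem s59b_Δ_ne_zero [CharZero K] (H : s59b_Leg A v δ ε m) :
    (s41a_WK A (s59b_WL A δ ε)).Δ ≠ 0 := by
  have hδ0 : (δ : K) ≠ 0 := fuc_ne_zero_of_ex v H.hδ
  have hε0 : (ε : K) ≠ 0 := fuc_ne_zero_of_ex v (s := 0) (by rw [H.hε]; rfl)
  have hne : (δ : K) ≠ ε := by
    intro h
    have h1 := H.hδ
    rw [h, H.hε] at h1
    have : (0 : ℚ) = m := by exact_mod_cast h1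
    exact absurd this.symm H.hm.ne'
  have := (ent_fl_curve_isElliptic hδ0 hε0 hne).isUnit
  exact this.ne_zero

/-- over an algebraically closed field every abscissa carries a point. -/
theorem s59b_exists_point [IsAlgClosed K] [CharZero K] (H : s59b_Leg A v δ ε m) (x : K) :
    ∃ y : K, (s41a_WK A (s59b_WL A δ ε)).toAffine.Nonsingular x y := by
  have : (s41a_WK A (s59b_WL A δ ε)).IsElliptic := ⟨isUnit_iff_ne_zero.mpr (s59b_Δ_ne_zero H)⟩
  obtain ⟨P, y, h, -⟩ := ent_exists_point (W := s41a_WK A (s59b_WL A δ ε)) x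
  exact ⟨y, h⟩

/-- **generic points**: for `u ≠ 1` there is an integral point `P₀` with `x(P₀) ≡ X(u)` and
`x(p • P₀) ≡ X(uᵖ)`. -/
theorem s59b_generic [IsAlgClosed K] (H : s59b_Leg A v δ ε m) {p : ℕ} (hp : p.Prime)
    [CharP (ResidueField A) p] {γ : ResidueField A} (hγ : γ ^ 2 = -residue A ε)
    (u : (ResidueField A)ˣ) (hu : (u : ResidueField A) ≠ 1) :
    ∃ (a₀ a₁ : A) (y₀ y₁ : K) (h₀ : (s41a_WK A (s59b_WL A δ ε)).toAffine.Nonsingular (a₀ : K) y₀)
      (h₁ : (s41a_WK A (s59b_WL A δ ε)).toAffine.Nonsingular (a₁ : K) y₁),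
      residue A a₀ = s58x_X γ (-γ) u ∧ residue A a₁ = s58x_X γ (-γ) ((u : ResidueField A) ^ p) ∧
        p • Point.some (a₀ : K) y₀ h₀ = Point.some (a₁ : K) y₁ h₁ := by
  have node := s59b_node H hγ
  have hup : ((u ^ p : (ResidueField A)ˣ) : ResidueField A) ≠ 1 := by
    rw [Units.val_pow_eq_pow_val]
    intro h
    exact hu (s59b_pow_char_eq_one (n := 1) hp (by rwa [pow_one]))
  -- lift the point with parameter `u`
  have hpt := s58x_pt_of_ne node hu
  obtain ⟨P, hP⟩ := s58g_exists_lift (A := A) (W := s59b_WL A δ ε)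
    (s58x_nonsingular node (sub_ne_zero.mpr (Ne.symm hu)) u.ne_zero)
  have hR : s59b_R (v := v) P (s58x_pt node u) := by
    rw [hpt]; exact Or.inr hP
  have hR' := s59b_R_nsmul H hR p
  rw [← s58x_pt_pow] at hR'
  have hne : s58x_pt node (u ^ p) ≠ 0 := by
    rw [Ne, s58x_pt_eq_zero_iff]
    intro h
    apply hup
    rw [h, Units.val_one]
  have hRed : s58g_Red A (s59b_WL A δ ε) (p • P) (s58x_pt node (u ^ p)) := by
    rcases hR' with ⟨-, h⟩ | h
    · exact absurd h hne
    · exact h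
  obtain ⟨a₀, b₀, h₀, h₀', rfl, e₀⟩ := hP
  obtain ⟨a₁, b₁, h₁, h₁', e₁, e₁'⟩ := hRed
  refine ⟨a₀, a₁, b₀, b₁, h₀, h₁, ?_, ?_, e₁⟩
  · rw [Point.some.injEq] at e₀
    exact e₀.1.symm
  · rw [s58x_pt_of_ne node hup, Point.some.injEq] at e₁'
    rw [← Units.val_pow_eq_pow_val]
    exact e₁'.1.symm

/-! ### the pole-order contradiction -/

/-- `∏ (X(u) − rᵢ) = c · X(uᵖ)` (`p²` factors, `X(u) = u κ / (1 − u)²`) cannot hold for all
`u ≠ 0, 1` in characteristic `p`. -/
theorem s59b_pole_contra {k : Type*} [Field k] [Infinite k] {p : ℕ} (hp : p.Prime)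
    [CharP k p] {κ c : k} (hκ : κ ≠ 0) (Mb : Multiset k) (hcard : Multiset.card Mb = p ^ 2)
    (hid : ∀ u : k, u ≠ 0 → u ≠ 1 →
      (Mb.map (fun r => u * κ / (1 - u) ^ 2 - r)).prod = c * (u ^ p * κ / (1 - u ^ p) ^ 2)) :
    False := by
  have : Fact p.Prime := ⟨hp⟩
  have hp2 : 2 * p ≤ 2 * p ^ 2 := by nlinarith [hp.one_lt]
  have hpos : 2 * p ^ 2 - 2 * p ≠ 0 := by
    have : p < p ^ 2 := by nlinarith [hp.one_lt]
    omega
  set F : k[X] := (Mb.map (fun r => C κ * X - C r * (1 - X) ^ 2)).prod with hF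
  set G : k[X] := C (c * κ) * X ^ p * (1 - X) ^ (2 * p ^ 2 - 2 * p) with hG
  have hFG : F = G := by
    apply Polynomial.eq_of_infinite_eval_eq
    refine Set.Infinite.mono ?_ (Set.Finite.infinite_compl (Set.toFinite ({0, 1} : Set k)))
    intro u hu
    simp only [Set.mem_compl_iff, Set.mem_insert_iff, Set.mem_singleton_iff, not_or] at hu
    obtain ⟨hu0, hu1⟩ := hu
    have h1u : (1 : k) - u ≠ 0 := sub_ne_zero.mpr (Ne.symm hu1)
    show F.eval u = G.eval u
    have e1 : F.eval u = (Mb.map (fun r => (1 - u) ^ 2 * (u * κ / (1 - u) ^ 2 - r))).prod := by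
      rw [hF, eval_multiset_prod, Multiset.map_map]
      congr 1
      refine Multiset.map_congr rfl (fun r _ => ?_)
      simp only [Function.comp_apply, eval_sub, eval_mul, eval_C, eval_X, eval_pow, eval_one]
      field_simp
    have e2 : (Mb.map (fun r => (1 - u) ^ 2 * (u * κ / (1 - u) ^ 2 - r))).prod =
        ((1 - u) ^ 2) ^ (p ^ 2) * (Mb.map (fun r => u * κ / (1 - u) ^ 2 - r)).prod := by
      rw [Multiset.prod_map_mul, Multiset.map_const', Multiset.prod_replicate, hcard]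
    have e3 : (1 : k) - u ^ p = (1 - u) ^ p := by
      rw [sub_pow_char, one_pow]
    rw [e1, e2, hid u hu0 hu1, e3, hG]
    simp only [eval_mul, eval_C, eval_pow, eval_X, eval_sub, eval_one]
    have e4 : ((1 : k) - u) ^ (2 * p ^ 2) =
        (1 - u) ^ (2 * p ^ 2 - 2 * p) * ((1 - u) ^ p) ^ 2 := by
      rw [← pow_mul, ← pow_add]
      congr 1
      omega
    have h5 : ((1 : k) - u) ^ p ≠ 0 := pow_ne_zero p h1u
    rw [← pow_mul, e4]
    field_simp
  have h1 : F.eval 1 = κ ^ (p ^ 2) := by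
    rw [hF, eval_multiset_prod, Multiset.map_map]
    have : (Mb.map (eval 1 ∘ fun r => C κ * X - C r * (1 - X) ^ 2)) = Mb.map (fun _ => κ) := by
      refine Multiset.map_congr rfl (fun r _ => ?_)
      simp
    rw [this, Multiset.map_const', Multiset.prod_replicate, hcard]
  have h2 : G.eval 1 = 0 := by
    rw [hG]
    simp only [eval_mul, eval_C, eval_pow, eval_X, eval_sub, eval_one, sub_self]
    rw [zero_pow hpos, mul_zero]
  rw [hFG, h2] at h1
  exact pow_ne_zero _ hκ h1.symm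

/-! ### the crux -/

/-- **not every `p`-torsion point lies in `E₁`.** -/
theorem s59b_exists_torsion_not_E1 [IsAlgClosed K] [CharZero K] (H : s59b_Leg A v δ ε m)
    [IsAlgClosed (ResidueField A)] {p : ℕ} (hp : p.Prime) [CharP (ResidueField A) p] :
    ∃ P : s59b_PtK A δ ε, p • P = 0 ∧ ¬ fl_InE1 v P := by
  by_contra hcon
  have hall : ∀ P : s59b_PtK A δ ε, p • P = 0 → fl_InE1 v P := by
    intro P hP
    by_contra h
    exact hcon ⟨P, hP, h⟩
  have hΔ := s59b_Δ_ne_zero H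
  have hΔ' : (s41a_WK A (s59b_WL A δ ε)).toAffine.Δ ≠ 0 := hΔ
  obtain ⟨hcop, hmon, hdega, hdegb, hlcb⟩ := (enc_Inv_all (s41a_WK A (s59b_WL A δ ε)) hΔ p).1
  have hb0 : enc_b (s41a_WK A (s59b_WL A δ ε)) p ≠ 0 :=
    enc_b_ne_zero (s41a_WK A (s59b_WL A δ ε)).toAffine hΔ' hp.pos
  set a := enc_a (s41a_WK A (s59b_WL A δ ε)) p with ha
  set b := enc_b (s41a_WK A (s59b_WL A δ ε)) p with hb
  -- the roots of `b` are non-integral
  have hb_roots : ∀ ρ ∈ b.roots, v ρ < 0 := by
    intro ρ hρ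
    have hρ0 : b.eval ρ = 0 := (mem_roots hb0).mp hρ
    obtain ⟨y, hy⟩ := s59b_exists_point H ρ
    have hP := (enc_nsmul_eq_zero_iff (s41a_WK A (s59b_WL A δ ε)).toAffine hΔ' hy p).mpr hρ0
    rcases hall _ hP with h0 | ⟨x', y', h', he, hx'⟩
    · exact absurd h0 (Point.some_ne_zero _)
    · rw [Point.some.injEq] at he
      rw [he.1]; exact hx'
  -- the roots of `a` are integral
  have ha_roots : ∀ r ∈ a.roots, r ∈ A := by
    intro r hr
    have hr0 : a.eval r = 0 := (mem_roots hmon.ne_zero).mp hr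
    rw [← H.hv0]
    by_contra hneg
    rw [not_le] at hneg
    obtain ⟨y, hy⟩ := s59b_exists_point H r
    have hE : fl_InE1 v (Point.some r y hy) := Or.inr ⟨r, y, hy, rfl, hneg⟩
    have hnE := s59b_E1_nsmul H hE p
    have hbr : b.eval r ≠ 0 := fun hb' => enc_not_both_zero hcop r hr0 hb'
    have hne : p • (Point.some r y hy : s59b_PtK A δ ε) ≠ 0 := fun h =>
      hbr ((enc_nsmul_eq_zero_iff (s41a_WK A (s59b_WL A δ ε)).toAffine hΔ' hy p).mp h)
    rcases hQ : p • (Point.some r y hy : s59b_PtK A δ ε) with _ | ⟨x', y', h'⟩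
    · exact hne hQ
    · have hx' := enc_nsmul_some (s41a_WK A (s59b_WL A δ ε)).toAffine hΔ' hy p hQ
      rw [← ha, hr0] at hx'
      have hx'0 : x' = 0 := (mul_eq_zero.mp hx').resolve_right hbr
      rw [hQ] at hnE
      rcases hnE with h0 | ⟨x'', y'', h'', he, hx''⟩
      · exact Point.some_ne_zero _ h0
      · rw [Point.some.injEq] at he
        rw [← he.1, hx'0, v.map_zero] at hx''
        exact absurd hx'' (not_lt.mpr le_top)
  obtain ⟨Mb, hcard, hMb⟩ := s59b_res_prod_int a.roots ha_roots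
  have hcard' : Multiset.card Mb = p ^ 2 := by
    rw [hcard, ← (IsAlgClosed.splits a).natDegree_eq_card_roots, hdega]
  obtain ⟨γ, hγ⟩ := s59b_exists_gamma (A := A) ε
  have node := s59b_node H hγ
  set β₀ := b.eval 0 with hβ₀
  -- the key relation at the parameter `u`
  have key : ∀ u : (ResidueField A)ˣ, (u : ResidueField A) ≠ 1 →
      ∃ (a₁ : A) (w αu : K), residue A a₁ = s58x_X γ (-γ) ((u : ResidueField A) ^ p) ∧
        s59b_Res A w 1 ∧ (a₁ : K) * (w * β₀) = αu ∧
        s59b_Res A αu (Mb.map (s58x_X γ (-γ) u - ·)).prod := by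
    intro u hu
    obtain ⟨a₀, a₁, y₀, y₁, h₀, h₁, e₀, e₁, hmul⟩ := s59b_generic H hp hγ u hu
    have hrel := enc_nsmul_some (s41a_WK A (s59b_WL A δ ε)).toAffine hΔ' h₀ p hmul
    rw [← ha, ← hb] at hrel
    obtain ⟨w, hw, hprod⟩ := s59b_prod_nonint H b.roots hb_roots a₀.2
    have hbe : b.eval (a₀ : K) = w * β₀ := by
      rw [hβ₀, (IsAlgClosed.splits b).eval_eq_prod_roots, (IsAlgClosed.splits b).eval_eq_prod_roots,
        hprod]
      ring
    refine ⟨a₁, w, a.eval (a₀ : K), e₁, hw, ?_, ?_⟩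
    · rw [← hbe]; exact hrel
    · rw [(IsAlgClosed.splits a).eval_eq_prod_roots_of_monic hmon]
      have := hMb (a₀ : K) (residue A a₀) (s59b_res_coe a₀)
      rwa [e₀] at this
  -- `β₀` is integral
  have hXne : ∀ u : (ResidueField A)ˣ, (u : ResidueField A) ≠ 1 →
      s58x_X γ (-γ) ((u : ResidueField A) ^ p) ≠ 0 := by
    intro u hu
    have hup : ((u ^ p : (ResidueField A)ˣ) : ResidueField A) ≠ 1 := by
      rw [Units.val_pow_eq_pow_val]
      intro h
      exact hu (s59b_pow_char_eq_one (n := 1) hp (by rwa [pow_one]))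
    have := s58x_X_ne_zero node (sub_ne_zero.mpr (Ne.symm hup)) (u ^ p).ne_zero
    rwa [Units.val_pow_eq_pow_val] at this
  have hval : ∀ u : (ResidueField A)ˣ, (u : ResidueField A) ≠ 1 → β₀ ∈ A := by
    intro u hu
    obtain ⟨a₁, w, αu, e₁, hw, hrel, hα⟩ := key u hu
    have hva₁ : v (a₁ : K) = 0 := (s59b_eq_zero_iff H a₁).mpr (by rw [e₁]; exact hXne u hu)
    obtain ⟨cw, hcw, hcw1⟩ := hw
    have hvw : v w = 0 := by
      rw [← hcw]
      exact (s59b_eq_zero_iff H cw).mpr (by rw [hcw1]; exact one_ne_zero)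
    have hvα : 0 ≤ v αu := (H.hv0 _).mpr (s59b_res_mem hα)
    rw [← hrel, v.map_mul, v.map_mul, hva₁, hvw, zero_add, zero_add] at hvα
    exact (H.hv0 _).mp hvα
  -- a parameter `u₀ ≠ 0, 1`
  obtain ⟨u₀, hu₀0, hu₀1⟩ : ∃ u₀ : ResidueField A, u₀ ≠ 0 ∧ u₀ ≠ 1 := by
    have hinf : (({0, 1} : Set (ResidueField A))ᶜ).Infinite :=
      Set.Finite.infinite_compl (Set.toFinite _)
    obtain ⟨u₀, hu₀⟩ := hinf.nonempty
    simp only [Set.mem_compl_iff, Set.mem_insert_iff, Set.mem_singleton_iff, not_or] at hu₀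
    exact ⟨u₀, hu₀.1, hu₀.2⟩
  have hβA : β₀ ∈ A := hval (Units.mk0 u₀ hu₀0) (by rwa [Units.val_mk0])
  -- the identity in the residue field
  refine s59b_pole_contra hp (κ := (γ - -γ) ^ 2) (c := residue A ⟨β₀, hβA⟩)
    (pow_ne_zero 2 (sub_ne_zero.mpr node.hne)) Mb hcard' ?_
  intro u hu0 hu1
  obtain ⟨a₁, w, αu, e₁, hw, hrel, hα⟩ := key (Units.mk0 u hu0) (by rwa [Units.val_mk0])
  rw [Units.val_mk0] at e₁ hα
  have h1 : s59b_Res A ((a₁ : K) * (w * β₀))
      (s58x_X γ (-γ) (u ^ p) * (1 * residue A ⟨β₀, hβA⟩)) := by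
    have := s59b_res_mul (s59b_res_coe a₁) (s59b_res_mul hw (s59b_res_coe (A := A) ⟨β₀, hβA⟩))
    rwa [e₁] at this
  rw [hrel] at h1
  have h2 := s59b_res_unique hα h1
  simp only [s58x_X] at h2
  rw [h2]
  ring

end Fermat.Agent.Lib.S59
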