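/-
S59 (E4), step 4: consequences of the unsigned-level law on the Legendre-type model at residue
characteristic `p`:
* `s59b_exists_P0`: a `p`-torsion point of level `2m/p`;
* `s59b_sub_P0`: every `p`-torsion point differs from a multiple of `P₀` by a point of `E₁`;
* `s59b_E1_divisible`: `E₁` is `p`-divisible;
* `s59b_exists_E1_torsion`: `E₁[p] ≠ 0`.
-/
import Mathlib
import Fermat.Agent.Lib.S59.BOrdTors

set_option autoImplicit false
set_option linter.unusedSectionVars false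

namespace Fermat.Agent.Lib.S59

open WeierstrassCurve WeierstrassCurve.Affine WeierstrassCurve.Affine.Point IsLocalRing Polynomial
open Fermat.Agent.Lib.Frey Fermat.Agent.Lib.S41 Fermat.Agent.Lib.S58 Fermat.Agent.Lib.EN

/-! ### abstract level functions -/

section Abstract

variable {G : Type*} [AddCommGroup G] {a : G → ℚ} {m : ℚ}

/-- `fuc_exists_sub_level_zero` with the hypothesis `a (p • x) = 0` instead of `p • x = 0`. -/
theorem s59b_exists_sub_level_zero (hm : 0 < m) (h0 : ∀ P, 0 ≤ a P) (hle : ∀ P, a P ≤ m)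
    (hU : fuc_Law a m) (p : ℕ) (hp : 0 < p) (x P0 : G) (hx : a (p • x) = 0)
    (hP0 : a P0 = 2 * m / p) : ∃ j : ℤ, a (x - j • P0) = 0 := by
  have hp' : (0 : ℚ) < p := by exact_mod_cast hp
  have h1 := (fuc_level_nsmul_aux hm h0 hle hU x p).1
  rw [hx] at h1
  obtain ⟨z', hz'⟩ : ∃ z' : ℤ, (p : ℚ) * a x = z' * (2 * m) := by
    obtain ⟨z, hz | hz⟩ := h1
    · exact ⟨-z, by push_cast; linarith⟩
    · exact ⟨z, by linarith⟩
  have hax : a x = z' * (2 * m / p) := by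
    field_simp
    linarith
  have hz0 : 0 ≤ z' := by
    by_contra hneg
    rw [not_le] at hneg
    have : (z' : ℚ) ≤ -1 := by exact_mod_cast Int.le_sub_one_of_lt hneg
    have h3 := h0 x
    have : (p : ℚ) * a x < 0 := by rw [hz']; nlinarith
    nlinarith
  obtain ⟨j, rfl⟩ := Int.eq_ofNat_of_zero_le hz0
  have h2 := (fuc_level_nsmul_aux hm h0 hle hU P0 j).1
  have h3 : a (j • P0) = a x := by
    refine fuc_near_unique hm (h0 _) (h0 _) (hle _) (hle _) h2 ?_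
    rw [hP0, hax]
    push_cast
    exact fuc_near_self m _
  rcases hU x (j • P0) with ⟨_, h⟩ | ⟨h, _⟩
  · refine ⟨(j : ℤ), ?_⟩
    rw [natCast_zsmul, h, h3]; simp
  · refine ⟨-(j : ℤ), ?_⟩
    rw [neg_zsmul, natCast_zsmul, sub_neg_eq_add, h, h3]; simp

/-- from a `p`-torsion point of nonzero level to one of level exactly `2m/p`. -/
theorem s59b_level_two_m_div_p (hm : 0 < m) (h0 : ∀ P, 0 ≤ a P) (hle : ∀ P, a P ≤ m)
    (hU : fuc_Law a m) {p : ℕ} (hp : p.Prime) {P : G} (hP : p • P = 0) (haP : a P ≠ 0) :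
    ∃ k : ℕ, a (k • P) = 2 * m / p := by
  have hp' : (0 : ℚ) < p := by exact_mod_cast hp.pos
  have h1 := (fuc_level_nsmul_aux hm h0 hle hU P p).1
  rw [hP, fuc_level_zero hU] at h1
  obtain ⟨z', hz'⟩ : ∃ z' : ℤ, (p : ℚ) * a P = z' * (2 * m) := by
    obtain ⟨z, hz | hz⟩ := h1
    · exact ⟨-z, by push_cast; linarith⟩
    · exact ⟨z, by linarith⟩
  have hax : a P = z' * (2 * m / p) := by
    field_simp
    linarith
  have hpos : 0 < a P := lt_of_le_of_ne (h0 P) (Ne.symm haP)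
  have hz0 : 0 < z' := by
    by_contra hneg
    rw [not_lt] at hneg
    have : (z' : ℚ) ≤ 0 := by exact_mod_cast hneg
    have : (p : ℚ) * a P ≤ 0 := by rw [hz']; nlinarith
    nlinarith
  have hzp : z' < p := by
    by_contra hge
    rw [not_lt] at hge
    have : (p : ℚ) ≤ z' := by exact_mod_cast hge
    have h4 := hle P
    have : (p : ℚ) * a P ≤ p * m := by nlinarith
    rw [hz'] at this
    nlinarith
  obtain ⟨n, rfl⟩ := Int.eq_ofNat_of_zero_le hz0.le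
  have hn0 : 0 < n := by exact_mod_cast hz0
  have hnp : n < p := by exact_mod_cast hzp
  have hcop : Nat.Coprime n p :=
    (Nat.coprime_comm.mp ((Nat.Prime.coprime_iff_not_dvd hp).mpr
      (fun hdvd => absurd (Nat.le_of_dvd hn0 hdvd) (not_le.mpr hnp))))
  obtain ⟨k, -, hk⟩ := Nat.exists_mul_mod_eq_one_of_coprime hcop hp.one_lt
  refine ⟨k, ?_⟩
  have h2 := (fuc_level_nsmul_aux hm h0 hle hU P k).1
  obtain ⟨t, ht⟩ : ∃ t : ℕ, n * k = p * t + 1 := by
    refine ⟨n * k / p, ?_⟩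
    have := Nat.div_add_mod (n * k) p
    rw [hk] at this
    exact this.symm
  have hq : (n : ℚ) * k = p * t + 1 := by exact_mod_cast ht
  have hax' : a P = (n : ℚ) * (2 * m / p) := by rw [hax]; push_cast; ring
  have hka : (k : ℚ) * a P = 2 * m / p + (t : ℚ) * (2 * m) := by
    calc (k : ℚ) * a P = ((n : ℚ) * k) * (2 * m / p) := by rw [hax']; ring
      _ = (p * t + 1) * (2 * m / p) := by rw [hq]
      _ = 2 * m / p + (t : ℚ) * (2 * m) := by field_simp; ring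
  have h3 : fuc_Near m (2 * m / p) (a (k • P)) := by
    obtain ⟨z, hz | hz⟩ := h2
    · exact ⟨z + t, Or.inl (by rw [hz, hka]; push_cast; ring)⟩
    · exact ⟨z - t, Or.inr (by rw [hz, hka]; push_cast; ring)⟩
  have h2p : (2 : ℚ) ≤ p := by exact_mod_cast hp.two_le
  have hle' : 2 * m / p ≤ m := by
    rw [div_le_iff₀ hp']; nlinarith
  exact fuc_near_unique hm (h0 _) (by positivity) (hle _) hle' h3 (fuc_near_self m _)

end Abstract

/-! ### the Legendre-type model -/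

variable {K : Type*} [Field K] [DecidableEq K] {A : ValuationSubring K}
  [DecidableEq (ResidueField A)] {v : AddValuation K (WithTop ℚ)} {δ ε : A} {m : ℚ}

/-- multiplication by `n > 0` is surjective on the points over an algebraically closed field. -/
theorem s59b_nsmul_surjective [IsAlgClosed K] [CharZero K] (H : s59b_Leg A v δ ε m) {n : ℕ}
    (hn : 0 < n) (Q : s59b_PtK A δ ε) : ∃ S : s59b_PtK A δ ε, n • S = Q := by
  rcases Q with _ | ⟨ξ, η, hQ'⟩
  · exact ⟨0, smul_zero n⟩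
  have hΔ := s59b_Δ_ne_zero H
  have hΔ' : (s41a_WK A (s59b_WL A δ ε)).toAffine.Δ ≠ 0 := hΔ
  obtain ⟨hcop, hmon, hdega, hdegb, hlcb⟩ := (enc_Inv_all (s41a_WK A (s59b_WL A δ ε)) hΔ n).1
  have hn2 : 0 < n ^ 2 := by positivity
  have hbne : enc_b (s41a_WK A (s59b_WL A δ ε)) n ≠ 0 :=
    enc_b_ne_zero (s41a_WK A (s59b_WL A δ ε)).toAffine hΔ' hn
  set a := enc_a (s41a_WK A (s59b_WL A δ ε)) n with ha
  set b := enc_b (s41a_WK A (s59b_WL A δ ε)) n with hb
  have hdeg : (a - C ξ * b).natDegree = n ^ 2 := by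
    rw [natDegree_sub_eq_left_of_natDegree_lt, hdega]
    rw [hdega]
    refine lt_of_le_of_lt (natDegree_C_mul_le _ _) ?_
    rw [hdegb]
    exact Nat.sub_lt hn2 one_pos
  obtain ⟨x₀, hx₀⟩ := IsAlgClosed.exists_root (a - C ξ * b) (by
    rw [degree_eq_natDegree, hdeg]
    · exact_mod_cast hn2.ne'
    · intro h0
      rw [h0, natDegree_zero] at hdeg
      exact hn2.ne hdeg)
  have hrel : a.eval x₀ = ξ * b.eval x₀ := by
    rw [IsRoot.def, eval_sub, eval_mul, eval_C, sub_eq_zero] at hx₀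
    exact hx₀
  have hb0 : b.eval x₀ ≠ 0 := by
    intro hb'
    rw [hb', mul_zero] at hrel
    exact enc_not_both_zero hcop x₀ hrel hb'
  obtain ⟨y₀, h₀⟩ := s59b_exists_point H x₀
  have hne : n • (Point.some x₀ y₀ h₀ : s59b_PtK A δ ε) ≠ 0 := fun h =>
    hb0 ((enc_nsmul_eq_zero_iff (s41a_WK A (s59b_WL A δ ε)).toAffine hΔ' h₀ n).mp h)
  rcases hP : n • (Point.some x₀ y₀ h₀ : s59b_PtK A δ ε) with _ | ⟨x', y', h'⟩
  · exact absurd hP hne
  have hx' := enc_nsmul_some (s41a_WK A (s59b_WL A δ ε)).toAffine hΔ' h₀ n hP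
  rw [← ha, ← hb, hrel] at hx'
  have hx'ξ : x' = ξ := mul_right_cancel₀ hb0 hx'
  subst hx'ξ
  rcases (Point.X_eq_iff (h₁ := h') (h₂ := hQ')).mp rfl with h | h
  · exact ⟨_, hP.trans h⟩
  · refine ⟨-(Point.some x₀ y₀ h₀ : s59b_PtK A δ ε), ?_⟩
    rw [smul_neg, hP, h, neg_neg]

variable [IsAlgClosed K] [CharZero K] [IsAlgClosed (ResidueField A)]

/-- **a `p`-torsion point of level `2m/p`.** -/
theorem s59b_exists_P0 (H : s59b_Leg A v δ ε m) {p : ℕ} (hp : p.Prime)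
    [CharP (ResidueField A) p] :
    ∃ P₀ : s59b_PtK A δ ε, p • P₀ = 0 ∧ fuc_lvl v m P₀ = 2 * m / p := by
  obtain ⟨P, hP, hP1⟩ := s59b_exists_torsion_not_E1 H hp
  have hP0 : ¬ fl_InE0 v P := fun h0 =>
    hP1 (s59b_E0_torsion H hp h0 1 (by rwa [pow_one]))
  have haP : fuc_lvl v m P ≠ 0 := fun h => hP0 ((s59b_lvl_zero_iff H P).mp h)
  obtain ⟨k, hk⟩ := s59b_level_two_m_div_p H.hm (fuc_lvl_nonneg v H.hm) (fuc_lvl_le v H.hm)
    (s59b_law H) hp hP haP
  exact ⟨k • P, by rw [smul_comm, hP, smul_zero], hk⟩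

/-- every point `x` with `p • x ∈ E₀` differs from a multiple of `P₀` by a point of `E₀`. -/
theorem s59b_sub_P0_E0 (H : s59b_Leg A v δ ε m) {p : ℕ} (hp : p.Prime)
    {P₀ : s59b_PtK A δ ε} (hlvl : fuc_lvl v m P₀ = 2 * m / p) {x : s59b_PtK A δ ε}
    (hx : fl_InE0 v (p • x)) : ∃ j : ℤ, fl_InE0 v (x - j • P₀) := by
  obtain ⟨j, hj⟩ := s59b_exists_sub_level_zero H.hm (fuc_lvl_nonneg v H.hm) (fuc_lvl_le v H.hm)
    (s59b_law H) p hp.pos x P₀ ((s59b_lvl_zero_iff H _).mpr hx) hlvl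
  exact ⟨j, (s59b_lvl_zero_iff H _).mp hj⟩

/-- every `p`-torsion point differs from a multiple of `P₀` by a point of `E₁`. -/
theorem s59b_sub_P0 (H : s59b_Leg A v δ ε m) {p : ℕ} (hp : p.Prime) [CharP (ResidueField A) p]
    {P₀ : s59b_PtK A δ ε} (hP₀ : p • P₀ = 0) (hlvl : fuc_lvl v m P₀ = 2 * m / p)
    {x : s59b_PtK A δ ε} (hx : p • x = 0) : ∃ j : ℤ, fl_InE1 v (x - j • P₀) := by
  obtain ⟨j, hj⟩ := s59b_sub_P0_E0 H hp hlvl (x := x) (by rw [hx]; exact Or.inl rfl)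
  refine ⟨j, s59b_E0_torsion H hp hj 1 ?_⟩
  rw [pow_one, smul_sub, hx, smul_comm, hP₀, smul_zero, sub_zero]

/-- **`E₁` is `p`-divisible.** -/
theorem s59b_E1_divisible (H : s59b_Leg A v δ ε m) {p : ℕ} (hp : p.Prime)
    [CharP (ResidueField A) p] {Q : s59b_PtK A δ ε} (hQ : fl_InE1 v Q) :
    ∃ S : s59b_PtK A δ ε, fl_InE1 v S ∧ p • S = Q := by
  obtain ⟨P₀, hP₀, hlvl⟩ := s59b_exists_P0 H hp
  obtain ⟨S₀, hS₀⟩ := s59b_nsmul_surjective H hp.pos Q
  obtain ⟨j, hj⟩ := s59b_sub_P0_E0 H hp hlvl (x := S₀) (by rw [hS₀]; exact hQ.inE0)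
  have hmul : p • (S₀ - j • P₀) = Q := by
    rw [smul_sub, hS₀, smul_comm, hP₀, smul_zero, sub_zero]
  exact ⟨S₀ - j • P₀, s59b_E0_of_nsmul_E1 H hp hj (by rw [hmul]; exact hQ), hmul⟩

/-- **`E₁[p] ≠ 0`.** -/
theorem s59b_exists_E1_torsion (H : s59b_Leg A v δ ε m) {p : ℕ} (hp : p.Prime)
    [CharP (ResidueField A) p] :
    ∃ R : s59b_PtK A δ ε, p • R = 0 ∧ R ≠ 0 ∧ fl_InE1 v R := by
  obtain ⟨P₀, hP₀, hlvl⟩ := s59b_exists_P0 H hp
  by_contra hcon
  -- then every `p`-torsion point is a multiple of `P₀`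
  have hall : ∀ x : s59b_PtK A δ ε, p • x = 0 → ∃ i : Fin p, x = (i : ℕ) • P₀ := by
    intro x hx
    obtain ⟨j, hj⟩ := s59b_sub_P0 H hp hP₀ hlvl hx
    have hz : x - j • P₀ = 0 := by
      by_contra hne
      apply hcon
      refine ⟨x - j • P₀, ?_, hne, hj⟩
      rw [smul_sub, hx, smul_comm, hP₀, smul_zero, sub_zero]
    have hxj : x = j • P₀ := sub_eq_zero.mp hz
    have hp0 : (p : ℤ) ≠ 0 := by exact_mod_cast hp.ne_zero
    have hmod : j • P₀ = (j % p) • P₀ := by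
      conv_lhs => rw [← Int.emod_add_mul_ediv j p]
      rw [add_zsmul, mul_zsmul, natCast_zsmul, smul_comm, hP₀, smul_zero, add_zero]
    have hnn : 0 ≤ j % p := Int.emod_nonneg j hp0
    have hlt : j % p < p := Int.emod_lt_of_pos j (by exact_mod_cast hp.pos)
    obtain ⟨i, hi⟩ := Int.eq_ofNat_of_zero_le hnn
    have hip : i < p := by rw [hi] at hlt; exact_mod_cast hlt
    refine ⟨⟨i, hip⟩, ?_⟩
    show x = i • P₀
    rw [hxj, hmod, hi, natCast_zsmul]
  have hΔ' : (s41a_WK A (s59b_WL A δ ε)).toAffine.Δ ≠ 0 := s59b_Δ_ne_zero H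
  have hcard := enc_card_torsion_of_Δ' (s41a_WK A (s59b_WL A δ ε)).toAffine hΔ' p hp.pos
  have hsurj : Function.Surjective
      (fun i : Fin p => (⟨(i : ℕ) • P₀, by rw [smul_comm, hP₀, smul_zero]⟩ :
        {P : s59b_PtK A δ ε // p • P = 0})) := by
    rintro ⟨x, hx⟩
    obtain ⟨i, hi⟩ := hall x hx
    exact ⟨i, Subtype.ext hi.symm⟩
  have hle := Nat.card_le_card_of_surjective _ hsurj
  rw [hcard, Nat.card_fin] at hle
  have : p < p ^ 2 := by nlinarith [hp.one_lt]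
  omega

end Fermat.Agent.Lib.S59
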