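/-
S59 (E4), step 7: the Legendre-type model of `W / ℤ` at a multiplicative odd prime `p`, over
`ℚ̄` with a valuation subring `A` over `p` and the `ℚ`-valued valuation `v = ford_vQ A`:
`s59b_Model` packages the root `e₁` of the `2`-division cubic put at the origin, `δ = e₂ − e₁`
(`v δ = m > 0`), `ε = e₃ − e₁` (a unit), the change of variables, and the fact that an element
`σ` of the decomposition group moves `e₁` by an element of value `≥ m`.
-/
import Mathlib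
import Fermat.Agent.Lib.S59.BOrdLeg
import Fermat.Agent.Lib.S59.BOrdRed
import Fermat.Agent.Lib.Frey.OrdInertia
import Fermat.Agent.Lib.S41.ARedRes
import Fermat.Prelude.Def_FLTPrelim_Ramification

set_option autoImplicit false
set_option linter.unusedSectionVars false

namespace Fermat.Agent.Lib.S59

open WeierstrassCurve WeierstrassCurve.Affine IsLocalRing
open Fermat.Agent.Lib.Frey Fermat.Agent.Lib.S41 Fermat.Agent.Lib.S58

local notation "Kb" => AlgebraicClosure ℚ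
local notation "Gal" => (AlgebraicClosure ℚ ≃ₐ[ℚ] AlgebraicClosure ℚ)

/-- the curve over `ℚ̄`. -/
noncomputable abbrev s59b_EQb (W : WeierstrassCurve ℤ) : WeierstrassCurve Kb :=
  (W.map (Int.castRingHom ℚ)).baseChange Kb

section coeffs

variable (W : WeierstrassCurve ℤ)

theorem s59b_EQb_a₁ : (s59b_EQb W).a₁ = ((W.a₁ : ℤ) : Kb) := by
  show algebraMap ℚ Kb ((Int.castRingHom ℚ) W.a₁) = _
  rw [eq_intCast, map_intCast]

theorem s59b_EQb_a₃ : (s59b_EQb W).a₃ = ((W.a₃ : ℤ) : Kb) := by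
  show algebraMap ℚ Kb ((Int.castRingHom ℚ) W.a₃) = _
  rw [eq_intCast, map_intCast]

theorem s59b_EQb_b₂ : (s59b_EQb W).b₂ = ((W.b₂ : ℤ) : Kb) := by
  show ((W.map (Int.castRingHom ℚ)).map (algebraMap ℚ Kb)).b₂ = _
  rw [map_b₂, map_b₂, eq_intCast, map_intCast]

theorem s59b_EQb_b₄ : (s59b_EQb W).b₄ = ((W.b₄ : ℤ) : Kb) := by
  show ((W.map (Int.castRingHom ℚ)).map (algebraMap ℚ Kb)).b₄ = _
  rw [map_b₄, map_b₄, eq_intCast, map_intCast]

theorem s59b_EQb_b₆ : (s59b_EQb W).b₆ = ((W.b₆ : ℤ) : Kb) := by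
  show ((W.map (Int.castRingHom ℚ)).map (algebraMap ℚ Kb)).b₆ = _
  rw [map_b₆, map_b₆, eq_intCast, map_intCast]

theorem s59b_EQb_c₄ : (s59b_EQb W).c₄ = ((W.c₄ : ℤ) : Kb) := by
  show ((W.map (Int.castRingHom ℚ)).map (algebraMap ℚ Kb)).c₄ = _
  rw [map_c₄, map_c₄, eq_intCast, map_intCast]

theorem s59b_EQb_Δ : (s59b_EQb W).Δ = ((W.Δ : ℤ) : Kb) := by
  show ((W.map (Int.castRingHom ℚ)).map (algebraMap ℚ Kb)).Δ = _
  rw [map_Δ, map_Δ, eq_intCast, map_intCast]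

end coeffs

variable {A : ValuationSubring Kb} {p : ℕ} (hp : p.Prime) (hA : A.LiesOverPrime p)

/-- the valuation. -/
noncomputable abbrev s59b_v : AddValuation Kb (WithTop ℚ) := ford_vQ A hp hA

theorem s59b_v_int (z : ℤ) : 0 ≤ s59b_v hp hA (z : Kb) := ford_vQ_intCast_nonneg hp hA z

theorem s59b_v_int_pos {z : ℤ} (hz : (p : ℤ) ∣ z) : 0 < s59b_v hp hA (z : Kb) := by
  obtain ⟨k, rfl⟩ := hz
  push_cast
  rw [AddValuation.map_mul, ford_vQ_q hp hA]
  have h1 := s59b_v_int hp hA k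
  calc (0 : WithTop ℚ) < 1 + 0 := by rw [add_zero]; exact zero_lt_one
    _ ≤ 1 + s59b_v hp hA (k : Kb) := by gcongr

theorem s59b_v_eq_zero_iff (x : Kb) : s59b_v hp hA x = 0 ↔ A.valuation x = 1 := by
  have h := ford_vQ_eq_iff hp hA x 1
  rw [AddValuation.map_one, map_one] at h
  exact h

theorem s59b_v_int_zero {z : ℤ} (hz : ¬ (p : ℤ) ∣ z) : s59b_v hp hA (z : Kb) = 0 :=
  (s59b_v_eq_zero_iff hp hA _).mpr (s41a_valuation_intCast_eq_one A hp hA hz)

theorem s59b_v_two (hp2 : p ≠ 2) : s59b_v hp hA (2 : Kb) = 0 := by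
  have h : ¬ (p : ℤ) ∣ (2 : ℤ) := by
    intro hdvd
    have h' : p ∣ 2 := by exact_mod_cast hdvd
    exact hp2 ((Nat.prime_dvd_prime_iff_eq hp Nat.prime_two).mp h')
  have := s59b_v_int_zero hp hA h
  simpa using this

/-- a root of a cubic `4 X³ + b₂ X² + 2 b₄ X + b₆` with integral `bᵢ` (`4` a unit) is integral. -/
theorem s59b_root_integral (hp2 : p ≠ 2) {b₂ b₄ b₆ e : Kb} (h2 : 0 ≤ s59b_v hp hA b₂)
    (h4 : 0 ≤ s59b_v hp hA b₄) (h6 : 0 ≤ s59b_v hp hA b₆)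
    (he : 4 * e ^ 3 + b₂ * e ^ 2 + 2 * b₄ * e + b₆ = 0) : 0 ≤ s59b_v hp hA e := by
  set v := s59b_v hp hA with hv
  by_contra hneg
  rw [not_le] at hneg
  have he0 : e ≠ 0 := by
    rintro rfl
    rw [AddValuation.map_zero] at hneg
    exact absurd hneg (not_lt.mpr le_top)
  obtain ⟨r, hr⟩ := fuc_exists_ex v he0
  rw [hr] at hneg
  have hr0 : r < 0 := by exact_mod_cast hneg
  have hv2 : v (2 : Kb) = ((0 : ℚ) : WithTop ℚ) := by rw [hv, s59b_v_two hp hA hp2]; rfl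
  have hv4 : v (4 : Kb) = ((0 : ℚ) : WithTop ℚ) := by
    have : (4 : Kb) = 2 * 2 := by norm_num
    rw [this, fuc_ex_mul v hv2 hv2]; congr 1; ring
  have he3 : v (e ^ 3) = ((3 * r : ℚ) : WithTop ℚ) := by
    have : e ^ 3 = e ^ 2 * e := by ring
    rw [this, fuc_ex_mul v (fuc_ex_sq v hr) hr]; congr 1; ring
  have hlhs : v (4 * e ^ 3) = ((3 * r : ℚ) : WithTop ℚ) := by
    rw [fuc_ex_mul v hv4 he3]; congr 1; ring
  have h2' : ((0 : ℚ) : WithTop ℚ) ≤ v b₂ := h2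
  have h4' : ((0 : ℚ) : WithTop ℚ) ≤ v b₄ := h4
  have h6' : ((0 : ℚ) : WithTop ℚ) ≤ v b₆ := h6
  have hrhs : ((2 * r : ℚ) : WithTop ℚ) ≤ v (b₂ * e ^ 2 + 2 * b₄ * e + b₆) := by
    refine fuc_lb_add v (s := 2 * r) (t := 0) (fuc_lb_add v (s := 2 * r) (t := r) ?_ ?_ le_rfl
      (by linarith)) h6' le_rfl (by linarith)
    · exact fuc_lb_mono v (fuc_lb_mul v h2' (fuc_ex_sq v hr).ge) (by linarith)
    · exact fuc_lb_mono v (fuc_lb_mul v (fuc_lb_mul v hv2.ge h4') hr.ge) (by linarith)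
  have hkey : 4 * e ^ 3 = -(b₂ * e ^ 2 + 2 * b₄ * e + b₆) := by linear_combination he
  rw [hkey, AddValuation.map_neg] at hlhs
  rw [hlhs] at hrhs
  have : 2 * r ≤ 3 * r := by exact_mod_cast hrhs
  linarith

/-! ### the model -/

/-- **the Legendre-type model at a multiplicative prime** (data). -/
structure s59b_Model (W : WeierstrassCurve ℤ) (A : ValuationSubring Kb) {p : ℕ} (hp : p.Prime)
    (hA : A.LiesOverPrime p) where
  /-- the root put at the origin -/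
  e₁ : Kb
  /-- `e₂ - e₁` -/
  δ : A
  /-- `e₃ - e₁` -/
  ε : A
  /-- the value of `δ` -/
  m : ℚ
  leg : s59b_Leg A (s59b_v hp hA) δ ε m
  he₁ : 0 ≤ s59b_v hp hA e₁
  hC : s59b_C (s59b_EQb W) e₁ • s59b_EQb W = fl_curve (δ : Kb) (ε : Kb)
  hD : ∀ σ : Gal, σ ∈ A.decompositionSubgroup ℚ → (m : WithTop ℚ) ≤ s59b_v hp hA (σ e₁ - e₁)

/-- the `2`-division cubic has rational coefficients: a Galois conjugate of a root is a root. -/
theorem s59b_root_conj (W : WeierstrassCurve ℤ) {e₁ e₂ e₃ : Kb}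
    (h : s59b_Roots (s59b_EQb W) e₁ e₂ e₃) (σ : Gal) {e : Kb}
    (he : (e - e₁) * (e - e₂) * (e - e₃) = 0) :
    (σ e - e₁) * (σ e - e₂) * (σ e - e₃) = 0 := by
  have h4 : (4 : Kb) ≠ 0 := by norm_num
  have h1 := h.eval e
  rw [he, mul_zero] at h1
  have h2 := congrArg σ h1
  simp only [map_add, map_mul, map_pow, map_ofNat, map_zero, s59b_EQb_b₂, s59b_EQb_b₄,
    s59b_EQb_b₆, map_intCast] at h2
  have h3 := h.eval (σ e)
  simp only [s59b_EQb_b₂, s59b_EQb_b₄, s59b_EQb_b₆] at h3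
  rw [h2] at h3
  exact (mul_eq_zero.mp h3.symm).resolve_left h4

/-- **existence of the model.** -/
theorem s59b_exists_model (W : WeierstrassCurve ℤ) (hp2 : p ≠ 2) (hΔ : W.Δ ≠ 0)
    (hbad : (p : ℤ) ∣ W.Δ) (hc4 : ¬ (p : ℤ) ∣ W.c₄) : Nonempty (s59b_Model W A hp hA) := by
  set v := s59b_v hp hA with hv
  have h2 : (2 : Kb) ≠ 0 := by norm_num
  have h4 : (4 : Kb) ≠ 0 := by norm_num
  have hv2 : v (2 : Kb) = 0 := s59b_v_two hp hA hp2
  have hv2' : v (2 : Kb) = ((0 : ℚ) : WithTop ℚ) := by rw [hv2]; rfl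
  have hv16 : v (16 : Kb) = ((0 : ℚ) : WithTop ℚ) := by
    have e : (16 : Kb) = 2 * 2 * (2 * 2) := by norm_num
    rw [e, fuc_ex_mul v (fuc_ex_mul v hv2' hv2') (fuc_ex_mul v hv2' hv2')]; congr 1; ring
  obtain ⟨x, y, z, hxyz⟩ := s59b_exists_roots (s59b_EQb W) h4
  -- integrality of the roots
  have hint : ∀ {e₁ e₂ e₃ : Kb}, s59b_Roots (s59b_EQb W) e₁ e₂ e₃ → 0 ≤ v e₁ := by
    intro e₁ e₂ e₃ h
    refine s59b_root_integral hp hA hp2 (b₂ := (s59b_EQb W).b₂) (b₄ := (s59b_EQb W).b₄)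
      (b₆ := (s59b_EQb W).b₆) ?_ ?_ ?_ ?_
    · rw [s59b_EQb_b₂]; exact s59b_v_int hp hA _
    · rw [s59b_EQb_b₄]; exact s59b_v_int hp hA _
    · rw [s59b_EQb_b₆]; exact s59b_v_int hp hA _
    · rw [h.eval e₁, sub_self, zero_mul, zero_mul, mul_zero]
  -- the main construction, for a labelling with `0 < v (e₂ - e₁)`
  have main : ∀ {e₁ e₂ e₃ : Kb}, s59b_Roots (s59b_EQb W) e₁ e₂ e₃ → 0 < v (e₂ - e₁) →
      Nonempty (s59b_Model W A hp hA) := by
    intro e₁ e₂ e₃ h hpos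
    have hi₁ : 0 ≤ v e₁ := hint h
    have hi₂ : 0 ≤ v e₂ := hint h.perm₁₂
    have hi₃ : 0 ≤ v e₃ := hint h.perm₂₃.perm₁₂
    have hΔr := s59b_Δ_roots h2 h
    have hc₄r := s59b_c₄_roots h2 h
    have hΔ0 : (s59b_EQb W).Δ ≠ 0 := by
      rw [s59b_EQb_Δ]; exact_mod_cast hΔ
    have hδ0 : e₂ - e₁ ≠ 0 := by
      intro h0
      apply hΔ0
      rw [hΔr, h0]; ring
    obtain ⟨m, hm⟩ := fuc_exists_ex v hδ0
    have hm0 : 0 < m := by
      rw [hm] at hpos
      exact_mod_cast hpos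
    have hδA : e₂ - e₁ ∈ A := (ford_vQ_nonneg_iff hp hA _).mp hpos.le
    have hεi : 0 ≤ v (e₃ - e₁) := AddValuation.map_le_sub v hi₃ hi₁
    have hεA : e₃ - e₁ ∈ A := (ford_vQ_nonneg_iff hp hA _).mp hεi
    -- `v ε = 0` from `c₄`
    have hc₄v : v (s59b_EQb W).c₄ = 0 := by
      rw [s59b_EQb_c₄]; exact s59b_v_int_zero hp hA hc4
    have hε0 : v (e₃ - e₁) = 0 := by
      by_contra hne
      have hεpos : 0 < v (e₃ - e₁) := lt_of_le_of_ne hεi (Ne.symm hne)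
      have h1 : 0 < v ((e₂ - e₁) ^ 2 - (e₂ - e₁) * (e₃ - e₁) + (e₃ - e₁) ^ 2) := by
        have ha : 0 < v ((e₂ - e₁) ^ 2) := by
          rw [pow_two, AddValuation.map_mul]; exact add_pos_of_pos_of_nonneg hpos hpos.le
        have hb : 0 < v ((e₂ - e₁) * (e₃ - e₁)) := by
          rw [AddValuation.map_mul]; exact add_pos_of_pos_of_nonneg hpos hεpos.le
        have hc : 0 < v ((e₃ - e₁) ^ 2) := by
          rw [pow_two, AddValuation.map_mul]; exact add_pos_of_pos_of_nonneg hεpos hεpos.le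
        exact lt_of_lt_of_le (lt_min (lt_of_lt_of_le (lt_min ha hb) (AddValuation.map_sub v _ _)) hc)
          (AddValuation.map_add v _ _)
      rw [hc₄r, AddValuation.map_mul, hv16] at hc₄v
      have : (0 : WithTop ℚ) < ((0 : ℚ) : WithTop ℚ) +
          v ((e₂ - e₁) ^ 2 - (e₂ - e₁) * (e₃ - e₁) + (e₃ - e₁) ^ 2) := by
        rw [WithTop.coe_zero, zero_add]; exact h1
      rw [hc₄v] at this
      exact lt_irrefl _ this
    have hleg : s59b_Leg A v ⟨e₂ - e₁, hδA⟩ ⟨e₃ - e₁, hεA⟩ m :=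
      ⟨ford_vQ_nonneg_iff hp hA, ford_vQ_pos_iff hp hA, hm0, hm, hε0, hv2⟩
    refine ⟨⟨e₁, ⟨e₂ - e₁, hδA⟩, ⟨e₃ - e₁, hεA⟩, m, hleg, hi₁, s59b_C_smul h2 h, ?_⟩⟩
    -- the decomposition group
    intro σ hσ
    have hσv : ∀ a : Kb, v (σ a) = v a := fun a => ford_vQ_decomposition hp hA σ hσ a
    have hr₁ := s59b_root_conj W h σ (e := e₁) (by rw [sub_self, zero_mul, zero_mul])
    have hr₂ := s59b_root_conj W h σ (e := e₂) (by rw [sub_self, mul_zero, zero_mul])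
    have hv23 : v (e₂ - e₃) = 0 := by
      have e : e₂ - e₃ = -((e₃ - e₁) - (e₂ - e₁)) := by ring
      rw [e, AddValuation.map_neg, AddValuation.map_sub_eq_of_lt_left, hε0]
      rw [hε0]; exact hpos
    have hσ12 : v (σ e₂ - σ e₁) = (m : WithTop ℚ) := by
      rw [← map_sub, hσv]; exact hm
    have hne0 : (m : WithTop ℚ) ≠ 0 := by
      intro h0
      have : m = 0 := by exact_mod_cast h0
      exact hm0.ne' this
    rcases mul_eq_zero.mp hr₁ with h12 | h13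
    · rcases mul_eq_zero.mp h12 with h11 | h12'
      · rw [h11, AddValuation.map_zero]; exact le_top
      · have : σ e₁ - e₁ = e₂ - e₁ := by
          rw [sub_eq_zero.mp h12']
        rw [this, hm]
    · -- `σ e₁ = e₃` is impossible
      exfalso
      have hσ1 : σ e₁ = e₃ := sub_eq_zero.mp h13
      rcases mul_eq_zero.mp hr₂ with h12 | h23
      · rcases mul_eq_zero.mp h12 with h21 | h22
        · -- `σ e₂ = e₁`
          rw [sub_eq_zero.mp h21, hσ1] at hσ12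
          have e : e₁ - e₃ = -(e₃ - e₁) := by ring
          rw [e, AddValuation.map_neg, hε0] at hσ12
          exact hne0 hσ12.symm
        · rw [sub_eq_zero.mp h22, hσ1, hv23] at hσ12
          exact hne0 hσ12.symm
      · have : σ e₂ = σ e₁ := by rw [sub_eq_zero.mp h23, hσ1]
        have h21 : e₂ = e₁ := σ.injective this
        exact hδ0 (sub_eq_zero.mpr h21)
  -- choice of the labelling
  have hi₁ : 0 ≤ v x := hint hxyz
  have hi₂ : 0 ≤ v y := hint hxyz.perm₁₂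
  have hi₃ : 0 ≤ v z := hint hxyz.perm₂₃.perm₁₂
  have hΔr := s59b_Δ_roots h2 hxyz
  have hΔv : 0 < v (s59b_EQb W).Δ := by
    rw [s59b_EQb_Δ]; exact s59b_v_int_pos hp hA hbad
  by_cases h1 : 0 < v (y - x)
  · exact main hxyz h1
  by_cases h2' : 0 < v (z - x)
  · exact main hxyz.perm₂₃ h2'
  by_cases h3 : 0 < v (y - z)
  · exact main hxyz.perm₁₂.perm₂₃.perm₁₂ h3
  exfalso
  have e1 : v (y - x) = 0 := le_antisymm (not_lt.mp h1) (AddValuation.map_le_sub v hi₂ hi₁)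
  have e2 : v (z - x) = 0 := le_antisymm (not_lt.mp h2') (AddValuation.map_le_sub v hi₃ hi₁)
  have e3 : v (y - z) = 0 := le_antisymm (not_lt.mp h3) (AddValuation.map_le_sub v hi₂ hi₃)
  rw [hΔr] at hΔv
  simp only [AddValuation.map_mul, AddValuation.map_pow, e1, e2, e3, hv16, smul_zero, add_zero,
    WithTop.coe_zero] at hΔv
  exact lt_irrefl _ hΔv

end Fermat.Agent.Lib.S59
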