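/-
S59 (E4), step 1: the SIGN lemma on the Legendre-type model `Y² = X (X − δ) (X − ε)`
(`v δ = m > 0`, `v ε = 0`, `v 2 = 0`).  Two points near the node with the same `v X = s ∈ (0, m)`
and congruent directions `Y₁ / X₁ ≡ Y₂ / X₂` (stated without division: `2 s < v (Y₁ X₂ − Y₂ X₁)`)
differ by a point of `E₀` (`v X ≤ 0`).  Pure valued-field computation:
`X₁² D² X₃ = −4 ε X₁³ X₂ + (terms of value > 4 s)`, `D = X₁ − X₂`, `X₃ = X (P₁ − P₂)`.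
-/
import Mathlib
import Fermat.Agent.Lib.Frey.ULevelGlue
import Fermat.Agent.Lib.Frey.E1TorsionT

set_option autoImplicit false

namespace Fermat.Agent.Lib.S59

open WeierstrassCurve WeierstrassCurve.Affine WeierstrassCurve.Affine.Point
open Fermat.Agent.Lib.Frey

variable {K : Type*} [Field K] (v : AddValuation K (WithTop ℚ))

/-- strict lower bound for a product. -/
theorem s59b_lt_mul {x y : K} {s t r : ℚ} (hx : (s : WithTop ℚ) < v x) (hy : (t : WithTop ℚ) ≤ v y)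
    (h : r ≤ s + t) : (r : WithTop ℚ) < v (x * y) := by
  rw [v.map_mul]
  rcases eq_or_ne (v y) ⊤ with hy' | hy'
  · rw [hy', WithTop.add_top]; exact WithTop.coe_lt_top r
  · obtain ⟨b, hb⟩ := WithTop.ne_top_iff_exists.mp hy'
    rw [← hb] at hy ⊢
    rcases eq_or_ne (v x) ⊤ with hx' | hx'
    · rw [hx', WithTop.top_add]; exact WithTop.coe_lt_top r
    · obtain ⟨a, ha⟩ := WithTop.ne_top_iff_exists.mp hx'
      rw [← ha] at hx ⊢
      have h1 : s < a := by exact_mod_cast hx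
      have h2 : t ≤ b := by exact_mod_cast hy
      have : r < a + b := by linarith
      exact_mod_cast this

/-- strict lower bound for a sum. -/
theorem s59b_lt_add {x y : K} {r : ℚ} (hx : (r : WithTop ℚ) < v x) (hy : (r : WithTop ℚ) < v y) :
    (r : WithTop ℚ) < v (x + y) :=
  lt_of_lt_of_le (lt_min hx hy) (v.map_add x y)

/-- strict lower bound for a difference. -/
theorem s59b_lt_sub {x y : K} {r : ℚ} (hx : (r : WithTop ℚ) < v x) (hy : (r : WithTop ℚ) < v y) :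
    (r : WithTop ℚ) < v (x - y) := by
  rw [sub_eq_add_neg]
  exact s59b_lt_add v hx (by rwa [v.map_neg])

/-- `≤` from `<`. -/
theorem s59b_le_of_lt' {x : K} {r : ℚ} (hx : (r : WithTop ℚ) < v x) : (r : WithTop ℚ) ≤ v x := hx.le

/-- exact value of the sum of a term of exact value `s` and a term of value `> s`. -/
theorem s59b_ex_add_lt {x y : K} {s : ℚ} (hx : v x = s) (hy : (s : WithTop ℚ) < v y) :
    v (x + y) = s := by
  rw [v.map_add_eq_of_lt_left, hx]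
  rw [hx]; exact hy

variable {δ ε : K} {m s : ℚ}

/-- the value of `Y` for a point with `v X = s ∈ (0, m)`. -/
theorem s59b_val_Y (hδ : v δ = (m : ℚ)) (hε : v ε = 0) (hs0 : 0 < s) (hsm : s < m) {X Y : K}
    (heq : Y ^ 2 = X * (X - δ) * (X - ε)) (hX : v X = (s : ℚ)) :
    v Y = (s : ℚ) ∧ ((2 * s : ℚ) : WithTop ℚ) < v (Y ^ 2 + ε * X ^ 2) := by
  have hε' : v ε = ((0 : ℚ) : WithTop ℚ) := by rw [hε]; rfl
  have h1 : v (X - δ) = (s : ℚ) := fuc_ex_sub v hX hδ.ge hsm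
  have h2 : v (X - ε) = ((0 : ℚ) : WithTop ℚ) := fuc_ex_sub' v hε' hX.ge hs0
  have h3 : v (Y ^ 2) = ((2 * s : ℚ) : WithTop ℚ) := by
    rw [heq]
    have := fuc_ex_mul v (fuc_ex_mul v hX h1) h2
    rw [this]; congr 1; ring
  have hY0 : Y ≠ 0 := by
    rintro rfl
    rw [zero_pow two_ne_zero, v.map_zero] at h3
    exact WithTop.top_ne_coe h3
  obtain ⟨r, hr⟩ := fuc_exists_ex v hY0
  have h4 := fuc_ex_sq v hr
  rw [h3] at h4
  have h5 : 2 * s = 2 * r := by exact_mod_cast h4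
  have hrs : r = s := by linarith
  subst hrs
  refine ⟨hr, ?_⟩
  have e : Y ^ 2 + ε * X ^ 2 = X ^ 2 * X - δ * X ^ 2 + δ * ε * X := by
    rw [heq]; ring
  rw [e]
  have hX2 : v (X ^ 2) = ((2 * r : ℚ) : WithTop ℚ) := fuc_ex_sq v hX
  refine s59b_lt_add v (s59b_lt_sub v ?_ ?_) ?_
  · rw [fuc_ex_mul v hX2 hX]; exact_mod_cast (by linarith : 2 * r < 2 * r + r)
  · rw [fuc_ex_mul v hδ hX2]; exact_mod_cast (by linarith : 2 * r < m + 2 * r)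
  · rw [fuc_ex_mul v (fuc_ex_mul v hδ hε') hX]; exact_mod_cast (by linarith : 2 * r < m + 0 + r)

/-- **the sign lemma**, valuation form: `v X₃ ≤ 0` for `X₃ D² = N² + (δ + ε − X₁ − X₂) D²`. -/
theorem s59b_sign_val (hδ : v δ = (m : ℚ)) (hε : v ε = 0) (h2 : v 2 = 0) (hs0 : 0 < s)
    (hsm : s < m) {X₁ Y₁ X₂ Y₂ X₃ : K} (heq₁ : Y₁ ^ 2 = X₁ * (X₁ - δ) * (X₁ - ε))
    (hX₁ : v X₁ = (s : ℚ)) (hX₂ : v X₂ = (s : ℚ))
    (hne : X₁ ≠ X₂) (hsign : ((2 * s : ℚ) : WithTop ℚ) < v (Y₁ * X₂ - Y₂ * X₁))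
    (hX₃ : X₃ * (X₁ - X₂) ^ 2 = (Y₁ + Y₂) ^ 2 + (δ + ε - X₁ - X₂) * (X₁ - X₂) ^ 2) :
    v X₃ ≤ 0 := by
  have hε' : v ε = ((0 : ℚ) : WithTop ℚ) := by rw [hε]; rfl
  have h2' : v (2 : K) = ((0 : ℚ) : WithTop ℚ) := by rw [h2]; rfl
  obtain ⟨hY₁, hR₁⟩ := s59b_val_Y v hδ hε hs0 hsm heq₁ hX₁
  set D := X₁ - X₂ with hD
  set J := Y₁ * X₂ - Y₂ * X₁ with hJ
  have hD0 : D ≠ 0 := sub_ne_zero.mpr hne
  obtain ⟨d, hd⟩ := fuc_exists_ex v hD0
  have hsd : s ≤ d := fuc_le_of_ex_lb v hd (fuc_lb_sub v hX₁.ge hX₂.ge le_rfl le_rfl)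
  have hS : (s : WithTop ℚ) ≤ v (X₁ + X₂) := fuc_lb_add v hX₁.ge hX₂.ge le_rfl le_rfl
  -- the identity
  have key : X₁ ^ 2 * D ^ 2 * X₃ = -(4 * ε * X₁ ^ 3 * X₂) +
      ((Y₁ ^ 2 + ε * X₁ ^ 2) * (X₁ + X₂) ^ 2 - 2 * J * Y₁ * (X₁ + X₂) + J ^ 2 +
        (δ - X₁ - X₂) * D ^ 2 * X₁ ^ 2) := by
    rw [hJ, hD]
    linear_combination (X₁ ^ 2) * hX₃
  -- the main term
  have h4 : v (4 : K) = ((0 : ℚ) : WithTop ℚ) := by
    have : (4 : K) = 2 * 2 := by norm_num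
    rw [this, fuc_ex_mul v h2' h2']; congr 1; ring
  have hX13 : v (X₁ ^ 3) = ((3 * s : ℚ) : WithTop ℚ) := by
    have : X₁ ^ 3 = X₁ ^ 2 * X₁ := by ring
    rw [this, fuc_ex_mul v (fuc_ex_sq v hX₁) hX₁]; congr 1; ring
  have hmain : v (-(4 * ε * X₁ ^ 3 * X₂)) = ((4 * s : ℚ) : WithTop ℚ) := by
    rw [v.map_neg, fuc_ex_mul v (fuc_ex_mul v (fuc_ex_mul v h4 hε') hX13) hX₂]; congr 1; ring
  -- the rest
  have hS2 : ((2 * s : ℚ) : WithTop ℚ) ≤ v ((X₁ + X₂) ^ 2) := fuc_lb_sq v hS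
  have hrest : ((4 * s : ℚ) : WithTop ℚ) < v ((Y₁ ^ 2 + ε * X₁ ^ 2) * (X₁ + X₂) ^ 2 -
      2 * J * Y₁ * (X₁ + X₂) + J ^ 2 + (δ - X₁ - X₂) * D ^ 2 * X₁ ^ 2) := by
    refine s59b_lt_add v (s59b_lt_add v (s59b_lt_sub v ?_ ?_) ?_) ?_
    · exact s59b_lt_mul v hR₁ hS2 (by linarith)
    · have e : 2 * J * Y₁ * (X₁ + X₂) = J * (2 * Y₁ * (X₁ + X₂)) := by ring
      rw [e]
      refine s59b_lt_mul v hsign (fuc_lb_mul v (fuc_ex_mul v h2' hY₁).ge hS) (by linarith)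
    · rw [pow_two]
      exact s59b_lt_mul v hsign hsign.le (by linarith)
    · have hb : (s : WithTop ℚ) ≤ v (δ - X₁ - X₂) :=
        fuc_lb_sub v (fuc_lb_sub v hδ.ge hX₁.ge hsm.le le_rfl) hX₂.ge le_rfl le_rfl
      have hD2 : v (D ^ 2) = ((2 * d : ℚ) : WithTop ℚ) := fuc_ex_sq v hd
      have hX12 : v (X₁ ^ 2) = ((2 * s : ℚ) : WithTop ℚ) := fuc_ex_sq v hX₁
      have := fuc_lb_mul v (fuc_lb_mul v hb hD2.ge) hX12.ge
      refine lt_of_lt_of_le ?_ this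
      exact_mod_cast (by linarith : 4 * s < s + 2 * d + 2 * s)
  have htot : v (X₁ ^ 2 * D ^ 2 * X₃) = ((4 * s : ℚ) : WithTop ℚ) := by
    rw [key]
    exact s59b_ex_add_lt v hmain hrest
  have hXD : v (X₁ ^ 2 * D ^ 2) = ((2 * s + 2 * d : ℚ) : WithTop ℚ) :=
    fuc_ex_mul v (fuc_ex_sq v hX₁) (fuc_ex_sq v hd)
  have hX₃v : v X₃ = ((4 * s - (2 * s + 2 * d) : ℚ) : WithTop ℚ) := by
    rw [mul_comm] at htot
    exact fuc_ex_of_mul v htot hXD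
  rw [hX₃v]
  exact_mod_cast (by linarith : 4 * s - (2 * s + 2 * d) ≤ 0)

variable [DecidableEq K]

/-- **the sign lemma**: two points of `Y² = X (X − δ) (X − ε)` with `v X₁ = v X₂ = s ∈ (0, m)` and
congruent directions at the node differ by a point of `E₀`. -/
theorem s59b_sign_sub_inE0 (hδ : v δ = (m : ℚ)) (hε : v ε = 0) (h2 : v 2 = 0) (hs0 : 0 < s)
    (hsm : s < m) {X₁ Y₁ X₂ Y₂ : K} (h₁ : (fl_curve δ ε).toAffine.Nonsingular X₁ Y₁)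
    (h₂ : (fl_curve δ ε).toAffine.Nonsingular X₂ Y₂) (hX₁ : v X₁ = (s : ℚ)) (hX₂ : v X₂ = (s : ℚ))
    (hsign : ((2 * s : ℚ) : WithTop ℚ) < v (Y₁ * X₂ - Y₂ * X₁)) :
    fl_InE0 v (Point.some X₁ Y₁ h₁ - Point.some X₂ Y₂ h₂) := by
  have heq₁ := fuc_leg_eqn h₁
  by_cases hx : X₁ = X₂
  · subst hx
    obtain ⟨hY₁, -⟩ := s59b_val_Y v hδ hε hs0 hsm heq₁ hX₁
    rcases Y_eq_of_X_eq h₁.1 h₂.1 rfl with hy | hy
    · subst hy
      left
      exact sub_self _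
    · exfalso
      rw [negY] at hy
      simp only [fl_curve_a₁, fl_curve_a₃, zero_mul, sub_zero] at hy
      have e : Y₁ * X₁ - Y₂ * X₁ = 2 * (Y₁ * X₁) := by rw [hy]; ring
      rw [e] at hsign
      have h2' : v (2 : K) = ((0 : ℚ) : WithTop ℚ) := by rw [h2]; rfl
      rw [fuc_ex_mul v h2' (fuc_ex_mul v hY₁ hX₁)] at hsign
      have : 2 * s < 0 + (s + s) := by exact_mod_cast hsign
      linarith
  · obtain ⟨-, n2, -, e2⟩ := fe1_X_add_sub (W := (fl_curve δ ε).toAffine) rfl rfl h₁ h₂ hx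
    simp only [fl_curve_a₂] at e2
    have hd : X₁ - X₂ ≠ 0 := sub_ne_zero.mpr hx
    have hval : v (fe1_X (Point.some X₁ Y₁ h₁ - Point.some X₂ Y₂ h₂)) ≤ 0 := by
      refine s59b_sign_val v hδ hε h2 hs0 hsm heq₁ hX₁ hX₂ hx hsign ?_
      rw [e2]
      field_simp
      ring
    rcases hP : Point.some X₁ Y₁ h₁ - Point.some X₂ Y₂ h₂ with _ | ⟨x, y, h⟩
    · exact absurd hP n2
    · rw [hP] at hval
      exact Or.inr ⟨x, y, h, rfl, hval⟩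

end Fermat.Agent.Lib.S59
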