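/-
S59 (E4), step 5: the transported Galois action on the Legendre-type model.  The translation to
the Legendre model is not Galois-equivariant; an element `σ` of the decomposition group acts on the
Legendre coordinates by `(x, y) ↦ (σ x + η, σ y)` with `v η ≥ m`.  For torsion points of
`p`-power order:
* `s59b_twist_pm`: `σ P − P ∈ E₁` or `σ P + P ∈ E₁` (`σ` preserves `v`);
* `s59b_twist_plus`: `σ P − P ∈ E₁` if moreover `σ` is trivial on residues (`p` odd).
-/
import Mathlib
import Fermat.Agent.Lib.S59.BOrdLvl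
import Fermat.Agent.Lib.S59.BOrdSign

set_option autoImplicit false
set_option linter.unusedSectionVars false

namespace Fermat.Agent.Lib.S59

open WeierstrassCurve WeierstrassCurve.Affine WeierstrassCurve.Affine.Point IsLocalRing
open Fermat.Agent.Lib.Frey Fermat.Agent.Lib.S41 Fermat.Agent.Lib.S58

variable {K : Type*} [Field K] [DecidableEq K] {A : ValuationSubring K}
  [DecidableEq (ResidueField A)] {v : AddValuation K (WithTop ℚ)} {δ ε : A} {m : ℚ}

/-- the level is invariant under the twisted action. -/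
theorem s59b_twist_isLvl (H : s59b_Leg A v δ ε m) {σ : K →+* K} (hσv : ∀ a, v (σ a) = v a) {η : K}
    (hη : (m : WithTop ℚ) ≤ v η) {x : K} {t : ℚ} (ht : fuc_IsLvl v m x t) :
    fuc_IsLvl v m (σ x + η) t := by
  have hm0 : (0 : WithTop ℚ) < (m : WithTop ℚ) := by exact_mod_cast H.hm
  rcases ht with ⟨hx, ht'⟩ | ⟨s, hx, hs0, hsm, ht'⟩ | ⟨hx, ht'⟩
  · left
    refine ⟨?_, ht'⟩
    have hlt : v (σ x) < v η := by
      rw [hσv]; exact lt_of_le_of_lt hx (lt_of_lt_of_le hm0 hη)
    rw [v.map_add_eq_of_lt_left hlt, hσv]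
    exact hx
  · right; left
    refine ⟨s, ?_, hs0, hsm, ht'⟩
    have hlt : v (σ x) < v η := by
      rw [hσv, hx]; exact lt_of_lt_of_le (by exact_mod_cast hsm) hη
    rw [v.map_add_eq_of_lt_left hlt, hσv]
    exact hx
  · right; right
    refine ⟨?_, ht'⟩
    exact v.map_le_add (by rw [hσv]; exact hx) hη

theorem s59b_twist_lvl (H : s59b_Leg A v δ ε m) {σ : K →+* K} (hσv : ∀ a, v (σ a) = v a) {η : K}
    (hη : (m : WithTop ℚ) ≤ v η) {x y : K}
    (h : (s41a_WK A (s59b_WL A δ ε)).toAffine.Nonsingular x y)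
    (h' : (s41a_WK A (s59b_WL A δ ε)).toAffine.Nonsingular (σ x + η) (σ y)) :
    fuc_lvl v m (Point.some (σ x + η) (σ y) h') = fuc_lvl v m (Point.some x y h) :=
  fuc_lvl_eq_of_isLvl v H.hm h' (s59b_twist_isLvl H hσv hη (fuc_lvl_some_spec v m h))

variable [IsAlgClosed (ResidueField A)]

/-- **the twisted action is `± 1` modulo `E₁` on `p`-power torsion.** -/
theorem s59b_twist_pm (H : s59b_Leg A v δ ε m) {p : ℕ} (hp : p.Prime) [CharP (ResidueField A) p]
    {σ : K →+* K} (hσv : ∀ a, v (σ a) = v a) {η : K} (hη : (m : WithTop ℚ) ≤ v η) {x y : K}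
    (h : (s41a_WK A (s59b_WL A δ ε)).toAffine.Nonsingular x y)
    (h' : (s41a_WK A (s59b_WL A δ ε)).toAffine.Nonsingular (σ x + η) (σ y)) (n : ℕ)
    (hP : p ^ n • (Point.some x y h : s59b_PtK A δ ε) = 0)
    (hP' : p ^ n • (Point.some (σ x + η) (σ y) h' : s59b_PtK A δ ε) = 0) :
    fl_InE1 v ((Point.some (σ x + η) (σ y) h' : s59b_PtK A δ ε) - Point.some x y h) ∨
      fl_InE1 v ((Point.some (σ x + η) (σ y) h' : s59b_PtK A δ ε) + Point.some x y h) := by
  have hl := s59b_twist_lvl H hσv hη h h'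
  have hsub : p ^ n • ((Point.some (σ x + η) (σ y) h' : s59b_PtK A δ ε) - Point.some x y h) = 0 := by
    rw [smul_sub, hP, hP', sub_zero]
  have hadd : p ^ n • ((Point.some (σ x + η) (σ y) h' : s59b_PtK A δ ε) + Point.some x y h) = 0 := by
    rw [smul_add, hP, hP', add_zero]
  rcases s59b_law H (Point.some (σ x + η) (σ y) h') (Point.some x y h) with ⟨-, h2⟩ | ⟨h1, -⟩
  · left
    rw [hl, sub_self, abs_zero] at h2
    exact s59b_E0_torsion H hp ((s59b_lvl_zero_iff H _).mp h2) n hsub
  · right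
    rw [hl, sub_self, abs_zero] at h1
    exact s59b_E0_torsion H hp ((s59b_lvl_zero_iff H _).mp h1) n hadd

/-- **the twisted action of an inertia-like `σ` is trivial modulo `E₁` on `p`-power torsion.** -/
theorem s59b_twist_plus (H : s59b_Leg A v δ ε m) {p : ℕ} (hp : p.Prime) (hp2 : p ≠ 2)
    [CharP (ResidueField A) p] {σ : K →+* K} (hσv : ∀ a, v (σ a) = v a)
    (hσI : ∀ a, 0 ≤ v a → 0 < v (σ a - a)) {η : K} (hη : (m : WithTop ℚ) ≤ v η) {x y : K}
    (h : (s41a_WK A (s59b_WL A δ ε)).toAffine.Nonsingular x y)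
    (h' : (s41a_WK A (s59b_WL A δ ε)).toAffine.Nonsingular (σ x + η) (σ y)) (n : ℕ)
    (hP : p ^ n • (Point.some x y h : s59b_PtK A δ ε) = 0)
    (hP' : p ^ n • (Point.some (σ x + η) (σ y) h' : s59b_PtK A δ ε) = 0) :
    fl_InE1 v ((Point.some (σ x + η) (σ y) h' : s59b_PtK A δ ε) - Point.some x y h) := by
  have hsub : p ^ n • ((Point.some (σ x + η) (σ y) h' : s59b_PtK A δ ε) - Point.some x y h) = 0 := by
    rw [smul_sub, hP, hP', sub_zero]
  have hspec := fuc_lvl_some_spec v m h
  rcases hspec with ⟨hx, ht⟩ | ⟨s, hx, hs0, hsm, ht⟩ | ⟨hx, ht⟩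
  · -- level `0`: both points lie in `E₀`, hence in `E₁`
    have h1 : fl_InE1 v (Point.some x y h : s59b_PtK A δ ε) :=
      s59b_E0_torsion H hp (Or.inr ⟨x, y, h, rfl, hx⟩) n hP
    have hl := s59b_twist_lvl H hσv hη h h'
    rw [ht] at hl
    have h2 : fl_InE1 v (Point.some (σ x + η) (σ y) h' : s59b_PtK A δ ε) :=
      s59b_E0_torsion H hp ((s59b_lvl_zero_iff H _).mp hl) n hP'
    exact s59b_E1_sub H h2 h1
  · -- level `s ∈ (0, m)`: the sign lemma
    have heq : y ^ 2 = x * (x - (δ : K)) * (x - (ε : K)) :=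
      fuc_leg_eqn (δ := (δ : K)) (ε := (ε : K)) h
    obtain ⟨hY, -⟩ := s59b_val_Y v H.hδ H.hε hs0 hsm heq hx
    have hx0 : x ≠ 0 := fuc_ne_zero_of_ex v hx
    have hx' : v (σ x + η) = (s : ℚ) := by
      have hlt : v (σ x) < v η := by
        rw [hσv, hx]; exact lt_of_lt_of_le (by exact_mod_cast hsm) hη
      rw [v.map_add_eq_of_lt_left hlt, hσv]
      exact hx
    have hu : v (y / x) = 0 := by
      rw [div_eq_mul_inv, v.map_mul, v.map_inv, hY, hx]
      have : ((s : ℚ) : WithTop ℚ) + -((s : ℚ) : WithTop ℚ) = ((s + -s : ℚ) : WithTop ℚ) := by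
        push_cast; rfl
      rw [this, add_neg_cancel]; rfl
    have hσu := hσI (y / x) hu.ge
    have hsign : ((2 * s : ℚ) : WithTop ℚ) < v (σ y * x - y * (σ x + η)) := by
      have e : σ y * x - y * (σ x + η) = (σ (y / x) - y / x) * (x * σ x) - y * η := by
        rw [map_div₀]
        have hσx0 : σ x ≠ 0 := by
          intro h0
          apply hx0
          exact (map_eq_zero σ).mp h0
        field_simp
        ring
      rw [e]
      refine s59b_lt_sub v ?_ ?_
      · have h1 : v (x * σ x) = ((s + s : ℚ) : WithTop ℚ) :=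
          fuc_ex_mul v hx (by rw [hσv]; exact hx)
        have h0 : ((0 : ℚ) : WithTop ℚ) < v (σ (y / x) - y / x) := hσu
        exact s59b_lt_mul v h0 h1.ge (by linarith)
      · have h1 := fuc_lb_mul v hY.ge hη
        exact lt_of_lt_of_le (by exact_mod_cast (by linarith : 2 * s < s + m)) h1
    have h0 := s59b_sign_sub_inE0 (δ := (δ : K)) (ε := (ε : K)) v H.hδ H.hε H.h2 hs0 hsm h' h
      hx' hx hsign
    exact s59b_E0_torsion H hp h0 n hsub
  · -- level `m`: impossible for a torsion point of odd order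
    exfalso
    have hlm : fuc_lvl v m (Point.some x y h) = m := ht
    have h2P : fuc_lvl v m ((Point.some x y h : s59b_PtK A δ ε) + Point.some x y h) = 0 := by
      rcases s59b_law H (Point.some x y h) (Point.some x y h) with ⟨h1, -⟩ | ⟨h1, -⟩
      · rw [h1, hlm]
        have : 2 * m - m - m = 0 := by ring
        rw [this]
        exact min_eq_right (by linarith [H.hm])
      · rw [h1, sub_self, abs_zero]
    have h2tors : p ^ n • ((Point.some x y h : s59b_PtK A δ ε) + Point.some x y h) = 0 := by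
      rw [smul_add, hP, add_zero]
    have h2E1 := s59b_E0_torsion H hp ((s59b_lvl_zero_iff H _).mp h2P) n h2tors
    have hodd : Odd (p ^ n) := (hp.odd_of_ne_two hp2).pow
    obtain ⟨k, hk⟩ := hodd
    have hPk : (Point.some x y h : s59b_PtK A δ ε) =
        (k + 1) • ((Point.some x y h : s59b_PtK A δ ε) + Point.some x y h) := by
      rw [← two_nsmul, ← mul_nsmul, show 2 * (k + 1) = p ^ n + 1 by omega, add_nsmul, hP, zero_add,
        one_nsmul]
    have hE1 : fl_InE1 v (Point.some x y h : s59b_PtK A δ ε) := by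
      rw [hPk]; exact s59b_E1_nsmul H h2E1 (k + 1)
    rcases hE1 with h0 | ⟨x', y', h'', he, hx''⟩
    · exact Point.some_ne_zero _ h0
    · rw [Point.some.injEq] at he
      rw [← he.1] at hx''
      have : (m : WithTop ℚ) < 0 := lt_of_le_of_lt hx hx''
      have : m < 0 := by exact_mod_cast this
      linarith [H.hm]

/-- the twisted action preserves `E₁`. -/
theorem s59b_twist_E1 (H : s59b_Leg A v δ ε m) {σ : K →+* K} (hσv : ∀ a, v (σ a) = v a) {η : K}
    (hη : (m : WithTop ℚ) ≤ v η) {x : K} (hx : v x < 0) : v (σ x + η) < 0 := by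
  have hm0 : (0 : WithTop ℚ) < (m : WithTop ℚ) := by exact_mod_cast H.hm
  have hlt : v (σ x) < v η := by
    rw [hσv]; exact lt_trans hx (lt_of_lt_of_le hm0 hη)
  rw [v.map_add_eq_of_lt_left hlt, hσv]
  exact hx

end Fermat.Agent.Lib.S59
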