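/-
S59 (E4), step 8: transfer of the local analysis on the Legendre-type model to the points
`s58_Pt W = W(ℚ̄)` of the curve `W / ℤ` itself, along the change of variables of `s59b_Model`:
for a valuation subring `A` of `ℚ̄` over a multiplicative odd prime `p`, the formal group
`E₁ ⊂ W(ℚ̄)` is a `p`-divisible subgroup stable under the decomposition group, `W[p] ⊄ E₁`,
`E₁[p] ≠ 0`, an element `σ` of the decomposition group acts on `W[p^∞] / E₁[p^∞]` by `± 1`, and
an element of the inertia group acts trivially on it (`s59b_OrdData`, `s59b_exists_ordData`).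
-/
import Mathlib
import Fermat.Agent.Lib.S59.BOrdModel
import Fermat.Agent.Lib.S59.BOrdTwist
import Fermat.Agent.Lib.S13.LocB
import Fermat.Agent.Lib.S58.Iface

set_option autoImplicit false
set_option linter.unusedSectionVars false

namespace Fermat.Agent.Lib.S59

open WeierstrassCurve WeierstrassCurve.Affine IsLocalRing
open Fermat.Agent.Lib.Frey Fermat.Agent.Lib.S41 Fermat.Agent.Lib.S58 Fermat.Agent.Lib.S13

local notation "Kb" => AlgebraicClosure ℚ
local notation "Gal" => (AlgebraicClosure ℚ ≃ₐ[ℚ] AlgebraicClosure ℚ)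

variable {W : WeierstrassCurve ℤ} {A : ValuationSubring Kb} {p : ℕ} {hp : p.Prime}
  {hA : A.LiesOverPrime p}

/-- the equation of the model, with the curve written as the generic fibre of `s59b_WL`. -/
theorem s59b_Model.hC' (M : s59b_Model W A hp hA) :
    s59b_C (s59b_EQb W) M.e₁ • s59b_EQb W = s41a_WK A (s59b_WL A M.δ M.ε) := M.hC

/-- the transfer isomorphism from the Legendre-type model. -/
noncomputable def s59b_phi (M : s59b_Model W A hp hA) : s59b_PtK A M.δ M.ε ≃+ s58_Pt W :=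
  fvc_pointEquivOfEq (s59b_EQb W) (s41a_WK A (s59b_WL A M.δ M.ε)) (s59b_C (s59b_EQb W) M.e₁) M.hC'

theorem s59b_phi_some (M : s59b_Model W A hp hA) {x y : Kb}
    (h : (s41a_WK A (s59b_WL A M.δ M.ε)).toAffine.Nonsingular x y) :
    s59b_phi M (Point.some x y h) =
      Point.some (fvc_X (s59b_C (s59b_EQb W) M.e₁) x) (fvc_Y (s59b_C (s59b_EQb W) M.e₁) x y)
        ((fvc_nonsingular_ofEq (s59b_EQb W) (s41a_WK A (s59b_WL A M.δ M.ε))
          (s59b_C (s59b_EQb W) M.e₁) M.hC' x y).mp h) :=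
  fvc_pointEquivOfEq_some _ _ _ _ h

/-- `E₁` corresponds to `E₁`. -/
theorem s59b_phi_E1 (M : s59b_Model W A hp hA) (Q : s59b_PtK A M.δ M.ε) :
    fl_InE1 (s59b_v hp hA) (s59b_phi M Q) ↔ fl_InE1 (s59b_v hp hA) Q := by
  refine cfh_equiv_inE1 (s59b_v hp hA) (s59b_EQb W) (s41a_WK A (s59b_WL A M.δ M.ε))
    (s59b_C (s59b_EQb W) M.e₁) M.hC' ?_ ?_ Q
  · rw [s59b_C_u, Units.val_one, AddValuation.map_one]
  · rw [s59b_C_r]; exact M.he₁

theorem s59b_sigma_X (M : s59b_Model W A hp hA) (σ : Gal) (x : Kb) :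
    σ (fvc_X (s59b_C (s59b_EQb W) M.e₁) x) =
      fvc_X (s59b_C (s59b_EQb W) M.e₁) (σ x + (σ M.e₁ - M.e₁)) := by
  simp only [fvc_X, s59b_C_u, s59b_C_r, Units.val_one, one_pow, one_mul, map_add]
  ring

theorem s59b_sigma_Y (M : s59b_Model W A hp hA) (σ : Gal) (x y : Kb) :
    σ (fvc_Y (s59b_C (s59b_EQb W) M.e₁) x y) =
      fvc_Y (s59b_C (s59b_EQb W) M.e₁) (σ x + (σ M.e₁ - M.e₁)) (σ y) := by
  simp only [fvc_Y, s59b_C_u, s59b_C_s, s59b_C_t, Units.val_one, one_pow, one_mul, map_add,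
    map_mul, map_neg, map_div₀, map_ofNat, s59b_EQb_a₁, s59b_EQb_a₃, map_intCast]
  ring

/-- the Galois action in the Legendre coordinates is the twisted action. -/
theorem s59b_smul_phi_some (M : s59b_Model W A hp hA) (σ : Gal) {x y : Kb}
    (h : (s41a_WK A (s59b_WL A M.δ M.ε)).toAffine.Nonsingular x y) :
    ∃ h' : (s41a_WK A (s59b_WL A M.δ M.ε)).toAffine.Nonsingular
        (σ x + (σ M.e₁ - M.e₁)) (σ y),
      σ • s59b_phi M (Point.some x y h) = s59b_phi M (Point.some _ _ h') := by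
  have hns := (fvc_nonsingular_ofEq (s59b_EQb W) (s41a_WK A (s59b_WL A M.δ M.ε))
    (s59b_C (s59b_EQb W) M.e₁) M.hC' x y).mp h
  obtain ⟨hxy', he⟩ := fvc_smul_some (W.map (Int.castRingHom ℚ)) σ hns
  have h1 := hxy'
  rw [s59b_sigma_X, s59b_sigma_Y] at h1
  have h' := (fvc_nonsingular_ofEq (s59b_EQb W) (s41a_WK A (s59b_WL A M.δ M.ε))
    (s59b_C (s59b_EQb W) M.e₁) M.hC' _ _).mpr h1
  refine ⟨h', ?_⟩
  rw [s59b_phi_some, s59b_phi_some]
  exact he.trans (fvc_some_congr (s59b_sigma_X M σ x) (s59b_sigma_Y M σ x y) _ _)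

/-- **the local data at `p` needed for ordinarity**, for a subgroup `E` of `W(ℚ̄)`. -/
structure s59b_OrdData (W : WeierstrassCurve ℤ) (p : ℕ) (A : ValuationSubring Kb)
    (E : AddSubgroup (s58_Pt W)) : Prop where
  exists_notMem : ∃ P : s58_Pt W, p • P = 0 ∧ P ∉ E
  exists_mem : ∃ R : s58_Pt W, p • R = 0 ∧ R ≠ 0 ∧ R ∈ E
  divisible : ∀ Q ∈ E, ∃ S ∈ E, p • S = Q
  smul_mem : ∀ σ : Gal, σ ∈ A.decompositionSubgroup ℚ → ∀ P ∈ E, σ • P ∈ E
  pm : ∀ σ : Gal, σ ∈ A.decompositionSubgroup ℚ → ∀ (n : ℕ) (P : s58_Pt W), p ^ n • P = 0 →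
    σ • P - P ∈ E ∨ σ • P + P ∈ E
  inertia : ∀ σ : Gal, σ ∈ A.inertiaSubgroupIn ℚ → ∀ (n : ℕ) (P : s58_Pt W), p ^ n • P = 0 →
    σ • P - P ∈ E

/-- **the local data exist at a multiplicative odd prime.** -/
theorem s59b_exists_ordData (W : WeierstrassCurve ℤ) {p : ℕ} (hp : p.Prime) (hp2 : p ≠ 2)
    (hΔ : W.Δ ≠ 0) (hbad : (p : ℤ) ∣ W.Δ) (hc4 : ¬ (p : ℤ) ∣ W.c₄) (A : ValuationSubring Kb)
    (hA : A.LiesOverPrime p) : ∃ E : AddSubgroup (s58_Pt W), s59b_OrdData W p A E := by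
  classical
  obtain ⟨M⟩ := s59b_exists_model (hp := hp) (hA := hA) W hp2 hΔ hbad hc4
  have : IsAlgClosed (ResidueField A) := s41a_isAlgClosed_residueField A
  have : CharP (ResidueField A) p := s41a_charP_residueField A hp hA
  set v := s59b_v hp hA with hv
  have H := M.leg
  set φ := s59b_phi M with hφ
  have hE : ∀ Q, fl_InE1 v (φ Q) ↔ fl_InE1 v Q := s59b_phi_E1 M
  have hE' : ∀ P : s58_Pt W, fl_InE1 v P ↔ fl_InE1 v (φ.symm P) := fun P => by
    rw [← hE, φ.apply_symm_apply]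
  let E : AddSubgroup (s58_Pt W) :=
    { carrier := {P | fl_InE1 v P}
      zero_mem' := Or.inl rfl
      add_mem' := fun {P Q} hP hQ => by
        show fl_InE1 v (P + Q)
        rw [hE', map_add]
        exact s59b_E1_add H ((hE' P).mp hP) ((hE' Q).mp hQ)
      neg_mem' := fun {P} hP => fab_E1_neg v hP }
  have hmem : ∀ P : s58_Pt W, P ∈ E ↔ fl_InE1 v P := fun P => Iff.rfl
  have hs0 : ∀ σ : Gal, σ • (0 : s58_Pt W) = 0 := fun σ =>
    fvc_smul_zero' (W.map (Int.castRingHom ℚ)) σ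
  have hsn : ∀ (σ : Gal) (n : ℕ) (P : s58_Pt W), σ • (n • P) = n • (σ • P) := fun σ n P =>
    map_nsmul (DistribSMul.toAddMonoidHom (s58_Pt W) σ) n P
  -- the common part of `pm` and `inertia`
  have key : ∀ (σ : Gal) (n : ℕ) (P : s58_Pt W), p ^ n • P = 0 → P = 0 ∨
      ∃ (x y : Kb) (h : (s41a_WK A (s59b_WL A M.δ M.ε)).toAffine.Nonsingular x y)
        (h' : (s41a_WK A (s59b_WL A M.δ M.ε)).toAffine.Nonsingular
          (σ x + (σ M.e₁ - M.e₁)) (σ y)),
        P = φ (Point.some x y h) ∧ σ • P = φ (Point.some _ _ h') ∧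
        p ^ n • (Point.some x y h : s59b_PtK A M.δ M.ε) = 0 ∧
        p ^ n • (Point.some _ _ h' : s59b_PtK A M.δ M.ε) = 0 := by
    intro σ n P hP
    rcases hQ : φ.symm P with _ | ⟨x, y, h⟩
    · left
      have h0 : φ.symm P = 0 := hQ
      rw [← φ.apply_symm_apply P, h0, map_zero]
    · right
      obtain ⟨h', he⟩ := s59b_smul_phi_some M σ h
      have hP' : P = φ (Point.some x y h) := by rw [← hQ, φ.apply_symm_apply]
      have hσP : σ • P = φ (Point.some _ _ h') := by rw [← he, ← hP']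
      refine ⟨x, y, h, h', hP', hσP, ?_, ?_⟩
      · apply φ.injective
        rw [map_nsmul, ← hP', hP, map_zero]
      · apply φ.injective
        rw [map_nsmul, ← hσP, ← hsn, hP, hs0, map_zero]
  refine ⟨E, ⟨?_, ?_, ?_, ?_, ?_, ?_⟩⟩
  · -- `W[p] ⊄ E₁`
    obtain ⟨P, hP, hP1⟩ := s59b_exists_torsion_not_E1 H hp
    exact ⟨φ P, by rw [← map_nsmul, hP, map_zero], fun h => hP1 ((hE P).mp h)⟩
  · -- `E₁[p] ≠ 0`
    obtain ⟨R, hR, hR0, hR1⟩ := s59b_exists_E1_torsion H hp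
    refine ⟨φ R, by rw [← map_nsmul, hR, map_zero], fun h => hR0 ?_, (hE R).mpr hR1⟩
    exact φ.injective (h.trans (map_zero φ).symm)
  · -- divisibility
    intro Q hQ
    obtain ⟨S, hS, hSQ⟩ := s59b_E1_divisible H hp ((hE' Q).mp hQ)
    refine ⟨φ S, (hE S).mpr hS, ?_⟩
    rw [← map_nsmul, hSQ, φ.apply_symm_apply]
  · -- stability under the decomposition group
    intro σ hσ P hP
    rcases hP with rfl | ⟨x, y, h, rfl, hx⟩
    · exact Or.inl (hs0 σ)
    · obtain ⟨h', he⟩ := fvc_smul_some (W.map (Int.castRingHom ℚ)) σ h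
      refine Or.inr ⟨σ x, σ y, h', he, ?_⟩
      rw [ford_vQ_decomposition hp hA σ hσ]
      exact hx
  · -- `± 1` on the quotient
    intro σ hσ n P hP
    rcases key σ n P hP with rfl | ⟨x, y, h, h', hP', hσP, ht, ht'⟩
    · left
      rw [hs0, sub_zero]
      exact E.zero_mem
    · have hσv : ∀ a : Kb, v ((σ : Kb →+* Kb) a) = v a :=
        fun a => ford_vQ_decomposition hp hA σ hσ a
      rcases s59b_twist_pm H hp (σ := (σ : Kb →+* Kb)) hσv (M.hD σ hσ) h h' n ht ht' with h1 | h1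
      · left
        have e : σ • P - P = φ (Point.some _ _ h' - Point.some x y h) := by
          rw [map_sub, ← hσP, ← hP']
        rw [hmem, e, hE]
        exact h1
      · right
        have e : σ • P + P = φ (Point.some _ _ h' + Point.some x y h) := by
          rw [map_add, ← hσP, ← hP']
        rw [hmem, e, hE]
        exact h1
  · -- inertia
    intro σ hσ n P hP
    rcases key σ n P hP with rfl | ⟨x, y, h, h', hP', hσP, ht, ht'⟩
    · rw [hs0, sub_zero]
      exact E.zero_mem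
    · obtain ⟨hσv, hσI⟩ := ford_vQ_inertia hp hA σ hσ
      have hσD := (ford_inertia_spec A σ hσ).1
      have h1 := s59b_twist_plus H hp hp2 (σ := (σ : Kb →+* Kb)) hσv hσI (M.hD σ hσD) h h' n ht ht'
      have e : σ • P - P = φ (Point.some _ _ h' - Point.some x y h) := by
        rw [map_sub, ← hσP, ← hP']
      rw [hmem, e, hE]
      exact h1

end Fermat.Agent.Lib.S59
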