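/-
Programme R (S59), κ–push compatibility (helper1 #3278 §7; helper2, prefix `s59b_`), part 4:
**the abstract two-level theorems for `α_*` and `β_*`**.

With abstract bridges `(φ, hB, j, c, ct)` at the levels `M ℓ` and `M` (as in `s29q_EQ`,
Lib/S29/EQInst):

  `κ_M (ct₀ z') = cor_A (κ_{M ℓ} (ct₁ z))`   whenever `z' = α_* z`     (`s59b_kappaC_alphaPush`),
  `κ_M (ct₀ z') = cor_B (κ_{M ℓ} (ct₁ z))`   whenever `z' = β_* z`     (`s59b_kappaC_betaPush`),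

generic in the modulus `p` (`[NeZero p]` only).  Both are instances of `s59b_kappaC_push`.
-/
import Mathlib
import Fermat.Agent.Lib.S59.BPushAL
import Fermat.Agent.Lib.S35.B3Push
import Fermat.Agent.Lib.S33.TPPush

set_option autoImplicit false
set_option linter.unusedSectionVars false
set_option linter.style.haveILetI false

namespace Fermat.Agent.Lib.S59

open UpperHalfPlane hiding I
open Complex ModularCurve AlgebraicCurve CongruenceSubgroup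
open Fermat.Agent.Lib.FF Fermat.Agent.Lib.S29 Fermat.Agent.Lib.S37 Fermat.Agent.Lib.S41
  Fermat.Agent.Lib.S35 Fermat.Agent.Lib.S33
open scoped Real Manifold MatrixGroups

noncomputable section

local notation "Kb" => AlgebraicClosure ℚ

/-- a `p`-torsion class is the class of a divisor `D` with `p • D = div f`. -/
theorem s59b_exists_kumGen {N p : ℕ} [NeZero N] (x : s29k_Jp N p) :
    ∃ (D : Divisor.degZero (K := Kb) (F := ffi_F N)) (f : ffi_F N), f ≠ 0 ∧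
      Pic0.mk D = (x : JZero N) ∧
      ∀ v : Place Kb (ffi_F N), v.ord f = (p : ℤ) * (D : Divisor Kb (ffi_F N)) v := by
  obtain ⟨D, hD⟩ := Pic0.mk_surjective (x : JZero N)
  have hx : (p : ℤ) • (x : JZero N) = 0 := Pic0.mem_torsion.mp x.2
  have h1 : Pic0.mk ((p : ℤ) • D) = (0 : JZero N) := by
    rw [← hx, ← hD]; rfl
  have h2 : ((p : ℤ) • D) ∈ (Divisor.principal (K := Kb) (F := ffi_F N)).addSubgroupOf
      (Divisor.degZero (K := Kb) (F := ffi_F N)) := (QuotientAddGroup.eq_zero_iff _).mp h1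
  obtain ⟨f, hf, hDf⟩ := h2
  refine ⟨D, f, hf, hD, fun v => ?_⟩
  rw [← hDf v]
  simp

section Abstract

variable (ι : Kb →+* ℂ) (M ℓ : ℕ) [NeZero M] [NeZero ℓ] [hℓ : Fact ℓ.Prime] (hℓM : ¬ ℓ ∣ M)
  {p : ℕ} [NeZero p]
  {K₁ : Type*} [Field K₁] {F₁ : Type*} [Field F₁] [Algebra K₁ F₁] {φ₁ : F₁ →+* ffm_E (M * ℓ)}
  (hB₁ : s29m_BridgeHyp K₁ (M * ℓ) p φ₁)
  (j₁ : ffi_F (M * ℓ) →+* F₁) (hjφ₁ : ∀ f : ffi_F (M * ℓ), φ₁ (j₁ f) = s29bp_phi ι (M * ℓ) f)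
  {K₀ : Type*} [Field K₀] {F₀ : Type*} [Field F₀] [Algebra K₀ F₀] {φ₀ : F₀ →+* ffm_E M}
  (hB₀ : s29m_BridgeHyp K₀ M p φ₀)
  (j₀ : ffi_F M →+* F₀) (hjφ₀ : ∀ f : ffi_F M, φ₀ (j₀ f) = s29bp_phi ι M f)

include hjφ₁ hjφ₀ in
/-- **κ–push compatibility, general form**: `push : J₀(M ℓ) → J₀(M)` any additive map which on
Kummer generators is `Nm` (`hpush`), and `cor` the corresponding operation on function-level data
(`hdata`). -/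
theorem s59b_kappaC_push
    (c₁ : JZero (M * ℓ) →+ Pic0 K₁ F₁)
    (hc₁ : ∀ (D : Divisor.degZero (K := Kb) (F := ffi_F (M * ℓ))) (f : ffi_F (M * ℓ)), f ≠ 0 →
      (∀ v : Place Kb (ffi_F (M * ℓ)), v.ord f = (p : ℤ) * (D : Divisor Kb (ffi_F (M * ℓ))) v) →
      ∃ D' : Divisor.degZero (K := K₁) (F := F₁), c₁ (Pic0.mk D) = Pic0.mk D' ∧
        ∀ w : Place K₁ F₁, w.ord (j₁ f) = (p : ℤ) * (D' : Divisor K₁ F₁) w)
    (ct₁ : s29k_Jp (M * ℓ) p → Pic0.torsion K₁ F₁ p)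
    (hct₁ : ∀ x : s29k_Jp (M * ℓ) p, (ct₁ x : Pic0 K₁ F₁) = c₁ (x : JZero (M * ℓ)))
    (c₀ : JZero M →+ Pic0 K₀ F₀)
    (hc₀ : ∀ (D : Divisor.degZero (K := Kb) (F := ffi_F M)) (f : ffi_F M), f ≠ 0 →
      (∀ v : Place Kb (ffi_F M), v.ord f = (p : ℤ) * (D : Divisor Kb (ffi_F M)) v) →
      ∃ D' : Divisor.degZero (K := K₀) (F := F₀), c₀ (Pic0.mk D) = Pic0.mk D' ∧
        ∀ w : Place K₀ F₀, w.ord (j₀ f) = (p : ℤ) * (D' : Divisor K₀ F₀) w)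
    (ct₀ : s29k_Jp M p → Pic0.torsion K₀ F₀ p)
    (hct₀ : ∀ x : s29k_Jp M p, (ct₀ x : Pic0 K₀ F₀) = c₀ (x : JZero M))
    (push : JZero (M * ℓ) →+ JZero M) (Nm : ffi_F (M * ℓ) → ffi_F M)
    (cor : (Additive (Gamma0 (M * ℓ)) →+ ZMod p) → (Additive (Gamma0 M) →+ ZMod p))
    (hpush : ∀ (D : Divisor.degZero (K := Kb) (F := ffi_F (M * ℓ))) (f : ffi_F (M * ℓ)), f ≠ 0 →
      (∀ v : Place Kb (ffi_F (M * ℓ)), v.ord f = (p : ℤ) * (D : Divisor Kb (ffi_F (M * ℓ))) v) →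
      Nm f ≠ 0 ∧ ∃ D₀ : Divisor.degZero (K := Kb) (F := ffi_F M), push (Pic0.mk D) = Pic0.mk D₀ ∧
        ∀ v : Place Kb (ffi_F M), v.ord (Nm f) = (p : ℤ) * (D₀ : Divisor Kb (ffi_F M)) v)
    (hdata : ∀ (f : ffi_F (M * ℓ)) (ψ : Additive (Gamma0 (M * ℓ)) →+ ZMod p),
      s59b_MData ι (M * ℓ) p f ψ → s59b_MData ι M p (Nm f) (cor ψ))
    (z : s29k_Jp (M * ℓ) p) (z' : s29k_Jp M p)
    (hz' : (z' : JZero M) = push (z : JZero (M * ℓ))) :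
    s29m_kappaC hB₀ (ct₀ z') = cor (s29m_kappaC hB₁ (ct₁ z)) := by
  obtain ⟨D, f, hf, hD, hDf⟩ := s59b_exists_kumGen z
  obtain ⟨D₁', hcD₁, hD₁'⟩ := hc₁ D f hf hDf
  obtain ⟨ψ, hψ⟩ := s29q_exists_funData ι hB₁ j₁ hjφ₁ f hf D₁' hD₁'
  have hψM := s59b_mdata_of_funData hψ
  have hκz : s29m_kappaC hB₁ (ct₁ z) = ψ :=
    s59b_kappaC_eq_of_mdata ι hB₁ j₁ hjφ₁ f hf D₁' hD₁' (ct₁ z) (by rw [hct₁, ← hD, hcD₁]) hψM
  have hψ' := hdata f ψ hψM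
  obtain ⟨hNf, D₀, hpD, hD₀⟩ := hpush D f hf hDf
  obtain ⟨D₀', hcD₀, hD₀'⟩ := hc₀ D₀ _ hNf hD₀
  rw [hκz]
  exact s59b_kappaC_eq_of_mdata ι hB₀ j₀ hjφ₀ _ hNf D₀' hD₀' (ct₀ z')
    (by rw [hct₀, hz', ← hD, hpD, hcD₀]) hψ'

/-- `α_*` on Kummer generators. -/
theorem s59b_push_alpha (D : Divisor.degZero (K := Kb) (F := ffi_F (M * ℓ)))
    (f : ffi_F (M * ℓ)) (hf : f ≠ 0)
    (hDf : ∀ v : Place Kb (ffi_F (M * ℓ)),
      v.ord f = (p : ℤ) * (D : Divisor Kb (ffi_F (M * ℓ))) v) :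
    s37e_normAlpha M ℓ f ≠ 0 ∧ ∃ D₀ : Divisor.degZero (K := Kb) (F := ffi_F M),
      s35c_alphaPush M ℓ hℓ.out hℓM (Pic0.mk D) = Pic0.mk D₀ ∧
      ∀ v : Place Kb (ffi_F M),
        v.ord (s37e_normAlpha M ℓ f) = (p : ℤ) * (D₀ : Divisor Kb (ffi_F M)) v := by
  refine ⟨?_, s35c_degZeroPush (heckeAlphaBar Kb M ℓ) (s35c_alphaIntegral M ℓ hℓ.out hℓM) D,
    s35c_alphaPush_mk M ℓ hℓ.out hℓM D, fun v => ?_⟩
  · unfold s37e_normAlpha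
    letI := algebraAlong (heckeAlphaBar Kb M ℓ)
    haveI : Module.Finite ↥(laurentBaseChange Kb (modularFunctionFieldFull M))
        ↥(laurentBaseChange Kb (modularFunctionFieldFull (M * ℓ))) :=
      s37w_finite_alpha M ℓ hℓ.out hℓM
    haveI : Module.Free ↥(laurentBaseChange Kb (modularFunctionFieldFull M))
        ↥(laurentBaseChange Kb (modularFunctionFieldFull (M * ℓ))) :=
      Module.Free.of_divisionRing _ _
    exact Algebra.norm_ne_zero_iff.mpr hf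
  · rw [s35c_coe_degZeroPush]
    exact (s33t_kumGen_push _ _ (s37w_finite_alpha M ℓ hℓ.out hℓM)
      (s37h_normFormulaAlong _ (s37w_finite_alpha M ℓ hℓ.out hℓM)) p _ f hf
      (fun w => (hDf w).symm) v).symm

/-- `β_*` on Kummer generators: `Nm_β f = Nm_α (w_ℓ f)`. -/
theorem s59b_push_beta (D : Divisor.degZero (K := Kb) (F := ffi_F (M * ℓ)))
    (f : ffi_F (M * ℓ)) (hf : f ≠ 0)
    (hDf : ∀ v : Place Kb (ffi_F (M * ℓ)),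
      v.ord f = (p : ℤ) * (D : Divisor Kb (ffi_F (M * ℓ))) v) :
    s37e_normAlpha M ℓ (s37w_al M ℓ hℓ.out hℓM f) ≠ 0 ∧
      ∃ D₀ : Divisor.degZero (K := Kb) (F := ffi_F M),
      s35c_betaPush M ℓ hℓ.out hℓM (Pic0.mk D) = Pic0.mk D₀ ∧
      ∀ v : Place Kb (ffi_F M),
        v.ord (s37e_normAlpha M ℓ (s37w_al M ℓ hℓ.out hℓM f)) =
          (p : ℤ) * (D₀ : Divisor Kb (ffi_F M)) v := by
  have e : s37e_normAlpha M ℓ (s37w_al M ℓ hℓ.out hℓM f) =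
      @Algebra.norm (ffi_F M) (ffi_F (M * ℓ)) _ _ (algebraAlong (heckeBetaBar Kb M ℓ)) f :=
    (s37w_norm_beta_side M ℓ hℓ.out hℓM f).symm
  rw [e]
  refine ⟨?_, s35c_degZeroPush (heckeBetaBar Kb M ℓ) (s35c_betaIntegral M ℓ hℓ.out hℓM) D,
    s35c_betaPush_mk M ℓ hℓ.out hℓM D, fun v => ?_⟩
  · letI := algebraAlong (heckeBetaBar Kb M ℓ)
    haveI : Module.Finite ↥(laurentBaseChange Kb (modularFunctionFieldFull M))
        ↥(laurentBaseChange Kb (modularFunctionFieldFull (M * ℓ))) :=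
      s37w_finite_beta M ℓ hℓ.out hℓM
    haveI : Module.Free ↥(laurentBaseChange Kb (modularFunctionFieldFull M))
        ↥(laurentBaseChange Kb (modularFunctionFieldFull (M * ℓ))) :=
      Module.Free.of_divisionRing _ _
    exact Algebra.norm_ne_zero_iff.mpr hf
  · rw [s35c_coe_degZeroPush]
    exact (s33t_kumGen_push _ _ (s37w_finite_beta M ℓ hℓ.out hℓM)
      (s37h_normFormulaAlong _ (s37w_finite_beta M ℓ hℓ.out hℓM)) p _ f hf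
      (fun w => (hDf w).symm) v).symm

include hjφ₁ hjφ₀ in
/-- **κ–push compatibility for `α_*`, abstract form.** -/
theorem s59b_kappaC_alphaPush
    (c₁ : JZero (M * ℓ) →+ Pic0 K₁ F₁)
    (hc₁ : ∀ (D : Divisor.degZero (K := Kb) (F := ffi_F (M * ℓ))) (f : ffi_F (M * ℓ)), f ≠ 0 →
      (∀ v : Place Kb (ffi_F (M * ℓ)), v.ord f = (p : ℤ) * (D : Divisor Kb (ffi_F (M * ℓ))) v) →
      ∃ D' : Divisor.degZero (K := K₁) (F := F₁), c₁ (Pic0.mk D) = Pic0.mk D' ∧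
        ∀ w : Place K₁ F₁, w.ord (j₁ f) = (p : ℤ) * (D' : Divisor K₁ F₁) w)
    (ct₁ : s29k_Jp (M * ℓ) p → Pic0.torsion K₁ F₁ p)
    (hct₁ : ∀ x : s29k_Jp (M * ℓ) p, (ct₁ x : Pic0 K₁ F₁) = c₁ (x : JZero (M * ℓ)))
    (c₀ : JZero M →+ Pic0 K₀ F₀)
    (hc₀ : ∀ (D : Divisor.degZero (K := Kb) (F := ffi_F M)) (f : ffi_F M), f ≠ 0 →
      (∀ v : Place Kb (ffi_F M), v.ord f = (p : ℤ) * (D : Divisor Kb (ffi_F M)) v) →
      ∃ D' : Divisor.degZero (K := K₀) (F := F₀), c₀ (Pic0.mk D) = Pic0.mk D' ∧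
        ∀ w : Place K₀ F₀, w.ord (j₀ f) = (p : ℤ) * (D' : Divisor K₀ F₀) w)
    (ct₀ : s29k_Jp M p → Pic0.torsion K₀ F₀ p)
    (hct₀ : ∀ x : s29k_Jp M p, (ct₀ x : Pic0 K₀ F₀) = c₀ (x : JZero M))
    (z : s29k_Jp (M * ℓ) p) (z' : s29k_Jp M p)
    (hz' : (z' : JZero M) = s35c_alphaPush M ℓ hℓ.out hℓM (z : JZero (M * ℓ))) :
    s29m_kappaC hB₀ (ct₀ z') = s41l_corA M ℓ hℓM (ZMod p) (s29m_kappaC hB₁ (ct₁ z)) :=
  s59b_kappaC_push ι M ℓ hB₁ j₁ hjφ₁ hB₀ j₀ hjφ₀ c₁ hc₁ ct₁ hct₁ c₀ hc₀ ct₀ hct₀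
    (s35c_alphaPush M ℓ hℓ.out hℓM) (s37e_normAlpha M ℓ) (s41l_corA M ℓ hℓM (ZMod p))
    (fun D f hf hDf => s59b_push_alpha M ℓ hℓM D f hf hDf)
    (fun _ _ h => s59b_mdata_alphaPush ι M ℓ hℓM h) z z' hz'

include hjφ₁ hjφ₀ in
/-- **κ–push compatibility for `β_*`, abstract form.** -/
theorem s59b_kappaC_betaPush
    (c₁ : JZero (M * ℓ) →+ Pic0 K₁ F₁)
    (hc₁ : ∀ (D : Divisor.degZero (K := Kb) (F := ffi_F (M * ℓ))) (f : ffi_F (M * ℓ)), f ≠ 0 →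
      (∀ v : Place Kb (ffi_F (M * ℓ)), v.ord f = (p : ℤ) * (D : Divisor Kb (ffi_F (M * ℓ))) v) →
      ∃ D' : Divisor.degZero (K := K₁) (F := F₁), c₁ (Pic0.mk D) = Pic0.mk D' ∧
        ∀ w : Place K₁ F₁, w.ord (j₁ f) = (p : ℤ) * (D' : Divisor K₁ F₁) w)
    (ct₁ : s29k_Jp (M * ℓ) p → Pic0.torsion K₁ F₁ p)
    (hct₁ : ∀ x : s29k_Jp (M * ℓ) p, (ct₁ x : Pic0 K₁ F₁) = c₁ (x : JZero (M * ℓ)))
    (c₀ : JZero M →+ Pic0 K₀ F₀)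
    (hc₀ : ∀ (D : Divisor.degZero (K := Kb) (F := ffi_F M)) (f : ffi_F M), f ≠ 0 →
      (∀ v : Place Kb (ffi_F M), v.ord f = (p : ℤ) * (D : Divisor Kb (ffi_F M)) v) →
      ∃ D' : Divisor.degZero (K := K₀) (F := F₀), c₀ (Pic0.mk D) = Pic0.mk D' ∧
        ∀ w : Place K₀ F₀, w.ord (j₀ f) = (p : ℤ) * (D' : Divisor K₀ F₀) w)
    (ct₀ : s29k_Jp M p → Pic0.torsion K₀ F₀ p)
    (hct₀ : ∀ x : s29k_Jp M p, (ct₀ x : Pic0 K₀ F₀) = c₀ (x : JZero M))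
    (z : s29k_Jp (M * ℓ) p) (z' : s29k_Jp M p)
    (hz' : (z' : JZero M) = s35c_betaPush M ℓ hℓ.out hℓM (z : JZero (M * ℓ))) :
    s29m_kappaC hB₀ (ct₀ z') = s41l_corB M ℓ hℓM (ZMod p) (s29m_kappaC hB₁ (ct₁ z)) :=
  s59b_kappaC_push ι M ℓ hB₁ j₁ hjφ₁ hB₀ j₀ hjφ₀ c₁ hc₁ ct₁ hct₁ c₀ hc₀ ct₀ hct₀
    (s35c_betaPush M ℓ hℓ.out hℓM) (fun f => s37e_normAlpha M ℓ (s37w_al M ℓ hℓ.out hℓM f))
    (s41l_corB M ℓ hℓM (ZMod p))
    (fun D f hf hDf => s59b_push_beta M ℓ hℓM D f hf hDf)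
    (fun _ _ h => s59b_mdata_betaPush ι M ℓ hℓM h) z z' hz'

end Abstract

end

end Fermat.Agent.Lib.S59
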