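/-
Programme R (S59), κ–push compatibility (helper1 #3278 §7; helper2, prefix `s59b_`), part 1:
**function-level Kummer data in the field `s29m_M` of meromorphic functions** and the compatibility
of the bridges `s29bp_phi ι N` at the levels `M` and `M ℓ`.

* `s59b_Phi ι N := s29m_inclE N ∘ s29bp_phi ι N : F̄(N) →+* s29m_M`;
* `s59b_MData ι N p f ψ` : the variant of `s29q_FunData` (Lib/S29/EQData) in which the relation
  "`ι f = a / b`" is an identity in `s29m_M` (no `q`-expansions);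
* `s59b_mdata_of_funData`, `s59b_kappaC_eq_of_mdata` (data computes `κ`);
* `s59b_Phi_alpha` : `Φ_{M ℓ} (α y) = Φ_M y`.
-/
import Mathlib
import Fermat.Agent.Lib.S29.EQInst

set_option autoImplicit false
set_option linter.unusedSectionVars false
set_option linter.style.haveILetI false

namespace Fermat.Agent.Lib.S59

open UpperHalfPlane hiding I
open Complex ModularCurve AlgebraicCurve CongruenceSubgroup
open Fermat.Agent.Lib.FF Fermat.Agent.Lib.S29
open scoped Real Manifold MatrixGroups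

noncomputable section

local notation "Kb" => AlgebraicClosure ℚ

/-- the bridge with values in the field of meromorphic functions on `ℍ`. -/
def s59b_Phi (ι : Kb →+* ℂ) (N : ℕ) : ffi_F N →+* s29m_M :=
  (s29m_inclE N).comp (s29bp_phi ι N)

theorem s59b_Phi_apply (ι : Kb →+* ℂ) (N : ℕ) (f : ffi_F N) :
    s59b_Phi ι N f = s29m_inclE N (s29bp_phi ι N f) := rfl

/-- the image of the bridge is `Γ₀(N)`-invariant. -/
theorem s59b_Phi_smul (ι : Kb →+* ℂ) (N : ℕ) {γ : SL(2, ℤ)} (hγ : γ ∈ Gamma0 N) (f : ffi_F N) :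
    γ • s59b_Phi ι N f = s59b_Phi ι N f := by
  rw [s59b_Phi_apply, ← s29m_inclE_smul, s29bp_phi_smul ι N hγ]

/-- the action of `SL₂(ℤ)` on the image of a function. -/
theorem s59b_smul_ofFun (γ : SL(2, ℤ)) {f : ℍ → ℂ} (hf : MDiff f) :
    γ • s29m_ofFun f hf = s29m_ofFun (fun z => f (γ⁻¹ • z)) (s29m_mdiff_smul hf γ) := by
  unfold s29m_ofFun
  rw [s29m_smul_algebraMap]
  rfl

theorem s59b_ofFun_prod {ι' : Type*} (s : Finset ι') (f : ι' → ℍ → ℂ) (hf : ∀ i, MDiff (f i))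
    (hprod : MDiff (fun z => ∏ i ∈ s, f i z)) :
    ∏ i ∈ s, s29m_ofFun (f i) (hf i) = s29m_ofFun (fun z => ∏ i ∈ s, f i z) hprod := by
  unfold s29m_ofFun
  rw [← map_prod]
  congr 1
  apply Subtype.ext
  funext z
  have h1 : ((∏ i ∈ s, s29m_mkO (f i) (hf i) : s29m_O) : ℍ → ℂ) =
      ∏ i ∈ s, ((s29m_mkO (f i) (hf i) : s29m_O) : ℍ → ℂ) := by
    exact map_prod (s29m_O.val) _ s
  rw [h1, Finset.prod_apply]
  rfl

/-- **Function-level Kummer data in `s29m_M`** for `f ∈ ℚ̄(X₀(N))` with character `ψ`. -/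
def s59b_MData (ι : Kb →+* ℂ) (N p : ℕ) (f : ffi_F N)
    (ψ : Additive (Gamma0 N) →+ ZMod p) : Prop :=
  ∃ (a b A : ℍ → ℂ) (ha : MDiff a) (hb : MDiff b), MDiff A ∧ (∃ τ, b τ ≠ 0) ∧
    (∀ γ ∈ Gamma0 N, ∀ z : ℍ, a (γ • z) = a z) ∧ (∀ γ ∈ Gamma0 N, ∀ z : ℍ, b (γ • z) = b z) ∧
    s59b_Phi ι N f * s29m_ofFun b hb = s29m_ofFun a ha ∧
    (∀ τ, A τ ^ p = a τ * b τ ^ (p - 1)) ∧
    ∀ (γ : Gamma0 N) (τ : ℍ), A ((γ : SL(2, ℤ)) • τ) =
      cexp (2 * π * I / p) ^ (ψ (Additive.ofMul γ)).val * A τ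

/-- `q`-expansion data give data in `s29m_M`. -/
theorem s59b_mdata_of_funData {ι : Kb →+* ℂ} {N p : ℕ} {f : ffi_F N}
    {ψ : Additive (Gamma0 N) →+ ZMod p} (h : s29q_FunData ι N p f ψ) : s59b_MData ι N p f ψ := by
  obtain ⟨a, b, A, xa, xb, ha, hb, hA, hb0, hainv, hbinv, hxa, hxb, hab, hAp, hAψ⟩ := h
  have hb0' : ∃ τ, b τ ≠ 0 := by
    by_contra hcon
    push Not at hcon
    exact hb0 (funext hcon)
  exact ⟨a, b, A, ha, hb, hA, hb0', hainv, hbinv,
    s29q_inclE_phi_mul_of_isLaurent ι N f ha hb hxa hxb hab, hAp, hAψ⟩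

section Char

variable {N p : ℕ} [NeZero N] [NeZero p] (ι : Kb →+* ℂ)
  {K : Type*} [Field K] {F : Type*} [Field F] [Algebra K F] {φ : F →+* ffm_E N}
  (hB : s29m_BridgeHyp K N p φ)
  (j : ffi_F N →+* F) (hjφ : ∀ f : ffi_F N, φ (j f) = s29bp_phi ι N f)

include hjφ in
/-- **Characterisation**: data in `s29m_M` for `f` computes `κ` of the class of `D'`,
`div (j f) = p • D'`. -/
theorem s59b_kappaC_eq_of_mdata (f : ffi_F N) (hf : f ≠ 0)
    (D' : Divisor.degZero (K := K) (F := F))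
    (hD' : ∀ w : Place K F, w.ord (j f) = (p : ℤ) * (D' : Divisor K F) w)
    (y : Pic0.torsion K F p) (hy : Pic0.mk D' = (y : Pic0 K F))
    {ψ : Additive (Gamma0 N) →+ ZMod p} (hψ : s59b_MData ι N p f ψ) :
    s29m_kappaC hB y = ψ := by
  obtain ⟨a, b, A, ha, hb, hA, hb0, -, hbinv, hab, hAp, hAψ⟩ := hψ
  have hjf : j f ≠ 0 := (map_ne_zero j).mpr hf
  have habM : s29m_inclE N (φ (j f)) * s29m_ofFun b hb = s29m_ofFun a ha := by
    rw [hjφ]
    exact hab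
  refine AddMonoidHom.ext fun γ => ?_
  obtain ⟨γ, rfl⟩ := Additive.ofMul.surjective γ
  exact s29m_kappaC_eq_of_fun hB y D' hy (j f) hjf hD' ha hb hA hb0 habM hbinv hAp γ
    (ψ (Additive.ofMul γ)) (fun τ => hAψ γ τ)

end Char

/-! ### compatibility of the bridges at the levels `M` and `M ℓ` -/

section Alpha

variable (ι : Kb →+* ℂ) (M ℓ : ℕ) [NeZero M] [NeZero ℓ]

/-- if `a, b` are holomorphic with `q`-expansions `xa, xb` and `ι f · xb = xa`, then
`Φ f · b = a`. -/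
theorem s59b_Phi_mul_of_isLaurent (N : ℕ) (f : ffi_F N) {a b : ℍ → ℂ} (hma : MDiff a)
    (hmb : MDiff b) {xa xb : LaurentSeries ℂ} (ha : ffb_IsLaurent a xa) (hb : ffb_IsLaurent b xb)
    (hab : coeffMap ι (f : LaurentSeries Kb) * xb = xa) :
    s59b_Phi ι N f * s29m_ofFun b hmb = s29m_ofFun a hma :=
  s29q_inclE_phi_mul_of_isLaurent ι N f hma hmb ha hb hab

/-- **`Φ_{M ℓ} ∘ α = Φ_M`.** -/
theorem s59b_Phi_alpha (y : ffi_F M) :
    s59b_Phi ι (M * ℓ) (heckeAlphaBar Kb M ℓ y) = s59b_Phi ι M y := by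
  obtain ⟨a', b', hb', h1, -⟩ := s29bp_exists_frac ι M y
  have hψb0 : s29bp_psi ι M b' ≠ 0 := by
    intro h0
    apply hb'
    apply s29bp_psi_injective ι M
    rw [h0, map_zero]
  have hne : s29m_ofFun ((s29bp_psi ι M b' : ffm_R M) : ℍ → ℂ) (s29bp_psi ι M b').2.mdiff ≠ 0 :=
    s29m_ofFun_ne_zero _ (s29m_ne_zero_of_R _ hψb0)
  have hab : coeffMap ι (y : LaurentSeries Kb) * coeffMap ι (b' : LaurentSeries Kb) =
      coeffMap ι (a' : LaurentSeries Kb) := by rw [← map_mul, h1]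
  have e1 := s59b_Phi_mul_of_isLaurent ι M y (s29bp_psi ι M a').2.mdiff (s29bp_psi ι M b').2.mdiff
    (s29bp_psi_isLaurent ι M a') (s29bp_psi_isLaurent ι M b') hab
  have e2 := s59b_Phi_mul_of_isLaurent ι (M * ℓ) (heckeAlphaBar Kb M ℓ y)
    (s29bp_psi ι M a').2.mdiff (s29bp_psi ι M b').2.mdiff
    (s29bp_psi_isLaurent ι M a') (s29bp_psi_isLaurent ι M b')
    (by rw [coe_heckeAlphaBar]; exact hab)
  exact mul_right_cancel₀ hne (e2.trans e1.symm)

end Alpha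

end

end Fermat.Agent.Lib.S59
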