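/-
Programme R (S59), κ–push compatibility (helper1 #3278 §7; helper2, prefix `s59b_`), part 2:
**the norm along `α : F̄(M) → F̄(M ℓ)` is the product over the cosets `Γ₀(M ℓ) \ Γ₀(M)`**, in the
field `s29m_M` of meromorphic functions on `ℍ`:

  `Φ_M (Nm_α f) = ∏_{x ∈ P¹(𝔽_ℓ)} r_x⁻¹ • Φ_{M ℓ} f`,   `r_x = s41l_rhoA M ℓ hℓM x`

(`(γ • F)(z) = F(γ⁻¹ z)`, so `r_x⁻¹ • F = F ∘ r_x`).  Proof: the `ℓ + 1` maps `f ↦ r_x⁻¹ • Φ f` are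
pairwise distinct embeddings over `Φ_M` (`ffg_mem_Gamma0_of_j_scale_eq` on `j(M ℓ z)`), and
`s37w_norm_eq_prod_of_embeddings`.
-/
import Mathlib
import Fermat.Agent.Lib.S59.BPushData
import Fermat.Agent.Lib.S41.LVOps
import Fermat.Agent.Lib.S37.WNorm
import Fermat.Agent.Lib.S37.EFun
import Fermat.Agent.Lib.FF.DegreeDistinct

set_option autoImplicit false
set_option linter.unusedSectionVars false
set_option linter.style.haveILetI false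

namespace Fermat.Agent.Lib.S59

open UpperHalfPlane hiding I
open Complex ModularCurve AlgebraicCurve CongruenceSubgroup
open Fermat.Agent.Lib.FF Fermat.Agent.Lib.S29 Fermat.Agent.Lib.S37 Fermat.Agent.Lib.S41
open scoped Real Manifold MatrixGroups

noncomputable section

local notation "Kb" => AlgebraicClosure ℚ

variable (ι : Kb →+* ℂ) (M ℓ : ℕ) [NeZero M] [hℓ : Fact ℓ.Prime] (hℓM : ¬ ℓ ∣ M)

/-- the representative `r_x ∈ Γ₀(M) ≤ SL₂(ℤ)` of the coset `x`. -/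
def s59b_rep (x : OnePoint (ZMod ℓ)) : SL(2, ℤ) := ((s41l_rhoA M ℓ hℓM x : Gamma0 M) : SL(2, ℤ))

theorem s59b_rep_mem (x : OnePoint (ZMod ℓ)) : s59b_rep M ℓ hℓM x ∈ Gamma0 M :=
  (s41l_rhoA M ℓ hℓM x).2

theorem s59b_rep_coe (x : OnePoint (ZMod ℓ)) :
    ((s59b_rep M ℓ hℓM x : SL(2, ℤ)) : Matrix (Fin 2) (Fin 2) ℤ) = s41l_rA M ℓ hℓM x :=
  s41l_i_rhoA M ℓ hℓM x

/-- the `ℓ + 1` embeddings `f ↦ Φ f ∘ r_x` of `F̄(M ℓ)` into `s29m_M`. -/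
def s59b_sigma (x : OnePoint (ZMod ℓ)) : ffi_F (M * ℓ) →+* s29m_M :=
  (MulSemiringAction.toRingHom SL(2, ℤ) s29m_M (s59b_rep M ℓ hℓM x)⁻¹).comp (s59b_Phi ι (M * ℓ))

theorem s59b_sigma_apply (x : OnePoint (ZMod ℓ)) (f : ffi_F (M * ℓ)) :
    s59b_sigma ι M ℓ hℓM x f = (s59b_rep M ℓ hℓM x)⁻¹ • s59b_Phi ι (M * ℓ) f := rfl

/-- all the embeddings restrict to `Φ_M` on `α F̄(M)`. -/
theorem s59b_sigma_alpha (x : OnePoint (ZMod ℓ)) (y : ffi_F M) :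
    haveI : NeZero ℓ := ⟨hℓ.out.ne_zero⟩
    s59b_sigma ι M ℓ hℓM x (heckeAlphaBar Kb M ℓ y) = s59b_Phi ι M y := by
  haveI : NeZero ℓ := ⟨hℓ.out.ne_zero⟩
  rw [s59b_sigma_apply, s59b_Phi_alpha]
  exact s59b_Phi_smul ι M (inv_mem (s59b_rep_mem M ℓ hℓM x)) y

/-- the function `z ↦ j(M ℓ z)` in `s29m_M`. -/
theorem s59b_Phi_jd :
    haveI : NeZero (M * ℓ) := ⟨mul_ne_zero (NeZero.ne M) hℓ.out.ne_zero⟩
    s59b_Phi ι (M * ℓ) (s29bp_jdK Kb (M * ℓ) (dvd_refl (M * ℓ))) =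
      s29m_ofFun (ffb_jd (M * ℓ)) (ffb_jd_isWH (M * ℓ) (dvd_refl (M * ℓ))).mdiff := by
  haveI : NeZero (M * ℓ) := ⟨mul_ne_zero (NeZero.ne M) hℓ.out.ne_zero⟩
  rw [s59b_Phi_apply, s29bp_phi_jd, s29m_inclE_algebraMap]
  rfl

/-- the embeddings are pairwise distinct. -/
theorem s59b_sigma_injective : Function.Injective (s59b_sigma ι M ℓ hℓM) := by
  haveI : NeZero (M * ℓ) := ⟨mul_ne_zero (NeZero.ne M) hℓ.out.ne_zero⟩
  intro x y hxy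
  have h1 := RingHom.congr_fun hxy (s29bp_jdK Kb (M * ℓ) (dvd_refl (M * ℓ)))
  rw [s59b_sigma_apply, s59b_sigma_apply, s59b_Phi_jd, s59b_smul_ofFun, s59b_smul_ofFun] at h1
  have h2 : ∀ z : ℍ, ffb_jd (M * ℓ) (s59b_rep M ℓ hℓM x • z) =
      ffb_jd (M * ℓ) (s59b_rep M ℓ hℓM y • z) := by
    intro z
    unfold s29m_ofFun at h1
    have h3 := s29m_algebraMap_injective h1
    have h4 := congrFun (congrArg Subtype.val h3) z
    simpa only [s29m_mkO_coe, inv_inv] using h4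
  -- `γ = r_y r_x⁻¹ ∈ Γ₀(M ℓ)`
  have h5 : s59b_rep M ℓ hℓM y * (s59b_rep M ℓ hℓM x)⁻¹ ∈ Gamma0 (M * ℓ) := by
    refine ffg_mem_Gamma0_of_j_scale_eq (NeZero.ne (M * ℓ)) (ffb_dmul (M * ℓ))
      (fun z => by rw [ffb_dmul_coe]) _ fun z => ?_
    have h6 := h2 ((s59b_rep M ℓ hℓM y)⁻¹ • z)
    rw [ffb_jd_apply, ffb_jd_apply, smul_inv_smul] at h6
    rw [mul_inv_rev, inv_inv, mul_smul]
    exact h6
  -- hence `x = y`
  have h7 : s41l_rA M ℓ hℓM y =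
      s41l_i (M * ℓ) ⟨_, h5⟩ * s41l_rA M ℓ hℓM x := by
    rw [s41l_i_apply, ← s59b_rep_coe, ← s59b_rep_coe]
    show _ = ((s59b_rep M ℓ hℓM y * (s59b_rep M ℓ hℓM x)⁻¹ : SL(2, ℤ)) :
      Matrix (Fin 2) (Fin 2) ℤ) * _
    rw [← Matrix.SpecialLinearGroup.coe_mul, inv_mul_cancel_right]
  exact ((s41l_famCorA M ℓ hℓM).inj y x _ h7).symm

theorem s59b_card_onePoint : Fintype.card (OnePoint (ZMod ℓ)) = ℓ + 1 := by
  haveI : NeZero ℓ := ⟨hℓ.out.ne_zero⟩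
  show Fintype.card (Option (ZMod ℓ)) = ℓ + 1
  rw [Fintype.card_option, ZMod.card]

/-- **the norm along `α` is the product over the cosets `Γ₀(M ℓ) \ Γ₀(M)`.** -/
theorem s59b_norm_eq_prod (f : ffi_F (M * ℓ)) :
    haveI : NeZero ℓ := ⟨hℓ.out.ne_zero⟩
    s59b_Phi ι M (s37e_normAlpha M ℓ f) = ∏ x : OnePoint (ZMod ℓ), s59b_sigma ι M ℓ hℓM x f := by
  haveI : NeZero ℓ := ⟨hℓ.out.ne_zero⟩
  unfold s37e_normAlpha
  letI := algebraAlong (heckeAlphaBar Kb M ℓ)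
  haveI hfin : Module.Finite (ffi_F M) (ffi_F (M * ℓ)) := s37w_finite_alpha M ℓ hℓ.out hℓM
  exact s37w_norm_eq_prod_of_embeddings (K := ffi_F M) (L := ffi_F (M * ℓ))
    (s59b_Phi ι M) (s59b_sigma ι M ℓ hℓM)
    (fun x => RingHom.ext fun y => s59b_sigma_alpha ι M ℓ hℓM x y)
    (s59b_sigma_injective ι M ℓ hℓM)
    (by rw [s37w_finrank_alpha M ℓ hℓ.out hℓM, s59b_card_onePoint]) f

end

end Fermat.Agent.Lib.S59
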