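/-
PROGRAMME R2 = S59, node [FLR], **[PATCH-FLR]: THE `T`-SIDE CONTRACT AND THE ASSEMBLY OVER AN
ABSTRACT `R`-SIDE CONTRACT** (helper4, prefix `s59f_`; agreed with helper5 in #3771/#3780).

* `s59f_TBaseF`  : everything chosen ONCE on the `T`-side: the base Hecke rings `R t = T_t(∅)` of the
  levels `N_0 ∣ N_1 ∣ … ∣ N_k` (`N_{t+1} = N_t q_t`), their modules `M t`, the new quotients `MQ t`,
  the Galois representations `ρR t` of type `𝒟₀` and the surjections `ν t : R_∅ ↠ R t`;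
* `s59f_TLevelF` : everything at the Taylor–Wiles level `n`: the trace ring `T′` (REDUCED,
  `𝒪`-torsion-free), the TOP Hecke ring `T = T_k(n)`, the levels `L0 t` over `T⟦z⟧` for all `t`, [C8], the common
  trace function, the steps `s59f_TStep` with the Gram matrix
  `(q_t + 1, τ_t; τ_t, q_t + 1)`, `τ_t = tr ρ^univ(φ_{q_t})`, and ideal `span{((q_t+1)² − τ_t²)²}`
  (the output shape of `s59f_TStep_of_new`), and the unramifiedness of the base level `N_0 Q_n` at the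
  raising primes (`hunr0`, basis-free);
* **`s59f_FLR_asm`** : `s59f_FLR_absL` with `hkill`, `h0`, `h𝔫U` DERIVED from the `T`-side contract and
  an abstract `R`-side contract on `γ n : P ↠ (DQ n).R⟦z⟧`:
    (Rτ)    `γ n (g12 t) = C (tr ρ^univ(φ_{q_t}))`;
    (Rkill) for every REDUCED `𝒪`-torsion-free complete noetherian local `𝒪`-algebra `T₁` and
            SURJECTIVE `f : (DQ n).R → T₁`, `⋂𝒦` dies in `T₁⟦z⟧`;
    (R0)    if the inertia elements `σ_{q_l}` act trivially after a local map `f : (DQ n).R⟦z⟧ → A`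
            (`A` complete local), then `𝒦 (c 0)` dies in `A`.
-/
import Mathlib
import Fermat.Agent.Lib.S59.FAbsMainL
import Fermat.Agent.Lib.S59.TLvlJ
import Fermat.Agent.Lib.S59.LChiRing
import Fermat.Agent.Lib.S59.LFinA1

set_option autoImplicit false
set_option linter.unusedSectionVars false
set_option linter.unusedVariables false
set_option linter.style.haveILetI false
set_option maxHeartbeats 3200000
set_option synthInstance.maxHeartbeats 400000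

noncomputable section

namespace Fermat.Agent.Lib.S59

open IsLocalRing MvPowerSeries
open Fermat.Agent.Lib.S53 (matOf NormData)
open Fermat.Agent.Lib.S56

local notation "Γℚ" => (AlgebraicClosure ℚ ≃ₐ[ℚ] AlgebraicClosure ℚ)

/-! ### The augmentation ideal of `S = 𝒪⟦s⟧⟦z⟧` -/

section FrameAF

variable (σ : Type) [DecidableEq σ] [Fintype σ] {𝒪 : Type} [CommRing 𝒪] {r : ℕ}

theorem s59f_frameA_CX (i : Fin r) :
    (C (X i) : MvPowerSeries σ (MvPowerSeries (Fin r) 𝒪)) ∈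
      s59t_frameA σ (RingHom.ker (constantCoeff (σ := Fin r) (R := 𝒪))) := by
  rw [s59t_mem_frameA, RingHom.mem_ker, constantCoeff_C, constantCoeff_X]

theorem s59f_frameA_X (j : σ) :
    (X j : MvPowerSeries σ (MvPowerSeries (Fin r) 𝒪)) ∈
      s59t_frameA σ (RingHom.ker (constantCoeff (σ := Fin r) (R := 𝒪))) := by
  rw [s59t_mem_frameA, RingHom.mem_ker, constantCoeff_X, map_zero]

theorem s59f_frameA_le :
    s59t_frameA σ (RingHom.ker (constantCoeff (σ := Fin r) (R := 𝒪))) ≤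
      Ideal.span (Set.range (fun i : Fin r =>
        (C (X i) : MvPowerSeries σ (MvPowerSeries (Fin r) 𝒪))) ∪ Set.range (fun j : σ =>
        (X j : MvPowerSeries σ (MvPowerSeries (Fin r) 𝒪)))) := by
  intro s hs
  rw [s59t_mem_frameA, RingHom.mem_ker] at hs
  have hsplit : s = (s - C (constantCoeff s)) + C (constantCoeff s) := by ring
  rw [hsplit]
  refine Ideal.add_mem _ ?_ ?_
  · exact Ideal.span_mono Set.subset_union_right (s59l_sub_C_mem s)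
  · have h1 := s59l_sub_C_mem (constantCoeff s)
    rw [hs, map_zero, sub_zero] at h1
    have h2 := Ideal.mem_map_of_mem (C (σ := σ) (R := MvPowerSeries (Fin r) 𝒪)) h1
    rw [Ideal.map_span] at h2
    refine Ideal.span_mono ?_ h2
    rintro _ ⟨_, ⟨i, rfl⟩, rfl⟩
    exact Or.inl ⟨i, rfl⟩

end FrameAF

/-! ### The contract of the `T`-side -/

/-- **the `T`-side of [PATCH-FLR] at the base levels** `N_0 ∣ … ∣ N_k` (chosen once). -/
structure s59f_TBaseF (𝒪 : Type) [CommRing 𝒪] [IsDomain 𝒪] [IsDiscreteValuationRing 𝒪]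
    [IsAdicComplete (maximalIdeal 𝒪) 𝒪] (k : ℕ)
    {ρbar : ResidualGaloisRep (ResidueField 𝒪)}
    {𝒟₀ : ∀ ⦃A : Type⦄ [CommRing A] [IsLocalRing A] [Algebra 𝒪 A], GaloisRepAdic A → Prop}
    (D0 : GaloisRep.DeformationRingData 𝒪 ρbar 𝒟₀) : Type 1 where
  R : ℕ → Type
  [iR1 : ∀ t, CommRing (R t)]
  [iR2 : ∀ t, IsLocalRing (R t)]
  [iR3 : ∀ t, IsNoetherianRing (R t)]
  [iR4 : ∀ t, IsAdicComplete (maximalIdeal (R t)) (R t)]
  [iR5 : ∀ t, Algebra 𝒪 (R t)]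
  [iR6 : ∀ t, IsLocalHom (algebraMap 𝒪 (R t))]
  hRres : ∀ t, Function.Surjective (residue (R t) ∘ algebraMap 𝒪 (R t))
  M : ℕ → Type
  [iM1 : ∀ t, AddCommGroup (M t)]
  [iM2 : ∀ t, Module (R t) (M t)]
  [iM3 : ∀ t, Module.Finite (R t) (M t)]
  [iM4 : Nontrivial (M 0)]
  MQ : ℕ → Type
  [iQ1 : ∀ t, AddCommGroup (MQ t)]
  [iQ2 : ∀ t, Module (R (t + 1)) (MQ t)]
  /-- the projection to the `q_t`-new quotient -/
  ρ : ∀ t, M (t + 1) →ₗ[R (t + 1)] MQ t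
  hρ : ∀ t, Function.Surjective (ρ t)
  hρinj : ∀ t, k ≤ t → Function.Injective (ρ t)
  ρR : ∀ t, GaloisRepAdic (R t)
  hρR : ∀ t, 𝒟₀ (ρR t)
  hresR : ∀ t, (ρR t).residual.IsEquiv
    (ρbar.baseChangeAlong (ResidueField.map (algebraMap 𝒪 (R t))))
  ν : ∀ t, D0.R →ₐ[𝒪] R t
  hν : ∀ t g, ν t (s59i_cpTr D0.ρ g) = s59i_cpTr (ρR t) g
  hνs : ∀ t, Function.Surjective (ν t)
  d : ℕ → ℕ

attribute [instance] s59f_TBaseF.iR1 s59f_TBaseF.iR2 s59f_TBaseF.iR3 s59f_TBaseF.iR4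
  s59f_TBaseF.iR5 s59f_TBaseF.iR6 s59f_TBaseF.iM1 s59f_TBaseF.iM2 s59f_TBaseF.iM3 s59f_TBaseF.iM4
  s59f_TBaseF.iQ1 s59f_TBaseF.iQ2

/-- **the `T`-side of [PATCH-FLR] at the Taylor–Wiles level `n`**: `qv` the Taylor–Wiles primes,
`qr t` (`t < k`) the raising primes with Frobenius lifts `φr t` and inertia elements `σr t`. -/
structure s59f_TLevelF (𝒪 : Type) [CommRing 𝒪] [IsDomain 𝒪] [IsDiscreteValuationRing 𝒪]
    [IsAdicComplete (maximalIdeal 𝒪) 𝒪] (p n r : ℕ) (σ : Type) (k : ℕ)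
    {ρbar : ResidualGaloisRep (ResidueField 𝒪)}
    {𝒟₀ : ∀ ⦃A : Type⦄ [CommRing A] [IsLocalRing A] [Algebra 𝒪 A], GaloisRepAdic A → Prop}
    {D0 : GaloisRep.DeformationRingData 𝒪 ρbar 𝒟₀} (Bs : s59f_TBaseF 𝒪 k D0)
    (qv : Fin r → ℕ) (qr : ℕ → ℕ) (φr σr : ℕ → Γℚ)
    {𝒟 : ∀ ⦃A : Type⦄ [CommRing A] [IsLocalRing A] [Algebra 𝒪 A], GaloisRepAdic A → Prop}
    (DQ : GaloisRep.DeformationRingData 𝒪 ρbar 𝒟) : Type 1 where
  /-- the TRACE ring -/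
  T' : Type
  [iT'1 : CommRing T']
  [iT'2 : IsLocalRing T']
  [iT'3 : IsNoetherianRing T']
  [iT'4 : IsAdicComplete (maximalIdeal T') T']
  [iT'5 : Algebra 𝒪 T']
  [iT'6 : IsReduced T']
  htf : ∀ o : 𝒪, o ≠ 0 → ∀ x : T', algebraMap 𝒪 T' o * x = 0 → x = 0
  /-- the TOP Hecke ring `T_k(n) ⊇ T′` with the square roots of the diamond operators -/
  T : Type
  [iT1 : CommRing T]
  [iT2 : IsLocalRing T]
  [iT4 : IsAdicComplete (maximalIdeal T) T]
  [iT5 : Algebra 𝒪 T]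
  [iT6 : Algebra T' T]
  [iT7 : IsScalarTower 𝒪 T' T]
  [iT8 : Module.Finite T' T]
  hlocT : ∀ a ∈ maximalIdeal T', algebraMap T' T a ∈ maximalIdeal T
  θ : DQ.R →ₐ[𝒪] T'
  hθ : Function.Surjective θ
  /-- the levels `N_t Q_n`, all over `T⟦z⟧` -/
  L0 : ∀ t, s59p_Level (MvPowerSeries σ (MvPowerSeries (Fin r) 𝒪)) (MvPowerSeries σ T)
    (Bs.R t) (Bs.M t)
    (s59t_frameA σ (RingHom.ker (constantCoeff (σ := Fin r) (R := 𝒪))))
    (s59t_frameJ σ (s59t_JH 𝒪 p n r))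
  hd : ∀ t, (L0 t).d = Bs.d t
  std : MvPowerSeries σ (MvPowerSeries (Fin r) 𝒪) →ₐ[𝒪] MvPowerSeries σ T
  hstd : ∀ t x, (L0 t).φ x = std x
  hψ𝒪 : ∀ t (o : 𝒪), (L0 t).ψ (algebraMap 𝒪 (MvPowerSeries σ T) o) = algebraMap 𝒪 (Bs.R t) o
  uu : Fin r → Tˣ
  huu : ∀ i, ((uu i : Tˣ) : T) - 1 ∈ maximalIdeal T
  hgen : Algebra.adjoin T' (Set.range (fun i => ((uu i : Tˣ) : T)) ∪
    Set.range (fun i => (((uu i)⁻¹ : Tˣ) : T))) = ⊤
  hstdX : ∀ i, std (C (X i)) = C (((uu i : Tˣ) : T) - (((uu i)⁻¹ : Tˣ) : T))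
  hstdz : ∀ j, std (X j) = X j
  /-- the inertia elements at the Taylor–Wiles primes (may depend on the level `t`) -/
  σQ : ℕ → Fin r → Γℚ
  hσQ : ∀ t i, ∃ A : ValuationSubring (AlgebraicClosure ℚ), A.LiesOverPrime (qv i) ∧
    σQ t i ∈ A.inertiaSubgroupIn ℚ
  /-- [C8] on every level module -/
  hC8 : ∀ t, t ≤ k → ∀ i, (C ((((uu i : Tˣ) : T) - (((uu i)⁻¹ : Tˣ) : T)) ^ 2 -
      algebraMap T' T (θ (s59i_cpTr DQ.ρ (σQ t i) ^ 2 - 4))) : MvPowerSeries σ T) ∈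
    Module.annihilator (MvPowerSeries σ T) (L0 t).N
  /-- the common trace function -/
  hτ : ∀ t g, (L0 t).ψ (C (algebraMap T' T (θ (s59i_cpTr DQ.ρ g)))) = s59i_cpTr (Bs.ρR t) g
  /-- the steps, in the output shape of `s59f_TStep_of_new` -/
  hT : ∀ t, t < k → s59f_TStep (L0 t) (L0 (t + 1))
    (C ((qr t : ℕ) : T) + 1 : MvPowerSeries σ T)
    (C (algebraMap T' T (θ (s59i_cpTr DQ.ρ (φr t)))))
    (C (algebraMap T' T (θ (s59i_cpTr DQ.ρ (φr t)))))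
    (C ((qr t : ℕ) : T) + 1 : MvPowerSeries σ T)
    (Bs.ρ t)
    (Ideal.span {(((C ((qr t : ℕ) : T) + 1 : MvPowerSeries σ T)) ^ 2 -
      (C (algebraMap T' T (θ (s59i_cpTr DQ.ρ (φr t)))) : MvPowerSeries σ T) ^ 2) ^ 2})
  /-- the base level `N_0 Q_n` is unramified at the raising primes -/
  hunr0 : ∀ l, l < k → ∀ (f : Module.Dual DQ.R DQ.ρ.V) (v : DQ.ρ.V),
    (C (algebraMap T' T (θ (f (DQ.ρ.ρ (σr l) v - v)))) : MvPowerSeries σ T) ∈
      Module.annihilator (MvPowerSeries σ T) (L0 0).N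

attribute [instance] s59f_TLevelF.iT'1 s59f_TLevelF.iT'2 s59f_TLevelF.iT'3 s59f_TLevelF.iT'4
  s59f_TLevelF.iT'5 s59f_TLevelF.iT'6 s59f_TLevelF.iT1 s59f_TLevelF.iT2 s59f_TLevelF.iT4
  s59f_TLevelF.iT5 s59f_TLevelF.iT6 s59f_TLevelF.iT7 s59f_TLevelF.iT8

end Fermat.Agent.Lib.S59
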