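/-
Programme R2 (S59), node [PATCH-FLR], `T`-side, p = 3 port ([SPEC-T], helper8, prefix `s59c3_`), file 7b:
**A CONSTRUCTOR OF THE BASE CONTRACT `s59f_TBaseF` FROM ABSTRACT FAMILIES** (the rings `R t`, the modules `M t`, the old
submodules `Old t ⊆ M (t + 1)`, trivial for `t ≥ k`; the new quotients are `M (t + 1) ⧸ Old t` with the quotient maps).  Stated with
atoms so that the structure is elaborated ONCE in a small context: in the final theorem (`C3FlrFin.lean`) the fields are gigantic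
terms and the structure-instance notation does not terminate in reasonable time/memory there.
-/
import Mathlib
import Fermat.Agent.Lib.S59.FAsmPkg

set_option autoImplicit false
set_option linter.unusedSectionVars false
set_option linter.unusedVariables false
set_option linter.style.haveILetI false

noncomputable section

namespace Fermat.Agent.Lib.S59

open IsLocalRing

/-- **constructor of the base contract of the `T`-side from abstract families.** -/
def s59c3_mkBase {𝒪 : Type} [CommRing 𝒪] [IsDomain 𝒪] [IsDiscreteValuationRing 𝒪]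
    [IsAdicComplete (maximalIdeal 𝒪) 𝒪] (k : ℕ)
    {ρbar : ResidualGaloisRep (ResidueField 𝒪)}
    {𝒟₀ : ∀ ⦃A : Type⦄ [CommRing A] [IsLocalRing A] [Algebra 𝒪 A], GaloisRepAdic A → Prop}
    (D0 : GaloisRep.DeformationRingData 𝒪 ρbar 𝒟₀)
    (R : ℕ → Type) [iR1 : ∀ t, CommRing (R t)] (iR2 : ∀ t, IsLocalRing (R t))
    (iR3 : ∀ t, IsNoetherianRing (R t)) (iR4 : ∀ t, IsAdicComplete (maximalIdeal (R t)) (R t))
    [iR5 : ∀ t, Algebra 𝒪 (R t)] (iR6 : ∀ t, IsLocalHom (algebraMap 𝒪 (R t)))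
    (hRres : ∀ t, Function.Surjective (residue (R t) ∘ algebraMap 𝒪 (R t)))
    (M : ℕ → Type) [iM1 : ∀ t, AddCommGroup (M t)] [iM2 : ∀ t, Module (R t) (M t)]
    (iM3 : ∀ t, Module.Finite (R t) (M t)) (iM4 : Nontrivial (M 0))
    (Old : ∀ t, Submodule (R (t + 1)) (M (t + 1))) (hOld : ∀ t, k ≤ t → Old t = ⊥)
    (ρR : ∀ t, GaloisRepAdic (R t)) (hρR : ∀ t, 𝒟₀ (ρR t))
    (hresR : ∀ t, (ρR t).residual.IsEquiv
      (ρbar.baseChangeAlong (ResidueField.map (algebraMap 𝒪 (R t)))))
    (ν : ∀ t, D0.R →ₐ[𝒪] R t) (hν : ∀ t g, ν t (s59i_cpTr D0.ρ g) = s59i_cpTr (ρR t) g)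
    (hνs : ∀ t, Function.Surjective (ν t)) (d : ℕ → ℕ) : s59f_TBaseF 𝒪 k D0 :=
  { R := R
    iR1 := iR1
    iR2 := iR2
    iR3 := iR3
    iR4 := iR4
    iR5 := iR5
    iR6 := iR6
    hRres := hRres
    M := M
    iM1 := iM1
    iM2 := iM2
    iM3 := iM3
    iM4 := iM4
    MQ := fun t => M (t + 1) ⧸ Old t
    iQ1 := fun t => Submodule.Quotient.addCommGroup (Old t)
    iQ2 := fun t => Submodule.Quotient.module (Old t)
    ρ := fun t => (Old t).mkQ
    hρ := fun t => Submodule.mkQ_surjective _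
    hρinj := fun t ht => by
      rw [← LinearMap.ker_eq_bot, Submodule.ker_mkQ]
      exact hOld t ht
    ρR := ρR
    hρR := hρR
    hresR := hresR
    ν := ν
    hν := hν
    hνs := hνs
    d := d }

end Fermat.Agent.Lib.S59
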