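/-
Programme R2 (S59), node [PATCH-FLR], `T`-side leaf (T1) (helper5, prefix `s59ej_`): **THE LEVELS `N_t Q_n`, `t ≤ k`, OVER ONE PAIR OF
RINGS `T′ ⊆ T`** (abstract half).

Input: a family `Lv t : s59e_TLevelL 𝒪 p n r σ (R t) (M t) (ρR t) (d t) qv DQ` of FIN-L level records (ELLvl.lean) over the SAME
universal ring `DQ`, ONE pair of rings `T′ → T` with `θ : DQ.R ↠ T′`, joint units `uu i ∈ Tˣ`, and `𝒪`-algebra surjections
`s t : T ↠ (Lv t).T` with `s t (uu i) = (Lv t).uu i` and `s t ∘ θ = (Lv t).θ` (on `T′`).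
(Two sources of such data: the product construction `T′ = im (DQ.R → ∏ T′_t)`, `T = T′[uu^{±1}] ⊆ ∏ T_t`, `s t = pr_t` — EJointProd.lean;
or `T = T_k` the top level and `s t` the old-form surjections.)

Output (the `T`-side inputs of helper4's `s59f_FLR_abs`, FAbsMain.lean, except the steps `hT`, `hkill`, `h0`):
* `s59ej_std`   : the common structure map `std : S → T⟦z⟧`, `std (C (X i)) = C (uu i − (uu i)⁻¹)`, `std (X j) = X j`;
* `s59ej_L0`    : the level `t` over `T⟦z⟧`: the SAME module `(Lv t).L0.N`, `x • y = (s t)⟦z⟧ x • y` (`s59i_restrict`);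
* `s59ej_hd`, `s59ej_hstd`, `s59ej_hψ𝒪`, `s59ej_hC8` (with the inertia elements `(Lv t).σQ i` of the level `t`), `s59ej_hτ`.
-/
import Mathlib
import Fermat.Agent.Lib.S59.ELLvl
import Fermat.Agent.Lib.S59.LInstR
import Fermat.Agent.Lib.S59.LInstT
import Fermat.Agent.Lib.S59.LFinT

set_option autoImplicit false
set_option linter.unusedSectionVars false
set_option linter.unusedVariables false
set_option linter.style.haveILetI false
set_option maxHeartbeats 1600000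
set_option synthInstance.maxHeartbeats 400000

noncomputable section

namespace Fermat.Agent.Lib.S59

open IsLocalRing MvPowerSeries

local notation "Γℚ" => (AlgebraicClosure ℚ ≃ₐ[ℚ] AlgebraicClosure ℚ)

/-! ### The common structure map -/

section Std

variable {𝒪 : Type} [CommRing 𝒪] {T : Type} [CommRing T] [IsLocalRing T]
  [IsAdicComplete (maximalIdeal T) T] [Algebra 𝒪 T] {r : ℕ}

omit [IsAdicComplete (maximalIdeal T) T] [Algebra 𝒪 T] in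
/-- `u − u⁻¹ ∈ 𝔪` for `u ≡ 1`. -/
theorem s59ej_sub_inv_mem (u : Tˣ) (hu : ((u : Tˣ) : T) - 1 ∈ maximalIdeal T) :
    ((u : Tˣ) : T) - ((u⁻¹ : Tˣ) : T) ∈ maximalIdeal T := by
  have e : ((u : Tˣ) : T) - ((u⁻¹ : Tˣ) : T) =
      (((u : Tˣ) : T) - 1) + ((u⁻¹ : Tˣ) : T) * (((u : Tˣ) : T) - 1) := by
    rw [mul_sub, Units.inv_mul, mul_one]
    ring
  rw [e]
  exact Ideal.add_mem _ hu (Ideal.mul_mem_left _ _ hu)

/-- the evaluation `𝒪⟦s_1..s_r⟧ → T`, `s_i ↦ u_i − u_i⁻¹`. -/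
def s59ej_ev (uu : Fin r → Tˣ) (huu : ∀ i, ((uu i : Tˣ) : T) - 1 ∈ maximalIdeal T) :
    MvPowerSeries (Fin r) 𝒪 →ₐ[𝒪] T :=
  Fermat.Agent.Lib.Deform.evalHom (R := 𝒪) (maximalIdeal T)
    (fun i => ((uu i : Tˣ) : T) - (((uu i)⁻¹ : Tˣ) : T)) (fun i => s59ej_sub_inv_mem _ (huu i))

theorem s59ej_ev_X (uu : Fin r → Tˣ) (huu : ∀ i, ((uu i : Tˣ) : T) - 1 ∈ maximalIdeal T)
    (i : Fin r) :
    s59ej_ev (𝒪 := 𝒪) uu huu (X i) = ((uu i : Tˣ) : T) - (((uu i)⁻¹ : Tˣ) : T) :=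
  Fermat.Agent.Lib.Deform.evalHom_X _ _ _ i

variable (σ : Type)

/-- **the common structure map** `std : 𝒪⟦s⟧⟦z⟧ → T⟦z⟧`. -/
def s59ej_std (uu : Fin r → Tˣ) (huu : ∀ i, ((uu i : Tˣ) : T) - 1 ∈ maximalIdeal T) :
    MvPowerSeries σ (MvPowerSeries (Fin r) 𝒪) →ₐ[𝒪] MvPowerSeries σ T :=
  MvPowerSeries.mapAlgHom (σ := σ) (s59ej_ev (𝒪 := 𝒪) uu huu)

theorem s59ej_std_CX (uu : Fin r → Tˣ) (huu : ∀ i, ((uu i : Tˣ) : T) - 1 ∈ maximalIdeal T)
    (i : Fin r) :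
    s59ej_std (𝒪 := 𝒪) σ uu huu (C (X i)) =
      C (((uu i : Tˣ) : T) - (((uu i)⁻¹ : Tˣ) : T)) := by
  show MvPowerSeries.map (s59ej_ev (𝒪 := 𝒪) uu huu : MvPowerSeries (Fin r) 𝒪 →+* T) (C (X i)) = _
  rw [MvPowerSeries.map_C]
  exact congrArg _ (s59ej_ev_X uu huu i)

theorem s59ej_std_X (uu : Fin r → Tˣ) (huu : ∀ i, ((uu i : Tˣ) : T) - 1 ∈ maximalIdeal T)
    (j : σ) :
    s59ej_std (𝒪 := 𝒪) σ uu huu (X j) = X j := by
  show MvPowerSeries.map (s59ej_ev (𝒪 := 𝒪) uu huu : MvPowerSeries (Fin r) 𝒪 →+* T) (X j) = _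
  rw [MvPowerSeries.map_X]

end Std

/-! ### Uniqueness of the structure map -/

section Uniq

variable {𝒪 : Type} [CommRing 𝒪] {U : Type} [CommRing U] [IsLocalRing U]
  [IsAdicComplete (maximalIdeal U) U] [Algebra 𝒪 U] {r : ℕ} {σ : Type} [Finite σ]

/-- two `𝒪`-algebra maps `𝒪⟦s⟧⟦z⟧ → U⟦z⟧` which agree on the variables `C (X i)` (sent to constants of `𝔪`) and `X j` (fixed) are
equal. -/
theorem s59ej_std_ext (f g : MvPowerSeries σ (MvPowerSeries (Fin r) 𝒪) →ₐ[𝒪] MvPowerSeries σ U)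
    (v : Fin r → U) (hv : ∀ i, v i ∈ maximalIdeal U)
    (hf1 : ∀ i, f (C (X i)) = C (v i)) (hg1 : ∀ i, g (C (X i)) = C (v i))
    (hf2 : ∀ j, f (X j) = X j) (hg2 : ∀ j, g (X j) = X j) (x) : f x = g x := by
  have h0 : ((f : MvPowerSeries σ (MvPowerSeries (Fin r) 𝒪) →+* MvPowerSeries σ U).comp
      (C (σ := σ) (R := MvPowerSeries (Fin r) 𝒪))) =
      ((g : MvPowerSeries σ (MvPowerSeries (Fin r) 𝒪) →+* MvPowerSeries σ U).comp
      (C (σ := σ) (R := MvPowerSeries (Fin r) 𝒪))) := by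
    refine s59i_ringHom_ext _ _ (fun o => ?_) (fun i => ?_) (fun i => ?_)
    · have e1 : (C (C o) : MvPowerSeries σ (MvPowerSeries (Fin r) 𝒪)) =
          algebraMap 𝒪 (MvPowerSeries σ (MvPowerSeries (Fin r) 𝒪)) o := by
        rw [MvPowerSeries.algebraMap_apply, MvPowerSeries.algebraMap_apply,
          Algebra.algebraMap_self, RingHom.id_apply]
      rw [RingHom.comp_apply, RingHom.comp_apply, e1]
      show f (algebraMap 𝒪 _ o) = g (algebraMap 𝒪 _ o)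
      rw [f.commutes, g.commutes]
    · rw [RingHom.comp_apply]
      show f (C (X i)) ∈ _
      rw [hf1]
      exact s59i_C_mem_maximalIdeal _ (hv i)
    · rw [RingHom.comp_apply, RingHom.comp_apply]
      show f (C (X i)) = g (C (X i))
      rw [hf1, hg1]
  have h1 : (f : MvPowerSeries σ (MvPowerSeries (Fin r) 𝒪) →+* MvPowerSeries σ U) =
      (g : MvPowerSeries σ (MvPowerSeries (Fin r) 𝒪) →+* MvPowerSeries σ U) := by
    refine s59i_ringHom_ext _ _ (fun a => ?_) (fun j => ?_) (fun j => ?_)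
    · exact congrArg (fun F : MvPowerSeries (Fin r) 𝒪 →+* MvPowerSeries σ U => F a) h0
    · show f (X j) ∈ _
      rw [hf2, mem_maximalIdeal, mem_nonunits_iff, MvPowerSeries.isUnit_iff_constantCoeff,
        MvPowerSeries.constantCoeff_X]
      exact not_isUnit_zero
    · show f (X j) = g (X j)
      rw [hf2, hg2]
  exact congrArg (fun F : MvPowerSeries σ (MvPowerSeries (Fin r) 𝒪) →+* MvPowerSeries σ U => F x) h1

end Uniq

/-! ### The joint levels -/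

section Joint

variable {𝒪 : Type} [CommRing 𝒪] [IsDomain 𝒪] [IsDiscreteValuationRing 𝒪]
  [IsAdicComplete (maximalIdeal 𝒪) 𝒪] {p n r : ℕ} {σ : Type} [DecidableEq σ] [Fintype σ]
  {R : Type} [CommRing R] [IsLocalRing R] [Algebra 𝒪 R] {M : Type} [AddCommGroup M] [Module R M]
  {ρR : GaloisRepAdic R} {d : ℕ} {qv : Fin r → ℕ}
  {ρbar : ResidualGaloisRep (ResidueField 𝒪)}
  {𝒟 : ∀ ⦃A : Type⦄ [CommRing A] [IsLocalRing A] [Algebra 𝒪 A], GaloisRepAdic A → Prop}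
  {DQ : GaloisRep.DeformationRingData 𝒪 ρbar 𝒟}
  (Lv : s59e_TLevelL 𝒪 p n r σ R M ρR d qv DQ)
  {T' : Type} [CommRing T'] [Algebra 𝒪 T']
  {T : Type} [CommRing T] [IsLocalRing T] [IsAdicComplete (maximalIdeal T) T] [Algebra 𝒪 T]
  [Algebra T' T]
  (θ : DQ.R →ₐ[𝒪] T') (uu : Fin r → Tˣ) (huu : ∀ i, ((uu i : Tˣ) : T) - 1 ∈ maximalIdeal T)
  (s : T →ₐ[𝒪] Lv.T) (hs : Function.Surjective s)
  (hsu : ∀ i, s ((uu i : Tˣ) : T) = ((Lv.uu i : Lv.Tˣ) : Lv.T))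
  (hsθ : ∀ x, s (algebraMap T' T (θ x)) = algebraMap Lv.T' Lv.T (Lv.θ x))

include hsu in
theorem s59ej_s_inv (i : Fin r) :
    s (((uu i)⁻¹ : Tˣ) : T) = (((Lv.uu i)⁻¹ : Lv.Tˣ) : Lv.T) := by
  have h1 : s ((uu i : Tˣ) : T) * s (((uu i)⁻¹ : Tˣ) : T) = 1 := by
    rw [← map_mul, Units.mul_inv, map_one]
  rw [hsu] at h1
  exact (Units.inv_eq_of_mul_eq_one_right h1).symm

include hsu in
/-- `(s)⟦z⟧ ∘ std = std_t`. -/
theorem s59ej_map_std (x : MvPowerSeries σ (MvPowerSeries (Fin r) 𝒪)) :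
    MvPowerSeries.map (s : T →+* Lv.T) (s59ej_std (𝒪 := 𝒪) σ uu huu x) = Lv.L0.φ x := by
  rw [Lv.hstd]
  have h := s59ej_std_ext
    ((MvPowerSeries.mapAlgHom (σ := σ) s).comp (s59ej_std (𝒪 := 𝒪) σ uu huu)) Lv.std
    (fun i => ((Lv.uu i : Lv.Tˣ) : Lv.T) - (((Lv.uu i)⁻¹ : Lv.Tˣ) : Lv.T))
    (fun i => s59ej_sub_inv_mem _ (Lv.huu i)) (fun i => ?_) Lv.hstdX (fun j => ?_) Lv.hstdz x
  · exact h
  · show MvPowerSeries.map (s : T →+* Lv.T) (s59ej_std (𝒪 := 𝒪) σ uu huu (C (X i))) = _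
    rw [s59ej_std_CX, MvPowerSeries.map_C]
    congr 1
    show s (((uu i : Tˣ) : T) - (((uu i)⁻¹ : Tˣ) : T)) = _
    rw [map_sub, hsu, s59ej_s_inv Lv uu s hsu]
  · show MvPowerSeries.map (s : T →+* Lv.T) (s59ej_std (𝒪 := 𝒪) σ uu huu (X j)) = _
    rw [s59ej_std_X, MvPowerSeries.map_X]

include hs in
theorem s59ej_psi_surj :
    Function.Surjective (Lv.L0.ψ.comp (MvPowerSeries.map (σ := σ) (s : T →+* Lv.T))) := by
  have h1 : Function.Surjective (MvPowerSeries.map (σ := σ) (s : T →+* Lv.T)) := by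
    intro y
    set y' : MvPowerSeries σ T := fun e => Function.surjInv hs (coeff e y) with hy'
    refine ⟨y', ?_⟩
    ext e
    rw [coeff_map]
    exact Function.surjInv_eq hs _
  exact Lv.L0.ψ_surjective.comp h1

/-- **the level `t` over the joint ring**: the same module, `x • y = (s)⟦z⟧ x • y`. -/
def s59ej_L0 :
    s59p_Level (MvPowerSeries σ (MvPowerSeries (Fin r) 𝒪)) (MvPowerSeries σ T) R M
      (s59t_frameA σ (RingHom.ker (constantCoeff (σ := Fin r) (R := 𝒪))))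
      (s59t_frameJ σ (s59t_JH 𝒪 p n r)) :=
  s59i_restrict Lv.L0 (MvPowerSeries.map (σ := σ) (s : T →+* Lv.T))
    (s59ej_std (𝒪 := 𝒪) σ uu huu : MvPowerSeries σ (MvPowerSeries (Fin r) 𝒪) →+* MvPowerSeries σ T)
    (fun x => s59ej_map_std Lv uu huu s hsu x) (s59ej_psi_surj Lv s hs)

theorem s59ej_hd : (s59ej_L0 Lv uu huu s hs hsu).d = d := Lv.hd

theorem s59ej_hstd (x : MvPowerSeries σ (MvPowerSeries (Fin r) 𝒪)) :
    (s59ej_L0 Lv uu huu s hs hsu).φ x = s59ej_std (𝒪 := 𝒪) σ uu huu x := rfl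

theorem s59ej_psi_apply (y : MvPowerSeries σ T) :
    (s59ej_L0 Lv uu huu s hs hsu).ψ y = Lv.L0.ψ (MvPowerSeries.map (s : T →+* Lv.T) y) := rfl

theorem s59ej_hψ𝒪 (o : 𝒪) :
    (s59ej_L0 Lv uu huu s hs hsu).ψ (algebraMap 𝒪 (MvPowerSeries σ T) o) = algebraMap 𝒪 R o := by
  rw [s59ej_psi_apply, ← Lv.hψ𝒪 o]
  congr 1
  rw [MvPowerSeries.algebraMap_apply, MvPowerSeries.algebraMap_apply, MvPowerSeries.map_C]
  congr 1
  exact s.commutes o

include hsθ in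
/-- [C8] on the level `t` over the joint ring, with the inertia elements of the level `t`. -/
theorem s59ej_hC8 (i : Fin r) :
    (C ((((uu i : Tˣ) : T) - (((uu i)⁻¹ : Tˣ) : T)) ^ 2 -
        algebraMap T' T (θ (s59i_cpTr DQ.ρ (Lv.σQ i) ^ 2 - 4))) : MvPowerSeries σ T) ∈
      Module.annihilator (MvPowerSeries σ T) (s59ej_L0 Lv uu huu s hs hsu).N := by
  refine s59i_restrict_ann Lv.L0 _ _ _ _ _ ?_
  rw [MvPowerSeries.map_C]
  have e : (s : T →+* Lv.T) ((((uu i : Tˣ) : T) - (((uu i)⁻¹ : Tˣ) : T)) ^ 2 -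
        algebraMap T' T (θ (s59i_cpTr DQ.ρ (Lv.σQ i) ^ 2 - 4))) =
      (((Lv.uu i : Lv.Tˣ) : Lv.T) - (((Lv.uu i)⁻¹ : Lv.Tˣ) : Lv.T)) ^ 2 -
        algebraMap Lv.T' Lv.T (Lv.θ (s59i_cpTr DQ.ρ (Lv.σQ i) ^ 2 - 4)) := by
    show s _ = _
    rw [map_sub, map_pow, map_sub, hsu, s59ej_s_inv Lv uu s hsu, hsθ]
  rw [e]
  exact Lv.hC8 i

include hsθ in
/-- the common trace function. -/
theorem s59ej_hτ (g : Γℚ) :
    (s59ej_L0 Lv uu huu s hs hsu).ψ (C (algebraMap T' T (θ (s59i_cpTr DQ.ρ g)))) =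
      s59i_cpTr ρR g := by
  rw [s59ej_psi_apply, MvPowerSeries.map_C, ← Lv.hτ g]
  congr 2
  exact hsθ _

/-- the action of the joint ring on the level module. -/
theorem s59ej_smul (x : MvPowerSeries σ T) (y : Lv.L0.N) :
    x • (id y : (s59ej_L0 Lv uu huu s hs hsu).N) =
      (id (MvPowerSeries.map (s : T →+* Lv.T) x • y) : (s59ej_L0 Lv uu huu s hs hsu).N) := rfl

theorem s59ej_π (y : Lv.L0.N) :
    (s59ej_L0 Lv uu huu s hs hsu).π (id y : (s59ej_L0 Lv uu huu s hs hsu).N) = Lv.L0.π y := rfl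

end Joint

end Fermat.Agent.Lib.S59
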