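/-
Programme R2 (S59), node [PATCH-FLR], `T`-side, **(T1) joint levels, part (E1)** (helper5, prefix `s59efl_`): **THE CHAIN OF LEVELS OVER THE JOINT
RING, ABSTRACT FORM** (one Taylor–Wiles level `n`).  Levels `Lv t : s59e_TLevelL …`, `t : Fin (k + 1)`, transfer maps
`σl i : (Lv i.succ).T →ₐ (Lv i.castSucc).T` (`i : Fin k`) compatible with the units `uu` and with `θ`.
* `s59efl_s t : T := (Lv (last k)).T →ₐ (Lv t).T` (reverse induction), surjective, compatible with `uu`, `θ`;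
* `s59efl_L0 t := s59ej_L0 (Lv t) … (s59efl_s t)` : the level `t` over the joint ring `T⟦z⟧`, with `_hd/_hstd/_hψ𝒪/_hC8/_hτ`;
* `s59efl_chain_step` : a step statement valid for every `s₂ : T ↠ (Lv i.succ).T` gives the step between `s59efl_L0 i.castSucc` and
  `s59efl_L0 i.succ`.
-/
import Mathlib
import Fermat.Agent.Lib.S59.EJoint
import Fermat.Agent.Lib.S59.FStepNew

set_option autoImplicit false
set_option linter.unusedSectionVars false
set_option linter.unusedVariables false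
set_option linter.style.haveILetI false
set_option maxHeartbeats 1600000

noncomputable section

namespace Fermat.Agent.Lib.S59

open IsLocalRing MvPowerSeries

local notation "Γℚ" => (AlgebraicClosure ℚ ≃ₐ[ℚ] AlgebraicClosure ℚ)

section Chain

variable {𝒪 : Type} [CommRing 𝒪] [IsDomain 𝒪] [IsDiscreteValuationRing 𝒪]
  [IsAdicComplete (maximalIdeal 𝒪) 𝒪] {p n r : ℕ} {σ : Type} [DecidableEq σ] [Fintype σ]
  {ρbar : ResidualGaloisRep (ResidueField 𝒪)}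
  {𝒟 : ∀ ⦃A : Type⦄ [CommRing A] [IsLocalRing A] [Algebra 𝒪 A], GaloisRepAdic A → Prop}
  {DQ : GaloisRep.DeformationRingData 𝒪 ρbar 𝒟} {qv : Fin r → ℕ}
  {k : ℕ}
  {R : Fin (k + 1) → Type} [∀ t, CommRing (R t)] [∀ t, IsLocalRing (R t)] [∀ t, Algebra 𝒪 (R t)]
  {M : Fin (k + 1) → Type} [∀ t, AddCommGroup (M t)] [∀ t, Module (R t) (M t)]
  {ρR : ∀ t, GaloisRepAdic (R t)} {d : Fin (k + 1) → ℕ}
  (Lv : ∀ t : Fin (k + 1), s59e_TLevelL 𝒪 p n r σ (R t) (M t) (ρR t) (d t) qv DQ)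
  (σl : ∀ i : Fin k, (Lv i.succ).T →ₐ[𝒪] (Lv i.castSucc).T)
  (hσs : ∀ i, Function.Surjective (σl i))
  (hσu : ∀ i j, σl i (((Lv i.succ).uu j : (Lv i.succ).Tˣ) : (Lv i.succ).T) =
    (((Lv i.castSucc).uu j : (Lv i.castSucc).Tˣ) : (Lv i.castSucc).T))
  (hσθ : ∀ i x, σl i (algebraMap (Lv i.succ).T' (Lv i.succ).T ((Lv i.succ).θ x)) =
    algebraMap (Lv i.castSucc).T' (Lv i.castSucc).T ((Lv i.castSucc).θ x))

/-- the chain map `s_t : T = T_k → T_t`. -/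
def s59efl_s (t : Fin (k + 1)) : (Lv (Fin.last k)).T →ₐ[𝒪] (Lv t).T :=
  Fin.reverseInduction (motive := fun t => (Lv (Fin.last k)).T →ₐ[𝒪] (Lv t).T)
    (AlgHom.id 𝒪 _) (fun i s' => (σl i).comp s') t

theorem s59efl_s_last : s59efl_s Lv σl (Fin.last k) = AlgHom.id 𝒪 _ :=
  Fin.reverseInduction_last

theorem s59efl_s_castSucc (i : Fin k) :
    s59efl_s Lv σl i.castSucc = (σl i).comp (s59efl_s Lv σl i.succ) :=
  Fin.reverseInduction_castSucc i

include hσs in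
theorem s59efl_s_surjective (t : Fin (k + 1)) : Function.Surjective (s59efl_s Lv σl t) := by
  induction t using Fin.reverseInduction with
  | last => rw [s59efl_s_last]; exact Function.surjective_id
  | cast i ih =>
    rw [s59efl_s_castSucc]
    exact (hσs i).comp ih

include hσu in
theorem s59efl_s_uu (t : Fin (k + 1)) (j : Fin r) :
    s59efl_s Lv σl t (((Lv (Fin.last k)).uu j : (Lv (Fin.last k)).Tˣ) : (Lv (Fin.last k)).T) =
      (((Lv t).uu j : (Lv t).Tˣ) : (Lv t).T) := by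
  induction t using Fin.reverseInduction with
  | last => rw [s59efl_s_last]; rfl
  | cast i ih =>
    rw [s59efl_s_castSucc, AlgHom.comp_apply, ih, hσu]

include hσθ in
theorem s59efl_s_theta (t : Fin (k + 1)) (x : DQ.R) :
    s59efl_s Lv σl t (algebraMap (Lv (Fin.last k)).T' (Lv (Fin.last k)).T
      ((Lv (Fin.last k)).θ x)) = algebraMap (Lv t).T' (Lv t).T ((Lv t).θ x) := by
  induction t using Fin.reverseInduction with
  | last => rw [s59efl_s_last]; rfl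
  | cast i ih =>
    rw [s59efl_s_castSucc, AlgHom.comp_apply, ih, hσθ]

/-- **the level `t` over the joint ring.** -/
def s59efl_L0 (t : Fin (k + 1)) :
    s59p_Level (MvPowerSeries σ (MvPowerSeries (Fin r) 𝒪))
      (MvPowerSeries σ (Lv (Fin.last k)).T) (R t) (M t)
      (s59t_frameA σ (RingHom.ker (constantCoeff (σ := Fin r) (R := 𝒪))))
      (s59t_frameJ σ (s59t_JH 𝒪 p n r)) :=
  s59ej_L0 (Lv t) (Lv (Fin.last k)).uu (Lv (Fin.last k)).huu (s59efl_s Lv σl t)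
    (s59efl_s_surjective Lv σl hσs t) (s59efl_s_uu Lv σl hσu t)

theorem s59efl_L0_hd (t : Fin (k + 1)) : (s59efl_L0 Lv σl hσs hσu t).d = d t := (Lv t).hd

theorem s59efl_L0_hstd (t : Fin (k + 1)) (x : MvPowerSeries σ (MvPowerSeries (Fin r) 𝒪)) :
    (s59efl_L0 Lv σl hσs hσu t).φ x =
      s59ej_std (𝒪 := 𝒪) σ (Lv (Fin.last k)).uu (Lv (Fin.last k)).huu x := rfl

theorem s59efl_L0_hψ𝒪 (t : Fin (k + 1)) (o : 𝒪) :
    (s59efl_L0 Lv σl hσs hσu t).ψ (algebraMap 𝒪 (MvPowerSeries σ (Lv (Fin.last k)).T) o) =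
      algebraMap 𝒪 (R t) o :=
  s59ej_hψ𝒪 (Lv t) _ _ _ _ _ o

include hσθ in
theorem s59efl_L0_hC8 (t : Fin (k + 1)) (i : Fin r) :
    (C (((((Lv (Fin.last k)).uu i : (Lv (Fin.last k)).Tˣ) : (Lv (Fin.last k)).T) -
        ((((Lv (Fin.last k)).uu i)⁻¹ : (Lv (Fin.last k)).Tˣ) : (Lv (Fin.last k)).T)) ^ 2 -
        algebraMap (Lv (Fin.last k)).T' (Lv (Fin.last k)).T
          ((Lv (Fin.last k)).θ (s59i_cpTr DQ.ρ ((Lv t).σQ i) ^ 2 - 4))) :
        MvPowerSeries σ (Lv (Fin.last k)).T) ∈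
      Module.annihilator (MvPowerSeries σ (Lv (Fin.last k)).T)
        (s59efl_L0 Lv σl hσs hσu t).N :=
  s59ej_hC8 (Lv t) (Lv (Fin.last k)).θ (Lv (Fin.last k)).uu (Lv (Fin.last k)).huu
    (s59efl_s Lv σl t) (s59efl_s_surjective Lv σl hσs t) (s59efl_s_uu Lv σl hσu t)
    (s59efl_s_theta Lv σl hσθ t) i

include hσθ in
theorem s59efl_L0_hτ (t : Fin (k + 1)) (g : Γℚ) :
    (s59efl_L0 Lv σl hσs hσu t).ψ (C (algebraMap (Lv (Fin.last k)).T' (Lv (Fin.last k)).T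
      ((Lv (Fin.last k)).θ (s59i_cpTr DQ.ρ g)))) = s59i_cpTr (ρR t) g :=
  s59ej_hτ (Lv t) (Lv (Fin.last k)).θ (Lv (Fin.last k)).uu (Lv (Fin.last k)).huu
    (s59efl_s Lv σl t) (s59efl_s_surjective Lv σl hσs t) (s59efl_s_uu Lv σl hσu t)
    (s59efl_s_theta Lv σl hσθ t) g

include hσθ in
/-- **the steps of the chain.** -/
theorem s59efl_chain_step (i : Fin k)
    (g11 g12 g21 g22 : MvPowerSeries σ (Lv (Fin.last k)).T)
    {MQ : Type} [AddCommGroup MQ] [Module (R i.succ) MQ] (ρ : M i.succ →ₗ[R i.succ] MQ)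
    (𝔫U : Ideal (MvPowerSeries σ (Lv (Fin.last k)).T))
    (hstep : ∀ (s₂ : (Lv (Fin.last k)).T →ₐ[𝒪] (Lv i.succ).T) (hs₂ : Function.Surjective s₂)
      (hsu₂ : ∀ j, s₂ (((Lv (Fin.last k)).uu j : (Lv (Fin.last k)).Tˣ) : (Lv (Fin.last k)).T) =
        (((Lv i.succ).uu j : (Lv i.succ).Tˣ) : (Lv i.succ).T))
      (hsθ₂ : ∀ x, s₂ (algebraMap (Lv (Fin.last k)).T' (Lv (Fin.last k)).T
        ((Lv (Fin.last k)).θ x)) = algebraMap (Lv i.succ).T' (Lv i.succ).T ((Lv i.succ).θ x))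
      (hs₁ : Function.Surjective ((σl i).comp s₂))
      (hsu₁ : ∀ j, ((σl i).comp s₂)
        (((Lv (Fin.last k)).uu j : (Lv (Fin.last k)).Tˣ) : (Lv (Fin.last k)).T) =
        (((Lv i.castSucc).uu j : (Lv i.castSucc).Tˣ) : (Lv i.castSucc).T)),
      s59f_TStep
        (s59ej_L0 (Lv i.castSucc) (Lv (Fin.last k)).uu (Lv (Fin.last k)).huu ((σl i).comp s₂)
          hs₁ hsu₁)
        (s59ej_L0 (Lv i.succ) (Lv (Fin.last k)).uu (Lv (Fin.last k)).huu s₂ hs₂ hsu₂)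
        g11 g12 g21 g22 ρ 𝔫U) :
    s59f_TStep (s59efl_L0 Lv σl hσs hσu i.castSucc) (s59efl_L0 Lv σl hσs hσu i.succ)
      g11 g12 g21 g22 ρ 𝔫U := by
  have key : ∀ (s' : (Lv (Fin.last k)).T →ₐ[𝒪] (Lv i.castSucc).T)
      (h : s' = (σl i).comp (s59efl_s Lv σl i.succ)) (hs' : Function.Surjective s')
      (hsu' : ∀ j, s' (((Lv (Fin.last k)).uu j : (Lv (Fin.last k)).Tˣ) : (Lv (Fin.last k)).T) =
        (((Lv i.castSucc).uu j : (Lv i.castSucc).Tˣ) : (Lv i.castSucc).T)),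
      s59f_TStep
        (s59ej_L0 (Lv i.castSucc) (Lv (Fin.last k)).uu (Lv (Fin.last k)).huu s' hs' hsu')
        (s59efl_L0 Lv σl hσs hσu i.succ) g11 g12 g21 g22 ρ 𝔫U := by
    intro s' h
    subst h
    intro hs' hsu'
    exact hstep (s59efl_s Lv σl i.succ) (s59efl_s_surjective Lv σl hσs i.succ)
      (s59efl_s_uu Lv σl hσu i.succ) (s59efl_s_theta Lv σl hσθ i.succ) hs' hsu'
  exact key _ (s59efl_s_castSucc Lv σl i) _ _

end Chain

end Fermat.Agent.Lib.S59
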