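/-
Programme R2 (S59), node [PATCH-FLR], `T`-side, **(T1) joint levels, part (E7)** (helper5, prefix `s59efl_`): **THE ABSTRACT
ASSEMBLY OF helper4's `T`-SIDE CONTRACT `s59f_TLevelF`** from levels `Lv t : s59e_TLevelL … (Bs.R t) (Bs.M t) …` (`t : ℕ`)
over a base contract `Bs : s59f_TBaseF`, transfer maps `σl t : (Lv (t+1)).T → (Lv t).T` (`t < k`), frozen levels
`su t : (Lv k).T → (Lv t).T` (`k ≤ t`), the steps over the joint ring (in the output shape of `s59efl_step_joint`), the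
reducedness/torsion-freeness of the top trace ring and the unramifiedness of the level `0` at the raising primes.
* `s59efl_sF` : the chain maps `(Lv k).T → (Lv t).T`, all `t`;
* `s59efl_asm` : `Nonempty (s59f_TLevelF …)`.
-/
import Mathlib
import Fermat.Agent.Lib.S59.EFlrChain
import Fermat.Agent.Lib.S59.FAsmPkg

set_option autoImplicit false
set_option linter.unusedSectionVars false
set_option linter.unusedVariables false
set_option linter.style.haveILetI false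
set_option maxHeartbeats 1600000

noncomputable section

namespace Fermat.Agent.Lib.S59

open IsLocalRing MvPowerSeries

local notation "Γℚ" => (AlgebraicClosure ℚ ≃ₐ[ℚ] AlgebraicClosure ℚ)

section LocT

/-- a finite extension of local rings is local. -/
theorem s59efl_hlocT (T' T : Type) [CommRing T'] [IsLocalRing T'] [CommRing T] [IsLocalRing T]
    [Algebra T' T] [Module.Finite T' T] :
    ∀ a ∈ maximalIdeal T', algebraMap T' T a ∈ maximalIdeal T := by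
  haveI : Algebra.IsIntegral T' T := Algebra.IsIntegral.of_finite T' T
  have hmax : ((maximalIdeal T).comap (algebraMap T' T)).IsMaximal :=
    Ideal.isMaximal_comap_of_isIntegral_of_isMaximal (maximalIdeal T)
  have heq : (maximalIdeal T).comap (algebraMap T' T) = maximalIdeal T' :=
    IsLocalRing.eq_maximalIdeal hmax
  intro a ha
  rw [← heq, Ideal.mem_comap] at ha
  exact ha

end LocT

section Asm

variable {𝒪 : Type} [CommRing 𝒪] [IsDomain 𝒪] [IsDiscreteValuationRing 𝒪]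
  [IsAdicComplete (maximalIdeal 𝒪) 𝒪] {p n r : ℕ} {σ : Type} [DecidableEq σ] [Fintype σ]
  {ρbar : ResidualGaloisRep (ResidueField 𝒪)}
  {𝒟₀ : ∀ ⦃A : Type⦄ [CommRing A] [IsLocalRing A] [Algebra 𝒪 A], GaloisRepAdic A → Prop}
  {D0 : GaloisRep.DeformationRingData 𝒪 ρbar 𝒟₀} {k : ℕ} (Bs : s59f_TBaseF 𝒪 k D0)
  {qv : Fin r → ℕ}
  {𝒟 : ∀ ⦃A : Type⦄ [CommRing A] [IsLocalRing A] [Algebra 𝒪 A], GaloisRepAdic A → Prop}
  {DQ : GaloisRep.DeformationRingData 𝒪 ρbar 𝒟}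
  (Lv : ∀ t, s59e_TLevelL 𝒪 p n r σ (Bs.R t) (Bs.M t) (Bs.ρR t) (Bs.d t) qv DQ)
  (σl : ∀ t, t < k → ((Lv (t + 1)).T →ₐ[𝒪] (Lv t).T))
  (hσs : ∀ t ht, Function.Surjective (σl t ht))
  (hσu : ∀ t ht j, σl t ht (((Lv (t + 1)).uu j : (Lv (t + 1)).Tˣ) : (Lv (t + 1)).T) =
    (((Lv t).uu j : (Lv t).Tˣ) : (Lv t).T))
  (hσθ : ∀ t ht x, σl t ht (algebraMap (Lv (t + 1)).T' (Lv (t + 1)).T ((Lv (t + 1)).θ x)) =
    algebraMap (Lv t).T' (Lv t).T ((Lv t).θ x))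
  (su : ∀ t, k ≤ t → ((Lv k).T →ₐ[𝒪] (Lv t).T))
  (hsus : ∀ t ht, Function.Surjective (su t ht))
  (hsuu : ∀ t ht j, su t ht (((Lv k).uu j : (Lv k).Tˣ) : (Lv k).T) =
    (((Lv t).uu j : (Lv t).Tˣ) : (Lv t).T))
  (hsuθ : ∀ t ht x, su t ht (algebraMap (Lv k).T' (Lv k).T ((Lv k).θ x)) =
    algebraMap (Lv t).T' (Lv t).T ((Lv t).θ x))

/-- the chain maps `(Lv k).T → (Lv t).T`. -/
def s59efl_sF (t : ℕ) : (Lv k).T →ₐ[𝒪] (Lv t).T :=
  if h : t ≤ k then
    s59efl_s (R := fun i : Fin (k + 1) => Bs.R i) (M := fun i : Fin (k + 1) => Bs.M i)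
      (ρR := fun i : Fin (k + 1) => Bs.ρR i) (d := fun i : Fin (k + 1) => Bs.d i)
      (fun i : Fin (k + 1) => Lv i) (fun i : Fin k => σl i i.isLt) ⟨t, Nat.lt_succ_of_le h⟩
  else su t (le_of_not_ge h)

include hσs hsus in
theorem s59efl_sF_surjective (t : ℕ) : Function.Surjective (s59efl_sF Bs Lv σl su t) := by
  unfold s59efl_sF
  split_ifs with h
  · exact s59efl_s_surjective (R := fun i : Fin (k + 1) => Bs.R i)
      (M := fun i : Fin (k + 1) => Bs.M i)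
      (ρR := fun i : Fin (k + 1) => Bs.ρR i) (d := fun i : Fin (k + 1) => Bs.d i)
      (fun i : Fin (k + 1) => Lv i) (fun i : Fin k => σl i i.isLt)
      (fun i => hσs i i.isLt) ⟨t, Nat.lt_succ_of_le h⟩
  · exact hsus t _

include hσu hsuu in
theorem s59efl_sF_uu (t : ℕ) (j : Fin r) :
    s59efl_sF Bs Lv σl su t (((Lv k).uu j : (Lv k).Tˣ) : (Lv k).T) =
      (((Lv t).uu j : (Lv t).Tˣ) : (Lv t).T) := by
  unfold s59efl_sF
  split_ifs with h
  · exact s59efl_s_uu (R := fun i : Fin (k + 1) => Bs.R i)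
      (M := fun i : Fin (k + 1) => Bs.M i)
      (ρR := fun i : Fin (k + 1) => Bs.ρR i) (d := fun i : Fin (k + 1) => Bs.d i)
      (fun i : Fin (k + 1) => Lv i) (fun i : Fin k => σl i i.isLt)
      (fun i j => hσu i i.isLt j) ⟨t, Nat.lt_succ_of_le h⟩ j
  · exact hsuu t _ j

include hσθ hsuθ in
theorem s59efl_sF_theta (t : ℕ) (x : DQ.R) :
    s59efl_sF Bs Lv σl su t (algebraMap (Lv k).T' (Lv k).T ((Lv k).θ x)) =
      algebraMap (Lv t).T' (Lv t).T ((Lv t).θ x) := by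
  unfold s59efl_sF
  split_ifs with h
  · exact s59efl_s_theta (R := fun i : Fin (k + 1) => Bs.R i)
      (M := fun i : Fin (k + 1) => Bs.M i)
      (ρR := fun i : Fin (k + 1) => Bs.ρR i) (d := fun i : Fin (k + 1) => Bs.d i)
      (fun i : Fin (k + 1) => Lv i) (fun i : Fin k => σl i i.isLt)
      (fun i x => hσθ i i.isLt x) ⟨t, Nat.lt_succ_of_le h⟩ x
  · exact hsuθ t _ x

theorem s59efl_sF_step (t : ℕ) (ht : t < k) :
    s59efl_sF Bs Lv σl su t = (σl t ht).comp (s59efl_sF Bs Lv σl su (t + 1)) := by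
  unfold s59efl_sF
  rw [dif_pos (le_of_lt ht), dif_pos (Nat.succ_le_of_lt ht)]
  exact s59efl_s_castSucc (R := fun i : Fin (k + 1) => Bs.R i)
      (M := fun i : Fin (k + 1) => Bs.M i)
      (ρR := fun i : Fin (k + 1) => Bs.ρR i) (d := fun i : Fin (k + 1) => Bs.d i)
      (fun i : Fin (k + 1) => Lv i) (fun i : Fin k => σl i i.isLt) ⟨t, ht⟩

include hσs hσu hσθ hsus hsuu hsuθ in
/-- **the assembly of the `T`-side contract at one Taylor–Wiles level.** -/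
theorem s59efl_asm (qr : ℕ → ℕ) (φr σr : ℕ → Γℚ)
    [IsReduced (Lv k).T']
    (htf : ∀ o : 𝒪, o ≠ 0 → ∀ x : (Lv k).T', algebraMap 𝒪 (Lv k).T' o * x = 0 → x = 0)
    (hstep : ∀ (t : ℕ) (ht : t < k) (s₂ : (Lv k).T →ₐ[𝒪] (Lv (t + 1)).T)
      (hs₂ : Function.Surjective s₂)
      (hsu₂ : ∀ j, s₂ (((Lv k).uu j : (Lv k).Tˣ) : (Lv k).T) =
        (((Lv (t + 1)).uu j : (Lv (t + 1)).Tˣ) : (Lv (t + 1)).T))
      (hsθ₂ : ∀ x, s₂ (algebraMap (Lv k).T' (Lv k).T ((Lv k).θ x)) =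
        algebraMap (Lv (t + 1)).T' (Lv (t + 1)).T ((Lv (t + 1)).θ x))
      (hs₁ : Function.Surjective ((σl t ht).comp s₂))
      (hsu₁ : ∀ j, ((σl t ht).comp s₂) (((Lv k).uu j : (Lv k).Tˣ) : (Lv k).T) =
        (((Lv t).uu j : (Lv t).Tˣ) : (Lv t).T)),
      s59f_TStep
        (s59ej_L0 (Lv t) (Lv k).uu (Lv k).huu ((σl t ht).comp s₂) hs₁ hsu₁)
        (s59ej_L0 (Lv (t + 1)) (Lv k).uu (Lv k).huu s₂ hs₂ hsu₂)
        (C ((qr t : ℕ) : (Lv k).T) + 1 : MvPowerSeries σ (Lv k).T)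
        (C (algebraMap (Lv k).T' (Lv k).T ((Lv k).θ (s59i_cpTr DQ.ρ (φr t)))))
        (C (algebraMap (Lv k).T' (Lv k).T ((Lv k).θ (s59i_cpTr DQ.ρ (φr t)))))
        (C ((qr t : ℕ) : (Lv k).T) + 1 : MvPowerSeries σ (Lv k).T)
        (Bs.ρ t)
        (Ideal.span {(((C ((qr t : ℕ) : (Lv k).T) + 1 : MvPowerSeries σ (Lv k).T)) ^ 2 -
          (C (algebraMap (Lv k).T' (Lv k).T ((Lv k).θ (s59i_cpTr DQ.ρ (φr t)))) :
            MvPowerSeries σ (Lv k).T) ^ 2) ^ 2}))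
    (hunr : ∀ l, l < k → ∀ (f : Module.Dual DQ.R DQ.ρ.V) (v : DQ.ρ.V),
      (Lv 0).θ (f (DQ.ρ.ρ (σr l) v - v)) = 0) :
    Nonempty (s59f_TLevelF 𝒪 p n r σ k Bs qv qr φr σr DQ) := by
  classical
  refine ⟨{
    T' := (Lv k).T'
    htf := htf
    T := (Lv k).T
    hlocT := s59efl_hlocT (Lv k).T' (Lv k).T
    θ := (Lv k).θ
    hθ := (Lv k).hθ
    L0 := fun t => s59ej_L0 (Lv t) (Lv k).uu (Lv k).huu (s59efl_sF Bs Lv σl su t)
      (s59efl_sF_surjective Bs Lv σl hσs su hsus t) (s59efl_sF_uu Bs Lv σl hσu su hsuu t)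
    hd := fun t => (Lv t).hd
    std := s59ej_std (𝒪 := 𝒪) σ (Lv k).uu (Lv k).huu
    hstd := fun t x => rfl
    hψ𝒪 := fun t o => s59ej_hψ𝒪 (Lv t) _ _ _ _ _ o
    uu := (Lv k).uu
    huu := (Lv k).huu
    hgen := (Lv k).hgen
    hstdX := fun i => s59ej_std_CX σ (Lv k).uu (Lv k).huu i
    hstdz := fun j => s59ej_std_X σ (Lv k).uu (Lv k).huu j
    σQ := fun t => (Lv t).σQ
    hσQ := fun t => (Lv t).hσQ
    hC8 := fun t _ i => s59ej_hC8 (Lv t) (Lv k).θ (Lv k).uu (Lv k).huu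
      (s59efl_sF Bs Lv σl su t) (s59efl_sF_surjective Bs Lv σl hσs su hsus t)
      (s59efl_sF_uu Bs Lv σl hσu su hsuu t) (s59efl_sF_theta Bs Lv σl hσθ su hsuθ t) i
    hτ := fun t g => s59ej_hτ (Lv t) (Lv k).θ (Lv k).uu (Lv k).huu
      (s59efl_sF Bs Lv σl su t) (s59efl_sF_surjective Bs Lv σl hσs su hsus t)
      (s59efl_sF_uu Bs Lv σl hσu su hsuu t) (s59efl_sF_theta Bs Lv σl hσθ su hsuθ t) g
    hT := ?_
    hunr0 := ?_ }⟩
  · -- the steps
    intro t ht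
    have key : ∀ (s' : (Lv k).T →ₐ[𝒪] (Lv t).T)
        (h : s' = (σl t ht).comp (s59efl_sF Bs Lv σl su (t + 1))) (hs' : Function.Surjective s')
        (hsu' : ∀ j, s' (((Lv k).uu j : (Lv k).Tˣ) : (Lv k).T) =
          (((Lv t).uu j : (Lv t).Tˣ) : (Lv t).T)),
        s59f_TStep
          (s59ej_L0 (Lv t) (Lv k).uu (Lv k).huu s' hs' hsu')
          (s59ej_L0 (Lv (t + 1)) (Lv k).uu (Lv k).huu (s59efl_sF Bs Lv σl su (t + 1))
            (s59efl_sF_surjective Bs Lv σl hσs su hsus (t + 1))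
            (s59efl_sF_uu Bs Lv σl hσu su hsuu (t + 1)))
          (C ((qr t : ℕ) : (Lv k).T) + 1 : MvPowerSeries σ (Lv k).T)
          (C (algebraMap (Lv k).T' (Lv k).T ((Lv k).θ (s59i_cpTr DQ.ρ (φr t)))))
          (C (algebraMap (Lv k).T' (Lv k).T ((Lv k).θ (s59i_cpTr DQ.ρ (φr t)))))
          (C ((qr t : ℕ) : (Lv k).T) + 1 : MvPowerSeries σ (Lv k).T)
          (Bs.ρ t)
          (Ideal.span {(((C ((qr t : ℕ) : (Lv k).T) + 1 : MvPowerSeries σ (Lv k).T)) ^ 2 -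
            (C (algebraMap (Lv k).T' (Lv k).T ((Lv k).θ (s59i_cpTr DQ.ρ (φr t)))) :
              MvPowerSeries σ (Lv k).T) ^ 2) ^ 2}) := by
      intro s' h
      subst h
      intro hs' hsu'
      exact hstep t ht (s59efl_sF Bs Lv σl su (t + 1))
        (s59efl_sF_surjective Bs Lv σl hσs su hsus (t + 1))
        (s59efl_sF_uu Bs Lv σl hσu su hsuu (t + 1))
        (s59efl_sF_theta Bs Lv σl hσθ su hsuθ (t + 1)) hs' hsu'
    exact key _ (s59efl_sF_step Bs Lv σl su t ht) _ _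
  · -- the level `0` is unramified at the raising primes
    intro l hl f v
    refine s59i_restrict_ann (Lv 0).L0 _ _ _ _ _ ?_
    rw [MvPowerSeries.map_C]
    have e : (s59efl_sF Bs Lv σl su 0 : (Lv k).T →+* (Lv 0).T)
        (algebraMap (Lv k).T' (Lv k).T ((Lv k).θ (f (DQ.ρ.ρ (σr l) v - v)))) = 0 := by
      show s59efl_sF Bs Lv σl su 0 _ = 0
      rw [s59efl_sF_theta Bs Lv σl hσθ su hsuθ 0, hunr l hl f v, map_zero]
    rw [e, map_zero]
    exact Submodule.zero_mem _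

end Asm

end Fermat.Agent.Lib.S59
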