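/-
Programme R2 (S59), p = 3 port of the `T`-side (helper5), file 7: **elementary bookkeeping for the port `5 ≤ p` ⟶ `p ≠ 2` + EVEN LEVEL**
(prefix `s59e3_`).

* `s59e3_auxTors_even`       : `p` an odd prime, `2 ∣ N` ⟹ the torsion hypothesis `s59e_auxTors p N` (EAuxPF; at `p = 3` the auxiliary
                               prime `r ≡ 2 (mod 3)` is `r = 2` itself);
* `s59e3_five_le_of_pow_dvd` : a Taylor–Wiles prime `q ≡ 1 (mod p^{n+1})`, `p` odd, is `≥ 5` (the `p ≥ 3` form of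
                               `s59m_five_le_of_pow_dvd`);
* `s59e3_two_dvd_left`       : `2 ∣ M₁ q₀`, `q₀ ≥ 5` prime ⟹ `2 ∣ M₁`.
-/
import Mathlib
import Fermat.Agent.Lib.S59.EAuxPF

set_option autoImplicit false

namespace Fermat.Agent.Lib.S59

theorem s59e3_auxTors_even {p N : ℕ} (hp : p.Prime) (hp2 : p ≠ 2) (h2N : 2 ∣ N) : s59e_auxTors p N := by
  by_cases h3 : p = 3
  · exact Or.inr ⟨h3, 2, Nat.prime_two, by norm_num, h2N⟩
  · have h5 : 5 ≤ p := by
      have h2 := hp.two_le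
      by_contra hlt
      have h4 : p = 4 := by omega
      rw [h4] at hp
      exact absurd hp (by norm_num)
    exact s59e_auxTors_of_five_le hp h5 N

theorem s59e3_five_le_of_pow_dvd {p n q : ℕ} (hp : p.Prime) (hp2 : p ≠ 2) (hq : q.Prime)
    (h : p ^ (n + 1) ∣ q - 1) : 5 ≤ q := by
  have h1 : 0 < q - 1 := by have := hq.two_le; omega
  have h2 : p ^ (n + 1) ≤ q - 1 := Nat.le_of_dvd h1 h
  have h3 : p ≤ p ^ (n + 1) := Nat.le_self_pow (Nat.succ_ne_zero n) p
  have h4 : 3 ≤ p := by have := hp.two_le; omega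
  by_contra hlt
  have h5 : q = 4 := by omega
  rw [h5] at hq
  exact absurd hq (by norm_num)

theorem s59e3_two_dvd_left {M₁ q₀ : ℕ} (hq₀ : q₀.Prime) (h5 : 5 ≤ q₀) (h : 2 ∣ M₁ * q₀) : 2 ∣ M₁ := by
  rcases (Nat.Prime.dvd_mul Nat.prime_two).mp h with h | h
  · exact h
  · exfalso
    have := (Nat.prime_dvd_prime_iff_eq Nat.prime_two hq₀).mp h
    omega

end Fermat.Agent.Lib.S59
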