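/-
Programme R2 (S59), node [FLR], `T`-side, **(T1) joint levels, concrete half (C-base)** (helper5, prefix `s59efl_`):
**the base part of the `T`-side package over an ABSTRACT idempotent `ε` of `H_par(Γ₀(N), 𝒪)`**, for the data
`Rd : s59i_RData p Nmin …` at a level `N` with raised primes `Rs` (`q ∣ N → q ∣ Nmin ∨ E2Alt q ∨ q ∈ Rs`), and a universal ring
`D0` of the flat type `Σ₀ = Rd.Smin ∪ (Bd ∪ Rd.Ed) ∪ Rs` (unipotent at `Rd.Smin`).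
* `s59efl_base_B2`    : (B2) at `(N, ⊤)`, `Q = ∅` (`s59efl_H3_RData`);
* `s59efl_base_facts` : from the components of (B2): `hRρ`, `M = eig_{⊤,1}(ε H_par)` finite and nontrivial, `ρR = D0.ρ ⊗_{θ₀} R`
  with its Frobenius polynomials, `hresR`, its type, `hgenR`, `hRres` (the fields of `s59e_TBaseL`).
-/
import Mathlib
import Fermat.Agent.Lib.S59.ELPkg
import Fermat.Agent.Lib.S59.EFlrA

set_option autoImplicit false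
set_option linter.unusedSectionVars false
set_option linter.unusedVariables false
set_option linter.style.haveILetI false
set_option maxHeartbeats 0
set_option synthInstance.maxHeartbeats 400000
set_option maxSynthPendingDepth 3

noncomputable section

namespace Fermat.Agent.Lib.S59

open IsLocalRing CuspForm Polynomial ExtCitation CongruenceSubgroup
open WeierstrassCurve WeierstrassCurve.Affine WeierstrassCurve.Affine.Point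
open Fermat.Agent.Lib.S48 Fermat.Agent.Lib.S44
open scoped MatrixGroups

local notation "Γℚ" => (AlgebraicClosure ℚ ≃ₐ[ℚ] AlgebraicClosure ℚ)

/-- **(B2) at the base level `(N, ⊤)`, abstract idempotent, data `Rd` with raised primes.** -/
theorem s59efl_base_B2 (p : ℕ) [Fact p.Prime] (hp2 : p ≠ 2) (W : WeierstrassCurve ℤ) (hΔ : W.Δ ≠ 0)
    (Nmin N : ℕ) [NeZero N] (Bd B : Finset ℕ)
    (hirr : W.ModRepIsIrreducible p) (hsq : Squarefree N) (hpN : ¬ p ∣ N)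
    (hB1 : ∀ r : ℕ, r.Prime → r ∣ N * p → r ∈ B)
    (hB2 : ∀ r : ℕ, r.Prime → ¬ W.IsGoodPrimeFor r → r ∈ B)
    (𝒪 : Type) [CommRing 𝒪] [IsDomain 𝒪] [IsDiscreteValuationRing 𝒪]
    [IsAdicComplete (maximalIdeal 𝒪) 𝒪] [Finite (ResidueField 𝒪)] [CharZero 𝒪]
    [Algebra ℤ_[p] 𝒪] [Module.Finite ℤ_[p] 𝒪]
    (hp𝒪 : ((p : ℕ) : 𝒪) ∈ maximalIdeal 𝒪)
    (Rd : s59i_RData p Nmin (s59i_rhobarW W p hΔ 𝒪 hp𝒪) B Bd)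
    (Rs : Finset ℕ) (hRs : ∀ q ∈ Rs, q.Prime)
    (hNRs : ∀ q : ℕ, q.Prime → q ∣ N →
      q ∣ Nmin ∨ s59e3q_E2Alt p (s59i_rhobarW W p hΔ 𝒪 hp𝒪) q ∨ q ∈ Rs)
    (D0 : GaloisRep.DeformationRingData 𝒪 (s59i_rhobarW W p hΔ 𝒪 hp𝒪) (fun _A _ _ _ ρ =>
      GaloisRep.flatCondition 𝒪 p (Rd.Smin ∪ (Bd ∪ Rd.Ed) ∪ Rs) ρ ∧
        ∀ q ∈ Rd.Smin, q.Prime → q ≠ p → ρ.IsUnipotentOnInertiaAt q))
    (ε : Module.End 𝒪 (s48h_Hpar 𝒪 (s48h_GammaH N (⊤ : Subgroup (ZMod N)ˣ)) 𝒪))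
    (hid : ε * ε = ε) (hne : ε ≠ 0)
    (hεc : ∀ jdx : s59w_AIdx N, ε * s59w_op (⊤ : Subgroup (ZMod N)ˣ) 𝒪 jdx =
      s59w_op (⊤ : Subgroup (ZMod N)ˣ) 𝒪 jdx * ε)
    (hnil : ∀ x ∈ s59t_goodB N B, ∃ k : ℕ,
      ∀ y : s48h_Hpar 𝒪 (s48h_GammaH N (⊤ : Subgroup (ZMod N)ˣ)) 𝒪,
      ((s59w_op (⊤ : Subgroup (ZMod N)ˣ) 𝒪 x - s59t_cB (𝒪 := 𝒪) N (fun ℓ => W.apOfModel ℓ) x •
        (1 : Module.End 𝒪 (s48h_Hpar 𝒪 (s48h_GammaH N (⊤ : Subgroup (ZMod N)ˣ)) 𝒪))) ^ k)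
        (ε y) ∈ (maximalIdeal 𝒪 • ⊤ :
          Submodule 𝒪 (s48h_Hpar 𝒪 (s48h_GammaH N (⊤ : Subgroup (ZMod N)ˣ)) 𝒪))) :
    s59e_B2Concl (⊤ : Subgroup (ZMod N)ˣ) ε N B ((p ^ 0 - 1) * ((p ^ 0 + 1) / 2))
      (fun ℓ => ((W.apOfModel ℓ : ℤ) : 𝒪)) D0 := by
  classical
  have hpP : p.Prime := Fact.out
  have hNB : ∀ q : ℕ, q.Prime → q ∣ N → q ∈ B := fun q hq h => hB1 q hq (Dvd.dvd.mul_right h p)
  have hpB : p ∈ B := hB1 p hpP (Dvd.intro_left N rfl)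
  have hEigB : ∀ ℓ : ℕ, ℓ.Prime → ℓ ∉ B →
      ∀ A : ValuationSubring (AlgebraicClosure ℚ), A.LiesOverPrime ℓ →
      ∀ σ : Γℚ, A.IsFrobeniusAt σ ℓ →
        LinearMap.charpoly ((s59i_rhobarW W p hΔ 𝒪 hp𝒪).ρ σ) =
          X ^ 2 - C (residue 𝒪 ((W.apOfModel ℓ : ℤ) : 𝒪)) * X +
            C ((ℓ : ResidueField 𝒪)) := fun ℓ hℓ hℓS A hA σ hσ =>
    s59e_rhobarW_charpoly_frob hΔ hp2 hirr hp𝒪 B hpB hB2 ℓ hℓ hℓS A hA σ hσ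
  haveI : Fact (HasIntegralStructure N 2) := ⟨Fermat.Agent.S23.result N⟩
  haveI hYnt : Nontrivial (LinearMap.range ε) := s59e_L_range_nontrivial _ hne
  have hH3₀ := s59efl_H3_RData Rd (fun ℓ => W.apOfModel ℓ) hp2 hp𝒪 N (∅ : Finset ℕ)
    (⊤ : Subgroup (ZMod N)ˣ) N B hpB (Finset.Subset.refl B) hpN
    (fun q hq => absurd hq (Finset.notMem_empty q))
    (by rw [Finset.prod_empty, mul_one]) (D := 1) (by rw [Finset.prod_empty]) (one_dvd N) le_top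
    0 (fun u => Subgroup.mem_top _) (by rw [Finset.prod_empty, mul_one]) hNB hsq
    Rs hRs hNRs (fun q hq => absurd hq (Finset.notMem_empty q))
    ε hid hne hεc hnil hEigB D0
  exact Exists.elim hH3₀ fun a' h' =>
    s59e_B2Concl_of_H3Out _ _ _ _ _ (fun ℓ => W.apOfModel ℓ) hNB D0 a' h'.1 h'.2.1 h'.2.2

/-- **the fields of the base package from the components of (B2).** -/
theorem s59efl_base_facts (p : ℕ) [Fact p.Prime] (hp2 : p ≠ 2) (W : WeierstrassCurve ℤ) (hΔ : W.Δ ≠ 0)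
    (N : ℕ) [NeZero N] (B : Finset ℕ)
    (hirr : W.ModRepIsIrreducible p)
    (hB1 : ∀ r : ℕ, r.Prime → r ∣ N * p → r ∈ B)
    (hB2 : ∀ r : ℕ, r.Prime → ¬ W.IsGoodPrimeFor r → r ∈ B)
    (𝒪 : Type) [CommRing 𝒪] [IsDomain 𝒪] [IsDiscreteValuationRing 𝒪]
    [IsAdicComplete (maximalIdeal 𝒪) 𝒪] [Finite (ResidueField 𝒪)] [CharZero 𝒪]
    [Algebra ℤ_[p] 𝒪] [Module.Finite ℤ_[p] 𝒪]
    (hp𝒪 : ((p : ℕ) : 𝒪) ∈ maximalIdeal 𝒪)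
    (Sg Smin : Finset ℕ)
    (D0 : GaloisRep.DeformationRingData 𝒪 (s59i_rhobarW W p hΔ 𝒪 hp𝒪) (fun _A _ _ _ ρ =>
      GaloisRep.flatCondition 𝒪 p Sg ρ ∧
        ∀ q ∈ Smin, q.Prime → q ≠ p → ρ.IsUnipotentOnInertiaAt q))
    (ε : Module.End 𝒪 (s48h_Hpar 𝒪 (s48h_GammaH N (⊤ : Subgroup (ZMod N)ˣ)) 𝒪))
    (hid : ε * ε = ε) (hne : ε ≠ 0)
    (hρ : ∀ δ y, ε (s59t_rho N (⊤ : Subgroup (ZMod N)ˣ) 𝒪 𝒪 δ y) =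
      s59t_rho N (⊤ : Subgroup (ZMod N)ˣ) 𝒪 𝒪 δ (ε y))
    (d : ℕ) (b0 : Fin d → LinearMap.range ε)
    (hb0 : Function.Bijective (s59t_evalMap (s59t_partRep (s59t_rho N (⊤ : Subgroup (ZMod N)ˣ) 𝒪 𝒪) hρ) b0))
    -- the components of (B2)
    (a₀ : heckeAlgebra N 2 (↑B : Set ℕ) →+*
      Module.End 𝒪 (s48h_Hpar 𝒪 (s48h_GammaH N (⊤ : Subgroup (ZMod N)ˣ)) 𝒪))
    (aM₀ : heckeAlgebra N 2 (↑B : Set ℕ) →+* Module.End 𝒪 (LinearMap.range ε))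
    (ha2₀ : ∀ t, a₀ t ∈ Subring.closure (Set.range (s59e_Tp' (⊤ : Subgroup (ZMod N)ˣ) 𝒪
      ((p ^ 0 - 1) * ((p ^ 0 + 1) / 2)))))
    (haM₀ : ∀ t (z : LinearMap.range ε), ((aM₀ t z : LinearMap.range ε) :
      s48h_Hpar 𝒪 (s48h_GammaH N (⊤ : Subgroup (ZMod N)ˣ)) 𝒪) =
        a₀ t (z : s48h_Hpar 𝒪 (s48h_GammaH N (⊤ : Subgroup (ZMod N)ˣ)) 𝒪))
    (hlocA₀ : ∀ x ∈ s59e_adj 𝒪 aM₀, ∃ d : 𝒪, s59e_IsLocScalar x d)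
    [IsLocalRing (s59e_adj 𝒪 aM₀)]
    (θ₀ : D0.R →ₐ[𝒪] s59e_adj 𝒪 aM₀) (hθ₀ : Function.Surjective θ₀)
    (hfrob₀ : ∀ ℓ : ℕ, ℓ.Prime → ℓ ∉ B →
      ∀ A' : ValuationSubring (AlgebraicClosure ℚ), A'.LiesOverPrime ℓ →
      ∀ τ : Γℚ, A'.IsFrobeniusAt τ ℓ →
        (LinearMap.charpoly (D0.ρ.ρ τ)).map (θ₀ : D0.R →+* s59e_adj 𝒪 aM₀) =
          Polynomial.X ^ 2 - Polynomial.C (s59e_tOf (↑B : Set ℕ) aM₀ ℓ) * Polynomial.X +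
            Polynomial.C ((ℓ : s59e_adj 𝒪 aM₀)))
    (hcong₀ : ∀ ℓ : ℕ, ℓ.Prime → ℓ ∉ B →
      s59e_tOf (↑B : Set ℕ) aM₀ ℓ - algebraMap 𝒪 (s59e_adj 𝒪 aM₀) (((W.apOfModel ℓ : ℤ) : 𝒪)) ∈
        maximalIdeal (s59e_adj 𝒪 aM₀)) :
    ∃ (hlh : IsLocalHom (algebraMap 𝒪 (s59e_adj 𝒪 aM₀)))
      (hθ₀l : IsLocalHom (θ₀ : D0.R →+* s59e_adj 𝒪 aM₀))
      (hRρ : ∀ (t : s59e_adj 𝒪 aM₀) (δ : s59t_Delta N (⊤ : Subgroup (ZMod N)ˣ))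
        (y : LinearMap.range ε),
        t • (s59t_partRep (s59t_rho N (⊤ : Subgroup (ZMod N)ˣ) 𝒪 𝒪) hρ) δ y =
          (s59t_partRep (s59t_rho N (⊤ : Subgroup (ZMod N)ˣ) 𝒪 𝒪) hρ) δ (t • y)),
      Function.Surjective (residue (s59e_adj 𝒪 aM₀) ∘ algebraMap 𝒪 (s59e_adj 𝒪 aM₀)) ∧
      Module.Finite (s59e_adj 𝒪 aM₀) (s59t_EigT (s59t_partRep (s59t_rho N (⊤ : Subgroup (ZMod N)ˣ) 𝒪 𝒪) hρ) ⊤
        (1 : s59t_Delta N (⊤ : Subgroup (ZMod N)ˣ) →* 𝒪ˣ) hRρ) ∧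
      Nontrivial (s59t_EigT (s59t_partRep (s59t_rho N (⊤ : Subgroup (ZMod N)ˣ) 𝒪 𝒪) hρ) ⊤
        (1 : s59t_Delta N (⊤ : Subgroup (ZMod N)ˣ) →* 𝒪ˣ) hRρ) ∧
      (∀ (ℓ : ℕ), ℓ.Prime → ¬ ℓ ∣ N → ℓ ∉ (↑B : Set ℕ) →
        ∀ A : ValuationSubring (AlgebraicClosure ℚ), A.LiesOverPrime ℓ →
        ∀ g : Γℚ, A.IsFrobeniusAt g ℓ →
          LinearMap.charpoly ((D0.ρ.baseChangeAlong (θ₀ : D0.R →+* s59e_adj 𝒪 aM₀) hθ₀l).ρ g) =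
            Polynomial.X ^ 2 - Polynomial.C (s59e_tOf (↑B : Set ℕ) aM₀ ℓ) * Polynomial.X +
              Polynomial.C ((ℓ : s59e_adj 𝒪 aM₀))) ∧
      (Algebra.adjoin 𝒪 {x : s59e_adj 𝒪 aM₀ | ∃ ℓ : ℕ, ℓ.Prime ∧ ¬ ℓ ∣ N ∧
        ℓ ∉ (↑B : Set ℕ) ∧ x = s59e_tOf (↑B : Set ℕ) aM₀ ℓ} = ⊤) ∧
      ((D0.ρ.baseChangeAlong (θ₀ : D0.R →+* s59e_adj 𝒪 aM₀) hθ₀l).residual.IsEquiv
        ((s59i_rhobarW W p hΔ 𝒪 hp𝒪).baseChangeAlong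
          (ResidueField.map (algebraMap 𝒪 (s59e_adj 𝒪 aM₀))))) ∧
      (GaloisRep.flatCondition 𝒪 p Sg
          (D0.ρ.baseChangeAlong (θ₀ : D0.R →+* s59e_adj 𝒪 aM₀) hθ₀l) ∧
        ∀ q ∈ Smin, q.Prime → q ≠ p →
          (D0.ρ.baseChangeAlong (θ₀ : D0.R →+* s59e_adj 𝒪 aM₀) hθ₀l).IsUnipotentOnInertiaAt q) ∧
      (∀ g, θ₀ (s59i_cpTr D0.ρ g) =
        s59i_cpTr (D0.ρ.baseChangeAlong (θ₀ : D0.R →+* s59e_adj 𝒪 aM₀) hθ₀l) g) := by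
  classical
  have hpP : p.Prime := Fact.out
  have hNB : ∀ q : ℕ, q.Prime → q ∣ N → q ∈ B := fun q hq h => hB1 q hq (Dvd.dvd.mul_right h p)
  have hpB : p ∈ B := hB1 p hpP (Dvd.intro_left N rfl)
  have hEigB : ∀ ℓ : ℕ, ℓ.Prime → ℓ ∉ B →
      ∀ A : ValuationSubring (AlgebraicClosure ℚ), A.LiesOverPrime ℓ →
      ∀ σ : Γℚ, A.IsFrobeniusAt σ ℓ →
        LinearMap.charpoly ((s59i_rhobarW W p hΔ 𝒪 hp𝒪).ρ σ) =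
          X ^ 2 - C (residue 𝒪 ((W.apOfModel ℓ : ℤ) : 𝒪)) * X +
            C ((ℓ : ResidueField 𝒪)) := fun ℓ hℓ hℓS A hA σ hσ =>
    s59e_rhobarW_charpoly_frob hΔ hp2 hirr hp𝒪 B hpB hB2 ℓ hℓ hℓS A hA σ hσ
  have hd0 : d ≠ 0 := (s59t_part_ne_zero_iff _ b0 hb0).1 hne
  haveI hYnt : Nontrivial (LinearMap.range ε) := s59e_L_range_nontrivial _ hne
  haveI hlh₀ : IsLocalHom (algebraMap 𝒪 (s59e_adj 𝒪 aM₀)) := s59e_adj_isLocalHom aM₀ hlocA₀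
  -- freeness and finiteness of `Y`
  let bZ₀ := Module.Free.chooseBasis ℤ (s48h_M (s48h_GammaH N (⊤ : Subgroup (ZMod N)ˣ)))
  haveI : Module.Free 𝒪 (s48h_Hpar 𝒪 (s48h_GammaH N (⊤ : Subgroup (ZMod N)ˣ)) 𝒪) :=
    Module.Free.of_basis (s59u_cB bZ₀ 𝒪)
  haveI : Module.Finite 𝒪 (s48h_Hpar 𝒪 (s48h_GammaH N (⊤ : Subgroup (ZMod N)ˣ)) 𝒪) :=
    Module.Finite.of_basis (s59u_cB bZ₀ 𝒪)
  haveI hfin₀ : Module.Finite 𝒪 (LinearMap.range ε) := s59t_part_finite _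
  haveI hfree₀ : Module.Free 𝒪 (LinearMap.range ε) := s59t_part_free hid
  haveI hnoeth₀ : IsNoetherianRing (s59e_adj 𝒪 aM₀) := s59e_adj_noeth aM₀
  haveI hcompl₀ : IsAdicComplete (maximalIdeal (s59e_adj 𝒪 aM₀)) (s59e_adj 𝒪 aM₀) :=
    s59e_adj_complete aM₀
  haveI hfinR₀ : Module.Finite 𝒪 (s59e_adj 𝒪 aM₀) := s59e_adj_finite aM₀
  have hT'₀ : Fermat.Agent.Lib.Deform.IsTestAlgebra 𝒪 (s59e_adj 𝒪 aM₀) :=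
    s59e_testAlgebra aM₀ AlgEquiv.refl hlocA₀
  -- the diamonds commute with the Hecke ring
  have hFa₀ : ∀ t δ, Commute (aM₀ t) ((s59t_partRep (s59t_rho N (⊤ : Subgroup (ZMod N)ˣ) 𝒪 𝒪) hρ) δ) :=
    s59e_hFa_part _ _ hρ a₀ _ ha2₀ aM₀ haM₀
  have hRρ : ∀ (t : s59e_adj 𝒪 aM₀) (δ : s59t_Delta N (⊤ : Subgroup (ZMod N)ˣ))
      (y : LinearMap.range ε),
      t • (s59t_partRep (s59t_rho N (⊤ : Subgroup (ZMod N)ˣ) 𝒪 𝒪) hρ) δ y = (s59t_partRep (s59t_rho N (⊤ : Subgroup (ZMod N)ˣ) 𝒪 𝒪) hρ) δ (t • y) := by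
    intro t δ y
    have h := s59e_adj_commute_rho (𝒪 := 𝒪) aM₀ (s59t_partRep (s59t_rho N (⊤ : Subgroup (ZMod N)ˣ) 𝒪 𝒪) hρ) hFa₀ t.2 δ
    exact LinearMap.congr_fun h.eq y
  -- the module `M`
  have hMnt := s59u_EigT_top_nontrivial _ b0 hb0 hd0 (1 : s59t_Delta N (⊤ : Subgroup (ZMod N)ˣ) →* 𝒪ˣ)
    hRρ
  have hMfin : Module.Finite (s59e_adj 𝒪 aM₀) (s59t_EigT _ ⊤
      (1 : s59t_Delta N (⊤ : Subgroup (ZMod N)ˣ) →* 𝒪ˣ) hRρ) := by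
    haveI : IsNoetherian 𝒪 (LinearMap.range ε) :=
      isNoetherian_of_isNoetherianRing_of_finite 𝒪 _
    haveI : Module.Finite 𝒪 (s59t_EigT _ ⊤
        (1 : s59t_Delta N (⊤ : Subgroup (ZMod N)ˣ) →* 𝒪ˣ) hRρ) :=
      Module.Finite.of_injective (s59t_EigT_val _ ⊤ _ hRρ) (s59t_EigT_val_injective _ ⊤ _ hRρ)
    exact Module.Finite.of_restrictScalars_finite 𝒪 _ _
  -- the Galois representation over `R`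
  have hθ₀l : IsLocalHom (θ₀ : D0.R →+* s59e_adj 𝒪 aM₀) := IsLocalHom.of_surjective _ hθ₀
  have hfrobR : ∀ (ℓ : ℕ), ℓ.Prime → ¬ ℓ ∣ N → ℓ ∉ (↑B : Set ℕ) →
      ∀ A : ValuationSubring (AlgebraicClosure ℚ), A.LiesOverPrime ℓ →
      ∀ g : Γℚ, A.IsFrobeniusAt g ℓ →
        LinearMap.charpoly ((D0.ρ.baseChangeAlong (θ₀ : D0.R →+* s59e_adj 𝒪 aM₀) hθ₀l).ρ g) =
          Polynomial.X ^ 2 - Polynomial.C (s59e_tOf (↑B : Set ℕ) aM₀ ℓ) * Polynomial.X +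
            Polynomial.C ((ℓ : s59e_adj 𝒪 aM₀)) := by
    intro ℓ hℓ hℓN hℓB A hA g hg
    rw [s59e_bc_charpoly]
    exact hfrob₀ ℓ hℓ (fun h => hℓB (Finset.mem_coe.mpr h)) A hA g hg
  have hpR : ((p : ℕ) : s59e_adj 𝒪 aM₀) ∈ maximalIdeal (s59e_adj 𝒪 aM₀) := by
    have := map_nonunit (algebraMap 𝒪 (s59e_adj 𝒪 aM₀)) ((p : ℕ) : 𝒪) hp𝒪
    rwa [map_natCast] at this
  have hresR := s59b_hres_of_frob p hp2 hpR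
    (D0.ρ.baseChangeAlong (θ₀ : D0.R →+* s59e_adj 𝒪 aM₀) hθ₀l)
    (s59e_bc_absIrr (θ₀ : D0.R →+* s59e_adj 𝒪 aM₀) hθ₀l D0.ρ (s59b_DQ_residual_absIrr D0)) B
    (s59e_tOf (↑B : Set ℕ) aM₀) (fun ℓ => ((W.apOfModel ℓ : ℤ) : 𝒪))
    (fun ℓ hℓ hℓB A hA g hg => hfrobR ℓ hℓ (fun h => hℓB (hNB ℓ hℓ h))
      (fun h => hℓB (Finset.mem_coe.mp h)) A hA g hg)
    hcong₀ (s59i_rhobarW W p hΔ 𝒪 hp𝒪) hEigB
  have hρR0 : (GaloisRep.flatCondition 𝒪 p Sg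
      (D0.ρ.baseChangeAlong (θ₀ : D0.R →+* s59e_adj 𝒪 aM₀) hθ₀l) ∧
      ∀ q ∈ Smin, q.Prime → q ≠ p →
        (D0.ρ.baseChangeAlong (θ₀ : D0.R →+* s59e_adj 𝒪 aM₀) hθ₀l).IsUnipotentOnInertiaAt q) := by
    haveI : Finite (ResidueField (s59e_adj 𝒪 aM₀)) := hT'₀.finite_residueField
    exact s59x_twType_baseChange (𝒪 := 𝒪) (s59x_locCond_flat p) _ Smin
      (θ₀ : D0.R →+* s59e_adj 𝒪 aM₀) hθ₀l inferInstance D0.ρ D0.isOfType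
  have hgenR : Algebra.adjoin 𝒪 {x : s59e_adj 𝒪 aM₀ | ∃ ℓ : ℕ, ℓ.Prime ∧ ¬ ℓ ∣ N ∧
      ℓ ∉ (↑B : Set ℕ) ∧ x = s59e_tOf (↑B : Set ℕ) aM₀ ℓ} = ⊤ :=
    s59b_adjoin_tOf B hNB aM₀ N (dvd_refl N)
  exact ⟨hlh₀, hθ₀l, hRρ, hT'₀.residue_surjective, hMfin, hMnt, hfrobR, hgenR, hresR, hρR0,
    fun g => (s59e_cpTr_map (θ₀ : D0.R →+* s59e_adj 𝒪 aM₀) hθ₀l D0.ρ g).symm⟩

end Fermat.Agent.Lib.S59
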