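/-
Programme R2 (S59), node [PATCH-FLR], `T`-side (helper5, prefix `s59efl_`): **(H3) AND (B2) FOR A DEFORMATION TYPE WITH FREE FINSETS `(Sg, Su)`**
(lead's decision #3839: all rings of the [FLR] node carry the type `flat(Sg) ∧ unipotent on inertia at Su`, `Su ⊇` the raising primes).
No `s59i_RData` record: the hypotheses are stated directly on the finsets.
* `s59efl_hD_free`      : `h𝒟` — a Hecke–Galois datum of level `M' = N₀ ∏_{q ∈ Q} q²` (`N₀` squarefree, `ρ̄` unramified at `Q`) lifting `ρ̄` is of the type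
                          `flat(Sg) ∧ unip(Su)` when every prime of `M'` is in `Sg` or of type (E2′), `Smin` = the ramification set of `ρ̄`, and every
                          prime of `Su` is in `Smin` or outside `Q` (`q ∥ M'` ⇒ S34; `q ∤ M'` ⇒ unramified);
* `s59efl_H3_free`      : twin of `s59efl_H3_RData` (EFlrA) for such a type;
* `s59efl_base_B2_free` : twin of `s59efl_base_B2` (EFlrBase).
-/
import Mathlib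
import Fermat.Agent.Lib.S59.ELPkg
import Fermat.Agent.Lib.S59.EFlrA
import Fermat.Agent.Lib.S59.FAsmHD

set_option autoImplicit false
set_option linter.unusedSectionVars false
set_option linter.unusedVariables false
set_option linter.style.haveILetI false
set_option synthInstance.maxHeartbeats 400000
set_option maxHeartbeats 1600000

noncomputable section

namespace Fermat.Agent.Lib.S59

open Matrix.SpecialLinearGroup CongruenceSubgroup ModularCurve.Period Polynomial CuspForm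
open Fermat.Agent.Lib.S48 Fermat.Agent.Lib.ES IsLocalRing
open scoped MatrixGroups

local notation "Qbar" => AlgebraicClosure ℚ
local notation "GQ" => (AlgebraicClosure ℚ ≃ₐ[ℚ] AlgebraicClosure ℚ)

section HDF

variable {p : ℕ} [Fact p.Prime]
  {𝒪 : Type} [CommRing 𝒪] [IsDomain 𝒪] [IsDiscreteValuationRing 𝒪]
  [IsAdicComplete (maximalIdeal 𝒪) 𝒪] [Finite (ResidueField 𝒪)] [CharZero 𝒪]

/-- **`h𝒟` for a type with free finsets.** -/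
theorem s59efl_hD_free (hp2 : p ≠ 2) (hp𝒪 : (p : 𝒪) ∈ maximalIdeal 𝒪)
    (M' : ℕ) [NeZero M'] (S : Finset ℕ) (hpM' : ¬ p ∣ M')
    (hpS : p ∈ S) (hS : ∀ q : ℕ, q.Prime → q ∣ M' → q ∈ S)
    (ρbar : ResidualGaloisRep (ResidueField 𝒪))
    (N₀ : ℕ) (Q : Finset ℕ) (hM' : M' = N₀ * ∏ q ∈ Q, q ^ 2) (hN₀ : Squarefree N₀)
    (hQ : ∀ q ∈ Q, q.Prime ∧ ρbar.IsUnramifiedAt q)
    (Sg Su Smin : Finset ℕ) (hpSg : p ∈ Sg)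
    (hSg : ∀ q : ℕ, q.Prime → q ∣ M' → q ∈ Sg ∨ s59e3q_E2Alt p ρbar q)
    (hmin : ∀ q : ℕ, q.Prime → q ≠ p → (q ∈ Smin ↔ ¬ ρbar.IsUnramifiedAt q))
    (hSu : ∀ q ∈ Su, q ∈ Smin ∨ q ∉ Q)
    {θ : heckeAlgebra M' 2 (↑S : Set ℕ) →+* ResidueField 𝒪}
    {T : Type} [CommRing T] [IsLocalRing T] [IsNoetherianRing T]
    [IsAdicComplete (maximalIdeal T) T] [Algebra 𝒪 T] [IsLocalHom (algebraMap 𝒪 T)]
    [Module.Finite 𝒪 T] [Module.Free 𝒪 T]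
    (Hd : HeckeGaloisRepDatum M' (↑S : Set ℕ) 𝒪 θ T)
    (hres : Hd.ρ.residual.IsEquiv (ρbar.baseChangeAlong (ResidueField.map (algebraMap 𝒪 T)))) :
    GaloisRep.flatCondition 𝒪 p Sg Hd.ρ ∧
      ∀ q ∈ Su, q.Prime → q ≠ p → Hd.ρ.IsUnipotentOnInertiaAt q := by
  obtain ⟨h1, h2⟩ := s59e3q_hD_flat_E2 M' S hp2 hp𝒪 hpM' hpS hS ρbar N₀ Q hM' hN₀ hQ Sg Smin hpSg hSg
    hmin Hd hres
  refine ⟨h1, fun q hqS hq hqp => ?_⟩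
  rcases hSu q hqS with hqS | hqQ
  · exact h2 q hqS hq hqp
  · by_cases hqM : q ∣ M'
    · refine s59e_hecke_unip Hd hp𝒪 hpS hS q hq hqp hqM ?_
      rw [hM']
      exact s59f_not_sq_dvd_level N₀ Q (fun q' hq' => (hQ q' hq').1) hN₀ q hq hqQ
    · exact s59f_unip_of_unram Hd.ρ q (s59e_hecke_unram' Hd hp𝒪 hpS hS q hq hqp hqM)

end HDF

section H3F

variable {p : ℕ} [hp : Fact p.Prime]
  {𝒪 : Type} [CommRing 𝒪] [IsDomain 𝒪] [IsDiscreteValuationRing 𝒪]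
  [IsAdicComplete (maximalIdeal 𝒪) 𝒪] [Finite (ResidueField 𝒪)] [CharZero 𝒪] [Algebra ℤ_[p] 𝒪]
  {B : Finset ℕ} {ρbar : ResidualGaloisRep (ResidueField 𝒪)} (a : ℕ → ℤ)

/-- **(H3) for a type with free finsets** at a level `(Lv, H)`, `Lv = N₀ ∏_{q ∈ Q} q` (twin of `s59efl_H3_RData`). -/
theorem s59efl_H3_free (hp2 : p ≠ 2) (hp𝒪 : (p : 𝒪) ∈ maximalIdeal 𝒪)
    (N₀ : ℕ) [NeZero N₀] (Q : Finset ℕ) {Lv : ℕ} [NeZero Lv] (H : Subgroup (ZMod Lv)ˣ)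
    (M' : ℕ) [NeZero M'] [Fact (HasIntegralStructure M' 2)] (S : Finset ℕ)
    (hpS : p ∈ S) (hBS : B ⊆ S) (hpM' : ¬ p ∣ M')
    (hQ : ∀ q ∈ Q, q.Prime ∧ ¬ q ∣ N₀)
    (hM : Lv = N₀ * ∏ q ∈ Q, q) {D : ℕ} (hDQ : D = ∏ q ∈ Q, q) (hD : D ∣ Lv)
    (hH : s59u_ker Lv D hD ≤ H) (e : ℕ) (hn : ∀ u : (ZMod Lv)ˣ, u ^ (p ^ e) ∈ H)
    (hM' : M' = N₀ * ∏ q ∈ Q, q ^ 2) (hS : ∀ q : ℕ, q.Prime → q ∣ M' → q ∈ S)
    (hN₀ : Squarefree N₀)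
    (hQu : ∀ q ∈ Q, ρbar.IsUnramifiedAt q)
    (Sg Su Smin : Finset ℕ) (hpSg : p ∈ Sg)
    (hSg : ∀ q : ℕ, q.Prime → q ∣ M' → q ∈ Sg ∨ s59e3q_E2Alt p ρbar q)
    (hmin : ∀ q : ℕ, q.Prime → q ≠ p → (q ∈ Smin ↔ ¬ ρbar.IsUnramifiedAt q))
    (hSu : ∀ q ∈ Su, q ∈ Smin ∨ q ∉ Q)
    (ε : Module.End 𝒪 (s48h_Hpar 𝒪 (s48h_GammaH Lv H) 𝒪)) (hε : ε * ε = ε) (hε0 : ε ≠ 0)
    (hεc : ∀ x, ε * s59w_op H 𝒪 x = s59w_op H 𝒪 x * ε)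
    (hnil : ∀ x ∈ s59t_goodB Lv B, ∃ k : ℕ, ∀ y : s48h_Hpar 𝒪 (s48h_GammaH Lv H) 𝒪,
      ((s59w_op H 𝒪 x - s59t_cB (𝒪 := 𝒪) Lv a x •
        (1 : Module.End 𝒪 (s48h_Hpar 𝒪 (s48h_GammaH Lv H) 𝒪))) ^ k) (ε y) ∈
        (maximalIdeal 𝒪 • ⊤ : Submodule 𝒪 (s48h_Hpar 𝒪 (s48h_GammaH Lv H) 𝒪)))
    (hEig : ∀ ℓ : ℕ, ℓ.Prime → ℓ ∉ S → ∀ A : ValuationSubring Qbar, A.LiesOverPrime ℓ →
      ∀ σ : GQ, A.IsFrobeniusAt σ ℓ →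
        LinearMap.charpoly (ρbar.ρ σ) = X ^ 2 - C (residue 𝒪 ((a ℓ : ℤ) : 𝒪)) * X +
          C ((ℓ : ResidueField 𝒪)))
    (DQ : GaloisRep.DeformationRingData 𝒪 ρbar (fun _A _ _ _ ρ =>
      GaloisRep.flatCondition 𝒪 p Sg ρ ∧
        ∀ q ∈ Su, q.Prime → q ≠ p → ρ.IsUnipotentOnInertiaAt q)) :
    ∃ a₀ : heckeAlgebra M' 2 (↑S : Set ℕ) →+*
        Module.End 𝒪 (s48h_Hpar 𝒪 (s48h_GammaH Lv H) 𝒪),
      (∀ (ℓ : ℕ) (hℓ : ℓ.Prime) (hℓN : ¬ ℓ ∣ M') (hℓS : ℓ ∉ (↑S : Set ℕ)) (i : s59w_TIdx Lv),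
        i.ell = ℓ → a₀ (heckeAlgebra.T hℓ hℓN hℓS) =
          s59e_Tp' H 𝒪 ((p ^ e - 1) * ((p ^ e + 1) / 2)) i) ∧
      (∀ t, a₀ t ∈ Subring.closure (Set.range (s59e_Tp' H 𝒪 ((p ^ e - 1) * ((p ^ e + 1) / 2))))) ∧
      s59q_H3Out M' S a₀ ε (fun ℓ => ((a ℓ : ℤ) : 𝒪)) DQ := by
  classical
  have hpodd : Odd (p ^ e) := (hp.out.odd_of_ne_two hp2).pow
  have hnm : 2 * ((p ^ e + 1) / 2) = p ^ e + 1 := by
    obtain ⟨k, hk⟩ := hpodd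
    omega
  have hHp : ∀ u : (ZMod Lv)ˣ, ∃ k : ℕ, u ^ (p ^ k) ∈ H := fun u => ⟨e, hn u⟩
  -- the hypotheses of `s59e_H3'` on `ε`
  have hεc' : ∀ j, s59e_Anemic S j → ε * s59w_op H 𝒪 j = s59w_op H 𝒪 j * ε := fun j _ => hεc j
  have hnil' : ∀ j, s59e_Anemic S j → ∃ k : ℕ, ∀ z,
      ((s59w_op H 𝒪 j - s59t_cB (𝒪 := 𝒪) Lv a j • 1) ^ k) (ε z) ∈
        maximalIdeal 𝒪 • (⊤ : Submodule 𝒪 (s48h_Hpar 𝒪 (s48h_GammaH Lv H) 𝒪)) := by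
    intro j hj
    rcases j with i | τ
    · have hiS : i.ell ∉ S := (s59e_anemic_inl_iff S i).mp hj
      exact hnil _ (s59t_inl_mem_goodB B i (fun h => hiS (hBS h)))
    · exact s59t_topNil_dia p H hp𝒪 hHp ε τ
  have hEig' : ∀ (ℓ : ℕ) (_ : ℓ.Prime) (_ : ¬ ℓ ∣ M') (_ : ℓ ∉ S) (i : s59w_TIdx Lv), i.ell = ℓ →
      ∀ A : ValuationSubring Qbar, A.LiesOverPrime ℓ → ∀ σ : GQ, A.IsFrobeniusAt σ ℓ →
        LinearMap.charpoly (ρbar.ρ σ) = X ^ 2 - C (residue 𝒪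
          (s59t_cB (𝒪 := 𝒪) Lv a (Sum.inr (s59e_tau i ((p ^ e - 1) * ((p ^ e + 1) / 2)))) *
            s59t_cB (𝒪 := 𝒪) Lv a (Sum.inl i))) * X +
          C ((ℓ : ResidueField 𝒪)) := by
    intro ℓ hℓ hℓN hℓS i hi A hA σ hσ
    show LinearMap.charpoly (ρbar.ρ σ) = X ^ 2 - C (residue 𝒪
      ((1 : 𝒪) * ((a i.ell : ℤ) : 𝒪))) * X + C ((ℓ : ResidueField 𝒪))
    rw [one_mul, hi]
    exact hEig ℓ hℓ hℓS A hA σ hσ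
  -- (H3), with `h𝒟` from `s59efl_hD_flat_RData`
  let b := Module.Free.chooseBasis ℤ (s48h_M (s48h_GammaH Lv H))
  have hH3 := s59e_H3' (p := p) N₀ Q (M := Lv) H b M' S hp2 hp𝒪 hpS hQ hM hDQ hD hH
      (n := p ^ e) (m := (p ^ e + 1) / 2) hnm hn hM' hS (s59u_cB b 𝒪) (s59u_cB_coe b 𝒪)
      ε hε hε0 hεc' (s59t_cB (𝒪 := 𝒪) Lv a) hnil' ρbar hEig' DQ
  have hH3' := hH3 (by
    intro θ Hd hres
    have h3 := s59efl_hD_free hp2 hp𝒪 M' S hpM' hpS hS ρbar N₀ Q hM' hN₀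
      (fun q hq => ⟨(hQ q hq).1, hQu q hq⟩) Sg Su Smin hpSg hSg hmin hSu Hd hres
    exact h3)
  clear hH3
  obtain ⟨a₀, cT, ha1, ha2, hcT, hconcl⟩ := hH3'
  have hcTa : ∀ ℓ : ℕ, ℓ.Prime → ¬ ℓ ∣ M' → cT ℓ = ((a ℓ : ℤ) : 𝒪) := by
    intro ℓ hℓ hℓN
    obtain ⟨i, hi, hci⟩ := hcT ℓ hℓ hℓN
    rw [hci]
    show (1 : 𝒪) * ((a i.ell : ℤ) : 𝒪) = _
    rw [one_mul, hi]
  -- the output
  haveI : Module.Free 𝒪 (s48h_Hpar 𝒪 (s48h_GammaH Lv H) 𝒪) := Module.Free.of_basis (s59u_cB b 𝒪)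
  haveI : Module.Finite 𝒪 (s48h_Hpar 𝒪 (s48h_GammaH Lv H) 𝒪) :=
    Module.Finite.of_basis (s59u_cB b 𝒪)
  have hR := s59q_H3Out_of_concl hS a₀ ε hε
    (J := {j : s59w_AIdx Lv // s59e_Anemic S j})
    (fun j => s59w_op H 𝒪 j.1) (fun i j => s59w_op_comm H 𝒪 i.1 j.1) (fun j => hεc' j.1 j.2)
    (fun j => s59t_cB (𝒪 := 𝒪) Lv a j.1) (fun j => hnil' j.1 j.2) cT
    (fun ℓ hℓ hℓN hℓS => by
      obtain ⟨i, hi, hci⟩ := hcT ℓ hℓ hℓN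
      have hiS : i.ell ∉ S := by rw [hi]; exact hℓS
      exact ⟨⟨Sum.inr (s59e_tau i ((p ^ e - 1) * ((p ^ e + 1) / 2))), s59e_anemic_inr S _⟩,
        ⟨Sum.inl i, s59e_anemic_inl S i hiS⟩, ha1 ℓ hℓ hℓN hℓS i hi, hci⟩) DQ
  have hR' := hR hconcl
  clear hR
  have hR'' := hR'.congr (cT' := fun ℓ => ((a ℓ : ℤ) : 𝒪)) (fun ℓ hℓ hℓN _ => hcTa ℓ hℓ hℓN)
  exact ⟨a₀, ha1, ha2, hR''⟩


end H3F

end Fermat.Agent.Lib.S59
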