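/-
Programme R2 (S59), node [PATCH-FLR], `T`-side (helper5, prefix `s59efl_`): **(B2) AT THE BASE LEVEL `(N, ⊤)` FOR A DEFORMATION TYPE WITH FREE FINSETS
`(Sg, Su)`** — twin of `s59efl_base_B2` (EFlrBase) on `s59efl_H3_free` (EFlrH3F); no `s59i_RData` record.
-/
import Mathlib
import Fermat.Agent.Lib.S59.ELPkg
import Fermat.Agent.Lib.S59.EFlrBase
import Fermat.Agent.Lib.S59.EFlrH3F

set_option autoImplicit false
set_option linter.unusedSectionVars false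
set_option linter.unusedVariables false
set_option linter.style.haveILetI false
set_option maxHeartbeats 0
set_option synthInstance.maxHeartbeats 400000
set_option maxSynthPendingDepth 3

noncomputable section

namespace Fermat.Agent.Lib.S59

open IsLocalRing CuspForm Polynomial ExtCitation CongruenceSubgroup
open WeierstrassCurve WeierstrassCurve.Affine WeierstrassCurve.Affine.Point
open Fermat.Agent.Lib.S48 Fermat.Agent.Lib.S44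
open scoped MatrixGroups

local notation "Γℚ" => (AlgebraicClosure ℚ ≃ₐ[ℚ] AlgebraicClosure ℚ)

/-- **(B2) at the base level `(N, ⊤)`, abstract idempotent, data `Rd` with raised primes.** -/
theorem s59efl_base_B2_free (p : ℕ) [Fact p.Prime] (hp2 : p ≠ 2) (W : WeierstrassCurve ℤ) (hΔ : W.Δ ≠ 0)
    (N : ℕ) [NeZero N] (B : Finset ℕ)
    (hirr : W.ModRepIsIrreducible p) (hsq : Squarefree N) (hpN : ¬ p ∣ N)
    (hB1 : ∀ r : ℕ, r.Prime → r ∣ N * p → r ∈ B)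
    (hB2 : ∀ r : ℕ, r.Prime → ¬ W.IsGoodPrimeFor r → r ∈ B)
    (𝒪 : Type) [CommRing 𝒪] [IsDomain 𝒪] [IsDiscreteValuationRing 𝒪]
    [IsAdicComplete (maximalIdeal 𝒪) 𝒪] [Finite (ResidueField 𝒪)] [CharZero 𝒪]
    [Algebra ℤ_[p] 𝒪] [Module.Finite ℤ_[p] 𝒪]
    (hp𝒪 : ((p : ℕ) : 𝒪) ∈ maximalIdeal 𝒪)
    (Sg Su Smin : Finset ℕ) (hpSg : p ∈ Sg)
    (hSg : ∀ q : ℕ, q.Prime → q ∣ N → q ∈ Sg ∨ s59e3q_E2Alt p (s59i_rhobarW W p hΔ 𝒪 hp𝒪) q)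
    (hmin : ∀ q : ℕ, q.Prime → q ≠ p →
      (q ∈ Smin ↔ ¬ (s59i_rhobarW W p hΔ 𝒪 hp𝒪).IsUnramifiedAt q))
    (D0 : GaloisRep.DeformationRingData 𝒪 (s59i_rhobarW W p hΔ 𝒪 hp𝒪) (fun _A _ _ _ ρ =>
      GaloisRep.flatCondition 𝒪 p Sg ρ ∧
        ∀ q ∈ Su, q.Prime → q ≠ p → ρ.IsUnipotentOnInertiaAt q))
    (ε : Module.End 𝒪 (s48h_Hpar 𝒪 (s48h_GammaH N (⊤ : Subgroup (ZMod N)ˣ)) 𝒪))
    (hid : ε * ε = ε) (hne : ε ≠ 0)
    (hεc : ∀ jdx : s59w_AIdx N, ε * s59w_op (⊤ : Subgroup (ZMod N)ˣ) 𝒪 jdx =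
      s59w_op (⊤ : Subgroup (ZMod N)ˣ) 𝒪 jdx * ε)
    (hnil : ∀ x ∈ s59t_goodB N B, ∃ k : ℕ,
      ∀ y : s48h_Hpar 𝒪 (s48h_GammaH N (⊤ : Subgroup (ZMod N)ˣ)) 𝒪,
      ((s59w_op (⊤ : Subgroup (ZMod N)ˣ) 𝒪 x - s59t_cB (𝒪 := 𝒪) N (fun ℓ => W.apOfModel ℓ) x •
        (1 : Module.End 𝒪 (s48h_Hpar 𝒪 (s48h_GammaH N (⊤ : Subgroup (ZMod N)ˣ)) 𝒪))) ^ k)
        (ε y) ∈ (maximalIdeal 𝒪 • ⊤ :
          Submodule 𝒪 (s48h_Hpar 𝒪 (s48h_GammaH N (⊤ : Subgroup (ZMod N)ˣ)) 𝒪))) :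
    s59e_B2Concl (⊤ : Subgroup (ZMod N)ˣ) ε N B ((p ^ 0 - 1) * ((p ^ 0 + 1) / 2))
      (fun ℓ => ((W.apOfModel ℓ : ℤ) : 𝒪)) D0 := by
  classical
  have hpP : p.Prime := Fact.out
  have hNB : ∀ q : ℕ, q.Prime → q ∣ N → q ∈ B := fun q hq h => hB1 q hq (Dvd.dvd.mul_right h p)
  have hpB : p ∈ B := hB1 p hpP (Dvd.intro_left N rfl)
  have hEigB : ∀ ℓ : ℕ, ℓ.Prime → ℓ ∉ B →
      ∀ A : ValuationSubring (AlgebraicClosure ℚ), A.LiesOverPrime ℓ →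
      ∀ σ : Γℚ, A.IsFrobeniusAt σ ℓ →
        LinearMap.charpoly ((s59i_rhobarW W p hΔ 𝒪 hp𝒪).ρ σ) =
          X ^ 2 - C (residue 𝒪 ((W.apOfModel ℓ : ℤ) : 𝒪)) * X +
            C ((ℓ : ResidueField 𝒪)) := fun ℓ hℓ hℓS A hA σ hσ =>
    s59e_rhobarW_charpoly_frob hΔ hp2 hirr hp𝒪 B hpB hB2 ℓ hℓ hℓS A hA σ hσ
  haveI : Fact (HasIntegralStructure N 2) := ⟨Fermat.Agent.S23.result N⟩
  haveI hYnt : Nontrivial (LinearMap.range ε) := s59e_L_range_nontrivial _ hne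
  have hH3₀ := s59efl_H3_free (fun ℓ => W.apOfModel ℓ) hp2 hp𝒪 N (∅ : Finset ℕ)
    (⊤ : Subgroup (ZMod N)ˣ) N B hpB (Finset.Subset.refl B) hpN
    (fun q hq => absurd hq (Finset.notMem_empty q))
    (by rw [Finset.prod_empty, mul_one]) (D := 1) (by rw [Finset.prod_empty]) (one_dvd N) le_top
    0 (fun u => Subgroup.mem_top _) (by rw [Finset.prod_empty, mul_one]) hNB hsq
    (fun q hq => absurd hq (Finset.notMem_empty q)) Sg Su Smin hpSg hSg hmin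
    (fun q _ => Or.inr (Finset.notMem_empty q))
    ε hid hne hεc hnil hEigB D0
  exact Exists.elim hH3₀ fun a' h' =>
    s59e_B2Concl_of_H3Out _ _ _ _ _ (fun ℓ => W.apOfModel ℓ) hNB D0 a' h'.1 h'.2.1 h'.2.2


end Fermat.Agent.Lib.S59
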