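/-
Programme R2 (S59), node [PATCH-FLR], `T`-side, p = 3 port ([SPEC-T], helper8, prefix `s59c3_`), file 4:
**THE BASE DATA OF ONE LEVEL, CONCRETE FORM, EVEN LEVEL, ANY ODD `p`, WITH AN AUXILIARY RING** — generated from helper5's `EFlrBaseP.lean`
(`s59efl_base_pkg`): `5 ≤ p` is replaced by `p ≠ 2` + `2 ∣ N` (`s59e3_auxTors_even`), and, as in his `s59efl_lvl_pkg`, the Hecke ring of
the level is reached through an auxiliary ring `D0'` of a smaller type and `κ : D0.R ↠ D0'.R` (`θ₀ := θ' ∘ κ`); the extra output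
`∀ x, κ x = 0 → θ₀ x = 0` gives the export (E5) (the base ring of the chain is of the minimal type).
* `Internal.s59c3_base_pkg` : the theorem (the name component `Internal` keeps Lean's premise-selection exporters off its giant type).
-/
import Mathlib
import Fermat.Agent.Lib.S59.EFlrBase
import Fermat.Agent.Lib.S59.EFlrB2F
import Fermat.Agent.Lib.S59.EWPkg
import Fermat.Agent.Lib.S59.E3Aux
import Fermat.Agent.Lib.S59.QStLvlA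

set_option autoImplicit false
set_option linter.unusedSectionVars false
set_option linter.unusedVariables false
set_option linter.style.haveILetI false
set_option maxHeartbeats 0
set_option synthInstance.maxHeartbeats 400000
set_option maxSynthPendingDepth 3
set_option backward.isDefEq.respectTransparency.types true

noncomputable section

namespace Fermat.Agent.Lib.S59

open IsLocalRing CuspForm Polynomial ExtCitation CongruenceSubgroup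
open WeierstrassCurve WeierstrassCurve.Affine WeierstrassCurve.Affine.Point
open Fermat.Agent.Lib.S48 Fermat.Agent.Lib.S44
open scoped MatrixGroups

local notation "Γℚ" => (AlgebraicClosure ℚ ≃ₐ[ℚ] AlgebraicClosure ℚ)

/-- **the base data of one level; even level, any odd `p`, through an auxiliary ring.** -/
theorem Internal.s59c3_base_pkg (p : ℕ) [Fact p.Prime] (hp2 : p ≠ 2) (W : WeierstrassCurve ℤ) (hΔ : W.Δ ≠ 0)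
    (N : ℕ) [NeZero N] (B : Finset ℕ)
    (hirr : W.ModRepIsIrreducible p) (hsq : Squarefree N) (hpN : ¬ p ∣ N)
    (hB1 : ∀ r : ℕ, r.Prime → r ∣ N * p → r ∈ B)
    (hB2 : ∀ r : ℕ, r.Prime → ¬ W.IsGoodPrimeFor r → r ∈ B)
    (hocc : s44i_LevelOcc N p (fun ℓ => W.apOfModel ℓ) B)
    (h23 : 2 ∣ N)
    (𝒪 : Type) [CommRing 𝒪] [IsDomain 𝒪] [IsDiscreteValuationRing 𝒪]
    [IsAdicComplete (maximalIdeal 𝒪) 𝒪] [Finite (ResidueField 𝒪)] [CharZero 𝒪]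
    [Algebra ℤ_[p] 𝒪] [Module.Finite ℤ_[p] 𝒪]
    (hp𝒪 : ((p : ℕ) : 𝒪) ∈ maximalIdeal 𝒪)
    (Sg Su : Finset ℕ)
    (D0 : GaloisRep.DeformationRingData 𝒪 (s59i_rhobarW W p hΔ 𝒪 hp𝒪) (fun _A _ _ _ ρ =>
      GaloisRep.flatCondition 𝒪 p Sg ρ ∧
        ∀ q ∈ Su, q.Prime → q ≠ p → ρ.IsUnipotentOnInertiaAt q))
    -- the auxiliary ring `D0'` (of a smaller type) through which the Hecke ring of the level is reached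
    (Sg' Su' Smin : Finset ℕ) (hpSg : p ∈ Sg')
    (hSg : ∀ q : ℕ, q.Prime → q ∣ N → q ∈ Sg' ∨ s59e3q_E2Alt p (s59i_rhobarW W p hΔ 𝒪 hp𝒪) q)
    (hmin : ∀ q : ℕ, q.Prime → q ≠ p → (q ∈ Smin ↔ ¬ (s59i_rhobarW W p hΔ 𝒪 hp𝒪).IsUnramifiedAt q))
    (D0' : GaloisRep.DeformationRingData 𝒪 (s59i_rhobarW W p hΔ 𝒪 hp𝒪) (fun _A _ _ _ ρ =>
      GaloisRep.flatCondition 𝒪 p Sg' ρ ∧
        ∀ q ∈ Su', q.Prime → q ≠ p → ρ.IsUnipotentOnInertiaAt q))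
    (κ : D0.R →ₐ[𝒪] D0'.R) (hκs : Function.Surjective κ)
    (hκc : ∀ g : Γℚ, (LinearMap.charpoly (D0.ρ.ρ g)).map (κ : D0.R →+* D0'.R) =
      LinearMap.charpoly (D0'.ρ.ρ g)) :
    ∃ (e : MvPolynomial ↥(s59t_goodB N B) 𝒪),
    ∃ (h1e : 1 - e ∈ s59t_evalIdeal (fun x : ↥(s59t_goodB N B) =>
      s59t_cB (𝒪 := 𝒪) N (fun ℓ => W.apOfModel ℓ) (x : s59w_AIdx N))),
    ∃ (hid : (s59t_E0 (⊤ : Subgroup (ZMod N)ˣ) B e) * (s59t_E0 (⊤ : Subgroup (ZMod N)ˣ) B e) = (s59t_E0 (⊤ : Subgroup (ZMod N)ˣ) B e)),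
    ∃ (hnil : ∀ x ∈ s59t_goodB N B, ∃ k : ℕ, ∀ y : (s48h_Hpar 𝒪 (s48h_GammaH N (⊤ : Subgroup (ZMod N)ˣ)) 𝒪),
      ((s59w_op (⊤ : Subgroup (ZMod N)ˣ) 𝒪 x - s59t_cB (𝒪 := 𝒪) N (fun ℓ => W.apOfModel ℓ) x •
        (1 : Module.End 𝒪 (s48h_Hpar 𝒪 (s48h_GammaH N (⊤ : Subgroup (ZMod N)ˣ)) 𝒪))) ^ k) ((s59t_E0 (⊤ : Subgroup (ZMod N)ˣ) B e) y) ∈
        (maximalIdeal 𝒪 • ⊤ : Submodule 𝒪 (s48h_Hpar 𝒪 (s48h_GammaH N (⊤ : Subgroup (ZMod N)ˣ)) 𝒪))),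
    ∃ (hρ : ∀ δ y, (s59t_E0 (⊤ : Subgroup (ZMod N)ˣ) B e) ((s59t_rho N (⊤ : Subgroup (ZMod N)ˣ) 𝒪 𝒪) δ y) = (s59t_rho N (⊤ : Subgroup (ZMod N)ˣ) 𝒪 𝒪) δ ((s59t_E0 (⊤ : Subgroup (ZMod N)ˣ) B e) y)),
    ∃ (d : ℕ),
    ∃ (hd0 : d ≠ 0),
    ∃ (b0 : Fin d → LinearMap.range (s59t_E0 (⊤ : Subgroup (ZMod N)ˣ) B e)),
    ∃ (hb0 : Function.Bijective (s59t_evalMap (s59t_partRep (s59t_rho N (⊤ : Subgroup (ZMod N)ˣ) 𝒪 𝒪) hρ) b0)),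
    ∃ (a₀ : (heckeAlgebra N 2 (↑B : Set ℕ)) →+* Module.End 𝒪 (s48h_Hpar 𝒪 (s48h_GammaH N (⊤ : Subgroup (ZMod N)ˣ)) 𝒪)),
    ∃ (ha1₀ : ∀ (ℓ : ℕ) (hℓ : ℓ.Prime) (hℓN : ¬ ℓ ∣ N) (hℓS : ℓ ∉ (↑B : Set ℕ)) (i : s59w_TIdx N),
      i.ell = ℓ → a₀ (heckeAlgebra.T hℓ hℓN hℓS) = s59e_Tp' (⊤ : Subgroup (ZMod N)ˣ) 𝒪 ((p ^ 0 - 1) * ((p ^ 0 + 1) / 2)) i),
    ∃ (aM₀ : (heckeAlgebra N 2 (↑B : Set ℕ)) →+* Module.End 𝒪 (LinearMap.range (s59t_E0 (⊤ : Subgroup (ZMod N)ˣ) B e))),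
    ∃ (haM₀ : ∀ t (z : LinearMap.range (s59t_E0 (⊤ : Subgroup (ZMod N)ˣ) B e)), ((aM₀ t z : LinearMap.range (s59t_E0 (⊤ : Subgroup (ZMod N)ˣ) B e)) :
      (s48h_Hpar 𝒪 (s48h_GammaH N (⊤ : Subgroup (ZMod N)ˣ)) 𝒪)) = a₀ t (z : (s48h_Hpar 𝒪 (s48h_GammaH N (⊤ : Subgroup (ZMod N)ˣ)) 𝒪))),
    ∃ (_ : IsLocalRing (s59e_adj 𝒪 aM₀)),
    ∃ (_ : IsNoetherianRing (s59e_adj 𝒪 aM₀)),
    ∃ (_ : Module.Finite 𝒪 (s59e_adj 𝒪 aM₀)),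
    ∃ (_ : IsAdicComplete (maximalIdeal (s59e_adj 𝒪 aM₀)) (s59e_adj 𝒪 aM₀)),
    ∃ (_ : IsLocalHom (algebraMap 𝒪 (s59e_adj 𝒪 aM₀))),
    ∃ (hRρ : ∀ (t : s59e_adj 𝒪 aM₀) (δ : (s59t_Delta N (⊤ : Subgroup (ZMod N)ˣ))) (y : LinearMap.range (s59t_E0 (⊤ : Subgroup (ZMod N)ˣ) B e)),
      t • (s59t_partRep (s59t_rho N (⊤ : Subgroup (ZMod N)ˣ) 𝒪 𝒪) hρ) δ y = (s59t_partRep (s59t_rho N (⊤ : Subgroup (ZMod N)ˣ) 𝒪 𝒪) hρ) δ (t • y)),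
    ∃ (θ₀ : D0.R →ₐ[𝒪] (s59e_adj 𝒪 aM₀)),
    ∃ (hθ₀ : Function.Surjective θ₀),
    ∃ (hθ₀l : IsLocalHom (θ₀ : D0.R →+* (s59e_adj 𝒪 aM₀))),
      Function.Surjective (residue (s59e_adj 𝒪 aM₀) ∘ algebraMap 𝒪 (s59e_adj 𝒪 aM₀)) ∧
      Module.Finite (s59e_adj 𝒪 aM₀) (s59t_EigT (s59t_partRep (s59t_rho N (⊤ : Subgroup (ZMod N)ˣ) 𝒪 𝒪) hρ) ⊤ (1 : (s59t_Delta N (⊤ : Subgroup (ZMod N)ˣ)) →* 𝒪ˣ) hRρ) ∧
      Nontrivial (s59t_EigT (s59t_partRep (s59t_rho N (⊤ : Subgroup (ZMod N)ˣ) 𝒪 𝒪) hρ) ⊤ (1 : (s59t_Delta N (⊤ : Subgroup (ZMod N)ˣ)) →* 𝒪ˣ) hRρ) ∧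
      (∀ (ℓ : ℕ), ℓ.Prime → ¬ ℓ ∣ N → ℓ ∉ (↑B : Set ℕ) →
        ∀ A : ValuationSubring (AlgebraicClosure ℚ), A.LiesOverPrime ℓ →
        ∀ g : Γℚ, A.IsFrobeniusAt g ℓ →
          LinearMap.charpoly ((D0.ρ.baseChangeAlong (θ₀ : D0.R →+* (s59e_adj 𝒪 aM₀)) hθ₀l).ρ g) =
            Polynomial.X ^ 2 - Polynomial.C (s59e_tOf (↑B : Set ℕ) aM₀ ℓ) * Polynomial.X +
              Polynomial.C ((ℓ : (s59e_adj 𝒪 aM₀)))) ∧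
      (Algebra.adjoin 𝒪 {x : (s59e_adj 𝒪 aM₀) | ∃ ℓ : ℕ, ℓ.Prime ∧ ¬ ℓ ∣ N ∧
        ℓ ∉ (↑B : Set ℕ) ∧ x = s59e_tOf (↑B : Set ℕ) aM₀ ℓ} = ⊤) ∧
      ((D0.ρ.baseChangeAlong (θ₀ : D0.R →+* (s59e_adj 𝒪 aM₀)) hθ₀l).residual.IsEquiv
        ((s59i_rhobarW W p hΔ 𝒪 hp𝒪).baseChangeAlong (ResidueField.map (algebraMap 𝒪 (s59e_adj 𝒪 aM₀))))) ∧
      (GaloisRep.flatCondition 𝒪 p Sg (D0.ρ.baseChangeAlong (θ₀ : D0.R →+* (s59e_adj 𝒪 aM₀)) hθ₀l) ∧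
        ∀ q ∈ Su, q.Prime → q ≠ p → (D0.ρ.baseChangeAlong (θ₀ : D0.R →+* (s59e_adj 𝒪 aM₀)) hθ₀l).IsUnipotentOnInertiaAt q) ∧
      (∀ g, θ₀ (s59i_cpTr D0.ρ g) = s59i_cpTr (D0.ρ.baseChangeAlong (θ₀ : D0.R →+* (s59e_adj 𝒪 aM₀)) hθ₀l) g) ∧
      (∀ x : D0.R, κ x = 0 → θ₀ x = 0) := by
  classical
  have hpP : p.Prime := Fact.out
  have htors : s59e_auxTors p N := s59e3_auxTors_even hpP hp2 h23
  have hNB : ∀ q : ℕ, q.Prime → q ∣ N → q ∈ B := fun q hq h => hB1 q hq (Dvd.dvd.mul_right h p)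
  have hpB : p ∈ B := hB1 p hpP (Dvd.intro_left N rfl)
  have hnegH : (-1 : (ZMod N)ˣ) ∈ (⊤ : Subgroup (ZMod N)ˣ) := Subgroup.mem_top _
  have hH : ∀ u : (ZMod N)ˣ, ∃ k : ℕ, u ^ (p ^ k) ∈ (⊤ : Subgroup (ZMod N)ˣ) :=
    fun u => ⟨0, Subgroup.mem_top _⟩
  -- the base package at `(N, ⊤)`
  -- (`choose` instead of `obtain` throughout: `rcases` is pathologically slow against the giant goal)
  have hpkg := s59e_W_base_pkg W hΔ p hirr N hsq B hocc (𝒪 := 𝒪) hp𝒪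
      (⊤ : Subgroup (ZMod N)ˣ) hnegH hH htors
  choose e h1e hunit hid hne hnil hpk7 hpk8 hpk9 hP3 using hpkg
  choose hρa hρ d ba b0 πa hba hb0 hP3rest using hP3
  have hd0 : d ≠ 0 := (s59t_part_ne_zero_iff _ b0 hb0).1 hne
  -- (B2) at the base level
  have hB2₀ := s59efl_base_B2_free p hp2 W hΔ N B hirr hsq hpN hB1 hB2 𝒪 hp𝒪 Sg' Su' Smin hpSg hSg hmin D0'
    (s59t_E0 (⊤ : Subgroup (ZMod N)ˣ) B e) hid hne (fun jdx => s59e_E0_comm_op _ B e jdx) hnil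
  choose a₀ aM₀ ha1₀ ha2₀ haM₀ hlocA₀ hlr₀ θ' hθ' hfrob' hcong₀ using hB2₀
  haveI : IsLocalRing (s59e_adj 𝒪 aM₀) := hlr₀
  -- the map from `D0.R` (through helper6's abstract lemma `s59q_st_theta_comp`, QStLvlA.lean: in this giant context the direct
  -- `rw [hθcoe, ← Polynomial.map_map, hκc]` takes tens of minutes)
  have hθpk := s59q_st_theta_comp D0 D0' κ hκs hκc θ' hθ' B (s59e_tOf (↑B : Set ℕ) aM₀) hfrob'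
  choose θ₀ hθ₀ hfrob₀ hθκ using hθpk
  -- freeness and finiteness of `Y`
  let bZ₀ := Module.Free.chooseBasis ℤ (s48h_M (s48h_GammaH N (⊤ : Subgroup (ZMod N)ˣ)))
  haveI : Module.Free 𝒪 (s48h_Hpar 𝒪 (s48h_GammaH N (⊤ : Subgroup (ZMod N)ˣ)) 𝒪) :=
    Module.Free.of_basis (s59u_cB bZ₀ 𝒪)
  haveI : Module.Finite 𝒪 (s48h_Hpar 𝒪 (s48h_GammaH N (⊤ : Subgroup (ZMod N)ˣ)) 𝒪) :=
    Module.Finite.of_basis (s59u_cB bZ₀ 𝒪)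
  haveI hfin₀ : Module.Finite 𝒪 (LinearMap.range (s59t_E0 (⊤ : Subgroup (ZMod N)ˣ) B e)) :=
    s59t_part_finite _
  haveI hfree₀ : Module.Free 𝒪 (LinearMap.range (s59t_E0 (⊤ : Subgroup (ZMod N)ˣ) B e)) :=
    s59t_part_free hid
  haveI hYnt : Nontrivial (LinearMap.range (s59t_E0 (⊤ : Subgroup (ZMod N)ˣ) B e)) := s59e_L_range_nontrivial _ hne
  haveI hlh₀ : IsLocalHom (algebraMap 𝒪 (s59e_adj 𝒪 aM₀)) := s59e_adj_isLocalHom aM₀ hlocA₀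
  have hnoeth₀ : IsNoetherianRing (s59e_adj 𝒪 aM₀) := s59e_adj_noeth aM₀
  have hcompl₀ : IsAdicComplete (maximalIdeal (s59e_adj 𝒪 aM₀)) (s59e_adj 𝒪 aM₀) :=
    s59e_adj_complete aM₀
  have hfinR₀ : Module.Finite 𝒪 (s59e_adj 𝒪 aM₀) := s59e_adj_finite aM₀
  have hbf :=
    s59efl_base_facts p hp2 W hΔ N B hirr hB1 hB2 𝒪 hp𝒪 Sg Su D0
      (s59t_E0 (⊤ : Subgroup (ZMod N)ˣ) B e) hid hne hρ d b0 hb0 a₀ aM₀ ha2₀ haM₀ hlocA₀ θ₀ hθ₀ hfrob₀ hcong₀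
  choose hlh hθ₀l hRρ hRres hMfin hMnt hfrobR hgenR hresR htype hν using hbf
  exact ⟨e, h1e, hid, hnil, hρ, d, hd0, b0, hb0, a₀, ha1₀, aM₀, haM₀, hlr₀, hnoeth₀, hfinR₀, hcompl₀, hlh,
    hRρ, θ₀, hθ₀, hθ₀l, hRres, hMfin, hMnt, hfrobR, hgenR, hresR, htype, hν, hθκ⟩

end Fermat.Agent.Lib.S59
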