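/-
Programme R2 (S59), node [PATCH-FLR], `T`-side, p = 3 port ([SPEC-T], helper8, prefix `s59c3_`), file 3:
**exports at the base level `(N, ⊤)`** for the base point of the spectator cases (helper3 #3895, helper1 #3912/#3924).
(The theorems with concrete types carry the name component `Internal`: Lean's premise-selection exporters `symbolFrequency`/`sineQueNon`
walk the type of every theorem as a TREE at `.olean` export and skip such names — 306 s saved on this file.)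
* `s59c3_EigT_faithful_gen` : a subalgebra `𝒪[aM(A)] ⊆ End_𝒪 Y` acts faithfully on an eigen-part `s59t_EigT ρ C ψ` which is all of `Y`;
* `Internal.s59c3_EigT_top_faithful` : (E2) — at the base level `(N, ⊤)` the Hecke ring `𝒪[aM₀(𝕋)] ⊆ End_𝒪 (ε H_par)` acts faithfully on
  the module `s59t_EigT … ⊤ 1` (which is all of `ε H_par`, the diamond group of `(N, ⊤)` being trivial).
-/
import Mathlib
import Fermat.Agent.Lib.S59.EFlrConcA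
import Fermat.Agent.Lib.S59.TEigT
import Fermat.Agent.Lib.S59.EFlrB2
import Fermat.Agent.Lib.S59.TGHOps
import Fermat.Agent.Lib.S59.ETBaseD
import Fermat.Agent.Lib.S59.TPolyAct
import Fermat.Agent.Lib.S59.TLvlQ3
import Fermat.Agent.Lib.S59.EHRel2
import Fermat.Agent.Lib.S59.LFinB1

set_option autoImplicit false
set_option linter.unusedSectionVars false
set_option linter.unusedVariables false
set_option linter.style.haveILetI false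
set_option synthInstance.maxHeartbeats 400000
set_option maxHeartbeats 1600000
set_option maxSynthPendingDepth 3
set_option backward.isDefEq.respectTransparency.types true

noncomputable section

namespace Fermat.Agent.Lib.S59

open IsLocalRing CongruenceSubgroup
open Fermat.Agent.Lib.S48
open scoped MatrixGroups

section FaithfulGen

variable {𝒪 : Type} [CommRing 𝒪] {Δ : Type} [CommGroup Δ] [Fintype Δ]
  {Y : Type} [AddCommGroup Y] [Module 𝒪 Y] (ρ : Δ →* Module.End 𝒪 Y) (C : Subgroup Δ) (ψ : Δ →* 𝒪ˣ)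
  {A : Type} [CommRing A] (aM : A →+* Module.End 𝒪 Y)
  (hRρ : ∀ (t : s59e_adj 𝒪 aM) (δ : Δ) (y : Y), t • ρ δ y = ρ δ (t • y))

/-- a subalgebra `𝒪[aM(A)] ⊆ End_𝒪 Y` acts faithfully on an eigen-part which is all of `Y`. -/
theorem s59c3_EigT_faithful_gen (hall : ∀ y : Y, y ∈ s59t_eig ρ C ψ) (a : s59e_adj 𝒪 aM)
    (h : ∀ mm : s59t_EigT ρ C ψ hRρ, a • mm = 0) : a = 0 := by
  refine Subtype.ext (LinearMap.ext fun y => ?_)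
  have h1 := h (s59t_EigT_mk ρ C ψ hRρ y (hall y))
  have h2 := congrArg (s59t_EigT_val ρ C ψ hRρ) h1
  rw [s59t_EigT_val_smul, s59t_EigT_val_mk, map_zero] at h2
  exact h2

end FaithfulGen

section Faithful

variable {𝒪 : Type} [CommRing 𝒪] (N : ℕ) [NeZero N]
  {ε : Module.End 𝒪 (s48h_Hpar 𝒪 (s48h_GammaH N (⊤ : Subgroup (ZMod N)ˣ)) 𝒪)}
  (hρ : ∀ δ y, ε (s59t_rho N (⊤ : Subgroup (ZMod N)ˣ) 𝒪 𝒪 δ y) =
    s59t_rho N (⊤ : Subgroup (ZMod N)ˣ) 𝒪 𝒪 δ (ε y))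
  {A : Type} [CommRing A] (aM₀ : A →+* Module.End 𝒪 (LinearMap.range ε))
  (hRρ : ∀ (t : s59e_adj 𝒪 aM₀) (δ : s59t_Delta N (⊤ : Subgroup (ZMod N)ˣ)) (y : LinearMap.range ε),
    t • (s59t_partRep (s59t_rho N (⊤ : Subgroup (ZMod N)ˣ) 𝒪 𝒪) hρ) δ y =
      (s59t_partRep (s59t_rho N (⊤ : Subgroup (ZMod N)ˣ) 𝒪 𝒪) hρ) δ (t • y))

/-- **(E2)**: faithfulness of the base module over the base Hecke ring. -/
theorem Internal.s59c3_EigT_top_faithful (a : s59e_adj 𝒪 aM₀)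
    (h : ∀ mm : s59t_EigT (s59t_partRep (s59t_rho N (⊤ : Subgroup (ZMod N)ˣ) 𝒪 𝒪) hρ) ⊤
      (1 : s59t_Delta N (⊤ : Subgroup (ZMod N)ˣ) →* 𝒪ˣ) hRρ, a • mm = 0) : a = 0 :=
  s59c3_EigT_faithful_gen (s59t_partRep (s59t_rho N (⊤ : Subgroup (ZMod N)ˣ) 𝒪 𝒪) hρ) ⊤
    (1 : s59t_Delta N (⊤ : Subgroup (ZMod N)ˣ) →* 𝒪ˣ) aM₀ hRρ (s59efl_eig_top_base N hρ) a h

end Faithful

section Unram

local notation "Γℚ" => (AlgebraicClosure ℚ ≃ₐ[ℚ] AlgebraicClosure ℚ)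

open TensorProduct in
/-- the converse of `s59efl_bc_kill`: if `φ` kills the coefficients `f (ρ(g) v − v)`, then `g` acts trivially on the base change
`B ⊗_A V`. -/
theorem s59c3_bc_one_of_kill {A B : Type} [CommRing A] [IsLocalRing A] [CommRing B] [IsLocalRing B]
    (φ : A →+* B) (hφ : IsLocalHom φ) (ρ : GaloisRepAdic A) (g : Γℚ)
    (h : ∀ (f : Module.Dual A ρ.V) (v : ρ.V), φ (f (ρ.ρ g v - v)) = 0) :
    (ρ.baseChangeAlong φ hφ).ρ g = 1 := by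
  letI : Algebra A B := φ.toAlgebra
  show (ρ.ρ g).baseChange B = 1
  refine LinearMap.ext fun x => ?_
  induction x using TensorProduct.induction_on with
  | zero => simp only [map_zero]
  | add x y hx hy => simp only [map_add, hx, hy]
  | tmul b v =>
    rw [LinearMap.baseChange_tmul, Module.End.one_apply]
    have hw : b ⊗ₜ[A] (ρ.ρ g v - v) = 0 := by
      have hs := (Module.Free.chooseBasis A ρ.V).sum_repr (ρ.ρ g v - v)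
      rw [← hs, TensorProduct.tmul_sum]
      refine Finset.sum_eq_zero fun i _ => ?_
      have hc : (Module.Free.chooseBasis A ρ.V).repr (ρ.ρ g v - v) i =
          (Module.Free.chooseBasis A ρ.V).coord i (ρ.ρ g v - v) := rfl
      rw [← TensorProduct.smul_tmul, hc, Algebra.smul_def]
      have h0 : algebraMap A B ((Module.Free.chooseBasis A ρ.V).coord i (ρ.ρ g v - v)) = 0 :=
        h ((Module.Free.chooseBasis A ρ.V).coord i) v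
      rw [h0, zero_mul, TensorProduct.zero_tmul]
    rw [TensorProduct.tmul_sub, sub_eq_zero] at hw
    exact hw

/-- unramifiedness of a base change from the vanishing of the inertia coefficients. -/
theorem s59c3_bc_unram_of_kill {A B : Type} [CommRing A] [IsLocalRing A] [CommRing B] [IsLocalRing B]
    (φ : A →+* B) (hφ : IsLocalHom φ) (ρ : GaloisRepAdic A) (q : ℕ)
    (h : ∀ P : ValuationSubring (AlgebraicClosure ℚ), P.LiesOverPrime q →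
      ∀ σ ∈ P.inertiaSubgroupIn ℚ, ∀ (f : Module.Dual A ρ.V) (v : ρ.V), φ (f (ρ.ρ σ v - v)) = 0) :
    (ρ.baseChangeAlong φ hφ).IsUnramifiedAt q :=
  fun P hP σ hσ => s59c3_bc_one_of_kill φ hφ ρ σ (h P hP σ hσ)

end Unram

section OpOne

variable {𝒪 : Type} [CommRing 𝒪] {M : ℕ} [NeZero M] (H : Subgroup (ZMod M)ˣ)

/-- the diamond operator of the identity is the identity. -/
theorem s59c3_op_inr_one : s59w_op H 𝒪 (Sum.inr (1 : Gamma0 M)) = 1 := by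
  have h := s59t_rho_eq_op (H := H) (𝒪 := 𝒪) (1 : Gamma0 M)
  have h1 : (⟨((1 : Gamma0 M) : SL(2, ℤ))⁻¹, inv_mem (1 : Gamma0 M).2⟩ : Gamma0 M) = 1 :=
    Subtype.ext (by
      show ((1 : Gamma0 M) : SL(2, ℤ))⁻¹ = ((1 : Gamma0 M) : SL(2, ℤ))
      simp only [OneMemClass.coe_one, inv_one])
  rw [h1] at h
  rw [← h, QuotientGroup.mk_one, map_one]

/-- the twisted Hecke operator with exponent `0` is the Hecke operator. -/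
theorem s59c3_Tp'_zero (i : s59w_TIdx M) : s59e_Tp' H 𝒪 0 i = s59w_op H 𝒪 (Sum.inl i) := by
  unfold s59e_Tp' s59e_tau
  rw [pow_zero, s59c3_op_inr_one, one_mul]

end OpOne

section ConcGen

open CuspForm

variable {𝒪 : Type} [CommRing 𝒪] {H₀ : Type} [AddCommGroup H₀] [Module 𝒪 H₀] {J : Type}
  (ops : J → Module.End 𝒪 H₀) (hops : ∀ i j, ops i * ops j = ops j * ops i)
  (ε : Module.End 𝒪 H₀)
  {N : ℕ} [NeZero N] (S : Set ℕ)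
  (aM₀ : heckeAlgebra N 2 S →+* Module.End 𝒪 (LinearMap.range ε))

/-- **(E-conc), part 1, abstract form**: if the generators `aM₀(T_ℓ)` of the Hecke ring `𝒪[aM₀(𝕋)] ⊆ End (range ε)` are restrictions
of operators of a commuting family `ops`, every element of the Hecke ring is the restriction of a polynomial in `ops`. -/
theorem s59c3_conc_poly_gen
    (h1 : ∀ (ℓ : ℕ) (hℓ : ℓ.Prime) (hℓN : ¬ ℓ ∣ N) (hℓS : ℓ ∉ S), ∃ j : J, ∀ z : LinearMap.range ε,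
      ((aM₀ (heckeAlgebra.T hℓ hℓN hℓS) z : LinearMap.range ε) : H₀) = ops j (z : H₀))
    (hgenR : Algebra.adjoin 𝒪 {x : s59e_adj 𝒪 aM₀ | ∃ ℓ : ℕ, ℓ.Prime ∧ ¬ ℓ ∣ N ∧
      ℓ ∉ S ∧ x = s59e_tOf S aM₀ ℓ} = ⊤)
    (t : s59e_adj 𝒪 aM₀) :
    ∃ P : MvPolynomial J 𝒪, ∀ z : LinearMap.range ε,
      ((((s59e_adj 𝒪 aM₀).val t) z : LinearMap.range ε) : H₀) = s59t_polyAct ops hops P (z : H₀) := by
  have ht : t ∈ Algebra.adjoin 𝒪 {x : s59e_adj 𝒪 aM₀ | ∃ ℓ : ℕ, ℓ.Prime ∧ ¬ ℓ ∣ N ∧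
      ℓ ∉ S ∧ x = s59e_tOf S aM₀ ℓ} := by
    rw [hgenR]
    exact Algebra.mem_top
  induction ht using Algebra.adjoin_induction with
  | mem x hx =>
    obtain ⟨ℓ, hℓ, hℓN, hℓS, rfl⟩ := hx
    obtain ⟨j, hj⟩ := h1 ℓ hℓ hℓN hℓS
    refine ⟨MvPolynomial.X j, fun z => ?_⟩
    rw [s59t_polyAct_X, ← hj z]
    show ((((s59e_tOf S aM₀ ℓ : s59e_adj 𝒪 aM₀) : Module.End 𝒪 (LinearMap.range ε)) z :
      LinearMap.range ε) : H₀) = _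
    rw [s59e_tOf_coe S aM₀ hℓ hℓN hℓS]
  | algebraMap r =>
    refine ⟨MvPolynomial.C r, fun z => ?_⟩
    rw [s59t_polyAct_C, AlgHom.commutes, Module.algebraMap_end_apply, LinearMap.smul_apply,
      Module.End.one_apply, Submodule.coe_smul]
  | add x y _ _ hx hy =>
    obtain ⟨P, hP⟩ := hx
    obtain ⟨Q, hQ⟩ := hy
    refine ⟨P + Q, fun z => ?_⟩
    rw [map_add, map_add, LinearMap.add_apply, LinearMap.add_apply, Submodule.coe_add, hP z, hQ z]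
  | mul x y _ _ hx hy =>
    obtain ⟨P, hP⟩ := hx
    obtain ⟨Q, hQ⟩ := hy
    refine ⟨P * Q, fun z => ?_⟩
    rw [map_mul, map_mul, Module.End.mul_apply, Module.End.mul_apply, hP, hQ z]

end ConcGen

section Conc

open CuspForm

local notation "Γℚ" => (AlgebraicClosure ℚ ≃ₐ[ℚ] AlgebraicClosure ℚ)

variable {𝒪 : Type} [CommRing 𝒪] (p : ℕ) (N : ℕ) [NeZero N] (B : Finset ℕ)
  (e : MvPolynomial ↥(s59t_goodB N B) 𝒪)
  (a₀ : (heckeAlgebra N 2 (↑B : Set ℕ)) →+* Module.End 𝒪 (s48h_Hpar 𝒪 (s48h_GammaH N (⊤ : Subgroup (ZMod N)ˣ)) 𝒪))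
  (ha1₀ : ∀ (ℓ : ℕ) (hℓ : ℓ.Prime) (hℓN : ¬ ℓ ∣ N) (hℓS : ℓ ∉ (↑B : Set ℕ)) (i : s59w_TIdx N),
    i.ell = ℓ → a₀ (heckeAlgebra.T hℓ hℓN hℓS) = s59e_Tp' (⊤ : Subgroup (ZMod N)ˣ) 𝒪 ((p ^ 0 - 1) * ((p ^ 0 + 1) / 2)) i)
  (aM₀ : (heckeAlgebra N 2 (↑B : Set ℕ)) →+* Module.End 𝒪 (LinearMap.range (s59t_E0 (⊤ : Subgroup (ZMod N)ˣ) B e)))
  (haM₀ : ∀ t (z : LinearMap.range (s59t_E0 (⊤ : Subgroup (ZMod N)ˣ) B e)), ((aM₀ t z : LinearMap.range (s59t_E0 (⊤ : Subgroup (ZMod N)ˣ) B e)) :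
    (s48h_Hpar 𝒪 (s48h_GammaH N (⊤ : Subgroup (ZMod N)ˣ)) 𝒪)) = a₀ t (z : (s48h_Hpar 𝒪 (s48h_GammaH N (⊤ : Subgroup (ZMod N)ˣ)) 𝒪)))

include ha1₀ haM₀ in
/-- the generators of the base Hecke ring are the Hecke operators `T_ℓ`. -/
theorem Internal.s59c3_aM_T (ℓ : ℕ) (hℓ : ℓ.Prime) (hℓN : ¬ ℓ ∣ N) (hℓS : ℓ ∉ (↑B : Set ℕ)) (i : s59w_TIdx N) (hi : i.ell = ℓ)
    (z : LinearMap.range (s59t_E0 (⊤ : Subgroup (ZMod N)ˣ) B e)) :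
    ((aM₀ (heckeAlgebra.T hℓ hℓN hℓS) z : LinearMap.range (s59t_E0 (⊤ : Subgroup (ZMod N)ˣ) B e)) :
      (s48h_Hpar 𝒪 (s48h_GammaH N (⊤ : Subgroup (ZMod N)ˣ)) 𝒪)) =
      s59w_op (⊤ : Subgroup (ZMod N)ˣ) 𝒪 (Sum.inl i) (z : (s48h_Hpar 𝒪 (s48h_GammaH N (⊤ : Subgroup (ZMod N)ˣ)) 𝒪)) := by
  have h0 : (p ^ 0 - 1) * ((p ^ 0 + 1) / 2) = 0 := by simp
  rw [haM₀, ha1₀ ℓ hℓ hℓN hℓS i hi, h0, s59c3_Tp'_zero]

include ha1₀ haM₀ in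
/-- **(E-conc), part 1**: every element of the base Hecke ring is the restriction of a polynomial in the good Hecke operators. -/
theorem Internal.s59c3_conc_poly
    (hgenR : Algebra.adjoin 𝒪 {x : s59e_adj 𝒪 aM₀ | ∃ ℓ : ℕ, ℓ.Prime ∧ ¬ ℓ ∣ N ∧
      ℓ ∉ (↑B : Set ℕ) ∧ x = s59e_tOf (↑B : Set ℕ) aM₀ ℓ} = ⊤)
    (t : s59e_adj 𝒪 aM₀) :
    ∃ P : MvPolynomial ↥(s59t_goodB N B) 𝒪, ∀ z : LinearMap.range (s59t_E0 (⊤ : Subgroup (ZMod N)ˣ) B e),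
      ((((s59e_adj 𝒪 aM₀).val t) z : LinearMap.range (s59t_E0 (⊤ : Subgroup (ZMod N)ˣ) B e)) :
        (s48h_Hpar 𝒪 (s48h_GammaH N (⊤ : Subgroup (ZMod N)ˣ)) 𝒪)) =
        s59t_E0 (⊤ : Subgroup (ZMod N)ˣ) B P (z : (s48h_Hpar 𝒪 (s48h_GammaH N (⊤ : Subgroup (ZMod N)ˣ)) 𝒪)) := by
  refine s59c3_conc_poly_gen (fun x : ↥(s59t_goodB N B) => s59w_op (⊤ : Subgroup (ZMod N)ˣ) 𝒪 (x : s59w_AIdx N))
    (fun x y => s59w_op_comm (⊤ : Subgroup (ZMod N)ˣ) 𝒪 _ _) (s59t_E0 (⊤ : Subgroup (ZMod N)ˣ) B e) (↑B : Set ℕ) aM₀ ?_ hgenR t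
  intro ℓ hℓ hℓN hℓS
  obtain ⟨i, hi⟩ := s59e_exists_TIdx (M := N) hℓ hℓN
  refine ⟨⟨Sum.inl i, s59t_inl_mem_goodB B i (by rw [hi]; exact fun h => hℓS (Finset.mem_coe.mpr h))⟩, fun z => ?_⟩
  exact Internal.s59c3_aM_T p N B e a₀ ha1₀ aM₀ haM₀ ℓ hℓ hℓN hℓS i hi z

include ha1₀ haM₀ in
/-- **(E-conc), part 2, `tOf` form**: the element `aM₀(T_ℓ)` of the base Hecke ring acts as `T_ℓ`. -/
theorem Internal.s59c3_conc_tOf (ℓ : ℕ) (hℓ : ℓ.Prime) (hℓN : ¬ ℓ ∣ N) (hℓS : ℓ ∉ (↑B : Set ℕ))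
    (i : s59w_TIdx N) (hi : i.ell = ℓ)
    (z : LinearMap.range (s59t_E0 (⊤ : Subgroup (ZMod N)ˣ) B e)) :
    ((((s59e_adj 𝒪 aM₀).val (s59e_tOf (↑B : Set ℕ) aM₀ ℓ)) z : LinearMap.range (s59t_E0 (⊤ : Subgroup (ZMod N)ˣ) B e)) :
      (s48h_Hpar 𝒪 (s48h_GammaH N (⊤ : Subgroup (ZMod N)ˣ)) 𝒪)) =
      s59w_op (⊤ : Subgroup (ZMod N)ˣ) 𝒪 (Sum.inl i) (z : (s48h_Hpar 𝒪 (s48h_GammaH N (⊤ : Subgroup (ZMod N)ˣ)) 𝒪)) := by
  show ((((s59e_tOf (↑B : Set ℕ) aM₀ ℓ : s59e_adj 𝒪 aM₀) :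
    Module.End 𝒪 (LinearMap.range (s59t_E0 (⊤ : Subgroup (ZMod N)ˣ) B e))) z :
      LinearMap.range (s59t_E0 (⊤ : Subgroup (ZMod N)ˣ) B e)) :
      (s48h_Hpar 𝒪 (s48h_GammaH N (⊤ : Subgroup (ZMod N)ˣ)) 𝒪)) = _
  rw [s59e_tOf_coe (↑B : Set ℕ) aM₀ hℓ hℓN hℓS]
  exact Internal.s59c3_aM_T p N B e a₀ ha1₀ aM₀ haM₀ ℓ hℓ hℓN hℓS i hi z

include ha1₀ haM₀ in
/-- **(E-conc), part 2**: the trace of Frobenius at a good prime `ℓ` acts as `T_ℓ`. -/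
theorem Internal.s59c3_conc_frob [IsLocalRing (s59e_adj 𝒪 aM₀)] (ρR : GaloisRepAdic (s59e_adj 𝒪 aM₀))
    (hfrobR : ∀ (ℓ : ℕ), ℓ.Prime → ¬ ℓ ∣ N → ℓ ∉ (↑B : Set ℕ) →
      ∀ A : ValuationSubring (AlgebraicClosure ℚ), A.LiesOverPrime ℓ →
      ∀ g : Γℚ, A.IsFrobeniusAt g ℓ →
        LinearMap.charpoly (ρR.ρ g) =
          Polynomial.X ^ 2 - Polynomial.C (s59e_tOf (↑B : Set ℕ) aM₀ ℓ) * Polynomial.X +
            Polynomial.C ((ℓ : s59e_adj 𝒪 aM₀)))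
    (ℓ : ℕ) (hℓ : ℓ.Prime) (hℓB : ℓ ∉ B)
    (A : ValuationSubring (AlgebraicClosure ℚ)) (hA : A.LiesOverPrime ℓ) (φ : Γℚ) (hφ : A.IsFrobeniusAt φ ℓ)
    (i : s59w_TIdx N) (hi : i.ell = ℓ)
    (z : LinearMap.range (s59t_E0 (⊤ : Subgroup (ZMod N)ˣ) B e)) :
    ((((s59e_adj 𝒪 aM₀).val (s59i_cpTr ρR φ)) z : LinearMap.range (s59t_E0 (⊤ : Subgroup (ZMod N)ˣ) B e)) :
      (s48h_Hpar 𝒪 (s48h_GammaH N (⊤ : Subgroup (ZMod N)ˣ)) 𝒪)) =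
      s59w_op (⊤ : Subgroup (ZMod N)ˣ) 𝒪 (Sum.inl i) (z : (s48h_Hpar 𝒪 (s48h_GammaH N (⊤ : Subgroup (ZMod N)ˣ)) 𝒪)) := by
  have hℓN : ¬ ℓ ∣ N := hi ▸ i.ndvd
  have hℓS : ℓ ∉ (↑B : Set ℕ) := fun h => hℓB (Finset.mem_coe.mp h)
  have hcp := s59i_cpTr_of_charpoly ρR φ _ _ (hfrobR ℓ hℓ hℓN hℓS A hA φ hφ)
  have key : ∀ t : s59e_adj 𝒪 aM₀, t = s59e_tOf (↑B : Set ℕ) aM₀ ℓ →
      ((((s59e_adj 𝒪 aM₀).val t) z : LinearMap.range (s59t_E0 (⊤ : Subgroup (ZMod N)ˣ) B e)) :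
        (s48h_Hpar 𝒪 (s48h_GammaH N (⊤ : Subgroup (ZMod N)ˣ)) 𝒪)) =
      s59w_op (⊤ : Subgroup (ZMod N)ˣ) 𝒪 (Sum.inl i) (z : (s48h_Hpar 𝒪 (s48h_GammaH N (⊤ : Subgroup (ZMod N)ˣ)) 𝒪)) := by
    rintro _ rfl
    show ((((s59e_tOf (↑B : Set ℕ) aM₀ ℓ : s59e_adj 𝒪 aM₀) :
      Module.End 𝒪 (LinearMap.range (s59t_E0 (⊤ : Subgroup (ZMod N)ˣ) B e))) z :
        LinearMap.range (s59t_E0 (⊤ : Subgroup (ZMod N)ˣ) B e)) :
        (s48h_Hpar 𝒪 (s48h_GammaH N (⊤ : Subgroup (ZMod N)ˣ)) 𝒪)) = _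
    rw [s59e_tOf_coe (↑B : Set ℕ) aM₀ hℓ hℓN hℓS]
    exact Internal.s59c3_aM_T p N B e a₀ ha1₀ aM₀ haM₀ ℓ hℓ hℓN hℓS i hi z
  exact key _ hcp

end Conc

end Fermat.Agent.Lib.S59
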