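/-
Programme R2 (S59), node [PATCH-FLR], `T`-side, p = 3 port ([SPEC-T], helper8, prefix `s59c3_`), file 6:
**the export (E-conc)** (helper1 #3912/#3924): the CONCRETE MODEL of a base ring `R` (with its Galois representation `ρR`) at a level
`(N₀, ⊤)`.
* `s59c3_EConc 𝒪 N₀ B c R ρR` : there are a polynomial `e` in the good Hecke operators `T_ℓ` (`ℓ ∤ N₀`, `ℓ ∉ B`) of
  `H₀ = H¹_par(Γ_⊤(N₀), 𝒪)` with `1 − e ∈ s59t_evalIdeal c` (so `ε = s59t_E0 ⊤ B e = s59t_polyAct … e`), and an `𝒪`-algebra map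
  `act : R → End_𝒪 (range ε)`, INJECTIVE, every `act t` being the restriction of a polynomial `s59t_E0 ⊤ B P` in the good Hecke
  operators, and a trace function `tr : ℕ → R` with `charpoly ρR(Frob_ℓ) = X² − tr ℓ · X + ℓ` and `act (tr ℓ)` the restriction of
  `T_ℓ` for every `ℓ ∉ B`, `ℓ ∤ N₀` (the shape of the inputs `e he act hact ρT tr hfrob hacttr` of helper1's `s59pt_base0/1`).
* `Internal.s59c3_EConc_adj` : it holds for the Hecke ring `R = 𝒪[aM₀(𝕋)] ⊆ End_𝒪 (range ε)` of (B2).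
-/
import Mathlib
import Fermat.Agent.Lib.S59.C3FlrExp

set_option autoImplicit false
set_option linter.unusedSectionVars false
set_option linter.unusedVariables false
set_option linter.style.haveILetI false
set_option synthInstance.maxHeartbeats 400000
set_option maxHeartbeats 1600000
set_option maxSynthPendingDepth 3
set_option backward.isDefEq.respectTransparency.types true

noncomputable section

namespace Fermat.Agent.Lib.S59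

open IsLocalRing CongruenceSubgroup CuspForm
open Fermat.Agent.Lib.S48
open scoped MatrixGroups

local notation "Γℚ" => (AlgebraicClosure ℚ ≃ₐ[ℚ] AlgebraicClosure ℚ)

/-- **(E-conc): the concrete model of a base ring at the level `(N₀, ⊤)`.** -/
def s59c3_EConc (𝒪 : Type) [CommRing 𝒪] [IsLocalRing 𝒪] (N₀ : ℕ) [NeZero N₀] (B : Finset ℕ) (c : ℕ → ℤ)
    (R : Type) [CommRing R] [IsLocalRing R] [Algebra 𝒪 R] (ρR : GaloisRepAdic R) : Prop :=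
  ∃ (e : MvPolynomial ↥(s59t_goodB N₀ B) 𝒪)
    (act : R →ₐ[𝒪] Module.End 𝒪 (LinearMap.range (s59t_E0 (⊤ : Subgroup (ZMod N₀)ˣ) B e)))
    (tr : ℕ → R),
    1 - e ∈ s59t_evalIdeal (fun x : ↥(s59t_goodB N₀ B) => s59t_cB (𝒪 := 𝒪) N₀ c (x : s59w_AIdx N₀)) ∧
    (∀ t : R, ∃ P : MvPolynomial ↥(s59t_goodB N₀ B) 𝒪,
      ∀ z : LinearMap.range (s59t_E0 (⊤ : Subgroup (ZMod N₀)ˣ) B e),
        ((act t z : LinearMap.range (s59t_E0 (⊤ : Subgroup (ZMod N₀)ˣ) B e)) :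
          s48h_Hpar 𝒪 (s48h_GammaH N₀ (⊤ : Subgroup (ZMod N₀)ˣ)) 𝒪) =
          s59t_E0 (⊤ : Subgroup (ZMod N₀)ˣ) B P (z : s48h_Hpar 𝒪 (s48h_GammaH N₀ (⊤ : Subgroup (ZMod N₀)ˣ)) 𝒪)) ∧
    (∀ ℓ : ℕ, ℓ.Prime → ¬ ℓ ∣ N₀ → ℓ ∉ B →
      ∀ A : ValuationSubring (AlgebraicClosure ℚ), A.LiesOverPrime ℓ →
      ∀ φ : Γℚ, A.IsFrobeniusAt φ ℓ →
        LinearMap.charpoly (ρR.ρ φ) =
          Polynomial.X ^ 2 - Polynomial.C (tr ℓ) * Polynomial.X + Polynomial.C ((ℓ : R))) ∧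
    (∀ i : s59w_TIdx N₀, i.ell ∉ B →
      ∀ z : LinearMap.range (s59t_E0 (⊤ : Subgroup (ZMod N₀)ˣ) B e),
        ((act (tr i.ell) z : LinearMap.range (s59t_E0 (⊤ : Subgroup (ZMod N₀)ˣ) B e)) :
          s48h_Hpar 𝒪 (s48h_GammaH N₀ (⊤ : Subgroup (ZMod N₀)ˣ)) 𝒪) =
          s59w_op (⊤ : Subgroup (ZMod N₀)ˣ) 𝒪 (Sum.inl i)
            (z : s48h_Hpar 𝒪 (s48h_GammaH N₀ (⊤ : Subgroup (ZMod N₀)ˣ)) 𝒪)) ∧
    Function.Injective act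

section Adj

variable {𝒪 : Type} [CommRing 𝒪] [IsLocalRing 𝒪] (p : ℕ) (N : ℕ) [NeZero N] (B : Finset ℕ) (c : ℕ → ℤ)
  (e : MvPolynomial ↥(s59t_goodB N B) 𝒪)
  (h1e : 1 - e ∈ s59t_evalIdeal (fun x : ↥(s59t_goodB N B) => s59t_cB (𝒪 := 𝒪) N c (x : s59w_AIdx N)))
  (a₀ : (heckeAlgebra N 2 (↑B : Set ℕ)) →+* Module.End 𝒪 (s48h_Hpar 𝒪 (s48h_GammaH N (⊤ : Subgroup (ZMod N)ˣ)) 𝒪))
  (ha1₀ : ∀ (ℓ : ℕ) (hℓ : ℓ.Prime) (hℓN : ¬ ℓ ∣ N) (hℓS : ℓ ∉ (↑B : Set ℕ)) (i : s59w_TIdx N),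
    i.ell = ℓ → a₀ (heckeAlgebra.T hℓ hℓN hℓS) = s59e_Tp' (⊤ : Subgroup (ZMod N)ˣ) 𝒪 ((p ^ 0 - 1) * ((p ^ 0 + 1) / 2)) i)
  (aM₀ : (heckeAlgebra N 2 (↑B : Set ℕ)) →+* Module.End 𝒪 (LinearMap.range (s59t_E0 (⊤ : Subgroup (ZMod N)ˣ) B e)))
  (haM₀ : ∀ t (z : LinearMap.range (s59t_E0 (⊤ : Subgroup (ZMod N)ˣ) B e)), ((aM₀ t z : LinearMap.range (s59t_E0 (⊤ : Subgroup (ZMod N)ˣ) B e)) :
    (s48h_Hpar 𝒪 (s48h_GammaH N (⊤ : Subgroup (ZMod N)ˣ)) 𝒪)) = a₀ t (z : (s48h_Hpar 𝒪 (s48h_GammaH N (⊤ : Subgroup (ZMod N)ˣ)) 𝒪)))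

include h1e ha1₀ haM₀ in
/-- **(E-conc) for the Hecke ring of (B2) at the base level.** -/
theorem Internal.s59c3_EConc_adj [IsLocalRing (s59e_adj 𝒪 aM₀)] (ρR : GaloisRepAdic (s59e_adj 𝒪 aM₀))
    (hfrobR : ∀ (ℓ : ℕ), ℓ.Prime → ¬ ℓ ∣ N → ℓ ∉ (↑B : Set ℕ) →
      ∀ A : ValuationSubring (AlgebraicClosure ℚ), A.LiesOverPrime ℓ →
      ∀ g : Γℚ, A.IsFrobeniusAt g ℓ →
        LinearMap.charpoly (ρR.ρ g) =
          Polynomial.X ^ 2 - Polynomial.C (s59e_tOf (↑B : Set ℕ) aM₀ ℓ) * Polynomial.X +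
            Polynomial.C ((ℓ : s59e_adj 𝒪 aM₀)))
    (hgenR : Algebra.adjoin 𝒪 {x : s59e_adj 𝒪 aM₀ | ∃ ℓ : ℕ, ℓ.Prime ∧ ¬ ℓ ∣ N ∧
      ℓ ∉ (↑B : Set ℕ) ∧ x = s59e_tOf (↑B : Set ℕ) aM₀ ℓ} = ⊤) :
    s59c3_EConc 𝒪 N B c (s59e_adj 𝒪 aM₀) ρR :=
  ⟨e, (s59e_adj 𝒪 aM₀).val, s59e_tOf (↑B : Set ℕ) aM₀, h1e,
    fun t => Internal.s59c3_conc_poly p N B e a₀ ha1₀ aM₀ haM₀ hgenR t,
    fun ℓ hℓ hℓN hℓB A hA φ hφ => hfrobR ℓ hℓ hℓN (fun h => hℓB (Finset.mem_coe.mp h)) A hA φ hφ,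
    fun i hi z => Internal.s59c3_conc_tOf p N B e a₀ ha1₀ aM₀ haM₀ i.ell i.prime i.ndvd
      (fun h => hi (Finset.mem_coe.mp h)) i rfl z,
    Subtype.val_injective⟩

end Adj

end Fermat.Agent.Lib.S59
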