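/-
Programme R2 (S59), helper5 (prefix `s59e_`): **the Hecke-map predicate `s59e_HkFrobP` of a base ring** and its instance on the
concrete Hecke rings `𝒪[aM(𝕋)] = s59e_adj 𝒪 aM` (ABSTRACT in `aM`; stating the same property inline over the concrete ring of
ELPkg.lean made the elaborator unfold the instances of the concrete ring: > 30 minutes).

* `s59e_HkFrobP N S R ρR` : `∃ hk : heckeAlgebra N 2 S →+* R`, the characteristic polynomial of `ρR(Frob_ℓ)` is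
  `X² − hk(T_ℓ) X + ℓ` for all primes `ℓ ∤ N`, `ℓ ∉ S`;
* `s59e_HkFrobP_adj`      : it holds for `R = s59e_adj 𝒪 aM` as soon as the characteristic polynomials are
  `X² − s59e_tOf S aM ℓ · X + ℓ`  (`hk := s59e_adjHom 𝒪 aM`).
-/
import Mathlib
import Fermat.Agent.Lib.S59.ETBaseD

set_option autoImplicit false
set_option linter.unusedSectionVars false
set_option linter.unusedVariables false

noncomputable section

namespace Fermat.Agent.Lib.S59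

open IsLocalRing CuspForm Polynomial

local notation "Γℚ" => (AlgebraicClosure ℚ ≃ₐ[ℚ] AlgebraicClosure ℚ)

/-- **the Hecke map of a base ring**: a ring homomorphism `hk : 𝕋(N)^{S} → R` with
`charpoly ρR(Frob_ℓ) = X² − hk(T_ℓ) X + ℓ` for the primes `ℓ ∤ N`, `ℓ ∉ S`. -/
def s59e_HkFrobP (N : ℕ) [NeZero N] (S : Set ℕ) (R : Type) [CommRing R] [IsLocalRing R]
    (ρR : GaloisRepAdic R) : Prop :=
  ∃ hk : heckeAlgebra N 2 S →+* R,
    ∀ (ℓ : ℕ) (hℓ : ℓ.Prime) (hℓN : ¬ ℓ ∣ N) (hℓS : ℓ ∉ S),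
    ∀ A : ValuationSubring (AlgebraicClosure ℚ), A.LiesOverPrime ℓ →
    ∀ g : Γℚ, A.IsFrobeniusAt g ℓ →
      LinearMap.charpoly (ρR.ρ g) =
        X ^ 2 - C (hk (heckeAlgebra.T hℓ hℓN hℓS)) * X + C ((ℓ : R))

theorem s59e_HkFrobP_adj {𝒪 : Type} [CommRing 𝒪] {E : Type} [Ring E] [Algebra 𝒪 E]
    {M₁ : ℕ} [NeZero M₁] (S : Set ℕ) (aM : heckeAlgebra M₁ 2 S →+* E)
    [IsLocalRing (s59e_adj 𝒪 aM)] (ρ : GaloisRepAdic (s59e_adj 𝒪 aM))
    (h : ∀ (ℓ : ℕ), ℓ.Prime → ¬ ℓ ∣ M₁ → ℓ ∉ S →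
      ∀ A : ValuationSubring (AlgebraicClosure ℚ), A.LiesOverPrime ℓ →
      ∀ g : Γℚ, A.IsFrobeniusAt g ℓ →
        LinearMap.charpoly (ρ.ρ g) =
          Polynomial.X ^ 2 - Polynomial.C (s59e_tOf S aM ℓ) * Polynomial.X +
            Polynomial.C ((ℓ : s59e_adj 𝒪 aM))) :
    s59e_HkFrobP M₁ S (s59e_adj 𝒪 aM) ρ := by
  refine ⟨s59e_adjHom 𝒪 aM, ?_⟩
  intro ℓ hℓ hℓN hℓS A hA g hg
  have h' := h ℓ hℓ hℓN hℓS A hA g hg
  rw [s59e_tOf_eq S aM hℓ hℓN hℓS] at h'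
  exact h'

end Fermat.Agent.Lib.S59
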