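/-
Programme R2 (S59), node [PATCH-FLR], `T`-side, p = 3 port ([SPEC-T], helper8, prefix `s59c3_`), file 2:
**THE STATEMENT OF THE FINAL `T`-SIDE THEOREM, EVEN LEVELS, ANY ODD `p`** — copy of helper5's `EFlrFinS.lean` (`s59efl_TFin`) with `5 ≤ p`
replaced by `p ≠ 2` and `2 ∣ N t ∨ 3 ∣ N t` by `2 ∣ N t`, PLUS the two exports at the level `0` asked by helper3 (#3895) for the base
point of the spectator cases (c1)/(c2): (E1) the Hecke map of the base ring `Bs.R 0`, (E2) faithfulness of `Bs.M 0` over `Bs.R 0`.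
A spectator prime `s ∣ N 0` (here `s = 2`) is an ordinary member of `Sg0` (left disjunct of `hSgN`) and of `Su`.
-/
import Mathlib
import Fermat.Agent.Lib.S59.FAsmPkg
import Fermat.Agent.Lib.S59.ELPkgHb
import Fermat.Agent.Lib.S59.E3E2a
import Fermat.Agent.Lib.S59.LFinW1

set_option autoImplicit false
set_option linter.unusedSectionVars false
set_option linter.unusedVariables false
set_option linter.style.haveILetI false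
set_option synthInstance.maxHeartbeats 400000
set_option maxHeartbeats 1600000

noncomputable section

namespace Fermat.Agent.Lib.S59

open IsLocalRing Polynomial
open Fermat.Agent.Lib.S53 (NormData)

local notation "Γℚ" => (AlgebraicClosure ℚ ≃ₐ[ℚ] AlgebraicClosure ℚ)

/-- **the final `T`-side statement of [PATCH-FLR]** (`p` odd, even levels, flat at `p`). -/
def s59c3_TFin (p : ℕ) [Fact p.Prime] (W : WeierstrassCurve ℤ) (hΔ : W.Δ ≠ 0) : Prop :=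
  ∀ (hp2 : p ≠ 2) (B : Finset ℕ) (hirr : W.ModRepIsIrreducible p)
    (hB2 : ∀ r : ℕ, r.Prime → ¬ W.IsGoodPrimeFor r → r ∈ B)
    (𝒪 : Type) [CommRing 𝒪] [IsDomain 𝒪] [IsDiscreteValuationRing 𝒪]
    [IsAdicComplete (maximalIdeal 𝒪) 𝒪] [Finite (ResidueField 𝒪)] [CharZero 𝒪]
    [Algebra ℤ_[p] 𝒪] [Module.Finite ℤ_[p] 𝒪]
    (hp𝒪 : ((p : ℕ) : 𝒪) ∈ maximalIdeal 𝒪)
    (habs : (s59i_rhobarW W p hΔ 𝒪 hp𝒪).IsAbsolutelyIrreducible)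
    (Nd : NormData (s59i_rhobarW W p hΔ 𝒪 hp𝒪))
    -- the chain of levels
    (k : ℕ) (N : ℕ → ℕ) (qr : ℕ → ℕ) (hNZ : ∀ t, NeZero (N t))
    (hqr : ∀ t, t < k → (qr t).Prime)
    (hN : ∀ t, t < k → N (t + 1) = N t * qr t)
    (hfreeze : ∀ t, k ≤ t → N t = N k)
    (hsq : ∀ t, Squarefree (N t)) (hpN : ∀ t, ¬ p ∣ N t)
    (hB1 : ∀ t, ∀ r : ℕ, r.Prime → r ∣ N t * p → r ∈ B)
    (hocc : ∀ t, Fermat.Agent.Lib.S44.s44i_LevelOcc (N t) p (fun ℓ => W.apOfModel ℓ) B)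
    (h23 : ∀ t, 2 ∣ N t)
    -- Frobenius and inertia elements at the raising primes
    (φr σr : ℕ → Γℚ)
    (hφr : ∀ t, t < k → ∃ A : ValuationSubring (AlgebraicClosure ℚ),
      A.LiesOverPrime (qr t) ∧ A.IsFrobeniusAt (φr t) (qr t))
    (hσr : ∀ t, t < k → ∃ A : ValuationSubring (AlgebraicClosure ℚ),
      A.LiesOverPrime (qr t) ∧ σr t ∈ A.inertiaSubgroupIn ℚ)
    -- the deformation types
    (Sg0 Su Smin Sgm : Finset ℕ) (hpSgm : p ∈ Sgm) (hSgm0 : Sgm ⊆ Sg0) (hSminSgm : Smin ⊆ Sgm)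
    (hmin : ∀ q : ℕ, q.Prime → q ≠ p →
      (q ∈ Smin ↔ ¬ (s59i_rhobarW W p hΔ 𝒪 hp𝒪).IsUnramifiedAt q))
    (hSuB : Su ⊆ B)
    (hSgN : ∀ t, ∀ q : ℕ, q.Prime → q ∣ N t →
      q ∈ Sg0 ∨ s59e3q_E2Alt p (s59i_rhobarW W p hΔ 𝒪 hp𝒪) q)
    (hSgmN : ∀ q : ℕ, q.Prime → q ∣ N 0 →
      q ∈ Sgm ∨ s59e3q_E2Alt p (s59i_rhobarW W p hΔ 𝒪 hp𝒪) q)
    (hqrSgm : ∀ t, t < k → qr t ∉ Sgm)
    (D0 : GaloisRep.DeformationRingData 𝒪 (s59i_rhobarW W p hΔ 𝒪 hp𝒪) (fun _A _ _ _ ρ =>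
      GaloisRep.flatCondition 𝒪 p Sg0 ρ ∧
        ∀ q ∈ Su, q.Prime → q ≠ p → ρ.IsUnipotentOnInertiaAt q))
    (Dm : GaloisRep.DeformationRingData 𝒪 (s59i_rhobarW W p hΔ 𝒪 hp𝒪) (fun _A _ _ _ ρ =>
      GaloisRep.flatCondition 𝒪 p Sgm ρ ∧
        ∀ q ∈ Su, q.Prime → q ≠ p → ρ.IsUnipotentOnInertiaAt q))
    (σ : Type) [DecidableEq σ] [Fintype σ],
    ∃ Bs : s59f_TBaseF 𝒪 k D0,
      s59e_HkFrobP (N k) (↑B : Set ℕ) (Bs.R k) (Bs.ρR k) ∧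
      s59e_HkFrobP (N 0) (↑B : Set ℕ) (Bs.R 0) (Bs.ρR 0) ∧
      (∀ a : Bs.R 0, (∀ mm : Bs.M 0, a • mm = 0) → a = 0) ∧
      ∀ (r : ℕ) (n : ℕ) (qv : Fin r → ℕ), Function.Injective qv →
        (∀ i, (qv i).Prime ∧ qv i ∉ B ∧ p ^ (n + 1) ∣ qv i - 1) →
        (∀ i, ∀ A : ValuationSubring (AlgebraicClosure ℚ), A.LiesOverPrime (qv i) →
          ∀ φ : Γℚ, A.IsFrobeniusAt φ (qv i) →
            ∃ α β : ResidueField 𝒪, α ≠ β ∧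
              LinearMap.charpoly ((s59i_rhobarW W p hΔ 𝒪 hp𝒪).ρ φ) = (X - C α) * (X - C β)) →
        ∀ DQ : GaloisRep.DeformationRingData 𝒪 (s59i_rhobarW W p hΔ 𝒪 hp𝒪) (fun _A _ _ _ ρ =>
          GaloisRep.flatCondition 𝒪 p (Sg0 ∪ Finset.univ.image qv) ρ ∧
            ∀ q ∈ Su, q.Prime → q ≠ p → ρ.IsUnipotentOnInertiaAt q),
          Nonempty (s59f_TLevelF 𝒪 p n r σ k Bs qv qr φr σr DQ)

end Fermat.Agent.Lib.S59
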