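/-
Programme (R) / node (H4′), family K (helper1, prefix `s59k_`): **(K-V), GENERIC PART** — Kummer
kernels of a valuation subring in `Pic⁰[n]` of a function field, and the formal reduction of (K).
Prelude + `Lib/S34/RTop` (three one-line lemmas on divisors of `g • f`) only.

`F/K` a function field, `W` a valuation subring of `F` (an ARITHMETIC valuation: in the application
the Gauss valuation of `ℚ̄(X_H)` at a place of `ℚ̄` over `q`, or an extension of its Atkin–Lehner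
transform), `n ≥ 1`.

* `s59k_KumTriv W n u`  : `u ∈ K^× · (F^×)ⁿ · (1 + 𝔪_W)`;
* `s59k_KumKer W n`     : the subgroup of `Pic⁰(F)` of classes `[D]` with `n D = div f`, `f` as above
                          (`⊆ Pic⁰[n]`; the "kernel of reduction along `W`");
* `s59k_smul_mem_kumKer`: transport, `g • KumKer W = KumKer (g • W)` for semilinear automorphisms;
* **(P2/P3 generic)** `s59k_smul_sub_mem_kumKer` : `ν` a semilinear automorphism with `ν W ⊆ W`,
  acting trivially on the residue field of `W`, and every function a constant times a `W`-unit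
  `⟹  ν z − z ∈ KumKer W n` for every `z ∈ Pic⁰[n]`;
  `s59k_smul_sub_smul_mem_kumKer` : the same for `τ z − δ z` (`ν = δ⁻¹ τ` at `δ⁻¹ W`);
* **(K) formal** `s59k_K_of_kernels` : `τ, δ` commuting, `(τ−1) Pic⁰[n] ⊆ KumKer W∞`,
  `(τ−δ) Pic⁰[n] ⊆ KumKer W₀`, `E` a `τ, δ`-stable subgroup with `E ∩ KumKer W∞ ∩ KumKer W₀ = 0`
  [(G2)] `⟹ (τ − 1)(τ − δ) = 0` on `E ∩ Pic⁰[n]`.
-/
import Mathlib
import Fermat.Prelude.Def_AlgebraicCurve_BaseChangeGalois
import Fermat.Agent.Lib.S34.RTop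

set_option autoImplicit false
set_option linter.unusedSectionVars false
set_option linter.unusedVariables false

noncomputable section

namespace Fermat.Agent.Lib.S59

open AlgebraicCurve Fermat.Agent.Lib.S34
open scoped Pointwise

variable {K F : Type*} [Field K] [Field F] [Algebra K F]

/-! ### One-units of a valuation subring -/

/-- `g ∈ 1 + 𝔪_W`. -/
def s59k_OneUnit (W : ValuationSubring F) (g : F) : Prop := W.valuation (g - 1) < 1

theorem s59k_oneUnit_one (W : ValuationSubring F) : s59k_OneUnit W 1 := by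
  unfold s59k_OneUnit
  rw [sub_self, map_zero]
  exact zero_lt_one

theorem s59k_OneUnit.val_eq_one {W : ValuationSubring F} {g : F} (h : s59k_OneUnit W g) :
    W.valuation g = 1 := by
  have h1 : W.valuation (g - 1 + 1) = 1 := by
    rw [Valuation.map_add_eq_of_lt_right]
    · exact map_one _
    · rw [map_one]; exact h
  rwa [sub_add_cancel] at h1

theorem s59k_OneUnit.ne_zero {W : ValuationSubring F} {g : F} (h : s59k_OneUnit W g) : g ≠ 0 := by
  intro h0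
  have := h.val_eq_one
  rw [h0, map_zero] at this
  exact zero_ne_one this

theorem s59k_OneUnit.mul {W : ValuationSubring F} {g₁ g₂ : F} (h₁ : s59k_OneUnit W g₁)
    (h₂ : s59k_OneUnit W g₂) : s59k_OneUnit W (g₁ * g₂) := by
  unfold s59k_OneUnit
  have e : g₁ * g₂ - 1 = (g₁ - 1) * g₂ + (g₂ - 1) := by ring
  rw [e]
  refine lt_of_le_of_lt (Valuation.map_add _ _ _) (max_lt ?_ h₂)
  rw [map_mul, h₂.val_eq_one, mul_one]
  exact h₁

theorem s59k_OneUnit.inv {W : ValuationSubring F} {g : F} (h : s59k_OneUnit W g) :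
    s59k_OneUnit W g⁻¹ := by
  unfold s59k_OneUnit
  have hg := h.ne_zero
  have e : g⁻¹ - 1 = -((g - 1) * g⁻¹) := by field_simp; ring
  rw [e, Valuation.map_neg, map_mul, map_inv₀, h.val_eq_one, inv_one, mul_one]
  exact h

theorem s59k_OneUnit.pow {W : ValuationSubring F} {g : F} (h : s59k_OneUnit W g) (m : ℕ) :
    s59k_OneUnit W (g ^ m) := by
  induction m with
  | zero => rw [pow_zero]; exact s59k_oneUnit_one W
  | succ m ih => rw [pow_succ]; exact ih.mul h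

/-- transport of one-units. -/
theorem s59k_OneUnit.smul {W : ValuationSubring F} {g : F} (h : s59k_OneUnit W g)
    (γ : SemilinearAut K F) : s59k_OneUnit (γ • W) (γ • g) := by
  have h1 : g - 1 ∈ W.nonunits := h
  show γ • g - 1 ∈ (γ • W).nonunits
  have e : γ • g - 1 = γ • (g - 1) := by rw [smul_sub, smul_one]
  rw [e, ValuationSubring.mem_nonunits_iff_or]
  rcases (ValuationSubring.mem_nonunits_iff_or W).mp h1 with h0 | hinv
  · left
    rw [h0, smul_zero]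
  · right
    intro hc
    apply hinv
    have h2 := (ValuationSubring.mem_pointwise_smul_iff_inv_smul_mem (g := γ) (S := W)).mp hc
    have e2 : γ⁻¹ • (γ • (g - 1))⁻¹ = (g - 1)⁻¹ := by
      rw [← smul_inv'', inv_smul_smul]
    rwa [e2] at h2

/-! ### Kummer-trivial functions -/

/-- `u ∈ K^× · (F^×)ⁿ · (1 + 𝔪_W)`. -/
def s59k_KumTriv (W : ValuationSubring F) (n : ℕ) (u : F) : Prop :=
  ∃ (c : K) (w g : F), c ≠ 0 ∧ w ≠ 0 ∧ s59k_OneUnit W g ∧ u = algebraMap K F c * w ^ n * g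

theorem s59k_KumTriv.ne_zero {W : ValuationSubring F} {n : ℕ} {u : F} (h : s59k_KumTriv (K := K) W n u) :
    u ≠ 0 := by
  obtain ⟨c, w, g, hc, hw, hg, rfl⟩ := h
  exact mul_ne_zero (mul_ne_zero ((map_ne_zero _).mpr hc) (pow_ne_zero n hw)) hg.ne_zero

theorem s59k_kumTriv_one (W : ValuationSubring F) (n : ℕ) : s59k_KumTriv (K := K) W n 1 :=
  ⟨1, 1, 1, one_ne_zero, one_ne_zero, s59k_oneUnit_one W, by simp⟩

theorem s59k_KumTriv.mul {W : ValuationSubring F} {n : ℕ} {u₁ u₂ : F}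
    (h₁ : s59k_KumTriv (K := K) W n u₁) (h₂ : s59k_KumTriv (K := K) W n u₂) :
    s59k_KumTriv (K := K) W n (u₁ * u₂) := by
  obtain ⟨c₁, w₁, g₁, hc₁, hw₁, hg₁, rfl⟩ := h₁
  obtain ⟨c₂, w₂, g₂, hc₂, hw₂, hg₂, rfl⟩ := h₂
  refine ⟨c₁ * c₂, w₁ * w₂, g₁ * g₂, mul_ne_zero hc₁ hc₂, mul_ne_zero hw₁ hw₂, hg₁.mul hg₂, ?_⟩
  rw [map_mul, mul_pow]
  ring

theorem s59k_KumTriv.inv {W : ValuationSubring F} {n : ℕ} {u : F}
    (h : s59k_KumTriv (K := K) W n u) : s59k_KumTriv (K := K) W n u⁻¹ := by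
  obtain ⟨c, w, g, hc, hw, hg, rfl⟩ := h
  refine ⟨c⁻¹, w⁻¹, g⁻¹, inv_ne_zero hc, inv_ne_zero hw, hg.inv, ?_⟩
  rw [map_inv₀, inv_pow, mul_inv, mul_inv]

/-- transport under a semilinear automorphism. -/
theorem s59k_KumTriv.smul {W : ValuationSubring F} {n : ℕ} {u : F}
    (h : s59k_KumTriv (K := K) W n u) (γ : SemilinearAut K F) :
    s59k_KumTriv (K := K) (γ • W) n (γ • u) := by
  obtain ⟨c, w, g, hc, hw, hg, rfl⟩ := h
  refine ⟨SemilinearAut.baseAut γ c, γ • w, γ • g, ?_, s34r_smul_ne_zero γ hw, hg.smul γ, ?_⟩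
  · exact (map_ne_zero (SemilinearAut.baseAut γ)).mpr hc
  · rw [smul_mul', smul_mul', smul_pow', SemilinearAut.smul_algebraMap]

/-! ### The Kummer kernel -/

/-- **The Kummer kernel of `W` in `Pic⁰`** (contained in the `n`-torsion). -/
def s59k_KumKer (W : ValuationSubring F) (n : ℕ) : AddSubgroup (Pic0 K F) where
  carrier := {z | ∃ (D : Divisor.degZero (K := K) (F := F)) (f : F), f ≠ 0 ∧ Pic0.mk D = z ∧
    (∀ v : Place K F, (n : ℤ) * (D : Divisor K F) v = v.ord f) ∧ s59k_KumTriv (K := K) W n f}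
  zero_mem' := ⟨0, 1, one_ne_zero, rfl, fun v => by simp [Place.ord_one], s59k_kumTriv_one W n⟩
  add_mem' := by
    rintro _ _ ⟨D₁, f₁, hf₁, rfl, hd₁, ht₁⟩ ⟨D₂, f₂, hf₂, rfl, hd₂, ht₂⟩
    refine ⟨D₁ + D₂, f₁ * f₂, mul_ne_zero hf₁ hf₂, rfl, fun v => ?_, ht₁.mul ht₂⟩
    rw [v.ord_mul hf₁ hf₂, ← hd₁ v, ← hd₂ v, AddSubgroup.coe_add, Finsupp.add_apply]
    ring
  neg_mem' := by
    rintro _ ⟨D, f, hf, rfl, hd, ht⟩
    refine ⟨-D, f⁻¹, inv_ne_zero hf, rfl, fun v => ?_, ht.inv⟩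
    rw [v.ord_inv, ← hd v, AddSubgroup.coe_neg, Finsupp.neg_apply]
    ring

theorem s59k_mem_kumKer {W : ValuationSubring F} {n : ℕ} {z : Pic0 K F} :
    z ∈ s59k_KumKer (K := K) W n ↔
      ∃ (D : Divisor.degZero (K := K) (F := F)) (f : F), f ≠ 0 ∧ Pic0.mk D = z ∧
        (∀ v : Place K F, (n : ℤ) * (D : Divisor K F) v = v.ord f) ∧ s59k_KumTriv (K := K) W n f :=
  Iff.rfl

/-- a class `[D]` with `n D = div f` is killed by `n`. -/
theorem s59k_nsmul_mk_eq_zero (n : ℕ) (D : Divisor.degZero (K := K) (F := F)) (f : F) (hf : f ≠ 0)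
    (hd : ∀ v : Place K F, (n : ℤ) * (D : Divisor K F) v = v.ord f) :
    n • Pic0.mk D = 0 := by
  have e : n • Pic0.mk D = Pic0.mk (n • D) := (map_nsmul (QuotientAddGroup.mk' _) n D).symm
  rw [e]
  refine (QuotientAddGroup.eq_zero_iff _).mpr ?_
  show ((n • D : Divisor.degZero (K := K) (F := F)) : Divisor K F) ∈
    Divisor.principal (K := K) (F := F)
  refine ⟨f, hf, fun v => ?_⟩
  rw [← hd v, AddSubgroupClass.coe_nsmul, Finsupp.smul_apply, nsmul_eq_mul]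

theorem s59k_kumKer_nsmul {W : ValuationSubring F} {n : ℕ} {z : Pic0 K F}
    (hz : z ∈ s59k_KumKer (K := K) W n) : n • z = 0 := by
  obtain ⟨D, f, hf, rfl, hd, -⟩ := hz
  exact s59k_nsmul_mk_eq_zero n D f hf hd

/-- an `n`-torsion class has a Kummer generator. -/
theorem s59k_exists_kumGen (n : ℕ) (z : Pic0 K F) (hz : n • z = 0) :
    ∃ (D : Divisor.degZero (K := K) (F := F)) (f : F), f ≠ 0 ∧ Pic0.mk D = z ∧
      ∀ v : Place K F, (n : ℤ) * (D : Divisor K F) v = v.ord f := by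
  obtain ⟨D, rfl⟩ := Pic0.mk_surjective z
  have hmD : Pic0.mk (n • D) = 0 := by
    rw [← hz]
    exact map_nsmul (QuotientAddGroup.mk' _) n D
  have hmD' : ((n • D : Divisor.degZero (K := K) (F := F)) : Divisor K F) ∈
      Divisor.principal (K := K) (F := F) := (QuotientAddGroup.eq_zero_iff (n • D)).mp hmD
  obtain ⟨f, hf, hfD⟩ := hmD'
  refine ⟨D, f, hf, rfl, fun v => ?_⟩
  rw [← hfD v, AddSubgroupClass.coe_nsmul, Finsupp.smul_apply, nsmul_eq_mul]

/-- **transport**: `γ • KumKer W ⊆ KumKer (γ • W)`. -/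
theorem s59k_smul_mem_kumKer {W : ValuationSubring F} {n : ℕ} {z : Pic0 K F}
    (hz : z ∈ s59k_KumKer (K := K) W n) (γ : SemilinearAut K F) :
    γ • z ∈ s59k_KumKer (K := K) (γ • W) n := by
  obtain ⟨D, f, hf, rfl, hd, ht⟩ := hz
  refine ⟨SemilinearAut.degZeroSMulHom γ D, γ • f, s34r_smul_ne_zero γ hf,
    (SemilinearAut.pic0_smul_mk γ D).symm, fun v => ?_, ht.smul γ⟩
  rw [SemilinearAut.coe_degZeroSMulHom]
  exact s34r_div_smul γ n _ f hd v

/-! ### (P2)/(P3), generic form -/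

/-- **The basic congruence**: `ν` preserves `W`, acts trivially on its residue field, and every
function is a constant times a `W`-unit: then `ν f / f ∈ K^× (1 + 𝔪_W)` for every `f ≠ 0`. -/
theorem s59k_smul_div_kumTriv (ν : SemilinearAut K F) (W : ValuationSubring F)
    (hW : ∀ y ∈ W, ν • y ∈ W) (hres : ∀ y ∈ W, W.valuation (ν • y - y) < 1)
    (hnorm : ∀ f : F, f ≠ 0 → ∃ c : K, c ≠ 0 ∧ W.valuation (f * (algebraMap K F c)⁻¹) = 1)
    (n : ℕ) {f : F} (hf : f ≠ 0) : s59k_KumTriv (K := K) W n ((ν • f) * f⁻¹) := by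
  obtain ⟨c, hc, hv⟩ := hnorm f hf
  have hcF : algebraMap K F c ≠ 0 := (map_ne_zero _).mpr hc
  set f₀ : F := f * (algebraMap K F c)⁻¹ with hf₀
  have hf₀0 : f₀ ≠ 0 := mul_ne_zero hf (inv_ne_zero hcF)
  have hf₀W : f₀ ∈ W := (ValuationSubring.valuation_le_one_iff W f₀).mp hv.le
  have hfe : f = algebraMap K F c * f₀ := by
    rw [hf₀]; field_simp
  set c' : K := SemilinearAut.baseAut ν c with hc'
  have hc'0 : c' ≠ 0 := (map_ne_zero (SemilinearAut.baseAut ν)).mpr hc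
  refine ⟨c' * c⁻¹, 1, (ν • f₀) * f₀⁻¹, mul_ne_zero hc'0 (inv_ne_zero hc), one_ne_zero, ?_, ?_⟩
  · -- the one-unit
    unfold s59k_OneUnit
    have e : ν • f₀ * f₀⁻¹ - 1 = (ν • f₀ - f₀) * f₀⁻¹ := by field_simp
    rw [e, map_mul, map_inv₀, hv, inv_one, mul_one]
    exact hres f₀ hf₀W
  · have e1 : ν • f = algebraMap K F c' * ν • f₀ := by
      conv_lhs => rw [hfe]
      rw [smul_mul', SemilinearAut.smul_algebraMap]
    rw [e1, one_pow, mul_one, map_mul, map_inv₀]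
    conv_lhs => rw [hfe]
    field_simp

/-- **(P2), generic**: `ν z − z ∈ KumKer W n` for every `n`-torsion class `z`. -/
theorem s59k_smul_sub_mem_kumKer (ν : SemilinearAut K F) (W : ValuationSubring F)
    (hW : ∀ y ∈ W, ν • y ∈ W) (hres : ∀ y ∈ W, W.valuation (ν • y - y) < 1)
    (hnorm : ∀ f : F, f ≠ 0 → ∃ c : K, c ≠ 0 ∧ W.valuation (f * (algebraMap K F c)⁻¹) = 1)
    (n : ℕ) (z : Pic0 K F) (hz : n • z = 0) : ν • z - z ∈ s59k_KumKer (K := K) W n := by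
  obtain ⟨D, f, hf, rfl, hd⟩ := s59k_exists_kumGen n z hz
  refine ⟨SemilinearAut.degZeroSMulHom ν D - D, (ν • f) * f⁻¹,
    mul_ne_zero (s34r_smul_ne_zero ν hf) (inv_ne_zero hf), ?_, fun v => ?_,
    s59k_smul_div_kumTriv ν W hW hres hnorm n hf⟩
  · rw [SemilinearAut.pic0_smul_mk]
    rfl
  · rw [v.ord_mul (s34r_smul_ne_zero ν hf) (inv_ne_zero hf), v.ord_inv, ← hd v,
      ← s34r_div_smul ν n _ f hd v, AddSubgroup.coe_sub, Finsupp.sub_apply,
      SemilinearAut.coe_degZeroSMulHom]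
    ring

/-- **(P3), generic**: `τ z − δ z ∈ KumKer W n`, if `ν = δ⁻¹ τ` satisfies the hypotheses of (P2) at
the valuation subring `δ⁻¹ • W`. -/
theorem s59k_smul_sub_smul_mem_kumKer (τ δ : SemilinearAut K F) (W : ValuationSubring F)
    (hW : ∀ y ∈ (δ⁻¹ • W : ValuationSubring F), (δ⁻¹ * τ) • y ∈ (δ⁻¹ • W : ValuationSubring F))
    (hres : ∀ y ∈ (δ⁻¹ • W : ValuationSubring F),
      (δ⁻¹ • W : ValuationSubring F).valuation ((δ⁻¹ * τ) • y - y) < 1)
    (hnorm : ∀ f : F, f ≠ 0 → ∃ c : K, c ≠ 0 ∧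
      (δ⁻¹ • W : ValuationSubring F).valuation (f * (algebraMap K F c)⁻¹) = 1)
    (n : ℕ) (z : Pic0 K F) (hz : n • z = 0) : τ • z - δ • z ∈ s59k_KumKer (K := K) W n := by
  have h1 := s59k_smul_sub_mem_kumKer (δ⁻¹ * τ) (δ⁻¹ • W) hW hres hnorm n z hz
  have h2 := s59k_smul_mem_kumKer h1 δ
  rw [smul_inv_smul, smul_sub, ← mul_smul, mul_inv_cancel_left] at h2
  exact h2

/-! ### The formal reduction of (K) -/

/-- **(K) from the kernels**: (P2) at `W∞`, (P3) at `W₀`, and (G2) on a stable subgroup `E`. -/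
theorem s59k_K_of_kernels (τ δ : SemilinearAut K F) (hcomm : τ * δ = δ * τ)
    (Winf Wzero : ValuationSubring F) (n : ℕ)
    (h2 : ∀ z : Pic0 K F, n • z = 0 → τ • z - z ∈ s59k_KumKer (K := K) Winf n)
    (h3 : ∀ z : Pic0 K F, n • z = 0 → τ • z - δ • z ∈ s59k_KumKer (K := K) Wzero n)
    (E : AddSubgroup (Pic0 K F)) (hEτ : ∀ z ∈ E, τ • z ∈ E) (hEδ : ∀ z ∈ E, δ • z ∈ E)
    (hG2 : ∀ z ∈ E, z ∈ s59k_KumKer (K := K) Winf n → z ∈ s59k_KumKer (K := K) Wzero n → z = 0)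
    (z : Pic0 K F) (hzE : z ∈ E) (hz : n • z = 0) :
    τ • (τ • z - δ • z) - (τ • z - δ • z) = 0 := by
  set y : Pic0 K F := τ • z - δ • z with hy
  have hyE : y ∈ E := E.sub_mem (hEτ z hzE) (hEδ z hzE)
  have hsw : ∀ (γ : SemilinearAut K F) (x : Pic0 K F), n • (γ • x) = γ • (n • x) := fun γ x =>
    (map_nsmul (DistribSMul.toAddMonoidHom (Pic0 K F) γ) n x).symm
  have hs0 : ∀ γ : SemilinearAut K F, γ • (0 : Pic0 K F) = 0 := fun γ =>
    map_zero (DistribSMul.toAddMonoidHom (Pic0 K F) γ)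
  have hny : n • y = 0 := by
    rw [hy, nsmul_sub, hsw τ z, hsw δ z, hz, hs0 τ, hs0 δ, sub_zero]
  set y' : Pic0 K F := τ • z - z with hy'
  have hny' : n • y' = 0 := by
    rw [hy', nsmul_sub, hsw τ z, hz, hs0 τ, sub_zero]
  have e : τ • y - y = τ • y' - δ • y' := by
    rw [hy, hy', smul_sub, smul_sub, smul_sub, ← mul_smul τ δ, hcomm, mul_smul]
    abel
  refine hG2 _ (E.sub_mem (hEτ y hyE) hyE) (h2 y hny) ?_
  rw [e]
  exact h3 y' hny'

/-! ### (P4): saturation of the Kummer kernels, and (G2) for prime powers -/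

/-- `a • KumKer W (a b) ⊆ KumKer W b`. -/
theorem s59k_nsmul_mem_kumKer {W : ValuationSubring F} {a b : ℕ} {z : Pic0 K F}
    (hz : z ∈ s59k_KumKer (K := K) W (a * b)) : a • z ∈ s59k_KumKer (K := K) W b := by
  obtain ⟨D, f, hf, rfl, hd, c, w, g, hc, hw, hg, rfl⟩ := hz
  refine ⟨a • D, _, hf, (map_nsmul (QuotientAddGroup.mk' _) a D), fun v => ?_,
    ⟨c, w ^ a, g, hc, pow_ne_zero a hw, hg, by rw [← pow_mul]⟩⟩
  rw [← hd v, AddSubgroupClass.coe_nsmul, Finsupp.smul_apply, nsmul_eq_mul]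
  push_cast
  ring

open Polynomial in
/-- a `p`-th root of a one-unit is a root of unity of `K` times a one-unit. -/
theorem s59k_root_oneUnit (W : ValuationSubring F) (p : ℕ) (hp : 0 < p) (ζ : K)
    (hζ : IsPrimitiveRoot ζ p) {h g : F} (hg : s59k_OneUnit W g) (hh : h ^ p = g) :
    ∃ ξ : K, ξ ≠ 0 ∧ s59k_OneUnit W (h * (algebraMap K F ξ)⁻¹) := by
  classical
  have hprod := X_pow_sub_one_eq_prod hp hζ
  have hev := congrArg (fun P : K[X] => Polynomial.aeval h P) hprod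
  simp only [map_sub, map_pow, aeval_X, map_one, map_prod, aeval_C] at hev
  -- `∏ (h − ξ) = g − 1 ∈ 𝔪_W`
  have hlt : W.valuation (∏ ξ ∈ nthRootsFinset p (1 : K), (h - algebraMap K F ξ)) < 1 := by
    rw [← hev, hh]
    exact hg
  have hex : ∃ ξ ∈ nthRootsFinset p (1 : K), W.valuation (h - algebraMap K F ξ) < 1 := by
    by_contra hcon
    push Not at hcon
    have : (1 : W.ValueGroup) ≤ W.valuation (∏ ξ ∈ nthRootsFinset p (1 : K),
        (h - algebraMap K F ξ)) := by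
      rw [map_prod]
      exact Finset.one_le_prod' hcon
    exact absurd hlt (not_lt.mpr this)
  obtain ⟨ξ, hξm, hξ⟩ := hex
  have hξp : ξ ^ p = 1 := (mem_nthRootsFinset hp (1 : K)).mp hξm
  have hξ0 : ξ ≠ 0 := by
    intro h0
    rw [h0, zero_pow hp.ne'] at hξp
    exact zero_ne_one hξp
  have hvξ : W.valuation (algebraMap K F ξ) = 1 := by
    have h1 : W.valuation (algebraMap K F ξ) ^ p = 1 := by
      rw [← map_pow, ← map_pow, hξp, map_one, map_one]
    exact (pow_eq_one_iff_of_nonneg zero_le hp.ne').mp h1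
  refine ⟨ξ, hξ0, ?_⟩
  unfold s59k_OneUnit
  have hξF : algebraMap K F ξ ≠ 0 := (_root_.map_ne_zero _).mpr hξ0
  have e : h * (algebraMap K F ξ)⁻¹ - 1 = (h - algebraMap K F ξ) * (algebraMap K F ξ)⁻¹ := by
    field_simp
  rw [e, map_mul, map_inv₀, hvξ, inv_one, mul_one]
  exact hξ

/-- **(P4) saturation**: a class of `KumKer W (p m)` which is killed by `m` lies in `KumKer W m`.
`hconst`: functions with trivial divisor are constants; `hroot`: `K` has `p`-th roots. -/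
theorem s59k_kumKer_descend (W : ValuationSubring F) (p m : ℕ) (hp : 0 < p) (ζ : K)
    (hζ : IsPrimitiveRoot ζ p) (hroot : ∀ c : K, ∃ c' : K, c' ^ p = c)
    (hconst : ∀ h : F, h ≠ 0 → (∀ v : Place K F, v.ord h = 0) → ∃ c : K, h = algebraMap K F c)
    {z : Pic0 K F} (hz : z ∈ s59k_KumKer (K := K) W (p * m)) (hmz : m • z = 0) :
    z ∈ s59k_KumKer (K := K) W m := by
  obtain ⟨D, f, hf, rfl, hd, c, w, g, hc, hw, hg, hfe⟩ := hz
  -- a Kummer generator for the exponent `m`, for the SAME divisor `D`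
  obtain ⟨D', f', hf', hDD', hd'⟩ := s59k_exists_kumGen m (Pic0.mk D) hmz
  have hprin : ((D' - D : Divisor.degZero (K := K) (F := F)) : Divisor K F) ∈
      Divisor.principal (K := K) (F := F) := by
    have : Pic0.mk (D' - D) = 0 := by
      have e : Pic0.mk (D' - D) = Pic0.mk D' - Pic0.mk D := rfl
      rw [e, hDD', sub_self]
    exact (QuotientAddGroup.eq_zero_iff (D' - D)).mp this
  obtain ⟨h₀, hh₀, hh₀d⟩ := hprin
  set f'' : F := f' * (h₀ ^ m)⁻¹ with hf''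
  have hf''0 : f'' ≠ 0 := mul_ne_zero hf' (inv_ne_zero (pow_ne_zero m hh₀))
  have hd'' : ∀ v : Place K F, (m : ℤ) * (D : Divisor K F) v = v.ord f'' := by
    intro v
    rw [hf'', v.ord_mul hf' (inv_ne_zero (pow_ne_zero m hh₀)), v.ord_inv, ← zpow_natCast h₀ m,
      v.ord_zpow, ← hd' v, ← hh₀d v, AddSubgroup.coe_sub, Finsupp.sub_apply]
    ring
  -- `f'' ^ p = c₀ f`
  have hq0 : f'' ^ p * f⁻¹ ≠ 0 := mul_ne_zero (pow_ne_zero p hf''0) (inv_ne_zero hf)
  obtain ⟨c₀, hc₀⟩ := hconst (f'' ^ p * f⁻¹) hq0 (fun v => by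
    rw [v.ord_mul (pow_ne_zero p hf''0) (inv_ne_zero hf), v.ord_inv, ← zpow_natCast f'' p,
      v.ord_zpow, ← hd'' v, ← hd v]
    push_cast
    ring)
  have hc₀0 : c₀ ≠ 0 := by
    intro h0
    rw [h0, map_zero] at hc₀
    exact hq0 hc₀
  obtain ⟨c₃, hc₃⟩ := hroot (c₀ * c)
  have hc₃0 : c₃ ≠ 0 := by
    intro h0
    rw [h0, zero_pow hp.ne'] at hc₃
    exact mul_ne_zero hc₀0 hc hc₃.symm
  have hc₃F : algebraMap K F c₃ ≠ 0 := (map_ne_zero _).mpr hc₃0
  have hwm : w ^ m ≠ 0 := pow_ne_zero m hw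
  -- `h₁ ^ p = g`
  set h₁ : F := f'' * (w ^ m)⁻¹ * (algebraMap K F c₃)⁻¹ with hh₁
  have hh₁p : h₁ ^ p = g := by
    have e1 : f'' ^ p = algebraMap K F c₀ * f := by
      rw [← hc₀]; field_simp
    rw [hh₁, mul_pow, mul_pow, e1, hfe, inv_pow, inv_pow, ← map_pow, hc₃, map_mul, ← pow_mul,
      mul_comm m p]
    have hcF : algebraMap K F c ≠ 0 := (map_ne_zero _).mpr hc
    have hc₀F : algebraMap K F c₀ ≠ 0 := (map_ne_zero _).mpr hc₀0
    have hwpm : w ^ (p * m) ≠ 0 := pow_ne_zero _ hw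
    field_simp
  obtain ⟨ξ, hξ0, hξ⟩ := s59k_root_oneUnit W p hp ζ hζ hg hh₁p
  have hξF : algebraMap K F ξ ≠ 0 := (map_ne_zero _).mpr hξ0
  refine ⟨D, f'', hf''0, rfl, hd'', c₃ * ξ, w, h₁ * (algebraMap K F ξ)⁻¹, mul_ne_zero hc₃0 hξ0, hw,
    hξ, ?_⟩
  rw [hh₁, map_mul]
  field_simp

/-- **(G2) for prime powers from (G2) for `p`.** -/
theorem s59k_G2_pow (Winf Wzero : ValuationSubring F) (p : ℕ) (hp : 0 < p) (ζ : K)
    (hζ : IsPrimitiveRoot ζ p) (hroot : ∀ c : K, ∃ c' : K, c' ^ p = c)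
    (hconst : ∀ h : F, h ≠ 0 → (∀ v : Place K F, v.ord h = 0) → ∃ c : K, h = algebraMap K F c)
    (E : AddSubgroup (Pic0 K F))
    (hG2 : ∀ z ∈ E, z ∈ s59k_KumKer (K := K) Winf p → z ∈ s59k_KumKer (K := K) Wzero p → z = 0)
    (k : ℕ) : ∀ z ∈ E, z ∈ s59k_KumKer (K := K) Winf (p ^ k) →
      z ∈ s59k_KumKer (K := K) Wzero (p ^ k) → z = 0 := by
  induction k with
  | zero =>
    intro z _ h1 _
    have := s59k_kumKer_nsmul h1
    rwa [pow_zero, one_smul] at this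
  | succ k ih =>
    intro z hzE h1 h2
    have e : p ^ (k + 1) = p ^ k * p := pow_succ p k
    have e' : p ^ (k + 1) = p * p ^ k := pow_succ' p k
    have h1' : p ^ k • z ∈ s59k_KumKer (K := K) Winf p := s59k_nsmul_mem_kumKer (e ▸ h1)
    have h2' : p ^ k • z ∈ s59k_KumKer (K := K) Wzero p := s59k_nsmul_mem_kumKer (e ▸ h2)
    have h0 : p ^ k • z = 0 := hG2 _ (E.nsmul_mem hzE _) h1' h2'
    exact ih z hzE (s59k_kumKer_descend Winf p (p ^ k) hp ζ hζ hroot hconst (e' ▸ h1) h0)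
      (s59k_kumKer_descend Wzero p (p ^ k) hp ζ hζ hroot hconst (e' ▸ h2) h0)

end Fermat.Agent.Lib.S59
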