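/-
Programme (R) / node (H4′), family K (helper1, prefix `s59k_`): **(K-V), the Gauss valuation attached to
an embedding into Laurent series** — the common source of `W_∞` and `W_0` on `F_H`.

`L` a field with a valuation subring `A` (NOT assumed discrete; `L = ℚ̄`, `A` a place over `q`),
`F/L` a function field and `θ : F →+* L((q))` an `L`-linear embedding (`θ = ` the `q`-expansion at `∞`
for `W_∞`; `θ = ` an extension to `F_H` of `q`-expansion ∘ Atkin–Lehner for `W_0`).  With the landed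
top-level Gauss ring `s37r_O A π ⊆ L((q))` and its reduction `s37r_red` (Lib/S37/RGauss):

* `s59k_ThetaVal A θ`   : every `θ f` or `θ f⁻¹` is Gauss-integral;
* `s59k_ThetaScale A θ` : every `f ≠ 0` is a constant times an element with Gauss-integral image of NON-ZERO
                          reduction;
* `s59k_Wtheta A θ hval : ValuationSubring F`, `s59k_redTheta : W_θ →+* κ((q))`;
* `s59k_wtheta_inv_mem`, `s59k_wtheta_val_lt_one_iff` (`𝔪_{W_θ} = ker red`);
* **`s59k_theta_hyps`** : a semilinear automorphism `ν` of `F` over `τ ∈ I_A` (`τ A ⊆ A`, `τ a − a ∈ 𝔪_A`) with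
  `θ (ν f) = τ(θ f)` (coefficientwise) satisfies the three hypotheses `hW`, `hres`, `hnorm` of the generic (P2) of
  `KVal.lean` at `W_θ`;
* **`s59k_P2_theta`** : `ν z − z ∈ KumKer W_θ n` for `z ∈ Pic⁰(F)[n]`;
* **`s59k_P3_theta`** : if `ν = τ δ⁻¹`, then `τ z − δ z ∈ KumKer W_θ n`.
-/
import Mathlib
import Fermat.Agent.Lib.S37.RGauss
import Fermat.Agent.Lib.S59.KVal

set_option autoImplicit false
set_option linter.unusedSectionVars false
set_option linter.unusedVariables false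

noncomputable section

namespace Fermat.Agent.Lib.S59

open AlgebraicCurve ModularCurve HahnSeries Fermat.Agent.Lib.S37 Fermat.Agent.Lib.S34

variable {L : Type*} [Field L] (A : ValuationSubring L) {F : Type*} [Field F] [Algebra L F]
  (θ : F →+* LaurentSeries L)

/-- **(val)**: every function or its inverse has a Gauss-integral image. -/
def s59k_ThetaVal : Prop :=
  ∀ f : F, θ f ∈ s37r_O A (IsLocalRing.residue ↥A) ∨ θ f⁻¹ ∈ s37r_O A (IsLocalRing.residue ↥A)

/-- **(scale)**: every non-zero function is a constant times a function with Gauss-integral image of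
non-zero reduction. -/
def s59k_ThetaScale : Prop :=
  ∀ f : F, f ≠ 0 → ∃ c : L, c ≠ 0 ∧
    ∃ hO : θ (f * (algebraMap L F c)⁻¹) ∈ s37r_O A (IsLocalRing.residue ↥A),
      s37r_red A (IsLocalRing.residue ↥A) ⟨_, hO⟩ ≠ 0

variable {A θ}

/-- **the Gauss valuation subring of `F` attached to `θ`.** -/
def s59k_Wtheta (hval : s59k_ThetaVal A θ) : ValuationSubring F :=
  { (s37r_O A (IsLocalRing.residue ↥A)).comap θ with
    mem_or_inv_mem' := hval }

theorem s59k_mem_wtheta (hval : s59k_ThetaVal A θ) (f : F) :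
    f ∈ s59k_Wtheta hval ↔ θ f ∈ s37r_O A (IsLocalRing.residue ↥A) := Iff.rfl

/-- the reduction `W_θ →+* κ((q))`. -/
def s59k_redTheta (hval : s59k_ThetaVal A θ) :
    ↥(s59k_Wtheta hval) →+* LaurentSeries (IsLocalRing.ResidueField ↥A) :=
  (s37r_red A (IsLocalRing.residue ↥A)).comp
    (θ.restrict (s59k_Wtheta hval) (s37r_O A (IsLocalRing.residue ↥A)) fun _ h => h)

theorem s59k_redTheta_apply (hval : s59k_ThetaVal A θ) (f : F) (hf : f ∈ s59k_Wtheta hval) :
    s59k_redTheta hval ⟨f, hf⟩ = s37r_red A (IsLocalRing.residue ↥A) ⟨θ f, hf⟩ := rfl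

/-- an element of `W_θ` with non-zero reduction is a unit of `W_θ`. -/
theorem s59k_wtheta_inv_mem (hval : s59k_ThetaVal A θ) (f : F) (hf : f ∈ s59k_Wtheta hval)
    (hred : s59k_redTheta hval ⟨f, hf⟩ ≠ 0) : f⁻¹ ∈ s59k_Wtheta hval := by
  have hfO : θ f ∈ s37r_O A (IsLocalRing.residue ↥A) := hf
  obtain ⟨P, Q, hQ, h⟩ := id hfO
  rw [s59k_redTheta_apply, s37r_red_eq A _ ⟨θ f, hf⟩ P Q hQ h] at hred
  have hP : coeffMap (IsLocalRing.residue ↥A) P ≠ 0 := fun h0 => hred (by rw [h0, zero_div])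
  have hθ0 : θ f ≠ 0 := by
    intro h0
    rw [h0, mul_zero] at h
    apply hP
    have : P = 0 := s37r_iota_injective A (by rw [← h, map_zero])
    rw [this, map_zero]
  show θ f⁻¹ ∈ s37r_O A (IsLocalRing.residue ↥A)
  refine ⟨Q, P, hP, ?_⟩
  rw [map_inv₀, ← h]
  field_simp

/-- **`𝔪_{W_θ} = ker red`.** -/
theorem s59k_wtheta_val_lt_one_iff (hval : s59k_ThetaVal A θ) (f : F)
    (hf : f ∈ s59k_Wtheta hval) :
    (s59k_Wtheta hval).valuation f < 1 ↔ s59k_redTheta hval ⟨f, hf⟩ = 0 := by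
  constructor
  · intro hlt
    by_contra hne
    have hinv := s59k_wtheta_inv_mem hval f hf hne
    have h1 : (s59k_Wtheta hval).valuation f⁻¹ ≤ 1 :=
      (ValuationSubring.valuation_le_one_iff _ _).mpr hinv
    rw [map_inv₀] at h1
    have hf0 : f ≠ 0 := by
      rintro rfl
      exact hne (map_zero (s59k_redTheta hval))
    have hv0 : (s59k_Wtheta hval).valuation f ≠ 0 :=
      (Valuation.ne_zero_iff _).mpr hf0
    have h2 : (1 : (s59k_Wtheta hval).ValueGroup) ≤ (s59k_Wtheta hval).valuation f :=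
      (inv_le_one₀ (zero_lt_iff.mpr hv0)).mp h1
    exact absurd hlt (not_lt.mpr h2)
  · intro hred
    rcases (ValuationSubring.valuation_lt_one_or_eq_one (s59k_Wtheta hval) ⟨f, hf⟩) with h | h
    · exact h
    · exfalso
      have hu : IsUnit (⟨f, hf⟩ : ↥(s59k_Wtheta hval)) :=
        (ValuationSubring.valuation_eq_one_iff _ _).mpr h
      have := hu.map (s59k_redTheta hval)
      rw [hred] at this
      exact not_isUnit_zero this

/-- a constant-scaled unit has valuation one. -/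
theorem s59k_wtheta_val_eq_one (hval : s59k_ThetaVal A θ) (f : F) (hf : f ∈ s59k_Wtheta hval)
    (hred : s59k_redTheta hval ⟨f, hf⟩ ≠ 0) : (s59k_Wtheta hval).valuation f = 1 := by
  rcases (ValuationSubring.valuation_lt_one_or_eq_one (s59k_Wtheta hval) ⟨f, hf⟩) with h | h
  · exact absurd ((s59k_wtheta_val_lt_one_iff hval f hf).mp h) hred
  · exact h

/-- **(hnorm)** from (scale). -/
theorem s59k_theta_hnorm (hval : s59k_ThetaVal A θ) (hscale : s59k_ThetaScale A θ) (f : F)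
    (hf : f ≠ 0) :
    ∃ c : L, c ≠ 0 ∧ (s59k_Wtheta hval).valuation (f * (algebraMap L F c)⁻¹) = 1 := by
  obtain ⟨c, hc, hO, hred⟩ := hscale f hf
  exact ⟨c, hc, s59k_wtheta_val_eq_one hval _ hO hred⟩

/-! ### The action of an inertia element -/

section Inertia

/-- `τ` restricted to `A`. -/
def s59k_tauA (τ : L ≃+* L) (hτA : ∀ a ∈ A, τ a ∈ A) : ↥A →+* ↥A :=
  (τ : L →+* L).restrict A A hτA

theorem s59k_subtype_tauA (τ : L ≃+* L) (hτA : ∀ a ∈ A, τ a ∈ A) (Y : LaurentSeries ↥A) :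
    coeffMap A.subtype (coeffMap (s59k_tauA τ hτA) Y) =
      coeffMap (τ : L →+* L) (coeffMap A.subtype Y) := by
  rw [coeffMap_coeffMap, coeffMap_coeffMap]
  rfl

theorem s59k_residue_tauA (τ : L ≃+* L) (hτA : ∀ a ∈ A, τ a ∈ A)
    (hτI : ∀ a ∈ A, τ a - a ∈ A.nonunits) (Y : LaurentSeries ↥A) :
    coeffMap (IsLocalRing.residue ↥A) (coeffMap (s59k_tauA τ hτA) Y) =
      coeffMap (IsLocalRing.residue ↥A) Y := by
  rw [coeffMap_coeffMap]
  refine coeffMap_congr (RingHom.ext fun a => ?_) Y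
  show IsLocalRing.residue ↥A (s59k_tauA τ hτA a) = IsLocalRing.residue ↥A a
  rw [← sub_eq_zero, ← map_sub, IsLocalRing.residue_eq_zero_iff]
  have h := hτI (a : L) a.2
  have e : ((s59k_tauA τ hτA a - a : ↥A) : L) = τ (a : L) - (a : L) := rfl
  exact (ValuationSubring.coe_mem_nonunits_iff (A := A)).mp (e ▸ h)

/-- the coefficientwise action of `τ ∈ I_A` preserves the Gauss ring and the reduction. -/
theorem s59k_coeffMap_mem_O (τ : L ≃+* L) (hτA : ∀ a ∈ A, τ a ∈ A)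
    (hτI : ∀ a ∈ A, τ a - a ∈ A.nonunits) {y : LaurentSeries L}
    (hy : y ∈ s37r_O A (IsLocalRing.residue ↥A)) :
    ∃ hy' : coeffMap (τ : L →+* L) y ∈ s37r_O A (IsLocalRing.residue ↥A),
      s37r_red A (IsLocalRing.residue ↥A) ⟨_, hy'⟩ =
        s37r_red A (IsLocalRing.residue ↥A) ⟨y, hy⟩ := by
  obtain ⟨P, Q, hQ, h⟩ := hy
  have hQ' : coeffMap (IsLocalRing.residue ↥A) (coeffMap (s59k_tauA τ hτA) Q) ≠ 0 := by
    rw [s59k_residue_tauA τ hτA hτI]; exact hQ
  have h' : coeffMap A.subtype (coeffMap (s59k_tauA τ hτA) Q) * coeffMap (τ : L →+* L) y =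
      coeffMap A.subtype (coeffMap (s59k_tauA τ hτA) P) := by
    rw [s59k_subtype_tauA, s59k_subtype_tauA, ← map_mul, h]
  have hmem : coeffMap (τ : L →+* L) y ∈ s37r_O A (IsLocalRing.residue ↥A) :=
    ⟨_, _, hQ', h'⟩
  refine ⟨hmem, ?_⟩
  rw [s37r_red_eq A _ ⟨_, hmem⟩ _ _ hQ' h', s37r_red_eq A _ ⟨y, ⟨P, Q, hQ, h⟩⟩ P Q hQ h,
    s59k_residue_tauA τ hτA hτI, s59k_residue_tauA τ hτA hτI]

end Inertia

/-- **The three hypotheses of the generic (P2) at `W_θ`**, for a semilinear automorphism `ν` lying over an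
inertia element and intertwined by `θ` with the coefficientwise action. -/
theorem s59k_theta_hyps (hval : s59k_ThetaVal A θ) (hscale : s59k_ThetaScale A θ)
    (ν : SemilinearAut L F)
    (hτA : ∀ a ∈ A, SemilinearAut.baseAut ν a ∈ A)
    (hτI : ∀ a ∈ A, SemilinearAut.baseAut ν a - a ∈ A.nonunits)
    (hθν : ∀ f : F, θ (ν • f) = coeffMap ((SemilinearAut.baseAut ν : L ≃+* L) : L →+* L) (θ f)) :
    (∀ y ∈ s59k_Wtheta hval, ν • y ∈ s59k_Wtheta hval) ∧
    (∀ y ∈ s59k_Wtheta hval, (s59k_Wtheta hval).valuation (ν • y - y) < 1) ∧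
    (∀ f : F, f ≠ 0 → ∃ c : L, c ≠ 0 ∧
      (s59k_Wtheta hval).valuation (f * (algebraMap L F c)⁻¹) = 1) := by
  have hmem : ∀ y ∈ s59k_Wtheta hval, ν • y ∈ s59k_Wtheta hval := by
    intro y hy
    obtain ⟨hy', -⟩ := s59k_coeffMap_mem_O (SemilinearAut.baseAut ν) hτA hτI
      (hy : θ y ∈ s37r_O A (IsLocalRing.residue ↥A))
    show θ (ν • y) ∈ s37r_O A (IsLocalRing.residue ↥A)
    rw [hθν]
    exact hy'
  refine ⟨hmem, fun y hy => ?_, s59k_theta_hnorm hval hscale⟩
  have hy2 := hmem y hy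
  have hsub : ν • y - y ∈ s59k_Wtheta hval := sub_mem hy2 hy
  rw [s59k_wtheta_val_lt_one_iff hval _ hsub]
  have e : (⟨ν • y - y, hsub⟩ : ↥(s59k_Wtheta hval)) = ⟨ν • y, hy2⟩ - ⟨y, hy⟩ := rfl
  rw [e, map_sub, sub_eq_zero, s59k_redTheta_apply, s59k_redTheta_apply]
  obtain ⟨hy', hred⟩ := s59k_coeffMap_mem_O (SemilinearAut.baseAut ν) hτA hτI
    (hy : θ y ∈ s37r_O A (IsLocalRing.residue ↥A))
  rw [← hred]
  congr 1
  exact Subtype.ext (hθν y)

/-- **(P2) at `W_θ`.** -/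
theorem s59k_P2_theta (hval : s59k_ThetaVal A θ) (hscale : s59k_ThetaScale A θ)
    (ν : SemilinearAut L F)
    (hτA : ∀ a ∈ A, SemilinearAut.baseAut ν a ∈ A)
    (hτI : ∀ a ∈ A, SemilinearAut.baseAut ν a - a ∈ A.nonunits)
    (hθν : ∀ f : F, θ (ν • f) = coeffMap ((SemilinearAut.baseAut ν : L ≃+* L) : L →+* L) (θ f))
    (n : ℕ) (z : Pic0 L F) (hz : n • z = 0) :
    ν • z - z ∈ s59k_KumKer (K := L) (s59k_Wtheta hval) n := by
  obtain ⟨h1, h2, h3⟩ := s59k_theta_hyps hval hscale ν hτA hτI hθν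
  exact s59k_smul_sub_mem_kumKer ν _ h1 h2 h3 n z hz

/-- **(P3) at `W_θ`**: if `θ` intertwines `τ δ⁻¹` with the coefficientwise action of the base automorphism, then
`τ z − δ z ∈ KumKer W_θ n`. -/
theorem s59k_P3_theta (hval : s59k_ThetaVal A θ) (hscale : s59k_ThetaScale A θ)
    (τ δ : SemilinearAut L F)
    (hτA : ∀ a ∈ A, SemilinearAut.baseAut (τ * δ⁻¹) a ∈ A)
    (hτI : ∀ a ∈ A, SemilinearAut.baseAut (τ * δ⁻¹) a - a ∈ A.nonunits)
    (hθν : ∀ f : F, θ ((τ * δ⁻¹) • f) =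
      coeffMap ((SemilinearAut.baseAut (τ * δ⁻¹) : L ≃+* L) : L →+* L) (θ f))
    (n : ℕ) (z : Pic0 L F) (hz : n • z = 0) :
    τ • z - δ • z ∈ s59k_KumKer (K := L) (s59k_Wtheta hval) n := by
  have hz' : n • (δ • z) = 0 := by
    have : n • (δ • z) = δ • (n • z) :=
      (map_nsmul (DistribSMul.toAddMonoidHom (Pic0 L F) δ) n z).symm
    rw [this, hz]
    exact map_zero (DistribSMul.toAddMonoidHom (Pic0 L F) δ)
  have h := s59k_P2_theta hval hscale (τ * δ⁻¹) hτA hτI hθν n (δ • z) hz'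
  rwa [mul_smul, inv_smul_smul] at h

end Fermat.Agent.Lib.S59
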