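/-
Programme (R) / node (H4′), family K (helper1, prefix `s59k_`): **the Gauss valuation subrings `W_θ` and
the DECOMPOSITION group; constants**.

Setting of `KGauss.lean` (`A ⊆ L` a valuation subring, `θ : F →+* L((q))`).
* `s59k_coeffMap_mem_O_decomp` : the coefficientwise action of `τ` with `τ A ⊆ A` preserves the Gauss ring;
* `s59k_theta_stab`      : a semilinear automorphism `ν` over such a `τ`, intertwined by `θ` with the
                           coefficientwise action, preserves `W_θ`;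
* `s59k_C_mem_O`         : constants of `A` are Gauss-integral;
* `s59k_val_eq_one_of_mem` : `x, x⁻¹ ∈ W`, `x ≠ 0` ⇒ `W.valuation x = 1`;
* `s59k_wtheta_val_const`  : `W_θ.valuation c = 1` for `c ∈ A^×`;
* `s59k_prime_val_eq_one`  : for `A` over `q` and a prime `p ≠ q`: `A.valuation p = 1`; `s59k_prime_inv_mem`;
* `s59k_wtheta_val_prime`  : `W_θ.valuation (p : F) = 1`.
-/
import Mathlib
import Fermat.Agent.Lib.S59.KGauss
import Fermat.Prelude.Def_FLTPrelim_Ramification

set_option autoImplicit false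
set_option linter.unusedSectionVars false
set_option linter.unusedVariables false

noncomputable section

namespace Fermat.Agent.Lib.S59

open AlgebraicCurve ModularCurve HahnSeries Fermat.Agent.Lib.S37 Fermat.Agent.Lib.S34

variable {L : Type*} [Field L] (A : ValuationSubring L) {F : Type*} [Field F] [Algebra L F]
  (θ : F →+* LaurentSeries L)

/-- the coefficientwise action of an automorphism preserving `A` preserves the Gauss ring. -/
theorem s59k_coeffMap_mem_O_decomp (τ : L ≃+* L) (hτA : ∀ a ∈ A, τ a ∈ A) {y : LaurentSeries L}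
    (hy : y ∈ s37r_O A (IsLocalRing.residue ↥A)) :
    coeffMap (τ : L →+* L) y ∈ s37r_O A (IsLocalRing.residue ↥A) := by
  obtain ⟨P, Q, hQ, h⟩ := hy
  refine ⟨coeffMap (s59k_tauA τ hτA) P, coeffMap (s59k_tauA τ hτA) Q, ?_, ?_⟩
  · intro h0
    apply hQ
    ext n
    have h1 := congrArg (fun z : LaurentSeries _ => z.coeff n) h0
    simp only [coeffMap_coeff, HahnSeries.coeff_zero] at h1 ⊢
    by_contra hne
    have hu : IsUnit (Q.coeff n) := by
      by_contra hnu
      exact hne ((IsLocalRing.residue_eq_zero_iff _).mpr hnu)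
    have hu' : IsUnit (s59k_tauA τ hτA (Q.coeff n)) := hu.map _
    exact ((IsLocalRing.residue_eq_zero_iff _).mp h1) hu'
  · rw [s59k_subtype_tauA, s59k_subtype_tauA, ← map_mul, h]

variable {A θ}

/-- a semilinear automorphism over `τ` with `τ A ⊆ A`, intertwined by `θ` with the coefficientwise action,
maps `W_θ` into itself. -/
theorem s59k_theta_stab (hval : s59k_ThetaVal A θ) (ν : SemilinearAut L F)
    (hτA : ∀ a ∈ A, SemilinearAut.baseAut ν a ∈ A)
    (hθν : ∀ f : F, θ (ν • f) = coeffMap ((SemilinearAut.baseAut ν : L ≃+* L) : L →+* L) (θ f))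
    (y : F) (hy : y ∈ s59k_Wtheta hval) : ν • y ∈ s59k_Wtheta hval := by
  show θ (ν • y) ∈ s37r_O A (IsLocalRing.residue ↥A)
  rw [hθν]
  exact s59k_coeffMap_mem_O_decomp A (SemilinearAut.baseAut ν) hτA hy

variable (A) in
/-- constants of `A` are Gauss-integral. -/
theorem s59k_C_mem_O (c : L) (hc : c ∈ A) :
    (HahnSeries.C c : LaurentSeries L) ∈ s37r_O A (IsLocalRing.residue ↥A) := by
  have e : (HahnSeries.C c : LaurentSeries L) =
      coeffMap A.subtype (HahnSeries.C (⟨c, hc⟩ : ↥A)) := by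
    rw [HahnSeries.C_apply, HahnSeries.C_apply, coeffMap_single]
    rfl
  rw [e]
  exact s37r_iota_mem_O A _ _

/-- `x, x⁻¹ ∈ W`, `x ≠ 0` ⇒ `W.valuation x = 1`. -/
theorem s59k_val_eq_one_of_mem (W : ValuationSubring F) {x : F} (hx0 : x ≠ 0) (hx : x ∈ W)
    (hx' : x⁻¹ ∈ W) : W.valuation x = 1 := by
  have h1 : W.valuation x ≤ 1 := (W.valuation_le_one_iff x).mpr hx
  have h2 : W.valuation x⁻¹ ≤ 1 := (W.valuation_le_one_iff x⁻¹).mpr hx'
  rw [map_inv₀] at h2
  have hv0 : W.valuation x ≠ 0 := (Valuation.ne_zero_iff _).mpr hx0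
  exact le_antisymm h1 ((inv_le_one₀ (zero_lt_iff.mpr hv0)).mp h2)

/-- **constants which are units of `A` have `W_θ`-valuation one.** -/
theorem s59k_wtheta_val_const (hval : s59k_ThetaVal A θ)
    (hθC : ∀ c : L, θ (algebraMap L F c) = HahnSeries.C c)
    (c : L) (hc0 : c ≠ 0) (hc : c ∈ A) (hc' : c⁻¹ ∈ A) :
    (s59k_Wtheta hval).valuation (algebraMap L F c) = 1 := by
  refine s59k_val_eq_one_of_mem _ ((_root_.map_ne_zero _).mpr hc0) ?_ ?_
  · show θ (algebraMap L F c) ∈ s37r_O A (IsLocalRing.residue ↥A)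
    rw [hθC]
    exact s59k_C_mem_O A c hc
  · show θ (algebraMap L F c)⁻¹ ∈ s37r_O A (IsLocalRing.residue ↥A)
    rw [← map_inv₀, hθC]
    exact s59k_C_mem_O A c⁻¹ hc'

/-- for `A` over the prime `q` and a prime `p ≠ q`: `A.valuation p = 1`. -/
theorem s59k_prime_val_eq_one (A : ValuationSubring L) {q p : ℕ} (hA : A.LiesOverPrime q)
    (hq : q.Prime) (hp : p.Prime) (hpq : p ≠ q) : A.valuation (p : L) = 1 := by
  have hle : ∀ n : ℤ, A.valuation (n : L) ≤ 1 := fun n =>
    (A.valuation_le_one_iff _).mpr (intCast_mem A n)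
  have hq1 : A.valuation (q : L) < 1 := (A.mem_nonunits_iff).mp hA
  have hp1 : A.valuation (p : L) ≤ 1 := by
    have := hle (p : ℤ)
    rwa [Int.cast_natCast] at this
  refine le_antisymm hp1 (not_lt.mp fun hlt => ?_)
  have hcop : Nat.Coprime p q := (Nat.coprime_primes hp hq).mpr hpq
  have hcopZ : IsCoprime (p : ℤ) (q : ℤ) := Nat.isCoprime_iff_coprime.mpr hcop
  obtain ⟨a, b, hab⟩ := hcopZ
  have h1 : ((a : L) * (p : L) + (b : L) * (q : L)) = 1 := by
    have := congrArg (fun n : ℤ => (n : L)) hab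
    simpa using this
  have h2 : A.valuation ((a : L) * (p : L) + (b : L) * (q : L)) < 1 := by
    refine Valuation.map_add_lt _ ?_ ?_
    · rw [map_mul]
      exact lt_of_le_of_lt (mul_le_of_le_one_left' (hle a)) hlt
    · rw [map_mul]
      exact lt_of_le_of_lt (mul_le_of_le_one_left' (hle b)) hq1
  rw [h1, map_one] at h2
  exact lt_irrefl _ h2

theorem s59k_prime_inv_mem (A : ValuationSubring L) {q p : ℕ} (hA : A.LiesOverPrime q)
    (hq : q.Prime) (hp : p.Prime) (hpq : p ≠ q) : ((p : L))⁻¹ ∈ A := by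
  rw [← A.valuation_le_one_iff, map_inv₀, s59k_prime_val_eq_one A hA hq hp hpq, inv_one]

/-- **`W_θ.valuation p = 1`** for a prime `p` different from the residue characteristic `q` of `A`. -/
theorem s59k_wtheta_val_prime (hval : s59k_ThetaVal A θ)
    (hθC : ∀ c : L, θ (algebraMap L F c) = HahnSeries.C c)
    {q p : ℕ} (hA : A.LiesOverPrime q) (hq : q.Prime) (hp : p.Prime) (hpq : p ≠ q) :
    (s59k_Wtheta hval).valuation ((p : ℕ) : F) = 1 := by
  have hp0 : ((p : ℕ) : L) ≠ 0 := by
    intro h0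
    have := s59k_prime_val_eq_one A hA hq hp hpq
    rw [h0, map_zero] at this
    exact zero_ne_one this
  have h := s59k_wtheta_val_const hval hθC ((p : ℕ) : L) hp0 (natCast_mem A p)
    (s59k_prime_inv_mem A hA hq hp hpq)
  rwa [map_natCast] at h

end Fermat.Agent.Lib.S59
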