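/-
Programme (R) / node (H4′), family K (helper1, prefix `s59k_`): **(K-V), the field of fractions of integral
series over number fields**, and (val)/(scale) for every embedding `θ` with image inside it.

`A ⊆ ℚ̄` a valuation subring over a prime `ℓ`.  `s59k_FracTop A ⊆ ℚ̄((q))` is the subfield of the series `f` such
that `Q f = P` for two series `P, Q ≠ 0` with coefficients in `A ∩ L₀`, `L₀` a NUMBER FIELD (depending on `f`).
On it the Gauss valuation is defined (the level valuation rings `A ∩ L₀` are discrete):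

* `s59k_fracTop_val`   : `f ∈ FracTop`, `f ≠ 0` ⇒ `f ∈ s37r_O A π` or `f⁻¹ ∈ s37r_O A π`;
* `s59k_fracTop_scale` : `f ∈ FracTop`, `f ≠ 0` ⇒ `f · C(c)⁻¹ ∈ s37r_O A π` with non-zero reduction, some `c ≠ 0`;
* `s59k_thetaVal_of_fracTop`, `s59k_thetaScale_of_fracTop` : the hypotheses of `KGauss.lean` for `θ : F →+* ℚ̄((q))`
  with `θ(F) ⊆ FracTop`;
* membership: `s59k_C_mem_fracTop`, `s59k_level_mem_fracTop` (image of a level fraction field `s18g_Frac`),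
  `s59k_coeffEmb_mem_fracTop` (rational series which are fractions of `ℤ_(ℓ)`-integral ones), `s59k_iotaTop_mem_fracTop`.
-/
import Mathlib
import Fermat.Agent.Lib.S37.RChart
import Fermat.Agent.Lib.S59.KGauss

set_option autoImplicit false
set_option linter.unusedSectionVars false
set_option linter.unusedVariables false
set_option linter.style.haveILetI false

noncomputable section

namespace Fermat.Agent.Lib.S59

open AlgebraicCurve ModularCurve HahnSeries Fermat.Agent.Lib.S18 Fermat.Agent.Lib.S37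

local notation "Qbar" => AlgebraicClosure ℚ

variable (A : ValuationSubring Qbar)

/-! ### Integral series of the levels, inside `ℚ̄((q))` -/

/-- `(A ∩ L₀)((q)) → ℚ̄((q))`. -/
def s59k_iotaTop (L₀ : IntermediateField ℚ Qbar) :
    LaurentSeries ↥(s18q_A0 A L₀) →+* LaurentSeries Qbar :=
  (coeffMap (algebraMap ↥L₀ Qbar)).comp (coeffMap (s18q_A0 A L₀).subtype)

theorem s59k_iotaTop_coeff (L₀ : IntermediateField ℚ Qbar) (P : LaurentSeries ↥(s18q_A0 A L₀))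
    (n : ℤ) : (s59k_iotaTop A L₀ P).coeff n = (((P.coeff n : ↥(s18q_A0 A L₀)) : ↥L₀) : Qbar) := rfl

theorem s59k_iotaTop_injective (L₀ : IntermediateField ℚ Qbar) :
    Function.Injective (s59k_iotaTop A L₀) := by
  intro P Q h
  ext n
  have := congrArg (fun f => f.coeff n) h
  simp only [s59k_iotaTop_coeff] at this
  exact this

theorem s59k_iotaTop_eq (L₀ : IntermediateField ℚ Qbar) (P : LaurentSeries ↥(s18q_A0 A L₀)) :
    s59k_iotaTop A L₀ P = coeffMap A.subtype (coeffMap (s18q_A0_hom A L₀) P) := by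
  ext n
  rfl

/-- the inclusion `A ∩ L₀ → A ∩ L₁`. -/
def s59k_A0incl {L₀ L₁ : IntermediateField ℚ Qbar} (h : L₀ ≤ L₁) :
    ↥(s18q_A0 A L₀) →+* ↥(s18q_A0 A L₁) :=
  ((IntermediateField.inclusion h : ↥L₀ →ₐ[ℚ] ↥L₁) : ↥L₀ →+* ↥L₁).restrict
    (s18q_A0 A L₀) (s18q_A0 A L₁) fun x hx => hx

theorem s59k_iotaTop_incl {L₀ L₁ : IntermediateField ℚ Qbar} (h : L₀ ≤ L₁)
    (P : LaurentSeries ↥(s18q_A0 A L₀)) :
    s59k_iotaTop A L₁ (coeffMap (s59k_A0incl A h) P) = s59k_iotaTop A L₀ P := by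
  ext n
  rfl

/-! ### The field `FracTop` -/

/-- the defining property of `FracTop`, at a given level. -/
def s59k_IsFracAt (L₀ : IntermediateField ℚ Qbar) (f : LaurentSeries Qbar) : Prop :=
  ∃ P Q : LaurentSeries ↥(s18q_A0 A L₀), Q ≠ 0 ∧ s59k_iotaTop A L₀ Q * f = s59k_iotaTop A L₀ P

theorem s59k_isFracAt_mono {L₀ L₁ : IntermediateField ℚ Qbar} (h : L₀ ≤ L₁)
    {f : LaurentSeries Qbar} (hf : s59k_IsFracAt A L₀ f) : s59k_IsFracAt A L₁ f := by
  obtain ⟨P, Q, hQ, e⟩ := hf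
  refine ⟨coeffMap (s59k_A0incl A h) P, coeffMap (s59k_A0incl A h) Q, ?_, ?_⟩
  · intro h0
    apply hQ
    apply s59k_iotaTop_injective A L₀
    rw [← s59k_iotaTop_incl A h, h0, map_zero, map_zero]
  · rw [s59k_iotaTop_incl, s59k_iotaTop_incl, e]

/-- **the field of fractions of integral series over number fields.** -/
def s59k_FracTop : Subfield (LaurentSeries Qbar) where
  carrier := {f | ∃ L₀ : IntermediateField ℚ Qbar, FiniteDimensional ℚ ↥L₀ ∧ s59k_IsFracAt A L₀ f}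
  mul_mem' := by
    rintro f g ⟨L₀, h₀, hf⟩ ⟨L₁, h₁, hg⟩
    haveI := h₀
    haveI := h₁
    obtain ⟨P, Q, hQ, e⟩ := s59k_isFracAt_mono A (le_sup_left : L₀ ≤ L₀ ⊔ L₁) hf
    obtain ⟨P', Q', hQ', e'⟩ := s59k_isFracAt_mono A (le_sup_right : L₁ ≤ L₀ ⊔ L₁) hg
    refine ⟨L₀ ⊔ L₁, inferInstance, P * P', Q * Q', mul_ne_zero hQ hQ', ?_⟩
    rw [map_mul, map_mul, ← e, ← e']; ring
  one_mem' := ⟨⊥, inferInstance, 1, 1, one_ne_zero, by simp⟩
  add_mem' := by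
    rintro f g ⟨L₀, h₀, hf⟩ ⟨L₁, h₁, hg⟩
    haveI := h₀
    haveI := h₁
    obtain ⟨P, Q, hQ, e⟩ := s59k_isFracAt_mono A (le_sup_left : L₀ ≤ L₀ ⊔ L₁) hf
    obtain ⟨P', Q', hQ', e'⟩ := s59k_isFracAt_mono A (le_sup_right : L₁ ≤ L₀ ⊔ L₁) hg
    refine ⟨L₀ ⊔ L₁, inferInstance, P * Q' + P' * Q, Q * Q', mul_ne_zero hQ hQ', ?_⟩
    rw [map_mul, map_add, map_mul, map_mul, ← e, ← e']; ring
  zero_mem' := ⟨⊥, inferInstance, 0, 1, one_ne_zero, by simp⟩
  neg_mem' := by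
    rintro f ⟨L₀, h₀, P, Q, hQ, e⟩
    exact ⟨L₀, h₀, -P, Q, hQ, by rw [map_neg, ← e]; ring⟩
  inv_mem' := by
    rintro f ⟨L₀, h₀, P, Q, hQ, e⟩
    by_cases hf : f = 0
    · subst hf
      exact ⟨L₀, h₀, 0, 1, one_ne_zero, by simp⟩
    · have hP : P ≠ 0 := by
        rintro rfl
        rw [map_zero] at e
        rcases mul_eq_zero.mp e with h1 | h1
        · exact hQ (s59k_iotaTop_injective A L₀ (by rw [h1, map_zero]))
        · exact hf h1
      refine ⟨L₀, h₀, Q, P, hP, ?_⟩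
      rw [← e, mul_assoc, mul_inv_cancel₀ hf, mul_one]

theorem s59k_mem_fracTop {f : LaurentSeries Qbar} : f ∈ s59k_FracTop A ↔
    ∃ L₀ : IntermediateField ℚ Qbar, FiniteDimensional ℚ ↥L₀ ∧ s59k_IsFracAt A L₀ f := Iff.rfl

theorem s59k_iotaTop_mem_fracTop (L₀ : IntermediateField ℚ Qbar) [FiniteDimensional ℚ ↥L₀]
    (P : LaurentSeries ↥(s18q_A0 A L₀)) : s59k_iotaTop A L₀ P ∈ s59k_FracTop A :=
  ⟨L₀, inferInstance, P, 1, one_ne_zero, by simp⟩

/-- the image of a level fraction field. -/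
theorem s59k_level_mem_fracTop (L₀ : IntermediateField ℚ Qbar) [FiniteDimensional ℚ ↥L₀]
    [IsDiscreteValuationRing ↥(s18q_A0 A L₀)] (ϖ : ↥(s18q_A0 A L₀)) (hϖ : Irreducible ϖ)
    {f₀ : LaurentSeries ↥L₀} (hf₀ : f₀ ∈ s18g_Frac (s37r_G A L₀ ϖ hϖ)) :
    coeffMap (algebraMap ↥L₀ Qbar) f₀ ∈ s59k_FracTop A := by
  obtain ⟨P, Q, hQ, e⟩ := hf₀
  refine ⟨L₀, inferInstance, P, Q, hQ, ?_⟩
  show coeffMap (algebraMap ↥L₀ Qbar) (coeffMap (s18q_A0 A L₀).subtype Q) * _ =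
    coeffMap (algebraMap ↥L₀ Qbar) (coeffMap (s18q_A0 A L₀).subtype P)
  rw [← map_mul]
  exact congrArg _ e

/-- constants. -/
theorem s59k_C_mem_fracTop (c : Qbar) : (HahnSeries.C c : LaurentSeries Qbar) ∈ s59k_FracTop A := by
  classical
  have hint : IsIntegral ℚ c := (s18q_isAlgebraic_bar.isAlgebraic c).isIntegral
  haveI : FiniteDimensional ℚ ↥(IntermediateField.adjoin ℚ {c}) :=
    IntermediateField.adjoin.finiteDimensional hint
  set L₀ : IntermediateField ℚ Qbar := IntermediateField.adjoin ℚ {c} with hL₀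
  have hc : c ∈ L₀ := IntermediateField.mem_adjoin_simple_self ℚ c
  rcases A.mem_or_inv_mem c with h | h
  · have : (HahnSeries.C c : LaurentSeries Qbar) =
        s59k_iotaTop A L₀ (HahnSeries.C (⟨⟨c, hc⟩, h⟩ : ↥(s18q_A0 A L₀))) := by
      ext n
      rw [s59k_iotaTop_coeff, HahnSeries.C_apply, HahnSeries.C_apply, HahnSeries.coeff_single,
        HahnSeries.coeff_single]
      split_ifs <;> rfl
    rw [this]
    exact s59k_iotaTop_mem_fracTop A L₀ _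
  · have hci : c⁻¹ ∈ L₀ := inv_mem hc
    have : (HahnSeries.C c⁻¹ : LaurentSeries Qbar) =
        s59k_iotaTop A L₀ (HahnSeries.C (⟨⟨c⁻¹, hci⟩, h⟩ : ↥(s18q_A0 A L₀))) := by
      ext n
      rw [s59k_iotaTop_coeff, HahnSeries.C_apply, HahnSeries.C_apply, HahnSeries.coeff_single,
        HahnSeries.coeff_single]
      split_ifs <;> rfl
    have h2 : (HahnSeries.C c⁻¹ : LaurentSeries Qbar) ∈ s59k_FracTop A := by
      rw [this]
      exact s59k_iotaTop_mem_fracTop A L₀ _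
    have h3 := (s59k_FracTop A).inv_mem h2
    rwa [← map_inv₀, inv_inv] at h3

/-! ### (val) and (scale) on `FracTop` -/

section Val

variable {ℓ : ℕ} [Fact ℓ.Prime] (hA : A.LiesOverPrime ℓ)

include hA in
/-- the level element behind an element of `FracTop`. -/
theorem s59k_fracTop_exists_level {f : LaurentSeries Qbar} (hf : f ∈ s59k_FracTop A) :
    ∃ (L₀ : IntermediateField ℚ Qbar) (_ : FiniteDimensional ℚ ↥L₀)
      (_ : IsDiscreteValuationRing ↥(s18q_A0 A L₀)) (ϖ : ↥(s18q_A0 A L₀)) (hϖ : Irreducible ϖ)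
      (f₀ : LaurentSeries ↥L₀), f₀ ∈ s18g_Frac (s37r_G A L₀ ϖ hϖ) ∧
        coeffMap (algebraMap ↥L₀ Qbar) f₀ = f := by
  obtain ⟨L₀, h₀, P, Q, hQ, e⟩ := hf
  haveI := h₀
  obtain ⟨hdvr, ϖ, hϖ⟩ := s37r_exists_unif A hA L₀
  haveI := hdvr
  set G := s37r_G A L₀ ϖ hϖ with hG
  have hQ0 : s18g_iota G Q ≠ 0 := s18g_iota_ne_zero G hQ
  refine ⟨L₀, h₀, hdvr, ϖ, hϖ, s18g_iota G P / s18g_iota G Q,
    ⟨P, Q, hQ, by rw [mul_div_cancel₀ _ hQ0]⟩, ?_⟩
  have hQt : s59k_iotaTop A L₀ Q ≠ 0 := fun h0 =>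
    hQ (s59k_iotaTop_injective A L₀ (by rw [h0, map_zero]))
  have e1 : coeffMap (algebraMap ↥L₀ Qbar) (s18g_iota G Q) = s59k_iotaTop A L₀ Q := rfl
  have e2 : coeffMap (algebraMap ↥L₀ Qbar) (s18g_iota G P) = s59k_iotaTop A L₀ P := rfl
  rw [map_div₀, e1, e2, ← e, mul_div_cancel_left₀ _ hQt]

include hA in
/-- **(val) on `FracTop`.** -/
theorem s59k_fracTop_val {f : LaurentSeries Qbar} (hf : f ∈ s59k_FracTop A) :
    f ∈ s37r_O A (IsLocalRing.residue ↥A) ∨ f⁻¹ ∈ s37r_O A (IsLocalRing.residue ↥A) := by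
  by_cases hf0 : f = 0
  · left
    rw [hf0]
    exact (s37r_O A _).zero_mem
  obtain ⟨L₀, h₀, hdvr, ϖ, hϖ, f₀, hf₀, rfl⟩ := s59k_fracTop_exists_level A hA hf
  haveI := h₀
  haveI := hdvr
  have hf₀0 : f₀ ≠ 0 := by
    rintro rfl
    exact hf0 (map_zero _)
  rcases s18g_mem_or_inv_mem (s37r_G A L₀ ϖ hϖ) hf₀ hf₀0 with h | ⟨h, -⟩
  · left
    exact s37r_level_mem_O A L₀ ϖ hϖ h
  · right
    rw [← map_inv₀]
    exact s37r_level_mem_O A L₀ ϖ hϖ h

include hA in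
/-- **(scale) on `FracTop`.** -/
theorem s59k_fracTop_scale {f : LaurentSeries Qbar} (hf : f ∈ s59k_FracTop A) (hf0 : f ≠ 0) :
    ∃ c : Qbar, c ≠ 0 ∧
      ∃ hO : f * (HahnSeries.C c : LaurentSeries Qbar)⁻¹ ∈ s37r_O A (IsLocalRing.residue ↥A),
        s37r_red A (IsLocalRing.residue ↥A) ⟨_, hO⟩ ≠ 0 := by
  obtain ⟨L₀, h₀, hdvr, ϖ, hϖ, f₀, hf₀, rfl⟩ := s59k_fracTop_exists_level A hA hf
  haveI := h₀
  haveI := hdvr
  set G := s37r_G A L₀ ϖ hϖ with hG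
  have hf₀0 : f₀ ≠ 0 := by
    rintro rfl
    exact hf0 (map_zero _)
  obtain ⟨n, u, hu, -, hured, e⟩ := s18g_exists_zpow_mul G hf₀ hf₀0
  have hϖ0 : (((G.ϖ : G.A) : ↥L₀) : Qbar) ≠ 0 := by
    intro h0
    apply s18g_unifK_ne_zero G
    exact Subtype.ext h0
  refine ⟨(((G.ϖ : G.A) : ↥L₀) : Qbar) ^ n, zpow_ne_zero n hϖ0, ?_⟩
  have hC : (HahnSeries.C ((((G.ϖ : G.A) : ↥L₀) : Qbar) ^ n) : LaurentSeries Qbar) =
      coeffMap (algebraMap ↥L₀ Qbar) ((HahnSeries.C ((G.ϖ : G.A) : ↥L₀)) ^ n) := by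
    rw [map_zpow₀, map_zpow₀]
    congr 1
    rw [HahnSeries.C_apply, HahnSeries.C_apply, coeffMap_single]
    rfl
  have hC0 : coeffMap (algebraMap ↥L₀ Qbar) ((HahnSeries.C ((G.ϖ : G.A) : ↥L₀)) ^ n) ≠ 0 := by
    rw [← hC]
    intro h0
    have h1 : (HahnSeries.C ((((G.ϖ : G.A) : ↥L₀) : Qbar) ^ n) : LaurentSeries Qbar) *
        HahnSeries.C (((((G.ϖ : G.A) : ↥L₀) : Qbar) ^ n)⁻¹) = 1 := by
      rw [← map_mul, mul_inv_cancel₀ (zpow_ne_zero n hϖ0), map_one]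
    rw [h0, zero_mul] at h1
    exact zero_ne_one h1
  have hrel : coeffMap (algebraMap ↥L₀ Qbar) f₀ *
      (HahnSeries.C ((((G.ϖ : G.A) : ↥L₀) : Qbar) ^ n) : LaurentSeries Qbar)⁻¹ =
      coeffMap (algebraMap ↥L₀ Qbar) u := by
    rw [hC, e, map_mul, mul_comm, ← mul_assoc, inv_mul_cancel₀ hC0, one_mul]
  have hmem : coeffMap (algebraMap ↥L₀ Qbar) u ∈ s37r_O A (IsLocalRing.residue ↥A) :=
    s37r_level_mem_O A L₀ ϖ hϖ hu
  refine ⟨hrel ▸ hmem, ?_⟩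
  have hred := s37r_level_red A L₀ ϖ hϖ ⟨u, hu⟩ hmem
  have key : s37r_red A (IsLocalRing.residue ↥A) ⟨_, hmem⟩ ≠ 0 := by
    rw [hred]
    intro h0
    apply hured
    apply s37r_coeffMap_resMap_injective A L₀
    rw [h0, map_zero]
  convert key using 2
  exact Subtype.ext hrel

end Val

/-! ### The hypotheses of `KGauss.lean` -/

section Theta

variable {F : Type*} [Field F] [Algebra Qbar F] (θ : F →+* LaurentSeries Qbar)
  {ℓ : ℕ} [Fact ℓ.Prime] (hA : A.LiesOverPrime ℓ)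

include hA in
theorem s59k_thetaVal_of_fracTop (hθ : ∀ f : F, θ f ∈ s59k_FracTop A) : s59k_ThetaVal A θ :=
  fun f => by
    rcases s59k_fracTop_val A hA (hθ f) with h | h
    · exact Or.inl h
    · right
      rw [map_inv₀]
      exact h

include hA in
theorem s59k_thetaScale_of_fracTop (hθ : ∀ f : F, θ f ∈ s59k_FracTop A)
    (hθc : ∀ c : Qbar, θ (algebraMap Qbar F c) = HahnSeries.C c) : s59k_ThetaScale A θ := by
  intro f hf
  have hθf : θ f ≠ 0 := (map_ne_zero θ).mpr hf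
  obtain ⟨c, hc, hO, hred⟩ := s59k_fracTop_scale A hA (hθ f) hθf
  have e : θ (f * (algebraMap Qbar F c)⁻¹) = θ f * (HahnSeries.C c : LaurentSeries Qbar)⁻¹ := by
    rw [map_mul, map_inv₀, hθc]
  refine ⟨c, hc, e ▸ hO, ?_⟩
  convert hred using 2
  exact Subtype.ext e

end Theta

end Fermat.Agent.Lib.S59
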