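/-
Programme (R) / node (H4′), family K (helper1, prefix `s59k_`): **(K-V), the valuation `W_∞` of `F_H` and (P2)**.

`A ⊆ ℚ̄` a valuation subring over a prime `ℓ` (ANY prime, dividing the level or not).  The function field
`F_H = s48k_FH M H ⊆ ℚ̄((q))` lies in `s59k_FracTop A` (main's `s48wg_coeffEmb_FHQ_mem_Frac`), hence carries the Gauss
valuation subring `W_∞ = s59k_Winf M H A hA` (`KGauss.lean` for `θ = ` the inclusion), with reduction into `κ((q))`.

* `s59k_FH_mem_fracTop` ; `s59k_inclFH`, `s59k_Winf`, `s59k_mem_Winf` ;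
* **(P2) `s59k_P2_inf`** : for `σ` in the inertia group of `A` and `z ∈ J_H[n]`:  `σ z − z ∈ KumKer W_∞ n`.
The same for an arbitrary rational model: `s59k_baseChange_mem_fracTop`, `s59k_P2_inf_gen`.
-/
import Mathlib
import Fermat.Agent.Lib.S59.KFrac
import Fermat.Agent.Lib.S48.WGX
import Fermat.Agent.Lib.Frey.OrdInertia

set_option autoImplicit false
set_option linter.unusedSectionVars false
set_option linter.unusedVariables false
set_option linter.style.haveILetI false

noncomputable section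

namespace Fermat.Agent.Lib.S59

open AlgebraicCurve ModularCurve HahnSeries Fermat.Agent.Lib.S18 Fermat.Agent.Lib.S37
  Fermat.Agent.Lib.S48 Fermat.Agent.Lib.Frey

local notation "Qbar" => AlgebraicClosure ℚ

variable (A : ValuationSubring Qbar) {ℓ : ℕ} [Fact ℓ.Prime] (hA : A.LiesOverPrime ℓ)

/-! ### Rational models inside `FracTop` -/

theorem s59k_coeffMap_coeffEmb (L₀ : IntermediateField ℚ Qbar) (x : LaurentSeries ℚ) :
    coeffMap (algebraMap ↥L₀ Qbar) (coeffEmb ↥L₀ x) = coeffEmb Qbar x := by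
  rw [coeffEmb, coeffEmb, coeffMap_coeffMap]
  exact coeffMap_congr (RingHom.ext fun r => (IsScalarTower.algebraMap_apply ℚ ↥L₀ Qbar r).symm) x

include hA in
/-- a rational model all of whose base changes lie in the Gauss fraction fields lies in `FracTop`. -/
theorem s59k_baseChange_mem_fracTop (FQ : IntermediateField ℚ (LaurentSeries ℚ))
    (hFQ : ∀ (ϖ : ↥(s18q_A0 A ⊥)) [IsDiscreteValuationRing ↥(s18q_A0 A ⊥)] (hϖ : Irreducible ϖ),
      ∀ x ∈ FQ, coeffEmb ↥(⊥ : IntermediateField ℚ Qbar) x ∈ s18g_Frac (s37r_G A ⊥ ϖ hϖ))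
    {f : LaurentSeries Qbar} (hf : f ∈ laurentBaseChange Qbar FQ) : f ∈ s59k_FracTop A := by
  obtain ⟨hdvr, ϖ, hϖ⟩ := s37r_exists_unif A hA ⊥
  haveI := hdvr
  let FI : IntermediateField Qbar (LaurentSeries Qbar) :=
    (s59k_FracTop A).toIntermediateField fun c => by
      rw [algebraMap_laurentSeries_eq_single, ← HahnSeries.C_apply]
      exact s59k_C_mem_fracTop A c
  have hle : laurentBaseChange Qbar FQ ≤ FI := by
    rw [laurentBaseChange, IntermediateField.adjoin_le_iff]
    rintro y ⟨x, hx, rfl⟩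
    show coeffEmb Qbar x ∈ s59k_FracTop A
    rw [← s59k_coeffMap_coeffEmb ⊥ x]
    exact s59k_level_mem_fracTop A ⊥ ϖ hϖ (hFQ ϖ hϖ x hx)
  exact hle hf

variable (M : ℕ) [NeZero M] (H : Subgroup (ZMod M)ˣ)

include hA in
/-- **`F_H ⊆ FracTop`.** -/
theorem s59k_FH_mem_fracTop (f : ↥(s48k_FH M H)) : (f : LaurentSeries Qbar) ∈ s59k_FracTop A :=
  s59k_baseChange_mem_fracTop A hA (s48k_FHQ M H)
    (fun ϖ _ hϖ x hx => s48wg_coeffEmb_FHQ_mem_Frac (s37r_G A ⊥ ϖ hϖ) H hx) f.2

/-! ### `W_∞` -/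

/-- the inclusion `F ⊆ ℚ̄((q))` as a ring homomorphism. -/
def s59k_incl (F : IntermediateField Qbar (LaurentSeries Qbar)) : ↥F →+* LaurentSeries Qbar :=
  (F.val : ↥F →+* LaurentSeries Qbar)

theorem s59k_incl_apply (F : IntermediateField Qbar (LaurentSeries Qbar)) (f : ↥F) :
    s59k_incl F f = (f : LaurentSeries Qbar) := rfl

theorem s59k_incl_algebraMap (F : IntermediateField Qbar (LaurentSeries Qbar)) (c : Qbar) :
    s59k_incl F (algebraMap Qbar ↥F c) = HahnSeries.C c := by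
  show algebraMap Qbar (LaurentSeries Qbar) c = HahnSeries.C c
  rw [algebraMap_laurentSeries_eq_single, HahnSeries.C_apply]

include hA in
theorem s59k_Winf_val : s59k_ThetaVal A (s59k_incl (s48k_FH M H)) :=
  s59k_thetaVal_of_fracTop A _ hA (s59k_FH_mem_fracTop A hA M H)

include hA in
theorem s59k_Winf_scale : s59k_ThetaScale A (s59k_incl (s48k_FH M H)) :=
  s59k_thetaScale_of_fracTop A _ hA (s59k_FH_mem_fracTop A hA M H)
    (s59k_incl_algebraMap (s48k_FH M H))

include hA in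
/-- **`W_∞`**: the Gauss valuation subring of `F_H` at `A` (`q`-expansion at `∞`). -/
def s59k_Winf : ValuationSubring ↥(s48k_FH M H) := s59k_Wtheta (s59k_Winf_val A hA M H)

theorem s59k_mem_Winf (f : ↥(s48k_FH M H)) :
    f ∈ s59k_Winf A hA M H ↔ (f : LaurentSeries Qbar) ∈ s37r_O A (IsLocalRing.residue ↥A) :=
  Iff.rfl

/-- **(P2)**: the inertia group of `A` acts trivially on `J_H[n]` modulo the Kummer kernel of `W_∞`. -/
theorem s59k_P2_inf (σ : s48k_G) (hσ : σ ∈ A.inertiaSubgroupIn ℚ) (n : ℕ) (z : s48k_JH M H)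
    (hz : n • z = 0) :
    σ • z - z ∈ s59k_KumKer (K := Qbar) (s59k_Winf A hA M H) n := by
  obtain ⟨hD, hI⟩ := ford_inertia_spec A σ hσ
  exact s59k_P2_theta (s59k_Winf_val A hA M H) (s59k_Winf_scale A hA M H)
    (arithmeticGalois (s48k_FHQ M H) σ)
    (fun a ha => ford_decomposition_mem A σ hD a ha) (fun a ha => hI a ha)
    (fun f => coe_arithmeticGalois_smul (s48k_FHQ M H) σ f) n z hz

end Fermat.Agent.Lib.S59
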