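/-
Programme (R) / node (H4′), family K (helper1, prefix `s59k_`): **the Atkin–Lehner involution
`w = s37w_al M₁ q₁` of `F̄₀(M₁ q₁)` commutes with the (semilinear) action of `Gal(ℚ̄/ℚ)`**
(`s59k_al_galois`), via the generic `s59k_commute_of_adjoin`.
-/
import Mathlib
import Fermat.Agent.Lib.S59.KInf
import Fermat.Agent.Lib.S37.WAtkin
import Fermat.Agent.Lib.S34.MValAL

set_option autoImplicit false
set_option linter.unusedSectionVars false
set_option linter.unusedVariables false
set_option linter.style.haveILetI false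

noncomputable section

namespace Fermat.Agent.Lib.S59

open AlgebraicCurve ModularCurve HahnSeries Fermat.Agent.Lib.S18 Fermat.Agent.Lib.S37
  Fermat.Agent.Lib.S48 Fermat.Agent.Lib.Frey Fermat.Agent.Lib.FF Fermat.Agent.Lib.S34

local notation "Qbar" => AlgebraicClosure ℚ

/-! ### Atkin–Lehner commutes with the Galois action -/

/-- a semilinear automorphism and a linear automorphism of `K(S)` commute as soon as they commute on
the generators. -/
theorem s59k_commute_of_adjoin {K E : Type*} [Field K] [Field E] [Algebra K E] (S : Set E)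
    (ν : SemilinearAut K ↥(IntermediateField.adjoin K S))
    (w : ↥(IntermediateField.adjoin K S) ≃ₐ[K] ↥(IntermediateField.adjoin K S))
    (h : ∀ (s : E) (hs : s ∈ S),
      w (ν • (⟨s, IntermediateField.subset_adjoin K S hs⟩ : ↥(IntermediateField.adjoin K S))) =
        ν • w ⟨s, IntermediateField.subset_adjoin K S hs⟩)
    (f : ↥(IntermediateField.adjoin K S)) : w (ν • f) = ν • w f := by
  obtain ⟨x, hx⟩ := f
  induction hx using IntermediateField.adjoin_induction with
  | mem x hx => exact h x hx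
  | algebraMap c =>
    have e : (⟨algebraMap K E c, IntermediateField.algebraMap_mem _ c⟩ :
        ↥(IntermediateField.adjoin K S)) = algebraMap K ↥(IntermediateField.adjoin K S) c :=
      Subtype.ext rfl
    rw [e, SemilinearAut.smul_algebraMap, AlgEquiv.commutes, AlgEquiv.commutes,
      SemilinearAut.smul_algebraMap]
  | add x y hx hy ihx ihy =>
    have e : (⟨x + y, add_mem hx hy⟩ : ↥(IntermediateField.adjoin K S)) = ⟨x, hx⟩ + ⟨y, hy⟩ :=
      Subtype.ext rfl
    rw [e, smul_add, map_add w, map_add w, smul_add, ihx, ihy]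
  | inv x hx ihx =>
    have e : (⟨x⁻¹, inv_mem hx⟩ : ↥(IntermediateField.adjoin K S)) =
        (⟨x, hx⟩ : ↥(IntermediateField.adjoin K S))⁻¹ := Subtype.ext rfl
    rw [e, smul_inv'', map_inv₀ w, map_inv₀ w, smul_inv'', ihx]
  | mul x y hx hy ihx ihy =>
    have e : (⟨x * y, mul_mem hx hy⟩ : ↥(IntermediateField.adjoin K S)) = ⟨x, hx⟩ * ⟨y, hy⟩ :=
      Subtype.ext rfl
    rw [e, smul_mul', map_mul w, map_mul w, smul_mul', ihx, ihy]

section AL

variable (M₁ q₁ : ℕ) [NeZero M₁] [NeZero q₁] (hq : q₁.Prime) (hqM : ¬ q₁ ∣ M₁)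

theorem s59k_coeffMap_galois_coeffEmb (σ : Qbar ≃ₐ[ℚ] Qbar) (z : LaurentSeries ℚ) :
    coeffMap ((σ : Qbar ≃ₐ[ℚ] Qbar) : Qbar →+* Qbar) (coeffEmb Qbar z) = coeffEmb Qbar z := by
  rw [coeffEmb, coeffMap_coeffMap]
  exact coeffMap_congr (RingHom.ext fun r => σ.commutes r) z

/-- elements with rational `q`-expansion are fixed by the Galois action. -/
theorem s59k_galois_fix (N : ℕ) [NeZero N] (σ : Qbar ≃ₐ[ℚ] Qbar) (y : ffi_F N)
    (z' : LaurentSeries ℚ) (hy : (y : LaurentSeries Qbar) = coeffEmb Qbar z') :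
    arithmeticGalois (modularFunctionFieldFull N) σ • y = y := by
  apply Subtype.ext
  rw [coe_arithmeticGalois_smul, hy]
  exact s59k_coeffMap_galois_coeffEmb σ z'

/-- **`w` commutes with the arithmetic Galois action.** -/
theorem s59k_al_galois (σ : Qbar ≃ₐ[ℚ] Qbar) (f : ffi_F (M₁ * q₁)) :
    s37w_al M₁ q₁ hq hqM (arithmeticGalois (modularFunctionFieldFull (M₁ * q₁)) σ • f) =
      arithmeticGalois (modularFunctionFieldFull (M₁ * q₁)) σ • s37w_al M₁ q₁ hq hqM f := by
  refine s59k_commute_of_adjoin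
    (⇑(coeffEmb Qbar) '' (modularFunctionFieldFull (M₁ * q₁) : Set (LaurentSeries ℚ)))
    (arithmeticGalois (modularFunctionFieldFull (M₁ * q₁)) σ) (s37w_al M₁ q₁ hq hqM) ?_ f
  rintro _ ⟨z, hz, rfl⟩
  have h1 := s59k_galois_fix (M₁ * q₁) σ
    (⟨coeffEmb Qbar z, IntermediateField.subset_adjoin _ _ ⟨z, hz, rfl⟩⟩ : ffi_F (M₁ * q₁)) z rfl
  obtain ⟨z', hz', e⟩ := s34m_alBar_coeffEmb M₁ q₁ hq hqM z hz
    (⟨coeffEmb Qbar z, IntermediateField.subset_adjoin _ _ ⟨z, hz, rfl⟩⟩ : ffi_F (M₁ * q₁)) rfl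
  have h2 := s59k_galois_fix (M₁ * q₁) σ _ z' e
  exact (congrArg (s37w_al M₁ q₁ hq hqM) h1).trans h2.symm

end AL

end Fermat.Agent.Lib.S59
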