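/-
Programme (R) / node (H4′), family K (helper1, prefix `s59k_`): **(K-V), the two Gauss valuations of
`F̄₀(M₁ q₁)`** (`q`-expansion at `∞`, and `q`-expansion at `0` = `q`-expansion ∘ Atkin–Lehner), and the
action of the inertia group on them.  (`KAL.lean`: `w` commutes with the Galois action.)

`A ⊆ ℚ̄` a valuation subring over a prime `ℓ` (any prime; in the application `ℓ = q₁`).

* `s59k_Vinf A hA N`            : the Gauss valuation subring of `F̄₀(N)` along the inclusion;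
* `s59k_Vzero A hA M₁ q₁ hq hqM`: the Gauss valuation subring of `F̄₀(M₁ q₁)` along `incl ∘ w`;
* `s59k_iotaH`, `s59k_Winf_comap` : `W_∞` of `F_H` restricts to `V_∞`;
* `s59k_Vinf_hyps`, `s59k_Vzero_hyps` : an inertia element of `A` preserves `V_∞`, `V_0`, acts trivially on
                      their residue fields, and `hnorm` holds.
-/
import Mathlib
import Fermat.Agent.Lib.S59.KAL

set_option autoImplicit false
set_option linter.unusedSectionVars false
set_option linter.unusedVariables false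
set_option linter.style.haveILetI false

noncomputable section

namespace Fermat.Agent.Lib.S59

open AlgebraicCurve ModularCurve HahnSeries Fermat.Agent.Lib.S18 Fermat.Agent.Lib.S37
  Fermat.Agent.Lib.S48 Fermat.Agent.Lib.Frey Fermat.Agent.Lib.FF Fermat.Agent.Lib.S34

local notation "Qbar" => AlgebraicClosure ℚ

variable (A : ValuationSubring Qbar) {ℓ : ℕ} [Fact ℓ.Prime] (hA : A.LiesOverPrime ℓ)

/-! ### `V_∞` -/

section Inf

variable (N : ℕ) [NeZero N]

include hA in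
theorem s59k_bar_mem_fracTop (f : ffi_F N) : (f : LaurentSeries Qbar) ∈ s59k_FracTop A :=
  s59k_FH_mem_fracTop A hA N ⊤
    ⟨(f : LaurentSeries Qbar), s48k_laurentBaseChange_mono Qbar (s48k_full_le_FHQ N ⊤) f.2⟩

include hA in
theorem s59k_Vinf_val : s59k_ThetaVal A (s59k_incl (modularFunctionFieldBar N)) :=
  s59k_thetaVal_of_fracTop A _ hA (s59k_bar_mem_fracTop A hA N)

include hA in
theorem s59k_Vinf_scale : s59k_ThetaScale A (s59k_incl (modularFunctionFieldBar N)) :=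
  s59k_thetaScale_of_fracTop A _ hA (s59k_bar_mem_fracTop A hA N)
    (s59k_incl_algebraMap (modularFunctionFieldBar N))

include hA in
/-- **`V_∞`**: the Gauss valuation subring of `F̄₀(N)` at `A` along the `q`-expansion at `∞`. -/
def s59k_Vinf : ValuationSubring (ffi_F N) := s59k_Wtheta (s59k_Vinf_val A hA N)

theorem s59k_mem_Vinf (f : ffi_F N) :
    f ∈ s59k_Vinf A hA N ↔ (f : LaurentSeries Qbar) ∈ s37r_O A (IsLocalRing.residue ↥A) :=
  Iff.rfl

/-- the three hypotheses of the generic (P2) at `V_∞`, for an inertia element. -/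
theorem s59k_Vinf_hyps (σ : Qbar ≃ₐ[ℚ] Qbar) (hσ : σ ∈ A.inertiaSubgroupIn ℚ) :
    (∀ y ∈ s59k_Vinf A hA N, arithmeticGalois (modularFunctionFieldFull N) σ • y ∈
      s59k_Vinf A hA N) ∧
    (∀ y ∈ s59k_Vinf A hA N, (s59k_Vinf A hA N).valuation
      (arithmeticGalois (modularFunctionFieldFull N) σ • y - y) < 1) ∧
    (∀ f : ffi_F N, f ≠ 0 → ∃ c : Qbar, c ≠ 0 ∧
      (s59k_Vinf A hA N).valuation (f * (algebraMap Qbar (ffi_F N) c)⁻¹) = 1) := by
  obtain ⟨hD, hI⟩ := ford_inertia_spec A σ hσ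
  exact s59k_theta_hyps (s59k_Vinf_val A hA N) (s59k_Vinf_scale A hA N)
    (arithmeticGalois (modularFunctionFieldFull N) σ)
    (fun a ha => ford_decomposition_mem A σ hD a ha) (fun a ha => hI a ha)
    (fun f => coe_arithmeticGalois_smul (modularFunctionFieldFull N) σ f)

variable (H : Subgroup (ZMod N)ˣ)

/-- the inclusion `F̄₀(N) → F_H`. -/
def s59k_iotaH : ffi_F N →+* ↥(s48k_FH N H) where
  toFun f := ⟨(f : LaurentSeries Qbar),
    s48k_laurentBaseChange_mono Qbar (s48k_full_le_FHQ N H) f.2⟩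
  map_one' := Subtype.ext rfl
  map_mul' _ _ := Subtype.ext rfl
  map_zero' := Subtype.ext rfl
  map_add' _ _ := Subtype.ext rfl

theorem s59k_iotaH_apply (f : ffi_F N) :
    s59k_iotaH N H f = ⟨(f : LaurentSeries Qbar),
      s48k_laurentBaseChange_mono Qbar (s48k_full_le_FHQ N H) f.2⟩ := rfl

theorem s59k_coe_iotaH (f : ffi_F N) :
    ((s59k_iotaH N H f : ↥(s48k_FH N H)) : LaurentSeries Qbar) = (f : LaurentSeries Qbar) := by
  rw [s59k_iotaH_apply]

/-- **`W_∞ ∩ F̄₀(N) = V_∞`.** -/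
theorem s59k_Winf_comap :
    (s59k_Winf A hA N H).comap (s59k_iotaH N H) = s59k_Vinf A hA N := by
  ext f
  rw [ValuationSubring.mem_comap, s59k_mem_Winf, s59k_mem_Vinf, s59k_coe_iotaH]

end Inf

/-! ### `V_0` -/

section Zero

variable (M₁ q₁ : ℕ) [NeZero M₁] [NeZero q₁] (hq : q₁.Prime) (hqM : ¬ q₁ ∣ M₁)

/-- the `q`-expansion at the cusp `0`: `incl ∘ w`. -/
def s59k_thetaZero : ffi_F (M₁ * q₁) →+* LaurentSeries Qbar :=
  (s59k_incl (modularFunctionFieldBar (M₁ * q₁))).comp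
    ((s37w_al M₁ q₁ hq hqM : ffi_F (M₁ * q₁) ≃ₐ[Qbar] ffi_F (M₁ * q₁)) :
      ffi_F (M₁ * q₁) →+* ffi_F (M₁ * q₁))

theorem s59k_thetaZero_apply (f : ffi_F (M₁ * q₁)) :
    s59k_thetaZero M₁ q₁ hq hqM f =
      ((s37w_al M₁ q₁ hq hqM f : ffi_F (M₁ * q₁)) : LaurentSeries Qbar) := rfl

theorem s59k_thetaZero_algebraMap (c : Qbar) :
    s59k_thetaZero M₁ q₁ hq hqM (algebraMap Qbar (ffi_F (M₁ * q₁)) c) = HahnSeries.C c := by
  rw [s59k_thetaZero_apply, AlgEquiv.commutes]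
  exact s59k_incl_algebraMap (modularFunctionFieldBar (M₁ * q₁)) c

include hA in
theorem s59k_thetaZero_mem_fracTop (f : ffi_F (M₁ * q₁)) :
    s59k_thetaZero M₁ q₁ hq hqM f ∈ s59k_FracTop A :=
  s59k_bar_mem_fracTop A hA (M₁ * q₁) _

include hA in
theorem s59k_Vzero_val : s59k_ThetaVal A (s59k_thetaZero M₁ q₁ hq hqM) :=
  s59k_thetaVal_of_fracTop A _ hA (s59k_thetaZero_mem_fracTop A hA M₁ q₁ hq hqM)

include hA in
theorem s59k_Vzero_scale : s59k_ThetaScale A (s59k_thetaZero M₁ q₁ hq hqM) :=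
  s59k_thetaScale_of_fracTop A _ hA (s59k_thetaZero_mem_fracTop A hA M₁ q₁ hq hqM)
    (s59k_thetaZero_algebraMap M₁ q₁ hq hqM)

include hA in
/-- **`V_0`**: the Gauss valuation subring of `F̄₀(M₁ q₁)` at `A` along the `q`-expansion at the cusp
`0` (= `q`-expansion of the Atkin–Lehner transform). -/
def s59k_Vzero : ValuationSubring (ffi_F (M₁ * q₁)) :=
  s59k_Wtheta (s59k_Vzero_val A hA M₁ q₁ hq hqM)

theorem s59k_mem_Vzero (f : ffi_F (M₁ * q₁)) :
    f ∈ s59k_Vzero A hA M₁ q₁ hq hqM ↔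
      ((s37w_al M₁ q₁ hq hqM f : ffi_F (M₁ * q₁)) : LaurentSeries Qbar) ∈
        s37r_O A (IsLocalRing.residue ↥A) :=
  Iff.rfl

/-- `f ∈ V_0 ↔ w f ∈ V_∞`. -/
theorem s59k_mem_Vzero_iff (f : ffi_F (M₁ * q₁)) :
    f ∈ s59k_Vzero A hA M₁ q₁ hq hqM ↔ s37w_al M₁ q₁ hq hqM f ∈ s59k_Vinf A hA (M₁ * q₁) :=
  Iff.rfl

/-- the three hypotheses of the generic (P2) at `V_0`, for an inertia element. -/
theorem s59k_Vzero_hyps (σ : Qbar ≃ₐ[ℚ] Qbar) (hσ : σ ∈ A.inertiaSubgroupIn ℚ) :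
    (∀ y ∈ s59k_Vzero A hA M₁ q₁ hq hqM,
      arithmeticGalois (modularFunctionFieldFull (M₁ * q₁)) σ • y ∈
        s59k_Vzero A hA M₁ q₁ hq hqM) ∧
    (∀ y ∈ s59k_Vzero A hA M₁ q₁ hq hqM, (s59k_Vzero A hA M₁ q₁ hq hqM).valuation
      (arithmeticGalois (modularFunctionFieldFull (M₁ * q₁)) σ • y - y) < 1) ∧
    (∀ f : ffi_F (M₁ * q₁), f ≠ 0 → ∃ c : Qbar, c ≠ 0 ∧
      (s59k_Vzero A hA M₁ q₁ hq hqM).valuation
        (f * (algebraMap Qbar (ffi_F (M₁ * q₁)) c)⁻¹) = 1) := by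
  obtain ⟨hD, hI⟩ := ford_inertia_spec A σ hσ
  refine s59k_theta_hyps (s59k_Vzero_val A hA M₁ q₁ hq hqM) (s59k_Vzero_scale A hA M₁ q₁ hq hqM)
    (arithmeticGalois (modularFunctionFieldFull (M₁ * q₁)) σ)
    (fun a ha => ford_decomposition_mem A σ hD a ha) (fun a ha => hI a ha) (fun f => ?_)
  rw [s59k_thetaZero_apply, s59k_al_galois M₁ q₁ hq hqM σ f, s59k_thetaZero_apply]
  exact coe_arithmeticGalois_smul (modularFunctionFieldFull (M₁ * q₁)) σ _

end Zero

end Fermat.Agent.Lib.S59
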