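/-
Programme (R) / node (H4′), family K (helper1, prefix `s59k_`): **the diamond operators as a group action
on `F_H`, with fixed field `F̄₀(M)`** (the Galois-theoretic input of `KExt.lean` for `F_H / F̄₀(M)`).

`1 < M`, `-1 ∈ H`.
* `s59k_diaHom`      : `d ↦ ⟨d⟩` is a group homomorphism `(ℤ/M)ˣ → Aut(F_H/ℚ̄)`;
* `s59k_dia_tauH`    : `⟨d⟩ t_χ = χ(d) t_χ`;
* `s59k_dia_iotaH`   : `⟨d⟩` fixes `F̄₀(M)`;
* `s59k_dia_fixed`   : an element of `F_H` fixed by all diamonds lies in `F̄₀(M)`;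
* `s59k_FH_isAlgebraic` : `F_H / F̄₀(M)` is algebraic (w.r.t. `s59k_iotaH`).
-/
import Mathlib
import Fermat.Agent.Lib.S59.KZero
import Fermat.Agent.Lib.S48.EIntH2
import Fermat.Agent.Lib.S48.WGE

set_option autoImplicit false
set_option linter.unusedSectionVars false
set_option linter.unusedVariables false
set_option linter.style.haveILetI false

noncomputable section

namespace Fermat.Agent.Lib.S59

open AlgebraicCurve ModularCurve HahnSeries Fermat.Agent.Lib.S48 Fermat.Agent.Lib.FF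

local notation "Qbar" => AlgebraicClosure ℚ

variable {M : ℕ} [NeZero M] (H : Subgroup (ZMod M)ˣ)

/-! ### The diamonds form a group -/

theorem s59k_isDiamondAut_mul {d d' : (ZMod M)ˣ}
    {e e' : ↥(s48k_FH M H) ≃ₐ[Qbar] ↥(s48k_FH M H)}
    (he : s48k_IsDiamondAut M H d e) (he' : s48k_IsDiamondAut M H d' e') :
    s48k_IsDiamondAut M H (d * d') (e * e') := by
  refine ⟨fun x hx => ?_, fun u => ?_⟩
  · rw [AlgEquiv.mul_apply, he'.1 x hx, he.1 x hx]
  · rw [AlgEquiv.mul_apply, he'.2 u, he.2, mul_inv_rev, mul_assoc]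

theorem s59k_isDiamondAut_one :
    s48k_IsDiamondAut M H 1 (1 : ↥(s48k_FH M H) ≃ₐ[Qbar] ↥(s48k_FH M H)) := by
  refine ⟨fun x _ => rfl, fun u => ?_⟩
  rw [AlgEquiv.one_apply, inv_one, mul_one]

variable (hM : 1 < M) (hneg : (-1 : (ZMod M)ˣ) ∈ H)

include hM hneg in
theorem s59k_diamondAut_mul (d d' : (ZMod M)ˣ) :
    s48k_diamondAut M H (d * d') = s48k_diamondAut M H d * s48k_diamondAut M H d' :=
  s48e_isDiamondAut_unique M H (s48wg_isDiamondAut H hM hneg (d * d'))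
    (s59k_isDiamondAut_mul H (s48wg_isDiamondAut H hM hneg d) (s48wg_isDiamondAut H hM hneg d'))

include hM hneg in
theorem s59k_diamondAut_one : s48k_diamondAut M H 1 = 1 :=
  s48e_isDiamondAut_unique M H (s48wg_isDiamondAut H hM hneg 1) (s59k_isDiamondAut_one H)

/-- **the diamond operators as a group homomorphism.** -/
def s59k_diaHom : (ZMod M)ˣ →* (↥(s48k_FH M H) ≃ₐ[Qbar] ↥(s48k_FH M H)) where
  toFun d := s48k_diamondAut M H d
  map_one' := s59k_diamondAut_one H hM hneg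
  map_mul' d d' := s59k_diamondAut_mul H hM hneg d d'

theorem s59k_diaHom_apply (d : (ZMod M)ˣ) (x : ↥(s48k_FH M H)) :
    s59k_diaHom H hM hneg d x = s48k_diamondAut M H d x := rfl

/-! ### The action on the Kummer generators -/

include hM hneg in
/-- `⟨d⟩ σ_χ = χ(d) σ_χ`. -/
theorem s59k_dia_sigH (d : (ZMod M)ˣ) (χ : DirichletCharacter Qbar M) :
    s48k_diamondAut M H d (s48wg_sigH H χ) = χ ((d : (ZMod M)ˣ) : ZMod M) • s48wg_sigH H χ := by
  have hD := s48wg_isDiamondAut H hM hneg d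
  rw [s48wg_sigH, s48wg_algEquiv_sum, Finset.smul_sum]
  -- reindex `v ↦ v d⁻¹`
  refine (Fintype.sum_equiv (Equiv.mulRight d⁻¹) _ _ fun v => ?_)
  simp only [Equiv.coe_mulRight]
  rw [s48wg_algEquiv_smul, hD.2, smul_smul]
  congr 1
  rw [← map_mul, ← Units.val_mul]
  congr 2
  rw [mul_comm, inv_mul_cancel_right]

include hM hneg in
/-- **`⟨d⟩ t_χ = χ(d) t_χ`.** -/
theorem s59k_dia_tauH (d : (ZMod M)ˣ) (χ : DirichletCharacter Qbar M) (hχ : χ ∈ s48wg_XH H) :
    s48k_diamondAut M H d (s48wg_tauH H χ hχ) =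
      χ ((d : (ZMod M)ˣ) : ZMod M) • s48wg_tauH H χ hχ := by
  have h := s59k_dia_sigH H hM hneg d χ
  rw [s48wg_sigH_eq H χ hχ, s48wg_algEquiv_smul, smul_comm] at h
  have hc : (Nat.card H : Qbar) ≠ 0 := Nat.cast_ne_zero.mpr Nat.card_pos.ne'
  exact s48wg_smul_left_cancel hc h

/-! ### The fixed field -/

include hM hneg in
/-- `⟨d⟩` fixes `F̄₀(M)`. -/
theorem s59k_dia_iotaH (d : (ZMod M)ˣ) (x₀ : ffi_F M) :
    s48k_diamondAut M H d (s59k_iotaH M H x₀) = s59k_iotaH M H x₀ := by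
  have h : ((s59k_iotaH M H x₀ : ↥(s48k_FH M H)) : LaurentSeries Qbar) ∈
      modularFunctionFieldBar M := by
    rw [s59k_coe_iotaH]
    exact x₀.2
  exact (s48wg_isDiamondAut H hM hneg d).1 _ h

end Fermat.Agent.Lib.S59
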