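/-
Programme (R) / node (H4′), family K (helper1, prefix `s59k_`): **the fixed field of the diamond
operators on `F_H` is `F̄₀(M)`**, and `F_H / F̄₀(M)` is algebraic.

`1 < M`, `-1 ∈ H`.
* `s59k_exists_coeffs`  : every `x ∈ F_H` is `∑_χ ι(c_χ) t_χ`, `c_χ ∈ F̄₀(M)`;
* `s59k_coeffs_unique`  : the `t_χ` are `F̄₀(M)`-linearly independent in `F_H`;
* `s59k_dia_fixed`      : an element of `F_H` fixed by all diamonds lies in `ι F̄₀(M)`;
* `s59k_FH_isAlgebraic` : `F_H / F̄₀(M)` is algebraic (w.r.t. `s59k_iotaH`).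
-/
import Mathlib
import Fermat.Agent.Lib.S59.KDia

set_option autoImplicit false
set_option linter.unusedSectionVars false
set_option linter.unusedVariables false
set_option linter.style.haveILetI false

noncomputable section

namespace Fermat.Agent.Lib.S59

open AlgebraicCurve ModularCurve HahnSeries Fermat.Agent.Lib.S48 Fermat.Agent.Lib.FF

local notation "Qbar" => AlgebraicClosure ℚ

variable {M : ℕ} [NeZero M] (H : Subgroup (ZMod M)ˣ)

theorem s59k_coe_tauH (χ : DirichletCharacter Qbar M) (hχ : χ ∈ s48wg_XH H) :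
    ((s48wg_tauH H χ hχ : ↥(s48k_FH M H)) : LaurentSeries Qbar) = s48wf_tq χ := rfl

/-- the `q`-expansion of `ι(c) t_χ`. -/
theorem s59k_coe_iota_mul_tauH (c : ffi_F M) (χ : DirichletCharacter Qbar M)
    (hχ : χ ∈ s48wg_XH H) :
    ((s59k_iotaH M H c * s48wg_tauH H χ hχ : ↥(s48k_FH M H)) : LaurentSeries Qbar) =
      c • s48wf_tq χ := by
  rw [IntermediateField.coe_mul, s59k_coe_iotaH, s59k_coe_tauH, Algebra.smul_def,
    IntermediateField.algebraMap_apply]

theorem s59k_iotaH_algebraMap (a : Qbar) :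
    s59k_iotaH M H (algebraMap Qbar (ffi_F M) a) = algebraMap Qbar ↥(s48k_FH M H) a := by
  apply Subtype.ext
  rw [s59k_coe_iotaH, IntermediateField.coe_algebraMap_apply,
    IntermediateField.coe_algebraMap_apply]

variable (hM : 1 < M) (hneg : (-1 : (ZMod M)ˣ) ∈ H)

include hM hneg in
/-- every `x ∈ F_H` is an `F̄₀(M)`-combination of the `t_χ`, `χ ∈ X_H`. -/
theorem s59k_exists_coeffs (x : ↥(s48k_FH M H)) :
    ∃ c : ↥(s48wg_XH H) → ffi_F M,
      x = ∑ χ : ↥(s48wg_XH H), s59k_iotaH M H (c χ) * s48wg_tauH H χ.1 χ.2 := by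
  classical
  have hX := s48wg_charSet_XH H hneg
  have hxV : (x : LaurentSeries Qbar) ∈ s48wg_V M (s48wg_XH H) :=
    s48wg_RN_le_V hM dvd_rfl hX ((s48wg_mem_RN_iff_FH H _).mpr x.2)
  rw [s48wg_V, Submodule.mem_span_range_iff_exists_fun] at hxV
  obtain ⟨c, hc⟩ := hxV
  refine ⟨c, ?_⟩
  apply Subtype.ext
  rw [← hc, IntermediateField.coe_sum]
  refine Finset.sum_congr rfl fun χ _ => ?_
  rw [s59k_coe_iota_mul_tauH, s48wg_tfam]

include hM hneg in
/-- the `t_χ`, `χ ∈ X_H`, are linearly independent over `F̄₀(M)`. -/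
theorem s59k_coeffs_unique (c : ↥(s48wg_XH H) → ffi_F M)
    (h : ∑ χ : ↥(s48wg_XH H), s59k_iotaH M H (c χ) * s48wg_tauH H χ.1 χ.2 = 0) :
    ∀ χ, c χ = 0 := by
  classical
  have hX := s48wg_charSet_XH H hneg
  have hlin := s48wg_linearIndependent hM M dvd_rfl (fun d => s48wg_exists_sigma dvd_rfl d)
    (s48wg_XH H) hX.even
  rw [Fintype.linearIndependent_iff] at hlin
  refine hlin c ?_
  have h4 := congrArg (fun y : ↥(s48k_FH M H) => (y : LaurentSeries Qbar)) h
  simp only [IntermediateField.coe_sum, ZeroMemClass.coe_zero] at h4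
  rw [← h4]
  refine Finset.sum_congr rfl fun χ _ => ?_
  rw [s59k_coe_iota_mul_tauH]

include hM hneg in
/-- the action of `⟨d⟩` on a combination. -/
theorem s59k_dia_comb (d : (ZMod M)ˣ) (c : ↥(s48wg_XH H) → ffi_F M) :
    s48k_diamondAut M H d (∑ χ : ↥(s48wg_XH H), s59k_iotaH M H (c χ) * s48wg_tauH H χ.1 χ.2) =
      ∑ χ : ↥(s48wg_XH H),
        s59k_iotaH M H (c χ * algebraMap Qbar (ffi_F M) (χ.1 ((d : (ZMod M)ˣ) : ZMod M))) *
          s48wg_tauH H χ.1 χ.2 := by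
  rw [map_sum]
  refine Finset.sum_congr rfl fun χ _ => ?_
  rw [map_mul, s59k_dia_iotaH H hM hneg, s59k_dia_tauH H hM hneg, map_mul, Algebra.smul_def,
    mul_assoc, s59k_iotaH_algebraMap]

include hM hneg in
/-- **an element of `F_H` fixed by all diamond operators lies in `F̄₀(M)`.** -/
theorem s59k_dia_fixed (x : ↥(s48k_FH M H))
    (hx : ∀ d : (ZMod M)ˣ, s48k_diamondAut M H d x = x) :
    ∃ x₀ : ffi_F M, s59k_iotaH M H x₀ = x := by
  classical
  have hX := s48wg_charSet_XH H hneg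
  obtain ⟨c, hxF⟩ := s59k_exists_coeffs H hM hneg x
  -- the coefficients of the non-trivial characters vanish
  have hzero : ∀ (d : (ZMod M)ˣ) (χ : ↥(s48wg_XH H)),
      c χ * (algebraMap Qbar (ffi_F M) (χ.1 ((d : (ZMod M)ˣ) : ZMod M)) - 1) = 0 := by
    intro d
    refine s59k_coeffs_unique H hM hneg
      (fun χ => c χ * (algebraMap Qbar (ffi_F M) (χ.1 ((d : (ZMod M)ˣ) : ZMod M)) - 1)) ?_
    have h1 := hx d
    rw [hxF, s59k_dia_comb H hM hneg] at h1
    have : ∀ χ : ↥(s48wg_XH H),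
        s59k_iotaH M H (c χ * (algebraMap Qbar (ffi_F M) (χ.1 ((d : (ZMod M)ˣ) : ZMod M)) - 1)) *
          s48wg_tauH H χ.1 χ.2 =
        s59k_iotaH M H (c χ * algebraMap Qbar (ffi_F M) (χ.1 ((d : (ZMod M)ˣ) : ZMod M))) *
          s48wg_tauH H χ.1 χ.2 - s59k_iotaH M H (c χ) * s48wg_tauH H χ.1 χ.2 := by
      intro χ
      rw [mul_sub, mul_one, map_sub, sub_mul]
    simp only [this]
    rw [Finset.sum_sub_distrib, h1, sub_self]
  have hc0 : ∀ χ : ↥(s48wg_XH H), χ.1 ≠ 1 → c χ = 0 := by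
    intro χ hχ1
    obtain ⟨d, hd⟩ := (MulChar.ne_one_iff).mp hχ1
    have h := hzero d χ
    rcases mul_eq_zero.mp h with h | h
    · exact h
    · exfalso
      apply hd
      have h' : algebraMap Qbar (ffi_F M) (χ.1 ((d : (ZMod M)ˣ) : ZMod M)) =
          algebraMap Qbar (ffi_F M) 1 := by
        rw [map_one]
        exact sub_eq_zero.mp h
      exact (algebraMap Qbar (ffi_F M)).injective h'
  have ht1 : s48wf_tq (1 : DirichletCharacter Qbar M) ∈ modularFunctionFieldBar M :=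
    s48wg_tq_one_mem hM dvd_rfl
  refine ⟨c ⟨1, hX.one_mem⟩ * ⟨_, ht1⟩, ?_⟩
  rw [hxF, Finset.sum_eq_single (⟨1, hX.one_mem⟩ : ↥(s48wg_XH H))]
  · rw [map_mul]
    have h1 : s59k_iotaH M H ⟨_, ht1⟩ = s48wg_tauH H 1 hX.one_mem := by
      apply Subtype.ext
      rw [s59k_coe_iotaH, s59k_coe_tauH]
    rw [h1]
  · intro χ _ hχ
    have : χ.1 ≠ 1 := fun h => hχ (Subtype.ext h)
    rw [hc0 χ this, map_zero, zero_mul]
  · intro h
    exact absurd (Finset.mem_univ _) h

end Fermat.Agent.Lib.S59
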