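/-
Programme (R) / node (H4′), family K (helper1, prefix `s59k_`): **decomposition-group form of `KExt`**.

Setting of `KExt.lean` (`F/F₀` algebraic, `G` finite with fixed field `F₀`, `V ⊆ F₀`, `W ⊆ F` over `V`):
* `s59k_ext_decomp` : a ring automorphism `ν` of `F` inducing on `F₀` an automorphism `ν₀` preserving `V`
  becomes, after composition with a suitable element of `G`, an automorphism preserving `W`.
-/
import Mathlib
import Fermat.Agent.Lib.S59.KExt

set_option autoImplicit false
set_option linter.unusedSectionVars false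
set_option linter.unusedVariables false

noncomputable section

namespace Fermat.Agent.Lib.S59

variable {F₀ F : Type*} [Field F₀] [Field F] [Algebra F₀ F]
  {G : Type*} [Group G] [Finite G] [MulSemiringAction G F] [SMulCommClass G F₀ F]
  [Algebra.IsAlgebraic F₀ F]
  {V : ValuationSubring F₀}

/-- **decomposition**: a ring automorphism `ν` of `F` inducing on `F₀` an automorphism `ν₀` which
preserves `V` becomes — after composition with a suitable element of `G` — an automorphism preserving a
given extension `W` of `V`. -/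
theorem s59k_ext_decomp
    (hfix : ∀ x : F, (∀ g : G, g • x = x) → ∃ x₀ : F₀, algebraMap F₀ F x₀ = x)
    (ν : F ≃+* F) (ν₀ : F₀ ≃+* F₀)
    (hνι : ∀ x : F₀, ν (algebraMap F₀ F x) = algebraMap F₀ F (ν₀ x))
    (hν₀V : ∀ x : F₀, ν₀ x ∈ V ↔ x ∈ V)
    {W : ValuationSubring F} (hW : W.comap (algebraMap F₀ F) = V) :
    ∃ g : G, ∀ z : F, g⁻¹ • ν z ∈ W ↔ z ∈ W := by
  have hνsymm : ∀ x : F₀, ν.symm (algebraMap F₀ F x) = algebraMap F₀ F (ν₀.symm x) := by
    intro x
    rw [RingEquiv.symm_apply_eq, hνι, RingEquiv.apply_symm_apply]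
  have hν₀Vsymm : ∀ x : F₀, ν₀.symm x ∈ V ↔ x ∈ V := by
    intro x
    have := hν₀V (ν₀.symm x)
    rw [RingEquiv.apply_symm_apply] at this
    exact this.symm
  set W₁ : ValuationSubring F := W.comap (ν.symm : F →+* F) with hW₁def
  have hW₁ : W₁.comap (algebraMap F₀ F) = V := by
    ext x
    rw [ValuationSubring.mem_comap, hW₁def, ValuationSubring.mem_comap]
    show ν.symm (algebraMap F₀ F x) ∈ W ↔ x ∈ V
    rw [hνsymm, s59k_ext_mem hW, hν₀Vsymm]
  obtain ⟨g₁, hg₁⟩ := s59k_ext_conj (G := G) hfix hW hW₁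
  refine ⟨g₁, fun z => ?_⟩
  rw [← hg₁ (ν z), hW₁def, ValuationSubring.mem_comap]
  show ν.symm (ν z) ∈ W ↔ z ∈ W
  rw [RingEquiv.symm_apply_apply]

end Fermat.Agent.Lib.S59
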