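/-
Programme (R) / node (H4′), family K (helper1, prefix `s59k_`): **(K-V), GENERIC PART II** —
the formal reduction of (K) for ARBITRARY subgroups of `Pic⁰`, and for the intersection of the
Kummer kernels of a FAMILY of valuation subrings (all the diamond translates `γ • W`), in the shape
asked for by C7 (helper7 #3374).

* `s59k_K_of_subgroups`   : `s59k_K_of_kernels` with arbitrary subgroups `𝒦∞, 𝒦₀ ≤ Pic⁰`;
* `s59k_KumKerSet 𝒲 n`    : `⨅ W ∈ 𝒲, KumKer W n`;
* `s59k_P2_translates`    : (P2) at `W` ⟹ (P2) at every `γ • W`, `γ` commuting with `τ`;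
* `s59k_P3_translates`    : (P3) at `W` ⟹ (P3) at every `γ • W`, `γ` commuting with `τ` and `δ`;
* `s59k_G2_pow_set`       : (G2) for `p` ⟹ (G2) for `p ^ k`, for families;
* `s59k_K_of_translates`  : the consumer: (P2) at `W∞`, (P3) at `W₀`, (G2) for the translates by a
                            set `G` of automorphisms commuting with `τ, δ` ⟹ `(τ − 1)(τ − δ) = 0`.
-/
import Mathlib
import Fermat.Agent.Lib.S59.KVal

set_option autoImplicit false
set_option linter.unusedSectionVars false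
set_option linter.unusedVariables false

noncomputable section

namespace Fermat.Agent.Lib.S59

open AlgebraicCurve Fermat.Agent.Lib.S34
open scoped Pointwise

variable {K F : Type*} [Field K] [Field F] [Algebra K F]

/-- **(K) from arbitrary subgroups**. -/
theorem s59k_K_of_subgroups (τ δ : SemilinearAut K F) (hcomm : τ * δ = δ * τ)
    (Kinf Kzero : AddSubgroup (Pic0 K F)) (n : ℕ)
    (h2 : ∀ z : Pic0 K F, n • z = 0 → τ • z - z ∈ Kinf)
    (h3 : ∀ z : Pic0 K F, n • z = 0 → τ • z - δ • z ∈ Kzero)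
    (E : AddSubgroup (Pic0 K F)) (hEτ : ∀ z ∈ E, τ • z ∈ E) (hEδ : ∀ z ∈ E, δ • z ∈ E)
    (hG2 : ∀ z ∈ E, z ∈ Kinf → z ∈ Kzero → z = 0)
    (z : Pic0 K F) (hzE : z ∈ E) (hz : n • z = 0) :
    τ • (τ • z - δ • z) - (τ • z - δ • z) = 0 := by
  set y : Pic0 K F := τ • z - δ • z with hy
  have hyE : y ∈ E := E.sub_mem (hEτ z hzE) (hEδ z hzE)
  have hsw : ∀ (γ : SemilinearAut K F) (x : Pic0 K F), n • (γ • x) = γ • (n • x) := fun γ x =>
    (map_nsmul (DistribSMul.toAddMonoidHom (Pic0 K F) γ) n x).symm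
  have hs0 : ∀ γ : SemilinearAut K F, γ • (0 : Pic0 K F) = 0 := fun γ =>
    map_zero (DistribSMul.toAddMonoidHom (Pic0 K F) γ)
  have hny : n • y = 0 := by
    rw [hy, nsmul_sub, hsw τ z, hsw δ z, hz, hs0 τ, hs0 δ, sub_zero]
  set y' : Pic0 K F := τ • z - z with hy'
  have hny' : n • y' = 0 := by
    rw [hy', nsmul_sub, hsw τ z, hz, hs0 τ, sub_zero]
  have e : τ • y - y = τ • y' - δ • y' := by
    rw [hy, hy', smul_sub, smul_sub, smul_sub, ← mul_smul τ δ, hcomm, mul_smul]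
    abel
  refine hG2 _ (E.sub_mem (hEτ y hyE) hyE) (h2 y hny) ?_
  rw [e]
  exact h3 y' hny'

/-! ### Families of valuation subrings -/

/-- The intersection of the Kummer kernels of a family of valuation subrings. -/
def s59k_KumKerSet (𝒲 : Set (ValuationSubring F)) (n : ℕ) : AddSubgroup (Pic0 K F) :=
  ⨅ W ∈ 𝒲, s59k_KumKer (K := K) W n

theorem s59k_mem_kumKerSet {𝒲 : Set (ValuationSubring F)} {n : ℕ} {z : Pic0 K F} :
    z ∈ s59k_KumKerSet (K := K) 𝒲 n ↔ ∀ W ∈ 𝒲, z ∈ s59k_KumKer (K := K) W n := by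
  simp only [s59k_KumKerSet, AddSubgroup.mem_iInf]

/-- The translates of `W` by a set of semilinear automorphisms. -/
def s59k_translates (G : Set (SemilinearAut K F)) (W : ValuationSubring F) :
    Set (ValuationSubring F) := (fun γ : SemilinearAut K F => γ • W) '' G

theorem s59k_mem_kumKerSet_translates {G : Set (SemilinearAut K F)} {W : ValuationSubring F}
    {n : ℕ} {z : Pic0 K F} :
    z ∈ s59k_KumKerSet (K := K) (s59k_translates G W) n ↔
      ∀ γ ∈ G, z ∈ s59k_KumKer (K := K) (γ • W) n := by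
  rw [s59k_mem_kumKerSet]
  constructor
  · intro h γ hγ
    exact h _ ⟨γ, hγ, rfl⟩
  · rintro h _ ⟨γ, hγ, rfl⟩
    exact h γ hγ

/-- the family of translates is stable under every `γ₀` with `γ₀ G ⊆ G`. -/
theorem s59k_smul_mem_kumKerSet_translates {G : Set (SemilinearAut K F)} {W : ValuationSubring F}
    {n : ℕ} {z : Pic0 K F} (hz : z ∈ s59k_KumKerSet (K := K) (s59k_translates G W) n)
    (γ₀ : SemilinearAut K F) (hγ₀ : ∀ γ ∈ G, γ₀⁻¹ * γ ∈ G) :
    γ₀ • z ∈ s59k_KumKerSet (K := K) (s59k_translates G W) n := by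
  rw [s59k_mem_kumKerSet_translates] at hz ⊢
  intro γ hγ
  have h1 := s59k_smul_mem_kumKer (hz _ (hγ₀ γ hγ)) γ₀
  rwa [← mul_smul, mul_inv_cancel_left] at h1

/-- **(P2) for the translates.** -/
theorem s59k_P2_translates (τ : SemilinearAut K F) (W : ValuationSubring F) (n : ℕ)
    (h2 : ∀ z : Pic0 K F, n • z = 0 → τ • z - z ∈ s59k_KumKer (K := K) W n)
    (G : Set (SemilinearAut K F)) (hG : ∀ γ ∈ G, τ * γ = γ * τ)
    (z : Pic0 K F) (hz : n • z = 0) :
    τ • z - z ∈ s59k_KumKerSet (K := K) (s59k_translates G W) n := by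
  rw [s59k_mem_kumKerSet_translates]
  intro γ hγ
  have hsw : n • (γ⁻¹ • z) = 0 := by
    have e1 : n • (γ⁻¹ • z) = γ⁻¹ • (n • z) :=
      (map_nsmul (DistribSMul.toAddMonoidHom (Pic0 K F) γ⁻¹) n z).symm
    rw [e1, hz]
    exact map_zero (DistribSMul.toAddMonoidHom (Pic0 K F) γ⁻¹)
  have h1 := s59k_smul_mem_kumKer (h2 (γ⁻¹ • z) hsw) γ
  have e : γ • (τ • γ⁻¹ • z - γ⁻¹ • z) = τ • z - z := by
    rw [smul_sub, smul_inv_smul, ← mul_smul, ← hG γ hγ, mul_smul, smul_inv_smul]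
  rwa [e] at h1

/-- **(P3) for the translates.** -/
theorem s59k_P3_translates (τ δ : SemilinearAut K F) (W : ValuationSubring F) (n : ℕ)
    (h3 : ∀ z : Pic0 K F, n • z = 0 → τ • z - δ • z ∈ s59k_KumKer (K := K) W n)
    (G : Set (SemilinearAut K F)) (hGτ : ∀ γ ∈ G, τ * γ = γ * τ) (hGδ : ∀ γ ∈ G, δ * γ = γ * δ)
    (z : Pic0 K F) (hz : n • z = 0) :
    τ • z - δ • z ∈ s59k_KumKerSet (K := K) (s59k_translates G W) n := by
  rw [s59k_mem_kumKerSet_translates]
  intro γ hγ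
  have hsw : n • (γ⁻¹ • z) = 0 := by
    have e1 : n • (γ⁻¹ • z) = γ⁻¹ • (n • z) :=
      (map_nsmul (DistribSMul.toAddMonoidHom (Pic0 K F) γ⁻¹) n z).symm
    rw [e1, hz]
    exact map_zero (DistribSMul.toAddMonoidHom (Pic0 K F) γ⁻¹)
  have h1 := s59k_smul_mem_kumKer (h3 (γ⁻¹ • z) hsw) γ
  have e : γ • (τ • γ⁻¹ • z - δ • γ⁻¹ • z) = τ • z - δ • z := by
    rw [smul_sub, ← mul_smul γ τ, ← hGτ γ hγ, mul_smul, smul_inv_smul, ← mul_smul γ δ,
      ← hGδ γ hγ, mul_smul, smul_inv_smul]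
  rwa [e] at h1

/-- **(G2) for prime powers from (G2) for `p`**, for families of valuation subrings. -/
theorem s59k_G2_pow_set (𝒲inf 𝒲zero : Set (ValuationSubring F)) (p : ℕ) (hp : 0 < p) (ζ : K)
    (hζ : IsPrimitiveRoot ζ p) (hroot : ∀ c : K, ∃ c' : K, c' ^ p = c)
    (hconst : ∀ h : F, h ≠ 0 → (∀ v : Place K F, v.ord h = 0) → ∃ c : K, h = algebraMap K F c)
    (E : AddSubgroup (Pic0 K F))
    (hG2 : ∀ z ∈ E, z ∈ s59k_KumKerSet (K := K) 𝒲inf p → z ∈ s59k_KumKerSet (K := K) 𝒲zero p →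
      z = 0)
    (k : ℕ) : ∀ z ∈ E, z ∈ s59k_KumKerSet (K := K) 𝒲inf (p ^ k) →
      z ∈ s59k_KumKerSet (K := K) 𝒲zero (p ^ k) → z = 0 := by
  induction k with
  | zero =>
    intro z hzE h1 h2
    -- `p ^ 0 = 1`: the class is killed by `1` as soon as one of the families is non-empty;
    -- in general use (G2) at `p` (a class killed by `1` is `0` anyway)
    by_cases hne : 𝒲inf.Nonempty
    · obtain ⟨W, hW⟩ := hne
      have := s59k_kumKer_nsmul (s59k_mem_kumKerSet.mp h1 W hW)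
      rwa [pow_zero, one_smul] at this
    · rw [Set.not_nonempty_iff_eq_empty] at hne
      by_cases hne' : 𝒲zero.Nonempty
      · obtain ⟨W, hW⟩ := hne'
        have := s59k_kumKer_nsmul (s59k_mem_kumKerSet.mp h2 W hW)
        rwa [pow_zero, one_smul] at this
      · rw [Set.not_nonempty_iff_eq_empty] at hne'
        refine hG2 z hzE ?_ ?_
        · rw [s59k_mem_kumKerSet, hne]; intro W hW; exact absurd hW (Set.notMem_empty W)
        · rw [s59k_mem_kumKerSet, hne']; intro W hW; exact absurd hW (Set.notMem_empty W)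
  | succ k ih =>
    intro z hzE h1 h2
    have e : p ^ (k + 1) = p ^ k * p := pow_succ p k
    have e' : p ^ (k + 1) = p * p ^ k := pow_succ' p k
    rw [s59k_mem_kumKerSet] at h1 h2
    have h1' : p ^ k • z ∈ s59k_KumKerSet (K := K) 𝒲inf p :=
      s59k_mem_kumKerSet.mpr fun W hW => s59k_nsmul_mem_kumKer (e ▸ h1 W hW)
    have h2' : p ^ k • z ∈ s59k_KumKerSet (K := K) 𝒲zero p :=
      s59k_mem_kumKerSet.mpr fun W hW => s59k_nsmul_mem_kumKer (e ▸ h2 W hW)
    have h0 : p ^ k • z = 0 := hG2 _ (E.nsmul_mem hzE _) h1' h2'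
    exact ih z hzE
      (s59k_mem_kumKerSet.mpr fun W hW =>
        s59k_kumKer_descend W p (p ^ k) hp ζ hζ hroot hconst (e' ▸ h1 W hW) h0)
      (s59k_mem_kumKerSet.mpr fun W hW =>
        s59k_kumKer_descend W p (p ^ k) hp ζ hζ hroot hconst (e' ▸ h2 W hW) h0)

/-- **(K), consumer form**: (P2) at `W∞`, (P3) at `W₀`, and (G2) for the intersection of the Kummer
kernels of all translates `γ • W∞`, `γ • W₀` (`γ ∈ G`, commuting with `τ` and `δ`). -/
theorem s59k_K_of_translates (τ δ : SemilinearAut K F) (hcomm : τ * δ = δ * τ)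
    (Winf Wzero : ValuationSubring F) (n : ℕ)
    (h2 : ∀ z : Pic0 K F, n • z = 0 → τ • z - z ∈ s59k_KumKer (K := K) Winf n)
    (h3 : ∀ z : Pic0 K F, n • z = 0 → τ • z - δ • z ∈ s59k_KumKer (K := K) Wzero n)
    (G : Set (SemilinearAut K F)) (hGτ : ∀ γ ∈ G, τ * γ = γ * τ) (hGδ : ∀ γ ∈ G, δ * γ = γ * δ)
    (E : AddSubgroup (Pic0 K F)) (hEτ : ∀ z ∈ E, τ • z ∈ E) (hEδ : ∀ z ∈ E, δ • z ∈ E)
    (hG2 : ∀ z ∈ E, z ∈ s59k_KumKerSet (K := K) (s59k_translates G Winf) n →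
      z ∈ s59k_KumKerSet (K := K) (s59k_translates G Wzero) n → z = 0)
    (z : Pic0 K F) (hzE : z ∈ E) (hz : n • z = 0) :
    τ • (τ • z - δ • z) - (τ • z - δ • z) = 0 :=
  s59k_K_of_subgroups τ δ hcomm _ _ n
    (fun z hz => s59k_P2_translates τ Winf n h2 G hGτ z hz)
    (fun z hz => s59k_P3_translates τ δ Wzero n h3 G hGτ hGδ z hz)
    E hEτ hEδ hG2 z hzE hz

end Fermat.Agent.Lib.S59
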