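/-
Programme (R) / node (H4′), family K (helper1, prefix `s59k_`): **the Galois setting `F_H / F̄₀(N)` with
group `(ℤ/N)ˣ` (diamonds), and the extensions of `V_∞`, `V_0` to `F_H`**.
-/
import Mathlib
import Fermat.Agent.Lib.S59.KDiaFix
import Fermat.Agent.Lib.S59.KExt2
import Fermat.Agent.Lib.S59.KDec
import Fermat.Agent.Lib.S59.KKer

set_option autoImplicit false
set_option linter.unusedSectionVars false
set_option linter.unusedVariables false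
set_option linter.style.haveILetI false

noncomputable section

namespace Fermat.Agent.Lib.S59

open AlgebraicCurve ModularCurve HahnSeries Fermat.Agent.Lib.S18 Fermat.Agent.Lib.S37
  Fermat.Agent.Lib.S48 Fermat.Agent.Lib.Frey Fermat.Agent.Lib.FF Fermat.Agent.Lib.S34
open scoped Pointwise

local notation "Qbar" => AlgebraicClosure ℚ

/-! ### (P3), generic, stabiliser form -/

section Generic

variable {K F : Type*} [Field K] [Field F] [Algebra K F]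

/-- **(P3), stabiliser form**: if `δ⁻¹ τ` preserves `W` and is trivial on its residue field, then
`τ z − δ z ∈ KumKer (δ • W) n`. -/
theorem s59k_P3_of_stab (τ δ : SemilinearAut K F) (W : ValuationSubring F)
    (hW : ∀ y ∈ W, (δ⁻¹ * τ) • y ∈ W)
    (hres : ∀ y ∈ W, W.valuation ((δ⁻¹ * τ) • y - y) < 1)
    (hnorm : ∀ f : F, f ≠ 0 → ∃ c : K, c ≠ 0 ∧ W.valuation (f * (algebraMap K F c)⁻¹) = 1)
    (n : ℕ) (z : Pic0 K F) (hz : n • z = 0) :
    τ • z - δ • z ∈ s59k_KumKer (K := K) (δ • W) n := by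
  have h1 := s59k_smul_sub_mem_kumKer (δ⁻¹ * τ) W hW hres hnorm n z hz
  have h2 := s59k_smul_mem_kumKer h1 δ
  rwa [smul_sub, ← mul_smul, mul_inv_cancel_left] at h2

end Generic

/-! ### The abstract setting -/

section Setting

variable {N : ℕ} [NeZero N] (H : Subgroup (ZMod N)ˣ)

/-- `F_H` as an algebra over `F̄₀(N)`. -/
@[reducible] def s59k_algFH : Algebra (ffi_F N) ↥(s48k_FH N H) := (s59k_iotaH N H).toAlgebra

theorem s59k_algFH_algebraMap (x : ffi_F N) :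
    letI := s59k_algFH H
    algebraMap (ffi_F N) ↥(s48k_FH N H) x = s59k_iotaH N H x := rfl

variable (hM : 1 < N) (hneg : (-1 : (ZMod N)ˣ) ∈ H)

/-- the diamond action of `(ℤ/N)ˣ` on `F_H`. -/
@[reducible] def s59k_actFH : MulSemiringAction (ZMod N)ˣ ↥(s48k_FH N H) :=
  MulSemiringAction.compHom _ (s59k_diaHom H hM hneg)

theorem s59k_actFH_smul (g : (ZMod N)ˣ) (x : ↥(s48k_FH N H)) :
    letI := s59k_actFH H hM hneg
    g • x = s48k_diamondAut N H g x := rfl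

theorem s59k_smulCommClass :
    letI := s59k_algFH H
    letI := s59k_actFH H hM hneg
    SMulCommClass (ZMod N)ˣ (ffi_F N) ↥(s48k_FH N H) := by
  letI := s59k_algFH H
  letI := s59k_actFH H hM hneg
  refine ⟨fun g a x => ?_⟩
  rw [Algebra.smul_def, Algebra.smul_def, smul_mul', s59k_algFH_algebraMap, s59k_actFH_smul,
    s59k_dia_iotaH H hM hneg]

theorem s59k_isScalarTower :
    letI := s59k_algFH H
    IsScalarTower Qbar (ffi_F N) ↥(s48k_FH N H) := by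
  letI := s59k_algFH H
  refine IsScalarTower.of_algebraMap_eq fun c => ?_
  rw [s59k_algFH_algebraMap, s59k_iotaH_algebraMap]

theorem s59k_hfix :
    letI := s59k_algFH H
    letI := s59k_actFH H hM hneg
    ∀ x : ↥(s48k_FH N H), (∀ g : (ZMod N)ˣ, g • x = x) →
      ∃ x₀ : ffi_F N, algebraMap (ffi_F N) ↥(s48k_FH N H) x₀ = x := by
  letI := s59k_algFH H
  letI := s59k_actFH H hM hneg
  intro x hx
  exact s59k_dia_fixed H hM hneg x hx

include hM hneg in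
theorem s59k_isAlgebraic :
    letI := s59k_algFH H
    Algebra.IsAlgebraic (ffi_F N) ↥(s48k_FH N H) := by
  letI := s59k_algFH H
  letI := s59k_actFH H hM hneg
  haveI := s59k_smulCommClass H hM hneg
  haveI : Algebra.IsInvariant (ffi_F N) ↥(s48k_FH N H) (ZMod N)ˣ :=
    ⟨fun b hb => s59k_hfix H hM hneg b hb⟩
  haveI : Algebra.IsIntegral (ffi_F N) ↥(s48k_FH N H) :=
    Algebra.IsInvariant.isIntegral (ffi_F N) ↥(s48k_FH N H) (ZMod N)ˣ
  exact Algebra.IsIntegral.isAlgebraic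

end Setting

/-! ### Galois, diamonds and the inclusion -/

section Compat

variable {N : ℕ} [NeZero N] (H : Subgroup (ZMod N)ˣ)

/-- the arithmetic Galois actions on `F̄₀(N)` and `F_H` are compatible. -/
theorem s59k_gal_iotaH (σ : s48k_G) (x : ffi_F N) :
    arithmeticGalois (s48k_FHQ N H) σ • s59k_iotaH N H x =
      s59k_iotaH N H (arithmeticGalois (modularFunctionFieldFull N) σ • x) := by
  apply Subtype.ext
  rw [coe_arithmeticGalois_smul, s59k_coe_iotaH, s59k_coe_iotaH, coe_arithmeticGalois_smul]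

variable (hM : 1 < N) (hneg : (-1 : (ZMod N)ˣ) ∈ H)

include hM hneg in
theorem s59k_dia_inv (g : (ZMod N)ˣ) (x : ↥(s48k_FH N H)) :
    s48k_diamondAut N H g⁻¹ x = (s48k_diamondAut N H g).symm x := by
  have h := map_inv (s59k_diaHom H hM hneg) g
  have h2 := congrArg (fun e : ↥(s48k_FH N H) ≃ₐ[Qbar] ↥(s48k_FH N H) => e x) h
  exact h2

include hM hneg in
/-- `(ofAlgAut ⟨g⟩)⁻¹ • x = ⟨g⁻¹⟩ x`. -/
theorem s59k_ofAlgAut_inv_smul (g : (ZMod N)ˣ) (x : ↥(s48k_FH N H)) :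
    (SemilinearAut.ofAlgAut (s48k_diamondAut N H g))⁻¹ • x = s48k_diamondAut N H g⁻¹ x := by
  rw [s59k_dia_inv H hM hneg]
  rfl

end Compat

/-! ### Stability under the decomposition group -/

section Stab

variable (A : ValuationSubring Qbar) {ℓ : ℕ} [Fact ℓ.Prime] (hA : A.LiesOverPrime ℓ)

/-- **`W_∞` is stable under the decomposition group of `A`.** -/
theorem s59k_stab_inf (N : ℕ) [NeZero N] (H : Subgroup (ZMod N)ˣ) (φ : s48k_G)
    (hφ : φ ∈ A.decompositionSubgroup ℚ) (y : ↥(s48k_FH N H)) :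
    arithmeticGalois (s48k_FHQ N H) φ • y ∈ s59k_Winf A hA N H ↔ y ∈ s59k_Winf A hA N H := by
  have key : ∀ τ : s48k_G, τ ∈ A.decompositionSubgroup ℚ → ∀ y : ↥(s48k_FH N H),
      y ∈ s59k_Winf A hA N H → arithmeticGalois (s48k_FHQ N H) τ • y ∈ s59k_Winf A hA N H :=
    fun τ hτ y hy => s59k_theta_stab (s59k_Winf_val A hA N H) (arithmeticGalois (s48k_FHQ N H) τ)
      (fun a ha => ford_decomposition_mem A τ hτ a ha)
      (fun f => coe_arithmeticGalois_smul (s48k_FHQ N H) τ f) y hy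
  constructor
  · intro h
    have := key φ⁻¹ ((A.decompositionSubgroup ℚ).inv_mem hφ) _ h
    rwa [map_inv, inv_smul_smul] at this
  · exact key φ hφ y

variable (M₁ q₁ : ℕ) [NeZero M₁] [NeZero q₁] (hq : q₁.Prime) (hqM : ¬ q₁ ∣ M₁)

/-- **`V_0` is stable under the decomposition group of `A`.** -/
theorem s59k_Vzero_stab (φ : s48k_G) (hφ : φ ∈ A.decompositionSubgroup ℚ)
    (x : ffi_F (M₁ * q₁)) :
    arithmeticGalois (modularFunctionFieldFull (M₁ * q₁)) φ • x ∈ s59k_Vzero A hA M₁ q₁ hq hqM ↔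
      x ∈ s59k_Vzero A hA M₁ q₁ hq hqM := by
  have key : ∀ τ : s48k_G, τ ∈ A.decompositionSubgroup ℚ → ∀ x : ffi_F (M₁ * q₁),
      x ∈ s59k_Vzero A hA M₁ q₁ hq hqM →
        arithmeticGalois (modularFunctionFieldFull (M₁ * q₁)) τ • x ∈
          s59k_Vzero A hA M₁ q₁ hq hqM := by
    intro τ hτ x hx
    refine s59k_theta_stab (s59k_Vzero_val A hA M₁ q₁ hq hqM)
      (arithmeticGalois (modularFunctionFieldFull (M₁ * q₁)) τ)
      (fun a ha => ford_decomposition_mem A τ hτ a ha) (fun f => ?_) x hx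
    rw [s59k_thetaZero_apply, s59k_al_galois M₁ q₁ hq hqM τ f, s59k_thetaZero_apply]
    exact coe_arithmeticGalois_smul (modularFunctionFieldFull (M₁ * q₁)) τ _
  constructor
  · intro h
    have := key φ⁻¹ ((A.decompositionSubgroup ℚ).inv_mem hφ) _ h
    rwa [map_inv, inv_smul_smul] at this
  · exact key φ hφ x

end Stab

/-! ### Extensions of `V_0` to `F_H` -/

section Ext

variable (A : ValuationSubring Qbar) {ℓ : ℕ} [Fact ℓ.Prime] (hA : A.LiesOverPrime ℓ)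
  (M₁ q₁ : ℕ) [NeZero M₁] [NeZero q₁] (hq : q₁.Prime) (hqM : ¬ q₁ ∣ M₁)
  (H : Subgroup (ZMod (M₁ * q₁))ˣ) (hM : 1 < M₁ * q₁) (hneg : (-1 : (ZMod (M₁ * q₁))ˣ) ∈ H)
  (Wzero : ValuationSubring ↥(s48k_FH (M₁ * q₁) H))
  (hWzero : Wzero.comap (s59k_iotaH (M₁ * q₁) H) = s59k_Vzero A hA M₁ q₁ hq hqM)

include hM hneg hWzero in
/-- **(stab₀)**: for `φ` in the decomposition group of `A` there is a diamond `⟨δ⟩` such that
`⟨δ⟩⁻¹ φ` stabilises the extension `W_0` of `V_0`. -/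
theorem s59k_stab_zero (φ : s48k_G) (hφ : φ ∈ A.decompositionSubgroup ℚ) :
    ∃ δ : (ZMod (M₁ * q₁))ˣ, ∀ y : ↥(s48k_FH (M₁ * q₁) H),
      ((SemilinearAut.ofAlgAut (s48k_diamondAut (M₁ * q₁) H δ))⁻¹ *
        arithmeticGalois (s48k_FHQ (M₁ * q₁) H) φ) • y ∈ Wzero ↔ y ∈ Wzero := by
  letI := s59k_algFH H
  letI := s59k_actFH H hM hneg
  haveI := s59k_smulCommClass H hM hneg
  haveI := s59k_isAlgebraic H hM hneg
  obtain ⟨g, hg⟩ := s59k_ext_decomp (G := (ZMod (M₁ * q₁))ˣ)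
    (V := s59k_Vzero A hA M₁ q₁ hq hqM) (s59k_hfix H hM hneg)
    (SemilinearAut.toRingAut (arithmeticGalois (s48k_FHQ (M₁ * q₁) H) φ))
    (SemilinearAut.toRingAut (arithmeticGalois (modularFunctionFieldFull (M₁ * q₁)) φ))
    (fun x => s59k_gal_iotaH H φ x)
    (fun x => s59k_Vzero_stab A hA M₁ q₁ hq hqM φ hφ x)
    hWzero
  refine ⟨g, fun y => ?_⟩
  rw [mul_smul, s59k_ofAlgAut_inv_smul H hM hneg]
  exact hg y

include hM hneg hWzero in
/-- **(norm₀)**: the value group of `W_0` is that of the constants. -/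
theorem s59k_norm_zero (f : ↥(s48k_FH (M₁ * q₁) H)) (hf : f ≠ 0) :
    ∃ c : Qbar, c ≠ 0 ∧
      Wzero.valuation (f * (algebraMap Qbar ↥(s48k_FH (M₁ * q₁) H) c)⁻¹) = 1 := by
  letI := s59k_algFH H
  haveI := s59k_isScalarTower H
  haveI := s59k_isAlgebraic H hM hneg
  exact s59k_ext_hnorm (K := Qbar) (V := s59k_Vzero A hA M₁ q₁ hq hqM) hWzero
    (fun c m hm => IsAlgClosed.exists_pow_nat_eq c hm)
    (fun f hf => s59k_theta_hnorm (s59k_Vzero_val A hA M₁ q₁ hq hqM)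
      (s59k_Vzero_scale A hA M₁ q₁ hq hqM) f hf) f hf

include hWzero in
/-- **(p₀)**: a prime `p ≠ ℓ` is a unit of `W_0`. -/
theorem s59k_p_zero {p : ℕ} (hp : p.Prime) (hpℓ : p ≠ ℓ) :
    Wzero.valuation ((p : ℕ) : ↥(s48k_FH (M₁ * q₁) H)) = 1 := by
  letI := s59k_algFH H
  have h1 : (s59k_Vzero A hA M₁ q₁ hq hqM).valuation ((p : ℕ) : ffi_F (M₁ * q₁)) = 1 :=
    s59k_wtheta_val_prime (s59k_Vzero_val A hA M₁ q₁ hq hqM)
      (s59k_thetaZero_algebraMap M₁ q₁ hq hqM) hA (Fact.out : ℓ.Prime) hp hpℓ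
  have h2 := (s59k_ext_val_eq_one (V := s59k_Vzero A hA M₁ q₁ hq hqM) hWzero
    ((p : ℕ) : ffi_F (M₁ * q₁))).mpr h1
  rwa [map_natCast] at h2

/-- **(norm_∞)**. -/
theorem s59k_norm_inf (N : ℕ) [NeZero N] (H : Subgroup (ZMod N)ˣ) (f : ↥(s48k_FH N H))
    (hf : f ≠ 0) :
    ∃ c : Qbar, c ≠ 0 ∧
      (s59k_Winf A hA N H).valuation (f * (algebraMap Qbar ↥(s48k_FH N H) c)⁻¹) = 1 :=
  s59k_theta_hnorm (s59k_Winf_val A hA N H) (s59k_Winf_scale A hA N H) f hf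

/-- **(p_∞)**. -/
theorem s59k_p_inf (N : ℕ) [NeZero N] (H : Subgroup (ZMod N)ˣ) {p : ℕ} (hp : p.Prime)
    (hpℓ : p ≠ ℓ) : (s59k_Winf A hA N H).valuation ((p : ℕ) : ↥(s48k_FH N H)) = 1 :=
  s59k_wtheta_val_prime (s59k_Winf_val A hA N H) (s59k_incl_algebraMap (s48k_FH N H)) hA
    (Fact.out : ℓ.Prime) hp hpℓ

include hM hneg hWzero in
/-- **the six fields of helper7's `s59n_WHyp`** for `(W_∞, W_0)`, `W_∞ = s59k_Winf` and `W_0` ANY extension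
of `V_0`, a Frobenius (any element of the decomposition group) `φ`, and a suitable `δ_φ`. -/
theorem s59k_WHyp_fields (φ : s48k_G) (hφ : φ ∈ A.decompositionSubgroup ℚ) {p : ℕ} (hp : p.Prime)
    (hpℓ : p ≠ ℓ) :
    ∃ δφ : (ZMod (M₁ * q₁))ˣ,
      (∀ f : ↥(s48k_FH (M₁ * q₁) H), f ≠ 0 → ∃ c : Qbar, c ≠ 0 ∧
        (s59k_Winf A hA (M₁ * q₁) H).valuation
          (f * (algebraMap Qbar ↥(s48k_FH (M₁ * q₁) H) c)⁻¹) = 1) ∧
      (∀ f : ↥(s48k_FH (M₁ * q₁) H), f ≠ 0 → ∃ c : Qbar, c ≠ 0 ∧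
        Wzero.valuation (f * (algebraMap Qbar ↥(s48k_FH (M₁ * q₁) H) c)⁻¹) = 1) ∧
      (s59k_Winf A hA (M₁ * q₁) H).valuation ((p : ℕ) : ↥(s48k_FH (M₁ * q₁) H)) = 1 ∧
      Wzero.valuation ((p : ℕ) : ↥(s48k_FH (M₁ * q₁) H)) = 1 ∧
      (∀ y : ↥(s48k_FH (M₁ * q₁) H),
        arithmeticGalois (s48k_FHQ (M₁ * q₁) H) φ • y ∈ s59k_Winf A hA (M₁ * q₁) H ↔
          y ∈ s59k_Winf A hA (M₁ * q₁) H) ∧
      (∀ y : ↥(s48k_FH (M₁ * q₁) H),
        ((SemilinearAut.ofAlgAut (s48k_diamondAut (M₁ * q₁) H δφ))⁻¹ *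
          arithmeticGalois (s48k_FHQ (M₁ * q₁) H) φ) • y ∈ Wzero ↔ y ∈ Wzero) := by
  obtain ⟨δφ, hδ⟩ := s59k_stab_zero A hA M₁ q₁ hq hqM H hM hneg Wzero hWzero φ hφ
  exact ⟨δφ, s59k_norm_inf A hA (M₁ * q₁) H,
    s59k_norm_zero A hA M₁ q₁ hq hqM H hM hneg Wzero hWzero,
    s59k_p_inf A hA (M₁ * q₁) H hp hpℓ, s59k_p_zero A hA M₁ q₁ hq hqM H Wzero hWzero hp hpℓ,
    s59k_stab_inf A hA (M₁ * q₁) H φ hφ, hδ⟩

include hWzero in
/-- the membership specification of `W_0` on `F̄₀(M₁ q₁)`. -/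
theorem s59k_Wzero_spec (f : ↥(s48k_FH (M₁ * q₁) H))
    (hf : (f : LaurentSeries Qbar) ∈ modularFunctionFieldBar (M₁ * q₁)) :
    f ∈ Wzero ↔
      ((s37w_al M₁ q₁ hq hqM ⟨(f : LaurentSeries Qbar), hf⟩ : ffi_F (M₁ * q₁)) :
        LaurentSeries Qbar) ∈ s37r_O A (IsLocalRing.residue ↥A) := by
  have e : s59k_iotaH (M₁ * q₁) H ⟨(f : LaurentSeries Qbar), hf⟩ = f :=
    Subtype.ext (s59k_coe_iotaH (M₁ * q₁) H _)
  rw [← s59k_mem_Vzero A hA M₁ q₁ hq hqM, ← hWzero, ValuationSubring.mem_comap, e]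

set_option maxHeartbeats 800000 in
include hM hneg hWzero in
/-- **(inertia₀)**: for `σ` in the inertia group of `A` there is a diamond `⟨δ⟩` such that `⟨δ⟩⁻¹ σ`
preserves `W_0` and acts trivially on its residue field. -/
theorem s59k_inertia_stab (σ : s48k_G) (hσ : σ ∈ A.inertiaSubgroupIn ℚ) :
    ∃ δ : (ZMod (M₁ * q₁))ˣ,
      (∀ y ∈ Wzero, ((SemilinearAut.ofAlgAut (s48k_diamondAut (M₁ * q₁) H δ))⁻¹ *
        arithmeticGalois (s48k_FHQ (M₁ * q₁) H) σ) • y ∈ Wzero) ∧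
      (∀ y ∈ Wzero, Wzero.valuation
        (((SemilinearAut.ofAlgAut (s48k_diamondAut (M₁ * q₁) H δ))⁻¹ *
          arithmeticGalois (s48k_FHQ (M₁ * q₁) H) σ) • y - y) < 1) := by
  letI := s59k_algFH H
  letI := s59k_actFH H hM hneg
  haveI := s59k_smulCommClass H hM hneg
  haveI := s59k_isAlgebraic H hM hneg
  obtain ⟨hD, -⟩ := ford_inertia_spec A σ hσ
  obtain ⟨-, hres, -⟩ := s59k_Vzero_hyps A hA M₁ q₁ hq hqM σ hσ
  obtain ⟨g, hg1, hg2⟩ := s59k_ext_inertia (G := (ZMod (M₁ * q₁))ˣ)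
    (V := s59k_Vzero A hA M₁ q₁ hq hqM) (s59k_hfix H hM hneg)
    (SemilinearAut.toRingAut (arithmeticGalois (s48k_FHQ (M₁ * q₁) H) σ))
    (SemilinearAut.toRingAut (arithmeticGalois (modularFunctionFieldFull (M₁ * q₁)) σ))
    (fun x => s59k_gal_iotaH H σ x)
    (fun x => s59k_Vzero_stab A hA M₁ q₁ hq hqM σ hD x)
    (fun x hx => hres x hx)
    hWzero
  refine ⟨g, fun y hy => ?_, fun y hy => ?_⟩
  · rw [mul_smul, s59k_ofAlgAut_inv_smul H hM hneg]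
    exact hg1 y hy
  · rw [mul_smul, s59k_ofAlgAut_inv_smul H hM hneg]
    exact hg2 y hy

include hM hneg hWzero in
/-- **(P3)**: for `σ` in the inertia group of `A` there is a diamond `⟨δ⟩` with
`σ z − ⟨δ⟩ z ∈ KumKer (⟨δ⟩ W_0) n` for every `n`-torsion class `z`. -/
theorem s59k_P3_zero (σ : s48k_G) (hσ : σ ∈ A.inertiaSubgroupIn ℚ) :
    ∃ δ : (ZMod (M₁ * q₁))ˣ, ∀ (n : ℕ) (z : s48k_JH (M₁ * q₁) H), n • z = 0 →
      arithmeticGalois (s48k_FHQ (M₁ * q₁) H) σ • z -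
          SemilinearAut.ofAlgAut (s48k_diamondAut (M₁ * q₁) H δ) • z ∈
        s59k_KumKer (K := Qbar)
          (SemilinearAut.ofAlgAut (s48k_diamondAut (M₁ * q₁) H δ) • Wzero) n := by
  obtain ⟨g, hg1, hg2⟩ := s59k_inertia_stab A hA M₁ q₁ hq hqM H hM hneg Wzero hWzero σ hσ
  have hnorm := s59k_norm_zero A hA M₁ q₁ hq hqM H hM hneg Wzero hWzero
  exact ⟨g, fun n z hz => s59k_P3_of_stab _ _ Wzero hg1 hg2 hnorm n z hz⟩

/-- **existence of an extension `W_0` of `V_0`.** -/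
theorem s59k_exists_Wzero :
    ∃ Wzero : ValuationSubring ↥(s48k_FH (M₁ * q₁) H),
      Wzero.comap (s59k_iotaH (M₁ * q₁) H) = s59k_Vzero A hA M₁ q₁ hq hqM := by
  letI := s59k_algFH H
  exact s59k_exists_ext (s59k_Vzero A hA M₁ q₁ hq hqM)

end Ext

/-! ### The relation (K) -/

section KRel

variable {N : ℕ} [NeZero N] (H : Subgroup (ZMod N)ˣ) (hM : 1 < N) (hneg : (-1 : (ZMod N)ˣ) ∈ H)

/-- the set of all diamond operators, as semilinear automorphisms. -/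
def s59k_diaSet : Set (SemilinearAut Qbar ↥(s48k_FH N H)) :=
  Set.range fun d : (ZMod N)ˣ => SemilinearAut.ofAlgAut (s48k_diamondAut N H d)

include hM hneg in
theorem s59k_ofAlgAut_dia_mul (d d' : (ZMod N)ˣ) :
    SemilinearAut.ofAlgAut (s48k_diamondAut N H d) * SemilinearAut.ofAlgAut (s48k_diamondAut N H d') =
      SemilinearAut.ofAlgAut (s48k_diamondAut N H (d * d')) := by
  rw [← map_mul, ← s59k_diamondAut_mul H hM hneg]

include hM hneg in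
theorem s59k_ofAlgAut_dia_comm (d d' : (ZMod N)ˣ) :
    SemilinearAut.ofAlgAut (s48k_diamondAut N H d) * SemilinearAut.ofAlgAut (s48k_diamondAut N H d') =
      SemilinearAut.ofAlgAut (s48k_diamondAut N H d') *
        SemilinearAut.ofAlgAut (s48k_diamondAut N H d) := by
  rw [s59k_ofAlgAut_dia_mul H hM hneg, s59k_ofAlgAut_dia_mul H hM hneg, mul_comm]

include hM hneg in
/-- the Kummer kernels of all diamond translates of `⟨δ⟩ W` and of `W` agree. -/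
theorem s59k_mem_kumKerSet_dia (W : ValuationSubring ↥(s48k_FH N H)) (δ : (ZMod N)ˣ) (n : ℕ)
    (z : s48k_JH N H)
    (h : ∀ d : (ZMod N)ˣ, z ∈ s59k_KumKer (K := Qbar)
      (SemilinearAut.ofAlgAut (s48k_diamondAut N H d) • W) n) :
    z ∈ s59k_KumKerSet (K := Qbar) (s59k_translates (s59k_diaSet H)
      (SemilinearAut.ofAlgAut (s48k_diamondAut N H δ) • W)) n := by
  rw [s59k_mem_kumKerSet_translates]
  rintro _ ⟨d, rfl⟩
  rw [← mul_smul, s59k_ofAlgAut_dia_mul H hM hneg]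
  exact h (d * δ)

include hM hneg in
theorem s59k_kumKerSet_dia_iff (W : ValuationSubring ↥(s48k_FH N H)) (δ : (ZMod N)ˣ) (n : ℕ)
    (z : s48k_JH N H) :
    z ∈ s59k_KumKerSet (K := Qbar) (s59k_translates (s59k_diaSet H)
      (SemilinearAut.ofAlgAut (s48k_diamondAut N H δ) • W)) n ↔
    ∀ d : (ZMod N)ˣ, z ∈ s59k_KumKer (K := Qbar)
      (SemilinearAut.ofAlgAut (s48k_diamondAut N H d) • W) n := by
  refine ⟨fun h d => ?_, s59k_mem_kumKerSet_dia H hM hneg W δ n z⟩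
  rw [s59k_mem_kumKerSet_translates] at h
  have h1 := h _ ⟨d * δ⁻¹, rfl⟩
  rwa [← mul_smul, s59k_ofAlgAut_dia_mul H hM hneg, inv_mul_cancel_right] at h1

end KRel

section KMain

variable (A : ValuationSubring Qbar) {ℓ : ℕ} [Fact ℓ.Prime] (hA : A.LiesOverPrime ℓ)
  (M₁ q₁ : ℕ) [NeZero M₁] [NeZero q₁] (hq : q₁.Prime) (hqM : ¬ q₁ ∣ M₁)
  (H : Subgroup (ZMod (M₁ * q₁))ˣ) (hM : 1 < M₁ * q₁) (hneg : (-1 : (ZMod (M₁ * q₁))ˣ) ∈ H)
  (Wzero : ValuationSubring ↥(s48k_FH (M₁ * q₁) H))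
  (hWzero : Wzero.comap (s59k_iotaH (M₁ * q₁) H) = s59k_Vzero A hA M₁ q₁ hq hqM)

include hM hneg hWzero in
/-- **(K), set form**: for `σ` in the inertia group of `A` there is a diamond `⟨δ⟩` with
`(σ − 1)(σ − ⟨δ⟩) = 0` on the `n`-torsion of every subgroup `E` stable under `σ` and `⟨δ⟩` on which the
intersection of the Kummer kernels of the diamond translates of `W_∞` and `W_0` is trivial. -/
theorem s59k_K_rel_set (σ : s48k_G) (hσ : σ ∈ A.inertiaSubgroupIn ℚ) :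
    ∃ δ : (ZMod (M₁ * q₁))ˣ, ∀ (n : ℕ) (E : AddSubgroup (s48k_JH (M₁ * q₁) H)),
      (∀ z ∈ E, σ • z ∈ E) → (∀ z ∈ E, s48k_diamondJ (M₁ * q₁) H δ z ∈ E) →
      (∀ z ∈ E,
        z ∈ s59k_KumKerSet (K := Qbar) (s59k_translates (s59k_diaSet H)
          (s59k_Winf A hA (M₁ * q₁) H)) n →
        z ∈ s59k_KumKerSet (K := Qbar) (s59k_translates (s59k_diaSet H)
          (SemilinearAut.ofAlgAut (s48k_diamondAut (M₁ * q₁) H δ) • Wzero)) n → z = 0) →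
      ∀ z ∈ E, n • z = 0 →
        σ • (σ • z - s48k_diamondJ (M₁ * q₁) H δ z) - (σ • z - s48k_diamondJ (M₁ * q₁) H δ z) = 0 := by
  obtain ⟨δ, h3⟩ := s59k_P3_zero A hA M₁ q₁ hq hqM H hM hneg Wzero hWzero σ hσ
  refine ⟨δ, fun n E hEσ hEδ hG2 z hzE hz => ?_⟩
  exact s59k_K_of_translates (arithmeticGalois (s48k_FHQ (M₁ * q₁) H) σ)
    (SemilinearAut.ofAlgAut (s48k_diamondAut (M₁ * q₁) H δ))
    (s48e_diamondAut_comm_mul (M₁ * q₁) H δ σ)
    (s59k_Winf A hA (M₁ * q₁) H)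
    (SemilinearAut.ofAlgAut (s48k_diamondAut (M₁ * q₁) H δ) • Wzero) n
    (fun z hz => s59k_P2_inf A hA (M₁ * q₁) H σ hσ n z hz) (fun z hz => h3 n z hz)
    (s59k_diaSet H)
    (by rintro _ ⟨d, rfl⟩; exact s48e_diamondAut_comm_mul (M₁ * q₁) H d σ)
    (by rintro _ ⟨d, rfl⟩; exact s59k_ofAlgAut_dia_comm H hM hneg δ d)
    E hEσ hEδ hG2 z hzE hz

include hM hneg hWzero in
/-- **(K), consumer form, modulus `n`**. -/
theorem s59k_K_rel (σ : s48k_G) (hσ : σ ∈ A.inertiaSubgroupIn ℚ) :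
    ∃ δ : (ZMod (M₁ * q₁))ˣ, ∀ (n : ℕ) (E : AddSubgroup (s48k_JH (M₁ * q₁) H)),
      (∀ z ∈ E, σ • z ∈ E) → (∀ z ∈ E, s48k_diamondJ (M₁ * q₁) H δ z ∈ E) →
      (∀ z ∈ E,
        (∀ d : (ZMod (M₁ * q₁))ˣ, z ∈ s59k_KumKer (K := Qbar)
          (SemilinearAut.ofAlgAut (s48k_diamondAut (M₁ * q₁) H d) • s59k_Winf A hA (M₁ * q₁) H) n) →
        (∀ d : (ZMod (M₁ * q₁))ˣ, z ∈ s59k_KumKer (K := Qbar)
          (SemilinearAut.ofAlgAut (s48k_diamondAut (M₁ * q₁) H d) • Wzero) n) → z = 0) →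
      ∀ z ∈ E, n • z = 0 →
        σ • (σ • z - s48k_diamondJ (M₁ * q₁) H δ z) - (σ • z - s48k_diamondJ (M₁ * q₁) H δ z) = 0 := by
  obtain ⟨δ, hδ⟩ := s59k_K_rel_set A hA M₁ q₁ hq hqM H hM hneg Wzero hWzero σ hσ
  refine ⟨δ, fun n E hEσ hEδ hG2 z hzE hz => hδ n E hEσ hEδ (fun z hzE h1 h2 => ?_) z hzE hz⟩
  refine hG2 z hzE (fun d => ?_) ((s59k_kumKerSet_dia_iff H hM hneg Wzero δ n z).mp h2)
  exact (s59k_mem_kumKerSet_translates.mp h1) _ ⟨d, rfl⟩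

include hM hneg hWzero in
/-- **(K), consumer form, `p`-power torsion from (G2) at `p`**. -/
theorem s59k_K_rel_pow (p : ℕ) (hp : p.Prime)
    (hconst : ∀ h : ↥(s48k_FH (M₁ * q₁) H), h ≠ 0 →
      (∀ v : Place Qbar ↥(s48k_FH (M₁ * q₁) H), v.ord h = 0) →
        ∃ c : Qbar, h = algebraMap Qbar ↥(s48k_FH (M₁ * q₁) H) c)
    (σ : s48k_G) (hσ : σ ∈ A.inertiaSubgroupIn ℚ) :
    ∃ δ : (ZMod (M₁ * q₁))ˣ, ∀ (E : AddSubgroup (s48k_JH (M₁ * q₁) H)),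
      (∀ z ∈ E, σ • z ∈ E) → (∀ z ∈ E, s48k_diamondJ (M₁ * q₁) H δ z ∈ E) →
      (∀ z ∈ E,
        (∀ d : (ZMod (M₁ * q₁))ˣ, z ∈ s59k_KumKer (K := Qbar)
          (SemilinearAut.ofAlgAut (s48k_diamondAut (M₁ * q₁) H d) • s59k_Winf A hA (M₁ * q₁) H) p) →
        (∀ d : (ZMod (M₁ * q₁))ˣ, z ∈ s59k_KumKer (K := Qbar)
          (SemilinearAut.ofAlgAut (s48k_diamondAut (M₁ * q₁) H d) • Wzero) p) → z = 0) →
      ∀ (k : ℕ), ∀ z ∈ E, p ^ k • z = 0 →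
        σ • (σ • z - s48k_diamondJ (M₁ * q₁) H δ z) - (σ • z - s48k_diamondJ (M₁ * q₁) H δ z) = 0 := by
  obtain ⟨δ, hδ⟩ := s59k_K_rel_set A hA M₁ q₁ hq hqM H hM hneg Wzero hWzero σ hσ
  refine ⟨δ, fun E hEσ hEδ hG2 k z hzE hz => ?_⟩
  haveI : NeZero ((p : ℕ) : Qbar) := ⟨Nat.cast_ne_zero.mpr hp.ne_zero⟩
  haveI : NeZero p := ⟨hp.ne_zero⟩
  obtain ⟨ζ, hζ⟩ := HasEnoughRootsOfUnity.exists_primitiveRoot Qbar p
  have hG2' : ∀ z ∈ E,
      z ∈ s59k_KumKerSet (K := Qbar) (s59k_translates (s59k_diaSet H)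
        (s59k_Winf A hA (M₁ * q₁) H)) p →
      z ∈ s59k_KumKerSet (K := Qbar) (s59k_translates (s59k_diaSet H)
        (SemilinearAut.ofAlgAut (s48k_diamondAut (M₁ * q₁) H δ) • Wzero)) p → z = 0 := by
    intro z hzE h1 h2
    refine hG2 z hzE (fun d => ?_) ((s59k_kumKerSet_dia_iff H hM hneg Wzero δ p z).mp h2)
    exact (s59k_mem_kumKerSet_translates.mp h1) _ ⟨d, rfl⟩
  have hG2k := s59k_G2_pow_set (K := Qbar) _ _ p hp.pos ζ hζ
    (fun c => IsAlgClosed.exists_pow_nat_eq c hp.pos) hconst E hG2' k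
  exact hδ (p ^ k) E hEσ hEδ hG2k z hzE hz

end KMain

end Fermat.Agent.Lib.S59
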