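/-
Programme R2 (S59), p = 3 port of the `T`-side (helper5), file 8: **node C8 for a general `W`, EVEN LEVEL, ANY ODD `p`** — copy of EWC8a
(`s59e_W_hres'`, `s59e_W_C8`, `s59e_W_C8_lvl`, `s59e_W_C8_final`, `s59e_W_C8_final_TW`) with `5 ≤ p` replaced by `p ≠ 2` and `2 ∣ M ∨ 3 ∣ M` by `2 ∣ M`
(prefix `s59e3e_`; generated from the original; uses `s59e_aux_lvl_pgroup`, `s59e_aux_S37H_pgroup` (EAuxS37) and the ported `s59e3n_exists_delta`).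
-/
import Mathlib
import Fermat.Agent.Lib.S59.NC8
import Fermat.Agent.Lib.S59.UWType1
import Fermat.Agent.Lib.S58.OLevel
import Fermat.Agent.Lib.S44.SoftTransport
import Fermat.Agent.Lib.S59.EWC8a
import Fermat.Agent.Lib.S59.E3Aux
import Fermat.Agent.Lib.S59.E3KFin
import Fermat.Agent.Lib.S59.EAuxS37

set_option autoImplicit false
set_option linter.style.haveILetI false
set_option linter.unusedSectionVars false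
set_option linter.unusedVariables false
set_option synthInstance.maxHeartbeats 400000

noncomputable section

namespace Fermat.Agent.Lib.S59

open Fermat.Agent.Lib.S29 Fermat.Agent.Lib.S30 Fermat.Agent.Lib.S48 Fermat.Agent.Lib.PT
open WeierstrassCurve WeierstrassCurve.Affine IsLocalRing TensorProduct Polynomial
open CongruenceSubgroup ModularCurve.Period
open scoped MatrixGroups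

local notation "Qbar" => AlgebraicClosure ℚ
local notation "GQ" => (AlgebraicClosure ℚ ≃ₐ[ℚ] AlgebraicClosure ℚ)

/-- **`hres` for a general `W`** (the `W`-form of `s59b_hres_frey'`): residual absolute irreducibility of every `ρ` whose
Frobenius polynomials are those of `W` twisted by a character `θ` of `p`-power order. -/
theorem s59e3e_W_hres' (p : ℕ) [hpP : Fact p.Prime] (hp2 : p ≠ 2) (W : WeierstrassCurve ℤ)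
    (hΔ : W.Δ ≠ 0) (hirr : W.ModRepIsIrreducible p)
    {𝒪 : Type} [CommRing 𝒪] [IsLocalRing 𝒪] [IsNoetherianRing 𝒪]
    (φ : ℤ_[p] →+* 𝒪) (hp𝒪 : (p : 𝒪) ∈ maximalIdeal 𝒪)
    (M : ℕ) (θ : (ZMod M)ˣ →* 𝒪ˣ) (hθp : ∀ d : (ZMod M)ˣ, ∃ n : ℕ, θ d ^ (p ^ n) = 1)
    (a : ℕ → 𝒪) (S : Finset ℕ) (hpS : p ∈ S) (hMS : ∀ r : ℕ, r.Prime → r ∣ M → r ∈ S)
    (hgood : ∀ ℓ : ℕ, ℓ.Prime → ℓ ∉ S → W.IsGoodPrimeFor ℓ)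
    (ha : ∀ ℓ : ℕ, ℓ.Prime → ℓ ∉ S →
      a ℓ - ((W.apOfModel ℓ : ℤ) : 𝒪) ∈ maximalIdeal 𝒪) :
    ∀ ρ : GaloisRepAdic 𝒪,
      (∀ ℓ : ℕ, ℓ.Prime → ℓ ∉ S → ∀ ℓu : (ZMod M)ˣ,
        ((ℓu : (ZMod M)ˣ) : ZMod M) = (ℓ : ZMod M) →
        ∀ P' : ValuationSubring Qbar, P'.LiesOverPrime ℓ → ∀ σ : GQ, P'.IsFrobeniusAt σ ℓ →
          (ρ.ρ σ).charpoly = X ^ 2 - C ((((θ ℓu)⁻¹ : 𝒪ˣ) : 𝒪) * a ℓ) * X + C (ℓ : 𝒪)) →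
      ρ.residual.IsAbsolutelyIrreducible := by
  intro ρ hρ
  have hp2 : p ≠ 2 := by omega
  have hφ : IsLocalHom φ := s59b_isLocalHom_padic p φ hp𝒪
  refine s59b_hres_curve W p hΔ hp2 hirr φ hφ (s59u_W_absIrr W hΔ p hp2 hirr φ hφ) M θ (fun d => ?_)
    a S hpS hMS hgood (fun ℓ hℓ hℓS => ?_) ρ hρ
  · obtain ⟨n, hn⟩ := hθp d
    refine s59b_residue_one_of_pow p hp𝒪 _ n ?_
    rw [← Units.val_pow_eq_pow_val, hn, Units.val_one]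
  · have h1 := (residue_eq_zero_iff _).mpr (ha ℓ hℓ hℓS)
    rw [map_sub, map_intCast, sub_eq_zero] at h1
    exact h1

section Main

/-- **C8, assembled**: `tr ρ(σ) = θ(σ) + θ(σ)⁻¹` for `σ` in an inertia group at `q₀ ∈ Q`; the only
remaining hypothesis is `hK` (C6 + C7). -/
theorem s59e3e_W_C8 (p : ℕ) [hpP : Fact p.Prime] (hp2 : p ≠ 2) (W : WeierstrassCurve ℤ)
    (hΔ : W.Δ ≠ 0) (hirr : W.ModRepIsIrreducible p)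
    (M : ℕ) [NeZero M] (N : ℕ) [NeZero N] (Q : Finset ℕ)
    (hMeq : M = N * ∏ q ∈ Q, q) (hQ : ∀ q ∈ Q, q.Prime ∧ ¬ q ∣ N)
    (H : Subgroup (ZMod M)ˣ)
    (hH : ∀ (x : ℤ) (u : (ZMod M)ˣ), ((x : ℤ) : ZMod (∏ q ∈ Q, q)) = 1 →
      ((u : (ZMod M)ˣ) : ZMod M) = ((x : ℤ) : ZMod M) → u ∈ H)
    (hM : 1 < M) (hneg : (-1 : (ZMod M)ˣ) ∈ H) (S37 : s59b_S37H M H)
    (𝒪 : Type) [CommRing 𝒪] [IsDomain 𝒪] [IsDiscreteValuationRing 𝒪]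
    [IsAdicComplete (maximalIdeal 𝒪) 𝒪] [Finite (ResidueField 𝒪)] [CharZero 𝒪] [Algebra ℤ_[p] 𝒪]
    [Module.Finite ℤ_[p] 𝒪]
    (hp𝒪 : (p : 𝒪) ∈ maximalIdeal 𝒪)
    (θ : (ZMod M)ˣ →* 𝒪ˣ) (hθH : ∀ d ∈ H, θ d = 1)
    (hθp : ∀ d : (ZMod M)ˣ, ∃ n : ℕ, θ d ^ (p ^ n) = 1)
    (a : ℕ → 𝒪)
    (φ : Additive (s48h_GammaH M H) →+ 𝒪) (hφ0 : φ ≠ 0)
    (hpar : IsParabolicHom (s48h_GammaH M H) φ)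
    (hdiam : ∀ (σ : SL(2, ℤ)) (hσ : σ ∈ Gamma0 M) (du : (ZMod M)ˣ),
      ((du : (ZMod M)ˣ) : ZMod M) = ((σ 1 1 : ℤ) : ZMod M) →
      s48h_diamondH H σ hσ 𝒪 φ = (((θ du : 𝒪ˣ) : 𝒪) ^ 2) • φ)
    (heig : ∀ (ℓ : ℕ) [Fact ℓ.Prime] (hℓ : ¬ ℓ ∣ M) (σ : SL(2, ℤ)) (hσ : σ ∈ Gamma0 M)
      (hσ11 : ((σ 1 1 : ℤ) : ZMod M) = (ℓ : ZMod M)),
      s48h_TpH H hℓ σ hσ hσ11 𝒪 φ = a ℓ • φ)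
    (S : Finset ℕ) (hpS : p ∈ S) (hMS : ∀ r : ℕ, r.Prime → r ∣ M → r ∈ S)
    (hgood : ∀ ℓ : ℕ, ℓ.Prime → ℓ ∉ S → W.IsGoodPrimeFor ℓ)
    (ha : ∀ ℓ : ℕ, ℓ.Prime → ℓ ∉ S → a ℓ - ((W.apOfModel ℓ : ℤ) : 𝒪) ∈ maximalIdeal 𝒪)
    (ρ : GaloisRepAdic 𝒪)
    (hρ : ∀ ℓ : ℕ, ℓ.Prime → ℓ ∉ S → ∀ ℓu : (ZMod M)ˣ,
        ((ℓu : (ZMod M)ˣ) : ZMod M) = (ℓ : ZMod M) →
        ∀ P' : ValuationSubring Qbar, P'.LiesOverPrime ℓ → ∀ σ : GQ, P'.IsFrobeniusAt σ ℓ →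
          (ρ.ρ σ).charpoly = X ^ 2 - C ((((θ ℓu)⁻¹ : 𝒪ˣ) : 𝒪) * a ℓ) * X + C (ℓ : 𝒪))
    (q₀ : ℕ) (hq₀ : q₀ ∈ Q) (hq₀p : q₀ ≠ p)
    (A : ValuationSubring Qbar) (hA : A.LiesOverPrime q₀)
    (δ : GQ → (ZMod M)ˣ)
    (hK : ∀ σ ∈ A.inertiaSubgroupIn ℚ, ∀ (k : ℕ) (z : s48k_JH M H), p ^ k • z = 0 →
      s59b_GenEig M H (↑S : Set ℕ) (fun ℓ => W.apOfModel ℓ) z →
      σ • (σ • z - s48k_diamondJ M H (δ σ) z) - (σ • z - s48k_diamondJ M H (δ σ) z) = 0) :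
    ∀ σ ∈ A.inertiaSubgroupIn ℚ,
      ((θ (s59b_epsM M σ) : 𝒪ˣ) : 𝒪) * LinearMap.trace 𝒪 ρ.V (ρ.ρ σ) =
        1 + ((θ (s59b_epsM M σ) : 𝒪ˣ) : 𝒪) ^ 2 := by
  have hp2 : p ≠ 2 := by omega
  have hpprime : p.Prime := hpP.out
  -- `2` is a unit
  have h2 : IsUnit (2 : 𝒪) := by
    have h := s59b_two_ne_zero_residue (𝒪 := 𝒪) p hp2 hp𝒪
    by_contra hcon
    apply h
    have h3 : (2 : 𝒪) ∈ maximalIdeal 𝒪 := hcon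
    have h4 := (residue_eq_zero_iff (2 : 𝒪)).mpr h3
    rwa [map_ofNat] at h4
  -- the residual irreducibility
  have hres := s59e3e_W_hres' p hp2 W hΔ hirr (algebraMap ℤ_[p] 𝒪) hp𝒪 M θ hθp a S hpS hMS
    hgood ha
  -- the eigenvector in `Λ_x`
  obtain ⟨w₀, hw₀, hw₀m⟩ := s59b_LamX_ne_bot (p := p) (S := (↑S : Set ℕ)) (a := a)
    (ψ := fun d => ((θ d : 𝒪ˣ) : 𝒪) ^ 2) hM hneg φ (s59b_mem_Hpar_of_parabolic φ hpar) hφ0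
    (fun ℓ inst hℓM _ => by
      obtain ⟨σℓ, hσℓ, hσℓ11⟩ := s48h_exists_sigma_p (M := M) hℓM
      exact ⟨σℓ, hσℓ, hσℓ11, heig ℓ hℓM σℓ hσℓ hσℓ11⟩)
    (fun d => by
      obtain ⟨σ, hσ, hσ11⟩ := s48desc_exists_sigma M d
      exact ⟨σ, hσ, hσ11, hdiam σ hσ d hσ11.symm⟩)
  -- the determinant on inertia
  have hdetCyc : ρ.DetIsCyclotomic p := by
    classical
    refine s59b_detCyc_of_charpoly p ρ hp𝒪 S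
      (fun ℓ => if hc : Nat.Coprime ℓ M then
        (((θ (ZMod.unitOfCoprime ℓ hc))⁻¹ : 𝒪ˣ) : 𝒪) * a ℓ else 0) ?_
    intro ℓ hℓ hℓS P' hP' σ hσ
    have hc : Nat.Coprime ℓ M :=
      (Nat.Prime.coprime_iff_not_dvd hℓ).mpr fun hd => hℓS (hMS ℓ hℓ hd)
    rw [dif_pos hc]
    exact hρ ℓ hℓ hℓS (ZMod.unitOfCoprime ℓ hc) (ZMod.coe_unitOfCoprime ℓ hc) P' hP' σ hσ
  have hq₀prime : q₀.Prime := (hQ q₀ hq₀).1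
  have hS' : ∀ ℓ : ℕ, ℓ.Prime → ℓ ∉ S → ¬ ℓ ∣ M * p ∧ ℓ ∉ (↑S : Set ℕ) := by
    intro ℓ hℓ hℓS
    refine ⟨fun hd => ?_, by exact_mod_cast hℓS⟩
    rcases (Nat.Prime.dvd_mul hℓ).mp hd with h | h
    · exact hℓS (hMS ℓ hℓ h)
    · rw [(Nat.prime_dvd_prime_iff_eq hℓ hpprime).mp h] at hℓS
      exact hℓS hpS
  -- (NN)
  have hNN := s59u_hNN M N Q hMeq hQ H hH p 𝒪 hp𝒪 θ hθH (s59b_muP p 𝒪)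
    (s59b_muP_sq p 𝒪 hpprime hp2) hθp a φ hφ0 hpar hdiam heig S hpS hMS hres ρ hρ q₀ hq₀ hq₀p A hA
  exact s59b_KEND_theta (S := (↑S : Set ℕ)) (a := a) (ψ := fun d => ((θ d : 𝒪ˣ) : 𝒪) ^ 2)
    S37 hM hneg hp𝒪 h2 w₀ hw₀ hw₀m ρ (hres ρ hρ) θ (fun d => rfl) S hS' hρ
    (A.inertiaSubgroupIn ℚ) (s59b_muP p 𝒪) (s59b_muP_sq p 𝒪 hpprime hp2)
    (fun σ hσ => s59b_det_inertia ρ hdetCyc hq₀prime hq₀p A hA σ hσ) hθp δ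
    (fun ℓ => W.apOfModel ℓ)
    (fun ℓ hℓ hℓM hℓS => ha ℓ hℓ (by exact_mod_cast hℓS)) hK hNN

end Main

/-- **C8 at the patching levels.** -/
theorem s59e3e_W_C8_lvl (p : ℕ) [hpP : Fact p.Prime] (hp2 : p ≠ 2) (W : WeierstrassCurve ℤ)
    (hΔ : W.Δ ≠ 0) (hirr : W.ModRepIsIrreducible p)
    (M : ℕ) [NeZero M] (N : ℕ) [NeZero N] (Q : Finset ℕ)
    (hMeq : M = N * ∏ q ∈ Q, q) (hQ : ∀ q ∈ Q, q.Prime ∧ ¬ q ∣ N)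
    (H : Subgroup (ZMod M)ˣ)
    (hH : ∀ (x : ℤ) (u : (ZMod M)ˣ), ((x : ℤ) : ZMod (∏ q ∈ Q, q)) = 1 →
      ((u : (ZMod M)ˣ) : ZMod M) = ((x : ℤ) : ZMod M) → u ∈ H)
    (hsq : Squarefree M) (hM : 1 < M) (hneg : (-1 : (ZMod M)ˣ) ∈ H) (h23 : 2 ∣ M)
    (hpgrp : ∀ u : (ZMod M)ˣ, ∃ n : ℕ, u ^ (p ^ n) ∈ H)
    (𝒪 : Type) [CommRing 𝒪] [IsDomain 𝒪] [IsDiscreteValuationRing 𝒪]
    [IsAdicComplete (maximalIdeal 𝒪) 𝒪] [Finite (ResidueField 𝒪)] [CharZero 𝒪] [Algebra ℤ_[p] 𝒪]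
    [Module.Finite ℤ_[p] 𝒪]
    (hp𝒪 : (p : 𝒪) ∈ maximalIdeal 𝒪)
    (θ : (ZMod M)ˣ →* 𝒪ˣ) (hθH : ∀ d ∈ H, θ d = 1)
    (a : ℕ → 𝒪)
    (φ : Additive (s48h_GammaH M H) →+ 𝒪) (hφ0 : φ ≠ 0)
    (hpar : IsParabolicHom (s48h_GammaH M H) φ)
    (hdiam : ∀ (σ : SL(2, ℤ)) (hσ : σ ∈ Gamma0 M) (du : (ZMod M)ˣ),
      ((du : (ZMod M)ˣ) : ZMod M) = ((σ 1 1 : ℤ) : ZMod M) →
      s48h_diamondH H σ hσ 𝒪 φ = (((θ du : 𝒪ˣ) : 𝒪) ^ 2) • φ)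
    (heig : ∀ (ℓ : ℕ) [Fact ℓ.Prime] (hℓ : ¬ ℓ ∣ M) (σ : SL(2, ℤ)) (hσ : σ ∈ Gamma0 M)
      (hσ11 : ((σ 1 1 : ℤ) : ZMod M) = (ℓ : ZMod M)),
      s48h_TpH H hℓ σ hσ hσ11 𝒪 φ = a ℓ • φ)
    (S : Finset ℕ) (hpS : p ∈ S) (hMS : ∀ r : ℕ, r.Prime → r ∣ M → r ∈ S)
    (hgood : ∀ ℓ : ℕ, ℓ.Prime → ℓ ∉ S → W.IsGoodPrimeFor ℓ)
    (ha : ∀ ℓ : ℕ, ℓ.Prime → ℓ ∉ S → a ℓ - ((W.apOfModel ℓ : ℤ) : 𝒪) ∈ maximalIdeal 𝒪)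
    (ρ : GaloisRepAdic 𝒪)
    (hρ : ∀ ℓ : ℕ, ℓ.Prime → ℓ ∉ S → ∀ ℓu : (ZMod M)ˣ,
        ((ℓu : (ZMod M)ˣ) : ZMod M) = (ℓ : ZMod M) →
        ∀ P' : ValuationSubring Qbar, P'.LiesOverPrime ℓ → ∀ σ : GQ, P'.IsFrobeniusAt σ ℓ →
          (ρ.ρ σ).charpoly = X ^ 2 - C ((((θ ℓu)⁻¹ : 𝒪ˣ) : 𝒪) * a ℓ) * X + C (ℓ : 𝒪))
    (q₀ : ℕ) (hq₀ : q₀ ∈ Q) (hq₀p : q₀ ≠ p)
    (A : ValuationSubring Qbar) (hA : A.LiesOverPrime q₀)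
    (δ : GQ → (ZMod M)ˣ)
    (hK : ∀ σ ∈ A.inertiaSubgroupIn ℚ, ∀ (k : ℕ) (z : s48k_JH M H), p ^ k • z = 0 →
      s59b_GenEig M H (↑S : Set ℕ) (fun ℓ => W.apOfModel ℓ) z →
      σ • (σ • z - s48k_diamondJ M H (δ σ) z) - (σ • z - s48k_diamondJ M H (δ σ) z) = 0) :
    ∀ σ ∈ A.inertiaSubgroupIn ℚ,
      ((θ (s59b_epsM M σ) : 𝒪ˣ) : 𝒪) * LinearMap.trace 𝒪 ρ.V (ρ.ρ σ) =
        1 + ((θ (s59b_epsM M σ) : 𝒪ˣ) : 𝒪) ^ 2 := by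
  -- `θ` has `p`-power order since it factors through the `p`-group `(ℤ/M)ˣ/H`
  have hθp : ∀ d : (ZMod M)ˣ, ∃ n : ℕ, θ d ^ (p ^ n) = 1 := by
    intro d
    obtain ⟨n, hn⟩ := hpgrp d
    exact ⟨n, by rw [← map_pow]; exact hθH _ hn⟩
  exact s59e3e_W_C8 p hp2 W hΔ hirr M N Q hMeq hQ H hH hM hneg
    (s59e_aux_S37H_pgroup hsq hM hneg (Or.inl h23) (s59e3_auxTors_even hpP.out hp2 h23) hpgrp) 𝒪 hp𝒪 θ hθH hθp a φ hφ0 hpar hdiam heig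
    S hpS hMS hgood ha ρ hρ q₀ hq₀ hq₀p A hA δ hK

/-- **C8 at the patching levels, with `hK` discharged (C6 + C7).** -/
theorem s59e3e_W_C8_final (p : ℕ) [hpP : Fact p.Prime] (hp2 : p ≠ 2) (W : WeierstrassCurve ℤ)
    (hΔ : W.Δ ≠ 0) (hirr : W.ModRepIsIrreducible p)
    (M : ℕ) [NeZero M] (N : ℕ) [NeZero N] (Q : Finset ℕ)
    (hMeq : M = N * ∏ q ∈ Q, q) (hQ : ∀ q ∈ Q, q.Prime ∧ ¬ q ∣ N)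
    (H : Subgroup (ZMod M)ˣ)
    (hH : ∀ (x : ℤ) (u : (ZMod M)ˣ), ((x : ℤ) : ZMod (∏ q ∈ Q, q)) = 1 →
      ((u : (ZMod M)ˣ) : ZMod M) = ((x : ℤ) : ZMod M) → u ∈ H)
    (hsq : Squarefree M) (hM : 1 < M) (hneg : (-1 : (ZMod M)ˣ) ∈ H) (h23 : 2 ∣ M)
    (hpgrp : ∀ u : (ZMod M)ˣ, ∃ n : ℕ, u ^ (p ^ n) ∈ H)
    (𝒪 : Type) [CommRing 𝒪] [IsDomain 𝒪] [IsDiscreteValuationRing 𝒪]
    [IsAdicComplete (maximalIdeal 𝒪) 𝒪] [Finite (ResidueField 𝒪)] [CharZero 𝒪] [Algebra ℤ_[p] 𝒪]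
    [Module.Finite ℤ_[p] 𝒪]
    (hp𝒪 : (p : 𝒪) ∈ maximalIdeal 𝒪)
    (θ : (ZMod M)ˣ →* 𝒪ˣ) (hθH : ∀ d ∈ H, θ d = 1)
    (a : ℕ → 𝒪)
    (φ : Additive (s48h_GammaH M H) →+ 𝒪) (hφ0 : φ ≠ 0)
    (hpar : IsParabolicHom (s48h_GammaH M H) φ)
    (hdiam : ∀ (σ : SL(2, ℤ)) (hσ : σ ∈ Gamma0 M) (du : (ZMod M)ˣ),
      ((du : (ZMod M)ˣ) : ZMod M) = ((σ 1 1 : ℤ) : ZMod M) →
      s48h_diamondH H σ hσ 𝒪 φ = (((θ du : 𝒪ˣ) : 𝒪) ^ 2) • φ)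
    (heig : ∀ (ℓ : ℕ) [Fact ℓ.Prime] (hℓ : ¬ ℓ ∣ M) (σ : SL(2, ℤ)) (hσ : σ ∈ Gamma0 M)
      (hσ11 : ((σ 1 1 : ℤ) : ZMod M) = (ℓ : ZMod M)),
      s48h_TpH H hℓ σ hσ hσ11 𝒪 φ = a ℓ • φ)
    (S : Finset ℕ) (hpS : p ∈ S) (hMS : ∀ r : ℕ, r.Prime → r ∣ M → r ∈ S)
    (hgood : ∀ ℓ : ℕ, ℓ.Prime → ℓ ∉ S → W.IsGoodPrimeFor ℓ)
    (ha : ∀ ℓ : ℕ, ℓ.Prime → ℓ ∉ S → a ℓ - ((W.apOfModel ℓ : ℤ) : 𝒪) ∈ maximalIdeal 𝒪)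
    (ρ : GaloisRepAdic 𝒪)
    (hρ : ∀ ℓ : ℕ, ℓ.Prime → ℓ ∉ S → ∀ ℓu : (ZMod M)ˣ,
        ((ℓu : (ZMod M)ˣ) : ZMod M) = (ℓ : ZMod M) →
        ∀ P' : ValuationSubring Qbar, P'.LiesOverPrime ℓ → ∀ σ : GQ, P'.IsFrobeniusAt σ ℓ →
          (ρ.ρ σ).charpoly = X ^ 2 - C ((((θ ℓu)⁻¹ : 𝒪ˣ) : 𝒪) * a ℓ) * X + C (ℓ : 𝒪))
    (q₀ : ℕ) (hq₀ : q₀ ∈ Q) (hq₀p : q₀ ≠ p)
    (hq₀5 : 5 ≤ q₀) (hq₀g : ¬ (q₀ : ℤ) ∣ W.Δ)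
    (hq₀LR : ¬ (p : ℤ) ∣ W.apOfModel q₀ ^ 2 - ((q₀ : ℤ) + 1) ^ 2)
    (A : ValuationSubring Qbar) (hA : A.LiesOverPrime q₀) :
    ∀ σ ∈ A.inertiaSubgroupIn ℚ,
      ((θ (s59b_epsM M σ) : 𝒪ˣ) : 𝒪) * LinearMap.trace 𝒪 ρ.V (ρ.ρ σ) =
        1 + ((θ (s59b_epsM M σ) : 𝒪ˣ) : 𝒪) ^ 2 := by
  classical
  -- the level is `M₁ * q₀`
  obtain ⟨hq₀pr, hq₀N⟩ := hQ q₀ hq₀
  set M₁ : ℕ := N * ∏ q ∈ Q.erase q₀, q with hM₁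
  have hMM₁ : M = M₁ * q₀ := by
    rw [hMeq, hM₁, ← Finset.mul_prod_erase Q (fun q => q) hq₀]
    ring
  have hqM₁ : ¬ q₀ ∣ M₁ := by
    intro hdvd
    have h2 : q₀ * q₀ ∣ M := by
      rw [hMM₁, mul_comm M₁ q₀]
      exact Nat.mul_dvd_mul_left q₀ hdvd
    have h3 : IsUnit q₀ := hsq q₀ h2
    exact hq₀pr.one_lt.ne' (Nat.isUnit_iff.mp h3)
  -- substitute the level
  subst hMM₁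
  haveI : NeZero q₀ := ⟨hq₀pr.ne_zero⟩
  haveI : NeZero M₁ := ⟨fun h0 => by
    have : M₁ * q₀ = 0 := by rw [h0, zero_mul]
    exact (NeZero.ne (M₁ * q₀)) this⟩
  haveI : Fact q₀.Prime := ⟨hq₀pr⟩
  have hL : s59b_Lvl (M₁ * q₀) H := s59e_aux_lvl_pgroup hsq hM hneg (Or.inl h23) (s59e3_auxTors_even hpP.out hp2 h23) hpgrp
  haveI := Fermat.Agent.Lib.S58.s58o_isElliptic W hΔ
  obtain ⟨δ, hδ⟩ := s59e3n_exists_delta M₁ q₀ hqM₁ hq₀5 (s59e3_two_dvd_left hq₀pr hq₀5 h23) hL hpP.out hp2 (fun h => hq₀p h.symm) hpgrp A hA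
    (W.map (Int.castRingHom ℚ)) W
    ⟨1, Fermat.Agent.Lib.S44.s44s_one_smul W⟩ hirr S hpS hgood hq₀g hq₀LR
  exact s59e3e_W_C8_lvl p hp2 W hΔ hirr (M₁ * q₀) N Q hMeq hQ H hH hsq hM hneg h23 hpgrp 𝒪 hp𝒪 θ hθH a φ
    hφ0 hpar hdiam heig S hpS hMS hgood ha ρ hρ q₀ hq₀ hq₀p A hA δ
    (fun σ hσ k z hz hgen => hδ σ hσ k z hz hgen)

/-- **C8 at the patching levels, with `hK` discharged, Taylor–Wiles primes**: `q₀ ≡ 1 (mod p)`, `p ∤ a_{q₀}(W)² - 4`. -/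
theorem s59e3e_W_C8_final_TW (p : ℕ) [hpP : Fact p.Prime] (hp2 : p ≠ 2) (W : WeierstrassCurve ℤ)
    (hΔ : W.Δ ≠ 0) (hirr : W.ModRepIsIrreducible p)
    (M : ℕ) [NeZero M] (N : ℕ) [NeZero N] (Q : Finset ℕ)
    (hMeq : M = N * ∏ q ∈ Q, q) (hQ : ∀ q ∈ Q, q.Prime ∧ ¬ q ∣ N)
    (H : Subgroup (ZMod M)ˣ)
    (hH : ∀ (x : ℤ) (u : (ZMod M)ˣ), ((x : ℤ) : ZMod (∏ q ∈ Q, q)) = 1 →
      ((u : (ZMod M)ˣ) : ZMod M) = ((x : ℤ) : ZMod M) → u ∈ H)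
    (hsq : Squarefree M) (hM : 1 < M) (hneg : (-1 : (ZMod M)ˣ) ∈ H) (h23 : 2 ∣ M)
    (hpgrp : ∀ u : (ZMod M)ˣ, ∃ n : ℕ, u ^ (p ^ n) ∈ H)
    (𝒪 : Type) [CommRing 𝒪] [IsDomain 𝒪] [IsDiscreteValuationRing 𝒪]
    [IsAdicComplete (maximalIdeal 𝒪) 𝒪] [Finite (ResidueField 𝒪)] [CharZero 𝒪] [Algebra ℤ_[p] 𝒪]
    [Module.Finite ℤ_[p] 𝒪]
    (hp𝒪 : (p : 𝒪) ∈ maximalIdeal 𝒪)
    (θ : (ZMod M)ˣ →* 𝒪ˣ) (hθH : ∀ d ∈ H, θ d = 1)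
    (a : ℕ → 𝒪)
    (φ : Additive (s48h_GammaH M H) →+ 𝒪) (hφ0 : φ ≠ 0)
    (hpar : IsParabolicHom (s48h_GammaH M H) φ)
    (hdiam : ∀ (σ : SL(2, ℤ)) (hσ : σ ∈ Gamma0 M) (du : (ZMod M)ˣ),
      ((du : (ZMod M)ˣ) : ZMod M) = ((σ 1 1 : ℤ) : ZMod M) →
      s48h_diamondH H σ hσ 𝒪 φ = (((θ du : 𝒪ˣ) : 𝒪) ^ 2) • φ)
    (heig : ∀ (ℓ : ℕ) [Fact ℓ.Prime] (hℓ : ¬ ℓ ∣ M) (σ : SL(2, ℤ)) (hσ : σ ∈ Gamma0 M)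
      (hσ11 : ((σ 1 1 : ℤ) : ZMod M) = (ℓ : ZMod M)),
      s48h_TpH H hℓ σ hσ hσ11 𝒪 φ = a ℓ • φ)
    (S : Finset ℕ) (hpS : p ∈ S) (hMS : ∀ r : ℕ, r.Prime → r ∣ M → r ∈ S)
    (hgood : ∀ ℓ : ℕ, ℓ.Prime → ℓ ∉ S → W.IsGoodPrimeFor ℓ)
    (ha : ∀ ℓ : ℕ, ℓ.Prime → ℓ ∉ S → a ℓ - ((W.apOfModel ℓ : ℤ) : 𝒪) ∈ maximalIdeal 𝒪)
    (ρ : GaloisRepAdic 𝒪)
    (hρ : ∀ ℓ : ℕ, ℓ.Prime → ℓ ∉ S → ∀ ℓu : (ZMod M)ˣ,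
        ((ℓu : (ZMod M)ˣ) : ZMod M) = (ℓ : ZMod M) →
        ∀ P' : ValuationSubring Qbar, P'.LiesOverPrime ℓ → ∀ σ : GQ, P'.IsFrobeniusAt σ ℓ →
          (ρ.ρ σ).charpoly = X ^ 2 - C ((((θ ℓu)⁻¹ : 𝒪ˣ) : 𝒪) * a ℓ) * X + C (ℓ : 𝒪))
    (q₀ : ℕ) (hq₀ : q₀ ∈ Q) (hq₀p : q₀ ≠ p)
    (hq₀5 : 5 ≤ q₀) (hq₀g : ¬ (q₀ : ℤ) ∣ W.Δ)
    (hq₀1 : (p : ℤ) ∣ (q₀ : ℤ) - 1) (hq₀TW : ¬ (p : ℤ) ∣ W.apOfModel q₀ ^ 2 - 4)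
    (A : ValuationSubring Qbar) (hA : A.LiesOverPrime q₀) :
    ∀ σ ∈ A.inertiaSubgroupIn ℚ,
      ((θ (s59b_epsM M σ) : 𝒪ˣ) : 𝒪) * LinearMap.trace 𝒪 ρ.V (ρ.ρ σ) =
        1 + ((θ (s59b_epsM M σ) : 𝒪ˣ) : 𝒪) ^ 2 := by
  have hLR : ¬ (p : ℤ) ∣ W.apOfModel q₀ ^ 2 - ((q₀ : ℤ) + 1) ^ 2 := by
    intro hd
    apply hq₀TW
    obtain ⟨c, hc⟩ := hq₀1
    have e : W.apOfModel q₀ ^ 2 - 4 =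
        (W.apOfModel q₀ ^ 2 - ((q₀ : ℤ) + 1) ^ 2) + (p : ℤ) * (c * ((q₀ : ℤ) + 3)) := by
      have hq' : (q₀ : ℤ) = 1 + (p : ℤ) * c := by linarith
      rw [hq']
      ring
    rw [e]
    exact dvd_add hd (Dvd.intro _ rfl)
  exact s59e3e_W_C8_final p hp2 W hΔ hirr M N Q hMeq hQ H hH hsq hM hneg h23 hpgrp 𝒪 hp𝒪 θ hθH a φ hφ0
    hpar hdiam heig S hpS hMS hgood ha ρ hρ q₀ hq₀ hq₀p hq₀5 hq₀g hLR A hA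

end Fermat.Agent.Lib.S59
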