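/-
Programme R2 (S59), node [LIFT-min] = FIN-L, `T`-side (helper5, prefix `s59e_L_`): **[C8] WITH THE INERTIA ELEMENT EXPOSED.**
Variants of `s59e_W_hC8_abs / _eig / _dia / _ERing` (EWC8b, EWC8c; scripted copies of helper9's `s59m_hC8_*`) whose
conclusion names the element `τ`: instead of `∃ τ ∈ 𝔪_{T′}, (u − u⁻¹)² − τ ∈ Ann`, the conclusion is

  `∃ σ₀ ∈ I_{q₀} (inertia at some place over q₀), (u − u⁻¹)² − (tr ρ_T(σ₀)² − 4) ∈ Ann`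

(`σ₀` is chosen with `ε_M(σ₀) = ⟨τ₀⟩²`, so that at every point `x`: `x(u) = ξ²`, `tr ρ_x(σ₀) = ξ² + ξ⁻²`).  This is the
exact form of [C8] required by helper4's `s59f_FINL_abs` (FLiftT.lean): `τ = θ(tr ρ(σ_q)² − 4)` lies in the kernel of
`R_Q → R_∅` because the universal deformation of the minimal problem is unramified at `q₀`.
-/
import Mathlib
import Fermat.Agent.Lib.S59.EWC8c
import Fermat.Agent.Lib.S59.LFinB1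

set_option autoImplicit false
set_option linter.unusedSectionVars false
set_option linter.unusedVariables false
set_option linter.style.haveILetI false
set_option synthInstance.maxHeartbeats 400000
set_option maxHeartbeats 8000000

noncomputable section

namespace Fermat.Agent.Lib.S59

open Fermat.Agent.Lib.S29 Fermat.Agent.Lib.S30 Fermat.Agent.Lib.S48 Fermat.Agent.Lib.PT
open WeierstrassCurve WeierstrassCurve.Affine IsLocalRing TensorProduct Polynomial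
open CongruenceSubgroup ModularCurve.Period
open scoped MatrixGroups

local notation "Qbar" => AlgebraicClosure ℚ
local notation "GQ" => (AlgebraicClosure ℚ ≃ₐ[ℚ] AlgebraicClosure ℚ)

/-- `s59i_cpTr` is the trace (no noetherian hypothesis). -/
theorem s59e_L_cpTr_eq_trace {A : Type} [CommRing A] [IsLocalRing A] (ρ : GaloisRepAdic A) (g : GQ) :
    s59i_cpTr ρ g = LinearMap.trace A ρ.V (ρ.ρ g) := by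
  have bs : Module.Basis (Fin 2) A ρ.V := Module.finBasisOfFinrankEq A ρ.V ρ.finrank_eq
  unfold s59i_cpTr
  rw [← LinearMap.charpoly_toMatrix (ρ.ρ g) bs, Matrix.charpoly_fin_two,
    LinearMap.trace_eq_matrix_trace A bs]
  simp [coeff_X_pow]

/-- **`hC8`**: see the header. -/
theorem s59e_L_hC8_abs (p : ℕ) [hpP : Fact p.Prime] (hp5 : 5 ≤ p) (W : WeierstrassCurve ℤ)
    (hΔ : W.Δ ≠ 0) (hirr : W.ModRepIsIrreducible p)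
    (M : ℕ) [NeZero M] (N : ℕ) [NeZero N] (Q : Finset ℕ)
    (hMeq : M = N * ∏ q ∈ Q, q) (hQ : ∀ q ∈ Q, q.Prime ∧ ¬ q ∣ N)
    (H : Subgroup (ZMod M)ˣ)
    (hH : ∀ (x : ℤ) (u : (ZMod M)ˣ), ((x : ℤ) : ZMod (∏ q ∈ Q, q)) = 1 →
      ((u : (ZMod M)ˣ) : ZMod M) = ((x : ℤ) : ZMod M) → u ∈ H)
    (hsq : Squarefree M) (hM : 1 < M) (hneg : (-1 : (ZMod M)ˣ) ∈ H) (h23 : 2 ∣ M ∨ 3 ∣ M)
    {e m : ℕ} (hnm : 2 * m = p ^ e + 1) (hn : ∀ u : (ZMod M)ˣ, u ^ (p ^ e) ∈ H)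
    (𝒪 : Type) [CommRing 𝒪] [IsDomain 𝒪] [IsDiscreteValuationRing 𝒪]
    [IsAdicComplete (maximalIdeal 𝒪) 𝒪] [Finite (ResidueField 𝒪)] [CharZero 𝒪] [Algebra ℤ_[p] 𝒪]
    [Module.Finite ℤ_[p] 𝒪]
    (hp𝒪 : (p : 𝒪) ∈ maximalIdeal 𝒪)
    (S : Finset ℕ) (hpS : p ∈ S) (hMS : ∀ r : ℕ, r.Prime → r ∣ M → r ∈ S)
    (hgood : ∀ ℓ : ℕ, ℓ.Prime → ℓ ∉ S → W.IsGoodPrimeFor ℓ)
    -- the module
    {Z : Type} [AddCommGroup Z] [Module 𝒪 Z] [Module.Finite 𝒪 Z] [Module.Free 𝒪 Z]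
    (emb : Z →ₗ[𝒪] s48h_Hpar 𝒪 (s48h_GammaH M H) 𝒪) (hemb : Function.Injective emb)
    (op : s59w_AIdx M → Module.End 𝒪 Z)
    (hop : ∀ j z, emb (op j z) = s59w_op H 𝒪 j (emb z))
    -- the rings
    (T' : Type) [CommRing T'] [IsLocalRing T'] [Algebra 𝒪 T']
    (T : Type) [CommRing T] [Algebra 𝒪 T] [Algebra T' T] [IsScalarTower 𝒪 T' T]
    (jT : T →ₐ[𝒪] Module.End 𝒪 Z)
    (hjTg : ∀ t, jT t ∈ Algebra.adjoin 𝒪 (Set.range op))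
    (Iχ : Ideal T) (hIχ : ∀ t, t ∈ Iχ ↔ jT t = 0) (hrad : Iχ.IsRadical)
    -- the Galois representation over `T'`
    (ρT : GaloisRepAdic T') (tr : ℕ → T')
    (htr : ∀ i : s59w_TIdx M, i.ell ∉ S → jT (algebraMap T' T (tr i.ell)) =
      op (Sum.inr (s59e_tau i ((p ^ e - 1) * m))) * op (Sum.inl i))
    (hfrob : ∀ ℓ : ℕ, ℓ.Prime → ℓ ∉ S → ∀ P' : ValuationSubring Qbar, P'.LiesOverPrime ℓ →
      ∀ σ : GQ, P'.IsFrobeniusAt σ ℓ →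
        LinearMap.charpoly (ρT.ρ σ) = X ^ 2 - C (tr ℓ) * X + C (ℓ : T'))
    (hcong : ∀ ℓ : ℕ, ℓ.Prime → ℓ ∉ S →
      tr ℓ - algebraMap 𝒪 T' ((W.apOfModel ℓ : ℤ) : 𝒪) ∈ maximalIdeal T')
    -- the Taylor–Wiles prime
    (q₀ : ℕ) (hq₀ : q₀ ∈ Q) (hq₀p : q₀ ≠ p) (hq₀5 : 5 ≤ q₀) (hq₀g : ¬ (q₀ : ℤ) ∣ W.Δ)
    (hq₀1 : (p : ℤ) ∣ (q₀ : ℤ) - 1) (hq₀TW : ¬ (p : ℤ) ∣ W.apOfModel q₀ ^ 2 - 4)
    (hunr : ρT.residual.IsUnramifiedAt q₀)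
    -- the square root of the diamond operator
    (uu : Tˣ) (τ₀ : Gamma0 M) (L₀ : ℕ) (hL₀ : M = L₀ * q₀)
    (hτ₀ : ZMod.unitsMap (hL₀ ▸ Dvd.intro q₀ rfl : L₀ ∣ M) (s59w_lrUnit τ₀) = 1)
    (huu : jT ((uu : Tˣ) : T) = op (Sum.inr τ₀)) :
    ∃ σ₀ : GQ, (∃ A : ValuationSubring Qbar, A.LiesOverPrime q₀ ∧ σ₀ ∈ A.inertiaSubgroupIn ℚ) ∧
      (((uu : Tˣ) : T) - ((uu⁻¹ : Tˣ) : T)) ^ 2 -
        algebraMap T' T (s59i_cpTr ρT σ₀ ^ 2 - 4) ∈ Iχ := by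
  classical
  have hIeq : Iχ = RingHom.ker jT := Ideal.ext fun t => by rw [hIχ, RingHom.mem_ker]
  subst hIeq
  obtain ⟨hq₀pr, hq₀N⟩ := hQ q₀ hq₀
  have hn0 : 0 < p ^ e := pow_pos hpP.out.pos e
  -- the inertia element
  have hcop : Nat.Coprime L₀ q₀ := by
    rw [hL₀] at hsq
    exact Nat.coprime_of_squarefree_mul hsq
  obtain ⟨A, hA⟩ := Fermat.Agent.Lib.Frobenius.exists_liesOverPrime q₀ hq₀pr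
  obtain ⟨σ₀, hσ₀I, hσ₀ε⟩ := s59m_epsM_inertia_surj' hL₀ hcop hq₀pr A hA (s59w_lrUnit τ₀ ^ 2)
    (by rw [map_pow, hτ₀, one_pow])
  refine ⟨σ₀, ⟨A, hA, hσ₀I⟩, ?_⟩
  have htr0 : s59i_cpTr ρT σ₀ = LinearMap.trace T' ρT.V (ρT.ρ σ₀) := s59e_L_cpTr_eq_trace ρT σ₀
  rw [htr0]
  refine s59m_mem_of_minimalPrimes _ hrad _ fun 𝔓 h𝔓 => ?_
  -- the point
  obtain ⟨𝒪', i1, i2, i3, i4, i5, i6, i7, i8, i9, x, θ, a, φ, hker, hφ0, hpar, hθH, hθn, hdia, heig,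
    hprod, hpure⟩ := s59m_eigenclass_of_minimalPrime_abs H hnm hn emb hemb op hop T jT hjTg 𝔓 h𝔓
  letI : Algebra ℤ_[p] 𝒪' := ((algebraMap 𝒪 𝒪').comp (algebraMap ℤ_[p] 𝒪)).toAlgebra
  haveI : IsScalarTower ℤ_[p] 𝒪 𝒪' := IsScalarTower.of_algebraMap_eq fun _ => rfl
  haveI : Module.Finite ℤ_[p] 𝒪' := Module.Finite.trans 𝒪 𝒪'
  have hp𝒪' : (p : 𝒪') ∈ maximalIdeal 𝒪' := by
    have h1 := map_nonunit (algebraMap 𝒪 𝒪') _ hp𝒪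
    rwa [map_natCast] at h1
  -- `θ ≡ 1`
  have hθ1 : ∀ d, ((θ d : 𝒪'ˣ) : 𝒪') - 1 ∈ maximalIdeal 𝒪' := by
    intro d
    have h1 : ((θ d : 𝒪'ˣ) : 𝒪') ^ (p ^ e) = 1 := by
      rw [← Units.val_pow_eq_pow_val, hθn, Units.val_one]
    have h2 := s59b_residue_one_of_pow p hp𝒪' _ e h1
    rw [← residue_eq_zero_iff, map_sub, h2, map_one, sub_self]
  -- `θ ^ (2k) = θ⁻¹`
  have hθinv : ∀ d, ((θ d : 𝒪'ˣ) : 𝒪') ^ (2 * ((p ^ e - 1) * m)) = (((θ d)⁻¹ : 𝒪'ˣ) : 𝒪') := by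
    intro d
    rw [← Units.val_pow_eq_pow_val]
    congr 1
    refine eq_inv_of_mul_eq_one_left ?_
    rw [← pow_succ, s59m_exp_aux hn0 hnm, pow_mul, hθn, one_pow]
  -- the point of `T'`
  let y : T' →ₐ[𝒪] 𝒪' := x.comp (IsScalarTower.toAlgHom 𝒪 T' T)
  have hy : IsLocalHom (y : T' →+* 𝒪') := s59e_isLocalHom_of_finite T' 𝒪' y
  have hyx : ∀ t : T', y t = x (algebraMap T' T t) := fun t => rfl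
  -- the index of a prime outside `S`
  have hℓM : ∀ ℓ : ℕ, ℓ.Prime → ℓ ∉ S → ¬ ℓ ∣ M := fun ℓ hℓ hℓS hd => hℓS (hMS ℓ hℓ hd)
  have hytr : ∀ ℓ : ℕ, ℓ.Prime → ℓ ∉ S → ∀ ℓu : (ZMod M)ˣ,
      ((ℓu : (ZMod M)ˣ) : ZMod M) = (ℓ : ZMod M) →
      y (tr ℓ) = (((θ ℓu)⁻¹ : 𝒪'ˣ) : 𝒪') * a ℓ := by
    intro ℓ hℓ hℓS ℓu hℓu
    let i : s59w_TIdx M := ⟨ℓ, hℓ, hℓM ℓ hℓ hℓS, (s59w_sig ℓu : SL(2, ℤ)), (s59w_sig ℓu).2, by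
      rw [← s59w_lrUnit_coe, s59w_sig_spec, hℓu]⟩
    have h1 := hprod (algebraMap T' T (tr ℓ)) i ((p ^ e - 1) * m) ℓu hℓu (htr i hℓS)
    rw [hyx, h1, hθinv]
  -- the representation at the point
  set ρ : GaloisRepAdic 𝒪' := ρT.baseChangeAlong (y : T' →+* 𝒪') hy with hρdef
  have hρ : ∀ ℓ : ℕ, ℓ.Prime → ℓ ∉ S → ∀ ℓu : (ZMod M)ˣ,
      ((ℓu : (ZMod M)ˣ) : ZMod M) = (ℓ : ZMod M) →
      ∀ P' : ValuationSubring Qbar, P'.LiesOverPrime ℓ → ∀ σ : GQ, P'.IsFrobeniusAt σ ℓ →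
        (ρ.ρ σ).charpoly = X ^ 2 - C ((((θ ℓu)⁻¹ : 𝒪'ˣ) : 𝒪') * a ℓ) * X + C (ℓ : 𝒪') := by
    intro ℓ hℓ hℓS ℓu hℓu P' hP' σ hσ
    rw [hρdef, s59e_bc_charpoly, hfrob ℓ hℓ hℓS P' hP' σ hσ, ← hytr ℓ hℓ hℓS ℓu hℓu]
    simp only [Polynomial.map_add, Polynomial.map_sub, Polynomial.map_mul, Polynomial.map_pow,
      Polynomial.map_X, Polynomial.map_C, map_natCast, Polynomial.map_natCast]
    rfl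
  -- the congruence of the eigenvalues
  have ha : ∀ ℓ : ℕ, ℓ.Prime → ℓ ∉ S →
      a ℓ - ((W.apOfModel ℓ : ℤ) : 𝒪') ∈ maximalIdeal 𝒪' := by
    intro ℓ hℓ hℓS
    have hcopℓ : Nat.Coprime ℓ M := (Nat.Prime.coprime_iff_not_dvd hℓ).mpr (hℓM ℓ hℓ hℓS)
    set ℓu : (ZMod M)ˣ := ZMod.unitOfCoprime ℓ hcopℓ with hℓudef
    have hℓu : ((ℓu : (ZMod M)ˣ) : ZMod M) = (ℓ : ZMod M) := ZMod.coe_unitOfCoprime ℓ hcopℓ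
    have h1 := hytr ℓ hℓ hℓS ℓu hℓu
    have h2 : a ℓ = ((θ ℓu : 𝒪'ˣ) : 𝒪') * y (tr ℓ) := by
      rw [h1, ← mul_assoc, ← Units.val_mul, mul_inv_cancel, Units.val_one, one_mul]
    have h3 : y (tr ℓ - algebraMap 𝒪 T' ((W.apOfModel ℓ : ℤ) : 𝒪)) ∈ maximalIdeal 𝒪' :=
      haveI := hy
      map_nonunit (y : T' →+* 𝒪') _ (hcong ℓ hℓ hℓS)
    rw [map_sub, AlgHom.commutes, map_intCast] at h3
    have h4 : a ℓ - ((W.apOfModel ℓ : ℤ) : 𝒪') =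
        ((θ ℓu : 𝒪'ˣ) : 𝒪') * (y (tr ℓ) - ((W.apOfModel ℓ : ℤ) : 𝒪')) +
          (((θ ℓu : 𝒪'ˣ) : 𝒪') - 1) * ((W.apOfModel ℓ : ℤ) : 𝒪') := by
      rw [h2]; ring
    rw [h4]
    exact Ideal.add_mem _ (Ideal.mul_mem_left _ _ h3) (Ideal.mul_mem_right _ _ (hθ1 ℓu))
  -- C8 at the point
  have hpgrp : ∀ u : (ZMod M)ˣ, ∃ n : ℕ, u ^ (p ^ n) ∈ H := fun u => ⟨e, hn u⟩
  have hC8 := s59e_W_C8_final_TW p hp5 W hΔ hirr M N Q hMeq hQ H hH hsq hM hneg h23 hpgrp 𝒪' hp𝒪' θ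
    hθH a φ hφ0 hpar hdia heig S hpS hMS hgood ha ρ hρ q₀ hq₀ hq₀p hq₀5 hq₀g hq₀1 hq₀TW A hA σ₀ hσ₀I
  rw [hσ₀ε, map_pow, Units.val_pow_eq_pow_val, hρdef, s59e_bc_trace] at hC8
  -- the values of the point
  set ξ : 𝒪' := ((θ (s59w_lrUnit τ₀) : 𝒪'ˣ) : 𝒪') with hξ
  have hxu : x ((uu : Tˣ) : T) = ξ ^ 2 := hpure _ τ₀ huu
  have hxw : ξ ^ 2 * x ((uu⁻¹ : Tˣ) : T) = 1 := by
    rw [← hxu, ← map_mul, ← Units.val_mul, mul_inv_cancel, Units.val_one, map_one]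
  have hξ0 : ξ ^ 4 ≠ 0 := pow_ne_zero 4 (Units.ne_zero _)
  rw [← hker, RingHom.mem_ker, map_sub, map_pow, map_sub, hxu, ← hyx, map_sub, map_pow, map_ofNat]
  refine mul_left_cancel₀ hξ0 ?_
  rw [mul_zero]
  have hC8' : ξ ^ 2 * (y (LinearMap.trace T' ρT.V (ρT.ρ σ₀))) = 1 + (ξ ^ 2) ^ 2 := hC8
  linear_combination (ξ ^ 2 * x ((uu⁻¹ : Tˣ) : T) + 1 - 2 * ξ ^ 4) * hxw -
    (ξ ^ 2 * y (LinearMap.trace T' ρT.V (ρT.ρ σ₀)) + 1 + ξ ^ 4) * hC8'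


section Main

variable {M : ℕ} [NeZero M] (H : Subgroup (ZMod M)ˣ)
  {𝒪 : Type} [CommRing 𝒪] [IsDomain 𝒪] [IsDiscreteValuationRing 𝒪]
  [IsAdicComplete (maximalIdeal 𝒪) 𝒪] [Finite (ResidueField 𝒪)] [CharZero 𝒪]
  {Y' : Type} [AddCommGroup Y'] [Module 𝒪 Y'] [Module.Finite 𝒪 Y']
  (j : Y' →ₗ[𝒪] s48h_Hpar 𝒪 (s48h_GammaH M H) 𝒪) (hj : Function.Injective j)
  (opY : s59w_AIdx M → Module.End 𝒪 Y')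
  (hopY : ∀ jdx y, j (opY jdx y) = s59w_op H 𝒪 jdx (j y))
  {Δ' : Type} [CommGroup Δ'] [Fintype Δ'] (ρ' : Δ' →* Module.End 𝒪 Y')
  (hρ' : ∀ δ, ∃ τ : Gamma0 M, ρ' δ = opY (Sum.inr τ))
  (C : Subgroup Δ') (χ' : Δ' →* 𝒪ˣ)
  {T : Type} [CommRing T] [Algebra 𝒪 T] [Module T Y'] [IsScalarTower 𝒪 T Y']
  (hTρ : ∀ (t : T) (δ : Δ') (y : Y'), t • ρ' δ y = ρ' δ (t • y))

include hj hopY hρ' in
/-- **`hC8` for `Iχ = Ann_T(eig_{C,χ'}(Y'))`.** -/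
theorem s59e_L_hC8_eig (p : ℕ) [hpP : Fact p.Prime] (hp5 : 5 ≤ p) (W : WeierstrassCurve ℤ)
    (hΔ : W.Δ ≠ 0) (hirr : W.ModRepIsIrreducible p)
    (N : ℕ) [NeZero N] (Q : Finset ℕ)
    (hMeq : M = N * ∏ q ∈ Q, q) (hQ : ∀ q ∈ Q, q.Prime ∧ ¬ q ∣ N)
    (hH : ∀ (x : ℤ) (u : (ZMod M)ˣ), ((x : ℤ) : ZMod (∏ q ∈ Q, q)) = 1 →
      ((u : (ZMod M)ˣ) : ZMod M) = ((x : ℤ) : ZMod M) → u ∈ H)
    (hsq : Squarefree M) (hM : 1 < M) (hneg : (-1 : (ZMod M)ˣ) ∈ H) (h23 : 2 ∣ M ∨ 3 ∣ M)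
    {e m : ℕ} (hnm : 2 * m = p ^ e + 1) (hn : ∀ u : (ZMod M)ˣ, u ^ (p ^ e) ∈ H)
    [Algebra ℤ_[p] 𝒪] [Module.Finite ℤ_[p] 𝒪]
    (hp𝒪 : (p : 𝒪) ∈ maximalIdeal 𝒪)
    (S : Finset ℕ) (hpS : p ∈ S) (hMS : ∀ r : ℕ, r.Prime → r ∣ M → r ∈ S)
    (hgood : ∀ ℓ : ℕ, ℓ.Prime → ℓ ∉ S → W.IsGoodPrimeFor ℓ)
    -- `T` acts through `𝒪[opY]`
    (hTg : ∀ t : T, ∃ x ∈ Algebra.adjoin 𝒪 (Set.range opY), ∀ y : Y', t • y = x y)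
    (hrad : (Module.annihilator T (s59t_EigT ρ' C χ' hTρ)).IsRadical)
    -- the trace ring and its Galois representation
    (T' : Type) [CommRing T'] [IsLocalRing T'] [Algebra 𝒪 T'] [Algebra T' T] [IsScalarTower 𝒪 T' T]
    (ρT : GaloisRepAdic T') (tr : ℕ → T')
    (htr : ∀ i : s59w_TIdx M, i.ell ∉ S → ∀ y : Y', algebraMap T' T (tr i.ell) • y =
      opY (Sum.inr (s59e_tau i ((p ^ e - 1) * m))) (opY (Sum.inl i) y))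
    (hfrob : ∀ ℓ : ℕ, ℓ.Prime → ℓ ∉ S → ∀ P' : ValuationSubring Qbar, P'.LiesOverPrime ℓ →
      ∀ σ : GQ, P'.IsFrobeniusAt σ ℓ →
        LinearMap.charpoly (ρT.ρ σ) = X ^ 2 - Polynomial.C (tr ℓ) * X + Polynomial.C (ℓ : T'))
    (hcong : ∀ ℓ : ℕ, ℓ.Prime → ℓ ∉ S →
      tr ℓ - algebraMap 𝒪 T' ((W.apOfModel ℓ : ℤ) : 𝒪) ∈ maximalIdeal T')
    -- the Taylor–Wiles prime
    (q₀ : ℕ) (hq₀ : q₀ ∈ Q) (hq₀p : q₀ ≠ p) (hq₀5 : 5 ≤ q₀) (hq₀g : ¬ (q₀ : ℤ) ∣ W.Δ)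
    (hq₀1 : (p : ℤ) ∣ (q₀ : ℤ) - 1) (hq₀TW : ¬ (p : ℤ) ∣ W.apOfModel q₀ ^ 2 - 4)
    (hunr : ρT.residual.IsUnramifiedAt q₀)
    -- the square root of the diamond operator
    (uu : Tˣ) (τ₀ : Gamma0 M) (L₀ : ℕ) (hL₀ : M = L₀ * q₀)
    (hτ₀ : ZMod.unitsMap (hL₀ ▸ Dvd.intro q₀ rfl : L₀ ∣ M) (s59w_lrUnit τ₀) = 1)
    (huu : ∀ y : Y', ((uu : Tˣ) : T) • y = opY (Sum.inr τ₀) y) :
    ∃ σ₀ : GQ, (∃ A : ValuationSubring Qbar, A.LiesOverPrime q₀ ∧ σ₀ ∈ A.inertiaSubgroupIn ℚ) ∧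
      (((uu : Tˣ) : T) - ((uu⁻¹ : Tˣ) : T)) ^ 2 -
        algebraMap T' T (s59i_cpTr ρT σ₀ ^ 2 - 4) ∈
        Module.annihilator T (s59t_EigT ρ' C χ' hTρ) := by
  classical
  haveI : IsNoetherian 𝒪 Y' := isNoetherian_of_isNoetherianRing_of_finite 𝒪 Y'
  haveI : Module.Finite 𝒪 (s59t_EigT ρ' C χ' hTρ) :=
    (inferInstance : Module.Finite 𝒪 (s59t_eig ρ' C χ'))
  -- the embedding
  let emb : s59t_EigT ρ' C χ' hTρ →ₗ[𝒪] s48h_Hpar 𝒪 (s48h_GammaH M H) 𝒪 :=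
    j ∘ₗ s59t_EigT_val ρ' C χ' hTρ
  have hemb : Function.Injective emb :=
    hj.comp (s59t_EigT_val_injective ρ' C χ' hTρ)
  haveI : Module.Free 𝒪 (s59t_EigT ρ' C χ' hTρ) := s59m_free_of_emb H emb hemb
  have hop : ∀ jdx z, emb (s59m_opZ H j hj opY hopY ρ' hρ' C χ' hTρ jdx z) =
      s59w_op H 𝒪 jdx (emb z) := fun jdx z => hopY jdx _
  -- the action of `T`
  let jT : T →ₐ[𝒪] Module.End 𝒪 (s59t_EigT ρ' C χ' hTρ) :=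
    Algebra.lsmul 𝒪 𝒪 (s59t_EigT ρ' C χ' hTρ)
  have hjT : ∀ (t : T) (z : s59t_EigT ρ' C χ' hTρ), jT t z = t • z := fun t z => rfl
  have hjTg : ∀ t, jT t ∈ Algebra.adjoin 𝒪
      (Set.range (s59m_opZ H j hj opY hopY ρ' hρ' C χ' hTρ)) := by
    intro t
    obtain ⟨x, hx, hxt⟩ := hTg t
    obtain ⟨hst, hmem⟩ := s59m_restrict_mem_adjoin (s59t_eig ρ' C χ') opY
      (s59m_opY_mem_eig H j hj opY hopY ρ' hρ' C χ') hx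
    have e : jT t = (x.restrict hst : Module.End 𝒪 (s59t_eig ρ' C χ')) := by
      refine LinearMap.ext fun z => s59t_EigT_val_injective ρ' C χ' hTρ ?_
      rw [hjT, s59t_EigT_val_smul, hxt]
      rfl
    rw [e]
    exact hmem
  have hIχ : ∀ t, t ∈ Module.annihilator T (s59t_EigT ρ' C χ' hTρ) ↔ jT t = 0 := by
    intro t
    rw [Module.mem_annihilator]
    constructor
    · intro h
      exact LinearMap.ext fun z => h z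
    · intro h z
      have := LinearMap.congr_fun h z
      rwa [hjT] at this
  refine s59e_L_hC8_abs (Z := s59t_EigT ρ' C χ' hTρ) p hp5 W hΔ hirr M N Q hMeq hQ H hH hsq hM hneg
    h23 hnm hn 𝒪 hp𝒪 S hpS hMS hgood emb hemb (s59m_opZ H j hj opY hopY ρ' hρ' C χ' hTρ) hop T' T jT
    hjTg _ hIχ hrad ρT tr ?_ hfrob hcong q₀ hq₀ hq₀p hq₀5 hq₀g hq₀1 hq₀TW hunr uu τ₀ L₀ hL₀ hτ₀ ?_
  · intro i hi
    refine LinearMap.ext fun z => s59t_EigT_val_injective ρ' C χ' hTρ ?_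
    rw [hjT, s59t_EigT_val_smul, htr i hi, Module.End.mul_apply, s59m_opZ_val, s59m_opZ_val]
  · refine LinearMap.ext fun z => s59t_EigT_val_injective ρ' C χ' hTρ ?_
    rw [hjT, s59t_EigT_val_smul, huu, s59m_opZ_val]

end Main

section Dia

variable {M : ℕ} [NeZero M] (H : Subgroup (ZMod M)ˣ)
  {𝒪 : Type} [CommRing 𝒪] [IsDomain 𝒪] [IsDiscreteValuationRing 𝒪]
  [IsAdicComplete (maximalIdeal 𝒪) 𝒪] [Finite (ResidueField 𝒪)] [CharZero 𝒪]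
  {Y' : Type} [AddCommGroup Y'] [Module 𝒪 Y'] [Module.Finite 𝒪 Y']
  (j : Y' →ₗ[𝒪] s48h_Hpar 𝒪 (s48h_GammaH M H) 𝒪) (hj : Function.Injective j)
  (opY : s59w_AIdx M → Module.End 𝒪 Y')
  (hopY : ∀ jdx y, j (opY jdx y) = s59w_op H 𝒪 jdx (j y))
  {Δ' : Type} [CommGroup Δ'] [Fintype Δ'] (ρ' : Δ' →* Module.End 𝒪 Y')
  (hρ' : ∀ δ, ∃ τ : Gamma0 M, ρ' δ = opY (Sum.inr τ))
  (Bq Cs : Subgroup Δ') (χ' : Δ' →* 𝒪ˣ)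
  {T : Type} [CommRing T] [Algebra 𝒪 T] [Module T Y'] [IsScalarTower 𝒪 T Y']
  (hTρ : ∀ (t : T) (δ : Δ') (y : Y'), t • ρ' δ y = ρ' δ (t • y))
  (dia : Bq →* T) (hdia : ∀ (β : Bq) (y : Y'), ρ' (β : Δ') y = dia β • y)

include hj hopY hρ' hdia in
/-- **`hC8`, abstract rings, in the form of `s59e_TLevel_abs`.** -/
theorem s59e_L_hC8_dia (p : ℕ) [hpP : Fact p.Prime] (hp5 : 5 ≤ p) (W : WeierstrassCurve ℤ)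
    (hΔ : W.Δ ≠ 0) (hirr : W.ModRepIsIrreducible p)
    (N : ℕ) [NeZero N] (Q : Finset ℕ)
    (hMeq : M = N * ∏ q ∈ Q, q) (hQ : ∀ q ∈ Q, q.Prime ∧ ¬ q ∣ N)
    (hH : ∀ (x : ℤ) (u : (ZMod M)ˣ), ((x : ℤ) : ZMod (∏ q ∈ Q, q)) = 1 →
      ((u : (ZMod M)ˣ) : ZMod M) = ((x : ℤ) : ZMod M) → u ∈ H)
    (hsq : Squarefree M) (hM : 1 < M) (hneg : (-1 : (ZMod M)ˣ) ∈ H) (h23 : 2 ∣ M ∨ 3 ∣ M)
    {e m : ℕ} (hnm : 2 * m = p ^ e + 1) (hn : ∀ u : (ZMod M)ˣ, u ^ (p ^ e) ∈ H)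
    [Algebra ℤ_[p] 𝒪] [Module.Finite ℤ_[p] 𝒪]
    (hp𝒪 : (p : 𝒪) ∈ maximalIdeal 𝒪)
    (S : Finset ℕ) (hpS : p ∈ S) (hMS : ∀ r : ℕ, r.Prime → r ∣ M → r ∈ S)
    (hgood : ∀ ℓ : ℕ, ℓ.Prime → ℓ ∉ S → W.IsGoodPrimeFor ℓ)
    (hTg : ∀ t : T, ∃ x ∈ Algebra.adjoin 𝒪 (Set.range opY), ∀ y : Y', t • y = x y)
    (hrad : (Module.annihilator T (s59t_EigT ρ' Cs χ' hTρ)).IsRadical)
    (T' : Type) [CommRing T'] [IsLocalRing T'] [Algebra 𝒪 T'] [Algebra T' T] [IsScalarTower 𝒪 T' T]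
    (ρT : GaloisRepAdic T') (tr : ℕ → T')
    (htr : ∀ i : s59w_TIdx M, i.ell ∉ S → ∀ y : Y', algebraMap T' T (tr i.ell) • y =
      opY (Sum.inr (s59e_tau i ((p ^ e - 1) * m))) (opY (Sum.inl i) y))
    (hfrob : ∀ ℓ : ℕ, ℓ.Prime → ℓ ∉ S → ∀ P' : ValuationSubring Qbar, P'.LiesOverPrime ℓ →
      ∀ σ : GQ, P'.IsFrobeniusAt σ ℓ →
        LinearMap.charpoly (ρT.ρ σ) = X ^ 2 - Polynomial.C (tr ℓ) * X + Polynomial.C (ℓ : T'))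
    (hcong : ∀ ℓ : ℕ, ℓ.Prime → ℓ ∉ S →
      tr ℓ - algebraMap 𝒪 T' ((W.apOfModel ℓ : ℤ) : 𝒪) ∈ maximalIdeal T')
    (q₀ : ℕ) (hq₀ : q₀ ∈ Q) (hq₀p : q₀ ≠ p) (hq₀5 : 5 ≤ q₀) (hq₀g : ¬ (q₀ : ℤ) ∣ W.Δ)
    (hq₀1 : (p : ℤ) ∣ (q₀ : ℤ) - 1) (hq₀TW : ¬ (p : ℤ) ∣ W.apOfModel q₀ ^ 2 - 4)
    (hunr : ρT.residual.IsUnramifiedAt q₀)
    (β : Bq) (τ₀ : Gamma0 M) (hβ : ρ' (β : Δ') = opY (Sum.inr τ₀))
    (L₀ : ℕ) (hL₀ : M = L₀ * q₀)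
    (hτ₀ : ZMod.unitsMap (hL₀ ▸ Dvd.intro q₀ rfl : L₀ ∣ M) (s59w_lrUnit τ₀) = 1) :
    ∃ σ₀ : GQ, (∃ A : ValuationSubring Qbar, A.LiesOverPrime q₀ ∧ σ₀ ∈ A.inertiaSubgroupIn ℚ) ∧
      ((dia β : T) - (dia β⁻¹ : T)) ^ 2 - algebraMap T' T (s59i_cpTr ρT σ₀ ^ 2 - 4) ∈
        Module.annihilator T (s59t_EigT ρ' Cs χ' hTρ) := by
  let uu : Tˣ := ⟨dia β, dia β⁻¹, by rw [← map_mul, mul_inv_cancel, map_one],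
    by rw [← map_mul, inv_mul_cancel, map_one]⟩
  have huu : ∀ y : Y', ((uu : Tˣ) : T) • y = opY (Sum.inr τ₀) y := by
    intro y
    show dia β • y = _
    rw [← hdia, hβ]
  exact s59e_L_hC8_eig H j hj opY hopY ρ' hρ' Cs χ' hTρ p hp5 W hΔ hirr N Q hMeq hQ hH hsq hM hneg h23
    hnm hn hp𝒪 S hpS hMS hgood hTg hrad T' ρT tr htr hfrob hcong q₀ hq₀ hq₀p hq₀5 hq₀g hq₀1 hq₀TW hunr
    uu τ₀ L₀ hL₀ hτ₀ huu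

end Dia

section Descend

variable {M : ℕ} [NeZero M] (H : Subgroup (ZMod M)ˣ)
  {𝒪 : Type*} [CommRing 𝒪]
  {Y' : Type*} [AddCommGroup Y'] [Module 𝒪 Y']
  (j : Y' →ₗ[𝒪] s48h_Hpar 𝒪 (s48h_GammaH M H) 𝒪)
  (opY : s59w_AIdx M → Module.End 𝒪 Y')
  (hopY : ∀ jdx y, j (opY jdx y) = s59w_op H 𝒪 jdx (j y))

end Descend

section ERing

variable {M : ℕ} [NeZero M] (H : Subgroup (ZMod M)ˣ)
  {𝒪 : Type} [CommRing 𝒪] [IsDomain 𝒪] [IsDiscreteValuationRing 𝒪]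
  [IsAdicComplete (maximalIdeal 𝒪) 𝒪] [Finite (ResidueField 𝒪)] [CharZero 𝒪]
  {Y' : Type} [AddCommGroup Y'] [Module 𝒪 Y'] [Module.Finite 𝒪 Y']
  (j : Y' →ₗ[𝒪] s48h_Hpar 𝒪 (s48h_GammaH M H) 𝒪) (hj : Function.Injective j)
  (opY : s59w_AIdx M → Module.End 𝒪 Y')
  (hopY : ∀ jdx y, j (opY jdx y) = s59w_op H 𝒪 jdx (j y))
  {A : Type} [CommRing A] (a : A →+* Module.End 𝒪 (s48h_Hpar 𝒪 (s48h_GammaH M H) 𝒪)) (k : ℕ)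
  (ha : ∀ t, a t ∈ Subring.closure (Set.range (s59e_Tp' H 𝒪 k)))
  (aM : A →+* Module.End 𝒪 Y') (haM : ∀ t (z : Y'), j (aM t z) = a t (j z))
  {Δ' : Type} [CommGroup Δ'] [Fintype Δ'] (ρ' : Δ' →* Module.End 𝒪 Y')
  (hρ' : ∀ δ, ∃ τ : Gamma0 M, ρ' δ = opY (Sum.inr τ))
  (Bq Cs : Subgroup Δ') (χ' : Δ' →* 𝒪ˣ)
  (hcomm : ∀ (t : A) (β : Bq), Commute (aM t) ((ρ'.comp Bq.subtype) β))

include hj hopY ha haM hρ' in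
/-- **`hC8` for helper5's concrete rings** `T′ = s59e_adj 𝒪 aM`, `T = s59e_adj 𝒪 (s59e_aB aM ρB hcomm)`,
`ρB = ρ'|_{B_Q}`, `dia = s59e_dia aM ρB hcomm`, in the form of `s59e_TLevel_abs`. -/
theorem s59e_L_hC8_ERing [IsLocalRing (s59e_adj 𝒪 aM)]
    (hTρ : ∀ (t : s59e_adj 𝒪 (s59e_aB aM (ρ'.comp Bq.subtype) hcomm)) (δ : Δ') (y : Y'),
      t • ρ' δ y = ρ' δ (t • y))
    (p : ℕ) [hpP : Fact p.Prime] (hp5 : 5 ≤ p) (W : WeierstrassCurve ℤ)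
    (hΔ : W.Δ ≠ 0) (hirr : W.ModRepIsIrreducible p)
    (N : ℕ) [NeZero N] (Q : Finset ℕ)
    (hMeq : M = N * ∏ q ∈ Q, q) (hQ : ∀ q ∈ Q, q.Prime ∧ ¬ q ∣ N)
    (hH : ∀ (x : ℤ) (u : (ZMod M)ˣ), ((x : ℤ) : ZMod (∏ q ∈ Q, q)) = 1 →
      ((u : (ZMod M)ˣ) : ZMod M) = ((x : ℤ) : ZMod M) → u ∈ H)
    (hsq : Squarefree M) (hM : 1 < M) (hneg : (-1 : (ZMod M)ˣ) ∈ H) (h23 : 2 ∣ M ∨ 3 ∣ M)
    {e m : ℕ} (hnm : 2 * m = p ^ e + 1) (hn : ∀ u : (ZMod M)ˣ, u ^ (p ^ e) ∈ H)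
    (hk : k = (p ^ e - 1) * m)
    [Algebra ℤ_[p] 𝒪] [Module.Finite ℤ_[p] 𝒪]
    (hp𝒪 : (p : 𝒪) ∈ maximalIdeal 𝒪)
    (S : Finset ℕ) (hpS : p ∈ S) (hMS : ∀ r : ℕ, r.Prime → r ∣ M → r ∈ S)
    (hgood : ∀ ℓ : ℕ, ℓ.Prime → ℓ ∉ S → W.IsGoodPrimeFor ℓ)
    (hrad : (Module.annihilator (s59e_adj 𝒪 (s59e_aB aM (ρ'.comp Bq.subtype) hcomm))
      (s59t_EigT (T := s59e_adj 𝒪 (s59e_aB aM (ρ'.comp Bq.subtype) hcomm)) ρ' Cs χ' hTρ)).IsRadical)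
    (ρT : GaloisRepAdic (s59e_adj 𝒪 aM)) (tT' : ℕ → s59e_adj 𝒪 aM)
    (htT' : ∀ i : s59w_TIdx M, i.ell ∉ S → ∀ z : Y',
      j (((tT' i.ell : s59e_adj 𝒪 aM) : Module.End 𝒪 Y') z) = s59e_Tp' H 𝒪 k i (j z))
    (hfrob : ∀ ℓ : ℕ, ℓ.Prime → ℓ ∉ S → ∀ P' : ValuationSubring Qbar, P'.LiesOverPrime ℓ →
      ∀ σ : GQ, P'.IsFrobeniusAt σ ℓ →
        LinearMap.charpoly (ρT.ρ σ) =
          X ^ 2 - Polynomial.C (tT' ℓ) * X + Polynomial.C (ℓ : s59e_adj 𝒪 aM))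
    (hcong : ∀ ℓ : ℕ, ℓ.Prime → ℓ ∉ S →
      tT' ℓ - algebraMap 𝒪 (s59e_adj 𝒪 aM) ((W.apOfModel ℓ : ℤ) : 𝒪) ∈
        maximalIdeal (s59e_adj 𝒪 aM))
    (q₀ : ℕ) (hq₀ : q₀ ∈ Q) (hq₀p : q₀ ≠ p) (hq₀5 : 5 ≤ q₀) (hq₀g : ¬ (q₀ : ℤ) ∣ W.Δ)
    (hq₀1 : (p : ℤ) ∣ (q₀ : ℤ) - 1) (hq₀TW : ¬ (p : ℤ) ∣ W.apOfModel q₀ ^ 2 - 4)
    (hunr : ρT.residual.IsUnramifiedAt q₀)
    (β : Bq) (τ₀ : Gamma0 M) (hβ : ρ' (β : Δ') = opY (Sum.inr τ₀))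
    (L₀ : ℕ) (hL₀ : M = L₀ * q₀)
    (hτ₀ : ZMod.unitsMap (hL₀ ▸ Dvd.intro q₀ rfl : L₀ ∣ M) (s59w_lrUnit τ₀) = 1) :
    letI := s59e_algTT (𝒪 := 𝒪) aM (ρ'.comp Bq.subtype) hcomm
    ∃ σ₀ : GQ, (∃ A : ValuationSubring Qbar, A.LiesOverPrime q₀ ∧ σ₀ ∈ A.inertiaSubgroupIn ℚ) ∧
      ((s59e_dia (𝒪 := 𝒪) aM (ρ'.comp Bq.subtype) hcomm β :
          s59e_adj 𝒪 (s59e_aB aM (ρ'.comp Bq.subtype) hcomm)) -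
        (s59e_dia (𝒪 := 𝒪) aM (ρ'.comp Bq.subtype) hcomm β⁻¹ :
          s59e_adj 𝒪 (s59e_aB aM (ρ'.comp Bq.subtype) hcomm))) ^ 2 -
        algebraMap (s59e_adj 𝒪 aM) (s59e_adj 𝒪 (s59e_aB aM (ρ'.comp Bq.subtype) hcomm))
          (s59i_cpTr ρT σ₀ ^ 2 - 4) ∈
        Module.annihilator (s59e_adj 𝒪 (s59e_aB aM (ρ'.comp Bq.subtype) hcomm))
          (s59t_EigT (T := s59e_adj 𝒪 (s59e_aB aM (ρ'.comp Bq.subtype) hcomm)) ρ' Cs χ' hTρ) := by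
  letI := s59e_algTT (𝒪 := 𝒪) aM (ρ'.comp Bq.subtype) hcomm
  haveI := s59e_towerTT (𝒪 := 𝒪) aM (ρ'.comp Bq.subtype) hcomm
  subst hk
  refine s59e_L_hC8_dia H j hj opY hopY ρ' hρ' Bq Cs χ' hTρ
    (s59e_dia (𝒪 := 𝒪) aM (ρ'.comp Bq.subtype) hcomm) (fun β y => rfl) p hp5 W hΔ hirr N Q hMeq hQ
    hH hsq hM hneg h23 hnm hn hp𝒪 S hpS hMS hgood ?_ hrad (s59e_adj 𝒪 aM) ρT tT' ?_ hfrob hcong q₀ hq₀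
    hq₀p hq₀5 hq₀g hq₀1 hq₀TW hunr β τ₀ hβ L₀ hL₀ hτ₀
  · intro t
    exact ⟨(t : Module.End 𝒪 Y'),
      s59m_adjB_le_adjoin H j hj opY hopY a _ ha aM haM ρ' hρ' Bq hcomm t.2, fun y => rfl⟩
  · intro i hi y
    apply hj
    have h1 : algebraMap (s59e_adj 𝒪 aM) (s59e_adj 𝒪 (s59e_aB aM (ρ'.comp Bq.subtype) hcomm))
        (tT' i.ell) • y = ((tT' i.ell : s59e_adj 𝒪 aM) : Module.End 𝒪 Y') y := by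
      rw [s59e_smul_def, s59e_algTT_coe]
    rw [h1, htT' i hi y, hopY, hopY]
    rfl

end ERing

end Fermat.Agent.Lib.S59
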