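/-
Programme R2 (S59), p = 3 port of the `T`-side (helper5), file 10: **[C8] for the FLAT Taylor–Wiles levels, package forms, EVEN LEVEL, ANY ODD `p`** — copy of ELC8b
(`s59e_L_hC8_TPkg`, `s59e_L_hC8_level`) with `5 ≤ p` replaced by `p ≠ 2` and `2 ∣ M ∨ 3 ∣ M` by `2 ∣ M` (prefix `s59e3e_`; generated from the original).
-/
import Mathlib
import Fermat.Agent.Lib.S59.ELC8a
import Fermat.Agent.Lib.S59.EWC8d
import Fermat.Agent.Lib.S59.ETGal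
import Fermat.Agent.Lib.S59.ELC8b
import Fermat.Agent.Lib.S59.E3LC8a
import Fermat.Agent.Lib.S59.E3LC8a
import Fermat.Agent.Lib.S59.E3Aux

set_option autoImplicit false
set_option linter.unusedSectionVars false
set_option linter.unusedVariables false
set_option linter.style.haveILetI false
set_option synthInstance.maxHeartbeats 400000
set_option maxSynthPendingDepth 3
set_option maxHeartbeats 4000000

noncomputable section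

namespace Fermat.Agent.Lib.S59

open Fermat.Agent.Lib.S29 Fermat.Agent.Lib.S30 Fermat.Agent.Lib.S48 Fermat.Agent.Lib.PT
open WeierstrassCurve WeierstrassCurve.Affine IsLocalRing TensorProduct Polynomial
open CongruenceSubgroup ModularCurve.Period
open scoped MatrixGroups

local notation "Qbar" => AlgebraicClosure ℚ
local notation "GQ" => (AlgebraicClosure ℚ ≃ₐ[ℚ] AlgebraicClosure ℚ)

section TP

variable {M : ℕ} [NeZero M] (H : Subgroup (ZMod M)ˣ)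
  {𝒪 : Type} [CommRing 𝒪] [IsDomain 𝒪] [IsDiscreteValuationRing 𝒪]
  [IsAdicComplete (maximalIdeal 𝒪) 𝒪] [Finite (ResidueField 𝒪)] [CharZero 𝒪]
  {Y' : Type} [AddCommGroup Y'] [Module 𝒪 Y'] [Module.Finite 𝒪 Y']
  (j : Y' →ₗ[𝒪] s48h_Hpar 𝒪 (s48h_GammaH M H) 𝒪) (hj : Function.Injective j)
  (opY : s59w_AIdx M → Module.End 𝒪 Y')
  (hopY : ∀ jdx y, j (opY jdx y) = s59w_op H 𝒪 jdx (j y))
  {A : Type} [CommRing A] (a : A →+* Module.End 𝒪 (s48h_Hpar 𝒪 (s48h_GammaH M H) 𝒪)) (k : ℕ)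
  (ha : ∀ t, a t ∈ Subring.closure (Set.range (s59e_Tp' H 𝒪 k)))
  (aM : A →+* Module.End 𝒪 Y') (haM : ∀ t (z : Y'), j (aM t z) = a t (j z))
  {Δ' : Type} [CommGroup Δ'] [Fintype Δ'] (ρ' : Δ' →* Module.End 𝒪 Y')
  (hρ' : ∀ δ, ∃ τ : Gamma0 M, ρ' δ = opY (Sum.inr τ))
  (Bq Cs : Subgroup Δ') (χ' : Δ' →* 𝒪ˣ)
  (hcomm : ∀ (t : A) (β : Bq), Commute (aM t) ((ρ'.comp Bq.subtype) β))

include hj hopY ha haM hρ' in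
/-- **`hC8` of `s59e_TLevel_abs` in the `s59i_TPkg` context.** -/
theorem s59e3e_L_hC8_TPkg [IsLocalRing (s59e_adj 𝒪 aM)]
    (hTρ : ∀ (t : s59e_adj 𝒪 (s59e_aB aM (ρ'.comp Bq.subtype) hcomm)) (δ : Δ') (y : Y'),
      t • ρ' δ y = ρ' δ (t • y))
    -- the Frey curve
    (p : ℕ) [hpP : Fact p.Prime] (hp2 : p ≠ 2) (W : WeierstrassCurve ℤ) (hΔ : W.Δ ≠ 0)
    (hirr : W.ModRepIsIrreducible p)
    (B : Finset ℕ) (hpB : p ∈ B)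
    (hB2 : ∀ r : ℕ, r.Prime → ¬ W.IsGoodPrimeFor r → r ∈ B)
    -- the numerology of the level (as `s59e_H3'`; helper1's KLvlFin)
    (N : ℕ) [NeZero N] (Q : Finset ℕ)
    (hMeq : M = N * ∏ q ∈ Q, q) (hQ : ∀ q ∈ Q, q.Prime ∧ ¬ q ∣ N)
    {D : ℕ} (hDQ : D = ∏ q ∈ Q, q) (hD : D ∣ M) (hH : s59u_ker M D hD ≤ H)
    (hsq : Squarefree M) (h23 : 2 ∣ M) (hneg : (-1 : (ZMod M)ˣ) ∈ H)
    {e m : ℕ} (hnm : 2 * m = p ^ e + 1) (hn : ∀ u : (ZMod M)ˣ, u ^ (p ^ e) ∈ H)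
    (hk : k = (p ^ e - 1) * m)
    [Algebra ℤ_[p] 𝒪] [Module.Finite ℤ_[p] 𝒪]
    (hp𝒪 : ((p : ℕ) : 𝒪) ∈ maximalIdeal 𝒪)
    (S : Finset ℕ) (hBS : B ⊆ S) (hMS : ∀ r : ℕ, r.Prime → r ∣ M → r ∈ S)
    -- the Galois side
    {𝒟 : ∀ ⦃A : Type⦄ [CommRing A] [IsLocalRing A] [Algebra 𝒪 A], GaloisRepAdic A → Prop}
    (DQ : GaloisRep.DeformationRingData 𝒪 (s59i_rhobarW W p hΔ 𝒪 hp𝒪) 𝒟)
    (θ : DQ.R →ₐ[𝒪] s59e_adj 𝒪 aM) (hθ : Function.Surjective θ)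
    (tT' : ℕ → s59e_adj 𝒪 aM)
    (htT' : ∀ i : s59w_TIdx M, i.ell ∉ S → ∀ z : Y',
      j (((tT' i.ell : s59e_adj 𝒪 aM) : Module.End 𝒪 Y') z) = s59e_Tp' H 𝒪 k i (j z))
    (hfrobT : ∀ ℓ : ℕ, ℓ.Prime → ℓ ∉ S →
      ∀ A : ValuationSubring (AlgebraicClosure ℚ), A.LiesOverPrime ℓ →
      ∀ τ : GQ, A.IsFrobeniusAt τ ℓ →
        (LinearMap.charpoly (DQ.ρ.ρ τ)).map (θ : DQ.R →+* s59e_adj 𝒪 aM) =
          Polynomial.X ^ 2 - Polynomial.C (tT' ℓ) * Polynomial.X +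
            Polynomial.C ((ℓ : s59e_adj 𝒪 aM)))
    (hcong : ∀ ℓ : ℕ, ℓ.Prime → ℓ ∉ S →
      tT' ℓ - algebraMap 𝒪 (s59e_adj 𝒪 aM) ((W.apOfModel ℓ : ℤ) : 𝒪) ∈
        maximalIdeal (s59e_adj 𝒪 aM))
    -- the Taylor–Wiles primes (binders of `s59i_TPkg`)
    (n : ℕ) {r : ℕ} (qv : Fin r → ℕ)
    (hqv : ∀ i, (qv i).Prime ∧ qv i ∉ B ∧ p ^ (n + 1) ∣ qv i - 1)
    (hqvQ : ∀ i, qv i ∈ Q)
    (hTW : ∀ i, ∀ A : ValuationSubring (AlgebraicClosure ℚ), A.LiesOverPrime (qv i) →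
      ∀ φ : GQ, A.IsFrobeniusAt φ (qv i) →
        ∃ α β : ResidueField 𝒪, α ≠ β ∧
          LinearMap.charpoly ((s59i_rhobarW W p hΔ 𝒪 hp𝒪).ρ φ) = (X - C α) * (X - C β))
    -- the local generators of `B_Q`
    (g : Fin r → Bq)
    (hgl : ∀ i, ∃ (τ₀ : Gamma0 M) (L₀ : ℕ) (hL₀ : M = L₀ * qv i),
      ρ' ((s59t_hh p n g i : Bq) : Δ') = opY (Sum.inr τ₀) ∧
      ZMod.unitsMap (hL₀ ▸ Dvd.intro (qv i) rfl : L₀ ∣ M) (s59w_lrUnit τ₀) = 1) :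
    letI := s59e_algTT (𝒪 := 𝒪) aM (ρ'.comp Bq.subtype) hcomm
    ∀ i, ∃ σ₀ : GQ,
      (∃ A : ValuationSubring Qbar, A.LiesOverPrime (qv i) ∧ σ₀ ∈ A.inertiaSubgroupIn ℚ) ∧
      ((s59e_dia (𝒪 := 𝒪) aM (ρ'.comp Bq.subtype) hcomm (s59t_hh p n g i) :
          s59e_adj 𝒪 (s59e_aB aM (ρ'.comp Bq.subtype) hcomm)) -
        (s59e_dia (𝒪 := 𝒪) aM (ρ'.comp Bq.subtype) hcomm (s59t_hh p n g i)⁻¹ :
          s59e_adj 𝒪 (s59e_aB aM (ρ'.comp Bq.subtype) hcomm))) ^ 2 -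
        algebraMap (s59e_adj 𝒪 aM) (s59e_adj 𝒪 (s59e_aB aM (ρ'.comp Bq.subtype) hcomm))
          (θ (s59i_cpTr DQ.ρ σ₀ ^ 2 - 4)) ∈
        Module.annihilator (s59e_adj 𝒪 (s59e_aB aM (ρ'.comp Bq.subtype) hcomm))
          (s59t_EigT (T := s59e_adj 𝒪 (s59e_aB aM (ρ'.comp Bq.subtype) hcomm)) ρ' Cs χ' hTρ) := by
  intro i
  have hp2 : p ≠ 2 := by omega
  have hmodirr : W.ModRepIsIrreducible p := hirr
  have hgoodB : ∀ q : ℕ, q.Prime → q ∉ B → W.IsGoodPrimeFor q := by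
    intro q hq' hqB'
    by_contra hbad
    exact hqB' (hB2 q hq' hbad)
  have hgood : ∀ ℓ : ℕ, ℓ.Prime → ℓ ∉ S → W.IsGoodPrimeFor ℓ :=
    fun ℓ hℓ hℓS => hgoodB ℓ hℓ fun h => hℓS (hBS h)
  obtain ⟨hqi, hqiB, hqidvd⟩ := hqv i
  have hqip : qv i ≠ p := fun h => hqiB (h ▸ hpB)
  have hqig : ¬ ((qv i : ℕ) : ℤ) ∣ W.Δ := hgoodB (qv i) hqi hqiB
  have hqi1 : (p : ℤ) ∣ ((qv i : ℕ) : ℤ) - 1 := s59m_int_dvd_sub_one hqi hqidvd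
  have hqiTW : ¬ (p : ℤ) ∣ W.apOfModel (qv i) ^ 2 - 4 :=
    s59m_TW_bridge_all hΔ hp2 hmodirr (algebraMap ℤ_[p] 𝒪) (s59b_isLocalHom_padic p _ hp𝒪)
      (qv i) hqi hqig hqip hqi1 (hTW i)
  -- the Galois representation over `T′`
  have hθl : IsLocalHom (θ : DQ.R →+* s59e_adj 𝒪 aM) := IsLocalHom.of_surjective _ hθ
  have hfrob : ∀ ℓ : ℕ, ℓ.Prime → ℓ ∉ S → ∀ P' : ValuationSubring Qbar, P'.LiesOverPrime ℓ →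
      ∀ σ : GQ, P'.IsFrobeniusAt σ ℓ →
        LinearMap.charpoly ((DQ.ρ.baseChangeAlong (θ : DQ.R →+* s59e_adj 𝒪 aM) hθl).ρ σ) =
          X ^ 2 - Polynomial.C (tT' ℓ) * X + Polynomial.C (ℓ : s59e_adj 𝒪 aM) := by
    intro ℓ hℓ hℓS P' hP' σ hσ
    rw [s59e_bc_charpoly]
    exact hfrobT ℓ hℓ hℓS P' hP' σ hσ
  have hunr : (DQ.ρ.baseChangeAlong (θ : DQ.R →+* s59e_adj 𝒪 aM) hθl).residual.IsUnramifiedAt
      (qv i) :=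
    s59b_bc_residual_unram _ hθl DQ.ρ (qv i)
      (s59b_DQ_residual_unram DQ (qv i) (s59e_rhobarW_unram_good hΔ hp2 hp𝒪 (qv i) hqi hqip (hgoodB (qv i) hqi hqiB)))
  -- radicality
  have hρB : ∀ β : Bq, ∃ τ : Gamma0 M, ∀ z : Y',
      j ((ρ'.comp Bq.subtype) β z) = s59w_op H 𝒪 (Sum.inr τ) (j z) := by
    intro β
    obtain ⟨τ, hτ⟩ := hρ' (β : Δ')
    refine ⟨τ, fun z => ?_⟩
    have e1 : (ρ'.comp Bq.subtype) β = opY (Sum.inr τ) := hτ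
    rw [e1, hopY]
  have hrad := s59u_hrad_final_T N Q H 𝒪 j a k ha aM haM (ρ'.comp Bq.subtype) hρB hcomm ρ' Cs χ'
    hTρ hj hQ hMeq hDQ hD hH hnm hn
  have hM1 : 1 < M := by
    have := Nat.le_of_dvd (Nat.pos_of_ne_zero (NeZero.ne M)) h23
    omega
  obtain ⟨τ₀, L₀, hL₀, hβ, hτ₀⟩ := hgl i
  obtain ⟨σ₀, hσ₀, hfin⟩ := s59e3e_L_hC8_ERing H j hj opY hopY a k ha aM haM ρ' hρ' Bq Cs χ' hcomm hTρ p hp2 W hΔ hirr N Q hMeq hQ (fun x u hx hu => s59m_hH_of_ker hD hH x u (hDQ ▸ hx) hu) hsq hM1 hneg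
    h23 hnm hn hk hp𝒪 S (hBS hpB) hMS hgood hrad
    (DQ.ρ.baseChangeAlong (θ : DQ.R →+* s59e_adj 𝒪 aM) hθl) tT' htT' hfrob hcong (qv i) (hqvQ i)
    hqip (s59e3_five_le_of_pow_dvd hpP.out hp2 hqi hqidvd) hqig hqi1 hqiTW hunr (s59t_hh p n g i) τ₀ hβ
    L₀ hL₀ hτ₀
  refine ⟨σ₀, hσ₀, ?_⟩
  rw [s59e_cpTr_map, RingHom.coe_coe] at hfin
  rw [map_sub, map_pow, map_ofNat]
  exact hfin

end TP

section PartTP

variable {M : ℕ} [NeZero M] (H : Subgroup (ZMod M)ˣ)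
  {𝒪 : Type} [CommRing 𝒪] [IsDomain 𝒪] [IsDiscreteValuationRing 𝒪]
  [IsAdicComplete (maximalIdeal 𝒪) 𝒪] [Finite (ResidueField 𝒪)] [CharZero 𝒪]
  (ε' : Module.End 𝒪 (s48h_Hpar 𝒪 (s48h_GammaH M H) 𝒪))
  (hεop : ∀ x y, ε' (s59w_op H 𝒪 x y) = s59w_op H 𝒪 x (ε' y))
  (hερ : ∀ δ y, ε' (s59t_rho M H 𝒪 𝒪 δ y) = s59t_rho M H 𝒪 𝒪 δ (ε' y))

variable {A : Type} [CommRing A] (a : A →+* Module.End 𝒪 (s48h_Hpar 𝒪 (s48h_GammaH M H) 𝒪)) (k : ℕ)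
  (ha : ∀ t, a t ∈ Subring.closure (Set.range (s59e_Tp' H 𝒪 k)))
  (aM : A →+* Module.End 𝒪 (s59t_part ε'))
  (haM : ∀ t (z : s59t_part ε'), (s59t_part ε').subtype (aM t z) = a t ((s59t_part ε').subtype z))
  (Bq Cs : Subgroup (s59t_Delta M H)) (χ' : s59t_Delta M H →* 𝒪ˣ)
  (hcomm : ∀ (t : A) (β : Bq), Commute (aM t)
    (((s59t_partRep (s59t_rho M H 𝒪 𝒪) hερ).comp Bq.subtype) β))

include hεop ha haM in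
/-- **`hC8` of `s59e_TLevel_abs` on the part of an idempotent, in the `s59i_TPkg` context**: `s59e3e_L_hC8_TPkg` at
`Y' := s59t_part ε'`, `j := subtype`, `opY := s59m_opPart`, `ρ' := s59t_partRep (s59t_rho M H 𝒪 𝒪) hερ`, with the locality
of the generators in the shape of `s59t_BQ_pres_local`. (Use at `M := N * ∏ j, qv j`,
`H := s59t_Hmul N (∏ j, qv j) H₀ (s59t_KQ (p ^ n) qv)`, `Bq := s59t_BQ …`, `Cs := s59t_CQ …`,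
`hqM := s59t_qv_dvd_level qv N`.) -/
theorem s59e3e_L_hC8_level [IsLocalRing (s59e_adj 𝒪 aM)]
    (hTρ : ∀ (t : s59e_adj 𝒪 (s59e_aB aM
        ((s59t_partRep (s59t_rho M H 𝒪 𝒪) hερ).comp Bq.subtype) hcomm))
      (δ : s59t_Delta M H) (y : s59t_part ε'),
      t • s59t_partRep (s59t_rho M H 𝒪 𝒪) hερ δ y =
        s59t_partRep (s59t_rho M H 𝒪 𝒪) hερ δ (t • y))
    (p : ℕ) [hpP : Fact p.Prime] (hp2 : p ≠ 2) (W : WeierstrassCurve ℤ) (hΔ : W.Δ ≠ 0)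
    (hirr : W.ModRepIsIrreducible p)
    (B : Finset ℕ) (hpB : p ∈ B)
    (hB2 : ∀ r : ℕ, r.Prime → ¬ W.IsGoodPrimeFor r → r ∈ B)
    (N : ℕ) [NeZero N] (Q : Finset ℕ)
    (hMeq : M = N * ∏ q ∈ Q, q) (hQ : ∀ q ∈ Q, q.Prime ∧ ¬ q ∣ N)
    {D : ℕ} (hDQ : D = ∏ q ∈ Q, q) (hD : D ∣ M) (hH : s59u_ker M D hD ≤ H)
    (hsq : Squarefree M) (h23 : 2 ∣ M) (hneg : (-1 : (ZMod M)ˣ) ∈ H)
    {e m : ℕ} (hnm : 2 * m = p ^ e + 1) (hn : ∀ u : (ZMod M)ˣ, u ^ (p ^ e) ∈ H)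
    (hk : k = (p ^ e - 1) * m)
    [Algebra ℤ_[p] 𝒪] [Module.Finite ℤ_[p] 𝒪]
    (hp𝒪 : ((p : ℕ) : 𝒪) ∈ maximalIdeal 𝒪)
    (S : Finset ℕ) (hBS : B ⊆ S) (hMS : ∀ r : ℕ, r.Prime → r ∣ M → r ∈ S)
    {𝒟 : ∀ ⦃A : Type⦄ [CommRing A] [IsLocalRing A] [Algebra 𝒪 A], GaloisRepAdic A → Prop}
    (DQ : GaloisRep.DeformationRingData 𝒪 (s59i_rhobarW W p hΔ 𝒪 hp𝒪) 𝒟)
    (θ : DQ.R →ₐ[𝒪] s59e_adj 𝒪 aM) (hθ : Function.Surjective θ)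
    (tT' : ℕ → s59e_adj 𝒪 aM)
    (htT' : ∀ i : s59w_TIdx M, i.ell ∉ S → ∀ z : s59t_part ε',
      (s59t_part ε').subtype (((tT' i.ell : s59e_adj 𝒪 aM) : Module.End 𝒪 (s59t_part ε')) z) =
        s59e_Tp' H 𝒪 k i ((s59t_part ε').subtype z))
    (hfrobT : ∀ ℓ : ℕ, ℓ.Prime → ℓ ∉ S →
      ∀ A : ValuationSubring (AlgebraicClosure ℚ), A.LiesOverPrime ℓ →
      ∀ τ : GQ, A.IsFrobeniusAt τ ℓ →
        (LinearMap.charpoly (DQ.ρ.ρ τ)).map (θ : DQ.R →+* s59e_adj 𝒪 aM) =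
          Polynomial.X ^ 2 - Polynomial.C (tT' ℓ) * Polynomial.X +
            Polynomial.C ((ℓ : s59e_adj 𝒪 aM)))
    (hcong : ∀ ℓ : ℕ, ℓ.Prime → ℓ ∉ S →
      tT' ℓ - algebraMap 𝒪 (s59e_adj 𝒪 aM) ((W.apOfModel ℓ : ℤ) : 𝒪) ∈
        maximalIdeal (s59e_adj 𝒪 aM))
    (n : ℕ) {r : ℕ} (qv : Fin r → ℕ)
    (hqv : ∀ i, (qv i).Prime ∧ qv i ∉ B ∧ p ^ (n + 1) ∣ qv i - 1)
    (hqvQ : ∀ i, qv i ∈ Q)
    (hTW : ∀ i, ∀ A : ValuationSubring (AlgebraicClosure ℚ), A.LiesOverPrime (qv i) →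
      ∀ φ : GQ, A.IsFrobeniusAt φ (qv i) →
        ∃ α β : ResidueField 𝒪, α ≠ β ∧
          LinearMap.charpoly ((s59i_rhobarW W p hΔ 𝒪 hp𝒪).ρ φ) = (X - C α) * (X - C β))
    (hqM : ∀ i, qv i ∣ M) (g : Fin r → Bq)
    (hgloc : ∀ i, ∃ τ : Gamma0 M,
      (QuotientGroup.mk τ : s59t_Delta M H) = (g i : s59t_Delta M H) ∧
      ZMod.unitsMap (Nat.div_dvd_of_dvd (hqM i)) (s59t_unitHom M τ) = 1) :
    letI := s59e_algTT (𝒪 := 𝒪) aM ((s59t_partRep (s59t_rho M H 𝒪 𝒪) hερ).comp Bq.subtype) hcomm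
    ∀ i, ∃ σ₀ : GQ,
      (∃ A : ValuationSubring Qbar, A.LiesOverPrime (qv i) ∧ σ₀ ∈ A.inertiaSubgroupIn ℚ) ∧
      ((s59e_dia (𝒪 := 𝒪) aM ((s59t_partRep (s59t_rho M H 𝒪 𝒪) hερ).comp Bq.subtype) hcomm
          (s59t_hh p n g i) : s59e_adj 𝒪 (s59e_aB aM
            ((s59t_partRep (s59t_rho M H 𝒪 𝒪) hερ).comp Bq.subtype) hcomm)) -
        (s59e_dia (𝒪 := 𝒪) aM ((s59t_partRep (s59t_rho M H 𝒪 𝒪) hερ).comp Bq.subtype) hcomm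
          (s59t_hh p n g i)⁻¹ : s59e_adj 𝒪 (s59e_aB aM
            ((s59t_partRep (s59t_rho M H 𝒪 𝒪) hερ).comp Bq.subtype) hcomm))) ^ 2 -
        algebraMap (s59e_adj 𝒪 aM) (s59e_adj 𝒪 (s59e_aB aM
          ((s59t_partRep (s59t_rho M H 𝒪 𝒪) hερ).comp Bq.subtype) hcomm))
          (θ (s59i_cpTr DQ.ρ σ₀ ^ 2 - 4)) ∈
        Module.annihilator (s59e_adj 𝒪 (s59e_aB aM
            ((s59t_partRep (s59t_rho M H 𝒪 𝒪) hερ).comp Bq.subtype) hcomm))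
          (s59t_EigT (T := s59e_adj 𝒪 (s59e_aB aM
            ((s59t_partRep (s59t_rho M H 𝒪 𝒪) hερ).comp Bq.subtype) hcomm))
            (s59t_partRep (s59t_rho M H 𝒪 𝒪) hερ) Cs χ' hTρ) := by
  haveI : Module.Finite 𝒪 (s48h_Hpar 𝒪 (s48h_GammaH M H) 𝒪) := s59t_Hpar_finite 𝒪
  haveI : Module.Finite 𝒪 (s59t_part ε') := s59t_part_finite ε'
  exact s59e3e_L_hC8_TPkg H (s59t_part ε').subtype Subtype.val_injective (s59m_opPart H ε' hεop)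
    (fun _ _ => rfl) a k ha aM haM (s59t_partRep (s59t_rho M H 𝒪 𝒪) hερ)
    (s59m_partRep_exists H ε' hεop hερ) Bq Cs χ' hcomm hTρ p hp2 W hΔ hirr B hpB hB2 N Q hMeq hQ hDQ hD hH
    hsq h23 hneg hnm hn hk hp𝒪 S hBS hMS DQ θ hθ tT' htT' hfrobT hcong n qv hqv hqvQ hTW g
    (s59m_hgl_part H ε' hεop hερ qv hqM Bq g hgloc p n)

end PartTP



end Fermat.Agent.Lib.S59
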