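/-
Programme R2 (S59), node [PATCH-FLR], `T`-side leaf (T1) (helper5, prefix `s59e_`/`s59ex_`): **THE LEVEL THEOREM OF FIN-L WITH ITS EXTENDED OUTPUT**
(part (A) of the concrete half of (T1)).

`s59e_TLevelL_ringX` = `s59e_TLevelL_ring` (ELLvl.lean), same hypotheses, but the record `Lv : s59e_TLevelL …` comes with the IDENTIFICATIONS of its
fields with the input data (all of them the identity in the proof):
* `eT' : Lv.T' ≃ₐ[𝒪] 𝒪[aM(A)]`, `eT : Lv.T ≃ₐ[𝒪] 𝒪[aM(A), ρ'(B_Q)]`, compatible with the algebra map (`s59e_incl`), with `θ`, and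
  `eT (uu i) = ⟨h_i⟩` (`s59e_dia … (s59t_hh p n g i)`);
* `eN : Lv.L0.N ≃+ (Y'[C = 1])⟦z⟧ = s59t_PS σ (s59t_EigT ρ' C 1 hTρ)`, semilinear over `eT⟦z⟧`;
* `Lv.L0.π y = π (coefficient 0 of eN y)` (`s59t_piN`), `Lv.L0.ψ f = ψ (eT (f 0))`.
These are the inputs `e₁, e₂, he₁, he₂` of `s59ej_oldPS` (EJointF.lean) and of the joint levels `s59ej_L0` (EJoint.lean).
* `s59ex_castJ` : change of the relation ideal of a patching level along an equality (all the other fields DEFINITIONALLY unchanged).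
-/
import Mathlib
import Fermat.Agent.Lib.S59.ELLvl

set_option autoImplicit false
set_option linter.unusedSectionVars false
set_option linter.unusedVariables false
set_option linter.style.haveILetI false
set_option maxHeartbeats 1600000
set_option synthInstance.maxHeartbeats 400000

noncomputable section

namespace Fermat.Agent.Lib.S59

open IsLocalRing MvPowerSeries CuspForm
open Fermat.Agent.Lib.Deform (IsTestAlgebra)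

local notation "Γℚ" => (AlgebraicClosure ℚ ≃ₐ[ℚ] AlgebraicClosure ℚ)

/-- change of the relation ideal along an equality; every other field is unchanged. -/
def s59ex_castJ {S : Type} [CommRing S] {A : Type} [CommRing A] {R : Type} [CommRing R]
    {M : Type} [AddCommGroup M] [Module R M] {𝔞 J J' : Ideal S}
    (L : s59p_Level S A R M 𝔞 J) (h : J = J') : s59p_Level S A R M 𝔞 J' where
  N := L.N
  instAddCommGroup := L.instAddCommGroup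
  instModule := L.instModule
  φ := L.φ
  ψ := L.ψ
  ψ_surjective := L.ψ_surjective
  ψ_φ := L.ψ_φ
  π := L.π
  π_smul := L.π_smul
  π_surjective := L.π_surjective
  ker_π := L.ker_π
  d := L.d
  b := L.b
  b_span := L.b_span
  b_rel := fun c => h ▸ L.b_rel c

/-- `(id)⟦z⟧ a • y = a • y`. -/
theorem s59ex_map_refl_smul {𝒪 : Type} [CommRing 𝒪] {σ : Type} [DecidableEq σ] {T : Type} [CommRing T]
    [Algebra 𝒪 T] {N : Type} [AddCommGroup N] [Module T N] (a : MvPowerSeries σ T)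
    (y : s59t_PS σ N) :
    MvPowerSeries.map ((AlgEquiv.refl : T ≃ₐ[𝒪] T) : T →+* T) a • y = a • y := by
  have e1 : MvPowerSeries.map ((AlgEquiv.refl : T ≃ₐ[𝒪] T) : T →+* T) a = a := by
    ext d
    rw [MvPowerSeries.coeff_map]
    rfl
  rw [e1]

section Ring

variable {p : ℕ} [hp : Fact p.Prime]
  {𝒪 : Type} [CommRing 𝒪] [IsDomain 𝒪] [IsDiscreteValuationRing 𝒪]
  [IsAdicComplete (maximalIdeal 𝒪) 𝒪] [Finite (ResidueField 𝒪)] [CharZero 𝒪]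
  {ρbar : ResidualGaloisRep (ResidueField 𝒪)}
  (r : ℕ) (σ : Type) [DecidableEq σ] [Fintype σ]
  (hp2 : p ≠ 2) (hpm : (p : 𝒪) ∈ maximalIdeal 𝒪)
  {𝒟 : ∀ ⦃A : Type⦄ [CommRing A] [IsLocalRing A] [Algebra 𝒪 A], GaloisRepAdic A → Prop}
  (DQ : GaloisRep.DeformationRingData 𝒪 ρbar 𝒟) (n : ℕ)
  -- the base
  {N : ℕ} {B : Finset ℕ}
  {Δ : Type} [CommGroup Δ] [Fintype Δ] {Y : Type} [AddCommGroup Y] [Module 𝒪 Y]
  (ρΔ : Δ →* Module.End 𝒪 Y)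
  (R : Type) [CommRing R] [IsLocalRing R] [IsNoetherianRing R] [Algebra 𝒪 R] [Module.Finite 𝒪 R]
  [Module R Y] [IsScalarTower 𝒪 R Y]
  (hRρ : ∀ (t : R) (δ : Δ) (y : Y), t • ρΔ δ y = ρΔ δ (t • y))
  (ρR : GaloisRepAdic R) (tR : ℕ → R)
  (hfrobR : ∀ (ℓ : ℕ), ℓ.Prime → ¬ ℓ ∣ N → ℓ ∉ (↑B : Set ℕ) →
    ∀ A : ValuationSubring (AlgebraicClosure ℚ), A.LiesOverPrime ℓ →
    ∀ g : Γℚ, A.IsFrobeniusAt g ℓ →
      LinearMap.charpoly (ρR.ρ g) =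
        Polynomial.X ^ 2 - Polynomial.C (tR ℓ) * Polynomial.X + Polynomial.C ((ℓ : R)))
  (hgenR : Algebra.adjoin 𝒪 {x : R | ∃ ℓ : ℕ, ℓ.Prime ∧ ¬ ℓ ∣ N ∧ ℓ ∉ (↑B : Set ℕ) ∧
    x = tR ℓ} = ⊤)
  (d : ℕ)
  -- the level
  {Δ' : Type} [CommGroup Δ'] [Fintype Δ'] {Y' : Type} [AddCommGroup Y'] [Module 𝒪 Y']
  [Module.Free 𝒪 Y'] [Module.Finite 𝒪 Y'] [Nontrivial Y']
  (ρ' : Δ' →* Module.End 𝒪 Y') (Bq C : Subgroup Δ') [Fintype Bq] [Fintype C]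
  (hCB : Function.Bijective (fun x : C × Bq => ((x.1 : Δ') * (x.2 : Δ'))))
  (b' : Fin d → Y') (hb' : Function.Bijective (s59t_evalMap ρ' b'))
  (π : Y' →ₗ[𝒪] Y)
  {A : Type} [CommRing A] (aM : A →+* Module.End 𝒪 Y') [IsLocalRing (s59e_adj 𝒪 aM)]
  (hcomm : ∀ (t : A) (β : Bq), Commute (aM t) ((ρ'.comp Bq.subtype) β))
  (hlocA : ∀ x ∈ s59e_adj 𝒪 aM, ∃ d : 𝒪, s59e_IsLocScalar x d)
  (hTρ : ∀ (t : s59e_adj 𝒪 (s59e_aB aM (ρ'.comp Bq.subtype) hcomm)) (δ : Δ') (y : Y'),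
    t • ρ' δ y = ρ' δ (t • y))
  -- type 1
  (h2 : ∀ y ∈ s59t_eig ρ' C (1 : Δ' →* 𝒪ˣ), π y ∈ s59t_eig ρΔ ⊤ (1 : Δ →* 𝒪ˣ))
  (h3 : ∀ x ∈ s59t_eig ρΔ ⊤ (1 : Δ →* 𝒪ˣ), ∃ y ∈ s59t_eig ρ' C (1 : Δ' →* 𝒪ˣ), π y = x)
  (h4 : ∀ y ∈ s59t_eig ρ' C (1 : Δ' →* 𝒪ˣ), π y = 0 → y ∈ Submodule.span 𝒪
    {z : Y' | ∃ β ∈ Bq, ∃ y' ∈ s59t_eig ρ' C (1 : Δ' →* 𝒪ˣ), z = ρ' β y' - y'})
  -- the descent to the base level
  (ψ : s59e_adj 𝒪 (s59e_aB aM (ρ'.comp Bq.subtype) hcomm) →ₐ[𝒪] R)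
  (hψd : ∀ β, ψ (s59e_dia aM (ρ'.comp Bq.subtype) hcomm β) = 1)
  (hπψ : ∀ (t : s59e_adj 𝒪 (s59e_aB aM (ρ'.comp Bq.subtype) hcomm)) (y : Y'),
    π (t • y) = ψ t • π y)
  -- the Taylor–Wiles group
  (g : Fin r → Bq) (hcard : Nat.card Bq = (p ^ n) ^ r)
  (hgen : ∀ β : Bq, ∃ a : Fin r → ℕ, β = ∏ i, g i ^ a i) (hord : ∀ i, g i ^ (p ^ n) = 1)
  -- the Galois side
  (θ : DQ.R →ₐ[𝒪] s59e_adj 𝒪 aM) (hθ : Function.Surjective θ)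
  (Sn : Finset ℕ) (hSn : ∀ ℓ : ℕ, ℓ.Prime → ℓ ∉ Sn → ¬ ℓ ∣ N ∧ ℓ ∉ (↑B : Set ℕ))
  (tT' : ℕ → s59e_adj 𝒪 aM)
  (hfrobT : ∀ ℓ : ℕ, ℓ.Prime → ℓ ∉ Sn →
    ∀ A' : ValuationSubring (AlgebraicClosure ℚ), A'.LiesOverPrime ℓ →
    ∀ τ : Γℚ, A'.IsFrobeniusAt τ ℓ →
      (LinearMap.charpoly (DQ.ρ.ρ τ)).map (θ : DQ.R →+* s59e_adj 𝒪 aM) =
        Polynomial.X ^ 2 - Polynomial.C (tT' ℓ) * Polynomial.X +
          Polynomial.C ((ℓ : s59e_adj 𝒪 aM)))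
  (hψt : ∀ ℓ : ℕ, ℓ.Prime → ℓ ∉ Sn →
    ψ (s59e_incl aM (ρ'.comp Bq.subtype) hcomm (tT' ℓ)) = tR ℓ)
  -- [C8], with the inertia elements
  (qv : Fin r → ℕ)
  (hC8 : ∀ i, ∃ σ₀ : Γℚ,
    (∃ A' : ValuationSubring (AlgebraicClosure ℚ), A'.LiesOverPrime (qv i) ∧
      σ₀ ∈ A'.inertiaSubgroupIn ℚ) ∧
    ((s59e_dia aM (ρ'.comp Bq.subtype) hcomm (s59t_hh p n g i) :
        s59e_adj 𝒪 (s59e_aB aM (ρ'.comp Bq.subtype) hcomm)) -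
      (s59e_dia aM (ρ'.comp Bq.subtype) hcomm (s59t_hh p n g i)⁻¹ :
        s59e_adj 𝒪 (s59e_aB aM (ρ'.comp Bq.subtype) hcomm))) ^ 2 -
      s59e_incl aM (ρ'.comp Bq.subtype) hcomm (θ (s59i_cpTr DQ.ρ σ₀ ^ 2 - 4)) ∈
      Module.annihilator (s59e_adj 𝒪 (s59e_aB aM (ρ'.comp Bq.subtype) hcomm))
        (s59t_EigT (T := s59e_adj 𝒪 (s59e_aB aM (ρ'.comp Bq.subtype) hcomm)) ρ' C
          (1 : Δ' →* 𝒪ˣ) hTρ))


include hp2 hpm hCB hb' hlocA h2 h3 h4 hψd hπψ hcard hgen hord hθ hSn hfrobT hψt hC8 hfrobR hgenR in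
/-- **the level theorem of FIN-L for the rings `T′ = 𝒪[aM(A)] ⊆ T = 𝒪[aM(A), ρ'(B_Q)]`, with the identifications.** -/
theorem s59e_TLevelL_ringX :
    ∃ (Lv : s59e_TLevelL 𝒪 p n r σ R (s59t_EigT ρΔ ⊤ (1 : Δ →* 𝒪ˣ) hRρ) ρR d qv DQ)
      (eT' : Lv.T' ≃ₐ[𝒪] s59e_adj 𝒪 aM)
      (eT : Lv.T ≃ₐ[𝒪] s59e_adj 𝒪 (s59e_aB aM (ρ'.comp Bq.subtype) hcomm))
      (eN : Lv.L0.N ≃+ s59t_PS σ (s59t_EigT (T := s59e_adj 𝒪 (s59e_aB aM (ρ'.comp Bq.subtype) hcomm)) ρ' C (1 : Δ' →* 𝒪ˣ) hTρ)),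
      (∀ x, eT (algebraMap Lv.T' Lv.T x) = s59e_incl aM (ρ'.comp Bq.subtype) hcomm (eT' x)) ∧
      (∀ x, eT' (Lv.θ x) = θ x) ∧
      (∀ i, eT ((Lv.uu i : Lv.Tˣ) : Lv.T) =
        s59e_dia aM (ρ'.comp Bq.subtype) hcomm (s59t_hh p n g i)) ∧
      (∀ (a : MvPowerSeries σ Lv.T) (y : Lv.L0.N),
        eN (a • y) = MvPowerSeries.map (eT : Lv.T →+* s59e_adj 𝒪 (s59e_aB aM (ρ'.comp Bq.subtype) hcomm)) a • eN y) ∧
      (∀ y, Lv.L0.π y = s59t_piN ρΔ ρ' C π (1 : Δ →* 𝒪ˣ) (1 : Δ' →* 𝒪ˣ) h2 hTρ hRρ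
        (s59t_PScoeff 0 (eN y))) ∧
      (∀ f, Lv.L0.ψ f = ψ (eT (constantCoeff f))) := by
  classical
  letI := s59e_algTT aM (ρ'.comp Bq.subtype) hcomm
  haveI : IsLocalHom (algebraMap 𝒪 (s59e_adj 𝒪 aM)) := s59e_adj_isLocalHom aM hlocA
  -- the elements of `B_Q` have `p`-power order
  have hBp : ∀ β : Bq, β ^ (p ^ n) = 1 := by
    intro β
    obtain ⟨e, rfl⟩ := hgen β
    rw [← Finset.prod_pow]
    refine Finset.prod_eq_one fun i _ => ?_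
    rw [← pow_mul, mul_comm, pow_mul, hord i, one_pow]
  have hlocB : ∀ β, ∃ d : 𝒪, s59e_IsLocScalar ((ρ'.comp Bq.subtype) β) d := fun β =>
    ⟨1, s59e_isLocScalar_of_pow_eq_one p n hpm _ (by rw [← map_pow, hBp β, map_one])⟩
  have hlocTT := s59e_adjB_locScalar aM (ρ'.comp Bq.subtype) hcomm hlocA hlocB
  haveI : IsLocalRing (s59e_adj 𝒪 (s59e_aB aM (ρ'.comp Bq.subtype) hcomm)) :=
    s59e_adj_isLocalRing _ hlocTT
  haveI : IsLocalHom (algebraMap 𝒪 (s59e_adj 𝒪 (s59e_aB aM (ρ'.comp Bq.subtype) hcomm))) :=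
    s59e_adj_isLocalHom _ hlocTT
  haveI : IsNoetherianRing (s59e_adj 𝒪 aM) := s59e_adj_noeth aM
  haveI : IsAdicComplete (maximalIdeal (s59e_adj 𝒪 aM)) (s59e_adj 𝒪 aM) := s59e_adj_complete aM
  haveI : IsAdicComplete (maximalIdeal (s59e_adj 𝒪 (s59e_aB aM (ρ'.comp Bq.subtype) hcomm)))
      (s59e_adj 𝒪 (s59e_aB aM (ρ'.comp Bq.subtype) hcomm)) := s59e_adj_complete _
  haveI : IsScalarTower 𝒪 (s59e_adj 𝒪 aM)
      (s59e_adj 𝒪 (s59e_aB aM (ρ'.comp Bq.subtype) hcomm)) :=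
    s59e_towerTT aM (ρ'.comp Bq.subtype) hcomm
  haveI : Module.Finite (s59e_adj 𝒪 aM) (s59e_adj 𝒪 (s59e_aB aM (ρ'.comp Bq.subtype) hcomm)) :=
    s59e_finiteTT aM (ρ'.comp Bq.subtype) hcomm
  have hlocT : ∀ x ∈ maximalIdeal (s59e_adj 𝒪 aM),
      algebraMap (s59e_adj 𝒪 aM) (s59e_adj 𝒪 (s59e_aB aM (ρ'.comp Bq.subtype) hcomm)) x ∈
        maximalIdeal (s59e_adj 𝒪 (s59e_aB aM (ρ'.comp Bq.subtype) hcomm)) :=
    fun x hx => s59e_incl_maximal aM (ρ'.comp Bq.subtype) hcomm hlocA x hx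
  have huu : ∀ β : Bq, (s59e_dia aM (ρ'.comp Bq.subtype) hcomm β :
      s59e_adj 𝒪 (s59e_aB aM (ρ'.comp Bq.subtype) hcomm)) - 1 ∈
      maximalIdeal (s59e_adj 𝒪 (s59e_aB aM (ρ'.comp Bq.subtype) hcomm)) :=
    fun β => s59e_dia_sub_one_mem aM (ρ'.comp Bq.subtype) hcomm p hpm β n (hBp β)
  have hgenT := s59e_hgenT (𝒪 := 𝒪) aM (ρ'.comp Bq.subtype) hcomm
  have hψl : IsLocalHom (ψ : s59e_adj 𝒪 (s59e_aB aM (ρ'.comp Bq.subtype) hcomm) →+* R) :=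
    s59e_algHom_isLocalHom _ _ ψ
  have hcp := s59e_L_cp_compat DQ R ρR tR hfrobR hlocT ψ hψl θ hθ Sn hSn tT' hfrobT hψt
  have hψs : Function.Surjective ψ :=
    s59e_L_psi_surj DQ R ρR tR hfrobR hlocT ψ hψl θ hθ Sn hSn tT' hfrobT hψt hgenR
  -- the level (helper8's `s59t_TSide_level'`, type `1`, inline)
  obtain ⟨Ψ, hΨX, hΨs, hΨk, hΨa⟩ := s59t_exists_PsiH (p := p) (𝒪 := 𝒪) g hp2 hpm hcard hgen hord
  have hk := s59t_ker_eq_JH g hpm hcard hgen hord Ψ hΨX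
  obtain ⟨L0, hL0⟩ : ∃ L0 : s59p_Level (MvPowerSeries σ (MvPowerSeries (Fin r) 𝒪))
      (MvPowerSeries σ (s59e_adj 𝒪 (s59e_aB aM (ρ'.comp Bq.subtype) hcomm))) R (s59t_EigT ρΔ ⊤ (1 : Δ →* 𝒪ˣ) hRρ)
      (s59t_frameA σ (RingHom.ker (constantCoeff (σ := Fin r) (R := 𝒪))))
      (s59t_frameJ σ (s59t_JH 𝒪 p n r)),
      L0 = s59ex_castJ (s59t_levelEig σ ρΔ ρ' Bq C hCB b' hb' π (1 : Δ →* 𝒪ˣ) (1 : Δ' →* 𝒪ˣ)
        h2 h3 h4 hTρ (s59e_dia aM (ρ'.comp Bq.subtype) hcomm)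
        (s59e_hdia aM (ρ'.comp Bq.subtype) hcomm) hRρ ψ hψs hψd hπψ Ψ hΨs hΨa)
        (congrArg (s59t_frameJ σ) hk) := ⟨_, rfl⟩
  obtain ⟨uu, huuv⟩ : ∃ uu : Fin r → (s59e_adj 𝒪 (s59e_aB aM (ρ'.comp Bq.subtype) hcomm))ˣ, ∀ i, ((uu i : (s59e_adj 𝒪 (s59e_aB aM (ρ'.comp Bq.subtype) hcomm))ˣ) : s59e_adj 𝒪 (s59e_aB aM (ρ'.comp Bq.subtype) hcomm)) =
      s59e_dia aM (ρ'.comp Bq.subtype) hcomm (s59t_hh p n g i) :=
    ⟨fun i => s59t_uu (s59e_dia aM (ρ'.comp Bq.subtype) hcomm) (s59t_hh p n g i), fun i => rfl⟩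
  have hstdX : ∀ i, s59t_std σ Ψ (s59e_dia aM (ρ'.comp Bq.subtype) hcomm) (MvPowerSeries.C (X i)) =
      MvPowerSeries.C (((uu i : (s59e_adj 𝒪 (s59e_aB aM (ρ'.comp Bq.subtype) hcomm))ˣ) : s59e_adj 𝒪 (s59e_aB aM (ρ'.comp Bq.subtype) hcomm)) - (((uu i)⁻¹ : (s59e_adj 𝒪 (s59e_aB aM (ρ'.comp Bq.subtype) hcomm))ˣ) : s59e_adj 𝒪 (s59e_aB aM (ρ'.comp Bq.subtype) hcomm))) := by
    intro i
    have h1 := s59t_std_CX (s59e_dia (𝒪 := 𝒪) aM (ρ'.comp Bq.subtype) hcomm) σ Ψ (s59t_hh p n g) hΨX i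
    have h2 : uu i = s59t_uu (s59e_dia aM (ρ'.comp Bq.subtype) hcomm) (s59t_hh p n g i) :=
      Units.ext (huuv i)
    rw [h2]
    exact h1
  have hann1 : ∀ x : MvPowerSeries σ (s59e_adj 𝒪 (s59e_aB aM (ρ'.comp Bq.subtype) hcomm)),
      (∀ e, coeff e x ∈ Module.annihilator (s59e_adj 𝒪 (s59e_aB aM (ρ'.comp Bq.subtype) hcomm))
        (s59t_EigT (T := s59e_adj 𝒪 (s59e_aB aM (ρ'.comp Bq.subtype) hcomm)) ρ' C (1 : Δ' →* 𝒪ˣ) hTρ)) →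
      x ∈ Module.annihilator (MvPowerSeries σ (s59e_adj 𝒪 (s59e_aB aM (ρ'.comp Bq.subtype) hcomm))) L0.N := by
    intro x hx
    rw [hL0]
    exact s59t_levelEig_ann σ ρΔ ρ' Bq C hCB b' hb' π _ _ h2 h3 h4 hTρ
      (s59e_dia aM (ρ'.comp Bq.subtype) hcomm) (s59e_hdia aM (ρ'.comp Bq.subtype) hcomm) hRρ ψ
      hψs hψd hπψ Ψ hΨs hΨa x hx
  have hd : L0.d = d := by rw [hL0]; rfl
  have hstd : ∀ x, L0.φ x = s59t_std σ Ψ (s59e_dia aM (ρ'.comp Bq.subtype) hcomm) x := by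
    intro x; rw [hL0]; rfl
  have hψ1 : ∀ f, L0.ψ f = ψ (constantCoeff f) := by
    intro f; rw [hL0]; rfl
  -- the inverse of `uu`
  have huuinv : ∀ i, (((uu i)⁻¹ : (s59e_adj 𝒪 (s59e_aB aM (ρ'.comp Bq.subtype) hcomm))ˣ) : s59e_adj 𝒪 (s59e_aB aM (ρ'.comp Bq.subtype) hcomm)) =
      s59e_dia aM (ρ'.comp Bq.subtype) hcomm (s59t_hh p n g i)⁻¹ := by
    intro i
    have h1 : ((uu i : (s59e_adj 𝒪 (s59e_aB aM (ρ'.comp Bq.subtype) hcomm))ˣ) : s59e_adj 𝒪 (s59e_aB aM (ρ'.comp Bq.subtype) hcomm)) *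
        s59e_dia aM (ρ'.comp Bq.subtype) hcomm (s59t_hh p n g i)⁻¹ = 1 := by
      rw [huuv i, ← map_mul, mul_inv_cancel, map_one]
    exact (Units.inv_eq_of_mul_eq_one_right h1)
  choose σQ hσQ hC8' using hC8
  subst hL0
  refine ⟨{
    T' := s59e_adj 𝒪 aM
    T := s59e_adj 𝒪 (s59e_aB aM (ρ'.comp Bq.subtype) hcomm)
    θ := θ
    hθ := hθ
    L0 := _
    hd := hd
    std := s59t_std σ Ψ (s59e_dia aM (ρ'.comp Bq.subtype) hcomm)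
    hstd := hstd
    hψ𝒪 := fun t => by
      rw [hψ1, MvPowerSeries.algebraMap_apply, MvPowerSeries.constantCoeff_C]
      exact ψ.commutes t
    uu := uu
    huu := fun i => by rw [huuv i]; exact huu _
    hgen := ?_
    hstdX := hstdX
    hstdz := fun j => s59t_std_X σ Ψ (s59e_dia aM (ρ'.comp Bq.subtype) hcomm) j
    σQ := σQ
    hσQ := hσQ
    hC8 := fun i => ?_
    hτ := fun γ => ?_ }, AlgEquiv.refl, AlgEquiv.refl, AddEquiv.refl _, fun x => rfl, fun x => rfl,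
    fun i => huuv i, fun a y => ?_, fun y => rfl, fun f => rfl⟩
  · -- hgen
    rw [eq_top_iff, ← hgenT]
    refine Algebra.adjoin_le ?_
    rintro _ ⟨β, rfl⟩
    obtain ⟨e, he⟩ := hgen β
    have hodd : Odd (p ^ n) := Odd.pow (hp.out.odd_of_ne_two hp2)
    have hg2 : ∀ i, g i = s59t_hh p n g i ^ 2 := by
      intro i
      obtain ⟨k, hk⟩ := hodd
      have h1 : (p ^ n + 1) / 2 * 2 = p ^ n + 1 := by omega
      unfold s59t_hh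
      rw [← pow_mul, h1, pow_succ, hord i, one_mul]
    have h3 : (s59e_dia aM (ρ'.comp Bq.subtype) hcomm β : s59e_adj 𝒪 (s59e_aB aM (ρ'.comp Bq.subtype) hcomm)) =
        ∏ i, ((uu i : (s59e_adj 𝒪 (s59e_aB aM (ρ'.comp Bq.subtype) hcomm))ˣ) : s59e_adj 𝒪 (s59e_aB aM (ρ'.comp Bq.subtype) hcomm)) ^ (2 * e i) := by
      rw [he, map_prod]
      refine Finset.prod_congr rfl fun i _ => ?_
      rw [huuv i, pow_mul, ← map_pow (s59e_dia aM (ρ'.comp Bq.subtype) hcomm) (s59t_hh p n g i) 2,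
        ← hg2 i, ← map_pow (s59e_dia aM (ρ'.comp Bq.subtype) hcomm) (g i) (e i)]
    show (s59e_dia aM (ρ'.comp Bq.subtype) hcomm β : s59e_adj 𝒪 (s59e_aB aM (ρ'.comp Bq.subtype) hcomm)) ∈ _
    rw [h3]
    refine Subalgebra.prod_mem _ fun i _ => Subalgebra.pow_mem _ ?_ _
    exact Algebra.subset_adjoin (Or.inl ⟨i, rfl⟩)
  · -- hC8
    refine hann1 _ fun e => ?_
    rw [MvPowerSeries.coeff_C]
    split_ifs with he
    · rw [huuv i, huuinv i]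
      exact hC8' i
    · exact Submodule.zero_mem _
  · -- hτ
    rw [hψ1, MvPowerSeries.constantCoeff_C]
    exact (hcp γ).symm
  · -- semilinearity of `eN`
    exact (s59ex_map_refl_smul (𝒪 := 𝒪) a y).symm

end Ring

end Fermat.Agent.Lib.S59
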