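/-
Programme R2 (S59), node [PATCH-FLR], `T`-side leaf (T1) (helper5, prefix `s59efl_`): **THE RECORD OF THE LEVEL THEOREM** — the conclusion of
`s59e_TLevelL_ringX` (ELLvlX.lean) as a structure over ABSTRACT parameters, so that the concrete instantiations never re-elaborate its types:
`s59efl_RingRec` = the level `Lv : s59e_TLevelL …` with `eT' : Lv.T' ≃ 𝒪[aM]`, `eT : Lv.T ≃ 𝒪[aM, ρ'(B_Q)]`, `eN : Lv.L0.N ≃ (Y'[C = 1])⟦z⟧` and their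
compatibilities; `s59efl_ringRec : Nonempty (s59efl_RingRec …)` under the hypotheses of `s59e_TLevelL_ringX`.
-/
import Mathlib
import Fermat.Agent.Lib.S59.ELLvlX

set_option autoImplicit false
set_option linter.unusedSectionVars false
set_option linter.unusedVariables false
set_option linter.style.haveILetI false
set_option maxHeartbeats 1600000
set_option synthInstance.maxHeartbeats 400000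

noncomputable section

namespace Fermat.Agent.Lib.S59

open IsLocalRing MvPowerSeries CuspForm
open Fermat.Agent.Lib.Deform (IsTestAlgebra)

local notation "Γℚ" => (AlgebraicClosure ℚ ≃ₐ[ℚ] AlgebraicClosure ℚ)

/-- **the record of the level theorem.** -/
structure s59efl_RingRec {p : ℕ}
    {𝒪 : Type} [CommRing 𝒪] [IsDomain 𝒪] [IsDiscreteValuationRing 𝒪]
    [IsAdicComplete (maximalIdeal 𝒪) 𝒪]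
    {ρbar : ResidualGaloisRep (ResidueField 𝒪)}
    (r : ℕ) (σ : Type) [DecidableEq σ] [Fintype σ]
    {𝒟 : ∀ ⦃A : Type⦄ [CommRing A] [IsLocalRing A] [Algebra 𝒪 A], GaloisRepAdic A → Prop}
    (DQ : GaloisRep.DeformationRingData 𝒪 ρbar 𝒟) (n : ℕ)
    {Δ : Type} [CommGroup Δ] [Fintype Δ] {Y : Type} [AddCommGroup Y] [Module 𝒪 Y]
    (ρΔ : Δ →* Module.End 𝒪 Y)
    (R : Type) [CommRing R] [IsLocalRing R] [Algebra 𝒪 R]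
    [Module R Y] [IsScalarTower 𝒪 R Y]
    (hRρ : ∀ (t : R) (δ : Δ) (y : Y), t • ρΔ δ y = ρΔ δ (t • y))
    (ρR : GaloisRepAdic R) (d : ℕ)
    {Δ' : Type} [CommGroup Δ'] [Fintype Δ'] {Y' : Type} [AddCommGroup Y'] [Module 𝒪 Y']
    (ρ' : Δ' →* Module.End 𝒪 Y') (Bq C : Subgroup Δ') [Fintype Bq] [Fintype C]
    (π : Y' →ₗ[𝒪] Y)
    {A : Type} [CommRing A] (aM : A →+* Module.End 𝒪 Y')
    (hcomm : ∀ (t : A) (β : Bq), Commute (aM t) ((ρ'.comp Bq.subtype) β))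
    (hTρ : ∀ (t : s59e_adj 𝒪 (s59e_aB aM (ρ'.comp Bq.subtype) hcomm)) (δ : Δ') (y : Y'),
      t • ρ' δ y = ρ' δ (t • y))
    (h2 : ∀ y ∈ s59t_eig ρ' C (1 : Δ' →* 𝒪ˣ), π y ∈ s59t_eig ρΔ ⊤ (1 : Δ →* 𝒪ˣ))
    (g : Fin r → Bq)
    (θ : DQ.R →ₐ[𝒪] s59e_adj 𝒪 aM)
    (qv : Fin r → ℕ) : Type 1 where
  Lv : s59e_TLevelL 𝒪 p n r σ R (s59t_EigT ρΔ ⊤ (1 : Δ →* 𝒪ˣ) hRρ) ρR d qv DQ
  eT' : Lv.T' ≃ₐ[𝒪] s59e_adj 𝒪 aM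
  eT : Lv.T ≃ₐ[𝒪] s59e_adj 𝒪 (s59e_aB aM (ρ'.comp Bq.subtype) hcomm)
  eN : Lv.L0.N ≃+ s59t_PS σ (s59t_EigT (T := s59e_adj 𝒪 (s59e_aB aM (ρ'.comp Bq.subtype) hcomm)) ρ' C (1 : Δ' →* 𝒪ˣ) hTρ)
  k1 : ∀ x, eT (algebraMap Lv.T' Lv.T x) = s59e_incl aM (ρ'.comp Bq.subtype) hcomm (eT' x)
  k2 : ∀ x, eT' (Lv.θ x) = θ x
  k3 : ∀ i, eT ((Lv.uu i : Lv.Tˣ) : Lv.T) =
    s59e_dia aM (ρ'.comp Bq.subtype) hcomm (s59t_hh p n g i)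
  k4 : ∀ (a : MvPowerSeries σ Lv.T) (y : Lv.L0.N),
    eN (a • y) = MvPowerSeries.map (eT : Lv.T →+* s59e_adj 𝒪 (s59e_aB aM (ρ'.comp Bq.subtype) hcomm)) a • eN y
  k5 : ∀ y, Lv.L0.π y = s59t_piN ρΔ ρ' C π (1 : Δ →* 𝒪ˣ) (1 : Δ' →* 𝒪ˣ) h2 hTρ hRρ
    (s59t_PScoeff 0 (eN y))

section Ring

variable {p : ℕ} [hp : Fact p.Prime]
  {𝒪 : Type} [CommRing 𝒪] [IsDomain 𝒪] [IsDiscreteValuationRing 𝒪]
  [IsAdicComplete (maximalIdeal 𝒪) 𝒪] [Finite (ResidueField 𝒪)] [CharZero 𝒪]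
  {ρbar : ResidualGaloisRep (ResidueField 𝒪)}
  (r : ℕ) (σ : Type) [DecidableEq σ] [Fintype σ]
  (hp2 : p ≠ 2) (hpm : (p : 𝒪) ∈ maximalIdeal 𝒪)
  {𝒟 : ∀ ⦃A : Type⦄ [CommRing A] [IsLocalRing A] [Algebra 𝒪 A], GaloisRepAdic A → Prop}
  (DQ : GaloisRep.DeformationRingData 𝒪 ρbar 𝒟) (n : ℕ)
  -- the base
  {N : ℕ} {B : Finset ℕ}
  {Δ : Type} [CommGroup Δ] [Fintype Δ] {Y : Type} [AddCommGroup Y] [Module 𝒪 Y]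
  (ρΔ : Δ →* Module.End 𝒪 Y)
  (R : Type) [CommRing R] [IsLocalRing R] [IsNoetherianRing R] [Algebra 𝒪 R] [Module.Finite 𝒪 R]
  [Module R Y] [IsScalarTower 𝒪 R Y]
  (hRρ : ∀ (t : R) (δ : Δ) (y : Y), t • ρΔ δ y = ρΔ δ (t • y))
  (ρR : GaloisRepAdic R) (tR : ℕ → R)
  (hfrobR : ∀ (ℓ : ℕ), ℓ.Prime → ¬ ℓ ∣ N → ℓ ∉ (↑B : Set ℕ) →
    ∀ A : ValuationSubring (AlgebraicClosure ℚ), A.LiesOverPrime ℓ →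
    ∀ g : Γℚ, A.IsFrobeniusAt g ℓ →
      LinearMap.charpoly (ρR.ρ g) =
        Polynomial.X ^ 2 - Polynomial.C (tR ℓ) * Polynomial.X + Polynomial.C ((ℓ : R)))
  (hgenR : Algebra.adjoin 𝒪 {x : R | ∃ ℓ : ℕ, ℓ.Prime ∧ ¬ ℓ ∣ N ∧ ℓ ∉ (↑B : Set ℕ) ∧
    x = tR ℓ} = ⊤)
  (d : ℕ)
  -- the level
  {Δ' : Type} [CommGroup Δ'] [Fintype Δ'] {Y' : Type} [AddCommGroup Y'] [Module 𝒪 Y']
  [Module.Free 𝒪 Y'] [Module.Finite 𝒪 Y'] [Nontrivial Y']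
  (ρ' : Δ' →* Module.End 𝒪 Y') (Bq C : Subgroup Δ') [Fintype Bq] [Fintype C]
  (hCB : Function.Bijective (fun x : C × Bq => ((x.1 : Δ') * (x.2 : Δ'))))
  (b' : Fin d → Y') (hb' : Function.Bijective (s59t_evalMap ρ' b'))
  (π : Y' →ₗ[𝒪] Y)
  {A : Type} [CommRing A] (aM : A →+* Module.End 𝒪 Y') [IsLocalRing (s59e_adj 𝒪 aM)]
  (hcomm : ∀ (t : A) (β : Bq), Commute (aM t) ((ρ'.comp Bq.subtype) β))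
  (hlocA : ∀ x ∈ s59e_adj 𝒪 aM, ∃ d : 𝒪, s59e_IsLocScalar x d)
  (hTρ : ∀ (t : s59e_adj 𝒪 (s59e_aB aM (ρ'.comp Bq.subtype) hcomm)) (δ : Δ') (y : Y'),
    t • ρ' δ y = ρ' δ (t • y))
  -- type 1
  (h2 : ∀ y ∈ s59t_eig ρ' C (1 : Δ' →* 𝒪ˣ), π y ∈ s59t_eig ρΔ ⊤ (1 : Δ →* 𝒪ˣ))
  (h3 : ∀ x ∈ s59t_eig ρΔ ⊤ (1 : Δ →* 𝒪ˣ), ∃ y ∈ s59t_eig ρ' C (1 : Δ' →* 𝒪ˣ), π y = x)
  (h4 : ∀ y ∈ s59t_eig ρ' C (1 : Δ' →* 𝒪ˣ), π y = 0 → y ∈ Submodule.span 𝒪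
    {z : Y' | ∃ β ∈ Bq, ∃ y' ∈ s59t_eig ρ' C (1 : Δ' →* 𝒪ˣ), z = ρ' β y' - y'})
  -- the descent to the base level
  (ψ : s59e_adj 𝒪 (s59e_aB aM (ρ'.comp Bq.subtype) hcomm) →ₐ[𝒪] R)
  (hψd : ∀ β, ψ (s59e_dia aM (ρ'.comp Bq.subtype) hcomm β) = 1)
  (hπψ : ∀ (t : s59e_adj 𝒪 (s59e_aB aM (ρ'.comp Bq.subtype) hcomm)) (y : Y'),
    π (t • y) = ψ t • π y)
  -- the Taylor–Wiles group
  (g : Fin r → Bq) (hcard : Nat.card Bq = (p ^ n) ^ r)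
  (hgen : ∀ β : Bq, ∃ a : Fin r → ℕ, β = ∏ i, g i ^ a i) (hord : ∀ i, g i ^ (p ^ n) = 1)
  -- the Galois side
  (θ : DQ.R →ₐ[𝒪] s59e_adj 𝒪 aM) (hθ : Function.Surjective θ)
  (Sn : Finset ℕ) (hSn : ∀ ℓ : ℕ, ℓ.Prime → ℓ ∉ Sn → ¬ ℓ ∣ N ∧ ℓ ∉ (↑B : Set ℕ))
  (tT' : ℕ → s59e_adj 𝒪 aM)
  (hfrobT : ∀ ℓ : ℕ, ℓ.Prime → ℓ ∉ Sn →
    ∀ A' : ValuationSubring (AlgebraicClosure ℚ), A'.LiesOverPrime ℓ →
    ∀ τ : Γℚ, A'.IsFrobeniusAt τ ℓ →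
      (LinearMap.charpoly (DQ.ρ.ρ τ)).map (θ : DQ.R →+* s59e_adj 𝒪 aM) =
        Polynomial.X ^ 2 - Polynomial.C (tT' ℓ) * Polynomial.X +
          Polynomial.C ((ℓ : s59e_adj 𝒪 aM)))
  (hψt : ∀ ℓ : ℕ, ℓ.Prime → ℓ ∉ Sn →
    ψ (s59e_incl aM (ρ'.comp Bq.subtype) hcomm (tT' ℓ)) = tR ℓ)
  -- [C8], with the inertia elements
  (qv : Fin r → ℕ)
  (hC8 : ∀ i, ∃ σ₀ : Γℚ,
    (∃ A' : ValuationSubring (AlgebraicClosure ℚ), A'.LiesOverPrime (qv i) ∧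
      σ₀ ∈ A'.inertiaSubgroupIn ℚ) ∧
    ((s59e_dia aM (ρ'.comp Bq.subtype) hcomm (s59t_hh p n g i) :
        s59e_adj 𝒪 (s59e_aB aM (ρ'.comp Bq.subtype) hcomm)) -
      (s59e_dia aM (ρ'.comp Bq.subtype) hcomm (s59t_hh p n g i)⁻¹ :
        s59e_adj 𝒪 (s59e_aB aM (ρ'.comp Bq.subtype) hcomm))) ^ 2 -
      s59e_incl aM (ρ'.comp Bq.subtype) hcomm (θ (s59i_cpTr DQ.ρ σ₀ ^ 2 - 4)) ∈
      Module.annihilator (s59e_adj 𝒪 (s59e_aB aM (ρ'.comp Bq.subtype) hcomm))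
        (s59t_EigT (T := s59e_adj 𝒪 (s59e_aB aM (ρ'.comp Bq.subtype) hcomm)) ρ' C
          (1 : Δ' →* 𝒪ˣ) hTρ))



include hp2 hpm hCB hb' hlocA h2 h3 h4 hψd hπψ hcard hgen hord hθ hSn hfrobT hψt hC8 hfrobR hgenR in
/-- **the level theorem, as a record.** -/
theorem s59efl_ringRec :
    Nonempty (s59efl_RingRec (p := p) r σ DQ n ρΔ R hRρ ρR d ρ' Bq C π aM hcomm hTρ h2 g θ qv) := by
  obtain ⟨Lv, eT', eT, eN, k1, k2, k3, k4, k5, -⟩ := s59e_TLevelL_ringX r σ hp2 hpm DQ n ρΔ R hRρ ρR tR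
    hfrobR hgenR d ρ' Bq C hCB b' hb' π aM hcomm hlocA hTρ h2 h3 h4 ψ hψd hπψ g hcard hgen hord θ hθ
    Sn hSn tT' hfrobT hψt qv hC8
  exact ⟨⟨Lv, eT', eT, eN, k1, k2, k3, k4, k5⟩⟩

end Ring

end Fermat.Agent.Lib.S59
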