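/-
Programme R2 (S59), node [PATCH-FLR], `T`-side leaf (T1) (helper5, prefix `s59ej_`): **THE LINK BETWEEN TWO CONSECUTIVE LEVELS, ABSTRACT FORM**
(part (B) of the concrete half of (T1); pure algebra).

`D : s59t_Old 𝒪 Y₁ Y₂` an old/new package between the (unframed) modules of the levels `N_t Q_n` and `N_{t+1} Q_n` with `D.resA` INJECTIVE.
* `s59ej_compatSub D` : the pairs `(x', x) ∈ End Y₁ × End Y₂` with `D.Compat x' x` form a subalgebra; `x'` is determined by `x`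
  (`s59ej_compat_unique`);
* `s59ej_sig` : for subalgebras `T₁ ⊆ End Y₁`, `T₂ ⊆ End Y₂` such that every `x ∈ T₂` has a compatible `x' ∈ T₁`, the `𝒪`-algebra map
  `σ : T₂ → T₁`, `D.Compat (σ x) x` (`s59ej_sig_compat`), `s59ej_sig_eq`, `s59ej_sig_surjective`;
* `s59ej_exists_compat_adjB` : for the rings `T_i = 𝒪[a_i(A_i), ρB_i(B_i)]` of ERing.lean it is enough to lift generators;
* `s59ej_eigMap` : a linear map which preserves the eigen-parts induces an additive map of the `s59t_EigT`'s.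
-/
import Mathlib
import Fermat.Agent.Lib.S59.TNew
import Fermat.Agent.Lib.S59.TEigT
import Fermat.Agent.Lib.S59.ERing2

set_option autoImplicit false
set_option linter.unusedSectionVars false
set_option linter.unusedVariables false
set_option linter.style.haveILetI false

noncomputable section

namespace Fermat.Agent.Lib.S59

/-! ### The subalgebra of compatible pairs -/

section CompatAlg

variable {𝒪 : Type*} [CommRing 𝒪] {Y₁ Y₂ : Type*} [AddCommGroup Y₁] [Module 𝒪 Y₁]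
  [AddCommGroup Y₂] [Module 𝒪 Y₂] (D : s59t_Old 𝒪 Y₁ Y₂)

theorem s59ej_compat_mul {x' y' : Module.End 𝒪 Y₁} {x y : Module.End 𝒪 Y₂}
    (hx : D.Compat x' x) (hy : D.Compat y' y) : D.Compat (x' * y') (x * y) where
  resA z := by rw [Module.End.mul_apply, Module.End.mul_apply, hy.resA, hx.resA]
  resB z := by rw [Module.End.mul_apply, Module.End.mul_apply, hy.resB, hx.resB]
  corA z := by rw [Module.End.mul_apply, Module.End.mul_apply, hy.corA, hx.corA]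
  corB z := by rw [Module.End.mul_apply, Module.End.mul_apply, hy.corB, hx.corB]
  T z := by rw [Module.End.mul_apply, Module.End.mul_apply, hy.T, hx.T]
  U z := by rw [Module.End.mul_apply, Module.End.mul_apply, hy.U, hx.U]
  w z := by rw [Module.End.mul_apply, Module.End.mul_apply, hy.w, hx.w]

theorem s59ej_compat_add {x' y' : Module.End 𝒪 Y₁} {x y : Module.End 𝒪 Y₂}
    (hx : D.Compat x' x) (hy : D.Compat y' y) : D.Compat (x' + y') (x + y) where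
  resA z := by rw [LinearMap.add_apply, LinearMap.add_apply, hx.resA, hy.resA, map_add]
  resB z := by rw [LinearMap.add_apply, LinearMap.add_apply, hx.resB, hy.resB, map_add]
  corA z := by rw [LinearMap.add_apply, LinearMap.add_apply, hx.corA, hy.corA, map_add]
  corB z := by rw [LinearMap.add_apply, LinearMap.add_apply, hx.corB, hy.corB, map_add]
  T z := by rw [LinearMap.add_apply, LinearMap.add_apply, hx.T, hy.T, map_add]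
  U z := by rw [LinearMap.add_apply, LinearMap.add_apply, hx.U, hy.U, map_add]
  w z := by rw [LinearMap.add_apply, LinearMap.add_apply, hx.w, hy.w, map_add]

theorem s59ej_compat_algebraMap (c : 𝒪) :
    D.Compat (algebraMap 𝒪 (Module.End 𝒪 Y₁) c) (algebraMap 𝒪 (Module.End 𝒪 Y₂) c) where
  resA z := by rw [Module.algebraMap_end_apply, Module.algebraMap_end_apply, map_smul]
  resB z := by rw [Module.algebraMap_end_apply, Module.algebraMap_end_apply, map_smul]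
  corA z := by rw [Module.algebraMap_end_apply, Module.algebraMap_end_apply, map_smul]
  corB z := by rw [Module.algebraMap_end_apply, Module.algebraMap_end_apply, map_smul]
  T z := by rw [Module.algebraMap_end_apply, Module.algebraMap_end_apply, map_smul]
  U z := by rw [Module.algebraMap_end_apply, Module.algebraMap_end_apply, map_smul]
  w z := by rw [Module.algebraMap_end_apply, Module.algebraMap_end_apply, map_smul]

/-- **the subalgebra of compatible pairs.** -/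
def s59ej_compatSub : Subalgebra 𝒪 (Module.End 𝒪 Y₁ × Module.End 𝒪 Y₂) where
  carrier := {x | D.Compat x.1 x.2}
  mul_mem' := fun {a b} ha hb => s59ej_compat_mul D ha hb
  add_mem' := fun {a b} ha hb => s59ej_compat_add D ha hb
  algebraMap_mem' := fun c => s59ej_compat_algebraMap D c

theorem s59ej_mem_compatSub (x : Module.End 𝒪 Y₁ × Module.End 𝒪 Y₂) :
    x ∈ s59ej_compatSub D ↔ D.Compat x.1 x.2 := Iff.rfl

variable (hinj : Function.Injective D.resA)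

include hinj in
/-- the compatible partner on the lower level is unique. -/
theorem s59ej_compat_unique {x' x'' : Module.End 𝒪 Y₁} {x : Module.End 𝒪 Y₂}
    (h' : D.Compat x' x) (h'' : D.Compat x'' x) : x' = x'' := by
  refine LinearMap.ext fun y => hinj ?_
  rw [← h'.resA, ← h''.resA]

variable (T₁ : Subalgebra 𝒪 (Module.End 𝒪 Y₁)) (T₂ : Subalgebra 𝒪 (Module.End 𝒪 Y₂))
  (h₂ : ∀ x ∈ T₂, ∃ x' ∈ T₁, D.Compat x' x)

/-- the transfer, as a function. -/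
def s59ej_sigFun (x : T₂) : T₁ := ⟨(h₂ x.1 x.2).choose, (h₂ x.1 x.2).choose_spec.1⟩

theorem s59ej_sigFun_compat (x : T₂) :
    D.Compat (s59ej_sigFun D T₁ T₂ h₂ x : Module.End 𝒪 Y₁) (x : Module.End 𝒪 Y₂) :=
  (h₂ x.1 x.2).choose_spec.2

include hinj in
theorem s59ej_sigFun_eq (x : T₂) (x' : Module.End 𝒪 Y₁)
    (h : D.Compat x' (x : Module.End 𝒪 Y₂)) :
    (s59ej_sigFun D T₁ T₂ h₂ x : Module.End 𝒪 Y₁) = x' :=
  s59ej_compat_unique D hinj (s59ej_sigFun_compat D T₁ T₂ h₂ x) h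

/-- **the transfer map** `σ : T₂ → T₁`. -/
def s59ej_sig : T₂ →ₐ[𝒪] T₁ where
  toFun := s59ej_sigFun D T₁ T₂ h₂
  map_one' := Subtype.ext (s59ej_sigFun_eq D hinj T₁ T₂ h₂ 1 1 (s59ej_compatSub D).one_mem)
  map_mul' x y := Subtype.ext (s59ej_sigFun_eq D hinj T₁ T₂ h₂ (x * y) _
    (s59ej_compat_mul D (s59ej_sigFun_compat D T₁ T₂ h₂ x) (s59ej_sigFun_compat D T₁ T₂ h₂ y)))
  map_zero' := Subtype.ext (s59ej_sigFun_eq D hinj T₁ T₂ h₂ 0 0 (s59ej_compatSub D).zero_mem)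
  map_add' x y := Subtype.ext (s59ej_sigFun_eq D hinj T₁ T₂ h₂ (x + y) _
    (s59ej_compat_add D (s59ej_sigFun_compat D T₁ T₂ h₂ x) (s59ej_sigFun_compat D T₁ T₂ h₂ y)))
  commutes' c := Subtype.ext (s59ej_sigFun_eq D hinj T₁ T₂ h₂ (algebraMap 𝒪 T₂ c) _
    (s59ej_compat_algebraMap D c))

theorem s59ej_sig_compat (x : T₂) :
    D.Compat (s59ej_sig D hinj T₁ T₂ h₂ x : Module.End 𝒪 Y₁) (x : Module.End 𝒪 Y₂) :=
  s59ej_sigFun_compat D T₁ T₂ h₂ x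

theorem s59ej_sig_eq (x : T₂) (x' : Module.End 𝒪 Y₁)
    (h : D.Compat x' (x : Module.End 𝒪 Y₂)) :
    (s59ej_sig D hinj T₁ T₂ h₂ x : Module.End 𝒪 Y₁) = x' :=
  s59ej_sigFun_eq D hinj T₁ T₂ h₂ x x' h

/-- `σ` is onto as soon as every element of `T₁` has a compatible partner in `T₂`. -/
theorem s59ej_sig_surjective (h₁ : ∀ x' ∈ T₁, ∃ x ∈ T₂, D.Compat x' x) :
    Function.Surjective (s59ej_sig D hinj T₁ T₂ h₂) := by
  intro x'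
  obtain ⟨x, hx, hc⟩ := h₁ x'.1 x'.2
  exact ⟨⟨x, hx⟩, Subtype.ext (s59ej_sig_eq D hinj T₁ T₂ h₂ ⟨x, hx⟩ x'.1 hc)⟩

/-- the elements of `End Y₂` with a compatible partner in `T₁`. -/
def s59ej_liftable : Subalgebra 𝒪 (Module.End 𝒪 Y₂) :=
  ((s59ej_compatSub D) ⊓ (Subalgebra.prod T₁ ⊤)).map (AlgHom.snd 𝒪 _ _)

theorem s59ej_mem_liftable (x : Module.End 𝒪 Y₂) :
    x ∈ s59ej_liftable D T₁ ↔ ∃ x' ∈ T₁, D.Compat x' x := by
  constructor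
  · rintro ⟨⟨x', x''⟩, ⟨h1, h2⟩, rfl⟩
    exact ⟨x', (Subalgebra.mem_prod.mp h2).1, h1⟩
  · rintro ⟨x', hx', h⟩
    exact ⟨(x', x), ⟨h, Subalgebra.mem_prod.mpr ⟨hx', Algebra.mem_top⟩⟩, rfl⟩

/-- the elements of `End Y₁` with a compatible partner in `T₂`. -/
def s59ej_liftable' : Subalgebra 𝒪 (Module.End 𝒪 Y₁) :=
  ((s59ej_compatSub D) ⊓ (Subalgebra.prod ⊤ T₂)).map (AlgHom.fst 𝒪 _ _)

theorem s59ej_mem_liftable' (x' : Module.End 𝒪 Y₁) :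
    x' ∈ s59ej_liftable' D T₂ ↔ ∃ x ∈ T₂, D.Compat x' x := by
  constructor
  · rintro ⟨⟨x'', x⟩, ⟨h1, h2⟩, rfl⟩
    exact ⟨x, (Subalgebra.mem_prod.mp h2).2, h1⟩
  · rintro ⟨x, hx, h⟩
    exact ⟨(x', x), ⟨h, Subalgebra.mem_prod.mpr ⟨Algebra.mem_top, hx⟩⟩, rfl⟩

end CompatAlg

/-! ### The rings `𝒪[a(A), ρB(B)]` -/

section AdjB

variable {𝒪 : Type*} [CommRing 𝒪] {Y₁ Y₂ : Type*} [AddCommGroup Y₁] [Module 𝒪 Y₁]
  [AddCommGroup Y₂] [Module 𝒪 Y₂] (D : s59t_Old 𝒪 Y₁ Y₂)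
  {A₁ : Type*} [CommRing A₁] (a₁ : A₁ →+* Module.End 𝒪 Y₁) {B₁ : Type*} [CommGroup B₁]
  (ρB₁ : B₁ →* Module.End 𝒪 Y₁) (hc₁ : ∀ (t : A₁) (β : B₁), Commute (a₁ t) (ρB₁ β))
  {A₂ : Type*} [CommRing A₂] (a₂ : A₂ →+* Module.End 𝒪 Y₂) {B₂ : Type*} [CommGroup B₂]
  (ρB₂ : B₂ →* Module.End 𝒪 Y₂) (hc₂ : ∀ (t : A₂) (β : B₂), Commute (a₂ t) (ρB₂ β))

/-- on the trace rings it is enough to lift a generating set. -/
theorem s59ej_exists_compat_adj (G₂ : Set (Module.End 𝒪 Y₂))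
    (hG₂ : s59e_adj 𝒪 a₂ ≤ Algebra.adjoin 𝒪 G₂)
    (hG : ∀ x ∈ G₂, ∃ x' ∈ s59e_adj 𝒪 a₁, D.Compat x' x) :
    ∀ x ∈ s59e_adj 𝒪 a₂, ∃ x' ∈ s59e_adj 𝒪 a₁, D.Compat x' x := by
  intro x hx
  rw [← s59ej_mem_liftable]
  refine (Algebra.adjoin_le ?_) (hG₂ hx)
  intro y hy
  exact (s59ej_mem_liftable D _ y).mpr (hG y hy)

/-- the same in the other direction. -/
theorem s59ej_exists_compat_adj' (G₁ : Set (Module.End 𝒪 Y₁))
    (hG₁ : s59e_adj 𝒪 a₁ ≤ Algebra.adjoin 𝒪 G₁)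
    (hG : ∀ x' ∈ G₁, ∃ x ∈ s59e_adj 𝒪 a₂, D.Compat x' x) :
    ∀ x' ∈ s59e_adj 𝒪 a₁, ∃ x ∈ s59e_adj 𝒪 a₂, D.Compat x' x := by
  intro x' hx'
  rw [← s59ej_mem_liftable']
  refine (Algebra.adjoin_le ?_) (hG₁ hx')
  intro y hy
  exact (s59ej_mem_liftable' D _ y).mpr (hG y hy)

/-- **on the rings `T_i = 𝒪[a_i(A_i), ρB_i(B_i)]` it is enough to lift `a₂(A₂)` and `ρB₂(B₂)`.** -/
theorem s59ej_exists_compat_adjB
    (hA : ∀ x ∈ s59e_adj 𝒪 a₂, ∃ x' ∈ s59e_adj 𝒪 a₁, D.Compat x' x)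
    (hB : ∀ β : B₂, ∃ β' : B₁, D.Compat (ρB₁ β') (ρB₂ β)) :
    ∀ x ∈ s59e_adj 𝒪 (s59e_aB a₂ ρB₂ hc₂),
      ∃ x' ∈ s59e_adj 𝒪 (s59e_aB a₁ ρB₁ hc₁), D.Compat x' x := by
  intro x hx
  rw [← s59ej_mem_liftable]
  refine s59e_adjB_le a₂ ρB₂ hc₂ _ (fun t => ?_) (fun β => ?_) hx
  · obtain ⟨x', hx', h⟩ := hA (a₂ t) (Algebra.subset_adjoin ⟨t, rfl⟩)
    exact (s59ej_mem_liftable D _ _).mpr ⟨x', s59e_adj_le_adjB a₁ ρB₁ hc₁ hx', h⟩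
  · obtain ⟨β', h⟩ := hB β
    exact (s59ej_mem_liftable D _ _).mpr ⟨ρB₁ β', s59e_rho_mem_adjB a₁ ρB₁ hc₁ β', h⟩

/-- the other direction. -/
theorem s59ej_exists_compat_adjB'
    (hA : ∀ x' ∈ s59e_adj 𝒪 a₁, ∃ x ∈ s59e_adj 𝒪 a₂, D.Compat x' x)
    (hB : ∀ β' : B₁, ∃ β : B₂, D.Compat (ρB₁ β') (ρB₂ β)) :
    ∀ x' ∈ s59e_adj 𝒪 (s59e_aB a₁ ρB₁ hc₁),
      ∃ x ∈ s59e_adj 𝒪 (s59e_aB a₂ ρB₂ hc₂), D.Compat x' x := by
  intro x' hx'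
  rw [← s59ej_mem_liftable']
  refine s59e_adjB_le a₁ ρB₁ hc₁ _ (fun t => ?_) (fun β' => ?_) hx'
  · obtain ⟨x, hx, h⟩ := hA (a₁ t) (Algebra.subset_adjoin ⟨t, rfl⟩)
    exact (s59ej_mem_liftable' D _ _).mpr ⟨x, s59e_adj_le_adjB a₂ ρB₂ hc₂ hx, h⟩
  · obtain ⟨β, h⟩ := hB β'
    exact (s59ej_mem_liftable' D _ _).mpr ⟨ρB₂ β, s59e_rho_mem_adjB a₂ ρB₂ hc₂ β, h⟩

end AdjB

/-! ### Maps of eigen-parts -/

section EigMap

variable {𝒪 : Type*} [CommRing 𝒪]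
  {Δ₁ : Type*} [CommGroup Δ₁] [Fintype Δ₁] {Y₁ : Type*} [AddCommGroup Y₁] [Module 𝒪 Y₁]
  (ρ₁ : Δ₁ →* Module.End 𝒪 Y₁) (C₁ : Subgroup Δ₁) (ψ₁ : Δ₁ →* 𝒪ˣ)
  {T₁ : Type*} [CommRing T₁] [Algebra 𝒪 T₁] [Module T₁ Y₁] [IsScalarTower 𝒪 T₁ Y₁]
  (hTρ₁ : ∀ (t : T₁) (δ : Δ₁) (y : Y₁), t • ρ₁ δ y = ρ₁ δ (t • y))
  {Δ₂ : Type*} [CommGroup Δ₂] [Fintype Δ₂] {Y₂ : Type*} [AddCommGroup Y₂] [Module 𝒪 Y₂]
  (ρ₂ : Δ₂ →* Module.End 𝒪 Y₂) (C₂ : Subgroup Δ₂) (ψ₂ : Δ₂ →* 𝒪ˣ)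
  {T₂ : Type*} [CommRing T₂] [Algebra 𝒪 T₂] [Module T₂ Y₂] [IsScalarTower 𝒪 T₂ Y₂]
  (hTρ₂ : ∀ (t : T₂) (δ : Δ₂) (y : Y₂), t • ρ₂ δ y = ρ₂ δ (t • y))
  (f : Y₁ →ₗ[𝒪] Y₂) (hf : ∀ y ∈ s59t_eig ρ₁ C₁ ψ₁, f y ∈ s59t_eig ρ₂ C₂ ψ₂)

/-- the additive map of eigen-parts induced by a linear map preserving them. -/
def s59ej_eigMap : s59t_EigT ρ₁ C₁ ψ₁ hTρ₁ →+ s59t_EigT ρ₂ C₂ ψ₂ hTρ₂ where
  toFun x := s59t_EigT_mk ρ₂ C₂ ψ₂ hTρ₂ (f (s59t_EigT_val ρ₁ C₁ ψ₁ hTρ₁ x))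
    (hf _ (s59t_EigT_val_mem ρ₁ C₁ ψ₁ hTρ₁ x))
  map_zero' := by
    apply s59t_EigT_val_injective
    rw [s59t_EigT_val_mk, map_zero, map_zero, map_zero]
  map_add' x y := by
    apply s59t_EigT_val_injective
    rw [s59t_EigT_val_mk, map_add, map_add, map_add, s59t_EigT_val_mk, s59t_EigT_val_mk]

theorem s59ej_eigMap_val (x : s59t_EigT ρ₁ C₁ ψ₁ hTρ₁) :
    s59t_EigT_val ρ₂ C₂ ψ₂ hTρ₂ (s59ej_eigMap ρ₁ C₁ ψ₁ hTρ₁ ρ₂ C₂ ψ₂ hTρ₂ f hf x) =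
      f (s59t_EigT_val ρ₁ C₁ ψ₁ hTρ₁ x) := rfl

end EigMap

end Fermat.Agent.Lib.S59
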