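/-
Programme R2 (S59), node [PATCH-FLR], `T`-side, **(T1) joint levels, part (E8)** (helper5, prefix `s59efl_`): **SMALL
CONCRETE LEMMAS FOR ONE STEP OF THE CHAIN** (helper4's package `s59f_oldN`).
* `s59efl_compat_Tp'` : the package is compatible with the twisted Hecke operators `T′_ℓ` of the two levels;
* `s59efl_compat_of_val` : compatibility with the restricted package from the underlying operators;
* `s59efl_CQ_eq_one` : `C_Q` is trivial when the base subgroup is `⊤`;
* `s59efl_eig_top_base` : at the base level `(N, ⊤)` every class is in the eigen-part;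
* `s59efl_part_torsionfree` : the parts are `𝒪`-torsion-free.
-/
import Mathlib
import Fermat.Agent.Lib.S59.FEps7
import Fermat.Agent.Lib.S59.EJointL
import Fermat.Agent.Lib.S59.EHRel1

set_option autoImplicit false
set_option linter.unusedSectionVars false
set_option linter.unusedVariables false
set_option linter.style.haveILetI false

noncomputable section

namespace Fermat.Agent.Lib.S59

open Matrix MatrixGroups CongruenceSubgroup IsLocalRing
open Fermat.Agent.Lib.S29 Fermat.Agent.Lib.S48 Fermat.Agent.Lib.S41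

section Tp

variable {L q : ℕ} [NeZero L] [hq : Fact q.Prime] (hqL : ¬ q ∣ L)
  {H : Subgroup (ZMod L)ˣ} {R : Type*} [CommRing R]
  {N' : ℕ} [NeZero N'] (hN' : N' = L * q) {H' : Subgroup (ZMod N')ˣ}
  (hG' : s59f_IsG' L q H (s48h_GammaH N' H'))
  (e : SL(2, ℤ)) (he' : e ∈ Gamma0 N') (hee : s59f_gW hqL * e * e ∈ s48h_GammaH N' H')

/-- **the package is compatible with the twisted Hecke operators of the two levels.** -/
theorem s59efl_compat_Tp' (hLN : L ∣ N') (k : ℕ) (i : s59w_TIdx N') :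
    (s59f_oldN hqL hN' hG' R R e he' hee).Compat (s59e_Tp' H R k (s59t_TIdx_down hLN i))
      (s59e_Tp' H' R k i) := by
  have h1 := s59f_oldN_compat_wop hqL hN' hG' e he' hee hLN (dvd_refl N') (R := R) (Sum.inl i)
  have h2 := s59f_oldN_compat_wop hqL hN' hG' e he' hee hLN (dvd_refl N') (R := R)
    (Sum.inr (s59e_tau i k))
  rw [s59t_AIdx_down_self] at h1 h2
  have e2 : s59t_AIdx_down hLN (Sum.inr (s59e_tau i k) : s59w_AIdx N') =
      Sum.inr (s59e_tau (s59t_TIdx_down hLN i) k) := by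
    show Sum.inr _ = Sum.inr _
    congr 1
  rw [e2] at h2
  exact s59ej_compat_mul _ h2 h1

end Tp

section Val

variable {R : Type*} [CommRing R] {Y Z : Type*} [AddCommGroup Y] [Module R Y]
  [AddCommGroup Z] [Module R Z] {D : s59t_Old R Y Z}
  {ε : Module.End R Y} {ε' : Module.End R Z}

/-- compatibility with the restricted package from the underlying operators. -/
theorem s59efl_compat_of_val (h : D.Compat ε ε') {X : Module.End R Y} {X' : Module.End R Z}
    (hX : D.Compat X X') (x : Module.End R (s59t_part ε)) (x' : Module.End R (s59t_part ε'))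
    (h₁ : ∀ z, ((x z : s59t_part ε) : Y) = X (z : Y))
    (h₂ : ∀ z, ((x' z : s59t_part ε') : Z) = X' (z : Z)) :
    (D.restrict h).Compat x x' where
  resA y := Subtype.ext (by
    show ((x' ((D.restrict h).resA y) : s59t_part ε') : Z) = D.resA ((x y : s59t_part ε) : Y)
    rw [h₂, h₁]
    exact hX.resA y.1)
  resB y := Subtype.ext (by
    show ((x' ((D.restrict h).resB y) : s59t_part ε') : Z) = D.resB ((x y : s59t_part ε) : Y)
    rw [h₂, h₁]
    exact hX.resB y.1)
  corA z := Subtype.ext (by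
    show ((x ((D.restrict h).corA z) : s59t_part ε) : Y) = D.corA ((x' z : s59t_part ε') : Z)
    rw [h₂, h₁]
    exact hX.corA z.1)
  corB z := Subtype.ext (by
    show ((x ((D.restrict h).corB z) : s59t_part ε) : Y) = D.corB ((x' z : s59t_part ε') : Z)
    rw [h₂, h₁]
    exact hX.corB z.1)
  T y := Subtype.ext (by
    show ((x ((D.restrict h).T y) : s59t_part ε) : Y) = D.T ((x y : s59t_part ε) : Y)
    rw [h₁, h₁]
    exact hX.T y.1)
  U z := Subtype.ext (by
    show ((x' ((D.restrict h).U z) : s59t_part ε') : Z) = D.U ((x' z : s59t_part ε') : Z)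
    rw [h₂, h₂]
    exact hX.U z.1)
  w z := Subtype.ext (by
    show ((x' ((D.restrict h).w z) : s59t_part ε') : Z) = D.w ((x' z : s59t_part ε') : Z)
    rw [h₂, h₂]
    exact hX.w z.1)

end Val

section CQ

variable (N D : ℕ) [NeZero N] [NeZero D] (K : Subgroup (ZMod D)ˣ)

/-- `C_Q` is trivial when the base subgroup is `⊤`. -/
theorem s59efl_CQ_eq_one (c : s59t_Delta (N * D) (s59t_Hmul N D (⊤ : Subgroup (ZMod N)ˣ) K))
    (hc : c ∈ s59t_CQ N D (⊤ : Subgroup (ZMod N)ˣ) K) : c = 1 :=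
  s59t_BQ_inf_CQ c (s59f_BQ_top N D K c) hc

end CQ

section Base

variable {𝒪 : Type*} [CommRing 𝒪] (N : ℕ) [NeZero N]
  {ε : Module.End 𝒪 (s48h_Hpar 𝒪 (s48h_GammaH N (⊤ : Subgroup (ZMod N)ˣ)) 𝒪)}
  (hρ : ∀ δ y, ε (s59t_rho N (⊤ : Subgroup (ZMod N)ˣ) 𝒪 𝒪 δ y) =
    s59t_rho N (⊤ : Subgroup (ZMod N)ˣ) 𝒪 𝒪 δ (ε y))

/-- at the base level `(N, ⊤)` every class is in the eigen-part. -/
theorem s59efl_eig_top_base (y : s59t_part ε) :
    y ∈ s59t_eig (s59t_partRep (s59t_rho N (⊤ : Subgroup (ZMod N)ˣ) 𝒪 𝒪) hρ) ⊤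
      (1 : s59t_Delta N (⊤ : Subgroup (ZMod N)ˣ) →* 𝒪ˣ) := by
  intro δ _
  have hδ : δ = 1 := Subsingleton.elim _ _
  rw [hδ, map_one]
  simp only [MonoidHom.one_apply, Units.val_one, one_smul, Module.End.one_apply]

end Base

section TF

variable {𝒪 : Type*} [CommRing 𝒪] [IsDomain 𝒪] {N : ℕ} (G : Subgroup SL(2, ℤ))
  (ε : Module.End 𝒪 (s48h_Hpar 𝒪 G 𝒪))

/-- the parts are torsion-free. -/
theorem s59efl_part_torsionfree (o : 𝒪) (ho : o ≠ 0) (y : s59t_part ε) (h : o • y = 0) :
    y = 0 := by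
  apply Subtype.ext
  apply Subtype.ext
  have h1 : o • ((y : s48h_Hpar 𝒪 G 𝒪) : Additive G →+ 𝒪) = 0 := by
    have := congrArg (fun z : s59t_part ε => ((z : s48h_Hpar 𝒪 G 𝒪) : Additive G →+ 𝒪)) h
    exact this
  refine AddMonoidHom.ext fun g => ?_
  have h2 := DFunLike.congr_fun h1 g
  rw [AddMonoidHom.smul_apply, smul_eq_mul] at h2
  exact (mul_eq_zero.mp h2).resolve_left ho

end TF

end Fermat.Agent.Lib.S59
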