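/-
Programme R2 (S59), node [FLR], `T`-side, **(T1) joint levels, concrete half (C)** (helper5, prefix `s59efl_`):
**the level part of the `T`-side package over ABSTRACT idempotents `ε` (base, `Γ₀(N)`) and `ε′` (Taylor–Wiles level
`Γ_{H′}(N ∏ qv)`)**, at a level `N`, for a deformation datum `DQ` of ARBITRARY type, with the Hecke ring of the level
(`a`, `aM`, `θ : DQ.R ↠ 𝒪[aM]` and its Frobenius characteristic polynomials = the components of `s59e_B2Concl`) and the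
generators `g` of `B_Q` as INPUTS, and exporting the identifications of `s59e_TLevelL_ringX`.
* `s59efl_level_abs` : the theorem (`s59e_TPkgL_level` without its (B2) step, abstract `ε, ε′`).
-/
import Mathlib
import Fermat.Agent.Lib.S59.ELPkg
import Fermat.Agent.Lib.S59.ELLvlX
import Fermat.Agent.Lib.S59.ELLvlY
import Fermat.Agent.Lib.S59.EFlrA

set_option autoImplicit false
set_option linter.unusedSectionVars false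
set_option linter.unusedVariables false
set_option linter.style.haveILetI false
set_option maxHeartbeats 0
set_option synthInstance.maxHeartbeats 400000
set_option maxSynthPendingDepth 3

noncomputable section

namespace Fermat.Agent.Lib.S59

open IsLocalRing CuspForm Polynomial ExtCitation CongruenceSubgroup
open WeierstrassCurve WeierstrassCurve.Affine WeierstrassCurve.Affine.Point
open Fermat.Agent.Lib.S48 Fermat.Agent.Lib.S44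
open scoped MatrixGroups

local notation "Γℚ" => (AlgebraicClosure ℚ ≃ₐ[ℚ] AlgebraicClosure ℚ)

/-- **the level part of the `T`-side package, abstract idempotents, the Hecke ring of the level as an input.** -/
theorem s59efl_level_abs (p : ℕ) [Fact p.Prime] (hp5 : 5 ≤ p) (W : WeierstrassCurve ℤ) (hΔ : W.Δ ≠ 0)
    (N : ℕ) [NeZero N] (B : Finset ℕ)
    (hirr : W.ModRepIsIrreducible p) (hsq : Squarefree N) (hpN : ¬ p ∣ N)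
    (hB1 : ∀ r : ℕ, r.Prime → r ∣ N * p → r ∈ B)
    (hB2 : ∀ r : ℕ, r.Prime → ¬ W.IsGoodPrimeFor r → r ∈ B)
    (h23 : 2 ∣ N ∨ 3 ∣ N)
    (𝒪 : Type) [CommRing 𝒪] [IsDomain 𝒪] [IsDiscreteValuationRing 𝒪]
    [IsAdicComplete (maximalIdeal 𝒪) 𝒪] [Finite (ResidueField 𝒪)] [CharZero 𝒪]
    [Algebra ℤ_[p] 𝒪] [Module.Finite ℤ_[p] 𝒪]
    (hp𝒪 : ((p : ℕ) : 𝒪) ∈ maximalIdeal 𝒪)
    (r : ℕ) (σ : Type) [DecidableEq σ] [Fintype σ]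
    -- the base data
    (ε : Module.End 𝒪 (s48h_Hpar 𝒪 (s48h_GammaH N (⊤ : Subgroup (ZMod N)ˣ)) 𝒪))
    (hεc : ∀ jdx : s59w_AIdx N, ε * s59w_op (⊤ : Subgroup (ZMod N)ˣ) 𝒪 jdx =
      s59w_op (⊤ : Subgroup (ZMod N)ˣ) 𝒪 jdx * ε)
    (hρ : ∀ δ y, ε (s59t_rho N (⊤ : Subgroup (ZMod N)ˣ) 𝒪 𝒪 δ y) = s59t_rho N (⊤ : Subgroup (ZMod N)ˣ) 𝒪 𝒪 δ (ε y))
    (d : ℕ) (hd0 : d ≠ 0)
    (b0 : Fin d → LinearMap.range ε)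
    (hb0 : Function.Bijective (s59t_evalMap (s59t_partRep (s59t_rho N (⊤ : Subgroup (ZMod N)ˣ) 𝒪 𝒪) hρ) b0))
    (a₀ : heckeAlgebra N 2 (↑B : Set ℕ) →+*
      Module.End 𝒪 (s48h_Hpar 𝒪 (s48h_GammaH N (⊤ : Subgroup (ZMod N)ˣ)) 𝒪))
    (ha1₀ : ∀ (ℓ : ℕ) (hℓ : ℓ.Prime) (hℓN : ¬ ℓ ∣ N) (hℓS : ℓ ∉ (↑B : Set ℕ)) (i : s59w_TIdx N),
      i.ell = ℓ → a₀ (heckeAlgebra.T hℓ hℓN hℓS) = s59e_Tp' (⊤ : Subgroup (ZMod N)ˣ) 𝒪 ((p ^ 0 - 1) * ((p ^ 0 + 1) / 2)) i)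
    (aM₀ : heckeAlgebra N 2 (↑B : Set ℕ) →+* Module.End 𝒪 (LinearMap.range ε))
    (haM₀ : ∀ t (z : LinearMap.range ε), ((aM₀ t z : LinearMap.range ε) :
      s48h_Hpar 𝒪 (s48h_GammaH N (⊤ : Subgroup (ZMod N)ˣ)) 𝒪) =
        a₀ t (z : s48h_Hpar 𝒪 (s48h_GammaH N (⊤ : Subgroup (ZMod N)ˣ)) 𝒪))
    [IsLocalRing (s59e_adj 𝒪 aM₀)] [IsNoetherianRing (s59e_adj 𝒪 aM₀)]
    [Module.Finite 𝒪 (s59e_adj 𝒪 aM₀)]
    (hRρ : ∀ (t : s59e_adj 𝒪 aM₀) (δ : s59t_Delta N (⊤ : Subgroup (ZMod N)ˣ)) (y : LinearMap.range ε),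
      t • (s59t_partRep (s59t_rho N (⊤ : Subgroup (ZMod N)ˣ) 𝒪 𝒪) hρ) δ y = (s59t_partRep (s59t_rho N (⊤ : Subgroup (ZMod N)ˣ) 𝒪 𝒪) hρ) δ (t • y))
    (ρR : GaloisRepAdic (s59e_adj 𝒪 aM₀))
    (hfrobR : ∀ (ℓ : ℕ), ℓ.Prime → ¬ ℓ ∣ N → ℓ ∉ (↑B : Set ℕ) →
      ∀ A : ValuationSubring (AlgebraicClosure ℚ), A.LiesOverPrime ℓ →
      ∀ g : Γℚ, A.IsFrobeniusAt g ℓ →
        LinearMap.charpoly (ρR.ρ g) =
          Polynomial.X ^ 2 - Polynomial.C (s59e_tOf (↑B : Set ℕ) aM₀ ℓ) * Polynomial.X +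
            Polynomial.C ((ℓ : s59e_adj 𝒪 aM₀)))
    (hgenR : Algebra.adjoin 𝒪 {x : s59e_adj 𝒪 aM₀ | ∃ ℓ : ℕ, ℓ.Prime ∧ ¬ ℓ ∣ N ∧
      ℓ ∉ (↑B : Set ℕ) ∧ x = s59e_tOf (↑B : Set ℕ) aM₀ ℓ} = ⊤)
    -- the level
    (n : ℕ) (qv : Fin r → ℕ) [NeZero (∏ j, qv j)] [NeZero (N * ∏ j, qv j)]
    [NeZero (N * ∏ q ∈ Finset.univ.image qv, q ^ 2)]
    (hqinj : Function.Injective qv)
    (hqv : ∀ i, (qv i).Prime ∧ qv i ∉ B ∧ p ^ (n + 1) ∣ qv i - 1)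
    (hTW : ∀ i, ∀ A : ValuationSubring (AlgebraicClosure ℚ), A.LiesOverPrime (qv i) →
      ∀ φ : Γℚ, A.IsFrobeniusAt φ (qv i) →
        ∃ α β : ResidueField 𝒪, α ≠ β ∧
          LinearMap.charpoly ((s59i_rhobarW W p hΔ 𝒪 hp𝒪).ρ φ) = (X - C α) * (X - C β))
    -- the idempotent of the level
    (ε' : Module.End 𝒪 (s48h_Hpar 𝒪 (s48h_GammaH (N * ∏ j, qv j) (s59t_Hmul N (∏ j, qv j) (⊤ : Subgroup (ZMod N)ˣ) (s59t_KQ (p ^ n) qv))) 𝒪))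
    (hid' : ε' * ε' = ε')
    (hεc' : ∀ jdx : s59w_AIdx (N * ∏ j, qv j), ε' * s59w_op (s59t_Hmul N (∏ j, qv j) (⊤ : Subgroup (ZMod N)ˣ) (s59t_KQ (p ^ n) qv)) 𝒪 jdx = s59w_op (s59t_Hmul N (∏ j, qv j) (⊤ : Subgroup (ZMod N)ˣ) (s59t_KQ (p ^ n) qv)) 𝒪 jdx * ε')
    (hP1 : s59t_TWFull (s59t_Gamma0_anti (s59t_dvd_mul_left' N (∏ j, qv j)))
      (s59t_GammaHmul_le (N := N) (D := ∏ j, qv j) (H := (⊤ : Subgroup (ZMod N)ˣ)) (K := s59t_KQ (p ^ n) qv))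
      (s59t_BQ N (∏ j, qv j) (⊤ : Subgroup (ZMod N)ˣ) (s59t_KQ (p ^ n) qv))
      (s59t_CQ N (∏ j, qv j) (⊤ : Subgroup (ZMod N)ˣ) (s59t_KQ (p ^ n) qv)) ε ε')
    -- the generators of `B_Q`
    (g : Fin r → s59t_BQ N (∏ j, qv j) (⊤ : Subgroup (ZMod N)ˣ) (s59t_KQ (p ^ n) qv))
    (hcard : Nat.card (s59t_BQ N (∏ j, qv j) (⊤ : Subgroup (ZMod N)ˣ) (s59t_KQ (p ^ n) qv)) = (p ^ n) ^ r)
    (hgen : ∀ x : s59t_BQ N (∏ j, qv j) (⊤ : Subgroup (ZMod N)ˣ) (s59t_KQ (p ^ n) qv), ∃ a : Fin r → ℕ,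
      x = ∏ i, g i ^ a i)
    (hord : ∀ i, g i ^ (p ^ n) = 1)
    (hgloc : ∀ i, ∃ τ : Gamma0 (N * ∏ j, qv j),
      (QuotientGroup.mk τ : s59t_Delta (N * ∏ j, qv j) (s59t_Hmul N (∏ j, qv j) (⊤ : Subgroup (ZMod N)ˣ) (s59t_KQ (p ^ n) qv))) = (g i : s59t_Delta (N * ∏ j, qv j) (s59t_Hmul N (∏ j, qv j) (⊤ : Subgroup (ZMod N)ˣ) (s59t_KQ (p ^ n) qv))) ∧
      ZMod.unitsMap (Nat.div_dvd_of_dvd (s59t_qv_dvd_level qv N i))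
        (s59t_unitHom (N * ∏ j, qv j) τ) = 1)
    {𝒟 : ∀ ⦃A : Type⦄ [CommRing A] [IsLocalRing A] [Algebra 𝒪 A], GaloisRepAdic A → Prop}
    (DQ : GaloisRep.DeformationRingData 𝒪 (s59i_rhobarW W p hΔ 𝒪 hp𝒪) 𝒟)
    -- the Hecke ring of the level (= the components of `s59e_B2Concl`)
    (a : heckeAlgebra (N * ∏ q ∈ Finset.univ.image qv, q ^ 2) 2 (↑(B ∪ Finset.univ.image qv) : Set ℕ) →+* Module.End 𝒪 (s48h_Hpar 𝒪 (s48h_GammaH (N * ∏ j, qv j) (s59t_Hmul N (∏ j, qv j) (⊤ : Subgroup (ZMod N)ˣ) (s59t_KQ (p ^ n) qv))) 𝒪))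
    (ha1 : ∀ (ℓ : ℕ) (hℓ : ℓ.Prime) (hℓN : ¬ ℓ ∣ (N * ∏ q ∈ Finset.univ.image qv, q ^ 2))
      (hℓS : ℓ ∉ (↑(B ∪ Finset.univ.image qv) : Set ℕ)) (i : s59w_TIdx (N * ∏ j, qv j)),
      i.ell = ℓ → a (heckeAlgebra.T hℓ hℓN hℓS) =
        s59e_Tp' (s59t_Hmul N (∏ j, qv j) (⊤ : Subgroup (ZMod N)ˣ) (s59t_KQ (p ^ n) qv)) 𝒪 ((p ^ (0 + n) - 1) * ((p ^ (0 + n) + 1) / 2)) i)
    (ha2 : ∀ t, a t ∈ Subring.closure (Set.range (s59e_Tp' (s59t_Hmul N (∏ j, qv j) (⊤ : Subgroup (ZMod N)ˣ) (s59t_KQ (p ^ n) qv)) 𝒪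
      ((p ^ (0 + n) - 1) * ((p ^ (0 + n) + 1) / 2)))))
    (aM : heckeAlgebra (N * ∏ q ∈ Finset.univ.image qv, q ^ 2) 2 (↑(B ∪ Finset.univ.image qv) : Set ℕ) →+* Module.End 𝒪 (LinearMap.range ε'))
    (haM : ∀ t (z : LinearMap.range ε'), ((aM t z : LinearMap.range ε') : (s48h_Hpar 𝒪 (s48h_GammaH (N * ∏ j, qv j) (s59t_Hmul N (∏ j, qv j) (⊤ : Subgroup (ZMod N)ˣ) (s59t_KQ (p ^ n) qv))) 𝒪)) =
      a t (z : (s48h_Hpar 𝒪 (s48h_GammaH (N * ∏ j, qv j) (s59t_Hmul N (∏ j, qv j) (⊤ : Subgroup (ZMod N)ˣ) (s59t_KQ (p ^ n) qv))) 𝒪)))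
    (hlocA : ∀ x ∈ s59e_adj 𝒪 aM, ∃ d : 𝒪, s59e_IsLocScalar x d)
    [IsLocalRing (s59e_adj 𝒪 aM)]
    (θ : DQ.R →ₐ[𝒪] s59e_adj 𝒪 aM) (hθ : Function.Surjective θ)
    (hfrobT : ∀ ℓ : ℕ, ℓ.Prime → ℓ ∉ (B ∪ Finset.univ.image qv) →
      ∀ A' : ValuationSubring (AlgebraicClosure ℚ), A'.LiesOverPrime ℓ →
      ∀ τ : Γℚ, A'.IsFrobeniusAt τ ℓ →
        (LinearMap.charpoly (DQ.ρ.ρ τ)).map (θ : DQ.R →+* s59e_adj 𝒪 aM) =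
          Polynomial.X ^ 2 - Polynomial.C (s59e_tOf (↑(B ∪ Finset.univ.image qv) : Set ℕ) aM ℓ) * Polynomial.X +
            Polynomial.C ((ℓ : s59e_adj 𝒪 aM)))
    (hcong : ∀ ℓ : ℕ, ℓ.Prime → ℓ ∉ (B ∪ Finset.univ.image qv) →
      s59e_tOf (↑(B ∪ Finset.univ.image qv) : Set ℕ) aM ℓ -
        algebraMap 𝒪 (s59e_adj 𝒪 aM) (((W.apOfModel ℓ : ℤ) : 𝒪)) ∈ maximalIdeal (s59e_adj 𝒪 aM)) :
    ∃ (hρ' : ∀ δ y, ε' (s59t_rho (N * ∏ j, qv j) (s59t_Hmul N (∏ j, qv j) (⊤ : Subgroup (ZMod N)ˣ) (s59t_KQ (p ^ n) qv)) 𝒪 𝒪 δ y) =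
        s59t_rho (N * ∏ j, qv j) (s59t_Hmul N (∏ j, qv j) (⊤ : Subgroup (ZMod N)ˣ) (s59t_KQ (p ^ n) qv)) 𝒪 𝒪 δ (ε' y))
      (π : s59t_part ε' →ₗ[𝒪] s59t_part ε)
      (hcomm : ∀ (t : heckeAlgebra (N * ∏ q ∈ Finset.univ.image qv, q ^ 2) 2 (↑(B ∪ Finset.univ.image qv) : Set ℕ)) (β : (s59t_BQ N (∏ j, qv j) (⊤ : Subgroup (ZMod N)ˣ) (s59t_KQ (p ^ n) qv))),
        Commute (aM t) (((s59t_partRep (s59t_rho (N * ∏ j, qv j) (s59t_Hmul N (∏ j, qv j) (⊤ : Subgroup (ZMod N)ˣ) (s59t_KQ (p ^ n) qv)) 𝒪 𝒪) hρ').comp (s59t_BQ N (∏ j, qv j) (⊤ : Subgroup (ZMod N)ˣ) (s59t_KQ (p ^ n) qv)).subtype) β))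
      (hTρ : ∀ (t : s59e_adj 𝒪 (s59e_aB aM ((s59t_partRep (s59t_rho (N * ∏ j, qv j) (s59t_Hmul N (∏ j, qv j) (⊤ : Subgroup (ZMod N)ˣ) (s59t_KQ (p ^ n) qv)) 𝒪 𝒪) hρ').comp (s59t_BQ N (∏ j, qv j) (⊤ : Subgroup (ZMod N)ˣ) (s59t_KQ (p ^ n) qv)).subtype) hcomm)) δ y,
        t • (s59t_partRep (s59t_rho (N * ∏ j, qv j) (s59t_Hmul N (∏ j, qv j) (⊤ : Subgroup (ZMod N)ˣ) (s59t_KQ (p ^ n) qv)) 𝒪 𝒪) hρ') δ y = (s59t_partRep (s59t_rho (N * ∏ j, qv j) (s59t_Hmul N (∏ j, qv j) (⊤ : Subgroup (ZMod N)ˣ) (s59t_KQ (p ^ n) qv)) 𝒪 𝒪) hρ') δ (t • y))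
      (h2 : ∀ y ∈ s59t_eig (s59t_partRep (s59t_rho (N * ∏ j, qv j) (s59t_Hmul N (∏ j, qv j) (⊤ : Subgroup (ZMod N)ˣ) (s59t_KQ (p ^ n) qv)) 𝒪 𝒪) hρ') (s59t_CQ N (∏ j, qv j) (⊤ : Subgroup (ZMod N)ˣ) (s59t_KQ (p ^ n) qv))
          (1 : s59t_Delta (N * ∏ j, qv j) (s59t_Hmul N (∏ j, qv j) (⊤ : Subgroup (ZMod N)ˣ) (s59t_KQ (p ^ n) qv)) →* 𝒪ˣ),
        π y ∈ s59t_eig (s59t_partRep (s59t_rho N (⊤ : Subgroup (ZMod N)ˣ) 𝒪 𝒪) hρ) ⊤ (1 : s59t_Delta N (⊤ : Subgroup (ZMod N)ˣ) →* 𝒪ˣ)),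
      -- the control map
      Function.Injective (s59t_iotaH ε ε' (s59t_resGHpar
        (s59t_GammaHmul_le (N := N) (D := ∏ j, qv j) (H := (⊤ : Subgroup (ZMod N)ˣ)) (K := s59t_KQ (p ^ n) qv)) 𝒪 𝒪)) ∧
      (∀ y, s59t_iotaH ε ε' (s59t_resGHpar
        (s59t_GammaHmul_le (N := N) (D := ∏ j, qv j) (H := (⊤ : Subgroup (ZMod N)ˣ)) (K := s59t_KQ (p ^ n) qv)) 𝒪 𝒪) (π y) =
        s59t_normPsi (s59t_partRep (s59t_rho (N * ∏ j, qv j) (s59t_Hmul N (∏ j, qv j) (⊤ : Subgroup (ZMod N)ˣ) (s59t_KQ (p ^ n) qv)) 𝒪 𝒪) hρ') (s59t_BQ N (∏ j, qv j) (⊤ : Subgroup (ZMod N)ˣ) (s59t_KQ (p ^ n) qv)) 1 y) ∧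
      -- the level, with the identifications
      Nonempty (s59efl_RingRec (p := p) r σ DQ n (s59t_partRep (s59t_rho N (⊤ : Subgroup (ZMod N)ˣ) 𝒪 𝒪) hρ) (s59e_adj 𝒪 aM₀) hRρ ρR d
        (s59t_partRep (s59t_rho (N * ∏ j, qv j) (s59t_Hmul N (∏ j, qv j) (⊤ : Subgroup (ZMod N)ˣ) (s59t_KQ (p ^ n) qv)) 𝒪 𝒪) hρ') (s59t_BQ N (∏ j, qv j) (⊤ : Subgroup (ZMod N)ˣ) (s59t_KQ (p ^ n) qv)) (s59t_CQ N (∏ j, qv j) (⊤ : Subgroup (ZMod N)ˣ) (s59t_KQ (p ^ n) qv)) π aM hcomm hTρ h2 g θ qv) := by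
  classical
  have hpP : p.Prime := Fact.out
  have hp2 : p ≠ 2 := by omega
  have htors : s59e_auxTors p N := s59e_auxTors_of_five_le hpP hp5 N
  have hN1 : 1 < N := by
    rcases h23 with h | h
    · have := Nat.le_of_dvd (Nat.pos_of_ne_zero (NeZero.ne N)) h
      omega
    · have := Nat.le_of_dvd (Nat.pos_of_ne_zero (NeZero.ne N)) h
      omega
  have hgoodB : ∀ q : ℕ, q.Prime → q ∉ B → W.IsGoodPrimeFor q := by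
    intro q hq hqB
    by_contra hbad
    exact hqB (hB2 q hq hbad)
  have hNB : ∀ q : ℕ, q.Prime → q ∣ N → q ∈ B := fun q hq h => hB1 q hq (Dvd.dvd.mul_right h p)
  have hpB : p ∈ B := hB1 p hpP (Dvd.intro_left N rfl)
  have hnegH : (-1 : (ZMod N)ˣ) ∈ (⊤ : Subgroup (ZMod N)ˣ) := Subgroup.mem_top _
  have hH : ∀ u : (ZMod N)ˣ, ∃ k : ℕ, u ^ (p ^ k) ∈ (⊤ : Subgroup (ZMod N)ˣ) :=
    fun u => ⟨0, Subgroup.mem_top _⟩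
  have hqvpr : ∀ i, (qv i).Prime := fun i => (hqv i).1
  obtain ⟨hCB, -⟩ :=
    s59u_W_level_grp p N hsq B hNB (⊤ : Subgroup (ZMod N)ˣ) n qv hqinj hqv
  -- the module side (P1)
  obtain ⟨hρ1, hρ', dn, bn, bn', π, hbn, hbn', hιinj, hιsurj, hιπ, hπsurj, hπker, hπdia, hπeq,
    ⟨h2, h3, h4⟩, -⟩ := hP1
  have hdn : d = dn := (s59u_rank_unique _ bn hbn b0 hb0).symm
  subst hdn
  -- the module `Y' = ε' H_par` is finite free and nonzero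
  let bZ := Module.Free.chooseBasis ℤ (s48h_M (s48h_GammaH (N * ∏ j, qv j) (s59t_Hmul N (∏ j, qv j) (⊤ : Subgroup (ZMod N)ˣ) (s59t_KQ (p ^ n) qv))))
  haveI : Module.Free 𝒪 (s48h_Hpar 𝒪 (s48h_GammaH (N * ∏ j, qv j) (s59t_Hmul N (∏ j, qv j) (⊤ : Subgroup (ZMod N)ˣ) (s59t_KQ (p ^ n) qv))) 𝒪) :=
    Module.Free.of_basis (s59u_cB bZ 𝒪)
  haveI : Module.Finite 𝒪 (s48h_Hpar 𝒪 (s48h_GammaH (N * ∏ j, qv j) (s59t_Hmul N (∏ j, qv j) (⊤ : Subgroup (ZMod N)ˣ) (s59t_KQ (p ^ n) qv))) 𝒪) :=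
    Module.Finite.of_basis (s59u_cB bZ 𝒪)
  haveI : Module.Finite 𝒪 (LinearMap.range ε') := s59t_part_finite _
  haveI : Module.Free 𝒪 (LinearMap.range ε') := s59t_part_free hid'
  have hε'ne := (s59t_part_ne_zero_iff _ bn' hbn').2 hd0
  haveI : Nontrivial (LinearMap.range ε') := s59e_L_range_nontrivial _ hε'ne
  -- the numerology of the level
  have hqvN : ∀ i, ¬ qv i ∣ N := fun i h => (hqv i).2.1 (hNB _ (hqvpr i) h)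
  have hMeq₂ := s59k_level_eq_top qv N hqinj
  have hD₂ : ∏ q ∈ Finset.univ.image qv, q ∣ N * ∏ i, qv i := Dvd.intro_left N hMeq₂.symm
  have hQ := s59k_hQ_top qv N hqvpr hqvN
  haveI : NeZero (N * ∏ q ∈ Finset.univ.image qv, q ^ 2) :=
    ⟨Nat.mul_ne_zero (NeZero.ne N) (Finset.prod_ne_zero_iff.mpr fun q hq =>
      pow_ne_zero 2 (hQ q hq).1.ne_zero)⟩
  haveI : Fact (HasIntegralStructure (N * ∏ q ∈ Finset.univ.image qv, q ^ 2) 2) := ⟨Fermat.Agent.S23.result _⟩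
  have hS₂ : ∀ q : ℕ, q.Prime → q ∣ (N * ∏ q ∈ Finset.univ.image qv, q ^ 2) → q ∈ (B ∪ Finset.univ.image qv) := by
    intro q hq hqM
    rcases (Nat.Prime.dvd_mul hq).mp hqM with h | h
    · exact Finset.mem_union_left _ (hNB q hq h)
    · obtain ⟨q', hq', hqq'⟩ := (Prime.dvd_finsetProd_iff (Nat.prime_iff.mp hq) _).mp h
      obtain ⟨i, -, rfl⟩ := Finset.mem_image.mp hq'
      have hqe : q = qv i := (Nat.prime_dvd_prime_iff_eq hq (hqvpr i)).mp (hq.dvd_of_dvd_pow hqq')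
      subst hqe
      exact Finset.mem_union_right _ (Finset.mem_image_of_mem qv (Finset.mem_univ i))
  have hMS : ∀ q : ℕ, q.Prime → q ∣ N * ∏ j, qv j → q ∈ (B ∪ Finset.univ.image qv) := by
    intro q hq hqM
    rcases (Nat.Prime.dvd_mul hq).mp hqM with h | h
    · exact Finset.mem_union_left _ (hNB q hq h)
    · obtain ⟨i, -, hi⟩ := (Prime.dvd_finsetProd_iff (Nat.prime_iff.mp hq) _).mp h
      have hqe : q = qv i := (Nat.prime_dvd_prime_iff_eq hq (hqvpr i)).mp hi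
      subst hqe
      exact Finset.mem_union_right _ (Finset.mem_image_of_mem qv (Finset.mem_univ i))
  have hX : ∀ q ∈ Finset.univ.image qv, q.Prime ∧ q ∉ B := by
    intro q hq
    obtain ⟨i, -, rfl⟩ := Finset.mem_image.mp hq
    exact ⟨hqvpr i, (hqv i).2.1⟩
  have hnm := s59k_hnm_pow hpP hp2 (0 + n)
  have hn := s59k_ppow_mem_Hmul_top N qv p 0 n
  have hHker := s59k_hH_top qv N (p ^ n) hqinj rfl hD₂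
  have hFa : ∀ t δ, Commute (aM t) ((s59t_partRep (s59t_rho (N * ∏ j, qv j) _ 𝒪 𝒪) hρ') δ) :=
    s59e_hFa_part _ _ hρ' a _ ha2 aM haM
  have hcomm : ∀ (t : heckeAlgebra (N * ∏ q ∈ Finset.univ.image qv, q ^ 2) 2 (↑(B ∪ Finset.univ.image qv) : Set ℕ)) (β : (s59t_BQ N (∏ j, qv j) (⊤ : Subgroup (ZMod N)ˣ) (s59t_KQ (p ^ n) qv))),
      Commute (aM t) (((s59t_partRep (s59t_rho (N * ∏ j, qv j) _ 𝒪 𝒪) hρ').comp (s59t_BQ N (∏ j, qv j) (⊤ : Subgroup (ZMod N)ˣ) (s59t_KQ (p ^ n) qv)).subtype) β) :=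
    fun t β => hFa t β
  have hTρ : ∀ (t : s59e_adj 𝒪 (s59e_aB aM _ hcomm)) δ y,
      t • (s59t_partRep (s59t_rho (N * ∏ j, qv j) _ 𝒪 𝒪) hρ') δ y = (s59t_partRep (s59t_rho (N * ∏ j, qv j) _ 𝒪 𝒪) hρ') δ (t • y) := fun t δ y =>
    s59e_hTρ aM _ hcomm ((s59t_partRep (s59t_rho (N * ∏ j, qv j) _ 𝒪 𝒪) hρ') δ)
      (fun s => hFa s δ) (fun β => (Commute.all (β : s59t_Delta (N * ∏ j, qv j) _) δ).map
        (s59t_partRep (s59t_rho (N * ∏ j, qv j) _ 𝒪 𝒪) hρ')) t y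
  -- (B3) the descent
  have hB3 := s59n_descent_lvl (s59t_dvd_mul_left' N (∏ j, qv j))
    (s59t_Gamma0_anti (s59t_dvd_mul_left' N (∏ j, qv j)))
    (s59t_GammaHmul_le (N := N) (D := ∏ j, qv j) (H := (⊤ : Subgroup (ZMod N)ˣ)) (K := s59t_KQ (p ^ n) qv))
    ε ε' hεc hεc' hρ hρ' π hπsurj hπdia hπeq
    (N * ∏ q ∈ Finset.univ.image qv, q ^ 2) (B ∪ Finset.univ.image qv)
    (hMeq₂ ▸ Nat.mul_dvd_mul_left _ (Finset.prod_dvd_prod_of_dvd _ _ fun q _ =>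
      Dvd.intro _ (pow_two q).symm))
    a ((p ^ (0 + n) - 1) * ((p ^ (0 + n) + 1) / 2)) ha1 aM haM N B a₀ ((p ^ 0 - 1) * ((p ^ 0 + 1) / 2)) ha1₀ aM₀ haM₀ 1
    (fun u => Subgroup.mem_top _) (Nat.modEq_one) hS₂ (Dvd.intro _ rfl) Finset.subset_union_left
    (s59t_BQ N (∏ j, qv j) (⊤ : Subgroup (ZMod N)ˣ) (s59t_KQ (p ^ n) qv)) (fun β hβ => MonoidHom.mem_ker.mp hβ) hcomm
  obtain ⟨ψ, hπψ, hψd, hψt0⟩ := hB3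
  have hψt : ∀ ℓ : ℕ, ℓ.Prime → ℓ ∉ (B ∪ Finset.univ.image qv) →
      ψ (s59e_incl aM _ hcomm (s59e_tOf _ aM ℓ)) = s59e_tOf (↑B : Set ℕ) aM₀ ℓ := by
    intro ℓ hℓ hℓS
    have k1 : ¬ ℓ ∣ (N * ∏ q ∈ Finset.univ.image qv, q ^ 2) := fun h => hℓS (hS₂ ℓ hℓ h)
    have k2 : ℓ ∉ (↑(B ∪ Finset.univ.image qv) : Set ℕ) := fun h => hℓS (Finset.mem_coe.mp h)
    have k4 : ℓ ∉ (↑B : Set ℕ) := fun h => hℓS (Finset.mem_union_left _ (Finset.mem_coe.mp h))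
    have k3 : ¬ ℓ ∣ N := fun h => k4 (Finset.mem_coe.mpr (hNB ℓ hℓ h))
    exact (congrArg (fun x => ψ (s59e_incl aM _ hcomm x)) (s59e_tOf_eq _ aM hℓ k1 k2)).trans
      ((hψt0 ℓ hℓ k1 k2 k3 k4).trans (s59e_tOf_eq _ aM₀ hℓ k3 k4).symm)
  -- `hC8`, with the inertia elements
  have hC8 := s59e_L_hC8_level (s59t_Hmul N (∏ j, qv j) (⊤ : Subgroup (ZMod N)ˣ) (s59t_KQ (p ^ n) qv)) ε' (fun x y => LinearMap.congr_fun (hεc' x) y) hρ' a ((p ^ (0 + n) - 1) * ((p ^ (0 + n) + 1) / 2)) ha2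
    aM haM (s59t_BQ N (∏ j, qv j) (⊤ : Subgroup (ZMod N)ˣ) (s59t_KQ (p ^ n) qv)) (s59t_CQ N (∏ j, qv j) (⊤ : Subgroup (ZMod N)ˣ) (s59t_KQ (p ^ n) qv)) (1 : s59t_Delta (N * ∏ j, qv j) (s59t_Hmul N (∏ j, qv j) (⊤ : Subgroup (ZMod N)ˣ) (s59t_KQ (p ^ n) qv)) →* 𝒪ˣ) hcomm hTρ
    p hp5 W hΔ hirr B hpB hB2 N (Finset.univ.image qv) hMeq₂ hQ rfl hD₂ hHker
    (s59u_squarefree_level qv hsq hNB hqvpr (fun i => (hqv i).2.1) hqinj)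
    (h23.imp (fun h => Dvd.dvd.mul_right h _) (fun h => Dvd.dvd.mul_right h _))
    (s59k_neg_one_mem_Hmul_top N (p ^ n) qv (s59k_odd_pow hpP hp2 n))
    hnm hn rfl hp𝒪 (B ∪ Finset.univ.image qv) Finset.subset_union_left hMS DQ θ hθ (s59e_tOf _ aM)
    (s59e_htT'_part _ _ _ a _ ha1 aM haM hS₂) hfrobT hcong n qv hqv
    (fun i => Finset.mem_image_of_mem qv (Finset.mem_univ i)) hTW (s59t_qv_dvd_level qv N) g hgloc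
  have hrec := s59efl_ringRec r σ hp2 hp𝒪 DQ n (s59t_partRep (s59t_rho N (⊤ : Subgroup (ZMod N)ˣ) 𝒪 𝒪) hρ) (s59e_adj 𝒪 aM₀) hRρ ρR
    (s59e_tOf (↑B : Set ℕ) aM₀) hfrobR hgenR d
    (s59t_partRep (s59t_rho (N * ∏ j, qv j) _ 𝒪 𝒪) hρ') _ _ hCB bn' hbn' π aM hcomm hlocA hTρ h2 h3 h4 ψ hψd hπψ g hcard hgen hord θ hθ
    (B ∪ Finset.univ.image qv) (fun ℓ hℓ hℓS => ⟨fun h => hℓS (Finset.mem_union_left _ (hNB ℓ hℓ h)),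
      fun h => hℓS (Finset.mem_union_left _ (by exact_mod_cast h))⟩)
    (s59e_tOf _ aM) hfrobT hψt qv hC8
  exact ⟨hρ', π, hcomm, hTρ, h2, hιinj, hιπ, hrec⟩

end Fermat.Agent.Lib.S59
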