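/-
Programme R2 (S59), node [PATCH-FLR], `T`-side, **(T1) joint levels, concrete half** (helper5, prefix `s59efl_`): **THE TRACE RING OF A LEVEL.**
For an idempotent `ε′` of `H_par(Γ_H(Lv), 𝒪)`, `aM : A → End_𝒪(ε′H_par)` and the components of (B2) (`hlocA`, `θ : DQ.R ↠ 𝒪[aM]`, Frobenius polynomials,
`T_ℓ ≡ a_ℓ(W)`), for a universal ring `DQ` of the flat type `(Sg, Smin)`:
* `s59efl_trace_facts`   : `𝒪[aM]` is a test algebra (noetherian, complete, `𝒪 → 𝒪[aM]` local, residue field `𝔽`), `DQ.ρ ⊗_θ 𝒪[aM]` has residual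
  representation `ρ̄` and is of the type of `DQ` (= the inputs `hres𝒪`, `hθ₁l`, `h𝒟`, `hres` of `s59efl_link`);
* `s59efl_adj_reduced`   : `𝒪[aM]` is reduced (helper3's `s59u_hrad_subalgebra`);
* `s59efl_adj_torsionfree` : `𝒪[aM]` is `𝒪`-torsion-free (= `IsReduced T′`, `htf` of helper4's `s59f_TLevelF`).
-/
import Mathlib
import Fermat.Agent.Lib.S59.EFlrBase
import Fermat.Agent.Lib.S59.UHradE

set_option autoImplicit false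
set_option linter.unusedSectionVars false
set_option linter.unusedVariables false
set_option linter.style.haveILetI false
set_option maxHeartbeats 0
set_option synthInstance.maxHeartbeats 400000
set_option maxSynthPendingDepth 3

noncomputable section

namespace Fermat.Agent.Lib.S59

open IsLocalRing CuspForm Polynomial ExtCitation CongruenceSubgroup
open WeierstrassCurve WeierstrassCurve.Affine WeierstrassCurve.Affine.Point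
open Fermat.Agent.Lib.S48 Fermat.Agent.Lib.S44
open scoped MatrixGroups

local notation "Γℚ" => (AlgebraicClosure ℚ ≃ₐ[ℚ] AlgebraicClosure ℚ)

/-- **the trace ring of a level is a test algebra carrying a deformation of the type of `DQ`.** -/
theorem s59efl_trace_facts (p : ℕ) [Fact p.Prime] (hp2 : p ≠ 2) (W : WeierstrassCurve ℤ) (hΔ : W.Δ ≠ 0)
    (B : Finset ℕ) (hirr : W.ModRepIsIrreducible p) (hpB : p ∈ B)
    (hB2 : ∀ r : ℕ, r.Prime → ¬ W.IsGoodPrimeFor r → r ∈ B)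
    (𝒪 : Type) [CommRing 𝒪] [IsDomain 𝒪] [IsDiscreteValuationRing 𝒪]
    [IsAdicComplete (maximalIdeal 𝒪) 𝒪] [Finite (ResidueField 𝒪)] [CharZero 𝒪]
    [Algebra ℤ_[p] 𝒪] [Module.Finite ℤ_[p] 𝒪]
    (hp𝒪 : ((p : ℕ) : 𝒪) ∈ maximalIdeal 𝒪)
    (Sg Smin : Finset ℕ)
    (DQ : GaloisRep.DeformationRingData 𝒪 (s59i_rhobarW W p hΔ 𝒪 hp𝒪) (fun _A _ _ _ ρ =>
      GaloisRep.flatCondition 𝒪 p Sg ρ ∧
        ∀ q ∈ Smin, q.Prime → q ≠ p → ρ.IsUnipotentOnInertiaAt q))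
    {Lv : ℕ} [NeZero Lv] (H : Subgroup (ZMod Lv)ˣ)
    (ε' : Module.End 𝒪 (s48h_Hpar 𝒪 (s48h_GammaH Lv H) 𝒪)) (hid' : ε' * ε' = ε') (hne' : ε' ≠ 0)
    {A : Type} [CommRing A] (aM : A →+* Module.End 𝒪 (LinearMap.range ε'))
    (hlocA : ∀ x ∈ s59e_adj 𝒪 aM, ∃ d : 𝒪, s59e_IsLocScalar x d)
    [IsLocalRing (s59e_adj 𝒪 aM)]
    (θ : DQ.R →ₐ[𝒪] s59e_adj 𝒪 aM) (hθ : Function.Surjective θ)
    (S : Finset ℕ) (hBS : B ⊆ S) (tT' : ℕ → s59e_adj 𝒪 aM)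
    (hfrobT : ∀ ℓ : ℕ, ℓ.Prime → ℓ ∉ S →
      ∀ A' : ValuationSubring (AlgebraicClosure ℚ), A'.LiesOverPrime ℓ →
      ∀ τ : Γℚ, A'.IsFrobeniusAt τ ℓ →
        (LinearMap.charpoly (DQ.ρ.ρ τ)).map (θ : DQ.R →+* s59e_adj 𝒪 aM) =
          Polynomial.X ^ 2 - Polynomial.C (tT' ℓ) * Polynomial.X +
            Polynomial.C ((ℓ : s59e_adj 𝒪 aM)))
    (hcong : ∀ ℓ : ℕ, ℓ.Prime → ℓ ∉ S →
      tT' ℓ - algebraMap 𝒪 (s59e_adj 𝒪 aM) (((W.apOfModel ℓ : ℤ) : 𝒪)) ∈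
        maximalIdeal (s59e_adj 𝒪 aM)) :
    ∃ (hlh : IsLocalHom (algebraMap 𝒪 (s59e_adj 𝒪 aM)))
      (hθl : IsLocalHom (θ : DQ.R →+* s59e_adj 𝒪 aM)),
      IsNoetherianRing (s59e_adj 𝒪 aM) ∧
      IsAdicComplete (maximalIdeal (s59e_adj 𝒪 aM)) (s59e_adj 𝒪 aM) ∧
      Function.Surjective (residue (s59e_adj 𝒪 aM) ∘ algebraMap 𝒪 (s59e_adj 𝒪 aM)) ∧
      ((DQ.ρ.baseChangeAlong (θ : DQ.R →+* s59e_adj 𝒪 aM) hθl).residual.IsEquiv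
        ((s59i_rhobarW W p hΔ 𝒪 hp𝒪).baseChangeAlong
          (ResidueField.map (algebraMap 𝒪 (s59e_adj 𝒪 aM))))) ∧
      (GaloisRep.flatCondition 𝒪 p Sg
          (DQ.ρ.baseChangeAlong (θ : DQ.R →+* s59e_adj 𝒪 aM) hθl) ∧
        ∀ q ∈ Smin, q.Prime → q ≠ p →
          (DQ.ρ.baseChangeAlong (θ : DQ.R →+* s59e_adj 𝒪 aM) hθl).IsUnipotentOnInertiaAt q) := by
  classical
  have hpP : p.Prime := Fact.out
  have hEigB : ∀ ℓ : ℕ, ℓ.Prime → ℓ ∉ S →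
      ∀ A : ValuationSubring (AlgebraicClosure ℚ), A.LiesOverPrime ℓ →
      ∀ σ : Γℚ, A.IsFrobeniusAt σ ℓ →
        LinearMap.charpoly ((s59i_rhobarW W p hΔ 𝒪 hp𝒪).ρ σ) =
          X ^ 2 - C (residue 𝒪 ((W.apOfModel ℓ : ℤ) : 𝒪)) * X +
            C ((ℓ : ResidueField 𝒪)) := fun ℓ hℓ hℓS A hA σ hσ =>
    s59e_rhobarW_charpoly_frob hΔ hp2 hirr hp𝒪 B hpB hB2 ℓ hℓ (fun h => hℓS (hBS h)) A hA σ hσ
  haveI hYnt : Nontrivial (LinearMap.range ε') := s59e_L_range_nontrivial _ hne'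
  haveI hlh : IsLocalHom (algebraMap 𝒪 (s59e_adj 𝒪 aM)) := s59e_adj_isLocalHom aM hlocA
  let bZ := Module.Free.chooseBasis ℤ (s48h_M (s48h_GammaH Lv H))
  haveI : Module.Free 𝒪 (s48h_Hpar 𝒪 (s48h_GammaH Lv H) 𝒪) := Module.Free.of_basis (s59u_cB bZ 𝒪)
  haveI : Module.Finite 𝒪 (s48h_Hpar 𝒪 (s48h_GammaH Lv H) 𝒪) :=
    Module.Finite.of_basis (s59u_cB bZ 𝒪)
  haveI hfin : Module.Finite 𝒪 (LinearMap.range ε') := s59t_part_finite _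
  haveI hfree : Module.Free 𝒪 (LinearMap.range ε') := s59t_part_free hid'
  haveI hnoeth : IsNoetherianRing (s59e_adj 𝒪 aM) := s59e_adj_noeth aM
  haveI hcompl : IsAdicComplete (maximalIdeal (s59e_adj 𝒪 aM)) (s59e_adj 𝒪 aM) :=
    s59e_adj_complete aM
  haveI hfinR : Module.Finite 𝒪 (s59e_adj 𝒪 aM) := s59e_adj_finite aM
  have hT' : Fermat.Agent.Lib.Deform.IsTestAlgebra 𝒪 (s59e_adj 𝒪 aM) :=
    s59e_testAlgebra aM AlgEquiv.refl hlocA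
  have hθl : IsLocalHom (θ : DQ.R →+* s59e_adj 𝒪 aM) := IsLocalHom.of_surjective _ hθ
  have hfrobR : ∀ (ℓ : ℕ), ℓ.Prime → ℓ ∉ S →
      ∀ A : ValuationSubring (AlgebraicClosure ℚ), A.LiesOverPrime ℓ →
      ∀ g : Γℚ, A.IsFrobeniusAt g ℓ →
        LinearMap.charpoly ((DQ.ρ.baseChangeAlong (θ : DQ.R →+* s59e_adj 𝒪 aM) hθl).ρ g) =
          Polynomial.X ^ 2 - Polynomial.C (tT' ℓ) * Polynomial.X +
            Polynomial.C ((ℓ : s59e_adj 𝒪 aM)) := by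
    intro ℓ hℓ hℓS A hA g hg
    rw [s59e_bc_charpoly]
    exact hfrobT ℓ hℓ hℓS A hA g hg
  have hpR : ((p : ℕ) : s59e_adj 𝒪 aM) ∈ maximalIdeal (s59e_adj 𝒪 aM) := by
    have := map_nonunit (algebraMap 𝒪 (s59e_adj 𝒪 aM)) ((p : ℕ) : 𝒪) hp𝒪
    rwa [map_natCast] at this
  have hresR := s59b_hres_of_frob p hp2 hpR
    (DQ.ρ.baseChangeAlong (θ : DQ.R →+* s59e_adj 𝒪 aM) hθl)
    (s59e_bc_absIrr (θ : DQ.R →+* s59e_adj 𝒪 aM) hθl DQ.ρ (s59b_DQ_residual_absIrr DQ)) S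
    tT' (fun ℓ => ((W.apOfModel ℓ : ℤ) : 𝒪)) hfrobR hcong (s59i_rhobarW W p hΔ 𝒪 hp𝒪) hEigB
  have hρR0 : (GaloisRep.flatCondition 𝒪 p Sg
      (DQ.ρ.baseChangeAlong (θ : DQ.R →+* s59e_adj 𝒪 aM) hθl) ∧
      ∀ q ∈ Smin, q.Prime → q ≠ p →
        (DQ.ρ.baseChangeAlong (θ : DQ.R →+* s59e_adj 𝒪 aM) hθl).IsUnipotentOnInertiaAt q) := by
    haveI : Finite (ResidueField (s59e_adj 𝒪 aM)) := hT'.finite_residueField
    exact s59x_twType_baseChange (𝒪 := 𝒪) (s59x_locCond_flat p) _ Smin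
      (θ : DQ.R →+* s59e_adj 𝒪 aM) hθl inferInstance DQ.ρ DQ.isOfType
  exact ⟨hlh, hθl, hnoeth, hcompl, hT'.residue_surjective, hresR, hρR0⟩

section Red

variable {M : ℕ} [NeZero M] (H : Subgroup (ZMod M)ˣ)
  {𝒪 : Type} [CommRing 𝒪] [IsDomain 𝒪] [CharZero 𝒪]
  {Y' : Type} [AddCommGroup Y'] [Module 𝒪 Y']
  (j : Y' →ₗ[𝒪] s48h_Hpar 𝒪 (s48h_GammaH M H) 𝒪) (hj : Function.Injective j)
  {A : Type} [CommRing A] (a : A →+* Module.End 𝒪 (s48h_Hpar 𝒪 (s48h_GammaH M H) 𝒪)) (k : ℕ)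
  (ha : ∀ t, a t ∈ Subring.closure (Set.range (s59e_Tp' H 𝒪 k)))
  (aM : A →+* Module.End 𝒪 Y') (haM : ∀ t (z : Y'), j (aM t z) = a t (j z))

include hj ha haM in
/-- **the trace ring `𝒪[aM]` is reduced.** -/
theorem s59efl_adj_reduced (N : ℕ) [NeZero N] (Q : Finset ℕ)
    (hMeq : M = N * ∏ q ∈ Q, q) (hQ : ∀ q ∈ Q, q.Prime ∧ ¬ q ∣ N)
    {D : ℕ} (hDQ : D = ∏ q ∈ Q, q) (hD : D ∣ M) (hH : s59u_ker M D hD ≤ H)
    {n m : ℕ} (hnm : 2 * m = n + 1) (hn : ∀ u : (ZMod M)ˣ, u ^ n ∈ H) :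
    IsReduced (s59e_adj 𝒪 aM) := by
  classical
  have hS : ∀ s ∈ Set.range aM, s59u_Induced (s59u_anemic H 𝒪) j s := by
    rintro _ ⟨t, rfl⟩
    exact ⟨a t, s59u_closure_Tp'_le H 𝒪 k (ha t), haM t⟩
  have hI : ∀ t : s59e_adj 𝒪 aM, t ∈ (⊥ : Ideal (s59e_adj 𝒪 aM)) ↔
      ∀ w ∈ (Set.univ : Set Y'), (t : Module.End 𝒪 Y') w = 0 := by
    intro t
    rw [Ideal.mem_bot]
    constructor
    · intro h w _
      rw [h]
      rfl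
    · intro h
      exact Subtype.ext (LinearMap.ext fun w => h w (Set.mem_univ w))
  have hrad : (⊥ : Ideal (s59e_adj 𝒪 aM)).IsRadical :=
    s59u_hrad_subalgebra N Q H 𝒪 hQ hMeq hDQ hD hH hnm hn j hj (Set.range aM) hS
      (s59e_adj 𝒪 aM) le_rfl Set.univ ⊥ hI
  refine ⟨fun x hx => ?_⟩
  obtain ⟨i, hi⟩ := hx
  have : x ∈ (⊥ : Ideal (s59e_adj 𝒪 aM)) := hrad ⟨i, by rw [hi]; exact Ideal.zero_mem _⟩
  exact (Ideal.mem_bot.mp this)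

/-- **the trace ring is `𝒪`-torsion-free** (it acts faithfully on a torsion-free module). -/
theorem s59efl_adj_torsionfree [NoZeroSMulDivisors 𝒪 Y'] (o : 𝒪) (ho : o ≠ 0)
    (x : s59e_adj 𝒪 aM) (h : algebraMap 𝒪 (s59e_adj 𝒪 aM) o * x = 0) : x = 0 := by
  refine Subtype.ext (LinearMap.ext fun y => ?_)
  have h1 := congrArg (fun t : s59e_adj 𝒪 aM => (t : Module.End 𝒪 Y') y) h
  simp only [Subalgebra.coe_mul, Subalgebra.coe_algebraMap, Module.End.mul_apply,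
    Module.algebraMap_end_apply, ZeroMemClass.coe_zero, LinearMap.zero_apply] at h1
  exact (smul_eq_zero.mp h1).resolve_left ho

end Red

end Fermat.Agent.Lib.S59
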