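/-
Programme R2 (S59), [PATCH-FLR] `T`-side (T1), helper5 (prefix `s59ex_`): **helper8's concrete Taylor–Wiles control theorem
`s59t_TW_control` (TLvlQ2.lean) WITH THE EXTENDED OUTPUT `s59ex_LvlX`** (EXDef.lean).  Scripted copy of the proof; the
conclusion is stated directly in the form of `s59t_TWFull_of_concl` (polynomials `e₀`, `G` exposed) plus `s59ex_LvlX`.
-/
import Mathlib
import Fermat.Agent.Lib.S59.TLvlQ2
import Fermat.Agent.Lib.S59.TLvlCtl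
import Fermat.Agent.Lib.S59.EXDef

set_option autoImplicit false
set_option linter.unusedSectionVars false
set_option linter.unusedVariables false
set_option linter.style.haveILetI false
set_option synthInstance.maxHeartbeats 400000

noncomputable section

namespace Fermat.Agent.Lib.S59

open Matrix MatrixGroups CongruenceSubgroup IsLocalRing
open Fermat.Agent.Lib.S29 Fermat.Agent.Lib.S48 Fermat.Agent.Lib.S41

section Control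

variable {𝒪 : Type} [CommRing 𝒪] [IsDomain 𝒪] [IsDiscreteValuationRing 𝒪]
  [IsAdicComplete (maximalIdeal 𝒪) 𝒪] [Finite (ResidueField 𝒪)]
  {N N' : ℕ} [NeZero N] [NeZero N'] {H : Subgroup (ZMod N)ˣ} {H' : Subgroup (ZMod N')ˣ}
  (h0 : Gamma0 N' ≤ Gamma0 N) (hle : s48h_GammaH N' H' ≤ s48h_GammaH N H)
  (hPF : s59t_PF N H) (hPF' : s59t_PF N' H')

include hPF hPF' in
set_option maxHeartbeats 6400000 in
/-- **the concrete Taylor–Wiles control theorem with the extended output.** -/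
theorem s59ex_TW_control (p : ℕ) [Fact p.Prime] [CharP (ResidueField 𝒪) p] (hp2 : p ≠ 2)
    (hneg : (-1 : SL(2, ℤ)) ∈ s48h_GammaH N H) (hneg' : (-1 : SL(2, ℤ)) ∈ s48h_GammaH N' H')
    (hΔ : IsPGroup p (s59t_Delta N H)) (hΔ' : IsPGroup p (s59t_Delta N' H'))
    (B C : Subgroup (s59t_Delta N' H')) [Fintype B] [Fintype C]
    (hBC : Function.Bijective (fun x : B × C => ((x.1 : s59t_Delta N' H') * (x.2 : _))))
    (hφB : ∀ β ∈ B, s59t_DeltaMap2 h0 hle β = 1)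
    (hφC : Function.Bijective (fun γ : C => s59t_DeltaMap2 h0 hle (γ : s59t_Delta N' H')))
    -- the Taylor–Wiles primes
    (hN : N ∣ N') (L : List ℕ) (hL : L.Nodup) (hLp : ∀ q ∈ L, q.Prime ∧ ¬ q ∣ N)
    (hN' : N' = N * L.prod) (aq bq : ℕ → 𝒪)
    (harith : ∀ q ∈ L, IsUnit (bq q - aq q) ∧ (q : 𝒪) - aq q * bq q ∈ maximalIdeal 𝒪 ∧
      IsUnit (1 - aq q ^ 2) ∧ IsUnit (1 - bq q ^ 2))
    -- the eigen-system
    (good : Set (s59w_AIdx N')) (c : s59w_AIdx N' → 𝒪)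
    (i₀ : s59w_TIdx N') (hi₀ : Sum.inl i₀ ∈ good)
    (hnE : IsUnit (c (Sum.inl i₀) ^ 2 - ((i₀.ell : 𝒪) + 1) ^ 2))
    (hocc : ∃ v : s29h_Hpar 𝒪 N 𝒪, v ∉ (maximalIdeal 𝒪 • ⊤ : Submodule 𝒪 (s29h_Hpar 𝒪 N 𝒪)) ∧
      ∀ x ∈ good, s59t_op0 N' aq N (Sum.inl x) v - c x • v ∈
        (maximalIdeal 𝒪 • ⊤ : Submodule 𝒪 (s29h_Hpar 𝒪 N 𝒪)))
    (hTQ : ∀ (M : ℕ) (hM : M ∣ N'), ∀ q ∈ L, ∀ [Fact q.Prime], ¬ q ∣ M →
      ∀ e₀ : MvPolynomial ↥good 𝒪, 1 - e₀ ∈ s59t_evalIdeal (fun x : ↥good => c x) →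
        s59t_act0 aq hM (s59t_jG 𝒪 good e₀) * s59t_act0 aq hM (s59t_jG 𝒪 good e₀) =
          s59t_act0 aq hM (s59t_jG 𝒪 good e₀) →
        (∀ x : ↥good, ∃ n : ℕ, ∀ y : s29h_Hpar 𝒪 M 𝒪,
          ((s59t_op0 N' aq M (Sum.inl (x : s59w_AIdx N')) -
            c x • (1 : Module.End 𝒪 (s29h_Hpar 𝒪 M 𝒪))) ^ n)
            (s59t_act0 aq hM (s59t_jG 𝒪 good e₀) y) ∈
            (maximalIdeal 𝒪 • ⊤ : Submodule 𝒪 (s29h_Hpar 𝒪 M 𝒪))) →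
        ∃ n : ℕ, ∀ y : s29h_Hpar 𝒪 M 𝒪,
          ((s29h_heckeHpar M q 𝒪 𝒪 - (aq q + bq q) • (1 : Module.End 𝒪 (s29h_Hpar 𝒪 M 𝒪))) ^ n)
            (s59t_act0 aq hM (s59t_jG 𝒪 good e₀) y) ∈
            (maximalIdeal 𝒪 • ⊤ : Submodule 𝒪 (s29h_Hpar 𝒪 M 𝒪))) :
    ∃ (e₀ : MvPolynomial ↥good 𝒪) (G : MvPolynomial (s59w_AIdx N' ⊕ ℕ) 𝒪),
      1 - e₀ ∈ s59t_evalIdeal (fun x : ↥good => c x) ∧
      (∀ t : MvPolynomial ↥good 𝒪, t ∉ s59t_evalIdeal (fun x : ↥good => c x) →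
        ∃ η : MvPolynomial ↥good 𝒪,
          s59t_actH N' aq hN H (s59t_jG 𝒪 good (η * t * e₀)) =
            s59t_actH N' aq hN H (s59t_jG 𝒪 good e₀) ∧
          s59t_actH N' aq (dvd_refl N') H' (s59t_jG 𝒪 good (η * t * e₀)) =
            s59t_actH N' aq (dvd_refl N') H' (s59t_jG 𝒪 good e₀)) ∧
      s59t_actH N' aq hN H (s59t_jG 𝒪 good e₀) * s59t_actH N' aq hN H (s59t_jG 𝒪 good e₀) =
        s59t_actH N' aq hN H (s59t_jG 𝒪 good e₀) ∧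
      s59t_actH N' aq (dvd_refl N') H' (G * s59t_jG 𝒪 good e₀) *
        s59t_actH N' aq (dvd_refl N') H' (G * s59t_jG 𝒪 good e₀) =
        s59t_actH N' aq (dvd_refl N') H' (G * s59t_jG 𝒪 good e₀) ∧
      (∀ x ∈ good, ∃ n : ℕ, ∀ y : s48h_Hpar 𝒪 (s48h_GammaH N H) 𝒪,
        ((s59t_opH N' aq hN H (Sum.inl x) -
          c x • (1 : Module.End 𝒪 (s48h_Hpar 𝒪 (s48h_GammaH N H) 𝒪))) ^ n)
          (s59t_actH N' aq hN H (s59t_jG 𝒪 good e₀) y) ∈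
          (maximalIdeal 𝒪 • ⊤ : Submodule 𝒪 (s48h_Hpar 𝒪 (s48h_GammaH N H) 𝒪))) ∧
      (∀ x ∈ good, ∃ n : ℕ, ∀ y : s48h_Hpar 𝒪 (s48h_GammaH N' H') 𝒪,
        ((s59w_op H' 𝒪 x -
          c x • (1 : Module.End 𝒪 (s48h_Hpar 𝒪 (s48h_GammaH N' H') 𝒪))) ^ n)
          (s59t_actH N' aq (dvd_refl N') H' (G * s59t_jG 𝒪 good e₀) y) ∈
          (maximalIdeal 𝒪 • ⊤ : Submodule 𝒪 (s48h_Hpar 𝒪 (s48h_GammaH N' H') 𝒪))) ∧
      s59t_TWFull h0 hle B C (s59t_actH N' aq hN H (s59t_jG 𝒪 good e₀))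
        (s59t_actH N' aq (dvd_refl N') H' (G * s59t_jG 𝒪 good e₀)) ∧
      s59ex_LvlX N' H' aq good c L e₀ G := by
  classical
  obtain ⟨e₀, f, h1e, hee, hnil, hunit, hfs, hfα, hfαH, hfαH', hτ⟩ :=
    s59t_TW_tau aq hN H H' good c bq h0 L hL hLp hN' harith hocc hTQ
  haveI : Fact i₀.ell.Prime := ⟨i₀.prime⟩
  -- notation
  obtain ⟨E₀, hE₀⟩ : ∃ E₀ : MvPolynomial (s59w_AIdx N' ⊕ ℕ) 𝒪, E₀ = s59t_jG 𝒪 good e₀ := ⟨_, rfl⟩
  obtain ⟨G, hG⟩ : ∃ G : MvPolynomial (s59w_AIdx N' ⊕ ℕ) 𝒪, G = (L.map f).prod := ⟨_, rfl⟩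
  rw [← hE₀] at hee hfα hfαH hfαH' hτ
  rw [← hG] at hτ
  -- idempotency of the components
  have heH : s59t_actH N' aq hN H E₀ * s59t_actH N' aq hN H E₀ = s59t_actH N' aq hN H E₀ :=
    congrArg (fun x : s59t_ETot 𝒪 H H' => x.2.1) hee
  have heH' : s59t_actH N' aq (dvd_refl N') H' E₀ * s59t_actH N' aq (dvd_refl N') H' E₀ =
      s59t_actH N' aq (dvd_refl N') H' E₀ :=
    congrArg (fun x : s59t_ETot 𝒪 H H' => x.2.2) hee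
  have he0 : ∀ (M : ℕ) (hM : M ∣ N'),
      s59t_act0 aq hM E₀ * s59t_act0 aq hM E₀ = s59t_act0 aq hM E₀ := fun M hM =>
    congrArg (fun x : s59t_ETot 𝒪 H H' =>
      x.1 ⟨M, Nat.mem_divisors.mpr ⟨hM, NeZero.ne N'⟩⟩) hee
  have hGH' : s59t_actH N' aq (dvd_refl N') H' (G * E₀) *
      s59t_actH N' aq (dvd_refl N') H' (G * E₀) = s59t_actH N' aq (dvd_refl N') H' (G * E₀) := by
    rw [hG]
    refine s59t_idem_list (s59t_actH N' aq (dvd_refl N') H') f heH' L (fun q _ => ?_)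
    have := (hfαH' q).idem_mul heH' _ _
    rw [← map_mul] at this
    exact this
  have hG0 : s59t_act0 aq (dvd_refl N') (G * E₀) * s59t_act0 aq (dvd_refl N') (G * E₀) =
      s59t_act0 aq (dvd_refl N') (G * E₀) := by
    rw [hG]
    refine s59t_idem_list (s59t_act0 aq (dvd_refl N')) f (he0 N' (dvd_refl N')) L (fun q _ => ?_)
    have := (hfα q N' (dvd_refl N')).idem_mul (he0 N' (dvd_refl N')) _ _
    rw [← map_mul] at this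
    exact this
  -- the non-Eisenstein element
  obtain ⟨t₀, ht₀⟩ : ∃ t₀ : MvPolynomial ↥good 𝒪, t₀ =
      MvPolynomial.X (⟨Sum.inl i₀, hi₀⟩ : ↥good) ^ 2 -
        ((i₀.ell : MvPolynomial ↥good 𝒪) + 1) ^ 2 := ⟨_, rfl⟩
  have ht₀n : t₀ ∉ s59t_evalIdeal (fun x : ↥good => c x) := by
    rw [s59t_not_mem_evalIdeal, ht₀]
    simp only [map_sub, map_pow, MvPolynomial.eval_X, map_add, map_natCast, map_one]
    exact hnE
  obtain ⟨η₀, hη₀⟩ := hunit t₀ ht₀n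
  obtain ⟨tℓ, htℓdef⟩ : ∃ tℓ : MvPolynomial (s59w_AIdx N' ⊕ ℕ) 𝒪,
      tℓ = MvPolynomial.X (Sum.inl (Sum.inl i₀)) := ⟨_, rfl⟩
  have hjt : s59t_jG 𝒪 good (η₀ * t₀ * e₀) =
      s59t_jG 𝒪 good η₀ * (tℓ ^ 2 - ((i₀.ell : MvPolynomial (s59w_AIdx N' ⊕ ℕ) 𝒪) + 1) ^ 2) *
        E₀ := by
    rw [map_mul, map_mul, ht₀, map_sub, map_pow, map_pow, s59t_jG_X, map_add, map_natCast,
      map_one, hE₀, htℓdef]
  rw [hjt, ← hE₀] at hη₀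
  obtain ⟨η, hηdef⟩ : ∃ η : MvPolynomial (s59w_AIdx N' ⊕ ℕ) 𝒪, η = s59t_jG 𝒪 good η₀ := ⟨_, rfl⟩
  rw [← hηdef] at hη₀
  have hηH : s59t_actH N' aq hN H
      (η * (tℓ ^ 2 - ((i₀.ell : MvPolynomial (s59w_AIdx N' ⊕ ℕ) 𝒪) + 1) ^ 2) * E₀) =
      s59t_actH N' aq hN H E₀ := congrArg (fun x : s59t_ETot 𝒪 H H' => x.2.1) hη₀
  have hηH' : s59t_actH N' aq (dvd_refl N') H'
      (η * (tℓ ^ 2 - ((i₀.ell : MvPolynomial (s59w_AIdx N' ⊕ ℕ) 𝒪) + 1) ^ 2) * E₀) =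
      s59t_actH N' aq (dvd_refl N') H' E₀ := congrArg (fun x : s59t_ETot 𝒪 H H' => x.2.2) hη₀
  have hη0 : ∀ (M : ℕ) (hM : M ∣ N'), s59t_act0 aq hM
      (η * (tℓ ^ 2 - ((i₀.ell : MvPolynomial (s59w_AIdx N' ⊕ ℕ) 𝒪) + 1) ^ 2) * E₀) =
      s59t_act0 aq hM E₀ := fun M hM =>
    congrArg (fun x : s59t_ETot 𝒪 H H' =>
      x.1 ⟨M, Nat.mem_divisors.mpr ⟨hM, NeZero.ne N'⟩⟩) hη₀
  have hpoly : η * (tℓ ^ 2 - ((i₀.ell : MvPolynomial (s59w_AIdx N' ⊕ ℕ) 𝒪) + 1) ^ 2) * (G * E₀) =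
      G * (η * (tℓ ^ 2 - ((i₀.ell : MvPolynomial (s59w_AIdx N' ⊕ ℕ) 𝒪) + 1) ^ 2) * E₀) := by
    ring
  have hηGH' : s59t_actH N' aq (dvd_refl N') H'
      (η * (tℓ ^ 2 - ((i₀.ell : MvPolynomial (s59w_AIdx N' ⊕ ℕ) 𝒪) + 1) ^ 2) * (G * E₀)) =
      s59t_actH N' aq (dvd_refl N') H' (G * E₀) := by
    rw [hpoly, map_mul, hηH', ← map_mul]
  have hηG0 : s59t_act0 aq (dvd_refl N')
      (η * (tℓ ^ 2 - ((i₀.ell : MvPolynomial (s59w_AIdx N' ⊕ ℕ) 𝒪) + 1) ^ 2) * (G * E₀)) =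
      s59t_act0 aq (dvd_refl N') (G * E₀) := by
    rw [hpoly, map_mul, hη0 N' (dvd_refl N'), ← map_mul]
  -- the control theorem
  have key := s59t_control_top_inv h0 hle hPF hPF' p hp2 hneg hneg' hΔ hΔ' B C hBC hφB hφC
    i₀.ell (s59t_TIdx_down hN i₀).ndvd (s59t_TIdx_down hN i₀).mem (s59t_TIdx_down hN i₀).lr
    (s59t_actH N' aq hN H : MvPolynomial (s59w_AIdx N' ⊕ ℕ) 𝒪 →+* _)
    (s59t_act0 aq hN : MvPolynomial (s59w_AIdx N' ⊕ ℕ) 𝒪 →+* _)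
    (fun t y => s59t_actH_res aq hN H t y) (fun t x => s59t_actH_cor aq hN H hPF t x)
    (fun t δ x => s59t_actH_rho aq hN H t δ x)
    tℓ (by rw [htℓdef]; exact s59t_actH_X N' aq hN H _)
    (by rw [htℓdef]; exact s59t_act0_X aq hN _)
    E₀ η heH (he0 N hN) hηH (hη0 N hN)
    i₀.ell (s59t_TIdx_down (dvd_refl N') i₀).ndvd (s59t_TIdx_down (dvd_refl N') i₀).mem
    (s59t_TIdx_down (dvd_refl N') i₀).lr
    (s59t_actH N' aq (dvd_refl N') H' : MvPolynomial (s59w_AIdx N' ⊕ ℕ) 𝒪 →+* _)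
    (s59t_act0 aq (dvd_refl N') : MvPolynomial (s59w_AIdx N' ⊕ ℕ) 𝒪 →+* _)
    (fun t y => s59t_actH_res aq (dvd_refl N') H' t y)
    (fun t x => s59t_actH_cor aq (dvd_refl N') H' hPF' t x)
    (fun t δ x => s59t_actH_rho aq (dvd_refl N') H' t δ x)
    tℓ (by rw [htℓdef]; exact s59t_actH_X N' aq (dvd_refl N') H' _)
    (by rw [htℓdef]; exact s59t_act0_X aq (dvd_refl N') _)
    (G * E₀) η hGH' hG0 hηGH' hηG0 hτ
  obtain ⟨d, b, b', π, hb, hb', hinj, hinv, hπ1, hπ2, hπ3⟩ := key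
  subst hE₀
  refine ⟨e₀, G, h1e, fun t ht => ?_, heH, hGH', ?_, ?_,
    s59t_TWFull_of_tail h0 hle B C hBC hφC _ _ _ _ d b b' π hb hb' hinj hinv hπ1 hπ2 hπ3,
    h1e, heH', ?_, f, hG, hfs, hfαH'⟩
  · obtain ⟨η', hη'⟩ := hunit t ht
    exact ⟨η', congrArg (fun x : s59t_ETot 𝒪 H H' => x.2.1) hη',
      congrArg (fun x : s59t_ETot 𝒪 H H' => x.2.2) hη'⟩
  · intro x hx
    exact s59t_nilH_of_e0 aq hN H H' good c e₀ hnil ⟨x, hx⟩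
  · intro x hx
    obtain ⟨n, hn⟩ := s59t_nilH'_of_e0 aq hN H H' good c e₀ hnil ⟨x, hx⟩
    refine ⟨n, fun y => ?_⟩
    have h1 := hn (s59t_actH N' aq (dvd_refl N') H' G y)
    have h2 : s59t_actH N' aq (dvd_refl N') H' (G * s59t_jG 𝒪 good e₀) y =
        s59t_actH N' aq (dvd_refl N') H' (s59t_jG 𝒪 good e₀)
          (s59t_actH N' aq (dvd_refl N') H' G y) := by
      rw [mul_comm, map_mul, Module.End.mul_apply]
    rw [h2]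
    exact h1
  · intro x hx
    exact s59t_nilH'_of_e0 aq hN H H' good c e₀ hnil ⟨x, hx⟩

end Control

end Fermat.Agent.Lib.S59
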