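/-
Programme R2 (S59), [PATCH-FLR] `T`-side (T1), helper5 (prefix `s59ex_`): **the Taylor–Wiles level package WITH THE EXTENDED
OUTPUT `s59ex_LvlX`** (EXDef.lean) — scripted copies of `s59e_aux_TW_level` (EAuxLvl.lean) and of `s59e_W_level_pkg`
(EWPkg.lean), calling `s59ex_TW_control` (EXCtl.lean).  In the `W`-version the Taylor–Wiles arithmetic `aq, bq` is an INPUT
(so that the same `aq, bq` serve at all the levels `N_t`), and the type-1 level `(N', H₂')` is dropped.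

* `s59ex_aux_TW_level`, `s59ex_W_level`.
-/
import Mathlib
import Fermat.Agent.Lib.S59.EWPkg
import Fermat.Agent.Lib.S59.EXCtl

set_option autoImplicit false
set_option linter.unusedSectionVars false
set_option linter.style.haveILetI false
set_option linter.unusedVariables false

noncomputable section

namespace Fermat.Agent.Lib.S59

open Matrix MatrixGroups CongruenceSubgroup IsLocalRing Polynomial
open WeierstrassCurve WeierstrassCurve.Affine WeierstrassCurve.Affine.Point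
open Fermat.Agent.Lib.S29 Fermat.Agent.Lib.S48 Fermat.Agent.Lib.S41 Fermat.Agent.Lib.S44
open Fermat.Agent.Lib.S58

local notation "Γℚ" => (AlgebraicClosure ℚ ≃ₐ[ℚ] AlgebraicClosure ℚ)

section XAuxLevel

variable {𝒪 : Type} [CommRing 𝒪] [IsDomain 𝒪] [IsDiscreteValuationRing 𝒪]
  [IsAdicComplete (maximalIdeal 𝒪) 𝒪] [Finite (ResidueField 𝒪)] [CharZero 𝒪]
  (p : ℕ) [hp : Fact p.Prime] [CharP (ResidueField 𝒪) p] [Algebra ℤ_[p] 𝒪]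
  {N : ℕ} [NeZero N] (H : Subgroup (ZMod N)ˣ) (Bset : Finset ℕ) (a : ℕ → ℤ)
  (n : ℕ) {r : ℕ} (qv : Fin r → ℕ) [NeZero (∏ j, qv j)] [NeZero (N * ∏ j, qv j)]

include hp in
set_option maxHeartbeats 6400000 in
/-- **the Taylor–Wiles level over the fixed base part, with the extended output `s59ex_LvlX`.** -/
theorem s59ex_aux_TW_level (hp12 : s59e_auxTors p N)
    (hsq : Squarefree N) (hsq' : Squarefree (N * ∏ j, qv j))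
    (S37 : s59b_S37H N H) (hN1 : 1 < N) (hnegH : (-1 : (ZMod N)ˣ) ∈ H)
    (hp𝒪 : (p : 𝒪) ∈ maximalIdeal 𝒪) (hpB : p ∈ Bset)
    (hH : ∀ u : (ZMod N)ˣ, ∃ k : ℕ, u ^ (p ^ k) ∈ H)
    -- (OCC) at level `(N, H)` and at `Γ₀(N)` (helper3's `s59u_W6`, `s59u_W6_G0`, verbatim)
    (hoccH : ∃ v : s48h_Hpar 𝒪 (s48h_GammaH N H) 𝒪,
      v ∉ (maximalIdeal 𝒪 • ⊤ : Submodule 𝒪 (s48h_Hpar 𝒪 (s48h_GammaH N H) 𝒪)) ∧
      (∀ i : s59w_TIdx N, i.ell ∉ Bset →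
        s59w_op H 𝒪 (Sum.inl i) v - ((a i.ell : ℤ) : 𝒪) • v ∈
          (maximalIdeal 𝒪 • ⊤ : Submodule 𝒪 (s48h_Hpar 𝒪 (s48h_GammaH N H) 𝒪))) ∧
      (∀ τ : Gamma0 N, s59w_op H 𝒪 (Sum.inr τ) v - v ∈
          (maximalIdeal 𝒪 • ⊤ : Submodule 𝒪 (s48h_Hpar 𝒪 (s48h_GammaH N H) 𝒪))))
    (hocc0 : ∃ v : s29h_Hpar 𝒪 N 𝒪,
      v ∉ (maximalIdeal 𝒪 • ⊤ : Submodule 𝒪 (s29h_Hpar 𝒪 N 𝒪)) ∧
      ∀ (ℓ : ℕ) [Fact ℓ.Prime], ¬ ℓ ∣ N → ℓ ∉ Bset →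
        s29h_heckeHpar N ℓ 𝒪 𝒪 v - ((a ℓ : ℤ) : 𝒪) • v ∈
          (maximalIdeal 𝒪 • ⊤ : Submodule 𝒪 (s29h_Hpar 𝒪 N 𝒪)))
    -- the Taylor–Wiles primes
    (hcop : N.Coprime (∏ j, qv j)) (hqinj : Function.Injective qv) (hqp : ∀ j, (qv j).Prime)
    (aq bq : ℕ → 𝒪)
    (harith : ∀ j, IsUnit (bq (qv j) - aq (qv j)) ∧
      ((qv j : ℕ) : 𝒪) - aq (qv j) * bq (qv j) ∈ maximalIdeal 𝒪 ∧
      IsUnit (1 - aq (qv j) ^ 2) ∧ IsUnit (1 - bq (qv j) ^ 2))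
    (i₀ : s59w_TIdx (N * ∏ j, qv j)) (hi₀ : i₀.ell ∉ Bset)
    (hnE : IsUnit ((((a i₀.ell : ℤ) : 𝒪)) ^ 2 - ((i₀.ell : 𝒪) + 1) ^ 2))
    (hTQ : ∀ (M : ℕ) (hM : M ∣ N * ∏ j, qv j), ∀ q ∈ List.ofFn qv, ∀ [Fact q.Prime], ¬ q ∣ M →
      ∀ e₀ : MvPolynomial ↥(s59t_goodB (N * ∏ j, qv j) Bset) 𝒪,
        1 - e₀ ∈ s59t_evalIdeal (fun x : ↥(s59t_goodB (N * ∏ j, qv j) Bset) =>
          s59t_cB (𝒪 := 𝒪) (N * ∏ j, qv j) a x) →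
        s59t_act0 aq hM (s59t_jG 𝒪 (s59t_goodB (N * ∏ j, qv j) Bset) e₀) *
          s59t_act0 aq hM (s59t_jG 𝒪 (s59t_goodB (N * ∏ j, qv j) Bset) e₀) =
          s59t_act0 aq hM (s59t_jG 𝒪 (s59t_goodB (N * ∏ j, qv j) Bset) e₀) →
        (∀ x : ↥(s59t_goodB (N * ∏ j, qv j) Bset), ∃ k : ℕ, ∀ y : s29h_Hpar 𝒪 M 𝒪,
          ((s59t_op0 (N * ∏ j, qv j) aq M (Sum.inl (x : s59w_AIdx (N * ∏ j, qv j))) -
            s59t_cB (𝒪 := 𝒪) (N * ∏ j, qv j) a x •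
              (1 : Module.End 𝒪 (s29h_Hpar 𝒪 M 𝒪))) ^ k)
            (s59t_act0 aq hM (s59t_jG 𝒪 (s59t_goodB (N * ∏ j, qv j) Bset) e₀) y) ∈
            (maximalIdeal 𝒪 • ⊤ : Submodule 𝒪 (s29h_Hpar 𝒪 M 𝒪))) →
        ∃ k : ℕ, ∀ y : s29h_Hpar 𝒪 M 𝒪,
          ((s29h_heckeHpar M q 𝒪 𝒪 - (aq q + bq q) • (1 : Module.End 𝒪 (s29h_Hpar 𝒪 M 𝒪))) ^ k)
            (s59t_act0 aq hM (s59t_jG 𝒪 (s59t_goodB (N * ∏ j, qv j) Bset) e₀) y) ∈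
            (maximalIdeal 𝒪 • ⊤ : Submodule 𝒪 (s29h_Hpar 𝒪 M 𝒪)))
    -- the fixed base idempotent
    (e : MvPolynomial ↥(s59t_goodB N Bset) 𝒪)
    (h1e : 1 - e ∈ s59t_evalIdeal (fun x : ↥(s59t_goodB N Bset) =>
      s59t_cB (𝒪 := 𝒪) N a (x : s59w_AIdx N)))
    (hid : s59t_E0 H Bset e * s59t_E0 H Bset e = s59t_E0 H Bset e)
    (hnil : ∀ x ∈ s59t_goodB N Bset, ∃ k : ℕ, ∀ y : s48h_Hpar 𝒪 (s48h_GammaH N H) 𝒪,
      ((s59w_op H 𝒪 x - s59t_cB (𝒪 := 𝒪) N a x •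
        (1 : Module.End 𝒪 (s48h_Hpar 𝒪 (s48h_GammaH N H) 𝒪))) ^ k)
        (s59t_E0 H Bset e y) ∈
        (maximalIdeal 𝒪 • ⊤ : Submodule 𝒪 (s48h_Hpar 𝒪 (s48h_GammaH N H) 𝒪))) :
    ∃ (e₀ : MvPolynomial ↥(s59t_goodB (N * ∏ j, qv j) Bset) 𝒪)
      (G : MvPolynomial (s59w_AIdx (N * ∏ j, qv j) ⊕ ℕ) 𝒪),
      1 - e₀ ∈ s59t_evalIdeal (fun x : ↥(s59t_goodB (N * ∏ j, qv j) Bset) =>
        s59t_cB (𝒪 := 𝒪) (N * ∏ j, qv j) a x) ∧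
      (∀ t : MvPolynomial ↥(s59t_goodB (N * ∏ j, qv j) Bset) 𝒪,
        t ∉ s59t_evalIdeal (fun x : ↥(s59t_goodB (N * ∏ j, qv j) Bset) =>
          s59t_cB (𝒪 := 𝒪) (N * ∏ j, qv j) a x) →
        ∃ η : MvPolynomial ↥(s59t_goodB (N * ∏ j, qv j) Bset) 𝒪,
          s59t_actH (N * ∏ j, qv j) aq (dvd_refl _)
            (s59t_Hmul N (∏ j, qv j) H (s59t_KQ (p ^ n) qv))
            (s59t_jG 𝒪 (s59t_goodB (N * ∏ j, qv j) Bset) (η * t * e₀)) =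
          s59t_actH (N * ∏ j, qv j) aq (dvd_refl _)
            (s59t_Hmul N (∏ j, qv j) H (s59t_KQ (p ^ n) qv))
            (s59t_jG 𝒪 (s59t_goodB (N * ∏ j, qv j) Bset) e₀)) ∧
      s59t_actH (N * ∏ j, qv j) aq (dvd_refl _) (s59t_Hmul N (∏ j, qv j) H (s59t_KQ (p ^ n) qv))
          (G * s59t_jG 𝒪 (s59t_goodB (N * ∏ j, qv j) Bset) e₀) *
        s59t_actH (N * ∏ j, qv j) aq (dvd_refl _)
          (s59t_Hmul N (∏ j, qv j) H (s59t_KQ (p ^ n) qv))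
          (G * s59t_jG 𝒪 (s59t_goodB (N * ∏ j, qv j) Bset) e₀) =
        s59t_actH (N * ∏ j, qv j) aq (dvd_refl _)
          (s59t_Hmul N (∏ j, qv j) H (s59t_KQ (p ^ n) qv))
          (G * s59t_jG 𝒪 (s59t_goodB (N * ∏ j, qv j) Bset) e₀) ∧
      (∀ x ∈ s59t_goodB (N * ∏ j, qv j) Bset, ∃ k : ℕ,
        ∀ y : s48h_Hpar 𝒪 (s48h_GammaH (N * ∏ j, qv j)
          (s59t_Hmul N (∏ j, qv j) H (s59t_KQ (p ^ n) qv))) 𝒪,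
        ((s59w_op (s59t_Hmul N (∏ j, qv j) H (s59t_KQ (p ^ n) qv)) 𝒪 x -
          s59t_cB (𝒪 := 𝒪) (N * ∏ j, qv j) a x •
            (1 : Module.End 𝒪 (s48h_Hpar 𝒪 (s48h_GammaH (N * ∏ j, qv j)
              (s59t_Hmul N (∏ j, qv j) H (s59t_KQ (p ^ n) qv))) 𝒪))) ^ k)
          (s59t_actH (N * ∏ j, qv j) aq (dvd_refl _)
            (s59t_Hmul N (∏ j, qv j) H (s59t_KQ (p ^ n) qv))
            (G * s59t_jG 𝒪 (s59t_goodB (N * ∏ j, qv j) Bset) e₀) y) ∈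
          (maximalIdeal 𝒪 • ⊤ : Submodule 𝒪 (s48h_Hpar 𝒪 (s48h_GammaH (N * ∏ j, qv j)
              (s59t_Hmul N (∏ j, qv j) H (s59t_KQ (p ^ n) qv))) 𝒪))) ∧
      s59t_TWFull (s59t_Gamma0_anti (s59t_dvd_mul_left' N (∏ j, qv j)))
        (s59t_GammaHmul_le (N := N) (D := ∏ j, qv j) (H := H) (K := s59t_KQ (p ^ n) qv))
        (s59t_BQ N (∏ j, qv j) H (s59t_KQ (p ^ n) qv))
        (s59t_CQ N (∏ j, qv j) H (s59t_KQ (p ^ n) qv))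
        (s59t_E0 H Bset e)
        (s59t_actH (N * ∏ j, qv j) aq (dvd_refl _)
          (s59t_Hmul N (∏ j, qv j) H (s59t_KQ (p ^ n) qv))
          (G * s59t_jG 𝒪 (s59t_goodB (N * ∏ j, qv j) Bset) e₀)) ∧
      s59ex_LvlX (N * ∏ j, qv j) (s59t_Hmul N (∏ j, qv j) H (s59t_KQ (p ^ n) qv)) aq
        (s59t_goodB (N * ∏ j, qv j) Bset) (s59t_cB (𝒪 := 𝒪) (N * ∏ j, qv j) a)
        (List.ofFn qv) e₀ G := by
  classical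
  have hp2 : p ≠ 2 := s59e_auxTors_ne_two hp12
  have hpodd : Odd (p ^ n) := (hp.out.odd_of_ne_two hp2).pow
  have hN : N ∣ N * ∏ j, qv j := s59t_dvd_mul_left' N (∏ j, qv j)
  have hL : (List.ofFn qv).Nodup := List.nodup_ofFn.mpr hqinj
  have hLp : ∀ q ∈ List.ofFn qv, q.Prime ∧ ¬ q ∣ N := by
    intro q hq
    obtain ⟨j, rfl⟩ := (List.mem_ofFn' qv q).mp hq
    refine ⟨hqp j, fun hdvd => ?_⟩
    have h1 : qv j ∣ ∏ j, qv j := Finset.dvd_prod_of_mem qv (Finset.mem_univ j)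
    have h2 : qv j ∣ Nat.gcd N (∏ j, qv j) := Nat.dvd_gcd hdvd h1
    rw [hcop.gcd_eq_one] at h2
    exact (hqp j).one_lt.ne' (Nat.dvd_one.mp h2)
  have hN' : N * ∏ j, qv j = N * (List.ofFn qv).prod := by rw [List.prod_ofFn]
  have harith' : ∀ q ∈ List.ofFn qv, IsUnit (bq q - aq q) ∧
      (q : 𝒪) - aq q * bq q ∈ maximalIdeal 𝒪 ∧ IsUnit (1 - aq q ^ 2) ∧ IsUnit (1 - bq q ^ 2) := by
    intro q hq
    obtain ⟨j, rfl⟩ := (List.mem_ofFn' qv q).mp hq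
    exact harith j
  have hocc : ∃ v : s29h_Hpar 𝒪 N 𝒪,
      v ∉ (maximalIdeal 𝒪 • ⊤ : Submodule 𝒪 (s29h_Hpar 𝒪 N 𝒪)) ∧
      ∀ x ∈ s59t_goodB (N * ∏ j, qv j) Bset,
        s59t_op0 (N * ∏ j, qv j) aq N (Sum.inl x) v - s59t_cB (𝒪 := 𝒪) (N * ∏ j, qv j) a x • v ∈
          (maximalIdeal 𝒪 • ⊤ : Submodule 𝒪 (s29h_Hpar 𝒪 N 𝒪)) := by
    obtain ⟨v, hv, hvT⟩ := hocc0
    refine ⟨v, hv, ?_⟩
    rintro x ⟨i, rfl, hi⟩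
    haveI : Fact i.ell.Prime := ⟨i.prime⟩
    exact hvT i.ell (fun h => i.ndvd (dvd_trans h hN)) hi
  -- the group-theoretic hypotheses
  have hneg : (-1 : SL(2, ℤ)) ∈ s48h_GammaH N H := s59t_neg_one_mem_GammaH_of H hnegH
  have hnegK : (-1 : (ZMod (∏ j, qv j))ˣ) ∈ s59t_KQ (p ^ n) qv :=
    s59t_neg_one_mem_KQ (p ^ n) qv hpodd
  have hnegH' : (-1 : (ZMod (N * ∏ j, qv j))ˣ) ∈
      s59t_Hmul N (∏ j, qv j) H (s59t_KQ (p ^ n) qv) := s59t_neg_one_mem_Hmul H hnegH hnegK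
  have hneg' : (-1 : SL(2, ℤ)) ∈
      s48h_GammaH (N * ∏ j, qv j) (s59t_Hmul N (∏ j, qv j) H (s59t_KQ (p ^ n) qv)) :=
    s59t_neg_one_mem_GammaH_of _ hnegH'
  have hH' : ∀ u : (ZMod (N * ∏ j, qv j))ˣ, ∃ k : ℕ,
      u ^ (p ^ k) ∈ s59t_Hmul N (∏ j, qv j) H (s59t_KQ (p ^ n) qv) :=
    s59t_Hmul_pgroup (N := N) (D := ∏ j, qv j) (H := H) (K := s59t_KQ (p ^ n) qv) p hH
      (fun u => ⟨n, s59t_pow_mem_KQ (p ^ n) qv u⟩)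
  have hPF : s59t_PF N H := s59e_aux_PF_of_pgroup p hp12 hsq hnegH hH
  have hPF' : s59t_PF (N * ∏ j, qv j) (s59t_Hmul N (∏ j, qv j) H (s59t_KQ (p ^ n) qv)) :=
    s59e_aux_PF_of_pgroup p (s59e_auxTors_mono (Dvd.intro _ rfl) hp12) hsq' hnegH' hH'
  obtain ⟨e₀, G, h1e', hunit, heH, heH', hnilH, hnilH', hfull, hX⟩ := s59ex_TW_control (𝒪 := 𝒪) (N := N) (N' := N * ∏ j, qv j) (H := H)
    (H' := s59t_Hmul N (∏ j, qv j) H (s59t_KQ (p ^ n) qv))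
    (s59t_Gamma0_anti (s59t_dvd_mul_left' N (∏ j, qv j)))
    (s59t_GammaHmul_le (N := N) (D := ∏ j, qv j) (H := H) (K := s59t_KQ (p ^ n) qv))
    hPF hPF' p hp2 hneg hneg' (s59t_Delta_isPGroup p hH) (s59t_Delta_isPGroup p hH')
    (s59t_BQ N (∏ j, qv j) H (s59t_KQ (p ^ n) qv)) (s59t_CQ N (∏ j, qv j) H (s59t_KQ (p ^ n) qv))
    (s59t_BQ_CQ_bijective (N := N) (D := ∏ j, qv j) (H := H) (K := s59t_KQ (p ^ n) qv) hcop)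
    (fun β hβ => MonoidHom.mem_ker.mp hβ)
    (s59t_phiN_CQ_bijective (N := N) (D := ∏ j, qv j) (H := H) (K := s59t_KQ (p ^ n) qv) hcop)
    hN (List.ofFn qv) hL hLp hN' aq bq harith'
    (s59t_goodB (N * ∏ j, qv j) Bset) (s59t_cB (𝒪 := 𝒪) (N * ∏ j, qv j) a) i₀
    (s59t_inl_mem_goodB Bset i₀ hi₀) hnE hocc hTQ
  have hid2 : s59t_actH N aq (dvd_refl N) H (s59t_jG 𝒪 (s59t_goodB N Bset) e) *
      s59t_actH N aq (dvd_refl N) H (s59t_jG 𝒪 (s59t_goodB N Bset) e) =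
      s59t_actH N aq (dvd_refl N) H (s59t_jG 𝒪 (s59t_goodB N Bset) e) := by
    rw [s59t_actH_eq_E0]; exact hid
  have hnil2 : ∀ x ∈ s59t_goodB N Bset, ∃ k : ℕ, ∀ y : s48h_Hpar 𝒪 (s48h_GammaH N H) 𝒪,
      ((s59t_opH N aq (dvd_refl N) H (Sum.inl x) - s59t_cB (𝒪 := 𝒪) N a x •
        (1 : Module.End 𝒪 (s48h_Hpar 𝒪 (s48h_GammaH N H) 𝒪))) ^ k)
        (s59t_actH N aq (dvd_refl N) H (s59t_jG 𝒪 (s59t_goodB N Bset) e) y) ∈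
        (maximalIdeal 𝒪 • ⊤ : Submodule 𝒪 (s48h_Hpar 𝒪 (s48h_GammaH N H) 𝒪)) := by
    intro x hx
    rw [s59t_actH_eq_E0, s59t_opH_inl, s59t_AIdx_down_self]
    exact hnil x hx
  have hind := s59t_actH_indep p hN H Bset a S37 hN1 hnegH hp𝒪 hpB hH hoccH aq e₀ h1e' heH hnilH
    e h1e hid2 hnil2
  rw [s59t_actH_eq_E0] at hind
  exact ⟨e₀, G, h1e', fun t ht => (hunit t ht).imp fun η h => h.2, heH', hnilH',
    hfull.congr_base _ _ hind, hX⟩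

end XAuxLevel

section XWPkg

variable (W : WeierstrassCurve ℤ) (hΔ : W.Δ ≠ 0) (p : ℕ) [Fact p.Prime]
  (hirr : W.ModRepIsIrreducible p) (N : ℕ) [NeZero N] (hsq : Squarefree N)
  (B : Finset ℕ) (hpB : p ∈ B) (hNB : ∀ q : ℕ, q.Prime → q ∣ N → q ∈ B)
  (hgood : ∀ q : ℕ, q.Prime → q ∉ B → W.IsGoodPrimeFor q)
  (hocc : s44i_LevelOcc N p (fun ℓ => W.apOfModel ℓ) B)
  {𝒪 : Type} [CommRing 𝒪] [IsDomain 𝒪] [IsDiscreteValuationRing 𝒪]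
  [IsAdicComplete (maximalIdeal 𝒪) 𝒪] [Finite (ResidueField 𝒪)] [CharZero 𝒪]
  [Algebra ℤ_[p] 𝒪] (hp𝒪 : ((p : ℕ) : 𝒪) ∈ maximalIdeal 𝒪)
  (H : Subgroup (ZMod N)ˣ) (hnegH : (-1 : (ZMod N)ˣ) ∈ H)
  (hH : ∀ u : (ZMod N)ˣ, ∃ k : ℕ, u ^ (p ^ k) ∈ H)


variable (n : ℕ) {r : ℕ} (qv : Fin r → ℕ) [NeZero (∏ j, qv j)] [NeZero (N * ∏ j, qv j)]

include hΔ hirr hsq hpB hNB hgood hocc hp𝒪 hnegH hH in
set_option maxHeartbeats 1600000 in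
/-- **the level package for a general `W` with the extended output**; the Taylor–Wiles arithmetic `aq, bq` is an input. -/
theorem s59ex_W_level (hp12 : s59e_auxTors p N) (hN1 : 1 < N) (S37 : s59b_S37H N H)
    (hqinj : Function.Injective qv)
    (hqv : ∀ i, (qv i).Prime ∧ qv i ∉ B ∧ p ^ (n + 1) ∣ qv i - 1)
    (hTW : ∀ i, ∀ A : ValuationSubring (AlgebraicClosure ℚ), A.LiesOverPrime (qv i) →
      ∀ φ : Γℚ, A.IsFrobeniusAt φ (qv i) →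
        ∃ α β : ResidueField 𝒪, α ≠ β ∧
          LinearMap.charpoly ((((s59b_rhoW W p hΔ).baseChangeAlong
            (algebraMap ℤ_[p] 𝒪) (s59b_isLocalHom_padic p _ hp𝒪)).residual).ρ φ) =
            (X - C α) * (X - C β))
    (e : MvPolynomial ↥(s59t_goodB N B) 𝒪)
    (h1e : 1 - e ∈ s59t_evalIdeal (fun x : ↥(s59t_goodB N B) =>
      s59t_cB (𝒪 := 𝒪) N (fun ℓ => W.apOfModel ℓ) (x : s59w_AIdx N)))
    (hid : s59t_E0 H B e * s59t_E0 H B e = s59t_E0 H B e)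
    (hnil : ∀ x ∈ s59t_goodB N B, ∃ k : ℕ, ∀ y : s48h_Hpar 𝒪 (s48h_GammaH N H) 𝒪,
      ((s59w_op H 𝒪 x - s59t_cB (𝒪 := 𝒪) N (fun ℓ => W.apOfModel ℓ) x •
        (1 : Module.End 𝒪 (s48h_Hpar 𝒪 (s48h_GammaH N H) 𝒪))) ^ k)
        (s59t_E0 H B e y) ∈
        (maximalIdeal 𝒪 • ⊤ : Submodule 𝒪 (s48h_Hpar 𝒪 (s48h_GammaH N H) 𝒪)))
    (aq bq : ℕ → 𝒪)
    (harith : ∀ j, IsUnit (bq (qv j) - aq (qv j)) ∧
      ((qv j : ℕ) : 𝒪) - aq (qv j) * bq (qv j) ∈ maximalIdeal 𝒪 ∧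
      IsUnit (1 - aq (qv j) ^ 2) ∧ IsUnit (1 - bq (qv j) ^ 2))
    (hcong : ∀ j, aq (qv j) + bq (qv j) - ((W.apOfModel (qv j) : ℤ) : 𝒪) ∈
      maximalIdeal 𝒪) :
    ∃ (e₀ : MvPolynomial ↥(s59t_goodB (N * ∏ j, qv j) B) 𝒪)
      (G : MvPolynomial (s59w_AIdx (N * ∏ j, qv j) ⊕ ℕ) 𝒪),
      1 - e₀ ∈ s59t_evalIdeal (fun x : ↥(s59t_goodB (N * ∏ j, qv j) B) =>
        s59t_cB (𝒪 := 𝒪) (N * ∏ j, qv j) (fun ℓ => W.apOfModel ℓ) x) ∧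
      -- invertibility of everything outside the maximal ideal, on the `ε'`-part
      (∀ t : MvPolynomial ↥(s59t_goodB (N * ∏ j, qv j) B) 𝒪,
        t ∉ s59t_evalIdeal (fun x : ↥(s59t_goodB (N * ∏ j, qv j) B) =>
          s59t_cB (𝒪 := 𝒪) (N * ∏ j, qv j) (fun ℓ => W.apOfModel ℓ) x) →
        ∃ η : MvPolynomial ↥(s59t_goodB (N * ∏ j, qv j) B) 𝒪,
          s59t_actH (N * ∏ j, qv j) aq (dvd_refl _)
            (s59t_Hmul N (∏ j, qv j) H (s59t_KQ (p ^ n) qv))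
            (s59t_jG 𝒪 (s59t_goodB (N * ∏ j, qv j) B) (η * t * e₀)) =
          s59t_actH (N * ∏ j, qv j) aq (dvd_refl _)
            (s59t_Hmul N (∏ j, qv j) H (s59t_KQ (p ^ n) qv))
            (s59t_jG 𝒪 (s59t_goodB (N * ∏ j, qv j) B) e₀)) ∧
      -- the Taylor–Wiles level `(N', H')`
      s59t_actH (N * ∏ j, qv j) aq (dvd_refl _) (s59t_Hmul N (∏ j, qv j) H (s59t_KQ (p ^ n) qv))
          (G * s59t_jG 𝒪 (s59t_goodB (N * ∏ j, qv j) B) e₀) *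
        s59t_actH (N * ∏ j, qv j) aq (dvd_refl _)
          (s59t_Hmul N (∏ j, qv j) H (s59t_KQ (p ^ n) qv))
          (G * s59t_jG 𝒪 (s59t_goodB (N * ∏ j, qv j) B) e₀) =
        s59t_actH (N * ∏ j, qv j) aq (dvd_refl _)
          (s59t_Hmul N (∏ j, qv j) H (s59t_KQ (p ^ n) qv))
          (G * s59t_jG 𝒪 (s59t_goodB (N * ∏ j, qv j) B) e₀) ∧
      (∀ x ∈ s59t_goodB (N * ∏ j, qv j) B, ∃ k : ℕ,
        ∀ y : s48h_Hpar 𝒪 (s48h_GammaH (N * ∏ j, qv j)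
          (s59t_Hmul N (∏ j, qv j) H (s59t_KQ (p ^ n) qv))) 𝒪,
        ((s59w_op (s59t_Hmul N (∏ j, qv j) H (s59t_KQ (p ^ n) qv)) 𝒪 x -
          s59t_cB (𝒪 := 𝒪) (N * ∏ j, qv j) (fun ℓ => W.apOfModel ℓ) x •
            (1 : Module.End 𝒪 (s48h_Hpar 𝒪 (s48h_GammaH (N * ∏ j, qv j)
              (s59t_Hmul N (∏ j, qv j) H (s59t_KQ (p ^ n) qv))) 𝒪))) ^ k)
          (s59t_actH (N * ∏ j, qv j) aq (dvd_refl _)
            (s59t_Hmul N (∏ j, qv j) H (s59t_KQ (p ^ n) qv))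
            (G * s59t_jG 𝒪 (s59t_goodB (N * ∏ j, qv j) B) e₀) y) ∈
          (maximalIdeal 𝒪 • ⊤ : Submodule 𝒪 (s48h_Hpar 𝒪 (s48h_GammaH (N * ∏ j, qv j)
              (s59t_Hmul N (∏ j, qv j) H (s59t_KQ (p ^ n) qv))) 𝒪))) ∧
      s59t_TWFull (s59t_Gamma0_anti (s59t_dvd_mul_left' N (∏ j, qv j)))
        (s59t_GammaHmul_le (N := N) (D := ∏ j, qv j) (H := H) (K := s59t_KQ (p ^ n) qv))
        (s59t_BQ N (∏ j, qv j) H (s59t_KQ (p ^ n) qv))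
        (s59t_CQ N (∏ j, qv j) H (s59t_KQ (p ^ n) qv))
        (s59t_E0 H B e)
        (s59t_actH (N * ∏ j, qv j) aq (dvd_refl _)
          (s59t_Hmul N (∏ j, qv j) H (s59t_KQ (p ^ n) qv))
          (G * s59t_jG 𝒪 (s59t_goodB (N * ∏ j, qv j) B) e₀)) ∧
      s59ex_LvlX (N * ∏ j, qv j) (s59t_Hmul N (∏ j, qv j) H (s59t_KQ (p ^ n) qv)) aq
        (s59t_goodB (N * ∏ j, qv j) B) (s59t_cB (𝒪 := 𝒪) (N * ∏ j, qv j) (fun ℓ => W.apOfModel ℓ))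
        (List.ofFn qv) e₀ G := by
  classical
  haveI : CharP (ResidueField 𝒪) p := s59e_charP_residue p hp𝒪
  have hpP : p.Prime := Fact.out
  have hp2 : p ≠ 2 := s59e_auxTors_ne_two hp12
  have hq : ∀ i, (qv i).Prime := fun i => (hqv i).1
  have hqB : ∀ i, qv i ∉ B := fun i => (hqv i).2.1
  have hqp : ∀ j, qv j ≠ p := fun j h => hqB j (h ▸ hpB)
  -- the level package
  have hsq' := s59u_squarefree_level qv hsq hNB hq hqB hqinj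
  have hcop := s59u_coprime_prod_qv qv hNB hq hqB
  obtain ⟨i₀, hi₀, hnE⟩ :=
    s59u_W_exists_nonEis_idx W hΔ p hp2 hirr (𝒪 := 𝒪) hp𝒪 B (N * ∏ j, qv j)
  refine s59ex_aux_TW_level p H B (fun ℓ => W.apOfModel ℓ) n qv hp12 hsq hsq' S37 hN1
    hnegH hp𝒪 hpB hH (s59u_W6 (dvd_refl N) H 𝒪 p hp𝒪 _ B hocc)
    (s59u_W6_G0 (dvd_refl N) 𝒪 p hp𝒪 _ B hocc) hcop hqinj hq aq bq harith i₀ hi₀ hnE ?_
    e h1e hid hnil
  -- (TQ)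
  intro M hM q hqL _ hqM e₀ h1e₀ hid₀ hnil₀
  obtain ⟨j, rfl⟩ : ∃ j, qv j = q := by
    rw [List.mem_ofFn] at hqL
    exact hqL
  exact s59b_TQ_good p hp2 hp𝒪 aq bq W hΔ (s59t_goodB (N * ∏ j, qv j) B)
    (s59t_cB (𝒪 := 𝒪) (N * ∏ j, qv j) (fun ℓ => W.apOfModel ℓ)) B
    (fun i hi => ⟨i, rfl, hi⟩)
    (fun i hi => by
      show ((W.apOfModel i.ell : ℤ) : 𝒪) - _ ∈ _
      rw [sub_self]
      exact Ideal.zero_mem _)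
    M hM e₀ hnil₀ (qv j) hqM (hqp j) (hgood _ (hq j) (hqB j)) (hcong j)

end XWPkg

end Fermat.Agent.Lib.S59
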