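/-
Programme R2 (S59), node [PATCH-FLR], `T`-side (helper6, prefix `s59q_st_`): **small abstract lemmas used by the level packages**
(`QStLvlP.lean`), stated over atoms so that their `rw`/`obtain` steps run in a SMALL context (inside the giant level package the same
steps take minutes each).
* `s59q_st_theta_comp` : from `θ' : D'.R ↠ T` with Frobenius characteristic polynomials `X² − t_ℓ X + ℓ` and `κ : D.R ↠ D'.R` compatible
  with the characteristic polynomials: `θ := θ' ∘ κ : D.R ↠ T` has the same Frobenius characteristic polynomials and kills `ker κ`.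
-/
import Mathlib
import Fermat.Prelude.Def_GaloisRep_DeformationRingData

set_option autoImplicit false

noncomputable section

namespace Fermat.Agent.Lib.S59

open IsLocalRing Polynomial

local notation "Γℚ" => (AlgebraicClosure ℚ ≃ₐ[ℚ] AlgebraicClosure ℚ)

/-- **the composite `θ = θ' ∘ κ`.** -/
theorem s59q_st_theta_comp {𝒪 : Type} [CommRing 𝒪] [IsDomain 𝒪] [IsDiscreteValuationRing 𝒪]
    [IsAdicComplete (maximalIdeal 𝒪) 𝒪]
    {ρbar : ResidualGaloisRep (ResidueField 𝒪)}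
    {𝒟 𝒟' : ∀ ⦃A : Type⦄ [CommRing A] [IsLocalRing A] [Algebra 𝒪 A], GaloisRepAdic A → Prop}
    (DQ : GaloisRep.DeformationRingData 𝒪 ρbar 𝒟) (DQ' : GaloisRep.DeformationRingData 𝒪 ρbar 𝒟')
    (κ : DQ.R →ₐ[𝒪] DQ'.R) (hκs : Function.Surjective κ)
    (hκc : ∀ g : Γℚ, (LinearMap.charpoly (DQ.ρ.ρ g)).map (κ : DQ.R →+* DQ'.R) =
      LinearMap.charpoly (DQ'.ρ.ρ g))
    {T : Type} [CommRing T] [Algebra 𝒪 T]
    (θ' : DQ'.R →ₐ[𝒪] T) (hθ' : Function.Surjective θ')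
    (S : Finset ℕ) (tT : ℕ → T)
    (hfrobT' : ∀ ℓ : ℕ, ℓ.Prime → ℓ ∉ S →
      ∀ A' : ValuationSubring (AlgebraicClosure ℚ), A'.LiesOverPrime ℓ →
      ∀ τ : Γℚ, A'.IsFrobeniusAt τ ℓ →
        (LinearMap.charpoly (DQ'.ρ.ρ τ)).map (θ' : DQ'.R →+* T) =
          Polynomial.X ^ 2 - Polynomial.C (tT ℓ) * Polynomial.X + Polynomial.C ((ℓ : T))) :
    ∃ θ : DQ.R →ₐ[𝒪] T, Function.Surjective θ ∧
      (∀ ℓ : ℕ, ℓ.Prime → ℓ ∉ S →
        ∀ A' : ValuationSubring (AlgebraicClosure ℚ), A'.LiesOverPrime ℓ →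
        ∀ τ : Γℚ, A'.IsFrobeniusAt τ ℓ →
          (LinearMap.charpoly (DQ.ρ.ρ τ)).map (θ : DQ.R →+* T) =
            Polynomial.X ^ 2 - Polynomial.C (tT ℓ) * Polynomial.X + Polynomial.C ((ℓ : T))) ∧
      ∀ x : DQ.R, κ x = 0 → θ x = 0 := by
  refine ⟨θ'.comp κ, hθ'.comp hκs, ?_, ?_⟩
  · intro ℓ hℓ hℓS A' hA' τ hτ
    have hθcoe : ((θ'.comp κ : DQ.R →ₐ[𝒪] T) : DQ.R →+* T) =
        (θ' : DQ'.R →+* T).comp (κ : DQ.R →+* DQ'.R) := rfl
    rw [hθcoe, ← Polynomial.map_map, hκc]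
    exact hfrobT' ℓ hℓ hℓS A' hA' τ hτ
  · intro x hx
    show θ' (κ x) = 0
    rw [hx, map_zero]

end Fermat.Agent.Lib.S59
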