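/-
Programme R2 (S59), node [PATCH-FLR], `T`-side, p = 3 port ([SPEC-T], helper8, prefix `s59c3_`), file 5:
**THE TAYLOR–WILES DATA OF ONE LEVEL, CONCRETE FORM, EVEN LEVEL, ANY ODD `p`** — generated from helper5's `EFlrLvlP.lean`
(`s59efl_lvl_pkg`): `5 ≤ p` is replaced by `p ≠ 2`, `2 ∣ N ∨ 3 ∣ N` by `2 ∣ N` (`s59e3_auxTors_even`, `s59c3_level_abs`).
* `Internal.s59c3_lvl_pkg` : the theorem (the name component `Internal` keeps Lean's premise-selection exporters off its giant type).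
-/
import Mathlib
import Fermat.Agent.Lib.S59.EFlrLvl
import Fermat.Agent.Lib.S59.C3FlrLvl
import Fermat.Agent.Lib.S59.E3Aux
import Fermat.Agent.Lib.S59.EFlrTr
import Fermat.Agent.Lib.S59.EFlrH3F
import Fermat.Agent.Lib.S59.EXLvl
import Fermat.Agent.Lib.S59.EWRho
import Fermat.Agent.Lib.S59.EFlrConcA
import Fermat.Agent.Lib.S59.QStLvlA

set_option autoImplicit false
set_option linter.unusedSectionVars false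
set_option linter.unusedVariables false
set_option linter.style.haveILetI false
set_option maxHeartbeats 0
set_option synthInstance.maxHeartbeats 400000
set_option maxSynthPendingDepth 3
set_option backward.isDefEq.respectTransparency.types true

noncomputable section

namespace Fermat.Agent.Lib.S59

open IsLocalRing CuspForm Polynomial ExtCitation CongruenceSubgroup
open WeierstrassCurve WeierstrassCurve.Affine WeierstrassCurve.Affine.Point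
open Fermat.Agent.Lib.S48 Fermat.Agent.Lib.S44
open scoped MatrixGroups

local notation "Γℚ" => (AlgebraicClosure ℚ ≃ₐ[ℚ] AlgebraicClosure ℚ)

/-- **the Taylor–Wiles data of one level; even level, any odd `p`.** -/
theorem Internal.s59c3_lvl_pkg (p : ℕ) [Fact p.Prime] (hp2 : p ≠ 2) (W : WeierstrassCurve ℤ) (hΔ : W.Δ ≠ 0)
    (N : ℕ) [NeZero N] (B : Finset ℕ)
    (hirr : W.ModRepIsIrreducible p) (hsq : Squarefree N) (hpN : ¬ p ∣ N)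
    (hB1 : ∀ r : ℕ, r.Prime → r ∣ N * p → r ∈ B)
    (hB2 : ∀ r : ℕ, r.Prime → ¬ W.IsGoodPrimeFor r → r ∈ B)
    (hocc : s44i_LevelOcc N p (fun ℓ => W.apOfModel ℓ) B)
    (h23 : 2 ∣ N)
    (𝒪 : Type) [CommRing 𝒪] [IsDomain 𝒪] [IsDiscreteValuationRing 𝒪]
    [IsAdicComplete (maximalIdeal 𝒪) 𝒪] [Finite (ResidueField 𝒪)] [CharZero 𝒪]
    [Algebra ℤ_[p] 𝒪] [Module.Finite ℤ_[p] 𝒪]
    (hp𝒪 : ((p : ℕ) : 𝒪) ∈ maximalIdeal 𝒪)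
    (r : ℕ) (σ : Type) [DecidableEq σ] [Fintype σ]
    -- the base data
    (e : MvPolynomial ↥(s59t_goodB N B) 𝒪)
    (h1e : 1 - e ∈ s59t_evalIdeal (fun x : ↥(s59t_goodB N B) =>
      s59t_cB (𝒪 := 𝒪) N (fun ℓ => W.apOfModel ℓ) (x : s59w_AIdx N)))
    (hid : (s59t_E0 (⊤ : Subgroup (ZMod N)ˣ) B e) * (s59t_E0 (⊤ : Subgroup (ZMod N)ˣ) B e) = (s59t_E0 (⊤ : Subgroup (ZMod N)ˣ) B e))
    (hnil : ∀ x ∈ s59t_goodB N B, ∃ k : ℕ, ∀ y : (s48h_Hpar 𝒪 (s48h_GammaH N (⊤ : Subgroup (ZMod N)ˣ)) 𝒪),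
      ((s59w_op (⊤ : Subgroup (ZMod N)ˣ) 𝒪 x - s59t_cB (𝒪 := 𝒪) N (fun ℓ => W.apOfModel ℓ) x •
        (1 : Module.End 𝒪 (s48h_Hpar 𝒪 (s48h_GammaH N (⊤ : Subgroup (ZMod N)ˣ)) 𝒪))) ^ k) ((s59t_E0 (⊤ : Subgroup (ZMod N)ˣ) B e) y) ∈
        (maximalIdeal 𝒪 • ⊤ : Submodule 𝒪 (s48h_Hpar 𝒪 (s48h_GammaH N (⊤ : Subgroup (ZMod N)ˣ)) 𝒪)))
    (hρ : ∀ δ y, (s59t_E0 (⊤ : Subgroup (ZMod N)ˣ) B e) ((s59t_rho N (⊤ : Subgroup (ZMod N)ˣ) 𝒪 𝒪) δ y) = (s59t_rho N (⊤ : Subgroup (ZMod N)ˣ) 𝒪 𝒪) δ ((s59t_E0 (⊤ : Subgroup (ZMod N)ˣ) B e) y))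
    (d : ℕ) (hd0 : d ≠ 0)
    (b0 : Fin d → LinearMap.range (s59t_E0 (⊤ : Subgroup (ZMod N)ˣ) B e))
    (hb0 : Function.Bijective (s59t_evalMap (s59t_partRep (s59t_rho N (⊤ : Subgroup (ZMod N)ˣ) 𝒪 𝒪) hρ) b0))
    (a₀ : (heckeAlgebra N 2 (↑B : Set ℕ)) →+* Module.End 𝒪 (s48h_Hpar 𝒪 (s48h_GammaH N (⊤ : Subgroup (ZMod N)ˣ)) 𝒪))
    (ha1₀ : ∀ (ℓ : ℕ) (hℓ : ℓ.Prime) (hℓN : ¬ ℓ ∣ N) (hℓS : ℓ ∉ (↑B : Set ℕ)) (i : s59w_TIdx N),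
      i.ell = ℓ → a₀ (heckeAlgebra.T hℓ hℓN hℓS) = s59e_Tp' (⊤ : Subgroup (ZMod N)ˣ) 𝒪 ((p ^ 0 - 1) * ((p ^ 0 + 1) / 2)) i)
    (aM₀ : (heckeAlgebra N 2 (↑B : Set ℕ)) →+* Module.End 𝒪 (LinearMap.range (s59t_E0 (⊤ : Subgroup (ZMod N)ˣ) B e)))
    (haM₀ : ∀ t (z : LinearMap.range (s59t_E0 (⊤ : Subgroup (ZMod N)ˣ) B e)), ((aM₀ t z : LinearMap.range (s59t_E0 (⊤ : Subgroup (ZMod N)ˣ) B e)) :
      (s48h_Hpar 𝒪 (s48h_GammaH N (⊤ : Subgroup (ZMod N)ˣ)) 𝒪)) = a₀ t (z : (s48h_Hpar 𝒪 (s48h_GammaH N (⊤ : Subgroup (ZMod N)ˣ)) 𝒪)))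
    [IsLocalRing (s59e_adj 𝒪 aM₀)]
    [IsNoetherianRing (s59e_adj 𝒪 aM₀)] [Module.Finite 𝒪 (s59e_adj 𝒪 aM₀)]
    (hRρ : ∀ (t : s59e_adj 𝒪 aM₀) (δ : (s59t_Delta N (⊤ : Subgroup (ZMod N)ˣ))) (y : LinearMap.range (s59t_E0 (⊤ : Subgroup (ZMod N)ˣ) B e)),
      t • (s59t_partRep (s59t_rho N (⊤ : Subgroup (ZMod N)ˣ) 𝒪 𝒪) hρ) δ y = (s59t_partRep (s59t_rho N (⊤ : Subgroup (ZMod N)ˣ) 𝒪 𝒪) hρ) δ (t • y))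
    (ρR : GaloisRepAdic (s59e_adj 𝒪 aM₀))
    (hfrobR : ∀ (ℓ : ℕ), ℓ.Prime → ¬ ℓ ∣ N → ℓ ∉ (↑B : Set ℕ) →
      ∀ A : ValuationSubring (AlgebraicClosure ℚ), A.LiesOverPrime ℓ →
      ∀ g : Γℚ, A.IsFrobeniusAt g ℓ →
        LinearMap.charpoly (ρR.ρ g) =
          Polynomial.X ^ 2 - Polynomial.C (s59e_tOf (↑B : Set ℕ) aM₀ ℓ) * Polynomial.X +
            Polynomial.C ((ℓ : s59e_adj 𝒪 aM₀)))
    (hgenR : Algebra.adjoin 𝒪 {x : s59e_adj 𝒪 aM₀ | ∃ ℓ : ℕ, ℓ.Prime ∧ ¬ ℓ ∣ N ∧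
      ℓ ∉ (↑B : Set ℕ) ∧ x = s59e_tOf (↑B : Set ℕ) aM₀ ℓ} = ⊤)
    -- the level
    (n : ℕ) (qv : Fin r → ℕ) [NeZero (∏ j, qv j)] [NeZero (N * ∏ j, qv j)]
    [NeZero (N * ∏ q ∈ Finset.univ.image qv, q ^ 2)]
    (hqinj : Function.Injective qv)
    (hqv : ∀ i, (qv i).Prime ∧ qv i ∉ B ∧ p ^ (n + 1) ∣ qv i - 1)
    (hTW : ∀ i, ∀ A : ValuationSubring (AlgebraicClosure ℚ), A.LiesOverPrime (qv i) →
      ∀ φ : Γℚ, A.IsFrobeniusAt φ (qv i) →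
        ∃ α β : ResidueField 𝒪, α ≠ β ∧
          LinearMap.charpoly ((s59i_rhobarW W p hΔ 𝒪 hp𝒪).ρ φ) = (X - C α) * (X - C β))
    (aq bq : ℕ → 𝒪)
    (harith : ∀ j, IsUnit (bq (qv j) - aq (qv j)) ∧
      ((qv j : ℕ) : 𝒪) - aq (qv j) * bq (qv j) ∈ maximalIdeal 𝒪 ∧
      IsUnit (1 - aq (qv j) ^ 2) ∧ IsUnit (1 - bq (qv j) ^ 2))
    (hcongq : ∀ j, aq (qv j) + bq (qv j) - ((W.apOfModel (qv j) : ℤ) : 𝒪) ∈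
      maximalIdeal 𝒪)
    -- the generators of `B_Q`
    (g : Fin r → (s59t_BQ N (∏ j, qv j) (⊤ : Subgroup (ZMod N)ˣ) (s59t_KQ (p ^ n) qv)))
    (hcard : Nat.card (s59t_BQ N (∏ j, qv j) (⊤ : Subgroup (ZMod N)ˣ) (s59t_KQ (p ^ n) qv)) = (p ^ n) ^ r)
    (hgen : ∀ x : (s59t_BQ N (∏ j, qv j) (⊤ : Subgroup (ZMod N)ˣ) (s59t_KQ (p ^ n) qv)), ∃ a : Fin r → ℕ, x = ∏ i, g i ^ a i)
    (hord : ∀ i, g i ^ (p ^ n) = 1)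
    (hgloc : ∀ i, ∃ τ : Gamma0 (N * ∏ j, qv j),
      (QuotientGroup.mk τ : (s59t_Delta (N * ∏ j, qv j) (s59t_Hmul N (∏ j, qv j) (⊤ : Subgroup (ZMod N)ˣ) (s59t_KQ (p ^ n) qv)))) = (g i : (s59t_Delta (N * ∏ j, qv j) (s59t_Hmul N (∏ j, qv j) (⊤ : Subgroup (ZMod N)ˣ) (s59t_KQ (p ^ n) qv)))) ∧
      ZMod.unitsMap (Nat.div_dvd_of_dvd (s59t_qv_dvd_level qv N i))
        (s59t_unitHom (N * ∏ j, qv j) τ) = 1)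
    -- the deformation type
    (Sg Su : Finset ℕ)
    (DQ : GaloisRep.DeformationRingData 𝒪 (s59i_rhobarW W p hΔ 𝒪 hp𝒪) (fun _A _ _ _ ρ =>
      GaloisRep.flatCondition 𝒪 p Sg ρ ∧
        ∀ q ∈ Su, q.Prime → q ≠ p → ρ.IsUnipotentOnInertiaAt q))
    -- the auxiliary ring `DQ'` (of a smaller type) through which the Hecke ring of the level is reached
    (Sg' Su' Smin : Finset ℕ) (hpSg : p ∈ Sg')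
    (hSg : ∀ q : ℕ, q.Prime → q ∣ (N * ∏ q ∈ Finset.univ.image qv, q ^ 2) → q ∈ Sg' ∨ s59e3q_E2Alt p (s59i_rhobarW W p hΔ 𝒪 hp𝒪) q)
    (hmin : ∀ q : ℕ, q.Prime → q ≠ p → (q ∈ Smin ↔ ¬ (s59i_rhobarW W p hΔ 𝒪 hp𝒪).IsUnramifiedAt q))
    (hSu : ∀ q ∈ Su', q ∈ Smin ∨ q ∉ Finset.univ.image qv)
    (DQ' : GaloisRep.DeformationRingData 𝒪 (s59i_rhobarW W p hΔ 𝒪 hp𝒪) (fun _A _ _ _ ρ =>
      GaloisRep.flatCondition 𝒪 p Sg' ρ ∧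
        ∀ q ∈ Su', q.Prime → q ≠ p → ρ.IsUnipotentOnInertiaAt q))
    (κ : DQ.R →ₐ[𝒪] DQ'.R) (hκs : Function.Surjective κ)
    (hκc : ∀ g : Γℚ, (LinearMap.charpoly (DQ.ρ.ρ g)).map (κ : DQ.R →+* DQ'.R) =
      LinearMap.charpoly (DQ'.ρ.ρ g)) :
    ∃ (e₀ : MvPolynomial ↥(s59t_goodB (N * ∏ j, qv j) B) 𝒪),
    ∃ (G : MvPolynomial (s59w_AIdx (N * ∏ j, qv j) ⊕ ℕ) 𝒪),
    ∃ (hXl : s59ex_LvlX (N * ∏ j, qv j) (s59t_Hmul N (∏ j, qv j) (⊤ : Subgroup (ZMod N)ˣ) (s59t_KQ (p ^ n) qv)) aq (s59t_goodB (N * ∏ j, qv j) B)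
      (s59t_cB (𝒪 := 𝒪) (N * ∏ j, qv j) (fun ℓ => W.apOfModel ℓ)) (List.ofFn qv) e₀ G),
    ∃ (a : (heckeAlgebra (N * ∏ q ∈ Finset.univ.image qv, q ^ 2) 2 (↑(B ∪ Finset.univ.image qv) : Set ℕ)) →+* Module.End 𝒪 (s48h_Hpar 𝒪 (s48h_GammaH (N * ∏ j, qv j) (s59t_Hmul N (∏ j, qv j) (⊤ : Subgroup (ZMod N)ˣ) (s59t_KQ (p ^ n) qv))) 𝒪)),
    ∃ (ha1 : ∀ (ℓ : ℕ) (hℓ : ℓ.Prime) (hℓN : ¬ ℓ ∣ (N * ∏ q ∈ Finset.univ.image qv, q ^ 2))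
      (hℓS : ℓ ∉ (↑(B ∪ Finset.univ.image qv) : Set ℕ)) (i : s59w_TIdx (N * ∏ j, qv j)),
      i.ell = ℓ → a (heckeAlgebra.T hℓ hℓN hℓS) = s59e_Tp' (s59t_Hmul N (∏ j, qv j) (⊤ : Subgroup (ZMod N)ˣ) (s59t_KQ (p ^ n) qv)) 𝒪 ((p ^ (0 + n) - 1) * ((p ^ (0 + n) + 1) / 2)) i),
    ∃ (ha2 : ∀ t, a t ∈ Subring.closure (Set.range (s59e_Tp' (s59t_Hmul N (∏ j, qv j) (⊤ : Subgroup (ZMod N)ˣ) (s59t_KQ (p ^ n) qv)) 𝒪 ((p ^ (0 + n) - 1) * ((p ^ (0 + n) + 1) / 2))))),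
    ∃ (aM : (heckeAlgebra (N * ∏ q ∈ Finset.univ.image qv, q ^ 2) 2 (↑(B ∪ Finset.univ.image qv) : Set ℕ)) →+* Module.End 𝒪 (LinearMap.range (s59t_actH (N * ∏ j, qv j) aq (dvd_refl (N * ∏ j, qv j)) (s59t_Hmul N (∏ j, qv j) (⊤ : Subgroup (ZMod N)ˣ) (s59t_KQ (p ^ n) qv)) (G * s59t_jG 𝒪 (s59t_goodB (N * ∏ j, qv j) B) e₀)))),
    ∃ (haM : ∀ t (z : LinearMap.range (s59t_actH (N * ∏ j, qv j) aq (dvd_refl (N * ∏ j, qv j)) (s59t_Hmul N (∏ j, qv j) (⊤ : Subgroup (ZMod N)ˣ) (s59t_KQ (p ^ n) qv)) (G * s59t_jG 𝒪 (s59t_goodB (N * ∏ j, qv j) B) e₀))), ((aM t z : LinearMap.range (s59t_actH (N * ∏ j, qv j) aq (dvd_refl (N * ∏ j, qv j)) (s59t_Hmul N (∏ j, qv j) (⊤ : Subgroup (ZMod N)ˣ) (s59t_KQ (p ^ n) qv)) (G * s59t_jG 𝒪 (s59t_goodB (N * ∏ j, qv j) B) e₀))) : (s48h_Hpar 𝒪 (s48h_GammaH (N * ∏ j, qv j)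 (s59t_Hmul N (∏ j, qv j) (⊤ : Subgroup (ZMod N)ˣ) (s59t_KQ (p ^ n) qv))) 𝒪)) =
      a t (z : (s48h_Hpar 𝒪 (s48h_GammaH (N * ∏ j, qv j) (s59t_Hmul N (∏ j, qv j) (⊤ : Subgroup (ZMod N)ˣ) (s59t_KQ (p ^ n) qv))) 𝒪))),
    ∃ (_ : IsLocalRing (s59e_adj 𝒪 aM)),
    ∃ (θ : DQ.R →ₐ[𝒪] s59e_adj 𝒪 aM),
    ∃ (hθ : Function.Surjective θ),
    ∃ (hfrobT : ∀ ℓ : ℕ, ℓ.Prime → ℓ ∉ (B ∪ Finset.univ.image qv) →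
      ∀ A' : ValuationSubring (AlgebraicClosure ℚ), A'.LiesOverPrime ℓ →
      ∀ τ : Γℚ, A'.IsFrobeniusAt τ ℓ →
        (LinearMap.charpoly (DQ.ρ.ρ τ)).map (θ : DQ.R →+* s59e_adj 𝒪 aM) =
          Polynomial.X ^ 2 - Polynomial.C (s59e_tOf (↑(B ∪ Finset.univ.image qv) : Set ℕ) aM ℓ) * Polynomial.X +
            Polynomial.C ((ℓ : s59e_adj 𝒪 aM))),
    ∃ (hρ' : ∀ δ y, (s59t_actH (N * ∏ j, qv j) aq (dvd_refl (N * ∏ j, qv j)) (s59t_Hmul N (∏ j, qv j) (⊤ : Subgroup (ZMod N)ˣ) (s59t_KQ (p ^ n) qv)) (G * s59t_jG 𝒪 (s59t_goodB (N * ∏ j, qv j) B) e₀)) ((s59t_rho (N * ∏ j, qv j) (s59t_Hmul N (∏ j, qv j) (⊤ : Subgroup (ZMod N)ˣ) (s59t_KQ (p ^ n) qv)) 𝒪 𝒪) δ y) = (s59t_rho (N * ∏ j, qv j) (s59t_Hmul N (∏ j, qv j) (⊤ : Subgroup (ZMod N)ˣ) (s59t_KQ (p ^ n) qv)) 𝒪 𝒪) δ ((s59t_actH (N * ∏ j, qv j) aq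 (dvd_refl (N * ∏ j, qv j)) (s59t_Hmul N (∏ j, qv j) (⊤ : Subgroup (ZMod N)ˣ) (s59t_KQ (p ^ n) qv)) (G * s59t_jG 𝒪 (s59t_goodB (N * ∏ j, qv j) B) e₀)) y)),
    ∃ (π : s59t_part (s59t_actH (N * ∏ j, qv j) aq (dvd_refl (N * ∏ j, qv j)) (s59t_Hmul N (∏ j, qv j) (⊤ : Subgroup (ZMod N)ˣ) (s59t_KQ (p ^ n) qv)) (G * s59t_jG 𝒪 (s59t_goodB (N * ∏ j, qv j) B) e₀)) →ₗ[𝒪] s59t_part (s59t_E0 (⊤ : Subgroup (ZMod N)ˣ) B e)),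
    ∃ (hcomm : ∀ (t : (heckeAlgebra (N * ∏ q ∈ Finset.univ.image qv, q ^ 2) 2 (↑(B ∪ Finset.univ.image qv) : Set ℕ))) (β : (s59t_BQ N (∏ j, qv j) (⊤ : Subgroup (ZMod N)ˣ) (s59t_KQ (p ^ n) qv))),
      Commute (aM t) (((s59t_partRep (s59t_rho (N * ∏ j, qv j) (s59t_Hmul N (∏ j, qv j) (⊤ : Subgroup (ZMod N)ˣ) (s59t_KQ (p ^ n) qv)) 𝒪 𝒪) hρ').comp (s59t_BQ N (∏ j, qv j) (⊤ : Subgroup (ZMod N)ˣ) (s59t_KQ (p ^ n) qv)).subtype) β)),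
    ∃ (hTρ : ∀ (t : s59e_adj 𝒪 (s59e_aB aM ((s59t_partRep (s59t_rho (N * ∏ j, qv j) (s59t_Hmul N (∏ j, qv j) (⊤ : Subgroup (ZMod N)ˣ) (s59t_KQ (p ^ n) qv)) 𝒪 𝒪) hρ').comp (s59t_BQ N (∏ j, qv j) (⊤ : Subgroup (ZMod N)ˣ) (s59t_KQ (p ^ n) qv)).subtype) hcomm)) δ y,
      t • (s59t_partRep (s59t_rho (N * ∏ j, qv j) (s59t_Hmul N (∏ j, qv j) (⊤ : Subgroup (ZMod N)ˣ) (s59t_KQ (p ^ n) qv)) 𝒪 𝒪) hρ') δ y = (s59t_partRep (s59t_rho (N * ∏ j, qv j) (s59t_Hmul N (∏ j, qv j) (⊤ : Subgroup (ZMod N)ˣ) (s59t_KQ (p ^ n) qv)) 𝒪 𝒪) hρ') δ (t • y)),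
    ∃ (h2 : ∀ y ∈ s59t_eig (s59t_partRep (s59t_rho (N * ∏ j, qv j) (s59t_Hmul N (∏ j, qv j) (⊤ : Subgroup (ZMod N)ˣ) (s59t_KQ (p ^ n) qv)) 𝒪 𝒪) hρ') (s59t_CQ N (∏ j, qv j) (⊤ : Subgroup (ZMod N)ˣ) (s59t_KQ (p ^ n) qv)) (1 : (s59t_Delta (N * ∏ j, qv j) (s59t_Hmul N (∏ j, qv j) (⊤ : Subgroup (ZMod N)ˣ) (s59t_KQ (p ^ n) qv))) →* 𝒪ˣ),
      π y ∈ s59t_eig (s59t_partRep (s59t_rho N (⊤ : Subgroup (ZMod N)ˣ) 𝒪 𝒪) hρ) ⊤ (1 : (s59t_Delta N (⊤ : Subgroup (ZMod N)ˣ)) →* 𝒪ˣ)),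
    ∃ (hιinj : Function.Injective (s59t_iotaH (s59t_E0 (⊤ : Subgroup (ZMod N)ˣ) B e) (s59t_actH (N * ∏ j, qv j) aq (dvd_refl (N * ∏ j, qv j)) (s59t_Hmul N (∏ j, qv j) (⊤ : Subgroup (ZMod N)ˣ) (s59t_KQ (p ^ n) qv)) (G * s59t_jG 𝒪 (s59t_goodB (N * ∏ j, qv j) B) e₀)) (s59t_resGHpar
      (s59t_GammaHmul_le (N := N) (D := ∏ j, qv j) (H := (⊤ : Subgroup (ZMod N)ˣ)) (K := s59t_KQ (p ^ n) qv)) 𝒪 𝒪))),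
    ∃ (hιπ : ∀ y, s59t_iotaH (s59t_E0 (⊤ : Subgroup (ZMod N)ˣ) B e) (s59t_actH (N * ∏ j, qv j) aq (dvd_refl (N * ∏ j, qv j)) (s59t_Hmul N (∏ j, qv j) (⊤ : Subgroup (ZMod N)ˣ) (s59t_KQ (p ^ n) qv)) (G * s59t_jG 𝒪 (s59t_goodB (N * ∏ j, qv j) B) e₀)) (s59t_resGHpar
      (s59t_GammaHmul_le (N := N) (D := ∏ j, qv j) (H := (⊤ : Subgroup (ZMod N)ˣ)) (K := s59t_KQ (p ^ n) qv)) 𝒪 𝒪) (π y) =
      s59t_normPsi (s59t_partRep (s59t_rho (N * ∏ j, qv j) (s59t_Hmul N (∏ j, qv j) (⊤ : Subgroup (ZMod N)ˣ) (s59t_KQ (p ^ n) qv)) 𝒪 𝒪) hρ') (s59t_BQ N (∏ j, qv j) (⊤ : Subgroup (ZMod N)ˣ) (s59t_KQ (p ^ n) qv)) 1 y),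
    ∃ (rec : s59efl_RingRec (p := p) r σ DQ n (s59t_partRep (s59t_rho N (⊤ : Subgroup (ZMod N)ˣ) 𝒪 𝒪) hρ) (s59e_adj 𝒪 aM₀) hRρ ρR d
      (s59t_partRep (s59t_rho (N * ∏ j, qv j) (s59t_Hmul N (∏ j, qv j) (⊤ : Subgroup (ZMod N)ˣ) (s59t_KQ (p ^ n) qv)) 𝒪 𝒪) hρ') (s59t_BQ N (∏ j, qv j) (⊤ : Subgroup (ZMod N)ˣ) (s59t_KQ (p ^ n) qv)) (s59t_CQ N (∏ j, qv j) (⊤ : Subgroup (ZMod N)ˣ) (s59t_KQ (p ^ n) qv)) π aM hcomm hTρ h2 g θ qv),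
    ∃ (_ : IsNoetherianRing (s59e_adj 𝒪 aM)),
    ∃ (_ : IsAdicComplete (maximalIdeal (s59e_adj 𝒪 aM)) (s59e_adj 𝒪 aM)),
    ∃ (_ : IsLocalHom (algebraMap 𝒪 (s59e_adj 𝒪 aM))),
    ∃ (hres𝒪 : Function.Surjective (residue (s59e_adj 𝒪 aM) ∘ algebraMap 𝒪 (s59e_adj 𝒪 aM))),
    ∃ (hθl : IsLocalHom (θ : DQ.R →+* s59e_adj 𝒪 aM)),
    ∃ (h𝒟 : GaloisRep.flatCondition 𝒪 p Sg (DQ.ρ.baseChangeAlong (θ : DQ.R →+* s59e_adj 𝒪 aM) hθl) ∧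
      ∀ q ∈ Su, q.Prime → q ≠ p → (DQ.ρ.baseChangeAlong (θ : DQ.R →+* s59e_adj 𝒪 aM) hθl).IsUnipotentOnInertiaAt q),
    ∃ (hres : (DQ.ρ.baseChangeAlong (θ : DQ.R →+* s59e_adj 𝒪 aM) hθl).residual.IsEquiv
      ((s59i_rhobarW W p hΔ 𝒪 hp𝒪).baseChangeAlong (ResidueField.map (algebraMap 𝒪 (s59e_adj 𝒪 aM))))),
    IsReduced (s59e_adj 𝒪 aM) ∧ (∀ o : 𝒪, o ≠ 0 → ∀ x : s59e_adj 𝒪 aM, algebraMap 𝒪 (s59e_adj 𝒪 aM) o * x = 0 → x = 0) ∧ ∀ x : DQ.R, κ x = 0 → θ x = 0 := by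
  -- (the main goal becomes `False`: every later step has a trivial motive; NEVER `by_contra` here: its `Decidable` search does not come back)
  refine Classical.byContradiction fun hcontra => ?_
  classical
  have hpP : p.Prime := Fact.out
  have htors : s59e_auxTors p N := s59e3_auxTors_even hpP hp2 h23
  have hN1 : 1 < N := by
    have := Nat.le_of_dvd (Nat.pos_of_ne_zero (NeZero.ne N)) h23
    omega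
  have hgoodB : ∀ q : ℕ, q.Prime → q ∉ B → W.IsGoodPrimeFor q := by
    intro q hq hqB
    by_contra hbad
    exact hqB (hB2 q hq hbad)
  have hNB : ∀ q : ℕ, q.Prime → q ∣ N → q ∈ B := fun q hq h => hB1 q hq (Dvd.dvd.mul_right h p)
  have hpB : p ∈ B := hB1 p hpP (Dvd.intro_left N rfl)
  have hnegH : (-1 : (ZMod N)ˣ) ∈ (⊤ : Subgroup (ZMod N)ˣ) := Subgroup.mem_top _
  have hH : ∀ u : (ZMod N)ˣ, ∃ k : ℕ, u ^ (p ^ k) ∈ (⊤ : Subgroup (ZMod N)ˣ) :=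
    fun u => ⟨0, Subgroup.mem_top _⟩
  have hEigB : ∀ ℓ : ℕ, ℓ.Prime → ℓ ∉ B →
      ∀ A : ValuationSubring (AlgebraicClosure ℚ), A.LiesOverPrime ℓ →
      ∀ σ : Γℚ, A.IsFrobeniusAt σ ℓ →
        LinearMap.charpoly ((s59i_rhobarW W p hΔ 𝒪 hp𝒪).ρ σ) =
          X ^ 2 - C (residue 𝒪 ((W.apOfModel ℓ : ℤ) : 𝒪)) * X +
            C ((ℓ : ResidueField 𝒪)) := fun ℓ hℓ hℓS A hA σ hσ =>
    s59e_rhobarW_charpoly_frob hΔ hp2 hirr hp𝒪 B hpB hB2 ℓ hℓ hℓS A hA σ hσ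
  have hqvpr : ∀ i, (qv i).Prime := fun i => (hqv i).1
  -- the level package
  -- (`choose` instead of `obtain` throughout: `rcases` is pathologically slow against the giant goal)
  have hlev :=
    s59ex_W_level W hΔ p hirr N hsq B hpB hNB hgoodB hocc hp𝒪
      (⊤ : Subgroup (ZMod N)ˣ) hnegH hH n qv htors hN1
      (s59e_aux_S37H_pgroup hsq hN1 hnegH (Or.inl h23) htors hH) hqinj hqv hTW e h1e hid hnil aq bq harith hcongq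
  choose e₀ G h1e₀ hunit' hid' hnil' hP1 hXl using hlev
  have hP1' := hP1
  choose hρ0a hρ'0 dn bn bn' πn hbn hbn' hP1rest using hP1'
  have hdn : d = dn := (s59u_rank_unique _ bn hbn b0 hb0).symm
  have hε'ne := (s59t_part_ne_zero_iff _ bn' hbn').2 (hdn ▸ hd0)
  haveI : Nontrivial (LinearMap.range (s59t_actH (N * ∏ j, qv j) aq (dvd_refl _) (s59t_Hmul N (∏ j, qv j) (⊤ : Subgroup (ZMod N)ˣ) (s59t_KQ (p ^ n) qv)) (G * s59t_jG 𝒪 (s59t_goodB (N * ∏ j, qv j) B) e₀))) := s59e_L_range_nontrivial _ hε'ne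
  -- the numerology of the level
  have hqvN : ∀ i, ¬ qv i ∣ N := fun i h => (hqv i).2.1 (hNB _ (hqvpr i) h)
  have hMeq₂ := s59k_level_eq_top qv N hqinj
  have hD₂ : ∏ q ∈ Finset.univ.image qv, q ∣ N * ∏ i, qv i := Dvd.intro_left N hMeq₂.symm
  have hQ := s59k_hQ_top qv N hqvpr hqvN
  haveI : Fact (HasIntegralStructure (N * ∏ q ∈ Finset.univ.image qv, q ^ 2) 2) := ⟨Fermat.Agent.S23.result _⟩
  have hS₂ : ∀ q : ℕ, q.Prime → q ∣ (N * ∏ q ∈ Finset.univ.image qv, q ^ 2) → q ∈ (B ∪ Finset.univ.image qv) := by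
    intro q hq hqM
    rcases (Nat.Prime.dvd_mul hq).mp hqM with h | h
    · exact Finset.mem_union_left _ (hNB q hq h)
    · obtain ⟨q', hq', hqq'⟩ := (Prime.dvd_finsetProd_iff (Nat.prime_iff.mp hq) _).mp h
      obtain ⟨i, -, rfl⟩ := Finset.mem_image.mp hq'
      have hqe : q = qv i := (Nat.prime_dvd_prime_iff_eq hq (hqvpr i)).mp (hq.dvd_of_dvd_pow hqq')
      subst hqe
      exact Finset.mem_union_right _ (Finset.mem_image_of_mem qv (Finset.mem_univ i))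
  have hpM' : ¬ p ∣ (N * ∏ q ∈ Finset.univ.image qv, q ^ 2) := by
    intro h
    rcases (Nat.Prime.dvd_mul hpP).mp h with h | h
    · exact hpN h
    · obtain ⟨q', hq', hqq'⟩ := (Prime.dvd_finsetProd_iff (Nat.prime_iff.mp hpP) _).mp h
      obtain ⟨i, -, rfl⟩ := Finset.mem_image.mp hq'
      have hqe : p = qv i :=
        (Nat.prime_dvd_prime_iff_eq hpP (hqvpr i)).mp (hpP.dvd_of_dvd_pow hqq')
      exact (hqv i).2.1 (hqe ▸ hpB)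
  have hnm := s59k_hnm_pow hpP hp2 (0 + n)
  have hn := s59k_ppow_mem_Hmul_top N qv p 0 n
  have hHker := s59k_hH_top qv N (p ^ n) hqinj rfl hD₂
  have hQu : ∀ q ∈ Finset.univ.image qv, (s59i_rhobarW W p hΔ 𝒪 hp𝒪).IsUnramifiedAt q := by
    intro q hq
    obtain ⟨i, -, rfl⟩ := Finset.mem_image.mp hq
    exact s59e_rhobarW_unram_good hΔ hp2 hp𝒪 (qv i) (hqvpr i) (fun h => (hqv i).2.1 (h ▸ hpB))
      (hgoodB _ (hqvpr i) (hqv i).2.1)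
  -- `ε'` commutes with the anemic generators
  have hεc' : ∀ jdx : s59w_AIdx (N * ∏ j, qv j),
      (s59t_actH (N * ∏ j, qv j) aq (dvd_refl _) (s59t_Hmul N (∏ j, qv j) (⊤ : Subgroup (ZMod N)ˣ) (s59t_KQ (p ^ n) qv)) (G * s59t_jG 𝒪 (s59t_goodB (N * ∏ j, qv j) B) e₀)) * s59w_op (s59t_Hmul N (∏ j, qv j) (⊤ : Subgroup (ZMod N)ˣ) (s59t_KQ (p ^ n) qv)) 𝒪 jdx = s59w_op (s59t_Hmul N (∏ j, qv j) (⊤ : Subgroup (ZMod N)ˣ) (s59t_KQ (p ^ n) qv)) 𝒪 jdx * (s59t_actH (N * ∏ j, qv j) aq (dvd_refl _) (s59t_Hmul N (∏ j, qv j) (⊤ : Subgroup (ZMod N)ˣ) (s59t_KQ (p ^ n) qv)) (G * s59t_jG 𝒪 (s59t_goodB (N * ∏ j, qv j) B) e₀)) :=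
    fun jdx => s59t_actH_comm_op _ aq _ jdx
  -- (B2) the Hecke ring at level `n`
  have hH3 := s59efl_H3_free (fun ℓ => W.apOfModel ℓ) hp2 hp𝒪 N (Finset.univ.image qv)
    (s59t_Hmul N (∏ j, qv j) (⊤ : Subgroup (ZMod N)ˣ) (s59t_KQ (p ^ n) qv)) (N * ∏ q ∈ Finset.univ.image qv, q ^ 2) (B ∪ Finset.univ.image qv) (Finset.mem_union_left _ hpB) Finset.subset_union_left hpM' hQ hMeq₂ rfl hD₂
    hHker (0 + n) hn rfl hS₂ hsq hQu Sg' Su' Smin hpSg hSg hmin hSu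
    (s59t_actH (N * ∏ j, qv j) aq (dvd_refl _) (s59t_Hmul N (∏ j, qv j) (⊤ : Subgroup (ZMod N)ˣ) (s59t_KQ (p ^ n) qv)) (G * s59t_jG 𝒪 (s59t_goodB (N * ∏ j, qv j) B) e₀)) hid' hε'ne hεc' hnil'
    (fun ℓ hℓ hℓS => hEigB ℓ hℓ (fun h => hℓS (Finset.mem_union_left _ h))) DQ'
  have hB2c : s59e_B2Concl (s59t_Hmul N (∏ j, qv j) (⊤ : Subgroup (ZMod N)ˣ) (s59t_KQ (p ^ n) qv)) (s59t_actH (N * ∏ j, qv j) aq (dvd_refl _) (s59t_Hmul N (∏ j, qv j) (⊤ : Subgroup (ZMod N)ˣ) (s59t_KQ (p ^ n) qv)) (G * s59t_jG 𝒪 (s59t_goodB (N * ∏ j, qv j) B) e₀)) (N * ∏ q ∈ Finset.univ.image qv, q ^ 2) (B ∪ Finset.univ.image qv) ((p ^ (0 + n) - 1) * ((p ^ (0 + n) + 1) / 2)) (fun ℓ => ((W.apOfModel ℓ : ℤ) : 𝒪)) DQ' :=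
    Exists.elim hH3 fun a' h' =>
      s59e_B2Concl_of_H3Out _ _ _ _ _ (fun ℓ => W.apOfModel ℓ) hS₂ DQ' a' h'.1 h'.2.1 h'.2.2
  choose a aM ha1 ha2 haM hlocA hlr θ' hθ' hfrobT' hcong using hB2c
  haveI : IsLocalRing (s59e_adj 𝒪 aM) := hlr
  -- the map from `DQ.R` (through the abstract lemma `s59q_st_theta_comp` of helper6, QStLvlA.lean: in this giant context the original
  -- `rw [hθcoe, ← Polynomial.map_map, hκc]` alone took 1310 s of the 1552 s of the file, the two `obtain` of `hθ` 60 s)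
  have hθpk := s59q_st_theta_comp DQ DQ' κ hκs hκc θ' hθ' (B ∪ Finset.univ.image qv)
    (s59e_tOf (↑(B ∪ Finset.univ.image qv) : Set ℕ) aM) hfrobT'
  choose θ hθ hfrobT hθκ using hθpk
  -- the level record
  have hlabs := s59c3_level_abs p hp2 W hΔ N B hirr hsq hpN hB1 hB2 h23 𝒪 hp𝒪 r σ
    (s59t_E0 (⊤ : Subgroup (ZMod N)ˣ) B e) (fun jdx => s59e_E0_comm_op _ B e jdx) hρ d hd0 b0 hb0 a₀ ha1₀ aM₀ haM₀ hRρ ρR hfrobR hgenR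
    n qv hqinj hqv hTW
    (s59t_actH (N * ∏ j, qv j) aq (dvd_refl _) (s59t_Hmul N (∏ j, qv j) (⊤ : Subgroup (ZMod N)ˣ) (s59t_KQ (p ^ n) qv)) (G * s59t_jG 𝒪 (s59t_goodB (N * ∏ j, qv j) B) e₀))
    hid' hεc' hP1 g hcard hgen hord hgloc DQ a ha1 ha2 aM haM hlocA θ hθ hfrobT hcong
  choose hρ' π hcomm hTρ h2 hιinj hιπ hrecNE using hlabs
  have recd := Classical.choice hrecNE
  -- the trace ring
  have htrf := s59efl_trace_facts p hp2 W hΔ B hirr hpB hB2 𝒪 hp𝒪 Sg Su DQ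
    (s59t_Hmul N (∏ j, qv j) (⊤ : Subgroup (ZMod N)ˣ) (s59t_KQ (p ^ n) qv))
    (s59t_actH (N * ∏ j, qv j) aq (dvd_refl _) (s59t_Hmul N (∏ j, qv j) (⊤ : Subgroup (ZMod N)ˣ) (s59t_KQ (p ^ n) qv)) (G * s59t_jG 𝒪 (s59t_goodB (N * ∏ j, qv j) B) e₀))
    hid' hε'ne aM hlocA θ hθ (B ∪ Finset.univ.image qv) Finset.subset_union_left (s59e_tOf _ aM) hfrobT hcong
  choose hlh hθl hnoeth hcompl hres𝒪 hres h𝒟 using htrf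
  have hred : IsReduced (s59e_adj 𝒪 aM) :=
    s59efl_adj_reduced (s59t_Hmul N (∏ j, qv j) (⊤ : Subgroup (ZMod N)ˣ) (s59t_KQ (p ^ n) qv))
      (LinearMap.range (s59t_actH (N * ∏ j, qv j) aq (dvd_refl _) (s59t_Hmul N (∏ j, qv j) (⊤ : Subgroup (ZMod N)ˣ) (s59t_KQ (p ^ n) qv)) (G * s59t_jG 𝒪 (s59t_goodB (N * ∏ j, qv j) B) e₀))).subtype
      (Submodule.injective_subtype _) a ((p ^ (0 + n) - 1) * ((p ^ (0 + n) + 1) / 2)) ha2 aM haM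
      N (Finset.univ.image qv) hMeq₂ hQ rfl hD₂ hHker hnm hn
  have htf : ∀ o : 𝒪, o ≠ 0 → ∀ x : s59e_adj 𝒪 aM, algebraMap 𝒪 (s59e_adj 𝒪 aM) o * x = 0 → x = 0 := by
    haveI : NoZeroSMulDivisors 𝒪 (LinearMap.range (s59t_actH (N * ∏ j, qv j) aq (dvd_refl _) (s59t_Hmul N (∏ j, qv j) (⊤ : Subgroup (ZMod N)ˣ) (s59t_KQ (p ^ n) qv)) (G * s59t_jG 𝒪 (s59t_goodB (N * ∏ j, qv j) B) e₀))) :=
      ⟨fun {o y} h => or_iff_not_imp_left.mpr fun ho => s59efl_part_torsionfree _ _ o ho y h⟩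
    exact fun o ho x h => s59efl_adj_torsionfree aM o ho x h
  exact hcontra ⟨e₀, G, hXl, a, ha1, ha2, aM, haM, hlr, θ, hθ, hfrobT, hρ', π, hcomm, hTρ, h2, hιinj, hιπ, recd,
    hnoeth, hcompl, hlh, hres𝒪, hθl, h𝒟, hres, hred, htf,
    hθκ⟩

end Fermat.Agent.Lib.S59
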