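/-
Programme R2 (S59), node [PATCH-FLR], `T`-side, **(T1) joint levels, part (E4)** (helper5, prefix `s59efl_`): **ABSTRACT
COMPATIBILITY LEMMAS FOR ONE STEP OF THE CHAIN.**  `D : s59t_Old 𝒪 Y₁ Y₂` an old/new package.
* `s59efl_resA_injective` : `resA` is injective on a torsion-free module when `qq + 1 ≠ 0`;
* `s59efl_eig_resA/_resB/_corA/_corB/_T/_U/_w` : the package preserves the eigen-parts of two diamond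
  representations related by a group map `φ : Δ₂ → Δ₁` (`C₂ ↠ C₁`) with `D.Compat (ρ₁ (φ δ)) (ρ₂ δ)`;
* `s59efl_adj_le_of_adjoin_top` : from generators of the trace ring (in subalgebra form) to generators in
  `End`;
* `s59efl_oldSub` : the submodule of old classes `resA Y₁ + resB Y₁` of the eigen-module `EigT` over a ring `R₂`
  each of whose elements has a compatible partner.
-/
import Mathlib
import Fermat.Agent.Lib.S59.EJointL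
import Fermat.Agent.Lib.S59.TEigT

set_option autoImplicit false
set_option linter.unusedSectionVars false
set_option linter.unusedVariables false
set_option linter.style.haveILetI false

noncomputable section

namespace Fermat.Agent.Lib.S59

section Inj

variable {𝒪 : Type*} [CommRing 𝒪] {Y₁ Y₂ : Type*} [AddCommGroup Y₁] [Module 𝒪 Y₁]
  [AddCommGroup Y₂] [Module 𝒪 Y₂] (D : s59t_Old 𝒪 Y₁ Y₂)

/-- `resA` is injective on a torsion-free module when `qq + 1 ≠ 0`. -/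
theorem s59efl_resA_injective (htf : ∀ o : 𝒪, o ≠ 0 → ∀ y : Y₁, o • y = 0 → y = 0)
    (hq : D.qq + 1 ≠ 0) : Function.Injective D.resA := by
  rw [injective_iff_map_eq_zero]
  intro y hy
  have h := D.corA_resA y
  rw [hy, map_zero] at h
  exact htf _ hq y h.symm

end Inj

section Eig

variable {𝒪 : Type*} [CommRing 𝒪] {Y₁ Y₂ : Type*} [AddCommGroup Y₁] [Module 𝒪 Y₁]
  [AddCommGroup Y₂] [Module 𝒪 Y₂] (D : s59t_Old 𝒪 Y₁ Y₂)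
  {Δ₁ Δ₂ : Type*} [CommGroup Δ₁] [Fintype Δ₁] [CommGroup Δ₂] [Fintype Δ₂]
  (ρ₁ : Δ₁ →* Module.End 𝒪 Y₁) (ρ₂ : Δ₂ →* Module.End 𝒪 Y₂)
  (C₁ : Subgroup Δ₁) (C₂ : Subgroup Δ₂) (φ : Δ₂ →* Δ₁)
  (hc : ∀ δ : Δ₂, D.Compat (ρ₁ (φ δ)) (ρ₂ δ))
  (hφC : ∀ c ∈ C₂, φ c ∈ C₁) (hφCs : ∀ c₁ ∈ C₁, ∃ c₂ ∈ C₂, φ c₂ = c₁)

include hc hφC in
theorem s59efl_eig_resA (y : Y₁) (hy : y ∈ s59t_eig ρ₁ C₁ (1 : Δ₁ →* 𝒪ˣ)) :
    D.resA y ∈ s59t_eig ρ₂ C₂ (1 : Δ₂ →* 𝒪ˣ) := by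
  intro β hβ
  rw [(hc β).resA y, hy (φ β) (hφC β hβ)]
  simp only [MonoidHom.one_apply, Units.val_one, one_smul]

include hc hφC in
theorem s59efl_eig_resB (y : Y₁) (hy : y ∈ s59t_eig ρ₁ C₁ (1 : Δ₁ →* 𝒪ˣ)) :
    D.resB y ∈ s59t_eig ρ₂ C₂ (1 : Δ₂ →* 𝒪ˣ) := by
  intro β hβ
  rw [(hc β).resB y, hy (φ β) (hφC β hβ)]
  simp only [MonoidHom.one_apply, Units.val_one, one_smul]

include hc hφCs in
theorem s59efl_eig_corA (z : Y₂) (hz : z ∈ s59t_eig ρ₂ C₂ (1 : Δ₂ →* 𝒪ˣ)) :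
    D.corA z ∈ s59t_eig ρ₁ C₁ (1 : Δ₁ →* 𝒪ˣ) := by
  intro β hβ
  obtain ⟨c₂, hc₂, rfl⟩ := hφCs β hβ
  rw [(hc c₂).corA z, hz c₂ hc₂]
  simp only [MonoidHom.one_apply, Units.val_one, one_smul]

include hc hφCs in
theorem s59efl_eig_corB (z : Y₂) (hz : z ∈ s59t_eig ρ₂ C₂ (1 : Δ₂ →* 𝒪ˣ)) :
    D.corB z ∈ s59t_eig ρ₁ C₁ (1 : Δ₁ →* 𝒪ˣ) := by
  intro β hβ
  obtain ⟨c₂, hc₂, rfl⟩ := hφCs β hβ
  rw [(hc c₂).corB z, hz c₂ hc₂]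
  simp only [MonoidHom.one_apply, Units.val_one, one_smul]

include hc hφCs in
theorem s59efl_eig_T (y : Y₁) (hy : y ∈ s59t_eig ρ₁ C₁ (1 : Δ₁ →* 𝒪ˣ)) :
    D.T y ∈ s59t_eig ρ₁ C₁ (1 : Δ₁ →* 𝒪ˣ) := by
  intro β hβ
  obtain ⟨c₂, hc₂, rfl⟩ := hφCs β hβ
  rw [(hc c₂).T y, hy (φ c₂) hβ]
  simp only [MonoidHom.one_apply, Units.val_one, one_smul]

include hc in
theorem s59efl_eig_U (z : Y₂) (hz : z ∈ s59t_eig ρ₂ C₂ (1 : Δ₂ →* 𝒪ˣ)) :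
    D.U z ∈ s59t_eig ρ₂ C₂ (1 : Δ₂ →* 𝒪ˣ) := by
  intro β hβ
  rw [(hc β).U z, hz β hβ]
  simp only [MonoidHom.one_apply, Units.val_one, one_smul]

include hc in
theorem s59efl_eig_w (z : Y₂) (hz : z ∈ s59t_eig ρ₂ C₂ (1 : Δ₂ →* 𝒪ˣ)) :
    D.w z ∈ s59t_eig ρ₂ C₂ (1 : Δ₂ →* 𝒪ˣ) := by
  intro β hβ
  rw [(hc β).w z, hz β hβ]
  simp only [MonoidHom.one_apply, Units.val_one, one_smul]

end Eig

section Gen

variable {𝒪 : Type*} [CommRing 𝒪] {Y : Type*} [AddCommGroup Y] [Module 𝒪 Y]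
  {A : Type*} [CommRing A] (a : A →+* Module.End 𝒪 Y)

/-- generators of the trace ring: from the subalgebra form to `End`. -/
theorem s59efl_adj_le_of_adjoin_top (P : s59e_adj 𝒪 a → Prop)
    (h : Algebra.adjoin 𝒪 {x : s59e_adj 𝒪 a | P x} = ⊤) :
    s59e_adj 𝒪 a ≤ Algebra.adjoin 𝒪 {y : Module.End 𝒪 Y | ∃ x : s59e_adj 𝒪 a, P x ∧
      y = (x : Module.End 𝒪 Y)} := by
  intro y hy
  have h1 : (⟨y, hy⟩ : s59e_adj 𝒪 a) ∈ Algebra.adjoin 𝒪 {x : s59e_adj 𝒪 a | P x} := by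
    rw [h]
    exact Algebra.mem_top
  have h2 : y ∈ (Algebra.adjoin 𝒪 {x : s59e_adj 𝒪 a | P x}).map (s59e_adj 𝒪 a).val :=
    Subalgebra.mem_map.mpr ⟨⟨y, hy⟩, h1, rfl⟩
  rw [AlgHom.map_adjoin (s59e_adj 𝒪 a).val] at h2
  refine Algebra.adjoin_mono ?_ h2
  rintro _ ⟨x, hx, rfl⟩
  exact ⟨x, hx, rfl⟩

end Gen

section OldSub

variable {𝒪 : Type*} [CommRing 𝒪] {Y₁ Y₂ : Type*} [AddCommGroup Y₁] [Module 𝒪 Y₁]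
  [AddCommGroup Y₂] [Module 𝒪 Y₂] (D : s59t_Old 𝒪 Y₁ Y₂)
  {Δ₂ : Type*} [CommGroup Δ₂] [Fintype Δ₂] (ρ₂ : Δ₂ →* Module.End 𝒪 Y₂) (C₂ : Subgroup Δ₂)
  (ψ₂ : Δ₂ →* 𝒪ˣ)
  {R₂ : Type*} [CommRing R₂] [Algebra 𝒪 R₂] [Module R₂ Y₂] [IsScalarTower 𝒪 R₂ Y₂]
  (hRρ₂ : ∀ (t : R₂) (δ : Δ₂) (y : Y₂), t • ρ₂ δ y = ρ₂ δ (t • y))
  (hRc : ∀ t : R₂, ∃ t' : Module.End 𝒪 Y₁, (∀ y, t • D.resA y = D.resA (t' y)) ∧
    ∀ y, t • D.resB y = D.resB (t' y))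

/-- **the submodule of old classes.** -/
def s59efl_oldSub : Submodule R₂ (s59t_EigT ρ₂ C₂ ψ₂ hRρ₂) where
  carrier := {m | ∃ y₁ y₂ : Y₁, D.resA y₁ + D.resB y₂ = s59t_EigT_val ρ₂ C₂ ψ₂ hRρ₂ m}
  zero_mem' := ⟨0, 0, by rw [map_zero, map_zero, map_zero, add_zero]⟩
  add_mem' := by
    rintro m m' ⟨y₁, y₂, h⟩ ⟨y₁', y₂', h'⟩
    refine ⟨y₁ + y₁', y₂ + y₂', ?_⟩
    rw [map_add, map_add, map_add, ← h, ← h']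
    abel
  smul_mem' := by
    rintro t m ⟨y₁, y₂, h⟩
    obtain ⟨t', hA, hB⟩ := hRc t
    refine ⟨t' y₁, t' y₂, ?_⟩
    rw [s59t_EigT_val_smul, ← h, smul_add, hA, hB]

theorem s59efl_mem_oldSub (m : s59t_EigT ρ₂ C₂ ψ₂ hRρ₂) :
    m ∈ s59efl_oldSub D ρ₂ C₂ ψ₂ hRρ₂ hRc ↔
      ∃ y₁ y₂ : Y₁, D.resA y₁ + D.resB y₂ = s59t_EigT_val ρ₂ C₂ ψ₂ hRρ₂ m := Iff.rfl

end OldSub

end Fermat.Agent.Lib.S59
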