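/-
Programme R2 (S59), node [PATCH-FLR], `T`-side, **(T1) joint levels, part (E8b)** (helper5, prefix `s59efl_`): **AT THE BASE LEVEL
`(N', ⊤)` HELPER4'S PACKAGE `s59f_oldN` DOES NOT DEPEND ON THE NORMALISING ELEMENT `e`** (`⟨e⟩` is trivial on `H(Γ₀(N'))`).
So the submodule of old classes of the base module of level `N₁ q` can be chosen ONCE, independently of the Taylor–Wiles data.
-/
import Mathlib
import Fermat.Agent.Lib.S59.EFlrConcA

set_option autoImplicit false
set_option linter.unusedSectionVars false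
set_option linter.unusedVariables false
set_option linter.style.haveILetI false

noncomputable section

namespace Fermat.Agent.Lib.S59

open Matrix MatrixGroups CongruenceSubgroup IsLocalRing
open Fermat.Agent.Lib.S29 Fermat.Agent.Lib.S48 Fermat.Agent.Lib.S41

section Indep

variable {L q : ℕ} [NeZero L] [hq : Fact q.Prime] (hqL : ¬ q ∣ L)
  {H : Subgroup (ZMod L)ˣ}
  {N' : ℕ} [NeZero N'] (hN' : N' = L * q)
  (hG' : s59f_IsG' L q H (s48h_GammaH N' (⊤ : Subgroup (ZMod N')ˣ)))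
  (R : Type*) [CommRing R] (A : Type*) [AddCommGroup A] [Module R A]

/-- the diamond operators of `Γ₀(N')` are trivial on `H(Γ₀(N'), A)`. -/
theorem s59efl_diaL_top (e : SL(2, ℤ)) (he' : e ∈ Gamma0 N') :
    s59f_diaL R A (⊤ : Subgroup (ZMod N')ˣ) e he' = LinearMap.id := by
  refine LinearMap.ext fun z => Subtype.ext ?_
  rw [s59f_diaL_coe]
  exact s48h_diamondH_of_mem
    ((s59t_mem_GammaH_iff_unit (H := (⊤ : Subgroup (ZMod N')ˣ)) ⟨e, he'⟩).mpr (Subgroup.mem_top _)) z.1

/-- the package of `(res, cor, w̃)` depends only on the operators. -/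
theorem s59efl_oldOfW_congr {R : Type*} [CommRing R] {Y Z : Type*} [AddCommGroup Y] [Module R Y]
    [AddCommGroup Z] [Module R Z] (qq : R) (res : Y →ₗ[R] Z) (cor : Z →ₗ[R] Y)
    (w w' : Module.End R Z) (h : w = w')
    (hcr : ∀ y, cor (res y) = (qq + 1) • y) (hww : ∀ z, w (w z) = z) (hww' : ∀ z, w' (w' z) = z) :
    s59f_oldOfW qq res cor w hcr hww = s59f_oldOfW qq res cor w' hcr hww' := by
  subst h
  rfl

/-- **at the level `(N', ⊤)` the package does not depend on `e`.** -/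
theorem s59efl_oldN_top_indep (e e₀ : SL(2, ℤ)) (he' : e ∈ Gamma0 N') (he₀ : e₀ ∈ Gamma0 N')
    (hee : s59f_gW hqL * e * e ∈ s48h_GammaH N' (⊤ : Subgroup (ZMod N')ˣ))
    (hee₀ : s59f_gW hqL * e₀ * e₀ ∈ s48h_GammaH N' (⊤ : Subgroup (ZMod N')ˣ)) :
    s59f_oldN hqL hN' hG' R A e he' hee = s59f_oldN hqL hN' hG' R A e₀ he₀ hee₀ := by
  have hw : s59f_wtN hqL hG' R A e he' = s59f_wtN hqL hG' R A e₀ he₀ := by
    unfold s59f_wtN
    rw [s59efl_diaL_top, s59efl_diaL_top]
  unfold s59f_oldN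
  exact s59efl_oldOfW_congr _ _ _ _ _ hw _ _ _

end Indep

end Fermat.Agent.Lib.S59
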