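/-
Programme R2 (S59), node [PATCH-FLR], `T`-side, **(T1) joint levels, part (E5)** (helper5, prefix `s59efl_`): **THE
TAYLOR–WILES GROUPS OF THE LEVELS `N₁ ∣ N₂` (base subgroup `⊤`) AND THE PUSH-DOWN OF THE GENERATORS.**
* `s59efl_phi hd : Δ(N₂ D, H₂) →* Δ(N₁ D, H₁)` (`D = ∏ qv`, `H_i = s59t_Hmul N_i D ⊤ (s59t_KQ P qv)`), surjective, transitive;
* `s59efl_pushG hd g` : the generators of `B_Q` pushed down, with `_gen`, `_ord`, `_loc` (the hypotheses `hgen`, `hord`,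
  `hgloc` of the level theorems).
-/
import Mathlib
import Fermat.Agent.Lib.S59.FEps6
import Fermat.Agent.Lib.S59.TLocal

set_option autoImplicit false
set_option linter.unusedSectionVars false
set_option linter.unusedVariables false
set_option linter.style.haveILetI false

noncomputable section

namespace Fermat.Agent.Lib.S59

open Matrix MatrixGroups CongruenceSubgroup
open Fermat.Agent.Lib.S48

section Gen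

variable {N₁ N₂ : ℕ} [NeZero N₁] [NeZero N₂] (hd : N₁ ∣ N₂) {r : ℕ} (P : ℕ) (qv : Fin r → ℕ)
  [NeZero (∏ j, qv j)] [NeZero (N₁ * ∏ j, qv j)] [NeZero (N₂ * ∏ j, qv j)]

include hd in
theorem s59efl_dvdD : N₁ * ∏ j, qv j ∣ N₂ * ∏ j, qv j := Nat.mul_dvd_mul_right hd _

include hd in
theorem s59efl_GammaHmul_anti :
    s48h_GammaH (N₂ * ∏ j, qv j) (s59t_Hmul N₂ (∏ j, qv j) (⊤ : Subgroup (ZMod N₂)ˣ) (s59t_KQ P qv)) ≤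
      s48h_GammaH (N₁ * ∏ j, qv j)
        (s59t_Hmul N₁ (∏ j, qv j) (⊤ : Subgroup (ZMod N₁)ˣ) (s59t_KQ P qv)) := by
  refine (s59t_GammaH_mono ?_).trans (s59t_GammaH_comap_le (s59efl_dvdD hd qv) _)
  intro u hu
  rw [Subgroup.mem_comap, s59t_mem_Hmul]
  refine ⟨Subgroup.mem_top _, ?_⟩
  have e2 : ZMod.unitsMap (s59t_dvd_mul_right' N₁ (∏ j, qv j))
      (ZMod.unitsMap (s59efl_dvdD hd qv) u) =
      ZMod.unitsMap (s59t_dvd_mul_right' N₂ (∏ j, qv j)) u := by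
    rw [← MonoidHom.comp_apply, ZMod.unitsMap_comp]
  rw [e2]
  exact ((s59t_mem_Hmul u).mp hu).2

/-- the map `Δ(N₂ D) → Δ(N₁ D)` of the Taylor–Wiles diamond groups. -/
def s59efl_phi : s59t_Delta (N₂ * ∏ j, qv j)
      (s59t_Hmul N₂ (∏ j, qv j) (⊤ : Subgroup (ZMod N₂)ˣ) (s59t_KQ P qv)) →*
    s59t_Delta (N₁ * ∏ j, qv j)
      (s59t_Hmul N₁ (∏ j, qv j) (⊤ : Subgroup (ZMod N₁)ˣ) (s59t_KQ P qv)) :=
  s59t_DeltaMap2 (s59t_Gamma0_anti (s59efl_dvdD hd qv)) (s59efl_GammaHmul_anti hd P qv)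

theorem s59efl_phi_mk (τ : Gamma0 (N₂ * ∏ j, qv j)) :
    s59efl_phi hd P qv (QuotientGroup.mk τ) =
      (QuotientGroup.mk (⟨(τ : SL(2, ℤ)), s59t_Gamma0_anti (s59efl_dvdD hd qv) τ.2⟩ :
        Gamma0 (N₁ * ∏ j, qv j)) : s59t_Delta (N₁ * ∏ j, qv j)
          (s59t_Hmul N₁ (∏ j, qv j) (⊤ : Subgroup (ZMod N₁)ˣ) (s59t_KQ P qv))) := rfl

theorem s59efl_phi_surjective : Function.Surjective (s59efl_phi hd P qv) := by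
  refine s59t_quotMap_surjective (s59t_Gamma0_anti (s59efl_dvdD hd qv))
    (s59efl_GammaHmul_anti hd P qv) (fun g hg => ?_)
  obtain ⟨m, hm⟩ := s59efl_dvdD hd qv
  haveI : NeZero ((N₁ * ∏ j, qv j) * m) := hm ▸ (inferInstance : NeZero (N₂ * ∏ j, qv j))
  have h := s59t_level_surj (N := N₁ * ∏ j, qv j) (q := m)
    (H := s59t_Hmul N₁ (∏ j, qv j) (⊤ : Subgroup (ZMod N₁)ˣ) (s59t_KQ P qv)) g hg
  rw [← hm] at h
  exact h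

/-- the generators pushed down. -/
def s59efl_pushG (g : Fin r → s59t_BQ N₂ (∏ j, qv j) (⊤ : Subgroup (ZMod N₂)ˣ) (s59t_KQ P qv)) :
    Fin r → s59t_BQ N₁ (∏ j, qv j) (⊤ : Subgroup (ZMod N₁)ˣ) (s59t_KQ P qv) :=
  fun i => ⟨s59efl_phi hd P qv (g i : s59t_Delta (N₂ * ∏ j, qv j)
    (s59t_Hmul N₂ (∏ j, qv j) (⊤ : Subgroup (ZMod N₂)ˣ) (s59t_KQ P qv))), s59f_BQ_top _ _ _ _⟩

theorem s59efl_pushG_coe
    (g : Fin r → s59t_BQ N₂ (∏ j, qv j) (⊤ : Subgroup (ZMod N₂)ˣ) (s59t_KQ P qv)) (i : Fin r) :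
    ((s59efl_pushG hd P qv g i : s59t_BQ N₁ (∏ j, qv j) (⊤ : Subgroup (ZMod N₁)ˣ) (s59t_KQ P qv)) :
      s59t_Delta (N₁ * ∏ j, qv j)
        (s59t_Hmul N₁ (∏ j, qv j) (⊤ : Subgroup (ZMod N₁)ˣ) (s59t_KQ P qv))) =
      s59efl_phi hd P qv (g i : s59t_Delta (N₂ * ∏ j, qv j)
        (s59t_Hmul N₂ (∏ j, qv j) (⊤ : Subgroup (ZMod N₂)ˣ) (s59t_KQ P qv))) := rfl

theorem s59efl_pushG_gen
    (g : Fin r → s59t_BQ N₂ (∏ j, qv j) (⊤ : Subgroup (ZMod N₂)ˣ) (s59t_KQ P qv))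
    (hgen : ∀ x : s59t_BQ N₂ (∏ j, qv j) (⊤ : Subgroup (ZMod N₂)ˣ) (s59t_KQ P qv),
      ∃ a : Fin r → ℕ, x = ∏ i, g i ^ a i) :
    ∀ x : s59t_BQ N₁ (∏ j, qv j) (⊤ : Subgroup (ZMod N₁)ˣ) (s59t_KQ P qv),
      ∃ a : Fin r → ℕ, x = ∏ i, s59efl_pushG hd P qv g i ^ a i := by
  intro x
  obtain ⟨x₂, hx₂⟩ := s59efl_phi_surjective hd P qv (x : s59t_Delta (N₁ * ∏ j, qv j)
    (s59t_Hmul N₁ (∏ j, qv j) (⊤ : Subgroup (ZMod N₁)ˣ) (s59t_KQ P qv)))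
  obtain ⟨a, ha⟩ := hgen ⟨x₂, s59f_BQ_top _ _ _ _⟩
  refine ⟨a, Subtype.ext ?_⟩
  have h1 := congrArg (fun y : s59t_BQ N₂ (∏ j, qv j) (⊤ : Subgroup (ZMod N₂)ˣ) (s59t_KQ P qv) =>
    s59efl_phi hd P qv (y : s59t_Delta (N₂ * ∏ j, qv j)
      (s59t_Hmul N₂ (∏ j, qv j) (⊤ : Subgroup (ZMod N₂)ˣ) (s59t_KQ P qv)))) ha
  simp only [SubmonoidClass.coe_finsetProd, SubgroupClass.coe_pow, map_prod, map_pow] at h1
  rw [← hx₂, h1]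
  simp only [SubmonoidClass.coe_finsetProd, SubgroupClass.coe_pow, s59efl_pushG_coe]

theorem s59efl_pushG_ord
    (g : Fin r → s59t_BQ N₂ (∏ j, qv j) (⊤ : Subgroup (ZMod N₂)ˣ) (s59t_KQ P qv))
    (hord : ∀ i, g i ^ P = 1) (i : Fin r) : s59efl_pushG hd P qv g i ^ P = 1 := by
  refine Subtype.ext ?_
  rw [SubgroupClass.coe_pow, s59efl_pushG_coe, ← map_pow, ← SubgroupClass.coe_pow, hord i]
  simp

theorem s59efl_pushG_loc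
    (g : Fin r → s59t_BQ N₂ (∏ j, qv j) (⊤ : Subgroup (ZMod N₂)ˣ) (s59t_KQ P qv))
    (hgloc : ∀ i, ∃ τ : Gamma0 (N₂ * ∏ j, qv j),
      (QuotientGroup.mk τ : s59t_Delta (N₂ * ∏ j, qv j)
        (s59t_Hmul N₂ (∏ j, qv j) (⊤ : Subgroup (ZMod N₂)ˣ) (s59t_KQ P qv))) =
        (g i : s59t_Delta (N₂ * ∏ j, qv j)
          (s59t_Hmul N₂ (∏ j, qv j) (⊤ : Subgroup (ZMod N₂)ˣ) (s59t_KQ P qv))) ∧
      ZMod.unitsMap (Nat.div_dvd_of_dvd (s59t_qv_dvd_level qv N₂ i))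
        (s59t_unitHom (N₂ * ∏ j, qv j) τ) = 1) :
    ∀ i, ∃ τ : Gamma0 (N₁ * ∏ j, qv j),
      (QuotientGroup.mk τ : s59t_Delta (N₁ * ∏ j, qv j)
        (s59t_Hmul N₁ (∏ j, qv j) (⊤ : Subgroup (ZMod N₁)ˣ) (s59t_KQ P qv))) =
        (s59efl_pushG hd P qv g i : s59t_Delta (N₁ * ∏ j, qv j)
          (s59t_Hmul N₁ (∏ j, qv j) (⊤ : Subgroup (ZMod N₁)ˣ) (s59t_KQ P qv))) ∧
      ZMod.unitsMap (Nat.div_dvd_of_dvd (s59t_qv_dvd_level qv N₁ i))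
        (s59t_unitHom (N₁ * ∏ j, qv j) τ) = 1 := by
  intro i
  obtain ⟨τ, hτ, hu⟩ := hgloc i
  refine ⟨⟨(τ : SL(2, ℤ)), s59t_Gamma0_anti (s59efl_dvdD hd qv) τ.2⟩, ?_, ?_⟩
  · rw [s59efl_pushG_coe, ← hτ, s59efl_phi_mk]
  · rw [← s59t_unitsMap_unit (s59efl_dvdD hd qv) τ]
    have hdd : (N₁ * ∏ j, qv j) / qv i ∣ (N₂ * ∏ j, qv j) / qv i :=
      Nat.div_dvd_div (s59t_qv_dvd_level qv N₁ i) (s59efl_dvdD hd qv)
    have e1 := DFunLike.congr_fun (ZMod.unitsMap_comp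
      (Nat.div_dvd_of_dvd (s59t_qv_dvd_level qv N₁ i)) (s59efl_dvdD hd qv))
      (s59t_unitHom (N₂ * ∏ j, qv j) τ)
    have e2 := DFunLike.congr_fun (ZMod.unitsMap_comp hdd
      (Nat.div_dvd_of_dvd (s59t_qv_dvd_level qv N₂ i))) (s59t_unitHom (N₂ * ∏ j, qv j) τ)
    rw [MonoidHom.comp_apply] at e1 e2
    rw [e1, ← e2, hu, map_one]

end Gen

section Trans

variable {N₁ N₂ N₃ : ℕ} [NeZero N₁] [NeZero N₂] [NeZero N₃] (h₁₂ : N₁ ∣ N₂) (h₂₃ : N₂ ∣ N₃)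
  {r : ℕ} (P : ℕ) (qv : Fin r → ℕ)
  [NeZero (∏ j, qv j)] [NeZero (N₁ * ∏ j, qv j)] [NeZero (N₂ * ∏ j, qv j)]
  [NeZero (N₃ * ∏ j, qv j)]

theorem s59efl_phi_trans (x : s59t_Delta (N₃ * ∏ j, qv j)
    (s59t_Hmul N₃ (∏ j, qv j) (⊤ : Subgroup (ZMod N₃)ˣ) (s59t_KQ P qv))) :
    s59efl_phi h₁₂ P qv (s59efl_phi h₂₃ P qv x) = s59efl_phi (h₁₂.trans h₂₃) P qv x := by
  obtain ⟨τ, rfl⟩ := QuotientGroup.mk_surjective x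
  rfl

theorem s59efl_pushG_trans
    (g : Fin r → s59t_BQ N₃ (∏ j, qv j) (⊤ : Subgroup (ZMod N₃)ˣ) (s59t_KQ P qv)) (i : Fin r) :
    s59efl_pushG h₁₂ P qv (s59efl_pushG h₂₃ P qv g) i = s59efl_pushG (h₁₂.trans h₂₃) P qv g i :=
  Subtype.ext (s59efl_phi_trans h₁₂ h₂₃ P qv _)

end Trans

end Fermat.Agent.Lib.S59
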