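/-
Programme R2 (S59), node [PATCH-FLR], `T`-side, **(T1) joint levels, part (D1)** (helper5, prefix `s59efl_`): **THE TRANSFER MAP BETWEEN THE
HECKE RINGS OF TWO ADJACENT LEVELS.**  `D : s59t_Old 𝒪 Y₁ Y₂` an old/new package with `resA` injective, `T_i = 𝒪[a_i(A_i), ρB_i(B_i)] ⊆ End Y_i`;
if every element of `𝒪[a₂(A₂)]` has a compatible partner in `𝒪[a₁(A₁)]` and `(ρB₁(φ β), ρB₂(β))` is compatible (`φ : B₂ → B₁`), then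
* `s59efl_sig : T₂ →ₐ[𝒪] T₁` (`s59ej_sig`), with `s59efl_sig_compat`, `s59efl_sig_dia`, `s59efl_sig_incl`, `s59efl_sig_surjective`;
* `s59efl_sig_theta` : `σ ∘ incl₂ ∘ Θ₂ = incl₁ ∘ Θ₁` on a universal ring `DQ.R`, if the Frobenius traces `t_i ℓ` are compatible
  (`s59e_cp_compat` + helper4's `s59f_univ_ext`).
-/
import Mathlib
import Fermat.Agent.Lib.S59.EJointL
import Fermat.Agent.Lib.S59.ETGal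
import Fermat.Agent.Lib.S59.FLiftK

set_option autoImplicit false
set_option linter.unusedSectionVars false
set_option linter.unusedVariables false
set_option linter.style.haveILetI false
set_option maxHeartbeats 1600000

noncomputable section

namespace Fermat.Agent.Lib.S59

open IsLocalRing

local notation "Γℚ" => (AlgebraicClosure ℚ ≃ₐ[ℚ] AlgebraicClosure ℚ)

section Link

variable {𝒪 : Type} [CommRing 𝒪] {Y₁ Y₂ : Type} [AddCommGroup Y₁] [Module 𝒪 Y₁]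
  [AddCommGroup Y₂] [Module 𝒪 Y₂] (D : s59t_Old 𝒪 Y₁ Y₂) (hinj : Function.Injective D.resA)
  {A₁ : Type} [CommRing A₁] (a₁ : A₁ →+* Module.End 𝒪 Y₁) {B₁ : Type} [CommGroup B₁]
  (ρB₁ : B₁ →* Module.End 𝒪 Y₁) (hc₁ : ∀ (t : A₁) (β : B₁), Commute (a₁ t) (ρB₁ β))
  {A₂ : Type} [CommRing A₂] (a₂ : A₂ →+* Module.End 𝒪 Y₂) {B₂ : Type} [CommGroup B₂]
  (ρB₂ : B₂ →* Module.End 𝒪 Y₂) (hc₂ : ∀ (t : A₂) (β : B₂), Commute (a₂ t) (ρB₂ β))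
  (hA : ∀ x ∈ s59e_adj 𝒪 a₂, ∃ x' ∈ s59e_adj 𝒪 a₁, D.Compat x' x)
  (φB : B₂ →* B₁) (hB : ∀ β, D.Compat (ρB₁ (φB β)) (ρB₂ β))

/-- **the transfer map** `σ : T₂ → T₁`. -/
def s59efl_sig : s59e_adj 𝒪 (s59e_aB a₂ ρB₂ hc₂) →ₐ[𝒪] s59e_adj 𝒪 (s59e_aB a₁ ρB₁ hc₁) :=
  s59ej_sig D hinj _ _ (s59ej_exists_compat_adjB D a₁ ρB₁ hc₁ a₂ ρB₂ hc₂ hA
    (fun β => ⟨φB β, hB β⟩))

theorem s59efl_sig_compat (x : s59e_adj 𝒪 (s59e_aB a₂ ρB₂ hc₂)) :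
    D.Compat (s59efl_sig D hinj a₁ ρB₁ hc₁ a₂ ρB₂ hc₂ hA φB hB x : Module.End 𝒪 Y₁)
      (x : Module.End 𝒪 Y₂) :=
  s59ej_sig_compat D hinj _ _ _ x

theorem s59efl_sig_eq (x : s59e_adj 𝒪 (s59e_aB a₂ ρB₂ hc₂)) (x' : Module.End 𝒪 Y₁)
    (h : D.Compat x' (x : Module.End 𝒪 Y₂)) :
    (s59efl_sig D hinj a₁ ρB₁ hc₁ a₂ ρB₂ hc₂ hA φB hB x : Module.End 𝒪 Y₁) = x' :=
  s59ej_sig_eq D hinj _ _ _ x x' h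

/-- `σ` on the diamond operators. -/
theorem s59efl_sig_dia (β : B₂) :
    s59efl_sig D hinj a₁ ρB₁ hc₁ a₂ ρB₂ hc₂ hA φB hB (s59e_dia a₂ ρB₂ hc₂ β) =
      s59e_dia a₁ ρB₁ hc₁ (φB β) :=
  Subtype.ext (s59efl_sig_eq D hinj a₁ ρB₁ hc₁ a₂ ρB₂ hc₂ hA φB hB _ _ (hB β))

/-- `σ` on the trace rings. -/
theorem s59efl_sig_incl (x : s59e_adj 𝒪 a₂) (x' : s59e_adj 𝒪 a₁)
    (h : D.Compat (x' : Module.End 𝒪 Y₁) (x : Module.End 𝒪 Y₂)) :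
    s59efl_sig D hinj a₁ ρB₁ hc₁ a₂ ρB₂ hc₂ hA φB hB (s59e_incl a₂ ρB₂ hc₂ x) =
      s59e_incl a₁ ρB₁ hc₁ x' := by
  refine Subtype.ext ?_
  rw [s59e_incl_coe]
  exact s59efl_sig_eq D hinj a₁ ρB₁ hc₁ a₂ ρB₂ hc₂ hA φB hB _ _ (by rw [s59e_incl_coe]; exact h)

/-- `σ` is onto. -/
theorem s59efl_sig_surjective
    (hA' : ∀ x' ∈ s59e_adj 𝒪 a₁, ∃ x ∈ s59e_adj 𝒪 a₂, D.Compat x' x)
    (hφ : Function.Surjective φB) :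
    Function.Surjective (s59efl_sig D hinj a₁ ρB₁ hc₁ a₂ ρB₂ hc₂ hA φB hB) := by
  refine s59ej_sig_surjective D hinj _ _ _
    (s59ej_exists_compat_adjB' D a₁ ρB₁ hc₁ a₂ ρB₂ hc₂ hA' (fun β' => ?_))
  obtain ⟨β, rfl⟩ := hφ β'
  exact ⟨β, hB β⟩

end Link

section Theta

variable {𝒪 : Type} [CommRing 𝒪] [IsDomain 𝒪] [IsDiscreteValuationRing 𝒪]
  [IsAdicComplete (maximalIdeal 𝒪) 𝒪]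
  {ρbar : ResidualGaloisRep (ResidueField 𝒪)}
  {𝒟 : ∀ ⦃A : Type⦄ [CommRing A] [IsLocalRing A] [Algebra 𝒪 A], GaloisRepAdic A → Prop}
  (DQ : GaloisRep.DeformationRingData 𝒪 ρbar 𝒟)
  {Y₁ Y₂ : Type} [AddCommGroup Y₁] [Module 𝒪 Y₁]
  [AddCommGroup Y₂] [Module 𝒪 Y₂] (D : s59t_Old 𝒪 Y₁ Y₂) (hinj : Function.Injective D.resA)
  {A₁ : Type} [CommRing A₁] (a₁ : A₁ →+* Module.End 𝒪 Y₁) {B₁ : Type} [CommGroup B₁]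
  (ρB₁ : B₁ →* Module.End 𝒪 Y₁) (hc₁ : ∀ (t : A₁) (β : B₁), Commute (a₁ t) (ρB₁ β))
  {A₂ : Type} [CommRing A₂] (a₂ : A₂ →+* Module.End 𝒪 Y₂) {B₂ : Type} [CommGroup B₂]
  (ρB₂ : B₂ →* Module.End 𝒪 Y₂) (hc₂ : ∀ (t : A₂) (β : B₂), Commute (a₂ t) (ρB₂ β))
  (hA : ∀ x ∈ s59e_adj 𝒪 a₂, ∃ x' ∈ s59e_adj 𝒪 a₁, D.Compat x' x)
  (φB : B₂ →* B₁) (hB : ∀ β, D.Compat (ρB₁ (φB β)) (ρB₂ β))

/-- **`σ ∘ incl₂ ∘ Θ₂ = incl₁ ∘ Θ₁` on the universal ring.** -/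
theorem s59efl_sig_theta
    [IsLocalRing (s59e_adj 𝒪 (s59e_aB a₁ ρB₁ hc₁))]
    [IsNoetherianRing (s59e_adj 𝒪 (s59e_aB a₁ ρB₁ hc₁))]
    [IsAdicComplete (maximalIdeal (s59e_adj 𝒪 (s59e_aB a₁ ρB₁ hc₁)))
      (s59e_adj 𝒪 (s59e_aB a₁ ρB₁ hc₁))]
    [IsLocalHom (algebraMap 𝒪 (s59e_adj 𝒪 (s59e_aB a₁ ρB₁ hc₁)))]
    (hres𝒪 : Function.Surjective (residue (s59e_adj 𝒪 (s59e_aB a₁ ρB₁ hc₁)) ∘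
      algebraMap 𝒪 (s59e_adj 𝒪 (s59e_aB a₁ ρB₁ hc₁))))
    (Θ₁ : DQ.R →ₐ[𝒪] s59e_adj 𝒪 a₁) (Θ₂ : DQ.R →ₐ[𝒪] s59e_adj 𝒪 a₂)
    (hf₁ : IsLocalHom (((s59e_incl a₁ ρB₁ hc₁).comp Θ₁ : DQ.R →ₐ[𝒪] _) :
      DQ.R →+* s59e_adj 𝒪 (s59e_aB a₁ ρB₁ hc₁)))
    (h𝒟 : 𝒟 (DQ.ρ.baseChangeAlong (((s59e_incl a₁ ρB₁ hc₁).comp Θ₁ : DQ.R →ₐ[𝒪] _) :
      DQ.R →+* s59e_adj 𝒪 (s59e_aB a₁ ρB₁ hc₁)) hf₁))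
    (hres : (DQ.ρ.baseChangeAlong (((s59e_incl a₁ ρB₁ hc₁).comp Θ₁ : DQ.R →ₐ[𝒪] _) :
      DQ.R →+* s59e_adj 𝒪 (s59e_aB a₁ ρB₁ hc₁)) hf₁).residual.IsEquiv
        (ρbar.baseChangeAlong (ResidueField.map
          (algebraMap 𝒪 (s59e_adj 𝒪 (s59e_aB a₁ ρB₁ hc₁))))))
    (Sn : Finset ℕ) (t₁ : ℕ → s59e_adj 𝒪 a₁) (t₂ : ℕ → s59e_adj 𝒪 a₂)
    (hfrob₁ : ∀ ℓ : ℕ, ℓ.Prime → ℓ ∉ Sn →
      ∀ A' : ValuationSubring (AlgebraicClosure ℚ), A'.LiesOverPrime ℓ →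
      ∀ τ : Γℚ, A'.IsFrobeniusAt τ ℓ →
        (LinearMap.charpoly (DQ.ρ.ρ τ)).map (Θ₁ : DQ.R →+* s59e_adj 𝒪 a₁) =
          Polynomial.X ^ 2 - Polynomial.C (t₁ ℓ) * Polynomial.X +
            Polynomial.C ((ℓ : s59e_adj 𝒪 a₁)))
    (hfrob₂ : ∀ ℓ : ℕ, ℓ.Prime → ℓ ∉ Sn →
      ∀ A' : ValuationSubring (AlgebraicClosure ℚ), A'.LiesOverPrime ℓ →
      ∀ τ : Γℚ, A'.IsFrobeniusAt τ ℓ →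
        (LinearMap.charpoly (DQ.ρ.ρ τ)).map (Θ₂ : DQ.R →+* s59e_adj 𝒪 a₂) =
          Polynomial.X ^ 2 - Polynomial.C (t₂ ℓ) * Polynomial.X +
            Polynomial.C ((ℓ : s59e_adj 𝒪 a₂)))
    (ht : ∀ ℓ : ℕ, ℓ.Prime → ℓ ∉ Sn →
      D.Compat ((t₁ ℓ : s59e_adj 𝒪 a₁) : Module.End 𝒪 Y₁) ((t₂ ℓ : s59e_adj 𝒪 a₂) : Module.End 𝒪 Y₂))
    (x : DQ.R) :
    s59efl_sig D hinj a₁ ρB₁ hc₁ a₂ ρB₂ hc₂ hA φB hB (s59e_incl a₂ ρB₂ hc₂ (Θ₂ x)) =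
      s59e_incl a₁ ρB₁ hc₁ (Θ₁ x) := by
  set f₁ : DQ.R →ₐ[𝒪] s59e_adj 𝒪 (s59e_aB a₁ ρB₁ hc₁) := (s59e_incl a₁ ρB₁ hc₁).comp Θ₁ with hf₁def
  set f₂ : DQ.R →ₐ[𝒪] s59e_adj 𝒪 (s59e_aB a₁ ρB₁ hc₁) :=
    (s59efl_sig D hinj a₁ ρB₁ hc₁ a₂ ρB₂ hc₂ hA φB hB).comp ((s59e_incl a₂ ρB₂ hc₂).comp Θ₂)
    with hf₂def
  have hBt : Fermat.Agent.Lib.Deform.IsTestAlgebra 𝒪 (s59e_adj 𝒪 (s59e_aB a₁ ρB₁ hc₁)) :=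
    ⟨inferInstance, hres𝒪⟩
  have hf₂ : IsLocalHom (f₂ : DQ.R →+* s59e_adj 𝒪 (s59e_aB a₁ ρB₁ hc₁)) :=
    Fermat.Agent.Lib.Deform.isLocalHom_of_isTestAlgebra hBt f₂
  have key : f₂ = f₁ := by
    refine s59f_univ_ext DQ hres𝒪 _ h𝒟 hres f₂ f₁ (fun g => ?_) (fun g => ?_)
    · refine ((s59e_cp_compat (f₂ : DQ.R →+* s59e_adj 𝒪 (s59e_aB a₁ ρB₁ hc₁)) hf₂ DQ.ρ _ Sn
        ?_ g).1).symm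
      intro ℓ hℓ hℓS P hP τ hτ
      rw [s59e_bc_charpoly]
      have e1 : (LinearMap.charpoly (DQ.ρ.ρ τ)).map
          (f₁ : DQ.R →+* s59e_adj 𝒪 (s59e_aB a₁ ρB₁ hc₁)) =
          ((LinearMap.charpoly (DQ.ρ.ρ τ)).map (Θ₁ : DQ.R →+* s59e_adj 𝒪 a₁)).map
            ((s59e_incl a₁ ρB₁ hc₁ : s59e_adj 𝒪 a₁ →ₐ[𝒪] _) : s59e_adj 𝒪 a₁ →+* _) := by
        rw [Polynomial.map_map]
        rfl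
      have e2 : (LinearMap.charpoly (DQ.ρ.ρ τ)).map
          (f₂ : DQ.R →+* s59e_adj 𝒪 (s59e_aB a₁ ρB₁ hc₁)) =
          ((LinearMap.charpoly (DQ.ρ.ρ τ)).map (Θ₂ : DQ.R →+* s59e_adj 𝒪 a₂)).map
            (((s59efl_sig D hinj a₁ ρB₁ hc₁ a₂ ρB₂ hc₂ hA φB hB).comp
              (s59e_incl a₂ ρB₂ hc₂) : s59e_adj 𝒪 a₂ →ₐ[𝒪] _) : s59e_adj 𝒪 a₂ →+* _) := by
        rw [Polynomial.map_map]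
        rfl
      rw [e1, e2, hfrob₁ ℓ hℓ hℓS P hP τ hτ, hfrob₂ ℓ hℓ hℓS P hP τ hτ]
      simp only [Polynomial.map_add, Polynomial.map_sub, Polynomial.map_mul, Polynomial.map_pow,
        Polynomial.map_X, Polynomial.map_C, map_natCast, Polynomial.map_natCast]
      congr 4
      show s59e_incl a₁ ρB₁ hc₁ (t₁ ℓ) =
        s59efl_sig D hinj a₁ ρB₁ hc₁ a₂ ρB₂ hc₂ hA φB hB (s59e_incl a₂ ρB₂ hc₂ (t₂ ℓ))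
      exact (s59efl_sig_incl D hinj a₁ ρB₁ hc₁ a₂ ρB₂ hc₂ hA φB hB _ _ (ht ℓ hℓ hℓS)).symm
    · exact (s59e_cpTr_map (f₁ : DQ.R →+* s59e_adj 𝒪 (s59e_aB a₁ ρB₁ hc₁)) hf₁ DQ.ρ g).symm
  exact congrArg (fun F : DQ.R →ₐ[𝒪] s59e_adj 𝒪 (s59e_aB a₁ ρB₁ hc₁) => F x) key

end Theta

end Fermat.Agent.Lib.S59
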