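/-
Programme R2 (S59), node [PATCH-FLR], `T`-side, **(T1) joint levels, part (D4)** (helper5, prefix `s59efl_`): **THE LINK BETWEEN TWO ADJACENT
LEVELS, ABSTRACT FORM.**  Two records `rec₁`, `rec₂ : s59efl_RingRec …` (ELLvlY.lean) over the same deformation datum `DQ`, an old/new package
`D′` on the Taylor–Wiles modules `(Y′₁, Y′₂)` with `res_A` injective, compatible with the Hecke rings (`hA`, `hA′`), the diamond operators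
(`φB : B₂ ↠ B₁`) and the Frobenius traces; the uniqueness data on the trace ring `𝒪[aM₁]` (`h𝒟`, `hres`).  Output: the transfer map
`σl : rec₂.Lv.T ↠ rec₁.Lv.T` with `σl(uu₂) = uu₁`, `σl ∘ alg ∘ θ₂ = alg ∘ θ₁` (= the inputs of EFlrChain.lean) and the compatibility
`D′.Compat (eT₁ (σl t)) (eT₂ t)` (the semilinearity of the seven operators of `D′`).
* `s59efl_theta_ext` : two maps `DQ.R → B` with the same Frobenius characteristic polynomials are equal;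
* `s59efl_link`      : the link.
-/
import Mathlib
import Fermat.Agent.Lib.S59.EFlrLink
import Fermat.Agent.Lib.S59.ELLvlY

set_option autoImplicit false
set_option linter.unusedSectionVars false
set_option linter.unusedVariables false
set_option linter.style.haveILetI false
set_option maxHeartbeats 1600000
set_option synthInstance.maxHeartbeats 400000

noncomputable section

namespace Fermat.Agent.Lib.S59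

open IsLocalRing MvPowerSeries

local notation "Γℚ" => (AlgebraicClosure ℚ ≃ₐ[ℚ] AlgebraicClosure ℚ)

section Ext

variable {𝒪 : Type} [CommRing 𝒪] [IsDomain 𝒪] [IsDiscreteValuationRing 𝒪]
  [IsAdicComplete (maximalIdeal 𝒪) 𝒪]
  {ρbar : ResidualGaloisRep (ResidueField 𝒪)}
  {𝒟 : ∀ ⦃A : Type⦄ [CommRing A] [IsLocalRing A] [Algebra 𝒪 A], GaloisRepAdic A → Prop}
  (DQ : GaloisRep.DeformationRingData 𝒪 ρbar 𝒟)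

/-- **two maps out of the universal ring with the same Frobenius characteristic polynomials (outside a finite set) are equal.** -/
theorem s59efl_theta_ext {B : Type} [CommRing B] [IsLocalRing B] [IsNoetherianRing B]
    [IsAdicComplete (maximalIdeal B) B] [Algebra 𝒪 B] [IsLocalHom (algebraMap 𝒪 B)]
    (hB : Function.Surjective (residue B ∘ algebraMap 𝒪 B))
    (f₁ f₂ : DQ.R →ₐ[𝒪] B) (hf₁ : IsLocalHom (f₁ : DQ.R →+* B))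
    (h𝒟 : 𝒟 (DQ.ρ.baseChangeAlong (f₁ : DQ.R →+* B) hf₁))
    (hres : (DQ.ρ.baseChangeAlong (f₁ : DQ.R →+* B) hf₁).residual.IsEquiv
      (ρbar.baseChangeAlong (ResidueField.map (algebraMap 𝒪 B))))
    (Sn : Finset ℕ)
    (h : ∀ ℓ : ℕ, ℓ.Prime → ℓ ∉ Sn →
      ∀ A' : ValuationSubring (AlgebraicClosure ℚ), A'.LiesOverPrime ℓ →
      ∀ τ : Γℚ, A'.IsFrobeniusAt τ ℓ →
        (LinearMap.charpoly (DQ.ρ.ρ τ)).map (f₂ : DQ.R →+* B) =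
          (LinearMap.charpoly (DQ.ρ.ρ τ)).map (f₁ : DQ.R →+* B)) : f₂ = f₁ := by
  have hBt : Fermat.Agent.Lib.Deform.IsTestAlgebra 𝒪 B := ⟨inferInstance, hB⟩
  have hf₂ : IsLocalHom (f₂ : DQ.R →+* B) :=
    Fermat.Agent.Lib.Deform.isLocalHom_of_isTestAlgebra hBt f₂
  refine s59f_univ_ext DQ hB _ h𝒟 hres f₂ f₁ (fun g => ?_) (fun g => ?_)
  · refine ((s59e_cp_compat (f₂ : DQ.R →+* B) hf₂ DQ.ρ _ Sn ?_ g).1).symm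
    intro ℓ hℓ hℓS P hP τ hτ
    rw [s59e_bc_charpoly]
    exact (h ℓ hℓ hℓS P hP τ hτ).symm
  · exact (s59e_cpTr_map (f₁ : DQ.R →+* B) hf₁ DQ.ρ g).symm

end Ext

section Link

variable {𝒪 : Type} [CommRing 𝒪] [IsDomain 𝒪] [IsDiscreteValuationRing 𝒪]
  [IsAdicComplete (maximalIdeal 𝒪) 𝒪] {p n r : ℕ} {σ : Type} [DecidableEq σ] [Fintype σ]
  {ρbar : ResidualGaloisRep (ResidueField 𝒪)}
  {𝒟 : ∀ ⦃A : Type⦄ [CommRing A] [IsLocalRing A] [Algebra 𝒪 A], GaloisRepAdic A → Prop}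
  {DQ : GaloisRep.DeformationRingData 𝒪 ρbar 𝒟} {qv : Fin r → ℕ}
  -- level 1
  {Δ₁ : Type} [CommGroup Δ₁] [Fintype Δ₁] {Y₁ : Type} [AddCommGroup Y₁] [Module 𝒪 Y₁]
  {ρΔ₁ : Δ₁ →* Module.End 𝒪 Y₁}
  {R₁ : Type} [CommRing R₁] [IsLocalRing R₁] [Algebra 𝒪 R₁] [Module R₁ Y₁] [IsScalarTower 𝒪 R₁ Y₁]
  {hRρ₁ : ∀ (t : R₁) (δ : Δ₁) (y : Y₁), t • ρΔ₁ δ y = ρΔ₁ δ (t • y)}
  {ρR₁ : GaloisRepAdic R₁} {d₁ : ℕ}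
  {Δ'₁ : Type} [CommGroup Δ'₁] [Fintype Δ'₁] {Y'₁ : Type} [AddCommGroup Y'₁] [Module 𝒪 Y'₁]
  {ρ'₁ : Δ'₁ →* Module.End 𝒪 Y'₁} {Bq₁ C₁ : Subgroup Δ'₁} [Fintype Bq₁] [Fintype C₁]
  {π₁ : Y'₁ →ₗ[𝒪] Y₁}
  {A₁ : Type} [CommRing A₁] {aM₁ : A₁ →+* Module.End 𝒪 Y'₁}
  {hcomm₁ : ∀ (t : A₁) (β : Bq₁), Commute (aM₁ t) ((ρ'₁.comp Bq₁.subtype) β)}
  {hTρ₁ : ∀ (t : s59e_adj 𝒪 (s59e_aB aM₁ (ρ'₁.comp Bq₁.subtype) hcomm₁)) (δ : Δ'₁) (y : Y'₁),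
    t • ρ'₁ δ y = ρ'₁ δ (t • y)}
  {h2₁ : ∀ y ∈ s59t_eig ρ'₁ C₁ (1 : Δ'₁ →* 𝒪ˣ), π₁ y ∈ s59t_eig ρΔ₁ ⊤ (1 : Δ₁ →* 𝒪ˣ)}
  {g₁ : Fin r → Bq₁} {θ₁ : DQ.R →ₐ[𝒪] s59e_adj 𝒪 aM₁}
  (rec₁ : s59efl_RingRec (p := p) r σ DQ n ρΔ₁ R₁ hRρ₁ ρR₁ d₁ ρ'₁ Bq₁ C₁ π₁ aM₁ hcomm₁ hTρ₁ h2₁ g₁ θ₁ qv)
  -- level 2
  {Δ₂ : Type} [CommGroup Δ₂] [Fintype Δ₂] {Y₂ : Type} [AddCommGroup Y₂] [Module 𝒪 Y₂]
  {ρΔ₂ : Δ₂ →* Module.End 𝒪 Y₂}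
  {R₂ : Type} [CommRing R₂] [IsLocalRing R₂] [Algebra 𝒪 R₂] [Module R₂ Y₂] [IsScalarTower 𝒪 R₂ Y₂]
  {hRρ₂ : ∀ (t : R₂) (δ : Δ₂) (y : Y₂), t • ρΔ₂ δ y = ρΔ₂ δ (t • y)}
  {ρR₂ : GaloisRepAdic R₂} {d₂ : ℕ}
  {Δ'₂ : Type} [CommGroup Δ'₂] [Fintype Δ'₂] {Y'₂ : Type} [AddCommGroup Y'₂] [Module 𝒪 Y'₂]
  {ρ'₂ : Δ'₂ →* Module.End 𝒪 Y'₂} {Bq₂ C₂ : Subgroup Δ'₂} [Fintype Bq₂] [Fintype C₂]
  {π₂ : Y'₂ →ₗ[𝒪] Y₂}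
  {A₂ : Type} [CommRing A₂] {aM₂ : A₂ →+* Module.End 𝒪 Y'₂}
  {hcomm₂ : ∀ (t : A₂) (β : Bq₂), Commute (aM₂ t) ((ρ'₂.comp Bq₂.subtype) β)}
  {hTρ₂ : ∀ (t : s59e_adj 𝒪 (s59e_aB aM₂ (ρ'₂.comp Bq₂.subtype) hcomm₂)) (δ : Δ'₂) (y : Y'₂),
    t • ρ'₂ δ y = ρ'₂ δ (t • y)}
  {h2₂ : ∀ y ∈ s59t_eig ρ'₂ C₂ (1 : Δ'₂ →* 𝒪ˣ), π₂ y ∈ s59t_eig ρΔ₂ ⊤ (1 : Δ₂ →* 𝒪ˣ)}
  {g₂ : Fin r → Bq₂} {θ₂ : DQ.R →ₐ[𝒪] s59e_adj 𝒪 aM₂}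
  (rec₂ : s59efl_RingRec (p := p) r σ DQ n ρΔ₂ R₂ hRρ₂ ρR₂ d₂ ρ'₂ Bq₂ C₂ π₂ aM₂ hcomm₂ hTρ₂ h2₂ g₂ θ₂ qv)
  -- the package on the Taylor–Wiles modules
  (D' : s59t_Old 𝒪 Y'₁ Y'₂) (hinj : Function.Injective D'.resA)
  (hA : ∀ x ∈ s59e_adj 𝒪 aM₂, ∃ x' ∈ s59e_adj 𝒪 aM₁, D'.Compat x' x)
  (hA' : ∀ x' ∈ s59e_adj 𝒪 aM₁, ∃ x ∈ s59e_adj 𝒪 aM₂, D'.Compat x' x)
  (φB : Bq₂ →* Bq₁)
  (hB : ∀ β, D'.Compat ((ρ'₁.comp Bq₁.subtype) (φB β)) ((ρ'₂.comp Bq₂.subtype) β))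
  (hφ : Function.Surjective φB) (hg : ∀ i, g₁ i = φB (g₂ i))

include hinj hA hA' φB hB hφ hg in
/-- **the link between two adjacent levels.** -/
theorem s59efl_link
    [IsLocalRing (s59e_adj 𝒪 aM₁)] [IsNoetherianRing (s59e_adj 𝒪 aM₁)]
    [IsAdicComplete (maximalIdeal (s59e_adj 𝒪 aM₁)) (s59e_adj 𝒪 aM₁)]
    [IsLocalHom (algebraMap 𝒪 (s59e_adj 𝒪 aM₁))]
    (hres𝒪 : Function.Surjective (residue (s59e_adj 𝒪 aM₁) ∘ algebraMap 𝒪 (s59e_adj 𝒪 aM₁)))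
    (hθ₁l : IsLocalHom (θ₁ : DQ.R →+* s59e_adj 𝒪 aM₁))
    (h𝒟 : 𝒟 (DQ.ρ.baseChangeAlong (θ₁ : DQ.R →+* s59e_adj 𝒪 aM₁) hθ₁l))
    (hres : (DQ.ρ.baseChangeAlong (θ₁ : DQ.R →+* s59e_adj 𝒪 aM₁) hθ₁l).residual.IsEquiv
      (ρbar.baseChangeAlong (ResidueField.map (algebraMap 𝒪 (s59e_adj 𝒪 aM₁)))))
    (Sn : Finset ℕ) (t₁ : ℕ → s59e_adj 𝒪 aM₁) (t₂ : ℕ → s59e_adj 𝒪 aM₂)
    (hfrob₁ : ∀ ℓ : ℕ, ℓ.Prime → ℓ ∉ Sn →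
      ∀ A' : ValuationSubring (AlgebraicClosure ℚ), A'.LiesOverPrime ℓ →
      ∀ τ : Γℚ, A'.IsFrobeniusAt τ ℓ →
        (LinearMap.charpoly (DQ.ρ.ρ τ)).map (θ₁ : DQ.R →+* s59e_adj 𝒪 aM₁) =
          Polynomial.X ^ 2 - Polynomial.C (t₁ ℓ) * Polynomial.X +
            Polynomial.C ((ℓ : s59e_adj 𝒪 aM₁)))
    (hfrob₂ : ∀ ℓ : ℕ, ℓ.Prime → ℓ ∉ Sn →
      ∀ A' : ValuationSubring (AlgebraicClosure ℚ), A'.LiesOverPrime ℓ →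
      ∀ τ : Γℚ, A'.IsFrobeniusAt τ ℓ →
        (LinearMap.charpoly (DQ.ρ.ρ τ)).map (θ₂ : DQ.R →+* s59e_adj 𝒪 aM₂) =
          Polynomial.X ^ 2 - Polynomial.C (t₂ ℓ) * Polynomial.X +
            Polynomial.C ((ℓ : s59e_adj 𝒪 aM₂)))
    (ht : ∀ ℓ : ℕ, ℓ.Prime → ℓ ∉ Sn →
      D'.Compat ((t₁ ℓ : s59e_adj 𝒪 aM₁) : Module.End 𝒪 Y'₁)
        ((t₂ ℓ : s59e_adj 𝒪 aM₂) : Module.End 𝒪 Y'₂)) :
    ∃ σl : rec₂.Lv.T →ₐ[𝒪] rec₁.Lv.T, Function.Surjective σl ∧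
      (∀ i, σl (((rec₂.Lv.uu i : rec₂.Lv.Tˣ) : rec₂.Lv.T)) =
        ((rec₁.Lv.uu i : rec₁.Lv.Tˣ) : rec₁.Lv.T)) ∧
      (∀ x, σl (algebraMap rec₂.Lv.T' rec₂.Lv.T (rec₂.Lv.θ x)) =
        algebraMap rec₁.Lv.T' rec₁.Lv.T (rec₁.Lv.θ x)) ∧
      (∀ x, D'.Compat ((θ₁ x : s59e_adj 𝒪 aM₁) : Module.End 𝒪 Y'₁)
        ((θ₂ x : s59e_adj 𝒪 aM₂) : Module.End 𝒪 Y'₂)) ∧
      ∀ t : rec₂.Lv.T, D'.Compat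
        ((rec₁.eT (σl t) : s59e_adj 𝒪 (s59e_aB aM₁ (ρ'₁.comp Bq₁.subtype) hcomm₁)) :
          Module.End 𝒪 Y'₁)
        ((rec₂.eT t : s59e_adj 𝒪 (s59e_aB aM₂ (ρ'₂.comp Bq₂.subtype) hcomm₂)) :
          Module.End 𝒪 Y'₂) := by
  classical
  set sg := s59efl_sig D' hinj aM₁ (ρ'₁.comp Bq₁.subtype) hcomm₁ aM₂ (ρ'₂.comp Bq₂.subtype) hcomm₂
    hA φB hB with hsg
  set σl : rec₂.Lv.T →ₐ[𝒪] rec₁.Lv.T :=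
    ((rec₁.eT.symm : _ →ₐ[𝒪] rec₁.Lv.T)).comp (sg.comp (rec₂.eT : rec₂.Lv.T →ₐ[𝒪] _)) with hσl
  have e1 : ∀ t, rec₁.eT (σl t) = sg (rec₂.eT t) := by
    intro t
    show rec₁.eT (rec₁.eT.symm (sg (rec₂.eT t))) = _
    rw [AlgEquiv.apply_symm_apply]
  -- the transfer of the trace rings
  set σ' : s59e_adj 𝒪 aM₂ →ₐ[𝒪] s59e_adj 𝒪 aM₁ :=
    s59ej_sig D' hinj (s59e_adj 𝒪 aM₁) (s59e_adj 𝒪 aM₂) hA with hσ'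
  have key : σ'.comp θ₂ = θ₁ := by
    refine s59efl_theta_ext DQ hres𝒪 θ₁ (σ'.comp θ₂) hθ₁l h𝒟 hres Sn ?_
    intro ℓ hℓ hℓS P hP τ hτ
    have e2 : (LinearMap.charpoly (DQ.ρ.ρ τ)).map
        ((σ'.comp θ₂ : DQ.R →ₐ[𝒪] s59e_adj 𝒪 aM₁) : DQ.R →+* s59e_adj 𝒪 aM₁) =
        ((LinearMap.charpoly (DQ.ρ.ρ τ)).map (θ₂ : DQ.R →+* s59e_adj 𝒪 aM₂)).map
          (σ' : s59e_adj 𝒪 aM₂ →+* s59e_adj 𝒪 aM₁) := by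
      rw [Polynomial.map_map]
      rfl
    rw [e2, hfrob₁ ℓ hℓ hℓS P hP τ hτ, hfrob₂ ℓ hℓ hℓS P hP τ hτ]
    simp only [Polynomial.map_add, Polynomial.map_sub, Polynomial.map_mul, Polynomial.map_pow,
      Polynomial.map_X, Polynomial.map_C, map_natCast, Polynomial.map_natCast]
    congr 4
    show σ' (t₂ ℓ) = t₁ ℓ
    exact Subtype.ext (s59ej_sig_eq D' hinj _ _ hA (t₂ ℓ) _ (ht ℓ hℓ hℓS))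
  have hθc : ∀ x, D'.Compat ((θ₁ x : s59e_adj 𝒪 aM₁) : Module.End 𝒪 Y'₁)
      ((θ₂ x : s59e_adj 𝒪 aM₂) : Module.End 𝒪 Y'₂) := by
    intro x
    have h1 := s59ej_sig_compat D' hinj _ _ hA (θ₂ x)
    have h2 : σ' (θ₂ x) = θ₁ x := congrArg (fun F : DQ.R →ₐ[𝒪] s59e_adj 𝒪 aM₁ => F x) key
    rw [← h2]
    exact h1
  refine ⟨σl, ?_, ?_, ?_, hθc, ?_⟩
  · exact rec₁.eT.symm.surjective.comp
      ((s59efl_sig_surjective D' hinj aM₁ (ρ'₁.comp Bq₁.subtype) hcomm₁ aM₂ (ρ'₂.comp Bq₂.subtype)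
        hcomm₂ hA φB hB hA' hφ).comp rec₂.eT.surjective)
  · intro i
    apply rec₁.eT.injective
    rw [e1, rec₂.k3, rec₁.k3, hsg, s59efl_sig_dia]
    congr 1
    show φB (g₂ i ^ ((p ^ n + 1) / 2)) = g₁ i ^ ((p ^ n + 1) / 2)
    rw [map_pow, hg]
  · intro x
    apply rec₁.eT.injective
    rw [e1, rec₂.k1, rec₂.k2, rec₁.k1, rec₁.k2, hsg]
    exact s59efl_sig_incl D' hinj aM₁ (ρ'₁.comp Bq₁.subtype) hcomm₁ aM₂ (ρ'₂.comp Bq₂.subtype)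
      hcomm₂ hA φB hB (θ₂ x) (θ₁ x) (hθc x)
  · intro t
    rw [e1, hsg]
    exact s59efl_sig_compat D' hinj aM₁ (ρ'₁.comp Bq₁.subtype) hcomm₁ aM₂ (ρ'₂.comp Bq₂.subtype)
      hcomm₂ hA φB hB (rec₂.eT t)

end Link

end Fermat.Agent.Lib.S59
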