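/-
Programme R2 (S59), node [PATCH-FLR], `T`-side leaf (T1) (helper5, prefix `s59ej_`): **FROM UNFRAMED LEVEL MAPS TO AN `s59t_Old` PACKAGE OVER THE
JOINT FRAMED RING** (pure algebra).

* `s59ej_PSmap F` : the coefficientwise map `N₁⟦z⟧ → N₂⟦z⟧` (`s59t_PS`) of an additive map `F : N₁ → N₂`; it is semilinear over
  `T⟦z⟧` as soon as `F` is semilinear over `T` (`s59ej_PSmap_smul`);
* `s59ej_oldPS` : `A = T⟦z⟧`-modules `P₁, P₂` identified with `N₁⟦z⟧`, `N₂⟦z⟧` (`e_i (a • y) = (s_i)⟦z⟧ a • e_i y`, the form of the joint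
  levels `s59ej_L0`), and `T`-semilinear maps `rA, rB : N₁ → N₂`, `cA, cB : N₂ → N₁`, `Tq` on `N₁`, `U, w` on `N₂` with the old/new
  identities  ⇒  `D : s59t_Old A P₁ P₂` with `D.qq = C q`, and `D.T = τ • ·` if `Tq = s₁ τ • ·`.
-/
import Mathlib
import Fermat.Agent.Lib.S59.TPSMod
import Fermat.Agent.Lib.S59.TOld

set_option autoImplicit false
set_option linter.unusedSectionVars false
set_option linter.unusedVariables false
set_option linter.style.haveILetI false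

open scoped BigOperators
open Finset

noncomputable section

namespace Fermat.Agent.Lib.S59

section PSmap

variable {σ : Type*} [DecidableEq σ] {N₁ N₂ N₃ : Type*} [AddCommGroup N₁] [AddCommGroup N₂]
  [AddCommGroup N₃]

/-- the coefficientwise map. -/
def s59ej_PSmap (F : N₁ →+ N₂) : s59t_PS σ N₁ →+ s59t_PS σ N₂ where
  toFun m := fun d => F (m d)
  map_zero' := funext fun d => F.map_zero
  map_add' m m' := funext fun d => F.map_add (m d) (m' d)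

theorem s59ej_PSmap_coeff (F : N₁ →+ N₂) (m : s59t_PS σ N₁) (d : σ →₀ ℕ) :
    s59t_PScoeff d (s59ej_PSmap F m) = F (s59t_PScoeff d m) := rfl

theorem s59ej_PSmap_comp (F : N₁ →+ N₂) (G : N₂ →+ N₃) (m : s59t_PS σ N₁) :
    s59ej_PSmap G (s59ej_PSmap F m) = s59ej_PSmap (G.comp F) m := rfl

theorem s59ej_PSmap_congr {F G : N₁ →+ N₂} (h : ∀ y, F y = G y) (m : s59t_PS σ N₁) :
    s59ej_PSmap F m = s59ej_PSmap G m := funext fun d => h (m d)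

variable {T T₁ T₂ : Type*} [CommRing T] [CommRing T₁] [CommRing T₂] [Module T₁ N₁] [Module T₂ N₂]

/-- semilinearity over the framed rings. -/
theorem s59ej_PSmap_smul (s₁ : T →+* T₁) (s₂ : T →+* T₂) (F : N₁ →+ N₂)
    (hF : ∀ (t : T) (y : N₁), F (s₁ t • y) = s₂ t • F y)
    (a : MvPowerSeries σ T) (m : s59t_PS σ N₁) :
    s59ej_PSmap F (MvPowerSeries.map s₁ a • m) = MvPowerSeries.map s₂ a • s59ej_PSmap F m := by
  refine s59t_PS_ext fun d => ?_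
  rw [s59ej_PSmap_coeff, s59t_PS_smul_coeff, s59t_PS_smul_coeff, map_sum]
  refine Finset.sum_congr rfl fun x _ => ?_
  rw [MvPowerSeries.coeff_map, MvPowerSeries.coeff_map, hF, s59ej_PSmap_coeff]

end PSmap

section Old

variable {σ : Type*} [DecidableEq σ] {T T₁ T₂ : Type*} [CommRing T] [CommRing T₁] [CommRing T₂]
  {N₁ N₂ : Type*} [AddCommGroup N₁] [AddCommGroup N₂] [Module T₁ N₁] [Module T₂ N₂]
  {P₁ P₂ : Type*} [AddCommGroup P₁] [AddCommGroup P₂] [Module (MvPowerSeries σ T) P₁]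
  [Module (MvPowerSeries σ T) P₂]
  (s₁ : T →+* T₁) (s₂ : T →+* T₂)
  (e₁ : P₁ ≃+ s59t_PS σ N₁) (e₂ : P₂ ≃+ s59t_PS σ N₂)
  (he₁ : ∀ (a : MvPowerSeries σ T) (y : P₁), e₁ (a • y) = MvPowerSeries.map s₁ a • e₁ y)
  (he₂ : ∀ (a : MvPowerSeries σ T) (y : P₂), e₂ (a • y) = MvPowerSeries.map s₂ a • e₂ y)

/-- the `A`-linear map `P_i → P_j` induced by a `T`-semilinear map `N_i → N_j`. -/
def s59ej_liftMap {T₃ T₄ : Type*} [CommRing T₃] [CommRing T₄] {N₃ N₄ : Type*} [AddCommGroup N₃]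
    [AddCommGroup N₄] [Module T₃ N₃] [Module T₄ N₄] {P₃ P₄ : Type*} [AddCommGroup P₃]
    [AddCommGroup P₄] [Module (MvPowerSeries σ T) P₃] [Module (MvPowerSeries σ T) P₄]
    (s₃ : T →+* T₃) (s₄ : T →+* T₄) (e₃ : P₃ ≃+ s59t_PS σ N₃) (e₄ : P₄ ≃+ s59t_PS σ N₄)
    (he₃ : ∀ (a : MvPowerSeries σ T) (y : P₃), e₃ (a • y) = MvPowerSeries.map s₃ a • e₃ y)
    (he₄ : ∀ (a : MvPowerSeries σ T) (y : P₄), e₄ (a • y) = MvPowerSeries.map s₄ a • e₄ y)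
    (F : N₃ →+ N₄) (hF : ∀ (t : T) (y : N₃), F (s₃ t • y) = s₄ t • F y) :
    P₃ →ₗ[MvPowerSeries σ T] P₄ where
  toFun y := e₄.symm (s59ej_PSmap F (e₃ y))
  map_add' y y' := by rw [map_add, map_add, map_add]
  map_smul' a y := by
    rw [RingHom.id_apply]
    apply e₄.injective
    rw [he₄, AddEquiv.apply_symm_apply, AddEquiv.apply_symm_apply, he₃,
      s59ej_PSmap_smul s₃ s₄ F hF]

theorem s59ej_liftMap_apply {T₃ T₄ : Type*} [CommRing T₃] [CommRing T₄] {N₃ N₄ : Type*}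
    [AddCommGroup N₃] [AddCommGroup N₄] [Module T₃ N₃] [Module T₄ N₄] {P₃ P₄ : Type*}
    [AddCommGroup P₃] [AddCommGroup P₄] [Module (MvPowerSeries σ T) P₃]
    [Module (MvPowerSeries σ T) P₄]
    (s₃ : T →+* T₃) (s₄ : T →+* T₄) (e₃ : P₃ ≃+ s59t_PS σ N₃) (e₄ : P₄ ≃+ s59t_PS σ N₄)
    (he₃ : ∀ (a : MvPowerSeries σ T) (y : P₃), e₃ (a • y) = MvPowerSeries.map s₃ a • e₃ y)
    (he₄ : ∀ (a : MvPowerSeries σ T) (y : P₄), e₄ (a • y) = MvPowerSeries.map s₄ a • e₄ y)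
    (F : N₃ →+ N₄) (hF : ∀ (t : T) (y : N₃), F (s₃ t • y) = s₄ t • F y) (y : P₃) :
    e₄ (s59ej_liftMap s₃ s₄ e₃ e₄ he₃ he₄ F hF y) = s59ej_PSmap F (e₃ y) :=
  e₄.apply_symm_apply _

variable (q : T)
  (rA rB : N₁ →+ N₂) (cA cB : N₂ →+ N₁) (Tq : N₁ →+ N₁) (U w : N₂ →+ N₂)
  (hrA : ∀ (t : T) (y : N₁), rA (s₁ t • y) = s₂ t • rA y)
  (hrB : ∀ (t : T) (y : N₁), rB (s₁ t • y) = s₂ t • rB y)
  (hcA : ∀ (t : T) (z : N₂), cA (s₂ t • z) = s₁ t • cA z)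
  (hcB : ∀ (t : T) (z : N₂), cB (s₂ t • z) = s₁ t • cB z)
  (hTq : ∀ (t : T) (y : N₁), Tq (s₁ t • y) = s₁ t • Tq y)
  (hU : ∀ (t : T) (z : N₂), U (s₂ t • z) = s₂ t • U z)
  (hw : ∀ (t : T) (z : N₂), w (s₂ t • z) = s₂ t • w z)
  (h1 : ∀ y, cA (rA y) = s₁ (q + 1) • y) (h2 : ∀ y, cB (rB y) = s₁ (q + 1) • y)
  (h3 : ∀ y, cA (rB y) = Tq y) (h4 : ∀ y, cB (rA y) = Tq y)
  (h5 : ∀ z, w (w z) = z) (h6 : ∀ y, rB y = w (rA y)) (h7 : ∀ z, cB z = cA (w z))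
  (h8 : ∀ z, rA (cB z) = U z + w z)

/-- `C t` acts coefficientwise. -/
theorem s59ej_C_smul {T₃ : Type*} [CommRing T₃] {N₃ : Type*} [AddCommGroup N₃] [Module T₃ N₃]
    {P₃ : Type*} [AddCommGroup P₃] [Module (MvPowerSeries σ T) P₃]
    (s₃ : T →+* T₃) (e₃ : P₃ ≃+ s59t_PS σ N₃)
    (he₃ : ∀ (a : MvPowerSeries σ T) (y : P₃), e₃ (a • y) = MvPowerSeries.map s₃ a • e₃ y)
    (t : T) (y : P₃) (d : σ →₀ ℕ) :
    s59t_PScoeff d (e₃ ((MvPowerSeries.C t : MvPowerSeries σ T) • y)) =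
      s₃ t • s59t_PScoeff d (e₃ y) := by
  rw [he₃, MvPowerSeries.map_C, s59t_C_smul_coeff]

/-- **the old/new package over the joint framed ring.** -/
def s59ej_oldPS : s59t_Old (MvPowerSeries σ T) P₁ P₂ where
  qq := MvPowerSeries.C q
  resA := s59ej_liftMap s₁ s₂ e₁ e₂ he₁ he₂ rA hrA
  resB := s59ej_liftMap s₁ s₂ e₁ e₂ he₁ he₂ rB hrB
  corA := s59ej_liftMap s₂ s₁ e₂ e₁ he₂ he₁ cA hcA
  corB := s59ej_liftMap s₂ s₁ e₂ e₁ he₂ he₁ cB hcB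
  T := s59ej_liftMap s₁ s₁ e₁ e₁ he₁ he₁ Tq hTq
  U := s59ej_liftMap s₂ s₂ e₂ e₂ he₂ he₂ U hU
  w := s59ej_liftMap s₂ s₂ e₂ e₂ he₂ he₂ w hw
  corA_resA y := by
    apply e₁.injective
    rw [s59ej_liftMap_apply, s59ej_liftMap_apply]
    refine s59t_PS_ext fun d => ?_
    have e : (MvPowerSeries.C q + 1 : MvPowerSeries σ T) = MvPowerSeries.C (q + 1) := by
      rw [map_add, map_one]
    rw [e, s59ej_C_smul s₁ e₁ he₁, s59ej_PSmap_coeff, s59ej_PSmap_coeff, h1]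
  corB_resB y := by
    apply e₁.injective
    rw [s59ej_liftMap_apply, s59ej_liftMap_apply]
    refine s59t_PS_ext fun d => ?_
    have e : (MvPowerSeries.C q + 1 : MvPowerSeries σ T) = MvPowerSeries.C (q + 1) := by
      rw [map_add, map_one]
    rw [e, s59ej_C_smul s₁ e₁ he₁, s59ej_PSmap_coeff, s59ej_PSmap_coeff, h2]
  corA_resB y := by
    apply e₁.injective
    rw [s59ej_liftMap_apply, s59ej_liftMap_apply, s59ej_liftMap_apply]
    refine s59t_PS_ext fun d => ?_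
    rw [s59ej_PSmap_coeff, s59ej_PSmap_coeff, s59ej_PSmap_coeff, h3]
  corB_resA y := by
    apply e₁.injective
    rw [s59ej_liftMap_apply, s59ej_liftMap_apply, s59ej_liftMap_apply]
    refine s59t_PS_ext fun d => ?_
    rw [s59ej_PSmap_coeff, s59ej_PSmap_coeff, s59ej_PSmap_coeff, h4]
  w_w z := by
    apply e₂.injective
    rw [s59ej_liftMap_apply, s59ej_liftMap_apply]
    refine s59t_PS_ext fun d => ?_
    rw [s59ej_PSmap_coeff, s59ej_PSmap_coeff, h5]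
  resB_eq y := by
    apply e₂.injective
    rw [s59ej_liftMap_apply, s59ej_liftMap_apply, s59ej_liftMap_apply]
    refine s59t_PS_ext fun d => ?_
    rw [s59ej_PSmap_coeff, s59ej_PSmap_coeff, s59ej_PSmap_coeff, h6]
  corB_eq z := by
    apply e₁.injective
    rw [s59ej_liftMap_apply, s59ej_liftMap_apply, s59ej_liftMap_apply]
    refine s59t_PS_ext fun d => ?_
    rw [s59ej_PSmap_coeff, s59ej_PSmap_coeff, s59ej_PSmap_coeff, h7]
  resA_corB z := by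
    apply e₂.injective
    rw [map_add, s59ej_liftMap_apply, s59ej_liftMap_apply, s59ej_liftMap_apply,
      s59ej_liftMap_apply]
    refine s59t_PS_ext fun d => ?_
    rw [map_add, s59ej_PSmap_coeff, s59ej_PSmap_coeff, s59ej_PSmap_coeff, s59ej_PSmap_coeff, h8]

theorem s59ej_oldPS_qq :
    (s59ej_oldPS s₁ s₂ e₁ e₂ he₁ he₂ q rA rB cA cB Tq U w hrA hrB hcA hcB hTq hU hw
      h1 h2 h3 h4 h5 h6 h7 h8).qq = MvPowerSeries.C q := rfl

/-- `D.T = τ • ·` when `Tq = s₁ τ • ·`. -/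
theorem s59ej_oldPS_T (τ : T) (hτ : ∀ y, Tq y = s₁ τ • y) (y : P₁) :
    (s59ej_oldPS s₁ s₂ e₁ e₂ he₁ he₂ q rA rB cA cB Tq U w hrA hrB hcA hcB hTq hU hw
      h1 h2 h3 h4 h5 h6 h7 h8).T y = (MvPowerSeries.C τ : MvPowerSeries σ T) • y := by
  apply e₁.injective
  show e₁ (s59ej_liftMap s₁ s₁ e₁ e₁ he₁ he₁ Tq hTq y) = _
  rw [s59ej_liftMap_apply]
  refine s59t_PS_ext fun d => ?_
  rw [s59ej_C_smul s₁ e₁ he₁, s59ej_PSmap_coeff, hτ]

/-- the Eichler–Shimura relation `U² − τ U + q = 0` passes to the framed modules. -/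
theorem s59ej_oldPS_ES (τ : T) (hES : ∀ z, U (U z) - s₂ τ • U z + s₂ q • z = 0) (z : P₂) :
    let D := s59ej_oldPS s₁ s₂ e₁ e₂ he₁ he₂ q rA rB cA cB Tq U w hrA hrB hcA hcB hTq hU hw
      h1 h2 h3 h4 h5 h6 h7 h8
    D.U (D.U z) - (MvPowerSeries.C τ : MvPowerSeries σ T) • D.U z + D.qq • z = 0 := by
  intro D
  apply e₂.injective
  rw [map_add, map_sub, map_zero]
  show e₂ (s59ej_liftMap s₂ s₂ e₂ e₂ he₂ he₂ U hU (s59ej_liftMap s₂ s₂ e₂ e₂ he₂ he₂ U hU z)) -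
    e₂ ((MvPowerSeries.C τ : MvPowerSeries σ T) • s59ej_liftMap s₂ s₂ e₂ e₂ he₂ he₂ U hU z) +
    e₂ ((MvPowerSeries.C q : MvPowerSeries σ T) • z) = 0
  rw [s59ej_liftMap_apply, s59ej_liftMap_apply]
  refine s59t_PS_ext fun d => ?_
  rw [map_add, map_sub, s59ej_C_smul s₂ e₂ he₂, s59ej_C_smul s₂ e₂ he₂, s59ej_liftMap_apply,
    s59ej_PSmap_coeff, s59ej_PSmap_coeff, hES]
  rfl

end Old

end Fermat.Agent.Lib.S59
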