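/-
Programme R2 (S59), node [PATCH-FLR], `T`-side leaf (T1) (helper5, prefix `s59ej_`): **FROM AN UNFRAMED OLD/NEW PACKAGE `D₀ : s59t_Old 𝒪 Y₁ Y₂` TO THE
PACKAGE OF THE FRAMED EIGEN-PARTS OVER THE JOINT RING** (part (B) of the concrete half of (T1), second file; pure algebra).

`Y_i` carries the diamond representation `ρ_i` of `Δ_i` and the action of a ring `T_i`; `T` is the joint ring, `s_i : T → T_i`.  If the seven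
operators of `D₀` are semilinear over `(s₁, s₂)` and preserve the eigen-parts `Y_i[C_i = ψ_i]`, then the `T⟦z⟧`-modules `P_i ≅ (Y_i[C_i = ψ_i])⟦z⟧`
(`e_i`, `he_i`: the joint levels `s59ej_L0`) carry the package `s59ej_oldEig : s59t_Old T⟦z⟧ P₁ P₂` (`s59ej_oldPS` of EJointF.lean applied to the
maps `s59ej_eigMap`), with `qq = C q`, and the seven operators are computed coefficientwise (`s59ej_oldEig_resA`, …).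
-/
import Mathlib
import Fermat.Agent.Lib.S59.EJointF
import Fermat.Agent.Lib.S59.EJointL

set_option autoImplicit false
set_option linter.unusedSectionVars false
set_option linter.unusedVariables false
set_option linter.style.haveILetI false

noncomputable section

namespace Fermat.Agent.Lib.S59

section OldEig

variable {𝒪 : Type*} [CommRing 𝒪]
  {Δ₁ : Type*} [CommGroup Δ₁] [Fintype Δ₁] {Y₁ : Type*} [AddCommGroup Y₁] [Module 𝒪 Y₁]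
  (ρ₁ : Δ₁ →* Module.End 𝒪 Y₁) (C₁ : Subgroup Δ₁) (ψ₁ : Δ₁ →* 𝒪ˣ)
  {T₁ : Type*} [CommRing T₁] [Algebra 𝒪 T₁] [Module T₁ Y₁] [IsScalarTower 𝒪 T₁ Y₁]
  (hTρ₁ : ∀ (t : T₁) (δ : Δ₁) (y : Y₁), t • ρ₁ δ y = ρ₁ δ (t • y))
  {Δ₂ : Type*} [CommGroup Δ₂] [Fintype Δ₂] {Y₂ : Type*} [AddCommGroup Y₂] [Module 𝒪 Y₂]
  (ρ₂ : Δ₂ →* Module.End 𝒪 Y₂) (C₂ : Subgroup Δ₂) (ψ₂ : Δ₂ →* 𝒪ˣ)
  {T₂ : Type*} [CommRing T₂] [Algebra 𝒪 T₂] [Module T₂ Y₂] [IsScalarTower 𝒪 T₂ Y₂]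
  (hTρ₂ : ∀ (t : T₂) (δ : Δ₂) (y : Y₂), t • ρ₂ δ y = ρ₂ δ (t • y))
  (D₀ : s59t_Old 𝒪 Y₁ Y₂)
  -- the joint ring
  {σ : Type*} [DecidableEq σ] {T : Type*} [CommRing T] (s₁ : T →+* T₁) (s₂ : T →+* T₂)
  {P₁ P₂ : Type*} [AddCommGroup P₁] [AddCommGroup P₂] [Module (MvPowerSeries σ T) P₁]
  [Module (MvPowerSeries σ T) P₂]
  (e₁ : P₁ ≃+ s59t_PS σ (s59t_EigT ρ₁ C₁ ψ₁ hTρ₁))
  (e₂ : P₂ ≃+ s59t_PS σ (s59t_EigT ρ₂ C₂ ψ₂ hTρ₂))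
  (he₁ : ∀ (a : MvPowerSeries σ T) (y : P₁), e₁ (a • y) = MvPowerSeries.map s₁ a • e₁ y)
  (he₂ : ∀ (a : MvPowerSeries σ T) (y : P₂), e₂ (a • y) = MvPowerSeries.map s₂ a • e₂ y)
  -- semilinearity of the seven operators
  (hsA : ∀ (t : T) (y : Y₁), D₀.resA (s₁ t • y) = s₂ t • D₀.resA y)
  (hsB : ∀ (t : T) (y : Y₁), D₀.resB (s₁ t • y) = s₂ t • D₀.resB y)
  (hsCA : ∀ (t : T) (z : Y₂), D₀.corA (s₂ t • z) = s₁ t • D₀.corA z)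
  (hsCB : ∀ (t : T) (z : Y₂), D₀.corB (s₂ t • z) = s₁ t • D₀.corB z)
  (hsT : ∀ (t : T) (y : Y₁), D₀.T (s₁ t • y) = s₁ t • D₀.T y)
  (hsU : ∀ (t : T) (z : Y₂), D₀.U (s₂ t • z) = s₂ t • D₀.U z)
  (hsw : ∀ (t : T) (z : Y₂), D₀.w (s₂ t • z) = s₂ t • D₀.w z)
  -- the eigen-parts are preserved
  (hfA : ∀ y ∈ s59t_eig ρ₁ C₁ ψ₁, D₀.resA y ∈ s59t_eig ρ₂ C₂ ψ₂)
  (hfB : ∀ y ∈ s59t_eig ρ₁ C₁ ψ₁, D₀.resB y ∈ s59t_eig ρ₂ C₂ ψ₂)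
  (hfCA : ∀ z ∈ s59t_eig ρ₂ C₂ ψ₂, D₀.corA z ∈ s59t_eig ρ₁ C₁ ψ₁)
  (hfCB : ∀ z ∈ s59t_eig ρ₂ C₂ ψ₂, D₀.corB z ∈ s59t_eig ρ₁ C₁ ψ₁)
  (hfT : ∀ y ∈ s59t_eig ρ₁ C₁ ψ₁, D₀.T y ∈ s59t_eig ρ₁ C₁ ψ₁)
  (hfU : ∀ z ∈ s59t_eig ρ₂ C₂ ψ₂, D₀.U z ∈ s59t_eig ρ₂ C₂ ψ₂)
  (hfw : ∀ z ∈ s59t_eig ρ₂ C₂ ψ₂, D₀.w z ∈ s59t_eig ρ₂ C₂ ψ₂)
  -- the scalar `q`
  (q : T) (hq : ∀ y : Y₁, s₁ q • y = D₀.qq • y)

/-- **the old/new package of the framed eigen-parts over the joint ring.** -/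
def s59ej_oldEig : s59t_Old (MvPowerSeries σ T) P₁ P₂ :=
  s59ej_oldPS s₁ s₂ e₁ e₂ he₁ he₂ q
    (s59ej_eigMap ρ₁ C₁ ψ₁ hTρ₁ ρ₂ C₂ ψ₂ hTρ₂ D₀.resA hfA)
    (s59ej_eigMap ρ₁ C₁ ψ₁ hTρ₁ ρ₂ C₂ ψ₂ hTρ₂ D₀.resB hfB)
    (s59ej_eigMap ρ₂ C₂ ψ₂ hTρ₂ ρ₁ C₁ ψ₁ hTρ₁ D₀.corA hfCA)
    (s59ej_eigMap ρ₂ C₂ ψ₂ hTρ₂ ρ₁ C₁ ψ₁ hTρ₁ D₀.corB hfCB)
    (s59ej_eigMap ρ₁ C₁ ψ₁ hTρ₁ ρ₁ C₁ ψ₁ hTρ₁ D₀.T hfT)
    (s59ej_eigMap ρ₂ C₂ ψ₂ hTρ₂ ρ₂ C₂ ψ₂ hTρ₂ D₀.U hfU)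
    (s59ej_eigMap ρ₂ C₂ ψ₂ hTρ₂ ρ₂ C₂ ψ₂ hTρ₂ D₀.w hfw)
    (fun t y => by
      apply s59t_EigT_val_injective
      rw [s59ej_eigMap_val, s59t_EigT_val_smul, hsA, s59t_EigT_val_smul, s59ej_eigMap_val])
    (fun t y => by
      apply s59t_EigT_val_injective
      rw [s59ej_eigMap_val, s59t_EigT_val_smul, hsB, s59t_EigT_val_smul, s59ej_eigMap_val])
    (fun t z => by
      apply s59t_EigT_val_injective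
      rw [s59ej_eigMap_val, s59t_EigT_val_smul, hsCA, s59t_EigT_val_smul, s59ej_eigMap_val])
    (fun t z => by
      apply s59t_EigT_val_injective
      rw [s59ej_eigMap_val, s59t_EigT_val_smul, hsCB, s59t_EigT_val_smul, s59ej_eigMap_val])
    (fun t y => by
      apply s59t_EigT_val_injective
      rw [s59ej_eigMap_val, s59t_EigT_val_smul, hsT, s59t_EigT_val_smul, s59ej_eigMap_val])
    (fun t z => by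
      apply s59t_EigT_val_injective
      rw [s59ej_eigMap_val, s59t_EigT_val_smul, hsU, s59t_EigT_val_smul, s59ej_eigMap_val])
    (fun t z => by
      apply s59t_EigT_val_injective
      rw [s59ej_eigMap_val, s59t_EigT_val_smul, hsw, s59t_EigT_val_smul, s59ej_eigMap_val])
    (fun y => by
      apply s59t_EigT_val_injective
      rw [s59ej_eigMap_val, s59ej_eigMap_val, D₀.corA_resA, s59t_EigT_val_smul, map_add, map_one,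
        add_smul, add_smul, one_smul, one_smul, hq])
    (fun y => by
      apply s59t_EigT_val_injective
      rw [s59ej_eigMap_val, s59ej_eigMap_val, D₀.corB_resB, s59t_EigT_val_smul, map_add, map_one,
        add_smul, add_smul, one_smul, one_smul, hq])
    (fun y => by
      apply s59t_EigT_val_injective
      rw [s59ej_eigMap_val, s59ej_eigMap_val, D₀.corA_resB, s59ej_eigMap_val])
    (fun y => by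
      apply s59t_EigT_val_injective
      rw [s59ej_eigMap_val, s59ej_eigMap_val, D₀.corB_resA, s59ej_eigMap_val])
    (fun z => by
      apply s59t_EigT_val_injective
      rw [s59ej_eigMap_val, s59ej_eigMap_val, D₀.w_w])
    (fun y => by
      apply s59t_EigT_val_injective
      rw [s59ej_eigMap_val, s59ej_eigMap_val, s59ej_eigMap_val, D₀.resB_eq])
    (fun z => by
      apply s59t_EigT_val_injective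
      rw [s59ej_eigMap_val, s59ej_eigMap_val, s59ej_eigMap_val, D₀.corB_eq])
    (fun z => by
      apply s59t_EigT_val_injective
      rw [s59ej_eigMap_val, s59ej_eigMap_val, D₀.resA_corB, map_add, s59ej_eigMap_val,
        s59ej_eigMap_val])

theorem s59ej_oldEig_qq :
    (s59ej_oldEig ρ₁ C₁ ψ₁ hTρ₁ ρ₂ C₂ ψ₂ hTρ₂ D₀ s₁ s₂ e₁ e₂ he₁ he₂ hsA hsB hsCA hsCB hsT hsU hsw
      hfA hfB hfCA hfCB hfT hfU hfw q hq).qq = MvPowerSeries.C q := rfl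

/-- `resA` coefficientwise. -/
theorem s59ej_oldEig_resA (x : P₁) :
    e₂ ((s59ej_oldEig ρ₁ C₁ ψ₁ hTρ₁ ρ₂ C₂ ψ₂ hTρ₂ D₀ s₁ s₂ e₁ e₂ he₁ he₂ hsA hsB hsCA hsCB hsT hsU
      hsw hfA hfB hfCA hfCB hfT hfU hfw q hq).resA x) =
      s59ej_PSmap (s59ej_eigMap ρ₁ C₁ ψ₁ hTρ₁ ρ₂ C₂ ψ₂ hTρ₂ D₀.resA hfA) (e₁ x) :=
  AddEquiv.apply_symm_apply e₂ _

/-- `resB` coefficientwise. -/
theorem s59ej_oldEig_resB (x : P₁) :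
    e₂ ((s59ej_oldEig ρ₁ C₁ ψ₁ hTρ₁ ρ₂ C₂ ψ₂ hTρ₂ D₀ s₁ s₂ e₁ e₂ he₁ he₂ hsA hsB hsCA hsCB hsT hsU
      hsw hfA hfB hfCA hfCB hfT hfU hfw q hq).resB x) =
      s59ej_PSmap (s59ej_eigMap ρ₁ C₁ ψ₁ hTρ₁ ρ₂ C₂ ψ₂ hTρ₂ D₀.resB hfB) (e₁ x) :=
  AddEquiv.apply_symm_apply e₂ _

/-- `corA` coefficientwise. -/
theorem s59ej_oldEig_corA (z : P₂) :
    e₁ ((s59ej_oldEig ρ₁ C₁ ψ₁ hTρ₁ ρ₂ C₂ ψ₂ hTρ₂ D₀ s₁ s₂ e₁ e₂ he₁ he₂ hsA hsB hsCA hsCB hsT hsU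
      hsw hfA hfB hfCA hfCB hfT hfU hfw q hq).corA z) =
      s59ej_PSmap (s59ej_eigMap ρ₂ C₂ ψ₂ hTρ₂ ρ₁ C₁ ψ₁ hTρ₁ D₀.corA hfCA) (e₂ z) :=
  AddEquiv.apply_symm_apply e₁ _

/-- `corB` coefficientwise. -/
theorem s59ej_oldEig_corB (z : P₂) :
    e₁ ((s59ej_oldEig ρ₁ C₁ ψ₁ hTρ₁ ρ₂ C₂ ψ₂ hTρ₂ D₀ s₁ s₂ e₁ e₂ he₁ he₂ hsA hsB hsCA hsCB hsT hsU
      hsw hfA hfB hfCA hfCB hfT hfU hfw q hq).corB z) =
      s59ej_PSmap (s59ej_eigMap ρ₂ C₂ ψ₂ hTρ₂ ρ₁ C₁ ψ₁ hTρ₁ D₀.corB hfCB) (e₂ z) :=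
  AddEquiv.apply_symm_apply e₁ _

/-- `D.T = C τ • ·` when `D₀.T = s₁ τ • ·` on `Y₁`. -/
theorem s59ej_oldEig_T (τ : T) (hτ : ∀ y : Y₁, D₀.T y = s₁ τ • y) (y : P₁) :
    (s59ej_oldEig ρ₁ C₁ ψ₁ hTρ₁ ρ₂ C₂ ψ₂ hTρ₂ D₀ s₁ s₂ e₁ e₂ he₁ he₂ hsA hsB hsCA hsCB hsT hsU hsw
      hfA hfB hfCA hfCB hfT hfU hfw q hq).T y = (MvPowerSeries.C τ : MvPowerSeries σ T) • y := by
  refine s59ej_oldPS_T s₁ s₂ e₁ e₂ he₁ he₂ q _ _ _ _ _ _ _ _ _ _ _ _ _ _ _ _ _ _ _ _ _ _ τ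
    (fun x => ?_) y
  apply s59t_EigT_val_injective
  rw [s59ej_eigMap_val, hτ, s59t_EigT_val_smul]

end OldEig

end Fermat.Agent.Lib.S59
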