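/-
Programme R2 (S59), node [PATCH-FLR], `T`-side, **(T1) joint levels, part (D2)** (helper5, prefix `s59efl_`): **ONE STEP OF THE CHAIN AT ONE
TAYLOR–WILES LEVEL, ABSTRACT FORM.**  Two levels `LH`, `LH'` over the joint framed ring `T⟦z⟧`, identified (`e_i`) with the framed eigen-parts
`(Y'_i[C_i = 1])⟦z⟧` of the Taylor–Wiles modules `Y'_i` (`T_i`-modules, `s_i : T → T_i`), with control maps `π_i : Y'_i → Y_i` to the base modules;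
an old/new package `D'` on `(Y'₁, Y'₂)` (semilinear over `(s₁, s₂)`, preserving the eigen-parts) and one `Db` on `(Y₁, Y₂)`, intertwined by `π`;
Eichler–Shimura `D'.T = s₁ τ` on `Y'₁`, [NEW-q] on `Y'₂`, Ihara (T4), (T5) for `Db`.  Output: helper4's `s59f_TStep` with the Gram matrix
`((q+1, τ), (τ, q+1))` and the ideal `span{((q+1)² − τ²)²}` (`s59f_TStep_of_new`, FStepNew.lean).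
-/
import Mathlib
import Fermat.Agent.Lib.S59.EJointL2
import Fermat.Agent.Lib.S59.TLvlAbs
import Fermat.Agent.Lib.S59.FStepNew

set_option autoImplicit false
set_option linter.unusedSectionVars false
set_option linter.unusedVariables false
set_option linter.style.haveILetI false
set_option maxHeartbeats 1600000

noncomputable section

namespace Fermat.Agent.Lib.S59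

open IsLocalRing

section Step

variable {𝒪 : Type} [CommRing 𝒪]
  -- the base modules
  {Δ₁ : Type} [CommGroup Δ₁] [Fintype Δ₁] {Y₁ : Type} [AddCommGroup Y₁] [Module 𝒪 Y₁]
  (ρΔ₁ : Δ₁ →* Module.End 𝒪 Y₁)
  {R₁ : Type} [CommRing R₁] [Algebra 𝒪 R₁] [Module R₁ Y₁] [IsScalarTower 𝒪 R₁ Y₁]
  (hRρ₁ : ∀ (t : R₁) (δ : Δ₁) (y : Y₁), t • ρΔ₁ δ y = ρΔ₁ δ (t • y))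
  {Δ₂ : Type} [CommGroup Δ₂] [Fintype Δ₂] {Y₂ : Type} [AddCommGroup Y₂] [Module 𝒪 Y₂]
  (ρΔ₂ : Δ₂ →* Module.End 𝒪 Y₂)
  {R₂ : Type} [CommRing R₂] [Algebra 𝒪 R₂] [Module R₂ Y₂] [IsScalarTower 𝒪 R₂ Y₂]
  (hRρ₂ : ∀ (t : R₂) (δ : Δ₂) (y : Y₂), t • ρΔ₂ δ y = ρΔ₂ δ (t • y))
  -- the Taylor–Wiles modules
  {Δ'₁ : Type} [CommGroup Δ'₁] [Fintype Δ'₁] {Y'₁ : Type} [AddCommGroup Y'₁] [Module 𝒪 Y'₁]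
  (ρ'₁ : Δ'₁ →* Module.End 𝒪 Y'₁) (C₁ : Subgroup Δ'₁) [Fintype C₁]
  {T₁ : Type} [CommRing T₁] [Algebra 𝒪 T₁] [Module T₁ Y'₁] [IsScalarTower 𝒪 T₁ Y'₁]
  (hTρ₁ : ∀ (t : T₁) (δ : Δ'₁) (y : Y'₁), t • ρ'₁ δ y = ρ'₁ δ (t • y))
  {Δ'₂ : Type} [CommGroup Δ'₂] [Fintype Δ'₂] {Y'₂ : Type} [AddCommGroup Y'₂] [Module 𝒪 Y'₂]
  (ρ'₂ : Δ'₂ →* Module.End 𝒪 Y'₂) (C₂ : Subgroup Δ'₂) [Fintype C₂]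
  {T₂ : Type} [CommRing T₂] [Algebra 𝒪 T₂] [Module T₂ Y'₂] [IsScalarTower 𝒪 T₂ Y'₂]
  (hTρ₂ : ∀ (t : T₂) (δ : Δ'₂) (y : Y'₂), t • ρ'₂ δ y = ρ'₂ δ (t • y))

/-- [NEW-q] on the framed module, coefficientwise. -/
theorem s59efl_hnew
    (D' : s59t_Old 𝒪 Y'₁ Y'₂)
    {σ : Type} [DecidableEq σ] {T : Type} [CommRing T] (s₂ : T →+* T₂)
    {P₂ : Type} [AddCommGroup P₂] [Module (MvPowerSeries σ T) P₂]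
    (e₂ : P₂ ≃+ s59t_PS σ (s59t_EigT ρ'₂ C₂ (1 : Δ'₂ →* 𝒪ˣ) hTρ₂))
    (he₂ : ∀ (a : MvPowerSeries σ T) (y : P₂), e₂ (a • y) = MvPowerSeries.map s₂ a • e₂ y)
    (q τ : T)
    (hnew : ∀ z ∈ s59t_eig ρ'₂ C₂ (1 : Δ'₂ →* 𝒪ˣ), D'.corA z = 0 → D'.corB z = 0 →
      s₂ ((q + 1) ^ 2 - τ ^ 2) • z = 0)
    (z : P₂)
    (hA' : ∀ d, D'.corA (s59t_EigT_val ρ'₂ C₂ (1 : Δ'₂ →* 𝒪ˣ) hTρ₂ (s59t_PScoeff d (e₂ z))) = 0)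
    (hB' : ∀ d, D'.corB (s59t_EigT_val ρ'₂ C₂ (1 : Δ'₂ →* 𝒪ˣ) hTρ₂ (s59t_PScoeff d (e₂ z))) = 0) :
    (((MvPowerSeries.C q : MvPowerSeries σ T) + 1) ^ 2 - (MvPowerSeries.C τ) ^ 2) • z = 0 := by
  have e : (((MvPowerSeries.C q : MvPowerSeries σ T) + 1) ^ 2 - (MvPowerSeries.C τ) ^ 2) =
      MvPowerSeries.C ((q + 1) ^ 2 - τ ^ 2) := by
    rw [map_sub, map_pow, map_pow, map_add, map_one]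
  rw [e]
  apply e₂.injective
  rw [map_zero]
  refine s59t_PS_ext fun d => ?_
  rw [s59ej_C_smul s₂ e₂ he₂]
  apply s59t_EigT_val_injective
  rw [s59t_EigT_val_smul]
  have h0 : s59t_PScoeff d (0 : s59t_PS σ (s59t_EigT ρ'₂ C₂ (1 : Δ'₂ →* 𝒪ˣ) hTρ₂)) = 0 :=
    map_zero _
  rw [h0, map_zero]
  exact hnew _ (s59t_EigT_val_mem ρ'₂ C₂ (1 : Δ'₂ →* 𝒪ˣ) hTρ₂ _) (hA' d) (hB' d)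

/-- **one step of the chain at one Taylor–Wiles level.** -/
theorem s59efl_TStep
    -- the control maps
    (π₁ : Y'₁ →ₗ[𝒪] Y₁)
    (h2₁ : ∀ y ∈ s59t_eig ρ'₁ C₁ (1 : Δ'₁ →* 𝒪ˣ), π₁ y ∈ s59t_eig ρΔ₁ ⊤ (1 : Δ₁ →* 𝒪ˣ))
    (π₂ : Y'₂ →ₗ[𝒪] Y₂)
    (h2₂ : ∀ y ∈ s59t_eig ρ'₂ C₂ (1 : Δ'₂ →* 𝒪ˣ), π₂ y ∈ s59t_eig ρΔ₂ ⊤ (1 : Δ₂ →* 𝒪ˣ))
    -- the packages
    (D' : s59t_Old 𝒪 Y'₁ Y'₂) (Db : s59t_Old 𝒪 Y₁ Y₂)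
    -- the joint ring
    {σ : Type} [DecidableEq σ] {T : Type} [CommRing T] (s₁ : T →+* T₁) (s₂ : T →+* T₂)
    -- the levels
    {S : Type} [CommRing S] [IsLocalRing S] {𝔞 J : Ideal S}
    (LH : s59p_Level S (MvPowerSeries σ T) R₁ (s59t_EigT ρΔ₁ ⊤ (1 : Δ₁ →* 𝒪ˣ) hRρ₁) 𝔞 J)
    (LH' : s59p_Level S (MvPowerSeries σ T) R₂ (s59t_EigT ρΔ₂ ⊤ (1 : Δ₂ →* 𝒪ˣ) hRρ₂) 𝔞 J)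
    (hφ : LH'.φ = LH.φ)
    (e₁ : LH.N ≃+ s59t_PS σ (s59t_EigT ρ'₁ C₁ (1 : Δ'₁ →* 𝒪ˣ) hTρ₁))
    (e₂ : LH'.N ≃+ s59t_PS σ (s59t_EigT ρ'₂ C₂ (1 : Δ'₂ →* 𝒪ˣ) hTρ₂))
    (he₁ : ∀ (a : MvPowerSeries σ T) (y : LH.N), e₁ (a • y) = MvPowerSeries.map s₁ a • e₁ y)
    (he₂ : ∀ (a : MvPowerSeries σ T) (y : LH'.N), e₂ (a • y) = MvPowerSeries.map s₂ a • e₂ y)
    (kπ₁ : ∀ y, LH.π y = s59t_piN ρΔ₁ ρ'₁ C₁ π₁ (1 : Δ₁ →* 𝒪ˣ) (1 : Δ'₁ →* 𝒪ˣ) h2₁ hTρ₁ hRρ₁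
      (s59t_PScoeff 0 (e₁ y)))
    (kπ₂ : ∀ y, LH'.π y = s59t_piN ρΔ₂ ρ'₂ C₂ π₂ (1 : Δ₂ →* 𝒪ˣ) (1 : Δ'₂ →* 𝒪ˣ) h2₂ hTρ₂ hRρ₂
      (s59t_PScoeff 0 (e₂ y)))
    -- semilinearity of the seven operators
    (hsA : ∀ (t : T) (y : Y'₁), D'.resA (s₁ t • y) = s₂ t • D'.resA y)
    (hsB : ∀ (t : T) (y : Y'₁), D'.resB (s₁ t • y) = s₂ t • D'.resB y)
    (hsCA : ∀ (t : T) (z : Y'₂), D'.corA (s₂ t • z) = s₁ t • D'.corA z)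
    (hsCB : ∀ (t : T) (z : Y'₂), D'.corB (s₂ t • z) = s₁ t • D'.corB z)
    (hsT : ∀ (t : T) (y : Y'₁), D'.T (s₁ t • y) = s₁ t • D'.T y)
    (hsU : ∀ (t : T) (z : Y'₂), D'.U (s₂ t • z) = s₂ t • D'.U z)
    (hsw : ∀ (t : T) (z : Y'₂), D'.w (s₂ t • z) = s₂ t • D'.w z)
    -- the eigen-parts are preserved
    (hfA : ∀ y ∈ s59t_eig ρ'₁ C₁ (1 : Δ'₁ →* 𝒪ˣ), D'.resA y ∈ s59t_eig ρ'₂ C₂ (1 : Δ'₂ →* 𝒪ˣ))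
    (hfB : ∀ y ∈ s59t_eig ρ'₁ C₁ (1 : Δ'₁ →* 𝒪ˣ), D'.resB y ∈ s59t_eig ρ'₂ C₂ (1 : Δ'₂ →* 𝒪ˣ))
    (hfCA : ∀ z ∈ s59t_eig ρ'₂ C₂ (1 : Δ'₂ →* 𝒪ˣ), D'.corA z ∈ s59t_eig ρ'₁ C₁ (1 : Δ'₁ →* 𝒪ˣ))
    (hfCB : ∀ z ∈ s59t_eig ρ'₂ C₂ (1 : Δ'₂ →* 𝒪ˣ), D'.corB z ∈ s59t_eig ρ'₁ C₁ (1 : Δ'₁ →* 𝒪ˣ))
    (hfT : ∀ y ∈ s59t_eig ρ'₁ C₁ (1 : Δ'₁ →* 𝒪ˣ), D'.T y ∈ s59t_eig ρ'₁ C₁ (1 : Δ'₁ →* 𝒪ˣ))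
    (hfU : ∀ z ∈ s59t_eig ρ'₂ C₂ (1 : Δ'₂ →* 𝒪ˣ), D'.U z ∈ s59t_eig ρ'₂ C₂ (1 : Δ'₂ →* 𝒪ˣ))
    (hfw : ∀ z ∈ s59t_eig ρ'₂ C₂ (1 : Δ'₂ →* 𝒪ˣ), D'.w z ∈ s59t_eig ρ'₂ C₂ (1 : Δ'₂ →* 𝒪ˣ))
    -- the scalar `q`
    (q : T) (hq : ∀ y : Y'₁, s₁ q • y = D'.qq • y)
    -- the base package preserves the eigen-parts
    (hbA : ∀ y ∈ s59t_eig ρΔ₁ ⊤ (1 : Δ₁ →* 𝒪ˣ), Db.resA y ∈ s59t_eig ρΔ₂ ⊤ (1 : Δ₂ →* 𝒪ˣ))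
    (hbB : ∀ y ∈ s59t_eig ρΔ₁ ⊤ (1 : Δ₁ →* 𝒪ˣ), Db.resB y ∈ s59t_eig ρΔ₂ ⊤ (1 : Δ₂ →* 𝒪ˣ))
    (hbCA : ∀ z ∈ s59t_eig ρΔ₂ ⊤ (1 : Δ₂ →* 𝒪ˣ), Db.corA z ∈ s59t_eig ρΔ₁ ⊤ (1 : Δ₁ →* 𝒪ˣ))
    (hbCB : ∀ z ∈ s59t_eig ρΔ₂ ⊤ (1 : Δ₂ →* 𝒪ˣ), Db.corB z ∈ s59t_eig ρΔ₁ ⊤ (1 : Δ₁ →* 𝒪ˣ))
    -- the control maps intertwine the packages
    (hπA : ∀ y, π₂ (D'.resA y) = Db.resA (π₁ y)) (hπB : ∀ y, π₂ (D'.resB y) = Db.resB (π₁ y))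
    (hπCA : ∀ z, π₁ (D'.corA z) = Db.corA (π₂ z)) (hπCB : ∀ z, π₁ (D'.corB z) = Db.corB (π₂ z))
    -- Eichler–Shimura and [NEW-q]
    (τ : T) (hτ : ∀ y : Y'₁, D'.T y = s₁ τ • y)
    (hnew : ∀ z ∈ s59t_eig ρ'₂ C₂ (1 : Δ'₂ →* 𝒪ˣ), D'.corA z = 0 → D'.corB z = 0 →
      s₂ ((q + 1) ^ 2 - τ ^ 2) • z = 0)
    (hT4 : ∀ m₁ m₂ : s59t_EigT ρΔ₁ ⊤ (1 : Δ₁ →* 𝒪ˣ) hRρ₁,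
      s59ej_eigMap ρΔ₁ ⊤ (1 : Δ₁ →* 𝒪ˣ) hRρ₁ ρΔ₂ ⊤ (1 : Δ₂ →* 𝒪ˣ) hRρ₂ Db.resA hbA m₁ +
        s59ej_eigMap ρΔ₁ ⊤ (1 : Δ₁ →* 𝒪ˣ) hRρ₁ ρΔ₂ ⊤ (1 : Δ₂ →* 𝒪ˣ) hRρ₂ Db.resB hbB m₂ ∈
        (((maximalIdeal S).map LH'.φ).map LH'.ψ) •
          (⊤ : Submodule R₂ (s59t_EigT ρΔ₂ ⊤ (1 : Δ₂ →* 𝒪ˣ) hRρ₂)) →
      m₁ ∈ (((maximalIdeal S).map LH.φ).map LH.ψ) •
          (⊤ : Submodule R₁ (s59t_EigT ρΔ₁ ⊤ (1 : Δ₁ →* 𝒪ˣ) hRρ₁)) ∧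
        m₂ ∈ (((maximalIdeal S).map LH.φ).map LH.ψ) •
          (⊤ : Submodule R₁ (s59t_EigT ρΔ₁ ⊤ (1 : Δ₁ →* 𝒪ˣ) hRρ₁)))
    (hT5 : ∀ m₁ m₂ : s59t_EigT ρΔ₁ ⊤ (1 : Δ₁ →* 𝒪ˣ) hRρ₁,
      ∃ m' : s59t_EigT ρΔ₂ ⊤ (1 : Δ₂ →* 𝒪ˣ) hRρ₂,
        s59ej_eigMap ρΔ₂ ⊤ (1 : Δ₂ →* 𝒪ˣ) hRρ₂ ρΔ₁ ⊤ (1 : Δ₁ →* 𝒪ˣ) hRρ₁ Db.corA hbCA m' - m₁ ∈
          (((maximalIdeal S).map LH.φ).map LH.ψ) •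
            (⊤ : Submodule R₁ (s59t_EigT ρΔ₁ ⊤ (1 : Δ₁ →* 𝒪ˣ) hRρ₁)) ∧
        s59ej_eigMap ρΔ₂ ⊤ (1 : Δ₂ →* 𝒪ˣ) hRρ₂ ρΔ₁ ⊤ (1 : Δ₁ →* 𝒪ˣ) hRρ₁ Db.corB hbCB m' - m₂ ∈
          (((maximalIdeal S).map LH.φ).map LH.ψ) •
            (⊤ : Submodule R₁ (s59t_EigT ρΔ₁ ⊤ (1 : Δ₁ →* 𝒪ˣ) hRρ₁)))
    {MQ : Type} [AddCommGroup MQ] [Module R₂ MQ]
    (ρ : s59t_EigT ρΔ₂ ⊤ (1 : Δ₂ →* 𝒪ˣ) hRρ₂ →ₗ[R₂] MQ)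
    (hρ : ∀ m' : s59t_EigT ρΔ₂ ⊤ (1 : Δ₂ →* 𝒪ˣ) hRρ₂, ρ m' = 0 ↔
      ∃ m₁ m₂ : s59t_EigT ρΔ₁ ⊤ (1 : Δ₁ →* 𝒪ˣ) hRρ₁,
        s59ej_eigMap ρΔ₁ ⊤ (1 : Δ₁ →* 𝒪ˣ) hRρ₁ ρΔ₂ ⊤ (1 : Δ₂ →* 𝒪ˣ) hRρ₂ Db.resA hbA m₁ +
          s59ej_eigMap ρΔ₁ ⊤ (1 : Δ₁ →* 𝒪ˣ) hRρ₁ ρΔ₂ ⊤ (1 : Δ₂ →* 𝒪ˣ) hRρ₂ Db.resB hbB m₂ = m') :
    s59f_TStep LH LH' ((MvPowerSeries.C q : MvPowerSeries σ T) + 1) (MvPowerSeries.C τ)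
      (MvPowerSeries.C τ) ((MvPowerSeries.C q : MvPowerSeries σ T) + 1) ρ
      (Ideal.span {(((MvPowerSeries.C q : MvPowerSeries σ T) + 1) ^ 2 -
        (MvPowerSeries.C τ) ^ 2) ^ 2}) := by
  have hTD := s59ej_oldEig_T ρ'₁ C₁ (1 : Δ'₁ →* 𝒪ˣ) hTρ₁ ρ'₂ C₂ (1 : Δ'₂ →* 𝒪ˣ) hTρ₂ D' s₁ s₂
    e₁ e₂ he₁ he₂ hsA hsB hsCA hsCB hsT hsU hsw hfA hfB hfCA hfCB hfT hfU hfw q hq τ hτ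
  refine s59f_TStep_of_new LH LH' hφ
    (s59ej_oldEig ρ'₁ C₁ (1 : Δ'₁ →* 𝒪ˣ) hTρ₁ ρ'₂ C₂ (1 : Δ'₂ →* 𝒪ˣ) hTρ₂ D' s₁ s₂ e₁ e₂ he₁ he₂
      hsA hsB hsCA hsCB hsT hsU hsw hfA hfB hfCA hfCB hfT hfU hfw q hq) (MvPowerSeries.C τ) hTD
    (s59ej_eigMap ρΔ₁ ⊤ (1 : Δ₁ →* 𝒪ˣ) hRρ₁ ρΔ₂ ⊤ (1 : Δ₂ →* 𝒪ˣ) hRρ₂ Db.resA hbA)
    (s59ej_eigMap ρΔ₁ ⊤ (1 : Δ₁ →* 𝒪ˣ) hRρ₁ ρΔ₂ ⊤ (1 : Δ₂ →* 𝒪ˣ) hRρ₂ Db.resB hbB)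
    (s59ej_eigMap ρΔ₂ ⊤ (1 : Δ₂ →* 𝒪ˣ) hRρ₂ ρΔ₁ ⊤ (1 : Δ₁ →* 𝒪ˣ) hRρ₁ Db.corA hbCA)
    (s59ej_eigMap ρΔ₂ ⊤ (1 : Δ₂ →* 𝒪ˣ) hRρ₂ ρΔ₁ ⊤ (1 : Δ₁ →* 𝒪ˣ) hRρ₁ Db.corB hbCB)
    ?_ ?_ ?_ ?_ hT4 hT5 ρ hρ ?_
  · intro x
    rw [kπ₂, kπ₁, s59ej_oldEig_resA, s59ej_PSmap_coeff]
    apply s59t_EigT_val_injective
    rw [s59t_piN_val, s59ej_eigMap_val, s59ej_eigMap_val, s59t_piN_val, hπA]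
  · intro x
    rw [kπ₂, kπ₁, s59ej_oldEig_resB, s59ej_PSmap_coeff]
    apply s59t_EigT_val_injective
    rw [s59t_piN_val, s59ej_eigMap_val, s59ej_eigMap_val, s59t_piN_val, hπB]
  · intro z
    rw [kπ₂, kπ₁, s59ej_oldEig_corA, s59ej_PSmap_coeff]
    apply s59t_EigT_val_injective
    rw [s59t_piN_val, s59ej_eigMap_val, s59ej_eigMap_val, s59t_piN_val, hπCA]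
  · intro z
    rw [kπ₂, kπ₁, s59ej_oldEig_corB, s59ej_PSmap_coeff]
    apply s59t_EigT_val_injective
    rw [s59t_piN_val, s59ej_eigMap_val, s59ej_eigMap_val, s59t_piN_val, hπCB]
  · intro z hA hB
    refine s59efl_hnew ρ'₂ C₂ hTρ₂ D' s₂ e₂ he₂ q τ hnew z (fun d => ?_) (fun d => ?_)
    · have h1 := s59ej_oldEig_corA ρ'₁ C₁ (1 : Δ'₁ →* 𝒪ˣ) hTρ₁ ρ'₂ C₂ (1 : Δ'₂ →* 𝒪ˣ) hTρ₂ D' s₁ s₂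
        e₁ e₂ he₁ he₂ hsA hsB hsCA hsCB hsT hsU hsw hfA hfB hfCA hfCB hfT hfU hfw q hq z
      rw [hA, map_zero] at h1
      have h2 := congrArg (fun m => s59t_EigT_val ρ'₁ C₁ (1 : Δ'₁ →* 𝒪ˣ) hTρ₁ (s59t_PScoeff d m)) h1
      simp only [s59ej_PSmap_coeff, s59ej_eigMap_val, map_zero] at h2
      exact h2.symm
    · have h1 := s59ej_oldEig_corB ρ'₁ C₁ (1 : Δ'₁ →* 𝒪ˣ) hTρ₁ ρ'₂ C₂ (1 : Δ'₂ →* 𝒪ˣ) hTρ₂ D' s₁ s₂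
        e₁ e₂ he₁ he₂ hsA hsB hsCA hsCB hsT hsU hsw hfA hfB hfCA hfCB hfT hfU hfw q hq z
      rw [hB, map_zero] at h1
      have h2 := congrArg (fun m => s59t_EigT_val ρ'₁ C₁ (1 : Δ'₁ →* 𝒪ˣ) hTρ₁ (s59t_PScoeff d m)) h1
      simp only [s59ej_PSmap_coeff, s59ej_eigMap_val, map_zero] at h2
      exact h2.symm

end Step

end Fermat.Agent.Lib.S59
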