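/-
Programme R2 (S59), node [PATCH-FLR], `T`-side, **(T1) joint levels, part (D5)** (helper5, prefix `s59efl_`): **ONE STEP OF THE CHAIN OVER THE JOINT
RING, FROM THE RECORDS.**  Two records `rec₁`, `rec₂ : s59efl_RingRec …`, the transfer map `σl : rec₂.Lv.T → rec₁.Lv.T` of `s59efl_link`
(EFlrLinkB.lean) with its compatibility, the packages `D′` (Taylor–Wiles modules) and `Db` (base modules), Eichler–Shimura (`hES`), [NEW-q]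
(`hNEW`), Ihara (T4)/(T5) modulo `𝔪_𝒪` on the base modules: for EVERY joint ring `T ↠ rec₂.Lv.T` the two levels `s59ej_L0` over `T⟦z⟧` satisfy
helper4's `s59f_TStep` with the Gram matrix `((q+1, τ), (τ, q+1))`, `τ = alg (θ (tr ρ^univ(φ_q)))`, in the EXACT shape of `s59f_TLevelF.hT`.
* `s59efl_level_ideal` : `ψ(φ(𝔪_S)) = 𝔪_𝒪 R` for a level with `𝒪`-linear `φ`, `ψ`;
* `s59efl_mem_smul_top_iff` : `m ∈ 𝔪_𝒪R • M ↔ val m ∈ 𝔪_𝒪 • Y` (`M = Y` with its `R`-structure);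
* `s59efl_step_joint` : the step.
-/
import Mathlib
import Fermat.Agent.Lib.S59.EFlrStep
import Fermat.Agent.Lib.S59.EFlrLinkB
import Fermat.Agent.Lib.S59.EJoint

set_option autoImplicit false
set_option linter.unusedSectionVars false
set_option linter.unusedVariables false
set_option linter.style.haveILetI false
set_option maxHeartbeats 1600000
set_option synthInstance.maxHeartbeats 400000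

noncomputable section

namespace Fermat.Agent.Lib.S59

open IsLocalRing MvPowerSeries

local notation "Γℚ" => (AlgebraicClosure ℚ ≃ₐ[ℚ] AlgebraicClosure ℚ)

section Ideal

variable {𝒪 : Type} [CommRing 𝒪] [IsLocalRing 𝒪] {r : ℕ} {σ : Type} [DecidableEq σ] [Fintype σ]
  {A : Type} [CommRing A] [Algebra 𝒪 A] {R : Type} [CommRing R] [Algebra 𝒪 R]
  {M : Type} [AddCommGroup M] [Module R M]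
  {J : Ideal (MvPowerSeries σ (MvPowerSeries (Fin r) 𝒪))}

/-- **`ψ(φ(𝔪_S)) = 𝔪_𝒪 R`** for a level over `S = 𝒪⟦s⟧⟦z⟧` with `𝒪`-linear structure maps. -/
theorem s59efl_level_ideal
    (L : s59p_Level (MvPowerSeries σ (MvPowerSeries (Fin r) 𝒪)) A R M
      (s59t_frameA σ (RingHom.ker (constantCoeff (σ := Fin r) (R := 𝒪)))) J)
    (hφ𝒪 : ∀ o : 𝒪, L.φ (algebraMap 𝒪 (MvPowerSeries σ (MvPowerSeries (Fin r) 𝒪)) o) =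
      algebraMap 𝒪 A o)
    (hψ𝒪 : ∀ o : 𝒪, L.ψ (algebraMap 𝒪 A o) = algebraMap 𝒪 R o) :
    ((maximalIdeal (MvPowerSeries σ (MvPowerSeries (Fin r) 𝒪))).map L.φ).map L.ψ =
      (maximalIdeal 𝒪).map (algebraMap 𝒪 R) := by
  have hcc : ∀ o : 𝒪, constantCoeff (constantCoeff
      (algebraMap 𝒪 (MvPowerSeries σ (MvPowerSeries (Fin r) 𝒪)) o)) = o := by
    intro o
    rw [MvPowerSeries.algebraMap_apply, constantCoeff_C, MvPowerSeries.algebraMap_apply,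
      constantCoeff_C]
    rfl
  have hunit : ∀ s : MvPowerSeries σ (MvPowerSeries (Fin r) 𝒪),
      s ∈ maximalIdeal (MvPowerSeries σ (MvPowerSeries (Fin r) 𝒪)) ↔
        constantCoeff (constantCoeff s) ∈ maximalIdeal 𝒪 := by
    intro s
    rw [mem_maximalIdeal, mem_maximalIdeal, mem_nonunits_iff, mem_nonunits_iff,
      MvPowerSeries.isUnit_iff_constantCoeff, MvPowerSeries.isUnit_iff_constantCoeff]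
  refine le_antisymm ?_ ?_
  · rw [Ideal.map_map, Ideal.map_le_iff_le_comap]
    intro s hs
    rw [Ideal.mem_comap]
    set o : 𝒪 := constantCoeff (constantCoeff s) with ho
    have h1 : s - algebraMap 𝒪 (MvPowerSeries σ (MvPowerSeries (Fin r) 𝒪)) o ∈
        s59t_frameA σ (RingHom.ker (constantCoeff (σ := Fin r) (R := 𝒪))) := by
      rw [s59t_mem_frameA, RingHom.mem_ker, map_sub, map_sub, hcc, sub_self]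
    have h2 := L.ψ_φ _ h1
    rw [map_sub, map_sub, sub_eq_zero, hφ𝒪, hψ𝒪] at h2
    show L.ψ (L.φ s) ∈ _
    rw [h2]
    exact Ideal.mem_map_of_mem _ ((hunit s).mp hs)
  · rw [Ideal.map_le_iff_le_comap]
    intro o ho
    rw [Ideal.mem_comap, ← hψ𝒪, ← hφ𝒪]
    refine Ideal.mem_map_of_mem _ (Ideal.mem_map_of_mem _ ?_)
    rw [hunit, hcc]
    exact ho

end Ideal

section Mem

variable {𝒪 : Type} [CommRing 𝒪] {Δ : Type} [CommGroup Δ] [Fintype Δ] {Y : Type} [AddCommGroup Y] [Module 𝒪 Y]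
  (ρΔ : Δ →* Module.End 𝒪 Y)
  {R : Type} [CommRing R] [Algebra 𝒪 R] [Module R Y] [IsScalarTower 𝒪 R Y]
  (hRρ : ∀ (t : R) (δ : Δ) (y : Y), t • ρΔ δ y = ρΔ δ (t • y))
  (heig : ∀ y : Y, y ∈ s59t_eig ρΔ ⊤ (1 : Δ →* 𝒪ˣ)) (I : Ideal 𝒪)

include heig in
/-- `m ∈ (I R) • M ↔ val m ∈ I • Y` when the eigen-part is everything. -/
theorem s59efl_mem_smul_top_iff (m : s59t_EigT ρΔ ⊤ (1 : Δ →* 𝒪ˣ) hRρ) :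
    m ∈ (I.map (algebraMap 𝒪 R)) • (⊤ : Submodule R (s59t_EigT ρΔ ⊤ (1 : Δ →* 𝒪ˣ) hRρ)) ↔
      s59t_EigT_val ρΔ ⊤ (1 : Δ →* 𝒪ˣ) hRρ m ∈ I • (⊤ : Submodule 𝒪 Y) := by
  constructor
  · intro h
    refine Submodule.smul_induction_on h ?_ ?_
    · intro a ha m' _
      -- `a ∈ I R`
      refine Submodule.span_induction (p := fun a _ => ∀ m' : s59t_EigT ρΔ ⊤ (1 : Δ →* 𝒪ˣ) hRρ,
        s59t_EigT_val ρΔ ⊤ (1 : Δ →* 𝒪ˣ) hRρ (a • m') ∈ I • (⊤ : Submodule 𝒪 Y)) ?_ ?_ ?_ ?_ ha m'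
      · rintro _ ⟨o, ho, rfl⟩ m''
        rw [algebraMap_smul, map_smul]
        exact Submodule.smul_mem_smul ho Submodule.mem_top
      · intro m''
        rw [zero_smul, map_zero]
        exact Submodule.zero_mem _
      · intro x y _ _ hx hy m''
        rw [add_smul, map_add]
        exact Submodule.add_mem _ (hx m'') (hy m'')
      · intro c x _ hx m''
        rw [smul_eq_mul, mul_smul]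
        have := hx (c • m'')
        rwa [smul_comm] at this
    · intro x y hx hy
      rw [map_add]
      exact Submodule.add_mem _ hx hy
  · intro h
    have key : ∀ y ∈ I • (⊤ : Submodule 𝒪 Y), ∀ hy : y ∈ s59t_eig ρΔ ⊤ (1 : Δ →* 𝒪ˣ),
        s59t_EigT_mk ρΔ ⊤ (1 : Δ →* 𝒪ˣ) hRρ y hy ∈
          (I.map (algebraMap 𝒪 R)) • (⊤ : Submodule R (s59t_EigT ρΔ ⊤ (1 : Δ →* 𝒪ˣ) hRρ)) := by
      intro y hy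
      refine Submodule.smul_induction_on hy ?_ ?_
      · intro o ho y' _ hy'
        have e : s59t_EigT_mk ρΔ ⊤ (1 : Δ →* 𝒪ˣ) hRρ (o • y') hy' =
            algebraMap 𝒪 R o • s59t_EigT_mk ρΔ ⊤ (1 : Δ →* 𝒪ˣ) hRρ y' (heig y') := by
          apply s59t_EigT_val_injective
          rw [algebraMap_smul, map_smul, s59t_EigT_val_mk, s59t_EigT_val_mk]
        rw [e]
        exact Submodule.smul_mem_smul (Ideal.mem_map_of_mem _ ho) Submodule.mem_top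
      · intro x y hx hy hxy
        have e : s59t_EigT_mk ρΔ ⊤ (1 : Δ →* 𝒪ˣ) hRρ (x + y) hxy =
            s59t_EigT_mk ρΔ ⊤ (1 : Δ →* 𝒪ˣ) hRρ x (heig x) +
              s59t_EigT_mk ρΔ ⊤ (1 : Δ →* 𝒪ˣ) hRρ y (heig y) := by
          apply s59t_EigT_val_injective
          rw [map_add, s59t_EigT_val_mk, s59t_EigT_val_mk, s59t_EigT_val_mk]
        rw [e]
        exact Submodule.add_mem _ (hx (heig x)) (hy (heig y))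
    have e : m = s59t_EigT_mk ρΔ ⊤ (1 : Δ →* 𝒪ˣ) hRρ
        (s59t_EigT_val ρΔ ⊤ (1 : Δ →* 𝒪ˣ) hRρ m) (heig _) := by
      apply s59t_EigT_val_injective
      rw [s59t_EigT_val_mk]
    rw [e]
    exact key _ h _

end Mem

section StepJ

variable {𝒪 : Type} [CommRing 𝒪] [IsDomain 𝒪] [IsDiscreteValuationRing 𝒪]
  [IsAdicComplete (maximalIdeal 𝒪) 𝒪] {p n r : ℕ} {σ : Type} [DecidableEq σ] [Fintype σ]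
  {ρbar : ResidualGaloisRep (ResidueField 𝒪)}
  {𝒟 : ∀ ⦃A : Type⦄ [CommRing A] [IsLocalRing A] [Algebra 𝒪 A], GaloisRepAdic A → Prop}
  {DQ : GaloisRep.DeformationRingData 𝒪 ρbar 𝒟} {qv : Fin r → ℕ}
  -- level 1
  {Δ₁ : Type} [CommGroup Δ₁] [Fintype Δ₁] {Y₁ : Type} [AddCommGroup Y₁] [Module 𝒪 Y₁]
  {ρΔ₁ : Δ₁ →* Module.End 𝒪 Y₁}
  {R₁ : Type} [CommRing R₁] [IsLocalRing R₁] [Algebra 𝒪 R₁] [Module R₁ Y₁] [IsScalarTower 𝒪 R₁ Y₁]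
  {hRρ₁ : ∀ (t : R₁) (δ : Δ₁) (y : Y₁), t • ρΔ₁ δ y = ρΔ₁ δ (t • y)}
  {ρR₁ : GaloisRepAdic R₁} {d₁ : ℕ}
  {Δ'₁ : Type} [CommGroup Δ'₁] [Fintype Δ'₁] {Y'₁ : Type} [AddCommGroup Y'₁] [Module 𝒪 Y'₁]
  {ρ'₁ : Δ'₁ →* Module.End 𝒪 Y'₁} {Bq₁ C₁ : Subgroup Δ'₁} [Fintype Bq₁] [Fintype C₁]
  {π₁ : Y'₁ →ₗ[𝒪] Y₁}
  {A₁ : Type} [CommRing A₁] {aM₁ : A₁ →+* Module.End 𝒪 Y'₁}
  {hcomm₁ : ∀ (t : A₁) (β : Bq₁), Commute (aM₁ t) ((ρ'₁.comp Bq₁.subtype) β)}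
  {hTρ₁ : ∀ (t : s59e_adj 𝒪 (s59e_aB aM₁ (ρ'₁.comp Bq₁.subtype) hcomm₁)) (δ : Δ'₁) (y : Y'₁),
    t • ρ'₁ δ y = ρ'₁ δ (t • y)}
  {h2₁ : ∀ y ∈ s59t_eig ρ'₁ C₁ (1 : Δ'₁ →* 𝒪ˣ), π₁ y ∈ s59t_eig ρΔ₁ ⊤ (1 : Δ₁ →* 𝒪ˣ)}
  {g₁ : Fin r → Bq₁} {θ₁ : DQ.R →ₐ[𝒪] s59e_adj 𝒪 aM₁}
  (rec₁ : s59efl_RingRec (p := p) r σ DQ n ρΔ₁ R₁ hRρ₁ ρR₁ d₁ ρ'₁ Bq₁ C₁ π₁ aM₁ hcomm₁ hTρ₁ h2₁ g₁ θ₁ qv)
  -- level 2
  {Δ₂ : Type} [CommGroup Δ₂] [Fintype Δ₂] {Y₂ : Type} [AddCommGroup Y₂] [Module 𝒪 Y₂]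
  {ρΔ₂ : Δ₂ →* Module.End 𝒪 Y₂}
  {R₂ : Type} [CommRing R₂] [IsLocalRing R₂] [Algebra 𝒪 R₂] [Module R₂ Y₂] [IsScalarTower 𝒪 R₂ Y₂]
  {hRρ₂ : ∀ (t : R₂) (δ : Δ₂) (y : Y₂), t • ρΔ₂ δ y = ρΔ₂ δ (t • y)}
  {ρR₂ : GaloisRepAdic R₂} {d₂ : ℕ}
  {Δ'₂ : Type} [CommGroup Δ'₂] [Fintype Δ'₂] {Y'₂ : Type} [AddCommGroup Y'₂] [Module 𝒪 Y'₂]
  {ρ'₂ : Δ'₂ →* Module.End 𝒪 Y'₂} {Bq₂ C₂ : Subgroup Δ'₂} [Fintype Bq₂] [Fintype C₂]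
  {π₂ : Y'₂ →ₗ[𝒪] Y₂}
  {A₂ : Type} [CommRing A₂] {aM₂ : A₂ →+* Module.End 𝒪 Y'₂}
  {hcomm₂ : ∀ (t : A₂) (β : Bq₂), Commute (aM₂ t) ((ρ'₂.comp Bq₂.subtype) β)}
  {hTρ₂ : ∀ (t : s59e_adj 𝒪 (s59e_aB aM₂ (ρ'₂.comp Bq₂.subtype) hcomm₂)) (δ : Δ'₂) (y : Y'₂),
    t • ρ'₂ δ y = ρ'₂ δ (t • y)}
  {h2₂ : ∀ y ∈ s59t_eig ρ'₂ C₂ (1 : Δ'₂ →* 𝒪ˣ), π₂ y ∈ s59t_eig ρΔ₂ ⊤ (1 : Δ₂ →* 𝒪ˣ)}
  {g₂ : Fin r → Bq₂} {θ₂ : DQ.R →ₐ[𝒪] s59e_adj 𝒪 aM₂}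
  (rec₂ : s59efl_RingRec (p := p) r σ DQ n ρΔ₂ R₂ hRρ₂ ρR₂ d₂ ρ'₂ Bq₂ C₂ π₂ aM₂ hcomm₂ hTρ₂ h2₂ g₂ θ₂ qv)
  -- the packages and the transfer map
  (D' : s59t_Old 𝒪 Y'₁ Y'₂) (Db : s59t_Old 𝒪 Y₁ Y₂)
  (σl : rec₂.Lv.T →ₐ[𝒪] rec₁.Lv.T)
  (hσθ : ∀ x, σl (algebraMap rec₂.Lv.T' rec₂.Lv.T (rec₂.Lv.θ x)) =
    algebraMap rec₁.Lv.T' rec₁.Lv.T (rec₁.Lv.θ x))
  (hσc : ∀ t : rec₂.Lv.T, D'.Compat
    ((rec₁.eT (σl t) : s59e_adj 𝒪 (s59e_aB aM₁ (ρ'₁.comp Bq₁.subtype) hcomm₁)) : Module.End 𝒪 Y'₁)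
    ((rec₂.eT t : s59e_adj 𝒪 (s59e_aB aM₂ (ρ'₂.comp Bq₂.subtype) hcomm₂)) : Module.End 𝒪 Y'₂))

include hσθ hσc in
/-- **one step of the chain over the joint ring, from the records.** -/
theorem s59efl_step_joint
    -- the eigen-parts are preserved
    (hfA : ∀ y ∈ s59t_eig ρ'₁ C₁ (1 : Δ'₁ →* 𝒪ˣ), D'.resA y ∈ s59t_eig ρ'₂ C₂ (1 : Δ'₂ →* 𝒪ˣ))
    (hfB : ∀ y ∈ s59t_eig ρ'₁ C₁ (1 : Δ'₁ →* 𝒪ˣ), D'.resB y ∈ s59t_eig ρ'₂ C₂ (1 : Δ'₂ →* 𝒪ˣ))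
    (hfCA : ∀ z ∈ s59t_eig ρ'₂ C₂ (1 : Δ'₂ →* 𝒪ˣ), D'.corA z ∈ s59t_eig ρ'₁ C₁ (1 : Δ'₁ →* 𝒪ˣ))
    (hfCB : ∀ z ∈ s59t_eig ρ'₂ C₂ (1 : Δ'₂ →* 𝒪ˣ), D'.corB z ∈ s59t_eig ρ'₁ C₁ (1 : Δ'₁ →* 𝒪ˣ))
    (hfT : ∀ y ∈ s59t_eig ρ'₁ C₁ (1 : Δ'₁ →* 𝒪ˣ), D'.T y ∈ s59t_eig ρ'₁ C₁ (1 : Δ'₁ →* 𝒪ˣ))
    (hfU : ∀ z ∈ s59t_eig ρ'₂ C₂ (1 : Δ'₂ →* 𝒪ˣ), D'.U z ∈ s59t_eig ρ'₂ C₂ (1 : Δ'₂ →* 𝒪ˣ))
    (hfw : ∀ z ∈ s59t_eig ρ'₂ C₂ (1 : Δ'₂ →* 𝒪ˣ), D'.w z ∈ s59t_eig ρ'₂ C₂ (1 : Δ'₂ →* 𝒪ˣ))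
    (heig₁ : ∀ y : Y₁, y ∈ s59t_eig ρΔ₁ ⊤ (1 : Δ₁ →* 𝒪ˣ))
    (heig₂ : ∀ y : Y₂, y ∈ s59t_eig ρΔ₂ ⊤ (1 : Δ₂ →* 𝒪ˣ))
    -- the control maps intertwine the packages
    (hπA : ∀ y, π₂ (D'.resA y) = Db.resA (π₁ y)) (hπB : ∀ y, π₂ (D'.resB y) = Db.resB (π₁ y))
    (hπCA : ∀ z, π₁ (D'.corA z) = Db.corA (π₂ z)) (hπCB : ∀ z, π₁ (D'.corB z) = Db.corB (π₂ z))
    -- the prime, Eichler–Shimura, [NEW-q]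
    (qn : ℕ) (hqq : D'.qq = (qn : 𝒪)) (φq : Γℚ)
    (hES : ∀ y : Y'₁, D'.T y =
      ((θ₁ (s59i_cpTr DQ.ρ φq) : s59e_adj 𝒪 aM₁) : Module.End 𝒪 Y'₁) y)
    (hNEW : ∀ z ∈ s59t_eig ρ'₂ C₂ (1 : Δ'₂ →* 𝒪ˣ), D'.corA z = 0 → D'.corB z = 0 →
      (((qn : 𝒪) + 1) ^ 2) • z -
        (((θ₂ (s59i_cpTr DQ.ρ φq) : s59e_adj 𝒪 aM₂) : Module.End 𝒪 Y'₂) ^ 2) z = 0)
    -- Ihara and its dual on the base modules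
    (hT4 : ∀ y₁ y₂ : Y₁, Db.resA y₁ + Db.resB y₂ ∈ maximalIdeal 𝒪 • (⊤ : Submodule 𝒪 Y₂) →
      y₁ ∈ maximalIdeal 𝒪 • (⊤ : Submodule 𝒪 Y₁) ∧ y₂ ∈ maximalIdeal 𝒪 • (⊤ : Submodule 𝒪 Y₁))
    (hT5 : ∀ y₁ y₂ : Y₁, ∃ z : Y₂, Db.corA z - y₁ ∈ maximalIdeal 𝒪 • (⊤ : Submodule 𝒪 Y₁) ∧
      Db.corB z - y₂ ∈ maximalIdeal 𝒪 • (⊤ : Submodule 𝒪 Y₁))
    -- the new quotient
    {MQ : Type} [AddCommGroup MQ] [Module R₂ MQ]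
    (ρ : s59t_EigT ρΔ₂ ⊤ (1 : Δ₂ →* 𝒪ˣ) hRρ₂ →ₗ[R₂] MQ)
    (hρ : ∀ m' : s59t_EigT ρΔ₂ ⊤ (1 : Δ₂ →* 𝒪ˣ) hRρ₂, ρ m' = 0 ↔
      ∃ y₁ y₂ : Y₁, Db.resA y₁ + Db.resB y₂ = s59t_EigT_val ρΔ₂ ⊤ (1 : Δ₂ →* 𝒪ˣ) hRρ₂ m')
    -- the joint ring
    {T' : Type} [CommRing T'] [Algebra 𝒪 T']
    {T : Type} [CommRing T] [IsLocalRing T] [IsAdicComplete (maximalIdeal T) T] [Algebra 𝒪 T]
    [Algebra T' T]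
    (θ : DQ.R →ₐ[𝒪] T') (uu : Fin r → Tˣ) (huu : ∀ i, ((uu i : Tˣ) : T) - 1 ∈ maximalIdeal T)
    (s₂ : T →ₐ[𝒪] rec₂.Lv.T) (hs₂ : Function.Surjective s₂)
    (hsu₂ : ∀ i, s₂ ((uu i : Tˣ) : T) = ((rec₂.Lv.uu i : rec₂.Lv.Tˣ) : rec₂.Lv.T))
    (hsθ₂ : ∀ x, s₂ (algebraMap T' T (θ x)) = algebraMap rec₂.Lv.T' rec₂.Lv.T (rec₂.Lv.θ x))
    (hs₁ : Function.Surjective (σl.comp s₂))
    (hsu₁ : ∀ i, (σl.comp s₂) ((uu i : Tˣ) : T) = ((rec₁.Lv.uu i : rec₁.Lv.Tˣ) : rec₁.Lv.T)) :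
    s59f_TStep (s59ej_L0 rec₁.Lv uu huu (σl.comp s₂) hs₁ hsu₁)
      (s59ej_L0 rec₂.Lv uu huu s₂ hs₂ hsu₂)
      (C ((qn : ℕ) : T) + 1 : MvPowerSeries σ T)
      (C (algebraMap T' T (θ (s59i_cpTr DQ.ρ φq))))
      (C (algebraMap T' T (θ (s59i_cpTr DQ.ρ φq))))
      (C ((qn : ℕ) : T) + 1 : MvPowerSeries σ T) ρ
      (Ideal.span {(((C ((qn : ℕ) : T) + 1 : MvPowerSeries σ T)) ^ 2 -
        (C (algebraMap T' T (θ (s59i_cpTr DQ.ρ φq))) : MvPowerSeries σ T) ^ 2) ^ 2}) := by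
  classical
  -- the structure maps to the concrete rings
  set s₁' : T →+* s59e_adj 𝒪 (s59e_aB aM₁ (ρ'₁.comp Bq₁.subtype) hcomm₁) :=
    (rec₁.eT : rec₁.Lv.T →+* s59e_adj 𝒪 (s59e_aB aM₁ (ρ'₁.comp Bq₁.subtype) hcomm₁)).comp
      ((σl.comp s₂ : T →ₐ[𝒪] rec₁.Lv.T) : T →+* rec₁.Lv.T) with hs₁'
  set s₂' : T →+* s59e_adj 𝒪 (s59e_aB aM₂ (ρ'₂.comp Bq₂.subtype) hcomm₂) :=
    (rec₂.eT : rec₂.Lv.T →+* s59e_adj 𝒪 (s59e_aB aM₂ (ρ'₂.comp Bq₂.subtype) hcomm₂)).comp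
      (s₂ : T →+* rec₂.Lv.T) with hs₂'
  have hs₁a : ∀ t, s₁' t = rec₁.eT (σl (s₂ t)) := fun t => rfl
  have hs₂a : ∀ t, s₂' t = rec₂.eT (s₂ t) := fun t => rfl
  have hcomp : ∀ t : T, D'.Compat ((s₁' t : s59e_adj 𝒪 _) : Module.End 𝒪 Y'₁)
      ((s₂' t : s59e_adj 𝒪 _) : Module.End 𝒪 Y'₂) := fun t => hσc (s₂ t)
  -- the trace element
  have hτ₁ : ∀ x : DQ.R, s₁' (algebraMap T' T (θ x)) =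
      s59e_incl aM₁ (ρ'₁.comp Bq₁.subtype) hcomm₁ (θ₁ x) := by
    intro x
    rw [hs₁a, hsθ₂, hσθ, rec₁.k1, rec₁.k2]
  have hτ₂ : ∀ x : DQ.R, s₂' (algebraMap T' T (θ x)) =
      s59e_incl aM₂ (ρ'₂.comp Bq₂.subtype) hcomm₂ (θ₂ x) := by
    intro x
    rw [hs₂a, hsθ₂, rec₂.k1, rec₂.k2]
  refine s59efl_TStep ρΔ₁ hRρ₁ ρΔ₂ hRρ₂ ρ'₁ C₁ hTρ₁ ρ'₂ C₂ hTρ₂ π₁ h2₁ π₂ h2₂ D' Db s₁' s₂'
    (s59ej_L0 rec₁.Lv uu huu (σl.comp s₂) hs₁ hsu₁) (s59ej_L0 rec₂.Lv uu huu s₂ hs₂ hsu₂) rfl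
    rec₁.eN rec₂.eN ?_ ?_ rec₁.k5 rec₂.k5 ?_ ?_ ?_ ?_ ?_ ?_ ?_ hfA hfB hfCA hfCB hfT hfU hfw
    ((qn : ℕ) : T) ?_ (fun y _ => heig₂ _) (fun y _ => heig₂ _) (fun z _ => heig₁ _)
    (fun z _ => heig₁ _) hπA hπB hπCA hπCB (algebraMap T' T (θ (s59i_cpTr DQ.ρ φq))) ?_ ?_ ?_ ?_
    ρ ?_
  · -- `he₁`
    intro a y
    refine (rec₁.k4 (MvPowerSeries.map ((σl.comp s₂ : T →ₐ[𝒪] rec₁.Lv.T) : T →+* rec₁.Lv.T) a)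
      (y : rec₁.Lv.L0.N)).trans ?_
    congr 1
  · -- `he₂`
    intro a y
    refine (rec₂.k4 (MvPowerSeries.map (s₂ : T →+* rec₂.Lv.T) a) (y : rec₂.Lv.L0.N)).trans ?_
    congr 1
  · intro t y
    exact ((hcomp t).resA y).symm
  · intro t y
    exact ((hcomp t).resB y).symm
  · intro t z
    exact ((hcomp t).corA z).symm
  · intro t z
    exact ((hcomp t).corB z).symm
  · intro t y
    exact ((hcomp t).T y).symm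
  · intro t z
    exact ((hcomp t).U z).symm
  · intro t z
    exact ((hcomp t).w z).symm
  · -- `hq`
    intro y
    rw [map_natCast, hqq, Nat.cast_smul_eq_nsmul, Nat.cast_smul_eq_nsmul]
  · -- `hτ`
    intro y
    rw [hτ₁, hES]
    show _ = ((s59e_incl aM₁ (ρ'₁.comp Bq₁.subtype) hcomm₁ (θ₁ (s59i_cpTr DQ.ρ φq)) :
      s59e_adj 𝒪 _) : Module.End 𝒪 Y'₁) y
    rw [s59e_incl_coe]
  · -- `hnew`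
    intro z hz hA hB
    have h := hNEW z hz hA hB
    rw [map_sub, map_pow, map_pow, map_add, map_one, map_natCast, hτ₂, sub_smul]
    have e1 : (((qn : ℕ) : s59e_adj 𝒪 (s59e_aB aM₂ (ρ'₂.comp Bq₂.subtype) hcomm₂)) + 1) ^ 2 • z =
        (((qn : 𝒪) + 1) ^ 2) • z := by
      have : (((qn : ℕ) : s59e_adj 𝒪 (s59e_aB aM₂ (ρ'₂.comp Bq₂.subtype) hcomm₂)) + 1) ^ 2 =
          algebraMap 𝒪 _ (((qn : 𝒪) + 1) ^ 2) := by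
        rw [map_pow, map_add, map_one, map_natCast]
      rw [this, algebraMap_smul]
    have e2 : (s59e_incl aM₂ (ρ'₂.comp Bq₂.subtype) hcomm₂ (θ₂ (s59i_cpTr DQ.ρ φq))) ^ 2 • z =
        (((θ₂ (s59i_cpTr DQ.ρ φq) : s59e_adj 𝒪 aM₂) : Module.End 𝒪 Y'₂) ^ 2) z := by
      rw [s59e_smul_def, SubmonoidClass.coe_pow, s59e_incl_coe]
    rw [e1, e2]
    exact h
  · -- (T4)
    intro m₁ m₂ hm
    rw [s59efl_level_ideal _ (fun o => (s59ej_std (𝒪 := 𝒪) σ uu huu).commutes o)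
      (s59ej_hψ𝒪 rec₂.Lv uu huu s₂ hs₂ hsu₂),
      s59efl_mem_smul_top_iff ρΔ₂ hRρ₂ heig₂] at hm
    rw [s59efl_level_ideal _ (fun o => (s59ej_std (𝒪 := 𝒪) σ uu huu).commutes o)
      (s59ej_hψ𝒪 rec₁.Lv uu huu (σl.comp s₂) hs₁ hsu₁),
      s59efl_mem_smul_top_iff ρΔ₁ hRρ₁ heig₁, s59efl_mem_smul_top_iff ρΔ₁ hRρ₁ heig₁]
    refine hT4 _ _ ?_
    rw [map_add, s59ej_eigMap_val, s59ej_eigMap_val] at hm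
    exact hm
  · -- (T5)
    intro m₁ m₂
    obtain ⟨z, hz1, hz2⟩ := hT5 (s59t_EigT_val ρΔ₁ ⊤ (1 : Δ₁ →* 𝒪ˣ) hRρ₁ m₁)
      (s59t_EigT_val ρΔ₁ ⊤ (1 : Δ₁ →* 𝒪ˣ) hRρ₁ m₂)
    refine ⟨s59t_EigT_mk ρΔ₂ ⊤ (1 : Δ₂ →* 𝒪ˣ) hRρ₂ z (heig₂ z), ?_, ?_⟩
    · rw [s59efl_level_ideal _ (fun o => (s59ej_std (𝒪 := 𝒪) σ uu huu).commutes o)
        (s59ej_hψ𝒪 rec₁.Lv uu huu (σl.comp s₂) hs₁ hsu₁),
        s59efl_mem_smul_top_iff ρΔ₁ hRρ₁ heig₁, map_sub, s59ej_eigMap_val, s59t_EigT_val_mk]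
      exact hz1
    · rw [s59efl_level_ideal _ (fun o => (s59ej_std (𝒪 := 𝒪) σ uu huu).commutes o)
        (s59ej_hψ𝒪 rec₁.Lv uu huu (σl.comp s₂) hs₁ hsu₁),
        s59efl_mem_smul_top_iff ρΔ₁ hRρ₁ heig₁, map_sub, s59ej_eigMap_val, s59t_EigT_val_mk]
      exact hz2
  · -- `hρ`
    intro m'
    rw [hρ m']
    constructor
    · rintro ⟨y₁, y₂, h⟩
      refine ⟨s59t_EigT_mk ρΔ₁ ⊤ (1 : Δ₁ →* 𝒪ˣ) hRρ₁ y₁ (heig₁ y₁),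
        s59t_EigT_mk ρΔ₁ ⊤ (1 : Δ₁ →* 𝒪ˣ) hRρ₁ y₂ (heig₁ y₂), ?_⟩
      apply s59t_EigT_val_injective
      rw [map_add, s59ej_eigMap_val, s59ej_eigMap_val, s59t_EigT_val_mk, s59t_EigT_val_mk]
      exact h
    · rintro ⟨m₁, m₂, h⟩
      refine ⟨s59t_EigT_val ρΔ₁ ⊤ (1 : Δ₁ →* 𝒪ˣ) hRρ₁ m₁,
        s59t_EigT_val ρΔ₁ ⊤ (1 : Δ₁ →* 𝒪ˣ) hRρ₁ m₂, ?_⟩
      rw [← h, map_add, s59ej_eigMap_val, s59ej_eigMap_val]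

end StepJ

end Fermat.Agent.Lib.S59
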