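/-
PROGRAMME R2 = S59, node [FLR], BLOCK (Z1) for helper5 (#3781), part 2 (helper4, prefix `s59f_`):
**the operator `T` of the old/new package `s59f_oldN` IS `θ(tr ρ^univ(Frob_q))` on the part.**

* `s59f_iW`   : the index `(q, σ_q = γ_W)` of `T_q` at level `L`;
* `s59f_eW k` : `e = γ_W ^ k ∈ SL(2, ℤ)` (`= ↑(s59e_tau (s59f_iW hqL) k)`), with `s59f_eW_mem_L : e ∈ Γ₀(L)`,
  `s59f_eW_mem_N' : e ∈ Γ₀(N')`, `s59f_eW_ee : γ_W e e ∈ Γ_{H'}(N')` for `k = (n − 1) m`, `2 m = n + 1`,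
  `(ℤ/N')ˣ / H'` of exponent dividing `n` (so `γ_W^{2k+1} = γ_W^{n²}`): the three binders `he`, `he'`, `hee` of
  `s59f_oldN` / `s59f_oldN_T`, at ANY levels `L`, `N' = L q`, `H`, `H'`;
* `s59f_oldN_T_eq_Tp'` : `(s59f_oldN … (s59f_eW hqL k) …).T = T′_{(q, γ_W)}` (`= ⟨γ_W^k⟩ T_q`);
* **`s59f_oldN_T_level`** : on `s59t_part ε'`, `((s59f_oldN …).restrict hc).T y = θ(tr ρ^univ(σ_q)) y` for EVERY
  Frobenius `σ_q` at `q` (the hypothesis `hτ` of helper5's `s59efl_TStep`).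
-/
import Mathlib
import Fermat.Agent.Lib.S59.FZ1
import Fermat.Agent.Lib.S59.FEps7

set_option autoImplicit false
set_option linter.unusedSectionVars false
set_option linter.unusedVariables false
set_option linter.style.haveILetI false
set_option synthInstance.maxHeartbeats 400000
set_option maxSynthPendingDepth 3
set_option maxHeartbeats 4000000

noncomputable section

namespace Fermat.Agent.Lib.S59

open Fermat.Agent.Lib.S29 Fermat.Agent.Lib.S30 Fermat.Agent.Lib.S48 Fermat.Agent.Lib.PT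
open IsLocalRing TensorProduct Polynomial
open CongruenceSubgroup ModularCurve.Period
open scoped MatrixGroups

local notation "Qbar" => AlgebraicClosure ℚ
local notation "GQ" => (AlgebraicClosure ℚ ≃ₐ[ℚ] AlgebraicClosure ℚ)

section EW

variable {L q : ℕ} [NeZero L] [hq : Fact q.Prime] (hqL : ¬ q ∣ L)

/-- the index `(q, σ_q = γ_W)` of `T_q` at level `L`. -/
def s59f_iW : s59w_TIdx L :=
  ⟨q, hq.out, hqL, s59f_gW hqL, s59f_gW_mem_L hqL, s59f_gW_lr hqL⟩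

@[simp] theorem s59f_iW_ell : (s59f_iW hqL).ell = q := rfl

/-- `e = γ_W ^ k`. -/
def s59f_eW (k : ℕ) : SL(2, ℤ) := ((s59e_tau (s59f_iW hqL) k : Gamma0 L) : SL(2, ℤ))

theorem s59f_eW_eq (k : ℕ) : s59f_eW hqL k = s59f_gW hqL ^ k := by
  unfold s59f_eW s59e_tau
  rw [SubgroupClass.coe_pow]
  rfl

theorem s59f_eW_mem_L (k : ℕ) : s59f_eW hqL k ∈ Gamma0 L := (s59e_tau (s59f_iW hqL) k).2

variable {N' : ℕ} [NeZero N'] (hN' : N' = L * q)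

include hN' in
theorem s59f_eW_mem_N' (k : ℕ) : s59f_eW hqL k ∈ Gamma0 N' := by
  subst hN'
  rw [s59f_eW_eq]
  exact pow_mem (s59f_gW_mem hqL) k

include hN' in
/-- `γ_W e e = γ_W^{n²} ∈ Γ_{H'}(N')`. -/
theorem s59f_eW_ee {H' : Subgroup (ZMod N')ˣ} {n m k : ℕ} (hnm : 2 * m = n + 1)
    (hk : k = (n - 1) * m) (hn : ∀ u : (ZMod N')ˣ, u ^ n ∈ H') :
    s59f_gW hqL * s59f_eW hqL k * s59f_eW hqL k ∈ s48h_GammaH N' H' := by
  subst hN'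
  have hn0 : 0 < n := by omega
  set g : Gamma0 (L * q) := ⟨s59f_gW hqL, s59f_gW_mem hqL⟩ with hg
  have h1 : s59f_gW hqL * s59f_eW hqL k * s59f_eW hqL k = ((g ^ (n * n) : Gamma0 (L * q)) :
      SL(2, ℤ)) := by
    rw [s59f_eW_eq, SubgroupClass.coe_pow, ← s59m_exp_aux hn0 hnm, ← hk, mul_assoc, ← pow_add,
      ← pow_succ']
    show _ = s59f_gW hqL ^ (2 * k + 1)
    congr 1
    omega
  rw [h1]
  refine ⟨(g ^ (n * n)).2, s59t_unitHom (L * q) (g ^ (n * n)), ?_, ?_⟩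
  · rw [map_pow, pow_mul]
    exact hn _
  · rfl

end EW

section PkgT

variable {L q N' : ℕ} [NeZero L] [NeZero N'] [hq : Fact q.Prime] (hqL : ¬ q ∣ L)
  (hN' : N' = L * q) {H : Subgroup (ZMod L)ˣ} {H' : Subgroup (ZMod N')ˣ}
  (hG' : s59f_IsG' L q H (s48h_GammaH N' H'))
  {R : Type*} [CommRing R]

/-- **the operator `T` of the package is the twisted Hecke operator `T′_q = ⟨γ_W^k⟩ T_q`.** -/
theorem s59f_oldN_T_eq_Tp' (k : ℕ) (he' : s59f_eW hqL k ∈ Gamma0 N')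
    (hee : s59f_gW hqL * s59f_eW hqL k * s59f_eW hqL k ∈ s48h_GammaH N' H')
    (y : s48h_Hpar R (s48h_GammaH L H) R) :
    (s59f_oldN hqL hN' hG' R R (s59f_eW hqL k) he' hee).T y =
      s59e_Tp' H R k (s59f_iW hqL) y := by
  rw [s59f_oldN_T hqL hN' hG' (s59f_eW hqL k) he' hee (s59f_eW_mem_L hqL k)]
  rfl

end PkgT

section PkgLevel

variable {L q N' : ℕ} [NeZero L] [NeZero N'] [hq : Fact q.Prime] (hqL : ¬ q ∣ L)
  (hN' : N' = L * q) (H : Subgroup (ZMod L)ˣ) {H' : Subgroup (ZMod N')ˣ}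
  (hG' : s59f_IsG' L q H (s48h_GammaH N' H'))
  {𝒪 : Type} [CommRing 𝒪] [IsDomain 𝒪] [IsDiscreteValuationRing 𝒪]
  [IsAdicComplete (maximalIdeal 𝒪) 𝒪] [Finite (ResidueField 𝒪)] [CharZero 𝒪]
  (ε' : Module.End 𝒪 (s48h_Hpar 𝒪 (s48h_GammaH L H) 𝒪))
  (hεop : ∀ x y, ε' (s59w_op H 𝒪 x y) = s59w_op H 𝒪 x (ε' y))

variable {A : Type} [CommRing A] (a : A →+* Module.End 𝒪 (s48h_Hpar 𝒪 (s48h_GammaH L H) 𝒪)) (k : ℕ)
  (ha : ∀ t, a t ∈ Subring.closure (Set.range (s59e_Tp' H 𝒪 k)))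
  (aM : A →+* Module.End 𝒪 (s59t_part ε'))
  (haM : ∀ t (z : s59t_part ε'), (s59t_part ε').subtype (aM t z) = a t ((s59t_part ε').subtype z))

include hεop ha haM in
/-- **(Z1), package form**: the operator `T` of `(s59f_oldN …).restrict hc` on `s59t_part ε'` (level `L`) is
`θ(tr ρ^univ(σ_q))`, `σ_q` ANY Frobenius at `q` (the hypothesis `hτ` of helper5's `s59efl_TStep`).  The ring
binders are those of `s59f_ES_level` at `M := L`. -/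
theorem s59f_oldN_T_level [IsLocalRing (s59e_adj 𝒪 aM)]
    (p : ℕ) [hpP : Fact p.Prime] (hp2 : p ≠ 2) (hqp : q ≠ p)
    (N : ℕ) [NeZero N] (Q : Finset ℕ)
    (hMeq : L = N * ∏ q ∈ Q, q) (hQ : ∀ q ∈ Q, q.Prime ∧ ¬ q ∣ N)
    {D : ℕ} (hDQ : D = ∏ q ∈ Q, q) (hD : D ∣ L) (hH : s59u_ker L D hD ≤ H)
    {e m : ℕ} (hnm : 2 * m = p ^ e + 1) (hn : ∀ u : (ZMod L)ˣ, u ^ (p ^ e) ∈ H)
    (hk : k = (p ^ e - 1) * m)
    [Algebra ℤ_[p] 𝒪]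
    (hp𝒪 : ((p : ℕ) : 𝒪) ∈ maximalIdeal 𝒪)
    (S : Finset ℕ) (hpS : p ∈ S) (hMS : ∀ r : ℕ, r.Prime → r ∣ L → r ∈ S)
    {ρbar : ResidualGaloisRep (ResidueField 𝒪)}
    {𝒟 : ∀ ⦃A : Type⦄ [CommRing A] [IsLocalRing A] [Algebra 𝒪 A], GaloisRepAdic A → Prop}
    (DQ : GaloisRep.DeformationRingData 𝒪 ρbar 𝒟)
    (θ : DQ.R →ₐ[𝒪] s59e_adj 𝒪 aM) (hθ : Function.Surjective θ)
    (tT' : ℕ → s59e_adj 𝒪 aM)
    (htT' : ∀ i : s59w_TIdx L, i.ell ∉ S → ∀ z : s59t_part ε',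
      (s59t_part ε').subtype (((tT' i.ell : s59e_adj 𝒪 aM) : Module.End 𝒪 (s59t_part ε')) z) =
        s59e_Tp' H 𝒪 k i ((s59t_part ε').subtype z))
    (hfrobT : ∀ ℓ : ℕ, ℓ.Prime → ℓ ∉ S →
      ∀ A : ValuationSubring (AlgebraicClosure ℚ), A.LiesOverPrime ℓ →
      ∀ τ : GQ, A.IsFrobeniusAt τ ℓ →
        (LinearMap.charpoly (DQ.ρ.ρ τ)).map (θ : DQ.R →+* s59e_adj 𝒪 aM) =
          Polynomial.X ^ 2 - Polynomial.C (tT' ℓ) * Polynomial.X +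
            Polynomial.C ((ℓ : s59e_adj 𝒪 aM)))
    -- the package
    (he' : s59f_eW hqL k ∈ Gamma0 N')
    (hee : s59f_gW hqL * s59f_eW hqL k * s59f_eW hqL k ∈ s48h_GammaH N' H')
    (ε'' : Module.End 𝒪 (s48h_Hpar 𝒪 (s48h_GammaH N' H') 𝒪))
    (hc : (s59f_oldN hqL hN' hG' 𝒪 𝒪 (s59f_eW hqL k) he' hee).Compat ε' ε'')
    -- the Frobenius
    (A₀ : ValuationSubring Qbar) (hA₀ : A₀.LiesOverPrime q) (σq : GQ)
    (hσq : A₀.IsFrobeniusAt σq q) :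
    ∀ y : s59t_part ε',
      ((s59f_oldN hqL hN' hG' 𝒪 𝒪 (s59f_eW hqL k) he' hee).restrict hc).T y =
        ((θ (s59i_cpTr DQ.ρ σq) : s59e_adj 𝒪 aM) : Module.End 𝒪 (s59t_part ε')) y := by
  intro y
  have h1 := s59f_ES_level H ε' hεop a k ha aM haM p hp2 N Q hMeq hQ hDQ hD hH hnm hn hk hp𝒪 S hpS
    hMS DQ θ hθ tT' htT' hfrobT (s59f_iW hqL) hqp A₀ hA₀ σq hσq y
  refine Subtype.ext ?_
  refine Eq.trans ?_ h1.symm
  show (s59f_oldN hqL hN' hG' 𝒪 𝒪 (s59f_eW hqL k) he' hee).T (y : s48h_Hpar 𝒪 (s48h_GammaH L H) 𝒪) = _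
  rw [s59f_oldN_T_eq_Tp' hqL hN' hG' k he' hee]
  rfl

end PkgLevel

end Fermat.Agent.Lib.S59
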