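/-
Programme R2 (S59), node [PATCH-FLR], `T`-side, **(T1) joint levels, part (E9)** (helper5, prefix `s59efl_`): **ONE STEP OF THE
CHAIN, CONCRETE FORM.**  (generated by a script.)  Two adjacent levels `N₁`, `N₂ = N₁ q` with their base data (the choices of
`s59e_W_base_pkg`, (B2)) and a Frobenius `φq` at `q`.  Output: a submodule `OldS` of old classes of the base module of level `N₂`,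
CHOSEN BEFORE THE TAYLOR–WILES DATA, such that for all Taylor–Wiles data of the two levels (the choices of `s59ex_W_level`,
`s59efl_level_abs`, `s59efl_trace_facts`; generators `g₁ = push-down of g₂`) there is a transfer map `σl : T₂ ↠ T₁` of the Hecke
rings of the records (compatible with `uu`, `θ`) and, for every projection `ρ` with kernel `OldS` and every joint ring,
`s59f_TStep` holds in the shape of helper4's contract `s59f_TLevelF.hT`.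
Ingredients: helper4's package `s59f_oldN` with (Y) (FEps*), (Z1) `s59f_oldN_T_level`, (Z2) `s59f_NEW_level`, (Z3)
`s59f_ihara_part_top`/`s59f_dual_part_top`; `s59efl_link`, `s59efl_step_joint`; `s59efl_oldN_top_indep` (the base package does
not depend on the normalising element).
NB. The name component `Internal` is deliberate: it puts the theorem on the deny list of the premise-selection extensions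
(`LibrarySuggestions`: symbol frequency, sine qua non), which otherwise walk through this giant statement twice when the `.olean` file is
written (17 min instead of 30 s for `s59efl_base_pkg` under `lake build`).  Likewise the proofs use `choose` and never `obtain` on the main goal
(`rcases` against a giant goal is pathologically slow: > 100 min instead of 40 s).
-/
import Mathlib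
import Fermat.Agent.Lib.S59.EFlrLvl
import Fermat.Agent.Lib.S59.EFlrLinkB
import Fermat.Agent.Lib.S59.EFlrStepB
import Fermat.Agent.Lib.S59.EFlrCompat
import Fermat.Agent.Lib.S59.EFlrConcA
import Fermat.Agent.Lib.S59.EFlrConcB
import Fermat.Agent.Lib.S59.EFlrGen
import Fermat.Agent.Lib.S59.EXLvl
import Fermat.Agent.Lib.S59.FZ1b
import Fermat.Agent.Lib.S59.FZ2b
import Fermat.Agent.Lib.S59.FZ3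

set_option autoImplicit false
set_option linter.unusedSectionVars false
set_option linter.unusedVariables false
set_option linter.style.haveILetI false
set_option maxHeartbeats 0
set_option synthInstance.maxHeartbeats 400000
set_option maxSynthPendingDepth 3
set_option backward.isDefEq.respectTransparency.types true

noncomputable section

namespace Fermat.Agent.Lib.S59

open IsLocalRing CuspForm Polynomial ExtCitation CongruenceSubgroup MvPowerSeries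
open WeierstrassCurve WeierstrassCurve.Affine WeierstrassCurve.Affine.Point
open Fermat.Agent.Lib.S48 Fermat.Agent.Lib.S44
open scoped MatrixGroups

local notation "Γℚ" => (AlgebraicClosure ℚ ≃ₐ[ℚ] AlgebraicClosure ℚ)

/-- **one step of the chain, concrete form.** -/
theorem Internal.s59efl_step_conc (p : ℕ) [Fact p.Prime] (hp2 : p ≠ 2) (W : WeierstrassCurve ℤ) (hΔ : W.Δ ≠ 0)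
    (B : Finset ℕ) (hirr : W.ModRepIsIrreducible p)
    (hB2 : ∀ r : ℕ, r.Prime → ¬ W.IsGoodPrimeFor r → r ∈ B)
    (𝒪 : Type) [CommRing 𝒪] [IsDomain 𝒪] [IsDiscreteValuationRing 𝒪]
    [IsAdicComplete (maximalIdeal 𝒪) 𝒪] [Finite (ResidueField 𝒪)] [CharZero 𝒪]
    [Algebra ℤ_[p] 𝒪] [Module.Finite ℤ_[p] 𝒪]
    (hp𝒪 : ((p : ℕ) : 𝒪) ∈ maximalIdeal 𝒪)
    (σ : Type) [DecidableEq σ] [Fintype σ]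
    -- the two levels
    (N₁ q N₂ : ℕ) [NeZero N₁] [NeZero N₂] [hq : Fact q.Prime] (hN : N₂ = N₁ * q) (hd : N₁ ∣ N₂)
    (hsq : Squarefree N₂) (hqp : q ≠ p)
    (hB1 : ∀ r : ℕ, r.Prime → r ∣ N₂ * p → r ∈ B)
    -- the base data of the level `N₁`
    (e₁ : MvPolynomial ↥(s59t_goodB N₁ B) 𝒪)
    (h1e₁ : 1 - e₁ ∈ s59t_evalIdeal (fun x : ↥(s59t_goodB N₁ B) =>
      s59t_cB (𝒪 := 𝒪) N₁ (fun ℓ => W.apOfModel ℓ) (x : s59w_AIdx N₁)))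
    (hid₁ : (s59t_E0 (⊤ : Subgroup (ZMod N₁)ˣ) B e₁) * (s59t_E0 (⊤ : Subgroup (ZMod N₁)ˣ) B e₁) = (s59t_E0 (⊤ : Subgroup (ZMod N₁)ˣ) B e₁))
    (hnil₁ : ∀ x ∈ s59t_goodB N₁ B, ∃ k : ℕ, ∀ y : (s48h_Hpar 𝒪 (s48h_GammaH N₁ (⊤ : Subgroup (ZMod N₁)ˣ)) 𝒪),
      ((s59w_op (⊤ : Subgroup (ZMod N₁)ˣ) 𝒪 x - s59t_cB (𝒪 := 𝒪) N₁ (fun ℓ => W.apOfModel ℓ) x •
        (1 : Module.End 𝒪 (s48h_Hpar 𝒪 (s48h_GammaH N₁ (⊤ : Subgroup (ZMod N₁)ˣ)) 𝒪))) ^ k) ((s59t_E0 (⊤ : Subgroup (ZMod N₁)ˣ) B e₁) y) ∈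
        (maximalIdeal 𝒪 • ⊤ : Submodule 𝒪 (s48h_Hpar 𝒪 (s48h_GammaH N₁ (⊤ : Subgroup (ZMod N₁)ˣ)) 𝒪)))
    (hρ₁ : ∀ δ y, (s59t_E0 (⊤ : Subgroup (ZMod N₁)ˣ) B e₁) ((s59t_rho N₁ (⊤ : Subgroup (ZMod N₁)ˣ) 𝒪 𝒪) δ y) = (s59t_rho N₁ (⊤ : Subgroup (ZMod N₁)ˣ) 𝒪 𝒪) δ ((s59t_E0 (⊤ : Subgroup (ZMod N₁)ˣ) B e₁) y))
    (a₀₁ : (heckeAlgebra N₁ 2 (↑B : Set ℕ)) →+* Module.End 𝒪 (s48h_Hpar 𝒪 (s48h_GammaH N₁ (⊤ : Subgroup (ZMod N₁)ˣ)) 𝒪))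
    (ha1₀₁ : ∀ (ℓ : ℕ) (hℓ : ℓ.Prime) (hℓN : ¬ ℓ ∣ N₁) (hℓS : ℓ ∉ (↑B : Set ℕ)) (i : s59w_TIdx N₁),
      i.ell = ℓ → a₀₁ (heckeAlgebra.T hℓ hℓN hℓS) = s59e_Tp' (⊤ : Subgroup (ZMod N₁)ˣ) 𝒪 ((p ^ 0 - 1) * ((p ^ 0 + 1) / 2)) i)
    (aM₀₁ : (heckeAlgebra N₁ 2 (↑B : Set ℕ)) →+* Module.End 𝒪 (LinearMap.range (s59t_E0 (⊤ : Subgroup (ZMod N₁)ˣ) B e₁)))
    (haM₀₁ : ∀ t (z : LinearMap.range (s59t_E0 (⊤ : Subgroup (ZMod N₁)ˣ) B e₁)), ((aM₀₁ t z : LinearMap.range (s59t_E0 (⊤ : Subgroup (ZMod N₁)ˣ) B e₁)) :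
      (s48h_Hpar 𝒪 (s48h_GammaH N₁ (⊤ : Subgroup (ZMod N₁)ˣ)) 𝒪)) = a₀₁ t (z : (s48h_Hpar 𝒪 (s48h_GammaH N₁ (⊤ : Subgroup (ZMod N₁)ˣ)) 𝒪)))
    [IsLocalRing (s59e_adj 𝒪 aM₀₁)]
    (hRρ₁ : ∀ (t : s59e_adj 𝒪 aM₀₁) (δ : (s59t_Delta N₁ (⊤ : Subgroup (ZMod N₁)ˣ))) (y : LinearMap.range (s59t_E0 (⊤ : Subgroup (ZMod N₁)ˣ) B e₁)),
      t • (s59t_partRep (s59t_rho N₁ (⊤ : Subgroup (ZMod N₁)ˣ) 𝒪 𝒪) hρ₁) δ y = (s59t_partRep (s59t_rho N₁ (⊤ : Subgroup (ZMod N₁)ˣ) 𝒪 𝒪) hρ₁) δ (t • y))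
    (ρR₁ : GaloisRepAdic (s59e_adj 𝒪 aM₀₁))
    (d₁ : ℕ)
    -- the base data of the level `N₂`
    (e₂ : MvPolynomial ↥(s59t_goodB N₂ B) 𝒪)
    (h1e₂ : 1 - e₂ ∈ s59t_evalIdeal (fun x : ↥(s59t_goodB N₂ B) =>
      s59t_cB (𝒪 := 𝒪) N₂ (fun ℓ => W.apOfModel ℓ) (x : s59w_AIdx N₂)))
    (hid₂ : (s59t_E0 (⊤ : Subgroup (ZMod N₂)ˣ) B e₂) * (s59t_E0 (⊤ : Subgroup (ZMod N₂)ˣ) B e₂) = (s59t_E0 (⊤ : Subgroup (ZMod N₂)ˣ) B e₂))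
    (hnil₂ : ∀ x ∈ s59t_goodB N₂ B, ∃ k : ℕ, ∀ y : (s48h_Hpar 𝒪 (s48h_GammaH N₂ (⊤ : Subgroup (ZMod N₂)ˣ)) 𝒪),
      ((s59w_op (⊤ : Subgroup (ZMod N₂)ˣ) 𝒪 x - s59t_cB (𝒪 := 𝒪) N₂ (fun ℓ => W.apOfModel ℓ) x •
        (1 : Module.End 𝒪 (s48h_Hpar 𝒪 (s48h_GammaH N₂ (⊤ : Subgroup (ZMod N₂)ˣ)) 𝒪))) ^ k) ((s59t_E0 (⊤ : Subgroup (ZMod N₂)ˣ) B e₂) y) ∈
        (maximalIdeal 𝒪 • ⊤ : Submodule 𝒪 (s48h_Hpar 𝒪 (s48h_GammaH N₂ (⊤ : Subgroup (ZMod N₂)ˣ)) 𝒪)))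
    (hρ₂ : ∀ δ y, (s59t_E0 (⊤ : Subgroup (ZMod N₂)ˣ) B e₂) ((s59t_rho N₂ (⊤ : Subgroup (ZMod N₂)ˣ) 𝒪 𝒪) δ y) = (s59t_rho N₂ (⊤ : Subgroup (ZMod N₂)ˣ) 𝒪 𝒪) δ ((s59t_E0 (⊤ : Subgroup (ZMod N₂)ˣ) B e₂) y))
    (a₀₂ : (heckeAlgebra N₂ 2 (↑B : Set ℕ)) →+* Module.End 𝒪 (s48h_Hpar 𝒪 (s48h_GammaH N₂ (⊤ : Subgroup (ZMod N₂)ˣ)) 𝒪))
    (ha1₀₂ : ∀ (ℓ : ℕ) (hℓ : ℓ.Prime) (hℓN : ¬ ℓ ∣ N₂) (hℓS : ℓ ∉ (↑B : Set ℕ)) (i : s59w_TIdx N₂),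
      i.ell = ℓ → a₀₂ (heckeAlgebra.T hℓ hℓN hℓS) = s59e_Tp' (⊤ : Subgroup (ZMod N₂)ˣ) 𝒪 ((p ^ 0 - 1) * ((p ^ 0 + 1) / 2)) i)
    (aM₀₂ : (heckeAlgebra N₂ 2 (↑B : Set ℕ)) →+* Module.End 𝒪 (LinearMap.range (s59t_E0 (⊤ : Subgroup (ZMod N₂)ˣ) B e₂)))
    (haM₀₂ : ∀ t (z : LinearMap.range (s59t_E0 (⊤ : Subgroup (ZMod N₂)ˣ) B e₂)), ((aM₀₂ t z : LinearMap.range (s59t_E0 (⊤ : Subgroup (ZMod N₂)ˣ) B e₂)) :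
      (s48h_Hpar 𝒪 (s48h_GammaH N₂ (⊤ : Subgroup (ZMod N₂)ˣ)) 𝒪)) = a₀₂ t (z : (s48h_Hpar 𝒪 (s48h_GammaH N₂ (⊤ : Subgroup (ZMod N₂)ˣ)) 𝒪)))
    [IsLocalRing (s59e_adj 𝒪 aM₀₂)]
    (hRρ₂ : ∀ (t : s59e_adj 𝒪 aM₀₂) (δ : (s59t_Delta N₂ (⊤ : Subgroup (ZMod N₂)ˣ))) (y : LinearMap.range (s59t_E0 (⊤ : Subgroup (ZMod N₂)ˣ) B e₂)),
      t • (s59t_partRep (s59t_rho N₂ (⊤ : Subgroup (ZMod N₂)ˣ) 𝒪 𝒪) hρ₂) δ y = (s59t_partRep (s59t_rho N₂ (⊤ : Subgroup (ZMod N₂)ˣ) 𝒪 𝒪) hρ₂) δ (t • y))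
    (ρR₂ : GaloisRepAdic (s59e_adj 𝒪 aM₀₂))
    (d₂ : ℕ)
    -- the Frobenius at `q`
    (A₀ : ValuationSubring (AlgebraicClosure ℚ)) (hA₀ : A₀.LiesOverPrime q) (φq : Γℚ)
    (hφq : A₀.IsFrobeniusAt φq q) :
    ∃ OldS : Submodule (s59e_adj 𝒪 aM₀₂) (s59t_EigT (s59t_partRep (s59t_rho N₂ (⊤ : Subgroup (ZMod N₂)ˣ) 𝒪 𝒪) hρ₂) ⊤ (1 : (s59t_Delta N₂ (⊤ : Subgroup (ZMod N₂)ˣ)) →* 𝒪ˣ) hRρ₂),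
      ∀ (r : ℕ) (n : ℕ) (qv : Fin r → ℕ) [NeZero (∏ j, qv j)] (hqinj : Function.Injective qv) (hqv : ∀ i, (qv i).Prime ∧ qv i ∉ B ∧ p ^ (n + 1) ∣ qv i - 1) (aq : ℕ → 𝒪)
        {𝒟 : ∀ ⦃A : Type⦄ [CommRing A] [IsLocalRing A] [Algebra 𝒪 A], GaloisRepAdic A → Prop}
        (DQ : GaloisRep.DeformationRingData 𝒪 (s59i_rhobarW W p hΔ 𝒪 hp𝒪) 𝒟)
        [NeZero (N₁ * ∏ j, qv j)]
        [NeZero (N₂ * ∏ j, qv j)]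
        [NeZero (N₁ * ∏ q ∈ Finset.univ.image qv, q ^ 2)]
        [NeZero (N₂ * ∏ q ∈ Finset.univ.image qv, q ^ 2)]
        -- the Taylor–Wiles data of the level `N₁`
        (e₀₁ : MvPolynomial ↥(s59t_goodB (N₁ * ∏ j, qv j) B) 𝒪)
        (G₁ : MvPolynomial (s59w_AIdx (N₁ * ∏ j, qv j) ⊕ ℕ) 𝒪)
        (hXl₁ : s59ex_LvlX (N₁ * ∏ j, qv j) (s59t_Hmul N₁ (∏ j, qv j) (⊤ : Subgroup (ZMod N₁)ˣ) (s59t_KQ (p ^ n) qv)) aq (s59t_goodB (N₁ * ∏ j, qv j) B)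
      (s59t_cB (𝒪 := 𝒪) (N₁ * ∏ j, qv j) (fun ℓ => W.apOfModel ℓ)) (List.ofFn qv) e₀₁ G₁)
        (a₁ : (heckeAlgebra (N₁ * ∏ q ∈ Finset.univ.image qv, q ^ 2) 2 (↑(B ∪ Finset.univ.image qv) : Set ℕ)) →+* Module.End 𝒪 (s48h_Hpar 𝒪 (s48h_GammaH (N₁ * ∏ j, qv j) (s59t_Hmul N₁ (∏ j, qv j) (⊤ : Subgroup (ZMod N₁)ˣ) (s59t_KQ (p ^ n) qv))) 𝒪))
        (ha1₁ : ∀ (ℓ : ℕ) (hℓ : ℓ.Prime) (hℓN : ¬ ℓ ∣ (N₁ * ∏ q ∈ Finset.univ.image qv, q ^ 2))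
      (hℓS : ℓ ∉ (↑(B ∪ Finset.univ.image qv) : Set ℕ)) (i : s59w_TIdx (N₁ * ∏ j, qv j)),
      i.ell = ℓ → a₁ (heckeAlgebra.T hℓ hℓN hℓS) = s59e_Tp' (s59t_Hmul N₁ (∏ j, qv j) (⊤ : Subgroup (ZMod N₁)ˣ) (s59t_KQ (p ^ n) qv)) 𝒪 ((p ^ (0 + n) - 1) * ((p ^ (0 + n) + 1) / 2)) i)
        (ha2₁ : ∀ t, a₁ t ∈ Subring.closure (Set.range (s59e_Tp' (s59t_Hmul N₁ (∏ j, qv j) (⊤ : Subgroup (ZMod N₁)ˣ) (s59t_KQ (p ^ n) qv)) 𝒪 ((p ^ (0 + n) - 1) * ((p ^ (0 + n) + 1) / 2)))))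
        (aM₁ : (heckeAlgebra (N₁ * ∏ q ∈ Finset.univ.image qv, q ^ 2) 2 (↑(B ∪ Finset.univ.image qv) : Set ℕ)) →+* Module.End 𝒪 (LinearMap.range (s59t_actH (N₁ * ∏ j, qv j) aq (dvd_refl (N₁ * ∏ j, qv j)) (s59t_Hmul N₁ (∏ j, qv j) (⊤ : Subgroup (ZMod N₁)ˣ) (s59t_KQ (p ^ n) qv)) (G₁ * s59t_jG 𝒪 (s59t_goodB (N₁ * ∏ j, qv j) B) e₀₁))))
        (haM₁ : ∀ t (z : LinearMap.range (s59t_actH (N₁ * ∏ j, qv j) aq (dvd_refl (N₁ * ∏ j, qv j)) (s59t_Hmul N₁ (∏ j, qv j) (⊤ : Subgroup (ZMod N₁)ˣ) (s59t_KQ (p ^ n) qv)) (G₁ * s59t_jG 𝒪 (s59t_goodB (N₁ * ∏ j, qv j) B) e₀₁))), ((aM₁ t z : LinearMap.range (s59t_actH (N₁ * ∏ j, qv j) aq (dvd_refl (N₁ * ∏ j, qv j)) (s59t_Hmul N₁ (∏ j, qv j) (⊤ : Subgroup (ZMod N₁)ˣ) (s59t_KQ (p ^ n) qv)) (G₁ * s59t_jG 𝒪 (s59t_goodB (N₁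 * ∏ j, qv j) B) e₀₁))) : (s48h_Hpar 𝒪 (s48h_GammaH (N₁ * ∏ j, qv j) (s59t_Hmul N₁ (∏ j, qv j) (⊤ : Subgroup (ZMod N₁)ˣ) (s59t_KQ (p ^ n) qv))) 𝒪)) =
      a₁ t (z : (s48h_Hpar 𝒪 (s48h_GammaH (N₁ * ∏ j, qv j) (s59t_Hmul N₁ (∏ j, qv j) (⊤ : Subgroup (ZMod N₁)ˣ) (s59t_KQ (p ^ n) qv))) 𝒪)))
        [IsLocalRing (s59e_adj 𝒪 aM₁)]
        (θ₁ : DQ.R →ₐ[𝒪] s59e_adj 𝒪 aM₁)
        (hθ₁ : Function.Surjective θ₁)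
        (hfrobT₁ : ∀ ℓ : ℕ, ℓ.Prime → ℓ ∉ (B ∪ Finset.univ.image qv) →
      ∀ A' : ValuationSubring (AlgebraicClosure ℚ), A'.LiesOverPrime ℓ →
      ∀ τ : Γℚ, A'.IsFrobeniusAt τ ℓ →
        (LinearMap.charpoly (DQ.ρ.ρ τ)).map (θ₁ : DQ.R →+* s59e_adj 𝒪 aM₁) =
          Polynomial.X ^ 2 - Polynomial.C (s59e_tOf (↑(B ∪ Finset.univ.image qv) : Set ℕ) aM₁ ℓ) * Polynomial.X +
            Polynomial.C ((ℓ : s59e_adj 𝒪 aM₁)))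
        (hρ'₁ : ∀ δ y, (s59t_actH (N₁ * ∏ j, qv j) aq (dvd_refl (N₁ * ∏ j, qv j)) (s59t_Hmul N₁ (∏ j, qv j) (⊤ : Subgroup (ZMod N₁)ˣ) (s59t_KQ (p ^ n) qv)) (G₁ * s59t_jG 𝒪 (s59t_goodB (N₁ * ∏ j, qv j) B) e₀₁)) ((s59t_rho (N₁ * ∏ j, qv j) (s59t_Hmul N₁ (∏ j, qv j) (⊤ : Subgroup (ZMod N₁)ˣ) (s59t_KQ (p ^ n) qv)) 𝒪 𝒪) δ y) = (s59t_rho (N₁ * ∏ j, qv j) (s59t_Hmul N₁ (∏ j, qv j) (⊤ : Subgroup (ZMod N₁)ˣ) (s59t_KQ (p ^ n) qv)) 𝒪 𝒪) δ ((s59t_actH (N₁ * ∏ j, qv j) aq (dvd_refl (N₁ * ∏ j, qv j)) (s59t_Hmul N₁ (∏ j, qv j) (⊤ : Subgroup (ZMod N₁)ˣ) (s59t_KQ (p ^ n) qv)) (G₁ * s59t_jG 𝒪 (s59t_goodB (N₁ * ∏ j, qv j) B) e₀₁)) y))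
        (π₁ : s59t_part (s59t_actH (N₁ * ∏ j, qv j) aq (dvd_refl (N₁ * ∏ j, qv j)) (s59t_Hmul N₁ (∏ j, qv j) (⊤ : Subgroup (ZMod N₁)ˣ) (s59t_KQ (p ^ n) qv)) (G₁ * s59t_jG 𝒪 (s59t_goodB (N₁ * ∏ j, qv j) B) e₀₁)) →ₗ[𝒪] s59t_part (s59t_E0 (⊤ : Subgroup (ZMod N₁)ˣ) B e₁))
        (hcomm₁ : ∀ (t : (heckeAlgebra (N₁ * ∏ q ∈ Finset.univ.image qv, q ^ 2) 2 (↑(B ∪ Finset.univ.image qv) : Set ℕ))) (β : (s59t_BQ N₁ (∏ j, qv j) (⊤ : Subgroup (ZMod N₁)ˣ) (s59t_KQ (p ^ n) qv))),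
      Commute (aM₁ t) (((s59t_partRep (s59t_rho (N₁ * ∏ j, qv j) (s59t_Hmul N₁ (∏ j, qv j) (⊤ : Subgroup (ZMod N₁)ˣ) (s59t_KQ (p ^ n) qv)) 𝒪 𝒪) hρ'₁).comp (s59t_BQ N₁ (∏ j, qv j) (⊤ : Subgroup (ZMod N₁)ˣ) (s59t_KQ (p ^ n) qv)).subtype) β))
        (hTρ₁ : ∀ (t : s59e_adj 𝒪 (s59e_aB aM₁ ((s59t_partRep (s59t_rho (N₁ * ∏ j, qv j) (s59t_Hmul N₁ (∏ j, qv j) (⊤ : Subgroup (ZMod N₁)ˣ) (s59t_KQ (p ^ n) qv)) 𝒪 𝒪) hρ'₁).comp (s59t_BQ N₁ (∏ j, qv j) (⊤ : Subgroup (ZMod N₁)ˣ) (s59t_KQ (p ^ n) qv)).subtype) hcomm₁)) δ y,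
      t • (s59t_partRep (s59t_rho (N₁ * ∏ j, qv j) (s59t_Hmul N₁ (∏ j, qv j) (⊤ : Subgroup (ZMod N₁)ˣ) (s59t_KQ (p ^ n) qv)) 𝒪 𝒪) hρ'₁) δ y = (s59t_partRep (s59t_rho (N₁ * ∏ j, qv j) (s59t_Hmul N₁ (∏ j, qv j) (⊤ : Subgroup (ZMod N₁)ˣ) (s59t_KQ (p ^ n) qv)) 𝒪 𝒪) hρ'₁) δ (t • y))
        (h2₁ : ∀ y ∈ s59t_eig (s59t_partRep (s59t_rho (N₁ * ∏ j, qv j) (s59t_Hmul N₁ (∏ j, qv j) (⊤ : Subgroup (ZMod N₁)ˣ) (s59t_KQ (p ^ n) qv)) 𝒪 𝒪) hρ'₁) (s59t_CQ N₁ (∏ j, qv j) (⊤ : Subgroup (ZMod N₁)ˣ) (s59t_KQ (p ^ n) qv)) (1 : (s59t_Delta (N₁ * ∏ j, qv j) (s59t_Hmul N₁ (∏ j, qv j) (⊤ : Subgroup (ZMod N₁)ˣ) (s59t_KQ (p ^ n) qv))) →* 𝒪ˣ),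
      π₁ y ∈ s59t_eig (s59t_partRep (s59t_rho N₁ (⊤ : Subgroup (ZMod N₁)ˣ) 𝒪 𝒪) hρ₁) ⊤ (1 : (s59t_Delta N₁ (⊤ : Subgroup (ZMod N₁)ˣ)) →* 𝒪ˣ))
        (hιinj₁ : Function.Injective (s59t_iotaH (s59t_E0 (⊤ : Subgroup (ZMod N₁)ˣ) B e₁) (s59t_actH (N₁ * ∏ j, qv j) aq (dvd_refl (N₁ * ∏ j, qv j)) (s59t_Hmul N₁ (∏ j, qv j) (⊤ : Subgroup (ZMod N₁)ˣ) (s59t_KQ (p ^ n) qv)) (G₁ * s59t_jG 𝒪 (s59t_goodB (N₁ * ∏ j, qv j) B) e₀₁)) (s59t_resGHpar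
      (s59t_GammaHmul_le (N := N₁) (D := ∏ j, qv j) (H := (⊤ : Subgroup (ZMod N₁)ˣ)) (K := s59t_KQ (p ^ n) qv)) 𝒪 𝒪)))
        (hιπ₁ : ∀ y, s59t_iotaH (s59t_E0 (⊤ : Subgroup (ZMod N₁)ˣ) B e₁) (s59t_actH (N₁ * ∏ j, qv j) aq (dvd_refl (N₁ * ∏ j, qv j)) (s59t_Hmul N₁ (∏ j, qv j) (⊤ : Subgroup (ZMod N₁)ˣ) (s59t_KQ (p ^ n) qv)) (G₁ * s59t_jG 𝒪 (s59t_goodB (N₁ * ∏ j, qv j) B) e₀₁)) (s59t_resGHpar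
      (s59t_GammaHmul_le (N := N₁) (D := ∏ j, qv j) (H := (⊤ : Subgroup (ZMod N₁)ˣ)) (K := s59t_KQ (p ^ n) qv)) 𝒪 𝒪) (π₁ y) =
      s59t_normPsi (s59t_partRep (s59t_rho (N₁ * ∏ j, qv j) (s59t_Hmul N₁ (∏ j, qv j) (⊤ : Subgroup (ZMod N₁)ˣ) (s59t_KQ (p ^ n) qv)) 𝒪 𝒪) hρ'₁) (s59t_BQ N₁ (∏ j, qv j) (⊤ : Subgroup (ZMod N₁)ˣ) (s59t_KQ (p ^ n) qv)) 1 y)
        (g₁ : Fin r → (s59t_BQ N₁ (∏ j, qv j) (⊤ : Subgroup (ZMod N₁)ˣ) (s59t_KQ (p ^ n) qv)))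
        (rec₁ : s59efl_RingRec (p := p) r σ DQ n (s59t_partRep (s59t_rho N₁ (⊤ : Subgroup (ZMod N₁)ˣ) 𝒪 𝒪) hρ₁) (s59e_adj 𝒪 aM₀₁) hRρ₁ ρR₁ d₁
      (s59t_partRep (s59t_rho (N₁ * ∏ j, qv j) (s59t_Hmul N₁ (∏ j, qv j) (⊤ : Subgroup (ZMod N₁)ˣ) (s59t_KQ (p ^ n) qv)) 𝒪 𝒪) hρ'₁) (s59t_BQ N₁ (∏ j, qv j) (⊤ : Subgroup (ZMod N₁)ˣ) (s59t_KQ (p ^ n) qv)) (s59t_CQ N₁ (∏ j, qv j) (⊤ : Subgroup (ZMod N₁)ˣ) (s59t_KQ (p ^ n) qv)) π₁ aM₁ hcomm₁ hTρ₁ h2₁ g₁ θ₁ qv)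
        [IsNoetherianRing (s59e_adj 𝒪 aM₁)]
        [IsAdicComplete (maximalIdeal (s59e_adj 𝒪 aM₁)) (s59e_adj 𝒪 aM₁)]
        [IsLocalHom (algebraMap 𝒪 (s59e_adj 𝒪 aM₁))]
        (hres𝒪₁ : Function.Surjective (residue (s59e_adj 𝒪 aM₁) ∘ algebraMap 𝒪 (s59e_adj 𝒪 aM₁)))
        (hθl₁ : IsLocalHom (θ₁ : DQ.R →+* s59e_adj 𝒪 aM₁))
        (h𝒟₁ : 𝒟 (DQ.ρ.baseChangeAlong (θ₁ : DQ.R →+* s59e_adj 𝒪 aM₁) hθl₁))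
        (hres₁ : (DQ.ρ.baseChangeAlong (θ₁ : DQ.R →+* s59e_adj 𝒪 aM₁) hθl₁).residual.IsEquiv
      ((s59i_rhobarW W p hΔ 𝒪 hp𝒪).baseChangeAlong (ResidueField.map (algebraMap 𝒪 (s59e_adj 𝒪 aM₁)))))
        -- the Taylor–Wiles data of the level `N₂`
        (e₀₂ : MvPolynomial ↥(s59t_goodB (N₂ * ∏ j, qv j) B) 𝒪)
        (G₂ : MvPolynomial (s59w_AIdx (N₂ * ∏ j, qv j) ⊕ ℕ) 𝒪)
        (hXl₂ : s59ex_LvlX (N₂ * ∏ j, qv j) (s59t_Hmul N₂ (∏ j, qv j) (⊤ : Subgroup (ZMod N₂)ˣ) (s59t_KQ (p ^ n) qv)) aq (s59t_goodB (N₂ * ∏ j, qv j) B)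
      (s59t_cB (𝒪 := 𝒪) (N₂ * ∏ j, qv j) (fun ℓ => W.apOfModel ℓ)) (List.ofFn qv) e₀₂ G₂)
        (a₂ : (heckeAlgebra (N₂ * ∏ q ∈ Finset.univ.image qv, q ^ 2) 2 (↑(B ∪ Finset.univ.image qv) : Set ℕ)) →+* Module.End 𝒪 (s48h_Hpar 𝒪 (s48h_GammaH (N₂ * ∏ j, qv j) (s59t_Hmul N₂ (∏ j, qv j) (⊤ : Subgroup (ZMod N₂)ˣ) (s59t_KQ (p ^ n) qv))) 𝒪))
        (ha1₂ : ∀ (ℓ : ℕ) (hℓ : ℓ.Prime) (hℓN : ¬ ℓ ∣ (N₂ * ∏ q ∈ Finset.univ.image qv, q ^ 2))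
      (hℓS : ℓ ∉ (↑(B ∪ Finset.univ.image qv) : Set ℕ)) (i : s59w_TIdx (N₂ * ∏ j, qv j)),
      i.ell = ℓ → a₂ (heckeAlgebra.T hℓ hℓN hℓS) = s59e_Tp' (s59t_Hmul N₂ (∏ j, qv j) (⊤ : Subgroup (ZMod N₂)ˣ) (s59t_KQ (p ^ n) qv)) 𝒪 ((p ^ (0 + n) - 1) * ((p ^ (0 + n) + 1) / 2)) i)
        (ha2₂ : ∀ t, a₂ t ∈ Subring.closure (Set.range (s59e_Tp' (s59t_Hmul N₂ (∏ j, qv j) (⊤ : Subgroup (ZMod N₂)ˣ) (s59t_KQ (p ^ n) qv)) 𝒪 ((p ^ (0 + n) - 1) * ((p ^ (0 + n) + 1) / 2)))))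
        (aM₂ : (heckeAlgebra (N₂ * ∏ q ∈ Finset.univ.image qv, q ^ 2) 2 (↑(B ∪ Finset.univ.image qv) : Set ℕ)) →+* Module.End 𝒪 (LinearMap.range (s59t_actH (N₂ * ∏ j, qv j) aq (dvd_refl (N₂ * ∏ j, qv j)) (s59t_Hmul N₂ (∏ j, qv j) (⊤ : Subgroup (ZMod N₂)ˣ) (s59t_KQ (p ^ n) qv)) (G₂ * s59t_jG 𝒪 (s59t_goodB (N₂ * ∏ j, qv j) B) e₀₂))))
        (haM₂ : ∀ t (z : LinearMap.range (s59t_actH (N₂ * ∏ j, qv j) aq (dvd_refl (N₂ * ∏ j, qv j)) (s59t_Hmul N₂ (∏ j, qv j) (⊤ : Subgroup (ZMod N₂)ˣ) (s59t_KQ (p ^ n) qv)) (G₂ * s59t_jG 𝒪 (s59t_goodB (N₂ * ∏ j, qv j) B) e₀₂))), ((aM₂ t z : LinearMap.range (s59t_actH (N₂ * ∏ j, qv j) aq (dvd_refl (N₂ * ∏ j, qv j)) (s59t_Hmul N₂ (∏ j, qv j) (⊤ : Subgroup (ZMod N₂)ˣ) (s59t_KQ (p ^ n) qv)) (G₂ * s59t_jG 𝒪 (s59t_goodB (N₂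 * ∏ j, qv j) B) e₀₂))) : (s48h_Hpar 𝒪 (s48h_GammaH (N₂ * ∏ j, qv j) (s59t_Hmul N₂ (∏ j, qv j) (⊤ : Subgroup (ZMod N₂)ˣ) (s59t_KQ (p ^ n) qv))) 𝒪)) =
      a₂ t (z : (s48h_Hpar 𝒪 (s48h_GammaH (N₂ * ∏ j, qv j) (s59t_Hmul N₂ (∏ j, qv j) (⊤ : Subgroup (ZMod N₂)ˣ) (s59t_KQ (p ^ n) qv))) 𝒪)))
        [IsLocalRing (s59e_adj 𝒪 aM₂)]
        (θ₂ : DQ.R →ₐ[𝒪] s59e_adj 𝒪 aM₂)
        (hθ₂ : Function.Surjective θ₂)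
        (hfrobT₂ : ∀ ℓ : ℕ, ℓ.Prime → ℓ ∉ (B ∪ Finset.univ.image qv) →
      ∀ A' : ValuationSubring (AlgebraicClosure ℚ), A'.LiesOverPrime ℓ →
      ∀ τ : Γℚ, A'.IsFrobeniusAt τ ℓ →
        (LinearMap.charpoly (DQ.ρ.ρ τ)).map (θ₂ : DQ.R →+* s59e_adj 𝒪 aM₂) =
          Polynomial.X ^ 2 - Polynomial.C (s59e_tOf (↑(B ∪ Finset.univ.image qv) : Set ℕ) aM₂ ℓ) * Polynomial.X +
            Polynomial.C ((ℓ : s59e_adj 𝒪 aM₂)))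
        (hρ'₂ : ∀ δ y, (s59t_actH (N₂ * ∏ j, qv j) aq (dvd_refl (N₂ * ∏ j, qv j)) (s59t_Hmul N₂ (∏ j, qv j) (⊤ : Subgroup (ZMod N₂)ˣ) (s59t_KQ (p ^ n) qv)) (G₂ * s59t_jG 𝒪 (s59t_goodB (N₂ * ∏ j, qv j) B) e₀₂)) ((s59t_rho (N₂ * ∏ j, qv j) (s59t_Hmul N₂ (∏ j, qv j) (⊤ : Subgroup (ZMod N₂)ˣ) (s59t_KQ (p ^ n) qv)) 𝒪 𝒪) δ y) = (s59t_rho (N₂ * ∏ j, qv j) (s59t_Hmul N₂ (∏ j, qv j) (⊤ : Subgroup (ZMod N₂)ˣ) (s59t_KQ (p ^ n) qv)) 𝒪 𝒪) δ ((s59t_actH (N₂ * ∏ j, qv j) aq (dvd_refl (N₂ * ∏ j, qv j)) (s59t_Hmul N₂ (∏ j, qv j) (⊤ : Subgroup (ZMod N₂)ˣ) (s59t_KQ (p ^ n) qv)) (G₂ * s59t_jG 𝒪 (s59t_goodB (N₂ * ∏ j, qv j) B) e₀₂)) y))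
        (π₂ : s59t_part (s59t_actH (N₂ * ∏ j, qv j) aq (dvd_refl (N₂ * ∏ j, qv j)) (s59t_Hmul N₂ (∏ j, qv j) (⊤ : Subgroup (ZMod N₂)ˣ) (s59t_KQ (p ^ n) qv)) (G₂ * s59t_jG 𝒪 (s59t_goodB (N₂ * ∏ j, qv j) B) e₀₂)) →ₗ[𝒪] s59t_part (s59t_E0 (⊤ : Subgroup (ZMod N₂)ˣ) B e₂))
        (hcomm₂ : ∀ (t : (heckeAlgebra (N₂ * ∏ q ∈ Finset.univ.image qv, q ^ 2) 2 (↑(B ∪ Finset.univ.image qv) : Set ℕ))) (β : (s59t_BQ N₂ (∏ j, qv j) (⊤ : Subgroup (ZMod N₂)ˣ) (s59t_KQ (p ^ n) qv))),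
      Commute (aM₂ t) (((s59t_partRep (s59t_rho (N₂ * ∏ j, qv j) (s59t_Hmul N₂ (∏ j, qv j) (⊤ : Subgroup (ZMod N₂)ˣ) (s59t_KQ (p ^ n) qv)) 𝒪 𝒪) hρ'₂).comp (s59t_BQ N₂ (∏ j, qv j) (⊤ : Subgroup (ZMod N₂)ˣ) (s59t_KQ (p ^ n) qv)).subtype) β))
        (hTρ₂ : ∀ (t : s59e_adj 𝒪 (s59e_aB aM₂ ((s59t_partRep (s59t_rho (N₂ * ∏ j, qv j) (s59t_Hmul N₂ (∏ j, qv j) (⊤ : Subgroup (ZMod N₂)ˣ) (s59t_KQ (p ^ n) qv)) 𝒪 𝒪) hρ'₂).comp (s59t_BQ N₂ (∏ j, qv j) (⊤ : Subgroup (ZMod N₂)ˣ) (s59t_KQ (p ^ n) qv)).subtype) hcomm₂)) δ y,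
      t • (s59t_partRep (s59t_rho (N₂ * ∏ j, qv j) (s59t_Hmul N₂ (∏ j, qv j) (⊤ : Subgroup (ZMod N₂)ˣ) (s59t_KQ (p ^ n) qv)) 𝒪 𝒪) hρ'₂) δ y = (s59t_partRep (s59t_rho (N₂ * ∏ j, qv j) (s59t_Hmul N₂ (∏ j, qv j) (⊤ : Subgroup (ZMod N₂)ˣ) (s59t_KQ (p ^ n) qv)) 𝒪 𝒪) hρ'₂) δ (t • y))
        (h2₂ : ∀ y ∈ s59t_eig (s59t_partRep (s59t_rho (N₂ * ∏ j, qv j) (s59t_Hmul N₂ (∏ j, qv j) (⊤ : Subgroup (ZMod N₂)ˣ) (s59t_KQ (p ^ n) qv)) 𝒪 𝒪) hρ'₂) (s59t_CQ N₂ (∏ j, qv j) (⊤ : Subgroup (ZMod N₂)ˣ) (s59t_KQ (p ^ n) qv)) (1 : (s59t_Delta (N₂ * ∏ j, qv j) (s59t_Hmul N₂ (∏ j, qv j) (⊤ : Subgroup (ZMod N₂)ˣ) (s59t_KQ (p ^ n) qv))) →* 𝒪ˣ),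
      π₂ y ∈ s59t_eig (s59t_partRep (s59t_rho N₂ (⊤ : Subgroup (ZMod N₂)ˣ) 𝒪 𝒪) hρ₂) ⊤ (1 : (s59t_Delta N₂ (⊤ : Subgroup (ZMod N₂)ˣ)) →* 𝒪ˣ))
        (hιinj₂ : Function.Injective (s59t_iotaH (s59t_E0 (⊤ : Subgroup (ZMod N₂)ˣ) B e₂) (s59t_actH (N₂ * ∏ j, qv j) aq (dvd_refl (N₂ * ∏ j, qv j)) (s59t_Hmul N₂ (∏ j, qv j) (⊤ : Subgroup (ZMod N₂)ˣ) (s59t_KQ (p ^ n) qv)) (G₂ * s59t_jG 𝒪 (s59t_goodB (N₂ * ∏ j, qv j) B) e₀₂)) (s59t_resGHpar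
      (s59t_GammaHmul_le (N := N₂) (D := ∏ j, qv j) (H := (⊤ : Subgroup (ZMod N₂)ˣ)) (K := s59t_KQ (p ^ n) qv)) 𝒪 𝒪)))
        (hιπ₂ : ∀ y, s59t_iotaH (s59t_E0 (⊤ : Subgroup (ZMod N₂)ˣ) B e₂) (s59t_actH (N₂ * ∏ j, qv j) aq (dvd_refl (N₂ * ∏ j, qv j)) (s59t_Hmul N₂ (∏ j, qv j) (⊤ : Subgroup (ZMod N₂)ˣ) (s59t_KQ (p ^ n) qv)) (G₂ * s59t_jG 𝒪 (s59t_goodB (N₂ * ∏ j, qv j) B) e₀₂)) (s59t_resGHpar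
      (s59t_GammaHmul_le (N := N₂) (D := ∏ j, qv j) (H := (⊤ : Subgroup (ZMod N₂)ˣ)) (K := s59t_KQ (p ^ n) qv)) 𝒪 𝒪) (π₂ y) =
      s59t_normPsi (s59t_partRep (s59t_rho (N₂ * ∏ j, qv j) (s59t_Hmul N₂ (∏ j, qv j) (⊤ : Subgroup (ZMod N₂)ˣ) (s59t_KQ (p ^ n) qv)) 𝒪 𝒪) hρ'₂) (s59t_BQ N₂ (∏ j, qv j) (⊤ : Subgroup (ZMod N₂)ˣ) (s59t_KQ (p ^ n) qv)) 1 y)
        (g₂ : Fin r → (s59t_BQ N₂ (∏ j, qv j) (⊤ : Subgroup (ZMod N₂)ˣ) (s59t_KQ (p ^ n) qv)))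
        (rec₂ : s59efl_RingRec (p := p) r σ DQ n (s59t_partRep (s59t_rho N₂ (⊤ : Subgroup (ZMod N₂)ˣ) 𝒪 𝒪) hρ₂) (s59e_adj 𝒪 aM₀₂) hRρ₂ ρR₂ d₂
      (s59t_partRep (s59t_rho (N₂ * ∏ j, qv j) (s59t_Hmul N₂ (∏ j, qv j) (⊤ : Subgroup (ZMod N₂)ˣ) (s59t_KQ (p ^ n) qv)) 𝒪 𝒪) hρ'₂) (s59t_BQ N₂ (∏ j, qv j) (⊤ : Subgroup (ZMod N₂)ˣ) (s59t_KQ (p ^ n) qv)) (s59t_CQ N₂ (∏ j, qv j) (⊤ : Subgroup (ZMod N₂)ˣ) (s59t_KQ (p ^ n) qv)) π₂ aM₂ hcomm₂ hTρ₂ h2₂ g₂ θ₂ qv)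
        (hg : ∀ i, g₁ i = s59efl_pushG hd (p ^ n) qv g₂ i),
      ∃ σl : rec₂.Lv.T →ₐ[𝒪] rec₁.Lv.T, Function.Surjective σl ∧
      (∀ i, σl (((rec₂.Lv.uu i : rec₂.Lv.Tˣ) : rec₂.Lv.T)) =
        ((rec₁.Lv.uu i : rec₁.Lv.Tˣ) : rec₁.Lv.T)) ∧
      (∀ x, σl (algebraMap rec₂.Lv.T' rec₂.Lv.T (rec₂.Lv.θ x)) =
        algebraMap rec₁.Lv.T' rec₁.Lv.T (rec₁.Lv.θ x)) ∧
        ∀ {MQ : Type} [AddCommGroup MQ] [Module (s59e_adj 𝒪 aM₀₂) MQ]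
          (ρ : s59t_EigT (s59t_partRep (s59t_rho N₂ (⊤ : Subgroup (ZMod N₂)ˣ) 𝒪 𝒪) hρ₂) ⊤ (1 : (s59t_Delta N₂ (⊤ : Subgroup (ZMod N₂)ˣ)) →* 𝒪ˣ) hRρ₂ →ₗ[s59e_adj 𝒪 aM₀₂] MQ)
          (hρ : ∀ m', ρ m' = 0 ↔ m' ∈ OldS)
          {T' : Type} [CommRing T'] [Algebra 𝒪 T']
          {T : Type} [CommRing T] [IsLocalRing T] [IsAdicComplete (maximalIdeal T) T] [Algebra 𝒪 T]
          [Algebra T' T]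
          (θ : DQ.R →ₐ[𝒪] T') (uu : Fin r → Tˣ) (huu : ∀ i, ((uu i : Tˣ) : T) - 1 ∈ maximalIdeal T)
          (s₂ : T →ₐ[𝒪] rec₂.Lv.T) (hs₂ : Function.Surjective s₂)
          (hsu₂ : ∀ i, s₂ ((uu i : Tˣ) : T) = ((rec₂.Lv.uu i : rec₂.Lv.Tˣ) : rec₂.Lv.T))
          (hsθ₂ : ∀ x, s₂ (algebraMap T' T (θ x)) = algebraMap rec₂.Lv.T' rec₂.Lv.T (rec₂.Lv.θ x))
          (hs₁ : Function.Surjective (σl.comp s₂))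
          (hsu₁ : ∀ i, (σl.comp s₂) ((uu i : Tˣ) : T) = ((rec₁.Lv.uu i : rec₁.Lv.Tˣ) : rec₁.Lv.T)),
          s59f_TStep (s59ej_L0 rec₁.Lv uu huu (σl.comp s₂) hs₁ hsu₁)
            (s59ej_L0 rec₂.Lv uu huu s₂ hs₂ hsu₂)
            (MvPowerSeries.C ((q : ℕ) : T) + 1 : MvPowerSeries σ T)
            (MvPowerSeries.C (algebraMap T' T (θ (s59i_cpTr DQ.ρ φq))))
            (MvPowerSeries.C (algebraMap T' T (θ (s59i_cpTr DQ.ρ φq))))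
            (MvPowerSeries.C ((q : ℕ) : T) + 1 : MvPowerSeries σ T) ρ
            (Ideal.span {(((MvPowerSeries.C ((q : ℕ) : T) + 1 : MvPowerSeries σ T)) ^ 2 -
              (MvPowerSeries.C (algebraMap T' T (θ (s59i_cpTr DQ.ρ φq))) : MvPowerSeries σ T) ^ 2) ^ 2}) := by
  classical
  subst hN
  have hpP : p.Prime := Fact.out
  have hqP : q.Prime := hq.out
  haveI : CharP (ResidueField 𝒪) p := s59e_charP_residue p hp𝒪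
  -- numerology
  have hcop : Nat.Coprime N₁ q := (Nat.squarefree_mul_iff.mp hsq).1
  have hqN : ¬ q ∣ N₁ := fun h => hqP.one_lt.ne' (Nat.Coprime.eq_one_of_dvd hcop.symm h)
  have hpB : p ∈ B := hB1 p hpP (Dvd.intro_left _ rfl)
  have hNB₂ : ∀ ℓ : ℕ, ℓ.Prime → ℓ ∣ N₁ * q → ℓ ∈ B := fun ℓ hℓ h => hB1 ℓ hℓ (Dvd.dvd.mul_right h p)
  have hNB₁ : ∀ ℓ : ℕ, ℓ.Prime → ℓ ∣ N₁ → ℓ ∈ B := fun ℓ hℓ h => hNB₂ ℓ hℓ (Dvd.dvd.mul_right h q)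
  have hqB : q ∈ B := hNB₂ q hqP (Dvd.intro_left _ rfl)
  -- the package at the base levels, with the normalising element `1`
  have hG'b := s59f_isG'_top (N₀ := N₁) (q := q) hqN
  have he1 : (1 : SL(2, ℤ)) ∈ Gamma0 (N₁ * q) := one_mem _
  have hee1 : s59f_gW hqN * 1 * 1 ∈ s48h_GammaH (N₁ * q) (⊤ : Subgroup (ZMod (N₁ * q))ˣ) :=
    (s59t_mem_GammaH_iff_unit (H := (⊤ : Subgroup (ZMod (N₁ * q))ˣ))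
      ⟨_, mul_mem (mul_mem (s59f_gW_mem hqN) he1) he1⟩).mpr (Subgroup.mem_top _)
  have hcb := s59f_oldN_compat_E0 hqN rfl hG'b 1 he1 hee1 B (fun ℓ => W.apOfModel ℓ) hqB
    e₂ h1e₂ hid₂ hnil₂ e₁ h1e₁ hid₁ hnil₁
  -- the base Hecke rings are compatible
  have htT'b₁ := s59e_htT'_part _ _ _ a₀₁ _ ha1₀₁ aM₀₁ haM₀₁ hNB₁
  have htT'b₂ := s59e_htT'_part _ _ _ a₀₂ _ ha1₀₂ aM₀₂ haM₀₂ hNB₂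
  have htb : ∀ ℓ : ℕ, ℓ.Prime → ℓ ∉ B →
      (s59t_Old.restrict hcb).Compat
        ((s59e_tOf (↑B : Set ℕ) aM₀₁ ℓ : s59e_adj 𝒪 aM₀₁) : Module.End 𝒪 _)
        ((s59e_tOf (↑B : Set ℕ) aM₀₂ ℓ : s59e_adj 𝒪 aM₀₂) : Module.End 𝒪 _) := by
    intro ℓ hℓ hℓS
    have hℓN : ¬ ℓ ∣ N₁ * q := fun h => hℓS (hNB₂ ℓ hℓ h)
    obtain ⟨i₂, rfl⟩ := s59e_exists_TIdx (M := N₁ * q) hℓ hℓN
    refine s59efl_compat_of_val hcb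
      (s59efl_compat_Tp' hqN rfl hG'b 1 he1 hee1 (Dvd.intro q rfl)
        ((p ^ 0 - 1) * ((p ^ 0 + 1) / 2)) i₂) _ _ (fun z => ?_) (fun z => ?_)
    · exact htT'b₁ (s59t_TIdx_down (Dvd.intro q rfl) i₂) hℓS z
    · exact htT'b₂ i₂ hℓS z
  have hgenb₂ := s59efl_adj_le_of_adjoin_top aM₀₂ _
    (s59b_adjoin_tOf B hNB₂ aM₀₂ (N₁ * q) (dvd_refl _))
  have hAb := s59ej_exists_compat_adj (s59t_Old.restrict hcb) aM₀₁ aM₀₂ _ hgenb₂ (by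
    rintro _ ⟨x, ⟨ℓ, hℓ, -, hℓS, rfl⟩, rfl⟩
    exact ⟨_, (s59e_tOf _ aM₀₁ ℓ).2, htb ℓ hℓ (fun h => hℓS (Finset.mem_coe.mpr h))⟩)
  have hRc : ∀ t : s59e_adj 𝒪 aM₀₂, ∃ t' : Module.End 𝒪 (s59t_part (s59t_E0 (⊤ : Subgroup (ZMod N₁)ˣ) B e₁)),
      (∀ y, t • (s59t_Old.restrict hcb).resA y = (s59t_Old.restrict hcb).resA (t' y)) ∧
      ∀ y, t • (s59t_Old.restrict hcb).resB y = (s59t_Old.restrict hcb).resB (t' y) := by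
    intro t
    obtain ⟨t', -, htc⟩ := hAb t.1 t.2
    exact ⟨t', fun y => htc.resA y, fun y => htc.resB y⟩
  refine ⟨s59efl_oldSub (s59t_Old.restrict hcb) _ ⊤ (1 : s59t_Delta (N₁ * q) _ →* 𝒪ˣ) hRρ₂ hRc, ?_⟩
  intro r n qv _ hqinj hqv aq 𝒟 DQ _ _ _ _
  intro e₀₁ G₁ hXl₁ a₁ ha1₁ ha2₁ aM₁ haM₁ _ θ₁ hθ₁ hfrobT₁ hρ'₁ π₁ hcomm₁ hTρ₁ h2₁ hιinj₁ hιπ₁ g₁ rec₁ _ _ _ hres𝒪₁ hθl₁ h𝒟₁ hres₁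
  intro e₀₂ G₂ hXl₂ a₂ ha1₂ ha2₂ aM₂ haM₂ _ θ₂ hθ₂ hfrobT₂ hρ'₂ π₂ hcomm₂ hTρ₂ h2₂ hιinj₂ hιπ₂ g₂ rec₂ hg
  have hqvpr : ∀ i, (qv i).Prime := fun i => (hqv i).1
  have hqvB : ∀ i, qv i ∉ B := fun i => (hqv i).2.1
  have hqqv : ∀ i, q ≠ qv i := fun i h => hqvB i (h ▸ hqB)
  have hqL : ¬ q ∣ N₁ * ∏ j, qv j := by
    intro h
    rcases (Nat.Prime.dvd_mul hqP).mp h with h | h
    · exact hqN h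
    · obtain ⟨i, -, hi⟩ := (Prime.dvd_finsetProd_iff (Nat.prime_iff.mp hqP) _).mp h
      exact hqqv i ((Nat.prime_dvd_prime_iff_eq hqP (hqvpr i)).mp hi)
  have hqLq : q ∉ List.ofFn qv := by
    intro h
    obtain ⟨i, hi⟩ := (List.mem_ofFn' qv q).mp h
    exact hqqv i hi.symm
  have hqvN₂ : ∀ i, ¬ qv i ∣ N₁ * q := fun i h => hqvB i (hNB₂ _ (hqvpr i) h)
  have hqvN₁ : ∀ i, ¬ qv i ∣ N₁ := fun i h => hqvN₂ i (Dvd.dvd.mul_right h q)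
  have hMeq₁ := s59k_level_eq_top qv N₁ hqinj
  have hD₁ : ∏ q' ∈ Finset.univ.image qv, q' ∣ N₁ * ∏ i, qv i := Dvd.intro_left N₁ hMeq₁.symm
  have hQ₁ := s59k_hQ_top qv N₁ hqvpr hqvN₁
  have hQ₂ := s59k_hQ_top qv (N₁ * q) hqvpr hqvN₂
  have hS₂ : ∀ N : ℕ, (∀ ℓ : ℕ, ℓ.Prime → ℓ ∣ N → ℓ ∈ B) → ∀ ℓ : ℕ, ℓ.Prime →
      ℓ ∣ (N * ∏ q' ∈ Finset.univ.image qv, q' ^ 2) → ℓ ∈ (B ∪ Finset.univ.image qv) := by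
    intro N hNB ℓ hℓ hℓM
    rcases (Nat.Prime.dvd_mul hℓ).mp hℓM with h | h
    · exact Finset.mem_union_left _ (hNB ℓ hℓ h)
    · obtain ⟨q', hq', hqq'⟩ := (Prime.dvd_finsetProd_iff (Nat.prime_iff.mp hℓ) _).mp h
      obtain ⟨i, -, rfl⟩ := Finset.mem_image.mp hq'
      have hqe : ℓ = qv i := (Nat.prime_dvd_prime_iff_eq hℓ (hqvpr i)).mp (hℓ.dvd_of_dvd_pow hqq')
      subst hqe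
      exact Finset.mem_union_right _ (Finset.mem_image_of_mem qv (Finset.mem_univ i))
  have hMS : ∀ N : ℕ, (∀ ℓ : ℕ, ℓ.Prime → ℓ ∣ N → ℓ ∈ B) → ∀ ℓ : ℕ, ℓ.Prime →
      ℓ ∣ N * ∏ j, qv j → ℓ ∈ (B ∪ Finset.univ.image qv) := by
    intro N hNB ℓ hℓ hℓM
    rcases (Nat.Prime.dvd_mul hℓ).mp hℓM with h | h
    · exact Finset.mem_union_left _ (hNB ℓ hℓ h)
    · obtain ⟨i, -, hi⟩ := (Prime.dvd_finsetProd_iff (Nat.prime_iff.mp hℓ) _).mp h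
      have hqe : ℓ = qv i := (Nat.prime_dvd_prime_iff_eq hℓ (hqvpr i)).mp hi
      subst hqe
      exact Finset.mem_union_right _ (Finset.mem_image_of_mem qv (Finset.mem_univ i))
  have hnm := s59k_hnm_pow hpP hp2 (0 + n)
  have hn₁ := s59k_ppow_mem_Hmul_top N₁ qv p 0 n
  have hn₂ := s59k_ppow_mem_Hmul_top (N₁ * q) qv p 0 n
  have hHker₁ := s59k_hH_top qv N₁ (p ^ n) hqinj rfl hD₁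
  -- the package at the Taylor–Wiles levels
  have hG' := s59f_isG'_Hmul hqL (⊤ : Subgroup (ZMod N₁)ˣ) (⊤ : Subgroup (ZMod (N₁ * q))ˣ)
    (fun u => ⟨fun _ => Subgroup.mem_top _, fun _ => Subgroup.mem_top _⟩) (s59t_KQ (p ^ n) qv)
  have he' := s59f_eW_mem_N' hqL (s59f_hN'_TW (N₀ := N₁) (q := q) (D := ∏ j, qv j))
    ((p ^ (0 + n) - 1) * ((p ^ (0 + n) + 1) / 2))
  have hee := s59f_eW_ee hqL (s59f_hN'_TW (N₀ := N₁) (q := q) (D := ∏ j, qv j))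
    (H' := s59t_Hmul (N₁ * q) (∏ j, qv j) (⊤ : Subgroup (ZMod (N₁ * q))ˣ) (s59t_KQ (p ^ n) qv))
    (k := (p ^ (0 + n) - 1) * ((p ^ (0 + n) + 1) / 2)) hnm rfl hn₂
  have hc' := s59f_oldN_compat_eps hqL s59f_hN'_TW hG' _ he' hee B (fun ℓ => W.apOfModel ℓ) aq hqB
    (List.ofFn qv) hqLq hXl₁ hXl₂
  -- the base package with the normalising element of the Taylor–Wiles level (only for the comparison `hhom`)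
  have he'b : s59f_eW hqL ((p ^ (0 + n) - 1) * ((p ^ (0 + n) + 1) / 2)) ∈ Gamma0 (N₁ * q) :=
    s59t_Gamma0_anti (s59t_dvd_mul_left' (N₁ * q) (∏ j, qv j)) he'
  have heeb : s59f_gW hqN * s59f_eW hqL ((p ^ (0 + n) - 1) * ((p ^ (0 + n) + 1) / 2)) *
      s59f_eW hqL ((p ^ (0 + n) - 1) * ((p ^ (0 + n) + 1) / 2)) ∈
      s48h_GammaH (N₁ * q) (⊤ : Subgroup (ZMod (N₁ * q))ˣ) :=
    (s59t_mem_GammaH_iff_unit (H := (⊤ : Subgroup (ZMod (N₁ * q))ˣ))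
      ⟨_, mul_mem (mul_mem (s59f_gW_mem hqN) he'b) he'b⟩).mpr (Subgroup.mem_top _)
  have hDeq := s59efl_oldN_top_indep hqN rfl hG'b 𝒪 𝒪
    (s59f_eW hqL ((p ^ (0 + n) - 1) * ((p ^ (0 + n) + 1) / 2))) 1 he'b he1 heeb hee1
  -- the diamond groups
  have h0 : Gamma0 (N₁ * q * ∏ j, qv j) ≤ Gamma0 (N₁ * ∏ j, qv j) :=
    s59t_Gamma0_anti s59f_dvd_TW
  have hle := hG'.le (s59f_isG_GammaH _ _)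
  have hφbij := s59f_DeltaMap2_bijective hqL s59f_hN'_TW hG' h0 hle
  have hcompat := fun δ' => s59f_oldN_compat_rho hqL s59f_hN'_TW hG' _ he' hee h0 hle
    (R := 𝒪) (A := 𝒪) δ'
  have hΔc : ∀ δ' : s59t_Delta (N₁ * q * ∏ j, qv j) _, (s59t_Old.restrict hc').Compat
      ((s59t_partRep (s59t_rho (N₁ * ∏ j, qv j) _ 𝒪 𝒪) hρ'₁) (s59t_DeltaMap2 h0 hle δ'))
      ((s59t_partRep (s59t_rho (N₁ * q * ∏ j, qv j) _ 𝒪 𝒪) hρ'₂) δ') :=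
    fun δ' => s59f_compat_restrict hc' (hcompat δ') (hρ'₁ _) (hρ'₂ δ')
  -- the trace generators are compatible
  have htT'₁ := s59e_htT'_part _ _ _ a₁ _ ha1₁ aM₁ haM₁ (hS₂ N₁ hNB₁)
  have htT'₂ := s59e_htT'_part _ _ _ a₂ _ ha1₂ aM₂ haM₂ (hS₂ (N₁ * q) hNB₂)
  have ht : ∀ ℓ : ℕ, ℓ.Prime → ℓ ∉ (B ∪ Finset.univ.image qv) →
      (s59t_Old.restrict hc').Compat
        ((s59e_tOf (↑(B ∪ Finset.univ.image qv) : Set ℕ) aM₁ ℓ : s59e_adj 𝒪 aM₁) : Module.End 𝒪 _)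
        ((s59e_tOf (↑(B ∪ Finset.univ.image qv) : Set ℕ) aM₂ ℓ : s59e_adj 𝒪 aM₂) : Module.End 𝒪 _) := by
    intro ℓ hℓ hℓS
    have hℓN : ¬ ℓ ∣ N₁ * q * ∏ j, qv j := fun h => hℓS (hMS (N₁ * q) hNB₂ ℓ hℓ h)
    obtain ⟨i₂, rfl⟩ := s59e_exists_TIdx (M := N₁ * q * ∏ j, qv j) hℓ hℓN
    refine s59efl_compat_of_val hc'
      (s59efl_compat_Tp' hqL s59f_hN'_TW hG' _ he' hee s59f_dvd_TW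
        ((p ^ (0 + n) - 1) * ((p ^ (0 + n) + 1) / 2)) i₂) _ _ (fun z => ?_) (fun z => ?_)
    · exact htT'₁ (s59t_TIdx_down s59f_dvd_TW i₂) hℓS z
    · exact htT'₂ i₂ hℓS z
  have hgen₁ := s59efl_adj_le_of_adjoin_top aM₁ _
    (s59b_adjoin_tOf (B ∪ Finset.univ.image qv) (hS₂ N₁ hNB₁) aM₁ N₁ (Dvd.intro _ rfl))
  have hgen₂ := s59efl_adj_le_of_adjoin_top aM₂ _
    (s59b_adjoin_tOf (B ∪ Finset.univ.image qv) (hS₂ (N₁ * q) hNB₂) aM₂ (N₁ * q) (Dvd.intro _ rfl))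
  have hA := s59ej_exists_compat_adj (s59t_Old.restrict hc') aM₁ aM₂ _ hgen₂ (by
    rintro _ ⟨x, ⟨ℓ, hℓ, -, hℓS, rfl⟩, rfl⟩
    exact ⟨_, (s59e_tOf _ aM₁ ℓ).2, ht ℓ hℓ (fun h => hℓS (Finset.mem_coe.mpr h))⟩)
  have hA' := s59ej_exists_compat_adj' (s59t_Old.restrict hc') aM₁ aM₂ _ hgen₁ (by
    rintro _ ⟨x, ⟨ℓ, hℓ, -, hℓS, rfl⟩, rfl⟩
    exact ⟨_, (s59e_tOf _ aM₂ ℓ).2, ht ℓ hℓ (fun h => hℓS (Finset.mem_coe.mpr h))⟩)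
  -- injectivity of `resA`
  have hinj : Function.Injective (s59t_Old.restrict hc').resA :=
    s59efl_resA_injective _ (s59efl_part_torsionfree _ _) (by
      show ((q : ℕ) : 𝒪) + 1 ≠ 0
      exact_mod_cast Nat.succ_ne_zero q)
  -- the Taylor–Wiles groups
  have hφBex : ∃ φB : s59t_BQ (N₁ * q) (∏ j, qv j) (⊤ : Subgroup (ZMod (N₁ * q))ˣ) (s59t_KQ (p ^ n) qv) →*
      s59t_BQ N₁ (∏ j, qv j) (⊤ : Subgroup (ZMod N₁)ˣ) (s59t_KQ (p ^ n) qv),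
      ∀ β, ((φB β : s59t_BQ N₁ (∏ j, qv j) (⊤ : Subgroup (ZMod N₁)ˣ) (s59t_KQ (p ^ n) qv)) :
        s59t_Delta (N₁ * ∏ j, qv j) _) = s59t_DeltaMap2 h0 hle β :=
    ⟨((s59t_DeltaMap2 h0 hle).comp (s59t_BQ (N₁ * q) (∏ j, qv j) (⊤ : Subgroup (ZMod (N₁ * q))ˣ)
      (s59t_KQ (p ^ n) qv)).subtype).codRestrict _ (fun β => s59f_BQ_top _ _ _ _), fun β => rfl⟩
  choose φB hφB using hφBex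
  have hB : ∀ β, (s59t_Old.restrict hc').Compat
      (((s59t_partRep (s59t_rho (N₁ * ∏ j, qv j) _ 𝒪 𝒪) hρ'₁).comp
        (s59t_BQ N₁ (∏ j, qv j) (⊤ : Subgroup (ZMod N₁)ˣ) (s59t_KQ (p ^ n) qv)).subtype) (φB β))
      (((s59t_partRep (s59t_rho (N₁ * q * ∏ j, qv j) _ 𝒪 𝒪) hρ'₂).comp
        (s59t_BQ (N₁ * q) (∏ j, qv j) (⊤ : Subgroup (ZMod (N₁ * q))ˣ) (s59t_KQ (p ^ n) qv)).subtype) β) := by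
    intro β
    have := hΔc (β : s59t_Delta (N₁ * q * ∏ j, qv j) _)
    rw [← hφB β] at this
    exact this
  have hφ : Function.Surjective φB := by
    intro β₁
    obtain ⟨δ₂, h⟩ := hφbij.2 (β₁ : s59t_Delta (N₁ * ∏ j, qv j) _)
    exact ⟨⟨δ₂, s59f_BQ_top _ _ _ _⟩, Subtype.ext ((hφB _).trans h)⟩
  have hg' : ∀ i, g₁ i = φB (g₂ i) := fun i => (hg i).trans (Subtype.ext (hφB _).symm)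
  -- the link
  have hlink := s59efl_link rec₁ rec₂ (s59t_Old.restrict hc') hinj hA hA'
    φB hB hφ hg' hres𝒪₁ hθl₁ h𝒟₁ hres₁ (B ∪ Finset.univ.image qv) (s59e_tOf _ aM₁) (s59e_tOf _ aM₂)
    hfrobT₁ hfrobT₂ ht
  choose σl hσs hσu hσθ hθc hσc using hlink
  -- the eigen-parts
  have hφC : ∀ c ∈ s59t_CQ (N₁ * q) (∏ j, qv j) (⊤ : Subgroup (ZMod (N₁ * q))ˣ) (s59t_KQ (p ^ n) qv),
      s59t_DeltaMap2 h0 hle c ∈ s59t_CQ N₁ (∏ j, qv j) (⊤ : Subgroup (ZMod N₁)ˣ) (s59t_KQ (p ^ n) qv) := by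
    intro c hc
    rw [s59efl_CQ_eq_one _ _ _ c hc, map_one]
    exact one_mem _
  have hφCs : ∀ c₁ ∈ s59t_CQ N₁ (∏ j, qv j) (⊤ : Subgroup (ZMod N₁)ˣ) (s59t_KQ (p ^ n) qv),
      ∃ c₂ ∈ s59t_CQ (N₁ * q) (∏ j, qv j) (⊤ : Subgroup (ZMod (N₁ * q))ˣ) (s59t_KQ (p ^ n) qv),
        s59t_DeltaMap2 h0 hle c₂ = c₁ := by
    intro c₁ hc₁
    rw [s59efl_CQ_eq_one _ _ _ c₁ hc₁]
    exact ⟨1, one_mem _, map_one _⟩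
  -- the control maps
  have hhom := s59f_oldN_hom hqN hqL (s59t_dvd_mul_left' N₁ (∏ j, qv j)) rfl s59f_hN'_TW hG'b hG'
    (s59t_GammaHmul_le (N := N₁) (D := ∏ j, qv j) (H := (⊤ : Subgroup (ZMod N₁)ˣ)) (K := s59t_KQ (p ^ n) qv))
    (s59t_GammaHmul_le (N := N₁ * q) (D := ∏ j, qv j) (H := (⊤ : Subgroup (ZMod (N₁ * q))ˣ)) (K := s59t_KQ (p ^ n) qv))
    𝒪 𝒪 _ he'b he' heeb hee
  rw [hDeq] at hhom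
  have hBiff : ∀ β' : s59t_Delta (N₁ * q * ∏ j, qv j) _,
      β' ∈ s59t_BQ (N₁ * q) (∏ j, qv j) (⊤ : Subgroup (ZMod (N₁ * q))ˣ) (s59t_KQ (p ^ n) qv) ↔
        s59t_DeltaMap2 h0 hle β' ∈ s59t_BQ N₁ (∏ j, qv j) (⊤ : Subgroup (ZMod N₁)ˣ) (s59t_KQ (p ^ n) qv) :=
    fun β' => ⟨fun _ => s59f_BQ_top _ _ _ _, fun _ => s59f_BQ_top _ _ _ _⟩
  have hπA := s59f_pi_resA hcb hc' hhom _ _ hρ'₁ hρ'₂ _ _ _ hφbij hBiff hcompat π₁ π₂ hιπ₁ hιπ₂ hιinj₂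
  have hπB := s59f_pi_resB hcb hc' hhom _ _ hρ'₁ hρ'₂ _ _ _ hφbij hBiff hcompat π₁ π₂ hιπ₁ hιπ₂ hιinj₂
  have hπCA := s59f_pi_corA hcb hc' hhom _ _ hρ'₁ hρ'₂ _ _ _ hφbij hBiff hcompat π₁ π₂ hιπ₁ hιπ₂ hιinj₁
  have hπCB := s59f_pi_corB hcb hc' hhom _ _ hρ'₁ hρ'₂ _ _ _ hφbij hBiff hcompat π₁ π₂ hιπ₁ hιπ₂ hιinj₁
  -- (Z1) Eichler–Shimura and (Z2) [NEW-q]
  have hES := s59f_oldN_T_level hqL s59f_hN'_TW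
    (s59t_Hmul N₁ (∏ j, qv j) (⊤ : Subgroup (ZMod N₁)ˣ) (s59t_KQ (p ^ n) qv)) hG' _
    (fun x y => LinearMap.congr_fun (s59t_actH_comm_op _ aq _ x) y) a₁ _ ha2₁ aM₁ haM₁
    p hp2 hqp N₁ (Finset.univ.image qv) hMeq₁ hQ₁ rfl hD₁ hHker₁ hnm hn₁ rfl hp𝒪
    (B ∪ Finset.univ.image qv) (Finset.mem_union_left _ hpB) (hMS N₁ hNB₁) DQ θ₁ hθ₁
    (s59e_tOf _ aM₁) htT'₁ hfrobT₁ he' hee _ hc' A₀ hA₀ φq hφq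
  have hHiff : ∀ u : (ZMod (N₁ * q * ∏ j, qv j))ˣ,
      u ∈ s59t_Hmul (N₁ * q) (∏ j, qv j) (⊤ : Subgroup (ZMod (N₁ * q))ˣ) (s59t_KQ (p ^ n) qv) ↔
        ZMod.unitsMap (s59f_dvd_TW (N₀ := N₁) (q := q) (D := ∏ j, qv j)) u ∈
          s59t_Hmul N₁ (∏ j, qv j) (⊤ : Subgroup (ZMod N₁)ˣ) (s59t_KQ (p ^ n) qv) := by
    intro u
    rw [s59t_mem_Hmul, s59t_mem_Hmul]
    have e2 : ZMod.unitsMap (s59t_dvd_mul_right' (N₁ * q) (∏ j, qv j)) u =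
        ZMod.unitsMap (s59t_dvd_mul_right' N₁ (∏ j, qv j))
          (ZMod.unitsMap (s59f_dvd_TW (N₀ := N₁) (q := q) (D := ∏ j, qv j)) u) := by
      rw [← MonoidHom.comp_apply, ZMod.unitsMap_comp]
    rw [e2]
    exact ⟨fun h => ⟨Subgroup.mem_top _, h.2⟩, fun h => ⟨Subgroup.mem_top _, h.2⟩⟩
  have hNEW0 := s59f_NEW_level hqL s59f_hN'_TW
    (s59t_Hmul N₁ (∏ j, qv j) (⊤ : Subgroup (ZMod N₁)ˣ) (s59t_KQ (p ^ n) qv))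
    (s59t_Hmul (N₁ * q) (∏ j, qv j) (⊤ : Subgroup (ZMod (N₁ * q))ˣ) (s59t_KQ (p ^ n) qv))
    s59f_dvd_TW hHiff hG' _
    (fun x y => LinearMap.congr_fun (s59t_actH_comm_op _ aq _ x) y) a₂ _ ha2₂ aM₂ haM₂
    p hp2 hqp N₁ (Finset.univ.image qv) hQ₂ hMeq₁ hD₁ hHker₁ hnm hn₂ rfl hp𝒪
    (B ∪ Finset.univ.image qv) (Finset.mem_union_left _ hpB) (hMS (N₁ * q) hNB₂) DQ θ₂ hθ₂
    (s59e_tOf _ aM₂) htT'₂ hfrobT₂ _ he' hee _ hc' A₀ hA₀ φq hφq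
  -- (Z3) Ihara and its dual
  have hi₀ex := s59u_W_exists_nonEis_idx W hΔ p hp2 hirr (𝒪 := 𝒪) hp𝒪 B N₁
  choose i₀ hi₀ hnE using hi₀ex
  have hi₀q : i₀.ell ≠ q := fun h => hi₀ (h ▸ hqB)
  have hεT : ∀ y, (s59t_E0 (⊤ : Subgroup (ZMod N₁)ˣ) B e₁) (s59w_op (⊤ : Subgroup (ZMod N₁)ˣ) 𝒪 (Sum.inl i₀) y) =
      s59w_op (⊤ : Subgroup (ZMod N₁)ˣ) 𝒪 (Sum.inl i₀) ((s59t_E0 (⊤ : Subgroup (ZMod N₁)ˣ) B e₁) y) :=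
    fun y => LinearMap.congr_fun (s59e_E0_comm_op _ B e₁ (Sum.inl i₀)) y
  have hnil₀ := hnil₁ (Sum.inl i₀) (s59t_inl_mem_goodB B i₀ hi₀)
  have hi₀N : ¬ i₀.ell ∣ N₁ * q * p := by
    intro h
    rcases (Nat.Prime.dvd_mul i₀.prime).mp h with h | h
    · exact hi₀ (hNB₂ _ i₀.prime h)
    · exact hi₀ (((Nat.prime_dvd_prime_iff_eq i₀.prime hpP).mp h) ▸ hpB)
  have hT4 := fun y₁ y₂ h => s59f_ihara_part_top 𝒪 p hqN rfl hG'b _ he1 hee1 hcb (fun h => hqp h.symm) i₀ hi₀q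
    hid₁ hεT _ hnE hnil₀ y₁ y₂ h
  have hT5 := fun y₁ y₂ => s59f_dual_part_top 𝒪 p hqN rfl hG'b _ he1 hee1 hcb hp2 hqp i₀ hi₀N
    hid₁ hεT _ hnE hnil₀ y₁ y₂
  -- the step
  refine ⟨σl, hσs, hσu, hσθ, ?_⟩
  intro MQ _ _ ρ hρ T' _ _ T _ _ _ _ _ θ uu huu s₂ hs₂ hsu₂ hsθ₂ hs₁ hsu₁
  exact s59efl_step_joint rec₁ rec₂ (s59t_Old.restrict hc') (s59t_Old.restrict hcb) σl hσθ hσc
    (s59efl_eig_resA (s59t_Old.restrict hc') (s59t_partRep (s59t_rho (N₁ * ∏ j, qv j) _ 𝒪 𝒪) hρ'₁) (s59t_partRep (s59t_rho (N₁ * q * ∏ j, qv j) _ 𝒪 𝒪) hρ'₂) (s59t_CQ N₁ (∏ j, qv j) (⊤ : Subgroup (ZMod N₁)ˣ) (s59t_KQ (p ^ n) qv)) (s59t_CQ (N₁ * q) (∏ j, qv j) (⊤ : Subgroup (ZMod (N₁ * q))ˣ) (s59t_KQ (p ^ n) qv)) (s59t_DeltaMap2 h0 hle) hΔc hφC)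
    (s59efl_eig_resB (s59t_Old.restrict hc') (s59t_partRep (s59t_rho (N₁ * ∏ j, qv j) _ 𝒪 𝒪) hρ'₁) (s59t_partRep (s59t_rho (N₁ * q * ∏ j, qv j) _ 𝒪 𝒪) hρ'₂) (s59t_CQ N₁ (∏ j, qv j) (⊤ : Subgroup (ZMod N₁)ˣ) (s59t_KQ (p ^ n) qv)) (s59t_CQ (N₁ * q) (∏ j, qv j) (⊤ : Subgroup (ZMod (N₁ * q))ˣ) (s59t_KQ (p ^ n) qv)) (s59t_DeltaMap2 h0 hle) hΔc hφC)
    (s59efl_eig_corA (s59t_Old.restrict hc') (s59t_partRep (s59t_rho (N₁ * ∏ j, qv j) _ 𝒪 𝒪) hρ'₁) (s59t_partRep (s59t_rho (N₁ * q * ∏ j, qv j) _ 𝒪 𝒪) hρ'₂) (s59t_CQ N₁ (∏ j, qv j) (⊤ : Subgroup (ZMod N₁)ˣ) (s59t_KQ (p ^ n) qv)) (s59t_CQ (N₁ * q) (∏ j, qv j) (⊤ : Subgroup (ZMod (N₁ * q))ˣ) (s59t_KQ (p ^ n) qv)) (s59t_DeltaMap2 h0 hle) hΔc hφCs)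
    (s59efl_eig_corB (s59t_Old.restrict hc') (s59t_partRep (s59t_rho (N₁ * ∏ j, qv j) _ 𝒪 𝒪) hρ'₁) (s59t_partRep (s59t_rho (N₁ * q * ∏ j, qv j) _ 𝒪 𝒪) hρ'₂) (s59t_CQ N₁ (∏ j, qv j) (⊤ : Subgroup (ZMod N₁)ˣ) (s59t_KQ (p ^ n) qv)) (s59t_CQ (N₁ * q) (∏ j, qv j) (⊤ : Subgroup (ZMod (N₁ * q))ˣ) (s59t_KQ (p ^ n) qv)) (s59t_DeltaMap2 h0 hle) hΔc hφCs)
    (s59efl_eig_T (s59t_Old.restrict hc') (s59t_partRep (s59t_rho (N₁ * ∏ j, qv j) _ 𝒪 𝒪) hρ'₁) (s59t_partRep (s59t_rho (N₁ * q * ∏ j, qv j) _ 𝒪 𝒪) hρ'₂) (s59t_CQ N₁ (∏ j, qv j) (⊤ : Subgroup (ZMod N₁)ˣ) (s59t_KQ (p ^ n) qv)) (s59t_CQ (N₁ * q) (∏ j, qv j) (⊤ : Subgroup (ZMod (N₁ * q))ˣ) (s59t_KQ (p ^ n) qv)) (s59t_DeltaMap2 h0 hle) hΔc hφCs)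
    (s59efl_eig_U (s59t_Old.restrict hc') (s59t_partRep (s59t_rho (N₁ * ∏ j, qv j) _ 𝒪 𝒪) hρ'₁) (s59t_partRep (s59t_rho (N₁ * q * ∏ j, qv j) _ 𝒪 𝒪) hρ'₂) (s59t_CQ (N₁ * q) (∏ j, qv j) (⊤ : Subgroup (ZMod (N₁ * q))ˣ) (s59t_KQ (p ^ n) qv)) (s59t_DeltaMap2 h0 hle) hΔc)
    (s59efl_eig_w (s59t_Old.restrict hc') (s59t_partRep (s59t_rho (N₁ * ∏ j, qv j) _ 𝒪 𝒪) hρ'₁) (s59t_partRep (s59t_rho (N₁ * q * ∏ j, qv j) _ 𝒪 𝒪) hρ'₂) (s59t_CQ (N₁ * q) (∏ j, qv j) (⊤ : Subgroup (ZMod (N₁ * q))ˣ) (s59t_KQ (p ^ n) qv)) (s59t_DeltaMap2 h0 hle) hΔc)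
    (s59efl_eig_top_base N₁ hρ₁) (s59efl_eig_top_base (N₁ * q) hρ₂)
    hπA hπB hπCA hπCB q rfl φq hES
    (fun z _ hzA hzB => by
      rw [sub_eq_zero]
      refine (hNEW0 z hzA hzB).symm.trans ?_
      rw [pow_two, Module.End.mul_apply])
    hT4 hT5 ρ (fun m' => (hρ m').trans (s59efl_mem_oldSub _ _ _ _ _ _ m'))
    θ uu huu s₂ hs₂ hsu₂ hsθ₂ hs₁ hsu₁

end Fermat.Agent.Lib.S59
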