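/-
Programme (R2) / node **[CAR]**, the ports to `q ∈ {2, 3}`, count data over a chart package (helper8, prefix `s59c_`),
part 1: **[DEG] THE DEGREE CONGRUENCE OVER A CHART PACKAGE** `C : s59b_Chart …` (helper2's `B4Chart.lean`).

`f ∈ 𝓕_{K₀}(M p)`, `f ≠ 0`, a unit of `V_∞`, `V_0 (f) = a`, satisfying the exact (Q4) with exponent `e` at every closed
point of the special fibre (charts `{C.wN regular}`, `{1 / C.wN regular}`).  Then

  `e ∣ a · ∑_s [k_s : κ]`   (sum over ALL the nodes of the chart `{C.wN regular}`)        (**`s59c_deg_cong_W`**),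

under the two geometric inputs
* `hX`   : the crossings of the chart are regular (`s36q_fi_CrossReg`, helper4's (R-q));
* `hinf` : [DIV-e] at the places `v₀` of `X₀(M)_κ` over `w̄ = ∞` (no node there).

Port of `s59c_deg_cong` (`CNodeDegFive.lean`).  `s59c_divp_inf_W` : `hinf` from the chart-2 inputs and
"no node at `w̄ = ∞`".
-/
import Fermat.Agent.Lib.S59.CNodeDegFive
import Fermat.Agent.Lib.S59.B4Chart

set_option autoImplicit false
set_option linter.unusedSectionVars false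
set_option linter.style.haveILetI false
set_option synthInstance.maxHeartbeats 400000
set_option maxHeartbeats 1600000

noncomputable section

namespace Fermat.Agent.Lib.S59

open ModularCurve AlgebraicCurve HahnSeries Polynomial Fermat.Agent.Lib.FF Fermat.Agent.Lib.S18
  Fermat.Agent.Lib.S34 Fermat.Agent.Lib.S37 Fermat.Agent.Lib.S33 Fermat.Agent.Lib.S36
  Fermat.Agent.Lib.S44 Fermat.Agent.Lib.S28

local notation "Kb" => AlgebraicClosure ℚ

section Main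

variable (M p : ℕ) [NeZero M] [hp : Fact p.Prime] (hpM : ¬ p ∣ M)
  (K₀ : Type) [Field K₀] [NumberField K₀] (φ : K₀ →+* Kb)
  (κ : Type) [Field κ] [CharP κ p] [PerfectField κ]
  (G : s18g_GaussData K₀ κ) [IsDiscreteValuationRing G.A]
  (hdeg : s34m_HDeg K₀ M p) (hT : s18g_HT κ M) (hdegM : s18g_HDeg K₀ M)
  (hπ : Function.Surjective G.π)
  (C : s59b_Chart G φ M p hpM hT hdegM)

local notation "hFM" => (fun (f : LaurentSeries K₀)
  (hf : f ∈ laurentBaseChange K₀ (modularFunctionFieldFull M)) => s18g_baseChange_mem_Frac G M hf)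
local notation "FbM" => modularFunctionFieldFullC κ M
local notation "OO" => s34m_VV G φ M p hp.out hpM
local notation "ϖF" => s34m_unif G (M * p)
local notation "S₁" => s18_chart1 (L₀ := K₀) C.wN
local notation "S₂" => s18_chart2 (L₀ := K₀) C.wN

include hπ in
/-- **[DEG] THE DEGREE CONGRUENCE over a chart package.** -/
theorem s59c_deg_cong_W
    (hX : haveI : NeZero p := ⟨hp.out.ne_zero⟩; s36q_fi_CrossReg G φ M p hp.out hpM C.wN)
    (e : ℕ) (f : s34m_F K₀ (M * p)) (hf0 : f ≠ 0)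
    (hfI : f ∈ s34m_Vinf G (M * p)) (hfI' : f⁻¹ ∈ s34m_Vinf G (M * p))
    (hinf : ∀ v₀ : Place κ ↥FbM,
      s18g_redF G M hFM hT hdegM ⟨C.w, C.hwV⟩ ∉ v₀.toValuationSubring →
      (e : ℤ) ∣ v₀.ord (s33y_redI G φ M p hpM hdeg hT hdegM ⟨f, hfI⟩))
    (a : ℤ) (hfa : f * ϖF ^ (-a) ∈ s34m_Vzero G φ M p hp.out hpM)
    (hfa' : (f * ϖF ^ (-a))⁻¹ ∈ s34m_Vzero G φ M p hp.out hpM)
    (hQ4₁ : ∀ 𝔫 : Ideal (s34x_ring (s34x_infRing OO) S₁), 𝔫.IsMaximal →
      s34x_const (s34x_infRing OO) S₁ ((G.ϖ : G.A) : K₀)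
        (s34x_inf_const_mem OO G.A (s34c_const_mem_VV G φ M p hp.out hpM) G.ϖ) ∈ 𝔫 →
      ∃ Φ : s34m_F K₀ (M * p), Φ ≠ 0 ∧ ∀ Q ∈ S₁,
        s34f_through (s34x_infRing OO) S₁ 𝔫 Q → Q.ord f = ((e : ℕ) : ℤ) * Q.ord Φ)
    (T : Finset (s33s_Node OO ϖF S₁)) (hTall : ∀ s, s ∈ T) :
    (e : ℤ) ∣ a * ∑ s ∈ T, (Module.finrank κ (s33s_kG G φ M p hpM S₁ hπ s) : ℤ) := by
  haveI : NeZero p := ⟨hp.out.ne_zero⟩
  haveI := C.gen
  -- the Dedekind ring of the `∞`-component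
  letI algF := s18f_algF G M hT hdegM C.w C.hwV
  have hA : ∀ P : κ[X], algebraMap κ[X] ↥(modularFunctionFieldFullC κ M) P =
      Polynomial.aeval (s18g_redF G M hFM hT hdegM ⟨C.w, C.hwV⟩) P :=
    s18f_algF_apply G M hT hdegM _ C.hwV
  have hcoord := C.hcoord
  have hwtw := C.hwtw
  haveI hDed := (s37b_dedekind_of_coord κ p M _ hcoord hA).1
  haveI hFrac := (s37b_dedekind_of_coord κ p M _ hcoord hA).2
  letI algκ : Algebra κ ↥(integralClosure κ[X] ↥(modularFunctionFieldFullC κ M)) :=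
    ((algebraMap κ[X] ↥(integralClosure κ[X] ↥(modularFunctionFieldFullC κ M))).comp
      Polynomial.C).toAlgebra
  have hκ : ∀ c : κ, algebraMap ↥(integralClosure κ[X] ↥(modularFunctionFieldFullC κ M))
      ↥(modularFunctionFieldFullC κ M)
      (algebraMap κ ↥(integralClosure κ[X] ↥(modularFunctionFieldFullC κ M)) c) =
      algebraMap κ ↥(modularFunctionFieldFullC κ M) c := by
    intro c
    show algebraMap ↥(integralClosure κ[X] ↥(modularFunctionFieldFullC κ M))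
      ↥(modularFunctionFieldFullC κ M)
      (algebraMap κ[X] ↥(integralClosure κ[X] ↥(modularFunctionFieldFullC κ M))
        (Polynomial.C c)) = _
    rw [← IsScalarTower.algebraMap_apply, hA, Polynomial.aeval_C]
  haveI : IsScalarTower κ ↥(integralClosure κ[X] ↥(modularFunctionFieldFullC κ M))
      ↥(modularFunctionFieldFullC κ M) :=
    IsScalarTower.of_algebraMap_eq (fun c => (hκ c).symm)
  -- the frame of the Σ-datum
  have hD := s33s_w_hD G M p hT hdegM C.w C.hwV hcoord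
  have hF := s33s_w_hF G φ M p hpM hdeg hT hdegM
  have hint := s33s_w_hint G φ M p hpM hdeg hT hdegM C.w C.hwV hwtw C.wN C.hwN C.hαN
  have hmain := C.hmain
  have hlift := s33s_w_hlift G M hT hdegM C.w C.hwV hmain
  have htw := s33s_w_htw G M p hT hdegM C.w C.hwV hwtw
  have hαB := C.hαB
  have hβB := C.hβB
  -- the node places
  set v : s33s_Node OO ϖF S₁ → Place κ ↥FbM :=
    s59c_nodePlB G φ M p hpM S₁ hD hF hint
      (s18_ring (L₀ := K₀) (s34m_Vinf G M) (s18_chart1 C.w) :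
        Set (s34m_F K₀ M)) (fun _ hg => hg.1) hαB hβB hlift htw with hv
  have hvinj : Function.Injective v :=
    s59c_nodePlB_injective G φ M p hpM hdeg hT hdegM S₁ hD hF hint _ (fun _ hg => hg.1) hαB hβB
      hlift htw
  have hvdeg : ∀ s, (v s).deg = Module.finrank κ (s33s_kG G φ M p hpM S₁ hπ s) := fun s =>
    s59c_nodePlB_deg G φ M p hpM hπ S₁ hD hF hint _ (fun _ hg => hg.1) hαB hβB hlift htw s
  -- the divisor of `red_∞ f`
  haveI := s59c_fbar_hasPrincipalDivisors κ M p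
  have hg0 : s33y_redI G φ M p hpM hdeg hT hdegM ⟨f, hfI⟩ ≠ 0 :=
    (s59c_R_inv (s34m_Vinf G (M * p)) (s33y_redI G φ M p hpM hdeg hT hdegM) hf0 hfI hfI').2
  obtain ⟨Dv, hDv, hdeg0⟩ := HasPrincipalDivisors.exists_divisor (K := κ)
    (s33y_redI G φ M p hpM hdeg hT hdegM ⟨f, hfI⟩) hg0
  have key := s59c_dvd_deg_sum Dv hdeg0 (e : ℤ) a T v (hvinj.injOn) ?_ ?_
  · rw [Finset.sum_congr rfl (fun s _ => by rw [hvdeg s])] at key
    exact key
  · -- off the nodes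
    intro w hw
    rw [hDv]
    by_cases hj : s18g_redF G M hFM hT hdegM ⟨C.w, C.hwV⟩ ∈ w.toValuationSubring
    · rcases s59c_divp_chart_cases G φ M p hpM hdeg hT hdegM hπ S₁
        (D := ↥(integralClosure κ[X] ↥(modularFunctionFieldFullC κ M))) hD hF hint
        (s18_ring (L₀ := K₀) (s34m_Vinf G M) (s18_chart1 C.w) :
          Set (s34m_F K₀ M))
        (fun _ hg => hg.1) hαB hβB hlift htw e w
        (s59m_D_le_place G M hT hdegM C.w C.hwV w hj)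
        f hf0 hfI hfI' hQ4₁ with h | ⟨s, hs⟩
      · exact h
      · exact absurd hs (hw s (hTall s))
    · exact hinf w hj
  · -- at the nodes
    intro s _
    rw [hDv]
    haveI : s.1.IsMaximal := s.2.1
    haveI : s.1.IsPrime := s.2.1.isPrime
    have hcT := s59c_node_compThrough G φ M p hpM S₁ s true
    have hcF := s59c_node_compThrough G φ M p hpM S₁ s false
    exact s59c_nodePlB_cong G φ M p hpM hdeg hT hdegM hπ S₁ hD hF hint _ (fun _ hg => hg.1) hαB hβB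
      hlift htw s (hX s.1 hcT hcF) e f hf0 hfI hfI' a hfa hfa'
      (hQ4₁ s.1 s.2.1 (s.2.2.1 (s59m_unif_mem_comp G φ M p hpM S₁ true)))

end Main

section Inf

variable {K₀ : Type} [Field K₀] [CharZero K₀] [Algebra ℚ K₀] {κ : Type} [Field κ]
  (G : s18g_GaussData K₀ κ) (φ : K₀ →+* Kb) (M p : ℕ) [NeZero M] [hp : Fact p.Prime]
  (hpM : ¬ p ∣ M) [CharP κ p] [PerfectField κ]

local notation "𝓕M" => laurentBaseChange K₀ (modularFunctionFieldFull M)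
local notation "𝓕N" => laurentBaseChange K₀ (modularFunctionFieldFull (M * p))
local notation "hFM" => (fun (f : LaurentSeries K₀)
  (hf : f ∈ laurentBaseChange K₀ (modularFunctionFieldFull M)) => s18g_baseChange_mem_Frac G M hf)
local notation "FbM" => modularFunctionFieldFullC κ M
local notation "OO" => s34m_VV G φ M p hp.out hpM
local notation "ϖF" => s34m_unif G (M * p)

variable (hdeg : s34m_HDeg K₀ M p) (hT : s18g_HT κ M) (hdegM : s18g_HDeg K₀ M)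
  (hπ : Function.Surjective G.π) [IsDiscreteValuationRing G.A]

include hπ in
/-- **[DIV-e] at the places over `w̄ = ∞`** from the inputs of the chart `{1 / α w regular}` and "no node at `w̄ = ∞`".
Port of `s59c_divp_chart2`. -/
theorem s59c_divp_inf_W (w : ↥𝓕M) (hwV : w ∈ s18g_V G 𝓕M hFM) (hw0 : w ≠ 0)
    (hwinvV : w⁻¹ ∈ s18g_V G 𝓕M hFM)
    (hcoord₂ : s37b_Coord κ p
      ((s18g_redF G M hFM hT hdegM ⟨w⁻¹, hwinvV⟩ : ↥FbM) : LaurentSeries κ))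
    (hwtw₂ : ∀ τ : κ ≃+* κ, ModularCurve.coeffMap (τ : κ →+* κ)
      ((s18g_redF G M hFM hT hdegM ⟨w⁻¹, hwinvV⟩ : ↥FbM) : LaurentSeries κ) =
      ((s18g_redF G M hFM hT hdegM ⟨w⁻¹, hwinvV⟩ : ↥FbM) : LaurentSeries κ))
    (hmain₂ : letI := s18f_algF G M hT hdegM w⁻¹ hwinvV
      ∀ z : ↥FbM, IsIntegral κ[X] z →
        ∃ (b : ↥𝓕M) (hb : b ∈ s18_ring (L₀ := K₀) (s18g_V G 𝓕M hFM) (s18_chart1 w⁻¹)),
          s18g_redF G M hFM hT hdegM ⟨b, hb.1⟩ = z)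
    (wN : ↥𝓕N) (hwN : heckeAlphaBar K₀ M p w = wN) [FFGen K₀ wN⁻¹]
    (hαN₂ : ∀ y ∈ s34x_infRing (s34m_VV G φ M p hp.out hpM), ∃ s : G.A[X], s.map G.π ≠ 0 ∧
      (s18b_ev G 𝓕N wN⁻¹).IsIntegralElem (s18b_ev G 𝓕N wN⁻¹ s * y))
    (hαB₂ : ∀ g ∈ (s18_ring (L₀ := K₀) (s34m_Vinf G M) (s18_chart1 w⁻¹) : Set (s34m_F K₀ M)),
      heckeAlphaBar K₀ M p g ∈ s34x_ring (s34x_infRing (s34m_VV G φ M p hp.out hpM))
        (s18_chart1 (L₀ := K₀) wN⁻¹))
    (hβB₂ : ∀ g ∈ (s18_ring (L₀ := K₀) (s34m_Vinf G M) (s18_chart1 w⁻¹) : Set (s34m_F K₀ M)),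
      ∃ b' ∈ s34x_ring (s34x_infRing (s34m_VV G φ M p hp.out hpM)) (s18_chart1 (L₀ := K₀) wN⁻¹),
      ∃ z, z ∈ s34m_Vinf G (M * p) ∧ z ∈ s34m_Vzero G φ M p hp.out hpM ∧
        b' - heckeBetaBar K₀ M p g = s34m_unif G (M * p) * z)
    (hwNO' : wN⁻¹ ∈ s34x_infRing OO)
    (hni : ∀ (𝔫 : Ideal (s34x_ring (s34x_infRing OO) (s18_chart2 (L₀ := K₀) wN))) [𝔫.IsPrime],
      s33s_comp OO ϖF (s18_chart2 (L₀ := K₀) wN) true ≤ 𝔫 →
      s33s_comp OO ϖF (s18_chart2 (L₀ := K₀) wN) false ≤ 𝔫 →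
      (⟨wN⁻¹, ⟨hwNO', fun _ hQ => hQ⟩⟩ :
        s34x_ring (s34x_infRing OO) (s18_chart2 (L₀ := K₀) wN)) ∉ 𝔫)
    (e : ℕ) (v₀ : Place κ ↥FbM)
    (hj : s18g_redF G M hFM hT hdegM ⟨w, hwV⟩ ∉ v₀.toValuationSubring)
    (f : s34m_F K₀ (M * p)) (hf0 : f ≠ 0)
    (hfI : f ∈ s34m_Vinf G (M * p)) (hfI' : f⁻¹ ∈ s34m_Vinf G (M * p))
    (hQ4₂ : ∀ 𝔫 : Ideal (s34x_ring (s34x_infRing OO) (s18_chart2 (L₀ := K₀) wN)), 𝔫.IsMaximal →
      s34x_const (s34x_infRing OO) (s18_chart2 (L₀ := K₀) wN) ((G.ϖ : G.A) : K₀)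
        (s34x_inf_const_mem OO G.A (s34c_const_mem_VV G φ M p hp.out hpM) G.ϖ) ∈ 𝔫 →
      ∃ Φ : s34m_F K₀ (M * p), Φ ≠ 0 ∧ ∀ Q ∈ s18_chart2 (L₀ := K₀) wN,
        s34f_through (s34x_infRing OO) (s18_chart2 (L₀ := K₀) wN) 𝔫 Q →
        Q.ord f = ((e : ℕ) : ℤ) * Q.ord Φ) :
    (e : ℤ) ∣ v₀.ord (s33y_redI G φ M p hpM hdeg hT hdegM ⟨f, hfI⟩) := by
  haveI : NeZero p := ⟨hp.out.ne_zero⟩
  have hinv : s18g_redF G M hFM hT hdegM ⟨w⁻¹, hwinvV⟩ =
      (s18g_redF G M hFM hT hdegM ⟨w, hwV⟩)⁻¹ :=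
    s18f_redF_inv G M hT hdegM _ hw0 hwV _
  set X := s18g_redF G M hFM hT hdegM ⟨w, hwV⟩ with hX
  have hj' : s18g_redF G M hFM hT hdegM ⟨w⁻¹, hwinvV⟩ ∈ v₀.toValuationSubring := by
    rw [hinv]
    exact (v₀.toValuationSubring.mem_or_inv_mem X).resolve_left hj
  have hαinv : heckeAlphaBar K₀ M p w⁻¹ = wN⁻¹ := by rw [map_inv₀, hwN]
  rcases s59c_divp_w_cases G φ M p hpM hdeg hT hdegM hπ w⁻¹ hwinvV hcoord₂ hwtw₂ hmain₂
      wN⁻¹ hαinv hαN₂ hαB₂ hβB₂ e v₀ hj' f hf0 hfI hfI' hQ4₂ with h | ⟨s, hs⟩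
  · exact h
  · exfalso
    haveI : s.1.IsPrime := s.2.1.isPrime
    have hX0 : X ≠ 0 := by
      intro h0
      exact hj (h0 ▸ v₀.toValuationSubring.zero_mem)
    have hmemR : wN⁻¹ ∈ s34x_ring (s34x_infRing OO) (s18_chart2 (L₀ := K₀) wN) :=
      ⟨hwNO', fun _ hQ => hQ⟩
    have hred : s33y_redI G φ M p hpM hdeg hT hdegM
        ⟨wN⁻¹, s33s_ring_mem OO (s18_chart2 (L₀ := K₀) wN) true ⟨wN⁻¹, hmemR⟩⟩ = X⁻¹ := by
      rw [← hinv]
      apply Subtype.ext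
      rw [s33y_coe_redI, s18g_coe_redF]
      have h := s34m_redInf_alpha G M p ⟨w⁻¹, hwinvV⟩
      rw [← show s34m_redInf G M ⟨w⁻¹, hwinvV⟩ =
        s18g_redV G 𝓕M hFM ⟨w⁻¹, hwinvV⟩ from rfl, ← h]
      exact congrArg (s34m_redInf G (M * p)) (Subtype.ext hαinv.symm)
    have hordX : v₀.ord X < 0 := by
      by_contra h
      exact hj ((ff_mem_iff_ord_nonneg v₀ hX0).mpr (not_lt.mp h))
    have hmem := hs ⟨wN⁻¹, hmemR⟩
      (by
        show s33y_redI G φ M p hpM hdeg hT hdegM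
          ⟨wN⁻¹, s33s_ring_mem OO (s18_chart2 (L₀ := K₀) wN) true ⟨wN⁻¹, hmemR⟩⟩ ≠ 0
        rw [hred]; exact inv_ne_zero hX0)
      (by
        show 0 < v₀.ord (s33y_redI G φ M p hpM hdeg hT hdegM
          ⟨wN⁻¹, s33s_ring_mem OO (s18_chart2 (L₀ := K₀) wN) true ⟨wN⁻¹, hmemR⟩⟩)
        rw [hred, v₀.ord_inv]; omega)
    exact @hni s.1 s.2.1.isPrime s.2.2.1 s.2.2.2 hmem

end Inf

end Fermat.Agent.Lib.S59
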