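/-
Programme (R2) / node **[CAR]**, the ports to `q ∈ {2, 3}`, count data over a chart package (helper8, prefix `s59c_`),
part 2: **[FIN-bound], function-field form, OVER A CHART PACKAGE** `C : s59b_Chart …`.

Frame: `X₀(M q)`, `q ∤ M`, chart `{C.wN regular}` with REGULAR crossings (`hX`), [DIV-e] at the places over `w̄ = ∞`
(`hinf`).  Port of `CNodeFin.lean` (`s33s_datum_five ↦ C.Z`, `s44c_five_Ns ↦ s44c_thr`).

* `s59c_eta_W`          : at every node `s` a function `η_s`, unit at the places through `s`, with `δ η_s = 1`;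
* `s59c_unit_of_delta_W`: `δ υ = 0 ⇒ υ = ϖ ^ a · (unit of V_∞ and V_0)`;
* `s59c_star_node_W`    : (★), local form at ONE node;
* **`s59c_fin_fn_W`**   : `u ≠ 0` with the exact (Q4) of exponent `m` on chart 1 and `m ∣ ord_{v₀} red_∞` over `w̄ = ∞` for
                          its `V_∞`-unit part, `n' = ∑_s [k_s : κ]`:  `u ^ n' = Gg ^ m · ϖ ^ a · h`, `h` a unit of both Gauss
                          rings, of order `0` at the node places.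
-/
import Fermat.Agent.Lib.S59.CDegW
import Fermat.Agent.Lib.S59.CNodeFin

set_option autoImplicit false
set_option linter.unusedSectionVars false
set_option linter.style.haveILetI false
set_option synthInstance.maxHeartbeats 400000
set_option maxHeartbeats 1600000

noncomputable section

namespace Fermat.Agent.Lib.S59

open ModularCurve AlgebraicCurve HahnSeries Polynomial Fermat.Agent.Lib.FF Fermat.Agent.Lib.S18
  Fermat.Agent.Lib.S34 Fermat.Agent.Lib.S37 Fermat.Agent.Lib.S33 Fermat.Agent.Lib.S36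
  Fermat.Agent.Lib.S44 Fermat.Agent.Lib.S28

local notation "Kb" => AlgebraicClosure ℚ

section Chart

variable (M q : ℕ) [NeZero M] [hq : Fact q.Prime] (hqM : ¬ q ∣ M)
  (K₀ : Type) [Field K₀] [NumberField K₀] (φ : K₀ →+* Kb)
  (κ : Type) [Field κ] [CharP κ q] [PerfectField κ]
  (G : s18g_GaussData K₀ κ) [IsDiscreteValuationRing G.A]
  (hdeg : s34m_HDeg K₀ M q) (hT : s18g_HT κ M) (hdegM : s18g_HDeg K₀ M)
  (hπ : Function.Surjective G.π)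
  (e : ℕ) (ε : K₀) (he : 0 < e) (hε : ε ∈ G.A) (hεinv : ε⁻¹ ∈ G.A) (hε0 : ε ≠ 0)
  (hqe : (q : K₀) = ε * ((G.ϖ : G.A) : K₀) ^ e) (hperf : ∀ c : κ, ∃ d : κ, d ^ q = c)
  (C : s59b_Chart G φ M q hqM hT hdegM)

local notation "hFM" => (fun (f : LaurentSeries K₀)
  (hf : f ∈ laurentBaseChange K₀ (modularFunctionFieldFull M)) => s18g_baseChange_mem_Frac G M hf)
local notation "FbM" => modularFunctionFieldFullC κ M
local notation "OO" => s34m_VV G φ M q hq.out hqM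
local notation "ϖF" => s34m_unif G (M * q)
local notation "S₁" => s18_chart1 (L₀ := K₀) C.wN
local notation "ZZ" => C.Z hdeg hπ e ε he hε hεinv hε0 hqe hperf

/-- **the local unit at a node** (regular crossing): a unit at the places through `s` with `δ η = 1`. -/
theorem s59c_eta_W
    (hX : haveI : NeZero q := ⟨hq.out.ne_zero⟩; s36q_fi_CrossReg G φ M q hq.out hqM C.wN)
    (s : s33s_Node OO ϖF S₁) :
    ∃ η : s34m_F K₀ (M * q), s44c_Unit (s44c_thr OO S₁ s.1) η ∧ s44c_delta ZZ η = 1 := by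
  haveI : NeZero q := ⟨hq.out.ne_zero⟩
  haveI : s.1.IsMaximal := s.2.1
  haveI : s.1.IsPrime := s.2.1.isPrime
  have hcT := s59c_node_compThrough G φ M q hqM S₁ s true
  have hcF := s59c_node_compThrough G φ M q hqM S₁ s false
  obtain ⟨η, hη0, hηT, hηT', hηF, hηF', hηord⟩ :=
    s59c_eta_of_regCross OO S₁ s.1 ϖF (s34m_unif_ne_zero G (M * q))
      (fun y hy => s36q_fi_gen G φ M q hq.out hqM true y hy)
      (fun y hy => s36q_fi_gen G φ M q hq.out hqM false y hy)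
      (fun Q _ => ff_ord_algebraMap Q _) hcT hcF (hX s.1 hcT hcF)
  have hϖ0 : ϖF ≠ 0 := s34m_unif_ne_zero G (M * q)
  refine ⟨η, ⟨hη0, fun Q hQ => hηord Q hQ.1 hQ.2⟩, ?_⟩
  have hi : s44c_Val (ZZ).Di 0 η := by
    refine ⟨η, hη0, hηT, hηT', ?_⟩
    rw [zpow_zero, one_mul]
  have hz : s44c_Val (ZZ).Dz 1 η := by
    refine ⟨η * ϖF⁻¹, mul_ne_zero hη0 (inv_ne_zero hϖ0), hηF, hηF', ?_⟩
    show η = ϖF ^ (1 : ℤ) * (η * ϖF⁻¹)
    rw [zpow_one]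
    field_simp
  rw [s44c_delta_eq hi hz, sub_zero]

/-- `δ υ = 0`: `υ = ϖ ^ a · (a unit of `V_∞` and of `V_0`)`. -/
theorem s59c_unit_of_delta_W {υ : s34m_F K₀ (M * q)} (hυ : υ ≠ 0)
    (hδ : s44c_delta ZZ υ = 0) :
    ∃ a : ℤ, ∀ i, υ * s34m_unif G (M * q) ^ (-a) ∈ s34m_VV G φ M q hq.out hqM i ∧
      (υ * s34m_unif G (M * q) ^ (-a))⁻¹ ∈ s34m_VV G φ M q hq.out hqM i := by
  set Z := ZZ with hZ
  have hi := s44c_v_spec (D := Z.Di) hυ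
  have hz := s44c_v_spec (D := Z.Dz) hυ
  have hδ' : s44c_v Z.Dz υ = s44c_v Z.Di υ := by
    unfold s44c_delta at hδ
    omega
  rw [hδ'] at hz
  have hπ0 : s34m_unif G (M * q) ≠ 0 := s34m_unif_ne_zero G (M * q)
  refine ⟨s44c_v Z.Di υ, fun i => ?_⟩
  have key : ∀ u : s34m_F K₀ (M * q), u ≠ 0 →
      υ = s34m_unif G (M * q) ^ (s44c_v Z.Di υ) * u →
      υ * s34m_unif G (M * q) ^ (-(s44c_v Z.Di υ)) = u := by
    intro u _ e
    rw [zpow_neg]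
    nth_rewrite 1 [e]
    field_simp
  cases i
  · obtain ⟨u, hu0, hu, hu', e⟩ := hz
    have e' := key u hu0 e
    rw [e']
    exact ⟨hu, hu'⟩
  · obtain ⟨u, hu0, hu, hu', e⟩ := hi
    have e' := key u hu0 e
    rw [e']
    exact ⟨hu, hu'⟩

/-- **(★), local form at ONE node, with a unit `η` depending on the node**: the output is the hypothesis `hloc` of
`s44e_glob_modular` at `s`. -/
theorem s59c_star_node_W {n : ℕ} (hn : n ≠ 0) {F : s34m_F K₀ (M * q)} (hF : F ≠ 0)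
    (s : s33s_Node OO ϖF S₁)
    (hnode : ∃ φ' E : s34m_F K₀ (M * q), F = φ' ^ n * E ∧
      s44c_Unit (s44c_thr OO S₁ s.1) E)
    (hδF : (n : ℤ) ∣ s44c_delta ZZ F)
    {η : s34m_F K₀ (M * q)} (hη : s44c_Unit (s44c_thr OO S₁ s.1) η)
    (hη2 : IsCoprime (n : ℤ) (s44c_delta ZZ η)) :
    ∃ (g' υ : s34m_F K₀ (M * q)) (a' : ℤ), F = g' ^ n * υ ∧
      (∀ i, υ * ϖF ^ (-a') ∈ OO i ∧ (υ * ϖF ^ (-a'))⁻¹ ∈ OO i) ∧
      ∀ Q ∈ S₁, s34f_through (s34x_infRing OO) S₁ s.1 Q → Q.ord υ = 0 := by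
  obtain ⟨φ', E, ef, hE⟩ := hnode
  have hφ0 : φ' ≠ 0 := by
    rintro rfl
    rw [zero_pow hn, zero_mul] at ef
    exact hF ef
  have hδ : (n : ℤ) ∣ s44c_delta ZZ E := by
    obtain ⟨r, hr⟩ := hδF
    have := congrArg (s44c_delta ZZ) ef
    rw [s44c_delta_mul (pow_ne_zero _ hφ0) hE.1, s44c_delta_pow hφ0, hr] at this
    exact ⟨r - s44c_delta ZZ φ', by linear_combination -this⟩
  obtain ⟨g', υ, e1, hU, hδυ⟩ := s59n_local_fin_tame_n (Z := ZZ) ef hE hη hδ hη2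
  obtain ⟨a', ha'⟩ := s59c_unit_of_delta_W M q hqM K₀ φ κ G hdeg hT hdegM hπ e ε he hε hεinv
    hε0 hqe hperf C hU.1 hδυ
  exact ⟨g', υ, a', e1, ha', fun Q hQ hth => hU.2 Q ⟨hQ, hth⟩⟩

end Chart

section Main

variable (M q : ℕ) [NeZero M] [hq : Fact q.Prime] (hqM : ¬ q ∣ M)
  (K₀ : Type) [Field K₀] [NumberField K₀] (φ : K₀ →+* Kb)
  (κ : Type) [Field κ] [CharP κ q] [PerfectField κ]
  (G : s18g_GaussData K₀ κ) [IsDiscreteValuationRing G.A]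
  (hdeg : s34m_HDeg K₀ M q) (hT : s18g_HT κ M) (hdegM : s18g_HDeg K₀ M)
  (hπ : Function.Surjective G.π)
  (C : s59b_Chart G φ M q hqM hT hdegM)

local notation "hFM" => (fun (f : LaurentSeries K₀)
  (hf : f ∈ laurentBaseChange K₀ (modularFunctionFieldFull M)) => s18g_baseChange_mem_Frac G M hf)
local notation "FbM" => modularFunctionFieldFullC κ M
local notation "OO" => s34m_VV G φ M q hq.out hqM
local notation "ϖF" => s34m_unif G (M * q)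
local notation "S₁" => s18_chart1 (L₀ := K₀) C.wN
local notation "S₂" => s18_chart2 (L₀ := K₀) C.wN

include hdeg in
/-- **[FIN-bound], function-field form, over a chart package.** -/
theorem s59c_fin_fn_W
    (hX : haveI : NeZero q := ⟨hq.out.ne_zero⟩; s36q_fi_CrossReg G φ M q hq.out hqM C.wN)
    (hϖ : ((G.ϖ : G.A) : K₀) = (q : K₀))
    (m : ℕ) (hm0 : m ≠ 0)
    (hinf : ∀ (f : s34m_F K₀ (M * q)) (_ : f ≠ 0) (hfI : f ∈ s34m_Vinf G (M * q))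
      (_ : f⁻¹ ∈ s34m_Vinf G (M * q)),
      (∀ 𝔫 : Ideal (s34x_ring (s34x_infRing OO) S₂), 𝔫.IsMaximal →
        s34x_const (s34x_infRing OO) S₂ ((G.ϖ : G.A) : K₀)
          (s34x_inf_const_mem OO G.A (s34c_const_mem_VV G φ M q hq.out hqM) G.ϖ) ∈ 𝔫 →
        ∃ Φ : s34m_F K₀ (M * q), Φ ≠ 0 ∧ ∀ Q ∈ S₂,
          s34f_through (s34x_infRing OO) S₂ 𝔫 Q → Q.ord f = ((m : ℕ) : ℤ) * Q.ord Φ) →
      ∀ v₀ : Place κ ↥FbM,
        s18g_redF G M hFM hT hdegM ⟨C.w, C.hwV⟩ ∉ v₀.toValuationSubring →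
        (m : ℤ) ∣ v₀.ord (s33y_redI G φ M q hqM hdeg hT hdegM ⟨f, hfI⟩))
    (u : s34m_F K₀ (M * q)) (hu0 : u ≠ 0)
    (hQ4₁ : ∀ 𝔫 : Ideal (s34x_ring (s34x_infRing OO) S₁), 𝔫.IsMaximal →
      s34x_const (s34x_infRing OO) S₁ ((G.ϖ : G.A) : K₀)
        (s34x_inf_const_mem OO G.A (s34c_const_mem_VV G φ M q hq.out hqM) G.ϖ) ∈ 𝔫 →
      ∃ Φ : s34m_F K₀ (M * q), Φ ≠ 0 ∧ ∀ Q ∈ S₁,
        s34f_through (s34x_infRing OO) S₁ 𝔫 Q → Q.ord u = ((m : ℕ) : ℤ) * Q.ord Φ)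
    (hQ4₂ : ∀ 𝔫 : Ideal (s34x_ring (s34x_infRing OO) S₂), 𝔫.IsMaximal →
      s34x_const (s34x_infRing OO) S₂ ((G.ϖ : G.A) : K₀)
        (s34x_inf_const_mem OO G.A (s34c_const_mem_VV G φ M q hq.out hqM) G.ϖ) ∈ 𝔫 →
      ∃ Φ : s34m_F K₀ (M * q), Φ ≠ 0 ∧ ∀ Q ∈ S₂,
        s34f_through (s34x_infRing OO) S₂ 𝔫 Q → Q.ord u = ((m : ℕ) : ℤ) * Q.ord Φ)
    (T : Finset (s33s_Node OO ϖF S₁)) (hTall : ∀ s, s ∈ T) :
    ∃ (Gg h : s34m_F K₀ (M * q)) (a : ℤ), Gg ≠ 0 ∧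
      u ^ (∑ s ∈ T, Module.finrank κ (s33s_kG G φ M q hqM S₁ hπ s)) = Gg ^ m * (ϖF ^ a * h) ∧
      (∀ i, h ∈ OO i ∧ h⁻¹ ∈ OO i) ∧
      ∀ Q ∈ s33s_nodePlaces OO ϖF S₁, Q.ord h = 0 := by
  classical
  haveI : NeZero q := ⟨hq.out.ne_zero⟩
  -- the auxiliary parameters of the Σ-datum: `q = 1 · ϖ ^ 1`
  have he : 0 < 1 := one_pos
  have hε : (1 : K₀) ∈ G.A := G.A.one_mem
  have hεinv : (1 : K₀)⁻¹ ∈ G.A := by rw [inv_one]; exact G.A.one_mem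
  have hε0 : (1 : K₀) ≠ 0 := one_ne_zero
  have hqe : (q : K₀) = 1 * ((G.ϖ : G.A) : K₀) ^ 1 := by rw [one_mul, pow_one, hϖ]
  have hperf : ∀ c : κ, ∃ d : κ, d ^ q = c := fun c =>
    (PerfectRing.bijective_frobenius (R := κ) (p := q)).surjective c
  set Z₁ := C.Z hdeg hπ 1 1 he hε hεinv hε0 hqe hperf with hZ₁
  set n' : ℕ := ∑ s ∈ T, Module.finrank κ (s33s_kG G φ M q hqM S₁ hπ s) with hn'
  have hϖ0 : ϖF ≠ 0 := s34m_unif_ne_zero G (M * q)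
  have hordϖ : ∀ (Q : Place K₀ (s34m_F K₀ (M * q))) (k : ℤ), Q.ord (ϖF ^ k) = 0 := by
    intro Q k
    rw [Q.ord_zpow]
    have : Q.ord ϖF = 0 := ff_ord_algebraMap Q _
    rw [this, mul_zero]
  -- the decomposition of `u`
  obtain ⟨k, u₁, hu₁T, hu₁T', eu⟩ := s34m_exists_zpow_VV G φ M q hq.out hqM true u hu0
  have hu₁0 : u₁ ≠ 0 := by
    rintro rfl
    exact hu0 (by rw [eu, mul_zero])
  obtain ⟨a, u₂, hu₂F, hu₂F', eu₁⟩ := s34m_exists_zpow_VV G φ M q hq.out hqM false u₁ hu₁0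
  have hu₂0 : u₂ ≠ 0 := by
    rintro rfl
    exact hu₁0 (by rw [eu₁, mul_zero])
  have hu₂ : u₁ * ϖF ^ (-a) = u₂ := by
    rw [eu₁, zpow_neg]
    field_simp
  have hordu : ∀ Q : Place K₀ (s34m_F K₀ (M * q)), Q.ord u₁ = Q.ord u := by
    intro Q
    rw [eu, Q.ord_mul (zpow_ne_zero _ hϖ0) hu₁0, hordϖ, zero_add]
  -- [DEG]
  have hDEG := s59c_deg_cong_W M q hqM K₀ φ κ G hdeg hT hdegM hπ C hX m u₁ hu₁0 hu₁T hu₁T'
    (hinf u₁ hu₁0 hu₁T hu₁T' (fun 𝔫 h𝔫 hmem => by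
      obtain ⟨Φ, hΦ0, hΦ⟩ := hQ4₂ 𝔫 h𝔫 hmem
      exact ⟨Φ, hΦ0, fun Q hQ hth => by rw [hordu]; exact hΦ Q hQ hth⟩))
    a (by rw [hu₂]; exact hu₂F) (by rw [hu₂]; exact hu₂F')
    (fun 𝔫 h𝔫 hmem => by
      obtain ⟨Φ, hΦ0, hΦ⟩ := hQ4₁ 𝔫 h𝔫 hmem
      exact ⟨Φ, hΦ0, fun Q hQ hth => by rw [hordu]; exact hΦ Q hQ hth⟩)
    T hTall
  rw [← Nat.cast_sum, ← hn'] at hDEG
  -- `δ u = a`
  have hδu : s44c_delta Z₁ u = a := by
    have hi : s44c_Val Z₁.Di k u := ⟨u₁, hu₁0, hu₁T, hu₁T', eu⟩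
    have hz : s44c_Val Z₁.Dz (k + a) u := by
      refine ⟨u₂, hu₂0, hu₂F, hu₂F', ?_⟩
      show u = ϖF ^ (k + a) * u₂
      rw [eu, eu₁, zpow_add₀ hϖ0, mul_assoc]
    rw [s44c_delta_eq hi hz]
    ring
  have hF0 : u ^ n' ≠ 0 := pow_ne_zero _ hu0
  have hδF : (m : ℤ) ∣ s44c_delta Z₁ (u ^ n') := by
    rw [s44c_delta_pow hu0, hδu, mul_comm]
    exact hDEG
  -- the local forms
  have hloc : ∀ s : s33s_Node OO ϖF S₁,
      ∃ (g υ : s34m_F K₀ (M * q)) (a : ℤ), u ^ n' = g ^ m * υ ∧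
        (∀ i, υ * ϖF ^ (-a) ∈ OO i ∧ (υ * ϖF ^ (-a))⁻¹ ∈ OO i) ∧
        ∀ Q ∈ S₁, s34f_through (s34x_infRing OO) S₁ s.1 Q → Q.ord υ = 0 := by
    intro s
    obtain ⟨η, hη, hδη⟩ := s59c_eta_W M q hqM K₀ φ κ G hdeg hT hdegM hπ 1 1 he hε hεinv hε0
      hqe hperf C hX s
    obtain ⟨Φ, hΦ0, hΦ⟩ := hQ4₁ s.1 s.2.1 (s.2.2.1 (s59m_unif_mem_comp G φ M q hqM S₁ true))
    have hΦm0 : Φ ^ m ≠ 0 := pow_ne_zero _ hΦ0
    have hE : s44c_Unit (s44c_thr OO S₁ s.1) (u * (Φ ^ m)⁻¹) := by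
      refine ⟨mul_ne_zero hu0 (inv_ne_zero hΦm0), fun Q hQ => ?_⟩
      rw [Q.ord_mul hu0 (inv_ne_zero hΦm0), Q.ord_inv, ← zpow_natCast, Q.ord_zpow, hΦ Q hQ.1 hQ.2]
      ring
    refine s59c_star_node_W M q hqM K₀ φ κ G hdeg hT hdegM hπ 1 1 he hε hεinv hε0 hqe hperf C
      hm0 hF0 s ⟨Φ ^ n', (u * (Φ ^ m)⁻¹) ^ n', ?_, hE.pow n'⟩ hδF hη ?_
    · have h1 : (Φ ^ n') ^ m = (Φ ^ m) ^ n' := pow_right_comm Φ n' m
      rw [h1, ← mul_pow]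
      congr 1
      field_simp
    · rw [hδη]
      exact isCoprime_one_right
  haveI := C.gen
  haveI : Finite (s33s_Node OO ϖF S₁) :=
    s44e_finite_node_W G φ M q hqM hdeg hT hdegM C.w C.hwV C.hcoord C.hwtw C.hmain C.wN C.hwN
      C.hαN C.hαB C.hβB
  exact s44e_glob_modular G φ M q hqM S₁ C.hnode m hm0 (u ^ n') hF0 hloc

end Main

end Fermat.Agent.Lib.S59
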