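/-
Programme (R2), node [CAR] / count data, helper8 (prefix `s59c_`): **[FIN-bound] in helper9's concrete frame**
(`MCarFrame.lean`: Σ-datum `s59m_Zc`, Kummer frame `s59m_kumFrameC`, finite points `F.Fin`).

* `s59c_isKumGen_pow`   : `f` a Kummer generator of `z`  ⟹  `f ^ n` a Kummer generator of `n • z`;
* **`s59c_fin_bound`**  : `y ∈ J₀(M q)` with a Kummer generator `u` of exponent `m` over `L₀` (unramified at `q`:
  `ϖ = q`; `ν₂(M) = ν₃(M) = 0`) satisfying the exact (Q4) of exponent `m` on both charts  ⟹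
  `n' • y ∈ F.Fin`, `n' = ∑_s [k_s : κ₀]` (= the number of geometric nodes; `12 n' ≤ (q - 1) ψ(M)` by `s59c_node_count`).
-/
import Fermat.Agent.Lib.S59.CNodeFin
import Fermat.Agent.Lib.S59.MCarFrame

set_option autoImplicit false
set_option linter.unusedSectionVars false
set_option linter.style.haveILetI false
set_option linter.unusedVariables false
set_option synthInstance.maxHeartbeats 400000
set_option maxHeartbeats 1600000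

noncomputable section

namespace Fermat.Agent.Lib.S59

open ModularCurve HahnSeries AlgebraicCurve Fermat.Agent.Lib.FF Fermat.Agent.Lib.S18
  Fermat.Agent.Lib.S28 Fermat.Agent.Lib.S29 Fermat.Agent.Lib.S37 Fermat.Agent.Lib.S34
  Fermat.Agent.Lib.S35 Fermat.Agent.Lib.S33 Fermat.Agent.Lib.S44

local notation "Kb" => AlgebraicClosure ℚ
local notation "Γℚ" => (AlgebraicClosure ℚ ≃ₐ[ℚ] AlgebraicClosure ℚ)

section Abs

variable {K F : Type*} [Field K] [Field F] [Algebra K F]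

theorem s59c_isKumGen_pow {m : ℕ} {z : Pic0 K F} {f : F} (hf : s33d_IsKumGen m z f) (n : ℕ) :
    s33d_IsKumGen m (n • z) (f ^ n) := by
  induction n with
  | zero =>
    rw [zero_nsmul, pow_zero]
    exact ⟨one_ne_zero, 0, rfl, fun v => by simp⟩
  | succ n ih =>
    rw [succ_nsmul, pow_succ]
    exact s59m_isKumGen_mul ih hf

end Abs

section Frame

variable (M q : ℕ) [NeZero M] [hq : Fact q.Prime] (hqM : ¬ q ∣ M) (h5 : 5 ≤ q)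
  (m : ℕ) (hm0 : m ≠ 0) (hqm : ¬ q ∣ m)
  (P : ValuationSubring Kb) (hP : P.LiesOverPrime q)
  (L₀ : IntermediateField ℚ Kb) [FiniteDimensional ℚ ↥L₀] [IsDiscreteValuationRing ↥(s18q_A0 P L₀)]
  (ϖ : ↥(s18q_A0 P L₀)) (hϖ : Irreducible ϖ)
  [NumberField ↥L₀] [CharP (IsLocalRing.ResidueField ↥(s18q_A0 P L₀)) q]
  [PerfectField (IsLocalRing.ResidueField ↥(s18q_A0 P L₀))]
  [IsDiscreteValuationRing ↥(s37r_G P L₀ ϖ hϖ).A]
  (hdeg : s34m_HDeg ↥L₀ M q) (hT : s18g_HT (IsLocalRing.ResidueField ↥(s18q_A0 P L₀)) M)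
  (hdegM : s18g_HDeg ↥L₀ M) (hπ : Function.Surjective (s37r_G P L₀ ϖ hϖ).π)
  (e : ℕ) (ε : ↥L₀) (he : 0 < e) (hε : ε ∈ (s37r_G P L₀ ϖ hϖ).A)
  (hεinv : ε⁻¹ ∈ (s37r_G P L₀ ϖ hϖ).A) (hε0 : ε ≠ 0)
  (hqe : (q : ↥L₀) = ε * (((s37r_G P L₀ ϖ hϖ).ϖ : (s37r_G P L₀ ϖ hϖ).A) : ↥L₀) ^ e)
  (hperf : ∀ c : IsLocalRing.ResidueField ↥(s18q_A0 P L₀), ∃ d, d ^ q = c)

set_option quotPrecheck false

local notation "GG" => s37r_G P L₀ ϖ hϖ
local notation "OO" => s34m_VV (s37r_G P L₀ ϖ hϖ) (algebraMap ↥L₀ Kb) M q hq.out hqM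
local notation "ϖF" => s34m_unif (s37r_G P L₀ ϖ hϖ) (M * q)
local notation "S₁" => s18_chart1 (L₀ := ↥L₀) (s18g_jF (K := ↥L₀) (M * q))
local notation "S₂" => s18_chart2 (L₀ := ↥L₀) (s18g_jF (K := ↥L₀) (M * q))

/-- **[FIN-bound]**: a class `y ∈ J₀(M q)` with a Kummer generator `u` of exponent `m` over `L₀` satisfying the exact
(Q4) of exponent `m` on both charts: `n' • y` is a FINITE point, `n' = ∑_s [k_s : κ₀]` the number of geometric nodes. -/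
theorem s59c_fin_bound (h2 : nuTwo M = 0) (h3 : nuThree M = 0)
    (hϖq : ((ϖ : ↥(s18q_A0 P L₀)) : ↥L₀) = (q : ↥L₀))
    (y : JZero (M * q)) (u : s34m_F ↥L₀ (M * q)) (hu : s59m_genC (M * q) m L₀ y u)
    (hQ4₁ : ∀ 𝔫 : Ideal (s34x_ring (s34x_infRing OO) S₁), 𝔫.IsMaximal →
      s34x_const (s34x_infRing OO) S₁ (((GG).ϖ : (GG).A) : ↥L₀)
        (s34x_inf_const_mem OO (GG).A (s34c_const_mem_VV GG (algebraMap ↥L₀ Kb) M q hq.out hqM)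
          (GG).ϖ) ∈ 𝔫 →
      ∃ Φ : s34m_F ↥L₀ (M * q), Φ ≠ 0 ∧ ∀ Q ∈ S₁,
        s34f_through (s34x_infRing OO) S₁ 𝔫 Q → Q.ord u = ((m : ℕ) : ℤ) * Q.ord Φ)
    (hQ4₂ : ∀ 𝔫 : Ideal (s34x_ring (s34x_infRing OO) S₂), 𝔫.IsMaximal →
      s34x_const (s34x_infRing OO) S₂ (((GG).ϖ : (GG).A) : ↥L₀)
        (s34x_inf_const_mem OO (GG).A (s34c_const_mem_VV GG (algebraMap ↥L₀ Kb) M q hq.out hqM)
          (GG).ϖ) ∈ 𝔫 →
      ∃ Φ : s34m_F ↥L₀ (M * q), Φ ≠ 0 ∧ ∀ Q ∈ S₂,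
        s34f_through (s34x_infRing OO) S₂ 𝔫 Q → Q.ord u = ((m : ℕ) : ℤ) * Q.ord Φ)
    (T : Finset (s33s_Node OO ϖF S₁)) (hTall : ∀ s, s ∈ T) :
    (∑ s ∈ T, Module.finrank (IsLocalRing.ResidueField ↥(s18q_A0 P L₀))
        (s33s_kG GG (algebraMap ↥L₀ Kb) M q hqM S₁ hπ s)) • y ∈
      (s59m_kumFrameC M q hqM h5 m hm0 hqm P hP L₀ ϖ hϖ hdeg hT hdegM hπ e ε he hε hεinv hε0 hqe
        hperf).Fin := by
  have hu0 : u ≠ 0 := by
    intro h0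
    apply hu.1
    rw [h0, map_zero]
  obtain ⟨Gg, h, a, hGg0, eF, hh, hnode⟩ := s59c_fin_fn M q hqM h5 ↥L₀ (algebraMap ↥L₀ Kb)
    (IsLocalRing.ResidueField ↥(s18q_A0 P L₀)) GG hdeg hT hdegM hπ h2 h3 hϖq m hm0 u hu0
    hQ4₁ hQ4₂ T hTall
  set n' := ∑ s ∈ T, Module.finrank (IsLocalRing.ResidueField ↥(s18q_A0 P L₀))
    (s33s_kG GG (algebraMap ↥L₀ Kb) M q hqM S₁ hπ s) with hn'
  have hϖ0 : ϖF ≠ 0 := s34m_unif_ne_zero GG (M * q)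
  have hh0 : h ≠ 0 := by
    rintro rfl
    apply pow_ne_zero n' hu0
    rw [eF, mul_zero, mul_zero]
  refine ⟨h, ?_, ⟨(hh true).1, (hh true).2, (hh false).1, (hh false).2, hh0, hnode⟩⟩
  show s33d_IsKumGen m (n' • y) (s18q_incl (M * q) L₀ h)
  have hpow := s59c_isKumGen_pow hu n'
  -- `h = (ϖ ^ a)⁻¹ · (Gg⁻¹) ^ m · u ^ n'`
  set c : ↥L₀ := ((((GG).ϖ : (GG).A) : ↥L₀) ^ a)⁻¹ with hc
  have hϖL0 : (((GG).ϖ : (GG).A) : ↥L₀) ≠ 0 := by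
    intro h0
    apply hϖ0
    show algebraMap ↥L₀ (s34m_F ↥L₀ (M * q)) _ = 0
    rw [h0, map_zero]
  have hc0 : ((c : ↥L₀) : Kb) ≠ 0 := by
    intro h0
    have : c = 0 := Subtype.ext h0
    rw [hc] at this
    exact inv_ne_zero (zpow_ne_zero _ hϖL0) this
  have hg0 : s18q_incl (M * q) L₀ Gg⁻¹ ≠ 0 := (_root_.map_ne_zero _).mpr (inv_ne_zero hGg0)
  have hK := s33d_kumGen_mul hpow hc0 hg0
  have e5 : algebraMap Kb (ffi_F (M * q)) ((c : ↥L₀) : Kb) * s18q_incl (M * q) L₀ Gg⁻¹ ^ m *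
      s18q_incl (M * q) L₀ u ^ n' = s18q_incl (M * q) L₀ h := by
    rw [← s18q_incl_algebraMap, ← map_pow, ← map_pow, ← map_mul, ← map_mul]
    congr 1
    rw [eF, hc, map_inv₀, map_zpow₀]
    show (ϖF ^ a)⁻¹ * Gg⁻¹ ^ m * (Gg ^ m * (ϖF ^ a * h)) = h
    have h1 : ϖF ^ a ≠ 0 := zpow_ne_zero _ hϖ0
    have h2' : Gg ^ m ≠ 0 := pow_ne_zero _ hGg0
    rw [inv_pow]
    field_simp
  rw [e5] at hK
  exact hK

end Frame

end Fermat.Agent.Lib.S59
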