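/-
Programme (R2) / node **[CAR]**, the ports to `q ∈ {2, 3}`, count data over a chart package (helper8, prefix `s59c_`),
part 3: **THE CHART-SPECIFIC INPUTS OF THE COUNT DATA, AND [FIN-bound] IN THE FRAME `s59b_kumFrameCW`.**

* `s59c_ChartIn hdeg hπ C` : for a chart package `C : s59b_Chart …` (helper2's `B4Chart.lean`): the level is good, the crossings
  of the chart `{C.wN regular}` are regular, [DIV-e] at the places over `w̄ = ∞` for the units of `V_∞` with (Q4) on chart 2,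
  [DIV-e] on both components for the units of both Gauss rings with (Q4) on both charts, and the node count
  `12 · ∑_{s ∈ T} [k_s : κ] ≤ (q - 1) ψ(M)`;
* **`s59c_fin_bound_W`** : [FIN-bound] in helper2's frame `s59b_kumFrameCW` (port of `s59c_fin_bound`, `CNodeFinC.lean`).
-/
import Fermat.Agent.Lib.S59.CFinW
import Fermat.Agent.Lib.S59.CNodeFinC
import Fermat.Agent.Lib.S59.B4Frame

set_option autoImplicit false
set_option linter.unusedSectionVars false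
set_option linter.style.haveILetI false
set_option linter.unusedVariables false
set_option synthInstance.maxHeartbeats 400000
set_option maxHeartbeats 1600000

noncomputable section

namespace Fermat.Agent.Lib.S59

open ModularCurve HahnSeries AlgebraicCurve Polynomial Fermat.Agent.Lib.FF Fermat.Agent.Lib.S18
  Fermat.Agent.Lib.S28 Fermat.Agent.Lib.S29 Fermat.Agent.Lib.S37 Fermat.Agent.Lib.S34
  Fermat.Agent.Lib.S35 Fermat.Agent.Lib.S33 Fermat.Agent.Lib.S36 Fermat.Agent.Lib.S44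

local notation "Kb" => AlgebraicClosure ℚ
local notation "Γℚ" => (AlgebraicClosure ℚ ≃ₐ[ℚ] AlgebraicClosure ℚ)

section Def

variable {M q : ℕ} [NeZero M] [hq : Fact q.Prime] {hqM : ¬ q ∣ M}
  {K₀ : Type} [Field K₀] [NumberField K₀] {φ : K₀ →+* Kb}
  {κ : Type} [Field κ] [CharP κ q] [PerfectField κ]
  {G : s18g_GaussData K₀ κ} [IsDiscreteValuationRing G.A]
  (hdeg : s34m_HDeg K₀ M q) {hT : s18g_HT κ M} {hdegM : s18g_HDeg K₀ M}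
  (hπ : Function.Surjective G.π)
  (C : s59b_Chart G φ M q hqM hT hdegM)

local notation "hFM" => (fun (f : LaurentSeries K₀)
  (hf : f ∈ laurentBaseChange K₀ (modularFunctionFieldFull M)) => s18g_baseChange_mem_Frac G M hf)
local notation "FbM" => modularFunctionFieldFullC κ M
local notation "OO" => s34m_VV G φ M q hq.out hqM
local notation "ϖF" => s34m_unif G (M * q)
local notation "S₁" => s18_chart1 (L₀ := K₀) C.wN
local notation "S₂" => s18_chart2 (L₀ := K₀) C.wN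

/-- **the chart-specific inputs of the count data** over a chart package `C`. -/
structure s59c_ChartIn : Prop where
  /-- the level is good -/
  good : s18_GoodLevel q M
  /-- the crossings of the chart `{C.wN regular}` are regular -/
  cross : haveI : NeZero q := ⟨hq.out.ne_zero⟩
    s36q_fi_CrossReg G φ M q hq.out hqM C.wN
  /-- [DIV-e] at the places over `w̄ = ∞` -/
  divInf : ∀ (m : ℕ) (f : s34m_F K₀ (M * q)) (_ : f ≠ 0) (hfI : f ∈ s34m_Vinf G (M * q))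
    (_ : f⁻¹ ∈ s34m_Vinf G (M * q)),
    (∀ 𝔫 : Ideal (s34x_ring (s34x_infRing OO) S₂), 𝔫.IsMaximal →
      s34x_const (s34x_infRing OO) S₂ ((G.ϖ : G.A) : K₀)
        (s34x_inf_const_mem OO G.A (s34c_const_mem_VV G φ M q hq.out hqM) G.ϖ) ∈ 𝔫 →
      ∃ Φ : s34m_F K₀ (M * q), Φ ≠ 0 ∧ ∀ Q ∈ S₂,
        s34f_through (s34x_infRing OO) S₂ 𝔫 Q → Q.ord f = ((m : ℕ) : ℤ) * Q.ord Φ) →
    ∀ v₀ : Place κ ↥FbM,
      s18g_redF G M hFM hT hdegM ⟨C.w, C.hwV⟩ ∉ v₀.toValuationSubring →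
      (m : ℤ) ∣ v₀.ord (s33y_redI G φ M q hqM hdeg hT hdegM ⟨f, hfI⟩)
  /-- [DIV-e] on both components -/
  divp : ∀ (e : ℕ) (f : s34m_F K₀ (M * q)) (_ : f ≠ 0)
    (hfI : f ∈ s34m_Vinf G (M * q)) (_ : f⁻¹ ∈ s34m_Vinf G (M * q))
    (hfZ : f ∈ s34m_Vzero G φ M q hq.out hqM) (_ : f⁻¹ ∈ s34m_Vzero G φ M q hq.out hqM),
    (∀ Q ∈ s33s_nodePlaces OO ϖF S₁, Q.ord f = 0) →
    (∀ 𝔫 : Ideal (s34x_ring (s34x_infRing OO) S₁), 𝔫.IsMaximal →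
      s34x_const (s34x_infRing OO) S₁ ((G.ϖ : G.A) : K₀)
        (s34x_inf_const_mem OO G.A (s34c_const_mem_VV G φ M q hq.out hqM) G.ϖ) ∈ 𝔫 →
      ∃ Φ : s34m_F K₀ (M * q), Φ ≠ 0 ∧ ∀ Q ∈ S₁,
        s34f_through (s34x_infRing OO) S₁ 𝔫 Q → Q.ord f = ((e : ℕ) : ℤ) * Q.ord Φ) →
    (∀ 𝔫 : Ideal (s34x_ring (s34x_infRing OO) S₂), 𝔫.IsMaximal →
      s34x_const (s34x_infRing OO) S₂ ((G.ϖ : G.A) : K₀)
        (s34x_inf_const_mem OO G.A (s34c_const_mem_VV G φ M q hq.out hqM) G.ϖ) ∈ 𝔫 →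
      ∃ Φ : s34m_F K₀ (M * q), Φ ≠ 0 ∧ ∀ Q ∈ S₂,
        s34f_through (s34x_infRing OO) S₂ 𝔫 Q → Q.ord f = ((e : ℕ) : ℤ) * Q.ord Φ) →
    (∀ v₀ : Place κ ↥FbM, (e : ℤ) ∣ v₀.ord (s33y_redI G φ M q hqM hdeg hT hdegM ⟨f, hfI⟩)) ∧
    (∀ v₀ : Place κ ↥FbM, (e : ℤ) ∣ v₀.ord (s33y_redZ G φ M q hqM hdeg hT hdegM ⟨f, hfZ⟩))
  /-- the node count -/
  count : ∀ T : Finset (s33s_Node OO ϖF S₁),
    12 * ∑ s ∈ T, Module.finrank κ (s33s_kG G φ M q hqM S₁ hπ s) ≤ (q - 1) * dedekindPsi M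

end Def

section Frame

variable (M q : ℕ) [NeZero M] [hq : Fact q.Prime] (hqM : ¬ q ∣ M)
  (m : ℕ) (hm0 : m ≠ 0) (hqm : ¬ q ∣ m)
  (P : ValuationSubring Kb) (hP : P.LiesOverPrime q)
  (L₀ : IntermediateField ℚ Kb) [FiniteDimensional ℚ ↥L₀] [IsDiscreteValuationRing ↥(s18q_A0 P L₀)]
  (ϖ : ↥(s18q_A0 P L₀)) (hϖ : Irreducible ϖ)
  [NumberField ↥L₀] [CharP (IsLocalRing.ResidueField ↥(s18q_A0 P L₀)) q]
  [PerfectField (IsLocalRing.ResidueField ↥(s18q_A0 P L₀))]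
  [IsDiscreteValuationRing ↥(s37r_G P L₀ ϖ hϖ).A]
  (hdeg : s34m_HDeg ↥L₀ M q) (hT : s18g_HT (IsLocalRing.ResidueField ↥(s18q_A0 P L₀)) M)
  (hdegM : s18g_HDeg ↥L₀ M) (hπ : Function.Surjective (s37r_G P L₀ ϖ hϖ).π)
  (e : ℕ) (ε : ↥L₀) (he : 0 < e) (hε : ε ∈ (s37r_G P L₀ ϖ hϖ).A)
  (hεinv : ε⁻¹ ∈ (s37r_G P L₀ ϖ hϖ).A) (hε0 : ε ≠ 0)
  (hqe : (q : ↥L₀) = ε * (((s37r_G P L₀ ϖ hϖ).ϖ : (s37r_G P L₀ ϖ hϖ).A) : ↥L₀) ^ e)
  (hperf : ∀ c : IsLocalRing.ResidueField ↥(s18q_A0 P L₀), ∃ d, d ^ q = c)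
  (C : s59b_Chart (s37r_G P L₀ ϖ hϖ) (algebraMap ↥L₀ Kb) M q hqM hT hdegM)
  (hC : s59b_ChartGeo C)

set_option quotPrecheck false

local notation "GG" => s37r_G P L₀ ϖ hϖ
local notation "OO" => s34m_VV (s37r_G P L₀ ϖ hϖ) (algebraMap ↥L₀ Kb) M q hq.out hqM
local notation "ϖF" => s34m_unif (s37r_G P L₀ ϖ hϖ) (M * q)
local notation "S₁" => s18_chart1 (L₀ := ↥L₀) C.wN
local notation "S₂" => s18_chart2 (L₀ := ↥L₀) C.wN

/-- **[FIN-bound] over a chart package**: a class `y ∈ J₀(M q)` with a Kummer generator `u` of exponent `m` over `L₀`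
satisfying the exact (Q4) of exponent `m` on both charts: `n' • y` is a FINITE point, `n' = ∑_s [k_s : κ₀]`. -/
theorem s59c_fin_bound_W (hIn : s59c_ChartIn hdeg hπ C)
    (hϖq : ((ϖ : ↥(s18q_A0 P L₀)) : ↥L₀) = (q : ↥L₀))
    (y : JZero (M * q)) (u : s34m_F ↥L₀ (M * q)) (hu : s59m_genC (M * q) m L₀ y u)
    (hQ4₁ : ∀ 𝔫 : Ideal (s34x_ring (s34x_infRing OO) S₁), 𝔫.IsMaximal →
      s34x_const (s34x_infRing OO) S₁ (((GG).ϖ : (GG).A) : ↥L₀)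
        (s34x_inf_const_mem OO (GG).A (s34c_const_mem_VV GG (algebraMap ↥L₀ Kb) M q hq.out hqM)
          (GG).ϖ) ∈ 𝔫 →
      ∃ Φ : s34m_F ↥L₀ (M * q), Φ ≠ 0 ∧ ∀ Q ∈ S₁,
        s34f_through (s34x_infRing OO) S₁ 𝔫 Q → Q.ord u = ((m : ℕ) : ℤ) * Q.ord Φ)
    (hQ4₂ : ∀ 𝔫 : Ideal (s34x_ring (s34x_infRing OO) S₂), 𝔫.IsMaximal →
      s34x_const (s34x_infRing OO) S₂ (((GG).ϖ : (GG).A) : ↥L₀)
        (s34x_inf_const_mem OO (GG).A (s34c_const_mem_VV GG (algebraMap ↥L₀ Kb) M q hq.out hqM)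
          (GG).ϖ) ∈ 𝔫 →
      ∃ Φ : s34m_F ↥L₀ (M * q), Φ ≠ 0 ∧ ∀ Q ∈ S₂,
        s34f_through (s34x_infRing OO) S₂ 𝔫 Q → Q.ord u = ((m : ℕ) : ℤ) * Q.ord Φ)
    (T : Finset (s33s_Node OO ϖF S₁)) (hTall : ∀ s, s ∈ T) :
    (∑ s ∈ T, Module.finrank (IsLocalRing.ResidueField ↥(s18q_A0 P L₀))
        (s33s_kG GG (algebraMap ↥L₀ Kb) M q hqM S₁ hπ s)) • y ∈
      (s59b_kumFrameCW M q hqM m hm0 hqm P hP L₀ ϖ hϖ hdeg hT hdegM hπ e ε he hε hεinv hε0 hqe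
        hperf C hC).Fin := by
  have hu0 : u ≠ 0 := by
    intro h0
    apply hu.1
    rw [h0, map_zero]
  obtain ⟨Gg, h, a, hGg0, eF, hh, hnode⟩ := s59c_fin_fn_W M q hqM ↥L₀ (algebraMap ↥L₀ Kb)
    (IsLocalRing.ResidueField ↥(s18q_A0 P L₀)) GG hdeg hT hdegM hπ C hIn.cross hϖq m hm0
    (hIn.divInf m) u hu0 hQ4₁ hQ4₂ T hTall
  set n' := ∑ s ∈ T, Module.finrank (IsLocalRing.ResidueField ↥(s18q_A0 P L₀))
    (s33s_kG GG (algebraMap ↥L₀ Kb) M q hqM S₁ hπ s) with hn'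
  have hϖ0 : ϖF ≠ 0 := s34m_unif_ne_zero GG (M * q)
  have hh0 : h ≠ 0 := by
    rintro rfl
    apply pow_ne_zero n' hu0
    rw [eF, mul_zero, mul_zero]
  refine ⟨h, ?_, ⟨(hh true).1, (hh true).2, (hh false).1, (hh false).2, hh0, hnode⟩⟩
  show s33d_IsKumGen m (n' • y) (s18q_incl (M * q) L₀ h)
  have hpow := s59c_isKumGen_pow hu n'
  -- `h = (ϖ ^ a)⁻¹ · (Gg⁻¹) ^ m · u ^ n'`
  set c : ↥L₀ := ((((GG).ϖ : (GG).A) : ↥L₀) ^ a)⁻¹ with hc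
  have hϖL0 : (((GG).ϖ : (GG).A) : ↥L₀) ≠ 0 := by
    intro h0
    apply hϖ0
    show algebraMap ↥L₀ (s34m_F ↥L₀ (M * q)) _ = 0
    rw [h0, map_zero]
  have hc0 : ((c : ↥L₀) : Kb) ≠ 0 := by
    intro h0
    have : c = 0 := Subtype.ext h0
    rw [hc] at this
    exact inv_ne_zero (zpow_ne_zero _ hϖL0) this
  have hg0 : s18q_incl (M * q) L₀ Gg⁻¹ ≠ 0 := (_root_.map_ne_zero _).mpr (inv_ne_zero hGg0)
  have hK := s33d_kumGen_mul hpow hc0 hg0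
  have e5 : algebraMap Kb (ffi_F (M * q)) ((c : ↥L₀) : Kb) * s18q_incl (M * q) L₀ Gg⁻¹ ^ m *
      s18q_incl (M * q) L₀ u ^ n' = s18q_incl (M * q) L₀ h := by
    rw [← s18q_incl_algebraMap, ← map_pow, ← map_pow, ← map_mul, ← map_mul]
    congr 1
    rw [eF, hc, map_inv₀, map_zpow₀]
    show (ϖF ^ a)⁻¹ * Gg⁻¹ ^ m * (Gg ^ m * (ϖF ^ a * h)) = h
    have h1 : ϖF ^ a ≠ 0 := zpow_ne_zero _ hϖ0
    have h2' : Gg ^ m ≠ 0 := pow_ne_zero _ hGg0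
    rw [inv_pow]
    field_simp
  rw [e5] at hK
  exact hK

end Frame

end Fermat.Agent.Lib.S59
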