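/-
Programme (R2-bg), node [CAR]/(R1), helper8 (prefix `s59c_`), `t`-chart port, part 1:
**THE ORDERS OF THE MODULAR UNIT `g₀` (hence of `G₂ = g₀⁻¹ ϖ⁶`) AT ALL PLACES, WITHOUT `5 ≤ q`.**

Level `M q`, `q` any prime with `q ∤ M`.

* `s59c_unit_ord_bar_raise` : over `Q̄`, at a place with `j` regular the additive weight of `g₀` is `0`,
  as soon as SOME multiple `c M` of the level has `ν₂ = ν₃ = 0`, `q ∤ c` (level raising `M → c M`;
  `s44e_unit_ord_bar_gen` is the case `c = 36`, which needs `5 ≤ q`);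
* `s59c_unit_ord_bar_pole`  : over `Q̄`, at a POLE of `j` the additive weight of `g₀` is
  `ord j - ord j_q ≤ (1 - q) ord j` (`s36e_ord_ratio_D` + the cusp types `s36u_cusp_type`);
* `s59c_unit_ord_K_raise`, `s59c_unit_ord_K_pole` : the same over any `K₀ ⊆ Q̄`;
* **`s59c_G2_ord_reg`**  : `ord_Q G₂ = 0` wherever `j` is regular;
* **`s59c_G2_ord_pole`** : `(q - 1) ord_Q j ≤ ord_Q G₂` at the poles of `j`.
-/
import Fermat.Agent.Lib.S59.CNodeUnit

set_option autoImplicit false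
set_option linter.unusedSectionVars false
set_option linter.style.haveILetI false
set_option synthInstance.maxHeartbeats 200000

noncomputable section

namespace Fermat.Agent.Lib.S59

open AlgebraicCurve ModularCurve KaehlerDifferential HahnSeries
open Fermat.Agent.Lib.FF Fermat.Agent.Lib.S18 Fermat.Agent.Lib.S37 Fermat.Agent.Lib.S36
  Fermat.Agent.Lib.S34 Fermat.Agent.Lib.S44

local notation "Kb" => AlgebraicClosure ℚ

/-! ### Over `Q̄` -/

section Bar

variable (M q : ℕ) [NeZero M] [NeZero q]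

theorem s59c_dvd_level_raise (c : ℕ) : M * q ∣ c * M * q := ⟨c, by ring⟩

/-- **The modular unit has neither zero nor pole where `j` is regular**, level `M q` over `Q̄`,
provided some multiple `c M` prime to `q` has no elliptic points. -/
theorem s59c_unit_ord_bar_raise (c : ℕ) [NeZero c] (hq : q.Prime) (hqM : ¬ q ∣ M)
    (hqc : ¬ q ∣ c) (h2 : nuTwo (c * M) = 0) (h3 : nuThree (c * M) = 0)
    (h : ffi_F (M * q)) (hh : h ≠ 0)
    (hrel : D Kb (ffi_F (M * q)) (heckeBetaBar Kb M q (ffd_jBar M)) =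
      h • D Kb (ffi_F (M * q)) (ffd_jBar (M * q)))
    (v : Place Kb (ffi_F (M * q))) (hreg : 0 ≤ v.ord (ffd_jBar (M * q))) :
    6 * v.ord h + 4 * v.ord (ffd_jBar (M * q)) +
        3 * v.ord (ffd_jBar (M * q) - algebraMap Kb (ffi_F (M * q)) 1728) -
        4 * v.ord (heckeBetaBar Kb M q (ffd_jBar M)) -
        3 * v.ord (heckeBetaBar Kb M q (ffd_jBar M) - algebraMap Kb (ffi_F (M * q)) 1728) = 0 := by
  have hqM' : ¬ q ∣ c * M := by
    intro hd
    rcases (Nat.Prime.dvd_mul hq).mp hd with hc | hM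
    · exact hqc hc
    · exact hqM hM
  set ι : ffi_F (M * q) →ₐ[Kb] ffi_F (c * M * q) :=
    s37l_incl (M * q) (c * M * q) (s59c_dvd_level_raise M q c) with hι
  obtain ⟨hιint, W, hW⟩ := s44e_exists_place_above (M * q) (c * M * q) ι v
  set e : ℕ := Place.ramificationIndexAlong ι W with he
  have hepos : 0 < e := s36u_ramIdx_pos ι hιint W
  have hord : ∀ f : ffi_F (M * q), W.ord (ι f) = (e : ℤ) * v.ord f := by
    intro f
    have := Place.ord_restrictAlong ι hιint W f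
    rw [hW] at this
    exact this
  have hιA : ι (ffd_jBar (M * q)) = ffd_jBar (c * M * q) := by
    apply Subtype.ext
    rw [hι, s37l_coe_incl, ffd_jBar_coe, ffd_jBar_coe]
  have hιB : ι (heckeBetaBar Kb M q (ffd_jBar M)) =
      heckeBetaBar Kb (c * M) q (ffd_jBar (c * M)) := by
    apply Subtype.ext
    rw [hι, s37l_coe_incl, coe_heckeBetaBar, coe_heckeBetaBar, ffd_jBar_coe, ffd_jBar_coe]
  have hιc : ∀ a : Kb, ι (algebraMap Kb (ffi_F (M * q)) a) =
      algebraMap Kb (ffi_F (c * M * q)) a := fun a => ι.commutes a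
  have hrel' := s36r_D_map (RingHom.id Kb) (ι : ffi_F (M * q) →+* ffi_F (c * M * q))
    (fun a => ι.commutes a) hrel
  simp only [RingHom.coe_coe] at hrel'
  rw [hιA, hιB] at hrel'
  have hh' : ι h ≠ 0 := (map_ne_zero _).mpr hh
  have hreg' : 0 ≤ W.ord (ffd_jBar (c * M * q)) := by
    rw [← hιA, hord]
    positivity
  have key := s44e_unit_ord_bar (c * M) q hq hqM' h2 h3 (ι h) hh' hrel' W hreg'
  rw [← hιA, ← hιB, ← hιc, ← map_sub, ← map_sub, hord, hord, hord, hord, hord] at key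
  have hepos' : (0 : ℤ) < e := by exact_mod_cast hepos
  have : (e : ℤ) * (6 * v.ord h + 4 * v.ord (ffd_jBar (M * q)) +
        3 * v.ord (ffd_jBar (M * q) - algebraMap Kb (ffi_F (M * q)) 1728) -
        4 * v.ord (heckeBetaBar Kb M q (ffd_jBar M)) -
        3 * v.ord (heckeBetaBar Kb M q (ffd_jBar M) - algebraMap Kb (ffi_F (M * q)) 1728)) = 0 := by
    linarith
  rcases mul_eq_zero.mp this with h0 | h0
  · omega
  · exact h0

/-- `ord (x - c) = ord x` at a pole of `x`. -/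
theorem s59c_ord_sub_const_of_pole {K F : Type*} [Field K] [Field F] [Algebra K F]
    (v : Place K F) (x : F) (c : K) (hx : v.ord x < 0) :
    v.ord (x - algebraMap K F c) = v.ord x := by
  by_cases hc : c = 0
  · rw [hc, map_zero, sub_zero]
  · have hx0 : x ≠ 0 := by
      rintro rfl
      rw [Place.ord_zero] at hx
      exact lt_irrefl _ hx
    have hc' : -algebraMap K F c ≠ 0 := neg_ne_zero.mpr ((map_ne_zero _).mpr hc)
    have hordc : v.ord (-algebraMap K F c) = 0 := by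
      rw [ffh_ord_neg]
      exact ffh_ord_algebraMap v hc
    have := s36e_ord_add_eq v hc' hx0 (by rw [hordc]; exact hx)
    rw [← this]
    congr 1
    ring

/-- **The weight of the modular unit at a pole of `j`** is `ord j - ord j_q ≤ (1 - q) ord j`. -/
theorem s59c_unit_ord_bar_pole (hq : q.Prime) (hqM : ¬ q ∣ M)
    (h : ffi_F (M * q)) (hh : h ≠ 0)
    (hrel : D Kb (ffi_F (M * q)) (heckeBetaBar Kb M q (ffd_jBar M)) =
      h • D Kb (ffi_F (M * q)) (ffd_jBar (M * q)))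
    (v : Place Kb (ffi_F (M * q))) (hpole : v.ord (ffd_jBar (M * q)) < 0) :
    6 * v.ord h + 4 * v.ord (ffd_jBar (M * q)) +
        3 * v.ord (ffd_jBar (M * q) - algebraMap Kb (ffi_F (M * q)) 1728) -
        4 * v.ord (heckeBetaBar Kb M q (ffd_jBar M)) -
        3 * v.ord (heckeBetaBar Kb M q (ffd_jBar M) - algebraMap Kb (ffi_F (M * q)) 1728) ≤
      (1 - (q : ℤ)) * v.ord (ffd_jBar (M * q)) := by
  set jA : ffi_F (M * q) := ffd_jBar (M * q) with hjA
  set jB : ffi_F (M * q) := heckeBetaBar Kb M q (ffd_jBar M) with hjB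
  have hgen : FFGen ffi_K (ffd_jBar (M * q)) := s18r_ffGen (M * q)
  obtain ⟨hEFT, hres⟩ := ff_ifaceLocal ffi_K (ffd_jBar (M * q)) v
  haveI := hEFT
  haveI : Nontrivial Ω[ffi_F (M * q)⁄Kb] := ⟨⟨_, 0, ffd_D_jBar_ne_zero (M * q)⟩⟩
  obtain ⟨hc1, hc2⟩ := s36u_cusp_type M q hq hqM v hpole
  rw [← hjA, ← hjB] at hc1 hc2
  have hqpos : (0 : ℤ) < q := by exact_mod_cast (NeZero.pos q)
  have hBneg : v.ord jB < 0 := by nlinarith
  have e1 : v.ord (jA - algebraMap Kb (ffi_F (M * q)) 1728) = v.ord jA :=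
    s59c_ord_sub_const_of_pole v jA 1728 hpole
  have e2 : v.ord (jB - algebraMap Kb (ffi_F (M * q)) 1728) = v.ord jB :=
    s59c_ord_sub_const_of_pole v jB 1728 hBneg
  have hordh := s36e_ord_ratio_D v hres hrel hh (ne_of_lt hBneg) (ne_of_lt hpole)
  rw [e1, e2, hordh]
  linarith

end Bar

/-! ### Over `K₀ ⊆ Q̄` -/

section Places

variable {K₀ : Type*} [Field K₀] [Algebra ℚ K₀] (φ : K₀ →+* Kb) (M q : ℕ) [NeZero M] [NeZero q]

include φ in
/-- descent of a statement about the additive weight of `g₀` from `Q̄` to `K₀`. -/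
theorem s59c_unit_ord_K_of_bar (R : ℤ → ℤ → Prop)
    (hbar : ∀ (h : ffi_F (M * q)), h ≠ 0 →
      D Kb (ffi_F (M * q)) (heckeBetaBar Kb M q (ffd_jBar M)) =
        h • D Kb (ffi_F (M * q)) (ffd_jBar (M * q)) →
      ∀ v : Place Kb (ffi_F (M * q)),
        R (v.ord (ffd_jBar (M * q)))
          (6 * v.ord h + 4 * v.ord (ffd_jBar (M * q)) +
            3 * v.ord (ffd_jBar (M * q) - algebraMap Kb (ffi_F (M * q)) 1728) -
            4 * v.ord (heckeBetaBar Kb M q (ffd_jBar M)) -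
            3 * v.ord (heckeBetaBar Kb M q (ffd_jBar M) - algebraMap Kb (ffi_F (M * q)) 1728)))
    (h : s34m_F K₀ (M * q)) (hh : h ≠ 0)
    (hrel : D K₀ (s34m_F K₀ (M * q)) (heckeBetaBar K₀ M q (s18g_jF (K := K₀) M)) =
      h • D K₀ (s34m_F K₀ (M * q)) (s18g_jF (K := K₀) (M * q)))
    (Q : Place K₀ (s34m_F K₀ (M * q))) :
    R (Q.ord (s18g_jF (K := K₀) (M * q)))
      (6 * Q.ord h + 4 * Q.ord (s18g_jF (K := K₀) (M * q)) +
        3 * Q.ord (s18g_jF (K := K₀) (M * q) - algebraMap K₀ (s34m_F K₀ (M * q)) 1728) -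
        4 * Q.ord (heckeBetaBar K₀ M q (s18g_jF (K := K₀) M)) -
        3 * Q.ord (heckeBetaBar K₀ M q (s18g_jF (K := K₀) M) -
          algebraMap K₀ (s34m_F K₀ (M * q)) 1728)) := by
  obtain ⟨ρ, hsurj, hord⟩ := s18r_exists_restrict φ (M * q)
  obtain ⟨P, rfl⟩ := hsurj Q
  set ι := s34m_iota φ (M * q) with hι
  have hιA : ι (s18g_jF (K := K₀) (M * q)) = ffd_jBar (M * q) := s18r_map_jF φ (M * q)
  have hιB : ι (heckeBetaBar K₀ M q (s18g_jF (K := K₀) M)) =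
      heckeBetaBar Kb M q (ffd_jBar M) := by
    rw [hι, s34m_iota_beta]
    congr 1
    exact s18r_map_jF φ M
  have hι1728 : ι (algebraMap K₀ (s34m_F K₀ (M * q)) 1728) =
      algebraMap Kb (ffi_F (M * q)) 1728 := by
    rw [hι, s18q_map_algebraMap, map_ofNat]
  have hrel' := s36r_D_map φ (ι : s34m_F K₀ (M * q) →+* ffi_F (M * q))
    (fun a => s18q_map_algebraMap φ (modularFunctionFieldFull (M * q)) a) hrel
  rw [hιA, hιB] at hrel'
  have hh' : ι h ≠ 0 := (map_ne_zero _).mpr hh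
  have key := hbar (ι h) hh' hrel' P
  rw [← hιA, ← hιB, ← hι1728, ← map_sub, ← map_sub, hord, hord, hord, hord, hord] at key
  exact key

end Places

/-! ### `G₂` -/

section GTwo

variable {K₀ : Type*} [Field K₀] [CharZero K₀] [Algebra ℚ K₀] {κ : Type*} [Field κ]
  (G : s18g_GaussData K₀ κ) (φ : K₀ →+* Kb) (M q : ℕ) [NeZero M] [NeZero q]
  (hq : q.Prime) (hqM : ¬ q ∣ M)

local notation "𝓕" => s34m_F K₀ (M * q)
local notation "jA" => heckeAlphaBar K₀ M q (s18g_jF (K := K₀) M)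
local notation "jB" => heckeBetaBar K₀ M q (s18g_jF (K := K₀) M)

include hq hqM φ in
/-- `ord_Q G₂` is minus the additive weight of `g₀`. -/
theorem s59c_G2_ord_eq (h : 𝓕) (hrel : D K₀ 𝓕 (jB : 𝓕) = h • D K₀ 𝓕 (jA : 𝓕))
    (Q : Place K₀ 𝓕) :
    Q.ord (s59c_G2 G M q h) =
      -(6 * Q.ord h + 4 * Q.ord (s18g_jF (K := K₀) (M * q)) +
        3 * Q.ord (s18g_jF (K := K₀) (M * q) - algebraMap K₀ 𝓕 1728) -
        4 * Q.ord (jB : 𝓕) - 3 * Q.ord ((jB : 𝓕) - algebraMap K₀ 𝓕 1728)) := by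
  have hh := s44e_h_ne_zero φ M q hq hqM h hrel
  have hX := s44e_X_ne_zero (K₀ := K₀) M
  have hαX : heckeAlphaBar K₀ M q (s44e_X K₀ M) ≠ 0 := (map_ne_zero _).mpr hX
  have hβX : heckeBetaBar K₀ M q (s44e_X K₀ M) ≠ 0 := (map_ne_zero _).mpr hX
  have hjA : (jA : 𝓕) = s18g_jF (K := K₀) (M * q) := Subtype.ext rfl
  have hαX' := hαX
  have hβX' := hβX
  rw [s44e_alpha_X] at hαX'
  rw [s44e_beta_X] at hβX'
  have hA4 : (jA : 𝓕) ^ 4 ≠ 0 := left_ne_zero_of_mul hαX'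
  have hA3 : ((jA : 𝓕) - algebraMap K₀ 𝓕 1728) ^ 3 ≠ 0 := right_ne_zero_of_mul hαX'
  have hB4 : (jB : 𝓕) ^ 4 ≠ 0 := left_ne_zero_of_mul hβX'
  have hB3 : ((jB : 𝓕) - algebraMap K₀ 𝓕 1728) ^ 3 ≠ 0 := right_ne_zero_of_mul hβX'
  have hg0 := s44e_g0_ne_zero φ M q hq hqM h hrel
  have hϖ0 := s34m_unif_ne_zero G (M * q)
  rw [s59c_G2, Q.ord_mul (inv_ne_zero hg0) (pow_ne_zero 6 hϖ0), Q.ord_inv, s44e_ord_pow,
    s34m_unif, ff_ord_algebraMap, s44e_g0,
    Q.ord_mul (pow_ne_zero 6 hh) (mul_ne_zero hαX (inv_ne_zero hβX)),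
    Q.ord_mul hαX (inv_ne_zero hβX), Q.ord_inv, s44e_alpha_X, s44e_beta_X,
    Q.ord_mul hA4 hA3, Q.ord_mul hB4 hB3, s44e_ord_pow, s44e_ord_pow, s44e_ord_pow,
    s44e_ord_pow, s44e_ord_pow, hjA]
  push_cast
  ring

include hq hqM φ in
/-- **`ord_Q G₂ = 0` wherever `j` is regular**, if some multiple `c M` prime to `q` has no elliptic
points. -/
theorem s59c_G2_ord_reg (c : ℕ) [NeZero c] (hqc : ¬ q ∣ c) (h2 : nuTwo (c * M) = 0)
    (h3 : nuThree (c * M) = 0) (h : 𝓕) (hrel : D K₀ 𝓕 (jB : 𝓕) = h • D K₀ 𝓕 (jA : 𝓕))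
    (Q : Place K₀ 𝓕) (hreg : 0 ≤ Q.ord (s18g_jF (K := K₀) (M * q))) :
    Q.ord (s59c_G2 G M q h) = 0 := by
  have hh := s44e_h_ne_zero φ M q hq hqM h hrel
  have hjA : (jA : 𝓕) = s18g_jF (K := K₀) (M * q) := Subtype.ext rfl
  have hrel' : D K₀ 𝓕 (jB : 𝓕) = h • D K₀ 𝓕 (s18g_jF (K := K₀) (M * q)) := by
    rw [← hjA]; exact hrel
  have key := s59c_unit_ord_K_of_bar φ M q (fun a b => 0 ≤ a → b = 0)
    (fun h' hh' hrel'' v hv =>
      s59c_unit_ord_bar_raise M q c hq hqM hqc h2 h3 h' hh' hrel'' v hv) h hh hrel' Q hreg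
  rw [s59c_G2_ord_eq G φ M q hq hqM h hrel Q, key, neg_zero]

include hq hqM φ in
/-- **`(q - 1) ord_Q j ≤ ord_Q G₂` at the poles of `j`.** -/
theorem s59c_G2_ord_pole (h : 𝓕) (hrel : D K₀ 𝓕 (jB : 𝓕) = h • D K₀ 𝓕 (jA : 𝓕))
    (Q : Place K₀ 𝓕) (hpole : Q.ord (s18g_jF (K := K₀) (M * q)) < 0) :
    ((q : ℤ) - 1) * Q.ord (s18g_jF (K := K₀) (M * q)) ≤ Q.ord (s59c_G2 G M q h) := by
  have hh := s44e_h_ne_zero φ M q hq hqM h hrel
  have hjA : (jA : 𝓕) = s18g_jF (K := K₀) (M * q) := Subtype.ext rfl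
  have hrel' : D K₀ 𝓕 (jB : 𝓕) = h • D K₀ 𝓕 (s18g_jF (K := K₀) (M * q)) := by
    rw [← hjA]; exact hrel
  have key := s59c_unit_ord_K_of_bar φ M q
    (fun a b => a < 0 → b ≤ (1 - (q : ℤ)) * a)
    (fun h' hh' hrel'' v hv =>
      s59c_unit_ord_bar_pole M q hq hqM h' hh' hrel'' v hv) h hh hrel' Q hpole
  rw [s59c_G2_ord_eq G φ M q hq hqM h hrel Q]
  linarith

end GTwo

end Fermat.Agent.Lib.S59
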