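/-
Programme (R2-bg), node [CAR]/(R1), helper8 (prefix `s59c_`), `t`-chart port, part 2:
**THE ELEMENT `g = w^{a (q - 1)} · G₂` OF THE CHART RING OF A HAUPTMODUL-TYPE COORDINATE `w`.**

Level `M q`, `q` any prime with `q ∤ M`, `ν₂(M) = ν₃(M) = 0`, unramified base (`ϖ = q`).  `w` a function of
level `M q` with `j · w^a = A(w)` (`A` a polynomial with constant coefficients), `w ∈ V_∞ ∩ V_0`.
At a place `Q` of the chart `{w regular}`:

* `j` regular at `Q`: `ord_Q G₂ = 0` (`s59c_G2_ord_reg`);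
* `j` has a pole at `Q`: `a ord_Q w + ord_Q j = ord_Q A(w) ≥ 0` and `ord_Q G₂ ≥ (q - 1) ord_Q j`
  (`s59c_G2_ord_pole`), so `ord_Q g ≥ (q - 1) (a ord_Q w + ord_Q j) ≥ 0`.

* `s59c_gT_mem_ring`  : `g` lies in the chart ring of `{w regular}`;
* `s59c_gT_Vzero_div` : `g / ϖ¹² ∈ V_0`.
-/
import Fermat.Agent.Lib.S59.CNodeTUnit

set_option autoImplicit false
set_option linter.unusedSectionVars false
set_option linter.style.haveILetI false
set_option synthInstance.maxHeartbeats 200000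

noncomputable section

namespace Fermat.Agent.Lib.S59

open AlgebraicCurve ModularCurve KaehlerDifferential HahnSeries Polynomial
open Fermat.Agent.Lib.FF Fermat.Agent.Lib.S18 Fermat.Agent.Lib.S37 Fermat.Agent.Lib.S36
  Fermat.Agent.Lib.S34 Fermat.Agent.Lib.S44

local notation "Kb" => AlgebraicClosure ℚ

/-- polynomials in a regular function are regular. -/
theorem s59c_aeval_mem_place {K F : Type*} [Field K] [Field F] [Algebra K F] (Q : Place K F)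
    (y : F) (hy : y ∈ Q.toValuationSubring) (A : K[X]) :
    Polynomial.aeval y A ∈ Q.toValuationSubring := by
  rw [Polynomial.aeval_eq_sum_range]
  refine sum_mem (fun i _ => ?_)
  rw [Algebra.smul_def]
  exact mul_mem (Q.algebraMap_mem' _) (pow_mem hy i)

variable {K₀ : Type*} [Field K₀] [CharZero K₀] [Algebra ℚ K₀] {κ : Type*} [Field κ]
  (G : s18g_GaussData K₀ κ) (φ : K₀ →+* Kb) (M q : ℕ) [NeZero M] [NeZero q]
  (hq : q.Prime) (hqM : ¬ q ∣ M)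

local notation "𝓕" => s34m_F K₀ (M * q)
local notation "jA" => heckeAlphaBar K₀ M q (s18g_jF (K := K₀) M)
local notation "jB" => heckeBetaBar K₀ M q (s18g_jF (K := K₀) M)

variable (hϖ : ((G.ϖ : G.A) : K₀) = (q : K₀))

include hq hqM φ in
/-- **`ord_Q (w^{a (q - 1)} G₂) ≥ 0` at every place of the chart `{w regular}`.** -/
theorem s59c_gT_ord_nonneg (c : ℕ) [NeZero c] (hqc : ¬ q ∣ c) (h2 : nuTwo (c * M) = 0)
    (h3 : nuThree (c * M) = 0) (w : 𝓕) (hw0 : w ≠ 0) (a : ℕ) (A : K₀[X])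
    (hA : s18g_jF (K := K₀) (M * q) * w ^ a = Polynomial.aeval w A)
    (h : 𝓕) (hrel : D K₀ 𝓕 (jB : 𝓕) = h • D K₀ 𝓕 (jA : 𝓕))
    (Q : Place K₀ 𝓕) (hQ : w ∈ Q.toValuationSubring) :
    0 ≤ Q.ord (w ^ (a * (q - 1)) * s59c_G2 G M q h) := by
  have hj0 : s18g_jF (K := K₀) (M * q) ≠ 0 := s18g_jF_ne_zero (M * q)
  have hG0 := s59c_G2_ne_zero G φ M q hq hqM h hrel
  have hwreg : 0 ≤ Q.ord w := (ff_mem_iff_ord_nonneg Q hw0).mp hQ
  have hq1 : 1 ≤ q := hq.one_lt.le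
  rw [Q.ord_mul (pow_ne_zero _ hw0) hG0, s44e_ord_pow]
  by_cases hreg : 0 ≤ Q.ord (s18g_jF (K := K₀) (M * q))
  · rw [s59c_G2_ord_reg G φ M q hq hqM c hqc h2 h3 h hrel Q hreg, add_zero]
    positivity
  · push Not at hreg
    have h1 := s59c_G2_ord_pole G φ M q hq hqM h hrel Q hreg
    -- `a ord w + ord j ≥ 0`
    have hne : s18g_jF (K := K₀) (M * q) * w ^ a ≠ 0 := mul_ne_zero hj0 (pow_ne_zero _ hw0)
    have hmem : s18g_jF (K := K₀) (M * q) * w ^ a ∈ Q.toValuationSubring := by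
      rw [hA]; exact s59c_aeval_mem_place Q w hQ A
    have h2' := (ff_mem_iff_ord_nonneg Q hne).mp hmem
    rw [Q.ord_mul hj0 (pow_ne_zero _ hw0), s44e_ord_pow] at h2'
    have hq1' : (0 : ℤ) ≤ (q : ℤ) - 1 := by
      have : (1 : ℤ) ≤ q := by exact_mod_cast hq1
      linarith
    have e : ((a * (q - 1) : ℕ) : ℤ) = (a : ℤ) * ((q : ℤ) - 1) := by
      rw [Nat.cast_mul, Nat.cast_sub hq1, Nat.cast_one]
    rw [e]
    nlinarith

include hq hqM φ hϖ in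
/-- **`g = w^{a (q - 1)} G₂` lies in the chart ring of `{w regular}`.** -/
theorem s59c_gT_mem_ring (c : ℕ) [NeZero c] (hqc : ¬ q ∣ c) (h2 : nuTwo (c * M) = 0)
    (h3 : nuThree (c * M) = 0) (w : 𝓕) (hw0 : w ≠ 0)
    (hwO : ∀ i, w ∈ s34m_VV G φ M q hq hqM i) (a : ℕ) (A : K₀[X])
    (hA : s18g_jF (K := K₀) (M * q) * w ^ a = Polynomial.aeval w A)
    (h : 𝓕) (hrel : D K₀ 𝓕 (jB : 𝓕) = h • D K₀ 𝓕 (jA : 𝓕)) :
    w ^ (a * (q - 1)) * s59c_G2 G M q h ∈ s34x_ring (s34x_infRing (s34m_VV G φ M q hq hqM))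
      (s18_chart1 (L₀ := K₀) w) := by
  have hG0 := s59c_G2_ne_zero G φ M q hq hqM h hrel
  have hGO : s59c_G2 G M q h ∈ s34x_infRing (s34m_VV G φ M q hq hqM) :=
    (s34df_mem_O_iff G φ M q hq hqM _).mpr
      ⟨(s59c_G2_Vinf G φ M q hq hqM hϖ h hrel).1, s59c_G2_Vzero G φ M q hq hqM hϖ h hrel⟩
  have hwO' : w ∈ s34x_infRing (s34m_VV G φ M q hq hqM) := (s34x_mem_infRing _ _).mpr hwO
  refine ⟨mul_mem (pow_mem hwO' _) hGO, fun Q hQ => ?_⟩
  rw [ff_mem_iff_ord_nonneg Q (mul_ne_zero (pow_ne_zero _ hw0) hG0)]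
  exact s59c_gT_ord_nonneg G φ M q hq hqM c hqc h2 h3 w hw0 a A hA h hrel Q hQ

include hq hqM φ hϖ in
/-- **`g / ϖ¹² ∈ V_0`.** -/
theorem s59c_gT_Vzero_div (w : 𝓕) (hwO : ∀ i, w ∈ s34m_VV G φ M q hq hqM i) (m : ℕ)
    (h : 𝓕) (hrel : D K₀ 𝓕 (jB : 𝓕) = h • D K₀ 𝓕 (jA : 𝓕)) :
    w ^ m * s59c_G2 G M q h * (s34m_unif G (M * q) ^ 12)⁻¹ ∈ s34m_Vzero G φ M q hq hqM := by
  rw [mul_assoc]
  exact mul_mem (pow_mem (hwO false) m) (s59c_G2_Vzero_div G φ M q hq hqM hϖ h hrel)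

end Fermat.Agent.Lib.S59
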