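/-
Programme (R2-bg), node [CAR]/(R1), helper8 (prefix `s59c_`), `t`-chart port, part 3:
**THE REDUCTION OF `g = w^{a (q - 1)} G₂` IS A POLYNOMIAL IN `w̄` OF DEGREE `≤ (a + 1)(q - 1)`.**

* `s59c_hauptPoly`, `s59c_hauptPoly_aeval`, `s59c_hauptPoly_natDegree` : if `j t^a = A(t)` and
  `deg P₀ ≤ n` then `t^{a n} P₀(j) = P(t)`, `P = ∑ cᵢ Aⁱ X^{a (n - i)}`, `deg P ≤ (a + 1) n` as soon as
  `deg A ≤ a + 1`;
* `s59c_G2_mem_ring_raise` : `G₂` lies in the chart ring of the `j`-chart of `X₀(M q)` as soon as some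
  multiple `c M` prime to `q` has no elliptic points (no `5 ≤ q`);
* **`s59c_red_Yser_poly_raise`** : `red (Yser) = P₀(j̄)`, `deg P₀ = q - 1`, for EVERY prime `q` (level
  `(1, q)`, raising `1 → c` with `c = 4` (`q = 3`), `c = 9` (`q = 2`), `c = 36` (`q ≥ 5`));
* `s59c_red_Yser_poly_all` : the same, all primes.
-/
import Fermat.Agent.Lib.S59.CNodeTRing
import Fermat.Agent.Lib.S59.CNodeLevelOne

set_option autoImplicit false
set_option linter.unusedSectionVars false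
set_option linter.style.haveILetI false
set_option synthInstance.maxHeartbeats 400000

noncomputable section

namespace Fermat.Agent.Lib.S59

open AlgebraicCurve ModularCurve KaehlerDifferential HahnSeries Polynomial
open Fermat.Agent.Lib.FF Fermat.Agent.Lib.S18 Fermat.Agent.Lib.S37 Fermat.Agent.Lib.S36
  Fermat.Agent.Lib.S34 Fermat.Agent.Lib.S44 Fermat.Agent.Lib.S33 Fermat.Agent.Lib.S28

local notation "Kb" => AlgebraicClosure ℚ

/-! ### The polynomial algebra of a Hauptmodul relation -/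

section HauptPoly

variable {k Ω : Type*} [Field k] [CommRing Ω] [Algebra k Ω]

/-- `∑ cᵢ Aⁱ X^{a (n - i)}`. -/
def s59c_hauptPoly (A P₀ : k[X]) (a n : ℕ) : k[X] :=
  ∑ i ∈ Finset.range (n + 1), Polynomial.C (P₀.coeff i) * A ^ i * X ^ (a * (n - i))

theorem s59c_hauptPoly_aeval (j t : Ω) (A : k[X]) (a : ℕ)
    (hrel : j * t ^ a = Polynomial.aeval t A) (P₀ : k[X]) (n : ℕ) (hn : P₀.natDegree ≤ n) :
    t ^ (a * n) * Polynomial.aeval j P₀ = Polynomial.aeval t (s59c_hauptPoly A P₀ a n) := by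
  rw [s59c_hauptPoly, map_sum, Polynomial.aeval_eq_sum_range' (Nat.lt_succ_of_le hn),
    Finset.mul_sum]
  refine Finset.sum_congr rfl (fun i hi => ?_)
  have hi' : i ≤ n := Nat.lt_succ_iff.mp (Finset.mem_range.mp hi)
  rw [map_mul, map_mul, map_pow, map_pow, Polynomial.aeval_X, Polynomial.aeval_C, ← hrel,
    Algebra.smul_def]
  have e : a * n = a * i + a * (n - i) := by
    rw [← Nat.mul_add, Nat.add_sub_cancel' hi']
  rw [e, _root_.pow_add, mul_pow, ← pow_mul]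
  ring

theorem s59c_hauptPoly_natDegree (A P₀ : k[X]) (a n : ℕ) (hA : A.natDegree ≤ a + 1) :
    (s59c_hauptPoly A P₀ a n).natDegree ≤ (a + 1) * n := by
  refine Polynomial.natDegree_sum_le_of_forall_le _ _ (fun i hi => ?_)
  have hi' : i ≤ n := Nat.lt_succ_iff.mp (Finset.mem_range.mp hi)
  have h1 : (Polynomial.C (P₀.coeff i) * A ^ i).natDegree ≤ i * (a + 1) := by
    refine (Polynomial.natDegree_C_mul_le _ _).trans ?_
    exact (Polynomial.natDegree_pow_le).trans (Nat.mul_le_mul_left _ hA)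
  have h2 : (X ^ (a * (n - i)) : k[X]).natDegree ≤ a * (n - i) := Polynomial.natDegree_X_pow_le _
  refine (Polynomial.natDegree_mul_le).trans ?_
  obtain ⟨d, rfl⟩ := Nat.exists_eq_add_of_le hi'
  rw [Nat.add_sub_cancel_left] at h2 ⊢
  nlinarith

end HauptPoly

/-! ### `G₂` in the chart ring of the `j`-chart, all primes -/

section Ring

variable {K₀ : Type*} [Field K₀] [CharZero K₀] [Algebra ℚ K₀] {κ : Type*} [Field κ]
  (G : s18g_GaussData K₀ κ) (φ : K₀ →+* Kb) (M q : ℕ) [NeZero M] [NeZero q]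
  (hq : q.Prime) (hqM : ¬ q ∣ M)

local notation "𝓕" => s34m_F K₀ (M * q)
local notation "jA" => heckeAlphaBar K₀ M q (s18g_jF (K := K₀) M)
local notation "jB" => heckeBetaBar K₀ M q (s18g_jF (K := K₀) M)

variable (hϖ : ((G.ϖ : G.A) : K₀) = (q : K₀))

include hq hqM φ hϖ in
/-- **`G₂` lies in the chart ring of the `j`-chart** (level raising `M → c M`). -/
theorem s59c_G2_mem_ring_raise (c : ℕ) [NeZero c] (hqc : ¬ q ∣ c) (h2 : nuTwo (c * M) = 0)
    (h3 : nuThree (c * M) = 0) (h : 𝓕)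
    (hrel : D K₀ 𝓕 (jB : 𝓕) = h • D K₀ 𝓕 (jA : 𝓕)) :
    s59c_G2 G M q h ∈ s34x_ring (s34x_infRing (s34m_VV G φ M q hq hqM))
      (s18_chart1 (L₀ := K₀) (s18g_jF (K := K₀) (M * q))) := by
  refine ⟨(s34df_mem_O_iff G φ M q hq hqM _).mpr
    ⟨(s59c_G2_Vinf G φ M q hq hqM hϖ h hrel).1, s59c_G2_Vzero G φ M q hq hqM hϖ h hrel⟩,
    fun Q hQ => ?_⟩
  have hj0 : s18g_jF (K := K₀) (M * q) ≠ 0 := s18g_jF_ne_zero (M * q)
  have hreg : 0 ≤ Q.ord (s18g_jF (K := K₀) (M * q)) := (ff_mem_iff_ord_nonneg Q hj0).mp hQ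
  rw [ff_mem_iff_ord_nonneg Q (s59c_G2_ne_zero G φ M q hq hqM h hrel),
    s59c_G2_ord_reg G φ M q hq hqM c hqc h2 h3 h hrel Q hreg]

end Ring

/-! ### The level-one polynomial, all primes -/

theorem s59c_nuThree_four : nuThree 4 = 0 := by
  rw [nuThree]
  haveI : IsEmpty {x : ZMod 4 // x ^ 2 + x + 1 = 0} := ⟨fun ⟨x, hx⟩ => by revert x; decide⟩
  exact Nat.card_of_isEmpty

theorem s59c_nuTwo_nine : nuTwo 9 = 0 := by
  rw [nuTwo]
  haveI : IsEmpty {x : ZMod 9 // x ^ 2 + 1 = 0} := ⟨fun ⟨x, hx⟩ => by revert x; decide⟩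
  exact Nat.card_of_isEmpty

section Main

variable (q : ℕ) [NeZero q] (hq : q.Prime)
  (K₀ : Type) [Field K₀] [NumberField K₀] (φ : K₀ →+* Kb)
  (κ : Type) [Field κ] [CharP κ q] [PerfectField κ]
  (G : s18g_GaussData K₀ κ) [IsDiscreteValuationRing G.A] (hπ : Function.Surjective G.π)
  (hϖ : ((G.ϖ : G.A) : K₀) = (q : K₀))

include hq φ hπ hϖ in
/-- **the reduction of the `q`-expansion of `G₂` is a polynomial of degree `q - 1` in `j̄`** — as soon as
some `c` prime to `q` has `ν₂(c) = ν₃(c) = 0`. -/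
theorem s59c_red_Yser_poly_raise (c : ℕ) [NeZero c] (hqc : ¬ q ∣ c) (h2 : nuTwo (c * 1) = 0)
    (h3 : nuThree (c * 1) = 0) :
    ∃ P : κ[X], P.natDegree = q - 1 ∧ ∀ hY : s59c_Yser G q ∈ s18g_O G,
      s18g_red G ⟨s59c_Yser G q, hY⟩ = Polynomial.aeval (jqModC κ) P := by
  haveI : Fact q.Prime := ⟨hq⟩
  have hq1 : ¬ q ∣ 1 := fun h => hq.one_lt.ne' (Nat.dvd_one.mp h)
  have hT : s18g_HT κ 1 := s18t_indep_j q 1 hq1 κ
  have hdegM : s18g_HDeg K₀ 1 := fun _ b hb hn => s18g_exists_relation 1 φ hn b hb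
  have hdeg : s34m_HDeg K₀ 1 q := s34r_deg_HDeg φ 1 q hq hq1
  have hFM : ∀ f ∈ laurentBaseChange K₀ (modularFunctionFieldFull 1), f ∈ s18g_Frac G :=
    fun f hf => s18g_baseChange_mem_Frac G 1 hf
  haveI : FFGen K₀ (s18g_jF (K := K₀) (1 * q)) :=
    s18b_ffGen_jF (1 * q) (fun n b hb hn => s18g_exists_relation (1 * q) φ hn b hb)
  obtain ⟨h, hrel⟩ := s36r_exists_D_eq (laurentBaseChange K₀ (modularFunctionFieldFull (1 * q)))
    (s18g_jF (K := K₀) (1 * q)) (heckeBetaBar K₀ 1 q (s18g_jF (K := K₀) 1))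
    (heckeAlphaBar K₀ 1 q (s18g_jF (K := K₀) 1)) (s44e_theta_jA_ne_zero 1 q)
  have hmem := s59c_G2_mem_ring_raise G φ 1 q hq hq1 hϖ c hqc h2 h3 h hrel
  have hcoe : ((s59c_G2 G 1 q h : s34m_F K₀ (1 * q)) : LaurentSeries K₀) = s59c_Yser G q :=
    s59c_G2_coe G 1 q h hrel
  obtain ⟨hY0, hL0, hLord⟩ := s59c_red_Yser G q hϖ
  letI algF := s18f_algF G 1 hT hdegM (s18g_jF (K := K₀) 1) (s18g_jF_mem_V G 1 hFM)
  have hA : ∀ p : κ[X], algebraMap κ[X] ↥(modularFunctionFieldFullC κ 1) p =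
      Polynomial.aeval (s18g_redF G 1 hFM hT hdegM ⟨s18g_jF (K := K₀) 1, s18g_jF_mem_V G 1 hFM⟩) p :=
    s18f_algF_apply G 1 hT hdegM _ (s18g_jF_mem_V G 1 hFM)
  have hred1 : s18g_redF G 1 hFM hT hdegM ⟨s18g_jF (K := K₀) 1, s18g_jF_mem_V G 1 hFM⟩ =
      s18g_jFbar κ 1 := s18g_redF_jV G 1 hFM hT hdegM
  obtain ⟨d, hd⟩ := s33s_w_hint G φ 1 q hq1 hdeg hT hdegM (s18g_jF (K := K₀) 1)
    (s18g_jF_mem_V G 1 hFM)
    (by
      intro τ
      rw [hred1]
      exact coeffMap_jqModC _)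
    (s18g_jF (K := K₀) (1 * q)) (s34m_alpha_jF 1 q) (s34f_alpha_j G φ 1 q hq hq1) true
    ⟨_, hmem⟩
  obtain ⟨-, bt, -⟩ := s18g_deg_j G 1 hFM hT hdegM q hπ _ (Or.inl hred1) hA
  haveI : Unique (Fin (dedekindPsi 1)) := by
    rw [dedekindPsi_one]; exact inferInstance
  obtain ⟨P, hP⟩ := s59c_rank_one bt d
  -- the Laurent series of `d`
  have hser : ((algebraMap ↥(integralClosure κ[X] ↥(modularFunctionFieldFullC κ 1))
      ↥(modularFunctionFieldFullC κ 1) d : ↥(modularFunctionFieldFullC κ 1)) : LaurentSeries κ) =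
      s18g_red G ⟨s59c_Yser G q, hY0⟩ := by
    rw [hd, s33s_coe_redO, s33s_redL_true, s34m_redInf_apply]
    exact congrArg (s18g_red G) (Subtype.ext hcoe)
  have hpoly : ((algebraMap ↥(integralClosure κ[X] ↥(modularFunctionFieldFullC κ 1))
      ↥(modularFunctionFieldFullC κ 1) d : ↥(modularFunctionFieldFullC κ 1)) : LaurentSeries κ) =
      Polynomial.aeval (jqModC κ) P := by
    rw [hP, ← IsScalarTower.algebraMap_apply, hA, hred1]
    exact (Polynomial.aeval_algHom_apply (modularFunctionFieldFullC κ 1).val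
      (s18g_jFbar κ 1) P).symm
  have hLP : s18g_red G ⟨s59c_Yser G q, hY0⟩ = Polynomial.aeval (jqModC κ) P := by
    rw [← hser, hpoly]
  have hP0 : P ≠ 0 := by
    rintro rfl
    rw [map_zero] at hLP
    exact hL0 hLP
  refine ⟨P, ?_, fun hY => hLP⟩
  have := s59c_order_aeval_jq κ hP0
  rw [← hLP, hLord] at this
  have hq1' : 1 ≤ q := hq.one_lt.le
  omega

include hq φ hπ hϖ in
/-- **the level-one polynomial for EVERY prime `q`.** -/
theorem s59c_red_Yser_poly_all :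
    ∃ P : κ[X], P.natDegree = q - 1 ∧ ∀ hY : s59c_Yser G q ∈ s18g_O G,
      s18g_red G ⟨s59c_Yser G q, hY⟩ = Polynomial.aeval (jqModC κ) P := by
  by_cases h5 : 5 ≤ q
  · exact s59c_red_Yser_poly q hq h5 K₀ φ κ G hπ hϖ
  · push Not at h5
    have hq2 := hq.two_le
    have hcases : q = 2 ∨ q = 3 := by
      interval_cases q
      · exact Or.inl rfl
      · exact Or.inr rfl
      · exact absurd hq (by decide)
    rcases hcases with rfl | rfl
    · exact s59c_red_Yser_poly_raise 2 hq K₀ φ κ G hπ hϖ 9 (by decide)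
        (by rw [mul_one]; exact s59c_nuTwo_nine) (by rw [mul_one]; exact s44e_nuThree_nine)
    · exact s59c_red_Yser_poly_raise 3 hq K₀ φ κ G hπ hϖ 4 (by decide)
        (by rw [mul_one]; exact s44e_nuTwo_four) (by rw [mul_one]; exact s59c_nuThree_four)

end Main

end Fermat.Agent.Lib.S59
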