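/-
Programme (R2-bg), node [CAR]/(R1), helper8 (prefix `s59c_`), `t`-chart port, part 4:
**(R1) — THE NODE COUNT ON THE CHART OF A HAUPTMODUL-TYPE COORDINATE** (`q` ANY prime, `q ∤ M`,
`ν₂(M) = ν₃(M) = 0`, base unramified at `q`).

`w` a coordinate of level `M` with `j wᵃ = A(w)` (`deg Ā ≤ a + 1`), `D = integralClosure κ[w̄] F̄_M` free of
rank `r` over `κ[X]`, `r (a + 1) ≤ ψ(M)`; the Σ-datum frame of `s33s_datumW` on the chart
`{α w regular}`.  For every finite set `T` of nodes of that chart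

  `12 * ∑ s ∈ T, [k_s : κ] ≤ (q - 1) * ψ(M)`        (**`s59c_node_count_w`**).

Proof: `g = (α w)^{a (q - 1)} G₂` lies in the chart ring (`CNodeTRing.lean`), `g / ϖ¹² ∈ V_0`, its
`∞`-reduction is `P(w̄)`, `deg P ≤ (a + 1)(q - 1)` (`CNodeTRed.lean`), and the abstract count
`s59c_count_build` applies (the crossings are regular by helper4's `s36b_leafCross`).
-/
import Fermat.Agent.Lib.S59.CNodeTRed
import Fermat.Agent.Lib.S59.CNodeCount
import Fermat.Agent.Lib.S36.XLeafCross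
import Fermat.Agent.Lib.S33.SSFive

set_option autoImplicit false
set_option linter.unusedSectionVars false
set_option linter.style.haveILetI false
set_option synthInstance.maxHeartbeats 400000
set_option maxHeartbeats 1600000

noncomputable section

namespace Fermat.Agent.Lib.S59

open ModularCurve AlgebraicCurve HahnSeries Polynomial KaehlerDifferential
open Fermat.Agent.Lib.FF Fermat.Agent.Lib.S18 Fermat.Agent.Lib.S34 Fermat.Agent.Lib.S37
  Fermat.Agent.Lib.S33 Fermat.Agent.Lib.S36 Fermat.Agent.Lib.S44 Fermat.Agent.Lib.S28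

local notation "Kb" => AlgebraicClosure ℚ

section Generic

variable (M p : ℕ) [NeZero M] [hp : Fact p.Prime] (hpM : ¬ p ∣ M)
  (K₀ : Type) [Field K₀] [NumberField K₀] (φ : K₀ →+* Kb)
  (κ : Type) [Field κ] [CharP κ p] [PerfectField κ]
  (G : s18g_GaussData K₀ κ) [IsDiscreteValuationRing G.A] (hπ : Function.Surjective G.π)
  (hϖ : ((G.ϖ : G.A) : K₀) = (p : K₀))

local notation "𝓕M" => laurentBaseChange K₀ (modularFunctionFieldFull M)
local notation "hFM" => (fun (f : LaurentSeries K₀)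
  (hf : f ∈ laurentBaseChange K₀ (modularFunctionFieldFull M)) => s18g_baseChange_mem_Frac G M hf)
local notation "FbM" => modularFunctionFieldFullC κ M

include hϖ in
/-- **(R1) on the chart of a Hauptmodul-type coordinate.** -/
theorem s59c_node_count_w (h2 : nuTwo M = 0) (h3 : nuThree M = 0)
    (hT : s18g_HT κ M) (hdegM : s18g_HDeg K₀ M)
    (w : ↥𝓕M) (hwV : w ∈ s18g_V G 𝓕M hFM)
    (hBF : s36g_BaseFull G φ M p hp.out hpM w hwV)
    (hcoord : s37b_Coord κ p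
      ((s18g_redF G M hFM hT hdegM ⟨w, hwV⟩ : ↥FbM) : LaurentSeries κ))
    (hwtw : ∀ τ : κ ≃+* κ, ModularCurve.coeffMap (τ : κ →+* κ)
      ((s18g_redF G M hFM hT hdegM ⟨w, hwV⟩ : ↥FbM) : LaurentSeries κ) =
      ((s18g_redF G M hFM hT hdegM ⟨w, hwV⟩ : ↥FbM) : LaurentSeries κ))
    (hmain : letI := s18f_algF G M hT hdegM w hwV
      ∀ z : ↥FbM, IsIntegral κ[X] z →
        ∃ (b : ↥𝓕M) (hb : b ∈ s18_ring (L₀ := K₀) (s18g_V G 𝓕M hFM) (s18_chart1 w)),
          s18g_redF G M hFM hT hdegM ⟨b, hb.1⟩ = z)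
    (hαB : ∀ g ∈ (s18_ring (L₀ := K₀) (s34m_Vinf G M) (s18_chart1 w) : Set (s34m_F K₀ M)),
      heckeAlphaBar K₀ M p g ∈ s34x_ring (s34x_infRing (s34m_VV G φ M p hp.out hpM))
        (s18_chart1 (L₀ := K₀) (heckeAlphaBar K₀ M p w)))
    (hβB : ∀ g ∈ (s18_ring (L₀ := K₀) (s34m_Vinf G M) (s18_chart1 w) : Set (s34m_F K₀ M)),
      ∃ b' ∈ s34x_ring (s34x_infRing (s34m_VV G φ M p hp.out hpM))
          (s18_chart1 (L₀ := K₀) (heckeAlphaBar K₀ M p w)),
      ∃ z, z ∈ s34m_Vinf G (M * p) ∧ z ∈ s34m_Vzero G φ M p hp.out hpM ∧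
        b' - heckeBetaBar K₀ M p g = s34m_unif G (M * p) * z)
    (a : ℕ) (A : K₀[X]) (hA : s18g_jF (K := K₀) M * w ^ a = Polynomial.aeval w A)
    (Abar : κ[X]) (hAbar : Abar.natDegree ≤ a + 1)
    (hrelbar : jqModC κ *
        ((s18g_redF G M hFM hT hdegM ⟨w, hwV⟩ : ↥FbM) : LaurentSeries κ) ^ a =
      Polynomial.aeval ((s18g_redF G M hFM hT hdegM ⟨w, hwV⟩ : ↥FbM) : LaurentSeries κ) Abar)
    (r : ℕ) (hr : r * (a + 1) ≤ dedekindPsi M)
    (hbt : letI := s18f_algF G M hT hdegM w hwV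
      Nonempty (Module.Basis (Fin r) κ[X] ↥(integralClosure κ[X] ↥FbM)))
    (T : Finset (s33s_Node (s34m_VV G φ M p hp.out hpM) (s34m_unif G (M * p))
      (s18_chart1 (L₀ := K₀) (heckeAlphaBar K₀ M p w)))) :
    12 * ∑ s ∈ T, Module.finrank κ
        (s33s_kG G φ M p hpM (s18_chart1 (L₀ := K₀) (heckeAlphaBar K₀ M p w)) hπ s) ≤
      (p - 1) * dedekindPsi M := by
  haveI : NeZero p := ⟨hp.out.ne_zero⟩
  have hp1 : ¬ p ∣ 1 := fun h => hp.out.one_lt.ne' (Nat.dvd_one.mp h)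
  have hdeg : s34m_HDeg K₀ M p := s34r_deg_HDeg φ M p hp.out hpM
  haveI : FFGen K₀ (s18g_jF (K := K₀) (M * p)) :=
    s18b_ffGen_jF (M * p) (fun n b hb hn => s18g_exists_relation (M * p) φ hn b hb)
  obtain ⟨hB, -, -, -, htr, -, -⟩ := id hBF
  obtain ⟨hw0N, hgenN, hwO, -, -, hαN, -, -, -⟩ := hB
  haveI := hgenN
  -- the Dedekind ring of the `∞`-component
  letI algF := s18f_algF G M hT hdegM w hwV
  have hAalg : ∀ P : κ[X], algebraMap κ[X] ↥FbM P =
      Polynomial.aeval (s18g_redF G M hFM hT hdegM ⟨w, hwV⟩) P :=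
    s18f_algF_apply G M hT hdegM w hwV
  haveI hDed := (s37b_dedekind_of_coord κ p M _ hcoord hAalg).1
  haveI hFrac := (s37b_dedekind_of_coord κ p M _ hcoord hAalg).2
  -- the `κ`-structure of `D`
  letI algκ : Algebra κ ↥(integralClosure κ[X] ↥FbM) :=
    ((algebraMap κ[X] ↥(integralClosure κ[X] ↥FbM)).comp Polynomial.C).toAlgebra
  haveI : IsScalarTower κ κ[X] ↥(integralClosure κ[X] ↥FbM) :=
    IsScalarTower.of_algebraMap_eq (fun _ => rfl)
  have hκ : ∀ c : κ, algebraMap ↥(integralClosure κ[X] ↥FbM) ↥FbM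
      (algebraMap κ ↥(integralClosure κ[X] ↥FbM) c) = algebraMap κ ↥FbM c := by
    intro c
    show algebraMap ↥(integralClosure κ[X] ↥FbM) ↥FbM
      (algebraMap κ[X] ↥(integralClosure κ[X] ↥FbM) (Polynomial.C c)) = _
    rw [← IsScalarTower.algebraMap_apply, hAalg, Polynomial.aeval_C]
  obtain ⟨bt⟩ := hbt
  -- the crossings are regular
  have hXreg := s36b_leafCross M p hp.out hpM h2 h3 K₀ φ κ G hπ hϖ w hwV hBF
  -- the element `G₂`
  obtain ⟨h, hrel⟩ := s36r_exists_D_eq (laurentBaseChange K₀ (modularFunctionFieldFull (M * p)))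
    (s18g_jF (K := K₀) (M * p)) (heckeBetaBar K₀ M p (s18g_jF (K := K₀) M))
    (heckeAlphaBar K₀ M p (s18g_jF (K := K₀) M)) (s44e_theta_jA_ne_zero M p)
  -- the Hauptmodul relation at level `M p`
  have hAN : s18g_jF (K := K₀) (M * p) * heckeAlphaBar K₀ M p w ^ a =
      Polynomial.aeval (heckeAlphaBar K₀ M p w) A := by
    have h1 := congrArg (heckeAlphaBar K₀ M p) hA
    rw [map_mul, map_pow, ← Polynomial.aeval_algHom_apply, s34m_alpha_jF (K₀ := K₀) M p] at h1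
    exact h1
  have hmem := s59c_gT_mem_ring G φ M p hp.out hpM hϖ 1 hp1 (by rw [one_mul]; exact h2)
    (by rw [one_mul]; exact h3) (heckeAlphaBar K₀ M p w) hw0N hwO a A hAN h hrel
  have hg12 := s59c_gT_Vzero_div G φ M p hp.out hpM hϖ (heckeAlphaBar K₀ M p w) hwO
    (a * (p - 1)) h hrel
  obtain ⟨P₀, hP₀deg, hP₀red⟩ := s59c_red_Yser_poly_all p hp.out K₀ φ κ G hπ hϖ
  obtain ⟨hY0, hL0, -⟩ := s59c_red_Yser G p hϖ
  -- the frame of the Σ-datum
  have hF := s33s_w_hF G φ M p hpM hdeg hT hdegM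
  have hint := s33s_w_hint G φ M p hpM hdeg hT hdegM w hwV hwtw
    (heckeAlphaBar K₀ M p w) rfl hαN
  have hlift := s33s_w_hlift G M hT hdegM w hwV hmain
  have htw := s33s_w_htw G M p hT hdegM w hwV hwtw
  -- the `q`-expansion of `g` and its reduction
  have hwbar0 : ((s18g_redF G M hFM hT hdegM ⟨w, hwV⟩ : ↥FbM) : LaurentSeries κ) ≠ 0 := by
    intro h0
    apply hcoord.1
    rw [h0]
    exact isAlgebraic_zero
  set wbar : LaurentSeries κ :=
    ((s18g_redF G M hFM hT hdegM ⟨w, hwV⟩ : ↥FbM) : LaurentSeries κ) with hwbar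
  have hwO' : (w : LaurentSeries K₀) ∈ s18g_O G := hwV
  have hwbar' : s18g_red G ⟨(w : LaurentSeries K₀), hwO'⟩ = wbar := rfl
  have hgcoe : ((heckeAlphaBar K₀ M p w ^ (a * (p - 1)) * s59c_G2 G M p h :
      s34m_F K₀ (M * p)) : LaurentSeries K₀) =
      (w : LaurentSeries K₀) ^ (a * (p - 1)) * s59c_Yser G p := by
    rw [IntermediateField.coe_mul, IntermediateField.coe_pow, coe_heckeAlphaBar,
      s59c_G2_coe G M p h hrel]
    rfl
  have hgO : ((heckeAlphaBar K₀ M p w ^ (a * (p - 1)) * s59c_G2 G M p h :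
      s34m_F K₀ (M * p)) : LaurentSeries K₀) ∈ s18g_O G := by
    rw [hgcoe]
    exact mul_mem (pow_mem hwO' _) hY0
  have hredg : s18g_red G ⟨_, hgO⟩ =
      wbar ^ (a * (p - 1)) * Polynomial.aeval (jqModC κ) P₀ := by
    have e : (⟨_, hgO⟩ : s18g_O G) =
        (⟨(w : LaurentSeries K₀), hwO'⟩ : s18g_O G) ^ (a * (p - 1)) *
          ⟨s59c_Yser G p, hY0⟩ := Subtype.ext hgcoe
    rw [e, map_mul, map_pow, hwbar', hP₀red hY0]
  set Ptot : κ[X] := s59c_hauptPoly Abar P₀ a (p - 1) with hPtot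
  have hPtot_eval : wbar ^ (a * (p - 1)) * Polynomial.aeval (jqModC κ) P₀ =
      Polynomial.aeval wbar Ptot :=
    s59c_hauptPoly_aeval (jqModC κ) wbar Abar a hrelbar P₀ (p - 1) hP₀deg.le
  have hPtot0 : Ptot ≠ 0 := by
    intro h0
    rw [h0, map_zero] at hPtot_eval
    rcases mul_eq_zero.mp hPtot_eval with h1 | h1
    · exact hwbar0 (pow_eq_zero_iff (by
        intro hm
        rw [hm, pow_zero] at h1
        exact one_ne_zero h1) |>.mp h1)
    · exact hL0 (by rw [hP₀red hY0]; exact h1)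
  -- `ρ g = P(w̄)`
  have hgP : s33s_rhoD G φ M p hp.out hpM FbM
      (s18_chart1 (L₀ := K₀) (heckeAlphaBar K₀ M p w)) hF hint true
      ⟨heckeAlphaBar K₀ M p w ^ (a * (p - 1)) * s59c_G2 G M p h, hmem⟩ =
      algebraMap κ[X] ↥(integralClosure κ[X] ↥FbM) Ptot := by
    apply IsFractionRing.injective ↥(integralClosure κ[X] ↥FbM) ↥FbM
    apply Subtype.ext
    rw [(s33s_coe_rhoD G φ M p hp.out hpM FbM
      (s18_chart1 (L₀ := K₀) (heckeAlphaBar K₀ M p w)) hF hint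
      ⟨heckeAlphaBar K₀ M p w ^ (a * (p - 1)) * s59c_G2 G M p h, hmem⟩).1,
      ← IsScalarTower.algebraMap_apply, hAalg]
    have e1 : s34df_r1 G φ M p hp.out hpM
        (s18_chart1 (L₀ := K₀) (heckeAlphaBar K₀ M p w))
        ⟨heckeAlphaBar K₀ M p w ^ (a * (p - 1)) * s59c_G2 G M p h, hmem⟩ =
        s18g_red G ⟨_, hgO⟩ := rfl
    rw [e1, hredg, hPtot_eval]
    exact Polynomial.aeval_algHom_apply (modularFunctionFieldFullC κ M).val (s18g_redF G M hFM hT hdegM ⟨w, hwV⟩) Ptot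
  have key := s59c_count_build G φ M p hpM hπ
    (s18_chart1 (L₀ := K₀) (heckeAlphaBar K₀ M p w)) hF hint
    (s18_ring (L₀ := K₀) (s34m_Vinf G M) (s18_chart1 w) : Set (s34m_F K₀ M))
    (fun _ hg => hg.1) hαB hβB hlift htw bt hκ hXreg
    ⟨heckeAlphaBar K₀ M p w ^ (a * (p - 1)) * s59c_G2 G M p h, hmem⟩ 12 hg12 Ptot hPtot0 hgP T
  rw [Nat.card_eq_fintype_card, Fintype.card_fin] at key
  have hdegP : Ptot.natDegree ≤ (a + 1) * (p - 1) :=
    s59c_hauptPoly_natDegree Abar P₀ a (p - 1) hAbar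
  calc 12 * ∑ s ∈ T, Module.finrank κ
        (s33s_kG G φ M p hpM (s18_chart1 (L₀ := K₀) (heckeAlphaBar K₀ M p w)) hπ s)
      ≤ r * Ptot.natDegree := key
    _ ≤ r * ((a + 1) * (p - 1)) := Nat.mul_le_mul_left _ hdegP
    _ = (p - 1) * (r * (a + 1)) := by ring
    _ ≤ (p - 1) * dedekindPsi M := Nat.mul_le_mul_left _ hr

end Generic

end Fermat.Agent.Lib.S59
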