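/-
Programme (R2-bg), node [CAR]/(R1), helper8 (prefix `s59c_`), `t`-chart port, part 5:
**(R1) — THE NODE COUNT ON THE `t₂`-CHART (`p = 3`, `2 ∣ M`) AND ON THE `t₃`-CHART (`p = 2`, `3 ∣ M`)**
of `X₀(M p)`, `ν₂(M) = ν₃(M) = 0`, base unramified at `p`.

Nodes = `s33s_Node` of the chart `{t regular}` of the S33/S34 model, `t` ANY function of level `M p` with
`q`-expansion `t₂` (resp. `t₃`) — the charts of `s33k_sd_exists_datum_three` (resp. `_two`).  For every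
finite set `T` of nodes

  `12 * ∑ s ∈ T, [k_s : κ] ≤ (p - 1) * ψ(M)`     (**`s59c_node_count_t2`**, **`s59c_node_count_t3`**).

Instances of `s59c_node_count_w` (`CNodeTCount.lean`): `j t₂² = (t₂ + 256)³`, rank `ψ(M)/3`;
`j t₃³ = (t₃ + 27)(t₃ + 243)³`, rank `ψ(M)/4`.
-/
import Fermat.Agent.Lib.S59.CNodeTCount
import Fermat.Agent.Lib.S34.DTwoThree
import Fermat.Agent.Lib.S34.FBase

set_option autoImplicit false
set_option linter.unusedSectionVars false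
set_option linter.style.haveILetI false
set_option synthInstance.maxHeartbeats 400000
set_option maxHeartbeats 1600000

noncomputable section

namespace Fermat.Agent.Lib.S59

open ModularCurve AlgebraicCurve HahnSeries Polynomial KaehlerDifferential
open Fermat.Agent.Lib.FF Fermat.Agent.Lib.S18 Fermat.Agent.Lib.S34 Fermat.Agent.Lib.S37
  Fermat.Agent.Lib.S33 Fermat.Agent.Lib.S36 Fermat.Agent.Lib.S44 Fermat.Agent.Lib.S28

local notation "Kb" => AlgebraicClosure ℚ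

/-- **(R1) on the `t₂`-chart** (`p = 3`, `2 ∣ M`). -/
theorem s59c_node_count_t2 (M p : ℕ) [NeZero M] [hp : Fact p.Prime] (hpM : ¬ p ∣ M)
    (hp3 : p = 3) (h2M : 2 ∣ M) (h2 : nuTwo M = 0) (h3 : nuThree M = 0)
    (K₀ : Type) [Field K₀] [NumberField K₀] (φ : K₀ →+* Kb)
    (κ : Type) [Field κ] [CharP κ p] [PerfectField κ]
    (G : s18g_GaussData K₀ κ) [IsDiscreteValuationRing G.A] (hπ : Function.Surjective G.π)
    (hϖ : ((G.ϖ : G.A) : K₀) = (p : K₀))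
    (t : s34m_F K₀ (M * p)) (ht : (t : LaurentSeries K₀) = s18u_t2 K₀)
    (T : Finset (s33s_Node (s34m_VV G φ M p hp.out hpM) (s34m_unif G (M * p))
      (s18_chart1 (L₀ := K₀) t))) :
    12 * ∑ s ∈ T, Module.finrank κ
        (s33s_kG G φ M p hpM (s18_chart1 (L₀ := K₀) t) hπ s) ≤
      (p - 1) * dedekindPsi M := by
  haveI : NeZero p := ⟨hp.out.ne_zero⟩
  have hp2 : p ≠ 2 := by omega
  have hT : s18g_HT κ M := s18t_indep_j p M hpM κ
  have hdegM : s18g_HDeg K₀ M := fun _ b hb hn => s18g_exists_relation M φ hn b hb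
  have hdeg2 : s18g_HDeg K₀ 2 := fun n b hb hn => s18g_exists_relation 2 φ hn b hb
  have hFM : ∀ f ∈ laurentBaseChange K₀ (modularFunctionFieldFull M), f ∈ s18g_Frac G :=
    fun _ hf => s18g_baseChange_mem_Frac G M hf
  haveI : FFGen K₀ (s18g_jF (K := K₀) (M * p)) :=
    s18b_ffGen_jF (M * p) (fun n b hb hn => s18g_exists_relation (M * p) φ hn b hb)
  obtain ⟨x, hx, hBF⟩ := s36g_base_full K₀ φ M p hp.out hpM (Or.inr (Or.inl ⟨hp3, h2M⟩)) κ G hπ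
  have hxt : (x : LaurentSeries K₀) = s18u_t2 K₀ := by
    obtain ⟨-, -, -, -, -, hbr, -⟩ := id hBF
    rcases hbr with ⟨h5, -⟩ | ⟨-, -, h⟩ | ⟨h2', -⟩
    · omega
    · exact h
    · omega
  obtain ⟨tM, htM, ⟨hwV, hred⟩, -, hgen, -, -, -, -, -, -, -, -, -⟩ :=
    s34m_base_t2 G φ M p hp.out hpM h2M hp2
  have hxtM : tM = x := Subtype.ext (by rw [hxt, htM])
  subst hxtM
  have hwN : heckeAlphaBar K₀ M p tM = t := Subtype.ext (by rw [coe_heckeAlphaBar, hxt, ht])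
  subst hwN
  haveI := hgen
  have hx0 : tM ≠ 0 := by
    intro h0
    apply s18b_t2_ne_zero K₀
    rw [← htM, h0]; rfl
  have hred' : ((s18g_redF G M hFM hT hdegM ⟨tM, hx⟩ : ↥(modularFunctionFieldFullC κ M)) :
      LaurentSeries κ) = s18u_t2 κ := hred
  have hclaim : ∀ P : Place K₀ (s34m_F K₀ (M * p)),
      (0 ≤ P.ord (heckeAlphaBar K₀ M p tM) → 0 ≤ P.ord (heckeBetaBar K₀ M p tM)) ∧
      (P.ord (heckeAlphaBar K₀ M p tM) ≤ 0 → P.ord (heckeBetaBar K₀ M p tM) ≤ 0) :=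
    fun P => s34e_cusp_hclaim_t2 G φ M p hp.out hpM hp2 tM htM P
  have hHK := s18b_haupt_two K₀
  have hHκ := s18b_haupt_two κ
  refine s59c_node_count_w M p hpM K₀ φ κ G hπ hϖ h2 h3 hT hdegM tM hx hBF
    (by rw [hred']; exact s37b_coord_t2 κ p)
    (by intro τ; rw [hred']; exact s18u_coeffMap_t2 _)
    (s34dt_hmain_t2 M p hpM K₀ φ κ G hπ hT hdegM hp3 h2M tM htM)
    (s34e_ch_alpha₁' G φ M p hp.out hpM tM _ rfl)
    (s34e_ch_beta₁' G φ M p hp.out hpM hx0 _ rfl hclaim)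
    2 ((X + Polynomial.C (256 : K₀)) ^ 3)
    (s34e_cusp_rel_of_coe M _ 2 (s18u_t2 K₀) hHK.rel tM htM)
    ((X + Polynomial.C (256 : κ)) ^ 3) (by rw [hHκ.deg]) (by rw [hred']; exact hHκ.rel)
    (dedekindPsi M / 3) (Nat.div_mul_le_self _ 3) ?_ T
  letI := s18f_algF G M hT hdegM tM hx
  obtain ⟨-, bt, -⟩ := s18t_deg_chart_t2 G M hFM hT hdegM p hπ hpM h2M hdeg2 tM htM hx _
    (Or.inl rfl) (s18f_algF_apply G M hT hdegM tM hx)
  exact ⟨bt⟩

/-- **(R1) on the `t₃`-chart** (`p = 2`, `3 ∣ M`). -/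
theorem s59c_node_count_t3 (M p : ℕ) [NeZero M] [hp : Fact p.Prime] (hpM : ¬ p ∣ M)
    (hp2 : p = 2) (h3M : 3 ∣ M) (h2 : nuTwo M = 0) (h3 : nuThree M = 0)
    (K₀ : Type) [Field K₀] [NumberField K₀] (φ : K₀ →+* Kb)
    (κ : Type) [Field κ] [CharP κ p] [PerfectField κ]
    (G : s18g_GaussData K₀ κ) [IsDiscreteValuationRing G.A] (hπ : Function.Surjective G.π)
    (hϖ : ((G.ϖ : G.A) : K₀) = (p : K₀))
    (t : s34m_F K₀ (M * p)) (ht : (t : LaurentSeries K₀) = s18u_t3 K₀)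
    (T : Finset (s33s_Node (s34m_VV G φ M p hp.out hpM) (s34m_unif G (M * p))
      (s18_chart1 (L₀ := K₀) t))) :
    12 * ∑ s ∈ T, Module.finrank κ
        (s33s_kG G φ M p hpM (s18_chart1 (L₀ := K₀) t) hπ s) ≤
      (p - 1) * dedekindPsi M := by
  haveI : NeZero p := ⟨hp.out.ne_zero⟩
  have hp3 : p ≠ 3 := by omega
  have hT : s18g_HT κ M := s18t_indep_j p M hpM κ
  have hdegM : s18g_HDeg K₀ M := fun _ b hb hn => s18g_exists_relation M φ hn b hb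
  have hdeg3 : s18g_HDeg K₀ 3 := fun n b hb hn => s18g_exists_relation 3 φ hn b hb
  have hFM : ∀ f ∈ laurentBaseChange K₀ (modularFunctionFieldFull M), f ∈ s18g_Frac G :=
    fun _ hf => s18g_baseChange_mem_Frac G M hf
  haveI : FFGen K₀ (s18g_jF (K := K₀) (M * p)) :=
    s18b_ffGen_jF (M * p) (fun n b hb hn => s18g_exists_relation (M * p) φ hn b hb)
  obtain ⟨x, hx, hBF⟩ := s36g_base_full K₀ φ M p hp.out hpM (Or.inr (Or.inr ⟨hp2, h3M⟩)) κ G hπ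
  have hxt : (x : LaurentSeries K₀) = s18u_t3 K₀ := by
    obtain ⟨-, -, -, -, -, hbr, -⟩ := id hBF
    rcases hbr with ⟨h5, -⟩ | ⟨h3', -⟩ | ⟨-, -, h⟩
    · omega
    · omega
    · exact h
  obtain ⟨tM, htM, ⟨hwV, hred⟩, -, hgen, -, -, -, -, -, -, -, -, -⟩ :=
    s34m_base_t3 G φ M p hp.out hpM h3M hp3
  have hxtM : tM = x := Subtype.ext (by rw [hxt, htM])
  subst hxtM
  have hwN : heckeAlphaBar K₀ M p tM = t := Subtype.ext (by rw [coe_heckeAlphaBar, hxt, ht])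
  subst hwN
  haveI := hgen
  have hx0 : tM ≠ 0 := by
    intro h0
    apply s18b_t3_ne_zero K₀
    rw [← htM, h0]; rfl
  have hred' : ((s18g_redF G M hFM hT hdegM ⟨tM, hx⟩ : ↥(modularFunctionFieldFullC κ M)) :
      LaurentSeries κ) = s18u_t3 κ := hred
  have hclaim : ∀ P : Place K₀ (s34m_F K₀ (M * p)),
      (0 ≤ P.ord (heckeAlphaBar K₀ M p tM) → 0 ≤ P.ord (heckeBetaBar K₀ M p tM)) ∧
      (P.ord (heckeAlphaBar K₀ M p tM) ≤ 0 → P.ord (heckeBetaBar K₀ M p tM) ≤ 0) :=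
    fun P => s34e_cusp_hclaim_t3 G φ M p hp.out hpM hp3 tM htM P
  have hHK := s18b_haupt_three K₀
  have hHκ := s18b_haupt_three κ
  refine s59c_node_count_w M p hpM K₀ φ κ G hπ hϖ h2 h3 hT hdegM tM hx hBF
    (by rw [hred']; exact s37b_coord_t3 κ p)
    (by intro τ; rw [hred']; exact s18u_coeffMap_t3 _)
    (s34dt_hmain_t3 M p hpM K₀ φ κ G hπ hT hdegM hp2 h3M tM htM)
    (s34e_ch_alpha₁' G φ M p hp.out hpM tM _ rfl)
    (s34e_ch_beta₁' G φ M p hp.out hpM hx0 _ rfl hclaim)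
    3 ((X + Polynomial.C (27 : K₀)) * (X + Polynomial.C (243 : K₀)) ^ 3)
    (s34e_cusp_rel_of_coe M _ 3 (s18u_t3 K₀) hHK.rel tM htM)
    ((X + Polynomial.C (27 : κ)) * (X + Polynomial.C (243 : κ)) ^ 3)
    (by rw [hHκ.deg]) (by rw [hred']; exact hHκ.rel)
    (dedekindPsi M / 4) (Nat.div_mul_le_self _ 4) ?_ T
  letI := s18f_algF G M hT hdegM tM hx
  obtain ⟨-, bt, -⟩ := s18t_deg_chart_t3 G M hFM hT hdegM p hπ hpM h3M hdeg3 tM htM hx _
    (Or.inl rfl) (s18f_algF_apply G M hT hdegM tM hx)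
  exact ⟨bt⟩

end Fermat.Agent.Lib.S59
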