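/-
Programme (R2) / node **[CAR]**, the ports to `q ∈ {2, 3}`, count data over a chart package (helper8, prefix `s59c_`),
part 5: **THE CHART-SPECIFIC INPUTS `s59c_ChartIn` FOR THE CHARTS OF `t₂` AND `t₃`.**

* `s59c_chartIn_t2` : `q = 3`, `2 ∣ M`, `ν₂(M) = ν₃(M) = 0`, `ϖ = q` : every chart `C` whose coordinates `C.w`, `C.wN` have the
  `q`-expansion `t₂` has the inputs `s59c_ChartIn hdeg hπ C` (regular crossings: `s36b_leafCross`; [DIV-e] over `w̄ = ∞`: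
  `s59c_divp_inf_W` + `s33n_no_node_at_infty_t2`; [DIV-e] on both components: helper7's `s59nt_div_p_t2`; node count:
  `s59c_node_count_t2`);
* `s59c_chartIn_t3` : the same for `q = 2`, `3 ∣ M`, `t₃`.
-/
import Fermat.Agent.Lib.S59.CChartIn
import Fermat.Agent.Lib.S59.CNodeTInst
import Fermat.Agent.Lib.S59.NXDiv
import Fermat.Agent.Lib.S59.NZDiv
import Fermat.Agent.Lib.S59.NZNoInf
import Fermat.Agent.Lib.S33.SSNoInfT

set_option autoImplicit false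
set_option linter.unusedSectionVars false
set_option linter.style.haveILetI false
set_option linter.unusedVariables false
set_option synthInstance.maxHeartbeats 400000
set_option maxHeartbeats 1600000

noncomputable section

namespace Fermat.Agent.Lib.S59

open ModularCurve HahnSeries AlgebraicCurve Polynomial Fermat.Agent.Lib.FF Fermat.Agent.Lib.S18
  Fermat.Agent.Lib.S28 Fermat.Agent.Lib.S29 Fermat.Agent.Lib.S37 Fermat.Agent.Lib.S34
  Fermat.Agent.Lib.S35 Fermat.Agent.Lib.S33 Fermat.Agent.Lib.S36 Fermat.Agent.Lib.S44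

local notation "Kb" => AlgebraicClosure ℚ

variable (M q : ℕ) [NeZero M] [hq : Fact q.Prime] (hqM : ¬ q ∣ M)
  (K₀ : Type) [Field K₀] [NumberField K₀] (φ : K₀ →+* Kb)
  (κ : Type) [Field κ] [CharP κ q] [PerfectField κ]
  (G : s18g_GaussData K₀ κ) [IsDiscreteValuationRing G.A]
  (hdeg : s34m_HDeg K₀ M q) (hT : s18g_HT κ M) (hdegM : s18g_HDeg K₀ M)
  (hπ : Function.Surjective G.π)

local notation "hFM" => (fun (f : LaurentSeries K₀)
  (hf : f ∈ laurentBaseChange K₀ (modularFunctionFieldFull M)) => s18g_baseChange_mem_Frac G M hf)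
local notation "FbM" => modularFunctionFieldFullC κ M

/-- **the chart-specific inputs of the count data on the charts of `t₂`** (`q = 3`, `2 ∣ M`). -/
theorem s59c_chartIn_t2 (hq3 : q = 3) (h2M : 2 ∣ M) (h2 : nuTwo M = 0) (h3 : nuThree M = 0)
    (hϖ : ((G.ϖ : G.A) : K₀) = (q : K₀))
    (C : s59b_Chart G φ M q hqM hT hdegM)
    (hw : ((C.w : s34m_F K₀ M) : LaurentSeries K₀) = s18u_t2 K₀)
    (hwN : ((C.wN : s34m_F K₀ (M * q)) : LaurentSeries K₀) = s18u_t2 K₀) :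
    s59c_ChartIn hdeg hπ C := by
  haveI : NeZero q := ⟨hq.out.ne_zero⟩
  have hq2 : q ≠ 2 := by omega
  refine ⟨⟨hqM, Or.inr (Or.inl ⟨hq3, h2M⟩)⟩, ?_, ?_, ?_, ?_⟩
  · -- the crossings are regular
    obtain ⟨x, hx, hBF⟩ := s36g_base_full K₀ φ M q hq.out hqM (Or.inr (Or.inl ⟨hq3, h2M⟩)) κ G hπ
    have hXreg := s36b_leafCross M q hq.out hqM h2 h3 K₀ φ κ G hπ hϖ x hx hBF
    have hxt : (x : LaurentSeries K₀) = s18u_t2 K₀ := by
      obtain ⟨-, -, -, -, -, hbr, -⟩ := id hBF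
      rcases hbr with ⟨h5, -⟩ | ⟨-, -, h1⟩ | ⟨h2', -⟩
      · omega
      · exact h1
      · omega
    have hxw : x = C.w := Subtype.ext (hxt.trans hw.symm)
    rw [hxw, C.hwN] at hXreg
    exact hXreg
  · -- [DIV-e] over `w̄ = ∞`
    intro m f hf0 hfI hfI' hQ4₂ v₀ hj
    obtain ⟨tM, htM, ⟨hwV, hred⟩, hwinvV, hgen, hgeninv, hwt, hw0, hgenN, hwO, hwO', hfix, hα,
      hα'⟩ := s34m_base_t2 G φ M q hq.out hqM h2M hq2
    have hCw : tM = C.w := Subtype.ext (htM.trans hw.symm)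
    subst hCw
    haveI := hgen
    haveI := hgeninv
    haveI := C.gen
    haveI : FFGen K₀ C.wN⁻¹ := ff_gen_inv
    haveI : FFGen K₀ (s18g_jF (K := K₀) (M * q)) :=
      s18b_ffGen_jF (M * q) (fun _ b hb hn => s18g_exists_relation (M * q) φ hn b hb)
    rw [C.hwN] at hα' hwO'
    have htM0 : C.w ≠ 0 := by
      intro h0
      apply s18b_t2_ne_zero K₀
      rw [← htM, h0]; rfl
    have hred' : ((s18g_redF G M hFM hT hdegM ⟨C.w, C.hwV⟩ : ↥FbM) : LaurentSeries κ) =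
        s18u_t2 κ := hred
    have hinv : s18g_redF G M hFM hT hdegM ⟨C.w⁻¹, hwinvV⟩ =
        (s18g_redF G M hFM hT hdegM ⟨C.w, C.hwV⟩)⁻¹ :=
      s18f_redF_inv G M hT hdegM _ htM0 C.hwV _
    have hredinv : ((s18g_redF G M hFM hT hdegM ⟨C.w⁻¹, hwinvV⟩ : ↥FbM) : LaurentSeries κ) =
        (s18u_t2 κ)⁻¹ := by
      rw [hinv, IntermediateField.coe_inv, hred']
    have hclaim : ∀ P : Place K₀ (s34m_F K₀ (M * q)),
        (0 ≤ P.ord C.wN → 0 ≤ P.ord (heckeBetaBar K₀ M q C.w)) ∧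
        (P.ord C.wN ≤ 0 → P.ord (heckeBetaBar K₀ M q C.w) ≤ 0) := by
      intro P
      have := s34e_cusp_hclaim_t2 G φ M q hq.out hqM hq2 C.w htM P
      rwa [C.hwN] at this
    have hwNO' : C.wN⁻¹ ∈ s34x_infRing (s34m_VV G φ M q hq.out hqM) :=
      (s34x_mem_infRing _ _).mpr hwO'
    exact s59c_divp_inf_W G φ M q hqM hdeg hT hdegM hπ C.w C.hwV htM0 hwinvV
      (by rw [hredinv]; exact s37b_coord_inv (s37b_coord_t2 κ q))
      (by intro τ; rw [hredinv, map_inv₀, s18u_coeffMap_t2])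
      (s34dt_hmain_t2_inv M q hqM K₀ φ κ G hπ hT hdegM hq3 h2M C.w htM)
      C.wN C.hwN hα'
      (s34e_ch_alpha₂' G φ M q hq.out hqM C.w C.wN C.hwN)
      (s34e_ch_beta₂' G φ M q hq.out hqM htM0 C.wN C.hwN hclaim)
      hwNO'
      (fun 𝔫 _ h1 h2 => s33n_no_node_at_infty_t2 G φ M q hq.out hqM C.wN hwN hwNO' 𝔫 h1 h2)
      m v₀ hj f hf0 hfI hfI' hQ4₂
  · -- [DIV-e] on both components
    intro e f hf0 hfI hfI' hfZ hfZ' hnode hQ4₁ hQ4₂
    exact s59nt_div_p_t2 M q hqM hq3 h2M K₀ φ κ G hdeg hT hdegM hπ e C.wN hwN f hf0 hfI hfI'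
      hfZ hfZ' hnode hQ4₁ hQ4₂
  · -- the node count
    intro T
    exact s59c_node_count_t2 M q hqM hq3 h2M h2 h3 K₀ φ κ G hπ hϖ C.wN hwN T

/-- **the chart-specific inputs of the count data on the charts of `t₃`** (`q = 2`, `3 ∣ M`). -/
theorem s59c_chartIn_t3 (hq2 : q = 2) (h3M : 3 ∣ M) (h2 : nuTwo M = 0) (h3 : nuThree M = 0)
    (hϖ : ((G.ϖ : G.A) : K₀) = (q : K₀))
    (C : s59b_Chart G φ M q hqM hT hdegM)
    (hw : ((C.w : s34m_F K₀ M) : LaurentSeries K₀) = s18u_t3 K₀)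
    (hwN : ((C.wN : s34m_F K₀ (M * q)) : LaurentSeries K₀) = s18u_t3 K₀) :
    s59c_ChartIn hdeg hπ C := by
  haveI : NeZero q := ⟨hq.out.ne_zero⟩
  have hq3 : q ≠ 3 := by omega
  refine ⟨⟨hqM, Or.inr (Or.inr ⟨hq2, h3M⟩)⟩, ?_, ?_, ?_, ?_⟩
  · -- the crossings are regular
    obtain ⟨x, hx, hBF⟩ := s36g_base_full K₀ φ M q hq.out hqM (Or.inr (Or.inr ⟨hq2, h3M⟩)) κ G hπ
    have hXreg := s36b_leafCross M q hq.out hqM h2 h3 K₀ φ κ G hπ hϖ x hx hBF
    have hxt : (x : LaurentSeries K₀) = s18u_t3 K₀ := by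
      obtain ⟨-, -, -, -, -, hbr, -⟩ := id hBF
      rcases hbr with ⟨h5, -⟩ | ⟨h3', -⟩ | ⟨-, -, h1⟩
      · omega
      · omega
      · exact h1
    have hxw : x = C.w := Subtype.ext (hxt.trans hw.symm)
    rw [hxw, C.hwN] at hXreg
    exact hXreg
  · -- [DIV-e] over `w̄ = ∞`
    intro m f hf0 hfI hfI' hQ4₂ v₀ hj
    obtain ⟨tM, htM, ⟨hwV, hred⟩, hwinvV, hgen, hgeninv, hwt, hw0, hgenN, hwO, hwO', hfix, hα,
      hα'⟩ := s34m_base_t3 G φ M q hq.out hqM h3M hq3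
    have hCw : tM = C.w := Subtype.ext (htM.trans hw.symm)
    subst hCw
    haveI := hgen
    haveI := hgeninv
    haveI := C.gen
    haveI : FFGen K₀ C.wN⁻¹ := ff_gen_inv
    haveI : FFGen K₀ (s18g_jF (K := K₀) (M * q)) :=
      s18b_ffGen_jF (M * q) (fun _ b hb hn => s18g_exists_relation (M * q) φ hn b hb)
    rw [C.hwN] at hα' hwO'
    have htM0 : C.w ≠ 0 := by
      intro h0
      apply s18b_t3_ne_zero K₀
      rw [← htM, h0]; rfl
    have hred' : ((s18g_redF G M hFM hT hdegM ⟨C.w, C.hwV⟩ : ↥FbM) : LaurentSeries κ) =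
        s18u_t3 κ := hred
    have hinv : s18g_redF G M hFM hT hdegM ⟨C.w⁻¹, hwinvV⟩ =
        (s18g_redF G M hFM hT hdegM ⟨C.w, C.hwV⟩)⁻¹ :=
      s18f_redF_inv G M hT hdegM _ htM0 C.hwV _
    have hredinv : ((s18g_redF G M hFM hT hdegM ⟨C.w⁻¹, hwinvV⟩ : ↥FbM) : LaurentSeries κ) =
        (s18u_t3 κ)⁻¹ := by
      rw [hinv, IntermediateField.coe_inv, hred']
    have hclaim : ∀ P : Place K₀ (s34m_F K₀ (M * q)),
        (0 ≤ P.ord C.wN → 0 ≤ P.ord (heckeBetaBar K₀ M q C.w)) ∧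
        (P.ord C.wN ≤ 0 → P.ord (heckeBetaBar K₀ M q C.w) ≤ 0) := by
      intro P
      have := s34e_cusp_hclaim_t3 G φ M q hq.out hqM hq3 C.w htM P
      rwa [C.hwN] at this
    have hwNO' : C.wN⁻¹ ∈ s34x_infRing (s34m_VV G φ M q hq.out hqM) :=
      (s34x_mem_infRing _ _).mpr hwO'
    exact s59c_divp_inf_W G φ M q hqM hdeg hT hdegM hπ C.w C.hwV htM0 hwinvV
      (by rw [hredinv]; exact s37b_coord_inv (s37b_coord_t3 κ q))
      (by intro τ; rw [hredinv, map_inv₀, s18u_coeffMap_t3])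
      (s34dt_hmain_t3_inv M q hqM K₀ φ κ G hπ hT hdegM hq2 h3M C.w htM)
      C.wN C.hwN hα'
      (s34e_ch_alpha₂' G φ M q hq.out hqM C.w C.wN C.hwN)
      (s34e_ch_beta₂' G φ M q hq.out hqM htM0 C.wN C.hwN hclaim)
      hwNO'
      (fun 𝔫 _ h1 h2 => s33n_no_node_at_infty_t3 G φ M q hq.out hqM C.wN hwN hwNO' 𝔫 h1 h2)
      m v₀ hj f hf0 hfI hfI' hQ4₂
  · -- [DIV-e] on both components
    intro e f hf0 hfI hfI' hfZ hfZ' hnode hQ4₁ hQ4₂
    exact s59nt_div_p_t3 M q hqM hq2 h3M K₀ φ κ G hdeg hT hdegM hπ e C.wN hwN f hf0 hfI hfI'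
      hfZ hfZ' hnode hQ4₁ hQ4₂
  · -- the node count
    intro T
    exact s59c_node_count_t3 M q hqM hq2 h3M h2 h3 K₀ φ κ G hπ hϖ C.wN hwN T

end Fermat.Agent.Lib.S59
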