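/-
Programme (R2), node [CAR] / count data, helper8 (prefix `s59c_`): **THE INERTIA GROUP AND THE TOP-LEVEL REDUCTION;
`(τ - 1) x` REDUCES TO `0`.**

`P` a valuation ring of `ℚ̄` over `q`, `τ` in the inertia group of `P`:

* `s59c_resP`, `s59c_residue_resP`  : `τ` restricted to `P` induces the identity on the residue field;
* `s59c_smul_mem_OF`, `s59c_redV_inertia` : `τ` preserves the top-level Gauss ring `s37r_OF P N` of `F_{ℚ̄}(N)` and
                                       commutes with the reduction `s37r_redV` (acts TRIVIALLY on the reductions);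
* `s59c_exists_unit_gen`            : every `n`-torsion point of `J₀(N)` has a Kummer generator which is a Gauss unit;
* **`s59c_rel_tau_sub`**            : `s59m_Rel M q P hP n (τ • x - x) 0` for every `x ∈ J₀(M q)[n]`
                                       (the generator `τ H / H` reduces to `1`).
-/
import Fermat.Agent.Lib.S59.MRedN
import Fermat.Agent.Lib.Frey.OrdInertia

set_option autoImplicit false
set_option linter.unusedSectionVars false
set_option linter.style.haveILetI false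
set_option linter.unusedVariables false
set_option synthInstance.maxHeartbeats 400000

noncomputable section

namespace Fermat.Agent.Lib.S59

open ModularCurve HahnSeries AlgebraicCurve Fermat.Agent.Lib.FF Fermat.Agent.Lib.S18
  Fermat.Agent.Lib.S28 Fermat.Agent.Lib.S29 Fermat.Agent.Lib.S37 Fermat.Agent.Lib.S34
  Fermat.Agent.Lib.S33 Fermat.Agent.Lib.S44 Fermat.Agent.Lib.Frey

local notation "Kb" => AlgebraicClosure ℚ
local notation "Γℚ" => (AlgebraicClosure ℚ ≃ₐ[ℚ] AlgebraicClosure ℚ)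

section Inertia

variable (N : ℕ) [NeZero N] {q : ℕ} [hq : Fact q.Prime]
  (P : ValuationSubring Kb) (hP : P.LiesOverPrime q)

/-- the restriction of an element of the decomposition group to the valuation ring. -/
def s59c_resP {τ : Γℚ} (hτ : τ ∈ P.inertiaSubgroupIn ℚ) : ↥P →+* ↥P where
  toFun a := ⟨τ (a : Kb), ford_decomposition_mem P τ (ford_inertia_spec P τ hτ).1 a a.2⟩
  map_one' := Subtype.ext (map_one τ)
  map_mul' a b := Subtype.ext (map_mul τ _ _)
  map_zero' := Subtype.ext (map_zero τ)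
  map_add' a b := Subtype.ext (map_add τ _ _)

theorem s59c_residue_resP {τ : Γℚ} (hτ : τ ∈ P.inertiaSubgroupIn ℚ) (a : ↥P) :
    IsLocalRing.residue ↥P (s59c_resP P hτ a) = IsLocalRing.residue ↥P a := by
  have h := (ford_inertia_spec P τ hτ).2 (a : Kb) a.2
  rw [← sub_eq_zero, ← map_sub, IsLocalRing.residue_eq_zero_iff]
  exact (ValuationSubring.coe_mem_nonunits_iff (A := P)).mp h

theorem s59c_coeffMap_resP {τ : Γℚ} (hτ : τ ∈ P.inertiaSubgroupIn ℚ) (Y : LaurentSeries ↥P) :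
    coeffMap (τ : Kb →+* Kb) (coeffMap P.subtype Y) = coeffMap P.subtype (coeffMap (s59c_resP P hτ) Y) := by
  rw [coeffMap_coeffMap, coeffMap_coeffMap]
  exact coeffMap_congr (RingHom.ext fun _ => rfl) _

theorem s59c_coeffMap_residue_resP {τ : Γℚ} (hτ : τ ∈ P.inertiaSubgroupIn ℚ)
    (Y : LaurentSeries ↥P) :
    coeffMap (IsLocalRing.residue ↥P) (coeffMap (s59c_resP P hτ) Y) =
      coeffMap (IsLocalRing.residue ↥P) Y := by
  rw [coeffMap_coeffMap]
  exact coeffMap_congr (RingHom.ext fun a => s59c_residue_resP P hτ a) _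

/-- **the inertia group preserves the top-level Gauss ring.** -/
theorem s59c_smul_mem_OF {τ : Γℚ} (hτ : τ ∈ P.inertiaSubgroupIn ℚ) {H : ffi_F N}
    (hH : H ∈ s37r_OF P N hP) :
    arithmeticGalois (modularFunctionFieldFull N) τ • H ∈ s37r_OF P N hP := by
  rw [s37r_mem_OF_iff, s37r_mem_O_iff] at hH ⊢
  obtain ⟨P₁, Q₁, hQ₁, h⟩ := hH
  refine ⟨coeffMap (s59c_resP P hτ) P₁, coeffMap (s59c_resP P hτ) Q₁, ?_, ?_⟩
  · rw [s59c_coeffMap_residue_resP]
    exact hQ₁
  · rw [coe_arithmeticGalois_smul, ← s59c_coeffMap_resP, ← s59c_coeffMap_resP, ← h, map_mul]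

/-- **the inertia group acts trivially on the top-level reduction.** -/
theorem s59c_redV_inertia {τ : Γℚ} (hτ : τ ∈ P.inertiaSubgroupIn ℚ) {H : ffi_F N}
    (hH : H ∈ s37r_OF P N hP) :
    s37r_redV P N hP ⟨arithmeticGalois (modularFunctionFieldFull N) τ • H,
      s59c_smul_mem_OF N P hP hτ hH⟩ = s37r_redV P N hP ⟨H, hH⟩ := by
  obtain ⟨P₁, Q₁, hQ₁, h⟩ := (s37r_mem_O_iff P _).mp ((s37r_mem_OF_iff P N hP H).mp hH)
  have h' : coeffMap P.subtype (coeffMap (s59c_resP P hτ) Q₁) *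
      ((arithmeticGalois (modularFunctionFieldFull N) τ • H : ffi_F N) : LaurentSeries Kb) =
      coeffMap P.subtype (coeffMap (s59c_resP P hτ) P₁) := by
    rw [coe_arithmeticGalois_smul, ← s59c_coeffMap_resP, ← s59c_coeffMap_resP, ← h, map_mul]
  have hQ₁' : coeffMap (IsLocalRing.residue ↥P) (coeffMap (s59c_resP P hτ) Q₁) ≠ 0 := by
    rw [s59c_coeffMap_residue_resP]; exact hQ₁
  have e1 : s37r_redV P N hP ⟨arithmeticGalois (modularFunctionFieldFull N) τ • H,
      s59c_smul_mem_OF N P hP hτ hH⟩ =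
      coeffMap (IsLocalRing.residue ↥P) (coeffMap (s59c_resP P hτ) P₁) /
        coeffMap (IsLocalRing.residue ↥P) (coeffMap (s59c_resP P hτ) Q₁) :=
    s37r_red_eq P (IsLocalRing.residue ↥P) _ _ _ hQ₁' h'
  have e2 : s37r_redV P N hP ⟨H, hH⟩ =
      coeffMap (IsLocalRing.residue ↥P) P₁ / coeffMap (IsLocalRing.residue ↥P) Q₁ :=
    s37r_red_eq P (IsLocalRing.residue ↥P) _ P₁ Q₁ hQ₁ h
  rw [e1, e2, s59c_coeffMap_residue_resP, s59c_coeffMap_residue_resP]

end Inertia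

section RelTau

variable (M : ℕ) {q : ℕ} [NeZero M] [hq : Fact q.Prime] (hqM : ¬ q ∣ M)
  (P : ValuationSubring Kb) (hP : P.LiesOverPrime q) (n : ℕ)

/-- every `n`-torsion point has a Kummer generator which is a top-level Gauss unit. -/
theorem s59c_exists_unit_gen (N : ℕ) [NeZero N] (x : JZero N) (hx : n • x = 0) :
    ∃ H : ffi_F N, s33d_IsKumGen n x H ∧ H ∈ s37r_OF P N hP ∧ H⁻¹ ∈ s37r_OF P N hP := by
  obtain ⟨H₁, hH₁⟩ := s33d_exists_kumGen n x hx
  obtain ⟨d, u, hd, hu, hu', e⟩ := s33d_exists_gauss_unit P N hP H₁ hH₁.1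
  refine ⟨u, ?_, hu, hu'⟩
  have h1 := s33d_kumGen_mul hH₁ (inv_ne_zero hd) (one_ne_zero (α := ffi_F N))
  have e1 : algebraMap Kb (ffi_F N) d⁻¹ * (1 : ffi_F N) ^ n * H₁ = u := by
    have hd0 : algebraMap Kb (ffi_F N) d ≠ 0 := (_root_.map_ne_zero _).mpr hd
    rw [e, one_pow, mul_one, map_inv₀, ← mul_assoc, inv_mul_cancel₀ hd0, one_mul]
  rw [e1] at h1
  exact h1

/-- **`(τ - 1) x` reduces to `0`**: for `τ` in the inertia group and `x ∈ J₀(M q)[n]`, the point `τ x - x` is in relation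
with `0 ∈ J₀(M)` (its Kummer generator `τ H / H` reduces to `1`). -/
theorem s59c_rel_tau_sub {τ : Γℚ} (hτ : τ ∈ P.inertiaSubgroupIn ℚ) (x : JZero (M * q))
    (hx : n • x = 0) : s59m_Rel M q P hP n (τ • x - x) 0 := by
  haveI : NeZero q := ⟨hq.out.ne_zero⟩
  obtain ⟨H₀, hgen, hH₀, hH₀'⟩ := s59c_exists_unit_gen (q := q) P hP n (M * q) x hx
  set τH := arithmeticGalois (modularFunctionFieldFull (M * q)) τ • H₀ with hτH
  have hgenτ : s33d_IsKumGen n (τ • x) τH := by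
    rw [galois_smul_pic0_def]
    exact s33d_kumGen_smul _ hgen
  have hτHmem : τH ∈ s37r_OF P (M * q) hP := s59c_smul_mem_OF (M * q) P hP hτ hH₀
  have hτHinv : τH⁻¹ = arithmeticGalois (modularFunctionFieldFull (M * q)) τ • H₀⁻¹ := by
    rw [hτH]
    exact (smul_inv'' _ H₀).symm
  have hτHmem' : τH⁻¹ ∈ s37r_OF P (M * q) hP := by
    rw [hτHinv]
    exact s59c_smul_mem_OF (M * q) P hP hτ hH₀'
  have hgenH : s33d_IsKumGen n (τ • x - x) (τH * H₀⁻¹) := by
    rw [sub_eq_add_neg]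
    exact s33d_kumGen_prod hgenτ (s33d_kumGen_inv hgen)
  have hHmem : τH * H₀⁻¹ ∈ s37r_OF P (M * q) hP := mul_mem hτHmem hH₀'
  have hHmem' : (τH * H₀⁻¹)⁻¹ ∈ s37r_OF P (M * q) hP := by
    rw [mul_inv, inv_inv]
    exact mul_mem hτHmem' hH₀
  have hred : s37r_redV P (M * q) hP ⟨τH * H₀⁻¹, hHmem⟩ = 1 := by
    have e1 : (⟨τH * H₀⁻¹, hHmem⟩ : ↥(s37r_OF P (M * q) hP)) = ⟨τH, hτHmem⟩ * ⟨H₀⁻¹, hH₀'⟩ := rfl
    rw [e1, map_mul, s59c_redV_inertia (M * q) P hP hτ hH₀, ← map_mul]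
    have e2 : (⟨H₀, hH₀⟩ : ↥(s37r_OF P (M * q) hP)) * ⟨H₀⁻¹, hH₀'⟩ = 1 :=
      Subtype.ext (mul_inv_cancel₀ hgen.1)
    rw [e2, map_one]
  refine ⟨τH * H₀⁻¹, 1, hHmem, (s37r_OF P M hP).one_mem, hgenH, hHmem', s33d_kumGen_one n,
    by rw [inv_one]; exact (s37r_OF P M hP).one_mem, 1, 1, one_ne_zero, one_ne_zero,
    one_mem _, ?_⟩
  have e3 : (⟨1, (s37r_OF P M hP).one_mem⟩ : ↥(s37r_OF P M hP)) = 1 := rfl
  rw [hred, e3, map_one, map_one, one_mul, one_pow, mul_one]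

end RelTau

end Fermat.Agent.Lib.S59
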