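/-
Programme (R2), node [CAR] / count data, helper8 (prefix `s59c_`): **THE REDUCTION RELATION OVER A FINITE LEVEL, ONE
COMPONENT** (the two halves of helper9's `s59m_level_compN`, without eigen-hypotheses).

* `s59c_kumGen_inj`      : a Kummer generator determines its class;
* `s59c_smul_incl`, `s59c_fixed_of_genC` : a class with a Kummer generator over `L₀` is fixed by `Gal(ℚ̄ / L₀)`;
* `s59c_rel_exists_comp` : a Gauss-unit generator `h` over `L₀` of `x ∈ J₀(M q)[p^k]` whose reduction has divisor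
                           divisible by `p^k`  ⟹  `∃ z, s59m_Rel M q P hP (p^k) x z`;
* `s59c_tor_comp`        : `s59m_Rel x 0`  ⟹  `red_∞ h = c · a₀ ^ (p^k)` over the residue field of `L₀`
                           (`s59m_Rel.zero_right` + the descent `s59m_descent`).
-/
import Fermat.Agent.Lib.S59.CNodeTop
import Fermat.Agent.Lib.S59.MRedNAsm

set_option autoImplicit false
set_option linter.unusedSectionVars false
set_option linter.style.haveILetI false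
set_option linter.unusedVariables false
set_option synthInstance.maxHeartbeats 400000

noncomputable section

namespace Fermat.Agent.Lib.S59

open ModularCurve HahnSeries AlgebraicCurve Fermat.Agent.Lib.FF Fermat.Agent.Lib.S18
  Fermat.Agent.Lib.S28 Fermat.Agent.Lib.S29 Fermat.Agent.Lib.S37 Fermat.Agent.Lib.S34
  Fermat.Agent.Lib.S33 Fermat.Agent.Lib.S44

local notation "Kb" => AlgebraicClosure ℚ
local notation "Γℚ" => (AlgebraicClosure ℚ ≃ₐ[ℚ] AlgebraicClosure ℚ)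

section Abs

variable {K F : Type*} [Field K] [Field F] [Algebra K F]

/-- a Kummer generator determines its class (`m ≠ 0`). -/
theorem s59c_kumGen_inj {m : ℕ} (hm : m ≠ 0) {z z' : Pic0 K F} {f : F}
    (h : s33d_IsKumGen m z f) (h' : s33d_IsKumGen m z' f) : z = z' := by
  obtain ⟨-, D, rfl, hD⟩ := h
  obtain ⟨-, D', rfl, hD'⟩ := h'
  have : D = D' := by
    apply Subtype.ext
    ext v
    have h1 := hD v
    rw [hD' v] at h1
    exact (mul_left_cancel₀ (Nat.cast_ne_zero.mpr hm) h1).symm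
  rw [this]

end Abs

section Rat

variable (N : ℕ) [NeZero N] (m : ℕ) (L₀ : IntermediateField ℚ Kb)

/-- a function over `L₀` is fixed by the automorphisms fixing `L₀`. -/
theorem s59c_smul_incl (σ : Γℚ) (hσ : ∀ a ∈ L₀, σ a = a) (h : s34m_F ↥L₀ N) :
    arithmeticGalois (modularFunctionFieldFull N) σ • s18q_incl N L₀ h = s18q_incl N L₀ h := by
  apply Subtype.ext
  rw [coe_arithmeticGalois_smul, s18q_incl_coe, coeffMap_coeffMap]
  have e : ((σ : Kb →+* Kb).comp (algebraMap ↥L₀ Kb)) = algebraMap ↥L₀ Kb :=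
    RingHom.ext fun a => hσ (a : Kb) a.2
  rw [e]

/-- **a class with a Kummer generator over `L₀` is `L₀`-rational.** -/
theorem s59c_fixed_of_genC (hm : m ≠ 0) {x : JZero N} {h : s34m_F ↥L₀ N}
    (hg : s33d_IsKumGen m x (s18q_incl N L₀ h)) (σ : Γℚ) (hσ : ∀ a ∈ L₀, σ a = a) : σ • x = x := by
  have h1 := s33d_kumGen_smul (arithmeticGalois (modularFunctionFieldFull N) σ) hg
  rw [s59c_smul_incl N L₀ σ hσ h, ← galois_smul_pic0_def] at h1
  exact s59c_kumGen_inj hm h1 hg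

end Rat

/-! ### One component over a finite level -/

section Comp

variable (M q : ℕ) [NeZero M] [hq : Fact q.Prime] (hqM : ¬ q ∣ M) (h5 : 5 ≤ q)
  (p : ℕ) [hp : Fact p.Prime] (hpq : p ≠ q) (k : ℕ)
  (P : ValuationSubring Kb) (hP : P.LiesOverPrime q)
  (L₀ : IntermediateField ℚ Kb) [FiniteDimensional ℚ ↥L₀]
  [IsDiscreteValuationRing ↥(s18q_A0 P L₀)] (ϖ : ↥(s18q_A0 P L₀)) (hϖ : Irreducible ϖ)

set_option maxHeartbeats 1600000 in
include hqM h5 hpq hP in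
/-- **existence of the reduction, one component**: a Gauss-unit Kummer generator `h` over `L₀` of `x` whose reduction has
divisor divisible by `p ^ k` over the residue field of `L₀`. -/
theorem s59c_rel_exists_comp (x : JZero (M * q))
    (h : s34m_F ↥L₀ (M * q)) (hgen : s33d_IsKumGen (p ^ k) x (s18q_incl (M * q) L₀ h))
    (hI : h ∈ s34m_Vinf (s37r_G P L₀ ϖ hϖ) (M * q))
    (hI' : h⁻¹ ∈ s34m_Vinf (s37r_G P L₀ ϖ hϖ) (M * q))
    (ū₀ : ↥(modularFunctionFieldFullC (IsLocalRing.ResidueField ↥(s18q_A0 P L₀)) M))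
    (hū₀ : (ū₀ : LaurentSeries (IsLocalRing.ResidueField ↥(s18q_A0 P L₀))) =
      s34m_redInf (s37r_G P L₀ ϖ hϖ) (M * q) ⟨h, hI⟩)
    (hdiv : ∀ v₀ : Place (IsLocalRing.ResidueField ↥(s18q_A0 P L₀))
      ↥(modularFunctionFieldFullC (IsLocalRing.ResidueField ↥(s18q_A0 P L₀)) M),
      ((p ^ k : ℕ) : ℤ) ∣ v₀.ord ū₀) :
    ∃ z : JZero M, s59m_Rel M q P hP (p ^ k) x z := by
  classical
  haveI : NeZero (p ^ k) := ⟨pow_ne_zero k hp.out.ne_zero⟩
  letI alg : Algebra (IsLocalRing.ResidueField ↥(s18q_A0 P L₀)) (IsLocalRing.ResidueField ↥P) :=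
    (s37r_resMap P L₀).toAlgebra
  haveI : Algebra.IsAlgebraic (IsLocalRing.ResidueField ↥(s18q_A0 P L₀))
      (IsLocalRing.ResidueField ↥P) := s33d_resMap_isAlgebraic P hP L₀
  haveI : IsGalois (IsLocalRing.ResidueField ↥(s18q_A0 P L₀)) (IsLocalRing.ResidueField ↥P) :=
    s59m_isGalois_res P hP L₀
  have hh0 : h ≠ 0 := (s59m_kum_of_gen_n (M * q) (p ^ k) L₀ hgen).1
  have hred0 : s34m_redInf (s37r_G P L₀ ϖ hϖ) (M * q) ⟨h, hI⟩ ≠ 0 := by
    intro h0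
    have h1 : (⟨h, hI⟩ : s34m_Vinf (s37r_G P L₀ ϖ hϖ) (M * q)) * ⟨h⁻¹, hI'⟩ = 1 :=
      Subtype.ext (mul_inv_cancel₀ hh0)
    have := congrArg (s34m_redInf (s37r_G P L₀ ϖ hϖ) (M * q)) h1
    rw [map_mul, h0, zero_mul, map_one] at this
    exact zero_ne_one this
  have hū₀s : (ū₀ : LaurentSeries (IsLocalRing.ResidueField ↥(s18q_A0 P L₀))) ≠ 0 := by
    rw [hū₀]; exact hred0
  have hū₀0 : ū₀ ≠ 0 := fun h0 => hū₀s (by rw [h0]; rfl)
  have hH : s18q_incl (M * q) L₀ h ∈ s37r_OF P (M * q) hP :=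
    (s37r_incl_mem_OF_iff P (M * q) hP L₀ ϖ hϖ h).mpr hI
  have hH' : (s18q_incl (M * q) L₀ h)⁻¹ ∈ s37r_OF P (M * q) hP := by
    rw [← map_inv₀]
    exact (s37r_incl_mem_OF_iff P (M * q) hP L₀ ϖ hϖ h⁻¹).mpr hI'
  have e : s37r_redV P (M * q) hP ⟨s18q_incl (M * q) L₀ h, hH⟩ =
      coeffMap (s37r_resMap P L₀) (s34m_redInf (s37r_G P L₀ ϖ hϖ) (M * q) ⟨h, hI⟩) :=
    s37r_redV_incl P (M * q) hP L₀ ϖ hϖ h hI hH
  have hup : ((s59m_up (k := IsLocalRing.ResidueField ↥P) M ū₀ :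
      ↥(modularFunctionFieldFullC (IsLocalRing.ResidueField ↥P) M)) :
        LaurentSeries (IsLocalRing.ResidueField ↥P)) =
      s37r_redV P (M * q) hP ⟨s18q_incl (M * q) L₀ h, hH⟩ := by
    rw [s59m_up_coe, hū₀, e]
    rfl
  have hdiv' : ∀ v : Place (IsLocalRing.ResidueField ↥P)
      ↥(modularFunctionFieldFullC (IsLocalRing.ResidueField ↥P) M),
      ((p ^ k : ℕ) : ℤ) ∣ v.ord (s59m_up (k := IsLocalRing.ResidueField ↥P) M ū₀) :=
    fun v => s59m_dvd_ord_up M ((p ^ k : ℕ) : ℤ) ū₀ hū₀0 hdiv v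
  exact s59m_Rel.exists hqM h5 (pow_ne_zero k hp.out.ne_zero) (s59m_isUnit_pk q p hpq k P hP)
    (s18q_incl (M * q) L₀ h) hgen hH hH'
    (s59m_up (k := IsLocalRing.ResidueField ↥P) M ū₀) hup hdiv'

set_option maxHeartbeats 1600000 in
include hqM hpq hP in
/-- **the torus datum, one component**: if `x` is in relation with `0`, the reduction of a Gauss-unit Kummer generator
over `L₀` is a constant times a `p ^ k`-th power OVER THE RESIDUE FIELD OF `L₀`. -/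
theorem s59c_tor_comp (x : JZero (M * q)) (hrel : s59m_Rel M q P hP (p ^ k) x 0)
    (h : s34m_F ↥L₀ (M * q)) (hgen : s33d_IsKumGen (p ^ k) x (s18q_incl (M * q) L₀ h))
    (hI : h ∈ s34m_Vinf (s37r_G P L₀ ϖ hϖ) (M * q))
    (hI' : h⁻¹ ∈ s34m_Vinf (s37r_G P L₀ ϖ hϖ) (M * q))
    (ū₀ : ↥(modularFunctionFieldFullC (IsLocalRing.ResidueField ↥(s18q_A0 P L₀)) M))
    (hū₀ : (ū₀ : LaurentSeries (IsLocalRing.ResidueField ↥(s18q_A0 P L₀))) =
      s34m_redInf (s37r_G P L₀ ϖ hϖ) (M * q) ⟨h, hI⟩) :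
    ∃ (c : IsLocalRing.ResidueField ↥(s18q_A0 P L₀))
      (a₀ : LaurentSeries (IsLocalRing.ResidueField ↥(s18q_A0 P L₀))), c ≠ 0 ∧
      a₀ ∈ modularFunctionFieldFullC (IsLocalRing.ResidueField ↥(s18q_A0 P L₀)) M ∧
      s34m_redInf (s37r_G P L₀ ϖ hϖ) (M * q) ⟨h, hI⟩ = HahnSeries.C c * a₀ ^ (p ^ k) := by
  classical
  haveI : NeZero (p ^ k) := ⟨pow_ne_zero k hp.out.ne_zero⟩
  letI alg : Algebra (IsLocalRing.ResidueField ↥(s18q_A0 P L₀)) (IsLocalRing.ResidueField ↥P) :=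
    (s37r_resMap P L₀).toAlgebra
  haveI : Algebra.IsAlgebraic (IsLocalRing.ResidueField ↥(s18q_A0 P L₀))
      (IsLocalRing.ResidueField ↥P) := s33d_resMap_isAlgebraic P hP L₀
  haveI : IsGalois (IsLocalRing.ResidueField ↥(s18q_A0 P L₀)) (IsLocalRing.ResidueField ↥P) :=
    s59m_isGalois_res P hP L₀
  have hh0 : h ≠ 0 := (s59m_kum_of_gen_n (M * q) (p ^ k) L₀ hgen).1
  have hred0 : s34m_redInf (s37r_G P L₀ ϖ hϖ) (M * q) ⟨h, hI⟩ ≠ 0 := by
    intro h0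
    have h1 : (⟨h, hI⟩ : s34m_Vinf (s37r_G P L₀ ϖ hϖ) (M * q)) * ⟨h⁻¹, hI'⟩ = 1 :=
      Subtype.ext (mul_inv_cancel₀ hh0)
    have := congrArg (s34m_redInf (s37r_G P L₀ ϖ hϖ) (M * q)) h1
    rw [map_mul, h0, zero_mul, map_one] at this
    exact zero_ne_one this
  have hū₀s : (ū₀ : LaurentSeries (IsLocalRing.ResidueField ↥(s18q_A0 P L₀))) ≠ 0 := by
    rw [hū₀]; exact hred0
  have hH : s18q_incl (M * q) L₀ h ∈ s37r_OF P (M * q) hP :=
    (s37r_incl_mem_OF_iff P (M * q) hP L₀ ϖ hϖ h).mpr hI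
  have hH' : (s18q_incl (M * q) L₀ h)⁻¹ ∈ s37r_OF P (M * q) hP := by
    rw [← map_inv₀]
    exact (s37r_incl_mem_OF_iff P (M * q) hP L₀ ϖ hϖ h⁻¹).mpr hI'
  have e : s37r_redV P (M * q) hP ⟨s18q_incl (M * q) L₀ h, hH⟩ =
      coeffMap (s37r_resMap P L₀) (s34m_redInf (s37r_G P L₀ ϖ hϖ) (M * q) ⟨h, hI⟩) :=
    s37r_redV_incl P (M * q) hP L₀ ϖ hϖ h hI hH
  obtain ⟨c, w, hc, hw, hwm, hcw⟩ := hrel.zero_right hqM (pow_ne_zero k hp.out.ne_zero)
    (s18q_incl (M * q) L₀ h) hgen hH hH'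
  haveI hchar : CharP (IsLocalRing.ResidueField ↥P) q := s18n_charP_residueField P hq.out hP
  have hpk : ((p : ℕ) : IsLocalRing.ResidueField ↥P) ≠ 0 := by
    intro h0
    have := (CharP.cast_eq_zero_iff (IsLocalRing.ResidueField ↥P) q p).mp h0
    exact hpq ((Nat.prime_dvd_prime_iff_eq hq.out hp.out).mp this).symm
  haveI : IsAlgClosed (IsLocalRing.ResidueField ↥P) := s18n_isAlgClosed_residueField P
  haveI : NeZero (((p ^ k : ℕ) : ℕ) : IsLocalRing.ResidueField ↥P) :=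
    ⟨by rw [Nat.cast_pow]; exact pow_ne_zero k hpk⟩
  obtain ⟨ζb, hζb⟩ := HasEnoughRootsOfUnity.exists_primitiveRoot
    (IsLocalRing.ResidueField ↥P) (p ^ k)
  have hx : coeffMap (algebraMap (IsLocalRing.ResidueField ↥(s18q_A0 P L₀))
      (IsLocalRing.ResidueField ↥P))
      (ū₀ : LaurentSeries (IsLocalRing.ResidueField ↥(s18q_A0 P L₀))) =
      HahnSeries.C c * w ^ (p ^ k) := by
    rw [hū₀, ← hcw, e]
    rfl
  obtain ⟨a₀, v₀, hv₀, ha₀, hv₀0, hx₀⟩ := s59m_descent M (p ^ k) ζb hζb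
    (ū₀ : LaurentSeries (IsLocalRing.ResidueField ↥(s18q_A0 P L₀))) ū₀.2 hū₀s c w hwm hx
  exact ⟨a₀, v₀, ha₀, hv₀, by rw [← hū₀]; exact hx₀⟩

end Comp

end Fermat.Agent.Lib.S59
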