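/-
Programme (R) / node [IA′], C7 = (G2), the descent `Γ_H → Γ₀`, family N (helper7, prefix `s59n_`):
**(G2): THE ABSTRACT REDUCTION FROM `J_H` TO `J₀`** (Mathlib + main's `s36k_chain`; pure algebra, every geometric input is a
named hypothesis).

`π : J₀ → J` additive, equivariant for a group `G` (`= G_ℚ`); `I ≤ G` (inertia), `φ ∈ G` normalising `I` (a Frobenius);
`γ ∈ End J` (the generator of the diamond group), `T₀ ∈ End J₀`, `T ∈ End J` (ONE Hecke operator `T_ℓ₀`).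

* `s59n_exists_preimage` (Lemma L)   : `Q = Y B + c`, `c` prime to `p` ⇒ on `p`-torsion killed by `Q ^ N`, `Y` is onto;
* `s59n_surj_of_genEig`              : `T₀ - ℓ` is onto on the generalised `a`-eigenspace of `T₀`, `ℓ ≢ a mod p`;
* `s59n_exists_fixed_of_unip`        : a common fixed vector for `I` acting by `(τ - 1)² = 0` on a finite group of odd exponent;
* **`s59n_G2_up_abs`** : `Z ≤ J[p]` stable under `γ` (unipotent), `I`, `φ`, inside the generalised `a`-eigenspace of `T`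
  (`a ≢ ℓ`), with `((φ - α)(φ - β)) ^ N = 0` on `Z`, `(q - α)(q - β)` prime to `p`.  Inputs:
  (D) every `γ`-invariant `z ∈ J[p]` has `φ z - q z ∈ π (J₀[p])`                       [`s59n_descent_class`];
  (KT) `T₀ = ℓ` on `ker π ∩ J₀[p]`  (the Shimura subgroup is Eisenstein)               [`s59n_ker_pull_galois` + Eichler–Shimura];
  (πT) `π T₀ = T π` on classes with `γ`-invariant image                                 [Eichler–Shimura on both sides];
  (Ifix) `I`-stable non-zero subgroups of `J₀[p]` have non-zero `I`-fixed points      [S34 + `s59n_exists_fixed_of_unip`];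
  (G2↓) the theorem downstairs for subgroups `W ≤ J₀[p]`, `I`-fixed, `φ`-stable, in the generalised eigenspace, with `π W ⊆ Z`
        [`s59n_G2_down_tw` + residue descent `s59n_res_descent`].
  Conclusion: `Z = 0`.
-/
import Mathlib
import Fermat.Agent.Lib.S36.KChain

set_option autoImplicit false
set_option linter.style.haveILetI false
set_option linter.unusedSectionVars false

namespace Fermat.Agent.Lib.S59

open Fermat.Agent.Lib.S36


section Abs

variable {J : Type*} [AddCommGroup J]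

/-- integers as endomorphisms. -/
theorem s59n_intCast_end_apply (c : ℤ) (z : J) : ((c : AddMonoid.End J)) z = c • z := by
  exact AddMonoid.End.intCast_apply c z

theorem s59n_end_mul_apply (f g : AddMonoid.End J) (z : J) : (f * g) z = f (g z) := rfl

theorem s59n_end_add_apply (f g : AddMonoid.End J) (z : J) : (f + g) z = f z + g z := rfl

theorem s59n_end_sub_apply (f g : AddMonoid.End J) (z : J) : (f - g) z = f z - g z := rfl

theorem s59n_end_one_apply (z : J) : (1 : AddMonoid.End J) z = z := rfl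

/-- **Lemma L**: `Q = Y * B + c` with `c` prime to `p`; on a `p`-torsion subgroup stable under `Y` and `B`, every `z` killed by a
power of `Q` is `Y z'` with `z'` killed by the same power. -/
theorem s59n_exists_preimage (Y B Q : AddMonoid.End J) (c : ℤ) (hQ : Q = Y * B + (c : AddMonoid.End J))
    (hBQ : Commute B Q) (p : ℕ) (hc : IsCoprime c (p : ℤ))
    (S : AddSubgroup J) (hSp : ∀ s ∈ S, p • s = 0) (hSY : ∀ s ∈ S, Y s ∈ S) (hSB : ∀ s ∈ S, B s ∈ S) :
    ∀ (N : ℕ) (z : J), z ∈ S → (Q ^ N) z = 0 → ∃ z' ∈ S, Y z' = z ∧ (Q ^ N) z' = 0 := by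
  obtain ⟨u, v, huv⟩ := hc
  have hSQ : ∀ s ∈ S, Q s ∈ S := by
    intro s hs
    rw [hQ, s59n_end_add_apply, s59n_end_mul_apply, s59n_intCast_end_apply]
    exact S.add_mem (hSY _ (hSB s hs)) (S.zsmul_mem hs c)
  intro N
  induction N with
  | zero =>
    intro z hz h0
    rw [pow_zero, s59n_end_one_apply] at h0
    exact ⟨0, S.zero_mem, by rw [map_zero, h0], by rw [map_zero]⟩
  | succ N ih =>
    intro z hz h0
    rw [pow_succ, s59n_end_mul_apply] at h0
    obtain ⟨y, hyS, hYy, hQy⟩ := ih (Q z) (hSQ z hz) h0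
    have hcz : c • z = Y (y - B z) := by
      rw [map_sub, hYy, hQ, s59n_end_add_apply, s59n_end_mul_apply,
        s59n_intCast_end_apply]
      abel
    have hpz : (p : ℤ) • z = 0 := by rw [natCast_zsmul]; exact hSp z hz
    refine ⟨u • (y - B z), S.zsmul_mem (S.sub_mem hyS (hSB z hz)) u, ?_, ?_⟩
    · rw [map_zsmul, ← hcz]
      calc u • c • z = (u * c + v * (p : ℤ)) • z := by
            rw [add_smul, mul_smul, mul_smul, hpz, smul_zero, add_zero]
        _ = z := by rw [huv, one_smul]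
    · rw [map_zsmul, map_sub]
      have h1 : (Q ^ (N + 1)) y = 0 := by
        rw [pow_succ', s59n_end_mul_apply, hQy, map_zero]
      have h2 : (Q ^ (N + 1)) (B z) = 0 := by
        have hcomm : Commute B (Q ^ (N + 1)) := hBQ.pow_right _
        have : (Q ^ (N + 1)) (B z) = B ((Q ^ (N + 1)) z) := by
          rw [← s59n_end_mul_apply, ← s59n_end_mul_apply, hcomm.eq]
        rw [this]
        have h3 : (Q ^ (N + 1)) z = 0 := by
          rw [pow_succ, s59n_end_mul_apply]; exact h0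
        rw [h3, map_zero]
      rw [h1, h2, sub_zero, smul_zero]

/-- the quadratic `(X - α)(X - β)` as `(X - q)(X + q - α - β) + (q - α)(q - β)`. -/
theorem s59n_quad_decomp {R : Type*} [Ring R] (Φ : R) (q α β : ℤ) :
    Φ * Φ - ((α + β : ℤ) : R) * Φ + ((α * β : ℤ) : R) =
      (Φ - (q : R)) * (Φ + ((q - α - β : ℤ) : R)) + (((q - α) * (q - β) : ℤ) : R) := by
  have h1 : ∀ n : ℤ, Φ * (n : R) = (n : R) * Φ := fun n => (Int.cast_commute n Φ).symm.eq
  have h2 : (q : R) * (α : R) = (α : R) * (q : R) := by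
    rw [← Int.cast_mul, ← Int.cast_mul, mul_comm]
  push_cast
  simp only [sub_mul, mul_add, mul_sub, add_mul, h1, h2]
  noncomm_ring

/-- on a vector with `A v = ℓ v` the operator `(A - a) ^ N` is `(ℓ - a) ^ N`. -/
theorem s59n_pow_sub_apply_eigen (A : AddMonoid.End J) (a ℓ : ℤ) (k : J) (hk : A k = ℓ • k) (N : ℕ) :
    ((A - (a : AddMonoid.End J)) ^ N) k = ((ℓ - a) ^ N) • k := by
  induction N with
  | zero => rw [pow_zero, pow_zero, one_smul]; rfl
  | succ N ih =>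
    rw [pow_succ', s59n_end_mul_apply, ih, map_zsmul, s59n_end_sub_apply, hk,
      s59n_intCast_end_apply, ← sub_smul, ← mul_smul, pow_succ]

/-- `T₀ - ℓ` is onto on the generalised `a`-eigenspace of `T₀` (inside a `p`-torsion `T₀`-stable subgroup), `ℓ - a` prime to `p`. -/
theorem s59n_surj_of_genEig (T₀ : AddMonoid.End J) (a ℓ : ℤ) (p : ℕ) (ha : IsCoprime (ℓ - a) (p : ℤ))
    (S : AddSubgroup J) (hSp : ∀ s ∈ S, p • s = 0) (hST : ∀ s ∈ S, T₀ s ∈ S)
    (N : ℕ) (z : J) (hz : z ∈ S) (h : ((T₀ - (a : AddMonoid.End J)) ^ N) z = 0) :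
    ∃ z' ∈ S, T₀ z' - ℓ • z' = z ∧ ((T₀ - (a : AddMonoid.End J)) ^ N) z' = 0 := by
  have hQ : T₀ - (a : AddMonoid.End J) =
      (T₀ - (ℓ : AddMonoid.End J)) * 1 + ((ℓ - a : ℤ) : AddMonoid.End J) := by
    push_cast
    rw [mul_one]
    abel
  obtain ⟨z', hz', h1, h2⟩ := s59n_exists_preimage (T₀ - (ℓ : AddMonoid.End J)) 1
    (T₀ - (a : AddMonoid.End J)) (ℓ - a) hQ (Commute.one_left _) p ha S hSp
    (fun s hs => by
      rw [s59n_end_sub_apply, s59n_intCast_end_apply]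
      exact S.sub_mem (hST s hs) (S.zsmul_mem hs _))
    (fun s hs => hs) N z hz h
  refine ⟨z', hz', ?_, h2⟩
  rw [s59n_end_sub_apply, s59n_intCast_end_apply] at h1
  exact h1

end Abs

section Asm

variable {G : Type*} [Group G] {J₀ J : Type*} [AddCommGroup J₀] [AddCommGroup J]
  [DistribMulAction G J₀] [DistribMulAction G J]

/-- the action of a group element as an endomorphism. -/
abbrev s59n_sm (A : Type*) [AddCommGroup A] [DistribMulAction G A] (g : G) : AddMonoid.End A :=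
  DistribMulAction.toAddMonoidEnd G A g

/-- the quadratic operator `(g - α)(g - β)`. -/
def s59n_quadOp (A : Type*) [AddCommGroup A] [DistribMulAction G A] (g : G) (α β : ℤ) :
    AddMonoid.End A :=
  s59n_sm A g * s59n_sm A g - ((α + β : ℤ) : AddMonoid.End A) * s59n_sm A g +
    ((α * β : ℤ) : AddMonoid.End A)

/-- **(G2), THE ABSTRACT REDUCTION `Γ_H → Γ₀`.** -/
theorem s59n_G2_up_abs (π : J₀ →+ J) (hπG : ∀ (g : G) (w : J₀), π (g • w) = g • π w)
    (I : Subgroup G) (φ : G) (hφI : ∀ τ ∈ I, φ⁻¹ * τ * φ ∈ I)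
    (γ : AddMonoid.End J) (hγG : ∀ (g : G) (z : J), γ (g • z) = g • γ z)
    (T₀ : AddMonoid.End J₀) (T : AddMonoid.End J)
    (hT₀G : ∀ (g : G) (w : J₀), T₀ (g • w) = g • T₀ w) (hγT : ∀ z : J, γ (T z) = T (γ z))
    (p q : ℕ) (a ℓ α β : ℤ) (ha : IsCoprime (ℓ - a) (p : ℤ))
    (hαβ : IsCoprime (((q : ℤ) - α) * ((q : ℤ) - β)) (p : ℤ))
    (Z : AddSubgroup J) (hZp : ∀ z ∈ Z, p • z = 0) (hZγ : ∀ z ∈ Z, γ z ∈ Z)
    (hγnil : ∀ z ∈ Z, ∃ k : ℕ, ((γ - 1) ^ k) z = 0)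
    (hZI : ∀ z ∈ Z, ∀ τ ∈ I, τ • z ∈ Z) (hZφ : ∀ z ∈ Z, φ • z ∈ Z)
    (hZT : ∀ z ∈ Z, ∃ N : ℕ, ((T - (a : AddMonoid.End J)) ^ N) z = 0)
    (hZnil : ∀ z ∈ Z, ∃ N : ℕ, ((s59n_quadOp J φ α β) ^ N) z = 0)
    (hD : ∀ z : J, p • z = 0 → γ z = z → ∃ w : J₀, p • w = 0 ∧ π w = φ • z - q • z)
    (hKT : ∀ w : J₀, p • w = 0 → π w = 0 → T₀ w = ℓ • w)
    (hπT : ∀ w : J₀, p • w = 0 → γ (π w) = π w → π (T₀ w) = T (π w))
    (hIfix : ∀ W' : AddSubgroup J₀, (∀ w ∈ W', p • w = 0) → (∀ w ∈ W', ∀ τ ∈ I, τ • w ∈ W') →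
      (∃ w ∈ W', w ≠ 0) → ∃ w ∈ W', w ≠ 0 ∧ ∀ τ ∈ I, τ • w = w)
    (hG2 : ∀ W : AddSubgroup J₀, (∀ w ∈ W, p • w = 0) → (∀ w ∈ W, ∀ τ ∈ I, τ • w = w) →
      (∀ w ∈ W, ∃ N : ℕ, ((T₀ - (a : AddMonoid.End J₀)) ^ N) w = 0) → (∀ w ∈ W, φ • w ∈ W) →
      (∀ w ∈ W, π w ∈ Z) → (∀ w ∈ W, ∃ N : ℕ, ((s59n_quadOp J₀ φ α β) ^ N) w = 0) →
      ∀ w ∈ W, w = 0) :
    ∀ z ∈ Z, z = 0 := by
  classical
  -- the `γ`-invariants
  let Zγ : AddSubgroup J :=
    { carrier := {z | z ∈ Z ∧ γ z = z}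
      zero_mem' := ⟨Z.zero_mem, map_zero γ⟩
      add_mem' := fun {x y} hx hy => ⟨Z.add_mem hx.1 hy.1, by rw [map_add, hx.2, hy.2]⟩
      neg_mem' := fun {x} hx => ⟨Z.neg_mem hx.1, by rw [map_neg, hx.2]⟩ }
  have hZγmem : ∀ z, z ∈ Zγ ↔ z ∈ Z ∧ γ z = z := fun z => Iff.rfl
  have hZγG : ∀ g : G, (∀ z ∈ Z, g • z ∈ Z) → ∀ z ∈ Zγ, g • z ∈ Zγ := by
    intro g hg z hz
    exact ⟨hg z hz.1, by rw [hγG, hz.2]⟩
  have hZγp : ∀ z ∈ Zγ, p • z = 0 := fun z hz => hZp z hz.1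
  -- `φ - q` is onto on the `γ`-invariants
  have hsurjφ : ∀ z ∈ Zγ, ∃ z' ∈ Zγ, φ • z' - (q : ℤ) • z' = z := by
    intro z hz
    obtain ⟨N, hN⟩ := hZnil z hz.1
    set Φ : AddMonoid.End J := s59n_sm J φ with hΦ
    have hQ : s59n_quadOp J φ α β = (Φ - ((q : ℤ) : AddMonoid.End J)) *
        (Φ + (((q : ℤ) - α - β : ℤ) : AddMonoid.End J)) +
        ((((q : ℤ) - α) * ((q : ℤ) - β) : ℤ) : AddMonoid.End J) :=
      s59n_quad_decomp Φ (q : ℤ) α β
    have hcommΦ : Commute Φ (s59n_quadOp J φ α β) := by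
      unfold s59n_quadOp
      refine ((Commute.refl Φ).mul_right (Commute.refl Φ)).sub_right
        ((Int.cast_commute _ _).symm.mul_right (Commute.refl Φ)) |>.add_right
        (Int.cast_commute _ _).symm
    have hBQ : Commute (Φ + (((q : ℤ) - α - β : ℤ) : AddMonoid.End J)) (s59n_quadOp J φ α β) :=
      hcommΦ.add_left (Int.cast_commute _ _)
    have hΦZ : ∀ s ∈ Zγ, Φ s ∈ Zγ := fun s hs => hZγG φ hZφ s hs
    obtain ⟨z', hz', hYz', -⟩ := s59n_exists_preimage (Φ - ((q : ℤ) : AddMonoid.End J))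
      (Φ + (((q : ℤ) - α - β : ℤ) : AddMonoid.End J)) (s59n_quadOp J φ α β) _ hQ hBQ p hαβ Zγ hZγp
      (fun s hs => by
        rw [s59n_end_sub_apply, s59n_intCast_end_apply]
        exact Zγ.sub_mem (hΦZ s hs) (Zγ.zsmul_mem hs _))
      (fun s hs => by
        rw [s59n_end_add_apply, s59n_intCast_end_apply]
        exact Zγ.add_mem (hΦZ s hs) (Zγ.zsmul_mem hs _)) N z hz hN
    refine ⟨z', hz', ?_⟩
    rw [s59n_end_sub_apply, s59n_intCast_end_apply] at hYz'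
    exact hYz'
  -- transfer of powers of `T - a` along `π`
  have hπpow : ∀ (N : ℕ) (w : J₀), p • w = 0 → γ (π w) = π w →
      π (((T₀ - (a : AddMonoid.End J₀)) ^ N) w) = ((T - (a : AddMonoid.End J)) ^ N) (π w) ∧
        p • (((T₀ - (a : AddMonoid.End J₀)) ^ N) w) = 0 := by
    intro N
    induction N with
    | zero => intro w hw _; exact ⟨rfl, hw⟩
    | succ N ih =>
      intro w hw hγw
      have hw1 : p • ((T₀ - (a : AddMonoid.End J₀)) w) = 0 := by
        rw [← map_nsmul, hw, map_zero]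
      have hπ1 : π ((T₀ - (a : AddMonoid.End J₀)) w) = (T - (a : AddMonoid.End J)) (π w) := by
        rw [s59n_end_sub_apply, s59n_end_sub_apply, s59n_intCast_end_apply, s59n_intCast_end_apply,
          map_sub, map_zsmul, hπT w hw hγw]
      have hγ1 : γ (π ((T₀ - (a : AddMonoid.End J₀)) w)) = π ((T₀ - (a : AddMonoid.End J₀)) w) := by
        rw [hπ1, s59n_end_sub_apply, s59n_intCast_end_apply, map_sub, map_zsmul, hγT, hγw]
      obtain ⟨h1, h2⟩ := ih _ hw1 hγ1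
      rw [pow_succ, s59n_end_mul_apply, pow_succ, s59n_end_mul_apply]
      exact ⟨by rw [h1, hπ1], h2⟩
  -- Claim A: every `γ`-invariant of `Z` is `π w` with `w` in the generalised eigenspace
  have hA : ∀ z ∈ Zγ, ∃ w : J₀, p • w = 0 ∧
      (∃ N : ℕ, ((T₀ - (a : AddMonoid.End J₀)) ^ N) w = 0) ∧ π w = z := by
    intro z hz
    obtain ⟨z', hz', hzz'⟩ := hsurjφ z hz
    obtain ⟨w₁, hw₁p, hw₁⟩ := hD z' (hZγp z' hz') hz'.2
    have hπw₁ : π w₁ = z := by
      rw [hw₁, ← hzz', natCast_zsmul]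
    obtain ⟨N, hN⟩ := hZT z hz.1
    have hγw₁ : γ (π w₁) = π w₁ := by rw [hπw₁]; exact hz.2
    obtain ⟨hk1, hk2⟩ := hπpow N w₁ hw₁p hγw₁
    set k : J₀ := ((T₀ - (a : AddMonoid.End J₀)) ^ N) w₁ with hk
    have hπk : π k = 0 := by rw [hk1, hπw₁, hN]
    have hTk : T₀ k = ℓ • k := hKT k hk2 hπk
    obtain ⟨u, v, huv⟩ := (ha.pow_left : IsCoprime ((ℓ - a) ^ N) (p : ℤ))
    have hpk : (p : ℤ) • k = 0 := by rw [natCast_zsmul]; exact hk2
    refine ⟨w₁ - u • k, ?_, ⟨N, ?_⟩, ?_⟩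
    · rw [nsmul_sub, hw₁p, ← natCast_zsmul, smul_comm, hpk, smul_zero, sub_zero]
    · rw [map_sub, map_zsmul, ← hk, s59n_pow_sub_apply_eigen T₀ a ℓ k hTk N, sub_eq_zero]
      calc k = (u * (ℓ - a) ^ N + v * (p : ℤ)) • k := by rw [huv, one_smul]
        _ = u • ((ℓ - a) ^ N) • k := by
            rw [add_smul, mul_smul, mul_smul, hpk, smul_zero, add_zero]
    · rw [map_sub, map_zsmul, hπk, smul_zero, sub_zero, hπw₁]
  -- the subgroup `W̃`
  have hpowG₀ : ∀ (g : G) (N : ℕ) (w : J₀),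
      ((T₀ - (a : AddMonoid.End J₀)) ^ N) (g • w) = g • ((T₀ - (a : AddMonoid.End J₀)) ^ N) w := by
    intro g N
    induction N with
    | zero => intro w; rfl
    | succ N ih =>
      intro w
      rw [pow_succ, s59n_end_mul_apply, s59n_end_mul_apply, s59n_end_sub_apply,
        s59n_end_sub_apply, s59n_intCast_end_apply, s59n_intCast_end_apply, hT₀G, ← smul_comm g,
        ← smul_sub, ih]
  have hpow_le : ∀ (N N' : ℕ) (w : J₀), N ≤ N' → ((T₀ - (a : AddMonoid.End J₀)) ^ N) w = 0 →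
      ((T₀ - (a : AddMonoid.End J₀)) ^ N') w = 0 := by
    intro N N' w hNN' h0
    obtain ⟨d, rfl⟩ := Nat.exists_eq_add_of_le hNN'
    rw [add_comm, pow_add, s59n_end_mul_apply, h0, map_zero]
  let Wt : AddSubgroup J₀ :=
    { carrier := {w | p • w = 0 ∧ (∃ N : ℕ, ((T₀ - (a : AddMonoid.End J₀)) ^ N) w = 0) ∧ π w ∈ Zγ}
      zero_mem' := ⟨smul_zero p, ⟨0, map_zero _⟩, by rw [map_zero]; exact Zγ.zero_mem⟩
      add_mem' := by
        rintro x y ⟨hx1, ⟨N, hN⟩, hx3⟩ ⟨hy1, ⟨N', hN'⟩, hy3⟩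
        refine ⟨by rw [smul_add, hx1, hy1, add_zero], ⟨max N N', ?_⟩,
          by rw [map_add]; exact Zγ.add_mem hx3 hy3⟩
        rw [map_add, hpow_le N _ x (le_max_left _ _) hN, hpow_le N' _ y (le_max_right _ _) hN',
          add_zero]
      neg_mem' := by
        rintro x ⟨hx1, ⟨N, hN⟩, hx3⟩
        exact ⟨by rw [smul_neg, hx1, neg_zero], ⟨N, by rw [map_neg, hN, neg_zero]⟩,
          by rw [map_neg]; exact Zγ.neg_mem hx3⟩ }
  have hWtG : ∀ g : G, (∀ z ∈ Z, g • z ∈ Z) → ∀ w ∈ Wt, g • w ∈ Wt := by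
    rintro g hg w ⟨hw1, ⟨N, hN⟩, hw3⟩
    refine ⟨by rw [smul_comm, hw1, smul_zero], ⟨N, by rw [hpowG₀, hN, smul_zero]⟩, ?_⟩
    rw [hπG]
    exact hZγG g hg _ hw3
  have hWtinj : ∀ w ∈ Wt, π w = 0 → w = 0 := by
    rintro w ⟨hw1, ⟨N, hN⟩, -⟩ hπw
    have hTw := hKT w hw1 hπw
    rw [s59n_pow_sub_apply_eigen T₀ a ℓ w hTw N] at hN
    obtain ⟨u, v, huv⟩ := (ha.pow_left : IsCoprime ((ℓ - a) ^ N) (p : ℤ))
    have hpw : (p : ℤ) • w = 0 := by rw [natCast_zsmul]; exact hw1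
    calc w = (u * (ℓ - a) ^ N + v * (p : ℤ)) • w := by rw [huv, one_smul]
      _ = 0 := by rw [add_smul, mul_smul, mul_smul, hpw, hN, smul_zero, smul_zero, add_zero]
  -- the contradiction
  by_contra hcon
  push Not at hcon
  obtain ⟨z₀, hz₀, hz₀ne⟩ := hcon
  -- a non-zero `γ`-invariant
  obtain ⟨z₁, hz₁, hz₁ne⟩ : ∃ z₁ ∈ Zγ, z₁ ≠ 0 := by
    obtain ⟨k, hk⟩ := hγnil z₀ hz₀
    have hstab : ∀ (j : ℕ), ((γ - 1) ^ j) z₀ ∈ Z := by
      intro j
      induction j with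
      | zero => exact hz₀
      | succ j ih =>
        rw [pow_succ', s59n_end_mul_apply, s59n_end_sub_apply, s59n_end_one_apply]
        exact Z.sub_mem (hZγ _ ih) ih
    have hex : ∃ j : ℕ, ((γ - 1) ^ j) z₀ = 0 := ⟨k, hk⟩
    have hj0 : Nat.find hex ≠ 0 := by
      intro h0
      have := Nat.find_spec hex
      rw [h0, pow_zero] at this
      exact hz₀ne this
    obtain ⟨j, hj⟩ := Nat.exists_eq_succ_of_ne_zero hj0
    have hjne : ((γ - 1) ^ j) z₀ ≠ 0 := Nat.find_min hex (by rw [hj]; exact Nat.lt_succ_self j)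
    have hjz : ((γ - 1) ^ (j + 1)) z₀ = 0 := by
      have := Nat.find_spec hex
      rwa [hj] at this
    refine ⟨((γ - 1) ^ j) z₀, ⟨hstab j, ?_⟩, hjne⟩
    rw [pow_succ', s59n_end_mul_apply, s59n_end_sub_apply, s59n_end_one_apply, sub_eq_zero] at hjz
    exact hjz
  obtain ⟨w₁, hw₁p, hw₁N, hw₁π⟩ := hA z₁ hz₁
  have hw₁Wt : w₁ ∈ Wt := ⟨hw₁p, hw₁N, by rw [hw₁π]; exact hz₁⟩
  have hw₁ne : w₁ ≠ 0 := by
    rintro rfl
    rw [map_zero] at hw₁π
    exact hz₁ne hw₁π.symm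
  obtain ⟨w₂, hw₂Wt, hw₂ne, hw₂I⟩ := hIfix Wt (fun w hw => hw.1)
    (fun w hw τ hτ => hWtG τ (fun z hz => hZI z hz τ hτ) w hw) ⟨w₁, hw₁Wt, hw₁ne⟩
  -- the `I`-invariants of `W̃`
  let W : AddSubgroup J₀ :=
    { carrier := {w | w ∈ Wt ∧ ∀ τ ∈ I, τ • w = w}
      zero_mem' := ⟨Wt.zero_mem, fun τ _ => smul_zero τ⟩
      add_mem' := fun {x y} hx hy => ⟨Wt.add_mem hx.1 hy.1, fun τ hτ => by
        rw [smul_add, hx.2 τ hτ, hy.2 τ hτ]⟩
      neg_mem' := fun {x} hx => ⟨Wt.neg_mem hx.1, fun τ hτ => by rw [smul_neg, hx.2 τ hτ]⟩ }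
  have hWφ : ∀ w ∈ W, φ • w ∈ W := by
    rintro w ⟨hw, hwI⟩
    refine ⟨hWtG φ hZφ w hw, fun τ hτ => ?_⟩
    have h1 := hwI _ (hφI τ hτ)
    calc τ • φ • w = φ • ((φ⁻¹ * τ * φ) • w) := by
          rw [← mul_smul, ← mul_smul, mul_assoc, mul_inv_cancel_left]
      _ = φ • w := by rw [h1]
  have hquadπ : ∀ (N : ℕ) (w : J₀), π (((s59n_quadOp J₀ φ α β) ^ N) w) =
      ((s59n_quadOp J φ α β) ^ N) (π w) := by
    have h1 : ∀ w : J₀, π ((s59n_quadOp J₀ φ α β) w) = (s59n_quadOp J φ α β) (π w) := by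
      intro w
      unfold s59n_quadOp
      rw [s59n_end_add_apply, s59n_end_sub_apply, s59n_end_mul_apply, s59n_end_mul_apply,
        s59n_intCast_end_apply, s59n_intCast_end_apply, s59n_end_add_apply, s59n_end_sub_apply,
        s59n_end_mul_apply, s59n_end_mul_apply, s59n_intCast_end_apply, s59n_intCast_end_apply,
        map_add, map_sub, map_zsmul, map_zsmul]
      show π (φ • φ • w) - (α + β) • π (φ • w) + (α * β) • π w = _
      rw [hπG, hπG]
      rfl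
    intro N
    induction N with
    | zero => intro w; rfl
    | succ N ih =>
      intro w
      rw [pow_succ, s59n_end_mul_apply, pow_succ, s59n_end_mul_apply, ih, h1]
  have hquadWt : ∀ (N : ℕ) (w : J₀), w ∈ Wt → ((s59n_quadOp J₀ φ α β) ^ N) w ∈ Wt := by
    have h1 : ∀ w ∈ Wt, (s59n_quadOp J₀ φ α β) w ∈ Wt := by
      intro w hw
      unfold s59n_quadOp
      rw [s59n_end_add_apply, s59n_end_sub_apply, s59n_end_mul_apply, s59n_end_mul_apply,
        s59n_intCast_end_apply, s59n_intCast_end_apply]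
      exact Wt.add_mem (Wt.sub_mem (hWtG φ hZφ _ (hWtG φ hZφ w hw))
        (Wt.zsmul_mem (hWtG φ hZφ w hw) _)) (Wt.zsmul_mem hw _)
    intro N
    induction N with
    | zero => intro w hw; exact hw
    | succ N ih =>
      intro w hw
      rw [pow_succ, s59n_end_mul_apply]
      exact ih _ (h1 w hw)
  have hWzero := hG2 W (fun w hw => hw.1.1) (fun w hw => hw.2) (fun w hw => hw.1.2.1) hWφ
    (fun w hw => hw.1.2.2.1) (fun w hw => by
      obtain ⟨N, hN⟩ := hZnil (π w) hw.1.2.2.1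
      refine ⟨N, hWtinj _ (hquadWt N w hw.1) ?_⟩
      rw [hquadπ, hN])
  exact hw₂ne (hWzero w₂ ⟨hw₂Wt, hw₂I⟩)

end Asm




/-- **a common fixed vector for a group acting through unipotent operators of level two** on a finite group of odd exponent `p`
(Kolchin, via main's `s36k_chain`). -/
theorem s59n_exists_fixed_of_unip {G : Type*} [Group G] {J₀ : Type*} [AddCommGroup J₀]
    [DistribMulAction G J₀] (I : Subgroup G) (p : ℕ) (hp2 : ¬ 2 ∣ p)
    (W' : AddSubgroup J₀) [Finite W'] (hW'p : ∀ w ∈ W', p • w = 0)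
    (hW'I : ∀ w ∈ W', ∀ τ ∈ I, τ • w ∈ W')
    (hU : ∀ τ ∈ I, ∀ w ∈ W', τ • τ • w - 2 • τ • w + w = 0)
    (hne : ∃ w ∈ W', w ≠ 0) : ∃ w ∈ W', w ≠ 0 ∧ ∀ τ ∈ I, τ • w = w := by
  classical
  -- the representation of `I` on `W'`
  let ρ : ↥I →* Module.End ℤ ↥W' :=
    { toFun := fun τ => AddMonoidHom.toIntLinearMap
        { toFun := fun w => ⟨(τ : G) • (w : J₀), hW'I _ w.2 _ τ.2⟩
          map_zero' := Subtype.ext (smul_zero _)
          map_add' := fun x y => Subtype.ext (smul_add _ _ _) }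
      map_one' := by
        ext w
        exact one_smul G (w : J₀)
      map_mul' := fun τ τ' => by
        ext w
        exact mul_smul (τ : G) (τ' : G) (w : J₀) }
  have hρ : ∀ (τ : ↥I) (w : ↥W'), ((ρ τ w : ↥W') : J₀) = (τ : G) • (w : J₀) := fun τ w => rfl
  haveI : Nontrivial ↥W' := by
    obtain ⟨w, hw, hw0⟩ := hne
    exact ⟨⟨⟨w, hw⟩, 0, fun h => hw0 (congrArg Subtype.val h)⟩⟩
  haveI : Module.Finite ℤ ↥W' := Module.Finite.of_finite
  haveI : IsNoetherian ℤ ↥W' := isNoetherian_of_isNoetherianRing_of_finite ℤ ↥W'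
  have h2 : ∀ x : ↥W', x + x = 0 → x = 0 := by
    intro x hx
    have h2x : (2 : ℤ) • (x : J₀) = 0 := by
      rw [two_smul]
      exact congrArg Subtype.val hx
    have hpx : (p : ℤ) • (x : J₀) = 0 := by rw [natCast_zsmul]; exact hW'p _ x.2
    have hcop : IsCoprime (2 : ℤ) (p : ℤ) := by
      have : Nat.Coprime 2 p := (Nat.Prime.coprime_iff_not_dvd Nat.prime_two).mpr hp2
      exact_mod_cast Nat.isCoprime_iff_coprime.mpr this
    obtain ⟨u, v, huv⟩ := hcop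
    apply Subtype.ext
    calc (x : J₀) = (u * 2 + v * (p : ℤ)) • (x : J₀) := by rw [huv, one_smul]
      _ = 0 := by rw [add_smul, mul_smul, mul_smul, h2x, hpx, smul_zero, smul_zero, add_zero]
  have hH : ∀ h ∈ (⊤ : Subgroup ↥I), (ρ h - 1) * (ρ h - 1) = 0 := by
    intro τ _
    ext w
    have := hU τ τ.2 (w : J₀) w.2
    simp only [Module.End.mul_apply, LinearMap.sub_apply, Module.End.one_apply,
      LinearMap.zero_apply, map_sub]
    simp only [AddSubgroup.coe_sub, hρ, ZeroMemClass.coe_zero]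
    rw [← this, two_smul]
    abel
  obtain ⟨l, -, hQ, hfix⟩ := s36k_chain ρ h2 ⊤ hH
  obtain ⟨v, hv⟩ : ∃ v : ↥W', s36k_word ρ l v ≠ 0 := by
    by_contra hcon
    push Not at hcon
    exact hQ (LinearMap.ext hcon)
  refine ⟨((s36k_word ρ l v : ↥W') : J₀), (s36k_word ρ l v).2,
    fun h => hv (Subtype.ext h), fun τ hτ => ?_⟩
  have h1 := hfix ⟨τ, hτ⟩ (Subgroup.mem_top _)
  have h3 := congrArg (fun f : Module.End ℤ ↥W' => ((f v : ↥W') : J₀)) h1
  simp only [Module.End.mul_apply, LinearMap.sub_apply, Module.End.one_apply,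
    LinearMap.zero_apply, AddSubgroup.coe_sub, ZeroMemClass.coe_zero, hρ] at h3
  exact sub_eq_zero.mp h3


end Fermat.Agent.Lib.S59
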