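/-
Programme (R) / node [IA′], C7 = (G2), inputs (c5) and [C7-d] (d3) (helper9, prefix `s59m_`):

* `s59m_frob_root_gen` : (c5) a Frobenius at `ℓ₀` raises every root of unity of order prime to `ℓ₀` to the `ℓ₀`-th power;
* **(d3) `s59m_Ifix`** : (Ifix) at the bottom level: `I` the inertia group at `P ∣ q₁`, `q₁ ∥ M`, `p ≠ 2, q₁`: every non-zero
  `I`-stable subgroup of `J₀(M)[p]` has a non-zero `I`-fixed point  (main's [SS] `s34_SSp`, unconditional, + finiteness of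
  `J₀(M)[p]` + helper7's `s59n_exists_fixed_of_unip`);
* `s59m_Ifix_top` : the same for `s48k_JH M ⊤` (transport along `s48wg_FHQ_top`).
-/
import Fermat.Agent.Lib.S59.NAsm
import Fermat.Agent.Lib.S34.FFinal
import Fermat.Agent.Lib.S34.DTwoThree
import Fermat.Agent.Lib.S30.TateLevel
import Fermat.Agent.Lib.S29.Cyclo
import Fermat.Agent.Lib.S18.NResidue
import Fermat.Agent.Lib.S48.WGN

set_option autoImplicit false
set_option linter.unusedSectionVars false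
set_option linter.style.haveILetI false

noncomputable section

namespace Fermat.Agent.Lib.S59

open AlgebraicCurve ModularCurve IntermediateField Fermat.Agent.Lib.S29 Fermat.Agent.Lib.S34
  Fermat.Agent.Lib.S30 Fermat.Agent.Lib.S48 Fermat.Agent.Lib.S18

local notation "Qbar" => AlgebraicClosure ℚ
local notation "GQ" => (AlgebraicClosure ℚ ≃ₐ[ℚ] AlgebraicClosure ℚ)

/-- **(c5)** a Frobenius at `ℓ₀` raises the roots of unity of order prime to `ℓ₀` to the `ℓ₀`-th power. -/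
theorem s59m_frob_root_gen {ℓ₀ m : ℕ} (hℓ₀ : ℓ₀.Prime) (hm : ¬ ℓ₀ ∣ m)
    (A : ValuationSubring Qbar) (hA : A.LiesOverPrime ℓ₀) (σ : GQ)
    (hσ : A.IsFrobeniusAt σ ℓ₀) {ζ : Qbar} (hζ : ζ ^ m = 1) : σ ζ = ζ ^ ℓ₀ := by
  haveI := s18n_charP_residueField A hℓ₀ hA
  have hm0 : m ≠ 0 := by
    rintro rfl
    exact hm (dvd_zero _)
  have hmk : (m : IsLocalRing.ResidueField A) ≠ 0 := by
    intro h
    exact hm ((CharP.cast_eq_zero_iff (IsLocalRing.ResidueField A) ℓ₀ m).mp h)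
  exact s29y_apply_root_of_residue A hm0 hmk ⟨σ, hσ.mem_decompositionSubgroup⟩ ℓ₀
    (fun x => hσ.smul_residue_eq x) hζ

/-- **[SS]** on main, unconditionally. -/
theorem s59m_SSp : s34_SSp :=
  s34f_SSp_of_geo (fun M q _ _ hq' hqM h => s34d_geo_all M q hq' hqM h)

/-- **(d3) (Ifix)** at the bottom level `J₀(M)`. -/
theorem s59m_Ifix (M : ℕ) [NeZero M] {q₁ : ℕ} (hq₁ : q₁.Prime) (hq₁M : q₁ ∣ M)
    (hq₁2 : ¬ q₁ ^ 2 ∣ M) (P : ValuationSubring Qbar) (hP : P.LiesOverPrime q₁)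
    {p : ℕ} (hp : p.Prime) (hp2 : p ≠ 2) (hpq : p ≠ q₁)
    (W' : AddSubgroup (JZero M)) (hW'p : ∀ w ∈ W', p • w = 0)
    (hW'I : ∀ w ∈ W', ∀ τ ∈ P.inertiaSubgroupIn ℚ, τ • w ∈ W') (hne : ∃ w ∈ W', w ≠ 0) :
    ∃ w ∈ W', w ≠ 0 ∧ ∀ τ ∈ P.inertiaSubgroupIn ℚ, τ • w = w := by
  haveI : NeZero p := ⟨hp.ne_zero⟩
  haveI := s30a_finite_torsion M p
  haveI : Finite ↥W' := by
    refine Finite.of_injective
      (fun w : ↥W' => (⟨(w : JZero M), by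
        rw [Pic0.mem_torsion, natCast_zsmul]
        exact hW'p _ w.2⟩ : s29k_Jp M p)) ?_
    intro x y hxy
    have h1 : (x : JZero M) = (y : JZero M) :=
      congrArg (fun t : s29k_Jp M p => (t : JZero M)) hxy
    exact Subtype.ext h1
  refine s59n_exists_fixed_of_unip (P.inertiaSubgroupIn ℚ) p ?_ W' hW'p hW'I ?_ hne
  · intro h2
    exact hp2 ((Nat.prime_dvd_prime_iff_eq Nat.prime_two hp).mp h2).symm
  · intro τ hτ w hw
    exact s59m_SSp M q₁ hq₁ hq₁M hq₁2 P hP τ hτ p hp hpq 1 w (by rw [pow_one]; exact hW'p w hw)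

/-- **(d3) (Ifix)** at the top of the tower `F_⊤ = F̄₀(M)`. -/
theorem s59m_Ifix_top (M : ℕ) [NeZero M] (hM : 1 < M) {q₁ : ℕ} (hq₁ : q₁.Prime) (hq₁M : q₁ ∣ M)
    (hq₁2 : ¬ q₁ ^ 2 ∣ M) (P : ValuationSubring Qbar) (hP : P.LiesOverPrime q₁)
    {p : ℕ} (hp : p.Prime) (hp2 : p ≠ 2) (hpq : p ≠ q₁)
    (W' : AddSubgroup (s48k_JH M (⊤ : Subgroup (ZMod M)ˣ))) (hW'p : ∀ w ∈ W', p • w = 0)
    (hW'I : ∀ w ∈ W', ∀ τ ∈ P.inertiaSubgroupIn ℚ, τ • w ∈ W') (hne : ∃ w ∈ W', w ≠ 0) :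
    ∃ w ∈ W', w ≠ 0 ∧ ∀ τ ∈ P.inertiaSubgroupIn ℚ, τ • w = w := by
  have key : ∀ FQ : IntermediateField ℚ (LaurentSeries ℚ), FQ = modularFunctionFieldFull M →
      ∀ W' : AddSubgroup (Pic0 Qbar ↥(laurentBaseChange Qbar FQ)), (∀ w ∈ W', p • w = 0) →
        (∀ w ∈ W', ∀ τ ∈ P.inertiaSubgroupIn ℚ, τ • w ∈ W') → (∃ w ∈ W', w ≠ 0) →
        ∃ w ∈ W', w ≠ 0 ∧ ∀ τ ∈ P.inertiaSubgroupIn ℚ, τ • w = w := by
    intro FQ hFQ
    subst hFQ
    exact fun W' h1 h2 h3 => s59m_Ifix M hq₁ hq₁M hq₁2 P hP hp hp2 hpq W' h1 h2 h3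
  exact key _ (s48wg_FHQ_top hM) W' hW'p hW'I hne

end Fermat.Agent.Lib.S59
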