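/-
Programme (R2-bg), node [CAR] / the `N`-fields of `s59m_CountData`, helper8 (prefix `s59c_`), part 10:
**THE TAME GENERATOR** (frame-independent Galois theory on `J₀(N)[p^K]`, `q ∥ N`, `P ∣ q`, `p ≠ q`).

Inputs from main: **[SS]** `s59m_SSp : s34_SSp` (S34: `(σ - 1)² = 0` on `J₀(N)[p^k]` for `σ ∈ I_P`),
**(Tame)** `s56g_ifaceTame` (the prime-to-`q` quotients of `I_P` are cyclic), open stabilisers
(`s29g_S37Int.openStab`), finiteness of `J₀(N)[n]` (`s30a_finite_torsion`).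

* `s59c_stab N n`        : the pointwise stabiliser of `J₀(N)[n]` in `G_ℚ`;
* `s59c_exists_level`    : it contains the fixing subgroup of a finite extension;
* `s59c_unip_pow`        : `σ ^ j • x = x + j • (σ • x - x)` for `σ ∈ I_P`, `x ∈ J₀(N)[p^K]`;
* **`s59c_exists_tau`**  : `∃ τ ∈ I_P, ∀ σ ∈ I_P, ∃ j, ∀ x ∈ J₀(N)[p^K], σ • x = τ ^ j • x`;
* **`s59c_tau_sub_fixed`** : for such `τ`, `(τ - 1) x` is fixed by the whole of `I_P` (`x ∈ J₀(N)[p^K]`);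
* `s59c_Nmap τ c`        : the homomorphism `x ↦ c • (τ • x - x)` (the field `N` of `s59m_CountData`);
* `s59c_Nmap_ker_fixed`  : `N x = 0 → c • x` is `I_P`-fixed.
-/
import Fermat.Agent.Lib.S59.MUpFix
import Fermat.Agent.Lib.S56.GDecomp
import Fermat.Agent.Lib.S29.GSInt

set_option autoImplicit false
set_option linter.unusedSectionVars false
set_option linter.style.haveILetI false

noncomputable section

namespace Fermat.Agent.Lib.S59

open AlgebraicCurve ModularCurve IntermediateField Fermat.Agent.Lib.S29 Fermat.Agent.Lib.S34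
  Fermat.Agent.Lib.S30 Fermat.Agent.Lib.S56

local notation "Qbar" => AlgebraicClosure ℚ
local notation "GQ" => (AlgebraicClosure ℚ ≃ₐ[ℚ] AlgebraicClosure ℚ)

/-- the pointwise stabiliser of `J₀(N)[n]`. -/
def s59c_stab (N n : ℕ) [NeZero N] : Subgroup GQ where
  carrier := {σ | ∀ x : JZero N, n • x = 0 → σ • x = x}
  one_mem' := fun x _ => one_smul _ x
  mul_mem' := by
    intro σ σ' hσ hσ' x hx
    rw [mul_smul, hσ' x hx, hσ x hx]
  inv_mem' := by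
    intro σ hσ x hx
    have h := hσ x hx
    calc σ⁻¹ • x = σ⁻¹ • (σ • x) := by rw [h]
      _ = x := inv_smul_smul σ x

theorem s59c_mem_stab {N n : ℕ} [NeZero N] {σ : GQ} :
    σ ∈ s59c_stab N n ↔ ∀ x : JZero N, n • x = 0 → σ • x = x := Iff.rfl

/-- Galois commutes with multiplication by integers. -/
theorem s59c_smul_nsmul {N : ℕ} [NeZero N] (σ : GQ) (n : ℕ) (x : JZero N) :
    σ • (n • x) = n • (σ • x) :=
  map_nsmul (DistribSMul.toAddMonoidHom (JZero N) σ) n x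

/-- the torsion is stable under Galois. -/
theorem s59c_tors_smul {N n : ℕ} [NeZero N] (σ : GQ) {x : JZero N} (hx : n • x = 0) :
    n • (σ • x) = 0 := by
  rw [← s59c_smul_nsmul σ n x, hx]
  exact map_zero (DistribSMul.toAddMonoidHom (JZero N) σ)

/-- `J₀(N)[n]` is rational over a finite extension. -/
theorem s59c_exists_level (N n : ℕ) [NeZero N] [NeZero n] :
    ∃ F : IntermediateField ℚ Qbar, FiniteDimensional ℚ F ∧
      ∀ σ : GQ, σ ∈ F.fixingSubgroup → σ ∈ s59c_stab N n := by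
  classical
  haveI : Finite (s29k_Jp N n) := s30a_finite_torsion N n
  have hex : ∀ x : s29k_Jp N n, ∃ L : IntermediateField ℚ Qbar, FiniteDimensional ℚ L ∧
      ∀ σ : GQ, (∀ y ∈ L, σ y = y) → σ • (x : JZero N) = (x : JZero N) :=
    fun x => s29g_S37Int.openStab N (x : JZero N)
  choose L hLfd hL using hex
  haveI : ∀ x, FiniteDimensional ℚ ↥(L x) := hLfd
  refine ⟨⨆ x, L x, IntermediateField.finiteDimensional_iSup_of_finite, ?_⟩
  intro σ hσ x hx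
  have hxt : x ∈ Pic0.torsion Qbar (modularFunctionFieldBar N) n := by
    rw [Pic0.mem_torsion, natCast_zsmul]
    exact hx
  have := hL ⟨x, hxt⟩ σ (fun y hy => by
    rw [IntermediateField.mem_fixingSubgroup_iff] at hσ
    exact hσ y ((le_iSup L ⟨x, hxt⟩) hy))
  exact this

section Unip

variable (N : ℕ) [NeZero N] (q : ℕ) (hq : q.Prime) (hqN : q ∣ N) (hq2 : ¬ q ^ 2 ∣ N)
  (P : ValuationSubring Qbar) (hP : P.LiesOverPrime q)
  (p : ℕ) (hp : p.Prime) (hpq : p ≠ q) (K : ℕ)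

include hq hqN hq2 hP hp hpq in
/-- `σ (σ x - x) = σ x - x` for `σ ∈ I_P`, `x ∈ J₀(N)[p^K]`. -/
theorem s59c_unip_fixed {σ : GQ} (hσ : σ ∈ P.inertiaSubgroupIn ℚ) {x : JZero N}
    (hx : p ^ K • x = 0) : σ • (σ • x - x) = σ • x - x := by
  have h := s59m_SSp N q hq hqN hq2 P hP σ hσ p hp hpq K x hx
  rw [smul_sub]
  have e : σ • σ • x - σ • x - (σ • x - x) = σ • σ • x - 2 • σ • x + x := by
    rw [two_nsmul]
    abel
  exact sub_eq_zero.mp (e.trans h)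

include hq hqN hq2 hP hp hpq in
/-- `σ ^ j x = x + j (σ x - x)`. -/
theorem s59c_unip_pow {σ : GQ} (hσ : σ ∈ P.inertiaSubgroupIn ℚ) {x : JZero N}
    (hx : p ^ K • x = 0) (j : ℕ) : σ ^ j • x = x + j • (σ • x - x) := by
  induction j with
  | zero => rw [pow_zero, one_smul, zero_nsmul, add_zero]
  | succ j ih =>
    rw [pow_succ', mul_smul, ih, smul_add, s59c_smul_nsmul σ j,
      s59c_unip_fixed N q hq hqN hq2 P hP p hp hpq K hσ hx, succ_nsmul]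
    abel

include hq hqN hq2 hP hp hpq in
/-- `σ ^ (p^K) = 1` on `J₀(N)[p^K]`. -/
theorem s59c_unip_pow_mem_stab {σ : GQ} (hσ : σ ∈ P.inertiaSubgroupIn ℚ) :
    σ ^ (p ^ K) ∈ s59c_stab N (p ^ K) := by
  intro x hx
  rw [s59c_unip_pow N q hq hqN hq2 P hP p hp hpq K hσ hx, nsmul_sub,
    s59c_tors_smul σ hx, hx, sub_zero, add_zero]

include hq hqN hq2 hP hp hpq in
/-- **The tame generator**: one `τ ∈ I_P` generates the image of `I_P` in `Aut J₀(N)[p^K]`. -/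
theorem s59c_exists_tau :
    ∃ τ ∈ P.inertiaSubgroupIn ℚ, ∀ σ ∈ P.inertiaSubgroupIn ℚ, ∃ j : ℕ,
      ∀ x : JZero N, p ^ K • x = 0 → σ • x = τ ^ j • x := by
  haveI : NeZero (p ^ K) := ⟨pow_ne_zero _ hp.ne_zero⟩
  have h1 : ∃ F : IntermediateField ℚ Qbar, FiniteDimensional ℚ F ∧
      ∀ σ ∈ P.inertiaSubgroupIn ℚ, σ ∈ F.fixingSubgroup → σ ∈ s59c_stab N (p ^ K) := by
    obtain ⟨F, hF, hFc⟩ := s59c_exists_level N (p ^ K)
    exact ⟨F, hF, fun σ _ hσF => hFc σ hσF⟩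
  have h2 : ∀ σ ∈ P.inertiaSubgroupIn ℚ, ∃ m : ℕ, m.Coprime q ∧ σ ^ m ∈ s59c_stab N (p ^ K) :=
    fun σ hσ => ⟨p ^ K, Nat.Coprime.pow_left K ((Nat.coprime_primes hp hq).mpr hpq),
      s59c_unip_pow_mem_stab N q hq hqN hq2 P hP p hp hpq K hσ⟩
  obtain ⟨τ, hτ, hgen, -⟩ := s56g_ifaceTame q hq P hP (s59c_stab N (p ^ K)) h1 h2
  refine ⟨τ, hτ, fun σ hσ => ?_⟩
  obtain ⟨j, hj⟩ := hgen σ hσ
  refine ⟨j, fun x hx => ?_⟩
  have h := hj x hx
  rw [mul_smul] at h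
  calc σ • x = τ ^ j • ((τ ^ j)⁻¹ • σ • x) := (smul_inv_smul (τ ^ j) (σ • x)).symm
    _ = τ ^ j • x := by rw [h]

include hq hqN hq2 hP hp hpq in
/-- **`(τ - 1) x` is fixed by the inertia group.** -/
theorem s59c_tau_sub_fixed {τ : GQ} (hτ : τ ∈ P.inertiaSubgroupIn ℚ)
    (hgen : ∀ σ ∈ P.inertiaSubgroupIn ℚ, ∃ j : ℕ,
      ∀ x : JZero N, p ^ K • x = 0 → σ • x = τ ^ j • x)
    {x : JZero N} (hx : p ^ K • x = 0) {σ : GQ} (hσ : σ ∈ P.inertiaSubgroupIn ℚ) :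
    σ • (τ • x - x) = τ • x - x := by
  obtain ⟨j, hj⟩ := hgen σ hσ
  have hy : p ^ K • (τ • x - x) = 0 := by
    rw [nsmul_sub, s59c_tors_smul τ hx, hx, sub_zero]
  have hfix : τ • (τ • x - x) = τ • x - x :=
    s59c_unip_fixed N q hq hqN hq2 P hP p hp hpq K hτ hx
  rw [hj _ hy, s59c_unip_pow N q hq hqN hq2 P hP p hp hpq K hτ hy, hfix, sub_self, smul_zero,
    add_zero]

end Unip

/-! ### The map `N = c (τ - 1)` -/

/-- the homomorphism `x ↦ c • (τ • x - x)`. -/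
def s59c_Nmap (N : ℕ) [NeZero N] (τ : GQ) (c : ℕ) : JZero N →+ JZero N where
  toFun x := c • (τ • x - x)
  map_zero' := by rw [smul_zero, sub_zero, smul_zero]
  map_add' x y := by
    rw [smul_add, ← nsmul_add]
    congr 1
    abel

theorem s59c_Nmap_apply (N : ℕ) [NeZero N] (τ : GQ) (c : ℕ) (x : JZero N) :
    s59c_Nmap N τ c x = c • (τ • x - x) := rfl

/-- `N x = 0 → c • x` is `τ`-fixed. -/
theorem s59c_Nmap_ker (N : ℕ) [NeZero N] (τ : GQ) (c : ℕ) {x : JZero N}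
    (h : s59c_Nmap N τ c x = 0) : τ • (c • x) = c • x := by
  rw [s59c_Nmap_apply, nsmul_sub, sub_eq_zero] at h
  rw [s59c_smul_nsmul τ c x]
  exact h

section Ker

variable (N : ℕ) [NeZero N] (q : ℕ) (hq : q.Prime) (hqN : q ∣ N) (hq2 : ¬ q ^ 2 ∣ N)
  (P : ValuationSubring Qbar) (hP : P.LiesOverPrime q)
  (p : ℕ) (hp : p.Prime) (hpq : p ≠ q) (K : ℕ)

include hq hqN hq2 hP hp hpq in
/-- `N x = 0 → c • x` is fixed by the inertia group. -/
theorem s59c_Nmap_ker_fixed {τ : GQ} (hτ : τ ∈ P.inertiaSubgroupIn ℚ)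
    (hgen : ∀ σ ∈ P.inertiaSubgroupIn ℚ, ∃ j : ℕ,
      ∀ x : JZero N, p ^ K • x = 0 → σ • x = τ ^ j • x)
    (c : ℕ) {x : JZero N} (hx : p ^ K • x = 0) (h : s59c_Nmap N τ c x = 0)
    {σ : GQ} (hσ : σ ∈ P.inertiaSubgroupIn ℚ) : σ • (c • x) = c • x := by
  obtain ⟨j, hj⟩ := hgen σ hσ
  have hcx : p ^ K • (c • x) = 0 := by rw [smul_comm, hx, smul_zero]
  have hfix := s59c_Nmap_ker N τ c h
  rw [hj _ hcx, s59c_unip_pow N q hq hqN hq2 P hP p hp hpq K hτ hcx, hfix, sub_self, smul_zero,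
    add_zero]

include hq hqN hq2 hP hp hpq in
/-- `N x` is fixed by the inertia group (`x ∈ J₀(N)[p^K]`). -/
theorem s59c_Nmap_fixed {τ : GQ} (hτ : τ ∈ P.inertiaSubgroupIn ℚ)
    (hgen : ∀ σ ∈ P.inertiaSubgroupIn ℚ, ∃ j : ℕ,
      ∀ x : JZero N, p ^ K • x = 0 → σ • x = τ ^ j • x)
    (c : ℕ) {x : JZero N} (hx : p ^ K • x = 0)
    {σ : GQ} (hσ : σ ∈ P.inertiaSubgroupIn ℚ) :
    σ • s59c_Nmap N τ c x = s59c_Nmap N τ c x := by
  rw [s59c_Nmap_apply, s59c_smul_nsmul σ c,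
    s59c_tau_sub_fixed N q hq hqN hq2 P hP p hp hpq K hτ hgen hx hσ]

end Ker

end Fermat.Agent.Lib.S59
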