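/-
Programme (R2), node **[CAR]**, route R-DS′ (helper3, prefix `s59u_`): the two abstract pieces asked for by helper8 (#3693)
for the fields `N_mem` / `N_ker` of `s59m_CountData` (pure group theory, Mathlib only).

* **`s59u_tame_gen`** ([TAME-GEN]): `τ ∈ I` generates the image of `I` on the stable subgroup `V`, `(τ - 1)² = 0` on `V`
  ⇒ `(τ - 1) x` is `I`-fixed for `x ∈ V`.
* `s59u_tors_pow_finite`, `s59u_tors_pow_card_le` : `J[p]` finite ⇒ `J[p^k]` finite, `#J[p^k] ≤ #J[p]^k`.
* **`s59u_ker_bound`** ([KER-BOUND]): `#J[p] ≤ p^r`, `S` killed by `p^K`, `c • S ⊆ Fin`, `c ≥ 1` ⇒ there are at most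
  `c^r` representatives `R` with `∀ x ∈ S, ∃ r ∈ R, x - r ∈ Fin`.
-/
import Mathlib

set_option autoImplicit false
set_option linter.unusedSectionVars false
set_option linter.unusedVariables false
set_option linter.style.haveILetI false

namespace Fermat.Agent.Lib.S59

/-- **[TAME-GEN]**. -/
theorem s59u_tame_gen {G J : Type*} [Group G] [AddCommGroup J] [DistribMulAction G J]
    (V : AddSubgroup J) (hV : ∀ (g : G) (x : J), x ∈ V → g • x ∈ V) (I : Subgroup G) (τ : G)
    (hτ : τ ∈ I) (hgen : ∀ σ ∈ I, ∃ j : ℕ, ∀ x ∈ V, σ • x = τ ^ j • x)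
    (hsq : ∀ x ∈ V, τ • τ • x - 2 • τ • x + x = 0) :
    ∀ σ ∈ I, ∀ x ∈ V, σ • (τ • x - x) = τ • x - x := by
  intro σ hσ x hx
  have hy : τ • x - x ∈ V := V.sub_mem (hV τ x hx) hx
  have hτy : τ • (τ • x - x) = τ • x - x := by
    have h := hsq x hx
    rw [smul_sub]
    have h2 : τ • τ • x - τ • x - (τ • x - x) = 0 := by
      rw [← h, two_smul]
      abel
    exact sub_eq_zero.mp h2
  obtain ⟨j, hj⟩ := hgen σ hσ
  rw [hj _ hy]
  clear hj
  induction j with
  | zero => rw [pow_zero, one_smul]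
  | succ j ih => rw [pow_succ, mul_smul, hτy, ih]

section Tors

variable {J : Type*} [AddCommGroup J]

/-- `J[p^k]` embeds into `J[p] × J[p^(k-1)]`. -/
theorem s59u_tors_pow_step (p k : ℕ) :
    ∃ φ : {x : J // p ^ (k + 1) • x = 0} → {x : J // p • x = 0} × {x : J // p ^ k • x = 0},
      Function.Injective φ := by
  classical
  -- `g x = p^k x`
  let g : {x : J // p ^ (k + 1) • x = 0} → {x : J // p • x = 0} := fun x =>
    ⟨p ^ k • (x : J), by rw [← mul_smul, ← pow_succ']; exact x.2⟩
  let s : {x : J // p • x = 0} → {x : J // p ^ (k + 1) • x = 0} := fun t =>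
    if h : ∃ x, g x = t then Classical.choose h else ⟨0, smul_zero _⟩
  have hs : ∀ x, g (s (g x)) = g x := fun x => by
    have h : ∃ x', g x' = g x := ⟨x, rfl⟩
    show g (if h : ∃ x', g x' = g x then Classical.choose h else ⟨0, smul_zero _⟩) = g x
    rw [dif_pos h]
    exact Classical.choose_spec h
  refine ⟨fun x => (g x, ⟨(x : J) - (s (g x) : J), ?_⟩), ?_⟩
  · have h := congrArg (fun t : {x : J // p • x = 0} => (t : J)) (hs x)
    simp only [g] at h
    rw [smul_sub]
    exact sub_eq_zero.mpr h.symm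
  · intro x y hxy
    have h1 : g x = g y := congrArg Prod.fst hxy
    have h2 := congrArg (fun t => ((Prod.snd t : {x : J // p ^ k • x = 0}) : J)) hxy
    simp only at h2
    rw [h1] at h2
    exact Subtype.ext (sub_left_injective h2)

/-- `J[p]` finite ⇒ `J[p^k]` finite. -/
theorem s59u_tors_pow_finite (p : ℕ) (hfin : Finite {x : J // p • x = 0}) (k : ℕ) :
    Finite {x : J // p ^ k • x = 0} := by
  induction k with
  | zero =>
    have : ∀ x : {x : J // p ^ 0 • x = 0}, x = ⟨0, smul_zero _⟩ := by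
      rintro ⟨y, hy⟩
      apply Subtype.ext
      show y = 0
      rw [pow_zero, one_smul] at hy
      exact hy
    haveI : Subsingleton {x : J // p ^ 0 • x = 0} := ⟨fun a b => (this a).trans (this b).symm⟩
    exact Finite.of_subsingleton
  | succ k ih =>
    obtain ⟨φ, hφ⟩ := s59u_tors_pow_step (J := J) p k
    exact Finite.of_injective φ hφ

/-- `#J[p^k] ≤ #J[p]^k`. -/
theorem s59u_tors_pow_card_le (p : ℕ) (hfin : Finite {x : J // p • x = 0}) (k : ℕ) :
    Nat.card {x : J // p ^ k • x = 0} ≤ Nat.card {x : J // p • x = 0} ^ k := by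
  induction k with
  | zero =>
    have : ∀ x : {x : J // p ^ 0 • x = 0}, x = ⟨0, smul_zero _⟩ := by
      rintro ⟨y, hy⟩
      apply Subtype.ext
      show y = 0
      rw [pow_zero, one_smul] at hy
      exact hy
    haveI : Subsingleton {x : J // p ^ 0 • x = 0} := ⟨fun a b => (this a).trans (this b).symm⟩
    rw [pow_zero (Nat.card {x : J // p • x = 0})]
    exact Finite.card_le_one_iff_subsingleton.mpr inferInstance
  | succ k ih =>
    obtain ⟨φ, hφ⟩ := s59u_tors_pow_step (J := J) p k
    haveI := s59u_tors_pow_finite p hfin k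
    calc Nat.card {x : J // p ^ (k + 1) • x = 0}
        ≤ Nat.card ({x : J // p • x = 0} × {x : J // p ^ k • x = 0}) :=
          Nat.card_le_card_of_injective φ hφ
      _ = Nat.card {x : J // p • x = 0} * Nat.card {x : J // p ^ k • x = 0} := Nat.card_prod _ _
      _ ≤ Nat.card {x : J // p • x = 0} * Nat.card {x : J // p • x = 0} ^ k :=
          Nat.mul_le_mul_left _ ih
      _ = Nat.card {x : J // p • x = 0} ^ (k + 1) := by rw [pow_succ']

end Tors

/-- **[KER-BOUND]**. -/
theorem s59u_ker_bound {J : Type*} [AddCommGroup J] (p r K : ℕ) (hp : p.Prime)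
    (hfin : Finite {x : J // p • x = 0}) (hcard : Nat.card {x : J // p • x = 0} ≤ p ^ r)
    (Fin S : AddSubgroup J) (hS : ∀ x ∈ S, p ^ K • x = 0) (c : ℕ) (hc : 1 ≤ c)
    (hcS : ∀ x ∈ S, c • x ∈ Fin) :
    ∃ R : Finset J, R.card ≤ c ^ r ∧ ∀ x ∈ S, ∃ r ∈ R, x - r ∈ Fin := by
  classical
  -- `S` is finite
  haveI hJK : Finite {x : J // p ^ K • x = 0} := s59u_tors_pow_finite p hfin K
  haveI hSfin : Finite S :=
    Finite.of_injective (fun x : S => (⟨(x : J), hS x x.2⟩ : {x : J // p ^ K • x = 0}))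
      (fun a b hab => Subtype.ext (congrArg (fun z : {x : J // p ^ K • x = 0} => (z : J)) hab))
  -- `c = p^e c'`
  obtain ⟨e, c', hc', hce⟩ := Nat.exists_eq_pow_mul_and_not_dvd (Nat.one_le_iff_ne_zero.mp hc) p
    hp.ne_one
  have hcop : Nat.Coprime c' (p ^ K) := Nat.Coprime.pow_right K ((hp.coprime_iff_not_dvd).mpr hc').symm
  -- `p^e S ⊆ Fin`
  have hpe : ∀ x ∈ S, p ^ e • x ∈ Fin := by
    intro x hx
    -- `u c' ≡ 1 mod p^K`
    have hex : ∃ u : ℕ, (u * c') • x = x := by
      by_cases hK1 : p ^ K = 1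
      · refine ⟨0, ?_⟩
        have := hS x hx
        rw [hK1, one_smul] at this
        rw [this, smul_zero]
      · have h1 : 1 < p ^ K := lt_of_le_of_ne (Nat.one_le_pow _ _ hp.pos) (Ne.symm hK1)
        obtain ⟨u, -, hu⟩ := Nat.exists_mul_mod_eq_one_of_coprime hcop h1
        refine ⟨u, ?_⟩
        have h2 : u * c' = p ^ K * (c' * u / p ^ K) + 1 := by
          have := Nat.div_add_mod (c' * u) (p ^ K)
          rw [hu] at this
          rw [mul_comm u c']
          exact this.symm
        rw [h2, add_smul, mul_smul, one_smul]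
        have h3 : p ^ K • ((c' * u / p ^ K) • x) = 0 := by
          rw [smul_comm, hS x hx, smul_zero]
        rw [h3, zero_add]
    obtain ⟨u, hu⟩ := hex
    have h4 : p ^ e • x = c • (u • x) := by
      conv_lhs => rw [← hu]
      rw [hce, ← mul_smul, ← mul_smul]
      congr 1
      ring
    rw [h4]
    exact hcS _ (S.nsmul_mem hx u)
  -- the subgroup `T' = Fin ∩ S` of `S`, and `f = p^e` on `S`
  set T' : AddSubgroup S := Fin.addSubgroupOf S with hT'
  set f : S →+ S := nsmulAddMonoidHom (p ^ e) with hf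
  have hle : f.range ≤ T' := by
    rintro y ⟨x, rfl⟩
    rw [hT', AddSubgroup.mem_addSubgroupOf]
    show ((p ^ e • x : S) : J) ∈ Fin
    rw [AddSubgroup.coe_nsmul]
    exact hpe _ x.2
  -- `index (range f) = card (ker f)`
  have hidx : f.range.index = Nat.card f.ker := by
    have h1 := AddSubgroup.card_mul_index f.range
    have h2 := AddSubgroup.card_mul_index f.ker
    rw [AddSubgroup.index_ker] at h2
    have h3 : 0 < Nat.card f.range := Nat.card_pos
    have h4 : Nat.card f.range * f.range.index = Nat.card f.range * Nat.card f.ker := by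
      rw [h1, ← h2, mul_comm]
    exact Nat.eq_of_mul_eq_mul_left h3 h4
  -- `card (ker f) ≤ #J[p^e] ≤ p^(r e)`
  have hker : Nat.card f.ker ≤ (p ^ r) ^ e := by
    haveI := s59u_tors_pow_finite p hfin e
    have h1 : Nat.card f.ker ≤ Nat.card {x : J // p ^ e • x = 0} := by
      refine Nat.card_le_card_of_injective
        (fun x : f.ker => (⟨((x : S) : J), ?_⟩ : {x : J // p ^ e • x = 0})) ?_
      · have h := x.2
        rw [AddMonoidHom.mem_ker] at h
        have h' : ((p ^ e • (x : S) : S) : J) = 0 := congrArg (fun z : S => (z : J)) h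
        rw [AddSubgroup.coe_nsmul] at h'
        exact h'
      · intro a b hab
        exact Subtype.ext (Subtype.ext
          (congrArg (fun z : {x : J // p ^ e • x = 0} => (z : J)) hab))
    refine h1.trans ((s59u_tors_pow_card_le p hfin e).trans ?_)
    exact Nat.pow_le_pow_left hcard e
  -- `index T' ≤ c^r`
  have hT'idx : T'.index ≤ c ^ r := by
    have h0 : f.range.index ≠ 0 := AddSubgroup.index_ne_zero_of_finite
    have h1 : T'.index ≤ f.range.index := Nat.le_of_dvd (Nat.pos_of_ne_zero h0)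
      (AddSubgroup.index_dvd_of_le hle)
    refine h1.trans (hidx.le.trans (hker.trans ?_))
    rw [← pow_mul, mul_comm, pow_mul]
    refine Nat.pow_le_pow_left ?_ r
    rw [hce]
    exact Nat.le_mul_of_pos_right _ (Nat.pos_of_ne_zero (fun h => by
      rw [h, mul_zero] at hce; omega))
  -- representatives
  haveI : Finite (S ⧸ T') := inferInstance
  haveI : Fintype (S ⧸ T') := Fintype.ofFinite _
  refine ⟨Finset.univ.image (fun a : S ⧸ T' => ((Quotient.out a : S) : J)), ?_, ?_⟩
  · refine Finset.card_image_le.trans ?_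
    rw [Finset.card_univ, ← Nat.card_eq_fintype_card]
    exact hT'idx
  · intro x hx
    refine ⟨((Quotient.out (QuotientAddGroup.mk (s := T') ⟨x, hx⟩ : S ⧸ T') : S) : J),
      Finset.mem_image.mpr ⟨_, Finset.mem_univ _, rfl⟩, ?_⟩
    have h1 : (QuotientAddGroup.mk (s := T')
        (Quotient.out (QuotientAddGroup.mk (s := T') ⟨x, hx⟩ : S ⧸ T')) : S ⧸ T') =
        QuotientAddGroup.mk ⟨x, hx⟩ := Quotient.out_eq _
    rw [QuotientAddGroup.eq] at h1
    rw [hT', AddSubgroup.mem_addSubgroupOf] at h1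
    have h2 : x - ((Quotient.out (QuotientAddGroup.mk (s := T') ⟨x, hx⟩ : S ⧸ T') : S) : J) =
        ((-(Quotient.out (QuotientAddGroup.mk (s := T') ⟨x, hx⟩ : S ⧸ T')) + ⟨x, hx⟩ : S) : J) := by
      rw [AddSubgroup.coe_add, AddSubgroup.coe_neg]
      abel
    rw [h2]
    exact h1

end Fermat.Agent.Lib.S59
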