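/-
Programme (R2), node **[CAR]**, route R-DS′, helper9's request (C) of #3674 (helper3, prefix `s59u_`):
**the functional form of the reduction relation `s59m_Rel`** (`MRedN.lean`, main).

* `s59u_fun_of_rel` (abstract): an additive, `neg`-stable relation `R : X → Z → Prop` with `R 0 z → z = 0`, total on a
  subgroup `Fin ≤ X`, is the graph of a homomorphism `red : Fin →+ Z`, with `red x = 0 ↔ R x 0`;
* `s59u_red_of_Rel` : the instance for `s59m_Rel M q P hP n` (`q ∤ M`, `5 ≤ q`, `n ≠ 0` a unit of `P`):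
  `red_∞ : Fin →+ JZero M` with `s59m_Rel x (red_∞ x)`, `red_∞ x = 0 ↔ s59m_Rel x 0`, `n • red_∞ x = 0`, and
  Hecke-equivariance `red_∞ (T_ℓ x) = T_ℓ (red_∞ x)` (`ℓ ∤ M q`) when `Fin` is `T_ℓ`-stable.
-/
import Mathlib
import Fermat.Agent.Lib.S59.MRedN

set_option autoImplicit false
set_option linter.unusedSectionVars false
set_option linter.unusedVariables false
set_option linter.style.haveILetI false

namespace Fermat.Agent.Lib.S59

open ModularCurve AlgebraicCurve Fermat.Agent.Lib.FF Fermat.Agent.Lib.S29 Fermat.Agent.Lib.S33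
  Fermat.Agent.Lib.S37 Fermat.Agent.Lib.S44

noncomputable section

local notation "Kb" => AlgebraicClosure ℚ

/-- **a total additive relation with `R 0 z → z = 0` is the graph of a homomorphism.** -/
theorem s59u_fun_of_rel {X Z : Type*} [AddCommGroup X] [AddCommGroup Z] (R : X → Z → Prop)
    (hadd : ∀ x x' z z', R x z → R x' z' → R (x + x') (z + z'))
    (hneg : ∀ x z, R x z → R (-x) (-z))
    (hzero : ∀ z, R 0 z → z = 0)
    (Fin : AddSubgroup X) (hex : ∀ x ∈ Fin, ∃ z, R x z) :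
    ∃ red : Fin →+ Z, (∀ x : Fin, R x (red x)) ∧ (∀ (x : Fin) (z : Z), R x z → red x = z) ∧
      ∀ x : Fin, red x = 0 ↔ R x 0 := by
  classical
  have huniq : ∀ x z z', R x z → R x z' → z = z' := by
    intro x z z' h h'
    have h1 := hadd x (-x) z (-z') h (hneg x z' h')
    rw [add_neg_cancel] at h1
    exact sub_eq_zero.mp (by rw [sub_eq_add_neg]; exact hzero _ h1)
  choose f hf using fun x : Fin => hex x x.2
  have hf0 : f 0 = 0 := hzero _ (hf 0)
  have hfadd : ∀ x y : Fin, f (x + y) = f x + f y := fun x y =>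
    huniq _ _ _ (hf (x + y)) (hadd _ _ _ _ (hf x) (hf y))
  refine ⟨⟨⟨f, hf0⟩, hfadd⟩, hf, fun x z hz => huniq _ _ _ (hf x) hz, fun x => ⟨fun h => ?_, fun h => ?_⟩⟩
  · have := hf x
    rw [show f x = 0 from h] at this
    exact this
  · exact huniq _ _ _ (hf x) h

/-- **(C): the reduction map `red_∞ : Fin →+ J₀(M)` of the relation `s59m_Rel`.** -/
theorem s59u_red_of_Rel {M q : ℕ} [NeZero M] [hq : Fact q.Prime] (hqM : ¬ q ∣ M) (h5 : 5 ≤ q)
    {P : ValuationSubring Kb} {hP : P.LiesOverPrime q} {n : ℕ} (hn0 : n ≠ 0)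
    (hnP : IsUnit ((n : ℕ) : ↥P))
    (Fin : AddSubgroup (JZero (M * q))) (hex : ∀ x ∈ Fin, ∃ z, s59m_Rel M q P hP n x z) :
    ∃ red : Fin →+ JZero M, (∀ x : Fin, s59m_Rel M q P hP n x (red x)) ∧
      (∀ (x : Fin) (z : JZero M), s59m_Rel M q P hP n x z → red x = z) ∧
      (∀ x : Fin, red x = 0 ↔ s59m_Rel M q P hP n x 0) ∧
      (∀ x : Fin, n • red x = 0) ∧
      (∀ ℓ : Nat.Primes, ¬ (ℓ : ℕ) ∣ M * q → ∀ x x' : Fin,
        (x' : JZero (M * q)) = heckeOperatorBar (M * q) ℓ x →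
          red x' = heckeOperatorBar M ℓ (red x)) := by
  obtain ⟨red, h1, h2, h3⟩ := s59u_fun_of_rel (s59m_Rel M q P hP n)
    (fun x x' z z' h h' => h.add h')
    (fun x z h => by
      have := h.zsmul (-1)
      rwa [neg_one_zsmul, neg_one_zsmul] at this)
    (fun z h => h.zero_left hqM h5 hn0 hnP) Fin hex
  refine ⟨red, h1, h2, h3, fun x => ?_, fun ℓ hℓ x x' hx' => ?_⟩
  · obtain ⟨H, G, hH, hG, hgH, hH', hgG, hG', -⟩ := h1 x
    exact s33d_kumGen_tors hgG
  · haveI : Fact (ℓ : ℕ).Prime := ⟨ℓ.2⟩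
    have h4 : s59m_Rel M q P hP n (heckeOperatorBar (M * q) ℓ (x : JZero (M * q)))
        (heckeOperatorBar M ℓ (red x)) := (h1 x).hecke hqM (ℓ : ℕ) hℓ
    rw [← hx'] at h4
    exact h2 x' _ h4

end

end Fermat.Agent.Lib.S59
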