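/-
Programme (R2) / node **[CAR]**, leaf **[L-d]** (helper8, prefix `s59c_`): **THE COUNT DATA `s59m_CountData`** over the
concrete Kummer frame `s59m_kumFrameC` of exponent `p ^ K`, and its instance at helper9's canonical frame
`s59m_kumFrameU` = the leaf `hcount` of `s59m_pkgEAt_of_leaves` (`s59c_hcount`; for `ν₂(M) = ν₃(M) = 0`, from `hrat`).

* `s59c_Q4_congr`      : exact (Q4) is insensitive to `u ↦ c g ^ m u`;
* `s59c_fin_Q4`        : a Kummer generator over `L₀` of an (inertia-fixed) class has exact (Q4) (from `s59m_BaseQ4`);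
* `s59c_fin_rel`       : both reductions exist on unit, node-avoiding generators ([DIV-p] + `s59c_rel_exists_comp`);
* `s59c_torDat_of_rel` : `Rel x 0 ∧ Rel (w_q x) 0` give toric data (`s59c_tor_comp`);
* `s59c_exists_red`    : the map `red : Fin →+ J₀(M) × J₀(M)` with `red x = 0 → x ∈ Tor`;
* `s59c_exists_N`      : the map `N = n' (τ - 1)` (`τ` the tame generator, `n'` the number of geometric nodes): values in
  `Tor`, and `N x = 0 → n'² • x ∈ Fin` ([FIN-bound]);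
* `s59c_countData_C`   : the count data, loss `((q - 1) ψ(M))² ^ (2 g(M q))` ([KER-BOUND], (R1));
* `s59c_hcount`        : the leaf.
-/
import Fermat.Agent.Lib.S59.MCarTop
import Fermat.Agent.Lib.S59.CNodeRel
import Fermat.Agent.Lib.S59.CNodeTop
import Fermat.Agent.Lib.S59.CNodeFinC
import Fermat.Agent.Lib.S59.CNodeTame
import Fermat.Agent.Lib.S59.CNodeROne
import Fermat.Agent.Lib.S59.UCarKerBound
import Fermat.Agent.Lib.S59.UCarRed

set_option autoImplicit false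
set_option linter.unusedSectionVars false
set_option linter.style.haveILetI false
set_option linter.unusedVariables false
set_option synthInstance.maxHeartbeats 400000
set_option maxHeartbeats 1600000

noncomputable section

namespace Fermat.Agent.Lib.S59

open ModularCurve HahnSeries AlgebraicCurve Fermat.Agent.Lib.FF Fermat.Agent.Lib.S18
  Fermat.Agent.Lib.S28 Fermat.Agent.Lib.S29 Fermat.Agent.Lib.S37 Fermat.Agent.Lib.S34
  Fermat.Agent.Lib.S35 Fermat.Agent.Lib.S33 Fermat.Agent.Lib.S44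

local notation "Kb" => AlgebraicClosure ℚ
local notation "Γℚ" => (AlgebraicClosure ℚ ≃ₐ[ℚ] AlgebraicClosure ℚ)

section Q4

variable (M q m : ℕ) [NeZero M] [hq : Fact q.Prime] (hqM : ¬ q ∣ M) (P : ValuationSubring Kb)
  (L₀ : IntermediateField ℚ Kb) [IsDiscreteValuationRing ↥(s18q_A0 P L₀)]
  (ϖ : ↥(s18q_A0 P L₀)) (hϖ : Irreducible ϖ)

/-- exact (Q4) is insensitive to `u ↦ c · g ^ m · u`. -/
theorem s59c_Q4_congr (S : Set (Place ↥L₀ (s34m_F ↥L₀ (M * q)))) {u h g : s34m_F ↥L₀ (M * q)}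
    {c : ↥L₀} (hc : c ≠ 0) (hg : g ≠ 0) (hu0 : u ≠ 0)
    (e : h = algebraMap ↥L₀ (s34m_F ↥L₀ (M * q)) c * g ^ m * u)
    (hQ : s59n_Q4 M q m hqM P L₀ ϖ hϖ S u) : s59n_Q4 M q m hqM P L₀ ϖ hϖ S h := by
  intro 𝔫 h𝔫 hϖ𝔫
  obtain ⟨Φ, hΦ0, hΦ⟩ := hQ 𝔫 h𝔫 hϖ𝔫
  refine ⟨g * Φ, mul_ne_zero hg hΦ0, fun Q hQS hth => ?_⟩
  have hc' : algebraMap ↥L₀ (s34m_F ↥L₀ (M * q)) c ≠ 0 := (_root_.map_ne_zero _).mpr hc
  rw [e, Q.ord_mul (mul_ne_zero hc' (pow_ne_zero _ hg)) hu0, Q.ord_mul hc' (pow_ne_zero _ hg),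
    ff_ord_algebraMap, zero_add, ← zpow_natCast, Q.ord_zpow, hΦ Q hQS hth, Q.ord_mul hg hΦ0]
  ring

end Q4

section Frame

variable (M q : ℕ) [NeZero M] [hq : Fact q.Prime] (hqM : ¬ q ∣ M) (h5 : 5 ≤ q)
  (p : ℕ) [hp : Fact p.Prime] (hpq : p ≠ q) (K : ℕ)
  (P : ValuationSubring Kb) (hP : P.LiesOverPrime q)
  (L₀ : IntermediateField ℚ Kb) [FiniteDimensional ℚ ↥L₀] [IsDiscreteValuationRing ↥(s18q_A0 P L₀)]
  (ϖ : ↥(s18q_A0 P L₀)) (hϖ : Irreducible ϖ)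
  [NumberField ↥L₀] [CharP (IsLocalRing.ResidueField ↥(s18q_A0 P L₀)) q]
  [PerfectField (IsLocalRing.ResidueField ↥(s18q_A0 P L₀))]
  [IsDiscreteValuationRing ↥(s37r_G P L₀ ϖ hϖ).A]
  (hdeg : s34m_HDeg ↥L₀ M q) (hT : s18g_HT (IsLocalRing.ResidueField ↥(s18q_A0 P L₀)) M)
  (hdegM : s18g_HDeg ↥L₀ M) (hπ : Function.Surjective (s37r_G P L₀ ϖ hϖ).π)
  (e : ℕ) (ε : ↥L₀) (he : 0 < e) (hε : ε ∈ (s37r_G P L₀ ϖ hϖ).A)
  (hεinv : ε⁻¹ ∈ (s37r_G P L₀ ϖ hϖ).A) (hε0 : ε ≠ 0)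
  (hqe : (q : ↥L₀) = ε * (((s37r_G P L₀ ϖ hϖ).ϖ : (s37r_G P L₀ ϖ hϖ).A) : ↥L₀) ^ e)
  (hperf : ∀ c : IsLocalRing.ResidueField ↥(s18q_A0 P L₀), ∃ d, d ^ q = c)
  (hunr : ∀ τ ∈ P.inertiaSubgroupIn ℚ, ∀ a ∈ L₀, τ a = a)
  (hQ : s59m_BaseQ4 M q p K hqM P L₀)

set_option quotPrecheck false

local notation "GG" => s37r_G P L₀ ϖ hϖ
local notation "OO" => s34m_VV (s37r_G P L₀ ϖ hϖ) (algebraMap ↥L₀ Kb) M q hq.out hqM
local notation "ϖF" => s34m_unif (s37r_G P L₀ ϖ hϖ) (M * q)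
local notation "S₁" => s18_chart1 (L₀ := ↥L₀) (s18g_jF (K := ↥L₀) (M * q))
local notation "S₂" => s18_chart2 (L₀ := ↥L₀) (s18g_jF (K := ↥L₀) (M * q))
local notation "FC" => s59m_kumFrameC M q hqM h5 (p ^ K) (s59m_pK_ne p K)
  (s59m_q_ndvd_pK q p hpq K) P hP L₀ ϖ hϖ hdeg hT hdegM hπ e ε he hε hεinv hε0 hqe hperf
local notation "ZC" => s59m_Zc M q hqM h5 P L₀ ϖ hϖ hdeg hT hdegM hπ e ε he hε hεinv hε0 hqe hperf

include hunr in
/-- a class with a Kummer generator over `L₀` is fixed by the inertia group. -/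
theorem s59c_inertia_fixed_of_genC {x : JZero (M * q)} {h : s34m_F ↥L₀ (M * q)}
    (hg : s59m_genC (M * q) (p ^ K) L₀ x h) : ∀ τ ∈ P.inertiaSubgroupIn ℚ, τ • x = x :=
  fun τ hτ => s59c_fixed_of_genC (M * q) (p ^ K) L₀ (s59m_pK_ne p K) hg τ (hunr τ hτ)

include hunr hQ in
/-- **a finite point has a generator with exact (Q4)**: the unit, node-avoiding generator itself. -/
theorem s59c_fin_Q4 {x : JZero (M * q)} {h : s34m_F ↥L₀ (M * q)}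
    (hg : s59m_genC (M * q) (p ^ K) L₀ x h) (hh0 : h ≠ 0) :
    s59n_Q4 M q (p ^ K) hqM P L₀ ϖ hϖ S₁ h ∧ s59n_Q4 M q (p ^ K) hqM P L₀ ϖ hϖ S₂ h := by
  have hx : (p ^ K) • x = 0 := s59m_isKumGen_tors hg
  obtain ⟨u, hu, hu1, hu2⟩ := hQ.q4 x hx
    (s59c_inertia_fixed_of_genC M q p K P L₀ hunr hg) ϖ hϖ
  haveI : NeZero (p ^ K) := ⟨s59m_pK_ne p K⟩
  obtain ⟨c, g, hc, hg0, e1⟩ := s59m_kum0_of_same_class_n (M * q) (p ^ K) L₀ hu hg
  have hu0 : u ≠ 0 := by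
    rintro rfl
    apply hh0
    rw [e1, mul_zero]
  exact ⟨s59c_Q4_congr M q (p ^ K) hqM P L₀ ϖ hϖ S₁ hc hg0 hu0 e1 hu1,
    s59c_Q4_congr M q (p ^ K) hqM P L₀ ϖ hϖ S₂ hc hg0 hu0 e1 hu2⟩

include h5 hpq hP hunr hQ hπ hdeg hT hdegM in
/-- **the two reductions exist on generators which are units and node-avoiding.** -/
theorem s59c_fin_rel {x : JZero (M * q)} {h : s34m_F ↥L₀ (M * q)}
    (hg : s59m_genC (M * q) (p ^ K) L₀ x h)
    (hI : h ∈ s34m_Vinf GG (M * q)) (hI' : h⁻¹ ∈ s34m_Vinf GG (M * q))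
    (hZ : h ∈ s34m_Vzero GG (algebraMap ↥L₀ Kb) M q hq.out hqM)
    (hZ' : h⁻¹ ∈ s34m_Vzero GG (algebraMap ↥L₀ Kb) M q hq.out hqM)
    (hnode : ∀ Q ∈ s33s_nodePlaces OO ϖF S₁, Q.ord h = 0) :
    haveI : NeZero q := ⟨hq.out.ne_zero⟩
    (∃ z : JZero M, s59m_Rel M q P hP (p ^ K) x z) ∧
      ∃ z : JZero M, s59m_Rel M q P hP (p ^ K) (s59m_wq M q hq.out hqM x) z := by
  haveI : NeZero q := ⟨hq.out.ne_zero⟩
  have hh0 : h ≠ 0 := by
    intro h0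
    apply hg.1
    rw [h0, map_zero]
  obtain ⟨hQ4₁, hQ4₂⟩ := s59c_fin_Q4 M q hqM p K P L₀ ϖ hϖ hunr hQ hg hh0
  obtain ⟨hdivI, hdivZ⟩ := s59m_div_p M q hqM h5 ↥L₀ (algebraMap ↥L₀ Kb)
    (IsLocalRing.ResidueField ↥(s18q_A0 P L₀)) GG hdeg hT hdegM hπ (p ^ K) h hh0 hI hI'
    hZ hZ' hnode hQ4₁ hQ4₂
  constructor
  · exact s59c_rel_exists_comp M q hqM h5 p hpq K P hP L₀ ϖ hϖ x h hg hI hI'
      (s33y_redI GG (algebraMap ↥L₀ Kb) M q hqM hdeg hT hdegM ⟨h, hI⟩) rfl hdivI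
  · have hI₂ : s34m_al (algebraMap ↥L₀ Kb) M q hq.out hqM h ∈ s34m_Vinf GG (M * q) :=
      (s34m_mem_Vzero GG (algebraMap ↥L₀ Kb) M q hq.out hqM h).mp hZ
    have hI₂' : (s34m_al (algebraMap ↥L₀ Kb) M q hq.out hqM h)⁻¹ ∈ s34m_Vinf GG (M * q) := by
      have := (s34m_mem_Vzero GG (algebraMap ↥L₀ Kb) M q hq.out hqM h⁻¹).mp hZ'
      rwa [map_inv₀] at this
    exact s59c_rel_exists_comp M q hqM h5 p hpq K P hP L₀ ϖ hϖ
      (s59m_wq M q hq.out hqM x) (s34m_al (algebraMap ↥L₀ Kb) M q hq.out hqM h)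
      (s59m_kumGen_wq M q hqM (p ^ K) L₀ x h hg) hI₂ hI₂'
      (s33y_redZ GG (algebraMap ↥L₀ Kb) M q hqM hdeg hT hdegM ⟨h, hZ⟩) rfl hdivZ

include hpq hP in
/-- **toric data from the two relations with `0`.** -/
theorem s59c_torDat_of_rel {x : JZero (M * q)} {h : s34m_F ↥L₀ (M * q)}
    (hg : s59m_genC (M * q) (p ^ K) L₀ x h)
    (hI : h ∈ s34m_Vinf GG (M * q)) (hI' : h⁻¹ ∈ s34m_Vinf GG (M * q))
    (hZ : h ∈ s34m_Vzero GG (algebraMap ↥L₀ Kb) M q hq.out hqM)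
    (hZ' : h⁻¹ ∈ s34m_Vzero GG (algebraMap ↥L₀ Kb) M q hq.out hqM)
    (hnf : s33z_NF ZC h)
    (hr1 : s59m_Rel M q P hP (p ^ K) x 0)
    (hr2 : haveI : NeZero q := ⟨hq.out.ne_zero⟩
      s59m_Rel M q P hP (p ^ K) (s59m_wq M q hq.out hqM x) 0) :
    Nonempty (s59m_TorDat ZC (p ^ K) h) := by
  haveI : NeZero q := ⟨hq.out.ne_zero⟩
  obtain ⟨ci, ai, hci, hai, ei⟩ := s59c_tor_comp M q hqM p hpq K P hP L₀ ϖ hϖ x hr1 h hg hI hI'
    (s33y_redI GG (algebraMap ↥L₀ Kb) M q hqM hdeg hT hdegM ⟨h, hI⟩) rfl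
  have hI₂ : s34m_al (algebraMap ↥L₀ Kb) M q hq.out hqM h ∈ s34m_Vinf GG (M * q) :=
    (s34m_mem_Vzero GG (algebraMap ↥L₀ Kb) M q hq.out hqM h).mp hZ
  have hI₂' : (s34m_al (algebraMap ↥L₀ Kb) M q hq.out hqM h)⁻¹ ∈ s34m_Vinf GG (M * q) := by
    have := (s34m_mem_Vzero GG (algebraMap ↥L₀ Kb) M q hq.out hqM h⁻¹).mp hZ'
    rwa [map_inv₀] at this
  obtain ⟨cz, az, hcz, haz, ez⟩ := s59c_tor_comp M q hqM p hpq K P hP L₀ ϖ hϖ
    (s59m_wq M q hq.out hqM x) hr2 (s34m_al (algebraMap ↥L₀ Kb) M q hq.out hqM h)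
    (s59m_kumGen_wq M q hqM (p ^ K) L₀ x h hg) hI₂ hI₂'
    (s33y_redZ GG (algebraMap ↥L₀ Kb) M q hqM hdeg hT hdegM ⟨h, hZ⟩) rfl
  refine ⟨⟨hI, hI', hZ, hZ', hnf, ci, cz, ⟨ai, hai⟩, ⟨az, haz⟩, hci, hcz, ?_, ?_⟩⟩
  · apply Subtype.ext
    refine Eq.trans (b := s34m_redInf GG (M * q) ⟨h, hI⟩) rfl ?_
    rw [ei]
    show _ = algebraMap _ (LaurentSeries _) ci * ai ^ (p ^ K)
    rw [algebraMap_laurentSeries_eq_single, HahnSeries.C_apply]
  · apply Subtype.ext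
    refine Eq.trans
      (b := s34m_redInf GG (M * q) ⟨s34m_al (algebraMap ↥L₀ Kb) M q hq.out hqM h, hI₂⟩) rfl ?_
    rw [ez]
    show _ = algebraMap _ (LaurentSeries _) cz * az ^ (p ^ K)
    rw [algebraMap_laurentSeries_eq_single, HahnSeries.C_apply]

include h5 hpq hP hunr hQ hπ hdeg hT hdegM he hε hεinv hε0 hqe hperf in
/-- **the two reductions on the finite points**, with `red x = 0 → x` toric. -/
theorem s59c_exists_red :
    ∃ red : (FC).Fin →+ JZero M × JZero M,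
      (∀ x : (FC).Fin, (p ^ K) • (red x).1 = 0 ∧ (p ^ K) • (red x).2 = 0) ∧
      ∀ x : (FC).Fin, red x = 0 → (x : JZero (M * q)) ∈ (FC).Tor := by
  haveI : NeZero q := ⟨hq.out.ne_zero⟩
  have hn0 : p ^ K ≠ 0 := s59m_pK_ne p K
  have hnP : IsUnit (((p ^ K : ℕ) : ℕ) : ↥P) := s59m_isUnit_pk q p hpq K P hP
  have hfin : ∀ x ∈ (FC).Fin, ∃ h : s34m_F ↥L₀ (M * q), s59m_genC (M * q) (p ^ K) L₀ x h ∧
      s59m_UnitNF ZC h := fun x hx => hx
  have hex : ∀ x ∈ (FC).Fin, (∃ z : JZero M, s59m_Rel M q P hP (p ^ K) x z) ∧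
      ∃ z : JZero M, s59m_Rel M q P hP (p ^ K) (s59m_wq M q hq.out hqM x) z := by
    intro x hx
    obtain ⟨h, hg, hu⟩ := hfin x hx
    exact s59c_fin_rel M q hqM h5 p hpq K P hP L₀ ϖ hϖ hdeg hT hdegM hπ hunr hQ hg hu.hi hu.hi'
      hu.hz hu.hz' hu.nf.2
  obtain ⟨red1, h11, h12, h13, h14, -⟩ := s59u_red_of_Rel hqM h5 (P := P) (hP := hP) hn0 hnP
    (FC).Fin (fun x hx => (hex x hx).1)
  obtain ⟨red2, h21, h22, h23⟩ := s59u_fun_of_rel
    (fun (x : JZero (M * q)) (z : JZero M) =>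
      s59m_Rel M q P hP (p ^ K) (s59m_wq M q hq.out hqM x) z)
    (fun x x' z z' h h' => by
      show s59m_Rel M q P hP (p ^ K) (s59m_wq M q hq.out hqM (x + x')) (z + z')
      rw [map_add]
      exact h.add h')
    (fun x z h => by
      show s59m_Rel M q P hP (p ^ K) (s59m_wq M q hq.out hqM (-x)) (-z)
      rw [map_neg]
      have := s59m_Rel.zsmul (-1) h
      rwa [neg_one_zsmul, neg_one_zsmul] at this)
    (fun z h => by
      have h' : s59m_Rel M q P hP (p ^ K) (s59m_wq M q hq.out hqM 0) z := h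
      rw [map_zero] at h'
      exact h'.zero_left hqM h5 hn0 hnP)
    (FC).Fin (fun x hx => (hex x hx).2)
  refine ⟨red1.prod red2, fun x => ⟨h14 x, ?_⟩, fun x hx0 => ?_⟩
  · obtain ⟨H, G, hH, hG, hgH, hH', hgG, hG', -⟩ := h21 x
    exact s33d_kumGen_tors hgG
  · have e1 : red1 x = 0 := congrArg Prod.fst hx0
    have e2 : red2 x = 0 := congrArg Prod.snd hx0
    have hr1 : s59m_Rel M q P hP (p ^ K) (x : JZero (M * q)) 0 := (h13 x).mp e1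
    have hr2 : s59m_Rel M q P hP (p ^ K) (s59m_wq M q hq.out hqM (x : JZero (M * q))) 0 :=
      (h23 x).mp e2
    obtain ⟨h, hg, hu⟩ := hfin x x.2
    obtain ⟨t⟩ := s59c_torDat_of_rel M q hqM h5 p hpq K P hP L₀ ϖ hϖ hdeg hT hdegM hπ e ε he hε
      hεinv hε0 hqe hperf hg hu.hi hu.hi' hu.hz hu.hz' hu.nf hr1 hr2
    exact (FC).mem_tor_of_dat hg t

include hpq hP hunr hQ hdeg hT hdegM hπ he hε hεinv hε0 hqe hperf in
/-- the (Q4)-generator of an inertia-fixed point makes `n' •` of it finite. -/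
theorem s59c_fin_of_fixed (h2 : nuTwo M = 0) (h3 : nuThree M = 0)
    (hϖq : ((ϖ : ↥(s18q_A0 P L₀)) : ↥L₀) = (q : ↥L₀))
    (T : Finset (s33s_Node OO ϖF S₁)) (hTall : ∀ s, s ∈ T)
    {y : JZero (M * q)} (hy : (p ^ K) • y = 0) (hfix : ∀ τ ∈ P.inertiaSubgroupIn ℚ, τ • y = y) :
    (∑ s ∈ T, Module.finrank (IsLocalRing.ResidueField ↥(s18q_A0 P L₀))
        (s33s_kG GG (algebraMap ↥L₀ Kb) M q hqM S₁ hπ s)) • y ∈ (FC).Fin := by
  obtain ⟨u, hu, hu1, hu2⟩ := hQ.q4 y hy hfix ϖ hϖ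
  exact s59c_fin_bound M q hqM h5 (p ^ K) (s59m_pK_ne p K) (s59m_q_ndvd_pK q p hpq K) P hP L₀ ϖ hϖ
    hdeg hT hdegM hπ e ε he hε hεinv hε0 hqe hperf h2 h3 hϖq y u hu hu1 hu2 T hTall

include h5 hpq hP hunr hQ hdeg hT hdegM hπ he hε hεinv hε0 hqe hperf in
/-- a finite point in relation with `0` on both components is toric. -/
theorem s59c_tor_of_fin_rel {x : JZero (M * q)} (hx : x ∈ (FC).Fin)
    (hr1 : s59m_Rel M q P hP (p ^ K) x 0)
    (hr2 : haveI : NeZero q := ⟨hq.out.ne_zero⟩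
      s59m_Rel M q P hP (p ^ K) (s59m_wq M q hq.out hqM x) 0) : x ∈ (FC).Tor := by
  haveI : NeZero q := ⟨hq.out.ne_zero⟩
  have hfin : ∃ h : s34m_F ↥L₀ (M * q), s59m_genC (M * q) (p ^ K) L₀ x h ∧
      s59m_UnitNF ZC h := hx
  obtain ⟨h, hg, hu⟩ := hfin
  obtain ⟨t⟩ := s59c_torDat_of_rel M q hqM h5 p hpq K P hP L₀ ϖ hϖ hdeg hT hdegM hπ e ε he hε
    hεinv hε0 hqe hperf hg hu.hi hu.hi' hu.hz hu.hz' hu.nf hr1 hr2
  exact (FC).mem_tor_of_dat hg t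

include h5 hpq hP hunr hQ hdeg hT hdegM hπ he hε hεinv hε0 hqe hperf in
/-- **the map `N = n' (τ - 1)`**: values in the toric points, kernel `n'²`-close to the finite points. -/
theorem s59c_exists_N (h2 : nuTwo M = 0) (h3 : nuThree M = 0)
    (hϖq : ((ϖ : ↥(s18q_A0 P L₀)) : ↥L₀) = (q : ↥L₀))
    (T : Finset (s33s_Node OO ϖF S₁)) (hTall : ∀ s, s ∈ T) :
    ∃ N : JZero (M * q) →+ JZero (M * q),
      (∀ x : JZero (M * q), (p ^ K) • x = 0 → N x ∈ (FC).Tor) ∧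
      ∀ x : JZero (M * q), (p ^ K) • x = 0 → N x = 0 →
        ((∑ s ∈ T, Module.finrank (IsLocalRing.ResidueField ↥(s18q_A0 P L₀))
          (s33s_kG GG (algebraMap ↥L₀ Kb) M q hqM S₁ hπ s)) *
         (∑ s ∈ T, Module.finrank (IsLocalRing.ResidueField ↥(s18q_A0 P L₀))
          (s33s_kG GG (algebraMap ↥L₀ Kb) M q hqM S₁ hπ s))) • x ∈ (FC).Fin := by
  haveI : NeZero q := ⟨hq.out.ne_zero⟩
  set n' := ∑ s ∈ T, Module.finrank (IsLocalRing.ResidueField ↥(s18q_A0 P L₀))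
    (s33s_kG GG (algebraMap ↥L₀ Kb) M q hqM S₁ hπ s) with hn'
  have hqN : q ∣ M * q := Dvd.intro_left M rfl
  have hq2 : ¬ q ^ 2 ∣ M * q := by
    intro hd
    rw [pow_two] at hd
    exact hqM (Nat.dvd_of_mul_dvd_mul_right hq.out.pos hd)
  obtain ⟨τ, hτ, hgen⟩ := s59c_exists_tau (M * q) q hq.out hqN hq2 P hP p hp.out hpq K
  refine ⟨s59c_Nmap (M * q) τ n', fun x hx => ?_, fun x hx hN => ?_⟩
  · -- `N x` is toric
    have hy : (p ^ K) • (τ • x - x) = 0 := by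
      rw [nsmul_sub, s59c_tors_smul τ hx, hx, sub_zero]
    have hyfix : ∀ σ ∈ P.inertiaSubgroupIn ℚ, σ • (τ • x - x) = τ • x - x := fun σ hσ =>
      s59c_tau_sub_fixed (M * q) q hq.out hqN hq2 P hP p hp.out hpq K hτ hgen hx hσ
    have hfin : n' • (τ • x - x) ∈ (FC).Fin :=
      s59c_fin_of_fixed M q hqM h5 p hpq K P hP L₀ ϖ hϖ hdeg hT hdegM hπ e ε he hε hεinv hε0 hqe
        hperf hunr hQ h2 h3 hϖq T hTall hy hyfix
    have hr1 : s59m_Rel M q P hP (p ^ K) (n' • (τ • x - x)) 0 := by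
      have := s59m_Rel.zsmul (n' : ℤ) (s59c_rel_tau_sub M P hP (p ^ K) hτ x hx)
      rwa [natCast_zsmul, smul_zero] at this
    have hr2 : s59m_Rel M q P hP (p ^ K) (s59m_wq M q hq.out hqM (n' • (τ • x - x))) 0 := by
      have hwx : (p ^ K) • s59m_wq M q hq.out hqM x = 0 := by
        rw [← map_nsmul, hx, map_zero]
      have := s59m_Rel.zsmul (n' : ℤ)
        (s59c_rel_tau_sub M P hP (p ^ K) hτ (s59m_wq M q hq.out hqM x) hwx)
      rw [natCast_zsmul, smul_zero] at this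
      rw [map_nsmul, map_sub, s59m_wq_smul]
      exact this
    rw [s59c_Nmap_apply]
    exact s59c_tor_of_fin_rel M q hqM h5 p hpq K P hP L₀ ϖ hϖ hdeg hT hdegM hπ e ε he hε hεinv hε0
      hqe hperf hunr hQ hfin hr1 hr2
  · -- the kernel
    have hfix : ∀ σ ∈ P.inertiaSubgroupIn ℚ, σ • (n' • x) = n' • x := fun σ hσ =>
      s59c_Nmap_ker_fixed (M * q) q hq.out hqN hq2 P hP p hp.out hpq K hτ hgen n' hx hN hσ
    have hy : (p ^ K) • (n' • x) = 0 := by rw [smul_comm, hx, smul_zero]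
    have hfin : n' • (n' • x) ∈ (FC).Fin :=
      s59c_fin_of_fixed M q hqM h5 p hpq K P hP L₀ ϖ hϖ hdeg hT hdegM hπ e ε he hε hεinv hε0 hqe
        hperf hunr hQ h2 h3 hϖq T hTall hy hfix
    rwa [← mul_smul] at hfin

/-- a bijective structure map has rank one. -/
theorem s59c_finrank_of_bijective {κ k : Type*} [Field κ] [Field k] [Algebra κ k]
    (h : Function.Bijective (algebraMap κ k)) : Module.finrank κ k = 1 := by
  have e : κ ≃ₗ[κ] k := LinearEquiv.ofBijective (Algebra.linearMap κ k) h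
  rw [← e.finrank_eq, Module.finrank_self]

/-- the torsion count in the shape of `s59u_ker_bound`. -/
theorem s59c_card_ptors (N : ℕ) [NeZero N] :
    Finite {x : JZero N // p • x = 0} ∧
      Nat.card {x : JZero N // p • x = 0} ≤ p ^ (2 * genusFF Kb (ffi_F N)) := by
  haveI : NeZero (p ^ 1) := ⟨pow_ne_zero 1 hp.out.ne_zero⟩
  have e : {x : JZero N // p • x = 0} ≃ ↥(Pic0.torsion Kb (modularFunctionFieldBar N) (p ^ 1)) :=
    Equiv.subtypeEquivRight fun x => by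
      rw [Pic0.mem_torsion, natCast_zsmul, pow_one]
  haveI : Finite ↥(Pic0.torsion Kb (modularFunctionFieldBar N) (p ^ 1)) :=
    Fermat.Agent.Lib.S30.s30a_finite_torsion N (p ^ 1)
  refine ⟨Finite.of_equiv _ e.symm, ?_⟩
  rw [Nat.card_congr e]
  have := Fermat.Agent.Lib.S15.m15k_card_Jp N p 1
  rw [mul_one] at this
  exact this.le

include h5 hpq hP hunr hQ hdeg hT hdegM hπ he hε hεinv hε0 hqe hperf in
/-- **[L-d]: THE COUNT DATA** over the Kummer frame `s59m_kumFrameC` of exponent `p ^ K` (nodes rational over `κ₀`,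
`ν₂(M) = ν₃(M) = 0`, `ϖ = q`), with the loss `((q - 1) ψ(M))² ^ (2 g(M q))`. -/
theorem s59c_countData_C (h2 : nuTwo M = 0) (h3 : nuThree M = 0)
    (hϖq : ((ϖ : ↥(s18q_A0 P L₀)) : ↥L₀) = (q : ↥L₀))
    (hratN : ∀ s : s33s_Node OO ϖF S₁,
      Function.Bijective (algebraMap (IsLocalRing.ResidueField ↥(s18q_A0 P L₀))
        (s33s_kG GG (algebraMap ↥L₀ Kb) M q hqM S₁ hπ s))) :
    haveI : NeZero q := ⟨hq.out.ne_zero⟩
    Nonempty (s59m_CountData M q p K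
      ((((q - 1) * dedekindPsi M) ^ 2) ^ (2 * genusFF Kb (ffi_F (M * q))))
      (Nat.card (s33s_Node OO ϖF S₁)) (FC).Tor) := by
  classical
  haveI : NeZero q := ⟨hq.out.ne_zero⟩
  haveI hfinN : Finite (s33s_Node OO ϖF S₁) :=
    s59c_finite_node M q hqM h5 ↥L₀ (algebraMap ↥L₀ Kb) (IsLocalRing.ResidueField ↥(s18q_A0 P L₀))
      GG hπ
  letI : Fintype (s33s_Node OO ϖF S₁) := Fintype.ofFinite _
  set n' := ∑ s ∈ (Finset.univ : Finset (s33s_Node OO ϖF S₁)),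
    Module.finrank (IsLocalRing.ResidueField ↥(s18q_A0 P L₀))
      (s33s_kG GG (algebraMap ↥L₀ Kb) M q hqM S₁ hπ s) with hn'
  have hn'card : n' = Nat.card (s33s_Node OO ϖF S₁) := by
    rw [hn', Finset.sum_congr rfl (fun s _ => s59c_finrank_of_bijective (hratN s)),
      Finset.sum_const, smul_eq_mul, mul_one, Finset.card_univ, Nat.card_eq_fintype_card]
  have hn'1 : 1 ≤ n' := by
    rw [hn'card]
    obtain ⟨𝔫, h𝔫⟩ := s33s_inst_exists_node GG (algebraMap ↥L₀ Kb) M q hq.out hqM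
    haveI : Nonempty (s33s_Node OO ϖF S₁) := ⟨⟨𝔫, h𝔫⟩⟩
    exact Nat.one_le_iff_ne_zero.mpr Nat.card_pos.ne'
  have hn'le : n' ≤ (q - 1) * dedekindPsi M := by
    rw [hn'card]
    have := s59c_card_node_le M q hqM h5 ↥L₀ (algebraMap ↥L₀ Kb)
      (IsLocalRing.ResidueField ↥(s18q_A0 P L₀)) GG hπ h2 h3 hϖq hratN
    omega
  obtain ⟨red, hred1, hred2⟩ := s59c_exists_red M q hqM h5 p hpq K P hP L₀ ϖ hϖ hdeg hT hdegM hπ
    e ε he hε hεinv hε0 hqe hperf hunr hQ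
  obtain ⟨N, hN1, hN2⟩ := s59c_exists_N M q hqM h5 p hpq K P hP L₀ ϖ hϖ hdeg hT hdegM hπ
    e ε he hε hεinv hε0 hqe hperf hunr hQ h2 h3 hϖq Finset.univ (fun s => Finset.mem_univ s)
  obtain ⟨hfinp, hcardp⟩ := s59c_card_ptors p (M * q)
  set S : AddSubgroup (JZero (M * q)) := (nsmulAddMonoidHom (p ^ K)).ker ⊓ N.ker with hS
  have hSmem : ∀ x, x ∈ S ↔ (p ^ K) • x = 0 ∧ N x = 0 := fun x => by
    rw [hS, AddSubgroup.mem_inf, AddMonoidHom.mem_ker, AddMonoidHom.mem_ker,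
      nsmulAddMonoidHom_apply]
  obtain ⟨R, hRcard, hR⟩ := s59u_ker_bound p (2 * genusFF Kb (ffi_F (M * q))) K hp.out hfinp
    hcardp (FC).Fin S (fun x hx => ((hSmem x).mp hx).1) (n' * n') (Nat.mul_le_mul hn'1 hn'1)
    (fun x hx => hN2 x ((hSmem x).mp hx).1 ((hSmem x).mp hx).2)
  refine ⟨{
    Fin := (FC).Fin
    fin_exp := fun x hx => (FC).fin_exp hx
    tor_le := (FC).tor_le_fin
    red := red
    red_exp := hred1
    red_ker := hred2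
    N := N
    N_mem := hN1
    N_ker := ⟨R, hRcard.trans ?_, fun x hx hNx => hR x ((hSmem x).mpr ⟨hx, hNx⟩)⟩
    r1 := s59c_r1 M q hqM h5 ↥L₀ (algebraMap ↥L₀ Kb)
      (IsLocalRing.ResidueField ↥(s18q_A0 P L₀)) GG hπ h2 h3 hϖq hratN }⟩
  apply Nat.pow_le_pow_left
  rw [pow_two]
  exact Nat.mul_le_mul hn'le hn'le

end Frame

section Canon

variable (M q p : ℕ) [NeZero M] [hq : Fact q.Prime] [hp : Fact p.Prime] (hqM : ¬ q ∣ M)
  (h5 : 5 ≤ q) (hpq : p ≠ q)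

include hpq in
/-- **[L-d] = the leaf `hcount` of `s59m_pkgEAt_of_leaves`** (for `ν₂(M) = ν₃(M) = 0`), from the leaf `hrat` ([L-e]). -/
theorem s59c_hcount (h2 : nuTwo M = 0) (h3 : nuThree M = 0)
    (hrat : ∀ (P : ValuationSubring Kb) (hP : P.LiesOverPrime q) (L₀ : IntermediateField ℚ Kb)
      [FiniteDimensional ℚ ↥L₀] [CharP (IsLocalRing.ResidueField ↥(s18q_A0 P L₀)) q]
      [PerfectField (IsLocalRing.ResidueField ↥(s18q_A0 P L₀))]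
      (hunr : ∀ τ ∈ P.inertiaSubgroupIn ℚ, ∀ a ∈ L₀, τ a = a),
      (∃ ζ : Kb, ζ ∈ L₀ ∧ IsPrimitiveRoot ζ (q ^ 2 - 1)) →
      ∀ s : s59m_NodeU M q hqM P hP L₀ hunr,
        Function.Bijective (algebraMap (IsLocalRing.ResidueField ↥(s18q_A0 P L₀))
          (s33s_kG (@s37r_G P L₀ (s18q_A0_dvr P L₀ hP) ((q : ℕ) : ↥(s18q_A0 P L₀))
            (s59m_q_irreducible q P hP L₀ hunr)) (algebraMap ↥L₀ Kb) M q hqM
            (s18_chart1 (L₀ := ↥L₀) (s18g_jF (K := ↥L₀) (M * q))) IsLocalRing.residue_surjective s))) :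
    ∀ (P : ValuationSubring Kb) (hP : P.LiesOverPrime q), ∃ C : ℕ, ∀ (K : ℕ)
      (L₀ : IntermediateField ℚ Kb) [FiniteDimensional ℚ ↥L₀]
      [CharP (IsLocalRing.ResidueField ↥(s18q_A0 P L₀)) q]
      [PerfectField (IsLocalRing.ResidueField ↥(s18q_A0 P L₀))]
      (hB : haveI : NeZero q := ⟨hq.out.ne_zero⟩; s59m_Base M q p K P L₀)
      (hQ : s59m_BaseQ4 M q p K hqM P L₀),
      haveI : NeZero q := ⟨hq.out.ne_zero⟩
      Nonempty (s59m_CountData M q p K C (Nat.card (s59m_NodeU M q hqM P hP L₀ hB.unr))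
        (s59m_kumFrameU M q hqM h5 P hP L₀ hB.unr (p ^ K) (s59m_pK_ne p K)
          (s59m_q_ndvd_pK q p hpq K)).Tor) := by
  intro P hP
  refine ⟨(((q - 1) * dedekindPsi M) ^ 2) ^ (2 * genusFF Kb (ffi_F (M * q))), ?_⟩
  intro K L₀ _ _ _ hB hQ
  exact @s59c_countData_C M q _ hq hqM h5 p hp hpq K P hP L₀ _ (s18q_A0_dvr P L₀ hP)
    ((q : ℕ) : ↥(s18q_A0 P L₀)) (s59m_q_irreducible q P hP L₀ hB.unr) ⟨⟩ _ _
    (s18q_A0_dvr P L₀ hP) (s59m_hdeg_U M q hqM L₀) (s59m_hT_U M q P L₀ hqM)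
    (fun n b hb hn => s18g_exists_relation M (algebraMap ↥L₀ Kb) hn b hb)
    IsLocalRing.residue_surjective 1 1 one_pos (one_mem _) (by rw [inv_one]; exact one_mem _)
    one_ne_zero (by rw [one_mul, pow_one]; rfl) (s59m_hperf_U q P L₀) hB.unr hQ h2 h3 rfl
    (hrat P hP L₀ hB.unr hB.zeta2)

end Canon

end Fermat.Agent.Lib.S59
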