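/-
Programme (R2), node [CAR] at `q ∈ {2, 3}`, helper8 (prefix `s59c_`): **GOOD-LEVEL TWINS OF THE REDUCTION RELATION LEMMAS**
(`5 ≤ q` replaced by `s18_GoodLevel q M`; in `MRedN.lean`, `UCarRed.lean`, `CNodeRel.lean` the hypothesis `5 ≤ q` only
feeds `s18_GoodLevel`).

* `s59c_Rel_zero_left_G`   : `Rel 0 z → z = 0`;
* `s59c_Rel_exists_G`      : existence of the reduction;
* `s59c_red_of_Rel_G`      : the functional form `red_∞ : Fin →+ J₀(M)`;
* `s59c_rel_exists_comp_G` : existence of the reduction, one component over a finite level.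
-/
import Fermat.Agent.Lib.S59.CNodeRel
import Fermat.Agent.Lib.S59.UCarRed

set_option autoImplicit false
set_option linter.unusedSectionVars false
set_option linter.style.haveILetI false
set_option linter.unusedVariables false
set_option synthInstance.maxHeartbeats 400000

noncomputable section

namespace Fermat.Agent.Lib.S59

open ModularCurve HahnSeries AlgebraicCurve Fermat.Agent.Lib.FF Fermat.Agent.Lib.S18
  Fermat.Agent.Lib.S28 Fermat.Agent.Lib.S29 Fermat.Agent.Lib.S37 Fermat.Agent.Lib.S34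
  Fermat.Agent.Lib.S33 Fermat.Agent.Lib.S44 Fermat.Agent.Lib.S19 Fermat.Agent.Lib.S17
  Fermat.Agent.Lib.S15 Fermat.Agent.Lib.S30

local notation "Kb" => AlgebraicClosure ℚ
local notation "Γℚ" => (AlgebraicClosure ℚ ≃ₐ[ℚ] AlgebraicClosure ℚ)

section Curve

variable {M q : ℕ} [NeZero M] [hq : Fact q.Prime] (hgood : s18_GoodLevel q M)
  {P : ValuationSubring Kb} {hP : P.LiesOverPrime q} {n : ℕ} (hn0 : n ≠ 0)
  (hnP : IsUnit ((n : ℕ) : ↥P))

set_option maxHeartbeats 1600000 in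
include hgood hn0 hnP in
/-- **`Rel 0 z → z = 0`** at a good level. -/
theorem s59c_Rel_zero_left_G {z : JZero M} (h : s59m_Rel M q P hP n 0 z) : z = 0 := by
  classical
  have hqM : ¬ q ∣ M := hgood.1
  haveI : FFGen Kb (ffd_jBar M) := s18r_ffGen M
  obtain ⟨r, l, g, hr, hl, hC⟩ :=
    (s19m_curveExists s19_gauss_final s19_rr_final s19e_baseA) M q hgood P hP
  obtain ⟨H, G, hH, hG, hgH, hH', hgG, hG', c, w, hc, hw, hwm, hred⟩ := h
  obtain ⟨c₂, w₂, hc₂, hw₂, hHeq⟩ :=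
    (s33d_kumGen_zero_iff (s33d_constOfOrdZero_bar (M * q)) hn0 hgH).mp rfl
  obtain ⟨cb, u, hu, hcb, hu0, hrel⟩ := s59m_gauss_rel (M * q) P hP n 0 1 H one_ne_zero
    (s37r_OF P (M * q) hP).one_mem (by rw [inv_one]; exact (s37r_OF P (M * q) hP).one_mem) hH hH'
    c₂ w₂ hc₂ hw₂ (by rw [hHeq, zpow_zero, mul_one])
  rw [zpow_zero, mul_one] at hrel
  have hum : s37r_redV P (M * q) hP ⟨u, hu⟩ ∈
      modularFunctionFieldFullC (IsLocalRing.ResidueField ↥P) M :=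
    s59m_redV_top_mem_fullC M q hqM P hP ⟨u, hu⟩
  set w'' : ↥(modularFunctionFieldFullC (IsLocalRing.ResidueField ↥P) M) :=
    ⟨_, hum⟩ * ⟨w, hwm⟩ with hw''
  have hw''0 : w'' ≠ 0 :=
    mul_ne_zero (fun h0 => hu0 (congrArg Subtype.val h0)) (fun h0 => hw (congrArg Subtype.val h0))
  refine s59m_injK hC n hn0 hnP z G hgG hG (c * cb) (mul_ne_zero hc hcb) w'' hw''0 ?_
  apply Subtype.ext
  rw [s37r_coe_redF, hred, hrel]
  simp only [MulMemClass.coe_mul, SubmonoidClass.coe_pow, s59m_coe_algebraMap_fullC, hw'', map_mul,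
    mul_pow]
  ring

set_option maxHeartbeats 1600000 in
include hgood hn0 hnP in
/-- **existence of the reduction** at a good level. -/
theorem s59c_Rel_exists_G {x : JZero (M * q)} (H : ffi_F (M * q)) (hgen : s33d_IsKumGen n x H)
    (hH : H ∈ s37r_OF P (M * q) hP) (hH' : H⁻¹ ∈ s37r_OF P (M * q) hP)
    (ū : ↥(modularFunctionFieldFullC (IsLocalRing.ResidueField ↥P) M))
    (hū : (ū : LaurentSeries (IsLocalRing.ResidueField ↥P)) = s37r_redV P (M * q) hP ⟨H, hH⟩)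
    (hdiv : ∀ v : Place (IsLocalRing.ResidueField ↥P)
      ↥(modularFunctionFieldFullC (IsLocalRing.ResidueField ↥P) M), (n : ℤ) ∣ v.ord ū) :
    ∃ z : JZero M, s59m_Rel M q P hP n x z := by
  classical
  have hqM : ¬ q ∣ M := hgood.1
  haveI : FFGen Kb (ffd_jBar M) := s18r_ffGen M
  obtain ⟨r, l, g, hr, hl, hC⟩ :=
    (s19m_curveExists s19_gauss_final s19_rr_final s19e_baseA) M q hgood P hP
  obtain ⟨abv, hna, hAabv⟩ := s17z_abv_exists P hq.out hP
  have hconst : s33d_ConstOfOrdZero (IsLocalRing.ResidueField ↥P)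
      ↥(modularFunctionFieldFullC (IsLocalRing.ResidueField ↥P) M) :=
    s18n_constFk_residueField (N := M) P hq.out hP hqM
  have hredH0 := s59m_redV_unit_ne_zero (M * q) P hP hgen.1 hH hH'
  have hū0 : ū ≠ 0 := by
    rintro rfl
    exact hredH0 hū.symm
  obtain ⟨z, G, hGO, hgenG, hG'O, c₁, w₁, hc₁, hw₁, hredG⟩ :=
    s59m_liftK hC abv hna hAabv hconst n hn0 hnP ū hū0 hdiv
  refine ⟨z, H, G, hH, hGO, hgen, hH', hgenG, hG'O, c₁, (w₁ : LaurentSeries _), hc₁,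
    fun h0 => hw₁ (Subtype.ext h0), w₁.2, ?_⟩
  have := congrArg (fun y : ↥(modularFunctionFieldFullC (IsLocalRing.ResidueField ↥P) M) =>
    (y : LaurentSeries (IsLocalRing.ResidueField ↥P))) hredG
  simp only [s37r_coe_redF, MulMemClass.coe_mul, SubmonoidClass.coe_pow,
    s59m_coe_algebraMap_fullC] at this
  rw [this, hū]

include hgood hn0 hnP in
/-- **the reduction map `red_∞ : Fin →+ J₀(M)` of the relation `s59m_Rel`** at a good level. -/
theorem s59c_red_of_Rel_G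
    (Fin : AddSubgroup (JZero (M * q))) (hex : ∀ x ∈ Fin, ∃ z, s59m_Rel M q P hP n x z) :
    ∃ red : Fin →+ JZero M, (∀ x : Fin, s59m_Rel M q P hP n x (red x)) ∧
      (∀ (x : Fin) (z : JZero M), s59m_Rel M q P hP n x z → red x = z) ∧
      (∀ x : Fin, red x = 0 ↔ s59m_Rel M q P hP n x 0) ∧
      (∀ x : Fin, n • red x = 0) ∧
      (∀ ℓ : Nat.Primes, ¬ (ℓ : ℕ) ∣ M * q → ∀ x x' : Fin,
        (x' : JZero (M * q)) = heckeOperatorBar (M * q) ℓ x →
          red x' = heckeOperatorBar M ℓ (red x)) := by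
  have hqM : ¬ q ∣ M := hgood.1
  obtain ⟨red, h1, h2, h3⟩ := s59u_fun_of_rel (s59m_Rel M q P hP n)
    (fun x x' z z' h h' => h.add h')
    (fun x z h => by
      have := h.zsmul (-1)
      rwa [neg_one_zsmul, neg_one_zsmul] at this)
    (fun z h => s59c_Rel_zero_left_G hgood hn0 hnP h) Fin hex
  refine ⟨red, h1, h2, h3, fun x => ?_, fun ℓ hℓ x x' hx' => ?_⟩
  · obtain ⟨H, G, hH, hG, hgH, hH', hgG, hG', -⟩ := h1 x
    exact s33d_kumGen_tors hgG
  · haveI : Fact (ℓ : ℕ).Prime := ⟨ℓ.2⟩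
    have h4 : s59m_Rel M q P hP n (heckeOperatorBar (M * q) ℓ (x : JZero (M * q)))
        (heckeOperatorBar M ℓ (red x)) := (h1 x).hecke hqM (ℓ : ℕ) hℓ
    rw [← hx'] at h4
    exact h2 x' _ h4

end Curve

/-! ### One component over a finite level -/

section Comp

variable (M q : ℕ) [NeZero M] [hq : Fact q.Prime] (hgood : s18_GoodLevel q M)
  (p : ℕ) [hp : Fact p.Prime] (hpq : p ≠ q) (k : ℕ)
  (P : ValuationSubring Kb) (hP : P.LiesOverPrime q)
  (L₀ : IntermediateField ℚ Kb) [FiniteDimensional ℚ ↥L₀]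
  [IsDiscreteValuationRing ↥(s18q_A0 P L₀)] (ϖ : ↥(s18q_A0 P L₀)) (hϖ : Irreducible ϖ)

set_option maxHeartbeats 1600000 in
include hgood hpq hP in
/-- **existence of the reduction, one component** (good level): a Gauss-unit Kummer generator `h` over `L₀` of `x` whose
reduction has divisor divisible by `p ^ k` over the residue field of `L₀`. -/
theorem s59c_rel_exists_comp_G (x : JZero (M * q))
    (h : s34m_F ↥L₀ (M * q)) (hgen : s33d_IsKumGen (p ^ k) x (s18q_incl (M * q) L₀ h))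
    (hI : h ∈ s34m_Vinf (s37r_G P L₀ ϖ hϖ) (M * q))
    (hI' : h⁻¹ ∈ s34m_Vinf (s37r_G P L₀ ϖ hϖ) (M * q))
    (ū₀ : ↥(modularFunctionFieldFullC (IsLocalRing.ResidueField ↥(s18q_A0 P L₀)) M))
    (hū₀ : (ū₀ : LaurentSeries (IsLocalRing.ResidueField ↥(s18q_A0 P L₀))) =
      s34m_redInf (s37r_G P L₀ ϖ hϖ) (M * q) ⟨h, hI⟩)
    (hdiv : ∀ v₀ : Place (IsLocalRing.ResidueField ↥(s18q_A0 P L₀))
      ↥(modularFunctionFieldFullC (IsLocalRing.ResidueField ↥(s18q_A0 P L₀)) M),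
      ((p ^ k : ℕ) : ℤ) ∣ v₀.ord ū₀) :
    ∃ z : JZero M, s59m_Rel M q P hP (p ^ k) x z := by
  classical
  haveI : NeZero (p ^ k) := ⟨pow_ne_zero k hp.out.ne_zero⟩
  letI alg : Algebra (IsLocalRing.ResidueField ↥(s18q_A0 P L₀)) (IsLocalRing.ResidueField ↥P) :=
    (s37r_resMap P L₀).toAlgebra
  haveI : Algebra.IsAlgebraic (IsLocalRing.ResidueField ↥(s18q_A0 P L₀))
      (IsLocalRing.ResidueField ↥P) := s33d_resMap_isAlgebraic P hP L₀
  haveI : IsGalois (IsLocalRing.ResidueField ↥(s18q_A0 P L₀)) (IsLocalRing.ResidueField ↥P) :=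
    s59m_isGalois_res P hP L₀
  have hh0 : h ≠ 0 := (s59m_kum_of_gen_n (M * q) (p ^ k) L₀ hgen).1
  have hred0 : s34m_redInf (s37r_G P L₀ ϖ hϖ) (M * q) ⟨h, hI⟩ ≠ 0 := by
    intro h0
    have h1 : (⟨h, hI⟩ : s34m_Vinf (s37r_G P L₀ ϖ hϖ) (M * q)) * ⟨h⁻¹, hI'⟩ = 1 :=
      Subtype.ext (mul_inv_cancel₀ hh0)
    have := congrArg (s34m_redInf (s37r_G P L₀ ϖ hϖ) (M * q)) h1
    rw [map_mul, h0, zero_mul, map_one] at this
    exact zero_ne_one this
  have hū₀s : (ū₀ : LaurentSeries (IsLocalRing.ResidueField ↥(s18q_A0 P L₀))) ≠ 0 := by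
    rw [hū₀]; exact hred0
  have hū₀0 : ū₀ ≠ 0 := fun h0 => hū₀s (by rw [h0]; rfl)
  have hH : s18q_incl (M * q) L₀ h ∈ s37r_OF P (M * q) hP :=
    (s37r_incl_mem_OF_iff P (M * q) hP L₀ ϖ hϖ h).mpr hI
  have hH' : (s18q_incl (M * q) L₀ h)⁻¹ ∈ s37r_OF P (M * q) hP := by
    rw [← map_inv₀]
    exact (s37r_incl_mem_OF_iff P (M * q) hP L₀ ϖ hϖ h⁻¹).mpr hI'
  have e : s37r_redV P (M * q) hP ⟨s18q_incl (M * q) L₀ h, hH⟩ =
      coeffMap (s37r_resMap P L₀) (s34m_redInf (s37r_G P L₀ ϖ hϖ) (M * q) ⟨h, hI⟩) :=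
    s37r_redV_incl P (M * q) hP L₀ ϖ hϖ h hI hH
  have hup : ((s59m_up (k := IsLocalRing.ResidueField ↥P) M ū₀ :
      ↥(modularFunctionFieldFullC (IsLocalRing.ResidueField ↥P) M)) :
        LaurentSeries (IsLocalRing.ResidueField ↥P)) =
      s37r_redV P (M * q) hP ⟨s18q_incl (M * q) L₀ h, hH⟩ := by
    rw [s59m_up_coe, hū₀, e]
    rfl
  have hdiv' : ∀ v : Place (IsLocalRing.ResidueField ↥P)
      ↥(modularFunctionFieldFullC (IsLocalRing.ResidueField ↥P) M),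
      ((p ^ k : ℕ) : ℤ) ∣ v.ord (s59m_up (k := IsLocalRing.ResidueField ↥P) M ū₀) :=
    fun v => s59m_dvd_ord_up M ((p ^ k : ℕ) : ℤ) ū₀ hū₀0 hdiv v
  exact s59c_Rel_exists_G hgood (pow_ne_zero k hp.out.ne_zero) (s59m_isUnit_pk q p hpq k P hP)
    (s18q_incl (M * q) L₀ h) hgen hH hH'
    (s59m_up (k := IsLocalRing.ResidueField ↥P) M ū₀) hup hdiv'

end Comp

end Fermat.Agent.Lib.S59
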