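import Fermat.Agent.Lib.S33.SSGlue
import Fermat.Agent.Lib.S36.XLocLift
import Fermat.Agent.Lib.S36.QTwo

set_option autoImplicit false
set_option linter.style.haveILetI false
set_option linter.unusedSectionVars false
set_option linter.unusedVariables false

noncomputable section

namespace Fermat.Agent.Lib.S59

open AlgebraicCurve Fermat.Agent.Lib.FF Fermat.Agent.Lib.S18 Fermat.Agent.Lib.S34
  Fermat.Agent.Lib.S33 Fermat.Agent.Lib.S36 IsLocalRing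

section Branch

variable {B D Fb : Type*} [CommRing B] [CommRing D] [IsDedekindDomain D] [Field Fb]
  [Algebra D Fb] [IsFractionRing D Fb]
  (ρ : B →+* D) (hρ : Function.Surjective ρ) (hD : ¬ IsField D) (𝔫 : Ideal B)
  [h𝔫 : 𝔫.IsMaximal] (hk : RingHom.ker ρ ≤ 𝔫) {K : Type*} [Field K] (χ : B →+* K)
  (hχ : ∀ c, χ c = 0 ↔ c ∈ 𝔫)
  {R : Type*} [CommRing R] [Algebra B R] [IsLocalization.AtPrime R 𝔫]
  (θ : R →+* Fb) (hθ : ∀ b : B, θ (algebraMap B R b) = s33s_r ρ b)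

include hθ in
/-- the reduction of the local ring at a point of the component `ρ` lies in the branch. -/
theorem s59c_theta_mem_W (c : R) : θ c ∈ s33s_W (Fb := Fb) ρ hρ hD 𝔫 hk := by
  obtain ⟨⟨a, t⟩, e⟩ := IsLocalization.surj 𝔫.primeCompl c
  rw [s33s_mem_W_iff]
  refine ⟨t, a, t.2, ?_⟩
  rw [← hθ, ← hθ, ← map_mul, mul_comm]
  exact congrArg θ e

include hθ in
/-- the value at the point of the reduction of a non-unit of the local ring is zero. -/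
theorem s59c_evN_theta_nonunit (c : R) (hc : ¬ IsUnit c) :
    s33s_evN ρ hρ hD 𝔫 hk χ hχ ⟨θ c, s59c_theta_mem_W ρ hρ hD 𝔫 hk θ hθ c⟩ = 0 := by
  obtain ⟨⟨a, t⟩, e⟩ := IsLocalization.surj 𝔫.primeCompl c
  have e' : s33s_r ρ (t : B) * θ c = s33s_r ρ a := by
    rw [← hθ, ← hθ, ← map_mul, mul_comm]
    exact congrArg θ e
  have hspec := s33s_evN_spec ρ hρ hD 𝔫 hk χ hχ ⟨θ c, s59c_theta_mem_W ρ hρ hD 𝔫 hk θ hθ c⟩
    (c := (t : B)) (b := a) t.2 e'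
  have ha : a ∈ 𝔫 := by
    by_contra ha
    apply hc
    have hu : IsUnit (algebraMap B R a) := IsLocalization.map_units R (⟨a, ha⟩ : 𝔫.primeCompl)
    rw [← e] at hu
    exact isUnit_of_mul_isUnit_left hu
  have hχa : χ a = 0 := (hχ a).mpr ha
  have hχt : χ (t : B) ≠ 0 := fun h => t.2 ((hχ _).mp h)
  rw [hχa] at hspec
  exact (mul_eq_zero.mp hspec).resolve_right hχt

include hθ in
/-- congruent elements of the local ring have reductions with the same value at the point. -/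
theorem s59c_evN_theta_congr (c c' : R) (hc : ¬ IsUnit (c - c')) :
    s33s_evN ρ hρ hD 𝔫 hk χ hχ ⟨θ c, s59c_theta_mem_W ρ hρ hD 𝔫 hk θ hθ c⟩ =
      s33s_evN ρ hρ hD 𝔫 hk χ hχ ⟨θ c', s59c_theta_mem_W ρ hρ hD 𝔫 hk θ hθ c'⟩ := by
  have h0 := s59c_evN_theta_nonunit ρ hρ hD 𝔫 hk χ hχ θ hθ (c - c') hc
  have e : (⟨θ (c - c'), s59c_theta_mem_W ρ hρ hD 𝔫 hk θ hθ (c - c')⟩ :
      s33s_W (Fb := Fb) ρ hρ hD 𝔫 hk) =
      ⟨θ c, s59c_theta_mem_W ρ hρ hD 𝔫 hk θ hθ c⟩ -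
        ⟨θ c', s59c_theta_mem_W ρ hρ hD 𝔫 hk θ hθ c'⟩ := by
    apply Subtype.ext
    show θ (c - c') = θ c - θ c'
    exact map_sub θ c c'
  rw [e, map_sub, sub_eq_zero] at h0
  exact h0

end Branch

section TwoLevel

variable {L₀ 𝓕₁ 𝓕₂ : Type*} [Field L₀] [Field 𝓕₁] [Field 𝓕₂] [Algebra L₀ 𝓕₁] [Algebra L₀ 𝓕₂]
variable {ι₁ ι₂ : Type*} (O₁ : ι₁ → ValuationSubring 𝓕₁) (O₂ : ι₂ → ValuationSubring 𝓕₂)
  (S₁ : Set (Place L₀ 𝓕₁)) (S₂ : Set (Place L₀ 𝓕₂)) (γ : 𝓕₁ →+* 𝓕₂)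
  (hγ : ∀ b ∈ s34x_ring (s34x_infRing O₁) S₁, γ b ∈ s34x_ring (s34x_infRing O₂) S₂)
  (𝔫 : Ideal (s34x_ring (s34x_infRing O₂) S₂)) [h𝔫 : 𝔫.IsPrime]

/-- the local homomorphism `(B₁)_{γ⁻¹𝔫} → (B₂)_𝔫` reflects units. -/
theorem s59c_locMap_reflects (c : Localization.AtPrime (s36q_pt O₁ O₂ S₁ S₂ γ hγ 𝔫))
    (hc : s36q_locMap O₁ O₂ S₁ S₂ γ hγ 𝔫 c ∈ maximalIdeal (Localization.AtPrime 𝔫)) :
    ¬ IsUnit c := by
  intro hu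
  rw [mem_maximalIdeal, mem_nonunits_iff] at hc
  exact hc (hu.map _)

/-- two approximations (along components through `𝔫`) of the same element of `(B₂)_𝔫` by elements of `(B₁)_{γ⁻¹𝔫}` are
congruent modulo the maximal ideal. -/
theorem s59c_approx_congr (j j' : ι₂) (hj : s36q_compThrough O₂ S₂ 𝔫 j)
    (hj' : s36q_compThrough O₂ S₂ 𝔫 j')
    (z : Localization.AtPrime 𝔫) (c c' : Localization.AtPrime (s36q_pt O₁ O₂ S₁ S₂ γ hγ 𝔫))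
    (h : s34f_iota (s34x_infRing O₂) S₂ 𝔫 (s36q_locMap O₁ O₂ S₁ S₂ γ hγ 𝔫 c - z) ∈
      (O₂ j).nonunits)
    (h' : s34f_iota (s34x_infRing O₂) S₂ 𝔫 (s36q_locMap O₁ O₂ S₁ S₂ γ hγ 𝔫 c' - z) ∈
      (O₂ j').nonunits) : ¬ IsUnit (c - c') := by
  apply s59c_locMap_reflects O₁ O₂ S₁ S₂ γ hγ 𝔫
  have h1 := s36y_mem_maximalIdeal_of_nonunit O₂ S₂ 𝔫 j hj _ h
  have h2 := s36y_mem_maximalIdeal_of_nonunit O₂ S₂ 𝔫 j' hj' _ h'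
  have e : s36q_locMap O₁ O₂ S₁ S₂ γ hγ 𝔫 (c - c') =
      (s36q_locMap O₁ O₂ S₁ S₂ γ hγ 𝔫 c - z) - (s36q_locMap O₁ O₂ S₁ S₂ γ hγ 𝔫 c' - z) := by
    rw [map_sub]; ring
  rw [e]
  exact Ideal.sub_mem _ h1 h2

/-- the reduction (along a component `j` through `𝔫`) of an element of `(B₂)_𝔫` approximated along `j` by the image of
`c ∈ (B₁)_{γ⁻¹𝔫}` is the reduction of `γ (ι c)`. -/
theorem s59c_r_of_approx (j : ι₂) (hj : s36q_compThrough O₂ S₂ 𝔫 j) {Λ : Type*} [CommRing Λ]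
    (r : O₂ j →+* Λ) (r_ker : ∀ y : O₂ j, r y = 0 ↔ (y : 𝓕₂) ∈ (O₂ j).nonunits)
    (z : Localization.AtPrime 𝔫) (c : Localization.AtPrime (s36q_pt O₁ O₂ S₁ S₂ γ hγ 𝔫))
    (h : s34f_iota (s34x_infRing O₂) S₂ 𝔫 (s36q_locMap O₁ O₂ S₁ S₂ γ hγ 𝔫 c - z) ∈
      (O₂ j).nonunits)
    (hm : γ (s34f_iota (s34x_infRing O₁) S₁ (s36q_pt O₁ O₂ S₁ S₂ γ hγ 𝔫) c) ∈ O₂ j) :
    r ⟨s34f_iota (s34x_infRing O₂) S₂ 𝔫 z, s36q_iota_mem_comp O₂ S₂ 𝔫 j hj z⟩ =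
      r ⟨γ (s34f_iota (s34x_infRing O₁) S₁ (s36q_pt O₁ O₂ S₁ S₂ γ hγ 𝔫) c), hm⟩ := by
  have h0 : r (⟨γ (s34f_iota (s34x_infRing O₁) S₁ (s36q_pt O₁ O₂ S₁ S₂ γ hγ 𝔫) c), hm⟩ -
      ⟨s34f_iota (s34x_infRing O₂) S₂ 𝔫 z, s36q_iota_mem_comp O₂ S₂ 𝔫 j hj z⟩) = 0 := by
    rw [r_ker]
    show γ (s34f_iota (s34x_infRing O₁) S₁ (s36q_pt O₁ O₂ S₁ S₂ γ hγ 𝔫) c) -
      s34f_iota (s34x_infRing O₂) S₂ 𝔫 z ∈ (O₂ j).nonunits
    rw [← s36q_iota_locMap, ← map_sub]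
    exact h
  rw [map_sub, sub_eq_zero] at h0
  exact h0.symm

end TwoLevel

end Fermat.Agent.Lib.S59
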