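/-
Programme (R2) / node **[CAR]**, W5 leaf **[L2-6 GLUE₃]** (helper8, prefix `s59c_`), part 2: the Σ-datum side, in the Build
frame of `Lib/S33/SSDatum.lean` — the reduction of the local ring of a node lies in the branch of the node, and congruent
elements have the same value.
-/
import Fermat.Agent.Lib.S59.CGlue3A
import Fermat.Agent.Lib.S33.SSFive

set_option autoImplicit false
set_option linter.style.haveILetI false
set_option linter.unusedSectionVars false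
set_option linter.unusedVariables false
set_option synthInstance.maxHeartbeats 400000

noncomputable section

namespace Fermat.Agent.Lib.S59

open ModularCurve AlgebraicCurve HahnSeries Fermat.Agent.Lib.FF Fermat.Agent.Lib.S18
  Fermat.Agent.Lib.S34 Fermat.Agent.Lib.S37 Fermat.Agent.Lib.S33 Fermat.Agent.Lib.S36 IsLocalRing

local notation "Kb" => AlgebraicClosure ℚ

section Build

variable {K₀ : Type} [Field K₀] [CharZero K₀] [Algebra ℚ K₀] {κ : Type} [Field κ]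
  (G : s18g_GaussData K₀ κ) (φ : K₀ →+* Kb) (M p : ℕ) [NeZero M] [hp : Fact p.Prime]
  (hpM : ¬ p ∣ M) [CharP κ p] [PerfectRing κ p]
  (hπ : Function.Surjective G.π)
  (S : Set (Place K₀ (s34m_F K₀ (M * p))))

variable {D : Type*} [CommRing D] [IsDedekindDomain D] [Algebra D ↥(modularFunctionFieldFullC κ M)]
  [IsFractionRing D ↥(modularFunctionFieldFullC κ M)] (hD : ¬ IsField D)
  (hF : ∀ i y, s33s_redL G φ M p hp.out hpM i y ∈ modularFunctionFieldFullC κ M)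
  (hint : ∀ (i : Bool) (b : s34x_ring (s34x_infRing (s34m_VV G φ M p hp.out hpM)) S),
    ∃ d : D, algebraMap D ↥(modularFunctionFieldFullC κ M) d =
      s33s_redO G φ M p hp.out hpM (modularFunctionFieldFullC κ M) hF i
        ⟨(b : s34m_F K₀ (M * p)), b.2.1⟩)
  (BM : Set (s34m_F K₀ M)) (hBMV : ∀ g ∈ BM, g ∈ s34m_Vinf G M)
  (hαB : ∀ g ∈ BM, heckeAlphaBar K₀ M p g ∈
    s34x_ring (s34x_infRing (s34m_VV G φ M p hp.out hpM)) S)
  (hβB : ∀ g ∈ BM, ∃ b' ∈ s34x_ring (s34x_infRing (s34m_VV G φ M p hp.out hpM)) S,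
    ∃ z, z ∈ s34m_Vinf G (M * p) ∧ z ∈ s34m_Vzero G φ M p hp.out hpM ∧
      b' - heckeBetaBar K₀ M p g = s34m_unif G (M * p) * z)
  (hlift : ∀ d : D, ∃ g, ∃ hg : g ∈ BM,
    s34m_redInf G M ⟨g, hBMV g hg⟩ =
      ((algebraMap D ↥(modularFunctionFieldFullC κ M) d : ↥(modularFunctionFieldFullC κ M)) :
        LaurentSeries κ))
  (htw : ∀ d : D, ∃ d' : D, qExpand κ p
    ((algebraMap D ↥(modularFunctionFieldFullC κ M) d : ↥(modularFunctionFieldFullC κ M)) :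
      LaurentSeries κ) =
    ((algebraMap D ↥(modularFunctionFieldFullC κ M) d' : ↥(modularFunctionFieldFullC κ M)) :
      LaurentSeries κ) ^ p)

/-- the inclusion of the local ring of a point of the chart lying on all the components into the intersection of the
valuation rings. -/
def s59c_iotaO {L₀ 𝓕 : Type*} [Field L₀] [Field 𝓕] [Algebra L₀ 𝓕] {ι : Type*}
    (O : ι → ValuationSubring 𝓕) (S : Set (Place L₀ 𝓕)) (𝔫 : Ideal (s34x_ring (s34x_infRing O) S))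
    [𝔫.IsPrime] (h : ∀ i, s36q_compThrough O S 𝔫 i) :
    Localization.AtPrime 𝔫 →+* s34x_infRing O :=
  (s34f_iota (s34x_infRing O) S 𝔫).codRestrict (s34x_infRing O)
    (fun z => (s34x_mem_infRing O _).mpr fun i => s36q_iota_mem_comp O S 𝔫 i (h i) z)

@[simp] theorem s59c_iotaO_coe {L₀ 𝓕 : Type*} [Field L₀] [Field 𝓕] [Algebra L₀ 𝓕] {ι : Type*}
    (O : ι → ValuationSubring 𝓕) (S : Set (Place L₀ 𝓕)) (𝔫 : Ideal (s34x_ring (s34x_infRing O) S))
    [𝔫.IsPrime] (h : ∀ i, s36q_compThrough O S 𝔫 i) (z : Localization.AtPrime 𝔫) :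
    ((s59c_iotaO O S 𝔫 h z : s34x_infRing O) : 𝓕) = s34f_iota (s34x_infRing O) S 𝔫 z := rfl

include hαB hβB hlift htw hD in
/-- **the reduction of the local ring of a node lies in the branch of the node; congruent elements have the same
value.** -/
theorem s59c_branch_of_loc (i : Bool)
    (𝔫₁ : Ideal (s34x_ring (s34x_infRing (s34m_VV G φ M p hp.out hpM)) S)) [h𝔫₁ : 𝔫₁.IsPrime]
    (hnode : s33s_IsNode (s34m_VV G φ M p hp.out hpM) (s34m_unif G (M * p)) S 𝔫₁)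
    (hth : ∀ i, s36q_compThrough (s34m_VV G φ M p hp.out hpM) S 𝔫₁ i)
    (c c' : Localization.AtPrime 𝔫₁) (hc : ¬ IsUnit (c - c')) :
    ∃ (h : s33s_redO G φ M p hp.out hpM (modularFunctionFieldFullC κ M) hF i
          (s59c_iotaO (s34m_VV G φ M p hp.out hpM) S 𝔫₁ hth c) ∈
          s33s_Wn G φ M p hpM S hD hF hint BM hBMV hαB hβB hlift htw i ⟨𝔫₁, hnode⟩)
      (h' : s33s_redO G φ M p hp.out hpM (modularFunctionFieldFullC κ M) hF i
          (s59c_iotaO (s34m_VV G φ M p hp.out hpM) S 𝔫₁ hth c') ∈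
          s33s_Wn G φ M p hpM S hD hF hint BM hBMV hαB hβB hlift htw i ⟨𝔫₁, hnode⟩),
      s33s_evn G φ M p hpM hπ S hD hF hint BM hBMV hαB hβB hlift htw i ⟨𝔫₁, hnode⟩ ⟨_, h⟩ =
        s33s_evn G φ M p hpM hπ S hD hF hint BM hBMV hαB hβB hlift htw i ⟨𝔫₁, hnode⟩ ⟨_, h'⟩ := by
  haveI : 𝔫₁.IsMaximal := hnode.1
  have hθ : ∀ b : s34x_ring (s34x_infRing (s34m_VV G φ M p hp.out hpM)) S,
      ((s33s_redO G φ M p hp.out hpM (modularFunctionFieldFullC κ M) hF i).comp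
        (s59c_iotaO (s34m_VV G φ M p hp.out hpM) S 𝔫₁ hth))
        (algebraMap _ (Localization.AtPrime 𝔫₁) b) =
      s33s_r (Fb := ↥(modularFunctionFieldFullC κ M))
        (s33s_rhoD G φ M p hp.out hpM (modularFunctionFieldFullC κ M) S hF hint i) b := by
    intro b
    rw [s33s_r_apply, s33s_rhoD_spec, RingHom.comp_apply]
    congr 1
    apply Subtype.ext
    rw [s59c_iotaO_coe, s34f_iota_algebraMap]
  exact ⟨s59c_theta_mem_W _ _ hD 𝔫₁ _ _ hθ c, s59c_theta_mem_W _ _ hD 𝔫₁ _ _ hθ c',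
    s59c_evN_theta_congr _ _ hD 𝔫₁ _ _ _ _ hθ c c' hc⟩

end Build

section Wrap

variable {K₀ : Type} [Field K₀] [CharZero K₀] [Algebra ℚ K₀] {κ : Type} [Field κ]
  (G : s18g_GaussData K₀ κ) (φ : K₀ →+* Kb) (M p : ℕ) [NeZero M] [hp : Fact p.Prime]
  (hpM : ¬ p ∣ M) [CharP κ p] [PerfectField κ]

local notation "𝓕M" => laurentBaseChange K₀ (modularFunctionFieldFull M)
local notation "𝓕N" => laurentBaseChange K₀ (modularFunctionFieldFull (M * p))
local notation "hFM" => (fun (f : LaurentSeries K₀)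
  (hf : f ∈ laurentBaseChange K₀ (modularFunctionFieldFull M)) => s18g_baseChange_mem_Frac G M hf)

variable (hdeg : s34m_HDeg K₀ M p) (hT : s18g_HT κ M) (hdegM : s18g_HDeg K₀ M)
  (hπ : Function.Surjective G.π)
  (e : ℕ) (ε : K₀) (he : 0 < e) (hε : ε ∈ G.A) (hεinv : ε⁻¹ ∈ G.A) (hε0 : ε ≠ 0)
  (hpe : (p : K₀) = ε * ((G.ϖ : G.A) : K₀) ^ e) (hperf : ∀ c : κ, ∃ d : κ, d ^ p = c)

open Polynomial in
/-- **the reduction of the local ring of a node lies in the branch of the node; congruent elements have the same value**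
(the datum `s33s_datumW`). -/
theorem s59c_branch_of_loc_w [IsDiscreteValuationRing G.A] (w : ↥𝓕M) (hwV : w ∈ s18g_V G 𝓕M hFM)
    (hcoord : s37b_Coord κ p
      ((s18g_redF G M hFM hT hdegM ⟨w, hwV⟩ : ↥(modularFunctionFieldFullC κ M)) : LaurentSeries κ))
    (hwtw : ∀ τ : κ ≃+* κ, ModularCurve.coeffMap (τ : κ →+* κ)
      ((s18g_redF G M hFM hT hdegM ⟨w, hwV⟩ : ↥(modularFunctionFieldFullC κ M)) : LaurentSeries κ) =
      ((s18g_redF G M hFM hT hdegM ⟨w, hwV⟩ : ↥(modularFunctionFieldFullC κ M)) : LaurentSeries κ))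
    (hmain : letI := s18f_algF G M hT hdegM w hwV
      ∀ z : ↥(modularFunctionFieldFullC κ M), IsIntegral κ[X] z →
        ∃ (b : ↥𝓕M) (hb : b ∈ s18_ring (L₀ := K₀) (s18g_V G 𝓕M hFM) (s18_chart1 w)),
          s18g_redF G M hFM hT hdegM ⟨b, hb.1⟩ = z)
    (wN : ↥𝓕N) (hwN : heckeAlphaBar K₀ M p w = wN) [FFGen K₀ wN]
    (hαN : ∀ y ∈ s34x_infRing (s34m_VV G φ M p hp.out hpM), ∃ s : G.A[X], s.map G.π ≠ 0 ∧
      (s18b_ev G 𝓕N wN).IsIntegralElem (s18b_ev G 𝓕N wN s * y))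
    (hαB : ∀ g ∈ (s18_ring (L₀ := K₀) (s34m_Vinf G M) (s18_chart1 w) : Set (s34m_F K₀ M)),
      heckeAlphaBar K₀ M p g ∈ s34x_ring (s34x_infRing (s34m_VV G φ M p hp.out hpM))
        (s18_chart1 (L₀ := K₀) wN))
    (hβB : ∀ g ∈ (s18_ring (L₀ := K₀) (s34m_Vinf G M) (s18_chart1 w) : Set (s34m_F K₀ M)),
      ∃ b' ∈ s34x_ring (s34x_infRing (s34m_VV G φ M p hp.out hpM)) (s18_chart1 (L₀ := K₀) wN),
      ∃ z, z ∈ s34m_Vinf G (M * p) ∧ z ∈ s34m_Vzero G φ M p hp.out hpM ∧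
        b' - heckeBetaBar K₀ M p g = s34m_unif G (M * p) * z)
    (hnode : ∃ 𝔫, s33s_IsNode (s34m_VV G φ M p hp.out hpM) (s34m_unif G (M * p))
      (s18_chart1 (L₀ := K₀) wN) 𝔫)
    (𝔫₁ : Ideal (s34x_ring (s34x_infRing (s34m_VV G φ M p hp.out hpM))
      (s18_chart1 (L₀ := K₀) wN))) [h𝔫₁ : 𝔫₁.IsPrime]
    (hn : s33s_IsNode (s34m_VV G φ M p hp.out hpM) (s34m_unif G (M * p))
      (s18_chart1 (L₀ := K₀) wN) 𝔫₁)
    (hth : ∀ i, s36q_compThrough (s34m_VV G φ M p hp.out hpM) (s18_chart1 (L₀ := K₀) wN) 𝔫₁ i)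
    (c c' : Localization.AtPrime 𝔫₁) (hc : ¬ IsUnit (c - c')) :
    ∃ (h : s33s_redO G φ M p hp.out hpM (modularFunctionFieldFullC κ M)
          (s33s_w_hF G φ M p hpM hdeg hT hdegM) true
          (s59c_iotaO (s34m_VV G φ M p hp.out hpM) (s18_chart1 (L₀ := K₀) wN) 𝔫₁ hth c) ∈
          (s33s_datumW G φ M p hpM hdeg hT hdegM hπ e ε he hε hεinv hε0 hpe hperf w hwV hcoord hwtw
            hmain wN hwN hαN hαB hβB hnode).Wi ⟨𝔫₁, hn⟩)
      (h' : s33s_redO G φ M p hp.out hpM (modularFunctionFieldFullC κ M)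
          (s33s_w_hF G φ M p hpM hdeg hT hdegM) true
          (s59c_iotaO (s34m_VV G φ M p hp.out hpM) (s18_chart1 (L₀ := K₀) wN) 𝔫₁ hth c') ∈
          (s33s_datumW G φ M p hpM hdeg hT hdegM hπ e ε he hε hεinv hε0 hpe hperf w hwV hcoord hwtw
            hmain wN hwN hαN hαB hβB hnode).Wi ⟨𝔫₁, hn⟩),
      (s33s_datumW G φ M p hpM hdeg hT hdegM hπ e ε he hε hεinv hε0 hpe hperf w hwV hcoord hwtw
            hmain wN hwN hαN hαB hβB hnode).evi ⟨𝔫₁, hn⟩ ⟨_, h⟩ =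
        (s33s_datumW G φ M p hpM hdeg hT hdegM hπ e ε he hε hεinv hε0 hpe hperf w hwV hcoord hwtw
            hmain wN hwN hαN hαB hβB hnode).evi ⟨𝔫₁, hn⟩ ⟨_, h'⟩ := by
  letI := s18f_algF G M hT hdegM w hwV
  haveI := (s37b_dedekind_of_coord κ p M (s18g_redF G M hFM hT hdegM ⟨w, hwV⟩) hcoord
    (s18f_algF_apply G M hT hdegM w hwV)).1
  haveI := (s37b_dedekind_of_coord κ p M (s18g_redF G M hFM hT hdegM ⟨w, hwV⟩) hcoord
    (s18f_algF_apply G M hT hdegM w hwV)).2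
  exact s59c_branch_of_loc G φ M p hpM hπ (s18_chart1 (L₀ := K₀) wN)
    (D := ↥(integralClosure κ[X] ↥(modularFunctionFieldFullC κ M)))
    (s33s_w_hD G M p hT hdegM w hwV hcoord)
    (s33s_w_hF G φ M p hpM hdeg hT hdegM)
    (s33s_w_hint G φ M p hpM hdeg hT hdegM w hwV hwtw wN hwN hαN)
    (s18_ring (L₀ := K₀) (s34m_Vinf G M) (s18_chart1 w) : Set (s34m_F K₀ M))
    (fun _ hg => hg.1) hαB hβB
    (s33s_w_hlift G M hT hdegM w hwV hmain)
    (s33s_w_htw G M p hT hdegM w hwV hwtw) true 𝔫₁ hn hth c c' hc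

end Wrap

section Five

variable (M p : ℕ) [NeZero M] [hp : Fact p.Prime] (hpM : ¬ p ∣ M) (h5 : 5 ≤ p)
  (K₀ : Type) [Field K₀] [NumberField K₀] (φ : K₀ →+* Kb)
  (κ : Type) [Field κ] [CharP κ p] [PerfectField κ]
  (G : s18g_GaussData K₀ κ) [IsDiscreteValuationRing G.A]
  (hdeg : s34m_HDeg K₀ M p) (hT : s18g_HT κ M) (hdegM : s18g_HDeg K₀ M)
  (hπ : Function.Surjective G.π)
  (e : ℕ) (ε : K₀) (he : 0 < e) (hε : ε ∈ G.A) (hεinv : ε⁻¹ ∈ G.A) (hε0 : ε ≠ 0)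
  (hpe : (p : K₀) = ε * ((G.ϖ : G.A) : K₀) ^ e) (hperf : ∀ c : κ, ∃ d : κ, d ^ p = c)

/-- **the reduction of the local ring of a node lies in the branch of the node; congruent elements have the same value**
(the datum `s33s_datum_five`, chart `{j regular}`, `p ≥ 5`). -/
theorem s59c_branch_of_loc_five
    (𝔫₁ : Ideal (s34x_ring (s34x_infRing (s34m_VV G φ M p hp.out hpM))
      (s18_chart1 (L₀ := K₀) (s18g_jF (K := K₀) (M * p))))) [h𝔫₁ : 𝔫₁.IsPrime]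
    (hn : s33s_IsNode (s34m_VV G φ M p hp.out hpM) (s34m_unif G (M * p))
      (s18_chart1 (L₀ := K₀) (s18g_jF (K := K₀) (M * p))) 𝔫₁)
    (hth : ∀ i, s36q_compThrough (s34m_VV G φ M p hp.out hpM)
      (s18_chart1 (L₀ := K₀) (s18g_jF (K := K₀) (M * p))) 𝔫₁ i)
    (c c' : Localization.AtPrime 𝔫₁) (hc : ¬ IsUnit (c - c')) :
    ∃ (h : s33s_redO G φ M p hp.out hpM (modularFunctionFieldFullC κ M)
          (s33s_w_hF G φ M p hpM hdeg hT hdegM) true
          (s59c_iotaO (s34m_VV G φ M p hp.out hpM)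
            (s18_chart1 (L₀ := K₀) (s18g_jF (K := K₀) (M * p))) 𝔫₁ hth c) ∈
          (s33s_datum_five M p hpM h5 K₀ φ κ G hdeg hT hdegM hπ e ε he hε hεinv hε0 hpe hperf).Wi
            ⟨𝔫₁, hn⟩)
      (h' : s33s_redO G φ M p hp.out hpM (modularFunctionFieldFullC κ M)
          (s33s_w_hF G φ M p hpM hdeg hT hdegM) true
          (s59c_iotaO (s34m_VV G φ M p hp.out hpM)
            (s18_chart1 (L₀ := K₀) (s18g_jF (K := K₀) (M * p))) 𝔫₁ hth c') ∈
          (s33s_datum_five M p hpM h5 K₀ φ κ G hdeg hT hdegM hπ e ε he hε hεinv hε0 hpe hperf).Wi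
            ⟨𝔫₁, hn⟩),
      (s33s_datum_five M p hpM h5 K₀ φ κ G hdeg hT hdegM hπ e ε he hε hεinv hε0 hpe hperf).evi
          ⟨𝔫₁, hn⟩ ⟨_, h⟩ =
        (s33s_datum_five M p hpM h5 K₀ φ κ G hdeg hT hdegM hπ e ε he hε hεinv hε0 hpe hperf).evi
          ⟨𝔫₁, hn⟩ ⟨_, h'⟩ := by
  haveI : FFGen K₀ (s18g_jF (K := K₀) (M * p)) :=
    s18b_ffGen_jF (M * p) (fun n b hb hn => s18g_exists_relation (M * p) φ hn b hb)
  exact s59c_branch_of_loc_w G φ M p hpM hdeg hT hdegM hπ e ε he hε hεinv hε0 hpe hperf _ _ _ _ _ _ _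
    _ _ _ _ 𝔫₁ hn hth c c' hc

end Five

end Fermat.Agent.Lib.S59
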