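/-
Programme (R2) / node **[CAR]**, W5 leaf **[L2-6 GLUE₃]** (helper8, prefix `s59c_`), part 3: in the S36 frame (`V`, `hC`, a base
function `w₁`), **at a triple point `𝔫` of level `M q²` the three residues of every element of `(B₂)_𝔫` are `∞`-reductions of
elements of the local ring of the node `α'⁻¹ 𝔫` of level `M q`, congruent modulo its maximal ideal** (from the triple-point
package `s36g_TriplePkg`: [S1] for `α'` on `V 0`, `V 1` and for `β'` on `V 2`, `V 1`).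
-/
import Fermat.Agent.Lib.S59.CGlue3B
import Fermat.Agent.Lib.S59.MCarGlob3
import Fermat.Agent.Lib.S36.GLocal
import Fermat.Agent.Lib.S36.PClass

set_option autoImplicit false
set_option linter.style.haveILetI false
set_option linter.unusedSectionVars false
set_option linter.unusedVariables false
set_option synthInstance.maxHeartbeats 400000

noncomputable section

namespace Fermat.Agent.Lib.S59

open ModularCurve HahnSeries AlgebraicCurve Fermat.Agent.Lib.FF Fermat.Agent.Lib.S18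
  Fermat.Agent.Lib.S37 Fermat.Agent.Lib.S34 Fermat.Agent.Lib.S35 Fermat.Agent.Lib.S36
  Fermat.Agent.Lib.S33 IsLocalRing

local notation "Kb" => AlgebraicClosure ℚ

section Abs

variable {K₀ : Type} [Field K₀] [Algebra ℚ K₀] [CharZero K₀] {κ : Type} [Field κ]
  (G : s18g_GaussData K₀ κ) [IsDiscreteValuationRing G.A]
  (φ : K₀ →+* Kb) (M q : ℕ) [NeZero M] [NeZero q] (hq : q.Prime) (hqM : ¬ q ∣ M)
  {V : Fin 3 → ValuationSubring (s34m_F K₀ (M * q * q))}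
  (hC : s36g_ValComap G φ M q hq hqM V) (w₁ : s34m_F K₀ (M * q))
  (hB : s35g_BaseData G φ M q hq hqM w₁)
  (hsat : ∀ Q : Place K₀ (s34m_F K₀ (M * q * q)),
      s36g_alpha M q w₁ ∈ Q.toValuationSubring ↔ s36g_beta M q w₁ ∈ Q.toValuationSubring)
  (r : ∀ i : Fin 3, V i →+* LaurentSeries κ)
  (r_ker : ∀ i, ∀ y : V i, r i y = 0 ↔ (y : s34m_F K₀ (M * q * q)) ∈ (V i).nonunits)

local notation "O₁" => s34m_VV G φ M q hq hqM
local notation "S₁" => s18_chart1 (L₀ := K₀) w₁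
local notation "S₂" => s18_chart1 (L₀ := K₀) (s36g_alpha M q w₁)

variable (hγα : ∀ b ∈ s34x_ring (L₀ := K₀) (s34x_infRing (s34m_VV G φ M q hq hqM)) (s18_chart1 w₁),
    s36g_alpha M q b ∈ s34x_ring (L₀ := K₀) (s34x_infRing V) (s18_chart1 (s36g_alpha M q w₁)))
  (hγβ : ∀ b ∈ s34x_ring (L₀ := K₀) (s34x_infRing (s34m_VV G φ M q hq hqM)) (s18_chart1 w₁),
    s36g_beta M q b ∈ s34x_ring (L₀ := K₀) (s34x_infRing V) (s18_chart1 (s36g_alpha M q w₁)))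

include hC in
/-- the components of level `M q` pass through the `α'`-contraction of a multiple point. -/
theorem s59c_through_alpha
    (𝔫 : Ideal (s34x_ring (L₀ := K₀) (s34x_infRing V) (s18_chart1 (s36g_alpha M q w₁))))
    [h𝔫p : 𝔫.IsPrime] (h𝔫 : ∀ j, s36q_compThrough V S₂ 𝔫 j) (i : Bool) :
    s36q_compThrough O₁ S₁ (s36q_pt O₁ V S₁ S₂ (s36g_alpha M q) hγα 𝔫) i := by
  have hαi := fun x => s36b_alpha_mem_iff G φ M q hq hqM hC x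
  cases i
  · exact s36q_compThrough_comap O₁ V S₁ S₂ (s36g_alpha M q) hγα 𝔫 false 2
      (fun x => (hαi x).2.2) (h𝔫 2)
  · exact s36q_compThrough_comap O₁ V S₁ S₂ (s36g_alpha M q) hγα 𝔫 true 0
      (fun x => (hαi x).1) (h𝔫 0)

include hC in
/-- the components of level `M q` pass through the `β'`-contraction of a multiple point. -/
theorem s59c_through_beta
    (𝔫 : Ideal (s34x_ring (L₀ := K₀) (s34x_infRing V) (s18_chart1 (s36g_alpha M q w₁))))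
    [h𝔫p : 𝔫.IsPrime] (h𝔫 : ∀ j, s36q_compThrough V S₂ 𝔫 j) (i : Bool) :
    s36q_compThrough O₁ S₁ (s36q_pt O₁ V S₁ S₂ (s36g_beta M q) hγβ 𝔫) i := by
  have hβi := fun x => s36p_beta_mem_iff G φ M q hq hqM hC x
  cases i
  · exact s36q_compThrough_comap O₁ V S₁ S₂ (s36g_beta M q) hγβ 𝔫 false 2
      (fun x => (hβi x).2.2) (h𝔫 2)
  · exact s36q_compThrough_comap O₁ V S₁ S₂ (s36g_beta M q) hγβ 𝔫 true 0
      (fun x => (hβi x).1) (h𝔫 0)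

include r_ker in
/-- an `α'`-approximation along `V j` computes the residue at `j` as an `∞`-reduction. -/
theorem s59c_r_alpha (j : Fin 3)
    (rjα : ∀ (x : s34m_Vinf G (M * q)) (h : s36g_alpha M q x ∈ V j),
      r j ⟨_, h⟩ = s34m_redInf G (M * q) x)
    (𝔫 : Ideal (s34x_ring (L₀ := K₀) (s34x_infRing V) (s18_chart1 (s36g_alpha M q w₁))))
    [h𝔫p : 𝔫.IsPrime] (hj : s36q_compThrough V S₂ 𝔫 j)
    (hth : ∀ i, s36q_compThrough O₁ S₁ (s36q_pt O₁ V S₁ S₂ (s36g_alpha M q) hγα 𝔫) i)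
    (z : Localization.AtPrime 𝔫)
    (c : Localization.AtPrime (s36q_pt O₁ V S₁ S₂ (s36g_alpha M q) hγα 𝔫))
    (h : s34f_iota (s34x_infRing V) S₂ 𝔫
      (s36q_locMap O₁ V S₁ S₂ (s36g_alpha M q) hγα 𝔫 c - z) ∈ (V j).nonunits) :
    r j ⟨s34f_iota (s34x_infRing V) S₂ 𝔫 z, s36q_iota_mem_comp V S₂ 𝔫 j hj z⟩ =
      s33s_redL G φ M q hq hqM true
        (s59c_iotaO O₁ S₁ (s36q_pt O₁ V S₁ S₂ (s36g_alpha M q) hγα 𝔫) hth c) := by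
  have hm : s36g_alpha M q (s34f_iota (s34x_infRing O₁) S₁
      (s36q_pt O₁ V S₁ S₂ (s36g_alpha M q) hγα 𝔫) c) ∈ V j := by
    rw [← s36q_iota_locMap]
    exact s36q_iota_mem_comp V S₂ 𝔫 j hj _
  rw [s59c_r_of_approx O₁ V S₁ S₂ (s36g_alpha M q) hγα 𝔫 j hj (r j) (r_ker j) z c h hm]
  exact rjα ⟨_, _⟩ hm

include r_ker in
/-- a `β'`-approximation along `V j` computes the residue at `j` as a `0`-reduction. -/
theorem s59c_r_beta (j : Fin 3)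
    (rjβ : ∀ (x : s34m_Vzero G φ M q hq hqM) (h : s36g_beta M q x ∈ V j),
      r j ⟨_, h⟩ = s34m_redZero G φ M q hq hqM x)
    (𝔫 : Ideal (s34x_ring (L₀ := K₀) (s34x_infRing V) (s18_chart1 (s36g_alpha M q w₁))))
    [h𝔫p : 𝔫.IsPrime] (hj : s36q_compThrough V S₂ 𝔫 j)
    (hth : ∀ i, s36q_compThrough O₁ S₁ (s36q_pt O₁ V S₁ S₂ (s36g_beta M q) hγβ 𝔫) i)
    (z : Localization.AtPrime 𝔫)
    (c : Localization.AtPrime (s36q_pt O₁ V S₁ S₂ (s36g_beta M q) hγβ 𝔫))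
    (h : s34f_iota (s34x_infRing V) S₂ 𝔫
      (s36q_locMap O₁ V S₁ S₂ (s36g_beta M q) hγβ 𝔫 c - z) ∈ (V j).nonunits) :
    r j ⟨s34f_iota (s34x_infRing V) S₂ 𝔫 z, s36q_iota_mem_comp V S₂ 𝔫 j hj z⟩ =
      s33s_redL G φ M q hq hqM false
        (s59c_iotaO O₁ S₁ (s36q_pt O₁ V S₁ S₂ (s36g_beta M q) hγβ 𝔫) hth c) := by
  have hm : s36g_beta M q (s34f_iota (s34x_infRing O₁) S₁
      (s36q_pt O₁ V S₁ S₂ (s36g_beta M q) hγβ 𝔫) c) ∈ V j := by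
    rw [← s36q_iota_locMap]
    exact s36q_iota_mem_comp V S₂ 𝔫 j hj _
  rw [s59c_r_of_approx O₁ V S₁ S₂ (s36g_beta M q) hγβ 𝔫 j hj (r j) (r_ker j) z c h hm]
  exact rjβ ⟨_, _⟩ hm

variable (r0α : ∀ (x : s34m_Vinf G (M * q)) (h : s36g_alpha M q x ∈ V 0),
    r 0 ⟨_, h⟩ = s34m_redInf G (M * q) x)
  (r1α : ∀ (x : s34m_Vinf G (M * q)) (h : s36g_alpha M q x ∈ V 1),
    r 1 ⟨_, h⟩ = s34m_redInf G (M * q) x)
  (r1β : ∀ (x : s34m_Vzero G φ M q hq hqM) (h : s36g_beta M q x ∈ V 1),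
    r 1 ⟨_, h⟩ = s34m_redZero G φ M q hq hqM x)
  (r2β : ∀ (x : s34m_Vzero G φ M q hq hqM) (h : s36g_beta M q x ∈ V 2),
    r 2 ⟨_, h⟩ = s34m_redZero G φ M q hq hqM x)

include r_ker r0α r1α in
/-- **the residues at `V 0` and `V 1`** of an element of `(B₂)_𝔫` at a triple point. -/
theorem s59c_triple_approx_zero
    (𝔫 : Ideal (s34x_ring (L₀ := K₀) (s34x_infRing V) (s18_chart1 (s36g_alpha M q w₁))))
    [h𝔫p : 𝔫.IsPrime] (h𝔫 : ∀ j, s36q_compThrough V S₂ 𝔫 j)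
    (hT : s36g_TriplePkg G φ M q hq hqM hC w₁ hB hsat 𝔫)
    (hth : ∀ i, s36q_compThrough O₁ S₁ (s36q_pt O₁ V S₁ S₂ (s36g_alpha M q)
      (s36p_chart1_alpha G φ M q hq hqM hC w₁ hB) 𝔫) i)
    (z : Localization.AtPrime 𝔫) :
    ∃ c c' : Localization.AtPrime (s36q_pt O₁ V S₁ S₂ (s36g_alpha M q)
        (s36p_chart1_alpha G φ M q hq hqM hC w₁ hB) 𝔫),
      ¬ IsUnit (c - c') ∧
      r 0 ⟨s34f_iota (s34x_infRing V) S₂ 𝔫 z, s36q_iota_mem_comp V S₂ 𝔫 0 (h𝔫 0) z⟩ =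
        s33s_redL G φ M q hq hqM true (s59c_iotaO O₁ S₁ _ hth c) ∧
      r 1 ⟨s34f_iota (s34x_infRing V) S₂ 𝔫 z, s36q_iota_mem_comp V S₂ 𝔫 1 (h𝔫 1) z⟩ =
        s33s_redL G φ M q hq hqM true (s59c_iotaO O₁ S₁ _ hth c') := by
  obtain ⟨c₀, h₀⟩ := hT.1 z
  obtain ⟨c₁, h₁⟩ := hT.2.1 z
  exact ⟨c₀, c₁, s59c_approx_congr O₁ V S₁ S₂ (s36g_alpha M q) _ 𝔫 0 1 (h𝔫 0) (h𝔫 1) z c₀ c₁ h₀ h₁,
    s59c_r_alpha G φ M q hq hqM w₁ r r_ker _ 0 r0α 𝔫 (h𝔫 0) hth z c₀ h₀,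
    s59c_r_alpha G φ M q hq hqM w₁ r r_ker _ 1 r1α 𝔫 (h𝔫 1) hth z c₁ h₁⟩

include r_ker r1α r1β r2β in
/-- **the residues at `V 2` and `V 1`** of an element of `(B₂)_𝔫` at a triple point. -/
theorem s59c_triple_approx_two
    (𝔫 : Ideal (s34x_ring (L₀ := K₀) (s34x_infRing V) (s18_chart1 (s36g_alpha M q w₁))))
    [h𝔫p : 𝔫.IsPrime] (h𝔫 : ∀ j, s36q_compThrough V S₂ 𝔫 j)
    (hT : s36g_TriplePkg G φ M q hq hqM hC w₁ hB hsat 𝔫)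
    (hth : ∀ i, s36q_compThrough O₁ S₁ (s36q_pt O₁ V S₁ S₂ (s36g_alpha M q)
      (s36p_chart1_alpha G φ M q hq hqM hC w₁ hB) 𝔫) i)
    (z : Localization.AtPrime 𝔫) :
    ∃ c c' : Localization.AtPrime (s36q_pt O₁ V S₁ S₂ (s36g_alpha M q)
        (s36p_chart1_alpha G φ M q hq hqM hC w₁ hB) 𝔫),
      ¬ IsUnit (c - c') ∧
      r 2 ⟨s34f_iota (s34x_infRing V) S₂ 𝔫 z, s36q_iota_mem_comp V S₂ 𝔫 2 (h𝔫 2) z⟩ =
        s33s_redL G φ M q hq hqM true (s59c_iotaO O₁ S₁ _ hth c) ∧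
      r 1 ⟨s34f_iota (s34x_infRing V) S₂ 𝔫 z, s36q_iota_mem_comp V S₂ 𝔫 1 (h𝔫 1) z⟩ =
        s33s_redL G φ M q hq hqM true (s59c_iotaO O₁ S₁ _ hth c') := by
  have hthβ := s59c_through_beta G φ M q hq hqM hC w₁
    (s36p_chart1_beta G φ M q hq hqM hC w₁ hB (fun Q => (hsat Q).mp)) 𝔫 h𝔫
  obtain ⟨c₂, h₂⟩ := hT.2.2.2.2.1 z
  obtain ⟨c₁', h₁'⟩ := hT.2.2.2.2.2.1 z
  obtain ⟨c₁, h₁⟩ := hT.2.1 z
  have hd : ¬ IsUnit (c₂ - c₁') :=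
    s59c_approx_congr O₁ V S₁ S₂ (s36g_beta M q) _ 𝔫 2 1 (h𝔫 2) (h𝔫 1) z c₂ c₁' h₂ h₁'
  obtain ⟨c, hcd⟩ := hT.2.1 (s36q_locMap O₁ V S₁ S₂ (s36g_beta M q)
    (s36p_chart1_beta G φ M q hq hqM hC w₁ hB (fun Q => (hsat Q).mp)) 𝔫 (c₂ - c₁'))
  have hc : ¬ IsUnit c := by
    apply s59c_locMap_reflects O₁ V S₁ S₂ (s36g_alpha M q) _ 𝔫
    have h1 := s36y_mem_maximalIdeal_of_nonunit V S₂ 𝔫 1 (h𝔫 1) _ hcd
    have h2 := s36q_locMap_mem_maximalIdeal O₁ V S₁ S₂ (s36g_beta M q)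
      (s36p_chart1_beta G φ M q hq hqM hC w₁ hB (fun Q => (hsat Q).mp)) 𝔫 (c₂ - c₁')
      ((mem_maximalIdeal _).mpr hd)
    have := Ideal.add_mem _ h1 h2
    rwa [sub_add_cancel] at this
  have e2 := s59c_r_beta G φ M q hq hqM w₁ r r_ker _ 2 r2β 𝔫 (h𝔫 2) hthβ z c₂ h₂
  have e1' := s59c_r_beta G φ M q hq hqM w₁ r r_ker _ 1 r1β 𝔫 (h𝔫 1) hthβ z c₁' h₁'
  have e1 := s59c_r_alpha G φ M q hq hqM w₁ r r_ker _ 1 r1α 𝔫 (h𝔫 1) hth z c₁ h₁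
  have ed := s59c_r_beta G φ M q hq hqM w₁ r r_ker _ 1 r1β 𝔫 (h𝔫 1) hthβ
    (s36q_locMap O₁ V S₁ S₂ (s36g_beta M q)
      (s36p_chart1_beta G φ M q hq hqM hC w₁ hB (fun Q => (hsat Q).mp)) 𝔫 (c₂ - c₁')) (c₂ - c₁')
    (by rw [sub_self, map_zero]; exact ((V 1).mem_nonunits_iff_or).mpr (Or.inl rfl))
  have ec := s59c_r_alpha G φ M q hq hqM w₁ r r_ker _ 1 r1α 𝔫 (h𝔫 1) hth
    (s36q_locMap O₁ V S₁ S₂ (s36g_beta M q)
      (s36p_chart1_beta G φ M q hq hqM hC w₁ hB (fun Q => (hsat Q).mp)) 𝔫 (c₂ - c₁')) c hcd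
  refine ⟨c₁ + c, c₁, by rwa [add_sub_cancel_left], ?_, e1⟩
  rw [e2, map_add, map_add, ← e1, ← ec, ed, e1', ← map_add, ← map_add, add_sub_cancel]

end Abs

end Fermat.Agent.Lib.S59
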