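/-
Programme (R2) / node **[CAR]**, W5 leaf **[L2-6 GLUE₃]** (helper8, prefix `s59c_`), part 4: **THE LOCAL FORM OF GLUE₃ OVER THE
CONCRETE FRAME** `s59m_L2Data` (helper9's `MCarL2F.lean`, `MCarL2G.lean`; `q ≥ 5`, `q ∤ M`, `ν₂(M) = ν₃(M) = 0`).

* `s59c_over_of_multi` : a triple point `𝔫` of level `M q²` lies over the node `α'⁻¹ 𝔫` of level `M q` (`s59m_Over`);
* `s59c_glue3Loc_of_exists` : `s59m_Glue3Loc h5 D` from the existence of a triple point over every node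
  (proved in `CGlue3D.lean`: `s59c_exists_multi_over_node`, **`s59c_glue3Loc`**).
-/
import Fermat.Agent.Lib.S59.CGlue3C
import Fermat.Agent.Lib.S59.MCarL2G
import Fermat.Agent.Lib.S59.UCarFib3

set_option autoImplicit false
set_option linter.style.haveILetI false
set_option linter.unusedSectionVars false
set_option linter.unusedVariables false
set_option synthInstance.maxHeartbeats 400000

noncomputable section

namespace Fermat.Agent.Lib.S59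

open ModularCurve HahnSeries AlgebraicCurve Fermat.Agent.Lib.FF Fermat.Agent.Lib.S18
  Fermat.Agent.Lib.S28 Fermat.Agent.Lib.S29 Fermat.Agent.Lib.S37 Fermat.Agent.Lib.S34
  Fermat.Agent.Lib.S35 Fermat.Agent.Lib.S33 Fermat.Agent.Lib.S44 Fermat.Agent.Lib.S36 IsLocalRing

local notation "Kb" => AlgebraicClosure ℚ

/-- transport of "in the branch with the same value" along equalities. -/
theorem s59c_transport_ev {Fb K : Type*} [Field Fb] [Field K] (W : ValuationSubring Fb)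
    (ev : W →+* K) {a a' b b' : Fb} (ea : a = a') (eb : b = b')
    (h : ∃ (ha' : a' ∈ W) (hb' : b' ∈ W), ev ⟨a', ha'⟩ = ev ⟨b', hb'⟩) :
    ∃ (ha : a ∈ W) (hb : b ∈ W), ev ⟨a, ha⟩ = ev ⟨b, hb⟩ := by
  subst ea
  subst eb
  exact h

variable {M q : ℕ} [NeZero M] [hq : Fact q.Prime] {hqM : ¬ q ∣ M} (h5 : 5 ≤ q)
  {P : ValuationSubring Kb} {hP : P.LiesOverPrime q}
  {L₀ : IntermediateField ℚ Kb} [FiniteDimensional ℚ ↥L₀]
  {hunr : ∀ τ ∈ P.inertiaSubgroupIn ℚ, ∀ a ∈ L₀, τ a = a}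
  [CharP (IsLocalRing.ResidueField ↥(s18q_A0 P L₀)) q]
  [PerfectField (IsLocalRing.ResidueField ↥(s18q_A0 P L₀))]

set_option maxHeartbeats 3200000 in
/-- **a triple point of level `M q²` lies over the node `α'⁻¹ 𝔫` of level `M q`.** -/
theorem s59c_over_of_multi (h2 : nuTwo M = 0) (h3 : nuThree M = 0)
    (D : s59m_L2Data M q hqM P hP L₀ hunr)
    (𝔫 : Ideal (s34x_ring (L₀ := ↥L₀) (s34x_infRing D.V) (s59m_S2 M q L₀)))
    (h𝔫 : s59m_IsMulti D.V (s59m_S2 M q L₀) 𝔫)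
    (hγ : ∀ b ∈ s34x_ring (L₀ := ↥L₀)
        (s34x_infRing (s34m_VV (s59m_GU q P hP L₀ hunr) (algebraMap ↥L₀ Kb) M q hq.out hqM))
        (s18_chart1 (L₀ := ↥L₀) (s18g_jF (K := ↥L₀) (M * q))),
      s36g_alpha M q b ∈ s34x_ring (L₀ := ↥L₀) (s34x_infRing D.V) (s59m_S2 M q L₀)) :
    ∃ hn : s33s_IsNode (s34m_VV (s59m_GU q P hP L₀ hunr) (algebraMap ↥L₀ Kb) M q hq.out hqM)
        (s34m_unif (s59m_GU q P hP L₀ hunr) (M * q))
        (s18_chart1 (L₀ := ↥L₀) (s18g_jF (K := ↥L₀) (M * q)))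
        (𝔫.comap (s36q_chartMap (s34m_VV (s59m_GU q P hP L₀ hunr) (algebraMap ↥L₀ Kb) M q hq.out hqM)
          D.V (s18_chart1 (L₀ := ↥L₀) (s18g_jF (K := ↥L₀) (M * q))) (s59m_S2 M q L₀)
          (s36g_alpha M q) hγ)),
      s59m_Over h5 D 𝔫 h𝔫 ⟨_, hn⟩ := by
  haveI := h𝔫.1.isPrime
  haveI : NeZero q := ⟨hq.out.ne_zero⟩
  haveI : NumberField ↥L₀ := ⟨⟩
  haveI hdvr : IsDiscreteValuationRing ↥(s18q_A0 P L₀) := s18q_A0_dvr P L₀ hP
  haveI : IsDiscreteValuationRing ↥(s59m_GU q P hP L₀ hunr).A := hdvr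
  have hπ : Function.Surjective (s59m_GU q P hP L₀ hunr).π := IsLocalRing.residue_surjective
  have hϖ : (((s59m_GU q P hP L₀ hunr).ϖ : (s59m_GU q P hP L₀ hunr).A) : ↥L₀) = (q : ↥L₀) := rfl
  obtain ⟨hB, hsat, hFib, hTr, -, -⟩ := s59m_geo_j (algebraMap ↥L₀ Kb) M q hq.out hqM h5 h2 h3
    (s59m_GU q P hP L₀ hunr) hπ hϖ D.pkg
  have hPk := D.pkg
  obtain ⟨hC, hU, -, hCompl, hI, -, -⟩ := hPk
  have hnode := s59u_multi_comap_isNode (s59m_GU q P hP L₀ hunr) (algebraMap ↥L₀ Kb) M q hq.out hqM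
    hC (s18g_jF (K := ↥L₀) (M * q)) hB hCompl hI 𝔫 h𝔫
  have hϖmem := s59u_unif_mem_of_comap (s59m_GU q P hP L₀ hunr) (algebraMap ↥L₀ Kb) M q hq.out hqM
    hC (s18g_jF (K := ↥L₀) (M * q)) hB 𝔫 hnode.2.1
  have hT := hTr 𝔫 h𝔫.1 hϖmem h𝔫.2
  have hth := s59c_through_alpha (s59m_GU q P hP L₀ hunr) (algebraMap ↥L₀ Kb) M q hq.out hqM
    hC (s18g_jF (K := ↥L₀) (M * q))
    (s36p_chart1_alpha (s59m_GU q P hP L₀ hunr) (algebraMap ↥L₀ Kb) M q hq.out hqM hC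
      (s18g_jF (K := ↥L₀) (M * q)) hB) 𝔫 h𝔫.2
  refine ⟨hnode, ?_⟩
  intro z j
  have key : ∃ c c' : Localization.AtPrime
      (s36q_pt (s34m_VV (s59m_GU q P hP L₀ hunr) (algebraMap ↥L₀ Kb) M q hq.out hqM) D.V
        (s18_chart1 (L₀ := ↥L₀) (s18g_jF (K := ↥L₀) (M * q))) (s59m_S2 M q L₀) (s36g_alpha M q)
        (s36p_chart1_alpha (s59m_GU q P hP L₀ hunr) (algebraMap ↥L₀ Kb) M q hq.out hqM hC
          (s18g_jF (K := ↥L₀) (M * q)) hB) 𝔫),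
      ¬ IsUnit (c - c') ∧
      D.r j ⟨s34f_iota (s34x_infRing D.V) (s59m_S2 M q L₀) 𝔫 z,
          s36q_iota_mem_comp D.V (s59m_S2 M q L₀) 𝔫 j (h𝔫.2 j) z⟩ =
        s33s_redL (s59m_GU q P hP L₀ hunr) (algebraMap ↥L₀ Kb) M q hq.out hqM true
          (s59c_iotaO (s34m_VV (s59m_GU q P hP L₀ hunr) (algebraMap ↥L₀ Kb) M q hq.out hqM)
            (s18_chart1 (L₀ := ↥L₀) (s18g_jF (K := ↥L₀) (M * q))) _ hth c) ∧
      D.r 1 ⟨s34f_iota (s34x_infRing D.V) (s59m_S2 M q L₀) 𝔫 z,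
          s36q_iota_mem_comp D.V (s59m_S2 M q L₀) 𝔫 1 (h𝔫.2 1) z⟩ =
        s33s_redL (s59m_GU q P hP L₀ hunr) (algebraMap ↥L₀ Kb) M q hq.out hqM true
          (s59c_iotaO (s34m_VV (s59m_GU q P hP L₀ hunr) (algebraMap ↥L₀ Kb) M q hq.out hqM)
            (s18_chart1 (L₀ := ↥L₀) (s18g_jF (K := ↥L₀) (M * q))) _ hth c') := by
    have h0 := s59c_triple_approx_zero (s59m_GU q P hP L₀ hunr) (algebraMap ↥L₀ Kb) M q hq.out hqM
      hC (s18g_jF (K := ↥L₀) (M * q)) hB hsat D.r D.r_ker D.r0α D.r1α 𝔫 h𝔫.2 hT hth z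
    have h2' := s59c_triple_approx_two (s59m_GU q P hP L₀ hunr) (algebraMap ↥L₀ Kb) M q hq.out hqM
      hC (s18g_jF (K := ↥L₀) (M * q)) hB hsat D.r D.r_ker D.r1α D.r1β D.r2β 𝔫 h𝔫.2 hT hth z
    fin_cases j
    · exact h0
    · obtain ⟨c, c', -, -, e1⟩ := h0
      exact ⟨c', c', by rw [sub_self]; exact not_isUnit_zero, e1, e1⟩
    · exact h2'
  obtain ⟨c, c', hcc, ej, e1⟩ := key
  have hb := s59c_branch_of_loc_five M q hqM h5 ↥L₀ (algebraMap ↥L₀ Kb)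
    (IsLocalRing.ResidueField ↥(s18q_A0 P L₀)) (s59m_GU q P hP L₀ hunr)
    (s59m_hdeg_U M q hqM L₀) (s59m_hT_U M q P L₀ hqM)
    (fun n b hb hn => s18g_exists_relation M (algebraMap ↥L₀ Kb) hn b hb)
    IsLocalRing.residue_surjective 1 1 one_pos (one_mem _) (by rw [inv_one]; exact one_mem _)
    one_ne_zero (by rw [one_mul, pow_one]; rfl) (s59m_hperf_U q P L₀) _ hnode hth c c' hcc
  refine s59c_transport_ev _ _ ?_ ?_ hb
  · exact Subtype.ext ej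
  · exact Subtype.ext e1

/-- **GLUE₃, local form, from the existence of a triple point over every node** (the lying-over statement). -/
theorem s59c_glue3Loc_of_exists (h2 : nuTwo M = 0) (h3 : nuThree M = 0)
    (D : s59m_L2Data M q hqM P hP L₀ hunr)
    (hex : ∀ s : s59m_NodeU M q hqM P hP L₀ hunr,
      ∃ (𝔫₂ : Ideal (s34x_ring (L₀ := ↥L₀) (s34x_infRing D.V) (s59m_S2 M q L₀)))
        (_ : s59m_IsMulti D.V (s59m_S2 M q L₀) 𝔫₂)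
        (hγ : ∀ b ∈ s34x_ring (L₀ := ↥L₀)
          (s34x_infRing (s34m_VV (s59m_GU q P hP L₀ hunr) (algebraMap ↥L₀ Kb) M q hq.out hqM))
          (s18_chart1 (L₀ := ↥L₀) (s18g_jF (K := ↥L₀) (M * q))),
          s36g_alpha M q b ∈ s34x_ring (L₀ := ↥L₀) (s34x_infRing D.V) (s59m_S2 M q L₀)),
        𝔫₂.comap (s36q_chartMap
          (s34m_VV (s59m_GU q P hP L₀ hunr) (algebraMap ↥L₀ Kb) M q hq.out hqM)
          D.V (s18_chart1 (L₀ := ↥L₀) (s18g_jF (K := ↥L₀) (M * q))) (s59m_S2 M q L₀)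
          (s36g_alpha M q) hγ) = s.1) :
    s59m_Glue3Loc h5 D := by
  haveI : NeZero q := ⟨hq.out.ne_zero⟩
  haveI : NumberField ↥L₀ := ⟨⟩
  haveI hdvr : IsDiscreteValuationRing ↥(s18q_A0 P L₀) := s18q_A0_dvr P L₀ hP
  haveI : IsDiscreteValuationRing ↥(s59m_GU q P hP L₀ hunr).A := hdvr
  have hγ₀ := s36p_chart1_alpha (s59m_GU q P hP L₀ hunr) (algebraMap ↥L₀ Kb) M q hq.out hqM D.pkg.1
    (s18g_jF (K := ↥L₀) (M * q)) (s59m_hB_j M q hqM h5 P hP L₀ hunr)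
  refine ⟨fun 𝔫 h𝔫 => ?_, fun s => ?_⟩
  · obtain ⟨hn, hov⟩ := s59c_over_of_multi h5 h2 h3 D 𝔫 h𝔫 hγ₀
    exact ⟨⟨_, hn⟩, hov⟩
  · obtain ⟨𝔫₂, h𝔫₂, hγ, hc⟩ := hex s
    obtain ⟨hn, hov⟩ := s59c_over_of_multi h5 h2 h3 D 𝔫₂ h𝔫₂ hγ
    refine ⟨𝔫₂, h𝔫₂, ?_⟩
    have es : (⟨_, hn⟩ : s59m_NodeU M q hqM P hP L₀ hunr) = s := Subtype.ext hc
    rw [← es]
    exact hov

end Fermat.Agent.Lib.S59
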