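/-
Programme (R2) / node **[CAR]**, W5 leaf **[L2-6 GLUE₃]** (helper8, prefix `s59c_`), part 5: **over every node of level `M q`
there is a triple point of level `M q²`** (lying-over for the integral chart map `α' : B₁ → B₂`, then (FIB) as in helper3's
`s59u_exists_multi_over`, without places), and the closed leaf **`s59c_glue3Loc : s59m_Glue3Loc h5 D`**.
-/
import Fermat.Agent.Lib.S59.CGlue3

set_option autoImplicit false
set_option linter.style.haveILetI false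
set_option linter.unusedSectionVars false
set_option linter.unusedVariables false
set_option synthInstance.maxHeartbeats 400000

noncomputable section

namespace Fermat.Agent.Lib.S59

open ModularCurve HahnSeries AlgebraicCurve Fermat.Agent.Lib.FF Fermat.Agent.Lib.S18
  Fermat.Agent.Lib.S28 Fermat.Agent.Lib.S29 Fermat.Agent.Lib.S37 Fermat.Agent.Lib.S34
  Fermat.Agent.Lib.S35 Fermat.Agent.Lib.S33 Fermat.Agent.Lib.S44 Fermat.Agent.Lib.S36 IsLocalRing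

local notation "Kb" => AlgebraicClosure ℚ

section Abs

variable {K₀ : Type} [Field K₀] [Algebra ℚ K₀] [CharZero K₀] {κ : Type} [Field κ]
  (G : s18g_GaussData K₀ κ) [IsDiscreteValuationRing G.A]
  (φ : K₀ →+* Kb) (M q : ℕ) [NeZero M] [NeZero q] (hq : q.Prime) (hqM : ¬ q ∣ M)
  {V : Fin 3 → ValuationSubring (s34m_F K₀ (M * q * q))}
  (hC : s36g_ValComap G φ M q hq hqM V) (w₁ : s34m_F K₀ (M * q))
  (hB : s35g_BaseData G φ M q hq hqM w₁)
  (hsat : ∀ Q : Place K₀ (s34m_F K₀ (M * q * q)),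
      s36g_alpha M q w₁ ∈ Q.toValuationSubring ↔ s36g_beta M q w₁ ∈ Q.toValuationSubring)

/-- **(FIB) ⇒ over a node of level `M q` there is a multiple point of level `M q²`** (lying-over; no places). -/
theorem s59c_exists_multi_over_node (hCompl : s36g_ValComplete G φ M q hq hqM V)
    (hInd : s36g_ValIndep M q V)
    (hFib : s36g_GeoFib G φ M q hq hqM hC w₁ hB hsat)
    (𝔫₁ : Ideal (s34x_ring (L₀ := K₀) (s34x_infRing (s34m_VV G φ M q hq hqM))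
      (s18_chart1 (L₀ := K₀) w₁)))
    (h𝔫₁ : s33s_IsNode (s34m_VV G φ M q hq hqM) (s34m_unif G (M * q)) (s18_chart1 (L₀ := K₀) w₁) 𝔫₁) :
    ∃ 𝔫₂ : Ideal (s34x_ring (L₀ := K₀) (s34x_infRing V) (s18_chart1 (s36g_alpha M q w₁))),
      s59m_IsMulti V (s18_chart1 (L₀ := K₀) (s36g_alpha M q w₁)) 𝔫₂ ∧
      𝔫₂.comap (s36q_chartMap (s34m_VV G φ M q hq hqM) V (s18_chart1 (L₀ := K₀) w₁)
        (s18_chart1 (L₀ := K₀) (s36g_alpha M q w₁)) (s36g_alpha M q)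
        (s36p_chart1_alpha G φ M q hq hqM hC w₁ hB)) = 𝔫₁ := by
  classical
  have hγ := s36p_chart1_alpha G φ M q hq hqM hC w₁ hB
  have hint := s36p_chart1_int_alpha G φ M q hq hqM hC hCompl hInd w₁ hB hγ
  have hαi := fun x => s36b_alpha_mem_iff G φ M q hq hqM hC x
  letI alg : Algebra (s34x_ring (L₀ := K₀) (s34x_infRing (s34m_VV G φ M q hq hqM))
      (s18_chart1 (L₀ := K₀) w₁))
      (s34x_ring (L₀ := K₀) (s34x_infRing V) (s18_chart1 (s36g_alpha M q w₁))) :=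
    (s36q_chartMap (s34m_VV G φ M q hq hqM) V (s18_chart1 (L₀ := K₀) w₁)
      (s18_chart1 (L₀ := K₀) (s36g_alpha M q w₁)) (s36g_alpha M q) hγ).toAlgebra
  have halg : algebraMap (s34x_ring (L₀ := K₀) (s34x_infRing (s34m_VV G φ M q hq hqM))
      (s18_chart1 (L₀ := K₀) w₁))
      (s34x_ring (L₀ := K₀) (s34x_infRing V) (s18_chart1 (s36g_alpha M q w₁))) =
      s36q_chartMap (s34m_VV G φ M q hq hqM) V (s18_chart1 (L₀ := K₀) w₁)
      (s18_chart1 (L₀ := K₀) (s36g_alpha M q w₁)) (s36g_alpha M q) hγ := rfl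
  haveI : Algebra.IsIntegral (s34x_ring (L₀ := K₀) (s34x_infRing (s34m_VV G φ M q hq hqM))
      (s18_chart1 (L₀ := K₀) w₁))
      (s34x_ring (L₀ := K₀) (s34x_infRing V) (s18_chart1 (s36g_alpha M q w₁))) := ⟨hint⟩
  haveI := h𝔫₁.1
  have hker : RingHom.ker (algebraMap (s34x_ring (L₀ := K₀) (s34x_infRing (s34m_VV G φ M q hq hqM))
      (s18_chart1 (L₀ := K₀) w₁))
      (s34x_ring (L₀ := K₀) (s34x_infRing V) (s18_chart1 (s36g_alpha M q w₁)))) ≤ 𝔫₁ := by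
    intro b hb
    rw [RingHom.mem_ker, halg] at hb
    have h1 := congrArg Subtype.val hb
    rw [s36q_chartMap_coe] at h1
    have h2 : (b : s34m_F K₀ (M * q)) = 0 := (map_eq_zero (s36g_alpha M q)).mp h1
    have : b = 0 := Subtype.ext h2
    rw [this]
    exact 𝔫₁.zero_mem
  obtain ⟨𝔫₂, h𝔫₂max, h𝔫₂c⟩ := Ideal.exists_ideal_over_maximal_of_isIntegral 𝔫₁ hker
  rw [halg] at h𝔫₂c
  haveI : 𝔫₂.IsPrime := h𝔫₂max.isPrime
  have hT : s36q_compThrough (s34m_VV G φ M q hq hqM) (s18_chart1 (L₀ := K₀) w₁)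
      (s36q_pt (s34m_VV G φ M q hq hqM) V (s18_chart1 (L₀ := K₀) w₁)
        (s18_chart1 (L₀ := K₀) (s36g_alpha M q w₁)) (s36g_alpha M q) hγ 𝔫₂) true := by
    show s36q_compThrough _ _ (𝔫₂.comap _) true
    rw [h𝔫₂c, ← s59u_comp_le_iff]
    exact h𝔫₁.2.1
  have hF : s36q_compThrough (s34m_VV G φ M q hq hqM) (s18_chart1 (L₀ := K₀) w₁)
      (s36q_pt (s34m_VV G φ M q hq hqM) V (s18_chart1 (L₀ := K₀) w₁)
        (s18_chart1 (L₀ := K₀) (s36g_alpha M q w₁)) (s36g_alpha M q) hγ 𝔫₂) false := by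
    show s36q_compThrough _ _ (𝔫₂.comap _) false
    rw [h𝔫₂c, ← s59u_comp_le_iff]
    exact h𝔫₁.2.2
  have hϖ := s59u_unif_mem_of_comap G φ M q hq hqM hC w₁ hB 𝔫₂ (by rw [h𝔫₂c]; exact h𝔫₁.2.1)
  have hfib := (hFib 𝔫₂ h𝔫₂max hϖ).1 hT hF
  refine ⟨𝔫₂, ⟨h𝔫₂max, ?_⟩, h𝔫₂c⟩
  intro j
  have key : ∀ (i : Bool) (j : Fin 3),
      (∀ x : s34m_F K₀ (M * q), s36g_alpha M q x ∈ V j ↔ x ∈ s34m_VV G φ M q hq hqM i) →
      s36q_compThrough (s34m_VV G φ M q hq hqM) (s18_chart1 (L₀ := K₀) w₁)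
        (s36q_pt (s34m_VV G φ M q hq hqM) V (s18_chart1 (L₀ := K₀) w₁)
          (s18_chart1 (L₀ := K₀) (s36g_alpha M q w₁)) (s36g_alpha M q) hγ 𝔫₂) i →
      s36q_compThrough V (s18_chart1 (L₀ := K₀) (s36g_alpha M q w₁)) 𝔫₂ j :=
    fun i j hc hi => s36q_comp_through_of_integral (s34m_VV G φ M q hq hqM) V
      (s18_chart1 (L₀ := K₀) w₁) (s18_chart1 (L₀ := K₀) (s36g_alpha M q w₁)) (s36g_alpha M q) hγ
      𝔫₂ hint hfib i j hc hi
  fin_cases j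
  · exact key true 0 (fun x => (hαi x).1) hT
  · exact key true 1 (fun x => (hαi x).2.1) hT
  · exact key false 2 (fun x => (hαi x).2.2) hF

end Abs

variable {M q : ℕ} [NeZero M] [hq : Fact q.Prime] {hqM : ¬ q ∣ M} (h5 : 5 ≤ q)
  {P : ValuationSubring Kb} {hP : P.LiesOverPrime q}
  {L₀ : IntermediateField ℚ Kb} [FiniteDimensional ℚ ↥L₀]
  {hunr : ∀ τ ∈ P.inertiaSubgroupIn ℚ, ∀ a ∈ L₀, τ a = a}
  [CharP (IsLocalRing.ResidueField ↥(s18q_A0 P L₀)) q]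
  [PerfectField (IsLocalRing.ResidueField ↥(s18q_A0 P L₀))]

set_option maxHeartbeats 1600000 in
/-- **[L2-6] GLUE₃, LOCAL FORM**, for the concrete data of level `M q²` (`q ≥ 5`, `ν₂(M) = ν₃(M) = 0`). -/
theorem s59c_glue3Loc (h2 : nuTwo M = 0) (h3 : nuThree M = 0)
    (D : s59m_L2Data M q hqM P hP L₀ hunr) : s59m_Glue3Loc h5 D := by
  haveI : NeZero q := ⟨hq.out.ne_zero⟩
  haveI : NumberField ↥L₀ := ⟨⟩
  haveI hdvr : IsDiscreteValuationRing ↥(s18q_A0 P L₀) := s18q_A0_dvr P L₀ hP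
  haveI : IsDiscreteValuationRing ↥(s59m_GU q P hP L₀ hunr).A := hdvr
  have hπ : Function.Surjective (s59m_GU q P hP L₀ hunr).π := IsLocalRing.residue_surjective
  have hϖ : (((s59m_GU q P hP L₀ hunr).ϖ : (s59m_GU q P hP L₀ hunr).A) : ↥L₀) = (q : ↥L₀) := rfl
  obtain ⟨hB, hsat, hFib, -, -, -⟩ := s59m_geo_j (algebraMap ↥L₀ Kb) M q hq.out hqM h5 h2 h3
    (s59m_GU q P hP L₀ hunr) hπ hϖ D.pkg
  have hPk := D.pkg
  obtain ⟨hC, hU, -, hCompl, hI, -, -⟩ := hPk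
  refine s59c_glue3Loc_of_exists h5 h2 h3 D (fun s => ?_)
  obtain ⟨𝔫₂, h𝔫₂, hc⟩ := s59c_exists_multi_over_node (s59m_GU q P hP L₀ hunr) (algebraMap ↥L₀ Kb)
    M q hq.out hqM hC (s18g_jF (K := ↥L₀) (M * q)) hB hsat hCompl hI hFib s.1 s.2
  exact ⟨𝔫₂, h𝔫₂, _, hc⟩

end Fermat.Agent.Lib.S59
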