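/-
Programme (R2) / node **[CAR]**, the ports to `q ∈ {2, 3}`, W5 leaf **[L2-6 GLUE₃] OVER A CHART PACKAGE** (helper8, prefix
`s59c_`): the twin of `CGlue3.lean` / `CGlue3D.lean` over helper9's W-frame (`MCarL2FW.lean`, `MCarL2GW.lean`): the chart
`{j regular}` (`5 ≤ q`) replaced by a chart `C : s59b_ChartU M q hqM P hP L₀ hunr` whose coordinate has `s36g_BaseFull`
(`hBF : s59m_BaseFullW C`; `s59m_baseFullW_t2/_t3` for the charts of `t₂`, `t₃`), `ν₂(M) = ν₃(M) = 0`.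

* `s59c_over_of_multi_W`       : a triple point `𝔫` of level `M q²` lies over the node `α'⁻¹ 𝔫` of level `M q` (`s59m_OverW`);
* `s59c_glue3LocW_of_exists`   : `s59m_Glue3LocW C D` from the existence of a triple point over every node;
* **`s59c_glue3LocW`**         : the closed leaf `s59m_Glue3LocW C D` (from `hBF`, `h2`, `h3`);
* **`s59c_glue3CW`**           : `s59m_Glue3CW C D` (helper9's `s59m_glue3CW_of_loc`).
-/
import Fermat.Agent.Lib.S59.CGlue3D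
import Fermat.Agent.Lib.S59.MCarL2GW

set_option autoImplicit false
set_option linter.style.haveILetI false
set_option linter.unusedSectionVars false
set_option linter.unusedVariables false
set_option synthInstance.maxHeartbeats 400000

noncomputable section

namespace Fermat.Agent.Lib.S59

open ModularCurve HahnSeries AlgebraicCurve Fermat.Agent.Lib.FF Fermat.Agent.Lib.S18
  Fermat.Agent.Lib.S28 Fermat.Agent.Lib.S29 Fermat.Agent.Lib.S37 Fermat.Agent.Lib.S34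
  Fermat.Agent.Lib.S35 Fermat.Agent.Lib.S33 Fermat.Agent.Lib.S44 Fermat.Agent.Lib.S36 IsLocalRing

local notation "Kb" => AlgebraicClosure ℚ

variable {M q : ℕ} [NeZero M] [hq : Fact q.Prime] {hqM : ¬ q ∣ M}
  {P : ValuationSubring Kb} {hP : P.LiesOverPrime q}
  {L₀ : IntermediateField ℚ Kb} [FiniteDimensional ℚ ↥L₀]
  {hunr : ∀ τ ∈ P.inertiaSubgroupIn ℚ, ∀ a ∈ L₀, τ a = a}
  [CharP (IsLocalRing.ResidueField ↥(s18q_A0 P L₀)) q]
  [PerfectField (IsLocalRing.ResidueField ↥(s18q_A0 P L₀))]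
  (C : s59b_ChartU M q hqM P hP L₀ hunr)

set_option maxHeartbeats 3200000 in
/-- **a triple point of level `M q²` lies over the node `α'⁻¹ 𝔫` of level `M q`** (chart `C`). -/
theorem s59c_over_of_multi_W (hBF : s59m_BaseFullW C) (h2 : nuTwo M = 0) (h3 : nuThree M = 0)
    (D : s59m_L2Data M q hqM P hP L₀ hunr)
    (𝔫 : Ideal (s34x_ring (L₀ := ↥L₀) (s34x_infRing D.V) (s59m_S2W C)))
    (h𝔫 : s59m_IsMulti D.V (s59m_S2W C) 𝔫)
    (hγ : ∀ b ∈ s34x_ring (L₀ := ↥L₀)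
        (s34x_infRing (s34m_VV (s59m_GU q P hP L₀ hunr) (algebraMap ↥L₀ Kb) M q hq.out hqM))
        (s18_chart1 (L₀ := ↥L₀) C.wN),
      s36g_alpha M q b ∈ s34x_ring (L₀ := ↥L₀) (s34x_infRing D.V) (s59m_S2W C)) :
    ∃ hn : s33s_IsNode (s34m_VV (s59m_GU q P hP L₀ hunr) (algebraMap ↥L₀ Kb) M q hq.out hqM)
        (s34m_unif (s59m_GU q P hP L₀ hunr) (M * q))
        (s18_chart1 (L₀ := ↥L₀) C.wN)
        (𝔫.comap (s36q_chartMap (s34m_VV (s59m_GU q P hP L₀ hunr) (algebraMap ↥L₀ Kb) M q hq.out hqM)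
          D.V (s18_chart1 (L₀ := ↥L₀) C.wN) (s59m_S2W C)
          (s36g_alpha M q) hγ)),
      s59m_OverW C D 𝔫 h𝔫 ⟨_, hn⟩ := by
  haveI := h𝔫.1.isPrime
  haveI : NeZero q := ⟨hq.out.ne_zero⟩
  haveI : NumberField ↥L₀ := ⟨⟩
  haveI hdvr : IsDiscreteValuationRing ↥(s18q_A0 P L₀) := s18q_A0_dvr P L₀ hP
  haveI : IsDiscreteValuationRing ↥(s59m_GU q P hP L₀ hunr).A := hdvr
  haveI := C.gen
  have hπ : Function.Surjective (s59m_GU q P hP L₀ hunr).π := IsLocalRing.residue_surjective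
  have hϖ : (((s59m_GU q P hP L₀ hunr).ϖ : (s59m_GU q P hP L₀ hunr).A) : ↥L₀) = (q : ↥L₀) := rfl
  obtain ⟨hB, hsat, hFib, hTr, -, -⟩ := s59m_geo_of_baseFull (algebraMap ↥L₀ Kb) M q hq.out hqM h2 h3
    (s59m_GU q P hP L₀ hunr) hπ hϖ D.pkg C.w C.hwV hBF C.wN C.hwN
  have hPk := D.pkg
  obtain ⟨hC, hU, -, hCompl, hI, -, -⟩ := hPk
  have hnode := s59u_multi_comap_isNode (s59m_GU q P hP L₀ hunr) (algebraMap ↥L₀ Kb) M q hq.out hqM
    hC C.wN hB hCompl hI 𝔫 h𝔫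
  have hϖmem := s59u_unif_mem_of_comap (s59m_GU q P hP L₀ hunr) (algebraMap ↥L₀ Kb) M q hq.out hqM
    hC C.wN hB 𝔫 hnode.2.1
  have hT := hTr 𝔫 h𝔫.1 hϖmem h𝔫.2
  have hth := s59c_through_alpha (s59m_GU q P hP L₀ hunr) (algebraMap ↥L₀ Kb) M q hq.out hqM
    hC C.wN
    (s36p_chart1_alpha (s59m_GU q P hP L₀ hunr) (algebraMap ↥L₀ Kb) M q hq.out hqM hC
      C.wN hB) 𝔫 h𝔫.2
  refine ⟨hnode, ?_⟩
  intro z j
  have key : ∃ c c' : Localization.AtPrime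
      (s36q_pt (s34m_VV (s59m_GU q P hP L₀ hunr) (algebraMap ↥L₀ Kb) M q hq.out hqM) D.V
        (s18_chart1 (L₀ := ↥L₀) C.wN) (s59m_S2W C) (s36g_alpha M q)
        (s36p_chart1_alpha (s59m_GU q P hP L₀ hunr) (algebraMap ↥L₀ Kb) M q hq.out hqM hC
          C.wN hB) 𝔫),
      ¬ IsUnit (c - c') ∧
      D.r j ⟨s34f_iota (s34x_infRing D.V) (s59m_S2W C) 𝔫 z,
          s36q_iota_mem_comp D.V (s59m_S2W C) 𝔫 j (h𝔫.2 j) z⟩ =
        s33s_redL (s59m_GU q P hP L₀ hunr) (algebraMap ↥L₀ Kb) M q hq.out hqM true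
          (s59c_iotaO (s34m_VV (s59m_GU q P hP L₀ hunr) (algebraMap ↥L₀ Kb) M q hq.out hqM)
            (s18_chart1 (L₀ := ↥L₀) C.wN) _ hth c) ∧
      D.r 1 ⟨s34f_iota (s34x_infRing D.V) (s59m_S2W C) 𝔫 z,
          s36q_iota_mem_comp D.V (s59m_S2W C) 𝔫 1 (h𝔫.2 1) z⟩ =
        s33s_redL (s59m_GU q P hP L₀ hunr) (algebraMap ↥L₀ Kb) M q hq.out hqM true
          (s59c_iotaO (s34m_VV (s59m_GU q P hP L₀ hunr) (algebraMap ↥L₀ Kb) M q hq.out hqM)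
            (s18_chart1 (L₀ := ↥L₀) C.wN) _ hth c') := by
    have h0 := s59c_triple_approx_zero (s59m_GU q P hP L₀ hunr) (algebraMap ↥L₀ Kb) M q hq.out hqM
      hC C.wN hB hsat D.r D.r_ker D.r0α D.r1α 𝔫 h𝔫.2 hT hth z
    have h2' := s59c_triple_approx_two (s59m_GU q P hP L₀ hunr) (algebraMap ↥L₀ Kb) M q hq.out hqM
      hC C.wN hB hsat D.r D.r_ker D.r1α D.r1β D.r2β 𝔫 h𝔫.2 hT hth z
    fin_cases j
    · exact h0
    · obtain ⟨c, c', -, -, e1⟩ := h0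
      exact ⟨c', c', by rw [sub_self]; exact not_isUnit_zero, e1, e1⟩
    · exact h2'
  obtain ⟨c, c', hcc, ej, e1⟩ := key
  have hb := s59c_branch_of_loc_w (s59m_GU q P hP L₀ hunr) (algebraMap ↥L₀ Kb) M q hqM
    (s59m_hdeg_U M q hqM L₀) (s59m_hT_U M q P L₀ hqM)
    (fun n b hb hn => s18g_exists_relation M (algebraMap ↥L₀ Kb) hn b hb)
    IsLocalRing.residue_surjective 1 1 one_pos (one_mem _) (by rw [inv_one]; exact one_mem _)
    one_ne_zero (by rw [one_mul, pow_one]; rfl) (s59m_hperf_U q P L₀)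
    C.w C.hwV C.hcoord C.hwtw C.hmain C.wN C.hwN C.hαN C.hαB C.hβB C.hnode _ hnode hth c c' hcc
  refine s59c_transport_ev _ _ ?_ ?_ hb
  · exact Subtype.ext ej
  · exact Subtype.ext e1

/-- **GLUE₃, local form over a chart, from the existence of a triple point over every node** (the lying-over statement). -/
theorem s59c_glue3LocW_of_exists (hBF : s59m_BaseFullW C) (h2 : nuTwo M = 0) (h3 : nuThree M = 0)
    (D : s59m_L2Data M q hqM P hP L₀ hunr)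
    (hex : ∀ s : s59b_NodeUW M q hqM P hP L₀ hunr C,
      ∃ (𝔫₂ : Ideal (s34x_ring (L₀ := ↥L₀) (s34x_infRing D.V) (s59m_S2W C)))
        (_ : s59m_IsMulti D.V (s59m_S2W C) 𝔫₂)
        (hγ : ∀ b ∈ s34x_ring (L₀ := ↥L₀)
          (s34x_infRing (s34m_VV (s59m_GU q P hP L₀ hunr) (algebraMap ↥L₀ Kb) M q hq.out hqM))
          (s18_chart1 (L₀ := ↥L₀) C.wN),
          s36g_alpha M q b ∈ s34x_ring (L₀ := ↥L₀) (s34x_infRing D.V) (s59m_S2W C)),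
        𝔫₂.comap (s36q_chartMap
          (s34m_VV (s59m_GU q P hP L₀ hunr) (algebraMap ↥L₀ Kb) M q hq.out hqM)
          D.V (s18_chart1 (L₀ := ↥L₀) C.wN) (s59m_S2W C)
          (s36g_alpha M q) hγ) = s.1) :
    s59m_Glue3LocW C D := by
  haveI : NeZero q := ⟨hq.out.ne_zero⟩
  haveI : NumberField ↥L₀ := ⟨⟩
  haveI hdvr : IsDiscreteValuationRing ↥(s18q_A0 P L₀) := s18q_A0_dvr P L₀ hP
  haveI : IsDiscreteValuationRing ↥(s59m_GU q P hP L₀ hunr).A := hdvr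
  have hγ₀ := s36p_chart1_alpha (s59m_GU q P hP L₀ hunr) (algebraMap ↥L₀ Kb) M q hq.out hqM D.pkg.1
    C.wN (s59m_hB_W hBF)
  refine ⟨fun 𝔫 h𝔫 => ?_, fun s => ?_⟩
  · obtain ⟨hn, hov⟩ := s59c_over_of_multi_W C hBF h2 h3 D 𝔫 h𝔫 hγ₀
    exact ⟨⟨_, hn⟩, hov⟩
  · obtain ⟨𝔫₂, h𝔫₂, hγ, hc⟩ := hex s
    obtain ⟨hn, hov⟩ := s59c_over_of_multi_W C hBF h2 h3 D 𝔫₂ h𝔫₂ hγ
    refine ⟨𝔫₂, h𝔫₂, ?_⟩
    have es : (⟨_, hn⟩ : s59b_NodeUW M q hqM P hP L₀ hunr C) = s := Subtype.ext hc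
    rw [← es]
    exact hov

set_option maxHeartbeats 1600000 in
/-- **[L2-6] GLUE₃, LOCAL FORM, OVER A CHART** whose coordinate has `s36g_BaseFull` (`ν₂(M) = ν₃(M) = 0`). -/
theorem s59c_glue3LocW (hBF : s59m_BaseFullW C) (h2 : nuTwo M = 0) (h3 : nuThree M = 0)
    (D : s59m_L2Data M q hqM P hP L₀ hunr) : s59m_Glue3LocW C D := by
  haveI : NeZero q := ⟨hq.out.ne_zero⟩
  haveI : NumberField ↥L₀ := ⟨⟩
  haveI hdvr : IsDiscreteValuationRing ↥(s18q_A0 P L₀) := s18q_A0_dvr P L₀ hP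
  haveI : IsDiscreteValuationRing ↥(s59m_GU q P hP L₀ hunr).A := hdvr
  have hπ : Function.Surjective (s59m_GU q P hP L₀ hunr).π := IsLocalRing.residue_surjective
  have hϖ : (((s59m_GU q P hP L₀ hunr).ϖ : (s59m_GU q P hP L₀ hunr).A) : ↥L₀) = (q : ↥L₀) := rfl
  obtain ⟨hB, hsat, hFib, -, -, -⟩ := s59m_geo_of_baseFull (algebraMap ↥L₀ Kb) M q hq.out hqM h2 h3
    (s59m_GU q P hP L₀ hunr) hπ hϖ D.pkg C.w C.hwV hBF C.wN C.hwN
  have hPk := D.pkg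
  obtain ⟨hC, hU, -, hCompl, hI, -, -⟩ := hPk
  refine s59c_glue3LocW_of_exists C hBF h2 h3 D (fun s => ?_)
  obtain ⟨𝔫₂, h𝔫₂, hc⟩ := s59c_exists_multi_over_node (s59m_GU q P hP L₀ hunr) (algebraMap ↥L₀ Kb)
    M q hq.out hqM hC C.wN hB hsat hCompl hI hFib s.1 s.2
  exact ⟨𝔫₂, h𝔫₂, _, hc⟩

/-- **[L2-6] GLUE₃ OVER A CHART** (global form, helper9's contract `s59m_Glue3CW`). -/
theorem s59c_glue3CW (hBF : s59m_BaseFullW C) (h2 : nuTwo M = 0) (h3 : nuThree M = 0)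
    (D : s59m_L2Data M q hqM P hP L₀ hunr) : s59m_Glue3CW C D :=
  s59m_glue3CW_of_loc C hBF D (s59c_glue3LocW C hBF h2 h3 D)

end Fermat.Agent.Lib.S59
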