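/-
Programme (R2) / node **[CAR]**, the ports to `q ∈ {2, 3}`, leaf **[L-e] = [NODE-RAT] OVER A CHART PACKAGE**
(helper8, prefix `s59c_`): the leaf `hrat` of helper2's `s59b_pkgEAt_of_leavesW` (`B4Top.lean`), for EVERY chart package
`C : s59b_ChartU …` (no hypothesis on the `q`-expansion, no `5 ≤ q`):

over an inertia-fixed base field containing `μ_{q²-1}` every node of the chart `{C.wN regular}` of `X₀(M q)` is rational over
the residue field.  Instance of `s59c_node_pow_card_w` (`CNodeRat.lean`) at the fields of `C`.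

* `s59c_node_rat_chart` : over any Gauss datum, `#κ = q ^ (2 f)`;
* **`s59c_hratW`**      : the leaf, VERBATIM (with the unused binder `hC`).
-/
import Fermat.Agent.Lib.S59.CNodeRat
import Fermat.Agent.Lib.S59.B4Top

set_option autoImplicit false
set_option linter.unusedSectionVars false
set_option linter.style.haveILetI false
set_option linter.unusedVariables false
set_option synthInstance.maxHeartbeats 400000
set_option maxHeartbeats 1600000

noncomputable section

namespace Fermat.Agent.Lib.S59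

open ModularCurve AlgebraicCurve HahnSeries Polynomial Fermat.Agent.Lib.FF Fermat.Agent.Lib.S18
  Fermat.Agent.Lib.S34 Fermat.Agent.Lib.S37 Fermat.Agent.Lib.S33 Fermat.Agent.Lib.S36
  Fermat.Agent.Lib.S44 Fermat.Agent.Lib.S28

local notation "Kb" => AlgebraicClosure ℚ

section Chart

variable (M p : ℕ) [NeZero M] [hp : Fact p.Prime] (hpM : ¬ p ∣ M)
  (K₀ : Type) [Field K₀] [NumberField K₀] (φ : K₀ →+* Kb)
  (κ : Type) [Field κ] [CharP κ p] [PerfectField κ]
  (G : s18g_GaussData K₀ κ) [IsDiscreteValuationRing G.A]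
  (hT : s18g_HT κ M) (hdegM : s18g_HDeg K₀ M)
  (hπ : Function.Surjective G.π)

/-- **[NODE-RAT] for a chart package**: over a finite residue field with `#κ = p ^ (2 f)` every node of the chart
`{C.wN regular}` is `κ`-rational. -/
theorem s59c_node_rat_chart (C : s59b_Chart G φ M p hpM hT hdegM) [Finite κ] (f : ℕ)
    (hcard : Nat.card κ = p ^ (2 * f))
    (s : s33s_Node (s34m_VV G φ M p hp.out hpM) (s34m_unif G (M * p))
      (s18_chart1 (L₀ := K₀) C.wN)) :
    Function.Bijective (algebraMap κ (s33s_kG G φ M p hpM (s18_chart1 (L₀ := K₀) C.wN) hπ s)) := by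
  haveI : NeZero p := ⟨hp.out.ne_zero⟩
  haveI := C.gen
  have hdeg : s34m_HDeg K₀ M p := s34r_deg_HDeg φ M p hp.out hpM
  refine s59u_bijective_of_pow_card fun z => ?_
  exact s59c_node_pow_card_w G φ M p hpM hdeg hT hdegM hπ C.w C.hwV C.hcoord C.hwtw C.hmain
    C.wN C.hwN C.hαN C.hαB C.hβB f hcard s z

end Chart

section Canon

variable (M q : ℕ) [NeZero M] [hq : Fact q.Prime] (hqM : ¬ q ∣ M)
  (τ : ∀ (K : Type) [Field K], LaurentSeries K)

/-- **[L-e] = the leaf `hrat` of `s59b_pkgEAt_of_leavesW`**: over an inertia-fixed base field containing `μ_{q²-1}` every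
node of the chart `{C.wN regular}` of `X₀(M q)` is rational over the residue field. -/
theorem s59c_hratW :
    ∀ (P : ValuationSubring Kb) (hP : P.LiesOverPrime q) (L₀ : IntermediateField ℚ Kb)
      [FiniteDimensional ℚ ↥L₀] [CharP (IsLocalRing.ResidueField ↥(s18q_A0 P L₀)) q]
      [PerfectField (IsLocalRing.ResidueField ↥(s18q_A0 P L₀))]
      (hunr : ∀ σ ∈ P.inertiaSubgroupIn ℚ, ∀ a ∈ L₀, σ a = a)
      (C : s59b_ChartU M q hqM P hP L₀ hunr) (hC : s59b_ChartAt M q hqM P hP L₀ hunr C τ),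
      (∃ ζ : Kb, ζ ∈ L₀ ∧ IsPrimitiveRoot ζ (q ^ 2 - 1)) →
      ∀ s : s59b_NodeUW M q hqM P hP L₀ hunr C,
        Function.Bijective (algebraMap (IsLocalRing.ResidueField ↥(s18q_A0 P L₀))
          (s33s_kG (@s37r_G P L₀ (s18q_A0_dvr P L₀ hP) ((q : ℕ) : ↥(s18q_A0 P L₀))
            (s59m_q_irreducible q P hP L₀ hunr)) (algebraMap ↥L₀ Kb) M q hqM
            (s18_chart1 (L₀ := ↥L₀) C.wN) IsLocalRing.residue_surjective s)) := by
  intro P hP L₀ _ _ _ hunr C _ hζ s
  obtain ⟨ζ, hζL, hζ⟩ := hζ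
  haveI : NumberField ↥L₀ := ⟨⟩
  haveI hfin : Finite (IsLocalRing.ResidueField ↥(s18q_A0 P L₀)) := s59m_residue_finite q P hP L₀
  have hq2 : 2 ≤ q := hq.out.two_le
  have hn0 : q ^ 2 - 1 ≠ 0 := by
    have : 2 * 2 ≤ q ^ 2 := by rw [pow_two]; exact Nat.mul_le_mul hq2 hq2
    omega
  have hcop : Nat.Coprime (q ^ 2 - 1) q := by
    have h1 : Nat.Coprime (q ^ 2 - 1) (q ^ 2) := by
      have e : q ^ 2 = (q ^ 2 - 1) + 1 := by omega
      conv_rhs => rw [e]
      simp
    exact Nat.Coprime.coprime_dvd_right (Dvd.intro_left (q ^ 1) (by rw [← pow_succ])) h1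
  have hdvd := s59m_dvd_card_units q P hP L₀ hn0 hcop hζL hζ
  letI := Fintype.ofFinite (IsLocalRing.ResidueField ↥(s18q_A0 P L₀))
  obtain ⟨n, -, hn⟩ := FiniteField.card (IsLocalRing.ResidueField ↥(s18q_A0 P L₀)) q
  rw [Nat.card_units, Nat.card_eq_fintype_card, hn] at hdvd
  obtain ⟨f, hf⟩ := s59c_even_of_dvd q n hq2 hdvd
  have hcard : Nat.card (IsLocalRing.ResidueField ↥(s18q_A0 P L₀)) = q ^ (2 * f) := by
    rw [Nat.card_eq_fintype_card, hn, hf]
  haveI : IsDiscreteValuationRing ↥(s18q_A0 P L₀) := s18q_A0_dvr P L₀ hP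
  haveI : IsDiscreteValuationRing ↥(s37r_G P L₀ ((q : ℕ) : ↥(s18q_A0 P L₀))
      (s59m_q_irreducible q P hP L₀ hunr)).A := s18q_A0_dvr P L₀ hP
  exact s59c_node_rat_chart M q hqM ↥L₀ (algebraMap ↥L₀ Kb)
    (IsLocalRing.ResidueField ↥(s18q_A0 P L₀))
    (s37r_G P L₀ ((q : ℕ) : ↥(s18q_A0 P L₀)) (s59m_q_irreducible q P hP L₀ hunr))
    (s59m_hT_U M q P L₀ hqM) (fun n b hb hn => s18g_exists_relation M (algebraMap ↥L₀ Kb) hn b hb)
    IsLocalRing.residue_surjective C f hcard s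

end Canon

end Fermat.Agent.Lib.S59
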