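/-
Programme (R2) / node **[CAR]**, the ports to `q ∈ {2, 3}`, leaf **[L-d] = THE COUNT DATA OVER A CHART PACKAGE**
(helper8, prefix `s59c_`): the leaf `hcount` of helper2's `s59b_pkgEAt_of_leavesW` (`B4Top.lean`) at the charts of `t₂`
(`q = 3`, `2 ∣ M`) and of `t₃` (`q = 2`, `3 ∣ M`), for `ν₂(M) = ν₃(M) = 0`, VERBATIM.

* **`s59c_hcountW_t2`**, **`s59c_hcountW_t3`** : the leaves (`s59c_countData_W` at the canonical Gauss datum `ϖ = q`, with the
  chart inputs `s59c_chartIn_t2/_t3` and the node rationality `s59c_hratW`); loss `((q - 1) ψ(M))² ^ (2 g(M q))`.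
-/
import Fermat.Agent.Lib.S59.CCountW
import Fermat.Agent.Lib.S59.CChartInT
import Fermat.Agent.Lib.S59.CRatW
import Fermat.Agent.Lib.S59.B4Top

set_option autoImplicit false
set_option linter.unusedSectionVars false
set_option linter.style.haveILetI false
set_option linter.unusedVariables false
set_option synthInstance.maxHeartbeats 400000
set_option maxHeartbeats 1600000

noncomputable section

namespace Fermat.Agent.Lib.S59

open ModularCurve HahnSeries AlgebraicCurve Fermat.Agent.Lib.FF Fermat.Agent.Lib.S18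
  Fermat.Agent.Lib.S28 Fermat.Agent.Lib.S29 Fermat.Agent.Lib.S37 Fermat.Agent.Lib.S34
  Fermat.Agent.Lib.S35 Fermat.Agent.Lib.S33 Fermat.Agent.Lib.S44

local notation "Kb" => AlgebraicClosure ℚ
local notation "Γℚ" => (AlgebraicClosure ℚ ≃ₐ[ℚ] AlgebraicClosure ℚ)

variable (M q p : ℕ) [NeZero M] [hq : Fact q.Prime] [hp : Fact p.Prime] (hqM : ¬ q ∣ M)
  (hpq : p ≠ q)

include hpq in
/-- **[L-d] = the leaf `hcount` of `s59b_pkgEAt_of_leavesW` at the charts of `t₂`** (`q = 3`, `2 ∣ M`, `ν₂(M) = ν₃(M) = 0`). -/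
theorem s59c_hcountW_t2 (hq3 : q = 3) (h2M : 2 ∣ M) (h2 : nuTwo M = 0) (h3 : nuThree M = 0) :
    ∀ (P : ValuationSubring Kb) (hP : P.LiesOverPrime q), ∃ C₀ : ℕ, ∀ (K : ℕ)
      (L₀ : IntermediateField ℚ Kb) [FiniteDimensional ℚ ↥L₀]
      [CharP (IsLocalRing.ResidueField ↥(s18q_A0 P L₀)) q]
      [PerfectField (IsLocalRing.ResidueField ↥(s18q_A0 P L₀))]
      (hB : haveI : NeZero q := ⟨hq.out.ne_zero⟩; s59m_Base M q p K P L₀)
      (hQ : s59b_BaseQ4W M q p K hqM P L₀ (fun K _ => s18u_t2 K))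
      (C : s59b_ChartU M q hqM P hP L₀ hB.unr)
      (hC : s59b_ChartAt M q hqM P hP L₀ hB.unr C (fun K _ => s18u_t2 K)),
      haveI : NeZero q := ⟨hq.out.ne_zero⟩
      Nonempty (s59m_CountData M q p K C₀ (Nat.card (s59b_NodeUW M q hqM P hP L₀ hB.unr C))
        (s59b_kumFrameUW M q hqM P hP L₀ hB.unr C hC.geo (p ^ K) (s59m_pK_ne p K)
          (s59m_q_ndvd_pK q p hpq K)).Tor) := by
  intro P hP
  refine ⟨(((q - 1) * dedekindPsi M) ^ 2) ^ (2 * genusFF Kb (ffi_F (M * q))), ?_⟩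
  intro K L₀ _ _ _ hB hQ C hC
  haveI : NeZero q := ⟨hq.out.ne_zero⟩
  haveI : NumberField ↥L₀ := ⟨⟩
  haveI hdvr : IsDiscreteValuationRing ↥(s18q_A0 P L₀) := s18q_A0_dvr P L₀ hP
  haveI : IsDiscreteValuationRing ↥(s37r_G P L₀ ((q : ℕ) : ↥(s18q_A0 P L₀))
      (s59m_q_irreducible q P hP L₀ hB.unr)).A := hdvr
  have hIn : s59c_ChartIn (s59m_hdeg_U M q hqM L₀) IsLocalRing.residue_surjective C :=
    s59c_chartIn_t2 M q hqM ↥L₀ (algebraMap ↥L₀ Kb) _ _ (s59m_hdeg_U M q hqM L₀)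
      (s59m_hT_U M q P L₀ hqM) (fun n b hb hn => s18g_exists_relation M (algebraMap ↥L₀ Kb) hn b hb)
      IsLocalRing.residue_surjective hq3 h2M h2 h3 rfl C hC.hw hC.hwN
  exact s59c_countData_W M q hqM p hpq K P hP L₀ ((q : ℕ) : ↥(s18q_A0 P L₀))
    (s59m_q_irreducible q P hP L₀ hB.unr) (s59m_hdeg_U M q hqM L₀) (s59m_hT_U M q P L₀ hqM)
    (fun n b hb hn => s18g_exists_relation M (algebraMap ↥L₀ Kb) hn b hb)
    IsLocalRing.residue_surjective 1 1 one_pos (one_mem _) (by rw [inv_one]; exact one_mem _)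
    one_ne_zero (by rw [one_mul, pow_one]; rfl) (s59m_hperf_U q P L₀) hB.unr
    (fun K _ => s18u_t2 K) hQ C hC.geo hC.hwN hIn h2 h3 rfl
    (s59c_hratW M q hqM (fun K _ => s18u_t2 K) P hP L₀ hB.unr C hC hB.zeta2)

include hpq in
/-- **[L-d] = the leaf `hcount` of `s59b_pkgEAt_of_leavesW` at the charts of `t₃`** (`q = 2`, `3 ∣ M`, `ν₂(M) = ν₃(M) = 0`). -/
theorem s59c_hcountW_t3 (hq2 : q = 2) (h3M : 3 ∣ M) (h2 : nuTwo M = 0) (h3 : nuThree M = 0) :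
    ∀ (P : ValuationSubring Kb) (hP : P.LiesOverPrime q), ∃ C₀ : ℕ, ∀ (K : ℕ)
      (L₀ : IntermediateField ℚ Kb) [FiniteDimensional ℚ ↥L₀]
      [CharP (IsLocalRing.ResidueField ↥(s18q_A0 P L₀)) q]
      [PerfectField (IsLocalRing.ResidueField ↥(s18q_A0 P L₀))]
      (hB : haveI : NeZero q := ⟨hq.out.ne_zero⟩; s59m_Base M q p K P L₀)
      (hQ : s59b_BaseQ4W M q p K hqM P L₀ (fun K _ => s18u_t3 K))
      (C : s59b_ChartU M q hqM P hP L₀ hB.unr)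
      (hC : s59b_ChartAt M q hqM P hP L₀ hB.unr C (fun K _ => s18u_t3 K)),
      haveI : NeZero q := ⟨hq.out.ne_zero⟩
      Nonempty (s59m_CountData M q p K C₀ (Nat.card (s59b_NodeUW M q hqM P hP L₀ hB.unr C))
        (s59b_kumFrameUW M q hqM P hP L₀ hB.unr C hC.geo (p ^ K) (s59m_pK_ne p K)
          (s59m_q_ndvd_pK q p hpq K)).Tor) := by
  intro P hP
  refine ⟨(((q - 1) * dedekindPsi M) ^ 2) ^ (2 * genusFF Kb (ffi_F (M * q))), ?_⟩
  intro K L₀ _ _ _ hB hQ C hC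
  haveI : NeZero q := ⟨hq.out.ne_zero⟩
  haveI : NumberField ↥L₀ := ⟨⟩
  haveI hdvr : IsDiscreteValuationRing ↥(s18q_A0 P L₀) := s18q_A0_dvr P L₀ hP
  haveI : IsDiscreteValuationRing ↥(s37r_G P L₀ ((q : ℕ) : ↥(s18q_A0 P L₀))
      (s59m_q_irreducible q P hP L₀ hB.unr)).A := hdvr
  have hIn : s59c_ChartIn (s59m_hdeg_U M q hqM L₀) IsLocalRing.residue_surjective C :=
    s59c_chartIn_t3 M q hqM ↥L₀ (algebraMap ↥L₀ Kb) _ _ (s59m_hdeg_U M q hqM L₀)
      (s59m_hT_U M q P L₀ hqM) (fun n b hb hn => s18g_exists_relation M (algebraMap ↥L₀ Kb) hn b hb)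
      IsLocalRing.residue_surjective hq2 h3M h2 h3 rfl C hC.hw hC.hwN
  exact s59c_countData_W M q hqM p hpq K P hP L₀ ((q : ℕ) : ↥(s18q_A0 P L₀))
    (s59m_q_irreducible q P hP L₀ hB.unr) (s59m_hdeg_U M q hqM L₀) (s59m_hT_U M q P L₀ hqM)
    (fun n b hb hn => s18g_exists_relation M (algebraMap ↥L₀ Kb) hn b hb)
    IsLocalRing.residue_surjective 1 1 one_pos (one_mem _) (by rw [inv_one]; exact one_mem _)
    one_ne_zero (by rw [one_mul, pow_one]; rfl) (s59m_hperf_U q P L₀) hB.unr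
    (fun K _ => s18u_t3 K) hQ C hC.geo hC.hwN hIn h2 h3 rfl
    (s59c_hratW M q hqM (fun K _ => s18u_t3 K) P hP L₀ hB.unr C hC hB.zeta2)

end Fermat.Agent.Lib.S59
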