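/-
S59, case (P), brick [P4] (helper8, prefix `s59c_`), part 1: **(KER-MU)**.

At an S18-good level `M` (`p ∤ M`, `p` odd) and a place `P ∣ p` of `ℚ̄`:

  **an ORDINARY `p`-torsion point of `J₀(M)(ℚ̄)` in the KERNEL OF REDUCTION at `P` is of `μ_p`-type at `P`**

(`x ∈ s33_ordKer M p hp 1 P ⇒ s33_IsMuType M p P x`: the inertia group at `P` acts on `x` through the mod-`p` cyclotomic
character).  This is the replacement of the never-proved contract `s33_OldCount` in the proof of `a_p² ≡ 1`.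

Assembly only: helper1's Stage-1 export `s33d_ord_div` (`DescBig.lean`: the class of a Kummer generator of `x` is
`τ ^ j`-divisible inside the depth-`≥ 1` classes for all `j`) is verbatim the hypothesis `hdiv` of helper4's `s33i_mu`
(`FOMuInst.lean`: on such classes an automorphism of inertia type with `s₀ ζ = ζ ^ n` acts as multiplication by `n`), and
helper3's `s33t_galois_eq_nsmul` translates back to `J₀(M)`.
-/
import Fermat.Agent.Lib.S33.DescBig
import Fermat.Agent.Lib.S33.FOMuInst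
import Fermat.Agent.Lib.S33.TPSetup
import Fermat.Agent.Lib.S33.TPDict

set_option autoImplicit false
set_option linter.style.haveILetI false
set_option linter.unusedSectionVars false
set_option synthInstance.maxHeartbeats 400000

noncomputable section

namespace Fermat.Agent.Lib.S59

open ModularCurve HahnSeries AlgebraicCurve Fermat.Agent.Lib.S18 Fermat.Agent.Lib.S37
  Fermat.Agent.Lib.FF Fermat.Agent.Lib.S29 Fermat.Agent.Lib.S30 Fermat.Agent.Lib.S33
  Fermat.Agent.Lib.S34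

local notation "Kb" => AlgebraicClosure ℚ

set_option maxHeartbeats 1600000 in
/-- **(KER-MU)**: an ordinary `p`-torsion point of `J₀(M)` in the kernel of reduction at `P` is of `μ_p`-type. -/
theorem s59c_ker_mu (M : ℕ) [NeZero M] (p : ℕ) [hp : Fact p.Prime] (hp2 : p ≠ 2)
    (hM : s18_GoodLevel p M) (P : ValuationSubring Kb) (hP : P.LiesOverPrime p) (x : JZero M)
    (hx : x ∈ s33_ordKer M p hp.out 1 P) : s33_IsMuType M p P x := by
  intro σ hσ a ha
  haveI : NeZero p := ⟨hp.out.ne_zero⟩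
  have hpM : ¬ p ∣ M := hM.1
  have hgood : 5 ≤ p ∨ (p = 3 ∧ 2 ∣ M) := by
    rcases hM.2 with h | h | h
    · exact Or.inl h
    · exact Or.inr h
    · exact absurd h.1 hp2
  -- the field
  obtain ⟨Lbig, hLbigfd, hLbig⟩ := s33d_exists_bigField M p
  obtain ⟨ζ, hζ⟩ := HasEnoughRootsOfUnity.exists_primitiveRoot Kb p
  haveI := hLbigfd
  haveI : FiniteDimensional ℚ ↥(IntermediateField.adjoin ℚ {ζ}) :=
    IntermediateField.adjoin.finiteDimensional ((hζ.isIntegral hp.out.pos).tower_top (A := ℚ))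
  haveI : FiniteDimensional ℚ ↥(Lbig ⊔ IntermediateField.adjoin ℚ {ζ}) :=
    IntermediateField.finiteDimensional_sup _ _
  obtain ⟨L₀, hle, hfd, hnorm⟩ :=
    s33t_exists_normal_ge (Lbig ⊔ IntermediateField.adjoin ℚ {ζ})
  haveI := hfd
  haveI := hnorm
  have hLbigle : Lbig ≤ L₀ := le_sup_left.trans hle
  have hζL : ζ ∈ L₀ :=
    hle (le_sup_right (a := Lbig)
      (IntermediateField.subset_adjoin ℚ {ζ} (Set.mem_singleton ζ)))
  have hbig : s33d_BigField M p L₀ := s33d_bigField_mono M p hLbigle hLbig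
  -- the datum over `L₀`
  haveI : NumberField ↥L₀ := ⟨⟩
  haveI hdvr : IsDiscreteValuationRing ↥(s18q_A0 P L₀) := s18q_A0_dvr P L₀ hP
  obtain ⟨ϖ, hϖ⟩ := IsDiscreteValuationRing.exists_irreducible ↥(s18q_A0 P L₀)
  haveI hchar₀ : CharP (IsLocalRing.ResidueField ↥(s18q_A0 P L₀)) p := s37rl_charP P hP L₀
  haveI hperf₀ : PerfectField (IsLocalRing.ResidueField ↥(s18q_A0 P L₀)) :=
    s37rl_perfectField P hP L₀
  haveI : PerfectRing (IsLocalRing.ResidueField ↥(s18q_A0 P L₀)) p := PerfectField.toPerfectRing p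
  haveI hdvr' : IsDiscreteValuationRing ↥(s37r_G P L₀ ϖ hϖ).A :=
    (inferInstance : IsDiscreteValuationRing ↥(s18q_A0 P L₀))
  have hT : s18g_HT (IsLocalRing.ResidueField ↥(s18q_A0 P L₀)) M := s18t_indep_j p M hpM _
  have hdegM : s18g_HDeg ↥L₀ M := fun n b hb hn =>
    s18g_exists_relation M (algebraMap ↥L₀ Kb) hn b hb
  have hπ : Function.Surjective (s37r_G P L₀ ϖ hϖ).π := IsLocalRing.residue_surjective
  obtain ⟨e, ε, he, hε, hεinv, hε0, hpe⟩ := s33t_exists_e P L₀ hp.out hP ϖ hϖ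
  have hperf : ∀ c : IsLocalRing.ResidueField ↥(s18q_A0 P L₀), ∃ d, d ^ p = c :=
    fun c => surjective_frobenius _ p c
  obtain ⟨ζ₀, hζ₀, -⟩ := s33t_exists_zeta L₀ hp.out ζ hζ hζL
  -- a Kummer generator over `L₀`
  have hpx : p • x = 0 := by
    obtain ⟨⟨h, -⟩, -⟩ := hx
    rw [pow_one] at h
    exact h
  obtain ⟨f₀, hf₀⟩ := hbig x hpx
  -- the hypotheses of (MU)
  obtain ⟨t, hCG⟩ := s33i_chartGeo_good' M p hpM hgood L₀ (s37r_G P L₀ ϖ hϖ) hT hdegM hπ e ε he hε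
    hεinv hε0 hpe hperf
  have hTP := s33t_TP M p hpM L₀ ζ₀ hζ₀ (s37r_G P L₀ ϖ hϖ) hT hdegM hπ e ε he hε hεinv hε0 hpe hperf
  have hσI := s33t_inertiaAut_restrict P L₀ ϖ hϖ σ hσ
  have hζa : σ.restrictNormal ↥L₀ (ζ₀ : ↥L₀) = (ζ₀ : ↥L₀) ^ a :=
    s33t_restrict_zeta L₀ σ a ha (ζ₀ : ↥L₀) hζ₀.pow_eq_one
  have hmu := s33i_mu (s37r_G P L₀ ϖ hϖ) M hT hdegM hπ p e ε hp.out he hε hεinv hε0 hpe hperf hCG
    (s33t_TPData M p hpM L₀ ζ₀ hζ₀ (s37r_G P L₀ ϖ hϖ) hT hdegM hπ e ε he hε hεinv hε0 hpe hperf)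
    hTP (σ.restrictNormal ↥L₀) hσI hζ₀ a hζa (f := f₀)
    (fun j => s33d_ord_div P M hP L₀ ϖ hϖ hM hbig ζ₀ hζ₀ hT hdegM hπ e ε he hε hεinv hε0 hpe hperf
      x hx f₀ hf₀ j)
  obtain ⟨c, y, hc0, hy0, e1⟩ := hmu
  exact s33t_galois_eq_nsmul M p L₀ σ a x f₀ ((s33t_isKumGen_iff_desc M p x _).mpr hf₀)
    ⟨c, y, hc0, hy0, e1⟩

end Fermat.Agent.Lib.S59
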