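/-
Programme (R2), node [CAR] / count data, helper8 (prefix `s59c_`): **THE PLACE OF A PRIME OF A DEDEKIND MODEL:
ORDER AND DEGREE** (generic companion of `CNodeDegK.lean`).

`K` a field, `F / K` a field extension, `R` a Dedekind domain with fraction field `F` which is a `K`-algebra
(`IsScalarTower K R F`), `w` a non-zero prime of `R`, `v = Place.ofHeightOneSpectrum w` the place of `F / K`.

* `s59c_resR`, `s59c_resREquiv`     : the residue field of `v` is `R ⧸ w`;
* `s59c_deg_ofHeightOneSpectrum`     : `deg v = dim_K R ⧸ w`;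
* `s59c_ord_ofHeightOneSpectrum`     : `ord_v f = - log (w-adic valuation of f)`;
* `s59c_ord_algebraMap_eq_one`       : `ord_v r = 1` for `r ∈ w ∖ w²`;  `s59c_ord_algebraMap_pos_iff`.
-/
import Fermat.Agent.Lib.FF.FFBasicDedekind

set_option autoImplicit false
set_option linter.style.haveILetI false
set_option linter.unusedSectionVars false
set_option linter.deprecated false
set_option synthInstance.maxHeartbeats 400000

noncomputable section

open IsDedekindDomain WithZero IsLocalRing AlgebraicCurve Fermat.Agent.Lib.FF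

namespace Fermat.Agent.Lib.S59

variable {K F : Type*} [Field K] [Field F] [Algebra K F]
variable {R : Type*} [CommRing R] [IsDedekindDomain R] [Algebra R F] [IsFractionRing R F]
  [Algebra K R] [IsScalarTower K R F]

theorem s59c_coe_mem_ofH (w : HeightOneSpectrum R) (b : R) :
    algebraMap R F b ∈ (Place.ofHeightOneSpectrum (K := K) w).toValuationSubring :=
  w.valuation_le_one b

/-- the reduction `R → k(v)` at the place of a prime `w` of `R`. -/
def s59c_resR (w : HeightOneSpectrum R) :
    R →+* (Place.ofHeightOneSpectrum (K := K) (F := F) w).ResidueField :=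
  (IsLocalRing.residue (Place.ofHeightOneSpectrum (K := K) (F := F) w).toValuationSubring).comp
    ((algebraMap R F).codRestrict
      (Place.ofHeightOneSpectrum (K := K) (F := F) w).toValuationSubring.toSubring
      (fun b => s59c_coe_mem_ofH w b))

theorem s59c_resR_eq_zero_iff (w : HeightOneSpectrum R) (b : R) :
    s59c_resR (K := K) (F := F) w b = 0 ↔ b ∈ w.asIdeal := by
  unfold s59c_resR
  rw [RingHom.comp_apply, IsLocalRing.residue_eq_zero_iff, IsLocalRing.mem_maximalIdeal,
    mem_nonunits_iff]
  have hval : w.valuation F (algebraMap R F b) = w.intValuation b :=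
    w.valuation_of_algebraMap (K := F) b
  constructor
  · intro hnu
    by_contra hb
    apply hnu
    have h1 : w.intValuation b = 1 := (w.intValuation_eq_one_iff_mem_primeCompl b).mpr hb
    have h2 : w.valuation F ((algebraMap R F b)⁻¹) ≤ 1 := by
      rw [map_inv₀, hval, h1, inv_one]
    have hb0 : algebraMap R F b ≠ 0 := by
      intro h0
      rw [h0, map_zero] at hval
      rw [h1] at hval
      exact zero_ne_one hval
    refine ⟨⟨⟨algebraMap R F b, s59c_coe_mem_ofH w b⟩, ⟨(algebraMap R F b)⁻¹, h2⟩, ?_, ?_⟩, rfl⟩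
    · exact Subtype.ext (mul_inv_cancel₀ hb0)
    · exact Subtype.ext (inv_mul_cancel₀ hb0)
  · intro hb hu
    have h1 : w.intValuation b < 1 := (w.intValuation_lt_one_iff_mem b).mpr hb
    obtain ⟨u, hu⟩ := hu
    have h3 : ((u : (Place.ofHeightOneSpectrum (K := K) (F := F) w).toValuationSubring) : F) =
        algebraMap R F b := by
      rw [hu]; rfl
    have h4 : algebraMap R F b *
        ((u⁻¹ : ((Place.ofHeightOneSpectrum (K := K) (F := F) w).toValuationSubring)ˣ) :
        (Place.ofHeightOneSpectrum (K := K) (F := F) w).toValuationSubring) = 1 := by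
      rw [← h3]
      have := congrArg Subtype.val u.mul_inv
      exact this
    have h5 : w.valuation F
        (((u⁻¹ : ((Place.ofHeightOneSpectrum (K := K) (F := F) w).toValuationSubring)ˣ) :
        (Place.ofHeightOneSpectrum (K := K) (F := F) w).toValuationSubring) : F) ≤ 1 :=
      ((u⁻¹ : ((Place.ofHeightOneSpectrum (K := K) (F := F) w).toValuationSubring)ˣ) :
        (Place.ofHeightOneSpectrum (K := K) (F := F) w).toValuationSubring).2
    have h6 := congrArg (w.valuation F) h4
    rw [map_mul, map_one, hval] at h6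
    have h7 : w.intValuation b * w.valuation F
        (((u⁻¹ : ((Place.ofHeightOneSpectrum (K := K) (F := F) w).toValuationSubring)ˣ) :
        (Place.ofHeightOneSpectrum (K := K) (F := F) w).toValuationSubring) : F) < 1 :=
      lt_of_le_of_lt (mul_le_of_le_one_right' h5) h1
    rw [h6] at h7
    exact lt_irrefl _ h7

theorem s59c_resR_surjective (w : HeightOneSpectrum R) :
    Function.Surjective (s59c_resR (K := K) (F := F) w) := by
  intro y
  obtain ⟨a, rfl⟩ := IsLocalRing.residue_surjective y
  have ha : w.valuation F (a : F) ≤ 1 := a.2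
  obtain ⟨n, d, hnd⟩ := w.exists_primeCompl_mul_eq_of_integer (a : F) ha
  haveI : w.asIdeal.IsMaximal := w.isMaximal
  obtain ⟨d', i, hi, e⟩ := Ideal.IsMaximal.exists_inv (I := w.asIdeal) ‹_› d.2
  refine ⟨n * d', ?_⟩
  have h1 : s59c_resR (K := K) (F := F) w i = 0 := (s59c_resR_eq_zero_iff w i).mpr hi
  have h2 : s59c_resR (K := K) (F := F) w (d' * d + i) = 1 := by rw [e, map_one]
  rw [map_add, h1, add_zero, map_mul] at h2
  have h3 : IsLocalRing.residue (Place.ofHeightOneSpectrum (K := K) (F := F) w).toValuationSubring a *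
      s59c_resR (K := K) (F := F) w d = s59c_resR (K := K) (F := F) w n := by
    unfold s59c_resR
    rw [RingHom.comp_apply, RingHom.comp_apply, ← map_mul]
    congr 1
    exact Subtype.ext hnd
  rw [map_mul, ← h3, mul_assoc, mul_comm (s59c_resR (K := K) (F := F) w d), h2, mul_one]

theorem s59c_ker_resR (w : HeightOneSpectrum R) :
    RingHom.ker (s59c_resR (K := K) (F := F) w) = w.asIdeal := by
  ext b
  rw [RingHom.mem_ker, s59c_resR_eq_zero_iff]

/-- `k(v) ≃ R ⧸ w`. -/
def s59c_resREquiv (w : HeightOneSpectrum R) :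
    (Place.ofHeightOneSpectrum (K := K) (F := F) w).ResidueField ≃+* (R ⧸ w.asIdeal) :=
  (RingHom.quotientKerEquivOfSurjective (s59c_resR_surjective (K := K) (F := F) w)).symm.trans
    (Ideal.quotEquivOfEq (s59c_ker_resR w))

theorem s59c_resREquiv_resR (w : HeightOneSpectrum R) (b : R) :
    s59c_resREquiv (K := K) (F := F) w (s59c_resR w b) = Ideal.Quotient.mk w.asIdeal b := by
  unfold s59c_resREquiv
  rw [RingEquiv.trans_apply]
  have h1 : (RingHom.quotientKerEquivOfSurjective
      (s59c_resR_surjective (K := K) (F := F) w)).symm (s59c_resR w b) =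
      Ideal.Quotient.mk _ b := by
    rw [RingEquiv.symm_apply_eq]
    rfl
  rw [h1]
  rfl

/-- **the degree of the place of a prime `w` is `dim_K R ⧸ w`.** -/
theorem s59c_deg_ofHeightOneSpectrum (w : HeightOneSpectrum R) :
    (Place.ofHeightOneSpectrum (K := K) (F := F) w).deg = Module.finrank K (R ⧸ w.asIdeal) := by
  rw [Place.deg]
  refine Algebra.finrank_eq_of_equiv_equiv (RingEquiv.refl K) (s59c_resREquiv w) ?_
  ext c
  simp only [RingHom.comp_apply, RingEquiv.toRingHom_eq_coe, RingHom.coe_coe, RingEquiv.refl_apply]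
  have h1 : algebraMap K (Place.ofHeightOneSpectrum (K := K) (F := F) w).ResidueField c =
      s59c_resR w (algebraMap K R c) := by
    unfold s59c_resR
    rw [RingHom.comp_apply]
    show IsLocalRing.residue _ (algebraMap K _ c) = _
    congr 1
    apply Subtype.ext
    show algebraMap K F c = algebraMap R F (algebraMap K R c)
    exact IsScalarTower.algebraMap_apply K R F c
  rw [h1, s59c_resREquiv_resR]
  rfl

/-- the normalised order of the place of `w` is the `w`-adic valuation. -/
theorem s59c_ord_ofHeightOneSpectrum (w : HeightOneSpectrum R) (f : F) :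
    (Place.ofHeightOneSpectrum (K := K) w).ord f = -(WithZero.log (w.valuation F f)) := by
  rcases eq_or_ne f 0 with rfl | hf
  · simp
  set v := Place.ofHeightOneSpectrum (K := K) (F := F) w
  obtain ⟨m, hm, hmf⟩ := ff_ord_unique v (fun f => -(WithZero.log (w.valuation F f)))
    (fun f g hf hg => by
      simp only [map_mul]
      rw [WithZero.log_mul ((Valuation.ne_zero_iff _).mpr hf) ((Valuation.ne_zero_iff _).mpr hg)]
      ring)
    (fun f hf => by
      show w.valuation F f ≤ 1 ↔ _
      rw [neg_nonneg, ← WithZero.log_one,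
        WithZero.log_le_log ((Valuation.ne_zero_iff _).mpr hf) one_ne_zero])
  obtain ⟨ϖ, hϖ⟩ := w.valuation_exists_uniformizer F
  have hϖ0 : ϖ ≠ 0 := by
    rintro rfl
    rw [map_zero] at hϖ
    exact WithZero.exp_ne_zero hϖ.symm
  have h1 := hmf ϖ hϖ0
  simp only [hϖ, WithZero.log_exp, neg_neg] at h1
  have hm1 : m = 1 := by
    have hd : m ∣ 1 := ⟨v.ord ϖ, h1⟩
    exact Int.eq_one_of_dvd_one hm.le hd
  have := hmf f hf
  simp only [hm1, one_mul] at this
  exact this.symm

/-- `ord_v r > 0 ↔ r ∈ w` for `r ∈ R`, `r ≠ 0`. -/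
theorem s59c_ord_algebraMap_pos_iff (w : HeightOneSpectrum R) (r : R) (hr : r ≠ 0) :
    0 < (Place.ofHeightOneSpectrum (K := K) w).ord (algebraMap R F r) ↔ r ∈ w.asIdeal := by
  rw [s59c_ord_ofHeightOneSpectrum, w.valuation_of_algebraMap (K := F), ← w.intValuation_lt_one_iff_mem]
  have h0 : w.intValuation r ≠ 0 := w.intValuation_ne_zero r hr
  rw [neg_pos, ← WithZero.log_one, WithZero.log_lt_log h0 one_ne_zero]

/-- `ord_v r ≥ n ↔ r ∈ w ^ n` for `r ∈ R`, `r ≠ 0`. -/
theorem s59c_le_ord_algebraMap_iff (w : HeightOneSpectrum R) (r : R) (hr : r ≠ 0) (n : ℕ) :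
    (n : ℤ) ≤ (Place.ofHeightOneSpectrum (K := K) w).ord (algebraMap R F r) ↔ r ∈ w.asIdeal ^ n := by
  rw [s59c_ord_ofHeightOneSpectrum, w.valuation_of_algebraMap (K := F), ← w.intValuation_le_pow_iff_mem]
  have h0 : w.intValuation r ≠ 0 := w.intValuation_ne_zero r hr
  rw [← WithZero.log_le_log h0 WithZero.exp_ne_zero, WithZero.log_exp]
  omega

end Fermat.Agent.Lib.S59
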