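/-
Programme (R2), node [CAR] / count data, helper8 (prefix `s59c_`): **THE LOCAL UNIT AT A REGULAR CROSSING.**

Abstract frame of S34/S36 (as in `CNodeLoc.lean`): `O : Bool → ValuationSubring 𝓕` (`true ↦ V_∞`, `false ↦ V_0`), both
with uniformiser `π` (a constant: `ord_Q π = 0` on the chart), chart `S`, chart ring `B`, `𝔫` a prime of `B` through
which both components pass and which is a REGULAR CROSSING (`s36q_RegCross`: `𝔪 = (u, w)`, `u w = π · unit`).

* **`s59c_eta_of_regCross`** : `η := ι w` is a unit of `V_∞`, `η / π` is a unit of `V_0`, and `η` has neither zero nor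
  pole at the places of the chart through `𝔫`.

So at a regular crossing there is a function which is a unit at all horizontal places through the node with
`δ η = v_0 η - v_∞ η = 1`: helper7's tame (★) (`s59n_local_fin_tame_n`) applies node by node for EVERY exponent,
with no modular unit and no coprimality to `12`.
-/
import Fermat.Agent.Lib.S59.CNodeLoc

set_option autoImplicit false
set_option linter.unusedSectionVars false
set_option linter.style.haveILetI false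

noncomputable section

namespace Fermat.Agent.Lib.S59

open AlgebraicCurve Fermat.Agent.Lib.FF Fermat.Agent.Lib.S18 Fermat.Agent.Lib.S34
  Fermat.Agent.Lib.S33 Fermat.Agent.Lib.S36 Fermat.Agent.Lib.S44 IsLocalRing

variable {L₀ 𝓕 : Type*} [Field L₀] [Field 𝓕] [Algebra L₀ 𝓕]
variable (O : Bool → ValuationSubring 𝓕) (S : Set (Place L₀ 𝓕))
  (𝔫 : Ideal (s34x_ring (s34x_infRing O) S)) [h𝔫 : 𝔫.IsPrime]

/-- **the local unit at a regular crossing.** -/
theorem s59c_eta_of_regCross (π : 𝓕) (hπ0 : π ≠ 0)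
    (hgenT : ∀ y ∈ (O true).nonunits, ∃ c ∈ O true, y = π * c)
    (hgenF : ∀ y ∈ (O false).nonunits, ∃ c ∈ O false, y = π * c)
    (hπord : ∀ Q ∈ S, Q.ord π = 0)
    (hT : s36q_compThrough O S 𝔫 true) (hF : s36q_compThrough O S 𝔫 false)
    (hX : s36q_RegCross O S 𝔫 true false π) :
    ∃ η : 𝓕, η ≠ 0 ∧ η ∈ O true ∧ η⁻¹ ∈ O true ∧ η * π⁻¹ ∈ O false ∧ (η * π⁻¹)⁻¹ ∈ O false ∧
      ∀ Q ∈ S, s34f_through (s34x_infRing O) S 𝔫 Q → Q.ord η = 0 := by
  obtain ⟨u, w, β, hβ, hu, hw, huw, hm⟩ := hX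
  obtain ⟨β', hβ'⟩ := hβ.exists_right_inv
  have hιβ : s34f_iota (s34x_infRing O) S 𝔫 β * s34f_iota (s34x_infRing O) S 𝔫 β' = 1 := by
    rw [← map_mul, hβ', map_one]
  have hιβ0 : s34f_iota (s34x_infRing O) S 𝔫 β ≠ 0 := left_ne_zero_of_mul_eq_one hιβ
  have hιβ'0 : s34f_iota (s34x_infRing O) S 𝔫 β' ≠ 0 := right_ne_zero_of_mul_eq_one hιβ
  have hprod0 : s34f_iota (s34x_infRing O) S 𝔫 u * s34f_iota (s34x_infRing O) S 𝔫 w ≠ 0 := by
    rw [huw]; exact mul_ne_zero hπ0 hιβ0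
  have hw0 : s34f_iota (s34x_infRing O) S 𝔫 w ≠ 0 := right_ne_zero_of_mul hprod0
  have hu0 : s34f_iota (s34x_infRing O) S 𝔫 u ≠ 0 := left_ne_zero_of_mul hprod0
  obtain ⟨c, hc, huc⟩ := hgenT _ hu
  obtain ⟨d, hd, hwd⟩ := hgenF _ hw
  -- `c * ι w = ι β`
  have hcw : c * s34f_iota (s34x_infRing O) S 𝔫 w = s34f_iota (s34x_infRing O) S 𝔫 β := by
    rw [huc, mul_assoc] at huw
    exact mul_left_cancel₀ hπ0 huw
  have hwinv : (s34f_iota (s34x_infRing O) S 𝔫 w)⁻¹ =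
      c * s34f_iota (s34x_infRing O) S 𝔫 β' := by
    apply inv_eq_of_mul_eq_one_right
    calc s34f_iota (s34x_infRing O) S 𝔫 w * (c * s34f_iota (s34x_infRing O) S 𝔫 β')
        = (c * s34f_iota (s34x_infRing O) S 𝔫 w) * s34f_iota (s34x_infRing O) S 𝔫 β' := by ring
      _ = 1 := by rw [hcw, hιβ]
  -- `ι u * d = ι β`
  have hud : s34f_iota (s34x_infRing O) S 𝔫 u * d = s34f_iota (s34x_infRing O) S 𝔫 β := by
    have h1 : π * (s34f_iota (s34x_infRing O) S 𝔫 u * d) =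
        π * s34f_iota (s34x_infRing O) S 𝔫 β := by
      rw [← huw, hwd]; ring
    exact mul_left_cancel₀ hπ0 h1
  have hd0 : d ≠ 0 := by
    rintro rfl
    rw [mul_zero] at hwd
    exact hw0 hwd
  have hdinv : d⁻¹ = s34f_iota (s34x_infRing O) S 𝔫 u * s34f_iota (s34x_infRing O) S 𝔫 β' := by
    apply inv_eq_of_mul_eq_one_right
    calc d * (s34f_iota (s34x_infRing O) S 𝔫 u * s34f_iota (s34x_infRing O) S 𝔫 β')
        = (s34f_iota (s34x_infRing O) S 𝔫 u * d) * s34f_iota (s34x_infRing O) S 𝔫 β' := by ring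
      _ = 1 := by rw [hud, hιβ]
  have hηπ : s34f_iota (s34x_infRing O) S 𝔫 w * π⁻¹ = d := by
    rw [hwd]; field_simp
  refine ⟨s34f_iota (s34x_infRing O) S 𝔫 w, hw0, s59c_iota_mem_comp O S 𝔫 true hT w, ?_, ?_, ?_, ?_⟩
  · rw [hwinv]
    exact (O true).mul_mem _ _ hc (s59c_iota_mem_comp O S 𝔫 true hT β')
  · rw [hηπ]; exact hd
  · rw [hηπ, hdinv]
    exact (O false).mul_mem _ _ (s59c_iota_mem_comp O S 𝔫 false hF u)
      (s59c_iota_mem_comp O S 𝔫 false hF β')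
  · intro Q hQ hth
    have a1 := s34f_iota_ord_nonneg (s34x_infRing O) S 𝔫 u Q hQ hth
    have a2 := s34f_iota_ord_nonneg (s34x_infRing O) S 𝔫 w Q hQ hth
    have a3 := s34f_iota_ord_nonneg (s34x_infRing O) S 𝔫 β Q hQ hth
    have a4 := s34f_iota_ord_nonneg (s34x_infRing O) S 𝔫 β' Q hQ hth
    have e1 := congrArg Q.ord hιβ
    rw [Q.ord_mul hιβ0 hιβ'0, Q.ord_one] at e1
    have e2 := congrArg Q.ord huw
    rw [Q.ord_mul hu0 hw0, Q.ord_mul hπ0 hιβ0, hπord Q hQ] at e2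
    omega

end Fermat.Agent.Lib.S59
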