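/-
Programme (R2), node [CAR] / count data, helper8 (prefix `s59c_`): **THE DIVISOR OF THE REDUCTION OF A
COMPONENT UNIT WITH (Q4), GENERIC FRAME** (the frame of `s44q_divp_gen`: a two-component model
`O : Bool → ValuationSubring 𝓕`, uniformiser `π`, set of divisorial places `S`, coordinate ring `B`,
`ρ b : B → D` the two component maps into a Dedekind domain `D` with fraction field `Fb / κ`).

* `s59c_nodePlace`          : the place of `Fb / κ` at a closed point `𝔪` of the component `true`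
                              (valuation subring `s33s_W` by `rfl`);
* `s59c_node_unif`          : at a regular crossing the reduction of the node unit `η` of `CNodeEta.lean`
                              has order exactly `1` at the node place;
* `s59c_node_cong`          : `f` a unit of `O true`, `f π^{-a}` a unit of `O false`, (Q4) at `𝔪`
                              ⟹ `p ∣ ord_𝔪 (red f) − a`;
* `s59c_divp_cases`         : for a place `v₀ ⊇ D`: `p ∣ ord_{v₀} (red f)` unless `v₀` is a node place.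
-/
import Fermat.Agent.Lib.S59.CNodeEta
import Fermat.Agent.Lib.S59.CNodeDegR
import Fermat.Agent.Lib.S44.QDivGen

set_option autoImplicit false
set_option linter.unusedSectionVars false
set_option linter.style.haveILetI false
set_option synthInstance.maxHeartbeats 400000

noncomputable section

namespace Fermat.Agent.Lib.S59

open AlgebraicCurve IsDedekindDomain Fermat.Agent.Lib.FF Fermat.Agent.Lib.S18 Fermat.Agent.Lib.S34
  Fermat.Agent.Lib.S33 Fermat.Agent.Lib.S36 Fermat.Agent.Lib.S44 IsLocalRing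

section Small

variable {𝓕 Fb : Type*} [Field 𝓕] [Field Fb]

theorem s59c_zpow_mem (V : ValuationSubring 𝓕) {x : 𝓕} (hx : x ∈ V) (hx' : x⁻¹ ∈ V) (k : ℤ) :
    x ^ k ∈ V := by
  cases k with
  | ofNat n => rw [Int.ofNat_eq_natCast, zpow_natCast]; exact pow_mem hx n
  | negSucc n => rw [zpow_negSucc, ← inv_pow]; exact pow_mem hx' (n + 1)

theorem s59c_R_inv (V : ValuationSubring 𝓕) (R : V →+* Fb) {y : 𝓕} (hy0 : y ≠ 0) (hy : y ∈ V)
    (hy' : y⁻¹ ∈ V) : R ⟨y⁻¹, hy'⟩ = (R ⟨y, hy⟩)⁻¹ ∧ R ⟨y, hy⟩ ≠ 0 := by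
  have h1 : R ⟨y, hy⟩ * R ⟨y⁻¹, hy'⟩ = 1 := by
    rw [← map_mul]
    have : (⟨y, hy⟩ * ⟨y⁻¹, hy'⟩ : V) = 1 := Subtype.ext (mul_inv_cancel₀ hy0)
    rw [this, map_one]
  exact ⟨eq_inv_of_mul_eq_one_right h1, left_ne_zero_of_mul_eq_one h1⟩

theorem s59c_R_zpow (V : ValuationSubring 𝓕) (R : V →+* Fb) {y : 𝓕} (hy0 : y ≠ 0) (hy : y ∈ V)
    (hy' : y⁻¹ ∈ V) (k : ℤ) :
    R ⟨y ^ k, s59c_zpow_mem V hy hy' k⟩ = (R ⟨y, hy⟩) ^ k := by
  cases k with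
  | ofNat n =>
    have e : (⟨y ^ (Int.ofNat n), s59c_zpow_mem V hy hy' (Int.ofNat n)⟩ : V) = ⟨y, hy⟩ ^ n := by
      apply Subtype.ext
      show y ^ (Int.ofNat n) = y ^ n
      rw [Int.ofNat_eq_natCast, zpow_natCast]
    rw [e, map_pow, Int.ofNat_eq_natCast, zpow_natCast]
  | negSucc n =>
    have e : (⟨y ^ (Int.negSucc n), s59c_zpow_mem V hy hy' (Int.negSucc n)⟩ : V) =
        ⟨y⁻¹, hy'⟩ ^ (n + 1) := by
      apply Subtype.ext
      show y ^ (Int.negSucc n) = (y⁻¹) ^ (n + 1)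
      rw [zpow_negSucc, inv_pow]
    rw [e, map_pow, (s59c_R_inv V R hy0 hy hy').1, zpow_negSucc, inv_pow]

end Small

section Generic

variable {L₀ 𝓕 : Type*} [Field L₀] [Field 𝓕] [Algebra L₀ 𝓕]
  {D Fb : Type*} [CommRing D] [IsDedekindDomain D] [Field Fb] [Algebra D Fb] [IsFractionRing D Fb]
  {κ : Type*} [Field κ] [Algebra κ Fb] [Algebra κ D] [IsScalarTower κ D Fb]

variable (O : Bool → ValuationSubring 𝓕) (π : 𝓕) (S : Set (Place L₀ 𝓕))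
  (ρ : Bool → (s34x_ring (s34x_infRing O) S →+* D))

/-- **the place of `Fb` at the point of the `∞`-component under a maximal ideal `𝔪 ⊇ ker ρ`.** -/
def s59c_nodePlace (hsurj : Function.Surjective (ρ true)) (hD : ¬ IsField D)
    (𝔪 : Ideal (s34x_ring (s34x_infRing O) S)) [𝔪.IsMaximal] (hk : RingHom.ker (ρ true) ≤ 𝔪) :
    Place κ Fb :=
  Place.ofHeightOneSpectrum (K := κ) (s33s_vNode (ρ true) hsurj hD 𝔪 hk)

theorem s59c_nodePlace_toValuationSubring (hsurj : Function.Surjective (ρ true)) (hD : ¬ IsField D)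
    (𝔪 : Ideal (s34x_ring (s34x_infRing O) S)) [𝔪.IsMaximal] (hk : RingHom.ker (ρ true) ≤ 𝔪) :
    (s59c_nodePlace (κ := κ) O S ρ hsurj hD 𝔪 hk).toValuationSubring =
      s33s_W (Fb := Fb) (ρ true) hsurj hD 𝔪 hk := rfl

/-- `ord (r b) > 0 ↔ b ∈ 𝔪`. -/
theorem s59c_nodePlace_ord_r_pos_iff (hsurj : Function.Surjective (ρ true)) (hD : ¬ IsField D)
    (𝔪 : Ideal (s34x_ring (s34x_infRing O) S)) [𝔪.IsMaximal] (hk : RingHom.ker (ρ true) ≤ 𝔪)
    (b : s34x_ring (s34x_infRing O) S) (hb : ρ true b ≠ 0) :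
    0 < (s59c_nodePlace (κ := κ) O S ρ hsurj hD 𝔪 hk).ord (s33s_r (Fb := Fb) (ρ true) b) ↔ b ∈ 𝔪 := by
  unfold s59c_nodePlace
  rw [s33s_r_apply, s59c_ord_algebraMap_pos_iff _ _ hb]
  exact (s33s_map_isMaximal (ρ true) hsurj 𝔪 hk).2 b

theorem s59c_nodePlace_ord_r_nonneg (hsurj : Function.Surjective (ρ true)) (hD : ¬ IsField D)
    (𝔪 : Ideal (s34x_ring (s34x_infRing O) S)) [𝔪.IsMaximal] (hk : RingHom.ker (ρ true) ≤ 𝔪)
    (b : s34x_ring (s34x_infRing O) S) (hb : ρ true b ≠ 0) :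
    0 ≤ (s59c_nodePlace (κ := κ) O S ρ hsurj hD 𝔪 hk).ord (s33s_r (Fb := Fb) (ρ true) b) := by
  have h0 : s33s_r (Fb := Fb) (ρ true) b ≠ 0 := by
    rw [s33s_r_apply]
    exact fun h => hb ((map_eq_zero_iff _ (IsFractionRing.injective D Fb)).mp h)
  rw [← ff_mem_iff_ord_nonneg _ h0, s33s_r_apply]
  exact s59c_coe_mem_ofH _ _

/-- the reduction of an element of the local ring `B_𝔪` lies in the branch `W_𝔪`. -/
theorem s59c_R_iota_mem_W (hsurj : Function.Surjective (ρ true)) (hD : ¬ IsField D)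
    (𝔪 : Ideal (s34x_ring (s34x_infRing O) S)) [h𝔪 : 𝔪.IsMaximal] (hk : RingHom.ker (ρ true) ≤ 𝔪)
    (R : O true →+* Fb)
    (hR : ∀ b : s34x_ring (s34x_infRing O) S,
      R ⟨(b : 𝓕), s33s_ring_mem O S true b⟩ = s33s_r (ρ true) b)
    (x : Localization.AtPrime 𝔪) (hx : s34f_iota (s34x_infRing O) S 𝔪 x ∈ O true) :
    R ⟨s34f_iota (s34x_infRing O) S 𝔪 x, hx⟩ ∈ s33s_W (Fb := Fb) (ρ true) hsurj hD 𝔪 hk := by
  obtain ⟨b, s, hs, h⟩ := s34f_exists_frac (s34x_infRing O) S 𝔪 x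
  have h1 := congrArg (s34f_iota (s34x_infRing O) S 𝔪) h
  rw [map_mul, s34f_iota_algebraMap, s34f_iota_algebraMap] at h1
  rw [s33s_mem_W_iff]
  refine ⟨s, b, hs, ?_⟩
  rw [← hR, ← hR, ← map_mul]
  refine congrArg R (Subtype.ext ?_)
  show (s : 𝓕) * s34f_iota (s34x_infRing O) S 𝔪 x = (b : 𝓕)
  rw [mul_comm]; exact h1

set_option maxHeartbeats 1600000 in
/-- **the local unit at a regular crossing, with its reduction: a uniformiser of the branch.** -/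
theorem s59c_node_unif (hπ0 : π ≠ 0)
    (hgenT : ∀ y ∈ (O true).nonunits, ∃ c ∈ O true, y = π * c)
    (hgenF : ∀ y ∈ (O false).nonunits, ∃ c ∈ O false, y = π * c)
    (hπord : ∀ Q ∈ S, Q.ord π = 0)
    (hsurj : Function.Surjective (ρ true)) (hD : ¬ IsField D)
    (𝔪 : Ideal (s34x_ring (s34x_infRing O) S)) [h𝔪 : 𝔪.IsMaximal] (hk : RingHom.ker (ρ true) ≤ 𝔪)
    (hT : s36q_compThrough O S 𝔪 true) (hF : s36q_compThrough O S 𝔪 false)
    (hX : s36q_RegCross O S 𝔪 true false π)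
    (R : O true →+* Fb)
    (hR : ∀ b : s34x_ring (s34x_infRing O) S,
      R ⟨(b : 𝓕), s33s_ring_mem O S true b⟩ = s33s_r (ρ true) b)
    (hRnu : ∀ (y : 𝓕) (hy : y ∈ O true), y ∈ (O true).nonunits → R ⟨y, hy⟩ = 0) :
    ∃ (η : 𝓕) (hη : η ∈ O true), η ≠ 0 ∧ η⁻¹ ∈ O true ∧ η * π⁻¹ ∈ O false ∧
      (η * π⁻¹)⁻¹ ∈ O false ∧
      (∀ Q ∈ S, s34f_through (s34x_infRing O) S 𝔪 Q → Q.ord η = 0) ∧
      (s59c_nodePlace (κ := κ) O S ρ hsurj hD 𝔪 hk).ord (R ⟨η, hη⟩) = 1 := by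
  haveI : 𝔪.IsPrime := h𝔪.isPrime
  obtain ⟨u, w, β, hβ, hu, hw, huw, hm⟩ := hX
  obtain ⟨β', hβ'⟩ := hβ.exists_right_inv
  have hιβ : s34f_iota (s34x_infRing O) S 𝔪 β * s34f_iota (s34x_infRing O) S 𝔪 β' = 1 := by
    rw [← map_mul, hβ', map_one]
  have hιβ0 : s34f_iota (s34x_infRing O) S 𝔪 β ≠ 0 := left_ne_zero_of_mul_eq_one hιβ
  have hιβ'0 : s34f_iota (s34x_infRing O) S 𝔪 β' ≠ 0 := right_ne_zero_of_mul_eq_one hιβ
  have hprod0 : s34f_iota (s34x_infRing O) S 𝔪 u * s34f_iota (s34x_infRing O) S 𝔪 w ≠ 0 := by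
    rw [huw]; exact mul_ne_zero hπ0 hιβ0
  have hw0 : s34f_iota (s34x_infRing O) S 𝔪 w ≠ 0 := right_ne_zero_of_mul hprod0
  have hu0 : s34f_iota (s34x_infRing O) S 𝔪 u ≠ 0 := left_ne_zero_of_mul hprod0
  obtain ⟨c, hc, huc⟩ := hgenT _ hu
  obtain ⟨d, hd, hwd⟩ := hgenF _ hw
  have hcw : c * s34f_iota (s34x_infRing O) S 𝔪 w = s34f_iota (s34x_infRing O) S 𝔪 β := by
    rw [huc, mul_assoc] at huw
    exact mul_left_cancel₀ hπ0 huw
  have hwinv : (s34f_iota (s34x_infRing O) S 𝔪 w)⁻¹ =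
      c * s34f_iota (s34x_infRing O) S 𝔪 β' := by
    apply inv_eq_of_mul_eq_one_right
    calc s34f_iota (s34x_infRing O) S 𝔪 w * (c * s34f_iota (s34x_infRing O) S 𝔪 β')
        = (c * s34f_iota (s34x_infRing O) S 𝔪 w) * s34f_iota (s34x_infRing O) S 𝔪 β' := by ring
      _ = 1 := by rw [hcw, hιβ]
  have hud : s34f_iota (s34x_infRing O) S 𝔪 u * d = s34f_iota (s34x_infRing O) S 𝔪 β := by
    have h1 : π * (s34f_iota (s34x_infRing O) S 𝔪 u * d) =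
        π * s34f_iota (s34x_infRing O) S 𝔪 β := by
      rw [← huw, hwd]; ring
    exact mul_left_cancel₀ hπ0 h1
  have hd0 : d ≠ 0 := by
    rintro rfl
    rw [mul_zero] at hwd
    exact hw0 hwd
  have hdinv : d⁻¹ = s34f_iota (s34x_infRing O) S 𝔪 u * s34f_iota (s34x_infRing O) S 𝔪 β' := by
    apply inv_eq_of_mul_eq_one_right
    calc d * (s34f_iota (s34x_infRing O) S 𝔪 u * s34f_iota (s34x_infRing O) S 𝔪 β')
        = (s34f_iota (s34x_infRing O) S 𝔪 u * d) * s34f_iota (s34x_infRing O) S 𝔪 β' := by ring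
      _ = 1 := by rw [hud, hιβ]
  have hηπ : s34f_iota (s34x_infRing O) S 𝔪 w * π⁻¹ = d := by
    rw [hwd]; field_simp
  have hηT : s34f_iota (s34x_infRing O) S 𝔪 w ∈ O true := s59c_iota_mem_comp O S 𝔪 true hT w
  have hηT' : (s34f_iota (s34x_infRing O) S 𝔪 w)⁻¹ ∈ O true := by
    rw [hwinv]
    exact (O true).mul_mem _ _ hc (s59c_iota_mem_comp O S 𝔪 true hT β')
  refine ⟨s34f_iota (s34x_infRing O) S 𝔪 w, hηT, hw0, hηT', ?_, ?_, ?_, ?_⟩
  · rw [hηπ]; exact hd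
  · rw [hηπ, hdinv]
    exact (O false).mul_mem _ _ (s59c_iota_mem_comp O S 𝔪 false hF u)
      (s59c_iota_mem_comp O S 𝔪 false hF β')
  · intro Q hQ hth
    have a1 := s34f_iota_ord_nonneg (s34x_infRing O) S 𝔪 u Q hQ hth
    have a2 := s34f_iota_ord_nonneg (s34x_infRing O) S 𝔪 w Q hQ hth
    have a3 := s34f_iota_ord_nonneg (s34x_infRing O) S 𝔪 β Q hQ hth
    have a4 := s34f_iota_ord_nonneg (s34x_infRing O) S 𝔪 β' Q hQ hth
    have e1 := congrArg Q.ord hιβ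
    rw [Q.ord_mul hιβ0 hιβ'0, Q.ord_one] at e1
    have e2 := congrArg Q.ord huw
    rw [Q.ord_mul hu0 hw0, Q.ord_mul hπ0 hιβ0, hπord Q hQ] at e2
    omega
  · -- the reduction of `η` is a uniformiser
    set v := s59c_nodePlace (κ := κ) (Fb := Fb) O S ρ hsurj hD 𝔪 hk with hv
    set η : 𝓕 := s34f_iota (s34x_infRing O) S 𝔪 w with hηdef
    -- `R η ≠ 0`
    have hRη0 : R ⟨η, hηT⟩ ≠ 0 := by
      intro h0
      have h1 : (⟨η, hηT⟩ : O true) * ⟨η⁻¹, hηT'⟩ = 1 := Subtype.ext (mul_inv_cancel₀ hw0)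
      have h2 := congrArg R h1
      rw [map_mul, h0, zero_mul, map_one] at h2
      exact zero_ne_one h2
    have hmemW : ∀ x : Localization.AtPrime 𝔪, ∀ hx : s34f_iota (s34x_infRing O) S 𝔪 x ∈ O true,
        R ⟨s34f_iota (s34x_infRing O) S 𝔪 x, hx⟩ ∈ v.toValuationSubring := fun x hx =>
      s59c_R_iota_mem_W O S ρ hsurj hD 𝔪 hk R hR x hx
    -- `1 ≤ ord (R η)`
    have hge : 1 ≤ v.ord (R ⟨η, hηT⟩) := by
      obtain ⟨b, s, hs, h⟩ := s34f_exists_frac (s34x_infRing O) S 𝔪 w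
      have h1 := congrArg (s34f_iota (s34x_infRing O) S 𝔪) h
      rw [map_mul, s34f_iota_algebraMap, s34f_iota_algebraMap] at h1
      have hwm : w ∈ maximalIdeal (Localization.AtPrime 𝔪) := by
        rw [hm]; exact Ideal.subset_span (by simp)
      have hb𝔪 : b ∈ 𝔪 := by
        rw [← IsLocalization.AtPrime.to_map_mem_maximal_iff (Localization.AtPrime 𝔪) 𝔪 b, ← h]
        exact Ideal.mul_mem_right _ _ hwm
      have e : R ⟨η, hηT⟩ * s33s_r (Fb := Fb) (ρ true) s = s33s_r (Fb := Fb) (ρ true) b := by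
        rw [← hR, ← hR, ← map_mul]
        exact congrArg R (Subtype.ext h1)
      have hρs : ρ true s ≠ 0 := by
        intro h0
        exact hs (hk ((RingHom.mem_ker).mpr h0))
      have hrs0 : s33s_r (Fb := Fb) (ρ true) s ≠ 0 := by
        rw [s33s_r_apply]
        exact fun h => hρs ((map_eq_zero_iff _ (IsFractionRing.injective D Fb)).mp h)
      have hrb0 : s33s_r (Fb := Fb) (ρ true) b ≠ 0 := by
        rw [← e]; exact mul_ne_zero hRη0 hrs0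
      have hρb : ρ true b ≠ 0 := by
        intro h0
        apply hrb0
        rw [s33s_r_apply, h0, map_zero]
      have o1 : ¬ 0 < v.ord (s33s_r (Fb := Fb) (ρ true) s) := fun h =>
        hs ((s59c_nodePlace_ord_r_pos_iff O S ρ hsurj hD 𝔪 hk s hρs).mp h)
      have o2 := s59c_nodePlace_ord_r_nonneg (κ := κ) (Fb := Fb) O S ρ hsurj hD 𝔪 hk s hρs
      have o3 : 0 < v.ord (s33s_r (Fb := Fb) (ρ true) b) :=
        (s59c_nodePlace_ord_r_pos_iff O S ρ hsurj hD 𝔪 hk b hρb).mpr hb𝔪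
      have o4 := congrArg v.ord e
      rw [v.ord_mul hRη0 hrs0] at o4
      omega
    -- `ord (R η) ≤ 1`
    have hle : v.ord (R ⟨η, hηT⟩) ≤ 1 := by
      obtain ⟨t, ht⟩ := (s33s_vNode (ρ true) hsurj hD 𝔪 hk).intValuation_exists_uniformizer
      obtain ⟨t', rfl⟩ := hsurj t
      have ht0 : ρ true t' ≠ 0 := by
        intro h0
        rw [h0, map_zero] at ht
        exact WithZero.exp_ne_zero ht.symm
      have hrt0 : s33s_r (Fb := Fb) (ρ true) t' ≠ 0 := by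
        rw [s33s_r_apply]
        exact fun h => ht0 ((map_eq_zero_iff _ (IsFractionRing.injective D Fb)).mp h)
      have hordt : v.ord (s33s_r (Fb := Fb) (ρ true) t') = 1 := by
        rw [hv, s59c_nodePlace, s59c_ord_ofHeightOneSpectrum, s33s_r_apply,
          HeightOneSpectrum.valuation_of_algebraMap, ht, WithZero.log_exp]
        norm_num
      have ht'𝔪 : t' ∈ 𝔪 := by
        rw [← s59c_nodePlace_ord_r_pos_iff (κ := κ) (Fb := Fb) O S ρ hsurj hD 𝔪 hk t' ht0, ← hv,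
          hordt]
        norm_num
      have hmem : algebraMap (s34x_ring (s34x_infRing O) S) (Localization.AtPrime 𝔪) t' ∈
          Ideal.span {u, w} := by
        rw [← hm, IsLocalization.AtPrime.to_map_mem_maximal_iff (Localization.AtPrime 𝔪) 𝔪 t']
        exact ht'𝔪
      obtain ⟨α, γ, hαγ⟩ := Ideal.mem_span_pair.mp hmem
      have h2 := congrArg (s34f_iota (s34x_infRing O) S 𝔪) hαγ
      rw [map_add, map_mul, map_mul, s34f_iota_algebraMap] at h2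
      have hαT := s59c_iota_mem_comp O S 𝔪 true hT α
      have hγT := s59c_iota_mem_comp O S 𝔪 true hT γ
      have huT := s59c_iota_mem_comp O S 𝔪 true hT u
      have e : R ⟨s34f_iota (s34x_infRing O) S 𝔪 α, hαT⟩ *
          R ⟨s34f_iota (s34x_infRing O) S 𝔪 u, huT⟩ +
          R ⟨s34f_iota (s34x_infRing O) S 𝔪 γ, hγT⟩ * R ⟨η, hηT⟩ =
          s33s_r (Fb := Fb) (ρ true) t' := by
        rw [← hR, ← map_mul, ← map_mul, ← map_add]
        exact congrArg R (Subtype.ext h2)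
      rw [hRnu _ huT hu, mul_zero, zero_add] at e
      have hγ0 : R ⟨s34f_iota (s34x_infRing O) S 𝔪 γ, hγT⟩ ≠ 0 := by
        intro h0
        rw [h0, zero_mul] at e
        exact hrt0 e.symm
      have o1 : 0 ≤ v.ord (R ⟨s34f_iota (s34x_infRing O) S 𝔪 γ, hγT⟩) :=
        (ff_mem_iff_ord_nonneg v hγ0).mp (hmemW γ hγT)
      have o2 := congrArg v.ord e
      rw [v.ord_mul hγ0 hRη0, hordt] at o2
      omega
    exact le_antisymm hle hge

set_option maxHeartbeats 1600000 in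
/-- **the congruence at a node which is a regular crossing**: `f` a unit of `V_∞` with `v_0 f = a` and the exact (Q4)
at `𝔪`  ⇒  `ord_{v_𝔪} (red_∞ f) ≡ a mod p`. -/
theorem s59c_node_cong (hπ0 : π ≠ 0)
    (hUi : ∀ i, ∀ U : 𝓕, U ≠ 0 → ∃ (n : ℤ) (u : 𝓕), u ∈ O i ∧ u⁻¹ ∈ O i ∧ U = π ^ n * u)
    (hgenT : ∀ y ∈ (O true).nonunits, ∃ c ∈ O true, y = π * c)
    (hgenF : ∀ y ∈ (O false).nonunits, ∃ c ∈ O false, y = π * c)
    (hfin : ∀ y : 𝓕, y ≠ 0 → {Q : Place L₀ 𝓕 | Q ∈ S ∧ Q.ord y ≠ 0}.Finite)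
    (hπS : ∀ Q ∈ S, Q.ord π = 0)
    (hsurj : Function.Surjective (ρ true)) (hD : ¬ IsField D)
    (𝔪 : Ideal (s34x_ring (s34x_infRing O) S)) [h𝔪 : 𝔪.IsMaximal] (hk : RingHom.ker (ρ true) ≤ 𝔪)
    (hT : s36q_compThrough O S 𝔪 true) (hF : s36q_compThrough O S 𝔪 false)
    (hX : s36q_RegCross O S 𝔪 true false π)
    (R : O true →+* Fb)
    (hR : ∀ b : s34x_ring (s34x_infRing O) S,
      R ⟨(b : 𝓕), s33s_ring_mem O S true b⟩ = s33s_r (ρ true) b)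
    (hRnu : ∀ (y : 𝓕) (hy : y ∈ O true), y ∈ (O true).nonunits → R ⟨y, hy⟩ = 0)
    (p : ℕ) (f : 𝓕) (hf0 : f ≠ 0) (hfT : f ∈ O true) (hfT' : f⁻¹ ∈ O true)
    (a : ℤ) (hfa : f * π ^ (-a) ∈ O false) (hfa' : (f * π ^ (-a))⁻¹ ∈ O false)
    (hQ4 : ∃ Φ : 𝓕, Φ ≠ 0 ∧ ∀ Q ∈ S, s34f_through (s34x_infRing O) S 𝔪 Q →
      Q.ord f = (p : ℤ) * Q.ord Φ) :
    (p : ℤ) ∣ (s59c_nodePlace (κ := κ) (Fb := Fb) O S ρ hsurj hD 𝔪 hk).ord (R ⟨f, hfT⟩) - a := by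
  classical
  haveI : 𝔪.IsPrime := h𝔪.isPrime
  set v := s59c_nodePlace (κ := κ) (Fb := Fb) O S ρ hsurj hD 𝔪 hk with hv
  obtain ⟨Φ, hΦ0, hΦ⟩ := hQ4
  obtain ⟨n, uΦ, huT, huT', eΦ⟩ := hUi true Φ hΦ0
  have huΦ0 : uΦ ≠ 0 := by
    rintro rfl
    apply hΦ0
    rw [eΦ, mul_zero]
  obtain ⟨n', u', hu'F, hu'F', eu⟩ := hUi false uΦ huΦ0
  have hu'0 : u' ≠ 0 := by
    rintro rfl
    apply huΦ0
    rw [eu, mul_zero]
  have hup0 : uΦ ^ p ≠ 0 := pow_ne_zero _ huΦ0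
  obtain ⟨η, hηT, hη0, hηT', hηF, hηF', hηord, hηv⟩ :=
    s59c_node_unif (κ := κ) (Fb := Fb) O π S ρ hπ0 hgenT hgenF hπS hsurj hD 𝔪 hk hT hF hX R hR hRnu
  -- the exponent
  set a' : ℤ := a - p * n' with ha'
  -- `E' = f / uΦ ^ p / η ^ a'`
  set E' : 𝓕 := f * (uΦ ^ p)⁻¹ * η ^ (-a') with hE'
  have hE'0 : E' ≠ 0 := mul_ne_zero (mul_ne_zero hf0 (inv_ne_zero hup0)) (zpow_ne_zero _ hη0)
  have hE'T : E' ∈ O true := by
    refine (O true).mul_mem _ _ ((O true).mul_mem _ _ hfT ?_) (s59c_zpow_mem (O true) hηT hηT' _)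
    rw [← inv_pow]; exact pow_mem huT' p
  have hE'T' : E'⁻¹ ∈ O true := by
    rw [hE', mul_inv, mul_inv, inv_inv, ← zpow_neg, neg_neg]
    exact (O true).mul_mem _ _ ((O true).mul_mem _ _ hfT' (pow_mem huT p))
      (s59c_zpow_mem (O true) hηT hηT' _)
  have hπinv0 : π⁻¹ ≠ 0 := inv_ne_zero hπ0
  have hηπ0 : η * π⁻¹ ≠ 0 := mul_ne_zero hη0 hπinv0
  have eE'F : E' = (f * π ^ (-a)) * ((u' ^ p)⁻¹) * (η * π⁻¹) ^ (-a') := by
    rw [hE', eu, mul_zpow, mul_pow, ha']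
    have e1 : (π ^ n') ^ p = π ^ ((p : ℤ) * n') := by
      rw [← zpow_natCast, ← zpow_mul, mul_comm]
    rw [e1, inv_zpow', neg_neg]
    have e2 : π ^ (a - (p : ℤ) * n') = π ^ a * (π ^ ((p : ℤ) * n'))⁻¹ := by
      rw [zpow_sub₀ hπ0, div_eq_mul_inv]
    have e3 : π ^ (-a) = (π ^ a)⁻¹ := zpow_neg _ _
    rw [e2, e3]
    have h1 : π ^ a ≠ 0 := zpow_ne_zero _ hπ0
    have h2 : π ^ ((p : ℤ) * n') ≠ 0 := zpow_ne_zero _ hπ0
    have h3 : u' ^ p ≠ 0 := pow_ne_zero _ hu'0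
    field_simp
  have hE'F : E' ∈ O false := by
    rw [eE'F]
    refine (O false).mul_mem _ _ ((O false).mul_mem _ _ hfa ?_)
      (s59c_zpow_mem (O false) hηF hηF' _)
    rw [← inv_pow]; exact pow_mem hu'F' p
  have hE'F' : E'⁻¹ ∈ O false := by
    rw [eE'F, mul_inv, mul_inv, inv_inv, ← zpow_neg, neg_neg]
    exact (O false).mul_mem _ _ ((O false).mul_mem _ _ hfa' (pow_mem hu'F p))
      (s59c_zpow_mem (O false) hηF hηF' _)
  have hordE' : ∀ Q ∈ S, s34f_through (s34x_infRing O) S 𝔪 Q → Q.ord E' = 0 := by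
    intro Q hQ hth
    have h1 : Q.ord Φ = Q.ord uΦ := by
      rw [eΦ, Q.ord_mul (zpow_ne_zero _ hπ0) huΦ0, Q.ord_zpow, hπS Q hQ, mul_zero, zero_add]
    rw [hE', Q.ord_mul (mul_ne_zero hf0 (inv_ne_zero hup0)) (zpow_ne_zero _ hη0),
      Q.ord_mul hf0 (inv_ne_zero hup0), Q.ord_inv, ← zpow_natCast, Q.ord_zpow, Q.ord_zpow,
      hηord Q hQ hth, hΦ Q hQ hth, h1]
    ring
  -- `R E'` is a unit of the branch
  have key : ∀ (y : 𝓕) (hy0 : y ≠ 0) (hyO : ∀ j, y ∈ O j)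
      (hyn : ∀ Q ∈ S, s34f_through (s34x_infRing O) S 𝔪 Q → Q.ord y = 0),
      R ⟨y, hyO true⟩ ∈ v.toValuationSubring := by
    intro y hy0 hyO hyn
    have hyinf : y ∈ s34x_infRing O := (s34x_mem_infRing O y).mpr hyO
    have hreg : ∀ Q ∈ S, s34f_through (s34x_infRing O) S 𝔪 Q → y ∈ Q.toValuationSubring := by
      intro Q hQ hth
      rw [ff_mem_iff_ord_nonneg Q hy0, hyn Q hQ hth]
    obtain ⟨s, hs, hsy⟩ := s33s_frac_of_reg (s34x_infRing O) S 𝔪 y hyinf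
      (s44c_finite_poles S hfin y) hreg
    show R ⟨y, hyO true⟩ ∈ s33s_W (Fb := Fb) (ρ true) hsurj hD 𝔪 hk
    rw [s33s_mem_W_iff]
    refine ⟨s, ⟨(s : 𝓕) * y, hsy⟩, hs, ?_⟩
    rw [← hR, ← hR, ← map_mul]
    exact congrArg R (Subtype.ext rfl)
  have hE'O : ∀ j, E' ∈ O j := fun j => by cases j; exact hE'F; exact hE'T
  have hE'O' : ∀ j, E'⁻¹ ∈ O j := fun j => by cases j; exact hE'F'; exact hE'T'
  have k1 := key E' hE'0 hE'O hordE'
  have k2 := key E'⁻¹ (inv_ne_zero hE'0) hE'O'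
    (fun Q hQ hth => by rw [Q.ord_inv, hordE' Q hQ hth, neg_zero])
  obtain ⟨i1, i2⟩ := s59c_R_inv (O true) R hE'0 hE'T hE'T'
  have hordRE' : v.ord (R ⟨E', hE'T⟩) = 0 := by
    have a1 := (ff_mem_iff_ord_nonneg v i2).mp k1
    rw [i1] at k2
    have a2 := (ff_mem_iff_ord_nonneg v (inv_ne_zero i2)).mp k2
    rw [v.ord_inv] at a2
    omega
  -- the factorisation
  obtain ⟨-, hRη0⟩ := s59c_R_inv (O true) R hη0 hηT hηT'
  obtain ⟨-, hRu0⟩ := s59c_R_inv (O true) R huΦ0 huT huT'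
  have hfac : R ⟨f, hfT⟩ = R ⟨E', hE'T⟩ * R ⟨η ^ a', s59c_zpow_mem (O true) hηT hηT' a'⟩ *
      R ⟨uΦ, huT⟩ ^ p := by
    rw [← map_pow, ← map_mul, ← map_mul]
    refine congrArg R (Subtype.ext ?_)
    show f = E' * η ^ a' * uΦ ^ p
    rw [hE', zpow_neg]
    have h1 : η ^ a' ≠ 0 := zpow_ne_zero _ hη0
    field_simp
  rw [hfac, s59c_R_zpow (O true) R hη0 hηT hηT' a',
    v.ord_mul (mul_ne_zero i2 (zpow_ne_zero _ hRη0)) (pow_ne_zero _ hRu0),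
    v.ord_mul i2 (zpow_ne_zero _ hRη0), hordRE', v.ord_zpow, ← zpow_natCast, v.ord_zpow, hηv, ha']
  refine ⟨v.ord (R ⟨uΦ, huT⟩) - n', ?_⟩
  ring

set_option maxHeartbeats 1600000 in
/-- **the dichotomy at a place `v₀ ⊇ D` of the `∞`-component**: `f` a unit of `V_∞` with the exact (Q4) at the closed
points of the component: EITHER `p ∣ ord_{v₀} (red_∞ f)` (smooth points) OR `v₀` is the place of a node. -/
theorem s59c_divp_cases (v₀ : Place κ Fb)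
    (hDv : ∀ d : D, algebraMap D Fb d ∈ v₀.toValuationSubring)
    (hπ0 : π ≠ 0) (hπO : ∀ i, π ∈ O i)
    (hUi : ∀ i, ∀ U : 𝓕, U ≠ 0 → ∃ (n : ℤ) (u : 𝓕), u ∈ O i ∧ u⁻¹ ∈ O i ∧ U = π ^ n * u)
    (hfin : ∀ y : 𝓕, y ≠ 0 → {Q : Place L₀ 𝓕 | Q ∈ S ∧ Q.ord y ≠ 0}.Finite)
    (hπS : ∀ Q ∈ S, Q.ord π = 0)
    (hsurj : Function.Surjective (ρ true)) (hD : ¬ IsField D)
    (hker : RingHom.ker (ρ true) = s33s_comp O π S true)
    (R : O true →+* Fb)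
    (hR : ∀ b : s34x_ring (s34x_infRing O) S,
      R ⟨(b : 𝓕), s33s_ring_mem O S true b⟩ = s33s_r (ρ true) b)
    (p : ℕ) (f : 𝓕) (hf0 : f ≠ 0) (hfT : f ∈ O true) (hfT' : f⁻¹ ∈ O true)
    (hQ4 : ∀ 𝔫 : Ideal (s34x_ring (s34x_infRing O) S), 𝔫.IsMaximal → s33s_comp O π S true ≤ 𝔫 →
      ∃ Φ : 𝓕, Φ ≠ 0 ∧ ∀ Q ∈ S, s34f_through (s34x_infRing O) S 𝔫 Q →
        Q.ord f = (p : ℤ) * Q.ord Φ) :
    (p : ℤ) ∣ v₀.ord (R ⟨f, hfT⟩) ∨
      ∃ (𝔪 : Ideal (s34x_ring (s34x_infRing O) S)) (h𝔪 : 𝔪.IsMaximal)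
        (hk : RingHom.ker (ρ true) ≤ 𝔪), s33s_comp O π S false ≤ 𝔪 ∧
        v₀ = @s59c_nodePlace _ _ _ _ _ _ _ _ _ _ _ _ κ _ _ _ _ O S ρ hsurj hD 𝔪 h𝔪 hk := by
  classical
  obtain ⟨𝔮, h𝔮max, h𝔮⟩ := s44q_centre v₀ hDv
  haveI := h𝔮max
  set 𝔪 : Ideal (s34x_ring (s34x_infRing O) S) := Ideal.comap (ρ true) 𝔮 with h𝔪def
  haveI h𝔪max : 𝔪.IsMaximal := Ideal.comap_isMaximal_of_surjective (ρ true) hsurj
  haveI h𝔪prime : 𝔪.IsPrime := h𝔪max.isPrime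
  have hk : RingHom.ker (ρ true) ≤ 𝔪 := by
    intro b hb
    rw [h𝔪def, Ideal.mem_comap, (RingHom.mem_ker).mp hb]
    exact 𝔮.zero_mem
  have hcomp : s33s_comp O π S true ≤ 𝔪 := by
    rw [← hker]
    exact hk
  -- the branch `W_𝔪` lies in `O_{v₀}`
  have hW : ∀ x : Fb, x ∈ s33s_W (Fb := Fb) (ρ true) hsurj hD 𝔪 hk → x ∈ v₀.toValuationSubring := by
    intro x hx
    obtain ⟨c, b, hc, e⟩ := (s33s_mem_W_iff (ρ true) hsurj hD 𝔪 hk x).mp hx
    have hc' : ρ true c ∉ 𝔮 := hc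
    have h1 := h𝔮 _ hc'
    have hne : algebraMap D Fb (ρ true c) ≠ 0 := by
      intro h0
      apply hc'
      have : ρ true c = 0 := (map_eq_zero_iff _ (IsFractionRing.injective D Fb)).mp h0
      rw [this]
      exact 𝔮.zero_mem
    have hx' : x = (algebraMap D Fb (ρ true c))⁻¹ * algebraMap D Fb (ρ true b) := by
      rw [s33s_r_apply, s33s_r_apply] at e
      rw [← e, ← mul_assoc, inv_mul_cancel₀ hne, one_mul]
    rw [hx']
    exact v₀.toValuationSubring.mul_mem _ _ h1 (hDv _)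
  by_cases hnot : s33s_comp O π S false ≤ 𝔪
  · -- a node
    right
    refine ⟨𝔪, h𝔪max, hk, hnot, ?_⟩
    symm
    apply ff_place_eq_of_le
    intro x hx
    exact hW x hx
  · -- a smooth point of the component
    left
    have hord0 : ∀ x : Fb, x ≠ 0 → x ∈ s33s_W (Fb := Fb) (ρ true) hsurj hD 𝔪 hk →
        x⁻¹ ∈ s33s_W (Fb := Fb) (ρ true) hsurj hD 𝔪 hk → v₀.ord x = 0 := by
      intro x hx0 h1 h2
      have a1 := (ff_mem_iff_ord_nonneg v₀ hx0).mp (hW x h1)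
      have a2 := (ff_mem_iff_ord_nonneg v₀ (inv_ne_zero hx0)).mp (hW _ h2)
      rw [v₀.ord_inv] at a2
      omega
    obtain ⟨Φ, hΦ0, hΦ⟩ := hQ4 𝔪 h𝔪max hcomp
    obtain ⟨n, u, hu, hu', e⟩ := hUi true Φ hΦ0
    have hu0 : u ≠ 0 := by
      rintro rfl
      apply hΦ0
      rw [e, mul_zero]
    have hup0 : u ^ p ≠ 0 := pow_ne_zero _ hu0
    have hE : f * (u ^ p)⁻¹ ∈ O true := by
      rw [← inv_pow]
      exact (O true).mul_mem _ _ hfT ((O true).pow_mem hu' p)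
    have hE' : (f * (u ^ p)⁻¹)⁻¹ ∈ O true := by
      rw [mul_inv, inv_inv]
      exact (O true).mul_mem _ _ hfT' ((O true).pow_mem hu p)
    have hE0 : f * (u ^ p)⁻¹ ≠ 0 := mul_ne_zero hf0 (inv_ne_zero hup0)
    have hordE : ∀ Q ∈ s44c_thr O S 𝔪, Q.ord (f * (u ^ p)⁻¹) = 0 := by
      rintro Q ⟨hQ, hth⟩
      have h1 : Q.ord Φ = Q.ord u := by
        rw [e, Q.ord_mul (zpow_ne_zero _ hπ0) hu0, Q.ord_zpow, hπS Q hQ, mul_zero, zero_add]
      rw [Q.ord_mul hf0 (inv_ne_zero hup0), Q.ord_inv, ← zpow_natCast, Q.ord_zpow, hΦ Q hQ hth, h1]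
      ring
    have hregE : ∀ Q ∈ s44c_thr O S 𝔪, f * (u ^ p)⁻¹ ∈ Q.toValuationSubring := by
      intro Q hQ
      rw [ff_mem_iff_ord_nonneg Q hE0, hordE Q hQ]
    have hregE' : ∀ Q ∈ s44c_thr O S 𝔪, (f * (u ^ p)⁻¹)⁻¹ ∈ Q.toValuationSubring := by
      intro Q hQ
      rw [ff_mem_iff_ord_nonneg Q (inv_ne_zero hE0), Q.ord_inv, hordE Q hQ, neg_zero]
    have h1 := s44c_reg_mem_W O π S ρ hπ0 hπO hUi hfin true hsurj hD 𝔪 hk hnot R hR _ hE hregE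
    have h2 := s44c_reg_mem_W O π S ρ hπ0 hπO hUi hfin true hsurj hD 𝔪 hk hnot R hR _ hE' hregE'
    obtain ⟨e1, e2⟩ := s59c_R_inv (O true) R hE0 hE hE'
    rw [e1] at h2
    have h3 := hord0 _ e2 h1 h2
    obtain ⟨-, hRu0⟩ := s59c_R_inv (O true) R hu0 hu hu'
    have hfac : R ⟨f, hfT⟩ = R ⟨f * (u ^ p)⁻¹, hE⟩ * R ⟨u, hu⟩ ^ p := by
      rw [← map_pow, ← map_mul]
      refine congrArg R (Subtype.ext ?_)
      show f = f * (u ^ p)⁻¹ * u ^ p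
      rw [mul_assoc, inv_mul_cancel₀ hup0, mul_one]
    rw [hfac, v₀.ord_mul e2 (pow_ne_zero _ hRu0), h3, zero_add, ← zpow_natCast, v₀.ord_zpow]
    exact dvd_mul_right _ _

end Generic

end Fermat.Agent.Lib.S59
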