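/-
Programme (R2), node [CAR] / count data, helper8 (prefix `s59c_`): **[DEG], part 1: the node places of the `∞`-component
in the frame of the Σ-datum** (`Lib/S33/SSDatum.lean`, section `Build`).

* `s59c_dvd_degree`, `s59c_dvd_deg_sum` : the counting lemma (a divisor of degree `0`, `≡ a` at the places `v s`,
                                          `≡ 0` elsewhere mod `e`  ⟹  `e ∣ a · ∑ deg (v s)`);
* `s59c_nodePlB`              : the place of `F̄_M / κ` at the branch of the node `s` on the `∞`-component;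
* `s59c_nodePlB_deg`          : its degree is `[k_s : κ]`;     `s59c_nodePlB_pos_iff`, `s59c_nodePlB_injective`;
* `s59c_redI_nonunit`         : `red_∞` kills the nonunits of `V_∞`;
* `s59c_nodePlB_cong`         : `ord_{v_s} (red_∞ f) ≡ V_0 (f)  mod e` at a regular crossing, under the exact (Q4);
* `s59c_divp_chart_cases`     : at a place `v₀ ⊇ D`: `e ∣ ord_{v₀} (red_∞ f)`, or `v₀ = v_s` for a node `s`.
-/
import Fermat.Agent.Lib.S59.CNodeDivG
import Fermat.Agent.Lib.S59.CNodeCount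
import Fermat.Agent.Lib.S59.MDiv

set_option autoImplicit false
set_option linter.unusedSectionVars false
set_option linter.style.haveILetI false
set_option synthInstance.maxHeartbeats 400000

noncomputable section

namespace Fermat.Agent.Lib.S59

open ModularCurve AlgebraicCurve HahnSeries Polynomial Fermat.Agent.Lib.FF Fermat.Agent.Lib.S18
  Fermat.Agent.Lib.S34 Fermat.Agent.Lib.S37 Fermat.Agent.Lib.S33 Fermat.Agent.Lib.S36
  Fermat.Agent.Lib.S44

section Counting

variable {K F : Type*} [Field K] [Field F] [Algebra K F]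

/-- a divisor all of whose coefficients are divisible by `e` has degree divisible by `e`. -/
theorem s59c_dvd_degree (D : Divisor K F) (e : ℤ) (h : ∀ v, e ∣ D v) : e ∣ Divisor.degree D := by
  have : Divisor.degree D = D.sum (fun v n => n * (v.deg : ℤ)) := by
    unfold Divisor.degree
    rw [Finsupp.liftAddHom_apply]
    rfl
  rw [this]
  exact Finset.dvd_sum (fun v _ => Dvd.dvd.mul_right (h v) _)

/-- **the counting lemma**: a divisor of degree `0` which is `≡ a` at the (pairwise distinct) places `v s`, `s ∈ T`,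
and `≡ 0` elsewhere, modulo `e`:  `e ∣ a · ∑_{s ∈ T} deg (v s)`. -/
theorem s59c_dvd_deg_sum (D : Divisor K F) (hD : Divisor.degree D = 0) (e a : ℤ)
    {ι : Type*} (T : Finset ι) (v : ι → Place K F) (hv : Set.InjOn v T)
    (hoff : ∀ w, (∀ s ∈ T, w ≠ v s) → e ∣ D w)
    (hon : ∀ s ∈ T, e ∣ D (v s) - a) :
    e ∣ a * ∑ s ∈ T, ((v s).deg : ℤ) := by
  classical
  set D' : Divisor K F := D - ∑ s ∈ T, Finsupp.single (v s) a with hD'
  have h1 : ∀ w, e ∣ D' w := by
    intro w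
    rw [hD', Finsupp.sub_apply, Finsupp.finsetSum_apply]
    by_cases hw : ∃ s ∈ T, w = v s
    · obtain ⟨s, hs, rfl⟩ := hw
      rw [Finset.sum_eq_single_of_mem s hs, Finsupp.single_eq_same]
      · exact hon s hs
      · intro s' hs' hne
        rw [Finsupp.single_eq_of_ne]
        intro h
        exact hne (hv hs' hs h.symm)
    · push Not at hw
      rw [Finset.sum_eq_zero, sub_zero]
      · exact hoff w hw
      · intro s hs
        rw [Finsupp.single_eq_of_ne]
        exact fun h => hw s hs h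
  have h2 := s59c_dvd_degree D' e h1
  rw [hD', map_sub, hD, zero_sub, map_sum] at h2
  simp only [Divisor.degree_single] at h2
  rw [← Finset.mul_sum] at h2
  exact (dvd_neg.mp h2)

end Counting

local notation "Kb" => AlgebraicClosure ℚ

section Build

variable {K₀ : Type} [Field K₀] [CharZero K₀] [Algebra ℚ K₀] {κ : Type} [Field κ]
  (G : s18g_GaussData K₀ κ) (φ : K₀ →+* Kb) (M p : ℕ) [NeZero M] [hp : Fact p.Prime]
  (hpM : ¬ p ∣ M) [CharP κ p] [PerfectRing κ p]
  (hdeg : s34m_HDeg K₀ M p) (hT : s18g_HT κ M) (hdegM : s18g_HDeg K₀ M)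
  (hπ : Function.Surjective G.π)
  (S : Set (Place K₀ (s34m_F K₀ (M * p))))

local notation "FbM" => modularFunctionFieldFullC κ M
local notation "OO" => s34m_VV G φ M p hp.out hpM
local notation "ϖF" => s34m_unif G (M * p)
local notation "BS" => s34x_ring (s34x_infRing (s34m_VV G φ M p hp.out hpM)) S

variable {D : Type*} [CommRing D] [IsDedekindDomain D] [Algebra D ↥(modularFunctionFieldFullC κ M)]
  [IsFractionRing D ↥(modularFunctionFieldFullC κ M)] (hD : ¬ IsField D)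
  [Algebra κ D] [IsScalarTower κ D ↥(modularFunctionFieldFullC κ M)]
  (hF : ∀ i y, s33s_redL G φ M p hp.out hpM i y ∈ modularFunctionFieldFullC κ M)
  (hint : ∀ (i : Bool) (b : s34x_ring (s34x_infRing (s34m_VV G φ M p hp.out hpM)) S),
    ∃ d : D, algebraMap D ↥(modularFunctionFieldFullC κ M) d =
      s33s_redO G φ M p hp.out hpM (modularFunctionFieldFullC κ M) hF i
        ⟨(b : s34m_F K₀ (M * p)), b.2.1⟩)
  (BM : Set (s34m_F K₀ M)) (hBMV : ∀ g ∈ BM, g ∈ s34m_Vinf G M)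
  (hαB : ∀ g ∈ BM, heckeAlphaBar K₀ M p g ∈
    s34x_ring (s34x_infRing (s34m_VV G φ M p hp.out hpM)) S)
  (hβB : ∀ g ∈ BM, ∃ b' ∈ s34x_ring (s34x_infRing (s34m_VV G φ M p hp.out hpM)) S,
    ∃ z, z ∈ s34m_Vinf G (M * p) ∧ z ∈ s34m_Vzero G φ M p hp.out hpM ∧
      b' - heckeBetaBar K₀ M p g = s34m_unif G (M * p) * z)
  (hlift : ∀ d : D, ∃ g, ∃ hg : g ∈ BM,
    s34m_redInf G M ⟨g, hBMV g hg⟩ =
      ((algebraMap D ↥(modularFunctionFieldFullC κ M) d : ↥(modularFunctionFieldFullC κ M)) :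
        LaurentSeries κ))
  (htw : ∀ d : D, ∃ d' : D, qExpand κ p
    ((algebraMap D ↥(modularFunctionFieldFullC κ M) d : ↥(modularFunctionFieldFullC κ M)) :
      LaurentSeries κ) =
    ((algebraMap D ↥(modularFunctionFieldFullC κ M) d' : ↥(modularFunctionFieldFullC κ M)) :
      LaurentSeries κ) ^ p)

local notation "ρρ" => s33s_rhoD G φ M p hp.out hpM (modularFunctionFieldFullC κ M) S hF hint

/-- **the place of `F̄_M / κ` at the branch of the node `s` on the `∞`-component.** -/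
def s59c_nodePlB (s : s33s_Node OO ϖF S) : Place κ ↥FbM :=
  haveI : s.1.IsMaximal := s.2.1
  s59c_nodePlace (κ := κ) (Fb := ↥FbM) OO S ρρ
    (s33s_inst_rho_surjective G φ M p hpM S hF hint BM hBMV hαB hβB hlift htw true) hD s.1
    (s33s_inst_ker_le G φ M p hpM S hF hint s true)

include hπ in
/-- **its degree is the degree of the node.** -/
theorem s59c_nodePlB_deg (s : s33s_Node OO ϖF S) :
    (s59c_nodePlB G φ M p hpM S hD hF hint BM hBMV hαB hβB hlift htw s).deg =
      Module.finrank κ (s33s_kG G φ M p hpM S hπ s) := by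
  haveI : s.1.IsMaximal := s.2.1
  rw [s59c_finrank_kG G φ M p hpM hπ S hF hint BM hBMV hαB hβB hlift htw
    (fun c => (IsScalarTower.algebraMap_apply κ D ↥FbM c).symm) s]
  exact s59c_deg_ofHeightOneSpectrum _

/-- the reduction of a nonunit of `V_∞` vanishes. -/
theorem s59c_redI_nonunit (y : s34m_F K₀ (M * p)) (hy : y ∈ OO true)
    (hnu : y ∈ (OO true).nonunits) :
    s33y_redI G φ M p hpM hdeg hT hdegM ⟨y, hy⟩ = 0 := by
  obtain ⟨c, hc, e⟩ := s36q_fi_gen G φ M p hp.out hpM true y hnu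
  rw [s33y_redI_eq_zero_iff, s34m_redInf_eq_zero_iff]
  exact ⟨c, hc, e⟩

/-- `ord (red_∞ b) > 0 ↔ b ∈ s`, for `b` in the chart ring with `red_∞ b ≠ 0`. -/
theorem s59c_nodePlB_pos_iff (s : s33s_Node OO ϖF S) (b : BS) (hb : ρρ true b ≠ 0) :
    0 < (s59c_nodePlB G φ M p hpM S hD hF hint BM hBMV hαB hβB hlift htw s).ord
      (s33y_redI G φ M p hpM hdeg hT hdegM ⟨(b : s34m_F K₀ (M * p)), s33s_ring_mem OO S true b⟩) ↔
      b ∈ s.1 := by
  haveI : s.1.IsMaximal := s.2.1
  rw [s44c_redI_ring G φ M p hpM hdeg hT hdegM S hF hint b]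
  exact s59c_nodePlace_ord_r_pos_iff (κ := κ) (Fb := ↥FbM) OO S ρρ
    (s33s_inst_rho_surjective G φ M p hpM S hF hint BM hBMV hαB hβB hlift htw true) hD s.1
    (s33s_inst_ker_le G φ M p hpM S hF hint s true) b hb

include hdeg hT hdegM in
/-- the node is determined by its place. -/
theorem s59c_nodePlB_injective :
    Function.Injective (s59c_nodePlB G φ M p hpM S hD hF hint BM hBMV hαB hβB hlift htw) := by
  intro s s' h
  haveI : s.1.IsMaximal := s.2.1
  have hle : s.1 ≤ s'.1 := by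
    intro b hb
    by_cases h0 : ρρ true b = 0
    · exact s33s_inst_ker_le G φ M p hpM S hF hint s' true ((RingHom.mem_ker).mpr h0)
    · have h1 := (s59c_nodePlB_pos_iff G φ M p hpM hdeg hT hdegM S hD hF hint BM hBMV hαB hβB hlift
        htw s b h0).mpr hb
      rw [h] at h1
      exact (s59c_nodePlB_pos_iff G φ M p hpM hdeg hT hdegM S hD hF hint BM hBMV hαB hβB hlift
        htw s' b h0).mp h1
  exact Subtype.ext (s.2.1.eq_of_le s'.2.1.ne_top hle)

include hπ in
/-- **the congruence at a node which is a regular crossing.** -/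
theorem s59c_nodePlB_cong (s : s33s_Node OO ϖF S)
    (hX : s36q_RegCross OO S s.1 true false ϖF)
    (e : ℕ) (f : s34m_F K₀ (M * p)) (hf0 : f ≠ 0)
    (hfI : f ∈ s34m_Vinf G (M * p)) (hfI' : f⁻¹ ∈ s34m_Vinf G (M * p))
    (a : ℤ) (hfa : f * ϖF ^ (-a) ∈ s34m_Vzero G φ M p hp.out hpM)
    (hfa' : (f * ϖF ^ (-a))⁻¹ ∈ s34m_Vzero G φ M p hp.out hpM)
    (hQ4 : ∃ Φ : s34m_F K₀ (M * p), Φ ≠ 0 ∧ ∀ Q ∈ S, s34f_through (s34x_infRing OO) S s.1 Q →
        Q.ord f = ((e : ℕ) : ℤ) * Q.ord Φ) :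
    (e : ℤ) ∣ (s59c_nodePlB G φ M p hpM S hD hF hint BM hBMV hαB hβB hlift htw s).ord
      (s33y_redI G φ M p hpM hdeg hT hdegM ⟨f, hfI⟩) - a := by
  haveI : s.1.IsMaximal := s.2.1
  exact s59c_node_cong (κ := κ) (Fb := ↥FbM) OO ϖF S ρρ (s34m_unif_ne_zero G (M * p))
    (fun i U hU => s34m_exists_zpow_VV G φ M p hp.out hpM i U hU)
    (fun y hy => s36q_fi_gen G φ M p hp.out hpM true y hy)
    (fun y hy => s36q_fi_gen G φ M p hp.out hpM false y hy)
    (s33s_inst_hfin φ M p S) (fun Q _ => ff_ord_algebraMap Q _)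
    (s33s_inst_rho_surjective G φ M p hpM S hF hint BM hBMV hαB hβB hlift htw true) hD s.1
    (s33s_inst_ker_le G φ M p hpM S hF hint s true)
    (s59c_node_compThrough G φ M p hpM S s true) (s59c_node_compThrough G φ M p hpM S s false) hX
    (s33y_redI G φ M p hpM hdeg hT hdegM)
    (s44c_redI_ring G φ M p hpM hdeg hT hdegM S hF hint)
    (s59c_redI_nonunit G φ M p hpM hdeg hT hdegM)
    e f hf0 hfI hfI' a hfa hfa' hQ4

include hπ in
/-- **the dichotomy**: at a place `v₀ ⊇ D`, either `e ∣ ord_{v₀} (red_∞ f)` or `v₀` is the place of a node. -/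
theorem s59c_divp_chart_cases (e : ℕ) (v₀ : Place κ ↥FbM)
    (hDv : ∀ d : D, algebraMap D ↥FbM d ∈ v₀.toValuationSubring)
    (f : s34m_F K₀ (M * p)) (hf0 : f ≠ 0)
    (hfI : f ∈ s34m_Vinf G (M * p)) (hfI' : f⁻¹ ∈ s34m_Vinf G (M * p))
    (hQ4 : ∀ 𝔫 : Ideal BS, 𝔫.IsMaximal →
      s34x_const (s34x_infRing OO) S ((G.ϖ : G.A) : K₀)
        (s34x_inf_const_mem OO G.A (s34c_const_mem_VV G φ M p hp.out hpM) G.ϖ) ∈ 𝔫 →
      ∃ Φ : s34m_F K₀ (M * p), Φ ≠ 0 ∧ ∀ Q ∈ S, s34f_through (s34x_infRing OO) S 𝔫 Q →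
        Q.ord f = ((e : ℕ) : ℤ) * Q.ord Φ) :
    (e : ℤ) ∣ v₀.ord (s33y_redI G φ M p hpM hdeg hT hdegM ⟨f, hfI⟩) ∨
      ∃ s : s33s_Node OO ϖF S,
        v₀ = s59c_nodePlB G φ M p hpM S hD hF hint BM hBMV hαB hβB hlift htw s := by
  have hker := s44c_ker_rho G φ M p hpM S hF hint true
  rcases s59c_divp_cases (κ := κ) (Fb := ↥FbM) OO ϖF S ρρ v₀ hDv (s34m_unif_ne_zero G (M * p))
    (s34m_unif_mem_VV G φ M p hp.out hpM)
    (fun i U hU => s34m_exists_zpow_VV G φ M p hp.out hpM i U hU) (s33s_inst_hfin φ M p S)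
    (fun Q _ => ff_ord_algebraMap Q _)
    (s33s_inst_rho_surjective G φ M p hpM S hF hint BM hBMV hαB hβB hlift htw true) hD hker
    (s33y_redI G φ M p hpM hdeg hT hdegM)
    (s44c_redI_ring G φ M p hpM hdeg hT hdegM S hF hint) e f hf0 hfI hfI'
    (fun 𝔫 h𝔫 hle => hQ4 𝔫 h𝔫 (hle (s59m_unif_mem_comp G φ M p hpM S true))) with h | h
  · exact Or.inl h
  · obtain ⟨𝔪, h𝔪, hk, hcF, e1⟩ := h
    refine Or.inr ⟨⟨𝔪, h𝔪, ?_, hcF⟩, e1⟩
    rw [← hker]
    exact hk

end Build

end Fermat.Agent.Lib.S59
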