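/-
Programme (R2) / node **[CAR]** (helper8, prefix `s59c_`): helper9's top assembly `s59m_pkgEAt_of_leaves` with the leaves
[L-d] (`s59c_hcount`) and [L-e] (`s59c_hrat`) plugged in: the gluing-torus package `s59m_CarPkgEAt p M q` at the levels with
`ν₂(M) = ν₃(M) = 0` from the two remaining leaves `hHF` ([L-c], helper3's `s59u_hHF_leaf`) and `hlvl2` (W5).
-/
import Fermat.Agent.Lib.S59.CNodeCountD
import Fermat.Agent.Lib.S59.CNodeRat

set_option autoImplicit false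
set_option linter.style.haveILetI false
set_option linter.unusedSectionVars false
set_option linter.unusedVariables false
set_option synthInstance.maxHeartbeats 400000

noncomputable section

namespace Fermat.Agent.Lib.S59

open ModularCurve HahnSeries AlgebraicCurve Fermat.Agent.Lib.FF Fermat.Agent.Lib.S18
  Fermat.Agent.Lib.S28 Fermat.Agent.Lib.S29 Fermat.Agent.Lib.S37 Fermat.Agent.Lib.S34
  Fermat.Agent.Lib.S35 Fermat.Agent.Lib.S33 Fermat.Agent.Lib.S44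

local notation "Kb" => AlgebraicClosure ℚ

variable (M q p : ℕ) [NeZero M] [hq : Fact q.Prime] [hp : Fact p.Prime] (hqM : ¬ q ∣ M)
  (h5 : 5 ≤ q) (hpq : p ≠ q)

include hpq in
/-- **`s59m_CarPkgEAt p M q` from [L-c] and [lvl2]** (`ν₂(M) = ν₃(M) = 0`). -/
theorem s59c_pkgEAt_of_two (h2 : nuTwo M = 0) (h3 : nuThree M = 0)
    (hHF : ∀ (P : ValuationSubring Kb) (hP : P.LiesOverPrime q) (L₀ : IntermediateField ℚ Kb)
      [FiniteDimensional ℚ ↥L₀] [CharP (IsLocalRing.ResidueField ↥(s18q_A0 P L₀)) q]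
      [PerfectField (IsLocalRing.ResidueField ↥(s18q_A0 P L₀))]
      (hunr : ∀ τ ∈ P.inertiaSubgroupIn ℚ, ∀ a ∈ L₀, τ a = a) (K : ℕ) (ℓ : Nat.Primes),
      ¬ (ℓ : ℕ) ∣ M * q * p →
      Nonempty (s59m_HeckeFrame (s59m_kumFrameU M q hqM h5 P hP L₀ hunr (p ^ K) (s59m_pK_ne p K)
        (s59m_q_ndvd_pK q p hpq K)) ℓ))
    (hlvl2 : ∀ (P : ValuationSubring Kb) (hP : P.LiesOverPrime q) (K : ℕ)
      (L₀ : IntermediateField ℚ Kb) [FiniteDimensional ℚ ↥L₀]
      [CharP (IsLocalRing.ResidueField ↥(s18q_A0 P L₀)) q]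
      [PerfectField (IsLocalRing.ResidueField ↥(s18q_A0 P L₀))]
      (hB : haveI : NeZero q := ⟨hq.out.ne_zero⟩; s59m_Base M q p K P L₀)
      (HF : ∀ ℓ : Nat.Primes, ¬ (ℓ : ℕ) ∣ M * q * p →
        s59m_HeckeFrame (s59m_kumFrameU M q hqM h5 P hP L₀ hB.unr (p ^ K) (s59m_pK_ne p K)
          (s59m_q_ndvd_pK q p hpq K)) ℓ),
      haveI : NeZero q := ⟨hq.out.ne_zero⟩
      s59u_Lvl2 M q p P (s59m_kumFrameU M q hqM h5 P hP L₀ hB.unr (p ^ K) (s59m_pK_ne p K)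
        (s59m_q_ndvd_pK q p hpq K)) HF) :
    haveI : NeZero q := ⟨hq.out.ne_zero⟩
    s59m_CarPkgEAt p M q :=
  s59m_pkgEAt_of_leaves M q p hqM h5 hpq hHF (s59c_hrat M q hqM h5)
    (s59c_hcount M q p hqM h5 hpq h2 h3 (s59c_hrat M q hqM h5)) hlvl2

end Fermat.Agent.Lib.S59
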