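/-
S59, case (P), brick [P4] (helper8, prefix `s59c_`), part 2: **[P4-abs]** — PURE ALGEBRA on top of helper5's
`s33r_main` (`Lib/S33/RealRing.lean`).

Setting of `s33r_main`: `Y` a finite abelian group killed by `p` with a `G`-action `ρ`, a commutative ring `𝔼` of
"Hecke pairs" (`act : 𝔼 →+* End Y`, `θ' : 𝔼 →+* k`, primary + density), the residual representation `ρV` on `V`
(irreducible, Cayley–Hamilton with `det = χ`), the inertia set `I` with its line `L ⊆ V`, `τ ∈ I` with `χ τ ≠ 1`.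
In addition:
* a subgroup `D ≤ G` (decomposition group) containing `I` and stabilising `L`, and `δ ∈ D` acting on `V / L` through
  `c = ±1` (RESIDUAL TATE TYPE);
* an additive map `red : Y →+ X` (reduction), invariant under `I`, whose kernel is `δ`-stable;
* `Tp ∈ End Y` commuting with `𝔼` and `G`, with `red ∘ Tp = red ∘ ρ δ` (EICHLER–SHIMURA at `p`), not killing non-zero
  vectors of `μ`-type (NoMuLine), and **(KER-MU)**: a `Tp`-divisible `y` with `red y = 0` is of `μ`-type.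

**`s59c_P4_abs`** : then `Tp - c` is NILPOTENT on `Y`.

Auxiliary: `s59c_actRes`, `s59c_rhoRes` (restriction to a stable submodule), `s59c_mu_stable_eq_bot` (a `G`- and
`𝔼`-stable submodule on which `τ` acts through `χ τ` is zero — `s33r_main` (B) on the submodule), `s59c_trV_eq`,
`s59c_quad_nilpotent`, `s59c_red_aeval`, `s59c_bezout_pow`.
-/
import Fermat.Agent.Lib.S33.RealRing

set_option autoImplicit false
set_option linter.style.haveILetI false
set_option linter.unusedSectionVars false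

namespace Fermat.Agent.Lib.S59

open Fermat.Agent.Lib.S33 Polynomial

section Restrict

variable {𝔼 : Type*} [Ring 𝔼] {G : Type*} [Group G] {Y : Type*} [AddCommGroup Y]

/-- restriction of a ring action to a stable submodule. -/
def s59c_actRes (act : 𝔼 →+* Module.End ℤ Y) (Y' : Submodule ℤ Y)
    (h : ∀ (e : 𝔼), ∀ y ∈ Y', act e y ∈ Y') : 𝔼 →+* Module.End ℤ ↥Y' where
  toFun e := (act e).restrict (h e)
  map_one' := by
    apply LinearMap.ext
    intro y
    apply Subtype.ext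
    rw [LinearMap.coe_restrict_apply, map_one]
    rfl
  map_mul' a b := by
    apply LinearMap.ext
    intro y
    apply Subtype.ext
    rw [LinearMap.coe_restrict_apply, map_mul, Module.End.mul_apply, Module.End.mul_apply,
      LinearMap.coe_restrict_apply, LinearMap.coe_restrict_apply]
  map_zero' := by
    apply LinearMap.ext
    intro y
    apply Subtype.ext
    rw [LinearMap.coe_restrict_apply, map_zero]
    rfl
  map_add' a b := by
    apply LinearMap.ext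
    intro y
    apply Subtype.ext
    rw [LinearMap.coe_restrict_apply, map_add, LinearMap.add_apply, LinearMap.add_apply,
      Submodule.coe_add, LinearMap.coe_restrict_apply, LinearMap.coe_restrict_apply]

theorem s59c_actRes_apply (act : 𝔼 →+* Module.End ℤ Y) (Y' : Submodule ℤ Y)
    (h : ∀ (e : 𝔼), ∀ y ∈ Y', act e y ∈ Y') (e : 𝔼) (y : ↥Y') :
    ((s59c_actRes act Y' h e y : ↥Y') : Y) = act e (y : Y) := rfl

/-- restriction of a group action to a stable submodule. -/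
def s59c_rhoRes (ρ : G →* Module.End ℤ Y) (Y' : Submodule ℤ Y)
    (h : ∀ (g : G), ∀ y ∈ Y', ρ g y ∈ Y') : G →* Module.End ℤ ↥Y' where
  toFun g := (ρ g).restrict (h g)
  map_one' := by
    apply LinearMap.ext
    intro y
    apply Subtype.ext
    rw [LinearMap.coe_restrict_apply, map_one]
    rfl
  map_mul' a b := by
    apply LinearMap.ext
    intro y
    apply Subtype.ext
    rw [LinearMap.coe_restrict_apply, map_mul, Module.End.mul_apply, Module.End.mul_apply,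
      LinearMap.coe_restrict_apply, LinearMap.coe_restrict_apply]

theorem s59c_rhoRes_apply (ρ : G →* Module.End ℤ Y) (Y' : Submodule ℤ Y)
    (h : ∀ (g : G), ∀ y ∈ Y', ρ g y ∈ Y') (g : G) (y : ↥Y') :
    ((s59c_rhoRes ρ Y' h g y : ↥Y') : Y) = ρ g (y : Y) := rfl

end Restrict

section Main

variable {𝔼 : Type*} [CommRing 𝔼] {Y : Type*} [AddCommGroup Y] [Finite Y]
  {k : Type*} [Field k] [Finite k]
  {G : Type*} [Group G] {p : ℕ} [Fact p.Prime] [CharP k p]
  {V : Type*} [AddCommGroup V] [Module k V]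

/-- **(D)**: under the hypotheses of `s33r_main`, a `G`- and `𝔼`-stable submodule of `Y` on which `τ` acts through
the scalar `χ τ` is zero. -/
theorem s59c_mu_stable_eq_bot
    (θ' : 𝔼 →+* k) (act : 𝔼 →+* Module.End ℤ Y)
    (hpY : ∀ y : Y, p • y = 0)
    (ρ : G →* Module.End ℤ Y)
    (hcomm : ∀ (e : 𝔼) (g : G), act e * ρ g = ρ g * act e)
    (hnil : ∀ e : 𝔼, θ' e = 0 → IsNilpotent (act e))
    (χ : G →* (ZMod p)ˣ) (trV : G → k)
    (hdens : ∀ g : G, ∃ e : 𝔼, θ' e = trV g ∧ act e = ρ g + ((χ g : ZMod p).val) • ρ g⁻¹)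
    (ρV : G →* Module.End k V)
    (hCHV : ∀ g : G, ρV g + (ZMod.cast (χ g : ZMod p) : k) • ρV g⁻¹ = trV g • (1 : Module.End k V))
    (hirr : ∀ W : Submodule k V, (∀ g : G, ∀ x ∈ W, ρV g x ∈ W) → W = ⊥ ∨ W = ⊤)
    (I : Set G) (τ : G) (hτI : τ ∈ I) (hχτ : (χ τ : ZMod p) ≠ 1)
    (L : Submodule k V) (hLbot : L ≠ ⊥) (hLtop : L ≠ ⊤)
    (hLquot : ∀ σ ∈ I, ∀ v : V, ρV σ v - v ∈ L)
    (hLchar : ∀ σ ∈ I, ∀ v ∈ L, ρV σ v = (ZMod.cast (χ σ : ZMod p) : k) • v)
    (Y' : Submodule ℤ Y) (hE : ∀ (e : 𝔼), ∀ y ∈ Y', act e y ∈ Y')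
    (hG : ∀ (g : G), ∀ y ∈ Y', ρ g y ∈ Y')
    (hτ : ∀ y ∈ Y', ρ τ y = ((χ τ : ZMod p).val) • y) : Y' = ⊥ := by
  have key := s33r_main (𝔼 := 𝔼) (Y := ↥Y') (k := k) (G := G) (p := p) (V := V) θ'
    (s59c_actRes act Y' hE)
    (fun y => Subtype.ext (by rw [Submodule.coe_smul_of_tower, hpY]; rfl))
    (s59c_rhoRes ρ Y' hG)
    (fun e g => by
      apply LinearMap.ext
      intro y
      apply Subtype.ext
      rw [Module.End.mul_apply, Module.End.mul_apply, s59c_actRes_apply, s59c_rhoRes_apply,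
        s59c_rhoRes_apply, s59c_actRes_apply]
      exact LinearMap.congr_fun (hcomm e g) (y : Y))
    (fun e he => by
      obtain ⟨n, hn⟩ := hnil e he
      refine ⟨n, ?_⟩
      apply LinearMap.ext
      intro y
      apply Subtype.ext
      show (((s59c_actRes act Y' hE e) ^ n) y : Y) = 0
      have : ((act e).restrict (hE e)) ^ n = ((act e) ^ n).restrict
          (fun y hy => Module.End.pow_apply_mem_of_forall_mem n (hE e) y hy) :=
        Module.End.pow_restrict n (hE e)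
      show ((((act e).restrict (hE e)) ^ n) y : Y) = 0
      rw [this, LinearMap.coe_restrict_apply, hn]
      rfl)
    χ trV
    (fun g => by
      obtain ⟨e, he1, he2⟩ := hdens g
      refine ⟨e, he1, ?_⟩
      apply LinearMap.ext
      intro y
      apply Subtype.ext
      rw [LinearMap.add_apply, LinearMap.smul_apply, Submodule.coe_add,
        Submodule.coe_smul_of_tower, s59c_actRes_apply, s59c_rhoRes_apply, s59c_rhoRes_apply, he2,
        LinearMap.add_apply, LinearMap.smul_apply])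
    ρV hCHV hirr I τ hτI hχτ L hLbot hLtop hLquot hLchar
  obtain ⟨-, hB, -⟩ := key
  have h1 := hB ⊤ (fun x _ => by
      apply Subtype.ext
      rw [s59c_rhoRes_apply, Submodule.coe_smul_of_tower]
      exact hτ _ x.2) (fun y => AddSubgroup.mem_top _)
  have h2 : Nat.card (⊤ : AddSubgroup ↥Y') = Nat.card ↥Y' := AddSubgroup.card_top
  rw [h2] at h1
  have hpos : 0 < Nat.card ↥Y' := Nat.card_pos
  have h3 : Nat.card ↥Y' = 1 := by nlinarith
  rw [Nat.card_eq_one_iff_unique] at h3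
  obtain ⟨hsub, -⟩ := h3
  exact (Submodule.eq_bot_iff _).mpr fun y hy => by
    have := hsub.elim (⟨y, hy⟩ : ↥Y') 0
    exact congrArg Subtype.val this

/-- **the residual trace of an element acting on `V / L` through `c = ±1`**: `tr = c + χ c`. -/
theorem s59c_trV_eq (χ : G →* (ZMod p)ˣ) (trV : G → k) (ρV : G →* Module.End k V)
    (hCHV : ∀ g : G, ρV g + (ZMod.cast (χ g : ZMod p) : k) • ρV g⁻¹ = trV g • (1 : Module.End k V))
    (L : Submodule k V) (hLtop : L ≠ ⊤) (g : G) (hgL' : ∀ v ∈ L, ρV g⁻¹ v ∈ L)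
    (c : k) (hc : c * c = 1) (hg : ∀ v : V, ρV g v - c • v ∈ L) :
    trV g = c + (ZMod.cast (χ g : ZMod p) : k) * c := by
  obtain ⟨v, hv⟩ : ∃ v : V, v ∉ L := by
    by_contra h
    push Not at h
    exact hLtop (eq_top_iff.mpr fun v _ => h v)
  -- `ρV g⁻¹ v ≡ c v`
  have hinv : ∀ w : V, ρV g⁻¹ w - c • w ∈ L := by
    intro w
    have h1 := hgL' _ (hg (c • w))
    have e : ρV g⁻¹ (ρV g (c • w) - c • c • w) = -(ρV g⁻¹ w - c • w) := by
      have hgg : ρV g⁻¹ (ρV g (c • w)) = c • w := by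
        rw [← Module.End.mul_apply, ← map_mul, inv_mul_cancel, map_one, Module.End.one_apply]
      rw [map_sub, hgg, smul_smul, hc, one_smul]
      abel
    rw [e] at h1
    exact (Submodule.neg_mem_iff L).mp h1
  have hCH := LinearMap.congr_fun (hCHV g) v
  rw [LinearMap.add_apply, LinearMap.smul_apply, LinearMap.smul_apply, Module.End.one_apply] at hCH
  set a : k := (ZMod.cast (χ g : ZMod p) : k) with ha
  have h2 : (trV g - (c + a * c)) • v ∈ L := by
    have e : (trV g - (c + a * c)) • v = (ρV g v - c • v) + a • (ρV g⁻¹ v - c • v) := by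
      rw [sub_smul, ← hCH, add_smul, smul_sub, mul_smul]
      abel
    rw [e]
    exact L.add_mem (hg v) (L.smul_mem a (hinv v))
  by_contra hne
  have hne' : trV g - (c + a * c) ≠ 0 := sub_ne_zero.mpr hne
  apply hv
  have := L.smul_mem (trV g - (c + a * c))⁻¹ h2
  rwa [smul_smul, inv_mul_cancel₀ hne', one_smul] at this

/-- **Cayley–Hamilton on `Y`**: for `g` acting on `V / L` through `c = ±1` the endomorphism
`(ρ g - c)(ρ g - χ(g) c)` of `Y` is nilpotent. -/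
theorem s59c_quad_nilpotent
    (θ' : 𝔼 →+* k) (act : 𝔼 →+* Module.End ℤ Y) (ρ : G →* Module.End ℤ Y)
    (hcomm : ∀ (e : 𝔼) (g : G), act e * ρ g = ρ g * act e)
    (hnil : ∀ e : 𝔼, θ' e = 0 → IsNilpotent (act e))
    (χ : G →* (ZMod p)ˣ) (trV : G → k)
    (hdens : ∀ g : G, ∃ e : 𝔼, θ' e = trV g ∧ act e = ρ g + ((χ g : ZMod p).val) • ρ g⁻¹)
    (g : G) (c : ℤ) (hc : c * c = 1)
    (htr : trV g = (c : k) + (ZMod.cast (χ g : ZMod p) : k) * (c : k)) :
    IsNilpotent ((ρ g - (c : Module.End ℤ Y)) *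
      (ρ g - (((((χ g : ZMod p).val : ℕ) : ℤ) * c : ℤ) : Module.End ℤ Y))) := by
  obtain ⟨e, he1, he2⟩ := hdens g
  set a : ℕ := (χ g : ZMod p).val with ha
  have hak : ((a : ℕ) : k) = (ZMod.cast (χ g : ZMod p) : k) := by
    rw [ha]
    exact ZMod.natCast_val _
  set e' : 𝔼 := e - ((c + (a : ℤ) * c : ℤ) : 𝔼) with he'
  have hθ : θ' e' = 0 := by
    rw [he', map_sub, he1, htr, map_intCast]
    push_cast
    rw [hak]
    ring
  obtain ⟨n, hn⟩ := hnil e' hθ
  have hgg : ρ g⁻¹ * ρ g = 1 := by rw [← map_mul, inv_mul_cancel, map_one]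
  have hprod : (ρ g - (c : Module.End ℤ Y)) * (ρ g - ((((a : ℕ) : ℤ) * c : ℤ) : Module.End ℤ Y)) =
      act e' * ρ g := by
    have h1 : act e' = ρ g + a • ρ g⁻¹ - ((c + (a : ℤ) * c : ℤ) : Module.End ℤ Y) := by
      rw [he', map_sub, he2, map_intCast]
    have e1 : ((c : ℤ) : Module.End ℤ Y) = c • (1 : Module.End ℤ Y) := by
      rw [zsmul_eq_mul, mul_one]
    have e2 : ((((a : ℕ) : ℤ) * c : ℤ) : Module.End ℤ Y) =
        (((a : ℕ) : ℤ) * c) • (1 : Module.End ℤ Y) := by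
      rw [zsmul_eq_mul, mul_one]
    have e3 : ((c + ((a : ℕ) : ℤ) * c : ℤ) : Module.End ℤ Y) =
        (c + ((a : ℕ) : ℤ) * c) • (1 : Module.End ℤ Y) := by
      rw [zsmul_eq_mul, mul_one]
    have e4 : a • ρ g⁻¹ = ((a : ℕ) : ℤ) • ρ g⁻¹ := (natCast_zsmul _ _).symm
    rw [h1, e1, e2, e3, e4]
    simp only [sub_mul, mul_sub, add_mul, smul_mul_assoc, mul_smul_comm, one_mul, mul_one, hgg,
      smul_sub, smul_smul]
    have hc2 : c ^ 2 = 1 := by rw [pow_two, hc]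
    match_scalars <;> ring_nf <;> simp [hc2]
  rw [hprod]
  refine ⟨n, ?_⟩
  have hcm : Commute (act e') (ρ g) := hcomm e' g
  rw [hcm.mul_pow, hn, zero_mul]

/-- polynomials in two commuting endomorphisms which agree modulo `ker red` agree modulo `ker red`. -/
theorem s59c_red_aeval {Xr : Type*} [AddCommGroup Xr] (red : Y →+ Xr) (A B : Module.End ℤ Y)
    (hAB : Commute A B) (h : ∀ y : Y, red (A y) = red (B y)) (f : ℤ[X]) (y : Y) :
    red (aeval A f y) = red (aeval B f y) := by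
  have hpow : ∀ (n : ℕ) (y : Y), red ((A ^ n) y) = red ((B ^ n) y) := by
    intro n
    induction n with
    | zero => intro y; rfl
    | succ n ih =>
      intro y
      have h1 : (A ^ (n + 1)) y = B ((A ^ n) y) + (A ((A ^ n) y) - B ((A ^ n) y)) := by
        rw [pow_succ', Module.End.mul_apply]
        abel
      have h2 : B ((A ^ n) y) = (A ^ n) (B y) := by
        have := (hAB.pow_left n).eq
        rw [← Module.End.mul_apply, ← this, Module.End.mul_apply]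
      rw [h1, map_add, map_sub, h ((A ^ n) y), sub_self, add_zero, h2, ih (B y), pow_succ,
        Module.End.mul_apply]
  induction f using Polynomial.induction_on' with
  | add f g hf hg =>
    rw [map_add, map_add, LinearMap.add_apply, LinearMap.add_apply, map_add, map_add, hf, hg]
  | monomial n a =>
    rw [aeval_monomial, aeval_monomial, Module.End.mul_apply, Module.End.mul_apply]
    have e1 : ∀ z : Y, (algebraMap ℤ (Module.End ℤ Y) a) z = a • z := fun z => by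
      rw [Module.algebraMap_end_apply]
    rw [e1, e1, map_zsmul, map_zsmul, hpow]

/-- Bézout for powers: `(a - b) ^ n ∈ (a ^ m, b ^ m)` for some `n`. -/
theorem s59c_bezout_pow {R : Type*} [CommRing R] (a b : R) (m : ℕ) :
    ∃ (n : ℕ) (r s : R), r * a ^ m + s * b ^ m = (a - b) ^ n := by
  set J : Ideal R := Ideal.span {a ^ m, b ^ m} with hJ
  have ha : IsNilpotent (Ideal.Quotient.mk J a) :=
    ⟨m, by rw [← map_pow, Ideal.Quotient.eq_zero_iff_mem]; exact Ideal.subset_span (by simp)⟩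
  have hb : IsNilpotent (Ideal.Quotient.mk J b) :=
    ⟨m, by rw [← map_pow, Ideal.Quotient.eq_zero_iff_mem]; exact Ideal.subset_span (by simp)⟩
  obtain ⟨n, hn⟩ := (Commute.all _ _).isNilpotent_sub ha hb
  rw [← map_sub, ← map_pow, Ideal.Quotient.eq_zero_iff_mem, hJ, Ideal.mem_span_pair] at hn
  obtain ⟨r, s, e⟩ := hn
  exact ⟨n, r, s, e⟩

/-- **[P4-abs]**: `Tp - c` is nilpotent on `Y`. -/
theorem s59c_P4_abs
    (θ' : 𝔼 →+* k) (act : 𝔼 →+* Module.End ℤ Y)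
    (hpY : ∀ y : Y, p • y = 0)
    (ρ : G →* Module.End ℤ Y)
    (hcomm : ∀ (e : 𝔼) (g : G), act e * ρ g = ρ g * act e)
    (hnil : ∀ e : 𝔼, θ' e = 0 → IsNilpotent (act e))
    (χ : G →* (ZMod p)ˣ) (trV : G → k)
    (hdens : ∀ g : G, ∃ e : 𝔼, θ' e = trV g ∧ act e = ρ g + ((χ g : ZMod p).val) • ρ g⁻¹)
    (ρV : G →* Module.End k V)
    (hCHV : ∀ g : G, ρV g + (ZMod.cast (χ g : ZMod p) : k) • ρV g⁻¹ = trV g • (1 : Module.End k V))
    (hirr : ∀ W : Submodule k V, (∀ g : G, ∀ x ∈ W, ρV g x ∈ W) → W = ⊥ ∨ W = ⊤)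
    (I : Set G) (τ : G) (hτI : τ ∈ I) (hχτ : (χ τ : ZMod p) ≠ 1)
    (L : Submodule k V) (hLbot : L ≠ ⊥) (hLtop : L ≠ ⊤)
    (hLquot : ∀ σ ∈ I, ∀ v : V, ρV σ v - v ∈ L)
    (hLchar : ∀ σ ∈ I, ∀ v ∈ L, ρV σ v = (ZMod.cast (χ σ : ZMod p) : k) • v)
    (D : Subgroup G) (hID : ∀ σ ∈ I, σ ∈ D) (hLD : ∀ g ∈ D, ∀ v ∈ L, ρV g v ∈ L)
    (δ : G) (hδD : δ ∈ D) (c : ℤ) (hc : c * c = 1)
    (hδz : ∀ v : V, ρV δ v - ((c : ℤ) : k) • v ∈ L)
    {Xr : Type*} [AddCommGroup Xr] (red : Y →+ Xr)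
    (hredI : ∀ σ ∈ I, ∀ y : Y, red (ρ σ y) = red y)
    (hredδ : ∀ y : Y, red y = 0 → red (ρ δ y) = 0)
    (Tp : Module.End ℤ Y) (hTpE : ∀ e : 𝔼, act e * Tp = Tp * act e)
    (hTpG : ∀ g : G, ρ g * Tp = Tp * ρ g)
    (hNoMu : ∀ z : Y, z ≠ 0 → (∀ σ ∈ I, ρ σ z = (χ σ : ZMod p).val • z) → Tp z ≠ 0)
    (hES : ∀ y : Y, red (Tp y) = red (ρ δ y))
    (hkm : ∀ y : Y, (∀ n : ℕ, ∃ y' : Y, (Tp ^ n) y' = y) → red y = 0 →
      ∀ σ ∈ I, ρ σ y = (χ σ : ZMod p).val • y) :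
    IsNilpotent (Tp - ((c : ℤ) : Module.End ℤ Y)) := by
  classical
  have hpp : p.Prime := Fact.out
  -- (A): `Tp` is injective, hence every `y` is `Tp`-divisible
  obtain ⟨hA, -, -⟩ := s33r_main θ' act hpY ρ hcomm hnil χ trV hdens ρV hCHV hirr I τ hτI hχτ L
    hLbot hLtop hLquot hLchar
  have hinj : Function.Injective Tp := hA Tp hTpE hTpG hNoMu
  have hdivis : ∀ (y : Y) (n : ℕ), ∃ y' : Y, (Tp ^ n) y' = y := by
    intro y n
    have hinjn : Function.Injective (Tp ^ n) := by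
      rw [Module.End.coe_pow]
      exact hinj.iterate n
    exact Finite.surjective_of_injective hinjn y
  have hkm' : ∀ y : Y, red y = 0 → ∀ σ ∈ I, ρ σ y = (χ σ : ZMod p).val • y :=
    fun y hy => hkm y (hdivis y) hy
  -- the two lifts `δ`, `δ τ`
  set g₁ : G := δ * τ with hg₁
  have hτD : τ ∈ D := hID τ hτI
  have hg₁D : g₁ ∈ D := D.mul_mem hδD hτD
  have hck : ((c : ℤ) : k) * ((c : ℤ) : k) = 1 := by rw [← Int.cast_mul, hc, Int.cast_one]
  have hg₁z : ∀ v : V, ρV g₁ v - ((c : ℤ) : k) • v ∈ L := by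
    intro v
    have e : ρV g₁ v - ((c : ℤ) : k) • v = ρV δ (ρV τ v - v) + (ρV δ v - ((c : ℤ) : k) • v) := by
      rw [hg₁, map_mul, Module.End.mul_apply, map_sub]
      abel
    rw [e]
    exact L.add_mem (hLD δ hδD _ (hLquot τ hτI v)) (hδz v)
  have htr₀ := s59c_trV_eq χ trV ρV hCHV L hLtop δ (hLD δ⁻¹ (D.inv_mem hδD)) ((c : ℤ) : k) hck hδz
  have htr₁ := s59c_trV_eq χ trV ρV hCHV L hLtop g₁ (hLD g₁⁻¹ (D.inv_mem hg₁D)) ((c : ℤ) : k) hck
    hg₁z
  obtain ⟨m₀, hm₀⟩ := s59c_quad_nilpotent θ' act ρ hcomm hnil χ trV hdens δ c hc htr₀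
  obtain ⟨m₁, hm₁⟩ := s59c_quad_nilpotent θ' act ρ hcomm hnil χ trV hdens g₁ c hc htr₁
  set m : ℕ := max m₀ m₁ with hm
  set a₀ : ℤ := (((χ δ : ZMod p).val : ℕ) : ℤ) * c with ha₀
  set a₁ : ℤ := (((χ g₁ : ZMod p).val : ℕ) : ℤ) * c with ha₁
  have hq₀ : ((ρ δ - ((c : ℤ) : Module.End ℤ Y)) * (ρ δ - ((a₀ : ℤ) : Module.End ℤ Y))) ^ m = 0 :=
    pow_eq_zero_of_le (le_max_left _ _) hm₀
  have hq₁ : ((ρ g₁ - ((c : ℤ) : Module.End ℤ Y)) * (ρ g₁ - ((a₁ : ℤ) : Module.End ℤ Y))) ^ m = 0 :=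
    pow_eq_zero_of_le (le_max_right _ _) hm₁
  -- `red ∘ ρ g = red ∘ Tp` for both lifts
  have hr₀ : ∀ y : Y, red (ρ δ y) = red (Tp y) := fun y => (hES y).symm
  have hr₁ : ∀ y : Y, red (ρ g₁ y) = red (Tp y) := by
    intro y
    have e : ρ g₁ y = ρ δ (ρ τ y - y) + ρ δ y := by
      rw [hg₁, map_mul, Module.End.mul_apply, map_sub]
      abel
    rw [e, map_add, hredδ _ (by rw [map_sub, hredI τ hτI, sub_self]), zero_add, hES]
  -- the polynomials
  set F₀ : ℤ[X] := ((X - C c) * (X - C a₀)) ^ m with hF₀def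
  set F₁ : ℤ[X] := ((X - C c) * (X - C a₁)) ^ m with hF₁def
  have hF₀ : aeval (ρ δ) F₀ = 0 := by
    rw [hF₀def, map_pow, map_mul, map_sub, map_sub, aeval_X, aeval_C, aeval_C, eq_intCast,
      eq_intCast]
    exact hq₀
  have hF₁ : aeval (ρ g₁) F₁ = 0 := by
    rw [hF₁def, map_pow, map_mul, map_sub, map_sub, aeval_X, aeval_C, aeval_C, eq_intCast,
      eq_intCast]
    exact hq₁
  have hredF₀ : ∀ y : Y, red (aeval Tp F₀ y) = 0 := fun y => by
    rw [← s59c_red_aeval red (ρ δ) Tp (hTpG δ) hr₀ F₀ y, hF₀, LinearMap.zero_apply, map_zero]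
  have hredF₁ : ∀ y : Y, red (aeval Tp F₁ y) = 0 := fun y => by
    rw [← s59c_red_aeval red (ρ g₁) Tp (hTpG g₁) hr₁ F₁ y, hF₁, LinearMap.zero_apply, map_zero]
  -- Bézout
  obtain ⟨n, r, s, hrs⟩ := s59c_bezout_pow (X - C a₀ : ℤ[X]) (X - C a₁) m
  set u : ℤ := a₁ - a₀ with hu
  have hu' : (X - C a₀ : ℤ[X]) - (X - C a₁) = C u := by
    rw [hu, C_sub]
    ring
  have hkey : C (u ^ n) * (X - C c) ^ m = F₀ * r + F₁ * s := by
    rw [hF₀def, hF₁def, mul_pow, mul_pow, C_pow, ← hu', ← hrs]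
    ring
  set E : Module.End ℤ Y := Tp - ((c : ℤ) : Module.End ℤ Y) with hE
  have hredE : ∀ y : Y, (u ^ n) • red ((E ^ m) y) = 0 := by
    intro y
    have h1 : aeval Tp (C (u ^ n) * (X - C c) ^ m) y = (u ^ n) • ((E ^ m) y) := by
      have e1 : aeval Tp (X - C c : ℤ[X]) = E := by
        rw [map_sub, aeval_X, aeval_C, eq_intCast]
      rw [map_mul, aeval_C, eq_intCast, map_pow, e1, ← zsmul_eq_mul, LinearMap.smul_apply]
    have h2 : red (aeval Tp (F₀ * r + F₁ * s) y) = 0 := by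
      rw [map_add, LinearMap.add_apply, map_add, map_mul, map_mul, Module.End.mul_apply,
        Module.End.mul_apply, hredF₀, hredF₁, add_zero]
    rw [← hkey, h1, map_zsmul] at h2
    exact h2
  -- `u` is prime to `p`
  have hpZ : Prime (p : ℤ) := Nat.prime_iff_prime_int.mp hpp
  have hndvd : ¬ (p : ℤ) ∣ u := by
    rw [← ZMod.intCast_zmod_eq_zero_iff_dvd]
    have e1 : ((u : ℤ) : ZMod p) = ((χ δ : ZMod p) * ((χ τ : ZMod p) - 1)) * ((c : ℤ) : ZMod p) := by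
      rw [hu, ha₀, ha₁]
      push_cast
      rw [ZMod.natCast_zmod_val, ZMod.natCast_zmod_val, hg₁, map_mul, Units.val_mul]
      ring
    rw [e1]
    have hcz : ((c : ℤ) : ZMod p) ≠ 0 := by
      intro h0
      have : ((c * c : ℤ) : ZMod p) = 1 := by rw [hc, Int.cast_one]
      rw [Int.cast_mul, h0, zero_mul] at this
      exact zero_ne_one this
    exact mul_ne_zero (mul_ne_zero (Units.ne_zero _) (sub_ne_zero.mpr hχτ)) hcz
  have hcop : IsCoprime (u ^ n) (p : ℤ) :=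
    ((hpZ.irreducible.coprime_iff_not_dvd).mpr hndvd).symm.pow_left
  have hredE' : ∀ y : Y, red ((E ^ m) y) = 0 := by
    intro y
    obtain ⟨s', t', hst⟩ := hcop
    have hp0 : ((p : ℕ) : ℤ) • red ((E ^ m) y) = 0 := by
      rw [← map_zsmul, natCast_zsmul, hpY, map_zero]
    calc red ((E ^ m) y) = (1 : ℤ) • red ((E ^ m) y) := (one_zsmul _).symm
      _ = (s' * u ^ n + t' * ((p : ℕ) : ℤ)) • red ((E ^ m) y) := by rw [hst]
      _ = s' • ((u ^ n) • red ((E ^ m) y)) + t' • (((p : ℕ) : ℤ) • red ((E ^ m) y)) := by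
          rw [add_smul, mul_smul, mul_smul]
      _ = 0 := by rw [hredE, hp0, smul_zero, smul_zero, add_zero]
  -- the stable image of `E ^ m`
  have hEact : ∀ e : 𝔼, Commute (act e) (E ^ m) := by
    intro e
    have h1 : Commute (act e) Tp := hTpE e
    have h2 : Commute (act e) ((c : ℤ) : Module.End ℤ Y) := (Int.cast_commute c (act e)).symm
    exact (h1.sub_right h2).pow_right m
  have hEρ : ∀ g : G, Commute (ρ g) (E ^ m) := by
    intro g
    have h1 : Commute (ρ g) Tp := hTpG g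
    have h2 : Commute (ρ g) ((c : ℤ) : Module.End ℤ Y) := (Int.cast_commute c (ρ g)).symm
    exact (h1.sub_right h2).pow_right m
  set Y' : Submodule ℤ Y := LinearMap.range (E ^ m) with hY'
  have hY'E : ∀ (e : 𝔼), ∀ y ∈ Y', act e y ∈ Y' := by
    rintro e _ ⟨x, rfl⟩
    refine ⟨act e x, ?_⟩
    rw [← Module.End.mul_apply, ← (hEact e).eq, Module.End.mul_apply]
  have hY'G : ∀ (g : G), ∀ y ∈ Y', ρ g y ∈ Y' := by
    rintro g _ ⟨x, rfl⟩
    refine ⟨ρ g x, ?_⟩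
    rw [← Module.End.mul_apply, ← (hEρ g).eq, Module.End.mul_apply]
  have hY'τ : ∀ y ∈ Y', ρ τ y = ((χ τ : ZMod p).val) • y := by
    rintro _ ⟨x, rfl⟩
    exact hkm' _ (hredE' x) τ hτI
  have hbot := s59c_mu_stable_eq_bot θ' act hpY ρ hcomm hnil χ trV hdens ρV hCHV hirr I τ hτI hχτ
    L hLbot hLtop hLquot hLchar Y' hY'E hY'G hY'τ
  refine ⟨m, ?_⟩
  apply LinearMap.ext
  intro y
  have hmem : (E ^ m) y ∈ Y' := ⟨y, rfl⟩
  rw [hbot] at hmem
  exact (Submodule.mem_bot ℤ).mp hmem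

end Main

section Sub

variable {𝕋 : Type*} [CommRing 𝕋] {Y : Type*} [AddCommGroup Y] [Finite Y]
  {k : Type*} [Field k] [Finite k]
  {G : Type*} [Group G] {p : ℕ} [Fact p.Prime] [CharP k p]
  {V : Type*} [AddCommGroup V] [Module k V]

open scoped IsMulCommutative in
/-- **[P4-abs] for a ring of Hecke pairs given by commuting generators** (the shape of `s33r_main_sub`). -/
theorem s59c_P4_sub (gens : Set (𝕋 × Module.End ℤ Y))
    (hgc : ∀ x ∈ gens, ∀ y ∈ gens, x * y = y * x)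
    (θ : 𝕋 →+* k)
    (hpY : ∀ y : Y, p • y = 0)
    (ρ : G →* Module.End ℤ Y)
    (hcomm : ∀ e ∈ Subring.closure gens, ∀ g : G, e.2 * ρ g = ρ g * e.2)
    (hnil : ∀ e ∈ Subring.closure gens, θ e.1 = 0 → IsNilpotent e.2)
    (χ : G →* (ZMod p)ˣ) (trV : G → k)
    (hdens : ∀ g : G, ∃ e ∈ Subring.closure gens,
      θ e.1 = trV g ∧ e.2 = ρ g + ((χ g : ZMod p).val) • ρ g⁻¹)
    (ρV : G →* Module.End k V)
    (hCHV : ∀ g : G, ρV g + (ZMod.cast (χ g : ZMod p) : k) • ρV g⁻¹ = trV g • (1 : Module.End k V))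
    (hirr : ∀ W : Submodule k V, (∀ g : G, ∀ x ∈ W, ρV g x ∈ W) → W = ⊥ ∨ W = ⊤)
    (I : Set G) (τ : G) (hτI : τ ∈ I) (hχτ : (χ τ : ZMod p) ≠ 1)
    (L : Submodule k V) (hLbot : L ≠ ⊥) (hLtop : L ≠ ⊤)
    (hLquot : ∀ σ ∈ I, ∀ v : V, ρV σ v - v ∈ L)
    (hLchar : ∀ σ ∈ I, ∀ v ∈ L, ρV σ v = (ZMod.cast (χ σ : ZMod p) : k) • v)
    (D : Subgroup G) (hID : ∀ σ ∈ I, σ ∈ D) (hLD : ∀ g ∈ D, ∀ v ∈ L, ρV g v ∈ L)
    (δ : G) (hδD : δ ∈ D) (c : ℤ) (hc : c * c = 1)
    (hδz : ∀ v : V, ρV δ v - ((c : ℤ) : k) • v ∈ L)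
    {Xr : Type*} [AddCommGroup Xr] (red : Y →+ Xr)
    (hredI : ∀ σ ∈ I, ∀ y : Y, red (ρ σ y) = red y)
    (hredδ : ∀ y : Y, red y = 0 → red (ρ δ y) = 0)
    (Tp : Module.End ℤ Y) (hTpE : ∀ e ∈ Subring.closure gens, e.2 * Tp = Tp * e.2)
    (hTpG : ∀ g : G, ρ g * Tp = Tp * ρ g)
    (hNoMu : ∀ z : Y, z ≠ 0 → (∀ σ ∈ I, ρ σ z = (χ σ : ZMod p).val • z) → Tp z ≠ 0)
    (hES : ∀ y : Y, red (Tp y) = red (ρ δ y))
    (hkm : ∀ y : Y, (∀ n : ℕ, ∃ y' : Y, (Tp ^ n) y' = y) → red y = 0 →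
      ∀ σ ∈ I, ρ σ y = (χ σ : ZMod p).val • y) :
    IsNilpotent (Tp - ((c : ℤ) : Module.End ℤ Y)) := by
  have hmc : IsMulCommutative ↥(Subring.closure gens) := Subring.isMulCommutative_closure hgc
  letI : CommRing ↥(Subring.closure gens) := inferInstance
  exact s59c_P4_abs (𝔼 := ↥(Subring.closure gens)) (Y := Y) (k := k) (G := G) (p := p) (V := V)
    (θ.comp ((RingHom.fst 𝕋 (Module.End ℤ Y)).comp (Subring.closure gens).subtype))
    ((RingHom.snd 𝕋 (Module.End ℤ Y)).comp (Subring.closure gens).subtype)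
    hpY ρ (fun e g => hcomm e.1 e.2 g) (fun e he => hnil e.1 e.2 he) χ trV
    (fun g => by
      obtain ⟨e, he, h1, h2⟩ := hdens g
      exact ⟨⟨e, he⟩, h1, h2⟩)
    ρV hCHV hirr I τ hτI hχτ L hLbot hLtop hLquot hLchar D hID hLD δ hδD c hc hδz red hredI hredδ
    Tp (fun e => hTpE e.1 e.2) hTpG hNoMu hES hkm

end Sub

end Fermat.Agent.Lib.S59
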