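/-
S59, case (P), brick [P4] (helper8, prefix `s59c_`), part 3: **[P4-J], THE CONCRETE INSTANCE AT `J₀(M)`**.

Hypotheses of S33 (a Hecke–Galois datum `H` at level `N`, `p` odd, `p ∈ S ⊇ primes(N)`) with the residual
representation `ρ̄ = H.ρ.residual` STRICTLY ordinary at `p` (`IsStrictOrdinaryAt`: ordinary, and on the
decomposition group `D_P` the characters `x` (on the line `L`) and `z` (on `V / L`) satisfy `x = χ z`), an
ARBITRARY level `M` good for `p` (`s18_GoodLevel p M`), `S₁ ⊇ S ∪ primes(M)` finite.  Then on the `θ`-primary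
part `Y = s33r_thetaTors θ M p S₁` of `J₀(M)(ℚ̄)[p]`:

  **`T_p - c` is nilpotent for a sign `c = ±1`**   (`s59c_P4_J`),   hence `(T_p² - 1) ^ m = 0` on `Y`.

* `s59c_det_line`    : `det f = x z` for `f` triangular with respect to the line `k b₀`;
* `s59c_line_strict` : the ordinary line of a strictly ordinary `ρ̄`: `D_P`-stable, `I_P` acts on `L` through `χ`,
                       trivially on `V / L`, and every `σ ∈ D_P` acts on `V / L` through a SIGN `c(σ) = ±1`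
                       (`det ρ̄ = χ`, `x = χ z` ⇒ `z² = 1`);
* `s59c_P4_J`        : instantiation of `s59c_P4_sub` (`CP4Abs.lean`) with `δ` a Frobenius element at `P ∣ p`,
                       `red` = the Prelude's `reductionModL P M`, Eichler–Shimura at `p` ([RED0] `s33r_red_hecke_torsion`
                       + `s37u_reductionModL_frobenius`), (III-out) `s33_noMuLine` and (KER-MU) `s59c_ker_mu`;
* `s59c_P4_pts`, `s59c_P4_sq`, `s59c_P4_tate` : pointwise / `T_p² - 1` / Tate-module forms (the latter in the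
                       shape of `s33r_realInst`).
-/
import Fermat.Prelude.Def_GaloisRep_StrictOrdinary
import Fermat.Agent.Lib.S33.RealTop
import Fermat.Agent.Lib.S33.DescNoMu
import Fermat.Agent.Lib.S37.UFinal
import Fermat.Agent.Lib.Frobenius.Exists
import Fermat.Agent.Lib.Frey.OrdInertia
import Fermat.Agent.Lib.S59.CKerMu
import Fermat.Agent.Lib.S59.CP4Abs

set_option autoImplicit false
set_option linter.style.haveILetI false
set_option linter.unusedSectionVars false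
set_option synthInstance.maxHeartbeats 400000

namespace Fermat.Agent.Lib.S59

open Module Polynomial IsLocalRing CuspForm ModularCurve AlgebraicCurve
open Fermat.Agent.Lib.S29 Fermat.Agent.Lib.S30 Fermat.Agent.Lib.S31 Fermat.Agent.Lib.S53
open Fermat.Agent.Lib.S18 Fermat.Agent.Lib.S33 Fermat.Agent.Lib.S37 Fermat.Agent.Lib.Frey

local notation "Γℚ" => (AlgebraicClosure ℚ ≃ₐ[ℚ] AlgebraicClosure ℚ)
local notation "Kb" => AlgebraicClosure ℚ

noncomputable section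

section Mu

/-- Every automorphism acts on `μ_p` through a power map (copy of helper4's `s33_exists_actsOnMuBy`, restated here
to keep the import closure inside `main`). -/
theorem s59c_exists_actsOnMuBy (p : ℕ) (hp : p.Prime) (σ : Γℚ) : ∃ a : ℕ, s33_ActsOnMuBy p σ a := by
  haveI : NeZero p := ⟨hp.ne_zero⟩
  haveI : NeZero (p : Kb) := ⟨by exact_mod_cast hp.ne_zero⟩
  obtain ⟨ζ₀, hζ₀⟩ := HasEnoughRootsOfUnity.exists_primitiveRoot Kb p
  have h1 : (σ ζ₀) ^ p = 1 := by rw [← map_pow, hζ₀.pow_eq_one, map_one]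
  obtain ⟨a, -, ha⟩ := hζ₀.eq_pow_of_pow_eq_one h1
  refine ⟨a, fun ζ hζ => ?_⟩
  obtain ⟨j, -, rfl⟩ := hζ₀.eq_pow_of_pow_eq_one hζ
  rw [map_pow, ← ha, ← pow_mul, ← pow_mul, mul_comm]

end Mu

section Line

variable {k : Type*} [Field k] {V : Type*} [AddCommGroup V] [Module k V]

/-- An endomorphism of a plane acting through `x` on the line `k b₀` and through `z` modulo that line has
determinant `x z`. -/
theorem s59c_det_line (b : Basis (Fin 2) k V) (f : Module.End k V) (x z : k)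
    (hx : ∀ w ∈ Submodule.span k {b 0}, f w = x • w)
    (hz : ∀ v : V, f v - z • v ∈ Submodule.span k {b 0}) :
    LinearMap.det f = x * z := by
  have e0 : f (b 0) = x • b 0 := hx _ (Submodule.mem_span_singleton_self _)
  have h1 := hz (b 1)
  rw [Submodule.mem_span_singleton] at h1
  obtain ⟨c1, hc1⟩ := h1
  have e1 : f (b 1) = z • b 1 + c1 • b 0 := by
    rw [hc1]; abel
  rw [← LinearMap.det_toMatrix b, Matrix.det_fin_two, LinearMap.toMatrix_apply,
    LinearMap.toMatrix_apply, LinearMap.toMatrix_apply, LinearMap.toMatrix_apply, e0, e1]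
  simp

end Line

section Inst

variable {p : ℕ} [Fact p.Prime] {N : ℕ} [NeZero N] {S : Finset ℕ}
  {𝒪 : Type} [CommRing 𝒪] [IsDomain 𝒪] [IsDiscreteValuationRing 𝒪]
  [IsAdicComplete (IsLocalRing.maximalIdeal 𝒪) 𝒪]
  {θ : CuspForm.heckeAlgebra N 2 (↑S : Set ℕ) →+* IsLocalRing.ResidueField 𝒪}
  {T : Type} [CommRing T] [IsLocalRing T] [IsNoetherianRing T]
  [IsAdicComplete (IsLocalRing.maximalIdeal T) T] [Algebra 𝒪 T] [IsLocalHom (algebraMap 𝒪 T)]
  [Module.Finite 𝒪 T] [Module.Free 𝒪 T]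
  (H : CuspForm.HeckeGaloisRepDatum N (↑S : Set ℕ) 𝒪 θ T)

/-- **The ordinary line of a STRICTLY ordinary residual representation**: besides the properties of
`s33r_line_chi`, it is stable under the decomposition group `D_P`, and every `σ ∈ D_P` acts on `V / L` through
a sign. -/
theorem s59c_line_strict [CharP (ResidueField T) p]
    (hpS : p ∈ S) (hNS : ∀ q : ℕ, q.Prime → q ∣ N → q ∈ S)
    (hstr : (GaloisRepAdic.ofResidualGaloisRep H.ρ.residual).IsStrictOrdinaryAt p)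
    (P : ValuationSubring Kb) (hP : P.LiesOverPrime p) :
    ∃ L : Submodule (ResidueField T) H.ρ.residual.V, L ≠ ⊥ ∧ L ≠ ⊤ ∧
      (∀ σ ∈ P.inertiaSubgroupIn ℚ, ∀ v : H.ρ.residual.V, H.ρ.residual.ρ σ v - v ∈ L) ∧
      (∀ σ ∈ P.inertiaSubgroupIn ℚ, ∀ v ∈ L, H.ρ.residual.ρ σ v =
        (ZMod.cast ((s33r_chi p σ : (ZMod p)ˣ) : ZMod p) : ResidueField T) • v) ∧
      (∀ σ ∈ P.decompositionSubgroup ℚ, ∀ v ∈ L, H.ρ.residual.ρ σ v ∈ L) ∧
      (∀ σ ∈ P.decompositionSubgroup ℚ, ∃ c : ℤ, c * c = 1 ∧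
        ∀ v : H.ρ.residual.V, H.ρ.residual.ρ σ v - ((c : ℤ) : ResidueField T) • v ∈ L) := by
  have hp : p.Prime := Fact.out
  obtain ⟨L, ⟨b, hLb⟩, hD, hI, hS⟩ := hstr.2 P hP
  subst hLb
  refine ⟨_, s33r_span_ne_bot b, s33r_span_ne_top b, hI, fun σ hσ v hv => ?_, hD, fun σ hσ => ?_⟩
  · rw [← s33r_resDet_eq_chi (p := p) H hpS hNS σ]
    exact s33r_line_char b _ (hI σ hσ) v hv
  · obtain ⟨x, z, hx, hz, hxz⟩ := hS σ hσ
    obtain ⟨a, ha⟩ := s59c_exists_actsOnMuBy p hp σ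
    have h1 := hxz 1 a (fun μ hμ => ha μ (by rwa [pow_one] at hμ))
    have hp0 : ((p ^ 1 : ℕ) : ResidueField T) = 0 := by
      rw [pow_one]; exact CharP.cast_eq_zero _ p
    rw [hp0, Ideal.span_singleton_zero, Ideal.mem_bot, sub_eq_zero] at h1
    -- the determinant
    have hdet : LinearMap.det (H.ρ.residual.ρ σ) = x * z := s59c_det_line b _ x z hx hz
    have hdet2 : LinearMap.det (H.ρ.residual.ρ σ) = (a : ResidueField T) := by
      have e1 := s33r_resDet_eq_chi (p := p) H hpS hNS σ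
      rw [← s33r_chi_eq_of_acts p σ a ha] at e1
      have e2 : (ZMod.cast ((a : ℕ) : ZMod p) : ResidueField T) = (a : ResidueField T) :=
        ZMod.cast_natCast (dvd_refl p) a
      rw [e2] at e1
      exact e1
    have hdet0 : LinearMap.det (H.ρ.residual.ρ σ) ≠ 0 := by
      intro h0
      have h2 : LinearMap.det (H.ρ.residual.ρ σ) * LinearMap.det (H.ρ.residual.ρ σ⁻¹) = 1 := by
        rw [← map_mul, ← map_mul, mul_inv_cancel, map_one, map_one]
      rw [h0, zero_mul] at h2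
      exact zero_ne_one h2
    have hzz : z * z = 1 := by
      have h3 : (a : ResidueField T) * (z * z) = (a : ResidueField T) * 1 := by
        rw [mul_one, ← mul_assoc, ← h1, ← hdet, hdet2]
      exact mul_left_cancel₀ (by rw [← hdet2]; exact hdet0) h3
    rcases mul_self_eq_one_iff.mp hzz with h | h
    · exact ⟨1, by norm_num, fun v => by rw [Int.cast_one, ← h]; exact hz v⟩
    · exact ⟨-1, by norm_num, fun v => by rw [Int.cast_neg, Int.cast_one, ← h]; exact hz v⟩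

set_option maxHeartbeats 1600000 in
/-- **[P4-J]**: at a good level `M`, `T_p - c` is nilpotent on the `θ`-primary part of `J₀(M)(ℚ̄)[p]` for a sign
`c = ±1`, when `ρ̄` is strictly ordinary at `p`. -/
theorem s59c_P4_J [Finite (IsLocalRing.ResidueField 𝒪)]
    (hp2 : p ≠ 2) (hp𝒪 : (p : 𝒪) ∈ IsLocalRing.maximalIdeal 𝒪)
    (hpS : p ∈ S) (hNS : ∀ q : ℕ, q.Prime → q ∣ N → q ∈ S)
    (hstr : (GaloisRepAdic.ofResidualGaloisRep H.ρ.residual).IsStrictOrdinaryAt p)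
    {M : ℕ} [NeZero M] (hgood : s18_GoodLevel p M) {S₁ : Finset ℕ} (hSS₁ : S ⊆ S₁)
    (hMS₁ : ∀ q : ℕ, q.Prime → q ∣ M → q ∈ S₁) :
    ∃ c : ℤ, c * c = 1 ∧ IsNilpotent
      ((heckeOperatorBar M ⟨p, Fact.out⟩).restrict
        (p := s33r_thetaTors θ M p S₁) (q := s33r_thetaTors θ M p S₁)
        (s33r_thetaTors_Tq (hSS₁ hpS) hMS₁ ⟨p, Fact.out⟩) -
          ((c : ℤ) : Module.End ℤ ↥(s33r_thetaTors θ M p S₁))) := by
  have hp : p.Prime := Fact.out
  have hpS₁ : p ∈ S₁ := hSS₁ hpS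
  have hpM : ¬ p ∣ M := hgood.1
  obtain ⟨P, δ, hP, hδ⟩ := Fermat.Agent.Lib.Frobenius.exists_isFrobeniusAt p hp
  obtain ⟨τ, hτI, -, hχτ⟩ := s33r_exists_tau hp2 P hP
  haveI hfin : Finite (ResidueField T) := s33r_finite_res (𝒪 := 𝒪)
  haveI hchar : CharP (ResidueField T) p := s33r_charP_res (T := T) hp𝒪
  have hY := s33r_thetaTors_stable (θ := θ) (M := M) hpS₁ hMS₁
  obtain ⟨L, hLbot, hLtop, hLquot, hLchar, hLD, hLsign⟩ := s59c_line_strict H hpS hNS hstr P hP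
  have hδD : δ ∈ P.decompositionSubgroup ℚ := hδ.mem_decompositionSubgroup
  obtain ⟨c, hc, hδz⟩ := hLsign δ hδD
  refine ⟨c, hc, ?_⟩
  haveI := s18n_charP_residueField P hp hP
  haveI : IsAlgClosed (ResidueField P) := s18n_isAlgClosed_residueField P
  haveI : PerfectRing (ResidueField P) p := inferInstance
  have hin : ReductionInputsModL P M := s33r_inputs M p hp hgood P hP
  refine s59c_P4_sub (p := p) (G := Γℚ) (k := ResidueField T)
    (s33r_gensY (N := N) (S := S) hY) (s33r_gensY_comm hY hpS₁ hMS₁)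
    (s33r_thetaT H)
    (fun y => Subtype.ext (by
      rw [Submodule.coe_smul_of_tower, Submodule.coe_zero]; exact hY.tors y y.2))
    (s33r_rhoY hY.gal)
    (fun e he g => s33r_comm_rhoY (s33r_hrel hY) s33r_gensJ_gal hY.gal he g)
    (fun e he hθ => s33r_isNilpotent_of_primary (θ := θ) (p := p) (s33r_hrel hY) (le_refl _) he
      ((s33r_thetaT_eq_zero_iff H _).mp hθ))
    (s33r_chi p) (s33r_resTr H.ρ.residual)
    (fun g => s33r_dens_Y H hY hpS hNS hSS₁ hMS₁ g)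
    H.ρ.residual.ρ (s33r_hCHV H hpS hNS) (s33r_res_irr H)
    (↑(P.inertiaSubgroupIn ℚ) : Set Γℚ) τ hτI hχτ L hLbot hLtop hLquot hLchar
    (P.decompositionSubgroup ℚ) (fun σ hσ => (ford_inertia_spec P σ hσ).1) hLD δ hδD c hc hδz
    ((reductionModL P M).comp (s33r_thetaTors θ M p S₁).subtype.toAddMonoidHom)
    (fun σ hσ y => ?_) (fun y hy => ?_) _ (fun e he => ?_) (fun g => ?_) (fun z hz hmu => ?_)
    (fun y => ?_) (fun y hdiv hred σ hσ => ?_)
  · -- `red` is inertia-invariant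
    exact s37u_reductionModL_inertia M P hp hP hpM hin σ hσ (y : JZero M)
  · -- `red` and Frobenius
    have h1 := s37u_reductionModL_frobenius M P hP hpM hin δ hδ (y : JZero M)
    have hy' : reductionModL P M (y : JZero M) = 0 := hy
    have h0 : s37e_psi (ResidueField P) M p • (0 : JZeroC (ResidueField P) M) = 0 :=
      map_zero (DistribSMul.toAddMonoidHom (JZeroC (ResidueField P) M)
        (s37e_psi (ResidueField P) M p))
    rw [hy', h0] at h1
    exact h1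
  · exact s33r_comm_restrict (G := Γℚ) (s33r_hrel hY) (s33r_gensJ_ES hpS₁ hMS₁) hY.tors
      (heckeOperatorBar M ⟨p, hp⟩) (fun σ x => (s30a_pt_comm M ⟨p, hp⟩ σ x).symm) _ he
  · ext y
    rw [Module.End.mul_apply, Module.End.mul_apply, s33r_rhoY_apply, LinearMap.coe_restrict_apply,
      LinearMap.coe_restrict_apply, s33r_rhoY_apply]
    exact s30a_pt_comm M ⟨p, hp⟩ g _
  · -- (III-out)
    intro h0
    have hz0 : (z : JZero M) ≠ 0 := fun h => hz (Subtype.ext h)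
    have hmu' : s33_IsMuType M p P (z : JZero M) := by
      refine s33r_isMuType_of_chi P _ (hY.tors z z.2) (fun σ hσ => ?_)
      have := congrArg (fun y : ↥(s33r_thetaTors θ M p S₁) => (y : JZero M)) (hmu σ hσ)
      simpa [s33r_rhoY_apply] using this
    refine s33_noMuLine M p hp hp2 hgood P hP (z : JZero M) (hY.tors z z.2) hz0 hmu' ?_
    have := congrArg (fun y : ↥(s33r_thetaTors θ M p S₁) => (y : JZero M)) h0
    simpa [LinearMap.coe_restrict_apply] using this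
  · -- Eichler–Shimura at `p`
    have h1 := s37u_reductionModL_frobenius M P hP hpM hin δ hδ (y : JZero M)
    have h2 := s33r_red_hecke_torsion M p hp hgood P hP (y : JZero M) (hY.tors y y.2)
    exact h2.trans h1.symm
  · -- (KER-MU)
    have hred' : reductionModL P M (y : JZero M) = 0 := hred
    have hmem : (y : JZero M) ∈ s33_ordKer M p hp 1 P := by
      refine AddSubgroup.mem_inf.mpr ⟨⟨by rw [pow_one]; exact hY.tors y y.2, fun n => ?_⟩,
        AddMonoidHom.mem_ker.mpr hred'⟩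
      obtain ⟨y', hy'⟩ := hdiv n
      refine ⟨(y' : JZero M), by rw [pow_one]; exact hY.tors y' y'.2, ?_⟩
      rw [← s33r_restrict_pow (heckeOperatorBar M ⟨p, hp⟩)
        (s33r_thetaTors_Tq (θ := θ) hpS₁ hMS₁ ⟨p, hp⟩) n y', hy']
    have hmu : s33_IsMuType M p P (y : JZero M) := s59c_ker_mu M p hp2 hgood P hP _ hmem
    obtain ⟨a, ha⟩ := s59c_exists_actsOnMuBy p hp σ
    have h1 := hmu σ hσ a ha
    refine Subtype.ext ?_
    rw [s33r_rhoY_apply, Submodule.coe_smul_of_tower, h1]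
    refine s30a_nsmul_congr (m := p) ?_ (hY.tors y y.2)
    rw [ZMod.natCast_zmod_val]
    exact s33r_chi_eq_of_acts p σ a ha

/-- **[P4-J], pointwise form**: `(T_p - c) ^ m` kills the `θ`-primary part of `J₀(M)(ℚ̄)[p]`. -/
theorem s59c_P4_pts [Finite (IsLocalRing.ResidueField 𝒪)]
    (hp2 : p ≠ 2) (hp𝒪 : (p : 𝒪) ∈ IsLocalRing.maximalIdeal 𝒪)
    (hpS : p ∈ S) (hNS : ∀ q : ℕ, q.Prime → q ∣ N → q ∈ S)
    (hstr : (GaloisRepAdic.ofResidualGaloisRep H.ρ.residual).IsStrictOrdinaryAt p)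
    {M : ℕ} [NeZero M] (hgood : s18_GoodLevel p M) {S₁ : Finset ℕ} (hSS₁ : S ⊆ S₁)
    (hMS₁ : ∀ q : ℕ, q.Prime → q ∣ M → q ∈ S₁) :
    ∃ (c : ℤ) (m : ℕ), c * c = 1 ∧ ∀ y ∈ s33r_thetaTors θ M p S₁,
      ((heckeOperatorBar M ⟨p, Fact.out⟩ - ((c : ℤ) : Module.End ℤ (JZero M))) ^ m) y = 0 := by
  obtain ⟨c, hc, m, hm⟩ := s59c_P4_J H hp2 hp𝒪 hpS hNS hstr hgood hSS₁ hMS₁
  refine ⟨c, m, hc, fun y hy => ?_⟩
  have hFY : ∀ y ∈ s33r_thetaTors θ M p S₁,
      (heckeOperatorBar M ⟨p, Fact.out⟩ - ((c : ℤ) : Module.End ℤ (JZero M))) y ∈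
        s33r_thetaTors θ M p S₁ := by
    intro y hy
    rw [LinearMap.sub_apply, Module.End.intCast_apply]
    exact Submodule.sub_mem _ (s33r_thetaTors_Tq (hSS₁ hpS) hMS₁ ⟨p, Fact.out⟩ y hy)
      (Submodule.smul_mem _ _ hy)
  have hres : (heckeOperatorBar M ⟨p, Fact.out⟩ - ((c : ℤ) : Module.End ℤ (JZero M))).restrict
      (p := s33r_thetaTors θ M p S₁) (q := s33r_thetaTors θ M p S₁) hFY =
      (heckeOperatorBar M ⟨p, Fact.out⟩).restrict
        (p := s33r_thetaTors θ M p S₁) (q := s33r_thetaTors θ M p S₁)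
        (s33r_thetaTors_Tq (hSS₁ hpS) hMS₁ ⟨p, Fact.out⟩) -
          ((c : ℤ) : Module.End ℤ ↥(s33r_thetaTors θ M p S₁)) := by
    ext z
    rw [LinearMap.coe_restrict_apply, LinearMap.sub_apply, LinearMap.sub_apply,
      Module.End.intCast_apply, Module.End.intCast_apply, Submodule.coe_sub,
      LinearMap.coe_restrict_apply, Submodule.coe_smul_of_tower]
  have h1 := s33r_restrict_pow _ hFY m ⟨y, hy⟩
  rw [hres, hm, LinearMap.zero_apply, Submodule.coe_zero] at h1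
  exact h1.symm

/-- **[P4-J], pointwise form, `c • 1` spelling** (the input shape `hP4` of helper2's bridge `s59b_P4_good`, with an
explicit primality proof). -/
theorem s59c_P4_pts_smul [Finite (IsLocalRing.ResidueField 𝒪)] (hp : p.Prime)
    (hp2 : p ≠ 2) (hp𝒪 : (p : 𝒪) ∈ IsLocalRing.maximalIdeal 𝒪)
    (hpS : p ∈ S) (hNS : ∀ q : ℕ, q.Prime → q ∣ N → q ∈ S)
    (hstr : (GaloisRepAdic.ofResidualGaloisRep H.ρ.residual).IsStrictOrdinaryAt p)
    {M : ℕ} [NeZero M] (hgood : s18_GoodLevel p M) {S₁ : Finset ℕ} (hSS₁ : S ⊆ S₁)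
    (hMS₁ : ∀ q : ℕ, q.Prime → q ∣ M → q ∈ S₁) :
    ∃ cp : ℤ, cp * cp = 1 ∧ ∃ m : ℕ, ∀ y ∈ s33r_thetaTors θ M p S₁,
      ((heckeOperatorBar M ⟨p, hp⟩ - cp • (1 : Module.End ℤ (JZero M))) ^ m) y = 0 := by
  obtain ⟨c, m, hc, hm⟩ := s59c_P4_pts H hp2 hp𝒪 hpS hNS hstr hgood hSS₁ hMS₁
  refine ⟨c, hc, m, fun y hy => ?_⟩
  rw [zsmul_one]
  exact hm y hy

/-- **[P4-J], `a_p² ≡ 1`**: `(T_p² - 1) ^ m` kills the `θ`-primary part of `J₀(M)(ℚ̄)[p]`. -/
theorem s59c_P4_sq [Finite (IsLocalRing.ResidueField 𝒪)]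
    (hp2 : p ≠ 2) (hp𝒪 : (p : 𝒪) ∈ IsLocalRing.maximalIdeal 𝒪)
    (hpS : p ∈ S) (hNS : ∀ q : ℕ, q.Prime → q ∣ N → q ∈ S)
    (hstr : (GaloisRepAdic.ofResidualGaloisRep H.ρ.residual).IsStrictOrdinaryAt p)
    {M : ℕ} [NeZero M] (hgood : s18_GoodLevel p M) {S₁ : Finset ℕ} (hSS₁ : S ⊆ S₁)
    (hMS₁ : ∀ q : ℕ, q.Prime → q ∣ M → q ∈ S₁) :
    ∃ m : ℕ, ∀ y ∈ s33r_thetaTors θ M p S₁,
      ((heckeOperatorBar M ⟨p, Fact.out⟩ * heckeOperatorBar M ⟨p, Fact.out⟩ - 1) ^ m) y = 0 := by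
  obtain ⟨c, m, hc, hm⟩ := s59c_P4_pts H hp2 hp𝒪 hpS hNS hstr hgood hSS₁ hMS₁
  refine ⟨m, fun y hy => ?_⟩
  set Tp : Module.End ℤ (JZero M) := heckeOperatorBar M ⟨p, Fact.out⟩ with hTp
  set C : Module.End ℤ (JZero M) := ((c : ℤ) : Module.End ℤ (JZero M)) with hC
  have hcc : C * C = 1 := by rw [hC, ← Int.cast_mul, hc, Int.cast_one]
  have hcomm : Commute Tp C := (Int.cast_commute c Tp).symm
  have hfac : Tp * Tp - 1 = (Tp + C) * (Tp - C) := by
    rw [add_mul, mul_sub, mul_sub, hcomm.eq, hcc]; abel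
  have hcomm2 : Commute (Tp + C) (Tp - C) :=
    ((Commute.refl Tp).sub_right hcomm).add_left (hcomm.symm.sub_right (Commute.refl C))
  rw [hfac, hcomm2.mul_pow, Module.End.mul_apply, hm y hy, map_zero]

/-- **[P4-J], Tate-module form** (shape of `s33r_realInst`): for ANY ring `𝔾` of Hecke pairs in
`𝕋_N × End Λ(M)` containing the `(T_ℓ, T_ℓ^Λ)`, `ℓ ∉ S₁`, the operator `(T_p^Λ - c) ^ m` maps the `θ`-primary
part of `Λ(M) = T_p J₀(M)` into `p Λ(M)` (first coordinate zero). -/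
theorem s59c_P4_tate [Finite (IsLocalRing.ResidueField 𝒪)]
    (hp2 : p ≠ 2) (hp𝒪 : (p : 𝒪) ∈ IsLocalRing.maximalIdeal 𝒪)
    (hpS : p ∈ S) (hNS : ∀ q : ℕ, q.Prime → q ∣ N → q ∈ S)
    (hstr : (GaloisRepAdic.ofResidualGaloisRep H.ρ.residual).IsStrictOrdinaryAt p)
    {M : ℕ} [NeZero M] (hgood : s18_GoodLevel p M) {S₁ : Finset ℕ} (hSS₁ : S ⊆ S₁)
    (hMS₁ : ∀ q : ℕ, q.Prime → q ∣ M → q ∈ S₁) :
    ∃ (c : ℤ) (m : ℕ), c * c = 1 ∧
      ∀ (𝔾 : Subring (CuspForm.heckeAlgebra N 2 (↑S : Set ℕ) × Module.End ℤ_[p] (s30a_TJ M p))),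
        (∀ ℓ : ℕ, ℓ.Prime → ℓ ∉ S₁ → (s31e_tau N S ℓ, s31e_TL M p ℓ) ∈ 𝔾) →
        ∀ w ∈ s33g_primaryPart 𝔾 θ,
          ((((s30a_T M p ⟨p, Fact.out⟩ - ((c : ℤ) : Module.End ℤ_[p] (s30a_TJ M p))) ^ m) w :
            s30a_TJ M p) : ℕ → JZero M) 1 = 0 := by
  obtain ⟨c, m, hc, hm⟩ := s59c_P4_pts H hp2 hp𝒪 hpS hNS hstr hgood hSS₁ hMS₁
  refine ⟨c, m, hc, fun 𝔾 h𝔾 w hw => ?_⟩
  have hmem : (w : ℕ → JZero M) 1 ∈ s33r_thetaTors θ M p S₁ := by
    refine s33r_eval_mem_primTors (gens := s33r_gensJ (N := N) (S := S) M S₁) s33r_hrel_tate ?_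
    intro z hz hθ j
    refine hw z ?_ hθ j
    refine (Subring.closure_le (t := 𝔾)).mpr ?_ hz
    rintro _ ⟨ℓ, hℓ, hℓS₁, rfl⟩
    exact h𝔾 ℓ hℓ hℓS₁
  have h2 : ∀ (w : s30a_TJ M p) (n : ℕ),
      ((((0 : ℤ), s30a_T M p ⟨p, Fact.out⟩ - ((c : ℤ) : Module.End ℤ_[p] (s30a_TJ M p))).2 w :
        s30a_TJ M p) : ℕ → JZero M) n =
      ((0 : ℤ), heckeOperatorBar M ⟨p, Fact.out⟩ - ((c : ℤ) : Module.End ℤ (JZero M))).2
        ((w : ℕ → JZero M) n) := by
    intro w n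
    show (((s30a_T M p ⟨p, Fact.out⟩ - ((c : ℤ) : Module.End ℤ_[p] (s30a_TJ M p))) w :
        s30a_TJ M p) : ℕ → JZero M) n =
      (heckeOperatorBar M ⟨p, Fact.out⟩ - ((c : ℤ) : Module.End ℤ (JZero M))) ((w : ℕ → JZero M) n)
    rw [LinearMap.sub_apply, LinearMap.sub_apply, Module.End.intCast_apply,
      Module.End.intCast_apply, s30a_sub_apply, s30a_zsmul_apply, s30a_T_apply]
  have h3 := s33r_lift_tate_pow (𝕋 := ℤ) h2 m w 1
  exact h3.trans (hm _ hmem)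

end Inst

end

end Fermat.Agent.Lib.S59
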