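/-
PROGRAMME (R), bridge (iii), concrete instance (helper6, prefix `s59q_`), part E: **the instance, UNCONDITIONAL**
(`s59q_inst_flat`, `s59q_inst_ord`).

Framed primes `Bd` (`ρ̄|G_q` central; enumerated by `Fin m`) and `Ed` (`ρ̄` unramified; enumerated by `Fin e`; residual
Frobenius `diag(ᾱ, β̄)` in the residual frame, `ᾱ ≠ ± β̄`); uniform generators of tame inertia `σq t`, Frobenius lifts
`φq t`, constant frames `P t`.  There is `r ≥ 3 m + e` such that for every `n` there are Taylor–Wiles primes `qv` such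
that for EVERY universal deformation ring `DQ` of type "flat (resp. strict-ordinary) at `p`, unramified outside
`Smin ∪ (Bd ∪ Ed) ∪ Q`, unipotent at `Smin ∖ {p}`" (NO condition at `Bd ∪ Ed`) and every surjection `θ : DQ.R ↠ T` onto a
complete noetherian local test algebra there is a SURJECTIVE
  `γ : 𝒪⟦VB, WB, VE, WE, x_1..x_g⟧ → T⟦z⟧`,   `g = r + m + e`,  `#z = 4 (m + e)`,
with `γ(VB j k), γ(WB j k), γ(VE l k), γ(WE l k)` = the coordinates `s59q_tl` of the framed matrices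
`U⁻¹ ρ(σ) U`, `U⁻¹ ρ(φ) U` (`ρ = θ ∘ ρ^univ`, `U_t = P_t (1 + Z_t)`), `WE` shifted by `(i2 (α - β), 0, 0)`.
(The index type `s59q_GIdx m e g` is syntactically helper4's `s59l_IdxE m e g`.)
-/
import Fermat.Agent.Lib.S59.QBrInstD

set_option autoImplicit false
set_option linter.style.haveILetI false
set_option linter.unusedSectionVars false
set_option maxHeartbeats 1600000

noncomputable section

namespace Fermat.Agent.Lib.S59

open IsLocalRing Module ExtCitation groupCohomology Polynomial Fermat.Agent.Lib.S56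
open Fermat.Agent.Lib.S53 (matOf matOfRes NormData)
open Fermat.Agent.Lib.Deform (dualNumberAlgebra IsTestAlgebra)

attribute [local instance] Fermat.Agent.Lib.Deform.dualNumberAlgebra

local notation "Γℚ" => (AlgebraicClosure ℚ ≃ₐ[ℚ] AlgebraicClosure ℚ)

section Final

variable {𝒪 : Type} [CommRing 𝒪] [IsDomain 𝒪] [IsDiscreteValuationRing 𝒪]
  [IsAdicComplete (maximalIdeal 𝒪) 𝒪] [Finite (ResidueField 𝒪)]

/-- bookkeeping for the enumeration of the framed primes. -/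
theorem s59q_enum_facts {m e : ℕ} (Bd Ed : Finset ℕ) (pr : Fin m ⊕ Fin e → Nat.Primes)
    (hprB : Finset.univ.image (fun j : Fin m => (pr (Sum.inl j) : ℕ)) = Bd)
    (hprE : Finset.univ.image (fun l : Fin e => (pr (Sum.inr l) : ℕ)) = Ed)
    (hBinj : Function.Injective fun j : Fin m => (pr (Sum.inl j) : ℕ))
    (hEinj : Function.Injective fun l : Fin e => (pr (Sum.inr l) : ℕ)) :
    Bd.card = m ∧ Ed.card = e ∧ (∀ j, (pr (Sum.inl j) : ℕ) ∈ Bd) ∧ (∀ l, (pr (Sum.inr l) : ℕ) ∈ Ed) ∧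
      ∀ q : Nat.Primes, (q : ℕ) ∈ Bd ∪ Ed → ∃ t, pr t = q := by
  refine ⟨?_, ?_, ?_, ?_, ?_⟩
  · rw [← hprB, Finset.card_image_of_injective _ hBinj, Finset.card_univ, Fintype.card_fin]
  · rw [← hprE, Finset.card_image_of_injective _ hEinj, Finset.card_univ, Fintype.card_fin]
  · intro j; rw [← hprB]; exact Finset.mem_image_of_mem _ (Finset.mem_univ j)
  · intro l; rw [← hprE]; exact Finset.mem_image_of_mem _ (Finset.mem_univ l)
  · intro q hq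
    rcases Finset.mem_union.1 hq with h | h
    · rw [← hprB, Finset.mem_image] at h
      obtain ⟨j, -, hj⟩ := h
      exact ⟨Sum.inl j, Subtype.ext hj⟩
    · rw [← hprE, Finset.mem_image] at h
      obtain ⟨l, -, hl⟩ := h
      exact ⟨Sum.inr l, Subtype.ext hl⟩

/-- **the concrete instance of the bridge with frames, flat condition at `p`.** -/
theorem s59q_inst_flat (p : ℕ) [Fact p.Prime] (hp2 : p ≠ 2) (hp𝒪 : (p : 𝒪) ∈ maximalIdeal 𝒪)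
    (ρbar : ResidualGaloisRep (ResidueField 𝒪))
    (habs : ρbar.IsAbsolutelyIrreducible)
    (hdet : (GaloisRepAdic.ofResidualGaloisRep ρbar).DetIsCyclotomic p)
    (hsplit : ∀ σ : Γℚ, ∃ α β : ResidueField 𝒪,
      LinearMap.charpoly (ρbar.ρ σ) = (X - C α) * (X - C β))
    (hTW : ∀ (K : Type) [Field K] [Algebra (ResidueField 𝒪) K] (G : Subgroup Γℚ), G.index = 2 →
      ∀ V : Submodule K (ρbar.baseChange K).V,
        (∀ σ ∈ G, ∀ x ∈ V, (ρbar.baseChange K).ρ σ x ∈ V) → V = ⊥ ∨ V = ⊤)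
    (S Smin Bd Ed : Finset ℕ) (hpSmin : p ∈ Smin) (hSmin : Smin ⊆ S) (hBS : Bd ⊆ S) (hES : Ed ⊆ S)
    (hBprime : ∀ q ∈ Bd, q.Prime) (hEprime : ∀ q ∈ Ed, q.Prime)
    (hmin : ∀ q : ℕ, q.Prime → q ≠ p → (q ∈ Smin ↔ ¬ ρbar.IsUnramifiedAt q))
    (hBunr : ∀ q ∈ Bd, q ≠ p ∧ ρbar.IsUnramifiedAt q)
    (hEunr : ∀ q ∈ Ed, q ≠ p ∧ ρbar.IsUnramifiedAt q)
    (hBE : Disjoint Bd Ed)
    (hcen : ∀ q : Nat.Primes, (q : ℕ) ∈ Bd → s59q_CentralAt ρbar q)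
    (N : NormData ρbar) (m e : ℕ) (pr : Fin m ⊕ Fin e → Nat.Primes)
    (hprB : Finset.univ.image (fun j : Fin m => (pr (Sum.inl j) : ℕ)) = Bd)
    (hprE : Finset.univ.image (fun l : Fin e => (pr (Sum.inr l) : ℕ)) = Ed)
    (hBinj : Function.Injective fun j : Fin m => (pr (Sum.inl j) : ℕ))
    (hEinj : Function.Injective fun l : Fin e => (pr (Sum.inr l) : ℕ))
    (σq φq : Fin m ⊕ Fin e → Γℚ)
    (hσq : ∀ t, s59q_IsTameGen (pr t) (primeLocalPlace (pr t)) (σq t))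
    (hφq : ∀ t, (primeLocalPlace (pr t)).IsFrobeniusAt (φq t) (pr t))
    (i2 : 𝒪) (hi2 : 2 * i2 = 1)
    (P P' : Fin m ⊕ Fin e → Matrix (Fin 2) (Fin 2) 𝒪) (hPP' : ∀ t, P t * P' t = 1)
    (hP'P : ∀ t, P' t * P t = 1)
    (αE βE : Fin e → 𝒪) (hαβ : ∀ l, residue 𝒪 (αE l) ≠ residue 𝒪 (βE l))
    (hαβ' : ∀ l, residue 𝒪 (αE l) + residue 𝒪 (βE l) ≠ 0)
    (hdiag : ∀ l, (P' (Sum.inr l)).map (residue 𝒪) * matOfRes ρbar N.b (φq (Sum.inr l)) *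
      (P (Sum.inr l)).map (residue 𝒪) = Matrix.diagonal ![residue 𝒪 (αE l), residue 𝒪 (βE l)]) :
    ∃ r : ℕ, 3 * m + e ≤ r ∧ ∀ n : ℕ, ∃ qv : Fin r → ℕ, Function.Injective qv ∧
      (∀ i, (qv i).Prime ∧ qv i ∉ S ∧ p ^ (n + 1) ∣ qv i - 1) ∧
      (∀ i, ∀ A : ValuationSubring (AlgebraicClosure ℚ), A.LiesOverPrime (qv i) →
        ∀ φ : Γℚ, A.IsFrobeniusAt φ (qv i) →
          ∃ α β : ResidueField 𝒪, α ≠ β ∧ LinearMap.charpoly (ρbar.ρ φ) = (X - C α) * (X - C β)) ∧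
      ∀ (DQ : GaloisRep.DeformationRingData 𝒪 ρbar (fun _A _ _ _ ρ =>
          GaloisRep.flatCondition 𝒪 p (Smin ∪ (Bd ∪ Ed) ∪ Finset.univ.image qv) ρ ∧
            ∀ q ∈ Smin, q.Prime → q ≠ p → ρ.IsUnipotentOnInertiaAt q))
        (bR : Basis (Fin 2) DQ.R DQ.ρ.V)
        (_ : ∀ σ i j, matOf DQ.ρ bR σ i j - algebraMap 𝒪 DQ.R (N.Mtil σ i j) ∈ maximalIdeal DQ.R)
        {T : Type} [CommRing T] [IsLocalRing T] [IsNoetherianRing T]
        [IsAdicComplete (maximalIdeal T) T] [Algebra 𝒪 T] (_ : IsTestAlgebra 𝒪 T)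
        (θ : DQ.R →ₐ[𝒪] T) (_ : Function.Surjective θ),
        ∃ γ : MvPowerSeries (s59q_GIdx m e (r + m + e)) 𝒪 →ₐ[𝒪] MvPowerSeries (s59q_ZIdx m e) T,
          Function.Surjective γ ∧
          (∀ j k, γ (MvPowerSeries.X (Sum.inl (j, k))) =
            s59q_tl (algebraMap 𝒪 _ i2) (s59q_Fm DQ bR θ P P' (Sum.inl j) (σq (Sum.inl j))) k) ∧
          (∀ j k, γ (MvPowerSeries.X (Sum.inr (Sum.inl (j, k)))) =
            s59q_tl (algebraMap 𝒪 _ i2) (s59q_Fm DQ bR θ P P' (Sum.inl j) (φq (Sum.inl j))) k) ∧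
          (∀ l k, γ (MvPowerSeries.X (Sum.inr (Sum.inr (Sum.inl (l, k))))) =
            s59q_tl (algebraMap 𝒪 _ i2) (s59q_Fm DQ bR θ P P' (Sum.inr l) (σq (Sum.inr l))) k) ∧
          (∀ l k, γ (MvPowerSeries.X (Sum.inr (Sum.inr (Sum.inr (Sum.inl (l, k)))))) =
            s59q_tl (algebraMap 𝒪 _ i2) (s59q_Fm DQ bR θ P P' (Sum.inr l) (φq (Sum.inr l))) k -
              algebraMap 𝒪 _ ((![i2 * (αE l - βE l), 0, 0] : Fin 3 → 𝒪) k)) := by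
  haveI : CharP (ResidueField 𝒪) p := s56z_charP p hp𝒪
  have hpk : ((p : ℕ) : ResidueField 𝒪) = 0 := CharP.cast_eq_zero _ p
  obtain ⟨hBc, hEc, hmemB, hmemE, hpr⟩ := s59q_enum_facts Bd Ed pr hprB hprE hBinj hEinj
  obtain ⟨r, hr, H⟩ := s59q_bridge_flat_w p hp2 hp𝒪 ρbar habs hdet hsplit hTW S Smin Bd Ed hpSmin
    hSmin hBS hES hBprime hEprime hmin hBunr hEunr hBE hcen
  rw [hBc, hEc] at hr
  refine ⟨r, hr, fun n => ?_⟩
  obtain ⟨qv, h1, h2, h3, H4⟩ := H n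
  refine ⟨qv, h1, h2, h3, fun DQ bR hbR T _ _ _ _ _ hT θ hθ => ?_⟩
  have hunr : ∀ t, ((pr t : ℕ) ≠ p) ∧ ρbar.IsUnramifiedAt (pr t) := by
    rintro (j | l)
    · exact hBunr _ (hmemB j)
    · exact hEunr _ (hmemE l)
  have hscal : ∀ j : Fin m, ∃ c : ResidueField 𝒪,
      matOfRes ρbar N.b (φq (Sum.inl j)) = c • (1 : Matrix (Fin 2) (Fin 2) (ResidueField 𝒪)) :=
    fun j => s59q_scalar_of_central ρbar (pr (Sum.inl j)) (hcen _ (hmemB j)) N.b _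
      (hφq (Sum.inl j)).mem_decompositionSubgroup
  refine s59q_inst_core DQ N bR hbR p (s56a_tangentStable_flat 𝒪 p _ Smin) hpk
    (r - (3 * Bd.card + Ed.card)) {q : Nat.Primes | (q : ℕ) ∈ Bd ∪ Ed}
    (fun {Cr} _ _ _ _ hC ψ E w Λ hE1 hE2 => H4 DQ N bR hbR hC ψ E w Λ hE1 hE2)
    pr hpr hunr σq φq hσq hφq i2 hi2 P P' hPP' hP'P hscal αE βE hαβ hαβ' hdiag hT θ hθ
    (r + m + e) ?_
  rw [hBc, hEc]
  omega

/-- **the concrete instance of the bridge with frames, strict-ordinary condition at `p`.** -/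
theorem s59q_inst_ord (p : ℕ) [Fact p.Prime] (hp2 : p ≠ 2) (hp𝒪 : (p : 𝒪) ∈ maximalIdeal 𝒪)
    (ρbar : ResidualGaloisRep (ResidueField 𝒪))
    (habs : ρbar.IsAbsolutelyIrreducible)
    (hdet : (GaloisRepAdic.ofResidualGaloisRep ρbar).DetIsCyclotomic p)
    (hsplit : ∀ σ : Γℚ, ∃ α β : ResidueField 𝒪,
      LinearMap.charpoly (ρbar.ρ σ) = (X - C α) * (X - C β))
    (hTW : ∀ (K : Type) [Field K] [Algebra (ResidueField 𝒪) K] (G : Subgroup Γℚ), G.index = 2 →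
      ∀ V : Submodule K (ρbar.baseChange K).V,
        (∀ σ ∈ G, ∀ x ∈ V, (ρbar.baseChange K).ρ σ x ∈ V) → V = ⊥ ∨ V = ⊤)
    (S Smin Bd Ed : Finset ℕ) (hpSmin : p ∈ Smin) (hSmin : Smin ⊆ S) (hBS : Bd ⊆ S) (hES : Ed ⊆ S)
    (hBprime : ∀ q ∈ Bd, q.Prime) (hEprime : ∀ q ∈ Ed, q.Prime)
    (hmin : ∀ q : ℕ, q.Prime → q ≠ p → (q ∈ Smin ↔ ¬ ρbar.IsUnramifiedAt q))
    (hBunr : ∀ q ∈ Bd, q ≠ p ∧ ρbar.IsUnramifiedAt q)
    (hEunr : ∀ q ∈ Ed, q ≠ p ∧ ρbar.IsUnramifiedAt q)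
    (hBE : Disjoint Bd Ed)
    (hcen : ∀ q : Nat.Primes, (q : ℕ) ∈ Bd → s59q_CentralAt ρbar q)
    (N : NormData ρbar) (m e : ℕ) (pr : Fin m ⊕ Fin e → Nat.Primes)
    (hprB : Finset.univ.image (fun j : Fin m => (pr (Sum.inl j) : ℕ)) = Bd)
    (hprE : Finset.univ.image (fun l : Fin e => (pr (Sum.inr l) : ℕ)) = Ed)
    (hBinj : Function.Injective fun j : Fin m => (pr (Sum.inl j) : ℕ))
    (hEinj : Function.Injective fun l : Fin e => (pr (Sum.inr l) : ℕ))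
    (σq φq : Fin m ⊕ Fin e → Γℚ)
    (hσq : ∀ t, s59q_IsTameGen (pr t) (primeLocalPlace (pr t)) (σq t))
    (hφq : ∀ t, (primeLocalPlace (pr t)).IsFrobeniusAt (φq t) (pr t))
    (i2 : 𝒪) (hi2 : 2 * i2 = 1)
    (P P' : Fin m ⊕ Fin e → Matrix (Fin 2) (Fin 2) 𝒪) (hPP' : ∀ t, P t * P' t = 1)
    (hP'P : ∀ t, P' t * P t = 1)
    (αE βE : Fin e → 𝒪) (hαβ : ∀ l, residue 𝒪 (αE l) ≠ residue 𝒪 (βE l))
    (hαβ' : ∀ l, residue 𝒪 (αE l) + residue 𝒪 (βE l) ≠ 0)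
    (hdiag : ∀ l, (P' (Sum.inr l)).map (residue 𝒪) * matOfRes ρbar N.b (φq (Sum.inr l)) *
      (P (Sum.inr l)).map (residue 𝒪) = Matrix.diagonal ![residue 𝒪 (αE l), residue 𝒪 (βE l)]) :
    ∃ r : ℕ, 3 * m + e ≤ r ∧ ∀ n : ℕ, ∃ qv : Fin r → ℕ, Function.Injective qv ∧
      (∀ i, (qv i).Prime ∧ qv i ∉ S ∧ p ^ (n + 1) ∣ qv i - 1) ∧
      (∀ i, ∀ A : ValuationSubring (AlgebraicClosure ℚ), A.LiesOverPrime (qv i) →
        ∀ φ : Γℚ, A.IsFrobeniusAt φ (qv i) →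
          ∃ α β : ResidueField 𝒪, α ≠ β ∧ LinearMap.charpoly (ρbar.ρ φ) = (X - C α) * (X - C β)) ∧
      ∀ (DQ : GaloisRep.DeformationRingData 𝒪 ρbar (fun _A _ _ _ ρ =>
          GaloisRep.strictOrdinaryCondition 𝒪 p (Smin ∪ (Bd ∪ Ed) ∪ Finset.univ.image qv) ρ ∧
            ∀ q ∈ Smin, q.Prime → q ≠ p → ρ.IsUnipotentOnInertiaAt q))
        (bR : Basis (Fin 2) DQ.R DQ.ρ.V)
        (_ : ∀ σ i j, matOf DQ.ρ bR σ i j - algebraMap 𝒪 DQ.R (N.Mtil σ i j) ∈ maximalIdeal DQ.R)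
        {T : Type} [CommRing T] [IsLocalRing T] [IsNoetherianRing T]
        [IsAdicComplete (maximalIdeal T) T] [Algebra 𝒪 T] (_ : IsTestAlgebra 𝒪 T)
        (θ : DQ.R →ₐ[𝒪] T) (_ : Function.Surjective θ),
        ∃ γ : MvPowerSeries (s59q_GIdx m e (r + m + e)) 𝒪 →ₐ[𝒪] MvPowerSeries (s59q_ZIdx m e) T,
          Function.Surjective γ ∧
          (∀ j k, γ (MvPowerSeries.X (Sum.inl (j, k))) =
            s59q_tl (algebraMap 𝒪 _ i2) (s59q_Fm DQ bR θ P P' (Sum.inl j) (σq (Sum.inl j))) k) ∧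
          (∀ j k, γ (MvPowerSeries.X (Sum.inr (Sum.inl (j, k)))) =
            s59q_tl (algebraMap 𝒪 _ i2) (s59q_Fm DQ bR θ P P' (Sum.inl j) (φq (Sum.inl j))) k) ∧
          (∀ l k, γ (MvPowerSeries.X (Sum.inr (Sum.inr (Sum.inl (l, k))))) =
            s59q_tl (algebraMap 𝒪 _ i2) (s59q_Fm DQ bR θ P P' (Sum.inr l) (σq (Sum.inr l))) k) ∧
          (∀ l k, γ (MvPowerSeries.X (Sum.inr (Sum.inr (Sum.inr (Sum.inl (l, k)))))) =
            s59q_tl (algebraMap 𝒪 _ i2) (s59q_Fm DQ bR θ P P' (Sum.inr l) (φq (Sum.inr l))) k -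
              algebraMap 𝒪 _ ((![i2 * (αE l - βE l), 0, 0] : Fin 3 → 𝒪) k)) := by
  haveI : CharP (ResidueField 𝒪) p := s56z_charP p hp𝒪
  have hpk : ((p : ℕ) : ResidueField 𝒪) = 0 := CharP.cast_eq_zero _ p
  obtain ⟨hBc, hEc, hmemB, hmemE, hpr⟩ := s59q_enum_facts Bd Ed pr hprB hprE hBinj hEinj
  obtain ⟨r, hr, H⟩ := s59q_bridge_ord_w p hp2 hp𝒪 ρbar habs hdet hsplit hTW S Smin Bd Ed hpSmin
    hSmin hBS hES hBprime hEprime hmin hBunr hEunr hBE hcen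
  rw [hBc, hEc] at hr
  refine ⟨r, hr, fun n => ?_⟩
  obtain ⟨qv, h1, h2, h3, H4⟩ := H n
  refine ⟨qv, h1, h2, h3, fun DQ bR hbR T _ _ _ _ _ hT θ hθ => ?_⟩
  have hunr : ∀ t, ((pr t : ℕ) ≠ p) ∧ ρbar.IsUnramifiedAt (pr t) := by
    rintro (j | l)
    · exact hBunr _ (hmemB j)
    · exact hEunr _ (hmemE l)
  have hscal : ∀ j : Fin m, ∃ c : ResidueField 𝒪,
      matOfRes ρbar N.b (φq (Sum.inl j)) = c • (1 : Matrix (Fin 2) (Fin 2) (ResidueField 𝒪)) :=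
    fun j => s59q_scalar_of_central ρbar (pr (Sum.inl j)) (hcen _ (hmemB j)) N.b _
      (hφq (Sum.inl j)).mem_decompositionSubgroup
  refine s59q_inst_core DQ N bR hbR p (s56a_tangentStable_ord 𝒪 p _ Smin) hpk
    (r - (3 * Bd.card + Ed.card)) {q : Nat.Primes | (q : ℕ) ∈ Bd ∪ Ed}
    (fun {Cr} _ _ _ _ hC ψ E w Λ hE1 hE2 => H4 DQ N bR hbR hC ψ E w Λ hE1 hE2)
    pr hpr hunr σq φq hσq hφq i2 hi2 P P' hPP' hP'P hscal αE βE hαβ hαβ' hdiag hT θ hθ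
    (r + m + e) ?_
  rw [hBc, hEc]
  omega

end Final

end Fermat.Agent.Lib.S59
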