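/-
PROGRAMME (R), final wiring, node W7 (helper6, prefix `s59q_`): **the coefficient ring `𝒪`.**

`s59q_exists_coeffRing`: for every prime `p` and `n > 0` there is a complete discrete valuation ring `𝒪` (a domain of
characteristic zero, adically complete for its maximal ideal, finite residue field, `p ∈ 𝔪`), containing a primitive
`n`-th root of unity, and such that every monic quadratic polynomial with coefficients in the prime field splits over
the residue field (so: charpolys of `ρ̄(σ)`, `ρ̄` defined over `𝔽_p`, split over the residue field).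

Construction (Mathlib only): `K` = splitting field over `ℚ` of `Φ_n · ∏_{0 ≤ a, b < p} (X² - aX + b)`; `P` a maximal ideal of
`𝓞 K` over `p`; `A = (𝓞 K)_P` (a discrete valuation ring); `𝒪 = AdicCompletion (maximalIdeal A) A`.  Mathlib's
`AdicCompletion/LocalRing` gives: local, complete, same residue field; flatness of the completion shows that the
uniformizer stays regular, and a separated local ring with principal maximal ideal generated by a regular element is a
discrete valuation ring (`s59q_dvr_of_principal`).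
-/
import Mathlib

set_option autoImplicit false
set_option linter.style.haveILetI false
set_option linter.unusedSectionVars false
set_option linter.unusedSimpArgs false

noncomputable section

namespace Fermat.Agent.Lib.S59

open IsLocalRing Polynomial NumberField
open scoped TensorProduct

section DVR

variable {R : Type*} [CommRing R] [IsLocalRing R]

/-- powers of a regular element are regular. -/
theorem s59q_pow_reg (ϖ : R) (hreg : ∀ x : R, ϖ * x = 0 → x = 0) (n : ℕ) :
    ∀ x : R, ϖ ^ n * x = 0 → x = 0 := by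
  induction n with
  | zero => intro x hx; simpa using hx
  | succ n ih =>
    intro x hx
    apply ih
    apply hreg
    rw [← mul_assoc, ← pow_succ']
    exact hx

/-- in a separated local ring with principal maximal ideal, every nonzero element is a unit times a power of
the generator. -/
theorem s59q_exists_pow_mul_unit (ϖ : R) (h𝔪 : maximalIdeal R = Ideal.span {ϖ})
    [IsHausdorff (maximalIdeal R) R] (x : R) (hx : x ≠ 0) :
    ∃ (n : ℕ) (u : R), IsUnit u ∧ x = ϖ ^ n * u := by
  classical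
  have hex : ∃ n : ℕ, x ∉ maximalIdeal R ^ n := by
    by_contra hcon
    push Not at hcon
    apply hx
    apply IsHausdorff.haus' (I := maximalIdeal R) x
    intro n
    rw [SModEq.zero]
    simpa using hcon n
  have h0 : ¬ (x ∉ maximalIdeal R ^ 0) := by simp
  have hpos : 0 < Nat.find hex := by
    rcases Nat.eq_zero_or_pos (Nat.find hex) with h | h
    · exact absurd (h ▸ Nat.find_spec hex) h0
    · exact h
  obtain ⟨n, hn⟩ : ∃ n, Nat.find hex = n + 1 := ⟨Nat.find hex - 1, by omega⟩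
  have hmem : x ∈ maximalIdeal R ^ n := by
    by_contra hcon
    have := Nat.find_min' hex hcon
    omega
  have hnot : x ∉ maximalIdeal R ^ (n + 1) := hn ▸ Nat.find_spec hex
  rw [h𝔪, Ideal.span_singleton_pow, Ideal.mem_span_singleton] at hmem
  obtain ⟨u, rfl⟩ := hmem
  refine ⟨n, u, ?_, rfl⟩
  by_contra hu
  apply hnot
  have hu' : u ∈ maximalIdeal R := (mem_maximalIdeal u).2 hu
  rw [pow_succ]
  exact Ideal.mul_mem_mul (by rw [h𝔪, Ideal.span_singleton_pow]; exact Ideal.mem_span_singleton_self _) hu'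

/-- **a separated local ring whose maximal ideal is generated by a regular element is a discrete valuation
ring.** -/
theorem s59q_dvr_of_principal (ϖ : R) (h𝔪 : maximalIdeal R = Ideal.span {ϖ})
    (hreg : ∀ x : R, ϖ * x = 0 → x = 0) [IsHausdorff (maximalIdeal R) R] :
    ∃ _ : IsDomain R, IsDiscreteValuationRing R := by
  have hϖ0 : ϖ ≠ 0 := by
    intro h
    have := hreg 1 (by rw [h, zero_mul])
    exact one_ne_zero this
  have hϖm : ϖ ∈ maximalIdeal R := by rw [h𝔪]; exact Ideal.mem_span_singleton_self _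
  have hdom : IsDomain R := by
    haveI : NoZeroDivisors R := by
      refine ⟨fun {a b} hab => ?_⟩
      by_contra hcon
      push Not at hcon
      obtain ⟨n, u, hu, rfl⟩ := s59q_exists_pow_mul_unit ϖ h𝔪 a hcon.1
      obtain ⟨m, v, hv, rfl⟩ := s59q_exists_pow_mul_unit ϖ h𝔪 b hcon.2
      have h1 : ϖ ^ (n + m) * (u * v) = 0 := by rw [← hab, pow_add]; ring
      have h2 := s59q_pow_reg ϖ hreg (n + m) _ h1
      exact (hu.mul hv).ne_zero h2
    exact NoZeroDivisors.to_isDomain R
  refine ⟨hdom, ?_⟩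
  apply IsDiscreteValuationRing.ofHasUnitMulPowIrreducibleFactorization
  refine ⟨ϖ, ?_, ?_⟩
  · refine ⟨(mem_maximalIdeal ϖ).1 hϖm, fun a b hab => ?_⟩
    by_contra hcon
    push Not at hcon
    have ha : a ∈ maximalIdeal R := (mem_maximalIdeal a).2 hcon.1
    have hb : b ∈ maximalIdeal R := (mem_maximalIdeal b).2 hcon.2
    rw [h𝔪, Ideal.mem_span_singleton] at ha hb
    obtain ⟨a', rfl⟩ := ha
    obtain ⟨b', rfl⟩ := hb
    have h1 : ϖ * (1 - ϖ * a' * b') = 0 := by
      have : ϖ * (1 - ϖ * a' * b') = ϖ - ϖ * a' * (ϖ * b') := by ring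
      rw [this, ← hab, sub_self]
    have h2 := hreg _ h1
    have h3 : ϖ * (a' * b') = 1 := by
      have := sub_eq_zero.1 h2
      rw [this]; ring
    exact (mem_maximalIdeal ϖ).1 hϖm (IsUnit.of_mul_eq_one _ h3)
  · intro x hx
    obtain ⟨n, u, hu, rfl⟩ := s59q_exists_pow_mul_unit ϖ h𝔪 x hx
    exact ⟨n, hu.unit, rfl⟩

end DVR

section Completion

variable (A : Type*) [CommRing A] [IsDomain A] [IsDiscreteValuationRing A]

/-- a regular element of a noetherian ring stays regular in an adic completion (flatness). -/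
theorem s59q_compl_reg {B : Type*} [CommRing B] [IsNoetherianRing B] (I : Ideal B) (b : B)
    (hb : ∀ x : B, b * x = 0 → x = 0) (y : AdicCompletion I B)
    (hy : algebraMap B (AdicCompletion I B) b * y = 0) : y = 0 := by
  have h1 : IsSMulRegular B b := by
    intro x x' hxx
    have : b * (x - x') = 0 := by
      have h : b • x = b • x' := hxx
      rw [smul_eq_mul, smul_eq_mul] at h
      rw [mul_sub, h, sub_self]
    exact sub_eq_zero.1 (hb _ this)
  have h2 : IsSMulRegular (AdicCompletion I B ⊗[B] B) b := IsSMulRegular.lTensor (AdicCompletion I B) h1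
  have h3 : IsSMulRegular (AdicCompletion I B) b :=
    ((TensorProduct.rid B (AdicCompletion I B)).isSMulRegular_congr b).1 h2
  apply h3
  show b • y = b • (0 : AdicCompletion I B)
  rw [smul_zero, Algebra.smul_def, hy]

theorem s59q_compl_dvr :
    ∃ _ : IsDomain (AdicCompletion (maximalIdeal A) A),
      IsDiscreteValuationRing (AdicCompletion (maximalIdeal A) A) := by
  obtain ⟨ϖ, hϖ⟩ := IsDiscreteValuationRing.exists_irreducible A
  have h1 : maximalIdeal (AdicCompletion (maximalIdeal A) A) =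
      Ideal.span {algebraMap A (AdicCompletion (maximalIdeal A) A) ϖ} := by
    rw [AdicCompletion.maximalIdeal_eq_map, hϖ.maximalIdeal_eq, Ideal.map_span, Set.image_singleton]
  refine s59q_dvr_of_principal _ h1 (fun y hy => ?_)
  exact s59q_compl_reg (maximalIdeal A) ϖ (fun x hx => (mul_eq_zero.1 hx).resolve_left hϖ.ne_zero) y hy

theorem s59q_compl_inj : Function.Injective (algebraMap A (AdicCompletion (maximalIdeal A) A)) := by
  intro a b hab
  rw [AdicCompletion.algebraMap_apply, AdicCompletion.algebraMap_apply] at hab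
  exact AdicCompletion.of_injective (maximalIdeal A) A hab

theorem s59q_compl_charZero [CharZero A] : CharZero (AdicCompletion (maximalIdeal A) A) :=
  charZero_of_injective_algebraMap (s59q_compl_inj A)

theorem s59q_compl_finite [Finite (ResidueField A)] :
    Finite (ResidueField (AdicCompletion (maximalIdeal A) A)) :=
  Finite.of_surjective _ (AdicCompletion.residueField_map_bijective A).2

end Completion

/-- the statement about the coefficient ring. -/
def s59q_CoeffRingSpec (p n : ℕ) : Prop :=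
  ∃ (𝒪 : Type) (_ : CommRing 𝒪) (_ : IsDomain 𝒪) (_ : IsDiscreteValuationRing 𝒪)
    (_ : IsAdicComplete (maximalIdeal 𝒪) 𝒪) (_ : Finite (ResidueField 𝒪)) (_ : CharZero 𝒪),
    (p : 𝒪) ∈ maximalIdeal 𝒪 ∧ (∃ ζ : 𝒪, IsPrimitiveRoot ζ n) ∧
    ∀ a b : ℤ, ∃ α β : ResidueField 𝒪, α + β = (a : ResidueField 𝒪) ∧ α * β = (b : ResidueField 𝒪)

/-- from a discrete valuation ring to the coefficient ring (completion). -/
theorem s59q_coeffRing_of_dvr (p n : ℕ) (A : Type) [CommRing A] [IsDomain A] [IsDiscreteValuationRing A]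
    [CharZero A] [Finite (ResidueField A)] (hp : (p : A) ∈ maximalIdeal A) (ζ : A) (hζ : IsPrimitiveRoot ζ n)
    (hquad : ∀ a b : ℤ, ∃ α β : A, α + β - (a : A) ∈ maximalIdeal A ∧ α * β - (b : A) ∈ maximalIdeal A) :
    s59q_CoeffRingSpec p n := by
  obtain ⟨hdom, hdvr⟩ := s59q_compl_dvr A
  refine ⟨AdicCompletion (maximalIdeal A) A, inferInstance, hdom, hdvr, inferInstance,
    s59q_compl_finite A, s59q_compl_charZero A, ?_, ?_, ?_⟩
  · rw [AdicCompletion.maximalIdeal_eq_map]
    have := Ideal.mem_map_of_mem (algebraMap A (AdicCompletion (maximalIdeal A) A)) hp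
    rwa [map_natCast] at this
  · exact ⟨algebraMap A _ ζ, hζ.map_of_injective (s59q_compl_inj A)⟩
  · intro a b
    obtain ⟨α, β, h1, h2⟩ := hquad a b
    have hmem : ∀ x : A, x ∈ maximalIdeal A →
        residue (AdicCompletion (maximalIdeal A) A) (algebraMap A _ x) = 0 := by
      intro x hx
      rw [residue_eq_zero_iff, AdicCompletion.maximalIdeal_eq_map]
      exact Ideal.mem_map_of_mem _ hx
    refine ⟨residue _ (algebraMap A _ α), residue _ (algebraMap A _ β), ?_, ?_⟩
    · have := hmem _ h1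
      rw [map_sub, map_sub, map_add, map_add, map_intCast, map_intCast, sub_eq_zero] at this
      exact this
    · have := hmem _ h2
      rw [map_sub, map_sub, map_mul, map_mul, map_intCast, map_intCast, sub_eq_zero] at this
      exact this

/-- from a Dedekind domain, finite free over `ℤ`, to a discrete valuation ring (localisation). -/
theorem s59q_coeffRing_of_dedekind (p n : ℕ) (R : Type) [CommRing R] [IsDedekindDomain R] [CharZero R]
    [Module.Free ℤ R] [Module.Finite ℤ R] (P : Ideal R) [hPmax : P.IsMaximal] (hP0 : P ≠ ⊥)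
    (hp : (p : R) ∈ P) (ζ : R) (hζ : IsPrimitiveRoot ζ n)
    (hquad : ∀ a b : ℤ, ∃ α β : R, α + β - (a : R) ∈ P ∧ α * β - (b : R) ∈ P) :
    s59q_CoeffRingSpec p n := by
  haveI : IsDomain (Localization.AtPrime P) :=
    IsLocalization.isDomain_localization P.primeCompl_le_nonZeroDivisors
  haveI : IsDiscreteValuationRing (Localization.AtPrime P) :=
    IsLocalization.AtPrime.isDiscreteValuationRing_of_dedekind_domain R hP0 _
  have hinj : Function.Injective (algebraMap R (Localization.AtPrime P)) :=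
    IsLocalization.injective _ P.primeCompl_le_nonZeroDivisors
  haveI : CharZero (Localization.AtPrime P) := charZero_of_injective_algebraMap hinj
  haveI : Finite (R ⧸ P) := Ideal.finiteQuotientOfFreeOfNeBot P hP0
  haveI : Finite (ResidueField (Localization.AtPrime P)) :=
    Finite.of_equiv _ (IsLocalization.AtPrime.equivQuotMaximalIdeal P (Localization.AtPrime P)).toEquiv
  have hmem : ∀ x : R, x ∈ P → algebraMap R (Localization.AtPrime P) x ∈
      maximalIdeal (Localization.AtPrime P) := fun x hx =>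
    (IsLocalization.AtPrime.to_map_mem_maximal_iff _ P x).2 hx
  refine s59q_coeffRing_of_dvr p n (Localization.AtPrime P) ?_ (algebraMap R _ ζ)
    (hζ.map_of_injective hinj) ?_
  · have := hmem _ hp
    rwa [map_natCast] at this
  · intro a b
    obtain ⟨α, β, h1, h2⟩ := hquad a b
    refine ⟨algebraMap R _ α, algebraMap R _ β, ?_, ?_⟩
    · have := hmem _ h1
      rwa [map_sub, map_add, map_intCast] at this
    · have := hmem _ h2
      rwa [map_sub, map_mul, map_intCast] at this

section NF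

variable (p n : ℕ)

/-- the quadratic `X² - aX + b`. -/
def s59q_quadZ (ab : ℤ × ℤ) : ℤ[X] := X ^ 2 - C ab.1 * X + C ab.2

theorem s59q_quadZ_monic (ab : ℤ × ℤ) : (s59q_quadZ ab).Monic := by
  unfold s59q_quadZ
  have : (X ^ 2 - C ab.1 * X + C ab.2 : ℤ[X]) = X ^ 2 + (- C ab.1 * X + C ab.2) := by ring
  rw [this]
  apply monic_X_pow_add
  refine lt_of_le_of_lt (degree_add_le _ _) (max_lt ?_ ?_)
  · rw [← C_neg]
    exact lt_of_le_of_lt (degree_C_mul_X_le _) (by norm_num)
  · exact lt_of_le_of_lt degree_C_le (by norm_num)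

theorem s59q_quadZ_natDegree (ab : ℤ × ℤ) : (s59q_quadZ ab).natDegree = 2 := by
  unfold s59q_quadZ
  have : (X ^ 2 - C ab.1 * X + C ab.2 : ℤ[X]) = X ^ 2 + (- C ab.1 * X + C ab.2) := by ring
  rw [this, natDegree_add_eq_left_of_degree_lt, natDegree_X_pow]
  rw [degree_X_pow]
  refine lt_of_le_of_lt (degree_add_le _ _) (max_lt ?_ ?_)
  · rw [← C_neg]
    exact lt_of_le_of_lt (degree_C_mul_X_le _) (by norm_num)
  · exact lt_of_le_of_lt degree_C_le (by norm_num)

/-- the integral polynomial whose splitting field we use. -/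
def s59q_polyZ : ℤ[X] :=
  cyclotomic n ℤ * ∏ ab ∈ Finset.Ico (0 : ℤ) p ×ˢ Finset.Ico (0 : ℤ) p, s59q_quadZ ab

theorem s59q_polyZ_monic : (s59q_polyZ p n).Monic :=
  (cyclotomic.monic n ℤ).mul (monic_prod_of_monic _ _ fun ab _ => s59q_quadZ_monic ab)

/-- the number field. -/
abbrev s59q_K : Type := ((s59q_polyZ p n).map (Int.castRingHom ℚ)).SplittingField

instance s59q_K_numberField : NumberField (s59q_K p n) where
  to_charZero := charZero_of_injective_algebraMap (algebraMap ℚ (s59q_K p n)).injective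
  to_finiteDimensional := inferInstance

/-- every monic non-constant integral factor has a root in the ring of integers. -/
theorem s59q_exists_root_int (f : ℤ[X]) (hf : f.Monic) (hdeg : f.natDegree ≠ 0) (hdvd : f ∣ s59q_polyZ p n) :
    ∃ α : 𝓞 (s59q_K p n), aeval α f = 0 := by
  have hsp := Polynomial.SplittingField.splits ((s59q_polyZ p n).map (Int.castRingHom ℚ))
  have hmon : (((s59q_polyZ p n).map (Int.castRingHom ℚ)).map (algebraMap ℚ (s59q_K p n))).Monic :=
    ((s59q_polyZ_monic p n).map _).map _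
  have hfmon : ((f.map (Int.castRingHom ℚ)).map (algebraMap ℚ (s59q_K p n))).Monic := (hf.map _).map _
  have hd : (f.map (Int.castRingHom ℚ)).map (algebraMap ℚ (s59q_K p n)) ∣
      ((s59q_polyZ p n).map (Int.castRingHom ℚ)).map (algebraMap ℚ (s59q_K p n)) :=
    Polynomial.map_dvd _ (Polynomial.map_dvd _ hdvd)
  have hfs := hsp.of_dvd hmon.ne_zero hd
  have hdeg' : ((f.map (Int.castRingHom ℚ)).map (algebraMap ℚ (s59q_K p n))).degree ≠ 0 := by
    rw [degree_eq_natDegree hfmon.ne_zero, (hf.map _).natDegree_map, hf.natDegree_map]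
    exact_mod_cast hdeg
  obtain ⟨α, hα⟩ := hfs.exists_eval_eq_zero hdeg'
  have hα' : aeval α f = 0 := by
    rw [aeval_def, eval₂_eq_eval_map]
    have hcomp : (algebraMap ℚ (s59q_K p n)).comp (Int.castRingHom ℚ) = algebraMap ℤ (s59q_K p n) :=
      RingHom.ext_int _ _
    rw [Polynomial.map_map, hcomp] at hα
    exact hα
  have hint : IsIntegral ℤ α := ⟨f, hf, by rw [← aeval_def]; exact hα'⟩
  refine ⟨IsIntegralClosure.mk' (𝓞 (s59q_K p n)) α hint, ?_⟩
  apply FaithfulSMul.algebraMap_injective (𝓞 (s59q_K p n)) (s59q_K p n)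
  rw [← aeval_algebraMap_apply, IsIntegralClosure.algebraMap_mk', map_zero]
  exact hα'

/-- **the coefficient ring**: a complete discrete valuation ring of characteristic zero with finite residue field of
characteristic `p`, containing a primitive `p`-th root of unity, over whose residue field every monic quadratic
polynomial with coefficients in the prime field splits. -/
theorem s59q_exists_coeffRing [hp : Fact p.Prime] (hn : 0 < n) : s59q_CoeffRingSpec p n := by
  haveI := Int.ideal_span_isMaximal_of_prime p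
  obtain ⟨P, hPmax, hPcomap⟩ := Ideal.exists_ideal_over_maximal_of_isIntegral (S := 𝓞 (s59q_K p n))
    (Ideal.span {(p : ℤ)}) (by
      rw [(RingHom.injective_iff_ker_eq_bot _).1 (FaithfulSMul.algebraMap_injective ℤ (𝓞 (s59q_K p n)))]
      exact bot_le)
  have hpP : ((p : ℕ) : 𝓞 (s59q_K p n)) ∈ P := by
    have h1 : (p : ℤ) ∈ Ideal.comap (algebraMap ℤ (𝓞 (s59q_K p n))) P := by
      rw [hPcomap]; exact Ideal.mem_span_singleton_self _
    rw [Ideal.mem_comap] at h1
    simpa using h1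
  have hp0 : ((p : ℕ) : 𝓞 (s59q_K p n)) ≠ 0 := Nat.cast_ne_zero.2 hp.out.ne_zero
  have hP0 : P ≠ ⊥ := by
    intro h
    rw [h, Ideal.mem_bot] at hpP
    exact hp0 hpP
  -- the root of unity
  obtain ⟨ζ, hζ⟩ := s59q_exists_root_int p n (cyclotomic n ℤ) (cyclotomic.monic n ℤ)
    (by rw [natDegree_cyclotomic]; exact (Nat.totient_pos.2 hn).ne')
    (Dvd.intro _ rfl)
  have hζ' : IsPrimitiveRoot ζ n := by
    haveI : NeZero ((n : ℕ) : 𝓞 (s59q_K p n)) := ⟨Nat.cast_ne_zero.2 hn.ne'⟩
    rw [← isRoot_cyclotomic_iff, IsRoot.def, ← map_cyclotomic_int, ← eval₂_eq_eval_map]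
    rw [aeval_def, algebraMap_int_eq] at hζ
    exact hζ
  -- the quadratics
  have hpZ : (0 : ℤ) < p := by exact_mod_cast hp.out.pos
  have hmemP : ∀ a : ℤ, ((a % p : ℤ) : 𝓞 (s59q_K p n)) - (a : 𝓞 (s59q_K p n)) ∈ P := by
    intro a
    have h1 : ((a % p : ℤ) : 𝓞 (s59q_K p n)) - (a : 𝓞 (s59q_K p n)) =
        ((p : ℕ) : 𝓞 (s59q_K p n)) * (-(a / p : ℤ) : ℤ) := by
      have := Int.emod_add_mul_ediv a p
      have h2 : ((a % p + p * (a / p) : ℤ) : 𝓞 (s59q_K p n)) = (a : 𝓞 (s59q_K p n)) := by rw [this]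
      push_cast at h2 ⊢
      rw [← h2]; ring
    rw [h1]
    exact Ideal.mul_mem_right _ _ hpP
  have hquad : ∀ a b : ℤ, ∃ α β : 𝓞 (s59q_K p n), α + β - (a : 𝓞 (s59q_K p n)) ∈ P ∧
      α * β - (b : 𝓞 (s59q_K p n)) ∈ P := by
    intro a b
    have hab : (a % p, b % p) ∈ Finset.Ico (0 : ℤ) p ×ˢ Finset.Ico (0 : ℤ) p := by
      rw [Finset.mem_product, Finset.mem_Ico, Finset.mem_Ico]
      exact ⟨⟨Int.emod_nonneg _ hpZ.ne', Int.emod_lt_of_pos _ hpZ⟩,
        ⟨Int.emod_nonneg _ hpZ.ne', Int.emod_lt_of_pos _ hpZ⟩⟩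
    obtain ⟨α, hα⟩ := s59q_exists_root_int p n (s59q_quadZ (a % p, b % p)) (s59q_quadZ_monic _)
      (by rw [s59q_quadZ_natDegree]; norm_num)
      (Dvd.dvd.mul_left (Finset.dvd_prod_of_mem _ hab) _)
    have hα' : α ^ 2 - ((a % p : ℤ) : 𝓞 (s59q_K p n)) * α + ((b % p : ℤ) : 𝓞 (s59q_K p n)) = 0 := by
      have := hα
      simp only [s59q_quadZ, map_add, map_sub, map_mul, map_pow, aeval_X, aeval_C,
        algebraMap_int_eq, eq_intCast, map_intCast] at this
      exact this
    refine ⟨α, ((a % p : ℤ) : 𝓞 (s59q_K p n)) - α, ?_, ?_⟩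
    · have : α + (((a % p : ℤ) : 𝓞 (s59q_K p n)) - α) - (a : 𝓞 (s59q_K p n)) =
          ((a % p : ℤ) : 𝓞 (s59q_K p n)) - (a : 𝓞 (s59q_K p n)) := by ring
      rw [this]; exact hmemP a
    · have : α * (((a % p : ℤ) : 𝓞 (s59q_K p n)) - α) - (b : 𝓞 (s59q_K p n)) =
          ((b % p : ℤ) : 𝓞 (s59q_K p n)) - (b : 𝓞 (s59q_K p n)) := by
        linear_combination (-1 : 𝓞 (s59q_K p n)) * hα'
      rw [this]; exact hmemP b
  exact s59q_coeffRing_of_dedekind p n (𝓞 (s59q_K p n)) P hP0 hpP ζ hζ' hquad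

end NF

section Use

variable {𝒪 : Type*} [CommRing 𝒪] [IsLocalRing 𝒪] (p : ℕ) [hp : Fact p.Prime]

/-- `2` is invertible in a local ring of odd residue characteristic. -/
theorem s59q_two_inv (hp2 : p ≠ 2) (hp𝒪 : (p : 𝒪) ∈ maximalIdeal 𝒪) : ∃ i2 : 𝒪, 2 * i2 = 1 := by
  have h2 : IsUnit (2 : 𝒪) := by
    by_contra h
    have h2m : (2 : 𝒪) ∈ maximalIdeal 𝒪 := (mem_maximalIdeal _).2 h
    obtain ⟨k, hk⟩ := hp.out.odd_of_ne_two hp2
    have : (1 : 𝒪) ∈ maximalIdeal 𝒪 := by
      have h1 : (1 : 𝒪) = (p : 𝒪) - 2 * (k : 𝒪) := by rw [hk]; push_cast; ring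
      rw [h1]; exact Ideal.sub_mem _ hp𝒪 (Ideal.mul_mem_right _ _ h2m)
    exact (Ideal.ne_top_iff_one _).1 (maximalIdeal.isMaximal 𝒪).ne_top this
  obtain ⟨u, hu⟩ := h2
  exact ⟨↑u⁻¹, by rw [← hu]; exact u.mul_inv⟩

/-- the residue field has characteristic `p`. -/
theorem s59q_resField_charP (hp𝒪 : (p : 𝒪) ∈ maximalIdeal 𝒪) : CharP (ResidueField 𝒪) p := by
  rw [CharP.charP_iff_prime_eq_zero hp.out]
  have := (residue_eq_zero_iff (p : 𝒪)).2 hp𝒪
  rwa [map_natCast] at this

/-- `p`-power roots of unity are congruent to `1`. -/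
theorem s59q_root_sub_one_mem (hp𝒪 : (p : 𝒪) ∈ maximalIdeal 𝒪) (v : ℕ) (u : 𝒪) (hu : u ^ (p ^ v) = 1) :
    u - 1 ∈ maximalIdeal 𝒪 := by
  haveI := s59q_resField_charP p hp𝒪
  rw [← residue_eq_zero_iff, map_sub, map_one]
  have h : (residue 𝒪 u - 1) ^ (p ^ v) = 0 := by
    rw [sub_pow_char_pow, ← map_pow, hu, map_one, one_pow, sub_self]
  exact (pow_eq_zero_iff (pow_ne_zero _ hp.out.ne_zero)).1 h

/-- **the constants `θ = (u - u⁻¹)/2` of the type-`χ` deformation problem**: for a `p`-power root of unity `u ≠ 1` they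
lie in the maximal ideal and are non-zero. -/
theorem s59q_theta_spec [IsDomain 𝒪] (hp2 : p ≠ 2) (hp𝒪 : (p : 𝒪) ∈ maximalIdeal 𝒪) (v : ℕ) (u : 𝒪ˣ)
    (hu : u ^ (p ^ v) = 1) (hu1 : u ≠ 1) (i2 : 𝒪) (hi2 : 2 * i2 = 1) :
    ((u : 𝒪) - ((u⁻¹ : 𝒪ˣ) : 𝒪)) * i2 ∈ maximalIdeal 𝒪 ∧ ((u : 𝒪) - ((u⁻¹ : 𝒪ˣ) : 𝒪)) * i2 ≠ 0 := by
  have hu' : ((u : 𝒪)) ^ (p ^ v) = 1 := by rw [← Units.val_pow_eq_pow_val, hu, Units.val_one]
  have hui : (((u⁻¹ : 𝒪ˣ) : 𝒪)) ^ (p ^ v) = 1 := by
    rw [← Units.val_pow_eq_pow_val, inv_pow, hu, inv_one, Units.val_one]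
  constructor
  · apply Ideal.mul_mem_right
    have h1 := s59q_root_sub_one_mem p hp𝒪 v _ hu'
    have h2 := s59q_root_sub_one_mem p hp𝒪 v _ hui
    have : (u : 𝒪) - ((u⁻¹ : 𝒪ˣ) : 𝒪) = ((u : 𝒪) - 1) - (((u⁻¹ : 𝒪ˣ) : 𝒪) - 1) := by ring
    rw [this]; exact Ideal.sub_mem _ h1 h2
  · have hi20 : i2 ≠ 0 := by
      intro h; rw [h, mul_zero] at hi2; exact zero_ne_one hi2
    refine mul_ne_zero ?_ hi20
    intro h
    have h3 : u = u⁻¹ := Units.ext (sub_eq_zero.1 h)
    have h4 : u ^ 2 = 1 := by rw [pow_two]; nth_rewrite 2 [h3]; exact mul_inv_cancel u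
    have h5 : orderOf u ∣ 2 := orderOf_dvd_of_pow_eq_one h4
    have h6 : orderOf u ∣ p ^ v := orderOf_dvd_of_pow_eq_one hu
    have h7 : orderOf u ∣ Nat.gcd 2 (p ^ v) := Nat.dvd_gcd h5 h6
    have h8 : Nat.gcd 2 (p ^ v) = 1 :=
      Nat.Coprime.pow_right v ((Nat.coprime_primes Nat.prime_two hp.out).2 (Ne.symm hp2))
    rw [h8, Nat.dvd_one, orderOf_eq_one_iff] at h7
    exact hu1 h7

/-- the powers `ζ^j`, `n ∤ j`, of a primitive `n`-th root of unity are `n`-th roots of unity `≠ 1`. -/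
theorem s59q_prim_pow_spec (n : ℕ) (hn : 0 < n) (ζ : 𝒪) (hζ : IsPrimitiveRoot ζ n) (j : ℕ) (hj : ¬ n ∣ j) :
    ∃ u : 𝒪ˣ, (u : 𝒪) = ζ ^ j ∧ u ^ n = 1 ∧ u ≠ 1 := by
  have hu := hζ.isUnit hn.ne'
  refine ⟨hu.unit ^ j, by simp, ?_, ?_⟩
  · apply Units.ext
    rw [Units.val_pow_eq_pow_val, Units.val_pow_eq_pow_val, IsUnit.unit_spec, Units.val_one, ← pow_mul,
      mul_comm, pow_mul, hζ.pow_eq_one, one_pow]
  · intro h
    apply hj
    apply (hζ.pow_eq_one_iff_dvd j).1
    have := congrArg Units.val h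
    rwa [Units.val_pow_eq_pow_val, IsUnit.unit_spec, Units.val_one] at this

end Use

end Fermat.Agent.Lib.S59
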