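/-
PROGRAMME (R), final wiring, the R-SIDE PACKAGE AT THE FREY CURVE, part C (helper6, prefix `s59q_`): **every binder of
`s59q_inst_flat` (= of helper4's `s59i_FINA4`) instantiated for the residual Frey representation.**

* `s59q_exists_enum`   : enumeration of a finite set of primes by `Fin card → Nat.Primes`;
* `s59q_exists_frame`  : a constant frame `P, P'` over `𝒪` diagonalising `ρ̄(φ)` residually, when `charpoly ρ̄(φ) = (X − ᾱ)(X − β̄)`,
  `ᾱ ≠ β̄`;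
* `s59q_FreyRData P hp𝒪 N Bd B` : the choice-dependent part of the package (`e`, `Ed`, `Nd`, `pr`, `σq`, `φq`, `D`, frames, `αE`, `βE`
  and their properties, in the binder shapes of `s59i_FINA4`), plus `hcover` (every prime of `N` is in `Smin ∪ Bd ∪ Ed`, or it is
  `3` in the case (E2)) and `hE2` (the unit statement at `3` in the case (E2));
* `s59q_freyR_core`    : the package for a given set `Ed` of primes of type (E1);
* **`s59q_freyR`**     : `Nonempty (s59q_FreyRData P hp𝒪 N Bd B)` under the hypotheses of `s59q_IAcoreSs` (dichotomy (E0)/(E1)/(E2) at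
  `ℓ = 3`);
* `s59q_frey_hBS`, `s59q_frey_hBprime`, `s59q_frey_hBunr`, `s59q_frey_hcen`, `s59q_frey_hqB` : the binders of `s59i_FINA4` which only
  depend on `Bd`.  The global binders are in `QFreyRB` (`s59q_frey_habs`, `_hdet`, `_hsplit`, `_hTW`, `s59q_freySmin_p_mem`,
  `_subset`, `_hmin`).
-/
import Fermat.Agent.Lib.S59.QFreyRB
import Fermat.Agent.Lib.S59.QBrInstE
import Fermat.Agent.Lib.S59.QOExt
import Fermat.Agent.Lib.S59.LTol

set_option autoImplicit false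
set_option linter.style.haveILetI false
set_option linter.unusedSectionVars false
set_option maxHeartbeats 1600000

noncomputable section

namespace Fermat.Agent.Lib.S59

open IsLocalRing Module ExtCitation Polynomial Fermat.Agent.Lib.S56
open Fermat.Agent.Lib.S53 (matOf matOfRes matOfRes_apply NormData exists_normData)

local notation "Kb" => AlgebraicClosure ℚ
local notation "Γℚ" => (AlgebraicClosure ℚ ≃ₐ[ℚ] AlgebraicClosure ℚ)

section Enum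

/-- enumeration of a finite set of primes. -/
theorem s59q_exists_enum (Bd : Finset ℕ) (hB : ∀ q ∈ Bd, q.Prime) :
    ∃ prB : Fin Bd.card → Nat.Primes, Function.Injective (fun j => (prB j : ℕ)) ∧
      Finset.univ.image (fun j => (prB j : ℕ)) = Bd := by
  classical
  let e : Fin Bd.card ≃ ↥Bd := Bd.equivFin.symm
  refine ⟨fun j => ⟨(e j).1, hB _ (e j).2⟩, ?_, ?_⟩
  · intro j j' h
    exact e.injective (Subtype.ext h)
  · ext q
    rw [Finset.mem_image]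
    constructor
    · rintro ⟨j, -, rfl⟩
      exact (e j).2
    · intro hq
      exact ⟨e.symm ⟨q, hq⟩, Finset.mem_univ _, by simp⟩

end Enum

section Frame

variable {𝒪 : Type} [CommRing 𝒪] [IsLocalRing 𝒪]

/-- lifting an invertible matrix over the residue field. -/
theorem s59q_exists_lift_inv (U U' : Matrix (Fin 2) (Fin 2) (ResidueField 𝒪)) (hUU' : U * U' = 1)
    (hU'U : U' * U = 1) :
    ∃ Pm P'm : Matrix (Fin 2) (Fin 2) 𝒪, Pm * P'm = 1 ∧ P'm * Pm = 1 ∧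
      Pm.map (residue 𝒪) = U ∧ P'm.map (residue 𝒪) = U' := by
  have hl : ∀ i j, ∃ x : 𝒪, residue 𝒪 x = U i j := fun i j => residue_surjective _
  choose P₀ hP₀ using hl
  set Pm : Matrix (Fin 2) (Fin 2) 𝒪 := Matrix.of P₀ with hPm
  have hmap : Pm.map (residue 𝒪) = U := by
    ext i j
    rw [Matrix.map_apply, hPm, Matrix.of_apply, hP₀]
  have hdetU : IsUnit U.det := by
    have := congrArg Matrix.det hUU'
    rw [Matrix.det_mul, Matrix.det_one] at this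
    exact IsUnit.of_mul_eq_one _ this
  have hdet : IsUnit Pm.det := by
    have h1 : residue 𝒪 Pm.det = U.det := by
      rw [← hmap]
      exact (RingHom.map_det (residue 𝒪) Pm)
    have h2 : residue 𝒪 Pm.det ≠ 0 := by rw [h1]; exact hdetU.ne_zero
    exact (residue_ne_zero_iff_isUnit _).mp h2
  refine ⟨Pm, Pm⁻¹, Matrix.mul_nonsing_inv Pm hdet, Matrix.nonsing_inv_mul Pm hdet, hmap, ?_⟩
  have h3 : (Pm⁻¹).map (residue 𝒪) * U = 1 := by
    rw [← hmap, ← Matrix.map_mul, Matrix.nonsing_inv_mul Pm hdet, Matrix.map_one _ (map_zero _)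
      (map_one _)]
  calc (Pm⁻¹).map (residue 𝒪) = (Pm⁻¹).map (residue 𝒪) * (U * U') := by rw [hUU', mul_one]
    _ = U' := by rw [← mul_assoc, h3, one_mul]

/-- **a constant frame diagonalising `ρ̄(φ)`.** -/
theorem s59q_exists_frame (ρbar : ResidualGaloisRep (ResidueField 𝒪))
    (b : Basis (Fin 2) (ResidueField 𝒪) ρbar.V) (φ : Γℚ) (α β : ResidueField 𝒪) (hαβ : α ≠ β)
    (hcp : LinearMap.charpoly (ρbar.ρ φ) = (X - C α) * (X - C β)) :
    ∃ Pm P'm : Matrix (Fin 2) (Fin 2) 𝒪, Pm * P'm = 1 ∧ P'm * Pm = 1 ∧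
      P'm.map (residue 𝒪) * matOfRes ρbar b φ * Pm.map (residue 𝒪) =
        Matrix.diagonal ![α, β] := by
  set f := ρbar.ρ φ with hf
  have hrα : (LinearMap.charpoly f).IsRoot α := by
    rw [hcp]; simp [IsRoot]
  have hrβ : (LinearMap.charpoly f).IsRoot β := by
    rw [hcp]; simp [IsRoot]
  obtain ⟨v0, hv0⟩ := ((Module.End.hasEigenvalue_iff_isRoot_charpoly f α).mpr hrα).exists_hasEigenvector
  obtain ⟨v1, hv1⟩ := ((Module.End.hasEigenvalue_iff_isRoot_charpoly f β).mpr hrβ).exists_hasEigenvector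
  have hli : LinearIndependent (ResidueField 𝒪) ![v0, v1] := by
    refine Module.End.eigenvectors_linearIndependent' f ![α, β] ?_ ![v0, v1] ?_
    · intro i j hij
      fin_cases i <;> fin_cases j
      · rfl
      · exact absurd hij hαβ
      · exact absurd hij.symm hαβ
      · rfl
    · intro i
      fin_cases i
      · exact hv0
      · exact hv1
  have hcard : Fintype.card (Fin 2) = Module.finrank (ResidueField 𝒪) ρbar.V := by
    rw [ρbar.finrank_eq, Fintype.card_fin]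
  set v : Basis (Fin 2) (ResidueField 𝒪) ρbar.V := basisOfLinearIndependentOfCardEqFinrank hli hcard
    with hv
  have hv0' : v 0 = v0 := by rw [hv, coe_basisOfLinearIndependentOfCardEqFinrank]; rfl
  have hv1' : v 1 = v1 := by rw [hv, coe_basisOfLinearIndependentOfCardEqFinrank]; rfl
  have hdiag : LinearMap.toMatrix v v f = Matrix.diagonal ![α, β] := by
    ext i j
    rw [LinearMap.toMatrix_apply]
    fin_cases j
    · show v.repr (f (v 0)) i = _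
      rw [hv0', hv0.apply_eq_smul, ← hv0', map_smul, Basis.repr_self, Finsupp.smul_apply,
        Finsupp.single_apply]
      fin_cases i <;> simp
    · show v.repr (f (v 1)) i = _
      rw [hv1', hv1.apply_eq_smul, ← hv1', map_smul, Basis.repr_self, Finsupp.smul_apply,
        Finsupp.single_apply]
      fin_cases i <;> simp
  obtain ⟨Pm, P'm, h1, h2, h3, h4⟩ := s59q_exists_lift_inv (𝒪 := 𝒪) (b.toMatrix v) (v.toMatrix b)
    (Basis.toMatrix_mul_toMatrix_flip b v) (Basis.toMatrix_mul_toMatrix_flip v b)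
  refine ⟨Pm, P'm, h1, h2, ?_⟩
  rw [h3, h4, matOfRes_apply, ← hdiag]
  exact basis_toMatrix_mul_linearMap_toMatrix_mul_basis_toMatrix v b v b f

end Frame

section Package

variable (P : FreyPackage) [hpP : Fact P.p.Prime]
  {𝒪 : Type} [CommRing 𝒪] [IsLocalRing 𝒪] [Algebra ℤ_[P.p] 𝒪]
  (hp𝒪 : (P.p : 𝒪) ∈ maximalIdeal 𝒪)

/-- **the choice-dependent part of the `R`-side package at the Frey curve** (binder shapes of `s59q_inst_flat` /
`s59i_FINA4`; `m := Bd.card`, `S := B`, `Smin := s59q_freySmin P hp𝒪`). -/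
structure s59q_FreyRData (N : ℕ) (Bd B : Finset ℕ) : Type where
  e : ℕ
  Ed : Finset ℕ
  Nd : NormData (s59q_freyRhobar P hp𝒪)
  pr : Fin Bd.card ⊕ Fin e → Nat.Primes
  σq : Fin Bd.card ⊕ Fin e → Γℚ
  φq : Fin Bd.card ⊕ Fin e → Γℚ
  D : s59l_EData 𝒪 e
  Pm : Fin Bd.card ⊕ Fin e → Matrix (Fin 2) (Fin 2) 𝒪
  P'm : Fin Bd.card ⊕ Fin e → Matrix (Fin 2) (Fin 2) 𝒪
  αE : Fin e → 𝒪
  βE : Fin e → 𝒪
  he : e ≤ 1
  hES : Ed ⊆ B
  hEprime : ∀ q ∈ Ed, q.Prime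
  hEunr : ∀ q ∈ Ed, q ≠ P.p ∧ (s59q_freyRhobar P hp𝒪).IsUnramifiedAt q
  hBE : Disjoint Bd Ed
  hEdN : ∀ q ∈ Ed, q ∣ N
  hprB : Finset.univ.image (fun j : Fin Bd.card => (pr (Sum.inl j) : ℕ)) = Bd
  hprE : Finset.univ.image (fun l : Fin e => (pr (Sum.inr l) : ℕ)) = Ed
  hBinj : Function.Injective fun j : Fin Bd.card => (pr (Sum.inl j) : ℕ)
  hEinj : Function.Injective fun l : Fin e => (pr (Sum.inr l) : ℕ)
  hσq : ∀ t, s59q_IsTameGen (pr t) (primeLocalPlace (pr t)) (σq t)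
  hφq : ∀ t, (primeLocalPlace (pr t)).IsFrobeniusAt (φq t) (pr t)
  hPP' : ∀ t, Pm t * P'm t = 1
  hP'P : ∀ t, P'm t * Pm t = 1
  hαβ : ∀ l, residue 𝒪 (αE l) ≠ residue 𝒪 (βE l)
  hαβ' : ∀ l, residue 𝒪 (αE l) + residue 𝒪 (βE l) ≠ 0
  hdiag : ∀ l, (P'm (Sum.inr l)).map (residue 𝒪) *
      matOfRes (s59q_freyRhobar P hp𝒪) Nd.b (φq (Sum.inr l)) * (Pm (Sum.inr l)).map (residue 𝒪) =
    Matrix.diagonal ![residue 𝒪 (αE l), residue 𝒪 (βE l)]
  hαE : ∀ l, αE l = D.ε l * D.u l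
  hβE : ∀ l, βE l = D.ε l
  hDu : ∀ l, D.u l = (((pr (Sum.inr l) : ℕ) : ℕ) : 𝒪)
  hεE : ∀ l, D.ε l = 1 ∨ D.ε l = -1
  hcover : ∀ ℓ : ℕ, ℓ.Prime → ℓ ∣ N → ℓ ∈ s59q_freySmin P hp𝒪 ∪ (Bd ∪ Ed) ∨
    (ℓ = 3 ∧ 3 ∉ Ed ∧ (s59q_freyRhobar P hp𝒪).IsUnramifiedAt 3)
  hE2 : 3 ∣ N → 3 ∉ Ed → (s59q_freyRhobar P hp𝒪).IsUnramifiedAt 3 →
    ∃ φ : Γℚ, (primeLocalPlace ⟨3, Nat.prime_three⟩).IsFrobeniusAt φ 3 ∧
      (1 + ((3 : ℕ) : ResidueField 𝒪)) ^ 2 * LinearMap.det ((s59q_freyRhobar P hp𝒪).ρ φ) -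
        ((3 : ℕ) : ResidueField 𝒪) *
          LinearMap.trace (ResidueField 𝒪) _ ((s59q_freyRhobar P hp𝒪).ρ φ) ^ 2 ≠ 0

include hp𝒪 in
/-- a natural number prime to `p` is a unit of `𝒪`. -/
theorem s59q_isUnit_natCast_of_not_dvd (n : ℕ) (h : ¬ P.p ∣ n) : IsUnit ((n : ℕ) : 𝒪) := by
  haveI : CharP (ResidueField 𝒪) P.p := s59e_charP_residue P.p hp𝒪
  apply (residue_ne_zero_iff_isUnit _).mp
  rw [map_natCast]
  intro h0
  exact h ((CharP.cast_eq_zero_iff (ResidueField 𝒪) P.p n).mp h0)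

section Bd

variable {N : ℕ} {Bd B : Finset ℕ}
  (hBd : ∀ q ∈ Bd, q.Prime ∧ q ≠ P.p ∧ q ∣ N ∧ P.GaloisRepUnramifiedAt q ∧ P.p ∣ q - 1 ∧
    s59v_FreyFrobScalar P q)

include hBd in
theorem s59q_frey_hBS (hB1 : ∀ r : ℕ, r.Prime → r ∣ N * P.p → r ∈ B) : Bd ⊆ B := fun q hq =>
  hB1 q (hBd q hq).1 (Dvd.dvd.mul_right (hBd q hq).2.2.1 _)

include hBd in
theorem s59q_frey_hBprime : ∀ q ∈ Bd, q.Prime := fun q hq => (hBd q hq).1

include hBd in
theorem s59q_frey_hBunr : ∀ q ∈ Bd, q ≠ P.p ∧ (s59q_freyRhobar P hp𝒪).IsUnramifiedAt q :=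
  fun q hq => ⟨(hBd q hq).2.1, (s59q_frey_unram_iff P hp𝒪 q).mpr (hBd q hq).2.2.2.1⟩

include hBd in
theorem s59q_frey_hcen :
    ∀ q : Nat.Primes, (q : ℕ) ∈ Bd → s59q_CentralAt (s59q_freyRhobar P hp𝒪) q := fun q hq =>
  s59q_frey_central P hp𝒪 q (hBd q hq).2.2.2.1 (hBd q hq).2.2.2.2.2

include hBd hp𝒪 in
/-- the primes of `Bd` are `≡ 1 mod p`. -/
theorem s59q_frey_hqB_prime (q : ℕ) (hq : q ∈ Bd) : ((q : ℕ) : 𝒪) - 1 ∈ maximalIdeal 𝒪 := by
  obtain ⟨hqp, -, -, -, ⟨c, hc⟩, -⟩ := hBd q hq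
  have h1 : q = P.p * c + 1 := by
    have := hqp.one_lt
    omega
  rw [h1]
  push_cast
  rw [add_sub_cancel_right]
  exact Ideal.mul_mem_right _ _ hp𝒪

include hBd in
theorem s59q_frey_hqB (R : s59q_FreyRData P hp𝒪 N Bd B) :
    ∀ j, (((R.pr (Sum.inl j) : ℕ) : ℕ) : 𝒪) - 1 ∈ maximalIdeal 𝒪 := by
  intro j
  refine s59q_frey_hqB_prime P hp𝒪 hBd _ ?_
  have h : ((R.pr (Sum.inl j) : ℕ)) ∈
      Finset.univ.image (fun j : Fin Bd.card => (R.pr (Sum.inl j) : ℕ)) :=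
    Finset.mem_image_of_mem _ (Finset.mem_univ j)
  exact (Finset.ext_iff.mp R.hprB _).mp h

end Bd

section Core

variable (hirr : WeierstrassCurve.Affine.Point.GaloisRepIsIrreducible (K := Kb) ℚ P.freyCurve P.p)

include hirr in
/-- **the package for a given set `Ed` of primes of type (E1).** -/
theorem s59q_freyR_core (N : ℕ) (Bd B : Finset ℕ) (hBprime : ∀ q ∈ Bd, q.Prime) (Ed : Finset ℕ)
    (hcard : Ed.card ≤ 1)
    (hEd : ∀ q ∈ Ed, q.Prime ∧ q ≠ P.p ∧ q ∣ N ∧ q ∉ Bd ∧ q ∈ B ∧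
      (s59q_freyRhobar P hp𝒪).IsUnramifiedAt q ∧ ¬ P.p ∣ q - 1 ∧ ¬ P.p ∣ q + 1)
    (hE1 : ∀ q : Nat.Primes, (q : ℕ) ∈ Ed → ∃ φ : Γℚ, (primeLocalPlace q).IsFrobeniusAt φ q ∧
      ∃ ε : 𝒪, (ε = 1 ∨ ε = -1) ∧ LinearMap.charpoly ((s59q_freyRhobar P hp𝒪).ρ φ) =
        (X - C (residue 𝒪 (ε * ((q : ℕ) : 𝒪)))) * (X - C (residue 𝒪 ε)))
    (hcover : ∀ ℓ : ℕ, ℓ.Prime → ℓ ∣ N → ℓ ∈ s59q_freySmin P hp𝒪 ∪ (Bd ∪ Ed) ∨
      (ℓ = 3 ∧ 3 ∉ Ed ∧ (s59q_freyRhobar P hp𝒪).IsUnramifiedAt 3))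
    (hE2 : 3 ∣ N → 3 ∉ Ed → (s59q_freyRhobar P hp𝒪).IsUnramifiedAt 3 →
      ∃ φ : Γℚ, (primeLocalPlace ⟨3, Nat.prime_three⟩).IsFrobeniusAt φ 3 ∧
        (1 + ((3 : ℕ) : ResidueField 𝒪)) ^ 2 * LinearMap.det ((s59q_freyRhobar P hp𝒪).ρ φ) -
          ((3 : ℕ) : ResidueField 𝒪) *
            LinearMap.trace (ResidueField 𝒪) _ ((s59q_freyRhobar P hp𝒪).ρ φ) ^ 2 ≠ 0) :
    Nonempty (s59q_FreyRData P hp𝒪 N Bd B) := by
  classical
  obtain ⟨Nd⟩ := exists_normData (s59q_freyRhobar P hp𝒪) (s59q_frey_habs P hp𝒪 hirr)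
  obtain ⟨prB, hBinj, hprB⟩ := s59q_exists_enum Bd hBprime
  obtain ⟨prE, hEinj, hprE⟩ := s59q_exists_enum Ed (fun q hq => (hEd q hq).1)
  set pr : Fin Bd.card ⊕ Fin Ed.card → Nat.Primes := Sum.elim prB prE with hpr
  choose σq hσq using fun t => s59q_exists_isTameGen (pr t).2 (s56z_place_liesOver (pr t))
  obtain ⟨i2, hi2⟩ := s59q_two_inv P.p (s59q_frey_p_ne_two P) hp𝒪
  have hmemE : ∀ l, (prE l : ℕ) ∈ Ed := fun l => by
    rw [← hprE]; exact Finset.mem_image_of_mem _ (Finset.mem_univ l)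
  choose φB hφB using fun j => s56z_exists_frob (prB j)
  choose φE hφE εE hεE hcpE using fun l => hE1 (prE l) (hmemE l)
  set φq : Fin Bd.card ⊕ Fin Ed.card → Γℚ := Sum.elim φB φE with hφqdef
  have hφq : ∀ t, (primeLocalPlace (pr t)).IsFrobeniusAt (φq t) (pr t) := by
    rintro (j | l)
    · exact hφB j
    · exact hφE l
  have hεu : ∀ l, IsUnit (εE l) := by
    intro l
    rcases hεE l with h | h
    · rw [h]; exact isUnit_one
    · rw [h]; exact isUnit_one.neg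
  have hu0 : ∀ l, IsUnit (((prE l : ℕ) : ℕ) : 𝒪) := fun l =>
    s59q_isUnit_natCast_of_not_dvd P hp𝒪 _ fun hd =>
      (hEd _ (hmemE l)).2.1 ((Nat.prime_dvd_prime_iff_eq hpP.out (prE l).2).mp hd).symm
  have hu1 : ∀ l, IsUnit (1 - (((prE l : ℕ) : ℕ) : 𝒪)) := by
    intro l
    have h1 := s59q_isUnit_natCast_of_not_dvd P hp𝒪 _ (hEd _ (hmemE l)).2.2.2.2.2.2.1
    have h2 : (1 : 𝒪) - (((prE l : ℕ) : ℕ) : 𝒪) = -((((prE l : ℕ) - 1 : ℕ) : ℕ) : 𝒪) := by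
      rw [Nat.cast_sub (prE l).2.one_lt.le]; push_cast; ring
    rw [h2]; exact h1.neg
  have hu2 : ∀ l, IsUnit (1 + (((prE l : ℕ) : ℕ) : 𝒪)) := by
    intro l
    have h1 := s59q_isUnit_natCast_of_not_dvd P hp𝒪 _ (hEd _ (hmemE l)).2.2.2.2.2.2.2
    have h2 : (1 : 𝒪) + (((prE l : ℕ) : ℕ) : 𝒪) = ((((prE l : ℕ) + 1 : ℕ) : ℕ) : 𝒪) := by
      push_cast; ring
    rw [h2]; exact h1
  have hαβ : ∀ l, residue 𝒪 (εE l * (((prE l : ℕ) : ℕ) : 𝒪)) ≠ residue 𝒪 (εE l) := by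
    intro l h
    have h1 : residue 𝒪 (εE l * (1 - (((prE l : ℕ) : ℕ) : 𝒪))) = 0 := by
      rw [mul_sub, mul_one, map_sub, h, sub_self]
    exact (residue_ne_zero_iff_isUnit _).mpr ((hεu l).mul (hu1 l)) h1
  have hαβ' : ∀ l, residue 𝒪 (εE l * (((prE l : ℕ) : ℕ) : 𝒪)) + residue 𝒪 (εE l) ≠ 0 := by
    intro l h
    have h1 : residue 𝒪 (εE l * (1 + (((prE l : ℕ) : ℕ) : 𝒪))) = 0 := by
      rw [mul_add, mul_one, map_add, add_comm]; exact h
    exact (residue_ne_zero_iff_isUnit _).mpr ((hεu l).mul (hu2 l)) h1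
  have hfr : ∀ l, ∃ Pm P'm : Matrix (Fin 2) (Fin 2) 𝒪, Pm * P'm = 1 ∧ P'm * Pm = 1 ∧
      P'm.map (residue 𝒪) * matOfRes (s59q_freyRhobar P hp𝒪) Nd.b (φq (Sum.inr l)) *
        Pm.map (residue 𝒪) =
      Matrix.diagonal ![residue 𝒪 (εE l * (((prE l : ℕ) : ℕ) : 𝒪)), residue 𝒪 (εE l)] := fun l =>
    s59q_exists_frame (s59q_freyRhobar P hp𝒪) Nd.b (φq (Sum.inr l)) _ _ (hαβ l) (hcpE l)
  choose PE P'E hPE1 hPE2 hPE3 using hfr
  exact ⟨{
    e := Ed.card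
    Ed := Ed
    Nd := Nd
    pr := pr
    σq := σq
    φq := φq
    D := { u := fun l => (((prE l : ℕ) : ℕ) : 𝒪), ε := εE, i2 := i2, hi2 := hi2,
           hε := fun l => by rcases hεE l with h | h <;> rw [h] <;> ring,
           hu0 := hu0, hu1 := hu1, hu2 := hu2 }
    Pm := Sum.elim (fun _ => 1) PE
    P'm := Sum.elim (fun _ => 1) P'E
    αE := fun l => εE l * (((prE l : ℕ) : ℕ) : 𝒪)
    βE := εE
    he := hcard
    hES := fun q hq => (hEd q hq).2.2.2.2.1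
    hEprime := fun q hq => (hEd q hq).1
    hEunr := fun q hq => ⟨(hEd q hq).2.1, (hEd q hq).2.2.2.2.2.1⟩
    hBE := Finset.disjoint_right.mpr fun q hq => (hEd q hq).2.2.2.1
    hEdN := fun q hq => (hEd q hq).2.2.1
    hprB := hprB
    hprE := hprE
    hBinj := hBinj
    hEinj := hEinj
    hσq := hσq
    hφq := hφq
    hPP' := by
      rintro (j | l)
      · exact one_mul _
      · exact hPE1 l
    hP'P := by
      rintro (j | l)
      · exact one_mul _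
      · exact hPE2 l
    hαβ := hαβ
    hαβ' := hαβ'
    hdiag := hPE3
    hαE := fun l => rfl
    hβE := fun l => rfl
    hDu := fun l => rfl
    hεE := hεE
    hcover := hcover
    hE2 := hE2 }⟩

include hirr in
/-- **the `R`-side package at the Frey curve** (hypotheses of `s59q_IAcoreSs`). -/
theorem s59q_freyR (N : ℕ) (Bd : Finset ℕ)
    (hBd : ∀ q ∈ Bd, q.Prime ∧ q ≠ P.p ∧ q ∣ N ∧ P.GaloisRepUnramifiedAt q ∧ P.p ∣ q - 1 ∧
      s59v_FreyFrobScalar P q)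
    (hram : ∀ ℓ : ℕ, ℓ.Prime → 5 ≤ ℓ → ℓ ≠ P.p → ℓ ∣ N → ℓ ∉ Bd → ¬ P.GaloisRepUnramifiedAt ℓ)
    (B : Finset ℕ) (hB1 : ∀ r : ℕ, r.Prime → r ∣ N * P.p → r ∈ B) :
    Nonempty (s59q_FreyRData P hp𝒪 N Bd B) := by
  classical
  have hp5 : 5 ≤ P.p := P.hp5
  have h3p : (3 : ℕ) ≠ P.p := by omega
  have h3Bd : (3 : ℕ) ∉ Bd := by
    intro h
    obtain ⟨c, hc⟩ := (hBd 3 h).2.2.2.2.1
    have h2 : P.p ∣ 2 := ⟨c, hc⟩
    have := Nat.le_of_dvd (by norm_num) h2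
    omega
  -- the primes of `N` outside `Smin ∪ Bd` are `3`
  have hcov0 : ∀ ℓ : ℕ, ℓ.Prime → ℓ ∣ N → ℓ ∉ s59q_freySmin P hp𝒪 → ℓ ∉ Bd →
      ℓ = 3 ∧ (s59q_freyRhobar P hp𝒪).IsUnramifiedAt 3 := by
    intro ℓ hℓ hℓN hℓS hℓB
    have hℓp : ℓ ≠ P.p := fun h => hℓS (h ▸ s59q_freySmin_p_mem P hp𝒪)
    have hunr : (s59q_freyRhobar P hp𝒪).IsUnramifiedAt ℓ := by
      by_contra h
      exact hℓS ((s59q_freySmin_hmin P hp𝒪 ℓ hℓ hℓp).mpr h)
    have hlt : ¬ 5 ≤ ℓ := fun h5 =>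
      hram ℓ hℓ h5 hℓp hℓN hℓB ((s59q_frey_unram_iff P hp𝒪 ℓ).mp hunr)
    have h2 : ℓ ≠ 2 := fun h => hℓS (h ▸ s59q_freySmin_two_mem P hp𝒪)
    have h3 : ℓ = 3 := by
      have h1 := hℓ.two_le
      have h4 : ℓ ≠ 4 := fun h => by rw [h] at hℓ; exact absurd hℓ (by norm_num)
      omega
    exact ⟨h3, h3 ▸ hunr⟩
  by_cases h3 : 3 ∣ N ∧ (s59q_freyRhobar P hp𝒪).IsUnramifiedAt 3
  · obtain ⟨φ3, hφ3⟩ := s56z_exists_frob ⟨3, Nat.prime_three⟩
    rcases s59q_frey_E_dichotomy P hp𝒪 hirr 3 Nat.prime_three h3p _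
      (s56z_place_liesOver ⟨3, Nat.prime_three⟩) φ3 hφ3 with ⟨ε, hε, hcp⟩ | hne
    · -- (E1)
      refine s59q_freyR_core P hp𝒪 hirr N Bd B (fun q hq => (hBd q hq).1) {3} (by simp) ?_ ?_ ?_ ?_
      · intro q hq
        rw [Finset.mem_singleton] at hq
        subst hq
        refine ⟨Nat.prime_three, h3p, h3.1, h3Bd,
          hB1 3 Nat.prime_three (Dvd.dvd.mul_right h3.1 _), h3.2, ?_, ?_⟩
        · intro hd
          have := Nat.le_of_dvd (by norm_num) hd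
          omega
        · intro hd
          have := Nat.le_of_dvd (by norm_num) hd
          omega
      · intro q hq
        rw [Finset.mem_singleton] at hq
        obtain rfl : q = ⟨3, Nat.prime_three⟩ := Subtype.ext hq
        exact ⟨φ3, hφ3, ε, hε, hcp⟩
      · intro ℓ hℓ hℓN
        by_cases h1 : ℓ ∈ s59q_freySmin P hp𝒪
        · exact Or.inl (Finset.mem_union_left _ h1)
        by_cases h2 : ℓ ∈ Bd
        · exact Or.inl (Finset.mem_union_right _ (Finset.mem_union_left _ h2))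
        obtain ⟨h, -⟩ := hcov0 ℓ hℓ hℓN h1 h2
        left
        rw [h]
        exact Finset.mem_union_right _ (Finset.mem_union_right _ (Finset.mem_singleton_self 3))
      · intro _ h
        exact absurd (Finset.mem_singleton_self 3) h
    · -- (E2)
      refine s59q_freyR_core P hp𝒪 hirr N Bd B (fun q hq => (hBd q hq).1) ∅ (by simp) (by simp)
        (by simp) ?_ ?_
      · intro ℓ hℓ hℓN
        by_cases h1 : ℓ ∈ s59q_freySmin P hp𝒪
        · exact Or.inl (Finset.mem_union_left _ h1)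
        by_cases h2 : ℓ ∈ Bd
        · exact Or.inl (Finset.mem_union_right _ (Finset.mem_union_left _ h2))
        obtain ⟨h, -⟩ := hcov0 ℓ hℓ hℓN h1 h2
        exact Or.inr ⟨h, Finset.notMem_empty _, h3.2⟩
      · intro _ _ _
        exact ⟨φ3, hφ3, hne⟩
  · -- (E0)
    refine s59q_freyR_core P hp𝒪 hirr N Bd B (fun q hq => (hBd q hq).1) ∅ (by simp) (by simp)
      (by simp) ?_ ?_
    · intro ℓ hℓ hℓN
      by_cases h1 : ℓ ∈ s59q_freySmin P hp𝒪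
      · exact Or.inl (Finset.mem_union_left _ h1)
      by_cases h2 : ℓ ∈ Bd
      · exact Or.inl (Finset.mem_union_right _ (Finset.mem_union_left _ h2))
      obtain ⟨h, hu⟩ := hcov0 ℓ hℓ hℓN h1 h2
      exact absurd ⟨h ▸ hℓN, hu⟩ h3
    · intro hN _ hu
      exact absurd ⟨hN, hu⟩ h3

end Core

end Package

end Fermat.Agent.Lib.S59
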