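/-
PROGRAMME (R2) = S59, the W-GENERAL R-SIDE, part A (helper6, prefix `s59q_W`): **for a semistable `W/ℤ`, `p ∈ {3, 5}`,
`W[p]` irreducible, and a local `ℤ_p`-algebra `𝒪` with `p ∈ 𝔪`, the residual representation `ρ̄` of `ρ_W ⊗ 𝒪` satisfies every
global hypothesis of the `R`-side data `s59i_RData`.**  W-form of `QFreyRB.lean` (which is the special case
`W = P.freyCurveInt`); NEW names only.

Conventions: `ρ₀ = s59q_WRho W hΔ hp𝒪 = (s59b_rhoW W p hΔ).baseChangeAlong (algebraMap ℤ_p 𝒪) _`,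
`ρ̄ = s59q_WRhobar W hΔ hp𝒪 = ρ₀.residual` (both `abbrev`s: statements about them are statements about the unfolded terms).

* `s59q_W_habs`, `s59q_W_hTW` (helper5's `s59e_E6`), `s59q_W_detCyc`, `s59q_W_hdet`, `s59q_W_hsplit`;
* `s59q_W_det_frob`, `s59q_W_charpoly_frob`, `s59q_W_E_dichotomy` : at a prime `ℓ ≠ p` the Frobenius polynomial is
  `X² − tX + ℓ`, and either it is `(X − εℓ)(X − ε)`, `ε = ±1` (shape (E1)), or `(1+ℓ)²·det − ℓ·tr² ≠ 0` (shape (E2));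
* `s59q_W_unram_iff` : `ρ̄` unramified at `q` iff `s59_Unr W p q` (Graph.lean); `s59q_W_unram_good`;
* `s59q_WSmin` (`p` and the primes of `Δ_W` at which `ρ̄` is ramified), `s59q_WSmin_p_mem`, `s59q_WSmin_hmin`,
  `s59q_WSmin_subset`, `s59q_WSmin_prime`;
* `s59q_W_central` : `s59q_CentralAt ρ̄ q` at the unramified primes with scalar Frobenius (`s59_FrobScalar W p q`).
-/
import Fermat.Agent.Lib.S59.QFreyRA
import Fermat.Agent.Lib.S59.BTwFrey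
import Fermat.Agent.Lib.S59.BHres
import Fermat.Agent.Lib.S59.Graph

set_option autoImplicit false
set_option linter.style.haveILetI false
set_option linter.unusedSectionVars false

noncomputable section

namespace Fermat.Agent.Lib.S59

open Fermat.Agent.Lib.S30 Fermat.Agent.Lib.S58 Fermat.Agent.Lib.S56 Fermat.Agent.Lib.S44 ExtCitation
open WeierstrassCurve WeierstrassCurve.Affine IsLocalRing TensorProduct Polynomial

local notation "Kb" => AlgebraicClosure ℚ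
local notation "GQ" => (AlgebraicClosure ℚ ≃ₐ[ℚ] AlgebraicClosure ℚ)

variable (W : WeierstrassCurve ℤ) {p : ℕ} [hpP : Fact p.Prime] (hΔ : W.Δ ≠ 0)
  {𝒪 : Type} [CommRing 𝒪] [IsLocalRing 𝒪] [Algebra ℤ_[p] 𝒪]
  (hp𝒪 : (p : 𝒪) ∈ maximalIdeal 𝒪)

/-- the representation `ρ_W ⊗ 𝒪`. -/
abbrev s59q_WRho : GaloisRepAdic 𝒪 :=
  (s59b_rhoW W p hΔ).baseChangeAlong (algebraMap ℤ_[p] 𝒪) (s59b_isLocalHom_padic p _ hp𝒪)

/-- the residual representation of `ρ_W ⊗ 𝒪` over the residue field of `𝒪`. -/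
abbrev s59q_WRhobar : ResidualGaloisRep (ResidueField 𝒪) := (s59q_WRho W hΔ hp𝒪).residual

section Irr

variable (hp35 : p = 3 ∨ p = 5) (hss : W.IsSemistableModel) (hirr : W.ModRepIsIrreducible p)

include hp35 in
theorem s59q_W_p_ne_two : p ≠ 2 := by
  rcases hp35 with rfl | rfl <;> norm_num

include hp35 hss hirr in
/-- `ρ̄` is absolutely irreducible. -/
theorem s59q_W_habs : (s59q_WRhobar W hΔ hp𝒪).IsAbsolutelyIrreducible :=
  (s59e_E6 hp35 hΔ hirr hss (algebraMap ℤ_[p] 𝒪) (s59b_isLocalHom_padic p _ hp𝒪)).1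

include hp35 hss hirr in
/-- the Taylor–Wiles image condition for `ρ̄`. -/
theorem s59q_W_hTW :
    ∀ (K : Type) [Field K] [Algebra (ResidueField 𝒪) K] (G : Subgroup GQ), G.index = 2 →
      ∀ V : Submodule K ((s59q_WRhobar W hΔ hp𝒪).baseChange K).V,
        (∀ σ ∈ G, ∀ x ∈ V, ((s59q_WRhobar W hΔ hp𝒪).baseChange K).ρ σ x ∈ V) → V = ⊥ ∨ V = ⊤ :=
  (s59e_E6 hp35 hΔ hirr hss (algebraMap ℤ_[p] 𝒪) (s59b_isLocalHom_padic p _ hp𝒪)).2

end Irr

section Det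

variable (hp2 : p ≠ 2) (hirr : W.ModRepIsIrreducible p)

include hp2 hirr in
/-- `ρ₀` has cyclotomic determinant. -/
theorem s59q_W_detCyc : (s59q_WRho W hΔ hp𝒪).DetIsCyclotomic p :=
  s59e_bc_detCyc _ _ _ p (s59b_rhoW_detCyc hΔ hp2 hirr)

include hp2 hirr in
/-- `ρ̄` has cyclotomic determinant. -/
theorem s59q_W_hdet :
    (GaloisRepAdic.ofResidualGaloisRep (s59q_WRhobar W hΔ hp𝒪)).DetIsCyclotomic p :=
  s59q_residual_detCyc _ (s59q_W_detCyc W hΔ hp𝒪 hp2 hirr)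

include hp2 hirr in
/-- the determinant of `ρ̄` at a Frobenius element at `q ≠ p`. -/
theorem s59q_W_det_frob (q : ℕ) (hq : q.Prime) (hqp : q ≠ p) (A : ValuationSubring Kb)
    (hA : A.LiesOverPrime q) (φ : GQ) (hφ : A.IsFrobeniusAt φ q) :
    LinearMap.det ((s59q_WRhobar W hΔ hp𝒪).ρ φ) = (q : ResidueField 𝒪) :=
  s59e_det_frob (GaloisRepAdic.ofResidualGaloisRep (s59q_WRhobar W hΔ hp𝒪))
    (s59q_W_hdet W hΔ hp𝒪 hp2 hirr) hq hqp A hA φ hφ

include hp2 hirr in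
/-- the Frobenius polynomial of `ρ̄` at `q ≠ p`. -/
theorem s59q_W_charpoly_frob (q : ℕ) (hq : q.Prime) (hqp : q ≠ p) (A : ValuationSubring Kb)
    (hA : A.LiesOverPrime q) (φ : GQ) (hφ : A.IsFrobeniusAt φ q) :
    LinearMap.charpoly ((s59q_WRhobar W hΔ hp𝒪).ρ φ) =
      X ^ 2 - C (LinearMap.trace (ResidueField 𝒪) _ ((s59q_WRhobar W hΔ hp𝒪).ρ φ)) * X +
        C (q : ResidueField 𝒪) := by
  rw [s59q_charpoly_plane (s59q_WRhobar W hΔ hp𝒪).finrank_eq,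
    s59q_W_det_frob W hΔ hp𝒪 hp2 hirr q hq hqp A hA φ hφ]

include hp2 hirr in
/-- **the dichotomy at a prime `ℓ ≠ p`**: either the Frobenius polynomial is `(X − εℓ)(X − ε)` with `ε = ±1`, or
`(1+ℓ)² det − ℓ tr² ≠ 0`. -/
theorem s59q_W_E_dichotomy (ℓ : ℕ) (hℓ : ℓ.Prime) (hℓp : ℓ ≠ p) (A : ValuationSubring Kb)
    (hA : A.LiesOverPrime ℓ) (φ : GQ) (hφ : A.IsFrobeniusAt φ ℓ) :
    (∃ ε : 𝒪, (ε = 1 ∨ ε = -1) ∧ LinearMap.charpoly ((s59q_WRhobar W hΔ hp𝒪).ρ φ) =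
        (X - C (residue 𝒪 (ε * (ℓ : 𝒪)))) * (X - C (residue 𝒪 ε))) ∨
      (1 + (ℓ : ResidueField 𝒪)) ^ 2 * LinearMap.det ((s59q_WRhobar W hΔ hp𝒪).ρ φ) -
        (ℓ : ResidueField 𝒪) *
          LinearMap.trace (ResidueField 𝒪) _ ((s59q_WRhobar W hΔ hp𝒪).ρ φ) ^ 2 ≠ 0 := by
  set t := LinearMap.trace (ResidueField 𝒪) _ ((s59q_WRhobar W hΔ hp𝒪).ρ φ) with ht
  have hdet := s59q_W_det_frob W hΔ hp𝒪 hp2 hirr ℓ hℓ hℓp A hA φ hφ
  have hcp := s59q_W_charpoly_frob W hΔ hp𝒪 hp2 hirr ℓ hℓ hℓp A hA φ hφ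
  rw [← ht] at hcp
  by_cases h : (1 + (ℓ : ResidueField 𝒪)) ^ 2 * LinearMap.det ((s59q_WRhobar W hΔ hp𝒪).ρ φ) -
      (ℓ : ResidueField 𝒪) * t ^ 2 = 0
  · left
    haveI : CharP (ResidueField 𝒪) p := s59e_charP_residue p hp𝒪
    have hℓ0 : (ℓ : ResidueField 𝒪) ≠ 0 := by
      intro h0
      have := (CharP.cast_eq_zero_iff (ResidueField 𝒪) p ℓ).mp h0
      exact hℓp ((Nat.prime_dvd_prime_iff_eq hpP.out hℓ).mp this).symm
    rw [hdet] at h
    have h1 : (t - (1 + (ℓ : ResidueField 𝒪))) * (t + (1 + (ℓ : ResidueField 𝒪))) = 0 := by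
      have h2 : (ℓ : ResidueField 𝒪) * ((t - (1 + (ℓ : ResidueField 𝒪))) *
          (t + (1 + (ℓ : ResidueField 𝒪)))) = 0 := by
        linear_combination -h
      exact (mul_eq_zero.mp h2).resolve_left hℓ0
    have hr0 : residue 𝒪 ((ℓ : ℕ) : 𝒪) = ((ℓ : ℕ) : ResidueField 𝒪) := map_natCast _ _
    rcases mul_eq_zero.mp h1 with h3 | h3
    · refine ⟨1, Or.inl rfl, ?_⟩
      have h4 : t = 1 + (ℓ : ResidueField 𝒪) := sub_eq_zero.mp h3
      have r1 : residue 𝒪 (1 * ((ℓ : ℕ) : 𝒪)) = ((ℓ : ℕ) : ResidueField 𝒪) := by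
        rw [one_mul, hr0]
      have r2 : residue 𝒪 (1 : 𝒪) = 1 := map_one _
      rw [hcp, h4, r1, r2, C_add, C_1]
      ring
    · refine ⟨-1, Or.inr rfl, ?_⟩
      have h4 : t = -(1 + (ℓ : ResidueField 𝒪)) := eq_neg_of_add_eq_zero_left h3
      have r1 : residue 𝒪 (-1 * ((ℓ : ℕ) : 𝒪)) = -((ℓ : ℕ) : ResidueField 𝒪) := by
        rw [neg_one_mul, map_neg, hr0]
      have r2 : residue 𝒪 (-1 : 𝒪) = -1 := by rw [map_neg, map_one]
      rw [hcp, h4, r1, r2, C_neg, C_neg, C_neg, C_add, C_1]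
      ring
  · right
    exact h

/-- the characteristic polynomials of `ρ̄` split. -/
theorem s59q_W_hsplit (hsplit : ∀ a b : ℤ, ∃ α β : ResidueField 𝒪,
      α + β = (a : ResidueField 𝒪) ∧ α * β = (b : ResidueField 𝒪)) (σ : GQ) :
    ∃ α β : ResidueField 𝒪, LinearMap.charpoly ((s59q_WRhobar W hΔ hp𝒪).ρ σ) =
      (X - C α) * (X - C β) :=
  s59q_residual_split _ _ _ hsplit σ

end Det

section Unram

/-- **`ρ̄` is unramified at `q` iff `W[p](ℚ̄)` is** (`s59_Unr`, Graph.lean). -/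
theorem s59q_W_unram_iff (q : ℕ) :
    (s59q_WRhobar W hΔ hp𝒪).IsUnramifiedAt q ↔ s59_Unr W p q := by
  constructor
  · intro h A hA τ hτ x hx
    exact s59b_fix_of_residual_one hΔ (algebraMap ℤ_[p] 𝒪)
      (s59b_isLocalHom_padic p _ hp𝒪) τ (h A hA τ hτ) x hx
  · intro h A hA τ hτ
    exact s59q_residual_one_of_fix hΔ _ _ τ (fun Q hQ => h A hA τ hτ Q hQ)

/-- `ρ̄` is unramified at the good primes `q ≠ p` of `W`. -/
theorem s59q_W_unram_good (hp2 : p ≠ 2) (q : ℕ) (hq : q.Prime) (hqp : q ≠ p)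
    (hg : W.IsGoodPrimeFor q) : (s59q_WRhobar W hΔ hp𝒪).IsUnramifiedAt q := by
  have h0 := s59b_rhoW_unram hΔ hp2 q hq hqp hg
  have h1 := s59e_bc_unram (algebraMap ℤ_[p] 𝒪) (s59b_isLocalHom_padic p _ hp𝒪) _ q h0
  intro A hA τ hτ
  show ((s59q_WRho W hΔ hp𝒪).ρ τ).baseChange (ResidueField 𝒪) = 1
  rw [h1 A hA τ hτ]
  exact LinearMap.baseChange_one _ _

open Classical in
/-- **`Σ_min`**: `p` and the primes dividing `Δ_W` at which `ρ̄` is ramified. -/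
def s59q_WSmin : Finset ℕ :=
  insert p (W.Δ.natAbs.primeFactors.filter
    fun q => ¬ (s59q_WRhobar W hΔ hp𝒪).IsUnramifiedAt q)

theorem s59q_WSmin_p_mem : p ∈ s59q_WSmin W hΔ hp𝒪 := Finset.mem_insert_self _ _

/-- a prime at which `W` is not good divides `Δ_W`. -/
theorem s59q_W_dvd_disc_of_bad (q : ℕ) (hq : q.Prime) (hbad : ¬ W.IsGoodPrimeFor q) :
    (q : ℤ) ∣ W.Δ := by
  by_contra h
  exact hbad h

/-- **`hmin`**. -/
theorem s59q_WSmin_hmin (hp2 : p ≠ 2) (q : ℕ) (hq : q.Prime) (hqp : q ≠ p) :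
    q ∈ s59q_WSmin W hΔ hp𝒪 ↔ ¬ (s59q_WRhobar W hΔ hp𝒪).IsUnramifiedAt q := by
  classical
  unfold s59q_WSmin
  rw [Finset.mem_insert, Finset.mem_filter]
  constructor
  · rintro (h | h)
    · exact absurd h hqp
    · exact h.2
  · intro h
    refine Or.inr ⟨?_, h⟩
    rw [Nat.mem_primeFactors]
    refine ⟨hq, ?_, Int.natAbs_ne_zero.mpr hΔ⟩
    by_contra hnd
    apply h
    refine s59q_W_unram_good W hΔ hp𝒪 hp2 q hq hqp ?_
    by_contra hbad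
    exact hnd (Int.natCast_dvd.mp (s59q_W_dvd_disc_of_bad W q hq hbad))

theorem s59q_WSmin_subset (S : Finset ℕ) (hpS : p ∈ S)
    (hS : ∀ r : ℕ, r.Prime → (r : ℤ) ∣ W.Δ → r ∈ S) : s59q_WSmin W hΔ hp𝒪 ⊆ S := by
  classical
  intro q hq
  unfold s59q_WSmin at hq
  rw [Finset.mem_insert, Finset.mem_filter] at hq
  rcases hq with rfl | ⟨hq, -⟩
  · exact hpS
  · rw [Nat.mem_primeFactors] at hq
    exact hS q hq.1 (Int.natCast_dvd.mpr hq.2.1)

theorem s59q_WSmin_prime (q : ℕ) (hq : q ∈ s59q_WSmin W hΔ hp𝒪) : q.Prime := by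
  classical
  unfold s59q_WSmin at hq
  rw [Finset.mem_insert, Finset.mem_filter] at hq
  rcases hq with rfl | ⟨hq, -⟩
  · exact hpP.out
  · exact (Nat.mem_primeFactors.mp hq).1

/-- **`hcen`**: `ρ̄` is central at the unramified primes with scalar Frobenius (`s59_FrobScalar`, Graph.lean). -/
theorem s59q_W_central (q : Nat.Primes) (hunr : s59_Unr W p q)
    (hsc : s59_FrobScalar W p q) : s59q_CentralAt (s59q_WRhobar W hΔ hp𝒪) q := by
  set ρb := s59q_WRhobar W hΔ hp𝒪 with hρb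
  have hunr' : ρb.IsUnramifiedAt q := (s59q_W_unram_iff W hΔ hp𝒪 q).mpr hunr
  intro τ X
  obtain ⟨L, hL, hLρ⟩ := ρb.factorsThroughFiniteLevel
  obtain ⟨φq, hφq⟩ := Fermat.Agent.Lib.Frobenius.exists_isFrobeniusAt_of_liesOverPrime _ _ q.2
    (s56g_place_liesOver (q := q))
  obtain ⟨c, hc⟩ := hsc _ (s56g_place_liesOver (q := q)) φq hφq
  have hφsc : ρb.ρ φq = (c : ResidueField 𝒪) • 1 :=
    s59q_residual_eq_smul hΔ _ _ φq c (fun Q hQ => hc Q hQ)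
  obtain ⟨j, ι, hι, hfix⟩ := s56g_ifaceFrobGen q q.2 (primeLocalPlace q)
    (s56g_place_liesOver (q := q)) φq hφq L hL (primeLocalToGlobal q τ) (s56g_loc_mem_decomp (q := q) τ)
  have h1 : ρb.ρ ((φq ^ j * ι)⁻¹ * primeLocalToGlobal q τ) = 1 :=
    hLρ _ fun x hx => (IntermediateField.mem_fixingSubgroup_iff L _).1 hfix x hx
  have h2 : ρb.ρ (primeLocalToGlobal q τ) = ρb.ρ (φq ^ j * ι) := by
    have h3 : primeLocalToGlobal q τ = (φq ^ j * ι) * ((φq ^ j * ι)⁻¹ * primeLocalToGlobal q τ) := by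
      group
    rw [h3, map_mul, h1, mul_one]
  have h4 : ρb.ρ (φq ^ j * ι) = ((c : ResidueField 𝒪) ^ j) • 1 := by
    rw [map_mul, map_pow, hunr' _ (s56g_place_liesOver (q := q)) ι hι, mul_one, hφsc, _root_.smul_pow,
      one_pow]
  rw [h2, h4, smul_mul_assoc, one_mul, mul_smul_comm, mul_one]

end Unram

end Fermat.Agent.Lib.S59
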