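/-
PROGRAMME (R2) = S59, the W-GENERAL R-SIDE, part B (helper6, prefix `s59q_W`): **the `R`-side data `s59i_RData`
(helper4's landed structure, `LFinC1.lean`; it is generic in `ρ̄`) for `ρ̄ = (ρ_W ⊗ 𝒪) mod 𝔪`, `W/ℤ` semistable,
`p ∈ {3, 5}`, `W[p]` irreducible.**  W-form of `s59q_freyR_core` + `s59i_RData_of_freyRData`; NEW names only.

`s59q_WR` : for ANY finite set `Bd` of "scalar" primes (`q ≠ p`, `W[p]` unramified at `q`, `p ∣ q − 1`, Frobenius scalar on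
`W[p]`), ANY finite set `Ed` of primes of type (E1) (`q ≠ p`, `q ∉ Bd`, `ρ̄` unramified at `q`, `q ≢ ±1 (p)`, Frobenius
polynomial `(X − εq)(X − ε)`, `ε = ±1`), an avoid-set `B ⊇ Bd ∪ Ed ∪ {p} ∪ {bad primes of W}`, and the covering
hypothesis `hNSg` in EXACTLY the shape of the field of `s59i_RData` (the caller decides which primes of `N` are of type (E2)):
`Nonempty (s59i_RData p N ρ̄ B Bd)` with `Smin := s59q_WSmin W hΔ hp𝒪`, `m := Bd.card`, `e := Ed.card`.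
-/
import Fermat.Agent.Lib.S59.QWRA
import Fermat.Agent.Lib.S59.QFreyRC
import Fermat.Agent.Lib.S59.LFinC1

set_option autoImplicit false
set_option linter.style.haveILetI false
set_option linter.unusedSectionVars false
set_option linter.unusedVariables false
set_option maxHeartbeats 1600000

noncomputable section

namespace Fermat.Agent.Lib.S59

open IsLocalRing Module ExtCitation Polynomial Fermat.Agent.Lib.S56
open Fermat.Agent.Lib.S53 (matOf matOfRes matOfRes_apply NormData exists_normData)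

local notation "Kb" => AlgebraicClosure ℚ
local notation "Γℚ" => (AlgebraicClosure ℚ ≃ₐ[ℚ] AlgebraicClosure ℚ)

variable (W : WeierstrassCurve ℤ) {p : ℕ} [hpP : Fact p.Prime] (hΔ : W.Δ ≠ 0)
  {𝒪 : Type} [CommRing 𝒪] [IsDomain 𝒪] [IsDiscreteValuationRing 𝒪]
  [IsAdicComplete (maximalIdeal 𝒪) 𝒪] [Algebra ℤ_[p] 𝒪]
  (hp𝒪 : (p : 𝒪) ∈ maximalIdeal 𝒪)

include hp𝒪 in
/-- a natural number prime to `p` is a unit of `𝒪`. -/
theorem s59q_W_isUnit_natCast_of_not_dvd (n : ℕ) (h : ¬ p ∣ n) : IsUnit ((n : ℕ) : 𝒪) := by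
  haveI : CharP (ResidueField 𝒪) p := s59e_charP_residue p hp𝒪
  apply (residue_ne_zero_iff_isUnit _).mp
  rw [map_natCast]
  intro h0
  exact h ((CharP.cast_eq_zero_iff (ResidueField 𝒪) p n).mp h0)

include hp𝒪 in
/-- a prime `q ≡ 1 mod p` is `≡ 1` in `𝒪` modulo the maximal ideal. -/
theorem s59q_W_sub_one_mem (q : ℕ) (hq : q.Prime) (hd : p ∣ q - 1) :
    ((q : ℕ) : 𝒪) - 1 ∈ maximalIdeal 𝒪 := by
  obtain ⟨c, hc⟩ := hd
  have h1 : q = p * c + 1 := by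
    have := hq.one_lt
    omega
  rw [h1]
  push_cast
  rw [add_sub_cancel_right]
  exact Ideal.mul_mem_right _ _ hp𝒪

/-- **the `R`-side data for a semistable `W`.** -/
theorem s59q_WR (hp35 : p = 3 ∨ p = 5) (hss : W.IsSemistableModel)
    (hirr : W.ModRepIsIrreducible p)
    (hsplitℤ : ∀ a b : ℤ, ∃ α β : ResidueField 𝒪,
      α + β = (a : ResidueField 𝒪) ∧ α * β = (b : ResidueField 𝒪))
    (N : ℕ) (Bd B : Finset ℕ) (hpB : p ∈ B)
    (hB2 : ∀ r : ℕ, r.Prime → (r : ℤ) ∣ W.Δ → r ∈ B)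
    (hBd : ∀ q ∈ Bd, q.Prime ∧ q ≠ p ∧ q ∈ B ∧ s59_Unr W p q ∧ p ∣ q - 1 ∧ s59_FrobScalar W p q)
    (Ed : Finset ℕ)
    (hEd : ∀ q ∈ Ed, q.Prime ∧ q ≠ p ∧ q ∉ Bd ∧ q ∈ B ∧
      (s59q_WRhobar W hΔ hp𝒪).IsUnramifiedAt q ∧ ¬ p ∣ q - 1 ∧ ¬ p ∣ q + 1)
    (hE1 : ∀ q : Nat.Primes, (q : ℕ) ∈ Ed → ∃ φ : Γℚ, (primeLocalPlace q).IsFrobeniusAt φ q ∧
      ∃ ε : 𝒪, (ε = 1 ∨ ε = -1) ∧ LinearMap.charpoly ((s59q_WRhobar W hΔ hp𝒪).ρ φ) =
        (X - C (residue 𝒪 (ε * ((q : ℕ) : 𝒪)))) * (X - C (residue 𝒪 ε)))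
    (hNSg : ∀ q : ℕ, q.Prime → q ∣ N → q ∈ s59q_WSmin W hΔ hp𝒪 ∪ (Bd ∪ Ed) ∨
      (q ≠ p ∧ (s59q_WRhobar W hΔ hp𝒪).IsUnramifiedAt q ∧ ((q : ResidueField 𝒪) ^ 2 - 1 ≠ 0) ∧
        ∃ (A : ValuationSubring (AlgebraicClosure ℚ)) (φ : Γℚ), A.LiesOverPrime q ∧
          A.IsFrobeniusAt φ q ∧
          (1 + (q : ResidueField 𝒪)) ^ 2 * LinearMap.det ((s59q_WRhobar W hΔ hp𝒪).ρ φ) -
            (q : ResidueField 𝒪) *
              LinearMap.trace (ResidueField 𝒪) (s59q_WRhobar W hΔ hp𝒪).V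
                ((s59q_WRhobar W hΔ hp𝒪).ρ φ) ^ 2 ≠ 0)) :
    Nonempty (s59i_RData p N (s59q_WRhobar W hΔ hp𝒪) B Bd) := by
  classical
  have hp2 : p ≠ 2 := s59q_W_p_ne_two hp35
  have habs := s59q_W_habs W hΔ hp𝒪 hp35 hss hirr
  obtain ⟨Nd⟩ := exists_normData (s59q_WRhobar W hΔ hp𝒪) habs
  obtain ⟨prB, hBinj, hprB⟩ := s59q_exists_enum Bd (fun q hq => (hBd q hq).1)
  obtain ⟨prE, hEinj, hprE⟩ := s59q_exists_enum Ed (fun q hq => (hEd q hq).1)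
  set pr : Fin Bd.card ⊕ Fin Ed.card → Nat.Primes := Sum.elim prB prE with hpr
  choose σq hσq using fun t => s59q_exists_isTameGen (pr t).2 (s56z_place_liesOver (pr t))
  obtain ⟨i2, hi2⟩ := s59q_two_inv p hp2 hp𝒪
  have hmemB : ∀ j, (prB j : ℕ) ∈ Bd := fun j => by
    rw [← hprB]; exact Finset.mem_image_of_mem _ (Finset.mem_univ j)
  have hmemE : ∀ l, (prE l : ℕ) ∈ Ed := fun l => by
    rw [← hprE]; exact Finset.mem_image_of_mem _ (Finset.mem_univ l)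
  choose φB hφB using fun j => s56z_exists_frob (prB j)
  choose φE hφE εE hεE hcpE using fun l => hE1 (prE l) (hmemE l)
  set φq : Fin Bd.card ⊕ Fin Ed.card → Γℚ := Sum.elim φB φE with hφqdef
  have hφq : ∀ t, (primeLocalPlace (pr t)).IsFrobeniusAt (φq t) (pr t) := by
    rintro (j | l)
    · exact hφB j
    · exact hφE l
  have hεu : ∀ l, IsUnit (εE l) := by
    intro l
    rcases hεE l with h | h
    · rw [h]; exact isUnit_one
    · rw [h]; exact isUnit_one.neg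
  have hu0 : ∀ l, IsUnit (((prE l : ℕ) : ℕ) : 𝒪) := fun l =>
    s59q_W_isUnit_natCast_of_not_dvd hp𝒪 _ fun hd =>
      (hEd _ (hmemE l)).2.1 ((Nat.prime_dvd_prime_iff_eq hpP.out (prE l).2).mp hd).symm
  have hu1 : ∀ l, IsUnit (1 - (((prE l : ℕ) : ℕ) : 𝒪)) := by
    intro l
    have h1 := s59q_W_isUnit_natCast_of_not_dvd hp𝒪 _ (hEd _ (hmemE l)).2.2.2.2.2.1
    have h2 : (1 : 𝒪) - (((prE l : ℕ) : ℕ) : 𝒪) = -((((prE l : ℕ) - 1 : ℕ) : ℕ) : 𝒪) := by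
      rw [Nat.cast_sub (prE l).2.one_lt.le]; push_cast; ring
    rw [h2]; exact h1.neg
  have hu2 : ∀ l, IsUnit (1 + (((prE l : ℕ) : ℕ) : 𝒪)) := by
    intro l
    have h1 := s59q_W_isUnit_natCast_of_not_dvd hp𝒪 _ (hEd _ (hmemE l)).2.2.2.2.2.2
    have h2 : (1 : 𝒪) + (((prE l : ℕ) : ℕ) : 𝒪) = ((((prE l : ℕ) + 1 : ℕ) : ℕ) : 𝒪) := by
      push_cast; ring
    rw [h2]; exact h1
  have hαβ : ∀ l, residue 𝒪 (εE l * (((prE l : ℕ) : ℕ) : 𝒪)) ≠ residue 𝒪 (εE l) := by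
    intro l h
    have h1 : residue 𝒪 (εE l * (1 - (((prE l : ℕ) : ℕ) : 𝒪))) = 0 := by
      rw [mul_sub, mul_one, map_sub, h, sub_self]
    exact (residue_ne_zero_iff_isUnit _).mpr ((hεu l).mul (hu1 l)) h1
  have hαβ' : ∀ l, residue 𝒪 (εE l * (((prE l : ℕ) : ℕ) : 𝒪)) + residue 𝒪 (εE l) ≠ 0 := by
    intro l h
    have h1 : residue 𝒪 (εE l * (1 + (((prE l : ℕ) : ℕ) : 𝒪))) = 0 := by
      rw [mul_add, mul_one, map_add, add_comm]; exact h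
    exact (residue_ne_zero_iff_isUnit _).mpr ((hεu l).mul (hu2 l)) h1
  have hfr : ∀ l, ∃ Pm P'm : Matrix (Fin 2) (Fin 2) 𝒪, Pm * P'm = 1 ∧ P'm * Pm = 1 ∧
      P'm.map (residue 𝒪) * matOfRes (s59q_WRhobar W hΔ hp𝒪) Nd.b (φq (Sum.inr l)) *
        Pm.map (residue 𝒪) =
      Matrix.diagonal ![residue 𝒪 (εE l * (((prE l : ℕ) : ℕ) : 𝒪)), residue 𝒪 (εE l)] := fun l =>
    s59q_exists_frame (s59q_WRhobar W hΔ hp𝒪) Nd.b (φq (Sum.inr l)) _ _ (hαβ l) (hcpE l)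
  choose PE P'E hPE1 hPE2 hPE3 using hfr
  exact ⟨{
    Smin := s59q_WSmin W hΔ hp𝒪
    Ed := Ed
    Nd := Nd
    m := Bd.card
    e := Ed.card
    pr := pr
    σq := σq
    φq := φq
    D := { u := fun l => (((prE l : ℕ) : ℕ) : 𝒪), ε := εE, i2 := i2, hi2 := hi2,
           hε := fun l => by rcases hεE l with h | h <;> rw [h] <;> ring,
           hu0 := hu0, hu1 := hu1, hu2 := hu2 }
    P := Sum.elim (fun _ => 1) PE
    P' := Sum.elim (fun _ => 1) P'E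
    αE := fun l => εE l * (((prE l : ℕ) : ℕ) : 𝒪)
    βE := εE
    habs := habs
    hdet := s59q_W_hdet W hΔ hp𝒪 hp2 hirr
    hsplit := s59q_W_hsplit W hΔ hp𝒪 hsplitℤ
    hTW := s59q_W_hTW W hΔ hp𝒪 hp35 hss hirr
    hpSmin := s59q_WSmin_p_mem W hΔ hp𝒪
    hSmin := s59q_WSmin_subset W hΔ hp𝒪 B hpB hB2
    hBS := fun q hq => (hBd q hq).2.2.1
    hES := fun q hq => (hEd q hq).2.2.2.1
    hBprime := fun q hq => (hBd q hq).1
    hEprime := fun q hq => (hEd q hq).1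
    hmin := s59q_WSmin_hmin W hΔ hp𝒪 hp2
    hBunr := fun q hq => ⟨(hBd q hq).2.1, (s59q_W_unram_iff W hΔ hp𝒪 q).mpr (hBd q hq).2.2.2.1⟩
    hEunr := fun q hq => ⟨(hEd q hq).2.1, (hEd q hq).2.2.2.2.1⟩
    hBE := Finset.disjoint_right.mpr fun q hq => (hEd q hq).2.2.1
    hcen := fun q hq => s59q_W_central W hΔ hp𝒪 q (hBd q hq).2.2.2.1 (hBd q hq).2.2.2.2.2
    hprB := hprB
    hprE := hprE
    hBinj := hBinj
    hEinj := hEinj
    hσq := hσq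
    hφq := hφq
    hPP' := by
      rintro (j | l)
      · exact one_mul _
      · exact hPE1 l
    hP'P := by
      rintro (j | l)
      · exact one_mul _
      · exact hPE2 l
    hαβ := hαβ
    hαβ' := hαβ'
    hdiag := hPE3
    hαE := fun l => rfl
    hβE := fun l => rfl
    hDu := fun l => rfl
    hqB := fun j => s59q_W_sub_one_mem hp𝒪 _ (prB j).2 (hBd _ (hmemB j)).2.2.2.2.1
    hNSg := hNSg }⟩

end Fermat.Agent.Lib.S59
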