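/-
PROGRAMME (R2) = S59, the W-GENERAL R-SIDE, part E (helper6, prefix `s59q_W`): **helper4's contract `s59i_RPkgW`
(`LFinW1.lean`) for `p ∈ {3, 5}`**: under the hypotheses `s59i_IAHypW W p N Bd B` of [IA′-core] for a general semistable
`W`, the `R`-side data `s59i_RData p N (s59i_rhobarW W p hΔ 𝒪 hp𝒪) B Bd` exist.

The set `Ed` of (E1)-primes is computed here: the primes `ℓ ∣ N`, `ℓ ∉ Bd`, with `ρ̄` unramified at `ℓ`, `ℓ² ≢ 1 (p)` and Frobenius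
polynomial (at `primeLocalPlace ℓ`) of the shape `(X − εℓ)(X − ε)`, `ε = ±1`; the other tolerated primes are of type (E2).
(`p = 3 ∨ p = 5` is used ONLY through helper5's `s59e_E6` = absolute irreducibility + Taylor–Wiles image of `ρ̄`.)
-/
import Fermat.Agent.Lib.S59.QWRB
import Fermat.Agent.Lib.S59.LFinW1

set_option autoImplicit false
set_option linter.style.haveILetI false
set_option linter.unusedSectionVars false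
set_option linter.unusedVariables false
set_option maxHeartbeats 1600000

noncomputable section

namespace Fermat.Agent.Lib.S59

open IsLocalRing Module ExtCitation Polynomial Fermat.Agent.Lib.S56

local notation "Kb" => AlgebraicClosure ℚ
local notation "Γℚ" => (AlgebraicClosure ℚ ≃ₐ[ℚ] AlgebraicClosure ℚ)

variable (W : WeierstrassCurve ℤ) {p : ℕ} [hpP : Fact p.Prime] (hΔ : W.Δ ≠ 0)
  {𝒪 : Type} [CommRing 𝒪] [IsDomain 𝒪] [IsDiscreteValuationRing 𝒪]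
  [IsAdicComplete (maximalIdeal 𝒪) 𝒪] [Algebra ℤ_[p] 𝒪]
  (hp𝒪 : (p : 𝒪) ∈ maximalIdeal 𝒪)

/-- the (E1)-shape of the Frobenius polynomial at `ℓ` (at the standard place over `ℓ`). -/
def s59q_WE1At (ℓ : ℕ) : Prop :=
  ∃ (hℓ : ℓ.Prime) (φ : Γℚ), (primeLocalPlace ⟨ℓ, hℓ⟩).IsFrobeniusAt φ ℓ ∧
    ∃ ε : 𝒪, (ε = 1 ∨ ε = -1) ∧ LinearMap.charpoly ((s59q_WRhobar W hΔ hp𝒪).ρ φ) =
      (X - C (residue 𝒪 (ε * ((ℓ : ℕ) : 𝒪)))) * (X - C (residue 𝒪 ε))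

open Classical in
/-- **the set `Ed` of (E1)-primes of the level.** -/
def s59q_WEd (N : ℕ) (Bd : Finset ℕ) : Finset ℕ :=
  N.primeFactors.filter fun ℓ => ℓ ≠ p ∧ ℓ ∉ Bd ∧ (s59q_WRhobar W hΔ hp𝒪).IsUnramifiedAt ℓ ∧
    ¬ p ∣ ℓ ^ 2 - 1 ∧ s59q_WE1At W hΔ hp𝒪 ℓ

theorem s59q_W_not_dvd_of_sq {ℓ : ℕ} (hℓ : 1 ≤ ℓ) (h : ¬ p ∣ ℓ ^ 2 - 1) :
    ¬ p ∣ ℓ - 1 ∧ ¬ p ∣ ℓ + 1 := by
  have h1 : ℓ ^ 2 - 1 = (ℓ - 1) * (ℓ + 1) := by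
    obtain ⟨m, rfl⟩ : ∃ m, ℓ = m + 1 := ⟨ℓ - 1, by omega⟩
    have : (m + 1) ^ 2 - 1 = m * (m + 1 + 1) := by
      have h2 : (m + 1) ^ 2 = m * (m + 1 + 1) + 1 := by ring
      omega
    simpa using this
  rw [h1] at h
  exact ⟨fun hd => h (Dvd.dvd.mul_right hd _), fun hd => h (Dvd.dvd.mul_left hd _)⟩

include hp𝒪 in
theorem s59q_W_sq_sub_one_ne {ℓ : ℕ} (hℓ : 1 ≤ ℓ) (h : ¬ p ∣ ℓ ^ 2 - 1) :
    ((ℓ : ℕ) : ResidueField 𝒪) ^ 2 - 1 ≠ 0 := by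
  haveI : CharP (ResidueField 𝒪) p := s59e_charP_residue p hp𝒪
  have h1 : ((ℓ : ℕ) : ResidueField 𝒪) ^ 2 - 1 = (((ℓ ^ 2 - 1 : ℕ) : ℕ) : ResidueField 𝒪) := by
    have h2 : 1 ≤ ℓ ^ 2 := Nat.one_le_pow _ _ hℓ
    rw [Nat.cast_sub h2]
    push_cast
    ring
  rw [h1]
  intro h0
  exact h ((CharP.cast_eq_zero_iff (ResidueField 𝒪) p _).mp h0)

/-- **helper4's `s59i_RPkgW`, for `p ∈ {3, 5}`.** -/
theorem s59q_RPkgW (hp35 : p = 3 ∨ p = 5) (N : ℕ) (Bd B : Finset ℕ)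
    (H : s59i_IAHypW W p N Bd B)
    (hsplitℤ : ∀ a b : ℤ, ∃ α β : ResidueField 𝒪,
      α + β = (a : ResidueField 𝒪) ∧ α * β = (b : ResidueField 𝒪)) :
    Nonempty (s59i_RData p N (s59i_rhobarW W p hΔ 𝒪 hp𝒪) B Bd) := by
  classical
  have hp2 : p ≠ 2 := s59q_W_p_ne_two hp35
  have hpB : p ∈ B := H.hB1 p hpP.out (Dvd.intro_left N rfl)
  have hB2 : ∀ r : ℕ, r.Prime → (r : ℤ) ∣ W.Δ → r ∈ B := fun r hr hd =>
    H.hB2 r hr (fun hg => hg hd)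
  have hmemEd : ∀ ℓ, ℓ ∈ s59q_WEd W hΔ hp𝒪 N Bd ↔ (ℓ.Prime ∧ ℓ ∣ N) ∧ ℓ ≠ p ∧ ℓ ∉ Bd ∧
      (s59q_WRhobar W hΔ hp𝒪).IsUnramifiedAt ℓ ∧ ¬ p ∣ ℓ ^ 2 - 1 ∧ s59q_WE1At W hΔ hp𝒪 ℓ := by
    intro ℓ
    unfold s59q_WEd
    rw [Finset.mem_filter, Nat.mem_primeFactors]
    constructor
    · rintro ⟨⟨h1, h2, -⟩, h3⟩
      exact ⟨⟨h1, h2⟩, h3⟩
    · rintro ⟨⟨h1, h2⟩, h3⟩
      exact ⟨⟨h1, h2, H.hN0.ne'⟩, h3⟩
  refine s59q_WR W hΔ hp𝒪 hp35 H.hss H.hirr hsplitℤ N Bd B hpB hB2 ?_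
    (s59q_WEd W hΔ hp𝒪 N Bd) ?_ ?_ ?_
  · intro q hq
    obtain ⟨h1, h2, h3, h4, h5, h6⟩ := H.hBd q hq
    exact ⟨h1, h2, H.hB1 q h1 (Dvd.dvd.mul_right h3 _), h4, h5, h6⟩
  · intro q hq
    obtain ⟨⟨h1, h2⟩, h3, h4, h5, h6, -⟩ := (hmemEd q).mp hq
    obtain ⟨h7, h8⟩ := s59q_W_not_dvd_of_sq h1.one_lt.le h6
    exact ⟨h1, h3, h4, H.hB1 q h1 (Dvd.dvd.mul_right h2 _), h5, h7, h8⟩
  · intro q hq
    obtain ⟨-, -, -, -, -, hℓ, φ, hφ, ε, hε, hcp⟩ := (hmemEd q).mp hq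
    exact ⟨φ, hφ, ε, hε, hcp⟩
  · intro q hq hqN
    have hqp : q ≠ p := fun h => H.hpN (h ▸ hqN)
    by_cases hqBd : q ∈ Bd
    · exact Or.inl (Finset.mem_union_right _ (Finset.mem_union_left _ hqBd))
    by_cases hunr : (s59q_WRhobar W hΔ hp𝒪).IsUnramifiedAt q
    · rcases H.hram q hq hqp hqN hqBd with h | h
      · exact absurd ((s59q_W_unram_iff W hΔ hp𝒪 q).mp hunr) h
      · by_cases hE1 : s59q_WE1At W hΔ hp𝒪 q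
        · exact Or.inl (Finset.mem_union_right _ (Finset.mem_union_right _
            ((hmemEd q).mpr ⟨⟨hq, hqN⟩, hqp, hqBd, hunr, h, hE1⟩)))
        · right
          obtain ⟨φ, hφ⟩ := s56z_exists_frob ⟨q, hq⟩
          refine ⟨hqp, hunr, s59q_W_sq_sub_one_ne hp𝒪 hq.one_lt.le h, primeLocalPlace ⟨q, hq⟩, φ,
            s56z_place_liesOver ⟨q, hq⟩, hφ, ?_⟩
          rcases s59q_W_E_dichotomy W hΔ hp𝒪 hp2 H.hirr q hq hqp _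
            (s56z_place_liesOver ⟨q, hq⟩) φ hφ with ⟨ε, hε, hcp⟩ | hne
          · exact absurd ⟨hq, φ, hφ, ε, hε, hcp⟩ hE1
          · exact hne
    · exact Or.inl (Finset.mem_union_left _ ((s59q_WSmin_hmin W hΔ hp𝒪 hp2 q hq hqp).mpr hunr))

end Fermat.Agent.Lib.S59
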