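/-
Programme R2 (S59), p = 3 port (helper5), file 21: **THE (E2′)-PRIMES OF THE LEVEL: hypotheses, `R`-side at the reduced level `N'`, [EXIST-DQ]**.

At `(p, q) = (3, 2)` the prime `2` of the (necessarily EVEN) `T`-side level may be of type (E2′): `W` good at `2`, `3 ∤ a₂(W)` — then `ρ̄`
is unramified at `2`, `2 ≢ 1`, the Frobenius ratio is not `2^{±1}`, and EVERY lift of `ρ̄` is unramified at `2` (`s59e_aux_E2_unr`).  But
`2² ≡ 1 (mod 3)`: the prime is not "tolerated" (`s59i_IAHypW.hram`) and the field `hNSg` of `s59i_RData` cannot hold at `2`.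
Here: the `R`-side datum lives at a level `N' ∣ N` (all of whose primes are of the old types), the `T`-side at `N`, and
`hE : ∀ q prime, q ∣ N → q ∣ N' ∨ (E2′) at q`.

* `s59e3i_IAHypE`         : the hypotheses of [IA′-core] WITHOUT `hram` (fields as in `s59i_IAHypW`);
* `s59e3q_E2Alt_of_good`  : `W` good at `q ≠ p`, `p ∤ q − 1`, `p ∤ a_q² − (q+1)²` ⟹ `s59e3q_E2Alt p ρ̄_W q`;
* `s59e3q_RPkgW_E`        : the `R`-side package `s59i_RData p N' ρ̄_W B Bd` (copy of helper6's `s59q_RPkgW` at the level `N'`);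
* `s59e3e_W_existDQ_E`    : [EXIST-DQ] for `Rd : s59i_RData p N' …` from the base datum of level `N` (copy of `s59e_W_existDQ`).
-/
import Mathlib
import Fermat.Agent.Lib.S59.QWRPkg
import Fermat.Agent.Lib.S59.EWBase
import Fermat.Agent.Lib.S59.E3E2b

set_option autoImplicit false
set_option linter.style.haveILetI false
set_option linter.unusedSectionVars false
set_option linter.unusedVariables false
set_option synthInstance.maxHeartbeats 400000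
set_option maxHeartbeats 1600000

noncomputable section

namespace Fermat.Agent.Lib.S59

open IsLocalRing Module ExtCitation Polynomial Fermat.Agent.Lib.S56
open Fermat.Agent.Lib.S44

local notation "Kb" => AlgebraicClosure ℚ
local notation "Γℚ" => (AlgebraicClosure ℚ ≃ₐ[ℚ] AlgebraicClosure ℚ)

/-- **the hypotheses of [IA′-core] for `W` without the condition `hram`** on the other primes of the level. -/
structure s59e3i_IAHypE (W : WeierstrassCurve ℤ) (p N : ℕ) (Bd B : Finset ℕ) : Prop where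
  hss : W.IsSemistableModel
  hirr : W.ModRepIsIrreducible p
  hN0 : 0 < N
  hNsq : Squarefree N
  hpN : ¬ p ∣ N
  hne : Bd.Nonempty
  hBd : ∀ q ∈ Bd, q.Prime ∧ q ≠ p ∧ q ∣ N ∧ s59_Unr W p q ∧ p ∣ q - 1 ∧ s59_FrobScalar W p q
  hB1 : ∀ r : ℕ, r.Prime → r ∣ N * p → r ∈ B
  hB2 : ∀ r : ℕ, r.Prime → ¬ W.IsGoodPrimeFor r → r ∈ B
  hocc : s44i_LevelOcc N p (fun ℓ => W.apOfModel ℓ) B

theorem s59e3i_IAHypE_of {W : WeierstrassCurve ℤ} {p N : ℕ} {Bd B : Finset ℕ}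
    (H : s59i_IAHypW W p N Bd B) : s59e3i_IAHypE W p N Bd B :=
  ⟨H.hss, H.hirr, H.hN0, H.hNsq, H.hpN, H.hne, H.hBd, H.hB1, H.hB2, H.hocc⟩

section E2

variable (W : WeierstrassCurve ℤ) {p : ℕ} [hpP : Fact p.Prime] (hΔ : W.Δ ≠ 0)
  {𝒪 : Type} [CommRing 𝒪] [IsDomain 𝒪] [IsDiscreteValuationRing 𝒪]
  [IsAdicComplete (maximalIdeal 𝒪) 𝒪] [Algebra ℤ_[p] 𝒪]
  (hp𝒪 : ((p : ℕ) : 𝒪) ∈ maximalIdeal 𝒪)

/-- **a good prime `q ≠ p` of `W` with `p ∤ q − 1`, `p ∤ a_q² − (q+1)²` is of type (E2′).** -/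
theorem s59e3q_E2Alt_of_good (hp2 : p ≠ 2) (hirr : W.ModRepIsIrreducible p) (q : ℕ) (hq : q.Prime)
    (hqp : q ≠ p) (hgood : W.IsGoodPrimeFor q) (hq1 : ¬ p ∣ q - 1)
    (ha : ¬ (p : ℤ) ∣ (W.apOfModel q : ℤ) ^ 2 - ((q : ℤ) + 1) ^ 2) :
    s59e3q_E2Alt p (s59q_WRhobar W hΔ hp𝒪) q := by
  haveI : CharP (ResidueField 𝒪) p := s59e_charP_residue p hp𝒪
  have hcastℕ : ∀ n : ℕ, ((n : ℕ) : ResidueField 𝒪) = 0 → p ∣ n := fun n h =>
    (CharP.cast_eq_zero_iff (ResidueField 𝒪) p n).mp h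
  have hcastℤ : ∀ n : ℤ, ((n : ℤ) : ResidueField 𝒪) = 0 → (p : ℤ) ∣ n := fun n h =>
    (CharP.intCast_eq_zero_iff (ResidueField 𝒪) p n).mp h
  refine ⟨hqp, s59q_W_unram_good W hΔ hp𝒪 hp2 q hq hqp hgood, ?_, ?_⟩
  · intro h
    apply hq1
    apply hcastℕ
    rw [Nat.cast_sub hq.pos, Nat.cast_one]
    exact h
  · obtain ⟨A, φ, hA, hφ⟩ := Fermat.Agent.Lib.Frobenius.exists_isFrobeniusAt q hq
    refine ⟨A, φ, hA, hφ, ?_⟩
    have hdet := s59q_W_det_frob W hΔ hp𝒪 hp2 hirr q hq hqp A hA φ hφ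
    have hcp1 := s59q_W_charpoly_frob W hΔ hp𝒪 hp2 hirr q hq hqp A hA φ hφ
    have hcp2 := s59b_rhobar_charpoly_frob (𝒪 := 𝒪) (W := W) (p := p) hΔ hp2 hirr hp𝒪 q hq hqp
      hgood A hA φ hφ
    have htr : LinearMap.trace (ResidueField 𝒪) (s59q_WRhobar W hΔ hp𝒪).V
        ((s59q_WRhobar W hΔ hp𝒪).ρ φ) = residue 𝒪 ((W.apOfModel q : ℤ) : 𝒪) := by
      have h := hcp1.symm.trans hcp2
      have := congrArg (fun f : (ResidueField 𝒪)[X] => f.coeff 1) h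
      simp only [coeff_add, coeff_sub, coeff_X_pow, coeff_C_mul, coeff_X_one, coeff_C] at this
      simpa using this
    rw [hdet, htr, map_intCast]
    intro h
    have hq0 : ((q : ℕ) : ResidueField 𝒪) ≠ 0 := fun h0 =>
      hqp ((Nat.prime_dvd_prime_iff_eq hpP.out hq).mp (hcastℕ q h0)).symm
    have h1 : ((q : ℕ) : ResidueField 𝒪) *
        ((((W.apOfModel q : ℤ) ^ 2 - ((q : ℤ) + 1) ^ 2 : ℤ) : ℤ) : ResidueField 𝒪) = 0 := by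
      push_cast
      linear_combination -h
    exact ha (hcastℤ _ ((mul_eq_zero.mp h1).resolve_left hq0))

/-- **the `R`-side package at the reduced level `N' ∣ N`** (copy of helper6's `s59q_RPkgW`; the primes of `N'` outside `Bd` are
ramified or tolerated). -/
theorem s59e3q_RPkgW_E (hp35 : p = 3 ∨ p = 5) (N N' : ℕ) (Bd B : Finset ℕ)
    (H : s59e3i_IAHypE W p N Bd B) (hN'N : N' ∣ N)
    (hram : ∀ ℓ : ℕ, ℓ.Prime → ℓ ≠ p → ℓ ∣ N' → ℓ ∉ Bd → ¬ s59_Unr W p ℓ ∨ ¬ p ∣ ℓ ^ 2 - 1)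
    (hsplitℤ : ∀ a b : ℤ, ∃ α β : ResidueField 𝒪,
      α + β = (a : ResidueField 𝒪) ∧ α * β = (b : ResidueField 𝒪)) :
    Nonempty (s59i_RData p N' (s59i_rhobarW W p hΔ 𝒪 hp𝒪) B Bd) := by
  classical
  have hp2 : p ≠ 2 := s59q_W_p_ne_two hp35
  have hN'0 : N' ≠ 0 := fun h => H.hN0.ne' (Nat.eq_zero_of_zero_dvd (h ▸ hN'N))
  have hpB : p ∈ B := H.hB1 p hpP.out (Dvd.intro_left N rfl)
  have hB2 : ∀ r : ℕ, r.Prime → (r : ℤ) ∣ W.Δ → r ∈ B := fun r hr hd =>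
    H.hB2 r hr (fun hg => hg hd)
  have hmemEd : ∀ ℓ, ℓ ∈ s59q_WEd W hΔ hp𝒪 N' Bd ↔ (ℓ.Prime ∧ ℓ ∣ N') ∧ ℓ ≠ p ∧ ℓ ∉ Bd ∧
      (s59q_WRhobar W hΔ hp𝒪).IsUnramifiedAt ℓ ∧ ¬ p ∣ ℓ ^ 2 - 1 ∧ s59q_WE1At W hΔ hp𝒪 ℓ := by
    intro ℓ
    unfold s59q_WEd
    rw [Finset.mem_filter, Nat.mem_primeFactors]
    constructor
    · rintro ⟨⟨h1, h2, -⟩, h3⟩
      exact ⟨⟨h1, h2⟩, h3⟩
    · rintro ⟨⟨h1, h2⟩, h3⟩
      exact ⟨⟨h1, h2, hN'0⟩, h3⟩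
  refine s59q_WR W hΔ hp𝒪 hp35 H.hss H.hirr hsplitℤ N' Bd B hpB hB2 ?_
    (s59q_WEd W hΔ hp𝒪 N' Bd) ?_ ?_ ?_
  · intro q hq
    obtain ⟨h1, h2, h3, h4, h5, h6⟩ := H.hBd q hq
    exact ⟨h1, h2, H.hB1 q h1 (Dvd.dvd.mul_right h3 _), h4, h5, h6⟩
  · intro q hq
    obtain ⟨⟨h1, h2⟩, h3, h4, h5, h6, -⟩ := (hmemEd q).mp hq
    obtain ⟨h7, h8⟩ := s59q_W_not_dvd_of_sq h1.one_lt.le h6
    exact ⟨h1, h3, h4, H.hB1 q h1 (Dvd.dvd.mul_right (h2.trans hN'N) _), h5, h7, h8⟩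
  · intro q hq
    obtain ⟨-, -, -, -, -, hℓ, φ, hφ, ε, hε, hcp⟩ := (hmemEd q).mp hq
    exact ⟨φ, hφ, ε, hε, hcp⟩
  · intro q hq hqN
    have hqp : q ≠ p := fun h => H.hpN (h ▸ hqN.trans hN'N)
    by_cases hqBd : q ∈ Bd
    · exact Or.inl (Finset.mem_union_right _ (Finset.mem_union_left _ hqBd))
    by_cases hunr : (s59q_WRhobar W hΔ hp𝒪).IsUnramifiedAt q
    · rcases hram q hq hqp hqN hqBd with h | h
      · exact absurd ((s59q_W_unram_iff W hΔ hp𝒪 q).mp hunr) h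
      · by_cases hE1 : s59q_WE1At W hΔ hp𝒪 q
        · exact Or.inl (Finset.mem_union_right _ (Finset.mem_union_right _
            ((hmemEd q).mpr ⟨⟨hq, hqN⟩, hqp, hqBd, hunr, h, hE1⟩)))
        · right
          obtain ⟨φ, hφ⟩ := s56z_exists_frob ⟨q, hq⟩
          refine ⟨hqp, hunr, s59q_W_sq_sub_one_ne hp𝒪 hq.one_lt.le h, primeLocalPlace ⟨q, hq⟩, φ,
            s56z_place_liesOver ⟨q, hq⟩, hφ, ?_⟩
          rcases s59q_W_E_dichotomy W hΔ hp𝒪 hp2 H.hirr q hq hqp _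
            (s56z_place_liesOver ⟨q, hq⟩) φ hφ with ⟨ε, hε, hcp⟩ | hne
          · exact absurd ⟨hq, φ, hφ, ε, hε, hcp⟩ hE1
          · exact hne
    · exact Or.inl (Finset.mem_union_left _ ((s59q_WSmin_hmin W hΔ hp𝒪 hp2 q hq hqp).mpr hunr))

end E2

section ExistDQ

open CuspForm CongruenceSubgroup Fermat.Agent.Lib.S48

variable (W : WeierstrassCurve ℤ) (p : ℕ) [Fact p.Prime] (hΔ : W.Δ ≠ 0) (hp2 : p ≠ 2)
  (hirr : W.ModRepIsIrreducible p) (N : ℕ) [NeZero N]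
  (B : Finset ℕ) (hB1 : ∀ r : ℕ, r.Prime → r ∣ N * p → r ∈ B)
  (hB2 : ∀ r : ℕ, r.Prime → ¬ W.IsGoodPrimeFor r → r ∈ B)
  (hocc : s44i_LevelOcc N p (fun ℓ => W.apOfModel ℓ) B)
  (𝒪 : Type) [CommRing 𝒪] [IsDomain 𝒪] [IsDiscreteValuationRing 𝒪]
  [IsAdicComplete (maximalIdeal 𝒪) 𝒪] [Finite (ResidueField 𝒪)] [CharZero 𝒪]
  [Algebra ℤ_[p] 𝒪] (hp𝒪 : ((p : ℕ) : 𝒪) ∈ maximalIdeal 𝒪)
  (habs : (s59i_rhobarW W p hΔ 𝒪 hp𝒪).IsAbsolutelyIrreducible)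

include hp2 hirr hB1 hB2 hocc habs in
/-- **[EXIST-DQ] with (E2′)-primes in the level `N` of the base datum.** -/
theorem s59e3e_W_existDQ_E (hsq : Squarefree N) (hpN : ¬ p ∣ N) (Bd : Finset ℕ) {N' : ℕ}
    (Rd : s59i_RData p N' (s59i_rhobarW W p hΔ 𝒪 hp𝒪) B Bd)
    (hE : ∀ q : ℕ, q.Prime → q ∣ N → q ∣ N' ∨ s59e3q_E2Alt p (s59i_rhobarW W p hΔ 𝒪 hp𝒪) q)
    (r : ℕ) :
    ∀ qv : Fin r → ℕ, Nonempty (GaloisRep.DeformationRingData 𝒪 (s59i_rhobarW W p hΔ 𝒪 hp𝒪)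
      (fun _A _ _ _ ρ =>
        GaloisRep.flatCondition 𝒪 p (Rd.Smin ∪ (Bd ∪ Rd.Ed) ∪ Finset.univ.image qv) ρ ∧
          ∀ q ∈ Rd.Smin, q.Prime → q ≠ p → ρ.IsUnipotentOnInertiaAt q)) := by
  classical
  intro qv
  haveI : Fact (HasIntegralStructure N 2) := ⟨Fermat.Agent.S23.result N⟩
  have hpP : p.Prime := Fact.out
  have hpB : p ∈ B := hB1 p hpP (Dvd.intro_left N rfl)
  have hNB : ∀ q : ℕ, q.Prime → q ∣ N → q ∈ B := fun q hq hqN =>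
    hB1 q hq (Dvd.dvd.mul_right hqN p)
  obtain ⟨θ, Hd, -, -, hres⟩ := s59e_W_base_datum W p hΔ hp2 hirr N B hB1 hB2 hocc 𝒪 hp𝒪 habs
  exact s59e3q_existDQ_of_datum Rd hp2 hp𝒪 N B hpN hpB hNB N (∅ : Finset ℕ)
    (by rw [Finset.prod_empty, mul_one]) hsq hE
    (fun q hq => absurd hq (Finset.notMem_empty q)) Hd hres qv

end ExistDQ

end Fermat.Agent.Lib.S59
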