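/-
Programme R2 (S59), p = 3 port of the `T`-side (helper5, prefix `s59e3n_` = even-level copies of `s59n_`, `s59e3m_` of `s59m_`, `s59e3e_` of `s59e_`), file 1: **[A]ₙ = FIN AT EVEN LEVEL FOR AN ARBITRARY ODD
EXPONENT `n`, ELEMENTWISE FORM** — the `n`-version of helper7's even-level FIN (`s59n_FinEven`, prime exponent, eigenvector form),
with helper7's weight-4 unit `η₂` (`s59n_exists_unit_two`, NUnitTwo.lean: `δ η₂ = −4e`) in place of main's `g₀` (`δ = −12e`).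

* `s59e3n_two_eta_n` : `η₂` is an admissible `η` for the exponent `n` as soon as `n` is prime to `4 e` (copy of `s59n_five_eta_n`);
* `s59e3n_star_elt`  : (★) over `L₀`, tame case `gcd(n, 4e) = 1`, level `M * q`, `2 ∣ M` (copy of `s59n_star_elt`);
* `s59e3n_fin_elt`   : `(T_ℓ₀ − (ℓ₀ + 1)) x` is finite at `P ∣ q` for every `L`-rational `n`-torsion point `x`, `n` ODD, `2 ∣ M`
                      (copy of `s59n_fin_elt`, `n.Coprime 6` replaced by `n.Coprime 2` + `2 ∣ M`).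
-/
import Fermat.Agent.Lib.S59.NStarN
import Fermat.Agent.Lib.S59.NUnitTwo

set_option autoImplicit false
set_option linter.style.haveILetI false
set_option linter.unusedSectionVars false
set_option synthInstance.maxHeartbeats 400000

noncomputable section

namespace Fermat.Agent.Lib.S59

open ModularCurve HahnSeries AlgebraicCurve Polynomial Fermat.Agent.Lib.S18 Fermat.Agent.Lib.S28
  Fermat.Agent.Lib.S29 Fermat.Agent.Lib.S37 Fermat.Agent.Lib.FF Fermat.Agent.Lib.S34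
  Fermat.Agent.Lib.S35 Fermat.Agent.Lib.S36 Fermat.Agent.Lib.S33 Fermat.Agent.Lib.Frey Fermat.Agent.Lib.S44

local notation "Kb" => AlgebraicClosure ℚ
local notation "Γℚ" => (AlgebraicClosure ℚ ≃ₐ[ℚ] AlgebraicClosure ℚ)

section TwoEta

variable (M q : ℕ) [NeZero M] [hq : Fact q.Prime] (hqM : ¬ q ∣ M) (h5 : 5 ≤ q)
  (K₀ : Type) [Field K₀] [NumberField K₀] (φ : K₀ →+* AlgebraicClosure ℚ)
  (κ : Type) [Field κ] [CharP κ q] [PerfectField κ]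
  (G : s18g_GaussData K₀ κ) [IsDiscreteValuationRing G.A]
  (hdeg : s34m_HDeg K₀ M q) (hT : s18g_HT κ M) (hdegM : s18g_HDeg K₀ M)
  (hπ : Function.Surjective G.π)
  (e : ℕ) (ε : K₀) (he : 0 < e) (hε : ε ∈ G.A) (hεinv : ε⁻¹ ∈ G.A) (hε0 : ε ≠ 0)
  (hqe : (q : K₀) = ε * ((G.ϖ : G.A) : K₀) ^ e) (hperf : ∀ c : κ, ∃ d : κ, d ^ q = c)

/-- **helper7's even-level unit `η₂` (`s59n_exists_unit_two`) is an admissible `η` for the exponent `n`** as soon as `n` is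
prime to `4 e`. -/
theorem s59e3n_two_eta_n {n : ℕ} {g₀ : s34m_F K₀ (M * q)} (hg₀ : g₀ ≠ 0)
    (hord : ∀ Q : Place K₀ (s34m_F K₀ (M * q)), 0 ≤ Q.ord (s18g_jF (K := K₀) (M * q)) →
      Q.ord g₀ = 0)
    (hinf : g₀ * (s34m_unif G (M * q) ^ (2 * e))⁻¹ ∈ s34m_Vinf G (M * q) ∧
      (g₀ * (s34m_unif G (M * q) ^ (2 * e))⁻¹)⁻¹ ∈ s34m_Vinf G (M * q))
    (hzero : g₀ * s34m_unif G (M * q) ^ (2 * e) ∈ s34m_Vzero G φ M q hq.out hqM ∧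
      (g₀ * s34m_unif G (M * q) ^ (2 * e))⁻¹ ∈ s34m_Vzero G φ M q hq.out hqM)
    (hn1 : n.Coprime (4 * e)) :
    (∀ s, s44c_Unit (s44c_five_Ns M q hqM K₀ φ κ G s) g₀) ∧
      IsCoprime (n : ℤ) (s44c_delta
        (s33s_datum_five M q hqM h5 K₀ φ κ G hdeg hT hdegM hπ e ε he hε hεinv hε0 hqe hperf) g₀) := by
  set Z := s33s_datum_five M q hqM h5 K₀ φ κ G hdeg hT hdegM hπ e ε he hε hεinv hε0 hqe hperf
    with hZ
  have hϖ0 : s34m_unif G (M * q) ≠ 0 := s34m_unif_ne_zero G (M * q)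
  have hj0 : s18g_jF (K := K₀) (M * q) ≠ 0 := s18g_jF_ne_zero (M * q)
  refine ⟨fun s => ⟨hg₀, fun Q hQ => hord Q ?_⟩, ?_⟩
  · have hQ1 : Q ∈ s18_chart1 (L₀ := K₀) (s18g_jF (K := K₀) (M * q)) := hQ.1
    exact (ff_mem_iff_ord_nonneg Q hj0).mp hQ1
  · have hi : s44c_Val Z.Di ((2 * e : ℕ) : ℤ) g₀ := by
      refine ⟨g₀ * (s34m_unif G (M * q) ^ (2 * e))⁻¹,
        mul_ne_zero hg₀ (inv_ne_zero (pow_ne_zero _ hϖ0)), hinf.1, hinf.2, ?_⟩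
      show g₀ = s34m_unif G (M * q) ^ ((2 * e : ℕ) : ℤ) * _
      rw [zpow_natCast]
      field_simp
    have hz : s44c_Val Z.Dz (-((2 * e : ℕ) : ℤ)) g₀ := by
      refine ⟨g₀ * s34m_unif G (M * q) ^ (2 * e),
        mul_ne_zero hg₀ (pow_ne_zero _ hϖ0), hzero.1, hzero.2, ?_⟩
      show g₀ = s34m_unif G (M * q) ^ (-((2 * e : ℕ) : ℤ)) * _
      rw [zpow_neg, zpow_natCast]
      field_simp
    rw [s44c_delta_eq hi hz]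
    have h1 : IsCoprime ((n : ℕ) : ℤ) ((4 * e : ℕ) : ℤ) := Nat.isCoprime_iff_coprime.mpr hn1
    have e2 : (-((2 * e : ℕ) : ℤ) - ((2 * e : ℕ) : ℤ)) = -((4 * e : ℕ) : ℤ) := by
      push_cast
      ring
    rw [e2]
    exact h1.neg_right

end TwoEta

section TwoTauN

variable (M q : ℕ) [NeZero M] [hq : Fact q.Prime] (hqM : ¬ q ∣ M) (h5 : 5 ≤ q)
  (L₀ : IntermediateField ℚ Kb) [NumberField ↥L₀]
  (κ : Type) [Field κ] [CharP κ q] [PerfectField κ]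
  (G : s18g_GaussData ↥L₀ κ) [IsDiscreteValuationRing G.A]
  (hdeg : s34m_HDeg ↥L₀ M q) (hT : s18g_HT κ M) (hdegM : s18g_HDeg ↥L₀ M)
  (hπ : Function.Surjective G.π)
  (e : ℕ) (ε : ↥L₀) (he : 0 < e) (hε : ε ∈ G.A) (hεinv : ε⁻¹ ∈ G.A) (hε0 : ε ≠ 0)
  (hqe : (q : ↥L₀) = ε * ((G.ϖ : G.A) : ↥L₀) ^ e) (hperf : ∀ c : κ, ∃ d : κ, d ^ q = c)
  (ℓ : ℕ) [hℓ : Fact ℓ.Prime] (hℓN : ¬ ℓ ∣ M * q)
  (ζ₀ : (↥L₀)ˣ) (hζ₀ : IsPrimitiveRoot (ζ₀ : ↥L₀) ℓ)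
  (n : ℕ)

include h5 hdeg hT hdegM hπ he hε hεinv hε0 hqe hperf hℓN hζ₀ in
set_option maxHeartbeats 3200000 in
/-- **(★) over the field `L₀`, TAME CASE `gcd(n, 4 e) = 1`, EVEN LEVEL `2 ∣ M`, level `M * q`, exponent `n`, elementwise form.** -/
theorem s59e3n_star_elt (h2M : 2 ∣ M) (hn0 : n ≠ 0) (hn1 : n.Coprime (4 * e))
    {x : JZero (M * q)} {f F : s34m_F ↥L₀ (M * q)}
    (hf : s33d_IsKumGen n x (s18q_incl (M * q) L₀ f))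
    (hF : s33d_IsKumGen n (heckeOperatorBar (M * q) ⟨ℓ, hℓ.out⟩ x - ((ℓ + 1 : ℕ) : ℤ) • x)
      (s18q_incl (M * q) L₀ F))
    (hQ4 : ∀ s : s33s_Node (s34m_VV G (algebraMap ↥L₀ Kb) M q hq.out hqM) (s34m_unif G (M * q))
        (s18_chart1 (L₀ := ↥L₀) (s18g_jF (K := ↥L₀) (M * q))),
      ∃ Φ : s34m_F ↥L₀ (M * q), Φ ≠ 0 ∧
        ∀ Q ∈ s18_chart1 (L₀ := ↥L₀) (s18g_jF (K := ↥L₀) (M * q)),
          s34f_through (s34x_infRing (s34m_VV G (algebraMap ↥L₀ Kb) M q hq.out hqM))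
            (s18_chart1 (L₀ := ↥L₀) (s18g_jF (K := ↥L₀) (M * q))) s.1 Q →
          Q.ord F = ((n : ℕ) : ℤ) * Q.ord Φ) :
    ∃ (Gg h : s34m_F ↥L₀ (M * q)) (a : ℤ), Gg ≠ 0 ∧
      F = Gg ^ n * (s34m_unif G (M * q) ^ a * h) ∧
      (∀ i, h ∈ s34m_VV G (algebraMap ↥L₀ Kb) M q hq.out hqM i ∧
        h⁻¹ ∈ s34m_VV G (algebraMap ↥L₀ Kb) M q hq.out hqM i) ∧
      ∀ Q ∈ s33s_nodePlaces (s34m_VV G (algebraMap ↥L₀ Kb) M q hq.out hqM) (s34m_unif G (M * q))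
        (s18_chart1 (L₀ := ↥L₀) (s18g_jF (K := ↥L₀) (M * q))), Q.ord h = 0 := by
  haveI : NeZero q := ⟨hq.out.ne_zero⟩
  haveI : NeZero n := ⟨hn0⟩
  have hF0 : F ≠ 0 := (s59n_kum_of_gen_n' (M * q) n L₀ hF).1
  -- the modular unit
  obtain ⟨g₀, hg₀, hord, hinf, hzero⟩ :=
    s59n_exists_unit_two G (algebraMap ↥L₀ Kb) M q hq.out hqM h5 h2M e ε hε hεinv hqe
  obtain ⟨hη, hη2⟩ := s59e3n_two_eta_n M q hqM h5 ↥L₀ (algebraMap ↥L₀ Kb) κ G hdeg hT hdegM hπ e ε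
    he hε hεinv hε0 hqe hperf (n := n) hg₀ hord hinf hzero hn1
  -- the node factorisations
  have hnode : ∀ s : s33s_Node (s34m_VV G (algebraMap ↥L₀ Kb) M q hq.out hqM) (s34m_unif G (M * q))
      (s18_chart1 (L₀ := ↥L₀) (s18g_jF (K := ↥L₀) (M * q))),
      ∃ φ' E : s34m_F ↥L₀ (M * q), F = φ' ^ n * E ∧
        s44c_Unit (s44c_five_Ns M q hqM ↥L₀ (algebraMap ↥L₀ Kb) κ G s) E := by
    intro s
    obtain ⟨Φ, hΦ0, hΦ⟩ := hQ4 s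
    refine ⟨Φ, F / Φ ^ n, ?_, div_ne_zero hF0 (pow_ne_zero n hΦ0), fun Q hQ => ?_⟩
    · rw [mul_div_cancel₀ _ (pow_ne_zero _ hΦ0)]
    · rw [div_eq_mul_inv, Q.ord_mul hF0 (inv_ne_zero (pow_ne_zero n hΦ0)), Q.ord_inv,
        ← zpow_natCast, Q.ord_zpow, hΦ Q hQ.1 hQ.2]
      ring
  have hδ := s59n_delta_dvd_elt M q hqM h5 L₀ κ G hdeg hT hdegM hπ e ε he hε hεinv hε0 hqe hperf ℓ hℓN
    ζ₀ hζ₀ n hn0 hf hF
  exact s44e_glob_five M q hqM h5 ↥L₀ (algebraMap ↥L₀ Kb) κ G hdeg hT hdegM hπ n hn0 F hF0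
    (fun s => s59n_five_star_n M q hqM h5 ↥L₀ (algebraMap ↥L₀ Kb) κ G hdeg hT hdegM hπ e ε he hε hεinv
      hε0 hqe hperf hn0 hF0 hnode hδ hη hη2 s)

end TwoTauN

set_option maxHeartbeats 4000000 in
/-- **[A]ₙ, elementwise form, EVEN LEVEL (`2 ∣ M`), exponent `n` ODD**: `(T_ℓ₀ - (ℓ₀ + 1)) x` is finite at `P` for every `L`-rational `n`-torsion point `x`,
`L` finite normal unramified at `P`. -/
theorem s59e3n_fin_elt (M q : ℕ) [NeZero M] [hq : Fact q.Prime] (hqM : ¬ q ∣ M) (h5 : 5 ≤ q)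
    (h2M : 2 ∣ M)
    (n : ℕ) (hn0 : n ≠ 0) (hn2 : n.Coprime 2)
    (P : ValuationSubring Kb) (hP : P.LiesOverPrime q) (hQ : s59n_Q4At M q n hqM P)
    (L : IntermediateField ℚ Kb) [FiniteDimensional ℚ ↥L]
    (hunr : ∀ τ ∈ P.inertiaSubgroupIn ℚ, ∀ a ∈ L, τ a = a)
    (x : JZero (M * q)) (hnx : n • x = 0)
    (hfix : ∀ σ : Γℚ, (∀ a ∈ L, σ a = a) → σ • x = x)
    (ℓ₀ : Nat.Primes) (hℓ₀ : ¬ (ℓ₀ : ℕ) ∣ M * q) :
    s59n_Finite M q n hqM P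
      (heckeOperatorBar (M * q) ℓ₀ x - (((ℓ₀ : ℕ) + 1 : ℕ) : ℤ) • x) := by
  classical
  haveI : NeZero n := ⟨hn0⟩
  haveI : NeZero q := ⟨hq.out.ne_zero⟩
  have hℓq : (ℓ₀ : ℕ) ≠ q := by
    rintro h
    exact hℓ₀ (h ▸ Dvd.intro_left M rfl)
  obtain ⟨c, hc⟩ : ∃ c : ℤ, c = (((ℓ₀ : ℕ) + 1 : ℕ) : ℤ) := ⟨_, rfl⟩
  rw [← hc]
  obtain ⟨y, hy⟩ : ∃ y : JZero (M * q), y = heckeOperatorBar (M * q) ℓ₀ x - c • x := ⟨_, rfl⟩
  rw [← hy]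
  have hny : n • y = 0 := by
    rw [hy, nsmul_sub, ← map_nsmul, hnx, map_zero, smul_comm, hnx, smul_zero, sub_zero]
  have hfixy : ∀ σ : Γℚ, (∀ a ∈ L, σ a = a) → σ • y = y := by
    intro σ hσ
    rw [hy, smul_sub, ← s29g_heckeOperatorBar_smul, smul_comm, hfix σ hσ]
  -- the level `L`
  haveI hdvrL : IsDiscreteValuationRing ↥(s18q_A0 P L) := s18q_A0_dvr P L hP
  obtain ⟨ϖL, hϖL⟩ := IsDiscreteValuationRing.exists_irreducible ↥(s18q_A0 P L)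
  obtain ⟨e, ε, he, hε, hεinv, hε0, hqe⟩ := s33t_exists_e P L hq.out hP ϖL hϖL
  -- `e = 1`, hence `gcd(n, 4 e) = 1`
  have he1 : e = 1 := s59n_e_eq_one_of_fix q hq.out P hP L ϖL hϖL e ε he hε hqe hunr
  have hn12 : n.Coprime (4 * e) := by
    rw [he1, mul_one]
    exact hn2.mul_right hn2
  -- [Q-DIV]
  obtain ⟨fL, hfL⟩ := s44e_qdiv (M * q) n L x hnx hfix
  obtain ⟨FL, hFL⟩ := s44e_qdiv (M * q) n L y hny hfixy
  obtain ⟨hFL0, hdivL⟩ := s59n_kum_of_gen_n' (M * q) n L hFL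
  -- (Q4)
  obtain ⟨L₂, hL₂fd, hQ4⟩ := hQ L FL hFL0 hdivL
  -- roots of unity
  haveI : NeZero (ℓ₀ : ℕ) := ⟨ℓ₀.2.ne_zero⟩
  obtain ⟨ζℓ, hζℓ⟩ := HasEnoughRootsOfUnity.exists_primitiveRoot Kb (ℓ₀ : ℕ)
  haveI := hL₂fd
  haveI : FiniteDimensional ℚ ↥(IntermediateField.adjoin ℚ {ζℓ}) :=
    IntermediateField.adjoin.finiteDimensional ((hζℓ.isIntegral ℓ₀.2.pos).tower_top (A := ℚ))
  haveI : FiniteDimensional ℚ ↥(L ⊔ L₂) := IntermediateField.finiteDimensional_sup _ _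
  haveI : FiniteDimensional ℚ ↥(L ⊔ L₂ ⊔ IntermediateField.adjoin ℚ {ζℓ}) :=
    IntermediateField.finiteDimensional_sup _ _
  refine ⟨L ⊔ L₂ ⊔ IntermediateField.adjoin ℚ {ζℓ}, inferInstance, ?_⟩
  intro L₀ _ _ _ ϖ hϖ hLx
  have hLL : L ≤ L₀ := (le_sup_left.trans le_sup_left).trans hLx
  have hL₂L₀ : L₂ ≤ L₀ := (le_sup_right.trans le_sup_left).trans hLx
  have hζℓL₀ : ζℓ ∈ L₀ :=
    hLx (le_sup_right (a := L ⊔ L₂) (IntermediateField.subset_adjoin ℚ {ζℓ} (Set.mem_singleton ζℓ)))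
  -- the inertia field `Z`
  haveI hZfd : FiniteDimensional ℚ ↥(s44s_Z P L L₀) := s44s_Z_finiteDimensional P L L₀
  haveI hdvrZ : IsDiscreteValuationRing ↥(s18q_A0 P (s44s_Z P L L₀)) := s18q_A0_dvr P _ hP
  have hLZ : L ≤ s44s_Z P L L₀ := s44s_le_Z hLL
  have hZL₀ : s44s_Z P L L₀ ≤ L₀ := s44s_Z_le P L L₀
  -- the uniformiser, `e`, `ε` over `Z`
  have hϖLP : (((ϖL : ↥(s18q_A0 P L)) : ↥L) : Kb) ∈ P := ϖL.2
  set ϖZ : ↥(s18q_A0 P (s44s_Z P L L₀)) :=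
    ⟨⟨(((ϖL : ↥(s18q_A0 P L)) : ↥L) : Kb), hLZ (ϖL : ↥L).2⟩, hϖLP⟩ with hϖZdef
  have hϖZ : Irreducible ϖZ := s44s_irreducible_Z q hq.out P hP L L₀ hLL ϖL hϖL ϖZ rfl
  set εZ : ↥(s44s_Z P L L₀) := ⟨(ε : Kb), hLZ ε.2⟩ with hεZdef
  have hεZ : εZ ∈ s18q_A0 P (s44s_Z P L L₀) := hε
  have hεZinv : εZ⁻¹ ∈ s18q_A0 P (s44s_Z P L L₀) := by
    have h1 : ((ε⁻¹ : ↥L) : Kb) ∈ P := hεinv
    show ((εZ⁻¹ : ↥(s44s_Z P L L₀)) : Kb) ∈ P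
    simpa using h1
  have hεZ0 : εZ ≠ 0 := by
    intro h0
    apply hε0
    have := congrArg (fun z : ↥(s44s_Z P L L₀) => (z : Kb)) h0
    exact Subtype.ext this
  have hqeZ : (q : ↥(s44s_Z P L L₀)) =
      εZ * ((ϖZ : ↥(s18q_A0 P (s44s_Z P L L₀))) : ↥(s44s_Z P L L₀)) ^ e := by
    apply Subtype.ext
    have := congrArg (fun z : ↥L => (z : Kb)) hqe
    simpa using this
  -- the functions over `Z`
  set f : s34m_F ↥(s44s_Z P L L₀) (M * q) := s44e_up hLZ (M * q) fL with hfdef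
  have hf : s33d_IsKumGen n x (s18q_incl (M * q) (s44s_Z P L L₀) f) := by
    rw [hfdef, s44e_incl_up]
    exact hfL
  set F : s34m_F ↥(s44s_Z P L L₀) (M * q) := s44e_up hLZ (M * q) FL with hFdef
  have hF : s33d_IsKumGen n y (s18q_incl (M * q) (s44s_Z P L L₀) F) := by
    rw [hFdef, s44e_incl_up]
    exact hFL
  have hQ4Z := hQ4 L₀ hLL hL₂L₀ ϖZ hϖZ
  -- the roots of unity in `Z`
  have hζℓZ : ζℓ ∈ s44s_Z P L L₀ :=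
    s44e_root_mem_Z hq.out ℓ₀.2 hℓq P hP L L₀ hζℓ.pow_eq_one hζℓL₀
  obtain ⟨ζℓ₀, hζℓ₀, -⟩ := s33t_exists_zeta (s44s_Z P L L₀) ℓ₀.2 ζℓ hζℓ hζℓZ
  haveI : Fact (ℓ₀ : ℕ).Prime := ⟨ℓ₀.2⟩
  -- (G6) over `Z`
  haveI : NumberField ↥(s44s_Z P L L₀) := ⟨⟩
  haveI hchar₀ : CharP (IsLocalRing.ResidueField ↥(s18q_A0 P (s44s_Z P L L₀))) q :=
    s37rl_charP P hP _
  haveI hperf₀ : PerfectField (IsLocalRing.ResidueField ↥(s18q_A0 P (s44s_Z P L L₀))) :=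
    s37rl_perfectField P hP _
  haveI : PerfectRing (IsLocalRing.ResidueField ↥(s18q_A0 P (s44s_Z P L L₀))) q :=
    PerfectField.toPerfectRing q
  haveI : IsDiscreteValuationRing ↥(s37r_G P (s44s_Z P L L₀) ϖZ hϖZ).A :=
    (inferInstance : IsDiscreteValuationRing ↥(s18q_A0 P (s44s_Z P L L₀)))
  have hT : s18g_HT (IsLocalRing.ResidueField ↥(s18q_A0 P (s44s_Z P L L₀))) M :=
    s18t_indep_j q M hqM _
  have hdegM : s18g_HDeg ↥(s44s_Z P L L₀) M := fun n b hb hn =>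
    s18g_exists_relation M (algebraMap ↥(s44s_Z P L L₀) Kb) hn b hb
  have hdeg : s34m_HDeg ↥(s44s_Z P L L₀) M q :=
    s34r_deg_HDeg (algebraMap ↥(s44s_Z P L L₀) Kb) M q hq.out hqM
  have hπ : Function.Surjective (s37r_G P (s44s_Z P L L₀) ϖZ hϖZ).π :=
    IsLocalRing.residue_surjective
  have hperf : ∀ c : IsLocalRing.ResidueField ↥(s18q_A0 P (s44s_Z P L L₀)), ∃ d, d ^ q = c :=
    fun c => surjective_frobenius _ q c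
  have hy' : heckeOperatorBar (M * q) ⟨(ℓ₀ : ℕ), ℓ₀.2⟩ x - (((ℓ₀ : ℕ) + 1 : ℕ) : ℤ) • x = y := by
    rw [hy, hc]
    rfl
  obtain ⟨Gg, h, a, hGg, efh, hO, hN⟩ :=
    s59e3n_star_elt M q hqM h5 (s44s_Z P L L₀) (IsLocalRing.ResidueField ↥(s18q_A0 P (s44s_Z P L L₀)))
      (s37r_G P (s44s_Z P L L₀) ϖZ hϖZ) hdeg hT hdegM hπ e εZ he hεZ hεZinv hεZ0 hqeZ hperf
      (ℓ₀ : ℕ) hℓ₀ ζℓ₀ hζℓ₀ n h2M hn0 hn12 hf (hy'.symm ▸ hF) hQ4Z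
  exact s59n_finite_up_glob M q hqM n P hZL₀ ϖZ hϖZ ϖ hϖ y F Gg h a hF hGg efh hO hN

end Fermat.Agent.Lib.S59
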