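/-
Programme R2 (S59), p = 3 port of the `T`-side (helper5), file 2: **the consumer forms of [A]ₙ AT EVEN LEVEL, ODD EXPONENT** — copies of
`s59n_fin_surj`, `s59n_fin_eigen_n` (NFinGrp), `s59n_fin_elt_main`, `s59n_fin_surj_main`, `s59n_fin_eigen_main` (NQ4N),
`s59n_fin_elt_I`, `s59n_fin_surj_I`, `s59n_fin_eigen_I` (NFinI) with `n.Coprime 6` replaced by `2 ∣ M` + `n.Coprime 2`
(prefix `s59e3n_`; generated from the originals, proofs unchanged).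
-/
import Fermat.Agent.Lib.S59.E3StarN
import Fermat.Agent.Lib.S59.NFinI

set_option autoImplicit false
set_option linter.style.haveILetI false
set_option linter.unusedSectionVars false
set_option synthInstance.maxHeartbeats 400000

noncomputable section

namespace Fermat.Agent.Lib.S59

open ModularCurve HahnSeries AlgebraicCurve Fermat.Agent.Lib.S18 Fermat.Agent.Lib.S28
  Fermat.Agent.Lib.S29 Fermat.Agent.Lib.S37 Fermat.Agent.Lib.FF Fermat.Agent.Lib.S34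
  Fermat.Agent.Lib.S35 Fermat.Agent.Lib.S33 Fermat.Agent.Lib.Frey Fermat.Agent.Lib.S44

local notation "Kb" => AlgebraicClosure ℚ
local notation "Γℚ" => (AlgebraicClosure ℚ ≃ₐ[ℚ] AlgebraicClosure ℚ)

section Consumers

variable (M q : ℕ) [NeZero M] [hq : Fact q.Prime] (hqM : ¬ q ∣ M) (h5 : 5 ≤ q) (h2M : 2 ∣ M)
  (n : ℕ) (hn0 : n ≠ 0) (hn2 : n.Coprime 2)
  (P : ValuationSubring Kb) (hP : P.LiesOverPrime q) (hQ : s59n_Q4At M q n hqM P)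
  (L : IntermediateField ℚ Kb) [FiniteDimensional ℚ ↥L]
  (hunr : ∀ τ ∈ P.inertiaSubgroupIn ℚ, ∀ a ∈ L, τ a = a)
  (ℓ₀ : Nat.Primes) (hℓ₀ : ¬ (ℓ₀ : ℕ) ∣ M * q)

include h5 h2M hn0 hn2 hP hQ hunr hℓ₀ in
/-- **[A]ₙ, SURJECTIVE (non-Eisenstein) FORM**: `V` a set of `L`-rational `n`-torsion points on which `T_ℓ₀ - (ℓ₀ + 1)`
is surjective ⇒ every point of `V` is finite at `P`. -/
theorem s59e3n_fin_surj (V : Set (JZero (M * q))) (hVn : ∀ z ∈ V, n • z = 0)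
    (hVL : ∀ z ∈ V, ∀ σ : Γℚ, (∀ a ∈ L, σ a = a) → σ • z = z)
    (hsurj : ∀ z ∈ V, ∃ z' ∈ V,
      heckeOperatorBar (M * q) ℓ₀ z' - (((ℓ₀ : ℕ) + 1 : ℕ) : ℤ) • z' = z) :
    ∀ z ∈ V, s59n_Finite M q n hqM P z := by
  intro z hz
  obtain ⟨z', hz', e⟩ := hsurj z hz
  rw [← e]
  exact s59e3n_fin_elt M q hqM h5 h2M n hn0 hn2 P hP hQ L hunr z' (hVn z' hz') (hVL z' hz') ℓ₀ hℓ₀

include h5 h2M hn0 hn2 hP hQ hunr hℓ₀ in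
/-- **[A]ₙ, EIGENVECTOR FORM** (arbitrary exponent `n` prime to `6`): `T_ℓ₀ x = a₀ x` with `a₀ - (ℓ₀ + 1)` prime to `n`. -/
theorem s59e3n_fin_eigen_n (x : JZero (M * q)) (hnx : n • x = 0)
    (hfix : ∀ σ : Γℚ, (∀ a ∈ L, σ a = a) → σ • x = x) (a₀ : ℤ)
    (hTx : heckeOperatorBar (M * q) ℓ₀ x = a₀ • x)
    (ha₀ : IsCoprime (a₀ - (((ℓ₀ : ℕ) + 1 : ℕ) : ℤ)) (n : ℤ)) :
    s59n_Finite M q n hqM P x := by
  have h1 := s59e3n_fin_elt M q hqM h5 h2M n hn0 hn2 P hP hQ L hunr x hnx hfix ℓ₀ hℓ₀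
  rw [hTx, ← sub_smul] at h1
  exact s59n_finite_of_coprime_smul M q n hqM P hnx ha₀ h1

end Consumers

section MainQ4

variable (M q : ℕ) [NeZero M] [hq : Fact q.Prime] (hqM : ¬ q ∣ M) (h5 : 5 ≤ q) (h2M : 2 ∣ M) (n : ℕ)
  (P : ValuationSubring Kb) (hP : P.LiesOverPrime q)

variable (hn0 : n ≠ 0) (hn2 : n.Coprime 2)
  (L : IntermediateField ℚ Kb) [FiniteDimensional ℚ ↥L]
  (hunr : ∀ τ ∈ P.inertiaSubgroupIn ℚ, ∀ a ∈ L, τ a = a)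
  (ℓ₀ : Nat.Primes) (hℓ₀ : ¬ (ℓ₀ : ℕ) ∣ M * q)

include h5 h2M hn0 hn2 hP hunr hℓ₀ in
/-- **[A]ₙ, elementwise form, unconditional.** -/
theorem s59e3n_fin_elt_main (x : JZero (M * q)) (hnx : n • x = 0)
    (hfix : ∀ σ : Γℚ, (∀ a ∈ L, σ a = a) → σ • x = x) :
    s59n_Finite M q n hqM P
      (heckeOperatorBar (M * q) ℓ₀ x - (((ℓ₀ : ℕ) + 1 : ℕ) : ℤ) • x) :=
  s59e3n_fin_elt M q hqM h5 h2M n hn0 hn2 P hP (s59n_q4At M q hqM h5 n P hP) L hunr x hnx hfix ℓ₀ hℓ₀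

include h5 h2M hn0 hn2 hP hunr hℓ₀ in
/-- **[A]ₙ, surjective (non-Eisenstein) form, unconditional.** -/
theorem s59e3n_fin_surj_main (V : Set (JZero (M * q))) (hVn : ∀ z ∈ V, n • z = 0)
    (hVL : ∀ z ∈ V, ∀ σ : Γℚ, (∀ a ∈ L, σ a = a) → σ • z = z)
    (hsurj : ∀ z ∈ V, ∃ z' ∈ V,
      heckeOperatorBar (M * q) ℓ₀ z' - (((ℓ₀ : ℕ) + 1 : ℕ) : ℤ) • z' = z) :
    ∀ z ∈ V, s59n_Finite M q n hqM P z :=
  s59e3n_fin_surj M q hqM h5 h2M n hn0 hn2 P hP (s59n_q4At M q hqM h5 n P hP) L hunr ℓ₀ hℓ₀ V hVn hVL hsurj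

include h5 h2M hn0 hn2 hP hunr hℓ₀ in
/-- **[A]ₙ, eigenvector form, unconditional.** -/
theorem s59e3n_fin_eigen_main (x : JZero (M * q)) (hnx : n • x = 0)
    (hfix : ∀ σ : Γℚ, (∀ a ∈ L, σ a = a) → σ • x = x) (a₀ : ℤ)
    (hTx : heckeOperatorBar (M * q) ℓ₀ x = a₀ • x)
    (ha₀ : IsCoprime (a₀ - (((ℓ₀ : ℕ) + 1 : ℕ) : ℤ)) (n : ℤ)) :
    s59n_Finite M q n hqM P x :=
  s59e3n_fin_eigen_n M q hqM h5 h2M n hn0 hn2 P hP (s59n_q4At M q hqM h5 n P hP) L hunr ℓ₀ hℓ₀ x hnx hfix a₀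
    hTx ha₀

end MainQ4

section MainI

variable (M q : ℕ) [NeZero M] [hq : Fact q.Prime] (hqM : ¬ q ∣ M) (h5 : 5 ≤ q) (h2M : 2 ∣ M) (n : ℕ)
  (hn0 : n ≠ 0) (hn2 : n.Coprime 2)
  (P : ValuationSubring Kb) (hP : P.LiesOverPrime q)
  (ℓ₀ : Nat.Primes) (hℓ₀ : ¬ (ℓ₀ : ℕ) ∣ M * q)

include h5 h2M hn0 hn2 hP hℓ₀ in
/-- **[A]ₙ, elementwise, pointwise inertia form.** -/
theorem s59e3n_fin_elt_I (x : JZero (M * q)) (hnx : n • x = 0)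
    (hI : ∀ τ ∈ P.inertiaSubgroupIn ℚ, τ • x = x) :
    s59n_Finite M q n hqM P
      (heckeOperatorBar (M * q) ℓ₀ x - (((ℓ₀ : ℕ) + 1 : ℕ) : ℤ) • x) := by
  haveI : NeZero q := ⟨hq.out.ne_zero⟩
  obtain ⟨L, hLfd, hunr, hfix⟩ := s59n_exists_unr_field (M * q) P x hI
  haveI := hLfd
  exact s59e3n_fin_elt_main M q hqM h5 h2M n P hP hn0 hn2 L hunr ℓ₀ hℓ₀ x hnx hfix

include h5 h2M hn0 hn2 hP hℓ₀ in
/-- **[A]ₙ, surjective (non-Eisenstein) form, pointwise inertia form.** -/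
theorem s59e3n_fin_surj_I (V : Set (JZero (M * q))) (hVn : ∀ z ∈ V, n • z = 0)
    (hVI : ∀ z ∈ V, ∀ τ ∈ P.inertiaSubgroupIn ℚ, τ • z = z)
    (hsurj : ∀ z ∈ V, ∃ z' ∈ V,
      heckeOperatorBar (M * q) ℓ₀ z' - (((ℓ₀ : ℕ) + 1 : ℕ) : ℤ) • z' = z) :
    ∀ z ∈ V, s59n_Finite M q n hqM P z := by
  intro z hz
  obtain ⟨z', hz', e⟩ := hsurj z hz
  rw [← e]
  exact s59e3n_fin_elt_I M q hqM h5 h2M n hn0 hn2 P hP ℓ₀ hℓ₀ z' (hVn z' hz') (hVI z' hz')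

include h5 h2M hn0 hn2 hP hℓ₀ in
/-- **[A]ₙ, eigenvector form, pointwise inertia form.** -/
theorem s59e3n_fin_eigen_I (x : JZero (M * q)) (hnx : n • x = 0)
    (hI : ∀ τ ∈ P.inertiaSubgroupIn ℚ, τ • x = x) (a₀ : ℤ)
    (hTx : heckeOperatorBar (M * q) ℓ₀ x = a₀ • x)
    (ha₀ : IsCoprime (a₀ - (((ℓ₀ : ℕ) + 1 : ℕ) : ℤ)) (n : ℤ)) :
    s59n_Finite M q n hqM P x := by
  have h1 := s59e3n_fin_elt_I M q hqM h5 h2M n hn0 hn2 P hP ℓ₀ hℓ₀ x hnx hI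
  rw [hTx, ← sub_smul] at h1
  exact s59n_finite_of_coprime_smul M q n hqM P hnx ha₀ h1

end MainI

end Fermat.Agent.Lib.S59
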