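/-
Programme R2 (S59), p = 3 port of the `T`-side (helper5), file 16: **THE EXTRACTION THEOREM (FIN-B side), EVEN LEVEL, ANY ODD `p`** — copies of
`s59m_toric_of_geig_I`, `s59m_frob_of_geig_I`, `s59m_frob_sq_of_geig_I` (MExtGeo), `s59m_ext_frob_sq`, `s59m_extract` (MExtract), `s59m_extract_TJ` (MExtTJ)
with `5 ≤ p` replaced by `p ≠ 2` + `2 ∣ M` (prefix `s59e3m_`; generated from the originals, proofs unchanged; `(p^k).Coprime 6` becomes `(p^k).Coprime 2`,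
consumed by the even-level [A]ₙ `s59e3n_fin_surj_I`).
-/
import Fermat.Agent.Lib.S59.E3FinI
import Fermat.Agent.Lib.S59.MExtTJ

set_option autoImplicit false
set_option linter.style.haveILetI false
set_option linter.unusedSectionVars false

noncomputable section

namespace Fermat.Agent.Lib.S59

open ModularCurve AlgebraicCurve TensorProduct Fermat.Agent.Lib.S44 Fermat.Agent.Lib.S33 Fermat.Agent.Lib.S30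
  Fermat.Agent.Lib.S58 Fermat.Agent.Lib.S29 Fermat.Agent.Lib.S15

local notation "Kb" => AlgebraicClosure ℚ
local notation "Γℚ" => (AlgebraicClosure ℚ ≃ₐ[ℚ] AlgebraicClosure ℚ)

section Geo

variable (M q : ℕ) [NeZero M] [hq : Fact q.Prime] (hqM : ¬ q ∣ M) (h5 : 5 ≤ q) (h2M : 2 ∣ M)
  (p : ℕ) [hp : Fact p.Prime] (hp2 : p ≠ 2) (hpq : p ≠ q) (k : ℕ)
  (P : ValuationSubring Kb) (hP : P.LiesOverPrime q)
  (a : ℕ → ℤ) (B : Finset ℕ) (hB : ∀ r : ℕ, r.Prime → r ∣ M * q * p → r ∈ B)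
  (hnoM : ¬ ∃ y : JZero M, y ≠ 0 ∧ s44i_Eig M p a B y)
  (ℓ₀ : Nat.Primes) (hℓ₀ : ¬ (ℓ₀ : ℕ) ∣ M * q)
  (V : Set (JZero (M * q)))
  (hVI : ∀ z ∈ V, ∀ τ ∈ P.inertiaSubgroupIn ℚ, τ • z = z)
  (hVE : ∀ z ∈ V, s59m_GEig (M * q) (p ^ k) a B z)
  (hsurj : ∀ z ∈ V, ∃ z' ∈ V,
    heckeOperatorBar (M * q) ℓ₀ z' - (((ℓ₀ : ℕ) + 1 : ℕ) : ℤ) • z' = z)

include hp2 in
theorem s59e3m_pk_coprime_two : (p ^ k).Coprime 2 :=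
  Nat.Coprime.pow_left k ((Nat.coprime_primes hp.out Nat.prime_two).mpr hp2)

include hpq in
theorem s59e3m_q_not_dvd_pk : ¬ q ∣ p ^ k := fun h =>
  hpq ((Nat.prime_dvd_prime_iff_eq hq.out hp.out).mp (hq.out.dvd_of_dvd_pow h)).symm

include h5 h2M hp2 hpq hP hB hnoM hℓ₀ hVI hVE hsurj in
/-- every point of `V` is toric. -/
theorem s59e3m_toric_of_geig_I : ∀ z ∈ V, s59m_Toric M q (p ^ k) hqM P z := by
  intro z hz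
  have hfin : s59n_Finite M q (p ^ k) hqM P z :=
    s59e3n_fin_surj_I M q hqM h5 h2M (p ^ k) (pow_ne_zero k hp.out.ne_zero) (s59e3m_pk_coprime_two p hp2 k)
      P hP ℓ₀ hℓ₀ V (fun z hz => (hVE z hz).1) hVI hsurj z hz
  rcases s59m_redN M q hqM h5 p hpq k P hP a B hB z (hVE z hz) hfin with h | h
  · exact absurd h hnoM
  · exact h

include hqM h5 h2M hp2 hpq hP hB hnoM hℓ₀ hVI hVE hsurj in
/-- a Frobenius element at `P` acts as `− q · w_q` on `V`. -/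
theorem s59e3m_frob_of_geig_I {σ : Γℚ} (hσ : P.IsFrobeniusAt σ q) :
    haveI : NeZero q := ⟨hq.out.ne_zero⟩
    ∀ z ∈ V, σ • z = (-(q : ℤ)) • s59m_wq M q hq.out hqM z := by
  haveI : NeZero q := ⟨hq.out.ne_zero⟩
  intro z hz
  exact s59n_toric_geo_n M q hqM h5 (p ^ k) (pow_ne_zero k hp.out.ne_zero)
    (s59e3m_q_not_dvd_pk q p hpq k) P hP
    (s59e3m_toric_of_geig_I M q hqM h5 h2M p hp2 hpq k P hP a B hB hnoM ℓ₀ hℓ₀ V hVI hVE hsurj z hz) hσ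

include hqM h5 h2M hp2 hpq hP hB hnoM hℓ₀ hVI hVE hsurj in
/-- **the square of a Frobenius element at `P` is `q²` on `V`.** -/
theorem s59e3m_frob_sq_of_geig_I {σ : Γℚ} (hσ : P.IsFrobeniusAt σ q) :
    ∀ z ∈ V, σ • σ • z = ((q : ℤ) ^ 2) • z := by
  haveI : NeZero q := ⟨hq.out.ne_zero⟩
  intro z hz
  have h1 := s59e3m_frob_of_geig_I M q hqM h5 h2M p hp2 hpq k P hP a B hB hnoM ℓ₀ hℓ₀ V hVI hVE hsurj
    hσ z hz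
  have hcomm : ∀ (n : ℤ) (y : JZero (M * q)), σ • (n • y) = n • (σ • y) := fun n y =>
    map_zsmul (DistribSMul.toAddMonoidHom (JZero (M * q)) σ) n y
  rw [h1, hcomm, ← s59m_wq_smul, h1, map_zsmul, s59m_wq_wq, ← mul_smul]
  congr 1
  ring

end Geo

section Extract

variable (M q : ℕ) [NeZero M] [hq : Fact q.Prime] (hqM : ¬ q ∣ M) (h5 : 5 ≤ q) (h2M : 2 ∣ M)
  (p : ℕ) [hp : Fact p.Prime] (hp2 : p ≠ 2) (hpq : p ≠ q)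
  (P : ValuationSubring Kb) (hP : P.LiesOverPrime q) (φ : Γℚ) (hφ : P.IsFrobeniusAt φ q)
  (W : WeierstrassCurve ℤ) (hΔ : W.Δ ≠ 0)
  (hirrU : ∀ U : AddSubgroup (s58_Pt W), U ≤ (s44s_Wp W p).toAddSubgroup →
    (∀ g : Γℚ, ∀ v ∈ U, g • v ∈ U) → U = ⊥ ∨ U = (s44s_Wp W p).toAddSubgroup)
  (B : Finset ℕ) (hB : ∀ r : ℕ, r.Prime → r ∣ M * q * p → r ∈ B)
  (hΔB : ∀ r : ℕ, r.Prime → (r : ℤ) ∣ W.Δ → r ∈ B)
  (ℓ₀ : Nat.Primes) (hℓ₀ : (ℓ₀ : ℕ) ∉ B)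
  {𝒪 : Type*} [CommRing 𝒪] [IsDomain 𝒪] [CharZero 𝒪]
  {U : Type*} [AddCommGroup U] [Module 𝒪 U] [Module.Finite 𝒪 U] [Module.IsTorsionFree 𝒪 U]
  [Nontrivial U]
  (ρ : Γℚ →* Module.End 𝒪 U) (t d : Γℚ → 𝒪)
  (hrel : ∀ g u, ρ g (ρ g u) - t g • ρ g u + d g • u = 0)
  (hd : ∀ g h, d (g * h) = d g * d h) (hd0 : ∀ g, d g ≠ 0) (hdφ : d φ = (q : 𝒪))
  (hIt : ∀ σ ∈ P.inertiaSubgroupIn ℚ, ∀ h, t (σ * h) = t h)
  (hId : ∀ σ ∈ P.inertiaSubgroupIn ℚ, d σ = 1)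
  (x : Nat.Primes → 𝒪)
  (hx : ∀ ℓ : Nat.Primes, (ℓ : ℕ) ∉ B →
    ∃ (m : ℕ) (c : 𝒪), (x ℓ - ((W.apOfModel ℓ : ℤ) : 𝒪)) ^ m = (p : 𝒪) * c)
  (hx₀ : IsUnit (x ℓ₀ - ((((ℓ₀ : ℕ) + 1 : ℕ) : ℕ) : 𝒪)))
  {ι : Type*} (r : ℕ → ι → U →+ JZero (M * q))
  (hr_tors : ∀ k i u, p ^ k • r k i u = 0)
  (hr_gal : ∀ k i (g : Γℚ) u, r k i (ρ g u) = g • r k i u)
  (hr_T : ∀ k i (ℓ : Nat.Primes), (ℓ : ℕ) ∉ B → ∀ u,
    heckeOperatorBar (M * q) ℓ (r k i u) = r k i (x ℓ • u))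
  (hr_sep : ∀ u, (∀ k i, r k i u = 0) → u = 0)


include hqM h5 h2M hp2 hpq hP hφ hB hℓ₀ hx hx₀ hr_tors hr_gal hr_T hr_sep in
/-- **`φ² = q²` on the `I_P`-fixed part of `U`** when the eigensystem does not occur at level `M`. -/
theorem s59e3m_ext_frob_sq
    (hnoM : ¬ ∃ y : JZero M, y ≠ 0 ∧ s44i_Eig M p (fun ℓ => W.apOfModel ℓ) B y)
    (u : U) (hu : ∀ σ ∈ P.inertiaSubgroupIn ℚ, ρ σ u = u) :
    ρ φ (ρ φ u) = ((q : 𝒪) * (q : 𝒪)) • u := by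
  apply sub_eq_zero.mp
  apply hr_sep
  intro k i
  rw [map_sub, sub_eq_zero, hr_gal, hr_gal]
  have hℓ₀' : ¬ (ℓ₀ : ℕ) ∣ M * q := fun h => hℓ₀ (hB _ ℓ₀.2 (h.mul_right p))
  set V : Set (JZero (M * q)) :=
    {z | ∃ (i : ι) (u : U), (∀ σ ∈ P.inertiaSubgroupIn ℚ, ρ σ u = u) ∧ r k i u = z} with hV
  have hVI : ∀ z ∈ V, ∀ τ ∈ P.inertiaSubgroupIn ℚ, τ • z = z := by
    rintro z ⟨i, u, hu, rfl⟩ τ hτ
    rw [← hr_gal, hu τ hτ]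
  have hVE : ∀ z ∈ V, s59m_GEig (M * q) (p ^ k) (fun ℓ => W.apOfModel ℓ) B z := by
    rintro z ⟨i, u, -, rfl⟩
    exact s59m_ext_geig M q p W B x hx r hr_tors hr_T k i u
  have hsurj : ∀ z ∈ V, ∃ z' ∈ V,
      heckeOperatorBar (M * q) ℓ₀ z' - (((ℓ₀ : ℕ) + 1 : ℕ) : ℤ) • z' = z := by
    rintro z ⟨i, u, hu, rfl⟩
    set e : 𝒪ˣ := hx₀.unit with he
    have he' : ((e : 𝒪ˣ) : 𝒪) = x ℓ₀ - ((((ℓ₀ : ℕ) + 1 : ℕ) : ℕ) : 𝒪) := hx₀.unit_spec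
    set u' : U := ((e⁻¹ : 𝒪ˣ) : 𝒪) • u with hu'
    have hu'I : ∀ σ ∈ P.inertiaSubgroupIn ℚ, ρ σ u' = u' := fun σ hσ => by
      rw [hu', map_smul, hu σ hσ]
    refine ⟨r k i u', ⟨i, u', hu'I, rfl⟩, ?_⟩
    rw [hr_T k i ℓ₀ hℓ₀ u', natCast_zsmul, ← map_nsmul, ← map_sub, ← Nat.cast_smul_eq_nsmul 𝒪,
      ← sub_smul, ← he', hu', smul_smul, Units.mul_inv, one_smul]
  have h1 := s59e3m_frob_sq_of_geig_I M q hqM h5 h2M p hp2 hpq k P hP (fun ℓ => W.apOfModel ℓ) B hB hnoM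
    ℓ₀ hℓ₀' V hVI hVE hsurj hφ (r k i u) ⟨i, u, hu, rfl⟩
  rw [h1]
  have h2 : ((q : 𝒪) * (q : 𝒪)) • u = (q * q : ℕ) • u := by
    rw [← Nat.cast_smul_eq_nsmul 𝒪, Nat.cast_mul]
  rw [h2, map_nsmul, ← natCast_zsmul]
  congr 1
  push_cast
  ring

include hqM h5 h2M hp2 hpq hP hφ hΔ hirrU hB hΔB hℓ₀ hrel hd hd0 hdφ hIt hId hx hx₀ hr_tors hr_gal hr_T
  hr_sep in
/-- **THE EXTRACTION THEOREM.** -/
theorem s59e3m_extract : ∃ y : JZero M, y ≠ 0 ∧ s44i_Eig M p (fun ℓ => W.apOfModel ℓ) B y := by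
  classical
  by_contra hnoM
  set a : ℕ → ℤ := fun ℓ => W.apOfModel ℓ with ha
  have hq2 : 2 ≤ q := hq.out.two_le
  -- the abstract core
  have hq1' : (q : 𝒪) * (q : 𝒪) - (q : 𝒪) ≠ 0 := by
    have h1 : (q : 𝒪) * (q : 𝒪) - (q : 𝒪) = ((q * (q - 1) : ℕ) : 𝒪) := by
      rw [Nat.cast_mul, Nat.cast_sub (by omega : 1 ≤ q), Nat.cast_one]
      ring
    rw [h1]
    exact Nat.cast_ne_zero.mpr (Nat.mul_ne_zero (by omega) (by omega))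
  have hq2' : (q : 𝒪) * (q : 𝒪) + (q : 𝒪) ≠ 0 := by
    have h1 : (q : 𝒪) * (q : 𝒪) + (q : 𝒪) = ((q * q + q : ℕ) : 𝒪) := by
      rw [Nat.cast_add, Nat.cast_mul]
    rw [h1]
    exact Nat.cast_ne_zero.mpr (by positivity)
  obtain ⟨Λ₀, hΛ0, hΛG, hΛc⟩ := s59m_ext_line ρ t d hrel hd hd0
    (↑(P.inertiaSubgroupIn ℚ) : Set Γℚ) hIt hId φ (q : 𝒪) hdφ hq1' hq2'
    (fun u hu => s59e3m_ext_frob_sq M q hqM h5 h2M p hp2 hpq P hP φ hφ W B hB ℓ₀ hℓ₀ ρ x hx hx₀ r hr_tors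
      hr_gal hr_T hr_sep hnoM u hu)
  obtain ⟨u₀, hu₀Λ, hu₀⟩ := Submodule.exists_mem_ne_zero_of_ne_bot hΛ0
  obtain ⟨k, i, hki⟩ : ∃ k i, r k i u₀ ≠ 0 := by
    by_contra hcon
    push Not at hcon
    exact hu₀ (hr_sep u₀ hcon)
  -- the image of `Λ₀` in `J₀(M q)[p ^ k]`
  set Z₁ : Submodule ℤ (JZero (M * q)) :=
    (Λ₀.toAddSubgroup.map (r k i)).toIntSubmodule with hZ₁
  have hmem₁ : ∀ z, z ∈ Z₁ ↔ ∃ u ∈ Λ₀, r k i u = z := fun z => Iff.rfl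
  have hzs : ∀ (σ : Γℚ) (n : ℤ) (y : JZero (M * q)), σ • (n • y) = n • (σ • y) := fun σ n y =>
    map_zsmul (DistribSMul.toAddMonoidHom (JZero (M * q)) σ) n y
  have hns : ∀ (σ : Γℚ) (n : ℕ) (y : JZero (M * q)), σ • (n • y) = n • (σ • y) := fun σ n y =>
    map_nsmul (DistribSMul.toAddMonoidHom (JZero (M * q)) σ) n y
  set D : {ℓ : Nat.Primes // (ℓ : ℕ) ∉ B} → Module.End ℤ (JZero (M * q)) :=
    fun j => heckeOperatorBar (M * q) j.1 - (a j.1) • (1 : Module.End ℤ (JZero (M * q))) with hD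
  have hDcomm : ∀ j j', D j * D j' = D j' * D j := by
    intro j j'
    have hjM : ¬ ((j.1 : Nat.Primes) : ℕ) ∣ M * q := fun h => j.2 (hB _ j.1.2 (h.mul_right p))
    have hj'M : ¬ ((j'.1 : Nat.Primes) : ℕ) ∣ M * q := fun h => j'.2 (hB _ j'.1.2 (h.mul_right p))
    have hc : Commute (heckeOperatorBar (M * q) j.1) (heckeOperatorBar (M * q) j'.1) :=
      m15a_comm_good (M * q) j.1 j'.1 hjM hj'M
    have h1 : Commute (heckeOperatorBar (M * q) j.1)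
        (heckeOperatorBar (M * q) j'.1 - (a j'.1) • (1 : Module.End ℤ (JZero (M * q)))) :=
      hc.sub_right (Commute.smul_right (Commute.one_right _) _)
    have h2 : Commute ((a j.1) • (1 : Module.End ℤ (JZero (M * q))))
        (heckeOperatorBar (M * q) j'.1 - (a j'.1) • (1 : Module.End ℤ (JZero (M * q)))) :=
      Commute.smul_left (Commute.one_left _) _
    exact (h1.sub_left h2).eq
  have hDZ₁ : ∀ j, ∀ z ∈ Z₁, D j z ∈ Z₁ := by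
    rintro j z ⟨u, hu, rfl⟩
    refine (hmem₁ _).mpr ⟨(x j.1 - ((a j.1 : ℤ) : 𝒪)) • u, Λ₀.smul_mem _ hu, ?_⟩
    have h1 := s59m_ext_pow M q B x r hr_T a k i j.1 j.2 1 u
    rw [pow_one, pow_one] at h1
    exact h1.symm
  haveI : NeZero (p ^ k) := ⟨pow_ne_zero k hp.out.ne_zero⟩
  haveI hfinT : Finite (s29k_Jp (M * q) (p ^ k)) := s30a_finite_torsion (M * q) (p ^ k)
  have hfin : {y : JZero (M * q) | p ^ k • y = 0}.Finite := by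
    have hset : {y : JZero (M * q) | p ^ k • y = 0} =
        ((Pic0.torsion Kb (modularFunctionFieldBar (M * q)) (p ^ k) : AddSubgroup (JZero (M * q))) :
          Set (JZero (M * q))) := by
      ext y
      rw [Set.mem_setOf_eq, SetLike.mem_coe, Pic0.mem_torsion, natCast_zsmul]
    rw [hset]
    exact Set.toFinite _
  obtain ⟨y, hyZ₁, hy0, hpy, hDy⟩ := s59m_exists_common_ker_in D hDcomm Z₁ hDZ₁ p k hfin (r k i u₀)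
    ((hmem₁ _).mpr ⟨u₀, hu₀Λ, rfl⟩) hki (hr_tors k i u₀)
    (fun j => (s59m_ext_geig M q p W B x hx r hr_tors hr_T k i u₀).2 j.1 j.2)
  have hDy' : ∀ ℓ : Nat.Primes, (ℓ : ℕ) ∉ B → heckeOperatorBar (M * q) ℓ y = a ℓ • y := by
    intro ℓ hℓ
    have h1 := hDy ⟨ℓ, hℓ⟩
    rw [hD] at h1
    simp only at h1
    rw [s59m_D_apply, neg_smul, ← sub_eq_add_neg, sub_eq_zero] at h1
    exact h1
  -- the stable eigen-piece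
  set Z : Submodule ℤ (JZero (M * q)) :=
    { carrier := {z | z ∈ Z₁ ∧ p • z = 0 ∧
        ∀ ℓ : Nat.Primes, (ℓ : ℕ) ∉ B → heckeOperatorBar (M * q) ℓ z = a ℓ • z}
      zero_mem' := ⟨Z₁.zero_mem, nsmul_zero _, fun ℓ _ => by rw [map_zero, zsmul_zero]⟩
      add_mem' := by
        rintro z z' ⟨h1, h2, h3⟩ ⟨h1', h2', h3'⟩
        refine ⟨Z₁.add_mem h1 h1', by rw [nsmul_add, h2, h2', add_zero], fun ℓ hℓ => ?_⟩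
        rw [map_add, h3 ℓ hℓ, h3' ℓ hℓ, zsmul_add]
      smul_mem' := by
        rintro n z ⟨h1, h2, h3⟩
        refine ⟨Z₁.smul_mem n h1, ?_, fun ℓ hℓ => ?_⟩
        · rw [← natCast_zsmul, ← mul_zsmul, mul_comm (p : ℤ) n, mul_zsmul, natCast_zsmul, h2,
            zsmul_zero]
        · rw [map_zsmul, h3 ℓ hℓ, ← mul_zsmul, mul_comm n (a ℓ), mul_zsmul] } with hZ
  have hmemZ : ∀ z, z ∈ Z ↔ z ∈ Z₁ ∧ p • z = 0 ∧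
      ∀ ℓ : Nat.Primes, (ℓ : ℕ) ∉ B → heckeOperatorBar (M * q) ℓ z = a ℓ • z := fun z => Iff.rfl
  have hZst : s33r_Stable (M * q) p B Z := by
    refine ⟨fun z hz => hz.2.1, fun σ z hz => ?_, fun ℓ hℓ z hz => ?_⟩
    · obtain ⟨⟨u, hu, rfl⟩, h2, h3⟩ := hz
      refine (hmemZ _).mpr ⟨(hmem₁ _).mpr ⟨ρ σ u, hΛG σ u hu, hr_gal k i σ u⟩, ?_, fun ℓ hℓ => ?_⟩
      · rw [← hns, h2]
        exact map_zero (DistribSMul.toAddMonoidHom (JZero (M * q)) σ)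
      · rw [← s30a_pt_comm, h3 ℓ hℓ, hzs]
    · rw [hz.2.2 ℓ hℓ]
      exact Z.smul_mem _ hz
  have hZeig : ∀ ℓ : Nat.Primes, (ℓ : ℕ) ∉ B → ∀ z ∈ Z,
      heckeOperatorBar (M * q) ℓ z = W.apOfModel ℓ • z := fun ℓ hℓ z hz => hz.2.2 ℓ hℓ
  have hZcomm : ∀ g : Γℚ, ∀ z ∈ Z,
      (complexConjugation : Γℚ) • g • z = g • (complexConjugation : Γℚ) • z := by
    rintro g z ⟨⟨u, hu, rfl⟩, -, -⟩
    rw [← hr_gal, ← hr_gal, ← hr_gal, ← hr_gal, hΛc _ _ u hu]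
  have hp2 : p ≠ 2 := by omega
  have hpS : p ∈ B := hB p hp.out (Dvd.intro_left _ rfl)
  have hNS : ∀ r : ℕ, r.Prime → r ∣ M * q → r ∈ B := fun r hr h => hB r hr (h.mul_right p)
  exact hy0 (s59m_no_comm W hΔ hp2 hirrU hpS hNS hΔB hZst hZeig hZcomm y
    ((hmemZ y).mpr ⟨hyZ₁, hpy, hDy'⟩))

end Extract

section TJ

variable (M q : ℕ) [NeZero M] [hq : Fact q.Prime] (hqM : ¬ q ∣ M) (h5 : 5 ≤ q) (h2M : 2 ∣ M)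
  (p : ℕ) [hp : Fact p.Prime] (hp2 : p ≠ 2) (hpq : p ≠ q)
  (P : ValuationSubring Kb) (hP : P.LiesOverPrime q) (φ : Γℚ) (hφ : P.IsFrobeniusAt φ q)
  (W : WeierstrassCurve ℤ) (hΔ : W.Δ ≠ 0)
  (hirrU : ∀ U : AddSubgroup (s58_Pt W), U ≤ (s44s_Wp W p).toAddSubgroup →
    (∀ g : Γℚ, ∀ v ∈ U, g • v ∈ U) → U = ⊥ ∨ U = (s44s_Wp W p).toAddSubgroup)
  (B : Finset ℕ) (hB : ∀ r : ℕ, r.Prime → r ∣ M * q * p → r ∈ B)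
  (hΔB : ∀ r : ℕ, r.Prime → (r : ℤ) ∣ W.Δ → r ∈ B)
  (ℓ₀ : Nat.Primes) (hℓ₀ : (ℓ₀ : ℕ) ∉ B)
  {𝒪 : Type*} [CommRing 𝒪] [IsDomain 𝒪] [CharZero 𝒪] [IsNoetherianRing 𝒪] [Algebra ℤ_[p] 𝒪]
  [Module.Free ℤ_[p] 𝒪]
  (t d : Γℚ → 𝒪)
  (hd : ∀ g h, d (g * h) = d g * d h) (hd0 : ∀ g, d g ≠ 0) (hdφ : d φ = (q : 𝒪))
  (hIt : ∀ σ ∈ P.inertiaSubgroupIn ℚ, ∀ h, t (σ * h) = t h)
  (hId : ∀ σ ∈ P.inertiaSubgroupIn ℚ, d σ = 1)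
  (x : Nat.Primes → 𝒪)
  (hx : ∀ ℓ : Nat.Primes, (ℓ : ℕ) ∉ B →
    ∃ (m : ℕ) (c : 𝒪), (x ℓ - ((W.apOfModel ℓ : ℤ) : 𝒪)) ^ m = (p : 𝒪) * c)
  (hx₀ : IsUnit (x ℓ₀ - ((((ℓ₀ : ℕ) + 1 : ℕ) : ℕ) : 𝒪)))
  (v₀ : 𝒪 ⊗[ℤ_[p]] s30a_TJ (M * q) p) (hv₀ : v₀ ≠ 0)
  (hv₀x : ∀ ℓ : Nat.Primes, (ℓ : ℕ) ∉ B → (s30a_Tz (M * q) p ℓ).baseChange 𝒪 v₀ = x ℓ • v₀)
  (hQ : ∀ (g : Γℚ) (v : 𝒪 ⊗[ℤ_[p]] s30a_TJ (M * q) p),
    (∀ ℓ : Nat.Primes, (ℓ : ℕ) ∉ B → (s30a_Tz (M * q) p ℓ).baseChange 𝒪 v = x ℓ • v) →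
    (s30a_rho (M * q) p g).baseChange 𝒪 ((s30a_rho (M * q) p g).baseChange 𝒪 v) -
      t g • (s30a_rho (M * q) p g).baseChange 𝒪 v + d g • v = 0)

include hqM h5 h2M hp2 hpq hP hφ hΔ hirrU hB hΔB hℓ₀ hd hd0 hdφ hIt hId hx hx₀ hv₀ hv₀x hQ in
/-- **THE EXTRACTION THEOREM on the Tate module of `J₀(M q)`.** -/
theorem s59e3m_extract_TJ : ∃ y : JZero M, y ≠ 0 ∧ s44i_Eig M p (fun ℓ => W.apOfModel ℓ) B y := by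
  classical
  haveI : Nontrivial ↥(s59m_LamX (M * q) p 𝒪 B x) :=
    ⟨⟨⟨v₀, hv₀x⟩, 0, fun h => hv₀ (congrArg Subtype.val h)⟩⟩
  have hrel : ∀ g (u : ↥(s59m_LamX (M * q) p 𝒪 B x)),
      s59m_rhoLam (M * q) p 𝒪 B x g (s59m_rhoLam (M * q) p 𝒪 B x g u) -
        t g • s59m_rhoLam (M * q) p 𝒪 B x g u + d g • u = 0 := by
    intro g u
    apply Subtype.ext
    exact hQ g (u : 𝒪 ⊗[ℤ_[p]] s30a_TJ (M * q) p) u.2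
  have hℓN : ∀ ℓ : Nat.Primes, (ℓ : ℕ) ∉ B → ¬ (ℓ : ℕ) ∣ M * q := fun ℓ hℓ h =>
    hℓ (hB _ ℓ.2 (h.mul_right p))
  have h1 : ∀ (k : ℕ) (f : 𝒪 →ₗ[ℤ_[p]] ℤ_[p]) (u : ↥(s59m_LamX (M * q) p 𝒪 B x)),
      p ^ k • s59m_redLam (M * q) p 𝒪 B x k f u = 0 := fun k f u => s59m_redT_tors k f _
  have h2 := fun (k : ℕ) (f : 𝒪 →ₗ[ℤ_[p]] ℤ_[p]) (g : Γℚ)
      (u : ↥(s59m_LamX (M * q) p 𝒪 B x)) => s59m_redLam_gal (x := x) (B := B) k f g u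
  have h3 := fun (k : ℕ) (f : 𝒪 →ₗ[ℤ_[p]] ℤ_[p]) (ℓ : Nat.Primes) (hℓ : (ℓ : ℕ) ∉ B)
      (u : ↥(s59m_LamX (M * q) p 𝒪 B x)) => s59m_redLam_hecke k f ℓ hℓ (hℓN ℓ hℓ) u
  have h4 := fun (u : ↥(s59m_LamX (M * q) p 𝒪 B x)) hu =>
    s59m_redLam_sep (x := x) (B := B) u hu
  refine s59e3m_extract M q hqM h5 h2M p hp2 hpq P hP φ hφ W hΔ hirrU B hB hΔB ℓ₀ hℓ₀ (𝒪 := 𝒪)
    (U := ↥(s59m_LamX (M * q) p 𝒪 B x))
    (s59m_rhoLam (M * q) p 𝒪 B x) t d ?_ hd hd0 hdφ hIt hId x hx hx₀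
    (s59m_redLam (M * q) p 𝒪 B x) ?_ ?_ ?_ ?_
  · exact hrel
  · exact h1
  · exact h2
  · exact h3
  · exact h4

end TJ

end Fermat.Agent.Lib.S59
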