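/-
Programme R2 (S59), p = 3 port (helper5), file 17: **FIN-B FOR A GENERAL `W`, EVEN LEVEL, ANY ODD `p`** — copy of helper3's UWFinB
(`s59u_W_levelOcc_of_unrPt`, `s59u_W_FinB`) with `5 ≤ p` replaced by `p ≠ 2` + `2 ∣ M` (resp. `2 ∣ N`) (prefix `s59e3u_`; generated from the original;
the extraction theorem is the ported `s59e3m_extract_TJ`, E3Ext).
-/
import Mathlib
import Fermat.Agent.Lib.S59.BFinB
import Fermat.Agent.Lib.S59.LFinW1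
import Fermat.Agent.Lib.S59.E3Ext
import Fermat.Agent.Lib.S59.E3Aux

set_option autoImplicit false
set_option linter.style.haveILetI false
set_option linter.unusedSectionVars false
set_option linter.unusedVariables false

noncomputable section

namespace Fermat.Agent.Lib.S59

open WeierstrassCurve WeierstrassCurve.Affine WeierstrassCurve.Affine.Point FreyPackage
open ModularCurve AlgebraicCurve TensorProduct IsLocalRing Polynomial CuspForm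
open Fermat.Agent.Lib.S44 Fermat.Agent.Lib.S12 Fermat.Agent.Lib.S58 Fermat.Agent.Lib.S41
  Fermat.Agent.Lib.S33 Fermat.Agent.Lib.S30 Fermat.Agent.Lib.S29

local notation "Kb" => AlgebraicClosure ℚ
local notation "Γℚ" => (AlgebraicClosure ℚ ≃ₐ[ℚ] AlgebraicClosure ℚ)

/-- **FIN-B at one prime, `W`-form**: `s59i_UnrPt` at level `M q` gives the occurrence at level `M`. -/
theorem s59e3u_W_levelOcc_of_unrPt (W : WeierstrassCurve ℤ) (hΔ : W.Δ ≠ 0) (p : ℕ) [hpF : Fact p.Prime]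
    (hp2 : p ≠ 2) (hirr : W.ModRepIsIrreducible p) (M q : ℕ) [NeZero M] [hqF : Fact q.Prime]
    (hqM : ¬ q ∣ M) (hq5 : 5 ≤ q) (h2M : 2 ∣ M) (hqp : q ≠ p)
    (B : Finset ℕ) (hB1 : ∀ r : ℕ, r.Prime → r ∣ M * q * p → r ∈ B)
    (hB2 : ∀ r : ℕ, r.Prime → ¬ W.IsGoodPrimeFor r → r ∈ B)
    (hU : s59i_UnrPt p (M * q) B (fun ℓ => W.apOfModel ℓ) q) :
    s44i_LevelOcc M p (fun ℓ => W.apOfModel ℓ) B := by
  classical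
  have hp := hpF.out
  have hq := hqF.out
  have hp2 : p ≠ 2 := by omega
  haveI := s58o_isElliptic W hΔ
  have hW : W.IsIntegralModelOf (W.map (Int.castRingHom ℚ)) := ⟨1, s44s_one_smul W⟩
  have hΔB : ∀ r : ℕ, r.Prime → (r : ℤ) ∣ W.Δ → r ∈ B := fun r hr hd =>
    hB2 r hr (fun hgood => hgood hd)
  -- a non-Eisenstein prime outside `B`
  obtain ⟨ℓ₁, hℓ₁, hℓ₁B, -, hℓ₁E⟩ := s41a_nonEis (W.map (Int.castRingHom ℚ)) W hW p hp hp2 hirr B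
  have hne : ¬ ((p : ℕ) : ℤ) ∣ W.apOfModel ℓ₁ - ((ℓ₁ : ℕ) + 1) := by
    intro hd
    apply hℓ₁E
    have h1 : W.apOfModel ℓ₁ ^ 2 - ((ℓ₁ : ℤ) + 1) ^ 2 =
        (W.apOfModel ℓ₁ - ((ℓ₁ : ℤ) + 1)) * (W.apOfModel ℓ₁ + ((ℓ₁ : ℤ) + 1)) := by ring
    rw [h1]
    exact Dvd.dvd.mul_right hd _
  obtain ⟨Cv, hCv⟩ := hW
  -- the data of [UNR-PT]
  obtain ⟨𝒪', i1, i2, i3, i4, i5, i6, i7, χ, ρ, hcong, hchar, Pl, hPl, hunr⟩ := hU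
  haveI : Module.IsTorsionFree ℤ_[p] 𝒪' := s30e_isTorsionFree_padicInt p 𝒪'
  haveI : Module.Free ℤ_[p] 𝒪' := Module.free_of_finite_type_torsion_free'
  have hp𝒪 : (p : 𝒪') ∈ maximalIdeal 𝒪' := s59b_p_mem_of_finite p
  obtain ⟨φ, hφ⟩ := Fermat.Agent.Lib.Frobenius.exists_isFrobeniusAt_of_liesOverPrime Pl q hq hPl
  have hℓN : ∀ ℓ : Nat.Primes, (ℓ : ℕ) ∉ B → ¬ (ℓ : ℕ) ∣ M * q := fun ℓ hℓ h =>
    hℓ (hB1 _ ℓ.2 (h.mul_right p))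
  -- the eigenvalues
  set x : Nat.Primes → 𝒪' := fun ℓ =>
    if h : (ℓ : ℕ) ∈ B then 0 else χ (heckeAlgebra.T ℓ.2 (hℓN ℓ h) h) with hx
  have hxℓ : ∀ (ℓ : Nat.Primes) (h : (ℓ : ℕ) ∉ B), x ℓ = χ (heckeAlgebra.T ℓ.2 (hℓN ℓ h) h) := by
    intro ℓ h
    rw [hx]
    exact dif_neg h
  have hchar' : ∀ ℓ : Nat.Primes, (ℓ : ℕ) ∉ B →
      ∀ A : ValuationSubring Kb, A.LiesOverPrime ℓ → ∀ σ : Γℚ, A.IsFrobeniusAt σ ℓ →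
        LinearMap.charpoly (ρ.ρ σ) = X ^ 2 - C (x ℓ) * X + C (((ℓ : ℕ) : 𝒪')) := by
    intro ℓ hℓ A hA σ hσ
    rw [hxℓ ℓ hℓ]
    exact hchar ℓ ℓ.2 (hℓN ℓ hℓ) hℓ A hA σ hσ
  -- the determinant
  have hdetcyc : ρ.DetIsCyclotomic p := by
    refine s59e_detCyc_of_frob p ρ hp𝒪 B ?_
    intro ℓ hℓ hℓB A hA σ hσ
    exact (s59b_trdet_of_charpoly' ρ σ _ _ (hchar' ⟨ℓ, hℓ⟩ hℓB A hA σ hσ)).2
  set t : Γℚ → 𝒪' := fun g => LinearMap.trace 𝒪' ρ.V (ρ.ρ g) with ht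
  set d : Γℚ → 𝒪' := fun g => LinearMap.det (ρ.ρ g) with hd
  have hdmul : ∀ g h, d (g * h) = d g * d h := fun g h => by
    rw [hd]
    show LinearMap.det (ρ.ρ (g * h)) = _
    rw [map_mul, map_mul]
  have hd0 : ∀ g, d g ≠ 0 := by
    intro g h0
    have h1 : d g * d g⁻¹ = 1 := by
      rw [← hdmul, mul_inv_cancel]
      show LinearMap.det (ρ.ρ 1) = 1
      rw [map_one, map_one]
    rw [h0, zero_mul] at h1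
    exact zero_ne_one h1
  have hdφ : d φ = (q : 𝒪') := s59b_det_frob p ρ hdetcyc q hq hqp Pl hPl φ hφ
  have hIt : ∀ σ ∈ Pl.inertiaSubgroupIn ℚ, ∀ h, t (σ * h) = t h := by
    intro σ hσ h
    show LinearMap.trace 𝒪' ρ.V (ρ.ρ (σ * h)) = LinearMap.trace 𝒪' ρ.V (ρ.ρ h)
    rw [map_mul, hunr σ hσ, one_mul]
  have hId : ∀ σ ∈ Pl.inertiaSubgroupIn ℚ, d σ = 1 := by
    intro σ hσ
    show LinearMap.det (ρ.ρ σ) = 1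
    rw [hunr σ hσ, map_one]
  -- congruences
  have hxcong : ∀ ℓ : Nat.Primes, (ℓ : ℕ) ∉ B →
      x ℓ - ((W.apOfModel ℓ : ℤ) : 𝒪') ∈ maximalIdeal 𝒪' := by
    intro ℓ hℓ
    rw [hxℓ ℓ hℓ]
    exact hcong ℓ ℓ.2 (hℓN ℓ hℓ) hℓ
  have hxp : ∀ ℓ : Nat.Primes, (ℓ : ℕ) ∉ B →
      ∃ (m : ℕ) (c : 𝒪'), (x ℓ - ((W.apOfModel ℓ : ℤ) : 𝒪')) ^ m = (p : 𝒪') * c :=
    fun ℓ hℓ => s59b_exists_pow_eq_p_mul_of_finite p (hxcong ℓ hℓ)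
  have hx₀ : IsUnit (x ⟨ℓ₁, hℓ₁⟩ - ((((ℓ₁ : ℕ) + 1 : ℕ) : ℕ) : 𝒪')) := by
    have hu : IsUnit (((W.apOfModel ℓ₁ - ((ℓ₁ : ℕ) + 1) : ℤ) : ℤ) : 𝒪') :=
      s59b_isUnit_intCast_of_not_dvd p hne
    have hm := hxcong ⟨ℓ₁, hℓ₁⟩ hℓ₁B
    by_contra hnu
    have h1 : x ⟨ℓ₁, hℓ₁⟩ - ((((ℓ₁ : ℕ) + 1 : ℕ) : ℕ) : 𝒪') ∈ maximalIdeal 𝒪' :=
      (mem_maximalIdeal _).mpr (mem_nonunits_iff.mpr hnu)
    have h2 : (((W.apOfModel ℓ₁ - ((ℓ₁ : ℕ) + 1) : ℤ) : ℤ) : 𝒪') ∈ maximalIdeal 𝒪' := by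
      have h3 := Ideal.sub_mem _ h1 hm
      have e : x ⟨ℓ₁, hℓ₁⟩ - ((((ℓ₁ : ℕ) + 1 : ℕ) : ℕ) : 𝒪') -
          (x ⟨ℓ₁, hℓ₁⟩ - ((W.apOfModel ((⟨ℓ₁, hℓ₁⟩ : Nat.Primes) : ℕ) : ℤ) : 𝒪')) =
          (((W.apOfModel ℓ₁ - ((ℓ₁ : ℕ) + 1) : ℤ) : ℤ) : 𝒪') := by
        push_cast
        ring
      rwa [e] at h3
    exact ((mem_maximalIdeal _).mp h2) hu
  -- the eigenvector
  obtain ⟨v₀, hv₀, hv₀χ⟩ := (s30u_tateDatum (M * q) p).eig B 𝒪' χ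
  have hv₀x : ∀ ℓ : Nat.Primes, (ℓ : ℕ) ∉ B →
      (s30a_Tz (M * q) p ℓ).baseChange 𝒪' v₀ = x ℓ • v₀ := by
    intro ℓ hℓ
    rw [hxℓ ℓ hℓ]
    exact hv₀χ ℓ ℓ.2 (hℓN ℓ hℓ) hℓ
  -- (Q)
  have hQ : ∀ (g : Γℚ) (v : 𝒪' ⊗[ℤ_[p]] s30a_TJ (M * q) p),
      (∀ ℓ : Nat.Primes, (ℓ : ℕ) ∉ B → (s30a_Tz (M * q) p ℓ).baseChange 𝒪' v = x ℓ • v) →
      (s30a_rho (M * q) p g).baseChange 𝒪' ((s30a_rho (M * q) p g).baseChange 𝒪' v) -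
        t g • (s30a_rho (M * q) p g).baseChange 𝒪' v + d g • v = 0 :=
    fun g v hv => s59b_finB_Q (M * q) p B x hB1 ρ hchar' g v hv
  obtain ⟨y, hy0, hy⟩ := s59e3m_extract_TJ M q hqM hq5 h2M p hp2 (Ne.symm hqp) Pl hPl φ hφ W hΔ
    (s59m_irrU_of_irr (W.map (Int.castRingHom ℚ)) W Cv hCv p hirr) B hB1 hΔB ⟨ℓ₁, hℓ₁⟩ hℓ₁B t d hdmul hd0 hdφ
    hIt hId x hxp hx₀ v₀ hv₀ hv₀x hQ
  exact s59b_old M p hp hp2 (fun ℓ => W.apOfModel ℓ) B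
    (fun r hr hdv => hB1 r hr (by
      obtain ⟨c, hc⟩ := hdv
      exact ⟨c * q, by rw [mul_right_comm, hc, mul_assoc]⟩)) y hy0 hy

/-- **FIN-B for `W`** (`p ≥ 5`), in the `HB` shape of `s59i_IAcoreW_pt`. -/
theorem s59e3u_W_FinB (W : WeierstrassCurve ℤ) (hΔ : W.Δ ≠ 0) (p : ℕ) [hpF : Fact p.Prime]
    (hp2 : p ≠ 2) (N : ℕ) [hN : NeZero N] (Bd B : Finset ℕ) (H : s59i_IAHypW W p N Bd B) (h2N : 2 ∣ N)
    (hU : ∃ q ∈ Bd, s59i_UnrPt p N B (fun ℓ => W.apOfModel ℓ) q) :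
    ∃ q ∈ Bd, s44i_LevelOcc (N / q) p (fun ℓ => W.apOfModel ℓ) B := by
  obtain ⟨q, hqBd, hUq⟩ := hU
  obtain ⟨hq, hqp, hqN, -, hpq1, -⟩ := H.hBd q hqBd
  refine ⟨q, hqBd, ?_⟩
  have hq5 : 5 ≤ q := by
    have h2 := hq.two_le
    have h1 : p ≤ q - 1 := Nat.le_of_dvd (by omega) hpq1
    have h3 : 3 ≤ p := by have := hpF.out.two_le; omega
    by_contra hlt
    have h4 : q = 4 := by omega
    rw [h4] at hq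
    exact absurd hq (by norm_num)
  have hsq := H.hNsq
  have hB1 := H.hB1
  obtain ⟨M, rfl⟩ : ∃ M, N = M * q := ⟨N / q, (Nat.div_mul_cancel hqN).symm⟩
  rw [Nat.mul_div_cancel M hq.pos]
  haveI : NeZero M := ⟨fun h => hN.out (by rw [h, zero_mul])⟩
  haveI : Fact q.Prime := ⟨hq⟩
  have hqM : ¬ q ∣ M := by
    rintro ⟨k, rfl⟩
    have hdvd : q * q ∣ q * k * q := ⟨k, by ring⟩
    exact hq.one_lt.ne' (Nat.isUnit_iff.mp (hsq q hdvd))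
  exact s59e3u_W_levelOcc_of_unrPt W hΔ p hp2 H.hirr M q hqM hq5 (s59e3_two_dvd_left hq hq5 h2N) hqp B hB1 H.hB2 hUq

end Fermat.Agent.Lib.S59
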