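/-
Programme R2 (S59), p = 3 port (helper5), file 23: **FIN-B FOR `W`, EVEN LEVEL, ANY ODD `p`, UNDER THE WEAK HYPOTHESES `s59e3i_IAHypE`** (no `hram`) — the second theorem of E3FinB
(copy of helper3's `s59u_W_FinB`) with `s59i_IAHypW` replaced by `s59e3i_IAHypE` (prefix `s59e3u_`, suffix `_E`; generated).
-/
import Mathlib
import Fermat.Agent.Lib.S59.BFinB
import Fermat.Agent.Lib.S59.LFinW1
import Fermat.Agent.Lib.S59.E3FinB
import Fermat.Agent.Lib.S59.E3E2c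

set_option autoImplicit false
set_option linter.style.haveILetI false
set_option linter.unusedSectionVars false
set_option linter.unusedVariables false

noncomputable section

namespace Fermat.Agent.Lib.S59

open WeierstrassCurve WeierstrassCurve.Affine WeierstrassCurve.Affine.Point FreyPackage
open ModularCurve AlgebraicCurve TensorProduct IsLocalRing Polynomial CuspForm
open Fermat.Agent.Lib.S44 Fermat.Agent.Lib.S12 Fermat.Agent.Lib.S58 Fermat.Agent.Lib.S41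
  Fermat.Agent.Lib.S33 Fermat.Agent.Lib.S30 Fermat.Agent.Lib.S29

local notation "Kb" => AlgebraicClosure ℚ
local notation "Γℚ" => (AlgebraicClosure ℚ ≃ₐ[ℚ] AlgebraicClosure ℚ)

/-- **FIN-B for `W`** (`p ≥ 5`), in the `HB` shape of `s59i_IAcoreW_pt`. -/
theorem s59e3u_W_FinB_E (W : WeierstrassCurve ℤ) (hΔ : W.Δ ≠ 0) (p : ℕ) [hpF : Fact p.Prime]
    (hp2 : p ≠ 2) (N : ℕ) [hN : NeZero N] (Bd B : Finset ℕ) (H : s59e3i_IAHypE W p N Bd B) (h2N : 2 ∣ N)
    (hU : ∃ q ∈ Bd, s59i_UnrPt p N B (fun ℓ => W.apOfModel ℓ) q) :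
    ∃ q ∈ Bd, s44i_LevelOcc (N / q) p (fun ℓ => W.apOfModel ℓ) B := by
  obtain ⟨q, hqBd, hUq⟩ := hU
  obtain ⟨hq, hqp, hqN, -, hpq1, -⟩ := H.hBd q hqBd
  refine ⟨q, hqBd, ?_⟩
  have hq5 : 5 ≤ q := by
    have h2 := hq.two_le
    have h1 : p ≤ q - 1 := Nat.le_of_dvd (by omega) hpq1
    have h3 : 3 ≤ p := by have := hpF.out.two_le; omega
    by_contra hlt
    have h4 : q = 4 := by omega
    rw [h4] at hq
    exact absurd hq (by norm_num)
  have hsq := H.hNsq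
  have hB1 := H.hB1
  obtain ⟨M, rfl⟩ : ∃ M, N = M * q := ⟨N / q, (Nat.div_mul_cancel hqN).symm⟩
  rw [Nat.mul_div_cancel M hq.pos]
  haveI : NeZero M := ⟨fun h => hN.out (by rw [h, zero_mul])⟩
  haveI : Fact q.Prime := ⟨hq⟩
  have hqM : ¬ q ∣ M := by
    rintro ⟨k, rfl⟩
    have hdvd : q * q ∣ q * k * q := ⟨k, by ring⟩
    exact hq.one_lt.ne' (Nat.isUnit_iff.mp (hsq q hdvd))
  exact s59e3u_W_levelOcc_of_unrPt W hΔ p hp2 H.hirr M q hqM hq5 (s59e3_two_dvd_left hq hq5 h2N) hqp B hB1 H.hB2 hUq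

end Fermat.Agent.Lib.S59
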