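/-
Programme R2 (S59), p = 3 port of the `T`-side (helper5), file 3: **(G2) AT THE TOP OF THE TOWER AND THE FINAL ASSEMBLY OF (G2)↑, EVEN LEVEL, ANY ODD `p`**
— copies of `s59n_top_core` (NTop), `s59n_top_transport`, `s59n_G2_up_core` (NFinal) with `5 ≤ p` replaced by `p ≠ 2` + `2 ∣ M`
(prefix `s59e3n_`; generated from the originals, proofs unchanged up to the coprimality bookkeeping).
-/
import Fermat.Agent.Lib.S59.E3FinI
import Fermat.Agent.Lib.S59.NFinal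

set_option autoImplicit false
set_option linter.style.haveILetI false
set_option linter.unusedSectionVars false
set_option synthInstance.maxHeartbeats 400000

noncomputable section

namespace Fermat.Agent.Lib.S59

open ModularCurve AlgebraicCurve HahnSeries IntermediateField Fermat.Agent.Lib.FF Fermat.Agent.Lib.S18
  Fermat.Agent.Lib.S34 Fermat.Agent.Lib.S37 Fermat.Agent.Lib.S33 Fermat.Agent.Lib.S35
  Fermat.Agent.Lib.S44 Fermat.Agent.Lib.Frey Fermat.Agent.Lib.S30 Fermat.Agent.Lib.S29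
  Fermat.Agent.Lib.S48
open scoped Pointwise

local notation "Kb" => AlgebraicClosure ℚ
local notation "Γℚ" => (AlgebraicClosure ℚ ≃ₐ[ℚ] AlgebraicClosure ℚ)

attribute [local instance] s29a_algebraC

section Core

variable (M q : ℕ) [NeZero M] [hq : Fact q.Prime] (hqM : ¬ q ∣ M) (h5 : 5 ≤ q) (h2M : 2 ∣ M)
  {p : ℕ} (hp : p.Prime) (hp2 : p ≠ 2) (hpq : p ≠ q)
  (P : ValuationSubring Kb) (hP : P.LiesOverPrime q)
  (ℓ₀ : Nat.Primes) (hℓ₀ : ¬ (ℓ₀ : ℕ) ∣ M * q)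
  {κ : Type*} (T : κ → AddMonoid.End (JZero (M * q))) (a : κ → ℤ) (k₀ : κ)
  (hTG : ∀ (k : κ) (σ : Γℚ) (w : JZero (M * q)), T k (σ • w) = σ • T k w)
  (hT₀ : ∀ w : JZero (M * q), p • w = 0 → T k₀ w = heckeOperatorBar (M * q) ℓ₀ w)
  (ha₀ : IsCoprime ((((ℓ₀ : ℕ) + 1 : ℕ) : ℤ) - a k₀) (p : ℤ))
  (Winf Wzero : ValuationSubring (ffi_F (M * q)))
  (hWinf : ∀ f : ffi_F (M * q), f ∈ Winf ↔
    (f : LaurentSeries Kb) ∈ s37r_O P (IsLocalRing.residue ↥P))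
  (hWzero : ∀ f : ffi_F (M * q), f ∈ Wzero ↔
    ((s37w_al M q hq.out hqM f : ffi_F (M * q)) : LaurentSeries Kb) ∈
      s37r_O P (IsLocalRing.residue ↥P))

include h5 h2M hp hp2 hpq hP hℓ₀ hTG hT₀ ha₀ hWinf hWzero in
/-- **(G2) AT THE TOP OF THE TOWER**: a `p`-torsion class of `J₀(M q)`, generalised eigenvector of a Galois-equivariant family
containing a non-Eisenstein `T_ℓ₀`, lying in the Kummer kernels of the two Gauss valuation subrings, vanishes, provided the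
quadratic Frobenius operator is nilpotent on all such classes. -/
theorem s59e3n_top_core {σ : Γℚ} (hσ : P.IsFrobeniusAt σ q) (tr dt : ℤ)
    (hcop : IsCoprime (((q : ℤ) ^ 2 + dt) ^ 2 - tr ^ 2 * (q : ℤ) ^ 2) (p : ℤ))
    (hnil : ∀ w : JZero (M * q), p • w = 0 →
      (∀ k : κ, ∃ N : ℕ, ((T k - (a k : AddMonoid.End (JZero (M * q)))) ^ N) w = 0) →
      ∃ N : ℕ, (fun z : JZero (M * q) => σ • σ • z - tr • σ • z + dt • z)^[N] w = 0)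
    (z : JZero (M * q)) (hz : p • z = 0)
    (hzT : ∀ k : κ, ∃ N : ℕ, ((T k - (a k : AddMonoid.End (JZero (M * q)))) ^ N) z = 0)
    (hzi : z ∈ s59k_KumKer (K := Kb) Winf p) (hzz : z ∈ s59k_KumKer (K := Kb) Wzero p) : z = 0 := by
  classical
  haveI : NeZero q := ⟨hq.out.ne_zero⟩
  by_contra hne
  have hp0 : p ≠ 0 := hp.ne_zero
  have hp2 : p ≠ 2 := by omega
  have hp6 : p.Coprime 2 := (Nat.coprime_primes hp Nat.prime_two).mpr (by omega)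
  have hqp : ¬ q ∣ p := fun h => hpq ((Nat.prime_dvd_prime_iff_eq hq.out hp).mp h).symm
  have hsw : ∀ (g : Γℚ) (x : JZero (M * q)), p • (g • x) = g • (p • x) :=
    fun g x => (map_nsmul (DistribSMul.toAddMonoidHom (JZero (M * q)) g) p x).symm
  have hs0 : ∀ g : Γℚ, g • (0 : JZero (M * q)) = 0 := fun g =>
    map_zero (DistribSMul.toAddMonoidHom (JZero (M * q)) g)
  have hsadd : ∀ (g : Γℚ) (x y : JZero (M * q)), g • (x + y) = g • x + g • y := fun g x y =>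
    map_add (DistribSMul.toAddMonoidHom (JZero (M * q)) g) x y
  have hsneg : ∀ (g : Γℚ) (x : JZero (M * q)), g • (-x) = -(g • x) := fun g x =>
    map_neg (DistribSMul.toAddMonoidHom (JZero (M * q)) g) x
  -- the subgroup `V`
  set V : AddSubgroup (JZero (M * q)) :=
    s59n_tors (JZero (M * q)) p ⊓
      (⨅ k : κ, s59n_genKer (T k - (a k : AddMonoid.End (JZero (M * q))))) ⊓
      s59k_KumKer (K := Kb) Winf p ⊓ s59k_KumKer (K := Kb) Wzero p with hV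
  have hVmem : ∀ w : JZero (M * q), w ∈ V ↔ p • w = 0 ∧
      (∀ k : κ, ∃ N : ℕ, ((T k - (a k : AddMonoid.End (JZero (M * q)))) ^ N) w = 0) ∧
      w ∈ s59k_KumKer (K := Kb) Winf p ∧ w ∈ s59k_KumKer (K := Kb) Wzero p := by
    intro w
    constructor
    · rintro ⟨⟨⟨h1, h2⟩, h3⟩, h4⟩
      exact ⟨h1, fun k => (AddSubgroup.mem_iInf.mp h2) k, h3, h4⟩
    · rintro ⟨h1, h2, h3, h4⟩
      exact ⟨⟨⟨h1, AddSubgroup.mem_iInf.mpr h2⟩, h3⟩, h4⟩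
  -- stability under the decomposition group
  have hVD : ∀ τ ∈ P.decompositionSubgroup ℚ, ∀ w ∈ V, τ • w ∈ V := by
    intro τ hτ w hw
    rw [hVmem] at hw ⊢
    obtain ⟨h1, h2, h3, h4⟩ := hw
    refine ⟨by rw [hsw, h1]; exact hs0 τ, fun k => ?_, ?_, ?_⟩
    · exact s59n_genKer_stable (DistribMulAction.toAddMonoidEnd Γℚ (JZero (M * q)) τ) (T k) (a k) p
        (fun x _ => (hTG k τ x).symm) h1 (h2 k)
    · rw [galois_smul_pic0_def]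
      exact s59n_kumKer_stable _ Winf (fun y => s59n_stab_inf (M * q) P Winf hWinf hτ y) p h3
    · rw [galois_smul_pic0_def]
      exact s59n_kumKer_stable _ Wzero (fun y => s59n_stab_zero M q hqM P Wzero hWzero hτ y) p h4
  have hVp : ∀ w ∈ V, p • w = 0 := fun w hw => ((hVmem w).mp hw).1
  -- a non-zero inertia-fixed class
  have hq2 : ¬ q ^ 2 ∣ M * q := by
    intro h
    rw [pow_two] at h
    exact hqM (Nat.dvd_of_mul_dvd_mul_right hq.out.pos h)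
  obtain ⟨w₀, hw₀V, hw₀ne, hw₀I⟩ := s59m_Ifix (M * q) hq.out (dvd_mul_left q M) hq2 P hP hp hp2 hpq V hVp
    (fun w hw τ hτ => hVD τ (s59n_inertia_le P hτ) w hw) ⟨z, (hVmem z).mpr ⟨hz, hzT, hzi, hzz⟩, hne⟩
  -- the inertia-fixed part
  let W : AddSubgroup (JZero (M * q)) :=
    { carrier := {w | w ∈ V ∧ ∀ τ ∈ P.inertiaSubgroupIn ℚ, τ • w = w}
      zero_mem' := ⟨V.zero_mem, fun τ _ => hs0 τ⟩
      add_mem' := fun {x y} hx hy => ⟨V.add_mem hx.1 hy.1, fun τ hτ => by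
        rw [hsadd, hx.2 τ hτ, hy.2 τ hτ]⟩
      neg_mem' := fun {x} hx => ⟨V.neg_mem hx.1, fun τ hτ => by rw [hsneg, hx.2 τ hτ]⟩ }
  have hWmem : ∀ w, w ∈ W ↔ w ∈ V ∧ ∀ τ ∈ P.inertiaSubgroupIn ℚ, τ • w = w := fun w => Iff.rfl
  -- the bigger `T_{k₀}`-stable subgroup
  let W' : AddSubgroup (JZero (M * q)) :=
    { carrier := {w | p • w = 0 ∧ w ∈ s59n_genKer (T k₀ - (a k₀ : AddMonoid.End (JZero (M * q)))) ∧
        ∀ τ ∈ P.inertiaSubgroupIn ℚ, τ • w = w}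
      zero_mem' := ⟨(s59n_tors (JZero (M * q)) p).zero_mem, AddSubgroup.zero_mem _, fun τ _ => hs0 τ⟩
      add_mem' := fun {x y} hx hy => ⟨(s59n_tors (JZero (M * q)) p).add_mem hx.1 hy.1,
        AddSubgroup.add_mem _ hx.2.1 hy.2.1, fun τ hτ => by rw [hsadd, hx.2.2 τ hτ, hy.2.2 τ hτ]⟩
      neg_mem' := fun {x} hx => ⟨(s59n_tors (JZero (M * q)) p).neg_mem hx.1, AddSubgroup.neg_mem _ hx.2.1,
        fun τ hτ => by rw [hsneg, hx.2.2 τ hτ]⟩ }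
  have hW'T : ∀ s ∈ W', T k₀ s ∈ W' := by
    rintro s ⟨h1, ⟨N, hN⟩, h3⟩
    refine ⟨by rw [← map_nsmul, h1, map_zero], ⟨N, ?_⟩, fun τ hτ => by rw [← hTG, h3 τ hτ]⟩
    have hc : ∀ y, (T k₀ - (a k₀ : AddMonoid.End (JZero (M * q)))) (T k₀ y) =
        T k₀ ((T k₀ - (a k₀ : AddMonoid.End (JZero (M * q)))) y) := by
      intro y
      rw [s59n_end_sub_apply, s59n_end_sub_apply, s59n_intCast_end_apply, s59n_intCast_end_apply,
        map_sub, map_zsmul]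
    rw [s59n_pow_comm_apply _ _ hc, hN, map_zero]
  have hfin : ∀ w ∈ W, s59n_Finite M q p hqM P w := by
    intro w hw
    obtain ⟨hwV, hwI⟩ := hw
    obtain ⟨h1, h2, -, -⟩ := (hVmem w).mp hwV
    obtain ⟨N, hN⟩ := h2 k₀
    obtain ⟨w', hw', e, -⟩ := s59n_surj_of_genEig (T k₀) (a k₀) ((((ℓ₀ : ℕ) + 1 : ℕ) : ℤ)) p ha₀ W'
      (fun s hs => hs.1) hW'T N w ⟨h1, ⟨N, hN⟩, hwI⟩ hN
    rw [hT₀ w' hw'.1] at e
    rw [← e]
    exact s59e3n_fin_elt_I M q hqM h5 h2M p hp0 hp6 P hP ℓ₀ hℓ₀ w' hw'.1 hw'.2.2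
  have hσD : σ ∈ P.decompositionSubgroup ℚ := hσ.mem_decompositionSubgroup
  have hWσ : ∀ w ∈ W, σ • w ∈ W := by
    intro w hw
    refine ⟨hVD σ hσD w hw.1, fun τ hτ => ?_⟩
    have h1 := hw.2 (σ⁻¹ * τ * σ) (s59n_inertia_conj' P hσD hτ)
    rw [mul_smul, mul_smul] at h1
    have h2 := congrArg (fun x => σ • x) h1
    simp only [smul_inv_smul] at h2
    exact h2
  have key := s59n_G2_down_fin M q hqM h5 p hp0 hqp P hP W (fun w hw => hVp w hw.1) hfin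
    (fun w hw => s59n_kerInf_of_kumKer M q p hqM P Winf hWinf ((hVmem w).mp hw.1).2.2.1)
    (fun w hw => s59n_kerZero_of_kumKer M q p hqM P Wzero hWzero ((hVmem w).mp hw.1).2.2.2)
    hσ hWσ tr dt hcop
    (fun w hw => hnil w (hVp w hw.1) ((hVmem w).mp hw.1).2.1)
  exact hw₀ne (key w₀ ⟨hw₀V, hw₀I⟩)

end Core

section Transport

variable (M q : ℕ) [NeZero M] [hq : Fact q.Prime] (hqM : ¬ q ∣ M) (h5 : 5 ≤ q) (h2M : 2 ∣ M)
  {p : ℕ} (hp : p.Prime) (hp2 : p ≠ 2) (hpq : p ≠ q)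
  (P : ValuationSubring Kb) (hP : P.LiesOverPrime q)

include h5 h2M hp hp2 hpq hP in
/-- **(G2) at the top of the tower, for a rational model `FQ` equal to the function field of `X₀(M q)`**: the Hecke family is any
Galois-equivariant family one member of which satisfies the Eichler–Shimura relation on `p`-torsion. -/
theorem s59e3n_top_transport (FQ : IntermediateField ℚ (LaurentSeries ℚ))
    (hFQ : FQ = modularFunctionFieldFull (M * q))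
    {κ : Type*} (T : κ → AddMonoid.End (Pic0 Kb ↥(laurentBaseChange Kb FQ))) (a : κ → ℤ) (k₀ : κ)
    (hTG : ∀ (k : κ) (σ : Γℚ) (w : Pic0 Kb ↥(laurentBaseChange Kb FQ)), T k (σ • w) = σ • T k w)
    (ℓ₀ : ℕ) (hℓ₀ : ℓ₀.Prime) (hℓ₀M : ¬ ℓ₀ ∣ M * q * p)
    (A₀ : ValuationSubring Kb) (hA₀ : A₀.LiesOverPrime ℓ₀) (σ₀ : Γℚ) (hσ₀ : A₀.IsFrobeniusAt σ₀ ℓ₀)
    (hES : ∀ w : Pic0 Kb ↥(laurentBaseChange Kb FQ), (p : ℤ) • w = 0 →
      σ₀ • σ₀ • w - T k₀ (σ₀ • w) + (ℓ₀ : ℤ) • w = 0)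
    (ha₀ : IsCoprime (((ℓ₀ + 1 : ℕ) : ℤ) - a k₀) (p : ℤ))
    (Winf Wzero : ValuationSubring ↥(laurentBaseChange Kb FQ))
    (hWinf : ∀ f : ↥(laurentBaseChange Kb FQ), f ∈ Winf ↔
      (f : LaurentSeries Kb) ∈ s37r_O P (IsLocalRing.residue ↥P))
    (hWzero : ∀ (f : ↥(laurentBaseChange Kb FQ))
      (hf : (f : LaurentSeries Kb) ∈ modularFunctionFieldBar (M * q)), f ∈ Wzero ↔
      ((s37w_al M q hq.out hqM ⟨(f : LaurentSeries Kb), hf⟩ : ffi_F (M * q)) : LaurentSeries Kb) ∈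
        s37r_O P (IsLocalRing.residue ↥P))
    {φ : Γℚ} (hφ : P.IsFrobeniusAt φ q) (tr dt : ℤ)
    (hcop : IsCoprime (((q : ℤ) ^ 2 + dt) ^ 2 - tr ^ 2 * (q : ℤ) ^ 2) (p : ℤ))
    (hnil : ∀ w : Pic0 Kb ↥(laurentBaseChange Kb FQ), p • w = 0 →
      (∀ k : κ, ∃ N : ℕ, ((T k - (a k : AddMonoid.End (Pic0 Kb ↥(laurentBaseChange Kb FQ)))) ^ N) w = 0) →
      ∃ N : ℕ, ((s59n_quadE (s59n_sm (Pic0 Kb ↥(laurentBaseChange Kb FQ)) φ) tr dt) ^ N) w = 0)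
    (z : Pic0 Kb ↥(laurentBaseChange Kb FQ)) (hz : p • z = 0)
    (hzT : ∀ k : κ, ∃ N : ℕ,
      ((T k - (a k : AddMonoid.End (Pic0 Kb ↥(laurentBaseChange Kb FQ)))) ^ N) z = 0)
    (hzi : z ∈ s59k_KumKer (K := Kb) Winf p) (hzz : z ∈ s59k_KumKer (K := Kb) Wzero p) : z = 0 := by
  subst hFQ
  have hℓ₀' : ¬ ((⟨ℓ₀, hℓ₀⟩ : Nat.Primes) : ℕ) ∣ M * q := fun h => hℓ₀M (Dvd.dvd.mul_right h p)
  refine s59e3n_top_core M q hqM h5 h2M hp hp2 hpq P hP ⟨ℓ₀, hℓ₀⟩ hℓ₀' T a k₀ hTG ?_ ha₀ Winf Wzero hWinf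
    (fun f => hWzero f f.2) hφ tr dt hcop ?_ z hz hzT hzi hzz
  · -- `T k₀` is the Hecke operator on `p`-torsion
    intro w hw
    have hsw : ∀ (g : Γℚ) (x : JZero (M * q)), (p : ℤ) • (g • x) = g • ((p : ℤ) • x) :=
      fun g x => (map_zsmul (DistribSMul.toAddMonoidHom (JZero (M * q)) g) (p : ℤ) x).symm
    have hy : (p : ℤ) • (σ₀⁻¹ • w) = 0 := by
      rw [hsw, natCast_zsmul, hw]
      exact map_zero (DistribSMul.toAddMonoidHom (JZero (M * q)) σ₀⁻¹)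
    have h1 := hES (σ₀⁻¹ • w) hy
    have h2 := s30a_pt_frobQuad (M * q) p ⟨ℓ₀, hℓ₀⟩ hℓ₀M A₀ hA₀ σ₀ hσ₀ 1 (σ₀⁻¹ • w)
      (by rw [pow_one]; exact hy)
    rw [smul_inv_smul] at h1 h2
    have h3 : T k₀ w = σ₀ • w + (ℓ₀ : ℤ) • (σ₀⁻¹ • w) := by
      rw [sub_add_eq_add_sub, sub_eq_zero] at h1
      exact h1.symm
    have h4 : heckeOperatorBar (M * q) ⟨ℓ₀, hℓ₀⟩ w = σ₀ • w + (ℓ₀ : ℤ) • (σ₀⁻¹ • w) := by
      rw [sub_add_eq_add_sub, sub_eq_zero] at h2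
      exact h2.symm
    rw [h3, h4]
  · intro w hw hwT
    obtain ⟨N, hN⟩ := hnil w hw hwT
    exact ⟨N, (s59n_quadE_pow_apply φ tr dt N w).symm.trans hN⟩

end Transport

section Final

variable (M q : ℕ) [NeZero M] [NeZero q] [hq : Fact q.Prime] (hqM : ¬ q ∣ M) (h5 : 5 ≤ q) (h2M : 2 ∣ M)


include h5 h2M in
/-- **(G2)↑, THE FINAL ASSEMBLY** (level `M q`, `q ∥ M q`, `P ∣ q`, `φ` a Frobenius at `P`): a class of the start subgroup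
(`p`-torsion, generalised eigenvector of the Hecke family, in the Kummer kernels of all the diamond translates of the two valuation
subrings) vanishes. -/
theorem s59e3n_G2_up_core (hM : 1 < M * q) {H : Subgroup (ZMod (M * q))ˣ}
    (hneg : (-1 : (ZMod (M * q))ˣ) ∈ H) (hK : s59m_KDiv (M * q) H) {p : ℕ} (hp : p.Prime)
    (hp2 : p ≠ 2) (hpq : p ≠ q) (hpgrp : ∀ g : (ZMod (M * q))ˣ, ∃ n : ℕ, g ^ (p ^ n) ∈ H)
    (P : ValuationSubring Kb) (hP : P.LiesOverPrime q) (φ : s48k_G) (hφ : P.IsFrobeniusAt φ q)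
    {κ : Type*} (ℓ₀ : κ → ℕ) [∀ k, NeZero (ℓ₀ k)] (pu : κ → (ZMod (M * q))ˣ) (σ₀ : κ → s48k_G)
    (hFQ : ∀ H' : Subgroup (ZMod (M * q))ˣ, H ≤ H' → ∀ (k : κ) (x : s48k_JH (M * q) H'),
      (p : ℤ) • x = 0 → σ₀ k • σ₀ k • x - s48k_TpJ (M * q) H' (ℓ₀ k) (pu k) (σ₀ k • x) +
        (ℓ₀ k : ℤ) • s48k_diamondJ (M * q) H' (pu k) x = 0)
    (hTG : ∀ H' : Subgroup (ZMod (M * q))ˣ, H ≤ H' → ∀ (k : κ) (σ : s48k_G) (x : s48k_JH (M * q) H'),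
      σ • s48k_TpJ (M * q) H' (ℓ₀ k) (pu k) x = s48k_TpJ (M * q) H' (ℓ₀ k) (pu k) (σ • x))
    (a : κ → ℤ) (k₀ : κ) (hℓk₀ : (ℓ₀ k₀).Prime) (hℓk₀M : ¬ ℓ₀ k₀ ∣ M * q * p)
    (A₀ : ValuationSubring Kb) (hA₀ : A₀.LiesOverPrime (ℓ₀ k₀))
    (hσ₀ : A₀.IsFrobeniusAt (σ₀ k₀) (ℓ₀ k₀))
    (ha₀ : IsCoprime (((ℓ₀ k₀ + 1 : ℕ) : ℤ) - a k₀) (p : ℤ))
    (tr dt : ℤ) (hcop : IsCoprime (((q : ℤ) ^ 2 + dt) ^ 2 - tr ^ 2 * (q : ℤ) ^ 2) (p : ℤ))
    (hcop1 : IsCoprime ((q : ℤ) ^ 2 - tr * (q : ℤ) + dt) (p : ℤ))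
    (Winf Wzero : ValuationSubring ↥(s48k_FH (M * q) H)) (δφ : (ZMod (M * q))ˣ)
    (hW : s59n_WHyp (arithmeticGalois (s48k_FHQ (M * q) H) φ) (s48k_diamondAut (M * q) H δφ) p
      Winf Wzero)
    (hWinf : ∀ f : ↥(s48k_FH (M * q) H),
      (f : LaurentSeries Kb) ∈ modularFunctionFieldBar (M * q) →
        (f ∈ Winf ↔ (f : LaurentSeries Kb) ∈ s37r_O P (IsLocalRing.residue ↥P)))
    (hWzero : ∀ (f : ↥(s48k_FH (M * q) H))
      (hf : (f : LaurentSeries Kb) ∈ modularFunctionFieldBar (M * q)), f ∈ Wzero ↔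
        ((s37w_al M q hq.out hqM ⟨(f : LaurentSeries Kb), hf⟩ : ffi_F (M * q)) : LaurentSeries Kb) ∈
          s37r_O P (IsLocalRing.residue ↥P))
    (hnil : ∀ H' : Subgroup (ZMod (M * q))ˣ, H ≤ H' → ∀ z : s48k_JH (M * q) H', p • z = 0 →
      (∀ k : κ, ∃ N : ℕ, ((s59n_TE (M * q) H' (ℓ₀ k) (pu k) -
        (a k : AddMonoid.End (s48k_JH (M * q) H'))) ^ N) z = 0) →
      ∃ N : ℕ, ((s59n_quadE (s59n_sm (s48k_JH (M * q) H') φ) tr dt) ^ N) z = 0) :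
    ∀ z : s48k_JH (M * q) H, z ∈ s59n_Zstart H ℓ₀ pu a p Winf Wzero → z = 0 := by
  intro z hz
  by_contra hne
  have hp2 : p ≠ 2 := by omega
  have hqp : q ≠ p := fun h => hpq h.symm
  -- `T` commutes with the diamonds on `p`-torsion, at every level
  have hTD : ∀ H' : Subgroup (ZMod (M * q))ˣ, H ≤ H' → ∀ (k : κ) (d : (ZMod (M * q))ˣ)
      (x : s48k_JH (M * q) H'), p • x = 0 →
      s48k_diamondJ (M * q) H' d (s48k_TpJ (M * q) H' (ℓ₀ k) (pu k) x) =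
        s48k_TpJ (M * q) H' (ℓ₀ k) (pu k) (s48k_diamondJ (M * q) H' d x) :=
    fun H' hHH' k d x hx => s59n_TD_of_frobQuad hM (hHH' hneg) (ℓ₀ k) (pu k) (σ₀ k) p
      (hFQ H' hHH' k) d x hx
  -- (nil), in the form of the tower
  have hnil' : ∀ H' : Subgroup (ZMod (M * q))ˣ, H ≤ H' → ∀ z : s48k_JH (M * q) H', p • z = 0 →
      (∀ k : κ, ∃ N : ℕ, ((s59n_TE (M * q) H' (ℓ₀ k) (pu k) -
        (a k : AddMonoid.End (s48k_JH (M * q) H'))) ^ N) z = 0) →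
      ∃ N : ℕ, ((s59n_quadE (s59n_saE (arithmeticGalois (s48k_FHQ (M * q) H') φ)) tr dt) ^ N) z = 0 :=
    fun H' hHH' z hz hzT => hnil H' hHH' z hz hzT
  -- the start
  obtain ⟨z', hz'ne, hY⟩ := s59n_start hM hneg hp hp2 hpgrp φ ℓ₀ pu a tr dt (hTD H le_rfl)
    (hnil' H le_rfl) Winf Wzero z hz hne
  -- the roots of unity
  have hroots : ∀ ζ : Kb, ζ ^ p = 1 → φ ζ = ζ ^ q := fun ζ hζ =>
    s59m_frob_root hq.out hp hqp P hP φ hφ hζ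
  -- the top
  have hnegT : (-1 : (ZMod (M * q))ˣ) ∈ (⊤ : Subgroup (ZMod (M * q))ˣ) := Subgroup.mem_top _
  have htop : ∀ w : s48k_JH (M * q) (⊤ : Subgroup (ZMod (M * q))ˣ),
      s59n_Ycon H le_top φ ℓ₀ pu a p tr dt Winf Wzero w → w = 0 := by
    intro w hw
    obtain ⟨h1, -, h3, -, h5', h6⟩ := hw
    have hFHtop := s48wg_FH_top (M := M * q) hM
    refine s59e3n_top_transport M q hqM h5 h2M hp hp2 hpq P hP (s48k_FHQ (M * q) ⊤)
      (s48wg_FHQ_top hM) (fun k => s59n_TE (M * q) ⊤ (ℓ₀ k) (pu k)) a k₀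
      (fun k σ x => (hTG ⊤ le_top k σ x).symm) (ℓ₀ k₀) hℓk₀ hℓk₀M A₀ hA₀ (σ₀ k₀) hσ₀ ?_ ha₀
      (s59n_Wres le_top Winf) (s59n_Wres le_top Wzero) ?_ ?_ hφ tr dt hcop (hnil ⊤ le_top) w h1 h3
      h5' h6
    · intro x hx
      have := hFQ ⊤ le_top k₀ x hx
      rw [s59n_diamondJ_top hM] at this
      exact this
    · intro f
      exact s59n_Wres_spec_inf hM P Winf hWinf f
    · intro f hf
      exact s59n_Wres_spec_zero M q hqM P Wzero hWzero f hf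
  -- the tower
  exact hz'ne (s59n_tower hM hneg hK hp hpgrp φ q hroots ℓ₀ pu σ₀ hFQ
    (fun H' hHH' k x => hTG H' hHH' k φ x) hTD a tr dt hcop1 Winf Wzero δφ hW htop H le_rfl z' hY)

end Final

end Fermat.Agent.Lib.S59
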