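import Fermat.Agent.Lib.S59.NFinal
import Fermat.Agent.Lib.S59.KZero
import Fermat.Agent.Lib.S59.KExt

/-
NWHyp (helper7): SUPPLY of the three valuation-subring binders of s59n_G2_up_core (hW : s59n_WHyp, hWinf, hWzero) for
Winf := s59k_Winf P hP (M q) H (the concrete Gauss ring at the cusp infinity) and ANY extension Wzero to F_H of the explicit
Gauss ring s59k_Vzero at the cusp 0 of the function field of level M q.

* s59n_diamond_fixed : the fixed field of all the diamonds on F_H' is F_top (p-primary quotient; prime-layer tower);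
* s59n_ext_conj_diamond : the diamonds act transitively on the extensions to F_H of a valuation subring of the bottom field
  (helper1's s59k_ext_conj);
* s59n_wtheta_val_natCast : a prime different from the residue characteristic is a unit of a Gauss ring;
* s59n_stab_inf_FH : the concrete Winf is stable under the decomposition group;
* s59n_WHyp_supply, s59n_hWinf_supply, s59n_hWzero_supply.
-/

set_option autoImplicit false
set_option linter.style.haveILetI false
set_option linter.unusedSectionVars false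

noncomputable section

namespace Fermat.Agent.Lib.S59

open AlgebraicCurve ModularCurve IntermediateField HahnSeries Fermat.Agent.Lib.FF Fermat.Agent.Lib.S33
  Fermat.Agent.Lib.S37 Fermat.Agent.Lib.S48 Fermat.Agent.Lib.S29 Fermat.Agent.Lib.Frey
  Fermat.Agent.Lib.S18 Fermat.Agent.Lib.S34
open scoped Pointwise

local notation "Qbar" => AlgebraicClosure ℚ

attribute [local instance] s29a_algebraC

/-! ### The fixed field of the diamonds -/

section Fixed

variable {N : ℕ} [NeZero N]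

/-- **the fixed field of all the diamonds on `F_{H'}` is `F_⊤`** (`p`-primary quotient: induction along prime layers). -/
theorem s59n_diamond_fixed (hN : 1 < N) {H : Subgroup (ZMod N)ˣ} (hneg : (-1 : (ZMod N)ˣ) ∈ H)
    {p : ℕ} (hp : p.Prime) (hpgrp : ∀ g : (ZMod N)ˣ, ∃ n : ℕ, g ^ (p ^ n) ∈ H) :
    ∀ (H' : Subgroup (ZMod N)ˣ) (_ : H ≤ H') (y : ↥(s48k_FH N H')),
      (∀ d : (ZMod N)ˣ, s48k_diamondAut N H' d y = y) →
      ∃ x : ↥(s48k_FH N (⊤ : Subgroup (ZMod N)ˣ)), s59m_incl (le_top : H' ≤ ⊤) x = y := by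
  intro H'
  induction H' using WellFoundedGT.induction with
  | ind H' ih =>
    intro hHH' y hy
    by_cases hH' : H' = ⊤
    · subst hH'
      exact ⟨y, Subtype.ext (s59m_incl_coe le_top y)⟩
    · obtain ⟨g, hg, hgp⟩ := s59n_exists_step H H' hHH' p hpgrp hH'
      obtain ⟨χ, hLay⟩ := s48wg_exists_layer H' g p hp hg hgp
      have hlt : H' < H' ⊔ Subgroup.zpowers g := by
        refine lt_of_le_of_ne le_sup_left fun heq => hg ?_
        rw [heq]
        exact (le_sup_right : Subgroup.zpowers g ≤ H' ⊔ Subgroup.zpowers g) (Subgroup.mem_zpowers g)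
      obtain ⟨x'', hx''⟩ := s59m_layer_fixed hN (hHH' hneg) hLay y (hy g)
      have hfix'' : ∀ d : (ZMod N)ˣ, s48k_diamondAut N _ d x'' = x'' := by
        intro d
        apply (s59m_incl hLay.le).toRingHom.injective
        show s59m_incl hLay.le (s48k_diamondAut N _ d x'') = s59m_incl hLay.le x''
        rw [← s59m_diamondAut_incl hN hLay.le (hHH' hneg) d x'', hx'']
        exact hy d
      obtain ⟨x, hx⟩ := ih _ hlt (hHH'.trans hLay.le) x'' hfix''
      refine ⟨x, ?_⟩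
      apply Subtype.ext
      rw [s59m_incl_coe, ← hx'', s59m_incl_coe, ← hx, s59m_incl_coe]

/-- the diamonds fix `F̄₀(N)`. -/
theorem s59n_diamondAut_iotaH (hN : 1 < N) {H : Subgroup (ZMod N)ˣ} (hneg : (-1 : (ZMod N)ˣ) ∈ H)
    (d : (ZMod N)ˣ) (x : ffi_F N) :
    s48k_diamondAut N H d (s59k_iotaH N H x) = s59k_iotaH N H x := by
  have hx : (x : LaurentSeries Qbar) ∈ s48k_FH N (⊤ : Subgroup (ZMod N)ˣ) := by
    rw [s48wg_FH_top hN]
    exact x.2
  have e : s59k_iotaH N H x = s59m_incl (le_top : H ≤ ⊤) ⟨(x : LaurentSeries Qbar), hx⟩ :=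
    Subtype.ext (by rw [s59k_coe_iotaH, s59m_incl_coe])
  rw [e]
  exact s59m_diamondAut_fix hN le_top hneg (Subgroup.mem_top d) _

/-- **the diamonds act transitively on the extensions to `F_H` of a valuation subring of `F̄₀(N)`.** -/
theorem s59n_ext_conj_diamond (hN : 1 < N) {H : Subgroup (ZMod N)ˣ} (hneg : (-1 : (ZMod N)ˣ) ∈ H)
    {p : ℕ} (hp : p.Prime) (hpgrp : ∀ g : (ZMod N)ˣ, ∃ n : ℕ, g ^ (p ^ n) ∈ H)
    {V : ValuationSubring (ffi_F N)} {W W' : ValuationSubring ↥(s48k_FH N H)}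
    (hW : W.comap (s59k_iotaH N H) = V) (hW' : W'.comap (s59k_iotaH N H) = V) :
    ∃ d : (ZMod N)ˣ, ∀ y : ↥(s48k_FH N H),
      y ∈ W' ↔ (SemilinearAut.ofAlgAut (s48k_diamondAut N H d))⁻¹ • y ∈ W := by
  letI alg : Algebra (ffi_F N) ↥(s48k_FH N H) := (s59k_iotaH N H).toAlgebra
  letI act : MulSemiringAction (ZMod N)ˣ ↥(s48k_FH N H) :=
    MulSemiringAction.compHom _ (s59n_diaHom hN hneg)
  have hact : ∀ (d : (ZMod N)ˣ) (y : ↥(s48k_FH N H)), d • y = s48k_diamondAut N H d y :=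
    fun d y => rfl
  haveI : SMulCommClass (ZMod N)ˣ (ffi_F N) ↥(s48k_FH N H) := by
    refine ⟨fun d x y => ?_⟩
    rw [Algebra.smul_def, Algebra.smul_def, smul_mul', hact]
    congr 1
    exact s59n_diamondAut_iotaH hN hneg d x
  haveI : Module.Finite (ffi_F N) ↥(s48k_FH N H) := by
    have h1 := s48wg_finrank_FH H hN hneg
    have h2 := s48wg_card_XH_pos H hneg
    rw [← h1] at h2
    exact Module.finite_of_finrank_pos h2
  haveI : Algebra.IsAlgebraic (ffi_F N) ↥(s48k_FH N H) := Algebra.IsAlgebraic.of_finite _ _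
  have hfix : ∀ x : ↥(s48k_FH N H), (∀ g : (ZMod N)ˣ, g • x = x) →
      ∃ x₀ : ffi_F N, algebraMap (ffi_F N) ↥(s48k_FH N H) x₀ = x := by
    intro x hx
    obtain ⟨x₀, hx₀⟩ := s59n_diamond_fixed hN hneg hp hpgrp H le_rfl x hx
    have h0 : (x₀ : LaurentSeries Qbar) ∈ modularFunctionFieldBar N := by
      rw [← s48wg_FH_top hN]
      exact x₀.2
    refine ⟨⟨(x₀ : LaurentSeries Qbar), h0⟩, ?_⟩
    show s59k_iotaH N H _ = x
    rw [← hx₀]
    exact Subtype.ext (by rw [s59k_coe_iotaH, s59m_incl_coe])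
  obtain ⟨g, hg⟩ := s59k_ext_conj (G := (ZMod N)ˣ) (F₀ := ffi_F N) (F := ↥(s48k_FH N H)) (V := V)
    hfix (W := W) (W' := W') hW hW'
  refine ⟨g, fun y => ?_⟩
  have e : g⁻¹ • y = (SemilinearAut.ofAlgAut (s48k_diamondAut N H g))⁻¹ • y := by
    show s59n_diaHom hN hneg g⁻¹ • y = _
    rw [map_inv, s59n_diaHom_apply]
  rw [hg y, e]

/-- **(hnorm) for an extension to `F_H` of a valuation subring of `F̄₀(N)`** (helper1's `s59k_ext_hnorm`). -/
theorem s59n_ext_hnorm_FH (hN : 1 < N) {H : Subgroup (ZMod N)ˣ} (hneg : (-1 : (ZMod N)ˣ) ∈ H)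
    {V : ValuationSubring (ffi_F N)} {W : ValuationSubring ↥(s48k_FH N H)}
    (hW : W.comap (s59k_iotaH N H) = V)
    (hnorm : ∀ f : ffi_F N, f ≠ 0 → ∃ c : Qbar, c ≠ 0 ∧
      V.valuation (f * (algebraMap Qbar (ffi_F N) c)⁻¹) = 1)
    (f : ↥(s48k_FH N H)) (hf : f ≠ 0) :
    ∃ c : Qbar, c ≠ 0 ∧ W.valuation (f * (algebraMap Qbar ↥(s48k_FH N H) c)⁻¹) = 1 := by
  letI alg : Algebra (ffi_F N) ↥(s48k_FH N H) := (s59k_iotaH N H).toAlgebra
  haveI : IsScalarTower Qbar (ffi_F N) ↥(s48k_FH N H) :=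
    IsScalarTower.of_algebraMap_eq fun c => Subtype.ext rfl
  haveI : Module.Finite (ffi_F N) ↥(s48k_FH N H) := by
    have h1 := s48wg_finrank_FH H hN hneg
    have h2 := s48wg_card_XH_pos H hneg
    rw [← h1] at h2
    exact Module.finite_of_finrank_pos h2
  haveI : Algebra.IsAlgebraic (ffi_F N) ↥(s48k_FH N H) := Algebra.IsAlgebraic.of_finite _ _
  exact s59k_ext_hnorm (K := Qbar) (F₀ := ffi_F N) (F := ↥(s48k_FH N H)) (V := V) (W := W) hW
    (fun c m hm => IsAlgClosed.exists_pow_nat_eq c hm) hnorm f hf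

end Fixed

/-! ### Units of a Gauss ring -/

section Unit

variable {L : Type*} [Field L] {A : ValuationSubring L} {F : Type*} [Field F] [Algebra L F]
  {θ : F →+* LaurentSeries L}

/-- a natural number prime to the residue characteristic is a unit of the Gauss ring. -/
theorem s59n_wtheta_val_natCast (hval : s59k_ThetaVal A θ) (p : ℕ)
    (hpk : ((p : ℕ) : IsLocalRing.ResidueField ↥A) ≠ 0) :
    (s59k_Wtheta hval).valuation ((p : ℕ) : F) = 1 := by
  have hf : ((p : ℕ) : F) ∈ s59k_Wtheta hval := natCast_mem _ p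
  refine s59k_wtheta_val_eq_one hval _ hf ?_
  have e : (⟨((p : ℕ) : F), hf⟩ : ↥(s59k_Wtheta hval)) = ((p : ℕ) : ↥(s59k_Wtheta hval)) :=
    Subtype.ext rfl
  rw [e, map_natCast]
  intro h0
  apply hpk
  have h1 : (HahnSeries.C ((p : ℕ) : IsLocalRing.ResidueField ↥A) :
      LaurentSeries (IsLocalRing.ResidueField ↥A)) = 0 := by
    rw [← h0]
    exact map_natCast (HahnSeries.C : IsLocalRing.ResidueField ↥A →+* _) p
  exact HahnSeries.C_injective (by rw [h1, map_zero])

end Unit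

/-! ### The supply -/

section Supply

variable (M q : ℕ) [NeZero M] [NeZero q] [hq : Fact q.Prime] (hqM : ¬ q ∣ M)
  (P : ValuationSubring Qbar) (hP : P.LiesOverPrime q)

/-- the concrete Gauss ring at `∞` of `F_H` is stable under the decomposition group. -/
theorem s59n_stab_inf_FH (N : ℕ) [NeZero N] (H : Subgroup (ZMod N)ˣ) {τ : s48k_G}
    (hτ : τ ∈ P.decompositionSubgroup ℚ) (y : ↥(s48k_FH N H)) :
    arithmeticGalois (s48k_FHQ N H) τ • y ∈ s59k_Winf P hP N H ↔ y ∈ s59k_Winf P hP N H := by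
  have key : ∀ (τ : s48k_G), τ ∈ P.decompositionSubgroup ℚ → ∀ y : ↥(s48k_FH N H),
      y ∈ s59k_Winf P hP N H → arithmeticGalois (s48k_FHQ N H) τ • y ∈ s59k_Winf P hP N H := by
    intro τ hτ y hy
    rw [s59k_mem_Winf] at hy ⊢
    rw [coe_arithmeticGalois_smul]
    exact s59n_coeffMap_mem_O P τ.toRingEquiv (fun a ha => ford_decomposition_mem P τ hτ a ha) hy
  constructor
  · intro h
    have := key τ⁻¹ ((P.decompositionSubgroup ℚ).inv_mem hτ) _ h
    rwa [map_inv, inv_smul_smul] at this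
  · exact key τ hτ y

include hP in
/-- `p ≠ q` is non-zero in the residue field of `P ∣ q`. -/
theorem s59n_natCast_residue_ne_zero {p : ℕ} (hp : p.Prime) (hpq : p ≠ q) :
    ((p : ℕ) : IsLocalRing.ResidueField ↥P) ≠ 0 := by
  haveI : CharP (IsLocalRing.ResidueField ↥P) q := s18x_charP_residueField P hq.out hP
  intro h0
  have h1 := (CharP.cast_eq_zero_iff (IsLocalRing.ResidueField ↥P) q p).mp h0
  exact hpq ((Nat.prime_dvd_prime_iff_eq hq.out hp).mp h1).symm

/-- **SUPPLY of `hW`**: for the concrete `W_∞` and any extension `W_0` of the explicit `V_0`, a Frobenius (or any element of the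
decomposition group) `φ` at `P` satisfies `s59n_WHyp` for a suitable diamond `δ_φ`. -/
theorem s59n_WHyp_supply (hN : 1 < M * q) {H : Subgroup (ZMod (M * q))ˣ}
    (hneg : (-1 : (ZMod (M * q))ˣ) ∈ H) {p : ℕ} (hp : p.Prime) (hpq : p ≠ q)
    (hpgrp : ∀ g : (ZMod (M * q))ˣ, ∃ n : ℕ, g ^ (p ^ n) ∈ H)
    (φ : s48k_G) (hφ : φ ∈ P.decompositionSubgroup ℚ)
    (Wzero : ValuationSubring ↥(s48k_FH (M * q) H))
    (hWz : Wzero.comap (s59k_iotaH (M * q) H) = s59k_Vzero P hP M q hq.out hqM) :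
    ∃ δφ : (ZMod (M * q))ˣ,
      s59n_WHyp (arithmeticGalois (s48k_FHQ (M * q) H) φ) (s48k_diamondAut (M * q) H δφ) p
        (s59k_Winf P hP (M * q) H) Wzero := by
  set Φ := arithmeticGalois (s48k_FHQ (M * q) H) φ with hΦ
  have hpk := s59n_natCast_residue_ne_zero q P hP hp hpq
  -- `ι` intertwines the Galois actions
  have hι : ∀ (τ : s48k_G) (x : ffi_F (M * q)),
      arithmeticGalois (s48k_FHQ (M * q) H) τ • s59k_iotaH (M * q) H x =
        s59k_iotaH (M * q) H (arithmeticGalois (modularFunctionFieldFull (M * q)) τ • x) := by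
    intro τ x
    apply Subtype.ext
    rw [coe_arithmeticGalois_smul, s59k_coe_iotaH, s59k_coe_iotaH, coe_arithmeticGalois_smul]
  -- `Φ • W_0` is again an extension of `V_0`
  set W' : ValuationSubring ↥(s48k_FH (M * q) H) := Φ • Wzero with hW'def
  have hW'mem : ∀ y, y ∈ W' ↔ Φ⁻¹ • y ∈ Wzero := fun y =>
    ValuationSubring.mem_pointwise_smul_iff_inv_smul_mem
  have hW' : W'.comap (s59k_iotaH (M * q) H) = s59k_Vzero P hP M q hq.out hqM := by
    ext x
    rw [ValuationSubring.mem_comap, hW'mem, hΦ, ← map_inv, hι, ← ValuationSubring.mem_comap, hWz]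
    exact s59n_stab_zero M q hqM P _ (fun f => s59k_mem_Vzero P hP M q hq.out hqM f)
      ((P.decompositionSubgroup ℚ).inv_mem hφ) x
  obtain ⟨δφ, hδ⟩ := s59n_ext_conj_diamond hN hneg hp hpgrp hWz hW'
  refine ⟨δφ, ?_, ?_, ?_, ?_, ?_, ?_⟩
  · -- norm_inf
    exact s59k_theta_hnorm (s59k_Winf_val P hP (M * q) H) (s59k_Winf_scale P hP (M * q) H)
  · -- norm_zero
    exact s59n_ext_hnorm_FH hN hneg hWz
      (s59k_theta_hnorm (s59k_Vzero_val P hP M q hq.out hqM) (s59k_Vzero_scale P hP M q hq.out hqM))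
  · -- p_inf
    exact s59n_wtheta_val_natCast (s59k_Winf_val P hP (M * q) H) p hpk
  · -- p_zero
    letI alg : Algebra (ffi_F (M * q)) ↥(s48k_FH (M * q) H) := (s59k_iotaH (M * q) H).toAlgebra
    have h1 : (s59k_Vzero P hP M q hq.out hqM).valuation ((p : ℕ) : ffi_F (M * q)) = 1 :=
      s59n_wtheta_val_natCast (s59k_Vzero_val P hP M q hq.out hqM) p hpk
    have h2 := (s59k_ext_val_eq_one (F₀ := ffi_F (M * q)) (F := ↥(s48k_FH (M * q) H)) hWz
      ((p : ℕ) : ffi_F (M * q))).mpr h1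
    rwa [map_natCast] at h2
  · -- stab_inf
    exact fun y => s59n_stab_inf_FH q P hP (M * q) H hφ y
  · -- stab_zero
    intro y
    have h1 : Φ • y ∈ W' ↔
        (SemilinearAut.ofAlgAut (s48k_diamondAut (M * q) H δφ))⁻¹ • (Φ • y) ∈ Wzero := hδ (Φ • y)
    have h2 : Φ • y ∈ W' ↔ y ∈ Wzero := by
      rw [hW'mem, inv_smul_smul]
    have h3 : ((SemilinearAut.ofAlgAut (s48k_diamondAut (M * q) H δφ))⁻¹ * Φ) • y =
        (SemilinearAut.ofAlgAut (s48k_diamondAut (M * q) H δφ))⁻¹ • (Φ • y) := mul_smul _ _ _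
    rw [h3]
    exact h1.symm.trans h2

/-- **SUPPLY of `hWinf`.** -/
theorem s59n_hWinf_supply (H : Subgroup (ZMod (M * q))ˣ) (f : ↥(s48k_FH (M * q) H)) :
    f ∈ s59k_Winf P hP (M * q) H ↔
      (f : LaurentSeries Qbar) ∈ s37r_O P (IsLocalRing.residue ↥P) := Iff.rfl

/-- **SUPPLY of `hWzero`.** -/
theorem s59n_hWzero_supply {H : Subgroup (ZMod (M * q))ˣ}
    (Wzero : ValuationSubring ↥(s48k_FH (M * q) H))
    (hWz : Wzero.comap (s59k_iotaH (M * q) H) = s59k_Vzero P hP M q hq.out hqM)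
    (f : ↥(s48k_FH (M * q) H)) (hf : (f : LaurentSeries Qbar) ∈ modularFunctionFieldBar (M * q)) :
    f ∈ Wzero ↔
      ((s37w_al M q hq.out hqM ⟨(f : LaurentSeries Qbar), hf⟩ : ffi_F (M * q)) : LaurentSeries Qbar) ∈
        s37r_O P (IsLocalRing.residue ↥P) := by
  have e : f = s59k_iotaH (M * q) H ⟨(f : LaurentSeries Qbar), hf⟩ :=
    Subtype.ext (by rw [s59k_coe_iotaH])
  rw [← s59k_mem_Vzero P hP M q hq.out hqM, ← hWz, ValuationSubring.mem_comap]
  exact Iff.of_eq (congrArg (· ∈ Wzero) e)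

end Supply

end Fermat.Agent.Lib.S59
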