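import Fermat.Agent.Lib.S59.MG2Up
import Fermat.Agent.Lib.S59.NWHyp

/-
NG2Fin (helper7): C7 = (G2) upstairs, FINAL FORM for the consumer (helper1's K-END).  helper9's wrapper s59m_G2_up with the three
valuation-subring binders (hW, hWinf, hWzero) discharged by NWHyp: Winf and Wzero are ANY valuation subrings of F_H lying over
the explicit Gauss rings s59k_Vinf (cusp infinity) and s59k_Vzero (cusp 0) of the function field of level M q.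
-/

set_option autoImplicit false
set_option linter.unusedSectionVars false
set_option linter.style.haveILetI false
set_option synthInstance.maxHeartbeats 400000

noncomputable section

namespace Fermat.Agent.Lib.S59

open ModularCurve AlgebraicCurve HahnSeries IntermediateField Fermat.Agent.Lib.FF Fermat.Agent.Lib.S18
  Fermat.Agent.Lib.S34 Fermat.Agent.Lib.S37 Fermat.Agent.Lib.S33 Fermat.Agent.Lib.S35
  Fermat.Agent.Lib.S44 Fermat.Agent.Lib.Frey Fermat.Agent.Lib.S30 Fermat.Agent.Lib.S29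
  Fermat.Agent.Lib.S48
open scoped Pointwise

local notation "Kb" => AlgebraicClosure ℚ

attribute [local instance] s29a_algebraC

variable (M q : ℕ) [NeZero M] [NeZero q] [hq : Fact q.Prime] (hqM : ¬ q ∣ M) (h5 : 5 ≤ q)

include h5 in
/-- **(G2)↑, FINAL FORM**: `W_∞`, `W_0` ANY extensions to `F_H` of the explicit Gauss rings `V_∞`, `V_0` of `F̄₀(M q)` at `P ∣ q`. -/
theorem s59n_G2_up_final {H : Subgroup (ZMod (M * q))ˣ} (hL : s59b_Lvl (M * q) H) {p : ℕ}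
    (hp : p.Prime) (hp5 : 5 ≤ p) (hpq : p ≠ q)
    (hpgrp : ∀ g : (ZMod (M * q))ˣ, ∃ n : ℕ, g ^ (p ^ n) ∈ H)
    (P : ValuationSubring Kb) (hP : P.LiesOverPrime q) (φ : s48k_G) (hφ : P.IsFrobeniusAt φ q)
    (S : Set ℕ) (hS : S.Finite) (a₀ : ℕ → ℤ)
    (ℓ₁ : ℕ) (hℓ₁ : ℓ₁.Prime) (hℓ₁S : ℓ₁ ∉ S) (hℓ₁M : ¬ ℓ₁ ∣ M * q * p)
    (ha₁ : IsCoprime (((ℓ₁ + 1 : ℕ) : ℤ) - a₀ ℓ₁) (p : ℤ))
    {T : Type} [Group T] (t : s48k_G →* T) (hfin : GaloisFactorsThroughFiniteLevel t)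
    (t₀ d₀ : ℤ)
    (hρ : ∀ ℓ : ℕ, ℓ.Prime → ℓ ∉ S → ¬ ℓ ∣ M * q * p →
      ∀ A : ValuationSubring Kb, A.LiesOverPrime ℓ → ∀ σ : s48k_G, A.IsFrobeniusAt σ ℓ →
        (∃ g : s48k_G, t σ = t (g * φ * g⁻¹)) →
          (p : ℤ) ∣ a₀ ℓ - t₀ ∧ (p : ℤ) ∣ (ℓ : ℤ) - d₀)
    (hcop : IsCoprime (((q : ℤ) ^ 2 + d₀) ^ 2 - t₀ ^ 2 * (q : ℤ) ^ 2) (p : ℤ))
    (hcop1 : IsCoprime ((q : ℤ) ^ 2 - t₀ * (q : ℤ) + d₀) (p : ℤ))
    (Winf Wzero : ValuationSubring ↥(s48k_FH (M * q) H))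
    (hWi : Winf.comap (s59k_iotaH (M * q) H) = s59k_Vinf P hP (M * q))
    (hWz : Wzero.comap (s59k_iotaH (M * q) H) = s59k_Vzero P hP M q hq.out hqM)
    (z : s48k_JH (M * q) H) (hz : p • z = 0)
    (hgen : ∀ (ℓ : ℕ) [NeZero ℓ] (ℓu : (ZMod (M * q))ˣ), ℓ.Prime → ¬ ℓ ∣ M * q → ℓ ∉ S →
      ((ℓu : (ZMod (M * q))ˣ) : ZMod (M * q)) = (ℓ : ZMod (M * q)) →
        ∃ N : ℕ, ((s59m_TEnd (M * q) H ℓ ℓu -
          (a₀ ℓ : AddMonoid.End (s48k_JH (M * q) H))) ^ N) z = 0)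
    (hzinf : ∀ d : (ZMod (M * q))ˣ, z ∈ s59k_KumKer (K := Kb)
      (SemilinearAut.ofAlgAut (s48k_diamondAut (M * q) H d) • Winf) p)
    (hzzero : ∀ d : (ZMod (M * q))ˣ, z ∈ s59k_KumKer (K := Kb)
      (SemilinearAut.ofAlgAut (s48k_diamondAut (M * q) H d) • Wzero) p) : z = 0 := by
  have hN : 1 < M * q := hL.one_lt
  have hneg : (-1 : (ZMod (M * q))ˣ) ∈ H := hL.neg_one
  -- `W_∞` is a diamond translate of the concrete Gauss ring
  obtain ⟨e₀, he₀⟩ := s59n_ext_conj_diamond hN hneg hp hpgrp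
    (s59k_Winf_comap P hP (M * q) H) hWi
  have hWeq : Winf =
      SemilinearAut.ofAlgAut (s48k_diamondAut (M * q) H e₀) • s59k_Winf P hP (M * q) H := by
    ext y
    rw [he₀ y, ValuationSubring.mem_pointwise_smul_iff_inv_smul_mem]
  have hzinf' : ∀ d : (ZMod (M * q))ˣ, z ∈ s59k_KumKer (K := Kb)
      (SemilinearAut.ofAlgAut (s48k_diamondAut (M * q) H d) • s59k_Winf P hP (M * q) H) p := by
    intro d
    have h := hzinf (d * e₀⁻¹)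
    rw [hWeq, ← s59n_diaHom_apply hN hneg, ← s59n_diaHom_apply hN hneg, ← mul_smul, ← map_mul,
      inv_mul_cancel_right] at h
    exact h
  obtain ⟨δφ, hW⟩ := s59n_WHyp_supply M q hqM P hP hN hneg hp hpq hpgrp φ
    hφ.mem_decompositionSubgroup Wzero hWz
  exact s59m_G2_up M q hqM h5 hL hp hp5 hpq hpgrp P hP φ hφ S hS a₀ ℓ₁ hℓ₁ hℓ₁S hℓ₁M ha₁ t hfin
    t₀ d₀ hρ hcop hcop1 (s59k_Winf P hP (M * q) H) Wzero δφ hW
    (fun f _ => s59n_hWinf_supply M q P hP H f)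
    (s59n_hWzero_supply M q hqM P hP Wzero hWz) z hz hgen hzinf' hzzero

end Fermat.Agent.Lib.S59
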