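/-
Programme R2 (S59), p = 3 port of the `T`-side (helper5), file 5: **(G2)↑ FOR THE EIGENVALUE SYSTEM OF AN ELLIPTIC CURVE, EVEN LEVEL, ANY ODD `p`** — copies of
`s59m_G2_up_ell` (MG2Frey), `s59m_G2_up_ell_final`, `s59m_G2_up_ell_TW` (MG2FreyFin) with `5 ≤ p` replaced by `p ≠ 2` + `2 ∣ M`
(prefix `s59e3m_`; generated from the originals, proofs unchanged).
-/
import Fermat.Agent.Lib.S59.E3G2Up
import Fermat.Agent.Lib.S59.MG2FreyFin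

set_option autoImplicit false
set_option linter.unusedSectionVars false
set_option linter.style.haveILetI false
set_option synthInstance.maxHeartbeats 400000

noncomputable section

namespace Fermat.Agent.Lib.S59

open WeierstrassCurve WeierstrassCurve.Affine IntermediateField Fermat.Agent.Lib.S58
  Fermat.Agent.Lib.S48 Fermat.Agent.Lib.S41

local notation "Kb" => AlgebraicClosure ℚ

open ModularCurve AlgebraicCurve HahnSeries Fermat.Agent.Lib.FF Fermat.Agent.Lib.S18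
  Fermat.Agent.Lib.S34 Fermat.Agent.Lib.S37 Fermat.Agent.Lib.S33 Fermat.Agent.Lib.S35
  Fermat.Agent.Lib.S44 Fermat.Agent.Lib.Frey Fermat.Agent.Lib.S30 Fermat.Agent.Lib.S29
open scoped Pointwise

attribute [local instance] s29a_algebraC

section G2Ell

variable (M q : ℕ) [NeZero M] [NeZero q] [hq : Fact q.Prime] (hqM : ¬ q ∣ M) (h5 : 5 ≤ q) (h2M : 2 ∣ M)

include h5 h2M in
/-- **(G2)↑ for the eigenvalue system `a_ℓ(W)` of an elliptic curve `E/ℚ` with irreducible `E[p]`**, at a prime `q ∥ M q` of good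
reduction which is not level-raising (`a_q² ≢ (q + 1)² mod p`; for `q ≡ 1 (mod p)` : `a_q² ≢ 4`, the Taylor–Wiles condition). -/
theorem s59e3m_G2_up_ell {H : Subgroup (ZMod (M * q))ˣ} (hL : s59b_Lvl (M * q) H) {p : ℕ}
    (hp : p.Prime) (hp2 : p ≠ 2) (hpq : p ≠ q)
    (hpgrp : ∀ g : (ZMod (M * q))ˣ, ∃ n : ℕ, g ^ (p ^ n) ∈ H)
    (P : ValuationSubring Kb) (hP : P.LiesOverPrime q) (φ : s48k_G) (hφ : P.IsFrobeniusAt φ q)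
    (E : WeierstrassCurve ℚ) [E.IsElliptic] (W : WeierstrassCurve ℤ) (hWE : W.IsIntegralModelOf E)
    (hirr : Point.GaloisRepIsIrreducible (K := Kb) ℚ E p)
    (S : Finset ℕ) (hpS : p ∈ S) (hgood : ∀ ℓ : ℕ, ℓ.Prime → ℓ ∉ S → W.IsGoodPrimeFor ℓ)
    (hqg : ¬ (q : ℤ) ∣ W.Δ) (hLR : ¬ (p : ℤ) ∣ W.apOfModel q ^ 2 - ((q : ℤ) + 1) ^ 2)
    (Winf Wzero : ValuationSubring ↥(s48k_FH (M * q) H)) (δφ : (ZMod (M * q))ˣ)
    (hW : s59n_WHyp (arithmeticGalois (s48k_FHQ (M * q) H) φ) (s48k_diamondAut (M * q) H δφ) p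
      Winf Wzero)
    (hWinf : ∀ f : ↥(s48k_FH (M * q) H),
      (f : LaurentSeries Kb) ∈ modularFunctionFieldBar (M * q) →
        (f ∈ Winf ↔ (f : LaurentSeries Kb) ∈ s37r_O P (IsLocalRing.residue ↥P)))
    (hWzero : ∀ (f : ↥(s48k_FH (M * q) H))
      (hf : (f : LaurentSeries Kb) ∈ modularFunctionFieldBar (M * q)), f ∈ Wzero ↔
        ((s37w_al M q hq.out hqM ⟨(f : LaurentSeries Kb), hf⟩ : ffi_F (M * q)) : LaurentSeries Kb) ∈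
          s37r_O P (IsLocalRing.residue ↥P))
    (z : s48k_JH (M * q) H) (hz : p • z = 0)
    (hgen : ∀ (ℓ : ℕ) [NeZero ℓ] (ℓu : (ZMod (M * q))ˣ), ℓ.Prime → ¬ ℓ ∣ M * q →
      ℓ ∉ (↑S : Set ℕ) → ((ℓu : (ZMod (M * q))ˣ) : ZMod (M * q)) = (ℓ : ZMod (M * q)) →
        ∃ N : ℕ, ((s59m_TEnd (M * q) H ℓ ℓu -
          ((W.apOfModel ℓ : ℤ) : AddMonoid.End (s48k_JH (M * q) H))) ^ N) z = 0)
    (hzinf : ∀ d : (ZMod (M * q))ˣ, z ∈ s59k_KumKer (K := Kb)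
      (SemilinearAut.ofAlgAut (s48k_diamondAut (M * q) H d) • Winf) p)
    (hzzero : ∀ d : (ZMod (M * q))ˣ, z ∈ s59k_KumKer (K := Kb)
      (SemilinearAut.ofAlgAut (s48k_diamondAut (M * q) H d) • Wzero) p) : z = 0 := by
  have hp2 : p ≠ 2 := by omega
  have hMqp : M * q * p ≠ 0 :=
    Nat.mul_ne_zero (Nat.mul_ne_zero (NeZero.ne M) (NeZero.ne q)) hp.ne_zero
  obtain ⟨ℓ₁, T, instT, t, hℓ₁, hℓ₁S, hℓ₁M, ha₁, hfin, hρ, hcop, hcop1⟩ :=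
    s59m_ell_package (M * q * p) hMqp hp hp2 hq.out hpq P hP φ hφ E W hWE hirr S hpS hgood hqg hLR
  letI := instT
  exact s59e3m_G2_up M q hqM h5 h2M hL hp hp2 hpq hpgrp P hP φ hφ (↑S : Set ℕ) S.finite_toSet
    (fun ℓ => W.apOfModel ℓ) ℓ₁ hℓ₁ hℓ₁S hℓ₁M ha₁ t hfin (W.apOfModel q) (q : ℤ) hρ hcop hcop1
    Winf Wzero δφ hW hWinf hWzero z hz hgen hzinf hzzero

end G2Ell

section G2EllFin

variable (M q : ℕ) [NeZero M] [NeZero q] [hq : Fact q.Prime] (hqM : ¬ q ∣ M) (h5 : 5 ≤ q) (h2M : 2 ∣ M)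

include h5 h2M in
/-- **(G2)↑ at the call site**: the eigenvalue system of an elliptic curve, `q` good and not level-raising. -/
theorem s59e3m_G2_up_ell_final {H : Subgroup (ZMod (M * q))ˣ} (hL : s59b_Lvl (M * q) H) {p : ℕ}
    (hp : p.Prime) (hp2 : p ≠ 2) (hpq : p ≠ q)
    (hpgrp : ∀ g : (ZMod (M * q))ˣ, ∃ n : ℕ, g ^ (p ^ n) ∈ H)
    (P : ValuationSubring Kb) (hP : P.LiesOverPrime q) (φ : s48k_G) (hφ : P.IsFrobeniusAt φ q)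
    (E : WeierstrassCurve ℚ) [E.IsElliptic] (W : WeierstrassCurve ℤ) (hWE : W.IsIntegralModelOf E)
    (hirr : Point.GaloisRepIsIrreducible (K := Kb) ℚ E p)
    (S : Finset ℕ) (hpS : p ∈ S) (hgood : ∀ ℓ : ℕ, ℓ.Prime → ℓ ∉ S → W.IsGoodPrimeFor ℓ)
    (hqg : ¬ (q : ℤ) ∣ W.Δ) (hLR : ¬ (p : ℤ) ∣ W.apOfModel q ^ 2 - ((q : ℤ) + 1) ^ 2)
    (Winf Wzero : ValuationSubring ↥(s48k_FH (M * q) H))
    (hWi : Winf.comap (s59k_iotaH (M * q) H) = s59k_Vinf P hP (M * q))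
    (hWz : Wzero.comap (s59k_iotaH (M * q) H) = s59k_Vzero P hP M q hq.out hqM)
    (z : s48k_JH (M * q) H) (hz : p • z = 0)
    (hgen : ∀ (ℓ : ℕ) [NeZero ℓ] (ℓu : (ZMod (M * q))ˣ), ℓ.Prime → ¬ ℓ ∣ M * q →
      ℓ ∉ (↑S : Set ℕ) → ((ℓu : (ZMod (M * q))ˣ) : ZMod (M * q)) = (ℓ : ZMod (M * q)) →
        ∃ N : ℕ, ((s59m_TEnd (M * q) H ℓ ℓu -
          ((W.apOfModel ℓ : ℤ) : AddMonoid.End (s48k_JH (M * q) H))) ^ N) z = 0)
    (hzinf : ∀ d : (ZMod (M * q))ˣ, z ∈ s59k_KumKer (K := Kb)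
      (SemilinearAut.ofAlgAut (s48k_diamondAut (M * q) H d) • Winf) p)
    (hzzero : ∀ d : (ZMod (M * q))ˣ, z ∈ s59k_KumKer (K := Kb)
      (SemilinearAut.ofAlgAut (s48k_diamondAut (M * q) H d) • Wzero) p) : z = 0 := by
  have hp2 : p ≠ 2 := by omega
  have hMqp : M * q * p ≠ 0 :=
    Nat.mul_ne_zero (Nat.mul_ne_zero (NeZero.ne M) (NeZero.ne q)) hp.ne_zero
  obtain ⟨ℓ₁, T, instT, t, hℓ₁, hℓ₁S, hℓ₁M, ha₁, hfin, hρ, hcop, hcop1⟩ :=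
    s59m_ell_package (M * q * p) hMqp hp hp2 hq.out hpq P hP φ hφ E W hWE hirr S hpS hgood hqg hLR
  letI := instT
  exact s59e3n_G2_up_final M q hqM h5 h2M hL hp hp2 hpq hpgrp P hP φ hφ (↑S : Set ℕ) S.finite_toSet
    (fun ℓ => W.apOfModel ℓ) ℓ₁ hℓ₁ hℓ₁S hℓ₁M ha₁ t hfin (W.apOfModel q) (q : ℤ) hρ hcop hcop1
    Winf Wzero hWi hWz z hz hgen hzinf hzzero

include h5 h2M in
/-- **(G2)↑ at the call site, Taylor–Wiles form**: `q ≡ 1 (mod p)`, `p ∤ a_q(W)² − 4`. -/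
theorem s59e3m_G2_up_ell_TW {H : Subgroup (ZMod (M * q))ˣ} (hL : s59b_Lvl (M * q) H) {p : ℕ}
    (hp : p.Prime) (hp2 : p ≠ 2) (hpq : p ≠ q)
    (hpgrp : ∀ g : (ZMod (M * q))ˣ, ∃ n : ℕ, g ^ (p ^ n) ∈ H)
    (P : ValuationSubring Kb) (hP : P.LiesOverPrime q) (φ : s48k_G) (hφ : P.IsFrobeniusAt φ q)
    (E : WeierstrassCurve ℚ) [E.IsElliptic] (W : WeierstrassCurve ℤ) (hWE : W.IsIntegralModelOf E)
    (hirr : Point.GaloisRepIsIrreducible (K := Kb) ℚ E p)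
    (S : Finset ℕ) (hpS : p ∈ S) (hgood : ∀ ℓ : ℕ, ℓ.Prime → ℓ ∉ S → W.IsGoodPrimeFor ℓ)
    (hqg : ¬ (q : ℤ) ∣ W.Δ) (hq1 : (p : ℤ) ∣ (q : ℤ) - 1)
    (hTW : ¬ (p : ℤ) ∣ W.apOfModel q ^ 2 - 4)
    (Winf Wzero : ValuationSubring ↥(s48k_FH (M * q) H))
    (hWi : Winf.comap (s59k_iotaH (M * q) H) = s59k_Vinf P hP (M * q))
    (hWz : Wzero.comap (s59k_iotaH (M * q) H) = s59k_Vzero P hP M q hq.out hqM)
    (z : s48k_JH (M * q) H) (hz : p • z = 0)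
    (hgen : ∀ (ℓ : ℕ) [NeZero ℓ] (ℓu : (ZMod (M * q))ˣ), ℓ.Prime → ¬ ℓ ∣ M * q →
      ℓ ∉ (↑S : Set ℕ) → ((ℓu : (ZMod (M * q))ˣ) : ZMod (M * q)) = (ℓ : ZMod (M * q)) →
        ∃ N : ℕ, ((s59m_TEnd (M * q) H ℓ ℓu -
          ((W.apOfModel ℓ : ℤ) : AddMonoid.End (s48k_JH (M * q) H))) ^ N) z = 0)
    (hzinf : ∀ d : (ZMod (M * q))ˣ, z ∈ s59k_KumKer (K := Kb)
      (SemilinearAut.ofAlgAut (s48k_diamondAut (M * q) H d) • Winf) p)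
    (hzzero : ∀ d : (ZMod (M * q))ˣ, z ∈ s59k_KumKer (K := Kb)
      (SemilinearAut.ofAlgAut (s48k_diamondAut (M * q) H d) • Wzero) p) : z = 0 := by
  have hLR : ¬ (p : ℤ) ∣ W.apOfModel q ^ 2 - ((q : ℤ) + 1) ^ 2 := by
    intro hd
    apply hTW
    obtain ⟨k, hk⟩ := hq1
    have e : W.apOfModel q ^ 2 - 4 =
        (W.apOfModel q ^ 2 - ((q : ℤ) + 1) ^ 2) + (p : ℤ) * (k * ((q : ℤ) + 3)) := by
      have hq' : (q : ℤ) = 1 + (p : ℤ) * k := by linarith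
      rw [hq']
      ring
    rw [e]
    exact dvd_add hd (Dvd.intro _ rfl)
  exact s59e3m_G2_up_ell_final M q hqM h5 h2M hL hp hp2 hpq hpgrp P hP φ hφ E W hWE hirr S hpS hgood hqg
    hLR Winf Wzero hWi hWz z hz hgen hzinf hzzero

end G2EllFin

end Fermat.Agent.Lib.S59
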