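/-
Programme R2 (S59), p = 3 port of the `T`-side (helper5), file 13: **[C8] for a general `W`, eigen / diamond / E-ring forms, EVEN LEVEL, ANY ODD `p`** — copy of EWC8c
with `5 ≤ p` replaced by `p ≠ 2` and `2 ∣ M ∨ 3 ∣ M` by `2 ∣ M` (prefix `s59e3e_`; generated from the original).
-/
import Mathlib
import Fermat.Agent.Lib.S59.EWC8b
import Fermat.Agent.Lib.S59.MC8Fin
import Fermat.Agent.Lib.S59.EWC8c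
import Fermat.Agent.Lib.S59.E3WC8b
import Fermat.Agent.Lib.S59.E3WC8b

set_option autoImplicit false
set_option linter.unusedSectionVars false
set_option linter.unusedVariables false
set_option linter.style.haveILetI false
set_option synthInstance.maxHeartbeats 400000
set_option maxHeartbeats 4000000

noncomputable section

namespace Fermat.Agent.Lib.S59

open Fermat.Agent.Lib.S29 Fermat.Agent.Lib.S30 Fermat.Agent.Lib.S48 Fermat.Agent.Lib.PT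
open WeierstrassCurve WeierstrassCurve.Affine IsLocalRing TensorProduct Polynomial
open CongruenceSubgroup ModularCurve.Period
open scoped MatrixGroups

local notation "Qbar" => AlgebraicClosure ℚ
local notation "GQ" => (AlgebraicClosure ℚ ≃ₐ[ℚ] AlgebraicClosure ℚ)

section Restrict

variable {𝒪 : Type*} [CommRing 𝒪] {Y : Type*} [AddCommGroup Y] [Module 𝒪 Y] (Zs : Submodule 𝒪 Y)
  {J : Type*} (g : J → Module.End 𝒪 Y) (hg : ∀ j, ∀ y ∈ Zs, g j y ∈ Zs)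

end Restrict

section Inst

variable {M : ℕ} [NeZero M] (H : Subgroup (ZMod M)ˣ)
  {𝒪 : Type} [CommRing 𝒪] [IsDomain 𝒪] [IsDiscreteValuationRing 𝒪]
  [IsAdicComplete (maximalIdeal 𝒪) 𝒪] [Finite (ResidueField 𝒪)] [CharZero 𝒪]

end Inst

section Main

variable {M : ℕ} [NeZero M] (H : Subgroup (ZMod M)ˣ)
  {𝒪 : Type} [CommRing 𝒪] [IsDomain 𝒪] [IsDiscreteValuationRing 𝒪]
  [IsAdicComplete (maximalIdeal 𝒪) 𝒪] [Finite (ResidueField 𝒪)] [CharZero 𝒪]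
  {Y' : Type} [AddCommGroup Y'] [Module 𝒪 Y'] [Module.Finite 𝒪 Y']
  (j : Y' →ₗ[𝒪] s48h_Hpar 𝒪 (s48h_GammaH M H) 𝒪) (hj : Function.Injective j)
  (opY : s59w_AIdx M → Module.End 𝒪 Y')
  (hopY : ∀ jdx y, j (opY jdx y) = s59w_op H 𝒪 jdx (j y))
  {Δ' : Type} [CommGroup Δ'] [Fintype Δ'] (ρ' : Δ' →* Module.End 𝒪 Y')
  (hρ' : ∀ δ, ∃ τ : Gamma0 M, ρ' δ = opY (Sum.inr τ))
  (C : Subgroup Δ') (χ' : Δ' →* 𝒪ˣ)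
  {T : Type} [CommRing T] [Algebra 𝒪 T] [Module T Y'] [IsScalarTower 𝒪 T Y']
  (hTρ : ∀ (t : T) (δ : Δ') (y : Y'), t • ρ' δ y = ρ' δ (t • y))

include hj hopY hρ' in
/-- **`hC8` for `Iχ = Ann_T(eig_{C,χ'}(Y'))`.** -/
theorem s59e3e_W_hC8_eig (p : ℕ) [hpP : Fact p.Prime] (hp2 : p ≠ 2) (W : WeierstrassCurve ℤ)
    (hΔ : W.Δ ≠ 0) (hirr : W.ModRepIsIrreducible p)
    (N : ℕ) [NeZero N] (Q : Finset ℕ)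
    (hMeq : M = N * ∏ q ∈ Q, q) (hQ : ∀ q ∈ Q, q.Prime ∧ ¬ q ∣ N)
    (hH : ∀ (x : ℤ) (u : (ZMod M)ˣ), ((x : ℤ) : ZMod (∏ q ∈ Q, q)) = 1 →
      ((u : (ZMod M)ˣ) : ZMod M) = ((x : ℤ) : ZMod M) → u ∈ H)
    (hsq : Squarefree M) (hM : 1 < M) (hneg : (-1 : (ZMod M)ˣ) ∈ H) (h23 : 2 ∣ M)
    {e m : ℕ} (hnm : 2 * m = p ^ e + 1) (hn : ∀ u : (ZMod M)ˣ, u ^ (p ^ e) ∈ H)
    [Algebra ℤ_[p] 𝒪] [Module.Finite ℤ_[p] 𝒪]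
    (hp𝒪 : (p : 𝒪) ∈ maximalIdeal 𝒪)
    (S : Finset ℕ) (hpS : p ∈ S) (hMS : ∀ r : ℕ, r.Prime → r ∣ M → r ∈ S)
    (hgood : ∀ ℓ : ℕ, ℓ.Prime → ℓ ∉ S → W.IsGoodPrimeFor ℓ)
    -- `T` acts through `𝒪[opY]`
    (hTg : ∀ t : T, ∃ x ∈ Algebra.adjoin 𝒪 (Set.range opY), ∀ y : Y', t • y = x y)
    (hrad : (Module.annihilator T (s59t_EigT ρ' C χ' hTρ)).IsRadical)
    -- the trace ring and its Galois representation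
    (T' : Type) [CommRing T'] [IsLocalRing T'] [Algebra 𝒪 T'] [Algebra T' T] [IsScalarTower 𝒪 T' T]
    (ρT : GaloisRepAdic T') (tr : ℕ → T')
    (htr : ∀ i : s59w_TIdx M, i.ell ∉ S → ∀ y : Y', algebraMap T' T (tr i.ell) • y =
      opY (Sum.inr (s59e_tau i ((p ^ e - 1) * m))) (opY (Sum.inl i) y))
    (hfrob : ∀ ℓ : ℕ, ℓ.Prime → ℓ ∉ S → ∀ P' : ValuationSubring Qbar, P'.LiesOverPrime ℓ →
      ∀ σ : GQ, P'.IsFrobeniusAt σ ℓ →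
        LinearMap.charpoly (ρT.ρ σ) = X ^ 2 - Polynomial.C (tr ℓ) * X + Polynomial.C (ℓ : T'))
    (hcong : ∀ ℓ : ℕ, ℓ.Prime → ℓ ∉ S →
      tr ℓ - algebraMap 𝒪 T' ((W.apOfModel ℓ : ℤ) : 𝒪) ∈ maximalIdeal T')
    -- the Taylor–Wiles prime
    (q₀ : ℕ) (hq₀ : q₀ ∈ Q) (hq₀p : q₀ ≠ p) (hq₀5 : 5 ≤ q₀) (hq₀g : ¬ (q₀ : ℤ) ∣ W.Δ)
    (hq₀1 : (p : ℤ) ∣ (q₀ : ℤ) - 1) (hq₀TW : ¬ (p : ℤ) ∣ W.apOfModel q₀ ^ 2 - 4)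
    (hunr : ρT.residual.IsUnramifiedAt q₀)
    -- the square root of the diamond operator
    (uu : Tˣ) (τ₀ : Gamma0 M) (L₀ : ℕ) (hL₀ : M = L₀ * q₀)
    (hτ₀ : ZMod.unitsMap (hL₀ ▸ Dvd.intro q₀ rfl : L₀ ∣ M) (s59w_lrUnit τ₀) = 1)
    (huu : ∀ y : Y', ((uu : Tˣ) : T) • y = opY (Sum.inr τ₀) y) :
    ∃ τ ∈ maximalIdeal T',
      (((uu : Tˣ) : T) - ((uu⁻¹ : Tˣ) : T)) ^ 2 - algebraMap T' T τ ∈
        Module.annihilator T (s59t_EigT ρ' C χ' hTρ) := by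
  classical
  haveI : IsNoetherian 𝒪 Y' := isNoetherian_of_isNoetherianRing_of_finite 𝒪 Y'
  haveI : Module.Finite 𝒪 (s59t_EigT ρ' C χ' hTρ) :=
    (inferInstance : Module.Finite 𝒪 (s59t_eig ρ' C χ'))
  -- the embedding
  let emb : s59t_EigT ρ' C χ' hTρ →ₗ[𝒪] s48h_Hpar 𝒪 (s48h_GammaH M H) 𝒪 :=
    j ∘ₗ s59t_EigT_val ρ' C χ' hTρ
  have hemb : Function.Injective emb :=
    hj.comp (s59t_EigT_val_injective ρ' C χ' hTρ)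
  haveI : Module.Free 𝒪 (s59t_EigT ρ' C χ' hTρ) := s59m_free_of_emb H emb hemb
  have hop : ∀ jdx z, emb (s59m_opZ H j hj opY hopY ρ' hρ' C χ' hTρ jdx z) =
      s59w_op H 𝒪 jdx (emb z) := fun jdx z => hopY jdx _
  -- the action of `T`
  let jT : T →ₐ[𝒪] Module.End 𝒪 (s59t_EigT ρ' C χ' hTρ) :=
    Algebra.lsmul 𝒪 𝒪 (s59t_EigT ρ' C χ' hTρ)
  have hjT : ∀ (t : T) (z : s59t_EigT ρ' C χ' hTρ), jT t z = t • z := fun t z => rfl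
  have hjTg : ∀ t, jT t ∈ Algebra.adjoin 𝒪
      (Set.range (s59m_opZ H j hj opY hopY ρ' hρ' C χ' hTρ)) := by
    intro t
    obtain ⟨x, hx, hxt⟩ := hTg t
    obtain ⟨hst, hmem⟩ := s59m_restrict_mem_adjoin (s59t_eig ρ' C χ') opY
      (s59m_opY_mem_eig H j hj opY hopY ρ' hρ' C χ') hx
    have e : jT t = (x.restrict hst : Module.End 𝒪 (s59t_eig ρ' C χ')) := by
      refine LinearMap.ext fun z => s59t_EigT_val_injective ρ' C χ' hTρ ?_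
      rw [hjT, s59t_EigT_val_smul, hxt]
      rfl
    rw [e]
    exact hmem
  have hIχ : ∀ t, t ∈ Module.annihilator T (s59t_EigT ρ' C χ' hTρ) ↔ jT t = 0 := by
    intro t
    rw [Module.mem_annihilator]
    constructor
    · intro h
      exact LinearMap.ext fun z => h z
    · intro h z
      have := LinearMap.congr_fun h z
      rwa [hjT] at this
  refine s59e3e_W_hC8_abs (Z := s59t_EigT ρ' C χ' hTρ) p hp2 W hΔ hirr M N Q hMeq hQ H hH hsq hM hneg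
    h23 hnm hn 𝒪 hp𝒪 S hpS hMS hgood emb hemb (s59m_opZ H j hj opY hopY ρ' hρ' C χ' hTρ) hop T' T jT
    hjTg _ hIχ hrad ρT tr ?_ hfrob hcong q₀ hq₀ hq₀p hq₀5 hq₀g hq₀1 hq₀TW hunr uu τ₀ L₀ hL₀ hτ₀ ?_
  · intro i hi
    refine LinearMap.ext fun z => s59t_EigT_val_injective ρ' C χ' hTρ ?_
    rw [hjT, s59t_EigT_val_smul, htr i hi, Module.End.mul_apply, s59m_opZ_val, s59m_opZ_val]
  · refine LinearMap.ext fun z => s59t_EigT_val_injective ρ' C χ' hTρ ?_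
    rw [hjT, s59t_EigT_val_smul, huu, s59m_opZ_val]

end Main

section Dia

variable {M : ℕ} [NeZero M] (H : Subgroup (ZMod M)ˣ)
  {𝒪 : Type} [CommRing 𝒪] [IsDomain 𝒪] [IsDiscreteValuationRing 𝒪]
  [IsAdicComplete (maximalIdeal 𝒪) 𝒪] [Finite (ResidueField 𝒪)] [CharZero 𝒪]
  {Y' : Type} [AddCommGroup Y'] [Module 𝒪 Y'] [Module.Finite 𝒪 Y']
  (j : Y' →ₗ[𝒪] s48h_Hpar 𝒪 (s48h_GammaH M H) 𝒪) (hj : Function.Injective j)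
  (opY : s59w_AIdx M → Module.End 𝒪 Y')
  (hopY : ∀ jdx y, j (opY jdx y) = s59w_op H 𝒪 jdx (j y))
  {Δ' : Type} [CommGroup Δ'] [Fintype Δ'] (ρ' : Δ' →* Module.End 𝒪 Y')
  (hρ' : ∀ δ, ∃ τ : Gamma0 M, ρ' δ = opY (Sum.inr τ))
  (Bq Cs : Subgroup Δ') (χ' : Δ' →* 𝒪ˣ)
  {T : Type} [CommRing T] [Algebra 𝒪 T] [Module T Y'] [IsScalarTower 𝒪 T Y']
  (hTρ : ∀ (t : T) (δ : Δ') (y : Y'), t • ρ' δ y = ρ' δ (t • y))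
  (dia : Bq →* T) (hdia : ∀ (β : Bq) (y : Y'), ρ' (β : Δ') y = dia β • y)

include hj hopY hρ' hdia in
/-- **`hC8`, abstract rings, in the form of `s59e_TLevel_abs`.** -/
theorem s59e3e_W_hC8_dia (p : ℕ) [hpP : Fact p.Prime] (hp2 : p ≠ 2) (W : WeierstrassCurve ℤ)
    (hΔ : W.Δ ≠ 0) (hirr : W.ModRepIsIrreducible p)
    (N : ℕ) [NeZero N] (Q : Finset ℕ)
    (hMeq : M = N * ∏ q ∈ Q, q) (hQ : ∀ q ∈ Q, q.Prime ∧ ¬ q ∣ N)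
    (hH : ∀ (x : ℤ) (u : (ZMod M)ˣ), ((x : ℤ) : ZMod (∏ q ∈ Q, q)) = 1 →
      ((u : (ZMod M)ˣ) : ZMod M) = ((x : ℤ) : ZMod M) → u ∈ H)
    (hsq : Squarefree M) (hM : 1 < M) (hneg : (-1 : (ZMod M)ˣ) ∈ H) (h23 : 2 ∣ M)
    {e m : ℕ} (hnm : 2 * m = p ^ e + 1) (hn : ∀ u : (ZMod M)ˣ, u ^ (p ^ e) ∈ H)
    [Algebra ℤ_[p] 𝒪] [Module.Finite ℤ_[p] 𝒪]
    (hp𝒪 : (p : 𝒪) ∈ maximalIdeal 𝒪)
    (S : Finset ℕ) (hpS : p ∈ S) (hMS : ∀ r : ℕ, r.Prime → r ∣ M → r ∈ S)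
    (hgood : ∀ ℓ : ℕ, ℓ.Prime → ℓ ∉ S → W.IsGoodPrimeFor ℓ)
    (hTg : ∀ t : T, ∃ x ∈ Algebra.adjoin 𝒪 (Set.range opY), ∀ y : Y', t • y = x y)
    (hrad : (Module.annihilator T (s59t_EigT ρ' Cs χ' hTρ)).IsRadical)
    (T' : Type) [CommRing T'] [IsLocalRing T'] [Algebra 𝒪 T'] [Algebra T' T] [IsScalarTower 𝒪 T' T]
    (ρT : GaloisRepAdic T') (tr : ℕ → T')
    (htr : ∀ i : s59w_TIdx M, i.ell ∉ S → ∀ y : Y', algebraMap T' T (tr i.ell) • y =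
      opY (Sum.inr (s59e_tau i ((p ^ e - 1) * m))) (opY (Sum.inl i) y))
    (hfrob : ∀ ℓ : ℕ, ℓ.Prime → ℓ ∉ S → ∀ P' : ValuationSubring Qbar, P'.LiesOverPrime ℓ →
      ∀ σ : GQ, P'.IsFrobeniusAt σ ℓ →
        LinearMap.charpoly (ρT.ρ σ) = X ^ 2 - Polynomial.C (tr ℓ) * X + Polynomial.C (ℓ : T'))
    (hcong : ∀ ℓ : ℕ, ℓ.Prime → ℓ ∉ S →
      tr ℓ - algebraMap 𝒪 T' ((W.apOfModel ℓ : ℤ) : 𝒪) ∈ maximalIdeal T')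
    (q₀ : ℕ) (hq₀ : q₀ ∈ Q) (hq₀p : q₀ ≠ p) (hq₀5 : 5 ≤ q₀) (hq₀g : ¬ (q₀ : ℤ) ∣ W.Δ)
    (hq₀1 : (p : ℤ) ∣ (q₀ : ℤ) - 1) (hq₀TW : ¬ (p : ℤ) ∣ W.apOfModel q₀ ^ 2 - 4)
    (hunr : ρT.residual.IsUnramifiedAt q₀)
    (β : Bq) (τ₀ : Gamma0 M) (hβ : ρ' (β : Δ') = opY (Sum.inr τ₀))
    (L₀ : ℕ) (hL₀ : M = L₀ * q₀)
    (hτ₀ : ZMod.unitsMap (hL₀ ▸ Dvd.intro q₀ rfl : L₀ ∣ M) (s59w_lrUnit τ₀) = 1) :
    ∃ τ ∈ maximalIdeal T',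
      ((dia β : T) - (dia β⁻¹ : T)) ^ 2 - algebraMap T' T τ ∈
        Module.annihilator T (s59t_EigT ρ' Cs χ' hTρ) := by
  let uu : Tˣ := ⟨dia β, dia β⁻¹, by rw [← map_mul, mul_inv_cancel, map_one],
    by rw [← map_mul, inv_mul_cancel, map_one]⟩
  have huu : ∀ y : Y', ((uu : Tˣ) : T) • y = opY (Sum.inr τ₀) y := by
    intro y
    show dia β • y = _
    rw [← hdia, hβ]
  exact s59e3e_W_hC8_eig H j hj opY hopY ρ' hρ' Cs χ' hTρ p hp2 W hΔ hirr N Q hMeq hQ hH hsq hM hneg h23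
    hnm hn hp𝒪 S hpS hMS hgood hTg hrad T' ρT tr htr hfrob hcong q₀ hq₀ hq₀p hq₀5 hq₀g hq₀1 hq₀TW hunr
    uu τ₀ L₀ hL₀ hτ₀ huu

end Dia

section Descend

variable {M : ℕ} [NeZero M] (H : Subgroup (ZMod M)ˣ)
  {𝒪 : Type*} [CommRing 𝒪]
  {Y' : Type*} [AddCommGroup Y'] [Module 𝒪 Y']
  (j : Y' →ₗ[𝒪] s48h_Hpar 𝒪 (s48h_GammaH M H) 𝒪)
  (opY : s59w_AIdx M → Module.End 𝒪 Y')
  (hopY : ∀ jdx y, j (opY jdx y) = s59w_op H 𝒪 jdx (j y))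

end Descend

section ERing

variable {M : ℕ} [NeZero M] (H : Subgroup (ZMod M)ˣ)
  {𝒪 : Type} [CommRing 𝒪] [IsDomain 𝒪] [IsDiscreteValuationRing 𝒪]
  [IsAdicComplete (maximalIdeal 𝒪) 𝒪] [Finite (ResidueField 𝒪)] [CharZero 𝒪]
  {Y' : Type} [AddCommGroup Y'] [Module 𝒪 Y'] [Module.Finite 𝒪 Y']
  (j : Y' →ₗ[𝒪] s48h_Hpar 𝒪 (s48h_GammaH M H) 𝒪) (hj : Function.Injective j)
  (opY : s59w_AIdx M → Module.End 𝒪 Y')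
  (hopY : ∀ jdx y, j (opY jdx y) = s59w_op H 𝒪 jdx (j y))
  {A : Type} [CommRing A] (a : A →+* Module.End 𝒪 (s48h_Hpar 𝒪 (s48h_GammaH M H) 𝒪)) (k : ℕ)
  (ha : ∀ t, a t ∈ Subring.closure (Set.range (s59e_Tp' H 𝒪 k)))
  (aM : A →+* Module.End 𝒪 Y') (haM : ∀ t (z : Y'), j (aM t z) = a t (j z))
  {Δ' : Type} [CommGroup Δ'] [Fintype Δ'] (ρ' : Δ' →* Module.End 𝒪 Y')
  (hρ' : ∀ δ, ∃ τ : Gamma0 M, ρ' δ = opY (Sum.inr τ))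
  (Bq Cs : Subgroup Δ') (χ' : Δ' →* 𝒪ˣ)
  (hcomm : ∀ (t : A) (β : Bq), Commute (aM t) ((ρ'.comp Bq.subtype) β))

include hj hopY ha haM hρ' in
/-- **`hC8` for helper5's concrete rings** `T′ = s59e_adj 𝒪 aM`, `T = s59e_adj 𝒪 (s59e_aB aM ρB hcomm)`,
`ρB = ρ'|_{B_Q}`, `dia = s59e_dia aM ρB hcomm`, in the form of `s59e_TLevel_abs`. -/
theorem s59e3e_W_hC8_ERing [IsLocalRing (s59e_adj 𝒪 aM)]
    (hTρ : ∀ (t : s59e_adj 𝒪 (s59e_aB aM (ρ'.comp Bq.subtype) hcomm)) (δ : Δ') (y : Y'),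
      t • ρ' δ y = ρ' δ (t • y))
    (p : ℕ) [hpP : Fact p.Prime] (hp2 : p ≠ 2) (W : WeierstrassCurve ℤ)
    (hΔ : W.Δ ≠ 0) (hirr : W.ModRepIsIrreducible p)
    (N : ℕ) [NeZero N] (Q : Finset ℕ)
    (hMeq : M = N * ∏ q ∈ Q, q) (hQ : ∀ q ∈ Q, q.Prime ∧ ¬ q ∣ N)
    (hH : ∀ (x : ℤ) (u : (ZMod M)ˣ), ((x : ℤ) : ZMod (∏ q ∈ Q, q)) = 1 →
      ((u : (ZMod M)ˣ) : ZMod M) = ((x : ℤ) : ZMod M) → u ∈ H)
    (hsq : Squarefree M) (hM : 1 < M) (hneg : (-1 : (ZMod M)ˣ) ∈ H) (h23 : 2 ∣ M)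
    {e m : ℕ} (hnm : 2 * m = p ^ e + 1) (hn : ∀ u : (ZMod M)ˣ, u ^ (p ^ e) ∈ H)
    (hk : k = (p ^ e - 1) * m)
    [Algebra ℤ_[p] 𝒪] [Module.Finite ℤ_[p] 𝒪]
    (hp𝒪 : (p : 𝒪) ∈ maximalIdeal 𝒪)
    (S : Finset ℕ) (hpS : p ∈ S) (hMS : ∀ r : ℕ, r.Prime → r ∣ M → r ∈ S)
    (hgood : ∀ ℓ : ℕ, ℓ.Prime → ℓ ∉ S → W.IsGoodPrimeFor ℓ)
    (hrad : (Module.annihilator (s59e_adj 𝒪 (s59e_aB aM (ρ'.comp Bq.subtype) hcomm))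
      (s59t_EigT (T := s59e_adj 𝒪 (s59e_aB aM (ρ'.comp Bq.subtype) hcomm)) ρ' Cs χ' hTρ)).IsRadical)
    (ρT : GaloisRepAdic (s59e_adj 𝒪 aM)) (tT' : ℕ → s59e_adj 𝒪 aM)
    (htT' : ∀ i : s59w_TIdx M, i.ell ∉ S → ∀ z : Y',
      j (((tT' i.ell : s59e_adj 𝒪 aM) : Module.End 𝒪 Y') z) = s59e_Tp' H 𝒪 k i (j z))
    (hfrob : ∀ ℓ : ℕ, ℓ.Prime → ℓ ∉ S → ∀ P' : ValuationSubring Qbar, P'.LiesOverPrime ℓ →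
      ∀ σ : GQ, P'.IsFrobeniusAt σ ℓ →
        LinearMap.charpoly (ρT.ρ σ) =
          X ^ 2 - Polynomial.C (tT' ℓ) * X + Polynomial.C (ℓ : s59e_adj 𝒪 aM))
    (hcong : ∀ ℓ : ℕ, ℓ.Prime → ℓ ∉ S →
      tT' ℓ - algebraMap 𝒪 (s59e_adj 𝒪 aM) ((W.apOfModel ℓ : ℤ) : 𝒪) ∈
        maximalIdeal (s59e_adj 𝒪 aM))
    (q₀ : ℕ) (hq₀ : q₀ ∈ Q) (hq₀p : q₀ ≠ p) (hq₀5 : 5 ≤ q₀) (hq₀g : ¬ (q₀ : ℤ) ∣ W.Δ)
    (hq₀1 : (p : ℤ) ∣ (q₀ : ℤ) - 1) (hq₀TW : ¬ (p : ℤ) ∣ W.apOfModel q₀ ^ 2 - 4)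
    (hunr : ρT.residual.IsUnramifiedAt q₀)
    (β : Bq) (τ₀ : Gamma0 M) (hβ : ρ' (β : Δ') = opY (Sum.inr τ₀))
    (L₀ : ℕ) (hL₀ : M = L₀ * q₀)
    (hτ₀ : ZMod.unitsMap (hL₀ ▸ Dvd.intro q₀ rfl : L₀ ∣ M) (s59w_lrUnit τ₀) = 1) :
    letI := s59e_algTT (𝒪 := 𝒪) aM (ρ'.comp Bq.subtype) hcomm
    ∃ τ ∈ maximalIdeal (s59e_adj 𝒪 aM),
      ((s59e_dia (𝒪 := 𝒪) aM (ρ'.comp Bq.subtype) hcomm β :
          s59e_adj 𝒪 (s59e_aB aM (ρ'.comp Bq.subtype) hcomm)) -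
        (s59e_dia (𝒪 := 𝒪) aM (ρ'.comp Bq.subtype) hcomm β⁻¹ :
          s59e_adj 𝒪 (s59e_aB aM (ρ'.comp Bq.subtype) hcomm))) ^ 2 -
        algebraMap (s59e_adj 𝒪 aM) (s59e_adj 𝒪 (s59e_aB aM (ρ'.comp Bq.subtype) hcomm)) τ ∈
        Module.annihilator (s59e_adj 𝒪 (s59e_aB aM (ρ'.comp Bq.subtype) hcomm))
          (s59t_EigT (T := s59e_adj 𝒪 (s59e_aB aM (ρ'.comp Bq.subtype) hcomm)) ρ' Cs χ' hTρ) := by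
  letI := s59e_algTT (𝒪 := 𝒪) aM (ρ'.comp Bq.subtype) hcomm
  haveI := s59e_towerTT (𝒪 := 𝒪) aM (ρ'.comp Bq.subtype) hcomm
  subst hk
  refine s59e3e_W_hC8_dia H j hj opY hopY ρ' hρ' Bq Cs χ' hTρ
    (s59e_dia (𝒪 := 𝒪) aM (ρ'.comp Bq.subtype) hcomm) (fun β y => rfl) p hp2 W hΔ hirr N Q hMeq hQ
    hH hsq hM hneg h23 hnm hn hp𝒪 S hpS hMS hgood ?_ hrad (s59e_adj 𝒪 aM) ρT tT' ?_ hfrob hcong q₀ hq₀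
    hq₀p hq₀5 hq₀g hq₀1 hq₀TW hunr β τ₀ hβ L₀ hL₀ hτ₀
  · intro t
    exact ⟨(t : Module.End 𝒪 Y'),
      s59m_adjB_le_adjoin H j hj opY hopY a _ ha aM haM ρ' hρ' Bq hcomm t.2, fun y => rfl⟩
  · intro i hi y
    apply hj
    have h1 : algebraMap (s59e_adj 𝒪 aM) (s59e_adj 𝒪 (s59e_aB aM (ρ'.comp Bq.subtype) hcomm))
        (tT' i.ell) • y = ((tT' i.ell : s59e_adj 𝒪 aM) : Module.End 𝒪 Y') y := by
      rw [s59e_smul_def, s59e_algTT_coe]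
    rw [h1, htT' i hi y, hopY, hopY]
    rfl

end ERing

end Fermat.Agent.Lib.S59

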