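/-
PROGRAMME R2 = S59 (helper4, prefix `s59i_`): **the POINTWISE form of the assembly `s59i_IAcoreW_of_pkgs` of `LFinW1`.**

`LFinW1` quantifies the three packages over ALL `(p, W, N, Bd, B)` with `p ≠ 2`.  The packages which exist are restricted
(`R`-side: `p = 3 ∨ p = 5`, helper6 `s59q_RPkgW`; `T`-side: `5 ≤ p`, `2 ∣ N ∨ 3 ∣ N`, helper5 `s59e_TPkgW`).  Here the same
assembly is stated for ONE tuple `(p, W, N, Bd, B)`: the three inputs are asked only at this tuple, so every side condition of the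
suppliers can be discharged by the caller.

* `s59i_IAcoreW_pt` : `R`-package at `(p, W, N, Bd, B)` + `T`-package at `(p, W, N, Bd, B)` + FIN-B at `(p, W, N, Bd, B)`
                      ⇒ `∃ q ∈ Bd, s44i_LevelOcc (N / q) p a_W B`.
-/
import Mathlib
import Fermat.Agent.Lib.S59.LFinW1

set_option autoImplicit false
set_option linter.unusedSectionVars false
set_option linter.unusedVariables false
set_option linter.style.haveILetI false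
set_option maxHeartbeats 1600000

noncomputable section

namespace Fermat.Agent.Lib.S59

open IsLocalRing CuspForm Polynomial ExtCitation
open WeierstrassCurve WeierstrassCurve.Affine WeierstrassCurve.Affine.Point
open Fermat.Agent.Lib.S53 (matOf matOfRes NormData)
open Fermat.Agent.Lib.S44

local notation "Γℚ" => (AlgebraicClosure ℚ ≃ₐ[ℚ] AlgebraicClosure ℚ)

/-- **[IA′-core] for `W` at ONE tuple `(p, W, N, Bd, B)` from the two packages and FIN-B at this tuple.** -/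
theorem s59i_IAcoreW_pt (p : ℕ) [Fact p.Prime] (hp2 : p ≠ 2) (W : WeierstrassCurve ℤ) (hΔ : W.Δ ≠ 0)
    (N : ℕ) [NeZero N] (Bd B : Finset ℕ) (H : s59i_IAHypW W p N Bd B)
    (HR : ∀ (𝒪 : Type) [CommRing 𝒪] [IsDomain 𝒪] [IsDiscreteValuationRing 𝒪]
      [IsAdicComplete (maximalIdeal 𝒪) 𝒪] [Finite (ResidueField 𝒪)] [CharZero 𝒪]
      [Algebra ℤ_[p] 𝒪] [Module.Finite ℤ_[p] 𝒪]
      (hp𝒪 : ((p : ℕ) : 𝒪) ∈ maximalIdeal 𝒪)
      (_ : ∀ a b : ℤ, ∃ α β : ResidueField 𝒪,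
        α + β = (a : ResidueField 𝒪) ∧ α * β = (b : ResidueField 𝒪)),
      Nonempty (s59i_RData p N (s59i_rhobarW W p hΔ 𝒪 hp𝒪) B Bd))
    (HT : ∀ (𝒪 : Type) [CommRing 𝒪] [IsDomain 𝒪] [IsDiscreteValuationRing 𝒪]
      [IsAdicComplete (maximalIdeal 𝒪) 𝒪] [Finite (ResidueField 𝒪)] [CharZero 𝒪]
      [Algebra ℤ_[p] 𝒪] [Module.Finite ℤ_[p] 𝒪]
      (hp𝒪 : ((p : ℕ) : 𝒪) ∈ maximalIdeal 𝒪)
      (_ : ∀ a b : ℤ, ∃ α β : ResidueField 𝒪,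
        α + β = (a : ResidueField 𝒪) ∧ α * β = (b : ResidueField 𝒪))
      (v : ℕ) (_ : ∀ q ∈ Bd, ¬ p ^ (v + 1) ∣ q - 1) (_ : ∃ ζ : 𝒪, IsPrimitiveRoot ζ (p ^ v))
      (Rd : s59i_RData p N (s59i_rhobarW W p hΔ 𝒪 hp𝒪) B Bd),
      ∀ r : ℕ, 3 * Rd.m + Rd.e ≤ r →
        (∀ qv : Fin r → ℕ, Nonempty (GaloisRep.DeformationRingData 𝒪 (s59i_rhobarW W p hΔ 𝒪 hp𝒪)
          (fun _A _ _ _ ρ =>
            GaloisRep.flatCondition 𝒪 p (Rd.Smin ∪ (Bd ∪ Rd.Ed) ∪ Finset.univ.image qv) ρ ∧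
              ∀ q ∈ Rd.Smin, q.Prime → q ≠ p → ρ.IsUnipotentOnInertiaAt q))) ∧
        ∃ Bs : s59i_TBase 𝒪 N B (fun ℓ => W.apOfModel ℓ) Rd.m r (s59q_ZIdx Rd.m Rd.e)
            (s59i_rhobarW W p hΔ 𝒪 hp𝒪) (fun j => (Rd.pr (Sum.inl j) : ℕ)),
          ∀ (n : ℕ) (qv : Fin r → ℕ), Function.Injective qv →
            (∀ i, (qv i).Prime ∧ qv i ∉ B ∧ p ^ (n + 1) ∣ qv i - 1) →
            (∀ i, ∀ A : ValuationSubring (AlgebraicClosure ℚ), A.LiesOverPrime (qv i) →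
              ∀ φ : Γℚ, A.IsFrobeniusAt φ (qv i) →
                ∃ α β : ResidueField 𝒪, α ≠ β ∧
                  LinearMap.charpoly ((s59i_rhobarW W p hΔ 𝒪 hp𝒪).ρ φ) = (X - C α) * (X - C β)) →
            ∀ DQ : GaloisRep.DeformationRingData 𝒪 (s59i_rhobarW W p hΔ 𝒪 hp𝒪) (fun _A _ _ _ ρ =>
              GaloisRep.flatCondition 𝒪 p (Rd.Smin ∪ (Bd ∪ Rd.Ed) ∪ Finset.univ.image qv) ρ ∧
                ∀ q ∈ Rd.Smin, q.Prime → q ≠ p → ρ.IsUnipotentOnInertiaAt q),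
              Nonempty (s59i_TLevel Bs (fun j => Rd.σq (Sum.inl j)) DQ n))
    (HB : (∃ q ∈ Bd, s59i_UnrPt p N B (fun ℓ => W.apOfModel ℓ) q) →
      ∃ q ∈ Bd, s44i_LevelOcc (N / q) p (fun ℓ => W.apOfModel ℓ) B) :
    ∃ q ∈ Bd, s44i_LevelOcc (N / q) p (fun ℓ => W.apOfModel ℓ) B := by
  classical
  have hpp : p.Prime := (inferInstance : Fact p.Prime).out
  -- the exponent of the roots of unity
  set v : ℕ := Bd.sup id with hv
  have hvq : ∀ q ∈ Bd, ¬ p ^ (v + 1) ∣ q - 1 := by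
    intro q hq hd
    have hqv : q ≤ v := Finset.le_sup (f := id) hq
    have hq2 := (H.hBd q hq).1.two_le
    have h1 : p ^ (v + 1) ≤ q - 1 := Nat.le_of_dvd (by omega) hd
    have h2 : v + 1 < p ^ (v + 1) := Nat.lt_pow_self hpp.one_lt
    omega
  -- the coefficient ring
  obtain ⟨𝒪, i1, i2, i3, i4, i5, i6, i7, i8, i9, hp𝒪, hζ, hsplit⟩ :=
    s59q_exists_coeffRing_padic p (p ^ v) (pow_pos hpp.pos v)
  -- the two packages
  obtain ⟨Rd⟩ := HR 𝒪 hp𝒪 hsplit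
  have HT' := HT 𝒪 hp𝒪 hsplit v hvq hζ Rd
  -- an index in `Bd`
  have hm : 0 < Rd.m := by
    obtain ⟨q, hq⟩ := H.hne
    have hq' : q ∈ Finset.univ.image (fun j : Fin Rd.m => (Rd.pr (Sum.inl j) : ℕ)) :=
      (Finset.ext_iff.mp Rd.hprB _).mpr hq
    rw [Finset.mem_image] at hq'
    obtain ⟨j, -, -⟩ := hq'
    exact j.pos
  have hU := s59i_FINA4 p hp2 N B (fun ℓ => W.apOfModel ℓ) hp𝒪
    (s59i_rhobarW W p hΔ 𝒪 hp𝒪) Rd.habs Rd.hdet Rd.hsplit Rd.hTW B Rd.Smin Bd Rd.Ed Rd.hpSmin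
    Rd.hSmin Rd.hBS Rd.hES Rd.hBprime Rd.hEprime Rd.hmin Rd.hBunr Rd.hEunr Rd.hBE Rd.hcen Rd.Nd
    Rd.m Rd.e Rd.pr Rd.hprB Rd.hprE Rd.hBinj Rd.hEinj Rd.σq Rd.φq Rd.hσq Rd.hφq Rd.D Rd.P Rd.P'
    Rd.hPP' Rd.hP'P Rd.αE Rd.βE Rd.hαβ Rd.hαβ' Rd.hdiag Rd.hαE Rd.hβE Rd.hDu Rd.hqB HT' ⟨0, hm⟩
  have hmem : ((Rd.pr (Sum.inl ⟨0, hm⟩) : ℕ)) ∈ Bd := by
    have h1 : ((Rd.pr (Sum.inl ⟨0, hm⟩) : ℕ)) ∈
        Finset.univ.image (fun j : Fin Rd.m => (Rd.pr (Sum.inl j) : ℕ)) :=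
      Finset.mem_image_of_mem (fun j : Fin Rd.m => (Rd.pr (Sum.inl j) : ℕ))
        (Finset.mem_univ (⟨0, hm⟩ : Fin Rd.m))
    exact (Finset.ext_iff.mp Rd.hprB _).mp h1
  exact HB ⟨_, hmem, hU⟩

end Fermat.Agent.Lib.S59
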