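/-
PROGRAMME R2 = S59, background track (helper3, prefix `s59u_`): **[CONG-ALL] — FROM THE OCCURRENCE AWAY FROM `B` TO RESIDUAL
MODULARITY.**

`s44i_LevelOcc M p a_W B` (a normalized eigenform `g` of level `M` and a maximal ideal `𝔪 ∋ p` with `a_ℓ(g) ≡ a_ℓ(W)` mod `𝔪` for
the primes `ℓ ∉ B`) gives `W.IsResiduallyModularOfLevel p M`, i.e. the congruence at EVERY good prime `ℓ ∤ M p` of `W`
(for the Frey curve the only prime concerned, `q ∈ Bd`, is bad, so this step was vacuous in S43; for a general `W` it is not).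

Proof: the residual representation `ρ̄_g` over `k = ℤ̄ / 𝔪` (`s29pk_two_dim`, main) and `ρ̄_W` (`s59i_rhobarW` at `𝒪 = ℤ_p`) have the
same characteristic polynomial at the Frobenius elements of the primes outside a finite set; every element of a finite Galois
level is a POWER of such a Frobenius (`s29d_frobDensity`, main), and in dimension two the trace of `A ^ j` is the Lucas polynomial
`V_j(tr A, det A)`; so the two trace functions agree on `G_ℚ`, in particular at a Frobenius at `ℓ`.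

* `s59u_lucasV`, `s59u_mat_trace_pow`, `s59u_trace_pow` : `tr (f ^ j) = V_j(tr f, det f)` in rank two;
* `s59u_exists_rhoG`  : `ρ̄_g` over an abstract field of characteristic `p`;
* `s59u_resPadicTo`   : `ResidueField ℤ_p → k`;
* `s59u_traceFun_of_rep` : finite level + power rule for the pushed trace function of a two-dimensional representation;
* **`s59u_cong_all`** : `s44i_LevelOcc M p a_W B → W.IsResiduallyModularOfLevel p M` (`p ≠ 2`, `W[p]` irreducible — only because the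
  landed `s59b_rhobar_charpoly_frob` asks for them).
-/
import Mathlib
import Fermat.Agent.Lib.S29.KappaFinal
import Fermat.Agent.Lib.S29.GSTop
import Fermat.Agent.Lib.S29.PackFrey
import Fermat.Agent.Lib.S29.FDPlace
import Fermat.Agent.Lib.S59.EWRho
import Fermat.Agent.Lib.S59.ETWRes
import Fermat.Agent.Lib.Frobenius.Exists

set_option autoImplicit false
set_option linter.unusedSectionVars false
set_option linter.unusedVariables false
set_option linter.style.haveILetI false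

open Polynomial IsLocalRing

noncomputable section

namespace Fermat.Agent.Lib.S59

open Fermat.Agent.Lib.S29 Fermat.Agent.Lib.S44

local notation "Zbar" => integralClosure ℤ ℂ
local notation "Qbar" => AlgebraicClosure ℚ
local notation "Γℚ" => (AlgebraicClosure ℚ ≃ₐ[ℚ] AlgebraicClosure ℚ)


/-- the Lucas sequence `V_j(t, d)`: `V_0 = 2`, `V_1 = t`, `V_{j+2} = t V_{j+1} - d V_j`
(`= tr (A ^ j)` for a `2 × 2` matrix with trace `t` and determinant `d`). -/
def s59u_lucasV {K : Type*} [CommRing K] (t d : K) : ℕ → K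
  | 0 => 2
  | 1 => t
  | (j + 2) => t * s59u_lucasV t d (j + 1) - d * s59u_lucasV t d j

theorem s59u_lucasV_map {K K' : Type*} [CommRing K] [CommRing K'] (ι : K →+* K') (t d : K) :
    ∀ j : ℕ, ι (s59u_lucasV t d j) = s59u_lucasV (ι t) (ι d) j := by
  intro j
  induction j using Nat.strong_induction_on with
  | _ j ih =>
    match j with
    | 0 => simp only [s59u_lucasV]; exact map_ofNat ι 2
    | 1 => simp [s59u_lucasV]
    | (j + 2) =>
      rw [s59u_lucasV, s59u_lucasV, map_sub, map_mul, map_mul, ih (j + 1) (by omega),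
        ih j (by omega)]

/-- Cayley–Hamilton in dimension two. -/
theorem s59u_mat_sq {K : Type*} [CommRing K] (A : Matrix (Fin 2) (Fin 2) K) :
    A * A = A.trace • A - A.det • (1 : Matrix (Fin 2) (Fin 2) K) := by
  ext i j
  fin_cases i <;> fin_cases j <;>
    simp [Matrix.mul_apply, Fin.sum_univ_two, Matrix.trace_fin_two, Matrix.det_fin_two] <;> ring

theorem s59u_mat_trace_pow {K : Type*} [CommRing K] (A : Matrix (Fin 2) (Fin 2) K) :
    ∀ j : ℕ, (A ^ j).trace = s59u_lucasV A.trace A.det j := by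
  intro j
  induction j using Nat.strong_induction_on with
  | _ j ih =>
    match j with
    | 0 => simp [s59u_lucasV]
    | 1 => simp [s59u_lucasV]
    | (j + 2) =>
      have h : A ^ (j + 2) = A.trace • A ^ (j + 1) - A.det • A ^ j := by
        rw [pow_add, pow_two, s59u_mat_sq, mul_sub, Matrix.mul_smul, Matrix.mul_smul, mul_one,
          ← pow_succ]
      rw [h, Matrix.trace_sub, Matrix.trace_smul, Matrix.trace_smul, ih (j + 1) (by omega),
        ih j (by omega), s59u_lucasV, smul_eq_mul, smul_eq_mul]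

/-- the trace of a power of an endomorphism of a free module of rank two. -/
theorem s59u_trace_pow {K V : Type*} [CommRing K] [Nontrivial K] [AddCommGroup V] [Module K V]
    [Module.Free K V] [Module.Finite K V] (h2 : Module.finrank K V = 2) (f : Module.End K V)
    (j : ℕ) :
    LinearMap.trace K V (f ^ j) = s59u_lucasV (LinearMap.trace K V f) (LinearMap.det f) j := by
  classical
  let b : Module.Basis (Fin 2) K V := Module.finBasisOfFinrankEq K V h2
  have e1 : ∀ g : Module.End K V, LinearMap.trace K V g = (LinearMap.toMatrix b b g).trace :=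
    fun g => LinearMap.trace_eq_matrix_trace K b g
  have e2 : (LinearMap.toMatrix b b f).det = LinearMap.det f := LinearMap.det_toMatrix b f
  have e3 : LinearMap.toMatrix b b (f ^ j) = (LinearMap.toMatrix b b f) ^ j := by
    have := map_pow (LinearMap.toMatrixAlgEquiv b) f j
    exact this
  rw [e1 (f ^ j), e3, s59u_mat_trace_pow, ← e1 f, e2]

theorem s59u_det_pow {K V : Type*} [CommRing K] [AddCommGroup V] [Module K V]
    (f : Module.End K V) (j : ℕ) : LinearMap.det (f ^ j) = LinearMap.det f ^ j :=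
  map_pow _ f j

/-- trace and determinant from the characteristic polynomial, rank two. -/
theorem s59u_trdet_of_charpoly {K V : Type*} [CommRing K] [Nontrivial K] [AddCommGroup V]
    [Module K V] [Module.Free K V] [Module.Finite K V] (h2 : Module.finrank K V = 2)
    (f : Module.End K V) (t d : K)
    (h : LinearMap.charpoly f = Polynomial.X ^ 2 - Polynomial.C t * Polynomial.X + Polynomial.C d) :
    LinearMap.trace K V f = t ∧ LinearMap.det f = d := by
  classical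
  let b : Module.Basis (Fin 2) K V := Module.finBasisOfFinrankEq K V h2
  have e1 : LinearMap.trace K V f = (LinearMap.toMatrix b b f).trace :=
    LinearMap.trace_eq_matrix_trace K b f
  have e2 : (LinearMap.toMatrix b b f).det = LinearMap.det f := LinearMap.det_toMatrix b f
  have e3 : (LinearMap.toMatrix b b f).charpoly = LinearMap.charpoly f :=
    LinearMap.charpoly_toMatrix f b
  rw [Matrix.charpoly_fin_two, h] at e3
  have h1 := congrArg (fun q => Polynomial.coeff q 1) e3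
  have h0 := congrArg (fun q => Polynomial.coeff q 0) e3
  simp [Polynomial.coeff_X, Polynomial.coeff_C, Polynomial.coeff_X_pow] at h1 h0
  refine ⟨?_, ?_⟩
  · rw [e1]; exact h1
  · exact h0





attribute [local instance] Ideal.Quotient.field in
/-- **the residual representation of an eigenform modulo `𝔪`**, over an abstract field. -/
theorem s59u_exists_rhoG {M : ℕ} [NeZero M] {g : CuspForm (CongruenceSubgroup.Gamma0 M) 2}
    (hg : g.IsNormalizedEigenform) (p : ℕ) [Fact p.Prime] (𝔪 : Ideal Zbar) (hmax : 𝔪.IsMaximal)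
    (hp𝔪 : (p : Zbar) ∈ 𝔪) :
    ∃ (k : Type) (_ : Field k) (_ : CharP k p) (φ : Zbar →+* k)
      (ρ' : Γℚ →* Module.End k (Fin 2 → k)),
      (∀ x : Zbar, φ x = 0 ↔ x ∈ 𝔪) ∧
      (∃ L : IntermediateField ℚ Qbar, FiniteDimensional ℚ L ∧
        ∀ σ : Γℚ, (∀ x ∈ L, σ x = x) → ρ' σ = 1) ∧
      (∀ ℓ : ℕ, ℓ.Prime → ¬ ℓ ∣ M * p →
        ∀ A : ValuationSubring Qbar, A.LiesOverPrime ℓ → ∀ σ : Γℚ, A.IsFrobeniusAt σ ℓ →
          ∃ a : Zbar, (a : ℂ) = ModularFormClass.qCoeff g ℓ ∧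
            LinearMap.charpoly (ρ' σ) = X ^ 2 - C (φ a) * X + C ((ℓ : k))) := by
  have := hmax
  have hchar : CharP (Zbar ⧸ 𝔪) p := s29pk_charP_quotient 𝔪 hp𝔪
  have : IsAlgClosed (Zbar ⧸ 𝔪) := s29pk_isAlgClosed 𝔪
  let _ : Algebra (ZMod p) (Zbar ⧸ 𝔪) := ZMod.algebra _ p
  obtain ⟨ρ', hL, hloc⟩ := s29pk_two_dim (s29g_GSOut s29a_eigenSupportFinal) hg (p := p)
    (Ideal.Quotient.mk 𝔪)
  refine ⟨Zbar ⧸ 𝔪, inferInstance, hchar, Ideal.Quotient.mk 𝔪, ρ', ?_, hL, ?_⟩
  · intro x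
    exact Ideal.Quotient.eq_zero_iff_mem
  · intro ℓ hℓ hℓN A hA σ hσ
    exact (hloc ℓ hℓ hℓN A hA).2 σ hσ




/-- the canonical map from the residue field of `ℤ_p` to a field of characteristic `p`. -/
def s59u_resPadicTo (p : ℕ) [Fact p.Prime] (k : Type*) [Field k] [CharP k p] :
    ResidueField ℤ_[p] →+* k :=
  Ideal.Quotient.lift (maximalIdeal ℤ_[p]) ((ZMod.castHom (dvd_refl p) k).comp PadicInt.toZMod)
    (by
      intro a ha
      rw [← PadicInt.ker_toZMod] at ha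
      rw [RingHom.comp_apply, RingHom.mem_ker.mp ha, map_zero])

theorem s59u_resPadicTo_residue (p : ℕ) [Fact p.Prime] (k : Type*) [Field k] [CharP k p]
    (x : ℤ_[p]) :
    s59u_resPadicTo p k (residue ℤ_[p] x) = ZMod.castHom (dvd_refl p) k (PadicInt.toZMod x) :=
  rfl

theorem s59u_resPadicTo_intCast (p : ℕ) [Fact p.Prime] (k : Type*) [Field k] [CharP k p]
    (n : ℤ) : s59u_resPadicTo p k (residue ℤ_[p] ((n : ℤ) : ℤ_[p])) = (n : k) := by
  rw [s59u_resPadicTo_residue, map_intCast, map_intCast]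

theorem s59u_resPadicTo_natCast (p : ℕ) [Fact p.Prime] (k : Type*) [Field k] [CharP k p]
    (n : ℕ) : s59u_resPadicTo p k (residue ℤ_[p] ((n : ℕ) : ℤ_[p])) = (n : k) := by
  rw [s59u_resPadicTo_residue, map_natCast, map_natCast]

theorem s59u_p_mem_padic (p : ℕ) [Fact p.Prime] : ((p : ℕ) : ℤ_[p]) ∈ maximalIdeal ℤ_[p] := by
  rw [PadicInt.maximalIdeal_eq_span_p]
  exact Ideal.subset_span rfl


/-- agreement on a finite level: two automorphisms which agree on a level of `ρ` have the same image. -/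
theorem s59u_rep_eq_of_agree {Mo : Type*} [Monoid Mo] (ρ : Γℚ →* Mo)
    (L : IntermediateField ℚ Qbar) (hL : ∀ σ : Γℚ, (∀ x ∈ L, σ x = x) → ρ σ = 1)
    (σ τ : Γℚ) (h : ∀ x ∈ L, σ x = τ x) : ρ σ = ρ τ := by
  have h1 : ρ (τ⁻¹ * σ) = 1 := by
    apply hL
    intro x hx
    show τ⁻¹ (σ x) = x
    rw [h x hx]
    exact τ.symm_apply_apply x
  have h2 : ρ σ = ρ (τ * (τ⁻¹ * σ)) := by rw [mul_inv_cancel_left]
  rw [h2, map_mul, h1, mul_one]

/-- the pushed trace of a power, for a representation of rank two. -/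
theorem s59u_trace_rep_pow {𝔽 : Type*} [Field 𝔽] {V : Type*} [AddCommGroup V] [Module 𝔽 V]
    [Module.Finite 𝔽 V] (h2 : Module.finrank 𝔽 V = 2) (ρ : Γℚ →* Module.End 𝔽 V)
    {k : Type*} [CommRing k] (ι : 𝔽 →+* k) (σ : Γℚ) (j : ℕ) :
    ι (LinearMap.trace 𝔽 V (ρ (σ ^ j))) =
      s59u_lucasV (ι (LinearMap.trace 𝔽 V (ρ σ))) (ι (LinearMap.det (ρ σ))) j := by
  rw [map_pow, s59u_trace_pow h2, s59u_lucasV_map]

/-- **[CONG-ALL]**: the occurrence away from `B` gives residual modularity of the same level. -/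
theorem s59u_cong_all (W : WeierstrassCurve ℤ) (hΔ : W.Δ ≠ 0) (p : ℕ) [Fact p.Prime]
    (hp2 : p ≠ 2) (hirr : W.ModRepIsIrreducible p) (M : ℕ) [NeZero M] (B : Finset ℕ)
    (hocc : s44i_LevelOcc M p (fun ℓ => W.apOfModel ℓ) B) :
    W.IsResiduallyModularOfLevel p M := by
  classical
  have hpp : p.Prime := Fact.out
  obtain ⟨g, 𝔪, hg, hmax, hp𝔪, hcong⟩ := hocc
  refine ⟨g, 𝔪, hg, hmax, hp𝔪, ?_⟩
  -- the two representations
  obtain ⟨k, ik, ichar, φ, ρ', hφ, ⟨L₂, hL₂, hL₂σ⟩, hloc⟩ := s59u_exists_rhoG hg p 𝔪 hmax hp𝔪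
  have hp𝒪 : ((p : ℕ) : ℤ_[p]) ∈ maximalIdeal ℤ_[p] := s59u_p_mem_padic p
  set ρW := s59i_rhobarW W p hΔ ℤ_[p] hp𝒪 with hρW
  obtain ⟨L₁, hL₁, hL₁σ⟩ := ρW.factorsThroughFiniteLevel
  set ι := s59u_resPadicTo p k with hι
  -- a common Galois level
  obtain ⟨E, hE, hEn, h1E, h2E⟩ := s29pk_exists_galois_level L₁ L₂
  have hEst : ∀ σ : Γℚ, ∀ x ∈ E, σ x ∈ E := by
    intro σ x hx
    have := (IntermediateField.normal_iff_forall_map_le' (K := E)).mp hEn σ
    exact this ⟨x, hx, rfl⟩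
  -- the trace functions
  set T₁ : Γℚ → k := fun σ => LinearMap.trace k (Fin 2 → k) (ρ' σ) with hT₁
  set T₂ : Γℚ → k := fun σ => ι (LinearMap.trace _ ρW.V (ρW.ρ σ)) with hT₂
  have h2k : Module.finrank k (Fin 2 → k) = 2 := by simp
  -- the bad set
  set S : Finset ℕ := B ∪ {p} ∪ M.primeFactors ∪ W.Δ.natAbs.primeFactors with hS
  -- Frobenius elements outside `S`
  have hfrob : ∀ ℓ : ℕ, ℓ.Prime → ℓ ≠ p → ¬ ℓ ∣ M → W.IsGoodPrimeFor ℓ →
      ∀ A : ValuationSubring Qbar, A.LiesOverPrime ℓ → ∀ σ : Γℚ, A.IsFrobeniusAt σ ℓ →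
        ∃ a : Zbar, (a : ℂ) = ModularFormClass.qCoeff g ℓ ∧ T₁ σ = φ a ∧
          LinearMap.det (ρ' σ) = (ℓ : k) ∧
          T₂ σ = ((W.apOfModel ℓ : ℤ) : k) ∧ ι (LinearMap.det (ρW.ρ σ)) = (ℓ : k) := by
    intro ℓ hℓ hℓp hℓM hgood A hA σ hσ
    have hℓMp : ¬ ℓ ∣ M * p := by
      intro hd
      rcases hℓ.dvd_mul.mp hd with h | h
      · exact hℓM h
      · exact hℓp ((Nat.prime_dvd_prime_iff_eq hℓ hpp).mp h)
    obtain ⟨a, ha, hchar⟩ := hloc ℓ hℓ hℓMp A hA σ hσ
    obtain ⟨e1, e2⟩ := s59u_trdet_of_charpoly h2k (ρ' σ) _ _ hchar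
    have hcharW := s59b_rhobar_charpoly_frob (𝒪 := ℤ_[p]) (W := W) (p := p) hΔ hp2 hirr hp𝒪 ℓ hℓ hℓp
      hgood A hA σ hσ
    obtain ⟨e3, e4⟩ := s59u_trdet_of_charpoly ρW.finrank_eq (ρW.ρ σ) _ _ hcharW
    refine ⟨a, ha, e1, e2, ?_, ?_⟩
    · show ι (LinearMap.trace _ ρW.V (ρW.ρ σ)) = _
      rw [e3, hι, s59u_resPadicTo_intCast]
    · rw [e4, hι, s59u_resPadicTo_natCast]
  -- the congruence outside `B` in `k`
  have hcongk : ∀ ℓ : ℕ, ℓ.Prime → ℓ ∉ B → ∀ a : Zbar, (a : ℂ) = ModularFormClass.qCoeff g ℓ →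
      φ a = ((W.apOfModel ℓ : ℤ) : k) := by
    intro ℓ hℓ hℓB a ha
    obtain ⟨α, hα, hmem⟩ := hcong ℓ hℓ hℓB
    have haα : a = α := Subtype.ext (ha.trans hα.symm)
    have h0 : φ (α - ((W.apOfModel ℓ : ℤ) : Zbar)) = 0 := (hφ _).mpr hmem
    rw [map_sub, map_intCast, sub_eq_zero] at h0
    rw [haα, h0]
  -- the two trace functions agree
  have hTT : ∀ g₀ : Γℚ, T₁ g₀ = T₂ g₀ := by
    intro g₀
    obtain ⟨ℓ, A, σ, j, hℓ, hℓS, hA, hσ, hσg⟩ := s29d_frobDensity E hE hEst S g₀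
    have hℓB : ℓ ∉ B := fun h => hℓS (Finset.mem_union_left _ (Finset.mem_union_left _
      (Finset.mem_union_left _ h)))
    have hℓp : ℓ ≠ p := fun h => hℓS (Finset.mem_union_left _ (Finset.mem_union_left _
      (Finset.mem_union_right _ (by rw [h]; exact Finset.mem_singleton_self _))))
    have hℓM : ¬ ℓ ∣ M := fun h => hℓS (Finset.mem_union_left _ (Finset.mem_union_right _
      (Nat.mem_primeFactors.mpr ⟨hℓ, h, NeZero.ne M⟩)))
    have hgood : W.IsGoodPrimeFor ℓ := by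
      intro hdvd
      apply hℓS
      apply Finset.mem_union_right
      rw [Nat.mem_primeFactors]
      exact ⟨hℓ, Int.natCast_dvd.mp hdvd, Int.natAbs_ne_zero.mpr hΔ⟩
    obtain ⟨a, ha, e1, e2, e3, e4⟩ := hfrob ℓ hℓ hℓp hℓM hgood A hA σ hσ
    have hA1 : ρ' g₀ = ρ' (σ ^ j) :=
      s59u_rep_eq_of_agree ρ' L₂ hL₂σ g₀ (σ ^ j) (fun x hx => (hσg x (h2E hx)).symm)
    have hA2 : ρW.ρ g₀ = ρW.ρ (σ ^ j) :=
      s59u_rep_eq_of_agree ρW.ρ L₁ hL₁σ g₀ (σ ^ j) (fun x hx => (hσg x (h1E hx)).symm)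
    have hB1 := s59u_trace_rep_pow h2k ρ' (RingHom.id k) σ j
    have hB2 := s59u_trace_rep_pow ρW.finrank_eq ρW.ρ ι σ j
    show LinearMap.trace k (Fin 2 → k) (ρ' g₀) = ι (LinearMap.trace _ ρW.V (ρW.ρ g₀))
    rw [hA1, hA2, hB2]
    have hB1' : LinearMap.trace k (Fin 2 → k) (ρ' (σ ^ j)) =
        s59u_lucasV (LinearMap.trace k (Fin 2 → k) (ρ' σ)) (LinearMap.det (ρ' σ)) j := hB1
    rw [hB1']
    have e1' : LinearMap.trace k (Fin 2 → k) (ρ' σ) = φ a := e1
    have e3' : ι (LinearMap.trace _ ρW.V (ρW.ρ σ)) = ((W.apOfModel ℓ : ℤ) : k) := e3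
    rw [e1', e2, e3', e4, hcongk ℓ hℓ hℓB a ha]
  -- the congruence at every good prime
  intro ℓ hℓ hgood hℓM hℓp
  obtain ⟨A, hA⟩ := Fermat.Agent.Lib.Frobenius.exists_liesOverPrime ℓ hℓ
  obtain ⟨σ, hσ⟩ := Fermat.Agent.Lib.Frobenius.exists_isFrobeniusAt_of_liesOverPrime A ℓ hℓ hA
  obtain ⟨a, ha, e1, -, e3, -⟩ := hfrob ℓ hℓ hℓp hℓM hgood A hA σ hσ
  refine ⟨a, ha, ?_⟩
  apply (hφ _).mp
  rw [map_sub, map_intCast, ← e1, ← e3]
  exact sub_eq_zero.mpr (hTT σ)

end Fermat.Agent.Lib.S59
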