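/-
Programme R2 (S59), p = 3 port (helper5), file 24: **[IA′-core]_W, FLAT, EVEN LEVEL, `p ∈ {3, 5}`, WITH (E2′)-PRIMES IN THE LEVEL** (case (b) of Graph v3.6/v3.7
at `(p, q) = (3, 2)`: `W` good at `2`, `3 ∤ a₂(W)`).

* `s59e3i_IAcoreW_pt_E`   : helper4's pointwise assembly `s59i_IAcoreW_pt` (LFinW2) with the `R`-side datum at a level `N'` decoupled from the
                            `T`-side level `N` (the field `hNSg` of `s59i_RData` is the only place where the level enters);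
* `s59e3u_IAcoreW_even_E` : `R`-side at `N'` (`s59e3q_RPkgW_E`), `T`-side at `N` (`s59e3e_TPkgW_E`), FIN-B at `N` (`s59e3u_W_FinB_E`);
* `s59e3u_IAflat_even_E`  : the node form: `M` squarefree even, `p ∤ M`, `Bd ≠ ∅` unramified scalar primes `≡ 1 (p)`, every other prime `ℓ ≠ p` of `M`
                            ramified, or tolerated (`p ∤ ℓ² − 1`), or **of type (E2′)**: `W` good at `ℓ`, `p ∤ ℓ − 1`, `p ∤ a_ℓ² − (ℓ+1)²`.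
-/
import Mathlib
import Fermat.Agent.Lib.S59.LFinW2
import Fermat.Agent.Lib.S59.UCongAll
import Fermat.Agent.Lib.S59.E3TPkgWE
import Fermat.Agent.Lib.S59.E3FinBE

set_option autoImplicit false
set_option linter.unusedSectionVars false
set_option linter.unusedVariables false
set_option linter.style.haveILetI false
set_option maxHeartbeats 1600000

noncomputable section

namespace Fermat.Agent.Lib.S59

open IsLocalRing CuspForm Polynomial ExtCitation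
open WeierstrassCurve WeierstrassCurve.Affine WeierstrassCurve.Affine.Point
open Fermat.Agent.Lib.S53 (matOf matOfRes NormData)
open Fermat.Agent.Lib.S44

local notation "Γℚ" => (AlgebraicClosure ℚ ≃ₐ[ℚ] AlgebraicClosure ℚ)

/-- **[IA′-core] for `W` at ONE tuple, `R`-side datum at the level `N'`, `T`-side at the level `N`.** -/
theorem s59e3i_IAcoreW_pt_E (p : ℕ) [Fact p.Prime] (hp2 : p ≠ 2) (W : WeierstrassCurve ℤ) (hΔ : W.Δ ≠ 0)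
    (N N' : ℕ) [NeZero N] (Bd B : Finset ℕ) (H : s59e3i_IAHypE W p N Bd B)
    (HR : ∀ (𝒪 : Type) [CommRing 𝒪] [IsDomain 𝒪] [IsDiscreteValuationRing 𝒪]
      [IsAdicComplete (maximalIdeal 𝒪) 𝒪] [Finite (ResidueField 𝒪)] [CharZero 𝒪]
      [Algebra ℤ_[p] 𝒪] [Module.Finite ℤ_[p] 𝒪]
      (hp𝒪 : ((p : ℕ) : 𝒪) ∈ maximalIdeal 𝒪)
      (_ : ∀ a b : ℤ, ∃ α β : ResidueField 𝒪,
        α + β = (a : ResidueField 𝒪) ∧ α * β = (b : ResidueField 𝒪)),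
      Nonempty (s59i_RData p N' (s59i_rhobarW W p hΔ 𝒪 hp𝒪) B Bd))
    (HT : ∀ (𝒪 : Type) [CommRing 𝒪] [IsDomain 𝒪] [IsDiscreteValuationRing 𝒪]
      [IsAdicComplete (maximalIdeal 𝒪) 𝒪] [Finite (ResidueField 𝒪)] [CharZero 𝒪]
      [Algebra ℤ_[p] 𝒪] [Module.Finite ℤ_[p] 𝒪]
      (hp𝒪 : ((p : ℕ) : 𝒪) ∈ maximalIdeal 𝒪)
      (_ : ∀ a b : ℤ, ∃ α β : ResidueField 𝒪,
        α + β = (a : ResidueField 𝒪) ∧ α * β = (b : ResidueField 𝒪))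
      (v : ℕ) (_ : ∀ q ∈ Bd, ¬ p ^ (v + 1) ∣ q - 1) (_ : ∃ ζ : 𝒪, IsPrimitiveRoot ζ (p ^ v))
      (Rd : s59i_RData p N' (s59i_rhobarW W p hΔ 𝒪 hp𝒪) B Bd),
      ∀ r : ℕ, 3 * Rd.m + Rd.e ≤ r →
        (∀ qv : Fin r → ℕ, Nonempty (GaloisRep.DeformationRingData 𝒪 (s59i_rhobarW W p hΔ 𝒪 hp𝒪)
          (fun _A _ _ _ ρ =>
            GaloisRep.flatCondition 𝒪 p (Rd.Smin ∪ (Bd ∪ Rd.Ed) ∪ Finset.univ.image qv) ρ ∧
              ∀ q ∈ Rd.Smin, q.Prime → q ≠ p → ρ.IsUnipotentOnInertiaAt q))) ∧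
        ∃ Bs : s59i_TBase 𝒪 N B (fun ℓ => W.apOfModel ℓ) Rd.m r (s59q_ZIdx Rd.m Rd.e)
            (s59i_rhobarW W p hΔ 𝒪 hp𝒪) (fun j => (Rd.pr (Sum.inl j) : ℕ)),
          ∀ (n : ℕ) (qv : Fin r → ℕ), Function.Injective qv →
            (∀ i, (qv i).Prime ∧ qv i ∉ B ∧ p ^ (n + 1) ∣ qv i - 1) →
            (∀ i, ∀ A : ValuationSubring (AlgebraicClosure ℚ), A.LiesOverPrime (qv i) →
              ∀ φ : Γℚ, A.IsFrobeniusAt φ (qv i) →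
                ∃ α β : ResidueField 𝒪, α ≠ β ∧
                  LinearMap.charpoly ((s59i_rhobarW W p hΔ 𝒪 hp𝒪).ρ φ) = (X - C α) * (X - C β)) →
            ∀ DQ : GaloisRep.DeformationRingData 𝒪 (s59i_rhobarW W p hΔ 𝒪 hp𝒪) (fun _A _ _ _ ρ =>
              GaloisRep.flatCondition 𝒪 p (Rd.Smin ∪ (Bd ∪ Rd.Ed) ∪ Finset.univ.image qv) ρ ∧
                ∀ q ∈ Rd.Smin, q.Prime → q ≠ p → ρ.IsUnipotentOnInertiaAt q),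
              Nonempty (s59i_TLevel Bs (fun j => Rd.σq (Sum.inl j)) DQ n))
    (HB : (∃ q ∈ Bd, s59i_UnrPt p N B (fun ℓ => W.apOfModel ℓ) q) →
      ∃ q ∈ Bd, s44i_LevelOcc (N / q) p (fun ℓ => W.apOfModel ℓ) B) :
    ∃ q ∈ Bd, s44i_LevelOcc (N / q) p (fun ℓ => W.apOfModel ℓ) B := by
  classical
  have hpp : p.Prime := (inferInstance : Fact p.Prime).out
  -- the exponent of the roots of unity
  set v : ℕ := Bd.sup id with hv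
  have hvq : ∀ q ∈ Bd, ¬ p ^ (v + 1) ∣ q - 1 := by
    intro q hq hd
    have hqv : q ≤ v := Finset.le_sup (f := id) hq
    have hq2 := (H.hBd q hq).1.two_le
    have h1 : p ^ (v + 1) ≤ q - 1 := Nat.le_of_dvd (by omega) hd
    have h2 : v + 1 < p ^ (v + 1) := Nat.lt_pow_self hpp.one_lt
    omega
  -- the coefficient ring
  obtain ⟨𝒪, i1, i2, i3, i4, i5, i6, i7, i8, i9, hp𝒪, hζ, hsplit⟩ :=
    s59q_exists_coeffRing_padic p (p ^ v) (pow_pos hpp.pos v)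
  -- the two packages
  obtain ⟨Rd⟩ := HR 𝒪 hp𝒪 hsplit
  have HT' := HT 𝒪 hp𝒪 hsplit v hvq hζ Rd
  -- an index in `Bd`
  have hm : 0 < Rd.m := by
    obtain ⟨q, hq⟩ := H.hne
    have hq' : q ∈ Finset.univ.image (fun j : Fin Rd.m => (Rd.pr (Sum.inl j) : ℕ)) :=
      (Finset.ext_iff.mp Rd.hprB _).mpr hq
    rw [Finset.mem_image] at hq'
    obtain ⟨j, -, -⟩ := hq'
    exact j.pos
  have hU := s59i_FINA4 p hp2 N B (fun ℓ => W.apOfModel ℓ) hp𝒪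
    (s59i_rhobarW W p hΔ 𝒪 hp𝒪) Rd.habs Rd.hdet Rd.hsplit Rd.hTW B Rd.Smin Bd Rd.Ed Rd.hpSmin
    Rd.hSmin Rd.hBS Rd.hES Rd.hBprime Rd.hEprime Rd.hmin Rd.hBunr Rd.hEunr Rd.hBE Rd.hcen Rd.Nd
    Rd.m Rd.e Rd.pr Rd.hprB Rd.hprE Rd.hBinj Rd.hEinj Rd.σq Rd.φq Rd.hσq Rd.hφq Rd.D Rd.P Rd.P'
    Rd.hPP' Rd.hP'P Rd.αE Rd.βE Rd.hαβ Rd.hαβ' Rd.hdiag Rd.hαE Rd.hβE Rd.hDu Rd.hqB HT' ⟨0, hm⟩
  have hmem : ((Rd.pr (Sum.inl ⟨0, hm⟩) : ℕ)) ∈ Bd := by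
    have h1 : ((Rd.pr (Sum.inl ⟨0, hm⟩) : ℕ)) ∈
        Finset.univ.image (fun j : Fin Rd.m => (Rd.pr (Sum.inl j) : ℕ)) :=
      Finset.mem_image_of_mem (fun j : Fin Rd.m => (Rd.pr (Sum.inl j) : ℕ))
        (Finset.mem_univ (⟨0, hm⟩ : Fin Rd.m))
    exact (Finset.ext_iff.mp Rd.hprB _).mp h1
  exact HB ⟨_, hmem, hU⟩

/-- **[IA′-core] for a general semistable `W`, even level, `p ∈ {3, 5}`, with (E2′)-primes in the level.** -/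
theorem s59e3u_IAcoreW_even_E (p : ℕ) [Fact p.Prime] (hp35 : p = 3 ∨ p = 5)
    (W : WeierstrassCurve ℤ) (hΔ : W.Δ ≠ 0) (N N' : ℕ) [NeZero N] (Bd B : Finset ℕ)
    (H : s59e3i_IAHypE W p N Bd B) (h2N : 2 ∣ N) (hN'N : N' ∣ N)
    (hram : ∀ ℓ : ℕ, ℓ.Prime → ℓ ≠ p → ℓ ∣ N' → ℓ ∉ Bd → ¬ s59_Unr W p ℓ ∨ ¬ p ∣ ℓ ^ 2 - 1)
    (hEW : ∀ q : ℕ, q.Prime → q ∣ N → q ∣ N' ∨
      (W.IsGoodPrimeFor q ∧ ¬ p ∣ q - 1 ∧
        ¬ (p : ℤ) ∣ (W.apOfModel q : ℤ) ^ 2 - ((q : ℤ) + 1) ^ 2)) :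
    ∃ q ∈ Bd, s44i_LevelOcc (N / q) p (fun ℓ => W.apOfModel ℓ) B := by
  have hp2 : p ≠ 2 := by omega
  have hE : ∀ (𝒪 : Type) [CommRing 𝒪] [IsDomain 𝒪] [IsDiscreteValuationRing 𝒪]
      [IsAdicComplete (maximalIdeal 𝒪) 𝒪] [Algebra ℤ_[p] 𝒪]
      (hp𝒪 : ((p : ℕ) : 𝒪) ∈ maximalIdeal 𝒪),
      ∀ q : ℕ, q.Prime → q ∣ N → q ∣ N' ∨ s59e3q_E2Alt p (s59i_rhobarW W p hΔ 𝒪 hp𝒪) q := by
    intro 𝒪 _ _ _ _ _ hp𝒪 q hq hqN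
    rcases hEW q hq hqN with h | ⟨hg, h1, h2⟩
    · exact Or.inl h
    · have hqp : q ≠ p := fun h => H.hpN (h ▸ hqN)
      exact Or.inr (s59e3q_E2Alt_of_good W hΔ hp𝒪 hp2 H.hirr q hq hqp hg h1 h2)
  exact s59e3i_IAcoreW_pt_E p hp2 W hΔ N N' Bd B H
    (fun 𝒪 _ _ _ _ _ _ _ _ hp𝒪 hs => s59e3q_RPkgW_E W hΔ hp𝒪 hp35 N N' Bd B H hN'N hram hs)
    (fun 𝒪 _ _ _ _ _ _ _ _ hp𝒪 hs v hv hζ Rd =>
      s59e3e_TPkgW_E p hp2 W hΔ N Bd B H h2N 𝒪 hp𝒪 hs v hv hζ N' Rd (hE 𝒪 hp𝒪))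
    (s59e3u_W_FinB_E W hΔ p hp2 N Bd B H h2N)

open Classical in
/-- **[IA′-core]_W, flat, even level, node form with (E2′)-primes** (`p ∈ {3, 5}`). -/
theorem s59e3u_IAflat_even_E (p : ℕ) [Fact p.Prime] (hp35 : p = 3 ∨ p = 5)
    (W : WeierstrassCurve ℤ) (hΔ : W.Δ ≠ 0) (hW : W.IsSemistableModel)
    (hirr : W.ModRepIsIrreducible p) (M : ℕ) (hM0 : 0 < M) (hMsq : Squarefree M) (hpM : ¬ p ∣ M)
    (h2M : 2 ∣ M) (Bd : Finset ℕ) (hne : Bd.Nonempty)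
    (hBd : ∀ q ∈ Bd, q.Prime ∧ q ≠ p ∧ q ∣ M ∧ s59_Unr W p q ∧ p ∣ q - 1 ∧ s59_FrobScalar W p q)
    (hram : ∀ ℓ : ℕ, ℓ.Prime → ℓ ≠ p → ℓ ∣ M → ℓ ∉ Bd →
      ¬ s59_Unr W p ℓ ∨ ¬ p ∣ ℓ ^ 2 - 1 ∨
        (W.IsGoodPrimeFor ℓ ∧ ¬ p ∣ ℓ - 1 ∧
          ¬ (p : ℤ) ∣ (W.apOfModel ℓ : ℤ) ^ 2 - ((ℓ : ℤ) + 1) ^ 2))
    (hres : W.IsResiduallyModularOfLevel p M) :
    ∃ q ∈ Bd, W.IsResiduallyModularOfLevel p (M / q) := by
  have hpp : p.Prime := Fact.out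
  have hp2 : p ≠ 2 := by omega
  haveI : NeZero M := ⟨hM0.ne'⟩
  have hB1 : ∀ r : ℕ, r.Prime → r ∣ M * p →
      r ∈ (M * p).primeFactors ∪ W.Δ.natAbs.primeFactors := fun r hr hd =>
    Finset.mem_union_left _ (Nat.mem_primeFactors.mpr
      ⟨hr, hd, Nat.mul_ne_zero hM0.ne' hpp.ne_zero⟩)
  have hB2 : ∀ r : ℕ, r.Prime → ¬ W.IsGoodPrimeFor r →
      r ∈ (M * p).primeFactors ∪ W.Δ.natAbs.primeFactors := by
    intro r hr hbad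
    have hd : (r : ℤ) ∣ W.Δ := by
      by_contra h
      exact hbad h
    exact Finset.mem_union_right _ (Nat.mem_primeFactors.mpr
      ⟨hr, Int.natCast_dvd.mp hd, Int.natAbs_ne_zero.mpr hΔ⟩)
  have hocc : s44i_LevelOcc M p (fun ℓ => W.apOfModel ℓ)
      ((M * p).primeFactors ∪ W.Δ.natAbs.primeFactors) := by
    obtain ⟨f, 𝔪, hf, hmax, hpm, hcong⟩ := hres
    refine ⟨f, 𝔪, hf, hmax, hpm, fun ℓ hℓ hℓB => ?_⟩
    have hgood : W.IsGoodPrimeFor ℓ := by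
      by_contra hbad
      exact hℓB (hB2 ℓ hℓ hbad)
    have hℓM : ¬ ℓ ∣ M := fun hd => hℓB (hB1 ℓ hℓ (hd.mul_right p))
    have hℓp : ℓ ≠ p := by
      rintro rfl
      exact hℓB (hB1 ℓ hℓ (dvd_mul_left ℓ M))
    exact hcong ℓ hℓ hgood hℓM hℓp
  have H : s59e3i_IAHypE W p M Bd ((M * p).primeFactors ∪ W.Δ.natAbs.primeFactors) :=
    { hss := hW
      hirr := hirr
      hN0 := hM0
      hNsq := hMsq
      hpN := hpM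
      hne := hne
      hBd := hBd
      hB1 := hB1
      hB2 := hB2
      hocc := hocc }
  -- the reduced level: the primes of `M` of the old types
  set T : Finset ℕ := M.primeFactors.filter
    (fun ℓ => ℓ ∈ Bd ∨ ¬ s59_Unr W p ℓ ∨ ¬ p ∣ ℓ ^ 2 - 1) with hT
  set N' : ℕ := ∏ ℓ ∈ T, ℓ with hN'
  have hTpr : ∀ ℓ ∈ T, Prime ℓ := fun ℓ hℓ =>
    Nat.prime_iff.mp (Nat.prime_of_mem_primeFactors (Finset.mem_filter.mp hℓ).1)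
  have hN'M : N' ∣ M :=
    Finset.prod_primes_dvd M hTpr (fun ℓ hℓ => Nat.dvd_of_mem_primeFactors (Finset.mem_filter.mp hℓ).1)
  have hmemN' : ∀ ℓ : ℕ, ℓ.Prime → ℓ ∣ N' → ℓ ∈ T := by
    intro ℓ hℓ hd
    obtain ⟨q, hqT, hq⟩ := (Prime.dvd_finset_prod_iff (Nat.prime_iff.mp hℓ) _).mp hd
    have hqpr : q.Prime := Nat.prime_of_mem_primeFactors (Finset.mem_filter.mp hqT).1
    have : ℓ = q := (Nat.prime_dvd_prime_iff_eq hℓ hqpr).mp hq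
    exact this ▸ hqT
  have hram' : ∀ ℓ : ℕ, ℓ.Prime → ℓ ≠ p → ℓ ∣ N' → ℓ ∉ Bd →
      ¬ s59_Unr W p ℓ ∨ ¬ p ∣ ℓ ^ 2 - 1 := by
    intro ℓ hℓ hℓp hd hℓBd
    rcases (Finset.mem_filter.mp (hmemN' ℓ hℓ hd)).2 with h | h
    · exact absurd h hℓBd
    · exact h
  have hEW : ∀ q : ℕ, q.Prime → q ∣ M → q ∣ N' ∨
      (W.IsGoodPrimeFor q ∧ ¬ p ∣ q - 1 ∧
        ¬ (p : ℤ) ∣ (W.apOfModel q : ℤ) ^ 2 - ((q : ℤ) + 1) ^ 2) := by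
    intro q hq hqM
    have hqp : q ≠ p := fun h => hpM (h ▸ hqM)
    have hqpf : q ∈ M.primeFactors := Nat.mem_primeFactors.mpr ⟨hq, hqM, hM0.ne'⟩
    by_cases hqBd : q ∈ Bd
    · exact Or.inl (Finset.dvd_prod_of_mem _ (Finset.mem_filter.mpr ⟨hqpf, Or.inl hqBd⟩))
    rcases hram q hq hqp hqM hqBd with h | h | h
    · exact Or.inl (Finset.dvd_prod_of_mem _ (Finset.mem_filter.mpr ⟨hqpf, Or.inr (Or.inl h)⟩))
    · exact Or.inl (Finset.dvd_prod_of_mem _ (Finset.mem_filter.mpr ⟨hqpf, Or.inr (Or.inr h)⟩))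
    · exact Or.inr h
  obtain ⟨q, hqBd, hoccq⟩ := s59e3u_IAcoreW_even_E p hp35 W hΔ M N' Bd _ H h2M hN'M hram' hEW
  obtain ⟨hq, -, hqM, -, -⟩ := hBd q hqBd
  have hdvd : M / q ∣ M := Nat.div_dvd_of_dvd hqM
  haveI : NeZero (M / q) := ⟨(Nat.pos_of_dvd_of_pos hdvd hM0).ne'⟩
  exact ⟨q, hqBd, s59u_cong_all W hΔ p hp2 hirr (M / q) _ hoccq⟩

end Fermat.Agent.Lib.S59
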