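/-
S59 project (helper5, prefix `s59_`): **the tactic `s59_aux_lemma => tacs`** — runs `tacs` on the main goal and wraps the resulting proof
term into an auxiliary theorem `<decl>._proof_k` (closed over exactly the local hypotheses it uses).  It is the core tactic `as_aux_lemma`
word for word, except that the closure is computed with `zetaDelta := true`: the core version (`zetaDelta := false`) first re-type-checks
the whole segment in `MetaM` (`Meta.check`, transparency `all`), which for the giant final files costs more than the kernel check itself and
runs into the fixed 200000-heartbeat budget of the `FunInfo` realizations of giant-typed constants.  With `zetaDelta := true` there is no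
such pass (let-variables of the context would be expanded instead; the callers have none).  Every auxiliary theorem is an ordinary theorem,
checked by the kernel in a declaration of its own (so the kernel's caches are freed between the segments of a giant proof).
All names are written fully qualified.
-/
import Mathlib

set_option autoImplicit false

namespace Fermat.Agent.Lib.S59

/-- `s59_aux_lemma => tacs`: close the main goal by `tacs`, abstracting the proof into an auxiliary theorem. -/
elab "s59_aux_lemma" " => " s:tacticSeq : tactic => Lean.Elab.Tactic.withMainContext do
  let mvarId ← Lean.Elab.Tactic.getMainGoal
  let mvars ← Lean.Elab.Tactic.run mvarId (Lean.Elab.Tactic.evalTactic s)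
  unless mvars.isEmpty do
    throwError "s59_aux_lemma: there are open goals"
  let e ← Lean.instantiateMVars (Lean.mkMVar mvarId)
  let e ← Lean.Meta.mkAuxTheorem (← mvarId.getType) e (zetaDelta := true)
  mvarId.assign e

end Fermat.Agent.Lib.S59
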