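/-
Programme R (S59), node (E3) (helper5, prefix `s59e_`): THE ABSTRACT QUOTIENT.  `s59e_pow_mem_of_finite`
(an ideal of finite index of a local ring contains a power of every non-unit) and `s59e_subq`
(if `T` is a Galois quotient of `ρ₀.V` with kernel inside `c • ρ₀.V`, `φ c ∈ I`, then
`(ρ₀ ⊗ A).V / I` is a Galois quotient of a finite power of `T`).
-/
import Mathlib
import Fermat.Prelude.Def_GaloisRep_Flat
import Fermat.Prelude.Def_GaloisRep_Adic

set_option autoImplicit false
set_option linter.style.haveILetI false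
set_option linter.unusedSectionVars false

noncomputable section

namespace Fermat.Agent.Lib.S59

open IsLocalRing TensorProduct

local notation "GQ" => (AlgebraicClosure ℚ ≃ₐ[ℚ] AlgebraicClosure ℚ)

/-- in a local ring, an ideal of finite index contains a power of every element of the maximal
ideal. -/
theorem s59e_pow_mem_of_finite {A : Type*} [CommRing A] [IsLocalRing A] (I : Ideal A)
    [Finite (A ⧸ I)] {x : A} (hx : x ∈ maximalIdeal A) : ∃ m : ℕ, x ^ m ∈ I := by
  obtain ⟨a, b, hab, h⟩ := Finite.exists_ne_map_eq_of_infinite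
    (fun n : ℕ => (Ideal.Quotient.mk I x) ^ n)
  wlog hlt : a < b generalizing a b
  · exact this b a (Ne.symm hab) h.symm (lt_of_le_of_ne (not_lt.mp hlt) (Ne.symm hab))
  obtain ⟨k, rfl⟩ := Nat.exists_eq_add_of_lt hlt
  refine ⟨a, ?_⟩
  have h1 : x ^ a * (1 - x ^ (k + 1)) ∈ I := by
    rw [← Ideal.Quotient.eq_zero_iff_mem, map_mul, map_sub, map_one, map_pow, map_pow]
    have : (Ideal.Quotient.mk I x) ^ (a + k + 1) =
        (Ideal.Quotient.mk I x) ^ a * (Ideal.Quotient.mk I x) ^ (k + 1) := by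
      rw [← pow_add, add_assoc]
    rw [this] at h
    linear_combination h
  have hu : IsUnit (1 - x ^ (k + 1)) := by
    by_contra hn
    have h2 : 1 - x ^ (k + 1) ∈ maximalIdeal A := (mem_maximalIdeal _).mpr hn
    have h3 : x ^ (k + 1) ∈ maximalIdeal A := Ideal.pow_mem_of_mem _ hx _ (Nat.succ_pos k)
    have h4 : (1 : A) ∈ maximalIdeal A := by
      have : (1 : A) = (1 - x ^ (k + 1)) + x ^ (k + 1) := by ring
      rw [this]
      exact (maximalIdeal A).add_mem h2 h3
    exact (maximalIdeal A).ne_top_iff_one.mp (maximalIdeal.isMaximal A).ne_top h4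
  obtain ⟨u, hu'⟩ := hu
  have : x ^ a = x ^ a * (1 - x ^ (k + 1)) * ↑u⁻¹ := by
    rw [← hu', mul_assoc, Units.mul_inv, mul_one]
  rw [this]
  exact I.mul_mem_right _ h1

section subq

variable {A₀ A : Type} [CommRing A₀] [IsLocalRing A₀] [CommRing A] [IsLocalRing A]
  (φ : A₀ →+* A) (hφ : IsLocalHom φ) (ρ₀ : GaloisRepAdic A₀)

theorem s59e_levelAction_mk (ρ : GaloisRepAdic A) (I : Ideal A) (σ : GQ) (v : ρ.V) :
    ρ.levelAction I σ (Submodule.Quotient.mk v) = Submodule.Quotient.mk (ρ.ρ σ v) := rfl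

/-- **the abstract quotient**: if `T` is a Galois quotient of `ρ₀.V` whose kernel is contained in
`c • ρ₀.V` with `φ c ∈ I`, then `(ρ₀ ⊗ A).V / I` is a Galois quotient of a finite power of `T`. -/
theorem s59e_subq (I : Ideal A) [Finite (A ⧸ I)] (c : A₀) (hc : φ c ∈ I)
    {T : Type} [AddCommGroup T] [DistribMulAction GQ T] (pr : ρ₀.V →+ T)
    (hsurj : Function.Surjective pr) (hequiv : ∀ (σ : GQ) (v : ρ₀.V), pr (ρ₀.ρ σ v) = σ • pr v)
    (hker : ∀ v : ρ₀.V, pr v = 0 → ∃ w : ρ₀.V, v = c • w) :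
    ∃ (r : ℕ) (π : (Fin r → T) →+ ((ρ₀.baseChangeAlong φ hφ).V ⧸
        (I • (⊤ : Submodule A (ρ₀.baseChangeAlong φ hφ).V)))),
      Function.Surjective π ∧
        ∀ (σ : GQ) (x : Fin r → T), π (σ • x) = (ρ₀.baseChangeAlong φ hφ).levelAction I σ (π x) := by
  letI : Algebra A₀ A := φ.toAlgebra
  have halg : ∀ a : A₀, algebraMap A₀ A a = φ a := fun a => rfl
  set r := Nat.card (A ⧸ I) with hr
  let e : (A ⧸ I) ≃ Fin r := Finite.equivFin _
  let b : Fin r → A := fun j => Quotient.out (e.symm j)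
  have hb : ∀ j, Ideal.Quotient.mk I (b j) = e.symm j := fun j => Ideal.Quotient.mk_out _
  let N : Submodule A (A ⊗[A₀] ρ₀.V) := I • (⊤ : Submodule A (A ⊗[A₀] ρ₀.V))
  -- the map on the power of `ρ₀.V`
  let q₀ : (Fin r → ρ₀.V) →+ ((A ⊗[A₀] ρ₀.V) ⧸ N) :=
    AddMonoidHom.mk' (fun t => Submodule.Quotient.mk (∑ j, b j ⊗ₜ[A₀] t j)) (fun t t' => by
      rw [← Submodule.Quotient.mk_add, ← Finset.sum_add_distrib]
      congr 1
      refine Finset.sum_congr rfl fun j _ => ?_
      rw [Pi.add_apply, tmul_add])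
  have hq₀ : ∀ t, q₀ t = Submodule.Quotient.mk (∑ j, b j ⊗ₜ[A₀] t j) := fun t => rfl
  have hq₀surj : Function.Surjective q₀ := by
    intro y
    induction y using Submodule.Quotient.induction_on with
    | H v =>
      induction v using TensorProduct.induction_on with
      | zero => exact ⟨0, map_zero q₀⟩
      | tmul a v =>
        refine ⟨Pi.single (e (Ideal.Quotient.mk I a)) v, ?_⟩
        rw [hq₀, Finset.sum_eq_single (e (Ideal.Quotient.mk I a))]
        · rw [Pi.single_eq_same, Submodule.Quotient.eq]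
          have h1 : b (e (Ideal.Quotient.mk I a)) - a ∈ I := by
            rw [← Ideal.Quotient.eq, hb, Equiv.symm_apply_apply]
          have h2 : b (e (Ideal.Quotient.mk I a)) ⊗ₜ[A₀] v - a ⊗ₜ[A₀] v =
              (b (e (Ideal.Quotient.mk I a)) - a) • ((1 : A) ⊗ₜ[A₀] v) := by
            rw [← sub_tmul, smul_tmul', smul_eq_mul, mul_one]
          rw [h2]
          exact Submodule.smul_mem_smul h1 Submodule.mem_top
        · intro j _ hj
          rw [Pi.single_eq_of_ne hj, tmul_zero]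
        · intro h
          exact absurd (Finset.mem_univ _) h
      | add v₁ v₂ h₁ h₂ =>
        obtain ⟨t₁, ht₁⟩ := h₁
        obtain ⟨t₂, ht₂⟩ := h₂
        exact ⟨t₁ + t₂, by rw [map_add, ht₁, ht₂, Submodule.Quotient.mk_add]⟩
  -- the projection
  let prr : (Fin r → ρ₀.V) →+ (Fin r → T) :=
    AddMonoidHom.mk' (fun t j => pr (t j)) (fun t t' => by
      funext j
      simp only [Pi.add_apply, map_add])
  have hprr : ∀ t j, prr t j = pr (t j) := fun t j => rfl
  have hprrsurj : Function.Surjective prr := by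
    intro x
    choose t ht using fun j => hsurj (x j)
    exact ⟨t, funext fun j => ht j⟩
  have hle : prr.ker ≤ q₀.ker := by
    intro t ht
    rw [AddMonoidHom.mem_ker] at ht ⊢
    rw [hq₀, Submodule.Quotient.mk_eq_zero]
    refine Submodule.sum_mem _ fun j _ => ?_
    have h0 : pr (t j) = 0 := by rw [← hprr, ht]; rfl
    obtain ⟨w, hw⟩ := hker (t j) h0
    have h1 : b j ⊗ₜ[A₀] t j = φ c • (b j ⊗ₜ[A₀] w) := by
      rw [hw, tmul_smul, smul_tmul', smul_tmul', Algebra.smul_def, halg, smul_eq_mul]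
    rw [h1]
    exact Submodule.smul_mem_smul hc Submodule.mem_top
  let π : (Fin r → T) →+ ((A ⊗[A₀] ρ₀.V) ⧸ N) :=
    AddMonoidHom.liftOfRightInverse prr (Function.surjInv hprrsurj)
      (Function.rightInverse_surjInv hprrsurj) ⟨q₀, hle⟩
  have hπ : ∀ t, π (prr t) = q₀ t := fun t =>
    AddMonoidHom.liftOfRightInverse_comp_apply prr (Function.surjInv hprrsurj)
      (Function.rightInverse_surjInv hprrsurj) ⟨q₀, hle⟩ t
  refine ⟨r, π, ?_, ?_⟩
  · intro y
    obtain ⟨t, ht⟩ := hq₀surj y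
    exact ⟨prr t, (hπ t).trans ht⟩
  · intro σ x
    obtain ⟨t, rfl⟩ := hprrsurj x
    have h1 : σ • prr t = prr (fun j => ρ₀.ρ σ (t j)) := by
      funext j
      rw [Pi.smul_apply, hprr, hprr, hequiv]
    have h2 : π (σ • prr t) = q₀ (fun j => ρ₀.ρ σ (t j)) := by
      rw [h1]
      exact hπ _
    have h3 : q₀ (fun j => ρ₀.ρ σ (t j)) =
        Submodule.Quotient.mk ((ρ₀.ρ σ).baseChange A (∑ j, b j ⊗ₜ[A₀] t j)) := by
      rw [hq₀, map_sum]
      congr 1
    have h4 : π (prr t) = Submodule.Quotient.mk (∑ j, b j ⊗ₜ[A₀] t j) := (hπ t).trans (hq₀ t)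
    exact (h2.trans h3).trans
      (congrArg ((ρ₀.baseChangeAlong φ hφ).levelAction I σ) h4).symm

end subq

end Fermat.Agent.Lib.S59
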