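/-
Programme R (S59), node (E3) (helper5, prefix `s59e_`): **THE FLAT CLAUSE**.
`s59e_torsOrder`: `W[pᵐ](ℚ̄)` carries a Δ-closed function order over `ℤ_(p)` when `p ∤ Δ`
(`s59e_frames` → `s19_order_final` → `s19g_desc`);
`s59e_flat`: `(ρ_W ⊗ 𝒪).IsFlatAt p` for every local `𝒪` with finite residue field and local
`φ : ℤ_p → 𝒪` (`s59e_subq` → `s32_orderPow` → `s19c_orderQuot` → `s19c_hopf_main`).
-/
import Mathlib
import Fermat.Agent.Lib.S59.EFlatFrames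
import Fermat.Agent.Lib.S59.EFlatSubq
import Fermat.Agent.Lib.S59.BRho
import Fermat.Agent.Lib.S19.Final
import Fermat.Agent.Lib.S32.Iface
import Fermat.Agent.Lib.S58.OLevel

set_option autoImplicit false
set_option linter.style.haveILetI false
set_option linter.unusedSectionVars false
set_option synthInstance.maxHeartbeats 400000
set_option maxHeartbeats 1600000

noncomputable section

namespace Fermat.Agent.Lib.S59

open IsLocalRing WeierstrassCurve WeierstrassCurve.Affine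
open Fermat.Agent.Lib.Frey Fermat.Agent.Lib.S41 Fermat.Agent.Lib.S58 Fermat.Agent.Lib.S19
  Fermat.Agent.Lib.S30 Fermat.Agent.Lib.S32 Fermat.Agent.Lib.EN

local notation "Kb" => AlgebraicClosure ℚ
local notation "GQ" => (AlgebraicClosure ℚ ≃ₐ[ℚ] AlgebraicClosure ℚ)

variable {W : WeierstrassCurve ℤ} {p : ℕ} [hp : Fact p.Prime]

/-- the torsion module `W[n](ℚ̄)`. -/
abbrev s59e_Tors (W : WeierstrassCurve ℤ) (n : ℕ) : Type :=
  Submodule.torsionBy ℤ (s58_Pt W) ((n : ℕ) : ℤ)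

theorem s59e_tors_finite (hΔ : W.Δ ≠ 0) (n : ℕ) (hn : 1 ≤ n) : Finite (s59e_Tors W n) := by
  haveI := s58o_isElliptic W hΔ
  have hc : Nat.card (s59e_Tors W n) = n ^ 2 :=
    ent_natCard_torsionBy ((W.map (Int.castRingHom ℚ)).toAffine⁄Kb) n hn
  refine Nat.finite_of_card_ne_zero ?_
  rw [hc]
  positivity

/-- **`W[pᵐ]` carries a Δ-closed function order over `ℤ_(p)`** at a prime of good reduction. -/
theorem s59e_torsOrder (hΔ : W.Δ ≠ 0) (hgood : ¬ (p : ℤ) ∣ W.Δ) (m : ℕ) :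
    ∃ H, s19_IsOrder p (s59e_Tors W (p ^ m)) H := by
  obtain ⟨A, hA⟩ := Fermat.Agent.Lib.Frobenius.exists_liesOverPrime p hp.out
  have hlA : (p : Kb) ∈ A := by
    have h := (ValuationSubring.mem_nonunits_iff_exists_mem_maximalIdeal (A := A)).mp hA
    exact h.choose
  set l : ↥A := ⟨(p : Kb), hlA⟩ with hl
  have hFr := s59e_frames (W := W) hA hΔ hgood l rfl
  haveI : Finite (s59e_Tors W (p ^ m)) := s59e_tors_finite hΔ _ (Nat.one_le_pow _ _ hp.out.pos)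
  have hloc : ∃ HW, s19_IsLocalOrder A (s59e_Tors W (p ^ m)) HW :=
    s19_order_final p A hA l rfl (s58_Pt W) (s59e_J1 W A) 2 Unit (s59e_S W A) hFr
      (s59e_Tors W (p ^ m))
      (Submodule.torsionBy ℤ (s58_Pt W) ((p ^ m : ℕ) : ℤ)).subtype.toAddMonoidHom
      Subtype.val_injective (fun σ x => rfl)
  refine s19g_desc p A hA (s59e_Tors W (p ^ m)) (fun x => ?_) hloc
  obtain ⟨L, hfd, hL⟩ := s58o_ellLevel W hΔ (p ^ m) (pow_pos hp.out.pos m)
  refine ⟨L, hfd, fun σ hσ => Subtype.ext (hL σ hσ x.1 ?_)⟩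
  have := x.2
  rw [Submodule.mem_torsionBy_iff, Nat.cast_smul_eq_nsmul] at this
  exact this

/-- the projection of the Tate module onto `W[pᵐ]`. -/
def s59e_proj (W : WeierstrassCurve ℤ) (p : ℕ) [Fact p.Prime] (m : ℕ) :
    s59b_TW W p →+ s59e_Tors W (p ^ m) :=
  AddMonoidHom.mk' (fun t => ⟨(t : ℕ → s58_Pt W) m, by
    rw [Submodule.mem_torsionBy_iff, Nat.cast_smul_eq_nsmul]
    exact s30a_pow_smul t m⟩) (fun t t' => Subtype.ext (s30a_add_apply t t' m))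

theorem s59e_proj_coe (m : ℕ) (t : s59b_TW W p) :
    ((s59e_proj W p m t : s59e_Tors W (p ^ m)) : s58_Pt W) = (t : ℕ → s58_Pt W) m := rfl

/-- **(E3) the flat clause**: at a prime `p` of good reduction, `ρ_W ⊗ 𝒪` is flat at `p`. -/
theorem s59e_flat (hΔ : W.Δ ≠ 0) (hgood : W.IsGoodPrimeFor p) {𝒪 : Type} [CommRing 𝒪]
    [IsLocalRing 𝒪] [hfin : Finite (ResidueField 𝒪)] (φ : ℤ_[p] →+* 𝒪) (hφ : IsLocalHom φ) :
    ((s59b_rhoW W p hΔ).baseChangeAlong φ hφ).IsFlatAt p := by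
  refine ⟨hfin, fun I hI => ?_⟩
  haveI := hI
  set ρ₀ := s59b_rhoW W p hΔ with hρ₀
  have hpm : φ (p : ℤ_[p]) ∈ maximalIdeal 𝒪 := by
    rw [mem_maximalIdeal, mem_nonunits_iff]
    intro hu
    have := (isUnit_of_map_unit φ _ hu)
    exact (mem_maximalIdeal _).mp (s59b_p_mem p) this
  obtain ⟨m, hm⟩ := s59e_pow_mem_of_finite I hpm
  obtain ⟨r, π, hπs, hπe⟩ := s59e_subq φ hφ ρ₀ I ((p : ℤ_[p]) ^ m) (by rw [map_pow]; exact hm)
    (T := s59e_Tors W (p ^ m)) (s59e_proj W p m)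
    (fun P => by
      have hP : p ^ m • (P : s58_Pt W) = 0 := by
        have := P.2
        rw [Submodule.mem_torsionBy_iff, Nat.cast_smul_eq_nsmul] at this
        exact this
      obtain ⟨x, hx⟩ := s59b_rhoW_proj_surj hΔ m (P : s58_Pt W) hP
      exact ⟨x, Subtype.ext hx⟩)
    (fun σ v => Subtype.ext rfl)
    (fun (v : s59b_TW W p) hv => by
      have h0 : (v : ℕ → s58_Pt W) m = 0 := congrArg Subtype.val hv
      exact s30a_exists_pow_smul v m h0)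
  letI : DistribMulAction s19_Gal ((ρ₀.baseChangeAlong φ hφ).V ⧸
      (I • (⊤ : Submodule 𝒪 (ρ₀.baseChangeAlong φ hφ).V))) := s32_levelDMA _ I
  haveI : Finite (s59e_Tors W (p ^ m)) := s59e_tors_finite hΔ _ (Nat.one_le_pow _ _ hp.out.pos)
  have h0 : ∃ H₀, s19_IsOrder p (s59e_Tors W (p ^ m)) H₀ := s59e_torsOrder hΔ hgood m
  have hpow : ∃ H', s19_IsOrder p (Fin r → s59e_Tors W (p ^ m)) H' :=
    s32_orderPow s19c_orderProd s19c_orderSub p (s59e_Tors W (p ^ m)) h0 r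
  have h2 : ∃ H₂, s19_IsOrder p ((ρ₀.baseChangeAlong φ hφ).V ⧸
      (I • (⊤ : Submodule 𝒪 (ρ₀.baseChangeAlong φ hφ).V))) H₂ :=
    s19c_orderQuot p (Fin r → s59e_Tors W (p ^ m)) _ π hπs (fun σ x => hπe σ x) hpow
  obtain ⟨H₂, hH₂⟩ := h2
  haveI : Finite ((ρ₀.baseChangeAlong φ hφ).V ⧸
      (I • (⊤ : Submodule 𝒪 (ρ₀.baseChangeAlong φ hφ).V))) := Finite.of_surjective π hπs
  obtain ⟨Hf, j1, j2, hfinH, hflat, hcocomm, e, he, hequiv⟩ :=
    s19c_hopf_main p ((ρ₀.baseChangeAlong φ hφ).V ⧸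
      (I • (⊤ : Submodule 𝒪 (ρ₀.baseChangeAlong φ hφ).V))) H₂ hH₂
  exact ⟨Hf, j1, j2, hfinH, hflat, hcocomm, e, he, fun σ f g hfg => hequiv σ f g hfg⟩

end Fermat.Agent.Lib.S59
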