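/-
Programme R (S59), node (E) (helper5, prefix `s59e_`): **`s59_E p W 𝒪`, UNCONDITIONAL.**
For `p ∈ {3, 5}`, `W/ℤ` semistable with `W[p]` irreducible, `𝒪` a local ring with finite residue field,
`φ : ℤ_p → 𝒪` a local homomorphism, and the residue field of `𝒪` splitting the quadratics with
coefficients in the prime field: `ρ_W ⊗ 𝒪` satisfies every clause of `s59_E`.
(E1, E2, E-Frob, E5, unram: helper2 `B*.lean`; (E4) helper2 `BOrd*.lean`; (E6), (E3), packaging: here.)
-/
import Fermat.Agent.Lib.S59.EPackOrd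
import Fermat.Agent.Lib.S59.EFlatTop

set_option autoImplicit false
set_option linter.style.haveILetI false
set_option linter.unusedSectionVars false

noncomputable section

namespace Fermat.Agent.Lib.S59

open IsLocalRing

variable {W : WeierstrassCurve ℤ} {p : ℕ} [hp : Fact p.Prime]

/-- **(E).** -/
theorem s59e_E (hp35 : p = 3 ∨ p = 5) (hΔ : W.Δ ≠ 0) (hirr : W.ModRepIsIrreducible p)
    (hss : W.IsSemistableModel) {𝒪 : Type} [CommRing 𝒪] [IsLocalRing 𝒪]
    [Finite (ResidueField 𝒪)] (φ : ℤ_[p] →+* 𝒪) (hφ : IsLocalHom φ)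
    (hsplit : ∀ t e : ResidueField 𝒪, t ^ p = t → e ^ p = e →
      ∃ α β : ResidueField 𝒪, α + β = t ∧ α * β = e) :
    s59_E p W 𝒪 :=
  s59e_E_of_flat hp35 hΔ hirr hss φ hφ hsplit (fun hgood => s59e_flat hΔ hgood φ hφ)

end Fermat.Agent.Lib.S59
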