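/-
Programme R (S59), node (E3) (helper5, prefix `s59e_`): PURE ALGEBRA of the chord law in the
coordinates `z = -x/y`, `w = -1/y` of a Weierstrass cubic.  No curve, no valuation.

* `s59e_g`     the cubic in `(z, w)`;
* `s59e_D/N`   denominator and numerator of the slope of the chord (`s59e_diff`);
* `s59e_c3/c2/c1` the coefficients of `g (z, l z + n)` as a cubic in `z`;
* `s59e_tangent` the derivative of `g (z, l z + n)`;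
* `s59e_vieta`  the Vieta relations of a line in `(x, y)` become Vieta relations in `(z, w)`.
-/
import Mathlib
import Fermat.Agent.Lib.Frey.Collinear

set_option autoImplicit false
set_option linter.style.haveILetI false

namespace Fermat.Agent.Lib.S59

section Poly

variable {R : Type*} [CommRing R] (a₁ a₂ a₃ a₄ a₆ : R)

/-- the Weierstrass equation in the coordinates `z = -x/y`, `w = -1/y`. -/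
def s59e_g (z w : R) : R := z ^ 3 + a₁ * z * w + a₂ * z ^ 2 * w + a₃ * w ^ 2 + a₄ * z * w ^ 2 +
  a₆ * w ^ 3 - w

/-- the denominator of the slope. -/
def s59e_D (z₂ w₁ w₂ : R) : R := 1 - a₁ * z₂ - a₂ * z₂ ^ 2 - a₃ * (w₁ + w₂) - a₄ * z₂ * (w₁ + w₂) -
  a₆ * (w₁ ^ 2 + w₁ * w₂ + w₂ ^ 2)

/-- the numerator of the slope. -/
def s59e_N (z₁ w₁ z₂ : R) : R := z₁ ^ 2 + z₁ * z₂ + z₂ ^ 2 + a₁ * w₁ + a₂ * w₁ * (z₁ + z₂) +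
  a₄ * w₁ ^ 2

/-- coefficients of `g (z, λ z + ν)`. -/
def s59e_c3 (l : R) : R := 1 + a₂ * l + a₄ * l ^ 2 + a₆ * l ^ 3

def s59e_c2 (l n : R) : R := a₁ * l + a₂ * n + a₃ * l ^ 2 + 2 * a₄ * l * n + 3 * a₆ * l ^ 2 * n

def s59e_c1 (l n : R) : R := a₁ * n + 2 * a₃ * l * n + a₄ * n ^ 2 + 3 * a₆ * l * n ^ 2 - l

/-- the slope of the chord, `iD` being the inverse of `D`. -/
def s59e_lam (z₁ w₁ z₂ iD : R) : R := s59e_N a₁ a₂ a₄ z₁ w₁ z₂ * iD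

/-- the intercept of the chord. -/
def s59e_nu (z₁ w₁ z₂ iD : R) : R := w₁ - s59e_lam a₁ a₂ a₄ z₁ w₁ z₂ iD * z₁

/-- the `z`-coordinate of the third point of the chord, `ic3` being the inverse of `c3`. -/
def s59e_z3 (z₁ w₁ z₂ iD ic3 : R) : R :=
  -z₁ - z₂ - s59e_c2 a₁ a₂ a₃ a₄ a₆ (s59e_lam a₁ a₂ a₄ z₁ w₁ z₂ iD) (s59e_nu a₁ a₂ a₄ z₁ w₁ z₂ iD) * ic3

/-- the `w`-coordinate of the third point of the chord. -/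
def s59e_w3 (z₁ w₁ z₂ iD ic3 : R) : R :=
  s59e_lam a₁ a₂ a₄ z₁ w₁ z₂ iD * s59e_z3 a₁ a₂ a₃ a₄ a₆ z₁ w₁ z₂ iD ic3 + s59e_nu a₁ a₂ a₄ z₁ w₁ z₂ iD

/-- the denominator of the inversion. -/
def s59e_U (z w : R) : R := 1 - a₁ * z - a₃ * w

/-- the `z`-coordinate of the sum. -/
def s59e_Fz (z₁ w₁ z₂ iD ic3 iU : R) : R := -s59e_z3 a₁ a₂ a₃ a₄ a₆ z₁ w₁ z₂ iD ic3 * iU

/-- the `w`-coordinate of the sum. -/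
def s59e_Fw (z₁ w₁ z₂ iD ic3 iU : R) : R := -s59e_w3 a₁ a₂ a₃ a₄ a₆ z₁ w₁ z₂ iD ic3 * iU

section map

variable {R' : Type*} [CommRing R'] (φ : R →+* R')

theorem s59e_map_g (z w : R) :
    φ (s59e_g a₁ a₂ a₃ a₄ a₆ z w) = s59e_g (φ a₁) (φ a₂) (φ a₃) (φ a₄) (φ a₆) (φ z) (φ w) := by
  simp [s59e_g]

theorem s59e_map_D (z₂ w₁ w₂ : R) :
    φ (s59e_D a₁ a₂ a₃ a₄ a₆ z₂ w₁ w₂) =
      s59e_D (φ a₁) (φ a₂) (φ a₃) (φ a₄) (φ a₆) (φ z₂) (φ w₁) (φ w₂) := by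
  simp [s59e_D]

theorem s59e_map_N (z₁ w₁ z₂ : R) :
    φ (s59e_N a₁ a₂ a₄ z₁ w₁ z₂) = s59e_N (φ a₁) (φ a₂) (φ a₄) (φ z₁) (φ w₁) (φ z₂) := by
  simp [s59e_N]

theorem s59e_map_c3 (l : R) :
    φ (s59e_c3 a₂ a₄ a₆ l) = s59e_c3 (φ a₂) (φ a₄) (φ a₆) (φ l) := by
  simp [s59e_c3]

theorem s59e_map_c2 (l n : R) :
    φ (s59e_c2 a₁ a₂ a₃ a₄ a₆ l n) =
      s59e_c2 (φ a₁) (φ a₂) (φ a₃) (φ a₄) (φ a₆) (φ l) (φ n) := by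
  simp [s59e_c2, map_ofNat]

theorem s59e_map_lam (z₁ w₁ z₂ iD : R) :
    φ (s59e_lam a₁ a₂ a₄ z₁ w₁ z₂ iD) =
      s59e_lam (φ a₁) (φ a₂) (φ a₄) (φ z₁) (φ w₁) (φ z₂) (φ iD) := by
  simp [s59e_lam, s59e_map_N]

theorem s59e_map_nu (z₁ w₁ z₂ iD : R) :
    φ (s59e_nu a₁ a₂ a₄ z₁ w₁ z₂ iD) =
      s59e_nu (φ a₁) (φ a₂) (φ a₄) (φ z₁) (φ w₁) (φ z₂) (φ iD) := by
  simp [s59e_nu, s59e_map_lam]

theorem s59e_map_z3 (z₁ w₁ z₂ iD ic3 : R) :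
    φ (s59e_z3 a₁ a₂ a₃ a₄ a₆ z₁ w₁ z₂ iD ic3) =
      s59e_z3 (φ a₁) (φ a₂) (φ a₃) (φ a₄) (φ a₆) (φ z₁) (φ w₁) (φ z₂) (φ iD) (φ ic3) := by
  simp [s59e_z3, s59e_map_c2, s59e_map_lam, s59e_map_nu]

theorem s59e_map_w3 (z₁ w₁ z₂ iD ic3 : R) :
    φ (s59e_w3 a₁ a₂ a₃ a₄ a₆ z₁ w₁ z₂ iD ic3) =
      s59e_w3 (φ a₁) (φ a₂) (φ a₃) (φ a₄) (φ a₆) (φ z₁) (φ w₁) (φ z₂) (φ iD) (φ ic3) := by
  simp [s59e_w3, s59e_map_z3, s59e_map_lam, s59e_map_nu]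

theorem s59e_map_U (z w : R) : φ (s59e_U a₁ a₃ z w) = s59e_U (φ a₁) (φ a₃) (φ z) (φ w) := by
  simp [s59e_U]

theorem s59e_map_Fz (z₁ w₁ z₂ iD ic3 iU : R) :
    φ (s59e_Fz a₁ a₂ a₃ a₄ a₆ z₁ w₁ z₂ iD ic3 iU) =
      s59e_Fz (φ a₁) (φ a₂) (φ a₃) (φ a₄) (φ a₆) (φ z₁) (φ w₁) (φ z₂) (φ iD) (φ ic3) (φ iU) := by
  simp [s59e_Fz, s59e_map_z3]

theorem s59e_map_Fw (z₁ w₁ z₂ iD ic3 iU : R) :
    φ (s59e_Fw a₁ a₂ a₃ a₄ a₆ z₁ w₁ z₂ iD ic3 iU) =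
      s59e_Fw (φ a₁) (φ a₂) (φ a₃) (φ a₄) (φ a₆) (φ z₁) (φ w₁) (φ z₂) (φ iD) (φ ic3) (φ iU) := by
  simp [s59e_Fw, s59e_map_w3]

end map

end Poly

section Field

variable {K : Type*} [Field K] (a₁ a₂ a₃ a₄ a₆ : K)

/-- (L3) the difference identity. -/
theorem s59e_diff {z₁ w₁ z₂ w₂ : K} (h₁ : s59e_g a₁ a₂ a₃ a₄ a₆ z₁ w₁ = 0)
    (h₂ : s59e_g a₁ a₂ a₃ a₄ a₆ z₂ w₂ = 0) :
    s59e_D a₁ a₂ a₃ a₄ a₆ z₂ w₁ w₂ * (w₂ - w₁) = s59e_N a₁ a₂ a₄ z₁ w₁ z₂ * (z₂ - z₁) := by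
  unfold s59e_g at h₁ h₂
  unfold s59e_D s59e_N
  linear_combination h₁ - h₂

/-- (L6) the tangent identity: the derivative of `g (z, λ z + ν)`. -/
theorem s59e_tangent (z l n : K) :
    3 * s59e_c3 a₂ a₄ a₆ l * z ^ 2 + 2 * s59e_c2 a₁ a₂ a₃ a₄ a₆ l n * z + s59e_c1 a₁ a₃ a₄ a₆ l n =
      s59e_N a₁ a₂ a₄ z (l * z + n) z -
        l * s59e_D a₁ a₂ a₃ a₄ a₆ z (l * z + n) (l * z + n) := by
  unfold s59e_c3 s59e_c2 s59e_c1 s59e_N s59e_D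
  ring

/-- (L4) the generic case: from the `(x, y)` Vieta relations to the `(z, w)` ones. -/
theorem s59e_vieta {x₁ x₂ x₃ y₁ y₂ y₃ l n : K}
    (hy₁ : y₁ = l * x₁ + n) (hy₂ : y₂ = l * x₂ + n) (hy₃ : y₃ = l * x₃ + n)
    (h₁ : y₁ ≠ 0) (h₂ : y₂ ≠ 0) (h₃ : y₃ ≠ 0) (hn : n ≠ 0)
    (e₁ : x₁ + x₂ + x₃ = l ^ 2 + a₁ * l - a₂)
    (e₂ : x₁ * x₂ + x₁ * x₃ + x₂ * x₃ = a₄ - 2 * l * n - a₁ * n - a₃ * l)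
    (e₃ : x₁ * x₂ * x₃ = n ^ 2 + a₃ * n - a₆) :
    (-1 / y₁ = (-l / n) * (-x₁ / y₁) + -1 / n) ∧ (-1 / y₂ = (-l / n) * (-x₂ / y₂) + -1 / n) ∧
    (-1 / y₃ = (-l / n) * (-x₃ / y₃) + -1 / n) ∧
    s59e_c2 a₁ a₂ a₃ a₄ a₆ (-l / n) (-1 / n) =
      -s59e_c3 a₂ a₄ a₆ (-l / n) * (-x₁ / y₁ + -x₂ / y₂ + -x₃ / y₃) ∧
    s59e_c1 a₁ a₃ a₄ a₆ (-l / n) (-1 / n) =
      s59e_c3 a₂ a₄ a₆ (-l / n) * ((-x₁ / y₁) * (-x₂ / y₂) + (-x₁ / y₁) * (-x₃ / y₃) +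
        (-x₂ / y₂) * (-x₃ / y₃)) := by
  have hY : y₁ * y₂ * y₃ = n ^ 3 - a₂ * l * n ^ 2 + a₄ * l ^ 2 * n - a₆ * l ^ 3 := by
    rw [hy₁, hy₂, hy₃]
    linear_combination l ^ 3 * e₃ + l ^ 2 * n * e₂ + l * n ^ 2 * e₁
  have hS : x₁ * y₂ * y₃ + x₂ * y₁ * y₃ + x₃ * y₁ * y₂ =
      -a₁ * l * n ^ 2 - a₂ * n ^ 2 + a₃ * l ^ 2 * n + 2 * a₄ * l * n - 3 * a₆ * l ^ 2 := by
    rw [hy₁, hy₂, hy₃]
    linear_combination 3 * l ^ 2 * e₃ + 2 * l * n * e₂ + n ^ 2 * e₁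
  have hT : x₁ * x₂ * y₃ + x₁ * x₃ * y₂ + x₂ * x₃ * y₁ =
      l * n ^ 2 + 2 * a₃ * l * n - 3 * a₆ * l + a₄ * n - a₁ * n ^ 2 := by
    rw [hy₁, hy₂, hy₃]
    linear_combination 3 * l * e₃ + n * e₂
  have hc3 : s59e_c3 a₂ a₄ a₆ (-l / n) = y₁ * y₂ * y₃ / n ^ 3 := by
    rw [hY]; unfold s59e_c3; field_simp; ring
  refine ⟨?_, ?_, ?_, ?_, ?_⟩
  · field_simp; rw [hy₁]; ring
  · field_simp; rw [hy₂]; ring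
  · field_simp; rw [hy₃]; ring
  · rw [hc3]
    have : -(y₁ * y₂ * y₃ / n ^ 3) * (-x₁ / y₁ + -x₂ / y₂ + -x₃ / y₃) =
        (x₁ * y₂ * y₃ + x₂ * y₁ * y₃ + x₃ * y₁ * y₂) / n ^ 3 := by
      field_simp
      ring
    rw [this, hS]
    unfold s59e_c2
    field_simp
    ring
  · rw [hc3]
    have : y₁ * y₂ * y₃ / n ^ 3 * ((-x₁ / y₁) * (-x₂ / y₂) + (-x₁ / y₁) * (-x₃ / y₃) +
        (-x₂ / y₂) * (-x₃ / y₃)) = (x₁ * x₂ * y₃ + x₁ * x₃ * y₂ + x₂ * x₃ * y₁) / n ^ 3 := by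
      field_simp
    rw [this, hT]
    unfold s59e_c1
    field_simp
    ring


/-- **the third point of a line**, from the collinearity and the Vieta relations. -/
theorem s59e_third {z₁ w₁ z₂ w₂ z₃ w₃ l n iD ic3 : K}
    (h₁ : s59e_g a₁ a₂ a₃ a₄ a₆ z₁ w₁ = 0) (h₂ : s59e_g a₁ a₂ a₃ a₄ a₆ z₂ w₂ = 0)
    (e₁ : w₁ = l * z₁ + n) (e₂ : w₂ = l * z₂ + n) (e₃ : w₃ = l * z₃ + n)
    (V1 : s59e_c2 a₁ a₂ a₃ a₄ a₆ l n = -s59e_c3 a₂ a₄ a₆ l * (z₁ + z₂ + z₃))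
    (V2 : s59e_c1 a₁ a₃ a₄ a₆ l n = s59e_c3 a₂ a₄ a₆ l * (z₁ * z₂ + z₁ * z₃ + z₂ * z₃))
    (hD : s59e_D a₁ a₂ a₃ a₄ a₆ z₂ w₁ w₂ * iD = 1)
    (hc3 : s59e_c3 a₂ a₄ a₆ (s59e_lam a₁ a₂ a₄ z₁ w₁ z₂ iD) * ic3 = 1) :
    z₃ = s59e_z3 a₁ a₂ a₃ a₄ a₆ z₁ w₁ z₂ iD ic3 ∧ w₃ = s59e_w3 a₁ a₂ a₃ a₄ a₆ z₁ w₁ z₂ iD ic3 := by
  have hlD : l * s59e_D a₁ a₂ a₃ a₄ a₆ z₂ w₁ w₂ = s59e_N a₁ a₂ a₄ z₁ w₁ z₂ := by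
    by_cases hz : z₁ = z₂
    · have hw : w₁ = w₂ := by rw [e₁, e₂, hz]
      have ht := s59e_tangent a₁ a₂ a₃ a₄ a₆ z₁ l n
      rw [← e₁] at ht
      rw [← hz, ← hw]
      have h0 : 3 * s59e_c3 a₂ a₄ a₆ l * z₁ ^ 2 + 2 * s59e_c2 a₁ a₂ a₃ a₄ a₆ l n * z₁ +
          s59e_c1 a₁ a₃ a₄ a₆ l n = 0 := by
        rw [V1, V2, ← hz]
        ring
      rw [h0] at ht
      linear_combination ht
    · have hd := s59e_diff a₁ a₂ a₃ a₄ a₆ h₁ h₂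
      have hne : z₂ - z₁ ≠ 0 := sub_ne_zero.mpr (Ne.symm hz)
      have hw : w₂ - w₁ = l * (z₂ - z₁) := by rw [e₁, e₂]; ring
      rw [hw] at hd
      have : (l * s59e_D a₁ a₂ a₃ a₄ a₆ z₂ w₁ w₂ - s59e_N a₁ a₂ a₄ z₁ w₁ z₂) * (z₂ - z₁) = 0 := by
        linear_combination hd
      rcases mul_eq_zero.mp this with h | h
      · exact sub_eq_zero.mp h
      · exact absurd h hne
  have hl : l = s59e_lam a₁ a₂ a₄ z₁ w₁ z₂ iD := by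
    unfold s59e_lam
    rw [← hlD]
    linear_combination (-l) * hD
  have hn : n = s59e_nu a₁ a₂ a₄ z₁ w₁ z₂ iD := by
    unfold s59e_nu
    rw [← hl, e₁]
    ring
  have hz3 : z₃ = s59e_z3 a₁ a₂ a₃ a₄ a₆ z₁ w₁ z₂ iD ic3 := by
    unfold s59e_z3
    rw [← hl, ← hn, V1]
    rw [← hl] at hc3
    linear_combination (-(z₁ + z₂ + z₃)) * hc3
  refine ⟨hz3, ?_⟩
  unfold s59e_w3
  rw [← hl, ← hn, ← hz3, e₃]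

end Field

end Fermat.Agent.Lib.S59
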