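/-
Programme R (S59), node (E3) (helper5, prefix `s59e_`): the three denominators of the addition law of
`E₁` in the coordinates `(z, w)` are invertible in the closure ring `s19_cl` (abstract: no curve).
-/
import Mathlib
import Fermat.Agent.Lib.S59.EFlatAlg
import Fermat.Agent.Lib.S19.ClosInv

set_option autoImplicit false
set_option linter.style.haveILetI false
set_option linter.unusedSectionVars false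

namespace Fermat.Agent.Lib.S59

open IsLocalRing Fermat.Agent.Lib.S19

section Cl

variable {Ξ Al : Type} [CommRing Al] [IsLocalRing Al] (l : Al) (Wr : Subring Al)
  (hB : s19_Base l Wr) {ι : Type} (σ : ι → Ξ → Al) (hS : s19_Small l σ)

/-- evaluation of an element of the closure ring. -/
def s59e_ev (ξ : Ξ) : ↥(s19_cl l Wr σ) →+* Al :=
  (Pi.evalRingHom (fun _ : Ξ => Al) ξ).comp (s19_cl l Wr σ).val.toRingHom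

theorem s59e_ev_apply (ξ : Ξ) (c : ↥(s19_cl l Wr σ)) : s59e_ev l Wr σ ξ c = (c : Ξ → Al) ξ := rfl

theorem s59e_ev_algebraMap (ξ : Ξ) (a : Wr) :
    s59e_ev l Wr σ ξ (algebraMap Wr ↥(s19_cl l Wr σ) a) = (a : Al) := rfl

include hB hS in
/-- pointwise units of the closure ring are units. -/
theorem s59e_cl_inv (c : ↥(s19_cl l Wr σ)) (hu : ∀ ξ, IsUnit (s59e_ev l Wr σ ξ c)) :
    ∃ c' : ↥(s19_cl l Wr σ), c * c' = 1 := by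
  obtain ⟨ψ, hψ, h⟩ := s19a_closInv l Wr hB σ hS c c.2 hu
  exact ⟨⟨ψ, hψ⟩, Subtype.ext (funext h)⟩

include hB hS in
/-- **the three denominators of the addition law are invertible in the closure ring.** -/
theorem s59e_cl_denoms (a₁ a₂ a₃ a₄ a₆ Z₁ W₁ Z₂ W₂ : ↥(s19_cl l Wr σ))
    (hZ₁ : ∀ ξ, s59e_ev l Wr σ ξ Z₁ ∈ maximalIdeal Al)
    (hW₁ : ∀ ξ, s59e_ev l Wr σ ξ W₁ ∈ maximalIdeal Al)
    (hZ₂ : ∀ ξ, s59e_ev l Wr σ ξ Z₂ ∈ maximalIdeal Al)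
    (hW₂ : ∀ ξ, s59e_ev l Wr σ ξ W₂ ∈ maximalIdeal Al) :
    ∃ iD ic3 iU : ↥(s19_cl l Wr σ),
      s59e_D a₁ a₂ a₃ a₄ a₆ Z₂ W₁ W₂ * iD = 1 ∧
      s59e_c3 a₂ a₄ a₆ (s59e_lam a₁ a₂ a₄ Z₁ W₁ Z₂ iD) * ic3 = 1 ∧
      s59e_U a₁ a₃ (s59e_z3 a₁ a₂ a₃ a₄ a₆ Z₁ W₁ Z₂ iD ic3)
        (s59e_w3 a₁ a₂ a₃ a₄ a₆ Z₁ W₁ Z₂ iD ic3) * iU = 1 := by
  have key : ∀ (c : ↥(s19_cl l Wr σ)),
      (∀ ξ, (residue Al).comp (s59e_ev l Wr σ ξ) c = 1) → ∃ c', c * c' = 1 := by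
    intro c hc
    refine s59e_cl_inv l Wr hB σ hS c fun ξ => ?_
    have h1 : residue Al (s59e_ev l Wr σ ξ c) = 1 := hc ξ
    have h2 : residue Al (s59e_ev l Wr σ ξ c) ≠ 0 := by rw [h1]; exact one_ne_zero
    exact (residue_ne_zero_iff_isUnit _).mp h2
  have r : ∀ ξ (c : ↥(s19_cl l Wr σ)), s59e_ev l Wr σ ξ c ∈ maximalIdeal Al →
      (residue Al).comp (s59e_ev l Wr σ ξ) c = 0 := fun ξ c hc =>
    (residue_eq_zero_iff _).mpr hc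
  obtain ⟨iD, hD⟩ := key (s59e_D a₁ a₂ a₃ a₄ a₆ Z₂ W₁ W₂) (fun ξ => by
    rw [s59e_map_D, r ξ _ (hZ₂ ξ), r ξ _ (hW₁ ξ), r ξ _ (hW₂ ξ)]
    simp [s59e_D])
  have hlam : ∀ ξ, (residue Al).comp (s59e_ev l Wr σ ξ) (s59e_lam a₁ a₂ a₄ Z₁ W₁ Z₂ iD) = 0 := by
    intro ξ
    rw [s59e_map_lam, r ξ _ (hZ₁ ξ), r ξ _ (hW₁ ξ), r ξ _ (hZ₂ ξ)]
    simp [s59e_lam, s59e_N]
  have hnu : ∀ ξ, (residue Al).comp (s59e_ev l Wr σ ξ) (s59e_nu a₁ a₂ a₄ Z₁ W₁ Z₂ iD) = 0 := by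
    intro ξ
    rw [s59e_map_nu, r ξ _ (hZ₁ ξ), r ξ _ (hW₁ ξ), r ξ _ (hZ₂ ξ)]
    simp [s59e_nu, s59e_lam, s59e_N]
  obtain ⟨ic3, hc3⟩ := key (s59e_c3 a₂ a₄ a₆ (s59e_lam a₁ a₂ a₄ Z₁ W₁ Z₂ iD)) (fun ξ => by
    rw [s59e_map_c3, hlam ξ]
    simp [s59e_c3])
  obtain ⟨iU, hU⟩ := key (s59e_U a₁ a₃ (s59e_z3 a₁ a₂ a₃ a₄ a₆ Z₁ W₁ Z₂ iD ic3)
      (s59e_w3 a₁ a₂ a₃ a₄ a₆ Z₁ W₁ Z₂ iD ic3)) (fun ξ => by
    have hz3 : (residue Al).comp (s59e_ev l Wr σ ξ)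
        (s59e_z3 a₁ a₂ a₃ a₄ a₆ Z₁ W₁ Z₂ iD ic3) = 0 := by
      unfold s59e_z3
      rw [map_sub, map_sub, map_neg, map_mul, s59e_map_c2, hlam ξ, hnu ξ, r ξ _ (hZ₁ ξ),
        r ξ _ (hZ₂ ξ)]
      simp [s59e_c2]
    have hw3 : (residue Al).comp (s59e_ev l Wr σ ξ)
        (s59e_w3 a₁ a₂ a₃ a₄ a₆ Z₁ W₁ Z₂ iD ic3) = 0 := by
      unfold s59e_w3
      rw [map_add, map_mul, hlam ξ, hnu ξ, hz3]
      simp
    rw [s59e_map_U, hz3, hw3]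
    simp [s59e_U])
  exact ⟨iD, ic3, iU, hD, hc3, hU⟩

end Cl

end Fermat.Agent.Lib.S59
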