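/-
Programme R (S59), node (E3) (helper5, prefix `s59e_`): SIMPLE ROOTS IN A RESIDUE CLASS.
`s59e_root_exists` (valuation subring of an algebraically closed field: a monic polynomial with an
approximate root has a root in the same class), `s59e_root_unique` (local domain: a simple root is
alone in its class), `s59e_deriv_unit`.
-/
import Mathlib

set_option autoImplicit false
set_option linter.style.haveILetI false
set_option linter.unusedSectionVars false

namespace Fermat.Agent.Lib.S59

open IsLocalRing Polynomial

/-- **uniqueness of a simple root in its residue class** (any local domain). -/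
theorem s59e_root_unique {R : Type*} [CommRing R] [IsDomain R] [IsLocalRing R] (f : R[X])
    {r r' : R} (hr : f.eval r = 0) (hr' : f.eval r' = 0) (hu : IsUnit (f.derivative.eval r))
    (hrr : r' - r ∈ maximalIdeal R) : r' = r := by
  obtain ⟨k, hk⟩ := f.binomExpansion r (r' - r)
  rw [add_sub_cancel, hr, hr', zero_add] at hk
  have h0 : (r' - r) * (f.derivative.eval r + k * (r' - r)) = 0 := by
    linear_combination -hk
  rcases mul_eq_zero.mp h0 with h | h
  · exact sub_eq_zero.mp h
  · exfalso
    have h1 : f.derivative.eval r = -(k * (r' - r)) := by linear_combination h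
    have h2 : f.derivative.eval r ∈ maximalIdeal R := by
      rw [h1]
      exact (maximalIdeal R).neg_mem ((maximalIdeal R).mul_mem_left k hrr)
    exact (mem_maximalIdeal _).mp h2 hu

/-- the derivative at two congruent points. -/
theorem s59e_deriv_unit {R : Type*} [CommRing R] [IsLocalRing R] (f : R[X])
    {a r : R} (hu : IsUnit (f.derivative.eval a)) (har : a - r ∈ maximalIdeal R) :
    IsUnit (f.derivative.eval r) := by
  by_contra hn
  have h1 : f.derivative.eval r ∈ maximalIdeal R := (mem_maximalIdeal _).mpr hn
  obtain ⟨c, hc⟩ := sub_dvd_eval_sub a r f.derivative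
  have h2 : f.derivative.eval a ∈ maximalIdeal R := by
    have : f.derivative.eval a = f.derivative.eval r + (a - r) * c := by rw [← hc]; ring
    rw [this]
    exact (maximalIdeal R).add_mem h1 ((maximalIdeal R).mul_mem_right c har)
  exact (mem_maximalIdeal _).mp h2 hu

/-- **existence of a root in the residue class of an approximate root** (valuation subring of an
algebraically closed field). -/
theorem s59e_root_exists {K : Type*} [Field K] [IsAlgClosed K] (A : ValuationSubring K)
    (f : (↥A)[X]) (hm : f.Monic) {a : ↥A} (ha : f.eval a ∈ maximalIdeal ↥A) :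
    ∃ r : ↥A, f.eval r = 0 ∧ a - r ∈ maximalIdeal ↥A := by
  set g : K[X] := f.map A.subtype with hg
  have hgm : g.Monic := hm.map _
  have hs : g.Splits := IsAlgClosed.splits g
  have hev : g.eval (a : K) = ((f.eval a : ↥A) : K) := by
    rw [hg, eval_map]
    exact (eval₂_at_apply A.subtype a).trans rfl
  have hprod := hs.eval_eq_prod_roots_of_monic hgm (a : K)
  -- the roots are integral
  have hint : ∀ ρ ∈ g.roots, ∃ y : ↥A, (y : K) = ρ := by
    intro ρ hρ
    have h0 : g.eval ρ = 0 := (mem_roots hgm.ne_zero).mp hρ
    have hi : IsIntegral ↥A ρ := by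
      refine ⟨f, hm, ?_⟩
      rw [← eval_map]
      exact h0
    exact (IsIntegrallyClosed.isIntegral_iff (R := ↥A) (K := K)).mp hi
  by_contra hne
  simp only [not_exists, not_and] at hne
  -- every factor is a unit
  have hone : ∀ ρ ∈ g.roots, A.valuation ((a : K) - ρ) = 1 := by
    intro ρ hρ
    obtain ⟨y, rfl⟩ := hint ρ hρ
    have h0 : g.eval (y : K) = 0 := (mem_roots hgm.ne_zero).mp hρ
    have hy : f.eval y = 0 := by
      have h1 : g.eval (y : K) = ((f.eval y : ↥A) : K) := by
        rw [hg, eval_map]
        exact (eval₂_at_apply A.subtype y).trans rfl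
      rw [h1] at h0
      exact_mod_cast h0
    have h2 : a - y ∉ maximalIdeal ↥A := hne y hy
    have h3 : ¬ A.valuation ((a - y : ↥A) : K) < 1 := fun h => h2 ((A.valuation_lt_one_iff _).mpr h)
    have h4 : A.valuation ((a - y : ↥A) : K) ≤ 1 := A.valuation_le_one _
    exact le_antisymm h4 (not_lt.mp h3)
  have hv : A.valuation (g.eval (a : K)) = 1 := by
    rw [hprod, map_multiset_prod, Multiset.map_map]
    refine Multiset.prod_eq_one fun x hx => ?_
    obtain ⟨ρ, hρ, rfl⟩ := Multiset.mem_map.mp hx
    exact hone ρ hρ
  rw [hev] at hv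
  have := (A.valuation_lt_one_iff _).mp ha
  rw [hv] at this
  exact lt_irrefl _ this

end Fermat.Agent.Lib.S59
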