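/-
Programme R (S59), node (E3) (helper5, prefix `s59e_`): [CENTRE] at a prime of good reduction every
point of `W(ℚ̄)` is congruent modulo `E₁` to an inertia-fixed point (`s59e_centre`): lift one
coordinate by a Teichmüller representative (`s19m_exists_fixed_lift`), solve for the other one by
Hensel with inertia (`s59e_root_exists_fixed`), conclude with `frd_sub_mem_E1_of_disc`.
-/
import Mathlib
import Fermat.Agent.Lib.S59.EFlatRoot
import Fermat.Agent.Lib.S58.E1Inertia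
import Fermat.Agent.Lib.S19.MTeich

set_option autoImplicit false
set_option linter.style.haveILetI false
set_option linter.unusedSectionVars false

namespace Fermat.Agent.Lib.S59

open IsLocalRing Polynomial WeierstrassCurve WeierstrassCurve.Affine
open Fermat.Agent.Lib.Frey Fermat.Agent.Lib.S41 Fermat.Agent.Lib.S58 Fermat.Agent.Lib.S19

local notation "Kb" => AlgebraicClosure ℚ
local notation "Gal" => (AlgebraicClosure ℚ ≃ₐ[ℚ] AlgebraicClosure ℚ)

section coeffs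

variable (W : WeierstrassCurve ℤ)

theorem s59e_EK_a₁ : (s58e_EK W).a₁ = ((W.a₁ : ℤ) : Kb) := by
  show algebraMap ℚ Kb ((Int.castRingHom ℚ) W.a₁) = _
  rw [eq_intCast, map_intCast]

theorem s59e_EK_a₂ : (s58e_EK W).a₂ = ((W.a₂ : ℤ) : Kb) := by
  show algebraMap ℚ Kb ((Int.castRingHom ℚ) W.a₂) = _
  rw [eq_intCast, map_intCast]

theorem s59e_EK_a₃ : (s58e_EK W).a₃ = ((W.a₃ : ℤ) : Kb) := by
  show algebraMap ℚ Kb ((Int.castRingHom ℚ) W.a₃) = _
  rw [eq_intCast, map_intCast]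

theorem s59e_EK_a₄ : (s58e_EK W).a₄ = ((W.a₄ : ℤ) : Kb) := by
  show algebraMap ℚ Kb ((Int.castRingHom ℚ) W.a₄) = _
  rw [eq_intCast, map_intCast]

theorem s59e_EK_a₆ : (s58e_EK W).a₆ = ((W.a₆ : ℤ) : Kb) := by
  show algebraMap ℚ Kb ((Int.castRingHom ℚ) W.a₆) = _
  rw [eq_intCast, map_intCast]

end coeffs

section root

variable {A : ValuationSubring Kb}

/-- **a simple root of a polynomial with inertia-fixed coefficients is fixed by inertia.** -/
theorem s59e_root_fixed (f : (↥A)[X]) {r : ↥A} (hr : f.eval r = 0)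
    (hu : IsUnit (f.derivative.eval r)) {τ : Gal} (hτ : τ ∈ A.inertiaSubgroupIn ℚ)
    (hfix : (f.map A.subtype).map (τ : Kb →+* Kb) = f.map A.subtype) : τ (r : Kb) = (r : Kb) := by
  obtain ⟨h1, h2⟩ := s58e_inertia_mem hτ (A.valuation_le_one r)
  have hmem : τ (r : Kb) ∈ A := (A.valuation_le_one_iff _).mp h1
  set r' : ↥A := ⟨τ (r : Kb), hmem⟩ with hr'
  have hev : ∀ y : ↥A, (f.map A.subtype).eval (y : Kb) = ((f.eval y : ↥A) : Kb) := by
    intro y
    rw [eval_map]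
    exact (eval₂_at_apply A.subtype y).trans rfl
  have hroot : f.eval r' = 0 := by
    have h3 : (f.map A.subtype).eval ((r' : ↥A) : Kb) = 0 := by
      rw [← hfix, eval_map]
      have : ((r' : ↥A) : Kb) = (τ : Kb →+* Kb) (r : Kb) := rfl
      rw [this, eval₂_at_apply, hev, hr]
      simp
    rw [hev] at h3
    exact_mod_cast h3
  have hrr : r' - r ∈ maximalIdeal ↥A := (A.valuation_lt_one_iff _).mpr h2
  have := s59e_root_unique f hr hroot hu hrr
  exact congrArg Subtype.val this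

/-- **Hensel with inertia**: a monic polynomial over `A` with inertia-fixed coefficients and a simple
approximate root has an inertia-fixed root in the same class. -/
theorem s59e_root_exists_fixed (f : (↥A)[X]) (hm : f.Monic)
    (hfix : ∀ τ ∈ A.inertiaSubgroupIn ℚ,
      (f.map A.subtype).map ((τ : Gal) : Kb →+* Kb) = f.map A.subtype)
    {a : ↥A} (ha : f.eval a ∈ maximalIdeal ↥A) (hu : IsUnit (f.derivative.eval a)) :
    ∃ r : ↥A, f.eval r = 0 ∧ a - r ∈ maximalIdeal ↥A ∧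
      ∀ τ ∈ A.inertiaSubgroupIn ℚ, (τ : Gal) (r : Kb) = (r : Kb) := by
  obtain ⟨r, hr, har⟩ := s59e_root_exists A f hm ha
  have hur := s59e_deriv_unit f hu har
  exact ⟨r, hr, har, fun τ hτ => s59e_root_fixed f hr hur hτ (hfix τ hτ)⟩

/-- units of `A` perturbed by the maximal ideal. -/
theorem s59e_isUnit_add {R : Type*} [CommRing R] [IsLocalRing R] {u m : R} (hu : IsUnit u)
    (hm : m ∈ maximalIdeal R) : IsUnit (u + m) := by
  by_contra hn
  have h1 : u + m ∈ maximalIdeal R := (mem_maximalIdeal _).mpr hn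
  have h2 : u ∈ maximalIdeal R := by
    have : u = (u + m) - m := by ring
    rw [this]
    exact (maximalIdeal R).sub_mem h1 hm
  exact (mem_maximalIdeal _).mp h2 hu

/-- solve for `y` (quadratic), the `x`-coordinate being inertia-fixed. -/
theorem s59e_solve_y {b c a : ↥A}
    (hb : ∀ τ ∈ A.inertiaSubgroupIn ℚ, (τ : Gal) (b : Kb) = (b : Kb))
    (hc : ∀ τ ∈ A.inertiaSubgroupIn ℚ, (τ : Gal) (c : Kb) = (c : Kb))
    (ha : a ^ 2 + b * a + c ∈ maximalIdeal ↥A) (hu : IsUnit (2 * a + b)) :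
    ∃ r : ↥A, r ^ 2 + b * r + c = 0 ∧ a - r ∈ maximalIdeal ↥A ∧
      ∀ τ ∈ A.inertiaSubgroupIn ℚ, (τ : Gal) (r : Kb) = (r : Kb) := by
  set f : (↥A)[X] := X ^ 2 + (C b * X + C c) with hf
  have hm : f.Monic := monic_X_pow_add (lt_of_le_of_lt degree_linear_le (by norm_num))
  have hev : ∀ y : ↥A, f.eval y = y ^ 2 + b * y + c := fun y => by
    simp [hf]; ring
  have hd : f.derivative.eval a = 2 * a + b := by
    simp [hf]
    left
    norm_num
  obtain ⟨r, hr, har, hfr⟩ := s59e_root_exists_fixed f hm (fun τ hτ => by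
    simp only [hf, Polynomial.map_add, Polynomial.map_pow, Polynomial.map_mul, map_X, map_C]
    rw [show ((τ : Gal) : Kb →+* Kb) (A.subtype b) = A.subtype b from hb τ hτ,
      show ((τ : Gal) : Kb →+* Kb) (A.subtype c) = A.subtype c from hc τ hτ])
    (by rw [hev]; exact ha) (by rw [hd]; exact hu)
  exact ⟨r, by rw [← hev]; exact hr, har, hfr⟩

/-- solve for `x` (cubic), the `y`-coordinate being inertia-fixed. -/
theorem s59e_solve_x {b₂ b₁ b₀ a : ↥A}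
    (h₂ : ∀ τ ∈ A.inertiaSubgroupIn ℚ, (τ : Gal) (b₂ : Kb) = (b₂ : Kb))
    (h₁ : ∀ τ ∈ A.inertiaSubgroupIn ℚ, (τ : Gal) (b₁ : Kb) = (b₁ : Kb))
    (h₀ : ∀ τ ∈ A.inertiaSubgroupIn ℚ, (τ : Gal) (b₀ : Kb) = (b₀ : Kb))
    (ha : a ^ 3 + b₂ * a ^ 2 + b₁ * a + b₀ ∈ maximalIdeal ↥A)
    (hu : IsUnit (3 * a ^ 2 + 2 * b₂ * a + b₁)) :
    ∃ r : ↥A, r ^ 3 + b₂ * r ^ 2 + b₁ * r + b₀ = 0 ∧ a - r ∈ maximalIdeal ↥A ∧
      ∀ τ ∈ A.inertiaSubgroupIn ℚ, (τ : Gal) (r : Kb) = (r : Kb) := by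
  set f : (↥A)[X] := X ^ 3 + (C b₂ * X ^ 2 + C b₁ * X + C b₀) with hf
  have hm : f.Monic := monic_X_pow_add (lt_of_le_of_lt degree_quadratic_le (by norm_num))
  have hev : ∀ y : ↥A, f.eval y = y ^ 3 + b₂ * y ^ 2 + b₁ * y + b₀ := fun y => by
    simp [hf]; ring
  have hd : f.derivative.eval a = 3 * a ^ 2 + 2 * b₂ * a + b₁ := by
    simp [hf]; ring
  obtain ⟨r, hr, har, hfr⟩ := s59e_root_exists_fixed f hm (fun τ hτ => by
    simp only [hf, Polynomial.map_add, Polynomial.map_pow, Polynomial.map_mul, map_X, map_C]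
    rw [show ((τ : Gal) : Kb →+* Kb) (A.subtype b₂) = A.subtype b₂ from h₂ τ hτ,
      show ((τ : Gal) : Kb →+* Kb) (A.subtype b₁) = A.subtype b₁ from h₁ τ hτ,
      show ((τ : Gal) : Kb →+* Kb) (A.subtype b₀) = A.subtype b₀ from h₀ τ hτ])
    (by rw [hev]; exact ha) (by rw [hd]; exact hu)
  exact ⟨r, by rw [← hev]; exact hr, har, hfr⟩

end root

section centre

variable {W : WeierstrassCurve ℤ} {A : ValuationSubring Kb} {ℓ : ℕ}

/-- the unit discriminant. -/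
theorem s59e_val_Δ (hℓ : ℓ.Prime) (hA : A.LiesOverPrime ℓ) (hgood : ¬ (ℓ : ℤ) ∣ W.Δ) :
    A.valuation (s58e_EK W).Δ = 1 := by
  rw [s58e_EK_Δ]
  exact s41a_valuation_intCast_eq_one A hℓ hA hgood

theorem s59e_Δ_ne_zero (hΔ : W.Δ ≠ 0) : (s58e_EK W).Δ ≠ 0 := by
  rw [s58e_EK_Δ]
  exact_mod_cast hΔ

/-- an inertia-fixed integral point in the residue class of an integral point. -/
theorem s59e_centre_of_lift (hℓ : ℓ.Prime) (hA : A.LiesOverPrime ℓ) (hΔ : W.Δ ≠ 0)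
    (hgood : ¬ (ℓ : ℤ) ∣ W.Δ) {X Y : Kb} (hP : (s58e_EK W).Nonsingular X Y)
    (hX : A.valuation X ≤ 1) (hY : A.valuation Y ≤ 1) {X₀ Y₀ : Kb}
    (he : (s58e_EK W).Equation X₀ Y₀) (hx : A.valuation (X - X₀) < 1)
    (hy : A.valuation (Y - Y₀) < 1)
    (hfX : ∀ τ ∈ A.inertiaSubgroupIn ℚ, τ X₀ = X₀) (hfY : ∀ τ ∈ A.inertiaSubgroupIn ℚ, τ Y₀ = Y₀) :
    ∃ P₀ : (s58e_EK W).Point, fe1_E1 A.valuation (Point.some X Y hP - P₀) ∧
      ∀ τ ∈ A.inertiaSubgroupIn ℚ, τ • P₀ = P₀ := by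
  have h₀ : (s58e_EK W).Nonsingular X₀ Y₀ :=
    (equation_iff_nonsingular_of_Δ_ne_zero (s59e_Δ_ne_zero hΔ)).mp he
  refine ⟨Point.some X₀ Y₀ h₀, ?_, ?_⟩
  · exact (s58e_E1_iff _ _ _).mp (frd_sub_mem_E1_of_disc (s58e_integral W A)
      (s59e_val_Δ hℓ hA hgood) hP h₀ hX hY hx hy)
  · intro τ hτ
    obtain ⟨h', e⟩ : ∃ h', τ • (Point.some X₀ Y₀ h₀ : (s58e_EK W).Point) =
        Point.some (τ X₀) (τ Y₀) h' := ⟨_, rfl⟩
    rw [e]
    have key : ∀ (x' y' : Kb) (h' : (s58e_EK W).Nonsingular x' y'), x' = X₀ → y' = Y₀ →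
        (Point.some x' y' h' : (s58e_EK W).Point) = Point.some X₀ Y₀ h₀ := by
      intro x' y' h' ex ey
      subst ex; subst ey
      rfl
    exact key _ _ h' (hfX τ hτ) (hfY τ hτ)

/-- **[centre]** at a prime of good reduction, every point of `W(ℚ̄)` is congruent modulo `E₁` to an
inertia-fixed point. -/
theorem s59e_centre [Fact ℓ.Prime] (hA : A.LiesOverPrime ℓ) (hΔ : W.Δ ≠ 0)
    (hgood : ¬ (ℓ : ℤ) ∣ W.Δ) (P : (s58e_EK W).Point) :
    ∃ P₀ : (s58e_EK W).Point, fe1_E1 A.valuation (P - P₀) ∧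
      ∀ τ ∈ A.inertiaSubgroupIn ℚ, τ • P₀ = P₀ := by
  have hℓ : ℓ.Prime := Fact.out
  by_cases hP : fe1_E1 A.valuation P
  · exact ⟨0, by rwa [sub_zero], fun τ _ => rfl⟩
  rcases P with _ | ⟨X, Y, hP'⟩
  · exact absurd (fe1_E1_zero _) hP
  have hX : A.valuation X ≤ 1 := by
    by_contra h
    exact hP (Or.inr (not_le.mp h))
  have hW := s58e_integral W A
  have hY : A.valuation Y ≤ 1 := s58e_y_integral A.valuation (s58e_EK W) hW hP'.1 hX
  set X' : ↥A := ⟨X, (A.valuation_le_one_iff _).mp hX⟩ with hX'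
  set Y' : ↥A := ⟨Y, (A.valuation_le_one_iff _).mp hY⟩ with hY'
  set α₁ : ↥A := ((W.a₁ : ℤ) : ↥A) with hα₁
  set α₂ : ↥A := ((W.a₂ : ℤ) : ↥A) with hα₂
  set α₃ : ↥A := ((W.a₃ : ℤ) : ↥A) with hα₃
  set α₄ : ↥A := ((W.a₄ : ℤ) : ↥A) with hα₄
  set α₆ : ↥A := ((W.a₆ : ℤ) : ↥A) with hα₆
  have hfixα : ∀ (n : ℤ) (τ : Gal), τ (((n : ↥A) : ↥A) : Kb) = (((n : ↥A) : ↥A) : Kb) := by
    intro n τ
    have : (((n : ↥A) : ↥A) : Kb) = (n : Kb) := by push_cast; rfl
    rw [this, map_intCast]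
  have heq : Y' ^ 2 + α₁ * X' * Y' + α₃ * Y' = X' ^ 3 + α₂ * X' ^ 2 + α₄ * X' + α₆ := by
    have he := (Affine.equation_iff _ _).mp hP'.1
    rw [s59e_EK_a₁, s59e_EK_a₂, s59e_EK_a₃, s59e_EK_a₄, s59e_EK_a₆] at he
    apply Subtype.ext
    push_cast
    exact he
  have hns := frd_hns_of_disc hW (s59e_val_Δ hℓ hA hgood) hP'.1 hX hY
  rw [evalEval_polynomialX, evalEval_polynomialY, s59e_EK_a₁, s59e_EK_a₂, s59e_EK_a₃,
    s59e_EK_a₄] at hns
  rcases hns with hnX | hnY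
  · -- the `x`-derivative is a unit: lift `y`, solve for `x`
    obtain ⟨y₀, hy₀A, hres, hfy⟩ := s19m_exists_fixed_lift A hA (residue ↥A Y')
    set Y₀ : ↥A := ⟨y₀, hy₀A⟩ with hY₀
    have hYY : Y' - Y₀ ∈ maximalIdeal ↥A := by
      rw [← residue_eq_zero_iff, map_sub, hres, sub_self]
    have hu0 : IsUnit (α₁ * Y' - (3 * X' ^ 2 + 2 * α₂ * X' + α₄)) := by
      rw [A.valuation_eq_one_iff]
      push_cast
      exact hnX
    obtain ⟨X₀, hroot, hXX, hfX⟩ := s59e_solve_x (A := A) (b₂ := α₂) (b₁ := α₄ - α₁ * Y₀)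
      (b₀ := α₆ - Y₀ ^ 2 - α₃ * Y₀) (a := X')
      (fun τ _ => hfixα _ τ)
      (fun τ hτ => by
        have e : τ (Y₀ : Kb) = (Y₀ : Kb) := hfy τ hτ
        push_cast
        rw [map_sub, map_mul, hfixα, hfixα, e])
      (fun τ hτ => by
        have e : τ (Y₀ : Kb) = (Y₀ : Kb) := hfy τ hτ
        push_cast
        rw [map_sub, map_sub, map_mul, map_pow, hfixα, hfixα, e])
      (by
        have : X' ^ 3 + α₂ * X' ^ 2 + (α₄ - α₁ * Y₀) * X' + (α₆ - Y₀ ^ 2 - α₃ * Y₀) =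
            (Y' - Y₀) * (Y' + Y₀ + α₁ * X' + α₃) := by linear_combination -heq
        rw [this]
        exact (maximalIdeal ↥A).mul_mem_right _ hYY)
      (by
        have : 3 * X' ^ 2 + 2 * α₂ * X' + (α₄ - α₁ * Y₀) =
            -(α₁ * Y' - (3 * X' ^ 2 + 2 * α₂ * X' + α₄)) + α₁ * (Y' - Y₀) := by ring
        rw [this]
        exact s59e_isUnit_add hu0.neg ((maximalIdeal ↥A).mul_mem_left _ hYY))
    have he₀ : (s58e_EK W).Equation (X₀ : Kb) (Y₀ : Kb) := by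
      rw [Affine.equation_iff, s59e_EK_a₁, s59e_EK_a₂, s59e_EK_a₃, s59e_EK_a₄, s59e_EK_a₆]
      have := congrArg (fun t : ↥A => (t : Kb)) hroot
      push_cast at this
      linear_combination -this
    exact s59e_centre_of_lift hℓ hA hΔ hgood hP' hX hY he₀
      ((A.valuation_lt_one_iff _).mp hXX) ((A.valuation_lt_one_iff _).mp hYY) hfX hfy
  · -- the `y`-derivative is a unit: lift `x`, solve for `y`
    obtain ⟨x₀, hx₀A, hres, hfx⟩ := s19m_exists_fixed_lift A hA (residue ↥A X')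
    set X₀ : ↥A := ⟨x₀, hx₀A⟩ with hX₀
    have hXX : X' - X₀ ∈ maximalIdeal ↥A := by
      rw [← residue_eq_zero_iff, map_sub, hres, sub_self]
    have hu0 : IsUnit (2 * Y' + α₁ * X' + α₃) := by
      rw [A.valuation_eq_one_iff]
      push_cast
      exact hnY
    obtain ⟨Y₀, hroot, hYY, hfY⟩ := s59e_solve_y (A := A) (b := α₁ * X₀ + α₃)
      (c := -(X₀ ^ 3 + α₂ * X₀ ^ 2 + α₄ * X₀ + α₆)) (a := Y')
      (fun τ hτ => by
        have e : τ (X₀ : Kb) = (X₀ : Kb) := hfx τ hτ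
        push_cast
        rw [map_add, map_mul, hfixα, hfixα, e])
      (fun τ hτ => by
        have e : τ (X₀ : Kb) = (X₀ : Kb) := hfx τ hτ
        push_cast
        rw [map_neg, map_add, map_add, map_add, map_mul, map_mul, map_pow, map_pow, hfixα, hfixα,
          hfixα, e])
      (by
        have : Y' ^ 2 + (α₁ * X₀ + α₃) * Y' + -(X₀ ^ 3 + α₂ * X₀ ^ 2 + α₄ * X₀ + α₆) =
            (X' - X₀) * (-(α₁ * Y') + (X₀ ^ 2 + X₀ * X' + X' ^ 2) + α₂ * (X₀ + X') + α₄) := by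
          linear_combination heq
        rw [this]
        exact (maximalIdeal ↥A).mul_mem_right _ hXX)
      (by
        have : 2 * Y' + (α₁ * X₀ + α₃) = (2 * Y' + α₁ * X' + α₃) + -α₁ * (X' - X₀) := by ring
        rw [this]
        exact s59e_isUnit_add hu0 ((maximalIdeal ↥A).mul_mem_left _ hXX))
    have he₀ : (s58e_EK W).Equation (X₀ : Kb) (Y₀ : Kb) := by
      rw [Affine.equation_iff, s59e_EK_a₁, s59e_EK_a₂, s59e_EK_a₃, s59e_EK_a₄, s59e_EK_a₆]
      have := congrArg (fun t : ↥A => (t : Kb)) hroot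
      push_cast at this
      linear_combination this
    exact s59e_centre_of_lift hℓ hA hΔ hgood hP' hX hY he₀
      ((A.valuation_lt_one_iff _).mp hXX) ((A.valuation_lt_one_iff _).mp hYY) hfx hfY

end centre

end Fermat.Agent.Lib.S59
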