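/-
Programme R (S59), node (E3) (helper5, prefix `s59e_`): THE GROUP LAW OF `E₁` IN THE COORDINATES
`z = -x/y`, `w = -1/y` (any valued field, integral Weierstrass model).

* `s59e_z`, `s59e_w`        the coordinates (`0` at the origin);
* `s59e_z_lt`, `s59e_w_lt`  they are small on `E₁`;
* `s59e_g_zw`               the cubic `g (z, w) = 0`;
* `s59e_neg_zw`             the inversion;
* `s59e_line`               KEY LEMMA: `P₁ + P₂ + P₃ = 0` in `E₁` ⇒ collinear in the `(z, w)`-plane,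
                            with the Vieta relations;
* `s59e_sum`                **the addition law** (division-free: `iD`, `ic3`, `iU` are the inverses of
                            the three unit denominators);
* `s59e_zw_inj`             `(z, w)` separates the points of `E₁`.
-/
import Mathlib
import Fermat.Agent.Lib.S59.EFlatAlg
import Fermat.Agent.Lib.Frey.Diff
import Fermat.Agent.Lib.Frey.E1
import Fermat.Agent.Lib.S58.E1Gen
import Fermat.Agent.Lib.S58.E1Inertia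

set_option autoImplicit false
set_option linter.style.haveILetI false
set_option linter.unusedSectionVars false

namespace Fermat.Agent.Lib.S59

open WeierstrassCurve WeierstrassCurve.Affine Fermat.Agent.Lib.Frey Fermat.Agent.Lib.S58

section Pt

variable {K : Type*} [Field K] {W : Affine K}

/-- the coordinate `z = -x/y` (`0` at the origin). -/
def s59e_z : W.Point → K
  | .zero => 0
  | .some x y _ => -x / y

/-- the coordinate `w = -1/y` (`0` at the origin). -/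
def s59e_w : W.Point → K
  | .zero => 0
  | .some _ y _ => -1 / y

@[simp] theorem s59e_z_zero : s59e_z (0 : W.Point) = 0 := rfl
@[simp] theorem s59e_w_zero : s59e_w (0 : W.Point) = 0 := rfl
@[simp] theorem s59e_z_some {x y : K} (h : W.Nonsingular x y) :
    s59e_z (Point.some x y h) = -x / y := rfl
@[simp] theorem s59e_w_some {x y : K} (h : W.Nonsingular x y) :
    s59e_w (Point.some x y h) = -1 / y := rfl

variable {Γ₀ : Type*} [LinearOrderedCommGroupWithZero Γ₀] (v : Valuation K Γ₀)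

/-- a point of `E₁`: `|x| < |y|`. -/
theorem s59e_val_y (hW : frd_Integral v W) {x y : K} (h : W.Equation x y) (hx : 1 < v x) :
    v x < v y := by
  have he := (Affine.equation_iff _ _).mp h
  have hx0 : 0 < v x := lt_trans zero_lt_one hx
  have h2 : v (W.a₂ * x ^ 2) < v x ^ 3 := by
    rw [map_mul, map_pow]
    calc v W.a₂ * v x ^ 2 ≤ 1 * v x ^ 2 := mul_le_mul_left hW.a2 _
      _ = v x ^ 2 := one_mul _
      _ < v x ^ 3 := pow_lt_pow_right₀ hx (by norm_num)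
  have h4 : v (W.a₄ * x) < v x ^ 3 := by
    rw [map_mul]
    calc v W.a₄ * v x ≤ 1 * v x := mul_le_mul_left hW.a4 _
      _ = v x ^ 1 := by rw [one_mul, pow_one]
      _ < v x ^ 3 := pow_lt_pow_right₀ hx (by norm_num)
  have h6 : v W.a₆ < v x ^ 3 := lt_of_le_of_lt hW.a6 (one_lt_pow₀ hx (by norm_num))
  have hR : v (x ^ 3 + W.a₂ * x ^ 2 + W.a₄ * x + W.a₆) = v x ^ 3 := by
    have e : x ^ 3 + W.a₂ * x ^ 2 + W.a₄ * x + W.a₆ = x ^ 3 + (W.a₂ * x ^ 2 + W.a₄ * x + W.a₆) := by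
      ring
    rw [e, Valuation.map_add_eq_of_lt_left, map_pow]
    rw [map_pow]
    exact Valuation.map_add_lt v (Valuation.map_add_lt v h2 h4) h6
  by_contra hxy
  rw [not_lt] at hxy
  have hx2 : v x ≤ v x ^ 2 := by
    calc v x = v x ^ 1 := (pow_one _).symm
      _ ≤ v x ^ 2 := pow_le_pow_right₀ hx.le (by norm_num)
  have l1 : v (y ^ 2) ≤ v x ^ 2 := by
    rw [map_pow]; exact pow_le_pow_left₀ zero_le hxy 2
  have l2 : v (W.a₁ * x * y) ≤ v x ^ 2 := by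
    rw [map_mul, map_mul, pow_two]
    calc v W.a₁ * v x * v y ≤ 1 * v x * v x := by gcongr; exact hW.a1
      _ = v x * v x := by rw [one_mul]
  have l3 : v (W.a₃ * y) ≤ v x ^ 2 := by
    rw [map_mul]
    calc v W.a₃ * v y ≤ 1 * v x := by gcongr; exact hW.a3
      _ = v x := one_mul _
      _ ≤ v x ^ 2 := hx2
  have hL : v (y ^ 2 + W.a₁ * x * y + W.a₃ * y) ≤ v x ^ 2 :=
    v.map_add_le (v.map_add_le l1 l2) l3
  rw [he, hR] at hL
  exact absurd hL (not_le.mpr (pow_lt_pow_right₀ hx (by norm_num)))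

theorem s59e_y_ne_zero (hW : frd_Integral v W) {x y : K} (h : W.Equation x y) (hx : 1 < v x) :
    y ≠ 0 :=
  fe1_ne_zero_of_one_lt v (lt_trans hx (s59e_val_y v hW h hx))

/-- the `z`-coordinate of a point of `E₁` is small. -/
theorem s59e_z_lt (hW : frd_Integral v W) {P : W.Point} (h : fe1_E1 v P) : v (s59e_z P) < 1 := by
  rcases P with _ | ⟨x, y, hP⟩
  · show v (s59e_z (0 : W.Point)) < 1
    simp
  · have hx : 1 < v x := h.resolve_left (Point.some_ne_zero _)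
    have hy := s59e_val_y v hW hP.1 hx
    rw [s59e_z_some, map_div₀, Valuation.map_neg]
    exact (div_lt_one₀ (lt_trans (lt_trans zero_lt_one hx) hy)).mpr hy

/-- the `w`-coordinate of a point of `E₁` is small. -/
theorem s59e_w_lt (hW : frd_Integral v W) {P : W.Point} (h : fe1_E1 v P) : v (s59e_w P) < 1 := by
  rcases P with _ | ⟨x, y, hP⟩
  · show v (s59e_w (0 : W.Point)) < 1
    simp
  · have hx : 1 < v x := h.resolve_left (Point.some_ne_zero _)
    have hy := lt_trans hx (s59e_val_y v hW hP.1 hx)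
    rw [s59e_w_some, map_div₀, Valuation.map_neg, map_one]
    exact (div_lt_one₀ (lt_trans zero_lt_one hy)).mpr hy

/-- the cubic in `(z, w)`. -/
theorem s59e_g_some {x y : K} (h : W.Nonsingular x y) (hy : y ≠ 0) :
    s59e_g W.a₁ W.a₂ W.a₃ W.a₄ W.a₆ (s59e_z (Point.some x y h)) (s59e_w (Point.some x y h)) = 0 := by
  have he := (Affine.equation_iff _ _).mp h.1
  rw [s59e_z_some, s59e_w_some]
  unfold s59e_g
  field_simp
  linear_combination he

theorem s59e_g_zw (hW : frd_Integral v W) {P : W.Point} (h : fe1_E1 v P) :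
    s59e_g W.a₁ W.a₂ W.a₃ W.a₄ W.a₆ (s59e_z P) (s59e_w P) = 0 := by
  rcases P with _ | ⟨x, y, hP⟩
  · show s59e_g W.a₁ W.a₂ W.a₃ W.a₄ W.a₆ (s59e_z (0 : W.Point)) (s59e_w (0 : W.Point)) = 0
    simp [s59e_g]
  · exact s59e_g_some hP (s59e_y_ne_zero v hW hP.1 (h.resolve_left (Point.some_ne_zero _)))

/-- the inversion in the coordinates `(z, w)`. -/
theorem s59e_neg_some {x y : K} (h : W.Nonsingular x y) (hy : y ≠ 0) (hy' : W.negY x y ≠ 0) :
    s59e_z (-Point.some x y h) * s59e_U W.a₁ W.a₃ (s59e_z (Point.some x y h))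
        (s59e_w (Point.some x y h)) = -s59e_z (Point.some x y h) ∧
    s59e_w (-Point.some x y h) * s59e_U W.a₁ W.a₃ (s59e_z (Point.some x y h))
        (s59e_w (Point.some x y h)) = -s59e_w (Point.some x y h) := by
  rw [Point.neg_some, s59e_z_some, s59e_w_some, s59e_z_some, s59e_w_some]
  unfold s59e_U
  have hn : W.negY x y = -y - W.a₁ * x - W.a₃ := rfl
  constructor
  · field_simp
    rw [hn]
    ring
  · field_simp
    rw [hn]
    ring

theorem s59e_neg_zw (hW : frd_Integral v W) {P : W.Point} (h : fe1_E1 v P) :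
    s59e_z (-P) * s59e_U W.a₁ W.a₃ (s59e_z P) (s59e_w P) = -s59e_z P ∧
    s59e_w (-P) * s59e_U W.a₁ W.a₃ (s59e_z P) (s59e_w P) = -s59e_w P := by
  rcases P with _ | ⟨x, y, hP⟩
  · show s59e_z (-(0 : W.Point)) * s59e_U W.a₁ W.a₃ (s59e_z (0 : W.Point)) (s59e_w (0 : W.Point)) =
        -s59e_z (0 : W.Point) ∧
      s59e_w (-(0 : W.Point)) * s59e_U W.a₁ W.a₃ (s59e_z (0 : W.Point)) (s59e_w (0 : W.Point)) =
        -s59e_w (0 : W.Point)
    simp
  · have hx : 1 < v x := h.resolve_left (Point.some_ne_zero _)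
    have hneg : W.Equation x (W.negY x y) := (W.equation_neg x y).mpr hP.1
    exact s59e_neg_some hP (s59e_y_ne_zero v hW hP.1 hx) (s59e_y_ne_zero v hW hneg hx)

/-- three points of the `(z, w)`-plane on a line, with the Vieta relations of the cubic. -/
def s59e_Line (a₁ a₂ a₃ a₄ a₆ z₁ w₁ z₂ w₂ z₃ w₃ : K) : Prop :=
  ∃ l n : K, w₁ = l * z₁ + n ∧ w₂ = l * z₂ + n ∧ w₃ = l * z₃ + n ∧
    s59e_c2 a₁ a₂ a₃ a₄ a₆ l n = -s59e_c3 a₂ a₄ a₆ l * (z₁ + z₂ + z₃) ∧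
    s59e_c1 a₁ a₃ a₄ a₆ l n = s59e_c3 a₂ a₄ a₆ l * (z₁ * z₂ + z₁ * z₃ + z₂ * z₃)

theorem s59e_Line.swap₂₃ {a₁ a₂ a₃ a₄ a₆ z₁ w₁ z₂ w₂ z₃ w₃ : K}
    (h : s59e_Line a₁ a₂ a₃ a₄ a₆ z₁ w₁ z₂ w₂ z₃ w₃) :
    s59e_Line a₁ a₂ a₃ a₄ a₆ z₁ w₁ z₃ w₃ z₂ w₂ := by
  obtain ⟨l, n, e₁, e₂, e₃, V1, V2⟩ := h
  exact ⟨l, n, e₁, e₃, e₂, by rw [V1]; ring, by rw [V2]; ring⟩

theorem s59e_Line.swap₁₂ {a₁ a₂ a₃ a₄ a₆ z₁ w₁ z₂ w₂ z₃ w₃ : K}
    (h : s59e_Line a₁ a₂ a₃ a₄ a₆ z₁ w₁ z₂ w₂ z₃ w₃) :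
    s59e_Line a₁ a₂ a₃ a₄ a₆ z₂ w₂ z₁ w₁ z₃ w₃ := by
  obtain ⟨l, n, e₁, e₂, e₃, V1, V2⟩ := h
  exact ⟨l, n, e₂, e₁, e₃, by rw [V1]; ring, by rw [V2]; ring⟩

/-- the line through `P`, `-P` and the origin. -/
theorem s59e_line_neg (hW : frd_Integral v W) {P : W.Point} (h : fe1_E1 v P) :
    s59e_Line W.a₁ W.a₂ W.a₃ W.a₄ W.a₆ (s59e_z P) (s59e_w P) (s59e_z (-P)) (s59e_w (-P)) 0 0 := by
  rcases P with _ | ⟨x, y, hP⟩
  · show s59e_Line W.a₁ W.a₂ W.a₃ W.a₄ W.a₆ (s59e_z (0 : W.Point)) (s59e_w (0 : W.Point))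
      (s59e_z (-(0 : W.Point))) (s59e_w (-(0 : W.Point))) 0 0
    rw [Point.neg_zero]
    exact ⟨0, 0, by simp, by simp, by simp, by simp [s59e_c2], by simp [s59e_c1]⟩
  · have hx : 1 < v x := h.resolve_left (Point.some_ne_zero _)
    have hx0 : x ≠ 0 := fe1_ne_zero_of_one_lt v hx
    have hneg : W.Equation x (W.negY x y) := (W.equation_neg x y).mpr hP.1
    have hy := s59e_y_ne_zero v hW hP.1 hx
    have hy' := s59e_y_ne_zero v hW hneg hx
    have he := (Affine.equation_iff _ _).mp hP.1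
    have hn : W.negY x y = -y - W.a₁ * x - W.a₃ := rfl
    have hprod : y * W.negY x y = -(x ^ 3 + W.a₂ * x ^ 2 + W.a₄ * x + W.a₆) := by
      rw [hn]; linear_combination -he
    rw [Point.neg_some, s59e_z_some, s59e_w_some, s59e_z_some, s59e_w_some]
    have hR : x ^ 3 + W.a₂ * x ^ 2 + W.a₄ * x + W.a₆ ≠ 0 := by
      intro h0
      rw [h0, neg_zero] at hprod
      exact (mul_ne_zero hy hy') hprod
    have hc3 : s59e_c3 W.a₂ W.a₄ W.a₆ x⁻¹ = (x ^ 3 + W.a₂ * x ^ 2 + W.a₄ * x + W.a₆) / x ^ 3 := by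
      unfold s59e_c3
      field_simp
    refine ⟨x⁻¹, 0, ?_, ?_, ?_, ?_, ?_⟩
    · rw [add_zero]; field_simp
    · rw [add_zero]; field_simp
    · simp
    · have e : -x / y + -x / W.negY x y + 0 = -x * (y + W.negY x y) / (y * W.negY x y) := by
        field_simp
        ring
      have hs : y + W.negY x y = -W.a₁ * x - W.a₃ := by rw [hn]; ring
      rw [e, hprod, hc3, hs]
      unfold s59e_c2
      generalize x ^ 3 + W.a₂ * x ^ 2 + W.a₄ * x + W.a₆ = Rr at hR ⊢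
      field_simp
      ring
    · have e : -x / y * (-x / W.negY x y) + -x / y * 0 + -x / W.negY x y * 0 =
          x ^ 2 / (y * W.negY x y) := by
        field_simp
        ring
      rw [e, hprod, hc3]
      unfold s59e_c1
      generalize x ^ 3 + W.a₂ * x ^ 2 + W.a₄ * x + W.a₆ = Rr at hR ⊢
      field_simp
      ring

variable [DecidableEq K]

/-- **Key lemma**: three points of `E₁` of sum zero lie on a line of the `(z, w)`-plane, with the
Vieta relations. -/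
theorem s59e_line (hW : frd_Integral v W) {P₁ P₂ P₃ : W.Point} (h₁ : fe1_E1 v P₁)
    (h₂ : fe1_E1 v P₂) (h₃ : fe1_E1 v P₃) (hsum : P₁ + P₂ + P₃ = 0) :
    s59e_Line W.a₁ W.a₂ W.a₃ W.a₄ W.a₆ (s59e_z P₁) (s59e_w P₁) (s59e_z P₂) (s59e_w P₂)
      (s59e_z P₃) (s59e_w P₃) := by
  by_cases e₃ : P₃ = 0
  · subst e₃
    rw [add_zero] at hsum
    have e : P₂ = -P₁ := (neg_eq_of_add_eq_zero_right hsum).symm
    subst e
    exact s59e_line_neg v hW h₁
  by_cases e₂ : P₂ = 0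
  · subst e₂
    rw [add_zero] at hsum
    have e : P₃ = -P₁ := (neg_eq_of_add_eq_zero_right hsum).symm
    subst e
    exact (s59e_line_neg v hW h₁).swap₂₃
  by_cases e₁ : P₁ = 0
  · subst e₁
    rw [zero_add] at hsum
    have e : P₃ = -P₂ := (neg_eq_of_add_eq_zero_right hsum).symm
    subst e
    exact ((s59e_line_neg v hW h₂).swap₂₃).swap₁₂
  rcases P₁ with _ | ⟨x₁, y₁, hP₁⟩
  · exact absurd rfl e₁
  rcases P₂ with _ | ⟨x₂, y₂, hP₂⟩
  · exact absurd rfl e₂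
  rcases P₃ with _ | ⟨x₃, y₃, hP₃⟩
  · exact absurd rfl e₃
  have hx₁ : 1 < v x₁ := h₁.resolve_left (Point.some_ne_zero _)
  have hx₂ : 1 < v x₂ := h₂.resolve_left (Point.some_ne_zero _)
  have hx₃ : 1 < v x₃ := h₃.resolve_left (Point.some_ne_zero _)
  obtain ⟨ℓ, n, hy₁, hy₂, hy₃, E₁, E₂, E₃⟩ := fab_collinear_of_add_eq_zero hsum
  have hn : n ≠ 0 := by
    rintro rfl
    have h6 : v (x₁ * x₂ * x₃) ≤ 1 := by
      rw [E₃]
      simpa using hW.a6
    rw [map_mul, map_mul] at h6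
    have : (1 : Γ₀) < v x₁ * v x₂ * v x₃ := by
      calc (1 : Γ₀) = 1 * 1 * 1 := by simp
        _ < v x₁ * v x₂ * v x₃ :=
          mul_lt_mul'' (mul_lt_mul'' hx₁ hx₂ zero_le_one zero_le_one) hx₃ zero_le zero_le_one
    exact absurd h6 (not_le.mpr this)
  obtain ⟨r₁, r₂, r₃, V1, V2⟩ := s59e_vieta W.a₁ W.a₂ W.a₃ W.a₄ W.a₆ hy₁ hy₂ hy₃
    (s59e_y_ne_zero v hW hP₁.1 hx₁) (s59e_y_ne_zero v hW hP₂.1 hx₂) (s59e_y_ne_zero v hW hP₃.1 hx₃)
    hn E₁ E₂ E₃
  exact ⟨-ℓ / n, -1 / n, r₁, r₂, r₃, V1, V2⟩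

/-- `E₁` is closed under addition (integral model). -/
theorem s59e_E1_add (hW : frd_Integral v W) {P Q : W.Point} (hP : fe1_E1 v P) (hQ : fe1_E1 v Q) :
    fe1_E1 v (P + Q) := by
  obtain ⟨hb2, hb4, hb6, hb8⟩ := s58e_b_integral v W hW
  exact s58e_E1_add W v hb2 hb4 hb6 hb8 hP hQ

/-- **the addition law of `E₁` in the coordinates `(z, w)`.** -/
theorem s59e_sum (hW : frd_Integral v W) {P₁ P₂ : W.Point} (h₁ : fe1_E1 v P₁) (h₂ : fe1_E1 v P₂)
    {iD ic3 iU : K}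
    (hD : s59e_D W.a₁ W.a₂ W.a₃ W.a₄ W.a₆ (s59e_z P₂) (s59e_w P₁) (s59e_w P₂) * iD = 1)
    (hc3 : s59e_c3 W.a₂ W.a₄ W.a₆
      (s59e_lam W.a₁ W.a₂ W.a₄ (s59e_z P₁) (s59e_w P₁) (s59e_z P₂) iD) * ic3 = 1)
    (hU : s59e_U W.a₁ W.a₃
      (s59e_z3 W.a₁ W.a₂ W.a₃ W.a₄ W.a₆ (s59e_z P₁) (s59e_w P₁) (s59e_z P₂) iD ic3)
      (s59e_w3 W.a₁ W.a₂ W.a₃ W.a₄ W.a₆ (s59e_z P₁) (s59e_w P₁) (s59e_z P₂) iD ic3) * iU = 1) :
    s59e_z (P₁ + P₂) =
      s59e_Fz W.a₁ W.a₂ W.a₃ W.a₄ W.a₆ (s59e_z P₁) (s59e_w P₁) (s59e_z P₂) iD ic3 iU ∧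
    s59e_w (P₁ + P₂) =
      s59e_Fw W.a₁ W.a₂ W.a₃ W.a₄ W.a₆ (s59e_z P₁) (s59e_w P₁) (s59e_z P₂) iD ic3 iU := by
  have h₁₂ := s59e_E1_add v hW h₁ h₂
  have h₃ : fe1_E1 v (-(P₁ + P₂)) := fe1_E1_neg v h₁₂
  have hsum : P₁ + P₂ + -(P₁ + P₂) = 0 := add_neg_cancel _
  obtain ⟨l, n, e₁, e₂, e₃, V1, V2⟩ := s59e_line v hW h₁ h₂ h₃ hsum
  obtain ⟨hz3, hw3⟩ := s59e_third W.a₁ W.a₂ W.a₃ W.a₄ W.a₆ (s59e_g_zw v hW h₁) (s59e_g_zw v hW h₂)
    e₁ e₂ e₃ V1 V2 hD hc3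
  obtain ⟨nz, nw⟩ := s59e_neg_zw v hW h₃
  rw [neg_neg, hz3, hw3] at nz nw
  unfold s59e_Fz s59e_Fw
  constructor
  · linear_combination iU * nz - s59e_z (P₁ + P₂) * hU
  · linear_combination iU * nw - s59e_w (P₁ + P₂) * hU

/-- the coordinates `(z, w)` separate the points of `E₁`. -/
theorem s59e_zw_inj (hW : frd_Integral v W) {P Q : W.Point} (hP : fe1_E1 v P) (hQ : fe1_E1 v Q)
    (hz : s59e_z P = s59e_z Q) (hw : s59e_w P = s59e_w Q) : P = Q := by
  rcases P with _ | ⟨x, y, hP'⟩ <;> rcases Q with _ | ⟨x', y', hQ'⟩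
  · rfl
  · exfalso
    have hy := s59e_y_ne_zero v hW hQ'.1 (hQ.resolve_left (Point.some_ne_zero _))
    change (0 : K) = -1 / y' at hw
    have : (-1 : K) / y' ≠ 0 := div_ne_zero (by simp) hy
    exact this hw.symm
  · exfalso
    have hy := s59e_y_ne_zero v hW hP'.1 (hP.resolve_left (Point.some_ne_zero _))
    change -1 / y = (0 : K) at hw
    have : (-1 : K) / y ≠ 0 := div_ne_zero (by simp) hy
    exact this hw
  · have hy := s59e_y_ne_zero v hW hP'.1 (hP.resolve_left (Point.some_ne_zero _))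
    have hy' := s59e_y_ne_zero v hW hQ'.1 (hQ.resolve_left (Point.some_ne_zero _))
    rw [s59e_w_some, s59e_w_some] at hw
    rw [s59e_z_some, s59e_z_some] at hz
    have e : y = y' := by
      field_simp at hw
      exact (neg_injective hw).symm
    subst e
    have e' : x = x' := by
      field_simp at hz
      exact neg_injective hz
    subst e'
    rfl

end Pt

end Fermat.Agent.Lib.S59
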