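/-
Programme R (S59), node (E3) (helper5, prefix `s59e_`): [FRAMES] for `W(ℚ̄)` at a prime `ℓ` of good
reduction: `J1 = E₁` (`s59e_J1`), two coordinates `(z, w) = (-x/y, -1/y)` (`s59e_S`), one frame.
`s59e_frames : s19_Frames A l (s58_Pt W) (s59e_J1 W A) 2 Unit (s59e_S W A)`.
-/
import Mathlib
import Fermat.Agent.Lib.S59.EFlatPt
import Fermat.Agent.Lib.S59.EFlatAdd
import Fermat.Agent.Lib.S59.EFlatCentre
import Fermat.Agent.Lib.S19.IfaceLocal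
import Fermat.Agent.Lib.S19.EBase
import Fermat.Agent.Lib.S58.Iface

set_option autoImplicit false
set_option linter.style.haveILetI false
set_option linter.unusedSectionVars false

noncomputable section

namespace Fermat.Agent.Lib.S59

open IsLocalRing WeierstrassCurve WeierstrassCurve.Affine
open Fermat.Agent.Lib.Frey Fermat.Agent.Lib.S41 Fermat.Agent.Lib.S58 Fermat.Agent.Lib.S19

local notation "Kb" => AlgebraicClosure ℚ
local notation "Gal" => (AlgebraicClosure ℚ ≃ₐ[ℚ] AlgebraicClosure ℚ)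

variable (W : WeierstrassCurve ℤ) (A : ValuationSubring Kb)

/-- `E₁`, the kernel of reduction at `A`, as a subgroup of `W(ℚ̄)`. -/
def s59e_J1 : AddSubgroup (s58_Pt W) where
  carrier := {P | fe1_E1 A.valuation (P : (s58e_EK W).Point)}
  add_mem' := fun {P Q} hP hQ => s59e_E1_add A.valuation (s58e_integral W A) hP hQ
  zero_mem' := fe1_E1_zero _
  neg_mem' := fun {P} hP => fe1_E1_neg _ hP

theorem s59e_mem_J1 {P : s58_Pt W} :
    P ∈ s59e_J1 W A ↔ fe1_E1 A.valuation (P : (s58e_EK W).Point) := Iff.rfl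

/-- the coordinates `(z, w)` on `E₁`. -/
def s59e_S : Unit → ↥(s59e_J1 W A) → Fin 2 → ↥A := fun _ y =>
  ![⟨s59e_z (y.1 : (s58e_EK W).Point), (A.valuation_le_one_iff _).mp
      (s59e_z_lt A.valuation (s58e_integral W A) y.2).le⟩,
    ⟨s59e_w (y.1 : (s58e_EK W).Point), (A.valuation_le_one_iff _).mp
      (s59e_w_lt A.valuation (s58e_integral W A) y.2).le⟩]

theorem s59e_S_zero (u : Unit) (y : ↥(s59e_J1 W A)) :
    ((s59e_S W A u y 0 : ↥A) : Kb) = s59e_z (y.1 : (s58e_EK W).Point) := rfl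

theorem s59e_S_one (u : Unit) (y : ↥(s59e_J1 W A)) :
    ((s59e_S W A u y 1 : ↥A) : Kb) = s59e_w (y.1 : (s58e_EK W).Point) := rfl

variable {W A}

theorem s59e_z_smul (σ : Gal) (P : (s58e_EK W).Point) : s59e_z (σ • P) = σ (s59e_z P) := by
  rcases P with _ | ⟨x, y, h⟩
  · exact (map_zero σ).symm
  · obtain ⟨h', e⟩ : ∃ h', σ • (Point.some x y h : (s58e_EK W).Point) =
        Point.some (σ x) (σ y) h' := ⟨_, rfl⟩
    rw [e, s59e_z_some, s59e_z_some, map_div₀, map_neg]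

theorem s59e_w_smul (σ : Gal) (P : (s58e_EK W).Point) : s59e_w (σ • P) = σ (s59e_w P) := by
  rcases P with _ | ⟨x, y, h⟩
  · exact (map_zero σ).symm
  · obtain ⟨h', e⟩ : ∃ h', σ • (Point.some x y h : (s58e_EK W).Point) =
        Point.some (σ x) (σ y) h' := ⟨_, rfl⟩
    rw [e, s59e_w_some, s59e_w_some, map_div₀, map_neg, map_one]

/-- the decomposition group preserves `A`. -/
theorem s59e_decomp_mem {σ : Gal} (hσ : σ ∈ A.decompositionSubgroup ℚ) {a : Kb} (ha : a ∈ A) :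
    σ a ∈ A :=
  ((⟨σ, hσ⟩ : A.decompositionSubgroup ℚ) • (⟨a, ha⟩ : A)).2

theorem s59e_decomp_val {σ : Gal} (hσ : σ ∈ A.decompositionSubgroup ℚ) {a : Kb}
    (ha : 1 < A.valuation a) : 1 < A.valuation (σ a) := by
  by_contra h
  rw [not_lt, A.valuation_le_one_iff] at h
  have h1 := s59e_decomp_mem (inv_mem hσ) h
  have h2 : σ⁻¹ (σ a) = a := by
    show (σ⁻¹ * σ) a = a
    rw [inv_mul_cancel]
    rfl
  rw [h2, ← A.valuation_le_one_iff] at h1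
  exact absurd ha (not_lt.mpr h1)

/-- `E₁` is stable under the decomposition group. -/
theorem s59e_J1_stable {σ : Gal} (hσ : σ ∈ A.decompositionSubgroup ℚ) {P : s58_Pt W}
    (hP : P ∈ s59e_J1 W A) : σ • P ∈ s59e_J1 W A := by
  rcases P with _ | ⟨x, y, h⟩
  · exact hP
  · have hx : 1 < A.valuation x := hP.resolve_left (Point.some_ne_zero _)
    exact Or.inr (s59e_decomp_val hσ hx)

/-- **[FRAMES]** the coordinates `(z, w)` are a coordinate package on `W(ℚ̄)` at a prime of good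
reduction. -/
theorem s59e_frames {ℓ : ℕ} [Fact ℓ.Prime] (hA : A.LiesOverPrime ℓ) (hΔ : W.Δ ≠ 0)
    (hgood : ¬ (ℓ : ℤ) ∣ W.Δ) (l : ↥A) (hl : ((l : ↥A) : Kb) = (ℓ : Kb)) :
    s19_Frames A l (s58_Pt W) (s59e_J1 W A) 2 Unit (s59e_S W A) := by
  have hW := s58e_integral W A
  refine ⟨⟨()⟩, ?_, ?_, ?_, ?_, ?_, ?_, ?_, ?_⟩
  · -- stable
    intro σ hσ y hy
    exact s59e_J1_stable hσ hy
  · -- mval
    intro u y i
    rw [A.valuation_lt_one_iff]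
    fin_cases i
    · exact s59e_z_lt A.valuation hW y.2
    · exact s59e_w_lt A.valuation hW y.2
  · -- inj
    intro u y y' h
    have h0 := congrArg (fun t : ↥A => (t : Kb)) (congrFun h 0)
    have h1 := congrArg (fun t : ↥A => (t : Kb)) (congrFun h 1)
    exact Subtype.ext (s59e_zw_inj A.valuation hW y.2 y'.2 h0 h1)
  · -- equivI
    intro u τ hτ y hy i
    fin_cases i
    · exact s59e_z_smul τ _
    · exact s59e_w_smul τ _
  · -- equivD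
    intro u σ hσ
    refine ⟨(), fun y hy i => ?_⟩
    fin_cases i
    · exact s59e_z_smul σ _
    · exact s59e_w_smul σ _
  · -- centre
    intro x
    obtain ⟨x₀, h1, h2⟩ := s59e_centre hA hΔ hgood (x : (s58e_EK W).Point)
    exact ⟨x₀, h1, h2⟩
  · -- add
    intro u Ξ y₁ y₂ hS i
    set σ : Fin 2 ⊕ Fin 2 → Ξ → ↥A := Sum.elim (fun (i : Fin 2) (ξ : Ξ) => s59e_S W A u (y₁ ξ) i)
      (fun (i : Fin 2) (ξ : Ξ) => s59e_S W A u (y₂ ξ) i) with hσ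
    have hB : s19_Base l (s19_WA A) := (s19e_baseA ℓ A hA l hl).1
    let C := ↥(s19_cl l (s19_WA A) σ)
    let Z₁ : C := ⟨σ (Sum.inl 0), s19_gen_mem_cl l _ σ _⟩
    let W₁ : C := ⟨σ (Sum.inl 1), s19_gen_mem_cl l _ σ _⟩
    let Z₂ : C := ⟨σ (Sum.inr 0), s19_gen_mem_cl l _ σ _⟩
    let W₂ : C := ⟨σ (Sum.inr 1), s19_gen_mem_cl l _ σ _⟩
    have hm : ∀ (P : ↥(s59e_J1 W A)) (j : Fin 2), s59e_S W A u P j ∈ maximalIdeal ↥A := by
      intro P j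
      rw [A.valuation_lt_one_iff]
      fin_cases j
      · exact s59e_z_lt A.valuation hW P.2
      · exact s59e_w_lt A.valuation hW P.2
    obtain ⟨iD, ic3, iU, hD, hc3, hU⟩ := s59e_cl_denoms l (s19_WA A) hB σ hS
      ((W.a₁ : ℤ) : C) ((W.a₂ : ℤ) : C) ((W.a₃ : ℤ) : C) ((W.a₄ : ℤ) : C) ((W.a₆ : ℤ) : C)
      Z₁ W₁ Z₂ W₂ (fun ξ => hm (y₁ ξ) 0) (fun ξ => hm (y₁ ξ) 1) (fun ξ => hm (y₂ ξ) 0)
      (fun ξ => hm (y₂ ξ) 1)
    -- the evaluation into `ℚ̄`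
    have key : ∀ ξ : Ξ,
        s59e_z (((y₁ ξ + y₂ ξ : ↥(s59e_J1 W A)) : s58_Pt W) : (s58e_EK W).Point) =
          (((s59e_Fz ((W.a₁ : ℤ) : C) ((W.a₂ : ℤ) : C) ((W.a₃ : ℤ) : C) ((W.a₄ : ℤ) : C)
            ((W.a₆ : ℤ) : C) Z₁ W₁ Z₂ iD ic3 iU : C) : Ξ → ↥A) ξ : Kb) ∧
        s59e_w (((y₁ ξ + y₂ ξ : ↥(s59e_J1 W A)) : s58_Pt W) : (s58e_EK W).Point) =
          (((s59e_Fw ((W.a₁ : ℤ) : C) ((W.a₂ : ℤ) : C) ((W.a₃ : ℤ) : C) ((W.a₄ : ℤ) : C)
            ((W.a₆ : ℤ) : C) Z₁ W₁ Z₂ iD ic3 iU : C) : Ξ → ↥A) ξ : Kb) := by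
      intro ξ
      let ψ : C →+* Kb := A.subtype.comp (s59e_ev l (s19_WA A) σ ξ)
      have hψ : ∀ c : C, ((c : Ξ → ↥A) ξ : Kb) = ψ c := fun c => rfl
      have ha : ∀ n : ℤ, ψ ((n : ℤ) : C) = ((n : ℤ) : Kb) := fun n => map_intCast ψ n
      have hD' := congrArg ψ hD
      have hc3' := congrArg ψ hc3
      have hU' := congrArg ψ hU
      rw [map_mul, map_one, s59e_map_D, ha, ha, ha, ha, ha] at hD'
      rw [map_mul, map_one, s59e_map_c3, s59e_map_lam, ha, ha, ha, ha] at hc3'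
      rw [map_mul, map_one, s59e_map_U, s59e_map_z3, s59e_map_w3, ha, ha, ha, ha, ha] at hU'
      rw [hψ, hψ, s59e_map_Fz, s59e_map_Fw, ha, ha, ha, ha, ha]
      rw [← s59e_EK_a₁, ← s59e_EK_a₂, ← s59e_EK_a₃, ← s59e_EK_a₄, ← s59e_EK_a₆] at hD' hU' ⊢
      rw [← s59e_EK_a₁, ← s59e_EK_a₂, ← s59e_EK_a₄, ← s59e_EK_a₆] at hc3'
      exact s59e_sum A.valuation hW (y₁ ξ).2 (y₂ ξ).2 hD' hc3' hU'
    fin_cases i
    · have : (fun ξ => s59e_S W A u (y₁ ξ + y₂ ξ) 0) =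
          ((s59e_Fz ((W.a₁ : ℤ) : C) ((W.a₂ : ℤ) : C) ((W.a₃ : ℤ) : C) ((W.a₄ : ℤ) : C)
            ((W.a₆ : ℤ) : C) Z₁ W₁ Z₂ iD ic3 iU : C) : Ξ → ↥A) :=
        funext fun ξ => Subtype.ext (key ξ).1
      show (fun ξ => s59e_S W A u (y₁ ξ + y₂ ξ) 0) ∈ s19_cl l (s19_WA A) σ
      rw [this]
      exact Subtype.property _
    · have : (fun ξ => s59e_S W A u (y₁ ξ + y₂ ξ) 1) =
          ((s59e_Fw ((W.a₁ : ℤ) : C) ((W.a₂ : ℤ) : C) ((W.a₃ : ℤ) : C) ((W.a₄ : ℤ) : C)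
            ((W.a₆ : ℤ) : C) Z₁ W₁ Z₂ iD ic3 iU : C) : Ξ → ↥A) :=
        funext fun ξ => Subtype.ext (key ξ).2
      show (fun ξ => s59e_S W A u (y₁ ξ + y₂ ξ) 1) ∈ s19_cl l (s19_WA A) σ
      rw [this]
      exact Subtype.property _
  · -- chg
    intro u u' Ξ y _ i
    exact s19_gen_mem_cl l _ (fun (i : Fin 2) (ξ : Ξ) => s59e_S W A u (y ξ) i) i

end Fermat.Agent.Lib.S59
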