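/-
Programme R2 (S59), node [PATCH-FLR], `T`-side, **(T1) joint levels, part (E13)** (helper5, prefix `s59efl_`): **THE ASSEMBLY OVER ABSTRACT
LEVELS.**  The end of the final theorem (`EFlrFin.lean`) in a small context, so that no unification of gigantic types is left there:
* `s59efl_StepConclLv Lv₁ Lv₂ OldS q φq` : the conclusion of one step of the chain (`s59efl_step_conc`) as a `Prop`-valued definition over two
  abstract levels `Lv₁ Lv₂ : s59e_TLevelL …` (the transfer map `σl : T₂ ↠ T₁` and helper4's `s59f_TStep`);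
* `s59efl_mkBaseMin`      : the base contract `s59f_TBaseF` of a family indexed by the levels `s`, frozen above `k` (index `min t k`; the old
  submodules `Old₀ s s' t` with `s = t`, `s' = t + 1`), over helper8's constructor `s59c3_mkBase`;
* `s59efl_asm_lv`         : from levels `Lv₀ s`, the steps `s59efl_StepConclLv (Lv₀ s) (Lv₀ s') (Old₀ s s' t …) (qr t) (φr t)`, reducedness and
  torsion-freeness of the trace rings and the unramifiedness at the level `0`: the contract `s59f_TLevelF` over `s59efl_mkBaseMin …`.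
-/
import Mathlib
import Fermat.Agent.Lib.S59.C3FlrAsmMk

set_option autoImplicit false
set_option linter.unusedSectionVars false
set_option linter.unusedVariables false
set_option linter.style.haveILetI false
set_option maxHeartbeats 1600000

noncomputable section

namespace Fermat.Agent.Lib.S59

open IsLocalRing MvPowerSeries

local notation "Γℚ" => (AlgebraicClosure ℚ ≃ₐ[ℚ] AlgebraicClosure ℚ)

section StepConcl

variable {𝒪 : Type} [CommRing 𝒪] [IsDomain 𝒪] [IsDiscreteValuationRing 𝒪]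
  [IsAdicComplete (maximalIdeal 𝒪) 𝒪] {p n r : ℕ} {σ : Type} [DecidableEq σ] [Fintype σ]
  {ρbar : ResidualGaloisRep (ResidueField 𝒪)}
  {𝒟 : ∀ ⦃A : Type⦄ [CommRing A] [IsLocalRing A] [Algebra 𝒪 A], GaloisRepAdic A → Prop}
  {DQ : GaloisRep.DeformationRingData 𝒪 ρbar 𝒟} {qv : Fin r → ℕ}
  {R₁ : Type} [CommRing R₁] [IsLocalRing R₁] [Algebra 𝒪 R₁] {M₁ : Type} [AddCommGroup M₁] [Module R₁ M₁]
  {ρR₁ : GaloisRepAdic R₁} {d₁ : ℕ}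
  {R₂ : Type} [CommRing R₂] [IsLocalRing R₂] [Algebra 𝒪 R₂] {M₂ : Type} [AddCommGroup M₂] [Module R₂ M₂]
  {ρR₂ : GaloisRepAdic R₂} {d₂ : ℕ}

/-- **the conclusion of one step of the chain, over abstract levels.** -/
def s59efl_StepConclLv (Lv₁ : s59e_TLevelL 𝒪 p n r σ R₁ M₁ ρR₁ d₁ qv DQ)
    (Lv₂ : s59e_TLevelL 𝒪 p n r σ R₂ M₂ ρR₂ d₂ qv DQ) (OldS : Submodule R₂ M₂) (q : ℕ) (φq : Γℚ) : Prop :=
  ∃ σl : Lv₂.T →ₐ[𝒪] Lv₁.T, Function.Surjective σl ∧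
    (∀ i, σl (((Lv₂.uu i : Lv₂.Tˣ) : Lv₂.T)) = ((Lv₁.uu i : Lv₁.Tˣ) : Lv₁.T)) ∧
    (∀ x, σl (algebraMap Lv₂.T' Lv₂.T (Lv₂.θ x)) = algebraMap Lv₁.T' Lv₁.T (Lv₁.θ x)) ∧
      ∀ {MQ : Type} [AddCommGroup MQ] [Module R₂ MQ]
        (ρ : M₂ →ₗ[R₂] MQ) (hρ : ∀ m', ρ m' = 0 ↔ m' ∈ OldS)
        {T' : Type} [CommRing T'] [Algebra 𝒪 T']
        {T : Type} [CommRing T] [IsLocalRing T] [IsAdicComplete (maximalIdeal T) T] [Algebra 𝒪 T]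
        [Algebra T' T]
        (θ : DQ.R →ₐ[𝒪] T') (uu : Fin r → Tˣ) (huu : ∀ i, ((uu i : Tˣ) : T) - 1 ∈ maximalIdeal T)
        (s₂ : T →ₐ[𝒪] Lv₂.T) (hs₂ : Function.Surjective s₂)
        (hsu₂ : ∀ i, s₂ ((uu i : Tˣ) : T) = ((Lv₂.uu i : Lv₂.Tˣ) : Lv₂.T))
        (hsθ₂ : ∀ x, s₂ (algebraMap T' T (θ x)) = algebraMap Lv₂.T' Lv₂.T (Lv₂.θ x))
        (hs₁ : Function.Surjective (σl.comp s₂))
        (hsu₁ : ∀ i, (σl.comp s₂) ((uu i : Tˣ) : T) = ((Lv₁.uu i : Lv₁.Tˣ) : Lv₁.T)),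
        s59f_TStep (s59ej_L0 Lv₁ uu huu (σl.comp s₂) hs₁ hsu₁)
          (s59ej_L0 Lv₂ uu huu s₂ hs₂ hsu₂)
          (MvPowerSeries.C ((q : ℕ) : T) + 1 : MvPowerSeries σ T)
          (MvPowerSeries.C (algebraMap T' T (θ (s59i_cpTr DQ.ρ φq))))
          (MvPowerSeries.C (algebraMap T' T (θ (s59i_cpTr DQ.ρ φq))))
          (MvPowerSeries.C ((q : ℕ) : T) + 1 : MvPowerSeries σ T) ρ
          (Ideal.span {(((MvPowerSeries.C ((q : ℕ) : T) + 1 : MvPowerSeries σ T)) ^ 2 -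
            (MvPowerSeries.C (algebraMap T' T (θ (s59i_cpTr DQ.ρ φq))) : MvPowerSeries σ T) ^ 2) ^ 2})

end StepConcl

section Asm

variable {𝒪 : Type} [CommRing 𝒪] [IsDomain 𝒪] [IsDiscreteValuationRing 𝒪]
  [IsAdicComplete (maximalIdeal 𝒪) 𝒪] {p n r : ℕ} {σ : Type} [DecidableEq σ] [Fintype σ] (k : ℕ)
  {ρbar : ResidualGaloisRep (ResidueField 𝒪)}
  {𝒟₀ : ∀ ⦃A : Type⦄ [CommRing A] [IsLocalRing A] [Algebra 𝒪 A], GaloisRepAdic A → Prop}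
  (D0 : GaloisRep.DeformationRingData 𝒪 ρbar 𝒟₀)
  (R₀ : ℕ → Type) [iR1 : ∀ s, CommRing (R₀ s)] (iR2 : ∀ s, IsLocalRing (R₀ s))
  (iR3 : ∀ s, IsNoetherianRing (R₀ s)) (iR4 : ∀ s, IsAdicComplete (maximalIdeal (R₀ s)) (R₀ s))
  [iR5 : ∀ s, Algebra 𝒪 (R₀ s)] (iR6 : ∀ s, IsLocalHom (algebraMap 𝒪 (R₀ s)))
  (hRres : ∀ s, Function.Surjective (residue (R₀ s) ∘ algebraMap 𝒪 (R₀ s)))
  (M₀ : ℕ → Type) [iM1 : ∀ s, AddCommGroup (M₀ s)] [iM2 : ∀ s, Module (R₀ s) (M₀ s)]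
  (iM3 : ∀ s, Module.Finite (R₀ s) (M₀ s)) (iM4 : ∀ s, Nontrivial (M₀ s))
  (Old₀ : ∀ s s' t : ℕ, t < k → s = t → s' = t + 1 → Submodule (R₀ s') (M₀ s'))
  (ρR₀ : ∀ s, GaloisRepAdic (R₀ s)) (hρR₀ : ∀ s, 𝒟₀ (ρR₀ s))
  (hresR₀ : ∀ s, (ρR₀ s).residual.IsEquiv
    (ρbar.baseChangeAlong (ResidueField.map (algebraMap 𝒪 (R₀ s)))))
  (ν₀ : ∀ s, D0.R →ₐ[𝒪] R₀ s) (hν₀ : ∀ s g, ν₀ s (s59i_cpTr D0.ρ g) = s59i_cpTr (ρR₀ s) g)
  (hνs₀ : ∀ s, Function.Surjective (ν₀ s)) (d₀ : ℕ → ℕ)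

/-- **the base contract of a family of levels frozen above `k`.** -/
def s59efl_mkBaseMin : s59f_TBaseF 𝒪 k D0 :=
  s59c3_mkBase k D0 (fun t => R₀ (min t k)) (fun t => iR2 (min t k)) (fun t => iR3 (min t k))
    (fun t => iR4 (min t k)) (fun t => iR6 (min t k)) (fun t => hRres (min t k))
    (fun t => M₀ (min t k)) (fun t => iM3 (min t k)) (iM4 (min 0 k))
    (fun t => if h : t < k then
      Old₀ (min t k) (min (t + 1) k) t h (Nat.min_eq_left h.le) (Nat.min_eq_left h) else ⊥)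
    (fun t ht => dif_neg (not_lt.mpr ht))
    (fun t => ρR₀ (min t k)) (fun t => hρR₀ (min t k)) (fun t => hresR₀ (min t k))
    (fun t => ν₀ (min t k)) (fun t g => hν₀ (min t k) g) (fun t => hνs₀ (min t k))
    (fun t => d₀ (min t k))

theorem s59efl_mkBaseMin_R (t : ℕ) :
    (s59efl_mkBaseMin k D0 R₀ iR2 iR3 iR4 iR6 hRres M₀ iM3 iM4 Old₀ ρR₀ hρR₀ hresR₀ ν₀ hν₀ hνs₀ d₀).R t =
      R₀ (min t k) := rfl

variable {qv : Fin r → ℕ}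
  {𝒟 : ∀ ⦃A : Type⦄ [CommRing A] [IsLocalRing A] [Algebra 𝒪 A], GaloisRepAdic A → Prop}
  {DQ : GaloisRep.DeformationRingData 𝒪 ρbar 𝒟}
  (Lv₀ : ∀ s, @s59e_TLevelL 𝒪 _ _ _ _ p n r σ (R₀ s) (iR1 s) (iR2 s) (iR5 s) (M₀ s) (iM1 s) (iM2 s)
    (ρR₀ s) (d₀ s) qv _ _ DQ)
  (qr : ℕ → ℕ) (φr σr : ℕ → Γℚ)
  (hred : ∀ s, IsReduced (Lv₀ s).T')
  (htf : ∀ s, ∀ o : 𝒪, o ≠ 0 → ∀ x : (Lv₀ s).T', algebraMap 𝒪 (Lv₀ s).T' o * x = 0 → x = 0)
  (hst : ∀ (s s' t : ℕ) (ht : t < k) (hs : s = t) (hs' : s' = t + 1),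
    @s59efl_StepConclLv 𝒪 _ _ _ _ p n r σ _ _ ρbar 𝒟 DQ qv
      (R₀ s) (iR1 s) (iR2 s) (iR5 s) (M₀ s) (iM1 s) (iM2 s) (ρR₀ s) (d₀ s)
      (R₀ s') (iR1 s') (iR2 s') (iR5 s') (M₀ s') (iM1 s') (iM2 s') (ρR₀ s') (d₀ s')
      (Lv₀ s) (Lv₀ s') (Old₀ s s' t ht hs hs') (qr t) (φr t))
  (hunr : ∀ s, s = 0 → ∀ l, l < k → ∀ (f : Module.Dual DQ.R DQ.ρ.V) (v : DQ.ρ.V),
    (Lv₀ s).θ (f (DQ.ρ.ρ (σr l) v - v)) = 0)

include hred htf hst hunr in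
/-- **the assembly of the `T`-side contract at one Taylor–Wiles level, over abstract levels.** -/
theorem s59efl_asm_lv :
    Nonempty (s59f_TLevelF 𝒪 p n r σ k
      (s59efl_mkBaseMin k D0 R₀ iR2 iR3 iR4 iR6 hRres M₀ iM3 iM4 Old₀ ρR₀ hρR₀ hresR₀ ν₀ hν₀ hνs₀ d₀)
      qv qr φr σr DQ) := by
  classical
  have hmin1 : ∀ t, t < k → min t k = t := fun t ht => Nat.min_eq_left ht.le
  have hmin2 : ∀ t, t < k → min (t + 1) k = t + 1 := fun t ht => Nat.min_eq_left ht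
  have hmk : ∀ t, k ≤ t → min k k = min t k := fun t ht => by
    rw [Nat.min_self, Nat.min_eq_right ht]
  have hst' := fun (t : ℕ) (ht : t < k) =>
    hst (min t k) (min (t + 1) k) t ht (hmin1 t ht) (hmin2 t ht)
  unfold s59efl_StepConclLv at hst'
  choose σl hσs hσu hσθ hstep using hst'
  have hfro : ∀ a b : ℕ, a = b → ∃ s : (Lv₀ a).T →ₐ[𝒪] (Lv₀ b).T, Function.Surjective s ∧
      (∀ j, s (((Lv₀ a).uu j : (Lv₀ a).Tˣ) : (Lv₀ a).T) =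
        (((Lv₀ b).uu j : (Lv₀ b).Tˣ) : (Lv₀ b).T)) ∧
      ∀ x, s (algebraMap (Lv₀ a).T' (Lv₀ a).T ((Lv₀ a).θ x)) =
        algebraMap (Lv₀ b).T' (Lv₀ b).T ((Lv₀ b).θ x) := by
    rintro a _ rfl
    exact ⟨AlgHom.id 𝒪 _, Function.surjective_id, fun j => rfl, fun x => rfl⟩
  choose su0 hsu0s hsu0u hsu0θ using hfro
  unfold s59efl_mkBaseMin
  refine s59c3_asm_mk k D0 (fun t => R₀ (min t k)) (fun t => iR2 (min t k)) (fun t => iR3 (min t k))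
    (fun t => iR4 (min t k)) (fun t => iR6 (min t k)) (fun t => hRres (min t k))
    (fun t => M₀ (min t k)) (fun t => iM3 (min t k)) (iM4 (min 0 k))
    (fun t => if h : t < k then
      Old₀ (min t k) (min (t + 1) k) t h (Nat.min_eq_left h.le) (Nat.min_eq_left h) else ⊥)
    (fun t ht => dif_neg (not_lt.mpr ht))
    (fun t => ρR₀ (min t k)) (fun t => hρR₀ (min t k)) (fun t => hresR₀ (min t k))
    (fun t => ν₀ (min t k)) (fun t g => hν₀ (min t k) g) (fun t => hνs₀ (min t k))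
    (fun t => d₀ (min t k))
    (fun t => Lv₀ (min t k)) σl hσs hσu hσθ
    (fun t ht => su0 (min k k) (min t k) (hmk t ht)) (fun t ht => hsu0s _ _ _)
    (fun t ht j => hsu0u _ _ _ j) (fun t ht x => hsu0θ _ _ _ x) qr φr σr
    (hred (min k k)) (htf (min k k)) ?_ (hunr (min 0 k) (Nat.zero_min k))
  intro t ht s₂ hs₂ hsu₂ hsθ₂ hs₁ hsu₁
  refine hstep t ht (Submodule.mkQ (if h : t < k then
      Old₀ (min t k) (min (t + 1) k) t h (Nat.min_eq_left h.le) (Nat.min_eq_left h) else ⊥))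
    ?_ (Lv₀ (min k k)).θ (Lv₀ (min k k)).uu (Lv₀ (min k k)).huu
    s₂ hs₂ hsu₂ hsθ₂ hs₁ hsu₁
  intro m'
  rw [Submodule.mkQ_apply, Submodule.Quotient.mk_eq_zero, dif_pos ht]

end Asm

end Fermat.Agent.Lib.S59
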