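/-
Programme R2 (S59), node [PATCH-FLR], `T`-side, **(T1) joint levels, part (E11)** (helper5, prefix `s59efl_`): **THE BASE DATA OF ONE LEVEL,
CONCRETE FORM.**  (generated by a script.)  For a level `N` and a universal ring `D0` of a type `flat(Sg) ∧ unip(Su)` with free finsets: the idempotent
of `s59e_W_base_pkg`, the Hecke ring `R = 𝒪[aM₀]` of (B2) (`s59efl_base_B2_free`) with `θ₀ : D0.R ↠ R`, and the fields of helper4's `s59f_TBaseF`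
(`s59efl_base_facts`).
NB. The name component `Internal` is deliberate: it puts the theorem on the deny list of the premise-selection extensions
(`LibrarySuggestions`: symbol frequency, sine qua non), which otherwise walk through this giant statement twice when the `.olean` file is
written (17 min instead of 30 s for `s59efl_base_pkg` under `lake build`).  Likewise the proofs use `choose` and never `obtain` on the main goal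
(`rcases` against a giant goal is pathologically slow: > 100 min instead of 40 s).
-/
import Mathlib
import Fermat.Agent.Lib.S59.EFlrBase
import Fermat.Agent.Lib.S59.EFlrB2F
import Fermat.Agent.Lib.S59.EWPkg

set_option autoImplicit false
set_option linter.unusedSectionVars false
set_option linter.unusedVariables false
set_option linter.style.haveILetI false
set_option maxHeartbeats 0
set_option synthInstance.maxHeartbeats 400000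
set_option maxSynthPendingDepth 3
set_option backward.isDefEq.respectTransparency.types true

noncomputable section

namespace Fermat.Agent.Lib.S59

open IsLocalRing CuspForm Polynomial ExtCitation CongruenceSubgroup
open WeierstrassCurve WeierstrassCurve.Affine WeierstrassCurve.Affine.Point
open Fermat.Agent.Lib.S48 Fermat.Agent.Lib.S44
open scoped MatrixGroups

local notation "Γℚ" => (AlgebraicClosure ℚ ≃ₐ[ℚ] AlgebraicClosure ℚ)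

/-- **the base data of one level.** -/
theorem Internal.s59efl_base_pkg (p : ℕ) [Fact p.Prime] (hp5 : 5 ≤ p) (W : WeierstrassCurve ℤ) (hΔ : W.Δ ≠ 0)
    (N : ℕ) [NeZero N] (B : Finset ℕ)
    (hirr : W.ModRepIsIrreducible p) (hsq : Squarefree N) (hpN : ¬ p ∣ N)
    (hB1 : ∀ r : ℕ, r.Prime → r ∣ N * p → r ∈ B)
    (hB2 : ∀ r : ℕ, r.Prime → ¬ W.IsGoodPrimeFor r → r ∈ B)
    (hocc : s44i_LevelOcc N p (fun ℓ => W.apOfModel ℓ) B)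
    (𝒪 : Type) [CommRing 𝒪] [IsDomain 𝒪] [IsDiscreteValuationRing 𝒪]
    [IsAdicComplete (maximalIdeal 𝒪) 𝒪] [Finite (ResidueField 𝒪)] [CharZero 𝒪]
    [Algebra ℤ_[p] 𝒪] [Module.Finite ℤ_[p] 𝒪]
    (hp𝒪 : ((p : ℕ) : 𝒪) ∈ maximalIdeal 𝒪)
    (Sg Su Smin : Finset ℕ) (hpSg : p ∈ Sg)
    (hSg : ∀ q : ℕ, q.Prime → q ∣ N → q ∈ Sg ∨ s59e3q_E2Alt p (s59i_rhobarW W p hΔ 𝒪 hp𝒪) q)
    (hmin : ∀ q : ℕ, q.Prime → q ≠ p → (q ∈ Smin ↔ ¬ (s59i_rhobarW W p hΔ 𝒪 hp𝒪).IsUnramifiedAt q))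
    (D0 : GaloisRep.DeformationRingData 𝒪 (s59i_rhobarW W p hΔ 𝒪 hp𝒪) (fun _A _ _ _ ρ =>
      GaloisRep.flatCondition 𝒪 p Sg ρ ∧
        ∀ q ∈ Su, q.Prime → q ≠ p → ρ.IsUnipotentOnInertiaAt q)) :
    ∃ (e : MvPolynomial ↥(s59t_goodB N B) 𝒪),
    ∃ (h1e : 1 - e ∈ s59t_evalIdeal (fun x : ↥(s59t_goodB N B) =>
      s59t_cB (𝒪 := 𝒪) N (fun ℓ => W.apOfModel ℓ) (x : s59w_AIdx N))),
    ∃ (hid : (s59t_E0 (⊤ : Subgroup (ZMod N)ˣ) B e) * (s59t_E0 (⊤ : Subgroup (ZMod N)ˣ) B e) = (s59t_E0 (⊤ : Subgroup (ZMod N)ˣ) B e)),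
    ∃ (hnil : ∀ x ∈ s59t_goodB N B, ∃ k : ℕ, ∀ y : (s48h_Hpar 𝒪 (s48h_GammaH N (⊤ : Subgroup (ZMod N)ˣ)) 𝒪),
      ((s59w_op (⊤ : Subgroup (ZMod N)ˣ) 𝒪 x - s59t_cB (𝒪 := 𝒪) N (fun ℓ => W.apOfModel ℓ) x •
        (1 : Module.End 𝒪 (s48h_Hpar 𝒪 (s48h_GammaH N (⊤ : Subgroup (ZMod N)ˣ)) 𝒪))) ^ k) ((s59t_E0 (⊤ : Subgroup (ZMod N)ˣ) B e) y) ∈
        (maximalIdeal 𝒪 • ⊤ : Submodule 𝒪 (s48h_Hpar 𝒪 (s48h_GammaH N (⊤ : Subgroup (ZMod N)ˣ)) 𝒪))),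
    ∃ (hρ : ∀ δ y, (s59t_E0 (⊤ : Subgroup (ZMod N)ˣ) B e) ((s59t_rho N (⊤ : Subgroup (ZMod N)ˣ) 𝒪 𝒪) δ y) = (s59t_rho N (⊤ : Subgroup (ZMod N)ˣ) 𝒪 𝒪) δ ((s59t_E0 (⊤ : Subgroup (ZMod N)ˣ) B e) y)),
    ∃ (d : ℕ),
    ∃ (hd0 : d ≠ 0),
    ∃ (b0 : Fin d → LinearMap.range (s59t_E0 (⊤ : Subgroup (ZMod N)ˣ) B e)),
    ∃ (hb0 : Function.Bijective (s59t_evalMap (s59t_partRep (s59t_rho N (⊤ : Subgroup (ZMod N)ˣ) 𝒪 𝒪) hρ) b0)),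
    ∃ (a₀ : (heckeAlgebra N 2 (↑B : Set ℕ)) →+* Module.End 𝒪 (s48h_Hpar 𝒪 (s48h_GammaH N (⊤ : Subgroup (ZMod N)ˣ)) 𝒪)),
    ∃ (ha1₀ : ∀ (ℓ : ℕ) (hℓ : ℓ.Prime) (hℓN : ¬ ℓ ∣ N) (hℓS : ℓ ∉ (↑B : Set ℕ)) (i : s59w_TIdx N),
      i.ell = ℓ → a₀ (heckeAlgebra.T hℓ hℓN hℓS) = s59e_Tp' (⊤ : Subgroup (ZMod N)ˣ) 𝒪 ((p ^ 0 - 1) * ((p ^ 0 + 1) / 2)) i),
    ∃ (aM₀ : (heckeAlgebra N 2 (↑B : Set ℕ)) →+* Module.End 𝒪 (LinearMap.range (s59t_E0 (⊤ : Subgroup (ZMod N)ˣ) B e))),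
    ∃ (haM₀ : ∀ t (z : LinearMap.range (s59t_E0 (⊤ : Subgroup (ZMod N)ˣ) B e)), ((aM₀ t z : LinearMap.range (s59t_E0 (⊤ : Subgroup (ZMod N)ˣ) B e)) :
      (s48h_Hpar 𝒪 (s48h_GammaH N (⊤ : Subgroup (ZMod N)ˣ)) 𝒪)) = a₀ t (z : (s48h_Hpar 𝒪 (s48h_GammaH N (⊤ : Subgroup (ZMod N)ˣ)) 𝒪))),
    ∃ (_ : IsLocalRing (s59e_adj 𝒪 aM₀)),
    ∃ (_ : IsNoetherianRing (s59e_adj 𝒪 aM₀)),
    ∃ (_ : Module.Finite 𝒪 (s59e_adj 𝒪 aM₀)),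
    ∃ (_ : IsAdicComplete (maximalIdeal (s59e_adj 𝒪 aM₀)) (s59e_adj 𝒪 aM₀)),
    ∃ (_ : IsLocalHom (algebraMap 𝒪 (s59e_adj 𝒪 aM₀))),
    ∃ (hRρ : ∀ (t : s59e_adj 𝒪 aM₀) (δ : (s59t_Delta N (⊤ : Subgroup (ZMod N)ˣ))) (y : LinearMap.range (s59t_E0 (⊤ : Subgroup (ZMod N)ˣ) B e)),
      t • (s59t_partRep (s59t_rho N (⊤ : Subgroup (ZMod N)ˣ) 𝒪 𝒪) hρ) δ y = (s59t_partRep (s59t_rho N (⊤ : Subgroup (ZMod N)ˣ) 𝒪 𝒪) hρ) δ (t • y)),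
    ∃ (θ₀ : D0.R →ₐ[𝒪] (s59e_adj 𝒪 aM₀)),
    ∃ (hθ₀ : Function.Surjective θ₀),
    ∃ (hθ₀l : IsLocalHom (θ₀ : D0.R →+* (s59e_adj 𝒪 aM₀))),
      Function.Surjective (residue (s59e_adj 𝒪 aM₀) ∘ algebraMap 𝒪 (s59e_adj 𝒪 aM₀)) ∧
      Module.Finite (s59e_adj 𝒪 aM₀) (s59t_EigT (s59t_partRep (s59t_rho N (⊤ : Subgroup (ZMod N)ˣ) 𝒪 𝒪) hρ) ⊤ (1 : (s59t_Delta N (⊤ : Subgroup (ZMod N)ˣ)) →* 𝒪ˣ) hRρ) ∧
      Nontrivial (s59t_EigT (s59t_partRep (s59t_rho N (⊤ : Subgroup (ZMod N)ˣ) 𝒪 𝒪) hρ) ⊤ (1 : (s59t_Delta N (⊤ : Subgroup (ZMod N)ˣ)) →* 𝒪ˣ) hRρ) ∧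
      (∀ (ℓ : ℕ), ℓ.Prime → ¬ ℓ ∣ N → ℓ ∉ (↑B : Set ℕ) →
        ∀ A : ValuationSubring (AlgebraicClosure ℚ), A.LiesOverPrime ℓ →
        ∀ g : Γℚ, A.IsFrobeniusAt g ℓ →
          LinearMap.charpoly ((D0.ρ.baseChangeAlong (θ₀ : D0.R →+* (s59e_adj 𝒪 aM₀)) hθ₀l).ρ g) =
            Polynomial.X ^ 2 - Polynomial.C (s59e_tOf (↑B : Set ℕ) aM₀ ℓ) * Polynomial.X +
              Polynomial.C ((ℓ : (s59e_adj 𝒪 aM₀)))) ∧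
      (Algebra.adjoin 𝒪 {x : (s59e_adj 𝒪 aM₀) | ∃ ℓ : ℕ, ℓ.Prime ∧ ¬ ℓ ∣ N ∧
        ℓ ∉ (↑B : Set ℕ) ∧ x = s59e_tOf (↑B : Set ℕ) aM₀ ℓ} = ⊤) ∧
      ((D0.ρ.baseChangeAlong (θ₀ : D0.R →+* (s59e_adj 𝒪 aM₀)) hθ₀l).residual.IsEquiv
        ((s59i_rhobarW W p hΔ 𝒪 hp𝒪).baseChangeAlong (ResidueField.map (algebraMap 𝒪 (s59e_adj 𝒪 aM₀))))) ∧
      (GaloisRep.flatCondition 𝒪 p Sg (D0.ρ.baseChangeAlong (θ₀ : D0.R →+* (s59e_adj 𝒪 aM₀)) hθ₀l) ∧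
        ∀ q ∈ Su, q.Prime → q ≠ p → (D0.ρ.baseChangeAlong (θ₀ : D0.R →+* (s59e_adj 𝒪 aM₀)) hθ₀l).IsUnipotentOnInertiaAt q) ∧
      (∀ g, θ₀ (s59i_cpTr D0.ρ g) = s59i_cpTr (D0.ρ.baseChangeAlong (θ₀ : D0.R →+* (s59e_adj 𝒪 aM₀)) hθ₀l) g) := by
  classical
  have hpP : p.Prime := Fact.out
  have hp2 : p ≠ 2 := by omega
  have htors : s59e_auxTors p N := s59e_auxTors_of_five_le hpP hp5 N
  have hNB : ∀ q : ℕ, q.Prime → q ∣ N → q ∈ B := fun q hq h => hB1 q hq (Dvd.dvd.mul_right h p)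
  have hpB : p ∈ B := hB1 p hpP (Dvd.intro_left N rfl)
  have hnegH : (-1 : (ZMod N)ˣ) ∈ (⊤ : Subgroup (ZMod N)ˣ) := Subgroup.mem_top _
  have hH : ∀ u : (ZMod N)ˣ, ∃ k : ℕ, u ^ (p ^ k) ∈ (⊤ : Subgroup (ZMod N)ˣ) :=
    fun u => ⟨0, Subgroup.mem_top _⟩
  -- the base package at `(N, ⊤)`
  -- (`choose` instead of `obtain` throughout: `rcases` is pathologically slow against the giant goal)
  have hpkg := s59e_W_base_pkg W hΔ p hirr N hsq B hocc (𝒪 := 𝒪) hp𝒪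
      (⊤ : Subgroup (ZMod N)ˣ) hnegH hH htors
  choose e h1e hunit hid hne hnil hpk7 hpk8 hpk9 hP3 using hpkg
  choose hρa hρ d ba b0 πa hba hb0 hP3rest using hP3
  have hd0 : d ≠ 0 := (s59t_part_ne_zero_iff _ b0 hb0).1 hne
  -- (B2) at the base level
  have hB2₀ := s59efl_base_B2_free p hp2 W hΔ N B hirr hsq hpN hB1 hB2 𝒪 hp𝒪 Sg Su Smin hpSg hSg hmin D0
    (s59t_E0 (⊤ : Subgroup (ZMod N)ˣ) B e) hid hne (fun jdx => s59e_E0_comm_op _ B e jdx) hnil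
  choose a₀ aM₀ ha1₀ ha2₀ haM₀ hlocA₀ hlr₀ θ₀ hθ₀ hfrob₀ hcong₀ using hB2₀
  haveI : IsLocalRing (s59e_adj 𝒪 aM₀) := hlr₀
  -- freeness and finiteness of `Y`
  let bZ₀ := Module.Free.chooseBasis ℤ (s48h_M (s48h_GammaH N (⊤ : Subgroup (ZMod N)ˣ)))
  haveI : Module.Free 𝒪 (s48h_Hpar 𝒪 (s48h_GammaH N (⊤ : Subgroup (ZMod N)ˣ)) 𝒪) :=
    Module.Free.of_basis (s59u_cB bZ₀ 𝒪)
  haveI : Module.Finite 𝒪 (s48h_Hpar 𝒪 (s48h_GammaH N (⊤ : Subgroup (ZMod N)ˣ)) 𝒪) :=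
    Module.Finite.of_basis (s59u_cB bZ₀ 𝒪)
  haveI hfin₀ : Module.Finite 𝒪 (LinearMap.range (s59t_E0 (⊤ : Subgroup (ZMod N)ˣ) B e)) :=
    s59t_part_finite _
  haveI hfree₀ : Module.Free 𝒪 (LinearMap.range (s59t_E0 (⊤ : Subgroup (ZMod N)ˣ) B e)) :=
    s59t_part_free hid
  haveI hYnt : Nontrivial (LinearMap.range (s59t_E0 (⊤ : Subgroup (ZMod N)ˣ) B e)) := s59e_L_range_nontrivial _ hne
  haveI hlh₀ : IsLocalHom (algebraMap 𝒪 (s59e_adj 𝒪 aM₀)) := s59e_adj_isLocalHom aM₀ hlocA₀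
  have hnoeth₀ : IsNoetherianRing (s59e_adj 𝒪 aM₀) := s59e_adj_noeth aM₀
  have hcompl₀ : IsAdicComplete (maximalIdeal (s59e_adj 𝒪 aM₀)) (s59e_adj 𝒪 aM₀) :=
    s59e_adj_complete aM₀
  have hfinR₀ : Module.Finite 𝒪 (s59e_adj 𝒪 aM₀) := s59e_adj_finite aM₀
  have hbf :=
    s59efl_base_facts p hp2 W hΔ N B hirr hB1 hB2 𝒪 hp𝒪 Sg Su D0
      (s59t_E0 (⊤ : Subgroup (ZMod N)ˣ) B e) hid hne hρ d b0 hb0 a₀ aM₀ ha2₀ haM₀ hlocA₀ θ₀ hθ₀ hfrob₀ hcong₀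
  choose hlh hθ₀l hRρ hRres hMfin hMnt hfrobR hgenR hresR htype hν using hbf
  exact ⟨e, h1e, hid, hnil, hρ, d, hd0, b0, hb0, a₀, ha1₀, aM₀, haM₀, hlr₀, hnoeth₀, hfinR₀, hcompl₀, hlh,
    hRρ, θ₀, hθ₀, hθ₀l, hRres, hMfin, hMnt, hfrobR, hgenR, hresR, htype, hν⟩

end Fermat.Agent.Lib.S59
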