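/-
Programme R (S59), node (H3) (helper5, prefix `s59e_`), file 2: PUSH-FORWARD OF A HECKE–GALOIS DATUM
TO A QUOTIENT OF THE LOCAL HECKE ALGEBRA.

`T'` a local `𝒪`-algebra with a ring homomorphism `a : 𝕋 = heckeAlgebra N 2 S → T'` reducing to `θ`
and generating `T'` over `𝒪` (the first three fields of a `HeckeGaloisRepDatum`; NO `exists_point`,
so `T'` may be a proper quotient of the full local Hecke algebra — e.g. the twisted Hecke algebra
`T'_Q = 𝒪[⟨ℓ⟩^{-1/2} T_ℓ] ⊂ End M_Q` of the `Γ_H`-level `N₀ ∏ Q`, a quotient of the `Γ₀`-level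
`N₀ ∏ q²`).  Then:

* `s59e_heckeQuot` : there is a surjective local `𝒪`-algebra map `Ψ : heckeLocal N S 𝒪 θ ↠ T'` with
  `Ψ ∘ heckeLocal.π = a` (helper6's `s59h_exists_point`);
* `s59e_push_charpoly`, `s59e_push_*` : for a datum `H` over `heckeLocal` with
  `H.π = heckeLocal.π`, the push-forward `ρ' = H.ρ.baseChangeAlong Ψ` has Frobenius characteristic
  polynomials `X² - a(T_ℓ) X + ℓ` and inherits every local property of `H.ρ`.
-/
import Fermat.Agent.Lib.S59.H0Point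
import Fermat.Agent.Lib.S59.EHFlat

set_option autoImplicit false
set_option linter.style.haveILetI false
set_option synthInstance.maxHeartbeats 400000
set_option maxHeartbeats 1000000

noncomputable section

namespace Fermat.Agent.Lib.S59

open IsLocalRing Polynomial CuspForm

local notation "Qbar" => AlgebraicClosure ℚ
local notation "GQ" => (AlgebraicClosure ℚ ≃ₐ[ℚ] AlgebraicClosure ℚ)

variable (N : ℕ) [NeZero N] (S : Set ℕ)
variable (𝒪 : Type) [CommRing 𝒪] [IsDomain 𝒪] [IsDiscreteValuationRing 𝒪]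
  [IsAdicComplete (maximalIdeal 𝒪) 𝒪]
variable (θ : heckeAlgebra N 2 S →+* ResidueField 𝒪)
variable [Fact (HasIntegralStructure N 2)]
variable {T' : Type} [CommRing T'] [IsLocalRing T'] [Algebra 𝒪 T'] [IsLocalHom (algebraMap 𝒪 T')]

/-- **The local Hecke algebra surjects onto every local `𝒪`-algebra generated by a lift of `θ`.** -/
theorem s59e_heckeQuot (a : heckeAlgebra N 2 S →+* T')
    (ha_res : ∀ t, residue T' (a t) = ResidueField.map (algebraMap 𝒪 T') (θ t))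
    (ha_gen : Algebra.adjoin 𝒪 (Set.range a) = ⊤) :
    ∃ Ψ : heckeLocal N S 𝒪 θ →ₐ[𝒪] T', Function.Surjective Ψ ∧
      (∀ t, Ψ (heckeLocal.π N S 𝒪 θ t) = a t) := by
  obtain ⟨Ψ, hΨ⟩ := s59h_exists_point N S 𝒪 θ a ha_res
  refine ⟨Ψ, ?_, hΨ⟩
  have h1 : Algebra.adjoin 𝒪 (Set.range a) ≤ Ψ.range := by
    refine Algebra.adjoin_le ?_
    rintro _ ⟨t, rfl⟩
    exact ⟨heckeLocal.π N S 𝒪 θ t, hΨ t⟩
  rw [ha_gen] at h1
  intro y
  obtain ⟨x, hx⟩ := h1 (Algebra.mem_top (x := y))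
  exact ⟨x, hx⟩

/-- **Push-forward of a Hecke–Galois datum over the full local Hecke algebra to a quotient.** -/
theorem s59e_push (H : HeckeGaloisRepDatum N S 𝒪 θ (heckeLocal N S 𝒪 θ))
    (hπ : H.π = heckeLocal.π N S 𝒪 θ) (a : heckeAlgebra N 2 S →+* T')
    (ha_res : ∀ t, residue T' (a t) = ResidueField.map (algebraMap 𝒪 T') (θ t))
    (ha_gen : Algebra.adjoin 𝒪 (Set.range a) = ⊤) :
    ∃ (Ψ : heckeLocal N S 𝒪 θ →ₐ[𝒪] T') (hΨ : IsLocalHom (Ψ : heckeLocal N S 𝒪 θ →+* T')),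
      Function.Surjective Ψ ∧ (∀ t, Ψ (heckeLocal.π N S 𝒪 θ t) = a t) ∧
      ∀ (ℓ : ℕ) (hℓ : ℓ.Prime) (hℓN : ¬ ℓ ∣ N) (hℓS : ℓ ∉ S) (A : ValuationSubring Qbar),
        A.LiesOverPrime ℓ → ∀ σ : GQ, A.IsFrobeniusAt σ ℓ →
        LinearMap.charpoly ((H.ρ.baseChangeAlong (Ψ : heckeLocal N S 𝒪 θ →+* T') hΨ).ρ σ) =
          X ^ 2 - C (a (heckeAlgebra.T hℓ hℓN hℓS)) * X + C ((ℓ : T')) := by
  obtain ⟨Ψ, hsurj, hΨ⟩ := s59e_heckeQuot N S 𝒪 θ a ha_res ha_gen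
  have hloc : IsLocalHom (Ψ : heckeLocal N S 𝒪 θ →+* T') :=
    Function.Surjective.isLocalHom (Ψ : heckeLocal N S 𝒪 θ →+* T') hsurj
  refine ⟨Ψ, hloc, hsurj, hΨ, fun ℓ hℓ hℓN hℓS A hA σ hσ => ?_⟩
  rw [s59e_bc_charpoly, H.charpoly_frob ℓ hℓ hℓN hℓS A hA σ hσ, hπ]
  simp only [Polynomial.map_add, Polynomial.map_sub, Polynomial.map_mul, Polynomial.map_pow,
    Polynomial.map_X, Polynomial.map_C, RingHom.coe_coe, map_natCast, Polynomial.map_natCast, hΨ]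

end Fermat.Agent.Lib.S59

end
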