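/-
PROGRAMME R2 = S59, node [LIFT-min] = FIN-L (helper4, prefix `s59f_`), part A: THE ALGEBRA CORE.
One sequence of levels over the acting ring `A = P⟦s_1..s_r⟧` (`P` a complete noetherian local
DOMAIN with `dim P ≤ dim S`, e.g. a power series ring over `𝒪`: all local deformation rings smooth),
with the level-dependent relations `s_i² − t_{i,n} ∈ Ann N_n`, `t_{i,n} ∈ 𝔪_P` (the square roots of the
diamond operators at the Taylor–Wiles primes), such that `ψ_n` kills `s_i` and `t_{i,n}` (the base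
level is unramified at the Taylor–Wiles primes).  Conclusion: `Ann_R M` is nil, i.e. every prime of
`R` is in the support of `M` ("`R^red = T^red`").  Here `R` is the UNIVERSAL ring at the base level:
  * `s59f_retarget` : a level over the target `R` (the Hecke ring) is a level over any `R₀` with
    `ν : R₀ → R`, `ψ₀ : A ↠ R₀`, `ν ∘ ψ₀ = ψ` (module structure `Module.compHom M ν`);
  * `s59f_FINL_core` : the core theorem.
-/
import Mathlib
import Fermat.Agent.Lib.S59.FGraph
import Fermat.Agent.Lib.S59.LAsmS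

set_option autoImplicit false
set_option linter.unusedSectionVars false
set_option linter.unusedVariables false
set_option linter.style.haveILetI false
set_option maxHeartbeats 1600000

noncomputable section

namespace Fermat.Agent.Lib.S59

open IsLocalRing MvPowerSeries Fermat.Agent.Lib.Deform

section Retarget

variable {S : Type} [CommRing S] {A : Type} [CommRing A] {R : Type} [CommRing R]
  {M : Type} [AddCommGroup M] [Module R M] {𝔞 J : Ideal S}

/-- **change of the target ring**: the same module `M` over `R₀` through `ν : R₀ → R`. -/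
def s59f_retarget (L : s59p_Level S A R M 𝔞 J) {R₀ : Type} [CommRing R₀] (ν : R₀ →+* R)
    (ψ₀ : A →+* R₀) (hψ₀ : Function.Surjective ψ₀) (hν : ∀ a, ν (ψ₀ a) = L.ψ a)
    (h𝔞 : ∀ s ∈ 𝔞, ψ₀ (L.φ s) = 0) :
    @s59p_Level S _ A _ R₀ _ M _ (Module.compHom M ν) 𝔞 J :=
  letI : Module R₀ M := Module.compHom M ν
  { N := L.N
    φ := L.φ
    ψ := ψ₀
    ψ_surjective := hψ₀
    ψ_φ := h𝔞
    π := L.π
    π_smul := fun a x => by
      rw [L.π_smul, ← hν]
      rfl
    π_surjective := L.π_surjective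
    ker_π := L.ker_π
    d := L.d
    b := L.b
    b_span := L.b_span
    b_rel := L.b_rel }

end Retarget

section Core

/-- `f − C (constantCoeff f)` lies in every ideal containing the variables. -/
theorem s59f_sub_C_mem {P : Type*} [CommRing P] {r : ℕ} (𝔮 : Ideal (MvPowerSeries (Fin r) P))
    (hX : ∀ i, (X i : MvPowerSeries (Fin r) P) ∈ 𝔮) (f : MvPowerSeries (Fin r) P) :
    f - C (constantCoeff f) ∈ 𝔮 := by
  have h0 : ∀ d : Fin r →₀ ℕ, Finsupp.degree d < 1 →
      coeff d (f - C (constantCoeff f)) = 0 := by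
    intro d hd
    have hd0 : d = 0 := by
      have : Finsupp.degree d = 0 := by omega
      exact (Finsupp.degree_eq_zero_iff d).mp this
    subst hd0
    rw [map_sub, coeff_zero_eq_constantCoeff_apply, coeff_zero_eq_constantCoeff_apply,
      constantCoeff_C, sub_self]
  have h1 := mem_span_X_pow_of_coeff_eq_zero (σ := Fin r) (R := P) (n := 1) h0
  rw [pow_one] at h1
  refine (Ideal.span_le.mpr ?_) h1
  rintro _ ⟨i, rfl⟩
  exact hX i

/-- **FIN-L, the algebra core.** -/
theorem s59f_FINL_core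
    (S : Type) [CommRing S] [IsDomain S] [IsLocalRing S] [IsNoetherianRing S]
    [IsAdicComplete (maximalIdeal S) S] [Finite (ResidueField S)]
    (P : Type) [CommRing P] [IsDomain P] [IsLocalRing P] [IsNoetherianRing P]
    [IsAdicComplete (maximalIdeal P) P] [Finite (ResidueField P)] (r : ℕ)
    [IsNoetherianRing (MvPowerSeries (Fin r) P)]
    (hdim : ringKrullDim P ≤ ringKrullDim S)
    (R : Type) [CommRing R] [IsLocalRing R] [IsNoetherianRing R]
    [IsAdicComplete (maximalIdeal R) R]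
    (M : Type) [AddCommGroup M] [Module R M] [Module.Finite R M] [Nontrivial M]
    (𝔞 : Ideal S) (J : ℕ → Ideal S) (hJ : ∀ n, J n ≤ maximalIdeal S ^ n)
    (L : ∀ n, s59p_Level S (MvPowerSeries (Fin r) P) R M 𝔞 (J n))
    (d : ℕ) (hd : ∀ n, (L n).d = d)
    (t : ℕ → Fin r → P) (htm : ∀ n i, t n i ∈ maximalIdeal P)
    (ht : ∀ n i, (X i : MvPowerSeries (Fin r) P) ^ 2 - C (t n i) ∈
      Module.annihilator (MvPowerSeries (Fin r) P) (L n).N)
    (hψt : ∀ n i, (L n).ψ (C (t n i)) = 0) (hψX : ∀ n i, (L n).ψ (X i) = 0) :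
    Module.annihilator R M ≤ nilradical R := by
  classical
  -- the limit
  have hW : ∀ n, s59p_WCong (0 : MvPowerSeries (Fin r) P) 0 (RingEquiv.refl _) (L n) (L n) := by
    intro n k a a' haa' h x'
    rw [RingEquiv.refl_apply, Ideal.Quotient.eq, Ideal.mem_span_singleton] at haa'
    obtain ⟨c, hc⟩ := haa'
    rw [zero_mul, sub_eq_zero] at hc
    rw [← hc]
    exact h x'
  obtain ⟨ms, Li, -, -, tinf', -, hφ, hψ, hann, -, -, -, -, htinf'⟩ :=
    s59p_pm1w'' S (MvPowerSeries (Fin r) P) (MvPowerSeries (Fin r) P) R R M M 𝔞 J hJ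
      0 0 (RingEquiv.refl _) L L d d hd hd hW (κ := PEmpty) (κ' := Fin r)
      (fun _ i => i.elim) (fun n i => (C (t n i) : MvPowerSeries (Fin r) P))
  set tP : Fin r → P := fun i => constantCoeff (tinf' i) with htP
  have htPconv : ∀ n i, t (ms n) i - tP i ∈ maximalIdeal P ^ n := by
    intro n i
    have h1 := s59p_surj_mem_pow (constantCoeff (σ := Fin r) (R := P))
      (fun p => ⟨C p, constantCoeff_C p⟩) (htinf' n i)
    rw [map_sub, constantCoeff_C] at h1
    exact h1
  have htPm : ∀ i, tP i ∈ maximalIdeal P := by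
    intro i
    have h1 := htPconv 1 i
    rw [pow_one] at h1
    have := Ideal.sub_mem _ (htm (ms 1) i) h1
    rwa [sub_sub_cancel] at this
  have hsq : ∀ i, (X i : MvPowerSeries (Fin r) P) ^ 2 - C (tP i) ∈
      Module.annihilator (MvPowerSeries (Fin r) P) Li.N := by
    intro i
    refine hann (fun n => (X i : MvPowerSeries (Fin r) P) ^ 2 - C (t n i)) _
      (fun n => ht n i) fun n => ?_
    have e : (X i : MvPowerSeries (Fin r) P) ^ 2 - C (t (ms n) i) - (X i ^ 2 - C (tP i)) =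
        -(C (t (ms n) i - tP i)) := by
      rw [map_sub]; ring
    rw [e]
    exact neg_mem (s59p_map_mem_pow (C (σ := Fin r) (R := P)) (htPconv n i))
  -- the limit of `ψ` kills `s_i` and `t_i`
  have hψX' : ∀ i, Li.ψ (X i) = 0 := by
    intro i
    refine eq_of_forall_sub_mem_pow (maximalIdeal R) fun n => ?_
    have := hψ n (X i)
    rw [hψX] at this
    rw [sub_zero]
    have h2 := neg_mem this
    rwa [neg_sub, sub_zero] at h2
  have hψt' : ∀ i, Li.ψ (C (tP i)) = 0 := by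
    intro i
    refine eq_of_forall_sub_mem_pow (maximalIdeal R) fun n => ?_
    rw [sub_zero]
    have h1 := hψ n (C (tP i))
    have h2 : (L (ms n)).ψ (C (tP i)) ∈ maximalIdeal R ^ n := by
      have e : (C (tP i) : MvPowerSeries (Fin r) P) = C (t (ms n) i) - C (t (ms n) i - tP i) := by
        rw [map_sub]; ring
      rw [e, map_sub, hψt, zero_sub]
      refine neg_mem (s59p_surj_mem_pow _ (L (ms n)).ψ_surjective ?_)
      exact s59p_map_mem_pow (C (σ := Fin r) (R := P)) (htPconv n i)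
    have h3 := Ideal.sub_mem _ h2 h1
    rwa [sub_sub_cancel] at h3
  -- a minimal prime of the support
  have hN : Module.annihilator (MvPowerSeries (Fin r) P) Li.N ≠ ⊤ := by
    intro h
    have h1 : (1 : MvPowerSeries (Fin r) P) ∈
        Module.annihilator (MvPowerSeries (Fin r) P) Li.N := h ▸ Submodule.mem_top
    rw [Module.mem_annihilator] at h1
    obtain ⟨y, hy⟩ := exists_ne (0 : M)
    obtain ⟨x, rfl⟩ := Li.π_surjective y
    apply hy
    have := h1 x
    rw [one_smul] at this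
    rw [this, map_zero]
  obtain ⟨⟨𝔓, h𝔓⟩⟩ := Ideal.nonempty_minimalPrimes hN
  haveI hPprime : 𝔓.IsPrime := h𝔓.1.1
  obtain ⟨-, -, hc', -⟩ := s59p_pm2 S (MvPowerSeries (Fin r) P) R M 𝔞 Li 𝔓 h𝔓
  haveI hfin : Module.Finite P (MvPowerSeries (Fin r) P ⧸ 𝔓) :=
    s59l_quot_finite 𝔓 hPprime.ne_top tP htPm fun k => h𝔓.1.2 (hsq k)
  have hint : ((Ideal.Quotient.mk 𝔓).comp (C (σ := Fin r) (R := P))).IsIntegral := by
    have h1 : (algebraMap P (MvPowerSeries (Fin r) P ⧸ 𝔓)).IsIntegral :=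
      (Algebra.IsIntegral.of_finite P (MvPowerSeries (Fin r) P ⧸ 𝔓)).isIntegral
    have h2 : algebraMap P (MvPowerSeries (Fin r) P ⧸ 𝔓) =
        (Ideal.Quotient.mk 𝔓).comp (C (σ := Fin r) (R := P)) := by
      refine RingHom.ext fun p => ?_
      show Ideal.Quotient.mk 𝔓 (algebraMap P (MvPowerSeries (Fin r) P) p) = _
      rw [MvPowerSeries.algebraMap_apply, Algebra.algebraMap_self, RingHom.id_apply]
      rfl
    rw [← h2]
    exact h1
  haveI hbot : (⊥ : Ideal P).IsPrime := Ideal.isPrime_bot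
  have hdimbot : ringKrullDim (P ⧸ (⊥ : Ideal P)) ≤ ringKrullDim S := by
    rw [ringKrullDim_eq_of_ringEquiv (RingEquiv.quotientBot P)]
    exact hdim
  have heq : Ideal.comap (C (σ := Fin r) (R := P)) 𝔓 = ⊥ :=
    s59l_comap_eq_of_dim (C (σ := Fin r) (R := P)) 𝔓 hint ⊥ bot_le (ringKrullDim S)
      ringKrullDim_ne_top ringKrullDim_ne_bot hdimbot hc'
  -- every prime of `R` is in the support
  have hall : ∀ 𝔭 : Ideal R, 𝔭.IsPrime → Module.annihilator R M ≤ 𝔭 := by
    intro 𝔭 h𝔭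
    haveI := h𝔭
    set 𝔮 := Ideal.comap Li.ψ 𝔭 with h𝔮def
    haveI h𝔮 : 𝔮.IsPrime := Ideal.comap_isPrime Li.ψ 𝔭
    set 𝔮₀ := Ideal.comap (C (σ := Fin r) (R := P)) 𝔮 with h𝔮₀def
    haveI h𝔮₀ : 𝔮₀.IsPrime := Ideal.comap_isPrime _ 𝔮
    obtain ⟨𝔮', h𝔮', h𝔓𝔮, hcomap𝔮⟩ := s59l_lying_over (C (σ := Fin r) (R := P)) 𝔓 hint 𝔮₀
      (heq ▸ bot_le)
    haveI := h𝔮'
    have hXq : ∀ i, (X i : MvPowerSeries (Fin r) P) ∈ 𝔮 := by
      intro i
      rw [h𝔮def, Ideal.mem_comap, hψX']
      exact Ideal.zero_mem _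
    have htq₀ : ∀ i, tP i ∈ 𝔮₀ := by
      intro i
      rw [h𝔮₀def, Ideal.mem_comap, h𝔮def, Ideal.mem_comap, hψt']
      exact Ideal.zero_mem _
    have hXq' : ∀ i, (X i : MvPowerSeries (Fin r) P) ∈ 𝔮' := by
      intro i
      have h1 : (X i : MvPowerSeries (Fin r) P) ^ 2 - C (tP i) ∈ 𝔮' := h𝔓𝔮 (h𝔓.1.2 (hsq i))
      have h2 : (C (tP i) : MvPowerSeries (Fin r) P) ∈ 𝔮' := by
        rw [← Ideal.mem_comap, hcomap𝔮]
        exact htq₀ i
      have h3 := Ideal.add_mem _ h1 h2
      rw [sub_add_cancel] at h3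
      exact Ideal.IsPrime.mem_of_pow_mem h𝔮' 2 h3
    have hmem : ∀ (𝔵 : Ideal (MvPowerSeries (Fin r) P)), (∀ i, (X i : MvPowerSeries (Fin r) P) ∈ 𝔵) →
        Ideal.comap (C (σ := Fin r) (R := P)) 𝔵 = 𝔮₀ → ∀ f, f ∈ 𝔵 ↔ constantCoeff f ∈ 𝔮₀ := by
      intro 𝔵 hX𝔵 hc𝔵 f
      have h1 := s59f_sub_C_mem 𝔵 hX𝔵 f
      rw [← hc𝔵, Ideal.mem_comap]
      constructor
      · intro hf
        have := Ideal.sub_mem _ hf h1
        rwa [sub_sub_cancel] at this
      · intro hf
        have := Ideal.add_mem _ h1 hf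
        rwa [sub_add_cancel] at this
    have hqq : 𝔮' = 𝔮 := by
      ext f
      rw [hmem 𝔮' hXq' hcomap𝔮 f, hmem 𝔮 hXq rfl f]
    refine s59f_points Li 𝔓 h𝔓.1.2 𝔭 ?_
    rw [← h𝔮def, ← hqq]
    exact h𝔓𝔮
  intro x hx
  rw [nilradical_eq_sInf, Ideal.mem_sInf]
  intro 𝔭 h𝔭
  exact hall 𝔭 h𝔭 hx

end Core

end Fermat.Agent.Lib.S59
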