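/-
PROGRAMME R2 = S59, node [LIFT-min] = FIN-L (helper4, prefix `s59f_`), part T, VARIANT A:
`s59f_FINL_absA` = `s59f_FINL_abs` (FLiftT.lean) with the relation [C8] in ANNIHILATOR form
(`C ((u_i − u_i⁻¹)² − θ(tr ρ(σ_i)² − 4)) ∈ Ann (L0 n).N`, as delivered by the `T`-side record
`s59e_TLevelL.hC8` of helper5) instead of an equality in `T n`.  Everything else is unchanged
(`hunrQ`, `hρRQ` stay hypotheses: the consumer derives them from `flatCondition`).
-/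
import Mathlib
import Fermat.Agent.Lib.S59.FLiftA
import Fermat.Agent.Lib.S59.FLiftK
import Fermat.Agent.Lib.S59.LFinA3
import Fermat.Agent.Lib.S59.FLiftT

set_option autoImplicit false
set_option linter.unusedSectionVars false
set_option linter.unusedVariables false
set_option linter.style.haveILetI false
set_option maxHeartbeats 3200000

noncomputable section

namespace Fermat.Agent.Lib.S59

open IsLocalRing MvPowerSeries
open Fermat.Agent.Lib.S53 (matOf NormData)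
open Fermat.Agent.Lib.S56

local notation "Γℚ" => (AlgebraicClosure ℚ ≃ₐ[ℚ] AlgebraicClosure ℚ)

variable {𝒪 : Type} [CommRing 𝒪] [IsDomain 𝒪] [IsDiscreteValuationRing 𝒪]
  [IsAdicComplete (maximalIdeal 𝒪) 𝒪] [Finite (ResidueField 𝒪)]
  {ρbar : ResidualGaloisRep (ResidueField 𝒪)}

/-- **FIN-L, abstract form.** -/
theorem s59f_FINL_absA
    (p : ℕ) [Fact p.Prime] (i2 : 𝒪) (hi2 : 2 * i2 = 1)
    {𝒟₀ : ∀ ⦃A : Type⦄ [CommRing A] [IsLocalRing A] [Algebra 𝒪 A], GaloisRepAdic A → Prop}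
    {𝒟Q : ℕ → ∀ ⦃A : Type⦄ [CommRing A] [IsLocalRing A] [Algebra 𝒪 A], GaloisRepAdic A → Prop}
    (D0 : GaloisRep.DeformationRingData 𝒪 ρbar 𝒟₀)
    (DQ : ∀ n, GaloisRep.DeformationRingData 𝒪 ρbar (𝒟Q n))
    (Nd : NormData ρbar) (h𝒟₀ : s56a_TangentStable 𝒪 𝒟₀ p)
    (h0Q : ∀ n, 𝒟Q n D0.ρ)
    -- the rings `S` and `P`
    {σ : Type} [Fintype σ] [DecidableEq σ] (r : ℕ)
    (P : Type) [CommRing P] [IsDomain P] [IsLocalRing P] [IsNoetherianRing P]
    [IsAdicComplete (maximalIdeal P) P] [Finite (ResidueField P)] [Algebra 𝒪 P]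
    (hdim : ringKrullDim P ≤ ringKrullDim (MvPowerSeries σ (MvPowerSeries (Fin r) 𝒪)))
    (γ : ∀ n, P →ₐ[𝒪] MvPowerSeries σ (DQ n).R) (hγ : ∀ n, Function.Surjective (γ n))
    -- the base level
    (R : Type) [CommRing R] [IsLocalRing R] [IsNoetherianRing R]
    [IsAdicComplete (maximalIdeal R) R] [Algebra 𝒪 R] [IsLocalHom (algebraMap 𝒪 R)]
    (hRres : Function.Surjective (residue R ∘ algebraMap 𝒪 R))
    (M : Type) [AddCommGroup M] [Module R M] [Module.Finite R M] [Nontrivial M]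
    (ρR : GaloisRepAdic R) (hρRQ : ∀ n, 𝒟Q n ρR)
    (hresR : ρR.residual.IsEquiv (ρbar.baseChangeAlong (ResidueField.map (algebraMap 𝒪 R))))
    (ν : D0.R →ₐ[𝒪] R) (hν : ∀ g, ν (s59i_cpTr D0.ρ g) = s59i_cpTr ρR g)
    (hνs : Function.Surjective ν)
    (𝔞 : Ideal (MvPowerSeries σ (MvPowerSeries (Fin r) 𝒪)))
    (h𝔞X : ∀ i, (C (X i) : MvPowerSeries σ (MvPowerSeries (Fin r) 𝒪)) ∈ 𝔞)
    (h𝔞z : ∀ j, (X j : MvPowerSeries σ (MvPowerSeries (Fin r) 𝒪)) ∈ 𝔞)
    (h𝔞le : 𝔞 ≤ Ideal.span (Set.range (fun i : Fin r =>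
      (C (X i) : MvPowerSeries σ (MvPowerSeries (Fin r) 𝒪))) ∪ Set.range (fun j : σ =>
      (X j : MvPowerSeries σ (MvPowerSeries (Fin r) 𝒪)))))
    (J : ℕ → Ideal (MvPowerSeries σ (MvPowerSeries (Fin r) 𝒪)))
    (hJ : ∀ n, J n ≤ maximalIdeal (MvPowerSeries σ (MvPowerSeries (Fin r) 𝒪)) ^ n)
    -- the rings at level `n`
    (T' T : ℕ → Type) [∀ n, CommRing (T' n)] [∀ n, IsLocalRing (T' n)]
    [∀ n, IsNoetherianRing (T' n)] [∀ n, IsAdicComplete (maximalIdeal (T' n)) (T' n)]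
    [∀ n, Algebra 𝒪 (T' n)]
    [∀ n, CommRing (T n)] [∀ n, IsLocalRing (T n)]
    [∀ n, IsAdicComplete (maximalIdeal (T n)) (T n)]
    [∀ n, Algebra 𝒪 (T n)] [∀ n, Algebra (T' n) (T n)] [∀ n, IsScalarTower 𝒪 (T' n) (T n)]
    [∀ n, Module.Finite (T' n) (T n)]
    (θ : ∀ n, (DQ n).R →ₐ[𝒪] T' n) (hθ : ∀ n, Function.Surjective (θ n))
    -- the module half
    (L0 : ∀ n, s59p_Level (MvPowerSeries σ (MvPowerSeries (Fin r) 𝒪)) (MvPowerSeries σ (T n)) R M
      𝔞 (J n))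
    (d : ℕ) (hd : ∀ n, (L0 n).d = d)
    (std : ∀ n, MvPowerSeries σ (MvPowerSeries (Fin r) 𝒪) →ₐ[𝒪] MvPowerSeries σ (T n))
    (hstd : ∀ n x, (L0 n).φ x = std n x)
    (hψ𝒪 : ∀ n (t : 𝒪), (L0 n).ψ (algebraMap 𝒪 (MvPowerSeries σ (T n)) t) = algebraMap 𝒪 R t)
    -- the units
    (uu : ∀ n, Fin r → (T n)ˣ) (huu : ∀ n i, ((uu n i : (T n)ˣ) : T n) - 1 ∈ maximalIdeal (T n))
    (hgen : ∀ n, Algebra.adjoin (T' n) (Set.range (fun i => ((uu n i : (T n)ˣ) : T n)) ∪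
      Set.range (fun i => (((uu n i)⁻¹ : (T n)ˣ) : T n))) = ⊤)
    (hstdX : ∀ n i, std n (C (X i)) =
      C (((uu n i : (T n)ˣ) : T n) - (((uu n i)⁻¹ : (T n)ˣ) : T n)))
    (hstdz : ∀ n j, std n (X j) = X j)
    -- [C8] and the Taylor–Wiles primes
    (σQ : ℕ → Fin r → Γℚ)
    (hC8 : ∀ n i, (C ((((uu n i : (T n)ˣ) : T n) - (((uu n i)⁻¹ : (T n)ˣ) : T n)) ^ 2 -
      algebraMap (T' n) (T n) (θ n (s59i_cpTr (DQ n).ρ (σQ n i) ^ 2 - 4))) :
        MvPowerSeries σ (T n)) ∈ Module.annihilator (MvPowerSeries σ (T n)) (L0 n).N)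
    (hunrQ : ∀ n i, s59i_cpTr D0.ρ (σQ n i) = 2)
    -- the common trace function
    (hτ : ∀ n g, (L0 n).ψ (C (algebraMap (T' n) (T n) (θ n (s59i_cpTr (DQ n).ρ g)))) =
      s59i_cpTr ρR g) :
    RingHom.ker (ν : D0.R →+* R) ≤ nilradical D0.R := by
  classical
  haveI : IsDomain (MvPowerSeries σ (MvPowerSeries (Fin r) 𝒪)) := NoZeroDivisors.to_isDomain _
  -- the maps `κ n`
  choose κ hκl hκe using fun n => s59f_kappa_exists D0 (DQ n) (h0Q n)
  have hκs : ∀ n, Function.Surjective (κ n) := fun n =>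
    s59f_kappa_surjective D0 (DQ n) Nd p h𝒟₀ (κ n) (hκl n) (hκe n)
  have hκtr : ∀ n g, κ n (s59i_cpTr (DQ n).ρ g) = s59i_cpTr D0.ρ g := fun n g =>
    s59f_kappa_trace D0 (DQ n) (κ n) (hκl n) (hκe n) g
  -- the two maps `(DQ n).R → R` agree
  set f₂r : ∀ n, (DQ n).R →+* R := fun n =>
    ((L0 n).ψ).comp ((C (σ := σ) (R := T n)).comp
      ((algebraMap (T' n) (T n)).comp (θ n : (DQ n).R →+* T' n))) with hf₂r
  have hf₂c : ∀ n (t : 𝒪), f₂r n (algebraMap 𝒪 (DQ n).R t) = algebraMap 𝒪 R t := by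
    intro n t
    show (L0 n).ψ (C (algebraMap (T' n) (T n) (θ n (algebraMap 𝒪 (DQ n).R t)))) = _
    rw [(θ n).commutes, ← IsScalarTower.algebraMap_apply 𝒪 (T' n) (T n), ← hψ𝒪 n t,
      MvPowerSeries.algebraMap_apply]
  set f₂ : ∀ n, (DQ n).R →ₐ[𝒪] R := fun n => { f₂r n with commutes' := hf₂c n } with hf₂
  have hf12 : ∀ n, ν.comp (κ n) = f₂ n := by
    intro n
    refine s59f_univ_ext (DQ n) hRres ρR (hρRQ n) hresR _ _ (fun g => ?_) (fun g => ?_)
    · rw [AlgHom.comp_apply, hκtr, hν]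
    · exact hτ n g
  have hf12' : ∀ n (b : (DQ n).R), ν (κ n b) =
      (L0 n).ψ (C (algebraMap (T' n) (T n) (θ n b))) := by
    intro n b
    have := congrArg (fun F : (DQ n).R →ₐ[𝒪] R => F b) (hf12 n)
    exact this
  -- `ψ` kills the variables
  have hψz : ∀ n j, (L0 n).ψ (X j) = 0 := by
    intro n j
    rw [← hstdz n j, ← hstd]
    exact (L0 n).ψ_φ _ (h𝔞z j)
  have hψs : ∀ n i, (L0 n).ψ (C (((uu n i : (T n)ˣ) : T n) -
      (((uu n i)⁻¹ : (T n)ˣ) : T n))) = 0 := by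
    intro n i
    rw [← hstdX n i, ← hstd]
    exact (L0 n).ψ_φ _ (h𝔞X i)
  -- the maps over `T' n`, `T n`
  set Γ : ∀ n, MvPowerSeries σ (T' n) →ₐ[𝒪] MvPowerSeries σ (T n) := fun n =>
    MvPowerSeries.mapAlgHom (σ := σ) (IsScalarTower.toAlgHom 𝒪 (T' n) (T n)) with hΓ
  have hΓmap : ∀ n y, Γ n y = MvPowerSeries.map (algebraMap (T' n) (T n)) y := fun n y => rfl
  set γ' : ∀ n, P →ₐ[𝒪] MvPowerSeries σ (T' n) := fun n =>
    (MvPowerSeries.mapAlgHom (σ := σ) (θ n)).comp (γ n) with hγ'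
  have hγ'map : ∀ n a, γ' n a = MvPowerSeries.map (θ n : (DQ n).R →+* T' n) (γ n a) :=
    fun n a => rfl
  have hγ's : ∀ n, Function.Surjective (γ' n) := by
    intro n y
    have h1 : Function.Surjective (MvPowerSeries.map (σ := σ) (θ n : (DQ n).R →+* T' n)) := by
      intro y
      refine ⟨fun d => Function.surjInv (hθ n) (coeff d y), ?_⟩
      ext d
      rw [coeff_map]
      exact Function.surjInv_eq (hθ n) _
    obtain ⟨y', rfl⟩ := h1 y
    obtain ⟨a, rfl⟩ := hγ n y'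
    exact ⟨a, rfl⟩
  set γT : ∀ n, P →ₐ[𝒪] MvPowerSeries σ (T n) := fun n => (Γ n).comp (γ' n) with hγT
  set s : ∀ n, Fin r → MvPowerSeries σ (T n) := fun n i =>
    C (((uu n i : (T n)ˣ) : T n) - (((uu n i)⁻¹ : (T n)ˣ) : T n)) with hs
  have h2T : ∀ n, IsUnit (2 : T n) := fun n => by
    have : (2 : T n) * algebraMap 𝒪 (T n) i2 = 1 := by
      rw [← map_ofNat (algebraMap 𝒪 (T n)) 2, ← map_mul, hi2, map_one]
    exact IsUnit.of_mul_eq_one _ this
  have hsm0 : ∀ n i, ((uu n i : (T n)ˣ) : T n) - (((uu n i)⁻¹ : (T n)ˣ) : T n) ∈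
      maximalIdeal (T n) := by
    intro n i
    have e : ((uu n i : (T n)ˣ) : T n) - (((uu n i)⁻¹ : (T n)ˣ) : T n) =
        (((uu n i : (T n)ˣ) : T n) - 1) +
          (((uu n i)⁻¹ : (T n)ˣ) : T n) * (((uu n i : (T n)ˣ) : T n) - 1) := by
      rw [mul_sub, Units.inv_mul, mul_one]
      ring
    rw [e]
    exact Ideal.add_mem _ (huu n i) (Ideal.mul_mem_left _ _ (huu n i))
  have hsm : ∀ n i, s n i ∈ maximalIdeal (MvPowerSeries σ (T n)) := fun n i =>
    s59i_C_mem_maximalIdeal _ (hsm0 n i)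
  have hstdm : ∀ n j, std n (X j) ∈ maximalIdeal (MvPowerSeries σ (T n)) := by
    intro n j
    rw [hstdz, s59i_mem_maximalIdeal_iff_constantCoeff, MvPowerSeries.constantCoeff_X]
    exact Ideal.zero_mem _
  -- lifts of the framing variables
  have hz : ∀ n j, ∃ z ∈ maximalIdeal P, γ n z = X j := by
    intro n j
    obtain ⟨z, hz⟩ := hγ n (X j)
    refine ⟨z, ?_, hz⟩
    rw [mem_maximalIdeal, mem_nonunits_iff]
    intro hu
    have h1 : IsUnit (X j : MvPowerSeries σ (DQ n).R) := hz ▸ hu.map (γ n)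
    rw [MvPowerSeries.isUnit_iff_constantCoeff, MvPowerSeries.constantCoeff_X] at h1
    exact not_isUnit_zero h1
  choose z hzm hzγ using hz
  have hzγT : ∀ n j, γT n (z n j) = std n (X j) := by
    intro n j
    rw [hstdz]
    show Γ n (γ' n (z n j)) = X j
    rw [hγ'map, hzγ, MvPowerSeries.map_X, hΓmap, MvPowerSeries.map_X]
  -- `Θ n`, `φ n`
  set Θ : ∀ n, MvPowerSeries (Fin r) P →+* MvPowerSeries σ (T n) := fun n =>
    s59i_Theta (γT n : P →+* MvPowerSeries σ (T n)) (s n) (hsm n) with hΘdef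
  have hΘC : ∀ n x, Θ n (C x) = γT n x := fun n x => s59i_Theta_C _ (s n) (hsm n) x
  have hΘX : ∀ n i, Θ n (X i) = s n i := fun n i => s59i_Theta_X _ (s n) (hsm n) i
  have hΘs : ∀ n, Function.Surjective (Θ n) := fun n =>
    s59i_Theta_surjective_of_units (γ' n : P →+* MvPowerSeries σ (T' n)) (hγ's n) (uu n) (huu n)
      (h2T n) (hgen n) (hsm n)
  choose φ hφΘ hφ1 hφ2 using fun n => s59i_phi_exists (γT n) (s n) (hsm n) (std n) (hstdX n)
    (hstdm n) (z n) (hzm n) (hzγT n)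
  have hφ0 : ∀ n x, Θ n (φ n x) = (L0 n).φ x := fun n x => (hφΘ n x).trans (hstd n x).symm
  have hψsurj : ∀ n, Function.Surjective ((L0 n).ψ.comp (Θ n)) := fun n =>
    (L0 n).ψ_surjective.comp (hΘs n)
  -- the maps to `D0.R`
  set ψP : ∀ n, P →+* D0.R := fun n =>
    (κ n : (DQ n).R →+* D0.R).comp ((constantCoeff (σ := σ) (R := (DQ n).R)).comp
      (γ n : P →+* MvPowerSeries σ (DQ n).R)) with hψP
  have hψPs : ∀ n, Function.Surjective (ψP n) := by
    intro n y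
    obtain ⟨b, rfl⟩ := hκs n y
    obtain ⟨a, ha⟩ := hγ n (C b)
    refine ⟨a, ?_⟩
    show κ n (constantCoeff (γ n a)) = κ n b
    rw [ha, constantCoeff_C]
  have h0m : ∀ i : Fin r, (fun _ : Fin r => (0 : D0.R)) i ∈ maximalIdeal D0.R :=
    fun _ => Ideal.zero_mem _
  set ψ₀ : ∀ n, MvPowerSeries (Fin r) P →+* D0.R := fun n =>
    s59i_Theta (ψP n) (fun _ => 0) h0m with hψ₀
  have hψ₀C : ∀ n x, ψ₀ n (C x) = ψP n x := fun n x => s59i_Theta_C _ _ h0m x
  have hψ₀X : ∀ n i, ψ₀ n (X i) = 0 := fun n i => s59i_Theta_X _ _ h0m i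
  have hψ₀s : ∀ n, Function.Surjective (ψ₀ n) := fun n =>
    s59i_Theta_surjective _ _ h0m (hψPs n)
  -- compatibility on `(DQ n).R⟦z⟧`
  have hcompat1 : ∀ n (y : MvPowerSeries σ (DQ n).R),
      ν (κ n (constantCoeff y)) =
        (L0 n).ψ (MvPowerSeries.map (algebraMap (T' n) (T n))
          (MvPowerSeries.map (θ n : (DQ n).R →+* T' n) y)) := by
    intro n
    have h1 : ((ν : D0.R →+* R).comp ((κ n : (DQ n).R →+* D0.R).comp
        (constantCoeff (σ := σ) (R := (DQ n).R)))) =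
        ((L0 n).ψ).comp ((MvPowerSeries.map (σ := σ) (algebraMap (T' n) (T n))).comp
          (MvPowerSeries.map (σ := σ) (θ n : (DQ n).R →+* T' n))) := by
      refine s59i_ringHom_ext _ _ (fun b => ?_) (fun j => ?_) (fun j => ?_)
      · simp only [RingHom.comp_apply, constantCoeff_C, MvPowerSeries.map_C, RingHom.coe_coe]
        exact hf12' n b
      · simp only [RingHom.comp_apply, constantCoeff_X, map_zero]
        exact Ideal.zero_mem _
      · simp only [RingHom.comp_apply, constantCoeff_X, map_zero, MvPowerSeries.map_X]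
        exact (hψz n j).symm
    intro y
    exact congrArg (fun F : MvPowerSeries σ (DQ n).R →+* R => F y) h1
  have hcompat : ∀ n a, ν (ψ₀ n a) = (L0 n).ψ (Θ n a) := by
    intro n
    have h1 : (ν : D0.R →+* R).comp (ψ₀ n) = ((L0 n).ψ).comp (Θ n) := by
      refine s59i_ringHom_ext _ _ (fun a => ?_) (fun i => ?_) (fun i => ?_)
      · rw [RingHom.comp_apply, RingHom.comp_apply, hψ₀C, hΘC]
        exact hcompat1 n (γ n a)
      · rw [RingHom.comp_apply, hψ₀X, map_zero]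
        exact Ideal.zero_mem _
      · rw [RingHom.comp_apply, RingHom.comp_apply, hψ₀X, map_zero, hΘX]
        exact (hψs n i).symm
    intro a
    exact congrArg (fun F : MvPowerSeries (Fin r) P →+* R => F a) h1
  -- `ψ₀ ∘ φ` kills `𝔞`
  have h𝔞0 : ∀ n, ∀ x ∈ 𝔞, ψ₀ n (φ n x) = 0 := by
    intro n x hx
    have hx' := h𝔞le hx
    have : Ideal.span (Set.range (fun i : Fin r =>
        (C (X i) : MvPowerSeries σ (MvPowerSeries (Fin r) 𝒪))) ∪ Set.range (fun j : σ =>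
        (X j : MvPowerSeries σ (MvPowerSeries (Fin r) 𝒪)))) ≤
        RingHom.ker ((ψ₀ n).comp (φ n)) := by
      rw [Ideal.span_le]
      rintro _ (⟨i, rfl⟩ | ⟨j, rfl⟩)
      · show (ψ₀ n).comp (φ n) _ = 0
        rw [RingHom.comp_apply, hφ1, hψ₀X]
      · show (ψ₀ n).comp (φ n) _ = 0
        rw [RingHom.comp_apply, hφ2, hψ₀C]
        show κ n (constantCoeff (γ n (z n j))) = 0
        rw [hzγ, constantCoeff_X, map_zero]
    exact this hx'
  -- the levels over `D0.R`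
  letI instM0 : Module D0.R M := Module.compHom M (ν : D0.R →+* R)
  set L : ∀ n, s59p_Level (MvPowerSeries σ (MvPowerSeries (Fin r) 𝒪)) (MvPowerSeries (Fin r) P)
      D0.R M 𝔞 (J n) := fun n =>
    s59f_retarget (s59i_restrict (L0 n) (Θ n) (φ n) (hφ0 n) (hψsurj n)) (ν : D0.R →+* R) (ψ₀ n)
      (hψ₀s n) (hcompat n) (h𝔞0 n) with hL
  -- the elements `t n i`
  have ht0 : ∀ n i, ∃ t ∈ maximalIdeal P,
      γ n t = C (s59i_cpTr (DQ n).ρ (σQ n i) ^ 2 - 4) := by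
    intro n i
    obtain ⟨t, ht⟩ := hγ n (C (s59i_cpTr (DQ n).ρ (σQ n i) ^ 2 - 4))
    refine ⟨t, ?_, ht⟩
    rw [mem_maximalIdeal, mem_nonunits_iff]
    intro hu
    have h1 : IsUnit (C (s59i_cpTr (DQ n).ρ (σQ n i) ^ 2 - 4) : MvPowerSeries σ (DQ n).R) :=
      ht ▸ hu.map (γ n)
    rw [MvPowerSeries.isUnit_iff_constantCoeff, constantCoeff_C] at h1
    haveI := hκl n
    have h2 := h1.map (κ n : (DQ n).R →+* D0.R)
    have h3 : (κ n : (DQ n).R →+* D0.R) (s59i_cpTr (DQ n).ρ (σQ n i) ^ 2 - 4) = 0 := by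
      show κ n _ = 0
      rw [map_sub, map_pow, hκtr, hunrQ, map_ofNat]
      norm_num
    rw [h3] at h2
    exact not_isUnit_zero h2
  choose t htm htγ using ht0
  haveI : Module.Finite D0.R M := by
    letI : Algebra D0.R R := (ν : D0.R →+* R).toAlgebra
    haveI : IsScalarTower D0.R R M := ⟨fun a b m => by
      show (ν a * b) • m = ν a • (b • m)
      rw [mul_smul]⟩
    haveI : Module.Finite D0.R R :=
      Module.Finite.of_surjective (Algebra.linearMap D0.R R) hνs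
    exact Module.Finite.trans R M
  have hnil := s59f_FINL_core (MvPowerSeries σ (MvPowerSeries (Fin r) 𝒪)) P r hdim D0.R M 𝔞 J hJ L d
    (fun n => hd n) t htm ?_ ?_ ?_
  · intro x hx
    refine hnil ?_
    rw [Module.mem_annihilator]
    intro m
    show (ν x) • m = 0
    rw [RingHom.mem_ker] at hx
    have : ν x = 0 := hx
    rw [this, zero_smul]
  · -- the relation `s_i² = t_i`
    intro n i
    have h1 : Θ n (X i ^ 2 - C (t n i)) =
        C ((((uu n i : (T n)ˣ) : T n) - (((uu n i)⁻¹ : (T n)ˣ) : T n)) ^ 2 -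
          algebraMap (T' n) (T n) (θ n (s59i_cpTr (DQ n).ρ (σQ n i) ^ 2 - 4))) := by
      rw [map_sub, map_pow, hΘX, hΘC]
      show s n i ^ 2 - Γ n (γ' n (t n i)) = _
      rw [hγ'map, htγ, MvPowerSeries.map_C, hΓmap, MvPowerSeries.map_C, hs, ← map_pow, ← map_sub]
      rfl
    refine s59i_restrict_ann (L0 n) (Θ n) (φ n) (hφ0 n) (hψsurj n) _ ?_
    rw [h1]
    exact hC8 n i
  · intro n i
    show ψ₀ n (C (t n i)) = 0
    rw [hψ₀C]
    show κ n (constantCoeff (γ n (t n i))) = 0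
    rw [htγ, constantCoeff_C, map_sub, map_pow, hκtr, hunrQ, map_ofNat]
    norm_num
  · intro n i
    exact hψ₀X n i

end Fermat.Agent.Lib.S59
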