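/-
Programme R2 (S59), node [PATCH-min] (flat case), helper5 (prefix `s59e_Lmin_`): **THE ASSEMBLY `R_∅^{red} = T_∅` ⇒ A HECKE POINT WITH THE
EIGENVALUES `a_ℓ(W)`**, over an ABSTRACT `T`-side contract `HT` (= the conclusion of `s59e_TPkgLH`, ELPkgH.lean).

Situation: `W` semistable, good at `p`, `ρ̄ = ρ̄_{W,p}` irreducible, `N` squarefree prime to `p`, `ρ̄` occurs at level `N`
(`s44i_LevelOcc`), `Rd : s59i_RData p N ρ̄ B ∅` with `m = e = 0` (NO unramified prime of the level needs a framing: every prime of `N`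
is in `Rd.Smin` or of type (E2′)), every bad prime `q ≠ p` of `W` in `Rd.Smin`.

* `R`-side : helper6's `s59q_inst_flat` with `T := (DQ n).R`, `θ := id`: `γ n : 𝒪⟦x_1..x_r⟧ ↠ (DQ n).R⟦z_∅⟧`, `dim P = dim S`;
* `T`-side : `HT` (base `Bs`, Hecke map `hk`, levels `s59e_TLevelL`);
* helper4's `s59f_FINL_absA` (FLiftT3.lean): `ker (ν : D0.R ↠ Bs.R)` is nil; `s59f_FINL_point`: the point `x : D0.R → 𝒪` of
  `ρ_W ⊗ 𝒪` (type `𝒟₀`: `s59e_flat`, `s59b_rhoW_unram/_unip/_detCyc`; residual: Brauer–Nesbitt `s59b_hres_of_frob`) factors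
  through `Bs.R`; composing with `hk` gives `χ : heckeAlgebra N 2 B →+* 𝒪`, `χ(T_ℓ) = a_ℓ(W)`.
-/
import Mathlib
import Fermat.Agent.Lib.S59.FLiftT3
import Fermat.Agent.Lib.S59.QBrInstE
import Fermat.Agent.Lib.S59.QWRA
import Fermat.Agent.Lib.S59.ELLvl
import Fermat.Agent.Lib.S59.EWBase
import Fermat.Agent.Lib.S59.EWRho
import Fermat.Agent.Lib.S59.EFlatTop
import Fermat.Agent.Lib.S59.BBaseRes
import Fermat.Agent.Lib.S59.LFinW1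

set_option autoImplicit false
set_option linter.unusedSectionVars false
set_option linter.unusedVariables false
set_option linter.style.haveILetI false
set_option maxHeartbeats 3200000
set_option synthInstance.maxHeartbeats 400000

noncomputable section

namespace Fermat.Agent.Lib.S59

open IsLocalRing CuspForm Polynomial
open Fermat.Agent.Lib.S53 (matOf matOfRes NormData)
open Fermat.Agent.Lib.Deform (IsTestAlgebra)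
open Fermat.Agent.Lib.S56 Fermat.Agent.Lib.S44

local notation "Γℚ" => (AlgebraicClosure ℚ ≃ₐ[ℚ] AlgebraicClosure ℚ)

/-- the trace of the identity is `2`. -/
theorem s59e_Lmin_cpTr_one {A : Type} [CommRing A] [IsLocalRing A] (ρ : GaloisRepAdic A) (g : Γℚ)
    (h : ρ.ρ g = 1) : s59i_cpTr ρ g = 2 := by
  refine s59i_cpTr_of_charpoly ρ g 2 1 ?_
  rw [h, Fermat.Agent.Lib.S35.s35el_charpoly_eq ρ.finrank_eq, LinearMap.trace_one, ρ.finrank_eq,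
    map_one]
  simp

/-- the trace of a point of a universal ring. -/
theorem s59e_Lmin_point_trace {𝒪 : Type} [CommRing 𝒪] [IsDomain 𝒪] [IsDiscreteValuationRing 𝒪]
    [IsAdicComplete (maximalIdeal 𝒪) 𝒪] {ρbar : ResidualGaloisRep (ResidueField 𝒪)}
    {𝒟 : ∀ ⦃A : Type⦄ [CommRing A] [IsLocalRing A] [Algebra 𝒪 A], GaloisRepAdic A → Prop}
    (D : GaloisRep.DeformationRingData 𝒪 ρbar 𝒟) {A : Type} [CommRing A] [IsLocalRing A]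
    (ρA : GaloisRepAdic A) (x : D.R →+* A) (hx : IsLocalHom x)
    (e : (D.ρ.baseChangeAlong x hx).IsEquiv ρA) (g : Γℚ) :
    x (s59i_cpTr D.ρ g) = s59i_cpTr ρA g := by
  rw [← s59e_cpTr_map x hx D.ρ g]
  obtain ⟨e'⟩ := e
  unfold s59i_cpTr
  rw [Fermat.Agent.S54.charpoly_eq_of_equiv e']

/-- **[PATCH-min], flat case, over an abstract `T`-side.** -/
theorem s59e_Lmin_abs (p : ℕ) [Fact p.Prime] (hp2 : p ≠ 2) (W : WeierstrassCurve ℤ) (hΔ : W.Δ ≠ 0)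
    (N : ℕ) [NeZero N] (B : Finset ℕ)
    (hss : W.IsSemistableModel) (hirr : W.ModRepIsIrreducible p) (hsq : Squarefree N)
    (hpN : ¬ p ∣ N)
    (hB1 : ∀ r : ℕ, r.Prime → r ∣ N * p → r ∈ B)
    (hB2 : ∀ r : ℕ, r.Prime → ¬ W.IsGoodPrimeFor r → r ∈ B)
    (hocc : s44i_LevelOcc N p (fun ℓ => W.apOfModel ℓ) B)
    (hgoodp : W.IsGoodPrimeFor p)
    (𝒪 : Type) [CommRing 𝒪] [IsDomain 𝒪] [IsDiscreteValuationRing 𝒪]
    [IsAdicComplete (maximalIdeal 𝒪) 𝒪] [Finite (ResidueField 𝒪)] [CharZero 𝒪]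
    [Algebra ℤ_[p] 𝒪] [Module.Finite ℤ_[p] 𝒪]
    (hp𝒪 : ((p : ℕ) : 𝒪) ∈ maximalIdeal 𝒪)
    (Rd : s59i_RData p N (s59i_rhobarW W p hΔ 𝒪 hp𝒪) B (∅ : Finset ℕ))
    (hm : Rd.m = 0) (he : Rd.e = 0)
    (hbadS : ∀ q : ℕ, q.Prime → q ≠ p → ¬ W.IsGoodPrimeFor q → q ∈ Rd.Smin)
    (HT : ∀ (D0 : GaloisRep.DeformationRingData 𝒪 (s59i_rhobarW W p hΔ 𝒪 hp𝒪) (fun _A _ _ _ ρ =>
        GaloisRep.flatCondition 𝒪 p (Rd.Smin ∪ ((∅ : Finset ℕ) ∪ Rd.Ed) ∪ (∅ : Finset ℕ)) ρ ∧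
          ∀ q ∈ Rd.Smin, q.Prime → q ≠ p → ρ.IsUnipotentOnInertiaAt q)) (r : ℕ),
      ∃ Bs : s59e_TBaseL 𝒪 D0,
        (∃ hk : heckeAlgebra N 2 (↑B : Set ℕ) →+* Bs.R,
          ∀ (ℓ : ℕ) (hℓ : ℓ.Prime) (hℓN : ¬ ℓ ∣ N) (hℓB : ℓ ∉ (↑B : Set ℕ)),
          ∀ A : ValuationSubring (AlgebraicClosure ℚ), A.LiesOverPrime ℓ →
          ∀ g : Γℚ, A.IsFrobeniusAt g ℓ →
            LinearMap.charpoly (Bs.ρR.ρ g) =
              X ^ 2 - C (hk (heckeAlgebra.T hℓ hℓN hℓB)) * X + C ((ℓ : Bs.R))) ∧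
        ∀ (n : ℕ) (qv : Fin r → ℕ), Function.Injective qv →
          (∀ i, (qv i).Prime ∧ qv i ∉ B ∧ p ^ (n + 1) ∣ qv i - 1) →
          (∀ i, ∀ A : ValuationSubring (AlgebraicClosure ℚ), A.LiesOverPrime (qv i) →
            ∀ φ : Γℚ, A.IsFrobeniusAt φ (qv i) →
              ∃ α β : ResidueField 𝒪, α ≠ β ∧
                LinearMap.charpoly ((s59i_rhobarW W p hΔ 𝒪 hp𝒪).ρ φ) = (X - C α) * (X - C β)) →
          ∀ DQ : GaloisRep.DeformationRingData 𝒪 (s59i_rhobarW W p hΔ 𝒪 hp𝒪) (fun _A _ _ _ ρ =>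
            GaloisRep.flatCondition 𝒪 p
                (Rd.Smin ∪ ((∅ : Finset ℕ) ∪ Rd.Ed) ∪ Finset.univ.image qv) ρ ∧
              ∀ q ∈ Rd.Smin, q.Prime → q ≠ p → ρ.IsUnipotentOnInertiaAt q),
            Nonempty (s59e_TLevelL 𝒪 p n r (s59q_ZIdx Rd.m Rd.e) Bs.R Bs.M Bs.ρR Bs.d qv DQ)) :
    ∃ χ : heckeAlgebra N 2 (↑B : Set ℕ) →+* 𝒪,
      ∀ (ℓ : ℕ) (hℓ : ℓ.Prime) (hℓN : ¬ ℓ ∣ N) (hℓB : ℓ ∉ (↑B : Set ℕ)),
        χ (heckeAlgebra.T hℓ hℓN hℓB) = ((W.apOfModel ℓ : ℤ) : 𝒪) := by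
  classical
  have hpP : p.Prime := Fact.out
  have hpB : p ∈ B := hB1 p hpP (Dvd.intro_left N rfl)
  -- the `R`-side
  obtain ⟨r, hr, H⟩ := s59q_inst_flat p hp2 hp𝒪 (s59i_rhobarW W p hΔ 𝒪 hp𝒪) Rd.habs Rd.hdet
    Rd.hsplit Rd.hTW B Rd.Smin (∅ : Finset ℕ) Rd.Ed Rd.hpSmin Rd.hSmin Rd.hBS Rd.hES Rd.hBprime
    Rd.hEprime Rd.hmin Rd.hBunr Rd.hEunr Rd.hBE Rd.hcen Rd.Nd Rd.m Rd.e Rd.pr Rd.hprB Rd.hprE
    Rd.hBinj Rd.hEinj Rd.σq Rd.φq Rd.hσq Rd.hφq Rd.D.i2 Rd.D.hi2 Rd.P Rd.P' Rd.hPP' Rd.hP'P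
    Rd.αE Rd.βE Rd.hαβ Rd.hαβ' Rd.hdiag
  choose qv hqv1 hqv2 hqv3 hqv4 using H
  -- the universal rings
  obtain ⟨D0⟩ : Nonempty (GaloisRep.DeformationRingData 𝒪 (s59i_rhobarW W p hΔ 𝒪 hp𝒪)
      (fun _A _ _ _ ρ =>
        GaloisRep.flatCondition 𝒪 p (Rd.Smin ∪ ((∅ : Finset ℕ) ∪ Rd.Ed) ∪ (∅ : Finset ℕ)) ρ ∧
          ∀ q ∈ Rd.Smin, q.Prime → q ≠ p → ρ.IsUnipotentOnInertiaAt q)) := by
    have h := s59e_W_existDQ W p hΔ hp2 hirr N B hB1 hB2 hocc 𝒪 hp𝒪 Rd.habs hsq hpN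
      (∅ : Finset ℕ) Rd 0 Fin.elim0
    simpa only [Finset.univ_eq_empty, Finset.image_empty] using h
  let 𝒟 : ℕ → ∀ ⦃A : Type⦄ [CommRing A] [IsLocalRing A] [Algebra 𝒪 A], GaloisRepAdic A → Prop :=
    fun n _A _ _ _ ρ =>
      GaloisRep.flatCondition 𝒪 p
          (Rd.Smin ∪ ((∅ : Finset ℕ) ∪ Rd.Ed) ∪ Finset.univ.image (qv n)) ρ ∧
        ∀ q ∈ Rd.Smin, q.Prime → q ≠ p → ρ.IsUnipotentOnInertiaAt q
  let DQ : ∀ n, GaloisRep.DeformationRingData 𝒪 (s59i_rhobarW W p hΔ 𝒪 hp𝒪) (𝒟 n) := fun n =>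
    (s59e_W_existDQ W p hΔ hp2 hirr N B hB1 hB2 hocc 𝒪 hp𝒪 Rd.habs hsq hpN
      (∅ : Finset ℕ) Rd r (qv n)).some
  choose bR hbR using fun n => s56a_exists_basisR (DQ n) Rd.Nd
  -- monotonicity of the type
  have hmono : ∀ (n : ℕ) {A : Type} [CommRing A] [IsLocalRing A] [Algebra 𝒪 A]
      (ρ : GaloisRepAdic A),
      (GaloisRep.flatCondition 𝒪 p (Rd.Smin ∪ ((∅ : Finset ℕ) ∪ Rd.Ed) ∪ (∅ : Finset ℕ)) ρ ∧
        ∀ q ∈ Rd.Smin, q.Prime → q ≠ p → ρ.IsUnipotentOnInertiaAt q) → 𝒟 n ρ := by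
    intro n A _ _ _ ρ h
    refine ⟨⟨h.1.1, h.1.2.1, fun q hq hqS => h.1.2.2 q hq fun hmem => hqS ?_⟩, h.2⟩
    rcases Finset.mem_union.mp hmem with h' | h'
    · exact Finset.mem_union_left _ h'
    · exact absurd h' (Finset.notMem_empty q)
  -- the `T`-side
  obtain ⟨Bs, ⟨hk, hhk⟩, HL⟩ := HT D0 r
  let TL : ∀ n, s59e_TLevelL 𝒪 p n r (s59q_ZIdx Rd.m Rd.e) Bs.R Bs.M Bs.ρR Bs.d (qv n) (DQ n) :=
    fun n => (HL n (qv n) (hqv1 n) (hqv2 n) (hqv3 n) (DQ n)).some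
  -- the bridge
  have hγ := fun n => hqv4 n (DQ n) (bR n) (hbR n) (T := (DQ n).R) (s56a_isTestAlgebra_R (DQ n))
    (AlgHom.id 𝒪 (DQ n).R) Function.surjective_id
  choose γ hγs hγ1 hγ2 hγ3 hγ4 using hγ
  -- dimensions
  have hcard : Fintype.card (s59q_GIdx Rd.m Rd.e (r + Rd.m + Rd.e)) = r := by
    simp only [Fintype.card_sum, Fintype.card_prod, Fintype.card_fin, hm, he]
    omega
  haveI : IsDomain (MvPowerSeries (s59q_GIdx Rd.m Rd.e (r + Rd.m + Rd.e)) 𝒪) :=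
    NoZeroDivisors.to_isDomain _
  have hdim : ringKrullDim (MvPowerSeries (s59q_GIdx Rd.m Rd.e (r + Rd.m + Rd.e)) 𝒪) ≤
      ringKrullDim (MvPowerSeries (s59q_ZIdx Rd.m Rd.e) (MvPowerSeries (Fin r) 𝒪)) := by
    rw [s59i_dim_mvPowerSeries 𝒪, s59i_dim_mvPowerSeries (MvPowerSeries (Fin r) 𝒪),
      s59p_pmdim 𝒪 r, hcard]
    exact le_add_of_nonneg_right (by exact_mod_cast Nat.zero_le _)
  -- the unramified traces at the Taylor–Wiles primes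
  have hunrQ : ∀ n i, s59i_cpTr D0.ρ ((TL n).σQ i) = 2 := by
    intro n i
    obtain ⟨A, hA, hσ⟩ := (TL n).hσQ i
    have hq := hqv2 n i
    have hnot : qv n i ∉ Rd.Smin ∪ ((∅ : Finset ℕ) ∪ Rd.Ed) ∪ (∅ : Finset ℕ) := by
      intro hmem
      rcases Finset.mem_union.mp hmem with h' | h'
      · rcases Finset.mem_union.mp h' with h'' | h''
        · exact hq.2.1 (Rd.hSmin h'')
        · rcases Finset.mem_union.mp h'' with h3 | h3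
          · exact absurd h3 (Finset.notMem_empty _)
          · exact hq.2.1 (Rd.hES h3)
      · exact absurd h' (Finset.notMem_empty _)
    exact s59e_Lmin_cpTr_one D0.ρ _ (D0.isOfType.1.2.2 (qv n i) hq.1 hnot A hA _ hσ)
  -- `ker ν` is nil
  have hnil := s59f_FINL_absA p Rd.D.i2 Rd.D.hi2 D0 DQ Rd.Nd
    (s56a_tangentStable_flat 𝒪 p _ Rd.Smin) (fun n => hmono n D0.ρ D0.isOfType) r
    (MvPowerSeries (s59q_GIdx Rd.m Rd.e (r + Rd.m + Rd.e)) 𝒪) hdim γ hγs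
    Bs.R Bs.hRres Bs.M Bs.ρR (fun n => hmono n Bs.ρR Bs.hρR) Bs.hresR Bs.ν Bs.hν Bs.hνs
    (s59t_frameA (s59q_ZIdx Rd.m Rd.e) (RingHom.ker (MvPowerSeries.constantCoeff (σ := Fin r) (R := 𝒪))))
    (s59e_L_frameA_CX (s59q_ZIdx Rd.m Rd.e)) (s59e_L_frameA_X (s59q_ZIdx Rd.m Rd.e))
    (s59e_L_frameA_le (s59q_ZIdx Rd.m Rd.e))
    (fun n => s59t_frameJ (s59q_ZIdx Rd.m Rd.e) (s59t_JH 𝒪 p n r))
    (fun n => s59t_frameJ_JH_le (s59q_ZIdx Rd.m Rd.e) hp2 hp𝒪 n r)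
    (fun n => (TL n).T') (fun n => (TL n).T) (fun n => (TL n).θ) (fun n => (TL n).hθ)
    (fun n => (TL n).L0) Bs.d (fun n => (TL n).hd) (fun n => (TL n).std) (fun n => (TL n).hstd)
    (fun n => (TL n).hψ𝒪) (fun n => (TL n).uu) (fun n => (TL n).huu) (fun n => (TL n).hgen)
    (fun n => (TL n).hstdX) (fun n => (TL n).hstdz) (fun n => (TL n).σQ) (fun n => (TL n).hC8)
    hunrQ (fun n => (TL n).hτ)
  -- the point of `ρ_W ⊗ 𝒪`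
  haveI hlid : IsLocalHom (algebraMap 𝒪 𝒪) := ⟨fun a h => h⟩
  have h𝒟W : GaloisRep.flatCondition 𝒪 p
      (Rd.Smin ∪ ((∅ : Finset ℕ) ∪ Rd.Ed) ∪ (∅ : Finset ℕ)) (s59q_WRho W hΔ hp𝒪) ∧
      ∀ q ∈ Rd.Smin, q.Prime → q ≠ p → (s59q_WRho W hΔ hp𝒪).IsUnipotentOnInertiaAt q := by
    refine ⟨⟨s59q_W_detCyc W hΔ hp𝒪 hp2 hirr,
      s59e_flat hΔ hgoodp (algebraMap ℤ_[p] 𝒪) (s59b_isLocalHom_padic p _ hp𝒪), ?_⟩, ?_⟩
    · intro q hq hqS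
      have hqp : q ≠ p := by
        rintro rfl
        exact hqS (Finset.mem_union_left _ (Finset.mem_union_left _ Rd.hpSmin))
      have hgood : W.IsGoodPrimeFor q := by
        by_contra hbad
        exact hqS (Finset.mem_union_left _ (Finset.mem_union_left _ (hbadS q hq hqp hbad)))
      exact s59e_bc_unram _ _ _ q (s59b_rhoW_unram hΔ hp2 q hq hqp hgood)
    · intro q _ hq hqp
      exact s59e_bc_unip _ _ _ q (s59b_rhoW_unip hΔ hp2 hirr hss q hq hqp)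
  have hfrobW : ∀ ℓ : ℕ, ℓ.Prime → ℓ ∉ B → ∀ P : ValuationSubring (AlgebraicClosure ℚ),
      P.LiesOverPrime ℓ → ∀ σ : Γℚ, P.IsFrobeniusAt σ ℓ →
        LinearMap.charpoly ((s59q_WRho W hΔ hp𝒪).ρ σ) =
          X ^ 2 - C (((W.apOfModel ℓ : ℤ) : 𝒪)) * X + C ((ℓ : 𝒪)) := by
    intro ℓ hℓ hℓB P hP σ hσ
    have hℓp : ℓ ≠ p := fun h => hℓB (h ▸ hpB)
    have hgood : W.IsGoodPrimeFor ℓ := by
      by_contra hbad
      exact hℓB (hB2 ℓ hℓ hbad)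
    rw [s59e_bc_charpoly, s59b_rhoW_charpoly hΔ hp2 hirr ℓ hℓ hgood hℓp P hP σ hσ]
    simp
  have hresW : (s59q_WRho W hΔ hp𝒪).residual.IsEquiv
      ((s59i_rhobarW W p hΔ 𝒪 hp𝒪).baseChangeAlong (ResidueField.map (algebraMap 𝒪 𝒪))) :=
    s59b_hres_of_frob p hp2 hp𝒪 (s59q_WRho W hΔ hp𝒪) Rd.habs B
      (fun ℓ => ((W.apOfModel ℓ : ℤ) : 𝒪)) (fun ℓ => ((W.apOfModel ℓ : ℤ) : 𝒪)) hfrobW
      (fun ℓ _ _ => by
        show ((W.apOfModel ℓ : ℤ) : 𝒪) - ((W.apOfModel ℓ : ℤ) : 𝒪) ∈ maximalIdeal 𝒪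
        rw [sub_self]
        exact Ideal.zero_mem _)
      (s59i_rhobarW W p hΔ 𝒪 hp𝒪)
      (fun ℓ hℓ hℓS A hA σ hσ =>
        s59e_rhobarW_charpoly_frob hΔ hp2 hirr hp𝒪 B hpB hB2 ℓ hℓ hℓS A hA σ hσ)
  obtain ⟨x, ⟨hx, ex⟩, -⟩ := D0.universal 𝒪 (IsLocalRing.residue_surjective) (s59q_WRho W hΔ hp𝒪)
    h𝒟W hresW
  have hxtr : ∀ g, x (s59i_cpTr D0.ρ g) = s59i_cpTr (s59q_WRho W hΔ hp𝒪) g := fun g =>
    s59e_Lmin_point_trace D0 _ (x : D0.R →+* 𝒪) hx ex g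
  -- the point factors through `Bs.R`
  obtain ⟨χ, hχ⟩ := s59f_FINL_point (Bs.ν : D0.R →+* Bs.R) Bs.hνs hnil (x : D0.R →+* 𝒪)
  refine ⟨χ.comp hk, fun ℓ hℓ hℓN hℓB => ?_⟩
  obtain ⟨A, g, hA, hg⟩ := Fermat.Agent.Lib.Frobenius.exists_isFrobeniusAt ℓ hℓ
  have h1 : s59i_cpTr Bs.ρR g = hk (heckeAlgebra.T hℓ hℓN hℓB) :=
    s59i_cpTr_of_charpoly Bs.ρR g _ _ (hhk ℓ hℓ hℓN hℓB A hA g hg)
  have h2 : s59i_cpTr (s59q_WRho W hΔ hp𝒪) g = ((W.apOfModel ℓ : ℤ) : 𝒪) :=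
    s59i_cpTr_of_charpoly _ g _ _
      (hfrobW ℓ hℓ (fun h => hℓB (Finset.mem_coe.mpr h)) A hA g hg)
  rw [RingHom.comp_apply, ← h1, ← Bs.hν g]
  have h3 := hχ (s59i_cpTr D0.ρ g)
  rw [RingHom.coe_coe] at h3
  rw [h3, RingHom.coe_coe, hxtr g, h2]

end Fermat.Agent.Lib.S59
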