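/-
Programme R2 (S59), node [PATCH-min] (flat case), helper5 (prefix `s59e_Lmin_`): **THE MINIMAL `R`-SIDE DATA** — helper6's `s59q_WR`
(QWRB.lean) for `Bd = Ed = ∅`, with the components exposed (`s59q_WR` only returns `Nonempty`):
`∃ Rd : s59i_RData p N ρ̄_W B ∅, Rd.Smin = s59q_WSmin W hΔ hp𝒪 ∧ Rd.m = 0 ∧ Rd.e = 0`.
-/
import Fermat.Agent.Lib.S59.QWRB

set_option autoImplicit false
set_option linter.style.haveILetI false
set_option linter.unusedSectionVars false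
set_option linter.unusedVariables false
set_option maxHeartbeats 1600000

noncomputable section

namespace Fermat.Agent.Lib.S59

open IsLocalRing Module ExtCitation Polynomial Fermat.Agent.Lib.S56
open Fermat.Agent.Lib.S53 (matOf matOfRes matOfRes_apply NormData exists_normData)

local notation "Kb" => AlgebraicClosure ℚ
local notation "Γℚ" => (AlgebraicClosure ℚ ≃ₐ[ℚ] AlgebraicClosure ℚ)

variable (W : WeierstrassCurve ℤ) {p : ℕ} [hpP : Fact p.Prime] (hΔ : W.Δ ≠ 0)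
  {𝒪 : Type} [CommRing 𝒪] [IsDomain 𝒪] [IsDiscreteValuationRing 𝒪]
  [IsAdicComplete (maximalIdeal 𝒪) 𝒪] [Algebra ℤ_[p] 𝒪]
  (hp𝒪 : (p : 𝒪) ∈ maximalIdeal 𝒪)

/-- **the minimal `R`-side data for a semistable `W`** (`Bd = Ed = ∅`, `m = e = 0`). -/
theorem s59e_Lmin_RData (hp35 : p = 3 ∨ p = 5) (hss : W.IsSemistableModel)
    (hirr : W.ModRepIsIrreducible p)
    (hsplitℤ : ∀ a b : ℤ, ∃ α β : ResidueField 𝒪,
      α + β = (a : ResidueField 𝒪) ∧ α * β = (b : ResidueField 𝒪))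
    (N : ℕ) (B : Finset ℕ) (hpB : p ∈ B)
    (hB2 : ∀ r : ℕ, r.Prime → (r : ℤ) ∣ W.Δ → r ∈ B)
    (hNSg : ∀ q : ℕ, q.Prime → q ∣ N → q ∈ s59q_WSmin W hΔ hp𝒪 ∨
      (q ≠ p ∧ (s59q_WRhobar W hΔ hp𝒪).IsUnramifiedAt q ∧ ((q : ResidueField 𝒪) ^ 2 - 1 ≠ 0) ∧
        ∃ (A : ValuationSubring (AlgebraicClosure ℚ)) (φ : Γℚ), A.LiesOverPrime q ∧
          A.IsFrobeniusAt φ q ∧
          (1 + (q : ResidueField 𝒪)) ^ 2 * LinearMap.det ((s59q_WRhobar W hΔ hp𝒪).ρ φ) -
            (q : ResidueField 𝒪) *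
              LinearMap.trace (ResidueField 𝒪) (s59q_WRhobar W hΔ hp𝒪).V
                ((s59q_WRhobar W hΔ hp𝒪).ρ φ) ^ 2 ≠ 0)) :
    ∃ Rd : s59i_RData p N (s59q_WRhobar W hΔ hp𝒪) B (∅ : Finset ℕ),
      Rd.Smin = s59q_WSmin W hΔ hp𝒪 ∧ Rd.m = 0 ∧ Rd.e = 0 := by
  classical
  have hp2 : p ≠ 2 := s59q_W_p_ne_two hp35
  have habs := s59q_W_habs W hΔ hp𝒪 hp35 hss hirr
  obtain ⟨Nd⟩ := exists_normData (s59q_WRhobar W hΔ hp𝒪) habs
  obtain ⟨i2, hi2⟩ := s59q_two_inv p hp2 hp𝒪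
  refine ⟨{
    Smin := s59q_WSmin W hΔ hp𝒪
    Ed := ∅
    Nd := Nd
    m := 0
    e := 0
    pr := Sum.elim Fin.elim0 Fin.elim0
    σq := Sum.elim Fin.elim0 Fin.elim0
    φq := Sum.elim Fin.elim0 Fin.elim0
    D := { u := Fin.elim0, ε := Fin.elim0, i2 := i2, hi2 := hi2,
           hε := fun l => l.elim0, hu0 := fun l => l.elim0, hu1 := fun l => l.elim0,
           hu2 := fun l => l.elim0 }
    P := fun _ => 1
    P' := fun _ => 1
    αE := Fin.elim0
    βE := Fin.elim0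
    habs := habs
    hdet := s59q_W_hdet W hΔ hp𝒪 hp2 hirr
    hsplit := s59q_W_hsplit W hΔ hp𝒪 hsplitℤ
    hTW := s59q_W_hTW W hΔ hp𝒪 hp35 hss hirr
    hpSmin := s59q_WSmin_p_mem W hΔ hp𝒪
    hSmin := s59q_WSmin_subset W hΔ hp𝒪 B hpB hB2
    hBS := Finset.empty_subset _
    hES := Finset.empty_subset _
    hBprime := fun q hq => absurd hq (Finset.notMem_empty q)
    hEprime := fun q hq => absurd hq (Finset.notMem_empty q)
    hmin := s59q_WSmin_hmin W hΔ hp𝒪 hp2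
    hBunr := fun q hq => absurd hq (Finset.notMem_empty q)
    hEunr := fun q hq => absurd hq (Finset.notMem_empty q)
    hBE := Finset.disjoint_empty_left _
    hcen := fun q hq => absurd hq (Finset.notMem_empty _)
    hprB := by simp
    hprE := by simp
    hBinj := fun a => a.elim0
    hEinj := fun a => a.elim0
    hσq := fun t => Sum.casesOn t (fun j => j.elim0) (fun l => l.elim0)
    hφq := fun t => Sum.casesOn t (fun j => j.elim0) (fun l => l.elim0)
    hPP' := fun _ => one_mul _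
    hP'P := fun _ => one_mul _
    hαβ := fun l => l.elim0
    hαβ' := fun l => l.elim0
    hdiag := fun l => l.elim0
    hαE := fun l => l.elim0
    hβE := fun l => l.elim0
    hDu := fun l => l.elim0
    hqB := fun j => j.elim0
    hNSg := fun q hq hqN => (hNSg q hq hqN).imp (fun h => Finset.mem_union_left _ h) id }, rfl, rfl, rfl⟩

end Fermat.Agent.Lib.S59
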