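/-
Programme R2 (S59), helper5 (prefix `s59e_`): **packaging lemma for `s59e_TBaseL`** — builds the base record from explicit data
`(R, M, ν, ρR, d)` over ABSTRACT rings and transports two predicates `P1 R ρR`, `P2 R M ρR d` to the projections of the record.
(Over abstract data the projection reductions are immediate; doing the same inline over the concrete Hecke ring
`s59e_adj 𝒪 aM₀` made the elaborator unfold the instances of the concrete ring — more than 50 minutes.)
-/
import Mathlib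
import Fermat.Agent.Lib.S59.ELLvl

set_option autoImplicit false
set_option linter.unusedSectionVars false

noncomputable section

namespace Fermat.Agent.Lib.S59

open IsLocalRing

theorem s59e_TBaseL_pack {𝒪 : Type} [CommRing 𝒪] [IsDomain 𝒪] [IsDiscreteValuationRing 𝒪]
    [IsAdicComplete (maximalIdeal 𝒪) 𝒪]
    {ρbar : ResidualGaloisRep (ResidueField 𝒪)}
    {𝒟₀ : ∀ ⦃A : Type⦄ [CommRing A] [IsLocalRing A] [Algebra 𝒪 A], GaloisRepAdic A → Prop}
    (D0 : GaloisRep.DeformationRingData 𝒪 ρbar 𝒟₀)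
    (R : Type) [CommRing R] [IsLocalRing R] [IsNoetherianRing R]
    [IsAdicComplete (maximalIdeal R) R] [Algebra 𝒪 R] [IsLocalHom (algebraMap 𝒪 R)]
    [Module.Finite 𝒪 R]
    (hRres : Function.Surjective (residue R ∘ algebraMap 𝒪 R))
    (M : Type) [AddCommGroup M] [Module R M] [Module.Finite R M] [Nontrivial M]
    (ν : D0.R →ₐ[𝒪] R) (hνs : Function.Surjective ν) (ρR : GaloisRepAdic R)
    (hν : ∀ g, ν (s59i_cpTr D0.ρ g) = s59i_cpTr ρR g) (hρR : 𝒟₀ ρR)
    (hresR : ρR.residual.IsEquiv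
      (ρbar.baseChangeAlong (IsLocalRing.ResidueField.map (algebraMap 𝒪 R))))
    (d : ℕ)
    (P1 : ∀ (R : Type) [CommRing R] [IsLocalRing R] [Algebra 𝒪 R], GaloisRepAdic R → Prop)
    (P2 : ∀ (R : Type) [CommRing R] [IsLocalRing R] [Algebra 𝒪 R] (M : Type) [AddCommGroup M]
      [Module R M], GaloisRepAdic R → ℕ → Prop)
    (h1 : P1 R ρR) (h2 : P2 R M ρR d) :
    ∃ Bs : s59e_TBaseL 𝒪 D0, P1 Bs.R Bs.ρR ∧ P2 Bs.R Bs.M Bs.ρR Bs.d :=
  ⟨{ R := R
     hRres := hRres
     M := M
     ν := ν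
     hνs := hνs
     ρR := ρR
     hν := hν
     hρR := hρR
     hresR := hresR
     d := d }, h1, h2⟩

end Fermat.Agent.Lib.S59
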