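/-
Programme R2 (S59), node [LIFT-min] = FIN-L, `T`-side (helper5, prefix `s59e_`): **`s59e_TPkgLH` = `s59e_TPkgL` (ELPkg.lean) WITH THE
HECKE MAP EXPOSED**: the base ring `Bs.R = T_∅ = 𝒪[aM₀(𝕋)]` comes with `hk : heckeAlgebra N 2 B →+* Bs.R` such that the characteristic
polynomial of `Bs.ρR(Frob_ℓ)` is `X² − hk(T_ℓ) X + ℓ` (`ℓ ∤ N`, `ℓ ∉ B`).  Needed by the [PATCH-min] assembly (ELMin.lean): a point of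
`Bs.R` composed with `hk` is a system of Hecke eigenvalues.
-/
import Mathlib
import Fermat.Agent.Lib.S59.ELPkg
import Fermat.Agent.Lib.S59.ELPkgHa
import Fermat.Agent.Lib.S59.ELPkgHb

set_option autoImplicit false
set_option linter.unusedSectionVars false
set_option linter.unusedVariables false
set_option linter.style.haveILetI false
set_option maxHeartbeats 0
set_option synthInstance.maxHeartbeats 400000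
set_option maxSynthPendingDepth 3

noncomputable section

namespace Fermat.Agent.Lib.S59

open IsLocalRing CuspForm Polynomial ExtCitation CongruenceSubgroup
open WeierstrassCurve WeierstrassCurve.Affine WeierstrassCurve.Affine.Point
open Fermat.Agent.Lib.S48 Fermat.Agent.Lib.S44
open scoped MatrixGroups

local notation "Γℚ" => (AlgebraicClosure ℚ ≃ₐ[ℚ] AlgebraicClosure ℚ)

/-- **the `T`-side package of FIN-L with the Hecke map of the base ring.** -/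
theorem s59e_TPkgLH (p : ℕ) [Fact p.Prime] (hp5 : 5 ≤ p) (W : WeierstrassCurve ℤ) (hΔ : W.Δ ≠ 0)
    (N : ℕ) [NeZero N] (Bd B : Finset ℕ)
    (hirr : W.ModRepIsIrreducible p) (hsq : Squarefree N) (hpN : ¬ p ∣ N)
    (hB1 : ∀ r : ℕ, r.Prime → r ∣ N * p → r ∈ B)
    (hB2 : ∀ r : ℕ, r.Prime → ¬ W.IsGoodPrimeFor r → r ∈ B)
    (hocc : s44i_LevelOcc N p (fun ℓ => W.apOfModel ℓ) B)
    (h23 : 2 ∣ N ∨ 3 ∣ N)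
    (𝒪 : Type) [CommRing 𝒪] [IsDomain 𝒪] [IsDiscreteValuationRing 𝒪]
    [IsAdicComplete (maximalIdeal 𝒪) 𝒪] [Finite (ResidueField 𝒪)] [CharZero 𝒪]
    [Algebra ℤ_[p] 𝒪] [Module.Finite ℤ_[p] 𝒪]
    (hp𝒪 : ((p : ℕ) : 𝒪) ∈ maximalIdeal 𝒪)
    (Rd : s59i_RData p N (s59i_rhobarW W p hΔ 𝒪 hp𝒪) B Bd)
    (D0 : GaloisRep.DeformationRingData 𝒪 (s59i_rhobarW W p hΔ 𝒪 hp𝒪) (fun _A _ _ _ ρ =>
      GaloisRep.flatCondition 𝒪 p (Rd.Smin ∪ (Bd ∪ Rd.Ed) ∪ (∅ : Finset ℕ)) ρ ∧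
        ∀ q ∈ Rd.Smin, q.Prime → q ≠ p → ρ.IsUnipotentOnInertiaAt q))
    (r : ℕ) (σ : Type) [DecidableEq σ] [Fintype σ] :
    ∃ Bs : s59e_TBaseL 𝒪 D0,
      s59e_HkFrobP N (↑B : Set ℕ) Bs.R Bs.ρR ∧
      ∀ (n : ℕ) (qv : Fin r → ℕ), Function.Injective qv →
        (∀ i, (qv i).Prime ∧ qv i ∉ B ∧ p ^ (n + 1) ∣ qv i - 1) →
        (∀ i, ∀ A : ValuationSubring (AlgebraicClosure ℚ), A.LiesOverPrime (qv i) →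
          ∀ φ : Γℚ, A.IsFrobeniusAt φ (qv i) →
            ∃ α β : ResidueField 𝒪, α ≠ β ∧
              LinearMap.charpoly ((s59i_rhobarW W p hΔ 𝒪 hp𝒪).ρ φ) = (X - C α) * (X - C β)) →
        ∀ DQ : GaloisRep.DeformationRingData 𝒪 (s59i_rhobarW W p hΔ 𝒪 hp𝒪) (fun _A _ _ _ ρ =>
          GaloisRep.flatCondition 𝒪 p (Rd.Smin ∪ (Bd ∪ Rd.Ed) ∪ Finset.univ.image qv) ρ ∧
            ∀ q ∈ Rd.Smin, q.Prime → q ≠ p → ρ.IsUnipotentOnInertiaAt q),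
          Nonempty (s59e_TLevelL 𝒪 p n r σ Bs.R Bs.M Bs.ρR Bs.d qv DQ) := by
  classical
  have hpP : p.Prime := Fact.out
  have hp2 : p ≠ 2 := by omega
  have htors : s59e_auxTors p N := s59e_auxTors_of_five_le hpP hp5 N
  have hNB : ∀ q : ℕ, q.Prime → q ∣ N → q ∈ B := fun q hq h => hB1 q hq (Dvd.dvd.mul_right h p)
  have hpB : p ∈ B := hB1 p hpP (Dvd.intro_left N rfl)
  have hnegH : (-1 : (ZMod N)ˣ) ∈ (⊤ : Subgroup (ZMod N)ˣ) := Subgroup.mem_top _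
  have hH : ∀ u : (ZMod N)ˣ, ∃ k : ℕ, u ^ (p ^ k) ∈ (⊤ : Subgroup (ZMod N)ˣ) :=
    fun u => ⟨0, Subgroup.mem_top _⟩
  have hEigB : ∀ ℓ : ℕ, ℓ.Prime → ℓ ∉ B →
      ∀ A : ValuationSubring (AlgebraicClosure ℚ), A.LiesOverPrime ℓ →
      ∀ σ : Γℚ, A.IsFrobeniusAt σ ℓ →
        LinearMap.charpoly ((s59i_rhobarW W p hΔ 𝒪 hp𝒪).ρ σ) =
          X ^ 2 - C (residue 𝒪 ((W.apOfModel ℓ : ℤ) : 𝒪)) * X +
            C ((ℓ : ResidueField 𝒪)) := fun ℓ hℓ hℓS A hA σ hσ =>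
    s59e_rhobarW_charpoly_frob hΔ hp2 hirr hp𝒪 B hpB hB2 ℓ hℓ hℓS A hA σ hσ
  -- the base package at `(N, ⊤)`
  obtain ⟨e, h1e, hunit, hid, hne, hnil, -, -, -, hP3⟩ :=
    s59e_W_base_pkg W hΔ p hirr N hsq B hocc (𝒪 := 𝒪) hp𝒪
      (⊤ : Subgroup (ZMod N)ˣ) hnegH hH htors
  obtain ⟨-, hρ, d, -, b0, -, -, hb0, -⟩ := hP3
  have hd0 : d ≠ 0 := (s59t_part_ne_zero_iff _ b0 hb0).1 hne
  haveI hYnt : Nontrivial (LinearMap.range (s59t_E0 (⊤ : Subgroup (ZMod N)ˣ) B e)) := s59e_L_range_nontrivial _ hne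
  -- (B2) at the base level
  haveI : Fact (HasIntegralStructure N 2) := ⟨Fermat.Agent.S23.result N⟩
  have hH3₀ := s59q_H3_RData Rd (fun ℓ => W.apOfModel ℓ) hp2 hp𝒪 N (∅ : Finset ℕ)
    (⊤ : Subgroup (ZMod N)ˣ) N B hpB (Finset.Subset.refl B) hpN
    (fun q hq => absurd hq (Finset.notMem_empty q))
    (by rw [Finset.prod_empty, mul_one]) (D := 1) (by rw [Finset.prod_empty]) (one_dvd N) le_top
    0 (fun u => Subgroup.mem_top _) (by rw [Finset.prod_empty, mul_one]) hNB hsq (dvd_refl N)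
    (∅ : Finset ℕ) (fun q hq => absurd hq (Finset.notMem_empty q))
    (fun q hq => absurd hq (Finset.notMem_empty q))
    (s59t_E0 (⊤ : Subgroup (ZMod N)ˣ) B e) hid hne (fun jdx => s59e_E0_comm_op _ B e jdx) hnil
    hEigB D0
  have hB2₀ : s59e_B2Concl (⊤ : Subgroup (ZMod N)ˣ) (s59t_E0 (⊤ : Subgroup (ZMod N)ˣ) B e) N B
      ((p ^ 0 - 1) * ((p ^ 0 + 1) / 2)) (fun ℓ => ((W.apOfModel ℓ : ℤ) : 𝒪)) D0 :=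
    Exists.elim hH3₀ fun a' h' =>
      s59e_B2Concl_of_H3Out _ _ _ _ _ (fun ℓ => W.apOfModel ℓ) hNB D0 a' h'.1 h'.2.1 h'.2.2
  obtain ⟨a₀, aM₀, ha1₀, ha2₀, haM₀, hlocA₀, hlr₀, θ₀, hθ₀, hfrob₀, hcong₀⟩ := hB2₀
  haveI : IsLocalRing (s59e_adj 𝒪 aM₀) := hlr₀
  haveI hlh₀ : IsLocalHom (algebraMap 𝒪 (s59e_adj 𝒪 aM₀)) := s59e_adj_isLocalHom aM₀ hlocA₀
  -- freeness and finiteness of `Y`
  let bZ₀ := Module.Free.chooseBasis ℤ (s48h_M (s48h_GammaH N (⊤ : Subgroup (ZMod N)ˣ)))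
  haveI : Module.Free 𝒪 (s48h_Hpar 𝒪 (s48h_GammaH N (⊤ : Subgroup (ZMod N)ˣ)) 𝒪) :=
    Module.Free.of_basis (s59u_cB bZ₀ 𝒪)
  haveI : Module.Finite 𝒪 (s48h_Hpar 𝒪 (s48h_GammaH N (⊤ : Subgroup (ZMod N)ˣ)) 𝒪) :=
    Module.Finite.of_basis (s59u_cB bZ₀ 𝒪)
  haveI hfin₀ : Module.Finite 𝒪 (LinearMap.range (s59t_E0 (⊤ : Subgroup (ZMod N)ˣ) B e)) :=
    s59t_part_finite _
  haveI hfree₀ : Module.Free 𝒪 (LinearMap.range (s59t_E0 (⊤ : Subgroup (ZMod N)ˣ) B e)) :=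
    s59t_part_free hid
  haveI hnoeth₀ : IsNoetherianRing (s59e_adj 𝒪 aM₀) := s59e_adj_noeth aM₀
  haveI hcompl₀ : IsAdicComplete (maximalIdeal (s59e_adj 𝒪 aM₀)) (s59e_adj 𝒪 aM₀) :=
    s59e_adj_complete aM₀
  haveI hfinR₀ : Module.Finite 𝒪 (s59e_adj 𝒪 aM₀) := s59e_adj_finite aM₀
  have hT'₀ : Fermat.Agent.Lib.Deform.IsTestAlgebra 𝒪 (s59e_adj 𝒪 aM₀) :=
    s59e_testAlgebra aM₀ AlgEquiv.refl hlocA₀
  -- the diamonds commute with the Hecke ring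
  have hFa₀ : ∀ t δ, Commute (aM₀ t) ((s59t_partRep (s59t_rho N (⊤ : Subgroup (ZMod N)ˣ) 𝒪 𝒪) hρ) δ) :=
    s59e_hFa_part _ _ hρ a₀ _ ha2₀ aM₀ haM₀
  have hRρ : ∀ (t : s59e_adj 𝒪 aM₀) (δ : s59t_Delta N (⊤ : Subgroup (ZMod N)ˣ))
      (y : LinearMap.range (s59t_E0 (⊤ : Subgroup (ZMod N)ˣ) B e)),
      t • (s59t_partRep (s59t_rho N (⊤ : Subgroup (ZMod N)ˣ) 𝒪 𝒪) hρ) δ y = (s59t_partRep (s59t_rho N (⊤ : Subgroup (ZMod N)ˣ) 𝒪 𝒪) hρ) δ (t • y) := by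
    intro t δ y
    have h := s59e_adj_commute_rho (𝒪 := 𝒪) aM₀ (s59t_partRep (s59t_rho N (⊤ : Subgroup (ZMod N)ˣ) 𝒪 𝒪) hρ) hFa₀ t.2 δ
    exact LinearMap.congr_fun h.eq y
  -- the module `M`
  have hMnt := s59u_EigT_top_nontrivial _ b0 hb0 hd0 (1 : s59t_Delta N (⊤ : Subgroup (ZMod N)ˣ) →* 𝒪ˣ)
    hRρ
  have hMfin : Module.Finite (s59e_adj 𝒪 aM₀) (s59t_EigT _ ⊤
      (1 : s59t_Delta N (⊤ : Subgroup (ZMod N)ˣ) →* 𝒪ˣ) hRρ) := by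
    haveI : IsNoetherian 𝒪 (LinearMap.range (s59t_E0 (⊤ : Subgroup (ZMod N)ˣ) B e)) :=
      isNoetherian_of_isNoetherianRing_of_finite 𝒪 _
    haveI : Module.Finite 𝒪 (s59t_EigT _ ⊤
        (1 : s59t_Delta N (⊤ : Subgroup (ZMod N)ˣ) →* 𝒪ˣ) hRρ) :=
      Module.Finite.of_injective (s59t_EigT_val _ ⊤ _ hRρ) (s59t_EigT_val_injective _ ⊤ _ hRρ)
    exact Module.Finite.of_restrictScalars_finite 𝒪 _ _
  -- the Galois representation over `R`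
  have hθ₀l : IsLocalHom (θ₀ : D0.R →+* s59e_adj 𝒪 aM₀) := IsLocalHom.of_surjective _ hθ₀
  have hfrobR : ∀ (ℓ : ℕ), ℓ.Prime → ¬ ℓ ∣ N → ℓ ∉ (↑B : Set ℕ) →
      ∀ A : ValuationSubring (AlgebraicClosure ℚ), A.LiesOverPrime ℓ →
      ∀ g : Γℚ, A.IsFrobeniusAt g ℓ →
        LinearMap.charpoly ((D0.ρ.baseChangeAlong (θ₀ : D0.R →+* s59e_adj 𝒪 aM₀) hθ₀l).ρ g) =
          Polynomial.X ^ 2 - Polynomial.C (s59e_tOf (↑B : Set ℕ) aM₀ ℓ) * Polynomial.X +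
            Polynomial.C ((ℓ : s59e_adj 𝒪 aM₀)) := by
    intro ℓ hℓ hℓN hℓB A hA g hg
    rw [s59e_bc_charpoly]
    exact hfrob₀ ℓ hℓ (fun h => hℓB (Finset.mem_coe.mpr h)) A hA g hg
  have hpR : ((p : ℕ) : s59e_adj 𝒪 aM₀) ∈ maximalIdeal (s59e_adj 𝒪 aM₀) := by
    have := map_nonunit (algebraMap 𝒪 (s59e_adj 𝒪 aM₀)) ((p : ℕ) : 𝒪) hp𝒪
    rwa [map_natCast] at this
  have hresR := s59b_hres_of_frob p hp2 hpR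
    (D0.ρ.baseChangeAlong (θ₀ : D0.R →+* s59e_adj 𝒪 aM₀) hθ₀l)
    (s59e_bc_absIrr (θ₀ : D0.R →+* s59e_adj 𝒪 aM₀) hθ₀l D0.ρ (s59b_DQ_residual_absIrr D0)) B
    (s59e_tOf (↑B : Set ℕ) aM₀) (fun ℓ => ((W.apOfModel ℓ : ℤ) : 𝒪))
    (fun ℓ hℓ hℓB A hA g hg => hfrobR ℓ hℓ (fun h => hℓB (hNB ℓ hℓ h))
      (fun h => hℓB (Finset.mem_coe.mp h)) A hA g hg)
    hcong₀ (s59i_rhobarW W p hΔ 𝒪 hp𝒪) hEigB
  have hρR0 : (GaloisRep.flatCondition 𝒪 p (Rd.Smin ∪ (Bd ∪ Rd.Ed) ∪ (∅ : Finset ℕ))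
      (D0.ρ.baseChangeAlong (θ₀ : D0.R →+* s59e_adj 𝒪 aM₀) hθ₀l) ∧
      ∀ q ∈ Rd.Smin, q.Prime → q ≠ p →
        (D0.ρ.baseChangeAlong (θ₀ : D0.R →+* s59e_adj 𝒪 aM₀) hθ₀l).IsUnipotentOnInertiaAt q) := by
    haveI : Finite (ResidueField (s59e_adj 𝒪 aM₀)) := hT'₀.finite_residueField
    exact s59x_twType_baseChange (𝒪 := 𝒪) (s59x_locCond_flat p) _ Rd.Smin
      (θ₀ : D0.R →+* s59e_adj 𝒪 aM₀) hθ₀l inferInstance D0.ρ D0.isOfType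
  have hgenR : Algebra.adjoin 𝒪 {x : s59e_adj 𝒪 aM₀ | ∃ ℓ : ℕ, ℓ.Prime ∧ ¬ ℓ ∣ N ∧
      ℓ ∉ (↑B : Set ℕ) ∧ x = s59e_tOf (↑B : Set ℕ) aM₀ ℓ} = ⊤ :=
    s59b_adjoin_tOf B hNB aM₀ N (dvd_refl N)
  have hkfrob : s59e_HkFrobP N (↑B : Set ℕ) (s59e_adj 𝒪 aM₀)
      (D0.ρ.baseChangeAlong (θ₀ : D0.R →+* s59e_adj 𝒪 aM₀) hθ₀l) :=
    s59e_HkFrobP_adj (↑B : Set ℕ) aM₀ _ hfrobR
  have hlevel : ∀ (n : ℕ) (qv : Fin r → ℕ), Function.Injective qv →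
      (∀ i, (qv i).Prime ∧ qv i ∉ B ∧ p ^ (n + 1) ∣ qv i - 1) →
      (∀ i, ∀ A : ValuationSubring (AlgebraicClosure ℚ), A.LiesOverPrime (qv i) →
        ∀ φ : Γℚ, A.IsFrobeniusAt φ (qv i) →
          ∃ α β : ResidueField 𝒪, α ≠ β ∧
            LinearMap.charpoly ((s59i_rhobarW W p hΔ 𝒪 hp𝒪).ρ φ) = (X - C α) * (X - C β)) →
      ∀ DQ : GaloisRep.DeformationRingData 𝒪 (s59i_rhobarW W p hΔ 𝒪 hp𝒪) (fun _A _ _ _ ρ =>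
        GaloisRep.flatCondition 𝒪 p (Rd.Smin ∪ (Bd ∪ Rd.Ed) ∪ Finset.univ.image qv) ρ ∧
          ∀ q ∈ Rd.Smin, q.Prime → q ≠ p → ρ.IsUnipotentOnInertiaAt q),
        Nonempty (s59e_TLevelL 𝒪 p n r σ (s59e_adj 𝒪 aM₀)
          (s59t_EigT (s59t_partRep (s59t_rho N (⊤ : Subgroup (ZMod N)ˣ) 𝒪 𝒪) hρ) ⊤
            (1 : s59t_Delta N (⊤ : Subgroup (ZMod N)ˣ) →* 𝒪ˣ) hRρ)
          (D0.ρ.baseChangeAlong (θ₀ : D0.R →+* s59e_adj 𝒪 aM₀) hθ₀l) d qv DQ) := by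
    intro n qv hqinj hqv hTW DQ
    exact s59e_TPkgL_level p hp5 W hΔ N Bd B hirr hsq hpN hB1 hB2 hocc h23 𝒪 hp𝒪 Rd r σ e h1e hid
      hnil hρ d hd0 b0 hb0 a₀ ha1₀ aM₀ haM₀ hRρ _ hfrobR hgenR n qv hqinj hqv hTW DQ
  exact s59e_TBaseL_pack D0 (s59e_adj 𝒪 aM₀) hT'₀.residue_surjective
    (s59t_EigT (s59t_partRep (s59t_rho N (⊤ : Subgroup (ZMod N)ˣ) 𝒪 𝒪) hρ) ⊤
      (1 : s59t_Delta N (⊤ : Subgroup (ZMod N)ˣ) →* 𝒪ˣ) hRρ)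
    θ₀ hθ₀ (D0.ρ.baseChangeAlong (θ₀ : D0.R →+* s59e_adj 𝒪 aM₀) hθ₀l)
    (fun g => (s59e_cpTr_map (θ₀ : D0.R →+* s59e_adj 𝒪 aM₀) hθ₀l D0.ρ g).symm) hρR0 hresR d
    (fun R _ _ _ ρR => s59e_HkFrobP N (↑B : Set ℕ) R ρR)
    (fun R _ _ _ M _ _ ρR d => ∀ (n : ℕ) (qv : Fin r → ℕ), Function.Injective qv →
      (∀ i, (qv i).Prime ∧ qv i ∉ B ∧ p ^ (n + 1) ∣ qv i - 1) →
      (∀ i, ∀ A : ValuationSubring (AlgebraicClosure ℚ), A.LiesOverPrime (qv i) →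
        ∀ φ : Γℚ, A.IsFrobeniusAt φ (qv i) →
          ∃ α β : ResidueField 𝒪, α ≠ β ∧
            LinearMap.charpoly ((s59i_rhobarW W p hΔ 𝒪 hp𝒪).ρ φ) = (X - C α) * (X - C β)) →
      ∀ DQ : GaloisRep.DeformationRingData 𝒪 (s59i_rhobarW W p hΔ 𝒪 hp𝒪) (fun _A _ _ _ ρ =>
        GaloisRep.flatCondition 𝒪 p (Rd.Smin ∪ (Bd ∪ Rd.Ed) ∪ Finset.univ.image qv) ρ ∧
          ∀ q ∈ Rd.Smin, q.Prime → q ≠ p → ρ.IsUnipotentOnInertiaAt q),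
        Nonempty (s59e_TLevelL 𝒪 p n r σ R M ρR d qv DQ))
    hkfrob hlevel

end Fermat.Agent.Lib.S59
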