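/-
Programme (R), top wiring (helper3): **monotonicity in the level** of "the eigen-system occurs mod `p`"
(from `s58q_oldLift`, iterated `q`-stabilisation on main), in both vocabularies:
* `s59v_levelOcc_mono` : `s44i_LevelOcc M' p a B → M' ∣ M → Squarefree M → (primes of M ⊆ B) →
  s44i_LevelOcc M p a B`;
* `s59v_resMod_mono`   : `W.IsResiduallyModularOfLevel p M' → M' ∣ M → Squarefree M →
  W.IsResiduallyModularOfLevel p M`.
-/
import Mathlib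
import Fermat.Agent.Lib.S44.Iface
import Fermat.Agent.Lib.S58.QStabForm

set_option autoImplicit false

noncomputable section

namespace Fermat.Agent.Lib.S59

open Fermat.Agent.Lib.S44 Fermat.Agent.Lib.S58

theorem s59v_levelOcc_mono {M' M p : ℕ} {a : ℕ → ℤ} {B : Finset ℕ} (hdvd : M' ∣ M)
    (hsq : Squarefree M) (hB : ∀ r : ℕ, r.Prime → r ∣ M → r ∈ B)
    (h : s44i_LevelOcc M' p a B) : s44i_LevelOcc M p a B := by
  obtain ⟨g, 𝔪, hg, hmax, hpm, hc⟩ := h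
  obtain ⟨h', hh', hcoef⟩ := s58q_oldLift M' M hdvd hsq g hg
  refine ⟨h', 𝔪, hh', hmax, hpm, fun ℓ hℓ hℓB => ?_⟩
  obtain ⟨α, hα, hαm⟩ := hc ℓ hℓ hℓB
  refine ⟨α, ?_, hαm⟩
  rw [hα, hcoef ℓ hℓ fun hd => hℓB (hB ℓ hℓ hd)]

theorem s59v_resMod_mono {W : WeierstrassCurve ℤ} {p M' M : ℕ} (hdvd : M' ∣ M)
    (hsq : Squarefree M) (h : W.IsResiduallyModularOfLevel p M') :
    W.IsResiduallyModularOfLevel p M := by
  obtain ⟨g, 𝔪, hg, hmax, hpm, hc⟩ := h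
  obtain ⟨h', hh', hcoef⟩ := s58q_oldLift M' M hdvd hsq g hg
  refine ⟨h', 𝔪, hh', hmax, hpm, fun ℓ hℓ hgood hℓM hℓp => ?_⟩
  obtain ⟨α, hα, hαm⟩ := hc ℓ hℓ hgood (fun hd => hℓM (hd.trans hdvd)) hℓp
  refine ⟨α, ?_, hαm⟩
  rw [hα, hcoef ℓ hℓ hℓM]

end Fermat.Agent.Lib.S59
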