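/-
Programme R2 (S59), node [PATCH-min], FLAT CASE, helper5 (prefix `s59e_Lmin_`): **THE NODE.**

`s59e_Lmin_flat` : `p ∈ {3,5}`, `5 ≤ p`; `W` semistable, good at `p`, `W[p]` irreducible; `N` squarefree, `p ∤ N`, `2 ∣ N ∨ 3 ∣ N`;
  `ρ̄_{W,p}` modular of level `N`; every bad prime `q ≠ p` of `W` is a RAMIFIED prime of `ρ̄`; every prime `q` of `N` is a ramified
  prime of `ρ̄` or of type (E2′) (`W` good at `q`, `p ∤ q² − 1`, `p ∤ a_q(W)² − (q+1)²`)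
  ⊢ a characteristic-zero point `χ : heckeAlgebra N 2 B →+* 𝒪` with `χ(T_ℓ) = a_ℓ(W)` for all `ℓ ∤ N`, `ℓ ∉ B`.
`s59e_Lmin_heckePt` : the same in the shape of helper1's `s59g_HeckePt W p` (Graph3.lean, unfolded), from a minimal level `M`
  (`M` squarefree, `p ∤ M`, every prime of `M` ramified, every bad prime `≠ p` of `W` ramified) under
  `2 ∣ M ∨ 3 ∣ M ∨ (∃ r ∈ {2,3}, W good at r ∧ p ∤ a_r(W)² − (r+1)²)`  (the auxiliary prime `r` enters the level as an (E2′)-prime).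

Ingredients: `s59e_Lmin_abs` (ELMinA: helper6's `s59q_inst_flat` + helper4's `s59f_FINL_absA`/`s59f_FINL_point` + the point of
`ρ_W ⊗ 𝒪`), `s59e_Lmin_RData` (ELMinR: helper6's `R`-side data for `Bd = Ed = ∅`), `s59e_TPkgLH` (ELPkgH: the `T`-side).
-/
import Mathlib
import Fermat.Agent.Lib.S59.ELMinA
import Fermat.Agent.Lib.S59.ELMinR
import Fermat.Agent.Lib.S59.ELPkgH
import Fermat.Agent.Lib.S59.VMono
import Fermat.Agent.Lib.S59.QOExtFin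

set_option autoImplicit false
set_option linter.unusedSectionVars false
set_option linter.unusedVariables false
set_option linter.style.haveILetI false
set_option maxHeartbeats 1600000
set_option synthInstance.maxHeartbeats 400000

noncomputable section

namespace Fermat.Agent.Lib.S59

open IsLocalRing CuspForm Polynomial
open Fermat.Agent.Lib.S44

local notation "Γℚ" => (AlgebraicClosure ℚ ≃ₐ[ℚ] AlgebraicClosure ℚ)

/-- restriction of the congruences to the primes outside `B` (copy of helper3's `s59u_levelOcc_of_resMod`). -/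
theorem s59e_Lmin_levelOcc (W : WeierstrassCurve ℤ) (p M : ℕ) (B : Finset ℕ)
    (hB1 : ∀ r : ℕ, r.Prime → r ∣ M * p → r ∈ B)
    (hB2 : ∀ r : ℕ, r.Prime → ¬ W.IsGoodPrimeFor r → r ∈ B)
    (hres : W.IsResiduallyModularOfLevel p M) :
    s44i_LevelOcc M p (fun ℓ => W.apOfModel ℓ) B := by
  obtain ⟨f, 𝔪, hf, hmax, hpm, hcong⟩ := hres
  refine ⟨f, 𝔪, hf, hmax, hpm, fun ℓ hℓ hℓB => ?_⟩
  have hgood : W.IsGoodPrimeFor ℓ := by
    by_contra hbad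
    exact hℓB (hB2 ℓ hℓ hbad)
  have hℓM : ¬ ℓ ∣ M := fun hd => hℓB (hB1 ℓ hℓ (hd.mul_right p))
  have hℓp : ℓ ≠ p := by
    rintro rfl
    exact hℓB (hB1 ℓ hℓ (dvd_mul_left ℓ M))
  exact hcong ℓ hℓ hgood hℓM hℓp

section E2

variable (W : WeierstrassCurve ℤ) {p : ℕ} [hpP : Fact p.Prime] (hΔ : W.Δ ≠ 0)
  {𝒪 : Type} [CommRing 𝒪] [IsDomain 𝒪] [IsDiscreteValuationRing 𝒪]
  [IsAdicComplete (maximalIdeal 𝒪) 𝒪] [Algebra ℤ_[p] 𝒪]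
  (hp𝒪 : ((p : ℕ) : 𝒪) ∈ maximalIdeal 𝒪)

/-- **a good prime `q ≠ p` of `W` with `p ∤ q² − 1`, `p ∤ a_q² − (q+1)²` is of type (E2′)** (the right alternative of `hNSg`). -/
theorem s59e_Lmin_E2 (hp2 : p ≠ 2) (hirr : W.ModRepIsIrreducible p) (q : ℕ) (hq : q.Prime)
    (hqp : q ≠ p) (hgood : W.IsGoodPrimeFor q) (hq2 : ¬ p ∣ q ^ 2 - 1)
    (ha : ¬ (p : ℤ) ∣ (W.apOfModel q : ℤ) ^ 2 - ((q : ℤ) + 1) ^ 2) :
    q ≠ p ∧ (s59q_WRhobar W hΔ hp𝒪).IsUnramifiedAt q ∧ ((q : ResidueField 𝒪) ^ 2 - 1 ≠ 0) ∧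
      ∃ (A : ValuationSubring (AlgebraicClosure ℚ)) (φ : Γℚ), A.LiesOverPrime q ∧
        A.IsFrobeniusAt φ q ∧
        (1 + (q : ResidueField 𝒪)) ^ 2 * LinearMap.det ((s59q_WRhobar W hΔ hp𝒪).ρ φ) -
          (q : ResidueField 𝒪) *
            LinearMap.trace (ResidueField 𝒪) (s59q_WRhobar W hΔ hp𝒪).V
              ((s59q_WRhobar W hΔ hp𝒪).ρ φ) ^ 2 ≠ 0 := by
  haveI : CharP (ResidueField 𝒪) p := s59e_charP_residue p hp𝒪
  have hcastℕ : ∀ n : ℕ, ((n : ℕ) : ResidueField 𝒪) = 0 → p ∣ n := fun n h =>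
    (CharP.cast_eq_zero_iff (ResidueField 𝒪) p n).mp h
  have hcastℤ : ∀ n : ℤ, ((n : ℤ) : ResidueField 𝒪) = 0 → (p : ℤ) ∣ n := fun n h =>
    (CharP.intCast_eq_zero_iff (ResidueField 𝒪) p n).mp h
  refine ⟨hqp, s59q_W_unram_good W hΔ hp𝒪 hp2 q hq hqp hgood, ?_, ?_⟩
  · intro h
    apply hq2
    apply hcastℕ
    have h1 : 1 ≤ q ^ 2 := Nat.one_le_pow _ _ hq.pos
    rw [Nat.cast_sub h1, Nat.cast_pow, Nat.cast_one]
    exact h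
  · obtain ⟨A, φ, hA, hφ⟩ := Fermat.Agent.Lib.Frobenius.exists_isFrobeniusAt q hq
    refine ⟨A, φ, hA, hφ, ?_⟩
    have hdet := s59q_W_det_frob W hΔ hp𝒪 hp2 hirr q hq hqp A hA φ hφ
    have hcp1 := s59q_W_charpoly_frob W hΔ hp𝒪 hp2 hirr q hq hqp A hA φ hφ
    have hcp2 := s59b_rhobar_charpoly_frob (𝒪 := 𝒪) (W := W) (p := p) hΔ hp2 hirr hp𝒪 q hq hqp
      hgood A hA φ hφ
    have htr : LinearMap.trace (ResidueField 𝒪) (s59q_WRhobar W hΔ hp𝒪).V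
        ((s59q_WRhobar W hΔ hp𝒪).ρ φ) = residue 𝒪 ((W.apOfModel q : ℤ) : 𝒪) := by
      have h := hcp1.symm.trans hcp2
      have := congrArg (fun f : (ResidueField 𝒪)[X] => f.coeff 1) h
      simp only [coeff_add, coeff_sub, coeff_X_pow, coeff_C_mul, coeff_X_one, coeff_C] at this
      simpa using this
    rw [hdet, htr, map_intCast]
    intro h
    have hq0 : ((q : ℕ) : ResidueField 𝒪) ≠ 0 := fun h0 =>
      hqp ((Nat.prime_dvd_prime_iff_eq hpP.out hq).mp (hcastℕ q h0)).symm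
    have h1 : ((q : ℕ) : ResidueField 𝒪) *
        ((((W.apOfModel q : ℤ) ^ 2 - ((q : ℤ) + 1) ^ 2 : ℤ) : ℤ) : ResidueField 𝒪) = 0 := by
      push_cast
      linear_combination -h
    exact ha (hcastℤ _ ((mul_eq_zero.mp h1).resolve_left hq0))

end E2

/-- **[PATCH-min], flat case, at a level `N` with `2 ∣ N ∨ 3 ∣ N`.** -/
theorem s59e_Lmin_flat (p : ℕ) [Fact p.Prime] (hp35 : p = 3 ∨ p = 5) (hp5 : 5 ≤ p)
    (W : WeierstrassCurve ℤ) (hΔ : W.Δ ≠ 0) (hss : W.IsSemistableModel)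
    (hirr : W.ModRepIsIrreducible p) (hgoodp : W.IsGoodPrimeFor p)
    (N : ℕ) [NeZero N] (hsq : Squarefree N) (hpN : ¬ p ∣ N) (h23 : 2 ∣ N ∨ 3 ∣ N)
    (hres : W.IsResiduallyModularOfLevel p N)
    (hbad : ∀ q : ℕ, q.Prime → q ≠ p → ¬ W.IsGoodPrimeFor q → ¬ s59_Unr W p q)
    (hNtype : ∀ q : ℕ, q.Prime → q ∣ N → ¬ s59_Unr W p q ∨
      (W.IsGoodPrimeFor q ∧ ¬ p ∣ q ^ 2 - 1 ∧
        ¬ (p : ℤ) ∣ (W.apOfModel q : ℤ) ^ 2 - ((q : ℤ) + 1) ^ 2)) :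
    ∃ (B : Finset ℕ) (𝒪 : Type) (_ : CommRing 𝒪) (_ : IsDomain 𝒪) (_ : CharZero 𝒪)
      (χ : heckeAlgebra N 2 (↑B : Set ℕ) →+* 𝒪),
      ∀ (ℓ : ℕ) (hℓ : ℓ.Prime) (hℓN : ¬ ℓ ∣ N) (hℓB : ℓ ∉ (↑B : Set ℕ)),
        χ (heckeAlgebra.T hℓ hℓN hℓB) = ((W.apOfModel ℓ : ℤ) : 𝒪) := by
  classical
  have hpp : p.Prime := Fact.out
  have hp2 : p ≠ 2 := by omega
  have hN0 : N ≠ 0 := NeZero.ne N
  set B : Finset ℕ := (N * p).primeFactors ∪ W.Δ.natAbs.primeFactors with hB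
  have hB1 : ∀ r : ℕ, r.Prime → r ∣ N * p → r ∈ B := fun r hr hd =>
    Finset.mem_union_left _ (Nat.mem_primeFactors.mpr ⟨hr, hd, Nat.mul_ne_zero hN0 hpp.ne_zero⟩)
  have hB2Δ : ∀ r : ℕ, r.Prime → (r : ℤ) ∣ W.Δ → r ∈ B := fun r hr hd =>
    Finset.mem_union_right _ (Nat.mem_primeFactors.mpr
      ⟨hr, Int.natCast_dvd.mp hd, Int.natAbs_ne_zero.mpr hΔ⟩)
  have hB2 : ∀ r : ℕ, r.Prime → ¬ W.IsGoodPrimeFor r → r ∈ B := by
    intro r hr hbad'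
    refine hB2Δ r hr ?_
    by_contra h
    exact hbad' h
  have hpB : p ∈ B := hB1 p hpp (Dvd.intro_left N rfl)
  have hocc := s59e_Lmin_levelOcc W p N B hB1 hB2 hres
  -- the coefficient ring
  obtain ⟨𝒪, i1, i2, i3, i4, i5, i6, i7, i8, i9, hp𝒪, -, hsplit⟩ :=
    s59q_exists_coeffRing_padic p 1 one_pos
  -- the `R`-side
  obtain ⟨Rd, hSmin, hm, he⟩ := s59e_Lmin_RData W hΔ hp𝒪 hp35 hss hirr hsplit N B hpB hB2Δ
    (fun q hq hqN => by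
      have hqp : q ≠ p := fun h => hpN (h ▸ hqN)
      rcases hNtype q hq hqN with h | ⟨hg, h1, h2⟩
      · exact Or.inl ((s59q_WSmin_hmin W hΔ hp𝒪 hp2 q hq hqp).mpr fun hunr =>
          h ((s59q_W_unram_iff W hΔ hp𝒪 q).mp hunr))
      · exact Or.inr (s59e_Lmin_E2 W hΔ hp𝒪 hp2 hirr q hq hqp hg h1 h2))
  have hbadS : ∀ q : ℕ, q.Prime → q ≠ p → ¬ W.IsGoodPrimeFor q → q ∈ Rd.Smin := by
    intro q hq hqp hg
    rw [hSmin]
    exact (s59q_WSmin_hmin W hΔ hp𝒪 hp2 q hq hqp).mpr fun hunr =>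
      hbad q hq hqp hg ((s59q_W_unram_iff W hΔ hp𝒪 q).mp hunr)
  -- the assembly
  obtain ⟨χ, hχ⟩ := s59e_Lmin_abs p hp2 W hΔ N B hss hirr hsq hpN hB1 hB2 hocc hgoodp 𝒪 hp𝒪 Rd hm
    he hbadS (fun D0 r => s59e_TPkgLH p hp5 W hΔ N (∅ : Finset ℕ) B hirr hsq hpN hB1 hB2 hocc h23
      𝒪 hp𝒪 Rd D0 r (s59q_ZIdx Rd.m Rd.e))
  exact ⟨B, 𝒪, inferInstance, inferInstance, inferInstance, χ, hχ⟩

/-- **[PATCH-min], flat case, in the shape of `s59g_HeckePt W p`** (helper1's Graph3.lean, unfolded). -/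
theorem s59e_Lmin_heckePt (p : ℕ) [Fact p.Prime] (hp35 : p = 3 ∨ p = 5) (hp5 : 5 ≤ p)
    (W : WeierstrassCurve ℤ) (hΔ : W.Δ ≠ 0) (hss : W.IsSemistableModel)
    (hirr : W.ModRepIsIrreducible p) (hgoodp : W.IsGoodPrimeFor p)
    (M : ℕ) (hM0 : 0 < M) (hsq : Squarefree M) (hpM : ¬ p ∣ M)
    (hram : ∀ q : ℕ, q.Prime → q ≠ p → q ∣ M → ¬ s59_Unr W p q)
    (hbad : ∀ q : ℕ, q.Prime → q ≠ p → ¬ W.IsGoodPrimeFor q → ¬ s59_Unr W p q)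
    (hT23 : 2 ∣ M ∨ 3 ∣ M ∨ ∃ r : ℕ, (r = 2 ∨ r = 3) ∧ W.IsGoodPrimeFor r ∧
      ¬ (p : ℤ) ∣ (W.apOfModel r : ℤ) ^ 2 - ((r : ℤ) + 1) ^ 2)
    (hres : W.IsResiduallyModularOfLevel p M) :
    ∃ (N : ℕ) (_ : NeZero N) (B : Finset ℕ) (𝒪 : Type) (_ : CommRing 𝒪) (_ : IsDomain 𝒪)
      (_ : CharZero 𝒪) (χ : CuspForm.heckeAlgebra N 2 (↑B : Set ℕ) →+* 𝒪),
      ¬ p ^ 2 ∣ N ∧ (∀ q : ℕ, q.Prime → ¬ q ^ 3 ∣ N) ∧
      ∀ (ℓ : ℕ) (hℓ : ℓ.Prime) (hℓN : ¬ ℓ ∣ N) (hℓB : ℓ ∉ (↑B : Set ℕ)),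
        χ (CuspForm.heckeAlgebra.T hℓ hℓN hℓB) = ((W.apOfModel ℓ : ℤ) : 𝒪) := by
  have hpp : p.Prime := Fact.out
  -- the shape of the conclusion at a squarefree level prime to `p`
  have key : ∀ (N : ℕ) [NeZero N], Squarefree N → ¬ p ∣ N →
      (∃ (B : Finset ℕ) (𝒪 : Type) (_ : CommRing 𝒪) (_ : IsDomain 𝒪) (_ : CharZero 𝒪)
        (χ : heckeAlgebra N 2 (↑B : Set ℕ) →+* 𝒪),
        ∀ (ℓ : ℕ) (hℓ : ℓ.Prime) (hℓN : ¬ ℓ ∣ N) (hℓB : ℓ ∉ (↑B : Set ℕ)),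
          χ (heckeAlgebra.T hℓ hℓN hℓB) = ((W.apOfModel ℓ : ℤ) : 𝒪)) →
      ∃ (N : ℕ) (_ : NeZero N) (B : Finset ℕ) (𝒪 : Type) (_ : CommRing 𝒪) (_ : IsDomain 𝒪)
        (_ : CharZero 𝒪) (χ : CuspForm.heckeAlgebra N 2 (↑B : Set ℕ) →+* 𝒪),
        ¬ p ^ 2 ∣ N ∧ (∀ q : ℕ, q.Prime → ¬ q ^ 3 ∣ N) ∧
        ∀ (ℓ : ℕ) (hℓ : ℓ.Prime) (hℓN : ¬ ℓ ∣ N) (hℓB : ℓ ∉ (↑B : Set ℕ)),
          χ (CuspForm.heckeAlgebra.T hℓ hℓN hℓB) = ((W.apOfModel ℓ : ℤ) : 𝒪) := by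
    intro N _ hNsq hpN ⟨B, 𝒪, i1, i2, i3, χ, hχ⟩
    refine ⟨N, inferInstance, B, 𝒪, i1, i2, i3, χ, ?_, ?_, hχ⟩
    · exact fun h => hpN (dvd_trans (dvd_pow_self p two_ne_zero) h)
    · intro q hq h
      have h2 : q * q ∣ N := dvd_trans ⟨q, by ring⟩ h
      exact hq.not_isUnit (hNsq q h2)
  by_cases h23 : 2 ∣ M ∨ 3 ∣ M
  · haveI : NeZero M := ⟨hM0.ne'⟩
    refine key M hsq hpM (s59e_Lmin_flat p hp35 hp5 W hΔ hss hirr hgoodp M hsq hpM h23 hres hbad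
      fun q hq hqM => Or.inl (hram q hq (fun h => hpM (h ▸ hqM)) hqM))
  · obtain ⟨r, hr23, hgr, har⟩ : ∃ r : ℕ, (r = 2 ∨ r = 3) ∧ W.IsGoodPrimeFor r ∧
        ¬ (p : ℤ) ∣ (W.apOfModel r : ℤ) ^ 2 - ((r : ℤ) + 1) ^ 2 := by
      rcases hT23 with h | h | h
      · exact absurd (Or.inl h) h23
      · exact absurd (Or.inr h) h23
      · exact h
    have hrp : r.Prime := by rcases hr23 with rfl | rfl <;> norm_num
    have hrM : ¬ r ∣ M := by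
      rcases hr23 with rfl | rfl
      · exact fun h => h23 (Or.inl h)
      · exact fun h => h23 (Or.inr h)
    have hrlt : r < 5 := by rcases hr23 with rfl | rfl <;> norm_num
    have hrp' : r ≠ p := by omega
    have hcop : M.Coprime r := (Nat.Coprime.symm ((Nat.Prime.coprime_iff_not_dvd hrp).mpr hrM))
    have hNsq : Squarefree (M * r) := (Nat.squarefree_mul hcop).mpr ⟨hsq, hrp.squarefree⟩
    have hpN : ¬ p ∣ M * r := by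
      intro h
      rcases hpp.dvd_mul.mp h with h' | h'
      · exact hpM h'
      · exact hrp' ((Nat.prime_dvd_prime_iff_eq hpp hrp).mp h').symm
    haveI : NeZero (M * r) := ⟨Nat.mul_ne_zero hM0.ne' hrp.ne_zero⟩
    have h23' : 2 ∣ M * r ∨ 3 ∣ M * r := by
      rcases hr23 with rfl | rfl
      · exact Or.inl (dvd_mul_left 2 M)
      · exact Or.inr (dvd_mul_left 3 M)
    have hres' : W.IsResiduallyModularOfLevel p (M * r) :=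
      s59v_resMod_mono (dvd_mul_right M r) hNsq hres
    have hr2 : ¬ p ∣ r ^ 2 - 1 := by
      rcases hr23 with rfl | rfl
      · intro h
        have := Nat.le_of_dvd (by norm_num) h
        omega
      · intro h
        have h8 : p ∣ 2 ^ 3 := by simpa using h
        have := (Nat.prime_dvd_prime_iff_eq hpp Nat.prime_two).mp (hpp.dvd_of_dvd_pow h8)
        omega
    refine key (M * r) hNsq hpN (s59e_Lmin_flat p hp35 hp5 W hΔ hss hirr hgoodp (M * r) hNsq hpN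
      h23' hres' hbad fun q hq hqN => ?_)
    rcases (Nat.Prime.dvd_mul hq).mp hqN with h | h
    · exact Or.inl (hram q hq (fun h' => hpM (h' ▸ h)) h)
    · have hqr : q = r := (Nat.prime_dvd_prime_iff_eq hq hrp).mp h
      subst hqr
      exact Or.inr ⟨hgr, hr2, har⟩

end Fermat.Agent.Lib.S59
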