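/-
Programme R (S59), node (E) (helper5, prefix `s59e_`): PACKAGING of `s59_E p W 𝒪`.

`s59e_E_of`: for `p ∈ {3, 5}`, `W` semistable with `W[p]` irreducible, `𝒪` a local ring with a
local homomorphism `φ : ℤ_p → 𝒪` whose residue field splits the quadratics with coefficients in
the prime field, the representation `ρ = ρ_W ⊗ 𝒪` (`ρ_W = s59b_rhoW`, helper2) satisfies every
clause of `s59_E`, GIVEN the two local clauses at `p` as hypotheses:
  (E3) `W.IsGoodPrimeFor p → ρ.IsFlatAt p`,  (E4) `¬ W.IsGoodPrimeFor p → ρ.IsStrictOrdinaryAt p`.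
-/
import Fermat.Agent.Lib.S59.Graph
import Fermat.Agent.Lib.S59.ETWTop
import Fermat.Agent.Lib.S59.EOrdBC

set_option autoImplicit false
set_option linter.style.haveILetI false
set_option linter.unusedSectionVars false

noncomputable section

namespace Fermat.Agent.Lib.S59

open Polynomial IsLocalRing

local notation "GQ" => (AlgebraicClosure ℚ ≃ₐ[ℚ] AlgebraicClosure ℚ)

/-- the characteristic polynomial of a plane endomorphism. -/
theorem s59e_charpoly_plane {k : Type*} [Field k] {V : Type*} [AddCommGroup V] [Module k V]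
    [Module.Finite k V] (hdim : Module.finrank k V = 2) (f : Module.End k V) :
    LinearMap.charpoly f = X ^ 2 - C (LinearMap.trace k V f) * X + C (LinearMap.det f) := by
  let b : Module.Basis (Fin 2) k V := Module.finBasisOfFinrankEq k V hdim
  rw [← LinearMap.charpoly_toMatrix f b, Matrix.charpoly_fin_two,
    LinearMap.trace_eq_matrix_trace k b, LinearMap.det_toMatrix]

variable {W : WeierstrassCurve ℤ} {p : ℕ} [hp : Fact p.Prime]

/-- **(E) from (E3) + (E4).** -/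
theorem s59e_E_of (hp35 : p = 3 ∨ p = 5) (hΔ : W.Δ ≠ 0) (hirr : W.ModRepIsIrreducible p)
    (hss : W.IsSemistableModel) {𝒪 : Type} [CommRing 𝒪] [IsLocalRing 𝒪] (φ : ℤ_[p] →+* 𝒪)
    (hφ : IsLocalHom φ)
    (hsplit : ∀ t e : ResidueField 𝒪, t ^ p = t → e ^ p = e →
      ∃ α β : ResidueField 𝒪, α + β = t ∧ α * β = e)
    (hflat : W.IsGoodPrimeFor p → ((s59b_rhoW W p hΔ).baseChangeAlong φ hφ).IsFlatAt p)
    (hord : ¬ W.IsGoodPrimeFor p →
      ((s59b_rhoW W p hΔ).baseChangeAlong φ hφ).IsStrictOrdinaryAt p) :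
    s59_E p W 𝒪 := by
  have hp2 : p ≠ 2 := by rcases hp35 with rfl | rfl <;> norm_num
  set ρ₀ := s59b_rhoW W p hΔ with hρ₀
  have hdet₀ : ρ₀.DetIsCyclotomic p := s59b_rhoW_detCyc hΔ hp2 hirr
  have hdet : (ρ₀.baseChangeAlong φ hφ).DetIsCyclotomic p := s59e_bc_detCyc φ hφ ρ₀ p hdet₀
  haveI : CharP (ResidueField 𝒪) p := s59e_charP_residue p hdet.1
  obtain ⟨habs, htw⟩ := s59e_E6 hp35 hΔ hirr hss φ hφ
  refine ⟨ρ₀.baseChangeAlong φ hφ, ?_, hdet, hflat, hord, ?_, ?_, habs, htw, ?_⟩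
  · intro ℓ hℓ hgood hℓp A hA σ hσ
    rw [s59e_bc_charpoly, s59b_rhoW_charpoly hΔ hp2 hirr ℓ hℓ hgood hℓp A hA σ hσ]
    simp
  · intro q hq hqp hgood
    exact s59e_bc_unram φ hφ ρ₀ q (s59b_rhoW_unram hΔ hp2 q hq hqp hgood)
  · intro q hq hqp
    exact s59e_bc_unip φ hφ ρ₀ q (s59b_rhoW_unip hΔ hp2 hirr hss q hq hqp)
  · intro σ
    have htr := s59e_residual_trace_frob p φ hφ ρ₀ σ
    have hdt : LinearMap.det ((ρ₀.baseChangeAlong φ hφ).residual.ρ σ) ^ p =
        LinearMap.det ((ρ₀.baseChangeAlong φ hφ).residual.ρ σ) := by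
      rw [s59e_residual_det p _ hdet σ (ExtCitation.cycloExp p σ)
        (fun μ hμ => Fermat.Agent.Lib.S56.s56h_cycloExp_spec p σ μ hμ)]
      exact s59e_natCast_frob p _
    obtain ⟨α, β, hs, hm⟩ := hsplit _ _ htr hdt
    refine ⟨α, β, ?_⟩
    rw [s59e_charpoly_plane (ρ₀.baseChangeAlong φ hφ).residual.finrank_eq, ← hs, ← hm]
    simp only [map_add, map_mul]
    ring

/-- **(E) from (E3) over `𝒪` + (E4) over `ℤ_p`** (the strict-ordinary clause is transported). -/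
theorem s59e_E_of' (hp35 : p = 3 ∨ p = 5) (hΔ : W.Δ ≠ 0) (hirr : W.ModRepIsIrreducible p)
    (hss : W.IsSemistableModel) {𝒪 : Type} [CommRing 𝒪] [IsLocalRing 𝒪] (φ : ℤ_[p] →+* 𝒪)
    (hφ : IsLocalHom φ)
    (hsplit : ∀ t e : ResidueField 𝒪, t ^ p = t → e ^ p = e →
      ∃ α β : ResidueField 𝒪, α + β = t ∧ α * β = e)
    (hflat : W.IsGoodPrimeFor p → ((s59b_rhoW W p hΔ).baseChangeAlong φ hφ).IsFlatAt p)
    (hord : ¬ W.IsGoodPrimeFor p → (s59b_rhoW W p hΔ).IsStrictOrdinaryAt p) :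
    s59_E p W 𝒪 :=
  s59e_E_of hp35 hΔ hirr hss φ hφ hsplit hflat
    (fun h => s59e_bc_strictOrd φ hφ _ p (hord h))

end Fermat.Agent.Lib.S59
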