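/-
Programme R (S59), node (E) (helper5, prefix `s59e_`): `s59_E p W 𝒪` from the flat clause (E3)
alone; the strict-ordinary clause (E4) is helper2's `s59b_rhoW_strictOrd_of_semistable`,
transported along `baseChangeAlong` by `s59e_bc_strictOrd`.
-/
import Fermat.Agent.Lib.S59.EPack
import Fermat.Agent.Lib.S59.BOrdSS

set_option autoImplicit false
set_option linter.style.haveILetI false
set_option linter.unusedSectionVars false

noncomputable section

namespace Fermat.Agent.Lib.S59

open IsLocalRing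

variable {W : WeierstrassCurve ℤ} {p : ℕ} [hp : Fact p.Prime]

/-- **(E) from (E3).** -/
theorem s59e_E_of_flat (hp35 : p = 3 ∨ p = 5) (hΔ : W.Δ ≠ 0) (hirr : W.ModRepIsIrreducible p)
    (hss : W.IsSemistableModel) {𝒪 : Type} [CommRing 𝒪] [IsLocalRing 𝒪] (φ : ℤ_[p] →+* 𝒪)
    (hφ : IsLocalHom φ)
    (hsplit : ∀ t e : ResidueField 𝒪, t ^ p = t → e ^ p = e →
      ∃ α β : ResidueField 𝒪, α + β = t ∧ α * β = e)
    (hflat : W.IsGoodPrimeFor p → ((s59b_rhoW W p hΔ).baseChangeAlong φ hφ).IsFlatAt p) :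
    s59_E p W 𝒪 :=
  s59e_E_of' hp35 hΔ hirr hss φ hφ hsplit hflat
    (fun hbad => s59b_rhoW_strictOrd_of_semistable hΔ
      (by rcases hp35 with rfl | rfl <;> norm_num) hirr hss hbad)

end Fermat.Agent.Lib.S59
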