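/-
PROGRAMME R2 = S59, node [FLR], **transport of the `T`-side step contract** (helper4, prefix
`s59f_`): `s59f_TStep` (FRaiseT2.lean) is stable under the two operations which turn a level over
the Hecke-side ring `U = T⟦z⟧` with target the Hecke ring `R` into a level over the flat acting ring
`A″ = P⟦s⟧` with target the universal ring `R₀`:
  * `s59f_TStep_restrict` : restriction of the acting ring along `Θ : A → U` (`s59i_restrict`);
  * `s59f_TStep_retarget` : change of the target ring along `ν : R₀ → R` (`s59f_retarget`),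
    with `s59f_linRetarget` (the same linear map, over `R₀`).
So the `T`-side delivers `s59f_TStep` over ITS OWN rings.
-/
import Mathlib
import Fermat.Agent.Lib.S59.FRaiseT2
import Fermat.Agent.Lib.S59.FLiftA
import Fermat.Agent.Lib.S59.LInstR

set_option autoImplicit false
set_option linter.unusedSectionVars false
set_option linter.unusedVariables false
set_option linter.style.haveILetI false
set_option maxHeartbeats 1600000

noncomputable section

namespace Fermat.Agent.Lib.S59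

open IsLocalRing

/-- a linear map over `R'`, seen over `R₀` through `ν' : R₀ → R'`. -/
def s59f_linRetarget {R₀ : Type} [CommRing R₀] {R' : Type} [CommRing R'] (ν' : R₀ →+* R')
    {M' : Type} [AddCommGroup M'] [Module R' M'] {MQ : Type} [AddCommGroup MQ] [Module R' MQ]
    (ρ : M' →ₗ[R'] MQ) :
    @LinearMap R₀ R₀ _ _ (RingHom.id R₀) M' MQ _ _ (Module.compHom M' ν')
      (Module.compHom MQ ν') :=
  letI : Module R₀ M' := Module.compHom M' ν'
  letI : Module R₀ MQ := Module.compHom MQ ν'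
  { toFun := ρ
    map_add' := ρ.map_add
    map_smul' := fun a m => ρ.map_smul (ν' a) m }

theorem s59f_linRetarget_apply {R₀ : Type} [CommRing R₀] {R' : Type} [CommRing R']
    (ν' : R₀ →+* R') {M' : Type} [AddCommGroup M'] [Module R' M'] {MQ : Type} [AddCommGroup MQ]
    [Module R' MQ] (ρ : M' →ₗ[R'] MQ) (m : M') :
    letI : Module R₀ M' := Module.compHom M' ν'
    letI : Module R₀ MQ := Module.compHom MQ ν'
    s59f_linRetarget ν' ρ m = ρ m := rfl

section Restrict

variable {S : Type} [CommRing S] [IsLocalRing S] {U : Type} [CommRing U] {A : Type} [CommRing A]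
  {R : Type} [CommRing R] {M : Type} [AddCommGroup M] [Module R M]
  {R' : Type} [CommRing R'] {M' : Type} [AddCommGroup M'] [Module R' M'] {𝔞 J : Ideal S}

/-- **`s59f_TStep` is stable under restriction of the acting ring.** -/
theorem s59f_TStep_restrict (L : s59p_Level S U R M 𝔞 J) (L' : s59p_Level S U R' M' 𝔞 J)
    (Θ : A →+* U) (φA : S →+* A) (hφ : ∀ s, Θ (φA s) = L.φ s) (hφ' : ∀ s, Θ (φA s) = L'.φ s)
    (hψ : Function.Surjective (L.ψ.comp Θ)) (hψ' : Function.Surjective (L'.ψ.comp Θ))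
    (g11 g12 g21 g22 : A) {MQ : Type} [AddCommGroup MQ] [Module R' MQ] (ρ : M' →ₗ[R'] MQ)
    (𝔫U : Ideal U) (𝔫 : Ideal A) (h𝔫 : ∀ a ∈ 𝔫, Θ a ∈ 𝔫U)
    (hT : s59f_TStep L L' (Θ g11) (Θ g12) (Θ g21) (Θ g22) ρ 𝔫U) :
    s59f_TStep (s59i_restrict L Θ φA hφ hψ) (s59i_restrict L' Θ φA hφ' hψ') g11 g12 g21 g22 ρ
      𝔫 := by
  obtain ⟨i, tr, i₀, tr₀, hG, hi, htr, hIh, hIh', hρker, h𝔫'⟩ := hT.ex
  have hmapφ : ∀ I : Ideal S, (I.map φA).map (L.ψ.comp Θ) = (I.map L.φ).map L.ψ := by
    intro I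
    rw [Ideal.map_map, Ideal.map_map]
    congr 1
    refine RingHom.ext fun s => ?_
    simp only [RingHom.comp_apply, hφ]
  have hmapφ' : ∀ I : Ideal S, (I.map φA).map (L'.ψ.comp Θ) = (I.map L'.φ).map L'.ψ := by
    intro I
    rw [Ideal.map_map, Ideal.map_map]
    congr 1
    refine RingHom.ext fun s => ?_
    simp only [RingHom.comp_apply, hφ']
  letI iN : Module A L.N := Module.compHom L.N Θ
  letI iN' : Module A L'.N := Module.compHom L'.N Θ
  let iA : L.N × L.N →ₗ[A] L'.N :=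
    { toFun := i
      map_add' := i.map_add
      map_smul' := fun a x => i.map_smul (Θ a) x }
  let trA : L'.N →ₗ[A] L.N × L.N :=
    { toFun := tr
      map_add' := tr.map_add
      map_smul' := fun a x => tr.map_smul (Θ a) x }
  refine ⟨rfl, iA, trA, i₀, tr₀, ?_, hi, htr, ?_, ?_, hρker, ?_⟩
  · intro u v
    exact hG u v
  · intro m₁ m₂ h
    have h1 : i₀ (m₁, m₂) ∈ (((maximalIdeal S).map L'.φ).map L'.ψ) • (⊤ : Submodule R' M') := by
      rw [← hmapφ']
      exact h
    obtain ⟨h2, h3⟩ := hIh m₁ m₂ h1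
    refine ⟨?_, ?_⟩
    · show m₁ ∈ (((maximalIdeal S).map φA).map (L.ψ.comp Θ)) • (⊤ : Submodule R M)
      rw [hmapφ]
      exact h2
    · show m₂ ∈ (((maximalIdeal S).map φA).map (L.ψ.comp Θ)) • (⊤ : Submodule R M)
      rw [hmapφ]
      exact h3
  · intro m₁ m₂
    obtain ⟨m', h2, h3⟩ := hIh' m₁ m₂
    refine ⟨m', ?_, ?_⟩
    · show (tr₀ m').1 - m₁ ∈ (((maximalIdeal S).map φA).map (L.ψ.comp Θ)) • (⊤ : Submodule R M)
      rw [hmapφ]
      exact h2
    · show (tr₀ m').2 - m₂ ∈ (((maximalIdeal S).map φA).map (L.ψ.comp Θ)) • (⊤ : Submodule R M)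
      rw [hmapφ]
      exact h3
  · intro a ha z
    obtain ⟨x, hx⟩ := h𝔫' (Θ a) (h𝔫 a ha) z
    exact ⟨x, hx⟩

end Restrict

section Retarget

variable {S : Type} [CommRing S] [IsLocalRing S] {A : Type} [CommRing A]
  {R : Type} [CommRing R] {M : Type} [AddCommGroup M] [Module R M]
  {R' : Type} [CommRing R'] {M' : Type} [AddCommGroup M'] [Module R' M'] {𝔞 J : Ideal S}

/-- the submodule `I • ⊤` does not depend on the ring through which the ideal acts. -/
theorem s59f_smul_top_retarget {R₀ : Type} [CommRing R₀] (ν : R₀ →+* R)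
    (hν : Function.Surjective ν) (I : Ideal R₀) (m : M) :
    letI : Module R₀ M := Module.compHom M ν
    m ∈ I • (⊤ : Submodule R₀ M) ↔ m ∈ (I.map ν) • (⊤ : Submodule R M) := by
  letI : Module R₀ M := Module.compHom M ν
  constructor
  · intro h
    refine Submodule.smul_induction_on h ?_ ?_
    · intro a ha y _
      show ν a • y ∈ _
      exact Submodule.smul_mem_smul (Ideal.mem_map_of_mem ν ha) Submodule.mem_top
    · intro y y' hy hy'
      exact Submodule.add_mem _ hy hy'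
  · intro h
    refine Submodule.smul_induction_on h ?_ ?_
    · intro u hu y _
      obtain ⟨a, ha, rfl⟩ := (Ideal.mem_map_iff_of_surjective ν hν).mp hu
      have : ν a • y = (a • y : M) := rfl
      rw [this]
      exact Submodule.smul_mem_smul ha Submodule.mem_top
    · intro y y' hy hy'
      exact Submodule.add_mem _ hy hy'

/-- **`s59f_TStep` is stable under the change of the target ring.** -/
theorem s59f_TStep_retarget (L : s59p_Level S A R M 𝔞 J) (L' : s59p_Level S A R' M' 𝔞 J)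
    {R₀ : Type} [CommRing R₀] (ν : R₀ →+* R) (ν' : R₀ →+* R')
    (hνs : Function.Surjective ν) (hν's : Function.Surjective ν')
    (ψ₀ : A →+* R₀) (hψ₀ : Function.Surjective ψ₀)
    (hν : ∀ a, ν (ψ₀ a) = L.ψ a) (hν' : ∀ a, ν' (ψ₀ a) = L'.ψ a)
    (h𝔞 : ∀ s ∈ 𝔞, ψ₀ (L.φ s) = 0) (h𝔞' : ∀ s ∈ 𝔞, ψ₀ (L'.φ s) = 0)
    (g11 g12 g21 g22 : A) {MQ : Type} [AddCommGroup MQ] [Module R' MQ] (ρ : M' →ₗ[R'] MQ)
    (𝔫 : Ideal A) (hT : s59f_TStep L L' g11 g12 g21 g22 ρ 𝔫) :
    @s59f_TStep S _ _ A _ R₀ _ M _ (Module.compHom M ν) R₀ _ M' _ (Module.compHom M' ν') 𝔞 J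
      (s59f_retarget L ν ψ₀ hψ₀ hν h𝔞) (s59f_retarget L' ν' ψ₀ hψ₀ hν' h𝔞') g11 g12 g21 g22
      MQ _ (Module.compHom MQ ν') (s59f_linRetarget ν' ρ) 𝔫 := by
  letI iM : Module R₀ M := Module.compHom M ν
  letI iM' : Module R₀ M' := Module.compHom M' ν'
  letI iMQ : Module R₀ MQ := Module.compHom MQ ν'
  obtain ⟨i, tr, i₀, tr₀, hG, hi, htr, hIh, hIh', hρker, h𝔫'⟩ := hT.ex
  have hmap : ∀ I : Ideal S, ((I.map L.φ).map ψ₀).map ν = (I.map L.φ).map L.ψ := by
    intro I
    rw [Ideal.map_map]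
    congr 1
    exact RingHom.ext hν
  have hmap' : ∀ I : Ideal S, ((I.map L'.φ).map ψ₀).map ν' = (I.map L'.φ).map L'.ψ := by
    intro I
    rw [Ideal.map_map]
    congr 1
    exact RingHom.ext hν'
  refine ⟨hT.hφ, i, tr, i₀, tr₀, hG, hi, htr, ?_, ?_, hρker, h𝔫'⟩
  · intro m₁ m₂ h
    have h1 : i₀ (m₁, m₂) ∈ (((maximalIdeal S).map L'.φ).map L'.ψ) • (⊤ : Submodule R' M') := by
      rw [← hmap']
      exact (s59f_smul_top_retarget ν' hν's (((maximalIdeal S).map L'.φ).map ψ₀) _).mp h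
    obtain ⟨h2, h3⟩ := hIh m₁ m₂ h1
    refine ⟨?_, ?_⟩
    · refine (s59f_smul_top_retarget ν hνs _ _).mpr ?_
      show _ ∈ ((((maximalIdeal S).map L.φ).map ψ₀).map ν) • (⊤ : Submodule R M)
      rw [hmap]
      exact h2
    · refine (s59f_smul_top_retarget ν hνs _ _).mpr ?_
      show _ ∈ ((((maximalIdeal S).map L.φ).map ψ₀).map ν) • (⊤ : Submodule R M)
      rw [hmap]
      exact h3
  · intro m₁ m₂
    obtain ⟨m', h2, h3⟩ := hIh' m₁ m₂
    refine ⟨m', ?_, ?_⟩
    · refine (s59f_smul_top_retarget ν hνs _ _).mpr ?_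
      show _ ∈ ((((maximalIdeal S).map L.φ).map ψ₀).map ν) • (⊤ : Submodule R M)
      rw [hmap]
      exact h2
    · refine (s59f_smul_top_retarget ν hνs _ _).mpr ?_
      show _ ∈ ((((maximalIdeal S).map L.φ).map ψ₀).map ν) • (⊤ : Submodule R M)
      rw [hmap]
      exact h3

end Retarget

end Fermat.Agent.Lib.S59
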