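/-
# S59 — [FLR] with the base case given by a MODULAR POINT (helper4)

`s59f_chain'` (FGraph2) starts the family level raising from a module living on ONE component
(`h0 : 𝒦 (c 0) ≤ Ann N₀`).  When the base level carries a prime `r` with a several-component local
model and NO local condition (e.g. an auxiliary level-raising prime `r ∈ {2, 3}` put in the level for
the sake of the `T`-side), the base module lives on several components; what replaces `h0` is one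
modular point lying on the wanted component only.

* `s59f_base_of_point` : `⋂ 𝒦 ≤ Ann N`, a prime `𝔭 ⊇ Ann_R M` of `R` whose pull-back to `A` contains
                         `𝒦 i` only for `i = i₀`  ⇒  `Ann_A N ≤ 𝒦 i₀`;
* `s59f_chain_b`       : `s59f_chain'` with the base inclusion as a hypothesis;
* `s59f_closed_sup`    : Krull, `⋂ (I ⊔ 𝔪ⁿ) = I`;
* `s59f_map_limit`     : `I ≤ (𝒦).map ψ_n` for all `n`, `ψ_{ms n} → ψ_∞`  ⇒  `I ≤ (𝒦).map ψ_∞`;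
* `s59f_FLR_main_pt`, `s59f_FLR_points_pt` : the theorems of `FRaiseT2` with `h0` replaced by a point.
-/
import Mathlib
import Fermat.Agent.Lib.S59.FRaiseT2

set_option autoImplicit false
set_option linter.style.haveILetI false

namespace Fermat.Agent.Lib.S59

open IsLocalRing

/-- **base case by a point.** -/
theorem s59f_base_of_point (S : Type) [CommRing S] [IsDomain S] [IsLocalRing S]
    [IsNoetherianRing S] (A : Type) [CommRing A] [IsNoetherianRing A]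
    (R : Type) [CommRing R] (M : Type) [AddCommGroup M] [Module R M] (𝔞 : Ideal S)
    (L : s59p_Level S A R M 𝔞 ⊥) {ι : Type*} (s : Finset ι) (𝒦 : ι → Ideal A)
    (h𝒦 : ∀ i ∈ s, (𝒦 i).IsPrime)
    (hdim : ∀ i ∈ s, ringKrullDim (A ⧸ 𝒦 i) ≤ ringKrullDim S)
    (hkill : s.inf 𝒦 ≤ Module.annihilator A L.N)
    (𝔭 : Ideal R) [h𝔭 : 𝔭.IsPrime] (hM : Module.annihilator R M ≤ 𝔭)
    (i₀ : ι) (hi₀ : ∀ i ∈ s, 𝒦 i ≤ Ideal.comap L.ψ 𝔭 → i = i₀) :
    Module.annihilator A L.N ≤ 𝒦 i₀ := by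
  have h1 : Module.annihilator A L.N ≤ Ideal.comap L.ψ 𝔭 := by
    intro a ha
    rw [Ideal.mem_comap]
    apply hM
    rw [Module.mem_annihilator]
    intro m
    obtain ⟨x, rfl⟩ := L.π_surjective m
    rw [← L.π_smul, Module.mem_annihilator.mp ha x, map_zero]
  haveI : (Ideal.comap L.ψ 𝔭).IsPrime := Ideal.comap_isPrime L.ψ 𝔭
  obtain ⟨𝔓, h𝔓, h𝔓le⟩ := Ideal.exists_minimalPrimes_le h1
  obtain ⟨i, his, hi⟩ := (h𝔓.1.1.inf_le').mp (hkill.trans h𝔓.1.2)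
  haveI := h𝒦 i his
  have h2 : 𝔓 ≤ 𝒦 i := s59p_pm2d' S A R M 𝔞 L 𝔓 h𝔓 (𝒦 i) hi (hdim i his)
  have h3 : i = i₀ := hi₀ i his (hi.trans h𝔓le)
  subst h3
  exact h𝔓.1.2.trans h2

/-- **[F-CHAIN′], base given.** -/
theorem s59f_chain_b (S : Type) [CommRing S] [IsDomain S] [IsLocalRing S] [IsNoetherianRing S]
    (A : Type) [CommRing A] [IsNoetherianRing A] (𝔞 : Ideal S) (k : ℕ)
    (R : ℕ → Type) [∀ t, CommRing (R t)] (M : ℕ → Type) [∀ t, AddCommGroup (M t)]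
    [∀ t, Module (R t) (M t)]
    (RQ : ℕ → Type) [∀ t, CommRing (RQ t)] (MQ : ℕ → Type) [∀ t, AddCommGroup (MQ t)]
    [∀ t, Module (RQ t) (MQ t)]
    (LH : ∀ t, s59p_Level S A (R t) (M t) 𝔞 ⊥) (LQ : ∀ t, s59p_Level S A (RQ t) (MQ t) 𝔞 ⊥)
    (g11 g12 g21 g22 : ℕ → A) {ι : Type*} (s : Finset ι) (𝒦 : ι → Ideal A) (c : ℕ → ι)
    (𝔫 : ℕ → Ideal A)
    (hring : s59f_RingData' S A s 𝒦 k c (fun t => g11 t * g22 t - g12 t * g21 t) 𝔫)
    (hraise : ∀ t < k, s59f_Raise (LH t) (LH (t + 1)) (LQ t) (g11 t) (g12 t) (g21 t) (g22 t))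
    (hkillQ : ∀ t < k, s.inf 𝒦 ≤ Module.annihilator A (LQ t).N)
    (h𝔫 : ∀ t < k, 𝔫 t ≤ (Module.annihilator A (LQ t).N).radical)
    (hbase : Module.annihilator A (LH 0).N ≤ 𝒦 (c 0)) :
    ∀ t ≤ k, Module.annihilator A (LH t).N ≤ 𝒦 (c t) := by
  intro t
  induction t with
  | zero => exact fun _ => hbase
  | succ t ih =>
    intro ht
    have htk : t < k := ht
    obtain ⟨𝔔, h𝔔, h𝔎𝔔, hδ𝔔, hcl⟩ := hring.wit t htk
    exact s59f_step' S A (R t) (M t) (R (t + 1)) (M (t + 1)) (RQ t) (MQ t) 𝔞 (LH t) (LH (t + 1))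
      (LQ t) (g11 t) (g12 t) (g21 t) (g22 t) (hraise t htk) s 𝒦 hring.prime hring.dim
      (hkillQ t htk) (𝔫 t) (h𝔫 t htk) (𝒦 (c t)) (ih htk.le) 𝔔 h𝔎𝔔 hδ𝔔 (c (t + 1)) hcl

/-- Krull: ideals of a noetherian local ring are closed. -/
theorem s59f_closed_sup {R : Type*} [CommRing R] [IsLocalRing R] [IsNoetherianRing R]
    (I : Ideal R) (x : R) (hx : ∀ n : ℕ, x ∈ I ⊔ maximalIdeal R ^ n) : x ∈ I := by
  by_cases hI : I = ⊤
  · rw [hI]; exact Submodule.mem_top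
  haveI : Nontrivial (R ⧸ I) := Ideal.Quotient.nontrivial_iff.mpr hI
  haveI : IsLocalRing (R ⧸ I) :=
    IsLocalRing.of_surjective' (Ideal.Quotient.mk I) Ideal.Quotient.mk_surjective
  have hloc : ∀ r ∈ maximalIdeal R, Ideal.Quotient.mk I r ∈ maximalIdeal (R ⧸ I) := by
    intro r hr
    rw [mem_maximalIdeal, mem_nonunits_iff] at hr ⊢
    intro hu
    apply hr
    by_contra hnu
    have hrm : r ∈ maximalIdeal R := hnu
    -- `I ≤ 𝔪`, so a unit of the quotient lifts to a unit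
    obtain ⟨b, hb⟩ := hu.exists_right_inv
    obtain ⟨b', rfl⟩ := Ideal.Quotient.mk_surjective b
    rw [← map_mul, ← map_one (Ideal.Quotient.mk I), Ideal.Quotient.eq] at hb
    have hIm : I ≤ maximalIdeal R := IsLocalRing.le_maximalIdeal hI
    have h1 : (1 : R) ∈ maximalIdeal R := by
      have h2 := hIm hb
      have h3 : r * b' ∈ maximalIdeal R := Ideal.mul_mem_right _ _ hrm
      have : (1 : R) = r * b' - (r * b' - 1) := by ring
      rw [this]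
      exact Ideal.sub_mem _ h3 h2
    exact (Ideal.ne_top_iff_one _).mp (Ideal.IsPrime.ne_top inferInstance) h1
  have hmem : ∀ n : ℕ, Ideal.Quotient.mk I x ∈ maximalIdeal (R ⧸ I) ^ n := by
    intro n
    obtain ⟨y, hy, z, hz, rfl⟩ := Submodule.mem_sup.mp (hx n)
    rw [map_add, Ideal.Quotient.eq_zero_iff_mem.mpr hy, zero_add]
    have h3 : Ideal.map (Ideal.Quotient.mk I) (maximalIdeal R) ≤ maximalIdeal (R ⧸ I) := by
      rw [Ideal.map_le_iff_le_comap]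
      exact fun r hr => hloc r hr
    have h4 := Ideal.mem_map_of_mem (Ideal.Quotient.mk I) hz
    rw [Ideal.map_pow] at h4
    exact Ideal.pow_right_mono h3 n h4
  have hbot := Ideal.iInf_pow_eq_bot_of_isLocalRing (maximalIdeal (R ⧸ I))
    (Ideal.IsPrime.ne_top inferInstance)
  have : Ideal.Quotient.mk I x ∈ ⨅ n, maximalIdeal (R ⧸ I) ^ n := by
    rw [Ideal.mem_iInf]
    exact hmem
  rw [hbot] at this
  exact Ideal.Quotient.eq_zero_iff_mem.mp this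

/-- a lower bound for the image of an ideal survives a limit of ring homomorphisms. -/
theorem s59f_map_limit {A R : Type*} [CommRing A] [CommRing R] [IsLocalRing R]
    [IsNoetherianRing R] (ψn : ℕ → A →+* R) (ψ : A →+* R)
    (hconv : ∀ n a, ψn n a - ψ a ∈ maximalIdeal R ^ n)
    (𝒦 : Ideal A) (I : Ideal R) (hI : ∀ n, I ≤ 𝒦.map (ψn n)) : I ≤ 𝒦.map ψ := by
  intro x hx
  refine s59f_closed_sup _ x fun n => ?_
  have h1 : 𝒦.map (ψn n) ≤ 𝒦.map ψ ⊔ maximalIdeal R ^ n := by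
    rw [Ideal.map_le_iff_le_comap]
    intro g hg
    rw [Ideal.mem_comap]
    have : ψn n g = ψ g + (ψn n g - ψ g) := by ring
    rw [this]
    exact Submodule.add_mem_sup (Ideal.mem_map_of_mem ψ hg) (hconv n g)
  exact h1 (hI n hx)

/-- **[FLR], main theorem, base case by a modular point `x₀`** of the base level lying on the
component `c 0` only (`I i ⊆ R₀` = an `n`-independent lower bound of the image of `𝒦 i`). -/
theorem s59f_FLR_main_pt (S : Type) [CommRing S] [IsDomain S] [IsLocalRing S] [IsNoetherianRing S]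
    [IsAdicComplete (maximalIdeal S) S] [Finite (ResidueField S)]
    (A : Type) [CommRing A] [IsLocalRing A] [IsNoetherianRing A]
    [IsAdicComplete (maximalIdeal A) A] [Finite (ResidueField A)]
    (𝔞 : Ideal S) (h𝔞 : 𝔞 ≤ maximalIdeal S) (J : ℕ → Ideal S)
    (hJ : ∀ n, J n ≤ maximalIdeal S ^ (n + 1)) (k : ℕ)
    (R : ℕ → Type) [∀ t, CommRing (R t)] [∀ t, IsLocalRing (R t)] [∀ t, IsNoetherianRing (R t)]
    [∀ t, IsAdicComplete (maximalIdeal (R t)) (R t)]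
    (M : ℕ → Type) [∀ t, AddCommGroup (M t)] [∀ t, Module (R t) (M t)]
    [∀ t, Module.Finite (R t) (M t)]
    (MQ : ℕ → Type) [∀ t, AddCommGroup (MQ t)] [∀ t, Module (R (t + 1)) (MQ t)]
    (ρ : ∀ t, M (t + 1) →ₗ[R (t + 1)] MQ t) (hρ : ∀ t, Function.Surjective (ρ t))
    (hρinj : ∀ t, k ≤ t → Function.Injective (ρ t))
    (LH : ∀ t n, s59p_Level S A (R t) (M t) 𝔞 (J n)) (d : ℕ → ℕ) (hd : ∀ t n, (LH t n).d = d t)
    (g11 g12 g21 g22 : ℕ → A) (𝔫 : ℕ → Ideal A)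
    (hT : ∀ t < k, ∀ n, s59f_TStep (LH t n) (LH (t + 1) n) (g11 t) (g12 t) (g21 t) (g22 t)
      (ρ t) (𝔫 t))
    {ι : Type*} (s : Finset ι) (𝒦 : ι → Ideal A) (c : ℕ → ι)
    (hring : s59f_RingData' S A s 𝒦 k c (fun t => g11 t * g22 t - g12 t * g21 t) 𝔫)
    (hkill : ∀ t ≤ k, ∀ n, s.inf 𝒦 ≤ Module.annihilator A (LH t n).N)
    (I : ι → Ideal (R 0)) (hI : ∀ i ∈ s, ∀ n, I i ≤ (𝒦 i).map (LH 0 n).ψ)
    (𝔭₀ : Ideal (R 0)) [h𝔭₀ : 𝔭₀.IsPrime] (hM₀ : Module.annihilator (R 0) (M 0) ≤ 𝔭₀)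
    (h𝔭₀ : ∀ i ∈ s, I i ≤ 𝔭₀ → i = c 0) :
    ∃ (ms : ℕ → ℕ) (LHi : ∀ t, s59p_Level S A (R t) (M t) 𝔞 ⊥), (∀ n, n ≤ ms n) ∧
      (∀ t ≤ k, Module.annihilator A (LHi t).N ≤ 𝒦 (c t)) ∧
      (∀ t ≤ k, ∀ n a, (LH t (ms n)).ψ a - (LHi t).ψ a ∈ maximalIdeal (R t) ^ n) ∧
      (∀ t ≤ k, ∀ n s, (LH t (ms n)).φ s - (LHi t).φ s ∈ maximalIdeal A ^ n) := by
  obtain ⟨ms, LHi, LQi, hms, h1, h2, h3, h4, h5⟩ := s59f_patch_of_T S A 𝔞 h𝔞 J hJ k R M MQ ρ hρ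
    hρinj LH d hd g11 g12 g21 g22 𝔫 hT
  refine ⟨ms, LHi, hms, ?_, h4, h5⟩
  refine s59f_chain_b S A 𝔞 k R M (fun t => R (t + 1)) MQ LHi LQi g11 g12 g21 g22 s 𝒦 c 𝔫 hring h1
    ?_ (fun t ht => (h2 t ht).trans Ideal.le_radical) ?_
  · intro t ht a ha
    exact s59f_ann_le (h1 t ht) (h3 (t + 1) ht a fun n => hkill (t + 1) ht n ha)
  · refine s59f_base_of_point S A (R 0) (M 0) 𝔞 (LHi 0) s 𝒦 hring.prime hring.dim ?_ 𝔭₀ hM₀ (c 0) ?_
    · intro a ha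
      exact h3 0 (Nat.zero_le k) a fun n => hkill 0 (Nat.zero_le k) n ha
    · intro i his hi
      refine h𝔭₀ i his ?_
      have h6 : I i ≤ (𝒦 i).map (LHi 0).ψ :=
        s59f_map_limit (fun n => (LH 0 (ms n)).ψ) (LHi 0).ψ (h4 0 (Nat.zero_le k)) (𝒦 i) (I i)
          fun n => hI i his (ms n)
      exact h6.trans (Ideal.map_le_iff_le_comap.mpr hi)

/-- **[FLR] + [F-PT], base case by a modular point.** -/
theorem s59f_FLR_points_pt (S : Type) [CommRing S] [IsDomain S] [IsLocalRing S]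
    [IsNoetherianRing S]
    [IsAdicComplete (maximalIdeal S) S] [Finite (ResidueField S)]
    (A : Type) [CommRing A] [IsLocalRing A] [IsNoetherianRing A]
    [IsAdicComplete (maximalIdeal A) A] [Finite (ResidueField A)]
    (𝔞 : Ideal S) (h𝔞 : 𝔞 ≤ maximalIdeal S) (J : ℕ → Ideal S)
    (hJ : ∀ n, J n ≤ maximalIdeal S ^ (n + 1)) (k : ℕ)
    (R : ℕ → Type) [∀ t, CommRing (R t)] [∀ t, IsLocalRing (R t)] [∀ t, IsNoetherianRing (R t)]
    [∀ t, IsAdicComplete (maximalIdeal (R t)) (R t)]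
    (M : ℕ → Type) [∀ t, AddCommGroup (M t)] [∀ t, Module (R t) (M t)]
    [∀ t, Module.Finite (R t) (M t)]
    (MQ : ℕ → Type) [∀ t, AddCommGroup (MQ t)] [∀ t, Module (R (t + 1)) (MQ t)]
    (ρ : ∀ t, M (t + 1) →ₗ[R (t + 1)] MQ t) (hρ : ∀ t, Function.Surjective (ρ t))
    (hρinj : ∀ t, k ≤ t → Function.Injective (ρ t))
    (LH : ∀ t n, s59p_Level S A (R t) (M t) 𝔞 (J n)) (d : ℕ → ℕ) (hd : ∀ t n, (LH t n).d = d t)
    (g11 g12 g21 g22 : ℕ → A) (𝔫 : ℕ → Ideal A)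
    (hT : ∀ t < k, ∀ n, s59f_TStep (LH t n) (LH (t + 1) n) (g11 t) (g12 t) (g21 t) (g22 t)
      (ρ t) (𝔫 t))
    {ι : Type*} (s : Finset ι) (𝒦 : ι → Ideal A) (c : ℕ → ι)
    (hring : s59f_RingData' S A s 𝒦 k c (fun t => g11 t * g22 t - g12 t * g21 t) 𝔫)
    (hkill : ∀ t ≤ k, ∀ n, s.inf 𝒦 ≤ Module.annihilator A (LH t n).N)
    (I : ι → Ideal (R 0)) (hI : ∀ i ∈ s, ∀ n, I i ≤ (𝒦 i).map (LH 0 n).ψ)
    (𝔭₀ : Ideal (R 0)) [h𝔭₀ : 𝔭₀.IsPrime] (hM₀ : Module.annihilator (R 0) (M 0) ≤ 𝔭₀)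
    (h𝔭₀ : ∀ i ∈ s, I i ≤ 𝔭₀ → i = c 0)
    (𝒪 : Type) [CommRing 𝒪] [IsDomain 𝒪] [IsLocalRing 𝒪] [IsNoetherianRing 𝒪]
    (x : R k →+* 𝒪) (hx : ∀ r ∈ maximalIdeal (R k), x r ∈ maximalIdeal 𝒪)
    (hxK : ∀ g ∈ 𝒦 (c k), ∀ n, x ((LH k n).ψ g) = 0) :
    Module.annihilator (R k) (M k) ≤ RingHom.ker x := by
  obtain ⟨ms, LHi, hms, h1, h2, -⟩ := s59f_FLR_main_pt S A 𝔞 h𝔞 J hJ k R M MQ ρ hρ hρinj LH d hd
    g11 g12 g21 g22 𝔫 hT s 𝒦 c hring hkill I hI 𝔭₀ hM₀ h𝔭₀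
  haveI : (RingHom.ker x).IsPrime := RingHom.ker_isPrime x
  refine s59f_points (LHi k) (𝒦 (c k)) (h1 k le_rfl) (RingHom.ker x) ?_
  intro g hg
  rw [Ideal.mem_comap, RingHom.mem_ker]
  have hpow : ∀ n (r : R k), r ∈ maximalIdeal (R k) ^ n → x r ∈ maximalIdeal 𝒪 ^ n := by
    intro n r hr
    have h3 : Ideal.map x (maximalIdeal (R k)) ≤ maximalIdeal 𝒪 := by
      rw [Ideal.map_le_iff_le_comap]
      exact fun r hr => hx r hr
    have h4 := Ideal.mem_map_of_mem x hr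
    rw [Ideal.map_pow] at h4
    exact Ideal.pow_right_mono h3 n h4
  have hmem : ∀ n, x ((LHi k).ψ g) ∈ maximalIdeal 𝒪 ^ n := by
    intro n
    have h3 := hpow n _ (h2 k le_rfl n g)
    rw [map_sub, hxK g hg (ms n), zero_sub] at h3
    exact (Ideal.neg_mem_iff (maximalIdeal 𝒪 ^ n)).mp h3
  have hbot := Ideal.iInf_pow_eq_bot_of_isLocalRing (maximalIdeal 𝒪)
    (Ideal.IsPrime.ne_top inferInstance)
  have : x ((LHi k).ψ g) ∈ ⨅ n, maximalIdeal 𝒪 ^ n := by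
    rw [Ideal.mem_iInf]
    exact hmem
  rw [hbot] at this
  exact this

end Fermat.Agent.Lib.S59
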