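/-
PROGRAMME R2 = S59, node [FLR], **the chain over `P⟦s_1..s_r⟧`** (helper4, prefix `s59f_`): family
level raising when the acting ring is `A″ = P⟦s⟧` (`s_i` acts as `⟨δ_i⟩^{1/2} − ⟨δ_i⟩^{-1/2}`, NO
sign lemma), the component primes `𝒦 i` and the ring contract `s59f_RingData'` live in `P`, and
the modules are killed by `s_i² − t_i` (`t_i ∈ 𝔪_P`).

* `s59f_sq_integral` : a prime of `P⟦s⟧` containing the `s_i² − t_i` is integral over `P`;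
* `s59f_step_sq`     : one step: `Ann N_t ≤ 𝔎` (prime of `P⟦s⟧`, contraction below the witness prime
                       `𝔔 ∋ δ`) ⇒ `Ann N_{t+1} ≤ 𝔎'`, a prime with contraction `𝒦 i₁`;
* `s59f_chain_sq`    : the induction;
* `s59f_base_sq_of_kill`, `s59f_base_sq_of_point` : the two base cases;
* `s59f_points_sq`   : [F-PT]: a prime `𝔭` of `R` with `ψ(C 𝒦) ∪ ψ(s_i) ∪ ψ(C t_i) ⊆ 𝔭` is in the
                       support of `M`.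
-/
import Mathlib
import Fermat.Agent.Lib.S59.FGraph2
import Fermat.Agent.Lib.S59.LInt

set_option autoImplicit false
set_option linter.unusedSectionVars false
set_option linter.unusedVariables false
set_option linter.style.haveILetI false
set_option maxHeartbeats 1600000

namespace Fermat.Agent.Lib.S59

open IsLocalRing MvPowerSeries

section sq

variable {P : Type} [CommRing P] [IsLocalRing P] [IsNoetherianRing P]
  [IsAdicComplete (maximalIdeal P) P] [Finite (ResidueField P)] {r : ℕ}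

/-- a prime of `P⟦s⟧` containing the relations `s_i² − t_i` is integral over `P`. -/
theorem s59f_sq_integral (𝔓 : Ideal (MvPowerSeries (Fin r) P)) [h𝔓 : 𝔓.IsPrime] (tP : Fin r → P)
    (htP : ∀ i, tP i ∈ maximalIdeal P)
    (hsq : ∀ i, (X i : MvPowerSeries (Fin r) P) ^ 2 - C (tP i) ∈ 𝔓) :
    ((Ideal.Quotient.mk 𝔓).comp (C (σ := Fin r) (R := P))).IsIntegral := by
  haveI hfin : Module.Finite P (MvPowerSeries (Fin r) P ⧸ 𝔓) :=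
    s59l_quot_finite 𝔓 h𝔓.ne_top tP htP hsq
  have h1 : (algebraMap P (MvPowerSeries (Fin r) P ⧸ 𝔓)).IsIntegral :=
    (Algebra.IsIntegral.of_finite P (MvPowerSeries (Fin r) P ⧸ 𝔓)).isIntegral
  have h2 : algebraMap P (MvPowerSeries (Fin r) P ⧸ 𝔓) =
      (Ideal.Quotient.mk 𝔓).comp (C (σ := Fin r) (R := P)) := by
    refine RingHom.ext fun p => ?_
    show Ideal.Quotient.mk 𝔓 (algebraMap P (MvPowerSeries (Fin r) P) p) = _
    rw [MvPowerSeries.algebraMap_apply, Algebra.algebraMap_self, RingHom.id_apply]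
    rfl
  rw [← h2]
  exact h1

variable (S : Type) [CommRing S] [IsDomain S] [IsLocalRing S] [IsNoetherianRing S]
  [IsNoetherianRing (MvPowerSeries (Fin r) P)]

/-- a minimal prime of the support of a patched module over `P⟦s⟧` killed by `⋂ 𝒦` and by the
`s_i² − t_i` contracts to one of the `𝒦 i`. -/
theorem s59f_comap_minimal {R : Type} [CommRing R] {M : Type} [AddCommGroup M] [Module R M]
    {𝔞 : Ideal S} (L : s59p_Level S (MvPowerSeries (Fin r) P) R M 𝔞 ⊥)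
    {ι : Type*} (s : Finset ι) (𝒦 : ι → Ideal P) (h𝒦 : ∀ i ∈ s, (𝒦 i).IsPrime)
    (hdim : ∀ i ∈ s, ringKrullDim (P ⧸ 𝒦 i) ≤ ringKrullDim S)
    (hkill : ∀ F ∈ s.inf 𝒦, (C F : MvPowerSeries (Fin r) P) ∈
      Module.annihilator (MvPowerSeries (Fin r) P) L.N)
    (tP : Fin r → P) (htP : ∀ i, tP i ∈ maximalIdeal P)
    (hsq : ∀ i, (X i : MvPowerSeries (Fin r) P) ^ 2 - C (tP i) ∈
      Module.annihilator (MvPowerSeries (Fin r) P) L.N)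
    (𝔓 : Ideal (MvPowerSeries (Fin r) P))
    (h𝔓 : 𝔓 ∈ (Module.annihilator (MvPowerSeries (Fin r) P) L.N).minimalPrimes) :
    ∃ i ∈ s, Ideal.comap (C (σ := Fin r) (R := P)) 𝔓 = 𝒦 i := by
  haveI : 𝔓.IsPrime := h𝔓.1.1
  have hcle : s.inf 𝒦 ≤ Ideal.comap (C (σ := Fin r) (R := P)) 𝔓 := by
    intro F hF
    rw [Ideal.mem_comap]
    exact h𝔓.1.2 (hkill F hF)
  obtain ⟨i, his, hi⟩ := ((Ideal.comap_isPrime (C (σ := Fin r) (R := P)) 𝔓).inf_le').mp hcle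
  haveI := h𝒦 i his
  have hint := s59f_sq_integral 𝔓 tP htP (fun j => h𝔓.1.2 (hsq j))
  obtain ⟨-, -, hc, -⟩ := s59p_pm2 S (MvPowerSeries (Fin r) P) R M 𝔞 L 𝔓 h𝔓
  exact ⟨i, his, s59l_comap_eq_of_dim (C (σ := Fin r) (R := P)) 𝔓 hint (𝒦 i) hi (ringKrullDim S)
    ringKrullDim_ne_top ringKrullDim_ne_bot (hdim i his) hc⟩

/-- **[F-STEP-sq]** one step of family level raising over `P⟦s⟧`. -/
theorem s59f_step_sq
    (R : Type) [CommRing R] (M : Type) [AddCommGroup M] [Module R M]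
    (R' : Type) [CommRing R'] (M' : Type) [AddCommGroup M'] [Module R' M']
    (RQ : Type) [CommRing RQ] (MQ : Type) [AddCommGroup MQ] [Module RQ MQ]
    (𝔞 : Ideal S)
    (LH : s59p_Level S (MvPowerSeries (Fin r) P) R M 𝔞 ⊥)
    (LH' : s59p_Level S (MvPowerSeries (Fin r) P) R' M' 𝔞 ⊥)
    (LQ : s59p_Level S (MvPowerSeries (Fin r) P) RQ MQ 𝔞 ⊥)
    (g11 g12 g21 g22 : MvPowerSeries (Fin r) P)
    (hR : s59f_Raise LH LH' LQ g11 g12 g21 g22)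
    {ι : Type*} (s : Finset ι) (𝒦 : ι → Ideal P) (h𝒦 : ∀ i ∈ s, (𝒦 i).IsPrime)
    (hdim : ∀ i ∈ s, ringKrullDim (P ⧸ 𝒦 i) ≤ ringKrullDim S)
    (hkillQ : ∀ F ∈ s.inf 𝒦, (C F : MvPowerSeries (Fin r) P) ∈
      Module.annihilator (MvPowerSeries (Fin r) P) LQ.N)
    (tK tQ : Fin r → P) (htK : ∀ i, tK i ∈ maximalIdeal P) (htQ : ∀ i, tQ i ∈ maximalIdeal P)
    (hsqQ : ∀ i, (X i : MvPowerSeries (Fin r) P) ^ 2 - C (tQ i) ∈
      Module.annihilator (MvPowerSeries (Fin r) P) LQ.N)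
    (𝔫 : Ideal P) (h𝔫 : ∀ x ∈ 𝔫, (C x : MvPowerSeries (Fin r) P) ∈
      (Module.annihilator (MvPowerSeries (Fin r) P) LQ.N).radical)
    (𝔎 : Ideal (MvPowerSeries (Fin r) P)) [h𝔎p : 𝔎.IsPrime]
    (h𝔎 : Module.annihilator (MvPowerSeries (Fin r) P) LH.N ≤ 𝔎)
    (hsq𝔎 : ∀ i, (X i : MvPowerSeries (Fin r) P) ^ 2 - C (tK i) ∈ 𝔎)
    (𝔔 : Ideal P) [h𝔔 : 𝔔.IsPrime]
    (h𝔎𝔔 : Ideal.comap (C (σ := Fin r) (R := P)) 𝔎 ≤ 𝔔)
    (δ : P) (hδ : g11 * g22 - g12 * g21 = C δ) (hδ𝔔 : δ ∈ 𝔔)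
    (i₁ : ι) (hR3 : ∀ i ∈ s, 𝒦 i ≤ 𝔔 → 𝔫 ≤ 𝒦 i → i = i₁) :
    ∃ 𝔎' : Ideal (MvPowerSeries (Fin r) P), 𝔎'.IsPrime ∧
      Module.annihilator (MvPowerSeries (Fin r) P) LH'.N ≤ 𝔎' ∧
      Ideal.comap (C (σ := Fin r) (R := P)) 𝔎' = 𝒦 i₁ := by
  -- a prime of `P⟦s⟧` over the witness prime
  have hint𝔎 := s59f_sq_integral 𝔎 tK htK hsq𝔎
  obtain ⟨𝔔', h𝔔'p, h𝔎𝔔', hcomap⟩ :=
    s59l_lying_over (C (σ := Fin r) (R := P)) 𝔎 hint𝔎 𝔔 h𝔎𝔔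
  haveI := h𝔔'p
  have hδ' : g11 * g22 - g12 * g21 ∈ 𝔔' := by
    rw [hδ, ← Ideal.mem_comap, hcomap]
    exact hδ𝔔
  -- `𝔔' ∈ Supp NQ`
  have hQ𝔔 : Module.annihilator (MvPowerSeries (Fin r) P) LQ.N ≤ 𝔔' := by
    intro a ha
    exact s59f_gram_mem 𝔔' (h𝔎.trans h𝔎𝔔') g11 g12 g21 g22 a hδ' (s59f_omega hR a ha)
  obtain ⟨𝔓, h𝔓, h𝔓𝔔⟩ := Ideal.exists_minimalPrimes_le hQ𝔔
  haveI : 𝔓.IsPrime := h𝔓.1.1
  obtain ⟨i, his, heq⟩ := s59f_comap_minimal S LQ s 𝒦 h𝒦 hdim hkillQ tQ htQ hsqQ 𝔓 h𝔓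
  have h1 : 𝒦 i ≤ 𝔔 := by
    rw [← heq, ← hcomap]
    exact Ideal.comap_mono h𝔓𝔔
  have h2 : 𝔫 ≤ 𝒦 i := by
    intro x hx
    rw [← heq, Ideal.mem_comap]
    exact (h𝔓.1.1.radical_le_iff.mpr h𝔓.1.2) (h𝔫 x hx)
  have h3 := hR3 i his h1 h2
  subst h3
  exact ⟨𝔓, h𝔓.1.1, (s59f_ann_le hR).trans h𝔓.1.2, heq⟩

/-- **[F-CHAIN-sq]** family level raising along a chain of `k` primes over `P⟦s⟧`. -/
theorem s59f_chain_sq (𝔞 : Ideal S) (k : ℕ)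
    (R : ℕ → Type) [∀ t, CommRing (R t)] (M : ℕ → Type) [∀ t, AddCommGroup (M t)]
    [∀ t, Module (R t) (M t)]
    (RQ : ℕ → Type) [∀ t, CommRing (RQ t)] (MQ : ℕ → Type) [∀ t, AddCommGroup (MQ t)]
    [∀ t, Module (RQ t) (MQ t)]
    (LH : ∀ t, s59p_Level S (MvPowerSeries (Fin r) P) (R t) (M t) 𝔞 ⊥)
    (LQ : ∀ t, s59p_Level S (MvPowerSeries (Fin r) P) (RQ t) (MQ t) 𝔞 ⊥)
    (g11 g12 g21 g22 : ℕ → MvPowerSeries (Fin r) P) (δ : ℕ → P)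
    (hδ : ∀ t < k, g11 t * g22 t - g12 t * g21 t = C (δ t))
    {ι : Type*} (s : Finset ι) (𝒦 : ι → Ideal P) (c : ℕ → ι) (𝔫 : ℕ → Ideal P)
    (hring : s59f_RingData' S P s 𝒦 k c δ 𝔫)
    (hraise : ∀ t < k, s59f_Raise (LH t) (LH (t + 1)) (LQ t) (g11 t) (g12 t) (g21 t) (g22 t))
    (hkillQ : ∀ t < k, ∀ F ∈ s.inf 𝒦, (C F : MvPowerSeries (Fin r) P) ∈
      Module.annihilator (MvPowerSeries (Fin r) P) (LQ t).N)
    (h𝔫 : ∀ t < k, ∀ x ∈ 𝔫 t, (C x : MvPowerSeries (Fin r) P) ∈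
      (Module.annihilator (MvPowerSeries (Fin r) P) (LQ t).N).radical)
    (tP : ℕ → Fin r → P) (htP : ∀ t i, tP t i ∈ maximalIdeal P)
    (hsq : ∀ t ≤ k, ∀ i, (X i : MvPowerSeries (Fin r) P) ^ 2 - C (tP t i) ∈
      Module.annihilator (MvPowerSeries (Fin r) P) (LH t).N)
    (hbase : ∃ 𝔎 : Ideal (MvPowerSeries (Fin r) P), 𝔎.IsPrime ∧
      Module.annihilator (MvPowerSeries (Fin r) P) (LH 0).N ≤ 𝔎 ∧
      Ideal.comap (C (σ := Fin r) (R := P)) 𝔎 = 𝒦 (c 0)) :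
    ∀ t ≤ k, ∃ 𝔎 : Ideal (MvPowerSeries (Fin r) P), 𝔎.IsPrime ∧
      Module.annihilator (MvPowerSeries (Fin r) P) (LH t).N ≤ 𝔎 ∧
      Ideal.comap (C (σ := Fin r) (R := P)) 𝔎 = 𝒦 (c t) := by
  intro t
  induction t with
  | zero => exact fun _ => hbase
  | succ t ih =>
    intro ht
    have htk : t < k := ht
    obtain ⟨𝔎, h𝔎p, h𝔎, h𝔎c⟩ := ih htk.le
    haveI := h𝔎p
    obtain ⟨𝔔, h𝔔, h𝔎𝔔, hδ𝔔, hcl⟩ := hring.wit t htk
    haveI := h𝔔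
    exact s59f_step_sq S (R t) (M t) (R (t + 1)) (M (t + 1)) (RQ t) (MQ t) 𝔞 (LH t) (LH (t + 1))
      (LQ t) (g11 t) (g12 t) (g21 t) (g22 t) (hraise t htk) s 𝒦 hring.prime hring.dim
      (hkillQ t htk) (tP t) (tP (t + 1)) (htP t) (htP (t + 1))
      (fun i => s59f_ann_le (hraise t htk) (hsq (t + 1) ht i)) (𝔫 t) (h𝔫 t htk) 𝔎 h𝔎
      (fun i => h𝔎 (hsq t htk.le i)) 𝔔 (h𝔎c ▸ h𝔎𝔔) (δ t) (hδ t htk) hδ𝔔 (c (t + 1)) hcl

/-- **base case, kill form**: the level-`0` module lives on the component `𝒦 i₀`. -/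
theorem s59f_base_sq_of_kill {R : Type} [CommRing R] {M : Type} [AddCommGroup M] [Module R M]
    [Nontrivial M] {𝔞 : Ideal S} (L : s59p_Level S (MvPowerSeries (Fin r) P) R M 𝔞 ⊥)
    (𝒦₀ : Ideal P) [h𝒦₀ : 𝒦₀.IsPrime] (hdim : ringKrullDim (P ⧸ 𝒦₀) ≤ ringKrullDim S)
    (h0 : ∀ F ∈ 𝒦₀, (C F : MvPowerSeries (Fin r) P) ∈
      Module.annihilator (MvPowerSeries (Fin r) P) L.N)
    (tP : Fin r → P) (htP : ∀ i, tP i ∈ maximalIdeal P)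
    (hsq : ∀ i, (X i : MvPowerSeries (Fin r) P) ^ 2 - C (tP i) ∈
      Module.annihilator (MvPowerSeries (Fin r) P) L.N) :
    ∃ 𝔎 : Ideal (MvPowerSeries (Fin r) P), 𝔎.IsPrime ∧
      Module.annihilator (MvPowerSeries (Fin r) P) L.N ≤ 𝔎 ∧
      Ideal.comap (C (σ := Fin r) (R := P)) 𝔎 = 𝒦₀ := by
  classical
  have hN : Module.annihilator (MvPowerSeries (Fin r) P) L.N ≠ ⊤ := by
    intro h
    have h1 : (1 : MvPowerSeries (Fin r) P) ∈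
        Module.annihilator (MvPowerSeries (Fin r) P) L.N := h ▸ Submodule.mem_top
    rw [Module.mem_annihilator] at h1
    obtain ⟨y, hy⟩ := exists_ne (0 : M)
    obtain ⟨x, rfl⟩ := L.π_surjective y
    apply hy
    have := h1 x
    rw [one_smul] at this
    rw [this, map_zero]
  obtain ⟨⟨𝔓, h𝔓⟩⟩ := Ideal.nonempty_minimalPrimes hN
  obtain ⟨i, -, heq⟩ := s59f_comap_minimal S L ({()} : Finset Unit) (fun _ => 𝒦₀)
    (fun _ _ => h𝒦₀) (fun _ _ => hdim) (by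
      intro F hF
      rw [Finset.inf_singleton] at hF
      exact h0 F hF) tP htP hsq 𝔓 h𝔓
  exact ⟨𝔓, h𝔓.1.1, h𝔓.1.2, heq⟩

/-- **base case, point form**: a prime `𝔭` of `R` in the support of `M` lying on the component
`𝒦 i₀` only. -/
theorem s59f_base_sq_of_point {R : Type} [CommRing R] {M : Type} [AddCommGroup M] [Module R M]
    {𝔞 : Ideal S} (L : s59p_Level S (MvPowerSeries (Fin r) P) R M 𝔞 ⊥)
    {ι : Type*} (s : Finset ι) (𝒦 : ι → Ideal P) (h𝒦 : ∀ i ∈ s, (𝒦 i).IsPrime)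
    (hdim : ∀ i ∈ s, ringKrullDim (P ⧸ 𝒦 i) ≤ ringKrullDim S)
    (hkill : ∀ F ∈ s.inf 𝒦, (C F : MvPowerSeries (Fin r) P) ∈
      Module.annihilator (MvPowerSeries (Fin r) P) L.N)
    (tP : Fin r → P) (htP : ∀ i, tP i ∈ maximalIdeal P)
    (hsq : ∀ i, (X i : MvPowerSeries (Fin r) P) ^ 2 - C (tP i) ∈
      Module.annihilator (MvPowerSeries (Fin r) P) L.N)
    (𝔭 : Ideal R) [h𝔭 : 𝔭.IsPrime] (hM : Module.annihilator R M ≤ 𝔭)
    (i₀ : ι) (hi₀ : ∀ i ∈ s, (∀ F ∈ 𝒦 i, L.ψ (C F) ∈ 𝔭) → i = i₀) :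
    ∃ 𝔎 : Ideal (MvPowerSeries (Fin r) P), 𝔎.IsPrime ∧
      Module.annihilator (MvPowerSeries (Fin r) P) L.N ≤ 𝔎 ∧
      Ideal.comap (C (σ := Fin r) (R := P)) 𝔎 = 𝒦 i₀ := by
  have h1 : Module.annihilator (MvPowerSeries (Fin r) P) L.N ≤ Ideal.comap L.ψ 𝔭 := by
    intro a ha
    rw [Ideal.mem_comap]
    apply hM
    rw [Module.mem_annihilator]
    intro m
    obtain ⟨x, rfl⟩ := L.π_surjective m
    rw [← L.π_smul, Module.mem_annihilator.mp ha x, map_zero]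
  haveI : (Ideal.comap L.ψ 𝔭).IsPrime := Ideal.comap_isPrime L.ψ 𝔭
  obtain ⟨𝔓, h𝔓, h𝔓le⟩ := Ideal.exists_minimalPrimes_le h1
  obtain ⟨i, his, heq⟩ := s59f_comap_minimal S L s 𝒦 h𝒦 hdim hkill tP htP hsq 𝔓 h𝔓
  have h3 : i = i₀ := by
    refine hi₀ i his fun F hF => ?_
    have : (C F : MvPowerSeries (Fin r) P) ∈ 𝔓 := by
      rw [← Ideal.mem_comap, heq]
      exact hF
    exact Ideal.mem_comap.mp (h𝔓le this)
  subst h3
  exact ⟨𝔓, h𝔓.1.1, h𝔓.1.2, heq⟩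

omit [IsDomain S] [IsLocalRing S] [IsNoetherianRing S]
  [IsNoetherianRing (MvPowerSeries (Fin r) P)] in
/-- **[F-PT-sq]** a prime of `R` on the component, killing the `s_i` and the `t_i`, is in the
support of `M`. -/
theorem s59f_points_sq {R : Type} [CommRing R] {M : Type} [AddCommGroup M] [Module R M]
    {𝔞 J : Ideal S} (L : s59p_Level S (MvPowerSeries (Fin r) P) R M 𝔞 J)
    (𝔎 : Ideal (MvPowerSeries (Fin r) P)) [h𝔎p : 𝔎.IsPrime]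
    (h𝔎 : Module.annihilator (MvPowerSeries (Fin r) P) L.N ≤ 𝔎)
    (tP : Fin r → P) (htP : ∀ i, tP i ∈ maximalIdeal P)
    (hsq : ∀ i, (X i : MvPowerSeries (Fin r) P) ^ 2 - C (tP i) ∈ 𝔎)
    (𝔭 : Ideal R) [h𝔭 : 𝔭.IsPrime]
    (hK : ∀ F ∈ Ideal.comap (C (σ := Fin r) (R := P)) 𝔎, L.ψ (C F) ∈ 𝔭)
    (hX : ∀ i, L.ψ (X i) ∈ 𝔭) (ht : ∀ i, L.ψ (C (tP i)) ∈ 𝔭) :
    Module.annihilator R M ≤ 𝔭 := by
  set 𝔵 : Ideal (MvPowerSeries (Fin r) P) := Ideal.comap L.ψ 𝔭 with h𝔵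
  haveI : 𝔵.IsPrime := Ideal.comap_isPrime L.ψ 𝔭
  set 𝔵P : Ideal P := Ideal.comap (C (σ := Fin r) (R := P)) 𝔵 with h𝔵P
  haveI : 𝔵P.IsPrime := Ideal.comap_isPrime _ 𝔵
  have hle : Ideal.comap (C (σ := Fin r) (R := P)) 𝔎 ≤ 𝔵P := by
    intro F hF
    rw [h𝔵P, Ideal.mem_comap, h𝔵, Ideal.mem_comap]
    exact hK F hF
  have hint := s59f_sq_integral 𝔎 tP htP hsq
  obtain ⟨𝔵', h𝔵'p, h𝔎𝔵', hcomap⟩ :=
    s59l_lying_over (C (σ := Fin r) (R := P)) 𝔎 hint 𝔵P hle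
  haveI := h𝔵'p
  -- the variables lie in `𝔵'`
  have hX' : ∀ i, (X i : MvPowerSeries (Fin r) P) ∈ 𝔵' := by
    intro i
    have h1 : (C (tP i) : MvPowerSeries (Fin r) P) ∈ 𝔵' := by
      rw [← Ideal.mem_comap, hcomap, h𝔵P, Ideal.mem_comap, h𝔵, Ideal.mem_comap]
      exact ht i
    have h2 : (X i : MvPowerSeries (Fin r) P) ^ 2 ∈ 𝔵' := by
      have := Ideal.add_mem _ (h𝔎𝔵' (hsq i)) h1
      rwa [sub_add_cancel] at this
    exact h𝔵'p.mem_of_pow_mem 2 h2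
  have hspan' : Ideal.span (Set.range (X : Fin r → MvPowerSeries (Fin r) P)) ≤ 𝔵' := by
    rw [Ideal.span_le]
    rintro _ ⟨i, rfl⟩
    exact hX' i
  have hspan : Ideal.span (Set.range (X : Fin r → MvPowerSeries (Fin r) P)) ≤ 𝔵 := by
    rw [Ideal.span_le]
    rintro _ ⟨i, rfl⟩
    show (X i : MvPowerSeries (Fin r) P) ∈ Ideal.comap L.ψ 𝔭
    exact Ideal.mem_comap.mpr (hX i)
  have h𝔵'𝔵 : 𝔵' ≤ 𝔵 := by
    intro f hf
    have h1 := s59l_sub_C_mem f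
    have h2 : (C (constantCoeff f) : MvPowerSeries (Fin r) P) ∈ 𝔵' := by
      have := Ideal.sub_mem _ hf (hspan' h1)
      rwa [sub_sub_cancel] at this
    have h3 : (C (constantCoeff f) : MvPowerSeries (Fin r) P) ∈ 𝔵 := by
      have : constantCoeff f ∈ Ideal.comap (C (σ := Fin r) (R := P)) 𝔵' := Ideal.mem_comap.mpr h2
      rw [hcomap] at this
      exact this
    have := Ideal.add_mem _ (hspan h1) h3
    rwa [sub_add_cancel] at this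
  exact s59f_points L 𝔎 h𝔎 𝔭 (h𝔎𝔵'.trans h𝔵'𝔵)

end sq

end Fermat.Agent.Lib.S59
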