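/-
PROGRAMME R2 = S59, node [FLR], **patching the `T`-side with extra convergent sequences** (helper4,
prefix `s59f_`): `s59f_patch_of_T_x` = `s59f_patch_of_T` (FRaiseT2.lean) on top of `s59f_fpm1x`
(FSqPm.lean): in addition a finite family of sequences `e n i ∈ A` converges along the subsequence,
and annihilators pass to the limit along CONVERGENT sequences of elements.
-/
import Mathlib
import Fermat.Agent.Lib.S59.FRaiseT2
import Fermat.Agent.Lib.S59.FSqPm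

set_option autoImplicit false
set_option linter.unusedSectionVars false
set_option linter.unusedVariables false
set_option linter.style.haveILetI false
set_option maxHeartbeats 1600000

namespace Fermat.Agent.Lib.S59

open IsLocalRing

/-- **patching the `T`-side, with extra convergent sequences.** -/
theorem s59f_patch_of_T_x (S : Type) [CommRing S] [IsLocalRing S] [IsNoetherianRing S]
    [IsAdicComplete (maximalIdeal S) S] [Finite (ResidueField S)]
    (A : Type) [CommRing A] [IsLocalRing A] [IsNoetherianRing A]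
    [IsAdicComplete (maximalIdeal A) A] [Finite (ResidueField A)]
    (𝔞 : Ideal S) (h𝔞 : 𝔞 ≤ maximalIdeal S) (J : ℕ → Ideal S)
    (hJ : ∀ n, J n ≤ maximalIdeal S ^ (n + 1)) (k : ℕ)
    (R : ℕ → Type) [∀ t, CommRing (R t)] [∀ t, IsLocalRing (R t)] [∀ t, IsNoetherianRing (R t)]
    [∀ t, IsAdicComplete (maximalIdeal (R t)) (R t)]
    (M : ℕ → Type) [∀ t, AddCommGroup (M t)] [∀ t, Module (R t) (M t)]
    [∀ t, Module.Finite (R t) (M t)]
    (MQ : ℕ → Type) [∀ t, AddCommGroup (MQ t)] [∀ t, Module (R (t + 1)) (MQ t)]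
    (ρ : ∀ t, M (t + 1) →ₗ[R (t + 1)] MQ t) (hρ : ∀ t, Function.Surjective (ρ t))
    (hρinj : ∀ t, k ≤ t → Function.Injective (ρ t))
    (LH : ∀ t n, s59p_Level S A (R t) (M t) 𝔞 (J n)) (d : ℕ → ℕ) (hd : ∀ t n, (LH t n).d = d t)
    (g11 g12 g21 g22 : ℕ → A) (𝔫 : ℕ → Ideal A)
    (hT : ∀ t < k, ∀ n, s59f_TStep (LH t n) (LH (t + 1) n) (g11 t) (g12 t) (g21 t) (g22 t)
      (ρ t) (𝔫 t))
    {κ : Type} [Finite κ] (e : ℕ → κ → A) :
    ∃ (ms : ℕ → ℕ) (LHi : ∀ t, s59p_Level S A (R t) (M t) 𝔞 ⊥)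
      (LQi : ∀ t, s59p_Level S A (R (t + 1)) (MQ t) 𝔞 ⊥) (einf : κ → A),
      (∀ n, n ≤ ms n) ∧
      (∀ n i, e (ms n) i - einf i ∈ maximalIdeal A ^ n) ∧
      (∀ t < k, s59f_Raise (LHi t) (LHi (t + 1)) (LQi t) (g11 t) (g12 t) (g21 t) (g22 t)) ∧
      (∀ t < k, 𝔫 t ≤ Module.annihilator A (LQi t).N) ∧
      (∀ t ≤ k, ∀ (a : ℕ → A) (ainf : A), (∀ n, a n ∈ Module.annihilator A (LH t (ms n)).N) →
        (∀ n, a n - ainf ∈ maximalIdeal A ^ n) → ainf ∈ Module.annihilator A (LHi t).N) ∧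
      (∀ t ≤ k, ∀ n a, (LH t (ms n)).ψ a - (LHi t).ψ a ∈ maximalIdeal (R t) ^ n) ∧
      (∀ t ≤ k, ∀ n s, (LH t (ms n)).φ s - (LHi t).φ s ∈ maximalIdeal A ^ n) := by
  classical
  haveI : ∀ t, Module.Finite (R (t + 1)) (MQ t) := fun t =>
    Module.Finite.of_surjective (ρ t) (hρ t)
  have hJ1 : ∀ n, J n ≤ maximalIdeal S := fun n =>
    (hJ n).trans (Ideal.pow_le_self (Nat.succ_ne_zero n))
  have hJn : ∀ n, J n ≤ maximalIdeal S ^ n := fun n =>
    (hJ n).trans (Ideal.pow_le_pow_right (Nat.le_succ n))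
  have hloc : ∀ t n, (maximalIdeal S).map (LH t n).φ ≤ maximalIdeal A := by
    intro t n
    rw [Ideal.map_le_iff_le_comap]
    intro s hs
    exact s59p_map_mem _ hs
  -- the new quotients at every level
  have hQ : ∀ t n, ∃ LQ : s59p_Level S A (R (t + 1)) (MQ t) 𝔞 (J n),
      (t < k → d t + d t + LQ.d = d (t + 1) ∧
        s59f_Raise (LH t n) (LH (t + 1) n) LQ (g11 t) (g12 t) (g21 t) (g22 t) ∧
        𝔫 t ≤ Module.annihilator A LQ.N) ∧
      (¬ t < k → LQ.d = d (t + 1)) := by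
    intro t n
    by_cases ht : t < k
    · obtain ⟨LQ, h1, h2, h3⟩ := s59f_raise_of_TStep (LH t n) (LH (t + 1) n) (g11 t) (g12 t)
        (g21 t) (g22 t) (ρ t) (𝔫 t) (hJ1 n) h𝔞 (hloc t n) (hρ t) (hT t ht n)
      refine ⟨LQ, fun _ => ⟨?_, h2, h3⟩, fun h => absurd ht h⟩
      rw [← hd t n, ← hd (t + 1) n]; exact h1
    · refine ⟨s59f_pushLevel (LH (t + 1) n) (ρ t) ⟨hρinj t (not_lt.mp ht), hρ t⟩,
        fun h => absurd h ht, fun _ => hd (t + 1) n⟩
  choose LQ hLQ1 hLQ2 using hQ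
  let dQ : ℕ → ℕ := fun t => if t < k then d (t + 1) - (d t + d t) else d (t + 1)
  have hdQ : ∀ t n, (LQ t n).d = dQ t := by
    intro t n
    by_cases ht : t < k
    · have := (hLQ1 t n ht).1
      simp only [dQ, if_pos ht]
      omega
    · simp only [dQ, if_neg ht]
      exact hLQ2 t n ht
  obtain ⟨ms, LHi, LQi, einf, hms, he, hx2, hx3, h1, h2, h3, h4, h5⟩ := s59f_fpm1x S A 𝔞 J hJn k R M
    (fun t => R (t + 1)) MQ LH LQ d dQ hd hdQ g11 g12 g21 g22 (fun t ht n => (hLQ1 t n ht).2.1) e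
  refine ⟨ms, LHi, LQi, einf, hms, he, h1, ?_, hx2, h4, h5⟩
  intro t ht a ha
  exact h3 t ht.le a fun n => (hLQ1 t (ms n) ht).2.2 ha

end Fermat.Agent.Lib.S59
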