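/-
PROGRAMME R2 = S59, node [FLR], **main theorems over `P⟦s_1..s_r⟧`** (helper4, prefix `s59f_`):
the `T`-side leaves (`s59f_TStep` at every finite level, acting ring `A″ = P⟦s⟧`, `s_i` acting as
`⟨δ_i⟩^{1/2} − ⟨δ_i⟩^{-1/2}`, NO sign lemma: level-dependent relations `s_i² = t_{t,n,i}`) + the
ring contract `s59f_RingData'` over `P` ⇒ the patched module of level `N_t` has a prime of its
support over the component `𝒦 (c t)`, and [F-PT]: the points of the last level on the last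
component, killing the Taylor–Wiles variables, are in the support of `M_k`.

* `s59f_point_limit`     : `x (y n) = 0`, `y n → y` ⇒ `x y = 0`;
* `s59f_FLR_core_sq`     : patching + the chain, base case left as a hypothesis on the limit;
* `s59f_FLR_main_sq`     : base case "level-`0` modules killed by `𝒦 (c 0)`";
* `s59f_FLR_main_sq_pt`  : base case by a modular point of level `0`;
* `s59f_FLR_points_sq`, `s59f_FLR_points_sq_pt` : [F-PT].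
-/
import Mathlib
import Fermat.Agent.Lib.S59.FSqT
import Fermat.Agent.Lib.S59.FSqChain
import Fermat.Agent.Lib.S59.FBasePt

set_option autoImplicit false
set_option linter.unusedSectionVars false
set_option linter.unusedVariables false
set_option linter.style.haveILetI false
set_option maxHeartbeats 1600000

namespace Fermat.Agent.Lib.S59

open IsLocalRing MvPowerSeries Fermat.Agent.Lib.Deform

/-- a local homomorphism to a noetherian local ring vanishing on a convergent sequence vanishes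
on the limit. -/
theorem s59f_point_limit {R 𝒪 : Type*} [CommRing R] [IsLocalRing R] [CommRing 𝒪] [IsLocalRing 𝒪]
    [IsNoetherianRing 𝒪] (x : R →+* 𝒪) (hx : ∀ r ∈ maximalIdeal R, x r ∈ maximalIdeal 𝒪)
    (y : ℕ → R) (yinf : R) (hy : ∀ n, x (y n) = 0)
    (hconv : ∀ n, y n - yinf ∈ maximalIdeal R ^ n) : x yinf = 0 := by
  have hpow : ∀ n (r : R), r ∈ maximalIdeal R ^ n → x r ∈ maximalIdeal 𝒪 ^ n := by
    intro n r hr
    have h3 : Ideal.map x (maximalIdeal R) ≤ maximalIdeal 𝒪 := by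
      rw [Ideal.map_le_iff_le_comap]
      exact fun r hr => hx r hr
    have h4 := Ideal.mem_map_of_mem x hr
    rw [Ideal.map_pow] at h4
    exact Ideal.pow_right_mono h3 n h4
  have hmem : ∀ n, x yinf ∈ maximalIdeal 𝒪 ^ n := by
    intro n
    have h3 := hpow n _ (hconv n)
    rw [map_sub, hy n, zero_sub] at h3
    exact (Ideal.neg_mem_iff (maximalIdeal 𝒪 ^ n)).mp h3
  have hbot := Ideal.iInf_pow_eq_bot_of_isLocalRing (maximalIdeal 𝒪)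
    (Ideal.IsPrime.ne_top inferInstance)
  have : x yinf ∈ ⨅ n, maximalIdeal 𝒪 ^ n := by
    rw [Ideal.mem_iInf]
    exact hmem
  rw [hbot] at this
  exact this

/-- **[FLR-sq], core**: patching the `T`-side leaves over `P⟦s⟧` and running the chain; the base
case is a hypothesis on the limit level `0`. -/
theorem s59f_FLR_core_sq (S : Type) [CommRing S] [IsDomain S] [IsLocalRing S] [IsNoetherianRing S]
    [IsAdicComplete (maximalIdeal S) S] [Finite (ResidueField S)]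
    (P : Type) [CommRing P] [IsLocalRing P] [IsNoetherianRing P]
    [IsAdicComplete (maximalIdeal P) P] [Finite (ResidueField P)] (r : ℕ)
    [IsNoetherianRing (MvPowerSeries (Fin r) P)]
    (𝔞 : Ideal S) (h𝔞 : 𝔞 ≤ maximalIdeal S) (J : ℕ → Ideal S)
    (hJ : ∀ n, J n ≤ maximalIdeal S ^ (n + 1)) (k : ℕ)
    (R : ℕ → Type) [∀ t, CommRing (R t)] [∀ t, IsLocalRing (R t)] [∀ t, IsNoetherianRing (R t)]
    [∀ t, IsAdicComplete (maximalIdeal (R t)) (R t)]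
    (M : ℕ → Type) [∀ t, AddCommGroup (M t)] [∀ t, Module (R t) (M t)]
    [∀ t, Module.Finite (R t) (M t)]
    (MQ : ℕ → Type) [∀ t, AddCommGroup (MQ t)] [∀ t, Module (R (t + 1)) (MQ t)]
    (ρ : ∀ t, M (t + 1) →ₗ[R (t + 1)] MQ t) (hρ : ∀ t, Function.Surjective (ρ t))
    (hρinj : ∀ t, k ≤ t → Function.Injective (ρ t))
    (LH : ∀ t n, s59p_Level S (MvPowerSeries (Fin r) P) (R t) (M t) 𝔞 (J n)) (d : ℕ → ℕ)
    (hd : ∀ t n, (LH t n).d = d t)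
    (g11 g12 g21 g22 : ℕ → MvPowerSeries (Fin r) P) (δ : ℕ → P)
    (hδ : ∀ t < k, g11 t * g22 t - g12 t * g21 t = C (δ t))
    (𝔫 : ℕ → Ideal P)
    (hT : ∀ t < k, ∀ n, s59f_TStep (LH t n) (LH (t + 1) n) (g11 t) (g12 t) (g21 t) (g22 t)
      (ρ t) ((𝔫 t).map (C (σ := Fin r) (R := P))))
    {ι : Type*} (s : Finset ι) (𝒦 : ι → Ideal P) (c : ℕ → ι)
    (hring : s59f_RingData' S P s 𝒦 k c δ 𝔫)
    (hkill : ∀ t ≤ k, ∀ n, ∀ F ∈ s.inf 𝒦, (C F : MvPowerSeries (Fin r) P) ∈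
      Module.annihilator (MvPowerSeries (Fin r) P) (LH t n).N)
    (t' : ℕ → ℕ → Fin r → P) (ht'm : ∀ t n i, t' t n i ∈ maximalIdeal P)
    (ht' : ∀ t ≤ k, ∀ n i, (X i : MvPowerSeries (Fin r) P) ^ 2 - C (t' t n i) ∈
      Module.annihilator (MvPowerSeries (Fin r) P) (LH t n).N) :
    ∃ (ms : ℕ → ℕ) (LHi : ∀ t, s59p_Level S (MvPowerSeries (Fin r) P) (R t) (M t) 𝔞 ⊥)
      (tP : ℕ → Fin r → P), (∀ n, n ≤ ms n) ∧
      (∀ t i, tP t i ∈ maximalIdeal P) ∧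
      (∀ t ≤ k, ∀ n i, t' t (ms n) i - tP t i ∈ maximalIdeal P ^ n) ∧
      (∀ t ≤ k, ∀ i, (X i : MvPowerSeries (Fin r) P) ^ 2 - C (tP t i) ∈
        Module.annihilator (MvPowerSeries (Fin r) P) (LHi t).N) ∧
      (∀ t ≤ k, ∀ F ∈ s.inf 𝒦, (C F : MvPowerSeries (Fin r) P) ∈
        Module.annihilator (MvPowerSeries (Fin r) P) (LHi t).N) ∧
      (∀ t ≤ k, ∀ (a : ℕ → MvPowerSeries (Fin r) P) (ainf : MvPowerSeries (Fin r) P),
        (∀ n, a n ∈ Module.annihilator (MvPowerSeries (Fin r) P) (LH t (ms n)).N) →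
        (∀ n, a n - ainf ∈ maximalIdeal (MvPowerSeries (Fin r) P) ^ n) →
        ainf ∈ Module.annihilator (MvPowerSeries (Fin r) P) (LHi t).N) ∧
      ((∃ 𝔎 : Ideal (MvPowerSeries (Fin r) P), 𝔎.IsPrime ∧
          Module.annihilator (MvPowerSeries (Fin r) P) (LHi 0).N ≤ 𝔎 ∧
          Ideal.comap (C (σ := Fin r) (R := P)) 𝔎 = 𝒦 (c 0)) →
        ∀ t ≤ k, ∃ 𝔎 : Ideal (MvPowerSeries (Fin r) P), 𝔎.IsPrime ∧
          Module.annihilator (MvPowerSeries (Fin r) P) (LHi t).N ≤ 𝔎 ∧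
          Ideal.comap (C (σ := Fin r) (R := P)) 𝔎 = 𝒦 (c t)) ∧
      (∀ t ≤ k, ∀ n a, (LH t (ms n)).ψ a - (LHi t).ψ a ∈ maximalIdeal (R t) ^ n) ∧
      (∀ t ≤ k, ∀ n s, (LH t (ms n)).φ s - (LHi t).φ s ∈
        maximalIdeal (MvPowerSeries (Fin r) P) ^ n) := by
  classical
  obtain ⟨ms, LHi, LQi, einf, hms, he, hR, hn, hlim, hψ, hφ⟩ :=
    s59f_patch_of_T_x S (MvPowerSeries (Fin r) P) 𝔞 h𝔞 J hJ k R M MQ ρ hρ hρinj LH d hd
      g11 g12 g21 g22 (fun t => (𝔫 t).map (C (σ := Fin r) (R := P))) hT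
      (κ := Fin (k + 1) × Fin r)
      (fun n p => (C (t' p.1.val n p.2) : MvPowerSeries (Fin r) P))
  -- the limits of the `t'` in `P`
  set tP : ℕ → Fin r → P := fun t i =>
    if h : t ≤ k then constantCoeff (einf (⟨t, Nat.lt_succ_of_le h⟩, i)) else 0 with htPdef
  have htPconv : ∀ t ≤ k, ∀ n i, t' t (ms n) i - tP t i ∈ maximalIdeal P ^ n := by
    intro t ht n i
    have h1 := s59p_surj_mem_pow (constantCoeff (σ := Fin r) (R := P))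
      (fun p => ⟨C p, constantCoeff_C p⟩) (he n (⟨t, Nat.lt_succ_of_le ht⟩, i))
    rw [map_sub, constantCoeff_C] at h1
    simp only [htPdef, dif_pos ht]
    exact h1
  have htPm : ∀ t i, tP t i ∈ maximalIdeal P := by
    intro t i
    by_cases ht : t ≤ k
    · have h1 := htPconv t ht 1 i
      rw [pow_one] at h1
      have := Ideal.sub_mem _ (ht'm t (ms 1) i) h1
      rwa [sub_sub_cancel] at this
    · simp only [htPdef, dif_neg ht]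
      exact zero_mem _
  -- the relations on the limit
  have hsq : ∀ t ≤ k, ∀ i, (X i : MvPowerSeries (Fin r) P) ^ 2 - C (tP t i) ∈
      Module.annihilator (MvPowerSeries (Fin r) P) (LHi t).N := by
    intro t ht i
    refine hlim t ht (fun n => (X i : MvPowerSeries (Fin r) P) ^ 2 - C (t' t (ms n) i)) _
      (fun n => ht' t ht (ms n) i) fun n => ?_
    have e : (X i : MvPowerSeries (Fin r) P) ^ 2 - C (t' t (ms n) i) - (X i ^ 2 - C (tP t i)) =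
        -(C (t' t (ms n) i - tP t i)) := by
      rw [map_sub]; ring
    rw [e]
    exact neg_mem (s59p_map_mem_pow (C (σ := Fin r) (R := P)) (htPconv t ht n i))
  have hkillLim : ∀ t ≤ k, ∀ F ∈ s.inf 𝒦, (C F : MvPowerSeries (Fin r) P) ∈
      Module.annihilator (MvPowerSeries (Fin r) P) (LHi t).N := by
    intro t ht F hF
    refine hlim t ht (fun _ => C F) _ (fun n => hkill t ht (ms n) F hF) fun n => ?_
    rw [sub_self]
    exact zero_mem _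
  refine ⟨ms, LHi, tP, hms, htPm, htPconv, hsq, hkillLim, hlim, ?_, hψ, hφ⟩
  intro hbase
  refine s59f_chain_sq S 𝔞 k R M (fun t => R (t + 1)) MQ LHi LQi g11 g12 g21 g22 δ hδ s 𝒦 c 𝔫
    hring hR ?_ ?_ tP htPm hsq hbase
  · intro t ht F hF
    exact s59f_ann_le (hR t ht) (hkillLim (t + 1) ht F hF)
  · intro t ht x hx
    exact Ideal.le_radical (hn t ht (Ideal.mem_map_of_mem _ hx))

/-- **[FLR-sq], main theorem** (base case: the level-`0` modules are killed by `𝒦 (c 0)`). -/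
theorem s59f_FLR_main_sq (S : Type) [CommRing S] [IsDomain S] [IsLocalRing S] [IsNoetherianRing S]
    [IsAdicComplete (maximalIdeal S) S] [Finite (ResidueField S)]
    (P : Type) [CommRing P] [IsLocalRing P] [IsNoetherianRing P]
    [IsAdicComplete (maximalIdeal P) P] [Finite (ResidueField P)] (r : ℕ)
    [IsNoetherianRing (MvPowerSeries (Fin r) P)]
    (𝔞 : Ideal S) (h𝔞 : 𝔞 ≤ maximalIdeal S) (J : ℕ → Ideal S)
    (hJ : ∀ n, J n ≤ maximalIdeal S ^ (n + 1)) (k : ℕ)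
    (R : ℕ → Type) [∀ t, CommRing (R t)] [∀ t, IsLocalRing (R t)] [∀ t, IsNoetherianRing (R t)]
    [∀ t, IsAdicComplete (maximalIdeal (R t)) (R t)]
    (M : ℕ → Type) [∀ t, AddCommGroup (M t)] [∀ t, Module (R t) (M t)]
    [∀ t, Module.Finite (R t) (M t)] [Nontrivial (M 0)]
    (MQ : ℕ → Type) [∀ t, AddCommGroup (MQ t)] [∀ t, Module (R (t + 1)) (MQ t)]
    (ρ : ∀ t, M (t + 1) →ₗ[R (t + 1)] MQ t) (hρ : ∀ t, Function.Surjective (ρ t))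
    (hρinj : ∀ t, k ≤ t → Function.Injective (ρ t))
    (LH : ∀ t n, s59p_Level S (MvPowerSeries (Fin r) P) (R t) (M t) 𝔞 (J n)) (d : ℕ → ℕ)
    (hd : ∀ t n, (LH t n).d = d t)
    (g11 g12 g21 g22 : ℕ → MvPowerSeries (Fin r) P) (δ : ℕ → P)
    (hδ : ∀ t < k, g11 t * g22 t - g12 t * g21 t = C (δ t))
    (𝔫 : ℕ → Ideal P)
    (hT : ∀ t < k, ∀ n, s59f_TStep (LH t n) (LH (t + 1) n) (g11 t) (g12 t) (g21 t) (g22 t)
      (ρ t) ((𝔫 t).map (C (σ := Fin r) (R := P))))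
    {ι : Type*} (s : Finset ι) (𝒦 : ι → Ideal P) (c : ℕ → ι)
    (hring : s59f_RingData' S P s 𝒦 k c δ 𝔫)
    (hkill : ∀ t ≤ k, ∀ n, ∀ F ∈ s.inf 𝒦, (C F : MvPowerSeries (Fin r) P) ∈
      Module.annihilator (MvPowerSeries (Fin r) P) (LH t n).N)
    (t' : ℕ → ℕ → Fin r → P) (ht'm : ∀ t n i, t' t n i ∈ maximalIdeal P)
    (ht' : ∀ t ≤ k, ∀ n i, (X i : MvPowerSeries (Fin r) P) ^ 2 - C (t' t n i) ∈
      Module.annihilator (MvPowerSeries (Fin r) P) (LH t n).N)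
    (h0 : ∀ n, ∀ F ∈ 𝒦 (c 0), (C F : MvPowerSeries (Fin r) P) ∈
      Module.annihilator (MvPowerSeries (Fin r) P) (LH 0 n).N) :
    ∃ (ms : ℕ → ℕ) (LHi : ∀ t, s59p_Level S (MvPowerSeries (Fin r) P) (R t) (M t) 𝔞 ⊥)
      (tP : ℕ → Fin r → P), (∀ n, n ≤ ms n) ∧
      (∀ t i, tP t i ∈ maximalIdeal P) ∧
      (∀ t ≤ k, ∀ n i, t' t (ms n) i - tP t i ∈ maximalIdeal P ^ n) ∧
      (∀ t ≤ k, ∀ i, (X i : MvPowerSeries (Fin r) P) ^ 2 - C (tP t i) ∈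
        Module.annihilator (MvPowerSeries (Fin r) P) (LHi t).N) ∧
      (∀ t ≤ k, ∃ 𝔎 : Ideal (MvPowerSeries (Fin r) P), 𝔎.IsPrime ∧
          Module.annihilator (MvPowerSeries (Fin r) P) (LHi t).N ≤ 𝔎 ∧
          Ideal.comap (C (σ := Fin r) (R := P)) 𝔎 = 𝒦 (c t)) ∧
      (∀ t ≤ k, ∀ n a, (LH t (ms n)).ψ a - (LHi t).ψ a ∈ maximalIdeal (R t) ^ n) ∧
      (∀ t ≤ k, ∀ n s, (LH t (ms n)).φ s - (LHi t).φ s ∈
        maximalIdeal (MvPowerSeries (Fin r) P) ^ n) := by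
  obtain ⟨ms, LHi, tP, hms, htPm, htPconv, hsq, hkillLim, hlim, hchain, hψ, hφ⟩ :=
    s59f_FLR_core_sq S P r 𝔞 h𝔞 J hJ k R M MQ ρ hρ hρinj LH d hd g11 g12 g21 g22 δ hδ 𝔫 hT s 𝒦 c
      hring hkill t' ht'm ht'
  refine ⟨ms, LHi, tP, hms, htPm, htPconv, hsq, hchain ?_, hψ, hφ⟩
  haveI := hring.prime (c 0) hring.mem0
  refine s59f_base_sq_of_kill S (LHi 0) (𝒦 (c 0)) (hring.dim (c 0) hring.mem0) ?_ (tP 0) (htPm 0)
    (hsq 0 (Nat.zero_le k))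
  intro F hF
  refine hlim 0 (Nat.zero_le k) (fun _ => C F) _ (fun n => h0 (ms n) F hF) fun n => ?_
  rw [sub_self]
  exact zero_mem _

/-- **[FLR-sq], main theorem, base case by a modular point** of the base level lying on the
component `c 0` only. -/
theorem s59f_FLR_main_sq_pt (S : Type) [CommRing S] [IsDomain S] [IsLocalRing S]
    [IsNoetherianRing S]
    [IsAdicComplete (maximalIdeal S) S] [Finite (ResidueField S)]
    (P : Type) [CommRing P] [IsLocalRing P] [IsNoetherianRing P]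
    [IsAdicComplete (maximalIdeal P) P] [Finite (ResidueField P)] (r : ℕ)
    [IsNoetherianRing (MvPowerSeries (Fin r) P)]
    (𝔞 : Ideal S) (h𝔞 : 𝔞 ≤ maximalIdeal S) (J : ℕ → Ideal S)
    (hJ : ∀ n, J n ≤ maximalIdeal S ^ (n + 1)) (k : ℕ)
    (R : ℕ → Type) [∀ t, CommRing (R t)] [∀ t, IsLocalRing (R t)] [∀ t, IsNoetherianRing (R t)]
    [∀ t, IsAdicComplete (maximalIdeal (R t)) (R t)]
    (M : ℕ → Type) [∀ t, AddCommGroup (M t)] [∀ t, Module (R t) (M t)]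
    [∀ t, Module.Finite (R t) (M t)]
    (MQ : ℕ → Type) [∀ t, AddCommGroup (MQ t)] [∀ t, Module (R (t + 1)) (MQ t)]
    (ρ : ∀ t, M (t + 1) →ₗ[R (t + 1)] MQ t) (hρ : ∀ t, Function.Surjective (ρ t))
    (hρinj : ∀ t, k ≤ t → Function.Injective (ρ t))
    (LH : ∀ t n, s59p_Level S (MvPowerSeries (Fin r) P) (R t) (M t) 𝔞 (J n)) (d : ℕ → ℕ)
    (hd : ∀ t n, (LH t n).d = d t)
    (g11 g12 g21 g22 : ℕ → MvPowerSeries (Fin r) P) (δ : ℕ → P)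
    (hδ : ∀ t < k, g11 t * g22 t - g12 t * g21 t = C (δ t))
    (𝔫 : ℕ → Ideal P)
    (hT : ∀ t < k, ∀ n, s59f_TStep (LH t n) (LH (t + 1) n) (g11 t) (g12 t) (g21 t) (g22 t)
      (ρ t) ((𝔫 t).map (C (σ := Fin r) (R := P))))
    {ι : Type*} (s : Finset ι) (𝒦 : ι → Ideal P) (c : ℕ → ι)
    (hring : s59f_RingData' S P s 𝒦 k c δ 𝔫)
    (hkill : ∀ t ≤ k, ∀ n, ∀ F ∈ s.inf 𝒦, (C F : MvPowerSeries (Fin r) P) ∈
      Module.annihilator (MvPowerSeries (Fin r) P) (LH t n).N)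
    (t' : ℕ → ℕ → Fin r → P) (ht'm : ∀ t n i, t' t n i ∈ maximalIdeal P)
    (ht' : ∀ t ≤ k, ∀ n i, (X i : MvPowerSeries (Fin r) P) ^ 2 - C (t' t n i) ∈
      Module.annihilator (MvPowerSeries (Fin r) P) (LH t n).N)
    (I : ι → Ideal (R 0))
    (hI : ∀ i ∈ s, ∀ n, I i ≤ (𝒦 i).map ((LH 0 n).ψ.comp (C (σ := Fin r) (R := P))))
    (𝔭₀ : Ideal (R 0)) [h𝔭₀ : 𝔭₀.IsPrime] (hM₀ : Module.annihilator (R 0) (M 0) ≤ 𝔭₀)
    (h𝔭₀ : ∀ i ∈ s, I i ≤ 𝔭₀ → i = c 0) :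
    ∃ (ms : ℕ → ℕ) (LHi : ∀ t, s59p_Level S (MvPowerSeries (Fin r) P) (R t) (M t) 𝔞 ⊥)
      (tP : ℕ → Fin r → P), (∀ n, n ≤ ms n) ∧
      (∀ t i, tP t i ∈ maximalIdeal P) ∧
      (∀ t ≤ k, ∀ n i, t' t (ms n) i - tP t i ∈ maximalIdeal P ^ n) ∧
      (∀ t ≤ k, ∀ i, (X i : MvPowerSeries (Fin r) P) ^ 2 - C (tP t i) ∈
        Module.annihilator (MvPowerSeries (Fin r) P) (LHi t).N) ∧
      (∀ t ≤ k, ∃ 𝔎 : Ideal (MvPowerSeries (Fin r) P), 𝔎.IsPrime ∧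
          Module.annihilator (MvPowerSeries (Fin r) P) (LHi t).N ≤ 𝔎 ∧
          Ideal.comap (C (σ := Fin r) (R := P)) 𝔎 = 𝒦 (c t)) ∧
      (∀ t ≤ k, ∀ n a, (LH t (ms n)).ψ a - (LHi t).ψ a ∈ maximalIdeal (R t) ^ n) ∧
      (∀ t ≤ k, ∀ n s, (LH t (ms n)).φ s - (LHi t).φ s ∈
        maximalIdeal (MvPowerSeries (Fin r) P) ^ n) := by
  obtain ⟨ms, LHi, tP, hms, htPm, htPconv, hsq, hkillLim, hlim, hchain, hψ, hφ⟩ :=
    s59f_FLR_core_sq S P r 𝔞 h𝔞 J hJ k R M MQ ρ hρ hρinj LH d hd g11 g12 g21 g22 δ hδ 𝔫 hT s 𝒦 c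
      hring hkill t' ht'm ht'
  refine ⟨ms, LHi, tP, hms, htPm, htPconv, hsq, hchain ?_, hψ, hφ⟩
  refine s59f_base_sq_of_point S (LHi 0) s 𝒦 hring.prime hring.dim (hkillLim 0 (Nat.zero_le k))
    (tP 0) (htPm 0) (hsq 0 (Nat.zero_le k)) 𝔭₀ hM₀ (c 0) ?_
  intro i his hi
  refine h𝔭₀ i his ?_
  have h6 : I i ≤ (𝒦 i).map ((LHi 0).ψ.comp (C (σ := Fin r) (R := P))) :=
    s59f_map_limit (fun n => (LH 0 (ms n)).ψ.comp (C (σ := Fin r) (R := P)))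
      ((LHi 0).ψ.comp (C (σ := Fin r) (R := P)))
      (fun n a => hψ 0 (Nat.zero_le k) n (C a)) (𝒦 i) (I i) fun n => hI i his (ms n)
  refine h6.trans (Ideal.map_le_iff_le_comap.mpr ?_)
  intro F hF
  exact Ideal.mem_comap.mpr (hi F hF)

/-- the [F-PT] step common to the two main theorems. -/
theorem s59f_points_sq_limit {S : Type} [CommRing S]
    {P : Type} [CommRing P] [IsLocalRing P] [IsNoetherianRing P]
    [IsAdicComplete (maximalIdeal P) P] [Finite (ResidueField P)] {r : ℕ}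
    {R : Type} [CommRing R] [IsLocalRing R] {M : Type} [AddCommGroup M] [Module R M]
    {𝔞 : Ideal S} {J : ℕ → Ideal S}
    (LH : ∀ n, s59p_Level S (MvPowerSeries (Fin r) P) R M 𝔞 (J n))
    (LHi : s59p_Level S (MvPowerSeries (Fin r) P) R M 𝔞 ⊥) (ms : ℕ → ℕ)
    (hψ : ∀ n a, (LH (ms n)).ψ a - LHi.ψ a ∈ maximalIdeal R ^ n)
    (t' : ℕ → Fin r → P) (tP : Fin r → P) (htPm : ∀ i, tP i ∈ maximalIdeal P)
    (htPconv : ∀ n i, t' (ms n) i - tP i ∈ maximalIdeal P ^ n)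
    (hsq : ∀ i, (X i : MvPowerSeries (Fin r) P) ^ 2 - C (tP i) ∈
      Module.annihilator (MvPowerSeries (Fin r) P) LHi.N)
    (𝒦₀ : Ideal P)
    (h𝔎 : ∃ 𝔎 : Ideal (MvPowerSeries (Fin r) P), 𝔎.IsPrime ∧
      Module.annihilator (MvPowerSeries (Fin r) P) LHi.N ≤ 𝔎 ∧
      Ideal.comap (C (σ := Fin r) (R := P)) 𝔎 = 𝒦₀)
    (𝒪 : Type) [CommRing 𝒪] [IsDomain 𝒪] [IsLocalRing 𝒪] [IsNoetherianRing 𝒪]
    (x : R →+* 𝒪) (hx : ∀ r ∈ maximalIdeal R, x r ∈ maximalIdeal 𝒪)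
    (hxK : ∀ g ∈ 𝒦₀, ∀ n, x ((LH n).ψ (C g)) = 0)
    (hxX : ∀ i n, x ((LH n).ψ (X i)) = 0)
    (hxt : ∀ i n, x ((LH n).ψ (C (t' n i))) = 0) :
    Module.annihilator R M ≤ RingHom.ker x := by
  obtain ⟨𝔎, h𝔎p, h𝔎le, h𝔎c⟩ := h𝔎
  haveI := h𝔎p
  haveI : (RingHom.ker x).IsPrime := RingHom.ker_isPrime x
  refine s59f_points_sq S LHi 𝔎 h𝔎le tP htPm (fun i => h𝔎le (hsq i)) (RingHom.ker x) ?_ ?_ ?_
  · intro F hF
    rw [h𝔎c] at hF
    rw [RingHom.mem_ker]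
    exact s59f_point_limit x hx (fun n => (LH (ms n)).ψ (C F)) _ (fun n => hxK F hF (ms n))
      fun n => hψ n (C F)
  · intro i
    rw [RingHom.mem_ker]
    exact s59f_point_limit x hx (fun n => (LH (ms n)).ψ (X i)) _ (fun n => hxX i (ms n))
      fun n => hψ n (X i)
  · intro i
    rw [RingHom.mem_ker]
    refine s59f_point_limit x hx (fun n => (LH (ms n)).ψ (C (t' (ms n) i))) _
      (fun n => hxt i (ms n)) fun n => ?_
    have e : (LH (ms n)).ψ (C (t' (ms n) i)) - LHi.ψ (C (tP i)) =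
        (LH (ms n)).ψ (C (t' (ms n) i - tP i)) +
          ((LH (ms n)).ψ (C (tP i)) - LHi.ψ (C (tP i))) := by
      rw [map_sub, map_sub]; ring
    show (LH (ms n)).ψ (C (t' (ms n) i)) - LHi.ψ (C (tP i)) ∈ maximalIdeal R ^ n
    rw [e]
    refine Ideal.add_mem _ ?_ (hψ n _)
    exact s59p_surj_mem_pow (LH (ms n)).ψ (LH (ms n)).ψ_surjective
      (s59p_map_mem_pow (C (σ := Fin r) (R := P)) (htPconv n i))

/-- **[FLR-sq] + [F-PT]**: a point `x` of `R_k` whose pull-backs to `P` all lie on the last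
component and which kills the Taylor–Wiles variables `s_i` (and the `t_{k,n,i}`) is in the
support of `M_k`. -/
theorem s59f_FLR_points_sq
    (S : Type) [CommRing S] [IsDomain S] [IsLocalRing S]
    [IsNoetherianRing S]
    [IsAdicComplete (maximalIdeal S) S] [Finite (ResidueField S)]
    (P : Type) [CommRing P] [IsLocalRing P] [IsNoetherianRing P]
    [IsAdicComplete (maximalIdeal P) P] [Finite (ResidueField P)] (r : ℕ)
    [IsNoetherianRing (MvPowerSeries (Fin r) P)]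
    (𝔞 : Ideal S) (h𝔞 : 𝔞 ≤ maximalIdeal S) (J : ℕ → Ideal S)
    (hJ : ∀ n, J n ≤ maximalIdeal S ^ (n + 1)) (k : ℕ)
    (R : ℕ → Type) [∀ t, CommRing (R t)] [∀ t, IsLocalRing (R t)] [∀ t, IsNoetherianRing (R t)]
    [∀ t, IsAdicComplete (maximalIdeal (R t)) (R t)]
    (M : ℕ → Type) [∀ t, AddCommGroup (M t)] [∀ t, Module (R t) (M t)]
    [∀ t, Module.Finite (R t) (M t)] [Nontrivial (M 0)]
    (MQ : ℕ → Type) [∀ t, AddCommGroup (MQ t)] [∀ t, Module (R (t + 1)) (MQ t)]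
    (ρ : ∀ t, M (t + 1) →ₗ[R (t + 1)] MQ t) (hρ : ∀ t, Function.Surjective (ρ t))
    (hρinj : ∀ t, k ≤ t → Function.Injective (ρ t))
    (LH : ∀ t n, s59p_Level S (MvPowerSeries (Fin r) P) (R t) (M t) 𝔞 (J n)) (d : ℕ → ℕ)
    (hd : ∀ t n, (LH t n).d = d t)
    (g11 g12 g21 g22 : ℕ → MvPowerSeries (Fin r) P) (δ : ℕ → P)
    (hδ : ∀ t < k, g11 t * g22 t - g12 t * g21 t = C (δ t))
    (𝔫 : ℕ → Ideal P)
    (hT : ∀ t < k, ∀ n, s59f_TStep (LH t n) (LH (t + 1) n) (g11 t) (g12 t) (g21 t) (g22 t)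
      (ρ t) ((𝔫 t).map (C (σ := Fin r) (R := P))))
    {ι : Type*} (s : Finset ι) (𝒦 : ι → Ideal P) (c : ℕ → ι)
    (hring : s59f_RingData' S P s 𝒦 k c δ 𝔫)
    (hkill : ∀ t ≤ k, ∀ n, ∀ F ∈ s.inf 𝒦, (C F : MvPowerSeries (Fin r) P) ∈
      Module.annihilator (MvPowerSeries (Fin r) P) (LH t n).N)
    (t' : ℕ → ℕ → Fin r → P) (ht'm : ∀ t n i, t' t n i ∈ maximalIdeal P)
    (ht' : ∀ t ≤ k, ∀ n i, (X i : MvPowerSeries (Fin r) P) ^ 2 - C (t' t n i) ∈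
      Module.annihilator (MvPowerSeries (Fin r) P) (LH t n).N)
    (h0 : ∀ n, ∀ F ∈ 𝒦 (c 0), (C F : MvPowerSeries (Fin r) P) ∈
      Module.annihilator (MvPowerSeries (Fin r) P) (LH 0 n).N)
    (𝒪 : Type) [CommRing 𝒪] [IsDomain 𝒪] [IsLocalRing 𝒪] [IsNoetherianRing 𝒪]
    (x : R k →+* 𝒪) (hx : ∀ r ∈ maximalIdeal (R k), x r ∈ maximalIdeal 𝒪)
    (hxK : ∀ g ∈ 𝒦 (c k), ∀ n, x ((LH k n).ψ (C g)) = 0)
    (hxX : ∀ i n, x ((LH k n).ψ (X i)) = 0)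
    (hxt : ∀ i n, x ((LH k n).ψ (C (t' k n i))) = 0) :
    Module.annihilator (R k) (M k) ≤ RingHom.ker x := by
  obtain ⟨ms, LHi, tP, hms, htPm, htPconv, hsq, hch, hψ, -⟩ :=
    s59f_FLR_main_sq S P r 𝔞 h𝔞 J hJ k R M MQ ρ hρ hρinj LH d hd g11 g12 g21 g22 δ hδ 𝔫 hT s 𝒦 c
      hring hkill t' ht'm ht' h0
  exact s59f_points_sq_limit (LH k) (LHi k) ms (hψ k le_rfl) (t' k) (tP k) (htPm k)
    (htPconv k le_rfl) (hsq k le_rfl) (𝒦 (c k)) (hch k le_rfl) 𝒪 x hx hxK hxX hxt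

/-- **[FLR-sq] + [F-PT], base case by a modular point.** -/
theorem s59f_FLR_points_sq_pt
    (S : Type) [CommRing S] [IsDomain S] [IsLocalRing S]
    [IsNoetherianRing S]
    [IsAdicComplete (maximalIdeal S) S] [Finite (ResidueField S)]
    (P : Type) [CommRing P] [IsLocalRing P] [IsNoetherianRing P]
    [IsAdicComplete (maximalIdeal P) P] [Finite (ResidueField P)] (r : ℕ)
    [IsNoetherianRing (MvPowerSeries (Fin r) P)]
    (𝔞 : Ideal S) (h𝔞 : 𝔞 ≤ maximalIdeal S) (J : ℕ → Ideal S)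
    (hJ : ∀ n, J n ≤ maximalIdeal S ^ (n + 1)) (k : ℕ)
    (R : ℕ → Type) [∀ t, CommRing (R t)] [∀ t, IsLocalRing (R t)] [∀ t, IsNoetherianRing (R t)]
    [∀ t, IsAdicComplete (maximalIdeal (R t)) (R t)]
    (M : ℕ → Type) [∀ t, AddCommGroup (M t)] [∀ t, Module (R t) (M t)]
    [∀ t, Module.Finite (R t) (M t)]
    (MQ : ℕ → Type) [∀ t, AddCommGroup (MQ t)] [∀ t, Module (R (t + 1)) (MQ t)]
    (ρ : ∀ t, M (t + 1) →ₗ[R (t + 1)] MQ t) (hρ : ∀ t, Function.Surjective (ρ t))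
    (hρinj : ∀ t, k ≤ t → Function.Injective (ρ t))
    (LH : ∀ t n, s59p_Level S (MvPowerSeries (Fin r) P) (R t) (M t) 𝔞 (J n)) (d : ℕ → ℕ)
    (hd : ∀ t n, (LH t n).d = d t)
    (g11 g12 g21 g22 : ℕ → MvPowerSeries (Fin r) P) (δ : ℕ → P)
    (hδ : ∀ t < k, g11 t * g22 t - g12 t * g21 t = C (δ t))
    (𝔫 : ℕ → Ideal P)
    (hT : ∀ t < k, ∀ n, s59f_TStep (LH t n) (LH (t + 1) n) (g11 t) (g12 t) (g21 t) (g22 t)
      (ρ t) ((𝔫 t).map (C (σ := Fin r) (R := P))))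
    {ι : Type*} (s : Finset ι) (𝒦 : ι → Ideal P) (c : ℕ → ι)
    (hring : s59f_RingData' S P s 𝒦 k c δ 𝔫)
    (hkill : ∀ t ≤ k, ∀ n, ∀ F ∈ s.inf 𝒦, (C F : MvPowerSeries (Fin r) P) ∈
      Module.annihilator (MvPowerSeries (Fin r) P) (LH t n).N)
    (t' : ℕ → ℕ → Fin r → P) (ht'm : ∀ t n i, t' t n i ∈ maximalIdeal P)
    (ht' : ∀ t ≤ k, ∀ n i, (X i : MvPowerSeries (Fin r) P) ^ 2 - C (t' t n i) ∈
      Module.annihilator (MvPowerSeries (Fin r) P) (LH t n).N)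
    (I : ι → Ideal (R 0))
    (hI : ∀ i ∈ s, ∀ n, I i ≤ (𝒦 i).map ((LH 0 n).ψ.comp (C (σ := Fin r) (R := P))))
    (𝔭₀ : Ideal (R 0)) [h𝔭₀ : 𝔭₀.IsPrime] (hM₀ : Module.annihilator (R 0) (M 0) ≤ 𝔭₀)
    (h𝔭₀ : ∀ i ∈ s, I i ≤ 𝔭₀ → i = c 0)
    (𝒪 : Type) [CommRing 𝒪] [IsDomain 𝒪] [IsLocalRing 𝒪] [IsNoetherianRing 𝒪]
    (x : R k →+* 𝒪) (hx : ∀ r ∈ maximalIdeal (R k), x r ∈ maximalIdeal 𝒪)
    (hxK : ∀ g ∈ 𝒦 (c k), ∀ n, x ((LH k n).ψ (C g)) = 0)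
    (hxX : ∀ i n, x ((LH k n).ψ (X i)) = 0)
    (hxt : ∀ i n, x ((LH k n).ψ (C (t' k n i))) = 0) :
    Module.annihilator (R k) (M k) ≤ RingHom.ker x := by
  obtain ⟨ms, LHi, tP, hms, htPm, htPconv, hsq, hch, hψ, -⟩ :=
    s59f_FLR_main_sq_pt S P r 𝔞 h𝔞 J hJ k R M MQ ρ hρ hρinj LH d hd g11 g12 g21 g22 δ hδ 𝔫 hT s 𝒦
      c hring hkill t' ht'm ht' I hI 𝔭₀ hM₀ h𝔭₀
  exact s59f_points_sq_limit (LH k) (LHi k) ms (hψ k le_rfl) (t' k) (tP k) (htPm k)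
    (htPconv k le_rfl) (hsq k le_rfl) (𝒦 (c k)) (hch k le_rfl) 𝒪 x hx hxK hxX hxt

end Fermat.Agent.Lib.S59
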