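/-
[LOC+s] part 1 (helper3, prefix `s59u_st_`): **line-bundle cones over helper4's quadric.**
Generalisation of `LChi.lean` from the tautological vector `v̄` to an arbitrary vector
`ν : Fin 3 → 𝔅⟦v⟧`:  `K(ν) := ker (P = 𝔅⟦v⟧⟦w⟧ → D⟦y⟧, v ↦ v̄, w_i ↦ y · ν̄_i)`, `D = 𝔅⟦v⟧ ⧸ (q0 θ)`.

* `s59u_st_mem_K_iff` : `F ∈ K(ν) ⇔ ∀ n, δ_n^ν F ∈ (q0)`;
* `s59u_st_K_kill`    : a point `(V, W)` in a Hausdorff ring with `q0(V) = 0`, `W ∥ ν(V)` and one
                        coordinate of `ν(V)` a non-zero-divisor kills `K(ν)`;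
* `s59u_st_K_le`      : `K(ν) ≤ K(ν')` when `ν ∥ ν'` modulo `q0` and some `ν̄_j ≠ 0` (`D` a domain).
-/
import Mathlib
import Fermat.Agent.Lib.S59.LChi

set_option autoImplicit false

noncomputable section

namespace Fermat.Agent.Lib.S59

open IsLocalRing MvPowerSeries Fermat.Agent.Lib.Deform

section Defs

variable {𝔅 : Type*} [CommRing 𝔅]

/-- the substitution `w_i ↦ y · ν̄_i`. -/
def s59u_st_sub (θ : 𝔅) (ν : Fin 3 → MvPowerSeries (Fin 3) 𝔅) (i : s59l_I) :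
    PowerSeries (s59l_D θ) :=
  PowerSeries.C (Ideal.Quotient.mk (Ideal.span {s59l_q0 θ}) (ν i.down)) * PowerSeries.X

theorem s59u_st_hasSubst (θ : 𝔅) (ν : Fin 3 → MvPowerSeries (Fin 3) 𝔅) :
    HasSubst (s59u_st_sub θ ν) :=
  hasSubst_of_constantCoeff_zero (fun s => by
    show PowerSeries.constantCoeff (s59u_st_sub θ ν s) = 0
    simp [s59u_st_sub])

/-- `π_ν : P → D⟦y⟧`. -/
def s59u_st_pi (θ : 𝔅) (ν : Fin 3 → MvPowerSeries (Fin 3) 𝔅) :
    s59l_P 𝔅 →ₐ[MvPowerSeries (Fin 3) 𝔅] PowerSeries (s59l_D θ) :=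
  substAlgHom (s59u_st_hasSubst θ ν)

/-- the cone ideal in the direction `ν`. -/
def s59u_st_K (θ : 𝔅) (ν : Fin 3 → MvPowerSeries (Fin 3) 𝔅) : Ideal (s59l_P 𝔅) :=
  RingHom.ker (s59u_st_pi θ ν).toRingHom

/-- the `n`-th diagonal component `δ_n^ν F = ∑_{|d| = n} F_d · ν^d ∈ 𝔅⟦v⟧`. -/
def s59u_st_delta (ν : Fin 3 → MvPowerSeries (Fin 3) 𝔅) (n : ℕ) (F : s59l_P 𝔅) :
    MvPowerSeries (Fin 3) 𝔅 :=
  ∑ d ∈ s59l_deg n, coeff d F * s59l_mon (fun i : s59l_I => ν i.down) d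

theorem s59u_st_sub_prod (θ : 𝔅) (ν : Fin 3 → MvPowerSeries (Fin 3) 𝔅) (d : s59l_I →₀ ℕ) :
    (d.prod fun s k => s59u_st_sub θ ν s ^ k) =
      PowerSeries.C (Ideal.Quotient.mk (Ideal.span {s59l_q0 θ})
        (s59l_mon (fun i : s59l_I => ν i.down) d)) *
        PowerSeries.X ^ Finsupp.degree d := by
  have h1 : ∀ s k, s59u_st_sub θ ν s ^ k =
      PowerSeries.C (Ideal.Quotient.mk (Ideal.span {s59l_q0 θ}) (ν s.down) ^ k) *
        PowerSeries.X ^ k := by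
    intro s k
    rw [s59u_st_sub, mul_pow, map_pow]
  simp only [h1]
  rw [Finsupp.prod_mul, s59l_map_mon, s59l_mon, map_finsuppProd]
  congr 1
  rw [Finsupp.prod, Finset.prod_pow_eq_pow_sum, Finsupp.degree_apply]

theorem s59u_st_coeff_pi (θ : 𝔅) (ν : Fin 3 → MvPowerSeries (Fin 3) 𝔅) (n : ℕ) (F : s59l_P 𝔅) :
    PowerSeries.coeff n (s59u_st_pi θ ν F) = Ideal.Quotient.mk _ (s59u_st_delta ν n F) := by
  classical
  rw [s59u_st_pi, substAlgHom_apply, PowerSeries.coeff, coeff_subst (s59u_st_hasSubst θ ν)]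
  simp only [s59u_st_sub_prod]
  rw [s59u_st_delta, map_sum]
  rw [finsum_eq_sum_of_support_subset (s := s59l_deg n)]
  · refine Finset.sum_congr rfl fun d hd => ?_
    rw [s59l_mem_deg] at hd
    rw [← PowerSeries.coeff, PowerSeries.coeff_C_mul, PowerSeries.coeff_X_pow, if_pos hd.symm,
      mul_one, Algebra.smul_def, map_mul]
    rfl
  · intro d hd
    rw [Function.mem_support] at hd
    rw [Finset.mem_coe, s59l_mem_deg]
    by_contra hne
    apply hd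
    rw [← PowerSeries.coeff, PowerSeries.coeff_C_mul, PowerSeries.coeff_X_pow,
      if_neg (fun h => hne h.symm), mul_zero, smul_zero]

theorem s59u_st_mem_K_iff (θ : 𝔅) (ν : Fin 3 → MvPowerSeries (Fin 3) 𝔅) (F : s59l_P 𝔅) :
    F ∈ s59u_st_K θ ν ↔ ∀ n, s59u_st_delta ν n F ∈ Ideal.span {s59l_q0 θ} := by
  rw [s59u_st_K, RingHom.mem_ker]
  constructor
  · intro h n
    rw [← Ideal.Quotient.eq_zero_iff_mem, ← s59u_st_coeff_pi]
    have h' : s59u_st_pi θ ν F = 0 := h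
    rw [h', map_zero]
  · intro h
    ext n
    rw [AlgHom.toRingHom_eq_coe, RingHom.coe_coe, s59u_st_coeff_pi, map_zero,
      Ideal.Quotient.eq_zero_iff_mem]
    exact h n

theorem s59u_st_pi_C (θ : 𝔅) (ν : Fin 3 → MvPowerSeries (Fin 3) 𝔅)
    (c : MvPowerSeries (Fin 3) 𝔅) :
    s59u_st_pi θ ν (C c) = PowerSeries.C (Ideal.Quotient.mk (Ideal.span {s59l_q0 θ}) c) := by
  have h1 : (C c : s59l_P 𝔅) = algebraMap (MvPowerSeries (Fin 3) 𝔅) (s59l_P 𝔅) c := by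
    rw [MvPowerSeries.algebraMap_apply, Algebra.algebraMap_self, RingHom.id_apply]
  rw [h1, AlgHom.commutes, MvPowerSeries.algebraMap_apply]
  rfl

theorem s59u_st_pi_X (θ : 𝔅) (ν : Fin 3 → MvPowerSeries (Fin 3) 𝔅) (i : s59l_I) :
    s59u_st_pi θ ν (X i) =
      PowerSeries.C (Ideal.Quotient.mk (Ideal.span {s59l_q0 θ}) (ν i.down)) * PowerSeries.X := by
  rw [s59u_st_pi, substAlgHom_X]
  rfl

theorem s59u_st_q0_mem_K (θ : 𝔅) (ν : Fin 3 → MvPowerSeries (Fin 3) 𝔅) :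
    (C (s59l_q0 θ) : s59l_P 𝔅) ∈ s59u_st_K θ ν := by
  rw [s59u_st_K, RingHom.mem_ker]
  show s59u_st_pi θ ν (C (s59l_q0 θ)) = 0
  rw [s59u_st_pi_C, Ideal.Quotient.eq_zero_iff_mem.mpr (Ideal.mem_span_singleton_self _), map_zero]

/-- an element `∑_i X_i · C (c_i)` lies in `K(ν)` as soon as `∑_i ν_i c_i ∈ (q0)`. -/
theorem s59u_st_lin_mem_K (θ : 𝔅) (ν : Fin 3 → MvPowerSeries (Fin 3) 𝔅)
    (c : s59l_I → MvPowerSeries (Fin 3) 𝔅)
    (h : ∑ i : s59l_I, ν i.down * c i ∈ Ideal.span {s59l_q0 θ}) :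
    (∑ i : s59l_I, X i * C (c i) : s59l_P 𝔅) ∈ s59u_st_K θ ν := by
  rw [s59u_st_K, RingHom.mem_ker]
  show s59u_st_pi θ ν (∑ i : s59l_I, X i * C (c i)) = 0
  rw [map_sum]
  simp only [map_mul, s59u_st_pi_X, s59u_st_pi_C]
  have h2 : ∀ i : s59l_I,
      PowerSeries.C (Ideal.Quotient.mk (Ideal.span {s59l_q0 θ}) (ν i.down)) * PowerSeries.X *
        PowerSeries.C (Ideal.Quotient.mk (Ideal.span {s59l_q0 θ}) (c i)) =
      PowerSeries.C (Ideal.Quotient.mk (Ideal.span {s59l_q0 θ}) (ν i.down * c i)) *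
        PowerSeries.X := by
    intro i
    rw [map_mul, map_mul]; ring
  simp only [h2]
  rw [← Finset.sum_mul, ← map_sum, ← map_sum, Ideal.Quotient.eq_zero_iff_mem.mpr h, map_zero,
    zero_mul]

end Defs

/-! ### (K-kill) -/

section Kill

variable {𝔅 : Type*} [CommRing 𝔅]

theorem s59u_st_K_kill (θ : 𝔅) (ν : Fin 3 → MvPowerSeries (Fin 3) 𝔅) {C : Type*} [CommRing C]
    (I : Ideal C) [IsHausdorff I C]
    (φ : s59l_P 𝔅 →+* C) (hW : ∀ i, φ (X i) ∈ I)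
    (hq : φ (MvPowerSeries.C (s59l_q0 θ)) = 0)
    (hmin : ∀ i j : s59l_I, φ (X i) * φ (MvPowerSeries.C (ν j.down)) =
      φ (X j) * φ (MvPowerSeries.C (ν i.down)))
    (hν : ∃ j : s59l_I, ∀ x : C, φ (MvPowerSeries.C (ν j.down)) * x = 0 → x = 0)
    (F : s59l_P 𝔅) (hF : F ∈ s59u_st_K θ ν) : φ F = 0 := by
  classical
  set ψ : MvPowerSeries (Fin 3) 𝔅 →+* C := φ.comp (MvPowerSeries.C (σ := s59l_I)) with hψ
  set V : s59l_I → C := fun i => ψ (ν i.down) with hV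
  set W : s59l_I → C := fun i => φ (X i) with hWd
  -- the components
  set Δ : ℕ → C := fun n => ∑ d ∈ s59l_deg n, ψ (coeff d F) * s59l_mon W d with hΔ
  have hδ : ∀ n, ψ (s59u_st_delta ν n F) = 0 := by
    intro n
    obtain ⟨G, hG⟩ := Ideal.mem_span_singleton'.mp ((s59u_st_mem_K_iff θ ν F).mp hF n)
    rw [← hG, map_mul]
    have : ψ (s59l_q0 θ) = 0 := hq
    rw [this, mul_zero]
  have hδ' : ∀ n, ψ (s59u_st_delta ν n F) =
      ∑ d ∈ s59l_deg n, ψ (coeff d F) * s59l_mon V d := by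
    intro n
    rw [s59u_st_delta, map_sum]
    refine Finset.sum_congr rfl fun d _ => ?_
    rw [map_mul, s59l_map_mon]
  -- `V_j ^ n • Δ_n = W_j ^ n • ψ (δ_n F) = 0`
  have hVΔ : ∀ (j : s59l_I) (n : ℕ), V j ^ n * Δ n = 0 := by
    intro j n
    have : V j ^ n * Δ n = W j ^ n * ψ (s59u_st_delta ν n F) := by
      rw [hδ', hΔ, Finset.mul_sum, Finset.mul_sum]
      refine Finset.sum_congr rfl fun d hd => ?_
      rw [s59l_mem_deg] at hd
      have e1 : V j ^ n * s59l_mon W d = s59l_mon (fun i => V j * W i) d := by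
        rw [s59l_mon_smul, hd]
      have e2 : W j ^ n * s59l_mon V d = s59l_mon (fun i => W j * V i) d := by
        rw [s59l_mon_smul, hd]
      have e3 : (fun i => V j * W i) = fun i => W j * V i := by
        funext i
        have := hmin i j
        show ψ (ν j.down) * φ (X i) = φ (X j) * ψ (ν i.down)
        rw [hψ, RingHom.comp_apply, RingHom.comp_apply]
        linear_combination this
      calc V j ^ n * (ψ (coeff d F) * s59l_mon W d)
          = ψ (coeff d F) * (V j ^ n * s59l_mon W d) := by ring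
        _ = ψ (coeff d F) * (W j ^ n * s59l_mon V d) := by rw [e1, e3, ← e2]
        _ = W j ^ n * (ψ (coeff d F) * s59l_mon V d) := by ring
    rw [this, hδ, mul_zero]
  obtain ⟨j₀, hj₀⟩ := hν
  have hpow : ∀ (k : ℕ) (x : C), V j₀ ^ k * x = 0 → x = 0 := by
    intro k
    induction k with
    | zero => intro x hx; simpa using hx
    | succ k ih =>
      intro x hx
      refine ih x (hj₀ _ ?_)
      show V j₀ * (V j₀ ^ k * x) = 0
      rw [← hx]; ring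
  have hΔ0 : ∀ n, Δ n = 0 := fun n => hpow n _ (hVΔ j₀ n)
  -- `φ` of the truncations vanishes
  have htr : ∀ m, φ (s59l_tr m F) = 0 := by
    intro m
    rw [s59l_tr, map_sum]
    refine Finset.sum_eq_zero fun n _ => ?_
    rw [map_sum, ← hΔ0 n]
    refine Finset.sum_congr rfl fun d _ => ?_
    rw [monomial_eq', map_mul, ← s59l_mon, s59l_map_mon]
    rfl
  -- conclusion
  refine eq_of_forall_sub_mem_pow I (y := 0) fun m => ?_
  rw [sub_zero]
  have h1 : φ F = φ (F - s59l_tr m F) := by rw [map_sub, htr, sub_zero]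
  rw [h1]
  have h2 := Ideal.mem_map_of_mem φ (s59l_sub_tr_mem m F)
  rw [Ideal.map_pow] at h2
  refine Ideal.pow_right_mono ?_ m h2
  rw [Ideal.map_span, Ideal.span_le]
  rintro _ ⟨_, ⟨i, rfl⟩, rfl⟩
  exact hW i

end Kill

end Fermat.Agent.Lib.S59
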