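/-
[LOC+s] part 2 (helper3, prefix `s59u_st_`): **the Steinberg cone at a prime `q ≡ 1 (p)` with
scalar `ρ̄(Frob_q)`.**  Inner variables `(f, β, γ)` = the traceless part `W` of `ρ(φ)`, on the
quadric `f² + βγ = θ²` (`θ = ε(q−1)/2`); outer variables `(e, b, c)` = `N = ρ(σ) − 1`.
On the Steinberg component `(W − θ) N = 0 = N (W + θ)`, i.e. `N` is proportional to
`n₁ = ((f+θ)γ, −(f+θ)², γ²)` and to `n₃ = (β(f−θ), β², −(f−θ)²)`.

* `s59u_st_K_le`     : `K(ν) ≤ K(ν')` for proportional vectors;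
* `s59u_st_KSt θ := K(n₁)`, with the relations `Ra..Rd`, `e² + bc` in it;
* **`s59u_st_kill`** : a point of a Hausdorff domain with `q0 = 0`, `Ra = … = Rd = 0`, `2θ ≠ 0`
                       kills `K_St`.
-/
import Mathlib
import Fermat.Agent.Lib.S59.UStA
import Fermat.Agent.Lib.S59.LChiRing

set_option autoImplicit false

noncomputable section

namespace Fermat.Agent.Lib.S59

open IsLocalRing MvPowerSeries Fermat.Agent.Lib.Deform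

section Le

variable {𝔅 : Type*} [CommRing 𝔅]

/-- `K(ν) ≤ K(ν')` when `ν ∥ ν'` modulo `q0`, `D` is a domain and some `ν̄_j ≠ 0`. -/
theorem s59u_st_K_le (θ : 𝔅) [hprime : (Ideal.span {s59l_q0 θ}).IsPrime]
    (ν ν' : Fin 3 → MvPowerSeries (Fin 3) 𝔅)
    (hprop : ∀ i j : Fin 3, ν i * ν' j - ν j * ν' i ∈ Ideal.span {s59l_q0 θ})
    (hne : ∃ j, ν j ∉ Ideal.span {s59l_q0 θ}) : s59u_st_K θ ν ≤ s59u_st_K θ ν' := by
  classical
  intro F hF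
  rw [s59u_st_mem_K_iff] at hF ⊢
  intro n
  obtain ⟨j, hj⟩ := hne
  set mk := Ideal.Quotient.mk (Ideal.span {s59l_q0 θ}) with hmk
  set V : s59l_I → s59l_D θ := fun i => mk (ν i.down) with hV
  set V' : s59l_I → s59l_D θ := fun i => mk (ν' i.down) with hV'
  have hD : ∀ ν₀ : Fin 3 → MvPowerSeries (Fin 3) 𝔅, mk (s59u_st_delta ν₀ n F) =
      ∑ d ∈ s59l_deg n, mk (coeff d F) * s59l_mon (fun i : s59l_I => mk (ν₀ i.down)) d := by
    intro ν₀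
    rw [s59u_st_delta, map_sum]
    refine Finset.sum_congr rfl fun d _ => ?_
    rw [map_mul, s59l_map_mon]
  have hVV : ∀ i : s59l_I, V ⟨j⟩ * V' i = V' ⟨j⟩ * V i := by
    intro i
    have h := Ideal.Quotient.eq_zero_iff_mem.mpr (hprop j i.down)
    rw [map_sub, map_mul, map_mul] at h
    show mk (ν j) * mk (ν' i.down) = mk (ν' j) * mk (ν i.down)
    linear_combination h
  have key : V ⟨j⟩ ^ n * mk (s59u_st_delta ν' n F) = V' ⟨j⟩ ^ n * mk (s59u_st_delta ν n F) := by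
    rw [hD ν', hD ν, Finset.mul_sum, Finset.mul_sum]
    refine Finset.sum_congr rfl fun d hd => ?_
    rw [s59l_mem_deg] at hd
    have e1 : V ⟨j⟩ ^ n * s59l_mon V' d = s59l_mon (fun i => V ⟨j⟩ * V' i) d := by
      rw [s59l_mon_smul, hd]
    have e2 : V' ⟨j⟩ ^ n * s59l_mon V d = s59l_mon (fun i => V' ⟨j⟩ * V i) d := by
      rw [s59l_mon_smul, hd]
    have e3 : (fun i => V ⟨j⟩ * V' i) = fun i => V' ⟨j⟩ * V i := funext hVV
    calc V ⟨j⟩ ^ n * (mk (coeff d F) * s59l_mon V' d)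
        = mk (coeff d F) * (V ⟨j⟩ ^ n * s59l_mon V' d) := by ring
      _ = mk (coeff d F) * (V' ⟨j⟩ ^ n * s59l_mon V d) := by rw [e1, e3, ← e2]
      _ = V' ⟨j⟩ ^ n * (mk (coeff d F) * s59l_mon V d) := by ring
  rw [Ideal.Quotient.eq_zero_iff_mem.mpr (hF n), mul_zero] at key
  haveI : IsDomain (s59l_D θ) := (Ideal.Quotient.isDomain_iff_prime _).mpr hprime
  have hVj : V ⟨j⟩ ≠ 0 := fun h => hj (Ideal.Quotient.eq_zero_iff_mem.mp h)
  rcases mul_eq_zero.mp key with h | h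
  · exact absurd h (pow_ne_zero n hVj)
  · exact Ideal.Quotient.eq_zero_iff_mem.mp h

end Le


/-! ### the Steinberg directions -/

section St

variable {𝔅 : Type*} [CommRing 𝔅]

/-- `n₁ = col₁(W+θ) ⊗ row₂(W−θ)` in the coordinates `(e, b, c)`. -/
def s59u_st_n1 (θ : 𝔅) : Fin 3 → MvPowerSeries (Fin 3) 𝔅 :=
  ![(X 0 + C θ) * X 2, -(X 0 + C θ) ^ 2, X 2 ^ 2]

/-- `n₃ = col₂(W+θ) ⊗ row₁(W−θ)` in the coordinates `(e, b, c)`. -/
def s59u_st_n3 (θ : 𝔅) : Fin 3 → MvPowerSeries (Fin 3) 𝔅 :=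
  ![X 1 * (X 0 - C θ), X 1 ^ 2, -(X 0 - C θ) ^ 2]

/-- **the Steinberg cone ideal.** -/
def s59u_st_KSt (θ : 𝔅) : Ideal (s59l_P 𝔅) := s59u_st_K θ (s59u_st_n1 θ)

theorem s59u_st_q0_eq (θ : 𝔅) :
    s59l_q0 θ = (X 0 : MvPowerSeries (Fin 3) 𝔅) ^ 2 + X 1 * X 2 - C θ ^ 2 := by
  rw [s59l_q0, map_pow]

theorem s59u_st_n1_n3 (θ : 𝔅) (i j : Fin 3) :
    s59u_st_n1 θ i * s59u_st_n3 θ j - s59u_st_n1 θ j * s59u_st_n3 θ i ∈
      Ideal.span {s59l_q0 θ} := by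
  rw [Ideal.mem_span_singleton', s59u_st_q0_eq]
  fin_cases i <;> fin_cases j
  · exact ⟨0, by simp [s59u_st_n1, s59u_st_n3]⟩
  · exact ⟨(X 0 + C θ) * X 1, by simp [s59u_st_n1, s59u_st_n3]; ring⟩
  · exact ⟨-(X 2 * (X 0 - C θ)), by simp [s59u_st_n1, s59u_st_n3]; ring⟩
  · exact ⟨-((X 0 + C θ) * X 1), by simp [s59u_st_n1, s59u_st_n3]; ring⟩
  · exact ⟨0, by simp [s59u_st_n1, s59u_st_n3]⟩
  · exact ⟨(X 0 + C θ) * (X 0 - C θ) - X 1 * X 2, by simp [s59u_st_n1, s59u_st_n3]; ring⟩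
  · exact ⟨X 2 * (X 0 - C θ), by simp [s59u_st_n1, s59u_st_n3]; ring⟩
  · exact ⟨-((X 0 + C θ) * (X 0 - C θ) - X 1 * X 2), by simp [s59u_st_n1, s59u_st_n3]; ring⟩
  · exact ⟨0, by simp [s59u_st_n1, s59u_st_n3]⟩

/-- `γ² ∉ (q0)` when `θ` is not a unit. -/
theorem s59u_st_X2sq_not_mem (θ : 𝔅) (hθ : ¬ IsUnit θ) :
    (X 2 : MvPowerSeries (Fin 3) 𝔅) ^ 2 ∉ Ideal.span {s59l_q0 θ} := by
  classical
  intro h
  obtain ⟨G, hG⟩ := Ideal.mem_span_singleton'.mp h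
  set d : Fin 3 →₀ ℕ := Finsupp.single 2 2 with hd
  have h1 : coeff d (G * s59l_q0 θ) = -(coeff d G * θ ^ 2) := by
    have e1 : (X 0 : MvPowerSeries (Fin 3) 𝔅) ^ 2 = monomial (Finsupp.single 0 2) 1 := X_pow_eq 0 2
    have e2 : (X 1 * X 2 : MvPowerSeries (Fin 3) 𝔅) =
        monomial (Finsupp.single 1 1 + Finsupp.single 2 1) 1 := by
      rw [X, X, monomial_mul_monomial, mul_one]
    rw [s59l_q0, mul_sub, mul_add, map_sub, map_add, e1, e2, coeff_mul_monomial,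
      coeff_mul_monomial, coeff_mul_C, if_neg, if_neg]
    · ring
    · intro hle
      have := hle 1
      simp [hd] at this
    · intro hle
      have := hle 0
      simp [hd] at this
  have h2 : coeff d ((X 2 : MvPowerSeries (Fin 3) 𝔅) ^ 2) = 1 := by
    rw [coeff_X_pow, if_pos rfl]
  rw [hG, h2] at h1
  exact hθ (.of_mul_eq_one (-(coeff d G * θ)) (by linear_combination -h1))

/-- the four linear relations `(W − θ) N = 0` as elements of `P`. -/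
def s59u_st_Ra (θ : 𝔅) : s59l_P 𝔅 := X ⟨0⟩ * C (X 0 - C θ) + X ⟨2⟩ * C (X 1)
def s59u_st_Rb (θ : 𝔅) : s59l_P 𝔅 := X ⟨1⟩ * C (X 0 - C θ) - X ⟨0⟩ * C (X 1)
def s59u_st_Rc (θ : 𝔅) : s59l_P 𝔅 := X ⟨0⟩ * C (X 2) - X ⟨2⟩ * C (X 0 + C θ)
def s59u_st_Rd (θ : 𝔅) : s59l_P 𝔅 := X ⟨1⟩ * C (X 2) + X ⟨0⟩ * C (X 0 + C θ)
/-- `N² = 0`. -/
def s59u_st_Rn : s59l_P 𝔅 := X ⟨0⟩ ^ 2 + X ⟨1⟩ * X ⟨2⟩

theorem s59u_st_pi_n1 (θ : 𝔅) (i : s59l_I) :
    s59u_st_pi θ (s59u_st_n1 θ) (X i) =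
      PowerSeries.C (Ideal.Quotient.mk (Ideal.span {s59l_q0 θ}) (s59u_st_n1 θ i.down)) *
        PowerSeries.X := s59u_st_pi_X θ _ i

theorem s59u_st_mk_rel (θ : 𝔅) :
    Ideal.Quotient.mk (Ideal.span {s59l_q0 θ})
      ((X 0 : MvPowerSeries (Fin 3) 𝔅) ^ 2 + X 1 * X 2 - C θ ^ 2) = 0 := by
  rw [← s59u_st_q0_eq]
  exact Ideal.Quotient.eq_zero_iff_mem.mpr (Ideal.mem_span_singleton_self _)

theorem s59u_st_Ra_mem (θ : 𝔅) : s59u_st_Ra θ ∈ s59u_st_KSt θ := by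
  rw [s59u_st_KSt, s59u_st_K, RingHom.mem_ker]
  show s59u_st_pi θ _ (s59u_st_Ra θ) = 0
  rw [s59u_st_Ra, map_add, map_mul, map_mul, s59u_st_pi_n1, s59u_st_pi_n1, s59u_st_pi_C,
    s59u_st_pi_C]
  have h := congrArg PowerSeries.C (s59u_st_mk_rel θ)
  simp only [s59u_st_n1, Matrix.cons_val_zero, Matrix.cons_val_two, Matrix.tail_cons,
    Matrix.head_cons, map_mul, map_add, map_sub, map_pow, map_zero] at h ⊢
  linear_combination
    (PowerSeries.C (Ideal.Quotient.mk (Ideal.span {s59l_q0 θ}) (X 2)) * PowerSeries.X) * h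

theorem s59u_st_Rb_mem (θ : 𝔅) : s59u_st_Rb θ ∈ s59u_st_KSt θ := by
  rw [s59u_st_KSt, s59u_st_K, RingHom.mem_ker]
  show s59u_st_pi θ _ (s59u_st_Rb θ) = 0
  rw [s59u_st_Rb, map_sub, map_mul, map_mul, s59u_st_pi_n1, s59u_st_pi_n1, s59u_st_pi_C,
    s59u_st_pi_C]
  have h := congrArg PowerSeries.C (s59u_st_mk_rel θ)
  simp only [s59u_st_n1, Matrix.cons_val_zero, Matrix.cons_val_one, map_mul,
    map_add, map_sub, map_pow, map_neg, map_zero] at h ⊢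
  linear_combination
    (-(PowerSeries.C (Ideal.Quotient.mk (Ideal.span {s59l_q0 θ}) (X 0)) +
      PowerSeries.C (Ideal.Quotient.mk (Ideal.span {s59l_q0 θ}) (C θ))) * PowerSeries.X) * h

theorem s59u_st_Rc_mem (θ : 𝔅) : s59u_st_Rc θ ∈ s59u_st_KSt θ := by
  rw [s59u_st_KSt, s59u_st_K, RingHom.mem_ker]
  show s59u_st_pi θ _ (s59u_st_Rc θ) = 0
  rw [s59u_st_Rc, map_sub, map_mul, map_mul, s59u_st_pi_n1, s59u_st_pi_n1, s59u_st_pi_C,
    s59u_st_pi_C]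
  simp only [s59u_st_n1, Matrix.cons_val_zero, Matrix.cons_val_two, Matrix.tail_cons,
    Matrix.head_cons, map_mul, map_add, map_sub, map_pow, map_neg]
  ring

theorem s59u_st_Rd_mem (θ : 𝔅) : s59u_st_Rd θ ∈ s59u_st_KSt θ := by
  rw [s59u_st_KSt, s59u_st_K, RingHom.mem_ker]
  show s59u_st_pi θ _ (s59u_st_Rd θ) = 0
  rw [s59u_st_Rd, map_add, map_mul, map_mul, s59u_st_pi_n1, s59u_st_pi_n1, s59u_st_pi_C,
    s59u_st_pi_C]
  simp only [s59u_st_n1, Matrix.cons_val_zero, Matrix.cons_val_one, Matrix.head_cons, map_mul,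
    map_add, map_sub, map_pow, map_neg]
  ring

theorem s59u_st_Rn_mem (θ : 𝔅) : (s59u_st_Rn : s59l_P 𝔅) ∈ s59u_st_KSt θ := by
  rw [s59u_st_KSt, s59u_st_K, RingHom.mem_ker]
  show s59u_st_pi θ _ s59u_st_Rn = 0
  rw [s59u_st_Rn, map_add, map_pow, map_mul, s59u_st_pi_n1, s59u_st_pi_n1, s59u_st_pi_n1]
  simp only [s59u_st_n1, Matrix.cons_val_zero, Matrix.cons_val_one, Matrix.cons_val_two,
    Matrix.tail_cons, Matrix.head_cons, map_mul, map_add, map_sub, map_pow, map_neg]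
  ring

end St

end Fermat.Agent.Lib.S59
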