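/-
[LOC+s] part 3 (helper3, prefix `s59u_st_`): **(K-kill) for the Steinberg cone** — a point of a
Hausdorff domain which satisfies `W² = θ²`, `(W − θ) N = 0` and `2θ ≠ 0` kills `K_St`.
-/
import Mathlib
import Fermat.Agent.Lib.S59.UStB

set_option autoImplicit false

noncomputable section

namespace Fermat.Agent.Lib.S59

open IsLocalRing MvPowerSeries Fermat.Agent.Lib.Deform

section Kill

variable {𝔅 : Type*} [CommRing 𝔅]

/-- **(K-kill) for the Steinberg cone.** -/
theorem s59u_st_kill (θ : 𝔅) [hprime : (Ideal.span {s59l_q0 θ}).IsPrime] (hθu : ¬ IsUnit θ)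
    {T : Type*} [CommRing T] [IsDomain T] (I : Ideal T) [IsHausdorff I T]
    (φ : s59l_P 𝔅 →+* T) (hW : ∀ i, φ (X i) ∈ I)
    (hq : φ (MvPowerSeries.C (s59l_q0 θ)) = 0)
    (ha : φ (s59u_st_Ra θ) = 0) (hb : φ (s59u_st_Rb θ) = 0)
    (hc : φ (s59u_st_Rc θ) = 0) (hd : φ (s59u_st_Rd θ) = 0)
    (h2θ : φ (MvPowerSeries.C (MvPowerSeries.C (2 * θ))) ≠ 0)
    (F : s59l_P 𝔅) (hF : F ∈ s59u_st_KSt θ) : φ F = 0 := by
  classical
  set e := φ (X ⟨0⟩) with he
  set b := φ (X ⟨1⟩) with hb'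
  set c := φ (X ⟨2⟩) with hc'
  set f := φ (MvPowerSeries.C (X 0)) with hf
  set β := φ (MvPowerSeries.C (X 1)) with hβ
  set γ := φ (MvPowerSeries.C (X 2)) with hγ
  set ϑ := φ (MvPowerSeries.C (MvPowerSeries.C θ)) with hϑ
  have hCC : ∀ x y : MvPowerSeries (Fin 3) 𝔅,
      φ (MvPowerSeries.C (x + y)) = φ (MvPowerSeries.C x) + φ (MvPowerSeries.C y) := by
    intro x y; rw [map_add, map_add]
  have Ra : (f - ϑ) * e + β * c = 0 := by
    have := ha
    rw [s59u_st_Ra] at this
    simp only [map_add, map_mul, map_sub] at this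
    linear_combination this
  have Rb : (f - ϑ) * b - β * e = 0 := by
    have := hb
    rw [s59u_st_Rb] at this
    simp only [map_sub, map_mul] at this
    linear_combination this
  have Rc : γ * e - (f + ϑ) * c = 0 := by
    have := hc
    rw [s59u_st_Rc] at this
    simp only [map_sub, map_mul, map_add] at this
    linear_combination this
  have Rd : γ * b + (f + ϑ) * e = 0 := by
    have := hd
    rw [s59u_st_Rd] at this
    simp only [map_add, map_mul] at this
    linear_combination this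
  have h2ϑ : 2 * ϑ ≠ 0 := by
    intro h
    apply h2θ
    have h2 : (MvPowerSeries.C (MvPowerSeries.C (2 * θ)) : s59l_P 𝔅) =
        2 * MvPowerSeries.C (MvPowerSeries.C θ) := by
      rw [map_mul, map_mul, map_ofNat, map_ofNat]
    rw [h2, map_mul, map_ofNat]
    exact h
  -- the values of `n₁`, `n₃`
  have hn1 : ∀ i : s59l_I, φ (MvPowerSeries.C (s59u_st_n1 θ i.down)) =
      (![(f + ϑ) * γ, -(f + ϑ) ^ 2, γ ^ 2] : Fin 3 → T) i.down := by
    rintro ⟨i⟩
    fin_cases i <;> simp [s59u_st_n1, hf, hγ, hϑ]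
  have hn3 : ∀ i : s59l_I, φ (MvPowerSeries.C (s59u_st_n3 θ i.down)) =
      (![β * (f - ϑ), β ^ 2, -(f - ϑ) ^ 2] : Fin 3 → T) i.down := by
    rintro ⟨i⟩
    fin_cases i <;> simp [s59u_st_n3, hf, hβ, hϑ]
  have hXi : ∀ i : s59l_I, φ (X i) = (![e, b, c] : Fin 3 → T) i.down := by
    rintro ⟨i⟩
    fin_cases i <;> simp [he, hb', hc']
  by_cases hdeg : f + ϑ = 0 ∧ γ = 0
  · -- the degenerate case: use `n₃`
    obtain ⟨h1, h2⟩ := hdeg
    have hF3 : F ∈ s59u_st_K θ (s59u_st_n3 θ) :=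
      s59u_st_K_le θ (s59u_st_n1 θ) (s59u_st_n3 θ) (s59u_st_n1_n3 θ)
        ⟨2, by simpa [s59u_st_n1] using s59u_st_X2sq_not_mem θ hθu⟩ hF
    refine s59u_st_K_kill θ (s59u_st_n3 θ) I φ hW hq ?_ ⟨⟨2⟩, ?_⟩ F hF3
    · rintro ⟨i⟩ ⟨j⟩
      rw [hn3, hn3, hXi, hXi]
      fin_cases i <;> fin_cases j <;> simp
      · linear_combination (-β) * Rb
      · linear_combination (-(f - ϑ)) * Ra
      · linear_combination β * Rb
      · linear_combination (-(f - ϑ)) * Rb - β * Ra
      · linear_combination (f - ϑ) * Ra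
      · linear_combination (f - ϑ) * Rb + β * Ra
    · intro x hx
      rw [hn3] at hx
      have hfϑ : f - ϑ = -(2 * ϑ) := by linear_combination h1
      have hne : (-(f - ϑ) ^ 2 : T) ≠ 0 := by
        rw [hfϑ]
        exact neg_ne_zero.mpr (pow_ne_zero 2 (neg_ne_zero.mpr h2ϑ))
      rcases mul_eq_zero.mp hx with h | h
      · exact absurd (by simpa using h) hne
      · exact h
  · -- the generic case: use `n₁`
    have hν : ∃ j : s59l_I, ∀ x : T,
        φ (MvPowerSeries.C (s59u_st_n1 θ j.down)) * x = 0 → x = 0 := by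
      by_cases h1 : f + ϑ = 0
      · have h2 : γ ≠ 0 := fun h => hdeg ⟨h1, h⟩
        refine ⟨⟨2⟩, fun x hx => ?_⟩
        rw [hn1] at hx
        rcases mul_eq_zero.mp hx with h | h
        · exact absurd (by simpa using h) (pow_ne_zero 2 h2)
        · exact h
      · refine ⟨⟨1⟩, fun x hx => ?_⟩
        rw [hn1] at hx
        rcases mul_eq_zero.mp hx with h | h
        · exact absurd (by simpa using h) (neg_ne_zero.mpr (pow_ne_zero 2 h1))
        · exact h
    refine s59u_st_K_kill θ (s59u_st_n1 θ) I φ hW hq ?_ hν F hF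
    rintro ⟨i⟩ ⟨j⟩
    rw [hn1, hn1, hXi, hXi]
    fin_cases i <;> fin_cases j <;> simp
    · linear_combination (-(f + ϑ)) * Rd
    · linear_combination γ * Rc
    · linear_combination (f + ϑ) * Rd
    · linear_combination γ * Rd - (f + ϑ) * Rc
    · linear_combination (-γ) * Rc
    · linear_combination (-γ) * Rd + (f + ϑ) * Rc

end Kill

end Fermat.Agent.Lib.S59
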