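/-
[LOC+s] part 4 (helper3, prefix `s59u_st_`): **the Steinberg cone ring `𝔅^St = P ⧸ K_St`** is a
complete noetherian local domain of dimension `≤ dim 𝔅 + 3` (twin of `LChiRing.lean`).
Generators: `s59u_st_w θ k` (`k : Fin 3`, the coordinates `(f, β, γ)` of `W`), `s59u_st_n θ i`
(`i : s59l_I`, the coordinates `(e, b, c)` of `N`).
-/
import Mathlib
import Fermat.Agent.Lib.S59.UStC

set_option autoImplicit false
set_option linter.unusedSectionVars false

noncomputable section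

namespace Fermat.Agent.Lib.S59

open IsLocalRing MvPowerSeries Fermat.Agent.Lib.Deform

section Ring

variable {𝔅 : Type*} [CommRing 𝔅] [IsLocalRing 𝔅]
variable [IsNoetherianRing 𝔅] [IsAdicComplete (maximalIdeal 𝔅) 𝔅] [IsDomain 𝔅]
variable (θ : 𝔅) [hθ : s59l_Hyp θ]

instance s59u_st_KSt_isPrime : (s59u_st_KSt θ).IsPrime := by
  rw [s59u_st_KSt, s59u_st_K]
  exact RingHom.ker_isPrime _

/-- the Steinberg cone ring. -/
abbrev s59u_st_A : Type _ := s59l_P 𝔅 ⧸ s59u_st_KSt θ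

instance s59u_st_A_isLocalRing : IsLocalRing (s59u_st_A θ) :=
  s59l_quot_isLocalRing _ (Ideal.IsPrime.ne_top inferInstance)

instance s59u_st_A_complete : IsAdicComplete (maximalIdeal (s59u_st_A θ)) (s59u_st_A θ) :=
  s59l_quot_complete _

instance s59u_st_A_finite [Finite (ResidueField 𝔅)] : Finite (ResidueField (s59u_st_A θ)) :=
  s59p_finite_residueField (Ideal.Quotient.mk (s59u_st_KSt θ)) Ideal.Quotient.mk_surjective

/-- the generators `W = (f, β, γ)`. -/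
def s59u_st_w (i : Fin 3) : s59u_st_A θ := Ideal.Quotient.mk _ (C (X i))

/-- the generators `N = (e, b, c)`. -/
def s59u_st_n (i : s59l_I) : s59u_st_A θ := Ideal.Quotient.mk _ (X i)

theorem s59u_st_algebraMap_A (a : 𝔅) :
    algebraMap 𝔅 (s59u_st_A θ) a = Ideal.Quotient.mk _ (C (C a)) := by
  rw [← Ideal.Quotient.mk_algebraMap, MvPowerSeries.algebraMap_apply,
    MvPowerSeries.algebraMap_apply, Algebra.algebraMap_self, RingHom.id_apply]

theorem s59u_st_rel_quadric :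
    s59u_st_w θ 0 ^ 2 + s59u_st_w θ 1 * s59u_st_w θ 2 = algebraMap 𝔅 (s59u_st_A θ) θ ^ 2 := by
  have h := Ideal.Quotient.eq_zero_iff_mem.mpr
    (show C (s59l_q0 θ) ∈ s59u_st_KSt θ from s59u_st_q0_mem_K θ (s59u_st_n1 θ))
  rw [s59l_q0] at h
  simp only [map_sub, map_add, map_mul, map_pow] at h
  rw [s59u_st_algebraMap_A, s59u_st_w, s59u_st_w, s59u_st_w]
  linear_combination h

theorem s59u_st_rel_a :
    (s59u_st_w θ 0 - algebraMap 𝔅 (s59u_st_A θ) θ) * s59u_st_n θ ⟨0⟩ +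
      s59u_st_w θ 1 * s59u_st_n θ ⟨2⟩ = 0 := by
  have h := Ideal.Quotient.eq_zero_iff_mem.mpr (s59u_st_Ra_mem θ)
  rw [s59u_st_Ra] at h
  simp only [map_sub, map_add, map_mul] at h
  rw [s59u_st_algebraMap_A, s59u_st_w, s59u_st_w, s59u_st_n, s59u_st_n]
  linear_combination h

theorem s59u_st_rel_b :
    (s59u_st_w θ 0 - algebraMap 𝔅 (s59u_st_A θ) θ) * s59u_st_n θ ⟨1⟩ -
      s59u_st_w θ 1 * s59u_st_n θ ⟨0⟩ = 0 := by
  have h := Ideal.Quotient.eq_zero_iff_mem.mpr (s59u_st_Rb_mem θ)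
  rw [s59u_st_Rb] at h
  simp only [map_sub, map_add, map_mul] at h
  rw [s59u_st_algebraMap_A, s59u_st_w, s59u_st_w, s59u_st_n, s59u_st_n]
  linear_combination h

theorem s59u_st_rel_c :
    s59u_st_w θ 2 * s59u_st_n θ ⟨0⟩ -
      (s59u_st_w θ 0 + algebraMap 𝔅 (s59u_st_A θ) θ) * s59u_st_n θ ⟨2⟩ = 0 := by
  have h := Ideal.Quotient.eq_zero_iff_mem.mpr (s59u_st_Rc_mem θ)
  rw [s59u_st_Rc] at h
  simp only [map_sub, map_add, map_mul] at h
  rw [s59u_st_algebraMap_A, s59u_st_w, s59u_st_w, s59u_st_n, s59u_st_n]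
  linear_combination h

theorem s59u_st_rel_d :
    s59u_st_w θ 2 * s59u_st_n θ ⟨1⟩ +
      (s59u_st_w θ 0 + algebraMap 𝔅 (s59u_st_A θ) θ) * s59u_st_n θ ⟨0⟩ = 0 := by
  have h := Ideal.Quotient.eq_zero_iff_mem.mpr (s59u_st_Rd_mem θ)
  rw [s59u_st_Rd] at h
  simp only [map_sub, map_add, map_mul] at h
  rw [s59u_st_algebraMap_A, s59u_st_w, s59u_st_w, s59u_st_n, s59u_st_n]
  linear_combination h

theorem s59u_st_rel_nil :
    s59u_st_n θ ⟨0⟩ ^ 2 + s59u_st_n θ ⟨1⟩ * s59u_st_n θ ⟨2⟩ = 0 := by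
  have h := Ideal.Quotient.eq_zero_iff_mem.mpr (s59u_st_Rn_mem θ)
  rw [s59u_st_Rn] at h
  simp only [map_add, map_mul, map_pow] at h
  rw [s59u_st_n, s59u_st_n, s59u_st_n]
  exact h

theorem s59u_st_w_mem (i : Fin 3) : s59u_st_w θ i ∈ maximalIdeal (s59u_st_A θ) := by
  rw [s59u_st_w]
  exact s59p_surj_mem (Ideal.Quotient.mk (s59u_st_KSt θ)) Ideal.Quotient.mk_surjective
    (s59l_C_mem (X_mem_maximalIdeal i))

theorem s59u_st_n_mem (i : s59l_I) : s59u_st_n θ i ∈ maximalIdeal (s59u_st_A θ) := by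
  rw [s59u_st_n]
  exact s59p_surj_mem (Ideal.Quotient.mk (s59u_st_KSt θ)) Ideal.Quotient.mk_surjective
    (X_mem_maximalIdeal i)

instance s59u_st_A_isLocalHom : IsLocalHom (algebraMap 𝔅 (s59u_st_A θ)) := by
  refine ⟨fun a ha => ?_⟩
  by_contra hnu
  have ham : a ∈ maximalIdeal 𝔅 := hnu
  have : algebraMap 𝔅 (s59u_st_A θ) a ∈ maximalIdeal (s59u_st_A θ) := by
    rw [s59u_st_algebraMap_A]
    exact s59p_surj_mem (Ideal.Quotient.mk (s59u_st_KSt θ)) Ideal.Quotient.mk_surjective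
      (s59l_C_mem (s59l_C_mem ham))
  exact this ha

/-- every element of the maximal ideal of `𝔅^St` is a combination of `𝔪_𝔅`, `W`, `N`. -/
theorem s59u_st_maximalIdeal_le (𝔭 : Ideal (s59u_st_A θ))
    (h0 : (maximalIdeal 𝔅).map (algebraMap 𝔅 (s59u_st_A θ)) ≤ 𝔭)
    (hv : ∀ i, s59u_st_w θ i ∈ 𝔭) (hw : ∀ i, s59u_st_n θ i ∈ 𝔭) :
    maximalIdeal (s59u_st_A θ) ≤ 𝔭 := by
  intro x hx
  obtain ⟨F, rfl⟩ := Ideal.Quotient.mk_surjective x
  have hF : F ∈ maximalIdeal (s59l_P 𝔅) := by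
    rw [mem_maximalIdeal, mem_nonunits_iff]
    intro hu
    exact hx (hu.map (Ideal.Quotient.mk (s59u_st_KSt θ)))
  set r₀ := constantCoeff F with hr₀
  set c₀ := constantCoeff r₀ with hc₀
  have hc₀m : c₀ ∈ maximalIdeal 𝔅 := by
    rw [mem_maximalIdeal, mem_nonunits_iff, MvPowerSeries.isUnit_iff_constantCoeff,
      MvPowerSeries.isUnit_iff_constantCoeff] at hF
    exact hF
  have hsplit : F = (F - C r₀) + C (r₀ - C c₀) + C (C c₀) := by
    rw [map_sub]; ring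
  rw [hsplit, map_add, map_add]
  refine Ideal.add_mem _ (Ideal.add_mem _ ?_ ?_) ?_
  · have h1 := s59l_sub_C_mem F
    have h2 : Ideal.span (Set.range (X : s59l_I → s59l_P 𝔅)) ≤
        Ideal.comap (Ideal.Quotient.mk (s59u_st_KSt θ)) 𝔭 := by
      rw [Ideal.span_le]
      rintro _ ⟨i, rfl⟩
      exact hw i
    exact h2 h1
  · have h1 := s59l_sub_C_mem r₀
    have h2 : Ideal.span (Set.range (X : Fin 3 → MvPowerSeries (Fin 3) 𝔅)) ≤
        Ideal.comap ((Ideal.Quotient.mk (s59u_st_KSt θ)).comp (C (σ := s59l_I))) 𝔭 := by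
      rw [Ideal.span_le]
      rintro _ ⟨i, rfl⟩
      exact hv i
    exact h2 h1
  · rw [← s59u_st_algebraMap_A]
    exact h0 (Ideal.mem_map_of_mem _ hc₀m)

theorem s59u_st_A_dim :
    ringKrullDim (s59u_st_A θ) ≤ ringKrullDim 𝔅 + 3 := by
  classical
  obtain ⟨i2, hi2⟩ := hθ.two
  set A := s59u_st_A θ
  set f : A := s59u_st_w θ 0 with hf
  set β : A := s59u_st_w θ 1 with hβ
  set γ : A := s59u_st_w θ 2 with hγ
  set e : A := s59u_st_n θ ⟨0⟩ with he
  set b : A := s59u_st_n θ ⟨1⟩ with hb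
  set c : A := s59u_st_n θ ⟨2⟩ with hc
  set ϑ : A := algebraMap 𝔅 A θ with hϑ
  have hquad : f ^ 2 + β * γ = ϑ ^ 2 := s59u_st_rel_quadric θ
  have Ra : (f - ϑ) * e + β * c = 0 := s59u_st_rel_a θ
  have Rd : γ * b + (f + ϑ) * e = 0 := s59u_st_rel_d θ
  have Rn : e ^ 2 + b * c = 0 := s59u_st_rel_nil θ
  set t : Finset A := {β - γ, b + c, e - f} with ht
  have hcard : t.card ≤ 3 := Finset.card_le_three
  have hmain : ringKrullDim A ≤ ringKrullDim 𝔅 + t.card := by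
    refine s59l_dim_le (algebraMap 𝔅 A) t ?_ ?_
    · intro x hx
      rw [ht, Finset.mem_insert, Finset.mem_insert, Finset.mem_singleton] at hx
      rcases hx with rfl | rfl | rfl
      · exact Ideal.sub_mem _ (s59u_st_w_mem θ _) (s59u_st_w_mem θ _)
      · exact Ideal.add_mem _ (s59u_st_n_mem θ _) (s59u_st_n_mem θ _)
      · exact Ideal.sub_mem _ (s59u_st_n_mem θ _) (s59u_st_w_mem θ _)
    · intro 𝔭 hp h0 htp
      have hp1 : β - γ ∈ 𝔭 := htp _ (by rw [ht]; simp)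
      have hp2 : b + c ∈ 𝔭 := htp _ (by rw [ht]; simp)
      have hp3 : e - f ∈ 𝔭 := htp _ (by rw [ht]; simp)
      have hϑp : ϑ ∈ 𝔭 := h0 (Ideal.mem_map_of_mem _ hθ.mem)
      have two_unit : (2 : A) * algebraMap 𝔅 A i2 = 1 := by
        rw [← map_ofNat (algebraMap 𝔅 A) 2, ← map_mul, hi2, map_one]
      -- `2 e² ∈ 𝔭`
      have he2 : e ^ 2 ∈ 𝔭 := by
        have h1 : 2 * e ^ 2 = (e - f) * (2 * e) + ϑ * (e - e) + (β - γ) * b - β * (b + c) := by
          linear_combination Ra + Rd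
        have h2 : 2 * e ^ 2 ∈ 𝔭 := by
          rw [h1]
          exact Ideal.sub_mem _ (Ideal.add_mem _ (Ideal.add_mem _ (Ideal.mul_mem_right _ _ hp3)
            (Ideal.mul_mem_right _ _ hϑp)) (Ideal.mul_mem_right _ _ hp1))
            (Ideal.mul_mem_left _ _ hp2)
        have h3 : e ^ 2 = algebraMap 𝔅 A i2 * (2 * e ^ 2) := by
          linear_combination -(e ^ 2) * two_unit
        rw [h3]
        exact Ideal.mul_mem_left _ _ h2
      have hep : e ∈ 𝔭 := hp.mem_of_pow_mem 2 he2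
      have hfp : f ∈ 𝔭 := by
        have : f = e - (e - f) := by ring
        rw [this]; exact Ideal.sub_mem _ hep hp3
      have hβp : β ∈ 𝔭 := by
        refine hp.mem_of_pow_mem 2 ?_
        have h1 : β ^ 2 = ϑ * ϑ - f * f + β * (β - γ) := by
          linear_combination hquad
        rw [h1]
        exact Ideal.add_mem _ (Ideal.sub_mem _ (Ideal.mul_mem_left _ _ hϑp)
          (Ideal.mul_mem_left _ _ hfp)) (Ideal.mul_mem_left _ _ hp1)
      have hγp : γ ∈ 𝔭 := by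
        have : γ = β - (β - γ) := by ring
        rw [this]; exact Ideal.sub_mem _ hβp hp1
      have hbp : b ∈ 𝔭 := by
        refine hp.mem_of_pow_mem 2 ?_
        have h1 : b ^ 2 = e * e + b * (b + c) := by
          linear_combination -Rn
        rw [h1]
        exact Ideal.add_mem _ (Ideal.mul_mem_left _ _ hep) (Ideal.mul_mem_left _ _ hp2)
      have hcp : c ∈ 𝔭 := by
        have : c = (b + c) - b := by ring
        rw [this]; exact Ideal.sub_mem _ hp2 hbp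
      refine s59u_st_maximalIdeal_le θ 𝔭 h0 ?_ ?_
      · intro i
        fin_cases i
        · exact hfp
        · exact hβp
        · exact hγp
      · rintro ⟨i⟩
        fin_cases i
        · exact hep
        · exact hbp
        · exact hcp
  refine hmain.trans ?_
  have : ((t.card : ℕ) : WithBot ℕ∞) ≤ 3 := by exact_mod_cast hcard
  exact add_le_add_right this _

end Ring

end Fermat.Agent.Lib.S59
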