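/-
[LOC+s] part 5 (helper3, prefix `s59u_st_`): the universal property of the Steinberg cone ring
`𝔅^St` (twin of `LStep.lean`):
* `s59u_st_A_desc` : a ring map `g : 𝔅 → T` into a complete local DOMAIN extends to `𝔅^St` as soon
  as the images `w` of `W` and `n` of `N` lie in `𝔪_T`, satisfy `W² = θ²`, `(W − θ) N = 0`, and
  `g (2θ) ≠ 0`;
* `s59u_st_A_algebraMap_injective`, `s59u_st_A_hyp`;
* `s59u_st_n_ne_zero` : `N ≠ 0` on the Steinberg cone (the coordinate `c`).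
-/
import Mathlib
import Fermat.Agent.Lib.S59.UStD
import Fermat.Agent.Lib.S59.LStep

set_option autoImplicit false
set_option linter.unusedSectionVars false
set_option linter.style.haveILetI false

noncomputable section

namespace Fermat.Agent.Lib.S59

open IsLocalRing MvPowerSeries Fermat.Agent.Lib.Deform

section Step

variable {𝔅 : Type*} [CommRing 𝔅] [IsLocalRing 𝔅] [IsNoetherianRing 𝔅]
  [IsAdicComplete (maximalIdeal 𝔅) 𝔅] [IsDomain 𝔅] (θ : 𝔅) [hθ : s59l_Hyp θ]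

/-- **descent** for the Steinberg cone. -/
theorem s59u_st_A_desc {T : Type*} [CommRing T] [IsLocalRing T] [IsDomain T]
    [IsAdicComplete (maximalIdeal T) T] (g : 𝔅 →+* T) (w n : Fin 3 → T)
    (hw : ∀ k, w k ∈ maximalIdeal T) (hn : ∀ k, n k ∈ maximalIdeal T)
    (hq : w 0 ^ 2 + w 1 * w 2 = g θ ^ 2)
    (hRa : (w 0 - g θ) * n 0 + w 1 * n 2 = 0) (hRb : (w 0 - g θ) * n 1 - w 1 * n 0 = 0)
    (hRc : w 2 * n 0 - (w 0 + g θ) * n 2 = 0) (hRd : w 2 * n 1 + (w 0 + g θ) * n 0 = 0)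
    (h2θ : g (2 * θ) ≠ 0) :
    ∃ φ : s59u_st_A θ →+* T, (∀ x, φ (algebraMap 𝔅 (s59u_st_A θ) x) = g x) ∧
      (∀ k, φ (s59u_st_w θ k) = w k) ∧ (∀ k, φ (s59u_st_n θ ⟨k⟩) = n k) := by
  letI : Algebra 𝔅 T := g.toAlgebra
  set φ₁ : MvPowerSeries (Fin 3) 𝔅 →ₐ[𝔅] T := evalHom (maximalIdeal T) w hw with hφ₁
  letI : Algebra (MvPowerSeries (Fin 3) 𝔅) T := φ₁.toRingHom.toAlgebra
  set φ₂ : s59l_P 𝔅 →ₐ[MvPowerSeries (Fin 3) 𝔅] T :=
    evalHom (maximalIdeal T) (fun i : s59l_I => n i.down) (fun i => hn i.down) with hφ₂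
  have h1X : ∀ k, φ₁ (X k) = w k := fun k => evalHom_X _ _ _ k
  have h1C : ∀ x : 𝔅, φ₁ (C x) = g x := fun x => s59l_algHom_C φ₁ x
  have h2X : ∀ i : s59l_I, φ₂ (X i) = n i.down := fun i => evalHom_X _ _ _ i
  have h2C : ∀ c : MvPowerSeries (Fin 3) 𝔅, φ₂ (C c) = φ₁ c := fun c => s59l_algHom_C φ₂ c
  haveI : (Ideal.span {s59l_q0 θ}).IsPrime := inferInstance
  have hkill : ∀ F ∈ s59u_st_KSt θ, (φ₂ : s59l_P 𝔅 →+* T) F = 0 := by
    intro F hF
    refine s59u_st_kill θ hθ.mem (maximalIdeal T) (φ₂ : s59l_P 𝔅 →+* T) ?_ ?_ ?_ ?_ ?_ ?_ ?_ F hF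
    · intro i
      show φ₂ (X i) ∈ _
      rw [h2X]; exact hn _
    · show φ₂ (C (s59l_q0 θ)) = 0
      rw [h2C, s59l_q0, map_sub, map_add, map_pow, map_mul, h1X, h1X, h1X, h1C, map_pow, hq,
        sub_self]
    · show φ₂ (s59u_st_Ra θ) = 0
      rw [s59u_st_Ra, map_add, map_mul, map_mul, h2X, h2X, h2C, h2C, map_sub, h1X, h1X, h1C]
      linear_combination hRa
    · show φ₂ (s59u_st_Rb θ) = 0
      rw [s59u_st_Rb, map_sub, map_mul, map_mul, h2X, h2X, h2C, h2C, map_sub, h1X, h1X, h1C]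
      linear_combination hRb
    · show φ₂ (s59u_st_Rc θ) = 0
      rw [s59u_st_Rc, map_sub, map_mul, map_mul, h2X, h2X, h2C, h2C, map_add, h1X, h1X, h1C]
      linear_combination hRc
    · show φ₂ (s59u_st_Rd θ) = 0
      rw [s59u_st_Rd, map_add, map_mul, map_mul, h2X, h2X, h2C, h2C, map_add, h1X, h1X, h1C]
      linear_combination hRd
    · show φ₂ (C (C (2 * θ))) ≠ 0
      rw [h2C, h1C]
      exact h2θ
  refine ⟨Ideal.Quotient.lift (s59u_st_KSt θ) (φ₂ : s59l_P 𝔅 →+* T) hkill, ?_, ?_, ?_⟩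
  · intro x
    rw [s59u_st_algebraMap_A, Ideal.Quotient.lift_mk]
    show φ₂ (C (C x)) = g x
    rw [h2C, h1C]
  · intro k
    rw [s59u_st_w, Ideal.Quotient.lift_mk]
    show φ₂ (C (X k)) = w k
    rw [h2C, h1X]
  · intro k
    rw [s59u_st_n, Ideal.Quotient.lift_mk]
    show φ₂ (X _) = n k
    rw [h2X]

/-- `2θ ≠ 0`. -/
theorem s59u_st_two_theta_ne : (2 : 𝔅) * θ ≠ 0 := by
  obtain ⟨i2, hi2⟩ := hθ.two
  intro h0
  apply hθ.ne
  calc θ = (2 * θ) * i2 := by linear_combination -θ * hi2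
    _ = 0 := by rw [h0, zero_mul]

/-- `𝔅 → 𝔅^St` has a retraction (`W ↦ (θ, 0, 0)`, `N ↦ 0`); in particular it is injective. -/
theorem s59u_st_A_algebraMap_injective :
    Function.Injective (algebraMap 𝔅 (s59u_st_A θ)) := by
  obtain ⟨φ, hφ, -, -⟩ := s59u_st_A_desc θ (RingHom.id 𝔅) ![θ, 0, 0] ![0, 0, 0]
    (by
      intro k
      fin_cases k
      · exact hθ.mem
      · exact zero_mem _
      · exact zero_mem _)
    (by
      intro k
      fin_cases k <;> exact zero_mem _)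
    (by simp) (by simp) (by simp) (by simp) (by simp)
    (by
      rw [RingHom.id_apply]
      exact s59u_st_two_theta_ne θ)
  intro x y hxy
  have := congrArg φ hxy
  rwa [hφ, hφ, RingHom.id_apply, RingHom.id_apply] at this

instance s59u_st_A_hyp : s59l_Hyp (algebraMap 𝔅 (s59u_st_A θ) θ) where
  mem := by
    have h : ¬ IsUnit θ := hθ.mem
    intro hu
    exact h (isUnit_of_map_unit (algebraMap 𝔅 (s59u_st_A θ)) θ hu)
  ne := by
    intro h0
    exact hθ.ne (s59u_st_A_algebraMap_injective θ (by rw [h0, map_zero]))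
  two := by
    obtain ⟨i2, hi2⟩ := hθ.two
    exact ⟨algebraMap 𝔅 (s59u_st_A θ) i2, by rw [← map_ofNat (algebraMap 𝔅 (s59u_st_A θ)) 2,
      ← map_mul, hi2, map_one]⟩

/-- **`N ≠ 0` on the Steinberg cone**: the coordinate `c` of `N` is not in `K_St`. -/
theorem s59u_st_n_ne_zero : s59u_st_n θ ⟨2⟩ ≠ 0 := by
  intro h0
  rw [s59u_st_n, Ideal.Quotient.eq_zero_iff_mem, s59u_st_KSt, s59u_st_K, RingHom.mem_ker] at h0
  have h1 : s59u_st_pi θ (s59u_st_n1 θ) (X ⟨2⟩) = 0 := h0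
  rw [s59u_st_pi_X] at h1
  have h2 := congrArg (PowerSeries.coeff 1) h1
  rw [PowerSeries.coeff_C_mul, PowerSeries.coeff_one_X, mul_one, map_zero,
    Ideal.Quotient.eq_zero_iff_mem] at h2
  have h3 : s59u_st_n1 θ 2 = X 2 ^ 2 := by simp [s59u_st_n1]
  rw [show ((⟨2⟩ : s59l_I).down) = 2 from rfl, h3] at h2
  exact s59u_st_X2sq_not_mem θ hθ.mem h2

end Step

end Fermat.Agent.Lib.S59
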