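/-
[LOC+s] part 6 (helper3, prefix `s59u_st_`): **the tower with kinds.**
A step of the tower over a base `𝔅` is of one of three kinds (helper4's spec #3793):
* `chi θ` : helper4's type-χ ring `A^χ` (`V` on the quadric `V₀² + V₁V₂ = θ²`, `W ∥ V`);
* `st θ`  : the Steinberg cone `𝔅^St` (`W` on the quadric, `(W − θ) V = 0`), `V = N`;
* `unr`   : `𝔅⟦W⟧`, `V = 0`.
`s59u_st_Step` is the common interface of one step, `s59u_st_Stage 𝒪 κ` the iterated tower for
`κ : Fin m → s59u_st_Kind 𝒪` (twin of `s59l_Stage`, without `eps`, `desc` towards DOMAINS).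
-/
import Mathlib
import Fermat.Agent.Lib.S59.UStE
import Fermat.Agent.Lib.S59.LTower
import Fermat.Agent.Lib.S59.PDim

set_option autoImplicit false
set_option linter.unusedSectionVars false
set_option linter.unusedVariables false
set_option linter.style.haveILetI false

noncomputable section

namespace Fermat.Agent.Lib.S59

open IsLocalRing MvPowerSeries Fermat.Agent.Lib.Deform

/-- the kinds of tower steps. -/
inductive s59u_st_Kind (𝒪 : Type) : Type
  | chi (θ : 𝒪) : s59u_st_Kind 𝒪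
  | st (θ : 𝒪) : s59u_st_Kind 𝒪
  | unr : s59u_st_Kind 𝒪

section Kind

variable {𝒪 : Type} [CommRing 𝒪]

/-- admissibility of a kind. -/
def s59u_st_Kind.Hyp [IsLocalRing 𝒪] : s59u_st_Kind 𝒪 → Prop
  | .chi θ => s59l_Hyp θ
  | .st θ => s59l_Hyp θ
  | .unr => True

/-- the (equational) relations of a kind for a pair `(a, b) = (V, W)` over `ι : 𝒪 → T`. -/
def s59u_st_Kind.Rel (k : s59u_st_Kind 𝒪) {T : Type*} [CommRing T] (ι : 𝒪 →+* T)
    (a b : Fin 3 → T) : Prop :=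
  match k with
  | .chi θ => a 0 ^ 2 + a 1 * a 2 = ι θ ^ 2 ∧ ∀ i j, b i * a j = b j * a i
  | .st θ => b 0 ^ 2 + b 1 * b 2 = ι θ ^ 2 ∧ (b 0 - ι θ) * a 0 + b 1 * a 2 = 0 ∧
      (b 0 - ι θ) * a 1 - b 1 * a 0 = 0 ∧ b 2 * a 0 - (b 0 + ι θ) * a 2 = 0 ∧
      b 2 * a 1 + (b 0 + ι θ) * a 0 = 0
  | .unr => ∀ i, a i = 0

/-- the regularity condition of a kind over `ι : 𝒪 → T` (`T` a domain). -/
def s59u_st_Kind.Reg (k : s59u_st_Kind 𝒪) {T : Type*} [CommRing T] (ι : 𝒪 →+* T) : Prop :=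
  match k with
  | .chi θ => ι θ ≠ 0
  | .st θ => ι θ ≠ 0
  | .unr => True

theorem s59u_st_Kind.Rel.map {k : s59u_st_Kind 𝒪} {T T' : Type*} [CommRing T] [CommRing T']
    (ι : 𝒪 →+* T) (f : T →+* T') {a b : Fin 3 → T} (h : k.Rel ι a b) :
    k.Rel (f.comp ι) (fun i => f (a i)) (fun i => f (b i)) := by
  cases k with
  | chi θ =>
    obtain ⟨h1, h2⟩ := h
    refine ⟨?_, fun i j => ?_⟩
    · show f (a 0) ^ 2 + f (a 1) * f (a 2) = f (ι θ) ^ 2
      rw [← map_pow, ← map_mul, ← map_add, h1, map_pow]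
    · show f (b i) * f (a j) = f (b j) * f (a i)
      rw [← map_mul, ← map_mul, h2]
  | st θ =>
    obtain ⟨h1, h2, h3, h4, h5⟩ := h
    refine ⟨?_, ?_, ?_, ?_, ?_⟩
    · show f (b 0) ^ 2 + f (b 1) * f (b 2) = f (ι θ) ^ 2
      rw [← map_pow, ← map_mul, ← map_add, h1, map_pow]
    · show (f (b 0) - f (ι θ)) * f (a 0) + f (b 1) * f (a 2) = 0
      rw [← map_sub, ← map_mul, ← map_mul, ← map_add, h2, map_zero]
    · show (f (b 0) - f (ι θ)) * f (a 1) - f (b 1) * f (a 0) = 0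
      rw [← map_sub, ← map_mul, ← map_mul, ← map_sub, h3, map_zero]
    · show f (b 2) * f (a 0) - (f (b 0) + f (ι θ)) * f (a 2) = 0
      rw [← map_add, ← map_mul, ← map_mul, ← map_sub, h4, map_zero]
    · show f (b 2) * f (a 1) + (f (b 0) + f (ι θ)) * f (a 0) = 0
      rw [← map_add, ← map_mul, ← map_mul, ← map_add, h5, map_zero]
  | unr =>
    intro i
    show f (a i) = 0
    rw [h i, map_zero]

/-- the non-vanishing facts of a kind (`st`: `N ≠ 0`, coordinate `c`; `unr`: the quadric in `W`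
is not a constant). -/
def s59u_st_Kind.NeZ (k : s59u_st_Kind 𝒪) {T : Type*} [CommRing T] (ι : 𝒪 →+* T)
    (a b : Fin 3 → T) : Prop :=
  match k with
  | .chi _ => True
  | .st _ => a 2 ≠ 0
  | .unr => ∀ t : 𝒪, b 0 ^ 2 + b 1 * b 2 - ι t ≠ 0

theorem s59u_st_Kind.NeZ.map {k : s59u_st_Kind 𝒪} {T T' : Type*} [CommRing T] [CommRing T']
    (ι : 𝒪 →+* T) (f : T →+* T') (hf : Function.Injective f) {a b : Fin 3 → T}
    (h : k.NeZ ι a b) : k.NeZ (f.comp ι) (fun i => f (a i)) (fun i => f (b i)) := by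
  cases k with
  | chi θ => trivial
  | st θ =>
    intro h0
    exact h (hf (by rw [map_zero]; exact h0))
  | unr =>
    intro t h0
    refine h t (hf ?_)
    rw [map_zero, map_sub, map_add, map_pow, map_mul]
    exact h0

end Kind

/-- **one step of the tower** over the base `𝔅`. -/
structure s59u_st_Step {𝒪 : Type} [CommRing 𝒪] (𝔅 : Type) [CommRing 𝔅] [IsLocalRing 𝔅]
    (ι : 𝒪 →+* 𝔅) (k : s59u_st_Kind 𝒪) : Type 1 where
  A : Type
  [cr : CommRing A]
  [loc : IsLocalRing A]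
  [noeth : IsNoetherianRing A]
  [dom : IsDomain A]
  [compl : IsAdicComplete (maximalIdeal A) A]
  [fin : Finite (ResidueField A)]
  [alg : Algebra 𝔅 A]
  [lochom : IsLocalHom (algebraMap 𝔅 A)]
  inj : Function.Injective (algebraMap 𝔅 A)
  v : Fin 3 → A
  w : Fin 3 → A
  v_mem : ∀ i, v i ∈ maximalIdeal A
  w_mem : ∀ i, w i ∈ maximalIdeal A
  max_le : ∀ 𝔭 : Ideal A, (maximalIdeal 𝔅).map (algebraMap 𝔅 A) ≤ 𝔭 → (∀ i, v i ∈ 𝔭) →
    (∀ i, w i ∈ 𝔭) → maximalIdeal A ≤ 𝔭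
  res : ∀ a : A, ∃ t : 𝔅, a - algebraMap 𝔅 A t ∈ maximalIdeal A
  dim_le : ringKrullDim A ≤ ringKrullDim 𝔅 + 3
  rel : k.Rel ((algebraMap 𝔅 A).comp ι) v w
  ne : k.NeZ ((algebraMap 𝔅 A).comp ι) v w
  desc : ∀ (T : Type) [CommRing T] [IsLocalRing T] [IsDomain T]
    [IsAdicComplete (maximalIdeal T) T] (g : 𝔅 →+* T) (a b : Fin 3 → T),
    (∀ i, a i ∈ maximalIdeal T) → (∀ i, b i ∈ maximalIdeal T) → k.Rel (g.comp ι) a b →
    k.Reg (g.comp ι) →
    ∃ φ : A →+* T, (∀ x, φ (algebraMap 𝔅 A x) = g x) ∧ (∀ i, φ (v i) = a i) ∧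
      (∀ i, φ (w i) = b i)

attribute [instance] s59u_st_Step.cr s59u_st_Step.loc s59u_st_Step.noeth s59u_st_Step.dom
  s59u_st_Step.compl s59u_st_Step.fin s59u_st_Step.alg s59u_st_Step.lochom

section Steps

variable {𝒪 : Type} [CommRing 𝒪] [IsLocalRing 𝒪]
variable (𝔅 : Type) [CommRing 𝔅] [IsLocalRing 𝔅] [IsNoetherianRing 𝔅] [IsDomain 𝔅]
  [IsAdicComplete (maximalIdeal 𝔅) 𝔅] [Finite (ResidueField 𝔅)] (ι : 𝒪 →+* 𝔅)

/-- the step of kind `chi θ`: helper4's `A^χ`. -/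
def s59u_st_stepChi (θ : 𝒪) [hθ : s59l_Hyp (ι θ)] : s59u_st_Step 𝔅 ι (.chi θ) where
  A := s59l_Achi (ι θ)
  inj := s59l_Achi_algebraMap_injective (ι θ)
  v := fun i => s59l_v (ι θ) i
  w := fun i => s59l_w (ι θ) ⟨i⟩
  v_mem := fun i => s59l_v_mem (ι θ) i
  w_mem := fun i => s59l_w_mem (ι θ) ⟨i⟩
  max_le := fun 𝔭 h0 hv hw => s59l_maximalIdeal_le (ι θ) 𝔭 h0 hv (fun i => hw i.down)
  res := by
    intro a
    obtain ⟨F, rfl⟩ := Ideal.Quotient.mk_surjective a
    refine ⟨constantCoeff (constantCoeff F), ?_⟩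
    rw [s59l_algebraMap_Achi, ← map_sub]
    refine s59p_surj_mem (Ideal.Quotient.mk _) Ideal.Quotient.mk_surjective ?_
    rw [mem_maximalIdeal, mem_nonunits_iff, MvPowerSeries.isUnit_iff_constantCoeff,
      MvPowerSeries.isUnit_iff_constantCoeff, map_sub, map_sub, constantCoeff_C, constantCoeff_C,
      sub_self]
    exact not_isUnit_zero
  dim_le := s59l_Achi_dim (ι θ)
  rel := ⟨s59l_rel_quadric (ι θ), fun i j => s59l_rel_minor (ι θ) ⟨i⟩ ⟨j⟩⟩
  ne := trivial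
  desc := by
    intro T _ _ _ _ g a b ha hb hrel hreg
    obtain ⟨h1, h2⟩ := hrel
    exact s59l_Achi_desc (ι θ) g a b ha hb h1 h2 (fun x hx => by
      rcases mul_eq_zero.mp hx with h | h
      · exact absurd h hreg
      · exact h)

/-- the step of kind `st θ`: the Steinberg cone `𝔅^St`; `V = N`, `W` on the quadric. -/
def s59u_st_stepSt (θ : 𝒪) [hθ : s59l_Hyp (ι θ)] : s59u_st_Step 𝔅 ι (.st θ) where
  A := s59u_st_A (ι θ)
  inj := s59u_st_A_algebraMap_injective (ι θ)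
  v := fun i => s59u_st_n (ι θ) ⟨i⟩
  w := fun i => s59u_st_w (ι θ) i
  v_mem := fun i => s59u_st_n_mem (ι θ) ⟨i⟩
  w_mem := fun i => s59u_st_w_mem (ι θ) i
  max_le := fun 𝔭 h0 hv hw => s59u_st_maximalIdeal_le (ι θ) 𝔭 h0 hw (fun i => hv i.down)
  res := by
    intro a
    obtain ⟨F, rfl⟩ := Ideal.Quotient.mk_surjective a
    refine ⟨constantCoeff (constantCoeff F), ?_⟩
    rw [s59u_st_algebraMap_A, ← map_sub]
    refine s59p_surj_mem (Ideal.Quotient.mk _) Ideal.Quotient.mk_surjective ?_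
    rw [mem_maximalIdeal, mem_nonunits_iff, MvPowerSeries.isUnit_iff_constantCoeff,
      MvPowerSeries.isUnit_iff_constantCoeff, map_sub, map_sub, constantCoeff_C, constantCoeff_C,
      sub_self]
    exact not_isUnit_zero
  dim_le := s59u_st_A_dim (ι θ)
  rel := ⟨s59u_st_rel_quadric (ι θ), s59u_st_rel_a (ι θ), s59u_st_rel_b (ι θ),
    s59u_st_rel_c (ι θ), s59u_st_rel_d (ι θ)⟩
  ne := s59u_st_n_ne_zero (ι θ)
  desc := by
    intro T _ _ _ _ g a b ha hb hrel hreg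
    obtain ⟨h1, h2, h3, h4, h5⟩ := hrel
    obtain ⟨i2, hi2⟩ := hθ.two
    have h2θ : g (2 * ι θ) ≠ 0 := by
      intro h0
      apply hreg
      show g (ι θ) = 0
      calc g (ι θ) = g (2 * ι θ) * g i2 := by
            rw [← map_mul, show 2 * ι θ * i2 = ι θ from by linear_combination (ι θ) * hi2]
        _ = 0 := by rw [h0, zero_mul]
    obtain ⟨φ, hφ0, hφw, hφn⟩ := s59u_st_A_desc (ι θ) g b a hb ha h1 h2 h3 h4 h5 h2θ
    exact ⟨φ, hφ0, hφn, hφw⟩

/-- the step of kind `unr`: `𝔅⟦W⟧`, `V = 0`. -/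
def s59u_st_stepUnr : s59u_st_Step 𝔅 ι (.unr : s59u_st_Kind 𝒪) where
  A := MvPowerSeries (Fin 3) 𝔅
  dom := NoZeroDivisors.to_isDomain _
  inj := by
    intro x y hxy
    rw [MvPowerSeries.algebraMap_apply, MvPowerSeries.algebraMap_apply, Algebra.algebraMap_self,
      RingHom.id_apply, RingHom.id_apply] at hxy
    exact MvPowerSeries.C_injective hxy
  v := fun _ => 0
  w := fun i => X i
  v_mem := fun _ => zero_mem _
  w_mem := fun i => X_mem_maximalIdeal i
  max_le := by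
    intro 𝔭 h0 _ hw x hx
    have hc : constantCoeff x ∈ maximalIdeal 𝔅 := by
      rw [mem_maximalIdeal, mem_nonunits_iff, MvPowerSeries.isUnit_iff_constantCoeff] at hx
      exact hx
    have hsplit : x = (x - C (constantCoeff x)) + C (constantCoeff x) := by ring
    rw [hsplit]
    refine Ideal.add_mem _ ?_ ?_
    · have h2 : Ideal.span (Set.range (X : Fin 3 → MvPowerSeries (Fin 3) 𝔅)) ≤ 𝔭 := by
        rw [Ideal.span_le]
        rintro _ ⟨i, rfl⟩
        exact hw i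
      exact h2 (s59l_sub_C_mem x)
    · refine h0 ?_
      have : (C (constantCoeff x) : MvPowerSeries (Fin 3) 𝔅) =
          algebraMap 𝔅 (MvPowerSeries (Fin 3) 𝔅) (constantCoeff x) := by
        rw [MvPowerSeries.algebraMap_apply, Algebra.algebraMap_self, RingHom.id_apply]
      rw [this]
      exact Ideal.mem_map_of_mem _ hc
  res := by
    intro a
    refine ⟨constantCoeff a, ?_⟩
    rw [MvPowerSeries.algebraMap_apply, Algebra.algebraMap_self, RingHom.id_apply]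
    exact sub_C_constantCoeff_mem_maximalIdeal a
  dim_le := by
    rw [s59p_pmdim 𝔅 3]
    rfl
  rel := fun _ => rfl
  ne := by
    classical
    intro t h0
    have h1 := congrArg (coeff (Finsupp.single (0 : Fin 3) 2)) h0
    rw [map_sub, map_add, map_zero, X_pow_eq, coeff_monomial_same] at h1
    have h2 : coeff (Finsupp.single (0 : Fin 3) 2) ((X 1 * X 2 : MvPowerSeries (Fin 3) 𝔅)) = 0 := by
      have hdvd : (X 1 : MvPowerSeries (Fin 3) 𝔅) ∣ X 1 * X 2 := dvd_mul_right _ _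
      rw [X_dvd_iff] at hdvd
      refine hdvd _ ?_
      rw [Finsupp.single_apply, if_neg (by decide)]
    have h3 : coeff (Finsupp.single (0 : Fin 3) 2)
        (((algebraMap 𝔅 (MvPowerSeries (Fin 3) 𝔅)).comp ι) t) = 0 := by
      rw [RingHom.comp_apply, MvPowerSeries.algebraMap_apply, Algebra.algebraMap_self,
        RingHom.id_apply, coeff_C, if_neg]
      intro h
      have := congrArg (fun d => d 0) h
      simp at this
    rw [h2, h3, add_zero, sub_zero] at h1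
    exact one_ne_zero h1
  desc := by
    intro T _ _ _ _ g a b ha hb hrel _
    letI : Algebra 𝔅 T := g.toAlgebra
    set φ : MvPowerSeries (Fin 3) 𝔅 →ₐ[𝔅] T := evalHom (maximalIdeal T) b hb with hφ
    refine ⟨(φ : MvPowerSeries (Fin 3) 𝔅 →+* T), ?_, ?_, ?_⟩
    · intro x
      exact φ.commutes x
    · intro i
      show φ 0 = a i
      rw [map_zero, hrel i]
    · intro i
      exact evalHom_X _ _ _ i

end Steps

end Fermat.Agent.Lib.S59
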