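/-
[LOC+s] part 7 (helper3, prefix `s59u_st_`): **the tower with kinds** (twin of `LTower.lean`):
`s59u_st_Stage 𝒪 κ` for `κ : Fin m → s59u_st_Kind 𝒪`, `s59u_st_stage0`, `s59u_st_next` (generic in
the step), `s59u_st_stepOf`, `s59u_st_stage` by recursion.
-/
import Mathlib
import Fermat.Agent.Lib.S59.UStF

set_option autoImplicit false
set_option linter.unusedSectionVars false
set_option linter.unusedVariables false
set_option linter.style.haveILetI false

noncomputable section

namespace Fermat.Agent.Lib.S59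

open IsLocalRing MvPowerSeries Fermat.Agent.Lib.Deform

/-- a stage of the tower with kinds over `𝒪`. -/
structure s59u_st_Stage (𝒪 : Type) [CommRing 𝒪] [IsLocalRing 𝒪] {m : ℕ}
    (κ : Fin m → s59u_st_Kind 𝒪) : Type 1 where
  A : Type
  [cr : CommRing A]
  [loc : IsLocalRing A]
  [noeth : IsNoetherianRing A]
  [dom : IsDomain A]
  [compl : IsAdicComplete (maximalIdeal A) A]
  [fin : Finite (ResidueField A)]
  [alg : Algebra 𝒪 A]
  [lochom : IsLocalHom (algebraMap 𝒪 A)]
  inj : Function.Injective (algebraMap 𝒪 A)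
  v : Fin m → Fin 3 → A
  w : Fin m → Fin 3 → A
  v_mem : ∀ j k, v j k ∈ maximalIdeal A
  w_mem : ∀ j k, w j k ∈ maximalIdeal A
  max_le : ∀ 𝔭 : Ideal A, (maximalIdeal 𝒪).map (algebraMap 𝒪 A) ≤ 𝔭 → (∀ j k, v j k ∈ 𝔭) →
    (∀ j k, w j k ∈ 𝔭) → maximalIdeal A ≤ 𝔭
  res : ∀ a : A, ∃ t : 𝒪, a - algebraMap 𝒪 A t ∈ maximalIdeal A
  dim_le : ringKrullDim A ≤ ringKrullDim 𝒪 + ((3 * m : ℕ) : WithBot ℕ∞)
  rel : ∀ j, (κ j).Rel (algebraMap 𝒪 A) (v j) (w j)
  ne : ∀ j, (κ j).NeZ (algebraMap 𝒪 A) (v j) (w j)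
  desc : ∀ (T : Type) [CommRing T] [IsLocalRing T] [IsDomain T]
    [IsAdicComplete (maximalIdeal T) T] [Algebra 𝒪 T] (a b : Fin m → Fin 3 → T),
    (∀ j k, a j k ∈ maximalIdeal T) → (∀ j k, b j k ∈ maximalIdeal T) →
    (∀ j, (κ j).Rel (algebraMap 𝒪 T) (a j) (b j)) → (∀ j, (κ j).Reg (algebraMap 𝒪 T)) →
    ∃ φ : A →ₐ[𝒪] T, (∀ j k, φ (v j k) = a j k) ∧ (∀ j k, φ (w j k) = b j k)

attribute [instance] s59u_st_Stage.cr s59u_st_Stage.loc s59u_st_Stage.noeth s59u_st_Stage.dom
  s59u_st_Stage.compl s59u_st_Stage.fin s59u_st_Stage.alg s59u_st_Stage.lochom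

section Tower

variable {𝒪 : Type} [CommRing 𝒪] [IsLocalRing 𝒪] [IsNoetherianRing 𝒪] [IsDomain 𝒪]
  [IsAdicComplete (maximalIdeal 𝒪) 𝒪] [Finite (ResidueField 𝒪)]

/-- the stage `m = 0`: the ring `𝒪` itself. -/
def s59u_st_stage0 (κ : Fin 0 → s59u_st_Kind 𝒪) : s59u_st_Stage 𝒪 κ where
  A := 𝒪
  lochom := by
    rw [Algebra.algebraMap_self]
    infer_instance
  inj := by
    rw [Algebra.algebraMap_self]
    exact Function.injective_id
  v := fun j => j.elim0
  w := fun j => j.elim0
  v_mem := fun j => j.elim0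
  w_mem := fun j => j.elim0
  max_le := by
    intro 𝔭 h _ _
    rwa [Algebra.algebraMap_self, Ideal.map_id] at h
  res := fun a => ⟨a, by rw [Algebra.algebraMap_self, RingHom.id_apply, sub_self]; exact zero_mem _⟩
  dim_le := by simp
  rel := fun j => j.elim0
  ne := fun j => j.elim0
  desc := by
    intro T _ _ _ _ _ a b _ _ _ _
    exact ⟨Algebra.ofId 𝒪 T, fun j => j.elim0, fun j => j.elim0⟩

omit [IsNoetherianRing 𝒪] [IsDomain 𝒪] [IsAdicComplete (maximalIdeal 𝒪) 𝒪]
  [Finite (ResidueField 𝒪)] in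
/-- the image of an admissible `θ` under an injective local map is admissible. -/
theorem s59u_st_hyp_map {𝔅 : Type} [CommRing 𝔅] [IsLocalRing 𝔅] (ι : 𝒪 →+* 𝔅)
    [IsLocalHom ι] (hι : Function.Injective ι) (θ : 𝒪) (hθ : s59l_Hyp θ) : s59l_Hyp (ι θ) where
  mem := by
    have h : ¬ IsUnit θ := hθ.mem
    intro hu
    exact h (isUnit_of_map_unit ι θ hu)
  ne := by
    intro h0
    exact hθ.ne (hι (by rw [h0, map_zero]))
  two := by
    obtain ⟨i2, hi2⟩ := hθ.two
    exact ⟨ι i2, by rw [← map_ofNat ι 2, ← map_mul, hi2, map_one]⟩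

/-- the step of a given admissible kind. -/
def s59u_st_stepOf (𝔅 : Type) [CommRing 𝔅] [IsLocalRing 𝔅] [IsNoetherianRing 𝔅] [IsDomain 𝔅]
    [IsAdicComplete (maximalIdeal 𝔅) 𝔅] [Finite (ResidueField 𝔅)] (ι : 𝒪 →+* 𝔅) [IsLocalHom ι]
    (hι : Function.Injective ι) (k : s59u_st_Kind 𝒪) (hk : k.Hyp) : s59u_st_Step 𝔅 ι k :=
  match k, hk with
  | .chi θ, h =>
    haveI : s59l_Hyp (ι θ) := s59u_st_hyp_map ι hι θ h
    s59u_st_stepChi 𝔅 ι θ
  | .st θ, h =>
    haveI : s59l_Hyp (ι θ) := s59u_st_hyp_map ι hι θ h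
    s59u_st_stepSt 𝔅 ι θ
  | .unr, _ => s59u_st_stepUnr 𝔅 ι

section Next

variable {m : ℕ} (κ : Fin (m + 1) → s59u_st_Kind 𝒪) (G : s59u_st_Stage 𝒪 (Fin.init κ))
  (S : s59u_st_Step G.A (algebraMap 𝒪 G.A) (κ (Fin.last m)))

/-- the `𝒪`-algebra structure of the next stage. -/
@[reducible] def s59u_st_nextAlg : Algebra 𝒪 S.A :=
  ((algebraMap G.A S.A).comp (algebraMap 𝒪 G.A)).toAlgebra

/-- the generators `v` of the next stage. -/
def s59u_st_nextV : Fin (m + 1) → Fin 3 → S.A :=
  Fin.snoc (α := fun _ => Fin 3 → S.A) (fun j k => algebraMap G.A S.A (G.v j k)) S.v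

/-- the generators `w` of the next stage. -/
def s59u_st_nextW : Fin (m + 1) → Fin 3 → S.A :=
  Fin.snoc (α := fun _ => Fin 3 → S.A) (fun j k => algebraMap G.A S.A (G.w j k)) S.w

theorem s59u_st_nextV_last : s59u_st_nextV κ G S (Fin.last m) = S.v := by
  rw [s59u_st_nextV, Fin.snoc_last]

theorem s59u_st_nextV_castSucc (j : Fin m) :
    s59u_st_nextV κ G S j.castSucc = fun k => algebraMap G.A S.A (G.v j k) := by
  rw [s59u_st_nextV, Fin.snoc_castSucc]

theorem s59u_st_nextW_last : s59u_st_nextW κ G S (Fin.last m) = S.w := by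
  rw [s59u_st_nextW, Fin.snoc_last]

theorem s59u_st_nextW_castSucc (j : Fin m) :
    s59u_st_nextW κ G S j.castSucc = fun k => algebraMap G.A S.A (G.w j k) := by
  rw [s59u_st_nextW, Fin.snoc_castSucc]

/-- the next stage. -/
def s59u_st_next : s59u_st_Stage 𝒪 κ :=
  letI : Algebra 𝒪 S.A := s59u_st_nextAlg κ G S
  have halg : ∀ t : 𝒪, algebraMap 𝒪 S.A t = algebraMap G.A S.A (algebraMap 𝒪 G.A t) :=
    fun _ => rfl
  { A := S.A
    alg := s59u_st_nextAlg κ G S
    lochom := by
      show IsLocalHom ((algebraMap G.A S.A).comp (algebraMap 𝒪 G.A))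
      infer_instance
    inj := by
      intro x y hxy
      rw [halg, halg] at hxy
      exact G.inj (S.inj hxy)
    v := s59u_st_nextV κ G S
    w := s59u_st_nextW κ G S
    v_mem := by
      intro j
      refine Fin.lastCases ?_ (fun i => ?_) j
      · rw [s59u_st_nextV_last]; exact S.v_mem
      · rw [s59u_st_nextV_castSucc]
        exact fun k => s59p_map_mem _ (G.v_mem i k)
    w_mem := by
      intro j
      refine Fin.lastCases ?_ (fun i => ?_) j
      · rw [s59u_st_nextW_last]; exact S.w_mem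
      · rw [s59u_st_nextW_castSucc]
        exact fun k => s59p_map_mem _ (G.w_mem i k)
    max_le := by
      intro 𝔭 h0 hv hw
      refine S.max_le 𝔭 ?_ ?_ ?_
      · rw [Ideal.map_le_iff_le_comap]
        refine G.max_le (Ideal.comap (algebraMap G.A S.A) 𝔭) ?_ ?_ ?_
        · rw [← Ideal.map_le_iff_le_comap, Ideal.map_map]
          exact h0
        · intro j k
          rw [Ideal.mem_comap]
          have := hv j.castSucc k
          rwa [s59u_st_nextV_castSucc] at this
        · intro j k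
          rw [Ideal.mem_comap]
          have := hw j.castSucc k
          rwa [s59u_st_nextW_castSucc] at this
      · intro i
        have := hv (Fin.last m) i
        rwa [s59u_st_nextV_last] at this
      · intro i
        have := hw (Fin.last m) i
        rwa [s59u_st_nextW_last] at this
    res := by
      intro a
      obtain ⟨b, hb⟩ := S.res a
      obtain ⟨t, ht⟩ := G.res b
      refine ⟨t, ?_⟩
      have : a - algebraMap 𝒪 S.A t =
          (a - algebraMap G.A S.A b) + algebraMap G.A S.A (b - algebraMap 𝒪 G.A t) := by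
        rw [halg, map_sub]; ring
      rw [this]
      exact Ideal.add_mem _ hb (s59p_map_mem _ ht)
    dim_le := by
      have h1 := S.dim_le
      have h2 := G.dim_le
      have e : ((3 * (m + 1) : ℕ) : WithBot ℕ∞) = ((3 * m : ℕ) : WithBot ℕ∞) + 3 := by
        have : 3 * (m + 1) = 3 * m + 3 := by ring
        rw [this]; push_cast; rfl
      rw [e, ← add_assoc]
      exact h1.trans (add_le_add_left h2 3)
    rel := by
      intro j
      refine Fin.lastCases ?_ (fun i => ?_) j
      · rw [s59u_st_nextV_last, s59u_st_nextW_last]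
        exact S.rel
      · rw [s59u_st_nextV_castSucc, s59u_st_nextW_castSucc]
        exact (G.rel i).map (algebraMap 𝒪 G.A) (algebraMap G.A S.A)
    ne := by
      intro j
      refine Fin.lastCases ?_ (fun i => ?_) j
      · rw [s59u_st_nextV_last, s59u_st_nextW_last]
        exact S.ne
      · rw [s59u_st_nextV_castSucc, s59u_st_nextW_castSucc]
        exact (G.ne i).map (algebraMap 𝒪 G.A) (algebraMap G.A S.A) S.inj
    desc := by
      intro T _ _ _ _ _ a b ha hb hrel hreg
      obtain ⟨φm, hφv, hφw⟩ := G.desc T (fun j => a j.castSucc) (fun j => b j.castSucc)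
        (fun j k => ha _ k) (fun j k => hb _ k) (fun j => hrel j.castSucc)
        (fun j => hreg j.castSucc)
      have hcomp : (φm : G.A →+* T).comp (algebraMap 𝒪 G.A) = algebraMap 𝒪 T :=
        φm.comp_algebraMap
      obtain ⟨φ, hφ0, hφ1, hφ2⟩ := S.desc T (φm : G.A →+* T) (a (Fin.last m)) (b (Fin.last m))
        (ha _) (hb _) (by rw [hcomp]; exact hrel _) (by rw [hcomp]; exact hreg _)
      refine ⟨{ φ with commutes' := fun t => ?_ }, ?_, ?_⟩
      · show φ (algebraMap 𝒪 S.A t) = algebraMap 𝒪 T t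
        rw [halg, hφ0]
        exact φm.commutes t
      · intro j
        refine Fin.lastCases ?_ (fun i => ?_) j
        · rw [s59u_st_nextV_last]; exact fun k => hφ1 k
        · rw [s59u_st_nextV_castSucc]
          intro k
          show φ (algebraMap G.A S.A (G.v i k)) = _
          rw [hφ0]; exact hφv i k
      · intro j
        refine Fin.lastCases ?_ (fun i => ?_) j
        · rw [s59u_st_nextW_last]; exact fun k => hφ2 k
        · rw [s59u_st_nextW_castSucc]
          intro k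
          show φ (algebraMap G.A S.A (G.w i k)) = _
          rw [hφ0]; exact hφw i k }

end Next

/-- **the tower with kinds.** -/
def s59u_st_stage : (m : ℕ) → (κ : Fin m → s59u_st_Kind 𝒪) → (∀ j, (κ j).Hyp) →
    s59u_st_Stage 𝒪 κ
  | 0, κ, _ => s59u_st_stage0 κ
  | m + 1, κ, h =>
    let G := s59u_st_stage m (Fin.init κ) (fun j => h j.castSucc)
    s59u_st_next κ G (s59u_st_stepOf G.A (algebraMap 𝒪 G.A) G.inj (κ (Fin.last m)) (h (Fin.last m)))

end Tower

end Fermat.Agent.Lib.S59
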