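/-
[LOC+s] part 8 (helper3, prefix `s59u_st_`): **the local node with kinds** on the flat power series
ring `𝒫 = s59l_Flat 𝒪 m g = 𝒪⟦V_{j,k}, W_{j,k}, x_i⟧` (twin of `LFlat.lean`, helper4's spec
#3793 (B1)): for `κ : Fin m → s59u_st_Kind 𝒪` the prime `s59u_st_KK κ hκ g`
(`chi θ`: type χ_θ · `st θ`: Steinberg cone, `V = N`, `W` = traceless part of `Φ` · `unr`: `V = 0`),
`dim 𝒫/𝒦_κ ≤ dim 𝒪 + 3m + g`, killed by every `𝒪`-algebra map to a complete local DOMAIN in which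
the kind-wise relations hold (`s59u_st_RelK`).
-/
import Mathlib
import Fermat.Agent.Lib.S59.UStG
import Fermat.Agent.Lib.S59.LFlat

set_option autoImplicit false
set_option linter.unusedSectionVars false
set_option linter.unusedVariables false
set_option linter.style.haveILetI false

noncomputable section

namespace Fermat.Agent.Lib.S59

open IsLocalRing MvPowerSeries Fermat.Agent.Lib.Deform

section Psi

variable {𝒪 : Type} [CommRing 𝒪] [IsLocalRing 𝒪] [IsNoetherianRing 𝒪] [IsDomain 𝒪]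
  [IsAdicComplete (maximalIdeal 𝒪) 𝒪] [Finite (ResidueField 𝒪)]
  {m : ℕ} {κ : Fin m → s59u_st_Kind 𝒪} (G : s59u_st_Stage 𝒪 κ) (g : ℕ)

/-- the images of the variables. -/
def s59u_st_vals : s59l_Idx m g → MvPowerSeries (Fin g) G.A :=
  Sum.elim (fun p => C (G.v p.1 p.2)) (Sum.elim (fun p => C (G.w p.1 p.2)) (fun i => X i))

theorem s59u_st_vals_mem (s : s59l_Idx m g) :
    s59u_st_vals G g s ∈ maximalIdeal (MvPowerSeries (Fin g) G.A) := by
  rcases s with p | p | i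
  · exact s59l_C_mem (G.v_mem _ _)
  · exact s59l_C_mem (G.w_mem _ _)
  · exact X_mem_maximalIdeal i

/-- the map `𝒫 → A_κ⟦x⟧`. -/
def s59u_st_Psi : s59l_Flat 𝒪 m g →ₐ[𝒪] MvPowerSeries (Fin g) G.A :=
  evalHom (maximalIdeal (MvPowerSeries (Fin g) G.A)) (s59u_st_vals G g) (s59u_st_vals_mem G g)

theorem s59u_st_Psi_X (s : s59l_Idx m g) : s59u_st_Psi G g (X s) = s59u_st_vals G g s :=
  evalHom_X _ _ _ s

theorem s59u_st_Psi_V (j : Fin m) (k : Fin 3) : s59u_st_Psi G g (s59l_V j k) = C (G.v j k) := by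
  rw [s59l_V, s59u_st_Psi_X]; rfl

theorem s59u_st_Psi_W (j : Fin m) (k : Fin 3) : s59u_st_Psi G g (s59l_W j k) = C (G.w j k) := by
  rw [s59l_W, s59u_st_Psi_X]; rfl

theorem s59u_st_Psi_Xv (i : Fin g) : s59u_st_Psi G g (s59l_Xv i) = X i := by
  rw [s59l_Xv, s59u_st_Psi_X]; rfl

theorem s59u_st_Psi_C (t : 𝒪) : s59u_st_Psi G g (C t) = C (algebraMap 𝒪 G.A t) := by
  rw [s59l_algHom_C, MvPowerSeries.algebraMap_apply]

theorem s59u_st_Psi_surjective : Function.Surjective (s59u_st_Psi G g) := by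
  refine s59l_surjective_of_gens (s59u_st_Psi G g) ?_ ?_
  · intro f hf
    set 𝔍 : Ideal (MvPowerSeries (Fin g) G.A) :=
      Ideal.span (Set.range fun s => s59u_st_Psi G g (X s)) ⊔
        (maximalIdeal 𝒪).map (algebraMap 𝒪 (MvPowerSeries (Fin g) G.A)) with h𝔍
    have hX : ∀ s, s59u_st_vals G g s ∈ 𝔍 := fun s =>
      Ideal.mem_sup_left (Ideal.subset_span ⟨s, s59u_st_Psi_X G g s⟩)
    have hc : constantCoeff f ∈ maximalIdeal G.A := by
      rw [mem_maximalIdeal, mem_nonunits_iff, MvPowerSeries.isUnit_iff_constantCoeff] at hf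
      exact hf
    have h1 : maximalIdeal G.A ≤ Ideal.comap (C (σ := Fin g) (R := G.A)) 𝔍 := by
      refine G.max_le _ ?_ ?_ ?_
      · rw [Ideal.map_le_iff_le_comap]
        intro t ht
        rw [Ideal.mem_comap, Ideal.mem_comap]
        refine Ideal.mem_sup_right ?_
        rw [← MvPowerSeries.algebraMap_apply]
        exact Ideal.mem_map_of_mem _ ht
      · intro j k
        exact hX (Sum.inl (j, k))
      · intro j k
        exact hX (Sum.inr (Sum.inl (j, k)))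
    have hsplit : f = (f - C (constantCoeff f)) + C (constantCoeff f) := by ring
    rw [hsplit]
    refine Ideal.add_mem _ ?_ (h1 hc)
    have h2 : Ideal.span (Set.range (X : Fin g → MvPowerSeries (Fin g) G.A)) ≤ 𝔍 := by
      rw [Ideal.span_le]
      rintro _ ⟨i, rfl⟩
      exact hX (Sum.inr (Sum.inr i))
    exact h2 (s59l_sub_C_mem f)
  · intro a
    obtain ⟨t, ht⟩ := G.res (constantCoeff a)
    refine ⟨t, ?_⟩
    rw [mem_maximalIdeal, mem_nonunits_iff, MvPowerSeries.isUnit_iff_constantCoeff, map_sub,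
      MvPowerSeries.algebraMap_apply, constantCoeff_C]
    exact ht

end Psi

section Loc

variable {𝒪 : Type} [CommRing 𝒪] [IsLocalRing 𝒪] [IsNoetherianRing 𝒪] [IsDomain 𝒪]
  [IsAdicComplete (maximalIdeal 𝒪) 𝒪] [Finite (ResidueField 𝒪)]

/-- the kind-wise relations for an `𝒪`-algebra map out of `𝒫`. -/
structure s59u_st_RelK {m g : ℕ} (κ : Fin m → s59u_st_Kind 𝒪) {T : Type} [CommRing T]
    [IsLocalRing T] [Algebra 𝒪 T] (φ : s59l_Flat 𝒪 m g →ₐ[𝒪] T) : Prop where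
  mem : ∀ s, φ (X s) ∈ maximalIdeal T
  rel : ∀ j, (κ j).Rel (algebraMap 𝒪 T) (fun k => φ (s59l_V j k)) (fun k => φ (s59l_W j k))
  reg : ∀ j, (κ j).Reg (algebraMap 𝒪 T)

/-- extension of an `𝒪`-algebra map `G.A → T` to `A_κ⟦x⟧`, composed with `Ψ`. -/
theorem s59u_st_Psi_factor {m : ℕ} {κ : Fin m → s59u_st_Kind 𝒪} (G : s59u_st_Stage 𝒪 κ) (g : ℕ)
    {T : Type} [CommRing T] [IsLocalRing T] [IsAdicComplete (maximalIdeal T) T] [Algebra 𝒪 T]
    (φ : s59l_Flat 𝒪 m g →ₐ[𝒪] T) (hmem : ∀ s, φ (X s) ∈ maximalIdeal T)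
    (φA : G.A →ₐ[𝒪] T) (hφv : ∀ j k, φA (G.v j k) = φ (s59l_V j k))
    (hφw : ∀ j k, φA (G.w j k) = φ (s59l_W j k)) :
    RingHom.ker (s59u_st_Psi G g) ≤ RingHom.ker φ := by
  letI : Algebra G.A T := (φA : G.A →+* T).toAlgebra
  set φx : MvPowerSeries (Fin g) G.A →ₐ[G.A] T :=
    evalHom (maximalIdeal T) (fun i => φ (s59l_Xv i)) (fun i => hmem _) with hφx
  have hxX : ∀ i, φx (X i) = φ (s59l_Xv i) := fun i => evalHom_X _ _ _ i
  have hxC : ∀ c : G.A, φx (C c) = φA c := fun c => s59l_algHom_C φx c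
  set ψ : s59l_Flat 𝒪 m g →ₐ[𝒪] T :=
    { toRingHom := (φx : MvPowerSeries (Fin g) G.A →+* T).comp
        (s59u_st_Psi G g : s59l_Flat 𝒪 m g →+* MvPowerSeries (Fin g) G.A)
      commutes' := by
        intro t
        show φx (s59u_st_Psi G g (algebraMap 𝒪 _ t)) = _
        rw [(s59u_st_Psi G g).commutes, MvPowerSeries.algebraMap_apply, hxC]
        exact φA.commutes t } with hψ
  have hψa : ∀ F, ψ F = φx (s59u_st_Psi G g F) := fun F => rfl
  have heq : φ = ψ := by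
    refine algHom_ext_of_X (maximalIdeal T) hmem fun s => ?_
    rw [hψa, s59u_st_Psi_X]
    rcases s with p | p | i
    · show φ (s59l_V p.1 p.2) = φx (C (G.v p.1 p.2))
      rw [hxC, hφv]
    · show φ (s59l_W p.1 p.2) = φx (C (G.w p.1 p.2))
      rw [hxC, hφw]
    · show φ (s59l_Xv i) = φx (X i)
      rw [hxX]
  intro F hF
  rw [RingHom.mem_ker] at hF ⊢
  rw [heq, hψa, hF, map_zero]

/-- (K-kill) for a stage with kinds. -/
theorem s59u_st_Psi_kill {m : ℕ} {κ : Fin m → s59u_st_Kind 𝒪} (G : s59u_st_Stage 𝒪 κ) (g : ℕ)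
    {T : Type} [CommRing T] [IsLocalRing T] [IsDomain T] [IsAdicComplete (maximalIdeal T) T]
    [Algebra 𝒪 T] (φ : s59l_Flat 𝒪 m g →ₐ[𝒪] T) (hφ : s59u_st_RelK κ φ) :
    RingHom.ker (s59u_st_Psi G g) ≤ RingHom.ker φ := by
  obtain ⟨φA, hφv, hφw⟩ := G.desc T (fun j k => φ (s59l_V j k)) (fun j k => φ (s59l_W j k))
    (fun j k => hφ.mem _) (fun j k => hφ.mem _) hφ.rel hφ.reg
  exact s59u_st_Psi_factor G g φ hφ.mem φA hφv hφw

/-- **the prime `𝒦_κ`** of `𝒫`. -/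
def s59u_st_KK {m : ℕ} (κ : Fin m → s59u_st_Kind 𝒪) (hκ : ∀ j, (κ j).Hyp) (g : ℕ) :
    Ideal (s59l_Flat 𝒪 m g) :=
  RingHom.ker (s59u_st_Psi (s59u_st_stage m κ hκ) g)

instance s59u_st_KK_isPrime {m : ℕ} (κ : Fin m → s59u_st_Kind 𝒪) (hκ : ∀ j, (κ j).Hyp)
    (g : ℕ) : (s59u_st_KK κ hκ g).IsPrime := by
  haveI : IsDomain (MvPowerSeries (Fin g) (s59u_st_stage m κ hκ).A) :=
    NoZeroDivisors.to_isDomain _
  rw [s59u_st_KK]
  exact RingHom.ker_isPrime _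

/-- **dimension.** -/
theorem s59u_st_KK_dim {m : ℕ} (κ : Fin m → s59u_st_Kind 𝒪) (hκ : ∀ j, (κ j).Hyp) (g : ℕ) :
    ringKrullDim (s59l_Flat 𝒪 m g ⧸ s59u_st_KK κ hκ g) ≤
      ringKrullDim 𝒪 + ((3 * m + g : ℕ) : WithBot ℕ∞) := by
  set G := s59u_st_stage m κ hκ with hG
  rw [s59u_st_KK, ringKrullDim_eq_of_ringEquiv (Ideal.quotientKerAlgEquivOfSurjective
    (f := s59u_st_Psi G g) (s59u_st_Psi_surjective G g)).toRingEquiv, s59p_pmdim G.A g]
  have e : ((3 * m + g : ℕ) : WithBot ℕ∞) = ((3 * m : ℕ) : WithBot ℕ∞) + (g : WithBot ℕ∞) := by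
    push_cast; rfl
  rw [e, ← add_assoc]
  exact add_le_add_left G.dim_le _

/-- **(K-kill)**, iterated over the `m` indices. -/
theorem s59u_st_KK_kill {m : ℕ} (κ : Fin m → s59u_st_Kind 𝒪) (hκ : ∀ j, (κ j).Hyp) (g : ℕ)
    {T : Type} [CommRing T] [IsLocalRing T] [IsDomain T] [IsAdicComplete (maximalIdeal T) T]
    [Algebra 𝒪 T] (φ : s59l_Flat 𝒪 m g →ₐ[𝒪] T) (hφ : s59u_st_RelK κ φ) :
    s59u_st_KK κ hκ g ≤ RingHom.ker φ :=
  s59u_st_Psi_kill _ g φ hφ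

end Loc

end Fermat.Agent.Lib.S59
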