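/-
[LOC+s] part 9 (helper3, prefix `s59u_st_`): **membership facts for `𝒦_κ` and the witness prime**
for the switch `unr → st` at an index `j` (what the (iv)-step of `s59r_ringData.wit` consumes,
helper4 #3793 (B2)).

* `s59u_st_quadW_mem_KK` (`κ j = st θ`), `s59u_st_quadV_mem_KK` (`κ j = chi θ`),
  `s59u_st_V_mem_KK` (`κ j = unr`), `s59u_st_V_not_mem_KK` (`κ j = st θ`: `c_j ∉ 𝒦_κ`),
  `s59u_st_quadW_not_mem_KK` (`κ j = unr`: `Q(W_j) − t ∉ 𝒦_κ`);
* `s59u_st_sigma` : the `𝒪`-endomorphism of the stage ring with `W_j ↦ (θ, W_{j,1}, 0)`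
  (`κ j = unr`), identity on the other generators; `s59u_st_Q` : the witness prime
  `ker (map σ ∘ Ψ) ⊇ 𝒦_κ`, with `Q(W_j) − θ² ∈ 𝔔` and the same non-membership facts at `j' ≠ j`.
-/
import Mathlib
import Fermat.Agent.Lib.S59.UStH

set_option autoImplicit false
set_option linter.unusedSectionVars false
set_option linter.unusedVariables false
set_option linter.style.haveILetI false

noncomputable section

namespace Fermat.Agent.Lib.S59

open IsLocalRing MvPowerSeries Fermat.Agent.Lib.Deform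

section Facts

variable {𝒪 : Type} [CommRing 𝒪] [IsLocalRing 𝒪] [IsNoetherianRing 𝒪] [IsDomain 𝒪]
  [IsAdicComplete (maximalIdeal 𝒪) 𝒪] [Finite (ResidueField 𝒪)]
  {m : ℕ} (κ : Fin m → s59u_st_Kind 𝒪) (hκ : ∀ j, (κ j).Hyp) (g : ℕ)

/-- the quadric `Q(W_j) − t` in `𝒫`. -/
def s59u_st_quadW (j : Fin m) (t : 𝒪) : s59l_Flat 𝒪 m g :=
  s59l_W j 0 ^ 2 + s59l_W j 1 * s59l_W j 2 - C t

/-- the quadric `Q(V_j) − t` in `𝒫`. -/
def s59u_st_quadV (j : Fin m) (t : 𝒪) : s59l_Flat 𝒪 m g :=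
  s59l_V j 0 ^ 2 + s59l_V j 1 * s59l_V j 2 - C t

theorem s59u_st_Psi_quadW {κ : Fin m → s59u_st_Kind 𝒪} (G : s59u_st_Stage 𝒪 κ) (j : Fin m)
    (t : 𝒪) : s59u_st_Psi G g (s59u_st_quadW g j t) =
      C (G.w j 0 ^ 2 + G.w j 1 * G.w j 2 - algebraMap 𝒪 G.A t) := by
  rw [s59u_st_quadW, map_sub, map_add, map_pow, map_mul, s59u_st_Psi_W, s59u_st_Psi_W,
    s59u_st_Psi_W, s59u_st_Psi_C, map_sub, map_add, map_pow, map_mul]

theorem s59u_st_Psi_quadV {κ : Fin m → s59u_st_Kind 𝒪} (G : s59u_st_Stage 𝒪 κ) (j : Fin m)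
    (t : 𝒪) : s59u_st_Psi G g (s59u_st_quadV g j t) =
      C (G.v j 0 ^ 2 + G.v j 1 * G.v j 2 - algebraMap 𝒪 G.A t) := by
  rw [s59u_st_quadV, map_sub, map_add, map_pow, map_mul, s59u_st_Psi_V, s59u_st_Psi_V,
    s59u_st_Psi_V, s59u_st_Psi_C, map_sub, map_add, map_pow, map_mul]

theorem s59u_st_quadW_mem_KK (j : Fin m) (θ : 𝒪) (hj : κ j = .st θ) :
    s59u_st_quadW g j (θ ^ 2) ∈ s59u_st_KK κ hκ g := by
  rw [s59u_st_KK, RingHom.mem_ker, s59u_st_Psi_quadW]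
  have h := (s59u_st_stage m κ hκ).rel j
  rw [hj] at h
  rw [map_pow, h.1, sub_self, map_zero]

theorem s59u_st_quadV_mem_KK (j : Fin m) (θ : 𝒪) (hj : κ j = .chi θ) :
    s59u_st_quadV g j (θ ^ 2) ∈ s59u_st_KK κ hκ g := by
  rw [s59u_st_KK, RingHom.mem_ker, s59u_st_Psi_quadV]
  have h := (s59u_st_stage m κ hκ).rel j
  rw [hj] at h
  rw [map_pow, h.1, sub_self, map_zero]

theorem s59u_st_V_mem_KK (j : Fin m) (hj : κ j = .unr) (k : Fin 3) :
    (s59l_V j k : s59l_Flat 𝒪 m g) ∈ s59u_st_KK κ hκ g := by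
  rw [s59u_st_KK, RingHom.mem_ker, s59u_st_Psi_V]
  have h := (s59u_st_stage m κ hκ).rel j
  rw [hj] at h
  rw [h k, map_zero]

theorem s59u_st_V_not_mem_KK (j : Fin m) (θ : 𝒪) (hj : κ j = .st θ) :
    (s59l_V j 2 : s59l_Flat 𝒪 m g) ∉ s59u_st_KK κ hκ g := by
  rw [s59u_st_KK, RingHom.mem_ker, s59u_st_Psi_V]
  have h := (s59u_st_stage m κ hκ).ne j
  rw [hj] at h
  intro h0
  exact h (MvPowerSeries.C_injective (by rw [h0, map_zero]))

theorem s59u_st_quadW_not_mem_KK (j : Fin m) (hj : κ j = .unr) (t : 𝒪) :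
    s59u_st_quadW g j t ∉ s59u_st_KK κ hκ g := by
  rw [s59u_st_KK, RingHom.mem_ker, s59u_st_Psi_quadW]
  have h := (s59u_st_stage m κ hκ).ne j
  rw [hj] at h
  intro h0
  exact h t (MvPowerSeries.C_injective (by rw [h0, map_zero]))

end Facts

section Witness

variable {𝒪 : Type} [CommRing 𝒪] [IsLocalRing 𝒪] [IsNoetherianRing 𝒪] [IsDomain 𝒪]
  [IsAdicComplete (maximalIdeal 𝒪) 𝒪] [Finite (ResidueField 𝒪)]
  {m : ℕ} (κ : Fin m → s59u_st_Kind 𝒪) (hκ : ∀ j, (κ j).Hyp) (g : ℕ)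

omit [IsNoetherianRing 𝒪] [IsDomain 𝒪] [IsAdicComplete (maximalIdeal 𝒪) 𝒪]
  [Finite (ResidueField 𝒪)] in
/-- an admissible kind is regular over every injective `ι`. -/
theorem s59u_st_reg_of_hyp {T : Type*} [CommRing T] (ι : 𝒪 →+* T)
    (hι : Function.Injective ι) (k : s59u_st_Kind 𝒪) (hk : k.Hyp) : k.Reg ι := by
  cases k with
  | chi θ =>
    intro h0
    exact (hk : s59l_Hyp θ).ne (hι (by rw [h0, map_zero]))
  | st θ =>
    intro h0
    exact (hk : s59l_Hyp θ).ne (hι (by rw [h0, map_zero]))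
  | unr => trivial

/-- **the witness endomorphism**: `W_j ↦ (θ, W_{j,1}, 0)` at an index `j` of kind `unr`,
identity on the generators of the other indices. -/
theorem s59u_st_exists_sigma (j : Fin m) (hj : κ j = .unr) (θ : 𝒪) (hθ : θ ∈ maximalIdeal 𝒪) :
    ∃ σ : (s59u_st_stage m κ hκ).A →ₐ[𝒪] (s59u_st_stage m κ hκ).A,
      σ ((s59u_st_stage m κ hκ).w j 0) = algebraMap 𝒪 _ θ ∧
      σ ((s59u_st_stage m κ hκ).w j 1) = (s59u_st_stage m κ hκ).w j 1 ∧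
      σ ((s59u_st_stage m κ hκ).w j 2) = 0 ∧
      (∀ j', j' ≠ j → ∀ k, σ ((s59u_st_stage m κ hκ).v j' k) = (s59u_st_stage m κ hκ).v j' k) ∧
      (∀ j', j' ≠ j → ∀ k, σ ((s59u_st_stage m κ hκ).w j' k) = (s59u_st_stage m κ hκ).w j' k) := by
  classical
  set G := s59u_st_stage m κ hκ with hG
  set a : Fin m → Fin 3 → G.A := Function.update G.v j (fun _ => 0) with ha
  set b : Fin m → Fin 3 → G.A :=
    Function.update G.w j ![algebraMap 𝒪 G.A θ, G.w j 1, 0] with hb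
  obtain ⟨σ, hσv, hσw⟩ := G.desc G.A a b
    (by
      intro j' k
      by_cases h : j' = j
      · subst h
        rw [ha, Function.update_self]
        exact zero_mem _
      · rw [ha, Function.update_of_ne h]
        exact G.v_mem j' k)
    (by
      intro j' k
      by_cases h : j' = j
      · subst h
        rw [hb, Function.update_self]
        fin_cases k
        · exact s59p_map_mem _ hθ
        · exact G.w_mem _ 1
        · exact zero_mem _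
      · rw [hb, Function.update_of_ne h]
        exact G.w_mem j' k)
    (by
      intro j'
      by_cases h : j' = j
      · subst h
        rw [ha, hb, Function.update_self, Function.update_self, hj]
        intro i
        rfl
      · rw [ha, hb, Function.update_of_ne h, Function.update_of_ne h]
        exact G.rel j')
    (fun j' => s59u_st_reg_of_hyp _ G.inj _ (hκ j'))
  refine ⟨σ, ?_, ?_, ?_, ?_, ?_⟩
  · rw [hσw, hb, Function.update_self]; rfl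
  · rw [hσw, hb, Function.update_self]; rfl
  · rw [hσw, hb, Function.update_self]; rfl
  · intro j' h k
    rw [hσv, ha, Function.update_of_ne h]
  · intro j' h k
    rw [hσw, hb, Function.update_of_ne h]

/-- a choice of the witness endomorphism. -/
def s59u_st_sigma (j : Fin m) (hj : κ j = .unr) (θ : 𝒪) (hθ : θ ∈ maximalIdeal 𝒪) :
    (s59u_st_stage m κ hκ).A →ₐ[𝒪] (s59u_st_stage m κ hκ).A :=
  Classical.choose (s59u_st_exists_sigma κ hκ j hj θ hθ)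

theorem s59u_st_sigma_spec (j : Fin m) (hj : κ j = .unr) (θ : 𝒪) (hθ : θ ∈ maximalIdeal 𝒪) :
    s59u_st_sigma κ hκ j hj θ hθ ((s59u_st_stage m κ hκ).w j 0) = algebraMap 𝒪 _ θ ∧
      s59u_st_sigma κ hκ j hj θ hθ ((s59u_st_stage m κ hκ).w j 1) =
        (s59u_st_stage m κ hκ).w j 1 ∧
      s59u_st_sigma κ hκ j hj θ hθ ((s59u_st_stage m κ hκ).w j 2) = 0 ∧
      (∀ j', j' ≠ j → ∀ k, s59u_st_sigma κ hκ j hj θ hθ ((s59u_st_stage m κ hκ).v j' k) =
        (s59u_st_stage m κ hκ).v j' k) ∧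
      (∀ j', j' ≠ j → ∀ k, s59u_st_sigma κ hκ j hj θ hθ ((s59u_st_stage m κ hκ).w j' k) =
        (s59u_st_stage m κ hκ).w j' k) :=
  Classical.choose_spec (s59u_st_exists_sigma κ hκ j hj θ hθ)

/-- the witness map `map σ ∘ Ψ`. -/
def s59u_st_wit (j : Fin m) (hj : κ j = .unr) (θ : 𝒪) (hθ : θ ∈ maximalIdeal 𝒪) :
    s59l_Flat 𝒪 m g →+* MvPowerSeries (Fin g) (s59u_st_stage m κ hκ).A :=
  (MvPowerSeries.map (s59u_st_sigma κ hκ j hj θ hθ).toRingHom).comp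
    (s59u_st_Psi (s59u_st_stage m κ hκ) g).toRingHom

/-- **the witness prime** for the switch `unr → st θ` at the index `j`. -/
def s59u_st_Q (j : Fin m) (hj : κ j = .unr) (θ : 𝒪) (hθ : θ ∈ maximalIdeal 𝒪) :
    Ideal (s59l_Flat 𝒪 m g) :=
  RingHom.ker (s59u_st_wit κ hκ g j hj θ hθ)

instance s59u_st_Q_isPrime (j : Fin m) (hj : κ j = .unr) (θ : 𝒪) (hθ : θ ∈ maximalIdeal 𝒪) :
    (s59u_st_Q κ hκ g j hj θ hθ).IsPrime := by
  haveI : IsDomain (MvPowerSeries (Fin g) (s59u_st_stage m κ hκ).A) :=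
    NoZeroDivisors.to_isDomain _
  rw [s59u_st_Q]
  exact RingHom.ker_isPrime _

theorem s59u_st_KK_le_Q (j : Fin m) (hj : κ j = .unr) (θ : 𝒪) (hθ : θ ∈ maximalIdeal 𝒪) :
    s59u_st_KK κ hκ g ≤ s59u_st_Q κ hκ g j hj θ hθ := by
  intro F hF
  rw [s59u_st_KK, RingHom.mem_ker] at hF
  rw [s59u_st_Q, RingHom.mem_ker, s59u_st_wit, RingHom.comp_apply]
  show MvPowerSeries.map _ (s59u_st_Psi _ g F) = 0
  rw [hF, map_zero]

/-- membership in `𝔔` of an element whose image under `Ψ` is a constant. -/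
theorem s59u_st_mem_Q_of_C (j : Fin m) (hj : κ j = .unr) (θ : 𝒪) (hθ : θ ∈ maximalIdeal 𝒪)
    (F : s59l_Flat 𝒪 m g) (a : (s59u_st_stage m κ hκ).A)
    (hF : s59u_st_Psi (s59u_st_stage m κ hκ) g F = C a) :
    F ∈ s59u_st_Q κ hκ g j hj θ hθ ↔ s59u_st_sigma κ hκ j hj θ hθ a = 0 := by
  rw [s59u_st_Q, RingHom.mem_ker, s59u_st_wit, RingHom.comp_apply]
  show MvPowerSeries.map _ (s59u_st_Psi _ g F) = 0 ↔ _
  rw [hF, MvPowerSeries.map_C]
  constructor
  · intro h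
    exact MvPowerSeries.C_injective (h.trans (map_zero _).symm)
  · intro h
    show C ((s59u_st_sigma κ hκ j hj θ hθ) a) = 0
    rw [h, map_zero]

/-- `δ_j = Q(W_j) − θ²` lies in the witness prime. -/
theorem s59u_st_quadW_mem_Q (j : Fin m) (hj : κ j = .unr) (θ : 𝒪) (hθ : θ ∈ maximalIdeal 𝒪) :
    s59u_st_quadW g j (θ ^ 2) ∈ s59u_st_Q κ hκ g j hj θ hθ := by
  obtain ⟨h0, h1, h2, -, -⟩ := s59u_st_sigma_spec κ hκ j hj θ hθ
  rw [s59u_st_mem_Q_of_C κ hκ g j hj θ hθ _ _ (s59u_st_Psi_quadW g _ j _), map_sub, map_add,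
    map_pow, map_mul, h0, h1, h2, AlgHom.commutes, mul_zero, add_zero, map_pow, sub_self]

/-- at another index of kind `st`, `N ≠ 0` at the witness prime. -/
theorem s59u_st_V_not_mem_Q (j : Fin m) (hj : κ j = .unr) (θ : 𝒪) (hθ : θ ∈ maximalIdeal 𝒪)
    (j' : Fin m) (hjj : j' ≠ j) (θ' : 𝒪) (hj' : κ j' = .st θ') :
    (s59l_V j' 2 : s59l_Flat 𝒪 m g) ∉ s59u_st_Q κ hκ g j hj θ hθ := by
  obtain ⟨-, -, -, hv, -⟩ := s59u_st_sigma_spec κ hκ j hj θ hθ
  rw [s59u_st_mem_Q_of_C κ hκ g j hj θ hθ _ _ (s59u_st_Psi_V _ g j' 2), hv j' hjj]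
  have h := (s59u_st_stage m κ hκ).ne j'
  rw [hj'] at h
  exact h

/-- at another index of kind `unr`, the quadric is not a constant at the witness prime. -/
theorem s59u_st_quadW_not_mem_Q (j : Fin m) (hj : κ j = .unr) (θ : 𝒪) (hθ : θ ∈ maximalIdeal 𝒪)
    (j' : Fin m) (hjj : j' ≠ j) (hj' : κ j' = .unr) (t : 𝒪) :
    s59u_st_quadW g j' t ∉ s59u_st_Q κ hκ g j hj θ hθ := by
  obtain ⟨-, -, -, -, hw⟩ := s59u_st_sigma_spec κ hκ j hj θ hθ
  rw [s59u_st_mem_Q_of_C κ hκ g j hj θ hθ _ _ (s59u_st_Psi_quadW g _ j' t), map_sub, map_add,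
    map_pow, map_mul, hw j' hjj, hw j' hjj, hw j' hjj, AlgHom.commutes]
  have h := (s59u_st_stage m κ hκ).ne j'
  rw [hj'] at h
  exact h t

end Witness

end Fermat.Agent.Lib.S59
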