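/-
[LOC+s] part 10 (helper3, prefix `s59u_r2_`): **twin of helper4's `RProd` (the primes
`𝒦_{θ,ch}`) and `RKill` over the tower WITH KINDS** (`s59l_stage m θ hθ ↦ s59u_st_stage m κ hκ`,
`s59l_KK θ hθ ↦ s59u_st_KK κ hκ`): the `m` tower indices carry kinds `κ j ∈ {chi θ, st θ, unr}`
(B-primes of type χ, (iv)-primes on the Steinberg cone / on the unramified component), the `r`
raising primes with smooth local models `Λ l` are untouched.  Proofs = helper4's, verbatim.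
-/
import Mathlib
import Fermat.Agent.Lib.S59.RKill
import Fermat.Agent.Lib.S59.UStI

set_option autoImplicit false
set_option linter.unusedSectionVars false
set_option linter.unusedVariables false
set_option linter.style.haveILetI false

noncomputable section

namespace Fermat.Agent.Lib.S59

open IsLocalRing MvPowerSeries Fermat.Agent.Lib.Deform

section Prod2

variable {𝒪 : Type} [CommRing 𝒪] [IsLocalRing 𝒪] [IsNoetherianRing 𝒪] [IsDomain 𝒪]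
  [IsAdicComplete (maximalIdeal 𝒪) 𝒪] [Finite (ResidueField 𝒪)]

variable {m r g : ℕ} (Λ : Fin r → s59r_Model 𝒪)

/-- **the prime `𝒦_{θ,ch}`** of `𝒫^Λ`. -/
def s59u_r2_KK (κ : Fin m → s59u_st_Kind 𝒪) (hκ : ∀ j, (κ j).Hyp) (g : ℕ)
    (ch : s59r_Ch Λ) :
    Ideal (s59r_Flat 𝒪 m r g) :=
  Ideal.comap (s59r_pi Λ m g ch) (s59u_st_KK κ hκ (g + r * 3))

instance s59u_r2_KK_isPrime (κ : Fin m → s59u_st_Kind 𝒪) (hκ : ∀ j, (κ j).Hyp) (g : ℕ)
    (ch : s59r_Ch Λ) : (s59u_r2_KK Λ κ hκ g ch).IsPrime := by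
  rw [s59u_r2_KK]
  exact Ideal.comap_isPrime _ _

/-- **dimension.** -/
theorem s59u_r2_KK_dim (κ : Fin m → s59u_st_Kind 𝒪) (hκ : ∀ j, (κ j).Hyp) (g : ℕ)
    (ch : s59r_Ch Λ) :
    ringKrullDim (s59r_Flat 𝒪 m r g ⧸ s59u_r2_KK Λ κ hκ g ch) ≤
      ringKrullDim 𝒪 + ((3 * m + (g + r * 3) : ℕ) : WithBot ℕ∞) := by
  have hsurj : Function.Surjective ((Ideal.Quotient.mk (s59u_st_KK κ hκ (g + r * 3))).comp
      (s59r_pi Λ m g ch : s59r_Flat 𝒪 m r g →+* s59l_Flat 𝒪 m (g + r * 3))) :=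
    Ideal.Quotient.mk_surjective.comp (s59r_pi_surjective Λ ch)
  have hker : RingHom.ker ((Ideal.Quotient.mk (s59u_st_KK κ hκ (g + r * 3))).comp
      (s59r_pi Λ m g ch : s59r_Flat 𝒪 m r g →+* s59l_Flat 𝒪 m (g + r * 3))) =
      s59u_r2_KK Λ κ hκ g ch := by
    rw [← RingHom.comap_ker, Ideal.mk_ker]; rfl
  have e1 := (Ideal.quotEquivOfEq hker.symm).trans (RingHom.quotientKerEquivOfSurjective hsurj)
  rw [ringKrullDim_eq_of_ringEquiv e1]
  exact s59u_st_KK_dim κ hκ (g + r * 3)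

end Prod2

section Dict

variable {𝒪 : Type} [CommRing 𝒪] [IsLocalRing 𝒪] [IsNoetherianRing 𝒪] [IsDomain 𝒪]
  [IsAdicComplete (maximalIdeal 𝒪) 𝒪] [Finite (ResidueField 𝒪)]

variable {m r g : ℕ} (Λ : Fin r → s59r_Model 𝒪) (κ : Fin m → s59u_st_Kind 𝒪)
  (hκ : ∀ j, (κ j).Hyp)

theorem s59u_r2_Psi_yE (l : Fin r) (j : Fin 3) :
    s59u_st_Psi (s59u_st_stage m κ hκ) (g + r * 3) (s59l_yE m g l j) = X (s59r_yIdx r g l j) := by
  rw [s59l_yE, s59u_st_Psi_Xv]; rfl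

/-- `Ψ ∘ emb_l : 𝒪⟦y⟧ → A^χ⟦x⟧`. -/
def s59u_r2_PsiEmb (g : ℕ) (l : Fin r) :
    s59r_Par 𝒪 →ₐ[𝒪] MvPowerSeries (Fin (g + r * 3)) (s59u_st_stage m κ hκ).A :=
  (s59u_st_Psi (s59u_st_stage m κ hκ) (g + r * 3)).comp (s59r_emb m g l)

theorem s59u_r2_PsiEmb_apply (g : ℕ) (l : Fin r) (x : s59r_Par 𝒪) :
    s59u_r2_PsiEmb κ hκ g l x =
      s59u_st_Psi (s59u_st_stage m κ hκ) (g + r * 3) (s59r_emb m g l x) := rfl

theorem s59u_r2_PsiEmb_X (g : ℕ) (l : Fin r) (j : Fin 3) :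
    s59u_r2_PsiEmb κ hκ g l (X j) = X (s59r_yIdx r g l j) := by
  rw [s59u_r2_PsiEmb_apply, s59r_emb_X, s59u_r2_Psi_yE]

theorem s59u_r2_PsiEmb_injective (g : ℕ) (l : Fin r) :
    Function.Injective (s59u_r2_PsiEmb κ hκ g l) :=
  s59r_inj_of_vars (s59u_st_stage m κ hκ).inj (fun j => s59r_yIdx r g l j)
    (fun j j' h => (s59r_yIdx_inj h).2) _ (s59u_r2_PsiEmb_X κ hκ g l)

/-- **the local–global dictionary.** -/
theorem s59u_r2_loc_mem_KK (g : ℕ) (ch : s59r_Ch Λ) (l : Fin r) (x : s59r_Loc 𝒪) :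
    s59r_loc m g l x ∈ s59u_r2_KK Λ κ hκ g ch ↔ s59r_ParHom (Λ l) (ch l) x = 0 := by
  rw [s59u_r2_KK, Ideal.mem_comap, s59u_st_KK, RingHom.mem_ker, s59r_pi_loc_apply,
    ← s59u_r2_PsiEmb_apply]
  constructor
  · intro h
    exact s59u_r2_PsiEmb_injective κ hκ g l (by rw [h, map_zero])
  · intro h
    rw [h, map_zero]

end Dict

section Kill

variable {𝒪 : Type} [CommRing 𝒪] [IsLocalRing 𝒪] [IsNoetherianRing 𝒪] [IsDomain 𝒪]
  [IsAdicComplete (maximalIdeal 𝒪) 𝒪] [Finite (ResidueField 𝒪)]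

variable {m r g : ℕ} (Λ : Fin r → s59r_Model 𝒪)

/-- the relations for an `𝒪`-algebra map out of `𝒫^Λ`: the kind-wise relations at the `m` tower
indices, the local relations of the model at the other primes. -/
structure s59u_r2_Rel (κ : Fin m → s59u_st_Kind 𝒪) {T : Type} [CommRing T] [IsLocalRing T]
    [Algebra 𝒪 T] (φ : s59r_Flat 𝒪 m r g →ₐ[𝒪] T) : Prop where
  loc : ∀ t ∈ maximalIdeal 𝒪, algebraMap 𝒪 T t ∈ maximalIdeal T
  inj : Function.Injective (algebraMap 𝒪 T)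
  mem : ∀ s, φ (X s) ∈ maximalIdeal T
  rel : ∀ j, (κ j).Rel (algebraMap 𝒪 T) (fun k => φ (s59r_VB j k)) (fun k => φ (s59r_WB j k))
  reg : ∀ j, (κ j).Reg (algebraMap 𝒪 T)
  mrel : ∀ l, (Λ l).rel T (fun k => φ (s59r_U l k))

/-- **(K-kill).**  A complete local domain point of `𝒫^Λ`, flat over `𝒪`, of kind `κ j` at the
tower index `j` and satisfying the local relations at the other primes, kills `𝒦_{κ,ch}` for some
`ch`. -/
theorem s59u_r2_KK_kill (κ : Fin m → s59u_st_Kind 𝒪) (hκ : ∀ j, (κ j).Hyp) (g : ℕ) {T : Type}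
    [CommRing T] [IsLocalRing T] [IsDomain T] [IsAdicComplete (maximalIdeal T) T] [Algebra 𝒪 T]
    (φ : s59r_Flat 𝒪 m r g →ₐ[𝒪] T) (hφ : s59u_r2_Rel Λ κ φ) :
    ∃ ch : s59r_Ch Λ, s59u_r2_KK Λ κ hκ g ch ≤ RingHom.ker φ := by
  classical
  choose c y hy hv using fun l => (Λ l).kill T hφ.inj hφ.loc (fun k => φ (s59r_U l k))
    (fun k => hφ.mem _) (hφ.mrel l)
  refine ⟨c, ?_⟩
  -- the factor map
  let χv : s59l_Idx m (g + r * 3) → T :=
    Sum.elim (fun p => φ (s59r_VB p.1 p.2))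
      (Sum.elim (fun p => φ (s59r_WB p.1 p.2))
        (fun i => Sum.elim (fun i => φ (s59r_XG i)) (fun p => y p.1 p.2) ((s59l_xe r g).symm i)))
  have hχv : ∀ s, χv s ∈ maximalIdeal T := by
    intro s
    rcases s with p | p | i
    · exact hφ.mem _
    · exact hφ.mem _
    · show Sum.elim _ _ ((s59l_xe r g).symm i) ∈ _
      rcases (s59l_xe r g).symm i with i0 | p
      · exact hφ.mem _
      · exact hy p.1 p.2
  let χ : s59l_Flat 𝒪 m (g + r * 3) →ₐ[𝒪] T := evalHom (maximalIdeal T) χv hχv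
  have hχX : ∀ s, χ (X s) = χv s := fun s => evalHom_X _ _ _ s
  have hχV : ∀ j k, χ (s59l_V j k) = φ (s59r_VB j k) := fun j k => by
    rw [s59l_V, hχX]; rfl
  have hχW : ∀ j k, χ (s59l_W j k) = φ (s59r_WB j k) := fun j k => by
    rw [s59l_W, hχX]; rfl
  have hχx : ∀ i, χ (s59l_Xv (s59l_xe r g (Sum.inl i))) = φ (s59r_XG i) := fun i => by
    rw [s59l_Xv, hχX]
    show Sum.elim _ _ ((s59l_xe r g).symm (s59l_xe r g (Sum.inl i))) = _
    rw [Equiv.symm_apply_apply]; rfl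
  have hχy : ∀ l j, χ (s59l_yE m g l j) = y l j := fun l j => by
    rw [s59l_yE, s59l_Xv, hχX]
    show Sum.elim _ _ ((s59l_xe r g).symm (s59l_xe r g (Sum.inr (l, j)))) = _
    rw [Equiv.symm_apply_apply]; rfl
  have hrel : s59u_st_RelK κ χ := by
    refine ⟨fun s => by rw [hχX]; exact hχv s, fun j => ?_, hφ.reg⟩
    have e1 : (fun k => χ (s59l_V j k)) = fun k => φ (s59r_VB j k) := funext (hχV j)
    have e2 : (fun k => χ (s59l_W j k)) = fun k => φ (s59r_WB j k) := funext (hχW j)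
    rw [e1, e2]
    exact hφ.rel j
  have hkill := s59u_st_KK_kill κ hκ (g + r * 3) χ hrel
  -- `χ ∘ emb_l = ev_{y l}`
  have hemb : ∀ l, χ.comp (s59r_emb m g l) = evalHom (maximalIdeal T) (y l) (hy l) := by
    intro l
    refine algHom_ext_of_X (maximalIdeal T) (fun j => ?_) (fun j => ?_)
    · rw [AlgHom.comp_apply, s59r_emb_X, hχy]
      exact hy l j
    · rw [AlgHom.comp_apply, s59r_emb_X, hχy, evalHom_X]
  have heq : φ = χ.comp (s59r_pi Λ m g c) := by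
    refine algHom_ext_of_X (maximalIdeal T) hφ.mem fun s => ?_
    rw [AlgHom.comp_apply]
    rcases s with p | p | ⟨l, k⟩ | i
    · show φ (s59r_VB p.1 p.2) = χ (s59r_pi Λ m g c (s59r_VB p.1 p.2))
      rw [s59r_pi_VB, hχV]
    · show φ (s59r_WB p.1 p.2) = χ (s59r_pi Λ m g c (s59r_WB p.1 p.2))
      rw [s59r_pi_WB, hχW]
    · show φ (s59r_U l k) = χ (s59r_pi Λ m g c (s59r_U l k))
      rw [s59r_pi_U, hv l k]
      have := congrArg (fun f => f ((Λ l).par (c l) k)) (hemb l)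
      simp only [AlgHom.comp_apply] at this
      rw [this]
    · show φ (s59r_XG i) = χ (s59r_pi Λ m g c (s59r_XG i))
      rw [s59r_pi_XG, hχx]
  intro F hF
  rw [s59u_r2_KK, Ideal.mem_comap] at hF
  have := hkill hF
  rw [RingHom.mem_ker] at this ⊢
  rw [heq, AlgHom.comp_apply, this]

/-- **(K-kill) for reduced rings**: if every irreducible component of a reduced complete local
noetherian `𝒪`-algebra `Cr` is flat over `𝒪`, of kinds `κ i` for some `i`, and satisfies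
the local relations at the other primes, then `⋂_{(i,ch)} 𝒦_{κ i, ch}` dies in `Cr`. -/
theorem s59u_r2_KK_kill_reduced {ι : Type} [Fintype ι] (κ : ι → Fin m → s59u_st_Kind 𝒪)
    (hκ : ∀ i j, (κ i j).Hyp) (g : ℕ) {Cr : Type} [CommRing Cr] [IsLocalRing Cr]
    [IsNoetherianRing Cr] [IsAdicComplete (maximalIdeal Cr) Cr] [IsReduced Cr] [Algebra 𝒪 Cr]
    (φ : s59r_Flat 𝒪 m r g →ₐ[𝒪] Cr)
    (h : ∀ 𝔭 ∈ minimalPrimes Cr, ∀ [IsLocalRing (Cr ⧸ 𝔭)], ∃ i,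
      s59u_r2_Rel Λ (κ i) ((Ideal.Quotient.mkₐ 𝒪 𝔭).comp φ)) :
    (Finset.univ.inf fun p : ι × s59r_Ch Λ => s59u_r2_KK Λ (κ p.1) (hκ p.1) g p.2) ≤
      RingHom.ker φ := by
  classical
  refine s59l_kill_reduced (φ : s59r_Flat 𝒪 m r g →+* Cr) _ fun 𝔭 h𝔭 F hF => ?_
  haveI : 𝔭.IsPrime := h𝔭.1.1
  haveI : IsLocalRing (Cr ⧸ 𝔭) := s59l_quot_isLocalRing 𝔭 (Ideal.IsPrime.ne_top inferInstance)
  haveI : IsAdicComplete (maximalIdeal (Cr ⧸ 𝔭)) (Cr ⧸ 𝔭) := s59l_quot_complete 𝔭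
  haveI : IsDomain (Cr ⧸ 𝔭) := Ideal.Quotient.isDomain 𝔭
  obtain ⟨i, hi⟩ := h 𝔭 h𝔭
  obtain ⟨ch, hch⟩ := s59u_r2_KK_kill Λ (κ i) (hκ i) g _ hi
  have h1 : F ∈ s59u_r2_KK Λ (κ i) (hκ i) g ch :=
    (Finset.inf_le (f := fun p : ι × s59r_Ch Λ => s59u_r2_KK Λ (κ p.1) (hκ p.1) g p.2)
      (Finset.mem_univ (i, ch))) hF
  have h2 := hch h1
  rw [RingHom.mem_ker, AlgHom.comp_apply, Ideal.Quotient.mkₐ_eq_mk,
    Ideal.Quotient.eq_zero_iff_mem] at h2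
  exact h2

end Kill

end Fermat.Agent.Lib.S59
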