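/-
[LOC+s] part 11 (helper3, prefix `s59u_r2_`): **twin of helper4's `RRing` over the tower WITH KINDS,
and the combined ring contract** for `r` raising primes with smooth local models `Λ l` AND `r₄`
raising primes of type (iv) (`q ≡ 1 (p)`, the switch `unr → st ϑ` at the tower index `J i`).

* `s59u_r2_Sig … s59u_r2_Q`, `s59u_r2_loc_mem_Q_self/_other` : helper4's witness at a smooth prime,
  over `s59u_st_stage m κ hκ`; `s59u_r2_mem_Q_of_C`;
* `s59u_r2_quadWB r g j t = WB_{j,0}² + WB_{j,1} WB_{j,2} − t`, `s59u_r2_gram`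
  (`(u+1)² − (2a)² = −4 · quadWB j ϑ²`), membership facts in `𝒦_{κ,ch}`, `𝔔`;
* `s59u_r2_Q4` : the witness prime of the switch `unr → st ϑ` at `j` (pull-back of `s59u_st_Q`),
  `s59u_r2_loc_mem_Q4`, membership facts;
* `s59u_r2_chain`, `s59u_r2_delta`, **`s59u_r2_ringData`** : the contract `s59f_RingData'` for the
  components `𝒦_{κ b, ch}`, `(b, ch) : (Fin r₄ → Bool) × s59r_Ch Λ`, along ANY order `step` of the
  `r + r₄` raising primes;
* `s59u_r2_kappa θ ϑ b = Fin.append (chi ∘ θ) (i ↦ if b i then st (ϑ i) else unr)`,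
  **`s59u_r2_ringData_append`**, **`s59u_r2_kill_append`**.
-/
import Mathlib
import Fermat.Agent.Lib.S59.R2Kill
import Fermat.Agent.Lib.S59.RRing

set_option autoImplicit false
set_option linter.unusedSectionVars false
set_option linter.unusedVariables false
set_option linter.style.haveILetI false

noncomputable section

namespace Fermat.Agent.Lib.S59

open IsLocalRing MvPowerSeries Fermat.Agent.Lib.Deform

section Smooth

variable {𝒪 : Type} [CommRing 𝒪] [IsLocalRing 𝒪] [IsNoetherianRing 𝒪] [IsDomain 𝒪]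
  [IsAdicComplete (maximalIdeal 𝒪) 𝒪] [Finite (ResidueField 𝒪)]

variable {m r g : ℕ} (Λ : Fin r → s59r_Model 𝒪) (κ : Fin m → s59u_st_Kind 𝒪)
  (hκ : ∀ j, (κ j).Hyp) (D : ∀ l, s59r_RaiseData (Λ l))

/-- the images of the variables under the global witness substitution at the prime `t`. -/
def s59u_r2_sigVals (g : ℕ) (t : Fin r) :
    Fin (g + r * 3) → MvPowerSeries (Fin (g + r * 3)) (s59u_st_stage m κ hκ).A := fun i =>
  if h : ∃ j, s59r_yIdx r g t j = i then s59u_r2_PsiEmb κ hκ g t ((D t).σ (Classical.choose h))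
  else X i

theorem s59u_r2_PsiEmb_mem (g : ℕ) (l : Fin r) {x : s59r_Par 𝒪}
    (hx : x ∈ maximalIdeal (s59r_Par 𝒪)) :
    s59u_r2_PsiEmb κ hκ g l x ∈
      maximalIdeal (MvPowerSeries (Fin (g + r * 3)) (s59u_st_stage m κ hκ).A) := by
  refine s59l_algHom_mem_max (s59u_r2_PsiEmb κ hκ g l) (fun s => ?_) (fun t ht => ?_) hx
  · rw [s59u_r2_PsiEmb_X]; exact X_mem_maximalIdeal _
  · rw [MvPowerSeries.algebraMap_apply]
    refine s59l_C_mem ?_
    have hl : IsLocalHom (algebraMap 𝒪 (s59u_st_stage m κ hκ).A) := inferInstance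
    by_contra hne
    have hu : IsUnit (algebraMap 𝒪 (s59u_st_stage m κ hκ).A t) := by
      rwa [mem_maximalIdeal, mem_nonunits_iff, not_not] at hne
    exact ht (hl.map_nonunit t hu)

theorem s59u_r2_sigVals_mem (g : ℕ) (t : Fin r) (i : Fin (g + r * 3)) :
    s59u_r2_sigVals Λ κ hκ D g t i ∈
      maximalIdeal (MvPowerSeries (Fin (g + r * 3)) (s59u_st_stage m κ hκ).A) := by
  unfold s59u_r2_sigVals
  split_ifs
  · exact s59u_r2_PsiEmb_mem κ hκ g t ((D t).σ_mem _)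
  · exact X_mem_maximalIdeal _

/-- the global witness substitution at the prime `t`. -/
def s59u_r2_Sig (g : ℕ) (t : Fin r) :
    MvPowerSeries (Fin (g + r * 3)) (s59u_st_stage m κ hκ).A →ₐ[(s59u_st_stage m κ hκ).A]
      MvPowerSeries (Fin (g + r * 3)) (s59u_st_stage m κ hκ).A :=
  evalHom (maximalIdeal (MvPowerSeries (Fin (g + r * 3)) (s59u_st_stage m κ hκ).A))
    (s59u_r2_sigVals Λ κ hκ D g t) (s59u_r2_sigVals_mem Λ κ hκ D g t)

theorem s59u_r2_Sig_y_self (g : ℕ) (t : Fin r) (j : Fin 3) :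
    s59u_r2_Sig Λ κ hκ D g t (X (s59r_yIdx r g t j)) = s59u_r2_PsiEmb κ hκ g t ((D t).σ j) := by
  have h : ∃ j', s59r_yIdx r g t j' = s59r_yIdx r g t j := ⟨j, rfl⟩
  rw [s59u_r2_Sig, evalHom_X]
  show (if h : ∃ j', s59r_yIdx r g t j' = s59r_yIdx r g t j then _ else _) = _
  rw [dif_pos h, (s59r_yIdx_inj (Classical.choose_spec h)).2]

theorem s59u_r2_Sig_y_other (g : ℕ) (t l : Fin r) (hl : l ≠ t) (j : Fin 3) :
    s59u_r2_Sig Λ κ hκ D g t (X (s59r_yIdx r g l j)) = X (s59r_yIdx r g l j) := by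
  rw [s59u_r2_Sig, evalHom_X]
  show (if h : ∃ j', s59r_yIdx r g t j' = s59r_yIdx r g l j then _ else _) = _
  rw [dif_neg]
  rintro ⟨j', hj'⟩
  exact hl (s59r_yIdx_inj hj').1.symm

theorem s59u_r2_Sig_C (g : ℕ) (t : Fin r) (a : (s59u_st_stage m κ hκ).A) :
    s59u_r2_Sig Λ κ hκ D g t (C a) = C a := by
  rw [s59l_algHom_C, MvPowerSeries.algebraMap_apply, Algebra.algebraMap_self, RingHom.id_apply]

/-- `Σ_t ∘ Ψ ∘ emb_l` as an `𝒪`-algebra map. -/
def s59u_r2_SigEmb (g : ℕ) (t l : Fin r) :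
    s59r_Par 𝒪 →ₐ[𝒪] MvPowerSeries (Fin (g + r * 3)) (s59u_st_stage m κ hκ).A :=
  { toRingHom := (s59u_r2_Sig Λ κ hκ D g t).toRingHom.comp (s59u_r2_PsiEmb κ hκ g l).toRingHom
    commutes' := by
      intro a
      show s59u_r2_Sig Λ κ hκ D g t (s59u_r2_PsiEmb κ hκ g l (algebraMap 𝒪 _ a)) = algebraMap 𝒪 _ a
      rw [(s59u_r2_PsiEmb κ hκ g l).commutes, MvPowerSeries.algebraMap_apply, s59u_r2_Sig_C] }

theorem s59u_r2_SigEmb_apply (g : ℕ) (t l : Fin r) (x : s59r_Par 𝒪) :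
    s59u_r2_SigEmb Λ κ hκ D g t l x = s59u_r2_Sig Λ κ hκ D g t (s59u_r2_PsiEmb κ hκ g l x) := rfl

theorem s59u_r2_SigEmb_self (g : ℕ) (t : Fin r) :
    s59u_r2_SigEmb Λ κ hκ D g t t = (s59u_r2_PsiEmb κ hκ g t).comp (D t).sub := by
  refine algHom_ext_of_X
    (maximalIdeal (MvPowerSeries (Fin (g + r * 3)) (s59u_st_stage m κ hκ).A))
    (fun j => ?_) (fun j => ?_)
  · rw [s59u_r2_SigEmb_apply, s59u_r2_PsiEmb_X, s59u_r2_Sig_y_self]
    exact s59u_r2_PsiEmb_mem κ hκ g t ((D t).σ_mem _)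
  · rw [s59u_r2_SigEmb_apply, s59u_r2_PsiEmb_X, s59u_r2_Sig_y_self, AlgHom.comp_apply,
      s59r_RaiseData.sub_X]

theorem s59u_r2_SigEmb_other (g : ℕ) (t l : Fin r) (hl : l ≠ t) :
    s59u_r2_SigEmb Λ κ hκ D g t l = s59u_r2_PsiEmb κ hκ g l := by
  refine algHom_ext_of_X
    (maximalIdeal (MvPowerSeries (Fin (g + r * 3)) (s59u_st_stage m κ hκ).A))
    (fun j => ?_) (fun j => ?_)
  · rw [s59u_r2_SigEmb_apply, s59u_r2_PsiEmb_X, s59u_r2_Sig_y_other Λ κ hκ D g t l hl]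
    exact X_mem_maximalIdeal _
  · rw [s59u_r2_SigEmb_apply, s59u_r2_PsiEmb_X, s59u_r2_Sig_y_other Λ κ hκ D g t l hl]

/-- the witness map `Σ_t ∘ Ψ ∘ π_ch`. -/
def s59u_r2_wit (g : ℕ) (ch : s59r_Ch Λ) (t : Fin r) :
    s59r_Flat 𝒪 m r g →+* MvPowerSeries (Fin (g + r * 3)) (s59u_st_stage m κ hκ).A :=
  (s59u_r2_Sig Λ κ hκ D g t).toRingHom.comp
    ((s59u_st_Psi (s59u_st_stage m κ hκ) (g + r * 3)).toRingHom.comp (s59r_pi Λ m g ch).toRingHom)

theorem s59u_r2_wit_apply (g : ℕ) (ch : s59r_Ch Λ) (t : Fin r) (x : s59r_Flat 𝒪 m r g) :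
    s59u_r2_wit Λ κ hκ D g ch t x = s59u_r2_Sig Λ κ hκ D g t
      (s59u_st_Psi (s59u_st_stage m κ hκ) (g + r * 3) (s59r_pi Λ m g ch x)) := rfl

/-- **the witness prime** at the prime `t`, over the component `ch`. -/
def s59u_r2_Q (g : ℕ) (ch : s59r_Ch Λ) (t : Fin r) : Ideal (s59r_Flat 𝒪 m r g) :=
  RingHom.ker (s59u_r2_wit Λ κ hκ D g ch t)

instance s59u_r2_Q_isPrime (g : ℕ) (ch : s59r_Ch Λ) (t : Fin r) :
    (s59u_r2_Q Λ κ hκ D g ch t).IsPrime := by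
  haveI : IsDomain (MvPowerSeries (Fin (g + r * 3)) (s59u_st_stage m κ hκ).A) :=
    NoZeroDivisors.to_isDomain _
  rw [s59u_r2_Q]
  exact RingHom.ker_isPrime _

theorem s59u_r2_KK_le_Q (g : ℕ) (ch : s59r_Ch Λ) (t : Fin r) :
    s59u_r2_KK Λ κ hκ g ch ≤ s59u_r2_Q Λ κ hκ D g ch t := by
  intro x hx
  rw [s59u_r2_KK, Ideal.mem_comap, s59u_st_KK, RingHom.mem_ker] at hx
  rw [s59u_r2_Q, RingHom.mem_ker, s59u_r2_wit_apply, hx, map_zero]

theorem s59u_r2_wit_loc (g : ℕ) (ch : s59r_Ch Λ) (t l : Fin r) (x : s59r_Loc 𝒪) :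
    s59u_r2_wit Λ κ hκ D g ch t (s59r_loc m g l x) =
      s59u_r2_SigEmb Λ κ hκ D g t l (s59r_ParHom (Λ l) (ch l) x) := by
  rw [s59u_r2_wit_apply, s59r_pi_loc_apply, s59u_r2_SigEmb_apply, s59u_r2_PsiEmb_apply]

/-- membership of local elements in the witness prime, at the prime `t`. -/
theorem s59u_r2_loc_mem_Q_self (g : ℕ) (ch : s59r_Ch Λ) (t : Fin r) (x : s59r_Loc 𝒪) :
    s59r_loc m g t x ∈ s59u_r2_Q Λ κ hκ D g ch t ↔
      (D t).sub (s59r_ParHom (Λ t) (ch t) x) = 0 := by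
  rw [s59u_r2_Q, RingHom.mem_ker, s59u_r2_wit_loc, s59u_r2_SigEmb_self, AlgHom.comp_apply]
  constructor
  · intro h
    exact s59u_r2_PsiEmb_injective κ hκ g t (by rw [h, map_zero])
  · intro h
    rw [h, map_zero]

/-- membership of local elements in the witness prime, away from `t`. -/
theorem s59u_r2_loc_mem_Q_other (g : ℕ) (ch : s59r_Ch Λ) (t l : Fin r) (hl : l ≠ t)
    (x : s59r_Loc 𝒪) :
    s59r_loc m g l x ∈ s59u_r2_Q Λ κ hκ D g ch t ↔ s59r_ParHom (Λ l) (ch l) x = 0 := by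
  rw [s59u_r2_Q, RingHom.mem_ker, s59u_r2_wit_loc, s59u_r2_SigEmb_other Λ κ hκ D g t l hl]
  constructor
  · intro h
    exact s59u_r2_PsiEmb_injective κ hκ g l (by rw [h, map_zero])
  · intro h
    rw [h, map_zero]

/-- membership in the smooth witness prime of an element whose image under `Ψ ∘ π_ch` is a
constant. -/
theorem s59u_r2_mem_Q_of_C (g : ℕ) (ch : s59r_Ch Λ) (t : Fin r) (F : s59r_Flat 𝒪 m r g)
    (a : (s59u_st_stage m κ hκ).A)
    (hF : s59u_st_Psi (s59u_st_stage m κ hκ) (g + r * 3) (s59r_pi Λ m g ch F) = C a) :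
    F ∈ s59u_r2_Q Λ κ hκ D g ch t ↔ a = 0 := by
  rw [s59u_r2_Q, RingHom.mem_ker, s59u_r2_wit_apply, hF, s59u_r2_Sig_C]
  constructor
  · intro h
    exact MvPowerSeries.C_injective (h.trans (map_zero _).symm)
  · intro h
    rw [h, map_zero]

end Smooth

section Quad

variable {𝒪 : Type} [CommRing 𝒪] [IsLocalRing 𝒪] [IsNoetherianRing 𝒪] [IsDomain 𝒪]
  [IsAdicComplete (maximalIdeal 𝒪) 𝒪] [Finite (ResidueField 𝒪)]

variable {m r g : ℕ} (Λ : Fin r → s59r_Model 𝒪) (κ : Fin m → s59u_st_Kind 𝒪)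
  (hκ : ∀ j, (κ j).Hyp) (D : ∀ l, s59r_RaiseData (Λ l))

/-- the quadric `Q(W_j) − t` in `𝒫^Λ`. -/
def s59u_r2_quadWB (r g : ℕ) (j : Fin m) (t : 𝒪) : s59r_Flat 𝒪 m r g :=
  s59r_WB j 0 ^ 2 + s59r_WB j 1 * s59r_WB j 2 - C t

/-- **the Gram determinant at a prime of type (iv)**: `(u+1)² − (2a)² = −4 (Q(W_j) − ϑ²)` for
`a = tr ρ(φ_j) / 2` (`a² = u + Q(W_j)`) and `4 ϑ² = (u−1)²`. -/
theorem s59u_r2_gram (j : Fin m) (u ϑ : 𝒪) (h4 : 4 * ϑ ^ 2 = (u - 1) ^ 2)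
    (a : s59r_Flat 𝒪 m r g)
    (ha : a ^ 2 = C u + (s59r_WB j 0 ^ 2 + s59r_WB j 1 * s59r_WB j 2)) :
    (C (u + 1) : s59r_Flat 𝒪 m r g) * C (u + 1) - (2 * a) * (2 * a) =
      -4 * s59u_r2_quadWB r g j (ϑ ^ 2) := by
  have h4' : (4 : s59r_Flat 𝒪 m r g) * C ϑ ^ 2 = (C u - 1) ^ 2 := by
    have := congrArg (C (σ := s59r_Idx m r g) (R := 𝒪)) h4
    rw [map_mul, map_pow, map_pow, map_sub, map_one, map_ofNat] at this
    exact this
  unfold s59u_r2_quadWB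
  rw [map_add, map_one, map_pow]
  have : (2 * a) * (2 * a) = 4 * a ^ 2 := by ring
  rw [this, ha]
  linear_combination (-1 : s59r_Flat 𝒪 m r g) * h4'

theorem s59u_r2_pi_quadWB (ch : s59r_Ch Λ) (j : Fin m) (t : 𝒪) :
    s59r_pi Λ m g ch (s59u_r2_quadWB r g j t) = s59u_st_quadW (g + r * 3) j t := by
  rw [s59u_r2_quadWB, s59u_st_quadW, map_sub, map_add, map_pow, map_mul, s59r_pi_WB,
    s59r_pi_WB, s59r_pi_WB, s59r_pi_C]

theorem s59u_r2_quadWB_mem_KK (ch : s59r_Ch Λ) (j : Fin m) (θ : 𝒪) (hj : κ j = .st θ) :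
    s59u_r2_quadWB r g j (θ ^ 2) ∈ s59u_r2_KK Λ κ hκ g ch := by
  rw [s59u_r2_KK, Ideal.mem_comap, s59u_r2_pi_quadWB]
  exact s59u_st_quadW_mem_KK κ hκ _ j θ hj

theorem s59u_r2_quadWB_not_mem_KK (ch : s59r_Ch Λ) (j : Fin m) (hj : κ j = .unr) (t : 𝒪) :
    s59u_r2_quadWB r g j t ∉ s59u_r2_KK Λ κ hκ g ch := by
  rw [s59u_r2_KK, Ideal.mem_comap, s59u_r2_pi_quadWB]
  exact s59u_st_quadW_not_mem_KK κ hκ _ j hj t

theorem s59u_r2_VB_mem_KK (ch : s59r_Ch Λ) (j : Fin m) (hj : κ j = .unr) (k : Fin 3) :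
    (s59r_VB j k : s59r_Flat 𝒪 m r g) ∈ s59u_r2_KK Λ κ hκ g ch := by
  rw [s59u_r2_KK, Ideal.mem_comap, s59r_pi_VB]
  exact s59u_st_V_mem_KK κ hκ _ j hj k

theorem s59u_r2_VB_not_mem_KK (ch : s59r_Ch Λ) (j : Fin m) (θ : 𝒪) (hj : κ j = .st θ) :
    (s59r_VB j 2 : s59r_Flat 𝒪 m r g) ∉ s59u_r2_KK Λ κ hκ g ch := by
  rw [s59u_r2_KK, Ideal.mem_comap, s59r_pi_VB]
  exact s59u_st_V_not_mem_KK κ hκ _ j θ hj

/-- at an index of kind `st`, `N ≠ 0` at the smooth witness primes. -/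
theorem s59u_r2_VB_not_mem_Q (ch : s59r_Ch Λ) (t : Fin r) (j : Fin m) (θ : 𝒪)
    (hj : κ j = .st θ) :
    (s59r_VB j 2 : s59r_Flat 𝒪 m r g) ∉ s59u_r2_Q Λ κ hκ D g ch t := by
  rw [s59u_r2_mem_Q_of_C Λ κ hκ D g ch t _ _ (by rw [s59r_pi_VB, s59u_st_Psi_V])]
  have h := (s59u_st_stage m κ hκ).ne j
  rw [hj] at h
  exact h

/-- at an index of kind `unr`, the quadric is not a constant at the smooth witness primes. -/
theorem s59u_r2_quadWB_not_mem_Q (ch : s59r_Ch Λ) (t : Fin r) (j : Fin m) (hj : κ j = .unr)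
    (t' : 𝒪) : s59u_r2_quadWB r g j t' ∉ s59u_r2_Q Λ κ hκ D g ch t := by
  rw [s59u_r2_mem_Q_of_C Λ κ hκ D g ch t _ _
    (by rw [s59u_r2_pi_quadWB, s59u_st_Psi_quadW])]
  have h := (s59u_st_stage m κ hκ).ne j
  rw [hj] at h
  exact h t'

/-! ### the witness at a prime of type (iv) -/

/-- **the witness prime** of the switch `unr → st θ` at the tower index `j`, over the
component `ch`. -/
def s59u_r2_Q4 (g : ℕ) (ch : s59r_Ch Λ) (j : Fin m) (hj : κ j = .unr) (θ : 𝒪)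
    (hθ : θ ∈ maximalIdeal 𝒪) : Ideal (s59r_Flat 𝒪 m r g) :=
  Ideal.comap (s59r_pi Λ m g ch) (s59u_st_Q κ hκ (g + r * 3) j hj θ hθ)

instance s59u_r2_Q4_isPrime (g : ℕ) (ch : s59r_Ch Λ) (j : Fin m) (hj : κ j = .unr) (θ : 𝒪)
    (hθ : θ ∈ maximalIdeal 𝒪) : (s59u_r2_Q4 Λ κ hκ g ch j hj θ hθ).IsPrime := by
  rw [s59u_r2_Q4]
  exact Ideal.comap_isPrime _ _

theorem s59u_r2_KK_le_Q4 (g : ℕ) (ch : s59r_Ch Λ) (j : Fin m) (hj : κ j = .unr) (θ : 𝒪)
    (hθ : θ ∈ maximalIdeal 𝒪) :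
    s59u_r2_KK Λ κ hκ g ch ≤ s59u_r2_Q4 Λ κ hκ g ch j hj θ hθ :=
  Ideal.comap_mono (s59u_st_KK_le_Q κ hκ (g + r * 3) j hj θ hθ)

/-- `map σ ∘ Ψ ∘ emb_l` as an `𝒪`-algebra map. -/
def s59u_r2_SigEmb4 (g : ℕ) (l : Fin r) (j : Fin m) (hj : κ j = .unr) (θ : 𝒪)
    (hθ : θ ∈ maximalIdeal 𝒪) :
    s59r_Par 𝒪 →ₐ[𝒪] MvPowerSeries (Fin (g + r * 3)) (s59u_st_stage m κ hκ).A :=
  { toRingHom := (MvPowerSeries.map (s59u_st_sigma κ hκ j hj θ hθ).toRingHom).comp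
      (s59u_r2_PsiEmb κ hκ g l).toRingHom
    commutes' := by
      intro a
      show MvPowerSeries.map _ (s59u_r2_PsiEmb κ hκ g l (algebraMap 𝒪 _ a)) = algebraMap 𝒪 _ a
      rw [(s59u_r2_PsiEmb κ hκ g l).commutes, MvPowerSeries.algebraMap_apply,
        MvPowerSeries.map_C]
      show C ((s59u_st_sigma κ hκ j hj θ hθ) (algebraMap 𝒪 _ a)) = _
      rw [AlgHom.commutes] }

theorem s59u_r2_SigEmb4_apply (g : ℕ) (l : Fin r) (j : Fin m) (hj : κ j = .unr) (θ : 𝒪)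
    (hθ : θ ∈ maximalIdeal 𝒪) (x : s59r_Par 𝒪) :
    s59u_r2_SigEmb4 κ hκ g l j hj θ hθ x =
      MvPowerSeries.map (s59u_st_sigma κ hκ j hj θ hθ).toRingHom
        (s59u_st_Psi (s59u_st_stage m κ hκ) (g + r * 3) (s59r_emb m g l x)) := rfl

theorem s59u_r2_SigEmb4_injective (g : ℕ) (l : Fin r) (j : Fin m) (hj : κ j = .unr) (θ : 𝒪)
    (hθ : θ ∈ maximalIdeal 𝒪) : Function.Injective (s59u_r2_SigEmb4 κ hκ g l j hj θ hθ) :=
  s59r_inj_of_vars (s59u_st_stage m κ hκ).inj (fun k => s59r_yIdx r g l k)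
    (fun k k' h => (s59r_yIdx_inj h).2) _ (fun k => by
      rw [s59u_r2_SigEmb4_apply, s59r_emb_X, s59u_r2_Psi_yE, MvPowerSeries.map_X])

/-- membership of local elements in the witness prime of type (iv). -/
theorem s59u_r2_loc_mem_Q4 (g : ℕ) (ch : s59r_Ch Λ) (j : Fin m) (hj : κ j = .unr) (θ : 𝒪)
    (hθ : θ ∈ maximalIdeal 𝒪) (l : Fin r) (x : s59r_Loc 𝒪) :
    s59r_loc m g l x ∈ s59u_r2_Q4 Λ κ hκ g ch j hj θ hθ ↔
      s59r_ParHom (Λ l) (ch l) x = 0 := by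
  rw [s59u_r2_Q4, Ideal.mem_comap, s59u_st_Q, RingHom.mem_ker, s59r_pi_loc_apply]
  show s59u_r2_SigEmb4 κ hκ g l j hj θ hθ (s59r_ParHom (Λ l) (ch l) x) = 0 ↔ _
  constructor
  · intro h
    exact s59u_r2_SigEmb4_injective κ hκ g l j hj θ hθ (by rw [h, map_zero])
  · intro h
    rw [h, map_zero]

theorem s59u_r2_quadWB_mem_Q4 (ch : s59r_Ch Λ) (j : Fin m) (hj : κ j = .unr) (θ : 𝒪)
    (hθ : θ ∈ maximalIdeal 𝒪) :
    s59u_r2_quadWB r g j (θ ^ 2) ∈ s59u_r2_Q4 Λ κ hκ g ch j hj θ hθ := by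
  rw [s59u_r2_Q4, Ideal.mem_comap, s59u_r2_pi_quadWB]
  exact s59u_st_quadW_mem_Q κ hκ _ j hj θ hθ

theorem s59u_r2_VB_not_mem_Q4 (ch : s59r_Ch Λ) (j : Fin m) (hj : κ j = .unr) (θ : 𝒪)
    (hθ : θ ∈ maximalIdeal 𝒪) (j' : Fin m) (hjj : j' ≠ j) (θ' : 𝒪) (hj' : κ j' = .st θ') :
    (s59r_VB j' 2 : s59r_Flat 𝒪 m r g) ∉ s59u_r2_Q4 Λ κ hκ g ch j hj θ hθ := by
  rw [s59u_r2_Q4, Ideal.mem_comap, s59r_pi_VB]
  exact s59u_st_V_not_mem_Q κ hκ _ j hj θ hθ j' hjj θ' hj'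

theorem s59u_r2_quadWB_not_mem_Q4 (ch : s59r_Ch Λ) (j : Fin m) (hj : κ j = .unr) (θ : 𝒪)
    (hθ : θ ∈ maximalIdeal 𝒪) (j' : Fin m) (hjj : j' ≠ j) (hj' : κ j' = .unr) (t : 𝒪) :
    s59u_r2_quadWB r g j' t ∉ s59u_r2_Q4 Λ κ hκ g ch j hj θ hθ := by
  rw [s59u_r2_Q4, Ideal.mem_comap, s59u_r2_pi_quadWB]
  exact s59u_st_quadW_not_mem_Q κ hκ _ j hj θ hθ j' hjj hj' t

end Quad

section Chain

variable {𝒪 : Type} [CommRing 𝒪] [IsLocalRing 𝒪] [IsNoetherianRing 𝒪] [IsDomain 𝒪]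
  [IsAdicComplete (maximalIdeal 𝒪) 𝒪] [Finite (ResidueField 𝒪)]

variable {m r r4 : ℕ} (Λ : Fin r → s59r_Model 𝒪) (D : ∀ l, s59r_RaiseData (Λ l))
  (κ : (Fin r4 → Bool) → Fin m → s59u_st_Kind 𝒪) (hκ : ∀ b j, (κ b j).Hyp)
  (J : Fin r4 → Fin m) (ϑ : Fin r4 → 𝒪)

open scoped Classical in
/-- **the chain of components** along the order `step` of the `r + r₄` raising primes
(`Sum.inl l` = the smooth prime `l`, `Sum.inr i` = the prime `i` of type (iv)): at time `t` the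
primes `step t'`, `t' < t`, have been raised. -/
def s59u_r2_chain (step : ℕ → Fin r ⊕ Fin r4) (t : ℕ) : (Fin r4 → Bool) × s59r_Ch Λ :=
  (fun i => decide (∃ t', t' < t ∧ step t' = Sum.inr i),
    fun l => if ∃ t', t' < t ∧ step t' = Sum.inl l then (D l).tgt else (D l).unr)

/-- the Gram determinants along the chain. -/
def s59u_r2_delta (g : ℕ) (step : ℕ → Fin r ⊕ Fin r4) (t : ℕ) : s59r_Flat 𝒪 m r g :=
  Sum.elim (fun l => s59r_loc m g l (D l).δ)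
    (fun i => -4 * s59u_r2_quadWB r g (J i) (ϑ i ^ 2)) (step t)

theorem s59u_r2_exists_lt_succ (P : ℕ → Prop) (t : ℕ) :
    (∃ t', t' < t + 1 ∧ P t') ↔ (∃ t', t' < t ∧ P t') ∨ P t := by
  constructor
  · rintro ⟨t', h1, h2⟩
    rcases Nat.lt_succ_iff_lt_or_eq.mp h1 with h | h
    · exact Or.inl ⟨t', h, h2⟩
    · exact Or.inr (h ▸ h2)
  · rintro (⟨t', h1, h2⟩ | h)
    · exact ⟨t', Nat.lt_succ_of_lt h1, h2⟩
    · exact ⟨t, Nat.lt_succ_self t, h⟩

theorem s59u_r2_chain_fst (step : ℕ → Fin r ⊕ Fin r4) (t : ℕ) (i : Fin r4) :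
    (s59u_r2_chain Λ D step t).1 i = true ↔ ∃ t', t' < t ∧ step t' = Sum.inr i := by
  show decide _ = true ↔ _
  rw [decide_eq_true_iff]

theorem s59u_r2_chain_snd_pos (step : ℕ → Fin r ⊕ Fin r4) (t : ℕ) (l : Fin r)
    (h : ∃ t', t' < t ∧ step t' = Sum.inl l) :
    (s59u_r2_chain Λ D step t).2 l = (D l).tgt := if_pos h

theorem s59u_r2_chain_snd_neg (step : ℕ → Fin r ⊕ Fin r4) (t : ℕ) (l : Fin r)
    (h : ¬ ∃ t', t' < t ∧ step t' = Sum.inl l) :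
    (s59u_r2_chain Λ D step t).2 l = (D l).unr := if_neg h

theorem s59u_r2_chain_succ_fst_ne (step : ℕ → Fin r ⊕ Fin r4) (t : ℕ) (i : Fin r4)
    (h : step t ≠ Sum.inr i) :
    (s59u_r2_chain Λ D step (t + 1)).1 i = (s59u_r2_chain Λ D step t).1 i := by
  rw [Bool.eq_iff_iff, s59u_r2_chain_fst, s59u_r2_chain_fst,
    s59u_r2_exists_lt_succ (fun t' => step t' = Sum.inr i) t]
  exact or_iff_left h

theorem s59u_r2_chain_succ_fst_self (step : ℕ → Fin r ⊕ Fin r4) (t : ℕ) (i : Fin r4)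
    (h : step t = Sum.inr i) : (s59u_r2_chain Λ D step (t + 1)).1 i = true := by
  rw [s59u_r2_chain_fst]
  exact ⟨t, Nat.lt_succ_self t, h⟩

theorem s59u_r2_chain_succ_snd_ne (step : ℕ → Fin r ⊕ Fin r4) (t : ℕ) (l : Fin r)
    (h : step t ≠ Sum.inl l) :
    (s59u_r2_chain Λ D step (t + 1)).2 l = (s59u_r2_chain Λ D step t).2 l := by
  by_cases h1 : ∃ t', t' < t ∧ step t' = Sum.inl l
  · rw [s59u_r2_chain_snd_pos Λ D step t l h1, s59u_r2_chain_snd_pos Λ D step (t + 1) l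
      ((s59u_r2_exists_lt_succ (fun t' => step t' = Sum.inl l) t).mpr (Or.inl h1))]
  · rw [s59u_r2_chain_snd_neg Λ D step t l h1, s59u_r2_chain_snd_neg Λ D step (t + 1) l
      (fun h2 => ((s59u_r2_exists_lt_succ (fun t' => step t' = Sum.inl l) t).mp h2).elim h1 h)]

theorem s59u_r2_chain_succ_snd_self (step : ℕ → Fin r ⊕ Fin r4) (t : ℕ) (l : Fin r)
    (h : step t = Sum.inl l) : (s59u_r2_chain Λ D step (t + 1)).2 l = (D l).tgt :=
  s59u_r2_chain_snd_pos Λ D step (t + 1) l ⟨t, Nat.lt_succ_self t, h⟩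

/-- `−4` is a unit. -/
theorem s59u_r2_neg_four_mul_mem {g : ℕ} (i2 : 𝒪) (hi2 : 2 * i2 = 1)
    (I : Ideal (s59r_Flat 𝒪 m r g)) (x : s59r_Flat 𝒪 m r g) : -4 * x ∈ I ↔ x ∈ I := by
  constructor
  · intro h
    have h4 : (4 : s59r_Flat 𝒪 m r g) * C i2 ^ 2 = 1 := by
      have h2 : (4 : 𝒪) * i2 ^ 2 = 1 := by
        calc (4 : 𝒪) * i2 ^ 2 = (2 * i2) ^ 2 := by ring
          _ = 1 := by rw [hi2, one_pow]
      have := congrArg (C (σ := s59r_Idx m r g) (R := 𝒪)) h2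
      rw [map_mul, map_pow, map_one, map_ofNat] at this
      exact this
    have e1 : x = -(C i2 ^ 2) * (-4 * x) := by linear_combination (-x) * h4
    rw [e1]
    exact Ideal.mul_mem_left _ _ h
  · intro h
    exact Ideal.mul_mem_left _ _ h

/-- **[F-RING′] for smooth local models AND primes of type (iv)**, along any order of the
raising primes. -/
theorem s59u_r2_ringData (i2 : 𝒪) (hi2 : 2 * i2 = 1) (hJ : Function.Injective J)
    (hϑ : ∀ i, ϑ i ∈ maximalIdeal 𝒪)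
    (hκJ : ∀ b i, κ b (J i) =
      if b i = true then s59u_st_Kind.st (ϑ i) else s59u_st_Kind.unr)
    (step : ℕ → Fin r ⊕ Fin r4) (k : ℕ) (hstep : ∀ t < k, ∀ t' < t, step t' ≠ step t)
    (g : ℕ) (S : Type) [CommRing S]
    (hS : ringKrullDim 𝒪 + ((3 * m + (g + r * 3) : ℕ) : WithBot ℕ∞) ≤ ringKrullDim S) :
    s59f_RingData' S (s59r_Flat 𝒪 m r g)
      (Finset.univ : Finset ((Fin r4 → Bool) × s59r_Ch Λ))
      (fun p => s59u_r2_KK Λ (κ p.1) (hκ p.1) g p.2) k (s59u_r2_chain Λ D step)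
      (s59u_r2_delta Λ D J ϑ g step)
      (fun t => Ideal.span {s59u_r2_delta Λ D J ϑ g step t}) where
  prime := fun p _ => inferInstance
  dim := fun p _ => (s59u_r2_KK_dim Λ (κ p.1) (hκ p.1) g p.2).trans hS
  mem0 := Finset.mem_univ _
  wit := by
    classical
    intro t ht
    set b := (s59u_r2_chain Λ D step t).1 with hb
    set ch := (s59u_r2_chain Λ D step t).2 with hch
    have hfst : ∀ i, b i = true ↔ ∃ t', t' < t ∧ step t' = Sum.inr i :=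
      s59u_r2_chain_fst Λ D step t
    rcases hst : step t with l | i₀
    · -- a smooth prime
      have hct : ch l = (D l).unr := by
        refine s59u_r2_chain_snd_neg Λ D step t l ?_
        rintro ⟨t', ht', h⟩
        exact hstep t ht t' ht' (h.trans hst.symm)
      refine ⟨s59u_r2_Q Λ (κ b) (hκ b) D g ch l, inferInstance,
        s59u_r2_KK_le_Q Λ (κ b) (hκ b) D g ch l, ?_, ?_⟩
      · show s59u_r2_delta Λ D J ϑ g step t ∈ _
        rw [s59u_r2_delta, hst, Sum.elim_inl, s59u_r2_loc_mem_Q_self, hct]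
        exact (D l).w1
      · rintro ⟨b', ch'⟩ _ hle h𝔫
        have hδ : s59r_loc m g l (D l).δ ∈ s59u_r2_KK Λ (κ b') (hκ b') g ch' := by
          refine h𝔫 (Ideal.subset_span ?_)
          rw [s59u_r2_delta, hst]
          exact Set.mem_singleton _
        rw [s59u_r2_loc_mem_KK] at hδ
        have h1 : ch' l = (D l).tgt := by
          refine (D l).w2 _ (fun x hx => ?_) hδ
          have h2 : s59r_loc m g l x ∈ s59u_r2_KK Λ (κ b') (hκ b') g ch' :=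
            (s59u_r2_loc_mem_KK Λ (κ b') (hκ b') g ch' l x).mpr hx
          have h3 := hle h2
          rw [s59u_r2_loc_mem_Q_self, hct] at h3
          exact h3
        have h2 : ∀ l', l' ≠ l → ch' l' = ch l' := by
          intro l' hl
          refine (Λ l').dist _ _ (fun x hx => ?_)
          have h2 : s59r_loc m g l' x ∈ s59u_r2_KK Λ (κ b') (hκ b') g ch' :=
            (s59u_r2_loc_mem_KK Λ (κ b') (hκ b') g ch' l' x).mpr hx
          have h3 := hle h2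
          rw [s59u_r2_loc_mem_Q_other Λ (κ b) (hκ b) D g _ _ _ hl] at h3
          exact h3
        have h3 : ∀ i, b' i = b i := by
          intro i
          rcases hb'i : b' i with _ | _ <;> rcases hbi' : b i with _ | _
          · rfl
          · exfalso
            have e1 : κ b' (J i) = .unr := by rw [hκJ, if_neg (by simp [hb'i])]
            have e2 : κ b (J i) = .st (ϑ i) := by rw [hκJ, if_pos hbi']
            exact s59u_r2_VB_not_mem_Q Λ (κ b) (hκ b) D ch l (J i) (ϑ i) e2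
              (hle (s59u_r2_VB_mem_KK Λ (κ b') (hκ b') ch' (J i) e1 2))
          · exfalso
            have e1 : κ b' (J i) = .st (ϑ i) := by rw [hκJ, if_pos hb'i]
            have e2 : κ b (J i) = .unr := by rw [hκJ, if_neg (by simp [hbi'])]
            exact s59u_r2_quadWB_not_mem_Q Λ (κ b) (hκ b) D ch l (J i) e2 _
              (hle (s59u_r2_quadWB_mem_KK Λ (κ b') (hκ b') ch' (J i) (ϑ i) e1))
          · rfl
        refine Prod.ext (funext fun i => ?_) (funext fun l' => ?_)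
        · show b' i = _
          rw [h3 i, s59u_r2_chain_succ_fst_ne Λ D step t i (by rw [hst]; exact Sum.inl_ne_inr)]
        · show ch' l' = _
          by_cases hl : l' = l
          · subst hl
            rw [h1, s59u_r2_chain_succ_snd_self Λ D step t l' hst]
          · rw [h2 l' hl, s59u_r2_chain_succ_snd_ne Λ D step t l'
              (by rw [hst]; intro h; exact hl (Sum.inl_injective h).symm)]
    · -- a prime of type (iv)
      have hbi : ¬ b i₀ = true := by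
        rw [hfst]
        rintro ⟨t', ht', h⟩
        exact hstep t ht t' ht' (h.trans hst.symm)
      have hj : κ b (J i₀) = .unr := by rw [hκJ, if_neg hbi]
      refine ⟨s59u_r2_Q4 Λ (κ b) (hκ b) g ch (J i₀) hj (ϑ i₀) (hϑ i₀), inferInstance,
        s59u_r2_KK_le_Q4 Λ (κ b) (hκ b) g ch (J i₀) hj (ϑ i₀) (hϑ i₀), ?_, ?_⟩
      · show s59u_r2_delta Λ D J ϑ g step t ∈ _
        rw [s59u_r2_delta, hst, Sum.elim_inr]
        exact Ideal.mul_mem_left _ _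
          (s59u_r2_quadWB_mem_Q4 Λ (κ b) (hκ b) ch (J i₀) hj (ϑ i₀) (hϑ i₀))
      · rintro ⟨b', ch'⟩ _ hle h𝔫
        have hδ : s59u_r2_quadWB r g (J i₀) (ϑ i₀ ^ 2) ∈
            s59u_r2_KK Λ (κ b') (hκ b') g ch' := by
          rw [← s59u_r2_neg_four_mul_mem i2 hi2]
          refine h𝔫 (Ideal.subset_span ?_)
          rw [s59u_r2_delta, hst]
          exact Set.mem_singleton _
        have h1 : b' i₀ = true := by
          by_contra hne
          have e1 : κ b' (J i₀) = .unr := by rw [hκJ, if_neg hne]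
          exact s59u_r2_quadWB_not_mem_KK Λ (κ b') (hκ b') ch' (J i₀) e1 _ hδ
        have h2 : ∀ i, i ≠ i₀ → b' i = b i := by
          intro i hi
          have hJi : J i ≠ J i₀ := fun h => hi (hJ h)
          rcases hb'i : b' i with _ | _ <;> rcases hbi' : b i with _ | _
          · rfl
          · exfalso
            have e1 : κ b' (J i) = .unr := by rw [hκJ, if_neg (by simp [hb'i])]
            have e2 : κ b (J i) = .st (ϑ i) := by rw [hκJ, if_pos hbi']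
            exact s59u_r2_VB_not_mem_Q4 Λ (κ b) (hκ b) ch (J i₀) hj (ϑ i₀) (hϑ i₀) (J i) hJi
              (ϑ i) e2 (hle (s59u_r2_VB_mem_KK Λ (κ b') (hκ b') ch' (J i) e1 2))
          · exfalso
            have e1 : κ b' (J i) = .st (ϑ i) := by rw [hκJ, if_pos hb'i]
            have e2 : κ b (J i) = .unr := by rw [hκJ, if_neg (by simp [hbi'])]
            exact s59u_r2_quadWB_not_mem_Q4 Λ (κ b) (hκ b) ch (J i₀) hj (ϑ i₀) (hϑ i₀) (J i)
              hJi e2 _ (hle (s59u_r2_quadWB_mem_KK Λ (κ b') (hκ b') ch' (J i) (ϑ i) e1))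
          · rfl
        have h3 : ∀ l, ch' l = ch l := by
          intro l
          refine (Λ l).dist _ _ (fun x hx => ?_)
          have h4 : s59r_loc m g l x ∈ s59u_r2_KK Λ (κ b') (hκ b') g ch' :=
            (s59u_r2_loc_mem_KK Λ (κ b') (hκ b') g ch' l x).mpr hx
          exact (s59u_r2_loc_mem_Q4 Λ (κ b) (hκ b) g ch (J i₀) hj (ϑ i₀) (hϑ i₀) l x).mp
            (hle h4)
        refine Prod.ext (funext fun i => ?_) (funext fun l => ?_)
        · show b' i = _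
          by_cases hi : i = i₀
          · subst hi
            rw [h1, s59u_r2_chain_succ_fst_self Λ D step t i hst]
          · rw [h2 i hi, s59u_r2_chain_succ_fst_ne Λ D step t i
              (by rw [hst]; intro h; exact hi (Sum.inr_injective h).symm)]
        · show ch' l = _
          rw [h3 l, s59u_r2_chain_succ_snd_ne Λ D step t l (by rw [hst]; exact Sum.inr_ne_inl)]

end Chain

section Append

variable {𝒪 : Type} [CommRing 𝒪] [IsLocalRing 𝒪] [IsNoetherianRing 𝒪] [IsDomain 𝒪]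
  [IsAdicComplete (maximalIdeal 𝒪) 𝒪] [Finite (ResidueField 𝒪)]

variable {m₀ r r4 : ℕ} (Λ : Fin r → s59r_Model 𝒪) (D : ∀ l, s59r_RaiseData (Λ l))
  (θ : Fin m₀ → 𝒪) (ϑ : Fin r4 → 𝒪)

/-- the kinds of the `m₀ + r₄` tower indices on the component `b`: `χ_{θ j}` at the first `m₀`
indices, `st (ϑ i)` or `unr` at the index `m₀ + i` according to `b i`. -/
def s59u_r2_kappa (b : Fin r4 → Bool) : Fin (m₀ + r4) → s59u_st_Kind 𝒪 :=
  Fin.append (fun j => s59u_st_Kind.chi (θ j))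
    (fun i => if b i = true then s59u_st_Kind.st (ϑ i) else s59u_st_Kind.unr)

theorem s59u_r2_kappa_left (b : Fin r4 → Bool) (j : Fin m₀) :
    s59u_r2_kappa θ ϑ b (Fin.castAdd r4 j) = s59u_st_Kind.chi (θ j) :=
  Fin.append_left _ _ j

theorem s59u_r2_kappa_right (b : Fin r4 → Bool) (i : Fin r4) :
    s59u_r2_kappa θ ϑ b (Fin.natAdd m₀ i) =
      if b i = true then s59u_st_Kind.st (ϑ i) else s59u_st_Kind.unr :=
  Fin.append_right _ _ i

theorem s59u_r2_kappa_hyp (hθ : ∀ j, s59l_Hyp (θ j)) (hϑ : ∀ i, s59l_Hyp (ϑ i))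
    (b : Fin r4 → Bool) (j : Fin (m₀ + r4)) : (s59u_r2_kappa θ ϑ b j).Hyp := by
  refine Fin.addCases (fun j => ?_) (fun i => ?_) j
  · rw [s59u_r2_kappa_left]
    exact hθ j
  · rw [s59u_r2_kappa_right]
    split_ifs
    · exact hϑ i
    · trivial

/-- **[F-RING′]**, concrete form: `m₀` primes of type `χ`, `r₄` raising primes of type (iv), `r`
raising primes with smooth local models. -/
theorem s59u_r2_ringData_append (i2 : 𝒪) (hi2 : 2 * i2 = 1) (hθ : ∀ j, s59l_Hyp (θ j))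
    (hϑ : ∀ i, s59l_Hyp (ϑ i)) (step : ℕ → Fin r ⊕ Fin r4) (k : ℕ)
    (hstep : ∀ t < k, ∀ t' < t, step t' ≠ step t) (g : ℕ) (S : Type) [CommRing S]
    (hS : ringKrullDim 𝒪 + ((3 * (m₀ + r4) + (g + r * 3) : ℕ) : WithBot ℕ∞) ≤
      ringKrullDim S) :
    s59f_RingData' S (s59r_Flat 𝒪 (m₀ + r4) r g)
      (Finset.univ : Finset ((Fin r4 → Bool) × s59r_Ch Λ))
      (fun p => s59u_r2_KK Λ (s59u_r2_kappa θ ϑ p.1) (s59u_r2_kappa_hyp θ ϑ hθ hϑ p.1) g p.2) k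
      (s59u_r2_chain Λ D step) (s59u_r2_delta Λ D (Fin.natAdd m₀) ϑ g step)
      (fun t => Ideal.span {s59u_r2_delta Λ D (Fin.natAdd m₀) ϑ g step t}) :=
  s59u_r2_ringData Λ D (s59u_r2_kappa θ ϑ) (s59u_r2_kappa_hyp θ ϑ hθ hϑ) (Fin.natAdd m₀) ϑ i2 hi2
    (Fin.natAdd_injective r4 m₀) (fun i => (hϑ i).mem)
    (fun b i => s59u_r2_kappa_right θ ϑ b i) step k hstep g S hS

/-- the relations of the concrete family, from the relations at the two blocks of indices. -/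
theorem s59u_r2_rel_append {g : ℕ} (hθ : ∀ j, s59l_Hyp (θ j)) (hϑ : ∀ i, s59l_Hyp (ϑ i))
    (b : Fin r4 → Bool) {T : Type} [CommRing T] [IsLocalRing T] [Algebra 𝒪 T]
    (φ : s59r_Flat 𝒪 (m₀ + r4) r g →ₐ[𝒪] T)
    (hloc : ∀ t ∈ maximalIdeal 𝒪, algebraMap 𝒪 T t ∈ maximalIdeal T)
    (hinj : Function.Injective (algebraMap 𝒪 T)) (hmem : ∀ s, φ (X s) ∈ maximalIdeal T)
    (hB : ∀ j : Fin m₀, (s59u_st_Kind.chi (θ j)).Rel (algebraMap 𝒪 T)
      (fun k => φ (s59r_VB (Fin.castAdd r4 j) k)) (fun k => φ (s59r_WB (Fin.castAdd r4 j) k)))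
    (h4 : ∀ i : Fin r4,
      (if b i = true then s59u_st_Kind.st (ϑ i) else s59u_st_Kind.unr).Rel (algebraMap 𝒪 T)
        (fun k => φ (s59r_VB (Fin.natAdd m₀ i) k)) (fun k => φ (s59r_WB (Fin.natAdd m₀ i) k)))
    (hm : ∀ l, (Λ l).rel T (fun k => φ (s59r_U l k))) :
    s59u_r2_Rel Λ (s59u_r2_kappa θ ϑ b) φ where
  loc := hloc
  inj := hinj
  mem := hmem
  rel := by
    intro j
    refine Fin.addCases (fun j => ?_) (fun i => ?_) j
    · rw [s59u_r2_kappa_left]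
      exact hB j
    · rw [s59u_r2_kappa_right]
      exact h4 i
  reg := fun j => s59u_st_reg_of_hyp _ hinj _ (s59u_r2_kappa_hyp θ ϑ hθ hϑ b j)
  mrel := hm

/-- **(K-kill) for reduced rings**, concrete form. -/
theorem s59u_r2_kill_append (hθ : ∀ j, s59l_Hyp (θ j)) (hϑ : ∀ i, s59l_Hyp (ϑ i)) (g : ℕ)
    {Cr : Type} [CommRing Cr] [IsLocalRing Cr] [IsNoetherianRing Cr]
    [IsAdicComplete (maximalIdeal Cr) Cr] [IsReduced Cr] [Algebra 𝒪 Cr]
    (φ : s59r_Flat 𝒪 (m₀ + r4) r g →ₐ[𝒪] Cr)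
    (h : ∀ 𝔭 ∈ minimalPrimes Cr, ∀ [IsLocalRing (Cr ⧸ 𝔭)], ∃ b : Fin r4 → Bool,
      s59u_r2_Rel Λ (s59u_r2_kappa θ ϑ b) ((Ideal.Quotient.mkₐ 𝒪 𝔭).comp φ)) :
    (Finset.univ.inf fun p : (Fin r4 → Bool) × s59r_Ch Λ =>
      s59u_r2_KK Λ (s59u_r2_kappa θ ϑ p.1) (s59u_r2_kappa_hyp θ ϑ hθ hϑ p.1) g p.2) ≤
      RingHom.ker φ :=
  s59u_r2_KK_kill_reduced Λ (s59u_r2_kappa θ ϑ) (s59u_r2_kappa_hyp θ ϑ hθ hϑ) g φ h

end Append

end Fermat.Agent.Lib.S59
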