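/-
[LOC+s] part 14 (helper3, prefix `s59u_r2_`): requests (C2) of helper4 (#3831).

* `s59u_r2_KK_kill_ch` : the kill property with an EXPLICIT choice of components `ch` (the second
  half of `s59u_r2_KK_kill`): the kind-wise relations at the tower indices + a parametrisation of
  the local point at every smooth prime `l` on the component `ch l` ⇒ `𝒦_{κ,ch} ≤ ker φ`;
* `s59u_r2_KK_unr_le`  : **(R0)** if ALL kinds are `unr` and the unramified component of every model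
  is `N = 0` (`par unr = (0,0,0,y₀,y₁,y₂)`), then `𝒦_{κ, unr}` is killed by every local map to a
  complete local ring (NOT necessarily a domain) which kills the `N`-variables `VB j k`, `U l k`
  (`k = 0,1,2`);  `s59u_r2_KK_zero_le` : the same for `κ = s59u_r2_kappa (θ : Fin 0 → 𝒪) ϑ false`,
  the component `c 0` of `s59u_r2_chain`.
-/
import Mathlib
import Fermat.Agent.Lib.S59.R2Ring

set_option autoImplicit false
set_option linter.unusedSectionVars false
set_option linter.unusedVariables false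
set_option linter.style.haveILetI false

noncomputable section

namespace Fermat.Agent.Lib.S59

open IsLocalRing MvPowerSeries Fermat.Agent.Lib.Deform

section KillCh

variable {𝒪 : Type} [CommRing 𝒪] [IsLocalRing 𝒪] [IsNoetherianRing 𝒪] [IsDomain 𝒪]
  [IsAdicComplete (maximalIdeal 𝒪) 𝒪] [Finite (ResidueField 𝒪)]

variable {m r g : ℕ} (Λ : Fin r → s59r_Model 𝒪)

/-- **(K-kill) with an explicit choice of components.** -/
theorem s59u_r2_KK_kill_ch (κ : Fin m → s59u_st_Kind 𝒪) (hκ : ∀ j, (κ j).Hyp) (g : ℕ) {T : Type}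
    [CommRing T] [IsLocalRing T] [IsDomain T] [IsAdicComplete (maximalIdeal T) T] [Algebra 𝒪 T]
    (φ : s59r_Flat 𝒪 m r g →ₐ[𝒪] T) (hmem : ∀ s, φ (X s) ∈ maximalIdeal T)
    (hrel : ∀ j, (κ j).Rel (algebraMap 𝒪 T) (fun k => φ (s59r_VB j k))
      (fun k => φ (s59r_WB j k)))
    (hreg : ∀ j, (κ j).Reg (algebraMap 𝒪 T)) (ch : s59r_Ch Λ)
    (hch : ∀ l, ∃ (y : Fin 3 → T) (hy : ∀ j, y j ∈ maximalIdeal T),
      ∀ k, φ (s59r_U l k) = evalHom (R := 𝒪) (maximalIdeal T) y hy ((Λ l).par (ch l) k)) :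
    s59u_r2_KK Λ κ hκ g ch ≤ RingHom.ker φ := by
  classical
  choose y hy hv using hch
  -- the factor map
  let χv : s59l_Idx m (g + r * 3) → T :=
    Sum.elim (fun p => φ (s59r_VB p.1 p.2))
      (Sum.elim (fun p => φ (s59r_WB p.1 p.2))
        (fun i => Sum.elim (fun i => φ (s59r_XG i)) (fun p => y p.1 p.2) ((s59l_xe r g).symm i)))
  have hχv : ∀ s, χv s ∈ maximalIdeal T := by
    intro s
    rcases s with p | p | i
    · exact hmem _
    · exact hmem _
    · show Sum.elim _ _ ((s59l_xe r g).symm i) ∈ _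
      rcases (s59l_xe r g).symm i with i0 | p
      · exact hmem _
      · exact hy p.1 p.2
  let χ : s59l_Flat 𝒪 m (g + r * 3) →ₐ[𝒪] T := evalHom (maximalIdeal T) χv hχv
  have hχX : ∀ s, χ (X s) = χv s := fun s => evalHom_X _ _ _ s
  have hχV : ∀ j k, χ (s59l_V j k) = φ (s59r_VB j k) := fun j k => by
    rw [s59l_V, hχX]; rfl
  have hχW : ∀ j k, χ (s59l_W j k) = φ (s59r_WB j k) := fun j k => by
    rw [s59l_W, hχX]; rfl
  have hχx : ∀ i, χ (s59l_Xv (s59l_xe r g (Sum.inl i))) = φ (s59r_XG i) := fun i => by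
    rw [s59l_Xv, hχX]
    show Sum.elim _ _ ((s59l_xe r g).symm (s59l_xe r g (Sum.inl i))) = _
    rw [Equiv.symm_apply_apply]; rfl
  have hχy : ∀ l j, χ (s59l_yE m g l j) = y l j := fun l j => by
    rw [s59l_yE, s59l_Xv, hχX]
    show Sum.elim _ _ ((s59l_xe r g).symm (s59l_xe r g (Sum.inr (l, j)))) = _
    rw [Equiv.symm_apply_apply]; rfl
  have hrelK : s59u_st_RelK κ χ := by
    refine ⟨fun s => by rw [hχX]; exact hχv s, fun j => ?_, hreg⟩
    have e1 : (fun k => χ (s59l_V j k)) = fun k => φ (s59r_VB j k) := funext (hχV j)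
    have e2 : (fun k => χ (s59l_W j k)) = fun k => φ (s59r_WB j k) := funext (hχW j)
    rw [e1, e2]
    exact hrel j
  have hkill := s59u_st_KK_kill κ hκ (g + r * 3) χ hrelK
  -- `χ ∘ emb_l = ev_{y l}`
  have hemb : ∀ l, χ.comp (s59r_emb m g l) = evalHom (maximalIdeal T) (y l) (hy l) := by
    intro l
    refine algHom_ext_of_X (maximalIdeal T) (fun j => ?_) (fun j => ?_)
    · rw [AlgHom.comp_apply, s59r_emb_X, hχy]
      exact hy l j
    · rw [AlgHom.comp_apply, s59r_emb_X, hχy, evalHom_X]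
  have heq : φ = χ.comp (s59r_pi Λ m g ch) := by
    refine algHom_ext_of_X (maximalIdeal T) hmem fun s => ?_
    rw [AlgHom.comp_apply]
    rcases s with p | p | ⟨l, k⟩ | i
    · show φ (s59r_VB p.1 p.2) = χ (s59r_pi Λ m g ch (s59r_VB p.1 p.2))
      rw [s59r_pi_VB, hχV]
    · show φ (s59r_WB p.1 p.2) = χ (s59r_pi Λ m g ch (s59r_WB p.1 p.2))
      rw [s59r_pi_WB, hχW]
    · show φ (s59r_U l k) = χ (s59r_pi Λ m g ch (s59r_U l k))
      rw [s59r_pi_U, hv l k]
      have := congrArg (fun f => f ((Λ l).par (ch l) k)) (hemb l)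
      simp only [AlgHom.comp_apply] at this
      rw [this]
    · show φ (s59r_XG i) = χ (s59r_pi Λ m g ch (s59r_XG i))
      rw [s59r_pi_XG, hχx]
  intro F hF
  rw [s59u_r2_KK, Ideal.mem_comap] at hF
  have := hkill hF
  rw [RingHom.mem_ker] at this ⊢
  rw [heq, AlgHom.comp_apply, this]

end KillCh

section Zero

variable {𝒪 : Type} [CommRing 𝒪] [IsLocalRing 𝒪] [IsNoetherianRing 𝒪] [IsDomain 𝒪]
  [IsAdicComplete (maximalIdeal 𝒪) 𝒪] [Finite (ResidueField 𝒪)]

variable {m r g : ℕ} (Λ : Fin r → s59r_Model 𝒪)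

/-- the images of the variables under the retraction onto the locus `N = 0`. -/
def s59u_r2_zeroVals (m r g : ℕ) : s59r_Idx m r g → s59r_Flat 𝒪 m r g :=
  Sum.elim (fun _ => 0)
    (Sum.elim (fun p => s59r_WB p.1 p.2)
      (Sum.elim (fun p => if p.2.val < 3 then 0 else s59r_U p.1 p.2) (fun i => s59r_XG i)))

theorem s59u_r2_zeroVals_mem (s : s59r_Idx m r g) :
    (s59u_r2_zeroVals m r g s : s59r_Flat 𝒪 m r g) ∈ maximalIdeal (s59r_Flat 𝒪 m r g) := by
  rcases s with p | p | p | i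
  · exact zero_mem _
  · exact X_mem_maximalIdeal _
  · show (if p.2.val < 3 then 0 else s59r_U p.1 p.2) ∈ _
    split_ifs
    · exact zero_mem _
    · exact X_mem_maximalIdeal _
  · exact X_mem_maximalIdeal _

/-- the retraction of `𝒫^Λ` onto the locus `N = 0` (all `VB`, and `U l k` for `k < 3`, to `0`). -/
def s59u_r2_zero (m r g : ℕ) : s59r_Flat 𝒪 m r g →ₐ[𝒪] s59r_Flat 𝒪 m r g :=
  evalHom (maximalIdeal (s59r_Flat 𝒪 m r g)) (s59u_r2_zeroVals m r g)
    (fun s => s59u_r2_zeroVals_mem s)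

theorem s59u_r2_zero_X (s : s59r_Idx m r g) :
    s59u_r2_zero (𝒪 := 𝒪) m r g (X s) = s59u_r2_zeroVals m r g s := evalHom_X _ _ _ s

theorem s59u_r2_zero_VB (j : Fin m) (k : Fin 3) :
    s59u_r2_zero (𝒪 := 𝒪) m r g (s59r_VB j k) = 0 := by
  rw [s59r_VB, s59u_r2_zero_X]; rfl

theorem s59u_r2_zero_WB (j : Fin m) (k : Fin 3) :
    s59u_r2_zero (𝒪 := 𝒪) m r g (s59r_WB j k) = s59r_WB j k := by
  rw [s59r_WB, s59u_r2_zero_X]; rfl

theorem s59u_r2_zero_U (l : Fin r) (k : Fin 6) :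
    s59u_r2_zero (𝒪 := 𝒪) m r g (s59r_U l k) = if k.val < 3 then 0 else s59r_U l k := by
  rw [s59r_U, s59u_r2_zero_X]; rfl

theorem s59u_r2_zero_XG (i : Fin g) :
    s59u_r2_zero (𝒪 := 𝒪) m r g (s59r_XG i) = s59r_XG i := by
  rw [s59r_XG, s59u_r2_zero_X]; rfl

/-- **(R0)**: if all kinds are `unr` and the unramified components are `N = 0`, then `𝒦_{κ,unr}`
dies under every local map to a complete local ring which kills the `N`-variables. -/
theorem s59u_r2_KK_unr_le (κ : Fin m → s59u_st_Kind 𝒪) (hκ : ∀ j, (κ j).Hyp)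
    (hall : ∀ j, κ j = .unr) (ch : s59r_Ch Λ)
    (hunr : ∀ l, (Λ l).par (ch l) = ![0, 0, 0, X 0, X 1, X 2]) (g : ℕ)
    {A : Type} [CommRing A] [IsLocalRing A] [IsAdicComplete (maximalIdeal A) A] [Algebra 𝒪 A]
    (φ : s59r_Flat 𝒪 m r g →ₐ[𝒪] A) (hmem : ∀ s, φ (X s) ∈ maximalIdeal A)
    (hV : ∀ j k, φ (s59r_VB j k) = 0)
    (hU : ∀ l (k : Fin 6), k.val < 3 → φ (s59r_U l k) = 0) :
    s59u_r2_KK Λ κ hκ g ch ≤ RingHom.ker φ := by
  classical
  set τ : s59r_Flat 𝒪 m r g →ₐ[𝒪] s59r_Flat 𝒪 m r g := s59u_r2_zero m r g with hτ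
  haveI : IsDomain (s59r_Flat 𝒪 m r g) := NoZeroDivisors.to_isDomain _
  -- `𝒦 ≤ ker τ`
  have h1 : s59u_r2_KK Λ κ hκ g ch ≤ RingHom.ker τ := by
    refine s59u_r2_KK_kill_ch Λ κ hκ g τ (fun s => ?_) (fun j => ?_) (fun j => ?_) ch
      (fun l => ?_)
    · rw [hτ, s59u_r2_zero_X]
      exact s59u_r2_zeroVals_mem s
    · rw [hall j]
      intro i
      exact s59u_r2_zero_VB j i
    · rw [hall j]
      trivial
    · refine ⟨fun j => s59r_U l (Fin.natAdd 3 j), fun j => X_mem_maximalIdeal _, fun k => ?_⟩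
      rw [hτ, s59u_r2_zero_U, hunr l]
      fin_cases k
      · show (0 : s59r_Flat 𝒪 m r g) = evalHom _ _ _ 0
        rw [map_zero]
      · show (0 : s59r_Flat 𝒪 m r g) = evalHom _ _ _ 0
        rw [map_zero]
      · show (0 : s59r_Flat 𝒪 m r g) = evalHom _ _ _ 0
        rw [map_zero]
      · show s59r_U l 3 = evalHom _ _ _ (X 0)
        rw [evalHom_X]; rfl
      · show s59r_U l 4 = evalHom _ _ _ (X 1)
        rw [evalHom_X]; rfl
      · show s59r_U l 5 = evalHom _ _ _ (X 2)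
        rw [evalHom_X]; rfl
  -- `φ = φ ∘ τ`
  have h2 : φ = φ.comp τ := by
    refine algHom_ext_of_X (maximalIdeal A) hmem fun s => ?_
    rw [AlgHom.comp_apply]
    rcases s with p | p | ⟨l, k⟩ | i
    · show φ (s59r_VB p.1 p.2) = φ (τ (s59r_VB p.1 p.2))
      rw [hτ, s59u_r2_zero_VB, map_zero, hV]
    · show φ (s59r_WB p.1 p.2) = φ (τ (s59r_WB p.1 p.2))
      rw [hτ, s59u_r2_zero_WB]
    · show φ (s59r_U l k) = φ (τ (s59r_U l k))
      rw [hτ, s59u_r2_zero_U]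
      split_ifs with hk
      · rw [map_zero, hU l k hk]
      · rfl
    · show φ (s59r_XG i) = φ (τ (s59r_XG i))
      rw [hτ, s59u_r2_zero_XG]
  intro F hF
  have h3 := h1 hF
  rw [RingHom.mem_ker] at h3 ⊢
  rw [h2, AlgHom.comp_apply, h3, map_zero]

/-- **(R0)** for the concrete family with NO prime of type `χ`: the component `c 0` of the chain
(`b = false` everywhere, `ch = unr`). -/
theorem s59u_r2_KK_zero_le {r4 : ℕ} (D : ∀ l, s59r_RaiseData (Λ l)) (θ : Fin 0 → 𝒪)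
    (ϑ : Fin r4 → 𝒪) (hθ : ∀ j, s59l_Hyp (θ j)) (hϑ : ∀ i, s59l_Hyp (ϑ i))
    (hunr : ∀ l, (Λ l).par (D l).unr = ![0, 0, 0, X 0, X 1, X 2]) (g : ℕ)
    {A : Type} [CommRing A] [IsLocalRing A] [IsAdicComplete (maximalIdeal A) A] [Algebra 𝒪 A]
    (φ : s59r_Flat 𝒪 (0 + r4) r g →ₐ[𝒪] A) (hmem : ∀ s, φ (X s) ∈ maximalIdeal A)
    (hV : ∀ j k, φ (s59r_VB j k) = 0)
    (hU : ∀ l (k : Fin 6), k.val < 3 → φ (s59r_U l k) = 0) :
    s59u_r2_KK Λ (s59u_r2_kappa θ ϑ (fun _ => false))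
      (s59u_r2_kappa_hyp θ ϑ hθ hϑ (fun _ => false)) g (fun l => (D l).unr) ≤ RingHom.ker φ := by
  refine s59u_r2_KK_unr_le Λ _ _ (fun j => ?_) _ hunr g φ hmem hV hU
  refine Fin.addCases (fun j => j.elim0) (fun i => ?_) j
  rw [s59u_r2_kappa_right]
  rfl

/-- the component `c 0` of the chain is `(false, unr)`. -/
theorem s59u_r2_chain_zero {r4 : ℕ} (D : ∀ l, s59r_RaiseData (Λ l))
    (step : ℕ → Fin r ⊕ Fin r4) :
    s59u_r2_chain Λ D step 0 = (fun _ => false, fun l => (D l).unr) := by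
  refine Prod.ext (funext fun i => ?_) (funext fun l => ?_)
  · show _ = false
    rw [← Bool.not_eq_true, s59u_r2_chain_fst]
    rintro ⟨t', ht', -⟩
    exact Nat.not_lt_zero _ ht'
  · refine s59u_r2_chain_snd_neg Λ D step 0 l ?_
    rintro ⟨t', ht', -⟩
    exact Nat.not_lt_zero _ ht'

end Zero

end Fermat.Agent.Lib.S59
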