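/-
PROGRAMME R2 = S59, node [FLR], **the `R`-side contract for GENERIC smooth local models**, part 5
(helper4, prefix `s59f_`): **(R0) and the point condition `hxK`, generic form.**

* `s59f_Fm_map_eq_one` : if `f` kills the entries of `ρ(x) − 1` then the framed matrix of `x` maps
                         to `1`;
* `s59f_G_R0`          : (R0): if the inertia elements act trivially after `f : R′⟦z⟧ → A` then
                         `𝒦 (c 0)` dies in `A`;
* `s59f_chain_full`    : `c k = (true, tgt)` when the first `k` steps cover all raising primes;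
* `s59f_G_xK`          : a complete-local-domain point of `R′⟦z⟧` which is RAMIFIED at every raising
                         prime, with `tr ρ(φ_l) = tr0_l` at the smooth ones, kills `𝒦 (true, tgt)`.
-/
import Mathlib
import Fermat.Agent.Lib.S59.FAsmG4
import Fermat.Agent.Lib.S59.R2Zero

set_option autoImplicit false
set_option linter.unusedSectionVars false
set_option linter.unusedVariables false
set_option linter.style.haveILetI false
set_option maxHeartbeats 1600000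

noncomputable section

namespace Fermat.Agent.Lib.S59

open IsLocalRing MvPowerSeries Fermat.Agent.Lib.Deform

section FmOne

variable {R' : Type} [CommRing R'] {σ : Type} {G : Type} [Monoid G] {ι : Type}
  (ρm : G →* Matrix (Fin 2) (Fin 2) R')
  (U U' : ι → Matrix (Fin 2) (Fin 2) (MvPowerSeries σ R')) (hU : ∀ t, U' t * U t = 1)

include hU in
/-- if `f` kills the entries of `ρ(x) − 1` then the framed matrix of `x` maps to `1`. -/
theorem s59f_Fm_map_eq_one {A : Type*} [CommRing A] (f : MvPowerSeries σ R' →+* A) (t : ι) (x : G)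
    (hN : ∀ i j, f (C ((ρm x - 1) i j)) = 0) : (s59i_Fm ρm U U' t x).map f = 1 := by
  have h1 : ((ρm x).map (C : R' →+* MvPowerSeries σ R')).map f = 1 := by
    ext i j
    have h := hN i j
    rw [Matrix.sub_apply, map_sub, map_sub, sub_eq_zero] at h
    simp only [Matrix.map_apply]
    rw [h, Matrix.one_apply, Matrix.one_apply]
    split_ifs <;> simp
  rw [s59i_Fm, Matrix.map_mul, Matrix.map_mul, h1, mul_one, ← Matrix.map_mul, hU,
    Matrix.map_one _ (map_zero f) (map_one f)]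

end FmOne

section R0G

variable {𝒪 : Type} [CommRing 𝒪] [IsLocalRing 𝒪] [IsNoetherianRing 𝒪] [IsDomain 𝒪]
  [IsAdicComplete (maximalIdeal 𝒪) 𝒪] [Finite (ResidueField 𝒪)]
variable {i2 : 𝒪} {r r4 g : ℕ} {L : Fin r → s59f_LocBr 𝒪 i2} {ε4 u4 : Fin r4 → 𝒪}
variable {σ : Type} [Finite σ] {R' : Type} [CommRing R'] [IsLocalRing R'] [Algebra 𝒪 R']
  {G : Type} [Monoid G] {ρm : G →* Matrix (Fin 2) (Fin 2) R'}
  {U U' : Fin r4 ⊕ Fin r → Matrix (Fin 2) (Fin 2) (MvPowerSeries σ R')}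
  {γ : s59r_Flat 𝒪 (0 + r4) r g →ₐ[𝒪] MvPowerSeries σ R'}
  {sg ph : Fin r4 ⊕ Fin r → G} {qn : Fin r4 ⊕ Fin r → ℕ}

theorem s59f_tl_one {C : Type*} [CommRing C] (i2 : C) (k : Fin 3) :
    s59i_tl i2 (1 : Matrix (Fin 2) (Fin 2) C) k = 0 := by
  fin_cases k <;> simp [s59i_tl]

/-- **(R0), generic form.** -/
theorem s59f_G_R0 (hϑ : ∀ i, s59l_Hyp (s59u_r2_theta4 i2 ε4 u4 i))
    (hγ : Function.Surjective γ)
    (hB : s59f_BridgeEqsG L ρm U U' γ sg ph) (hG : s59f_GalG L ε4 u4 ρm U U' sg ph qn)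
    (step : ℕ → Fin r ⊕ Fin r4)
    (A : Type) [CommRing A] [IsLocalRing A] [IsAdicComplete (maximalIdeal A) A] [Algebra 𝒪 A]
    (f : MvPowerSeries σ R' →ₐ[𝒪] A)
    (hfloc : ∀ a ∈ maximalIdeal (MvPowerSeries σ R'), f a ∈ maximalIdeal A)
    (hN : ∀ t i j, f (C ((ρm (sg t) - 1) i j)) = 0) :
    ∀ F ∈ s59f_KG (fun l => (L l).Λ) (s59u_r2_theta4 i2 ε4 u4) hϑ g
      (s59u_r2_chain (fun l => (L l).Λ) (fun l => (L l).D) step 0), f (γ F) = 0 := by
  intro F hF
  rw [s59u_r2_chain_zero] at hF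
  have hone : ∀ t, (s59i_Fm ρm U U' t (sg t)).map f = 1 := fun t =>
    s59f_Fm_map_eq_one ρm U U' hG.frame (f : MvPowerSeries σ R' →+* A) t (sg t) (hN t)
  have htl : ∀ t k, f (s59i_tl (algebraMap 𝒪 (MvPowerSeries σ R') i2)
      (s59i_Fm ρm U U' t (sg t)) k) = 0 := by
    intro t k
    have e := s59i_tl_map (f : MvPowerSeries σ R' →+* A)
      (algebraMap 𝒪 (MvPowerSeries σ R') i2) (s59i_Fm ρm U U' t (sg t)) k
    rw [RingHom.coe_coe] at e
    rw [← e, hone t]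
    exact s59f_tl_one _ k
  have hle := s59u_r2_KK_zero_le (fun l => (L l).Λ) (fun l => (L l).D) (s59f_th0 𝒪)
    (s59u_r2_theta4 i2 ε4 u4) s59f_th0_hyp hϑ (fun l => (L l).unr_par) g (f.comp γ) ?_ ?_ ?_
  · have := hle hF
    rw [RingHom.mem_ker, AlgHom.comp_apply] at this
    exact this
  · intro s
    rw [AlgHom.comp_apply]
    refine hfloc _ ?_
    refine s59i_surj_mem (γ : s59r_Flat 𝒪 (0 + r4) r g →+* MvPowerSeries σ R') hγ _ ?_
    rw [s59i_mem_maximalIdeal_iff_constantCoeff, MvPowerSeries.constantCoeff_X]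
    exact Ideal.zero_mem _
  · intro j k
    refine Fin.addCases (fun j0 => j0.elim0) (fun i => ?_) j
    rw [AlgHom.comp_apply, hB.1 i k]
    exact htl (Sum.inl i) k
  · intro l k hk
    rw [AlgHom.comp_apply, hB.2.2 l k]
    have hk' : k = 0 ∨ k = 1 ∨ k = 2 := by
      rcases k with ⟨k, hk6⟩
      simp only [Fin.ext_iff]
      have : k < 3 := hk
      interval_cases k <;> simp
    rcases hk' with rfl | rfl | rfl
    · exact htl (Sum.inr l) 0
    · exact htl (Sum.inr l) 1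
    · exact htl (Sum.inr l) 2

end R0G

section Full

variable {𝒪 : Type} [CommRing 𝒪] [IsLocalRing 𝒪] [IsNoetherianRing 𝒪] [IsDomain 𝒪]
  [IsAdicComplete (maximalIdeal 𝒪) 𝒪] [Finite (ResidueField 𝒪)]
variable {r r4 : ℕ} (Λ : Fin r → s59r_Model 𝒪) (D : ∀ l, s59r_RaiseData (Λ l))

/-- the last component of the chain is `(true, tgt)` when the first `k` steps cover all raising
primes. -/
theorem s59f_chain_full (step : ℕ → Fin r ⊕ Fin r4) (k : ℕ)
    (hcover : ∀ s : Fin r ⊕ Fin r4, ∃ t < k, step t = s) :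
    s59u_r2_chain Λ D step k = (fun _ => true, fun l => (D l).tgt) := by
  refine Prod.ext (funext fun i => ?_) (funext fun l => ?_)
  · show _ = true
    rw [s59u_r2_chain_fst]
    exact hcover (Sum.inr i)
  · exact s59u_r2_chain_snd_pos Λ D step k l (hcover (Sum.inl l))

end Full

section XK

variable {𝒪 : Type} [CommRing 𝒪] [IsLocalRing 𝒪] [IsNoetherianRing 𝒪] [IsDomain 𝒪]
  [IsAdicComplete (maximalIdeal 𝒪) 𝒪] [Finite (ResidueField 𝒪)]
variable {i2 : 𝒪} {r r4 g : ℕ} {L : Fin r → s59f_LocBr 𝒪 i2} {ε4 u4 : Fin r4 → 𝒪}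
variable {σ : Type} [Finite σ] {R' : Type} [CommRing R'] [IsLocalRing R'] [Algebra 𝒪 R']
  {G : Type} [Monoid G] {ρm : G →* Matrix (Fin 2) (Fin 2) R'}
  {U U' : Fin r4 ⊕ Fin r → Matrix (Fin 2) (Fin 2) (MvPowerSeries σ R')}
  {γ : s59r_Flat 𝒪 (0 + r4) r g →ₐ[𝒪] MvPowerSeries σ R'}
  {sg ph : Fin r4 ⊕ Fin r → G} {qn : Fin r4 ⊕ Fin r → ℕ}

/-- **the point condition, generic form**: a complete local domain point `ψ` of `R′⟦z⟧`, flat over
`𝒪`, ramified at every raising prime and with `tr ρ(φ_l) = tr0_l` at the primes with smooth models,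
kills the component `(true, tgt)`. -/
theorem s59f_G_xK (hi2 : 2 * i2 = 1) (hε4 : ∀ i, ε4 i ^ 2 = 1)
    (hϑ : ∀ i, s59l_Hyp (s59u_r2_theta4 i2 ε4 u4 i))
    (hu0 : ∀ i, u4 i ≠ 0) (hu1 : ∀ i, 1 - u4 i ≠ 0) (hu2 : ∀ i, IsUnit (1 + u4 i))
    (hγ : Function.Surjective γ)
    (hB : s59f_BridgeEqsG L ρm U U' γ sg ph) (hG : s59f_GalG L ε4 u4 ρm U U' sg ph qn)
    {T : Type} [CommRing T] [IsLocalRing T] [IsDomain T] [IsAdicComplete (maximalIdeal T) T]
    [Algebra 𝒪 T] (ψ : MvPowerSeries σ R' →ₐ[𝒪] T)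
    (hψ : ∀ a ∈ maximalIdeal (MvPowerSeries σ R'), ψ a ∈ maximalIdeal T)
    (hinj : Function.Injective (algebraMap 𝒪 T))
    (hram : ∀ t, (s59i_Fm ρm U U' t (sg t)).map ψ ≠ 1)
    (htr0 : ∀ l, ψ (C (ρm (ph (Sum.inr l))).trace) = algebraMap 𝒪 T (L l).tr0) :
    ∀ F ∈ s59f_KG (fun l => (L l).Λ) (s59u_r2_theta4 i2 ε4 u4) hϑ g
      (fun _ => true, fun l => (L l).D.tgt), ψ (γ F) = 0 := by
  classical
  intro F hF
  have hΨ𝒪 : ∀ o : 𝒪, ψ (algebraMap 𝒪 (MvPowerSeries σ R') o) = algebraMap 𝒪 T o := ψ.commutes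
  have hi2' : (2 : T) * algebraMap 𝒪 T i2 = 1 := by
    rw [← map_ofNat (algebraMap 𝒪 T) 2, ← map_mul, hi2, map_one]
  obtain ⟨b, hb⟩ := s59f_G_rel hi2 hε4 hϑ hu0 hu1 hu2 hγ hB hG ψ hψ hinj
  -- the mapped `Σ`'s have trace `2`
  have htr2 : ∀ t, ((s59i_Fm ρm U U' t (sg t)).map ψ).trace = 2 := by
    intro t
    obtain ⟨-, h2, -, -, -⟩ := hG.type1 t
    have := s59i_map_trace' (ψ : MvPowerSeries σ R' →+* T) (s59i_Fm ρm U U' t (sg t))
    rw [RingHom.coe_coe] at this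
    rw [this, h2, map_ofNat]
  -- the coordinates of `Σ`
  have htlψ : ∀ t k, ψ (s59i_tl (algebraMap 𝒪 (MvPowerSeries σ R') i2)
      (s59i_Fm ρm U U' t (sg t)) k) =
      s59i_tl (algebraMap 𝒪 T i2) ((s59i_Fm ρm U U' t (sg t)).map ψ) k := by
    intro t k
    have e := s59i_tl_map (ψ : MvPowerSeries σ R' →+* T)
      (algebraMap 𝒪 (MvPowerSeries σ R') i2) (s59i_Fm ρm U U' t (sg t)) k
    rw [RingHom.coe_coe, hΨ𝒪] at e
    exact e.symm
  -- all primes of type (iv) are on the Steinberg cone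
  have hball : b = fun _ => true := by
    funext i
    by_contra hbi
    have hbf : b i = false := by simpa using hbi
    have hrel := hb.rel (Fin.natAdd 0 i)
    rw [s59u_r2_kappa_right, hbf] at hrel
    have hrel' : ∀ k, (ψ.comp γ) (s59r_VB (Fin.natAdd 0 i) k) = 0 := hrel
    refine hram (Sum.inl i) (s59i_eq_one_of_tl (algebraMap 𝒪 T i2) hi2' _ (fun k => ?_)
      (htr2 (Sum.inl i)))
    rw [← htlψ, ← hB.1 i k]
    exact hrel' k
  subst hball
  have hle := s59u_r2_KK_kill_ch (fun l => (L l).Λ)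
    (s59u_r2_kappa (s59f_th0 𝒪) (s59u_r2_theta4 i2 ε4 u4) (fun _ => true))
    (s59u_r2_kappa_hyp (s59f_th0 𝒪) (s59u_r2_theta4 i2 ε4 u4) s59f_th0_hyp hϑ (fun _ => true)) g
    (ψ.comp γ) hb.mem hb.rel hb.reg (fun l => (L l).D.tgt) ?_
  · have := hle hF
    rw [RingHom.mem_ker, AlgHom.comp_apply] at this
    exact this
  intro l
  have hv : ∀ k, (ψ.comp γ) (s59r_U l k) ∈ maximalIdeal T := fun k => hb.mem _
  refine (L l).tgtOf T hinj hb.loc (fun k => (ψ.comp γ) (s59r_U l k)) hv (hb.mrel l) ?_ ?_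
  · -- ramified
    rintro ⟨h0, h1, h2⟩
    refine hram (Sum.inr l) (s59i_eq_one_of_tl (algebraMap 𝒪 T i2) hi2' _ (fun k => ?_)
      (htr2 (Sum.inr l)))
    rw [← htlψ]
    have hc : ∀ k : Fin 3, γ (s59r_U l (Fin.castAdd 3 k)) =
        s59i_tl (algebraMap 𝒪 (MvPowerSeries σ R') i2)
          (s59i_Fm ρm U U' (Sum.inr l) (sg (Sum.inr l))) k := by
      intro k
      rw [hB.2.2 l (Fin.castAdd 3 k), s59f_coordG_left]
      rfl
    rw [← hc k]
    fin_cases k
    · exact h0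
    · exact h1
    · exact h2
  · -- the trace
    have hev : evalHom (R := 𝒪) (maximalIdeal T) (fun k => (ψ.comp γ) (s59r_U l k)) hv =
        (ψ.comp γ).comp (s59r_loc (0 + r4) g l) := by
      refine algHom_ext_of_X (maximalIdeal T) (fun k => ?_) (fun k => ?_)
      · rw [evalHom_X]
        exact hv k
      · rw [evalHom_X]
        show _ = (ψ.comp γ) (s59r_loc (0 + r4) g l (X k))
        rw [s59r_loc_X]
    rw [hev]
    show ψ (γ (s59r_loc (0 + r4) g l (L l).g12)) = _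
    have h := s59f_G_Rτ hi2 hε4 hϑ hγ hB hG (fun _ => (Sum.inl l : Fin r ⊕ Fin r4)) 0
    have e : s59f_g12G g L ε4 u4 hi2 hε4 hϑ (fun _ => (Sum.inl l : Fin r ⊕ Fin r4)) 0 =
        s59r_loc (0 + r4) g l (L l).g12 := rfl
    rw [e] at h
    rw [h]
    exact htr0 l

end XK

end Fermat.Agent.Lib.S59
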