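/-
PROGRAMME R2 = S59, node [FLR], **the `R`-side contract for GENERIC smooth local models**, part 6
(helper4, prefix `s59f_`): **the concrete instance of the abstract framed bridge.**

`DQs` a deformation ring of helper6's type (raising primes unrestricted), `DQ'` a deformation ring of
the type with UNIPOTENT inertia at the raising primes, `κ : DQs.R → DQ'.R` the canonical map,
`ρm := κ ∘ matOf DQs.ρ bR`, frames `U t = P_t (1 + Z_t)`.

* `s59f_Fm_entry_sub_mem` : the framed matrices are congruent to their residual values;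
* `s59f_GalG_inst`        : the Galois facts `s59f_GalG` ([TAME-REL], [DET-FROB], unipotence from the
                            type of `DQ'`, the residual Frobenius);
* `s59f_bridge_reindex`   : the bridge `𝒪⟦GIdx m e g⟧ ↠ C` re-indexed to `𝒫 = s59r_Flat 𝒪 (0 + m) e g`;
* `s59f_bridgeEqsG_inst`  : the bridge equations `s59f_BridgeEqsG` from the conclusion of
                            `s59f_inst_flatG/_ordG` at `θ := κ`.
-/
import Mathlib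
import Fermat.Agent.Lib.S59.FAsmG5
import Fermat.Agent.Lib.S59.FBrG3
import Fermat.Agent.Lib.S59.LFinB5
import Fermat.Agent.Lib.S59.FLiftK

set_option autoImplicit false
set_option linter.unusedSectionVars false
set_option linter.unusedVariables false
set_option linter.style.haveILetI false
set_option maxHeartbeats 1600000

noncomputable section

namespace Fermat.Agent.Lib.S59

open IsLocalRing MvPowerSeries ExtCitation
open Fermat.Agent.Lib.S53 (matOf matOfRes NormData matOf_apply matOfRes_apply)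
open Fermat.Agent.Lib.Deform
open Fermat.Agent.Lib.S56

local notation "Γℚ" => (AlgebraicClosure ℚ ≃ₐ[ℚ] AlgebraicClosure ℚ)

section Resid

variable {𝒪 : Type} [CommRing 𝒪] [IsDomain 𝒪] [IsDiscreteValuationRing 𝒪]
  [IsAdicComplete (maximalIdeal 𝒪) 𝒪]
  {ρbar : ResidualGaloisRep (ResidueField 𝒪)}
  {𝒟 : ∀ ⦃A : Type⦄ [CommRing A] [IsLocalRing A] [Algebra 𝒪 A], GaloisRepAdic A → Prop}
  (DQ : GaloisRep.DeformationRingData 𝒪 ρbar 𝒟) (Nd : NormData ρbar)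
  (bR : Module.Basis (Fin 2) DQ.R DQ.ρ.V)
  (hbR : ∀ σ i j, matOf DQ.ρ bR σ i j - algebraMap 𝒪 DQ.R (Nd.Mtil σ i j) ∈ maximalIdeal DQ.R)
  {T : Type} [CommRing T] [IsLocalRing T] [Algebra 𝒪 T] {m e : ℕ}

include hbR in
/-- **the framed matrices are congruent to their residual values.** -/
theorem s59f_Fm_entry_sub_mem (hT : IsTestAlgebra 𝒪 T) (θ : DQ.R →ₐ[𝒪] T)
    (P P' : Fin m ⊕ Fin e → Matrix (Fin 2) (Fin 2) 𝒪) (hPP' : ∀ t, P t * P' t = 1)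
    (hP'P : ∀ t, P' t * P t = 1) (t : Fin m ⊕ Fin e) (g : Γℚ)
    (M0 : Matrix (Fin 2) (Fin 2) 𝒪)
    (hres : (P' t).map (residue 𝒪) * matOfRes ρbar Nd.b g * (P t).map (residue 𝒪) =
      M0.map (residue 𝒪)) (a b : Fin 2) :
    s59q_Fm DQ bR θ P P' t g a b - algebraMap 𝒪 (MvPowerSeries (s59q_ZIdx m e) T) (M0 a b) ∈
      maximalIdeal (MvPowerSeries (s59q_ZIdx m e) T) := by
  have hC : IsTestAlgebra 𝒪 (MvPowerSeries (s59q_ZIdx m e) T) := s59q_isTestAlgebra_ps hT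
  have key : ∀ (lam : Fin 2 → 𝒪) (j : Fin 3),
      s59f_tlG (fun i => algebraMap 𝒪 (MvPowerSeries (s59q_ZIdx m e) T) (lam i))
          (s59q_Fm DQ bR θ P P' t g) j -
        algebraMap 𝒪 (MvPowerSeries (s59q_ZIdx m e) T) (s59f_tlG lam M0 j) ∈
          maximalIdeal (MvPowerSeries (s59q_ZIdx m e) T) := by
    intro lam j
    refine s59f_tlG_sub_mem DQ Nd bR hbR ((s59q_cT 𝒪 T (s59q_ZIdx m e)).comp θ) hC t (P t) (P' t)
      (hPP' t) (hP'P t) g lam (s59f_tlG lam M0) (fun j' => ?_) j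
    rw [hres]
    fin_cases j' <;> simp [s59f_tlG, Matrix.map_apply]
  fin_cases a <;> fin_cases b
  · have h := key ![1, 0] 0
    simpa [s59f_tlG] using h
  · have h := key ![1, 0] 1
    simpa [s59f_tlG] using h
  · have h := key ![1, 0] 2
    simpa [s59f_tlG] using h
  · have h := key ![0, 1] 0
    simpa [s59f_tlG] using h

end Resid

section Inst

variable {𝒪 : Type} [CommRing 𝒪] [IsDomain 𝒪] [IsDiscreteValuationRing 𝒪]
  [IsAdicComplete (maximalIdeal 𝒪) 𝒪] [Finite (ResidueField 𝒪)]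
  {ρbar : ResidualGaloisRep (ResidueField 𝒪)}
  {𝒟s 𝒟' : ∀ ⦃A : Type⦄ [CommRing A] [IsLocalRing A] [Algebra 𝒪 A], GaloisRepAdic A → Prop}
  (DQs : GaloisRep.DeformationRingData 𝒪 ρbar 𝒟s) (DQ' : GaloisRep.DeformationRingData 𝒪 ρbar 𝒟')
  (Nd : NormData ρbar) (bR : Module.Basis (Fin 2) DQs.R DQs.ρ.V)
  (hbR : ∀ σ i j, matOf DQs.ρ bR σ i j - algebraMap 𝒪 DQs.R (Nd.Mtil σ i j) ∈
    maximalIdeal DQs.R)
  (κ : DQs.R →ₐ[𝒪] DQ'.R) (hκ : IsLocalHom (κ : DQs.R →+* DQ'.R))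
  (eκ : (DQs.ρ.baseChangeAlong (κ : DQs.R →+* DQ'.R) hκ).IsEquiv DQ'.ρ)
  {m e : ℕ} (pr : Fin m ⊕ Fin e → Nat.Primes) (σq φq : Fin m ⊕ Fin e → Γℚ)
  {i2 : 𝒪} (L : Fin e → s59f_LocBr 𝒪 i2) (ε4 u4 : Fin m → 𝒪)
  (P P' : Fin m ⊕ Fin e → Matrix (Fin 2) (Fin 2) 𝒪)

include hbR eκ in
/-- **the Galois facts at the raising primes.** -/
theorem s59f_GalG_inst (p : ℕ) [Fact p.Prime] (hi2 : 2 * i2 = 1)
    (hdetcyc : DQs.ρ.DetIsCyclotomic p)
    (hunr : ∀ t, ((pr t : ℕ) ≠ p) ∧ ρbar.IsUnramifiedAt (pr t))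
    (hσq : ∀ t, σq t ∈ (primeLocalPlace (pr t)).inertiaSubgroupIn ℚ)
    (hφq : ∀ t, (primeLocalPlace (pr t)).IsFrobeniusAt (φq t) (pr t))
    (hunip : ∀ t, DQ'.ρ.IsUnipotentOnInertiaAt (pr t))
    (hPP' : ∀ t, P t * P' t = 1) (hP'P : ∀ t, P' t * P t = 1)
    (hMres : ∀ l, (P' (Sum.inr l)).map (residue 𝒪) * matOfRes ρbar Nd.b (φq (Sum.inr l)) *
      (P (Sum.inr l)).map (residue 𝒪) = ((L l).M0).map (residue 𝒪))
    (hφ4 : ∀ i, matOfRes ρbar Nd.b (φq (Sum.inl i)) =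
      residue 𝒪 (ε4 i) • (1 : Matrix (Fin 2) (Fin 2) (ResidueField 𝒪)))
    (hqu : ∀ l, (L l).u = (((pr (Sum.inr l) : ℕ) : ℕ) : 𝒪))
    (hqu4 : ∀ i, u4 i = (((pr (Sum.inl i) : ℕ) : ℕ) : 𝒪))
    (hu4m : ∀ i, u4 i - 1 ∈ maximalIdeal 𝒪) :
    s59f_GalG L ε4 u4 (s59i_rhoM DQs bR κ)
      (fun t => s59q_frameU DQ'.R (P t) t) (fun t => s59q_frameU' DQ'.R (P' t) t)
      σq φq (fun t => (pr t : ℕ)) := by
  have hT : IsTestAlgebra 𝒪 DQ'.R := s56a_isTestAlgebra_R DQ'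
  have hB7 : ∀ t, _ := fun t => s59e_B7_basic DQs.ρ bR hdetcyc (pr t).prop (hunr t).1
    (primeLocalPlace (pr t)) (s56z_place_liesOver (pr t))
    (s59i_DQ_residual_unram DQs (pr t) (hunr t).2) (σq t) (φq t) (hσq t) (hφq t)
  have hFmeq : ∀ t g, s59i_Fm (s59i_rhoM DQs bR κ) (fun t => s59q_frameU DQ'.R (P t) t)
      (fun t => s59q_frameU' DQ'.R (P' t) t) t g = s59q_Fm DQs bR κ P P' t g := fun t g =>
    s59i_Fm_eq_inst DQs bR κ P P' t g
  refine ⟨fun t ht => hT.algebraMap_mem ht, fun t => s59q_frameU'_mul (P t) (P' t) (hP'P t) t, ?_, ?_, ?_, ?_,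
    hqu, hqu4, ?_, ?_⟩
  · -- trace `2`
    intro t
    rw [s59i_rhoM_trace, s59f_kappa_trace DQ' DQs κ hκ eκ]
    obtain ⟨b', -⟩ := s56a_exists_basisR DQ' Nd
    rw [s59i_cpTr_eq_trace DQ'.ρ b']
    exact s59i_trace_two_of_unip DQ'.ρ b' (pr t) (hunip t) (primeLocalPlace (pr t))
      (s56z_place_liesOver (pr t)) (σq t) (hσq t)
  · -- `det = 1`
    intro t
    show ((matOf DQs.ρ bR (σq t)).map (κ : DQs.R →+* DQ'.R)).det = 1
    rw [s59i_map_det', (hB7 t).2.2.2.1, map_one]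
  · -- the tame relation
    intro t
    show (matOf DQs.ρ bR (φq t)).map (κ : DQs.R →+* DQ'.R) *
        (matOf DQs.ρ bR (σq t)).map (κ : DQs.R →+* DQ'.R) =
      (matOf DQs.ρ bR (σq t)).map (κ : DQs.R →+* DQ'.R) ^ (pr t : ℕ) *
        (matOf DQs.ρ bR (φq t)).map (κ : DQs.R →+* DQ'.R)
    rw [← Matrix.map_mul, (hB7 t).2.1, Matrix.map_mul, s59i_map_pow']
  · -- `det Φ = q`
    intro t
    show ((matOf DQs.ρ bR (φq t)).map (κ : DQs.R →+* DQ'.R)).det = _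
    rw [s59i_map_det', (hB7 t).2.2.2.2, map_natCast]
  · -- the residual Frobenius at the smooth primes
    intro l i j
    rw [hFmeq]
    exact s59f_Fm_entry_sub_mem DQs Nd bR hbR hT κ P P' hPP' hP'P (Sum.inr l) (φq (Sum.inr l))
      (L l).M0 (hMres l) i j
  · -- the residual half trace at the primes of type (iv)
    intro i
    rw [hFmeq]
    have hres : (P' (Sum.inl i)).map (residue 𝒪) * matOfRes ρbar Nd.b (φq (Sum.inl i)) *
        (P (Sum.inl i)).map (residue 𝒪) =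
        (Matrix.diagonal ![ε4 i, ε4 i]).map (residue 𝒪) := by
      rw [hφ4 i, Matrix.mul_smul, mul_one, Matrix.smul_mul, ← Matrix.map_mul, hP'P,
        Matrix.map_one _ (map_zero _) (map_one _)]
      ext a b
      fin_cases a <;> fin_cases b <;> simp
    have h00 := s59f_Fm_entry_sub_mem DQs Nd bR hbR hT κ P P' hPP' hP'P (Sum.inl i)
      (φq (Sum.inl i)) _ hres 0 0
    have h11 := s59f_Fm_entry_sub_mem DQs Nd bR hbR hT κ P P' hPP' hP'P (Sum.inl i)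
      (φq (Sum.inl i)) _ hres 1 1
    have e00 : (Matrix.diagonal ![ε4 i, ε4 i]) 0 0 = ε4 i := by simp
    have e11 : (Matrix.diagonal ![ε4 i, ε4 i]) 1 1 = ε4 i := by simp
    rw [e00] at h00
    rw [e11] at h11
    have hm : algebraMap 𝒪 (MvPowerSeries (s59q_ZIdx m e) DQ'.R) (u4 i - 1) ∈
        maximalIdeal (MvPowerSeries (s59q_ZIdx m e) DQ'.R) := by
      rw [MvPowerSeries.algebraMap_apply]
      exact s59i_C_mem_maximalIdeal _ (hT.algebraMap_mem (hu4m i))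
    have e : s59i_ht (algebraMap 𝒪 (MvPowerSeries (s59q_ZIdx m e) DQ'.R) i2)
          (s59q_Fm DQs bR κ P P' (Sum.inl i) (φq (Sum.inl i))) -
        algebraMap 𝒪 (MvPowerSeries (s59q_ZIdx m e) DQ'.R) (ε4 i * (u4 i + 1) * i2) =
        algebraMap 𝒪 (MvPowerSeries (s59q_ZIdx m e) DQ'.R) i2 *
          ((s59q_Fm DQs bR κ P P' (Sum.inl i) (φq (Sum.inl i)) 0 0 -
              algebraMap 𝒪 (MvPowerSeries (s59q_ZIdx m e) DQ'.R) (ε4 i)) +
            (s59q_Fm DQs bR κ P P' (Sum.inl i) (φq (Sum.inl i)) 1 1 -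
              algebraMap 𝒪 (MvPowerSeries (s59q_ZIdx m e) DQ'.R) (ε4 i))) -
          algebraMap 𝒪 (MvPowerSeries (s59q_ZIdx m e) DQ'.R) (ε4 i * i2) *
            algebraMap 𝒪 (MvPowerSeries (s59q_ZIdx m e) DQ'.R) (u4 i - 1) := by
      rw [s59i_ht]
      simp only [map_mul, map_add, map_sub, map_one]
      ring
    rw [e]
    exact Ideal.sub_mem _ (Ideal.mul_mem_left _ _ (Ideal.add_mem _ h00 h11))
      (Ideal.mul_mem_left _ _ hm)

end Inst

section Reindex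

variable {𝒪 : Type} [CommRing 𝒪] [IsLocalRing 𝒪] [IsNoetherianRing 𝒪]
  [IsAdicComplete (maximalIdeal 𝒪) 𝒪]
variable {m e g : ℕ}

/-- the re-indexing of the variables. -/
def s59f_reIdx (m e g : ℕ) : s59r_Idx (0 + m) e g → s59q_GIdx m e g :=
  Sum.elim (fun a => Sum.inl (Fin.cast (Nat.zero_add m) a.1, a.2))
    (Sum.elim (fun a => Sum.inr (Sum.inl (Fin.cast (Nat.zero_add m) a.1, a.2)))
      (Sum.elim (fun a => (![Sum.inr (Sum.inr (Sum.inl (a.1, 0))),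
          Sum.inr (Sum.inr (Sum.inl (a.1, 1))), Sum.inr (Sum.inr (Sum.inl (a.1, 2))),
          Sum.inr (Sum.inr (Sum.inr (Sum.inl (a.1, 0)))),
          Sum.inr (Sum.inr (Sum.inr (Sum.inl (a.1, 1)))),
          Sum.inr (Sum.inr (Sum.inr (Sum.inl (a.1, 2))))] : Fin 6 → s59q_GIdx m e g) a.2)
        (fun i => Sum.inr (Sum.inr (Sum.inr (Sum.inr i))))))

/-- its inverse. -/
def s59f_reIdx' (m e g : ℕ) : s59q_GIdx m e g → s59r_Idx (0 + m) e g :=
  Sum.elim (fun a => Sum.inl (Fin.natAdd 0 a.1, a.2))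
    (Sum.elim (fun a => Sum.inr (Sum.inl (Fin.natAdd 0 a.1, a.2)))
      (Sum.elim (fun a => Sum.inr (Sum.inr (Sum.inl (a.1, Fin.castAdd 3 a.2))))
        (Sum.elim (fun a => Sum.inr (Sum.inr (Sum.inl (a.1, Fin.natAdd 3 a.2))))
          (fun i => Sum.inr (Sum.inr (Sum.inr i))))))

theorem s59f_reIdx_reIdx' (s : s59q_GIdx m e g) : s59f_reIdx m e g (s59f_reIdx' m e g s) = s := by
  rcases s with ⟨j, k⟩ | ⟨j, k⟩ | ⟨l, k⟩ | ⟨l, k⟩ | i
  · show Sum.inl (Fin.cast (Nat.zero_add m) (Fin.natAdd 0 j), k) = _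
    congr 2
    ext
    simp
  · show Sum.inr (Sum.inl (Fin.cast (Nat.zero_add m) (Fin.natAdd 0 j), k)) = _
    congr 3
    ext
    simp
  · fin_cases k <;> rfl
  · fin_cases k <;> rfl
  · rfl

variable {C : Type} [CommRing C] [IsLocalRing C] [IsAdicComplete (maximalIdeal C) C] [Algebra 𝒪 C]

/-- **the re-indexed bridge.** -/
theorem s59f_bridge_reindex (γ₀ : MvPowerSeries (s59q_GIdx m e g) 𝒪 →ₐ[𝒪] C)
    (hγ₀ : Function.Surjective γ₀) :
    ∃ γ : s59r_Flat 𝒪 (0 + m) e g →ₐ[𝒪] C, Function.Surjective γ ∧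
      ∀ s, γ (X s) = γ₀ (X (s59f_reIdx m e g s)) := by
  have hmem : ∀ s', γ₀ (X s') ∈ maximalIdeal C := by
    intro s'
    refine s59i_surj_mem (γ₀ : MvPowerSeries (s59q_GIdx m e g) 𝒪 →+* C) hγ₀ _ ?_
    exact X_mem_maximalIdeal _
  set γ : s59r_Flat 𝒪 (0 + m) e g →ₐ[𝒪] C :=
    evalHom (maximalIdeal C) (fun s => γ₀ (X (s59f_reIdx m e g s))) (fun s => hmem _) with hγdef
  have hγX : ∀ s, γ (X s) = γ₀ (X (s59f_reIdx m e g s)) := fun s => evalHom_X _ _ _ s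
  set ren : MvPowerSeries (s59q_GIdx m e g) 𝒪 →ₐ[𝒪] s59r_Flat 𝒪 (0 + m) e g :=
    evalHom (maximalIdeal (s59r_Flat 𝒪 (0 + m) e g)) (fun s' => X (s59f_reIdx' m e g s'))
      (fun s' => X_mem_maximalIdeal _) with hren
  have hcomp : γ.comp ren = γ₀ := by
    refine algHom_ext_of_X (maximalIdeal C) (fun s' => ?_) (fun s' => ?_)
    · rw [AlgHom.comp_apply, hren, evalHom_X, hγX]
      exact hmem _
    · rw [AlgHom.comp_apply, hren, evalHom_X, hγX, s59f_reIdx_reIdx']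
  refine ⟨γ, ?_, hγX⟩
  intro y
  obtain ⟨x, hx⟩ := hγ₀ y
  refine ⟨ren x, ?_⟩
  rw [← hx, ← hcomp, AlgHom.comp_apply]

end Reindex

section BridgeInst

variable {𝒪 : Type} [CommRing 𝒪] [IsDomain 𝒪] [IsDiscreteValuationRing 𝒪]
  [IsAdicComplete (maximalIdeal 𝒪) 𝒪] [Finite (ResidueField 𝒪)]
  {ρbar : ResidualGaloisRep (ResidueField 𝒪)}
  {𝒟s : ∀ ⦃A : Type⦄ [CommRing A] [IsLocalRing A] [Algebra 𝒪 A], GaloisRepAdic A → Prop}
  (DQs : GaloisRep.DeformationRingData 𝒪 ρbar 𝒟s)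
  (bR : Module.Basis (Fin 2) DQs.R DQs.ρ.V)
  {T : Type} [CommRing T] [IsLocalRing T] [IsAdicComplete (maximalIdeal T) T] [Algebra 𝒪 T]
  (κ : DQs.R →ₐ[𝒪] T)
  {m e g : ℕ} (σq φq : Fin m ⊕ Fin e → Γℚ)
  {i2 : 𝒪} (L : Fin e → s59f_LocBr 𝒪 i2)
  (P P' : Fin m ⊕ Fin e → Matrix (Fin 2) (Fin 2) 𝒪)

/-- **the bridge equations from the conclusion of `s59f_inst_flatG/_ordG`.** -/
theorem s59f_bridgeEqsG_inst
    (γ₀ : MvPowerSeries (s59q_GIdx m e g) 𝒪 →ₐ[𝒪] MvPowerSeries (s59q_ZIdx m e) T)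
    (hγ₀ : Function.Surjective γ₀)
    (h1 : ∀ j k, γ₀ (MvPowerSeries.X (Sum.inl (j, k))) =
      s59q_tl (algebraMap 𝒪 _ i2) (s59q_Fm DQs bR κ P P' (Sum.inl j) (σq (Sum.inl j))) k)
    (h2 : ∀ j k, γ₀ (MvPowerSeries.X (Sum.inr (Sum.inl (j, k)))) =
      s59q_tl (algebraMap 𝒪 _ i2) (s59q_Fm DQs bR κ P P' (Sum.inl j) (φq (Sum.inl j))) k)
    (h3 : ∀ l k, γ₀ (MvPowerSeries.X (Sum.inr (Sum.inr (Sum.inl (l, k))))) =
      s59q_tl (algebraMap 𝒪 _ i2) (s59q_Fm DQs bR κ P P' (Sum.inr l) (σq (Sum.inr l))) k)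
    (h4 : ∀ l k, γ₀ (MvPowerSeries.X (Sum.inr (Sum.inr (Sum.inr (Sum.inl (l, k)))))) =
      s59f_tlG (fun i => algebraMap 𝒪 _ ((L l).lam i))
          (s59q_Fm DQs bR κ P P' (Sum.inr l) (φq (Sum.inr l))) k -
        algebraMap 𝒪 _ ((L l).sh k)) :
    ∃ γ : s59r_Flat 𝒪 (0 + m) e g →ₐ[𝒪] MvPowerSeries (s59q_ZIdx m e) T,
      Function.Surjective γ ∧
      s59f_BridgeEqsG L (s59i_rhoM DQs bR κ) (fun t => s59q_frameU T (P t) t)
        (fun t => s59q_frameU' T (P' t) t) γ σq φq := by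
  obtain ⟨γ, hγ, hγX⟩ := s59f_bridge_reindex γ₀ hγ₀
  refine ⟨γ, hγ, fun i k => ?_, fun i k => ?_, fun l k => ?_⟩
  · rw [s59i_Fm_eq_inst]
    show γ (X _) = _
    rw [hγX]
    show γ₀ (X (Sum.inl (Fin.cast (Nat.zero_add m) (Fin.natAdd 0 i), k))) = _
    have : Fin.cast (Nat.zero_add m) (Fin.natAdd 0 i) = i := by ext; simp
    rw [this]
    exact h1 i k
  · rw [s59i_Fm_eq_inst]
    show γ (X _) = _
    rw [hγX]
    show γ₀ (X (Sum.inr (Sum.inl (Fin.cast (Nat.zero_add m) (Fin.natAdd 0 i), k)))) = _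
    have : Fin.cast (Nat.zero_add m) (Fin.natAdd 0 i) = i := by ext; simp
    rw [this]
    exact h2 i k
  · rw [s59i_Fm_eq_inst, s59i_Fm_eq_inst]
    show γ (X _) = _
    rw [hγX]
    fin_cases k
    · exact h3 l 0
    · exact h3 l 1
    · exact h3 l 2
    · exact h4 l 0
    · exact h4 l 1
    · exact h4 l 2

end BridgeInst

end Fermat.Agent.Lib.S59
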