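/-
PROGRAMME R2 = S59, node [FLR], **the `R`-side contract for GENERIC smooth local models**, part 7
(helper4, prefix `s59f_`): **helper lemmas for the final assembly.**

* `s59f_exists_basis_kappa` : a basis of the target of `κ : DQs.R → DQ'.R` whose matrices are the
                              `κ`-images of the matrices of `DQs.ρ`;
* `s59f_matOf_sub_one_apply`: `(matOf ρ b g − 1) i j = b.coord i (ρ(g) b_j − b_j)`;
* `s59f_dual_kill`          : if `x` kills the entries of `matOf ρ b g − 1` then it kills every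
                              `f (ρ(g) v − v)`;
* `s59f_cpTr_two_of_unram`  : `tr ρ(g) = 2` on inertia at an unramified prime;
* `s59f_rho_map_of_Fm_one`  : if the framed matrix maps to `1` then so does the matrix itself;
* `s59f_hyp_theta4`         : the standing hypotheses on `ϑ_i = ε_i (u_i − 1)/2`;
* `s59f_flatType_mono`      : monotonicity of the flat type in `Σ`.
-/
import Mathlib
import Fermat.Agent.Lib.S59.FAsmG6

set_option autoImplicit false
set_option linter.unusedSectionVars false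
set_option linter.unusedVariables false
set_option linter.style.haveILetI false
set_option maxHeartbeats 1600000

noncomputable section

namespace Fermat.Agent.Lib.S59

open IsLocalRing MvPowerSeries ExtCitation
open Fermat.Agent.Lib.S53 (matOf matOfRes NormData matOf_apply matOfRes_apply
  exists_basis_baseChangeAlong exists_basis_of_isEquiv)
open Fermat.Agent.Lib.Deform
open Fermat.Agent.Lib.S56

local notation "Γℚ" => (AlgebraicClosure ℚ ≃ₐ[ℚ] AlgebraicClosure ℚ)

section BasisK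

variable {𝒪 : Type} [CommRing 𝒪] [IsDomain 𝒪] [IsDiscreteValuationRing 𝒪]
  [IsAdicComplete (maximalIdeal 𝒪) 𝒪]
  {ρbar : ResidualGaloisRep (ResidueField 𝒪)}
  {𝒟s 𝒟' : ∀ ⦃A : Type⦄ [CommRing A] [IsLocalRing A] [Algebra 𝒪 A], GaloisRepAdic A → Prop}
  (DQs : GaloisRep.DeformationRingData 𝒪 ρbar 𝒟s) (DQ' : GaloisRep.DeformationRingData 𝒪 ρbar 𝒟')
  (bR : Module.Basis (Fin 2) DQs.R DQs.ρ.V)
  (κ : DQs.R →ₐ[𝒪] DQ'.R) (hκ : IsLocalHom (κ : DQs.R →+* DQ'.R))
  (eκ : (DQs.ρ.baseChangeAlong (κ : DQs.R →+* DQ'.R) hκ).IsEquiv DQ'.ρ)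

include eκ in
/-- a basis of `DQ'.ρ` whose matrices are the `κ`-images of those of `DQs.ρ`. -/
theorem s59f_exists_basis_kappa :
    ∃ b' : Module.Basis (Fin 2) DQ'.R DQ'.ρ.V,
      ∀ g, matOf DQ'.ρ b' g = (matOf DQs.ρ bR g).map κ := by
  obtain ⟨b₁, h₁⟩ := exists_basis_baseChangeAlong DQs.ρ bR (κ : DQs.R →+* DQ'.R) hκ
  obtain ⟨b', h'⟩ := exists_basis_of_isEquiv eκ b₁
  exact ⟨b', fun g => (h' g).trans (h₁ g)⟩

end BasisK

section Dual

variable {A : Type} [CommRing A] [IsLocalRing A] (ρ : GaloisRepAdic A)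
  (b : Module.Basis (Fin 2) A ρ.V)

theorem s59f_matOf_sub_one_apply (g : Γℚ) (i j : Fin 2) :
    (matOf ρ b g - 1) i j = b.coord i (ρ.ρ g (b j) - b j) := by
  rw [Matrix.sub_apply, matOf_apply, LinearMap.toMatrix_apply, Module.Basis.coord_apply, map_sub,
    Finsupp.sub_apply, Matrix.one_apply, Module.Basis.repr_self_apply]
  congr 1
  by_cases h : i = j
  · rw [if_pos h, if_pos h.symm]
  · rw [if_neg h, if_neg (fun h' => h h'.symm)]

/-- if `x` kills the entries of `matOf ρ b g − 1` then it kills every `f (ρ(g) v − v)`. -/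
theorem s59f_dual_kill {B : Type*} [CommRing B] (x : A →+* B) (g : Γℚ)
    (h : ∀ i j, x ((matOf ρ b g - 1) i j) = 0) (f : Module.Dual A ρ.V) (v : ρ.V) :
    x (f (ρ.ρ g v - v)) = 0 := by
  have hT : ∀ w : ρ.V, f w = ∑ i, b.repr w i * f (b i) := by
    intro w
    conv_lhs => rw [← b.sum_repr w]
    rw [map_sum]
    refine Finset.sum_congr rfl (fun i _ => ?_)
    rw [map_smul, smul_eq_mul]
  have hb : ∀ j, x (f (ρ.ρ g (b j) - b j)) = 0 := by
    intro j
    rw [hT, map_sum]
    refine Finset.sum_eq_zero (fun i _ => ?_)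
    have e : b.repr (ρ.ρ g (b j) - b j) i = (matOf ρ b g - 1) i j := by
      rw [s59f_matOf_sub_one_apply, Module.Basis.coord_apply]
    rw [map_mul, e, h, zero_mul]
  have hv : ρ.ρ g v - v = ∑ j, b.repr v j • (ρ.ρ g (b j) - b j) := by
    conv_lhs => rw [← b.sum_repr v]
    rw [map_sum, ← Finset.sum_sub_distrib]
    refine Finset.sum_congr rfl (fun j _ => ?_)
    rw [map_smul, smul_sub]
  rw [hv, map_sum, map_sum]
  refine Finset.sum_eq_zero (fun j _ => ?_)
  rw [map_smul, smul_eq_mul, map_mul, hb, mul_zero]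

include b in
/-- `tr ρ(g) = 2` on inertia at an unramified prime. -/
theorem s59f_cpTr_two_of_unram (q : ℕ) (h : ρ.IsUnramifiedAt q)
    (Pl : ValuationSubring (AlgebraicClosure ℚ)) (hP : Pl.LiesOverPrime q) (g : Γℚ)
    (hg : g ∈ Pl.inertiaSubgroupIn ℚ) : s59i_cpTr ρ g = 2 := by
  rw [s59i_cpTr_eq_trace ρ b, matOf_apply, h Pl hP g hg]
  show (LinearMap.toMatrix b b (LinearMap.id : ρ.V →ₗ[A] ρ.V)).trace = 2
  rw [LinearMap.toMatrix_id, Matrix.trace_fin_two]
  simp
  norm_num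

end Dual

section FmOne2

variable {R' : Type} [CommRing R'] {σ : Type} {G : Type} [Monoid G] {ι : Type}
  (ρm : G →* Matrix (Fin 2) (Fin 2) R')
  (U U' : ι → Matrix (Fin 2) (Fin 2) (MvPowerSeries σ R')) (hUU' : ∀ t, U t * U' t = 1)

include hUU' in
/-- if the framed matrix of `x` maps to `1` then so does the matrix of `x`. -/
theorem s59f_rho_map_of_Fm_one {A : Type*} [CommRing A] (f : MvPowerSeries σ R' →+* A) (t : ι)
    (x : G) (h : (s59i_Fm ρm U U' t x).map f = 1) :
    ((ρm x).map (C : R' →+* MvPowerSeries σ R')).map f = 1 := by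
  have e : (ρm x).map (C : R' →+* MvPowerSeries σ R') = U t * s59i_Fm ρm U U' t x * U' t := by
    rw [s59i_Fm]
    calc (ρm x).map (C : R' →+* MvPowerSeries σ R')
        = (U t * U' t) * (ρm x).map (C : R' →+* MvPowerSeries σ R') * (U t * U' t) := by
          rw [hUU', one_mul, mul_one]
      _ = U t * (U' t * (ρm x).map (C : R' →+* MvPowerSeries σ R') * U t) * U' t := by
          simp only [mul_assoc]
  rw [e, Matrix.map_mul, Matrix.map_mul, h, mul_one, ← Matrix.map_mul, hUU',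
    Matrix.map_one _ (map_zero f) (map_one f)]

end FmOne2

section Theta4

variable {𝒪 : Type} [CommRing 𝒪] [IsLocalRing 𝒪] [IsDomain 𝒪]
variable {i2 : 𝒪} {r4 : ℕ} (ε4 u4 : Fin r4 → 𝒪)

/-- the standing hypotheses on `ϑ_i = ε_i (u_i − 1)/2`. -/
theorem s59f_hyp_theta4 (hi2 : 2 * i2 = 1) (hε4 : ∀ i, ε4 i ^ 2 = 1)
    (hm : ∀ i, u4 i - 1 ∈ maximalIdeal 𝒪) (hne : ∀ i, u4 i ≠ 1) (i : Fin r4) :
    s59l_Hyp (s59u_r2_theta4 i2 ε4 u4 i) := by
  refine ⟨?_, ?_, ⟨i2, hi2⟩⟩
  · unfold s59u_r2_theta4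
    exact Ideal.mul_mem_right _ _ (Ideal.mul_mem_left _ _ (hm i))
  · unfold s59u_r2_theta4
    have h1 : ε4 i ≠ 0 := by
      intro h0
      have := hε4 i
      rw [h0] at this
      simp at this
    have h2 : i2 ≠ 0 := by
      intro h0
      rw [h0, mul_zero] at hi2
      exact zero_ne_one hi2
    exact mul_ne_zero (mul_ne_zero h1 (sub_ne_zero.mpr (hne i))) h2

end Theta4

section Mono

variable {𝒪 : Type} [CommRing 𝒪] (p : ℕ) {Sg Sg' : Finset ℕ} (hS : Sg ⊆ Sg')
  {A : Type} [CommRing A] [IsLocalRing A] [Algebra 𝒪 A] (ρ : GaloisRepAdic A)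

include hS in
theorem s59f_flatCondition_mono (h : GaloisRep.flatCondition 𝒪 p Sg ρ) :
    GaloisRep.flatCondition 𝒪 p Sg' ρ :=
  ⟨h.1, h.2.1, fun q hq hqS => h.2.2 q hq (fun h' => hqS (hS h'))⟩

end Mono

end Fermat.Agent.Lib.S59
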