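/-
PROGRAMME R2 = S59, node [FLR], **[PATCH-FLR]: THE ASSEMBLY** (helper4, prefix `s59f_`).
`s59f_FLR_asm` = `s59f_FLR_absL` with `hkill`, `h0`, `h𝔫U` DERIVED from the `T`-side contract
(`s59f_TBaseF`, `s59f_TLevelF`, FAsmPkg.lean) and an abstract `R`-side contract on the bridges
`γ n : P ↠ (DQ n).R⟦z⟧`:
  (Rτ)    `γ n (g12 t) = C (tr ρ^univ(φ_{q_t}))`;
  (Rkill) for every REDUCED `𝒪`-torsion-free complete noetherian local `𝒪`-algebra `T₁` and
          SURJECTIVE `f : (DQ n).R → T₁`, `⋂𝒦` dies in `T₁⟦z⟧`;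
  (R0)    if the inertia elements `σ_{q_l}` (`l < k`) act trivially after a local map
          `f : (DQ n).R⟦z⟧ → A` (`A` complete local), then `𝒦 (c 0)` dies in `A`.
-/
import Mathlib
import Fermat.Agent.Lib.S59.FAsmPkg

set_option autoImplicit false
set_option linter.unusedSectionVars false
set_option linter.unusedVariables false
set_option linter.style.haveILetI false
set_option maxHeartbeats 3200000
set_option synthInstance.maxHeartbeats 400000

noncomputable section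

namespace Fermat.Agent.Lib.S59

open IsLocalRing MvPowerSeries
open Fermat.Agent.Lib.S53 (matOf NormData)
open Fermat.Agent.Lib.S56

local notation "Γℚ" => (AlgebraicClosure ℚ ≃ₐ[ℚ] AlgebraicClosure ℚ)

variable {𝒪 : Type} [CommRing 𝒪] [IsDomain 𝒪] [IsDiscreteValuationRing 𝒪]
  [IsAdicComplete (maximalIdeal 𝒪) 𝒪] [Finite (ResidueField 𝒪)]
  {ρbar : ResidualGaloisRep (ResidueField 𝒪)}

/-- `map (g ∘ f) = map g ∘ map f`, pointwise. -/
theorem s59f_map_map {σ : Type*} {A B C' : Type*} [CommRing A] [CommRing B] [CommRing C']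
    (f : A →+* B) (g : B →+* C') (x : MvPowerSeries σ A) :
    MvPowerSeries.map g (MvPowerSeries.map f x) = MvPowerSeries.map (g.comp f) x := by
  ext d
  simp only [coeff_map, RingHom.comp_apply]

/-- **[PATCH-FLR], assembled over the `T`-side contract and an abstract `R`-side contract.** -/
theorem s59f_FLR_asm (p : ℕ) [Fact p.Prime] (hp2 : p ≠ 2) (hp𝒪 : (p : 𝒪) ∈ maximalIdeal 𝒪)
    (i2 : 𝒪) (hi2 : 2 * i2 = 1)
    {𝒟₀ : ∀ ⦃A : Type⦄ [CommRing A] [IsLocalRing A] [Algebra 𝒪 A], GaloisRepAdic A → Prop}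
    {𝒟Q : ℕ → ∀ ⦃A : Type⦄ [CommRing A] [IsLocalRing A] [Algebra 𝒪 A], GaloisRepAdic A → Prop}
    (hmono : ∀ (n : ℕ) {A : Type} [CommRing A] [IsLocalRing A] [Algebra 𝒪 A]
      (ρ : GaloisRepAdic A), 𝒟₀ ρ → 𝒟Q n ρ)
    (D0 : GaloisRep.DeformationRingData 𝒪 ρbar 𝒟₀)
    (DQ : ∀ n, GaloisRep.DeformationRingData 𝒪 ρbar (𝒟Q n))
    (κ : ∀ n, (DQ n).R →ₐ[𝒪] D0.R) (hκs : ∀ n, Function.Surjective (κ n))
    (hκtr : ∀ n g, κ n (s59i_cpTr (DQ n).ρ g) = s59i_cpTr D0.ρ g)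
    -- the rings `S` and `P`
    {σ : Type} [Fintype σ] [DecidableEq σ] (r : ℕ)
    (P : Type) [CommRing P] [IsLocalRing P] [IsNoetherianRing P]
    [IsAdicComplete (maximalIdeal P) P] [Finite (ResidueField P)] [Algebra 𝒪 P]
    (γ : ∀ n, P →ₐ[𝒪] MvPowerSeries σ (DQ n).R) (hγ : ∀ n, Function.Surjective (γ n))
    -- the chain and the ring contract
    (k : ℕ) {ι : Type*} (s : Finset ι) (𝒦 : ι → Ideal P) (c : ℕ → ι) (δ : ℕ → P)
    (hring : s59f_RingData' (MvPowerSeries σ (MvPowerSeries (Fin r) 𝒪)) P s 𝒦 k c δ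
      (fun t => Ideal.span {δ t ^ 2}))
    (qr : ℕ → ℕ) (φr σr : ℕ → Γℚ) (g12 : ℕ → P)
    (hδ : ∀ t < k, (((qr t : ℕ) : P) + 1) * (((qr t : ℕ) : P) + 1) - g12 t * g12 t = δ t)
    -- the `R`-side contract
    (hRτ : ∀ n, ∀ t < k, γ n (g12 t) = C (s59i_cpTr (DQ n).ρ (φr t)))
    (hRkill : ∀ (n : ℕ) (T₁ : Type) [CommRing T₁] [IsLocalRing T₁] [IsNoetherianRing T₁]
      [IsAdicComplete (maximalIdeal T₁) T₁] [IsReduced T₁] [Algebra 𝒪 T₁],
      (∀ o : 𝒪, o ≠ 0 → ∀ x : T₁, algebraMap 𝒪 T₁ o * x = 0 → x = 0) →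
      ∀ f : (DQ n).R →ₐ[𝒪] T₁, Function.Surjective f →
      ∀ F ∈ s.inf 𝒦, MvPowerSeries.map (σ := σ) (f : (DQ n).R →+* T₁) (γ n F) = 0)
    (hR0 : ∀ (n : ℕ) (A : Type) [CommRing A] [IsLocalRing A]
      [IsAdicComplete (maximalIdeal A) A] [Algebra 𝒪 A]
      (f : MvPowerSeries σ (DQ n).R →ₐ[𝒪] A),
      (∀ a ∈ maximalIdeal (MvPowerSeries σ (DQ n).R), f a ∈ maximalIdeal A) →
      (∀ l, l < k → ∀ (e : Module.Dual (DQ n).R (DQ n).ρ.V) (v : (DQ n).ρ.V),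
        f (C (e ((DQ n).ρ.ρ (σr l) v - v))) = 0) →
      ∀ F ∈ 𝒦 (c 0), f (γ n F) = 0)
    -- the `T`-side contract
    (Bs : s59f_TBaseF 𝒪 k D0) (qv : ∀ n, Fin r → ℕ)
    (TL : ∀ n, s59f_TLevelF 𝒪 p n r σ k Bs (qv n) qr φr σr (DQ n))
    (hunrQ : ∀ n i (g : Γℚ), (∃ A : ValuationSubring (AlgebraicClosure ℚ),
      A.LiesOverPrime (qv n i) ∧ g ∈ A.inertiaSubgroupIn ℚ) → s59i_cpTr D0.ρ g = 2)
    -- the point
    (𝒪' : Type) [CommRing 𝒪'] [IsDomain 𝒪'] [IsLocalRing 𝒪'] [IsNoetherianRing 𝒪']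
    (x : D0.R →+* 𝒪') (hx : ∀ a ∈ maximalIdeal D0.R, x a ∈ maximalIdeal 𝒪')
    (hxK : ∀ g ∈ 𝒦 (c k), ∀ n, x (κ n (constantCoeff (γ n g))) = 0) :
    RingHom.ker (Bs.ν k : D0.R →+* Bs.R k) ≤ RingHom.ker x := by
  classical
  -- notation
  set g11 : ℕ → P := fun t => ((qr t : ℕ) : P) + 1 with hg11
  -- `γT` on the Gram entries
  have hγT11 : ∀ n t, s59f_gammaT (T := (TL n).T) (γ n : P →+* MvPowerSeries σ (DQ n).R)
      ((TL n).θ : (DQ n).R →+* (TL n).T') (g11 t) =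
      (C ((qr t : ℕ) : (TL n).T) + 1 : MvPowerSeries σ (TL n).T) := by
    intro n t
    rw [hg11]
    simp only [map_add, map_one, map_natCast]
  have hγT12 : ∀ n, ∀ t < k, s59f_gammaT (T := (TL n).T) (γ n : P →+* MvPowerSeries σ (DQ n).R)
      ((TL n).θ : (DQ n).R →+* (TL n).T') (g12 t) =
      (C (algebraMap (TL n).T' (TL n).T ((TL n).θ (s59i_cpTr (DQ n).ρ (φr t)))) :
        MvPowerSeries σ (TL n).T) := by
    intro n t ht
    rw [s59f_gammaT_apply]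
    have := hRτ n t ht
    rw [RingHom.coe_coe, this, MvPowerSeries.map_C, MvPowerSeries.map_C]
    rfl
  haveI hTnoeth : ∀ n, IsNoetherianRing (TL n).T := fun n =>
    IsNoetherianRing.of_finite (TL n).T' (TL n).T
  refine s59f_FLR_absL i2 hi2 D0 DQ κ hκs hκtr r P γ hγ k s 𝒦 c δ
    (fun t => Ideal.span {δ t ^ 2}) hring g11 g12 g12 g11 hδ
    Bs.R Bs.hRres Bs.M Bs.MQ Bs.ρ Bs.hρ Bs.hρinj Bs.ρR (fun t n => hmono n _ (Bs.hρR t))
    Bs.hresR Bs.ν Bs.hν Bs.hνs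
    (s59t_frameA σ (RingHom.ker (constantCoeff (σ := Fin r) (R := 𝒪))))
    (s59f_frameA_CX σ) (s59f_frameA_X σ) (s59f_frameA_le σ)
    (fun n => s59t_frameJ σ (s59t_JH 𝒪 p n r))
    (fun n => s59t_frameJ_JH_le σ hp2 hp𝒪 n r)
    (fun n => (TL n).T') (fun n => (TL n).T) (fun n => (TL n).θ) (fun n => (TL n).hθ)
    (fun t n => (TL n).L0 t) Bs.d (fun t n => (TL n).hd t) (fun n => (TL n).std)
    (fun t n => (TL n).hstd t) (fun t n => (TL n).hψ𝒪 t) (fun n => (TL n).uu)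
    (fun n => (TL n).huu) (fun n => (TL n).hgen) (fun n => (TL n).hstdX)
    (fun n => (TL n).hstdz) (fun t n => (TL n).σQ t) (fun t ht n i => (TL n).hC8 t ht i)
    (fun t n i => hunrQ n i _ ((TL n).hσQ t i)) (fun t n => (TL n).hτ t)
    (fun t n => Ideal.span {(((C ((qr t : ℕ) : (TL n).T) + 1 : MvPowerSeries σ (TL n).T)) ^ 2 -
      (C (algebraMap (TL n).T' (TL n).T ((TL n).θ (s59i_cpTr (DQ n).ρ (φr t)))) :
        MvPowerSeries σ (TL n).T) ^ 2) ^ 2})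
    ?_ ?_ ?_ ?_ 𝒪' x hx hxK
  · -- `h𝔫U`
    intro t ht n y hy
    obtain ⟨a, rfl⟩ := Ideal.mem_span_singleton'.mp hy
    rw [map_mul, map_pow, ← hδ t ht, map_sub, map_mul, map_mul, hγT11, hγT12 n t ht]
    refine Ideal.mul_mem_left _ _ (Ideal.subset_span ?_)
    rw [Set.mem_singleton_iff, pow_two (C _ + 1), pow_two (C _)]
  · -- `hT`
    intro t ht n
    rw [hγT11, hγT12 n t ht]
    exact (TL n).hT t ht
  · -- `hkill`
    intro t ht n F hF
    have h1 := hRkill n (TL n).T' (TL n).htf (TL n).θ (TL n).hθ F hF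
    have h2 : s59f_gammaT (T := (TL n).T) (γ n : P →+* MvPowerSeries σ (DQ n).R)
        ((TL n).θ : (DQ n).R →+* (TL n).T') F = 0 := by
      rw [s59f_gammaT_apply]
      exact (congrArg (MvPowerSeries.map (σ := σ) (algebraMap (TL n).T' (TL n).T)) h1).trans
        (map_zero _)
    rw [h2]
    exact Submodule.zero_mem _
  · -- `h0`
    intro n F hF
    set J : Ideal (MvPowerSeries σ (TL n).T) :=
      Module.annihilator (MvPowerSeries σ (TL n).T) ((TL n).L0 0).N with hJ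
    by_cases hJt : J = ⊤
    · rw [hJt]; exact Submodule.mem_top
    haveI : IsLocalRing (MvPowerSeries σ (TL n).T ⧸ J) := s59l_quot_isLocalRing J hJt
    haveI : IsAdicComplete (maximalIdeal (MvPowerSeries σ (TL n).T ⧸ J))
        (MvPowerSeries σ (TL n).T ⧸ J) := s59l_quot_complete J
    set fT : (DQ n).R →ₐ[𝒪] (TL n).T :=
      (IsScalarTower.toAlgHom 𝒪 (TL n).T' (TL n).T).comp (TL n).θ with hfT
    set f : MvPowerSeries σ (DQ n).R →ₐ[𝒪] (MvPowerSeries σ (TL n).T ⧸ J) :=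
      (Ideal.Quotient.mkₐ 𝒪 J).comp (MvPowerSeries.mapAlgHom (σ := σ) fT) with hf
    have hfl : ∀ a ∈ maximalIdeal (MvPowerSeries σ (DQ n).R),
        f a ∈ maximalIdeal (MvPowerSeries σ (TL n).T ⧸ J) := by
      intro a ha
      have h1 : MvPowerSeries.map (σ := σ) (fT : (DQ n).R →+* (TL n).T) a ∈
          maximalIdeal (MvPowerSeries σ (TL n).T) := by
        refine s59i_map_mem_maximalIdeal (fT : (DQ n).R →+* (TL n).T) (fun b hb => ?_) a ha
        show algebraMap (TL n).T' (TL n).T ((TL n).θ b) ∈ maximalIdeal (TL n).T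
        exact (TL n).hlocT _
          (s59i_surj_mem ((TL n).θ : (DQ n).R →+* (TL n).T') (TL n).hθ b hb)
      show Ideal.Quotient.mk J _ ∈ _
      rw [mem_maximalIdeal, mem_nonunits_iff]
      intro hu
      haveI : IsLocalHom (Ideal.Quotient.mk J) :=
        IsLocalHom.of_surjective (Ideal.Quotient.mk J) Ideal.Quotient.mk_surjective
      have := (isUnit_map_iff (Ideal.Quotient.mk J) _).mp hu
      exact (mem_nonunits_iff.mp ((mem_maximalIdeal _).mp h1)) this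
    have h1 := hR0 n _ f hfl (fun l hl e v => ?_) F hF
    · have h2 : Ideal.Quotient.mk J (s59f_gammaT (T := (TL n).T)
          (γ n : P →+* MvPowerSeries σ (DQ n).R)
          ((TL n).θ : (DQ n).R →+* (TL n).T') F) = 0 := by
        rw [← h1, s59f_gammaT_apply, s59f_map_map]
        rfl
      exact Ideal.Quotient.eq_zero_iff_mem.mp h2
    · show Ideal.Quotient.mk J (MvPowerSeries.map (σ := σ) (fT : (DQ n).R →+* (TL n).T) (C _)) = 0
      rw [MvPowerSeries.map_C, Ideal.Quotient.eq_zero_iff_mem]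
      exact (TL n).hunr0 l hl e v

end Fermat.Agent.Lib.S59
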