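/-
PROGRAMME R2 = S59, case (P) non-minimal, [W3] (helper3, prefix `s59u_w_`), file 3: **the chain over `P⟦s_1..s_r⟧`
with a WEAK trace clause** — the twins of helper4's `s59f_step_sq` / `s59f_chain_sq` (FSqChain.lean) for helper2's weak
degeneracy packages `s59b_RaiseW … (C (bP t))` (B9StepW.lean): the marked element of the step `t` is a CONSTANT
`C (bP t)`, `bP t ∈ P`, and the ring contract is helper2's `s59b_RingDataW S P s 𝒦 k c δ 𝔫 bP` (= `s59f_RingData'` + the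
witness prime `𝔔_t ⊆ P` avoids `bP t`).  The step survives because the prime `𝔔′` of `P⟦s⟧` over `𝔔` has
`comap C 𝔔′ = 𝔔`, so `C (bP t) ∉ 𝔔′`.  The base cases (`s59f_base_sq_of_kill`, `s59f_base_sq_of_point`) and [F-PT]
(`s59f_points_sq`) are unchanged.
-/
import Mathlib
import Fermat.Agent.Lib.S59.FSqChain
import Fermat.Agent.Lib.S59.B9StepW

set_option autoImplicit false
set_option linter.unusedSectionVars false
set_option linter.unusedVariables false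
set_option linter.style.haveILetI false
set_option maxHeartbeats 1600000

namespace Fermat.Agent.Lib.S59

open IsLocalRing MvPowerSeries

section sq

variable {P : Type} [CommRing P] [IsLocalRing P] [IsNoetherianRing P]
  [IsAdicComplete (maximalIdeal P) P] [Finite (ResidueField P)] {r : ℕ}

variable (S : Type) [CommRing S] [IsDomain S] [IsLocalRing S] [IsNoetherianRing S]
  [IsNoetherianRing (MvPowerSeries (Fin r) P)]

/-- **[F-STEP-sq], weak form**: one step of family level raising over `P⟦s⟧` with the trace clause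
"`C bP` kills `coker tr`", `bP ∉ 𝔔`. -/
theorem s59u_w_step_sq
    (R : Type) [CommRing R] (M : Type) [AddCommGroup M] [Module R M]
    (R' : Type) [CommRing R'] (M' : Type) [AddCommGroup M'] [Module R' M']
    (RQ : Type) [CommRing RQ] (MQ : Type) [AddCommGroup MQ] [Module RQ MQ]
    (𝔞 : Ideal S)
    (LH : s59p_Level S (MvPowerSeries (Fin r) P) R M 𝔞 ⊥)
    (LH' : s59p_Level S (MvPowerSeries (Fin r) P) R' M' 𝔞 ⊥)
    (LQ : s59p_Level S (MvPowerSeries (Fin r) P) RQ MQ 𝔞 ⊥)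
    (g11 g12 g21 g22 : MvPowerSeries (Fin r) P) (bP : P)
    (hR : s59b_RaiseW LH LH' LQ g11 g12 g21 g22 (C bP))
    {ι : Type*} (s : Finset ι) (𝒦 : ι → Ideal P) (h𝒦 : ∀ i ∈ s, (𝒦 i).IsPrime)
    (hdim : ∀ i ∈ s, ringKrullDim (P ⧸ 𝒦 i) ≤ ringKrullDim S)
    (hkillQ : ∀ F ∈ s.inf 𝒦, (C F : MvPowerSeries (Fin r) P) ∈
      Module.annihilator (MvPowerSeries (Fin r) P) LQ.N)
    (tK tQ : Fin r → P) (htK : ∀ i, tK i ∈ maximalIdeal P) (htQ : ∀ i, tQ i ∈ maximalIdeal P)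
    (hsqQ : ∀ i, (X i : MvPowerSeries (Fin r) P) ^ 2 - C (tQ i) ∈
      Module.annihilator (MvPowerSeries (Fin r) P) LQ.N)
    (𝔫 : Ideal P) (h𝔫 : ∀ x ∈ 𝔫, (C x : MvPowerSeries (Fin r) P) ∈
      (Module.annihilator (MvPowerSeries (Fin r) P) LQ.N).radical)
    (𝔎 : Ideal (MvPowerSeries (Fin r) P)) [h𝔎p : 𝔎.IsPrime]
    (h𝔎 : Module.annihilator (MvPowerSeries (Fin r) P) LH.N ≤ 𝔎)
    (hsq𝔎 : ∀ i, (X i : MvPowerSeries (Fin r) P) ^ 2 - C (tK i) ∈ 𝔎)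
    (𝔔 : Ideal P) [h𝔔 : 𝔔.IsPrime]
    (h𝔎𝔔 : Ideal.comap (C (σ := Fin r) (R := P)) 𝔎 ≤ 𝔔)
    (δ : P) (hδ : g11 * g22 - g12 * g21 = C δ) (hδ𝔔 : δ ∈ 𝔔) (hb𝔔 : bP ∉ 𝔔)
    (i₁ : ι) (hR3 : ∀ i ∈ s, 𝒦 i ≤ 𝔔 → 𝔫 ≤ 𝒦 i → i = i₁) :
    ∃ 𝔎' : Ideal (MvPowerSeries (Fin r) P), 𝔎'.IsPrime ∧
      Module.annihilator (MvPowerSeries (Fin r) P) LH'.N ≤ 𝔎' ∧
      Ideal.comap (C (σ := Fin r) (R := P)) 𝔎' = 𝒦 i₁ := by
  -- a prime of `P⟦s⟧` over the witness prime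
  have hint𝔎 := s59f_sq_integral 𝔎 tK htK hsq𝔎
  obtain ⟨𝔔', h𝔔'p, h𝔎𝔔', hcomap⟩ :=
    s59l_lying_over (C (σ := Fin r) (R := P)) 𝔎 hint𝔎 𝔔 h𝔎𝔔
  haveI := h𝔔'p
  have hδ' : g11 * g22 - g12 * g21 ∈ 𝔔' := by
    rw [hδ, ← Ideal.mem_comap, hcomap]
    exact hδ𝔔
  have hb' : (C bP : MvPowerSeries (Fin r) P) ∉ 𝔔' := by
    intro h
    apply hb𝔔
    rw [← hcomap, Ideal.mem_comap]
    exact h
  -- `𝔔' ∈ Supp NQ`
  have hQ𝔔 : Module.annihilator (MvPowerSeries (Fin r) P) LQ.N ≤ 𝔔' := by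
    intro a ha
    have hba : (C bP : MvPowerSeries (Fin r) P) * a ∈ 𝔔' :=
      s59f_gram_mem 𝔔' (h𝔎.trans h𝔎𝔔') g11 g12 g21 g22 (C bP * a) hδ' (s59b_omega_w hR a ha)
    exact (h𝔔'p.mem_or_mem hba).resolve_left hb'
  obtain ⟨𝔓, h𝔓, h𝔓𝔔⟩ := Ideal.exists_minimalPrimes_le hQ𝔔
  haveI : 𝔓.IsPrime := h𝔓.1.1
  obtain ⟨i, his, heq⟩ := s59f_comap_minimal S LQ s 𝒦 h𝒦 hdim hkillQ tQ htQ hsqQ 𝔓 h𝔓
  have h1 : 𝒦 i ≤ 𝔔 := by
    rw [← heq, ← hcomap]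
    exact Ideal.comap_mono h𝔓𝔔
  have h2 : 𝔫 ≤ 𝒦 i := by
    intro x hx
    rw [← heq, Ideal.mem_comap]
    exact (h𝔓.1.1.radical_le_iff.mpr h𝔓.1.2) (h𝔫 x hx)
  have h3 := hR3 i his h1 h2
  subst h3
  exact ⟨𝔓, h𝔓.1.1, (s59b_ann_le_w hR).trans h𝔓.1.2, heq⟩

/-- **[F-CHAIN-sq], weak form**: family level raising along a chain of `k` primes over `P⟦s⟧`, weak trace clauses
with the marked constants `C (bP t)`. -/
theorem s59u_w_chain_sq (𝔞 : Ideal S) (k : ℕ)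
    (R : ℕ → Type) [∀ t, CommRing (R t)] (M : ℕ → Type) [∀ t, AddCommGroup (M t)]
    [∀ t, Module (R t) (M t)]
    (RQ : ℕ → Type) [∀ t, CommRing (RQ t)] (MQ : ℕ → Type) [∀ t, AddCommGroup (MQ t)]
    [∀ t, Module (RQ t) (MQ t)]
    (LH : ∀ t, s59p_Level S (MvPowerSeries (Fin r) P) (R t) (M t) 𝔞 ⊥)
    (LQ : ∀ t, s59p_Level S (MvPowerSeries (Fin r) P) (RQ t) (MQ t) 𝔞 ⊥)
    (g11 g12 g21 g22 : ℕ → MvPowerSeries (Fin r) P) (δ : ℕ → P) (bP : ℕ → P)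
    (hδ : ∀ t < k, g11 t * g22 t - g12 t * g21 t = C (δ t))
    {ι : Type*} (s : Finset ι) (𝒦 : ι → Ideal P) (c : ℕ → ι) (𝔫 : ℕ → Ideal P)
    (hring : s59b_RingDataW S P s 𝒦 k c δ 𝔫 bP)
    (hraise : ∀ t < k, s59b_RaiseW (LH t) (LH (t + 1)) (LQ t) (g11 t) (g12 t) (g21 t) (g22 t)
      (C (bP t)))
    (hkillQ : ∀ t < k, ∀ F ∈ s.inf 𝒦, (C F : MvPowerSeries (Fin r) P) ∈
      Module.annihilator (MvPowerSeries (Fin r) P) (LQ t).N)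
    (h𝔫 : ∀ t < k, ∀ x ∈ 𝔫 t, (C x : MvPowerSeries (Fin r) P) ∈
      (Module.annihilator (MvPowerSeries (Fin r) P) (LQ t).N).radical)
    (tP : ℕ → Fin r → P) (htP : ∀ t i, tP t i ∈ maximalIdeal P)
    (hsq : ∀ t ≤ k, ∀ i, (X i : MvPowerSeries (Fin r) P) ^ 2 - C (tP t i) ∈
      Module.annihilator (MvPowerSeries (Fin r) P) (LH t).N)
    (hbase : ∃ 𝔎 : Ideal (MvPowerSeries (Fin r) P), 𝔎.IsPrime ∧
      Module.annihilator (MvPowerSeries (Fin r) P) (LH 0).N ≤ 𝔎 ∧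
      Ideal.comap (C (σ := Fin r) (R := P)) 𝔎 = 𝒦 (c 0)) :
    ∀ t ≤ k, ∃ 𝔎 : Ideal (MvPowerSeries (Fin r) P), 𝔎.IsPrime ∧
      Module.annihilator (MvPowerSeries (Fin r) P) (LH t).N ≤ 𝔎 ∧
      Ideal.comap (C (σ := Fin r) (R := P)) 𝔎 = 𝒦 (c t) := by
  intro t
  induction t with
  | zero => exact fun _ => hbase
  | succ t ih =>
    intro ht
    have htk : t < k := ht
    obtain ⟨𝔎, h𝔎p, h𝔎, h𝔎c⟩ := ih htk.le
    haveI := h𝔎p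
    obtain ⟨𝔔, h𝔔, h𝔎𝔔, hδ𝔔, hb𝔔, hcl⟩ := hring.wit t htk
    haveI := h𝔔
    exact s59u_w_step_sq S (R t) (M t) (R (t + 1)) (M (t + 1)) (RQ t) (MQ t) 𝔞 (LH t) (LH (t + 1))
      (LQ t) (g11 t) (g12 t) (g21 t) (g22 t) (bP t) (hraise t htk) s 𝒦 hring.prime hring.dim
      (hkillQ t htk) (tP t) (tP (t + 1)) (htP t) (htP (t + 1))
      (fun i => s59b_ann_le_w (hraise t htk) (hsq (t + 1) ht i)) (𝔫 t) (h𝔫 t htk) 𝔎 h𝔎
      (fun i => h𝔎 (hsq t htk.le i)) 𝔔 (h𝔎c ▸ h𝔎𝔔) (δ t) (hδ t htk) hδ𝔔 hb𝔔 (c (t + 1)) hcl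

/-- the strong ring contract gives the weak one for every family of marked elements avoiding the witness primes:
here in the form "the weak contract gives back the strong one". -/
theorem s59u_w_ringData_of_W {S' : Type} [CommRing S'] {A : Type} [CommRing A] {ι : Type*}
    {s : Finset ι} {𝒦 : ι → Ideal A} {k : ℕ} {c : ℕ → ι} {δ : ℕ → A} {𝔫 : ℕ → Ideal A}
    {b : ℕ → A} (h : s59b_RingDataW S' A s 𝒦 k c δ 𝔫 b) : s59f_RingData' S' A s 𝒦 k c δ 𝔫 := by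
  refine ⟨h.prime, h.dim, h.mem0, fun t ht => ?_⟩
  obtain ⟨𝔔, h1, h2, h3, -, h5⟩ := h.wit t ht
  exact ⟨𝔔, h1, h2, h3, h5⟩

end sq

end Fermat.Agent.Lib.S59
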