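/-
PROGRAMME R2 = S59, node [FLR], **[F-PM1] with extra convergent sequences** (helper4, prefix
`s59f_`): the statement of `s59f_fpm1s` (FPm1D.lean) with, in addition,
  * finitely many extra sequences of elements `e n i ∈ A` (`i ∈ κ` finite) which CONVERGE along the
    chosen subsequence (`e (ms n) i → einf i`);
  * the passage to the limit of annihilators for CONVERGENT sequences of elements
    (`a n ∈ Ann N_t(ms n)`, `a n → ainf` ⇒ `ainf ∈ Ann N∞_t`), for all the levels and new quotients.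
Needed for the Taylor–Wiles structure without sign lemma: the relations `s_i² = t_{n,i}` with
level-dependent `t_{n,i}`.
-/
import Mathlib
import Fermat.Agent.Lib.S59.FPm1D
import Fermat.Agent.Lib.S59.PPair3

set_option autoImplicit false
set_option linter.unusedSectionVars false
set_option linter.unusedVariables false
set_option linter.style.haveILetI false
set_option maxHeartbeats 1600000

namespace Fermat.Agent.Lib.S59

open IsLocalRing Fermat.Agent.Lib.Deform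

/-- annihilators pass to the limit along convergent sequences of elements. -/
theorem s59f_ann_limit_x {S : Type} [CommRing S] {A : Type} [CommRing A] [IsLocalRing A]
    {R : Type} [CommRing R] {M : Type} [AddCommGroup M] [Module R M] {𝔞 : Ideal S}
    {J : ℕ → Ideal S} (L : ∀ n, s59p_Level S A R M 𝔞 (J n)) {d : ℕ} (hd : ∀ n, (L n).d = d)
    (Li : s59p_Level S A R M 𝔞 ⊥) (hdi : Li.d = d)
    (hK : s59p_K Li hdi = s59f_Klim (fun n => s59p_K (L n) (hd n)))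
    (a : ℕ → A) (ainf : A) (ha : ∀ n, a n ∈ Module.annihilator A (L n).N)
    (hconv : ∀ n, a n - ainf ∈ maximalIdeal A ^ n) :
    ainf ∈ Module.annihilator A Li.N := by
  rw [Module.mem_annihilator]
  intro x
  obtain ⟨g, rfl⟩ := s59p_Φ_surjective Li hdi x
  rw [← map_smul, ← s59p_mem_K, hK, s59f_mem_Klim]
  intro n
  have e : ainf • g = a n • g + (ainf - a n) • g := by
    rw [← add_smul]; congr 1; ring
  rw [e]
  refine Submodule.add_mem_sup ?_ ?_
  · rw [s59p_mem_K, map_smul]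
    exact (Module.mem_annihilator.mp (ha n)) _
  · rw [s59f_mem_E]
    intro j
    show (ainf - a n) * g j ∈ _
    refine Ideal.mul_mem_right _ _ ?_
    have := neg_mem (hconv n)
    rwa [neg_sub] at this

/-- **[F-PM1], strong form with extra convergent sequences.** -/
theorem s59f_fpm1x (S : Type) [CommRing S] [IsLocalRing S] [IsNoetherianRing S]
    [IsAdicComplete (maximalIdeal S) S] [Finite (ResidueField S)]
    (A : Type) [CommRing A] [IsLocalRing A] [IsNoetherianRing A]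
    [IsAdicComplete (maximalIdeal A) A] [Finite (ResidueField A)]
    (𝔞 : Ideal S) (J : ℕ → Ideal S) (hJ : ∀ n, J n ≤ maximalIdeal S ^ n) (k : ℕ)
    (R : ℕ → Type) [∀ t, CommRing (R t)] [∀ t, IsLocalRing (R t)] [∀ t, IsNoetherianRing (R t)]
    [∀ t, IsAdicComplete (maximalIdeal (R t)) (R t)]
    (M : ℕ → Type) [∀ t, AddCommGroup (M t)] [∀ t, Module (R t) (M t)]
    [∀ t, Module.Finite (R t) (M t)]
    (RQ : ℕ → Type) [∀ t, CommRing (RQ t)] [∀ t, IsLocalRing (RQ t)]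
    [∀ t, IsNoetherianRing (RQ t)] [∀ t, IsAdicComplete (maximalIdeal (RQ t)) (RQ t)]
    (MQ : ℕ → Type) [∀ t, AddCommGroup (MQ t)] [∀ t, Module (RQ t) (MQ t)]
    [∀ t, Module.Finite (RQ t) (MQ t)]
    (LH : ∀ t n, s59p_Level S A (R t) (M t) 𝔞 (J n))
    (LQ : ∀ t n, s59p_Level S A (RQ t) (MQ t) 𝔞 (J n))
    (d dQ : ℕ → ℕ) (hd : ∀ t n, (LH t n).d = d t) (hdQ : ∀ t n, (LQ t n).d = dQ t)
    (g11 g12 g21 g22 : ℕ → A)
    (hraise : ∀ t < k, ∀ n,
      s59f_Raise (LH t n) (LH (t + 1) n) (LQ t n) (g11 t) (g12 t) (g21 t) (g22 t))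
    {κ : Type} [Finite κ] (e : ℕ → κ → A) :
    ∃ (ms : ℕ → ℕ) (LH' : ∀ t, s59p_Level S A (R t) (M t) 𝔞 ⊥)
      (LQ' : ∀ t, s59p_Level S A (RQ t) (MQ t) 𝔞 ⊥) (einf : κ → A),
      (∀ n, n ≤ ms n) ∧
      (∀ n i, e (ms n) i - einf i ∈ maximalIdeal A ^ n) ∧
      (∀ t ≤ k, ∀ (a : ℕ → A) (ainf : A), (∀ n, a n ∈ Module.annihilator A (LH t (ms n)).N) →
        (∀ n, a n - ainf ∈ maximalIdeal A ^ n) → ainf ∈ Module.annihilator A (LH' t).N) ∧
      (∀ t ≤ k, ∀ (a : ℕ → A) (ainf : A), (∀ n, a n ∈ Module.annihilator A (LQ t (ms n)).N) →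
        (∀ n, a n - ainf ∈ maximalIdeal A ^ n) → ainf ∈ Module.annihilator A (LQ' t).N) ∧
      (∀ t < k, s59f_Raise (LH' t) (LH' (t + 1)) (LQ' t) (g11 t) (g12 t) (g21 t) (g22 t)) ∧
      (∀ t ≤ k, ∀ a : A, (∀ n, a ∈ Module.annihilator A (LH t (ms n)).N) →
        a ∈ Module.annihilator A (LH' t).N) ∧
      (∀ t ≤ k, ∀ a : A, (∀ n, a ∈ Module.annihilator A (LQ t (ms n)).N) →
        a ∈ Module.annihilator A (LQ' t).N) ∧
      (∀ t ≤ k, ∀ n a, (LH t (ms n)).ψ a - (LH' t).ψ a ∈ maximalIdeal (R t) ^ n) ∧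
      (∀ t ≤ k, ∀ n s, (LH t (ms n)).φ s - (LH' t).φ s ∈ maximalIdeal A ^ n) := by
  classical
  haveI hkR : ∀ t, Finite (ResidueField (R t)) := fun t =>
    s59p_finite_residueField (LH t 0).ψ (LH t 0).ψ_surjective
  haveI hkRQ : ∀ t, Finite (ResidueField (RQ t)) := fun t =>
    s59p_finite_residueField (LQ t 0).ψ (LQ t 0).ψ_surjective
  haveI hfinq : ∀ n, Finite (A ⧸ maximalIdeal A ^ n) := fun n => s59p_finite_quot_pow A n
  -- the matrices
  have hmat : ∀ t n, ∃ (I1 I2 : Matrix (Fin (d (t + 1))) (Fin (d t)) A)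
      (T1 T2 : Matrix (Fin (d t)) (Fin (d (t + 1))) A)
      (P : Matrix (Fin (dQ t)) (Fin (d (t + 1))) A),
      t < k → s59f_MatRaise (s59p_K (LH t n) (hd t n)) (s59p_K (LH (t + 1) n) (hd (t + 1) n))
        (s59p_K (LQ t n) (hdQ t n)) (g11 t) (g12 t) (g21 t) (g22 t) I1 I2 T1 T2 P := by
    intro t n
    by_cases ht : t < k
    · obtain ⟨I1, I2, T1, T2, P, h⟩ :=
        s59f_matRaise_of_raise (hd t n) (hd (t + 1) n) (hdQ t n) (hraise t ht n)
      exact ⟨I1, I2, T1, T2, P, fun _ => h⟩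
    · exact ⟨0, 0, 0, 0, 0, fun h => absurd h ht⟩
  choose I1 I2 T1 T2 P hMR using hmat
  -- the common subsequence
  obtain ⟨x, hx⟩ := s59c_cluster
    (P := fun n => (∀ t : Fin (k + 1), s59p_Prof S A (R t) (M t) (d t) n ×
      s59p_Prof S A (RQ t) (MQ t) (dQ t) n × s59f_MProf A (d t) (d (t + 1)) (dQ t) n) ×
      (κ → A ⧸ maximalIdeal A ^ n))
    (fun m n => (fun t => (s59p_prof (LH t m) (hd t m) n, s59p_prof (LQ t m) (hdQ t m) n,
      s59f_mprof (I1 t m) (I2 t m) (T1 t m) (T2 t m) (P t m) n),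
      fun i => Ideal.Quotient.mk _ (e m i)))
  choose ms hms hmsx using hx
  have hcau : ∀ i n n', n ≤ n' → e (ms n) i - e (ms n') i ∈ maximalIdeal A ^ n := by
    intro i n n' h
    have h1 := congrArg Prod.snd ((hmsx n n le_rfl).trans (hmsx n' n h).symm)
    exact Ideal.Quotient.eq.mp (congrFun h1 i)
  choose einf heinf using fun i => s59c_cauchy_lim (maximalIdeal A) (fun n => e (ms n) i)
    (hcau i)
  have hF : ∀ n n', n ≤ n' → ∀ t : Fin (k + 1),
      ((s59p_prof (LH t (ms n)) (hd t (ms n)) n, s59p_prof (LQ t (ms n)) (hdQ t (ms n)) n,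
        s59f_mprof (I1 t (ms n)) (I2 t (ms n)) (T1 t (ms n)) (T2 t (ms n)) (P t (ms n)) n) :
        s59p_Prof S A (R t) (M t) (d t) n ×
          s59p_Prof S A (RQ t) (MQ t) (dQ t) n × s59f_MProf A (d t) (d (t + 1)) (dQ t) n) =
      (s59p_prof (LH t (ms n')) (hd t (ms n')) n, s59p_prof (LQ t (ms n')) (hdQ t (ms n')) n,
        s59f_mprof (I1 t (ms n')) (I2 t (ms n')) (T1 t (ms n')) (T2 t (ms n')) (P t (ms n')) n) :=
    fun n n' h t => congrFun (congrArg Prod.fst ((hmsx n n le_rfl).trans (hmsx n' n h).symm)) t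
  have hCH : ∀ t, t ≤ k → s59p_Conv (J := fun n => J (ms n)) (fun n => LH t (ms n))
      (fun n => hd t (ms n)) := fun t ht =>
    s59p_conv_of_prof (LH t) (hd t) hJ ms hms
      (fun n n' h => congrArg Prod.fst (hF n n' h ⟨t, Nat.lt_succ_of_le ht⟩))
  have hCQ : ∀ t, t ≤ k → s59p_Conv (J := fun n => J (ms n)) (fun n => LQ t (ms n))
      (fun n => hdQ t (ms n)) := fun t ht =>
    s59p_conv_of_prof (LQ t) (hdQ t) hJ ms hms
      (fun n n' h => congrArg (fun p => p.2.1) (hF n n' h ⟨t, Nat.lt_succ_of_le ht⟩))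
  -- the limits
  have hlimH : ∀ t, ∃ Li : s59p_Level S A (R t) (M t) 𝔞 ⊥, t ≤ k → ∃ hdi : Li.d = d t,
      s59p_K Li hdi = s59f_Klim (fun n => s59p_K (LH t (ms n)) (hd t (ms n))) ∧
      (∀ n s, (LH t (ms n)).φ s - Li.φ s ∈ maximalIdeal A ^ n) ∧
      (∀ n a, (LH t (ms n)).ψ a - Li.ψ a ∈ maximalIdeal (R t) ^ n) := by
    intro t
    by_cases ht : t ≤ k
    · obtain ⟨Li, hdi, hφ, hψ, hK⟩ := s59p_limit (J := fun n => J (ms n))
        (fun n => LH t (ms n)) (fun n => hd t (ms n)) (hCH t ht)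
      exact ⟨Li, fun _ => ⟨hdi, hK.trans (s59f_Kinf_eq _ _), hφ, hψ⟩⟩
    · obtain ⟨Li⟩ := s59p_pm1 S A (R t) (M t) 𝔞 J hJ (LH t) (d t) (hd t)
      exact ⟨Li, fun h => absurd h ht⟩
  have hlimQ : ∀ t, ∃ Li : s59p_Level S A (RQ t) (MQ t) 𝔞 ⊥, t ≤ k → ∃ hdi : Li.d = dQ t,
      s59p_K Li hdi = s59f_Klim (fun n => s59p_K (LQ t (ms n)) (hdQ t (ms n))) := by
    intro t
    by_cases ht : t ≤ k
    · obtain ⟨Li, hdi, -, -, hK⟩ := s59p_limit (J := fun n => J (ms n))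
        (fun n => LQ t (ms n)) (fun n => hdQ t (ms n)) (hCQ t ht)
      exact ⟨Li, fun _ => ⟨hdi, hK.trans (s59f_Kinf_eq _ _)⟩⟩
    · obtain ⟨Li⟩ := s59p_pm1 S A (RQ t) (MQ t) 𝔞 J hJ (LQ t) (dQ t) (hdQ t)
      exact ⟨Li, fun h => absurd h ht⟩
  choose LH' hLH' using hlimH
  choose LQ' hLQ' using hlimQ
  refine ⟨ms, LH', LQ', einf, hms, fun n i => heinf i n, ?_, ?_, ?_, ?_, ?_, ?_, ?_⟩
  · intro t ht a ainf ha hconv
    obtain ⟨hdi, hK, -, -⟩ := hLH' t ht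
    exact s59f_ann_limit_x (fun n => LH t (ms n)) (fun n => hd t (ms n)) (LH' t) hdi hK a ainf
      ha hconv
  · intro t ht a ainf ha hconv
    obtain ⟨hdiQ, hKQ⟩ := hLQ' t ht
    exact s59f_ann_limit_x (fun n => LQ t (ms n)) (fun n => hdQ t (ms n)) (LQ' t) hdiQ hKQ a ainf
      ha hconv
  · intro t ht
    obtain ⟨hdi, hK, -, -⟩ := hLH' t ht.le
    obtain ⟨hdi', hK', -, -⟩ := hLH' (t + 1) ht
    obtain ⟨hdiQ, hKQ⟩ := hLQ' t ht.le
    have hprof : ∀ n n', n ≤ n' →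
        s59f_mprof (I1 t (ms n)) (I2 t (ms n)) (T1 t (ms n)) (T2 t (ms n)) (P t (ms n)) n =
        s59f_mprof (I1 t (ms n')) (I2 t (ms n')) (T1 t (ms n')) (T2 t (ms n')) (P t (ms n')) n :=
      fun n n' h => congrArg (fun p => p.2.2) (hF n n' h ⟨t, Nat.lt_succ_of_le ht.le⟩)
    obtain ⟨I1i, I2i, T1i, T2i, Pi, hM⟩ := s59f_matRaise_limit
      (fun n => s59p_K (LH t (ms n)) (hd t (ms n)))
      (fun n => s59p_K (LH (t + 1) (ms n)) (hd (t + 1) (ms n)))
      (fun n => s59p_K (LQ t (ms n)) (hdQ t (ms n)))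
      (s59f_KConv_of_conv _ _ (hCH t ht.le)) (s59f_KConv_of_conv _ _ (hCH (t + 1) ht))
      (s59f_KConv_of_conv _ _ (hCQ t ht.le)) (g11 t) (g12 t) (g21 t) (g22 t)
      (fun n => I1 t (ms n)) (fun n => I2 t (ms n)) (fun n => T1 t (ms n))
      (fun n => T2 t (ms n)) (fun n => P t (ms n))
      (fun n n' h => (s59f_mprof_eq (hprof n n' h)).1)
      (fun n n' h => (s59f_mprof_eq (hprof n n' h)).2.1)
      (fun n n' h => (s59f_mprof_eq (hprof n n' h)).2.2.1)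
      (fun n n' h => (s59f_mprof_eq (hprof n n' h)).2.2.2.1)
      (fun n n' h => (s59f_mprof_eq (hprof n n' h)).2.2.2.2)
      (fun n => hMR t (ms n) ht)
    refine s59f_raise_of_matRaise (I1 := I1i) (I2 := I2i) (T1 := T1i) (T2 := T2i) (P := Pi)
      hdi hdi' hdiQ ?_
    rw [hK, hK', hKQ]
    exact hM
  · intro t ht a ha
    obtain ⟨hdi, hK, -, -⟩ := hLH' t ht
    exact s59f_ann_limit (fun n => LH t (ms n)) (fun n => hd t (ms n)) (LH' t) hdi hK a ha
  · intro t ht a ha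
    obtain ⟨hdiQ, hKQ⟩ := hLQ' t ht
    exact s59f_ann_limit (fun n => LQ t (ms n)) (fun n => hdQ t (ms n)) (LQ' t) hdiQ hKQ a ha
  · intro t ht n a
    obtain ⟨hdi, hK, hφ, hψ⟩ := hLH' t ht
    exact hψ n a
  · intro t ht n s
    obtain ⟨hdi, hK, hφ, hψ⟩ := hLH' t ht
    exact hφ n s

end Fermat.Agent.Lib.S59
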