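/-
PROGRAMME R2 = S59, case (P) non-minimal, [W3] (helper3, prefix `s59u_w_`), file 2: **patching the `T`-side with extra
convergent sequences, WEAK trace clause** — the twin of helper4's `s59f_patch_of_T_x` (FSqT.lean) over helper2's
`s59b_TStepW` (B9Pm1WE.lean: `s59f_TStep` minus `tr₀`/`htr`/`hIh'`, plus the level-`n` clause
`∀ u v, ∃ z, tr z = b • (u, v)`).  Scripted copy of helper4's proof on top of `s59u_w_fpm1x`.
-/
import Mathlib
import Fermat.Agent.Lib.S59.FSqT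
import Fermat.Agent.Lib.S59.B9Pm1WE
import Fermat.Agent.Lib.S59.UWSqPm

set_option autoImplicit false
set_option linter.unusedSectionVars false
set_option linter.unusedVariables false
set_option linter.style.haveILetI false
set_option maxHeartbeats 1600000

namespace Fermat.Agent.Lib.S59

open IsLocalRing

/-- **patching the `T`-side, with extra convergent sequences, WEAK trace clause.** -/
theorem s59u_w_patch_of_T_x (S : Type) [CommRing S] [IsLocalRing S] [IsNoetherianRing S]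
    [IsAdicComplete (maximalIdeal S) S] [Finite (ResidueField S)]
    (A : Type) [CommRing A] [IsLocalRing A] [IsNoetherianRing A]
    [IsAdicComplete (maximalIdeal A) A] [Finite (ResidueField A)]
    (𝔞 : Ideal S) (h𝔞 : 𝔞 ≤ maximalIdeal S) (J : ℕ → Ideal S)
    (hJ : ∀ n, J n ≤ maximalIdeal S ^ (n + 1)) (k : ℕ)
    (R : ℕ → Type) [∀ t, CommRing (R t)] [∀ t, IsLocalRing (R t)] [∀ t, IsNoetherianRing (R t)]
    [∀ t, IsAdicComplete (maximalIdeal (R t)) (R t)]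
    (M : ℕ → Type) [∀ t, AddCommGroup (M t)] [∀ t, Module (R t) (M t)]
    [∀ t, Module.Finite (R t) (M t)]
    (MQ : ℕ → Type) [∀ t, AddCommGroup (MQ t)] [∀ t, Module (R (t + 1)) (MQ t)]
    (ρ : ∀ t, M (t + 1) →ₗ[R (t + 1)] MQ t) (hρ : ∀ t, Function.Surjective (ρ t))
    (hρinj : ∀ t, k ≤ t → Function.Injective (ρ t))
    (LH : ∀ t n, s59p_Level S A (R t) (M t) 𝔞 (J n)) (d : ℕ → ℕ) (hd : ∀ t n, (LH t n).d = d t)
    (g11 g12 g21 g22 b : ℕ → A) (𝔫 : ℕ → Ideal A)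
    (hT : ∀ t < k, ∀ n, s59b_TStepW (LH t n) (LH (t + 1) n) (g11 t) (g12 t) (g21 t) (g22 t) (b t)
      (ρ t) (𝔫 t))
    {κ : Type} [Finite κ] (e : ℕ → κ → A) :
    ∃ (ms : ℕ → ℕ) (LHi : ∀ t, s59p_Level S A (R t) (M t) 𝔞 ⊥)
      (LQi : ∀ t, s59p_Level S A (R (t + 1)) (MQ t) 𝔞 ⊥) (einf : κ → A),
      (∀ n, n ≤ ms n) ∧
      (∀ n i, e (ms n) i - einf i ∈ maximalIdeal A ^ n) ∧
      (∀ t < k,
        s59b_RaiseW (LHi t) (LHi (t + 1)) (LQi t) (g11 t) (g12 t) (g21 t) (g22 t) (b t)) ∧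
      (∀ t < k, 𝔫 t ≤ Module.annihilator A (LQi t).N) ∧
      (∀ t ≤ k, ∀ (a : ℕ → A) (ainf : A), (∀ n, a n ∈ Module.annihilator A (LH t (ms n)).N) →
        (∀ n, a n - ainf ∈ maximalIdeal A ^ n) → ainf ∈ Module.annihilator A (LHi t).N) ∧
      (∀ t ≤ k, ∀ n a, (LH t (ms n)).ψ a - (LHi t).ψ a ∈ maximalIdeal (R t) ^ n) ∧
      (∀ t ≤ k, ∀ n s, (LH t (ms n)).φ s - (LHi t).φ s ∈ maximalIdeal A ^ n) := by
  classical
  haveI : ∀ t, Module.Finite (R (t + 1)) (MQ t) := fun t =>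
    Module.Finite.of_surjective (ρ t) (hρ t)
  have hJ1 : ∀ n, J n ≤ maximalIdeal S := fun n =>
    (hJ n).trans (Ideal.pow_le_self (Nat.succ_ne_zero n))
  have hJn : ∀ n, J n ≤ maximalIdeal S ^ n := fun n =>
    (hJ n).trans (Ideal.pow_le_pow_right (Nat.le_succ n))
  -- the new quotients at every level
  have hQ : ∀ t n, ∃ LQ : s59p_Level S A (R (t + 1)) (MQ t) 𝔞 (J n),
      (t < k → d t + d t + LQ.d = d (t + 1) ∧
        s59b_RaiseW (LH t n) (LH (t + 1) n) LQ (g11 t) (g12 t) (g21 t) (g22 t) (b t) ∧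
        𝔫 t ≤ Module.annihilator A LQ.N) ∧
      (¬ t < k → LQ.d = d (t + 1)) := by
    intro t n
    by_cases ht : t < k
    · obtain ⟨LQ, h1, h2, h3⟩ := s59b_raiseW_of_TStepW (LH t n) (LH (t + 1) n) (g11 t) (g12 t)
        (g21 t) (g22 t) (b t) (ρ t) (𝔫 t) (hJ1 n) h𝔞 (hρ t) (hT t ht n)
      refine ⟨LQ, fun _ => ⟨?_, h2, h3⟩, fun h => absurd ht h⟩
      rw [← hd t n, ← hd (t + 1) n]; exact h1
    · refine ⟨s59f_pushLevel (LH (t + 1) n) (ρ t) ⟨hρinj t (not_lt.mp ht), hρ t⟩,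
        fun h => absurd h ht, fun _ => hd (t + 1) n⟩
  choose LQ hLQ1 hLQ2 using hQ
  let dQ : ℕ → ℕ := fun t => if t < k then d (t + 1) - (d t + d t) else d (t + 1)
  have hdQ : ∀ t n, (LQ t n).d = dQ t := by
    intro t n
    by_cases ht : t < k
    · have := (hLQ1 t n ht).1
      simp only [dQ, if_pos ht]
      omega
    · simp only [dQ, if_neg ht]
      exact hLQ2 t n ht
  obtain ⟨ms, LHi, LQi, einf, hms, he, hx2, hx3, h1, h2, h3, h4, h5⟩ := s59u_w_fpm1x S A 𝔞 J hJn k R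
    M (fun t => R (t + 1)) MQ LH LQ d dQ hd hdQ g11 g12 g21 g22 b
    (fun t ht n => (hLQ1 t n ht).2.1) e
  refine ⟨ms, LHi, LQi, einf, hms, he, h1, ?_, hx2, h4, h5⟩
  intro t ht a ha
  exact h3 t ht.le a fun n => (hLQ1 t (ms n) ht).2.2 ha

end Fermat.Agent.Lib.S59
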