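/-
PROGRAMME R2 = S59, node [PATCH-FLR] (flat case), helper4 (prefix `s59f_`): **THE LOCAL ANALYSIS AT A
RAISING PRIME** `q ≠ p`: `ρ` a `p`-adic representation over a characteristic-zero local domain with
cyclotomic determinant, residually UNRAMIFIED at `q`, unipotent on inertia at `q` and RAMIFIED at `q`.

* `s59f_tr_sq_alg`  : in any algebra, `ΦN = q·NΦ`, `Φ² = tΦ − δ` ⟹ `δ(1−q)²(t²q − δ(1+q)²)·N = 0`;
* `s59f_tr_sq_mat`  : `2 × 2` matrices over a domain: `(Σ−1)² = 0`, `ΦΣ = Σ^qΦ`, `det Φ = q`, `Σ ≠ 1`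
                      ⟹ `(tr Φ)² = (q+1)²`;
* `s59f_trace_sign` : `tr ρ(Frob_q) = ε(q+1)` with `ε = ±1` (the sign of the Steinberg twist);
* `s59f_inertia_ne_one_of_ram`, `s59f_tame_ne_one` : a ramified `ρ` is non-trivial on the inertia group
  of EVERY place over `q`, hence at every uniform generator of tame inertia.
-/
import Mathlib
import Fermat.Agent.Lib.S59.EB7Rep
import Fermat.Agent.Lib.S59.LFinB2
import Fermat.Agent.Lib.S59.QBrUnifUse
import Fermat.Agent.Lib.Mz.ValConj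

set_option autoImplicit false
set_option linter.unusedSectionVars false
set_option linter.unusedVariables false
set_option linter.style.haveILetI false
set_option maxHeartbeats 1600000
set_option synthInstance.maxHeartbeats 400000

noncomputable section

namespace Fermat.Agent.Lib.S59

open IsLocalRing
open Fermat.Agent.Lib.S53 (matOf matOf_apply)

local notation "Γℚ" => (AlgebraicClosure ℚ ≃ₐ[ℚ] AlgebraicClosure ℚ)

section Alg

theorem s59f_one_add_pow {E : Type*} [Ring E] (N : E) (hN : N * N = 0) (n : ℕ) :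
    (1 + N) ^ n = 1 + (n : E) * N := by
  induction n with
  | zero => simp
  | succ k ih =>
    rw [pow_succ, ih]
    have : (1 + (k : E) * N) * (1 + N) = 1 + ((k : E) + 1) * N + (k : E) * (N * N) := by
      noncomm_ring
    rw [this, hN, mul_zero, add_zero]
    push_cast
    rfl

/-- **the trace-square identity**: `ΦN = q·NΦ` and Cayley–Hamilton `Φ² = tΦ − δ` force
`δ(1−q)²(t²q − δ(1+q)²)·N = 0`. -/
theorem s59f_tr_sq_alg {R E : Type*} [CommRing R] [Ring E] [Algebra R E] (Ph N : E) (t δ q : R)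
    (h1 : Ph * N = q • (N * Ph)) (hCH : Ph * Ph = t • Ph - δ • (1 : E)) :
    (δ * (1 - q) ^ 2 * (t ^ 2 * q - δ * (1 + q) ^ 2)) • N = 0 := by
  have hl : Ph * Ph * N = (t * q) • (N * Ph) - δ • N := by
    rw [hCH, sub_mul, smul_mul_assoc, smul_mul_assoc, one_mul, h1, smul_smul]
  have hr : Ph * Ph * N = (q ^ 2 * t) • (N * Ph) - (q ^ 2 * δ) • N := by
    rw [mul_assoc, h1, mul_smul_comm, ← mul_assoc, h1, smul_mul_assoc, mul_assoc, hCH, mul_sub,
      mul_smul_comm, mul_smul_comm, mul_one]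
    generalize N * Ph = X
    module
  have hB : N * Ph * Ph = t • (N * Ph) - δ • N := by
    rw [mul_assoc, hCH, mul_sub, mul_smul_comm, mul_smul_comm, mul_one]
  have hA : (t * q * (1 - q)) • (N * Ph) = (δ * (1 - q) * (1 + q)) • N := by
    have := hl.symm.trans hr
    generalize N * Ph = X at *
    linear_combination (norm := module) (1 : R) • this
  have hA' : (t * q * (1 - q)) • (N * Ph * Ph) = (δ * (1 - q) * (1 + q)) • (N * Ph) := by
    rw [← smul_mul_assoc, hA, smul_mul_assoc]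
  rw [hB] at hA'
  generalize N * Ph = X at *
  linear_combination (norm := module) (-(t * q * (1 - q) * t - δ * (1 - q) * (1 + q))) • hA +
    (t * q * (1 - q)) • hA'

theorem s59f_CH_two {A : Type*} [CommRing A] (M : Matrix (Fin 2) (Fin 2) A) :
    M * M = M.trace • M - M.det • (1 : Matrix (Fin 2) (Fin 2) A) := by
  ext i j
  fin_cases i <;> fin_cases j <;>
    simp [Matrix.mul_apply, Fin.sum_univ_two, Matrix.trace, Matrix.det_fin_two] <;> ring

/-- **`(tr Φ)² = (q+1)²`** for a ramified unipotent tame pair `(Φ, Σ)` over a domain. -/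
theorem s59f_tr_sq_mat {A : Type*} [CommRing A] [IsDomain A] (Ph Sg : Matrix (Fin 2) (Fin 2) A)
    (q : ℕ) (hq0 : (q : A) ≠ 0) (hq1 : (q : A) ≠ 1) (hN2 : (Sg - 1) * (Sg - 1) = 0)
    (hrel : Ph * Sg = Sg ^ q * Ph) (hdet : Ph.det = (q : A)) (hne : Sg ≠ 1) :
    Ph.trace ^ 2 = ((q : A) + 1) ^ 2 := by
  set N := Sg - 1 with hN
  have hSg : Sg = 1 + N := by rw [hN]; abel
  have hpow : Sg ^ q = 1 + (q : Matrix (Fin 2) (Fin 2) A) * N := by
    rw [hSg]; exact s59f_one_add_pow N hN2 q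
  have h1 : Ph * N = (q : A) • (N * Ph) := by
    have : Ph * N = Ph * Sg - Ph := by rw [hN, mul_sub, mul_one]
    rw [this, hrel, hpow, add_mul, one_mul, add_sub_cancel_left, mul_assoc]
    rw [← nsmul_eq_mul, ← Nat.cast_smul_eq_nsmul A]
  have key := s59f_tr_sq_alg Ph N Ph.trace Ph.det (q : A) h1 (s59f_CH_two Ph)
  have hN0 : N ≠ 0 := fun h => hne (by rw [hSg, h, add_zero])
  rw [hdet] at key
  rcases smul_eq_zero.mp key with h | h
  · have h1q : (1 : A) - q ≠ 0 := fun h' => hq1 (by linear_combination -h')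
    have h2 : Ph.trace ^ 2 * (q : A) - (q : A) * (1 + q) ^ 2 = 0 := by
      rcases mul_eq_zero.mp h with h3 | h3
      · rcases mul_eq_zero.mp h3 with h4 | h4
        · exact absurd h4 hq0
        · exact absurd ((pow_eq_zero_iff (two_ne_zero)).mp h4) h1q
      · exact h3
    have h3 : (q : A) * (Ph.trace ^ 2 - ((q : A) + 1) ^ 2) = 0 := by linear_combination h2
    rcases mul_eq_zero.mp h3 with h4 | h4
    · exact absurd h4 hq0
    · exact sub_eq_zero.mp h4
  · exact absurd h hN0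

end Alg

section Gal

variable {A : Type} [CommRing A] [IsLocalRing A] [IsNoetherianRing A]

/-- unipotence on inertia, in matrices. -/
theorem s59f_unip_mat (ρ : GaloisRepAdic A) (b : Module.Basis (Fin 2) A ρ.V) (q : ℕ)
    (h : ρ.IsUnipotentOnInertiaAt q) (P : ValuationSubring (AlgebraicClosure ℚ))
    (hP : P.LiesOverPrime q) (σ : Γℚ) (hσ : σ ∈ P.inertiaSubgroupIn ℚ) :
    (matOf ρ b σ - 1) * (matOf ρ b σ - 1) = 0 := by
  have h1 := h P hP σ hσ
  have h2 : (ρ.ρ σ - 1) * (ρ.ρ σ - 1) = 0 := by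
    have := LinearMap.aeval_self_charpoly (ρ.ρ σ)
    rw [h1] at this
    simpa [pow_two] using this
  have h3 := congrArg (LinearMap.toMatrix b b) h2
  rw [LinearMap.toMatrix_mul, map_sub, LinearMap.toMatrix_one, map_zero] at h3
  rw [matOf_apply]
  exact h3

/-- **the sign of a ramified unipotent representation at `q`**: `tr ρ(Frob_q) = ±(q+1)`. -/
theorem s59f_trace_sign [IsDomain A] [CharZero A] (ρ : GaloisRepAdic A) {p q : ℕ}
    [hp : Fact p.Prime] (hdet : ρ.DetIsCyclotomic p) (hq : q.Prime) (hqp : q ≠ p)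
    (P : ValuationSubring (AlgebraicClosure ℚ)) (hP : P.LiesOverPrime q)
    (hU : ρ.residual.IsUnramifiedAt q) (hunip : ρ.IsUnipotentOnInertiaAt q)
    (σ φ : Γℚ) (hσ : σ ∈ P.inertiaSubgroupIn ℚ) (hφ : P.IsFrobeniusAt φ q) (hne : ρ.ρ σ ≠ 1) :
    ∃ ε : A, (ε = 1 ∨ ε = -1) ∧ s59i_cpTr ρ φ = ε * ((q : A) + 1) := by
  set b : Module.Basis (Fin 2) A ρ.V := Module.finBasisOfFinrankEq A ρ.V ρ.finrank_eq with hb
  obtain ⟨-, hrel, -, -, hdetφ⟩ := s59e_B7_basic ρ b hdet hq hqp P hP hU σ φ hσ hφ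
  have hN2 := s59f_unip_mat ρ b q hunip P hP σ hσ
  have hq0 : ((q : ℕ) : A) ≠ 0 := Nat.cast_ne_zero.mpr hq.ne_zero
  have hq1 : ((q : ℕ) : A) ≠ 1 := by
    intro h
    have : (q : ℕ) = 1 := by exact_mod_cast h
    exact hq.one_lt.ne' this
  have hne' : matOf ρ b σ ≠ 1 := by
    intro h
    apply hne
    rw [matOf_apply] at h
    have h1 : LinearMap.toMatrix b b (ρ.ρ σ) = LinearMap.toMatrix b b (1 : Module.End A ρ.V) := by
      rw [h]
      exact (LinearMap.toMatrix_one b).symm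
    exact (LinearMap.toMatrix b b).injective h1
  have hsq := s59f_tr_sq_mat (matOf ρ b φ) (matOf ρ b σ) q hq0 hq1 hN2 hrel hdetφ hne'
  rw [← s59i_cpTr_eq_trace ρ b φ] at hsq
  have h0 : (s59i_cpTr ρ φ - ((q : A) + 1)) * (s59i_cpTr ρ φ + ((q : A) + 1)) = 0 := by
    linear_combination hsq
  rcases mul_eq_zero.mp h0 with h | h
  · exact ⟨1, Or.inl rfl, by linear_combination h⟩
  · exact ⟨-1, Or.inr rfl, by linear_combination h⟩

/-- a representation ramified at `q` is non-trivial on the inertia group of EVERY place over `q`. -/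
theorem s59f_inertia_ne_one_of_ram (ρ : GaloisRepAdic A) {q : ℕ} (hq : q.Prime)
    (hram : ¬ ρ.IsUnramifiedAt q) (P : ValuationSubring (AlgebraicClosure ℚ))
    (hP : P.LiesOverPrime q) : ∃ τ ∈ P.inertiaSubgroupIn ℚ, ρ.ρ τ ≠ 1 := by
  by_contra hall
  apply hram
  intro P' hP' τ hτ
  obtain ⟨g, hg⟩ := Fermat.Agent.Lib.Mz.ptm_inertia_conj hq P P' hP hP'
  have h1 : ρ.ρ (g * τ * g⁻¹) = 1 := by
    by_contra h
    exact hall ⟨_, hg τ hτ, h⟩
  have h2 : ρ.ρ τ = ρ.ρ g⁻¹ * ρ.ρ (g * τ * g⁻¹) * ρ.ρ g := by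
    rw [← map_mul, ← map_mul]
    congr 1
    group
  rw [h2, h1, mul_one, ← map_mul, inv_mul_cancel, map_one]

/-- **a ramified `ρ`, residually unramified at `q ≠ p`, is non-trivial at every uniform generator of
tame inertia.** -/
theorem s59f_tame_ne_one (ρ : GaloisRepAdic A) {p q : ℕ} (hpp : p.Prime)
    (hpA : ((p : ℕ) : A) ∈ maximalIdeal A) (hq : q.Prime) (hqp : q ≠ p)
    (hU : ρ.residual.IsUnramifiedAt q) (hram : ¬ ρ.IsUnramifiedAt q)
    (P : ValuationSubring (AlgebraicClosure ℚ)) (hP : P.LiesOverPrime q)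
    (σ : Γℚ) (hσ : s59q_IsTameGen q P σ) : ρ.ρ σ ≠ 1 := by
  intro h1
  obtain ⟨τ, hτ, hne⟩ := s59f_inertia_ne_one_of_ram ρ hq hram P hP
  exact hne (s59q_unr_of_isTameGen ρ.ρ ρ.isAdicContinuous p hpp hpA q hq hqp P
    ((s59e_residual_unr_iff ρ q).mp hU P hP) σ hσ h1 τ hτ)

end Gal

end Fermat.Agent.Lib.S59
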