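/-
PROGRAMME R2 = S59, node [FLR], **[F-RING′] for the primes `ℓ₀ ≢ ±1 (p)`** (helper4, prefix
`s59f_`): the ring contract `s59f_RingData'` of `FGraph2.lean` for the flat ring
`𝒫^E = s59l_FlatE 𝒪 m e g` of `LTol.lean` and its `2^e` components `𝒦_{θ,ch}`
(`ch : Fin e → Bool`, `true` = Steinberg), along the chain
      `c t = (l ↦ [l < t])`      (Steinberg at the first `t` primes of `E`).

* `s59f_relE D m g l  = (f₀ + f')² + βγ − f₀²`   (the Steinberg relation at `l`),
  `s59f_deltaE D m g l = −4 · s59f_relE`          (= the Gram determinant `(u+1)² − (2a)²`,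
  `s59f_gramE`, for any `a` with `a² = u + (f₀+f')² + βγ`);
* `δ_l ∈ 𝒦_{θ,ch} ⇔ ch l = true` (`s59f_deltaE_mem_iff`);
* the witness `s59f_QE D θ hθ g ch l = ker (σ_l ∘ Ψ ∘ π_ch)`, `σ_l` = "put `y_{l,0} = y_{l,1} = 0`"
  (a point of the intersection of the two branches at `l`, generic elsewhere);
* **`s59f_ringDataE`** : the contract.
-/
import Mathlib
import Fermat.Agent.Lib.S59.LTol
import Fermat.Agent.Lib.S59.FGraph2

set_option autoImplicit false
set_option linter.unusedSectionVars false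
set_option linter.unusedVariables false
set_option linter.style.haveILetI false

noncomputable section

namespace Fermat.Agent.Lib.S59

open IsLocalRing MvPowerSeries Fermat.Agent.Lib.Deform

/-- a quadric with a non-zero linear term is not zero. -/
theorem s59f_quadric_ne_zero {σ : Type*} (E : Type*) [CommRing E] (c : E) (hc : 2 * c ≠ 0)
    (a b d : σ) (hab : a ≠ b) :
    ((C c + X a) ^ 2 + X b * X d - C c ^ 2 : MvPowerSeries σ E) ≠ 0 := by
  classical
  intro h
  have e1 : ((C c + X a) ^ 2 + X b * X d - C c ^ 2 : MvPowerSeries σ E) =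
      C (2 * c) * X a + X a ^ 2 + X b * X d := by
    rw [map_mul, map_ofNat]; ring
  rw [e1] at h
  have h1 := congrArg (coeff (Finsupp.single a 1)) h
  rw [map_add, map_add, map_zero, coeff_C_mul, coeff_X, if_pos rfl, mul_one, X_pow_eq,
    coeff_monomial, if_neg (by
      intro h2
      have := congrArg (fun f => f a) h2
      simp at this)] at h1
  have h2 : coeff (Finsupp.single a 1) ((X b * X d : MvPowerSeries σ E)) = 0 := by
    have hdvd : (X b : MvPowerSeries σ E) ∣ X b * X d := dvd_mul_right _ _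
    rw [X_dvd_iff] at hdvd
    refine hdvd _ ?_
    rw [Finsupp.single_apply, if_neg hab]
  rw [h2, add_zero, add_zero] at h1
  exact hc h1

section kill

variable (B : Type) [CommRing B] [IsLocalRing B] [IsAdicComplete (maximalIdeal B) B]

/-- the substitution "`X i = 0` for `i ∈ Z`". -/
def s59f_kill (n : ℕ) (Z : Fin n → Prop) [DecidablePred Z] :
    MvPowerSeries (Fin n) B →ₐ[B] MvPowerSeries (Fin n) B :=
  evalHom (maximalIdeal (MvPowerSeries (Fin n) B)) (fun i => if Z i then 0 else X i) (by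
    intro i
    split_ifs
    · exact zero_mem _
    · exact X_mem_maximalIdeal i)

variable {B}

theorem s59f_kill_X (n : ℕ) (Z : Fin n → Prop) [DecidablePred Z] (i : Fin n) :
    s59f_kill B n Z (X i) = if Z i then 0 else X i := evalHom_X _ _ _ i

theorem s59f_kill_C (n : ℕ) (Z : Fin n → Prop) [DecidablePred Z] (b : B) :
    s59f_kill B n Z (C b) = C b := by
  rw [s59l_algHom_C, MvPowerSeries.algebraMap_apply, Algebra.algebraMap_self, RingHom.id_apply]

end kill

section E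

variable {𝒪 : Type} [CommRing 𝒪] [IsLocalRing 𝒪] [IsNoetherianRing 𝒪] [IsDomain 𝒪]
  [IsAdicComplete (maximalIdeal 𝒪) 𝒪] [Finite (ResidueField 𝒪)]

variable {m e g : ℕ} (D : s59l_EData 𝒪 e)

/-- the Steinberg relation `(f₀ + f')² + βγ − f₀²` at the prime `l ∈ E`. -/
def s59f_relE (m g : ℕ) (l : Fin e) : s59l_FlatE 𝒪 m e g :=
  (C (D.f0 l) + s59l_WE l 0) ^ 2 + s59l_WE l 1 * s59l_WE l 2 - C (D.f0 l) ^ 2

/-- the Gram determinant at the prime `l ∈ E`. -/
def s59f_deltaE (m g : ℕ) (l : Fin e) : s59l_FlatE 𝒪 m e g := -4 * s59f_relE D m g l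

/-- `δ = (u+1)² − (2a)²` for `a = tr ρ(φ_l) / 2`. -/
theorem s59f_gramE (m g : ℕ) (l : Fin e) (a : s59l_FlatE 𝒪 m e g)
    (ha : a ^ 2 = C (D.u l) + ((C (D.f0 l) + s59l_WE l 0) ^ 2 + s59l_WE l 1 * s59l_WE l 2)) :
    (C (D.u l + 1) : s59l_FlatE 𝒪 m e g) * C (D.u l + 1) - (2 * a) * (2 * a) =
      s59f_deltaE D m g l := by
  have h4 : (4 : s59l_FlatE 𝒪 m e g) * C (D.f0 l) ^ 2 = (C (D.u l) - 1) ^ 2 := by
    have h1 : (4 : 𝒪) * D.f0 l ^ 2 = (D.u l - 1) ^ 2 := by
      have h2 : (4 : 𝒪) * D.i2 ^ 2 = 1 := by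
        have := D.hi2
        calc (4 : 𝒪) * D.i2 ^ 2 = (2 * D.i2) ^ 2 := by ring
          _ = 1 := by rw [this, one_pow]
      unfold s59l_EData.f0
      calc (4 : 𝒪) * (D.ε l * (D.u l - 1) * D.i2) ^ 2
          = D.ε l ^ 2 * (D.u l - 1) ^ 2 * (4 * D.i2 ^ 2) := by ring
        _ = (D.u l - 1) ^ 2 := by rw [D.hε, h2]; ring
    have := congrArg (C (σ := s59l_IdxE m e g) (R := 𝒪)) h1
    rw [map_mul, map_pow, map_pow, map_sub, map_one, map_ofNat] at this
    exact this
  unfold s59f_deltaE s59f_relE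
  rw [map_add, map_one]
  have : (2 * a) * (2 * a) = 4 * a ^ 2 := by ring
  rw [this, ha]
  linear_combination (-1 : s59l_FlatE 𝒪 m e g) * h4

theorem s59f_piE_VE (ch : Fin e → Bool) (l : Fin e) (k : Fin 3) :
    s59l_piE D m g ch (s59l_VE l k) = if ch l then
      (![s59l_stE D m g l, s59l_yE m g l 0, s59l_stC D m g l] :
        Fin 3 → s59l_Flat 𝒪 m (g + e * 3)) k else 0 := by
  rw [s59l_VE, s59l_piE_X]; rfl

theorem s59f_piE_WE (ch : Fin e → Bool) (l : Fin e) (k : Fin 3) :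
    s59l_piE D m g ch (s59l_WE l k) = if ch l then
      (![s59l_stF D m g l - C (D.f0 l), s59l_yE m g l 1, s59l_yE m g l 2] :
        Fin 3 → s59l_Flat 𝒪 m (g + e * 3)) k else s59l_yE m g l k := by
  rw [s59l_WE, s59l_piE_X]; rfl

theorem s59f_piE_relE_true (ch : Fin e → Bool) (l : Fin e) (h : ch l = true) :
    s59l_piE D m g ch (s59f_relE D m g l) = 0 := by
  unfold s59f_relE
  rw [map_sub, map_add, map_pow, map_add, map_mul, map_pow, s59l_piE_C, s59f_piE_WE,
    s59f_piE_WE, s59f_piE_WE, if_pos h, if_pos h, if_pos h]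
  show (C (D.f0 l) + (s59l_stF D m g l - C (D.f0 l))) ^ 2 +
    s59l_yE m g l 1 * s59l_yE m g l 2 - C (D.f0 l) ^ 2 = 0
  rw [add_sub_cancel, (s59l_st_spec D m g l).1]
  ring

theorem s59f_piE_relE_false (ch : Fin e → Bool) (l : Fin e) (h : ch l = false) :
    s59l_piE D m g ch (s59f_relE D m g l) =
      (C (D.f0 l) + s59l_yE m g l 0) ^ 2 + s59l_yE m g l 1 * s59l_yE m g l 2 -
        C (D.f0 l) ^ 2 := by
  have h' : ¬ ch l = true := by simp [h]
  unfold s59f_relE
  rw [map_sub, map_add, map_pow, map_add, map_mul, map_pow, s59l_piE_C, s59f_piE_WE,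
    s59f_piE_WE, s59f_piE_WE, if_neg h', if_neg h', if_neg h']

variable (θ : Fin m → 𝒪) (hθ : ∀ j, s59l_Hyp (θ j))

/-- the index of the variable `y_{l,k}`. -/
def s59f_yIdx (e g : ℕ) (l : Fin e) (k : Fin 3) : Fin (g + e * 3) := s59l_xe e g (Sum.inr (l, k))

theorem s59f_yIdx_inj {e g : ℕ} {l l' : Fin e} {k k' : Fin 3}
    (h : s59f_yIdx e g l k = s59f_yIdx e g l' k') : l = l' ∧ k = k' := by
  have := (s59l_xe e g).injective h
  have h2 := Sum.inr_injective this
  exact ⟨congrArg Prod.fst h2, congrArg Prod.snd h2⟩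

theorem s59f_Psi_yE (l : Fin e) (k : Fin 3) :
    s59l_Psi (s59l_stage m θ hθ) (g + e * 3) (s59l_yE m g l k) = X (s59f_yIdx e g l k) := by
  rw [s59l_yE, s59l_Psi_Xv]; rfl

/-- the image of the Steinberg relation on a component which is unramified at `l`. -/
theorem s59f_Psi_relE_false (ch : Fin e → Bool) (l : Fin e) (h : ch l = false) :
    s59l_Psi (s59l_stage m θ hθ) (g + e * 3) (s59l_piE D m g ch (s59f_relE D m g l)) =
      (C (algebraMap 𝒪 (s59l_stage m θ hθ).A (D.f0 l)) + X (s59f_yIdx e g l 0)) ^ 2 +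
        X (s59f_yIdx e g l 1) * X (s59f_yIdx e g l 2) -
        C (algebraMap 𝒪 (s59l_stage m θ hθ).A (D.f0 l)) ^ 2 := by
  rw [s59f_piE_relE_false D ch l h, map_sub, map_add, map_pow, map_add, map_mul, map_pow,
    s59l_Psi_C, s59f_Psi_yE, s59f_Psi_yE, s59f_Psi_yE]

theorem s59f_two_f0_ne (l : Fin e) :
    (2 : (s59l_stage m θ hθ).A) * algebraMap 𝒪 (s59l_stage m θ hθ).A (D.f0 l) ≠ 0 := by
  have h2 : IsUnit (2 : 𝒪) := IsUnit.of_mul_eq_one D.i2 D.hi2
  have hu : IsUnit ((2 : 𝒪) * D.f0 l) := h2.mul (D.isUnit_f0 l)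
  have := hu.map (algebraMap 𝒪 (s59l_stage m θ hθ).A)
  rw [map_mul, map_ofNat] at this
  exact this.ne_zero

/-- `rel_l ∈ 𝒦_{θ,ch} ⇔ ch l = true`. -/
theorem s59f_relE_mem_iff (ch : Fin e → Bool) (l : Fin e) :
    s59f_relE D m g l ∈ s59l_KKE D θ hθ g ch ↔ ch l = true := by
  constructor
  · intro h
    by_contra hne
    have hf : ch l = false := by simpa using hne
    rw [s59l_KKE, Ideal.mem_comap, s59l_KK, RingHom.mem_ker, s59f_Psi_relE_false D θ hθ ch l hf]
      at h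
    refine s59f_quadric_ne_zero _ _ (s59f_two_f0_ne D θ hθ l) _ _ _ ?_ h
    intro h2
    have := (s59f_yIdx_inj h2).2
    simp at this
  · intro h
    rw [s59l_KKE, Ideal.mem_comap, s59f_piE_relE_true D ch l h]
    exact Ideal.zero_mem _

theorem s59f_four_mul : (4 : s59l_FlatE 𝒪 m e g) * C D.i2 ^ 2 = 1 := by
  have h2 : (4 : 𝒪) * D.i2 ^ 2 = 1 := by
    calc (4 : 𝒪) * D.i2 ^ 2 = (2 * D.i2) ^ 2 := by ring
      _ = 1 := by rw [D.hi2, one_pow]
  have := congrArg (C (σ := s59l_IdxE m e g) (R := 𝒪)) h2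
  rw [map_mul, map_pow, map_one, map_ofNat] at this
  exact this

/-- `δ_l ∈ I ⇔ rel_l ∈ I` (`4` is a unit). -/
theorem s59f_deltaE_mem (I : Ideal (s59l_FlatE 𝒪 m e g)) (l : Fin e) :
    s59f_deltaE D m g l ∈ I ↔ s59f_relE D m g l ∈ I := by
  constructor
  · intro h
    have e1 : s59f_relE D m g l = -(C D.i2 ^ 2) * s59f_deltaE D m g l := by
      unfold s59f_deltaE
      have := s59f_four_mul (m := m) (g := g) D
      linear_combination (-(s59f_relE D m g l)) * this
    rw [e1]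
    exact Ideal.mul_mem_left _ _ h
  · intro h
    exact Ideal.mul_mem_left _ _ h

/-- **`δ_l ∈ 𝒦_{θ,ch} ⇔ ch l = true`.** -/
theorem s59f_deltaE_mem_iff (ch : Fin e → Bool) (l : Fin e) :
    s59f_deltaE D m g l ∈ s59l_KKE D θ hθ g ch ↔ ch l = true := by
  rw [s59f_deltaE_mem, s59f_relE_mem_iff]

/-- the variables which are put to zero at the witness. -/
def s59f_Z (e g : ℕ) (l : Fin e) : Fin (g + e * 3) → Prop :=
  fun i => i = s59f_yIdx e g l 0 ∨ i = s59f_yIdx e g l 1

instance (e g : ℕ) (l : Fin e) : DecidablePred (s59f_Z e g l) := fun i => by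
  unfold s59f_Z; infer_instance

/-- the witness map `σ_l ∘ Ψ ∘ π_ch`. -/
def s59f_wit (g : ℕ) (ch : Fin e → Bool) (l : Fin e) :
    s59l_FlatE 𝒪 m e g →+* MvPowerSeries (Fin (g + e * 3)) (s59l_stage m θ hθ).A :=
  (s59f_kill (s59l_stage m θ hθ).A (g + e * 3) (s59f_Z e g l)).toRingHom.comp
    ((s59l_Psi (s59l_stage m θ hθ) (g + e * 3)).toRingHom.comp (s59l_piE D m g ch).toRingHom)

theorem s59f_wit_apply (g : ℕ) (ch : Fin e → Bool) (l : Fin e) (x : s59l_FlatE 𝒪 m e g) :
    s59f_wit D θ hθ g ch l x = s59f_kill (s59l_stage m θ hθ).A (g + e * 3) (s59f_Z e g l)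
      (s59l_Psi (s59l_stage m θ hθ) (g + e * 3) (s59l_piE D m g ch x)) := rfl

/-- **the witness prime** at the prime `l`, over the component `ch`. -/
def s59f_QE (g : ℕ) (ch : Fin e → Bool) (l : Fin e) : Ideal (s59l_FlatE 𝒪 m e g) :=
  RingHom.ker (s59f_wit D θ hθ g ch l)

instance s59f_QE_isPrime (g : ℕ) (ch : Fin e → Bool) (l : Fin e) :
    (s59f_QE D θ hθ g ch l).IsPrime := by
  haveI : IsDomain (MvPowerSeries (Fin (g + e * 3)) (s59l_stage m θ hθ).A) :=
    NoZeroDivisors.to_isDomain _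
  rw [s59f_QE]
  exact RingHom.ker_isPrime _

theorem s59f_KKE_le_QE (g : ℕ) (ch : Fin e → Bool) (l : Fin e) :
    s59l_KKE D θ hθ g ch ≤ s59f_QE D θ hθ g ch l := by
  intro x hx
  rw [s59l_KKE, Ideal.mem_comap, s59l_KK, RingHom.mem_ker] at hx
  rw [s59f_QE, RingHom.mem_ker, s59f_wit_apply, hx, map_zero]

theorem s59f_kill_y_self (l : Fin e) (k : Fin 3) (hk : k = 0 ∨ k = 1) :
    s59f_kill (s59l_stage m θ hθ).A (g + e * 3) (s59f_Z e g l) (X (s59f_yIdx e g l k)) = 0 := by
  rw [s59f_kill_X, if_pos]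
  rcases hk with rfl | rfl
  · exact Or.inl rfl
  · exact Or.inr rfl

theorem s59f_kill_y_other (l l' : Fin e) (hl : l' ≠ l) (k : Fin 3) :
    s59f_kill (s59l_stage m θ hθ).A (g + e * 3) (s59f_Z e g l) (X (s59f_yIdx e g l' k)) =
      X (s59f_yIdx e g l' k) := by
  rw [s59f_kill_X, if_neg]
  rintro (h | h)
  · exact hl (s59f_yIdx_inj h).1
  · exact hl (s59f_yIdx_inj h).1

/-- the Gram determinant vanishes at the witness. -/
theorem s59f_deltaE_mem_QE (g : ℕ) (ch : Fin e → Bool) (l : Fin e) (h : ch l = false) :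
    s59f_deltaE D m g l ∈ s59f_QE D θ hθ g ch l := by
  rw [s59f_deltaE_mem, s59f_QE, RingHom.mem_ker, s59f_wit_apply,
    s59f_Psi_relE_false D θ hθ ch l h, map_sub, map_add, map_pow, map_add, map_mul, map_pow,
    s59f_kill_C, s59f_kill_y_self θ hθ l 0 (Or.inl rfl), s59f_kill_y_self θ hθ l 1 (Or.inr rfl)]
  ring

/-- a component through the witness agrees with `ch` away from `l`. -/
theorem s59f_eq_of_le_QE (g : ℕ) (ch ch' : Fin e → Bool) (l : Fin e)
    (hle : s59l_KKE D θ hθ g ch' ≤ s59f_QE D θ hθ g ch l) (l' : Fin e) (hl : l' ≠ l) :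
    ch' l' = ch l' := by
  by_contra hne
  rcases hb : ch l' with _ | _
  · -- `ch l' = false`, `ch' l' = true`: the Steinberg relation at `l'`
    have h' : ch' l' = true := by
      rcases hb' : ch' l' with _ | _
      · exact absurd (hb'.trans hb.symm) hne
      · rfl
    have h1 : s59f_relE D m g l' ∈ s59l_KKE D θ hθ g ch' :=
      (s59f_relE_mem_iff D θ hθ ch' l').mpr h'
    have h2 := hle h1
    rw [s59f_QE, RingHom.mem_ker, s59f_wit_apply, s59f_Psi_relE_false D θ hθ ch l' hb, map_sub,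
      map_add, map_pow, map_add, map_mul, map_pow, s59f_kill_C, s59f_kill_y_other θ hθ l l' hl,
      s59f_kill_y_other θ hθ l l' hl, s59f_kill_y_other θ hθ l l' hl] at h2
    refine s59f_quadric_ne_zero _ _ (s59f_two_f0_ne D θ hθ l') _ _ _ ?_ h2
    intro h3
    have := (s59f_yIdx_inj h3).2
    simp at this
  · -- `ch l' = true`, `ch' l' = false`: the variable `b` at `l'`
    have h' : ch' l' = false := by
      rcases hb' : ch' l' with _ | _
      · rfl
      · exact absurd (hb'.trans hb.symm) hne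
    have h1 : (s59l_VE l' 1 : s59l_FlatE 𝒪 m e g) ∈ s59l_KKE D θ hθ g ch' := by
      rw [s59l_KKE, Ideal.mem_comap, s59f_piE_VE, if_neg (by simp [h'])]
      exact Ideal.zero_mem _
    have h2 := hle h1
    rw [s59f_QE, RingHom.mem_ker, s59f_wit_apply, s59f_piE_VE, if_pos hb] at h2
    have h3 : s59f_kill (s59l_stage m θ hθ).A (g + e * 3) (s59f_Z e g l)
        (s59l_Psi (s59l_stage m θ hθ) (g + e * 3) (s59l_yE m g l' 0)) = 0 := h2
    rw [s59f_Psi_yE, s59f_kill_y_other θ hθ l l' hl] at h3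
    exact s59l_X_ne_zero' _ _ h3

/-- the chain of components: Steinberg at the first `t` primes. -/
def s59f_cE (e : ℕ) (t : ℕ) : Fin e → Bool := fun l => decide (l.val < t)

/-- the Gram determinants along the chain. -/
def s59f_dE (m g : ℕ) (t : ℕ) : s59l_FlatE 𝒪 m e g :=
  if h : t < e then s59f_deltaE D m g ⟨t, h⟩ else 0

/-- **[F-RING′] for the primes of `E`.** -/
theorem s59f_ringDataE (g : ℕ) (S : Type) [CommRing S]
    (hS : ringKrullDim 𝒪 + ((3 * m + (g + e * 3) : ℕ) : WithBot ℕ∞) ≤ ringKrullDim S) :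
    s59f_RingData' S (s59l_FlatE 𝒪 m e g) (Finset.univ : Finset (Fin e → Bool))
      (fun ch => s59l_KKE D θ hθ g ch) e (s59f_cE e) (s59f_dE D m g)
      (fun t => Ideal.span {s59f_dE D m g t}) where
  prime := fun ch _ => inferInstance
  dim := fun ch _ => (s59l_KKE_dim D θ hθ g ch).trans hS
  mem0 := Finset.mem_univ _
  wit := by
    intro t ht
    have hct : s59f_cE e t ⟨t, ht⟩ = false := by simp [s59f_cE]
    refine ⟨s59f_QE D θ hθ g (s59f_cE e t) ⟨t, ht⟩, inferInstance,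
      s59f_KKE_le_QE D θ hθ g _ _, ?_, ?_⟩
    · show s59f_dE D m g t ∈ _
      rw [s59f_dE, dif_pos ht]
      exact s59f_deltaE_mem_QE D θ hθ g _ _ hct
    · intro ch' _ hle h𝔫
      have hδ : s59f_deltaE D m g ⟨t, ht⟩ ∈ s59l_KKE D θ hθ g ch' := by
        refine h𝔫 (Ideal.subset_span ?_)
        rw [s59f_dE, dif_pos ht]
        exact Set.mem_singleton _
      have h1 : ch' ⟨t, ht⟩ = true := (s59f_deltaE_mem_iff D θ hθ ch' _).mp hδ
      funext l'
      by_cases hl : l' = ⟨t, ht⟩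
      · subst hl
        rw [h1]
        simp [s59f_cE]
      · rw [s59f_eq_of_le_QE D θ hθ g _ ch' _ hle l' hl]
        have hne : l'.val ≠ t := fun h => hl (Fin.ext h)
        simp only [s59f_cE]
        by_cases h2 : l'.val < t
        · rw [decide_eq_true h2, decide_eq_true (Nat.lt_succ_of_lt h2)]
        · rw [decide_eq_false h2, decide_eq_false (by omega)]

end E

end Fermat.Agent.Lib.S59
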