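/-
PROGRAMME R2 = S59, node [FLR] / [F-RING] (helper4, prefix `s59r_`): **the local model (E1)** —
a prime `ℓ₀ ≢ ±1 (p)` at which `ρ̄` is unramified, `ρ̄(φ) = diag(ε₀u, ε₀)`, unipotent lifts
(the local content of `LTol.lean`, now as an instance of `s59r_Model`).

Local variables `(e, b, c; f', β, γ)`: `N = ρ(σ) − 1 = [[e,b],[c,−e]]`,
`Φ = ρ(φ) = a + [[f,β],[γ,−f]]`, `f = f₀ + f'`, `a² = u + f² + βγ`, `a ≡ a₀`.
Two components: `0` = unramified (`N = 0`), `1` = Steinberg (`a = a₀`; parameters `(b, β, γ)`).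
Raise data: `δ = −4 (f² + βγ − f₀²) = (u+1)² − (2a)²`, witness `f' = β = 0` on the unramified
component.
-/
import Mathlib
import Fermat.Agent.Lib.S59.RRing
import Fermat.Agent.Lib.S59.FRingE

set_option autoImplicit false
set_option linter.unusedSectionVars false
set_option linter.unusedVariables false
set_option linter.style.haveILetI false

noncomputable section

namespace Fermat.Agent.Lib.S59

open IsLocalRing MvPowerSeries Fermat.Agent.Lib.Deform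

/-- the constants at a prime with regular Frobenius. -/
structure s59r_UData (𝒪 : Type) [CommRing 𝒪] : Type where
  u : 𝒪
  ε : 𝒪
  i2 : 𝒪
  hi2 : 2 * i2 = 1
  hε : ε ^ 2 = 1
  hu0 : IsUnit u

/-- `f₀ = ε₀(u−1)/2`. -/
def s59r_UData.f0 {𝒪 : Type} [CommRing 𝒪] (d : s59r_UData 𝒪) : 𝒪 := d.ε * (d.u - 1) * d.i2

/-- `a₀ = ε₀(u+1)/2`. -/
def s59r_UData.a0 {𝒪 : Type} [CommRing 𝒪] (d : s59r_UData 𝒪) : 𝒪 := d.ε * (d.u + 1) * d.i2

theorem s59r_UData.four_i2 {𝒪 : Type} [CommRing 𝒪] (d : s59r_UData 𝒪) :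
    (4 : 𝒪) * d.i2 ^ 2 = 1 := by
  calc (4 : 𝒪) * d.i2 ^ 2 = (2 * d.i2) ^ 2 := by ring
    _ = 1 := by rw [d.hi2, one_pow]

theorem s59r_UData.isUnit_two {𝒪 : Type} [CommRing 𝒪] (d : s59r_UData 𝒪) : IsUnit (2 : 𝒪) :=
  IsUnit.of_mul_eq_one d.i2 d.hi2

theorem s59r_UData.four_f0_sq {𝒪 : Type} [CommRing 𝒪] (d : s59r_UData 𝒪) :
    (4 : 𝒪) * d.f0 ^ 2 = (d.u - 1) ^ 2 := by
  unfold s59r_UData.f0
  calc (4 : 𝒪) * (d.ε * (d.u - 1) * d.i2) ^ 2
      = d.ε ^ 2 * (d.u - 1) ^ 2 * (4 * d.i2 ^ 2) := by ring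
    _ = (d.u - 1) ^ 2 := by rw [d.hε, d.four_i2]; ring

theorem s59r_UData.four_a0_sq {𝒪 : Type} [CommRing 𝒪] (d : s59r_UData 𝒪) :
    (4 : 𝒪) * d.a0 ^ 2 = (d.u + 1) ^ 2 := by
  unfold s59r_UData.a0
  calc (4 : 𝒪) * (d.ε * (d.u + 1) * d.i2) ^ 2
      = d.ε ^ 2 * (d.u + 1) ^ 2 * (4 * d.i2 ^ 2) := by ring
    _ = (d.u + 1) ^ 2 := by rw [d.hε, d.four_i2]; ring

theorem s59r_UData.isUnit_f0 {𝒪 : Type} [CommRing 𝒪] (d : s59r_UData 𝒪)
    (hu1 : IsUnit (1 - d.u)) : IsUnit d.f0 := by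
  refine ((s59l_isUnit_eps d.hε).mul ?_).mul (s59l_isUnit_i2 d.hi2)
  have : d.u - 1 = -(1 - d.u) := by ring
  rw [this]
  exact hu1.neg

section St

variable {𝒪 : Type} [CommRing 𝒪] [IsLocalRing 𝒪] [IsNoetherianRing 𝒪] [IsDomain 𝒪]
  [IsAdicComplete (maximalIdeal 𝒪) 𝒪] [Finite (ResidueField 𝒪)]

theorem s59r_two_mul_C_i2 {σ : Type*} (d : s59r_UData 𝒪) :
    (2 : MvPowerSeries σ 𝒪) * C d.i2 = 1 := by
  rw [← map_ofNat (C (σ := σ) (R := 𝒪)) 2, ← map_mul, d.hi2, map_one]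

/-- the Steinberg triple `(F, e, c)` over `(b, β, γ)` in the parameter ring. -/
theorem s59r_stT_exists (d : s59r_UData 𝒪) (hu1 : IsUnit (1 - d.u)) (b β γ : s59r_Par 𝒪)
    (hγ : γ ∈ maximalIdeal (s59r_Par 𝒪)) :
    ∃ F ee c : s59r_Par 𝒪,
      F ^ 2 = C d.f0 ^ 2 - β * γ ∧ F - C d.f0 ∈ maximalIdeal (s59r_Par 𝒪) ∧
      ee * (F + C d.f0) = -(b * γ) ∧ c * (F + C d.f0) = γ * ee ∧
      ee ∈ maximalIdeal (s59r_Par 𝒪) ∧ c ∈ maximalIdeal (s59r_Par 𝒪) :=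
  s59l_st_exists (C d.f0) (C d.i2) b β γ (s59r_two_mul_C_i2 d) ((d.isUnit_f0 hu1).map C) hγ

def s59r_stF (d : s59r_UData 𝒪) (hu1 : IsUnit (1 - d.u)) (b β γ : s59r_Par 𝒪)
    (hγ : γ ∈ maximalIdeal (s59r_Par 𝒪)) : s59r_Par 𝒪 :=
  Classical.choose (s59r_stT_exists d hu1 b β γ hγ)

def s59r_stE (d : s59r_UData 𝒪) (hu1 : IsUnit (1 - d.u)) (b β γ : s59r_Par 𝒪)
    (hγ : γ ∈ maximalIdeal (s59r_Par 𝒪)) : s59r_Par 𝒪 :=
  Classical.choose (Classical.choose_spec (s59r_stT_exists d hu1 b β γ hγ))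

def s59r_stC (d : s59r_UData 𝒪) (hu1 : IsUnit (1 - d.u)) (b β γ : s59r_Par 𝒪)
    (hγ : γ ∈ maximalIdeal (s59r_Par 𝒪)) : s59r_Par 𝒪 :=
  Classical.choose (Classical.choose_spec (Classical.choose_spec
    (s59r_stT_exists d hu1 b β γ hγ)))

theorem s59r_st_spec (d : s59r_UData 𝒪) (hu1 : IsUnit (1 - d.u)) (b β γ : s59r_Par 𝒪)
    (hγ : γ ∈ maximalIdeal (s59r_Par 𝒪)) :
    s59r_stF d hu1 b β γ hγ ^ 2 = C d.f0 ^ 2 - β * γ ∧
      s59r_stF d hu1 b β γ hγ - C d.f0 ∈ maximalIdeal (s59r_Par 𝒪) ∧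
      s59r_stE d hu1 b β γ hγ * (s59r_stF d hu1 b β γ hγ + C d.f0) = -(b * γ) ∧
      s59r_stC d hu1 b β γ hγ * (s59r_stF d hu1 b β γ hγ + C d.f0) =
        γ * s59r_stE d hu1 b β γ hγ ∧
      s59r_stE d hu1 b β γ hγ ∈ maximalIdeal (s59r_Par 𝒪) ∧
      s59r_stC d hu1 b β γ hγ ∈ maximalIdeal (s59r_Par 𝒪) :=
  Classical.choose_spec (Classical.choose_spec (Classical.choose_spec
    (s59r_stT_exists d hu1 b β γ hγ)))

/-- evaluation of the Steinberg triple at a point: it is THE triple over the values. -/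
theorem s59r_st_eval (d : s59r_UData 𝒪) (hu1 : IsUnit (1 - d.u)) (b β γ : s59r_Par 𝒪)
    (hγ : γ ∈ maximalIdeal (s59r_Par 𝒪)) {T : Type} [CommRing T] [IsLocalRing T]
    [Algebra 𝒪 T] (χ : s59r_Par 𝒪 →ₐ[𝒪] T)
    (hχmax : ∀ x ∈ maximalIdeal (s59r_Par 𝒪), χ x ∈ maximalIdeal T)
    (F' e' c' : T) (hF' : F' ^ 2 = algebraMap 𝒪 T d.f0 ^ 2 - χ β * χ γ)
    (hFm' : F' - algebraMap 𝒪 T d.f0 ∈ maximalIdeal T)
    (he' : e' * (F' + algebraMap 𝒪 T d.f0) = -(χ b * χ γ))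
    (hc' : c' * (F' + algebraMap 𝒪 T d.f0) = χ γ * e') :
    χ (s59r_stF d hu1 b β γ hγ) = F' ∧ χ (s59r_stE d hu1 b β γ hγ) = e' ∧
      χ (s59r_stC d hu1 b β γ hγ) = c' := by
  obtain ⟨s1, s2, s3, s4, s5, s6⟩ := s59r_st_spec d hu1 b β γ hγ
  have hCf : χ (C d.f0) = algebraMap 𝒪 T d.f0 := s59l_algHom_C χ _
  have hi2T : (2 : T) * algebraMap 𝒪 T d.i2 = 1 := by
    rw [← map_ofNat (algebraMap 𝒪 T) 2, ← map_mul, d.hi2, map_one]
  refine s59l_st_unique (algebraMap 𝒪 T d.f0) (algebraMap 𝒪 T d.i2) (χ b) (χ β) (χ γ)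
    _ _ _ _ _ _ hi2T ((d.isUnit_f0 hu1).map _) ?_ ?_ ?_ ?_ hF' hFm' he' hc'
  · have := congrArg χ s1
    rw [map_pow, map_sub, map_pow, map_mul, hCf] at this
    exact this
  · have := hχmax _ s2
    rwa [map_sub, hCf] at this
  · have := congrArg χ s3
    rw [map_mul, map_add, map_neg, map_mul, hCf] at this
    exact this
  · have := congrArg χ s4
    rw [map_mul, map_add, map_mul, hCf] at this
    exact this

end St

section ModelE

variable {𝒪 : Type} [CommRing 𝒪] [IsLocalRing 𝒪] [IsNoetherianRing 𝒪] [IsDomain 𝒪]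
  [IsAdicComplete (maximalIdeal 𝒪) 𝒪] [Finite (ResidueField 𝒪)]

variable (d : s59r_UData 𝒪) (hu1 : IsUnit (1 - d.u)) (hu2 : IsUnit (1 + d.u))

/-- the parametrisations of the two components. -/
def s59r_parE : Fin 2 → Fin 6 → s59r_Par 𝒪 :=
  ![![0, 0, 0, X 0, X 1, X 2],
    ![s59r_stE d hu1 (X 0) (X 1) (X 2) (X_mem_maximalIdeal 2), X 0,
      s59r_stC d hu1 (X 0) (X 1) (X 2) (X_mem_maximalIdeal 2),
      s59r_stF d hu1 (X 0) (X 1) (X 2) (X_mem_maximalIdeal 2) - C d.f0, X 1, X 2]]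

/-- the sections. -/
def s59r_secE : Fin 2 → Fin 3 → Fin 6 := ![![3, 4, 5], ![1, 4, 5]]

/-- the local relations: unipotent, `a ≡ a₀`. -/
def s59r_relE (T : Type) [CommRing T] [IsLocalRing T] [Algebra 𝒪 T] (v : Fin 6 → T) : Prop :=
  ∃ a : T, a - algebraMap 𝒪 T d.a0 ∈ maximalIdeal T ∧
    a ^ 2 = algebraMap 𝒪 T d.u + ((algebraMap 𝒪 T d.f0 + v 3) ^ 2 + v 4 * v 5) ∧
    s59l_r0 (v 0) (v 1) (v 2) = 0 ∧
    s59l_r2 (v 0) (v 1) (algebraMap 𝒪 T d.f0 + v 3) (v 4) a (algebraMap 𝒪 T d.u) = 0 ∧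
    s59l_r3 (v 0) (v 2) (algebraMap 𝒪 T d.f0 + v 3) (v 5) a (algebraMap 𝒪 T d.u) = 0 ∧
    s59l_r4 (v 0) (v 1) (v 2) (algebraMap 𝒪 T d.f0 + v 3) (v 4) (v 5) (algebraMap 𝒪 T d.u) = 0

/-- the Steinberg relation in the local ring. -/
def s59r_relLocE : s59r_Loc 𝒪 := (C d.f0 + X 3) ^ 2 + X 4 * X 5 - C d.f0 ^ 2

theorem s59r_evalPar_X {T : Type} [CommRing T] [IsLocalRing T] [Algebra 𝒪 T]
    [IsAdicComplete (maximalIdeal T) T] (y : Fin 3 → T) (hy : ∀ j, y j ∈ maximalIdeal T)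
    (j : Fin 3) : evalHom (R := 𝒪) (maximalIdeal T) y hy (X j) = y j := evalHom_X _ _ _ j

theorem s59r_two_f0_ne (d : s59r_UData 𝒪) (hu1 : IsUnit (1 - d.u)) : (2 : 𝒪) * d.f0 ≠ 0 :=
  (d.isUnit_two.mul (d.isUnit_f0 hu1)).ne_zero

theorem s59r_parE_mem (c : Fin 2) (k : Fin 6) :
    s59r_parE d hu1 c k ∈ maximalIdeal (s59r_Par 𝒪) := by
  obtain ⟨s1, s2, s3, s4, s5, s6⟩ :=
    s59r_st_spec d hu1 (X 0) (X 1) (X 2) (X_mem_maximalIdeal 2)
  fin_cases c <;> fin_cases k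
  · exact zero_mem _
  · exact zero_mem _
  · exact zero_mem _
  · exact X_mem_maximalIdeal _
  · exact X_mem_maximalIdeal _
  · exact X_mem_maximalIdeal _
  · exact s5
  · exact X_mem_maximalIdeal _
  · exact s6
  · exact s2
  · exact X_mem_maximalIdeal _
  · exact X_mem_maximalIdeal _

/-- the parametrisation maps. -/
def s59r_PE (c : Fin 2) : s59r_Loc 𝒪 →ₐ[𝒪] s59r_Par 𝒪 :=
  evalHom (maximalIdeal (s59r_Par 𝒪)) (s59r_parE d hu1 c) (s59r_parE_mem d hu1 c)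

theorem s59r_PE_X (c : Fin 2) (k : Fin 6) : s59r_PE d hu1 c (X k) = s59r_parE d hu1 c k :=
  evalHom_X _ _ _ k

theorem s59r_PE_C (c : Fin 2) (t : 𝒪) : s59r_PE d hu1 c (C t) = C t := by
  rw [s59l_algHom_C, MvPowerSeries.algebraMap_apply, Algebra.algebraMap_self, RingHom.id_apply]

theorem s59r_PE_rel0 :
    s59r_PE d hu1 0 (s59r_relLocE d) = (C d.f0 + X 0) ^ 2 + X 1 * X 2 - C d.f0 ^ 2 := by
  unfold s59r_relLocE
  rw [map_sub, map_add, map_pow, map_add, map_mul, map_pow, s59r_PE_C, s59r_PE_X, s59r_PE_X,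
    s59r_PE_X]
  rfl

theorem s59r_PE_rel1 : s59r_PE d hu1 1 (s59r_relLocE d) = 0 := by
  unfold s59r_relLocE
  rw [map_sub, map_add, map_pow, map_add, map_mul, map_pow, s59r_PE_C, s59r_PE_X, s59r_PE_X,
    s59r_PE_X]
  show (C d.f0 + (s59r_stF d hu1 (X 0) (X 1) (X 2) (X_mem_maximalIdeal 2) - C d.f0)) ^ 2 +
    X 1 * X 2 - C d.f0 ^ 2 = 0
  rw [add_sub_cancel, (s59r_st_spec d hu1 (X 0) (X 1) (X 2) (X_mem_maximalIdeal 2)).1]
  ring

include hu1 in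
theorem s59r_quadE_ne :
    ((C d.f0 + X 0) ^ 2 + X 1 * X 2 - C d.f0 ^ 2 : s59r_Par 𝒪) ≠ 0 :=
  s59f_quadric_ne_zero 𝒪 d.f0 (s59r_two_f0_ne d hu1) 0 1 2 (by decide)

include hu2 in
/-- the kill property of the model (E1). -/
theorem s59r_killE (T : Type) [CommRing T] [IsLocalRing T] [IsDomain T]
    [IsAdicComplete (maximalIdeal T) T] [Algebra 𝒪 T]
    (hinj : Function.Injective (algebraMap 𝒪 T))
    (hloc : ∀ t ∈ maximalIdeal 𝒪, algebraMap 𝒪 T t ∈ maximalIdeal T)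
    (v : Fin 6 → T) (hv : ∀ k, v k ∈ maximalIdeal T) (hrel : s59r_relE d T v) :
    ∃ (c : Fin 2) (y : Fin 3 → T) (hy : ∀ j, y j ∈ maximalIdeal T),
      ∀ k, v k = evalHom (maximalIdeal T) y hy (s59r_parE d hu1 c k) := by
  obtain ⟨a, ha0, ha, h0, h2, h3, h4⟩ := hrel
  -- the constants in `T`
  have hi2T : (2 : T) * algebraMap 𝒪 T d.i2 = 1 := by
    rw [← map_ofNat (algebraMap 𝒪 T) 2, ← map_mul, d.hi2, map_one]
  have hεT : algebraMap 𝒪 T d.ε ^ 2 = 1 := by rw [← map_pow, d.hε, map_one]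
  have hf0T : algebraMap 𝒪 T d.f0 =
      algebraMap 𝒪 T d.ε * (algebraMap 𝒪 T d.u - 1) * algebraMap 𝒪 T d.i2 := by
    rw [s59r_UData.f0, map_mul, map_mul, map_sub, map_one]
  have ha0T : algebraMap 𝒪 T d.a0 =
      algebraMap 𝒪 T d.ε * (algebraMap 𝒪 T d.u + 1) * algebraMap 𝒪 T d.i2 := by
    rw [s59r_UData.a0, map_mul, map_mul, map_add, map_one]
  have hu0T : IsUnit (algebraMap 𝒪 T d.u) := d.hu0.map _
  have hu1T : IsUnit (1 - algebraMap 𝒪 T d.u) := by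
    have := hu1.map (algebraMap 𝒪 T)
    rwa [map_sub, map_one] at this
  have hu2T : IsUnit (1 + algebraMap 𝒪 T d.u) := by
    have := hu2.map (algebraMap 𝒪 T)
    rwa [map_add, map_one] at this
  have hfm : algebraMap 𝒪 T d.f0 + v 3 -
      algebraMap 𝒪 T d.ε * (algebraMap 𝒪 T d.u - 1) * algebraMap 𝒪 T d.i2 ∈
        maximalIdeal T := by
    rw [← hf0T, add_sub_cancel_left]
    exact hv 3
  have hdich : (v 0 = 0 ∧ v 1 = 0 ∧ v 2 = 0) ∨ a = algebraMap 𝒪 T d.a0 := by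
    rw [ha0T]
    refine s59l_unip_dichotomy _ _ _ _ _ _ _ _ _ _ hi2T hεT hu0T hu1T hu2T ha ?_ hfm h0 h2 h3 h4
    rw [← ha0T]
    exact ha0
  rcases hdich with ⟨e0, b0, c0⟩ | hst
  · -- unramified
    have hy : ∀ j, (![v 3, v 4, v 5] : Fin 3 → T) j ∈ maximalIdeal T := by
      intro j
      fin_cases j
      · exact hv 3
      · exact hv 4
      · exact hv 5
    refine ⟨0, ![v 3, v 4, v 5], hy, ?_⟩
    intro k
    fin_cases k
    · show v 0 = evalHom _ _ _ 0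
      rw [map_zero, e0]
    · show v 1 = evalHom _ _ _ 0
      rw [map_zero, b0]
    · show v 2 = evalHom _ _ _ 0
      rw [map_zero, c0]
    · show v 3 = evalHom _ _ _ (X 0)
      rw [evalHom_X]; rfl
    · show v 4 = evalHom _ _ _ (X 1)
      rw [evalHom_X]; rfl
    · show v 5 = evalHom _ _ _ (X 2)
      rw [evalHom_X]; rfl
  · -- Steinberg
    have hy : ∀ j, (![v 1, v 4, v 5] : Fin 3 → T) j ∈ maximalIdeal T := by
      intro j
      fin_cases j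
      · exact hv 1
      · exact hv 4
      · exact hv 5
    rw [ha0T] at hst
    obtain ⟨t1, t2, t3⟩ := s59l_unip_st _ _ _ _ _ _ _ _ _ _ hi2T hεT hu1T hu2T ha hst hfm h3 h4
    rw [← hf0T] at t1 t2 t3
    set χ : s59r_Par 𝒪 →ₐ[𝒪] T := evalHom (maximalIdeal T) ![v 1, v 4, v 5] hy with hχ
    have hχ0 : χ (X 0) = v 1 := by rw [hχ, evalHom_X]; rfl
    have hχ1 : χ (X 1) = v 4 := by rw [hχ, evalHom_X]; rfl
    have hχ2 : χ (X 2) = v 5 := by rw [hχ, evalHom_X]; rfl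
    have hχmax : ∀ x ∈ maximalIdeal (s59r_Par 𝒪), χ x ∈ maximalIdeal T := fun x hx =>
      s59l_algHom_mem_max χ (fun s => by rw [hχ, evalHom_X]; exact hy s) hloc hx
    obtain ⟨q1, q2, q3⟩ := s59r_st_eval d hu1 (X 0) (X 1) (X 2) (X_mem_maximalIdeal 2) χ hχmax
      (algebraMap 𝒪 T d.f0 + v 3) (v 0) (v 2)
      (by rw [hχ1, hχ2]; exact t1)
      (by rw [add_sub_cancel_left]; exact hv 3)
      (by rw [hχ0, hχ2]; exact t2)
      (by rw [hχ2]; exact t3)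
    refine ⟨1, ![v 1, v 4, v 5], hy, ?_⟩
    intro k
    fin_cases k
    · exact q2.symm
    · exact hχ0.symm
    · exact q3.symm
    · show v 3 = χ (s59r_stF d hu1 (X 0) (X 1) (X 2) (X_mem_maximalIdeal 2) - C d.f0)
      rw [map_sub, q1, s59l_algHom_C, add_sub_cancel_left]
    · exact hχ1.symm
    · exact hχ2.symm

/-- no component of the model (E1) contains the other one. -/
theorem s59r_distE (c c' : Fin 2)
    (h : ∀ x : s59r_Loc 𝒪, s59r_PE d hu1 c' x = 0 → s59r_PE d hu1 c x = 0) : c' = c := by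
  -- `c' = 1`, `c = 0`: the Steinberg relation
  have h10 : ¬ (∀ x : s59r_Loc 𝒪, s59r_PE d hu1 1 x = 0 → s59r_PE d hu1 0 x = 0) := by
    intro h
    have := h _ (s59r_PE_rel1 d hu1)
    rw [s59r_PE_rel0] at this
    exact s59r_quadE_ne d hu1 this
  -- `c' = 0`, `c = 1`: the variable `b`
  have h01 : ¬ (∀ x : s59r_Loc 𝒪, s59r_PE d hu1 0 x = 0 → s59r_PE d hu1 1 x = 0) := by
    intro h
    have h1 : s59r_PE d hu1 0 (X 1) = 0 := by rw [s59r_PE_X]; rfl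
    have := h _ h1
    rw [s59r_PE_X] at this
    exact s59l_X_ne_zero' 𝒪 (0 : Fin 3) this
  fin_cases c <;> fin_cases c'
  · rfl
  · exact absurd h h10
  · exact absurd h h01
  · rfl

/-- **the local model (E1).** -/
def s59r_modelE : s59r_Model 𝒪 where
  nc := 2
  par := s59r_parE d hu1
  par_mem := s59r_parE_mem d hu1
  sec := s59r_secE
  par_sec := by
    intro c j
    fin_cases c <;> fin_cases j <;> rfl
  rel := fun T _ _ _ v => s59r_relE d T v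
  kill := fun T _ _ _ _ _ hinj hloc v hv hrel => s59r_killE d hu1 hu2 T hinj hloc v hv hrel
  dist := s59r_distE d hu1

/-- the Gram determinant of the model (E1). -/
def s59r_deltaLocE : s59r_Loc 𝒪 := -4 * s59r_relLocE d

/-- `δ = (u+1)² − (2a)²` for `a = tr ρ(φ) / 2`. -/
theorem s59r_gramE (a : s59r_Loc 𝒪)
    (ha : a ^ 2 = C d.u + ((C d.f0 + X 3) ^ 2 + X 4 * X 5)) :
    (C (d.u + 1) : s59r_Loc 𝒪) * C (d.u + 1) - (2 * a) * (2 * a) = s59r_deltaLocE d := by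
  have h4 : (4 : s59r_Loc 𝒪) * C d.f0 ^ 2 = (C d.u - 1) ^ 2 := by
    have := congrArg (C (σ := Fin 6) (R := 𝒪)) d.four_f0_sq
    rw [map_mul, map_pow, map_pow, map_sub, map_one, map_ofNat] at this
    exact this
  unfold s59r_deltaLocE s59r_relLocE
  rw [map_add, map_one]
  have : (2 * a) * (2 * a) = 4 * a ^ 2 := by ring
  rw [this, ha]
  linear_combination (-1 : s59r_Loc 𝒪) * h4

theorem s59r_four_mul_Par : (4 : s59r_Par 𝒪) * C d.i2 ^ 2 = 1 := by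
  have := congrArg (C (σ := Fin 3) (R := 𝒪)) d.four_i2
  rw [map_mul, map_pow, map_one, map_ofNat] at this
  exact this

/-- the witness substitution of the model (E1): `f' = β = 0`. -/
def s59r_sigE : Fin 3 → s59r_Par 𝒪 := ![0, 0, X 2]

theorem s59r_sigE_mem (j : Fin 3) : (s59r_sigE j : s59r_Par 𝒪) ∈ maximalIdeal (s59r_Par 𝒪) := by
  fin_cases j
  · exact zero_mem _
  · exact zero_mem _
  · exact X_mem_maximalIdeal _

/-- **the raise data of the model (E1).** -/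
def s59r_raiseE : s59r_RaiseData (s59r_modelE d hu1 hu2) where
  unr := (0 : Fin 2)
  tgt := (1 : Fin 2)
  δ := s59r_deltaLocE d
  σ := s59r_sigE
  σ_mem := s59r_sigE_mem
  w1 := by
    show evalHom (R := 𝒪) (maximalIdeal (s59r_Par 𝒪)) s59r_sigE s59r_sigE_mem
      (s59r_PE d hu1 0 (s59r_deltaLocE d)) = 0
    unfold s59r_deltaLocE
    rw [map_mul, s59r_PE_rel0, map_mul, map_sub, map_add, map_pow, map_add, map_mul, map_pow,
      s59l_algHom_C, evalHom_X, evalHom_X, evalHom_X]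
    show _ * ((_ + (0 : s59r_Par 𝒪)) ^ 2 + 0 * X 2 - _ ^ 2) = 0
    ring
  w2 := by
    intro c hc hδ
    fin_cases c
    · exfalso
      have h1 : s59r_PE d hu1 0 (s59r_deltaLocE d) = 0 := hδ
      unfold s59r_deltaLocE at h1
      rw [map_mul, s59r_PE_rel0] at h1
      have h2 : ((C d.f0 + X 0) ^ 2 + X 1 * X 2 - C d.f0 ^ 2 : s59r_Par 𝒪) = 0 := by
        have h3 : s59r_PE d hu1 0 (-4 : s59r_Loc 𝒪) = -4 := by
          rw [map_neg, map_ofNat]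
        rw [h3] at h1
        have := s59r_four_mul_Par (𝒪 := 𝒪) d
        linear_combination (-(C d.i2 ^ 2 : s59r_Par 𝒪)) * h1 -
          ((C d.f0 + X 0) ^ 2 + X 1 * X 2 - C d.f0 ^ 2 : s59r_Par 𝒪) * this
      exact s59r_quadE_ne d hu1 h2
    · rfl

end ModelE

end Fermat.Agent.Lib.S59
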