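/-
PROGRAMME R2 = S59, node [FLR] / [F-RING] (helper4, prefix `s59r_`): **the local model (−1)** = the
brick [LOC−]: a prime `ℓ₀ ≡ −1 (p)` at which `ρ̄` is unramified, `ρ̄(φ) = diag(ε₀u, ε₀)`, `u ≡ −1`,
unipotent lifts.

Local variables `(e, b, c; a, β, γ)`: `N = ρ(σ) − 1 = [[e,b],[c,−e]]`,
`Φ = ρ(φ) = a + [[f,β],[γ,−f]]` with `f ≡ f₀ = ε₀(u−1)/2` (a unit) determined by
`f² = a² − u − βγ`; here `a ≡ a₀ = ε₀(u+1)/2 ≡ 0`.
THREE components: `0` = unramified (`N = 0`), `1` = St₊ (`a = a₀`, parameters `(b, β, γ)`),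
`2` = St₋ (`a = −a₀`, parameters `(c, β, γ)`).
  * `s59r_unip_trichotomy`, `s59r_unip_stP`, `s59r_unip_stM` : the algebra in a local domain in which
    `1 + u ≠ 0`;
  * `s59r_modelM`, `s59r_raiseMP`, `s59r_raiseMM` : the model and its two raise data,
    `δ = 4 (a₀² − a²) = (u+1)² − (2a)²`, witnesses `a = ±a₀` on the unramified component.
-/
import Mathlib
import Fermat.Agent.Lib.S59.RModE

set_option autoImplicit false
set_option linter.unusedSectionVars false
set_option linter.unusedVariables false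
set_option linter.style.haveILetI false

noncomputable section

namespace Fermat.Agent.Lib.S59

open IsLocalRing MvPowerSeries Fermat.Agent.Lib.Deform

section Alg

variable {T : Type*} [CommRing T] [IsLocalRing T] [IsDomain T]

/-- **the trichotomy**: in a local domain with `1 + u ≠ 0`, a unipotent point is unramified, or
`a = a₀`, or `a = −a₀`. -/
theorem s59r_unip_trichotomy (e b c f β γ a u ε i2 : T) (hi2 : 2 * i2 = 1)
    (hε : ε ^ 2 = 1) (hu0 : IsUnit u) (hu1 : IsUnit (1 - u))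
    (ha : a ^ 2 = u + (f ^ 2 + β * γ)) (hf : f - ε * (u - 1) * i2 ∈ maximalIdeal T)
    (h0 : s59l_r0 e b c = 0) (h2 : s59l_r2 e b f β a u = 0) (h3 : s59l_r3 e c f γ a u = 0)
    (h4 : s59l_r4 e b c f β γ u = 0) :
    (e = 0 ∧ b = 0 ∧ c = 0) ∨ a = ε * (u + 1) * i2 ∨ a = -(ε * (u + 1) * i2) := by
  by_cases hA : a = ε * (u + 1) * i2
  · exact Or.inr (Or.inl hA)
  by_cases hA' : a = -(ε * (u + 1) * i2)
  · exact Or.inr (Or.inr hA')
  left
  have h4i : (4 : T) * i2 ^ 2 = 1 := by linear_combination (2 * i2 + 1) * hi2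
  have h2u : IsUnit (2 : T) := s59l_isUnit_two hi2
  have h4u : IsUnit (4 : T) := by
    have : (4 : T) = 2 * 2 := by norm_num
    rw [this]
    exact h2u.mul h2u
  -- `e = 0`
  have he : e = 0 := by
    have h1 : s59l_se f β γ u * e ^ 2 = 0 := by
      rw [s59l_id_e e b c f β γ a u ha, h0, h2, h3]; ring
    have h2' : s59l_se f β γ u =
        4 * u * (a - ε * (u + 1) * i2) * (a + ε * (u + 1) * i2) := by
      simp only [s59l_se]
      linear_combination (-4 * u : T) * ha + (4 * u * (u + 1) ^ 2 * i2 ^ 2) * hε +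
        (u * (u + 1) ^ 2) * h4i
    rw [h2'] at h1
    have hne : 4 * u * (a - ε * (u + 1) * i2) * (a + ε * (u + 1) * i2) ≠ 0 := by
      refine mul_ne_zero (mul_ne_zero (mul_ne_zero h4u.ne_zero hu0.ne_zero)
        (sub_ne_zero.mpr hA)) ?_
      intro h
      exact hA' (by linear_combination h)
    rcases mul_eq_zero.mp h1 with h | h
    · exact absurd h hne
    · exact pow_eq_zero_iff (two_ne_zero) |>.mp h
  have h4' : 2 * e * f + b * γ + c * β = 0 := by
    have := h4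
    simp only [s59l_r4] at this
    exact hu1.mul_right_eq_zero.mp this
  have hbc : b * c = 0 := by
    have := h0
    simp only [s59l_r0] at this
    rw [he] at this
    linear_combination this
  have hf0 : IsUnit (ε * (u - 1) * i2) := by
    refine ((s59l_isUnit_eps hε).mul ?_).mul (s59l_isUnit_i2 hi2)
    have : u - 1 = -(1 - u) := by ring
    rw [this]
    exact hu1.neg
  have hff0 : IsUnit (f + ε * (u - 1) * i2) := by
    refine s59l_isUnit_of_sub_mem (y := 2 * (ε * (u - 1) * i2)) (h2u.mul hf0) ?_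
    have : f + ε * (u - 1) * i2 - 2 * (ε * (u - 1) * i2) = f - ε * (u - 1) * i2 := by ring
    rw [this]
    exact hf
  -- if `γ β`-part vanishes then `f = f₀`
  have hfeq : β * γ = 0 → (a * (1 - u)) ^ 2 = ((1 + u) * f) ^ 2 → f = ε * (u - 1) * i2 := by
    intro hβγ hsq
    have h5 : u * (4 * f ^ 2 - (1 - u) ^ 2) = 0 := by
      linear_combination ((1 - u) ^ 2) * ha - hsq + ((1 - u) ^ 2) * hβγ
    have h6 : 4 * f ^ 2 - (1 - u) ^ 2 = 0 := hu0.mul_right_eq_zero.mp h5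
    have h7 : (4 : T) * ((f - ε * (u - 1) * i2) * (f + ε * (u - 1) * i2)) = 0 := by
      linear_combination h6 - (4 * (u - 1) ^ 2 * i2 ^ 2) * hε - ((u - 1) ^ 2) * h4i
    have hf2 := h4u.mul_right_eq_zero.mp h7
    exact sub_eq_zero.mp (hff0.mul_left_eq_zero.mp hf2)
  -- `b = 0`
  have hb : b = 0 := by
    by_contra hb
    have h1 : s59l_s2 f a u * b = 0 := by
      rw [s59l_id_b e b f β a u, h2, he]; ring
    have hs2 : s59l_s2 f a u = 0 := by
      rcases mul_eq_zero.mp h1 with h | h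
      · exact h
      · exact absurd h hb
    have hc0 : c = 0 := by
      rcases mul_eq_zero.mp hbc with h | h
      · exact absurd h hb
      · exact h
    have hγ : γ = 0 := by
      rw [he, hc0] at h4'
      have : b * γ = 0 := by linear_combination h4'
      rcases mul_eq_zero.mp this with h | h
      · exact absurd h hb
      · exact h
    simp only [s59l_s2] at hs2
    have hfe := hfeq (by rw [hγ, mul_zero]) (by linear_combination (a * (1 - u) - (1 + u) * f) * hs2)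
    apply hA
    have h8 : (1 - u) * (a - ε * (u + 1) * i2) = 0 := by
      rw [hfe] at hs2
      linear_combination hs2
    exact sub_eq_zero.mp (hu1.mul_right_eq_zero.mp h8)
  -- `c = 0`
  have hc : c = 0 := by
    by_contra hc
    have h1 : s59l_s3 f a u * c = 0 := by
      rw [s59l_id_c e c f γ a u, h3, he]; ring
    have hs3 : s59l_s3 f a u = 0 := by
      rcases mul_eq_zero.mp h1 with h | h
      · exact h
      · exact absurd h hc
    have hβ : β = 0 := by
      rw [he, hb] at h4'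
      have : c * β = 0 := by linear_combination h4'
      rcases mul_eq_zero.mp this with h | h
      · exact absurd h hc
      · exact h
    simp only [s59l_s3] at hs3
    have hfe := hfeq (by rw [hβ, zero_mul]) (by linear_combination (a * (1 - u) + (1 + u) * f) * hs3)
    apply hA'
    have h8 : (1 - u) * (a + ε * (u + 1) * i2) = 0 := by
      rw [hfe] at hs3
      linear_combination hs3
    have := hu1.mul_right_eq_zero.mp h8
    linear_combination this
  exact ⟨he, hb, hc⟩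

/-- **the branch St₊** in a domain with `1 + u ≠ 0`. -/
theorem s59r_unip_stP (e b c f β γ a u ε i2 : T) (hi2 : 2 * i2 = 1) (hε : ε ^ 2 = 1)
    (hu1 : IsUnit (1 - u)) (hu2 : 1 + u ≠ 0)
    (ha : a ^ 2 = u + (f ^ 2 + β * γ)) (ha0 : a = ε * (u + 1) * i2)
    (hf : f - ε * (u - 1) * i2 ∈ maximalIdeal T)
    (h3 : s59l_r3 e c f γ a u = 0) (h4 : s59l_r4 e b c f β γ u = 0) :
    f ^ 2 = (ε * (u - 1) * i2) ^ 2 - β * γ ∧
      e * (f + ε * (u - 1) * i2) = -(b * γ) ∧ c * (f + ε * (u - 1) * i2) = γ * e := by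
  have h4i : (4 : T) * i2 ^ 2 = 1 := by linear_combination (2 * i2 + 1) * hi2
  have hQ : f ^ 2 = (ε * (u - 1) * i2) ^ 2 - β * γ := by
    have ha' := ha
    rw [ha0] at ha'
    linear_combination (-1 : T) * ha' + ((u + 1) ^ 2 * i2 ^ 2 - (u - 1) ^ 2 * i2 ^ 2) * hε
      + u * h4i
  have hf0 : IsUnit (ε * (u - 1) * i2) := by
    refine ((s59l_isUnit_eps hε).mul ?_).mul (s59l_isUnit_i2 hi2)
    have : u - 1 = -(1 - u) := by ring
    rw [this]
    exact hu1.neg
  have hff0 : IsUnit (f + ε * (u - 1) * i2) := by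
    refine s59l_isUnit_of_sub_mem (y := 2 * (ε * (u - 1) * i2))
      ((s59l_isUnit_two hi2).mul hf0) ?_
    have : f + ε * (u - 1) * i2 - 2 * (ε * (u - 1) * i2) = f - ε * (u - 1) * i2 := by ring
    rw [this]
    exact hf
  have hc : c * (f + ε * (u - 1) * i2) = γ * e := by
    have h3' : (1 + u) * (γ * e - c * (f + ε * (u - 1) * i2)) = 0 := by
      have := h3
      simp only [s59l_r3] at this
      rw [ha0] at this
      linear_combination this
    rcases mul_eq_zero.mp h3' with h | h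
    · exact absurd h hu2
    · linear_combination (-1 : T) * h
  have h4' : 2 * e * f + b * γ + c * β = 0 := by
    have := h4
    simp only [s59l_r4] at this
    exact hu1.mul_right_eq_zero.mp this
  refine ⟨hQ, ?_, hc⟩
  have h5 : (f + ε * (u - 1) * i2) * (e * (f + ε * (u - 1) * i2) + b * γ) = 0 := by
    linear_combination (f + ε * (u - 1) * i2) * h4' - β * hc - e * hQ
  have := hff0.mul_right_eq_zero.mp h5
  linear_combination this

/-- **the branch St₋** in a domain with `1 + u ≠ 0`. -/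
theorem s59r_unip_stM (e b c f β γ a u ε i2 : T) (hi2 : 2 * i2 = 1) (hε : ε ^ 2 = 1)
    (hu1 : IsUnit (1 - u)) (hu2 : 1 + u ≠ 0)
    (ha : a ^ 2 = u + (f ^ 2 + β * γ)) (ha0 : a = -(ε * (u + 1) * i2))
    (hf : f - ε * (u - 1) * i2 ∈ maximalIdeal T)
    (h2 : s59l_r2 e b f β a u = 0) (h4 : s59l_r4 e b c f β γ u = 0) :
    f ^ 2 = (ε * (u - 1) * i2) ^ 2 - β * γ ∧
      e * (f + ε * (u - 1) * i2) = -(c * β) ∧ b * (f + ε * (u - 1) * i2) = β * e := by
  have h4i : (4 : T) * i2 ^ 2 = 1 := by linear_combination (2 * i2 + 1) * hi2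
  have hQ : f ^ 2 = (ε * (u - 1) * i2) ^ 2 - β * γ := by
    have ha' := ha
    rw [ha0] at ha'
    linear_combination (-1 : T) * ha' + ((u + 1) ^ 2 * i2 ^ 2 - (u - 1) ^ 2 * i2 ^ 2) * hε
      + u * h4i
  have hf0 : IsUnit (ε * (u - 1) * i2) := by
    refine ((s59l_isUnit_eps hε).mul ?_).mul (s59l_isUnit_i2 hi2)
    have : u - 1 = -(1 - u) := by ring
    rw [this]
    exact hu1.neg
  have hff0 : IsUnit (f + ε * (u - 1) * i2) := by
    refine s59l_isUnit_of_sub_mem (y := 2 * (ε * (u - 1) * i2))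
      ((s59l_isUnit_two hi2).mul hf0) ?_
    have : f + ε * (u - 1) * i2 - 2 * (ε * (u - 1) * i2) = f - ε * (u - 1) * i2 := by ring
    rw [this]
    exact hf
  have hb : b * (f + ε * (u - 1) * i2) = β * e := by
    have h2' : (1 + u) * (b * (f + ε * (u - 1) * i2) - β * e) = 0 := by
      have := h2
      simp only [s59l_r2] at this
      rw [ha0] at this
      linear_combination this
    rcases mul_eq_zero.mp h2' with h | h
    · exact absurd h hu2
    · linear_combination h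
  have h4' : 2 * e * f + b * γ + c * β = 0 := by
    have := h4
    simp only [s59l_r4] at this
    exact hu1.mul_right_eq_zero.mp this
  refine ⟨hQ, ?_, hb⟩
  have h5 : (f + ε * (u - 1) * i2) * (e * (f + ε * (u - 1) * i2) + c * β) = 0 := by
    linear_combination (f + ε * (u - 1) * i2) * h4' - γ * hb - e * hQ
  have := hff0.mul_right_eq_zero.mp h5
  linear_combination this

end Alg

section ModelM

variable {𝒪 : Type} [CommRing 𝒪] [IsLocalRing 𝒪] [IsNoetherianRing 𝒪] [IsDomain 𝒪]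
  [IsAdicComplete (maximalIdeal 𝒪) 𝒪] [Finite (ResidueField 𝒪)]

variable (d : s59r_UData 𝒪) (hu1 : IsUnit (1 - d.u)) (hu2m : 1 + d.u ∈ maximalIdeal 𝒪)
  (hu2n : 1 + d.u ≠ 0)

include hu2m in
theorem s59r_a0_mem : d.a0 ∈ maximalIdeal 𝒪 := by
  unfold s59r_UData.a0
  have : d.ε * (d.u + 1) * d.i2 = (d.ε * d.i2) * (1 + d.u) := by ring
  rw [this]
  exact Ideal.mul_mem_left _ _ hu2m

include hu2n in
theorem s59r_a0_ne : d.a0 ≠ 0 := by
  unfold s59r_UData.a0
  refine mul_ne_zero (mul_ne_zero (s59l_isUnit_eps d.hε).ne_zero ?_) (s59l_isUnit_i2 d.hi2).ne_zero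
  rw [add_comm]
  exact hu2n

/-- the parametrisations of the three components. -/
def s59r_parM : Fin 3 → Fin 6 → s59r_Par 𝒪 :=
  ![![0, 0, 0, X 0, X 1, X 2],
    ![s59r_stE d hu1 (X 0) (X 1) (X 2) (X_mem_maximalIdeal 2), X 0,
      s59r_stC d hu1 (X 0) (X 1) (X 2) (X_mem_maximalIdeal 2), C d.a0, X 1, X 2],
    ![s59r_stE d hu1 (X 0) (X 2) (X 1) (X_mem_maximalIdeal 1),
      s59r_stC d hu1 (X 0) (X 2) (X 1) (X_mem_maximalIdeal 1), X 0, -C d.a0, X 1, X 2]]

/-- the sections. -/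
def s59r_secM : Fin 3 → Fin 3 → Fin 6 := ![![3, 4, 5], ![1, 4, 5], ![2, 4, 5]]

/-- the local relations: unipotent, `f ≡ f₀`. -/
def s59r_relM (T : Type) [CommRing T] [IsLocalRing T] [Algebra 𝒪 T] (v : Fin 6 → T) : Prop :=
  ∃ f : T, f - algebraMap 𝒪 T d.f0 ∈ maximalIdeal T ∧
    v 3 ^ 2 = algebraMap 𝒪 T d.u + (f ^ 2 + v 4 * v 5) ∧
    s59l_r0 (v 0) (v 1) (v 2) = 0 ∧
    s59l_r2 (v 0) (v 1) f (v 4) (v 3) (algebraMap 𝒪 T d.u) = 0 ∧
    s59l_r3 (v 0) (v 2) f (v 5) (v 3) (algebraMap 𝒪 T d.u) = 0 ∧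
    s59l_r4 (v 0) (v 1) (v 2) f (v 4) (v 5) (algebraMap 𝒪 T d.u) = 0

include hu2m in
theorem s59r_parM_mem (c : Fin 3) (k : Fin 6) :
    s59r_parM d hu1 c k ∈ maximalIdeal (s59r_Par 𝒪) := by
  obtain ⟨s1, s2, s3, s4, s5, s6⟩ :=
    s59r_st_spec d hu1 (X 0) (X 1) (X 2) (X_mem_maximalIdeal 2)
  obtain ⟨s1', s2', s3', s4', s5', s6'⟩ :=
    s59r_st_spec d hu1 (X 0) (X 2) (X 1) (X_mem_maximalIdeal 1)
  have ha0 : (C d.a0 : s59r_Par 𝒪) ∈ maximalIdeal (s59r_Par 𝒪) :=
    s59l_C_mem (s59r_a0_mem d hu2m)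
  fin_cases c <;> fin_cases k
  · exact zero_mem _
  · exact zero_mem _
  · exact zero_mem _
  · exact X_mem_maximalIdeal _
  · exact X_mem_maximalIdeal _
  · exact X_mem_maximalIdeal _
  · exact s5
  · exact X_mem_maximalIdeal _
  · exact s6
  · exact ha0
  · exact X_mem_maximalIdeal _
  · exact X_mem_maximalIdeal _
  · exact s5'
  · exact s6'
  · exact X_mem_maximalIdeal _
  · exact neg_mem ha0
  · exact X_mem_maximalIdeal _
  · exact X_mem_maximalIdeal _

/-- the parametrisation maps. -/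
def s59r_PM (c : Fin 3) : s59r_Loc 𝒪 →ₐ[𝒪] s59r_Par 𝒪 :=
  evalHom (maximalIdeal (s59r_Par 𝒪)) (s59r_parM d hu1 c) (s59r_parM_mem d hu1 hu2m c)

theorem s59r_PM_X (c : Fin 3) (k : Fin 6) :
    s59r_PM d hu1 hu2m c (X k) = s59r_parM d hu1 c k := evalHom_X _ _ _ k

theorem s59r_PM_C (c : Fin 3) (t : 𝒪) : s59r_PM d hu1 hu2m c (C t) = C t := by
  rw [s59l_algHom_C, MvPowerSeries.algebraMap_apply, Algebra.algebraMap_self, RingHom.id_apply]

include hu2n in
theorem s59r_two_a0_ne : (C d.a0 + C d.a0 : s59r_Par 𝒪) ≠ 0 := by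
  intro h
  have h1 : (C (2 * d.a0) : s59r_Par 𝒪) = 0 := by
    rw [map_mul, map_ofNat]; linear_combination h
  have h2 := congrArg (constantCoeff (σ := Fin 3) (R := 𝒪)) h1
  rw [constantCoeff_C, map_zero] at h2
  exact (mul_ne_zero d.isUnit_two.ne_zero (s59r_a0_ne d hu2n)) h2

include hu2n in
theorem s59r_X_sub_a0_ne : (X 0 - C d.a0 : s59r_Par 𝒪) ≠ 0 := by
  intro h
  have h2 := congrArg (constantCoeff (σ := Fin 3) (R := 𝒪)) h
  rw [map_sub, constantCoeff_X, constantCoeff_C, map_zero, zero_sub, neg_eq_zero] at h2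
  exact s59r_a0_ne d hu2n h2

include hu2n in
theorem s59r_X_add_a0_ne : (X 0 + C d.a0 : s59r_Par 𝒪) ≠ 0 := by
  intro h
  have h2 := congrArg (constantCoeff (σ := Fin 3) (R := 𝒪)) h
  rw [map_add, constantCoeff_X, constantCoeff_C, map_zero, zero_add] at h2
  exact s59r_a0_ne d hu2n h2

include hu2n in
/-- the kill property of the model (−1). -/
theorem s59r_killM (T : Type) [CommRing T] [IsLocalRing T] [IsDomain T]
    [IsAdicComplete (maximalIdeal T) T] [Algebra 𝒪 T]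
    (hinj : Function.Injective (algebraMap 𝒪 T))
    (hloc : ∀ t ∈ maximalIdeal 𝒪, algebraMap 𝒪 T t ∈ maximalIdeal T)
    (v : Fin 6 → T) (hv : ∀ k, v k ∈ maximalIdeal T) (hrel : s59r_relM d T v) :
    ∃ (c : Fin 3) (y : Fin 3 → T) (hy : ∀ j, y j ∈ maximalIdeal T),
      ∀ k, v k = evalHom (maximalIdeal T) y hy (s59r_parM d hu1 c k) := by
  obtain ⟨f, hf0, ha, h0, h2, h3, h4⟩ := hrel
  -- the constants in `T`
  have hi2T : (2 : T) * algebraMap 𝒪 T d.i2 = 1 := by
    rw [← map_ofNat (algebraMap 𝒪 T) 2, ← map_mul, d.hi2, map_one]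
  have hεT : algebraMap 𝒪 T d.ε ^ 2 = 1 := by rw [← map_pow, d.hε, map_one]
  have hf0T : algebraMap 𝒪 T d.f0 =
      algebraMap 𝒪 T d.ε * (algebraMap 𝒪 T d.u - 1) * algebraMap 𝒪 T d.i2 := by
    rw [s59r_UData.f0, map_mul, map_mul, map_sub, map_one]
  have ha0T : algebraMap 𝒪 T d.a0 =
      algebraMap 𝒪 T d.ε * (algebraMap 𝒪 T d.u + 1) * algebraMap 𝒪 T d.i2 := by
    rw [s59r_UData.a0, map_mul, map_mul, map_add, map_one]
  have hu0T : IsUnit (algebraMap 𝒪 T d.u) := d.hu0.map _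
  have hu1T : IsUnit (1 - algebraMap 𝒪 T d.u) := by
    have := hu1.map (algebraMap 𝒪 T)
    rwa [map_sub, map_one] at this
  have hu2T : 1 + algebraMap 𝒪 T d.u ≠ 0 := by
    intro h
    apply hu2n
    apply hinj
    rw [map_add, map_one, map_zero]
    exact h
  have hfm : f - algebraMap 𝒪 T d.ε * (algebraMap 𝒪 T d.u - 1) * algebraMap 𝒪 T d.i2 ∈
      maximalIdeal T := by
    rw [← hf0T]
    exact hf0
  have htri := s59r_unip_trichotomy (v 0) (v 1) (v 2) f (v 4) (v 5) (v 3) _ _ _ hi2T hεT hu0T hu1T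
    ha hfm h0 h2 h3 h4
  rw [← ha0T] at htri
  rcases htri with ⟨e0, b0, c0⟩ | hst | hst
  · -- unramified
    have hy : ∀ j, (![v 3, v 4, v 5] : Fin 3 → T) j ∈ maximalIdeal T := by
      intro j
      fin_cases j
      · exact hv 3
      · exact hv 4
      · exact hv 5
    refine ⟨0, ![v 3, v 4, v 5], hy, ?_⟩
    intro k
    fin_cases k
    · show v 0 = evalHom _ _ _ 0
      rw [map_zero, e0]
    · show v 1 = evalHom _ _ _ 0
      rw [map_zero, b0]
    · show v 2 = evalHom _ _ _ 0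
      rw [map_zero, c0]
    · show v 3 = evalHom _ _ _ (X 0)
      rw [evalHom_X]; rfl
    · show v 4 = evalHom _ _ _ (X 1)
      rw [evalHom_X]; rfl
    · show v 5 = evalHom _ _ _ (X 2)
      rw [evalHom_X]; rfl
  · -- St₊
    have hy : ∀ j, (![v 1, v 4, v 5] : Fin 3 → T) j ∈ maximalIdeal T := by
      intro j
      fin_cases j
      · exact hv 1
      · exact hv 4
      · exact hv 5
    have hst' := hst
    rw [ha0T] at hst'
    obtain ⟨t1, t2, t3⟩ := s59r_unip_stP _ _ _ _ _ _ _ _ _ _ hi2T hεT hu1T hu2T ha hst' hfm h3 h4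
    rw [← hf0T] at t1 t2 t3
    set χ : s59r_Par 𝒪 →ₐ[𝒪] T := evalHom (maximalIdeal T) ![v 1, v 4, v 5] hy with hχ
    have hχ0 : χ (X 0) = v 1 := by rw [hχ, evalHom_X]; rfl
    have hχ1 : χ (X 1) = v 4 := by rw [hχ, evalHom_X]; rfl
    have hχ2 : χ (X 2) = v 5 := by rw [hχ, evalHom_X]; rfl
    have hχmax : ∀ x ∈ maximalIdeal (s59r_Par 𝒪), χ x ∈ maximalIdeal T := fun x hx =>
      s59l_algHom_mem_max χ (fun s => by rw [hχ, evalHom_X]; exact hy s) hloc hx
    obtain ⟨q1, q2, q3⟩ := s59r_st_eval d hu1 (X 0) (X 1) (X 2) (X_mem_maximalIdeal 2) χ hχmax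
      f (v 0) (v 2)
      (by rw [hχ1, hχ2]; exact t1) hf0
      (by rw [hχ0, hχ2]; exact t2)
      (by rw [hχ2]; exact t3)
    refine ⟨1, ![v 1, v 4, v 5], hy, ?_⟩
    intro k
    fin_cases k
    · exact q2.symm
    · exact hχ0.symm
    · exact q3.symm
    · show v 3 = χ (C d.a0)
      rw [s59l_algHom_C, hst]
    · exact hχ1.symm
    · exact hχ2.symm
  · -- St₋
    have hy : ∀ j, (![v 2, v 4, v 5] : Fin 3 → T) j ∈ maximalIdeal T := by
      intro j
      fin_cases j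
      · exact hv 2
      · exact hv 4
      · exact hv 5
    have hst' := hst
    rw [ha0T] at hst'
    obtain ⟨t1, t2, t3⟩ := s59r_unip_stM _ _ _ _ _ _ _ _ _ _ hi2T hεT hu1T hu2T ha hst' hfm h2 h4
    rw [← hf0T] at t1 t2 t3
    set χ : s59r_Par 𝒪 →ₐ[𝒪] T := evalHom (maximalIdeal T) ![v 2, v 4, v 5] hy with hχ
    have hχ0 : χ (X 0) = v 2 := by rw [hχ, evalHom_X]; rfl
    have hχ1 : χ (X 1) = v 4 := by rw [hχ, evalHom_X]; rfl
    have hχ2 : χ (X 2) = v 5 := by rw [hχ, evalHom_X]; rfl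
    have hχmax : ∀ x ∈ maximalIdeal (s59r_Par 𝒪), χ x ∈ maximalIdeal T := fun x hx =>
      s59l_algHom_mem_max χ (fun s => by rw [hχ, evalHom_X]; exact hy s) hloc hx
    obtain ⟨q1, q2, q3⟩ := s59r_st_eval d hu1 (X 0) (X 2) (X 1) (X_mem_maximalIdeal 1) χ hχmax
      f (v 0) (v 1)
      (by rw [hχ1, hχ2, mul_comm]; exact t1) hf0
      (by rw [hχ0, hχ1]; exact t2)
      (by rw [hχ1]; exact t3)
    refine ⟨2, ![v 2, v 4, v 5], hy, ?_⟩
    intro k
    fin_cases k
    · exact q2.symm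
    · exact q3.symm
    · exact hχ0.symm
    · show v 3 = χ (-C d.a0)
      rw [map_neg, s59l_algHom_C, hst]
    · exact hχ1.symm
    · exact hχ2.symm

include hu2n in
/-- no component of the model (−1) contains another one. -/
theorem s59r_distM (c c' : Fin 3)
    (h : ∀ x : s59r_Loc 𝒪, s59r_PM d hu1 hu2m c' x = 0 → s59r_PM d hu1 hu2m c x = 0) :
    c' = c := by
  have hX3 : ∀ c, s59r_PM d hu1 hu2m c (X 3) = s59r_parM d hu1 c 3 := fun c => s59r_PM_X _ _ _ _ _
  -- separating elements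
  have h01 : ¬ (∀ x : s59r_Loc 𝒪, s59r_PM d hu1 hu2m 0 x = 0 → s59r_PM d hu1 hu2m 1 x = 0) := by
    intro h
    have h1 : s59r_PM d hu1 hu2m 0 (X 1) = 0 := by rw [s59r_PM_X]; rfl
    have := h _ h1
    rw [s59r_PM_X] at this
    exact s59l_X_ne_zero' 𝒪 (0 : Fin 3) this
  have h02 : ¬ (∀ x : s59r_Loc 𝒪, s59r_PM d hu1 hu2m 0 x = 0 → s59r_PM d hu1 hu2m 2 x = 0) := by
    intro h
    have h1 : s59r_PM d hu1 hu2m 0 (X 2) = 0 := by rw [s59r_PM_X]; rfl
    have := h _ h1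
    rw [s59r_PM_X] at this
    exact s59l_X_ne_zero' 𝒪 (0 : Fin 3) this
  have h10 : ¬ (∀ x : s59r_Loc 𝒪, s59r_PM d hu1 hu2m 1 x = 0 → s59r_PM d hu1 hu2m 0 x = 0) := by
    intro h
    have h1 : s59r_PM d hu1 hu2m 1 (X 3 - C d.a0) = 0 := by
      rw [map_sub, s59r_PM_X, s59r_PM_C]
      show C d.a0 - C d.a0 = 0
      rw [sub_self]
    have := h _ h1
    rw [map_sub, s59r_PM_X, s59r_PM_C] at this
    exact s59r_X_sub_a0_ne d hu2n this
  have h12 : ¬ (∀ x : s59r_Loc 𝒪, s59r_PM d hu1 hu2m 1 x = 0 → s59r_PM d hu1 hu2m 2 x = 0) := by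
    intro h
    have h1 : s59r_PM d hu1 hu2m 1 (X 3 - C d.a0) = 0 := by
      rw [map_sub, s59r_PM_X, s59r_PM_C]
      show C d.a0 - C d.a0 = 0
      rw [sub_self]
    have := h _ h1
    rw [map_sub, s59r_PM_X, s59r_PM_C] at this
    have h2 : (-C d.a0 - C d.a0 : s59r_Par 𝒪) = 0 := this
    exact s59r_two_a0_ne d hu2n (by linear_combination (-1 : s59r_Par 𝒪) * h2)
  have h20 : ¬ (∀ x : s59r_Loc 𝒪, s59r_PM d hu1 hu2m 2 x = 0 → s59r_PM d hu1 hu2m 0 x = 0) := by
    intro h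
    have h1 : s59r_PM d hu1 hu2m 2 (X 3 + C d.a0) = 0 := by
      rw [map_add, s59r_PM_X, s59r_PM_C]
      show -C d.a0 + C d.a0 = 0
      rw [neg_add_cancel]
    have := h _ h1
    rw [map_add, s59r_PM_X, s59r_PM_C] at this
    exact s59r_X_add_a0_ne d hu2n this
  have h21 : ¬ (∀ x : s59r_Loc 𝒪, s59r_PM d hu1 hu2m 2 x = 0 → s59r_PM d hu1 hu2m 1 x = 0) := by
    intro h
    have h1 : s59r_PM d hu1 hu2m 2 (X 3 + C d.a0) = 0 := by
      rw [map_add, s59r_PM_X, s59r_PM_C]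
      show -C d.a0 + C d.a0 = 0
      rw [neg_add_cancel]
    have := h _ h1
    rw [map_add, s59r_PM_X, s59r_PM_C] at this
    exact s59r_two_a0_ne d hu2n this
  fin_cases c <;> fin_cases c'
  · rfl
  · exact absurd h h10
  · exact absurd h h20
  · exact absurd h h01
  · rfl
  · exact absurd h h21
  · exact absurd h h02
  · exact absurd h h12
  · rfl

/-- **the local model (−1).** -/
def s59r_modelM : s59r_Model 𝒪 where
  nc := 3
  par := s59r_parM d hu1
  par_mem := s59r_parM_mem d hu1 hu2m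
  sec := s59r_secM
  par_sec := by
    intro c j
    fin_cases c <;> fin_cases j <;> rfl
  rel := fun T _ _ _ v => s59r_relM d T v
  kill := fun T _ _ _ _ _ hinj hloc v hv hrel => s59r_killM d hu1 hu2n T hinj hloc v hv hrel
  dist := s59r_distM d hu1 hu2m hu2n

/-- the Gram determinant of the model (−1): `4 (a₀² − a²)`. -/
def s59r_deltaLocM : s59r_Loc 𝒪 := 4 * (C d.a0 ^ 2 - X 3 ^ 2)

/-- `δ = (u+1)² − (2a)²`, `a = tr ρ(φ) / 2` being the variable `X 3`. -/
theorem s59r_gramM :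
    (C (d.u + 1) : s59r_Loc 𝒪) * C (d.u + 1) - (2 * X 3) * (2 * X 3) = s59r_deltaLocM d := by
  have h4 : (4 : s59r_Loc 𝒪) * C d.a0 ^ 2 = (C d.u + 1) ^ 2 := by
    have := congrArg (C (σ := Fin 6) (R := 𝒪)) d.four_a0_sq
    rw [map_mul, map_pow, map_pow, map_add, map_one, map_ofNat] at this
    exact this
  unfold s59r_deltaLocM
  rw [map_add, map_one]
  linear_combination (-1 : s59r_Loc 𝒪) * h4

theorem s59r_PM_delta0 :
    s59r_PM d hu1 hu2m 0 (s59r_deltaLocM d) = 4 * (C d.a0 ^ 2 - X 0 ^ 2) := by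
  unfold s59r_deltaLocM
  rw [map_mul, map_sub, map_pow, map_pow, s59r_PM_C, s59r_PM_X, map_ofNat]
  rfl

include hu2n in
theorem s59r_PM_delta0_ne : s59r_PM d hu1 hu2m 0 (s59r_deltaLocM d) ≠ 0 := by
  rw [s59r_PM_delta0]
  intro h
  have h2 := congrArg (constantCoeff (σ := Fin 3) (R := 𝒪)) h
  rw [map_mul, map_sub, map_pow, map_pow, constantCoeff_X, constantCoeff_C, map_zero,
    map_ofNat] at h2
  have h4 : (4 : 𝒪) ≠ 0 := by
    have : (4 : 𝒪) = 2 * 2 := by norm_num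
    rw [this]
    exact (d.isUnit_two.mul d.isUnit_two).ne_zero
  have : (4 : 𝒪) * (d.a0 ^ 2 - 0 ^ 2) ≠ 0 := by
    refine mul_ne_zero h4 ?_
    rw [zero_pow two_ne_zero, sub_zero]
    exact pow_ne_zero 2 (s59r_a0_ne d hu2n)
  exact this h2

/-- the witness substitutions of the model (−1): `a = ±a₀`. -/
def s59r_sigM (s : 𝒪) : Fin 3 → s59r_Par 𝒪 := ![C s, X 1, X 2]

theorem s59r_sigM_mem {s : 𝒪} (hs : s ∈ maximalIdeal 𝒪) (j : Fin 3) :
    (s59r_sigM s j : s59r_Par 𝒪) ∈ maximalIdeal (s59r_Par 𝒪) := by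
  fin_cases j
  · exact s59l_C_mem hs
  · exact X_mem_maximalIdeal _
  · exact X_mem_maximalIdeal _

/-- **the raise data of the model (−1), target St₊.** -/
def s59r_raiseMP : s59r_RaiseData (s59r_modelM d hu1 hu2m hu2n) where
  unr := (0 : Fin 3)
  tgt := (1 : Fin 3)
  δ := s59r_deltaLocM d
  σ := s59r_sigM d.a0
  σ_mem := s59r_sigM_mem (s59r_a0_mem d hu2m)
  w1 := by
    show evalHom (R := 𝒪) (maximalIdeal (s59r_Par 𝒪)) (s59r_sigM d.a0) _
      (s59r_PM d hu1 hu2m 0 (s59r_deltaLocM d)) = 0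
    rw [s59r_PM_delta0, map_mul, map_sub, map_pow, map_pow, s59l_algHom_C, evalHom_X]
    show _ * (_ - (C d.a0) ^ 2) = 0
    rw [MvPowerSeries.algebraMap_apply, Algebra.algebraMap_self, RingHom.id_apply, sub_self,
      mul_zero]
  w2 := by
    intro c hc hδ
    fin_cases c
    · exact absurd hδ (s59r_PM_delta0_ne d hu1 hu2m hu2n)
    · rfl
    · exfalso
      have h1 : s59r_PM d hu1 hu2m 2 (X 3 + C d.a0) = 0 := by
        rw [map_add, s59r_PM_X, s59r_PM_C]
        show -C d.a0 + C d.a0 = 0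
        rw [neg_add_cancel]
      have h2 := hc _ h1
      have h3 : evalHom (R := 𝒪) (maximalIdeal (s59r_Par 𝒪)) (s59r_sigM d.a0)
          (s59r_sigM_mem (s59r_a0_mem d hu2m)) (s59r_PM d hu1 hu2m 0 (X 3 + C d.a0)) = 0 := h2
      rw [map_add, s59r_PM_X, s59r_PM_C, map_add, s59l_algHom_C,
        MvPowerSeries.algebraMap_apply, Algebra.algebraMap_self, RingHom.id_apply] at h3
      have h4 : evalHom (R := 𝒪) (maximalIdeal (s59r_Par 𝒪)) (s59r_sigM d.a0)
          (s59r_sigM_mem (s59r_a0_mem d hu2m)) (X 0) = C d.a0 := by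
        rw [evalHom_X]; rfl
      have h5 : (s59r_parM d hu1 0 3 : s59r_Par 𝒪) = X 0 := rfl
      rw [h5, h4] at h3
      exact s59r_two_a0_ne d hu2n h3

/-- **the raise data of the model (−1), target St₋.** -/
def s59r_raiseMM : s59r_RaiseData (s59r_modelM d hu1 hu2m hu2n) where
  unr := (0 : Fin 3)
  tgt := (2 : Fin 3)
  δ := s59r_deltaLocM d
  σ := s59r_sigM (-d.a0)
  σ_mem := s59r_sigM_mem (neg_mem (s59r_a0_mem d hu2m))
  w1 := by
    show evalHom (R := 𝒪) (maximalIdeal (s59r_Par 𝒪)) (s59r_sigM (-d.a0)) _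
      (s59r_PM d hu1 hu2m 0 (s59r_deltaLocM d)) = 0
    rw [s59r_PM_delta0, map_mul, map_sub, map_pow, map_pow, s59l_algHom_C, evalHom_X]
    show _ * (_ - (C (-d.a0)) ^ 2) = 0
    rw [MvPowerSeries.algebraMap_apply, Algebra.algebraMap_self, RingHom.id_apply, map_neg]
    ring
  w2 := by
    intro c hc hδ
    fin_cases c
    · exact absurd hδ (s59r_PM_delta0_ne d hu1 hu2m hu2n)
    · exfalso
      have h1 : s59r_PM d hu1 hu2m 1 (X 3 - C d.a0) = 0 := by
        rw [map_sub, s59r_PM_X, s59r_PM_C]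
        show C d.a0 - C d.a0 = 0
        rw [sub_self]
      have h2 := hc _ h1
      have h3 : evalHom (R := 𝒪) (maximalIdeal (s59r_Par 𝒪)) (s59r_sigM (-d.a0))
          (s59r_sigM_mem (neg_mem (s59r_a0_mem d hu2m)))
          (s59r_PM d hu1 hu2m 0 (X 3 - C d.a0)) = 0 := h2
      rw [map_sub, s59r_PM_X, s59r_PM_C, map_sub, s59l_algHom_C,
        MvPowerSeries.algebraMap_apply, Algebra.algebraMap_self, RingHom.id_apply] at h3
      have h4 : evalHom (R := 𝒪) (maximalIdeal (s59r_Par 𝒪)) (s59r_sigM (-d.a0))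
          (s59r_sigM_mem (neg_mem (s59r_a0_mem d hu2m))) (X 0) = C (-d.a0) := by
        rw [evalHom_X]; rfl
      have h5 : (s59r_parM d hu1 0 3 : s59r_Par 𝒪) = X 0 := rfl
      rw [h5, h4, map_neg] at h3
      exact s59r_two_a0_ne d hu2n (by linear_combination (-1 : s59r_Par 𝒪) * h3)
    · rfl

end ModelM

end Fermat.Agent.Lib.S59
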