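/-
PROGRAMME R2 = S59, node [FLR], leaf [BR-ii] (+ the frame part of [BR-iii]) (helper4, prefix `s59f_`):
**the bridge with frames for a GENERAL residual Frobenius**, part 4: the data `(λ, s, Φ̄, fp)` of
`s59f_inst_coreG` / `s59f_inst_flatG` / `s59f_inst_ordG` for the three residual types.
  * `Tr`  : `Φ̄ = diag(a, b)`, `a ≠ b`, coordinates `(tr Φ / 2 − a₀, Φ₀₁, Φ₁₀)` — types (i) AND (ii);
  * `Tl`  : `Φ̄ = diag(a, b)`, `a ≠ ±b`, coordinates `((Φ₀₀ − Φ₁₁)/2 − f₀, Φ₀₁, Φ₁₀)` — type (i), helper6's;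
  * `Jd`  : `Φ̄ = (a c; 0 a)`, `a c ≠ 0`, coordinates `((Φ₀₀ − Φ₁₁)/2 − f₀, Φ₀₁ − c₀, Φ₁₀)` — type (iii).
-/
import Mathlib
import Fermat.Agent.Lib.S59.FBrG3

set_option autoImplicit false
set_option linter.style.haveILetI false
set_option linter.unusedSectionVars false
set_option linter.unusedVariables false

noncomputable section

namespace Fermat.Agent.Lib.S59

open IsLocalRing

section Data

variable {𝒪 : Type} [CommRing 𝒪] [IsLocalRing 𝒪]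

theorem s59f_residue_i2_ne (i2 : 𝒪) (hi2 : 2 * i2 = 1) : residue 𝒪 i2 ≠ 0 := by
  intro h0
  have := congrArg (residue 𝒪) hi2
  rw [map_mul, h0, mul_zero, map_one] at this
  exact zero_ne_one this

/-- the two free positions on the diagonal. -/
def s59f_fpDiag : Fin 2 → Fin 2 × Fin 2 := ![(0, 0), (1, 1)]

/-- the two free positions in the first row. -/
def s59f_fpRow : Fin 2 → Fin 2 × Fin 2 := ![(0, 0), (0, 1)]

/-! #### half-trace coordinates at a regular semisimple prime -/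

theorem s59f_hlam_Tr (i2 : 𝒪) (hi2 : 2 * i2 = 1) (a b : ResidueField 𝒪) (hab : a ≠ b) :
    residue 𝒪 ((![i2, i2] : Fin 2 → 𝒪) 0) * (Matrix.diagonal ![a, b]) 0 0 -
      residue 𝒪 ((![i2, i2] : Fin 2 → 𝒪) 1) * (Matrix.diagonal ![a, b]) 1 1 ≠ 0 := by
  have e : residue 𝒪 ((![i2, i2] : Fin 2 → 𝒪) 0) * (Matrix.diagonal ![a, b]) 0 0 -
      residue 𝒪 ((![i2, i2] : Fin 2 → 𝒪) 1) * (Matrix.diagonal ![a, b]) 1 1 =
      residue 𝒪 i2 * (a - b) := by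
    simp [mul_sub]
  rw [e]
  exact mul_ne_zero (s59f_residue_i2_ne i2 hi2) (sub_ne_zero.mpr hab)

theorem s59f_hsh_Tr (i2 a0 : 𝒪) (a b : ResidueField 𝒪)
    (ha0 : residue 𝒪 a0 = residue 𝒪 i2 * (a + b)) (k : Fin 3) :
    residue 𝒪 ((![a0, 0, 0] : Fin 3 → 𝒪) k) =
      s59f_tlG (fun i => residue 𝒪 ((![i2, i2] : Fin 2 → 𝒪) i)) (Matrix.diagonal ![a, b]) k := by
  fin_cases k
  · show residue 𝒪 a0 = _
    rw [ha0]
    simp [s59f_tlG, mul_add]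
  · simp [s59f_tlG]
  · simp [s59f_tlG]

theorem s59f_hfp_diag (a b : ResidueField 𝒪) (hab : a ≠ b)
    (Δ : Matrix (Fin 2) (Fin 2) (ResidueField 𝒪))
    (hc : Δ * Matrix.diagonal ![a, b] = Matrix.diagonal ![a, b] * Δ)
    (h0 : Δ (s59f_fpDiag 0).1 (s59f_fpDiag 0).2 = 0)
    (h1 : Δ (s59f_fpDiag 1).1 (s59f_fpDiag 1).2 = 0) : Δ = 0 :=
  s59f_centr_diag Δ a b hab hc h0 h1

/-! #### traceless coordinates at a prime with `a ≠ ±b` (helper6's case) -/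

theorem s59f_hlam_Tl (i2 : 𝒪) (hi2 : 2 * i2 = 1) (a b : ResidueField 𝒪) (hab : a + b ≠ 0) :
    residue 𝒪 ((![i2, -i2] : Fin 2 → 𝒪) 0) * (Matrix.diagonal ![a, b]) 0 0 -
      residue 𝒪 ((![i2, -i2] : Fin 2 → 𝒪) 1) * (Matrix.diagonal ![a, b]) 1 1 ≠ 0 := by
  have e : residue 𝒪 ((![i2, -i2] : Fin 2 → 𝒪) 0) * (Matrix.diagonal ![a, b]) 0 0 -
      residue 𝒪 ((![i2, -i2] : Fin 2 → 𝒪) 1) * (Matrix.diagonal ![a, b]) 1 1 =
      residue 𝒪 i2 * (a + b) := by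
    simp [mul_add]
  rw [e]
  exact mul_ne_zero (s59f_residue_i2_ne i2 hi2) hab

theorem s59f_hsh_Tl (i2 f0 : 𝒪) (a b : ResidueField 𝒪)
    (hf0 : residue 𝒪 f0 = residue 𝒪 i2 * (a - b)) (k : Fin 3) :
    residue 𝒪 ((![f0, 0, 0] : Fin 3 → 𝒪) k) =
      s59f_tlG (fun i => residue 𝒪 ((![i2, -i2] : Fin 2 → 𝒪) i)) (Matrix.diagonal ![a, b]) k := by
  fin_cases k
  · show residue 𝒪 f0 = _
    rw [hf0]
    show _ = residue 𝒪 i2 * (Matrix.diagonal ![a, b]) 0 0 +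
      residue 𝒪 (-i2) * (Matrix.diagonal ![a, b]) 1 1
    rw [Matrix.diagonal_apply_eq, Matrix.diagonal_apply_eq, map_neg]
    show _ = residue 𝒪 i2 * a + -residue 𝒪 i2 * b
    ring
  · simp [s59f_tlG]
  · simp [s59f_tlG]

/-! #### a Jordan block -/

theorem s59f_hlam_Jd (i2 : 𝒪) (hi2 : 2 * i2 = 1) (a c : ResidueField 𝒪) (ha : a ≠ 0) :
    residue 𝒪 ((![i2, -i2] : Fin 2 → 𝒪) 0) * (!![a, c; 0, a] : Matrix _ _ (ResidueField 𝒪)) 0 0 -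
      residue 𝒪 ((![i2, -i2] : Fin 2 → 𝒪) 1) *
        (!![a, c; 0, a] : Matrix _ _ (ResidueField 𝒪)) 1 1 ≠ 0 := by
  have h2 : (2 : ResidueField 𝒪) * residue 𝒪 i2 = 1 := by
    have := congrArg (residue 𝒪) hi2
    rwa [map_mul, map_ofNat, map_one] at this
  have e : residue 𝒪 ((![i2, -i2] : Fin 2 → 𝒪) 0) *
        (!![a, c; 0, a] : Matrix _ _ (ResidueField 𝒪)) 0 0 -
      residue 𝒪 ((![i2, -i2] : Fin 2 → 𝒪) 1) *
        (!![a, c; 0, a] : Matrix _ _ (ResidueField 𝒪)) 1 1 = a := by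
    simp
    linear_combination a * h2
  rw [e]
  exact ha

theorem s59f_hsh_Jd (i2 f0 c0 : 𝒪) (a c : ResidueField 𝒪) (hf0 : residue 𝒪 f0 = 0)
    (hc0 : residue 𝒪 c0 = c) (k : Fin 3) :
    residue 𝒪 ((![f0, c0, 0] : Fin 3 → 𝒪) k) =
      s59f_tlG (fun i => residue 𝒪 ((![i2, -i2] : Fin 2 → 𝒪) i))
        (!![a, c; 0, a] : Matrix _ _ (ResidueField 𝒪)) k := by
  fin_cases k
  · show residue 𝒪 f0 = _
    rw [hf0]
    simp [s59f_tlG]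
  · show residue 𝒪 c0 = _
    rw [hc0]
    simp [s59f_tlG]
  · simp [s59f_tlG]

theorem s59f_hfp_jordan (a c : ResidueField 𝒪) (hc0 : c ≠ 0)
    (Δ : Matrix (Fin 2) (Fin 2) (ResidueField 𝒪))
    (hc : Δ * !![a, c; 0, a] = !![a, c; 0, a] * Δ)
    (h0 : Δ (s59f_fpRow 0).1 (s59f_fpRow 0).2 = 0)
    (h1 : Δ (s59f_fpRow 1).1 (s59f_fpRow 1).2 = 0) : Δ = 0 :=
  s59f_centr_jordan Δ a c hc0 hc h0 h1

end Data

end Fermat.Agent.Lib.S59
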