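/-
[FLR] generic-Λ R-contract, request (C1) of helper4 (#3831) (helper3, prefix `s59u_lb_`):
**the instance of `s59f_LocBr` for the local model (E1)** (a raising prime `q ≢ ±1 (p)`,
`Φ̄ = diag(ε u, ε)`, traceless coordinates), plus the generic helpers used by all four instances:
  * `s59u_lb_exists_sqrt`, `s59u_lb_sqrt_unique` : square roots `≡ a₀` (`a₀` a unit);
  * `s59u_lb_diag_map`, residues of the constants;
  * `s59u_lb_ht_sub_mem`, `s59u_lb_tr_eq` : `½ tr Φ ≡ a₀`, `2 · ½ tr Φ = tr Φ`.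
-/
import Mathlib
import Fermat.Agent.Lib.S59.FAsmG1
import Fermat.Agent.Lib.S59.FBrG4
import Fermat.Agent.Lib.S59.RModE
import Fermat.Agent.Lib.S59.LInstM

set_option autoImplicit false
set_option linter.unusedSectionVars false
set_option linter.unusedVariables false
set_option linter.style.haveILetI false

noncomputable section

namespace Fermat.Agent.Lib.S59

open IsLocalRing MvPowerSeries Fermat.Agent.Lib.Deform

section Sqrt

variable {P : Type*} [CommRing P] [IsLocalRing P]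

/-- Hensel: a square root `≡ a₀` of `t ≡ a₀²`, `a₀` a unit, `2` invertible. -/
theorem s59u_lb_exists_sqrt [IsAdicComplete (maximalIdeal P) P] (t a0 i2 : P)
    (hi2 : 2 * i2 = 1) (ha0 : IsUnit a0) (ht : t - a0 ^ 2 ∈ maximalIdeal P) :
    ∃ a : P, a ^ 2 = t ∧ a - a0 ∈ maximalIdeal P := by
  obtain ⟨b0, hb0⟩ := ha0.exists_right_inv
  have ht' : t * b0 ^ 2 - 1 ∈ maximalIdeal P := by
    have e : t * b0 ^ 2 - 1 = (t - a0 ^ 2) * b0 ^ 2 + (a0 * b0 + 1) * (a0 * b0 - 1) := by ring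
    rw [e, hb0, sub_self, mul_zero, add_zero]
    exact Ideal.mul_mem_right _ _ ht
  obtain ⟨a', ha', ha'1⟩ := s59l_exists_sqrt (t * b0 ^ 2) 1 i2 (one_pow 2) hi2 ht'
  refine ⟨a0 * a', ?_, ?_⟩
  · rw [mul_pow, ha']
    linear_combination (t * (a0 * b0 + 1)) * hb0
  · have e : a0 * a' - a0 = a0 * (a' - 1) := by ring
    rw [e]
    exact Ideal.mul_mem_left _ _ ha'1

/-- uniqueness of the square root `≡ a₀`. -/
theorem s59u_lb_sqrt_unique (a a' a0 i2 : P) (hi2 : 2 * i2 = 1) (ha0 : IsUnit a0)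
    (h : a ^ 2 = a' ^ 2) (ha : a - a0 ∈ maximalIdeal P) (ha' : a' - a0 ∈ maximalIdeal P) :
    a = a' := by
  have hu : IsUnit (a + a') := by
    refine s59l_isUnit_of_sub_mem (y := 2 * a0) ((s59l_isUnit_two hi2).mul ha0) ?_
    have e : a + a' - 2 * a0 = (a - a0) + (a' - a0) := by ring
    rw [e]
    exact Ideal.add_mem _ ha ha'
  have h0 : (a - a') * (a + a') = 0 := by linear_combination h
  exact sub_eq_zero.mp (hu.mul_left_eq_zero.mp h0)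

end Sqrt

section Res

variable {𝒪 : Type} [CommRing 𝒪] [IsLocalRing 𝒪]

theorem s59u_lb_diag_map (x y : 𝒪) :
    (Matrix.diagonal ![x, y]).map (residue 𝒪) =
      Matrix.diagonal ![residue 𝒪 x, residue 𝒪 y] := by
  ext i j
  fin_cases i <;> fin_cases j <;> simp

theorem s59u_lb_residue_ne_zero {x : 𝒪} (hx : IsUnit x) : residue 𝒪 x ≠ 0 :=
  (hx.map (residue 𝒪)).ne_zero

variable {T : Type*} [CommRing T] [IsLocalRing T]

/-- `½ tr Φ ≡ ½ (m₀₀ + m₁₁)` if `Φ ≡ M₀`. -/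
theorem s59u_lb_ht_sub_mem (i2 : T) (Ph : Matrix (Fin 2) (Fin 2) T) (m00 m11 a0 : T)
    (h00 : Ph 0 0 - m00 ∈ maximalIdeal T) (h11 : Ph 1 1 - m11 ∈ maximalIdeal T)
    (ha0 : a0 = i2 * (m00 + m11)) : s59i_ht i2 Ph - a0 ∈ maximalIdeal T := by
  have e : s59i_ht i2 Ph - a0 = i2 * (Ph 0 0 - m00) + i2 * (Ph 1 1 - m11) := by
    rw [ha0, s59i_ht]; ring
  rw [e]
  exact Ideal.add_mem _ (Ideal.mul_mem_left _ _ h00) (Ideal.mul_mem_left _ _ h11)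

theorem s59u_lb_tr_eq (i2 : T) (hi2 : 2 * i2 = 1) (Ph : Matrix (Fin 2) (Fin 2) T) :
    2 * s59i_ht i2 Ph = Ph.trace := by
  rw [Matrix.trace_fin_two, s59i_ht]
  linear_combination (Ph 0 0 + Ph 1 1) * hi2

end Res

section E

variable {𝒪 : Type} [CommRing 𝒪] [IsLocalRing 𝒪] [IsNoetherianRing 𝒪] [IsDomain 𝒪]
  [IsAdicComplete (maximalIdeal 𝒪) 𝒪] [Finite (ResidueField 𝒪)]

variable (d : s59r_UData 𝒪) (hu1 : IsUnit (1 - d.u)) (hu2 : IsUnit (1 + d.u))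

theorem s59u_lb_isUnit_a0 (d : s59r_UData 𝒪) (hu2 : IsUnit (1 + d.u)) : IsUnit d.a0 := by
  refine ((s59l_isUnit_eps d.hε).mul ?_).mul (s59l_isUnit_i2 d.hi2)
  rw [add_comm]; exact hu2

/-- the element `t = u + (f₀ + f')² + βγ` of the local ring. -/
def s59u_lb_tE : s59r_Loc 𝒪 := C d.u + ((C d.f0 + X 3) ^ 2 + X 4 * X 5)

theorem s59u_lb_tE_sub_mem :
    s59u_lb_tE d - C d.a0 ^ 2 ∈ maximalIdeal (s59r_Loc 𝒪) := by
  have h1 : (4 : 𝒪) * d.a0 ^ 2 = 4 * d.u + 4 * d.f0 ^ 2 := by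
    rw [d.four_a0_sq, d.four_f0_sq]; ring
  have h2 : d.a0 ^ 2 = d.u + d.f0 ^ 2 := by
    have h4 := d.four_i2
    linear_combination (d.i2 ^ 2) * h1 - (d.a0 ^ 2 - d.u - d.f0 ^ 2) * h4
  have e : s59u_lb_tE d - C d.a0 ^ 2 =
      X 3 * (2 * C d.f0 + X 3) + X 4 * X 5 := by
    rw [s59u_lb_tE, ← map_pow, h2, map_add, map_pow]
    ring
  rw [e]
  exact Ideal.add_mem _ (Ideal.mul_mem_right _ _ (X_mem_maximalIdeal _))
    (Ideal.mul_mem_right _ _ (X_mem_maximalIdeal _))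

include hu2 in
theorem s59u_lb_exists_aE :
    ∃ a : s59r_Loc 𝒪, a ^ 2 = s59u_lb_tE d ∧ a - C d.a0 ∈ maximalIdeal (s59r_Loc 𝒪) :=
  s59u_lb_exists_sqrt (s59u_lb_tE d) (C d.a0) (C d.i2) (s59r_two_mul_C_i2 d)
    ((s59u_lb_isUnit_a0 d hu2).map C) (s59u_lb_tE_sub_mem d)

/-- the half trace `a = √(u + Q(W))`, `a ≡ a₀`, in the local ring of the model (E1). -/
def s59u_lb_aE : s59r_Loc 𝒪 := Classical.choose (s59u_lb_exists_aE d hu2)

theorem s59u_lb_aE_sq : s59u_lb_aE d hu2 ^ 2 = s59u_lb_tE d :=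
  (Classical.choose_spec (s59u_lb_exists_aE d hu2)).1

theorem s59u_lb_aE_mem : s59u_lb_aE d hu2 - C d.a0 ∈ maximalIdeal (s59r_Loc 𝒪) :=
  (Classical.choose_spec (s59u_lb_exists_aE d hu2)).2

/-- the lift `diag(ε u, ε)` of the residual framed Frobenius. -/
def s59u_lb_M0E : Matrix (Fin 2) (Fin 2) 𝒪 := Matrix.diagonal ![d.ε * d.u, d.ε]

theorem s59u_lb_a0_eq {T : Type*} [CommRing T] [Algebra 𝒪 T] :
    algebraMap 𝒪 T d.a0 =
      algebraMap 𝒪 T d.i2 * (algebraMap 𝒪 T (d.ε * d.u) + algebraMap 𝒪 T d.ε) := by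
  rw [s59r_UData.a0, ← map_add, ← map_mul]
  congr 1
  ring

theorem s59u_lb_two_i2 {T : Type*} [CommRing T] [Algebra 𝒪 T] :
    (2 : T) * algebraMap 𝒪 T d.i2 = 1 := by
  rw [← map_ofNat (algebraMap 𝒪 T) 2, ← map_mul, d.hi2, map_one]

/-- `relOf` for the model (E1). -/
theorem s59u_lb_relOfE (T : Type) [CommRing T] [IsLocalRing T] [Algebra 𝒪 T]
    (Sg Ph : Matrix (Fin 2) (Fin 2) T)
    (h1 : (Sg - 1) * (Sg - 1) = 0) (htr : Sg.trace = 2)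
    (ht : Ph * (Sg - 1) = algebraMap 𝒪 T d.u • ((Sg - 1) * Ph))
    (hdet : Ph.det = algebraMap 𝒪 T d.u)
    (hres : ∀ i j, Ph i j - algebraMap 𝒪 T (s59u_lb_M0E d i j) ∈ maximalIdeal T) :
    s59r_relE d T (s59f_coordG (algebraMap 𝒪 T d.i2)
      (fun i => algebraMap 𝒪 T ((![d.i2, -d.i2] : Fin 2 → 𝒪) i))
      (fun k => algebraMap 𝒪 T ((![d.f0, 0, 0] : Fin 3 → 𝒪) k)) Sg Ph) := by
  have hi2 : (2 : T) * algebraMap 𝒪 T d.i2 = 1 := s59u_lb_two_i2 d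
  set v := s59f_coordG (algebraMap 𝒪 T d.i2)
    (fun i => algebraMap 𝒪 T ((![d.i2, -d.i2] : Fin 2 → 𝒪) i))
    (fun k => algebraMap 𝒪 T ((![d.f0, 0, 0] : Fin 3 → 𝒪) k)) Sg Ph with hv
  have e0 : v 0 = s59i_tl (algebraMap 𝒪 T d.i2) Sg 0 := rfl
  have e1 : v 1 = s59i_tl (algebraMap 𝒪 T d.i2) Sg 1 := rfl
  have e2 : v 2 = s59i_tl (algebraMap 𝒪 T d.i2) Sg 2 := rfl
  have e3 : algebraMap 𝒪 T d.f0 + v 3 = s59i_tl (algebraMap 𝒪 T d.i2) Ph 0 := by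
    show algebraMap 𝒪 T d.f0 + (algebraMap 𝒪 T d.i2 * Ph 0 0 + algebraMap 𝒪 T (-d.i2) * Ph 1 1 -
      algebraMap 𝒪 T d.f0) = algebraMap 𝒪 T d.i2 * (Ph 0 0 - Ph 1 1)
    rw [map_neg]
    ring
  have e4 : v 4 = s59i_tl (algebraMap 𝒪 T d.i2) Ph 1 := by
    show Ph 0 1 - algebraMap 𝒪 T 0 = Ph 0 1
    rw [map_zero, sub_zero]
  have e5 : v 5 = s59i_tl (algebraMap 𝒪 T d.i2) Ph 2 := by
    show Ph 1 0 - algebraMap 𝒪 T 0 = Ph 1 0
    rw [map_zero, sub_zero]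
  obtain ⟨h2, h3, h4⟩ := s59i_r234_of_tame _ (algebraMap 𝒪 T d.u) hi2 Sg Ph htr ht
  refine ⟨s59i_ht (algebraMap 𝒪 T d.i2) Ph, ?_, ?_, ?_, ?_, ?_, ?_⟩
  · exact s59u_lb_ht_sub_mem _ Ph _ _ _ (hres 0 0) (hres 1 1) (s59u_lb_a0_eq d)
  · rw [e3, e4, e5]
    exact s59i_sq_of_det _ _ hi2 Ph hdet
  · rw [e0, e1, e2]
    exact s59i_r0_of_unip _ hi2 Sg h1 htr
  · rw [e0, e1, e3, e4]
    exact h2
  · rw [e0, e2, e3, e5]
    exact h3
  · rw [e0, e1, e2, e3, e4, e5]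
    exact h4

/-- `trOf` for the model (E1). -/
theorem s59u_lb_trOfE (T : Type) [CommRing T] [IsLocalRing T] [Algebra 𝒪 T]
    (f : s59r_Loc 𝒪 →ₐ[𝒪] T) (Ph : Matrix (Fin 2) (Fin 2) T)
    (hf : ∀ a ∈ maximalIdeal (s59r_Loc 𝒪), f a ∈ maximalIdeal T)
    (hX : ∀ k : Fin 3, f (X (Fin.natAdd 3 k)) =
      s59f_tlG (fun i => algebraMap 𝒪 T ((![d.i2, -d.i2] : Fin 2 → 𝒪) i)) Ph k -
        algebraMap 𝒪 T ((![d.f0, 0, 0] : Fin 3 → 𝒪) k))
    (hdet : Ph.det = algebraMap 𝒪 T d.u)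
    (hres : ∀ i j, Ph i j - algebraMap 𝒪 T (s59u_lb_M0E d i j) ∈ maximalIdeal T) :
    f (2 * s59u_lb_aE d hu2) = Ph.trace := by
  have hi2 : (2 : T) * algebraMap 𝒪 T d.i2 = 1 := s59u_lb_two_i2 d
  have hC : ∀ t : 𝒪, f (C t) = algebraMap 𝒪 T t := fun t => s59l_algHom_C f t
  have e3 : algebraMap 𝒪 T d.f0 + f (X 3) = s59i_tl (algebraMap 𝒪 T d.i2) Ph 0 := by
    have := hX 0
    have h3 : f (X 3) = algebraMap 𝒪 T d.i2 * Ph 0 0 + algebraMap 𝒪 T (-d.i2) * Ph 1 1 -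
        algebraMap 𝒪 T d.f0 := this
    rw [h3, map_neg]
    show _ = algebraMap 𝒪 T d.i2 * (Ph 0 0 - Ph 1 1)
    ring
  have e4 : f (X 4) = s59i_tl (algebraMap 𝒪 T d.i2) Ph 1 := by
    have := hX 1
    have h4 : f (X 4) = Ph 0 1 - algebraMap 𝒪 T 0 := this
    rw [h4, map_zero, sub_zero]
    rfl
  have e5 : f (X 5) = s59i_tl (algebraMap 𝒪 T d.i2) Ph 2 := by
    have := hX 2
    have h5 : f (X 5) = Ph 1 0 - algebraMap 𝒪 T 0 := this
    rw [h5, map_zero, sub_zero]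
    rfl
  have hfa : f (s59u_lb_aE d hu2) = s59i_ht (algebraMap 𝒪 T d.i2) Ph := by
    refine s59u_lb_sqrt_unique _ _ (algebraMap 𝒪 T d.a0) (algebraMap 𝒪 T d.i2) hi2
      ((s59u_lb_isUnit_a0 d hu2).map _) ?_ ?_ ?_
    · rw [← map_pow, s59u_lb_aE_sq, s59u_lb_tE, map_add, map_add, map_pow, map_add, map_mul, hC,
        hC, e3, e4, e5]
      exact (s59i_sq_of_det _ _ hi2 Ph hdet).symm
    · have := hf _ (s59u_lb_aE_mem d hu2)
      rwa [map_sub, hC] at this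
    · exact s59u_lb_ht_sub_mem _ Ph _ _ _ (hres 0 0) (hres 1 1) (s59u_lb_a0_eq d)
  rw [map_mul, map_ofNat, hfa]
  exact s59u_lb_tr_eq _ hi2 Ph

include hu2 in
/-- `tgtOf` for the model (E1). -/
theorem s59u_lb_tgtOfE (T : Type) [CommRing T] [IsLocalRing T] [IsDomain T]
    [IsAdicComplete (maximalIdeal T) T] [Algebra 𝒪 T]
    (hinj : Function.Injective (algebraMap 𝒪 T))
    (hloc : ∀ t ∈ maximalIdeal 𝒪, algebraMap 𝒪 T t ∈ maximalIdeal T)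
    (v : Fin 6 → T) (hv : ∀ k, v k ∈ maximalIdeal T) (hrel : s59r_relE d T v)
    (hne : ¬ (v 0 = 0 ∧ v 1 = 0 ∧ v 2 = 0)) :
    ∃ (y : Fin 3 → T) (hy : ∀ j, y j ∈ maximalIdeal T),
      ∀ k, v k = evalHom (R := 𝒪) (maximalIdeal T) y hy (s59r_parE d hu1 1 k) := by
  obtain ⟨c, y, hy, h⟩ := s59r_killE d hu1 hu2 T hinj hloc v hv hrel
  fin_cases c
  · exfalso
    refine hne ⟨?_, ?_, ?_⟩
    · exact (h 0).trans (map_zero _)
    · exact (h 1).trans (map_zero _)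
    · exact (h 2).trans (map_zero _)
  · exact ⟨y, hy, h⟩

/-- **the local bridge datum of the model (E1)** (`q ≢ ±1 (p)`, traceless coordinates). -/
def s59u_lb_locBrE : s59f_LocBr 𝒪 d.i2 where
  Λ := s59r_modelE d hu1 hu2
  D := s59r_raiseE d hu1 hu2
  u := d.u
  lam := ![d.i2, -d.i2]
  sh := ![d.f0, 0, 0]
  M0 := s59u_lb_M0E d
  fp := s59f_fpDiag
  hlam := by
    rw [s59u_lb_M0E, s59u_lb_diag_map]
    refine s59f_hlam_Tl d.i2 d.hi2 _ _ ?_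
    rw [← map_add]
    have : d.ε * d.u + d.ε = d.ε * (1 + d.u) := by ring
    rw [this]
    exact s59u_lb_residue_ne_zero ((s59l_isUnit_eps d.hε).mul hu2)
  hsh := by
    intro k
    rw [s59u_lb_M0E, s59u_lb_diag_map]
    refine s59f_hsh_Tl d.i2 d.f0 _ _ ?_ k
    rw [← map_sub, ← map_mul]
    congr 1
    rw [s59r_UData.f0]
    ring
  hfp := by
    intro Δ hc h0 h1
    rw [s59u_lb_M0E, s59u_lb_diag_map] at hc
    refine s59f_hfp_diag _ _ ?_ Δ hc h0 h1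
    intro h
    have h' : residue 𝒪 (d.ε * d.u - d.ε) = 0 := by rw [map_sub, h, sub_self]
    have : d.ε * d.u - d.ε = -(d.ε * (1 - d.u)) := by ring
    rw [this] at h'
    exact s59u_lb_residue_ne_zero ((s59l_isUnit_eps d.hε).mul hu1).neg h'
  unr_par := rfl
  relOf := fun T _ _ _ Sg Ph h1 htr ht hdet hres => s59u_lb_relOfE d T Sg Ph h1 htr ht hdet hres
  g12 := 2 * s59u_lb_aE d hu2
  hg12 := s59r_gramE d (s59u_lb_aE d hu2) (s59u_lb_aE_sq d hu2)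
  trOf := fun T _ _ _ f Ph hf hX hdet hres => s59u_lb_trOfE d hu2 T f Ph hf hX hdet hres
  tr0 := d.ε * (d.u + 1)
  tgtOf := fun T _ _ _ _ _ hinj hloc v hv hrel hne _ =>
    s59u_lb_tgtOfE d hu1 hu2 T hinj hloc v hv hrel hne

end E

end Fermat.Agent.Lib.S59
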