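/-
[FLR] generic-Λ R-contract, request (C1) of helper4 (#3831) (helper3, prefix `s59u_lb_`):
**the two instances of `s59f_LocBr` for the local model (−1)** (a raising prime `q ≡ −1 (p)`,
`Φ̄ = diag(ε u, ε)`, half-trace coordinates `(N; a, β, γ)`): target `St₊` (`s59r_raiseMP`,
`tr Φ = ε(u+1)`) and target `St₋` (`s59r_raiseMM`, `tr Φ = −ε(u+1)`).
-/
import Mathlib
import Fermat.Agent.Lib.S59.ULocBrE
import Fermat.Agent.Lib.S59.RModM

set_option autoImplicit false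
set_option linter.unusedSectionVars false
set_option linter.unusedVariables false
set_option linter.style.haveILetI false

noncomputable section

namespace Fermat.Agent.Lib.S59

open IsLocalRing MvPowerSeries Fermat.Agent.Lib.Deform

section M

variable {𝒪 : Type} [CommRing 𝒪] [IsLocalRing 𝒪] [IsNoetherianRing 𝒪] [IsDomain 𝒪]
  [IsAdicComplete (maximalIdeal 𝒪) 𝒪] [Finite (ResidueField 𝒪)]

variable (d : s59r_UData 𝒪) (hu1 : IsUnit (1 - d.u)) (hu2m : 1 + d.u ∈ maximalIdeal 𝒪)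
  (hu2n : 1 + d.u ≠ 0)

theorem s59u_lb_f0_eq {T : Type*} [CommRing T] [Algebra 𝒪 T] :
    algebraMap 𝒪 T d.f0 =
      algebraMap 𝒪 T d.i2 * (algebraMap 𝒪 T (d.ε * d.u) - algebraMap 𝒪 T d.ε) := by
  rw [s59r_UData.f0, ← map_sub, ← map_mul]
  congr 1
  ring

/-- `½ (Φ₀₀ − Φ₁₁) ≡ f₀` if `Φ ≡ diag(ε u, ε)`. -/
theorem s59u_lb_tl_sub_mem {T : Type*} [CommRing T] [IsLocalRing T] (i2 : T)
    (Ph : Matrix (Fin 2) (Fin 2) T) (m00 m11 f0 : T)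
    (h00 : Ph 0 0 - m00 ∈ maximalIdeal T) (h11 : Ph 1 1 - m11 ∈ maximalIdeal T)
    (hf0 : f0 = i2 * (m00 - m11)) : s59i_tl i2 Ph 0 - f0 ∈ maximalIdeal T := by
  have e : s59i_tl i2 Ph 0 - f0 = i2 * (Ph 0 0 - m00) - i2 * (Ph 1 1 - m11) := by
    rw [hf0, s59i_tl_zero]; ring
  rw [e]
  exact Ideal.sub_mem _ (Ideal.mul_mem_left _ _ h00) (Ideal.mul_mem_left _ _ h11)

/-- `relOf` for the model (−1). -/
theorem s59u_lb_relOfM (T : Type) [CommRing T] [IsLocalRing T] [Algebra 𝒪 T]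
    (Sg Ph : Matrix (Fin 2) (Fin 2) T)
    (h1 : (Sg - 1) * (Sg - 1) = 0) (htr : Sg.trace = 2)
    (ht : Ph * (Sg - 1) = algebraMap 𝒪 T d.u • ((Sg - 1) * Ph))
    (hdet : Ph.det = algebraMap 𝒪 T d.u)
    (hres : ∀ i j, Ph i j - algebraMap 𝒪 T (s59u_lb_M0E d i j) ∈ maximalIdeal T) :
    s59r_relM d T (s59f_coordG (algebraMap 𝒪 T d.i2)
      (fun i => algebraMap 𝒪 T ((![d.i2, d.i2] : Fin 2 → 𝒪) i))
      (fun k => algebraMap 𝒪 T ((![0, 0, 0] : Fin 3 → 𝒪) k)) Sg Ph) := by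
  have hi2 : (2 : T) * algebraMap 𝒪 T d.i2 = 1 := s59u_lb_two_i2 d
  set v := s59f_coordG (algebraMap 𝒪 T d.i2)
    (fun i => algebraMap 𝒪 T ((![d.i2, d.i2] : Fin 2 → 𝒪) i))
    (fun k => algebraMap 𝒪 T ((![0, 0, 0] : Fin 3 → 𝒪) k)) Sg Ph with hv
  have e0 : v 0 = s59i_tl (algebraMap 𝒪 T d.i2) Sg 0 := rfl
  have e1 : v 1 = s59i_tl (algebraMap 𝒪 T d.i2) Sg 1 := rfl
  have e2 : v 2 = s59i_tl (algebraMap 𝒪 T d.i2) Sg 2 := rfl
  have e3 : v 3 = s59i_ht (algebraMap 𝒪 T d.i2) Ph := by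
    show algebraMap 𝒪 T d.i2 * Ph 0 0 + algebraMap 𝒪 T d.i2 * Ph 1 1 - algebraMap 𝒪 T 0 =
      algebraMap 𝒪 T d.i2 * (Ph 0 0 + Ph 1 1)
    rw [map_zero]
    ring
  have e4 : v 4 = s59i_tl (algebraMap 𝒪 T d.i2) Ph 1 := by
    show Ph 0 1 - algebraMap 𝒪 T 0 = Ph 0 1
    rw [map_zero, sub_zero]
  have e5 : v 5 = s59i_tl (algebraMap 𝒪 T d.i2) Ph 2 := by
    show Ph 1 0 - algebraMap 𝒪 T 0 = Ph 1 0
    rw [map_zero, sub_zero]
  obtain ⟨h2, h3, h4⟩ := s59i_r234_of_tame _ (algebraMap 𝒪 T d.u) hi2 Sg Ph htr ht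
  refine ⟨s59i_tl (algebraMap 𝒪 T d.i2) Ph 0, ?_, ?_, ?_, ?_, ?_, ?_⟩
  · exact s59u_lb_tl_sub_mem _ Ph _ _ _ (hres 0 0) (hres 1 1) (s59u_lb_f0_eq d)
  · rw [e3, e4, e5]
    exact s59i_sq_of_det _ _ hi2 Ph hdet
  · rw [e0, e1, e2]
    exact s59i_r0_of_unip _ hi2 Sg h1 htr
  · rw [e0, e1, e3, e4]
    exact h2
  · rw [e0, e2, e3, e5]
    exact h3
  · rw [e0, e1, e2, e4, e5]
    exact h4

/-- `trOf` for the model (−1): `g12 = 2 X₃`. -/
theorem s59u_lb_trOfM (T : Type) [CommRing T] [IsLocalRing T] [Algebra 𝒪 T]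
    (f : s59r_Loc 𝒪 →ₐ[𝒪] T) (Ph : Matrix (Fin 2) (Fin 2) T)
    (hX : ∀ k : Fin 3, f (X (Fin.natAdd 3 k)) =
      s59f_tlG (fun i => algebraMap 𝒪 T ((![d.i2, d.i2] : Fin 2 → 𝒪) i)) Ph k -
        algebraMap 𝒪 T ((![0, 0, 0] : Fin 3 → 𝒪) k)) :
    f (2 * X 3) = Ph.trace := by
  have hi2 : (2 : T) * algebraMap 𝒪 T d.i2 = 1 := s59u_lb_two_i2 d
  have h3 : f (X 3) = algebraMap 𝒪 T d.i2 * Ph 0 0 + algebraMap 𝒪 T d.i2 * Ph 1 1 -
      algebraMap 𝒪 T 0 := hX 0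
  rw [map_mul, map_ofNat, h3, map_zero, sub_zero, Matrix.trace_fin_two]
  linear_combination (Ph 0 0 + Ph 1 1) * hi2

theorem s59u_lb_eval_g12M {T : Type} [CommRing T] [IsLocalRing T]
    [IsAdicComplete (maximalIdeal T) T] [Algebra 𝒪 T] (v : Fin 6 → T)
    (hv : ∀ k, v k ∈ maximalIdeal T) :
    evalHom (R := 𝒪) (maximalIdeal T) v hv (2 * X 3) = 2 * v 3 := by
  rw [map_mul, map_ofNat, evalHom_X]

include hu2n in
theorem s59u_lb_two_a0_ne {T : Type} [CommRing T] [Algebra 𝒪 T]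
    (hinj : Function.Injective (algebraMap 𝒪 T)) :
    algebraMap 𝒪 T d.a0 + algebraMap 𝒪 T d.a0 ≠ 0 := by
  intro h
  have h1 : algebraMap 𝒪 T (2 * d.a0) = 0 := by
    rw [map_mul, map_ofNat]; linear_combination h
  have h2 : 2 * d.a0 = 0 := hinj (by rw [h1, map_zero])
  exact (mul_ne_zero d.isUnit_two.ne_zero (s59r_a0_ne d hu2n)) h2

theorem s59u_lb_tr0_eq {T : Type} [CommRing T] [Algebra 𝒪 T] :
    algebraMap 𝒪 T (d.ε * (d.u + 1)) = 2 * algebraMap 𝒪 T d.a0 := by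
  rw [← map_ofNat (algebraMap 𝒪 T) 2, ← map_mul]
  congr 1
  rw [s59r_UData.a0]
  linear_combination (-(d.ε * (d.u + 1))) * d.hi2

include hu2n in
/-- `tgtOf` for the model (−1), target `St₊`. -/
theorem s59u_lb_tgtOfMP (T : Type) [CommRing T] [IsLocalRing T] [IsDomain T]
    [IsAdicComplete (maximalIdeal T) T] [Algebra 𝒪 T]
    (hinj : Function.Injective (algebraMap 𝒪 T))
    (hloc : ∀ t ∈ maximalIdeal 𝒪, algebraMap 𝒪 T t ∈ maximalIdeal T)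
    (v : Fin 6 → T) (hv : ∀ k, v k ∈ maximalIdeal T) (hrel : s59r_relM d T v)
    (hne : ¬ (v 0 = 0 ∧ v 1 = 0 ∧ v 2 = 0))
    (htr : evalHom (R := 𝒪) (maximalIdeal T) v hv (2 * X 3) =
      algebraMap 𝒪 T (d.ε * (d.u + 1))) :
    ∃ (y : Fin 3 → T) (hy : ∀ j, y j ∈ maximalIdeal T),
      ∀ k, v k = evalHom (R := 𝒪) (maximalIdeal T) y hy (s59r_parM d hu1 1 k) := by
  rw [s59u_lb_eval_g12M, s59u_lb_tr0_eq] at htr
  have h2 : (2 : T) ≠ 0 := by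
    have := s59u_lb_two_i2 (T := T) d
    intro h
    rw [h, zero_mul] at this
    exact zero_ne_one this
  have hv3 : v 3 = algebraMap 𝒪 T d.a0 := mul_left_cancel₀ h2 htr
  obtain ⟨c, y, hy, h⟩ := s59r_killM d hu1 hu2n T hinj hloc v hv hrel
  fin_cases c
  · exfalso
    refine hne ⟨?_, ?_, ?_⟩
    · exact (h 0).trans (map_zero _)
    · exact (h 1).trans (map_zero _)
    · exact (h 2).trans (map_zero _)
  · exact ⟨y, hy, h⟩
  · exfalso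
    have h3 : v 3 = evalHom (R := 𝒪) (maximalIdeal T) y hy (-C d.a0) := h 3
    rw [map_neg, s59l_algHom_C, hv3] at h3
    exact s59u_lb_two_a0_ne d hu2n hinj (by linear_combination h3)

include hu2n in
/-- `tgtOf` for the model (−1), target `St₋`. -/
theorem s59u_lb_tgtOfMM (T : Type) [CommRing T] [IsLocalRing T] [IsDomain T]
    [IsAdicComplete (maximalIdeal T) T] [Algebra 𝒪 T]
    (hinj : Function.Injective (algebraMap 𝒪 T))
    (hloc : ∀ t ∈ maximalIdeal 𝒪, algebraMap 𝒪 T t ∈ maximalIdeal T)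
    (v : Fin 6 → T) (hv : ∀ k, v k ∈ maximalIdeal T) (hrel : s59r_relM d T v)
    (hne : ¬ (v 0 = 0 ∧ v 1 = 0 ∧ v 2 = 0))
    (htr : evalHom (R := 𝒪) (maximalIdeal T) v hv (2 * X 3) =
      algebraMap 𝒪 T (-(d.ε * (d.u + 1)))) :
    ∃ (y : Fin 3 → T) (hy : ∀ j, y j ∈ maximalIdeal T),
      ∀ k, v k = evalHom (R := 𝒪) (maximalIdeal T) y hy (s59r_parM d hu1 2 k) := by
  rw [s59u_lb_eval_g12M, map_neg, s59u_lb_tr0_eq] at htr
  have h2 : (2 : T) ≠ 0 := by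
    have := s59u_lb_two_i2 (T := T) d
    intro h
    rw [h, zero_mul] at this
    exact zero_ne_one this
  have hv3 : v 3 = -algebraMap 𝒪 T d.a0 := by
    refine mul_left_cancel₀ h2 ?_
    rw [htr]; ring
  obtain ⟨c, y, hy, h⟩ := s59r_killM d hu1 hu2n T hinj hloc v hv hrel
  fin_cases c
  · exfalso
    refine hne ⟨?_, ?_, ?_⟩
    · exact (h 0).trans (map_zero _)
    · exact (h 1).trans (map_zero _)
    · exact (h 2).trans (map_zero _)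
  · exfalso
    have h3 : v 3 = evalHom (R := 𝒪) (maximalIdeal T) y hy (C d.a0) := h 3
    rw [s59l_algHom_C, hv3] at h3
    exact s59u_lb_two_a0_ne d hu2n hinj (by linear_combination (-1 : T) * h3)
  · exact ⟨y, hy, h⟩

include hu2m in
theorem s59u_lb_residue_sum_M : residue 𝒪 (d.ε * d.u) + residue 𝒪 d.ε = 0 := by
  rw [← map_add]
  have : d.ε * d.u + d.ε = d.ε * (1 + d.u) := by ring
  rw [this]
  exact (residue_eq_zero_iff _).mpr (Ideal.mul_mem_left _ _ hu2m)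

include hu1 in
theorem s59u_lb_residue_ne_M : residue 𝒪 (d.ε * d.u) ≠ residue 𝒪 d.ε := by
  intro h
  have h' : residue 𝒪 (d.ε * d.u - d.ε) = 0 := by rw [map_sub, h, sub_self]
  have : d.ε * d.u - d.ε = -(d.ε * (1 - d.u)) := by ring
  rw [this] at h'
  exact s59u_lb_residue_ne_zero ((s59l_isUnit_eps d.hε).mul hu1).neg h'

/-- **the local bridge datum of the model (−1), target `St₊`** (`q ≡ −1 (p)`, half-trace
coordinates). -/
def s59u_lb_locBrMP : s59f_LocBr 𝒪 d.i2 where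
  Λ := s59r_modelM d hu1 hu2m hu2n
  D := s59r_raiseMP d hu1 hu2m hu2n
  u := d.u
  lam := ![d.i2, d.i2]
  sh := ![0, 0, 0]
  M0 := s59u_lb_M0E d
  fp := s59f_fpDiag
  hlam := by
    rw [s59u_lb_M0E, s59u_lb_diag_map]
    exact s59f_hlam_Tr d.i2 d.hi2 _ _ (s59u_lb_residue_ne_M d hu1)
  hsh := by
    intro k
    rw [s59u_lb_M0E, s59u_lb_diag_map]
    refine s59f_hsh_Tr d.i2 0 _ _ ?_ k
    rw [map_zero, s59u_lb_residue_sum_M d hu2m, mul_zero]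
  hfp := by
    intro Δ hc h0 h1
    rw [s59u_lb_M0E, s59u_lb_diag_map] at hc
    exact s59f_hfp_diag _ _ (s59u_lb_residue_ne_M d hu1) Δ hc h0 h1
  unr_par := rfl
  relOf := fun T _ _ _ Sg Ph h1 htr ht hdet hres => s59u_lb_relOfM d T Sg Ph h1 htr ht hdet hres
  g12 := 2 * X 3
  hg12 := s59r_gramM d
  trOf := fun T _ _ _ f Ph _ hX _ _ => s59u_lb_trOfM d T f Ph hX
  tr0 := d.ε * (d.u + 1)
  tgtOf := fun T _ _ _ _ _ hinj hloc v hv hrel hne htr =>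
    s59u_lb_tgtOfMP d hu1 hu2n T hinj hloc v hv hrel hne htr

/-- **the local bridge datum of the model (−1), target `St₋`.** -/
def s59u_lb_locBrMM : s59f_LocBr 𝒪 d.i2 where
  Λ := s59r_modelM d hu1 hu2m hu2n
  D := s59r_raiseMM d hu1 hu2m hu2n
  u := d.u
  lam := ![d.i2, d.i2]
  sh := ![0, 0, 0]
  M0 := s59u_lb_M0E d
  fp := s59f_fpDiag
  hlam := (s59u_lb_locBrMP d hu1 hu2m hu2n).hlam
  hsh := (s59u_lb_locBrMP d hu1 hu2m hu2n).hsh
  hfp := (s59u_lb_locBrMP d hu1 hu2m hu2n).hfp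
  unr_par := rfl
  relOf := fun T _ _ _ Sg Ph h1 htr ht hdet hres => s59u_lb_relOfM d T Sg Ph h1 htr ht hdet hres
  g12 := 2 * X 3
  hg12 := s59r_gramM d
  trOf := fun T _ _ _ f Ph _ hX _ _ => s59u_lb_trOfM d T f Ph hX
  tr0 := -(d.ε * (d.u + 1))
  tgtOf := fun T _ _ _ _ _ hinj hloc v hv hrel hne htr =>
    s59u_lb_tgtOfMM d hu1 hu2n T hinj hloc v hv hrel hne htr

end M

end Fermat.Agent.Lib.S59
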