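/-
PROGRAMME R2 = S59, node [FLR] / [F-RING] (helper4, prefix `s59r_`): **the local model (+1n)** —
a prime `ℓ₀ ≡ 1 (p)` at which `ρ̄` is unramified with NON-SCALAR Frobenius
`ρ̄(φ) = ε₀ (1 1; 0 1)`, unipotent lifts.

Local variables `(e, b, c; f', β', γ)`: `N = ρ(σ) − 1 = [[e,b],[c,−e]]`,
`Φ = ρ(φ) = a + [[f,β],[γ,−f]]`, `f = f₀ + f'` (`f₀ = ε₀(u−1)/2 ∈ 𝔪`, `≠ 0`), `β = ε₀ + β'`
(a unit), `a² = u + f² + βγ`, `a ≡ a₀ = ε₀(u+1)/2`.
Two components: `0` = unramified (`N = 0`), `1` = Steinberg (`a = a₀`), parameters `(b, f', β')`: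
`e = b f'/β`, `c = −b f'²/β²`, `γ = −f'(2f₀+f')/β`.
  * `s59r_unip_dichotomyP`, `s59r_unip_stN` : the algebra in a local domain with `1 − u ≠ 0`;
  * `s59r_modelP`, `s59r_raiseP` : the model and its raise data,
    `δ = −4 (f² + βγ − f₀²) = (u+1)² − (2a)²`, witness `f' = β' = γ = 0`.
-/
import Mathlib
import Fermat.Agent.Lib.S59.RModE

set_option autoImplicit false
set_option linter.unusedSectionVars false
set_option linter.unusedVariables false
set_option linter.style.haveILetI false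

noncomputable section

namespace Fermat.Agent.Lib.S59

open IsLocalRing MvPowerSeries Fermat.Agent.Lib.Deform

section AlgP

variable {T : Type*} [CommRing T] [IsLocalRing T] [IsDomain T]

/-- **the dichotomy at `u ≡ 1`, `β` a unit**: in a local domain with `1 − u ≠ 0`, a unipotent point
is unramified or has `a = a₀`. -/
theorem s59r_unip_dichotomyP (e b c f β γ a u ε i2 : T) (hi2 : 2 * i2 = 1)
    (hε : ε ^ 2 = 1) (hu0 : IsUnit u) (hu1 : 1 - u ≠ 0) (hu2 : IsUnit (1 + u)) (hβ : IsUnit β)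
    (ha : a ^ 2 = u + (f ^ 2 + β * γ)) (ha0 : a - ε * (u + 1) * i2 ∈ maximalIdeal T)
    (h0 : s59l_r0 e b c = 0) (h2 : s59l_r2 e b f β a u = 0) (h3 : s59l_r3 e c f γ a u = 0)
    (h4 : s59l_r4 e b c f β γ u = 0) :
    (e = 0 ∧ b = 0 ∧ c = 0) ∨ a = ε * (u + 1) * i2 := by
  by_cases hA : a = ε * (u + 1) * i2
  · exact Or.inr hA
  left
  have h4i : (4 : T) * i2 ^ 2 = 1 := by linear_combination (2 * i2 + 1) * hi2
  have h2u : IsUnit (2 : T) := s59l_isUnit_two hi2
  have h4u : IsUnit (4 : T) := by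
    have : (4 : T) = 2 * 2 := by norm_num
    rw [this]
    exact h2u.mul h2u
  have ha0u : IsUnit (ε * (u + 1) * i2) := by
    refine ((s59l_isUnit_eps hε).mul ?_).mul (s59l_isUnit_i2 hi2)
    rw [add_comm]; exact hu2
  have hsum : IsUnit (a + ε * (u + 1) * i2) := by
    refine s59l_isUnit_of_sub_mem (y := 2 * (ε * (u + 1) * i2)) (h2u.mul ha0u) ?_
    have : a + ε * (u + 1) * i2 - 2 * (ε * (u + 1) * i2) = a - ε * (u + 1) * i2 := by ring
    rw [this]; exact ha0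
  -- `e = 0`
  have he : e = 0 := by
    have h1 : s59l_se f β γ u * e ^ 2 = 0 := by
      rw [s59l_id_e e b c f β γ a u ha, h0, h2, h3]; ring
    have h2' : s59l_se f β γ u =
        4 * u * (a - ε * (u + 1) * i2) * (a + ε * (u + 1) * i2) := by
      simp only [s59l_se]
      linear_combination (-4 * u : T) * ha + (4 * u * (u + 1) ^ 2 * i2 ^ 2) * hε +
        (u * (u + 1) ^ 2) * h4i
    rw [h2'] at h1
    have hne : 4 * u * (a - ε * (u + 1) * i2) * (a + ε * (u + 1) * i2) ≠ 0 :=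
      mul_ne_zero (mul_ne_zero (mul_ne_zero h4u.ne_zero hu0.ne_zero) (sub_ne_zero.mpr hA))
        hsum.ne_zero
    rcases mul_eq_zero.mp h1 with h | h
    · exact absurd h hne
    · exact pow_eq_zero_iff (two_ne_zero) |>.mp h
  have h4' : 2 * e * f + b * γ + c * β = 0 := by
    have := h4
    simp only [s59l_r4] at this
    rcases mul_eq_zero.mp this with h | h
    · exact absurd h hu1
    · exact h
  have hbc : b * c = 0 := by
    have := h0
    simp only [s59l_r0] at this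
    rw [he] at this
    linear_combination this
  -- `b = 0`
  have hb : b = 0 := by
    by_contra hb
    have h1 : s59l_s2 f a u * b = 0 := by
      rw [s59l_id_b e b f β a u, h2, he]; ring
    have hs2 : s59l_s2 f a u = 0 := by
      rcases mul_eq_zero.mp h1 with h | h
      · exact h
      · exact absurd h hb
    have hc0 : c = 0 := by
      rcases mul_eq_zero.mp hbc with h | h
      · exact absurd h hb
      · exact h
    have hγ : γ = 0 := by
      rw [he, hc0] at h4'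
      have : b * γ = 0 := by linear_combination h4'
      rcases mul_eq_zero.mp this with h | h
      · exact absurd h hb
      · exact h
    simp only [s59l_s2] at hs2
    -- `4 u f² = u (1−u)²`, hence `a² = a₀²`
    have h5 : u * (4 * f ^ 2 - (1 - u) ^ 2) = 0 := by
      rw [hγ] at ha
      linear_combination ((1 - u) ^ 2) * ha - (a * (1 - u) - (1 + u) * f) * hs2
    have h6 : 4 * f ^ 2 - (1 - u) ^ 2 = 0 := hu0.mul_right_eq_zero.mp h5
    have h7 : (4 : T) * ((a - ε * (u + 1) * i2) * (a + ε * (u + 1) * i2)) = 0 := by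
      rw [hγ] at ha
      linear_combination (4 : T) * ha + h6 - (4 * (u + 1) ^ 2 * i2 ^ 2) * hε -
        ((u + 1) ^ 2) * h4i
    have h8 := h4u.mul_right_eq_zero.mp h7
    exact hA (sub_eq_zero.mp (hsum.mul_left_eq_zero.mp h8))
  -- `c = 0`
  have hc : c = 0 := by
    rw [he, hb] at h4'
    have : c * β = 0 := by linear_combination h4'
    exact hβ.mul_left_eq_zero.mp this
  exact ⟨he, hb, hc⟩

/-- **the Steinberg branch at `β` a unit** (no hypothesis on `f`). -/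
theorem s59r_unip_stN (e b c f β γ a u ε i2 : T) (hi2 : 2 * i2 = 1) (hε : ε ^ 2 = 1)
    (hu1 : 1 - u ≠ 0) (hu2 : IsUnit (1 + u))
    (ha : a ^ 2 = u + (f ^ 2 + β * γ)) (ha0 : a = ε * (u + 1) * i2)
    (h2 : s59l_r2 e b f β a u = 0) (h4 : s59l_r4 e b c f β γ u = 0) :
    β * γ = (ε * (u - 1) * i2) ^ 2 - f ^ 2 ∧
      e * β = b * (f - ε * (u - 1) * i2) ∧
      c * β ^ 2 = -(b * (f - ε * (u - 1) * i2) ^ 2) := by
  have h4i : (4 : T) * i2 ^ 2 = 1 := by linear_combination (2 * i2 + 1) * hi2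
  have hQ : β * γ = (ε * (u - 1) * i2) ^ 2 - f ^ 2 := by
    have ha' := ha
    rw [ha0] at ha'
    linear_combination (-1 : T) * ha' + ((u + 1) ^ 2 * i2 ^ 2 - (u - 1) ^ 2 * i2 ^ 2) * hε
      + u * h4i
  have he : e * β = b * (f - ε * (u - 1) * i2) := by
    have h2' : (1 + u) * (b * (f - ε * (u - 1) * i2) - e * β) = 0 := by
      have := h2
      simp only [s59l_r2] at this
      rw [ha0] at this
      linear_combination this
    have := hu2.mul_right_eq_zero.mp h2'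
    linear_combination (-1 : T) * this
  have h4' : 2 * e * f + b * γ + c * β = 0 := by
    have := h4
    simp only [s59l_r4] at this
    rcases mul_eq_zero.mp this with h | h
    · exact absurd h hu1
    · exact h
  refine ⟨hQ, he, ?_⟩
  linear_combination β * h4' - (2 * f) * he - b * hQ

end AlgP

section ModelP

variable {𝒪 : Type} [CommRing 𝒪] [IsLocalRing 𝒪] [IsNoetherianRing 𝒪] [IsDomain 𝒪]
  [IsAdicComplete (maximalIdeal 𝒪) 𝒪] [Finite (ResidueField 𝒪)]

variable (d : s59r_UData 𝒪) (hu1m : 1 - d.u ∈ maximalIdeal 𝒪) (hu1n : 1 - d.u ≠ 0)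

include hu1m in
theorem s59r_isUnit_one_add : IsUnit (1 + d.u) := by
  refine s59l_isUnit_of_sub_mem (y := (2 : 𝒪)) d.isUnit_two ?_
  have : 1 + d.u - 2 = -(1 - d.u) := by ring
  rw [this]
  exact neg_mem hu1m

include hu1m in
theorem s59r_f0_mem : d.f0 ∈ maximalIdeal 𝒪 := by
  have : d.f0 = -(d.ε * d.i2) * (1 - d.u) := by
    unfold s59r_UData.f0; ring
  rw [this]
  exact Ideal.mul_mem_left _ _ hu1m

include hu1n in
theorem s59r_f0_ne : d.f0 ≠ 0 := by
  intro h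
  apply hu1n
  have h1 : d.ε * d.f0 * 2 = d.u - 1 := by
    unfold s59r_UData.f0
    linear_combination (d.u - 1) * d.i2 * 2 * d.hε + (d.u - 1) * d.hi2
  rw [h, mul_zero, zero_mul] at h1
  linear_combination h1

/-- the unit `B = ε₀ + β'` of the parameter ring. -/
def s59r_BP : s59r_Par 𝒪 := C d.ε + X 2

theorem s59r_BP_isUnit : IsUnit (s59r_BP d) := by
  rw [MvPowerSeries.isUnit_iff_constantCoeff]
  unfold s59r_BP
  rw [map_add, constantCoeff_C, constantCoeff_X, add_zero]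
  exact s59l_isUnit_eps d.hε

/-- its inverse. -/
def s59r_BPi : s59r_Par 𝒪 := Ring.inverse (s59r_BP d)

theorem s59r_BP_mul : s59r_BP d * s59r_BPi d = 1 :=
  Ring.mul_inverse_cancel _ (s59r_BP_isUnit d)

/-- the parametrisations of the two components. -/
def s59r_parP : Fin 2 → Fin 6 → s59r_Par 𝒪 :=
  ![![0, 0, 0, X 0, X 1, X 2],
    ![X 0 * (X 1 * s59r_BPi d), X 0, -(X 0 * (X 1 ^ 2 * s59r_BPi d ^ 2)), X 1, X 2,
      -(X 1 * ((2 * C d.f0 + X 1) * s59r_BPi d))]]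

/-- the sections. -/
def s59r_secP : Fin 2 → Fin 3 → Fin 6 := ![![3, 4, 5], ![1, 3, 4]]

/-- the local relations: unipotent, `a ≡ a₀`, in the variables `(e, b, c; f', β', γ)`. -/
def s59r_relP (T : Type) [CommRing T] [IsLocalRing T] [Algebra 𝒪 T] (v : Fin 6 → T) : Prop :=
  ∃ a : T, a - algebraMap 𝒪 T d.a0 ∈ maximalIdeal T ∧
    a ^ 2 = algebraMap 𝒪 T d.u +
      ((algebraMap 𝒪 T d.f0 + v 3) ^ 2 + (algebraMap 𝒪 T d.ε + v 4) * v 5) ∧
    s59l_r0 (v 0) (v 1) (v 2) = 0 ∧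
    s59l_r2 (v 0) (v 1) (algebraMap 𝒪 T d.f0 + v 3) (algebraMap 𝒪 T d.ε + v 4) a
      (algebraMap 𝒪 T d.u) = 0 ∧
    s59l_r3 (v 0) (v 2) (algebraMap 𝒪 T d.f0 + v 3) (v 5) a (algebraMap 𝒪 T d.u) = 0 ∧
    s59l_r4 (v 0) (v 1) (v 2) (algebraMap 𝒪 T d.f0 + v 3) (algebraMap 𝒪 T d.ε + v 4) (v 5)
      (algebraMap 𝒪 T d.u) = 0

/-- the Steinberg relation in the local ring. -/
def s59r_relLocP : s59r_Loc 𝒪 := (C d.f0 + X 3) ^ 2 + (C d.ε + X 4) * X 5 - C d.f0 ^ 2

theorem s59r_parP_mem (c : Fin 2) (k : Fin 6) :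
    s59r_parP d c k ∈ maximalIdeal (s59r_Par 𝒪) := by
  fin_cases c <;> fin_cases k
  · exact zero_mem _
  · exact zero_mem _
  · exact zero_mem _
  · exact X_mem_maximalIdeal _
  · exact X_mem_maximalIdeal _
  · exact X_mem_maximalIdeal _
  · exact Ideal.mul_mem_right _ _ (X_mem_maximalIdeal _)
  · exact X_mem_maximalIdeal _
  · exact neg_mem (Ideal.mul_mem_right _ _ (X_mem_maximalIdeal _))
  · exact X_mem_maximalIdeal _
  · exact X_mem_maximalIdeal _
  · exact neg_mem (Ideal.mul_mem_right _ _ (X_mem_maximalIdeal _))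

/-- the parametrisation maps. -/
def s59r_PP (c : Fin 2) : s59r_Loc 𝒪 →ₐ[𝒪] s59r_Par 𝒪 :=
  evalHom (maximalIdeal (s59r_Par 𝒪)) (s59r_parP d c) (s59r_parP_mem d c)

theorem s59r_PP_X (c : Fin 2) (k : Fin 6) : s59r_PP d c (X k) = s59r_parP d c k :=
  evalHom_X _ _ _ k

theorem s59r_PP_C (c : Fin 2) (t : 𝒪) : s59r_PP d c (C t) = C t := by
  rw [s59l_algHom_C, MvPowerSeries.algebraMap_apply, Algebra.algebraMap_self, RingHom.id_apply]

theorem s59r_PP_rel0 :
    s59r_PP d 0 (s59r_relLocP d) = (C d.f0 + X 0) ^ 2 + (C d.ε + X 1) * X 2 - C d.f0 ^ 2 := by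
  unfold s59r_relLocP
  rw [map_sub, map_add, map_pow, map_add, map_mul, map_add, map_pow, s59r_PP_C, s59r_PP_C,
    s59r_PP_X, s59r_PP_X, s59r_PP_X]
  rfl

theorem s59r_PP_rel1 : s59r_PP d 1 (s59r_relLocP d) = 0 := by
  unfold s59r_relLocP
  rw [map_sub, map_add, map_pow, map_add, map_mul, map_add, map_pow, s59r_PP_C, s59r_PP_C,
    s59r_PP_X, s59r_PP_X, s59r_PP_X]
  show (C d.f0 + X 1) ^ 2 + (C d.ε + X 2) * -(X 1 * ((2 * C d.f0 + X 1) * s59r_BPi d)) -
    C d.f0 ^ 2 = 0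
  have h := s59r_BP_mul d
  unfold s59r_BP at h
  linear_combination (-(X 1 * (2 * C d.f0 + X 1)) : s59r_Par 𝒪) * h

/-- the quadric of the unramified component does not vanish. -/
theorem s59r_quadP_ne :
    ((C d.f0 + X 0) ^ 2 + (C d.ε + X 1) * X 2 - C d.f0 ^ 2 : s59r_Par 𝒪) ≠ 0 := by
  classical
  intro h
  have hy : ∀ j, (![0, 0, X 2] : Fin 3 → s59r_Par 𝒪) j ∈ maximalIdeal (s59r_Par 𝒪) := by
    intro j
    fin_cases j
    · exact zero_mem _
    · exact zero_mem _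
    · exact X_mem_maximalIdeal _
  have h1 := congrArg (evalHom (R := 𝒪) (maximalIdeal (s59r_Par 𝒪)) ![0, 0, X 2] hy) h
  rw [map_zero, map_sub, map_add, map_pow, map_add, map_mul, map_add, map_pow, s59l_algHom_C,
    s59l_algHom_C, evalHom_X, evalHom_X, evalHom_X] at h1
  have h2 : (C d.ε * X 2 : s59r_Par 𝒪) = 0 := by
    have h3 : ((algebraMap 𝒪 (s59r_Par 𝒪) d.f0 + (0 : s59r_Par 𝒪)) ^ 2 +
        (algebraMap 𝒪 (s59r_Par 𝒪) d.ε + (0 : s59r_Par 𝒪)) * X 2 -
        algebraMap 𝒪 (s59r_Par 𝒪) d.f0 ^ 2 : s59r_Par 𝒪) = 0 := h1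
    rw [MvPowerSeries.algebraMap_apply, MvPowerSeries.algebraMap_apply, Algebra.algebraMap_self,
      RingHom.id_apply, RingHom.id_apply] at h3
    linear_combination h3
  have h4 := congrArg (coeff (Finsupp.single (2 : Fin 3) 1)) h2
  rw [coeff_C_mul, coeff_X, if_pos rfl, mul_one, map_zero] at h4
  exact (s59l_isUnit_eps d.hε).ne_zero h4

include hu1m hu1n in
/-- the kill property of the model (+1n). -/
theorem s59r_killP (T : Type) [CommRing T] [IsLocalRing T] [IsDomain T]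
    [IsAdicComplete (maximalIdeal T) T] [Algebra 𝒪 T]
    (hinj : Function.Injective (algebraMap 𝒪 T))
    (hloc : ∀ t ∈ maximalIdeal 𝒪, algebraMap 𝒪 T t ∈ maximalIdeal T)
    (v : Fin 6 → T) (hv : ∀ k, v k ∈ maximalIdeal T) (hrel : s59r_relP d T v) :
    ∃ (c : Fin 2) (y : Fin 3 → T) (hy : ∀ j, y j ∈ maximalIdeal T),
      ∀ k, v k = evalHom (maximalIdeal T) y hy (s59r_parP d c k) := by
  obtain ⟨a, ha0, ha, h0, h2, h3, h4⟩ := hrel
  -- the constants in `T`
  have hi2T : (2 : T) * algebraMap 𝒪 T d.i2 = 1 := by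
    rw [← map_ofNat (algebraMap 𝒪 T) 2, ← map_mul, d.hi2, map_one]
  have hεT : algebraMap 𝒪 T d.ε ^ 2 = 1 := by rw [← map_pow, d.hε, map_one]
  have hf0T : algebraMap 𝒪 T d.f0 =
      algebraMap 𝒪 T d.ε * (algebraMap 𝒪 T d.u - 1) * algebraMap 𝒪 T d.i2 := by
    rw [s59r_UData.f0, map_mul, map_mul, map_sub, map_one]
  have ha0T : algebraMap 𝒪 T d.a0 =
      algebraMap 𝒪 T d.ε * (algebraMap 𝒪 T d.u + 1) * algebraMap 𝒪 T d.i2 := by
    rw [s59r_UData.a0, map_mul, map_mul, map_add, map_one]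
  have hu0T : IsUnit (algebraMap 𝒪 T d.u) := d.hu0.map _
  have hu1T : 1 - algebraMap 𝒪 T d.u ≠ 0 := by
    intro h
    apply hu1n
    apply hinj
    rw [map_sub, map_one, map_zero, h]
  have hu2T : IsUnit (1 + algebraMap 𝒪 T d.u) := by
    have := (s59r_isUnit_one_add d hu1m).map (algebraMap 𝒪 T)
    rwa [map_add, map_one] at this
  have hβT : IsUnit (algebraMap 𝒪 T d.ε + v 4) := by
    refine s59l_isUnit_of_sub_mem (y := algebraMap 𝒪 T d.ε) ((s59l_isUnit_eps d.hε).map _) ?_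
    rw [add_sub_cancel_left]
    exact hv 4
  -- the value of `B⁻¹`
  have hBval : ∀ (χ : s59r_Par 𝒪 →ₐ[𝒪] T), χ (X 2) = v 4 →
      (algebraMap 𝒪 T d.ε + v 4) * χ (s59r_BPi d) = 1 := by
    intro χ hχ2
    have := congrArg χ (s59r_BP_mul d)
    unfold s59r_BP at this
    rw [map_mul, map_add, map_one, s59l_algHom_C, hχ2] at this
    exact this
  have hdich : (v 0 = 0 ∧ v 1 = 0 ∧ v 2 = 0) ∨ a = algebraMap 𝒪 T d.a0 := by
    rw [ha0T]
    refine s59r_unip_dichotomyP _ _ _ _ _ _ _ _ _ _ hi2T hεT hu0T hu1T hu2T hβT ha ?_ h0 h2 h3 h4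
    rw [← ha0T]
    exact ha0
  rcases hdich with ⟨e0, b0, c0⟩ | hst
  · -- unramified
    have hy : ∀ j, (![v 3, v 4, v 5] : Fin 3 → T) j ∈ maximalIdeal T := by
      intro j
      fin_cases j
      · exact hv 3
      · exact hv 4
      · exact hv 5
    refine ⟨0, ![v 3, v 4, v 5], hy, ?_⟩
    intro k
    fin_cases k
    · show v 0 = evalHom _ _ _ 0
      rw [map_zero, e0]
    · show v 1 = evalHom _ _ _ 0
      rw [map_zero, b0]
    · show v 2 = evalHom _ _ _ 0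
      rw [map_zero, c0]
    · show v 3 = evalHom _ _ _ (X 0)
      rw [evalHom_X]; rfl
    · show v 4 = evalHom _ _ _ (X 1)
      rw [evalHom_X]; rfl
    · show v 5 = evalHom _ _ _ (X 2)
      rw [evalHom_X]; rfl
  · -- Steinberg
    have hy : ∀ j, (![v 1, v 3, v 4] : Fin 3 → T) j ∈ maximalIdeal T := by
      intro j
      fin_cases j
      · exact hv 1
      · exact hv 3
      · exact hv 4
    rw [ha0T] at hst
    obtain ⟨t1, t2, t3⟩ := s59r_unip_stN _ _ _ _ _ _ _ _ _ _ hi2T hεT hu1T hu2T ha hst h2 h4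
    rw [← hf0T] at t1 t2 t3
    set χ : s59r_Par 𝒪 →ₐ[𝒪] T := evalHom (maximalIdeal T) ![v 1, v 3, v 4] hy with hχ
    have hχ0 : χ (X 0) = v 1 := by rw [hχ, evalHom_X]; rfl
    have hχ1 : χ (X 1) = v 3 := by rw [hχ, evalHom_X]; rfl
    have hχ2 : χ (X 2) = v 4 := by rw [hχ, evalHom_X]; rfl
    have hB := hBval χ hχ2
    set β := algebraMap 𝒪 T d.ε + v 4 with hβdef
    set w := χ (s59r_BPi d) with hw
    refine ⟨1, ![v 1, v 3, v 4], hy, ?_⟩
    intro k
    fin_cases k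
    · show v 0 = χ (X 0 * (X 1 * s59r_BPi d))
      rw [map_mul, map_mul, hχ0, hχ1, ← hw]
      have t2' : v 0 * β = v 1 * v 3 := by rw [t2]; ring
      linear_combination (-(v 0) : T) * hB + w * t2'
    · exact hχ0.symm
    · show v 2 = χ (-(X 0 * (X 1 ^ 2 * s59r_BPi d ^ 2)))
      rw [map_neg, map_mul, map_mul, map_pow, map_pow, hχ0, hχ1, ← hw]
      have t3' : v 2 * β ^ 2 = -(v 1 * v 3 ^ 2) := by rw [t3]; ring
      linear_combination (-(v 2) * (β * w + 1) : T) * hB + w ^ 2 * t3'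
    · exact hχ1.symm
    · exact hχ2.symm
    · show v 5 = χ (-(X 1 * ((2 * C d.f0 + X 1) * s59r_BPi d)))
      rw [map_neg, map_mul, map_mul, map_add, map_mul, map_ofNat, s59l_algHom_C, hχ1, ← hw]
      have t1' : β * v 5 = -(v 3 * (2 * algebraMap 𝒪 T d.f0 + v 3)) := by rw [t1]; ring
      linear_combination (-(v 5) : T) * hB + w * t1'

/-- no component of the model (+1n) contains the other one. -/
theorem s59r_distP (c c' : Fin 2)
    (h : ∀ x : s59r_Loc 𝒪, s59r_PP d c' x = 0 → s59r_PP d c x = 0) : c' = c := by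
  have h10 : ¬ (∀ x : s59r_Loc 𝒪, s59r_PP d 1 x = 0 → s59r_PP d 0 x = 0) := by
    intro h
    have := h _ (s59r_PP_rel1 d)
    rw [s59r_PP_rel0] at this
    exact s59r_quadP_ne d this
  have h01 : ¬ (∀ x : s59r_Loc 𝒪, s59r_PP d 0 x = 0 → s59r_PP d 1 x = 0) := by
    intro h
    have h1 : s59r_PP d 0 (X 1) = 0 := by rw [s59r_PP_X]; rfl
    have := h _ h1
    rw [s59r_PP_X] at this
    exact s59l_X_ne_zero' 𝒪 (0 : Fin 3) this
  fin_cases c <;> fin_cases c'
  · rfl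
  · exact absurd h h10
  · exact absurd h h01
  · rfl

/-- **the local model (+1n).** -/
def s59r_modelP : s59r_Model 𝒪 where
  nc := 2
  par := s59r_parP d
  par_mem := s59r_parP_mem d
  sec := s59r_secP
  par_sec := by
    intro c j
    fin_cases c <;> fin_cases j <;> rfl
  rel := fun T _ _ _ v => s59r_relP d T v
  kill := fun T _ _ _ _ _ hinj hloc v hv hrel => s59r_killP d hu1m hu1n T hinj hloc v hv hrel
  dist := s59r_distP d

/-- the Gram determinant of the model (+1n). -/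
def s59r_deltaLocP : s59r_Loc 𝒪 := -4 * s59r_relLocP d

/-- `δ = (u+1)² − (2a)²` for `a = tr ρ(φ) / 2`. -/
theorem s59r_gramP (a : s59r_Loc 𝒪)
    (ha : a ^ 2 = C d.u + ((C d.f0 + X 3) ^ 2 + (C d.ε + X 4) * X 5)) :
    (C (d.u + 1) : s59r_Loc 𝒪) * C (d.u + 1) - (2 * a) * (2 * a) = s59r_deltaLocP d := by
  have h4 : (4 : s59r_Loc 𝒪) * C d.f0 ^ 2 = (C d.u - 1) ^ 2 := by
    have := congrArg (C (σ := Fin 6) (R := 𝒪)) d.four_f0_sq
    rw [map_mul, map_pow, map_pow, map_sub, map_one, map_ofNat] at this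
    exact this
  unfold s59r_deltaLocP s59r_relLocP
  rw [map_add, map_one]
  have : (2 * a) * (2 * a) = 4 * a ^ 2 := by ring
  rw [this, ha]
  linear_combination (-1 : s59r_Loc 𝒪) * h4

/-- the witness substitution of the model (+1n): `f' = β' = γ = 0`. -/
def s59r_sigP : Fin 3 → s59r_Par 𝒪 := ![0, 0, 0]

theorem s59r_sigP_mem (j : Fin 3) : (s59r_sigP j : s59r_Par 𝒪) ∈ maximalIdeal (s59r_Par 𝒪) := by
  fin_cases j <;> exact zero_mem _

/-- **the raise data of the model (+1n).** -/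
def s59r_raiseP : s59r_RaiseData (s59r_modelP d hu1m hu1n) where
  unr := (0 : Fin 2)
  tgt := (1 : Fin 2)
  δ := s59r_deltaLocP d
  σ := s59r_sigP
  σ_mem := s59r_sigP_mem
  w1 := by
    show evalHom (R := 𝒪) (maximalIdeal (s59r_Par 𝒪)) s59r_sigP s59r_sigP_mem
      (s59r_PP d 0 (s59r_deltaLocP d)) = 0
    unfold s59r_deltaLocP
    rw [map_mul, s59r_PP_rel0, map_mul, map_sub, map_add, map_pow, map_add, map_mul, map_add,
      map_pow, s59l_algHom_C, s59l_algHom_C, evalHom_X, evalHom_X, evalHom_X]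
    show _ * ((_ + (0 : s59r_Par 𝒪)) ^ 2 + (_ + (0 : s59r_Par 𝒪)) * 0 - _ ^ 2) = 0
    ring
  w2 := by
    intro c hc hδ
    fin_cases c
    · exfalso
      have h1 : s59r_PP d 0 (s59r_deltaLocP d) = 0 := hδ
      unfold s59r_deltaLocP at h1
      rw [map_mul, s59r_PP_rel0] at h1
      have h2 : ((C d.f0 + X 0) ^ 2 + (C d.ε + X 1) * X 2 - C d.f0 ^ 2 : s59r_Par 𝒪) = 0 := by
        have h3 : s59r_PP d 0 (-4 : s59r_Loc 𝒪) = -4 := by
          rw [map_neg, map_ofNat]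
        rw [h3] at h1
        have := s59r_four_mul_Par (𝒪 := 𝒪) d
        linear_combination (-(C d.i2 ^ 2 : s59r_Par 𝒪)) * h1 -
          ((C d.f0 + X 0) ^ 2 + (C d.ε + X 1) * X 2 - C d.f0 ^ 2 : s59r_Par 𝒪) * this
      exact s59r_quadP_ne d h2
    · rfl

end ModelP

end Fermat.Agent.Lib.S59
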