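/-
[FLR] generic-Λ R-contract, request (C1) of helper4 (#3831) (helper3, prefix `s59u_lb_`):
**the instance of `s59f_LocBr` for the local model (+1n)** (a raising prime `q ≡ 1 (p)` with
NON-SCALAR residual Frobenius `Φ̄ = ε (1 1; 0 1)`, coordinates
`((Φ₀₀ − Φ₁₁)/2 − f₀, Φ₀₁ − ε, Φ₁₀)`, free frame positions = the first row).
-/
import Mathlib
import Fermat.Agent.Lib.S59.ULocBrE
import Fermat.Agent.Lib.S59.RModP

set_option autoImplicit false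
set_option linter.unusedSectionVars false
set_option linter.unusedVariables false
set_option linter.style.haveILetI false

noncomputable section

namespace Fermat.Agent.Lib.S59

open IsLocalRing MvPowerSeries Fermat.Agent.Lib.Deform

section P

variable {𝒪 : Type} [CommRing 𝒪] [IsLocalRing 𝒪] [IsNoetherianRing 𝒪] [IsDomain 𝒪]
  [IsAdicComplete (maximalIdeal 𝒪) 𝒪] [Finite (ResidueField 𝒪)]

variable (d : s59r_UData 𝒪) (hu1m : 1 - d.u ∈ maximalIdeal 𝒪) (hu1n : 1 - d.u ≠ 0)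

/-- the lift `(ε u, ε; 0, ε)` of the residual framed Frobenius. -/
def s59u_lb_M0P : Matrix (Fin 2) (Fin 2) 𝒪 := !![d.ε * d.u, d.ε; 0, d.ε]

include hu1m in
theorem s59u_lb_residue_u : residue 𝒪 d.u = 1 := by
  have h := (residue_eq_zero_iff _).mpr hu1m
  rw [map_sub, map_one] at h
  exact (sub_eq_zero.mp h).symm

include hu1m in
theorem s59u_lb_M0P_map :
    (s59u_lb_M0P d).map (residue 𝒪) =
      !![residue 𝒪 d.ε, residue 𝒪 d.ε; 0, residue 𝒪 d.ε] := by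
  have hu := s59u_lb_residue_u d hu1m
  ext i j
  fin_cases i <;> fin_cases j
  · show residue 𝒪 (d.ε * d.u) = residue 𝒪 d.ε
    rw [map_mul, hu, mul_one]
  · rfl
  · show residue 𝒪 0 = 0
    rw [map_zero]
  · rfl

/-- the element `t = u + (f₀ + f')² + (ε + β')γ` of the local ring. -/
def s59u_lb_tP : s59r_Loc 𝒪 := C d.u + ((C d.f0 + X 3) ^ 2 + (C d.ε + X 4) * X 5)

theorem s59u_lb_tP_sub_mem :
    s59u_lb_tP d - C d.a0 ^ 2 ∈ maximalIdeal (s59r_Loc 𝒪) := by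
  have h1 : (4 : 𝒪) * d.a0 ^ 2 = 4 * d.u + 4 * d.f0 ^ 2 := by
    rw [d.four_a0_sq, d.four_f0_sq]; ring
  have h2 : d.a0 ^ 2 = d.u + d.f0 ^ 2 := by
    have h4 := d.four_i2
    linear_combination (d.i2 ^ 2) * h1 - (d.a0 ^ 2 - d.u - d.f0 ^ 2) * h4
  have e : s59u_lb_tP d - C d.a0 ^ 2 =
      X 3 * (2 * C d.f0 + X 3) + X 5 * (C d.ε + X 4) := by
    rw [s59u_lb_tP, ← map_pow, h2, map_add, map_pow]
    ring
  rw [e]
  exact Ideal.add_mem _ (Ideal.mul_mem_right _ _ (X_mem_maximalIdeal _))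
    (Ideal.mul_mem_right _ _ (X_mem_maximalIdeal _))

include hu1m in
theorem s59u_lb_exists_aP :
    ∃ a : s59r_Loc 𝒪, a ^ 2 = s59u_lb_tP d ∧ a - C d.a0 ∈ maximalIdeal (s59r_Loc 𝒪) :=
  s59u_lb_exists_sqrt (s59u_lb_tP d) (C d.a0) (C d.i2) (s59r_two_mul_C_i2 d)
    ((s59u_lb_isUnit_a0 d (s59r_isUnit_one_add d hu1m)).map C) (s59u_lb_tP_sub_mem d)

/-- the half trace `a = √(u + Q(W))`, `a ≡ a₀`, in the local ring of the model (+1n). -/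
def s59u_lb_aP : s59r_Loc 𝒪 := Classical.choose (s59u_lb_exists_aP d hu1m)

theorem s59u_lb_aP_sq : s59u_lb_aP d hu1m ^ 2 = s59u_lb_tP d :=
  (Classical.choose_spec (s59u_lb_exists_aP d hu1m)).1

theorem s59u_lb_aP_mem : s59u_lb_aP d hu1m - C d.a0 ∈ maximalIdeal (s59r_Loc 𝒪) :=
  (Classical.choose_spec (s59u_lb_exists_aP d hu1m)).2

/-- `relOf` for the model (+1n). -/
theorem s59u_lb_relOfP (T : Type) [CommRing T] [IsLocalRing T] [Algebra 𝒪 T]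
    (Sg Ph : Matrix (Fin 2) (Fin 2) T)
    (h1 : (Sg - 1) * (Sg - 1) = 0) (htr : Sg.trace = 2)
    (ht : Ph * (Sg - 1) = algebraMap 𝒪 T d.u • ((Sg - 1) * Ph))
    (hdet : Ph.det = algebraMap 𝒪 T d.u)
    (hres : ∀ i j, Ph i j - algebraMap 𝒪 T (s59u_lb_M0P d i j) ∈ maximalIdeal T) :
    s59r_relP d T (s59f_coordG (algebraMap 𝒪 T d.i2)
      (fun i => algebraMap 𝒪 T ((![d.i2, -d.i2] : Fin 2 → 𝒪) i))
      (fun k => algebraMap 𝒪 T ((![d.f0, d.ε, 0] : Fin 3 → 𝒪) k)) Sg Ph) := by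
  have hi2 : (2 : T) * algebraMap 𝒪 T d.i2 = 1 := s59u_lb_two_i2 d
  set v := s59f_coordG (algebraMap 𝒪 T d.i2)
    (fun i => algebraMap 𝒪 T ((![d.i2, -d.i2] : Fin 2 → 𝒪) i))
    (fun k => algebraMap 𝒪 T ((![d.f0, d.ε, 0] : Fin 3 → 𝒪) k)) Sg Ph with hv
  have e0 : v 0 = s59i_tl (algebraMap 𝒪 T d.i2) Sg 0 := rfl
  have e1 : v 1 = s59i_tl (algebraMap 𝒪 T d.i2) Sg 1 := rfl
  have e2 : v 2 = s59i_tl (algebraMap 𝒪 T d.i2) Sg 2 := rfl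
  have e3 : algebraMap 𝒪 T d.f0 + v 3 = s59i_tl (algebraMap 𝒪 T d.i2) Ph 0 := by
    show algebraMap 𝒪 T d.f0 + (algebraMap 𝒪 T d.i2 * Ph 0 0 + algebraMap 𝒪 T (-d.i2) * Ph 1 1 -
      algebraMap 𝒪 T d.f0) = algebraMap 𝒪 T d.i2 * (Ph 0 0 - Ph 1 1)
    rw [map_neg]
    ring
  have e4 : algebraMap 𝒪 T d.ε + v 4 = s59i_tl (algebraMap 𝒪 T d.i2) Ph 1 := by
    show algebraMap 𝒪 T d.ε + (Ph 0 1 - algebraMap 𝒪 T d.ε) = Ph 0 1
    ring
  have e5 : v 5 = s59i_tl (algebraMap 𝒪 T d.i2) Ph 2 := by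
    show Ph 1 0 - algebraMap 𝒪 T 0 = Ph 1 0
    rw [map_zero, sub_zero]
  obtain ⟨h2, h3, h4⟩ := s59i_r234_of_tame _ (algebraMap 𝒪 T d.u) hi2 Sg Ph htr ht
  refine ⟨s59i_ht (algebraMap 𝒪 T d.i2) Ph, ?_, ?_, ?_, ?_, ?_, ?_⟩
  · exact s59u_lb_ht_sub_mem _ Ph _ _ _ (hres 0 0) (hres 1 1) (s59u_lb_a0_eq d)
  · rw [e3, e4, e5]
    exact s59i_sq_of_det _ _ hi2 Ph hdet
  · rw [e0, e1, e2]
    exact s59i_r0_of_unip _ hi2 Sg h1 htr
  · rw [e0, e1, e3, e4]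
    exact h2
  · rw [e0, e2, e3, e5]
    exact h3
  · rw [e0, e1, e2, e3, e4, e5]
    exact h4

/-- `trOf` for the model (+1n). -/
theorem s59u_lb_trOfP (T : Type) [CommRing T] [IsLocalRing T] [Algebra 𝒪 T]
    (f : s59r_Loc 𝒪 →ₐ[𝒪] T) (Ph : Matrix (Fin 2) (Fin 2) T)
    (hf : ∀ a ∈ maximalIdeal (s59r_Loc 𝒪), f a ∈ maximalIdeal T)
    (hX : ∀ k : Fin 3, f (X (Fin.natAdd 3 k)) =
      s59f_tlG (fun i => algebraMap 𝒪 T ((![d.i2, -d.i2] : Fin 2 → 𝒪) i)) Ph k -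
        algebraMap 𝒪 T ((![d.f0, d.ε, 0] : Fin 3 → 𝒪) k))
    (hdet : Ph.det = algebraMap 𝒪 T d.u)
    (hres : ∀ i j, Ph i j - algebraMap 𝒪 T (s59u_lb_M0P d i j) ∈ maximalIdeal T) :
    f (2 * s59u_lb_aP d hu1m) = Ph.trace := by
  have hi2 : (2 : T) * algebraMap 𝒪 T d.i2 = 1 := s59u_lb_two_i2 d
  have hC : ∀ t : 𝒪, f (C t) = algebraMap 𝒪 T t := fun t => s59l_algHom_C f t
  have e3 : algebraMap 𝒪 T d.f0 + f (X 3) = s59i_tl (algebraMap 𝒪 T d.i2) Ph 0 := by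
    have h3 : f (X 3) = algebraMap 𝒪 T d.i2 * Ph 0 0 + algebraMap 𝒪 T (-d.i2) * Ph 1 1 -
        algebraMap 𝒪 T d.f0 := hX 0
    rw [h3, map_neg]
    show _ = algebraMap 𝒪 T d.i2 * (Ph 0 0 - Ph 1 1)
    ring
  have e4 : algebraMap 𝒪 T d.ε + f (X 4) = s59i_tl (algebraMap 𝒪 T d.i2) Ph 1 := by
    have h4 : f (X 4) = Ph 0 1 - algebraMap 𝒪 T d.ε := hX 1
    rw [h4]
    show _ = Ph 0 1
    ring
  have e5 : f (X 5) = s59i_tl (algebraMap 𝒪 T d.i2) Ph 2 := by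
    have h5 : f (X 5) = Ph 1 0 - algebraMap 𝒪 T 0 := hX 2
    rw [h5, map_zero, sub_zero]
    rfl
  have hfa : f (s59u_lb_aP d hu1m) = s59i_ht (algebraMap 𝒪 T d.i2) Ph := by
    refine s59u_lb_sqrt_unique _ _ (algebraMap 𝒪 T d.a0) (algebraMap 𝒪 T d.i2) hi2
      ((s59u_lb_isUnit_a0 d (s59r_isUnit_one_add d hu1m)).map _) ?_ ?_ ?_
    · rw [← map_pow, s59u_lb_aP_sq, s59u_lb_tP, map_add, map_add, map_pow, map_add, map_mul,
        map_add, hC, hC, hC, e3, e4, e5]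
      exact (s59i_sq_of_det _ _ hi2 Ph hdet).symm
    · have := hf _ (s59u_lb_aP_mem d hu1m)
      rwa [map_sub, hC] at this
    · exact s59u_lb_ht_sub_mem _ Ph _ _ _ (hres 0 0) (hres 1 1) (s59u_lb_a0_eq d)
  rw [map_mul, map_ofNat, hfa]
  exact s59u_lb_tr_eq _ hi2 Ph

include hu1m hu1n in
/-- `tgtOf` for the model (+1n). -/
theorem s59u_lb_tgtOfP (T : Type) [CommRing T] [IsLocalRing T] [IsDomain T]
    [IsAdicComplete (maximalIdeal T) T] [Algebra 𝒪 T]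
    (hinj : Function.Injective (algebraMap 𝒪 T))
    (hloc : ∀ t ∈ maximalIdeal 𝒪, algebraMap 𝒪 T t ∈ maximalIdeal T)
    (v : Fin 6 → T) (hv : ∀ k, v k ∈ maximalIdeal T) (hrel : s59r_relP d T v)
    (hne : ¬ (v 0 = 0 ∧ v 1 = 0 ∧ v 2 = 0)) :
    ∃ (y : Fin 3 → T) (hy : ∀ j, y j ∈ maximalIdeal T),
      ∀ k, v k = evalHom (R := 𝒪) (maximalIdeal T) y hy (s59r_parP d 1 k) := by
  obtain ⟨c, y, hy, h⟩ := s59r_killP d hu1m hu1n T hinj hloc v hv hrel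
  fin_cases c
  · exfalso
    refine hne ⟨?_, ?_, ?_⟩
    · exact (h 0).trans (map_zero _)
    · exact (h 1).trans (map_zero _)
    · exact (h 2).trans (map_zero _)
  · exact ⟨y, hy, h⟩

/-- **the local bridge datum of the model (+1n)** (`q ≡ 1 (p)`, non-scalar residual Frobenius). -/
def s59u_lb_locBrP : s59f_LocBr 𝒪 d.i2 where
  Λ := s59r_modelP d hu1m hu1n
  D := s59r_raiseP d hu1m hu1n
  u := d.u
  lam := ![d.i2, -d.i2]
  sh := ![d.f0, d.ε, 0]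
  M0 := s59u_lb_M0P d
  fp := s59f_fpRow
  hlam := by
    rw [s59u_lb_M0P_map d hu1m]
    exact s59f_hlam_Jd d.i2 d.hi2 _ _ (s59u_lb_residue_ne_zero (s59l_isUnit_eps d.hε))
  hsh := by
    intro k
    rw [s59u_lb_M0P_map d hu1m]
    refine s59f_hsh_Jd d.i2 d.f0 d.ε _ _ ?_ rfl k
    exact (residue_eq_zero_iff _).mpr (s59r_f0_mem d hu1m)
  hfp := by
    intro Δ hc h0 h1
    rw [s59u_lb_M0P_map d hu1m] at hc
    exact s59f_hfp_jordan _ _ (s59u_lb_residue_ne_zero (s59l_isUnit_eps d.hε)) Δ hc h0 h1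
  unr_par := rfl
  relOf := fun T _ _ _ Sg Ph h1 htr ht hdet hres => s59u_lb_relOfP d T Sg Ph h1 htr ht hdet hres
  g12 := 2 * s59u_lb_aP d hu1m
  hg12 := s59r_gramP d (s59u_lb_aP d hu1m) (s59u_lb_aP_sq d hu1m)
  trOf := fun T _ _ _ f Ph hf hX hdet hres => s59u_lb_trOfP d hu1m T f Ph hf hX hdet hres
  tr0 := d.ε * (d.u + 1)
  tgtOf := fun T _ _ _ _ _ hinj hloc v hv hrel hne _ =>
    s59u_lb_tgtOfP d hu1m hu1n T hinj hloc v hv hrel hne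

end P

end Fermat.Agent.Lib.S59
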