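/-
PROGRAMME R2 = S59, node [PATCH-FLR] (flat case), helper4 (prefix `s59f_`): **THE LOCAL BRIDGE DATA AT
A RAISING PRIME `q ≠ p`** for a residual representation with Frobenius polynomial
`(X − ε̄q)(X − ε̄)`, `ε = ±1`:

* `s59f_exists_frameJ`   : a constant frame putting a NON-SCALAR `ρ̄(φ)` with `charpoly = (X − α)²` in the
                           Jordan shape `(α, α; 0, α)`;
* `s59f_central_of_scalar`: `ρ̄` unramified at `q` with SCALAR Frobenius ⟹ `s59q_CentralAt ρ̄ q`;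
* `s59f_exists_locBr`    : the local model `L : s59f_LocBr 𝒪 i2` (helper3's `s59u_lb_locBrE/MP/P`
                           according to `q ≢ ±1`, `q ≡ −1`, `q ≡ 1` non-scalar mod `p`) with the frames
                           `P, P'`, `L.u = q`, `L.tr0 = ε(q+1)`.
-/
import Mathlib
import Fermat.Agent.Lib.S59.QWRB
import Fermat.Agent.Lib.S59.ULocBrM
import Fermat.Agent.Lib.S59.ULocBrP

set_option autoImplicit false
set_option linter.unusedSectionVars false
set_option linter.unusedVariables false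
set_option linter.style.haveILetI false
set_option maxHeartbeats 1600000
set_option synthInstance.maxHeartbeats 400000

noncomputable section

namespace Fermat.Agent.Lib.S59

open IsLocalRing Module Polynomial ExtCitation Fermat.Agent.Lib.S56
open Fermat.Agent.Lib.S53 (matOf matOfRes matOfRes_apply NormData)

local notation "Γℚ" => (AlgebraicClosure ℚ ≃ₐ[ℚ] AlgebraicClosure ℚ)

section Frame

variable {𝒪 : Type} [CommRing 𝒪] [IsLocalRing 𝒪]

/-- **a constant frame putting a non-scalar `ρ̄(φ)` with a double eigenvalue `α ≠ 0` in Jordan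
shape.** -/
theorem s59f_exists_frameJ (ρbar : ResidualGaloisRep (ResidueField 𝒪))
    (b : Basis (Fin 2) (ResidueField 𝒪) ρbar.V) (φ : Γℚ) (α : ResidueField 𝒪) (hα : α ≠ 0)
    (hcp : LinearMap.charpoly (ρbar.ρ φ) = (X - C α) * (X - C α))
    (hns : ρbar.ρ φ ≠ α • 1) :
    ∃ Pm P'm : Matrix (Fin 2) (Fin 2) 𝒪, Pm * P'm = 1 ∧ P'm * Pm = 1 ∧
      P'm.map (residue 𝒪) * matOfRes ρbar b φ * Pm.map (residue 𝒪) = !![α, α; 0, α] := by
  set f := ρbar.ρ φ with hf
  set g : Module.End (ResidueField 𝒪) ρbar.V := f - α • 1 with hg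
  have hg2 : g * g = 0 := by
    have := LinearMap.aeval_self_charpoly f
    rw [hcp] at this
    simpa [hg, Algebra.smul_def] using this
  have hg0 : g ≠ 0 := fun h => hns (sub_eq_zero.mp h)
  obtain ⟨v, hv⟩ : ∃ v, g v ≠ 0 := by
    by_contra hall
    apply hg0
    ext v
    by_contra h
    exact hall ⟨v, h⟩
  have hgg : ∀ w, g (g w) = 0 := fun w => by
    have := LinearMap.congr_fun hg2 w
    simpa using this
  obtain ⟨e1, he1⟩ : ∃ e1 : ρbar.V, e1 = α⁻¹ • g v := ⟨_, rfl⟩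
  have he1ne : e1 ≠ 0 := by
    rw [he1]
    exact smul_ne_zero (inv_ne_zero hα) hv
  have hge1 : g e1 = 0 := by rw [he1, map_smul, hgg, smul_zero]
  have hfe1 : f e1 = α • e1 := by
    have : g e1 = f e1 - α • e1 := by rw [hg]; simp
    rw [hge1] at this
    exact (sub_eq_zero.mp this.symm)
  have hfv : f v = α • e1 + α • v := by
    have : g v = f v - α • v := by rw [hg]; simp
    rw [he1, smul_smul, mul_inv_cancel₀ hα, one_smul, this]
    abel
  have hli : LinearIndependent (ResidueField 𝒪) ![e1, v] := by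
    rw [LinearIndependent.pair_iff]
    intro s t hst
    have h1 := congrArg g hst
    rw [map_add, map_smul, map_smul, hge1, smul_zero, zero_add, map_zero] at h1
    have ht : t = 0 := (smul_eq_zero.mp h1).resolve_right hv
    rw [ht, zero_smul, add_zero] at hst
    exact ⟨(smul_eq_zero.mp hst).resolve_right he1ne, ht⟩
  have hcard : Fintype.card (Fin 2) = Module.finrank (ResidueField 𝒪) ρbar.V := by
    rw [ρbar.finrank_eq, Fintype.card_fin]
  set w : Basis (Fin 2) (ResidueField 𝒪) ρbar.V := basisOfLinearIndependentOfCardEqFinrank hli hcard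
    with hw
  have hw0 : w 0 = e1 := by rw [hw, coe_basisOfLinearIndependentOfCardEqFinrank]; rfl
  have hw1 : w 1 = v := by rw [hw, coe_basisOfLinearIndependentOfCardEqFinrank]; rfl
  have hJ : LinearMap.toMatrix w w f = !![α, α; 0, α] := by
    ext i j
    rw [LinearMap.toMatrix_apply]
    fin_cases j
    · show w.repr (f (w 0)) i = _
      rw [hw0, hfe1, ← hw0, map_smul, Basis.repr_self, Finsupp.smul_apply, Finsupp.single_apply]
      fin_cases i <;> simp
    · show w.repr (f (w 1)) i = _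
      rw [hw1, hfv, ← hw0, ← hw1, map_add, map_smul, map_smul, Basis.repr_self, Basis.repr_self,
        Finsupp.add_apply, Finsupp.smul_apply, Finsupp.smul_apply, Finsupp.single_apply,
        Finsupp.single_apply]
      fin_cases i <;> simp
  obtain ⟨Pm, P'm, h1, h2, h3, h4⟩ := s59q_exists_lift_inv (𝒪 := 𝒪) (b.toMatrix w) (w.toMatrix b)
    (Basis.toMatrix_mul_toMatrix_flip b w) (Basis.toMatrix_mul_toMatrix_flip w b)
  refine ⟨Pm, P'm, h1, h2, ?_⟩
  rw [h3, h4, matOfRes_apply, ← hJ]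
  exact basis_toMatrix_mul_linearMap_toMatrix_mul_basis_toMatrix w b w b f

end Frame

section Central

variable {k : Type} [Field k]

/-- **`ρ̄` unramified at `q` with scalar Frobenius is central at `q`** (generic form of helper6's
`s59q_W_central`). -/
theorem s59f_central_of_scalar (ρb : ResidualGaloisRep k) (q : Nat.Primes)
    (hunr : ρb.IsUnramifiedAt q) (φq : Γℚ) (hφq : (primeLocalPlace q).IsFrobeniusAt φq q)
    (c : k) (hφsc : ρb.ρ φq = c • 1) : s59q_CentralAt ρb q := by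
  intro τ X
  obtain ⟨L, hL, hLρ⟩ := ρb.factorsThroughFiniteLevel
  obtain ⟨j, ι, hι, hfix⟩ := s56g_ifaceFrobGen q q.2 (primeLocalPlace q)
    (s56g_place_liesOver (q := q)) φq hφq L hL (primeLocalToGlobal q τ)
    (s56g_loc_mem_decomp (q := q) τ)
  have h1 : ρb.ρ ((φq ^ j * ι)⁻¹ * primeLocalToGlobal q τ) = 1 :=
    hLρ _ fun x hx => (IntermediateField.mem_fixingSubgroup_iff L _).1 hfix x hx
  have h2 : ρb.ρ (primeLocalToGlobal q τ) = ρb.ρ (φq ^ j * ι) := by
    have h3 : primeLocalToGlobal q τ =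
        (φq ^ j * ι) * ((φq ^ j * ι)⁻¹ * primeLocalToGlobal q τ) := by
      group
    rw [h3, map_mul, h1, mul_one]
  have h4 : ρb.ρ (φq ^ j * ι) = (c ^ j) • 1 := by
    rw [map_mul, map_pow, hunr _ (s56g_place_liesOver (q := q)) ι hι, mul_one, hφsc,
      _root_.smul_pow, one_pow]
  rw [h2, h4, smul_mul_assoc, one_mul, mul_smul_comm, mul_one]

end Central

section LocBr

variable {𝒪 : Type} [CommRing 𝒪] [IsDomain 𝒪] [IsDiscreteValuationRing 𝒪]
  [IsAdicComplete (maximalIdeal 𝒪) 𝒪] [Finite (ResidueField 𝒪)] [CharZero 𝒪]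
  {p : ℕ} [hpP : Fact p.Prime] (hp𝒪 : ((p : ℕ) : 𝒪) ∈ maximalIdeal 𝒪)

include hp𝒪 in
/-- a natural number prime to `p` is a unit of `𝒪`. -/
theorem s59f_isUnit_natCast (n : ℕ) (h : ¬ p ∣ n) : IsUnit ((n : ℕ) : 𝒪) := by
  haveI : CharP (ResidueField 𝒪) p := s59e_charP_residue p hp𝒪
  apply (residue_ne_zero_iff_isUnit _).mp
  rw [map_natCast]
  intro h0
  exact h ((CharP.cast_eq_zero_iff (ResidueField 𝒪) p n).mp h0)

include hp𝒪 in
/-- a natural number divisible by `p` lies in the maximal ideal. -/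
theorem s59f_natCast_mem (n : ℕ) (h : p ∣ n) : ((n : ℕ) : 𝒪) ∈ maximalIdeal 𝒪 := by
  obtain ⟨c, rfl⟩ := h
  push_cast
  exact Ideal.mul_mem_right _ _ hp𝒪

include hp𝒪 in
/-- **the local bridge model at a raising prime `q ≠ p`** with residual Frobenius polynomial
`(X − ε̄q)(X − ε̄)`, non-scalar Frobenius if `q ≡ 1 mod p`. -/
theorem s59f_exists_locBr (ρbar : ResidualGaloisRep (ResidueField 𝒪))
    (b : Basis (Fin 2) (ResidueField 𝒪) ρbar.V) (q : ℕ) (hq : q.Prime) (hqp : q ≠ p) (φ : Γℚ)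
    (ε : 𝒪) (hε : ε = 1 ∨ ε = -1)
    (hcp : LinearMap.charpoly (ρbar.ρ φ) =
      (X - C (residue 𝒪 (ε * ((q : ℕ) : 𝒪)))) * (X - C (residue 𝒪 ε)))
    (hns : p ∣ q - 1 → ρbar.ρ φ ≠ residue 𝒪 ε • 1) (i2 : 𝒪) (hi2 : 2 * i2 = 1) :
    ∃ (Pm P'm : Matrix (Fin 2) (Fin 2) 𝒪) (L : s59f_LocBr 𝒪 i2), Pm * P'm = 1 ∧ P'm * Pm = 1 ∧
      P'm.map (residue 𝒪) * matOfRes ρbar b φ * Pm.map (residue 𝒪) = L.M0.map (residue 𝒪) ∧
      L.u = ((q : ℕ) : 𝒪) ∧ L.tr0 = ε * (((q : ℕ) : 𝒪) + 1) := by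
  have hpq : ¬ p ∣ q := fun h => hqp ((Nat.prime_dvd_prime_iff_eq hpP.out hq).mp h).symm
  have hε2 : ε ^ 2 = 1 := by rcases hε with h | h <;> rw [h] <;> ring
  have hεu : IsUnit ε := by
    rcases hε with h | h
    · rw [h]; exact isUnit_one
    · rw [h]; exact isUnit_one.neg
  have hresε : residue 𝒪 ε ≠ 0 := (residue_ne_zero_iff_isUnit _).mpr hεu
  set d : s59r_UData 𝒪 :=
    { u := ((q : ℕ) : 𝒪), ε := ε, i2 := i2, hi2 := hi2, hε := hε2,
      hu0 := s59f_isUnit_natCast hp𝒪 q hpq } with hd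
  have e1 : (1 : 𝒪) - ((q : ℕ) : 𝒪) = -(((q - 1 : ℕ) : ℕ) : 𝒪) := by
    rw [Nat.cast_sub hq.one_lt.le]; push_cast; ring
  have e2 : (1 : 𝒪) + ((q : ℕ) : 𝒪) = (((q + 1 : ℕ) : ℕ) : 𝒪) := by push_cast; ring
  have hn1 : (1 : 𝒪) - ((q : ℕ) : 𝒪) ≠ 0 := by
    rw [e1, neg_ne_zero]
    exact Nat.cast_ne_zero.mpr (Nat.sub_ne_zero_of_lt hq.one_lt)
  have hn2 : (1 : 𝒪) + ((q : ℕ) : 𝒪) ≠ 0 := by
    rw [e2]
    exact Nat.cast_ne_zero.mpr (Nat.succ_ne_zero q)
  by_cases h1 : p ∣ q - 1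
  · -- `q ≡ 1`: the Jordan model
    have hu1m : (1 : 𝒪) - d.u ∈ maximalIdeal 𝒪 := by
      show (1 : 𝒪) - ((q : ℕ) : 𝒪) ∈ maximalIdeal 𝒪
      rw [e1]
      exact neg_mem (s59f_natCast_mem hp𝒪 _ h1)
    have hresq : residue 𝒪 (ε * ((q : ℕ) : 𝒪)) = residue 𝒪 ε := by
      have h := (residue_eq_zero_iff _).mpr hu1m
      rw [map_sub, map_one] at h
      have h' : residue 𝒪 ((q : ℕ) : 𝒪) = 1 := (sub_eq_zero.mp h).symm
      rw [map_mul, h', mul_one]
    rw [hresq] at hcp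
    obtain ⟨Pm, P'm, hP1, hP2, hP3⟩ := s59f_exists_frameJ ρbar b φ (residue 𝒪 ε) hresε hcp (hns h1)
    refine ⟨Pm, P'm, s59u_lb_locBrP d hu1m hn1, hP1, hP2, ?_, rfl, rfl⟩
    rw [hP3]
    exact (s59u_lb_M0P_map d hu1m).symm
  · have hu1 : IsUnit ((1 : 𝒪) - d.u) := by
      show IsUnit ((1 : 𝒪) - ((q : ℕ) : 𝒪))
      rw [e1]
      exact (s59f_isUnit_natCast hp𝒪 _ h1).neg
    have hαβ : residue 𝒪 (ε * ((q : ℕ) : 𝒪)) ≠ residue 𝒪 ε := by
      intro h
      have h' : residue 𝒪 (ε * (1 - ((q : ℕ) : 𝒪))) = 0 := by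
        rw [mul_sub, mul_one, map_sub, h, sub_self]
      exact (residue_ne_zero_iff_isUnit _).mpr (hεu.mul hu1) h'
    obtain ⟨Pm, P'm, hP1, hP2, hP3⟩ := s59q_exists_frame ρbar b φ _ _ hαβ hcp
    have hM0 : (s59u_lb_M0E d).map (residue 𝒪) =
        Matrix.diagonal ![residue 𝒪 (ε * ((q : ℕ) : 𝒪)), residue 𝒪 ε] :=
      s59u_lb_diag_map _ _
    by_cases h2 : p ∣ q + 1
    · -- `q ≡ −1`
      have hu2m : (1 : 𝒪) + d.u ∈ maximalIdeal 𝒪 := by
        show (1 : 𝒪) + ((q : ℕ) : 𝒪) ∈ maximalIdeal 𝒪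
        rw [e2]
        exact s59f_natCast_mem hp𝒪 _ h2
      refine ⟨Pm, P'm, s59u_lb_locBrMP d hu1 hu2m hn2, hP1, hP2, ?_, rfl, rfl⟩
      rw [hP3]
      exact hM0.symm
    · -- generic
      have hu2 : IsUnit ((1 : 𝒪) + d.u) := by
        show IsUnit ((1 : 𝒪) + ((q : ℕ) : 𝒪))
        rw [e2]
        exact s59f_isUnit_natCast hp𝒪 _ h2
      refine ⟨Pm, P'm, s59u_lb_locBrE d hu1 hu2, hP1, hP2, ?_, rfl, rfl⟩
      rw [hP3]
      exact hM0.symm

end LocBr

end Fermat.Agent.Lib.S59
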