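/-
PROGRAMME R2 = S59, node [PATCH-FLR] (flat case), helper4 (prefix `s59f_`): **THE TOP OF THE FLAT
LEVEL-RAISING PATCH**: `W` semistable, good at `p`, `ρ̄_{W,p}` irreducible and modular of a squarefree
level `N₀` prime to `p` all of whose primes are ramified primes of `ρ̄` or of type (E2′) — and NO
hypothesis on the bad primes of `W` (helper5's `s59e_Lmin_flat` needs every bad prime `≠ p` of `W` to
be a ramified prime of `ρ̄`).  The raising primes are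
`Rs = {q ≠ p : W bad at q, ρ̄ unramified at q, ρ_W ⊗ 𝒪 ramified at q}`:

* `Rs = ∅`  : `s59f_Lmin_abs_unr` (= helper5's `s59e_Lmin_abs` with `hbadS` weakened to `hunrW`) over
              helper5's minimal `T`-side `s59e_TPkgLH`;
* `Rs ≠ ∅`  : `s59f_FLR_W_core` (FAsmW4) over the `T`-side contract `s59f_TPkgFLR p W hΔ N₀`.

* **`s59f_FLR_flat`**    : a Hecke point `χ` of a squarefree level `N` prime to `p` with `χ(T_ℓ) = a_ℓ(W)`;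
* **`s59f_FLR_heckePt`** : the same in the shape of helper1's `s59g_HeckePt W p`, from a minimal level `M`
                           under `hT23` (verbatim the statement of helper5's `s59e_Lmin_heckePt` minus `hbad`).
-/
import Mathlib
import Fermat.Agent.Lib.S59.FAsmW4
import Fermat.Agent.Lib.S59.ELMin
import Fermat.Agent.Lib.S59.FAsmHD

set_option autoImplicit false
set_option linter.unusedSectionVars false
set_option linter.unusedVariables false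
set_option linter.style.haveILetI false
set_option maxHeartbeats 3200000
set_option synthInstance.maxHeartbeats 400000

noncomputable section

namespace Fermat.Agent.Lib.S59

open IsLocalRing CuspForm Polynomial
open Fermat.Agent.Lib.S53 (matOf matOfRes NormData)
open Fermat.Agent.Lib.Deform (IsTestAlgebra)
open Fermat.Agent.Lib.S56 Fermat.Agent.Lib.S44

local notation "Γℚ" => (AlgebraicClosure ℚ ≃ₐ[ℚ] AlgebraicClosure ℚ)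

/-- **[PATCH-min], flat case, over an abstract `T`-side** — helper5's `s59e_Lmin_abs` with the hypothesis
`hbadS` (every bad prime `≠ p` of `W` is in `Σ_min`) weakened to `hunrW` (`ρ_W ⊗ 𝒪` is unramified at the bad
primes outside `Σ_min`). -/
theorem s59f_Lmin_abs_unr (p : ℕ) [Fact p.Prime] (hp2 : p ≠ 2) (W : WeierstrassCurve ℤ) (hΔ : W.Δ ≠ 0)
    (N : ℕ) [NeZero N] (B : Finset ℕ)
    (hss : W.IsSemistableModel) (hirr : W.ModRepIsIrreducible p) (hsq : Squarefree N)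
    (hpN : ¬ p ∣ N)
    (hB1 : ∀ r : ℕ, r.Prime → r ∣ N * p → r ∈ B)
    (hB2 : ∀ r : ℕ, r.Prime → ¬ W.IsGoodPrimeFor r → r ∈ B)
    (hocc : s44i_LevelOcc N p (fun ℓ => W.apOfModel ℓ) B)
    (hgoodp : W.IsGoodPrimeFor p)
    (𝒪 : Type) [CommRing 𝒪] [IsDomain 𝒪] [IsDiscreteValuationRing 𝒪]
    [IsAdicComplete (maximalIdeal 𝒪) 𝒪] [Finite (ResidueField 𝒪)] [CharZero 𝒪]
    [Algebra ℤ_[p] 𝒪] [Module.Finite ℤ_[p] 𝒪]
    (hp𝒪 : ((p : ℕ) : 𝒪) ∈ maximalIdeal 𝒪)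
    (Rd : s59i_RData p N (s59i_rhobarW W p hΔ 𝒪 hp𝒪) B (∅ : Finset ℕ))
    (hm : Rd.m = 0) (he : Rd.e = 0)
    (hunrW : ∀ q : ℕ, q.Prime → q ≠ p → ¬ W.IsGoodPrimeFor q → q ∉ Rd.Smin →
      (s59q_WRho W hΔ hp𝒪).IsUnramifiedAt q)
    (HT : ∀ (D0 : GaloisRep.DeformationRingData 𝒪 (s59i_rhobarW W p hΔ 𝒪 hp𝒪) (fun _A _ _ _ ρ =>
        GaloisRep.flatCondition 𝒪 p (Rd.Smin ∪ ((∅ : Finset ℕ) ∪ Rd.Ed) ∪ (∅ : Finset ℕ)) ρ ∧
          ∀ q ∈ Rd.Smin, q.Prime → q ≠ p → ρ.IsUnipotentOnInertiaAt q)) (r : ℕ),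
      ∃ Bs : s59e_TBaseL 𝒪 D0,
        (∃ hk : heckeAlgebra N 2 (↑B : Set ℕ) →+* Bs.R,
          ∀ (ℓ : ℕ) (hℓ : ℓ.Prime) (hℓN : ¬ ℓ ∣ N) (hℓB : ℓ ∉ (↑B : Set ℕ)),
          ∀ A : ValuationSubring (AlgebraicClosure ℚ), A.LiesOverPrime ℓ →
          ∀ g : Γℚ, A.IsFrobeniusAt g ℓ →
            LinearMap.charpoly (Bs.ρR.ρ g) =
              X ^ 2 - C (hk (heckeAlgebra.T hℓ hℓN hℓB)) * X + C ((ℓ : Bs.R))) ∧
        ∀ (n : ℕ) (qv : Fin r → ℕ), Function.Injective qv →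
          (∀ i, (qv i).Prime ∧ qv i ∉ B ∧ p ^ (n + 1) ∣ qv i - 1) →
          (∀ i, ∀ A : ValuationSubring (AlgebraicClosure ℚ), A.LiesOverPrime (qv i) →
            ∀ φ : Γℚ, A.IsFrobeniusAt φ (qv i) →
              ∃ α β : ResidueField 𝒪, α ≠ β ∧
                LinearMap.charpoly ((s59i_rhobarW W p hΔ 𝒪 hp𝒪).ρ φ) = (X - C α) * (X - C β)) →
          ∀ DQ : GaloisRep.DeformationRingData 𝒪 (s59i_rhobarW W p hΔ 𝒪 hp𝒪) (fun _A _ _ _ ρ =>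
            GaloisRep.flatCondition 𝒪 p
                (Rd.Smin ∪ ((∅ : Finset ℕ) ∪ Rd.Ed) ∪ Finset.univ.image qv) ρ ∧
              ∀ q ∈ Rd.Smin, q.Prime → q ≠ p → ρ.IsUnipotentOnInertiaAt q),
            Nonempty (s59e_TLevelL 𝒪 p n r (s59q_ZIdx Rd.m Rd.e) Bs.R Bs.M Bs.ρR Bs.d qv DQ)) :
    ∃ χ : heckeAlgebra N 2 (↑B : Set ℕ) →+* 𝒪,
      ∀ (ℓ : ℕ) (hℓ : ℓ.Prime) (hℓN : ¬ ℓ ∣ N) (hℓB : ℓ ∉ (↑B : Set ℕ)),
        χ (heckeAlgebra.T hℓ hℓN hℓB) = ((W.apOfModel ℓ : ℤ) : 𝒪) := by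
  classical
  have hpP : p.Prime := Fact.out
  have hpB : p ∈ B := hB1 p hpP (Dvd.intro_left N rfl)
  -- the `R`-side
  obtain ⟨r, hr, H⟩ := s59q_inst_flat p hp2 hp𝒪 (s59i_rhobarW W p hΔ 𝒪 hp𝒪) Rd.habs Rd.hdet
    Rd.hsplit Rd.hTW B Rd.Smin (∅ : Finset ℕ) Rd.Ed Rd.hpSmin Rd.hSmin Rd.hBS Rd.hES Rd.hBprime
    Rd.hEprime Rd.hmin Rd.hBunr Rd.hEunr Rd.hBE Rd.hcen Rd.Nd Rd.m Rd.e Rd.pr Rd.hprB Rd.hprE
    Rd.hBinj Rd.hEinj Rd.σq Rd.φq Rd.hσq Rd.hφq Rd.D.i2 Rd.D.hi2 Rd.P Rd.P' Rd.hPP' Rd.hP'P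
    Rd.αE Rd.βE Rd.hαβ Rd.hαβ' Rd.hdiag
  choose qv hqv1 hqv2 hqv3 hqv4 using H
  -- the universal rings
  obtain ⟨D0⟩ : Nonempty (GaloisRep.DeformationRingData 𝒪 (s59i_rhobarW W p hΔ 𝒪 hp𝒪)
      (fun _A _ _ _ ρ =>
        GaloisRep.flatCondition 𝒪 p (Rd.Smin ∪ ((∅ : Finset ℕ) ∪ Rd.Ed) ∪ (∅ : Finset ℕ)) ρ ∧
          ∀ q ∈ Rd.Smin, q.Prime → q ≠ p → ρ.IsUnipotentOnInertiaAt q)) := by
    have h := s59e_W_existDQ W p hΔ hp2 hirr N B hB1 hB2 hocc 𝒪 hp𝒪 Rd.habs hsq hpN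
      (∅ : Finset ℕ) Rd 0 Fin.elim0
    simpa only [Finset.univ_eq_empty, Finset.image_empty] using h
  let 𝒟 : ℕ → ∀ ⦃A : Type⦄ [CommRing A] [IsLocalRing A] [Algebra 𝒪 A], GaloisRepAdic A → Prop :=
    fun n _A _ _ _ ρ =>
      GaloisRep.flatCondition 𝒪 p
          (Rd.Smin ∪ ((∅ : Finset ℕ) ∪ Rd.Ed) ∪ Finset.univ.image (qv n)) ρ ∧
        ∀ q ∈ Rd.Smin, q.Prime → q ≠ p → ρ.IsUnipotentOnInertiaAt q
  let DQ : ∀ n, GaloisRep.DeformationRingData 𝒪 (s59i_rhobarW W p hΔ 𝒪 hp𝒪) (𝒟 n) := fun n =>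
    (s59e_W_existDQ W p hΔ hp2 hirr N B hB1 hB2 hocc 𝒪 hp𝒪 Rd.habs hsq hpN
      (∅ : Finset ℕ) Rd r (qv n)).some
  choose bR hbR using fun n => s56a_exists_basisR (DQ n) Rd.Nd
  -- monotonicity of the type
  have hmono : ∀ (n : ℕ) {A : Type} [CommRing A] [IsLocalRing A] [Algebra 𝒪 A]
      (ρ : GaloisRepAdic A),
      (GaloisRep.flatCondition 𝒪 p (Rd.Smin ∪ ((∅ : Finset ℕ) ∪ Rd.Ed) ∪ (∅ : Finset ℕ)) ρ ∧
        ∀ q ∈ Rd.Smin, q.Prime → q ≠ p → ρ.IsUnipotentOnInertiaAt q) → 𝒟 n ρ := by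
    intro n A _ _ _ ρ h
    refine ⟨⟨h.1.1, h.1.2.1, fun q hq hqS => h.1.2.2 q hq fun hmem => hqS ?_⟩, h.2⟩
    rcases Finset.mem_union.mp hmem with h' | h'
    · exact Finset.mem_union_left _ h'
    · exact absurd h' (Finset.notMem_empty q)
  -- the `T`-side
  obtain ⟨Bs, ⟨hk, hhk⟩, HL⟩ := HT D0 r
  let TL : ∀ n, s59e_TLevelL 𝒪 p n r (s59q_ZIdx Rd.m Rd.e) Bs.R Bs.M Bs.ρR Bs.d (qv n) (DQ n) :=
    fun n => (HL n (qv n) (hqv1 n) (hqv2 n) (hqv3 n) (DQ n)).some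
  -- the bridge
  have hγ := fun n => hqv4 n (DQ n) (bR n) (hbR n) (T := (DQ n).R) (s56a_isTestAlgebra_R (DQ n))
    (AlgHom.id 𝒪 (DQ n).R) Function.surjective_id
  choose γ hγs hγ1 hγ2 hγ3 hγ4 using hγ
  -- dimensions
  have hcard : Fintype.card (s59q_GIdx Rd.m Rd.e (r + Rd.m + Rd.e)) = r := by
    simp only [Fintype.card_sum, Fintype.card_prod, Fintype.card_fin, hm, he]
    omega
  haveI : IsDomain (MvPowerSeries (s59q_GIdx Rd.m Rd.e (r + Rd.m + Rd.e)) 𝒪) :=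
    NoZeroDivisors.to_isDomain _
  have hdim : ringKrullDim (MvPowerSeries (s59q_GIdx Rd.m Rd.e (r + Rd.m + Rd.e)) 𝒪) ≤
      ringKrullDim (MvPowerSeries (s59q_ZIdx Rd.m Rd.e) (MvPowerSeries (Fin r) 𝒪)) := by
    rw [s59i_dim_mvPowerSeries 𝒪, s59i_dim_mvPowerSeries (MvPowerSeries (Fin r) 𝒪),
      s59p_pmdim 𝒪 r, hcard]
    exact le_add_of_nonneg_right (by exact_mod_cast Nat.zero_le _)
  -- the unramified traces at the Taylor–Wiles primes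
  have hunrQ : ∀ n i, s59i_cpTr D0.ρ ((TL n).σQ i) = 2 := by
    intro n i
    obtain ⟨A, hA, hσ⟩ := (TL n).hσQ i
    have hq := hqv2 n i
    have hnot : qv n i ∉ Rd.Smin ∪ ((∅ : Finset ℕ) ∪ Rd.Ed) ∪ (∅ : Finset ℕ) := by
      intro hmem
      rcases Finset.mem_union.mp hmem with h' | h'
      · rcases Finset.mem_union.mp h' with h'' | h''
        · exact hq.2.1 (Rd.hSmin h'')
        · rcases Finset.mem_union.mp h'' with h3 | h3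
          · exact absurd h3 (Finset.notMem_empty _)
          · exact hq.2.1 (Rd.hES h3)
      · exact absurd h' (Finset.notMem_empty _)
    exact s59e_Lmin_cpTr_one D0.ρ _ (D0.isOfType.1.2.2 (qv n i) hq.1 hnot A hA _ hσ)
  -- `ker ν` is nil
  have hnil := s59f_FINL_absA p Rd.D.i2 Rd.D.hi2 D0 DQ Rd.Nd
    (s56a_tangentStable_flat 𝒪 p _ Rd.Smin) (fun n => hmono n D0.ρ D0.isOfType) r
    (MvPowerSeries (s59q_GIdx Rd.m Rd.e (r + Rd.m + Rd.e)) 𝒪) hdim γ hγs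
    Bs.R Bs.hRres Bs.M Bs.ρR (fun n => hmono n Bs.ρR Bs.hρR) Bs.hresR Bs.ν Bs.hν Bs.hνs
    (s59t_frameA (s59q_ZIdx Rd.m Rd.e) (RingHom.ker (MvPowerSeries.constantCoeff (σ := Fin r) (R := 𝒪))))
    (s59e_L_frameA_CX (s59q_ZIdx Rd.m Rd.e)) (s59e_L_frameA_X (s59q_ZIdx Rd.m Rd.e))
    (s59e_L_frameA_le (s59q_ZIdx Rd.m Rd.e))
    (fun n => s59t_frameJ (s59q_ZIdx Rd.m Rd.e) (s59t_JH 𝒪 p n r))
    (fun n => s59t_frameJ_JH_le (s59q_ZIdx Rd.m Rd.e) hp2 hp𝒪 n r)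
    (fun n => (TL n).T') (fun n => (TL n).T) (fun n => (TL n).θ) (fun n => (TL n).hθ)
    (fun n => (TL n).L0) Bs.d (fun n => (TL n).hd) (fun n => (TL n).std) (fun n => (TL n).hstd)
    (fun n => (TL n).hψ𝒪) (fun n => (TL n).uu) (fun n => (TL n).huu) (fun n => (TL n).hgen)
    (fun n => (TL n).hstdX) (fun n => (TL n).hstdz) (fun n => (TL n).σQ) (fun n => (TL n).hC8)
    hunrQ (fun n => (TL n).hτ)
  -- the point of `ρ_W ⊗ 𝒪`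
  haveI hlid : IsLocalHom (algebraMap 𝒪 𝒪) := ⟨fun a h => h⟩
  have h𝒟W : GaloisRep.flatCondition 𝒪 p
      (Rd.Smin ∪ ((∅ : Finset ℕ) ∪ Rd.Ed) ∪ (∅ : Finset ℕ)) (s59q_WRho W hΔ hp𝒪) ∧
      ∀ q ∈ Rd.Smin, q.Prime → q ≠ p → (s59q_WRho W hΔ hp𝒪).IsUnipotentOnInertiaAt q := by
    refine ⟨⟨s59q_W_detCyc W hΔ hp𝒪 hp2 hirr,
      s59e_flat hΔ hgoodp (algebraMap ℤ_[p] 𝒪) (s59b_isLocalHom_padic p _ hp𝒪), ?_⟩, ?_⟩
    · intro q hq hqS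
      have hqp : q ≠ p := by
        rintro rfl
        exact hqS (Finset.mem_union_left _ (Finset.mem_union_left _ Rd.hpSmin))
      by_cases hgood : W.IsGoodPrimeFor q
      · exact s59e_bc_unram _ _ _ q (s59b_rhoW_unram hΔ hp2 q hq hqp hgood)
      · exact hunrW q hq hqp hgood fun h =>
          hqS (Finset.mem_union_left _ (Finset.mem_union_left _ h))
    · intro q _ hq hqp
      exact s59e_bc_unip _ _ _ q (s59b_rhoW_unip hΔ hp2 hirr hss q hq hqp)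
  have hfrobW : ∀ ℓ : ℕ, ℓ.Prime → ℓ ∉ B → ∀ P : ValuationSubring (AlgebraicClosure ℚ),
      P.LiesOverPrime ℓ → ∀ σ : Γℚ, P.IsFrobeniusAt σ ℓ →
        LinearMap.charpoly ((s59q_WRho W hΔ hp𝒪).ρ σ) =
          X ^ 2 - C (((W.apOfModel ℓ : ℤ) : 𝒪)) * X + C ((ℓ : 𝒪)) := by
    intro ℓ hℓ hℓB P hP σ hσ
    have hℓp : ℓ ≠ p := fun h => hℓB (h ▸ hpB)
    have hgood : W.IsGoodPrimeFor ℓ := by
      by_contra hbad
      exact hℓB (hB2 ℓ hℓ hbad)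
    rw [s59e_bc_charpoly, s59b_rhoW_charpoly hΔ hp2 hirr ℓ hℓ hgood hℓp P hP σ hσ]
    simp
  have hresW : (s59q_WRho W hΔ hp𝒪).residual.IsEquiv
      ((s59i_rhobarW W p hΔ 𝒪 hp𝒪).baseChangeAlong (ResidueField.map (algebraMap 𝒪 𝒪))) :=
    s59b_hres_of_frob p hp2 hp𝒪 (s59q_WRho W hΔ hp𝒪) Rd.habs B
      (fun ℓ => ((W.apOfModel ℓ : ℤ) : 𝒪)) (fun ℓ => ((W.apOfModel ℓ : ℤ) : 𝒪)) hfrobW
      (fun ℓ _ _ => by
        show ((W.apOfModel ℓ : ℤ) : 𝒪) - ((W.apOfModel ℓ : ℤ) : 𝒪) ∈ maximalIdeal 𝒪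
        rw [sub_self]
        exact Ideal.zero_mem _)
      (s59i_rhobarW W p hΔ 𝒪 hp𝒪)
      (fun ℓ hℓ hℓS A hA σ hσ =>
        s59e_rhobarW_charpoly_frob hΔ hp2 hirr hp𝒪 B hpB hB2 ℓ hℓ hℓS A hA σ hσ)
  obtain ⟨x, ⟨hx, ex⟩, -⟩ := D0.universal 𝒪 (IsLocalRing.residue_surjective) (s59q_WRho W hΔ hp𝒪)
    h𝒟W hresW
  have hxtr : ∀ g, x (s59i_cpTr D0.ρ g) = s59i_cpTr (s59q_WRho W hΔ hp𝒪) g := fun g =>
    s59e_Lmin_point_trace D0 _ (x : D0.R →+* 𝒪) hx ex g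
  -- the point factors through `Bs.R`
  obtain ⟨χ, hχ⟩ := s59f_FINL_point (Bs.ν : D0.R →+* Bs.R) Bs.hνs hnil (x : D0.R →+* 𝒪)
  refine ⟨χ.comp hk, fun ℓ hℓ hℓN hℓB => ?_⟩
  obtain ⟨A, g, hA, hg⟩ := Fermat.Agent.Lib.Frobenius.exists_isFrobeniusAt ℓ hℓ
  have h1 : s59i_cpTr Bs.ρR g = hk (heckeAlgebra.T hℓ hℓN hℓB) :=
    s59i_cpTr_of_charpoly Bs.ρR g _ _ (hhk ℓ hℓ hℓN hℓB A hA g hg)
  have h2 : s59i_cpTr (s59q_WRho W hΔ hp𝒪) g = ((W.apOfModel ℓ : ℤ) : 𝒪) :=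
    s59i_cpTr_of_charpoly _ g _ _
      (hfrobW ℓ hℓ (fun h => hℓB (Finset.mem_coe.mpr h)) A hA g hg)
  rw [RingHom.comp_apply, ← h1, ← Bs.hν g]
  have h3 := hχ (s59i_cpTr D0.ρ g)
  rw [RingHom.coe_coe] at h3
  rw [h3, RingHom.coe_coe, hxtr g, h2]

/-- **[PATCH-FLR], flat case, at a base level `N₀` with `2 ∣ N₀ ∨ 3 ∣ N₀`** (no hypothesis on the bad
primes of `W`). -/
theorem s59f_FLR_flat (p : ℕ) [Fact p.Prime] (hp35 : p = 3 ∨ p = 5) (hp5 : 5 ≤ p)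
    (W : WeierstrassCurve ℤ) (hΔ : W.Δ ≠ 0) (hss : W.IsSemistableModel)
    (hirr : W.ModRepIsIrreducible p) (hgoodp : W.IsGoodPrimeFor p)
    (N₀ : ℕ) [NeZero N₀] (hsq : Squarefree N₀) (hpN : ¬ p ∣ N₀) (h23 : 2 ∣ N₀ ∨ 3 ∣ N₀)
    (hres : W.IsResiduallyModularOfLevel p N₀)
    (hNtype : ∀ q : ℕ, q.Prime → q ∣ N₀ → ¬ s59_Unr W p q ∨
      (W.IsGoodPrimeFor q ∧ ¬ p ∣ q ^ 2 - 1 ∧
        ¬ (p : ℤ) ∣ (W.apOfModel q : ℤ) ^ 2 - ((q : ℤ) + 1) ^ 2))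
    (HT : s59f_TPkgFLR p W hΔ N₀) :
    ∃ (N : ℕ) (_ : NeZero N) (B : Finset ℕ) (𝒪 : Type) (_ : CommRing 𝒪) (_ : IsDomain 𝒪)
      (_ : CharZero 𝒪) (χ : heckeAlgebra N 2 (↑B : Set ℕ) →+* 𝒪),
      Squarefree N ∧ ¬ p ∣ N ∧
      ∀ (ℓ : ℕ) (hℓ : ℓ.Prime) (hℓN : ¬ ℓ ∣ N) (hℓB : ℓ ∉ (↑B : Set ℕ)),
        χ (heckeAlgebra.T hℓ hℓN hℓB) = ((W.apOfModel ℓ : ℤ) : 𝒪) := by
  classical
  have hpp : p.Prime := Fact.out
  have hp2 : p ≠ 2 := by omega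
  have hN0 : N₀ ≠ 0 := NeZero.ne N₀
  -- the coefficient ring
  obtain ⟨𝒪, i1, i2, i3, i4, i5, i6, i7, i8, i9, hp𝒪, -, hsplit⟩ :=
    s59q_exists_coeffRing_padic p 1 one_pos
  -- the raising primes
  set Rs : Finset ℕ := W.Δ.natAbs.primeFactors.filter (fun q => q ≠ p ∧
    (s59q_WRhobar W hΔ hp𝒪).IsUnramifiedAt q ∧ ¬ (s59q_WRho W hΔ hp𝒪).IsUnramifiedAt q)
    with hRsdef
  have hRs : ∀ q ∈ Rs, q.Prime ∧ q ≠ p ∧ ¬ q ∣ N₀ ∧ ¬ W.IsGoodPrimeFor q ∧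
      (s59q_WRhobar W hΔ hp𝒪).IsUnramifiedAt q ∧
      ¬ (s59q_WRho W hΔ hp𝒪).IsUnramifiedAt q := by
    intro q hq
    obtain ⟨hqΔ, hqp, hU, hram⟩ := Finset.mem_filter.mp hq
    rw [Nat.mem_primeFactors] at hqΔ
    have hbadq : ¬ W.IsGoodPrimeFor q := fun hg => hg (Int.natCast_dvd.mpr hqΔ.2.1)
    refine ⟨hqΔ.1, hqp, ?_, hbadq, hU, hram⟩
    intro hqN
    rcases hNtype q hqΔ.1 hqN with h | ⟨hg, -, -⟩
    · exact h ((s59q_W_unram_iff W hΔ hp𝒪 q).mp hU)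
    · exact hbadq hg
  have hunrW : ∀ q : ℕ, q.Prime → q ∉ s59q_WSmin W hΔ hp𝒪 ∪ Rs →
      (s59q_WRho W hΔ hp𝒪).IsUnramifiedAt q := by
    intro q hq hqS
    have hqSmin : q ∉ s59q_WSmin W hΔ hp𝒪 := fun h => hqS (Finset.mem_union_left _ h)
    have hqRs : q ∉ Rs := fun h => hqS (Finset.mem_union_right _ h)
    have hqp : q ≠ p := fun h => hqSmin (h ▸ s59q_WSmin_p_mem W hΔ hp𝒪)
    by_cases hgood : W.IsGoodPrimeFor q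
    · exact s59e_bc_unram _ _ _ q (s59b_rhoW_unram hΔ hp2 q hq hqp hgood)
    · by_contra hram
      apply hqRs
      refine Finset.mem_filter.mpr ⟨Nat.mem_primeFactors.mpr ⟨hq,
        Int.natCast_dvd.mp (s59q_W_dvd_disc_of_bad W q hq hgood), Int.natAbs_ne_zero.mpr hΔ⟩,
        hqp, ?_, hram⟩
      by_contra hU
      exact hqSmin ((s59q_WSmin_hmin W hΔ hp𝒪 hp2 q hq hqp).mpr hU)
  -- the base level data
  set B : Finset ℕ := (N₀ * p).primeFactors ∪ W.Δ.natAbs.primeFactors with hB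
  have hB1 : ∀ r : ℕ, r.Prime → r ∣ N₀ * p → r ∈ B := fun r hr hd =>
    Finset.mem_union_left _ (Nat.mem_primeFactors.mpr ⟨hr, hd, Nat.mul_ne_zero hN0 hpp.ne_zero⟩)
  have hB2Δ : ∀ r : ℕ, r.Prime → (r : ℤ) ∣ W.Δ → r ∈ B := fun r hr hd =>
    Finset.mem_union_right _ (Nat.mem_primeFactors.mpr
      ⟨hr, Int.natCast_dvd.mp hd, Int.natAbs_ne_zero.mpr hΔ⟩)
  have hB2 : ∀ r : ℕ, r.Prime → ¬ W.IsGoodPrimeFor r → r ∈ B := by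
    intro r hr hbad'
    refine hB2Δ r hr ?_
    by_contra h
    exact hbad' h
  have hpB : p ∈ B := hB1 p hpp (Dvd.intro_left N₀ rfl)
  have hocc := s59e_Lmin_levelOcc W p N₀ B hB1 hB2 hres
  obtain ⟨Rd, hSmin, hm, he⟩ := s59e_Lmin_RData W hΔ hp𝒪 hp35 hss hirr hsplit N₀ B hpB hB2Δ
    (fun q hq hqN => by
      have hqp : q ≠ p := fun h => hpN (h ▸ hqN)
      rcases hNtype q hq hqN with h | ⟨hg, h1, h2⟩
      · exact Or.inl ((s59q_WSmin_hmin W hΔ hp𝒪 hp2 q hq hqp).mpr fun hunr =>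
          h ((s59q_W_unram_iff W hΔ hp𝒪 q).mp hunr))
      · exact Or.inr (s59e_Lmin_E2 W hΔ hp𝒪 hp2 hirr q hq hqp hg h1 h2))
  by_cases hne : Rs.Nonempty
  · -- level raising: a universal ring of minimal type
    obtain ⟨Dm₀⟩ := s59e_W_existDQ W p hΔ hp2 hirr N₀ B hB1 hB2 hocc 𝒪 hp𝒪 Rd.habs hsq hpN
      (∅ : Finset ℕ) Rd 0 Fin.elim0
    have hEd : Rd.Ed = ∅ := by
      haveI : IsEmpty (Fin Rd.e) := by rw [he]; infer_instance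
      rw [← Rd.hprE, Finset.univ_eq_empty, Finset.image_empty]
    have hsub : Rd.Smin ∪ ((∅ : Finset ℕ) ∪ Rd.Ed) ∪ Finset.univ.image (Fin.elim0 : Fin 0 → ℕ) ⊆
        s59q_WSmin W hΔ hp𝒪 := by
      rw [hEd, hSmin, Finset.univ_eq_empty, Finset.image_empty, Finset.union_empty,
        Finset.union_empty, Finset.union_empty]
    have hDm : Nonempty (GaloisRep.DeformationRingData 𝒪 (s59i_rhobarW W p hΔ 𝒪 hp𝒪)
        (fun _A _ _ _ ρ => GaloisRep.flatCondition 𝒪 p (s59q_WSmin W hΔ hp𝒪) ρ ∧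
          ∀ q ∈ s59q_WSmin W hΔ hp𝒪 ∪ Rs, q.Prime → q ≠ p → ρ.IsUnipotentOnInertiaAt q)) := by
      refine s59q_exists_DQ_flat p hp2 hp𝒪 (s59i_rhobarW W p hΔ 𝒪 hp𝒪) Rd.habs
        (s59q_WSmin W hΔ hp𝒪) (s59q_WSmin W hΔ hp𝒪) (s59q_WSmin W hΔ hp𝒪 ∪ Rs)
        (Finset.Subset.refl _) (s59q_WSmin_p_mem W hΔ hp𝒪) ?_ inferInstance
        Dm₀.residue_surjective Dm₀.ρ ⟨s59f_flatCondition_mono p hsub Dm₀.ρ Dm₀.isOfType.1, ?_⟩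
        Dm₀.residual_isEquiv
      · intro q hq hqS
        have hqp : q ≠ p := fun h => hqS (h ▸ s59q_WSmin_p_mem W hΔ hp𝒪)
        by_contra hram
        exact hqS ((s59q_WSmin_hmin W hΔ hp𝒪 hp2 q hq hqp).mpr hram)
      · intro q hq hqP hqp
        rcases Finset.mem_union.mp hq with h | h
        · exact Dm₀.isOfType.2 q (hSmin ▸ h) hqP hqp
        · refine s59f_unip_of_unram Dm₀.ρ q (Dm₀.isOfType.1.2.2 q hqP fun hmem => ?_)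
          have h1 := hsub hmem
          exact ((s59q_WSmin_hmin W hΔ hp𝒪 hp2 q hqP hqp).mp h1) (hRs q h).2.2.2.2.1
    obtain ⟨N, iN, χ, h1, h2, h3⟩ := s59f_FLR_W_core p hp35 W hΔ hss hirr hgoodp N₀ hN0 hsq hpN 𝒪
      hp𝒪 hsplit Rs hne hRs hunrW hDm HT
    exact ⟨N, iN, _, 𝒪, inferInstance, inferInstance, inferInstance, χ, h1, h2, h3⟩
  · -- the minimal case
    rw [Finset.not_nonempty_iff_eq_empty] at hne
    obtain ⟨χ, hχ⟩ := s59f_Lmin_abs_unr p hp2 W hΔ N₀ B hss hirr hsq hpN hB1 hB2 hocc hgoodp 𝒪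
      hp𝒪 Rd hm he
      (fun q hq hqp hbad hqS => hunrW q hq (by
        rw [hne, Finset.union_empty, ← hSmin]
        exact hqS))
      (fun D0 r => s59e_TPkgLH p hp5 W hΔ N₀ (∅ : Finset ℕ) B hirr hsq hpN hB1 hB2 hocc h23
        𝒪 hp𝒪 Rd D0 r (s59q_ZIdx Rd.m Rd.e))
    exact ⟨N₀, inferInstance, B, 𝒪, inferInstance, inferInstance, inferInstance, χ, hsq, hpN, hχ⟩

/-- **[PATCH-FLR], flat case, in the shape of `s59g_HeckePt W p`** (helper1's Graph3.lean, unfolded):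
helper5's `s59e_Lmin_heckePt` WITHOUT the hypothesis `hbad`, over the `T`-side contract at the base
levels `M` and `M r` (`r ∈ {2, 3}` the auxiliary prime of type (E2′)). -/
theorem s59f_FLR_heckePt (p : ℕ) [Fact p.Prime] (hp35 : p = 3 ∨ p = 5) (hp5 : 5 ≤ p)
    (W : WeierstrassCurve ℤ) (hΔ : W.Δ ≠ 0) (hss : W.IsSemistableModel)
    (hirr : W.ModRepIsIrreducible p) (hgoodp : W.IsGoodPrimeFor p)
    (M : ℕ) (hM0 : 0 < M) (hsq : Squarefree M) (hpM : ¬ p ∣ M)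
    (hram : ∀ q : ℕ, q.Prime → q ≠ p → q ∣ M → ¬ s59_Unr W p q)
    (hT23 : 2 ∣ M ∨ 3 ∣ M ∨ ∃ r : ℕ, (r = 2 ∨ r = 3) ∧ W.IsGoodPrimeFor r ∧
      ¬ (p : ℤ) ∣ (W.apOfModel r : ℤ) ^ 2 - ((r : ℤ) + 1) ^ 2)
    (hres : W.IsResiduallyModularOfLevel p M)
    (HT : ∀ N₀ : ℕ, M ∣ N₀ → Squarefree N₀ → ¬ p ∣ N₀ → (2 ∣ N₀ ∨ 3 ∣ N₀) →
      W.IsResiduallyModularOfLevel p N₀ →
      (∀ q : ℕ, q.Prime → q ∣ N₀ → ¬ s59_Unr W p q ∨
        (W.IsGoodPrimeFor q ∧ ¬ p ∣ q ^ 2 - 1 ∧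
          ¬ (p : ℤ) ∣ (W.apOfModel q : ℤ) ^ 2 - ((q : ℤ) + 1) ^ 2)) →
      s59f_TPkgFLR p W hΔ N₀) :
    ∃ (N : ℕ) (_ : NeZero N) (B : Finset ℕ) (𝒪 : Type) (_ : CommRing 𝒪) (_ : IsDomain 𝒪)
      (_ : CharZero 𝒪) (χ : CuspForm.heckeAlgebra N 2 (↑B : Set ℕ) →+* 𝒪),
      ¬ p ^ 2 ∣ N ∧ (∀ q : ℕ, q.Prime → ¬ q ^ 3 ∣ N) ∧
      ∀ (ℓ : ℕ) (hℓ : ℓ.Prime) (hℓN : ¬ ℓ ∣ N) (hℓB : ℓ ∉ (↑B : Set ℕ)),
        χ (CuspForm.heckeAlgebra.T hℓ hℓN hℓB) = ((W.apOfModel ℓ : ℤ) : 𝒪) := by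
  have hpp : p.Prime := Fact.out
  -- the shape of the conclusion at a squarefree level prime to `p`
  have key : (∃ (N : ℕ) (_ : NeZero N) (B : Finset ℕ) (𝒪 : Type) (_ : CommRing 𝒪) (_ : IsDomain 𝒪)
        (_ : CharZero 𝒪) (χ : heckeAlgebra N 2 (↑B : Set ℕ) →+* 𝒪),
        Squarefree N ∧ ¬ p ∣ N ∧
        ∀ (ℓ : ℕ) (hℓ : ℓ.Prime) (hℓN : ¬ ℓ ∣ N) (hℓB : ℓ ∉ (↑B : Set ℕ)),
          χ (heckeAlgebra.T hℓ hℓN hℓB) = ((W.apOfModel ℓ : ℤ) : 𝒪)) →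
      ∃ (N : ℕ) (_ : NeZero N) (B : Finset ℕ) (𝒪 : Type) (_ : CommRing 𝒪) (_ : IsDomain 𝒪)
        (_ : CharZero 𝒪) (χ : CuspForm.heckeAlgebra N 2 (↑B : Set ℕ) →+* 𝒪),
        ¬ p ^ 2 ∣ N ∧ (∀ q : ℕ, q.Prime → ¬ q ^ 3 ∣ N) ∧
        ∀ (ℓ : ℕ) (hℓ : ℓ.Prime) (hℓN : ¬ ℓ ∣ N) (hℓB : ℓ ∉ (↑B : Set ℕ)),
          χ (CuspForm.heckeAlgebra.T hℓ hℓN hℓB) = ((W.apOfModel ℓ : ℤ) : 𝒪) := by
    rintro ⟨N, iN, B, 𝒪, i1, i2, i3, χ, hNsq, hpN, hχ⟩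
    refine ⟨N, iN, B, 𝒪, i1, i2, i3, χ, ?_, ?_, hχ⟩
    · exact fun h => hpN (dvd_trans (dvd_pow_self p two_ne_zero) h)
    · intro q hq h
      have h2 : q * q ∣ N := dvd_trans ⟨q, by ring⟩ h
      exact hq.not_isUnit (hNsq q h2)
  by_cases h23 : 2 ∣ M ∨ 3 ∣ M
  · haveI : NeZero M := ⟨hM0.ne'⟩
    have hNtype : ∀ q : ℕ, q.Prime → q ∣ M → ¬ s59_Unr W p q ∨
        (W.IsGoodPrimeFor q ∧ ¬ p ∣ q ^ 2 - 1 ∧
          ¬ (p : ℤ) ∣ (W.apOfModel q : ℤ) ^ 2 - ((q : ℤ) + 1) ^ 2) :=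
      fun q hq hqM => Or.inl (hram q hq (fun h => hpM (h ▸ hqM)) hqM)
    exact key (s59f_FLR_flat p hp35 hp5 W hΔ hss hirr hgoodp M hsq hpM h23 hres hNtype
      (HT M dvd_rfl hsq hpM h23 hres hNtype))
  · obtain ⟨r, hr23, hgr, har⟩ : ∃ r : ℕ, (r = 2 ∨ r = 3) ∧ W.IsGoodPrimeFor r ∧
        ¬ (p : ℤ) ∣ (W.apOfModel r : ℤ) ^ 2 - ((r : ℤ) + 1) ^ 2 := by
      rcases hT23 with h | h | h
      · exact absurd (Or.inl h) h23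
      · exact absurd (Or.inr h) h23
      · exact h
    have hrp : r.Prime := by rcases hr23 with rfl | rfl <;> norm_num
    have hrM : ¬ r ∣ M := by
      rcases hr23 with rfl | rfl
      · exact fun h => h23 (Or.inl h)
      · exact fun h => h23 (Or.inr h)
    have hrlt : r < 5 := by rcases hr23 with rfl | rfl <;> norm_num
    have hrp' : r ≠ p := by omega
    have hcop : M.Coprime r := (Nat.Coprime.symm ((Nat.Prime.coprime_iff_not_dvd hrp).mpr hrM))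
    have hNsq : Squarefree (M * r) := (Nat.squarefree_mul hcop).mpr ⟨hsq, hrp.squarefree⟩
    have hpN : ¬ p ∣ M * r := by
      intro h
      rcases hpp.dvd_mul.mp h with h' | h'
      · exact hpM h'
      · exact hrp' ((Nat.prime_dvd_prime_iff_eq hpp hrp).mp h').symm
    haveI : NeZero (M * r) := ⟨Nat.mul_ne_zero hM0.ne' hrp.ne_zero⟩
    have h23' : 2 ∣ M * r ∨ 3 ∣ M * r := by
      rcases hr23 with rfl | rfl
      · exact Or.inl (dvd_mul_left 2 M)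
      · exact Or.inr (dvd_mul_left 3 M)
    have hres' : W.IsResiduallyModularOfLevel p (M * r) :=
      s59v_resMod_mono (dvd_mul_right M r) hNsq hres
    have hr2 : ¬ p ∣ r ^ 2 - 1 := by
      rcases hr23 with rfl | rfl
      · intro h
        have := Nat.le_of_dvd (by norm_num) h
        omega
      · intro h
        have h8 : p ∣ 2 ^ 3 := by simpa using h
        have := (Nat.prime_dvd_prime_iff_eq hpp Nat.prime_two).mp (hpp.dvd_of_dvd_pow h8)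
        omega
    have hNtype : ∀ q : ℕ, q.Prime → q ∣ M * r → ¬ s59_Unr W p q ∨
        (W.IsGoodPrimeFor q ∧ ¬ p ∣ q ^ 2 - 1 ∧
          ¬ (p : ℤ) ∣ (W.apOfModel q : ℤ) ^ 2 - ((q : ℤ) + 1) ^ 2) := by
      intro q hq hqN
      rcases (Nat.Prime.dvd_mul hq).mp hqN with h | h
      · exact Or.inl (hram q hq (fun h' => hpM (h' ▸ h)) h)
      · have hqr : q = r := (Nat.prime_dvd_prime_iff_eq hq hrp).mp h
        subst hqr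
        exact Or.inr ⟨hgr, hr2, har⟩
    exact key (s59f_FLR_flat p hp35 hp5 W hΔ hss hirr hgoodp (M * r) hNsq hpN h23' hres' hNtype
      (HT (M * r) (dvd_mul_right M r) hNsq hpN h23' hres' hNtype))

end Fermat.Agent.Lib.S59
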