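/-
PROGRAMME R2 = S59, node [FLR], `T`-side, block (Y) (helper4, prefix `s59f_`): **comparison of
Hecke idempotents ALONG AN INJECTIVE INTERTWINER** (abstract half; Mathlib + helper8's `TInd`,
`TAlpha`).

`r : Z₀ → Z₁` injective, `Z₁` finite over the noetherian local ring `𝒪`.
* `s59f_AR` (Artin–Rees): `r w ∈ 𝔪^K Z₁ ⇒ w ∈ 𝔪 Z₀` for a suitable `K`;
* `s59f_pow_mem` : `f Z ⊆ 𝔪 Z ⇒ f^m Z ⊆ 𝔪^m Z`;
* **`s59f_topNil_of_res`** : topological nilpotency on the part of an idempotent descends along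
  `r` (no saturation hypothesis on `r`);
* `s59f_idem_of_res` : idempotency descends along `r`;
* `s59f_list_prod_idem` : `(∏ Aᵢ) ε = (∏ (Aᵢ ε)) ε` for an idempotent `ε` commuting with the `Aᵢ`.
-/
import Mathlib
import Fermat.Agent.Lib.S59.TInd
import Fermat.Agent.Lib.S59.TAlpha

set_option autoImplicit false
set_option linter.unusedSectionVars false
set_option linter.unusedVariables false
set_option linter.style.haveILetI false

open IsLocalRing

noncomputable section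

namespace Fermat.Agent.Lib.S59

section AR

variable {𝒪 : Type*} [CommRing 𝒪] [IsLocalRing 𝒪]
  {Z₀ Z₁ : Type*} [AddCommGroup Z₀] [Module 𝒪 Z₀] [AddCommGroup Z₁] [Module 𝒪 Z₁]

/-- `f Z ⊆ 𝔪 Z ⇒ f^m Z ⊆ 𝔪^m Z`. -/
theorem s59f_pow_mem (f : Module.End 𝒪 Z₁)
    (hf : ∀ z, f z ∈ (maximalIdeal 𝒪 • ⊤ : Submodule 𝒪 Z₁)) (m : ℕ) (z : Z₁) :
    (f ^ m) z ∈ (maximalIdeal 𝒪 ^ m • ⊤ : Submodule 𝒪 Z₁) := by
  induction m generalizing z with
  | zero =>
    rw [pow_zero, Ideal.one_eq_top, Submodule.top_smul]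
    exact Submodule.mem_top
  | succ m ih =>
    have e : (f ^ (m + 1)) z = f ((f ^ m) z) := by rw [pow_succ', Module.End.mul_apply]
    rw [e]
    exact s59t_map_pow_smul (maximalIdeal 𝒪) f hf m _ (ih z)

/-- intertwining passes to powers. -/
theorem s59f_intertwine_pow' (r : Z₀ →ₗ[𝒪] Z₁) (A : Module.End 𝒪 Z₀) (A' : Module.End 𝒪 Z₁)
    (hA : ∀ z, r (A z) = A' (r z)) (k : ℕ) (z : Z₀) : r ((A ^ k) z) = (A' ^ k) (r z) := by
  induction k generalizing z with
  | zero => simp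
  | succ k ih =>
    rw [pow_succ, Module.End.mul_apply, pow_succ, Module.End.mul_apply, ih, hA]

variable [IsNoetherianRing 𝒪] [Module.Finite 𝒪 Z₁]

/-- **Artin–Rees**: an injective map into a finite module reflects `𝔪 Z` up to a shift. -/
theorem s59f_AR (r : Z₀ →ₗ[𝒪] Z₁) (hr : Function.Injective r) :
    ∃ K : ℕ, ∀ w : Z₀, r w ∈ (maximalIdeal 𝒪 ^ K • ⊤ : Submodule 𝒪 Z₁) →
      w ∈ (maximalIdeal 𝒪 • ⊤ : Submodule 𝒪 Z₀) := by
  obtain ⟨k, hk⟩ := Ideal.exists_pow_inf_eq_pow_smul (maximalIdeal 𝒪) (LinearMap.range r)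
  refine ⟨k + 1, fun w hw => ?_⟩
  have h1 : r w ∈ (maximalIdeal 𝒪 ^ (k + 1) • ⊤ ⊓ LinearMap.range r : Submodule 𝒪 Z₁) :=
    ⟨hw, ⟨w, rfl⟩⟩
  rw [hk (k + 1) (Nat.le_succ k), Nat.add_sub_cancel_left, pow_one] at h1
  have h2 : (maximalIdeal 𝒪 • (maximalIdeal 𝒪 ^ k • ⊤ ⊓ LinearMap.range r) : Submodule 𝒪 Z₁) ≤
      Submodule.map r (maximalIdeal 𝒪 • ⊤) := by
    rw [Submodule.map_smul'', Submodule.map_top]
    exact Submodule.smul_mono le_rfl inf_le_right
  obtain ⟨w', hw', e⟩ := h2 h1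
  rwa [← hr e]

/-- **topological nilpotency descends along an injective intertwiner.** -/
theorem s59f_topNil_of_res (r : Z₀ →ₗ[𝒪] Z₁) (hr : Function.Injective r)
    (μ A : Module.End 𝒪 Z₀) (ε' A' : Module.End 𝒪 Z₁)
    (hμ : ∀ z, r (μ z) = ε' (r z)) (hA : ∀ z, r (A z) = A' (r z))
    (hμμ : μ * μ = μ) (hc : μ * A = A * μ) (h : s59t_TopNil ε' A') : s59t_TopNil μ A := by
  obtain ⟨n, hn⟩ := h
  obtain ⟨K, hK⟩ := s59f_AR r hr
  refine ⟨n * K, fun y => ?_⟩
  apply hK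
  -- `r (A^{nK} μ y) = (A'^n ε')^K (r y')`
  have hcomm : Commute (A ^ n) μ := ((show Commute μ A from hc).pow_right n).symm
  have hidem : ∀ k : ℕ, (μ ^ k) (μ y) = μ y := by
    intro k
    induction k with
    | zero => simp
    | succ k ih =>
      rw [pow_succ, Module.End.mul_apply]
      have : μ (μ y) = μ y := LinearMap.congr_fun hμμ y
      rw [this, ih]
  have e1 : (A ^ (n * K)) (μ y) = ((A ^ n * μ) ^ K) (μ y) := by
    rw [hcomm.mul_pow, Module.End.mul_apply, hidem, pow_mul]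
  have hg : ∀ z, r ((A ^ n * μ) z) = (A' ^ n * ε') (r z) := by
    intro z
    rw [Module.End.mul_apply, Module.End.mul_apply, s59f_intertwine_pow' r A A' hA, hμ]
  rw [e1, s59f_intertwine_pow' r (A ^ n * μ) (A' ^ n * ε') hg]
  exact s59f_pow_mem (A' ^ n * ε') (fun z => hn z) K _

end AR

section Idem

variable {𝒪 : Type*} [CommRing 𝒪]
  {Z₀ Z₁ : Type*} [AddCommGroup Z₀] [Module 𝒪 Z₀] [AddCommGroup Z₁] [Module 𝒪 Z₁]

/-- idempotency descends along an injective intertwiner. -/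
theorem s59f_idem_of_res (r : Z₀ →ₗ[𝒪] Z₁) (hr : Function.Injective r)
    (μ : Module.End 𝒪 Z₀) (ε' : Module.End 𝒪 Z₁) (hμ : ∀ z, r (μ z) = ε' (r z))
    (hε' : ε' * ε' = ε') : μ * μ = μ := by
  refine LinearMap.ext fun z => hr ?_
  rw [Module.End.mul_apply, hμ, hμ]
  exact LinearMap.congr_fun hε' (r z)

/-- `(∏ Aᵢ) ε = (∏ (Aᵢ ε)) ε`. -/
theorem s59f_list_prod_idem {E : Type*} [Monoid E] (ε : E) (hε : ε * ε = ε) (l : List E)
    (hl : ∀ A ∈ l, A * ε = ε * A) : l.prod * ε = (l.map (fun A => A * ε)).prod * ε := by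
  induction l with
  | nil => simp
  | cons A l ih =>
    have hl' : ∀ A' ∈ l, A' * ε = ε * A' := fun A' hA' => hl A' (List.mem_cons_of_mem _ hA')
    have hA : A * ε = ε * A := hl A List.mem_cons_self
    rw [List.prod_cons, List.map_cons, List.prod_cons, mul_assoc, ih hl', mul_assoc]
    -- `A * (Π' ε) = (A ε) (Π' ε)`
    have hcomm : ∀ (l' : List E), (∀ A' ∈ l', A' * ε = ε * A') →
        (l'.map (fun A => A * ε)).prod * ε = ε * (l'.map (fun A => A * ε)).prod := by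
      intro l' hl''
      induction l' with
      | nil => simp
      | cons B l' ih' =>
        have hB : B * ε = ε * B := hl'' B List.mem_cons_self
        rw [List.map_cons, List.prod_cons, mul_assoc,
          ih' (fun A' hA' => hl'' A' (List.mem_cons_of_mem _ hA')), ← mul_assoc, ← mul_assoc,
          mul_assoc B, hε, hB, ← mul_assoc, hε]
    rw [mul_assoc A ε, ← mul_assoc ε, ← hcomm l hl', mul_assoc _ ε ε, hε]

end Idem

end Fermat.Agent.Lib.S59
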