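/-
PROGRAMME R2 = S59, node [FLR], `T`-side, block (Y) (helper4, prefix `s59f_`): **the anemic
idempotent of a HIGHER level, pushed down, IS the native anemic idempotent** — without any
nilpotency hypothesis at the lower level on the pushed-down part (the restriction map is injective
but not saturated; Artin–Rees, `FEps1`).

Levels `L₀ ∣ L₁`, subgroups `H₀`, `H₁` with `Γ_{H₁}(L₁) ≤ Γ_{H₀}(L₀)`, and every prime dividing `L₁`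
but not `L₀` lies in `Bset` (so that the good generators of level `L₀` are good generators of level
`L₁`).
* `s59f_resGHpar_injective` : restriction `H_par(Γ_{H₀}(L₀), 𝒪) → H_par(Γ_{H₁}(L₁), 𝒪)` is injective;
* **`s59f_anemic_eq`** : `actH L₁ aq _ H₀ (jG e₁) = actH L₀ aq _ H₀ (jG e₀)` for anemic idempotent
  polynomials `e₁`, `e₀` of the levels `L₁`, `L₀` (hypotheses = (X0), (X1), (X2) of helper5's
  `s59ex_LvlX` at each level);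
* `s59f_anemic_eq_E0` : the same with the base idempotent `s59t_E0` (block (Y0)).
-/
import Mathlib
import Fermat.Agent.Lib.S59.FEps1
import Fermat.Agent.Lib.S59.TIndH
import Fermat.Agent.Lib.S59.TLvlQ3
import Fermat.Agent.Lib.S59.TSame
import Fermat.Agent.Lib.S59.WDia

set_option autoImplicit false
set_option linter.unusedSectionVars false
set_option linter.unusedVariables false
set_option linter.style.haveILetI false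

noncomputable section

namespace Fermat.Agent.Lib.S59

open Matrix MatrixGroups CongruenceSubgroup IsLocalRing
open Fermat.Agent.Lib.S29 Fermat.Agent.Lib.S48 Fermat.Agent.Lib.S41

section Inj

variable {𝒪 : Type*} [CommRing 𝒪] [IsDomain 𝒪] [CharZero 𝒪]
  {L₀ L₁ : ℕ} [NeZero L₀] [NeZero L₁] {H₀ : Subgroup (ZMod L₀)ˣ} {H₁ : Subgroup (ZMod L₁)ˣ}
  (hle : s48h_GammaH L₁ H₁ ≤ s48h_GammaH L₀ H₀)

/-- **restriction between two `Γ_H`-levels is injective** (char. `0`). -/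
theorem s59f_resGHpar_injective : Function.Injective (s59t_resGHpar hle 𝒪 𝒪) := by
  intro x y hxy
  apply Subtype.ext
  refine s59t_resG_injective_of_pow hle (s59t_torsionFree_of_charZero (𝒪 := 𝒪)) ?_
    (congrArg Subtype.val hxy)
  intro g
  obtain ⟨n, hn, -, hg⟩ :=
    Subgroup.exists_pow_mem_of_index_ne_zero (s59w_GammaH_index_ne_zero H₁) (g : SL(2, ℤ))
  exact ⟨n, hn.ne', hg⟩

end Inj

section Anemic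

variable {𝒪 : Type} [CommRing 𝒪] [IsDomain 𝒪] [IsDiscreteValuationRing 𝒪]
  [IsAdicComplete (maximalIdeal 𝒪) 𝒪] [CharZero 𝒪]
  {L₀ L₁ : ℕ} [NeZero L₀] [NeZero L₁] (h01 : L₀ ∣ L₁)
  (H₀ : Subgroup (ZMod L₀)ˣ) (H₁ : Subgroup (ZMod L₁)ˣ)
  (hle : s48h_GammaH L₁ H₁ ≤ s48h_GammaH L₀ H₀) (Bset : Finset ℕ) (a : ℕ → ℤ) (aq : ℕ → 𝒪)

/-- restriction intertwines the anemic polynomials of the higher level. -/
theorem s59f_res_anemic (t : MvPolynomial ↥(s59t_goodB L₁ Bset) 𝒪)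
    (z : s48h_Hpar 𝒪 (s48h_GammaH L₀ H₀) 𝒪) :
    s59t_resGHpar hle 𝒪 𝒪 (s59t_actH L₁ aq h01 H₀ (s59t_jG 𝒪 (s59t_goodB L₁ Bset) t) z) =
      s59t_actH L₁ aq (dvd_refl L₁) H₁ (s59t_jG 𝒪 (s59t_goodB L₁ Bset) t)
        (s59t_resGHpar hle 𝒪 𝒪 z) := by
  refine s59t_actH_resG aq h01 (dvd_refl L₁) H₀ H₁ hle h01
    (Set.range (Sum.inl : s59w_AIdx L₁ → s59w_AIdx L₁ ⊕ ℕ)) ?_
    (s59t_jG_mem_supported (s59t_goodB L₁ Bset) t _ le_rfl) z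
  rintro _ ⟨x, rfl⟩ q' hq'
  cases hq'

include hle in
set_option maxHeartbeats 3200000 in
/-- **the anemic idempotent of level `L₁`, pushed down to level `(L₀, H₀)`, is the native one.** -/
theorem s59f_anemic_eq
    (hB : ∀ ℓ : ℕ, ℓ.Prime → ℓ ∣ L₁ → ¬ ℓ ∣ L₀ → ℓ ∈ Bset)
    -- the idempotent of level `L₁`
    (e₁ : MvPolynomial ↥(s59t_goodB L₁ Bset) 𝒪)
    (h1e₁ : 1 - e₁ ∈ s59t_evalIdeal (fun x : ↥(s59t_goodB L₁ Bset) =>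
      s59t_cB (𝒪 := 𝒪) L₁ a (x : s59w_AIdx L₁)))
    (hid₁ : s59t_actH L₁ aq (dvd_refl L₁) H₁ (s59t_jG 𝒪 (s59t_goodB L₁ Bset) e₁) *
      s59t_actH L₁ aq (dvd_refl L₁) H₁ (s59t_jG 𝒪 (s59t_goodB L₁ Bset) e₁) =
      s59t_actH L₁ aq (dvd_refl L₁) H₁ (s59t_jG 𝒪 (s59t_goodB L₁ Bset) e₁))
    (hnil₁ : ∀ x ∈ s59t_goodB L₁ Bset, ∃ n : ℕ, ∀ y : s48h_Hpar 𝒪 (s48h_GammaH L₁ H₁) 𝒪,
      ((s59w_op H₁ 𝒪 x - s59t_cB (𝒪 := 𝒪) L₁ a x •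
        (1 : Module.End 𝒪 (s48h_Hpar 𝒪 (s48h_GammaH L₁ H₁) 𝒪))) ^ n)
        (s59t_actH L₁ aq (dvd_refl L₁) H₁ (s59t_jG 𝒪 (s59t_goodB L₁ Bset) e₁) y) ∈
        (maximalIdeal 𝒪 • ⊤ : Submodule 𝒪 (s48h_Hpar 𝒪 (s48h_GammaH L₁ H₁) 𝒪)))
    -- the idempotent of level `L₀`
    (e₀ : MvPolynomial ↥(s59t_goodB L₀ Bset) 𝒪)
    (h1e₀ : 1 - e₀ ∈ s59t_evalIdeal (fun x : ↥(s59t_goodB L₀ Bset) =>
      s59t_cB (𝒪 := 𝒪) L₀ a (x : s59w_AIdx L₀)))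
    (hid₀ : s59t_actH L₀ aq (dvd_refl L₀) H₀ (s59t_jG 𝒪 (s59t_goodB L₀ Bset) e₀) *
      s59t_actH L₀ aq (dvd_refl L₀) H₀ (s59t_jG 𝒪 (s59t_goodB L₀ Bset) e₀) =
      s59t_actH L₀ aq (dvd_refl L₀) H₀ (s59t_jG 𝒪 (s59t_goodB L₀ Bset) e₀))
    (hnil₀ : ∀ x ∈ s59t_goodB L₀ Bset, ∃ n : ℕ, ∀ y : s48h_Hpar 𝒪 (s48h_GammaH L₀ H₀) 𝒪,
      ((s59w_op H₀ 𝒪 x - s59t_cB (𝒪 := 𝒪) L₀ a x •
        (1 : Module.End 𝒪 (s48h_Hpar 𝒪 (s48h_GammaH L₀ H₀) 𝒪))) ^ n)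
        (s59t_actH L₀ aq (dvd_refl L₀) H₀ (s59t_jG 𝒪 (s59t_goodB L₀ Bset) e₀) y) ∈
        (maximalIdeal 𝒪 • ⊤ : Submodule 𝒪 (s48h_Hpar 𝒪 (s48h_GammaH L₀ H₀) 𝒪))) :
    s59t_actH L₁ aq h01 H₀ (s59t_jG 𝒪 (s59t_goodB L₁ Bset) e₁) =
      s59t_actH L₀ aq (dvd_refl L₀) H₀ (s59t_jG 𝒪 (s59t_goodB L₀ Bset) e₀) := by
  have hrinj : Function.Injective (s59t_resGHpar hle 𝒪 𝒪) := s59f_resGHpar_injective hle
  have hint := s59f_res_anemic h01 H₀ H₁ hle Bset aq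
  -- the pushed-down operator is an idempotent
  have hidμ : s59t_actH L₁ aq h01 H₀ (s59t_jG 𝒪 (s59t_goodB L₁ Bset) e₁) *
      s59t_actH L₁ aq h01 H₀ (s59t_jG 𝒪 (s59t_goodB L₁ Bset) e₁) =
      s59t_actH L₁ aq h01 H₀ (s59t_jG 𝒪 (s59t_goodB L₁ Bset) e₁) :=
    s59f_idem_of_res _ hrinj _ _ (hint e₁) hid₁
  have E₁ := s59t_actH_jG (N' := L₁) H₀ h01 aq (s59t_goodB L₁ Bset) e₁
  have E₀ := s59t_actH_jG (N' := L₀) H₀ (dvd_refl L₀) aq (s59t_goodB L₀ Bset) e₀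
  have hidμ' := hidμ
  rw [E₁] at hidμ'
  rw [E₀] at hid₀ hnil₀
  rw [E₁, E₀]
  refine s59t_idem_eq_of_topNil _ _ _ _ ?_ _ _ e₁ h1e₁ hidμ' e₀ h1e₀ hid₀ ?_ ?_
  · intro x y
    exact s59w_op_comm H₀ 𝒪 _ _
  · -- the level-`L₁` generators on the level-`L₀` part
    rintro ⟨x, i₁, rfl, hi₁⟩
    have h0 := hnil₀ (Sum.inl (s59t_TIdx_down h01 i₁)) (s59t_inl_mem_goodB Bset _ hi₁)
    exact h0
  · -- the level-`L₀` generators on the pushed-down part: transport along `res`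
    rintro ⟨x, i₀, rfl, hi₀⟩
    haveI : Fact i₀.ell.Prime := ⟨i₀.prime⟩
    have hℓ₁ : ¬ i₀.ell ∣ L₁ := fun hd => hi₀ (hB _ i₀.prime hd i₀.ndvd)
    obtain ⟨σ, hσ, h11⟩ := s48h_exists_sigma_p (M := L₁) hℓ₁
    let i₁ : s59w_TIdx L₁ := ⟨i₀.ell, i₀.prime, hℓ₁, σ, hσ, h11⟩
    have heq : s59w_op H₀ 𝒪 (Sum.inl i₀) =
        s59t_opH L₁ aq h01 H₀ (Sum.inl (Sum.inl i₁)) := by
      refine LinearMap.ext fun v => Subtype.ext ?_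
      have hσ₀ : σ ∈ Gamma0 L₀ := s59t_Gamma0_le_of_dvd h01 hσ
      have h11₀ : ((σ 1 1 : ℤ) : ZMod L₀) = (i₀.ell : ZMod L₀) := (s59t_TIdx_down h01 i₁).lr
      show s48h_TpH H₀ i₀.ndvd i₀.sig i₀.mem i₀.lr 𝒪 v.1 = s48h_TpH H₀ i₀.ndvd σ hσ₀ h11₀ 𝒪 v.1
      exact DFunLike.congr_fun (s48h_TpH_eq (H := H₀) i₀.ndvd i₀.mem i₀.lr hσ₀ h11₀ 𝒪) v.1
    show s59t_TopNil _ (s59t_opH L₀ aq (dvd_refl L₀) H₀ (Sum.inl (Sum.inl i₀)) -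
      s59t_cB (𝒪 := 𝒪) L₀ a (Sum.inl i₀) • 1)
    rw [s59t_opH_inl, s59t_AIdx_down_self, heq, ← E₁]
    refine s59f_topNil_of_res (s59t_resGHpar hle 𝒪 𝒪) hrinj _ _
      (s59t_actH L₁ aq (dvd_refl L₁) H₁ (s59t_jG 𝒪 (s59t_goodB L₁ Bset) e₁))
      (s59t_opH L₁ aq (dvd_refl L₁) H₁ (Sum.inl (Sum.inl i₁)) -
        s59t_cB (𝒪 := 𝒪) L₀ a (Sum.inl i₀) • 1) (hint e₁) ?_ hidμ ?_ ?_
    · intro z
      rw [LinearMap.sub_apply, LinearMap.sub_apply, map_sub, LinearMap.smul_apply,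
        LinearMap.smul_apply, Module.End.one_apply, Module.End.one_apply, map_smul,
        s59t_opH_resG aq h01 (dvd_refl L₁) H₀ H₁ hle h01 (Sum.inl (Sum.inl i₁))
          (fun q' hq' => by cases hq') z]
    · have hA : s59t_opH L₁ aq h01 H₀ (Sum.inl (Sum.inl i₁)) -
          s59t_cB (𝒪 := 𝒪) L₀ a (Sum.inl i₀) • 1 =
          s59t_actH L₁ aq h01 H₀ (MvPolynomial.X (Sum.inl (Sum.inl i₁)) -
            MvPolynomial.C (s59t_cB (𝒪 := 𝒪) L₀ a (Sum.inl i₀))) := by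
        rw [map_sub, s59t_actH_X]
        congr 1
        exact (s59t_polyAct_C _ _ _).symm
      rw [hA, ← map_mul, ← map_mul, mul_comm]
    · have h0 := hnil₁ (Sum.inl i₁) (s59t_inl_mem_goodB Bset i₁ hi₀)
      rw [s59t_opH_inl, s59t_AIdx_down_self]
      exact h0

include hle in
/-- **block (Y0)**: the same with the base idempotent `s59t_E0` of level `(L₀, H₀)`. -/
theorem s59f_anemic_eq_E0
    (hB : ∀ ℓ : ℕ, ℓ.Prime → ℓ ∣ L₁ → ¬ ℓ ∣ L₀ → ℓ ∈ Bset)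
    (e₁ : MvPolynomial ↥(s59t_goodB L₁ Bset) 𝒪)
    (h1e₁ : 1 - e₁ ∈ s59t_evalIdeal (fun x : ↥(s59t_goodB L₁ Bset) =>
      s59t_cB (𝒪 := 𝒪) L₁ a (x : s59w_AIdx L₁)))
    (hid₁ : s59t_E0 H₁ Bset e₁ * s59t_E0 H₁ Bset e₁ = s59t_E0 H₁ Bset e₁)
    (hnil₁ : ∀ x ∈ s59t_goodB L₁ Bset, ∃ n : ℕ, ∀ y : s48h_Hpar 𝒪 (s48h_GammaH L₁ H₁) 𝒪,
      ((s59w_op H₁ 𝒪 x - s59t_cB (𝒪 := 𝒪) L₁ a x •
        (1 : Module.End 𝒪 (s48h_Hpar 𝒪 (s48h_GammaH L₁ H₁) 𝒪))) ^ n)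
        (s59t_E0 H₁ Bset e₁ y) ∈
        (maximalIdeal 𝒪 • ⊤ : Submodule 𝒪 (s48h_Hpar 𝒪 (s48h_GammaH L₁ H₁) 𝒪)))
    (e₀ : MvPolynomial ↥(s59t_goodB L₀ Bset) 𝒪)
    (h1e₀ : 1 - e₀ ∈ s59t_evalIdeal (fun x : ↥(s59t_goodB L₀ Bset) =>
      s59t_cB (𝒪 := 𝒪) L₀ a (x : s59w_AIdx L₀)))
    (hid₀ : s59t_E0 H₀ Bset e₀ * s59t_E0 H₀ Bset e₀ = s59t_E0 H₀ Bset e₀)
    (hnil₀ : ∀ x ∈ s59t_goodB L₀ Bset, ∃ n : ℕ, ∀ y : s48h_Hpar 𝒪 (s48h_GammaH L₀ H₀) 𝒪,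
      ((s59w_op H₀ 𝒪 x - s59t_cB (𝒪 := 𝒪) L₀ a x •
        (1 : Module.End 𝒪 (s48h_Hpar 𝒪 (s48h_GammaH L₀ H₀) 𝒪))) ^ n)
        (s59t_E0 H₀ Bset e₀ y) ∈
        (maximalIdeal 𝒪 • ⊤ : Submodule 𝒪 (s48h_Hpar 𝒪 (s48h_GammaH L₀ H₀) 𝒪))) :
    s59t_actH L₁ aq h01 H₀ (s59t_jG 𝒪 (s59t_goodB L₁ Bset) e₁) = s59t_E0 H₀ Bset e₀ := by
  rw [← s59t_actH_eq_E0 H₀ Bset aq e₀]
  rw [← s59t_actH_eq_E0 H₁ Bset aq e₁] at hid₁ hnil₁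
  rw [← s59t_actH_eq_E0 H₀ Bset aq e₀] at hid₀ hnil₀
  exact s59f_anemic_eq h01 H₀ H₁ hle Bset a aq hB e₁ h1e₁ hid₁ hnil₁ e₀ h1e₀ hid₀ hnil₀

end Anemic

end Fermat.Agent.Lib.S59
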