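/-
PROGRAMME R2 = S59, leaf [W-MULT-TR] (helper4, prefix `s59f_mt_`), part A: **THE FROBENIUS ENDOMORPHISM OF
A NODAL CUBIC WITH RATIONAL NODE IS `±q` ON THE NONSINGULAR POINTS.**

`F` an algebraically closed field, `W` a Weierstrass cubic over `F` with `Δ = 0`, `c₄ ≠ 0` (a node), `f : F →+* F`
a ring endomorphism fixing the coefficients of `W`.  S58's parametrisation `Ψ = fvc_pointEquiv ∘ s58m_phi : F^× → W_ns`
(MultNode/MultNodePt) satisfies, on coordinates, `f(Ψ u) = Ψ (f u)` if `f` fixes the tangent slopes `β, β + d` at the node,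
and `f(Ψ u) = Ψ ((f u)⁻¹)` if it exchanges them (`f β = β + d`, `f d = −d`, `f P(r) = P(f r + d)`).

* `s59f_mt_node_fixed`   : the node `(x₀, y₀)` is fixed by `f`;
* **`s59f_mt_nodal_param`** : the parametrisation with its Frobenius rule;
* **`s59f_mt_nodal_frob`**  : for `f = (x ↦ x^q)`: `∃ ε = ±1, ∀ n, ∃` a point `(x, y)` of exact order `λ^(n+1)` with
                              `(x^q, y^q) = (ε q) • (x, y)`.
-/
import Mathlib
import Fermat.Agent.Lib.S58.MultNodePt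

set_option autoImplicit false
set_option linter.unusedSectionVars false
set_option linter.unusedVariables false
set_option maxHeartbeats 1600000
set_option linter.style.haveILetI false
set_option linter.unusedSimpArgs false

namespace Fermat.Agent.Lib.S59

open WeierstrassCurve WeierstrassCurve.Affine Fermat.Agent.Lib.S58 Fermat.Agent.Lib.Frey

variable {F : Type*} [Field F]

section Fixed

variable (W : WeierstrassCurve F) (f : F →+* F)
  (hf1 : f W.a₁ = W.a₁) (hf2 : f W.a₂ = W.a₂) (hf3 : f W.a₃ = W.a₃) (hf4 : f W.a₄ = W.a₄)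
  (hf6 : f W.a₆ = W.a₆)

include hf1 hf2 hf3 hf4 hf6 in
/-- the node is fixed by `f`. -/
theorem s59f_mt_node_fixed :
    f (s58m_nodeX W) = s58m_nodeX W ∧ f (s58m_nodeY W) = s58m_nodeY W := by
  have hb2 : f W.b₂ = W.b₂ := by
    simp only [WeierstrassCurve.b₂, map_add, map_mul, map_pow, map_ofNat, hf1, hf2]
  have hb4 : f W.b₄ = W.b₄ := by
    simp only [WeierstrassCurve.b₄, map_add, map_mul, map_ofNat, hf1, hf3, hf4]
  have hb6 : f W.b₆ = W.b₆ := by
    simp only [WeierstrassCurve.b₆, map_add, map_mul, map_pow, map_ofNat, hf3, hf6]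
  have hc4 : f W.c₄ = W.c₄ := by
    simp only [WeierstrassCurve.c₄, map_sub, map_mul, map_pow, map_ofNat, hb2, hb4]
  constructor
  · unfold s58m_nodeX
    rw [map_div₀, map_sub, map_mul, map_mul, map_ofNat, hb2, hb4, hb6, hc4]
  · unfold s58m_nodeY
    rw [map_div₀, hc4]
    congr 1
    simp only [map_add, map_sub, map_mul, map_pow, map_ofNat, hb2, hf1, hf2, hf3, hf4, hf6]

end Fixed

section Param

variable [DecidableEq F]

/-- **the parametrisation of the nonsingular points of a nodal cubic with its Frobenius rule.** -/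
theorem s59f_mt_nodal_param [IsAlgClosed F] (W : WeierstrassCurve F) (hΔ : W.Δ = 0)
    (hc₄ : W.c₄ ≠ 0) (f : F →+* F)
    (hf1 : f W.a₁ = W.a₁) (hf2 : f W.a₂ = W.a₂) (hf3 : f W.a₃ = W.a₃) (hf4 : f W.a₄ = W.a₄)
    (hf6 : f W.a₆ = W.a₆) :
    ∃ Ψ : F → W.toAffine.Point,
      (∀ u v : F, u ≠ 0 → v ≠ 0 → Ψ (u * v) = Ψ u + Ψ v) ∧ Ψ 1 = 0 ∧
      (∀ u : F, u ≠ 0 → u ≠ 1 → Ψ u ≠ 0) ∧
      ((∀ u : F, u ≠ 0 → u ≠ 1 → ∃ (x y : F) (h : W.toAffine.Nonsingular x y)
          (h' : W.toAffine.Nonsingular (f x) (f y)),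
          Ψ u = Point.some x y h ∧ Ψ (f u) = Point.some (f x) (f y) h') ∨
        (∀ u : F, u ≠ 0 → u ≠ 1 → ∃ (x y : F) (h : W.toAffine.Nonsingular x y)
          (h' : W.toAffine.Nonsingular (f x) (f y)),
          Ψ u = Point.some x y h ∧ Ψ ((f u)⁻¹) = Point.some (f x) (f y) h')) := by
  obtain ⟨β, d, hW'⟩ := s58m_nodal_of_node W hΔ hc₄
  obtain ⟨hx₀, hy₀⟩ := s59f_mt_node_fixed W f hf1 hf2 hf3 hf4 hf6
  set C := s58m_nodeC W with hC
  -- the coefficients of the normal form are fixed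
  have ha1' : f (C • W).a₁ = (C • W).a₁ := by
    rw [variableChange_a₁]
    simp only [hC, s58m_nodeC, inv_one, Units.val_one, one_mul, mul_zero, add_zero]
    exact hf1
  have ha2' : f (C • W).a₂ = (C • W).a₂ := by
    rw [variableChange_a₂]
    simp only [hC, s58m_nodeC, inv_one, Units.val_one, one_pow, one_mul, zero_mul, sub_zero,
      mul_zero, map_add, map_sub, map_mul, map_pow, map_ofNat, map_zero, hf2, hx₀]
  -- `f β ∈ {β, β + d}`
  have hβ : (f β - β) * (f β - (β + d)) = 0 := by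
    have h1 : f (2 * β + d) = 2 * β + d := by
      have := ha1'
      rw [hW'.a₁, map_neg, neg_inj] at this
      exact this
    have h2 : f (β * (β + d)) = β * (β + d) := by
      have := ha2'
      rw [hW'.a₂, map_neg, neg_inj] at this
      exact this
    rw [map_add, map_mul, map_ofNat] at h1
    rw [map_mul, map_add] at h2
    linear_combination (f β) * h1 - h2
  have hinj : Function.Injective f := f.injective
  have hcases : (f β = β ∧ f d = d) ∨ (f β = β + d ∧ f d = -d) := by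
    have h1 : f (2 * β + d) = 2 * β + d := by
      have := ha1'
      rw [hW'.a₁, map_neg, neg_inj] at this
      exact this
    rw [map_add, map_mul, map_ofNat] at h1
    rcases mul_eq_zero.mp hβ with h | h
    · left
      have hb : f β = β := sub_eq_zero.mp h
      refine ⟨hb, ?_⟩
      rw [hb] at h1
      linear_combination h1
    · right
      have hb : f β = β + d := sub_eq_zero.mp h
      refine ⟨hb, ?_⟩
      rw [hb] at h1
      linear_combination h1
  -- the coordinates of `Ψ u`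
  have hcoord : ∀ u : F, ∀ hu : ¬ (u = 1 ∨ u = 0),
      fvc_pointEquiv W C (s58m_phi hW' u) =
        Point.some (fvc_X C (s58m_PX d (d / (1 - u))))
          (fvc_Y C (s58m_PX d (d / (1 - u))) (s58m_PY β d (d / (1 - u))))
          ((fvc_nonsingular W C _ _).mp
            (s58m_nonsingular hW' (s58m_phi_aux hW' hu).1 (s58m_phi_aux hW' hu).2)) := by
    intro u hu
    rw [s58m_phi_of_ne hW' hu]
    rfl
  have hfX : ∀ x : F, f (fvc_X C x) = fvc_X C (f x) := by
    intro x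
    simp only [fvc_X, hC, s58m_nodeC, Units.val_one, one_pow, one_mul, map_add, hx₀]
  have hfY : ∀ x y : F, f (fvc_Y C x y) = fvc_Y C (f x) (f y) := by
    intro x y
    simp only [fvc_Y, hC, s58m_nodeC, Units.val_one, one_pow, one_mul, mul_zero, zero_mul,
      add_zero, map_add, hy₀]
  refine ⟨fun u => fvc_pointEquiv W C (s58m_phi hW' u), ?_, ?_, ?_, ?_⟩
  · intro u v hu hv
    show fvc_pointEquiv W C (s58m_phi hW' (u * v)) =
      fvc_pointEquiv W C (s58m_phi hW' u) + fvc_pointEquiv W C (s58m_phi hW' v)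
    rw [s58m_phi_mul hW' hu hv, map_add]
  · show fvc_pointEquiv W C (s58m_phi hW' 1) = 0
    rw [s58m_phi_one, map_zero]
  · intro u hu0 hu1 h
    exact s58m_phi_ne_zero hW' hu0 hu1 ((fvc_pointEquiv W C).map_eq_zero_iff.mp h)
  · rcases hcases with ⟨hb, hd⟩ | ⟨hb, hd⟩
    · -- split case
      left
      intro u hu0 hu1
      have hu : ¬ (u = 1 ∨ u = 0) := not_or.mpr ⟨hu1, hu0⟩
      have hfu0 : f u ≠ 0 := fun h => hu0 (hinj (h.trans (map_zero f).symm))
      have hfu1 : f u ≠ 1 := fun h => hu1 (hinj (h.trans (map_one f).symm))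
      have hfu : ¬ (f u = 1 ∨ f u = 0) := not_or.mpr ⟨hfu1, hfu0⟩
      have hr : f (d / (1 - u)) = d / (1 - f u) := by
        rw [map_div₀, map_sub, map_one, hd]
      have hPX : f (s58m_PX d (d / (1 - u))) = s58m_PX d (d / (1 - f u)) := by
        simp only [s58m_PX, map_mul, map_sub, hr, hd]
      have hPY : f (s58m_PY β d (d / (1 - u))) = s58m_PY β d (d / (1 - f u)) := by
        simp only [s58m_PY, map_mul, map_sub, map_add, hr, hd, hb]
      have e1 := hcoord u hu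
      have e2 := hcoord (f u) hfu
      have hx : fvc_X C (s58m_PX d (d / (1 - f u))) = f (fvc_X C (s58m_PX d (d / (1 - u)))) := by
        rw [hfX, hPX]
      have hy : fvc_Y C (s58m_PX d (d / (1 - f u))) (s58m_PY β d (d / (1 - f u))) =
          f (fvc_Y C (s58m_PX d (d / (1 - u))) (s58m_PY β d (d / (1 - u)))) := by
        rw [hfY, hPX, hPY]
      refine ⟨_, _, _, ?_, e1, ?_⟩
      · rw [← hx, ← hy]
        exact (fvc_nonsingular W C _ _).mp
          (s58m_nonsingular hW' (s58m_phi_aux hW' hfu).1 (s58m_phi_aux hW' hfu).2)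
      · show fvc_pointEquiv W C (s58m_phi hW' (f u)) = _
        rw [e2]
        exact fvc_some_congr hx hy _ _
    · -- non-split case
      right
      intro u hu0 hu1
      have hu : ¬ (u = 1 ∨ u = 0) := not_or.mpr ⟨hu1, hu0⟩
      have hfu0 : f u ≠ 0 := fun h => hu0 (hinj (h.trans (map_zero f).symm))
      have hfu1 : f u ≠ 1 := fun h => hu1 (hinj (h.trans (map_one f).symm))
      have hv0 : (f u)⁻¹ ≠ 0 := inv_ne_zero hfu0
      have hv1 : (f u)⁻¹ ≠ 1 := fun h => hfu1 (inv_eq_one.mp h)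
      have hv : ¬ ((f u)⁻¹ = 1 ∨ (f u)⁻¹ = 0) := not_or.mpr ⟨hv1, hv0⟩
      have h1fu : 1 - f u ≠ 0 := sub_ne_zero.mpr (Ne.symm hfu1)
      have h1v : 1 - (f u)⁻¹ ≠ 0 := sub_ne_zero.mpr (Ne.symm hv1)
      have hr : f (d / (1 - u)) + d = d / (1 - (f u)⁻¹) := by
        rw [map_div₀, map_sub, map_one, hd]
        field_simp
        ring
      have hPX : f (s58m_PX d (d / (1 - u))) = s58m_PX d (d / (1 - (f u)⁻¹)) := by
        rw [← hr]
        simp only [s58m_PX, map_mul, map_sub, hd]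
        ring
      have hPY : f (s58m_PY β d (d / (1 - u))) = s58m_PY β d (d / (1 - (f u)⁻¹)) := by
        rw [← hr]
        simp only [s58m_PY, map_mul, map_sub, map_add, hd, hb]
        ring
      have e1 := hcoord u hu
      have e2 := hcoord (f u)⁻¹ hv
      have hx : fvc_X C (s58m_PX d (d / (1 - (f u)⁻¹))) =
          f (fvc_X C (s58m_PX d (d / (1 - u)))) := by
        rw [hfX, hPX]
      have hy : fvc_Y C (s58m_PX d (d / (1 - (f u)⁻¹))) (s58m_PY β d (d / (1 - (f u)⁻¹))) =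
          f (fvc_Y C (s58m_PX d (d / (1 - u))) (s58m_PY β d (d / (1 - u)))) := by
        rw [hfY, hPX, hPY]
      refine ⟨_, _, _, ?_, e1, ?_⟩
      · rw [← hx, ← hy]
        exact (fvc_nonsingular W C _ _).mp
          (s58m_nonsingular hW' (s58m_phi_aux hW' hv).1 (s58m_phi_aux hW' hv).2)
      · show fvc_pointEquiv W C (s58m_phi hW' (f u)⁻¹) = _
        rw [e2]
        exact fvc_some_congr hx hy _ _

/-- **the `q`-power Frobenius of a nodal cubic with coefficients in `𝔽_q` is `±q` on points of `λ`-power order.** -/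
theorem s59f_mt_nodal_frob [IsAlgClosed F] (W : WeierstrassCurve F) (hΔ : W.Δ = 0)
    (hc₄ : W.c₄ ≠ 0) (f : F →+* F) (q : ℕ) (hfq : ∀ x : F, f x = x ^ q)
    (hf1 : f W.a₁ = W.a₁) (hf2 : f W.a₂ = W.a₂) (hf3 : f W.a₃ = W.a₃) (hf4 : f W.a₄ = W.a₄)
    (hf6 : f W.a₆ = W.a₆) {lam : ℕ} (hlam : lam.Prime) (hlamF : (lam : F) ≠ 0) :
    ∃ ε : ℤ, (ε = 1 ∨ ε = -1) ∧ ∀ n : ℕ, ∃ (x y : F) (h : W.toAffine.Nonsingular x y)
      (h' : W.toAffine.Nonsingular (x ^ q) (y ^ q)),
      lam ^ (n + 1) • (Point.some x y h : W.toAffine.Point) = 0 ∧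
      lam ^ n • (Point.some x y h : W.toAffine.Point) ≠ 0 ∧
      (Point.some (x ^ q) (y ^ q) h' : W.toAffine.Point) = (ε * (q : ℤ)) • Point.some x y h := by
  obtain ⟨Ψ, hmul, hone, hne, hfrob⟩ := s59f_mt_nodal_param W hΔ hc₄ f hf1 hf2 hf3 hf4 hf6
  have hpow : ∀ (u : F), u ≠ 0 → ∀ n : ℕ, Ψ (u ^ n) = n • Ψ u := by
    intro u hu n
    induction n with
    | zero => rw [pow_zero, zero_nsmul, hone]
    | succ n ih => rw [pow_succ, hmul _ _ (pow_ne_zero n hu) hu, ih, succ_nsmul]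
  have hinv : ∀ (u : F), u ≠ 0 → Ψ u⁻¹ = -Ψ u := by
    intro u hu
    have h := hmul u u⁻¹ hu (inv_ne_zero hu)
    rw [mul_inv_cancel₀ hu, hone] at h
    exact (neg_eq_of_add_eq_zero_right h.symm).symm
  have : NeZero (lam : F) := ⟨hlamF⟩
  -- the primitive roots
  have hroot : ∀ n : ℕ, ∃ ζ : F, ζ ≠ 0 ∧ ζ ≠ 1 ∧ ζ ^ (lam ^ (n + 1)) = 1 ∧ ζ ^ (lam ^ n) ≠ 1 ∧
      ζ ^ (lam ^ n) ≠ 0 := by
    intro n
    haveI : NeZero ((lam ^ (n + 1) : ℕ) : F) := ⟨by
      rw [Nat.cast_pow]; exact pow_ne_zero _ hlamF⟩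
    obtain ⟨ζ, hζ⟩ := HasEnoughRootsOfUnity.exists_primitiveRoot F (lam ^ (n + 1))
    have hpos : 0 < lam ^ (n + 1) := pow_pos hlam.pos _
    have hζ0 : ζ ≠ 0 := hζ.ne_zero hpos.ne'
    have hlt : lam ^ n < lam ^ (n + 1) := Nat.pow_lt_pow_right hlam.one_lt (Nat.lt_succ_self n)
    refine ⟨ζ, hζ0, ?_, hζ.pow_eq_one, ?_, pow_ne_zero _ hζ0⟩
    · intro h1
      have := hζ.pow_ne_one_of_pos_of_lt (one_ne_zero) (lt_of_le_of_lt (Nat.one_le_pow _ _ hlam.pos) hlt)
      rw [pow_one] at this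
      exact this h1
    · exact hζ.pow_ne_one_of_pos_of_lt (pow_pos hlam.pos _).ne' hlt
  rcases hfrob with hsp | hns
  · refine ⟨1, Or.inl rfl, fun n => ?_⟩
    obtain ⟨ζ, hζ0, hζ1, hζa, hζb, hζc⟩ := hroot n
    obtain ⟨x, y, h, h', e1, e2⟩ := hsp ζ hζ0 hζ1
    have h'' : W.toAffine.Nonsingular (x ^ q) (y ^ q) := by
      rw [← hfq x, ← hfq y]; exact h'
    refine ⟨x, y, h, h'', ?_, ?_, ?_⟩
    · rw [← e1, ← hpow ζ hζ0, hζa, hone]
    · rw [← e1, ← hpow ζ hζ0]
      exact hne _ hζc hζb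
    · have e3 : (Point.some (x ^ q) (y ^ q) h'' : W.toAffine.Point) = Point.some (f x) (f y) h' :=
        fvc_some_congr (hfq x).symm (hfq y).symm _ _
      rw [e3, ← e2, hfq ζ, hpow ζ hζ0, e1, one_mul, natCast_zsmul]
  · refine ⟨-1, Or.inr rfl, fun n => ?_⟩
    obtain ⟨ζ, hζ0, hζ1, hζa, hζb, hζc⟩ := hroot n
    obtain ⟨x, y, h, h', e1, e2⟩ := hns ζ hζ0 hζ1
    have h'' : W.toAffine.Nonsingular (x ^ q) (y ^ q) := by
      rw [← hfq x, ← hfq y]; exact h'
    refine ⟨x, y, h, h'', ?_, ?_, ?_⟩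
    · rw [← e1, ← hpow ζ hζ0, hζa, hone]
    · rw [← e1, ← hpow ζ hζ0]
      exact hne _ hζc hζb
    · have e3 : (Point.some (x ^ q) (y ^ q) h'' : W.toAffine.Point) = Point.some (f x) (f y) h' :=
        fvc_some_congr (hfq x).symm (hfq y).symm _ _
      rw [e3, ← e2, hfq ζ, hinv _ (pow_ne_zero q hζ0), hpow ζ hζ0, e1, neg_one_mul, neg_zsmul,
        natCast_zsmul]

end Param

end Fermat.Agent.Lib.S59
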