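/-
PROGRAMME R2 = S59, leaf [W-MULT-TR] (helper4, prefix `s59f_mt_`), part B: **THE FROBENIUS TWIN OF S58's
[MULT-FIX]**: `W / ℤ` multiplicative at `q` (`q ∣ Δ`, `q ∤ c₄`), `λ ≠ q` an odd prime, `A` a valuation subring of
`ℚ̄` over `q`, `σ` a Frobenius element of `A`.  Then there is a sign `ε = ±1` (`+` iff the tangent slopes at the
node of the special fibre are `𝔽_q`-rational) such that for every `n` there is a point `P₀ ∈ W(ℚ̄)` of exact order
`λ^(n+1)` with `σ P₀ = (ε q) P₀`.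

* `s59f_mt_decomp_E1`  : the decomposition group of `A` preserves `E₁`;
* `s59f_mt_E1_zsmul`   : `E₁` is stable under integer multiples;
* `s59f_mt_frob_core`  : the assembly core (twin of `s58m_multFix_core`);
* **`s59f_mt_multFrob`** : the theorem.
-/
import Mathlib
import Fermat.Agent.Lib.S59.FMultTrA
import Fermat.Agent.Lib.S58.MultFixClose

set_option autoImplicit false
set_option linter.unusedSectionVars false
set_option linter.unusedVariables false
set_option linter.style.haveILetI false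
set_option maxHeartbeats 1600000

namespace Fermat.Agent.Lib.S59

open WeierstrassCurve WeierstrassCurve.Affine Fermat.Agent.Lib.Frey Fermat.Agent.Lib.EN
  Fermat.Agent.Lib.S41 Fermat.Agent.Lib.S58 IsLocalRing

local notation "Kb" => AlgebraicClosure ℚ
local notation "Gal" => (AlgebraicClosure ℚ ≃ₐ[ℚ] AlgebraicClosure ℚ)

section core

variable {W : WeierstrassCurve ℤ} {A : ValuationSubring Kb}

/-- the decomposition group preserves `A`. -/
theorem s59f_mt_decomp_mem {σ : Gal} (hσ : σ ∈ A.decompositionSubgroup ℚ) {a : Kb} (ha : a ∈ A) :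
    σ a ∈ A :=
  ((⟨σ, hσ⟩ : A.decompositionSubgroup ℚ) • (⟨a, ha⟩ : A)).2

/-- the decomposition group preserves `E₁`. -/
theorem s59f_mt_decomp_E1 {σ : Gal} (hσ : σ ∈ A.decompositionSubgroup ℚ)
    {S : (s58e_EK W).Point} (hS : fe1_E1 A.valuation S) : fe1_E1 A.valuation (σ • S) := by
  rcases S with _ | ⟨x, y, h⟩
  · exact Or.inl rfl
  · have hx : 1 < A.valuation x := hS.resolve_left (Point.some_ne_zero _)
    obtain ⟨h', e⟩ : ∃ h', σ • (Point.some x y h : (s58e_EK W).Point) =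
        Point.some (σ x) (σ y) h' := ⟨_, rfl⟩
    rw [e]
    refine Or.inr ?_
    show 1 < A.valuation (σ x)
    by_contra hcon
    rw [not_lt] at hcon
    have hinv : σ⁻¹ ∈ A.decompositionSubgroup ℚ := inv_mem hσ
    have h1 : σ x ∈ A := (A.valuation_le_one_iff _).mp hcon
    have h2 := s59f_mt_decomp_mem hinv h1
    have e2 : σ⁻¹ (σ x) = x := by
      show σ.symm (σ x) = x
      exact σ.symm_apply_apply x
    rw [e2] at h2
    exact absurd ((A.valuation_le_one_iff _).mpr h2) (not_le.mpr hx)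

/-- `E₁` is stable under integer multiples. -/
theorem s59f_mt_E1_zsmul {S : (s58e_EK W).Point} (hS : fe1_E1 A.valuation S) (c : ℤ) :
    fe1_E1 A.valuation (c • S) := by
  have hW := s58e_integral W A
  obtain ⟨hb2, hb4, hb6, hb8⟩ := s58e_b_integral A.valuation (s58e_EK W) hW
  rcases Int.eq_nat_or_neg c with ⟨k, rfl | rfl⟩
  · rw [natCast_zsmul]
    exact s58m_E1_nsmul (s58e_EK W) A.valuation hb2 hb4 hb6 hb8 hS k
  · rw [neg_zsmul, natCast_zsmul]
    exact fe1_E1_neg A.valuation (s58m_E1_nsmul (s58e_EK W) A.valuation hb2 hb4 hb6 hb8 hS k)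

/-- **assembly core**: `R` with `λⁿ R ∉ E₁`, `S ∈ E₁` with `λⁿ⁺¹ S = λⁿ⁺¹ R`, `σ R − c R ∈ E₁` for `σ` in the
decomposition group ⟹ `P₀ = R − S` has exact order `λⁿ⁺¹` and `σ P₀ = c P₀`. -/
theorem s59f_mt_frob_core {q : ℕ} (hq : q.Prime) (hA : A.LiesOverPrime q) {lam : ℕ}
    (hlam : lam.Prime) (hlam2 : lam ≠ 2) (hlamq : lam ≠ q) (n : ℕ)
    {σ : Gal} (hσ : σ ∈ A.decompositionSubgroup ℚ) (c : ℤ) {R S : (s58e_EK W).Point}
    (hnR : ¬ fe1_E1 A.valuation (lam ^ n • R)) (hS : fe1_E1 A.valuation S)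
    (hmS : lam ^ (n + 1) • S = lam ^ (n + 1) • R)
    (hσR : fe1_E1 A.valuation (σ • R - c • R)) :
    lam ^ (n + 1) • (R - S) = 0 ∧ lam ^ n • (R - S) ≠ 0 ∧ σ • (R - S) = c • (R - S) := by
  have hW := s58e_integral W A
  obtain ⟨hb2, hb4, hb6, hb8⟩ := s58e_b_integral A.valuation (s58e_EK W) hW
  have hvp : A.valuation (lam : Kb) = 1 :=
    s41a_valuation_natCast_eq_one A hq hA (fun hd =>
      hlamq ((Nat.prime_dvd_prime_iff_eq hq hlam).mp hd).symm)
  have hz : lam ^ (n + 1) • (R - S) = 0 := by rw [nsmul_sub, hmS, sub_self]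
  refine ⟨hz, ?_, ?_⟩
  · intro h0
    rw [nsmul_sub, sub_eq_zero] at h0
    apply hnR
    rw [h0]
    exact s58m_E1_nsmul (s58e_EK W) A.valuation hb2 hb4 hb6 hb8 hS _
  · have h2 : fe1_E1 A.valuation (σ • S - c • S) :=
      s58e_E1_sub (s58e_EK W) A.valuation hb2 hb4 hb6 hb8 (s59f_mt_decomp_E1 hσ hS)
        (s59f_mt_E1_zsmul hS c)
    have h3 : fe1_E1 A.valuation (σ • (R - S) - c • (R - S)) := by
      have e : σ • (R - S) - c • (R - S) = (σ • R - c • R) - (σ • S - c • S) := by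
        rw [smul_sub, zsmul_sub]; abel
      rw [e]
      exact s58e_E1_sub (s58e_EK W) A.valuation hb2 hb4 hb6 hb8 hσR h2
    have h4 : lam ^ (n + 1) • (σ • (R - S) - c • (R - S)) = 0 := by
      have hσz : lam ^ (n + 1) • (σ • (R - S)) = 0 := by
        have := map_nsmul (DistribSMul.toAddMonoidHom (s58e_EK W).Point σ) (lam ^ (n + 1)) (R - S)
        rw [hz, map_zero] at this
        exact this.symm
      have hcz : lam ^ (n + 1) • (c • (R - S)) = 0 := by
        rw [← natCast_zsmul, smul_comm, natCast_zsmul, hz, zsmul_zero]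
      rw [nsmul_sub, hσz, hcz, sub_zero]
    have h0 := s58e_E1_torsion_free_pow (s58e_EK W) A.valuation hb2 hb4 hb6 hb8 hlam hlam2 hvp
      (n + 1) h3 h4
    exact sub_eq_zero.mp h0

end core

section wiring

variable {W : WeierstrassCurve ℤ} {A : ValuationSubring Kb}

/-- the Galois conjugate of an integral point of the model over `A`, in the frame of the reduction relation. -/
theorem s59f_mt_conj_nonsingular (σ : Gal) {x y : Kb}
    (h : (s41a_WK A (s41a_WA W A)).toAffine.Nonsingular x y) :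
    (s41a_WK A (s41a_WA W A)).toAffine.Nonsingular (σ x) (σ y) := by
  have h1 := (Affine.map_nonsingular (W := (s41a_WK A (s41a_WA W A)).toAffine)
    (f := (σ : Kb →+* Kb)) σ.injective x y).mpr h
  rw [show ((s41a_WK A (s41a_WA W A)).toAffine.map (σ : Kb →+* Kb)) =
    (s41a_WK A (s41a_WA W A)).toAffine from s41a_WK_map W A (σ : Kb →+* Kb)] at h1
  exact h1

/-- **[MULT-FROB]**: at a multiplicative prime `q`, a Frobenius element acts as `ε q`, `ε = ±1`, on points of
exact order `λ^(n+1)` (for every `n`, with `ε` independent of `n`). -/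
theorem s59f_mt_multFrob (W : WeierstrassCurve ℤ) (hΔ : W.Δ ≠ 0) {q : ℕ} (hq : q.Prime)
    (hbad : (q : ℤ) ∣ W.Δ) (hc4 : ¬ (q : ℤ) ∣ W.c₄) {lam : ℕ} (hlam : lam.Prime)
    (hlam2 : lam ≠ 2) (hlamq : lam ≠ q) (A : ValuationSubring Kb) (hA : A.LiesOverPrime q)
    (σ : Gal) (hσ : A.IsFrobeniusAt σ q) :
    ∃ ε : ℤ, (ε = 1 ∨ ε = -1) ∧ ∀ n : ℕ, ∃ P₀ : (s58e_EK W).Point,
      lam ^ (n + 1) • P₀ = 0 ∧ lam ^ n • P₀ ≠ 0 ∧ σ • P₀ = (ε * (q : ℤ)) • P₀ := by
  classical
  have hch : CharP (ResidueField A) q := s41a_charP_residueField A hq hA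
  have hac : IsAlgClosed (ResidueField A) := s41a_isAlgClosed_residueField A
  haveI : Fact q.Prime := ⟨hq⟩
  have hWk := s41a_Wk_eq W A
  -- the special fibre is a nodal cubic with coefficients in the prime field
  have hΔk : (s41a_Wk A (s41a_WA W A)).Δ = 0 := by
    rw [hWk, map_Δ, eq_intCast]
    exact (CharP.intCast_eq_zero_iff (ResidueField A) q W.Δ).mpr hbad
  have hc4k : (s41a_Wk A (s41a_WA W A)).c₄ ≠ 0 := by
    rw [hWk, map_c₄, eq_intCast]
    intro h0
    exact hc4 ((CharP.intCast_eq_zero_iff (ResidueField A) q W.c₄).mp h0)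
  have hlamF : ((lam : ℕ) : ResidueField A) ≠ 0 := by
    intro h0
    have := (CharP.cast_eq_zero_iff (ResidueField A) q lam).mp h0
    exact hlamq ((Nat.prime_dvd_prime_iff_eq hq hlam).mp this).symm
  have hfix : ∀ z : ℤ, frobenius (ResidueField A) q ((Int.castRingHom (ResidueField A)) z) =
      (Int.castRingHom (ResidueField A)) z := fun z => by
    rw [eq_intCast, map_intCast]
  obtain ⟨ε, hε, H⟩ := s59f_mt_nodal_frob (s41a_Wk A (s41a_WA W A)) hΔk hc4k
    (frobenius (ResidueField A) q) q (fun x => frobenius_def q x)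
    (by rw [hWk]; exact hfix _) (by rw [hWk]; exact hfix _) (by rw [hWk]; exact hfix _)
    (by rw [hWk]; exact hfix _) (by rw [hWk]; exact hfix _) hlam hlamF
  refine ⟨ε, hε, fun n => ?_⟩
  obtain ⟨xt, yt, ht, ht', hRt1, hRt2, hRt3⟩ := H n
  set Rt : (s41a_Wk A (s41a_WA W A)).toAffine.Point := Point.some xt yt ht with hRtdef
  set m := lam ^ (n + 1) with hm
  have hm2 : 2 ≤ m := by
    calc 2 ≤ lam := hlam.two_le
      _ = lam ^ 1 := (pow_one lam).symm
      _ ≤ lam ^ (n + 1) := Nat.pow_le_pow_right hlam.pos (by omega)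
  have hlt : lam ^ n < m := Nat.pow_lt_pow_right hlam.one_lt (Nat.lt_succ_self n)
  have hfact : Fact lam.Prime := ⟨hlam⟩
  have hord : addOrderOf Rt = m := addOrderOf_eq_prime_pow hRt2 hRt1
  have hordk : ∀ k, 0 < k → k < m → k • Rt ≠ 0 := by
    intro k hk0 hkm h0
    have := addOrderOf_dvd_of_nsmul_eq_zero h0
    rw [hord] at this
    exact absurd (Nat.le_of_dvd hk0 this) (not_le.mpr hkm)
  -- lift
  obtain ⟨R, hR⟩ := s58g_exists_lift (A := A) (W := s41a_WA W A) ht
  have hmul := s58g_red_nsmul hR m hordk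
  -- `m • R ∈ E₁`
  have hmR : frd_E1 A.valuation (s41a_WK A (s41a_WA W A)).toAffine (m • R) := by
    have h1 := hmul (m - 1) (by omega) (by omega)
    have e1 : (m - 1) • Rt = -Rt := by
      rw [eq_neg_iff_add_eq_zero, ← succ_nsmul, show m - 1 + 1 = m by omega]
      exact hRt1
    rw [e1] at h1
    have h2 := s58g_sub_mem_E1 h1 (s58g_red_neg hR)
    have e2 : (m - 1) • R - -R = m • R := by
      rw [sub_neg_eq_add, ← succ_nsmul, show m - 1 + 1 = m by omega]
    rwa [e2] at h2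
  -- `lam ^ n • R` is integral
  obtain ⟨a', b', hns', hns'', e', -⟩ := hmul (lam ^ n) (pow_pos hlam.pos n) hlt
  -- the residue of `q` modulo `m`
  set k := q % m with hk
  have hkm : k < m := Nat.mod_lt _ (by omega)
  have hk0 : 0 < k := by
    rcases Nat.eq_zero_or_pos k with h0 | h0
    · exfalso
      have hdvd : m ∣ q := Nat.dvd_of_mod_eq_zero h0
      have : lam ∣ q := (dvd_pow_self lam (Nat.succ_ne_zero n)).trans hdvd
      exact hlamq ((Nat.prime_dvd_prime_iff_eq hlam hq).mp this)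
    · exact h0
  have hqk : ∀ {G : Type} [AddCommGroup G] (P : G), m • P = 0 → (q : ℤ) • P = (k : ℤ) • P := by
    intro G _ P hP
    have e : (q : ℤ) = (m : ℤ) * ((q / m : ℕ) : ℤ) + (k : ℤ) := by
      have := Nat.div_add_mod q m
      rw [← hk] at this
      exact_mod_cast this.symm
    rw [e, add_zsmul, mul_comm, mul_zsmul, natCast_zsmul P m, hP, zsmul_zero, zero_add]
  have hkR := hmul k hk0 hkm
  -- coordinates of `R`
  obtain ⟨a, b, h₁, h₁', rfl, hRt⟩ := hR
  -- the conjugate point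
  have hσa : σ (a : Kb) ∈ A := s41a_frob_mem hσ _ a.2
  have hσb : σ (b : Kb) ∈ A := s41a_frob_mem hσ _ b.2
  have hcoords : xt = residue A a ∧ yt = residue A b := by
    rw [Point.some.injEq] at hRt
    exact hRt
  have hresa : residue A ⟨σ (a : Kb), hσa⟩ = xt ^ q := by
    rw [s41a_frob_res hσ a hσa, hcoords.1]
  have hresb : residue A ⟨σ (b : Kb), hσb⟩ = yt ^ q := by
    rw [s41a_frob_res hσ b hσb, hcoords.2]
  have hσns : (s41a_WK A (s41a_WA W A)).toAffine.Nonsingular (σ (a : Kb)) (σ (b : Kb)) :=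
    s59f_mt_conj_nonsingular σ h₁
  have hσRed : s58g_Red A (s41a_WA W A)
      (Point.some (σ (a : Kb)) (σ (b : Kb)) hσns) (Point.some (xt ^ q) (yt ^ q) ht') := by
    refine ⟨⟨σ (a : Kb), hσa⟩, ⟨σ (b : Kb), hσb⟩, hσns, ?_, rfl, ?_⟩
    · rw [hresa, hresb]; exact ht'
    · exact fvc_some_congr hresa.symm hresb.symm _ _
  -- `σ R − (ε k) R ∈ E₁` in the frame of the reduction relation
  have hRt3' : (Point.some (xt ^ q) (yt ^ q) ht' : (s41a_Wk A (s41a_WA W A)).toAffine.Point) =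
      (ε * (k : ℤ)) • Rt := by
    rw [hRt3, mul_zsmul, mul_zsmul, hqk Rt hRt1]
  have hdiff : frd_E1 A.valuation (s41a_WK A (s41a_WA W A)).toAffine
      (Point.some (σ (a : Kb)) (σ (b : Kb)) hσns -
        (ε * (k : ℤ)) • (Point.some (a : Kb) (b : Kb) h₁ :
          (s41a_WK A (s41a_WA W A)).toAffine.Point)) := by
    rcases hε with rfl | rfl
    · rw [one_mul, natCast_zsmul] at hRt3' ⊢
      rw [hRt3'] at hσRed
      exact s58g_sub_mem_E1 hσRed hkR
    · rw [neg_one_mul, neg_zsmul, natCast_zsmul] at hRt3' ⊢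
      rw [hRt3'] at hσRed
      exact s58g_sub_mem_E1 hσRed (s58g_red_neg hkR)
  -- transport to the Prelude frame
  have heq := s58m_curve_eq W A
  set Φ := fab_congr heq with hΦ
  have hΦR : Φ (Point.some (a : Kb) (b : Kb) h₁) = Point.some (a : Kb) (b : Kb) (heq ▸ h₁) :=
    fab_congr_some heq h₁
  have hΦσR : Φ (Point.some (σ (a : Kb)) (σ (b : Kb)) hσns) =
      σ • (Point.some (a : Kb) (b : Kb) (heq ▸ h₁) : (s58e_EK W).Point) := by
    rw [hΦ, fab_congr_some heq hσns]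
    rfl
  have hmR' : fe1_E1 A.valuation
      (m • (Point.some (a : Kb) (b : Kb) (heq ▸ h₁) : (s58e_EK W).Point)) := by
    rw [← hΦR, ← map_nsmul, s58m_congr_E1]
    exact (s58e_E1_iff A.valuation _ _).mp hmR
  have hnR' : ¬ fe1_E1 A.valuation
      (lam ^ n • (Point.some (a : Kb) (b : Kb) (heq ▸ h₁) : (s58e_EK W).Point)) := by
    rw [← hΦR, ← map_nsmul, s58m_congr_E1, e']
    rintro (h0 | h0)
    · exact Point.some_ne_zero _ h0
    · exact absurd (A.valuation_le_one a') (not_le.mpr h0)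
  have hdiff' : fe1_E1 A.valuation
      (σ • (Point.some (a : Kb) (b : Kb) (heq ▸ h₁) : (s58e_EK W).Point) -
        (ε * (k : ℤ)) • (Point.some (a : Kb) (b : Kb) (heq ▸ h₁) : (s58e_EK W).Point)) := by
    rw [← hΦσR, ← hΦR, ← map_zsmul, ← map_sub, s58m_congr_E1]
    exact (s58e_E1_iff A.valuation _ _).mp hdiff
  -- divide in `E₁`
  have hW := s58e_integral W A
  obtain ⟨hb2, hb4, hb6, hb8⟩ := s58e_b_integral A.valuation (s58e_EK W) hW
  have hΔK : (s58e_EK W).Δ ≠ 0 := by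
    rw [s58e_EK_Δ]
    exact_mod_cast hΔ
  have hvp : A.valuation (((lam ^ (n + 1) : ℕ)) : Kb) = 1 :=
    s41a_valuation_natCast_eq_one A hq hA (fun hd =>
      hlamq ((Nat.prime_dvd_prime_iff_eq hq hlam).mp (hq.dvd_of_dvd_pow hd)).symm)
  obtain ⟨S, hS, hmS⟩ := s58d_E1_divisible (s58e_EK W) A.valuation hb2 hb4 hb6 hb8 hΔK
    (pow_pos hlam.pos (n + 1)) hvp hmR'
  obtain ⟨c1, c2, c3⟩ := s59f_mt_frob_core hq hA hlam hlam2 hlamq n hσ.mem_decompositionSubgroup
    (ε * (k : ℤ)) hnR' hS hmS hdiff'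
  refine ⟨_, c1, c2, ?_⟩
  rw [c3, mul_zsmul, mul_zsmul, hqk _ c1]

end wiring

end Fermat.Agent.Lib.S59
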