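/-
PROGRAMME R2 = S59, leaf [W-MULT-TR] (helper4, prefix `s59f_mt_`), part C: **THE TRACE OF FROBENIUS OF `ρ_{W,p}`
AT A MULTIPLICATIVE PRIME `q ≠ p` IS `ε(q + 1)`, `ε = ±1` — with NO hypothesis on the ramification of `ρ_W` at `q`.**

From the points `P₀` of exact order `p^(n+1)` with `σ P₀ = (ε q) P₀` (`s59f_mt_multFrob`, FMultTrB) and helper8's comparison
`s58w_rel_of_points` (Lib/S58/WCons): `ρ_W(σ) + q ρ_W(σ⁻¹) = ε(q+1)`, `det ρ_W(σ) = q`, hence (Cayley–Hamilton)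
`tr ρ_W(σ) = ε(q+1)`.

* `s59f_mt_rel`         : the relation for `ρ_W = s59b_rhoW W p hΔ` over `ℤ_p`;
* `s59f_mt_charpoly`    : `charpoly ρ_W(σ) = X² − ε(q+1) X + q`;
* **`s59f_mt_trace`**   : `s59i_cpTr (s59q_WRho W hΔ hp𝒪) σ = ε (q + 1)` over any coefficient ring `𝒪`;
* **`s59f_mt_residual_cp`** : `charpoly ρ̄(σ) = (X − ε̄q)(X − ε̄)`.
-/
import Mathlib
import Fermat.Agent.Lib.S59.FMultTrB
import Fermat.Agent.Lib.S59.QWRB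

set_option autoImplicit false
set_option linter.unusedSectionVars false
set_option linter.unusedVariables false
set_option linter.style.haveILetI false
set_option maxHeartbeats 1600000
set_option synthInstance.maxHeartbeats 400000

noncomputable section

namespace Fermat.Agent.Lib.S59

open IsLocalRing Polynomial Fermat.Agent.Lib.S58 Fermat.Agent.Lib.S30 Fermat.Agent.Lib.S35

local notation "Kb" => AlgebraicClosure ℚ
local notation "Γℚ" => (AlgebraicClosure ℚ ≃ₐ[ℚ] AlgebraicClosure ℚ)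

variable (W : WeierstrassCurve ℤ) {p : ℕ} [hpP : Fact p.Prime] (hΔ : W.Δ ≠ 0)

/-- **the relation `ρ_W(σ) + q ρ_W(σ⁻¹) = ε(q+1)` at a multiplicative prime.** -/
theorem s59f_mt_rel (hp2 : p ≠ 2) (hirr : W.ModRepIsIrreducible p) (hss : W.IsSemistableModel)
    (q : ℕ) (hq : q.Prime) (hqp : q ≠ p) (hbad : ¬ W.IsGoodPrimeFor q)
    (A : ValuationSubring Kb) (hA : A.LiesOverPrime q) (σ : Γℚ) (hσ : A.IsFrobeniusAt σ q) :
    ∃ ε : ℤ, (ε = 1 ∨ ε = -1) ∧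
      (s59b_rhoW W p hΔ).ρ σ + (q : ℤ) • (s59b_rhoW W p hΔ).ρ σ⁻¹ =
        (ε * ((q : ℤ) + 1)) • (1 : Module.End ℤ_[p] (s59b_rhoW W p hΔ).V) ∧
      LinearMap.det ((s59b_rhoW W p hΔ).ρ σ) = (((q : ℤ) : ℤ) : ℤ_[p]) := by
  have hdvd : (q : ℤ) ∣ W.Δ := by
    by_contra h
    exact hbad h
  obtain ⟨ε, hε, H⟩ := s59f_mt_multFrob W hΔ hq hdvd (hss q hq hdvd) hpP.out hp2 (Ne.symm hqp)
    A hA σ hσ
  have hε2 : ε * ε = 1 := by rcases hε with h | h <;> rw [h] <;> ring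
  refine ⟨ε, hε, ?_⟩
  refine s58w_rel_of_points s58o_ellLevel (s59b_rhoW_setup hΔ hp2 hirr) σ (q : ℤ)
    (ε * ((q : ℤ) + 1)) ?_ ?_
  · rw [s30y_frob p q hq hqp A hA σ hσ, Int.cast_natCast]
  · intro n
    obtain ⟨P₀, h1, h2, h3⟩ := H n
    refine ⟨P₀, h1, h2, ?_⟩
    -- `P₀ = (ε q) • σ⁻¹ P₀`
    have h4 : P₀ = (ε * (q : ℤ)) • (σ⁻¹ • P₀) := by
      have := congrArg (fun P => σ⁻¹ • P) h3
      simp only [inv_smul_smul] at this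
      exact this.trans (map_zsmul (DistribSMul.toAddMonoidHom (s58e_EK W).Point σ⁻¹)
        (ε * (q : ℤ)) P₀)
    have h5 : (q : ℤ) • (σ⁻¹ • P₀) = ε • P₀ := by
      conv_rhs => rw [h4]
      rw [← mul_zsmul, ← mul_assoc, hε2, one_mul]
    rw [h3, h5, ← add_zsmul]
    congr 1
    ring

/-- **the characteristic polynomial of `ρ_W(Frob_q)` at a multiplicative prime.** -/
theorem s59f_mt_charpoly (hp2 : p ≠ 2) (hirr : W.ModRepIsIrreducible p) (hss : W.IsSemistableModel)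
    (q : ℕ) (hq : q.Prime) (hqp : q ≠ p) (hbad : ¬ W.IsGoodPrimeFor q)
    (A : ValuationSubring Kb) (hA : A.LiesOverPrime q) (σ : Γℚ) (hσ : A.IsFrobeniusAt σ q) :
    ∃ ε : ℤ, (ε = 1 ∨ ε = -1) ∧
      LinearMap.charpoly ((s59b_rhoW W p hΔ).ρ σ) =
        X ^ 2 - C (((ε * ((q : ℤ) + 1) : ℤ) : ℤ_[p])) * X + C ((q : ℤ_[p])) := by
  obtain ⟨ε, hε, hrel, hdet⟩ := s59f_mt_rel W hΔ hp2 hirr hss q hq hqp hbad A hA σ hσ
  refine ⟨ε, hε, ?_⟩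
  set ρ := s59b_rhoW W p hΔ with hρ
  have hinv : ρ.ρ σ⁻¹ * ρ.ρ σ = 1 := by rw [← map_mul, inv_mul_cancel, map_one]
  have hinv' : ρ.ρ σ * ρ.ρ σ⁻¹ = 1 := by rw [← map_mul, mul_inv_cancel, map_one]
  -- `ρσ * ρσ = s' ρσ − q`
  have hsq : ρ.ρ σ * ρ.ρ σ = (ε * ((q : ℤ) + 1)) • ρ.ρ σ - (q : ℤ) • (1 : Module.End ℤ_[p] ρ.V) := by
    have := congrArg (fun f : Module.End ℤ_[p] ρ.V => f * ρ.ρ σ) hrel
    simp only [add_mul, hinv, smul_mul_assoc, one_mul] at this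
    rw [← this]; abel
  have hCH := s35el_sq_eq ρ.finrank_eq (ρ.ρ σ)
  rw [hdet, hsq] at hCH
  haveI : Nontrivial ρ.V :=
    Module.nontrivial_of_finrank_pos (R := ℤ_[p]) (by rw [ρ.finrank_eq]; norm_num)
  -- `(tr − s') • ρσ = 0`
  have h3 : (LinearMap.trace ℤ_[p] ρ.V (ρ.ρ σ)) • ρ.ρ σ =
      (((ε * ((q : ℤ) + 1) : ℤ) : ℤ_[p])) • ρ.ρ σ := by
    have h4 : (ε * ((q : ℤ) + 1)) • ρ.ρ σ = (((ε * ((q : ℤ) + 1) : ℤ) : ℤ_[p])) • ρ.ρ σ := by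
      rw [Int.cast_smul_eq_zsmul]
    have h5 : (q : ℤ) • (1 : Module.End ℤ_[p] ρ.V) = (((q : ℤ) : ℤ) : ℤ_[p]) • (1 : Module.End ℤ_[p] ρ.V) := by
      rw [Int.cast_smul_eq_zsmul]
    rw [← h4]
    rw [h5] at hCH
    have h6 := congrArg (fun f : Module.End ℤ_[p] ρ.V => f + (((q : ℤ) : ℤ) : ℤ_[p]) • (1 : Module.End ℤ_[p] ρ.V)) hCH
    simp only [sub_add_cancel] at h6
    exact h6.symm
  have h2 : (LinearMap.trace ℤ_[p] ρ.V (ρ.ρ σ)) • (1 : Module.End ℤ_[p] ρ.V) =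
      (((ε * ((q : ℤ) + 1) : ℤ) : ℤ_[p])) • (1 : Module.End ℤ_[p] ρ.V) := by
    have := congrArg (fun f : Module.End ℤ_[p] ρ.V => f * ρ.ρ σ⁻¹) h3
    simpa only [smul_mul_assoc, hinv'] using this
  have htr : LinearMap.trace ℤ_[p] ρ.V (ρ.ρ σ) = (((ε * ((q : ℤ) + 1) : ℤ) : ℤ_[p])) :=
    s30d_smul_one_injective h2
  rw [s35el_charpoly_eq ρ.finrank_eq, htr, hdet, Int.cast_natCast]

variable {𝒪 : Type} [CommRing 𝒪] [IsDomain 𝒪] [IsDiscreteValuationRing 𝒪]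
  [IsAdicComplete (maximalIdeal 𝒪) 𝒪] [CharZero 𝒪] [Algebra ℤ_[p] 𝒪]
  (hp𝒪 : ((p : ℕ) : 𝒪) ∈ maximalIdeal 𝒪)

/-- **[W-MULT-TR]: `tr ρ_W(Frob_q) = ε(q + 1)` at every multiplicative prime `q ≠ p`.** -/
theorem s59f_mt_trace (hp2 : p ≠ 2) (hirr : W.ModRepIsIrreducible p) (hss : W.IsSemistableModel)
    (q : ℕ) (hq : q.Prime) (hqp : q ≠ p) (hbad : ¬ W.IsGoodPrimeFor q)
    (A : ValuationSubring Kb) (hA : A.LiesOverPrime q) (σ : Γℚ) (hσ : A.IsFrobeniusAt σ q) :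
    ∃ ε : 𝒪, (ε = 1 ∨ ε = -1) ∧
      s59i_cpTr (s59q_WRho W hΔ hp𝒪) σ = ε * (((q : ℕ) : 𝒪) + 1) := by
  obtain ⟨ε, hε, hcp⟩ := s59f_mt_charpoly W hΔ hp2 hirr hss q hq hqp hbad A hA σ hσ
  refine ⟨((ε : ℤ) : 𝒪), ?_, ?_⟩
  · rcases hε with rfl | rfl
    · left; simp
    · right; simp
  · refine s59i_cpTr_of_charpoly _ σ _ ((q : ℕ) : 𝒪) ?_
    rw [s59e_bc_charpoly, hcp]
    simp

end Fermat.Agent.Lib.S59
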