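/-
PROGRAMME R2 = S59, leaf [W-MULT-TR] (helper4, prefix `s59f_mt_`), part D: **THE SIGN AT A BAD PRIME `q ≠ p` OF A
SEMISTABLE `W` — WITHOUT ANY HYPOTHESIS ON THE RAMIFICATION OF `ρ_W` AT `q`** (the twin of `s59f_W_sign`, FAsmW4, with
`hram : ¬ ρ_W.IsUnramifiedAt q` replaced by `hbad : ¬ W.IsGoodPrimeFor q`).

* **`s59f_mt_W_sign`** : `∃ ε = ±1, tr ρ_W(φ) = ε(q+1) ∧ charpoly ρ̄(φ) = (X − ε̄q)(X − ε̄)` for every Frobenius `φ` at every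
                         place over `q`;
* `s59f_mt_tr_mem`     : if moreover `p ∣ q + 1`, `tr ρ_W(φ) ∈ 𝔪` (the hypothesis `hstr` of the (c2)-phantom case:
                         `W` bad at `s`, `ρ_W` unramified at `s`).
-/
import Mathlib
import Fermat.Agent.Lib.S59.FMultTrC
import Fermat.Agent.Lib.S59.FAsmW4

set_option autoImplicit false
set_option linter.unusedSectionVars false
set_option linter.unusedVariables false
set_option linter.style.haveILetI false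
set_option maxHeartbeats 1600000
set_option synthInstance.maxHeartbeats 400000

noncomputable section

namespace Fermat.Agent.Lib.S59

open IsLocalRing Polynomial

local notation "Kb" => AlgebraicClosure ℚ
local notation "Γℚ" => (AlgebraicClosure ℚ ≃ₐ[ℚ] AlgebraicClosure ℚ)

variable (W : WeierstrassCurve ℤ) {p : ℕ} [hpP : Fact p.Prime] (hΔ : W.Δ ≠ 0)
  {𝒪 : Type} [CommRing 𝒪] [IsDomain 𝒪] [IsDiscreteValuationRing 𝒪]
  [IsAdicComplete (maximalIdeal 𝒪) 𝒪] [CharZero 𝒪] [Algebra ℤ_[p] 𝒪]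
  (hp𝒪 : ((p : ℕ) : 𝒪) ∈ maximalIdeal 𝒪)

/-- **the sign at a bad prime `q ≠ p`** (no hypothesis on the ramification of `ρ_W` at `q`). -/
theorem s59f_mt_W_sign (hp2 : p ≠ 2) (hss : W.IsSemistableModel) (hirr : W.ModRepIsIrreducible p)
    (q : ℕ) (hq : q.Prime) (hqp : q ≠ p) (hbad : ¬ W.IsGoodPrimeFor q)
    (P : ValuationSubring Kb) (hP : P.LiesOverPrime q) (φ : Γℚ) (hφ : P.IsFrobeniusAt φ q) :
    ∃ ε : 𝒪, (ε = 1 ∨ ε = -1) ∧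
      s59i_cpTr (s59q_WRho W hΔ hp𝒪) φ = ε * (((q : ℕ) : 𝒪) + 1) ∧
      LinearMap.charpoly ((s59q_WRhobar W hΔ hp𝒪).ρ φ) =
        (X - C (residue 𝒪 (ε * ((q : ℕ) : 𝒪)))) * (X - C (residue 𝒪 ε)) := by
  obtain ⟨ε, hε, htr⟩ := s59f_mt_trace W hΔ hp𝒪 hp2 hirr hss q hq hqp hbad P hP φ hφ
  refine ⟨ε, hε, htr, ?_⟩
  have hε2 : ε * ε = 1 := by rcases hε with h | h <;> rw [h] <;> ring
  rw [s59q_W_charpoly_frob W hΔ hp𝒪 hp2 hirr q hq hqp P hP φ hφ,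
    s59f_residual_trace (s59q_WRho W hΔ hp𝒪) φ, htr]
  have h1 : ((q : ℕ) : ResidueField 𝒪) = residue 𝒪 (ε * ((q : ℕ) : 𝒪)) * residue 𝒪 ε := by
    rw [← map_mul, show ε * ((q : ℕ) : 𝒪) * ε = (ε * ε) * ((q : ℕ) : 𝒪) by ring, hε2, one_mul,
      map_natCast]
  have h2 : residue 𝒪 (ε * (((q : ℕ) : 𝒪) + 1)) =
      residue 𝒪 (ε * ((q : ℕ) : 𝒪)) + residue 𝒪 ε := by
    rw [← map_add]; congr 1; ring
  rw [h1, h2, C_mul, C_add]
  ring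

/-- at a bad prime `q ≡ −1 (p)`, `tr ρ_W(Frob_q) ∈ 𝔪`. -/
theorem s59f_mt_tr_mem (hp2 : p ≠ 2) (hss : W.IsSemistableModel) (hirr : W.ModRepIsIrreducible p)
    (q : ℕ) (hq : q.Prime) (hqp : q ≠ p) (hbad : ¬ W.IsGoodPrimeFor q) (hq1 : p ∣ q + 1)
    (P : ValuationSubring Kb) (hP : P.LiesOverPrime q) (φ : Γℚ) (hφ : P.IsFrobeniusAt φ q) :
    s59i_cpTr (s59q_WRho W hΔ hp𝒪) φ ∈ maximalIdeal 𝒪 := by
  obtain ⟨ε, -, htr⟩ := s59f_mt_trace W hΔ hp𝒪 hp2 hirr hss q hq hqp hbad P hP φ hφ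
  rw [htr]
  refine Ideal.mul_mem_left _ _ ?_
  obtain ⟨c, hc⟩ := hq1
  have : ((q : ℕ) : 𝒪) + 1 = ((p : ℕ) : 𝒪) * ((c : ℕ) : 𝒪) := by
    have := congrArg (fun n : ℕ => (n : 𝒪)) hc
    simpa using this
  rw [this]
  exact Ideal.mul_mem_right _ _ hp𝒪

end Fermat.Agent.Lib.S59
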