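/-
S59 / [PATCH-FLR] / (T6) = [NEW-q], part (I-a) (helper4, prefix `s59f_`): **`hnew` at an auxiliary prime
`r ∤ M`.**

`Φ ∈ H_par(Γ₀(M r), 𝒪)` (`r ∤ M` prime; `𝒪` a domain of characteristic zero over `ℤ_[p]`), `Φ ≠ 0`,
`T_ℓ Φ = y ℓ • Φ` (`ℓ ∤ M r`, `ℓ ∉ S`), `cor_A Φ = 0 = cor_B Φ` (S41's transfers `s41l_corA`, `s41l_corB`)
⟹ there is `v ≠ 0` in `𝒪 ⊗[ℤ_p] T_p J₀(M r)` with `T_ℓ v = y ℓ • v`, `α_T v = 0`, `β_T v = 0`
(S35's `s35c_alphaT`, `s35c_betaT`).  Port of helper2's `s59b_hnew` (level `M q`, `q ∣ M`) with helper2's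
κ–push at `ℓ ∤ M` (`s59b_kappa_alphaPush`, `s59b_kappa_betaPush`, BKappa.lean).
-/
import Mathlib
import Fermat.Agent.Lib.S59.BNEig
import Fermat.Agent.Lib.S59.BNBridge

set_option autoImplicit false
set_option linter.unusedSectionVars false
set_option linter.style.haveILetI false

open AlgebraicCurve ModularCurve CongruenceSubgroup ModularCurve.Period
open scoped TensorProduct MatrixGroups

namespace Fermat.Agent.Lib.S59

open Fermat.Agent.Lib.S29 Fermat.Agent.Lib.S30 Fermat.Agent.Lib.S35 Fermat.Agent.Lib.S36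
  Fermat.Agent.Lib.S41
open Matrix

noncomputable section

section NewR

variable (M r : ℕ) [NeZero M] [NeZero r] [hr : Fact r.Prime] (hrM : ¬ r ∣ M) (p : ℕ) [Fact p.Prime]

theorem s59f_famCorA_det (x : OnePoint (ZMod r)) : ((s41l_famCorA M r hrM).g x).det ≠ 0 := by
  show (s41l_rA M r hrM x).det ≠ 0
  rw [s41l_rA_det]
  exact one_ne_zero

theorem s59f_famCorB_det (x : OnePoint (ZMod r)) : ((s41l_famCorB M r hrM).g x).det ≠ 0 := by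
  show (s41l_rB M r hrM x).det ≠ 0
  rw [s41l_rB_det]
  exact s41l_l_ne_zero r

/-- **`κ_∞ (α_T t) = cor_A (κ_∞ t)`** at `r ∤ M`. -/
theorem s59f_kinf_alphaT (t : s30a_TJ (M * r) p) :
    s30u_kinf M p (s35c_alphaT M r hr.out hrM p t) =
      (s41l_famCorA M r hrM).op ℤ_[p] (s30u_kinf (M * r) p t) :=
  s59b_kinf_push M r p (s41l_famCorA M r hrM) (s35c_alphaPush M r hr.out hrM)
    (fun n _ z z' h => s59b_kappa_alphaPush M r hrM n z z' h) t _ (fun _ => rfl)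

/-- **`κ_∞ (β_T t) = cor_B (κ_∞ t)`** at `r ∤ M`. -/
theorem s59f_kinf_betaT (t : s30a_TJ (M * r) p) :
    s30u_kinf M p (s35c_betaT M r hr.out hrM p t) =
      (s41l_famCorB M r hrM).op ℤ_[p] (s30u_kinf (M * r) p t) :=
  s59b_kinf_push M r p (s41l_famCorB M r hrM) (s35c_betaPush M r hr.out hrM)
    (fun n _ z z' h => s59b_kappa_betaPush M r hrM n z z' h) t _ (fun _ => rfl)

/-- **`hnew` at `r ∤ M`**: a kernel-new eigenclass in `H_par(Γ₀(M r), 𝒪)` gives an eigenvector in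
`𝒪 ⊗ T_p J₀(M r)` killed by both push-forwards to level `M`. -/
theorem s59f_hnewR (S : Set ℕ) (𝒪 : Type*) [CommRing 𝒪] [IsDomain 𝒪] [CharZero 𝒪] [Algebra ℤ_[p] 𝒪]
    (Φ : Additive (Gamma0 (M * r)) →+ 𝒪) (hΦ : IsParabolicHom (Gamma0 (M * r)) Φ) (hΦ0 : Φ ≠ 0)
    (y : ℕ → 𝒪)
    (hT : ∀ (ℓ : ℕ) [Fact ℓ.Prime], ¬ ℓ ∣ M * r → ℓ ∉ S →
      s29h_heckeHom (M * r) ℓ 𝒪 Φ = y ℓ • Φ)
    (hcA : s41l_corA M r hrM 𝒪 Φ = 0) (hcB : s41l_corB M r hrM 𝒪 Φ = 0) :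
    ∃ v : 𝒪 ⊗[ℤ_[p]] s30a_TJ (M * r) p, v ≠ 0 ∧
      (∀ (ℓ : ℕ) (hℓ : ℓ.Prime), ¬ ℓ ∣ M * r → ℓ ∉ S →
        (s30a_Tz (M * r) p ⟨ℓ, hℓ⟩).baseChange 𝒪 v = y ℓ • v) ∧
      (s35c_alphaT M r hr.out hrM p).baseChange 𝒪 v = 0 ∧
      (s35c_betaT M r hr.out hrM p).baseChange 𝒪 v = 0 := by
  classical
  haveI : Module.Flat ℤ_[p] 𝒪 := s30e_flat_padicInt p 𝒪
  haveI : IsAddTorsionFree 𝒪 := inferInstance
  let b₁ := Module.finBasis ℤ ↥(s29s_M (M * r))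
  let b₀ := Module.finBasis ℤ ↥(s29s_M M)
  have hΦH : Φ ∈ s29h_Hpar 𝒪 (M * r) 𝒪 := s29h_mem_Hpar_of_parabolic hΦ
  obtain ⟨c, hc⟩ := s59b_exists_coeffs0 b₁ 𝒪 Φ hΦH
  have hc0 : c ≠ 0 := by
    rintro rfl
    apply hΦ0
    rw [hc]
    simp
  have hli : LinearIndependent ℤ_[p] (fun i => s30i_iota (M * r) p (b₁ i)) :=
    s30e_iota_linearIndependent (M * r) p (s30u_kinf (M * r) p)
      (fun x k γ => s30u_kinf_spec (M * r) p x k γ) b₁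
  refine ⟨∑ i, c i ⊗ₜ[ℤ_[p]] s30i_iota (M * r) p (b₁ i),
    s30e_tensor_sum_ne_zero _ hli c hc0, ?_, ?_, ?_⟩
  · intro ℓ hℓ hℓN hℓS
    haveI : Fact ℓ.Prime := ⟨hℓ⟩
    have hTz : ∀ j, s30a_Tz (M * r) p ⟨ℓ, hℓ⟩ (s30i_iota (M * r) p (b₁ j)) =
        ∑ i, ((s29s_heckeMat b₁ ℓ).map (Int.cast : ℤ → ℤ_[p])) i j •
          s30i_iota (M * r) p (b₁ i) := by
      intro j
      rw [← s30e_iota_hecke_Tz (M * r) p ℓ hℓ hℓN (b₁ j)]
      have h1 : s29h_heckeHpar (M * r) ℓ ℤ ℤ (b₁ j) = ∑ i, s29s_heckeMat b₁ ℓ i j • b₁ i := by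
        have h := b₁.sum_repr (s29h_heckeHpar (M * r) ℓ ℤ ℤ (b₁ j))
        rw [← h]
        refine Finset.sum_congr rfl fun i _ => ?_
        rw [s29s_heckeMat, LinearMap.toMatrix_apply]
      rw [h1, map_sum]
      refine Finset.sum_congr rfl fun i _ => ?_
      rw [map_zsmul, Matrix.map_apply]
      exact (Int.cast_smul_eq_zsmul ℤ_[p] _ _).symm
    rw [s30e_baseChange_sum (s30a_Tz (M * r) p ⟨ℓ, hℓ⟩) (fun i => s30i_iota (M * r) p (b₁ i)) _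
      hTz c]
    have hmat : ((s29s_heckeMat b₁ ℓ).map (Int.cast : ℤ → ℤ_[p])).map (algebraMap ℤ_[p] 𝒪) =
        (s29s_heckeMat b₁ ℓ).map (Int.cast : ℤ → 𝒪) := by
      ext i j
      simp
    have hev := hT ℓ hℓN hℓS
    rw [hc] at hev
    rw [hmat, s59b_mulVec_of_eigen0 b₁ 𝒪 ℓ c (y ℓ) hev, Finset.smul_sum]
    refine Finset.sum_congr rfl fun i _ => ?_
    exact (TensorProduct.smul_tmul' (y ℓ) (c i) (s30i_iota (M * r) p (b₁ i))).symm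
  · refine s59b_baseChange_eq_zero M r p b₁ b₀ (s41l_famCorA M r hrM)
      (s59f_famCorA_det M r hrM) (s35c_alphaT M r hr.out hrM p)
      (fun φ => s59b_push_iota M r p (s41l_famCorA M r hrM) (s59f_famCorA_det M r hrM)
        (s35c_alphaT M r hr.out hrM p) (fun t => s59f_kinf_alphaT M r hrM p t) φ) 𝒪 c ?_
    rw [← hc]
    exact hcA
  · refine s59b_baseChange_eq_zero M r p b₁ b₀ (s41l_famCorB M r hrM)
      (s59f_famCorB_det M r hrM) (s35c_betaT M r hr.out hrM p)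
      (fun φ => s59b_push_iota M r p (s41l_famCorB M r hrM) (s59f_famCorB_det M r hrM)
        (s35c_betaT M r hr.out hrM p) (fun t => s59f_kinf_betaT M r hrM p t) φ) 𝒪 c ?_
    rw [← hc]
    exact hcB

end NewR

end

end Fermat.Agent.Lib.S59
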