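/-
S59 / [PATCH-FLR] / (T6) = [NEW-q], part (I) (helper4, prefix `s59f_`): **[NEW-q₀] — the local statement
at an auxiliary prime `r ∥ level` for a KERNEL-NEW eigenclass on `Γ₀(M r)`.**

`r ∤ M` prime, `r ≠ p`; `𝒪'` a complete discrete valuation ring of characteristic zero, finite residue
field, `p ∈ 𝔪`; `Φ ≠ 0` a parabolic class in `Hom(Γ₀(M r), 𝒪')` with `T_ℓ Φ = y_ℓ Φ` (`ℓ ∉ S`) and
`cor_A Φ = 0 = cor_B Φ` (S41's transfers to level `M`); `ρ` ANY `GaloisRepAdic 𝒪'` with the Frobenius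
polynomials `X² − y_ℓ X + ℓ` (`ℓ ∉ S`).  Then for every Frobenius element `σ` at a place over `r`:

  `charpoly ρ(σ) = X² − (r + 1) X + r`   or   `charpoly ρ(σ) = X² + (r + 1) X + r`.

Chain: `s59f_hnewR` (FNewPt1: a kernel-new eigenvector `v` of `𝒪' ⊗ T_p J₀(M r)`) → `s35q_NW_tate` +
`s35fx_geo` (NEW-WEIGHT `(σ² − r²)(σ² − 1) = 0` on `ker α_T ⊓ ker β_T`) → `s35k_weakLocal_of_ker`
(an eigenvector `w ≠ 0` with `σ² w = r² w` or `σ² w = w`) → `s35s_core` (a `ρ''` with the Frobenius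
polynomials and the local statement) → helper1's `s59k_charpoly_unique'` (transfer to `ρ`).
-/
import Mathlib
import Fermat.Agent.Lib.S59.FNewPt1
import Fermat.Agent.Lib.S35.RFinal
import Fermat.Agent.Lib.S35.FinalX
import Fermat.Agent.Lib.S59.KChar

set_option autoImplicit false
set_option linter.unusedSectionVars false
set_option linter.unusedVariables false
set_option linter.style.haveILetI false

open Polynomial IsLocalRing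
open AlgebraicCurve ModularCurve CongruenceSubgroup ModularCurve.Period
open scoped TensorProduct MatrixGroups

namespace Fermat.Agent.Lib.S59

open Fermat.Agent.Lib.S29 Fermat.Agent.Lib.S30 Fermat.Agent.Lib.S35
  Fermat.Agent.Lib.S36 Fermat.Agent.Lib.S41

noncomputable section

local notation "Qbar" => AlgebraicClosure ℚ
local notation "GQ" => (AlgebraicClosure ℚ ≃ₐ[ℚ] AlgebraicClosure ℚ)

section NewPt

variable (p : ℕ) [Fact p.Prime]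

/-- **[NEW-q₀]**: the Frobenius polynomial at `r ∥ M r` of a kernel-new eigenclass on `Γ₀(M r)`. -/
theorem s59f_NEW0 (M r : ℕ) [NeZero M] [NeZero r] [hr : Fact r.Prime] (hrp : r ≠ p)
    (hrM : ¬ r ∣ M)
    (S : Finset ℕ) (hpS : p ∈ S) (hNS : ∀ q : ℕ, q.Prime → q ∣ M * r → q ∈ S)
    (𝒪' : Type) [CommRing 𝒪'] [IsDomain 𝒪'] [IsDiscreteValuationRing 𝒪']
    [IsAdicComplete (maximalIdeal 𝒪') 𝒪'] [Finite (ResidueField 𝒪')]
    [CharZero 𝒪'] [Algebra ℤ_[p] 𝒪'] (hp𝒪' : (p : 𝒪') ∈ maximalIdeal 𝒪')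
    (y : ℕ → 𝒪')
    (Φ : Additive (Gamma0 (M * r)) →+ 𝒪') (hΦ : IsParabolicHom (Gamma0 (M * r)) Φ) (hΦ0 : Φ ≠ 0)
    (hT : ∀ (ℓ : ℕ) [Fact ℓ.Prime], ¬ ℓ ∣ M * r → ℓ ∉ S →
      s29h_heckeHom (M * r) ℓ 𝒪' Φ = y ℓ • Φ)
    (hcA : s41l_corA M r hrM 𝒪' Φ = 0) (hcB : s41l_corB M r hrM 𝒪' Φ = 0)
    (ρ : GaloisRepAdic 𝒪')
    (hρ : ∀ ℓ : ℕ, ℓ.Prime → ℓ ∉ S → ∀ P : ValuationSubring Qbar, P.LiesOverPrime ℓ →
      ∀ σ : GQ, P.IsFrobeniusAt σ ℓ →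
        LinearMap.charpoly (ρ.ρ σ) = X ^ 2 - C (y ℓ) * X + C ((ℓ : 𝒪')))
    (A : ValuationSubring Qbar) (hA : A.LiesOverPrime r) (σ : GQ) (hσ : A.IsFrobeniusAt σ r) :
    LinearMap.charpoly (ρ.ρ σ) = X ^ 2 - C ((r : 𝒪') + 1) * X + C ((r : 𝒪')) ∨
      LinearMap.charpoly (ρ.ρ σ) = X ^ 2 + C ((r : 𝒪') + 1) * X + C ((r : 𝒪')) := by
  classical
  have hrpr : r.Prime := hr.out
  have hDens := s30d_densContract
  have hTwo := s30t2_twoC_of s30w_wilContract s30l_lattContract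
  set Cy := s30y_cycDatum p with hCy
  have hconj := s30y_conj_datum p
  set f : ℤ_[p] →+* 𝒪' := algebraMap ℤ_[p] 𝒪' with hf
  have hfnat : ∀ m : ℕ, algebraMap ℤ_[p] 𝒪' (m : ℤ_[p]) = (m : 𝒪') := fun m => map_natCast _ m
  -- the base-changed Tate module
  set ρT : s29k_G →* Module.End 𝒪' (𝒪' ⊗[ℤ_[p]] s30a_TJ (M * r) p) :=
    s30f_baseChange 𝒪' (s30a_rho (M * r) p) with hρT
  have hcont : GaloisActionIsAdicContinuous 𝒪' ρT :=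
    s30f_continuous_baseChange p hp𝒪' (s30a_rho (M * r) p) (s30a_cont (M * r) p)
  -- the cyclotomic character
  set d : s29k_G →* 𝒪'ˣ := (Units.map (f : ℤ_[p] →* 𝒪')).comp Cy.ε with hd
  have hdval : ∀ τ : s29k_G, ((d τ : 𝒪'ˣ) : 𝒪') = f ((Cy.ε τ : ℤ_[p]ˣ) : ℤ_[p]) := fun τ => rfl
  have hdcont : s30_CharContinuous d := by
    intro n
    obtain ⟨L, hL, -, h1⟩ := Cy.cont n
    refine ⟨L, hL, fun τ hτ => ?_⟩
    obtain ⟨w, hw⟩ := h1 τ hτ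
    have : ((d τ : 𝒪'ˣ) : 𝒪') - 1 = (p : 𝒪') ^ n * f w := by
      rw [hdval, ← map_one f, ← map_sub, hw, map_mul, map_pow, map_natCast]
    rw [this]
    exact Ideal.mul_mem_right _ _ (Ideal.pow_mem_pow hp𝒪' n)
  have hdcc : d complexConjugation = -1 := by
    apply Units.ext
    rw [hdval, hconj]
    simp
  -- the eigen-system
  let ι : Type := {ℓ : ℕ // ℓ.Prime ∧ ¬ ℓ ∣ (M * r) ∧ ℓ ∉ (↑S : Set ℕ)}
  let T₀ : ι → Module.End ℤ_[p] (s30a_TJ (M * r) p) := fun i => s30a_Tz (M * r) p ⟨i.1, i.2.1⟩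
  let T : ι → Module.End 𝒪' (𝒪' ⊗[ℤ_[p]] s30a_TJ (M * r) p) := fun i => (T₀ i).baseChange 𝒪'
  let c : ι → 𝒪' := fun i => y i.1
  have hcomm₀ : ∀ (τ : s29k_G) (i : ι), Commute (s30a_rho (M * r) p τ) (T₀ i) := fun τ i =>
    s30a_Tz_comm (M * r) p ⟨i.1, i.2.1⟩ τ
  have hcomm : ∀ (τ : s29k_G) (i : ι), Commute (ρT τ) (T i) := fun τ i =>
    s30f_baseChange_commute 𝒪' (hcomm₀ τ i)
  -- the kernel-new eigenvector
  obtain ⟨v, hv0, hv, hvα, hvβ⟩ := s59f_hnewR M r hrM p (↑S : Set ℕ) 𝒪' Φ hΦ hΦ0 y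
    (fun ℓ _ hℓN hℓS => hT ℓ hℓN (fun h => hℓS (Finset.mem_coe.mpr h))) hcA hcB
  -- the weak local statement
  haveI : Module.Flat ℤ_[p] 𝒪' := s35k_padic_flat p 𝒪'
  obtain ⟨w, hw0, hw, hws⟩ := s35k_weakLocal_of_ker (R := ℤ_[p]) 𝒪'
    (s35c_alphaT M r hrpr hrM p) (s35c_betaT M r hrpr hrM p)
    (s30a_rho (M * r) p σ) r (ι := ι) T₀ c (fun i => hcomm₀ σ i)
    (fun x hx1 hx2 => s35q_NW_tate M r hrpr hrM p hrp
      (fun M'' _ hgood n => s35fx_geo r hrpr M'' hgood p Fact.out hrp n) A hA σ hσ x hx1 hx2)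
    v hv0 (fun i => hv i.1 i.2.1 i.2.2.1 i.2.2.2) hvα hvβ
  have hvE : v ∈ s30f_eigen T c := fun i => hv i.1 i.2.1 i.2.2.1 i.2.2.2
  have hwE : w ∈ s30f_eigen T c := fun i => hw i
  -- the Frobenius data
  have hgood : ∀ ℓ : ℕ, ℓ.Prime → ℓ ∉ S → ¬ ℓ ∣ (M * r) ∧ ℓ ≠ p := by
    intro ℓ hℓ hℓS
    exact ⟨fun h => hℓS (hNS ℓ hℓ h), fun h => hℓS (h ▸ hpS)⟩
  have hndvd : ∀ ℓ : ℕ, ℓ.Prime → ¬ ℓ ∣ (M * r) → ℓ ≠ p → ¬ ℓ ∣ (M * r) * p := by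
    intro ℓ hℓ h1 h2 h3
    rcases (Nat.Prime.dvd_mul hℓ).mp h3 with h | h
    · exact h1 h
    · exact h2 ((Nat.prime_dvd_prime_iff_eq hℓ (Fact.out : p.Prime)).mp h)
  have hfrob : ∀ ℓ : ℕ, ℓ.Prime → ℓ ∉ S →
      ∀ P : ValuationSubring (AlgebraicClosure ℚ), P.LiesOverPrime ℓ →
        ∀ τ : s29k_G, P.IsFrobeniusAt τ ℓ →
          (∀ w ∈ s30f_eigen T c, ρT τ (ρT τ w) - y ℓ • ρT τ w + (ℓ : 𝒪') • w = 0) ∧
            ((d τ : 𝒪'ˣ) : 𝒪') = (ℓ : 𝒪') := by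
    intro ℓ hℓ hℓS P hP τ hτ
    obtain ⟨hℓN, hℓp⟩ := hgood ℓ hℓ hℓS
    have hℓS' : ℓ ∉ (↑S : Set ℕ) := fun h => hℓS (Finset.mem_coe.mp h)
    refine ⟨fun w hw => ?_, ?_⟩
    · have hq := s30a_Tz_frobQuad (M * r) p ⟨ℓ, hℓ⟩ (hndvd ℓ hℓ hℓN hℓp) P hP τ hτ
      have hq' := congrArg (fun g : Module.End ℤ_[p] (s30a_TJ (M * r) p) => g.baseChange 𝒪' w) hq
      simp only [LinearMap.baseChange_add, LinearMap.baseChange_sub, LinearMap.baseChange_mul,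
        LinearMap.baseChange_smul, LinearMap.baseChange_one, LinearMap.baseChange_zero,
        LinearMap.add_apply, LinearMap.sub_apply, Module.End.mul_apply, LinearMap.smul_apply,
        Module.End.one_apply, LinearMap.zero_apply] at hq'
      have hTw : (s30a_Tz (M * r) p ⟨ℓ, hℓ⟩).baseChange 𝒪' (ρT τ w) = y ℓ • ρT τ w :=
        s30f_map_mem_eigen (fun i => hcomm τ i) hw ⟨ℓ, hℓ, hℓN, hℓS'⟩
      have hsm : (((ℓ : ℕ) : ℤ_[p])) • w = (ℓ : 𝒪') • w := by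
        rw [algebra_compatible_smul 𝒪' ((ℓ : ℕ) : ℤ_[p]) w, hfnat]
      rw [s30f_baseChange_apply] at hTw ⊢
      rw [hTw, hsm] at hq'
      exact hq'
    · rw [hdval, Cy.frob ℓ hℓ hℓp P hP τ hτ, map_natCast]
  obtain ⟨ρ'', hchar, hloc⟩ :=
    s35s_core hDens hTwo p hp𝒪' ρT hcont d hdcont complexConjugation complexConjugation_mul_self
      hdcc T c hcomm v hv0 hvE S y hfrob
  -- the local statement for `ρ''`
  have hr0 : (r : 𝒪') ≠ 0 := Nat.cast_ne_zero.mpr hrpr.ne_zero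
  have hdr : ((d σ : 𝒪'ˣ) : 𝒪') = (r : 𝒪') := by
    rw [hdval, Cy.frob r hrpr hrp A hA σ hσ, map_natCast]
  have hloc' := hloc σ (r : 𝒪') hr0 hdr ⟨w, hwE, hw0, hws⟩
  -- transfer to `ρ`
  have huniq : LinearMap.charpoly (ρ''.ρ σ) = LinearMap.charpoly (ρ.ρ σ) := by
    refine s59k_charpoly_unique' ρ'' ρ S ?_ σ
    intro ℓ hℓ hℓS P hP τ hτ
    rw [hchar ℓ hℓ hℓS P hP τ hτ, hρ ℓ hℓ hℓS P hP τ hτ]
  rw [← huniq]
  exact hloc'

end NewPt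

end

end Fermat.Agent.Lib.S59
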