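/-
PROGRAMME R2 = S59, node [FLR], `T`-side, **level maps at `Γ_H`-level, abstract layer** (helper4,
prefix `s59f_`).  The coset-family calculus `s41l_Fam` (Lib/S41/LVAbs.lean) for ARBITRARY subgroups
`G₁, G₂ ≤ SL(2, ℤ)` (embedded in `M₂(ℤ)` by `s59f_i`):

* `s59f_op_mem_Hpar`, `s59f_opHpar` : a family with representatives of non-zero determinant maps
  `s48h_Hpar R G₁ A` into `s48h_Hpar R G₂ A`;
* `s59f_famOfDatum` : an irredundant `s48h_MatDatum` (helper3) as a family, same operator;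
* `s59f_op_resG` : families with the SAME representatives on `G₁' ≤ G₁`, `G₂' ≤ G₂` commute with
  the restrictions `s59t_resG`;
* `s59f_cor_comm` : **abstract Mackey** — a transfer family `F_c : G' → G` (representatives in `G`,
  one of them `1`) intertwines two Hecke families `F_T'` on `G'`, `F_T` on `G` with the same
  representatives, as soon as the cosets `G' α_y r_x` are pairwise distinct.
-/
import Mathlib
import Fermat.Agent.Lib.S41.LVIds
import Fermat.Agent.Lib.S48.HHomH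
import Fermat.Agent.Lib.S59.WMatch
import Fermat.Agent.Lib.S59.TResG

set_option autoImplicit false
set_option linter.unusedSectionVars false
set_option linter.unusedVariables false
set_option linter.style.haveILetI false

noncomputable section

namespace Fermat.Agent.Lib.S59

open CongruenceSubgroup ModularCurve.Period
open Fermat.Agent.Lib.S41 Fermat.Agent.Lib.S48
open scoped MatrixGroups

local notation "Mat2" => Matrix (Fin 2) (Fin 2) ℤ

/-- the embedding `G → M₂(ℤ)` of a subgroup of `SL(2, ℤ)`. -/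
def s59f_i (G : Subgroup SL(2, ℤ)) : ↥G →* Mat2 where
  toFun γ := ((γ : SL(2, ℤ)) : Mat2)
  map_one' := rfl
  map_mul' _ _ := rfl

theorem s59f_i_apply (G : Subgroup SL(2, ℤ)) (γ : G) : s59f_i G γ = ((γ : SL(2, ℤ)) : Mat2) := rfl

theorem s59f_i_injective (G : Subgroup SL(2, ℤ)) : Function.Injective (s59f_i G) :=
  fun _ _ h => Subtype.ext (Subtype.ext h)

theorem s59f_i_det (G : Subgroup SL(2, ℤ)) (γ : G) : (s59f_i G γ).det = 1 :=
  (γ : SL(2, ℤ)).det_coe

theorem s59f_i_inv_mul_cancel_left (G : Subgroup SL(2, ℤ)) (γ : G) (m : Mat2) :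
    s59f_i G γ⁻¹ * (s59f_i G γ * m) = m := by
  rw [← Matrix.mul_assoc, ← map_mul, inv_mul_cancel, map_one, Matrix.one_mul]

theorem s59f_i_mul_inv_cancel_left (G : Subgroup SL(2, ℤ)) (γ : G) (m : Mat2) :
    s59f_i G γ * (s59f_i G γ⁻¹ * m) = m := by
  rw [← Matrix.mul_assoc, ← map_mul, mul_inv_cancel, map_one, Matrix.one_mul]

/-- `m = γ m'` gives `m' = γ⁻¹ m`. -/
theorem s59f_eq_inv_mul (G : Subgroup SL(2, ℤ)) {γ : G} {m m' : Mat2}
    (h : m = s59f_i G γ * m') : m' = s59f_i G γ⁻¹ * m := by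
  rw [h, s59f_i_inv_mul_cancel_left]

/-! ### Families preserve `H(A)` -/

section Hpar

variable {G₁ G₂ : Subgroup SL(2, ℤ)} {ι : Type*} [Fintype ι] {A : Type*} [AddCommGroup A]

theorem s59f_op_isParabolic (F : s41l_Fam (s59f_i G₁) (s59f_i G₂) ι)
    (hdet : ∀ i, (F.g i).det ≠ 0) {ψ : Additive G₁ →+ A} (hψ : IsParabolicHom G₁ ψ) :
    IsParabolicHom G₂ (F.op A ψ) := by
  intro γ hγ
  refine F.op_eq_zero_of_cycles ψ γ (fun i m _ hi => ?_)
  refine hψ _ ?_
  have hspec := F.fam_pow_spec γ m i hi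
  have h1 : (s59f_i G₁ (F.fam (γ ^ m) i)).trace = ((((γ : SL(2, ℤ)) : Mat2)) ^ m).trace :=
    s48h_trace_eq_of_conj (hdet i) hspec
  rw [s59f_i_apply] at h1
  rw [h1]
  exact s48h_trace_pow_sq (γ : SL(2, ℤ)) hγ m

theorem s59f_op_finOrd (F : s41l_Fam (s59f_i G₁) (s59f_i G₂) ι)
    (hdet : ∀ i, (F.g i).det ≠ 0) {ψ : Additive G₁ →+ A}
    (hψ : ∀ γ : G₁, IsOfFinOrder γ → ψ (Additive.ofMul γ) = 0) (γ : G₂)
    (hγ : IsOfFinOrder γ) : F.op A ψ (Additive.ofMul γ) = 0 := by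
  refine F.op_eq_zero_of_cycles ψ γ (fun i m _ hi => ?_)
  refine hψ _ ?_
  obtain ⟨n, hn, hγn⟩ := hγ.exists_pow_eq_one
  refine isOfFinOrder_iff_pow_eq_one.mpr ⟨n, hn, ?_⟩
  have hspec := F.fam_pow_spec γ m i hi
  have h1 := s48h_pow_conj hspec n
  have h2 : (s59f_i G₂ γ ^ m) ^ n = 1 := by
    rw [← pow_mul, mul_comm, pow_mul, ← map_pow, hγn, map_one, one_pow]
  rw [h2, Matrix.mul_one] at h1
  have h3 : (s59f_i G₁ (F.fam (γ ^ m) i)) ^ n = 1 := by
    refine s48h_mul_right_cancel (hdet i) ?_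
    rw [← h1, Matrix.one_mul]
  apply s59f_i_injective G₁
  rw [map_pow, h3, map_one]

/-- **a coset family with representatives of non-zero determinant preserves `H(A)`.** -/
theorem s59f_op_mem_Hpar (R : Type*) [Semiring R] [Module R A]
    (F : s41l_Fam (s59f_i G₁) (s59f_i G₂) ι) (hdet : ∀ i, (F.g i).det ≠ 0)
    {ψ : Additive G₁ →+ A} (hψ : ψ ∈ s48h_Hpar R G₁ A) : F.op A ψ ∈ s48h_Hpar R G₂ A :=
  ⟨s59f_op_isParabolic F hdet hψ.1, s59f_op_finOrd F hdet hψ.2⟩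

theorem s59f_op_smul {R : Type*} [Semiring R] [Module R A]
    (F : s41l_Fam (s59f_i G₁) (s59f_i G₂) ι) (c : R) (ψ : Additive G₁ →+ A) :
    F.op A (c • ψ) = c • F.op A ψ := by
  refine AddMonoidHom.ext fun γ => ?_
  obtain ⟨γ, rfl⟩ := Additive.ofMul.surjective γ
  rw [F.op_apply, AddMonoidHom.smul_apply, F.op_apply, Finset.smul_sum]
  rfl

/-- the operator of a family as an `R`-linear map between the `H`'s. -/
def s59f_opHpar (R : Type*) [Semiring R] [Module R A]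
    (F : s41l_Fam (s59f_i G₁) (s59f_i G₂) ι) (hdet : ∀ i, (F.g i).det ≠ 0) :
    s48h_Hpar R G₁ A →ₗ[R] s48h_Hpar R G₂ A where
  toFun ψ := ⟨F.op A ψ.1, s59f_op_mem_Hpar R F hdet ψ.2⟩
  map_add' ψ χ := Subtype.ext (map_add (F.op A) ψ.1 χ.1)
  map_smul' c ψ := Subtype.ext (s59f_op_smul F c ψ.1)

theorem s59f_opHpar_coe (R : Type*) [Semiring R] [Module R A]
    (F : s41l_Fam (s59f_i G₁) (s59f_i G₂) ι) (hdet : ∀ i, (F.g i).det ≠ 0)
    (ψ : s48h_Hpar R G₁ A) :
    ((s59f_opHpar R F hdet ψ : s48h_Hpar R G₂ A) : Additive G₂ →+ A) = F.op A ψ.1 := rfl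

end Hpar

/-! ### A Hecke datum as a family -/

section Datum

variable {G : Subgroup SL(2, ℤ)} {X : Type*}

/-- an irredundant matrix datum as a coset family. -/
def s59f_famOfDatum (D : s48h_MatDatum G X) (hirr : s59w_Irred D) :
    s41l_Fam (s59f_i G) (s59f_i G) X where
  g := D.α
  inj₁ := s59f_i_injective G
  canc j _ _ h := s48h_mul_right_cancel (D.det_ne j) h
  inj i j h e := hirr i j h e
  stable i γ := ⟨D.perm γ i, D.fam γ i, D.fam_spec γ i⟩

@[simp] theorem s59f_famOfDatum_g (D : s48h_MatDatum G X) (hirr : s59w_Irred D) (x : X) :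
    (s59f_famOfDatum D hirr).g x = D.α x := rfl

theorem s59f_famOfDatum_op [Fintype X] (D : s48h_MatDatum G X) (hirr : s59w_Irred D)
    (A : Type*) [AddCommGroup A] : (s59f_famOfDatum D hirr).op A = D.heckeHom A := by
  refine AddMonoidHom.ext fun ψ => AddMonoidHom.ext fun γ => ?_
  obtain ⟨γ, rfl⟩ := Additive.ofMul.surjective γ
  rw [(s59f_famOfDatum D hirr).op_apply_of_family ψ γ (D.perm γ) (D.fam γ)
    (fun x => D.fam_spec γ x), D.heckeHom_apply]

end Datum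

/-! ### Families with the same representatives commute with restriction -/

section Res

variable {G₁ G₂ G₁' G₂' : Subgroup SL(2, ℤ)} (h₁ : G₁' ≤ G₁) (h₂ : G₂' ≤ G₂)
  {ι : Type*} [Fintype ι] {A : Type*} [AddCommGroup A]

/-- **families with the same representatives commute with the restrictions.** -/
theorem s59f_op_resG (F : s41l_Fam (s59f_i G₁) (s59f_i G₂) ι)
    (F' : s41l_Fam (s59f_i G₁') (s59f_i G₂') ι) (hg : ∀ i, F'.g i = F.g i)
    (ψ : Additive G₁ →+ A) :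
    s59t_resG h₂ A (F.op A ψ) = F'.op A (s59t_resG h₁ A ψ) := by
  refine AddMonoidHom.ext fun γ => ?_
  obtain ⟨γ, rfl⟩ := Additive.ofMul.surjective γ
  rw [s59t_resG_apply, F'.op_apply,
    F.op_apply_of_family ψ ⟨(γ : SL(2, ℤ)), h₂ γ.2⟩ (F'.perm γ)
      (fun i => ⟨((F'.fam γ i : G₁') : SL(2, ℤ)), h₁ (F'.fam γ i).2⟩) ?_]
  · rfl
  · intro i
    rw [← hg, ← hg]
    exact F'.spec γ i

end Res

/-! ### Abstract Mackey: the transfer intertwines Hecke families with the same representatives -/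

section Mackey

variable {G' G : Subgroup SL(2, ℤ)} {ι κ : Type*} [Fintype ι] [Fintype κ]
  {A : Type*} [AddCommGroup A]

/-- **abstract Mackey.** -/
theorem s59f_cor_comm (hle : G' ≤ G) (Fc : s41l_Fam (s59f_i G') (s59f_i G) ι)
    (FT : s41l_Fam (s59f_i G) (s59f_i G) κ) (FT' : s41l_Fam (s59f_i G') (s59f_i G') κ)
    (hg : ∀ y, FT'.g y = FT.g y) (ρ : ι → G) (hρ : ∀ x, Fc.g x = s59f_i G (ρ x))
    (x₀ : ι) (hx₀ : Fc.g x₀ = 1)
    (hinj : ∀ (y y' : κ) (x x' : ι) (h : G'),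
      FT'.g y * Fc.g x = s59f_i G' h * (FT'.g y' * Fc.g x') → y = y' ∧ x = x')
    (ψ : Additive G' →+ A) :
    Fc.op A (FT'.op A ψ) = FT.op A (Fc.op A ψ) := by
  have hincl : ∀ h : G', s59f_i G' h = s59f_i G ⟨(h : SL(2, ℤ)), hle h.2⟩ := fun _ => rfl
  have hinj₂ : ∀ (x x' : ι) (y y' : κ) (h : G'),
      Fc.g x * FT.g y = s59f_i G' h * (Fc.g x' * FT.g y') → x = x' ∧ y = y' := by
    intro x x' y y' h e
    have hy : y = y' := by
      refine FT.inj y y' ((ρ x)⁻¹ * ⟨(h : SL(2, ℤ)), hle h.2⟩ * ρ x') ?_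
      rw [hρ, hρ, hincl] at e
      rw [map_mul, map_mul, Matrix.mul_assoc, Matrix.mul_assoc, ← e, s59f_i_inv_mul_cancel_left]
    subst hy
    refine ⟨Fc.inj x x' h ?_, rfl⟩
    refine FT.canc y _ _ ?_
    rw [e, Matrix.mul_assoc]
  have h1 := s41l_Fam.op_prod FT' Fc hinj (A := A) ψ
  have h2 := s41l_Fam.op_prod Fc FT hinj₂ (A := A) ψ
  have h3 : (Fc.prod FT hinj₂).op A = (FT'.prod Fc hinj).op A := by
    refine s41l_Fam.op_eq_of_cosets _ _ 1 (fun m => by rw [one_mul, mul_one])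
      (fun a b hab => by rwa [one_mul, one_mul] at hab)
      (by simp [Fintype.card_prod, mul_comm]) ?_
    rintro ⟨y, x⟩
    obtain ⟨y₁, γ₁, e₁⟩ := FT.stable y (ρ x)
    obtain ⟨x₂, h₂, e₂⟩ := Fc.stable x₀ γ₁
    rw [hx₀, Matrix.one_mul] at e₂
    refine ⟨(x₂, y₁), h₂⁻¹, ?_⟩
    show 1 * (Fc.g x₂ * FT.g y₁) = s59f_i G' h₂⁻¹ * (FT'.g y * Fc.g x)
    rw [hg, hρ x, e₁, e₂, Matrix.one_mul, Matrix.mul_assoc, s59f_i_inv_mul_cancel_left]
  rw [← h1, ← h2, h3]

end Mackey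

end Fermat.Agent.Lib.S59
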