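/-
PROGRAMME R2 = S59, node [FLR], `T`-side, **level maps at `Γ_H`-level, the groups and the two basic
families** (helper4, prefix `s59f_`).

Setting: `L` a level, `H ≤ (ℤ/L)ˣ`, `q ∤ L` a prime.  `s59f_cls L H c m` : the integer matrix `m` is
upper triangular mod `L` with upper left entry in `c H`; it is multiplicative and cancellable.
`G` = ANY subgroup of `SL(2, ℤ)` with `γ ∈ G ↔ cls 1 γ` (e.g. `s48h_GammaH L H`:
`s59f_mem_GammaH_iff`), `G'` = ANY subgroup with `γ ∈ G' ↔ q ∣ γ₁₀ ∧ cls 1 γ`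
(e.g. `s48h_GammaH (L q) H'`, `H'` the preimage of `H`).
* `s59f_rA` : representatives `r_x ∈ G` (`x ∈ ℙ¹(𝔽_q)`) of `G' \ G`, ALL of class `1`
  (`r_∞ = [[1, -s], [L, q t]]`); `s59f_famCorA` the transfer family, `s59f_corH` the transfer;
* `s59f_WDatum` : the Atkin–Lehner matrix `W = s41l_W L q` as a matrix datum on `G'`,
  `s59f_wH` its operator, `s59f_cW`, `s59f_cW_cW` (`c_W ∘ c_W` = conjugation by `γ_W`);
* `s59f_corH_resG : cor (res φ) = (q + 1) • φ`, `s59f_wH_wH`.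
-/
import Mathlib
import Fermat.Agent.Lib.S41.LVOps
import Fermat.Agent.Lib.S59.FOldH1

set_option autoImplicit false
set_option linter.unusedSectionVars false
set_option linter.unusedVariables false
set_option linter.style.haveILetI false

noncomputable section

namespace Fermat.Agent.Lib.S59

open CongruenceSubgroup ModularCurve.Period
open Fermat.Agent.Lib.ES Fermat.Agent.Lib.S29 Fermat.Agent.Lib.S41 Fermat.Agent.Lib.S48
open scoped MatrixGroups

local notation "Mat2" => Matrix (Fin 2) (Fin 2) ℤ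

/-! ### The class calculus -/

section Cls

variable (L : ℕ) [NeZero L] (H : Subgroup (ZMod L)ˣ)

/-- `m` is upper triangular mod `L` with upper left entry in `c H`. -/
def s59f_cls (c : (ZMod L)ˣ) (m : Mat2) : Prop :=
  (L : ℤ) ∣ m 1 0 ∧ ∃ u ∈ H, ((m 0 0 : ℤ) : ZMod L) = (c : ZMod L) * (u : ZMod L)

variable {L H}

theorem s59f_cls_dvd {c : (ZMod L)ˣ} {m : Mat2} (h : s59f_cls L H c m) : (L : ℤ) ∣ m 1 0 := h.1

theorem s59f_cls_mul {c c' : (ZMod L)ˣ} {m m' : Mat2} (h : s59f_cls L H c m)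
    (h' : s59f_cls L H c' m') : s59f_cls L H (c * c') (m * m') := by
  obtain ⟨hd, u, hu, hm⟩ := h
  obtain ⟨hd', u', hu', hm'⟩ := h'
  obtain ⟨h00, -, h10, -⟩ := s41l_mul_apply m m'
  refine ⟨?_, u * u', mul_mem hu hu', ?_⟩
  · rw [h10]
    exact dvd_add (Dvd.dvd.mul_right hd _) (Dvd.dvd.mul_left hd' _)
  · have h0 : ((m' 1 0 : ℤ) : ZMod L) = 0 := (ZMod.intCast_zmod_eq_zero_iff_dvd _ _).mpr hd'
    rw [h00, Int.cast_add, Int.cast_mul, Int.cast_mul, hm, hm', h0, mul_zero, add_zero,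
      Units.val_mul, Units.val_mul]
    ring

theorem s59f_cls_cancel {c c' : (ZMod L)ˣ} {a g : Mat2} (hg : s59f_cls L H c' g)
    (hag : s59f_cls L H c (a * g)) : s59f_cls L H (c * c'⁻¹) a := by
  obtain ⟨hd', u', hu', hm'⟩ := hg
  obtain ⟨hd, u, hu, hm⟩ := hag
  obtain ⟨h00, -, h10, -⟩ := s41l_mul_apply a g
  have hg10 : ((g 1 0 : ℤ) : ZMod L) = 0 := (ZMod.intCast_zmod_eq_zero_iff_dvd _ _).mpr hd'
  have hg00 : ((g 0 0 : ℤ) : ZMod L) = ((c' * u' : (ZMod L)ˣ) : ZMod L) := by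
    rw [hm', Units.val_mul]
  have e10 : ((a 1 0 : ℤ) : ZMod L) * ((c' * u' : (ZMod L)ˣ) : ZMod L) = 0 := by
    have := (ZMod.intCast_zmod_eq_zero_iff_dvd _ _).mpr hd
    rw [h10, Int.cast_add, Int.cast_mul, Int.cast_mul, hg10, mul_zero, add_zero, hg00] at this
    exact this
  have e00 : ((a 0 0 : ℤ) : ZMod L) * ((c' * u' : (ZMod L)ˣ) : ZMod L) =
      ((c * u : (ZMod L)ˣ) : ZMod L) := by
    rw [h00, Int.cast_add, Int.cast_mul, Int.cast_mul, hg10, mul_zero, add_zero, hg00] at hm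
    rw [hm, Units.val_mul]
  refine ⟨?_, u * u'⁻¹, mul_mem hu (inv_mem hu'), ?_⟩
  · apply (ZMod.intCast_zmod_eq_zero_iff_dvd _ _).mp
    have := congrArg (fun z => z * (((c' * u')⁻¹ : (ZMod L)ˣ) : ZMod L)) e10
    simp only [Units.mul_inv_cancel_right, zero_mul] at this
    exact this
  · have := congrArg (fun z => z * (((c' * u')⁻¹ : (ZMod L)ˣ) : ZMod L)) e00
    simp only [Units.mul_inv_cancel_right] at this
    rw [this, ← Units.val_mul]
    rw [mul_inv]
    exact mul_mul_mul_comm _ _ _ _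

/-- for `γ ∈ SL(2, ℤ)` upper triangular mod `L`: `γ₀₀ γ₁₁ ≡ 1`. -/
theorem s59f_diag_mul (γ : SL(2, ℤ)) (h : (L : ℤ) ∣ (γ : Mat2) 1 0) :
    (((γ : Mat2) 0 0 : ℤ) : ZMod L) * (((γ : Mat2) 1 1 : ℤ) : ZMod L) = 1 := by
  have hdet := γ.det_coe
  rw [Matrix.det_fin_two] at hdet
  have h0 : (((γ : Mat2) 1 0 : ℤ) : ZMod L) = 0 := (ZMod.intCast_zmod_eq_zero_iff_dvd _ _).mpr h
  have := congrArg (fun z : ℤ => (z : ZMod L)) hdet
  simp only [Int.cast_sub, Int.cast_mul, Int.cast_one, h0, mul_zero, sub_zero] at this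
  exact this

/-- **`Γ_H(L)` in terms of the class.** -/
theorem s59f_mem_GammaH_iff (γ : SL(2, ℤ)) :
    γ ∈ s48h_GammaH L H ↔ s59f_cls L H 1 (γ : Mat2) := by
  constructor
  · rintro ⟨hγ, u, hu, hd⟩
    have h10 : (L : ℤ) ∣ (γ : Mat2) 1 0 :=
      (ZMod.intCast_zmod_eq_zero_iff_dvd _ _).mp (Gamma0_mem.mp hγ)
    refine ⟨h10, u⁻¹, inv_mem hu, ?_⟩
    have h1 := s59f_diag_mul γ h10
    have hd' : (((γ : Mat2) 1 1 : ℤ) : ZMod L) = (u : ZMod L) := hd
    rw [hd'] at h1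
    rw [Units.val_one, one_mul]
    exact Units.eq_inv_of_mul_eq_one_right h1
  · rintro ⟨h10, u, hu, ha⟩
    refine ⟨Gamma0_mem.mpr ((ZMod.intCast_zmod_eq_zero_iff_dvd _ _).mpr h10), u⁻¹, inv_mem hu, ?_⟩
    have h1 := s59f_diag_mul γ h10
    rw [ha, Units.val_one, one_mul] at h1
    exact Units.eq_inv_of_mul_eq_one_left h1

end Cls

/-! ### The two groups -/

section Groups

variable (L q : ℕ) [NeZero L] [hq : Fact q.Prime] (hqL : ¬ q ∣ L) (H : Subgroup (ZMod L)ˣ)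
  (G G' : Subgroup SL(2, ℤ))

/-- the hypothesis on `G`. -/
def s59f_IsG : Prop := ∀ γ : SL(2, ℤ), γ ∈ G ↔ s59f_cls L H 1 (γ : Mat2)

/-- the hypothesis on `G'`. -/
def s59f_IsG' : Prop :=
  ∀ γ : SL(2, ℤ), γ ∈ G' ↔ (q : ℤ) ∣ (γ : Mat2) 1 0 ∧ s59f_cls L H 1 (γ : Mat2)

theorem s59f_isG_GammaH : s59f_IsG L H (s48h_GammaH L H) := fun γ => s59f_mem_GammaH_iff γ

variable {L q H G G'}

theorem s59f_IsG'.le (hG : s59f_IsG L H G) (hG' : s59f_IsG' L q H G') : G' ≤ G :=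
  fun γ hγ => (hG γ).mpr ((hG' γ).mp hγ).2

include hqL in
theorem s59f_IsG'.le_Gamma0 (hG' : s59f_IsG' L q H G') : G' ≤ Gamma0 (L * q) := by
  intro γ hγ
  obtain ⟨h1, h2, -⟩ := (hG' γ).mp hγ
  exact Gamma0_mem.mpr ((ZMod.intCast_zmod_eq_zero_iff_dvd _ _).mpr (s41l_Ml_dvd L q hqL h2 h1))

theorem s59f_IsG'.of_Gamma0 (hG' : s59f_IsG' L q H G') {γ : SL(2, ℤ)} (hγ : γ ∈ Gamma0 (L * q))
    (hc : s59f_cls L H 1 (γ : Mat2)) : γ ∈ G' := by
  haveI : NeZero (L * q) := ⟨Nat.mul_ne_zero (NeZero.ne L) hq.out.ne_zero⟩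
  have h1 : ((L * q : ℕ) : ℤ) ∣ (γ : Mat2) 1 0 :=
    (ZMod.intCast_zmod_eq_zero_iff_dvd _ _).mp (Gamma0_mem.mp hγ)
  exact (hG' γ).mpr ⟨(s41l_dvd_of_Ml_dvd L q h1).2, hc⟩

/-- an element of `G` from a matrix. -/
def s59f_mkG (hG : s59f_IsG L H G) (m : Mat2) (hdet : m.det = 1) (hc : s59f_cls L H 1 m) : G :=
  ⟨⟨m, hdet⟩, (hG _).mpr hc⟩

theorem s59f_i_mkG (hG : s59f_IsG L H G) (m : Mat2) (hdet : m.det = 1) (hc : s59f_cls L H 1 m) :
    s59f_i G (s59f_mkG hG m hdet hc) = m := rfl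

/-- an element of `G'` from a matrix. -/
def s59f_mkG' (hG' : s59f_IsG' L q H G') (m : Mat2) (hdet : m.det = 1) (hqm : (q : ℤ) ∣ m 1 0)
    (hc : s59f_cls L H 1 m) : G' :=
  ⟨⟨m, hdet⟩, (hG' _).mpr ⟨hqm, hc⟩⟩

theorem s59f_i_mkG' (hG' : s59f_IsG' L q H G') (m : Mat2) (hdet : m.det = 1)
    (hqm : (q : ℤ) ∣ m 1 0) (hc : s59f_cls L H 1 m) :
    s59f_i G' (s59f_mkG' hG' m hdet hqm hc) = m := rfl

theorem s59f_IsG.cls (hG : s59f_IsG L H G) (γ : G) : s59f_cls L H 1 (s59f_i G γ) :=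
  (hG _).mp γ.2

theorem s59f_IsG'.cls (hG' : s59f_IsG' L q H G') (γ : G') : s59f_cls L H 1 (s59f_i G' γ) :=
  ((hG' _).mp γ.2).2

theorem s59f_IsG'.dvd (hG' : s59f_IsG' L q H G') (γ : G') : (q : ℤ) ∣ (s59f_i G' γ) 1 0 :=
  ((hG' _).mp γ.2).1

end Groups

/-! ### The representatives of `G' \ G` -/

section Reps

variable (L q : ℕ) [NeZero L] [hq : Fact q.Prime] (hqL : ¬ q ∣ L) (H : Subgroup (ZMod L)ˣ)

/-- the representatives `r_j = [[1, 0], [L j, 1]]`, `r_∞ = [[1, -s], [L, q t]]` (all of class `1`). -/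
def s59f_rA (x : OnePoint (ZMod q)) : Mat2 :=
  x.elim !![1, -s41l_s L q hqL; (L : ℤ), (q : ℤ) * s41l_t L q hqL]
    (fun j => !![1, 0; (L : ℤ) * (j.val : ℤ), 1])

theorem s59f_rA_infty : s59f_rA L q hqL OnePoint.infty =
    !![1, -s41l_s L q hqL; (L : ℤ), (q : ℤ) * s41l_t L q hqL] := rfl

theorem s59f_rA_coe (j : ZMod q) : s59f_rA L q hqL ((j : ZMod q) : OnePoint (ZMod q)) =
    !![1, 0; (L : ℤ) * (j.val : ℤ), 1] := rfl

theorem s59f_rA_det (x : OnePoint (ZMod q)) : (s59f_rA L q hqL x).det = 1 := by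
  induction x using OnePoint.rec with
  | infty =>
    rw [s59f_rA_infty, Matrix.det_fin_two_of]
    linear_combination s41l_st L q hqL
  | coe j =>
    rw [s59f_rA_coe, Matrix.det_fin_two_of]
    ring

theorem s59f_rA_cls (x : OnePoint (ZMod q)) : s59f_cls L H 1 (s59f_rA L q hqL x) := by
  induction x using OnePoint.rec with
  | infty =>
    rw [s59f_rA_infty]
    refine ⟨by simp, 1, one_mem _, by simp⟩
  | coe j =>
    rw [s59f_rA_coe]
    refine ⟨by simp, 1, one_mem _, by simp⟩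

theorem s59f_rA_zero : s59f_rA L q hqL (((0 : ZMod q)) : OnePoint (ZMod q)) = 1 := by
  rw [s59f_rA_coe, ZMod.val_zero]
  ext i j
  fin_cases i <;> fin_cases j <;> simp

/-- the bottom rows of `r_x`, `r_x'` are proportional mod `q` only if `x = x'`. -/
theorem s59f_rA_inj_of_dvd (x x' : OnePoint (ZMod q))
    (hdvd : (q : ℤ) ∣ (s59f_rA L q hqL x) 1 0 * (s59f_rA L q hqL x') 1 1 -
      (s59f_rA L q hqL x) 1 1 * (s59f_rA L q hqL x') 1 0) : x = x' := by
  have hcop : IsCoprime (q : ℤ) (L : ℤ) := (s41l_coprime L q hqL).symm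
  induction x using OnePoint.rec with
  | infty =>
    induction x' using OnePoint.rec with
    | infty => rfl
    | coe j' =>
      exfalso
      rw [s59f_rA_infty, s59f_rA_coe] at hdvd
      simp only [Matrix.of_apply, Matrix.cons_val_zero, Matrix.cons_val_one,
        Matrix.cons_val', Matrix.empty_val', Matrix.cons_val_fin_one] at hdvd
      have h1 : (q : ℤ) ∣ (L : ℤ) := by
        have h2 : (q : ℤ) ∣ (q : ℤ) * (s41l_t L q hqL * ((L : ℤ) * (j'.val : ℤ))) :=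
          Dvd.intro _ rfl
        have := dvd_add hdvd h2
        have e : (L : ℤ) * 1 - (q : ℤ) * s41l_t L q hqL * ((L : ℤ) * (j'.val : ℤ)) +
            (q : ℤ) * (s41l_t L q hqL * ((L : ℤ) * (j'.val : ℤ))) = (L : ℤ) := by ring
        rwa [e] at this
      exact s41l_not_dvd_one q (hcop.dvd_of_dvd_mul_right (by simpa using h1))
  | coe j =>
    induction x' using OnePoint.rec with
    | infty =>
      exfalso
      rw [s59f_rA_infty, s59f_rA_coe] at hdvd
      simp only [Matrix.of_apply, Matrix.cons_val_zero, Matrix.cons_val_one,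
        Matrix.cons_val', Matrix.empty_val', Matrix.cons_val_fin_one] at hdvd
      have h1 : (q : ℤ) ∣ (L : ℤ) := by
        have h2 : (q : ℤ) ∣ (q : ℤ) * ((L : ℤ) * (j.val : ℤ) * s41l_t L q hqL) :=
          Dvd.intro _ rfl
        have := dvd_sub h2 hdvd
        have e : (q : ℤ) * ((L : ℤ) * (j.val : ℤ) * s41l_t L q hqL) -
            ((L : ℤ) * (j.val : ℤ) * ((q : ℤ) * s41l_t L q hqL) - 1 * (L : ℤ)) = (L : ℤ) := by
          ring
        rwa [e] at this
      exact s41l_not_dvd_one q (hcop.dvd_of_dvd_mul_right (by simpa using h1))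
    | coe j' =>
      rw [s59f_rA_coe, s59f_rA_coe] at hdvd
      simp only [Matrix.of_apply, Matrix.cons_val_zero, Matrix.cons_val_one,
        Matrix.cons_val', Matrix.empty_val', Matrix.cons_val_fin_one] at hdvd
      have h1 : (q : ℤ) ∣ (L : ℤ) * ((j.val : ℤ) - (j'.val : ℤ)) := by
        convert hdvd using 1
        ring
      rw [s41l_val_inj q (hcop.dvd_of_dvd_mul_left h1)]

/-- every `m` of determinant prime to `q` has its bottom row proportional mod `q` to that of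
some `r_x`. -/
theorem s59f_dec_row (c d : ℤ) :
    ∃ x : OnePoint (ZMod q), (q : ℤ) ∣ c * (s59f_rA L q hqL x) 1 1 -
      d * (s59f_rA L q hqL x) 1 0 := by
  by_cases hd : (q : ℤ) ∣ d
  · refine ⟨OnePoint.infty, ?_⟩
    rw [s59f_rA_infty]
    simp only [Matrix.of_apply, Matrix.cons_val_zero, Matrix.cons_val_one,
      Matrix.cons_val', Matrix.empty_val', Matrix.cons_val_fin_one]
    exact dvd_sub (Dvd.intro_left (c * s41l_t L q hqL) (by ring)) (Dvd.dvd.mul_right hd _)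
  · have hdL : ¬ (q : ℤ) ∣ d * (L : ℤ) := by
      intro h
      rcases (s41l_prime_int q).dvd_or_dvd h with h1 | h1
      · exact hd h1
      · exact hqL (Int.natCast_dvd_natCast.mp h1)
    obtain ⟨j, hj⟩ := s41l_exists_quot q c (d * (L : ℤ)) hdL
    refine ⟨((j : ZMod q) : OnePoint (ZMod q)), ?_⟩
    rw [s59f_rA_coe]
    simp only [Matrix.of_apply, Matrix.cons_val_zero, Matrix.cons_val_one,
      Matrix.cons_val', Matrix.empty_val', Matrix.cons_val_fin_one]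
    convert hj using 1
    ring

end Reps

/-! ### `m = (m · adj r) · r` -/

section Adj

/-- `m · adj r` entrywise (bottom left). -/
theorem s59f_mul_adj_10 (m r : Mat2) :
    (m * r.adjugate) 1 0 = m 1 0 * r 1 1 - m 1 1 * r 1 0 := by
  rw [Matrix.adjugate_fin_two]
  simp [Matrix.mul_apply, Fin.sum_univ_two]
  ring

theorem s59f_mul_adj_mul (m r : Mat2) (hr : r.det = 1) : m * r.adjugate * r = m := by
  rw [Matrix.mul_assoc, Matrix.adjugate_mul, hr, one_smul, Matrix.mul_one]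

theorem s59f_det_mul_adj (m r : Mat2) (hr : r.det = 1) : (m * r.adjugate).det = m.det := by
  have h := congrArg Matrix.det (s59f_mul_adj_mul m r hr)
  rw [Matrix.det_mul, hr, mul_one] at h
  exact h

end Adj

/-! ### The transfer family -/

section CorA

variable {L q : ℕ} [NeZero L] [hq : Fact q.Prime] (hqL : ¬ q ∣ L) {H : Subgroup (ZMod L)ˣ}
  {G G' : Subgroup SL(2, ℤ)}

/-- the cosets `G' r_x` are pairwise distinct. -/
theorem s59f_rA_inj (hG' : s59f_IsG' L q H G') (x x' : OnePoint (ZMod q)) (h : G')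
    (hx : s59f_rA L q hqL x = s59f_i G' h * s59f_rA L q hqL x') : x = x' := by
  have hc := s41l_cross_bot (s59f_i G' h) (s59f_rA L q hqL x')
  rw [← hx, s59f_rA_det, mul_one] at hc
  exact s59f_rA_inj_of_dvd L q hqL x x' (hc ▸ hG'.dvd h)

/-- **`G = ⊔_x G' r_x`.** -/
theorem s59f_dec_A (hG' : s59f_IsG' L q H G') (m : Mat2) (hdet : m.det = 1) (hc : s59f_cls L H 1 m) :
    ∃ (x : OnePoint (ZMod q)) (h : G'), m = s59f_i G' h * s59f_rA L q hqL x := by
  obtain ⟨x, hx⟩ := s59f_dec_row L q hqL (m 1 0) (m 1 1)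
  have hr := s59f_rA_det L q hqL x
  have hmul := s59f_mul_adj_mul m (s59f_rA L q hqL x) hr
  have hcls : s59f_cls L H 1 (m * (s59f_rA L q hqL x).adjugate) := by
    have := s59f_cls_cancel (a := m * (s59f_rA L q hqL x).adjugate) (s59f_rA_cls L q hqL H x)
      (by rw [hmul]; exact hc)
    simpa using this
  refine ⟨x, s59f_mkG' hG' (m * (s59f_rA L q hqL x).adjugate)
    ((s59f_det_mul_adj m _ hr).trans hdet) (by rw [s59f_mul_adj_10]; exact hx) hcls, ?_⟩
  rw [s59f_i_mkG', hmul]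

/-- the family of the transfer `cor : Hom(G', A) → Hom(G, A)`: representatives `r_x`. -/
def s59f_famCorA (hG : s59f_IsG L H G) (hG' : s59f_IsG' L q H G') : s41l_Fam (s59f_i G') (s59f_i G) (OnePoint (ZMod q)) :=
  s41l_Fam.ofDecomp (s59f_i_injective G') (s59f_rA L q hqL)
    (fun x _ _ h => s48h_mul_right_cancel (by rw [s59f_rA_det]; exact one_ne_zero) h)
    (fun x x' h hx => s59f_rA_inj hqL hG' x x' h hx)
    {m : Mat2 | m.det = 1 ∧ s59f_cls L H 1 m}
    (fun x => ⟨s59f_rA_det L q hqL x, s59f_rA_cls L q hqL H x⟩)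
    (fun m hm γ => ⟨by rw [Matrix.det_mul, s59f_i_det, mul_one]; exact hm.1, by
      have := s59f_cls_mul hm.2 (hG.cls γ)
      simpa using this⟩)
    (fun m hm => s59f_dec_A hqL hG' m hm.1 hm.2)

theorem s59f_famCorA_g (hG : s59f_IsG L H G) (hG' : s59f_IsG' L q H G')
    (x : OnePoint (ZMod q)) :
    (s59f_famCorA hqL hG hG').g x = s59f_rA L q hqL x := rfl

/-- `r_x` as an element of `G`. -/
def s59f_rhoA (hG : s59f_IsG L H G) (x : OnePoint (ZMod q)) : G :=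
  s59f_mkG hG (s59f_rA L q hqL x) (s59f_rA_det L q hqL x) (s59f_rA_cls L q hqL H x)

theorem s59f_i_rhoA (hG : s59f_IsG L H G) (x : OnePoint (ZMod q)) :
    s59f_i G (s59f_rhoA hqL hG x) = s59f_rA L q hqL x := rfl

/-- **the transfer** `cor : Hom(G', A) → Hom(G, A)`. -/
def s59f_corH (hG : s59f_IsG L H G) (hG' : s59f_IsG' L q H G') (A : Type*) [AddCommGroup A] : (Additive G' →+ A) →+ (Additive G →+ A) :=
  (s59f_famCorA hqL hG hG').op A

/-- **`cor ∘ res = q + 1`.** -/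
theorem s59f_corH_resG (hG : s59f_IsG L H G) (hG' : s59f_IsG' L q H G') {A : Type*}
    [AddCommGroup A] (φ : Additive G →+ A) :
    s59f_corH hqL hG hG' A (s59t_resG (hG'.le hG) A φ) = (q + 1) • φ := by
  rw [← s41l_card_onePoint q]
  exact (s59f_famCorA hqL hG hG').op_comp_hom (Subgroup.inclusion (hG'.le hG)) 1 1
    (fun m => by rw [one_mul, mul_one]) (fun a b hab => by rwa [one_mul, one_mul] at hab)
    (s59f_i_injective G) (fun h => by rw [one_mul, mul_one]; rfl) (s59f_rhoA hqL hG)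
    (fun x => by rw [one_mul, one_mul]; rfl) φ

end CorA

end Fermat.Agent.Lib.S59
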