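/-
PROGRAMME R2 = S59, node [FLR], `T`-side, **level maps at `Γ_H`-level: the Atkin–Lehner operator**
(helper4, prefix `s59f_`).  Setting of `FOldH2.lean` (`G'` = the elements of class `1` with `q ∣ γ₁₀`).
* `s59f_W_cls` : `W = s41l_W L q` has class `1`;
* `s59f_WDatum` : `W` as a matrix datum on `G'` (`W γ = c_W(γ) W`), `s59f_wH` its operator
  `ψ ↦ ψ ∘ c_W`, `s59f_cW : G' →* G'`;
* `s59f_cW_cW` : `c_W (c_W γ) = γ_W γ γ_W⁻¹` (`γ_W = s41l_gW L q ∈ Γ₀(L q)`, upper left entry `≡ q⁻¹`),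
  `s59f_cW_bijective`, `s59f_wH_wH`.
-/
import Mathlib
import Fermat.Agent.Lib.S59.FOldH2

set_option autoImplicit false
set_option linter.unusedSectionVars false
set_option linter.unusedVariables false
set_option linter.style.haveILetI false

noncomputable section

namespace Fermat.Agent.Lib.S59

open CongruenceSubgroup ModularCurve.Period
open Fermat.Agent.Lib.ES Fermat.Agent.Lib.S29 Fermat.Agent.Lib.S41 Fermat.Agent.Lib.S48
open scoped MatrixGroups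

local notation "Mat2" => Matrix (Fin 2) (Fin 2) ℤ

section W

variable {L q : ℕ} [NeZero L] [hq : Fact q.Prime] (hqL : ¬ q ∣ L) {H : Subgroup (ZMod L)ˣ}
  {G G' : Subgroup SL(2, ℤ)}

/-- `q t ≡ 1 mod L`. -/
theorem s59f_qt_cast : (((q : ℤ) * s41l_t L q hqL : ℤ) : ZMod L) = 1 := by
  have h := congrArg (fun z : ℤ => (z : ZMod L)) (s41l_st L q hqL)
  simp only [Int.cast_add, Int.cast_mul, Int.cast_natCast, ZMod.natCast_self, mul_zero, zero_add,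
    Int.cast_one] at h
  rw [Int.cast_mul, Int.cast_natCast, mul_comm]
  exact h

variable (H) in
/-- `W` has class `1`. -/
theorem s59f_W_cls : s59f_cls L H 1 (s41l_W L q hqL) := by
  refine ⟨?_, 1, one_mem _, ?_⟩
  · rw [s41l_W]
    simp only [Matrix.of_apply, Matrix.cons_val_zero, Matrix.cons_val_one,
      Matrix.cons_val', Matrix.empty_val', Matrix.cons_val_fin_one]
    exact Dvd.intro_left _ rfl
  · rw [s41l_W]
    simp only [Matrix.of_apply, Matrix.cons_val_zero,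
      Matrix.cons_val', Matrix.empty_val', Matrix.cons_val_fin_one]
    rw [s59f_qt_cast hqL]
    simp

theorem s59f_W_det_ne : (s41l_W L q hqL).det ≠ 0 := by
  rw [s41l_W_det]
  exact s41l_l_ne_zero q

/-- an element of `G'` in `Γ₀(L q)`. -/
def s59f_toGamma0 (hG' : s59f_IsG' L q H G') (γ : G') : Gamma0 (L * q) :=
  ⟨(γ : SL(2, ℤ)), hG'.le_Gamma0 hqL γ.2⟩

theorem s59f_i_toGamma0 (hG' : s59f_IsG' L q H G') (γ : G') :
    s41l_i (L * q) (s59f_toGamma0 hqL hG' γ) = s59f_i G' γ := rfl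

/-- `W γ = γ' W` with `γ' ∈ G'`. -/
theorem s59f_W_ex (hG' : s59f_IsG' L q H G') (γ : G') :
    ∃ g : G', s41l_W L q hqL * ((γ : SL(2, ℤ)) : Mat2) =
      ((g : SL(2, ℤ)) : Mat2) * s41l_W L q hqL := by
  have h := s41l_cW_spec L q hqL (s59f_toGamma0 hqL hG' γ)
  have hmem : ((s41l_cW L q hqL (s59f_toGamma0 hqL hG' γ) : Gamma0 (L * q)) : SL(2, ℤ)) ∈ G' := by
    refine hG'.of_Gamma0 (s41l_cW L q hqL (s59f_toGamma0 hqL hG' γ)).2 ?_
    have h1 : s59f_cls L H (1 * 1) (s41l_W L q hqL * s59f_i G' γ) :=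
      s59f_cls_mul (s59f_W_cls hqL H) (hG'.cls γ)
    have h2 := s59f_cls_cancel (a := s41l_i (L * q) (s41l_cW L q hqL (s59f_toGamma0 hqL hG' γ)))
      (s59f_W_cls hqL H) (by rw [← h]; exact h1)
    have e1 : (1 : (ZMod L)ˣ) * 1 * 1⁻¹ = 1 := by simp
    rw [e1] at h2
    exact h2
  exact ⟨⟨_, hmem⟩, h⟩

/-- **the Atkin–Lehner matrix as a matrix datum on `G'`.** -/
def s59f_WDatum (hG' : s59f_IsG' L q H G') : s48h_MatDatum G' Unit where
  α _ := s41l_W L q hqL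
  det_ne _ := s59f_W_det_ne hqL
  perm _ := 1
  perm_mul _ _ _ := rfl
  ex γ _ := s59f_W_ex hqL hG' γ

theorem s59f_WDatum_irred (hG' : s59f_IsG' L q H G') : s59w_Irred (s59f_WDatum hqL hG') :=
  fun _ _ _ _ => rfl

theorem s59f_WDatum_irr (hG' : s59f_IsG' L q H G') (m : ℤ) : s59w_Irr (s59f_WDatum hqL hG') m :=
  fun _ _ _ _ _ _ => rfl

/-- `c_W : G' →* G'`, `W γ = c_W(γ) W`. -/
def s59f_cW (hG' : s59f_IsG' L q H G') : G' →* G' where
  toFun γ := (s59f_WDatum hqL hG').fam γ ()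
  map_one' := (s59f_WDatum hqL hG').fam_one ()
  map_mul' γ δ := (s59f_WDatum hqL hG').fam_mul γ δ ()

theorem s59f_cW_spec (hG' : s59f_IsG' L q H G') (γ : G') :
    s41l_W L q hqL * s59f_i G' γ = s59f_i G' (s59f_cW hqL hG' γ) * s41l_W L q hqL :=
  (s59f_WDatum hqL hG').fam_spec γ ()

theorem s59f_cW_eq (hG' : s59f_IsG' L q H G') (γ g : G')
    (h : s41l_W L q hqL * s59f_i G' γ = s59f_i G' g * s41l_W L q hqL) :
    s59f_cW hqL hG' γ = g :=
  ((s59f_WDatum hqL hG').fam_unique γ () g h).symm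

/-- **the Atkin–Lehner operator** `w : Hom(G', A) → Hom(G', A)`. -/
def s59f_wH (hG' : s59f_IsG' L q H G') (A : Type*) [AddCommGroup A] :
    (Additive G' →+ A) →+ (Additive G' →+ A) :=
  (s59f_WDatum hqL hG').heckeHom A

theorem s59f_wH_apply (hG' : s59f_IsG' L q H G') {A : Type*} [AddCommGroup A]
    (ψ : Additive G' →+ A) (γ : G') :
    s59f_wH hqL hG' A ψ (Additive.ofMul γ) = ψ (Additive.ofMul (s59f_cW hqL hG' γ)) := by
  rw [s59f_wH, s48h_MatDatum.heckeHom_apply]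
  exact Fintype.sum_unique _

/-- `γ_W ∈ SL(2, ℤ)` with `W² = q γ_W`. -/
def s59f_gW : SL(2, ℤ) := ((s41l_gW L q hqL : Gamma0 (L * q)) : SL(2, ℤ))

theorem s59f_gW_mem : s59f_gW hqL ∈ Gamma0 (L * q) := (s41l_gW L q hqL).2

theorem s59f_W_sq : s41l_W L q hqL * s41l_W L q hqL = (q : ℤ) • ((s59f_gW hqL : SL(2, ℤ)) : Mat2) :=
  s41l_W_sq L q hqL

/-- **`c_W ∘ c_W` is the conjugation by `γ_W`.** -/
theorem s59f_cW_cW (hG' : s59f_IsG' L q H G') (γ : G') :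
    ((s59f_cW hqL hG' (s59f_cW hqL hG' γ) : G') : SL(2, ℤ)) =
      s59f_gW hqL * (γ : SL(2, ℤ)) * (s59f_gW hqL)⁻¹ := by
  have h1 := s59f_cW_spec hqL hG' γ
  have h2 := s59f_cW_spec hqL hG' (s59f_cW hqL hG' γ)
  have h3 : s41l_W L q hqL * s41l_W L q hqL * s59f_i G' γ =
      s59f_i G' (s59f_cW hqL hG' (s59f_cW hqL hG' γ)) * (s41l_W L q hqL * s41l_W L q hqL) := by
    rw [Matrix.mul_assoc, h1, ← Matrix.mul_assoc, h2, Matrix.mul_assoc]
  rw [s59f_W_sq, Matrix.smul_mul, Matrix.mul_smul] at h3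
  have h4 := s41l_smul_cancel (s41l_l_ne_zero q) h3
  have h5 : s59f_gW hqL * (γ : SL(2, ℤ)) =
      ((s59f_cW hqL hG' (s59f_cW hqL hG' γ) : G') : SL(2, ℤ)) * s59f_gW hqL := by
    apply Subtype.ext
    rw [Matrix.SpecialLinearGroup.coe_mul, Matrix.SpecialLinearGroup.coe_mul]
    exact h4
  rw [h5, mul_inv_cancel_right]

/-- `γ_W` normalises `G'`. -/
theorem s59f_gW_conj_mem (hG' : s59f_IsG' L q H G') (γ : G') :
    s59f_gW hqL * (γ : SL(2, ℤ)) * (s59f_gW hqL)⁻¹ ∈ G' := by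
  rw [← s59f_cW_cW hqL hG' γ]
  exact (s59f_cW hqL hG' (s59f_cW hqL hG' γ)).2

theorem s59f_gW_inv_conj_mem (hG' : s59f_IsG' L q H G') (γ : G') :
    (s59f_gW hqL)⁻¹ * (γ : SL(2, ℤ)) * s59f_gW hqL ∈ G' := by
  -- class computation: the class is multiplicative and `G'` is defined by the class
  have hg := s59f_gW_mem hqL
  have hmem0 : (s59f_gW hqL)⁻¹ * (γ : SL(2, ℤ)) * s59f_gW hqL ∈ Gamma0 (L * q) :=
    mul_mem (mul_mem (inv_mem hg) (hG'.le_Gamma0 hqL γ.2)) hg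
  refine hG'.of_Gamma0 hmem0 ?_
  -- `γ_W · x = γ · γ_W` with `x` the conjugate
  set x : SL(2, ℤ) := (s59f_gW hqL)⁻¹ * (γ : SL(2, ℤ)) * s59f_gW hqL with hx
  have e : ((s59f_gW hqL : SL(2, ℤ)) : Mat2) * (x : Mat2) =
      ((γ : SL(2, ℤ)) : Mat2) * ((s59f_gW hqL : SL(2, ℤ)) : Mat2) := by
    rw [← Matrix.SpecialLinearGroup.coe_mul, ← Matrix.SpecialLinearGroup.coe_mul, hx]
    congr 1
    group
  haveI : NeZero (L * q) := ⟨Nat.mul_ne_zero (NeZero.ne L) hq.out.ne_zero⟩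
  have hL : ∀ y : SL(2, ℤ), y ∈ Gamma0 (L * q) → (L : ℤ) ∣ (y : Mat2) 1 0 := fun y hy =>
    (s41l_dvd_of_Ml_dvd L q ((ZMod.intCast_zmod_eq_zero_iff_dvd _ _).mp (Gamma0_mem.mp hy))).1
  have hxL := hL x hmem0
  have hgL := hL _ hg
  obtain ⟨hγL, u, hu, hγu⟩ := hG'.cls γ
  refine ⟨hxL, u, hu, ?_⟩
  -- compare the upper left entries mod `L`
  obtain ⟨h00, -, -, -⟩ := s41l_mul_apply ((s59f_gW hqL : SL(2, ℤ)) : Mat2) (x : Mat2)
  obtain ⟨h00', -, -, -⟩ := s41l_mul_apply ((γ : SL(2, ℤ)) : Mat2) ((s59f_gW hqL : SL(2, ℤ)) : Mat2)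
  have hx0 : (((x : Mat2) 1 0 : ℤ) : ZMod L) = 0 := (ZMod.intCast_zmod_eq_zero_iff_dvd _ _).mpr hxL
  have hg0 : ((((s59f_gW hqL : SL(2, ℤ)) : Mat2) 1 0 : ℤ) : ZMod L) = 0 :=
    (ZMod.intCast_zmod_eq_zero_iff_dvd _ _).mpr hgL
  have e00 := congrArg (fun m : Mat2 => ((m 0 0 : ℤ) : ZMod L)) e
  simp only [h00, h00', Int.cast_add, Int.cast_mul, hx0, hg0, mul_zero, add_zero] at e00
  -- `g₀₀ x₀₀ = γ₀₀ g₀₀` and `g₀₀` is a unit mod `L`
  have hunit := s59f_diag_mul (L := L) (s59f_gW hqL) hgL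
  have : (((x : Mat2) 0 0 : ℤ) : ZMod L) = ((((γ : SL(2, ℤ)) : Mat2) 0 0 : ℤ) : ZMod L) := by
    have h6 := congrArg (fun z => ((((s59f_gW hqL : SL(2, ℤ)) : Mat2) 1 1 : ℤ) : ZMod L) * z) e00
    simp only [← mul_assoc] at h6
    rw [mul_comm ((((s59f_gW hqL : SL(2, ℤ)) : Mat2) 1 1 : ℤ) : ZMod L) _, hunit, one_mul,
      mul_comm _ ((((γ : SL(2, ℤ)) : Mat2) 0 0 : ℤ) : ZMod L), mul_assoc,
      mul_comm ((((s59f_gW hqL : SL(2, ℤ)) : Mat2) 1 1 : ℤ) : ZMod L) _, hunit, mul_one] at h6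
    exact h6
  rw [this]
  exact hγu

/-- `c_W` is bijective. -/
theorem s59f_cW_bijective (hG' : s59f_IsG' L q H G') : Function.Bijective (s59f_cW hqL hG') := by
  constructor
  · intro γ δ h
    have h1 := s59f_cW_cW hqL hG' γ
    have h2 := s59f_cW_cW hqL hG' δ
    rw [h] at h1
    apply Subtype.ext
    have h3 := h1.symm.trans h2
    exact mul_left_cancel (mul_right_cancel h3)
  · intro γ
    refine ⟨s59f_cW hqL hG' ⟨_, s59f_gW_inv_conj_mem hqL hG' γ⟩, ?_⟩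
    apply Subtype.ext
    rw [s59f_cW_cW]
    show s59f_gW hqL * ((s59f_gW hqL)⁻¹ * (γ : SL(2, ℤ)) * s59f_gW hqL) * (s59f_gW hqL)⁻¹ = _
    group

/-- **`w ∘ w`** is the conjugation by `γ_W`. -/
theorem s59f_wH_wH (hG' : s59f_IsG' L q H G') {A : Type*} [AddCommGroup A]
    (ψ : Additive G' →+ A) (γ : G') :
    s59f_wH hqL hG' A (s59f_wH hqL hG' A ψ) (Additive.ofMul γ) =
      ψ (Additive.ofMul ⟨s59f_gW hqL * (γ : SL(2, ℤ)) * (s59f_gW hqL)⁻¹,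
        s59f_gW_conj_mem hqL hG' γ⟩) := by
  rw [s59f_wH_apply, s59f_wH_apply]
  congr 2
  exact Subtype.ext (s59f_cW_cW hqL hG' γ)

end W

end Fermat.Agent.Lib.S59
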