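/-
PROGRAMME R2 = S59, node [FLR], `T`-side, **level maps at `Γ_H`-level: the identities
`res ∘ cor ∘ w = U_q + w` and `cor ∘ w ∘ res = T_q`** (helper4, prefix `s59f_`).
Setting of `FOldH2.lean`, `FOldH3.lean`.
* `s59f_W_rA_inj` : the cosets `M₂(ℤ)·W r_x` are pairwise distinct;
* `s59f_famRes`, `s59f_resTarget` : restriction as a family, restriction of the target group;
* `s59f_famB` : the family on `G'` with representatives `β_j = [[1, j], [0, q]]`, `W`;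
* **`s59f_res_cor_w`** : for ANY family `F_U` on `G'` with representatives `β_j`
  (e.g. helper3's `s59w_UqDatum`):  `res (cor (w ψ)) = F_U ψ + w ψ`;
* **`s59f_cor_w_res`** : for ANY family `F_T` on `G` whose representatives are of class `1` and of
  the form `τ_y · heckeRepZ q y` (e.g. helper3's `s48h_TpDatum`):  `cor (w (res φ)) = F_T φ`.
-/
import Mathlib
import Fermat.Agent.Lib.S59.FOldH3

set_option autoImplicit false
set_option linter.unusedSectionVars false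
set_option linter.unusedVariables false
set_option linter.style.haveILetI false

noncomputable section

namespace Fermat.Agent.Lib.S59

open CongruenceSubgroup ModularCurve.Period
open Fermat.Agent.Lib.ES Fermat.Agent.Lib.S29 Fermat.Agent.Lib.S41 Fermat.Agent.Lib.S48
open scoped MatrixGroups

local notation "Mat2" => Matrix (Fin 2) (Fin 2) ℤ

/-! ### Two general constructions -/

section General

variable {G₁ G₂ G₂' : Subgroup SL(2, ℤ)} {ι : Type*}

/-- the same family with a smaller target group. -/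
def s59f_resTarget (F : s41l_Fam (s59f_i G₁) (s59f_i G₂) ι) (hle : G₂' ≤ G₂) :
    s41l_Fam (s59f_i G₁) (s59f_i G₂') ι where
  g := F.g
  inj₁ := F.inj₁
  canc := F.canc
  inj := F.inj
  stable i γ := F.stable i ⟨(γ : SL(2, ℤ)), hle γ.2⟩

@[simp] theorem s59f_resTarget_g (F : s41l_Fam (s59f_i G₁) (s59f_i G₂) ι) (hle : G₂' ≤ G₂)
    (i : ι) : (s59f_resTarget F hle).g i = F.g i := rfl

theorem s59f_op_resTarget [Fintype ι] {A : Type*} [AddCommGroup A]
    (F : s41l_Fam (s59f_i G₁) (s59f_i G₂) ι) (hle : G₂' ≤ G₂) (ψ : Additive G₁ →+ A) :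
    s59t_resG hle A (F.op A ψ) = (s59f_resTarget F hle).op A ψ := by
  have h := s59f_op_resG (le_refl G₁) hle F (s59f_resTarget F hle) (fun _ => rfl) ψ
  rw [h]
  rfl

/-- restriction as a one-coset family. -/
def s59f_famRes {G G' : Subgroup SL(2, ℤ)} (hle : G' ≤ G) :
    s41l_Fam (s59f_i G) (s59f_i G') Unit where
  g _ := 1
  inj₁ := s59f_i_injective G
  canc _ a b h := by simpa using h
  inj _ _ _ _ := rfl
  stable _ γ := ⟨(), ⟨(γ : SL(2, ℤ)), hle γ.2⟩, by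
    show (1 : Mat2) * s59f_i G' γ = s59f_i G ⟨(γ : SL(2, ℤ)), hle γ.2⟩ * 1
    rw [Matrix.one_mul, Matrix.mul_one]
    rfl⟩

theorem s59f_famRes_op {G G' : Subgroup SL(2, ℤ)} (hle : G' ≤ G) (A : Type*) [AddCommGroup A] :
    (s59f_famRes hle).op A = s59t_resG hle A := by
  refine AddMonoidHom.ext fun ψ => AddMonoidHom.ext fun γ => ?_
  obtain ⟨γ, rfl⟩ := Additive.ofMul.surjective γ
  rw [(s59f_famRes hle).op_apply_of_family ψ γ id (fun _ => ⟨(γ : SL(2, ℤ)), hle γ.2⟩)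
    (fun _ => by
      show (1 : Mat2) * s59f_i G' γ = s59f_i G ⟨(γ : SL(2, ℤ)), hle γ.2⟩ * 1
      rw [Matrix.one_mul, Matrix.mul_one]
      rfl), s59t_resG_apply]
  exact Fintype.sum_unique _

end General

section Ids

variable {L q : ℕ} [NeZero L] [hq : Fact q.Prime] (hqL : ¬ q ∣ L) {H : Subgroup (ZMod L)ˣ}
  {G G' : Subgroup SL(2, ℤ)}

/-- `q ∤ s`. -/
theorem s59f_not_dvd_s : ¬ (q : ℤ) ∣ s41l_s L q hqL := by
  intro h
  have hst := s41l_st L q hqL
  refine s41l_not_dvd_one q ?_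
  rw [← hst]
  exact dvd_add (Dvd.dvd.mul_right h _) (Dvd.intro_left _ rfl)

/-- **the cosets `M₂(ℤ) · W r_x` are pairwise distinct.** -/
theorem s59f_W_rA_inj (g : Mat2) (x x' : OnePoint (ZMod q))
    (h : s41l_W L q hqL * s59f_rA L q hqL x = g * (s41l_W L q hqL * s59f_rA L q hqL x')) :
    x = x' := by
  set n : Mat2 := s59f_rA L q hqL x * (s59f_rA L q hqL x').adjugate with hn
  have h1 : s41l_W L q hqL * n = g * s41l_W L q hqL := by
    have := congrArg (fun m : Mat2 => m * (s59f_rA L q hqL x').adjugate) h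
    simp only [Matrix.mul_assoc, Matrix.mul_adjugate, s59f_rA_det, one_smul, Matrix.mul_one]
      at this
    rw [hn]
    exact this
  obtain ⟨h00, -, -, -⟩ := s41l_mul_apply (s41l_W L q hqL) n
  obtain ⟨h00', -, -, -⟩ := s41l_mul_apply g (s41l_W L q hqL)
  have e := congrArg (fun m : Mat2 => m 0 0) h1
  simp only [h00, h00'] at e
  have hW00 : (s41l_W L q hqL) 0 0 = (q : ℤ) * s41l_t L q hqL := by rw [s41l_W]; rfl
  have hW01 : (s41l_W L q hqL) 0 1 = -s41l_s L q hqL := by rw [s41l_W]; rfl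
  have hW10 : (s41l_W L q hqL) 1 0 = (q : ℤ) * (L : ℤ) := by rw [s41l_W]; rfl
  rw [hW00, hW01, hW10] at e
  have hdvd : (q : ℤ) ∣ s41l_s L q hqL * n 1 0 :=
    ⟨s41l_t L q hqL * n 0 0 - g 0 0 * s41l_t L q hqL - g 0 1 * (L : ℤ), by
      linear_combination (-1 : ℤ) * e⟩
  have h2 : (q : ℤ) ∣ n 1 0 :=
    ((s41l_prime_int q).dvd_or_dvd hdvd).resolve_left (s59f_not_dvd_s hqL)
  rw [hn, s59f_mul_adj_10] at h2
  exact s59f_rA_inj_of_dvd L q hqL x x' h2

/-! ### The family `{β_j, W}` on `G'` -/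

/-- `{m : det m = q, q ∣ m₁₀, q ∣ m₁₁, cls 1 m} = ⊔_x G' g_x`, `g_j = β_j`, `g_∞ = W`. -/
theorem s59f_dec_B (hG' : s59f_IsG' L q H G') (m : Mat2) (hdet : m.det = q)
    (hC : (q : ℤ) ∣ m 1 0) (hD : (q : ℤ) ∣ m 1 1) (hc : s59f_cls L H 1 m) :
    ∃ (x : OnePoint (ZMod q)) (h : G'), m = s59f_i G' h * s41l_rB L q hqL x := by
  obtain ⟨x, h, hx⟩ := s41l_dec_B L q hqL m hdet (s41l_Ml_dvd L q hqL hc.1 hC) hD
  have hB : s59f_cls L H 1 (s41l_rB L q hqL x) := by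
    induction x using OnePoint.rec with
    | infty => exact s59f_W_cls hqL H
    | coe j =>
      rw [s41l_rB_coe]
      exact ⟨by simp, 1, one_mem _, by simp⟩
  have hh : s59f_cls L H 1 (s41l_i (L * q) h) := by
    have h2 := s59f_cls_cancel (a := s41l_i (L * q) h) hB (by rw [← hx]; exact hc)
    have e1 : (1 : (ZMod L)ˣ) * 1⁻¹ = 1 := by simp
    rw [e1] at h2
    exact h2
  exact ⟨x, ⟨(h : SL(2, ℤ)), hG'.of_Gamma0 h.2 hh⟩, hx⟩

theorem s59f_rB_cls (x : OnePoint (ZMod q)) : s59f_cls L H 1 (s41l_rB L q hqL x) := by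
  induction x using OnePoint.rec with
  | infty => exact s59f_W_cls hqL H
  | coe j =>
    rw [s41l_rB_coe]
    exact ⟨by simp, 1, one_mem _, by simp⟩

theorem s59f_rB_dvd (x : OnePoint (ZMod q)) :
    (q : ℤ) ∣ (s41l_rB L q hqL x) 1 0 ∧ (q : ℤ) ∣ (s41l_rB L q hqL x) 1 1 := by
  induction x using OnePoint.rec with
  | infty =>
    rw [s41l_rB_infty, s41l_W]
    exact ⟨⟨(L : ℤ), rfl⟩, by simp⟩
  | coe j =>
    rw [s41l_rB_coe]
    exact ⟨by simp, by simp⟩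

/-- the family on `G'` with representatives `β_j`, `W`. -/
def s59f_famB (hG' : s59f_IsG' L q H G') : s41l_Fam (s59f_i G') (s59f_i G') (OnePoint (ZMod q)) :=
  s41l_Fam.ofDecomp (s59f_i_injective G') (s41l_rB L q hqL)
    (fun x _ _ h => s48h_mul_right_cancel (by rw [s41l_rB_det]; exact s41l_l_ne_zero q) h)
    (fun x x' h hx => s41l_rB_inj L q hqL x x' (s59f_toGamma0 hqL hG' h) hx)
    {m : Mat2 | m.det = q ∧ (q : ℤ) ∣ m 1 0 ∧ (q : ℤ) ∣ m 1 1 ∧ s59f_cls L H 1 m}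
    (fun x => ⟨s41l_rB_det L q hqL x, (s59f_rB_dvd hqL x).1, (s59f_rB_dvd hqL x).2,
      s59f_rB_cls hqL x⟩)
    (fun m hm γ => by
      obtain ⟨-, -, h10, h11⟩ := s41l_mul_apply m (s59f_i G' γ)
      refine ⟨by rw [Matrix.det_mul, s59f_i_det, mul_one]; exact hm.1, ?_, ?_, ?_⟩
      · rw [h10]
        exact dvd_add (Dvd.dvd.mul_right hm.2.1 _) (Dvd.dvd.mul_left (hG'.dvd γ) _)
      · rw [h11]
        exact dvd_add (Dvd.dvd.mul_right hm.2.1 _) (Dvd.dvd.mul_right hm.2.2.1 _)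
      · have := s59f_cls_mul hm.2.2.2 (hG'.cls γ)
        simpa using this)
    (fun m hm => s59f_dec_B hqL hG' m hm.1 hm.2.1 hm.2.2.1 hm.2.2.2)

theorem s59f_famB_g (hG' : s59f_IsG' L q H G') (x : OnePoint (ZMod q)) :
    (s59f_famB hqL hG').g x = s41l_rB L q hqL x := rfl

/-- the family of `w` on `G'`. -/
def s59f_famW (hG' : s59f_IsG' L q H G') : s41l_Fam (s59f_i G') (s59f_i G') Unit :=
  s59f_famOfDatum (s59f_WDatum hqL hG') (s59f_WDatum_irred hqL hG')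

theorem s59f_famW_op (hG' : s59f_IsG' L q H G') (A : Type*) [AddCommGroup A] :
    (s59f_famW hqL hG').op A = s59f_wH hqL hG' A :=
  s59f_famOfDatum_op _ _ A

theorem s59f_famW_g (hG' : s59f_IsG' L q H G') (u : Unit) :
    (s59f_famW hqL hG').g u = s41l_W L q hqL := rfl

/-- the product family `W r_x` of `cor ∘ w`. -/
def s59f_famCorW (hG : s59f_IsG L H G) (hG' : s59f_IsG' L q H G') :
    s41l_Fam (s59f_i G') (s59f_i G) (Unit × OnePoint (ZMod q)) :=
  (s59f_famW hqL hG').prod (s59f_famCorA hqL hG hG')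
    (fun _ _ x x' h e => ⟨rfl, s59f_W_rA_inj hqL (s59f_i G' h) x x' e⟩)

theorem s59f_famCorW_g (hG : s59f_IsG L H G) (hG' : s59f_IsG' L q H G')
    (x : Unit × OnePoint (ZMod q)) :
    (s59f_famCorW hqL hG hG').g x = s41l_W L q hqL * s59f_rA L q hqL x.2 := rfl

theorem s59f_famCorW_op (hG : s59f_IsG L H G) (hG' : s59f_IsG' L q H G') {A : Type*}
    [AddCommGroup A] (ψ : Additive G' →+ A) :
    (s59f_famCorW hqL hG hG').op A ψ = s59f_corH hqL hG hG' A (s59f_wH hqL hG' A ψ) := by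
  rw [s59f_famCorW, s41l_Fam.op_prod, s59f_famW_op]
  rfl

/-- `W r_x` lies in the set decomposed by `s59f_dec_B`. -/
theorem s59f_W_rA_mem (x : OnePoint (ZMod q)) :
    (s41l_W L q hqL * s59f_rA L q hqL x).det = q ∧
    (q : ℤ) ∣ (s41l_W L q hqL * s59f_rA L q hqL x) 1 0 ∧
    (q : ℤ) ∣ (s41l_W L q hqL * s59f_rA L q hqL x) 1 1 ∧
    s59f_cls L H 1 (s41l_W L q hqL * s59f_rA L q hqL x) := by
  obtain ⟨-, -, h10, h11⟩ := s41l_mul_apply (s41l_W L q hqL) (s59f_rA L q hqL x)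
  have hW10 : (q : ℤ) ∣ (s41l_W L q hqL) 1 0 := by rw [s41l_W]; exact ⟨(L : ℤ), rfl⟩
  have hW11 : (q : ℤ) ∣ (s41l_W L q hqL) 1 1 := by rw [s41l_W]; simp
  refine ⟨by rw [Matrix.det_mul, s41l_W_det, s59f_rA_det, mul_one], ?_, ?_, ?_⟩
  · rw [h10]
    exact dvd_add (Dvd.dvd.mul_right hW10 _) (Dvd.dvd.mul_right hW11 _)
  · rw [h11]
    exact dvd_add (Dvd.dvd.mul_right hW10 _) (Dvd.dvd.mul_right hW11 _)
  · have := s59f_cls_mul (s59f_W_cls hqL H) (s59f_rA_cls L q hqL H x)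
    simpa using this

/-- **`res ∘ cor ∘ w = U_q + w`.** -/
theorem s59f_res_cor_w (hG : s59f_IsG L H G) (hG' : s59f_IsG' L q H G')
    (FU : s41l_Fam (s59f_i G') (s59f_i G') (ZMod q))
    (hU : ∀ j : ZMod q, FU.g j = heckeMatZ q j.val) {A : Type*} [AddCommGroup A]
    (ψ : Additive G' →+ A) :
    s59t_resG (hG'.le hG) A (s59f_corH hqL hG hG' A (s59f_wH hqL hG' A ψ)) =
      FU.op A ψ + s59f_wH hqL hG' A ψ := by
  rw [← s59f_famCorW_op, s59f_op_resTarget]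
  have h2 : (s59f_famB hqL hG').op A =
      (s59f_resTarget (s59f_famCorW hqL hG hG') (hG'.le hG)).op A := by
    refine s41l_Fam.op_eq_of_cosets _ _ 1 (fun m => by rw [one_mul, mul_one])
      (fun a b hab => by rwa [one_mul, one_mul] at hab) (by simp) ?_
    rintro ⟨⟨⟩, x⟩
    obtain ⟨hdet, hC, hD, hc⟩ := s59f_W_rA_mem (H := H) hqL x
    obtain ⟨y, h, hy⟩ := s59f_dec_B hqL hG' _ hdet hC hD hc
    refine ⟨y, h⁻¹, ?_⟩
    show 1 * s41l_rB L q hqL y = s59f_i G' h⁻¹ * (s41l_W L q hqL * s59f_rA L q hqL x)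
    rw [hy, Matrix.one_mul, s59f_i_inv_mul_cancel_left]
  rw [← h2]
  refine AddMonoidHom.ext fun γ => ?_
  obtain ⟨γ, rfl⟩ := Additive.ofMul.surjective γ
  rw [AddMonoidHom.add_apply, FU.op_apply, s59f_wH_apply]
  let σ : OnePoint (ZMod q) → OnePoint (ZMod q) := fun x =>
    x.elim OnePoint.infty (fun j => ((FU.perm γ j : ZMod q) : OnePoint (ZMod q)))
  let γ' : OnePoint (ZMod q) → G' := fun x => x.elim (s59f_cW hqL hG' γ) (fun j => FU.fam γ j)
  rw [(s59f_famB hqL hG').op_apply_of_family ψ γ σ γ' ?_]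
  · have hsum : ∀ f : OnePoint (ZMod q) → A,
        ∑ x : OnePoint (ZMod q), f x = f OnePoint.infty + ∑ j : ZMod q, f (j : OnePoint (ZMod q)) :=
      fun f => Fintype.sum_option f
    rw [hsum, add_comm]
    rfl
  · intro x
    induction x using OnePoint.rec with
    | infty =>
      show s41l_W L q hqL * s59f_i G' γ = s59f_i G' (s59f_cW hqL hG' γ) * s41l_W L q hqL
      exact s59f_cW_spec hqL hG' γ
    | coe j =>
      show heckeMatZ q j.val * s59f_i G' γ =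
        s59f_i G' (FU.fam γ j) * heckeMatZ q (FU.perm γ j).val
      rw [← hU, ← hU]
      exact FU.spec γ j

/-- **`cor ∘ w ∘ res = T_q`.** -/
theorem s59f_cor_w_res (hG : s59f_IsG L H G) (hG' : s59f_IsG' L q H G')
    (FT : s41l_Fam (s59f_i G) (s59f_i G) (OnePoint (ZMod q)))
    (hT1 : ∀ y, ∃ τ : SL(2, ℤ), FT.g y = (τ : Mat2) * heckeRepZ q y)
    (hT2 : ∀ y, s59f_cls L H 1 (FT.g y)) {A : Type*} [AddCommGroup A]
    (φ : Additive G →+ A) :
    s59f_corH hqL hG hG' A (s59f_wH hqL hG' A (s59t_resG (hG'.le hG) A φ)) = FT.op A φ := by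
  rw [← s59f_famCorW_op, ← s59f_famRes_op]
  have hinj : ∀ (i i' : Unit) (k k' : Unit × OnePoint (ZMod q)) (g : G),
      (s59f_famRes (hG'.le hG)).g i * (s59f_famCorW hqL hG hG').g k =
        s59f_i G g * ((s59f_famRes (hG'.le hG)).g i' * (s59f_famCorW hqL hG hG').g k') →
      i = i' ∧ k = k' := by
    rintro _ _ ⟨⟨⟩, x⟩ ⟨⟨⟩, x'⟩ g e
    have e' : (1 : Mat2) * (s41l_W L q hqL * s59f_rA L q hqL x) =
      s59f_i G g * (1 * (s41l_W L q hqL * s59f_rA L q hqL x')) := e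
    rw [Matrix.one_mul, Matrix.one_mul] at e'
    rw [s59f_W_rA_inj hqL (s59f_i G g) x x' e']
    exact ⟨rfl, rfl⟩
  rw [← s41l_Fam.op_prod (s59f_famRes (hG'.le hG)) (s59f_famCorW hqL hG hG') hinj]
  have h2 : FT.op A = ((s59f_famRes (hG'.le hG)).prod (s59f_famCorW hqL hG hG') hinj).op A := by
    refine s41l_Fam.op_eq_of_cosets _ _ 1 (fun m => by rw [one_mul, mul_one])
      (fun a b hab => by rwa [one_mul, one_mul] at hab) (by simp) ?_
    rintro ⟨⟨⟩, ⟨⟩, x⟩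
    obtain ⟨hdet, -, -, hc⟩ := s59f_W_rA_mem (H := H) hqL x
    obtain ⟨y, h₀, hy⟩ := s41l_dec_T L q hqL (s41l_W L q hqL * s59f_rA L q hqL x) hdet hc.1
    obtain ⟨τ, hτ⟩ := hT1 y
    -- `W r_x = (h₀ τ⁻¹) (τ α_y)`
    have e1 : s41l_W L q hqL * s59f_rA L q hqL x =
        ((((h₀ : Gamma0 L) : SL(2, ℤ)) * τ⁻¹ : SL(2, ℤ)) : Mat2) * FT.g y := by
      rw [hτ, Matrix.SpecialLinearGroup.coe_mul, Matrix.mul_assoc,
        s48h_inv_mul_cancel_left_coe]
      exact hy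
    have hk : s59f_cls L H 1 (((((h₀ : Gamma0 L) : SL(2, ℤ)) * τ⁻¹ : SL(2, ℤ)) : Mat2)) := by
      have h3 := s59f_cls_cancel (a := ((((h₀ : Gamma0 L) : SL(2, ℤ)) * τ⁻¹ : SL(2, ℤ)) : Mat2))
        (hT2 y) (by rw [← e1]; exact hc)
      have e2 : (1 : (ZMod L)ˣ) * 1⁻¹ = 1 := by simp
      rw [e2] at h3
      exact h3
    refine ⟨y, (⟨_, (hG _).mpr hk⟩ : G)⁻¹, ?_⟩
    show 1 * FT.g y = s59f_i G (⟨_, (hG _).mpr hk⟩ : G)⁻¹ *
      (1 * (s41l_W L q hqL * s59f_rA L q hqL x))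
    rw [Matrix.one_mul, Matrix.one_mul, e1]
    exact (s59f_i_inv_mul_cancel_left G ⟨_, (hG _).mpr hk⟩ (FT.g y)).symm
  rw [h2]

end Ids

end Fermat.Agent.Lib.S59
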