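/-
PROGRAMME R2 = S59, node [FLR], `T`-side, **level maps at `Γ_H`-level: commutation with Hecke data,
abstract form** (helper4, prefix `s59f_`).  Setting of `FOldH2.lean`–`FOldH4.lean`.
* `s59f_borel_cross` : `α r = β r'` with `α, β` upper triangular mod `q` with unit lower right
  entry forces the bottom rows of `r`, `r'` to be proportional mod `q`;
* **`s59f_corH_datum`** : the transfer `cor : Hom(G', A) → Hom(G, A)` intertwines two irredundant
  matrix data `D'` (on `G'`) and `D` (on `G`) with the same representatives, all upper triangular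
  mod `q` with unit lower right entry;
* `s59f_conjW` : `W⁻¹ m W` for `q ∣ m₁₀` (integral, same determinant, same class);
* **`s59f_wH_datum`** : `w` commutes with a datum `D'` on `G'` whose set of cosets is stable under
  the conjugation by `W` (`hconj`); `s59f_conj_of_dec`.
-/
import Mathlib
import Fermat.Agent.Lib.S59.FOldH4

set_option autoImplicit false
set_option linter.unusedSectionVars false
set_option linter.unusedVariables false
set_option linter.style.haveILetI false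

noncomputable section

namespace Fermat.Agent.Lib.S59

open CongruenceSubgroup ModularCurve.Period
open Fermat.Agent.Lib.ES Fermat.Agent.Lib.S29 Fermat.Agent.Lib.S41 Fermat.Agent.Lib.S48
open scoped MatrixGroups

local notation "Mat2" => Matrix (Fin 2) (Fin 2) ℤ

section Borel

variable {q : ℕ} [hq : Fact q.Prime]

/-- `α r = β r'`, `α`, `β` upper triangular mod `q` with unit lower right entries: the bottom rows
of `r`, `r'` are proportional mod `q`. -/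
theorem s59f_borel_cross (α β r r' : Mat2) (hα : (q : ℤ) ∣ α 1 0) (hβ : (q : ℤ) ∣ β 1 0)
    (hα1 : ¬ (q : ℤ) ∣ α 1 1) (hβ1 : ¬ (q : ℤ) ∣ β 1 1) (hr' : r'.det = 1)
    (e : α * r = β * r') : (q : ℤ) ∣ r 1 0 * r' 1 1 - r 1 1 * r' 1 0 := by
  obtain ⟨-, -, h10, h11⟩ := s41l_mul_apply α r
  obtain ⟨-, -, h10', h11'⟩ := s41l_mul_apply β r'
  have e10 : α 1 0 * r 0 0 + α 1 1 * r 1 0 = β 1 0 * r' 0 0 + β 1 1 * r' 1 0 := by
    rw [← h10, ← h10', e]
  have e11 : α 1 0 * r 0 1 + α 1 1 * r 1 1 = β 1 0 * r' 0 1 + β 1 1 * r' 1 1 := by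
    rw [← h11, ← h11', e]
  obtain ⟨a', ha'⟩ := hα
  obtain ⟨b', hb'⟩ := hβ
  have key : α 1 1 * (β 1 1 * (r 1 0 * r' 1 1 - r 1 1 * r' 1 0)) =
      (q : ℤ) * (β 1 1 * (b' * (r' 0 0 * r' 1 1 - r' 0 1 * r' 1 0) -
        a' * (r 0 0 * r' 1 1 - r 0 1 * r' 1 0))) := by
    rw [ha', hb'] at e10 e11
    linear_combination (β 1 1 * r' 1 1) * e10 - (β 1 1 * r' 1 0) * e11
  have h1 : (q : ℤ) ∣ α 1 1 * (β 1 1 * (r 1 0 * r' 1 1 - r 1 1 * r' 1 0)) := ⟨_, key⟩
  have h2 := ((s41l_prime_int q).dvd_or_dvd h1).resolve_left hα1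
  exact ((s41l_prime_int q).dvd_or_dvd h2).resolve_left hβ1

/-- the lower right entry of `γ ∈ SL(2, ℤ)` with `q ∣ γ₁₀` is prime to `q`. -/
theorem s59f_not_dvd_lr (γ : SL(2, ℤ)) (h : (q : ℤ) ∣ (γ : Mat2) 1 0) :
    ¬ (q : ℤ) ∣ (γ : Mat2) 1 1 := by
  intro h1
  have hdet := γ.det_coe
  rw [Matrix.det_fin_two] at hdet
  refine s41l_not_dvd_one q ?_
  rw [← hdet]
  exact dvd_sub (Dvd.dvd.mul_left h1 _) (Dvd.dvd.mul_left h _)

/-- a product `γ α` with `q ∣ γ₁₀`, `q ∣ α₁₀`, `q ∤ α₁₁` is upper triangular mod `q` with unit lower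
right entry. -/
theorem s59f_borel_mul (γ : SL(2, ℤ)) (α : Mat2) (h : (q : ℤ) ∣ (γ : Mat2) 1 0)
    (hα : (q : ℤ) ∣ α 1 0) (hα1 : ¬ (q : ℤ) ∣ α 1 1) :
    (q : ℤ) ∣ ((γ : Mat2) * α) 1 0 ∧ ¬ (q : ℤ) ∣ ((γ : Mat2) * α) 1 1 := by
  obtain ⟨-, -, h10, h11⟩ := s41l_mul_apply (γ : Mat2) α
  refine ⟨?_, ?_⟩
  · rw [h10]
    exact dvd_add (Dvd.dvd.mul_right h _) (Dvd.dvd.mul_left hα _)
  · rw [h11]
    intro hd
    have h2 : (q : ℤ) ∣ (γ : Mat2) 1 1 * α 1 1 :=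
      (dvd_add_right (Dvd.dvd.mul_right h _)).mp hd
    rcases (s41l_prime_int q).dvd_or_dvd h2 with h3 | h3
    · exact s59f_not_dvd_lr γ h h3
    · exact hα1 h3

end Borel

section CorComm

variable {L q : ℕ} [NeZero L] [hq : Fact q.Prime] (hqL : ¬ q ∣ L) {H : Subgroup (ZMod L)ˣ}
  {G G' : Subgroup SL(2, ℤ)}

/-- **the transfer intertwines matrix data with the same representatives** (upper triangular mod
`q`, unit lower right entry). -/
theorem s59f_corH_datum (hG : s59f_IsG L H G) (hG' : s59f_IsG' L q H G') {X : Type*} [Fintype X]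
    (D : s48h_MatDatum G X) (D' : s48h_MatDatum G' X) (hα : ∀ x, D'.α x = D.α x)
    (hirr : s59w_Irred D) (hirr' : s59w_Irred D')
    (hB : ∀ x, (q : ℤ) ∣ (D.α x) 1 0 ∧ ¬ (q : ℤ) ∣ (D.α x) 1 1)
    {A : Type*} [AddCommGroup A] (ψ : Additive G' →+ A) :
    s59f_corH hqL hG hG' A (D'.heckeHom A ψ) = D.heckeHom A (s59f_corH hqL hG hG' A ψ) := by
  rw [← s59f_famOfDatum_op D hirr, ← s59f_famOfDatum_op D' hirr']
  refine s59f_cor_comm (hG'.le hG) (s59f_famCorA hqL hG hG') (s59f_famOfDatum D hirr)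
    (s59f_famOfDatum D' hirr') hα (s59f_rhoA hqL hG) (fun x => rfl)
    (((0 : ZMod q)) : OnePoint (ZMod q)) (s59f_rA_zero L q hqL) ?_ ψ
  intro y y' x x' h e
  have e' : D'.α y * s59f_rA L q hqL x =
      (((h : G') : SL(2, ℤ)) : Mat2) * D'.α y' * s59f_rA L q hqL x' := by
    rw [Matrix.mul_assoc]
    exact e
  have hb := s59f_borel_mul ((h : G') : SL(2, ℤ)) (D'.α y') (hG'.dvd h)
    (by rw [hα]; exact (hB y').1) (by rw [hα]; exact (hB y').2)
  have hx : x = x' := s59f_rA_inj_of_dvd L q hqL x x'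
    (s59f_borel_cross (D'.α y) ((((h : G') : SL(2, ℤ)) : Mat2) * D'.α y') _ _
      (by rw [hα]; exact (hB y).1) hb.1 (by rw [hα]; exact (hB y).2) hb.2
      (s59f_rA_det L q hqL x') e')
  subst hx
  refine ⟨hirr' y y' h ?_, rfl⟩
  refine s48h_mul_right_cancel (M := s59f_rA L q hqL x)
    (by rw [s59f_rA_det]; exact one_ne_zero) ?_
  rw [e', Matrix.mul_assoc]

end CorComm

section WComm

variable {L q : ℕ} [NeZero L] [hq : Fact q.Prime] (hqL : ¬ q ∣ L) {H : Subgroup (ZMod L)ˣ}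
  {G G' : Subgroup SL(2, ℤ)}

/-- `W⁻¹ m W` for `m₁₀ = q c'`. -/
def s59f_conjW (m : Mat2) (c' : ℤ) : Mat2 :=
  !![((q : ℤ) * m 0 0 + s41l_s L q hqL * m 1 0) * s41l_t L q hqL +
        ((q : ℤ) * m 0 1 + s41l_s L q hqL * m 1 1) * (L : ℤ),
      -(m 0 0 * s41l_s L q hqL) + (q : ℤ) * m 0 1 + s41l_s L q hqL * m 1 1 -
        s41l_s L q hqL ^ 2 * c';
    (q : ℤ) * ((L : ℤ) * (s41l_t L q hqL * (m 1 1 - m 0 0) - (L : ℤ) * m 0 1) +
        s41l_t L q hqL ^ 2 * m 1 0),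
      (L : ℤ) * s41l_s L q hqL * m 0 0 - s41l_t L q hqL * s41l_s L q hqL * m 1 0 -
        (L : ℤ) * (q : ℤ) * m 0 1 + s41l_t L q hqL * (q : ℤ) * m 1 1]

/-- `W · (W⁻¹ m W) = m · W`. -/
theorem s59f_W_mul_conjW (m : Mat2) (c' : ℤ) (hc : m 1 0 = (q : ℤ) * c') :
    s41l_W L q hqL * s59f_conjW hqL m c' = m * s41l_W L q hqL := by
  have hst := s41l_st L q hqL
  have hm : m = !![m 0 0, m 0 1; m 1 0, m 1 1] := Matrix.eta_fin_two m
  rw [s41l_W, s59f_conjW]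
  conv_rhs => rw [hm]
  rw [Matrix.mul_fin_two, Matrix.mul_fin_two]
  have e00 : (q : ℤ) * s41l_t L q hqL *
      (((q : ℤ) * m 0 0 + s41l_s L q hqL * m 1 0) * s41l_t L q hqL +
        ((q : ℤ) * m 0 1 + s41l_s L q hqL * m 1 1) * (L : ℤ)) +
      -s41l_s L q hqL * ((q : ℤ) * ((L : ℤ) * (s41l_t L q hqL * (m 1 1 - m 0 0) -
        (L : ℤ) * m 0 1) + s41l_t L q hqL ^ 2 * m 1 0)) =
      m 0 0 * ((q : ℤ) * s41l_t L q hqL) + m 0 1 * ((q : ℤ) * (L : ℤ)) := by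
    linear_combination ((q : ℤ) * s41l_t L q hqL * m 0 0 + (q : ℤ) * (L : ℤ) * m 0 1) * hst
  have e01 : (q : ℤ) * s41l_t L q hqL *
      (-(m 0 0 * s41l_s L q hqL) + (q : ℤ) * m 0 1 + s41l_s L q hqL * m 1 1 -
        s41l_s L q hqL ^ 2 * c') +
      -s41l_s L q hqL * ((L : ℤ) * s41l_s L q hqL * m 0 0 -
        s41l_t L q hqL * s41l_s L q hqL * m 1 0 - (L : ℤ) * (q : ℤ) * m 0 1 +
        s41l_t L q hqL * (q : ℤ) * m 1 1) =
      m 0 0 * -s41l_s L q hqL + m 0 1 * (q : ℤ) := by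
    rw [hc]
    linear_combination (-(m 0 0 * s41l_s L q hqL) + (q : ℤ) * m 0 1) * hst
  have e10 : (q : ℤ) * (L : ℤ) *
      (((q : ℤ) * m 0 0 + s41l_s L q hqL * m 1 0) * s41l_t L q hqL +
        ((q : ℤ) * m 0 1 + s41l_s L q hqL * m 1 1) * (L : ℤ)) +
      (q : ℤ) * ((q : ℤ) * ((L : ℤ) * (s41l_t L q hqL * (m 1 1 - m 0 0) -
        (L : ℤ) * m 0 1) + s41l_t L q hqL ^ 2 * m 1 0)) =
      m 1 0 * ((q : ℤ) * s41l_t L q hqL) + m 1 1 * ((q : ℤ) * (L : ℤ)) := by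
    linear_combination ((q : ℤ) * s41l_t L q hqL * m 1 0 + (L : ℤ) * (q : ℤ) * m 1 1) * hst
  have e11 : (q : ℤ) * (L : ℤ) *
      (-(m 0 0 * s41l_s L q hqL) + (q : ℤ) * m 0 1 + s41l_s L q hqL * m 1 1 -
        s41l_s L q hqL ^ 2 * c') +
      (q : ℤ) * ((L : ℤ) * s41l_s L q hqL * m 0 0 -
        s41l_t L q hqL * s41l_s L q hqL * m 1 0 - (L : ℤ) * (q : ℤ) * m 0 1 +
        s41l_t L q hqL * (q : ℤ) * m 1 1) =
      m 1 0 * -s41l_s L q hqL + m 1 1 * (q : ℤ) := by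
    rw [hc]
    linear_combination ((q : ℤ) * m 1 1 - s41l_s L q hqL * (q : ℤ) * c') * hst
  rw [e00, e01, e10, e11]

theorem s59f_conjW_det (m : Mat2) (c' : ℤ) (hc : m 1 0 = (q : ℤ) * c') :
    (s59f_conjW hqL m c').det = m.det := by
  have h := congrArg Matrix.det (s59f_W_mul_conjW hqL m c' hc)
  rw [Matrix.det_mul, Matrix.det_mul, s41l_W_det, mul_comm] at h
  exact mul_right_cancel₀ (s41l_l_ne_zero q) h

theorem s59f_conjW_dvd (m : Mat2) (c' : ℤ) : (q : ℤ) ∣ (s59f_conjW hqL m c') 1 0 := by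
  rw [s59f_conjW]
  exact ⟨_, rfl⟩

/-- the conjugate has the same class. -/
theorem s59f_conjW_cls (m : Mat2) (c' : ℤ) {c : (ZMod L)ˣ} (hm : s59f_cls L H c m) :
    s59f_cls L H c (s59f_conjW hqL m c') := by
  obtain ⟨⟨e, he⟩, u, hu, hmu⟩ := hm
  refine ⟨?_, u, hu, ?_⟩
  · rw [s59f_conjW]
    simp only [Matrix.of_apply, Matrix.cons_val_zero, Matrix.cons_val_one,
      Matrix.cons_val', Matrix.empty_val', Matrix.cons_val_fin_one]
    rw [he]
    exact ⟨(q : ℤ) * (s41l_t L q hqL * (m 1 1 - m 0 0) - (L : ℤ) * m 0 1 +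
      s41l_t L q hqL ^ 2 * e), by ring⟩
  · rw [s59f_conjW]
    simp only [Matrix.of_apply, Matrix.cons_val_zero,
      Matrix.cons_val', Matrix.empty_val', Matrix.cons_val_fin_one]
    have h1 : (((q : ℤ) * m 0 0 + s41l_s L q hqL * m 1 0) * s41l_t L q hqL +
        ((q : ℤ) * m 0 1 + s41l_s L q hqL * m 1 1) * (L : ℤ) : ℤ) =
        ((q : ℤ) * s41l_t L q hqL) * m 0 0 +
          (L : ℤ) * (s41l_s L q hqL * e * s41l_t L q hqL + (q : ℤ) * m 0 1 +
            s41l_s L q hqL * m 1 1) := by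
      rw [he]
      ring
    rw [h1, Int.cast_add, Int.cast_mul, s59f_qt_cast hqL, one_mul, Int.cast_mul (L : ℤ),
      Int.cast_natCast, ZMod.natCast_self, zero_mul, add_zero]
    exact hmu

/-- from a decomposition of the conjugate to the matching of `α W` and `W α'`. -/
theorem s59f_conj_of_dec (hG' : s59f_IsG' L q H G') (m m' α' : Mat2)
    (hW : s41l_W L q hqL * m' = m * s41l_W L q hqL) (k' : G') (hm' : m' = s59f_i G' k' * α') :
    m * s41l_W L q hqL = s59f_i G' (s59f_cW hqL hG' k') * (s41l_W L q hqL * α') := by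
  rw [← hW, hm', ← Matrix.mul_assoc, s59f_cW_spec hqL hG' k', Matrix.mul_assoc]

/-- **`w` commutes with a datum on `G'` whose cosets are permuted by the conjugation by `W`.** -/
theorem s59f_wH_datum (hG' : s59f_IsG' L q H G') {X : Type*} [Fintype X]
    (D' : s48h_MatDatum G' X) {m : ℤ} (hirr : s59w_Irr D' m) (hqm : IsCoprime (q : ℤ) m)
    (hconj : ∀ x, ∃ (x' : X) (k : G'),
      D'.α x * s41l_W L q hqL = s59f_i G' k * (s41l_W L q hqL * D'.α x'))
    {A : Type*} [AddCommGroup A] (ψ : Additive G' →+ A) :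
    s59f_wH hqL hG' A (D'.heckeHom A ψ) = D'.heckeHom A (s59f_wH hqL hG' A ψ) := by
  refine s59w_comm_of_match D' (s59f_WDatum hqL hG') ?_ ?_ ?_ ψ
  · exact s59w_irred_prod hirr (s59f_WDatum_irr hqL hG' 1) (fun _ => isCoprime_one_right)
  · refine s59w_irred_prod (s59f_WDatum_irr hqL hG' 1) hirr (fun _ => ?_)
    show IsCoprime (s41l_W L q hqL).det m
    rw [s41l_W_det]
    exact hqm
  · intro x _
    obtain ⟨x', k, hk⟩ := hconj x
    exact ⟨(), x', k, hk⟩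

end WComm

end Fermat.Agent.Lib.S59
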